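import Mathlib

set_option autoImplicit false

/-! # Project G, piece G9 (Frobenius density): shared definitions (helper9)

* `PG_idealCount M n` : the number of ideals of `𝓞 M` of norm `n`, i.e. the `n`-th coefficient of
  the Dedekind zeta function of the number field `M`; for `n = p` prime it is the number of
  degree-one primes of `M` above `p`.
* `PG_primeSum M s` : the prime zeta sum `∑_p a_M(p) p^{-s}`.
-/

open NumberField

namespace Fermat.Agent.G_helper9_FDDefs

/-- `a_M(n)`: the number of ideals of `𝓞 M` of norm `n`. -/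
noncomputable def PG_idealCount (M : Type*) [Field M] [NumberField M] (n : ℕ) : ℕ :=
  Nat.card {I : Ideal (𝓞 M) // Ideal.absNorm I = n}

/-- The prime zeta sum `∑_p a_M(p) p^{-s}` of the number field `M`. -/
noncomputable def PG_primeSum (M : Type*) [Field M] [NumberField M] (s : ℝ) : ℝ :=
  ∑' p : Nat.Primes, (PG_idealCount M p : ℝ) * ((p : ℕ) : ℝ) ^ (-s)

theorem PG_idealCount_def (M : Type*) [Field M] [NumberField M] (n : ℕ) :
    PG_idealCount M n = Nat.card {I : Ideal (𝓞 M) // Ideal.absNorm I = n} := rfl

theorem PG_primeSum_def (M : Type*) [Field M] [NumberField M] (s : ℝ) :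
    PG_primeSum M s = ∑' p : Nat.Primes, (PG_idealCount M p : ℝ) * ((p : ℕ) : ℝ) ^ (-s) := rfl

/-- the Dedekind zeta function of `M` is the `L`-series of `PG_idealCount M`. -/
theorem PG_dedekindZeta_eq (M : Type*) [Field M] [NumberField M] (s : ℂ) :
    dedekindZeta M s = LSeries (fun n => (PG_idealCount M n : ℂ)) s := rfl

end Fermat.Agent.G_helper9_FDDefs
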