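import Mathlib
import Fermat.Agent.G_helper9_FDDefs

set_option autoImplicit false

/-! # Project G, piece G9b-COUNT (helper10)

`L/ℚ` finite Galois, `H ≤ Gal(L/ℚ)`, `M = L^H`, `P` a prime of `𝓞 L` over `ℓ` with trivial inertia
(elementwise), `φ` a Frobenius at `P`.  Then

  `|H| * #{ideals of 𝓞 M of norm ℓ} = #{g : g⁻¹ φ g ∈ H}`   (`PG9b_count`).

Route: `g ↦ (g⁻¹ P) ∩ 𝓞 M` maps `{g : g⁻¹ φ g ∈ H}` onto the ideals of norm `ℓ`
(`PG9b_mem_iff`, `PG9b_exists_over`), and every fibre is a left coset of `H` (`PG9b_fibre`),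
because the decomposition group of a prime with trivial inertia over a degree-one prime of `M`
lies in `H` (`PG9b_stabilizer_le`, from Mathlib's `Ideal.Quotient.stabilizerHom_surjective`).
-/

open NumberField Fermat.Agent.G_helper9_FDDefs
open scoped Pointwise

namespace Fermat.Agent.G_helper10_G9bCOUNT

section setup

variable (L : Type*) [Field L] [NumberField L] (H : Subgroup Gal(L/ℚ))

theorem PG9b_coe_smulH (h : H) (x : 𝓞 L) : ((h • x : 𝓞 L) : L) = (h : Gal(L/ℚ)) (x : L) := by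
  rfl

theorem PG9b_coe_algebraMap (a : 𝓞 (IntermediateField.fixedField H)) :
    ((algebraMap (𝓞 (IntermediateField.fixedField H)) (𝓞 L) a : 𝓞 L) : L) =
      ((a : IntermediateField.fixedField H) : L) := by
  rfl

/-- elements of `H` fix the image of `𝓞 M`. -/
theorem PG9b_smul_algebraMap (h : H) (a : 𝓞 (IntermediateField.fixedField H)) :
    h • (algebraMap (𝓞 (IntermediateField.fixedField H)) (𝓞 L) a) =
      algebraMap (𝓞 (IntermediateField.fixedField H)) (𝓞 L) a := by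
  apply RingOfIntegers.ext
  rw [PG9b_coe_smulH, PG9b_coe_algebraMap]
  exact (IntermediateField.mem_fixedField_iff H _).1 (a : IntermediateField.fixedField H).2 h h.2

theorem PG9b_smul_algebraMap' (ψ : Gal(L/ℚ)) (hψ : ψ ∈ H)
    (a : 𝓞 (IntermediateField.fixedField H)) :
    ψ • (algebraMap (𝓞 (IntermediateField.fixedField H)) (𝓞 L) a) =
      algebraMap (𝓞 (IntermediateField.fixedField H)) (𝓞 L) a :=
  PG9b_smul_algebraMap L H ⟨ψ, hψ⟩ a

theorem PG9b_smulCommClass :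
    SMulCommClass H (𝓞 (IntermediateField.fixedField H)) (𝓞 L) where
  smul_comm h a b := by
    rw [Algebra.smul_def, Algebra.smul_def, smul_mul', PG9b_smul_algebraMap]

theorem PG9b_isInvariant :
    Algebra.IsInvariant (𝓞 (IntermediateField.fixedField H)) (𝓞 L) H where
  isInvariant b hb := by
    have hmem : (b : L) ∈ IntermediateField.fixedField H := by
      rw [IntermediateField.mem_fixedField_iff]
      intro f hf
      exact congrArg (fun y : 𝓞 L => (y : L)) (hb ⟨f, hf⟩)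
    have hint : IsIntegral ℤ (⟨(b : L), hmem⟩ : IntermediateField.fixedField H) := by
      have h1 : IsIntegral ℤ (b : L) := RingOfIntegers.isIntegral_coe b
      exact (isIntegral_algebraMap_iff
        (algebraMap (IntermediateField.fixedField H) L).injective).1 h1
    refine ⟨⟨⟨(b : L), hmem⟩, hint⟩, ?_⟩
    apply RingOfIntegers.ext
    rfl

end setup

theorem PG9b_natDegree_X_pow_sub_X {k : Type*} [CommRing k] [Nontrivial k] {p : ℕ} (hp : 1 < p) :
    (Polynomial.X ^ p - Polynomial.X : Polynomial k).natDegree = p := by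
  have h1 : (Polynomial.X : Polynomial k).degree < (Polynomial.X ^ p : Polynomial k).degree := by
    rw [Polynomial.degree_X_pow, Polynomial.degree_X]
    exact mod_cast hp
  rw [Polynomial.natDegree_eq_of_degree_eq (Polynomial.degree_sub_eq_left_of_degree_lt h1),
    Polynomial.natDegree_X_pow]

/-- a finite domain of characteristic dividing `ℓ` all of whose elements satisfy `x ^ ℓ = x` has
exactly `ℓ` elements. -/
theorem PG9b_card_of_pow_eq {k : Type*} [CommRing k] [IsDomain k] [Finite k] (ℓ : ℕ)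
    (hℓ : ℓ.Prime) (h0 : (ℓ : k) = 0) (hpow : ∀ x : k, x ^ ℓ = x) : Nat.card k = ℓ := by
  classical
  have := Fintype.ofFinite k
  have hdeg := PG9b_natDegree_X_pow_sub_X (k := k) hℓ.one_lt
  have hle : Nat.card k ≤ ℓ := by
    have h1 : (Polynomial.X ^ ℓ - Polynomial.X : Polynomial k) ≠ 0 := by
      intro h
      rw [h, Polynomial.natDegree_zero] at hdeg
      exact hℓ.ne_zero hdeg.symm
    have h2 := Polynomial.card_le_degree_of_subset_roots
      (p := (Polynomial.X ^ ℓ - Polynomial.X : Polynomial k)) (Z := Finset.univ) (by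
        intro x _
        rw [Polynomial.mem_roots h1]
        simp [hpow x])
    rw [hdeg] at h2
    rw [Nat.card_eq_fintype_card]
    simpa using h2
  have hdvd : ℓ ∣ Nat.card k := by
    have : CharP k ℓ := (CharP.charP_iff_prime_eq_zero hℓ).2 h0
    have h3 : addOrderOf (1 : k) = ℓ := CharP.eq k (CharP.addOrderOf_one k) inferInstance
    rw [← h3]
    exact addOrderOf_dvd_natCard (1 : k)
  exact le_antisymm hle (Nat.le_of_dvd Nat.card_pos hdvd)

section main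

variable {L : Type*} [Field L] [NumberField L] (H : Subgroup Gal(L/ℚ))

theorem PG9b_natCast_mem_under (ℓ : ℕ) (Q : Ideal (𝓞 L)) (hQ : (ℓ : 𝓞 L) ∈ Q) :
    (ℓ : 𝓞 (IntermediateField.fixedField H)) ∈
      Q.under (𝓞 (IntermediateField.fixedField H)) := by
  rw [Ideal.mem_comap, map_natCast]
  exact hQ

/-- (L1) if some `ψ ∈ H` is a Frobenius at the prime `Q ∋ ℓ`, then `Q ∩ 𝓞 M` has norm `ℓ`. -/
theorem PG9b_absNorm_under_of_frob (ℓ : ℕ) (hℓ : ℓ.Prime) (Q : Ideal (𝓞 L)) [Q.IsPrime]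
    (hQ : (ℓ : 𝓞 L) ∈ Q) (ψ : Gal(L/ℚ)) (hψH : ψ ∈ H) (hψ : ∀ x : 𝓞 L, ψ • x - x ^ ℓ ∈ Q) :
    Ideal.absNorm (Q.under (𝓞 (IntermediateField.fixedField H))) = ℓ := by
  have hℓ𝔮 := PG9b_natCast_mem_under H ℓ Q hQ
  have hne : Q.under (𝓞 (IntermediateField.fixedField H)) ≠ ⊥ := by
    intro h
    rw [h, Ideal.mem_bot] at hℓ𝔮
    exact hℓ.ne_zero (by exact_mod_cast hℓ𝔮)
  have : Finite (𝓞 (IntermediateField.fixedField H) ⧸
      Q.under (𝓞 (IntermediateField.fixedField H))) :=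
    Ideal.finiteQuotientOfFreeOfNeBot _ hne
  rw [Ideal.absNorm_apply, Submodule.cardQuot_apply]
  apply PG9b_card_of_pow_eq ℓ hℓ
  · have := Ideal.Quotient.eq_zero_iff_mem.2 hℓ𝔮
    simpa using this
  · intro x
    obtain ⟨a, rfl⟩ := Ideal.Quotient.mk_surjective x
    rw [← map_pow, Ideal.Quotient.eq, Ideal.mem_comap, map_sub, map_pow]
    have h1 := hψ (algebraMap _ _ a)
    rw [PG9b_smul_algebraMap' L H ψ hψH a] at h1
    have h2 := Q.neg_mem h1
    rwa [neg_sub] at h2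

/-- (K') a prime `Q` of `𝓞 L` with trivial inertia whose contraction to `𝓞 M` has prime norm `ℓ`
has its decomposition group contained in `H`. -/
theorem PG9b_stabilizer_le (ℓ : ℕ) (hℓ : ℓ.Prime) (Q : Ideal (𝓞 L)) [Q.IsPrime]
    (hnorm : Ideal.absNorm (Q.under (𝓞 (IntermediateField.fixedField H))) = ℓ)
    (hunr : ∀ g : Gal(L/ℚ), (∀ x : 𝓞 L, g • x - x ∈ Q) → g = 1)
    (d : Gal(L/ℚ)) (hd : d • Q = Q) : d ∈ H := by
  have := PG9b_smulCommClass L H
  have := PG9b_isInvariant L H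
  have : Fact ℓ.Prime := ⟨hℓ⟩
  have hcard : Nat.card (𝓞 (IntermediateField.fixedField H) ⧸
      Q.under (𝓞 (IntermediateField.fixedField H))) = ℓ := by
    rw [← hnorm, Ideal.absNorm_apply, Submodule.cardQuot_apply]
  -- every element of the residue field below is an integer
  have hint : ∀ a : 𝓞 (IntermediateField.fixedField H) ⧸
      Q.under (𝓞 (IntermediateField.fixedField H)), ∃ n : ℤ, (n : 𝓞 (IntermediateField.fixedField H) ⧸
      Q.under (𝓞 (IntermediateField.fixedField H))) = a := by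
    intro a
    have h1 : (1 : 𝓞 (IntermediateField.fixedField H) ⧸
      Q.under (𝓞 (IntermediateField.fixedField H))) ≠ 0 := one_ne_zero
    have h2 := zmultiples_eq_top_of_prime_card hcard h1
    have h3 : a ∈ AddSubgroup.zmultiples (1 : 𝓞 (IntermediateField.fixedField H) ⧸
      Q.under (𝓞 (IntermediateField.fixedField H))) := by
      rw [h2]; trivial
    obtain ⟨n, hn⟩ := AddSubgroup.mem_zmultiples_iff.1 h3
    exact ⟨n, by rw [← hn]; simp⟩
  -- the automorphism of the residue field induced by `d`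
  let e₀ := Ideal.Quotient.stabilizerHom Q (Q.under ℤ) Gal(L/ℚ) ⟨d, hd⟩
  let l : (𝓞 L ⧸ Q) ≃ₐ[𝓞 (IntermediateField.fixedField H) ⧸
      Q.under (𝓞 (IntermediateField.fixedField H))] (𝓞 L ⧸ Q) :=
    AlgEquiv.ofRingEquiv (f := e₀.toRingEquiv) (by
      intro a
      obtain ⟨n, rfl⟩ := hint a
      simp)
  obtain ⟨⟨h', hh'⟩, hl⟩ := Ideal.Quotient.stabilizerHom_surjective H
    (Q.under (𝓞 (IntermediateField.fixedField H))) Q l
  have key : ∀ x : 𝓞 L, h' • x - d • x ∈ Q := by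
    intro x
    have h1 := DFunLike.congr_fun hl (Ideal.Quotient.mk Q x)
    rw [Ideal.Quotient.stabilizerHom_apply] at h1
    have h2 : l (Ideal.Quotient.mk Q x) = Ideal.Quotient.mk Q (d • x) := rfl
    rw [h2] at h1
    exact Ideal.Quotient.eq.1 h1
  have hd1 : d⁻¹ * (h' : Gal(L/ℚ)) = 1 := by
    apply hunr
    intro x
    have h1 := key x
    have h2 : d⁻¹ • ((h' : Gal(L/ℚ)) • x - d • x) ∈ Q := by
      have : ((h' : Gal(L/ℚ)) • x - d • x) ∈ d • Q := by rw [hd]; exact h1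
      exact Ideal.mem_pointwise_smul_iff_inv_smul_mem.1 this
    rw [smul_sub, inv_smul_smul, ← mul_smul] at h2
    exact h2
  have : (h' : Gal(L/ℚ)) = d := by
    have := congrArg (fun y => d * y) hd1
    simpa using this
  rw [← this]
  exact h'.2

end main


section count

variable {L : Type*} [Field L] [NumberField L]

theorem PG9b_natCast_mem_smul (ℓ : ℕ) (P : Ideal (𝓞 L)) (hP : (ℓ : 𝓞 L) ∈ P) (g : Gal(L/ℚ)) :
    (ℓ : 𝓞 L) ∈ g⁻¹ • P := by
  rw [Ideal.mem_inv_pointwise_smul_iff]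
  have : g • (ℓ : 𝓞 L) = (ℓ : 𝓞 L) := map_natCast (MulSemiringAction.toRingHom _ (𝓞 L) g) ℓ
  rw [this]
  exact hP

theorem PG9b_unr_smul (P : Ideal (𝓞 L))
    (hunr : ∀ g : Gal(L/ℚ), (∀ x : 𝓞 L, g • x - x ∈ P) → g = 1) (g : Gal(L/ℚ)) :
    ∀ τ : Gal(L/ℚ), (∀ x : 𝓞 L, τ • x - x ∈ g⁻¹ • P) → τ = 1 := by
  intro τ hτ
  have h1 : g * τ * g⁻¹ = 1 := by
    apply hunr
    intro y
    have := hτ (g⁻¹ • y)
    rw [Ideal.mem_inv_pointwise_smul_iff, smul_sub, smul_inv_smul, ← mul_smul, ← mul_smul] at this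
    exact this
  have h2 := congrArg (fun y => g⁻¹ * y * g) h1
  simpa [mul_assoc] using h2

theorem PG9b_frob_smul (ℓ : ℕ) (P : Ideal (𝓞 L)) (φ : Gal(L/ℚ))
    (hφ : ∀ x : 𝓞 L, φ • x - x ^ ℓ ∈ P) (g : Gal(L/ℚ)) :
    ∀ x : 𝓞 L, (g⁻¹ * φ * g) • x - x ^ ℓ ∈ g⁻¹ • P := by
  intro x
  rw [Ideal.mem_inv_pointwise_smul_iff, smul_sub, smul_pow', ← mul_smul]
  have : g * (g⁻¹ * φ * g) = φ * g := by group
  rw [this, mul_smul]
  exact hφ (g • x)

theorem PG9b_frob_stab (ℓ : ℕ) (hℓ : ℓ ≠ 0) (P : Ideal (𝓞 L)) (φ : Gal(L/ℚ))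
    (hφ : ∀ x : 𝓞 L, φ • x - x ^ ℓ ∈ P) : φ • P = P := by
  have h1 : P ≤ φ⁻¹ • P := by
    intro x hx
    rw [Ideal.mem_inv_pointwise_smul_iff]
    have h2 := hφ x
    have h3 : x ^ ℓ ∈ P := Ideal.pow_mem_of_mem P hx ℓ (Nat.pos_of_ne_zero hℓ)
    have := P.add_mem h2 h3
    simpa using this
  have h2 : φ⁻¹ • P = P := smul_eq_of_le_smul h1
  have h3 := congrArg (fun I => φ • I) h2
  simpa using h3.symm

variable (H : Subgroup Gal(L/ℚ))
  (ℓ : ℕ) (hℓ : ℓ.Prime) (P : Ideal (𝓞 L)) [P.IsPrime] (hP : (ℓ : 𝓞 L) ∈ P)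
  (hunr : ∀ g : Gal(L/ℚ), (∀ x : 𝓞 L, g • x - x ∈ P) → g = 1)
  (φ : Gal(L/ℚ)) (hφ : ∀ x : 𝓞 L, φ • x - x ^ ℓ ∈ P)

include hℓ hP hunr hφ in
/-- (L4') `g⁻¹ φ g ∈ H` iff the prime `g⁻¹ P ∩ 𝓞 M` has norm `ℓ`. -/
theorem PG9b_mem_iff (g : Gal(L/ℚ)) :
    g⁻¹ * φ * g ∈ H ↔
      Ideal.absNorm ((g⁻¹ • P).under (𝓞 (IntermediateField.fixedField H))) = ℓ := by
  constructor
  · intro h
    exact PG9b_absNorm_under_of_frob H ℓ hℓ (g⁻¹ • P) (PG9b_natCast_mem_smul ℓ P hP g) _ h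
      (PG9b_frob_smul ℓ P φ hφ g)
  · intro h
    apply PG9b_stabilizer_le H ℓ hℓ (g⁻¹ • P) h (PG9b_unr_smul P hunr g)
    rw [← mul_smul]
    have : g⁻¹ * φ * g * g⁻¹ = g⁻¹ * φ := by group
    rw [this, mul_smul, PG9b_frob_stab ℓ hℓ.ne_zero P φ hφ]

omit [NumberField L] in
theorem PG9b_under_int (ℓ : ℕ) (hℓ : ℓ.Prime) (R : Ideal (𝓞 L)) [R.IsPrime]
    (hR : (ℓ : 𝓞 L) ∈ R) : R.under ℤ = Ideal.span {(ℓ : ℤ)} := by
  have : Fact ℓ.Prime := ⟨hℓ⟩
  symm
  apply Ideal.IsMaximal.eq_of_le (Int.ideal_span_isMaximal_of_prime ℓ) Ideal.IsPrime.ne_top'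
  rw [Ideal.span_singleton_le_iff_mem, Ideal.mem_comap]
  simpa using hR

include hℓ hP in
/-- (L5) every ideal of `𝓞 M` of norm `ℓ` is of the form `g⁻¹ P ∩ 𝓞 M`. -/
theorem PG9b_exists_over [IsGalois ℚ L] (I : Ideal (𝓞 (IntermediateField.fixedField H)))
    (hI : Ideal.absNorm I = ℓ) :
    ∃ g : Gal(L/ℚ), (g⁻¹ • P).under (𝓞 (IntermediateField.fixedField H)) = I := by
  have hIp : I.IsPrime := Ideal.isPrime_of_irreducible_absNorm (by rw [hI]; exact hℓ)
  obtain ⟨Q, -, hQp, hQI⟩ := Ideal.exists_ideal_over_prime_of_isIntegral I (⊥ : Ideal (𝓞 L))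
    (by
      intro x hx
      rw [Ideal.mem_comap, Ideal.mem_bot] at hx
      have : x = 0 := by
        apply (FaithfulSMul.algebraMap_injective (𝓞 (IntermediateField.fixedField H)) (𝓞 L))
        rw [hx, map_zero]
      rw [this]
      exact I.zero_mem)
  have hℓI : (ℓ : 𝓞 (IntermediateField.fixedField H)) ∈ I := by
    have := Ideal.absNorm_mem I
    rwa [hI] at this
  have hℓQ : (ℓ : 𝓞 L) ∈ Q := by
    have : algebraMap (𝓞 (IntermediateField.fixedField H)) (𝓞 L) ℓ ∈ Q := by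
      rw [← Ideal.mem_comap, hQI]
      exact hℓI
    simpa using this
  obtain ⟨g, hg⟩ := Algebra.IsInvariant.exists_smul_of_under_eq ℤ (𝓞 L) Gal(L/ℚ) P Q
    ((PG9b_under_int ℓ hℓ P hP).trans (PG9b_under_int ℓ hℓ Q hℓQ).symm)
  refine ⟨g⁻¹, ?_⟩
  rw [inv_inv, ← hg]
  exact hQI

include hℓ hunr in
/-- (L6) the fibre of `g ↦ g⁻¹ P ∩ 𝓞 M` over an ideal of norm `ℓ` is a left coset of `H`. -/
theorem PG9b_fibre (g₀ g : Gal(L/ℚ))
    (h₀ : Ideal.absNorm ((g₀⁻¹ • P).under (𝓞 (IntermediateField.fixedField H))) = ℓ)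
    (h : (g⁻¹ • P).under (𝓞 (IntermediateField.fixedField H)) =
      (g₀⁻¹ • P).under (𝓞 (IntermediateField.fixedField H))) : g₀⁻¹ * g ∈ H := by
  have := PG9b_smulCommClass L H
  have := PG9b_isInvariant L H
  obtain ⟨η, hη⟩ := Algebra.IsInvariant.exists_smul_of_under_eq
    (𝓞 (IntermediateField.fixedField H)) (𝓞 L) H (g₀⁻¹ • P) (g⁻¹ • P) h.symm
  have hη' : g⁻¹ • P = (η : Gal(L/ℚ)) • (g₀⁻¹ • P) := hη
  have he : (g₀⁻¹ * g * (η : Gal(L/ℚ))) ∈ H := by
    apply PG9b_stabilizer_le H ℓ hℓ (g₀⁻¹ • P) h₀ (PG9b_unr_smul P hunr g₀)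
    rw [mul_smul, ← hη', mul_smul, smul_inv_smul]
  have := H.mul_mem he (H.inv_mem η.2)
  simpa [mul_assoc] using this

end count

theorem PG9b_count (L : Type*) [Field L] [NumberField L] [IsGalois ℚ L]
    (H : Subgroup Gal(L/ℚ)) (ℓ : ℕ) (hℓ : ℓ.Prime) (P : Ideal (𝓞 L)) [P.IsPrime]
    (hP : (ℓ : 𝓞 L) ∈ P)
    (hunr : ∀ g : Gal(L/ℚ), (∀ x : 𝓞 L, g • x - x ∈ P) → g = 1)
    (φ : Gal(L/ℚ)) (hφ : ∀ x : 𝓞 L, φ • x - x ^ ℓ ∈ P) :
    Nat.card H * PG_idealCount (IntermediateField.fixedField H) ℓ =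
      Nat.card {g : Gal(L/ℚ) // g⁻¹ * φ * g ∈ H} := by
  classical
  have := PG9b_smulCommClass L H
  have hex : ∀ I : {I : Ideal (𝓞 (IntermediateField.fixedField H)) // Ideal.absNorm I = ℓ},
      ∃ g : Gal(L/ℚ), (g⁻¹ • P).under (𝓞 (IntermediateField.fixedField H)) = I.1 :=
    fun I => PG9b_exists_over H ℓ hℓ P hP I.1 I.2
  choose g₀ hg₀ using hex
  have hunder : ∀ (I : {I : Ideal (𝓞 (IntermediateField.fixedField H)) // Ideal.absNorm I = ℓ})
      (h : H), ((g₀ I * (h : Gal(L/ℚ)))⁻¹ • P).under (𝓞 (IntermediateField.fixedField H)) =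
        I.1 := by
    intro I h
    rw [mul_inv_rev, mul_smul, ← hg₀ I]
    exact Ideal.under_smul (𝓞 (IntermediateField.fixedField H)) ((g₀ I)⁻¹ • P) (h⁻¹ : H)
  have hmemX : ∀ (I : {I : Ideal (𝓞 (IntermediateField.fixedField H)) // Ideal.absNorm I = ℓ})
      (h : H), (g₀ I * (h : Gal(L/ℚ)))⁻¹ * φ * (g₀ I * (h : Gal(L/ℚ))) ∈ H := by
    intro I h
    rw [PG9b_mem_iff H ℓ hℓ P hP hunr φ hφ, hunder I h]
    exact I.2
  let F : {I : Ideal (𝓞 (IntermediateField.fixedField H)) // Ideal.absNorm I = ℓ} × H →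
      {g : Gal(L/ℚ) // g⁻¹ * φ * g ∈ H} := fun x => ⟨g₀ x.1 * x.2, hmemX x.1 x.2⟩
  have hF : Function.Bijective F := by
    constructor
    · rintro ⟨I, h⟩ ⟨I', h'⟩ hEq
      have h1 : g₀ I * (h : Gal(L/ℚ)) = g₀ I' * (h' : Gal(L/ℚ)) := congrArg Subtype.val hEq
      have hI : I = I' := by
        apply Subtype.ext
        rw [← hunder I h, ← hunder I' h', h1]
      subst hI
      have : (h : Gal(L/ℚ)) = h' := mul_left_cancel h1
      exact Prod.ext rfl (Subtype.ext this)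
    · rintro ⟨g, hg⟩
      have hn := (PG9b_mem_iff H ℓ hℓ P hP hunr φ hφ g).1 hg
      let I : {I : Ideal (𝓞 (IntermediateField.fixedField H)) // Ideal.absNorm I = ℓ} :=
        ⟨(g⁻¹ • P).under (𝓞 (IntermediateField.fixedField H)), hn⟩
      have hfib := PG9b_fibre H ℓ hℓ P hunr (g₀ I) g (by rw [hg₀ I]; exact hn) (hg₀ I).symm
      refine ⟨(I, ⟨(g₀ I)⁻¹ * g, hfib⟩), ?_⟩
      apply Subtype.ext
      change g₀ I * ((g₀ I)⁻¹ * g) = g
      group
  rw [← Nat.card_congr (Equiv.ofBijective F hF), Nat.card_prod, mul_comm]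
  rfl

end Fermat.Agent.G_helper10_G9bCOUNT
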