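import Mathlib
import Fermat.Prelude.Def_ModularCurve_ReductionModL

/-!
# S18, glue lemmas for the final assembly of `core` (carrier independent)

* `S18G_coeffMap_mem`: a field homomorphism `φ : K1 →+* K` maps the level-`N` function field over
  `K1` into the one over `K` (coefficientwise).
* `S18G_bar_eq`: `modularFunctionFieldBar N = modularFunctionFieldFullC ℚ̄ N`.
* `S18G_exists_finset`: every element of the function field over `K` is defined over every
  intermediate field containing a suitable finite set of constants.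
* `S18G_exists_lift`: descent of integrality of the coefficients.
-/

set_option autoImplicit false

open HahnSeries IntermediateField ModularCurve

namespace Fermat.Agent.S18_helper25_GLUE

section Functoriality

variable {K1 K : Type*} [Field K1] [Field K]

theorem S18G_coeffMap_algebraMap (φ : K1 →+* K) (c : K1) :
    coeffMap φ (algebraMap K1 (LaurentSeries K1) c) = algebraMap K (LaurentSeries K) (φ c) := by
  rw [algebraMap_laurentSeries_eq_single, algebraMap_laurentSeries_eq_single, coeffMap_single]

theorem S18G_coeffMap_injective (φ : K1 →+* K) : Function.Injective (coeffMap φ) := by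
  intro x y h
  ext k
  have := congrArg (fun z => z.coeff k) h
  simp only [coeffMap_coeff] at this
  exact φ.injective this

theorem S18G_coeffMap_gen (φ : K1 →+* K) (d : ℕ) [NeZero d] :
    coeffMap φ (qExpand K1 d (jqModC K1)) = qExpand K d (jqModC K) := by
  rw [coeffMap_qExpand, coeffMap_jqModC]

/-- **functoriality** of the level-`N` function field in the field of constants -/
theorem S18G_coeffMap_mem (φ : K1 →+* K) (N : ℕ) {x : LaurentSeries K1}
    (hx : x ∈ modularFunctionFieldFullC K1 N) :
    coeffMap φ x ∈ modularFunctionFieldFullC K N := by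
  unfold modularFunctionFieldFullC at hx
  induction hx using IntermediateField.adjoin_induction with
  | mem y hy =>
    obtain ⟨d, hd0, hd, rfl⟩ := hy
    rw [S18G_coeffMap_gen]
    exact jqModCd_mem_full K N hd
  | algebraMap c =>
    rw [S18G_coeffMap_algebraMap]
    exact IntermediateField.algebraMap_mem _ _
  | add x y _ _ h1 h2 => rw [map_add]; exact add_mem h1 h2
  | inv x _ h => rw [map_inv₀]; exact inv_mem h
  | mul x y _ _ h1 h2 => rw [map_mul]; exact mul_mem h1 h2

end Functoriality

section Bar

theorem S18G_bar_le (N : ℕ) [NeZero N] :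
    modularFunctionFieldBar N ≤ modularFunctionFieldFullC (AlgebraicClosure ℚ) N := by
  show laurentBaseChange (AlgebraicClosure ℚ) (modularFunctionFieldFull N) ≤ _
  unfold laurentBaseChange
  rw [IntermediateField.adjoin_le_iff]
  rintro _ ⟨x, hx, rfl⟩
  exact S18G_coeffMap_mem (algebraMap ℚ (AlgebraicClosure ℚ)) N hx

theorem S18G_le_bar (N : ℕ) [NeZero N] :
    modularFunctionFieldFullC (AlgebraicClosure ℚ) N ≤ modularFunctionFieldBar N := by
  unfold modularFunctionFieldFullC
  rw [IntermediateField.adjoin_le_iff]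
  rintro _ ⟨d, hd0, hd, rfl⟩
  have h := coeffEmb_mem_laurentBaseChange (AlgebraicClosure ℚ) (jqd_mem_full N hd)
  have e : coeffEmb (AlgebraicClosure ℚ) (qExpand ℚ d jq)
      = qExpand (AlgebraicClosure ℚ) d (jqModC (AlgebraicClosure ℚ)) := by
    rw [← jqModC_rat]
    exact S18G_coeffMap_gen (algebraMap ℚ (AlgebraicClosure ℚ)) d
  rw [e] at h
  exact h

/-- `ℚ̄(j(q^d) : d ∣ N)` in the two prelude incarnations -/
theorem S18G_bar_eq (N : ℕ) [NeZero N] :
    modularFunctionFieldBar N = modularFunctionFieldFullC (AlgebraicClosure ℚ) N :=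
  le_antisymm (S18G_bar_le N) (S18G_le_bar N)

end Bar

section Descent

variable {k₀ K : Type*} [Field k₀] [Field K] [Algebra k₀ K]

/-- **descent of elements**: every element of the function field over `K` comes from the function
field over `K1`, for every intermediate field `K1` containing a suitable finite set. -/
theorem S18G_exists_finset (N : ℕ) {x : LaurentSeries K}
    (hx : x ∈ modularFunctionFieldFullC K N) :
    ∃ S : Finset K, ∀ K1 : IntermediateField k₀ K, (∀ s ∈ S, s ∈ K1) →
      ∃ w ∈ modularFunctionFieldFullC K1 N, coeffMap (algebraMap K1 K) w = x := by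
  classical
  unfold modularFunctionFieldFullC at hx
  induction hx using IntermediateField.adjoin_induction with
  | mem y hy =>
    obtain ⟨d, hd0, hd, rfl⟩ := hy
    refine ⟨∅, fun K1 _ => ⟨qExpand K1 d (jqModC K1), jqModCd_mem_full K1 N hd, ?_⟩⟩
    exact S18G_coeffMap_gen _ d
  | algebraMap c =>
    refine ⟨{c}, fun K1 h => ?_⟩
    have hc : c ∈ K1 := h c (Finset.mem_singleton_self c)
    refine ⟨algebraMap K1 (LaurentSeries K1) ⟨c, hc⟩, IntermediateField.algebraMap_mem _ _, ?_⟩
    rw [S18G_coeffMap_algebraMap]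
    rfl
  | add x y _ _ h1 h2 =>
    obtain ⟨S1, h1⟩ := h1
    obtain ⟨S2, h2⟩ := h2
    refine ⟨S1 ∪ S2, fun K1 h => ?_⟩
    obtain ⟨w1, hw1, e1⟩ := h1 K1 (fun s hs => h s (Finset.mem_union_left _ hs))
    obtain ⟨w2, hw2, e2⟩ := h2 K1 (fun s hs => h s (Finset.mem_union_right _ hs))
    exact ⟨w1 + w2, add_mem hw1 hw2, by rw [map_add, e1, e2]⟩
  | inv x _ h =>
    obtain ⟨S1, h1⟩ := h
    refine ⟨S1, fun K1 h => ?_⟩
    obtain ⟨w1, hw1, e1⟩ := h1 K1 h
    exact ⟨w1⁻¹, inv_mem hw1, by rw [map_inv₀, e1]⟩
  | mul x y _ _ h1 h2 =>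
    obtain ⟨S1, h1⟩ := h1
    obtain ⟨S2, h2⟩ := h2
    refine ⟨S1 ∪ S2, fun K1 h => ?_⟩
    obtain ⟨w1, hw1, e1⟩ := h1 K1 (fun s hs => h s (Finset.mem_union_left _ hs))
    obtain ⟨w2, hw2, e2⟩ := h2 K1 (fun s hs => h s (Finset.mem_union_right _ hs))
    exact ⟨w1 * w2, mul_mem hw1 hw2, by rw [map_mul, e1, e2]⟩

end Descent

section Lift

variable {R S : Type*} [CommRing R] [CommRing S]

/-- coefficientwise lifting along an injective ring homomorphism -/
theorem S18G_exists_coeffMap_eq (f : R →+* S) (w : LaurentSeries S)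
    (h : ∀ n, ∃ r : R, f r = w.coeff n) :
    ∃ y : LaurentSeries R, coeffMap f y = w := by
  classical
  choose r hr using h
  let r' : ℤ → R := fun n => if w.coeff n = 0 then 0 else r n
  have hr' : ∀ n, f (r' n) = w.coeff n := by
    intro n
    by_cases h0 : w.coeff n = 0
    · simp [r', h0]
    · simp [r', h0, hr]
  have hsupp : (Function.support r').IsPWO := by
    refine w.isPWO_support.mono ?_
    intro n hn
    simp only [Function.mem_support, ne_eq, r'] at hn
    by_contra h0
    simp only [HahnSeries.mem_support, ne_eq, not_not] at h0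
    exact hn (by simp [h0])
  refine ⟨⟨r', hsupp⟩, ?_⟩
  ext n
  rw [coeffMap_coeff]
  exact hr' n

end Lift

end Fermat.Agent.S18_helper25_GLUE
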