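import Mathlib
import Fermat.Prelude.Def_ModularCurve_ReductionModL
import Fermat.Prelude.Def_EllipticCurve_FrobeniusTrace

/-!
# S18, block D: the formal reduction

`S18_of_core` proves the frozen statement S18 from two inputs:

* `CoreStatement N ℓ A`: a function `f = y₁ / y₂` (quotient of two integral `q`-series with
  nonzero reduction) whose divisor is divisible by `p` and whose reduction is a `p`-th power
  is itself a `p`-th power;
* `ConstStatement k N`: a function of the characteristic-`ℓ` function field with zero divisor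
  is a constant.
-/

set_option autoImplicit false
set_option linter.unusedSectionVars false

open HahnSeries IntermediateField AlgebraicCurve ModularCurve

noncomputable section

namespace Fermat.Agent.S18_helper12_ASM

set_option synthInstance.maxHeartbeats 400000

/-- the CONTRACT between block D and blocks A+B+C. -/
def CoreStatement (N : ℕ) [NeZero N] (ℓ : ℕ) (A : ValuationSubring (AlgebraicClosure ℚ)) :
    Prop :=
  ∀ (p : ℕ), p.Prime → p ≠ ℓ →
  ∀ (y₁ y₂ : LaurentSeries A)
    (hy₁ : coeffMap A.subtype y₁ ∈ modularFunctionFieldBar N)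
    (hy₂ : coeffMap A.subtype y₂ ∈ modularFunctionFieldBar N)
    (g : LaurentSeries (IsLocalRing.ResidueField A)),
    g ∈ modularFunctionFieldFullC (IsLocalRing.ResidueField A) N →
    g ≠ 0 →
    coeffMap (IsLocalRing.residue A) y₂ ≠ 0 →
    coeffMap (IsLocalRing.residue A) y₁ = g ^ p * coeffMap (IsLocalRing.residue A) y₂ →
    (∀ P : Place (AlgebraicClosure ℚ) (modularFunctionFieldBar N),
      (p : ℤ) ∣ P.ord ((⟨_, hy₁⟩ : modularFunctionFieldBar N) / ⟨_, hy₂⟩)) →
    ∃ w : modularFunctionFieldBar N,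
      ((⟨_, hy₁⟩ : modularFunctionFieldBar N) / ⟨_, hy₂⟩) = w ^ p

/-- zero divisor implies constant, on the characteristic `ℓ` side. -/
def ConstStatement (k : Type*) [Field k] (N : ℕ) [NeZero N] : Prop :=
  ∀ x : modularFunctionFieldFullC k N, x ≠ 0 →
    (∀ P : Place k (modularFunctionFieldFullC k N), P.ord x = 0) →
    ∃ c : k, x = algebraMap k (modularFunctionFieldFullC k N) c

section Roots

variable (A : ValuationSubring (AlgebraicClosure ℚ))

/-- the residue field of a valuation subring of `ℚ̄` has all `n`-th roots. -/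
theorem exists_pow_eq_residueField (n : ℕ) (hn : 0 < n) (c : IsLocalRing.ResidueField A) :
    ∃ d : IsLocalRing.ResidueField A, d ^ n = c := by
  obtain ⟨a, rfl⟩ := IsLocalRing.residue_surjective c
  obtain ⟨x, hx⟩ := IsAlgClosed.exists_pow_nat_eq (a : AlgebraicClosure ℚ) hn
  have hxA : x ∈ A := by
    rcases A.mem_or_inv_mem x with h | h
    · exact h
    · by_cases hx0 : x = 0
      · rw [hx0]; exact A.zero_mem
      · -- `x⁻¹ ∈ A` and `x ^ n ∈ A`, so `x = (x⁻¹) ^ (n - 1) * x ^ n ∈ A`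
        have h1 : x = x⁻¹ ^ (n - 1) * x ^ n := by
          obtain ⟨m, rfl⟩ : ∃ m, n = m + 1 := ⟨n - 1, by omega⟩
          simp only [Nat.add_sub_cancel]
          rw [pow_succ, ← mul_assoc, ← mul_pow, inv_mul_cancel₀ hx0, one_pow, one_mul]
        rw [h1]
        have h2 : x ^ n ∈ A := by rw [hx]; exact a.2
        exact A.mul_mem _ _ (pow_mem h _) h2
  refine ⟨IsLocalRing.residue A ⟨x, hxA⟩, ?_⟩
  rw [← map_pow]
  congr 1
  exact Subtype.ext hx

end Roots

section Pairs

variable {N : ℕ} [NeZero N] {A : ValuationSubring (AlgebraicClosure ℚ)}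

theorem coeffMap_subtype_ne_zero {y : LaurentSeries A}
    (h : coeffMap (IsLocalRing.residue A) y ≠ 0) : coeffMap A.subtype y ≠ 0 := by
  intro h0
  apply h
  ext n
  have h1 : (coeffMap A.subtype y).coeff n = 0 := by rw [h0]; rfl
  rw [coeffMap_coeff] at h1
  have h2 : y.coeff n = 0 := Subtype.ext h1
  rw [coeffMap_coeff, h2, map_zero]
  rfl

theorem one_mem_bar :
    coeffMap A.subtype (1 : LaurentSeries A) ∈ modularFunctionFieldBar N := by
  rw [map_one]; exact one_mem _

theorem one_mem_fullC :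
    coeffMap (IsLocalRing.residue A) (1 : LaurentSeries A) ∈
      modularFunctionFieldFullC (IsLocalRing.ResidueField A) N := by
  rw [map_one]; exact one_mem _

/-- a divisor of the form `div y₁ - div y₂` with `y₁, y₂` integral with nonzero reductions in the
characteristic `ℓ` function field. -/
def IntPair (N : ℕ) [NeZero N] (A : ValuationSubring (AlgebraicClosure ℚ))
    (E : Divisor (AlgebraicClosure ℚ) (modularFunctionFieldBar N)) : Prop :=
  ∃ (y₁ y₂ : LaurentSeries A)
    (hy₁ : coeffMap A.subtype y₁ ∈ modularFunctionFieldBar N)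
    (hy₂ : coeffMap A.subtype y₂ ∈ modularFunctionFieldBar N)
    (_ : coeffMap (IsLocalRing.residue A) y₁ ∈
      modularFunctionFieldFullC (IsLocalRing.ResidueField A) N)
    (_ : coeffMap (IsLocalRing.residue A) y₂ ∈
      modularFunctionFieldFullC (IsLocalRing.ResidueField A) N)
    (E₁ E₂ : Divisor (AlgebraicClosure ℚ) (modularFunctionFieldBar N)),
    coeffMap (IsLocalRing.residue A) y₁ ≠ 0 ∧ coeffMap (IsLocalRing.residue A) y₂ ≠ 0 ∧
    E = E₁ - E₂ ∧
    (∀ P, E₁ P = P.ord (⟨_, hy₁⟩ : modularFunctionFieldBar N)) ∧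
    (∀ P, E₂ P = P.ord (⟨_, hy₂⟩ : modularFunctionFieldBar N))

theorem ord_mk_mul (P : Place (AlgebraicClosure ℚ) (modularFunctionFieldBar N))
    {y y' : LaurentSeries A}
    (hy : coeffMap A.subtype y ∈ modularFunctionFieldBar N)
    (hy' : coeffMap A.subtype y' ∈ modularFunctionFieldBar N)
    (hyy' : coeffMap A.subtype (y * y') ∈ modularFunctionFieldBar N)
    (h : coeffMap (IsLocalRing.residue A) y ≠ 0)
    (h' : coeffMap (IsLocalRing.residue A) y' ≠ 0) :
    P.ord (⟨_, hyy'⟩ : modularFunctionFieldBar N) =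
      P.ord (⟨_, hy⟩ : modularFunctionFieldBar N) +
        P.ord (⟨_, hy'⟩ : modularFunctionFieldBar N) := by
  have e : (⟨_, hyy'⟩ : modularFunctionFieldBar N) = ⟨_, hy⟩ * ⟨_, hy'⟩ :=
    Subtype.ext (map_mul _ _ _)
  rw [e]
  apply P.ord_mul
  · intro h0
    exact coeffMap_subtype_ne_zero h (congrArg Subtype.val h0)
  · intro h0
    exact coeffMap_subtype_ne_zero h' (congrArg Subtype.val h0)

theorem intPair_of_mem_closure
    {E : Divisor (AlgebraicClosure ℚ) (modularFunctionFieldBar N)}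
    (hE : E ∈ AddSubgroup.closure (integralPrincipalDivisors A (IsLocalRing.residue A) N)) :
    IntPair N A E := by
  have h1ne : coeffMap (IsLocalRing.residue A) (1 : LaurentSeries A) ≠ 0 := by
    rw [map_one]; exact one_ne_zero
  have hord1 : ∀ P : Place (AlgebraicClosure ℚ) (modularFunctionFieldBar N),
      (0 : Divisor (AlgebraicClosure ℚ) (modularFunctionFieldBar N)) P =
        P.ord (⟨_, one_mem_bar (N := N) (A := A)⟩ : modularFunctionFieldBar N) := by
    intro P
    have e : (⟨_, one_mem_bar (N := N) (A := A)⟩ : modularFunctionFieldBar N) = 1 :=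
      Subtype.ext (map_one _)
    rw [e, P.ord_one]; rfl
  induction hE using AddSubgroup.closure_induction with
  | mem E hE =>
    obtain ⟨y, hy, hyk, hne, hEy⟩ := hE
    exact ⟨y, 1, hy, one_mem_bar, hyk, one_mem_fullC, E, 0, hne, h1ne, by simp, hEy, hord1⟩
  | zero =>
    exact ⟨1, 1, one_mem_bar, one_mem_bar, one_mem_fullC, one_mem_fullC, 0, 0, h1ne, h1ne,
      by simp, hord1, hord1⟩
  | add E E' _ _ hE hE' =>
    obtain ⟨y₁, y₂, hy₁, hy₂, hk₁, hk₂, E₁, E₂, hn₁, hn₂, hEE, hE₁, hE₂⟩ := hE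
    obtain ⟨y₁', y₂', hy₁', hy₂', hk₁', hk₂', E₁', E₂', hn₁', hn₂', hEE', hE₁', hE₂'⟩ := hE'
    have hm₁ : coeffMap A.subtype (y₁ * y₁') ∈ modularFunctionFieldBar N := by
      rw [map_mul]; exact mul_mem hy₁ hy₁'
    have hm₂ : coeffMap A.subtype (y₂ * y₂') ∈ modularFunctionFieldBar N := by
      rw [map_mul]; exact mul_mem hy₂ hy₂'
    refine ⟨y₁ * y₁', y₂ * y₂', hm₁, hm₂, ?_, ?_, E₁ + E₁', E₂ + E₂', ?_, ?_, ?_, ?_, ?_⟩
    · rw [map_mul]; exact mul_mem hk₁ hk₁'
    · rw [map_mul]; exact mul_mem hk₂ hk₂'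
    · rw [map_mul]; exact mul_ne_zero hn₁ hn₁'
    · rw [map_mul]; exact mul_ne_zero hn₂ hn₂'
    · rw [hEE, hEE']; abel
    · intro P
      rw [Finsupp.add_apply, hE₁ P, hE₁' P, ord_mk_mul P hy₁ hy₁' hm₁ hn₁ hn₁']
    · intro P
      rw [Finsupp.add_apply, hE₂ P, hE₂' P, ord_mk_mul P hy₂ hy₂' hm₂ hn₂ hn₂']
  | neg E _ hE =>
    obtain ⟨y₁, y₂, hy₁, hy₂, hk₁, hk₂, E₁, E₂, hn₁, hn₂, hEE, hE₁, hE₂⟩ := hE
    exact ⟨y₂, y₁, hy₂, hy₁, hk₂, hk₁, E₂, E₁, hn₂, hn₁, by rw [hEE]; abel, hE₂, hE₁⟩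

end Pairs

section Main

variable (N : ℕ) [NeZero N] {ℓ : ℕ} (A : ValuationSubring (AlgebraicClosure ℚ))

set_option maxHeartbeats 3200000 in
/-- the prime order case. -/
theorem prime_case (hcore : CoreStatement N ℓ A)
    (hconst : ConstStatement (IsLocalRing.ResidueField A) N)
    (h : ModularCurve.ReductionInputsModL A N) (p : ℕ) (hp : p.Prime) (hpℓ : p ≠ ℓ)
    (z : ModularCurve.JZero N)
    (hpz : p • z = 0) (hz : ModularCurve.reductionModL A N z = 0) :
    z = 0 := by
  obtain ⟨D, rfl⟩ := Pic0.mk_surjective z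
  have hr := isPlaceReductionModL_placeReductionModL h
  have hgen : PrincipalGeneratedByIntegral A (IsLocalRing.residue A) N := h.choose_spec.2
  set r := placeReductionModL h with hrdef
  -- `p • D` is principal
  have hpD : ((p • D : Divisor.degZero (K := AlgebraicClosure ℚ)
      (F := modularFunctionFieldBar N)) : Divisor (AlgebraicClosure ℚ)
        (modularFunctionFieldBar N)) ∈
      Divisor.principal (K := AlgebraicClosure ℚ) (F := modularFunctionFieldBar N) := by
    have h1 : Pic0.mk (p • D) = 0 := by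
      rw [← hpz]; rfl
    have h2 := (QuotientAddGroup.eq_zero_iff _).mp h1
    exact AddSubgroup.mem_addSubgroupOf.mp h2
  -- the reduction of `D` is principal
  have hrD : Finsupp.mapDomain r (D : Divisor (AlgebraicClosure ℚ)
      (modularFunctionFieldBar N)) ∈
      Divisor.principal (K := IsLocalRing.ResidueField A)
        (F := modularFunctionFieldFullC (IsLocalRing.ResidueField A) N) := by
    rw [reductionModL_mk h D] at hz
    have h2 := (QuotientAddGroup.eq_zero_iff _).mp hz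
    exact AddSubgroup.mem_addSubgroupOf.mp h2
  obtain ⟨g₀, hg₀, hg₀D⟩ := hrD
  -- write `p • D = div y₁ - div y₂`
  obtain ⟨y₁, y₂, hy₁, hy₂, hk₁, hk₂, E₁, E₂, hn₁, hn₂, hEE, hE₁, hE₂⟩ :=
    intPair_of_mem_closure (hgen hpD)
  have hcoe : ((p • D : Divisor.degZero (K := AlgebraicClosure ℚ)
      (F := modularFunctionFieldBar N)) : Divisor (AlgebraicClosure ℚ)
        (modularFunctionFieldBar N)) = p • (D : Divisor (AlgebraicClosure ℚ)
        (modularFunctionFieldBar N)) := AddSubgroup.coe_nsmul _ _ _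
  rw [hcoe] at hEE
  -- nonvanishing in the two function fields
  set b₁ : modularFunctionFieldBar N := ⟨_, hy₁⟩ with hb₁
  set b₂ : modularFunctionFieldBar N := ⟨_, hy₂⟩ with hb₂
  have hb₁0 : b₁ ≠ 0 := fun h0 => coeffMap_subtype_ne_zero hn₁ (congrArg Subtype.val h0)
  have hb₂0 : b₂ ≠ 0 := fun h0 => coeffMap_subtype_ne_zero hn₂ (congrArg Subtype.val h0)
  set a₁ : modularFunctionFieldFullC (IsLocalRing.ResidueField A) N := ⟨_, hk₁⟩ with ha₁
  set a₂ : modularFunctionFieldFullC (IsLocalRing.ResidueField A) N := ⟨_, hk₂⟩ with ha₂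
  have ha₁0 : a₁ ≠ 0 := fun h0 => hn₁ (congrArg Subtype.val h0)
  have ha₂0 : a₂ ≠ 0 := fun h0 => hn₂ (congrArg Subtype.val h0)
  -- reduction of the divisor of `y₁ / y₂`
  have hmap : ∀ Q : Place (IsLocalRing.ResidueField A)
      (modularFunctionFieldFullC (IsLocalRing.ResidueField A) N),
      (p : ℤ) * Q.ord g₀ = Q.ord a₁ - Q.ord a₂ := by
    intro Q
    have e1 : Finsupp.mapDomain r (p • (D : Divisor (AlgebraicClosure ℚ)
        (modularFunctionFieldBar N))) = p • Finsupp.mapDomain r (D : Divisor (AlgebraicClosure ℚ)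
        (modularFunctionFieldBar N)) := map_nsmul (Finsupp.mapDomain.addMonoidHom r) p _
    have e2 : Finsupp.mapDomain r (E₁ - E₂) = Finsupp.mapDomain r E₁ - Finsupp.mapDomain r E₂ :=
      map_sub (Finsupp.mapDomain.addMonoidHom r) E₁ E₂
    have e3 := congrArg (fun X => X Q) (e1.symm.trans ((congrArg (Finsupp.mapDomain r) hEE).trans e2))
    simp only [Finsupp.smul_apply, Finsupp.sub_apply, nsmul_eq_mul] at e3
    rw [hr.2 y₁ hy₁ hk₁ hn₁ E₁ hE₁ Q, hr.2 y₂ hy₂ hk₂ hn₂ E₂ hE₂ Q, hg₀D Q] at e3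
    exact e3
  -- the quotient has trivial divisor
  have hg₀p : g₀ ^ p ≠ 0 := pow_ne_zero _ hg₀
  set x : modularFunctionFieldFullC (IsLocalRing.ResidueField A) N := a₁ * a₂⁻¹ * (g₀ ^ p)⁻¹
    with hx
  have hx0 : x ≠ 0 := mul_ne_zero (mul_ne_zero ha₁0 (inv_ne_zero ha₂0)) (inv_ne_zero hg₀p)
  have hxord : ∀ Q : Place (IsLocalRing.ResidueField A)
      (modularFunctionFieldFullC (IsLocalRing.ResidueField A) N), Q.ord x = 0 := by
    intro Q
    have e : Q.ord (g₀ ^ p) = (p : ℤ) * Q.ord g₀ := by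
      rw [← zpow_natCast, Q.ord_zpow]
    rw [hx, Q.ord_mul (mul_ne_zero ha₁0 (inv_ne_zero ha₂0)) (inv_ne_zero hg₀p),
      Q.ord_mul ha₁0 (inv_ne_zero ha₂0), Q.ord_inv, Q.ord_inv, e, hmap Q]
    ring
  obtain ⟨c, hc⟩ := hconst x hx0 hxord
  obtain ⟨d, hd⟩ := exists_pow_eq_residueField A p hp.pos c
  -- the `p`-th root of the reduction
  set g : modularFunctionFieldFullC (IsLocalRing.ResidueField A) N :=
    algebraMap _ _ d * g₀ with hg
  have hg0 : g ≠ 0 := by
    refine mul_ne_zero ?_ hg₀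
    intro h0
    apply hx0
    rw [hc, ← hd, map_pow, h0, zero_pow hp.ne_zero]
  have hred' : a₁ = g ^ p * a₂ := by
    have h1 : a₁ = x * g₀ ^ p * a₂ := by
      rw [hx]; field_simp
    rw [h1, hc, ← hd, hg, map_pow, mul_pow]
  have hred : coeffMap (IsLocalRing.residue A) y₁ =
      (g : LaurentSeries (IsLocalRing.ResidueField A)) ^ p *
        coeffMap (IsLocalRing.residue A) y₂ := congrArg Subtype.val hred'
  have hgL0 : (g : LaurentSeries (IsLocalRing.ResidueField A)) ≠ 0 := fun h0 =>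
    hg0 (Subtype.ext h0)
  -- divisibility of the divisor
  have hordf : ∀ P : Place (AlgebraicClosure ℚ) (modularFunctionFieldBar N),
      P.ord (b₁ / b₂) = (p : ℤ) * (D : Divisor (AlgebraicClosure ℚ)
        (modularFunctionFieldBar N)) P := by
    intro P
    have e3 := congrArg (fun X => X P) hEE
    simp only [Finsupp.smul_apply, Finsupp.sub_apply, nsmul_eq_mul] at e3
    rw [div_eq_mul_inv, P.ord_mul hb₁0 (inv_ne_zero hb₂0), P.ord_inv, ← hE₁ P, ← hE₂ P, e3]
    ring
  obtain ⟨w, hw⟩ := hcore p hp hpℓ y₁ y₂ hy₁ hy₂ g g.2 hgL0 hn₂ hred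
    (fun P => ⟨_, hordf P⟩)
  have hw0 : w ≠ 0 := by
    intro h0
    have : b₁ / b₂ = 0 := by rw [hw, h0, zero_pow hp.ne_zero]
    exact div_ne_zero hb₁0 hb₂0 this
  have hDw : ∀ P : Place (AlgebraicClosure ℚ) (modularFunctionFieldBar N),
      (D : Divisor (AlgebraicClosure ℚ) (modularFunctionFieldBar N)) P = P.ord w := by
    intro P
    have e : P.ord (w ^ p) = (p : ℤ) * P.ord w := by
      rw [← zpow_natCast, P.ord_zpow]
    have h1 := hordf P
    rw [hw, e] at h1
    have hp0 : (p : ℤ) ≠ 0 := by exact_mod_cast hp.ne_zero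
    exact (mul_left_cancel₀ hp0 h1).symm
  exact (QuotientAddGroup.eq_zero_iff _).mpr
    (AddSubgroup.mem_addSubgroupOf.mpr ⟨w, hw0, hDw⟩)

/-- **Block D**: the frozen statement S18 follows from `CoreStatement` and `ConstStatement`. -/
theorem S18_of_core (hcore : CoreStatement N ℓ A)
    (hconst : ConstStatement (IsLocalRing.ResidueField A) N)
    (h : ModularCurve.ReductionInputsModL A N) (m : ℕ) (hm : ¬ ℓ ∣ m)
    (z : ModularCurve.JZero N)
    (hmz : m • z = 0) (hz : ModularCurve.reductionModL A N z = 0) :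
    z = 0 := by
  induction m using Nat.strong_induction_on generalizing z with
  | _ m ih =>
    by_cases hm1 : m = 1
    · subst hm1
      simpa using hmz
    · obtain ⟨p, hp, hpm⟩ := Nat.exists_prime_and_dvd hm1
      have hpℓ : p ≠ ℓ := by
        rintro rfl
        exact hm hpm
      obtain ⟨m', rfl⟩ := hpm
      have hm'0 : m' ≠ 0 := by
        rintro rfl
        exact hm (by simp)
      have hz' : m' • z = 0 := by
        refine prime_case N A hcore hconst h p hp hpℓ (m' • z) ?_ ?_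
        · rw [← mul_nsmul']
          exact hmz
        · rw [map_nsmul, hz, nsmul_zero]
      refine ih m' ?_ (fun hd => hm (Dvd.dvd.mul_left hd p)) z hz' hz
      calc m' = 1 * m' := (one_mul _).symm
        _ < p * m' := Nat.mul_lt_mul_of_pos_right hp.one_lt (Nat.pos_of_ne_zero hm'0)

end Main

end Fermat.Agent.S18_helper12_ASM
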