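import Mathlib
import Fermat.Prelude.Def_AlgebraicCurve_DivisorClassGroup
import Fermat.Prelude.Def_AlgebraicCurve_Repartitions

set_option autoImplicit false
set_option linter.unusedSectionVars false

open IsDedekindDomain IsDedekindDomain.HeightOneSpectrum WithZero AlgebraicCurve

namespace Fermat.Agent.S24_helper6_A2

/-! ### Generalities on places -/

section Basic

variable {K F : Type*} [Field K] [Field F] [Algebra K F]

theorem mem_of_ord_nonneg (v : Place K F) {f : F} (hf : 0 ≤ v.ord f) :
    f ∈ v.toValuationSubring := by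
  rcases eq_or_ne f 0 with rfl | hf0
  · exact v.toValuationSubring.zero_mem
  obtain ⟨π, hπ⟩ := IsDiscreteValuationRing.exists_irreducible v.toValuationSubring
  obtain ⟨u, hu⟩ := v.exists_unit_mul_zpow hf0 hπ
  rw [hu]
  refine v.toValuationSubring.mul_mem _ _ (u : v.toValuationSubring).2 ?_
  obtain ⟨n, hn⟩ := Int.eq_ofNat_of_zero_le hf
  rw [hn, zpow_natCast]
  exact v.toValuationSubring.pow_mem π.2 n

theorem ord_nonneg_of_mem (v : Place K F) {f : F} (hf : f ∈ v.toValuationSubring) :
    0 ≤ v.ord f := by
  rcases (v.adicValuation_le_one_iff (f := f)).1 (v.adicValuation_le_one_of_mem hf) with h | h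
  · rw [h, Place.ord_zero]
  · exact h

theorem ord_algebraMap_eq_zero (v : Place K F) (a : K) : v.ord (algebraMap K F a) = 0 := by
  rcases eq_or_ne a 0 with rfl | ha
  · simp
  have h1 := ord_nonneg_of_mem v (v.algebraMap_mem' a)
  have h2 := ord_nonneg_of_mem v (v.algebraMap_mem' a⁻¹)
  rw [map_inv₀, Place.ord_inv] at h2
  omega

end Basic

/-! ### Places of `F` and maximal ideals of a Dedekind domain with fraction field `F` -/

section Dedekind

variable {K F : Type*} [Field K] [Field F] [Algebra K F]
variable {B : Type*} [CommRing B] [IsDedekindDomain B] [Algebra B F] [IsFractionRing B F]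
  [Algebra K B] [IsScalarTower K B F]

/-- The valuation subring of the place attached to `w` is the valuation ring of `w`. -/
theorem mem_ofHeightOneSpectrum_iff (w : HeightOneSpectrum B) (f : F) :
    f ∈ (Place.ofHeightOneSpectrum (K := K) (F := F) w).toValuationSubring ↔
      w.valuation F f ≤ 1 := by
  rw [Place.ofHeightOneSpectrum_toValuationSubring, Valuation.mem_valuationSubring_iff]

/-- The normalised valuation of the place attached to `w` is the `w`-adic valuation. -/
theorem adicValuation_ofHeightOneSpectrum (w : HeightOneSpectrum B) (f : F) :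
    (Place.ofHeightOneSpectrum (K := K) (F := F) w).adicValuation f = w.valuation F f := by
  set v := Place.ofHeightOneSpectrum (K := K) (F := F) w with hv
  rcases eq_or_ne f 0 with rfl | hf
  · simp
  obtain ⟨π, hπ⟩ := w.valuation_exists_uniformizer F
  have hπ0 : π ≠ 0 := by
    rintro rfl
    rw [map_zero] at hπ
    exact WithZero.exp_ne_zero hπ.symm
  have hπmem : π ∈ v.toValuationSubring := by
    rw [mem_ofHeightOneSpectrum_iff, hπ]
    exact (exp_le_exp.2 (by norm_num : (-1 : ℤ) ≤ 0)).trans_eq exp_zero
  -- `π` is irreducible in the valuation ring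
  have hirr : Irreducible (⟨π, hπmem⟩ : v.toValuationSubring) := by
    rw [IsDiscreteValuationRing.irreducible_iff_uniformizer]
    apply le_antisymm
    · intro y hy
      rw [IsLocalRing.mem_maximalIdeal, mem_nonunits_iff] at hy
      rw [Ideal.mem_span_singleton]
      have hy1 : w.valuation F (y : F) ≤ 1 := (mem_ofHeightOneSpectrum_iff w _).1 y.2
      have hy2 : w.valuation F (y : F) < 1 := by
        refine lt_of_le_of_ne hy1 fun h1 => hy ?_
        have hy0 : (y : F) ≠ 0 := by
          rintro h0
          rw [h0, map_zero] at h1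
          exact zero_ne_one h1
        have hinv : (y : F)⁻¹ ∈ v.toValuationSubring := by
          rw [mem_ofHeightOneSpectrum_iff, map_inv₀, h1, inv_one]
        refine isUnit_iff_exists_inv.2 ⟨⟨_, hinv⟩, ?_⟩
        ext
        simp [hy0]
      have hy3 : w.valuation F (y : F) ≤ exp (-1 : ℤ) := by
        rcases eq_or_ne (y : F) 0 with h0 | h0
        · rw [h0, map_zero]; exact zero_le
        · obtain ⟨n, hn⟩ : ∃ n : ℤ, w.valuation F (y : F) = exp n := by
            refine ⟨log (w.valuation F (y : F)), (exp_log ?_).symm⟩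
            exact (Valuation.ne_zero_iff _).2 h0
          rw [hn] at hy2 ⊢
          rw [← exp_zero, exp_lt_exp] at hy2
          exact exp_le_exp.2 (by omega)
      have hq : (y : F) * π⁻¹ ∈ v.toValuationSubring := by
        rw [mem_ofHeightOneSpectrum_iff, map_mul, map_inv₀, hπ]
        calc w.valuation F (y : F) * (exp (-1 : ℤ))⁻¹
            ≤ exp (-1 : ℤ) * (exp (-1 : ℤ))⁻¹ := mul_le_mul' hy3 le_rfl
          _ = 1 := mul_inv_cancel₀ (by simp)
      refine ⟨⟨_, hq⟩, ?_⟩
      ext
      simp only [MulMemClass.coe_mul]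
      field_simp
    · rw [Ideal.span_le, Set.singleton_subset_iff, SetLike.mem_coe,
        IsLocalRing.mem_maximalIdeal, mem_nonunits_iff]
      intro hu
      obtain ⟨u', hu'⟩ := isUnit_iff_exists_inv.1 hu
      have h1 : π * (u' : F) = 1 := by
        have := congrArg (Subtype.val) hu'
        simpa using this
      have h2 : w.valuation F π * w.valuation F (u' : F) = 1 := by
        rw [← map_mul, h1, map_one]
      have h3 : w.valuation F (u' : F) ≤ 1 := (mem_ofHeightOneSpectrum_iff w _).1 u'.2
      rw [hπ] at h2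
      have h4 : (1 : ℤᵐ⁰) ≤ exp (-1 : ℤ) := by
        calc (1 : ℤᵐ⁰) = exp (-1 : ℤ) * w.valuation F (u' : F) := h2.symm
          _ ≤ exp (-1 : ℤ) * 1 := mul_le_mul' le_rfl h3
          _ = exp (-1 : ℤ) := mul_one _
      rw [← exp_zero, exp_le_exp] at h4
      omega
  have hvπ : v.adicValuation π = exp (-1 : ℤ) := v.adicValuation_coe_irreducible hirr
  -- general `f`
  obtain ⟨n, hn⟩ : ∃ n : ℤ, w.valuation F f = exp n :=
    ⟨log (w.valuation F f), (exp_log ((Valuation.ne_zero_iff _).2 hf)).symm⟩
  set g := f * π ^ n with hg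
  have hg0 : g ≠ 0 := mul_ne_zero hf (zpow_ne_zero _ hπ0)
  have hwg : w.valuation F g = 1 := by
    rw [hg, map_mul, map_zpow₀, hπ, hn, ← exp_zsmul, ← exp_add]
    simp
  have hgmem : g ∈ v.toValuationSubring := by
    rw [mem_ofHeightOneSpectrum_iff, hwg]
  have hginv : g⁻¹ ∈ v.toValuationSubring := by
    rw [mem_ofHeightOneSpectrum_iff, map_inv₀, hwg, inv_one]
  have hgu : IsUnit (⟨g, hgmem⟩ : v.toValuationSubring) := by
    refine isUnit_iff_exists_inv.2 ⟨⟨_, hginv⟩, ?_⟩
    ext
    simp [hg0]
  have hvg : v.adicValuation g = 1 := (v.adicValuation_coe_eq_one_iff ⟨g, hgmem⟩).2 hgu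
  have hf' : f = g * π ^ (-n) := by
    rw [hg, mul_assoc, ← zpow_add₀ hπ0]
    simp
  rw [hf', map_mul, hvg, one_mul, map_zpow₀, hvπ, map_mul, hwg, one_mul, map_zpow₀, hπ]


theorem ord_ofHeightOneSpectrum (w : HeightOneSpectrum B) (f : F) :
    (Place.ofHeightOneSpectrum (K := K) (F := F) w).ord f = -(log (w.valuation F f)) := by
  rw [Place.ord, adicValuation_ofHeightOneSpectrum]

/-- For `b : B`, nonzero, the order of `b` at the place of `w` is the multiplicity of `w` in
the factorisation of `(b)`. -/
theorem ord_ofHeightOneSpectrum_algebraMap (w : HeightOneSpectrum B) {b : B} (hb : b ≠ 0) :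
    (Place.ofHeightOneSpectrum (K := K) (F := F) w).ord (algebraMap B F b) =
      ((Associates.mk w.asIdeal).count (Associates.mk (Ideal.span {b})).factors : ℤ) := by
  rw [ord_ofHeightOneSpectrum, valuation_of_algebraMap, intValuation_if_neg w hb]
  simp

/-- `0 < ord` at the place of `w` iff membership in `w`. -/
theorem ord_ofHeightOneSpectrum_pos_iff (w : HeightOneSpectrum B) (b : B) (hb : b ≠ 0) :
    0 < (Place.ofHeightOneSpectrum (K := K) (F := F) w).ord (algebraMap B F b) ↔
      b ∈ w.asIdeal := by
  rw [ord_ofHeightOneSpectrum, ← valuation_lt_one_iff_mem (K := F)]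
  have h0 : w.valuation F (algebraMap B F b) ≠ 0 :=
    (Valuation.ne_zero_iff _).2 ((map_ne_zero_iff _ (IsFractionRing.injective B F)).2 hb)
  constructor
  · intro h
    rw [← exp_log h0, ← exp_zero, exp_lt_exp]
    omega
  · intro h
    rw [← exp_log h0, ← exp_zero, exp_lt_exp] at h
    omega

/-- A place of `F` contains `B`. -/
def ContainsRing (B : Type*) [CommRing B] [Algebra B F] (v : Place K F) : Prop :=
  ∀ b : B, algebraMap B F b ∈ v.toValuationSubring

theorem containsRing_ofHeightOneSpectrum (w : HeightOneSpectrum B) :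
    ContainsRing B (Place.ofHeightOneSpectrum (K := K) (F := F) w) := fun b => by
  rw [mem_ofHeightOneSpectrum_iff]
  exact w.valuation_le_one b

/-- The ring homomorphism `B → O_v` for a place containing `B`. -/
def toValRing (v : Place K F) (hv : ContainsRing B v) : B →+* v.toValuationSubring :=
  (algebraMap B F).codRestrict v.toValuationSubring.toSubring hv

@[simp] theorem coe_toValRing (v : Place K F) (hv : ContainsRing B v) (b : B) :
    ((toValRing v hv b : v.toValuationSubring) : F) = algebraMap B F b := rfl

/-- The centre on `B` of a place containing `B`. -/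
def center (v : Place K F) (hv : ContainsRing B v) : HeightOneSpectrum B where
  asIdeal := (IsLocalRing.maximalIdeal v.toValuationSubring).comap (toValRing v hv)
  isPrime := Ideal.comap_isPrime _ _
  ne_bot := by
    -- some `f ∉ O_v`, `f = a / b`, then `b` is in the centre
    have hne : ∃ f : F, f ∉ v.toValuationSubring := by
      by_contra h
      rw [not_exists] at h
      exact v.ne_top' (SetLike.ext fun f =>
        ⟨fun _ => ValuationSubring.mem_top f, fun _ => not_not.1 (h f)⟩)
    obtain ⟨f, hf⟩ := hne
    obtain ⟨a, b, hb, rfl⟩ := IsFractionRing.div_surjective (A := B) f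
    have hb0 : b ≠ 0 := nonZeroDivisors.ne_zero hb
    intro hbot
    have hbmem : b ∈ (IsLocalRing.maximalIdeal v.toValuationSubring).comap (toValRing v hv) := by
      rw [Ideal.mem_comap, IsLocalRing.mem_maximalIdeal, mem_nonunits_iff]
      intro hu
      apply hf
      obtain ⟨u', hu'⟩ := isUnit_iff_exists_inv.1 hu
      have h1 : algebraMap B F b * (u' : F) = 1 := by
        have := congrArg (Subtype.val) hu'
        simpa using this
      have h2 : (algebraMap B F b)⁻¹ = (u' : F) := (eq_inv_of_mul_eq_one_right h1).symm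
      rw [div_eq_mul_inv, h2]
      exact v.toValuationSubring.mul_mem _ _ (hv a) u'.2
    rw [hbot, Ideal.mem_bot] at hbmem
    exact hb0 hbmem

theorem mem_center_iff (v : Place K F) (hv : ContainsRing B v) (b : B) :
    b ∈ (center v hv).asIdeal ↔ ¬ IsUnit (toValRing v hv b) := by
  show b ∈ (IsLocalRing.maximalIdeal v.toValuationSubring).comap (toValRing v hv) ↔ _
  rw [Ideal.mem_comap, IsLocalRing.mem_maximalIdeal, mem_nonunits_iff]


theorem ofHeightOneSpectrum_center (v : Place K F) (hv : ContainsRing B v) :
    Place.ofHeightOneSpectrum (K := K) (F := F) (center v hv) = v := by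
  apply Place.ext
  rw [Place.ofHeightOneSpectrum_toValuationSubring,
    ← valuationSubringAtPrime_eq_valuationSubring]
  refine ValuationSubring.eq_of_le_of_ne_top _ ?_ v.ne_top'
  intro f hf
  rw [valuationSubringAtPrime_eq_valuationSubring, Valuation.mem_valuationSubring_iff] at hf
  obtain ⟨n, d, hnd⟩ := exists_primeCompl_mul_eq_of_integer (center v hv) f hf
  have hd : IsUnit (toValRing v hv (d : B)) := by
    by_contra hd
    exact d.2 ((mem_center_iff v hv _).2 hd)
  obtain ⟨u', hu'⟩ := isUnit_iff_exists_inv.1 hd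
  have h1 : algebraMap B F (d : B) * (u' : F) = 1 := by
    have := congrArg (Subtype.val) hu'
    simpa using this
  have h2 : f = algebraMap B F n * (u' : F) := by
    rw [← hnd, mul_assoc, h1, mul_one]
  rw [h2]
  exact v.toValuationSubring.mul_mem _ _ (hv n) u'.2

theorem center_ofHeightOneSpectrum (w : HeightOneSpectrum B) :
    center (Place.ofHeightOneSpectrum (K := K) (F := F) w) (containsRing_ofHeightOneSpectrum w)
      = w := by
  apply HeightOneSpectrum.ext
  ext b
  rw [mem_center_iff, ← valuation_lt_one_iff_mem (K := F),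
    ← Place.adicValuation_coe_eq_one_iff, coe_toValRing, adicValuation_ofHeightOneSpectrum]
  exact ⟨fun h => lt_of_le_of_ne (w.valuation_le_one b) h, fun h => h.ne⟩

/-- The places of `F` containing `B` are exactly the places attached to the maximal ideals
of `B`. -/
theorem containsRing_iff (v : Place K F) :
    ContainsRing B v ↔ ∃ w : HeightOneSpectrum B, Place.ofHeightOneSpectrum (K := K) w = v :=
  ⟨fun hv => ⟨center v hv, ofHeightOneSpectrum_center v hv⟩,
    fun ⟨w, hw⟩ => hw ▸ containsRing_ofHeightOneSpectrum w⟩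

theorem ofHeightOneSpectrum_injective :
    Function.Injective (Place.ofHeightOneSpectrum (K := K) (F := F) (R := B)) := by
  intro w w' h
  have h1 := center_ofHeightOneSpectrum (K := K) (F := F) w
  have h2 := center_ofHeightOneSpectrum (K := K) (F := F) w'
  rw [← h1, ← h2]
  congr 1

end Dedekind


/-! ### The generic function-field situation -/

section FunctionField

open Polynomial

variable {K F : Type*} [Field K] [Field F] [Algebra K F]
  [Algebra K[X] F] [Algebra (RatFunc K) F] [IsScalarTower K[X] (RatFunc K) F]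
  [IsScalarTower K K[X] F] [FiniteDimensional (RatFunc K) F] [Algebra.IsSeparable (RatFunc K) F]

local notation "𝔅" => FunctionField.ringOfIntegers K F

theorem algebraMap_poly_mem (v : Place K F)
    (hx : algebraMap K[X] F X ∈ v.toValuationSubring) (p : K[X]) :
    algebraMap K[X] F p ∈ v.toValuationSubring := by
  induction p using Polynomial.induction_on with
  | C a =>
    have : algebraMap K[X] F (C a) = algebraMap K F a := by
      rw [← Polynomial.algebraMap_eq, ← IsScalarTower.algebraMap_apply]
    rw [this]
    exact v.algebraMap_mem' a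
  | add p q hp hq =>
    rw [map_add]
    exact v.toValuationSubring.add_mem _ _ hp hq
  | monomial n a h =>
    rw [pow_succ, ← mul_assoc, map_mul]
    exact v.toValuationSubring.mul_mem _ _ h hx

theorem containsRing_of_mem (v : Place K F)
    (hx : algebraMap K[X] F X ∈ v.toValuationSubring) : ContainsRing 𝔅 v := by
  intro b
  -- `b` is integral over `K[X]`, hence over `O_v`, which is integrally closed
  have hb : IsIntegral K[X] (algebraMap 𝔅 F b) := b.2
  obtain ⟨P, hP, hPb⟩ := hb
  let φ : K[X] →+* v.toValuationSubring :=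
    (algebraMap K[X] F).codRestrict v.toValuationSubring.toSubring (algebraMap_poly_mem v hx)
  have hint : IsIntegral v.toValuationSubring (algebraMap 𝔅 F b) := by
    refine ⟨P.map φ, hP.map φ, ?_⟩
    rw [eval₂_map]
    exact hPb
  obtain ⟨y, hy⟩ := (IsIntegrallyClosed.isIntegral_iff (R := v.toValuationSubring) (K := F)).1 hint
  rw [← hy]
  exact y.2


theorem faithful_F : FaithfulSMul K[X] F :=
  (faithfulSMul_iff_algebraMap_injective _ _).2 (FunctionField.algebraMap_injective K F)

theorem faithful_B : FaithfulSMul K[X] 𝔅 :=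
  (faithfulSMul_iff_algebraMap_injective _ _).2
    (FunctionField.ringOfIntegers.algebraMap_injective K F)

theorem algebraMap_B_X : algebraMap 𝔅 F (algebraMap K[X] 𝔅 X) = algebraMap K[X] F X :=
  (IsScalarTower.algebraMap_apply K[X] 𝔅 F X).symm

theorem xB_ne_zero : algebraMap K[X] 𝔅 X ≠ 0 := by
  intro h
  have := FunctionField.ringOfIntegers.algebraMap_injective K F (h.trans (map_zero _).symm)
  exact X_ne_zero this

variable (K F) in
/-- The height one primes of the integral closure containing `X`. -/
def zeroPrimes : Set (HeightOneSpectrum 𝔅) := {w | algebraMap K[X] 𝔅 X ∈ w.asIdeal}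

theorem liesOver_of_mem (w : HeightOneSpectrum 𝔅) (hw : w ∈ zeroPrimes K F) :
    w.asIdeal.LiesOver (idealX K).asIdeal := by
  constructor
  have hmax : (idealX K).asIdeal.IsMaximal := (idealX K).isMaximal
  have hle : (idealX K).asIdeal ≤ w.asIdeal.under K[X] := by
    rw [idealX_span, Ideal.span_le, Set.singleton_subset_iff]
    exact hw
  have hne : w.asIdeal.under K[X] ≠ ⊤ := (Ideal.IsPrime.under K[X] w.asIdeal).ne_top
  exact hmax.eq_of_le hne hle

theorem mem_zeroPrimes_of_liesOver (w : HeightOneSpectrum 𝔅)
    [hw : w.asIdeal.LiesOver (idealX K).asIdeal] : w ∈ zeroPrimes K F := by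
  have h1 : (X : K[X]) ∈ (idealX K).asIdeal := by
    rw [idealX_span]
    exact Ideal.mem_span_singleton_self _
  rw [hw.over] at h1
  exact h1

/-- The order of `X` at the place of a prime over `(X)` is the ramification index. -/
theorem ord_X_eq_ramificationIdx (w : HeightOneSpectrum 𝔅) (hw : w ∈ zeroPrimes K F) :
    (Place.ofHeightOneSpectrum (K := K) (F := F) w).ord (algebraMap K[X] F X) =
      (w.asIdeal.ramificationIdx K[X] : ℤ) := by
  haveI := faithful_B (K := K) (F := F)
  haveI := liesOver_of_mem w hw
  have h1 := intValuation_liesOver (A := K[X]) (B := 𝔅) (idealX K) w X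
  have h2 : (idealX K).intValuation X = exp (-1 : ℤ) :=
    intValuation_singleton _ X_ne_zero (idealX_span K)
  have h3 : (idealX K).asIdeal.ramificationIdx' w.asIdeal = w.asIdeal.ramificationIdx K[X] :=
    Ideal.ramificationIdx'_eq_ramificationIdx _ _ (idealX K).ne_bot
  rw [← algebraMap_B_X, ord_ofHeightOneSpectrum, valuation_of_algebraMap, ← h1, h2, h3,
    ← exp_nsmul]
  simp


omit [Algebra K F] [Algebra K[X] F] [Algebra (RatFunc K) F] [IsScalarTower K[X] (RatFunc K) F]
  [IsScalarTower K K[X] F] [FiniteDimensional (RatFunc K) F]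
  [Algebra.IsSeparable (RatFunc K) F] in
theorem bijective_algebraMap_quot :
    Function.Bijective (algebraMap K (K[X] ⧸ (idealX K).asIdeal)) := by
  haveI : (idealX K).asIdeal.IsMaximal := (idealX K).isMaximal
  constructor
  · exact (algebraMap K (K[X] ⧸ (idealX K).asIdeal)).injective
  · intro y
    obtain ⟨f, rfl⟩ := Ideal.Quotient.mk_surjective y
    refine ⟨f.coeff 0, ?_⟩
    have h1 : algebraMap K (K[X] ⧸ (idealX K).asIdeal) (f.coeff 0)
        = Ideal.Quotient.mk (idealX K).asIdeal (C (f.coeff 0)) := rfl
    rw [h1, eq_comm, Ideal.Quotient.eq, idealX_span, Ideal.mem_span_singleton]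
    exact X_dvd_sub_C

theorem inertiaDeg_eq_one [IsAlgClosed K] (w : HeightOneSpectrum 𝔅) (hw : w ∈ zeroPrimes K F) :
    w.asIdeal.inertiaDeg K[X] = 1 := by
  haveI := liesOver_of_mem w hw
  haveI : (idealX K).asIdeal.IsMaximal := (idealX K).isMaximal
  haveI : w.asIdeal.IsMaximal := w.isMaximal
  rw [Ideal.inertiaDeg_eq_of_isMaximal (idealX K).asIdeal w.asIdeal]
  letI : Field (K[X] ⧸ (idealX K).asIdeal) := Ideal.Quotient.field _
  haveI : IsAlgClosed (K[X] ⧸ (idealX K).asIdeal) :=
    IsAlgClosed.of_ringEquiv K _ (RingEquiv.ofBijective _ bijective_algebraMap_quot)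
  have hbij : Function.Bijective
      (algebraMap (K[X] ⧸ (idealX K).asIdeal) (𝔅 ⧸ w.asIdeal)) :=
    IsAlgClosed.algebraMap_bijective_of_isIntegral
  rw [← Module.finrank_self (K[X] ⧸ (idealX K).asIdeal)]
  exact ((AlgEquiv.ofBijective (Algebra.ofId _ (𝔅 ⧸ w.asIdeal)) hbij).toLinearEquiv.finrank_eq).symm


/-- The height one prime attached to a prime over `(X)`. -/
def primeToHOS (q : (idealX K).asIdeal.primesOver 𝔅) : HeightOneSpectrum 𝔅 where
  asIdeal := q.1
  isPrime := q.2.1
  ne_bot := by
    haveI := q.2.2
    haveI := faithful_B (K := K) (F := F)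
    exact Ideal.ne_bot_of_liesOver_of_ne_bot (idealX K).ne_bot q.1

theorem primeToHOS_mem (q : (idealX K).asIdeal.primesOver 𝔅) :
    primeToHOS q ∈ zeroPrimes K F := by
  haveI : (primeToHOS q).asIdeal.LiesOver (idealX K).asIdeal := q.2.2
  exact mem_zeroPrimes_of_liesOver _

theorem primeToHOS_injective :
    Function.Injective (primeToHOS (K := K) (F := F)) := by
  intro q q' h
  apply Subtype.ext
  exact congrArg HeightOneSpectrum.asIdeal h

/-- The place attached to a prime over `(X)`. -/
noncomputable def primeToPlace (q : (idealX K).asIdeal.primesOver 𝔅) : Place K F :=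
  Place.ofHeightOneSpectrum (K := K) (F := F) (primeToHOS q)

theorem primeToPlace_injective :
    Function.Injective (primeToPlace (K := K) (F := F)) :=
  ofHeightOneSpectrum_injective.comp primeToHOS_injective

theorem ord_primeToPlace (q : (idealX K).asIdeal.primesOver 𝔅) :
    (primeToPlace q).ord (algebraMap K[X] F X) = (q.1.ramificationIdx K[X] : ℤ) :=
  ord_X_eq_ramificationIdx _ (primeToHOS_mem q)

theorem ord_primeToPlace_pos (q : (idealX K).asIdeal.primesOver 𝔅) :
    0 < (primeToPlace q).ord (algebraMap K[X] F X) := by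
  rw [← algebraMap_B_X]
  exact (ord_ofHeightOneSpectrum_pos_iff _ _ xB_ne_zero).2 (primeToHOS_mem q)

/-- Every place at which `X` has positive order comes from a prime over `(X)`. -/
theorem exists_primeToPlace_eq (v : Place K F) (hv : 0 < v.ord (algebraMap K[X] F X)) :
    ∃ q : (idealX K).asIdeal.primesOver 𝔅, primeToPlace q = v := by
  have hc : ContainsRing 𝔅 v := containsRing_of_mem v (mem_of_ord_nonneg v hv.le)
  have h1 := ofHeightOneSpectrum_center v hc
  have h2 : center v hc ∈ zeroPrimes K F := by
    rw [← h1, ← algebraMap_B_X] at hv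
    exact (ord_ofHeightOneSpectrum_pos_iff _ _ xB_ne_zero).1 hv
  refine ⟨⟨(center v hc).asIdeal, (center v hc).isPrime, liesOver_of_mem _ h2⟩, ?_⟩
  exact h1

theorem zeros_eq_range :
    {v : Place K F | 0 < v.ord (algebraMap K[X] F X)} = Set.range (primeToPlace (K := K) (F := F)) := by
  ext v
  constructor
  · intro hv
    exact exists_primeToPlace_eq v hv
  · rintro ⟨q, rfl⟩
    exact ord_primeToPlace_pos q

theorem zeros_finite_generic :
    {v : Place K F | 0 < v.ord (algebraMap K[X] F X)}.Finite := by
  haveI := faithful_B (K := K) (F := F)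
  haveI : (idealX K).asIdeal.IsMaximal := (idealX K).isMaximal
  rw [zeros_eq_range]
  exact Set.finite_range _

theorem sum_ord_zeros_generic [IsAlgClosed K] :
    ∑ v ∈ (zeros_finite_generic (K := K) (F := F)).toFinset, v.ord (algebraMap K[X] F X)
      = (Module.finrank (RatFunc K) F : ℤ) := by
  classical
  haveI := faithful_B (K := K) (F := F)
  haveI : (idealX K).asIdeal.IsMaximal := (idealX K).isMaximal
  have hfin : Module.finrank (RatFunc K) F = Module.finrank K[X] 𝔅 :=
    IsFractionRing.finrank_eq K[X] (RatFunc K) 𝔅 F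
  have hsum := Ideal.sum_ramification_inertia_eq_finrank (idealX K).asIdeal 𝔅
  have himg : (zeros_finite_generic (K := K) (F := F)).toFinset
      = Finset.univ.image (primeToPlace (K := K) (F := F)) := by
    ext v
    rw [Set.Finite.mem_toFinset, zeros_eq_range, Finset.mem_image, Set.mem_range]
    exact ⟨fun ⟨q, hq⟩ => ⟨q, Finset.mem_univ _, hq⟩, fun ⟨q, _, hq⟩ => ⟨q, hq⟩⟩
  rw [himg, Finset.sum_image (fun a _ b _ h => primeToPlace_injective h), hfin, ← hsum]
  push_cast
  refine Finset.sum_congr rfl fun q _ => ?_
  have h1 : q.1.inertiaDeg K[X] = 1 := inertiaDeg_eq_one (primeToHOS q) (primeToHOS_mem q)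
  rw [ord_primeToPlace, h1]
  simp

end FunctionField


/-! ### Instantiation at a transcendental element -/

section Instantiate

open Polynomial IntermediateField

variable {K F : Type*} [Field K] [Field F] [Algebra K F] (x : F) (hx : Transcendental K x)

/-- The embedding `K(X) → F`, `X ↦ x`. -/
noncomputable def ratToF : RatFunc K →+* F :=
  (algebraMap K⟮x⟯ F).comp ((RatFunc.algEquivOfTranscendental x hx : RatFunc K ≃ₐ[K] K⟮x⟯) :
    RatFunc K →+* K⟮x⟯)

theorem ratToF_apply (u : RatFunc K) :
    ratToF x hx u = ((RatFunc.algEquivOfTranscendental x hx u : K⟮x⟯) : F) := rfl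

theorem ratToF_X : ratToF x hx RatFunc.X = x := by
  rw [ratToF_apply, RatFunc.algEquivOfTranscendental_X]

theorem ratToF_algebraMap (a : K) : ratToF x hx (algebraMap K (RatFunc K) a) = algebraMap K F a := by
  rw [ratToF_apply, AlgEquiv.commutes]
  rfl

include hx in
/-- All the instances needed by the generic section. -/
theorem exists_instances [CharZero K] [FiniteDimensional K⟮x⟯ F] :
    ∃ (a1 : Algebra K[X] F) (a2 : Algebra (RatFunc K) F),
      IsScalarTower K[X] (RatFunc K) F ∧ IsScalarTower K K[X] F ∧
      FiniteDimensional (RatFunc K) F ∧ Algebra.IsSeparable (RatFunc K) F ∧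
      algebraMap K[X] F X = x ∧ Module.finrank (RatFunc K) F = Module.finrank K⟮x⟯ F := by
  letI a2 : Algebra (RatFunc K) F := (ratToF x hx).toAlgebra
  letI a1 : Algebra K[X] F := ((ratToF x hx).comp (algebraMap K[X] (RatFunc K))).toAlgebra
  letI a3 : Algebra (RatFunc K) K⟮x⟯ :=
    ((RatFunc.algEquivOfTranscendental x hx : RatFunc K ≃ₐ[K] K⟮x⟯) : RatFunc K →+* K⟮x⟯).toAlgebra
  haveI t1 : IsScalarTower K[X] (RatFunc K) F := IsScalarTower.of_algebraMap_eq (fun _ => rfl)
  haveI t2 : IsScalarTower K K[X] F := IsScalarTower.of_algebraMap_eq (fun a => by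
    show algebraMap K F a = ratToF x hx (algebraMap K[X] (RatFunc K) (algebraMap K K[X] a))
    rw [← IsScalarTower.algebraMap_apply K K[X] (RatFunc K), ratToF_algebraMap])
  haveI t3 : IsScalarTower (RatFunc K) K⟮x⟯ F := IsScalarTower.of_algebraMap_eq (fun _ => rfl)
  have hbij : Function.Bijective (algebraMap (RatFunc K) K⟮x⟯) :=
    (RatFunc.algEquivOfTranscendental x hx).bijective
  haveI f1 : Module.Finite (RatFunc K) K⟮x⟯ :=
    Module.Finite.of_surjective (Algebra.linearMap (RatFunc K) K⟮x⟯) hbij.2
  haveI f2 : FiniteDimensional (RatFunc K) F := Module.Finite.trans K⟮x⟯ F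
  have hrank1 : Module.finrank (RatFunc K) K⟮x⟯ = 1 := by
    rw [← Module.finrank_self (RatFunc K)]
    exact ((AlgEquiv.ofBijective (Algebra.ofId _ K⟮x⟯) hbij).toLinearEquiv.finrank_eq).symm
  have hrank : Module.finrank (RatFunc K) F = Module.finrank K⟮x⟯ F := by
    rw [← Module.finrank_mul_finrank (RatFunc K) K⟮x⟯ F, hrank1, one_mul]
  refine ⟨a1, a2, t1, t2, f2, inferInstance, ?_, hrank⟩
  show ratToF x hx (algebraMap K[X] (RatFunc K) X) = x
  rw [RatFunc.algebraMap_X, ratToF_X]

include hx in
/-- **Zeros are finite.** -/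
theorem zeros_finite [CharZero K] [FiniteDimensional K⟮x⟯ F] :
    {v : Place K F | 0 < v.ord x}.Finite := by
  obtain ⟨_, _, t1, t2, f2, sep, hX, -⟩ := exists_instances x hx
  have h := zeros_finite_generic (K := K) (F := F)
  rwa [hX] at h

/-- **The zero divisor has degree `[F : K(x)]`.** -/
theorem sum_ord_zeros [CharZero K] [IsAlgClosed K] [FiniteDimensional K⟮x⟯ F] :
    ∑ v ∈ (zeros_finite x hx).toFinset, v.ord x = (Module.finrank K⟮x⟯ F : ℤ) := by
  obtain ⟨_, _, t1, t2, f2, sep, hX, hrank⟩ := exists_instances x hx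
  have h := sum_ord_zeros_generic (K := K) (F := F)
  rw [hrank] at h
  rw [← h]
  refine Finset.sum_congr ?_ fun v _ => by rw [hX]
  ext v
  simp only [Set.Finite.mem_toFinset, Set.mem_ofPred_eq, hX]


theorem adjoin_inv_eq : K⟮x⁻¹⟯ = K⟮x⟯ := by
  apply le_antisymm
  · rw [adjoin_simple_le_iff]
    exact inv_mem (mem_adjoin_simple_self K x)
  · rw [adjoin_simple_le_iff]
    have := inv_mem (mem_adjoin_simple_self K x⁻¹)
    rwa [inv_inv] at this

include hx in
theorem transcendental_inv : Transcendental K x⁻¹ := by
  intro h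
  exact hx (by simpa using h.inv)

theorem finrank_adjoin_inv : Module.finrank K⟮x⁻¹⟯ F = Module.finrank K⟮x⟯ F := by
  rw [adjoin_inv_eq]

theorem finiteDimensional_adjoin_inv [h : FiniteDimensional K⟮x⟯ F] :
    FiniteDimensional K⟮x⁻¹⟯ F := by
  rw [adjoin_inv_eq]
  exact h

include hx in
/-- **Poles are finite.** -/
theorem poles_finite [CharZero K] [FiniteDimensional K⟮x⟯ F] :
    {v : Place K F | v.ord x < 0}.Finite := by
  haveI := finiteDimensional_adjoin_inv (K := K) x
  have h := zeros_finite x⁻¹ (transcendental_inv x hx)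
  refine h.subset fun v hv => ?_
  simp only [Set.mem_ofPred_eq] at hv ⊢
  rw [Place.ord_inv]
  omega

/-- **The pole divisor has degree `[F : K(x)]`.** -/
theorem sum_ord_poles [CharZero K] [IsAlgClosed K] [FiniteDimensional K⟮x⟯ F] :
    ∑ v ∈ (poles_finite x hx).toFinset, v.ord x = -(Module.finrank K⟮x⟯ F : ℤ) := by
  haveI := finiteDimensional_adjoin_inv (K := K) x
  have h := sum_ord_zeros x⁻¹ (transcendental_inv x hx)
  rw [finrank_adjoin_inv] at h
  rw [← h, ← Finset.sum_neg_distrib]
  refine Finset.sum_congr ?_ fun v _ => by rw [Place.ord_inv, neg_neg]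
  ext v
  simp only [Set.Finite.mem_toFinset, Set.mem_ofPred_eq, Place.ord_inv]
  omega

include hx in
/-- The support of the divisor of `x` is finite. -/
theorem support_finite [CharZero K] [FiniteDimensional K⟮x⟯ F] :
    {v : Place K F | v.ord x ≠ 0}.Finite := by
  refine ((zeros_finite x hx).union (poles_finite x hx)).subset fun v hv => ?_
  simp only [Set.mem_ofPred_eq, Set.mem_union] at hv ⊢
  omega

/-- The divisor of a transcendental element. -/
noncomputable def divisorOf [CharZero K] [FiniteDimensional K⟮x⟯ F] : Divisor K F :=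
  Finsupp.ofSupportFinite (fun v => v.ord x) (by
    have := support_finite x hx
    exact this.subset fun v hv => by simpa [Function.mem_support] using hv)

@[simp] theorem divisorOf_apply [CharZero K] [FiniteDimensional K⟮x⟯ F] (v : Place K F) :
    divisorOf x hx v = v.ord x := rfl

/-- **The divisor of a transcendental element has degree `0`** (given that all places have
degree one). -/
theorem degree_divisorOf [CharZero K] [IsAlgClosed K] [FiniteDimensional K⟮x⟯ F]
    (hdeg : ∀ v : Place K F, v.deg = 1) :
    Divisor.degree (divisorOf x hx) = 0 := by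
  classical
  have hsupp : (divisorOf x hx).support
      = (zeros_finite x hx).toFinset ∪ (poles_finite x hx).toFinset := by
    ext v
    simp only [Finsupp.mem_support_iff, divisorOf_apply, Finset.mem_union,
      Set.Finite.mem_toFinset, Set.mem_ofPred_eq]
    omega
  have hdisj : Disjoint (zeros_finite x hx).toFinset (poles_finite x hx).toFinset := by
    rw [Finset.disjoint_left]
    intro v h1 h2
    simp only [Set.Finite.mem_toFinset, Set.mem_ofPred_eq] at h1 h2
    omega
  have h1 : Divisor.degree (divisorOf x hx)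
      = ∑ v ∈ (divisorOf x hx).support, v.ord x := by
    unfold Divisor.degree
    rw [Finsupp.liftAddHom_apply, Finsupp.sum]
    refine Finset.sum_congr rfl fun v _ => ?_
    simp [hdeg v]
  rw [h1, hsupp, Finset.sum_union hdisj, sum_ord_zeros x hx, sum_ord_poles x hx]
  ring


include hx in
/-- If `F` is finite over `K(x)` for one transcendental `x`, then it is finite over `K(f)` for
every transcendental `f`. -/
theorem finiteDimensional_adjoin_of_transcendental [FiniteDimensional K⟮x⟯ F]
    (f : F) (hf : Transcendental K f) : FiniteDimensional K⟮f⟯ F := by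
  letI a2 : Algebra (RatFunc K) F := (ratToF x hx).toAlgebra
  letI a3 : Algebra (RatFunc K) K⟮x⟯ :=
    ((RatFunc.algEquivOfTranscendental x hx : RatFunc K ≃ₐ[K] K⟮x⟯) : RatFunc K →+* K⟮x⟯).toAlgebra
  haveI t3 : IsScalarTower (RatFunc K) K⟮x⟯ F := IsScalarTower.of_algebraMap_eq (fun _ => rfl)
  haveI t4 : IsScalarTower K (RatFunc K) F := IsScalarTower.of_algebraMap_eq (fun a => by
    show algebraMap K F a = ratToF x hx (algebraMap K (RatFunc K) a)
    rw [ratToF_algebraMap])
  have hbij : Function.Bijective (algebraMap (RatFunc K) K⟮x⟯) :=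
    (RatFunc.algEquivOfTranscendental x hx).bijective
  haveI f1 : Module.Finite (RatFunc K) K⟮x⟯ :=
    Module.Finite.of_surjective (Algebra.linearMap (RatFunc K) K⟮x⟯) hbij.2
  haveI f2 : FiniteDimensional (RatFunc K) F := Module.Finite.trans K⟮x⟯ F
  exact FunctionField.finiteDimensional_of_adjoin_transcendental hf

/-- An element algebraic over an algebraically closed field is a constant. -/
theorem exists_algebraMap_eq_of_isAlgebraic [IsAlgClosed K] (f : F) (hf : IsAlgebraic K f) :
    ∃ a : K, algebraMap K F a = f := by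
  have hint : IsIntegral K f := hf.isIntegral
  obtain ⟨a, ha⟩ := IsAlgClosed.exists_aeval_eq_zero K (minpoly K f)
    (minpoly.degree_pos hint).ne'
  -- `minpoly` is irreducible with a root `a` in `K`, so it is `X - C a`
  have hdvd : (Polynomial.X - Polynomial.C a) ∣ minpoly K f :=
    Polynomial.dvd_iff_isRoot.2 (by simpa [Polynomial.IsRoot, Polynomial.aeval_def] using ha)
  have hirr := minpoly.irreducible hint
  have hassoc : Associated (Polynomial.X - Polynomial.C a) (minpoly K f) :=
    (Polynomial.irreducible_X_sub_C a).associated_of_dvd hirr hdvd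
  have heq : minpoly K f = Polynomial.X - Polynomial.C a :=
    (Polynomial.eq_of_monic_of_associated (Polynomial.monic_X_sub_C a) (minpoly.monic hint)
      hassoc).symm
  have h0 := minpoly.aeval K f
  rw [heq] at h0
  simp only [map_sub, Polynomial.aeval_X, Polynomial.aeval_C] at h0
  exact ⟨a, (sub_eq_zero.1 h0).symm⟩

include hx in
/-- **Principal divisors exist and have degree `0`.** -/
theorem exists_divisor [CharZero K] [IsAlgClosed K] [FiniteDimensional K⟮x⟯ F]
    (hdeg : ∀ v : Place K F, v.deg = 1) (f : F) (hf : f ≠ 0) :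
    ∃ D : Divisor K F, (∀ v : Place K F, D v = v.ord f) ∧ Divisor.degree D = 0 := by
  by_cases halg : IsAlgebraic K f
  · obtain ⟨a, rfl⟩ := exists_algebraMap_eq_of_isAlgebraic f halg
    exact ⟨0, fun v => by rw [ord_algebraMap_eq_zero]; rfl, map_zero _⟩
  · haveI := finiteDimensional_adjoin_of_transcendental x hx f halg
    exact ⟨divisorOf f halg, fun v => rfl, degree_divisorOf f halg hdeg⟩

include hx in
theorem hasPrincipalDivisors [CharZero K] [IsAlgClosed K] [FiniteDimensional K⟮x⟯ F]
    (hdeg : ∀ v : Place K F, v.deg = 1) : HasPrincipalDivisors K F :=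
  ⟨fun f hf => exists_divisor x hx hdeg f hf⟩


/-! ### Fibres over `x = a` -/

theorem adjoin_sub_const_eq (a : K) : K⟮x - algebraMap K F a⟯ = K⟮x⟯ := by
  apply le_antisymm
  · rw [adjoin_simple_le_iff]
    exact sub_mem (mem_adjoin_simple_self K x) (IntermediateField.algebraMap_mem _ a)
  · rw [adjoin_simple_le_iff]
    have := add_mem (mem_adjoin_simple_self K (x - algebraMap K F a))
      (IntermediateField.algebraMap_mem K⟮x - algebraMap K F a⟯ a)
    rwa [sub_add_cancel] at this

include hx in
theorem transcendental_sub_const (a : K) : Transcendental K (x - algebraMap K F a) := by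
  intro h
  apply hx
  have h2 : IsAlgebraic K (algebraMap K F a) := isAlgebraic_algebraMap a
  have := h.add h2
  rwa [sub_add_cancel] at this

theorem finiteDimensional_adjoin_sub_const [h : FiniteDimensional K⟮x⟯ F] (a : K) :
    FiniteDimensional K⟮x - algebraMap K F a⟯ F := by
  rw [adjoin_sub_const_eq]
  exact h

include hx in
/-- The fibre over `x = a` is finite. -/
theorem fiber_finite [CharZero K] [FiniteDimensional K⟮x⟯ F] (a : K) :
    {v : Place K F | 0 < v.ord (x - algebraMap K F a)}.Finite := by
  haveI := finiteDimensional_adjoin_sub_const (K := K) x a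
  exact zeros_finite _ (transcendental_sub_const x hx a)

/-- **Fundamental identity over `x = a`:** `∑_{v ∣ (x - a)} e_v = [F : K(x)]`. -/
theorem sum_ord_fiber [CharZero K] [IsAlgClosed K] [FiniteDimensional K⟮x⟯ F] (a : K) :
    ∑ v ∈ (fiber_finite x hx a).toFinset, v.ord (x - algebraMap K F a)
      = (Module.finrank K⟮x⟯ F : ℤ) := by
  haveI := finiteDimensional_adjoin_sub_const (K := K) x a
  have h := sum_ord_zeros _ (transcendental_sub_const x hx a)
  rw [adjoin_sub_const_eq] at h
  exact h

/-- At a place which is not a pole of `x`, `x` takes a value `a ∈ K` (for `K` algebraically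
closed and the residue field finite over `K`, e.g. of degree one). -/
theorem ord_sub_const_nonneg (v : Place K F) (hv : 0 ≤ v.ord x) (a : K) :
    0 ≤ v.ord (x - algebraMap K F a) :=
  ord_nonneg_of_mem v (sub_mem (mem_of_ord_nonneg v hv) (v.algebraMap_mem' a))

/-- Two different values cannot both be taken at the same place. -/
theorem ord_sub_const_eq_zero_of_ne (v : Place K F) {a b : K} (hab : a ≠ b)
    (ha : 0 < v.ord (x - algebraMap K F a)) : v.ord (x - algebraMap K F b) = 0 := by
  have hxmem : x ∈ v.toValuationSubring := by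
    have h1 := mem_of_ord_nonneg v ha.le
    have := v.toValuationSubring.add_mem _ _ h1 (v.algebraMap_mem' a)
    rwa [sub_add_cancel] at this
  have hb : 0 ≤ v.ord (x - algebraMap K F b) :=
    ord_nonneg_of_mem v (sub_mem hxmem (v.algebraMap_mem' b))
  by_contra hne
  have hbpos : 0 < v.ord (x - algebraMap K F b) := lt_of_le_of_ne hb (Ne.symm hne)
  -- then `a - b` would have positive order
  have hsub : (x - algebraMap K F b) - (x - algebraMap K F a) = algebraMap K F (a - b) := by
    rw [map_sub]; ring
  have h0 : v.ord (algebraMap K F (a - b)) = 0 := ord_algebraMap_eq_zero v _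
  -- use the valuation: both terms have valuation < 1
  have hva : v.adicValuation (x - algebraMap K F a) < 1 := by
    by_contra hcon
    rw [not_lt] at hcon
    have hle := v.adicValuation_le_one_of_mem (mem_of_ord_nonneg v ha.le)
    have heq : v.adicValuation (x - algebraMap K F a) = 1 := le_antisymm hle hcon
    have : v.ord (x - algebraMap K F a) = 0 := by
      rw [Place.ord, heq]; simp
    omega
  have hvb : v.adicValuation (x - algebraMap K F b) < 1 := by
    by_contra hcon
    rw [not_lt] at hcon
    have hle := v.adicValuation_le_one_of_mem (mem_of_ord_nonneg v hb)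
    have heq : v.adicValuation (x - algebraMap K F b) = 1 := le_antisymm hle hcon
    have : v.ord (x - algebraMap K F b) = 0 := by
      rw [Place.ord, heq]; simp
    omega
  have hvab : v.adicValuation (algebraMap K F (a - b)) < 1 := by
    rw [← hsub]
    exact lt_of_le_of_lt (Valuation.map_sub _ _ _) (max_lt hvb hva)
  have hab0 : algebraMap K F (a - b) ≠ 0 := by
    rw [Ne, map_eq_zero, sub_eq_zero]
    exact hab
  have hunit : v.adicValuation (algebraMap K F (a - b)) = 1 := by
    have h1 := v.adicValuation_eq_exp_neg_ord hab0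
    rw [h0] at h1
    simpa using h1
  rw [hunit] at hvab
  exact lt_irrefl _ hvab

end Instantiate

end Fermat.Agent.S24_helper6_A2
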