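import Mathlib
import Fermat.Prelude.Def_AlgebraicCurve_DivisorClassGroup
import Fermat.Agent.S24_helper6_A2

/-!
# S18, piece P15 (a): a transcendental element of a function field has a zero

For fields `F / k`, `x ∈ F` transcendental over `k` with `F` finite over `k(x)`, in ANY
characteristic: there is a place `P` of `F / k` with `0 < ord_P x`.

Construction: a valuation subring `V` of `F` dominating `k[x]` localised at a maximal ideal
containing `x`.  Every nonzero `y ∈ F` satisfies `v(y) ^ n! = v(x) ^ m` for some integer `m`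
(`n = [F : k(x)]`; two terms of the minimal equation of `y` over `k(x)` have the same valuation),
so strict divisibility in `V` is well founded and the Bezout domain `V` is a principal ideal
ring.
-/

set_option autoImplicit false

open Polynomial IntermediateField AlgebraicCurve

namespace Fermat.Agent.S18_helper26_PLACE

section PlaceExists

variable {k F : Type*} [Field k] [Field F] [Algebra k F]

/-- Step 1: a valuation subring of `F` containing `k` in which `x` is a nonunit. -/
theorem S18P15_exists_valuationSubring (x : F) (hx : Transcendental k x) :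
    ∃ V : ValuationSubring F, (∀ a : k, algebraMap k F a ∈ V) ∧ V.valuation x < 1 := by
  classical
  let A : Subring F := (Algebra.adjoin k {x}).toSubring
  have hxA : x ∈ A := Algebra.subset_adjoin (Set.mem_singleton x)
  let I : Ideal A := Ideal.span {⟨x, hxA⟩}
  have hI : I ≠ ⊤ := by
    intro h
    rw [Ideal.span_singleton_eq_top] at h
    obtain ⟨⟨u, hu⟩, hxu⟩ := h.exists_right_inv
    have hu' : u ∈ Algebra.adjoin k {x} := hu
    rw [Algebra.adjoin_singleton_eq_range_aeval] at hu'
    obtain ⟨q, rfl⟩ := hu'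
    have h1 : x * (aeval x q) = 1 := congrArg Subtype.val hxu
    have h2 : aeval x (X * q - 1) = 0 := by
      rw [map_sub, map_mul, aeval_X, map_one, h1, sub_self]
    have h3 : (X * q - 1 : k[X]) = 0 := by
      by_contra hne
      exact hx ⟨_, hne, h2⟩
    have h4 := congrArg (Polynomial.eval 0) h3
    simp at h4
  obtain ⟨V, hAV, hIV⟩ := Ideal.image_subset_nonunits_valuationSubring I hI
  refine ⟨V, fun a => hAV (Subalgebra.algebraMap_mem (Algebra.adjoin k {x}) a), ?_⟩
  have : x ∈ V.nonunits := hIV ⟨⟨x, hxA⟩, Ideal.subset_span rfl, rfl⟩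
  exact (V.mem_nonunits_iff).1 this


/-- Polynomials in `x` lie in `V`. -/
theorem S18P15_aeval_mem (V : ValuationSubring F) (hk : ∀ a : k, algebraMap k F a ∈ V) (x : F)
    (hxV : x ∈ V) (q : k[X]) : aeval x q ∈ V := by
  induction q using Polynomial.induction_on with
  | C a => rw [aeval_C]; exact hk a
  | add p q hp hq => rw [map_add]; exact V.add_mem _ _ hp hq
  | monomial n a h =>
    rw [pow_succ, ← mul_assoc, map_mul, aeval_X]
    exact V.mul_mem _ _ h hxV

/-- Nonzero constants have valuation one. -/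
theorem S18P15_valuation_const (V : ValuationSubring F) (hk : ∀ a : k, algebraMap k F a ∈ V)
    {a : k} (ha : a ≠ 0) : V.valuation (algebraMap k F a) = 1 := by
  have h1 : V.valuation (algebraMap k F a) ≤ 1 := (V.valuation_le_one_iff _).2 (hk a)
  have h2 : V.valuation (algebraMap k F a⁻¹) ≤ 1 := (V.valuation_le_one_iff _).2 (hk a⁻¹)
  have h3 : V.valuation (algebraMap k F a) * V.valuation (algebraMap k F a⁻¹) = 1 := by
    rw [← map_mul, ← map_mul, mul_inv_cancel₀ ha, map_one, map_one]
  refine le_antisymm h1 ?_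
  calc (1 : V.ValueGroup) = V.valuation (algebraMap k F a) * V.valuation (algebraMap k F a⁻¹) :=
        h3.symm
    _ ≤ V.valuation (algebraMap k F a) * 1 := by gcongr
    _ = _ := mul_one _

/-- The valuation of a nonzero polynomial in `x` is a power of the valuation of `x`. -/
theorem S18P15_valuation_aeval (V : ValuationSubring F) (hk : ∀ a : k, algebraMap k F a ∈ V)
    (x : F) (hxV : V.valuation x < 1) (q : k[X]) (hq : q ≠ 0) :
    ∃ m : ℕ, V.valuation (aeval x q) = V.valuation x ^ m := by
  have hxmem : x ∈ V := (V.valuation_le_one_iff _).1 hxV.le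
  obtain ⟨w, hw, hnd⟩ := Polynomial.exists_eq_pow_rootMultiplicity_mul_and_not_dvd q hq 0
  refine ⟨q.rootMultiplicity 0, ?_⟩
  have hw0 : w.coeff 0 ≠ 0 := by
    intro h0
    apply hnd
    rw [C_0, sub_zero]
    exact Polynomial.X_dvd_iff.2 h0
  have hwv : V.valuation (aeval x w) = 1 := by
    have h1 : aeval x w = aeval x (divX w) * x + algebraMap k F (w.coeff 0) := by
      conv_lhs => rw [← Polynomial.divX_mul_X_add w]
      rw [map_add, map_mul, aeval_X, aeval_C]
    have h2 : V.valuation (aeval x (divX w) * x) < 1 := by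
      rw [map_mul]
      have h3 : V.valuation (aeval x (divX w)) ≤ 1 :=
        (V.valuation_le_one_iff _).2 (S18P15_aeval_mem V hk x hxmem _)
      calc V.valuation (aeval x (divX w)) * V.valuation x
          ≤ 1 * V.valuation x := by gcongr
        _ = V.valuation x := one_mul _
        _ < 1 := hxV
    rw [h1, add_comm]
    have h4 := S18P15_valuation_const V hk hw0
    rw [Valuation.map_add_eq_of_lt_left _ (by rw [h4]; exact h2), h4]
  conv_lhs => rw [hw]
  rw [map_mul, map_mul, map_pow, C_0, sub_zero, aeval_X, hwv, mul_one, map_pow]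


/-- The valuation of a nonzero element of `k(x)` is an integral power of the valuation of `x`. -/
theorem S18P15_valuation_adjoin (V : ValuationSubring F) (hk : ∀ a : k, algebraMap k F a ∈ V)
    (x : F) (hx : Transcendental k x) (hxV : V.valuation x < 1) (a : F) (ha : a ∈ k⟮x⟯)
    (ha0 : a ≠ 0) :
    ∃ m : ℤ, V.valuation a = V.valuation x ^ m := by
  obtain ⟨r, s, rfl⟩ := (IntermediateField.mem_adjoin_simple_iff k a).1 ha
  have hr : r ≠ 0 := by
    rintro rfl
    simp at ha0
  have hs : s ≠ 0 := by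
    rintro rfl
    simp at ha0
  obtain ⟨m, hm⟩ := S18P15_valuation_aeval V hk x hxV r hr
  obtain ⟨n, hn⟩ := S18P15_valuation_aeval V hk x hxV s hs
  refine ⟨(m : ℤ) - n, ?_⟩
  have hx0 : V.valuation x ≠ 0 := by
    rw [Valuation.ne_zero_iff]
    rintro rfl
    exact hx ⟨X, X_ne_zero, by simp⟩
  rw [map_div₀, hm, hn, zpow_sub₀ hx0, zpow_natCast, zpow_natCast]

/-- Ultrametric principle: in a vanishing finite sum with a nonzero term, two different terms
have the same nonzero valuation. -/
theorem S18P15_exists_eq_of_sum_eq_zero {Γ : Type*} [LinearOrderedCommGroupWithZero Γ]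
    (v : Valuation F Γ) {ι : Type*} (s : Finset ι) (f : ι → F) (hsum : ∑ i ∈ s, f i = 0)
    (i₀ : ι) (hi₀ : i₀ ∈ s) (hf₀ : f i₀ ≠ 0) :
    ∃ i ∈ s, ∃ j ∈ s, i ≠ j ∧ f i ≠ 0 ∧ v (f i) = v (f j) := by
  classical
  obtain ⟨i, hi, hmax⟩ := Finset.exists_max_image s (fun i => v (f i)) ⟨i₀, hi₀⟩
  have hvi : v (f i) ≠ 0 := by
    intro h
    have := hmax i₀ hi₀
    rw [h] at this
    exact hf₀ ((Valuation.zero_iff v).1 (le_antisymm this zero_le))
  have hfi : f i ≠ 0 := (Valuation.ne_zero_iff v).1 hvi
  by_contra hcon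
  push Not at hcon
  have hlt : ∀ j ∈ s.erase i, v (f j) < v (f i) := by
    intro j hj
    rw [Finset.mem_erase] at hj
    exact lt_of_le_of_ne (hmax j hj.2) (fun h => hcon i hi j hj.2 (Ne.symm hj.1) hfi h.symm)
  have h1 := Valuation.map_sum_lt v hvi hlt
  have h2 : f i = -∑ j ∈ s.erase i, f j := by
    rw [eq_neg_iff_add_eq_zero, Finset.add_sum_erase s f hi, hsum]
  rw [h2, Valuation.map_neg] at h1
  exact lt_irrefl _ h1


/-- Every nonzero element of `F` has a bounded power whose valuation is a power of the valuation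
of `x`. -/
theorem S18P15_valuation_pow_eq (V : ValuationSubring F) (hk : ∀ a : k, algebraMap k F a ∈ V)
    (x : F) (hx : Transcendental k x) (hxV : V.valuation x < 1) [FiniteDimensional k⟮x⟯ F]
    (y : F) (hy : y ≠ 0) :
    ∃ d : ℕ, 0 < d ∧ d ≤ Module.finrank k⟮x⟯ F ∧ ∃ m : ℤ,
      V.valuation y ^ d = V.valuation x ^ m := by
  classical
  have hint : IsIntegral k⟮x⟯ y := IsIntegral.of_finite k⟮x⟯ y
  set p := minpoly k⟮x⟯ y with hp
  have hdeg : p.natDegree ≤ Module.finrank k⟮x⟯ F := minpoly.natDegree_le y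
  have hroot : ∑ i ∈ p.support, (algebraMap k⟮x⟯ F (p.coeff i)) * y ^ i = 0 := by
    have h := minpoly.aeval k⟮x⟯ y
    rw [← hp, aeval_def, eval₂_eq_sum, Polynomial.sum_def] at h
    exact h
  have hp0 : p ≠ 0 := minpoly.ne_zero hint
  have hlead : p.natDegree ∈ p.support := Polynomial.natDegree_mem_support_of_nonzero hp0
  have hx0 : V.valuation x ≠ 0 := by
    rw [Valuation.ne_zero_iff]
    rintro rfl
    exact hx ⟨X, X_ne_zero, by simp⟩
  have hy0 : V.valuation y ≠ 0 := (Valuation.ne_zero_iff _).2 hy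
  have hterm : ∀ i ∈ p.support, (algebraMap k⟮x⟯ F (p.coeff i)) * y ^ i ≠ 0 := by
    intro i hi
    refine mul_ne_zero ?_ (pow_ne_zero _ hy)
    rw [Polynomial.mem_support_iff] at hi
    simpa using hi
  obtain ⟨i, hi, j, hj, hij, -, heq⟩ := S18P15_exists_eq_of_sum_eq_zero V.valuation p.support
    (fun i => (algebraMap k⟮x⟯ F (p.coeff i)) * y ^ i) hroot _ hlead (hterm _ hlead)
  have hcoef : ∀ i ∈ p.support, ∃ m : ℤ,
      V.valuation (algebraMap k⟮x⟯ F (p.coeff i)) = V.valuation x ^ m := by
    intro i hi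
    refine S18P15_valuation_adjoin V hk x hx hxV _ (p.coeff i).2 ?_
    rw [Polynomial.mem_support_iff] at hi
    simpa using hi
  have hile : ∀ i ∈ p.support, i ≤ Module.finrank k⟮x⟯ F := fun i hi =>
    (Polynomial.le_natDegree_of_mem_supp i hi).trans hdeg
  -- symmetric core
  have key : ∀ i j : ℕ, i ∈ p.support → j ∈ p.support → i < j →
      V.valuation ((algebraMap k⟮x⟯ F (p.coeff i)) * y ^ i) =
        V.valuation ((algebraMap k⟮x⟯ F (p.coeff j)) * y ^ j) →
      ∃ d : ℕ, 0 < d ∧ d ≤ Module.finrank k⟮x⟯ F ∧ ∃ m : ℤ,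
        V.valuation y ^ d = V.valuation x ^ m := by
    intro i j hi hj hlt h
    obtain ⟨a, ha⟩ := hcoef i hi
    obtain ⟨b, hb⟩ := hcoef j hj
    refine ⟨j - i, Nat.sub_pos_of_lt hlt, (Nat.sub_le _ _).trans (hile j hj), a - b, ?_⟩
    rw [map_mul, map_mul, map_pow, map_pow, ha, hb] at h
    have hj' : j = (j - i) + i := (Nat.sub_add_cancel hlt.le).symm
    rw [hj', pow_add, ← mul_assoc] at h
    have h2 := mul_right_cancel₀ (pow_ne_zero i hy0) h
    rw [zpow_sub₀ hx0, h2]
    field_simp
  rcases lt_or_gt_of_ne hij with h | h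
  · exact key i j hi hj h heq
  · exact key j i hj hi h heq.symm


/-- Uniform exponent. -/
theorem S18P15_valuation_pow_factorial (V : ValuationSubring F)
    (hk : ∀ a : k, algebraMap k F a ∈ V)
    (x : F) (hx : Transcendental k x) (hxV : V.valuation x < 1) [FiniteDimensional k⟮x⟯ F]
    (y : F) (hy : y ≠ 0) :
    ∃ m : ℤ, V.valuation y ^ (Module.finrank k⟮x⟯ F).factorial = V.valuation x ^ m := by
  obtain ⟨d, hd, hdn, m, hm⟩ := S18P15_valuation_pow_eq V hk x hx hxV y hy
  obtain ⟨e, he⟩ := Nat.dvd_factorial hd hdn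
  refine ⟨m * e, ?_⟩
  rw [he, pow_mul, hm, zpow_mul, zpow_natCast]

/-- A valuation subring of `F` containing `k` in which `x` is a nonunit is a principal ideal
ring. -/
theorem S18P15_isPrincipalIdealRing (V : ValuationSubring F)
    (hk : ∀ a : k, algebraMap k F a ∈ V)
    (x : F) (hx : Transcendental k x) (hxV : V.valuation x < 1) [FiniteDimensional k⟮x⟯ F] :
    IsPrincipalIdealRing V := by
  classical
  have hx0 : 0 < V.valuation x := by
    rw [zero_lt_iff, Valuation.ne_zero_iff]
    rintro rfl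
    exact hx ⟨X, X_ne_zero, by simp⟩
  have hanti := zpow_right_strictAnti₀ hx0 hxV
  set D := (Module.finrank k⟮x⟯ F).factorial with hD
  have hex : ∀ y : F, ∃ m : ℤ, y ≠ 0 → V.valuation y ^ D = V.valuation x ^ m := by
    intro y
    by_cases hy : y = 0
    · exact ⟨0, fun h => absurd hy h⟩
    · obtain ⟨m, hm⟩ := S18P15_valuation_pow_factorial V hk x hx hxV y hy
      exact ⟨m, fun _ => hm⟩
  choose M hM using hex
  have hMmul : ∀ a b : F, a ≠ 0 → b ≠ 0 → M (a * b) = M a + M b := by
    intro a b ha hb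
    apply hanti.injective
    show V.valuation x ^ M (a * b) = V.valuation x ^ (M a + M b)
    rw [← hM _ (mul_ne_zero ha hb), zpow_add₀ hx0.ne', ← hM a ha, ← hM b hb, map_mul, mul_pow]
  have hMnonneg : ∀ a : F, a ≠ 0 → V.valuation a ≤ 1 → 0 ≤ M a := by
    intro a ha hle
    have h1 : V.valuation x ^ M a ≤ V.valuation x ^ (0 : ℤ) := by
      rw [← hM a ha, zpow_zero]
      exact pow_le_one₀ zero_le hle
    exact hanti.le_iff_ge.1 h1
  have hMpos : ∀ a : F, a ≠ 0 → V.valuation a < 1 → 0 < M a := by
    intro a ha hlt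
    have h1 : V.valuation x ^ M a < V.valuation x ^ (0 : ℤ) := by
      rw [← hM a ha, zpow_zero]
      exact pow_lt_one₀ zero_le hlt (Nat.factorial_ne_zero _)
    exact hanti.lt_iff_gt.1 h1
  have hwf : WfDvdMonoid V := by
    let μ : V → WithTop ℕ := fun a => if a = 0 then ⊤ else (((M (a : F)).toNat : ℕ) : WithTop ℕ)
    refine ⟨Subrelation.wf ?_ (InvImage.wf μ wellFounded_lt)⟩
    rintro a b ⟨ha, t, ht, hb⟩
    show μ a < μ b
    by_cases hb0 : b = 0
    · simp only [μ, hb0, if_pos, if_neg ha]
      exact WithTop.coe_lt_top _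
    · have ht0 : t ≠ 0 := by
        rintro rfl
        exact hb0 (by rw [hb, mul_zero])
      have haF : (a : F) ≠ 0 := by simpa using ha
      have htF : (t : F) ≠ 0 := by simpa using ht0
      have hbF : (b : F) = (a : F) * (t : F) := by rw [hb]; rfl
      have htlt : V.valuation (t : F) < 1 := by
        rw [← V.valuation_lt_one_iff, IsLocalRing.mem_maximalIdeal]
        exact ht
      have h1 := hMmul _ _ haF htF
      have h2 := hMnonneg _ haF (V.valuation_le_one a)
      have h3 := hMpos _ htF htlt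
      simp only [μ, if_neg hb0, if_neg ha]
      have h4 : (M (a : F)).toNat < (M (b : F)).toNat := by
        rw [hbF, h1]
        omega
      exact_mod_cast h4
  exact ((IsBezout.TFAE (R := V)).out 3 1).1 hwf

/-- **P15 (a)**: a transcendental element of a function field has a zero. -/
theorem S18P15_exists_place_ord_pos (x : F) (hx : Transcendental k x)
    [FiniteDimensional k⟮x⟯ F] : ∃ P : AlgebraicCurve.Place k F, 0 < P.ord x := by
  obtain ⟨V, hk, hxV⟩ := S18P15_exists_valuationSubring (k := k) x hx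
  have hx0 : x ≠ 0 := by
    rintro rfl
    exact hx ⟨X, X_ne_zero, by simp⟩
  have hxmem : x ∈ V := (V.valuation_le_one_iff _).1 hxV.le
  have hxinv : x⁻¹ ∉ V := by
    intro h
    have h1 : V.valuation x⁻¹ ≤ 1 := (V.valuation_le_one_iff _).2 h
    have h2 : V.valuation x * V.valuation x⁻¹ = 1 := by
      rw [← map_mul, mul_inv_cancel₀ hx0, map_one]
    have h3 : V.valuation x * V.valuation x⁻¹ < 1 := by
      calc V.valuation x * V.valuation x⁻¹ ≤ V.valuation x * 1 := by gcongr
        _ = V.valuation x := mul_one _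
        _ < 1 := hxV
    rw [h2] at h3
    exact lt_irrefl _ h3
  have hne : V ≠ ⊤ := by
    rintro rfl
    exact hxinv (ValuationSubring.mem_top _)
  let P : Place k F := ⟨V, hk, hne, S18P15_isPrincipalIdealRing V hk x hx hxV⟩
  refine ⟨P, ?_⟩
  have h1 : 0 ≤ P.ord x := Fermat.Agent.S24_helper6_A2.ord_nonneg_of_mem P hxmem
  rcases h1.lt_or_eq with h | h
  · exact h
  · exfalso
    apply hxinv
    have h2 : 0 ≤ P.ord x⁻¹ := by rw [Place.ord_inv, ← h]; simp
    exact Fermat.Agent.S24_helper6_A2.mem_of_ord_nonneg P h2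

end PlaceExists

end Fermat.Agent.S18_helper26_PLACE
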