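import Mathlib
import Fermat.Prelude.Def_ModularCurve_GenusNumerics

set_option autoImplicit false

open UpperHalfPlane ModularForm CongruenceSubgroup
open scoped MatrixGroups ModularForm Manifold

namespace Fermat.Agent.S20

/-- `f` is the underlying function of a modular form of weight `k` on `Γ₀(N)`. -/
def IsMF (N : ℕ) (k : ℤ) (f : ℍ → ℂ) : Prop :=
  ∃ F : ModularForm (Gamma0 N) k, ⇑F = f

/-- `f` is the underlying function of a cusp form of weight `k` on `Γ₀(N)`. -/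
def IsCF (N : ℕ) (k : ℤ) (f : ℍ → ℂ) : Prop :=
  ∃ F : CuspForm (Gamma0 N) k, ⇑F = f

/-- `f` is the underlying function of a level one modular form of weight `k`. -/
def IsMF1 (k : ℤ) (f : ℍ → ℂ) : Prop := ∃ F : ModularForm 𝒮ℒ k, ⇑F = f

/-- The coset space `SL(2,ℤ)/Γ₀(N)` (left cosets, `SL(2,ℤ)` acts by left multiplication). -/
abbrev Q (N : ℕ) : Type := SL(2, ℤ) ⧸ Gamma0 N

/-- The conjugate of `f` attached to the coset `q = hΓ₀(N)`, namely `f ∣[k] h⁻¹`. -/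
noncomputable def cj (N : ℕ) (k : ℤ) (f : ℍ → ℂ) (q : Q N) : ℍ → ℂ :=
  f ∣[k] (q.out⁻¹ : SL(2, ℤ))

/-- A homogeneous basis of the graded module of modular forms on `Γ₀(N)` over the
graded ring of level one modular forms. -/
structure HomBasis (N : ℕ) where
  n : ℕ
  wt : Fin n → ℤ
  f : Fin n → ℍ → ℂ
  isMF : ∀ i, IsMF N (wt i) (f i)
  span : ∀ (w : ℤ) (F : ℍ → ℂ), IsMF N w F →
    ∃ a : Fin n → ℍ → ℂ, (∀ i, IsMF1 (w - wt i) (a i)) ∧ F = ∑ i, a i * f i
  indep : ∀ (w : ℤ) (a : Fin n → ℍ → ℂ), (∀ i, IsMF1 (w - wt i) (a i)) →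
    ∑ i, a i * f i = 0 → ∀ i, a i = 0

/-- index of `Γ₀(N)` -/
noncomputable def mu (N : ℕ) : ℕ := Nat.card (Q N)

/-- number of cosets fixed by `S` -/
noncomputable def nu2 (N : ℕ) : ℕ := Nat.card {q : Q N // ModularGroup.S • q = q}

/-- number of cosets fixed by `S * T` -/
noncomputable def nu3 (N : ℕ) : ℕ :=
  Nat.card {q : Q N // (ModularGroup.S * ModularGroup.T) • q = q}

/-- number of orbits of `T` on the cosets -/
noncomputable def cusps (N : ℕ) : ℕ :=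
  Nat.card (MulAction.orbitRel.Quotient (Subgroup.zpowers ModularGroup.T) (Q N))

/-- The linear system satisfied by the weight multiplicities. -/
theorem arith (μ ν₂ ν₃ c n0 n2 n4 n6 n8 n10 : ℚ)
    (h0 : n0 = 1)
    (hS : (n0 + n4 + n8) - (n2 + n6 + n10) = ν₂)
    (hU1 : n0 + n6 - (n2 + n4 + n8 + n10) / 2 = ν₃)
    (hU2 : n2 + n8 = n4 + n10)
    (hK : 2 * n2 + 4 * n4 + 6 * n6 + 8 * n8 + 10 * n10 = 6 * (μ - c))
    (hμ : n0 + n2 + n4 + n6 + n8 + n10 = μ) :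
    n10 = 1 + μ / 12 - ν₂ / 4 - ν₃ / 3 - c / 2 := by
  linarith

end Fermat.Agent.S20
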