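import Mathlib
import Fermat.Prelude.Def_ModularCurve_ArithmeticGalois
import Fermat.Prelude.Def_ModularCurve_GenusNumerics
import Fermat.Prelude.Def_AlgebraicCurve_CanonicalDivisor
import Fermat.Agent.S20_Defs

/-!
# S24: shared definitions

Analytic objects used to construct the embeddings of the modular function field
`F = ℚ̄(j(q^d) : d ∣ N) ⊆ ℚ̄((q))` into Laurent series fields `ℂ((s))`.
Only definitions and trivial lemmas live here.
-/

set_option autoImplicit false

open UpperHalfPlane ModularForm CongruenceSubgroup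
open scoped MatrixGroups ModularForm Manifold

namespace Fermat.Agent.S24

/-- The base field `ℚ̄`. -/
abbrev Kbar : Type := AlgebraicClosure ℚ

/-- The fixed embedding `ℚ̄ → ℂ`. -/
noncomputable def phi0 : Kbar →+* ℂ :=
  letI : Algebra.IsAlgebraic ℚ (AlgebraicClosure ℚ) := AlgebraicClosure.isAlgebraic ℚ
  ((IsAlgClosed.lift : AlgebraicClosure ℚ →ₐ[ℚ] ℂ) : AlgebraicClosure ℚ →+* ℂ)

/-- Klein's `j` function, `j = E₄³ / Δ` (so `j = q⁻¹ + 744 + ⋯`). -/
noncomputable def jfun (z : ℍ) : ℂ := E₄ z ^ 3 / ModularForm.discriminant z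

/-- The point `d z` of the upper half plane (junk for `d = 0`). -/
noncomputable def dmul (d : ℕ) (z : ℍ) : ℍ := ofComplex ((d : ℂ) * (z : ℂ))

/-- The function `z ↦ j(d · γ z)`. -/
noncomputable def jd (d : ℕ) (γ : SL(2, ℤ)) : ℍ → ℂ := fun z => jfun (dmul d (γ • z))

/-- The formal series `j(q^d)` with coefficients in `ℚ̄`. -/
noncomputable def jLaur (d : ℕ) [NeZero d] : LaurentSeries Kbar :=
  ModularCurve.coeffEmb Kbar (ModularCurve.qExpand ℚ d ModularCurve.jq)

theorem jLaur_mem (N : ℕ) {d : ℕ} [NeZero d] (hd : d ∣ N) :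
    jLaur d ∈ ModularCurve.modularFunctionFieldBar N :=
  ModularCurve.coeffEmb_mem_laurentBaseChange Kbar (ModularCurve.jqd_mem_full N hd)

/-- `j(q^d)` as an element of the function field. -/
noncomputable def jF (N : ℕ) (d : ℕ) [NeZero d] (hd : d ∣ N) :
    ModularCurve.modularFunctionFieldBar N := ⟨jLaur d, jLaur_mem N hd⟩

/-- `j` as an element of the function field. -/
noncomputable def jElt (N : ℕ) : ModularCurve.modularFunctionFieldBar N :=
  jF N 1 (one_dvd N)

/-- The Cayley chart centred at `z₀`: `w ↦ (z₀ - conj z₀ * w) / (1 - w)`; it maps the unit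
disc biholomorphically onto the upper half plane and `0` to `z₀`. -/
noncomputable def chart (z₀ : ℍ) (w : ℂ) : ℂ :=
  ((z₀ : ℂ) - (starRingEnd ℂ) (z₀ : ℂ) * w) / (1 - w)

/-- Taylor expansion at `z₀` of a function on the upper half plane, in the Cayley
coordinate `w = (z - z₀) / (z - conj z₀)`. -/
noncomputable def taylorAt (z₀ : ℍ) (g : ℍ → ℂ) : PowerSeries ℂ :=
  PowerSeries.mk fun n =>
    ((n.factorial : ℂ))⁻¹ * iteratedDeriv n (fun w : ℂ => g (ofComplex (chart z₀ w))) 0

/-- The same as a Laurent series. -/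
noncomputable def laurentAt (z₀ : ℍ) (g : ℍ → ℂ) : LaurentSeries ℂ :=
  HahnSeries.ofPowerSeries ℤ ℂ (taylorAt z₀ g)

/-- `g` has a pole of order at most `M` at `i∞` with respect to `q_N = exp(2 π i z / N)`,
and is `N`-periodic and holomorphic. -/
def HasPoleInf (N : ℕ) (M : ℕ) (g : ℍ → ℂ) : Prop :=
  MDifferentiable 𝓘(ℂ) 𝓘(ℂ) g ∧ (∀ z : ℍ, g ((N : ℝ) +ᵥ z) = g z) ∧
    IsBoundedAtImInfty (fun z : ℍ => Function.Periodic.qParam (N : ℝ) (z : ℂ) ^ M * g z)

open Classical in
/-- Laurent expansion at `i∞` in the variable `q_N = exp(2 π i z / N)`. -/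
noncomputable def laurentInf (N : ℕ) (g : ℍ → ℂ) : LaurentSeries ℂ :=
  if h : ∃ M : ℕ, HasPoleInf N M g then
    HahnSeries.single (-(Nat.find h : ℤ)) (1 : ℂ) *
      HahnSeries.ofPowerSeries ℤ ℂ
        (qExpansion (N : ℝ) (fun z : ℍ =>
          Function.Periodic.qParam (N : ℝ) (z : ℂ) ^ (Nat.find h) * g z))
  else 0

/-- Rescaling `s ↦ ζ s` on Laurent series coefficients. -/
def IsRescale {L : Type*} [Field L] (ζ : L) (a b : LaurentSeries L) : Prop :=
  ∀ n : ℤ, b.coeff n = ζ ^ n * a.coeff n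

/-- The fixed point `ρ = (-1 + √3 i) / 2` of `S * T`. -/
noncomputable def rho : ℍ :=
  ⟨(-1 / 2 : ℂ) + (Real.sqrt 3 / 2 : ℝ) * Complex.I, by simp⟩

end Fermat.Agent.S24
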