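import Mathlib

set_option autoImplicit false

open HahnSeries

noncomputable section

namespace Fermat.Agent.S24_helper16_B

variable {C : Type*} [Field C]

theorem support_scale_aux (z : Cˣ) (x : LaurentSeries C) :
    Function.support (fun n : ℤ => ((z ^ n : Cˣ) : C) * x.coeff n) = x.support := by
  ext n
  simp only [Function.mem_support, ne_eq, mul_eq_zero, Units.ne_zero, false_or,
    HahnSeries.mem_support]

/-- the substitution `s ↦ z s` on Laurent series, as a function -/
def lsScaleFun (z : Cˣ) (x : LaurentSeries C) : LaurentSeries C :=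
  ⟨fun n => ((z ^ n : Cˣ) : C) * x.coeff n, by
    rw [support_scale_aux]; exact x.isPWO_support⟩

@[simp] theorem coeff_lsScaleFun (z : Cˣ) (x : LaurentSeries C) (n : ℤ) :
    (lsScaleFun z x).coeff n = ((z ^ n : Cˣ) : C) * x.coeff n := rfl

theorem support_lsScaleFun (z : Cˣ) (x : LaurentSeries C) :
    (lsScaleFun z x).support = x.support := support_scale_aux z x

theorem lsScaleFun_mul (z : Cˣ) (x y : LaurentSeries C) :
    lsScaleFun z (x * y) = lsScaleFun z x * lsScaleFun z y := by
  ext a
  rw [coeff_lsScaleFun, HahnSeries.coeff_mul, HahnSeries.coeff_mul, Finset.mul_sum]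
  refine Finset.sum_congr ?_ fun ij hij => ?_
  · ext ij
    simp only [Finset.mem_addAntidiagonal, support_lsScaleFun]
  · have h : ij.1 + ij.2 = a := (Finset.mem_addAntidiagonal.mp hij).2.2
    rw [coeff_lsScaleFun, coeff_lsScaleFun, ← h, zpow_add, Units.val_mul]
    ring

theorem lsScaleFun_add (z : Cˣ) (x y : LaurentSeries C) :
    lsScaleFun z (x + y) = lsScaleFun z x + lsScaleFun z y := by
  ext a
  simp only [coeff_lsScaleFun, HahnSeries.coeff_add, mul_add]

theorem lsScaleFun_single (z : Cˣ) (n : ℤ) (a : C) :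
    lsScaleFun z (HahnSeries.single n a) = HahnSeries.single n (((z ^ n : Cˣ) : C) * a) := by
  ext k
  rw [coeff_lsScaleFun, HahnSeries.coeff_single, HahnSeries.coeff_single]
  split_ifs with h
  · rw [h]
  · rw [mul_zero]

theorem lsScaleFun_one (z : Cˣ) : lsScaleFun z (1 : LaurentSeries C) = 1 := by
  have : (1 : LaurentSeries C) = HahnSeries.single 0 1 := rfl
  rw [this, lsScaleFun_single]
  simp

theorem lsScaleFun_zero (z : Cˣ) : lsScaleFun z (0 : LaurentSeries C) = 0 := by
  ext a
  simp

theorem lsScaleFun_lsScaleFun (z w : Cˣ) (x : LaurentSeries C) :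
    lsScaleFun z (lsScaleFun w x) = lsScaleFun (z * w) x := by
  ext a
  simp only [coeff_lsScaleFun, mul_zpow, Units.val_mul]
  ring

theorem lsScaleFun_one_left (x : LaurentSeries C) : lsScaleFun (1 : Cˣ) x = x := by
  ext a
  simp

/-- the substitution `s ↦ z s` on Laurent series, as a ring automorphism -/
def lsScale (z : Cˣ) : LaurentSeries C ≃+* LaurentSeries C where
  toFun := lsScaleFun z
  invFun := lsScaleFun z⁻¹
  left_inv x := by rw [lsScaleFun_lsScaleFun, inv_mul_cancel, lsScaleFun_one_left]
  right_inv x := by rw [lsScaleFun_lsScaleFun, mul_inv_cancel, lsScaleFun_one_left]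
  map_mul' := lsScaleFun_mul z
  map_add' := lsScaleFun_add z

@[simp] theorem coeff_lsScale (z : Cˣ) (x : LaurentSeries C) (n : ℤ) :
    (lsScale z x).coeff n = ((z ^ n : Cˣ) : C) * x.coeff n := rfl

theorem support_lsScale (z : Cˣ) (x : LaurentSeries C) :
    (lsScale z x).support = x.support := support_scale_aux z x

theorem lsScale_single (z : Cˣ) (n : ℤ) (a : C) :
    lsScale z (HahnSeries.single n a) = HahnSeries.single n (((z ^ n : Cˣ) : C) * a) :=
  lsScaleFun_single z n a

theorem lsScale_C (z : Cˣ) (a : C) : lsScale z (HahnSeries.C a) = HahnSeries.C a := by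
  show lsScale z (HahnSeries.single 0 a) = HahnSeries.single 0 a
  rw [lsScale_single]
  simp

theorem orderTop_lsScale (z : Cˣ) (x : LaurentSeries C) :
    (lsScale z x).orderTop = x.orderTop := by
  by_cases hx : x = 0
  · subst hx; simp
  have hx' : lsScale z x ≠ 0 := fun h => hx ((lsScale z).map_eq_zero_iff.mp h)
  rw [HahnSeries.orderTop_of_ne_zero hx, HahnSeries.orderTop_of_ne_zero hx']
  congr 1
  simp only [support_lsScale]

theorem order_lsScale (z : Cˣ) (x : LaurentSeries C) :
    (lsScale z x).order = x.order := by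
  by_cases hx : x = 0
  · subst hx; simp
  have hx' : lsScale z x ≠ 0 := fun h => hx ((lsScale z).map_eq_zero_iff.mp h)
  have h1 := HahnSeries.order_eq_orderTop_of_ne_zero hx
  have h2 := HahnSeries.order_eq_orderTop_of_ne_zero hx'
  rw [orderTop_lsScale] at h2
  exact_mod_cast h2.trans h1.symm

theorem leadingCoeff_lsScale (z : Cˣ) (x : LaurentSeries C) :
    (lsScale z x).leadingCoeff = ((z ^ x.order : Cˣ) : C) * x.leadingCoeff := by
  rw [HahnSeries.leadingCoeff_eq, HahnSeries.leadingCoeff_eq, order_lsScale, coeff_lsScale]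

end Fermat.Agent.S24_helper16_B

end
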