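import Fermat.Agent.S24_Defs

/-!
# S24 piece LINF: the Laurent expansion at `i∞` in `q_N`

`laurentInf N` is additive, multiplicative and injective on functions with a pole of finite
order at `i∞`; it is compatible with the translation `z ↦ z + 1` and with change of level.
-/

set_option autoImplicit false

open UpperHalfPlane ModularForm CongruenceSubgroup AlgebraicCurve IntermediateField
open scoped MatrixGroups ModularForm Manifold
open Fermat.Agent.S20 Fermat.Agent.S24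

namespace Fermat.Agent.S24_helper21_LINF

noncomputable section

/-- The twisted function `q_N ^ M * g`. -/
def tw (N M : ℕ) (g : ℍ → ℂ) : ℍ → ℂ :=
  fun z : ℍ => Function.Periodic.qParam (N : ℝ) (z : ℂ) ^ M * g z

lemma tw_apply (N M : ℕ) (g : ℍ → ℂ) (z : ℍ) :
    tw N M g z = Function.Periodic.qParam (N : ℝ) (z : ℂ) ^ M * g z := rfl

/-- Holomorphic, `h`-periodic and bounded at infinity. -/
structure Good (h : ℝ) (f : ℍ → ℂ) : Prop where
  per : Function.Periodic (f ∘ ofComplex) h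
  holo : MDifferentiable 𝓘(ℂ) 𝓘(ℂ) f
  bdd : IsBoundedAtImInfty f

lemma Good.analytic {h : ℝ} (hh : 0 < h) {f : ℍ → ℂ} (hf : Good h f) :
    AnalyticAt ℂ (cuspFunction h f) 0 :=
  analyticAt_cuspFunction_zero hh hf.per hf.holo hf.bdd

lemma Good.hasSum {h : ℝ} (hh : 0 < h) {f : ℍ → ℂ} (hf : Good h f) (τ : ℍ) :
    HasSum (fun m : ℕ => (qExpansion h f).coeff m • Function.Periodic.qParam h τ ^ m) (f τ) :=
  hasSum_qExpansion hh hf.per hf.holo hf.bdd τ

lemma coeff_unique {h : ℝ} (hh : 0 < h) {f : ℍ → ℂ} (hf : Good h f) (c : ℕ → ℂ)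
    (hs : ∀ τ : ℍ, HasSum (fun m : ℕ => c m • Function.Periodic.qParam h τ ^ m) (f τ)) (m : ℕ) :
    (qExpansion h f).coeff m = c m :=
  (UpperHalfPlane.qExpansion_coeff_unique (ContinuousMap.mk f hf.holo.continuous) hh
    (hf.analytic hh) hs m).symm

lemma periodic_of_vadd {f : ℍ → ℂ} {h : ℝ} (hf : ∀ z : ℍ, f (h +ᵥ z) = f z) :
    Function.Periodic (f ∘ ofComplex) h := by
  intro w
  by_cases hw : 0 < w.im
  · have hw' : 0 < (w + h).im := by simpa using hw
    simp only [Function.comp_apply, ofComplex_apply_of_im_pos hw', ofComplex_apply_of_im_pos hw]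
    rw [← hf ⟨w, hw⟩]
    congr 1
    ext
    simp [add_comm]
  · have hw1 : w.im ≤ 0 := not_lt.1 hw
    have hw2 : (w + h).im ≤ 0 := by simpa using hw1
    simp [ofComplex_apply_of_im_nonpos hw2, ofComplex_apply_of_im_nonpos hw1]

lemma vadd_of_periodic {f : ℍ → ℂ} {h : ℝ} (hf : Function.Periodic (f ∘ ofComplex) h) (z : ℍ) :
    f (h +ᵥ z) = f z := by
  have h1 := hf (z : ℂ)
  have hz : 0 < ((z : ℂ) + h).im := by simpa using z.im_pos
  simp only [Function.comp_apply, ofComplex_apply_of_im_pos hz, ofComplex_apply] at h1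
  rw [← h1]
  congr 1
  ext
  simp [add_comm]

lemma mdiff_qParam (h : ℝ) :
    MDifferentiable 𝓘(ℂ) 𝓘(ℂ) (fun z : ℍ => Function.Periodic.qParam h (z : ℂ)) := by
  intro z
  rw [UpperHalfPlane.mdifferentiableAt_iff]
  have h1 : DifferentiableAt ℂ (Function.Periodic.qParam h) (z : ℂ) :=
    (Function.Periodic.differentiable_qParam (h := h)) _
  refine h1.congr_of_eventuallyEq ?_
  filter_upwards [(Complex.continuous_im.isOpen_preimage _ isOpen_Ioi).mem_nhds z.im_pos] with w hw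
  simp [Function.comp_apply, ofComplex_apply_of_im_pos hw]

lemma qParam_add (h : ℝ) (z c : ℂ) :
    Function.Periodic.qParam h (z + c) =
      Complex.exp (2 * Real.pi * Complex.I * c / h) * Function.Periodic.qParam h z := by
  simp only [Function.Periodic.qParam]
  rw [← Complex.exp_add]
  congr 1
  ring

lemma coe_vadd' (x : ℝ) (z : ℍ) : ((x +ᵥ z : ℍ) : ℂ) = (z : ℂ) + (x : ℂ) := by
  simp [add_comm]

lemma im_vadd' (x : ℝ) (z : ℍ) : (x +ᵥ z : ℍ).im = z.im := by
  simp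

variable (N : ℕ) [NeZero N] {g h : ℍ → ℂ} {M M' : ℕ}

lemma Npos : (0 : ℝ) < (N : ℝ) := Nat.cast_pos.2 (NeZero.pos N)

lemma qParam_vadd (z : ℍ) :
    Function.Periodic.qParam (N : ℝ) (((N : ℝ) +ᵥ z : ℍ) : ℂ) =
      Function.Periodic.qParam (N : ℝ) (z : ℂ) := by
  have hN : (N : ℂ) ≠ 0 := Nat.cast_ne_zero.2 (NeZero.ne N)
  rw [coe_vadd', qParam_add]
  have : 2 * (Real.pi : ℂ) * Complex.I * ((N : ℝ) : ℂ) / ((N : ℝ) : ℂ) =
      2 * Real.pi * Complex.I := by
    push_cast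
    field_simp
  rw [this, Complex.exp_two_pi_mul_I, one_mul]

omit [NeZero N] in
lemma qParam_vadd_one (z : ℍ) :
    Function.Periodic.qParam (N : ℝ) ((((1 : ℝ)) +ᵥ z : ℍ) : ℂ) =
      Complex.exp (2 * Real.pi * Complex.I / N) * Function.Periodic.qParam (N : ℝ) (z : ℂ) := by
  rw [coe_vadd', qParam_add]
  congr 2
  push_cast
  ring

lemma norm_qParam_le_one (z : ℍ) : ‖Function.Periodic.qParam (N : ℝ) (z : ℂ)‖ ≤ 1 :=
  (Function.Periodic.norm_qParam_lt_one (Npos N) z.im_pos).le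

lemma good_tw (hg : HasPoleInf N M g) : Good (N : ℝ) (tw N M g) := by
  obtain ⟨hhol, hper, hbdd⟩ := hg
  refine ⟨periodic_of_vadd ?_, ?_, hbdd⟩
  · intro z
    simp only [tw]
    rw [qParam_vadd, hper]
  · exact ((mdiff_qParam _).pow M).mul hhol

/-- `q_N ^ k` is good. -/
lemma good_qpow (k : ℕ) :
    Good (N : ℝ) (fun z : ℍ => Function.Periodic.qParam (N : ℝ) (z : ℂ) ^ k) := by
  refine ⟨periodic_of_vadd ?_, (mdiff_qParam _).pow k, ?_⟩
  · intro z
    rw [qParam_vadd]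
  · rw [isBoundedAtImInfty_iff]
    refine ⟨1, 0, fun z _ => ?_⟩
    rw [norm_pow]
    exact pow_le_one₀ (norm_nonneg _) (norm_qParam_le_one N z)

lemma qExpansion_qpow (k : ℕ) :
    qExpansion (N : ℝ) (fun z : ℍ => Function.Periodic.qParam (N : ℝ) (z : ℂ) ^ k) =
      PowerSeries.X ^ k := by
  ext m
  rw [coeff_unique (Npos N) (good_qpow N k) (fun m => if m = k then 1 else 0)]
  · rw [PowerSeries.coeff_X_pow]
  · intro τ
    have := hasSum_ite_eq k (Function.Periodic.qParam (N : ℝ) (τ : ℂ) ^ k)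
    convert this using 2 with m
    by_cases hm : m = k
    · simp [hm]
    · simp [hm]

lemma bdd_mul {f₁ f₂ : ℍ → ℂ} (h₁ : IsBoundedAtImInfty f₁) (h₂ : IsBoundedAtImInfty f₂) :
    IsBoundedAtImInfty (f₁ * f₂) :=
  Filter.BoundedAtFilter.mul h₁ h₂

lemma bdd_add {f₁ f₂ : ℍ → ℂ} (h₁ : IsBoundedAtImInfty f₁) (h₂ : IsBoundedAtImInfty f₂) :
    IsBoundedAtImInfty (f₁ + f₂) :=
  Filter.BoundedAtFilter.add h₁ h₂

omit [NeZero N] in
lemma tw_add (M k : ℕ) (g : ℍ → ℂ) :
    tw N (M + k) g =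
      (fun z : ℍ => Function.Periodic.qParam (N : ℝ) (z : ℂ) ^ k) * tw N M g := by
  funext z
  simp only [tw, Pi.mul_apply]
  ring

lemma hasPoleInf_add (hg : HasPoleInf N M g) (k : ℕ) : HasPoleInf N (M + k) g := by
  refine ⟨hg.1, hg.2.1, ?_⟩
  have h := bdd_mul (good_qpow N k).bdd hg.2.2
  change IsBoundedAtImInfty (tw N (M + k) g)
  rw [tw_add]
  exact h

lemma hasPoleInf_of_le (hg : HasPoleInf N M g) (hle : M ≤ M') : HasPoleInf N M' g := by
  obtain ⟨k, rfl⟩ := Nat.exists_eq_add_of_le hle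
  exact hasPoleInf_add N hg k

lemma qExpansion_tw_add (hg : HasPoleInf N M g) (k : ℕ) :
    qExpansion (N : ℝ) (tw N (M + k) g) = PowerSeries.X ^ k * qExpansion (N : ℝ) (tw N M g) := by
  rw [tw_add, qExpansion_mul ((good_qpow N k).analytic (Npos N))
    ((good_tw N hg).analytic (Npos N)), qExpansion_qpow]

/-- The candidate Laurent series, computed with the exponent `M`. -/
def Lser (M : ℕ) (g : ℍ → ℂ) : LaurentSeries ℂ :=
  HahnSeries.single (-(M : ℤ)) (1 : ℂ) *
    HahnSeries.ofPowerSeries ℤ ℂ (qExpansion (N : ℝ) (tw N M g))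

lemma single_neg_add (M k : ℕ) :
    HahnSeries.single (-((M + k : ℕ) : ℤ)) (1 : ℂ) * HahnSeries.single (k : ℤ) (1 : ℂ) =
      HahnSeries.single (-(M : ℤ)) (1 : ℂ) := by
  have e : -((M + k : ℕ) : ℤ) + (k : ℤ) = -(M : ℤ) := by
    push_cast
    ring
  rw [HahnSeries.single_mul_single, one_mul, e]

lemma Lser_add (hg : HasPoleInf N M g) (k : ℕ) : Lser N (M + k) g = Lser N M g := by
  unfold Lser
  rw [qExpansion_tw_add N hg k, map_mul, HahnSeries.ofPowerSeries_X_pow, ← mul_assoc,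
    single_neg_add]

lemma Lser_of_le (hg : HasPoleInf N M g) (hle : M ≤ M') : Lser N M' g = Lser N M g := by
  obtain ⟨k, rfl⟩ := Nat.exists_eq_add_of_le hle
  exact Lser_add N hg k

open Classical in
lemma laurentInf_eq_Lser (hg : HasPoleInf N M g) : laurentInf N g = Lser N M g := by
  have hex : ∃ M : ℕ, HasPoleInf N M g := ⟨M, hg⟩
  unfold laurentInf
  rw [dif_pos hex]
  exact (Lser_of_le N (Nat.find_spec hex) (Nat.find_min' hex hg)).symm

theorem laurentInf_eq (hg : HasPoleInf N M g) : laurentInf N g =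
    HahnSeries.single (-(M : ℤ)) (1 : ℂ) * HahnSeries.ofPowerSeries ℤ ℂ
      (qExpansion (N : ℝ) (fun z : ℍ => Function.Periodic.qParam (N : ℝ) (z : ℂ) ^ M * g z)) :=
  laurentInf_eq_Lser N hg

omit [NeZero N] in
lemma hasPoleInf_sum (hg : HasPoleInf N M g) (hh : HasPoleInf N M h) :
    HasPoleInf N M (g + h) := by
  refine ⟨hg.1.add hh.1, fun z => ?_, ?_⟩
  · simp only [Pi.add_apply, hg.2.1 z, hh.2.1 z]
  · have e : (fun z : ℍ => Function.Periodic.qParam (N : ℝ) (z : ℂ) ^ M * (g + h) z) =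
        tw N M g + tw N M h := by
      funext z
      simp only [tw, Pi.add_apply]
      ring
    rw [e]
    exact bdd_add hg.2.2 hh.2.2

omit [NeZero N] in
lemma tw_sum (M : ℕ) (g h : ℍ → ℂ) : tw N M (g + h) = tw N M g + tw N M h := by
  funext z
  simp only [tw, Pi.add_apply]
  ring

omit [NeZero N] in
lemma tw_prod (M M' : ℕ) (g h : ℍ → ℂ) : tw N (M + M') (g * h) = tw N M g * tw N M' h := by
  funext z
  simp only [tw, Pi.mul_apply]
  ring

omit [NeZero N] in
lemma hasPoleInf_prod (hg : HasPoleInf N M g) (hh : HasPoleInf N M' h) :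
    HasPoleInf N (M + M') (g * h) := by
  refine ⟨hg.1.mul hh.1, fun z => ?_, ?_⟩
  · simp only [Pi.mul_apply, hg.2.1 z, hh.2.1 z]
  · change IsBoundedAtImInfty (tw N (M + M') (g * h))
    rw [tw_prod]
    exact bdd_mul hg.2.2 hh.2.2

theorem laurentInf_add (hg : HasPoleInf N M g) (hh : HasPoleInf N M' h) :
    laurentInf N (g + h) = laurentInf N g + laurentInf N h := by
  have hg' : HasPoleInf N (M + M') g := hasPoleInf_add N hg M'
  have hh' : HasPoleInf N (M + M') h := hasPoleInf_of_le N hh (Nat.le_add_left _ _)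
  have hgh : HasPoleInf N (M + M') (g + h) := hasPoleInf_sum N hg' hh'
  rw [laurentInf_eq_Lser N hg', laurentInf_eq_Lser N hh', laurentInf_eq_Lser N hgh]
  unfold Lser
  rw [tw_sum, qExpansion_add ((good_tw N hg').analytic (Npos N))
    ((good_tw N hh').analytic (Npos N)), map_add, mul_add]

theorem laurentInf_mul (hg : HasPoleInf N M g) (hh : HasPoleInf N M' h) :
    laurentInf N (g * h) = laurentInf N g * laurentInf N h := by
  have hgh : HasPoleInf N (M + M') (g * h) := hasPoleInf_prod N hg hh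
  rw [laurentInf_eq_Lser N hg, laurentInf_eq_Lser N hh, laurentInf_eq_Lser N hgh]
  unfold Lser
  have e : HahnSeries.single (-((M + M' : ℕ) : ℤ)) (1 : ℂ) =
      HahnSeries.single (-(M : ℤ)) (1 : ℂ) * HahnSeries.single (-(M' : ℤ)) (1 : ℂ) := by
    have e' : -(M : ℤ) + -(M' : ℤ) = -((M + M' : ℕ) : ℤ) := by
      push_cast
      ring
    rw [HahnSeries.single_mul_single, one_mul, e']
  rw [tw_prod, qExpansion_mul ((good_tw N hg).analytic (Npos N))
    ((good_tw N hh).analytic (Npos N)), map_mul, e]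
  ring

omit [NeZero N] in
lemma hasPoleInf_const (c : ℂ) : HasPoleInf N 0 (fun _ : ℍ => c) := by
  refine ⟨mdifferentiable_const, fun _ => rfl, ?_⟩
  rw [isBoundedAtImInfty_iff]
  exact ⟨‖c‖, 0, fun z _ => by simp⟩

theorem laurentInf_const (c : ℂ) : laurentInf N (fun _ => c) = HahnSeries.C c := by
  have h0 := hasPoleInf_const N c
  have h1 := hasPoleInf_const N 1
  rw [laurentInf_eq_Lser N h0]
  unfold Lser
  have e : tw N 0 (fun _ : ℍ => c) = c • (1 : ℍ → ℂ) := by
    funext z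
    simp [tw]
  have e1 : tw N 0 (fun _ : ℍ => (1 : ℂ)) = (1 : ℍ → ℂ) := by
    funext z
    simp [tw]
  have han : AnalyticAt ℂ (cuspFunction (N : ℝ) (1 : ℍ → ℂ)) 0 := by
    have := (good_tw N h1).analytic (Npos N)
    rwa [e1] at this
  rw [e, qExpansion_smul han, qExpansion_one]
  have e2 : c • (1 : PowerSeries ℂ) = PowerSeries.C c := by
    ext n
    simp [PowerSeries.coeff_one, PowerSeries.coeff_C]
  rw [e2, HahnSeries.ofPowerSeries_C]
  simp

theorem laurentInf_eq_zero (hg : HasPoleInf N M g) (h0 : laurentInf N g = 0) : g = 0 := by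
  rw [laurentInf_eq_Lser N hg] at h0
  unfold Lser at h0
  have h1 : HahnSeries.ofPowerSeries ℤ ℂ (qExpansion (N : ℝ) (tw N M g)) = 0 := by
    rcases mul_eq_zero.1 h0 with h | h
    · exact absurd h (HahnSeries.single_ne_zero one_ne_zero)
    · exact h
  have h2 : qExpansion (N : ℝ) (tw N M g) = 0 := by
    apply HahnSeries.ofPowerSeries_injective (Γ := ℤ)
    rw [h1, map_zero]
  have hgood := good_tw N hg
  have h3 := (qExpansion_eq_zero_iff (Npos N) hgood.per hgood.holo hgood.bdd).1 h2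
  funext z
  have h4 := congrFun h3 z
  simp only [tw, Pi.zero_apply, mul_eq_zero] at h4
  rcases h4 with h4 | h4
  · exact absurd h4 (pow_ne_zero M (Function.Periodic.qParam_ne_zero _))
  · exact h4

/-! ### Coefficients -/

omit [NeZero N] in
lemma coeff_single_mul_ofPowerSeries (M : ℕ) (P : PowerSeries ℂ) (n : ℤ) :
    (HahnSeries.single (-(M : ℤ)) (1 : ℂ) * HahnSeries.ofPowerSeries ℤ ℂ P).coeff n =
      if n + M < 0 then 0 else PowerSeries.coeff (n + M).natAbs P := by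
  rw [HahnSeries.coeff_single_mul, one_mul, sub_neg_eq_add, PowerSeries.coeff_coe]

omit [NeZero N] in
lemma coeff_Lser (M : ℕ) (g : ℍ → ℂ) (n : ℤ) :
    (Lser N M g).coeff n =
      if n + M < 0 then 0 else PowerSeries.coeff (n + M).natAbs (qExpansion (N : ℝ) (tw N M g)) :=
  coeff_single_mul_ofPowerSeries M _ n

/-! ### Translation -/

/-- Translation by a real number. -/
def shift (x : ℝ) (g : ℍ → ℂ) : ℍ → ℂ := fun z => g (x +ᵥ z)

lemma shift_comp_ofComplex (x : ℝ) (g : ℍ → ℂ) {w : ℂ} (hw : 0 < w.im) :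
    (shift x g ∘ ofComplex) w = (g ∘ ofComplex) (w + x) := by
  have hw' : 0 < (w + x).im := by simpa using hw
  simp only [Function.comp_apply, shift, ofComplex_apply_of_im_pos hw,
    ofComplex_apply_of_im_pos hw']
  congr 1
  ext
  simp [add_comm]

lemma mdiff_shift (x : ℝ) {g : ℍ → ℂ} (hg : MDifferentiable 𝓘(ℂ) 𝓘(ℂ) g) :
    MDifferentiable 𝓘(ℂ) 𝓘(ℂ) (shift x g) := by
  intro τ
  rw [UpperHalfPlane.mdifferentiableAt_iff]
  have h1 : DifferentiableAt ℂ (g ∘ ofComplex) ((x +ᵥ τ : ℍ) : ℂ) :=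
    UpperHalfPlane.mdifferentiableAt_iff.1 (hg _)
  rw [coe_vadd'] at h1
  have h2 : DifferentiableAt ℂ (fun w : ℂ => (g ∘ ofComplex) (w + x)) (τ : ℂ) :=
    DifferentiableAt.comp (τ : ℂ) (f := fun w : ℂ => w + (x : ℂ)) h1
      (differentiableAt_id.add_const (x : ℂ))
  refine h2.congr_of_eventuallyEq ?_
  filter_upwards [(Complex.continuous_im.isOpen_preimage _ isOpen_Ioi).mem_nhds τ.im_pos]
    with w hw
  exact shift_comp_ofComplex x g hw

lemma bdd_shift (x : ℝ) {f : ℍ → ℂ} (hf : IsBoundedAtImInfty f) :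
    IsBoundedAtImInfty (shift x f) := by
  rw [isBoundedAtImInfty_iff] at hf ⊢
  obtain ⟨B, A, hBA⟩ := hf
  refine ⟨B, A, fun z hz => ?_⟩
  apply hBA
  rwa [im_vadd']

lemma bdd_const_mul (c : ℂ) {f : ℍ → ℂ} (hf : IsBoundedAtImInfty f) :
    IsBoundedAtImInfty (fun z => c * f z) := by
  rw [isBoundedAtImInfty_iff] at hf ⊢
  obtain ⟨B, A, hBA⟩ := hf
  refine ⟨‖c‖ * B, A, fun z hz => ?_⟩
  rw [norm_mul]
  exact mul_le_mul_of_nonneg_left (hBA z hz) (norm_nonneg _)

/-- The root of unity `exp (2 π i / N)`. -/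
def zetaN : ℂ := Complex.exp (2 * Real.pi * Complex.I / N)

omit [NeZero N] in
lemma zetaN_ne_zero : zetaN N ≠ 0 := Complex.exp_ne_zero _

omit [NeZero N] in
lemma tw_shift (M : ℕ) (g : ℍ → ℂ) (z : ℍ) :
    tw N M (shift 1 g) z = (zetaN N)⁻¹ ^ M * tw N M g ((1 : ℝ) +ᵥ z) := by
  simp only [tw, shift]
  rw [qParam_vadd_one, mul_pow, ← mul_assoc, ← mul_assoc, ← mul_pow, zetaN,
    inv_mul_cancel₀ (Complex.exp_ne_zero _), one_pow, one_mul]

omit [NeZero N] in
lemma hasPoleInf_shift (hg : HasPoleInf N M g) : HasPoleInf N M (shift 1 g) := by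
  refine ⟨mdiff_shift 1 hg.1, fun z => ?_, ?_⟩
  · simp only [shift]
    rw [vadd_vadd, add_comm, ← vadd_vadd, hg.2.1]
  · change IsBoundedAtImInfty (tw N M (shift 1 g))
    have e : tw N M (shift 1 g) = fun z => (zetaN N)⁻¹ ^ M * shift 1 (tw N M g) z := by
      funext z
      exact tw_shift N M g z
    rw [e]
    exact bdd_const_mul _ (bdd_shift 1 hg.2.2)

lemma coeff_tw_shift (hg : HasPoleInf N M g) (m : ℕ) :
    (qExpansion (N : ℝ) (tw N M (shift 1 g))).coeff m =
      (zetaN N)⁻¹ ^ M * zetaN N ^ m * (qExpansion (N : ℝ) (tw N M g)).coeff m := by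
  refine coeff_unique (Npos N) (good_tw N (hasPoleInf_shift N hg))
    (fun m => (zetaN N)⁻¹ ^ M * zetaN N ^ m * (qExpansion (N : ℝ) (tw N M g)).coeff m)
    (fun τ => ?_) m
  have h1 := ((good_tw N hg).hasSum (Npos N) ((1 : ℝ) +ᵥ τ)).mul_left ((zetaN N)⁻¹ ^ M)
  rw [← tw_shift] at h1
  have e : (fun k : ℕ => ((zetaN N)⁻¹ ^ M * zetaN N ^ k *
        (qExpansion (N : ℝ) (tw N M g)).coeff k) • Function.Periodic.qParam (N : ℝ) τ ^ k) =
      fun k : ℕ => (zetaN N)⁻¹ ^ M * ((qExpansion (N : ℝ) (tw N M g)).coeff k •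
        Function.Periodic.qParam (N : ℝ) (((1 : ℝ) +ᵥ τ : ℍ) : ℂ) ^ k) := by
    funext k
    rw [qParam_vadd_one, ← zetaN, mul_pow]
    simp only [smul_eq_mul]
    ring
  have h2 : HasSum (fun k : ℕ => ((zetaN N)⁻¹ ^ M * zetaN N ^ k *
        (qExpansion (N : ℝ) (tw N M g)).coeff k) • Function.Periodic.qParam (N : ℝ) τ ^ k)
      (tw N M (shift 1 g) τ) := by
    rw [e]
    exact h1
  exact h2

theorem laurentInf_T (hg : HasPoleInf N M g) (n : ℤ) :
    (laurentInf N (fun z => g ((1 : ℝ) +ᵥ z))).coeff n =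
      Complex.exp (2 * Real.pi * Complex.I / N) ^ n * (laurentInf N g).coeff n := by
  change (laurentInf N (shift 1 g)).coeff n = zetaN N ^ n * (laurentInf N g).coeff n
  rw [laurentInf_eq_Lser N hg, laurentInf_eq_Lser N (hasPoleInf_shift N hg), coeff_Lser,
    coeff_Lser]
  split_ifs with hn
  · rw [mul_zero]
  · rw [coeff_tw_shift N hg]
    congr 1
    have hn' : 0 ≤ n + M := not_lt.1 hn
    have e : n = -(M : ℤ) + ((n + M).natAbs : ℤ) := by
      rw [Int.natAbs_of_nonneg hn']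
      ring
    conv_rhs => rw [e]
    rw [zpow_add₀ (zetaN_ne_zero N), zpow_neg, zpow_natCast, zpow_natCast, inv_pow]

/-! ### Change of level -/

lemma qParam_one_eq (z : ℂ) :
    Function.Periodic.qParam ((1 : ℕ) : ℝ) z = Function.Periodic.qParam (N : ℝ) z ^ N := by
  have hN : (N : ℂ) ≠ 0 := Nat.cast_ne_zero.2 (NeZero.ne N)
  simp only [Function.Periodic.qParam]
  rw [← Complex.exp_nat_mul]
  congr 1
  push_cast
  field_simp

lemma tw_one_eq (M : ℕ) (g : ℍ → ℂ) : tw 1 M g = tw N (N * M) g := by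
  funext z
  simp only [tw]
  rw [qParam_one_eq N, pow_mul]

lemma vadd_nat_of_one {g : ℍ → ℂ} (hg : ∀ z : ℍ, g ((((1 : ℕ) : ℝ)) +ᵥ z) = g z) (k : ℕ)
    (z : ℍ) : g ((k : ℝ) +ᵥ z) = g z := by
  induction k with
  | zero => simp
  | succ k ih =>
    have e : (((k + 1 : ℕ) : ℝ)) +ᵥ z = (((1 : ℕ) : ℝ)) +ᵥ ((k : ℝ) +ᵥ z) := by
      rw [vadd_vadd]
      congr 1
      push_cast
      ring
    rw [e, hg, ih]

lemma hasPoleInf_of_one (hg : HasPoleInf 1 M g) : HasPoleInf N (N * M) g := by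
  refine ⟨hg.1, fun z => vadd_nat_of_one hg.2.1 N z, ?_⟩
  change IsBoundedAtImInfty (tw N (N * M) g)
  rw [← tw_one_eq]
  exact hg.2.2

/-- Reindexing a sum along `n ↦ n * k`. -/
lemma hasSum_reindex {k : ℕ} (hk : 0 < k) (a : ℕ → ℂ) (s : ℂ) (ha : HasSum a s) :
    HasSum (fun m : ℕ => if k ∣ m then a (m / k) else 0) s := by
  have hinj : Function.Injective (fun n : ℕ => n * k) :=
    fun x y hxy => Nat.eq_of_mul_eq_mul_right hk hxy
  have hzero : ∀ m ∉ Set.range (fun n : ℕ => n * k),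
      (fun m : ℕ => if k ∣ m then a (m / k) else 0) m = 0 := by
    intro m hm
    have : ¬ k ∣ m := by
      rintro ⟨c, rfl⟩
      exact hm ⟨c, mul_comm _ _⟩
    simp [this]
  rw [← hinj.hasSum_iff hzero]
  have : ((fun m : ℕ => if k ∣ m then a (m / k) else 0) ∘ fun n : ℕ => n * k) = a := by
    funext n
    simp [Nat.mul_div_cancel _ hk]
  rw [this]
  exact ha

lemma coeff_tw_of_one (hg : HasPoleInf 1 M g) (m : ℕ) :
    (qExpansion (N : ℝ) (tw N (N * M) g)).coeff m =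
      if N ∣ m then (qExpansion ((1 : ℕ) : ℝ) (tw 1 M g)).coeff (m / N) else 0 := by
  refine coeff_unique (Npos N) (good_tw N (hasPoleInf_of_one N hg))
    (fun m => if N ∣ m then (qExpansion ((1 : ℕ) : ℝ) (tw 1 M g)).coeff (m / N) else 0)
    (fun τ => ?_) m
  have h1 := (good_tw 1 hg).hasSum (Npos 1) τ
  rw [tw_one_eq N] at h1
  have h2 := hasSum_reindex (NeZero.pos N) _ _ h1
  have e : (fun m : ℕ => (if N ∣ m then (qExpansion ((1 : ℕ) : ℝ) (tw 1 M g)).coeff (m / N)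
        else 0) • Function.Periodic.qParam (N : ℝ) τ ^ m) =
      fun m : ℕ => if N ∣ m then
        (qExpansion ((1 : ℕ) : ℝ) (tw N (N * M) g)).coeff (m / N) •
          Function.Periodic.qParam ((1 : ℕ) : ℝ) τ ^ (m / N) else 0 := by
    funext m
    by_cases hm : N ∣ m
    · rw [if_pos hm, if_pos hm, qParam_one_eq N, ← pow_mul, Nat.mul_div_cancel' hm,
        tw_one_eq N]
    · rw [if_neg hm, if_neg hm, zero_smul]
  have h3 : HasSum (fun m : ℕ => (if N ∣ m then
        (qExpansion ((1 : ℕ) : ℝ) (tw 1 M g)).coeff (m / N) else 0) •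
        Function.Periodic.qParam (N : ℝ) τ ^ m) (tw N (N * M) g τ) := by
    rw [e]
    exact h2
  exact h3

theorem laurentInf_qExpand (hg : HasPoleInf 1 M g) :
    laurentInf N g = ModularCurve.qExpand ℂ N (laurentInf 1 g) := by
  rw [laurentInf_eq_Lser N (hasPoleInf_of_one N hg), laurentInf_eq_Lser 1 hg]
  ext k
  rw [coeff_Lser]
  have hN : (0 : ℤ) < (N : ℤ) := by exact_mod_cast NeZero.pos N
  by_cases hk : (N : ℤ) ∣ k
  · obtain ⟨j, rfl⟩ := hk
    rw [ModularCurve.qExpand_coeff_mul, coeff_Lser]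
    have e : (N : ℤ) * j + ((N * M : ℕ) : ℤ) = (N : ℤ) * (j + M) := by
      push_cast
      ring
    rw [e]
    by_cases hj : j + (M : ℤ) < 0
    · rw [if_pos hj, if_pos (mul_neg_of_pos_of_neg hN hj)]
    · have hj' : 0 ≤ j + (M : ℤ) := not_lt.1 hj
      rw [if_neg hj, if_neg (not_lt.2 (mul_nonneg hN.le hj')), coeff_tw_of_one N hg,
        Int.natAbs_mul, Int.natAbs_natCast, if_pos (dvd_mul_right _ _),
        Nat.mul_div_cancel_left _ (NeZero.pos N)]
  · rw [ModularCurve.qExpand_coeff_of_not_dvd N _ hk]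
    split_ifs with hk'
    · rfl
    · rw [coeff_tw_of_one N hg, if_neg]
      intro hdvd
      apply hk
      have h1 : (N : ℤ) ∣ ((k + ((N * M : ℕ) : ℤ)).natAbs : ℤ) := by exact_mod_cast hdvd
      rw [Int.natAbs_of_nonneg (not_lt.1 hk')] at h1
      have h2 : (N : ℤ) ∣ ((N * M : ℕ) : ℤ) := by
        push_cast
        exact dvd_mul_right _ _
      exact (Int.dvd_add_left h2).1 h1

end

end Fermat.Agent.S24_helper21_LINF
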