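import Mathlib
import Fermat.Agent.S24_Defs

set_option autoImplicit false

open UpperHalfPlane ModularForm CongruenceSubgroup AlgebraicCurve IntermediateField
open scoped MatrixGroups ModularForm Manifold
open Fermat.Agent.S20 Fermat.Agent.S24

namespace Fermat.Agent.S24_helper23_GEN

/-- The generating set `{j(q^d) : d ∣ N}` inside `ℚ̄((q))`. -/
def gens (N : ℕ) : Set (LaurentSeries Kbar) :=
  {x | ∃ (d : ℕ) (_ : NeZero d), d ∣ N ∧ x = jLaur d}

theorem coeffEmb_algebraMap (c : ℚ) :
    ModularCurve.coeffEmb Kbar (algebraMap ℚ (LaurentSeries ℚ) c)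
      = algebraMap Kbar (LaurentSeries Kbar) (algebraMap ℚ Kbar c) := by
  rw [ModularCurve.algebraMap_laurentSeries_eq_single,
    ModularCurve.algebraMap_laurentSeries_eq_single, ModularCurve.coeffEmb,
    ModularCurve.coeffMap_single]

theorem coeffEmb_mem_adjoin (N : ℕ) [NeZero N] {x : LaurentSeries ℚ}
    (hx : x ∈ ModularCurve.modularFunctionFieldFull N) :
    ModularCurve.coeffEmb Kbar x ∈ IntermediateField.adjoin Kbar (gens N) := by
  unfold ModularCurve.modularFunctionFieldFull at hx
  induction hx using IntermediateField.adjoin_induction with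
  | mem y hy =>
    obtain ⟨d, hd0, hd, rfl⟩ := hy
    exact IntermediateField.subset_adjoin _ _ ⟨d, hd0, hd, rfl⟩
  | algebraMap c =>
    rw [coeffEmb_algebraMap]
    exact IntermediateField.algebraMap_mem _ _
  | add x y hx hy h1 h2 =>
    rw [map_add]; exact add_mem h1 h2
  | inv x hx h =>
    rw [map_inv₀]; exact inv_mem h
  | mul x y hx hy h1 h2 =>
    rw [map_mul]; exact mul_mem h1 h2

/-- GEN: the function field is generated over `ℚ̄` by the `j(q^d)`, `d ∣ N`. -/
theorem GEN (N : ℕ) [NeZero N] :
    ModularCurve.modularFunctionFieldBar N =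
      IntermediateField.adjoin Kbar {x | ∃ (d : ℕ) (_ : NeZero d), d ∣ N ∧ x = jLaur d} := by
  apply le_antisymm
  · show ModularCurve.laurentBaseChange Kbar (ModularCurve.modularFunctionFieldFull N) ≤ _
    unfold ModularCurve.laurentBaseChange
    rw [IntermediateField.adjoin_le_iff]
    rintro _ ⟨x, hx, rfl⟩
    exact coeffEmb_mem_adjoin N hx
  · rw [IntermediateField.adjoin_le_iff]
    rintro _ ⟨d, hd0, hd, rfl⟩
    exact jLaur_mem N hd

/-- Ring homs out of the function field agreeing on constants and on the generators are equal. -/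
theorem ringHom_ext_FN (N : ℕ) [NeZero N] {Ω : Type*} [Field Ω]
    (f g : ModularCurve.modularFunctionFieldBar N →+* Ω)
    (hK : ∀ a : Kbar, f (algebraMap Kbar _ a) = g (algebraMap Kbar _ a))
    (hj : ∀ (d : ℕ) [NeZero d] (hd : d ∣ N), f (jF N d hd) = g (jF N d hd)) : f = g := by
  have key : ∀ x : LaurentSeries Kbar,
      x ∈ IntermediateField.adjoin Kbar {x | ∃ (d : ℕ) (_ : NeZero d), d ∣ N ∧ x = jLaur d} →
      ∀ hx' : x ∈ ModularCurve.modularFunctionFieldBar N, f ⟨x, hx'⟩ = g ⟨x, hx'⟩ := by
    intro x hx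
    induction hx using IntermediateField.adjoin_induction with
    | mem y hy =>
      intro hy'
      obtain ⟨d, hd0, hd, rfl⟩ := hy
      exact hj d hd
    | algebraMap a =>
      intro ha'
      exact hK a
    | add x y hx hy h1 h2 =>
      intro hxy
      have hx' : x ∈ ModularCurve.modularFunctionFieldBar N := by rw [GEN]; exact hx
      have hy' : y ∈ ModularCurve.modularFunctionFieldBar N := by rw [GEN]; exact hy
      have e : (⟨x + y, hxy⟩ : ModularCurve.modularFunctionFieldBar N)
          = ⟨x, hx'⟩ + ⟨y, hy'⟩ := rfl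
      rw [e, map_add, map_add, h1 hx', h2 hy']
    | inv x hx h =>
      intro hxi
      have hx' : x ∈ ModularCurve.modularFunctionFieldBar N := by rw [GEN]; exact hx
      have e : (⟨x⁻¹, hxi⟩ : ModularCurve.modularFunctionFieldBar N)
          = (⟨x, hx'⟩ : ModularCurve.modularFunctionFieldBar N)⁻¹ := rfl
      rw [e, map_inv₀, map_inv₀, h hx']
    | mul x y hx hy h1 h2 =>
      intro hxy
      have hx' : x ∈ ModularCurve.modularFunctionFieldBar N := by rw [GEN]; exact hx
      have hy' : y ∈ ModularCurve.modularFunctionFieldBar N := by rw [GEN]; exact hy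
      have e : (⟨x * y, hxy⟩ : ModularCurve.modularFunctionFieldBar N)
          = ⟨x, hx'⟩ * ⟨y, hy'⟩ := rfl
      rw [e, map_mul, map_mul, h1 hx', h2 hy']
  ext ⟨x, hx⟩
  exact key x (by rw [← GEN]; exact hx) hx

/-- Coefficients of powers of `j(q)` over `ℚ̄`. -/
theorem coeff_jLaur_one_pow_self (n : ℕ) : ((jLaur 1) ^ n).coeff (-(n : ℤ)) = 1 := by
  have h : (jLaur 1) ^ n = ModularCurve.coeffEmb Kbar (ModularCurve.jq ^ n) := by
    rw [map_pow, jLaur, ModularCurve.qExpand_one_apply]
  rw [h, ModularCurve.coeffEmb_coeff, ModularCurve.coeff_jq_pow_self, map_one]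

theorem coeff_jLaur_one_pow_of_lt {n : ℕ} {m : ℤ} (hm : m < -(n : ℤ)) :
    ((jLaur 1) ^ n).coeff m = 0 := by
  have h : (jLaur 1) ^ n = ModularCurve.coeffEmb Kbar (ModularCurve.jq ^ n) := by
    rw [map_pow, jLaur, ModularCurve.qExpand_one_apply]
  rw [h, ModularCurve.coeffEmb_coeff, ModularCurve.coeff_jq_pow_of_lt hm, map_zero]

/-- The leading Laurent coefficient of `P(j)` is the leading coefficient of `P`. -/
theorem coeff_aeval_jLaur (P : Polynomial Kbar) :
    (Polynomial.aeval (jLaur 1) P).coeff (-(P.natDegree : ℤ)) = P.leadingCoeff := by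
  rw [Polynomial.aeval_eq_sum_range, HahnSeries.coeff_sum]
  rw [Finset.sum_eq_single P.natDegree]
  · rw [Algebra.smul_def, ModularCurve.algebraMap_laurentSeries_eq_single,
      HahnSeries.coeff_single_zero_mul, coeff_jLaur_one_pow_self, mul_one]
    rfl
  · intro k hk hkn
    have hlt : k < P.natDegree :=
      lt_of_le_of_ne (Nat.lt_succ_iff.mp (Finset.mem_range.mp hk)) hkn
    rw [Algebra.smul_def, ModularCurve.algebraMap_laurentSeries_eq_single,
      HahnSeries.coeff_single_zero_mul, coeff_jLaur_one_pow_of_lt (by omega), mul_zero]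
  · intro h
    exact absurd (Finset.mem_range.mpr (Nat.lt_succ_self _)) h

theorem transcendental_jLaur_one : Transcendental Kbar (jLaur 1) := by
  intro halg
  obtain ⟨P, hP0, hP⟩ := halg
  have h := coeff_aeval_jLaur P
  rw [hP, HahnSeries.coeff_zero] at h
  exact hP0 (Polynomial.leadingCoeff_eq_zero.mp h.symm)

/-- TR: `j` is transcendental over `ℚ̄`. -/
theorem TR (N : ℕ) [NeZero N] : Transcendental Kbar (jElt N) := by
  intro halg
  apply transcendental_jLaur_one
  have := (IntermediateField.isAlgebraic_iff (S := ModularCurve.modularFunctionFieldBar N)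
    (x := jElt N)).mp halg
  exact this

end Fermat.Agent.S24_helper23_GEN
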