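import Mathlib
import Fermat.Agent.S20_Defs

/-!
# S20 piece B2: simple zeros of `E₄`, `E₆` and of `α E₄³ + β E₆²`

We prove the Ramanujan identities
`D E₄ = (E₂ E₄ - E₆) / 3` and `D E₆ = (E₂ E₆ - E₄²) / 2`
(`D = (2πi)⁻¹ d/dz`) by showing that the Serre derivative of a level one
modular form is again a level one modular form and using that the spaces of
weight `6` and weight `8` level one forms are one dimensional.  The constants
are found by comparing limits at `i∞`.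
-/

set_option autoImplicit false

open UpperHalfPlane ModularForm CongruenceSubgroup
open scoped MatrixGroups ModularForm Manifold
open Fermat.Agent.S20

namespace Fermat.Agent.S20_helper13_B2

open Derivative EisensteinSeries Filter Topology

/-! ### Behaviour at `i∞` of a periodic holomorphic bounded function -/

lemma tendsto_cusp {f : ℍ → ℂ} (hper : Function.Periodic (f ∘ ofComplex) ((1 : ℝ) : ℂ))
    (hhol : MDiff f) (hbdd : IsBoundedAtImInfty f) :
    Tendsto f atImInfty (𝓝 (cuspFunction 1 f 0)) := by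
  have han := analyticAt_cuspFunction_zero one_pos hper hhol hbdd
  have : (cuspFunction 1 f ∘ fun τ : ℍ ↦ Function.Periodic.qParam 1 τ) = f := by
    funext τ
    simpa using eq_cuspFunction τ one_ne_zero hper
  simpa [this] using han.continuousAt.tendsto.comp (qParam_tendsto_atImInfty one_pos)

lemma hasDerivAt_qParam_one (z : ℂ) :
    HasDerivAt (Function.Periodic.qParam 1)
      (2 * Real.pi * Complex.I * Function.Periodic.qParam 1 z) z := by
  unfold Function.Periodic.qParam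
  have h1 : HasDerivAt (fun w : ℂ => 2 * Real.pi * Complex.I * w / ((1 : ℝ) : ℂ))
      (2 * Real.pi * Complex.I) z := by
    simpa using ((hasDerivAt_id z).const_mul (2 * Real.pi * Complex.I))
  have := h1.cexp
  simpa [mul_comm] using this

lemma D_eq_qParam_mul {f : ℍ → ℂ} (hper : Function.Periodic (f ∘ ofComplex) ((1 : ℝ) : ℂ))
    (hhol : MDiff f) (hbdd : IsBoundedAtImInfty f) (τ : ℍ) :
    D f τ = Function.Periodic.qParam 1 τ *
      deriv (cuspFunction 1 f) (Function.Periodic.qParam 1 τ) := by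
  have hev : (f ∘ ofComplex) =ᶠ[𝓝 (τ : ℂ)]
      (cuspFunction 1 f ∘ Function.Periodic.qParam 1) := by
    filter_upwards [isOpen_upperHalfPlaneSet.mem_nhds τ.im_pos] with w hw
    have := eq_cuspFunction (f := f) ⟨w, hw⟩ one_ne_zero hper
    simp only [Function.comp_apply, ofComplex_apply_of_im_pos hw]
    exact this.symm
  have hc : DifferentiableAt ℂ (cuspFunction 1 f) (Function.Periodic.qParam 1 τ) :=
    differentiableAt_cuspFunction one_pos hper hhol hbdd
      (Function.Periodic.norm_qParam_lt_one one_pos τ.im_pos)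
  have hcomp := hc.hasDerivAt.comp (τ : ℂ) (hasDerivAt_qParam_one τ)
  rw [normalizedDerivOfComplex, hev.deriv_eq, hcomp.deriv]
  have hpi : (2 * (Real.pi : ℂ) * Complex.I) ≠ 0 := Complex.two_pi_I_ne_zero
  field_simp

lemma tendsto_D_zero {f : ℍ → ℂ} (hper : Function.Periodic (f ∘ ofComplex) ((1 : ℝ) : ℂ))
    (hhol : MDiff f) (hbdd : IsBoundedAtImInfty f) :
    Tendsto (D f) atImInfty (𝓝 0) := by
  have han := analyticAt_cuspFunction_zero one_pos hper hhol hbdd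
  have hd : ContinuousAt (deriv (cuspFunction 1 f)) 0 := han.deriv.continuousAt
  have hq := qParam_tendsto_atImInfty (h := 1) one_pos
  have h1 : Tendsto (fun τ : ℍ => deriv (cuspFunction 1 f) (Function.Periodic.qParam 1 τ))
      atImInfty (𝓝 (deriv (cuspFunction 1 f) 0)) := hd.tendsto.comp hq
  have h2 := hq.mul h1
  rw [zero_mul] at h2
  refine h2.congr fun τ => ?_
  exact (D_eq_qParam_mul hper hhol hbdd τ).symm

/-! ### Level one forms and `E₂` at `i∞` -/

/-- periodicity of a level one form -/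
lemma periodic_MF {k : ℤ} (F : ModularForm 𝒮ℒ k) :
    Function.Periodic (⇑F ∘ ofComplex) ((1 : ℝ) : ℂ) :=
  SlashInvariantFormClass.periodic_comp_ofComplex F one_mem_strictPeriods_SL

lemma bdd_MF {k : ℤ} (F : ModularForm 𝒮ℒ k) : IsBoundedAtImInfty (⇑F) :=
  ModularFormClass.bdd_at_infty F

lemma tendsto_E {k : ℕ} (hk : 3 ≤ k) (hk2 : Even k) :
    Tendsto (⇑(E hk)) atImInfty (𝓝 1) := by
  have h := tendsto_cusp (periodic_MF (E hk)) (ModularFormClass.holo (E hk)) (bdd_MF (E hk))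
  have h0 := E_qExpansion_coeff_zero hk hk2
  rw [qExpansion_coeff] at h0
  simp at h0
  rwa [h0] at h

lemma periodic_E2 : Function.Periodic (E2 ∘ ofComplex) ((1 : ℝ) : ℂ) := by
  intro w
  by_cases! hw : 0 < w.im
  · have hw' : 0 < (w + ((1 : ℝ) : ℂ)).im := by simpa using hw
    simp only [Function.comp_apply, ofComplex_apply_of_im_pos hw',
      ofComplex_apply_of_im_pos hw]
    have h1 := (hasSum_qExpansion_E2 (z := ⟨w + ((1 : ℝ) : ℂ), hw'⟩))
    have h2 := (hasSum_qExpansion_E2 (z := ⟨w, hw⟩))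
    refine h1.unique ?_
    convert h2 using 3
    rw [mul_add, Complex.exp_add]
    simp [Complex.exp_two_pi_mul_I]
  · have : (w + ((1 : ℝ) : ℂ)).im ≤ 0 := by simpa using hw
    simp only [Function.comp_apply]
    rw [ofComplex_apply_of_im_nonpos this, ofComplex_apply_of_im_nonpos hw]

lemma tendsto_E2 : Tendsto E2 atImInfty (𝓝 1) := by
  have h := tendsto_cusp periodic_E2 E2_mdifferentiable isBoundedAtImInfty_E2
  have han := analyticAt_cuspFunction_zero one_pos periodic_E2 E2_mdifferentiable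
    isBoundedAtImInfty_E2
  have hps := hasFPowerSeriesOnBall_cuspFunction (h := 1) (f := E2)
    (c := fun m : ℕ => (if m = 0 then 1 else -24 * (ArithmeticFunction.sigma 1 m : ℂ)))
    one_pos han (fun τ => by
      simpa only [Function.Periodic.qParam, Complex.ofReal_one, div_one] using
        hasSum_qExpansion_E2 (z := τ))
  have h0 := hps.coeff_zero (fun _ => 0)
  simp at h0
  rwa [← h0] at h

/-! ### The Serre derivative of a level one form is a level one form -/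

lemma serre_slash {k : ℤ} (F : ModularForm 𝒮ℒ k) (γ : SL(2, ℤ)) :
    serreDerivative (k : ℂ) (⇑F) ∣[k + 2] γ = serreDerivative (k : ℂ) (⇑F) := by
  have hγ : (γ : GL (Fin 2) ℝ) ∈ 𝒮ℒ := ⟨γ, rfl⟩
  refine serreDerivative_slash_invariant F.holo' ?_
  rw [SL_slash]
  exact SlashInvariantForm.slash_action_eqn F _ hγ

lemma serre_bdd {k : ℤ} (F : ModularForm 𝒮ℒ k) :
    IsBoundedAtImInfty (serreDerivative (k : ℂ) (⇑F)) := by
  have h1 : IsBoundedAtImInfty (D (⇑F)) :=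
    ZeroAtFilter.boundedAtFilter (tendsto_D_zero (periodic_MF F) F.holo' (bdd_MF F))
  have h2 : IsBoundedAtImInfty (fun z : ℍ => (k : ℂ) * 12⁻¹ * E2 z * F z) := by
    have hc : IsBoundedAtImInfty (fun _ : ℍ => (k : ℂ) * 12⁻¹) :=
      const_boundedAtFilter _ _
    exact (hc.mul isBoundedAtImInfty_E2).mul (bdd_MF F)
  have := h1.add h2.neg
  have heq : serreDerivative (k : ℂ) (⇑F) =
      D (⇑F) + -(fun z : ℍ => (k : ℂ) * 12⁻¹ * E2 z * F z) := by
    funext z
    simp [serreDerivative, sub_eq_add_neg]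
  rw [heq]
  exact this

/-- The Serre derivative of a level one modular form, as a modular form. -/
noncomputable def serreMF {k : ℤ} (F : ModularForm 𝒮ℒ k) : ModularForm 𝒮ℒ (k + 2) where
  toFun := serreDerivative (k : ℂ) (⇑F)
  slash_action_eq' := fun _ ⟨γ, hγ⟩ ↦ hγ ▸ serre_slash F γ
  holo' := serreDerivative_mdifferentiable (k : ℂ) F.holo'
  bdd_at_cusps' {c} hc := by
    rw [Subgroup.IsArithmetic.isCusp_iff_isCusp_SL2Z] at hc
    rw [OnePoint.isBoundedAt_iff_forall_SL2Z hc]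
    intro γ _
    rw [serre_slash F γ]
    exact serre_bdd F

lemma serreMF_apply {k : ℤ} (F : ModularForm 𝒮ℒ k) (z : ℍ) :
    serreMF F z = D (⇑F) z - (k : ℂ) * 12⁻¹ * E2 z * F z := rfl

lemma tendsto_serreMF_E {k : ℕ} (hk : 3 ≤ k) (hk2 : Even k) :
    Tendsto (⇑(serreMF (E hk))) atImInfty (𝓝 (-((k : ℂ) * 12⁻¹))) := by
  have h1 := tendsto_D_zero (periodic_MF (E hk)) (E hk).holo' (bdd_MF (E hk))
  have h2 := tendsto_E hk hk2
  have h3 := tendsto_E2
  have h4 : Tendsto (fun z : ℍ => D (⇑(E hk)) z - (((k : ℤ) : ℂ)) * 12⁻¹ * E2 z * (E hk) z)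
      atImInfty (𝓝 (0 - (((k : ℤ) : ℂ)) * 12⁻¹ * 1 * 1)) :=
    h1.sub (((tendsto_const_nhds.mul h3)).mul h2)
  have h5 : (0 - (((k : ℤ) : ℂ)) * 12⁻¹ * 1 * 1) = -((k : ℂ) * 12⁻¹) := by
    push_cast; ring
  rw [h5] at h4
  exact h4

/-! ### Ramanujan identities -/

/-- Ramanujan: `D E₄ = (E₂ E₄ - E₆) / 3`. -/
theorem ramanujan_E₄ (z : ℍ) : D (⇑E₄) z = 3⁻¹ * (E2 z * E₄ z - E₆ z) := by
  obtain ⟨c, hc⟩ : ∃ c : ℂ, c • E₆ = ModularForm.mcast (by decide) (serreMF E₄) :=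
    (finrank_eq_one_iff_of_nonzero' E₆ (E_ne_zero _ ⟨3, rfl⟩)).mp
      (Module.rank_eq_one_iff_finrank_eq_one.mp levelOne_weight_six_rank_one) _
  have hz : ∀ w : ℍ, c * E₆ w = serreMF E₄ w := fun w => by
    have := congrArg (fun G : ModularForm 𝒮ℒ 6 => G w) hc
    simpa using this
  have hlim1 : Tendsto (fun w : ℍ => c * E₆ w) atImInfty (𝓝 (c * 1)) :=
    tendsto_const_nhds.mul (tendsto_E _ ⟨3, rfl⟩)
  have hlim2 := tendsto_serreMF_E (k := 4) (by norm_num) ⟨2, rfl⟩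
  have hc' : c * 1 = -(((4 : ℕ) : ℂ) * 12⁻¹) :=
    tendsto_nhds_unique (hlim1.congr hz) hlim2
  have hc3 : c = -3⁻¹ := by
    rw [mul_one] at hc'
    rw [hc']
    push_cast
    norm_num
  have := hz z
  rw [serreMF_apply, hc3] at this
  push_cast at this
  linear_combination -this

/-- Ramanujan: `D E₆ = (E₂ E₆ - E₄²) / 2`. -/
theorem ramanujan_E₆ (z : ℍ) : D (⇑E₆) z = 2⁻¹ * (E2 z * E₆ z - E₄ z ^ 2) := by
  have hrank : Module.rank ℂ (ModularForm 𝒮ℒ 8) = 1 := by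
    have := dimension_level_one 8 ⟨4, rfl⟩
    simpa [Nat.ModEq] using this
  have hE44 : (ModularForm.mcast (by decide) (E₄.mul E₄) : ModularForm 𝒮ℒ 8) ≠ 0 := by
    intro h0
    obtain ⟨w, hw⟩ := DFunLike.ne_iff.mp (E_ne_zero (k := 4) (by norm_num) ⟨2, rfl⟩)
    have := congrArg (fun G : ModularForm 𝒮ℒ 8 => G w) h0
    have h2 : E₄ w * E₄ w = 0 := this
    exact hw (by simpa using h2)
  obtain ⟨c, hc⟩ : ∃ c : ℂ, c • (ModularForm.mcast (by decide) (E₄.mul E₄) : ModularForm 𝒮ℒ 8)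
      = ModularForm.mcast (by decide) (serreMF E₆) :=
    (finrank_eq_one_iff_of_nonzero' _ hE44).mp
      (Module.rank_eq_one_iff_finrank_eq_one.mp hrank) _
  have hz : ∀ w : ℍ, c * (E₄ w * E₄ w) = serreMF E₆ w := fun w => by
    exact congrArg (fun G : ModularForm 𝒮ℒ 8 => G w) hc
  have hlim1 : Tendsto (fun w : ℍ => c * (E₄ w * E₄ w)) atImInfty (𝓝 (c * (1 * 1))) :=
    tendsto_const_nhds.mul ((tendsto_E _ ⟨2, rfl⟩).mul (tendsto_E _ ⟨2, rfl⟩))
  have hlim2 := tendsto_serreMF_E (k := 6) (by norm_num) ⟨3, rfl⟩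
  have hc' : c * (1 * 1) = -(((6 : ℕ) : ℂ) * 12⁻¹) :=
    tendsto_nhds_unique (hlim1.congr hz) hlim2
  have hc3 : c = -2⁻¹ := by
    rw [mul_one, mul_one] at hc'
    rw [hc']
    push_cast
    norm_num
  have := hz z
  rw [serreMF_apply, hc3] at this
  push_cast at this
  linear_combination -this

/-! ### Simple zeros -/

lemma deriv_eq_two_pi_I_mul_D (F : ℍ → ℂ) (z : ℍ) :
    deriv (F ∘ ofComplex) z = 2 * Real.pi * Complex.I * D F z := by
  have hpi : (2 * (Real.pi : ℂ) * Complex.I) ≠ 0 := Complex.two_pi_I_ne_zero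
  rw [normalizedDerivOfComplex]
  field_simp

lemma D_ne_zero_imp {F : ℍ → ℂ} {z : ℍ} (h : D F z ≠ 0) : deriv (F ∘ ofComplex) z ≠ 0 := by
  rw [deriv_eq_two_pi_I_mul_D]
  exact mul_ne_zero Complex.two_pi_I_ne_zero h

lemma E₄_E₆_not_both_zero (z : ℍ) (h4 : E₄ z = 0) (h6 : E₆ z = 0) : False := by
  have h := discriminant_eq_E₄_cube_sub_E₆_sq z
  rw [h4, h6] at h
  exact discriminant_ne_zero z (by rw [h]; norm_num)

theorem B2a (z : ℍ) (h : E₄ z = 0) : deriv (⇑E₄ ∘ ofComplex) z ≠ 0 := by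
  apply D_ne_zero_imp
  rw [ramanujan_E₄, h]
  have h6 : E₆ z ≠ 0 := fun h6 => E₄_E₆_not_both_zero z h h6
  simpa using h6

theorem B2b (z : ℍ) (h : E₆ z = 0) : deriv (⇑E₆ ∘ ofComplex) z ≠ 0 := by
  apply D_ne_zero_imp
  rw [ramanujan_E₆, h]
  have h4 : E₄ z ≠ 0 := fun h4 => E₄_E₆_not_both_zero z h4 h
  simpa using h4

theorem B2c (α β : ℂ) (hαβ : α + β ≠ 0) (z : ℍ) (h4 : E₄ z ≠ 0) (h6 : E₆ z ≠ 0)
    (h : α * E₄ z ^ 3 + β * E₆ z ^ 2 = 0) :
    deriv ((fun w : ℍ => α * E₄ w ^ 3 + β * E₆ w ^ 2) ∘ ofComplex) z ≠ 0 := by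
  apply D_ne_zero_imp
  have hfun : (fun w : ℍ => α * E₄ w ^ 3 + β * E₆ w ^ 2) =
      α • (⇑E₄) ^ 3 + β • (⇑E₆) ^ 2 := by
    funext w
    simp
  have hE4 : MDiff (⇑E₄) := E₄.holo'
  have hE6 : MDiff (⇑E₆) := E₆.holo'
  have hE43 : MDiff ((⇑E₄) ^ 3) := hE4.pow 3
  have hE62 : MDiff ((⇑E₆) ^ 2) := hE6.pow 2
  have hD : D (fun w : ℍ => α * E₄ w ^ 3 + β * E₆ w ^ 2) z =
      α * (3 * E₄ z ^ 2 * D (⇑E₄) z) + β * (2 * E₆ z * D (⇑E₆) z) := by
    rw [hfun, normalizedDerivOfComplex_add _ _ (hE43.const_smul α) (hE62.const_smul β),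
      normalizedDerivOfComplex_smul _ _ hE43, normalizedDerivOfComplex_smul _ _ hE62,
      normalizedDerivOfComplex_pow _ _ hE4, normalizedDerivOfComplex_pow _ _ hE6]
    simp
  rw [hD, ramanujan_E₄, ramanujan_E₆]
  have key : α * (3 * E₄ z ^ 2 * (3⁻¹ * (E2 z * E₄ z - E₆ z))) +
      β * (2 * E₆ z * (2⁻¹ * (E2 z * E₆ z - E₄ z ^ 2))) =
      E2 z * (α * E₄ z ^ 3 + β * E₆ z ^ 2) - (α + β) * (E₄ z ^ 2 * E₆ z) := by
    ring
  rw [key, h, mul_zero, zero_sub, neg_ne_zero]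
  exact mul_ne_zero hαβ (mul_ne_zero (pow_ne_zero 2 h4) h6)

end Fermat.Agent.S20_helper13_B2
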