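import Fermat.Agent.S20_Defs

set_option autoImplicit false

open UpperHalfPlane ModularForm CongruenceSubgroup Matrix.SpecialLinearGroup
open scoped MatrixGroups ModularForm Manifold

namespace Fermat.Agent.S20

variable {N : ℕ} {k k₁ k₂ : ℤ} {f g : ℍ → ℂ}

theorem isMF_iff [NeZero N] : IsMF N k f ↔
    MDifferentiable 𝓘(ℂ) 𝓘(ℂ) f ∧ (∀ γ ∈ Gamma0 N, f ∣[k] γ = f) ∧
      (∀ γ : SL(2, ℤ), IsBoundedAtImInfty (f ∣[k] γ)) := by
  constructor
  · rintro ⟨F, rfl⟩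
    refine ⟨F.holo', fun γ hγ => ?_, fun γ => ?_⟩
    · exact SlashInvariantFormClass.slash_action_eq F _ (Subgroup.mem_map_of_mem _ hγ)
    · have hc : IsCusp (mapGL ℝ γ • OnePoint.infty) (Gamma0 N : Subgroup (GL (Fin 2) ℝ)) := by
        rw [Subgroup.IsArithmetic.isCusp_iff_isCusp_SL2Z]
        exact isCusp_SL2Z_iff'.mpr ⟨γ, rfl⟩
      have := F.bdd_at_cusps' hc
      rw [OnePoint.isBoundedAt_iff (g := mapGL ℝ γ) rfl] at this
      exact this
  · rintro ⟨h1, h2, h3⟩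
    refine ⟨⟨⟨f, ?_⟩, h1, ?_⟩, rfl⟩
    · rintro γ ⟨γ', hγ', rfl⟩
      exact h2 γ' hγ'
    · intro c hc
      rw [Subgroup.IsArithmetic.isCusp_iff_isCusp_SL2Z] at hc
      rw [OnePoint.isBoundedAt_iff_forall_SL2Z hc]
      intro γ _
      exact h3 γ

theorem isCF_iff [NeZero N] : IsCF N k f ↔
    MDifferentiable 𝓘(ℂ) 𝓘(ℂ) f ∧ (∀ γ ∈ Gamma0 N, f ∣[k] γ = f) ∧
      (∀ γ : SL(2, ℤ), IsZeroAtImInfty (f ∣[k] γ)) := by
  constructor
  · rintro ⟨F, rfl⟩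
    refine ⟨F.holo', fun γ hγ => ?_, fun γ => ?_⟩
    · exact SlashInvariantFormClass.slash_action_eq F _ (Subgroup.mem_map_of_mem _ hγ)
    · have hc : IsCusp (mapGL ℝ γ • OnePoint.infty) (Gamma0 N : Subgroup (GL (Fin 2) ℝ)) := by
        rw [Subgroup.IsArithmetic.isCusp_iff_isCusp_SL2Z]
        exact isCusp_SL2Z_iff'.mpr ⟨γ, rfl⟩
      have := F.zero_at_cusps' hc
      rw [OnePoint.isZeroAt_iff (g := mapGL ℝ γ) rfl] at this
      exact this
  · rintro ⟨h1, h2, h3⟩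
    refine ⟨⟨⟨f, ?_⟩, h1, ?_⟩, rfl⟩
    · rintro γ ⟨γ', hγ', rfl⟩
      exact h2 γ' hγ'
    · intro c hc
      rw [Subgroup.IsArithmetic.isCusp_iff_isCusp_SL2Z] at hc
      rw [OnePoint.isZeroAt_iff_forall_SL2Z hc]
      intro γ _
      exact h3 γ

theorem isMF1_iff : IsMF1 k f ↔
    MDifferentiable 𝓘(ℂ) 𝓘(ℂ) f ∧ (∀ γ : SL(2, ℤ), f ∣[k] γ = f) ∧ IsBoundedAtImInfty f := by
  constructor
  · rintro ⟨F, rfl⟩
    have hinv : ∀ γ : SL(2, ℤ), (⇑F) ∣[k] γ = ⇑F := fun γ =>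
      SlashInvariantFormClass.slash_action_eq F _ ⟨γ, rfl⟩
    refine ⟨F.holo', hinv, ?_⟩
    have hc : IsCusp (mapGL ℝ (1 : SL(2, ℤ)) • OnePoint.infty) 𝒮ℒ :=
      isCusp_SL2Z_iff'.mpr ⟨1, rfl⟩
    have := F.bdd_at_cusps' hc
    rw [OnePoint.isBoundedAt_iff (g := mapGL ℝ (1 : SL(2, ℤ))) rfl] at this
    simpa using this
  · rintro ⟨h1, h2, h3⟩
    refine ⟨⟨⟨f, ?_⟩, h1, ?_⟩, rfl⟩
    · rintro γ ⟨γ', rfl⟩
      exact h2 γ'
    · intro c hc
      rw [OnePoint.isBoundedAt_iff_forall_SL2Z hc]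
      intro γ _
      show IsBoundedAtImInfty (f ∣[k] γ)
      rw [h2 γ]
      exact h3

theorem IsMF.holo [NeZero N] (h : IsMF N k f) : MDifferentiable 𝓘(ℂ) 𝓘(ℂ) f :=
  (isMF_iff.mp h).1

theorem IsMF.slash_eq [NeZero N] (h : IsMF N k f) {γ : SL(2, ℤ)} (hγ : γ ∈ Gamma0 N) :
    f ∣[k] γ = f := (isMF_iff.mp h).2.1 γ hγ

theorem IsMF.bdd [NeZero N] (h : IsMF N k f) (γ : SL(2, ℤ)) :
    IsBoundedAtImInfty (f ∣[k] γ) := (isMF_iff.mp h).2.2 γ

theorem IsCF.isMF [NeZero N] (h : IsCF N k f) : IsMF N k f := by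
  obtain ⟨h1, h2, h3⟩ := isCF_iff.mp h
  exact isMF_iff.mpr ⟨h1, h2, fun γ => (h3 γ).isBoundedAtImInfty⟩

theorem IsMF1.holo (h : IsMF1 k f) : MDifferentiable 𝓘(ℂ) 𝓘(ℂ) f := (isMF1_iff.mp h).1

theorem IsMF1.slash_eq (h : IsMF1 k f) (γ : SL(2, ℤ)) : f ∣[k] γ = f := (isMF1_iff.mp h).2.1 γ

theorem IsMF1.bdd (h : IsMF1 k f) : IsBoundedAtImInfty f := (isMF1_iff.mp h).2.2

theorem IsMF1.isMF [NeZero N] (h : IsMF1 k f) : IsMF N k f :=
  isMF_iff.mpr ⟨h.holo, fun γ _ => h.slash_eq γ, fun γ => by rw [h.slash_eq γ]; exact h.bdd⟩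

theorem IsMF.cast [NeZero N] (h : IsMF N k₁ f) (hk : k₁ = k₂) : IsMF N k₂ f := hk ▸ h

theorem IsMF1.cast (h : IsMF1 k₁ f) (hk : k₁ = k₂) : IsMF1 k₂ f := hk ▸ h

theorem IsMF.zero [NeZero N] : IsMF N k (0 : ℍ → ℂ) := ⟨0, rfl⟩

theorem IsMF1.zero : IsMF1 k (0 : ℍ → ℂ) := ⟨0, rfl⟩

theorem IsMF.add [NeZero N] (hf : IsMF N k f) (hg : IsMF N k g) : IsMF N k (f + g) := by
  obtain ⟨F, rfl⟩ := hf
  obtain ⟨G, rfl⟩ := hg
  exact ⟨F + G, rfl⟩

theorem IsMF1.add (hf : IsMF1 k f) (hg : IsMF1 k g) : IsMF1 k (f + g) := by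
  obtain ⟨F, rfl⟩ := hf
  obtain ⟨G, rfl⟩ := hg
  exact ⟨F + G, rfl⟩

theorem IsMF.neg [NeZero N] (hf : IsMF N k f) : IsMF N k (-f) := by
  obtain ⟨F, rfl⟩ := hf
  exact ⟨-F, rfl⟩

theorem IsMF1.neg (hf : IsMF1 k f) : IsMF1 k (-f) := by
  obtain ⟨F, rfl⟩ := hf
  exact ⟨-F, rfl⟩

theorem IsMF.sub [NeZero N] (hf : IsMF N k f) (hg : IsMF N k g) : IsMF N k (f - g) := by
  obtain ⟨F, rfl⟩ := hf
  obtain ⟨G, rfl⟩ := hg
  exact ⟨F - G, rfl⟩

theorem IsMF1.sub (hf : IsMF1 k f) (hg : IsMF1 k g) : IsMF1 k (f - g) := by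
  obtain ⟨F, rfl⟩ := hf
  obtain ⟨G, rfl⟩ := hg
  exact ⟨F - G, rfl⟩

theorem IsMF.smul [NeZero N] (c : ℂ) (hf : IsMF N k f) : IsMF N k (c • f) := by
  obtain ⟨F, rfl⟩ := hf
  exact ⟨c • F, rfl⟩

theorem IsMF1.smul (c : ℂ) (hf : IsMF1 k f) : IsMF1 k (c • f) := by
  obtain ⟨F, rfl⟩ := hf
  exact ⟨c • F, rfl⟩

theorem IsMF.mul [NeZero N] (hf : IsMF N k₁ f) (hg : IsMF N k₂ g) : IsMF N (k₁ + k₂) (f * g) := by
  obtain ⟨F, rfl⟩ := hf
  obtain ⟨G, rfl⟩ := hg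
  exact ⟨F.mul G, rfl⟩

theorem IsMF1.mul (hf : IsMF1 k₁ f) (hg : IsMF1 k₂ g) : IsMF1 (k₁ + k₂) (f * g) := by
  obtain ⟨F, rfl⟩ := hf
  obtain ⟨G, rfl⟩ := hg
  exact ⟨F.mul G, rfl⟩

theorem IsMF1.const (c : ℂ) : IsMF1 0 (fun _ : ℍ => c) := ⟨ModularForm.const c, rfl⟩

theorem IsMF1.one : IsMF1 0 (1 : ℍ → ℂ) := ⟨ModularForm.const 1, rfl⟩

theorem IsMF1.pow (hf : IsMF1 k f) (n : ℕ) : IsMF1 (n * k) (f ^ n) := by
  induction n with
  | zero => simpa using IsMF1.one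
  | succ n ih =>
    rw [pow_succ]
    exact (ih.mul hf).cast (by push_cast; ring)

theorem IsMF.pow [NeZero N] (hf : IsMF N k f) (n : ℕ) : IsMF N (n * k) (f ^ n) := by
  induction n with
  | zero => simpa using (IsMF1.one.isMF (N := N))
  | succ n ih =>
    rw [pow_succ]
    exact (ih.mul hf).cast (by push_cast; ring)

theorem IsMF.sum [NeZero N] {ι : Type*} (s : Finset ι) (F : ι → ℍ → ℂ)
    (h : ∀ i ∈ s, IsMF N k (F i)) : IsMF N k (∑ i ∈ s, F i) := by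
  classical
  induction s using Finset.induction_on with
  | empty => simpa using IsMF.zero
  | insert a s ha ih =>
    rw [Finset.sum_insert ha]
    exact (h a (Finset.mem_insert_self a s)).add
      (ih fun i hi => h i (Finset.mem_insert_of_mem hi))

theorem IsMF1.sum {ι : Type*} (s : Finset ι) (F : ι → ℍ → ℂ)
    (h : ∀ i ∈ s, IsMF1 k (F i)) : IsMF1 k (∑ i ∈ s, F i) := by
  classical
  induction s using Finset.induction_on with
  | empty => simpa using IsMF1.zero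
  | insert a s ha ih =>
    rw [Finset.sum_insert ha]
    exact (h a (Finset.mem_insert_self a s)).add
      (ih fun i hi => h i (Finset.mem_insert_of_mem hi))

theorem isMF1_E₄ : IsMF1 4 (⇑E₄) := ⟨E₄, rfl⟩

theorem isMF1_E₆ : IsMF1 6 (⇑E₆) := ⟨E₆, rfl⟩

theorem isMF1_discriminant : IsMF1 12 ModularForm.discriminant :=
  ⟨(CuspForm.discriminant : CuspForm 𝒮ℒ 12), rfl⟩

end Fermat.Agent.S20

namespace Fermat.Agent.S20

variable {N : ℕ} {k k₁ k₂ : ℤ} {f g : ℍ → ℂ}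

noncomputable instance instFintypeQ (N : ℕ) [NeZero N] : Fintype (Q N) := Fintype.ofFinite _

theorem cj_eq [NeZero N] (hf : IsMF N k f) (h : SL(2, ℤ)) :
    cj N k f (h : Q N) = f ∣[k] h⁻¹ := by
  unfold cj
  obtain ⟨g, hg⟩ := QuotientGroup.mk_out_eq_mul (Gamma0 N) h
  rw [hg, mul_inv_rev, SlashAction.slash_mul, hf.slash_eq (inv_mem g.2)]

theorem cj_one [NeZero N] (hf : IsMF N k f) : cj N k f ((1 : SL(2, ℤ)) : Q N) = f := by
  rw [cj_eq hf, inv_one, SlashAction.slash_one]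

theorem cj_slash [NeZero N] (hf : IsMF N k f) (γ : SL(2, ℤ)) (q : Q N) :
    (cj N k f q) ∣[k] γ = cj N k f (γ⁻¹ • q) := by
  induction q using QuotientGroup.induction_on with
  | H h =>
    rw [cj_eq hf, ← SlashAction.slash_mul]
    have : γ⁻¹ • (h : Q N) = ((γ⁻¹ * h : SL(2, ℤ)) : Q N) := rfl
    rw [this, cj_eq hf, mul_inv_rev, inv_inv]

theorem cj_zero (q : Q N) : cj N k (0 : ℍ → ℂ) q = 0 := by
  unfold cj; exact SlashAction.zero_slash _ _

theorem cj_add (q : Q N) : cj N k (f + g) q = cj N k f q + cj N k g q := by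
  unfold cj; exact SlashAction.add_slash _ _ _ _

theorem cj_neg (q : Q N) : cj N k (-f) q = -cj N k f q := by
  unfold cj; exact SlashAction.neg_slash _ _ _

theorem cj_sub (q : Q N) : cj N k (f - g) q = cj N k f q - cj N k g q := by
  rw [sub_eq_add_neg, cj_add, cj_neg, sub_eq_add_neg]

theorem cj_smul (c : ℂ) (q : Q N) : cj N k (c • f) q = c • cj N k f q := by
  unfold cj; exact ModularForm.SL_smul_slash _ _ _ _

theorem cj_sum {ι : Type*} (s : Finset ι) (F : ι → ℍ → ℂ) (q : Q N) :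
    cj N k (∑ i ∈ s, F i) q = ∑ i ∈ s, cj N k (F i) q := by
  classical
  induction s using Finset.induction_on with
  | empty => simp [cj_zero]
  | insert a s ha ih => rw [Finset.sum_insert ha, Finset.sum_insert ha, cj_add, ih]

theorem cj_mul (k₁ k₂ : ℤ) (f g : ℍ → ℂ) (q : Q N) :
    cj N (k₁ + k₂) (f * g) q = cj N k₁ f q * cj N k₂ g q := by
  unfold cj; exact ModularForm.mul_slash_SL2 _ _ _ _ _

theorem cj_of_isMF1 (ha : IsMF1 k f) (q : Q N) : cj N k f q = f := by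
  unfold cj; exact ha.slash_eq _

theorem cj_mul_left (ha : IsMF1 k₁ f) (g : ℍ → ℂ) (q : Q N) :
    cj N (k₁ + k₂) (f * g) q = f * cj N k₂ g q := by
  rw [cj_mul, cj_of_isMF1 ha]

theorem cj_pow (f : ℍ → ℂ) (n : ℕ) (q : Q N) :
    cj N (n * k) (f ^ n) q = (cj N k f q) ^ n := by
  induction n with
  | zero =>
    simp only [Nat.cast_zero, zero_mul, pow_zero]
    exact cj_of_isMF1 IsMF1.one q
  | succ n ih =>
    have h1 : ((n + 1 : ℕ) : ℤ) * k = n * k + k := by push_cast; ring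
    rw [h1, pow_succ, cj_mul, ih, pow_succ]

theorem cj_holo (hf : MDifferentiable 𝓘(ℂ) 𝓘(ℂ) f) (q : Q N) :
    MDifferentiable 𝓘(ℂ) 𝓘(ℂ) (cj N k f q) := by
  unfold cj
  rw [ModularForm.SL_slash]
  exact hf.slash k _

theorem cj_slash_bdd [NeZero N] (hf : IsMF N k f) (q : Q N) (γ : SL(2, ℤ)) :
    IsBoundedAtImInfty ((cj N k f q) ∣[k] γ) := by
  unfold cj
  rw [← SlashAction.slash_mul]
  exact hf.bdd _

theorem cj_bdd [NeZero N] (hf : IsMF N k f) (q : Q N) :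
    IsBoundedAtImInfty (cj N k f q) := by
  unfold cj
  exact hf.bdd _

theorem cj_zeroAt [NeZero N] (hf : IsCF N k f) (q : Q N) :
    IsZeroAtImInfty (cj N k f q) := by
  unfold cj
  exact (isCF_iff.mp hf).2.2 _

/-- The trace of a modular form to level one. -/
theorem isMF1_sum_cj [NeZero N] (hf : IsMF N k f) : IsMF1 k (∑ q : Q N, cj N k f q) := by
  refine isMF1_iff.mpr ⟨?_, fun γ => ?_, ?_⟩
  · exact MDifferentiable.sum fun q _ => cj_holo hf.holo q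
  · rw [SlashAction.sum_slash]
    simp only [cj_slash hf]
    exact Fintype.sum_equiv (MulAction.toPerm γ⁻¹) _ _ fun q => rfl
  · have : ∀ s : Finset (Q N), IsBoundedAtImInfty (∑ q ∈ s, cj N k f q) := by
      intro s
      classical
      induction s using Finset.induction_on with
      | empty =>
        rw [Finset.sum_empty]
        exact zero_form_isBoundedAtImInfty
      | insert a s ha ih =>
        rw [Finset.sum_insert ha]
        exact Filter.BoundedAtFilter.add (cj_bdd hf a) ih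
    exact this _

theorem isZeroAt_sum_cj [NeZero N] (hf : IsCF N k f) :
    IsZeroAtImInfty (∑ q : Q N, cj N k f q) := by
  have : ∀ s : Finset (Q N), IsZeroAtImInfty (∑ q ∈ s, cj N k f q) := by
    intro s
    classical
    induction s using Finset.induction_on with
    | empty =>
      rw [Finset.sum_empty]
      exact Filter.zero_zeroAtFilter _
    | insert a s ha ih =>
      rw [Finset.sum_insert ha]
      exact Filter.ZeroAtFilter.add (cj_zeroAt hf a) ih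
  exact this _

/-- Gram entries: `∑_q cj f q * cj g q` is a level one form of weight `k₁ + k₂`. -/
theorem isMF1_sum_cj_mul [NeZero N] (hf : IsMF N k₁ f) (hg : IsMF N k₂ g) :
    IsMF1 (k₁ + k₂) (∑ q : Q N, cj N k₁ f q * cj N k₂ g q) := by
  have := isMF1_sum_cj (hf.mul hg)
  simpa only [cj_mul] using this

/-- Power sums of the conjugates are level one forms. -/
theorem isMF1_sum_cj_pow [NeZero N] (hf : IsMF N k f) (m : ℕ) :
    IsMF1 (m * k) (∑ q : Q N, (cj N k f q) ^ m) := by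
  have := isMF1_sum_cj (hf.pow m)
  simpa only [cj_pow] using this

/-- Evaluation of a conjugate at a translated point. -/
theorem cj_smul_apply [NeZero N] (hf : IsMF N k f) (γ : SL(2, ℤ)) (q : Q N) (z : ℍ) :
    cj N k f q (γ • z) = (denom γ z) ^ k * cj N k f (γ⁻¹ • q) z := by
  have h := congrFun (cj_slash hf γ q) z
  rw [ModularForm.SL_slash_apply] at h
  rw [← h, mul_comm, mul_assoc, ← zpow_add₀ (denom_ne_zero _ z)]
  simp

end Fermat.Agent.S20
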