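import Fermat.Agent.S20_Defs

set_option autoImplicit false

open UpperHalfPlane ModularForm CongruenceSubgroup
open scoped MatrixGroups ModularForm Manifold
open Fermat.Agent.S20

namespace Fermat.Agent.S20_helper19_B3

/-- level one forms are invariant under every element of `SL(2,ℤ)`. -/
lemma slash_SL_eq {k : ℤ} (F : ModularForm 𝒮ℒ k) (γ : SL(2, ℤ)) : (⇑F) ∣[k] γ = ⇑F :=
  SlashInvariantForm.slash_action_eqn F (Matrix.SpecialLinearGroup.mapGL ℝ γ) ⟨γ, rfl⟩

theorem B3d : ModularGroup.S • UpperHalfPlane.I = UpperHalfPlane.I := by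
  rw [UpperHalfPlane.modular_S_smul]
  ext
  simp [Complex.inv_I]

theorem B3e (k : ℤ) (f : ℍ → ℂ) :
    (f ∣[k] ModularGroup.S) UpperHalfPlane.I = Complex.I ^ (-k) * f UpperHalfPlane.I := by
  rw [SL_slash_apply, B3d, ModularGroup.denom_S, mul_comm]
  rfl

lemma ST_smul (z : ℍ) :
    (((ModularGroup.S * ModularGroup.T) • z : ℍ) : ℂ) = -((z : ℂ) + 1)⁻¹ := by
  rw [mul_smul, UpperHalfPlane.modular_S_smul, UpperHalfPlane.modular_T_smul]
  simp only [UpperHalfPlane.coe_vadd, Complex.ofReal_one]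
  rw [inv_neg, add_comm]

lemma denom_ST (z : ℍ) :
    denom ((ModularGroup.S * ModularGroup.T : SL(2, ℤ)) : GL (Fin 2) ℝ) z = (z : ℂ) + 1 := by
  rw [ModularGroup.denom_apply]
  have e10 : (ModularGroup.S * ModularGroup.T : SL(2, ℤ)) 1 0 = 1 := by decide
  have e11 : (ModularGroup.S * ModularGroup.T : SL(2, ℤ)) 1 1 = 1 := by decide
  rw [e10, e11]
  simp

theorem B3g (z : ℍ) (hz : (ModularGroup.S * ModularGroup.T) • z = z) :
    ((z : ℂ) + 1) ^ 2 - ((z : ℂ) + 1) + 1 = 0 := by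
  have h := ST_smul z
  rw [hz] at h
  have hne : (z : ℂ) + 1 ≠ 0 := by
    intro h0
    have := congrArg Complex.im h0
    simp at this
    exact z.im_ne_zero this
  have h2 : (z : ℂ) * ((z : ℂ) + 1) = -1 := by
    have h' := congrArg (fun t => t * ((z : ℂ) + 1)) h
    simp only [neg_mul, inv_mul_cancel₀ hne] at h'
    exact h'
  linear_combination h2

theorem B3f (k : ℤ) (f : ℍ → ℂ) (z : ℍ) (hz : (ModularGroup.S * ModularGroup.T) • z = z) :
    (f ∣[k] (ModularGroup.S * ModularGroup.T)) z = ((z : ℂ) + 1) ^ (-k) * f z := by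
  rw [SL_slash_apply, hz, denom_ST, mul_comm]

theorem B3a : E₆ UpperHalfPlane.I = 0 := by
  have h1 := congrFun (slash_SL_eq E₆ ModularGroup.S) UpperHalfPlane.I
  rw [B3e] at h1
  have hI : Complex.I ^ (-(6 : ℤ)) = -1 := by
    rw [zpow_neg]
    have : Complex.I ^ (6 : ℤ) = -1 := by
      have h6 : (6 : ℤ) = ((6 : ℕ) : ℤ) := rfl
      rw [h6, zpow_natCast]
      have : Complex.I ^ 6 = (Complex.I ^ 2) ^ 3 := by ring
      rw [this, Complex.I_sq]; norm_num
    rw [this]; norm_num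
  rw [hI] at h1
  have : (2 : ℂ) * E₆ UpperHalfPlane.I = 0 := by linear_combination -h1
  simpa using this

theorem B3b (z : ℍ) (hz : (ModularGroup.S * ModularGroup.T) • z = z) : E₄ z = 0 := by
  have h1 := congrFun (slash_SL_eq E₄ (ModularGroup.S * ModularGroup.T)) z
  rw [B3f 4 _ z hz] at h1
  have hg := B3g z hz
  set ζ : ℂ := (z : ℂ) + 1 with hζ
  have hne : ζ ≠ 0 := by
    intro h0
    rw [h0] at hg
    norm_num at hg
  have h3 : ζ ^ 3 = -1 := by linear_combination (ζ + 1) * hg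
  have h4 : ζ ^ 4 = -ζ := by linear_combination ζ * h3
  have hz4 : ζ ^ (-(4 : ℤ)) = (-ζ)⁻¹ := by
    rw [zpow_neg]
    have h44 : (4 : ℤ) = ((4 : ℕ) : ℤ) := rfl
    rw [h44, zpow_natCast, h4]
  rw [hz4] at h1
  -- (-ζ)⁻¹ * E₄ z = E₄ z  ⇒  E₄ z * (1 + ζ) = 0
  have h5 : E₄ z = -ζ * E₄ z := by
    have hnz : -ζ ≠ 0 := neg_ne_zero.mpr hne
    field_simp at h1
    linear_combination -h1
  have h6 : (1 + ζ) * E₄ z = 0 := by linear_combination h5
  rcases mul_eq_zero.mp h6 with h7 | h7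
  · exfalso
    have : ζ = -1 := by linear_combination h7
    rw [this] at hg
    norm_num at hg
  · exact h7

theorem B3c : ∃ z : ℍ, (ModularGroup.S * ModularGroup.T) • z = z := by
  have him : 0 < (⟨-1 / 2, Real.sqrt 3 / 2⟩ : ℂ).im := by
    simp
  refine ⟨⟨⟨-1 / 2, Real.sqrt 3 / 2⟩, him⟩, ?_⟩
  ext1
  rw [ST_smul]
  have h3 : (Real.sqrt 3) ^ 2 = 3 := Real.sq_sqrt (by norm_num)
  set w : ℂ := ⟨-1 / 2, Real.sqrt 3 / 2⟩ with hw
  have hw2 : w * (w + 1) = -1 := by
    apply Complex.ext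
    · simp [hw]
      nlinarith
    · simp [hw]
      ring
  have hne : w + 1 ≠ 0 := by
    intro h0
    rw [h0] at hw2
    norm_num at hw2
  show -(w + 1)⁻¹ = w
  field_simp
  linear_combination -hw2

end Fermat.Agent.S20_helper19_B3
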