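import Fermat.Agent.S20_Defs
import Fermat.Agent.S20_Basic

set_option autoImplicit false

open UpperHalfPlane ModularForm CongruenceSubgroup
open scoped MatrixGroups ModularForm Manifold
open Fermat.Agent.S20

namespace Fermat.Agent.S20_helper28_B5

/-- A nowhere vanishing quotient of level one forms which is bounded at `i∞` has
nonnegative weight. -/
theorem weight_nonneg_of_div {w₁ w₂ : ℤ} {f g : ℍ → ℂ} (hf : IsMF1 w₁ f) (hg : IsMF1 w₂ g)
    (hfne : ∀ z, f z ≠ 0) (hgne : ∀ z, g z ≠ 0)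
    (hb : IsBoundedAtImInfty (fun z => f z / g z)) : w₂ ≤ w₁ := by
  by_contra hlt
  rw [not_le] at hlt
  have hq : IsMF1 (w₁ - w₂) (f / g) := by
    rw [isMF1_iff]
    refine ⟨hf.holo.div hg.holo hgne, fun γ => ?_, hb⟩
    rw [div_slash_SL2, hf.slash_eq γ, hg.slash_eq γ]
  obtain ⟨F, hF⟩ := hq
  have h0 : ⇑F = 0 := ModularFormClass.levelOne_neg_weight_eq_zero (by omega) F
  have h1 : (f / g) UpperHalfPlane.I = 0 := by rw [← hF, h0]; rfl
  rw [Pi.div_apply] at h1
  exact div_ne_zero (hfne _) (hgne _) h1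

theorem B5 {w : ℤ} {D : ℍ → ℂ} (hD : IsMF1 w D) (hne : ∀ z, D z ≠ 0) (m : ℕ)
    (h1 : IsBoundedAtImInfty (fun z => D z / ModularForm.discriminant z ^ m))
    (h2 : IsBoundedAtImInfty (fun z => ModularForm.discriminant z ^ m / D z)) :
    w = 12 * m := by
  have hΔ : IsMF1 ((m : ℤ) * 12) (ModularForm.discriminant ^ m) :=
    IsMF1.pow isMF1_discriminant m
  have hΔne : ∀ z, (ModularForm.discriminant ^ m) z ≠ 0 := fun z => by
    rw [Pi.pow_apply]
    exact pow_ne_zero _ (ModularForm.discriminant_ne_zero z)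
  have ha : (m : ℤ) * 12 ≤ w := weight_nonneg_of_div hD hΔ hne hΔne h1
  have hb : w ≤ (m : ℤ) * 12 := weight_nonneg_of_div hΔ hD hΔne hne h2
  omega

end Fermat.Agent.S20_helper28_B5
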