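import Fermat.Agent.S24_Defs
import Fermat.Agent.S20_Basic
import Fermat.Agent.S20_helper28_B5
import Fermat.Agent.S20_helper19_B3

/-!
# S24, piece C-J1: basic facts on Klein's `j` function
-/

set_option autoImplicit false

open UpperHalfPlane ModularForm CongruenceSubgroup AlgebraicCurve IntermediateField
open scoped MatrixGroups ModularForm Manifold
open Fermat.Agent.S20 Fermat.Agent.S24

namespace Fermat.Agent.S24_helper27_J1

theorem jfun_eq : jfun = (⇑E₄) ^ 3 / ModularForm.discriminant := by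
  funext z
  rfl

theorem isMF1_E4_cube : IsMF1 12 ((⇑E₄) ^ 3) := by
  have := IsMF1.pow isMF1_E₄ 3
  exact this.cast (by norm_num)

theorem jfun_mdiff : MDifferentiable 𝓘(ℂ) 𝓘(ℂ) jfun := by
  rw [jfun_eq]
  exact isMF1_E4_cube.holo.div isMF1_discriminant.holo ModularForm.discriminant_ne_zero

/-- value of a level one form at a translate -/
theorem J1_smul_apply {k : ℤ} {f : ℍ → ℂ} (hf : IsMF1 k f) (γ : SL(2, ℤ)) (z : ℍ) :
    f (γ • z) = (denom γ z) ^ k * f z := by
  have h := congrFun (hf.slash_eq γ) z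
  rw [ModularForm.SL_slash_apply] at h
  rw [← h, mul_comm, mul_assoc, ← zpow_add₀ (denom_ne_zero _ z)]
  simp

theorem jfun_smul (γ : SL(2, ℤ)) (z : ℍ) : jfun (γ • z) = jfun z := by
  have h1 := J1_smul_apply isMF1_E4_cube γ z
  have h2 := J1_smul_apply isMF1_discriminant γ z
  have hne : (denom γ z) ^ (12 : ℤ) ≠ 0 := zpow_ne_zero _ (denom_ne_zero _ z)
  have hΔ := ModularForm.discriminant_ne_zero z
  show E₄ (γ • z) ^ 3 / ModularForm.discriminant (γ • z) = E₄ z ^ 3 / ModularForm.discriminant z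
  simp only [Pi.pow_apply] at h1
  rw [h1, h2]
  field_simp

theorem jfun_sub (z : ℍ) : jfun z - 1728 = E₆ z ^ 2 / ModularForm.discriminant z := by
  have h := ModularForm.discriminant_eq_E₄_cube_sub_E₆_sq z
  have hΔ := ModularForm.discriminant_ne_zero z
  unfold jfun
  field_simp
  linear_combination (-1728 : ℂ) * h

/-- A level one modular form tends to the constant coefficient of its `q`-expansion. -/
theorem J1_tendsto_coeff_zero {k : ℤ} (f : ModularForm 𝒮ℒ k) :
    Filter.Tendsto (⇑f) atImInfty (nhds ((qExpansion 1 f).coeff 0)) := by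
  have hper : Function.Periodic (⇑f ∘ ofComplex) 1 := by
    have := SlashInvariantFormClass.periodic_comp_ofComplex (h := 1) f one_mem_strictPeriods_SL
    simpa using this
  have han : AnalyticAt ℂ (cuspFunction 1 f) 0 :=
    analyticAt_cuspFunction_zero one_pos hper (ModularFormClass.holo f)
      (ModularFormClass.bdd_at_infty f)
  have h0 : (qExpansion 1 f).coeff 0 = cuspFunction 1 f 0 := by
    simp [qExpansion_coeff]
  have hcomp : (cuspFunction 1 f ∘ fun τ : ℍ ↦ Function.Periodic.qParam 1 τ : ℍ → ℂ) = f := by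
    funext τ
    simpa using eq_cuspFunction τ one_ne_zero hper
  have := han.continuousAt.tendsto.comp (qParam_tendsto_atImInfty one_pos)
  rw [hcomp] at this
  rw [h0]
  exact this

theorem J1_tendsto_E₄ : Filter.Tendsto (⇑E₄) atImInfty (nhds 1) := by
  have h := J1_tendsto_coeff_zero E₄
  have h4 := EisensteinSeries.E_qExpansion_coeff_zero (k := 4) (by norm_num) ⟨2, rfl⟩
  rw [h4] at h
  exact h

theorem jfun_surj (c : ℂ) : ∃ z : ℍ, jfun z = c := by
  by_contra hcon
  push_neg at hcon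
  set F : ℍ → ℂ := (⇑E₄) ^ 3 - c • ModularForm.discriminant with hF
  have hFmf : IsMF1 12 F := isMF1_E4_cube.sub (isMF1_discriminant.smul c)
  have hFne : ∀ z, F z ≠ 0 := by
    intro z h0
    apply hcon z
    have hΔ := ModularForm.discriminant_ne_zero z
    simp only [hF, Pi.sub_apply, Pi.pow_apply, Pi.smul_apply, smul_eq_mul] at h0
    unfold jfun
    field_simp
    linear_combination h0
  have hlim : Filter.Tendsto F atImInfty (nhds 1) := by
    have h1 : Filter.Tendsto (fun z => E₄ z ^ 3) atImInfty (nhds ((1 : ℂ) ^ 3)) :=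
      J1_tendsto_E₄.pow 3
    have h2 : Filter.Tendsto (fun z => c * ModularForm.discriminant z) atImInfty
        (nhds (c * 0)) := Filter.Tendsto.const_mul c ModularForm.discriminant_isZeroAtImInfty
    have := h1.sub h2
    simp only [one_pow, mul_zero, sub_zero] at this
    exact this
  have hinv : Filter.Tendsto (fun z => (1 : ℍ → ℂ) z / F z) atImInfty (nhds (1 / 1)) :=
    Filter.Tendsto.div tendsto_const_nhds hlim one_ne_zero
  have hb : IsBoundedAtImInfty (fun z => (1 : ℍ → ℂ) z / F z) :=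
    hinv.isBigO_one ℝ
  have := Fermat.Agent.S20_helper28_B5.weight_nonneg_of_div IsMF1.one hFmf
    (fun z => one_ne_zero) hFne hb
  norm_num at this

theorem jfun_I : jfun UpperHalfPlane.I = 1728 := by
  have h := jfun_sub UpperHalfPlane.I
  rw [Fermat.Agent.S20_helper19_B3.B3a] at h
  simp only [ne_eq, OfNat.ofNat_ne_zero, not_false_eq_true, zero_pow, zero_div] at h
  exact sub_eq_zero.mp h

theorem rho_fixed : (ModularGroup.S * ModularGroup.T) • rho = rho := by
  ext1
  rw [Fermat.Agent.S20_helper19_B3.ST_smul]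
  have h3 : ((Real.sqrt 3 : ℝ) : ℂ) ^ 2 = 3 := by
    rw [← Complex.ofReal_pow, Real.sq_sqrt (by norm_num)]
    norm_num
  have hcoe : ((rho : ℍ) : ℂ) = (-1 / 2 : ℂ) + ((Real.sqrt 3 / 2 : ℝ) : ℂ) * Complex.I := rfl
  rw [hcoe]
  push_cast
  set w : ℂ := (-1 / 2 : ℂ) + ((Real.sqrt 3 : ℝ) : ℂ) / 2 * Complex.I with hw
  have hw2 : w * (w + 1) = -1 := by
    rw [hw]
    ring_nf
    rw [Complex.I_sq, h3]
    ring
  have hne : w + 1 ≠ 0 := by
    intro h0
    rw [h0] at hw2
    norm_num at hw2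
  field_simp
  linear_combination -hw2

theorem jfun_rho : jfun rho = 0 := by
  unfold jfun
  rw [Fermat.Agent.S20_helper19_B3.B3b rho rho_fixed]
  simp

theorem dmul_coe (d : ℕ) (hd : 0 < d) (z : ℍ) : ((dmul d z : ℍ) : ℂ) = (d : ℂ) * (z : ℂ) := by
  unfold dmul
  have him : 0 < ((d : ℂ) * (z : ℂ)).im := by
    rw [Complex.mul_im]
    simp only [Complex.natCast_re, Complex.natCast_im, zero_mul, add_zero]
    exact mul_pos (Nat.cast_pos.mpr hd) z.im_pos
  rw [ofComplex_apply_of_im_pos him]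

theorem jfun_dmul_mdiff (d : ℕ) (hd : 0 < d) :
    MDifferentiable 𝓘(ℂ) 𝓘(ℂ) (fun z : ℍ => jfun (dmul d z)) := by
  rw [UpperHalfPlane.mdifferentiable_iff]
  have hj := UpperHalfPlane.mdifferentiable_iff.mp jfun_mdiff
  intro w hw
  have hw' : 0 < w.im := hw
  have him : 0 < ((d : ℂ) * w).im := by
    rw [Complex.mul_im]
    simp only [Complex.natCast_re, Complex.natCast_im, zero_mul, add_zero]
    exact mul_pos (Nat.cast_pos.mpr hd) hw'
  have h1 : DifferentiableWithinAt ℂ (jfun ∘ ofComplex) {z | 0 < z.im} ((d : ℂ) * w) := hj _ him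
  have h2 : DifferentiableWithinAt ℂ (fun v : ℂ => (d : ℂ) * v) {z | 0 < z.im} w :=
    (differentiableAt_id.const_mul (d : ℂ)).differentiableWithinAt
  have h3 := DifferentiableWithinAt.comp (t := {z : ℂ | 0 < z.im}) w h1 h2 (by
    intro v hv
    have hv' : 0 < v.im := hv
    show 0 < ((d : ℂ) * v).im
    rw [Complex.mul_im]
    simp only [Complex.natCast_re, Complex.natCast_im, zero_mul, add_zero]
    exact mul_pos (Nat.cast_pos.mpr hd) hv')
  refine h3.congr ?_ ?_
  · intro v hv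
    have hv' : 0 < v.im := hv
    simp only [Function.comp_apply]
    congr 1
    apply UpperHalfPlane.ext
    rw [dmul_coe d hd, ofComplex_apply_of_im_pos hv']
    have him' : 0 < ((d : ℂ) * v).im := by
      rw [Complex.mul_im]
      simp only [Complex.natCast_re, Complex.natCast_im, zero_mul, add_zero]
      exact mul_pos (Nat.cast_pos.mpr hd) hv'
    rw [ofComplex_apply_of_im_pos him']
  · simp only [Function.comp_apply]
    congr 1
    apply UpperHalfPlane.ext
    rw [dmul_coe d hd, ofComplex_apply_of_im_pos hw']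
    rw [ofComplex_apply_of_im_pos him]

theorem jd_mdiff (d : ℕ) (hd : 0 < d) (γ : SL(2, ℤ)) : MDifferentiable 𝓘(ℂ) 𝓘(ℂ) (jd d γ) := by
  have h := (jfun_dmul_mdiff d hd).slash 0 (γ : GL (Fin 2) ℝ)
  have e : jd d γ = (fun z : ℍ => jfun (dmul d z)) ∣[(0 : ℤ)] γ := by
    funext z
    rw [ModularForm.SL_slash_apply]
    simp [jd]
  rw [e, ModularForm.SL_slash]
  exact h

theorem jd_one (γ : SL(2, ℤ)) : jd 1 γ = jfun := by
  funext z
  unfold jd
  have : dmul 1 (γ • z) = γ • z := by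
    apply UpperHalfPlane.ext
    rw [dmul_coe 1 one_pos]
    simp
  rw [this, jfun_smul]

theorem jd_mul (d : ℕ) (γ γ' : SL(2, ℤ)) (z : ℍ) : jd d (γ * γ') z = jd d γ (γ' • z) := by
  unfold jd
  rw [mul_smul]

/-- the conjugate of an element of `Γ₀(N)` by `diag(d, 1)` -/
def conjd (d : ℕ) (γ' : SL(2, ℤ)) (h : (d : ℤ) ∣ γ' 1 0) : SL(2, ℤ) :=
  ⟨!![γ' 0 0, γ' 0 1 * d; γ' 1 0 / d, γ' 1 1], by
    rw [Matrix.det_fin_two_of]
    have hdet := γ'.2
    rw [Matrix.det_fin_two] at hdet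
    obtain ⟨c, hc⟩ := h
    by_cases hd : (d : ℤ) = 0
    · rw [hd] at hc ⊢
      simp only [zero_mul] at hc
      rw [hc] at hdet
      simp only [mul_zero, Int.ediv_zero, sub_zero] at hdet ⊢
      exact hdet
    · rw [hc, Int.mul_ediv_cancel_left _ hd]
      rw [hc] at hdet
      linear_combination hdet⟩

theorem dmul_smul (d : ℕ) (hd : 0 < d) (γ' : SL(2, ℤ)) (h : (d : ℤ) ∣ γ' 1 0) (w : ℍ) :
    dmul d (γ' • w) = conjd d γ' h • dmul d w := by
  apply UpperHalfPlane.ext
  rw [dmul_coe d hd, UpperHalfPlane.coe_specialLinearGroup_apply,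
    UpperHalfPlane.coe_specialLinearGroup_apply, dmul_coe d hd]
  obtain ⟨c, hc⟩ := h
  have hd0 : (d : ℤ) ≠ 0 := by exact_mod_cast hd.ne'
  have hdc : (d : ℂ) ≠ 0 := by exact_mod_cast hd.ne'
  have e00 : (conjd d γ' ⟨c, hc⟩) 0 0 = γ' 0 0 := rfl
  have e01 : (conjd d γ' ⟨c, hc⟩) 0 1 = γ' 0 1 * d := rfl
  have e10 : (conjd d γ' ⟨c, hc⟩) 1 0 = c := by
    show γ' 1 0 / (d : ℤ) = c
    rw [hc, Int.mul_ediv_cancel_left _ hd0]
  have e11 : (conjd d γ' ⟨c, hc⟩) 1 1 = γ' 1 1 := rfl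
  rw [e00, e01, e10, e11, hc]
  have hden : ((algebraMap ℤ ℝ ((d : ℤ) * c) : ℝ) : ℂ) * (w : ℂ) + ((algebraMap ℤ ℝ (γ' 1 1) : ℝ) : ℂ)
      ≠ 0 := by
    have := UpperHalfPlane.denom_ne_zero (γ' : GL (Fin 2) ℝ) w
    rw [ModularGroup.denom_apply, hc] at this
    simpa using this
  simp only [algebraMap_int_eq, Int.coe_castRingHom, Int.cast_mul, Int.cast_natCast,
    Complex.ofReal_mul, Complex.ofReal_intCast, Complex.ofReal_natCast] at hden ⊢
  have hden2 : (c : ℂ) * ((d : ℂ) * (w : ℂ)) + ((γ' 1 1 : ℤ) : ℂ) ≠ 0 := by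
    intro h0
    apply hden
    linear_combination h0
  field_simp

theorem jd_Gamma0 {N d : ℕ} (hd : d ∣ N) (hN : 0 < N) (γ' : SL(2, ℤ)) (hγ' : γ' ∈ Gamma0 N)
    (γ : SL(2, ℤ)) : jd d (γ' * γ) = jd d γ := by
  have hdpos : 0 < d := Nat.pos_of_dvd_of_pos hd hN
  have h10 : (d : ℤ) ∣ γ' 1 0 := by
    rw [Gamma0_mem, ZMod.intCast_zmod_eq_zero_iff_dvd] at hγ'
    exact dvd_trans (by exact_mod_cast hd) hγ'
  funext z
  unfold jd
  rw [mul_smul, dmul_smul d hdpos γ' h10, jfun_smul]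

end Fermat.Agent.S24_helper27_J1
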