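import Mathlib
import Fermat.Prelude.Def_ModularCurve_X0

set_option autoImplicit false
set_option linter.style.haveILetI false
set_option linter.unusedVariables false
set_option linter.unusedSectionVars false

open UpperHalfPlane ModularForm
open scoped Topology

noncomputable section

namespace Fermat.Agent.S28_QDELTA

/-- The Taylor series at `0` of a function `ℂ → ℂ`. -/
def tay (g : ℂ → ℂ) : PowerSeries ℂ :=
  .mk fun m ↦ (↑m.factorial)⁻¹ * iteratedDeriv m g 0

theorem tay_coeff (g : ℂ → ℂ) (m : ℕ) :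
    (tay g).coeff m = (↑m.factorial)⁻¹ * iteratedDeriv m g 0 := by
  simp [tay]

theorem qExpansion_eq_tay (h : ℝ) (f : ℍ → ℂ) : qExpansion h f = tay (cuspFunction h f) := rfl

theorem tay_congr {g g' : ℂ → ℂ} (h : g =ᶠ[𝓝 0] g') : tay g = tay g' := by
  ext m
  rw [tay_coeff, tay_coeff, h.iteratedDeriv_eq m]

theorem tay_mul {f g : ℂ → ℂ} (hf : AnalyticAt ℂ f 0) (hg : AnalyticAt ℂ g 0) :
    tay (f * g) = tay f * tay g := by
  ext
  simp only [tay_coeff, iteratedDeriv_mul hf.contDiffAt hg.contDiffAt, Finset.mul_sum,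
    PowerSeries.coeff_mul, Finset.Nat.sum_antidiagonal_eq_sum_range_succ_mk,
    Nat.succ_eq_add_one]
  refine Finset.sum_congr rfl fun i hi ↦ ?_
  rw [Nat.cast_choose _ (by grind)]
  field_simp [Nat.factorial_ne_zero]

theorem tay_one : tay (1 : ℂ → ℂ) = 1 := by
  ext m
  have h2 : iteratedDeriv m (1 : ℂ → ℂ) 0 = if m = 0 then 1 else 0 := by
    simpa [ite_apply] using! iteratedDeriv_const
  simp +contextual [tay_coeff, h2]

theorem tay_pow {f : ℂ → ℂ} (hf : AnalyticAt ℂ f 0) (n : ℕ) : tay (f ^ n) = tay f ^ n := by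
  induction n with
  | zero => simpa using tay_one
  | succ n ih => rw [pow_succ, pow_succ, tay_mul (hf.pow n) hf, ih]


theorem iteratedDeriv_eval (p : Polynomial ℂ) (m : ℕ) :
    iteratedDeriv m (fun x => p.eval x) = fun x => (Polynomial.derivative^[m] p).eval x := by
  induction m with
  | zero => simp
  | succ m ih =>
    rw [iteratedDeriv_succ, ih, Function.iterate_succ_apply']
    ext x
    exact Polynomial.deriv _

theorem tay_eval (p : Polynomial ℂ) : tay (fun x => p.eval x) = (p : PowerSeries ℂ) := by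
  ext m
  rw [tay_coeff, iteratedDeriv_eval]
  show (↑m.factorial)⁻¹ * Polynomial.eval 0 ((⇑Polynomial.derivative)^[m] p) = _
  rw [← Polynomial.coeff_zero_eq_eval_zero,
    Polynomial.coeff_iterate_derivative, Polynomial.coeff_coe, zero_add,
    Nat.descFactorial_self, nsmul_eq_mul, ← mul_assoc,
    inv_mul_cancel₀ (Nat.cast_ne_zero.mpr (Nat.factorial_ne_zero m)), one_mul]

/-- Iterated derivatives pass to locally uniform limits of holomorphic functions. -/
theorem tendstoLocallyUniformlyOn_iteratedDeriv {ι : Type*} {φ : Filter ι}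
    {U : Set ℂ} (hU : IsOpen U) {F : ι → ℂ → ℂ} {f : ℂ → ℂ}
    (hf : TendstoLocallyUniformlyOn F f φ U) (hF : ∀ᶠ n in φ, DifferentiableOn ℂ (F n) U)
    (m : ℕ) :
    TendstoLocallyUniformlyOn (fun n => iteratedDeriv m (F n)) (iteratedDeriv m f) φ U ∧
      ∀ᶠ n in φ, DifferentiableOn ℂ (iteratedDeriv m (F n)) U := by
  induction m with
  | zero => simpa using ⟨hf, hF⟩
  | succ m ih =>
    obtain ⟨h1, h2⟩ := ih
    refine ⟨?_, ?_⟩
    · have := h1.deriv h2 hU
      simp only [iteratedDeriv_succ]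
      exact this
    · filter_upwards [h2] with n hn
      rw [iteratedDeriv_succ]
      exact hn.deriv hU

theorem tendsto_tay_coeff {ι : Type*} {φ : Filter ι}
    {U : Set ℂ} (hU : IsOpen U) (h0 : (0 : ℂ) ∈ U) {F : ι → ℂ → ℂ} {f : ℂ → ℂ}
    (hf : TendstoLocallyUniformlyOn F f φ U) (hF : ∀ᶠ n in φ, DifferentiableOn ℂ (F n) U)
    (m : ℕ) :
    Filter.Tendsto (fun n => (tay (F n)).coeff m) φ (𝓝 ((tay f).coeff m)) := by
  have h1 := ((tendstoLocallyUniformlyOn_iteratedDeriv hU hf hF m).1).tendsto_at h0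
  simp only [tay_coeff]
  exact h1.const_mul _


open scoped PowerSeries.WithPiTopology in
/-- The Taylor series of the analytic Euler product is the formal Euler product. -/
theorem tay_tprod :
    tay (fun q : ℂ ↦ ∏' n : ℕ, (1 - q ^ (n + 1))) =
      ModularCurve.etaProd.map (Int.castRingHom ℂ) := by
  ext m
  have hA : TendstoLocallyUniformlyOn
      (fun (s : Finset ℕ) (q : ℂ) => ∏ n ∈ s, (1 - q ^ (n + 1)))
      (fun q : ℂ ↦ ∏' n : ℕ, (1 - q ^ (n + 1))) Filter.atTop (Metric.ball (0 : ℂ) 1) :=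
    hasProdLocallyUniformlyOn_iff_tendstoLocallyUniformlyOn.mp
      multipliableLocallyUniformlyOn_one_sub_pow.hasProdLocallyUniformlyOn
  have hdiff : ∀ᶠ s : Finset ℕ in Filter.atTop,
      DifferentiableOn ℂ (fun q : ℂ => ∏ n ∈ s, (1 - q ^ (n + 1))) (Metric.ball (0 : ℂ) 1) :=
    .of_forall fun s => by
      simpa [Finset.prod_fn] using
        DifferentiableOn.finsetProd (𝕜 := ℂ) (u := s) (s := Metric.ball (0 : ℂ) 1)
          (f := fun (n : ℕ) (q : ℂ) => 1 - q ^ (n + 1)) (fun _ _ ↦ by fun_prop)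
  have h1 := tendsto_tay_coeff Metric.isOpen_ball (Metric.mem_ball_self one_pos) hA hdiff m
  have h2 : ∀ s : Finset ℕ, tay (fun q : ℂ => ∏ n ∈ s, (1 - q ^ (n + 1))) =
      (∏ n ∈ s, ((1 : PowerSeries ℤ) - PowerSeries.X ^ (n + 1))).map (Int.castRingHom ℂ) := by
    intro s
    have e1 : (fun q : ℂ => ∏ n ∈ s, (1 - q ^ (n + 1))) =
        fun q => (∏ n ∈ s, ((1 : Polynomial ℂ) - Polynomial.X ^ (n + 1))).eval q := by
      ext q
      simp [Polynomial.eval_prod]
    rw [e1, tay_eval, map_prod]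
    rw [← Polynomial.coeToPowerSeries.ringHom_apply, map_prod]
    refine Finset.prod_congr rfl fun n _ => ?_
    simp
  have hB : Filter.Tendsto
      (fun s : Finset ℕ => ∏ n ∈ s, ((1 : PowerSeries ℤ) - PowerSeries.X ^ (n + 1)))
      Filter.atTop (𝓝 ModularCurve.etaProd) :=
    (PowerSeries.WithPiTopology.multipliable_one_sub_X_pow ℤ).hasProd
  have h3 : Filter.Tendsto
      (fun s : Finset ℕ => ((∏ n ∈ s, ((1 : PowerSeries ℤ) - PowerSeries.X ^ (n + 1))).map
        (Int.castRingHom ℂ)).coeff m) Filter.atTop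
      (𝓝 ((ModularCurve.etaProd.map (Int.castRingHom ℂ)).coeff m)) := by
    simp only [PowerSeries.coeff_map]
    have hc : Continuous (fun p : PowerSeries ℤ => (Int.castRingHom ℂ) (p.coeff m)) :=
      (continuous_of_discreteTopology (f := fun z : ℤ => (Int.castRingHom ℂ) z)).comp
        (PowerSeries.WithPiTopology.continuous_coeff ℤ m)
    exact (hc.tendsto _).comp hB
  exact tendsto_nhds_unique (h1.congr (fun s => by rw [h2])) h3

theorem qExpansion_discriminant :
    qExpansion 1 discriminant =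
      (PowerSeries.X * ModularCurve.dedekindEtaUnit).map (Int.castRingHom ℂ) := by
  have hP : AnalyticAt ℂ (fun q : ℂ ↦ ∏' n : ℕ, (1 - q ^ (n + 1))) 0 :=
    differentiableOn_tprod_one_sub_pow.analyticAt (Metric.ball_mem_nhds 0 one_pos)
  have hid : AnalyticAt ℂ (fun q : ℂ => q) 0 := analyticAt_id
  have e1 : cuspFunction 1 discriminant =ᶠ[𝓝 0]
      ((fun q : ℂ => q) * (fun q : ℂ ↦ ∏' n : ℕ, (1 - q ^ (n + 1))) ^ 24) := by
    filter_upwards [Metric.ball_mem_nhds (0 : ℂ) one_pos] with q hq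
    rw [discriminant_cuspFunction_eqOn hq]
    simp only [Pi.mul_apply, Pi.pow_apply]
    rw [(multipliable_one_sub_pow (by simpa using hq)).tprod_pow 24]
  have e2 : tay (fun q : ℂ => q) = PowerSeries.X := by
    have := tay_eval Polynomial.X
    simpa using this
  rw [qExpansion_eq_tay, tay_congr e1, tay_mul hid (hP.pow 24), tay_pow hP, tay_tprod, e2,
    ModularCurve.dedekindEtaUnit, map_mul, map_pow, PowerSeries.map_X]

end Fermat.Agent.S28_QDELTA
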