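import Fermat.Agent.S28_helper14_ADefs
import Fermat.Agent.S28_helper26_QDELTA

set_option autoImplicit false

open UpperHalfPlane ModularForm CongruenceSubgroup Matrix.SpecialLinearGroup
open scoped MatrixGroups ModularForm Manifold Real
open Fermat.Agent.S20 Fermat.Agent.S28_helper14_Defs Fermat.Agent.S28_helper14_ADefs ModularCurve
open Filter Topology

namespace Fermat.Agent.S28_DT

theorem Dt_ne_zero (z : ℍ) : Dt z ≠ 0 := by
  unfold Dt
  exact div_ne_zero (discriminant_ne_zero z) (Function.Periodic.qParam_ne_zero _)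

theorem discriminant_eq_q_mul_Dt (z : ℍ) :
    discriminant z = Function.Periodic.qParam 1 z * Dt z := by
  unfold Dt
  rw [mul_div_cancel₀ _ (Function.Periodic.qParam_ne_zero _)]

theorem Dt_eq_tprod (z : ℍ) : Dt z = ∏' n, (1 - eta_q n z) ^ 24 := by
  unfold Dt
  rw [discriminant_eq_q_prod, mul_div_cancel_left₀ _ (Function.Periodic.qParam_ne_zero _)]

theorem tendsto_Dt : Tendsto Dt atImInfty (𝓝 1) :=
  tendsto_atImInfty_tprod_one_sub_eta_q_pow.congr fun z => (Dt_eq_tprod z).symm

theorem tendsto_DtInv : Tendsto DtInv atImInfty (𝓝 1) := by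
  have := tendsto_Dt.inv₀ one_ne_zero
  rw [inv_one] at this
  exact this

theorem periodic_Dt : Function.Periodic (Dt ∘ ofComplex) ((1 : ℝ) : ℂ) := by
  intro w
  by_cases hw : 0 < w.im
  · have hw1 : 0 < (w + ((1 : ℝ) : ℂ)).im := by simpa using hw
    have h1 := SlashInvariantFormClass.periodic_comp_ofComplex (CuspForm.discriminant)
      one_mem_strictPeriods_SL w
    simp only [Function.comp_apply, CuspForm.coe_discriminant] at h1
    simp only [Function.comp_apply, Dt]
    rw [h1]
    congr 1
    rw [ofComplex_apply_of_im_pos hw1, ofComplex_apply_of_im_pos hw]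
    simp only [Function.Periodic.qParam, Complex.ofReal_one, div_one, mul_add, mul_one]
    exact Complex.exp_periodic _
  · have hw' : w.im ≤ 0 := not_lt.mp hw
    have hw1 : (w + ((1 : ℝ) : ℂ)).im ≤ 0 := by simpa using hw'
    simp only [Function.comp_apply]
    rw [ofComplex_apply_eq_of_im_nonpos hw1 hw']

theorem mdiff_Dt : MDifferentiable 𝓘(ℂ) 𝓘(ℂ) Dt := by
  rw [UpperHalfPlane.mdifferentiable_iff]
  have h1 : DifferentiableOn ℂ ((discriminant : ℍ → ℂ) ∘ ofComplex) {z | 0 < z.im} :=
    UpperHalfPlane.mdifferentiable_iff.mp (CuspForm.discriminant).holo'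
  have h2 : DifferentiableOn ℂ (fun z : ℂ => Function.Periodic.qParam 1 z) {z | 0 < z.im} :=
    (Function.Periodic.differentiable_qParam (h := 1)).differentiableOn
  refine (h1.div h2 fun z _ => Function.Periodic.qParam_ne_zero _).congr fun z hz => ?_
  simp only [Function.comp_apply, Dt, Pi.div_apply]
  rw [ofComplex_apply_of_im_pos hz]

theorem nice_Dt : Nice 1 Dt where
  per := periodic_Dt
  holo := mdiff_Dt
  bdd := tendsto_Dt.isBigO_one ℝ

theorem nice_DtInv : Nice 1 DtInv where
  per := by
    intro w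
    have := periodic_Dt w
    simp only [Function.comp_apply, DtInv] at this ⊢
    rw [this]
  holo := by
    have h := mdiff_Dt
    rw [UpperHalfPlane.mdifferentiable_iff] at h ⊢
    exact (h.inv fun z _ => Dt_ne_zero _)
  bdd := tendsto_DtInv.isBigO_one ℝ

theorem analyticAt_Dt : AnalyticAt ℂ (cuspFunction 1 Dt) 0 :=
  analyticAt_cuspFunction_zero one_pos nice_Dt.per nice_Dt.holo nice_Dt.bdd

theorem analyticAt_DtInv : AnalyticAt ℂ (cuspFunction 1 DtInv) 0 :=
  analyticAt_cuspFunction_zero one_pos nice_DtInv.per nice_DtInv.holo nice_DtInv.bdd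

theorem hasSum_discriminant (τ : ℍ) :
    HasSum (fun m : ℕ => (qExpansion 1 discriminant).coeff m • Function.Periodic.qParam 1 τ ^ m)
      (discriminant τ) := by
  have hper : Function.Periodic ((discriminant : ℍ → ℂ) ∘ ofComplex) ((1 : ℝ) : ℂ) :=
    SlashInvariantFormClass.periodic_comp_ofComplex (CuspForm.discriminant)
      one_mem_strictPeriods_SL
  have hbdd : IsBoundedAtImInfty (discriminant : ℍ → ℂ) :=
    discriminant_isZeroAtImInfty.boundedAtFilter
  exact UpperHalfPlane.hasSum_qExpansion one_pos hper (CuspForm.discriminant).holo' hbdd τ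

/-- uniqueness of `q`-expansion coefficients for plain functions on `ℍ` -/
theorem coeff_unique_of_hasSum {f : ℍ → ℂ} {h : ℝ} (hh : 0 < h) {c : ℕ → ℂ}
    (hper : Function.Periodic (f ∘ ofComplex) (h : ℂ)) (hholo : MDifferentiable 𝓘(ℂ) 𝓘(ℂ) f)
    (hbdd : IsBoundedAtImInfty f)
    (hf : ∀ τ : ℍ, HasSum (fun m : ℕ => c m • Function.Periodic.qParam h τ ^ m) (f τ)) (m : ℕ) :
    c m = (qExpansion h f).coeff m := by
  have han : AnalyticAt ℂ (cuspFunction h f) 0 := analyticAt_cuspFunction_zero hh hper hholo hbdd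
  have h1 := (hasFPowerSeriesOnBall_cuspFunction hh han hf).hasFPowerSeriesAt
  have h2 := (hasFPowerSeriesOnBall_cuspFunction hh han
    (UpperHalfPlane.hasSum_qExpansion hh hper hholo hbdd)).hasFPowerSeriesAt
  have := congr_arg (FormalMultilinearSeries.coeff · m) (h1.eq_formalMultilinearSeries h2)
  simpa using this

theorem qExpansion_Dt : qExpansion 1 Dt = dedekindEtaUnit.map (Int.castRingHom ℂ) := by
  ext m
  have h0 : (qExpansion 1 discriminant).coeff 0 = 0 := by
    rw [Fermat.Agent.S28_QDELTA.qExpansion_discriminant, PowerSeries.coeff_map,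
      PowerSeries.coeff_zero_X_mul, map_zero]
  have hD : ∀ τ : ℍ, HasSum
      (fun m : ℕ => (qExpansion 1 discriminant).coeff (m + 1) • Function.Periodic.qParam 1 τ ^ m)
      (Dt τ) := by
    intro τ
    have hq : Function.Periodic.qParam 1 (τ : ℂ) ≠ 0 := Function.Periodic.qParam_ne_zero _
    have h1 := (hasSum_nat_add_iff' 1).mpr (hasSum_discriminant τ)
    rw [Finset.range_one, Finset.sum_singleton, h0, zero_smul, sub_zero] at h1
    have h2 := h1.mul_left (Function.Periodic.qParam 1 (τ : ℂ))⁻¹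
    have e : Dt τ = (Function.Periodic.qParam 1 (τ : ℂ))⁻¹ * discriminant τ := by
      rw [Dt, div_eq_inv_mul]
    rw [e]
    refine h2.congr_fun fun x => ?_
    rw [smul_eq_mul, smul_eq_mul, pow_succ]
    field_simp
  have := coeff_unique_of_hasSum one_pos nice_Dt.per nice_Dt.holo nice_Dt.bdd hD m
  rw [← this, Fermat.Agent.S28_QDELTA.qExpansion_discriminant, PowerSeries.coeff_map,
    PowerSeries.coeff_map, PowerSeries.coeff_succ_X_mul]

theorem qExpansion_DtInv : qExpansion 1 DtInv = dedekindEtaUnitInv.map (Int.castRingHom ℂ) := by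
  have h1 : qExpansion 1 Dt * qExpansion 1 DtInv = 1 := by
    rw [← UpperHalfPlane.qExpansion_mul analyticAt_Dt analyticAt_DtInv]
    have : Dt * DtInv = 1 := by
      funext z
      simp only [Pi.mul_apply, Pi.one_apply, DtInv]
      exact mul_inv_cancel₀ (Dt_ne_zero z)
    rw [this, UpperHalfPlane.qExpansion_one]
  have h2 : (dedekindEtaUnit.map (Int.castRingHom ℂ))
      * (dedekindEtaUnitInv.map (Int.castRingHom ℂ)) = 1 := by
    rw [← map_mul, dedekindEtaUnit_mul_inv, map_one]
  rw [qExpansion_Dt] at h1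
  calc qExpansion 1 DtInv
      = ((dedekindEtaUnit.map (Int.castRingHom ℂ))
          * (dedekindEtaUnitInv.map (Int.castRingHom ℂ))) * qExpansion 1 DtInv := by
        rw [h2, one_mul]
    _ = (dedekindEtaUnitInv.map (Int.castRingHom ℂ))
          * ((dedekindEtaUnit.map (Int.castRingHom ℂ)) * qExpansion 1 DtInv) := by ring
    _ = dedekindEtaUnitInv.map (Int.castRingHom ℂ) := by rw [h1, mul_one]

end Fermat.Agent.S28_DT
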