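import Fermat.Agent.S28_helper14_ADefs

/-!
# S28 piece QE4: the `q`-expansion of `E₄` is the integral series `eisenstein4`

`qExpansion 1 E₄ = 1 + 240 ∑ σ₃(n) qⁿ`, i.e. the image of the prelude's
`ModularCurve.eisenstein4 : PowerSeries ℤ` in `PowerSeries ℂ`.
-/

set_option autoImplicit false

noncomputable section

namespace Fermat.Agent.S28_QE4

open UpperHalfPlane ModularForm CongruenceSubgroup Matrix.SpecialLinearGroup
open scoped MatrixGroups ModularForm Manifold Real
open Fermat.Agent.S20 Fermat.Agent.S28_helper14_Defs Fermat.Agent.S28_helper14_ADefs ModularCurve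

/-- The fourth Bernoulli number, as a complex number. -/
theorem bernoulli_four_complex : ((bernoulli 4 : ℚ) : ℂ) = -1 / 30 := by
  rw [bernoulli_eq_bernoulli'_of_ne_one (by norm_num), bernoulli'_four]
  push_cast
  ring

/-- Coefficientwise form of `qExpansion_E4`. -/
theorem qExpansion_E4_coeff (m : ℕ) :
    (qExpansion 1 (⇑E₄ : ℍ → ℂ)).coeff m =
      if m = 0 then 1 else 240 * ∑ d ∈ m.divisors, (d : ℂ) ^ 3 := by
  rw [EisensteinSeries.E_qExpansion_coeff (by norm_num : 3 ≤ 4) ⟨2, rfl⟩ m]
  by_cases hm : m = 0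
  · simp [hm]
  · simp only [hm, if_false]
    rw [bernoulli_four_complex, ArithmeticFunction.sigma_apply]
    push_cast
    ring

theorem qExpansion_E4 :
    qExpansion 1 (⇑E₄ : ℍ → ℂ) = eisenstein4.map (Int.castRingHom ℂ) := by
  ext m
  rw [qExpansion_E4_coeff, PowerSeries.coeff_map, eisenstein4, PowerSeries.coeff_mk]
  by_cases hm : m = 0
  · simp [hm]
  · simp only [hm, if_false]
    simp only [Int.coe_castRingHom]
    push_cast
    rfl

end Fermat.Agent.S28_QE4

end
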