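import Fermat.Agent.S28_helper14_ADefs

/-!
# S28, piece HERMITE

Conjugates of `z ↦ f (δ z)` for a level-one invariant `f` of weight `k`: for `γ ∈ SL(2, ℤ)`,
`(f(δ ·) ∣[k] γ) (z) = d ^ (-k) * f ((a z + b) / d)` with `a d = δ`, `a = gcd (δ, γ 1 0)`.
-/

set_option autoImplicit false

noncomputable section

namespace Fermat.Agent.S28_HERMITE

open UpperHalfPlane ModularForm CongruenceSubgroup Matrix.SpecialLinearGroup
open scoped MatrixGroups ModularForm Manifold Real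
open Fermat.Agent.S20 Fermat.Agent.S28_helper14_Defs Fermat.Agent.S28_helper14_ADefs ModularCurve

/-- Hermite normal form data for `diag(δ, 1) * γ`. -/
theorem exists_hermite (δ : ℕ) (hδ : 0 < δ) (γ : SL(2, ℤ)) :
    ∃ (a d : ℕ) (b : ℤ) (γ' : SL(2, ℤ)), 0 < a ∧ 0 < d ∧ a * d = δ ∧
      a = Int.gcd (δ : ℤ) (γ 1 0) ∧
      γ' 0 0 * a = δ * γ 0 0 ∧ γ' 1 0 * a = γ 1 0 ∧
      γ' 0 0 * b + γ' 0 1 * d = δ * γ 0 1 ∧ γ' 1 0 * b + γ' 1 1 * d = γ 1 1 := by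
  have hdet : γ 0 0 * γ 1 1 - γ 0 1 * γ 1 0 = 1 := by
    have := γ.det_coe
    rw [Matrix.det_fin_two] at this
    exact this
  set a : ℕ := Int.gcd (δ : ℤ) (γ 1 0) with ha
  have hδ0 : (δ : ℤ) ≠ 0 := by exact_mod_cast hδ.ne'
  have hapos : 0 < a := Int.gcd_pos_of_ne_zero_left _ hδ0
  have haδ : (a : ℤ) ∣ (δ : ℤ) := Int.gcd_dvd_left _ _
  have hac : (a : ℤ) ∣ γ 1 0 := Int.gcd_dvd_right _ _
  have haδ' : a ∣ δ := Int.natCast_dvd_natCast.1 haδ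
  obtain ⟨d, hd⟩ := haδ'
  obtain ⟨r, hr⟩ := hac
  have hdpos : 0 < d := by
    rcases Nat.eq_zero_or_pos d with h | h
    · rw [h, mul_zero] at hd; omega
    · exact h
  have ha0 : (a : ℤ) ≠ 0 := by exact_mod_cast hapos.ne'
  -- `gcd d r = 1`
  have hdr : IsCoprime (d : ℤ) r := by
    rw [Int.isCoprime_iff_gcd_eq_one]
    have h1 := Int.gcd_div_gcd_div_gcd (i := (δ : ℤ)) (j := γ 1 0) (by rw [← ha]; exact hapos)
    rw [← ha] at h1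
    have e1 : (δ : ℤ) / (a : ℤ) = d := by
      rw [hd]; push_cast
      exact Int.mul_ediv_cancel_left _ ha0
    have e2 : γ 1 0 / (a : ℤ) = r := by
      rw [hr]; exact Int.mul_ediv_cancel_left _ ha0
    rw [e1, e2] at h1
    exact h1
  have hαc : IsCoprime (γ 0 0) (γ 1 0) := ⟨γ 1 1, -γ 0 1, by linear_combination hdet⟩
  have hαr : IsCoprime (γ 0 0) r := hαc.of_isCoprime_of_dvd_right ⟨a, by rw [hr]; ring⟩
  have hpr : IsCoprime ((d : ℤ) * γ 0 0) r := IsCoprime.mul_left hdr hαr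
  obtain ⟨x, y, hxy⟩ := hpr
  -- `x * (d * α) + y * r = 1`
  refine ⟨a, d, x * δ * γ 0 1 + y * γ 1 1, ⟨!![(d : ℤ) * γ 0 0, -y; r, x], ?_⟩,
    hapos, hdpos, hd.symm, rfl, ?_, ?_, ?_, ?_⟩
  · rw [Matrix.det_fin_two_of]; linear_combination hxy
  · simp only [Matrix.of_apply, Matrix.cons_val',
      Matrix.cons_val_zero, Matrix.cons_val_fin_one]
    rw [hd]; push_cast; ring
  · simp only [Matrix.of_apply, Matrix.cons_val',
      Matrix.cons_val_zero, Matrix.cons_val_one, Matrix.cons_val_fin_one]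
    rw [hr]; ring
  · simp only [Matrix.of_apply, Matrix.cons_val',
      Matrix.cons_val_zero, Matrix.cons_val_one, Matrix.cons_val_fin_one]
    have hδ' : (δ : ℤ) = a * d := by rw [hd]; push_cast; ring
    rw [hδ']
    have hc : γ 1 0 = a * r := hr
    linear_combination (a : ℤ) * (d : ℤ) * γ 0 1 * hxy + y * (d : ℤ) * hdet + y * (d : ℤ) * γ 0 1 * hc
  · simp only [Matrix.of_apply, Matrix.cons_val',
      Matrix.cons_val_zero, Matrix.cons_val_one, Matrix.cons_val_fin_one]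
    have hδ' : (δ : ℤ) = a * d := by rw [hd]; push_cast; ring
    rw [hδ']
    have hc : γ 1 0 = a * r := hr
    linear_combination γ 1 1 * hxy - x * (d : ℤ) * hdet - x * (d : ℤ) * γ 0 1 * hc


/-- **HERMITE.** The slash of `z ↦ f (δ z)` by `γ ∈ SL(2, ℤ)`. -/
theorem slash_tri_eq {k : ℤ} {f : ℍ → ℂ} (hf : ∀ γ : SL(2, ℤ), f ∣[k] γ = f) (δ : ℕ) (hδ : 0 < δ)
    (γ : SL(2, ℤ)) :
    ∃ (a d : ℕ) (b : ℤ), 0 < a ∧ 0 < d ∧ a * d = δ ∧ a = Int.gcd (δ : ℤ) (γ 1 0) ∧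
      (tri δ 1 0 f) ∣[k] γ = fun z => ((d : ℂ) ^ k)⁻¹ * tri a d b f z := by
  obtain ⟨a, d, b, γ', hapos, hdpos, had, hagcd, h00, h10, h01, h11⟩ := exists_hermite δ hδ γ
  refine ⟨a, d, b, hapos, hdpos, had, hagcd, ?_⟩
  funext z
  have haC : (a : ℂ) ≠ 0 := by exact_mod_cast hapos.ne'
  have hdC : (d : ℂ) ≠ 0 := by exact_mod_cast hdpos.ne'
  have hδC : (δ : ℂ) = a * d := by exact_mod_cast had.symm
  -- the point `w = (a z + b) / d`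
  set w : ℂ := ((a : ℂ) * (z : ℂ) + (b : ℂ)) / (d : ℂ) with hw
  have hwim : 0 < w.im := by
    have : w.im = (a : ℝ) * z.im / d := by
      rw [hw]
      have e1 : ((a : ℂ) * (z : ℂ) + (b : ℂ)) / (d : ℂ)
          = (((a : ℝ) * (z : ℂ) + ((b : ℝ) : ℂ)) / ((d : ℝ) : ℂ)) := by push_cast; ring
      rw [e1, Complex.div_ofReal_im]
      simp
    rw [this]
    have h1 : (0 : ℝ) < a := by exact_mod_cast hapos
    have h2 : (0 : ℝ) < d := by exact_mod_cast hdpos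
    exact div_pos (mul_pos h1 z.im_pos) h2
  set W : ℍ := ⟨w, hwim⟩ with hW
  have hWof : ofComplex w = W := ofComplex_apply_of_im_pos hwim
  -- the relations over `ℂ`
  have c00 : ((γ' 0 0 : ℤ) : ℂ) * a = δ * ((γ 0 0 : ℤ) : ℂ) := by exact_mod_cast h00
  have c10 : ((γ' 1 0 : ℤ) : ℂ) * a = ((γ 1 0 : ℤ) : ℂ) := by exact_mod_cast h10
  have c01 : ((γ' 0 0 : ℤ) : ℂ) * b + ((γ' 0 1 : ℤ) : ℂ) * d = δ * ((γ 0 1 : ℤ) : ℂ) := by
    exact_mod_cast h01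
  have c11 : ((γ' 1 0 : ℤ) : ℂ) * b + ((γ' 1 1 : ℤ) : ℂ) * d = ((γ 1 1 : ℤ) : ℂ) := by
    exact_mod_cast h11
  -- denominators
  have hden : denom γ z = ((γ 1 0 : ℤ) : ℂ) * z + ((γ 1 1 : ℤ) : ℂ) := by
    rw [ModularGroup.denom_apply]
  have hden' : denom γ' W = ((γ' 1 0 : ℤ) : ℂ) * w + ((γ' 1 1 : ℤ) : ℂ) := by
    rw [ModularGroup.denom_apply]
  have hdz : denom γ z ≠ 0 := denom_ne_zero _ z
  have hdW : denom γ' W ≠ 0 := denom_ne_zero _ W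
  have hD1 : ((γ' 1 0 : ℤ) : ℂ) * w + ((γ' 1 1 : ℤ) : ℂ)
      = (((γ 1 0 : ℤ) : ℂ) * z + ((γ 1 1 : ℤ) : ℂ)) / d := by
    rw [hw, ← c10, ← c11]
    field_simp
    ring
  have hN1 : ((γ' 0 0 : ℤ) : ℂ) * w + ((γ' 0 1 : ℤ) : ℂ)
      = (δ : ℂ) * (((γ 0 0 : ℤ) : ℂ) * z + ((γ 0 1 : ℤ) : ℂ)) / d := by
    rw [hw]
    field_simp
    linear_combination (z : ℂ) * c00 + c01
  have hrel : denom γ' W = denom γ z / d := by
    rw [hden, hden', hD1]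
  -- the point `δ * (γ z)` is `γ' W`
  have hpt : ((γ' • W : ℍ) : ℂ) = (δ : ℂ) * ((γ • z : ℍ) : ℂ) := by
    rw [coe_specialLinearGroup_apply, coe_specialLinearGroup_apply]
    simp only [algebraMap_int_eq, Int.coe_castRingHom, Complex.ofReal_intCast]
    have h2 : ((γ 1 0 : ℤ) : ℂ) * (z : ℂ) + ((γ 1 1 : ℤ) : ℂ) ≠ 0 := by
      rw [← hden]; exact hdz
    change (((γ' 0 0 : ℤ) : ℂ) * w + ((γ' 0 1 : ℤ) : ℂ)) / (((γ' 1 0 : ℤ) : ℂ) * w + _) = _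
    rw [hN1, hD1]
    field_simp
  have hpt' : ofComplex (((δ : ℂ) * ((γ • z : ℍ) : ℂ) + ((0 : ℤ) : ℂ)) / ((1 : ℕ) : ℂ)) = γ' • W := by
    have : ((δ : ℂ) * ((γ • z : ℍ) : ℂ) + ((0 : ℤ) : ℂ)) / ((1 : ℕ) : ℂ) = ((γ' • W : ℍ) : ℂ) := by
      rw [hpt]; simp
    rw [this, ofComplex_apply]
  -- invariance of `f`
  have hinv : f (γ' • W) = f W * denom γ' W ^ k := by
    have h := congrFun (hf γ') W
    rw [SL_slash_apply] at h
    rw [← h, mul_assoc, ← zpow_add₀ hdW]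
    simp
  rw [SL_slash_apply]
  change f (ofComplex (((δ : ℂ) * ((γ • z : ℍ) : ℂ) + ((0 : ℤ) : ℂ)) / ((1 : ℕ) : ℂ))) * _ =
    ((d : ℂ) ^ k)⁻¹ * f (ofComplex w)
  rw [hpt', hinv, hWof, hrel, div_zpow, zpow_neg]
  have hz0 : denom γ z ^ k ≠ 0 := zpow_ne_zero _ hdz
  have hd0 : (d : ℂ) ^ k ≠ 0 := zpow_ne_zero _ hdC
  field_simp

end Fermat.Agent.S28_HERMITE
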