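import Fermat.Agent.S28_helper14_ADefs

/-!
# S28 piece SUBST: the substitution `z ↦ (a z + b) / d` in a nice `1`-periodic function
-/

set_option autoImplicit false

open UpperHalfPlane ModularForm CongruenceSubgroup Matrix.SpecialLinearGroup
open scoped MatrixGroups ModularForm Manifold Real
open Fermat.Agent.S20 Fermat.Agent.S28_helper14_Defs Fermat.Agent.S28_helper14_ADefs ModularCurve

namespace Fermat.Agent.S28_SUBST

/-- the affine map `w ↦ (a w + b) / d` -/
noncomputable def aff (a d : ℕ) (b : ℤ) (w : ℂ) : ℂ := ((a : ℂ) * w + (b : ℂ)) / (d : ℂ)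

lemma aff_im (a d : ℕ) (b : ℤ) (w : ℂ) : (aff a d b w).im = (a : ℝ) * w.im / (d : ℝ) := by
  have h : aff a d b w = (((a : ℝ) : ℂ) * w + ((b : ℝ) : ℂ)) / ((d : ℝ) : ℂ) := by
    simp [aff]
  rw [h, Complex.div_ofReal_im]
  simp

lemma aff_im_pos {a d : ℕ} (ha : 0 < a) (hd : 0 < d) (b : ℤ) {w : ℂ} (hw : 0 < w.im) :
    0 < (aff a d b w).im := by
  rw [aff_im]
  have ha' : (0 : ℝ) < a := by exact_mod_cast ha
  have hd' : (0 : ℝ) < d := by exact_mod_cast hd
  positivity

lemma tri_apply (a d : ℕ) (b : ℤ) (f : ℍ → ℂ) (z : ℍ) :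
    tri a d b f z = f (ofComplex (aff a d b (z : ℂ))) := rfl

lemma tri_comp_ofComplex {a d : ℕ} (b : ℤ) (f : ℍ → ℂ) {w : ℂ} (hw : 0 < w.im) :
    (tri a d b f ∘ ofComplex) w = (f ∘ ofComplex) (aff a d b w) := by
  simp only [Function.comp_apply, tri_apply, ofComplex_apply_of_im_pos hw]

lemma periodic_int {f : ℍ → ℂ} (hf : Function.Periodic (f ∘ ofComplex) ((1 : ℝ) : ℂ)) (n : ℤ)
    (w : ℂ) : (f ∘ ofComplex) (w + n) = (f ∘ ofComplex) w := by
  have h := hf.int_mul n w
  simpa using h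

theorem nice_tri {f : ℍ → ℂ} (hf : Nice 1 f) {a d N : ℕ} (ha : 0 < a) (hd : 0 < d) (hN : 0 < N)
    (hdN : d ∣ N) (b : ℤ) : Nice (N : ℝ) (tri a d b f) := by
  have hd0 : (d : ℂ) ≠ 0 := by exact_mod_cast hd.ne'
  refine ⟨?_, ?_, ?_⟩
  · intro w
    by_cases hw : 0 < w.im
    · have hw' : 0 < (w + ((N : ℝ) : ℂ)).im := by simpa using hw
      rw [tri_comp_ofComplex b f hw', tri_comp_ofComplex b f hw]
      obtain ⟨e, rfl⟩ := hdN
      have : aff a d b (w + (((d * e : ℕ) : ℝ) : ℂ)) = aff a d b w + ((a * e : ℕ) : ℤ) := by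
        simp only [aff]
        push_cast
        field_simp
        ring
      rw [this]
      exact periodic_int hf.per _ _
    · have hw1 : w.im ≤ 0 := not_lt.1 hw
      have hw2 : (w + ((N : ℝ) : ℂ)).im ≤ 0 := by simpa using hw1
      simp only [Function.comp_apply]
      rw [ofComplex_apply_eq_of_im_nonpos hw2 hw1]
  · rw [UpperHalfPlane.mdifferentiable_iff]
    have h1 : DifferentiableOn ℂ (f ∘ ofComplex) {z | 0 < z.im} :=
      UpperHalfPlane.mdifferentiable_iff.1 hf.holo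
    have h2 : DifferentiableOn ℂ (aff a d b) {z | 0 < z.im} := by
      intro z _
      apply DifferentiableAt.differentiableWithinAt
      unfold aff
      fun_prop
    have h3 : Set.MapsTo (aff a d b) {z | 0 < z.im} {z | 0 < z.im} :=
      fun z hz => aff_im_pos ha hd b hz
    refine (h1.comp h2 h3).congr ?_
    intro z hz
    exact tri_comp_ofComplex b f hz
  · obtain ⟨M, A, hMA⟩ := UpperHalfPlane.isBoundedAtImInfty_iff.1 hf.bdd
    rw [UpperHalfPlane.isBoundedAtImInfty_iff]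
    refine ⟨M, A * d / a, fun z hz => ?_⟩
    rw [tri_apply]
    apply hMA
    have hpos := aff_im_pos ha hd b z.im_pos
    rw [ofComplex_apply_of_im_pos hpos]
    change A ≤ (aff a d b (z : ℂ)).im
    rw [aff_im]
    have ha' : (0 : ℝ) < a := by exact_mod_cast ha
    have hd' : (0 : ℝ) < d := by exact_mod_cast hd
    rw [le_div_iff₀ hd']
    rw [div_le_iff₀ ha'] at hz
    have : (z : ℂ).im = z.im := rfl
    rw [this]
    linarith

/-- reindexing a sum along `n ↦ n * k` -/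
lemma hasSum_mul_reindex {k : ℕ} (hk : 0 < k) (g : ℕ → ℂ) (s : ℂ) (hg : HasSum g s) :
    HasSum (fun m : ℕ => if k ∣ m then g (m / k) else 0) s := by
  have hinj : Function.Injective (fun n : ℕ => n * k) :=
    fun x y hxy => Nat.eq_of_mul_eq_mul_right hk hxy
  have hzero : ∀ m ∉ Set.range (fun n : ℕ => n * k),
      (fun m : ℕ => if k ∣ m then g (m / k) else 0) m = 0 := by
    intro m hm
    have : ¬ k ∣ m := by
      rintro ⟨c, rfl⟩
      exact hm ⟨c, mul_comm _ _⟩
    simp [this]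
  rw [← hinj.hasSum_iff hzero]
  have : ((fun m : ℕ => if k ∣ m then g (m / k) else 0) ∘ fun n : ℕ => n * k) = g := by
    funext n
    simp [Nat.mul_div_cancel _ hk]
  rw [this]
  exact hg

lemma qParam_aff {a d N : ℕ} (hd : 0 < d) (hN : 0 < N) (hdN : d ∣ N) (b : ℤ) (w : ℂ) :
    Function.Periodic.qParam 1 (aff a d b w) =
      Complex.exp (2 * π * Complex.I * (b : ℂ) / (d : ℂ)) *
        Function.Periodic.qParam (N : ℝ) w ^ (a * (N / d)) := by
  have hd0 : (d : ℂ) ≠ 0 := by exact_mod_cast hd.ne'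
  have hN0 : (N : ℂ) ≠ 0 := by exact_mod_cast hN.ne'
  obtain ⟨e, rfl⟩ := hdN
  have he0 : (e : ℂ) ≠ 0 := by
    intro h
    apply hN0
    push_cast
    rw [h, mul_zero]
  rw [Nat.mul_div_cancel_left _ hd]
  simp only [Function.Periodic.qParam, aff]
  rw [← Complex.exp_nat_mul, ← Complex.exp_add]
  congr 1
  push_cast
  field_simp
  ring

/-- the coefficient sequence of `tri a d b f` -/
noncomputable def triCoeff (f : ℍ → ℂ) (a d N : ℕ) (b : ℤ) (m : ℕ) : ℂ :=
  if a * (N / d) ∣ m then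
    (qExpansion 1 f).coeff (m / (a * (N / d))) *
      Complex.exp (2 * π * Complex.I * (b : ℂ) * ((m / (a * (N / d)) : ℕ) : ℂ) / (d : ℂ))
  else 0

lemma hasSum_tri {f : ℍ → ℂ} (hf : Nice 1 f) {a d N : ℕ} (ha : 0 < a) (hd : 0 < d)
    (hN : 0 < N) (hdN : d ∣ N) (b : ℤ) (τ : ℍ) :
    HasSum (fun m : ℕ => triCoeff f a d N b m • Function.Periodic.qParam (N : ℝ) τ ^ m)
      (tri a d b f τ) := by
  have hNd : 0 < N / d := Nat.div_pos (Nat.le_of_dvd hN hdN) hd
  have hk : 0 < a * (N / d) := Nat.mul_pos ha hNd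
  have hpos := aff_im_pos ha hd b τ.im_pos
  have hsum := hasSum_qExpansion (h := 1) one_pos hf.per hf.holo hf.bdd ⟨aff a d b τ, hpos⟩
  have hval : f ⟨aff a d b τ, hpos⟩ = tri a d b f τ := by
    rw [tri_apply, ofComplex_apply_of_im_pos hpos]
  rw [hval] at hsum
  have hq : Function.Periodic.qParam 1 ((⟨aff a d b τ, hpos⟩ : ℍ) : ℂ) =
      Complex.exp (2 * π * Complex.I * (b : ℂ) / (d : ℂ)) *
        Function.Periodic.qParam (N : ℝ) τ ^ (a * (N / d)) := qParam_aff hd hN hdN b τ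
  rw [hq] at hsum
  have h2 := hasSum_mul_reindex hk _ _ hsum
  convert h2 using 2 with n
  unfold triCoeff
  split_ifs with hdvd
  · obtain ⟨c, rfl⟩ := hdvd
    rw [Nat.mul_div_cancel_left _ hk]
    simp only [smul_eq_mul]
    rw [mul_pow, ← Complex.exp_nat_mul, ← pow_mul]
    have : (c : ℂ) * (2 * π * Complex.I * (b : ℂ) / (d : ℂ)) =
        2 * π * Complex.I * (b : ℂ) * (c : ℂ) / (d : ℂ) := by ring
    rw [this]
    ring
  · simp



lemma coeff_unique' (g : ℍ → ℂ) (hcont : Continuous g) (c : ℕ → ℂ) (h : ℝ) (hh : 0 < h)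
    (han : AnalyticAt ℂ (cuspFunction h g) 0)
    (hs : ∀ τ : ℍ, HasSum (fun m : ℕ => c m • Function.Periodic.qParam h τ ^ m) (g τ)) (m : ℕ) :
    (qExpansion h g).coeff m = c m :=
  (UpperHalfPlane.qExpansion_coeff_unique (ContinuousMap.mk g hcont) hh han hs m).symm

theorem qExpansion_tri_coeff {f : ℍ → ℂ} (hf : Nice 1 f) {a d N : ℕ} (ha : 0 < a) (hd : 0 < d)
    (hN : 0 < N) (hdN : d ∣ N) (b : ℤ) (m : ℕ) :
    (qExpansion (N : ℝ) (tri a d b f)).coeff m =
      if a * (N / d) ∣ m then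
        (qExpansion 1 f).coeff (m / (a * (N / d))) *
          Complex.exp (2 * π * Complex.I * (b : ℂ) * ((m / (a * (N / d)) : ℕ) : ℂ) / (d : ℂ))
      else 0 := by
  have hnice := nice_tri hf ha hd hN hdN b
  have hN' : (0 : ℝ) < (N : ℝ) := by exact_mod_cast hN
  have han : AnalyticAt ℂ (cuspFunction (N : ℝ) (tri a d b f)) 0 :=
    analyticAt_cuspFunction_zero hN' hnice.per hnice.holo hnice.bdd
  have hs := hasSum_tri hf ha hd hN hdN b
  exact coeff_unique' _ hnice.holo.continuous _ _ hN' han hs m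

end Fermat.Agent.S28_SUBST
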