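import Fermat.Agent.S24_Defs
import Fermat.Agent.S24_helper27_J1
import Fermat.Agent.S24_helper21_LINF
import Fermat.Agent.S28_helper11_DT
import Fermat.Agent.S28_helper21_HERMITE
import Fermat.Agent.S28_helper24_SUBST
import Fermat.Agent.S28_helper20_QE4
import Fermat.Agent.S20_helper13_B2
import Fermat.Prelude.Thm_ModularCurve_coeffMap_qExpand

/-!
# S24 piece C-JD: the conjugates `z ↦ j(d γ z)` at `i∞`
-/

set_option autoImplicit false

open UpperHalfPlane ModularForm CongruenceSubgroup AlgebraicCurve IntermediateField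
open scoped MatrixGroups ModularForm Manifold Real
open Fermat.Agent.S20 Fermat.Agent.S24
open Fermat.Agent.S28_helper14_ADefs Fermat.Agent.S28_SUBST

namespace Fermat.Agent.S24_helper24_JD

noncomputable section

/-! ### A small API for `Nice` functions -/

lemma nice_mul {h : ℝ} {f g : ℍ → ℂ} (hf : Nice h f) (hg : Nice h g) : Nice h (f * g) := by
  refine ⟨?_, hf.holo.mul hg.holo, hf.bdd.mul hg.bdd⟩
  intro w
  have h1 := hf.per w
  have h2 := hg.per w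
  simp only [Function.comp_apply, Pi.mul_apply] at h1 h2 ⊢
  rw [h1, h2]

lemma nice_pow {h : ℝ} {f : ℍ → ℂ} (hf : Nice h f) (n : ℕ) (hh : Nice h (1 : ℍ → ℂ)) :
    Nice h (f ^ n) := by
  induction n with
  | zero => simpa using hh
  | succ n ih => rw [pow_succ]; exact nice_mul ih hf

lemma nice_one (h : ℝ) : Nice h (1 : ℍ → ℂ) := by
  refine ⟨fun w => rfl, ?_, ?_⟩
  · exact mdifferentiable_const
  · rw [UpperHalfPlane.isBoundedAtImInfty_iff]
    exact ⟨1, 0, fun z _ => by simp⟩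

lemma nice_smul {h : ℝ} {f : ℍ → ℂ} (hf : Nice h f) (c : ℂ) : Nice h (c • f) := by
  refine ⟨?_, hf.holo.const_smul c, ?_⟩
  · intro w
    have h1 := hf.per w
    simp only [Function.comp_apply, Pi.smul_apply] at h1 ⊢
    rw [h1]
  · exact hf.bdd.const_smul_left c

lemma nice_E4 : Nice 1 (⇑E₄ : ℍ → ℂ) :=
  ⟨Fermat.Agent.S20_helper13_B2.periodic_MF E₄, ModularFormClass.holo E₄,
    Fermat.Agent.S20_helper13_B2.bdd_MF E₄⟩

lemma nice_analyticAt {h : ℝ} (hh : 0 < h) {f : ℍ → ℂ} (hf : Nice h f) :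
    AnalyticAt ℂ (cuspFunction h f) 0 :=
  analyticAt_cuspFunction_zero hh hf.per hf.holo hf.bdd

/-- `q · j = E₄³ / (Δ / q)` -/
def J0 : ℍ → ℂ := (⇑E₄ : ℍ → ℂ) ^ 3 * DtInv

lemma nice_J0 : Nice 1 J0 :=
  nice_mul (nice_pow nice_E4 3 (nice_one 1)) Fermat.Agent.S28_DT.nice_DtInv

lemma jfun_eq (z : ℍ) : jfun z = (Function.Periodic.qParam 1 (z : ℂ))⁻¹ * J0 z := by
  have h1 := Fermat.Agent.S28_DT.discriminant_eq_q_mul_Dt z
  have h2 := Fermat.Agent.S28_DT.Dt_ne_zero z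
  have h3 : Function.Periodic.qParam 1 (z : ℂ) ≠ 0 := Function.Periodic.qParam_ne_zero _
  simp only [jfun, J0, DtInv, Pi.mul_apply, Pi.pow_apply]
  rw [h1]
  field_simp

lemma qExpansion_J0 : qExpansion 1 J0 = ModularCurve.jNum.map (Int.castRingHom ℂ) := by
  have hE : Nice 1 ((⇑E₄ : ℍ → ℂ) ^ 3) := nice_pow nice_E4 3 (nice_one 1)
  have hE1 := nice_E4
  rw [J0, qExpansion_mul (nice_analyticAt one_pos hE)
    (nice_analyticAt one_pos Fermat.Agent.S28_DT.nice_DtInv)]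
  have h3 : qExpansion 1 ((⇑E₄ : ℍ → ℂ) ^ 3) = (qExpansion 1 (⇑E₄ : ℍ → ℂ)) ^ 3 := by
    have e2 : ((⇑E₄ : ℍ → ℂ) ^ 2) = (⇑E₄ : ℍ → ℂ) * ⇑E₄ := by rw [pow_two]
    have e3 : ((⇑E₄ : ℍ → ℂ) ^ 3) = (⇑E₄ : ℍ → ℂ) ^ 2 * ⇑E₄ := by rw [pow_succ]
    have hE2 : Nice 1 ((⇑E₄ : ℍ → ℂ) ^ 2) := nice_pow nice_E4 2 (nice_one 1)
    rw [e3, qExpansion_mul (nice_analyticAt one_pos hE2) (nice_analyticAt one_pos hE1), e2,
      qExpansion_mul (nice_analyticAt one_pos hE1) (nice_analyticAt one_pos hE1)]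
    ring
  rw [h3, Fermat.Agent.S28_QE4.qExpansion_E4, Fermat.Agent.S28_DT.qExpansion_DtInv,
    ModularCurve.jNum, map_mul, map_pow]

lemma qExpansion_J0_coeff_zero : (qExpansion 1 J0).coeff 0 = 1 := by
  rw [qExpansion_J0, PowerSeries.coeff_map, PowerSeries.coeff_zero_eq_constantCoeff,
    ModularCurve.constantCoeff_jNum]
  simp

/-! ### `jd` in Hermite normal form -/

lemma jd_eq_tri (δ : ℕ) (hδ : 0 < δ) (γ : SL(2, ℤ)) :
    ∃ (a d : ℕ) (b : ℤ), 0 < a ∧ 0 < d ∧ a * d = δ ∧ a = Int.gcd (δ : ℤ) (γ 1 0) ∧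
      jd δ γ = tri a d b jfun := by
  have hf : ∀ γ : SL(2, ℤ), jfun ∣[(0 : ℤ)] γ = jfun := by
    intro γ
    funext z
    rw [ModularForm.SL_slash_apply, Fermat.Agent.S24_helper27_J1.jfun_smul]
    simp
  obtain ⟨a, d, b, ha, hd, had, hag, h⟩ := Fermat.Agent.S28_HERMITE.slash_tri_eq hf δ hδ γ
  refine ⟨a, d, b, ha, hd, had, hag, ?_⟩
  funext z
  have h1 := congrFun h z
  rw [ModularForm.SL_slash_apply] at h1
  simp only [neg_zero, zpow_zero, mul_one, inv_one, one_mul] at h1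
  rw [← h1]
  simp [jd, dmul, tri]

/-- the key formula for `tri a d b jfun` -/
lemma tri_jfun_eq {a d N : ℕ} (ha : 0 < a) (hd : 0 < d) (hN : 0 < N) (hdN : d ∣ N) (b : ℤ)
    (z : ℍ) :
    tri a d b jfun z =
      (Complex.exp (2 * π * Complex.I * (b : ℂ) / (d : ℂ)))⁻¹ *
        (Function.Periodic.qParam (N : ℝ) (z : ℂ) ^ (a * (N / d)))⁻¹ * tri a d b J0 z := by
  have hpos := aff_im_pos ha hd b z.im_pos
  rw [tri_apply, tri_apply, jfun_eq, ofComplex_apply_of_im_pos hpos]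
  have : ((⟨aff a d b (z : ℂ), hpos⟩ : ℍ) : ℂ) = aff a d b (z : ℂ) := rfl
  rw [this, qParam_aff hd hN hdN b (z : ℂ), mul_inv]

/-! ### Poles at `i∞` -/

lemma vadd_eq_ofComplex (h : ℝ) (z : ℍ) : h +ᵥ z = ofComplex ((z : ℂ) + (h : ℂ)) := by
  have him : 0 < ((z : ℂ) + (h : ℂ)).im := by simpa using z.im_pos
  rw [ofComplex_apply_of_im_pos him]
  apply UpperHalfPlane.ext
  rw [coe_vadd]
  exact add_comm _ _

lemma nice_vadd {h : ℝ} {f : ℍ → ℂ} (hf : Nice h f) (z : ℍ) : f (h +ᵥ z) = f z := by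
  have h1 := hf.per (z : ℂ)
  simp only [Function.comp_apply, ofComplex_apply] at h1
  rw [vadd_eq_ofComplex, h1]

lemma qParam_vadd {N : ℕ} (hN : 0 < N) (z : ℍ) :
    Function.Periodic.qParam (N : ℝ) (((N : ℝ) +ᵥ z : ℍ) : ℂ) =
      Function.Periodic.qParam (N : ℝ) (z : ℂ) := by
  have hN0 : (N : ℂ) ≠ 0 := by exact_mod_cast hN.ne'
  rw [coe_vadd]
  simp only [Function.Periodic.qParam]
  have : 2 * (π : ℂ) * Complex.I * (((N : ℝ) : ℂ) + (z : ℂ)) / ((N : ℝ) : ℂ) =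
      2 * π * Complex.I * (z : ℂ) / ((N : ℝ) : ℂ) + 2 * π * Complex.I := by
    push_cast
    field_simp
    ring
  rw [this, Complex.exp_add, Complex.exp_two_pi_mul_I, mul_one]

lemma norm_qParam_pow_le {N : ℕ} (hN : 0 < N) (z : ℍ) (k : ℕ) :
    ‖Function.Periodic.qParam (N : ℝ) (z : ℂ) ^ k‖ ≤ 1 := by
  rw [norm_pow]
  have hN' : (0 : ℝ) < (N : ℝ) := by exact_mod_cast hN
  exact pow_le_one₀ (norm_nonneg _) (Function.Periodic.norm_qParam_lt_one hN' z.im_pos).le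

/-- the cofactor `q_N ^ M · tri a d b jfun` -/
lemma qpow_mul_tri_jfun {a d N : ℕ} (ha : 0 < a) (hd : 0 < d) (hN : 0 < N) (hdN : d ∣ N)
    (b : ℤ) {M : ℕ} (hM : a * (N / d) ≤ M) (z : ℍ) :
    Function.Periodic.qParam (N : ℝ) (z : ℂ) ^ M * tri a d b jfun z =
      (Complex.exp (2 * π * Complex.I * (b : ℂ) / (d : ℂ)))⁻¹ *
        (Function.Periodic.qParam (N : ℝ) (z : ℂ) ^ (M - a * (N / d)) * tri a d b J0 z) := by
  rw [tri_jfun_eq ha hd hN hdN b z]
  have hq : Function.Periodic.qParam (N : ℝ) (z : ℂ) ≠ 0 := Function.Periodic.qParam_ne_zero _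
  have hsplit : Function.Periodic.qParam (N : ℝ) (z : ℂ) ^ M =
      Function.Periodic.qParam (N : ℝ) (z : ℂ) ^ (M - a * (N / d)) *
        Function.Periodic.qParam (N : ℝ) (z : ℂ) ^ (a * (N / d)) := by
    rw [← pow_add, Nat.sub_add_cancel hM]
  rw [hsplit]
  have hk : Function.Periodic.qParam (N : ℝ) (z : ℂ) ^ (a * (N / d)) ≠ 0 := pow_ne_zero _ hq
  field_simp

lemma hasPoleInf_tri_jfun {a d N : ℕ} (ha : 0 < a) (hd : 0 < d) (hN : 0 < N) (hdN : d ∣ N)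
    (b : ℤ) {M : ℕ} (hM : a * (N / d) ≤ M)
    (hdiff : MDifferentiable 𝓘(ℂ) 𝓘(ℂ) (tri a d b jfun)) :
    HasPoleInf N M (tri a d b jfun) := by
  have hJ : Nice (N : ℝ) (tri a d b J0) := nice_tri nice_J0 ha hd hN hdN b
  refine ⟨hdiff, ?_, ?_⟩
  · intro z
    rw [tri_jfun_eq ha hd hN hdN b, tri_jfun_eq ha hd hN hdN b, qParam_vadd hN, nice_vadd hJ]
  · obtain ⟨B, A, hBA⟩ := UpperHalfPlane.isBoundedAtImInfty_iff.1 hJ.bdd
    rw [UpperHalfPlane.isBoundedAtImInfty_iff]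
    refine ⟨‖(Complex.exp (2 * π * Complex.I * (b : ℂ) / (d : ℂ)))⁻¹‖ * B, A, fun z hz => ?_⟩
    rw [qpow_mul_tri_jfun ha hd hN hdN b hM z, norm_mul, norm_mul]
    have h1 := norm_qParam_pow_le hN z (M - a * (N / d))
    have h2 := hBA z hz
    have h3 : 0 ≤ B := (norm_nonneg _).trans h2
    gcongr
    calc ‖Function.Periodic.qParam (N : ℝ) (z : ℂ) ^ (M - a * (N / d))‖ * ‖tri a d b J0 z‖
        ≤ 1 * B := mul_le_mul h1 h2 (norm_nonneg _) zero_le_one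
      _ = B := one_mul B

/-! ### The main statements -/

section main

variable (N : ℕ) [NeZero N]

theorem hasPoleInf_jd {d : ℕ} (hd : d ∣ N) (γ : SL(2, ℤ)) : HasPoleInf N (N * N) (jd d γ) := by
  have hN : 0 < N := Nat.pos_of_ne_zero (NeZero.ne N)
  have hdpos : 0 < d := Nat.pos_of_dvd_of_pos hd hN
  obtain ⟨a, d', b, ha, hd', had, -, hjd⟩ := jd_eq_tri d hdpos γ
  have hd'N : d' ∣ N := (Dvd.intro_left a had).trans hd
  have hdiff : MDifferentiable 𝓘(ℂ) 𝓘(ℂ) (tri a d' b jfun) := by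
    rw [← hjd]
    exact Fermat.Agent.S24_helper27_J1.jd_mdiff d hdpos γ
  rw [hjd]
  refine hasPoleInf_tri_jfun ha hd' hN hd'N b ?_ hdiff
  have h1 : a ≤ N := by
    have : a ≤ d := Nat.le_of_dvd hdpos (Dvd.intro _ had)
    exact this.trans (Nat.le_of_dvd hN hd)
  have h2 : N / d' ≤ N := Nat.div_le_self _ _
  exact Nat.mul_le_mul h1 h2

lemma order_ofPowerSeries_of_coeff_zero_ne {P : PowerSeries ℂ} (hP : P.coeff 0 ≠ 0) :
    (HahnSeries.ofPowerSeries ℤ ℂ P).order = 0 := by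
  have h0 : (HahnSeries.ofPowerSeries ℤ ℂ P).coeff (0 : ℤ) ≠ 0 := by
    have := HahnSeries.ofPowerSeries_apply_coeff (Γ := ℤ) P 0
    simp only [Nat.cast_zero] at this
    rwa [this]
  have hne : HahnSeries.ofPowerSeries ℤ ℂ P ≠ 0 := HahnSeries.ne_zero_of_coeff_ne_zero h0
  apply le_antisymm (HahnSeries.order_le_of_coeff_ne_zero h0)
  rw [HahnSeries.le_order_iff_forall hne]
  intro j hj
  exact ModularCurve.ofPowerSeries_coeff_of_neg P hj

/-- the Laurent expansion of `tri a d b jfun` at `i∞` -/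
lemma laurentInf_tri_jfun {a d : ℕ} (ha : 0 < a) (hd : 0 < d) (hdN : d ∣ N) (b : ℤ)
    (hdiff : MDifferentiable 𝓘(ℂ) 𝓘(ℂ) (tri a d b jfun)) :
    laurentInf N (tri a d b jfun) =
      HahnSeries.single (-((a * (N / d) : ℕ) : ℤ)) (1 : ℂ) * HahnSeries.ofPowerSeries ℤ ℂ
        ((Complex.exp (2 * π * Complex.I * (b : ℂ) / (d : ℂ)))⁻¹ •
          qExpansion (N : ℝ) (tri a d b J0)) := by
  have hN : 0 < N := Nat.pos_of_ne_zero (NeZero.ne N)
  have hN' : (0 : ℝ) < (N : ℝ) := by exact_mod_cast hN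
  have hJ : Nice (N : ℝ) (tri a d b J0) := nice_tri nice_J0 ha hd hN hdN b
  have hpole := hasPoleInf_tri_jfun ha hd hN hdN b (le_refl (a * (N / d))) hdiff
  rw [Fermat.Agent.S24_helper21_LINF.laurentInf_eq N hpole]
  have hfun : (fun z : ℍ => Function.Periodic.qParam (N : ℝ) (z : ℂ) ^ (a * (N / d)) *
      tri a d b jfun z) =
      (Complex.exp (2 * π * Complex.I * (b : ℂ) / (d : ℂ)))⁻¹ • tri a d b J0 := by
    funext z
    rw [qpow_mul_tri_jfun ha hd hN hdN b (le_refl _) z]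
    simp
  rw [hfun, qExpansion_smul (nice_analyticAt hN' hJ)]

theorem laurentInf_jd_order (γ : SL(2, ℤ)) :
    (laurentInf N (jd N γ)).order = -((Int.gcd N (γ 1 0) : ℤ) ^ 2) := by
  have hN : 0 < N := Nat.pos_of_ne_zero (NeZero.ne N)
  have hN' : (0 : ℝ) < (N : ℝ) := by exact_mod_cast hN
  obtain ⟨a, d', b, ha, hd', had, hag, hjd⟩ := jd_eq_tri N hN γ
  have hd'N : d' ∣ N := Dvd.intro_left a had
  have hdiff : MDifferentiable 𝓘(ℂ) 𝓘(ℂ) (tri a d' b jfun) := by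
    rw [← hjd]
    exact Fermat.Agent.S24_helper27_J1.jd_mdiff N hN γ
  have hdiv : N / d' = a := Nat.div_eq_of_eq_mul_left hd' had.symm
  rw [hjd, laurentInf_tri_jfun N ha hd' hd'N b hdiff, hdiv]
  set c₀ : ℂ := (Complex.exp (2 * π * Complex.I * (b : ℂ) / (d' : ℂ)))⁻¹ with hc₀
  have hc₀ne : c₀ ≠ 0 := inv_ne_zero (Complex.exp_ne_zero _)
  have hcoeff : (c₀ • qExpansion (N : ℝ) (tri a d' b J0)).coeff 0 ≠ 0 := by
    rw [PowerSeries.coeff_smul, qExpansion_tri_coeff nice_J0 ha hd' hN hd'N b 0]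
    simp only [dvd_zero, if_true, Nat.zero_div, Nat.cast_zero, mul_zero, zero_div,
      Complex.exp_zero, mul_one, qExpansion_J0_coeff_zero, smul_eq_mul]
    exact hc₀ne
  have hne : HahnSeries.ofPowerSeries ℤ ℂ (c₀ • qExpansion (N : ℝ) (tri a d' b J0)) ≠ 0 := by
    intro h
    have := order_ofPowerSeries_of_coeff_zero_ne hcoeff
    apply hcoeff
    have h2 := HahnSeries.ofPowerSeries_apply_coeff (Γ := ℤ)
      (c₀ • qExpansion (N : ℝ) (tri a d' b J0)) 0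
    rw [h] at h2
    simpa using h2.symm
  rw [HahnSeries.order_single_mul_of_isRegular isRegular_one hne,
    order_ofPowerSeries_of_coeff_zero_ne hcoeff, add_zero, ← hag]
  push_cast
  ring

/-- consequence: the stabiliser of `z ↦ j(N z)` is `Γ₀(N)` -/
theorem jd_stab (γ : SL(2, ℤ)) (h : jd N γ = jd N 1) : γ ∈ Gamma0 N := by
  have h1 := laurentInf_jd_order N γ
  have h2 := laurentInf_jd_order N 1
  rw [h, h2] at h1
  have h3 : ((1 : SL(2, ℤ)) 1 0 : ℤ) = 0 := by simp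
  rw [h3, Int.gcd_zero_right] at h1
  have h4 : ((Int.gcd (N : ℤ) (γ 1 0) : ℤ)) ^ 2 = ((N : ℤ)) ^ 2 := by
    have := neg_injective h1
    simpa using this.symm
  have h5 : (Int.gcd (N : ℤ) (γ 1 0) : ℤ) = (N : ℤ) := by
    have hnn : (0 : ℤ) ≤ (Int.gcd (N : ℤ) (γ 1 0) : ℤ) := Int.natCast_nonneg _
    have hNn : (0 : ℤ) ≤ (N : ℤ) := Int.natCast_nonneg _
    exact (pow_left_inj₀ hnn hNn two_ne_zero).1 h4
  have h6 : (N : ℤ) ∣ γ 1 0 := by
    rw [← h5]
    exact Int.gcd_dvd_right _ _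
  rw [CongruenceSubgroup.Gamma0_mem]
  exact (ZMod.intCast_zmod_eq_zero_iff_dvd _ _).2 h6

end main

/-! ### The expansion of `z ↦ j(d z)` -/

lemma jd_one_eq_tri (d : ℕ) : jd d 1 = tri d 1 0 jfun := by
  funext z
  simp [jd, dmul, tri]

lemma coeffMap_phi0_jLaur (d : ℕ) [NeZero d] :
    ModularCurve.coeffMap phi0 (jLaur d) = ModularCurve.qExpand ℂ d (ModularCurve.jqModC ℂ) := by
  have h1 : phi0.comp (algebraMap ℚ Kbar) = algebraMap ℚ ℂ := Subsingleton.elim _ _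
  rw [jLaur, ModularCurve.coeffEmb, ModularCurve.coeffMap_coeffMap, h1,
    ModularCurve.coeffMap_qExpand]
  congr 1
  rw [← ModularCurve.jqModC_rat]
  exact ModularCurve.map_jqModC (algebraMap ℚ ℂ)

lemma ofPowerSeries_tri_eq_qExpand (d : ℕ) [NeZero d] :
    HahnSeries.ofPowerSeries ℤ ℂ (qExpansion ((1 : ℕ) : ℝ) (tri d 1 0 J0)) =
      ModularCurve.qExpand ℂ d
        (HahnSeries.ofPowerSeries ℤ ℂ (ModularCurve.jNum.map (Int.castRingHom ℂ))) := by
  have hd : 0 < d := Nat.pos_of_ne_zero (NeZero.ne d)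
  have hcoeff : ∀ m : ℕ, (qExpansion ((1 : ℕ) : ℝ) (tri d 1 0 J0)).coeff m =
      if d ∣ m then (ModularCurve.jNum.map (Int.castRingHom ℂ)).coeff (m / d) else 0 := by
    intro m
    rw [qExpansion_tri_coeff nice_J0 hd one_pos one_pos (one_dvd 1) 0 m]
    simp only [Nat.div_self one_pos, mul_one, Int.cast_zero, mul_zero, zero_mul, zero_div,
      Complex.exp_zero, qExpansion_J0]
  ext k
  rcases lt_or_ge k 0 with hk | hk
  · rw [ModularCurve.ofPowerSeries_coeff_of_neg _ hk]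
    by_cases hdk : (d : ℤ) ∣ k
    · obtain ⟨k', rfl⟩ := hdk
      rw [ModularCurve.qExpand_coeff_mul]
      have hk' : k' < 0 := by
        by_contra hcon
        have : 0 ≤ (d : ℤ) * k' := mul_nonneg (Int.natCast_nonneg _) (not_lt.1 hcon)
        omega
      rw [ModularCurve.ofPowerSeries_coeff_of_neg _ hk']
    · rw [ModularCurve.qExpand_coeff_of_not_dvd _ _ hdk]
  · lift k to ℕ using hk
    rw [HahnSeries.ofPowerSeries_apply_coeff, hcoeff]
    by_cases hdk : d ∣ k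
    · rw [if_pos hdk]
      obtain ⟨k', rfl⟩ := hdk
      rw [Nat.mul_div_cancel_left _ hd]
      have : ((d * k' : ℕ) : ℤ) = (d : ℤ) * (k' : ℤ) := by push_cast; ring
      rw [this, ModularCurve.qExpand_coeff_mul, HahnSeries.ofPowerSeries_apply_coeff]
    · rw [if_neg hdk]
      have hdk' : ¬ (d : ℤ) ∣ (k : ℤ) := by
        intro h
        exact hdk (Int.natCast_dvd_natCast.1 h)
      rw [ModularCurve.qExpand_coeff_of_not_dvd _ _ hdk']

theorem laurentInf_jd_one {d : ℕ} [NeZero d] :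
    laurentInf 1 (jd d 1) = ModularCurve.coeffMap phi0 (jLaur d) := by
  have hd : 0 < d := Nat.pos_of_ne_zero (NeZero.ne d)
  have hdiff : MDifferentiable 𝓘(ℂ) 𝓘(ℂ) (tri d 1 0 jfun) := by
    rw [← jd_one_eq_tri]
    exact Fermat.Agent.S24_helper27_J1.jd_mdiff d hd 1
  rw [coeffMap_phi0_jLaur, jd_one_eq_tri, laurentInf_tri_jfun 1 hd one_pos (one_dvd 1) 0 hdiff]
  have h1 : (Complex.exp (2 * π * Complex.I * ((0 : ℤ) : ℂ) / ((1 : ℕ) : ℂ)))⁻¹ = 1 := by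
    simp
  rw [h1, one_smul, ofPowerSeries_tri_eq_qExpand, ModularCurve.jqModC, map_mul,
    ModularCurve.qExpand_single]
  congr 2

end

end Fermat.Agent.S24_helper24_JD
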