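import Mathlib
import Fermat.Agent.S24_Defs

/-!
# S24, piece C-TAY: Taylor expansion in the Cayley coordinate

`taylorAt z₀` is additive, multiplicative, injective on holomorphic functions, and
transforms by a rescaling under an element of `SL(2, ℤ)` fixing `z₀`.
-/

set_option autoImplicit false
set_option linter.style.haveILetI false
set_option linter.unusedVariables false
set_option linter.unusedSectionVars false

open UpperHalfPlane ModularForm CongruenceSubgroup AlgebraicCurve IntermediateField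
open scoped MatrixGroups ModularForm Manifold Topology
open Fermat.Agent.S20 Fermat.Agent.S24

noncomputable section

namespace Fermat.Agent.S24_helper26_TAY

variable (z₀ : ℍ) {g h : ℍ → ℂ}

/-- The function `g` read in the Cayley coordinate centred at `z₀`. -/
def pull (z₀ : ℍ) (g : ℍ → ℂ) : ℂ → ℂ := fun w => g (ofComplex (chart z₀ w))

theorem taylorAt_coeff (g : ℍ → ℂ) (n : ℕ) :
    PowerSeries.coeff n (taylorAt z₀ g) =
      ((n.factorial : ℂ))⁻¹ * iteratedDeriv n (pull z₀ g) 0 := by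
  rw [taylorAt, PowerSeries.coeff_mk]
  rfl

theorem chart_zero : chart z₀ 0 = (z₀ : ℂ) := by simp [chart]

theorem pull_zero (g : ℍ → ℂ) : pull z₀ g 0 = g z₀ := by
  simp [pull, chart_zero, ofComplex_apply]

theorem analyticAt_chart : AnalyticAt ℂ (chart z₀) 0 := by
  unfold chart
  refine AnalyticAt.div ?_ ?_ (by simp)
  · exact analyticAt_const.sub (analyticAt_const.mul analyticAt_id)
  · exact analyticAt_const.sub analyticAt_id

theorem eventually_chart_im_pos : ∀ᶠ w in 𝓝 (0 : ℂ), 0 < (chart z₀ w).im := by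
  have h1 : ContinuousAt (fun w => (chart z₀ w).im) 0 :=
    Complex.continuous_im.continuousAt.comp (analyticAt_chart z₀).continuousAt
  have h2 : (0 : ℝ) < (chart z₀ 0).im := by rw [chart_zero]; exact z₀.im_pos
  exact h1.eventually (lt_mem_nhds h2)

theorem analyticAt_comp_ofComplex (hg : MDifferentiable 𝓘(ℂ) 𝓘(ℂ) g) (z : ℍ) :
    AnalyticAt ℂ (g ∘ ofComplex) (z : ℂ) :=
  (UpperHalfPlane.mdifferentiable_iff.mp hg).analyticAt
    (isOpen_upperHalfPlaneSet.mem_nhds z.im_pos)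

theorem analyticAt_pull (hg : MDifferentiable 𝓘(ℂ) 𝓘(ℂ) g) : AnalyticAt ℂ (pull z₀ g) 0 := by
  have h1 : AnalyticAt ℂ (g ∘ ofComplex) (chart z₀ 0) := by
    rw [chart_zero]; exact analyticAt_comp_ofComplex hg z₀
  exact h1.comp (analyticAt_chart z₀)

theorem taylorAt_add (hg : MDifferentiable 𝓘(ℂ) 𝓘(ℂ) g) (hh : MDifferentiable 𝓘(ℂ) 𝓘(ℂ) h) :
    taylorAt z₀ (g + h) = taylorAt z₀ g + taylorAt z₀ h := by
  ext n
  rw [map_add, taylorAt_coeff, taylorAt_coeff, taylorAt_coeff]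
  have e : pull z₀ (g + h) = pull z₀ g + pull z₀ h := rfl
  rw [e, iteratedDeriv_add (analyticAt_pull z₀ hg).contDiffAt (analyticAt_pull z₀ hh).contDiffAt,
    mul_add]

theorem taylorAt_mul (hg : MDifferentiable 𝓘(ℂ) 𝓘(ℂ) g) (hh : MDifferentiable 𝓘(ℂ) 𝓘(ℂ) h) :
    taylorAt z₀ (g * h) = taylorAt z₀ g * taylorAt z₀ h := by
  ext n
  have e : pull z₀ (g * h) = pull z₀ g * pull z₀ h := rfl
  simp only [taylorAt_coeff, e,
    iteratedDeriv_mul (analyticAt_pull z₀ hg).contDiffAt (analyticAt_pull z₀ hh).contDiffAt,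
    Finset.mul_sum, PowerSeries.coeff_mul, Finset.Nat.sum_antidiagonal_eq_sum_range_succ_mk,
    Nat.succ_eq_add_one]
  refine Finset.sum_congr rfl fun i hi ↦ ?_
  rw [Nat.cast_choose _ (by grind)]
  field_simp [Nat.factorial_ne_zero]

theorem taylorAt_const (c : ℂ) : taylorAt z₀ (fun _ => c) = PowerSeries.C c := by
  ext n
  rw [taylorAt_coeff]
  have e : pull z₀ (fun _ => c) = fun _ => c := rfl
  rw [e, iteratedDeriv_const, PowerSeries.coeff_C]
  by_cases hn : n = 0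
  · subst hn; simp
  · simp [hn]

theorem taylorAt_constantCoeff : PowerSeries.constantCoeff (taylorAt z₀ g) = g z₀ := by
  rw [← PowerSeries.coeff_zero_eq_constantCoeff_apply, taylorAt_coeff]
  simp [pull_zero]

/-- `z₀ - conj z₀ ≠ 0`. -/
theorem sub_conj_ne_zero : (z₀ : ℂ) - (starRingEnd ℂ) (z₀ : ℂ) ≠ 0 := by
  rw [Complex.sub_conj]
  have : z₀.im ≠ 0 := z₀.im_pos.ne'
  simp [this]

/-- `z - conj z₀ ≠ 0` for `z` in the upper half plane. -/
theorem sub_conj_ne_zero' {z : ℂ} (hz : 0 < z.im) : z - (starRingEnd ℂ) (z₀ : ℂ) ≠ 0 := by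
  intro h
  have h1 := congrArg Complex.im h
  simp only [Complex.sub_im, Complex.conj_im, Complex.zero_im] at h1
  have := z₀.im_pos
  have h2 : (z₀ : ℂ).im = z₀.im := rfl
  rw [h2] at h1
  linarith

/-- The inverse chart. -/
def invChart (z₀ : ℍ) (z : ℂ) : ℂ := (z - (z₀ : ℂ)) / (z - (starRingEnd ℂ) (z₀ : ℂ))

theorem invChart_self : invChart z₀ (z₀ : ℂ) = 0 := by simp [invChart]

theorem chart_invChart {z : ℂ} (hz : 0 < z.im) : chart z₀ (invChart z₀ z) = z := by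
  have h1 := sub_conj_ne_zero z₀
  have h2 := sub_conj_ne_zero' z₀ hz
  unfold chart invChart
  have h3 : (1 : ℂ) - (z - (z₀ : ℂ)) / (z - (starRingEnd ℂ) (z₀ : ℂ)) =
      ((z₀ : ℂ) - (starRingEnd ℂ) (z₀ : ℂ)) / (z - (starRingEnd ℂ) (z₀ : ℂ)) := by
    field_simp
    ring
  have h4 : (z₀ : ℂ) - (starRingEnd ℂ) (z₀ : ℂ) * ((z - (z₀ : ℂ)) / (z - (starRingEnd ℂ) (z₀ : ℂ)))
      = z * ((z₀ : ℂ) - (starRingEnd ℂ) (z₀ : ℂ)) / (z - (starRingEnd ℂ) (z₀ : ℂ)) := by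
    field_simp
    ring
  rw [h3, h4]
  field_simp

theorem continuousAt_invChart : ContinuousAt (invChart z₀) (z₀ : ℂ) := by
  unfold invChart
  refine ContinuousAt.div ?_ ?_ (sub_conj_ne_zero z₀)
  · exact continuousAt_id.sub continuousAt_const
  · exact continuousAt_id.sub continuousAt_const

theorem eventually_pull_eq_zero (hg : MDifferentiable 𝓘(ℂ) 𝓘(ℂ) g) (h0 : taylorAt z₀ g = 0) :
    ∀ᶠ w in 𝓝 (0 : ℂ), pull z₀ g w = 0 := by
  have hA := analyticAt_pull z₀ hg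
  have hs := hA.hasFPowerSeriesAt
  have hz : (FormalMultilinearSeries.ofScalars ℂ
      (fun n ↦ iteratedDeriv n (pull z₀ g) 0 / (n.factorial : ℂ))) = 0 := by
    have hc : (fun n ↦ iteratedDeriv n (pull z₀ g) 0 / (n.factorial : ℂ)) = 0 := by
      funext n
      have := congrArg (PowerSeries.coeff n) h0
      rw [taylorAt_coeff, map_zero] at this
      rw [Pi.zero_apply, div_eq_inv_mul]
      exact this
    rw [hc]
    ext n
    simp [FormalMultilinearSeries.ofScalars]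
  rw [hz] at hs
  exact hs.eventually_eq_zero

theorem taylorAt_eq_zero (hg : MDifferentiable 𝓘(ℂ) 𝓘(ℂ) g) (h0 : taylorAt z₀ g = 0) : g = 0 := by
  have h1 := eventually_pull_eq_zero z₀ hg h0
  have h2 : ∀ᶠ z in 𝓝 (z₀ : ℂ), pull z₀ g (invChart z₀ z) = 0 := by
    have ht : Filter.Tendsto (invChart z₀) (𝓝 (z₀ : ℂ)) (𝓝 0) := by
      have := (continuousAt_invChart z₀).tendsto
      rwa [invChart_self] at this
    exact ht.eventually h1
  have h3 : (g ∘ ofComplex) =ᶠ[𝓝 (z₀ : ℂ)] 0 := by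
    filter_upwards [h2, isOpen_upperHalfPlaneSet.mem_nhds z₀.im_pos] with z hz hz'
    simp only [pull, chart_invChart z₀ hz'] at hz
    exact hz
  have hAn : AnalyticOnNhd ℂ (g ∘ ofComplex) {z : ℂ | 0 < z.im} :=
    (UpperHalfPlane.mdifferentiable_iff.mp hg).analyticOnNhd isOpen_upperHalfPlaneSet
  have hpc : IsPreconnected {z : ℂ | 0 < z.im} := (convex_halfSpace_im_gt 0).isPreconnected
  have h4 := hAn.eqOn_zero_of_preconnected_of_eventuallyEq_zero hpc
    (show (z₀ : ℂ) ∈ {z : ℂ | 0 < z.im} from z₀.im_pos) h3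
  funext z
  have := h4 (show (z : ℂ) ∈ {z : ℂ | 0 < z.im} from z.im_pos)
  simpa [ofComplex_apply] using this

theorem hasDerivAt_chart : HasDerivAt (chart z₀) ((z₀ : ℂ) - (starRingEnd ℂ) (z₀ : ℂ)) 0 := by
  have h1 : HasDerivAt (fun w : ℂ => (z₀ : ℂ) - (starRingEnd ℂ) (z₀ : ℂ) * w)
      (-((starRingEnd ℂ) (z₀ : ℂ))) 0 := by
    have := ((hasDerivAt_id (0 : ℂ)).const_mul ((starRingEnd ℂ) (z₀ : ℂ))).const_sub (z₀ : ℂ)
    simpa using this
  have h2 : HasDerivAt (fun w : ℂ => (1 : ℂ) - w) (-1) 0 := by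
    have := (hasDerivAt_id (0 : ℂ)).const_sub (1 : ℂ)
    simpa using this
  have h3 := h1.div h2 (by simp)
  have e : (fun w : ℂ => (z₀ : ℂ) - (starRingEnd ℂ) (z₀ : ℂ) * w) / (fun w : ℂ => (1 : ℂ) - w)
      = chart z₀ := rfl
  rw [e] at h3
  have e2 : (-(starRingEnd ℂ) (z₀ : ℂ) * (1 - 0) -
      ((z₀ : ℂ) - (starRingEnd ℂ) (z₀ : ℂ) * 0) * -1) / (1 - 0) ^ 2 =
      (z₀ : ℂ) - (starRingEnd ℂ) (z₀ : ℂ) := by
    simp only [mul_zero, sub_zero, one_pow, div_one, mul_one, mul_neg]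
    ring
  rwa [e2] at h3

theorem deriv_pull_zero (hg : MDifferentiable 𝓘(ℂ) 𝓘(ℂ) g) :
    deriv (pull z₀ g) 0 =
      deriv (g ∘ ofComplex) z₀ * ((z₀ : ℂ) - (starRingEnd ℂ) (z₀ : ℂ)) := by
  have h1 : HasDerivAt (g ∘ ofComplex) (deriv (g ∘ ofComplex) z₀) (chart z₀ 0) := by
    rw [chart_zero]
    exact (analyticAt_comp_ofComplex hg z₀).differentiableAt.hasDerivAt
  have h2 := h1.comp (0 : ℂ) (hasDerivAt_chart z₀)
  exact h2.deriv

theorem taylorAt_order_one (hg : MDifferentiable 𝓘(ℂ) 𝓘(ℂ) g) (h0 : g z₀ = 0)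
    (h1 : deriv (g ∘ ofComplex) z₀ ≠ 0) : (taylorAt z₀ g).order = 1 := by
  have : (taylorAt z₀ g).order = ((1 : ℕ) : ℕ∞) := by
    rw [PowerSeries.order_eq_nat]
    refine ⟨?_, ?_⟩
    · rw [taylorAt_coeff, iteratedDeriv_one, deriv_pull_zero z₀ hg]
      simp only [Nat.factorial_one, Nat.cast_one, inv_one, one_mul]
      exact mul_ne_zero h1 (sub_conj_ne_zero z₀)
    · intro i hi
      have hi0 : i = 0 := by omega
      subst hi0
      rw [PowerSeries.coeff_zero_eq_constantCoeff_apply, taylorAt_constantCoeff, h0]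
  simpa using this

/-- Local scaling rule for iterated derivatives at `0`. -/
theorem iteratedDeriv_comp_const_mul_zero (c : ℂ) (n : ℕ) :
    ∀ G : ℂ → ℂ, AnalyticAt ℂ G 0 →
      iteratedDeriv n (fun w => G (c * w)) 0 = c ^ n * iteratedDeriv n G 0 := by
  induction n with
  | zero => intro G _; simp
  | succ n ih =>
    intro G hG
    rw [iteratedDeriv_succ', iteratedDeriv_succ']
    have ht : Filter.Tendsto (fun w : ℂ => c * w) (𝓝 0) (𝓝 0) := by
      have := (continuous_const_mul c).tendsto (0 : ℂ)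
      simpa using this
    have hev : ∀ᶠ w in 𝓝 (0 : ℂ), AnalyticAt ℂ G (c * w) :=
      ht.eventually hG.eventually_analyticAt
    have h1 : deriv (fun w => G (c * w)) =ᶠ[𝓝 0] fun w => c * deriv G (c * w) := by
      filter_upwards [hev] with w hw
      have hd : HasDerivAt (fun w : ℂ => c * w) c w := by
        simpa using (hasDerivAt_id w).const_mul c
      have := (hw.differentiableAt.hasDerivAt).comp w hd
      rw [mul_comm]
      exact this.deriv
    rw [h1.iteratedDeriv_eq n, iteratedDeriv_const_mul_field, ih _ hG.deriv, pow_succ]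
    ring

/-- The multiplier of `γ` at a fixed point `z₀`. -/
def mult (z₀ : ℍ) (γ : SL(2, ℤ)) : ℂ :=
  (((γ 1 0 : ℤ) : ℂ) * (starRingEnd ℂ) (z₀ : ℂ) + ((γ 1 1 : ℤ) : ℂ)) /
    (((γ 1 0 : ℤ) : ℂ) * (z₀ : ℂ) + ((γ 1 1 : ℤ) : ℂ))

theorem moebius_alg_aux (u ub z zb w : ℂ) (hu : u ≠ 0) (h1w : 1 - w ≠ 0)
    (hden : u - ub * w ≠ 0) :
    ((z * u - zb * ub * w) / (1 - w)) / ((u - ub * w) / (1 - w)) =
      (z - zb * (ub / u * w)) / (1 - ub / u * w) := by
  have e3 : (1 : ℂ) - ub / u * w = (u - ub * w) / u := by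
    field_simp
  have e4 : z - zb * (ub / u * w) = (z * u - zb * ub * w) / u := by
    field_simp
  rw [e3, e4]
  field_simp

theorem moebius_alg (a b c d z zb w : ℂ) (hu : c * z + d ≠ 0) (h1w : 1 - w ≠ 0)
    (hden : c * ((z - zb * w) / (1 - w)) + d ≠ 0)
    (hfix : a * z + b = z * (c * z + d)) (hfixb : a * zb + b = zb * (c * zb + d)) :
    (a * ((z - zb * w) / (1 - w)) + b) / (c * ((z - zb * w) / (1 - w)) + d) =
      (z - zb * ((c * zb + d) / (c * z + d) * w)) / (1 - (c * zb + d) / (c * z + d) * w) := by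
  have e1 : c * ((z - zb * w) / (1 - w)) + d = ((c * z + d) - (c * zb + d) * w) / (1 - w) := by
    field_simp
    ring
  have hden' : (c * z + d) - (c * zb + d) * w ≠ 0 := by
    intro h
    apply hden
    rw [e1, h, zero_div]
  have e2 : a * ((z - zb * w) / (1 - w)) + b =
      (z * (c * z + d) - zb * (c * zb + d) * w) / (1 - w) := by
    field_simp
    linear_combination hfix - w * hfixb
  rw [e1, e2]
  exact moebius_alg_aux (c * z + d) (c * zb + d) z zb w hu h1w hden'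

/-- The coordinate formula for the action of `SL(2, ℤ)`, with integer casts. -/
theorem coe_smul_int (γ : SL(2, ℤ)) (τ : ℍ) :
    ((γ • τ : ℍ) : ℂ) =
      (((γ 0 0 : ℤ) : ℂ) * (τ : ℂ) + ((γ 0 1 : ℤ) : ℂ)) /
        (((γ 1 0 : ℤ) : ℂ) * (τ : ℂ) + ((γ 1 1 : ℤ) : ℂ)) := by
  rw [UpperHalfPlane.coe_specialLinearGroup_apply]
  simp

theorem denom_int_ne_zero (γ : SL(2, ℤ)) (τ : ℍ) :
    ((γ 1 0 : ℤ) : ℂ) * (τ : ℂ) + ((γ 1 1 : ℤ) : ℂ) ≠ 0 := by
  intro h
  have h1 := coe_smul_int γ τ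
  rw [h, div_zero] at h1
  have h2 := (γ • τ).im_pos
  have h3 : (γ • τ).im = ((γ • τ : ℍ) : ℂ).im := rfl
  rw [h3, h1] at h2
  simp at h2

theorem smul_ofComplex_chart (γ : SL(2, ℤ)) (hγ : γ • z₀ = z₀) {w : ℂ}
    (hw : 0 < (chart z₀ w).im) :
    γ • ofComplex (chart z₀ w) = ofComplex (chart z₀ (mult z₀ γ * w)) := by
  have h1w : (1 : ℂ) - w ≠ 0 := by
    intro h
    rw [chart, h, div_zero] at hw
    simp at hw
  set τ : ℍ := ofComplex (chart z₀ w) with hτ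
  have hτc : (τ : ℂ) = chart z₀ w := by
    rw [hτ, ofComplex_apply_of_im_pos hw]
  have hfix0 := coe_smul_int γ z₀
  rw [hγ] at hfix0
  have hu := denom_int_ne_zero γ z₀
  have hfix : ((γ 0 0 : ℤ) : ℂ) * (z₀ : ℂ) + ((γ 0 1 : ℤ) : ℂ) =
      (z₀ : ℂ) * (((γ 1 0 : ℤ) : ℂ) * (z₀ : ℂ) + ((γ 1 1 : ℤ) : ℂ)) := by
    rw [eq_div_iff hu] at hfix0
    exact hfix0.symm
  have hfixb : ((γ 0 0 : ℤ) : ℂ) * (starRingEnd ℂ) (z₀ : ℂ) + ((γ 0 1 : ℤ) : ℂ) =
      (starRingEnd ℂ) (z₀ : ℂ) *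
        (((γ 1 0 : ℤ) : ℂ) * (starRingEnd ℂ) (z₀ : ℂ) + ((γ 1 1 : ℤ) : ℂ)) := by
    have := congrArg (starRingEnd ℂ) hfix
    simpa using this
  have hden := denom_int_ne_zero γ τ
  have key : ((γ • τ : ℍ) : ℂ) = chart z₀ (mult z₀ γ * w) := by
    rw [coe_smul_int, hτc]
    rw [hτc] at hden
    exact moebius_alg _ _ _ _ _ _ _ hu h1w hden hfix hfixb
  rw [← key, ofComplex_apply]

theorem taylorAt_smul (hg : MDifferentiable 𝓘(ℂ) 𝓘(ℂ) g) (γ : SL(2, ℤ)) (hγ : γ • z₀ = z₀)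
    (n : ℕ) : PowerSeries.coeff n (taylorAt z₀ (fun z => g (γ • z))) =
      ((((γ 1 0 : ℤ) : ℂ) * (starRingEnd ℂ) (z₀ : ℂ) + ((γ 1 1 : ℤ) : ℂ)) /
        (((γ 1 0 : ℤ) : ℂ) * (z₀ : ℂ) + ((γ 1 1 : ℤ) : ℂ))) ^ n *
        PowerSeries.coeff n (taylorAt z₀ g) := by
  rw [taylorAt_coeff, taylorAt_coeff]
  have h1 : pull z₀ (fun z => g (γ • z)) =ᶠ[𝓝 0] fun w => pull z₀ g (mult z₀ γ * w) := by
    filter_upwards [eventually_chart_im_pos z₀] with w hw
    simp only [pull]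
    rw [smul_ofComplex_chart z₀ γ hγ hw]
  rw [h1.iteratedDeriv_eq n, iteratedDeriv_comp_const_mul_zero _ n _ (analyticAt_pull z₀ hg)]
  simp only [mult]
  ring

end Fermat.Agent.S24_helper26_TAY
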