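import Fermat.Agent.S24_helper29_PSIcore
import Fermat.Agent.S24_helper21_LINF
import Fermat.Agent.S24_helper24_JD

/-!
# S24, piece C-PSI: from formal `q`-series to functions

The ring of formal series generated over `ℚ̄` by the `j(q^d)`, `d ∣ N`, embeds into the ring
of functions on the upper half plane generated by the constants and the `z ↦ j(dz)`,
compatibly with Laurent expansion at `i∞`.
-/

set_option autoImplicit false

open UpperHalfPlane ModularForm CongruenceSubgroup AlgebraicCurve IntermediateField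
open scoped MatrixGroups ModularForm Manifold
open Fermat.Agent.S20 Fermat.Agent.S24

namespace Fermat.Agent.S24_helper29_PSI

theorem PSI (N : ℕ) [NeZero N] :
    ∃ ψ : (Algebra.adjoin Kbar
        {x : LaurentSeries Kbar | ∃ (d : ℕ) (_ : NeZero d), d ∣ N ∧ x = jLaur d}) →+* (ℍ → ℂ),
      Function.Injective ψ ∧ (∀ a : Kbar, ψ (algebraMap Kbar _ a) = fun _ => phi0 a) ∧
      (∀ (d : ℕ) [NeZero d] (hd : d ∣ N),
        ψ ⟨jLaur d, Algebra.subset_adjoin ⟨d, inferInstance, hd, rfl⟩⟩ = jd d 1) ∧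
      (∀ x, ψ x ∈ Subring.closure
        (Set.range (fun c : ℂ => (fun _ : ℍ => c)) ∪ {f | ∃ d : ℕ, d ∣ N ∧ f = jd d 1})) ∧
      ∀ x, laurentInf 1 (ψ x) = ModularCurve.coeffMap phi0 (x : LaurentSeries Kbar) :=
  Fermat.Agent.S24_helper29_PSIcore.PSI_of N
    (fun hg hh => Fermat.Agent.S24_helper21_LINF.laurentInf_add 1 hg hh)
    (fun hg hh => Fermat.Agent.S24_helper21_LINF.laurentInf_mul 1 hg hh)
    (fun c => Fermat.Agent.S24_helper21_LINF.laurentInf_const 1 c)
    (fun hg h0 => Fermat.Agent.S24_helper21_LINF.laurentInf_eq_zero 1 hg h0)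
    (fun _ _ _ => Fermat.Agent.S24_helper24_JD.laurentInf_jd_one)

end Fermat.Agent.S24_helper29_PSI
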