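import Fermat.Agent.S24_Defs
import Fermat.Agent.S24_helper29_PSI
import Fermat.Agent.S24_helper23_GEN
import Fermat.Agent.S24_helper27_J1
import Fermat.Agent.S24_helper26_TAY
import Fermat.Agent.S24_helper21_LINF
import Fermat.Agent.S24_helper24_JD

set_option autoImplicit false
set_option linter.unusedSectionVars false
set_option linter.unusedVariables false

/-!
# S24 piece C-EMB: embeddings of the modular function field into Laurent series fields
-/

noncomputable section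

open UpperHalfPlane ModularForm CongruenceSubgroup AlgebraicCurve IntermediateField
open scoped MatrixGroups ModularForm Manifold
open Fermat.Agent.S20 Fermat.Agent.S24

namespace Fermat.Agent.S24_helper17_EMB

open Fermat.Agent.S24_helper29_PSI Fermat.Agent.S24_helper23_GEN Fermat.Agent.S24_helper27_J1
  Fermat.Agent.S24_helper26_TAY Fermat.Agent.S24_helper21_LINF Fermat.Agent.S24_helper24_JD

/-- Precomposition with `z ↦ γ • z` as a ring homomorphism. -/
def precomp (γ : SL(2, ℤ)) : (ℍ → ℂ) →+* (ℍ → ℂ) where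
  toFun g := fun z => g (γ • z)
  map_one' := rfl
  map_mul' _ _ := rfl
  map_zero' := rfl
  map_add' _ _ := rfl

theorem precomp_apply (γ : SL(2, ℤ)) (g : ℍ → ℂ) (z : ℍ) : precomp γ g z = g (γ • z) := rfl

theorem precomp_injective (γ : SL(2, ℤ)) : Function.Injective (precomp γ) := by
  intro g h hgh
  ext z
  have := congrFun hgh (γ⁻¹ • z)
  simpa [precomp_apply] using this

theorem precomp_jd (γ : SL(2, ℤ)) (d : ℕ) : precomp γ (jd d 1) = jd d γ := by
  ext z
  rw [precomp_apply, ← jd_mul, one_mul]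

/-- The generators `j(q^d)`, `d ∣ N`, of the function field. -/
abbrev genSet (N : ℕ) : Set (LaurentSeries Kbar) :=
  {x | ∃ (d : ℕ) (_ : NeZero d), d ∣ N ∧ x = jLaur d}

open scoped IntermediateField.algebraAdjoinAdjoin in
theorem EMB (N : ℕ) [NeZero N] (γ : SL(2, ℤ)) {Ω : Type*} [Field Ω]
    (A : Subring (ℍ → ℂ)) (hAc : ∀ c : ℂ, (fun _ => c) ∈ A)
    (hAj : ∀ d : ℕ, d ∣ N → jd d γ ∈ A)
    (E : A →+* Ω) (hE : Function.Injective E) :
    ∃ ι : ModularCurve.modularFunctionFieldBar N →+* Ω,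
      (∀ a : Kbar, ι (algebraMap Kbar _ a) = E ⟨fun _ => phi0 a, hAc _⟩) ∧
      ∀ (d : ℕ) [NeZero d] (hd : d ∣ N), ι (jF N d hd) = E ⟨jd d γ, hAj d hd⟩ := by
  classical
  obtain ⟨ψ, hψinj, hψc, hψj, hψmem, -⟩ := PSI N
  have hle : Subring.closure
      (Set.range (fun c : ℂ => (fun _ : ℍ => c)) ∪ {f | ∃ d : ℕ, d ∣ N ∧ f = jd d 1})
      ≤ A.comap (precomp γ) := by
    rw [Subring.closure_le]
    rintro f (⟨c, rfl⟩ | ⟨d, hd, rfl⟩)
    · exact hAc c
    · show precomp γ (jd d 1) ∈ A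
      rw [precomp_jd]
      exact hAj d hd
  have hmem : ∀ x, ((precomp γ).comp ψ) x ∈ A := fun x => hle (hψmem x)
  set θ : Algebra.adjoin Kbar (genSet N) →+* Ω := E.comp (((precomp γ).comp ψ).codRestrict A hmem)
    with hθ
  have hθinj : Function.Injective θ := by
    intro x y hxy
    have h1 := hE hxy
    have h2 : (precomp γ) (ψ x) = (precomp γ) (ψ y) := congrArg Subtype.val h1
    exact hψinj (precomp_injective γ h2)
  let ι₀ : IntermediateField.adjoin Kbar (genSet N) →+* Ω := IsFractionRing.lift hθinj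
  have hι₀ : ∀ x : Algebra.adjoin Kbar (genSet N),
      ι₀ (algebraMap (Algebra.adjoin Kbar (genSet N)) (IntermediateField.adjoin Kbar (genSet N)) x) = θ x :=
    fun x => IsFractionRing.lift_algebraMap hθinj x
  let e : ModularCurve.modularFunctionFieldBar N ≃ₐ[Kbar] IntermediateField.adjoin Kbar (genSet N) :=
    IntermediateField.equivOfEq (GEN N)
  refine ⟨ι₀.comp (e : ModularCurve.modularFunctionFieldBar N →+* _), ?_, ?_⟩
  · intro a
    have h1 : (e : ModularCurve.modularFunctionFieldBar N →+* _) (algebraMap Kbar _ a)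
        = algebraMap (Algebra.adjoin Kbar (genSet N)) (IntermediateField.adjoin Kbar (genSet N))
            (algebraMap Kbar (Algebra.adjoin Kbar (genSet N)) a) := by
      apply Subtype.ext
      rfl
    rw [RingHom.comp_apply, h1, hι₀, hθ, RingHom.comp_apply]
    congr 1
    apply Subtype.ext
    show precomp γ (ψ (algebraMap Kbar _ a)) = fun _ => phi0 a
    rw [hψc]
    rfl
  · intro d _ hd
    have h1 : (e : ModularCurve.modularFunctionFieldBar N →+* _) (jF N d hd)
        = algebraMap (Algebra.adjoin Kbar (genSet N)) (IntermediateField.adjoin Kbar (genSet N))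
            ⟨jLaur d, Algebra.subset_adjoin ⟨d, inferInstance, hd, rfl⟩⟩ := by
      apply Subtype.ext
      rfl
    rw [RingHom.comp_apply, h1, hι₀, hθ, RingHom.comp_apply]
    congr 1
    apply Subtype.ext
    show precomp γ (ψ ⟨jLaur d, Algebra.subset_adjoin ⟨d, inferInstance, hd, rfl⟩⟩) = jd d γ
    rw [hψj d hd, precomp_jd]

/-! ### Finite points -/

/-- The ring of holomorphic functions on the upper half plane. -/
def holoSubring : Subring (ℍ → ℂ) where
  carrier := {g | MDifferentiable 𝓘(ℂ) 𝓘(ℂ) g}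
  mul_mem' := fun hg hh => MDifferentiable.mul hg hh
  one_mem' := mdifferentiable_const
  add_mem' := fun hg hh => MDifferentiable.add hg hh
  zero_mem' := mdifferentiable_const
  neg_mem' := fun hg => MDifferentiable.neg hg

theorem mem_holoSubring {g : ℍ → ℂ} : g ∈ holoSubring ↔ MDifferentiable 𝓘(ℂ) 𝓘(ℂ) g := Iff.rfl

/-- Taylor expansion at `z₀` as a ring homomorphism on holomorphic functions. -/
def laurentAtHom (z₀ : ℍ) : holoSubring →+* LaurentSeries ℂ where
  toFun g := laurentAt z₀ (g : ℍ → ℂ)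
  map_one' := by
    show laurentAt z₀ (fun _ => (1 : ℂ)) = 1
    rw [laurentAt, taylorAt_const, map_one, map_one]
  map_mul' := by
    rintro ⟨g, hg⟩ ⟨h, hh⟩
    show laurentAt z₀ (g * h) = laurentAt z₀ g * laurentAt z₀ h
    rw [laurentAt, taylorAt_mul z₀ hg hh, map_mul]
    rfl
  map_zero' := by
    show laurentAt z₀ (fun _ => (0 : ℂ)) = 0
    rw [laurentAt, taylorAt_const, map_zero, map_zero]
  map_add' := by
    rintro ⟨g, hg⟩ ⟨h, hh⟩
    show laurentAt z₀ (g + h) = laurentAt z₀ g + laurentAt z₀ h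
    rw [laurentAt, taylorAt_add z₀ hg hh, map_add]
    rfl

theorem laurentAtHom_apply (z₀ : ℍ) (g : holoSubring) :
    laurentAtHom z₀ g = laurentAt z₀ (g : ℍ → ℂ) := rfl

theorem laurentAtHom_injective (z₀ : ℍ) : Function.Injective (laurentAtHom z₀) := by
  rw [injective_iff_map_eq_zero]
  rintro ⟨g, hg⟩ h0
  apply Subtype.ext
  show g = 0
  apply taylorAt_eq_zero z₀ hg
  apply HahnSeries.ofPowerSeries_injective (Γ := ℤ)
  rw [map_zero]
  exact h0

theorem MASTER_fin (N : ℕ) [NeZero N] (z₀ : ℍ) (γ : SL(2, ℤ)) :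
    ∃ ι : ModularCurve.modularFunctionFieldBar N →+* LaurentSeries ℂ,
      (∀ a : Kbar, ι (algebraMap Kbar _ a) = HahnSeries.C (phi0 a)) ∧
      ∀ (d : ℕ) [NeZero d] (hd : d ∣ N), ι (jF N d hd) = laurentAt z₀ (jd d γ) := by
  have hAj : ∀ d : ℕ, d ∣ N → jd d γ ∈ holoSubring := fun d hd =>
    jd_mdiff d (Nat.pos_of_dvd_of_pos hd (Nat.pos_of_ne_zero (NeZero.ne N))) γ
  obtain ⟨ι, h1, h2⟩ := EMB N γ holoSubring (fun c => mdifferentiable_const) hAj
    (laurentAtHom z₀) (laurentAtHom_injective z₀)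
  refine ⟨ι, fun a => ?_, fun d _ hd => ?_⟩
  · rw [h1, laurentAtHom_apply]
    show laurentAt z₀ (fun _ => phi0 a) = HahnSeries.C (phi0 a)
    rw [laurentAt, taylorAt_const, HahnSeries.ofPowerSeries_C]
  · rw [h2 d hd, laurentAtHom_apply]

/-! ### The cusp -/

theorem isBoundedAtImInfty_qParam_pow (N : ℕ) [NeZero N] (k : ℕ) :
    IsBoundedAtImInfty (fun z : ℍ => Function.Periodic.qParam (N : ℝ) (z : ℂ) ^ k) := by
  rw [isBoundedAtImInfty_iff]
  refine ⟨1, 0, fun z _ => ?_⟩
  have hN : (0 : ℝ) < N := by exact_mod_cast Nat.pos_of_ne_zero (NeZero.ne N)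
  have h1 : ‖Function.Periodic.qParam (N : ℝ) (z : ℂ)‖ < 1 :=
    Function.Periodic.norm_qParam_lt_one hN z.im_pos
  rw [norm_pow]
  exact pow_le_one₀ (norm_nonneg _) h1.le

theorem bdd_congr {f g : ℍ → ℂ} (h : IsBoundedAtImInfty f) (e : ∀ z, g z = f z) :
    IsBoundedAtImInfty g := by
  have : g = f := funext e
  rw [this]
  exact h

theorem hasPoleInf_const (N : ℕ) [NeZero N] (c : ℂ) : HasPoleInf N 0 (fun _ => c) := by
  refine ⟨mdifferentiable_const, fun _ => rfl, ?_⟩
  simp only [pow_zero, one_mul]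
  exact Filter.const_boundedAtFilter _ c

theorem hasPoleInf_mul (N : ℕ) [NeZero N] {g h : ℍ → ℂ} {M M' : ℕ} (hg : HasPoleInf N M g)
    (hh : HasPoleInf N M' h) : HasPoleInf N (M + M') (g * h) := by
  refine ⟨MDifferentiable.mul hg.1 hh.1, fun z => ?_, ?_⟩
  · simp only [Pi.mul_apply, hg.2.1 z, hh.2.1 z]
  · refine bdd_congr (hg.2.2.mul hh.2.2) fun z => ?_
    simp only [Pi.mul_apply, pow_add]
    ring

theorem hasPoleInf_neg (N : ℕ) [NeZero N] {g : ℍ → ℂ} {M : ℕ} (hg : HasPoleInf N M g) :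
    HasPoleInf N M (-g) := by
  refine ⟨MDifferentiable.neg hg.1, fun z => ?_, ?_⟩
  · simp only [Pi.neg_apply, hg.2.1 z]
  · refine bdd_congr hg.2.2.neg fun z => ?_
    simp only [Pi.neg_apply]
    ring

theorem hasPoleInf_mono (N : ℕ) [NeZero N] {g : ℍ → ℂ} {M M' : ℕ} (hg : HasPoleInf N M g)
    (hMM : M ≤ M') : HasPoleInf N M' g := by
  refine ⟨hg.1, hg.2.1, ?_⟩
  refine bdd_congr ((isBoundedAtImInfty_qParam_pow N (M' - M)).mul hg.2.2) fun z => ?_
  simp only [Pi.mul_apply]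
  rw [← mul_assoc, ← pow_add, Nat.sub_add_cancel hMM]

theorem hasPoleInf_add (N : ℕ) [NeZero N] {g h : ℍ → ℂ} {M M' : ℕ} (hg : HasPoleInf N M g)
    (hh : HasPoleInf N M' h) : HasPoleInf N (max M M') (g + h) := by
  have hg' := hasPoleInf_mono N hg (le_max_left M M')
  have hh' := hasPoleInf_mono N hh (le_max_right M M')
  refine ⟨MDifferentiable.add hg.1 hh.1, fun z => ?_, ?_⟩
  · simp only [Pi.add_apply, hg.2.1 z, hh.2.1 z]
  · refine bdd_congr (hg'.2.2.add hh'.2.2) fun z => ?_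
    simp only [Pi.add_apply]
    ring

/-- The ring of holomorphic `N`-periodic functions with a pole of finite order at `i∞`. -/
def poleSubring (N : ℕ) [NeZero N] : Subring (ℍ → ℂ) where
  carrier := {g | ∃ M, HasPoleInf N M g}
  mul_mem' := fun ⟨_, hg⟩ ⟨_, hh⟩ => ⟨_, hasPoleInf_mul N hg hh⟩
  one_mem' := ⟨0, hasPoleInf_const N 1⟩
  add_mem' := fun ⟨_, hg⟩ ⟨_, hh⟩ => ⟨_, hasPoleInf_add N hg hh⟩
  zero_mem' := ⟨0, hasPoleInf_const N 0⟩
  neg_mem' := fun ⟨_, hg⟩ => ⟨_, hasPoleInf_neg N hg⟩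

theorem mem_poleSubring {N : ℕ} [NeZero N] {g : ℍ → ℂ} :
    g ∈ poleSubring N ↔ ∃ M, HasPoleInf N M g := Iff.rfl

/-- Laurent expansion at `i∞` as a ring homomorphism. -/
def laurentInfHom (N : ℕ) [NeZero N] : poleSubring N →+* LaurentSeries ℂ where
  toFun g := laurentInf N (g : ℍ → ℂ)
  map_one' := by
    show laurentInf N (fun _ => (1 : ℂ)) = 1
    rw [laurentInf_const, map_one]
  map_mul' := by
    rintro ⟨g, M, hg⟩ ⟨h, M', hh⟩
    exact laurentInf_mul N hg hh
  map_zero' := by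
    show laurentInf N (fun _ => (0 : ℂ)) = 0
    rw [laurentInf_const, map_zero]
  map_add' := by
    rintro ⟨g, M, hg⟩ ⟨h, M', hh⟩
    exact laurentInf_add N hg hh

theorem laurentInfHom_apply (N : ℕ) [NeZero N] (g : poleSubring N) :
    laurentInfHom N g = laurentInf N (g : ℍ → ℂ) := rfl

theorem laurentInfHom_injective (N : ℕ) [NeZero N] : Function.Injective (laurentInfHom N) := by
  rw [injective_iff_map_eq_zero]
  rintro ⟨g, M, hg⟩ h0
  apply Subtype.ext
  exact laurentInf_eq_zero N hg h0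

theorem MASTER_inf (N : ℕ) [NeZero N] (γ : SL(2, ℤ)) :
    ∃ ι : ModularCurve.modularFunctionFieldBar N →+* LaurentSeries ℂ,
      (∀ a : Kbar, ι (algebraMap Kbar _ a) = HahnSeries.C (phi0 a)) ∧
      ∀ (d : ℕ) [NeZero d] (hd : d ∣ N), ι (jF N d hd) = laurentInf N (jd d γ) := by
  have hAj : ∀ d : ℕ, d ∣ N → jd d γ ∈ poleSubring N := fun d hd =>
    ⟨N * N, hasPoleInf_jd N hd γ⟩
  obtain ⟨ι, h1, h2⟩ := EMB N γ (poleSubring N) (fun c => ⟨0, hasPoleInf_const N c⟩) hAj
    (laurentInfHom N) (laurentInfHom_injective N)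
  refine ⟨ι, fun a => ?_, fun d _ hd => ?_⟩
  · rw [h1, laurentInfHom_apply]
    exact laurentInf_const N (phi0 a)
  · rw [h2 d hd, laurentInfHom_apply]

end Fermat.Agent.S24_helper17_EMB
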