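import Fermat.Agent.S24_Defs
import Fermat.Agent.S24_helper16_Scale
import Fermat.Agent.S24_helper27_J1
import Fermat.Agent.S24_helper23_GEN
import Fermat.Agent.S24_helper21_LINF
import Fermat.Agent.S24_helper24_JD
import Fermat.Agent.S24_helper17_EMB

/-!
# S24, piece C-LOCinf: the local picture of the function field above the cusp `∞`

For each coset `q : Q N` we produce an embedding of the modular function field into
`ℂ((q_N))` (Laurent expansion at `i∞` of the translates by a coset representative), together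
with the action of `T`.
-/

set_option autoImplicit false
set_option linter.unusedSectionVars false
set_option linter.unnecessarySimpa false

open UpperHalfPlane ModularForm CongruenceSubgroup AlgebraicCurve IntermediateField
open scoped MatrixGroups ModularForm Manifold
open Fermat.Agent.S20 Fermat.Agent.S24

namespace Fermat.Agent.S24_helper10_LOCinf

/-- characterisation of the order of a Laurent series by its coefficients -/
theorem order_eq_of_coeff' {x : LaurentSeries ℂ} {n : ℤ} (h1 : x.coeff n ≠ 0)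
    (h2 : ∀ m < n, x.coeff m = 0) : x.order = n := by
  have hx : x ≠ 0 := by
    rintro rfl
    simp at h1
  apply le_antisymm
  · exact HahnSeries.order_le_of_coeff_ne_zero h1
  · by_contra hlt
    exact hx (HahnSeries.coeff_order_eq_zero.mp (h2 _ (not_le.mp hlt)))

variable (N : ℕ) [NeZero N]

theorem Npos' : 0 < N := Nat.pos_of_ne_zero (NeZero.ne N)

/-- the out-representative of a translated coset -/
theorem jd_out_smul' (g₀ : SL(2, ℤ)) (q : Q N) (d : ℕ) (hd : d ∣ N) :
    jd d (((g₀⁻¹ • q : Q N)).out⁻¹) = fun z => jd d (q.out⁻¹) (g₀ • z) := by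
  set h : SL(2, ℤ) := ((g₀⁻¹ • q : Q N)).out with hh
  have h1 : (QuotientGroup.mk h : Q N) = QuotientGroup.mk (g₀⁻¹ * q.out) := by
    rw [hh, QuotientGroup.out_eq']
    conv_lhs => rw [← QuotientGroup.out_eq' q]
    rfl
  have h2 : h⁻¹ * (g₀⁻¹ * q.out) ∈ Gamma0 N := QuotientGroup.eq.mp h1
  have h3 : h⁻¹ = (h⁻¹ * (g₀⁻¹ * q.out)) * (q.out⁻¹ * g₀) := by group
  funext z
  rw [h3, Fermat.Agent.S24_helper27_J1.jd_Gamma0 hd (Npos' N) _ h2, Fermat.Agent.S24_helper27_J1.jd_mul]

/-- the embedding attached to a coset at the cusp `∞` -/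
noncomputable def iotaInf (q : Q N) :
    ModularCurve.modularFunctionFieldBar N →+* LaurentSeries ℂ :=
  (Fermat.Agent.S24_helper17_EMB.MASTER_inf N (q.out⁻¹)).choose

theorem iotaInf_const (q : Q N) (a : Kbar) :
    iotaInf N q (algebraMap Kbar _ a) = HahnSeries.C (phi0 a) :=
  (Fermat.Agent.S24_helper17_EMB.MASTER_inf N (q.out⁻¹)).choose_spec.1 a

theorem iotaInf_jF (q : Q N) (d : ℕ) [NeZero d] (hd : d ∣ N) :
    iotaInf N q (jF N d hd) = laurentInf N (jd d (q.out⁻¹)) :=
  (Fermat.Agent.S24_helper17_EMB.MASTER_inf N (q.out⁻¹)).choose_spec.2 d hd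

theorem iotaInf_jElt (q : Q N) :
    iotaInf N q (jElt N) = laurentInf N jfun := by
  unfold jElt
  rw [iotaInf_jF, Fermat.Agent.S24_helper27_J1.jd_one]

theorem hasPoleInf_const (c : ℂ) : HasPoleInf N 0 (fun _ : ℍ => c) := by
  refine ⟨mdifferentiable_const, fun _ => rfl, ?_⟩
  simp only [pow_zero, one_mul]
  exact Filter.const_boundedAtFilter _ c

theorem hasPoleInf_neg {M : ℕ} {h : ℍ → ℂ} (hh : HasPoleInf N M h) :
    HasPoleInf N M ((fun _ : ℍ => (-1 : ℂ)) * h) := by
  obtain ⟨h1, h2, h3⟩ := hh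
  refine ⟨mdifferentiable_const.mul h1, ?_, ?_⟩
  · intro z
    simp only [Pi.mul_apply, h2 z]
  · have : (fun z : ℍ => Function.Periodic.qParam (N : ℝ) (z : ℂ) ^ M *
        ((fun _ : ℍ => (-1 : ℂ)) * h) z) =
        (fun _ : ℍ => (-1 : ℂ)) *
          (fun z : ℍ => Function.Periodic.qParam (N : ℝ) (z : ℂ) ^ M * h z) := by
      funext z
      simp only [Pi.mul_apply]
      ring
    rw [this]
    exact (Filter.const_boundedAtFilter _ (-1 : ℂ)).mul h3

theorem hasPoleInf_add {M : ℕ} {g h : ℍ → ℂ} (hg : HasPoleInf N M g) (hh : HasPoleInf N M h) :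
    HasPoleInf N M (g + h) := by
  obtain ⟨g1, g2, g3⟩ := hg
  obtain ⟨h1, h2, h3⟩ := hh
  refine ⟨g1.add h1, ?_, ?_⟩
  · intro z
    simp only [Pi.add_apply, g2 z, h2 z]
  · have : (fun z : ℍ => Function.Periodic.qParam (N : ℝ) (z : ℂ) ^ M * (g + h) z) =
        (fun z : ℍ => Function.Periodic.qParam (N : ℝ) (z : ℂ) ^ M * g z) +
          (fun z : ℍ => Function.Periodic.qParam (N : ℝ) (z : ℂ) ^ M * h z) := by
      funext z
      simp only [Pi.add_apply]
      ring
    rw [this]
    exact g3.add h3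

theorem laurentInf_sub {M : ℕ} {g h : ℍ → ℂ} (hg : HasPoleInf N M g) (hh : HasPoleInf N M h) :
    laurentInf N (g - h) = laurentInf N g - laurentInf N h := by
  have h1 : g - h = g + (fun _ : ℍ => (-1 : ℂ)) * h := by
    funext z
    simp [sub_eq_add_neg]
  rw [h1, Fermat.Agent.S24_helper21_LINF.laurentInf_add N hg (hasPoleInf_neg N hh),
    Fermat.Agent.S24_helper21_LINF.laurentInf_mul N (hasPoleInf_const N (-1)) hh, Fermat.Agent.S24_helper21_LINF.laurentInf_const, map_neg, map_one]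
  ring

theorem hasPoleInf_sub {M : ℕ} {g h : ℍ → ℂ} (hg : HasPoleInf N M g) (hh : HasPoleInf N M h) :
    HasPoleInf N M (g - h) := by
  have h1 : g - h = g + (fun _ : ℍ => (-1 : ℂ)) * h := by
    funext z
    simp [sub_eq_add_neg]
  rw [h1]
  exact hasPoleInf_add N hg (hasPoleInf_neg N hh)

theorem iotaInf_injective : Function.Injective (iotaInf N) := by
  intro q q' h
  have h1 := congrArg (fun ι => ι (jF N N dvd_rfl)) h
  simp only [iotaInf_jF] at h1
  have hd1 := Fermat.Agent.S24_helper24_JD.hasPoleInf_jd N (dvd_refl N) (q.out⁻¹)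
  have hd2 := Fermat.Agent.S24_helper24_JD.hasPoleInf_jd N (dvd_refl N) (q'.out⁻¹)
  have h3 : jd N (q.out⁻¹) - jd N (q'.out⁻¹) = 0 :=
    Fermat.Agent.S24_helper21_LINF.laurentInf_eq_zero N (hasPoleInf_sub N hd1 hd2)
      (by rw [laurentInf_sub N hd1 hd2, h1, sub_self])
  have h4 : jd N (q.out⁻¹) = jd N (q'.out⁻¹) := sub_eq_zero.mp h3
  have h5 : jd N (q.out⁻¹ * q'.out) = jd N 1 := by
    funext z
    rw [Fermat.Agent.S24_helper27_J1.jd_mul, h4, ← Fermat.Agent.S24_helper27_J1.jd_mul, inv_mul_cancel]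
  have h6 := Fermat.Agent.S24_helper24_JD.jd_stab N _ h5
  have h7 : (QuotientGroup.mk q.out : Q N) = QuotientGroup.mk q'.out :=
    QuotientGroup.eq.mpr h6
  rwa [QuotientGroup.out_eq', QuotientGroup.out_eq'] at h7

theorem order_qExpand {x : LaurentSeries ℂ} (hx : x ≠ 0) :
    (ModularCurve.qExpand ℂ N x).order = (N : ℤ) * x.order := by
  apply order_eq_of_coeff'
  · rw [ModularCurve.qExpand_coeff_mul]
    exact fun h0 => hx (HahnSeries.coeff_order_eq_zero.mp h0)
  · intro m hm
    by_cases hdvd : (N : ℤ) ∣ m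
    · obtain ⟨k, rfl⟩ := hdvd
      rw [ModularCurve.qExpand_coeff_mul]
      have hN : (0 : ℤ) < N := by exact_mod_cast Npos' N
      have hk : k < x.order := lt_of_mul_lt_mul_left hm hN.le
      exact HahnSeries.coeff_eq_zero_of_lt_order hk
    · exact ModularCurve.qExpand_coeff_of_not_dvd N x hdvd

theorem order_laurentInf_one_jfun : (laurentInf 1 jfun).order = -1 := by
  have h := Fermat.Agent.S24_helper24_JD.laurentInf_jd_order 1 (1 : SL(2, ℤ))
  rw [Fermat.Agent.S24_helper27_J1.jd_one] at h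
  rw [h]
  simp

theorem laurentInf_one_jfun_ne_zero : laurentInf 1 jfun ≠ 0 := by
  intro h0
  have h := order_laurentInf_one_jfun
  rw [h0, HahnSeries.order_zero] at h
  norm_num at h

theorem laurentInf_jfun_eq :
    laurentInf N jfun = ModularCurve.qExpand ℂ N (laurentInf 1 jfun) := by
  have h := Fermat.Agent.S24_helper24_JD.hasPoleInf_jd 1 (one_dvd 1) (1 : SL(2, ℤ))
  rw [Fermat.Agent.S24_helper27_J1.jd_one] at h
  exact Fermat.Agent.S24_helper21_LINF.laurentInf_qExpand N h

theorem order_laurentInf_jfun : (laurentInf N jfun).order = -(N : ℤ) := by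
  rw [laurentInf_jfun_eq, order_qExpand N laurentInf_one_jfun_ne_zero, order_laurentInf_one_jfun]
  ring

theorem laurentInf_jfun_ne_zero : laurentInf N jfun ≠ 0 := by
  rw [laurentInf_jfun_eq]
  intro h0
  exact laurentInf_one_jfun_ne_zero
    (ModularCurve.qExpand_injective N (by rw [h0, map_zero]))

theorem iotaInf_order (q : Q N) : (iotaInf N q (jElt N)⁻¹).order = (N : ℤ) := by
  rw [map_inv₀, iotaInf_jElt]
  have hx := laurentInf_jfun_ne_zero N
  have h1 : (laurentInf N jfun * (laurentInf N jfun)⁻¹).order =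
      (laurentInf N jfun).order + ((laurentInf N jfun)⁻¹).order :=
    HahnSeries.order_mul hx (inv_ne_zero hx)
  rw [mul_inv_cancel₀ hx, HahnSeries.order_one, order_laurentInf_jfun] at h1
  linarith

theorem iotaInf_rescale (q : Q N) (f : ModularCurve.modularFunctionFieldBar N) (n : ℤ) :
    (iotaInf N (MulAction.toPerm (ModularGroup.T⁻¹) q) f).coeff n =
      Complex.exp (2 * Real.pi * Complex.I / N) ^ n * (iotaInf N q f).coeff n := by
  set ζ : ℂ := Complex.exp (2 * Real.pi * Complex.I / N) with hζ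
  have hζ0 : ζ ≠ 0 := Complex.exp_ne_zero _
  set ζu : ℂˣ := Units.mk0 ζ hζ0 with hζu
  have key : iotaInf N (MulAction.toPerm (ModularGroup.T⁻¹) q) =
      (Fermat.Agent.S24_helper16_B.lsScale ζu : LaurentSeries ℂ →+* LaurentSeries ℂ).comp
        (iotaInf N q) := by
    apply Fermat.Agent.S24_helper23_GEN.ringHom_ext_FN
    · intro a
      rw [iotaInf_const, RingHom.comp_apply, iotaInf_const]
      exact (Fermat.Agent.S24_helper16_B.lsScale_C ζu _).symm
    · intro d _ hd
      rw [iotaInf_jF, RingHom.comp_apply, iotaInf_jF]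
      have h1 : jd d (((MulAction.toPerm (ModularGroup.T⁻¹) q : Q N)).out⁻¹) =
          fun z => jd d (q.out⁻¹) (ModularGroup.T • z) := jd_out_smul' N ModularGroup.T q d hd
      rw [h1]
      have h2 : (fun z : ℍ => jd d (q.out⁻¹) (ModularGroup.T • z)) =
          fun z : ℍ => jd d (q.out⁻¹) ((1 : ℝ) +ᵥ z) := by
        funext z
        rw [UpperHalfPlane.modular_T_smul]
      rw [h2]
      ext m
      show (laurentInf N _).coeff m = (Fermat.Agent.S24_helper16_B.lsScale ζu _).coeff m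
      rw [Fermat.Agent.S24_helper16_B.coeff_lsScale,
        Fermat.Agent.S24_helper21_LINF.laurentInf_T N (Fermat.Agent.S24_helper24_JD.hasPoleInf_jd N hd (q.out⁻¹)) m]
      simp [hζu, hζ]
  rw [key, RingHom.comp_apply]
  show (Fermat.Agent.S24_helper16_B.lsScale ζu _).coeff n = _
  rw [Fermat.Agent.S24_helper16_B.coeff_lsScale]
  simp [hζu]

theorem LOC_inf (N : ℕ) [NeZero N] : ∃ (ζ : ℂ) (ι : Q N → ModularCurve.modularFunctionFieldBar N →+* LaurentSeries ℂ), IsPrimitiveRoot ζ N ∧ (∀ q a, ι q (algebraMap Kbar _ a) = HahnSeries.C (phi0 a)) ∧ Function.Injective ι ∧ (∀ q q', ι q (jElt N) = ι q' (jElt N)) ∧ (∀ q, (ι q (jElt N)⁻¹).order = (N : ℤ)) ∧ (∀ q f (n : ℤ), (ι (MulAction.toPerm (ModularGroup.T⁻¹) q) f).coeff n = ζ ^ n * (ι q f).coeff n) := by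
  refine ⟨Complex.exp (2 * Real.pi * Complex.I / N), iotaInf N,
    Complex.isPrimitiveRoot_exp N (NeZero.ne N), iotaInf_const N, iotaInf_injective N, ?_,
    iotaInf_order N, iotaInf_rescale N⟩
  intro q q'
  rw [iotaInf_jElt, iotaInf_jElt]

end Fermat.Agent.S24_helper10_LOCinf
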