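import Mathlib
import Fermat.Prelude.Def_AlgebraicCurve_CanonicalDivisor

set_option autoImplicit false

open AlgebraicCurve IntermediateField KaehlerDifferential

namespace Fermat.Agent.S24_helper23_CARD

/-- Two ring homs out of `F` that agree on `K` and on `t` agree on `K⟮t⟯`. -/
theorem agree_on_adjoin {K F Ω : Type*} [Field K] [Field F] [Algebra K F] [Field Ω] (t : F)
    (f g : F →+* Ω) (hK : ∀ a, f (algebraMap K F a) = g (algebraMap K F a)) (ht : f t = g t)
    (x : F) (hx : x ∈ K⟮t⟯) : f x = g x := by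
  induction hx using IntermediateField.adjoin_induction with
  | mem y hy =>
    rw [Set.mem_singleton_iff] at hy
    subst hy
    exact ht
  | algebraMap a => exact hK a
  | add x y hx hy h1 h2 => rw [map_add, map_add, h1, h2]
  | inv x hx h => rw [map_inv₀, map_inv₀, h]
  | mul x y hx hy h1 h2 => rw [map_mul, map_mul, h1, h2]

/-- CARD: the number of pairwise distinct embeddings `F → Ω` agreeing on `K` and on `t`
is at most `[F : K(t)]`. -/
theorem CARD {K F Ω : Type*} [Field K] [Field F] [Algebra K F] [Field Ω] (t : F)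
    [FiniteDimensional K⟮t⟯ F] {I : Type*} [Fintype I] (ι : I → F →+* Ω)
    (hinj : Function.Injective ι)
    (hK : ∀ i i' a, ι i (algebraMap K F a) = ι i' (algebraMap K F a))
    (ht : ∀ i i', ι i t = ι i' t) : Fintype.card I ≤ Module.finrank K⟮t⟯ F := by
  classical
  rcases isEmpty_or_nonempty I with hI | ⟨⟨i₀⟩⟩
  · simp
  letI algΩ : Algebra K⟮t⟯ Ω := ((ι i₀).comp (algebraMap K⟮t⟯ F)).toAlgebra
  have hagree : ∀ i (x : K⟮t⟯), ι i (x : F) = ι i₀ (x : F) := fun i x =>
    agree_on_adjoin t (ι i) (ι i₀) (hK i i₀) (ht i i₀) x x.2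
  let φ : I → (F →ₐ[K⟮t⟯] Ω) := fun i =>
    { ι i with commutes' := fun x => hagree i x }
  have hφ : Function.Injective φ := by
    intro i i' h
    apply hinj
    ext x
    have := congrArg (fun f : F →ₐ[K⟮t⟯] Ω => f x) h
    exact this
  calc Fintype.card I = Nat.card I := (Nat.card_eq_fintype_card).symm
    _ ≤ Nat.card (F →ₐ[K⟮t⟯] Ω) := Nat.card_le_card_of_injective φ hφ
    _ ≤ Module.finrank K⟮t⟯ F := card_algHom_le_finrank _ _ _

end Fermat.Agent.S24_helper23_CARD
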