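import Mathlib
import Fermat.Agent.S24_Defs
import Fermat.Agent.S24_helper23_CARD

set_option autoImplicit false

open UpperHalfPlane ModularForm CongruenceSubgroup AlgebraicCurve IntermediateField
open scoped MatrixGroups ModularForm Manifold
open Fermat.Agent.S20 Fermat.Agent.S24

namespace Fermat.Agent.S24_helper23_DEGof

/-- `[F : ℚ̄(j)] = mu N`, from the upper bound (piece C-DEGle) and the existence of `mu N`
pairwise distinct embeddings agreeing on constants and on `j` (from piece C-LOCinf or
C-LOCfin). -/
theorem DEG_of (N : ℕ) [NeZero N] {Ω : Type*} [Field Ω]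
    (hle : FiniteDimensional Kbar⟮jElt N⟯ (ModularCurve.modularFunctionFieldBar N) ∧
      Module.finrank Kbar⟮jElt N⟯ (ModularCurve.modularFunctionFieldBar N) ≤ mu N)
    (ι : Q N → ModularCurve.modularFunctionFieldBar N →+* Ω)
    (hinj : Function.Injective ι)
    (hK : ∀ q q' a, ι q (algebraMap Kbar _ a) = ι q' (algebraMap Kbar _ a))
    (hj : ∀ q q', ι q (jElt N) = ι q' (jElt N)) :
    FiniteDimensional Kbar⟮jElt N⟯ (ModularCurve.modularFunctionFieldBar N) ∧
      Module.finrank Kbar⟮jElt N⟯ (ModularCurve.modularFunctionFieldBar N) = mu N := by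
  obtain ⟨hfin, hle'⟩ := hle
  refine ⟨hfin, le_antisymm hle' ?_⟩
  haveI := hfin
  -- `Q N` is finite: it injects into the finite set of `K⟮j⟯`-algebra homs
  haveI : Finite (Q N) := by
    classical
    by_cases hne : Nonempty (Q N)
    · obtain ⟨q₀⟩ := hne
      letI algΩ : Algebra Kbar⟮jElt N⟯ Ω :=
        ((ι q₀).comp (algebraMap Kbar⟮jElt N⟯ (ModularCurve.modularFunctionFieldBar N))).toAlgebra
      have hagree : ∀ q (x : Kbar⟮jElt N⟯),
          ι q (x : ModularCurve.modularFunctionFieldBar N)
            = ι q₀ (x : ModularCurve.modularFunctionFieldBar N) := fun q x =>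
        Fermat.Agent.S24_helper23_CARD.agree_on_adjoin (jElt N) (ι q) (ι q₀) (hK q q₀) (hj q q₀)
          x x.2
      let φ : Q N → (ModularCurve.modularFunctionFieldBar N →ₐ[Kbar⟮jElt N⟯] Ω) := fun q =>
        { ι q with commutes' := fun x => hagree q x }
      have hφ : Function.Injective φ := by
        intro q q' h
        apply hinj
        ext x
        exact congrArg (fun f : ModularCurve.modularFunctionFieldBar N →ₐ[Kbar⟮jElt N⟯] Ω => f x) h
      exact Finite.of_injective φ hφ
    · haveI : IsEmpty (Q N) := not_nonempty_iff.mp hne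
      infer_instance
  letI : Fintype (Q N) := Fintype.ofFinite (Q N)
  have h := Fermat.Agent.S24_helper23_CARD.CARD (K := Kbar) (jElt N) ι hinj
    (fun q q' a => hK q q' a) hj
  rw [mu, Nat.card_eq_fintype_card]
  exact h

end Fermat.Agent.S24_helper23_DEGof
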