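import Fermat.Agent.S20_Defs

set_option autoImplicit false

open UpperHalfPlane ModularForm CongruenceSubgroup
open scoped MatrixGroups ModularForm Manifold
open Fermat.Agent.S20

namespace Fermat.Agent.S20_helper8_B1

/-- the monomial function `E₄^a E₆^b` -/
noncomputable def mono (a b : ℕ) : ℍ → ℂ := fun z => E₄ z ^ a * E₆ z ^ b

/-- the monomial as a level one modular form -/
noncomputable def monoForm (a b : ℕ) : ModularForm 𝒮ℒ ((4 * a + 6 * b : ℕ) : ℤ) :=
  ModularForm.mcast (by push_cast; ring) ((E₄.pow a).mul (E₆.pow b))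

theorem coe_monoForm (a b : ℕ) : ⇑(monoForm a b) = mono a b := by
  ext z
  simp [monoForm, mono, ModularForm.coe_mcast, ModularForm.coe_mul, ModularForm.coe_pow]

theorem monoForm_coeff_zero (a b : ℕ) : (qExpansion 1 (monoForm a b)).coeff 0 = 1 := by
  rw [monoForm, ModularForm.qExpansion_mcast,
    ModularForm.qExpansion_mul one_pos one_mem_strictPeriods_SL,
    ModularForm.qExpansion_pow one_pos one_mem_strictPeriods_SL,
    ModularForm.qExpansion_pow one_pos one_mem_strictPeriods_SL]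
  simp only [PowerSeries.coeff_zero_eq_constantCoeff, map_mul, map_pow]
  have h4 := EisensteinSeries.E_qExpansion_coeff_zero (k := 4) (by norm_num) ⟨2, rfl⟩
  have h6 := EisensteinSeries.E_qExpansion_coeff_zero (k := 6) (by norm_num) ⟨3, rfl⟩
  rw [PowerSeries.coeff_zero_eq_constantCoeff] at h4 h6
  rw [h4, h6]
  simp

/-- `IsMF1` is stable under changing the weight along an equality. -/
theorem isMF1_congr {k l : ℤ} (h : k = l) {f : ℍ → ℂ} (hf : IsMF1 k f) : IsMF1 l f := by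
  subst h; exact hf

theorem isMF1_mono (a b : ℕ) : IsMF1 ((4 * a + 6 * b : ℕ) : ℤ) (mono a b) :=
  ⟨monoForm a b, coe_monoForm a b⟩

/-- span of the isobaric monomials of weight `w` -/
noncomputable def Iso (w : ℕ) : Submodule ℂ (ℍ → ℂ) :=
  Submodule.span ℂ {g | ∃ a b : ℕ, 4 * a + 6 * b = w ∧ g = mono a b}

theorem mono_mem_Iso {a b w : ℕ} (h : 4 * a + 6 * b = w) : mono a b ∈ Iso w :=
  Submodule.subset_span ⟨a, b, h, rfl⟩

theorem mono_mul_mono (a b a' b' : ℕ) : mono a b * mono a' b' = mono (a + a') (b + b') := by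
  ext z
  simp only [mono, Pi.mul_apply, pow_add]
  ring

theorem mono_mul_mem_Iso (a b : ℕ) {w : ℕ} {g : ℍ → ℂ} (hg : g ∈ Iso w) :
    mono a b * g ∈ Iso (w + (4 * a + 6 * b)) := by
  refine Submodule.span_induction (p := fun g _ => mono a b * g ∈ Iso (w + (4 * a + 6 * b)))
    ?_ ?_ ?_ ?_ hg
  · rintro _ ⟨a', b', h, rfl⟩
    rw [mono_mul_mono]
    exact mono_mem_Iso (by omega)
  · simp
  · intro x y _ _ hx hy
    rw [mul_add]
    exact Submodule.add_mem _ hx hy
  · intro c x _ hx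
    rw [mul_smul_comm]
    exact Submodule.smul_mem _ c hx

theorem discriminant_mul_mem_Iso {w : ℕ} {g : ℍ → ℂ} (hg : g ∈ Iso w) :
    (fun z => ModularForm.discriminant z * g z) ∈ Iso (w + 12) := by
  have h1 : (fun z => ModularForm.discriminant z * g z) =
      (1 / 1728 : ℂ) • (mono 3 0 * g) - (1 / 1728 : ℂ) • (mono 0 2 * g) := by
    ext z
    simp only [Pi.sub_apply, Pi.smul_apply, Pi.mul_apply, mono, smul_eq_mul,
      ModularForm.discriminant_eq_E₄_cube_sub_E₆_sq]
    ring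
  rw [h1]
  refine Submodule.sub_mem _ (Submodule.smul_mem _ _ ?_) (Submodule.smul_mem _ _ ?_)
  · exact mono_mul_mem_Iso 3 0 hg
  · exact mono_mul_mem_Iso 0 2 hg

theorem exists_mono_weight {w : ℕ} (hw : 4 ≤ w) (hev : Even w) :
    ∃ a b : ℕ, 4 * a + 6 * b = w := by
  obtain ⟨m, hm⟩ := hev
  rcases Nat.even_or_odd' m with ⟨j, hj | hj⟩
  · exact ⟨j, 0, by omega⟩
  · exact ⟨j - 1, 1, by omega⟩

/-- every level one form is an isobaric polynomial in `E₄`, `E₆` (span form) -/
theorem mem_Iso (w : ℕ) : ∀ f : ModularForm 𝒮ℒ (w : ℤ), ⇑f ∈ Iso w := by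
  induction w using Nat.strong_induction_on with
  | _ w ih =>
    intro f
    by_cases hodd : Odd w
    · have hf : f = 0 := ModularForm.levelOne_odd_weight_eq_zero (by exact_mod_cast hodd) f
      rw [hf]
      exact Submodule.zero_mem _
    have hev : Even w := Nat.not_odd_iff_even.mp hodd
    by_cases hw0 : w = 0
    · subst hw0
      obtain ⟨c, hc⟩ := ModularFormClass.levelOne_weight_zero_const (F := ModularForm 𝒮ℒ 0) f
      have h1 : (⇑f : ℍ → ℂ) = c • mono 0 0 := by
        rw [hc]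
        ext z
        simp [mono]
      rw [h1]
      exact Submodule.smul_mem _ _ (mono_mem_Iso (by norm_num))
    by_cases hw4 : w < 4
    · have hw2 : w = 2 := by
        obtain ⟨m, hm⟩ := hev
        omega
      subst hw2
      have hf : f = 0 := by
        have := ModularForm.levelOne_weight_two_rank_zero
        exact (rank_zero_iff_forall_zero.mp this) f
      rw [hf]
      exact Submodule.zero_mem _
    have hw4' : 4 ≤ w := by omega
    obtain ⟨a, b, hab⟩ := exists_mono_weight hw4' hev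
    -- the monomial form of weight w
    let G : ModularForm 𝒮ℒ (w : ℤ) := ModularForm.mcast (by rw [hab]) (monoForm a b)
    have hG0 : (qExpansion 1 G).coeff 0 = 1 := by
      show (qExpansion 1 (ModularForm.mcast _ (monoForm a b))).coeff 0 = 1
      rw [ModularForm.qExpansion_mcast]
      exact monoForm_coeff_zero a b
    have hGcoe : (⇑G : ℍ → ℂ) = mono a b := by
      show ⇑(ModularForm.mcast _ (monoForm a b)) = _
      rw [ModularForm.coe_mcast, coe_monoForm]
    set c₀ := (qExpansion 1 f).coeff 0 with hc₀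
    obtain ⟨g, hg⟩ := ModularForm.sub_smul_isCuspForm f G hG0
    -- g : CuspForm with toModularForm = f - c₀ • G
    have hgfun : ∀ z, g z = f z - c₀ * mono a b z := by
      intro z
      have := congrArg (fun F : ModularForm 𝒮ℒ (w : ℤ) => F z) hg
      rw [← hGcoe]
      exact this
    have hfdecomp : (⇑f : ℍ → ℂ) = c₀ • mono a b + ⇑g := by
      ext z
      simp only [Pi.add_apply, Pi.smul_apply, smul_eq_mul, hgfun z]
      ring
    rw [hfdecomp]
    refine Submodule.add_mem _ (Submodule.smul_mem _ _ (mono_mem_Iso hab)) ?_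
    by_cases hw12 : w < 12
    · have hg0 : g = 0 := by
        have := CuspForm.rank_eq_zero_of_weight_lt_twelve (k := (w : ℤ)) (by exact_mod_cast hw12)
        exact (rank_zero_iff_forall_zero.mp this) g
      rw [hg0]
      exact Submodule.zero_mem _
    · have hw12' : 12 ≤ w := by omega
      let h0 : ModularForm 𝒮ℒ ((w : ℤ) - 12) := CuspForm.discriminantEquiv g
      let h1 : ModularForm 𝒮ℒ ((w - 12 : ℕ) : ℤ) :=
        ModularForm.mcast (by push_cast [Nat.cast_sub hw12']; ring) h0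
      have hIH := ih (w - 12) (by omega) h1
      have hmul := discriminant_mul_mem_Iso hIH
      have hw' : w - 12 + 12 = w := by omega
      rw [hw'] at hmul
      have hgeq : (⇑g : ℍ → ℂ) = fun z => ModularForm.discriminant z * h1 z := by
        ext z
        show g z = ModularForm.discriminant z * (CuspForm.discriminantEquiv g) z
        rw [ModularForm.discriminant_mul_discriminantEquiv_apply]
      rw [hgeq]
      exact hmul

/-- explicit coefficient form of membership in `Iso w` -/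
theorem exists_coeff_of_mem_Iso {w : ℕ} {g : ℍ → ℂ} (hg : g ∈ Iso w) :
    ∃ c : ℕ → ℕ → ℂ, ∀ z : ℍ, g z = ∑ a ∈ Finset.range (w + 1), ∑ b ∈ Finset.range (w + 1),
      if 4 * a + 6 * b = w then c a b * E₄ z ^ a * E₆ z ^ b else 0 := by
  refine Submodule.span_induction (p := fun g _ => ∃ c : ℕ → ℕ → ℂ, ∀ z : ℍ,
    g z = ∑ a ∈ Finset.range (w + 1), ∑ b ∈ Finset.range (w + 1),
      if 4 * a + 6 * b = w then c a b * E₄ z ^ a * E₆ z ^ b else 0) ?_ ?_ ?_ ?_ hg
  · rintro _ ⟨a₀, b₀, h, rfl⟩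
    refine ⟨fun a b => if a = a₀ ∧ b = b₀ then 1 else 0, fun z => ?_⟩
    have ha₀ : a₀ ∈ Finset.range (w + 1) := Finset.mem_range.mpr (by omega)
    have hb₀ : b₀ ∈ Finset.range (w + 1) := Finset.mem_range.mpr (by omega)
    rw [Finset.sum_eq_single a₀, Finset.sum_eq_single b₀]
    · simp [h, mono]
    · intro b _ hb
      simp [hb]
    · intro hb; exact absurd hb₀ hb
    · intro a _ ha
      refine Finset.sum_eq_zero fun b _ => ?_
      simp [ha]
    · intro ha; exact absurd ha₀ ha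
  · exact ⟨fun _ _ => 0, fun z => by simp⟩
  · rintro x y _ _ ⟨c, hc⟩ ⟨c', hc'⟩
    refine ⟨fun a b => c a b + c' a b, fun z => ?_⟩
    rw [Pi.add_apply, hc z, hc' z, ← Finset.sum_add_distrib]
    refine Finset.sum_congr rfl fun a _ => ?_
    rw [← Finset.sum_add_distrib]
    refine Finset.sum_congr rfl fun b _ => ?_
    split_ifs <;> ring
  · rintro t x _ ⟨c, hc⟩
    refine ⟨fun a b => t * c a b, fun z => ?_⟩
    rw [Pi.smul_apply, hc z, smul_eq_mul, Finset.mul_sum]
    refine Finset.sum_congr rfl fun a _ => ?_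
    rw [Finset.mul_sum]
    refine Finset.sum_congr rfl fun b _ => ?_
    split_ifs <;> ring

theorem B1 (w : ℕ) (f : ModularForm 𝒮ℒ w) : ∃ c : ℕ → ℕ → ℂ, ∀ z : ℍ,
    f z = ∑ a ∈ Finset.range (w + 1), ∑ b ∈ Finset.range (w + 1),
      if 4 * a + 6 * b = w then c a b * E₄ z ^ a * E₆ z ^ b else 0 :=
  exists_coeff_of_mem_Iso (mem_Iso w f)

/-- functions of level one forms of weight `w : ℤ`, `0 ≤ w`, lie in `Iso w.toNat` -/
theorem mem_Iso_of_isMF1 {w : ℤ} (hw : 0 ≤ w) {f : ℍ → ℂ} (hf : IsMF1 w f) :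
    f ∈ Iso w.toNat := by
  obtain ⟨F, rfl⟩ := hf
  have h : w = ((w.toNat : ℕ) : ℤ) := (Int.toNat_of_nonneg hw).symm
  have := mem_Iso w.toNat (ModularForm.mcast h F)
  rwa [ModularForm.coe_mcast] at this

theorem B1a {w : ℤ} {f : ℍ → ℂ} (hf : IsMF1 w f) (z₀ z₁ : ℍ) (t : ℂ)
    (h4 : E₄ z₁ = t ^ 4 * E₄ z₀) (h6 : E₆ z₁ = t ^ 6 * E₆ z₀) :
    f z₁ = t ^ w.toNat * f z₀ := by
  rcases lt_or_ge w 0 with hw | hw
  · obtain ⟨F, rfl⟩ := hf
    have h0 : (⇑F : ℍ → ℂ) = 0 := ModularFormClass.levelOne_neg_weight_eq_zero hw F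
    simp [h0]
  · have hmem := mem_Iso_of_isMF1 hw hf
    refine Submodule.span_induction
      (p := fun g _ => g z₁ = t ^ w.toNat * g z₀) ?_ ?_ ?_ ?_ hmem
    · rintro _ ⟨a, b, h, rfl⟩
      simp only [mono, h4, h6]
      rw [← h]
      ring
    · simp
    · intro x y _ _ hx hy
      rw [Pi.add_apply, Pi.add_apply, hx, hy]
      ring
    · intro c x _ hx
      rw [Pi.smul_apply, Pi.smul_apply, hx, smul_eq_mul, smul_eq_mul]
      ring

theorem isMF1_zero (k : ℤ) : IsMF1 k 0 := ⟨0, rfl⟩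

theorem isMF1_add {k : ℤ} {f g : ℍ → ℂ} (hf : IsMF1 k f) (hg : IsMF1 k g) :
    IsMF1 k (f + g) := by
  obtain ⟨F, rfl⟩ := hf
  obtain ⟨G, rfl⟩ := hg
  exact ⟨F + G, rfl⟩

theorem isMF1_smul {k : ℤ} (c : ℂ) {f : ℍ → ℂ} (hf : IsMF1 k f) : IsMF1 k (c • f) := by
  obtain ⟨F, rfl⟩ := hf
  exact ⟨c • F, rfl⟩

theorem B1b {w : ℤ} (hw : 4 ≤ w) {f : ℍ → ℂ} (hf : IsMF1 w f) :
    ∃ a b : ℍ → ℂ, IsMF1 (w - 4) a ∧ IsMF1 (w - 6) b ∧ f = ⇑E₄ * a + ⇑E₆ * b := by
  have hw0 : 0 ≤ w := by omega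
  have hmem := mem_Iso_of_isMF1 hw0 hf
  have hwn : ((w.toNat : ℕ) : ℤ) = w := Int.toNat_of_nonneg hw0
  refine Submodule.span_induction
    (p := fun g _ => ∃ a b : ℍ → ℂ, IsMF1 (w - 4) a ∧ IsMF1 (w - 6) b ∧
      g = ⇑E₄ * a + ⇑E₆ * b) ?_ ?_ ?_ ?_ hmem
  · rintro _ ⟨a₀, b₀, h, rfl⟩
    rcases Nat.eq_zero_or_pos a₀ with ha | ha
    · -- then b₀ ≥ 1
      have hb : 1 ≤ b₀ := by
        rcases Nat.eq_zero_or_pos b₀ with hb | hb
        · subst ha hb
          omega
        · exact hb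
      refine ⟨0, mono a₀ (b₀ - 1), isMF1_zero _, ?_, ?_⟩
      · refine isMF1_congr ?_ (isMF1_mono a₀ (b₀ - 1))
        rw [← hwn, ← h]
        push_cast [Nat.cast_sub hb]
        ring
      · ext z
        simp only [mono, Pi.add_apply, Pi.mul_apply, Pi.zero_apply, mul_zero, zero_add]
        have : b₀ = (b₀ - 1) + 1 := by omega
        conv_lhs => rw [this, pow_succ]
        ring
    · refine ⟨mono (a₀ - 1) b₀, 0, ?_, isMF1_zero _, ?_⟩
      · refine isMF1_congr ?_ (isMF1_mono (a₀ - 1) b₀)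
        rw [← hwn, ← h]
        have ha1 : 1 ≤ a₀ := ha
        push_cast [Nat.cast_sub ha1]
        ring
      · ext z
        simp only [mono, Pi.add_apply, Pi.mul_apply, Pi.zero_apply, mul_zero, add_zero]
        have : a₀ = (a₀ - 1) + 1 := by omega
        conv_lhs => rw [this, pow_succ]
        ring
  · exact ⟨0, 0, isMF1_zero _, isMF1_zero _, by simp⟩
  · rintro x y _ _ ⟨a, b, ha, hb, rfl⟩ ⟨a', b', ha', hb', rfl⟩
    exact ⟨a + a', b + b', isMF1_add ha ha', isMF1_add hb hb', by ring⟩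
  · rintro c x _ ⟨a, b, ha, hb, rfl⟩
    refine ⟨c • a, c • b, isMF1_smul c ha, isMF1_smul c hb, ?_⟩
    rw [smul_add, mul_smul_comm, mul_smul_comm]

end Fermat.Agent.S20_helper8_B1
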