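import Mathlib
import Fermat.Agent.S24_Defs
import Fermat.Agent.S20_Basic
import Fermat.Agent.S20_helper8_B1

set_option autoImplicit false

open UpperHalfPlane ModularForm CongruenceSubgroup AlgebraicCurve IntermediateField
open scoped MatrixGroups ModularForm Manifold
open Fermat.Agent.S20 Fermat.Agent.S24

namespace Fermat.Agent.S24_helper8_INVa

open Fermat.Agent.S20_helper8_B1

/-- `E₆² = Δ (j - 1728)`. -/
theorem E₆_sq_eq (z : ℍ) :
    E₆ z ^ 2 = ModularForm.discriminant z * (jfun z - 1728) := by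
  have hΔ := ModularForm.discriminant_ne_zero z
  have h := ModularForm.discriminant_eq_E₄_cube_sub_E₆_sq z
  unfold jfun
  field_simp
  rw [h]
  ring

/-- `E₄³ = Δ j`. -/
theorem E₄_cube_eq (z : ℍ) : E₄ z ^ 3 = ModularForm.discriminant z * jfun z := by
  have hΔ := ModularForm.discriminant_ne_zero z
  unfold jfun
  field_simp

/-- An isobaric monomial of weight `12 M` is `Δ^M` times a polynomial in `j`. -/
theorem mono_eq {a b M : ℕ} (h : 4 * a + 6 * b = 12 * M) :
    ∃ p : Polynomial ℂ, ∀ z, mono a b z = ModularForm.discriminant z ^ M * p.eval (jfun z) := by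
  obtain ⟨a', rfl⟩ : 3 ∣ a := by omega
  obtain ⟨b', rfl⟩ : 2 ∣ b := by omega
  have hM : M = a' + b' := by omega
  subst hM
  refine ⟨Polynomial.X ^ a' * (Polynomial.X - Polynomial.C 1728) ^ b', fun z => ?_⟩
  simp only [mono, Polynomial.eval_mul, Polynomial.eval_pow, Polynomial.eval_X,
    Polynomial.eval_sub, Polynomial.eval_C]
  rw [pow_mul, pow_mul, E₄_cube_eq, E₆_sq_eq, mul_pow, mul_pow, pow_add]
  ring

/-- Every element of `Iso (12 M)` is `Δ^M` times a polynomial in `j`. -/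
theorem exists_poly_of_mem_Iso {M : ℕ} {H : ℍ → ℂ} (hH : H ∈ Iso (12 * M)) :
    ∃ p : Polynomial ℂ, ∀ z, H z = ModularForm.discriminant z ^ M * p.eval (jfun z) := by
  refine Submodule.span_induction
    (p := fun H _ => ∃ p : Polynomial ℂ, ∀ z,
      H z = ModularForm.discriminant z ^ M * p.eval (jfun z)) ?_ ?_ ?_ ?_ hH
  · rintro _ ⟨a, b, h, rfl⟩
    exact mono_eq h
  · exact ⟨0, fun z => by simp⟩
  · rintro x y _ _ ⟨p, hp⟩ ⟨q, hq⟩
    refine ⟨p + q, fun z => ?_⟩
    rw [Pi.add_apply, hp, hq, Polynomial.eval_add]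
    ring
  · rintro c x _ ⟨p, hp⟩
    refine ⟨Polynomial.C c * p, fun z => ?_⟩
    rw [Pi.smul_apply, hp, Polynomial.eval_mul, Polynomial.eval_C, smul_eq_mul]
    ring

theorem AN9a (g : ℍ → ℂ) (hg : MDifferentiable 𝓘(ℂ) 𝓘(ℂ) g)
    (hinv : ∀ (γ : SL(2, ℤ)) (z : ℍ), g (γ • z) = g z) (M : ℕ)
    (hb : IsBoundedAtImInfty (fun z => ModularForm.discriminant z ^ M * g z)) :
    ∃ p : Polynomial ℂ, ∀ z, g z = p.eval (jfun z) := by
  have hΔ : IsMF1 ((M : ℤ) * 12) (ModularForm.discriminant ^ M) :=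
    IsMF1.pow isMF1_discriminant M
  have hfun : (fun z => ModularForm.discriminant z ^ M * g z)
      = (ModularForm.discriminant ^ M : ℍ → ℂ) * g := by
    ext z
    simp
  have hH : IsMF1 (((12 * M : ℕ) : ℤ)) (fun z => ModularForm.discriminant z ^ M * g z) := by
    rw [isMF1_iff]
    refine ⟨?_, ?_, hb⟩
    · rw [hfun]
      exact hΔ.holo.mul hg
    · intro γ
      rw [hfun]
      have hk : (((12 * M : ℕ) : ℤ)) = (M : ℤ) * 12 + 0 := by push_cast; ring
      rw [hk, ModularForm.mul_slash_SL2, hΔ.slash_eq γ]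
      congr 1
      ext z
      rw [ModularForm.SL_slash_apply, hinv]
      simp
  have hmem := mem_Iso_of_isMF1 (by positivity) hH
  rw [Int.toNat_natCast] at hmem
  obtain ⟨p, hp⟩ := exists_poly_of_mem_Iso hmem
  refine ⟨p, fun z => ?_⟩
  have h := hp z
  exact mul_left_cancel₀ (pow_ne_zero M (ModularForm.discriminant_ne_zero z)) h

end Fermat.Agent.S24_helper8_INVa
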