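import Mathlib
import Fermat.Prelude.Def_ModularCurve_IgusaScheme
import Fermat.Prelude.Def_ModularCurve_X0ModL
import Fermat.Prelude.Def_ModularCurve_LaurentCoeff

set_option autoImplicit false

noncomputable section

namespace Fermat.Agent.S28_helper14_Defs

open ModularCurve Polynomial

/-- `x` is integral over `ℤ[1/N]`. -/
def IsNInt (N : ℕ) (x : ℂ) : Prop := ∃ e : ℕ, IsIntegral ℤ ((N : ℂ) ^ e * x)

/-- The formal series `X ^ m * U` with integer coefficients, viewed in `A((X))`. -/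
def Vser (A : Type*) [CommRing A] (m : ℕ) (U : PowerSeries ℤ) : LaurentSeries A :=
  HahnSeries.ofPowerSeries ℤ A ((PowerSeries.X ^ m * U).map (Int.castRingHom A))

/-- Formal data of a modular unit of level `N`: an integral power series `V = X^(k₀(ι-1)) U`
which is a root of a monic polynomial of degree `ι` over `ℂ[j]` with `N`-integral coefficients,
unit constant term and controlled degrees, and such that all `j(q^d)`, `d ∣ N`, are
obtained from `j, V` by Lagrange interpolation. -/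
structure UnitData (N : ℕ) [NeZero N] where
  ι : ℕ
  k₀ : ℕ
  hι : 0 < ι
  hk₀ : 0 < k₀
  U : PowerSeries ℤ
  hU : PowerSeries.constantCoeff U = 1
  p : ℕ → Polynomial ℂ
  hp_int : ∀ i n, IsNInt N ((p i).coeff n)
  hp0 : p 0 = 1
  hp_deg : ∀ i, (p i).natDegree ≤ k₀ * i
  u : ℂ
  hu : IsNInt N u
  hu' : IsNInt N u⁻¹
  hu0 : u ≠ 0
  hpι : p ι = Polynomial.C u
  rel : ∑ i ∈ Finset.range (ι + 1),
      Polynomial.aeval (jqModC ℂ) (p i) * (Vser ℂ (k₀ * (ι - 1)) U) ^ (ι - i) = 0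
  int : ∀ d : ℕ, d ∣ N → ∀ [NeZero d], ∃ Q : ℕ → Polynomial ℂ,
      qExpand ℂ d (jqModC ℂ) *
        (∑ i ∈ Finset.range ι, ((ι - i : ℕ) : ℂ) •
          (Polynomial.aeval (jqModC ℂ) (p i) * (Vser ℂ (k₀ * (ι - 1)) U) ^ (ι - 1 - i))) =
      ∑ i ∈ Finset.range ι,
        Polynomial.aeval (jqModC ℂ) (Q i) * (Vser ℂ (k₀ * (ι - 1)) U) ^ i

end Fermat.Agent.S28_helper14_Defs
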