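import Fermat.Agent.S20_Basic
import Fermat.Agent.S28_helper14_Defs

set_option autoImplicit false

noncomputable section

namespace Fermat.Agent.S28_helper14_ADefs

open UpperHalfPlane ModularForm CongruenceSubgroup Matrix.SpecialLinearGroup
open scoped MatrixGroups ModularForm Manifold
open Fermat.Agent.S20 Fermat.Agent.S28_helper14_Defs

/-- The function `z ↦ f ((a z + b) / d)` on the upper half plane. -/
def tri (a d : ℕ) (b : ℤ) (f : ℍ → ℂ) : ℍ → ℂ :=
  fun z => f (ofComplex (((a : ℂ) * (z : ℂ) + (b : ℂ)) / (d : ℂ)))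

/-- Holomorphic, `h`-periodic and bounded at infinity. -/
structure Nice (h : ℝ) (f : ℍ → ℂ) : Prop where
  per : Function.Periodic (f ∘ ofComplex) h
  holo : MDifferentiable 𝓘(ℂ) 𝓘(ℂ) f
  bdd : IsBoundedAtImInfty f

/-- `Δ / q`. -/
def Dt : ℍ → ℂ := fun z => discriminant z / Function.Periodic.qParam 1 z

/-- `q / Δ`. -/
def DtInv : ℍ → ℂ := fun z => (Dt z)⁻¹

/-- The radical of `N`. -/
def rad (N : ℕ) : ℕ := ∏ p ∈ N.primeFactors, p

/-- The exponent of `Δ(N/s · z)` in the modular unit. -/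
def uexp (N s : ℕ) : ℤ := ArithmeticFunction.moebius s * ((rad N / s : ℕ) : ℤ)

/-- `φ(rad N)`; the weight of `GN N` is `12 * k0 N`. -/
def k0 (N : ℕ) : ℕ := (rad N).totient

/-- The holomorphic eta quotient `G_N = ∏_{s ∣ rad N} Δ(N/s · z) ^ (μ(s) · rad N / s)`. -/
def GN (N : ℕ) : ℍ → ℂ :=
  fun z => ∏ s ∈ (rad N).divisors, (tri (N / s) 1 0 discriminant z) ^ (uexp N s)

/-- The order of `G_N` at infinity. -/
def ordG (N : ℕ) : ℤ := ∑ s ∈ (rad N).divisors, uexp N s * ((N / s : ℕ) : ℤ)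

/-- `E₄(dz)³ Δ(z)^N / Δ(dz)`, a modular form of weight `12 N` on `Γ₀(N)` for `d ∣ N`, whose
quotient by `Δ^N` is `j(dz)`. -/
def Hd (N d : ℕ) : ℍ → ℂ :=
  fun z => (tri d 1 0 (⇑E₄) z) ^ 3 * discriminant z ^ N / tri d 1 0 discriminant z

/-- A power series all of whose coefficients are integral over `ℤ[1/N]`. -/
def IsNIntSeries (N : ℕ) (P : PowerSeries ℂ) : Prop := ∀ m, IsNInt N (P.coeff m)

/-- The `i`-th elementary symmetric function of the conjugates of `f`. -/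
def Esym (N : ℕ) [NeZero N] (k : ℤ) (f : ℍ → ℂ) (i : ℕ) : ℍ → ℂ :=
  ∑ T ∈ (Finset.univ : Finset (Q N)).powersetCard i, ∏ q ∈ T, cj N k f q

/-- The traces `∑_q h_q g_q ^ m`. -/
def Tr (N : ℕ) [NeZero N] (kH kG : ℤ) (H G : ℍ → ℂ) (m : ℕ) : ℍ → ℂ :=
  ∑ q : Q N, cj N kH H q * (cj N kG G q) ^ m

/-- The `q`-expansion of `Δ` as a Laurent series. -/
def DeltaL : LaurentSeries ℂ :=
  HahnSeries.ofPowerSeries ℤ ℂ (qExpansion 1 discriminant)

end Fermat.Agent.S28_helper14_ADefs
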