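import Fermat.Agent.S28_helper14_ADefs
import Fermat.Agent.S28_helper11_DT
import Fermat.Agent.S28_helper21_HERMITE
import Fermat.Agent.S28_helper26_QDELTA
import Fermat.Agent.S28_helper20_QE4
import Fermat.Agent.S28_helper24_SUBST
import Fermat.Prelude.Thm_CongruenceSubgroup_one_mem_strictPeriods_Gamma0

set_option autoImplicit false

open UpperHalfPlane ModularForm CongruenceSubgroup Matrix.SpecialLinearGroup
open scoped MatrixGroups ModularForm Manifold Real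
open Fermat.Agent.S20 Fermat.Agent.S28_helper14_Defs Fermat.Agent.S28_helper14_ADefs ModularCurve

namespace Fermat.Agent.S28_HD


/-- Level-one forms are nice. -/
lemma nice_of_isMF1 {k : ℤ} {f : ℍ → ℂ} (hf : IsMF1 k f) : Nice 1 f := by
  obtain ⟨F, rfl⟩ := hf
  exact ⟨SlashInvariantFormClass.periodic_comp_ofComplex F one_mem_strictPeriods_SL,
    ModularFormClass.holo F, ModularFormClass.bdd_at_infty F⟩

/-- Forms on `Γ₀(N)` are nice. -/
lemma nice_of_isMF {N : ℕ} [NeZero N] {k : ℤ} {f : ℍ → ℂ} (hf : IsMF N k f) : Nice 1 f := by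
  have hb := hf.bdd 1
  rw [SlashAction.slash_one] at hb
  obtain ⟨F, rfl⟩ := hf
  exact ⟨SlashInvariantFormClass.periodic_comp_ofComplex F
    (CongruenceSubgroup.one_mem_strictPeriods_Gamma0 N), ModularFormClass.holo F, hb⟩

lemma nice_analyticAt {f : ℍ → ℂ} (hf : Nice 1 f) : AnalyticAt ℂ (cuspFunction 1 f) 0 :=
  analyticAt_cuspFunction_zero one_pos hf.per hf.holo hf.bdd

lemma nice_E4 : Nice 1 (⇑E₄) := nice_of_isMF1 isMF1_E₄

lemma nice_disc : Nice 1 discriminant := nice_of_isMF1 isMF1_discriminant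

lemma qExpansion_pow {f : ℍ → ℂ} (hf : Nice 1 f) (n : ℕ) :
    Nice 1 (f ^ n) ∧ qExpansion 1 (f ^ n) = (qExpansion 1 f) ^ n := by
  induction n with
  | zero =>
    refine ⟨?_, by simpa using qExpansion_one 1⟩
    simpa using nice_of_isMF1 IsMF1.one
  | succ n ih =>
    rw [pow_succ, pow_succ]
    refine ⟨⟨?_, ih.1.holo.mul hf.holo, ih.1.bdd.mul hf.bdd⟩, ?_⟩
    · intro w
      have h1 := ih.1.per w
      have h2 := hf.per w
      simp only [Function.comp_apply, Pi.mul_apply] at h1 h2 ⊢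
      rw [h1, h2]
    · rw [qExpansion_mul (nice_analyticAt ih.1) (nice_analyticAt hf), ih.2]



lemma nice_tri_d {f : ℍ → ℂ} (hf : Nice 1 f) {d : ℕ} (hd : 0 < d) : Nice 1 (tri d 1 0 f) := by
  have := Fermat.Agent.S28_SUBST.nice_tri hf hd one_pos one_pos (dvd_refl 1) 0
  simpa using this

lemma qExpansion_tri_d_coeff {f : ℍ → ℂ} (hf : Nice 1 f) {d : ℕ} (hd : 0 < d) (m : ℕ) :
    (qExpansion 1 (tri d 1 0 f)).coeff m =
      if d ∣ m then (qExpansion 1 f).coeff (m / d) else 0 := by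
  have := Fermat.Agent.S28_SUBST.qExpansion_tri_coeff hf hd one_pos one_pos (dvd_refl 1) 0 m
  simpa using this

lemma qExpansion_tri_d {f : ℍ → ℂ} (hf : Nice 1 f) (d : ℕ) [NeZero d] :
    HahnSeries.ofPowerSeries ℤ ℂ (qExpansion 1 (tri d 1 0 f)) =
      qExpand ℂ d (HahnSeries.ofPowerSeries ℤ ℂ (qExpansion 1 f)) := by
  have hd : 0 < d := Nat.pos_of_ne_zero (NeZero.ne d)
  ext k
  rcases lt_or_ge k 0 with hk | hk
  · rw [ofPowerSeries_coeff_of_neg _ hk]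
    by_cases hdk : (d : ℤ) ∣ k
    · obtain ⟨m, rfl⟩ := hdk
      rw [qExpand_coeff_mul, ofPowerSeries_coeff_of_neg]
      by_contra hm
      have hm' : 0 ≤ m := not_lt.1 hm
      have : 0 ≤ (d : ℤ) * m := mul_nonneg (by positivity) hm'
      omega
    · rw [qExpand_coeff_of_not_dvd _ _ hdk]
  · lift k to ℕ using hk
    rw [HahnSeries.ofPowerSeries_apply_coeff, qExpansion_tri_d_coeff hf hd]
    by_cases hdk : d ∣ k
    · rw [if_pos hdk]
      obtain ⟨m, rfl⟩ := hdk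
      rw [Nat.mul_div_cancel_left _ hd]
      push_cast
      rw [qExpand_coeff_mul, HahnSeries.ofPowerSeries_apply_coeff]
    · rw [if_neg hdk, qExpand_coeff_of_not_dvd]
      exact_mod_cast hdk

lemma jq_mul_DeltaL :
    jqModC ℂ * DeltaL = (HahnSeries.ofPowerSeries ℤ ℂ (qExpansion 1 (⇑E₄))) ^ 3 := by
  unfold jqModC DeltaL
  rw [Fermat.Agent.S28_QDELTA.qExpansion_discriminant, Fermat.Agent.S28_QE4.qExpansion_E4]
  have h1 : jNum.map (Int.castRingHom ℂ) =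
      (eisenstein4.map (Int.castRingHom ℂ)) ^ 3 * dedekindEtaUnitInv.map (Int.castRingHom ℂ) := by
    rw [jNum, map_mul, map_pow]
  have h2 : dedekindEtaUnitInv.map (Int.castRingHom ℂ) * dedekindEtaUnit.map (Int.castRingHom ℂ)
      = 1 := by
    rw [← map_mul, mul_comm, dedekindEtaUnit_mul_inv, map_one]
  have h3 : (HahnSeries.single (-1 : ℤ) (1 : ℂ)) * HahnSeries.single (1 : ℤ) (1 : ℂ) = 1 := by
    rw [HahnSeries.single_mul_single]
    simp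
  rw [h1, map_mul (PowerSeries.map (Int.castRingHom ℂ)), PowerSeries.map_X, map_mul, map_mul,
    map_pow, HahnSeries.ofPowerSeries_X]
  calc HahnSeries.single (-1 : ℤ) (1 : ℂ) *
        ((HahnSeries.ofPowerSeries ℤ ℂ) (PowerSeries.map (Int.castRingHom ℂ) eisenstein4) ^ 3 *
          (HahnSeries.ofPowerSeries ℤ ℂ) (PowerSeries.map (Int.castRingHom ℂ) dedekindEtaUnitInv)) *
      (HahnSeries.single 1 1 *
        (HahnSeries.ofPowerSeries ℤ ℂ) (PowerSeries.map (Int.castRingHom ℂ) dedekindEtaUnit))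
      = (HahnSeries.single (-1 : ℤ) (1 : ℂ) * HahnSeries.single 1 1) *
        (HahnSeries.ofPowerSeries ℤ ℂ) (PowerSeries.map (Int.castRingHom ℂ) eisenstein4) ^ 3 *
        ((HahnSeries.ofPowerSeries ℤ ℂ) (PowerSeries.map (Int.castRingHom ℂ) dedekindEtaUnitInv) *
        (HahnSeries.ofPowerSeries ℤ ℂ) (PowerSeries.map (Int.castRingHom ℂ) dedekindEtaUnit)) := by
        ring
    _ = _ := by rw [h3, ← map_mul, h2, map_one, one_mul, mul_one]



lemma im_tri_arg {a d : ℕ} (b : ℤ) (_ha : 0 < a) (_hd : 0 < d) (z : ℍ) :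
    (((a : ℂ) * (z : ℂ) + (b : ℂ)) / (d : ℂ)).im = a * z.im / d := by
  have : ((a : ℂ) * (z : ℂ) + (b : ℂ)) / (d : ℂ) =
      (((a : ℝ) * (z : ℂ).re + b) / d : ℝ) + ((a * (z : ℂ).im / d : ℝ) : ℂ) * Complex.I := by
    apply Complex.ext <;> simp [Complex.div_re, Complex.div_im, Complex.normSq]
  rw [this]
  simp

lemma coe_ofComplex_tri {a d : ℕ} (b : ℤ) (ha : 0 < a) (hd : 0 < d) (z : ℍ) :
    ((ofComplex (((a : ℂ) * (z : ℂ) + (b : ℂ)) / (d : ℂ)) : ℍ) : ℂ) =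
      ((a : ℂ) * (z : ℂ) + (b : ℂ)) / (d : ℂ) := by
  have h : 0 < (((a : ℂ) * (z : ℂ) + (b : ℂ)) / (d : ℂ)).im := by
    rw [im_tri_arg b ha hd]
    have := z.im_pos
    positivity
  rw [ofComplex_apply_of_im_pos h]

lemma discriminant_ne_zero' (z : ℍ) : discriminant z ≠ 0 := by
  rw [Fermat.Agent.S28_DT.discriminant_eq_q_mul_Dt]
  exact mul_ne_zero (Function.Periodic.qParam_ne_zero _) (Fermat.Agent.S28_DT.Dt_ne_zero z)

lemma tri_disc_ne_zero (a d : ℕ) (b : ℤ) (z : ℍ) : tri a d b discriminant z ≠ 0 :=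
  discriminant_ne_zero' _

/-- Holomorphy of `Hd`. -/
lemma holo_Hd (N d : ℕ) (hd : 0 < d) : MDifferentiable 𝓘(ℂ) 𝓘(ℂ) (Hd N d) := by
  have h1 := (nice_tri_d nice_E4 hd).holo
  have h2 := nice_disc.holo
  have h3 := (nice_tri_d nice_disc hd).holo
  rw [UpperHalfPlane.mdifferentiable_iff] at h1 h2 h3 ⊢
  have : (Hd N d ∘ ofComplex) = fun w => ((tri d 1 0 (⇑E₄) ∘ ofComplex) w) ^ 3 *
      ((discriminant ∘ ofComplex) w) ^ N / ((tri d 1 0 discriminant ∘ ofComplex) w) := by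
    funext w; rfl
  rw [this]
  exact ((h1.pow 3).mul (h2.pow N)).div h3 fun w _ => tri_disc_ne_zero _ _ _ _

/-- Slash of `Hd` in terms of the slashes of its factors. -/
lemma slash_Hd (N d : ℕ) (γ : SL(2, ℤ)) (z : ℍ) :
    (Hd N d ∣[(12 * (N : ℤ))] γ) z =
      ((tri d 1 0 (⇑E₄) ∣[(4 : ℤ)] γ) z) ^ 3 * ((discriminant ∣[(12 : ℤ)] γ) z) ^ N /
        ((tri d 1 0 discriminant ∣[(12 : ℤ)] γ) z) := by
  simp only [ModularForm.SL_slash_apply, Hd]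
  have hδ : denom γ z ≠ 0 := denom_ne_zero _ z
  have h1 : (denom γ z) ^ (-(12 * (N : ℤ))) = ((denom γ z) ^ (12 * N))⁻¹ := by
    rw [zpow_neg]; norm_cast
  have h2 : (denom γ z) ^ (-(4 : ℤ)) = ((denom γ z) ^ 4)⁻¹ := by
    rw [zpow_neg]; norm_cast
  have h3 : (denom γ z) ^ (-(12 : ℤ)) = ((denom γ z) ^ 12)⁻¹ := by
    rw [zpow_neg]; norm_cast
  rw [h1, h2, h3]
  have hne := tri_disc_ne_zero d 1 0 (γ • z)
  simp only [← inv_pow]
  have hδ' : (denom γ z)⁻¹ ≠ 0 := inv_ne_zero hδ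
  generalize (denom γ z)⁻¹ = t at hδ'
  generalize tri d 1 0 discriminant (γ • z) = C at hne
  rw [pow_mul]
  field_simp
  rw [mul_pow]
  ring



/-- `f(dz)` is invariant under `Γ₀(N)` for `d ∣ N`. -/
lemma tri_slash_Gamma0 {k : ℤ} {f : ℍ → ℂ} (hf : IsMF1 k f) {N d : ℕ} [NeZero N] (hd : d ∣ N)
    {γ : SL(2, ℤ)} (hγ : γ ∈ Gamma0 N) : (tri d 1 0 f) ∣[k] γ = tri d 1 0 f := by
  have hd0 : 0 < d := Nat.pos_of_dvd_of_pos hd (NeZero.pos N)
  obtain ⟨a, d', b, ha, hd', had, hgcd, hsl⟩ :=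
    Fermat.Agent.S28_HERMITE.slash_tri_eq (fun γ => hf.slash_eq γ) d hd0 γ
  have hN : (N : ℤ) ∣ γ 1 0 := by
    rw [Gamma0_mem] at hγ
    exact (ZMod.intCast_zmod_eq_zero_iff_dvd _ _).1 hγ
  have hdγ : (d : ℤ) ∣ γ 1 0 := (Int.natCast_dvd_natCast.2 hd).trans hN
  have hgd : Int.gcd (d : ℤ) (γ 1 0) = d := by
    apply Nat.dvd_antisymm
    · exact Int.natCast_dvd_natCast.1 (Int.gcd_dvd_left _ _)
    · exact Int.natCast_dvd_natCast.1 (Int.dvd_coe_gcd dvd_rfl hdγ)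
  have hadd : a = d := by rw [hgcd, hgd]
  subst hadd
  have hd1 : d' = 1 := by
    have : a * d' = a * 1 := by rw [had, mul_one]
    exact Nat.eq_of_mul_eq_mul_left ha this
  subst hd1
  rw [hsl]
  funext z
  have hper := (nice_of_isMF1 hf).per
  have h1 := (hper.int_mul b) (((a : ℂ) * (z : ℂ) + ((0 : ℤ) : ℂ)) / ((1 : ℕ) : ℂ))
  simp only [Function.comp_apply] at h1
  simp only [tri]
  rw [← h1]
  simp


lemma nice_pow {f : ℍ → ℂ} (hf : Nice 1 f) (n : ℕ) : Nice 1 (f ^ n) := (qExpansion_pow hf n).1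

/-- The factor `q(z)^N / q(w)` is bounded by `1`. -/
lemma norm_qratio_le {N a d : ℕ} (b : ℤ) (ha : 0 < a) (hd : 0 < d) (haN : a ≤ N) (z : ℍ) :
    ‖Function.Periodic.qParam 1 (z : ℂ) ^ N /
      Function.Periodic.qParam 1 (((a : ℂ) * (z : ℂ) + (b : ℂ)) / (d : ℂ))‖ ≤ 1 := by
  rw [norm_div, norm_pow, Function.Periodic.norm_qParam, Function.Periodic.norm_qParam,
    im_tri_arg b ha hd, ← Real.exp_nat_mul, ← Real.exp_sub]
  rw [Real.exp_le_one_iff]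
  have hz := z.im_pos
  have h1 : (a : ℝ) * z.im / d ≤ N * z.im := by
    have hd1 : (1 : ℝ) ≤ d := by exact_mod_cast hd
    have haN' : (a : ℝ) ≤ N := by exact_mod_cast haN
    calc (a : ℝ) * z.im / d ≤ a * z.im := div_le_self (by positivity) hd1
      _ ≤ N * z.im := by gcongr
  have hcoe : (z : ℂ).im = z.im := rfl
  rw [hcoe]
  have hπ := Real.pi_pos
  have : (N : ℝ) * (-2 * π * z.im / 1) - -2 * π * ((a : ℝ) * z.im / d) / 1
      = -2 * π * ((N : ℝ) * z.im - (a : ℝ) * z.im / d) := by ring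
  rw [this]
  have h2 : 0 ≤ (N : ℝ) * z.im - (a : ℝ) * z.im / d := by linarith
  nlinarith [mul_nonneg hπ.le h2]

/-- All `SL(2,ℤ)`-translates of `Hd` are bounded at `i∞`. -/
lemma bdd_slash_Hd (N d : ℕ) [NeZero N] (hd : d ∣ N) (γ : SL(2, ℤ)) :
    IsBoundedAtImInfty (Hd N d ∣[(12 * (N : ℤ))] γ) := by
  have hN0 : 0 < N := NeZero.pos N
  have hd0 : 0 < d := Nat.pos_of_dvd_of_pos hd hN0
  obtain ⟨a₁, d₁, b₁, ha₁, hd₁, had₁, -, h₁⟩ :=
    Fermat.Agent.S28_HERMITE.slash_tri_eq (fun γ => isMF1_E₄.slash_eq γ) d hd0 γ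
  obtain ⟨a₂, d₂, b₂, ha₂, hd₂, had₂, -, h₂⟩ :=
    Fermat.Agent.S28_HERMITE.slash_tri_eq (fun γ => isMF1_discriminant.slash_eq γ) d hd0 γ
  have h₃ : discriminant ∣[(12 : ℤ)] γ = discriminant := isMF1_discriminant.slash_eq γ
  have ha₂N : a₂ ≤ N := by
    have h1 : a₂ ≤ d := by
      rw [← had₂]; exact Nat.le_mul_of_pos_right _ hd₂
    exact h1.trans (Nat.le_of_dvd hN0 hd)
  -- the bounded factors
  have hb1 : IsBoundedAtImInfty (tri a₁ d₁ b₁ (⇑E₄)) :=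
    (Fermat.Agent.S28_SUBST.nice_tri nice_E4 ha₁ hd₁ hd₁ dvd_rfl b₁).bdd
  have hb2 : IsBoundedAtImInfty (Dt ^ N) := (nice_pow Fermat.Agent.S28_DT.nice_Dt N).bdd
  have hb3 : IsBoundedAtImInfty (tri a₂ d₂ b₂ DtInv) :=
    (Fermat.Agent.S28_SUBST.nice_tri Fermat.Agent.S28_DT.nice_DtInv ha₂ hd₂ hd₂ dvd_rfl b₂).bdd
  have hb4 : IsBoundedAtImInfty (fun z : ℍ => Function.Periodic.qParam 1 (z : ℂ) ^ N /
      Function.Periodic.qParam 1 (((a₂ : ℂ) * (z : ℂ) + (b₂ : ℂ)) / (d₂ : ℂ))) := by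
    rw [isBoundedAtImInfty_iff]
    exact ⟨1, 0, fun z _ => norm_qratio_le b₂ ha₂ hd₂ ha₂N z⟩
  have hb5 : IsBoundedAtImInfty (fun _ : ℍ => ((((d₁ : ℂ) ^ (4 : ℤ))⁻¹) ^ 3 * (d₂ : ℂ) ^ (12 : ℤ))) :=
    Filter.const_boundedAtFilter _ _
  have key : (Hd N d ∣[(12 * (N : ℤ))] γ) =
      (fun _ : ℍ => ((((d₁ : ℂ) ^ (4 : ℤ))⁻¹) ^ 3 * (d₂ : ℂ) ^ (12 : ℤ))) *
        ((tri a₁ d₁ b₁ (⇑E₄)) * (tri a₁ d₁ b₁ (⇑E₄)) * (tri a₁ d₁ b₁ (⇑E₄))) *
        (fun z : ℍ => Function.Periodic.qParam 1 (z : ℂ) ^ N /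
          Function.Periodic.qParam 1 (((a₂ : ℂ) * (z : ℂ) + (b₂ : ℂ)) / (d₂ : ℂ))) *
        (Dt ^ N) * (tri a₂ d₂ b₂ DtInv) := by
    funext z
    rw [slash_Hd, h₁, h₂, h₃]
    simp only [Pi.mul_apply, Pi.pow_apply]
    have e1 : tri a₂ d₂ b₂ discriminant z =
        Function.Periodic.qParam 1 (((a₂ : ℂ) * (z : ℂ) + (b₂ : ℂ)) / (d₂ : ℂ)) *
          Dt (ofComplex (((a₂ : ℂ) * (z : ℂ) + (b₂ : ℂ)) / (d₂ : ℂ))) := by
      unfold tri
      rw [Fermat.Agent.S28_DT.discriminant_eq_q_mul_Dt, coe_ofComplex_tri b₂ ha₂ hd₂]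
    have e2 : tri a₂ d₂ b₂ DtInv z =
        (Dt (ofComplex (((a₂ : ℂ) * (z : ℂ) + (b₂ : ℂ)) / (d₂ : ℂ))))⁻¹ := rfl
    rw [e1, e2, Fermat.Agent.S28_DT.discriminant_eq_q_mul_Dt z]
    have n1 : Function.Periodic.qParam 1 (((a₂ : ℂ) * (z : ℂ) + (b₂ : ℂ)) / (d₂ : ℂ)) ≠ 0 :=
      Function.Periodic.qParam_ne_zero _
    have n2 := Fermat.Agent.S28_DT.Dt_ne_zero
      (ofComplex (((a₂ : ℂ) * (z : ℂ) + (b₂ : ℂ)) / (d₂ : ℂ)))
    have n3 : ((d₂ : ℂ) ^ (12 : ℤ)) ≠ 0 := zpow_ne_zero _ (by exact_mod_cast hd₂.ne')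
    have n4 : ((d₁ : ℂ) ^ (4 : ℤ)) ≠ 0 := zpow_ne_zero _ (by exact_mod_cast hd₁.ne')
    generalize Function.Periodic.qParam 1 (((a₂ : ℂ) * (z : ℂ) + (b₂ : ℂ)) / (d₂ : ℂ)) = q₂ at n1
    generalize Dt (ofComplex (((a₂ : ℂ) * (z : ℂ) + (b₂ : ℂ)) / (d₂ : ℂ))) = D₂ at n2
    generalize ((d₂ : ℂ) ^ (12 : ℤ)) = c₂ at n3
    generalize ((d₁ : ℂ) ^ (4 : ℤ)) = c₁ at n4
    field_simp
    ring
  rw [key]
  exact ((((hb5.mul ((hb1.mul hb1).mul hb1)).mul hb4).mul hb2).mul hb3)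

theorem isMF_Hd (N d : ℕ) [NeZero N] (hd : d ∣ N) : IsMF N (12 * (N : ℤ)) (Hd N d) := by
  have hd0 : 0 < d := Nat.pos_of_dvd_of_pos hd (NeZero.pos N)
  refine isMF_iff.mpr ⟨holo_Hd N d hd0, fun γ hγ => ?_, fun γ => bdd_slash_Hd N d hd γ⟩
  funext z
  rw [slash_Hd, tri_slash_Gamma0 isMF1_E₄ hd hγ, tri_slash_Gamma0 isMF1_discriminant hd hγ,
    isMF1_discriminant.slash_eq γ]
  rfl

theorem qExpansion_Hd (N d : ℕ) [NeZero N] [NeZero d] (hd : d ∣ N) :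
    HahnSeries.ofPowerSeries ℤ ℂ (qExpansion 1 (Hd N d)) =
      qExpand ℂ d (jqModC ℂ) * DeltaL ^ N := by
  have hd0 : 0 < d := Nat.pos_of_ne_zero (NeZero.ne d)
  have hH : Nice 1 (Hd N d) := nice_of_isMF (isMF_Hd N d hd)
  have hE := nice_tri_d nice_E4 hd0
  have hΔd := nice_tri_d nice_disc hd0
  -- the functional identity
  have hfun : Hd N d * tri d 1 0 discriminant = (tri d 1 0 (⇑E₄)) ^ 3 * discriminant ^ N := by
    funext z
    simp only [Pi.mul_apply, Pi.pow_apply, Hd]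
    exact div_mul_cancel₀ _ (tri_disc_ne_zero d 1 0 z)
  have hq := congrArg (qExpansion 1) hfun
  rw [qExpansion_mul (nice_analyticAt hH) (nice_analyticAt hΔd),
    qExpansion_mul (nice_analyticAt (nice_pow hE 3)) (nice_analyticAt (nice_pow nice_disc N)),
    (qExpansion_pow hE 3).2, (qExpansion_pow nice_disc N).2] at hq
  have hq' := congrArg (HahnSeries.ofPowerSeries ℤ ℂ) hq
  rw [map_mul, map_mul, map_pow, map_pow, qExpansion_tri_d nice_disc d,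
    qExpansion_tri_d nice_E4 d, ← map_pow, ← jq_mul_DeltaL, map_mul] at hq'
  have hΔL : qExpand ℂ d DeltaL ≠ 0 := by
    intro h0
    have hz : DeltaL = 0 := qExpand_injective d (by rw [h0, map_zero])
    have hdisc : qExpansion 1 discriminant = 0 := by
      apply HahnSeries.ofPowerSeries_injective (Γ := ℤ)
      rw [map_zero]
      exact hz
    have := (qExpansion_eq_zero_iff one_pos nice_disc.per nice_disc.holo nice_disc.bdd).1 hdisc
    exact discriminant_ne_zero' UpperHalfPlane.I (congrFun this _)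
  have hDL : HahnSeries.ofPowerSeries ℤ ℂ (qExpansion 1 discriminant) = DeltaL := rfl
  rw [hDL] at hq'
  apply mul_right_cancel₀ hΔL
  rw [hq']
  ring

end Fermat.Agent.S28_HD
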