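import Fermat.Agent.S28_helper14_ADefs

set_option autoImplicit false

open UpperHalfPlane ModularForm CongruenceSubgroup Matrix.SpecialLinearGroup
open scoped MatrixGroups ModularForm Manifold Real
open Fermat.Agent.S20 Fermat.Agent.S28_helper14_Defs Fermat.Agent.S28_helper14_ADefs ModularCurve

namespace Fermat.Agent.S28_ESYMM

/-- slash of a finite product at the sum of the weights -/
theorem ESYMM_prod_slash {ι : Type*} (T : Finset ι) (k : ℤ) (g : ι → ℍ → ℂ) (γ : SL(2, ℤ))
    (w : ℤ) (hw : w = (T.card : ℤ) * k) :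
    (∏ q ∈ T, g q) ∣[w] γ = ∏ q ∈ T, (g q ∣[k] γ) := by
  classical
  subst hw
  induction T using Finset.induction_on with
  | empty =>
    simp only [Finset.prod_empty, Finset.card_empty, Nat.cast_zero, zero_mul]
    exact ModularForm.is_invariant_one γ
  | insert a T ha ih =>
    rw [Finset.prod_insert ha, Finset.prod_insert ha, Finset.card_insert_of_notMem ha]
    have e : (((T.card + 1 : ℕ) : ℤ)) * k = k + (T.card : ℤ) * k := by push_cast; ring
    rw [e, ModularForm.mul_slash_SL2, ih]

/-- products of bounded functions are bounded -/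
theorem ESYMM_prod_bdd {ι : Type*} (T : Finset ι) (g : ι → ℍ → ℂ)
    (h : ∀ q ∈ T, IsBoundedAtImInfty (g q)) : IsBoundedAtImInfty (∏ q ∈ T, g q) := by
  classical
  induction T using Finset.induction_on with
  | empty =>
    rw [Finset.prod_empty]
    exact Filter.const_boundedAtFilter _ (1 : ℂ)
  | insert a T ha ih =>
    rw [Finset.prod_insert ha]
    exact Filter.BoundedAtFilter.mul (h a (Finset.mem_insert_self a T))
      (ih fun q hq => h q (Finset.mem_insert_of_mem hq))

theorem ESYMM_sum_bdd {ι : Type*} (s : Finset ι) (g : ι → ℍ → ℂ)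
    (h : ∀ q ∈ s, IsBoundedAtImInfty (g q)) : IsBoundedAtImInfty (∑ q ∈ s, g q) := by
  classical
  induction s using Finset.induction_on with
  | empty =>
    rw [Finset.sum_empty]
    exact zero_form_isBoundedAtImInfty
  | insert a T ha ih =>
    rw [Finset.sum_insert ha]
    exact Filter.BoundedAtFilter.add (h a (Finset.mem_insert_self a T))
      (ih fun q hq => h q (Finset.mem_insert_of_mem hq))

theorem ESYMM_prod_holo {ι : Type*} (T : Finset ι) (g : ι → ℍ → ℂ)
    (h : ∀ q ∈ T, MDifferentiable 𝓘(ℂ) 𝓘(ℂ) (g q)) :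
    MDifferentiable 𝓘(ℂ) 𝓘(ℂ) (∏ q ∈ T, g q) := by
  classical
  induction T using Finset.induction_on with
  | empty =>
    rw [Finset.prod_empty]
    exact (mdifferentiable_const : MDifferentiable 𝓘(ℂ) 𝓘(ℂ) (fun _ : ℍ => (1 : ℂ)))
  | insert a T ha ih =>
    rw [Finset.prod_insert ha]
    exact (h a (Finset.mem_insert_self a T)).mul
      (ih fun q hq => h q (Finset.mem_insert_of_mem hq))

theorem isMF1_Esym {N : ℕ} [NeZero N] {k : ℤ} {f : ℍ → ℂ} (hf : IsMF N k f) (i : ℕ) :
    IsMF1 (i * k) (Esym N k f i) := by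
  classical
  refine isMF1_iff.mpr ⟨?_, fun γ => ?_, ?_⟩
  · unfold Esym
    exact MDifferentiable.sum fun T _ => ESYMM_prod_holo T _ fun q _ => cj_holo hf.holo q
  · unfold Esym
    rw [SlashAction.sum_slash]
    have h1 : ∀ T ∈ (Finset.univ : Finset (Q N)).powersetCard i,
        (∏ q ∈ T, cj N k f q) ∣[(i : ℤ) * k] γ = ∏ q ∈ T, cj N k f (γ⁻¹ • q) := by
      intro T hT
      rw [ESYMM_prod_slash T k _ γ _ (by rw [(Finset.mem_powersetCard.mp hT).2])]
      exact Finset.prod_congr rfl fun q _ => cj_slash hf γ q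
    rw [Finset.sum_congr rfl h1]
    -- reindex by the permutation `q ↦ γ⁻¹ • q`
    set σ : Q N ≃ Q N := MulAction.toPerm γ⁻¹ with hσ
    have h2 : (Finset.univ : Finset (Q N)).powersetCard i =
        ((Finset.univ : Finset (Q N)).powersetCard i).map (Finset.mapEmbedding σ.toEmbedding).toEmbedding := by
      rw [← Finset.powersetCard_map, Finset.map_univ_equiv]
    conv_rhs => rw [h2]
    rw [Finset.sum_map]
    refine Finset.sum_congr rfl fun T _ => ?_
    rw [RelEmbedding.coe_toEmbedding, Finset.mapEmbedding_apply, Finset.prod_map]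
    rfl
  · unfold Esym
    exact ESYMM_sum_bdd _ _ fun T _ => ESYMM_prod_bdd T _ fun q _ => cj_bdd hf q

theorem Esym_zero {N : ℕ} [NeZero N] (k : ℤ) (f : ℍ → ℂ) : Esym N k f 0 = 1 := by
  unfold Esym
  rw [Finset.powersetCard_zero, Finset.sum_singleton, Finset.prod_empty]

theorem Esym_card {N : ℕ} [NeZero N] (k : ℤ) (f : ℍ → ℂ) :
    Esym N k f (Fintype.card (Q N)) = ∏ q : Q N, cj N k f q := by
  unfold Esym
  rw [← Finset.card_univ, Finset.powersetCard_self, Finset.sum_singleton]

theorem Esym_rel {N : ℕ} [NeZero N] {k : ℤ} {f : ℍ → ℂ} (hf : IsMF N k f) :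
    ∑ i ∈ Finset.range (Fintype.card (Q N) + 1),
      (-1 : ℂ) ^ i • (Esym N k f i * f ^ (Fintype.card (Q N) - i)) = 0 := by
  classical
  have h := Multiset.prod_X_sub_X_eq_sum_esymm
    ((Finset.univ : Finset (Q N)).val.map (cj N k f))
  have h2 := congrArg (Polynomial.eval f) h
  rw [Multiset.map_map, Polynomial.eval_multiset_prod, Multiset.map_map, Polynomial.eval_finset_sum,
    Multiset.card_map, Finset.card_val, Finset.card_univ] at h2
  have h3 : (Multiset.map ((Polynomial.eval f) ∘ ((fun t => Polynomial.X - Polynomial.C t) ∘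
      cj N k f)) (Finset.univ : Finset (Q N)).val).prod = 0 := by
    apply Multiset.prod_eq_zero
    rw [Multiset.mem_map]
    refine ⟨((1 : SL(2, ℤ)) : Q N), Finset.mem_univ _, ?_⟩
    simp only [Function.comp_apply, Polynomial.eval_sub, Polynomial.eval_X, Polynomial.eval_C]
    rw [cj_one hf, sub_self]
  rw [h3] at h2
  rw [h2]
  refine Finset.sum_congr rfl fun i _ => ?_
  rw [Polynomial.eval_mul, Polynomial.eval_mul, Polynomial.eval_pow, Polynomial.eval_pow,
    Polynomial.eval_neg, Polynomial.eval_one, Polynomial.eval_C, Polynomial.eval_X,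
    Finset.esymm_map_val]
  funext z
  simp [Esym]

end Fermat.Agent.S28_ESYMM
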