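import Fermat.Agent.S24_Defs
import Fermat.Agent.S20_Basic
import Fermat.Agent.S28_helper14_ADefs
import Fermat.Agent.S28_helper27_ESYMM
import Fermat.Agent.S24_helper8_INVa
import Fermat.Agent.S24_helper27_J1
import Fermat.Agent.S28_helper25_HD

/-!
# S24, piece C-INVb: the characteristic polynomial of the conjugates

For `g` in the ring generated by the constants and the functions `z ↦ j(d z)`, `d ∣ N`,
there is a monic polynomial `P ∈ ℂ[X][Y]` of degree `μ(N) = [SL₂(ℤ) : Γ₀(N)]` with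
`P(j(z), g(z)) = 0`.
-/

set_option autoImplicit false

open UpperHalfPlane ModularForm CongruenceSubgroup AlgebraicCurve IntermediateField
open scoped MatrixGroups ModularForm Manifold
open Fermat.Agent.S20 Fermat.Agent.S24

namespace Fermat.Agent.S24_helper9_INVb

open Fermat.Agent.S28_helper14_ADefs Fermat.Agent.S28_ESYMM Fermat.Agent.S24_helper8_INVa
  Fermat.Agent.S24_helper27_J1

/-- `g` is a quotient `H / Δ^M` with `H` a modular form of weight `12 M` on `Γ₀(N)`. -/
def INVb_Cls (N : ℕ) (g : ℍ → ℂ) : Prop :=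
  ∃ (M : ℕ) (H : ℍ → ℂ), IsMF N (12 * (M : ℤ)) H ∧
    ∀ z, g z = H z / ModularForm.discriminant z ^ M

theorem INVb_isMF_disc_pow (N : ℕ) [NeZero N] (M : ℕ) :
    IsMF N (12 * (M : ℤ)) (ModularForm.discriminant ^ M) :=
  ((IsMF1.pow isMF1_discriminant M).isMF).cast (by ring)

theorem INVb_cls_const (N : ℕ) [NeZero N] (c : ℂ) : INVb_Cls N (fun _ => c) :=
  ⟨0, fun _ => c, (IsMF1.const c).isMF.cast (by simp), fun z => by simp⟩

theorem INVb_cls_add (N : ℕ) [NeZero N] {g₁ g₂ : ℍ → ℂ} (h₁ : INVb_Cls N g₁)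
    (h₂ : INVb_Cls N g₂) : INVb_Cls N (g₁ + g₂) := by
  obtain ⟨M₁, H₁, hH₁, e₁⟩ := h₁
  obtain ⟨M₂, H₂, hH₂, e₂⟩ := h₂
  refine ⟨M₁ + M₂,
    H₁ * ModularForm.discriminant ^ M₂ + H₂ * ModularForm.discriminant ^ M₁, ?_, fun z => ?_⟩
  · exact IsMF.add ((hH₁.mul (INVb_isMF_disc_pow N M₂)).cast (by push_cast; ring))
      ((hH₂.mul (INVb_isMF_disc_pow N M₁)).cast (by push_cast; ring))
  · have hΔ := ModularForm.discriminant_ne_zero z
    simp only [Pi.add_apply, Pi.mul_apply, Pi.pow_apply]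
    rw [e₁, e₂, pow_add]
    field_simp

theorem INVb_cls_mul (N : ℕ) [NeZero N] {g₁ g₂ : ℍ → ℂ} (h₁ : INVb_Cls N g₁)
    (h₂ : INVb_Cls N g₂) : INVb_Cls N (g₁ * g₂) := by
  obtain ⟨M₁, H₁, hH₁, e₁⟩ := h₁
  obtain ⟨M₂, H₂, hH₂, e₂⟩ := h₂
  refine ⟨M₁ + M₂, H₁ * H₂, (hH₁.mul hH₂).cast (by push_cast; ring), fun z => ?_⟩
  have hΔ := ModularForm.discriminant_ne_zero z
  simp only [Pi.mul_apply]
  rw [e₁, e₂, pow_add]
  field_simp

theorem INVb_cls_neg (N : ℕ) [NeZero N] {g : ℍ → ℂ} (h : INVb_Cls N g) : INVb_Cls N (-g) := by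
  obtain ⟨M, H, hH, e⟩ := h
  refine ⟨M, -H, hH.neg, fun z => ?_⟩
  simp only [Pi.neg_apply]
  rw [e, neg_div]

theorem INVb_jd_eq (N d : ℕ) (z : ℍ) :
    jd d 1 z = Hd N d z / ModularForm.discriminant z ^ N := by
  have hΔ := ModularForm.discriminant_ne_zero z
  have h1 : ∀ f : ℍ → ℂ, tri d 1 0 f z = f (dmul d z) := by
    intro f
    simp [tri, dmul]
  have hΔ' := ModularForm.discriminant_ne_zero (dmul d z)
  simp only [jd, one_smul, jfun, Hd, h1]
  field_simp

theorem INVb_cls_of_mem (N : ℕ) [NeZero N]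
    (hHd : ∀ d : ℕ, d ∣ N → IsMF N (12 * (N : ℤ)) (Hd N d)) (g : ℍ → ℂ)
    (hg : g ∈ Subring.closure
      (Set.range (fun c : ℂ => (fun _ : ℍ => c)) ∪ {f | ∃ d : ℕ, d ∣ N ∧ f = jd d 1})) :
    INVb_Cls N g := by
  induction hg using Subring.closure_induction with
  | mem x hx =>
    rcases hx with ⟨c, rfl⟩ | ⟨d, hd, rfl⟩
    · exact INVb_cls_const N c
    · exact ⟨N, Hd N d, hHd d hd, fun z => INVb_jd_eq N d z⟩
  | zero => exact INVb_cls_const N 0
  | one => exact INVb_cls_const N 1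
  | add x y _ _ hx hy => exact INVb_cls_add N hx hy
  | neg x _ hx => exact INVb_cls_neg N hx
  | mul x y _ _ hx hy => exact INVb_cls_mul N hx hy

/-- The normalised elementary symmetric functions are polynomials in `j`. -/
theorem INVb_esym_poly (N : ℕ) [NeZero N] (M : ℕ) (H : ℍ → ℂ) (hH : IsMF N (12 * (M : ℤ)) H)
    (i : ℕ) : ∃ p : Polynomial ℂ, ∀ z,
      Esym N (12 * (M : ℤ)) H i z / ModularForm.discriminant z ^ (i * M) = p.eval (jfun z) := by
  have hE : IsMF1 ((i : ℤ) * (12 * (M : ℤ))) (Esym N (12 * (M : ℤ)) H i) := isMF1_Esym hH i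
  have hD : IsMF1 ((i : ℤ) * (12 * (M : ℤ))) (ModularForm.discriminant ^ (i * M)) :=
    (IsMF1.pow isMF1_discriminant (i * M)).cast (by push_cast; ring)
  have hne : ∀ z, (ModularForm.discriminant ^ (i * M) : ℍ → ℂ) z ≠ 0 := fun z => by
    simpa using pow_ne_zero (i * M) (ModularForm.discriminant_ne_zero z)
  refine AN9a (fun z => Esym N (12 * (M : ℤ)) H i z / ModularForm.discriminant z ^ (i * M))
    ?_ ?_ (i * M) ?_
  · have := hE.holo.div hD.holo hne
    exact this
  · intro γ z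
    have h1 := J1_smul_apply hE γ z
    have h2 := J1_smul_apply hD γ z
    simp only [Pi.pow_apply] at h2
    have hden : (denom γ z) ^ ((i : ℤ) * (12 * (M : ℤ))) ≠ 0 :=
      zpow_ne_zero _ (denom_ne_zero _ z)
    have hΔ := pow_ne_zero (i * M) (ModularForm.discriminant_ne_zero z)
    rw [h1, h2]
    field_simp
  · have : (fun z => ModularForm.discriminant z ^ (i * M) *
        (Esym N (12 * (M : ℤ)) H i z / ModularForm.discriminant z ^ (i * M))) =
        Esym N (12 * (M : ℤ)) H i := by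
      funext z
      have hΔ := pow_ne_zero (i * M) (ModularForm.discriminant_ne_zero z)
      field_simp
    rw [this]
    exact hE.bdd

theorem AN9b_of_cls (N : ℕ) [NeZero N] (g : ℍ → ℂ) (hg : INVb_Cls N g) :
    ∃ P : Polynomial (Polynomial ℂ), P.Monic ∧ P.natDegree = mu N ∧
      ∀ z : ℍ, (P.map (Polynomial.evalRingHom (jfun z))).eval (g z) = 0 := by
  classical
  obtain ⟨M, H, hH, e⟩ := hg
  set n := Fintype.card (Q N) with hn
  have hmu : mu N = n := by
    rw [hn, mu, Nat.card_eq_fintype_card]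
  choose p hp using INVb_esym_poly N M H hH
  -- the lower order part
  set R : Polynomial (Polynomial ℂ) :=
    ∑ i ∈ Finset.range n, Polynomial.C ((-1 : ℂ) ^ (i + 1) • p (i + 1)) *
      Polynomial.X ^ (n - (i + 1)) with hR
  have hRdeg : R.degree < (n : WithBot ℕ) := by
    rw [← Polynomial.mem_degreeLT]
    refine Submodule.sum_mem _ fun i hi => ?_
    rw [Polynomial.mem_degreeLT]
    refine (Polynomial.degree_C_mul_X_pow_le _ _).trans_lt ?_
    have : n - (i + 1) < n := by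
      have := Finset.mem_range.mp hi
      omega
    exact_mod_cast this
  refine ⟨Polynomial.X ^ n + R, Polynomial.monic_X_pow_add hRdeg, ?_, fun z => ?_⟩
  · rw [hmu]
    rw [Polynomial.natDegree_add_eq_left_of_degree_lt (by rwa [Polynomial.degree_X_pow]),
      Polynomial.natDegree_X_pow]
  · have hΔ := ModularForm.discriminant_ne_zero z
    have key : ∀ i, i ≤ n → (p i).eval (jfun z) * g z ^ (n - i) =
        Esym N (12 * (M : ℤ)) H i z * H z ^ (n - i) / ModularForm.discriminant z ^ (n * M) := by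
      intro i hi
      obtain ⟨k, hk⟩ := Nat.exists_eq_add_of_le hi
      have hk' : n - i = k := by omega
      rw [← hp i z, e z, hk', div_pow, ← pow_mul, hk, add_mul, pow_add]
      field_simp
      ring
    have hrel := congrFun (Esym_rel hH) z
    rw [← hn] at hrel
    simp only [Finset.sum_apply, Pi.smul_apply, Pi.mul_apply, Pi.pow_apply, Pi.zero_apply,
      smul_eq_mul] at hrel
    rw [Finset.sum_range_succ'] at hrel
    simp only [Polynomial.map_add, Polynomial.map_pow, Polynomial.map_X, Polynomial.eval_add,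
      Polynomial.eval_pow, Polynomial.eval_X, hR, Polynomial.map_sum, Polynomial.map_mul,
      Polynomial.map_C, Polynomial.eval_finsetSum, Polynomial.eval_mul, Polynomial.eval_C,
      Polynomial.coe_evalRingHom, Polynomial.eval_smul, smul_eq_mul]
    have h0 : g z ^ n = Esym N (12 * (M : ℤ)) H 0 z * H z ^ (n - 0) /
        ModularForm.discriminant z ^ (n * M) := by
      rw [e z, div_pow, ← pow_mul, Esym_zero, Nat.sub_zero, Pi.one_apply, one_mul, mul_comm M n]
    have hsum : ∀ i ∈ Finset.range n,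
        (-1 : ℂ) ^ (i + 1) * (p (i + 1)).eval (jfun z) * g z ^ (n - (i + 1)) =
        ((-1 : ℂ) ^ (i + 1) * (Esym N (12 * (M : ℤ)) H (i + 1) z * H z ^ (n - (i + 1)))) /
          ModularForm.discriminant z ^ (n * M) := by
      intro i hi
      have := Finset.mem_range.mp hi
      rw [mul_assoc, key (i + 1) (by omega)]
      ring
    rw [Finset.sum_congr rfl hsum, h0, ← Finset.sum_div, ← add_div, add_comm]
    rw [div_eq_zero_iff]
    left
    have : (-1 : ℂ) ^ 0 * (Esym N (12 * (M : ℤ)) H 0 z * H z ^ (n - 0)) =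
        Esym N (12 * (M : ℤ)) H 0 z * H z ^ (n - 0) := by simp
    rw [← this]
    exact hrel

theorem AN9b_of (N : ℕ) [NeZero N]
    (hHd : ∀ d : ℕ, d ∣ N → IsMF N (12 * (N : ℤ)) (Hd N d)) (g : ℍ → ℂ)
    (hg : g ∈ Subring.closure
      (Set.range (fun c : ℂ => (fun _ : ℍ => c)) ∪ {f | ∃ d : ℕ, d ∣ N ∧ f = jd d 1})) :
    ∃ P : Polynomial (Polynomial ℂ), P.Monic ∧ P.natDegree = mu N ∧
      ∀ z : ℍ, (P.map (Polynomial.evalRingHom (jfun z))).eval (g z) = 0 :=
  AN9b_of_cls N g (INVb_cls_of_mem N hHd g hg)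

/-- **C-INVb.** The characteristic polynomial of the conjugates. -/
theorem AN9b (N : ℕ) [NeZero N] (g : ℍ → ℂ)
    (hg : g ∈ Subring.closure
      (Set.range (fun c : ℂ => (fun _ : ℍ => c)) ∪ {f | ∃ d : ℕ, d ∣ N ∧ f = jd d 1})) :
    ∃ P : Polynomial (Polynomial ℂ), P.Monic ∧ P.natDegree = mu N ∧
      ∀ z : ℍ, (P.map (Polynomial.evalRingHom (jfun z))).eval (g z) = 0 :=
  AN9b_of N (fun d hd => Fermat.Agent.S28_HD.isMF_Hd N d hd) g hg

end Fermat.Agent.S24_helper9_INVb
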