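import Fermat.Agent.S24_helper28_DEGleCore
import Fermat.Agent.S24_helper29_PSI
import Fermat.Agent.S24_helper9_INVb

/-!
# S24, piece C-DEGle: the degree bound `[F : ℚ̄(j)] ≤ mu N`
-/

set_option autoImplicit false

open UpperHalfPlane ModularForm CongruenceSubgroup AlgebraicCurve IntermediateField
open scoped MatrixGroups ModularForm Manifold
open Fermat.Agent.S20 Fermat.Agent.S24

namespace Fermat.Agent.S24_helper28_DEGle

/-- **C-DEGle.** The function field of `X₀(N)` has degree at most `mu N` over `ℚ̄(j)`. -/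
theorem DEG_le (N : ℕ) [NeZero N] :
    FiniteDimensional Kbar⟮jElt N⟯ (ModularCurve.modularFunctionFieldBar N) ∧
      Module.finrank Kbar⟮jElt N⟯ (ModularCurve.modularFunctionFieldBar N) ≤ mu N :=
  Fermat.Agent.S24_helper28_DEGleCore.DEG_le_of N (Fermat.Agent.S24_helper29_PSI.PSI N)
    (fun g hg => Fermat.Agent.S24_helper9_INVb.AN9b N g hg)
    (Fermat.Agent.S24_helper28_DEGleCore.exists_E_of N
      (fun _ hg => Fermat.Agent.S24_helper29_PSIcore.psi_pole_of_mem N
        (fun _ _ _ => Fermat.Agent.S24_helper24_JD.laurentInf_jd_one) hg)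
      (fun _ _ _ _ hg hh => Fermat.Agent.S24_helper21_LINF.laurentInf_add 1 hg hh)
      (fun _ _ _ _ hg hh => Fermat.Agent.S24_helper21_LINF.laurentInf_mul 1 hg hh)
      (fun c => Fermat.Agent.S24_helper21_LINF.laurentInf_const 1 c))

end Fermat.Agent.S24_helper28_DEGle
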