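import Mathlib
import Fermat.Agent.S24_Defs
import Fermat.Agent.S24_helper23_DEGof
import Fermat.Agent.S24_helper28_DEGle
import Fermat.Agent.S24_helper10_LOCinf

set_option autoImplicit false

open UpperHalfPlane ModularForm CongruenceSubgroup AlgebraicCurve IntermediateField
open scoped MatrixGroups ModularForm Manifold
open Fermat.Agent.S20 Fermat.Agent.S24

namespace Fermat.Agent.S24_helper23_DEG

/-- C-DEG: `[F : ℚ̄(j)] = mu N`. -/
theorem DEG (N : ℕ) [NeZero N] :
    FiniteDimensional Kbar⟮jElt N⟯ (ModularCurve.modularFunctionFieldBar N) ∧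
      Module.finrank Kbar⟮jElt N⟯ (ModularCurve.modularFunctionFieldBar N) = mu N := by
  obtain ⟨ζ, ι, -, hK, hinj, hj, -, -⟩ := Fermat.Agent.S24_helper10_LOCinf.LOC_inf N
  exact Fermat.Agent.S24_helper23_DEGof.DEG_of N (Fermat.Agent.S24_helper28_DEGle.DEG_le N) ι hinj
    (fun q q' a => by rw [hK q a, hK q' a]) hj

end Fermat.Agent.S24_helper23_DEG
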