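import Mathlib
import Fermat.Prelude.Def_AlgebraicCurve_CanonicalDivisor
import Fermat.Prelude.Def_ModularCurve_LaurentCoeff

set_option autoImplicit false

open AlgebraicCurve IntermediateField KaehlerDifferential

namespace Fermat.Agent.S24_helper23_LD

/-- LD: `K`-linearly independent Laurent series stay `L`-linearly independent after extending
coefficients. -/
theorem LD {K L : Type*} [Field K] [Field L] [Algebra K L] {n : ℕ}
    (x : Fin n → LaurentSeries K) (hx : LinearIndependent K x) :
    LinearIndependent L (fun i => ModularCurve.coeffMap (algebraMap K L) (x i)) := by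
  classical
  rw [Fintype.linearIndependent_iff]
  intro c hc i
  let b := Module.Free.chooseBasis K L
  rw [Fintype.linearIndependent_iff] at hx
  -- coordinates of the relation
  have key : ∀ α, ∑ i, (b.repr (c i) α) • x i = 0 := by
    intro α
    ext k
    have hk := congrArg (fun s : LaurentSeries L => s.coeff k) hc
    simp only [HahnSeries.coeff_sum, HahnSeries.coeff_smul, ModularCurve.coeffMap_coeff,
      HahnSeries.coeff_zero, smul_eq_mul] at hk
    have h2 := congrArg (fun l => b.repr l α) hk
    simp only [map_sum, map_zero, Finsupp.coe_finsetSum, Finset.sum_apply,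
      Finsupp.coe_zero, Pi.zero_apply] at h2
    simp only [HahnSeries.coeff_sum, HahnSeries.coeff_smul, HahnSeries.coeff_zero, smul_eq_mul]
    rw [← h2]
    refine Finset.sum_congr rfl fun i _ => ?_
    have : c i * algebraMap K L ((x i).coeff k) = ((x i).coeff k) • c i := by
      rw [Algebra.smul_def, mul_comm]
    rw [this, map_smul, Finsupp.smul_apply, smul_eq_mul, mul_comm]
  have hz : ∀ α, b.repr (c i) α = 0 := fun α => hx _ (key α) i
  have : b.repr (c i) = 0 := Finsupp.ext hz
  exact (LinearEquiv.map_eq_zero_iff b.repr).mp this

end Fermat.Agent.S24_helper23_LD
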