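import Mathlib
import Fermat.Prelude.Def_ModularCurve_LaurentCoeff
import Fermat.Agent.S24_helper23_LD

/-!
# S24, piece C-DEGle: the generic algebra

* `LD_fintype`: linear disjointness (piece LD) for families indexed by a finite type;
* `descend_relation`: an algebraic relation `P(u, v) = 0` with coefficients in `L` between two
  Laurent series with coefficients in `K ⊆ L` descends to a relation with coefficients in `K`
  of no larger degree;
* `finrank_le_of_forall_natDegree_le`: a separable algebraic extension all of whose elements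
  have degree `≤ m` is finite of degree `≤ m`.
-/

set_option autoImplicit false

open Polynomial

namespace Fermat.Agent.S24_helper28_DEGleAlg

theorem LD_fintype {K L : Type*} [Field K] [Field L] [Algebra K L] {ι : Type*} [Finite ι]
    (x : ι → LaurentSeries K) (hx : LinearIndependent K x) :
    LinearIndependent L (fun i => ModularCurve.coeffMap (algebraMap K L) (x i)) := by
  classical
  cases nonempty_fintype ι
  let e := Fintype.equivFin ι
  have h1 : LinearIndependent K (x ∘ e.symm) := (linearIndependent_equiv e.symm).mpr hx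
  have h2 := Fermat.Agent.S24_helper23_LD.LD (L := L) (x ∘ e.symm) h1
  have h3 := (linearIndependent_equiv e).mpr h2
  have h4 : ((fun i => ModularCurve.coeffMap (algebraMap K L) ((x ∘ e.symm) i)) ∘ e)
      = fun i => ModularCurve.coeffMap (algebraMap K L) (x i) := by
    funext i
    simp
  rw [h4] at h3
  exact h3

/-- The two-variable evaluation `Q ↦ Q(u, v)` on `K[J][X]`. -/
noncomputable def ev2 {K : Type*} [Field K] (u v : LaurentSeries K) :
    Polynomial (Polynomial K) →+* LaurentSeries K :=
  Polynomial.eval₂RingHom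
    (Polynomial.eval₂RingHom (HahnSeries.C : K →+* LaurentSeries K) u) v

theorem ev2_monomial {K : Type*} [Field K] (u v : LaurentSeries K) (a b : ℕ) (c : K) :
    ev2 u v (Polynomial.monomial b (Polynomial.monomial a c)) = c • (u ^ a * v ^ b) := by
  unfold ev2
  rw [Polynomial.coe_eval₂RingHom, Polynomial.eval₂_monomial, Polynomial.coe_eval₂RingHom,
    Polynomial.eval₂_monomial, mul_assoc, HahnSeries.C_mul_eq_smul]

theorem ev2_eq_sum {K : Type*} [Field K] (u v : LaurentSeries K) (P : Polynomial (Polynomial K))
    (A m : ℕ) (hm : P.natDegree < m) (hA : ∀ b, (P.coeff b).natDegree < A) :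
    ev2 u v P = ∑ i : Fin A × Fin m, ((P.coeff i.2).coeff i.1) • (u ^ (i.1 : ℕ) * v ^ (i.2 : ℕ)) := by
  unfold ev2
  rw [Polynomial.coe_eval₂RingHom, Polynomial.eval₂_eq_sum_range' _ hm, Fintype.sum_prod_type_right,
    ← Fin.sum_univ_eq_sum_range (fun b => (Polynomial.eval₂RingHom
      (HahnSeries.C : K →+* LaurentSeries K) u) (P.coeff b) * v ^ b) m]
  refine Finset.sum_congr rfl (fun b _ => ?_)
  rw [Polynomial.coe_eval₂RingHom, Polynomial.eval₂_eq_sum_range' _ (hA b), Finset.sum_mul,
    ← Fin.sum_univ_eq_sum_range (fun a => HahnSeries.C ((P.coeff b).coeff a) * u ^ a * v ^ (b : ℕ)) A]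
  refine Finset.sum_congr rfl (fun a _ => ?_)
  rw [mul_assoc, HahnSeries.C_mul_eq_smul]

/-- An algebraic relation between two Laurent series over `K` with coefficients in an extension
`L` descends to `K`. -/
theorem descend_relation {K L : Type*} [Field K] [Field L] [Algebra K L]
    (u v : LaurentSeries K) (P : Polynomial (Polynomial L)) (hP : P ≠ 0)
    (h0 : ev2 (ModularCurve.coeffMap (algebraMap K L) u)
      (ModularCurve.coeffMap (algebraMap K L) v) P = 0) :
    ∃ Q : Polynomial (Polynomial K), Q ≠ 0 ∧ Q.natDegree ≤ P.natDegree ∧ ev2 u v Q = 0 := by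
  classical
  set m := P.natDegree with hm
  set A := (Finset.range (m + 1)).sup (fun b => (P.coeff b).natDegree) with hA
  have hAb : ∀ b, (P.coeff b).natDegree < A + 1 := by
    intro b
    by_cases hb : b < m + 1
    · exact Nat.lt_succ_of_le
        (Finset.le_sup (f := fun b => (P.coeff b).natDegree) (Finset.mem_range.mpr hb))
    · have h2 : P.natDegree < b := by omega
      rw [Polynomial.coeff_eq_zero_of_natDegree_lt h2]
      simp
  by_contra hcon
  push Not at hcon
  let x : Fin (A + 1) × Fin (m + 1) → LaurentSeries K := fun i => u ^ (i.1 : ℕ) * v ^ (i.2 : ℕ)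
  have hx : LinearIndependent K x := by
    rw [Fintype.linearIndependent_iff]
    intro k hk i0
    let Q : Polynomial (Polynomial K) :=
      ∑ i : Fin (A + 1) × Fin (m + 1), Polynomial.monomial (i.2 : ℕ)
        (Polynomial.monomial (i.1 : ℕ) (k i))
    have hQev : ev2 u v Q = 0 := by
      rw [map_sum, ← hk]
      refine Finset.sum_congr rfl (fun i _ => ?_)
      rw [ev2_monomial]
    have hQdeg : Q.natDegree ≤ m := by
      refine Polynomial.natDegree_sum_le_of_forall_le _ _ (fun i _ => ?_)
      exact (Polynomial.natDegree_monomial_le _).trans (Nat.lt_succ_iff.mp i.2.2)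
    have hQ0 : Q = 0 := by
      by_contra hQ
      exact hcon Q hQ hQdeg hQev
    have hcoef : (Q.coeff (i0.2 : ℕ)).coeff (i0.1 : ℕ) = k i0 := by
      simp only [Q, Polynomial.finsetSum_coeff, Polynomial.coeff_monomial]
      rw [Finset.sum_eq_single i0]
      · simp
      · intro i _ hi
        by_cases h2 : (i.2 : ℕ) = (i0.2 : ℕ)
        · rw [if_pos h2, Polynomial.coeff_monomial, if_neg]
          intro h1
          exact hi (Prod.ext (Fin.ext h1) (Fin.ext h2))
        · rw [if_neg h2, Polynomial.coeff_zero]
      · intro h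
        exact absurd (Finset.mem_univ _) h
    rw [← hcoef, hQ0]
    simp
  have hxL := LD_fintype (L := L) x hx
  rw [Fintype.linearIndependent_iff] at hxL
  have hrel := ev2_eq_sum (ModularCurve.coeffMap (algebraMap K L) u)
    (ModularCurve.coeffMap (algebraMap K L) v) P (A + 1) (m + 1) (Nat.lt_succ_self _) hAb
  rw [h0] at hrel
  have hall := hxL (fun i => (P.coeff i.2).coeff i.1) (by
    rw [hrel]
    refine Finset.sum_congr rfl (fun i _ => ?_)
    simp only [x, map_mul, map_pow])
  apply hP
  ext b a
  by_cases hb : b < m + 1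
  · by_cases ha : a < A + 1
    · exact hall (⟨a, ha⟩, ⟨b, hb⟩)
    · have h1 := hAb b
      have h2 : (P.coeff b).natDegree < a := by omega
      rw [Polynomial.coeff_eq_zero_of_natDegree_lt h2]
      simp
  · have h2 : P.natDegree < b := by omega
    rw [Polynomial.coeff_eq_zero_of_natDegree_lt h2]
    simp

/-- A characteristic zero algebraic extension all of whose elements have degree `≤ m` is finite
of degree `≤ m`. -/
theorem finrank_le_of_forall_natDegree_le {E F : Type*} [Field E] [Field F] [Algebra E F]
    [CharZero E] (m : ℕ)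
    (h : ∀ θ : F, IsIntegral E θ ∧ (minpoly E θ).natDegree ≤ m) :
    FiniteDimensional E F ∧ Module.finrank E F ≤ m := by
  have : Algebra.IsAlgebraic E F := ⟨fun θ => (h θ).1.isAlgebraic⟩
  have key : ∀ L : IntermediateField E F, FiniteDimensional E L → Module.finrank E L ≤ m := by
    intro L hL
    obtain ⟨α, hα⟩ := Field.exists_primitive_element E L
    have h1 := (Field.primitive_element_iff_minpoly_natDegree_eq E α).mp hα
    rw [← h1]
    have h2 : minpoly E α = minpoly E (α : F) := IntermediateField.minpoly_eq α
    rw [h2]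
    exact (h α).2
  have hfd : FiniteDimensional E F := by
    by_contra hnfd
    obtain ⟨L, hL, hlt⟩ := IntermediateField.exists_lt_finrank_of_infinite_dimensional hnfd m
    exact absurd (key L hL) (not_le.mpr hlt)
  refine ⟨hfd, ?_⟩
  have h3 := key ⊤ inferInstance
  rwa [IntermediateField.finrank_top'] at h3

open IntermediateField in
/-- Clearing denominators: if the field `F` is generated over `K` by a subalgebra `R ∋ j` all of
whose elements have degree `≤ m` over `K(j)`, then so do all elements of `F`. -/
theorem forall_natDegree_le_of_generators {K F : Type*} [Field K] [Field F] [Algebra K F]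
    (j : F) (R : Subalgebra K F) (hjR : j ∈ R) (m : ℕ)
    (hR : ∀ y ∈ R, IsIntegral K⟮j⟯ y ∧ (minpoly K⟮j⟯ y).natDegree ≤ m)
    (hgen : ∀ θ : F, θ ∈ IntermediateField.adjoin K (R : Set F)) :
    ∀ θ : F, IsIntegral K⟮j⟯ θ ∧ (minpoly K⟮j⟯ θ).natDegree ≤ m := by
  classical
  have haev : ∀ p : Polynomial K, Polynomial.aeval j p ∈ R := fun p => by
    rw [Polynomial.aeval_eq_sum_range]
    refine Subalgebra.sum_mem _ (fun i _ => ?_)
    exact Subalgebra.smul_mem _ (Subalgebra.pow_mem _ hjR _) _
  -- the set `T` of elements with a denominator in `K[j]`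
  let T : Subalgebra K⟮j⟯ F :=
    { carrier := {θ | ∃ p : Polynomial K, Polynomial.aeval j p ≠ 0 ∧
        Polynomial.aeval j p * θ ∈ R}
      mul_mem' := by
        rintro a b ⟨p, hp, hpa⟩ ⟨q, hq, hqb⟩
        refine ⟨p * q, ?_, ?_⟩
        · rw [map_mul]; exact mul_ne_zero hp hq
        · rw [map_mul]
          have : Polynomial.aeval j p * Polynomial.aeval j q * (a * b)
              = (Polynomial.aeval j p * a) * (Polynomial.aeval j q * b) := by ring
          rw [this]
          exact Subalgebra.mul_mem _ hpa hqb
      add_mem' := by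
        rintro a b ⟨p, hp, hpa⟩ ⟨q, hq, hqb⟩
        refine ⟨p * q, ?_, ?_⟩
        · rw [map_mul]; exact mul_ne_zero hp hq
        · rw [map_mul]
          have : Polynomial.aeval j p * Polynomial.aeval j q * (a + b)
              = Polynomial.aeval j q * (Polynomial.aeval j p * a)
                + Polynomial.aeval j p * (Polynomial.aeval j q * b) := by ring
          rw [this]
          exact Subalgebra.add_mem _ (Subalgebra.mul_mem _ (haev q) hpa)
            (Subalgebra.mul_mem _ (haev p) hqb)
      algebraMap_mem' := by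
        intro e
        obtain ⟨r, s, hrs⟩ := (IntermediateField.mem_adjoin_simple_iff K (e : F)).mp e.2
        by_cases hs : Polynomial.aeval j s = 0
        · refine ⟨1, by simp, ?_⟩
          have he : algebraMap K⟮j⟯ F e = 0 := by
            show (e : F) = 0
            rw [hrs, hs, div_zero]
          rw [he, mul_zero]
          exact Subalgebra.zero_mem _
        · refine ⟨s, hs, ?_⟩
          have he : algebraMap K⟮j⟯ F e = Polynomial.aeval j r / Polynomial.aeval j s := hrs
          rw [he, mul_div_cancel₀ _ hs]
          exact haev r }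
  have hT : ∀ θ ∈ T, IsIntegral K⟮j⟯ θ ∧ (minpoly K⟮j⟯ θ).natDegree ≤ m := by
    rintro θ ⟨p, hp, hpθ⟩
    obtain ⟨hρ, hdeg⟩ := hR _ hpθ
    set d' : K⟮j⟯ := Polynomial.aeval (IntermediateField.AdjoinSimple.gen K j) p with hd'
    have hd : algebraMap K⟮j⟯ F d' = Polynomial.aeval j p := by
      rw [hd', ← Polynomial.aeval_algebraMap_apply, IntermediateField.AdjoinSimple.algebraMap_gen]
    have hd0 : d' ≠ 0 := by
      intro h0
      rw [h0, map_zero] at hd
      exact hp hd.symm
    have hθ : θ = algebraMap K⟮j⟯ F d'⁻¹ * (Polynomial.aeval j p * θ) := by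
      rw [map_inv₀, hd, ← mul_assoc, inv_mul_cancel₀ hp, one_mul]
    have hint : IsIntegral K⟮j⟯ θ := by
      rw [hθ]
      exact IsIntegral.mul isIntegral_algebraMap hρ
    refine ⟨hint, ?_⟩
    set Q := minpoly K⟮j⟯ (Polynomial.aeval j p * θ) with hQ
    have hQ' : Polynomial.aeval θ (Q.comp (Polynomial.C d' * Polynomial.X)) = 0 := by
      rw [Polynomial.aeval_comp, map_mul, Polynomial.aeval_C, Polynomial.aeval_X, hd, hQ,
        minpoly.aeval]
    have hnd : (Q.comp (Polynomial.C d' * Polynomial.X)).natDegree = Q.natDegree := by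
      rw [Polynomial.natDegree_comp, Polynomial.natDegree_C_mul_X _ hd0, mul_one]
    have hne : Q.comp (Polynomial.C d' * Polynomial.X) ≠ 0 := by
      intro h0
      have h1 := minpoly.natDegree_pos hρ
      rw [← hQ, ← hnd, h0, Polynomial.natDegree_zero] at h1
      exact lt_irrefl _ h1
    have h2 := Polynomial.natDegree_le_natDegree (minpoly.degree_le_of_ne_zero K⟮j⟯ θ hne hQ')
    rw [hnd] at h2
    exact h2.trans hdeg
  have hall : ∀ θ : F, θ ∈ T := by
    intro θ
    have hθ := hgen θ
    induction hθ using IntermediateField.adjoin_induction with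
    | mem y hy => exact ⟨1, by simp, by simpa using hy⟩
    | algebraMap k =>
      refine ⟨1, by simp, ?_⟩
      simp
    | add x y _ _ h1 h2 => exact Subalgebra.add_mem _ h1 h2
    | inv x _ h1 =>
      exact Subalgebra.inv_mem_of_algebraic (A := T) (x := ⟨x, h1⟩) (hT x h1).1.isAlgebraic
    | mul x y _ _ h1 h2 => exact Subalgebra.mul_mem _ h1 h2
  exact fun θ => hT θ (hall θ)

open IntermediateField in
/-- The degree bound for a field `F` embedded in Laurent series and generated by a subalgebra
`R ∋ j`, given that every element of `R` satisfies a nonzero polynomial relation of degree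
`≤ m` over `K[j]`. -/
theorem finrank_le_of_relations {K F : Type*} [Field K] [CharZero K] [Field F] [Algebra K F]
    (ι : F →+* LaurentSeries K) (hι : ∀ a : K, ι (algebraMap K F a) = HahnSeries.C a)
    (R : Subalgebra K F) (hgen : ∀ θ : F, θ ∈ IntermediateField.adjoin K (R : Set F))
    (j : F) (hjR : j ∈ R) (hTR : Transcendental K j) (m : ℕ)
    (stepA : ∀ y ∈ R, ∃ Q : Polynomial (Polynomial K),
      Q ≠ 0 ∧ Q.natDegree ≤ m ∧ ev2 (ι j) (ι y) Q = 0) :
    FiniteDimensional K⟮j⟯ F ∧ Module.finrank K⟮j⟯ F ≤ m := by
  classical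
  have hgenT : Transcendental K (IntermediateField.AdjoinSimple.gen K j) := by
    intro halg
    apply hTR
    obtain ⟨p, hp0, hp⟩ := halg
    refine ⟨p, hp0, ?_⟩
    have := congrArg (algebraMap K⟮j⟯ F) hp
    rwa [← Polynomial.aeval_algebraMap_apply, IntermediateField.AdjoinSimple.algebraMap_gen,
      map_zero] at this
  -- Step B: elements of `R` have degree `≤ m` over `K(j)`
  have stepB : ∀ y ∈ R, IsIntegral K⟮j⟯ y ∧ (minpoly K⟮j⟯ y).natDegree ≤ m := by
    intro y hy
    obtain ⟨Q, hQ0, hQd, hQev⟩ := stepA y hy
    let φ : Polynomial K →+* K⟮j⟯ :=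
      (Polynomial.aeval (IntermediateField.AdjoinSimple.gen K j) : Polynomial K →ₐ[K] K⟮j⟯)
    have hφinj : Function.Injective φ := transcendental_iff_injective.mp hgenT
    have hQ'0 : Q.map φ ≠ 0 := by
      intro h0
      apply hQ0
      apply Polynomial.map_injective φ hφinj
      rw [h0, Polynomial.map_zero]
    have hQ'd : (Q.map φ).natDegree ≤ m := (Polynomial.natDegree_map_le).trans hQd
    have hQ'ev : Polynomial.aeval y (Q.map φ) = 0 := by
      apply ι.injective
      rw [map_zero, Polynomial.aeval_def, Polynomial.eval₂_map]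
      have h1 : ι.comp ((algebraMap K⟮j⟯ F).comp φ)
          = Polynomial.eval₂RingHom (HahnSeries.C : K →+* LaurentSeries K) (ι j) := by
        apply Polynomial.ringHom_ext
        · intro c
          simp only [φ, RingHom.comp_apply, RingHom.coe_coe,
            Polynomial.aeval_C, Polynomial.coe_eval₂RingHom, Polynomial.eval₂_C]
          rw [← hι c]
          rfl
        · simp only [φ, RingHom.comp_apply, RingHom.coe_coe,
            Polynomial.aeval_X, Polynomial.coe_eval₂RingHom, Polynomial.eval₂_X]
          rfl
      have h2 := Polynomial.hom_eval₂ Q ((algebraMap K⟮j⟯ F).comp φ) ι y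
      rw [h1] at h2
      exact h2.trans hQev
    have hint : IsIntegral K⟮j⟯ y :=
      IsAlgebraic.isIntegral ⟨Q.map φ, hQ'0, hQ'ev⟩
    refine ⟨hint, ?_⟩
    exact (Polynomial.natDegree_le_natDegree
      (minpoly.degree_le_of_ne_zero K⟮j⟯ y hQ'0 hQ'ev)).trans hQ'd
  have hall := forall_natDegree_le_of_generators j R hjR m stepB hgen
  exact finrank_le_of_forall_natDegree_le m hall

end Fermat.Agent.S24_helper28_DEGleAlg
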