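import Mathlib
import Fermat.Prelude.Def_ModularCurve_X0ModL
import Fermat.Agent.S18_helper26_PLACE
import Fermat.Agent.S18_helper12_ASM
import Fermat.Agent.S24_helper23_DEG
import Fermat.Agent.S24_helper28_DEGleAlg

/-!
# S18, piece P15 (b): zero divisor implies constant, in any characteristic

`S18P15_const k N : ConstStatement k N` for EVERY field `k` (no algebraic closedness needed:
`k` is algebraically closed in `k((q))`).

Ingredients:
* `S18P15_const_of_isAlgebraic`: an element of `k((q))` algebraic over `k` is a constant;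
* `S18P15_rel_field`: for every field `k` and every `d ≥ 1` there is a nonzero two-variable
  polynomial `R` over `k` with `R(j, j(q^d)) = 0` in `k((q))` (the modular relation over `ℚ̄`
  from S24 `DEG` is descended to `ℚ`, made integral and primitive, and reduced);
* `S18P15_finiteDimensional`: the function field `k(j(q^d) : d ∣ N)` is finite over `k(j)`;
* P15 (a) (`S18_helper26_PLACE`): a transcendental element has a zero.
-/

set_option autoImplicit false
set_option linter.unusedSectionVars false
set_option linter.style.haveILetI false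

open Polynomial IntermediateField AlgebraicCurve ModularCurve

namespace Fermat.Agent.S18_helper26_CONST

section AlgClosedInLaurent

variable (k : Type*) [Field k]

/-- `k` is algebraically closed in `k((q))`. -/
theorem S18P15_const_of_isAlgebraic (x : LaurentSeries k) (hx : IsAlgebraic k x) :
    ∃ c : k, x = algebraMap k (LaurentSeries k) c := by
  have htower : ∀ c : k, algebraMap k (LaurentSeries k) c =
      algebraMap (PowerSeries k) (LaurentSeries k) (algebraMap k (PowerSeries k) c) := by
    intro c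
    rw [HahnSeries.algebraMap_apply', LaurentSeries.coe_algebraMap]
  have hcomp : (algebraMap (PowerSeries k) (LaurentSeries k)).comp
      (algebraMap k (PowerSeries k)) = algebraMap k (LaurentSeries k) :=
    RingHom.ext fun c => (htower c).symm
  have key : ∀ y : LaurentSeries k, IsAlgebraic k y →
      ∃ p : PowerSeries k, algebraMap (PowerSeries k) (LaurentSeries k) p = y := by
    intro y hy
    have h1 : IsIntegral (PowerSeries k) y := by
      obtain ⟨P, hP, hroot⟩ := hy.isIntegral
      refine ⟨P.map (algebraMap k (PowerSeries k)), hP.map _, ?_⟩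
      rw [Polynomial.eval₂_map, hcomp]
      exact hroot
    exact IsIntegrallyClosed.isIntegral_iff.1 h1
  obtain ⟨p, hp⟩ := key x hx
  refine ⟨PowerSeries.constantCoeff p, ?_⟩
  by_contra hne
  set c := PowerSeries.constantCoeff p with hc
  have hy0 : x - algebraMap k (LaurentSeries k) c ≠ 0 := sub_ne_zero.2 hne
  have hyalg : IsAlgebraic k (x - algebraMap k (LaurentSeries k) c) :=
    hx.sub (isAlgebraic_algebraMap c)
  obtain ⟨r, hr⟩ := key _ hyalg.inv
  have h2 : algebraMap (PowerSeries k) (LaurentSeries k) ((p - PowerSeries.C c) * r) = 1 := by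
    rw [map_mul, map_sub, hp, hr]
    have : algebraMap (PowerSeries k) (LaurentSeries k) (PowerSeries.C c)
        = algebraMap k (LaurentSeries k) c := by
      rw [htower c]
      rfl
    rw [this, mul_inv_cancel₀ hy0]
  have h3 : (p - PowerSeries.C c) * r = 1 := by
    apply IsFractionRing.injective (PowerSeries k) (LaurentSeries k)
    rw [h2, map_one]
  have h4 := congrArg PowerSeries.constantCoeff h3
  rw [map_mul, map_sub, PowerSeries.constantCoeff_C, ← hc, sub_self, zero_mul, map_one] at h4
  exact zero_ne_one h4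

end AlgClosedInLaurent

section Arithmetic

/-- A nonzero finite family of rationals is proportional to a family of integers with gcd `1`. -/
theorem S18P15_prim {ι : Type*} [Fintype ι] (c : ι → ℚ) (hc : ∃ i, c i ≠ 0) :
    ∃ (z : ι → ℤ) (t : ℚ), t ≠ 0 ∧ (∀ i, (z i : ℚ) = t * c i) ∧
      (Finset.univ : Finset ι).gcd z = 1 := by
  classical
  obtain ⟨i₀, hi₀⟩ := hc
  set D : ℤ := ∏ i, ((c i).den : ℤ) with hD
  have hD0 : D ≠ 0 := Finset.prod_ne_zero_iff.2 fun i _ => by exact_mod_cast (c i).den_ne_zero
  let z0 : ι → ℤ := fun i => (c i).num * ∏ j ∈ Finset.univ.erase i, ((c j).den : ℤ)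
  have hz0 : ∀ i, (z0 i : ℚ) = (D : ℚ) * c i := by
    intro i
    have h1 : D = ((c i).den : ℤ) * ∏ j ∈ Finset.univ.erase i, ((c j).den : ℤ) :=
      (Finset.mul_prod_erase Finset.univ (fun j => ((c j).den : ℤ)) (Finset.mem_univ i)).symm
    have h3 : c i * ((c i).den : ℚ) = ((c i).num : ℚ) := Rat.mul_den_eq_num (c i)
    simp only [z0]
    rw [h1]
    push_cast
    linear_combination (-(∏ j ∈ Finset.univ.erase i, ((c j).den : ℚ))) * h3
  have hz0i : z0 i₀ ≠ 0 := by
    intro h
    have := hz0 i₀
    rw [h, Int.cast_zero] at this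
    rcases mul_eq_zero.1 this.symm with h' | h'
    · exact hD0 (by exact_mod_cast h')
    · exact hi₀ h'
  obtain ⟨z, hz, hg⟩ := Finset.extract_gcd z0 (⟨i₀, Finset.mem_univ i₀⟩ : (Finset.univ : Finset ι).Nonempty)
  have hg0 : (Finset.univ : Finset ι).gcd z0 ≠ 0 := by
    intro h
    exact hz0i (Finset.gcd_eq_zero_iff.1 h i₀ (Finset.mem_univ i₀))
  refine ⟨z, (D : ℚ) / ((Finset.univ : Finset ι).gcd z0 : ℤ), ?_, ?_, hg⟩
  · exact div_ne_zero (by exact_mod_cast hD0) (by exact_mod_cast hg0)
  · intro i
    have h1 := hz0 i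
    rw [hz i (Finset.mem_univ i)] at h1
    push_cast at h1
    have hg0' : (((Finset.univ : Finset ι).gcd z0 : ℤ) : ℚ) ≠ 0 := by exact_mod_cast hg0
    field_simp
    linear_combination h1

/-- A family of integers with gcd `1` does not vanish identically in a field. -/
theorem S18P15_exists_cast_ne_zero {ι : Type*} [Fintype ι] (z : ι → ℤ)
    (hg : (Finset.univ : Finset ι).gcd z = 1) (k : Type*) [Field k] :
    ∃ i, ((z i : ℤ) : k) ≠ 0 := by
  by_contra hcon
  push Not at hcon
  have hdvd : ∀ i, ((ringChar k : ℕ) : ℤ) ∣ z i := fun i =>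
    (CharP.intCast_eq_zero_iff k (ringChar k) (z i)).1 (hcon i)
  have h1 : ((ringChar k : ℕ) : ℤ) ∣ (Finset.univ : Finset ι).gcd z :=
    Finset.dvd_gcd fun i _ => hdvd i
  rw [hg] at h1
  have h2 : ringChar k = 1 := by
    have := Int.natAbs_dvd_natAbs.2 h1
    simpa using this
  exact CharP.ringChar_ne_one h2

end Arithmetic

section Generic

variable {K E : Type*} [Field K] [Field E] [Algebra K E]

open scoped IntermediateField.algebraAdjoinAdjoin in
/-- An element algebraic over `K(u)` satisfies a nonzero two-variable relation with `u`. -/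
theorem S18P15_exists_rel_of_isAlgebraic (u v : E) (hv : IsAlgebraic K⟮u⟯ v) :
    ∃ Q : Polynomial (Polynomial K), Q ≠ 0 ∧
      Polynomial.eval₂ (Polynomial.eval₂RingHom (algebraMap K E) u) v Q = 0 := by
  have hvA : IsAlgebraic (Algebra.adjoin K {u}) v :=
    (IsFractionRing.isAlgebraic_iff (Algebra.adjoin K {u}) K⟮u⟯ E).2 hv
  obtain ⟨p, hp0, hp⟩ := hvA
  let φ : Polynomial K →+* Algebra.adjoin K {u} :=
    ((Polynomial.aeval u : Polynomial K →ₐ[K] E).codRestrict (Algebra.adjoin K {u})
      (fun q => Polynomial.aeval_mem_adjoin_singleton K u)).toRingHom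
  have hφ : Function.Surjective φ := by
    rintro ⟨a, ha⟩
    have ha' := ha
    rw [Algebra.adjoin_singleton_eq_range_aeval] at ha'
    obtain ⟨q, hq⟩ := ha'
    exact ⟨q, Subtype.ext hq⟩
  obtain ⟨Q, hQ⟩ := Polynomial.map_surjective φ hφ p
  refine ⟨Q, ?_, ?_⟩
  · rintro rfl
    apply hp0
    rw [← hQ, Polynomial.map_zero]
  · have hcomp : (algebraMap (Algebra.adjoin K {u}) E).comp φ =
        Polynomial.eval₂RingHom (algebraMap K E) u := by
      apply Polynomial.ringHom_ext
      · intro a
        simp [φ]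
      · simp [φ]
    rw [← hcomp, ← Polynomial.eval₂_map, hQ]
    exact hp

/-- A nonzero two-variable relation with a transcendental `u` makes `v` algebraic over `K(u)`. -/
theorem S18P15_isAlgebraic_of_rel (u v : E) (hu : Transcendental K u)
    (R : Polynomial (Polynomial K)) (hR : R ≠ 0)
    (h : Polynomial.eval₂ (Polynomial.eval₂RingHom (algebraMap K E) u) v R = 0) :
    IsAlgebraic K⟮u⟯ v := by
  let φ : Polynomial K →+* K⟮u⟯ :=
    (Polynomial.aeval (IntermediateField.AdjoinSimple.gen K u) : Polynomial K →ₐ[K] K⟮u⟯).toRingHom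
  have hval : ∀ q : Polynomial K, ((φ q : K⟮u⟯) : E) = Polynomial.aeval u q := by
    intro q
    show algebraMap K⟮u⟯ E (Polynomial.aeval (IntermediateField.AdjoinSimple.gen K u) q) = _
    rw [← Polynomial.aeval_algebraMap_apply, IntermediateField.AdjoinSimple.algebraMap_gen]
  have hφ : Function.Injective φ := by
    rw [injective_iff_map_eq_zero]
    intro q hq
    by_contra hq0
    apply hu
    refine ⟨q, hq0, ?_⟩
    rw [← hval q, hq]
    rfl
  refine ⟨R.map φ, ?_, ?_⟩
  · intro h0
    apply hR
    apply Polynomial.map_injective φ hφ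
    rw [h0, Polynomial.map_zero]
  · have hcomp : (algebraMap K⟮u⟯ E).comp φ =
        Polynomial.eval₂RingHom (algebraMap K E) u := by
      apply Polynomial.ringHom_ext
      · intro a
        simp [φ]
      · simp [φ]
    rw [Polynomial.aeval_def, Polynomial.eval₂_map, hcomp]
    exact h

/-- Coefficients of a polynomial in two variables given by a finite family. -/
theorem S18P15_bipoly_coeff {R : Type*} [Semiring R] {A m : ℕ} (c : Fin A × Fin m → R)
    (i0 : Fin A × Fin m) :
    ((∑ i : Fin A × Fin m, Polynomial.monomial (i.2 : ℕ)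
      (Polynomial.monomial (i.1 : ℕ) (c i))).coeff (i0.2 : ℕ)).coeff (i0.1 : ℕ) = c i0 := by
  classical
  simp only [Polynomial.finsetSum_coeff, Polynomial.coeff_monomial]
  rw [Finset.sum_eq_single i0]
  · simp
  · intro i _ hi
    by_cases h2 : (i.2 : ℕ) = (i0.2 : ℕ)
    · rw [if_pos h2, Polynomial.coeff_monomial, if_neg]
      intro h1
      exact hi (Prod.ext (Fin.ext h1) (Fin.ext h2))
    · rw [if_neg h2, Polynomial.coeff_zero]
  · intro h
    exact absurd (Finset.mem_univ _) h

end Generic

section Relation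

open Fermat.Agent.S24 Fermat.Agent.S24_helper28_DEGleAlg

theorem S18P15_coeffMap_injective {R S : Type*} [CommRing R] [CommRing S] (f : R →+* S)
    (hf : Function.Injective f) : Function.Injective (coeffMap f) := by
  intro x y h
  ext n
  apply hf
  rw [← coeffMap_coeff, ← coeffMap_coeff, h]

theorem S18P15_C_eq_algebraMap (K : Type*) [Field K] :
    (HahnSeries.C : K →+* LaurentSeries K) = algebraMap K (LaurentSeries K) := by
  ext a : 1
  rw [algebraMap_laurentSeries_eq_single]
  rfl

/-- the modular relation over `ℚ̄`. -/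
theorem S18P15_rel_Kbar (d : ℕ) [NeZero d] :
    ∃ Q : Polynomial (Polynomial Kbar), Q ≠ 0 ∧ ev2 (jLaur 1) (jLaur d) Q = 0 := by
  obtain ⟨hfin, -⟩ := Fermat.Agent.S24_helper23_DEG.DEG d
  have := hfin
  have halg : IsAlgebraic Kbar⟮jElt d⟯ (jF d d dvd_rfl) :=
    (IsIntegral.of_finite Kbar⟮jElt d⟯ (jF d d dvd_rfl)).isAlgebraic
  obtain ⟨Q, hQ0, hQ⟩ := S18P15_exists_rel_of_isAlgebraic (jElt d) (jF d d dvd_rfl) halg
  refine ⟨Q, hQ0, ?_⟩
  have h1 := congrArg (algebraMap (modularFunctionFieldBar d) (LaurentSeries Kbar)) hQ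
  rw [map_zero, Polynomial.hom_eval₂] at h1
  have hcomp : (algebraMap (modularFunctionFieldBar d) (LaurentSeries Kbar)).comp
      (Polynomial.eval₂RingHom (algebraMap Kbar (modularFunctionFieldBar d)) (jElt d)) =
      Polynomial.eval₂RingHom (HahnSeries.C : Kbar →+* LaurentSeries Kbar) (jLaur 1) := by
    apply Polynomial.ringHom_ext
    · intro a
      rw [S18P15_C_eq_algebraMap]
      simp
    · simp
      rfl
  rw [hcomp] at h1
  exact h1

/-- the modular relation over `ℚ`. -/
theorem S18P15_rel_rat (d : ℕ) [NeZero d] :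
    ∃ Q : Polynomial (Polynomial ℚ), Q ≠ 0 ∧ ev2 jq (qExpand ℚ d jq) Q = 0 := by
  obtain ⟨P, hP0, hP⟩ := S18P15_rel_Kbar d
  have h1 : jLaur 1 = coeffMap (algebraMap ℚ Kbar) jq := by
    show coeffEmb Kbar (qExpand ℚ 1 jq) = _
    rw [qExpand_one_apply]
    rfl
  have h2 : jLaur d = coeffMap (algebraMap ℚ Kbar) (qExpand ℚ d jq) := rfl
  rw [h1, h2] at hP
  obtain ⟨Q, hQ0, -, hQ⟩ := descend_relation (K := ℚ) (L := Kbar) jq (qExpand ℚ d jq) P hP0 hP
  exact ⟨Q, hQ0, hQ⟩

/-- the modular relation over `ℤ`, as a finite family of coefficients with gcd `1`. -/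
theorem S18P15_rel_int (d : ℕ) [NeZero d] :
    ∃ (A m : ℕ) (z : Fin A × Fin m → ℤ), (Finset.univ : Finset (Fin A × Fin m)).gcd z = 1 ∧
      ∑ i : Fin A × Fin m, ((z i : ℤ) : LaurentSeries ℤ) *
        ((jqModC ℤ) ^ (i.1 : ℕ) * (qExpand ℤ d (jqModC ℤ)) ^ (i.2 : ℕ)) = 0 := by
  classical
  obtain ⟨Q, hQ0, hQ⟩ := S18P15_rel_rat d
  set m := Q.natDegree + 1 with hm
  set A := (Finset.range m).sup (fun b => (Q.coeff b).natDegree) + 1 with hA
  have hAb : ∀ b, (Q.coeff b).natDegree < A := by
    intro b
    by_cases hb : b < m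
    · exact Nat.lt_succ_of_le
        (Finset.le_sup (f := fun b => (Q.coeff b).natDegree) (Finset.mem_range.mpr hb))
    · have h2 : Q.natDegree < b := by omega
      rw [Polynomial.coeff_eq_zero_of_natDegree_lt h2]
      simp [hA]
  have hsum := ev2_eq_sum jq (qExpand ℚ d jq) Q A m (Nat.lt_succ_self _) hAb
  rw [hQ] at hsum
  -- the coefficient family
  let c : Fin A × Fin m → ℚ := fun i => (Q.coeff i.2).coeff i.1
  have hc : ∃ i, c i ≠ 0 := by
    by_contra hcon
    push Not at hcon
    apply hQ0
    ext b a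
    by_cases hb : b < m
    · by_cases ha : a < A
      · exact hcon (⟨a, ha⟩, ⟨b, hb⟩)
      · have h2 : (Q.coeff b).natDegree < a := by have := hAb b; omega
        rw [Polynomial.coeff_eq_zero_of_natDegree_lt h2]
        simp
    · have h2 : Q.natDegree < b := by omega
      rw [Polynomial.coeff_eq_zero_of_natDegree_lt h2]
      simp
  obtain ⟨z, t, ht, hz, hg⟩ := S18P15_prim c hc
  refine ⟨A, m, z, hg, ?_⟩
  apply S18P15_coeffMap_injective (Int.castRingHom ℚ) Int.cast_injective
  rw [map_zero, map_sum]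
  have hu : coeffMap (Int.castRingHom ℚ) (jqModC ℤ) = jq := by
    rw [coeffMap_jqModC]
    rfl
  have hv : coeffMap (Int.castRingHom ℚ) (qExpand ℤ d (jqModC ℤ)) = qExpand ℚ d jq := by
    rw [coeffMap_qExpand, hu]
  have hterm : ∀ i : Fin A × Fin m,
      coeffMap (Int.castRingHom ℚ) (((z i : ℤ) : LaurentSeries ℤ) *
        ((jqModC ℤ) ^ (i.1 : ℕ) * (qExpand ℤ d (jqModC ℤ)) ^ (i.2 : ℕ))) =
      t • (c i • (jq ^ (i.1 : ℕ) * (qExpand ℚ d jq) ^ (i.2 : ℕ))) := by
    intro i
    rw [map_mul, map_mul, map_pow, map_pow, hu, hv, map_intCast, smul_smul, ← hz i,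
      ← HahnSeries.C_mul_eq_smul, map_intCast]
  rw [Finset.sum_congr rfl (fun i _ => hterm i), ← Finset.smul_sum, ← hsum, smul_zero]

/-- the modular relation over an arbitrary field. -/
theorem S18P15_rel_field (k : Type*) [Field k] (d : ℕ) [NeZero d] :
    ∃ R : Polynomial (Polynomial k), R ≠ 0 ∧
      Polynomial.eval₂ (Polynomial.eval₂RingHom (algebraMap k (LaurentSeries k)) (jqModC k))
        (qExpand k d (jqModC k)) R = 0 := by
  classical
  obtain ⟨A, m, z, hg, hz⟩ := S18P15_rel_int d
  obtain ⟨i₀, hi₀⟩ := S18P15_exists_cast_ne_zero z hg k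
  refine ⟨∑ i : Fin A × Fin m, Polynomial.monomial (i.2 : ℕ)
      (Polynomial.monomial (i.1 : ℕ) ((z i : ℤ) : k)), ?_, ?_⟩
  · intro h0
    apply hi₀
    rw [← S18P15_bipoly_coeff (fun i => ((z i : ℤ) : k)) i₀, h0]
    simp
  · have h1 := congrArg (coeffMap (Int.castRingHom k)) hz
    rw [map_zero, map_sum] at h1
    rw [Polynomial.eval₂_finsetSum, ← h1]
    refine Finset.sum_congr rfl fun i _ => ?_
    rw [Polynomial.eval₂_monomial, Polynomial.coe_eval₂RingHom, Polynomial.eval₂_monomial,
      map_mul, map_mul, map_pow, map_pow, map_intCast, map_intCast, coeffMap_qExpand,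
      coeffMap_jqModC, mul_assoc]

end Relation

section Final

variable (k : Type*) [Field k] (N : ℕ) [NeZero N]

/-- `j` as an element of the characteristic-free function field. -/
noncomputable def S18P15_jbar : modularFunctionFieldFullC k N := ⟨jqModC k, jqModC_mem_full k N⟩

/-- `j(q^d)` as an element of the characteristic-free function field. -/
noncomputable def S18P15_jbard (d : ℕ) [NeZero d] (hd : d ∣ N) : modularFunctionFieldFullC k N :=
  ⟨qExpand k d (jqModC k), jqModCd_mem_full k N hd⟩

theorem S18P15_isAlgebraic_coe {x : modularFunctionFieldFullC k N} (hx : IsAlgebraic k x) :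
    IsAlgebraic k (x : LaurentSeries k) := by
  obtain ⟨p, hp0, hp⟩ := hx
  refine ⟨p, hp0, ?_⟩
  have := congrArg (algebraMap (modularFunctionFieldFullC k N) (LaurentSeries k)) hp
  rw [map_zero, ← Polynomial.aeval_algebraMap_apply] at this
  exact this

theorem S18P15_transcendental_jbar : Transcendental k (S18P15_jbar k N) := by
  intro halg
  obtain ⟨c, hc⟩ := S18P15_const_of_isAlgebraic k _ (S18P15_isAlgebraic_coe k N halg)
  have h1 : (jqModC k).coeff (-1 : ℤ) = 1 := coeff_jqModC_neg_one k
  have h2 : (jqModC k) = algebraMap k (LaurentSeries k) c := hc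
  rw [h2, algebraMap_laurentSeries_eq_single, HahnSeries.coeff_single_of_ne (by norm_num)] at h1
  exact zero_ne_one h1

theorem S18P15_isAlgebraic_jbard (d : ℕ) [NeZero d] (hd : d ∣ N) :
    IsAlgebraic k⟮S18P15_jbar k N⟯ (S18P15_jbard k N d hd) := by
  obtain ⟨R, hR0, hR⟩ := S18P15_rel_field k d
  refine S18P15_isAlgebraic_of_rel _ _ (S18P15_transcendental_jbar k N) R hR0 ?_
  apply (algebraMap (modularFunctionFieldFullC k N) (LaurentSeries k)).injective
  rw [map_zero, Polynomial.hom_eval₂]
  have hcomp : (algebraMap (modularFunctionFieldFullC k N) (LaurentSeries k)).comp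
      (Polynomial.eval₂RingHom (algebraMap k (modularFunctionFieldFullC k N))
        (S18P15_jbar k N)) =
      Polynomial.eval₂RingHom (algebraMap k (LaurentSeries k)) (jqModC k) := by
    apply Polynomial.ringHom_ext
    · intro a
      simp
    · simp
      rfl
  rw [hcomp]
  exact hR

/-- the generators of the function field, as elements of it. -/
def S18P15_gens : Set (modularFunctionFieldFullC k N) :=
  {x | ∃ (d : ℕ) (_ : NeZero d) (hd : d ∣ N), x = S18P15_jbard k N d hd}

theorem S18P15_gens_finite : (S18P15_gens k N).Finite := by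
  classical
  have hfin : (Set.range (fun d : {d : ℕ // d ∈ N.divisors} =>
      if h : NeZero (d : ℕ) then
        (if hd : (d : ℕ) ∣ N then @S18P15_jbard k _ N (d : ℕ) h hd else 0) else 0)).Finite :=
    Set.finite_range _
  refine hfin.subset ?_
  rintro x ⟨d, hd0, hd, rfl⟩
  refine ⟨⟨d, Nat.mem_divisors.2 ⟨hd, NeZero.ne N⟩⟩, ?_⟩
  simp only [dif_pos hd0, dif_pos hd]

theorem S18P15_adjoin_gens : IntermediateField.adjoin k (S18P15_gens k N) = ⊤ := by
  apply IntermediateField.lift_injective (modularFunctionFieldFullC k N)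
  rw [IntermediateField.lift_top, IntermediateField.lift_adjoin]
  have : (Subtype.val '' (S18P15_gens k N) : Set (LaurentSeries k)) = divisorExpansionsC k N := by
    ext x
    constructor
    · rintro ⟨y, ⟨d, hd0, hd, rfl⟩, rfl⟩
      exact ⟨d, hd0, hd, rfl⟩
    · rintro ⟨d, hd0, hd, rfl⟩
      exact ⟨_, ⟨d, hd0, hd, rfl⟩, rfl⟩
  rw [this]
  rfl

/-- The characteristic-free function field is finite over `k(j)`. -/
theorem S18P15_finiteDimensional :
    FiniteDimensional k⟮S18P15_jbar k N⟯ (modularFunctionFieldFullC k N) := by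
  haveI : Finite (S18P15_gens k N) := (S18P15_gens_finite k N).to_subtype
  have h1 : FiniteDimensional k⟮S18P15_jbar k N⟯
      (IntermediateField.adjoin k⟮S18P15_jbar k N⟯ (S18P15_gens k N)) := by
    apply IntermediateField.finiteDimensional_adjoin
    rintro x ⟨d, hd0, hd, rfl⟩
    exact (S18P15_isAlgebraic_jbard k N d hd).isIntegral
  have h2 : IntermediateField.adjoin k⟮S18P15_jbar k N⟯ (S18P15_gens k N) = ⊤ :=
    IntermediateField.adjoin_eq_top_of_adjoin_eq_top (F := k) (S18P15_adjoin_gens k N)
  rw [h2] at h1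
  exact Module.Finite.equiv (IntermediateField.topEquiv (F := k⟮S18P15_jbar k N⟯)
    (E := modularFunctionFieldFullC k N)).toLinearEquiv

/-- **P15 (b)**: a function with zero divisor is a constant (any field `k`). -/
theorem S18P15_const_unfolded :
    ∀ x : modularFunctionFieldFullC k N, x ≠ 0 →
      (∀ P : Place k (modularFunctionFieldFullC k N), P.ord x = 0) →
      ∃ c : k, x = algebraMap k (modularFunctionFieldFullC k N) c := by
  intro x _ hord
  by_cases halg : IsAlgebraic k x
  · obtain ⟨c, hc⟩ := S18P15_const_of_isAlgebraic k _ (S18P15_isAlgebraic_coe k N halg)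
    exact ⟨c, Subtype.ext hc⟩
  · exfalso
    haveI := S18P15_finiteDimensional k N
    haveI : FiniteDimensional k⟮x⟯ (modularFunctionFieldFullC k N) :=
      Fermat.Agent.S24_helper6_A2.finiteDimensional_adjoin_of_transcendental
        (S18P15_jbar k N) (S18P15_transcendental_jbar k N) x halg
    obtain ⟨P, hP⟩ := Fermat.Agent.S18_helper26_PLACE.S18P15_exists_place_ord_pos (k := k) x halg
    rw [hord P] at hP
    exact lt_irrefl _ hP

/-- **P15 (b)** in the form of the block D contract. -/
theorem S18P15_const : Fermat.Agent.S18_helper12_ASM.ConstStatement k N :=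
  S18P15_const_unfolded k N

end Final

end Fermat.Agent.S18_helper26_CONST
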