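import Mathlib
import Fermat.Prelude.Def_AlgebraicCurve_DivisorClassGroup

/-!
# S24, piece A1: places of a function field of one variable over an algebraically closed field
have residue field `K`

`K` algebraically closed, `F / K(x)` algebraic.  For every `Place v` of `F / K`:
* `exists_const_sub_mem`: every `y ∈ O_v` is congruent to a constant modulo the maximal ideal;
* `algebraMap_residue_surjective`, `deg_eq_one`.
-/

set_option autoImplicit false
set_option linter.style.haveILetI false

namespace Fermat.Agent.S24_helper15_A1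

open AlgebraicCurve IntermediateField Polynomial

universe u₁ u₂

variable {K : Type u₁} {F : Type u₂} [Field K] [Field F] [Algebra K F]

/-! ### Generalities on valuation subrings -/

/-- A valuation subring containing a subfield over which `F` is algebraic is everything. -/
theorem eq_top_of_isAlgebraic (A : ValuationSubring F) (k : IntermediateField K F)
    (hk : ∀ z ∈ k, z ∈ A) [Algebra.IsAlgebraic k F] : A = ⊤ := by
  refine SetLike.ext fun w => ⟨fun _ => ValuationSubring.mem_top w, fun _ => ?_⟩
  have hw : IsIntegral k w := (Algebra.IsAlgebraic.isAlgebraic (R := k) w).isIntegral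
  obtain ⟨p, hmonic, hp⟩ := hw
  let φ : k →+* A :=
    { toFun := fun z => ⟨z.1, hk z.1 z.2⟩
      map_one' := rfl
      map_mul' := fun _ _ => rfl
      map_zero' := rfl
      map_add' := fun _ _ => rfl }
  have hint : IsIntegral A w := by
    refine ⟨p.map φ, hmonic.map φ, ?_⟩
    rw [Polynomial.eval₂_map]
    exact hp
  obtain ⟨a, ha⟩ := IsIntegrallyClosed.isIntegral_iff.mp hint
  rw [← ha]
  exact a.2

/-- If all `y - c` (`c : K`) are invertible in `A` (or zero), then so are all polynomial
expressions in `y`. -/
theorem inv_aeval_mem [IsAlgClosed K] (A : ValuationSubring F)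
    (hK : ∀ c : K, algebraMap K F c ∈ A) {y : F}
    (hunit : ∀ c : K, (y - algebraMap K F c)⁻¹ ∈ A) (s : K[X]) : (aeval y s)⁻¹ ∈ A := by
  induction hn : s.natDegree using Nat.strong_induction_on generalizing s with
  | _ n ih =>
    by_cases hdeg : s.degree = 0
    · rw [Polynomial.eq_C_of_degree_eq_zero hdeg, aeval_C, ← map_inv₀]
      exact hK _
    · by_cases hs0 : s = 0
      · rw [hs0, map_zero, inv_zero]
        exact A.zero_mem
      obtain ⟨c, hc⟩ := IsAlgClosed.exists_root s hdeg
      obtain ⟨q, hq⟩ := Polynomial.dvd_iff_isRoot.mpr hc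
      have hq0 : q ≠ 0 := by
        rintro rfl
        rw [mul_zero] at hq
        exact hs0 hq
      have hdq : q.natDegree < n := by
        rw [← hn, hq, Polynomial.natDegree_mul (Polynomial.X_sub_C_ne_zero c) hq0,
          Polynomial.natDegree_X_sub_C]
        omega
      have := ih q.natDegree hdq q rfl
      rw [hq, map_mul, mul_inv, aeval_sub, aeval_X, aeval_C]
      exact A.mul_mem _ _ (hunit c) this

/-- If all `y - c` (`c : K`) are invertible in `A` (or zero), then `K(y) ⊆ A`. -/
theorem adjoin_simple_le [IsAlgClosed K] (A : ValuationSubring F)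
    (hK : ∀ c : K, algebraMap K F c ∈ A) {y : F} (hy : y ∈ A)
    (hunit : ∀ c : K, (y - algebraMap K F c)⁻¹ ∈ A) : ∀ z ∈ K⟮y⟯, z ∈ A := by
  intro z hz
  obtain ⟨r, s, rfl⟩ := (mem_adjoin_simple_iff K z).mp hz
  rw [div_eq_mul_inv]
  refine A.mul_mem _ _ ?_ (inv_aeval_mem A hK hunit s)
  let Asub : Subalgebra K F := { A.toSubring with algebraMap_mem' := hK }
  have hle : Algebra.adjoin K {y} ≤ Asub :=
    Algebra.adjoin_le (Set.singleton_subset_iff.mpr (show y ∈ Asub from hy))
  exact hle (Polynomial.aeval_mem_adjoin_singleton K y)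

/-- Exchange: if `F` is algebraic over `K(x)` and `y` is transcendental over `K`, then `F` is
algebraic over `K(y)`. -/
theorem isAlgebraic_adjoin_of_transcendental (x : F) (halg : Algebra.IsAlgebraic K⟮x⟯ F)
    {y : F} (hy : Transcendental K y) : Algebra.IsAlgebraic K⟮y⟯ F := by
  have h1 : Algebra.IsAlgebraic (Algebra.adjoin K {x}) F :=
    (IntermediateField.isAlgebraic_adjoin_iff_top (F := K) (s := {x}) (S := F)).mp halg
  have h2 : Algebra.trdeg K F ≤ 1 := by
    have := Algebra.IsAlgebraic.trdeg_le_cardinalMk K ({x} : Set F)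
    simpa using this
  have h3 : AlgebraicIndependent K (fun _ : PUnit.{u₂ + 1} => y) :=
    algebraicIndependent_unique_type_iff.mpr hy
  have h4 : IsTranscendenceBasis K (fun _ : PUnit.{u₂ + 1} => y) :=
    h3.isTranscendenceBasis_of_trdeg_le_of_finite (by simpa using h2)
  have h5 := h4.isAlgebraic_field
  have h6 : Set.range (fun _ : PUnit.{u₂ + 1} => y) = {y} := by
    ext z; simp [eq_comm]
  rw [h6] at h5
  exact h5

/-- An element of `F` algebraic over the algebraically closed field `K` is a constant. -/
theorem exists_eq_algebraMap_of_isAlgebraic [IsAlgClosed K] {y : F} (hy : IsAlgebraic K y) :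
    ∃ c : K, y = algebraMap K F c := by
  have hint : IsIntegral K y := hy.isIntegral
  have hdeg := IsAlgClosed.degree_eq_one_of_irreducible K (minpoly.irreducible hint)
  have h := minpoly.aeval K y
  have hm := minpoly.monic hint
  have hX : minpoly K y = X + C ((minpoly K y).coeff 0) :=
    hm.eq_X_add_C (Polynomial.natDegree_eq_of_degree_eq_some hdeg)
  rw [hX, map_add, aeval_X, aeval_C] at h
  refine ⟨-(minpoly K y).coeff 0, ?_⟩
  rw [map_neg]
  exact eq_neg_of_add_eq_zero_left h

/-! ### Places -/

variable (v : Place K F)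

theorem ord_pos_of_not_isUnit {y : F} (hy : y ∈ v.toValuationSubring) (hy0 : y ≠ 0)
    (hnu : ¬ IsUnit (⟨y, hy⟩ : v.toValuationSubring)) : 0 < v.ord y := by
  obtain ⟨π, hπ⟩ := IsDiscreteValuationRing.exists_irreducible v.toValuationSubring
  have ha : (⟨y, hy⟩ : v.toValuationSubring) ≠ 0 := by
    intro h0
    exact hy0 (congrArg Subtype.val h0)
  obtain ⟨n, u, hu⟩ := IsDiscreteValuationRing.eq_unit_mul_pow_irreducible ha hπ
  have hn : n ≠ 0 := by
    rintro rfl
    apply hnu
    rw [hu, pow_zero, mul_one]
    exact u.isUnit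
  have hval : y = ((u : v.toValuationSubring) : F) * ((π : F) ^ (n : ℤ)) := by
    have h1 := congrArg Subtype.val hu
    rw [zpow_natCast]
    exact h1
  have h2 := v.ord_unit_smul_zpow u hπ (n : ℤ)
  rw [← hval] at h2
  rw [h2]
  exact_mod_cast Nat.pos_of_ne_zero hn

theorem inv_mem_of_ord_nonpos {y : F} (hy : y ∈ v.toValuationSubring) (h : ¬ 0 < v.ord y) :
    y⁻¹ ∈ v.toValuationSubring := by
  by_cases hy0 : y = 0
  · rw [hy0, inv_zero]
    exact v.toValuationSubring.zero_mem
  have hu : IsUnit (⟨y, hy⟩ : v.toValuationSubring) := by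
    by_contra hnu
    exact h (ord_pos_of_not_isUnit v hy hy0 hnu)
  obtain ⟨u, hu⟩ := hu
  have h1 : ((u : v.toValuationSubring) : F) = y := congrArg Subtype.val hu
  have h2 : y * (((u⁻¹ : v.toValuationSubringˣ) : v.toValuationSubring) : F) = 1 := by
    rw [← h1]
    exact congrArg Subtype.val (Units.mul_inv u)
  rw [← eq_inv_of_mul_eq_one_right h2]
  exact Subtype.property _

/-- **A1, congruence form.** Every element of the valuation ring of a place is congruent to
a constant modulo the maximal ideal. -/
theorem exists_const_sub_mem [IsAlgClosed K] (x : F)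
    (halg : Algebra.IsAlgebraic (IntermediateField.adjoin K {x}) F) (v : Place K F) (y : F)
    (hy : y ∈ v.toValuationSubring) :
    ∃ c : K, 0 < v.ord (y - algebraMap K F c) ∨ y = algebraMap K F c := by
  by_cases hyalg : IsAlgebraic K y
  · obtain ⟨c, hc⟩ := exists_eq_algebraMap_of_isAlgebraic hyalg
    exact ⟨c, Or.inr hc⟩
  · by_contra hcon
    simp only [not_exists, not_or] at hcon
    haveI := isAlgebraic_adjoin_of_transcendental x halg hyalg
    have hunit : ∀ c : K, (y - algebraMap K F c)⁻¹ ∈ v.toValuationSubring := fun c =>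
      inv_mem_of_ord_nonpos v
        (v.toValuationSubring.sub_mem hy (v.algebraMap_mem' c)) (hcon c).1
    exact v.ne_top' (eq_top_of_isAlgebraic v.toValuationSubring K⟮y⟯
      (adjoin_simple_le v.toValuationSubring v.algebraMap_mem' hy hunit))

/-- Positive order means membership in the maximal ideal. -/
theorem mem_maximalIdeal_of_ord_pos (v : Place K F) {z : F} (hz : z ∈ v.toValuationSubring)
    (h : 0 < v.ord z) :
    (⟨z, hz⟩ : v.toValuationSubring) ∈ IsLocalRing.maximalIdeal v.toValuationSubring := by
  rw [IsLocalRing.mem_maximalIdeal, mem_nonunits_iff]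
  intro hu
  obtain ⟨u, hu⟩ := hu
  have h1 := v.ord_coe_unit u
  rw [hu] at h1
  have h2 : v.ord z = 0 := h1
  omega

/-- **A1, residue field form.** The residue field of a place is `K`. -/
theorem algebraMap_residue_surjective [IsAlgClosed K] (x : F)
    (halg : Algebra.IsAlgebraic (IntermediateField.adjoin K {x}) F) (v : Place K F) :
    Function.Surjective (algebraMap K v.ResidueField) := by
  intro r
  obtain ⟨a, rfl⟩ := IsLocalRing.residue_surjective r
  obtain ⟨c, hc⟩ := exists_const_sub_mem x halg v a.1 a.2
  refine ⟨c, ?_⟩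
  have halgmap : algebraMap K v.ResidueField c =
      IsLocalRing.residue v.toValuationSubring (algebraMap K v.toValuationSubring c) := rfl
  rw [halgmap]
  rcases hc with hc | hc
  · have hmem := mem_maximalIdeal_of_ord_pos v
      (v.toValuationSubring.sub_mem a.2 (v.algebraMap_mem' c)) hc
    have hsub : a - algebraMap K v.toValuationSubring c =
        (⟨(a : F) - algebraMap K F c,
          v.toValuationSubring.sub_mem a.2 (v.algebraMap_mem' c)⟩ : v.toValuationSubring) :=
      rfl
    have h0 : IsLocalRing.residue v.toValuationSubring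
        (a - algebraMap K v.toValuationSubring c) = 0 := by
      rw [hsub]
      exact (IsLocalRing.residue_eq_zero_iff _).mpr hmem
    rw [map_sub, sub_eq_zero] at h0
    exact h0.symm
  · have : a = algebraMap K v.toValuationSubring c := Subtype.ext hc
    rw [this]

/-- **A1, degree form.** Every place has degree one. -/
theorem deg_eq_one [IsAlgClosed K] (x : F)
    (halg : Algebra.IsAlgebraic (IntermediateField.adjoin K {x}) F) (v : Place K F) :
    v.deg = 1 := by
  have hsurj := algebraMap_residue_surjective x halg v
  have hbij : Function.Bijective (algebraMap K v.ResidueField) :=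
    ⟨(algebraMap K v.ResidueField).injective, hsurj⟩
  let e : K ≃ₐ[K] v.ResidueField := AlgEquiv.ofBijective (Algebra.ofId K _) hbij
  have h := e.toLinearEquiv.finrank_eq
  rw [Module.finrank_self] at h
  exact h.symm

end Fermat.Agent.S24_helper15_A1
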