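import Mathlib
import Fermat.Agent.S24_helper6_A2
import Fermat.Agent.S24_helper15_A1

set_option autoImplicit false

open AlgebraicCurve IntermediateField

namespace Fermat.Agent.S24_helper6_A2Shapes

open Fermat.Agent.S24_helper6_A2

variable {K F : Type*} [Field K] [Field F] [Algebra K F]

/-- Every place has degree one (A1, with the finiteness hypothesis of A2). -/
theorem deg_eq_one [IsAlgClosed K] (j : F) [FiniteDimensional K⟮j⟯ F] (v : Place K F) :
    v.deg = 1 :=
  Fermat.Agent.S24_helper15_A1.deg_eq_one j (Algebra.IsAlgebraic.of_finite K⟮j⟯ F) v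

/-- `HasPrincipalDivisors.exists_divisor`, in the shape of `G_core.hprin`. -/
theorem hprin [IsAlgClosed K] [CharZero K] (j : F) (hj : Transcendental K j)
    [FiniteDimensional K⟮j⟯ F] :
    ∀ f : F, f ≠ 0 → ∃ D : Divisor K F, (∀ v, D v = v.ord f) ∧ Divisor.degree D = 0 :=
  fun f hf => exists_divisor j hj (deg_eq_one j) f hf

theorem hasPrincipalDivisors' [IsAlgClosed K] [CharZero K] (j : F) (hj : Transcendental K j)
    [FiniteDimensional K⟮j⟯ F] : HasPrincipalDivisors K F :=
  hasPrincipalDivisors j hj (deg_eq_one j)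

/-- The fundamental identity over `j = j₀`, in the shape of `G_core.hzeros`. -/
theorem hzeros [IsAlgClosed K] [CharZero K] (j : F) (hj : Transcendental K j)
    [FiniteDimensional K⟮j⟯ F] :
    ∀ (j₀ : K) (S : Finset (Place K F)), (∀ v, v ∈ S ↔ 0 < v.ord (j - algebraMap K F j₀)) →
      ∑ v ∈ S, v.ord (j - algebraMap K F j₀) = (Module.finrank K⟮j⟯ F : ℤ) := by
  intro j₀ S hS
  rw [← sum_ord_fiber j hj j₀]
  refine Finset.sum_congr ?_ fun _ _ => rfl
  ext v
  rw [hS, Set.Finite.mem_toFinset]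
  rfl

/-- The fundamental identity over `j = ∞`, in the shape of `G_core.hpoles`. -/
theorem hpoles [IsAlgClosed K] [CharZero K] (j : F) (hj : Transcendental K j)
    [FiniteDimensional K⟮j⟯ F] :
    ∀ S : Finset (Place K F), (∀ v, v ∈ S ↔ v.ord j < 0) →
      ∑ v ∈ S, v.ord j = -(Module.finrank K⟮j⟯ F : ℤ) := by
  intro S hS
  rw [← sum_ord_poles j hj]
  refine Finset.sum_congr ?_ fun _ _ => rfl
  ext v
  rw [hS, Set.Finite.mem_toFinset]
  rfl

/-- The inequality form used by the embedding criterion (piece B). -/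
theorem sum_ord_le [IsAlgClosed K] [CharZero K] (t : F) (ht : Transcendental K t)
    [FiniteDimensional K⟮t⟯ F] (S : Finset (Place K F)) (hS : ∀ v ∈ S, 0 < v.ord t) :
    ∑ v ∈ S, v.ord t ≤ (Module.finrank K⟮t⟯ F : ℤ) := by
  rw [← sum_ord_zeros t ht]
  refine Finset.sum_le_sum_of_subset_of_nonneg ?_ ?_
  · intro v hv
    rw [Set.Finite.mem_toFinset]
    exact hS v hv
  · intro v hv _
    rw [Set.Finite.mem_toFinset] at hv
    exact le_of_lt hv

/-- Existence of the finite sets of zeros and poles as `Finset`s. -/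
theorem exists_zeros_finset [CharZero K] (j : F) (hj : Transcendental K j)
    [FiniteDimensional K⟮j⟯ F] (j₀ : K) :
    ∃ S : Finset (Place K F), ∀ v, v ∈ S ↔ 0 < v.ord (j - algebraMap K F j₀) :=
  ⟨(fiber_finite j hj j₀).toFinset, fun v => by rw [Set.Finite.mem_toFinset]; rfl⟩

theorem exists_poles_finset [CharZero K] (j : F) (hj : Transcendental K j)
    [FiniteDimensional K⟮j⟯ F] :
    ∃ S : Finset (Place K F), ∀ v, v ∈ S ↔ v.ord j < 0 :=
  ⟨(poles_finite j hj).toFinset, fun v => by rw [Set.Finite.mem_toFinset]; rfl⟩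

end Fermat.Agent.S24_helper6_A2Shapes
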