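import Mathlib
import Fermat.Prelude.Def_ModularCurve_HeckeOperatorTotal
import Fermat.Agent.S24_helper6_A2Shapes
import Fermat.Agent.S24_helper23_DEG
import Fermat.Agent.S24_helper23_GEN

/-!
# S37, brick B0c: `HeckeInputsAlong ℚ̄ N ℓ` (assembly)

* `S37B0_finiteAlong`, `S37B0_isIntegral_along`: for function fields `F`, `F'` of one variable
  over `K` (each finite over a simple transcendental extension), every `K`-algebra map
  `φ : F → F'` is finite, hence integral.
* `S37B0_heckeInputsAlong_of`: `HeckeInputsAlong ℚ̄ N ℓ`, with the two generic inputs (sum of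
  ramification times inertia, norm formula for the pushforward) as hypotheses.
-/

set_option autoImplicit false
set_option linter.style.haveILetI false
set_option linter.unusedSectionVars false

open AlgebraicCurve IntermediateField

namespace Fermat.Agent.S37_helper21_B0c

section Generic

variable {K F F' : Type*} [Field K] [Field F] [Field F'] [Algebra K F] [Algebra K F']

/-- A `K`-algebra map between fields maps transcendental elements to transcendental elements. -/
theorem S37B0_transcendental_map (φ : F →ₐ[K] F') {x : F} (hx : Transcendental K x) :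
    Transcendental K (φ x) := fun h =>
  hx ((isAlgebraic_algHom_iff φ φ.toRingHom.injective).1 h)

/-- If `F'` is finite over `K(y)` and `y = φ x`, then `F'` is finite over `F` along `φ`. -/
theorem S37B0_finiteAlong_of_finite (φ : F →ₐ[K] F') (x : F)
    [hfin : FiniteDimensional K⟮φ x⟯ F'] : FiniteAlong K φ := by
  letI := algebraAlong φ
  show Module.Finite F F'
  obtain ⟨s, hs⟩ := (Module.finite_def (R := K⟮φ x⟯) (M := F')).1 hfin
  refine ⟨⟨s, ?_⟩⟩
  rw [eq_top_iff]
  rintro z -
  have hle : K⟮φ x⟯ ≤ φ.fieldRange := by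
    rw [adjoin_simple_le_iff]
    exact ⟨x, rfl⟩
  have hz : z ∈ Submodule.span K⟮φ x⟯ (s : Set F') := by rw [hs]; trivial
  induction hz using Submodule.span_induction with
  | mem y hy => exact Submodule.subset_span hy
  | zero => exact Submodule.zero_mem _
  | add a b _ _ ha hb => exact Submodule.add_mem _ ha hb
  | smul c a _ ha =>
    obtain ⟨c', hc'⟩ := hle c.2
    have : c • a = c' • a := by
      rw [Algebra.smul_def, Algebra.smul_def]
      show (c : F') * a = φ c' * a
      rw [← hc']
      rfl
    rw [this]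
    exact Submodule.smul_mem _ _ ha

/-- **Finiteness of maps of function fields.** -/
theorem S37B0_finiteAlong [IsAlgClosed K] [CharZero K] (φ : F →ₐ[K] F') (x : F)
    (hx : Transcendental K x) (x' : F') (hx' : Transcendental K x')
    [FiniteDimensional K⟮x'⟯ F'] : FiniteAlong K φ := by
  haveI : FiniteDimensional K⟮φ x⟯ F' :=
    Fermat.Agent.S24_helper6_A2.finiteDimensional_adjoin_of_transcendental x' hx' (φ x)
      (S37B0_transcendental_map φ hx)
  exact S37B0_finiteAlong_of_finite φ x

/-- A finite map is integral. -/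
theorem S37B0_isIntegral_of_finiteAlong (φ : F →ₐ[K] F') (h : FiniteAlong K φ) :
    φ.toRingHom.IsIntegral := by
  letI := algebraAlong φ
  haveI : Module.Finite F F' := h
  exact fun z => Algebra.IsIntegral.isIntegral (R := F) z

/-- **Integrality of maps of function fields.** -/
theorem S37B0_isIntegral_along [IsAlgClosed K] [CharZero K] (φ : F →ₐ[K] F') (x : F)
    (hx : Transcendental K x) (x' : F') (hx' : Transcendental K x')
    [FiniteDimensional K⟮x'⟯ F'] : φ.toRingHom.IsIntegral :=
  S37B0_isIntegral_of_finiteAlong φ (S37B0_finiteAlong φ x hx x' hx')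

end Generic

section Modular

open Fermat.Agent.S24 ModularCurve

variable (N ℓ : ℕ) [NeZero N] [NeZero ℓ]

/-- `F_{Nℓ}` is finite over `ℚ̄(j)`. -/
theorem S37B0_finiteDimensional :
    FiniteDimensional Kbar⟮jElt (N * ℓ)⟯ (modularFunctionFieldBar (N * ℓ)) :=
  (Fermat.Agent.S24_helper23_DEG.DEG (N * ℓ)).1

theorem S37B0_heckeAlphaBarIntegral : HeckeAlphaBarIntegral Kbar N ℓ := by
  haveI := S37B0_finiteDimensional N ℓ
  exact S37B0_isIntegral_along (heckeAlphaBar Kbar N ℓ) (jElt N)
    (Fermat.Agent.S24_helper23_GEN.TR N) (jElt (N * ℓ)) (Fermat.Agent.S24_helper23_GEN.TR (N * ℓ))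

theorem S37B0_heckeBetaBarIntegral : HeckeBetaBarIntegral Kbar N ℓ := by
  haveI := S37B0_finiteDimensional N ℓ
  exact S37B0_isIntegral_along (heckeBetaBar Kbar N ℓ) (jElt N)
    (Fermat.Agent.S24_helper23_GEN.TR N) (jElt (N * ℓ)) (Fermat.Agent.S24_helper23_GEN.TR (N * ℓ))

theorem S37B0_finiteAlong_alpha : FiniteAlong Kbar (heckeAlphaBar Kbar N ℓ) := by
  haveI := S37B0_finiteDimensional N ℓ
  exact S37B0_finiteAlong (heckeAlphaBar Kbar N ℓ) (jElt N)
    (Fermat.Agent.S24_helper23_GEN.TR N) (jElt (N * ℓ)) (Fermat.Agent.S24_helper23_GEN.TR (N * ℓ))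

theorem S37B0_finiteAlong_beta : FiniteAlong Kbar (heckeBetaBar Kbar N ℓ) := by
  haveI := S37B0_finiteDimensional N ℓ
  exact S37B0_finiteAlong (heckeBetaBar Kbar N ℓ) (jElt N)
    (Fermat.Agent.S24_helper23_GEN.TR N) (jElt (N * ℓ)) (Fermat.Agent.S24_helper23_GEN.TR (N * ℓ))

theorem S37B0_hasPrincipalDivisors (N : ℕ) [NeZero N] :
    HasPrincipalDivisors Kbar (modularFunctionFieldBar N) := by
  haveI := (Fermat.Agent.S24_helper23_DEG.DEG N).1
  exact Fermat.Agent.S24_helper6_A2Shapes.hasPrincipalDivisors' (jElt N)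
    (Fermat.Agent.S24_helper23_GEN.TR N)

/-- **Assembly of `HeckeInputsAlong`**, with the two generic inputs as hypotheses:
`hSRI` has the shape of `S37B0_sumRamificationInertia` (piece B0a) and `hPNF` the shape of
`S37B0_pushforwardNormFormula` (piece B0b), both specialised to `K = ℚ̄` and fields in `Type`. -/
theorem S37B0_heckeInputsAlong_of
    (hSRI : ∀ (F F' : Type) [Field F] [Field F'] [Algebra Kbar F] [Algebra Kbar F']
      [Algebra F F'] [IsScalarTower Kbar F F'] [FiniteDimensional F F']
      [HasPrincipalDivisors Kbar F'] (x : F) (_ : Transcendental Kbar x)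
      [FiniteDimensional Kbar⟮x⟯ F], SumRamificationInertia Kbar F F')
    (hPNF : ∀ (F F' : Type) [Field F] [Field F'] [Algebra Kbar F] [Algebra Kbar F']
      [Algebra F F'] [IsScalarTower Kbar F F'] [FiniteDimensional F F']
      [HasPrincipalDivisors Kbar F'] (x : F) (_ : Transcendental Kbar x)
      [FiniteDimensional Kbar⟮x⟯ F], Divisor.PushforwardNormFormula Kbar F F') :
    HeckeInputsAlong Kbar N ℓ := by
  haveI hP : HasPrincipalDivisors Kbar (modularFunctionFieldBar (N * ℓ)) :=
    S37B0_hasPrincipalDivisors (N * ℓ)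
  haveI hfN : FiniteDimensional Kbar⟮jElt N⟯ (modularFunctionFieldBar N) :=
    (Fermat.Agent.S24_helper23_DEG.DEG N).1
  refine heckeInputsAlong_intro (S37B0_heckeAlphaBarIntegral N ℓ) (S37B0_heckeBetaBarIntegral N ℓ)
    ?_ (S37B0_finiteAlong_alpha N ℓ) ?_
  · -- fundamental identity along `β`
    letI := algebraAlong (heckeBetaBar Kbar N ℓ)
    haveI := isScalarTower_along (heckeBetaBar Kbar N ℓ)
    haveI : FiniteDimensional (modularFunctionFieldBar N) (modularFunctionFieldBar (N * ℓ)) :=
      S37B0_finiteAlong_beta N ℓ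
    haveI : SumRamificationInertia Kbar (modularFunctionFieldBar N)
        (modularFunctionFieldBar (N * ℓ)) :=
      hSRI _ _ (jElt N) (Fermat.Agent.S24_helper23_GEN.TR N)
    show FundamentalIdentity Kbar (modularFunctionFieldBar N) (modularFunctionFieldBar (N * ℓ))
    infer_instance
  · -- norm formula along `α`
    letI := algebraAlong (heckeAlphaBar Kbar N ℓ)
    haveI := isScalarTower_along (heckeAlphaBar Kbar N ℓ)
    haveI : FiniteDimensional (modularFunctionFieldBar N) (modularFunctionFieldBar (N * ℓ)) :=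
      S37B0_finiteAlong_alpha N ℓ
    exact hPNF _ _ (jElt N) (Fermat.Agent.S24_helper23_GEN.TR N)

end Modular

end Fermat.Agent.S37_helper21_B0c
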