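import Fermat.Agent.S24_helper6_A2
import Fermat.Agent.S24_helper15_A1

/-!
# S37 preparation, brick RI: Riemann's inequality

`K` algebraically closed of characteristic `0`, `F / K` a function field of one variable
(`x ∈ F` transcendental, `F` finite over `K(x)`).  There is a constant `c` such that every
divisor `D` of degree `≥ c` admits `f ≠ 0` with `div f + D ≥ 0`
(`S37RI_exists_effective`).

The proof is the classical one (Stichtenoth, 1.4.14): `dim L(D + P) ≤ dim L(D) + 1`,
`L(0) = K`, and the lower bound `dim L(l B + C) ≥ n (l + 1)` obtained from the elements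
`x^i u_j`, where `B = (x)_∞`, `u_j` is a `K(x)`-basis of `F` and `n = [F : K(x)]`.
-/

set_option autoImplicit false
set_option linter.unusedSectionVars false
set_option linter.style.haveILetI false

open AlgebraicCurve WithZero IntermediateField

namespace Fermat.Agent.S37_helper21_RI

variable {K F : Type*} [Field K] [Field F] [Algebra K F]

/-! ### valuations and orders -/

theorem S37RI_adicValuation_le_exp_iff (v : Place K F) {f : F} (hf : f ≠ 0) (n : ℤ) :
    v.adicValuation f ≤ exp n ↔ 0 ≤ v.ord f + n := by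
  rw [← WithZero.log_le_iff_le_exp (v.adicValuation_ne_zero hf)]
  unfold Place.ord
  constructor <;> intro h <;> omega

theorem S37RI_adicValuation_algebraMap_le_one (v : Place K F) (c : K) :
    v.adicValuation (algebraMap K F c) ≤ 1 := by
  have h := v.adicValuation_coe (algebraMap K v.toValuationSubring c)
  rw [Place.coe_algebraMap] at h
  rw [h]
  exact IsDedekindDomain.HeightOneSpectrum.intValuation_le_one _ _

/-! ### the spaces `L(D)` -/

/-- the Riemann-Roch space `L(D) = {f | div f + D ≥ 0}` -/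
def S37RI_LSpace (D : Divisor K F) : Submodule K F where
  carrier := {f | ∀ v : Place K F, v.adicValuation f ≤ exp (D v)}
  zero_mem' := fun v => by simp
  add_mem' := by
    intro f g hf hg v
    exact (Valuation.map_add_le_max' _ f g).trans (max_le (hf v) (hg v))
  smul_mem' := by
    intro c f hf v
    rw [Algebra.smul_def, map_mul]
    calc v.adicValuation (algebraMap K F c) * v.adicValuation f
        ≤ 1 * exp (D v) := mul_le_mul' (S37RI_adicValuation_algebraMap_le_one v c) (hf v)
      _ = exp (D v) := one_mul _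

theorem S37RI_mem_LSpace {D : Divisor K F} {f : F} :
    f ∈ S37RI_LSpace D ↔ ∀ v : Place K F, v.adicValuation f ≤ exp (D v) := Iff.rfl

theorem S37RI_mem_LSpace_iff_ord {D : Divisor K F} {f : F} (hf : f ≠ 0) :
    f ∈ S37RI_LSpace D ↔ ∀ v : Place K F, 0 ≤ v.ord f + D v := by
  rw [S37RI_mem_LSpace]
  exact forall_congr' fun v => S37RI_adicValuation_le_exp_iff v hf (D v)

theorem S37RI_LSpace_mono {A B : Divisor K F} (h : ∀ v, A v ≤ B v) :
    S37RI_LSpace A ≤ S37RI_LSpace B := fun _ hf v =>
  (hf v).trans (WithZero.exp_le_exp.mpr (h v))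

/-! ### adding one point -/

theorem S37RI_add_single_apply_of_ne (D : Divisor K F) {P v : Place K F} (h : v ≠ P) :
    (D + Finsupp.single P (1 : ℤ)) v = D v := by
  rw [Finsupp.add_apply, Finsupp.single_eq_of_ne h, add_zero]

theorem S37RI_add_single_apply_self (D : Divisor K F) (P : Place K F) :
    (D + Finsupp.single P (1 : ℤ)) P = D P + 1 := by
  rw [Finsupp.add_apply, Finsupp.single_eq_same]

/-- two elements of `L(D + P)` are proportional modulo `L(D)` -/
theorem S37RI_step [IsAlgClosed K] (x : F) (halg : Algebra.IsAlgebraic K⟮x⟯ F)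
    (D : Divisor K F) (P : Place K F) (f g : F)
    (hf : f ∈ S37RI_LSpace (D + Finsupp.single P (1 : ℤ)))
    (hg : g ∈ S37RI_LSpace (D + Finsupp.single P (1 : ℤ))) (hg' : g ∉ S37RI_LSpace D) :
    ∃ c : K, f - c • g ∈ S37RI_LSpace D := by
  have hg0 : g ≠ 0 := by
    rintro rfl
    exact hg' (Submodule.zero_mem _)
  by_cases hf0 : f = 0
  · exact ⟨0, by rw [hf0, zero_smul, sub_zero]; exact Submodule.zero_mem _⟩
  have hgo := (S37RI_mem_LSpace_iff_ord hg0).mp hg
  have hfo := (S37RI_mem_LSpace_iff_ord hf0).mp hf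
  -- the order of `g` at `P`
  have hgP : P.ord g + D P < 0 := by
    by_contra hcon
    apply hg'
    rw [S37RI_mem_LSpace_iff_ord hg0]
    intro v
    by_cases hv : v = P
    · subst hv
      omega
    · have := hgo v
      rwa [S37RI_add_single_apply_of_ne D hv] at this
  have hgP' := hgo P
  rw [S37RI_add_single_apply_self] at hgP'
  have hfP := hfo P
  rw [S37RI_add_single_apply_self] at hfP
  set u : F := f * g⁻¹ with hu
  have hu0 : u ≠ 0 := mul_ne_zero hf0 (inv_ne_zero hg0)
  have huo : P.ord u = P.ord f - P.ord g := by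
    rw [hu, P.ord_mul hf0 (inv_ne_zero hg0), P.ord_inv]
    ring
  have humem : u ∈ P.toValuationSubring :=
    Fermat.Agent.S24_helper6_A2.mem_of_ord_nonneg P (by omega)
  obtain ⟨c, hc⟩ := Fermat.Agent.S24_helper15_A1.exists_const_sub_mem x halg P u humem
  refine ⟨c, ?_⟩
  have hfu : f = u * g := by
    rw [hu, mul_assoc, inv_mul_cancel₀ hg0, mul_one]
  have hh : f - c • g = (u - algebraMap K F c) * g := by
    rw [Algebra.smul_def, sub_mul, ← hfu]
  rcases hc with hc | hc
  · by_cases hh0 : f - c • g = 0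
    · rw [hh0]
      exact Submodule.zero_mem _
    · rw [S37RI_mem_LSpace_iff_ord hh0]
      have hmem : f - c • g ∈ S37RI_LSpace (D + Finsupp.single P (1 : ℤ)) :=
        Submodule.sub_mem _ hf (Submodule.smul_mem _ c hg)
      have hho := (S37RI_mem_LSpace_iff_ord hh0).mp hmem
      intro v
      by_cases hv : v = P
      · subst hv
        have hne : u - algebraMap K F c ≠ 0 := by
          intro h0
          rw [hh, h0, zero_mul] at hh0
          exact hh0 rfl
        rw [hh, v.ord_mul hne hg0]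
        omega
      · have := hho v
        rwa [S37RI_add_single_apply_of_ne D hv] at this
  · rw [hh, hc, sub_self, zero_mul]
    exact Submodule.zero_mem _

/-- `dim L(D + P) ≤ dim L(D) + 1` -/
theorem S37RI_finrank_add_single [IsAlgClosed K] (x : F) (halg : Algebra.IsAlgebraic K⟮x⟯ F)
    (D : Divisor K F) (P : Place K F) (hD : FiniteDimensional K (S37RI_LSpace D)) :
    FiniteDimensional K (S37RI_LSpace (D + Finsupp.single P (1 : ℤ))) ∧
      Module.finrank K (S37RI_LSpace (D + Finsupp.single P (1 : ℤ))) ≤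
        Module.finrank K (S37RI_LSpace D) + 1 := by
  by_cases h : S37RI_LSpace (D + Finsupp.single P (1 : ℤ)) ≤ S37RI_LSpace D
  · exact ⟨Submodule.finiteDimensional_of_le h, (Submodule.finrank_mono h).trans (Nat.le_succ _)⟩
  · obtain ⟨g, hg, hg'⟩ := SetLike.not_le_iff_exists.mp h
    have hg0 : g ≠ 0 := by
      rintro rfl
      exact hg' (Submodule.zero_mem _)
    have hle : S37RI_LSpace (D + Finsupp.single P (1 : ℤ)) ≤
        S37RI_LSpace D ⊔ Submodule.span K {g} := by
      intro f hf
      obtain ⟨c, hc⟩ := S37RI_step x halg D P f g hf hg hg'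
      have e : f = (f - c • g) + c • g := by ring
      rw [e]
      exact Submodule.add_mem _ (Submodule.mem_sup_left hc)
        (Submodule.mem_sup_right (Submodule.smul_mem _ c (Submodule.mem_span_singleton_self g)))
    refine ⟨Submodule.finiteDimensional_of_le hle, ?_⟩
    calc Module.finrank K (S37RI_LSpace (D + Finsupp.single P (1 : ℤ)))
        ≤ Module.finrank K (S37RI_LSpace D ⊔ Submodule.span K {g} : Submodule K F) :=
          Submodule.finrank_mono hle
      _ ≤ Module.finrank K (S37RI_LSpace D) + Module.finrank K (Submodule.span K {g}) :=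
          Submodule.finrank_add_le_finrank_add_finrank _ _
      _ = Module.finrank K (S37RI_LSpace D) + 1 := by rw [finrank_span_singleton hg0]

/-! ### effective divisors as lists of places -/

/-- the effective divisor `∑_{P ∈ l} P` -/
noncomputable def S37RI_listDiv (l : List (Place K F)) : Divisor K F :=
  (l.map fun P => Finsupp.single P (1 : ℤ)).sum

@[simp] theorem S37RI_listDiv_nil : S37RI_listDiv ([] : List (Place K F)) = 0 := rfl

@[simp] theorem S37RI_listDiv_cons (P : Place K F) (l : List (Place K F)) :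
    S37RI_listDiv (P :: l) = Finsupp.single P (1 : ℤ) + S37RI_listDiv l := by
  simp [S37RI_listDiv]

theorem S37RI_listDiv_append (l₁ l₂ : List (Place K F)) :
    S37RI_listDiv (l₁ ++ l₂) = S37RI_listDiv l₁ + S37RI_listDiv l₂ := by
  simp [S37RI_listDiv]

theorem S37RI_listDiv_replicate (n : ℕ) (P : Place K F) :
    S37RI_listDiv (List.replicate n P) = Finsupp.single P (n : ℤ) := by
  induction n with
  | zero => simp
  | succ n ih =>
    rw [List.replicate_succ, S37RI_listDiv_cons, ih, ← Finsupp.single_add]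
    congr 1
    push_cast
    ring

theorem S37RI_listDiv_nonneg (l : List (Place K F)) (v : Place K F) :
    0 ≤ S37RI_listDiv l v := by
  induction l with
  | nil => simp
  | cons P l ih =>
    rw [S37RI_listDiv_cons, Finsupp.add_apply]
    classical
    have : 0 ≤ (Finsupp.single P (1 : ℤ)) v := by
      rw [Finsupp.single_apply]
      split_ifs <;> norm_num
    omega

theorem S37RI_degree_listDiv (hdeg : ∀ v : Place K F, v.deg = 1) (l : List (Place K F)) :
    Divisor.degree (S37RI_listDiv l) = l.length := by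
  induction l with
  | nil => simp
  | cons P l ih =>
    rw [S37RI_listDiv_cons, map_add, ih, Divisor.degree_single, hdeg]
    simp
    ring

/-- every effective divisor comes from a list -/
theorem S37RI_exists_list (E : Divisor K F) (hE : ∀ v, 0 ≤ E v) :
    ∃ l : List (Place K F), S37RI_listDiv l = E := by
  classical
  induction E using Finsupp.induction with
  | zero => exact ⟨[], rfl⟩
  | single_add a b f haf hb ih =>
    have hf : ∀ v, 0 ≤ f v := by
      intro v
      by_cases hv : v = a
      · subst hv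
        rw [Finsupp.notMem_support_iff.mp haf]
      · have := hE v
        rwa [Finsupp.add_apply, Finsupp.single_eq_of_ne hv, zero_add] at this
    have hb0 : 0 ≤ b := by
      have := hE a
      rwa [Finsupp.add_apply, Finsupp.single_eq_same, Finsupp.notMem_support_iff.mp haf,
        add_zero] at this
    obtain ⟨l, hl⟩ := ih hf
    refine ⟨List.replicate b.toNat a ++ l, ?_⟩
    rw [S37RI_listDiv_append, S37RI_listDiv_replicate, hl, Int.toNat_of_nonneg hb0]

/-- **monotonicity**: `dim L(A + E) ≤ dim L(A) + deg E` for `E = ∑_{P ∈ l} P` -/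
theorem S37RI_finrank_add_listDiv [IsAlgClosed K] (x : F) (halg : Algebra.IsAlgebraic K⟮x⟯ F)
    (A : Divisor K F) (hA : FiniteDimensional K (S37RI_LSpace A)) (l : List (Place K F)) :
    FiniteDimensional K (S37RI_LSpace (A + S37RI_listDiv l)) ∧
      Module.finrank K (S37RI_LSpace (A + S37RI_listDiv l)) ≤
        Module.finrank K (S37RI_LSpace A) + l.length := by
  induction l with
  | nil =>
    rw [S37RI_listDiv_nil, add_zero]
    exact ⟨hA, le_rfl⟩
  | cons P l ih =>
    obtain ⟨h1, h2⟩ := ih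
    have e : A + S37RI_listDiv (P :: l) = (A + S37RI_listDiv l) + Finsupp.single P (1 : ℤ) := by
      rw [S37RI_listDiv_cons]
      abel
    rw [e]
    obtain ⟨h3, h4⟩ := S37RI_finrank_add_single x halg (A + S37RI_listDiv l) P h1
    refine ⟨h3, h4.trans ?_⟩
    rw [List.length_cons]
    omega

/-! ### constants, finite-dimensionality -/

section global

variable [IsAlgClosed K] [CharZero K] (x : F) (hx : Transcendental K x)
  [FiniteDimensional K⟮x⟯ F]

include hx in
/-- a function without poles is constant -/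
theorem S37RI_LSpace_zero_le : S37RI_LSpace (0 : Divisor K F) ≤ Submodule.span K {(1 : F)} := by
  intro f hf
  by_cases hfalg : IsAlgebraic K f
  · obtain ⟨a, rfl⟩ := Fermat.Agent.S24_helper6_A2.exists_algebraMap_eq_of_isAlgebraic f hfalg
    rw [Submodule.mem_span_singleton]
    exact ⟨a, by rw [Algebra.smul_def, mul_one]⟩
  · exfalso
    have hfalg' : Transcendental K f := hfalg
    haveI := Fermat.Agent.S24_helper6_A2.finiteDimensional_adjoin_of_transcendental x hx f hfalg'
    have hsum := Fermat.Agent.S24_helper6_A2.sum_ord_poles f hfalg'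
    have hpos : 0 < Module.finrank K⟮f⟯ F := Module.finrank_pos
    have hne : (Fermat.Agent.S24_helper6_A2.poles_finite f hfalg').toFinset.Nonempty := by
      by_contra h
      rw [Finset.not_nonempty_iff_eq_empty] at h
      rw [h, Finset.sum_empty] at hsum
      omega
    obtain ⟨v, hv⟩ := hne
    rw [Set.Finite.mem_toFinset, Set.mem_ofPred_eq] at hv
    have hf0 : f ≠ 0 := by
      rintro rfl
      exact hfalg isAlgebraic_zero
    have := (S37RI_mem_LSpace_iff_ord hf0).mp hf v
    rw [Finsupp.zero_apply] at this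
    omega

/-- the positive part of a divisor -/
noncomputable def S37RI_posPart (D : Divisor K F) : Divisor K F :=
  D.mapRange (fun n => ((n.toNat : ℕ) : ℤ)) rfl

theorem S37RI_posPart_apply (D : Divisor K F) (v : Place K F) :
    S37RI_posPart D v = ((D v).toNat : ℤ) := rfl

theorem S37RI_le_posPart (D : Divisor K F) (v : Place K F) : D v ≤ S37RI_posPart D v := by
  rw [S37RI_posPart_apply]
  omega

theorem S37RI_posPart_nonneg (D : Divisor K F) (v : Place K F) : 0 ≤ S37RI_posPart D v := by
  rw [S37RI_posPart_apply]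
  omega

include hx in
/-- all the spaces `L(D)` are finite-dimensional -/
theorem S37RI_finiteDimensional (D : Divisor K F) : FiniteDimensional K (S37RI_LSpace D) := by
  have halg : Algebra.IsAlgebraic K⟮x⟯ F := Algebra.IsAlgebraic.of_finite _ _
  have h0 : FiniteDimensional K (S37RI_LSpace (0 : Divisor K F)) :=
    Submodule.finiteDimensional_of_le (S37RI_LSpace_zero_le x hx)
  obtain ⟨l, hl⟩ := S37RI_exists_list (S37RI_posPart D) (S37RI_posPart_nonneg D)
  have h1 := (S37RI_finrank_add_listDiv x halg 0 h0 l).1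
  rw [zero_add, hl] at h1
  exact Submodule.finiteDimensional_of_le (S37RI_LSpace_mono (S37RI_le_posPart D))

include hx in
/-- **monotonicity**: `dim L(A + E) ≤ dim L(A) + deg E` for effective `E` -/
theorem S37RI_finrank_add_le (A E : Divisor K F) (hE : ∀ v, 0 ≤ E v) :
    (Module.finrank K (S37RI_LSpace (A + E)) : ℤ) ≤
      Module.finrank K (S37RI_LSpace A) + Divisor.degree E := by
  have halg : Algebra.IsAlgebraic K⟮x⟯ F := Algebra.IsAlgebraic.of_finite _ _
  have hdeg : ∀ v : Place K F, v.deg = 1 := Fermat.Agent.S24_helper15_A1.deg_eq_one x halg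
  obtain ⟨l, hl⟩ := S37RI_exists_list E hE
  have h1 := (S37RI_finrank_add_listDiv x halg A (S37RI_finiteDimensional x hx A) l).2
  rw [hl] at h1
  rw [← hl, S37RI_degree_listDiv hdeg, hl]
  exact_mod_cast h1

/-- degree as a sum over a finite set containing the support -/
theorem S37RI_degree_eq_sum (hdeg : ∀ v : Place K F, v.deg = 1) (D : Divisor K F)
    (s : Finset (Place K F)) (hs : D.support ⊆ s) : Divisor.degree D = ∑ v ∈ s, D v := by
  unfold Divisor.degree
  rw [Finsupp.liftAddHom_apply, Finsupp.sum_of_support_subset D hs _ (fun v _ => by simp)]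
  refine Finset.sum_congr rfl fun v _ => ?_
  simp [hdeg v]

theorem S37RI_degree_nonneg (hdeg : ∀ v : Place K F, v.deg = 1) (D : Divisor K F)
    (hD : ∀ v, 0 ≤ D v) : 0 ≤ Divisor.degree D := by
  rw [S37RI_degree_eq_sum hdeg D D.support subset_rfl]
  exact Finset.sum_nonneg fun v _ => hD v

end global

/-! ### pole divisors and the lower bound -/

section lower

variable [IsAlgClosed K] [CharZero K] (x : F) (hx : Transcendental K x)
  [FiniteDimensional K⟮x⟯ F]

include hx in
/-- an effective divisor bounding the poles of `u` -/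
theorem S37RI_exists_poleDiv (u : F) :
    ∃ C : Divisor K F, (∀ v, 0 ≤ C v) ∧ ∀ v : Place K F, 0 ≤ v.ord u + C v := by
  by_cases hu : IsAlgebraic K u
  · obtain ⟨a, rfl⟩ := Fermat.Agent.S24_helper6_A2.exists_algebraMap_eq_of_isAlgebraic u hu
    refine ⟨0, fun v => le_rfl, fun v => ?_⟩
    rw [Fermat.Agent.S24_helper6_A2.ord_algebraMap_eq_zero]
    simp
  · have hu' : Transcendental K u := hu
    haveI := Fermat.Agent.S24_helper6_A2.finiteDimensional_adjoin_of_transcendental x hx u hu'
    refine ⟨(Fermat.Agent.S24_helper6_A2.divisorOf u hu').mapRange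
      (fun n => (((-n).toNat : ℕ) : ℤ)) rfl, fun v => ?_, fun v => ?_⟩
    · rw [Finsupp.mapRange_apply]
      omega
    · rw [Finsupp.mapRange_apply, Fermat.Agent.S24_helper6_A2.divisorOf_apply]
      omega

/-- the pole divisor of `x` -/
noncomputable def S37RI_poleDivX : Divisor K F :=
  (Fermat.Agent.S24_helper6_A2.divisorOf x hx).mapRange (fun n => (((-n).toNat : ℕ) : ℤ)) rfl

theorem S37RI_poleDivX_apply (v : Place K F) :
    S37RI_poleDivX x hx v = (((-(v.ord x)).toNat : ℕ) : ℤ) := rfl

theorem S37RI_degree_poleDivX :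
    Divisor.degree (S37RI_poleDivX x hx) = (Module.finrank K⟮x⟯ F : ℤ) := by
  classical
  have halg : Algebra.IsAlgebraic K⟮x⟯ F := Algebra.IsAlgebraic.of_finite _ _
  have hdeg : ∀ v : Place K F, v.deg = 1 := Fermat.Agent.S24_helper15_A1.deg_eq_one x halg
  have hs : (S37RI_poleDivX x hx).support ⊆
      (Fermat.Agent.S24_helper6_A2.poles_finite x hx).toFinset := by
    intro v hv
    rw [Finsupp.mem_support_iff, S37RI_poleDivX_apply] at hv
    rw [Set.Finite.mem_toFinset, Set.mem_ofPred_eq]
    omega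
  rw [S37RI_degree_eq_sum hdeg _ _ hs]
  have h := Fermat.Agent.S24_helper6_A2.sum_ord_poles x hx
  have e : ∑ v ∈ (Fermat.Agent.S24_helper6_A2.poles_finite x hx).toFinset,
      S37RI_poleDivX x hx v =
      ∑ v ∈ (Fermat.Agent.S24_helper6_A2.poles_finite x hx).toFinset, -(v.ord x) := by
    refine Finset.sum_congr rfl fun v hv => ?_
    rw [Set.Finite.mem_toFinset, Set.mem_ofPred_eq] at hv
    rw [S37RI_poleDivX_apply]
    omega
  rw [e, Finset.sum_neg_distrib, h, neg_neg]

theorem S37RI_ord_pow (v : Place K F) (f : F) (i : ℕ) : v.ord (f ^ i) = i * v.ord f := by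
  have := v.ord_zpow f (i : ℤ)
  rwa [zpow_natCast] at this

include hx in
/-- the family `x^i u_j` is linearly independent over `K` -/
theorem S37RI_linearIndependent {n : ℕ} (b : Module.Basis (Fin n) K⟮x⟯ F) (l : ℕ) :
    LinearIndependent K (fun p : Fin (l + 1) × Fin n => x ^ (p.1 : ℕ) * b p.2) := by
  rw [Fintype.linearIndependent_iff]
  intro g hg p
  -- regroup the sum
  have h1 : ∑ j : Fin n, (∑ i : Fin (l + 1),
      (algebraMap K K⟮x⟯ (g (i, j))) * (IntermediateField.AdjoinSimple.gen K x) ^ (i : ℕ)) • b j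
      = 0 := by
    rw [← hg, Fintype.sum_prod_type, Finset.sum_comm]
    refine Finset.sum_congr rfl fun j _ => ?_
    rw [Finset.sum_smul]
    refine Finset.sum_congr rfl fun i _ => ?_
    rw [Algebra.smul_def, Algebra.smul_def]
    simp only [map_mul, map_pow, IntermediateField.AdjoinSimple.algebraMap_gen]
    rw [← IsScalarTower.algebraMap_apply K K⟮x⟯ F]
    ring
  have h2 := (Fintype.linearIndependent_iff.mp b.linearIndependent) _ h1 p.2
  -- a polynomial relation for `x`
  have h3 : Polynomial.aeval x (∑ i : Fin (l + 1),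
      Polynomial.C (g (i, p.2)) * Polynomial.X ^ (i : ℕ)) = 0 := by
    have := congrArg (algebraMap K⟮x⟯ F) h2
    simp only [map_sum, map_mul, map_pow, IntermediateField.AdjoinSimple.algebraMap_gen,
      map_zero] at this
    rw [map_sum]
    simp only [map_mul, map_pow, Polynomial.aeval_C, Polynomial.aeval_X]
    rw [← this]
    refine Finset.sum_congr rfl fun i _ => ?_
    rw [← IsScalarTower.algebraMap_apply K K⟮x⟯ F]
  have h4 : (∑ i : Fin (l + 1), Polynomial.C (g (i, p.2)) * Polynomial.X ^ (i : ℕ)) = 0 := by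
    by_contra hne
    exact hx ⟨_, hne, h3⟩
  have h5 := congrArg (fun q : Polynomial K => q.coeff (p.1 : ℕ)) h4
  simp only [Polynomial.finsetSum_coeff, Polynomial.coeff_C_mul, Polynomial.coeff_X_pow,
    Polynomial.coeff_zero] at h5
  rw [Finset.sum_eq_single p.1] at h5
  · simpa using h5
  · intro i _ hi
    have : (p.1 : ℕ) ≠ (i : ℕ) := fun h => hi (Fin.ext h.symm)
    simp [this]
  · intro h
    exact absurd (Finset.mem_univ _) h

end lower

/-! ### Riemann's inequality -/

section final

variable [IsAlgClosed K] [CharZero K] (x : F) (hx : Transcendental K x)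
  [FiniteDimensional K⟮x⟯ F]

/-- `dim L(l B + C) ≥ n (l + 1)` for `B = (x)_∞`, `n = [F : K(x)]` and a suitable `C ≥ 0` -/
theorem S37RI_lower_bound :
    ∃ C : Divisor K F, (∀ v, 0 ≤ C v) ∧
      ∀ l : ℕ, Module.finrank K⟮x⟯ F * (l + 1) ≤
        Module.finrank K (S37RI_LSpace ((l : ℤ) • S37RI_poleDivX x hx + C)) := by
  classical
  let b : Module.Basis (Fin (Module.finrank K⟮x⟯ F)) K⟮x⟯ F := Module.finBasis K⟮x⟯ F
  choose Cj hCj0 hCj using fun j : Fin (Module.finrank K⟮x⟯ F) =>
    S37RI_exists_poleDiv x hx (b j)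
  refine ⟨∑ j, Cj j, fun v => ?_, fun l => ?_⟩
  · rw [Finsupp.finsetSum_apply]
    exact Finset.sum_nonneg fun j _ => hCj0 j v
  · have hx0 : x ≠ 0 := by
      rintro rfl
      exact hx isAlgebraic_zero
    have hmem : ∀ p : Fin (l + 1) × Fin (Module.finrank K⟮x⟯ F),
        x ^ (p.1 : ℕ) * b p.2 ∈ S37RI_LSpace ((l : ℤ) • S37RI_poleDivX x hx + ∑ j, Cj j) := by
      intro p
      have hb0 : b p.2 ≠ 0 := b.ne_zero p.2
      have hne : x ^ (p.1 : ℕ) * b p.2 ≠ 0 := mul_ne_zero (pow_ne_zero _ hx0) hb0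
      rw [S37RI_mem_LSpace_iff_ord hne]
      intro v
      rw [v.ord_mul (pow_ne_zero _ hx0) hb0, S37RI_ord_pow, Finsupp.add_apply,
        Finsupp.smul_apply, S37RI_poleDivX_apply, Finsupp.finsetSum_apply, smul_eq_mul]
      have h1 := hCj p.2 v
      have h2 : Cj p.2 v ≤ ∑ j, Cj j v :=
        Finset.single_le_sum (fun j _ => hCj0 j v) (Finset.mem_univ _)
      have h3 : ((p.1 : ℕ) : ℤ) ≤ (l : ℤ) := by
        have := Nat.lt_succ_iff.mp p.1.2
        exact_mod_cast this
      have h3' : (0 : ℤ) ≤ ((p.1 : ℕ) : ℤ) := Nat.cast_nonneg _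
      have h4 : 0 ≤ ((p.1 : ℕ) : ℤ) * v.ord x + (l : ℤ) * (((-(v.ord x)).toNat : ℕ) : ℤ) := by
        rcases le_or_gt 0 (v.ord x) with h | h
        · have e : (((-(v.ord x)).toNat : ℕ) : ℤ) = 0 := by omega
          rw [e, mul_zero, add_zero]
          exact mul_nonneg h3' h
        · have e : (((-(v.ord x)).toNat : ℕ) : ℤ) = -(v.ord x) := by omega
          rw [e]
          nlinarith
      linarith
    have hli := S37RI_linearIndependent x hx b l
    haveI := S37RI_finiteDimensional x hx ((l : ℤ) • S37RI_poleDivX x hx + ∑ j, Cj j)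
    have hli' : LinearIndependent K (fun p : Fin (l + 1) × Fin (Module.finrank K⟮x⟯ F) =>
        (⟨x ^ (p.1 : ℕ) * b p.2, hmem p⟩ :
          S37RI_LSpace ((l : ℤ) • S37RI_poleDivX x hx + ∑ j, Cj j))) := by
      apply LinearIndependent.of_comp (Submodule.subtype _)
      exact hli
    have h5 := hli'.fintype_card_le_finrank
    rw [Fintype.card_prod, Fintype.card_fin, Fintype.card_fin] at h5
    rw [mul_comm]
    exact h5

/-- nonzero elements of `L(l B - E)` for effective `E` of small degree -/
theorem S37RI_exists_ne_zero (C : Divisor K F) (hC : ∀ v, 0 ≤ C v)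
    (hlow : ∀ l : ℕ, Module.finrank K⟮x⟯ F * (l + 1) ≤
        Module.finrank K (S37RI_LSpace ((l : ℤ) • S37RI_poleDivX x hx + C)))
    (E : Divisor K F) (hE : ∀ v, 0 ≤ E v) (l : ℕ)
    (h : Divisor.degree E + Divisor.degree C <
      (Module.finrank K⟮x⟯ F : ℤ) * ((l : ℤ) + 1)) :
    ∃ y : F, y ≠ 0 ∧ y ∈ S37RI_LSpace ((l : ℤ) • S37RI_poleDivX x hx - E) := by
  have h1 := S37RI_finrank_add_le x hx ((l : ℤ) • S37RI_poleDivX x hx - E) E hE
  rw [sub_add_cancel] at h1
  have h2 := S37RI_finrank_add_le x hx ((l : ℤ) • S37RI_poleDivX x hx) C hC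
  have h3 : ((Module.finrank K⟮x⟯ F * (l + 1) : ℕ) : ℤ) ≤
      (Module.finrank K (S37RI_LSpace ((l : ℤ) • S37RI_poleDivX x hx + C)) : ℤ) := by
    exact_mod_cast hlow l
  push_cast at h3
  have h4 : 0 < Module.finrank K (S37RI_LSpace ((l : ℤ) • S37RI_poleDivX x hx - E)) := by
    have : (0 : ℤ) <
        (Module.finrank K (S37RI_LSpace ((l : ℤ) • S37RI_poleDivX x hx - E)) : ℤ) := by
      linarith
    exact_mod_cast this
  haveI := S37RI_finiteDimensional x hx ((l : ℤ) • S37RI_poleDivX x hx - E)
  have h5 : Nontrivial (S37RI_LSpace ((l : ℤ) • S37RI_poleDivX x hx - E)) :=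
    Module.finrank_pos_iff.mp h4
  obtain ⟨⟨y, hy⟩, hy0⟩ := exists_ne (0 : S37RI_LSpace ((l : ℤ) • S37RI_poleDivX x hx - E))
  exact ⟨y, fun h0 => hy0 (Subtype.ext h0), hy⟩

include hx in
/-- **Riemann's inequality**, in the form: every divisor of large degree is linearly equivalent
to an effective divisor. -/
theorem S37RI_exists_effective :
    ∃ c : ℤ, ∀ D : Divisor K F, c ≤ Divisor.degree D →
      ∃ f : F, f ≠ 0 ∧ ∀ v : Place K F, 0 ≤ v.ord f + D v := by
  have halg : Algebra.IsAlgebraic K⟮x⟯ F := Algebra.IsAlgebraic.of_finite _ _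
  have hdeg : ∀ v : Place K F, v.deg = 1 := Fermat.Agent.S24_helper15_A1.deg_eq_one x halg
  obtain ⟨C, hC, hlow⟩ := S37RI_lower_bound x hx
  have hn : (1 : ℤ) ≤ (Module.finrank K⟮x⟯ F : ℤ) := by
    have : 0 < Module.finrank K⟮x⟯ F := Module.finrank_pos
    exact_mod_cast this
  have hdB := S37RI_degree_poleDivX x hx
  have hdC := S37RI_degree_nonneg hdeg C hC
  refine ⟨Divisor.degree C - (Module.finrank K⟮x⟯ F : ℤ) + 1, fun A hA => ?_⟩
  -- positive and negative parts of `A`
  obtain ⟨A1, hA1nn, hA1le⟩ : ∃ A1 : Divisor K F, (∀ v, 0 ≤ A1 v) ∧ ∀ v, A v ≤ A1 v :=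
    ⟨S37RI_posPart A, S37RI_posPart_nonneg A, S37RI_le_posPart A⟩
  have hA2nn : ∀ v, 0 ≤ (A1 - A) v := fun v => by
    rw [Finsupp.sub_apply]
    have := hA1le v
    omega
  have hdA1 := S37RI_degree_nonneg hdeg A1 hA1nn
  -- step 1: a nonzero `z ∈ L(l B - A1)`
  set l : ℕ := (Divisor.degree A1 + Divisor.degree C).toNat with hl
  have hl' : Divisor.degree A1 + Divisor.degree C ≤ (l : ℤ) := by
    rw [hl]
    exact Int.self_le_toNat _
  obtain ⟨z, hz0, hz⟩ := S37RI_exists_ne_zero x hx C hC hlow A1 hA1nn l (by nlinarith)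
  have hzo := (S37RI_mem_LSpace_iff_ord hz0).mp hz
  obtain ⟨Dz, hDz, hDz0⟩ := Fermat.Agent.S24_helper6_A2.exists_divisor x hx hdeg z hz0
  -- step 2: the effective divisor `E = (A1 - A) + (div z + l B - A1)`
  set E : Divisor K F := (A1 - A) + (Dz + (l : ℤ) • S37RI_poleDivX x hx - A1) with hE
  have hEnn : ∀ v, 0 ≤ E v := fun v => by
    have h1 := hA2nn v
    have h2 := hzo v
    rw [hE]
    simp only [Finsupp.add_apply, Finsupp.sub_apply, Finsupp.smul_apply, smul_eq_mul, hDz] at h1 h2 ⊢
    linarith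
  have hdE : Divisor.degree E =
      (l : ℤ) * (Module.finrank K⟮x⟯ F : ℤ) - Divisor.degree A := by
    rw [hE]
    simp only [map_add, map_sub, map_zsmul, hDz0, hdB, smul_eq_mul]
    ring
  obtain ⟨y, hy0, hy⟩ := S37RI_exists_ne_zero x hx C hC hlow E hEnn l (by rw [hdE]; nlinarith)
  have hyo := (S37RI_mem_LSpace_iff_ord hy0).mp hy
  refine ⟨y * z⁻¹, mul_ne_zero hy0 (inv_ne_zero hz0), fun v => ?_⟩
  have h1 := hyo v
  rw [hE] at h1
  simp only [Finsupp.add_apply, Finsupp.sub_apply, Finsupp.smul_apply, smul_eq_mul, hDz] at h1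
  rw [v.ord_mul hy0 (inv_ne_zero hz0), v.ord_inv]
  linarith

include hx in
/-- multiplication by `w` maps `L(D)` into `L(D')` when `div w + D' ≥ D` -/
theorem S37RI_finrank_le_of_mul (D D' : Divisor K F) (w : F) (hw : w ≠ 0)
    (h : ∀ v : Place K F, D v ≤ v.ord w + D' v) :
    Module.finrank K (S37RI_LSpace D) ≤ Module.finrank K (S37RI_LSpace D') := by
  haveI := S37RI_finiteDimensional x hx D'
  have hmem : ∀ y ∈ S37RI_LSpace D, y * w ∈ S37RI_LSpace D' := by
    intro y hy
    by_cases hy0 : y = 0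
    · rw [hy0, zero_mul]
      exact Submodule.zero_mem _
    · rw [S37RI_mem_LSpace_iff_ord (mul_ne_zero hy0 hw)]
      intro v
      have h1 := (S37RI_mem_LSpace_iff_ord hy0).mp hy v
      have h2 := h v
      rw [v.ord_mul hy0 hw]
      linarith
  let φ : S37RI_LSpace D →ₗ[K] S37RI_LSpace D' :=
    { toFun := fun y => ⟨(y : F) * w, hmem y y.2⟩
      map_add' := fun a b => Subtype.ext (by simp [add_mul])
      map_smul' := fun c a => Subtype.ext (by simp [Algebra.smul_def, mul_assoc]) }
  have hinj : Function.Injective φ := by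
    intro a b hab
    have h1 : (a : F) * w = (b : F) * w := congrArg Subtype.val hab
    exact Subtype.ext (mul_right_cancel₀ hw h1)
  exact LinearMap.finrank_le_finrank_of_injective hinj

include hx in
/-- **Riemann's inequality**: `dim L(D) ≥ deg D - γ` for all divisors `D`. -/
theorem S37RI_riemann_inequality :
    ∃ γ : ℤ, ∀ D : Divisor K F,
      Divisor.degree D - γ ≤ (Module.finrank K (S37RI_LSpace D) : ℤ) := by
  have halg : Algebra.IsAlgebraic K⟮x⟯ F := Algebra.IsAlgebraic.of_finite _ _
  have hdeg : ∀ v : Place K F, v.deg = 1 := Fermat.Agent.S24_helper15_A1.deg_eq_one x halg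
  obtain ⟨C, hC, hlow⟩ := S37RI_lower_bound x hx
  have hn : (1 : ℤ) ≤ (Module.finrank K⟮x⟯ F : ℤ) := by
    have : 0 < Module.finrank K⟮x⟯ F := Module.finrank_pos
    exact_mod_cast this
  have hdB := S37RI_degree_poleDivX x hx
  have hdC := S37RI_degree_nonneg hdeg C hC
  refine ⟨Divisor.degree C - (Module.finrank K⟮x⟯ F : ℤ), fun A => ?_⟩
  obtain ⟨A1, hA1nn, hA1le⟩ : ∃ A1 : Divisor K F, (∀ v, 0 ≤ A1 v) ∧ ∀ v, A v ≤ A1 v :=
    ⟨S37RI_posPart A, S37RI_posPart_nonneg A, S37RI_le_posPart A⟩
  have hA2nn : ∀ v, 0 ≤ (A1 - A) v := fun v => by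
    rw [Finsupp.sub_apply]
    have := hA1le v
    omega
  have hdA1 := S37RI_degree_nonneg hdeg A1 hA1nn
  set l : ℕ := (Divisor.degree A1 + Divisor.degree C).toNat with hl
  have hl' : Divisor.degree A1 + Divisor.degree C ≤ (l : ℤ) := by
    rw [hl]
    exact Int.self_le_toNat _
  obtain ⟨z, hz0, hz⟩ := S37RI_exists_ne_zero x hx C hC hlow A1 hA1nn l (by nlinarith)
  have hzo := (S37RI_mem_LSpace_iff_ord hz0).mp hz
  obtain ⟨Dz, hDz, hDz0⟩ := Fermat.Agent.S24_helper6_A2.exists_divisor x hx hdeg z hz0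
  set E : Divisor K F := (A1 - A) + (Dz + (l : ℤ) • S37RI_poleDivX x hx - A1) with hE
  have hEnn : ∀ v, 0 ≤ E v := fun v => by
    have h1 := hA2nn v
    have h2 := hzo v
    rw [hE]
    simp only [Finsupp.add_apply, Finsupp.sub_apply, Finsupp.smul_apply, smul_eq_mul,
      hDz] at h1 h2 ⊢
    linarith
  have hdE : Divisor.degree E =
      (l : ℤ) * (Module.finrank K⟮x⟯ F : ℤ) - Divisor.degree A := by
    rw [hE]
    simp only [map_add, map_sub, map_zsmul, hDz0, hdB, smul_eq_mul]
    ring
  -- `dim L(l B - E) ≤ dim L(A)` by multiplication with `z⁻¹`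
  have h1 := S37RI_finrank_le_of_mul x hx ((l : ℤ) • S37RI_poleDivX x hx - E) A z⁻¹
    (inv_ne_zero hz0) (fun v => by
      rw [v.ord_inv, hE]
      simp only [Finsupp.add_apply, Finsupp.sub_apply, Finsupp.smul_apply, smul_eq_mul, hDz]
      linarith)
  -- `dim L(l B) ≤ dim L(l B - E) + deg E` and `dim L(l B + C) ≤ dim L(l B) + deg C`
  have h2 := S37RI_finrank_add_le x hx ((l : ℤ) • S37RI_poleDivX x hx - E) E hEnn
  rw [sub_add_cancel] at h2
  have h3 := S37RI_finrank_add_le x hx ((l : ℤ) • S37RI_poleDivX x hx) C hC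
  have h4 : ((Module.finrank K⟮x⟯ F * (l + 1) : ℕ) : ℤ) ≤
      (Module.finrank K (S37RI_LSpace ((l : ℤ) • S37RI_poleDivX x hx + C)) : ℤ) := by
    exact_mod_cast hlow l
  push_cast at h4
  have h1' : (Module.finrank K (S37RI_LSpace ((l : ℤ) • S37RI_poleDivX x hx - E)) : ℤ) ≤
      (Module.finrank K (S37RI_LSpace A) : ℤ) := by
    exact_mod_cast h1
  rw [hdE] at h2
  nlinarith

end final

end Fermat.Agent.S37_helper21_RI
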