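import Mathlib
import Fermat.Prelude.Def_AlgebraicCurve_DivisorClassGroup

/-!
# S37 preparation (helper8): the rigidity lemma

An additive map `δ : Div F → (X →₀ ℤ)` which vanishes on principal divisors and is bounded in
`ℓ¹`-norm on single places is constant on places, provided every divisor of degree `≥ c` is
linearly equivalent to an effective divisor (Riemann's inequality) and all places have degree `1`.
This replaces "Pic⁰ is divisible" in comparison arguments between two reductions of cycles.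
-/

set_option autoImplicit false

namespace Fermat.Agent.S37RIG

open AlgebraicCurve

noncomputable section

variable {X : Type*}

/-- The `ℓ¹`-norm of a finitely supported integer function. -/
def S37RIG_norm (g : X →₀ ℤ) : ℕ := g.sum fun _ a => a.natAbs

theorem S37RIG_norm_eq_sum (g : X →₀ ℤ) (s : Finset X) (hs : g.support ⊆ s) :
    S37RIG_norm g = ∑ x ∈ s, (g x).natAbs := by
  unfold S37RIG_norm
  exact Finsupp.sum_of_support_subset g hs _ (fun _ _ => rfl)

theorem S37RIG_norm_zero : S37RIG_norm (0 : X →₀ ℤ) = 0 := by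
  simp [S37RIG_norm]

theorem S37RIG_norm_add_le (g h : X →₀ ℤ) :
    S37RIG_norm (g + h) ≤ S37RIG_norm g + S37RIG_norm h := by
  classical
  set s := g.support ∪ h.support with hs
  rw [S37RIG_norm_eq_sum (g + h) s Finsupp.support_add,
    S37RIG_norm_eq_sum g s Finset.subset_union_left,
    S37RIG_norm_eq_sum h s Finset.subset_union_right, ← Finset.sum_add_distrib]
  refine Finset.sum_le_sum fun x _ => ?_
  rw [Finsupp.add_apply]
  exact Int.natAbs_add_le _ _

theorem S37RIG_norm_neg (g : X →₀ ℤ) : S37RIG_norm (-g) = S37RIG_norm g := by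
  classical
  rw [S37RIG_norm_eq_sum (-g) g.support (by rw [Finsupp.support_neg]),
    S37RIG_norm_eq_sum g g.support subset_rfl]
  refine Finset.sum_congr rfl fun x _ => ?_
  rw [Finsupp.neg_apply, Int.natAbs_neg]

theorem S37RIG_norm_sub_le (g h : X →₀ ℤ) :
    S37RIG_norm (g - h) ≤ S37RIG_norm g + S37RIG_norm h := by
  rw [sub_eq_add_neg]
  exact (S37RIG_norm_add_le g (-h)).trans (by rw [S37RIG_norm_neg])

theorem S37RIG_norm_zsmul (n : ℤ) (g : X →₀ ℤ) :
    S37RIG_norm (n • g) = n.natAbs * S37RIG_norm g := by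
  classical
  rw [S37RIG_norm_eq_sum (n • g) g.support Finsupp.support_smul,
    S37RIG_norm_eq_sum g g.support subset_rfl, Finset.mul_sum]
  refine Finset.sum_congr rfl fun x _ => ?_
  rw [Finsupp.smul_apply, smul_eq_mul, Int.natAbs_mul]

theorem S37RIG_norm_eq_zero {g : X →₀ ℤ} (h : S37RIG_norm g = 0) : g = 0 := by
  classical
  rw [S37RIG_norm_eq_sum g g.support subset_rfl, Finset.sum_eq_zero_iff] at h
  ext x
  by_cases hx : x ∈ g.support
  · have := h x hx
    rw [Finsupp.zero_apply]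
    exact Int.natAbs_eq_zero.mp this
  · rw [Finsupp.zero_apply]
    exact Finsupp.notMem_support_iff.mp hx

theorem S37RIG_norm_sum_le {ι : Type*} (s : Finset ι) (f : ι → X →₀ ℤ) :
    S37RIG_norm (∑ i ∈ s, f i) ≤ ∑ i ∈ s, S37RIG_norm (f i) := by
  classical
  induction s using Finset.induction_on with
  | empty => simp [S37RIG_norm_zero]
  | insert a s ha ih =>
    rw [Finset.sum_insert ha, Finset.sum_insert ha]
    exact (S37RIG_norm_add_le _ _).trans (Nat.add_le_add_left ih _)

variable {K F : Type*} [Field K] [Field F] [Algebra K F]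

/-- The image of an effective divisor of degree `c` has norm at most `c * B`. -/
theorem S37RIG_norm_effective_le (hdeg : ∀ v : Place K F, v.deg = 1)
    (δ : Divisor K F →+ (X →₀ ℤ)) (B : ℕ)
    (hbdd : ∀ v : Place K F, S37RIG_norm (δ (Finsupp.single v 1)) ≤ B)
    (E : Divisor K F) (hE : ∀ v, 0 ≤ E v) :
    (S37RIG_norm (δ E) : ℤ) ≤ Divisor.degree E * B := by
  classical
  have hEsum : E = ∑ v ∈ E.support, (E v) • Finsupp.single v (1 : ℤ) := by
    conv_lhs => rw [← Finsupp.sum_single E]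
    unfold Finsupp.sum
    refine Finset.sum_congr rfl fun v _ => ?_
    rw [Finsupp.smul_single, smul_eq_mul, mul_one]
  have hdegE : Divisor.degree E = ∑ v ∈ E.support, E v := by
    conv_lhs => rw [hEsum]
    rw [map_sum]
    refine Finset.sum_congr rfl fun v _ => ?_
    rw [map_zsmul, Divisor.degree_single, hdeg v]
    simp
  have h1 : δ E = ∑ v ∈ E.support, (E v) • δ (Finsupp.single v 1) := by
    conv_lhs => rw [hEsum]
    rw [map_sum]
    refine Finset.sum_congr rfl fun v _ => ?_
    rw [map_zsmul]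
  have h2 : S37RIG_norm (δ E) ≤ ∑ v ∈ E.support, (E v).natAbs * B := by
    rw [h1]
    refine (S37RIG_norm_sum_le _ _).trans (Finset.sum_le_sum fun v _ => ?_)
    rw [S37RIG_norm_zsmul]
    exact Nat.mul_le_mul_left _ (hbdd v)
  have h3 : ((∑ v ∈ E.support, (E v).natAbs * B : ℕ) : ℤ) = Divisor.degree E * B := by
    rw [hdegE, Finset.sum_mul]
    push_cast
    refine Finset.sum_congr rfl fun v _ => ?_
    rw [abs_of_nonneg (hE v)]
  calc (S37RIG_norm (δ E) : ℤ) ≤ ((∑ v ∈ E.support, (E v).natAbs * B : ℕ) : ℤ) := by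
        exact_mod_cast h2
    _ = Divisor.degree E * B := h3

/-- **Rigidity lemma.** -/
theorem S37RIG_rigidity (hdeg : ∀ v : Place K F, v.deg = 1) (c : ℕ)
    (hRI : ∀ D : Divisor K F, (c : ℤ) ≤ Divisor.degree D →
      ∃ f : F, f ≠ 0 ∧ ∀ v : Place K F, 0 ≤ v.ord f + D v)
    [HasPrincipalDivisors K F]
    (δ : Divisor K F →+ (X →₀ ℤ)) (B : ℕ)
    (hprin : ∀ D ∈ Divisor.principal (K := K) (F := F), δ D = 0)
    (hbdd : ∀ v : Place K F, S37RIG_norm (δ (Finsupp.single v 1)) ≤ B)
    (P P₀ : Place K F) : δ (Finsupp.single P 1) = δ (Finsupp.single P₀ 1) := by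
  classical
  set d : X →₀ ℤ := δ (Finsupp.single P 1) - δ (Finsupp.single P₀ 1) with hd
  suffices h : d = 0 by
    rw [hd, sub_eq_zero] at h
    exact h
  apply S37RIG_norm_eq_zero
  by_contra hne
  have hpos : 1 ≤ S37RIG_norm d := Nat.one_le_iff_ne_zero.mpr hne
  set n : ℕ := 2 * c * B + 1 with hn
  set Dn : Divisor K F := (n : ℤ) • Finsupp.single P (1 : ℤ) - (n : ℤ) • Finsupp.single P₀ (1 : ℤ)
    + (c : ℤ) • Finsupp.single P₀ (1 : ℤ) with hDn
  have hdegDn : Divisor.degree Dn = c := by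
    rw [hDn, map_add, map_sub, map_zsmul, map_zsmul, map_zsmul, Divisor.degree_single,
      Divisor.degree_single, hdeg P, hdeg P₀]
    simp
  obtain ⟨f, hf0, hf⟩ := hRI Dn (by rw [hdegDn])
  obtain ⟨Df, hDf, hDfdeg⟩ := HasPrincipalDivisors.exists_divisor (K := K) f hf0
  set E : Divisor K F := Df + Dn with hE
  have hEnonneg : ∀ v, 0 ≤ E v := by
    intro v
    rw [hE, Finsupp.add_apply, hDf v]
    exact hf v
  have hEdeg : Divisor.degree E = c := by
    rw [hE, map_add, hDfdeg, hdegDn, zero_add]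
  have hδDf : δ Df = 0 := hprin Df ⟨f, hf0, hDf⟩
  have hδE : δ E = (n : ℤ) • d + (c : ℤ) • δ (Finsupp.single P₀ 1) := by
    rw [hE, map_add, hδDf, zero_add, hDn, map_add, map_sub, map_zsmul, map_zsmul, map_zsmul, hd,
      smul_sub]
  have hnd : (n : ℤ) • d = δ E - (c : ℤ) • δ (Finsupp.single P₀ 1) := by
    rw [hδE, add_sub_cancel_right]
  have h1 : (S37RIG_norm (δ E) : ℤ) ≤ c * B := by
    have := S37RIG_norm_effective_le hdeg δ B hbdd E hEnonneg
    rwa [hEdeg] at this
  have h2 : S37RIG_norm ((c : ℤ) • δ (Finsupp.single P₀ 1)) ≤ c * B := by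
    rw [S37RIG_norm_zsmul, Int.natAbs_natCast]
    exact Nat.mul_le_mul_left _ (hbdd P₀)
  have h3 : n * S37RIG_norm d ≤ c * B + c * B := by
    have := S37RIG_norm_sub_le (δ E) ((c : ℤ) • δ (Finsupp.single P₀ 1))
    rw [← hnd, S37RIG_norm_zsmul, Int.natAbs_natCast] at this
    have h1' : S37RIG_norm (δ E) ≤ c * B := by exact_mod_cast h1
    omega
  have h4 : n ≤ n * S37RIG_norm d := Nat.le_mul_of_pos_right n hpos
  have : n ≤ c * B + c * B := h4.trans h3
  rw [hn] at this
  have h5 : 2 * c * B = c * B + c * B := by ring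
  omega

/-- Total mass of a finitely supported integer function. -/
def S37RIG_mass : (X →₀ ℤ) →+ ℤ := Finsupp.liftAddHom fun _ => AddMonoidHom.id ℤ

theorem S37RIG_mass_apply (g : X →₀ ℤ) : S37RIG_mass g = g.sum fun _ a => a := by
  simp only [S37RIG_mass, Finsupp.liftAddHom_apply]
  rfl

theorem S37RIG_mass_single (x : X) (a : ℤ) : S37RIG_mass (Finsupp.single x a) = a := by
  simp [S37RIG_mass]

theorem S37RIG_norm_of_nonneg {g : X →₀ ℤ} (hg : ∀ x, 0 ≤ g x) :
    (S37RIG_norm g : ℤ) = S37RIG_mass g := by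
  classical
  rw [S37RIG_mass_apply, S37RIG_norm_eq_sum g g.support subset_rfl]
  unfold Finsupp.sum
  push_cast
  refine Finset.sum_congr rfl fun x _ => ?_
  rw [abs_of_nonneg (hg x)]

theorem S37RIG_eq_zero_of_nonneg_of_mass {g : X →₀ ℤ} (hg : ∀ x, 0 ≤ g x)
    (hm : S37RIG_mass g = 0) : g = 0 := by
  apply S37RIG_norm_eq_zero
  have := S37RIG_norm_of_nonneg hg
  rw [hm] at this
  exact_mod_cast this

/-- **Comparison of two positive "correspondences".** Two additive maps on divisors which send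
places to effective cycles of the same mass `m`, agree on principal divisors, and such that the
second one can be moved away from any given point, are equal. -/
theorem S37RIG_eq_of_agree (hdeg : ∀ v : Place K F, v.deg = 1) (c : ℕ)
    (hRI : ∀ D : Divisor K F, (c : ℤ) ≤ Divisor.degree D →
      ∃ f : F, f ≠ 0 ∧ ∀ v : Place K F, 0 ≤ v.ord f + D v)
    [HasPrincipalDivisors K F] [Nonempty (Place K F)]
    (Φ₁ Φ₂ : Divisor K F →+ (X →₀ ℤ)) (m : ℕ)
    (hprin : ∀ D ∈ Divisor.principal (K := K) (F := F), Φ₁ D = Φ₂ D)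
    (hpos₁ : ∀ (v : Place K F) (x : X), 0 ≤ Φ₁ (Finsupp.single v 1) x)
    (hpos₂ : ∀ (v : Place K F) (x : X), 0 ≤ Φ₂ (Finsupp.single v 1) x)
    (hmass₁ : ∀ v : Place K F, S37RIG_mass (Φ₁ (Finsupp.single v 1)) = m)
    (hmass₂ : ∀ v : Place K F, S37RIG_mass (Φ₂ (Finsupp.single v 1)) = m)
    (hmove : ∀ x : X, ∃ v : Place K F, Φ₂ (Finsupp.single v 1) x = 0) :
    Φ₁ = Φ₂ := by
  classical
  set δ : Divisor K F →+ (X →₀ ℤ) := Φ₁ - Φ₂ with hδ
  have hδapp : ∀ D, δ D = Φ₁ D - Φ₂ D := fun D => rfl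
  have hδprin : ∀ D ∈ Divisor.principal (K := K) (F := F), δ D = 0 := by
    intro D hD
    rw [hδapp, hprin D hD, sub_self]
  have hδbdd : ∀ v : Place K F, S37RIG_norm (δ (Finsupp.single v 1)) ≤ m + m := by
    intro v
    rw [hδapp]
    refine (S37RIG_norm_sub_le _ _).trans ?_
    have h1 := S37RIG_norm_of_nonneg (hpos₁ v)
    have h2 := S37RIG_norm_of_nonneg (hpos₂ v)
    rw [hmass₁ v] at h1
    rw [hmass₂ v] at h2
    have h1' : S37RIG_norm (Φ₁ (Finsupp.single v 1)) = m := by exact_mod_cast h1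
    have h2' : S37RIG_norm (Φ₂ (Finsupp.single v 1)) = m := by exact_mod_cast h2
    rw [h1', h2']
  obtain ⟨P₀⟩ := ‹Nonempty (Place K F)›
  have hconst : ∀ v : Place K F, δ (Finsupp.single v 1) = δ (Finsupp.single P₀ 1) := fun v =>
    S37RIG_rigidity hdeg c hRI δ (m + m) hδprin hδbdd v P₀
  have hδ0 : δ (Finsupp.single P₀ 1) = 0 := by
    apply S37RIG_eq_zero_of_nonneg_of_mass
    · intro x
      obtain ⟨v, hv⟩ := hmove x
      rw [← hconst v, hδapp, Finsupp.sub_apply, hv, sub_zero]
      exact hpos₁ v x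
    · rw [hδapp, map_sub, hmass₁, hmass₂, sub_self]
  have hδall : ∀ D : Divisor K F, δ D = 0 := by
    intro D
    induction D using Finsupp.induction with
    | zero => exact map_zero δ
    | single_add v n D _ _ ih =>
      rw [map_add, ih, add_zero]
      have : (Finsupp.single v n : Divisor K F) = n • Finsupp.single v (1 : ℤ) := by
        rw [Finsupp.smul_single, smul_eq_mul, mul_one]
      rw [this, map_zsmul, hconst v, hδ0, smul_zero]
  refine AddMonoidHom.ext fun D => ?_
  have := hδall D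
  rw [hδapp, sub_eq_zero] at this
  exact this

end

end Fermat.Agent.S37RIG
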