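import Mathlib
import Fermat.Prelude.Def_ModularCurve_ReductionModL
import Fermat.Prelude.Def_EllipticCurve_FrobeniusTrace
import Fermat.Agent.S37_helper8_RIG
import Fermat.Agent.S37_helper21_RI
import Fermat.Agent.S37_helper21_B0c
import Fermat.Agent.S18_helper26_CONST

/-!
# S37, brick B2: the reduction of places commutes with the decomposition group

Everything is abstract in the place map `r`: we only use
`hr : IsPlaceReductionAlong A (residue A) N r` and
`hgen : PrincipalGeneratedByIntegral A (residue A) N`.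

* `S37B2_coeffAut k N : (k ≃+* k) →* SemilinearAut k (modularFunctionFieldFullC k N)`:
  the coefficientwise action of the automorphisms of `k` on the function field in
  characteristic `ℓ`.
* `S37B2_r_smul`: `r (σ • P) = τ • r P` for `σ` in the decomposition group of `A`, `τ` the
  automorphism of the residue field induced by `σ`.
* `S37B2_red_smul`, `S37B2_red_inertia`: the consequences on `Pic⁰`.
-/

set_option autoImplicit false
set_option linter.style.haveILetI false
set_option linter.unusedSectionVars false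

open AlgebraicCurve IntermediateField ModularCurve HahnSeries

noncomputable section

namespace Fermat.Agent.S37_helper21_B2

/-! ### The coefficientwise action on the function field in characteristic `ℓ` -/

section CoeffAut

variable (k : Type*) [Field k] (N : ℕ) [NeZero N]

theorem S37B2_coeffMap_mem (τ : k →+* k) {x : LaurentSeries k}
    (hx : x ∈ modularFunctionFieldFullC k N) :
    coeffMap τ x ∈ modularFunctionFieldFullC k N := by
  have hx' : x ∈ Subfield.closure
      (Set.range (algebraMap k (LaurentSeries k)) ∪ divisorExpansionsC k N) := hx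
  clear hx
  show coeffMap τ x ∈ Subfield.closure
      (Set.range (algebraMap k (LaurentSeries k)) ∪ divisorExpansionsC k N)
  induction hx' using Subfield.closure_induction with
  | mem y hy =>
      rcases hy with ⟨a, rfl⟩ | ⟨d, hd0, hd, rfl⟩
      · rw [coeffMap_algebraMap]
        exact Subfield.subset_closure (Or.inl ⟨_, rfl⟩)
      · haveI := hd0
        rw [coeffMap_qExpand, coeffMap_jqModC]
        exact Subfield.subset_closure (Or.inr ⟨d, hd0, hd, rfl⟩)
  | one => simp
  | add x y _ _ hx hy => simpa using add_mem hx hy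
  | neg x _ hx => simpa using neg_mem hx
  | inv x _ hx => simpa using inv_mem hx
  | mul x y _ _ hx hy => simpa using mul_mem hx hy

/-- The coefficientwise ring automorphism of the function field attached to `τ : k ≃+* k`. -/
def S37B2_coeffRingAut (τ : k ≃+* k) :
    modularFunctionFieldFullC k N ≃+* modularFunctionFieldFullC k N where
  toFun x := ⟨coeffMap (τ : k →+* k) (x : LaurentSeries k), S37B2_coeffMap_mem k N _ x.2⟩
  invFun x := ⟨coeffMap (τ.symm : k →+* k) (x : LaurentSeries k), S37B2_coeffMap_mem k N _ x.2⟩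
  left_inv x := Subtype.ext <| by
    show coeffMap (τ.symm : k →+* k) (coeffMap (τ : k →+* k) (x : LaurentSeries k))
      = (x : LaurentSeries k)
    rw [coeffMap_coeffMap,
      coeffMap_congr (g := RingHom.id k) (RingHom.ext fun a => τ.symm_apply_apply a)
        (x : LaurentSeries k),
      coeffMap_id]
  right_inv x := Subtype.ext <| by
    show coeffMap (τ : k →+* k) (coeffMap (τ.symm : k →+* k) (x : LaurentSeries k))
      = (x : LaurentSeries k)
    rw [coeffMap_coeffMap,
      coeffMap_congr (g := RingHom.id k) (RingHom.ext fun a => τ.apply_symm_apply a)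
        (x : LaurentSeries k),
      coeffMap_id]
  map_mul' x y :=
    Subtype.ext (map_mul (coeffMap (τ : k →+* k)) (x : LaurentSeries k) (y : LaurentSeries k))
  map_add' x y :=
    Subtype.ext (map_add (coeffMap (τ : k →+* k)) (x : LaurentSeries k) (y : LaurentSeries k))

@[simp]
theorem S37B2_coe_coeffRingAut_apply (τ : k ≃+* k) (x : modularFunctionFieldFullC k N) :
    (S37B2_coeffRingAut k N τ x : LaurentSeries k) = coeffMap (τ : k →+* k) (x : LaurentSeries k) :=
  rfl

theorem S37B2_coeffRingAut_algebraMap (τ : k ≃+* k) (a : k) :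
    S37B2_coeffRingAut k N τ (algebraMap k (modularFunctionFieldFullC k N) a)
      = algebraMap k (modularFunctionFieldFullC k N) (τ a) :=
  Subtype.ext (coeffMap_algebraMap (τ : k →+* k) a)

/-- The coefficientwise action of `Aut k` on the function field, as semilinear automorphisms. -/
def S37B2_coeffAut : (k ≃+* k) →* SemilinearAut k (modularFunctionFieldFullC k N) where
  toFun τ := ⟨(S37B2_coeffRingAut k N τ, τ), fun a => S37B2_coeffRingAut_algebraMap k N τ a⟩
  map_one' := by
    refine Subtype.ext (Prod.ext (RingEquiv.ext fun x => Subtype.ext ?_) rfl)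
    show coeffMap ((1 : k ≃+* k) : k →+* k) (x : LaurentSeries k) = (x : LaurentSeries k)
    rw [show ((1 : k ≃+* k) : k →+* k) = RingHom.id k from RingHom.ext fun _ => rfl,
      coeffMap_id]
  map_mul' σ τ := by
    refine Subtype.ext (Prod.ext (RingEquiv.ext fun x => Subtype.ext ?_) rfl)
    show coeffMap ((σ * τ : k ≃+* k) : k →+* k) (x : LaurentSeries k)
      = coeffMap (σ : k →+* k) (coeffMap (τ : k →+* k) (x : LaurentSeries k))
    rw [coeffMap_coeffMap]
    exact coeffMap_congr (RingHom.ext fun _ => rfl) _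

@[simp]
theorem S37B2_toRingAut_coeffAut (τ : k ≃+* k) :
    SemilinearAut.toRingAut (S37B2_coeffAut k N τ) = S37B2_coeffRingAut k N τ :=
  rfl

@[simp]
theorem S37B2_baseAut_coeffAut (τ : k ≃+* k) :
    SemilinearAut.baseAut (S37B2_coeffAut k N τ) = τ :=
  rfl

theorem S37B2_coe_coeffAut_smul (τ : k ≃+* k) (x : modularFunctionFieldFullC k N) :
    ((S37B2_coeffAut k N τ • x : modularFunctionFieldFullC k N) : LaurentSeries k)
      = coeffMap (τ : k →+* k) (x : LaurentSeries k) :=
  rfl

end CoeffAut

/-! ### The action of the decomposition group on `A((q))` -/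

section ActA

local notation "Qb" => AlgebraicClosure ℚ

variable (A : ValuationSubring Qb) (g : A.decompositionSubgroup ℚ)

/-- The automorphism of the residue field induced by an element of the decomposition group. -/
def S37B2_resAut : IsLocalRing.ResidueField A ≃+* IsLocalRing.ResidueField A :=
  MulSemiringAction.toRingAut (A.decompositionSubgroup ℚ) (IsLocalRing.ResidueField A) g

theorem S37B2_resAut_apply (x : IsLocalRing.ResidueField A) : S37B2_resAut A g x = g • x := rfl

theorem S37B2_residue_smul (a : A) :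
    IsLocalRing.residue A (g • a) = S37B2_resAut A g (IsLocalRing.residue A a) := rfl

/-- The coefficientwise action of the decomposition group on `A((q))`. -/
def S37B2_actA : LaurentSeries A →+* LaurentSeries A :=
  coeffMap (MulSemiringAction.toRingHom (A.decompositionSubgroup ℚ) A g)

theorem S37B2_subtype_actA (y : LaurentSeries A) :
    coeffMap A.subtype (S37B2_actA A g y)
      = coeffMap (((g : Qb ≃ₐ[ℚ] Qb)) : Qb →+* Qb) (coeffMap A.subtype y) := by
  rw [S37B2_actA, coeffMap_coeffMap, coeffMap_coeffMap]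
  exact coeffMap_congr (RingHom.ext fun _ => rfl) _

variable {A g} in
theorem S37B2_residue_actA {k : Type*} [Field k] {π : A →+* k} {τ : k ≃+* k}
    (hτ : ∀ a : A, π (g • a) = τ (π a)) (y : LaurentSeries A) :
    coeffMap π (S37B2_actA A g y) = coeffMap (τ : k →+* k) (coeffMap π y) := by
  rw [S37B2_actA, coeffMap_coeffMap, coeffMap_coeffMap]
  exact coeffMap_congr (RingHom.ext fun a => hτ a) _

end ActA

/-! ### Equivariance on integral principal divisors -/

section Main

local notation "Qb" => AlgebraicClosure ℚ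

variable {N : ℕ} [NeZero N] {A : ValuationSubring Qb}
variable {k : Type*} [Field k] {π : A →+* k}
variable {r : Place Qb (modularFunctionFieldBar N) → Place k (modularFunctionFieldFullC k N)}

/-- The semilinear automorphism of the function field over `ℚ̄` attached to `σ`. -/
abbrev S37B2_gal (N : ℕ) [NeZero N] (σ : Qb ≃ₐ[ℚ] Qb) :
    SemilinearAut Qb (modularFunctionFieldBar N) :=
  arithmeticGalois (modularFunctionFieldFull N) σ

theorem S37B2_ord_smul_eq {K F : Type*} [Field K] [Field F] [Algebra K F]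
    (s : SemilinearAut K F) (Q : Place K F) (f : F) : Q.ord (s • f) = (s⁻¹ • Q).ord f := by
  have h := SemilinearAut.ord_smul s (s⁻¹ • Q) f
  rwa [smul_inv_smul] at h

theorem S37B2_coeffMap_subtype_ne_zero {y : LaurentSeries A} (h : coeffMap π y ≠ 0) :
    coeffMap A.subtype y ≠ 0 := by
  intro h0
  apply h
  have hy : y = 0 := by
    ext n
    have := congrArg (fun z => z.coeff n) h0
    simp only [coeffMap_coeff, HahnSeries.coeff_zero] at this
    simpa using this
  rw [hy, map_zero]

theorem S37B2_mapDomain_smul_of_integral (hr : IsPlaceReductionAlong A π N r)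
    (g : A.decompositionSubgroup ℚ) (τ : k ≃+* k) (hτ : ∀ a : A, π (g • a) = τ (π a))
    {D : Divisor Qb (modularFunctionFieldBar N)}
    (hD : D ∈ integralPrincipalDivisors A π N) :
    Finsupp.mapDomain r (S37B2_gal N g • D) = S37B2_coeffAut k N τ • Finsupp.mapDomain r D := by
  obtain ⟨y, hy, hyk, hne, hDy⟩ := hD
  have hy' : coeffMap A.subtype (S37B2_actA A g y) ∈ modularFunctionFieldBar N := by
    rw [S37B2_subtype_actA]
    exact coeffMap_mem_laurentBaseChange _ hy
  have hyk' : coeffMap π (S37B2_actA A g y) ∈ modularFunctionFieldFullC k N := by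
    rw [S37B2_residue_actA hτ]
    exact S37B2_coeffMap_mem _ N _ hyk
  have hne' : coeffMap π (S37B2_actA A g y) ≠ 0 := by
    rw [S37B2_residue_actA hτ]
    intro h
    apply hne
    have h2 := congrArg (coeffMap ((τ.symm : k ≃+* k) : k →+* k)) h
    rw [coeffMap_coeffMap, map_zero,
      coeffMap_congr (g := RingHom.id _) (RingHom.ext fun a => τ.symm_apply_apply a),
      coeffMap_id] at h2
    exact h2
  have e1 : (⟨coeffMap A.subtype (S37B2_actA A g y), hy'⟩ : modularFunctionFieldBar N)
      = S37B2_gal N g • (⟨coeffMap A.subtype y, hy⟩ : modularFunctionFieldBar N) :=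
    Subtype.ext (S37B2_subtype_actA A g y)
  have e2 : (⟨coeffMap π (S37B2_actA A g y), hyk'⟩ : modularFunctionFieldFullC k N)
      = S37B2_coeffAut k N τ • (⟨coeffMap π y, hyk⟩ : modularFunctionFieldFullC k N) :=
    Subtype.ext (S37B2_residue_actA hτ y)
  have hD' : ∀ P, (S37B2_gal N g • D) P
      = P.ord (⟨coeffMap A.subtype (S37B2_actA A g y), hy'⟩ : modularFunctionFieldBar N) := by
    intro P
    rw [SemilinearAut.divisor_smul_apply, hDy, e1, S37B2_ord_smul_eq]
  ext Q
  rw [hr.2 _ hy' hyk' hne' _ hD' Q, SemilinearAut.divisor_smul_apply,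
    hr.2 y hy hyk hne D hDy, e2, S37B2_ord_smul_eq]

theorem S37B2_mapDomain_smul_of_principal (hr : IsPlaceReductionAlong A π N r)
    (hgen : PrincipalGeneratedByIntegral A π N)
    (g : A.decompositionSubgroup ℚ) (τ : k ≃+* k) (hτ : ∀ a : A, π (g • a) = τ (π a))
    {D : Divisor Qb (modularFunctionFieldBar N)}
    (hD : D ∈ Divisor.principal (K := Qb) (F := modularFunctionFieldBar N)) :
    Finsupp.mapDomain r (S37B2_gal N g • D) = S37B2_coeffAut k N τ • Finsupp.mapDomain r D := by
  have hD' := hgen hD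
  clear hD
  induction hD' using AddSubgroup.closure_induction with
  | mem E hE => exact S37B2_mapDomain_smul_of_integral hr g τ hτ hE
  | zero => simp
  | add E E' _ _ hE hE' =>
    rw [smul_add, Finsupp.mapDomain_add, hE, hE', Finsupp.mapDomain_add, smul_add]
  | neg E _ hE =>
    have h1 : ∀ X : Divisor Qb (modularFunctionFieldBar N),
        Finsupp.mapDomain r (-X) = -Finsupp.mapDomain r X := fun X => by
      rw [← Finsupp.mapDomain.addMonoidHom_apply, map_neg, Finsupp.mapDomain.addMonoidHom_apply]
    rw [smul_neg, h1, h1, hE, smul_neg]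

/-! ### Values of `r` -/

/-- Every zero or pole of the reduction of an integral function is a value of `r`. -/
theorem S37B2_exists_of_ord_ne_zero (hr : IsPlaceReductionAlong A π N r)
    (y : LaurentSeries A) (hy : coeffMap A.subtype y ∈ modularFunctionFieldBar N)
    (hyk : coeffMap π y ∈ modularFunctionFieldFullC k N)
    (Q : Place k (modularFunctionFieldFullC k N))
    (hQ : Q.ord (⟨coeffMap π y, hyk⟩ : modularFunctionFieldFullC k N) ≠ 0) :
    ∃ P, r P = Q := by
  have hne : coeffMap π y ≠ 0 := by
    intro h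
    apply hQ
    have : (⟨coeffMap π y, hyk⟩ : modularFunctionFieldFullC k N) = 0 := Subtype.ext h
    rw [this, Place.ord_zero]
  have hneL : (⟨coeffMap A.subtype y, hy⟩ : modularFunctionFieldBar N) ≠ 0 := fun h =>
    S37B2_coeffMap_subtype_ne_zero hne (congrArg Subtype.val h)
  haveI := Fermat.Agent.S37_helper21_B0c.S37B0_hasPrincipalDivisors N
  obtain ⟨D, hD, -⟩ := HasPrincipalDivisors.exists_divisor (K := Qb) _ hneL
  by_contra hcon
  apply hQ
  rw [← hr.2 y hy hyk hne D hD Q]
  exact Finsupp.mapDomain_of_notMem_range D Q (fun ⟨P, hP⟩ => hcon ⟨P, hP⟩)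

/-- `j` has an `A`-integral `q`-expansion lying in the function field. -/
theorem S37B2_jA_mem (N : ℕ) [NeZero N] (A : ValuationSubring Qb) :
    coeffMap A.subtype (jqModC A) ∈ modularFunctionFieldBar N := by
  rw [coeffMap_jqModC, ← coeffMap_jqModC (algebraMap ℚ Qb)]
  refine coeffEmb_mem_laurentBaseChange Qb ?_
  have h := jqd_mem_full N (one_dvd N)
  rwa [qExpand_one_apply] at h

theorem S37B2_jA_residue (π : A →+* k) : coeffMap π (jqModC A) = jqModC k :=
  coeffMap_jqModC π

/-- `r` takes at least two values: a zero and a pole of `j`. -/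
theorem S37B2_exists_ne (hr : IsPlaceReductionAlong A π N r) : ∃ P₁ P₂, r P₁ ≠ r P₂ := by
  have hjk : coeffMap π (jqModC A) ∈ modularFunctionFieldFullC k N := by
    rw [S37B2_jA_residue]
    exact jqModC_mem_full k N
  have hjeq : (⟨coeffMap π (jqModC A), hjk⟩ : modularFunctionFieldFullC k N)
      = Fermat.Agent.S18_helper26_CONST.S18P15_jbar k N := Subtype.ext (S37B2_jA_residue π)
  have htr := Fermat.Agent.S18_helper26_CONST.S18P15_transcendental_jbar k N
  haveI := Fermat.Agent.S18_helper26_CONST.S18P15_finiteDimensional k N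
  haveI := Fermat.Agent.S24_helper6_A2.finiteDimensional_adjoin_inv (K := k)
    (Fermat.Agent.S18_helper26_CONST.S18P15_jbar k N)
  obtain ⟨Q₀, hQ₀⟩ := Fermat.Agent.S18_helper26_PLACE.S18P15_exists_place_ord_pos _ htr
  obtain ⟨Q₁, hQ₁⟩ := Fermat.Agent.S18_helper26_PLACE.S18P15_exists_place_ord_pos _
    (Fermat.Agent.S24_helper6_A2.transcendental_inv _ htr)
  rw [Place.ord_inv] at hQ₁
  obtain ⟨P₀, hP₀⟩ := S37B2_exists_of_ord_ne_zero hr (jqModC A) (S37B2_jA_mem N A) hjk Q₀
    (by rw [hjeq]; omega)
  obtain ⟨P₁, hP₁⟩ := S37B2_exists_of_ord_ne_zero hr (jqModC A) (S37B2_jA_mem N A) hjk Q₁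
    (by rw [hjeq]; omega)
  refine ⟨P₀, P₁, ?_⟩
  rw [hP₀, hP₁]
  rintro rfl
  omega

/-! ### The main theorem: `r` commutes with the decomposition group -/

theorem S37B2_nonempty_place (N : ℕ) [NeZero N] :
    Nonempty (Place Qb (modularFunctionFieldBar N)) := by
  haveI := (Fermat.Agent.S24_helper23_DEG.DEG N).1
  obtain ⟨P, -⟩ := Fermat.Agent.S18_helper26_PLACE.S18P15_exists_place_ord_pos _
    (Fermat.Agent.S24_helper23_GEN.TR N)
  exact ⟨P⟩

/-- Riemann's inequality for the function field over `ℚ̄`, with a natural number bound. -/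
theorem S37B2_exists_effective (N : ℕ) [NeZero N] :
    ∃ c : ℕ, ∀ D : Divisor Qb (modularFunctionFieldBar N), (c : ℤ) ≤ Divisor.degree D →
      ∃ f : modularFunctionFieldBar N, f ≠ 0 ∧
        ∀ v : Place Qb (modularFunctionFieldBar N), 0 ≤ v.ord f + D v := by
  haveI := (Fermat.Agent.S24_helper23_DEG.DEG N).1
  obtain ⟨c, hc⟩ := Fermat.Agent.S37_helper21_RI.S37RI_exists_effective
    (Fermat.Agent.S24.jElt N) (Fermat.Agent.S24_helper23_GEN.TR N)
  exact ⟨c.toNat, fun D hD => hc D (le_trans (Int.self_le_toNat c) hD)⟩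

theorem S37B2_deg_eq_one (N : ℕ) [NeZero N] (v : Place Qb (modularFunctionFieldBar N)) :
    v.deg = 1 := by
  haveI := (Fermat.Agent.S24_helper23_DEG.DEG N).1
  exact Fermat.Agent.S24_helper6_A2Shapes.deg_eq_one (Fermat.Agent.S24.jElt N) v

/-- **B2.** The reduction of places commutes with the decomposition group. -/
theorem S37B2_r_smul_gen (hr : IsPlaceReductionAlong A π N r)
    (hgen : PrincipalGeneratedByIntegral A π N)
    (g : A.decompositionSubgroup ℚ) (τ : k ≃+* k) (hτ : ∀ a : A, π (g • a) = τ (π a))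
    (P : Place Qb (modularFunctionFieldBar N)) :
    r (S37B2_gal N g • P) = S37B2_coeffAut k N τ • r P := by
  classical
  obtain ⟨c, hRI⟩ := S37B2_exists_effective N
  haveI := Fermat.Agent.S37_helper21_B0c.S37B0_hasPrincipalDivisors N
  haveI := S37B2_nonempty_place N
  set s := S37B2_coeffAut k N τ with hs
  set σ' := S37B2_gal N g with hσ'
  let Φ₁ : Divisor Qb (modularFunctionFieldBar N) →+ Divisor k (modularFunctionFieldFullC k N) :=
    Finsupp.mapDomain.addMonoidHom r
  let Φ₂ : Divisor Qb (modularFunctionFieldBar N) →+ Divisor k (modularFunctionFieldFullC k N) :=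
    (DistribSMul.toAddMonoidHom (Divisor k (modularFunctionFieldFullC k N)) s⁻¹).comp
      (Φ₁.comp (DistribSMul.toAddMonoidHom (Divisor Qb (modularFunctionFieldBar N)) σ'))
  have hΦ₁ : ∀ v, Φ₁ (Finsupp.single v 1) = Finsupp.single (r v) 1 := fun v =>
    Finsupp.mapDomain_single
  have hΦ₂ : ∀ v, Φ₂ (Finsupp.single v 1) = Finsupp.single (s⁻¹ • r (σ' • v)) 1 := fun v => by
    show s⁻¹ • Finsupp.mapDomain r (σ' • Finsupp.single v (1 : ℤ)) = _
    rw [SemilinearAut.smul_single, Finsupp.mapDomain_single, SemilinearAut.smul_single]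
  have hpos : ∀ (Q₀ Q : Place k (modularFunctionFieldFullC k N)),
      0 ≤ (Finsupp.single Q₀ (1 : ℤ)) Q := fun Q₀ Q => by
    rw [Finsupp.single_apply]
    split_ifs <;> norm_num
  have key : Φ₁ = Φ₂ := by
    refine Fermat.Agent.S37RIG.S37RIG_eq_of_agree (S37B2_deg_eq_one N) c hRI Φ₁ Φ₂ 1 ?_ ?_ ?_ ?_ ?_
      ?_
    · intro D hD
      show Finsupp.mapDomain r D = s⁻¹ • Finsupp.mapDomain r (σ' • D)
      rw [S37B2_mapDomain_smul_of_principal hr hgen g τ hτ hD, inv_smul_smul]
    · intro v Q
      rw [hΦ₁]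
      exact hpos _ _
    · intro v Q
      rw [hΦ₂]
      exact hpos _ _
    · intro v
      rw [hΦ₁, Fermat.Agent.S37RIG.S37RIG_mass_single, Nat.cast_one]
    · intro v
      rw [hΦ₂, Fermat.Agent.S37RIG.S37RIG_mass_single, Nat.cast_one]
    · intro Q
      obtain ⟨P₁, P₂, hne⟩ := S37B2_exists_ne hr
      by_cases h1 : s⁻¹ • r P₁ = Q
      · refine ⟨σ'⁻¹ • P₂, ?_⟩
        rw [hΦ₂, smul_inv_smul, Finsupp.single_apply, if_neg]
        rintro h2
        apply hne
        have := h1.trans h2.symm
        exact MulAction.injective s⁻¹ this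
      · refine ⟨σ'⁻¹ • P₁, ?_⟩
        rw [hΦ₂, smul_inv_smul, Finsupp.single_apply, if_neg h1]
  have h1 := congrArg (fun Φ => Φ (Finsupp.single P (1 : ℤ))) key
  simp only [hΦ₁, hΦ₂] at h1
  have h2 := Finsupp.single_left_injective (one_ne_zero (α := ℤ)) h1
  rw [h2, smul_inv_smul]

/-- **B2 on divisors.** -/
theorem S37B2_mapDomain_smul_gen (hr : IsPlaceReductionAlong A π N r)
    (hgen : PrincipalGeneratedByIntegral A π N)
    (g : A.decompositionSubgroup ℚ) (τ : k ≃+* k) (hτ : ∀ a : A, π (g • a) = τ (π a))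
    (D : Divisor Qb (modularFunctionFieldBar N)) :
    Finsupp.mapDomain r (S37B2_gal N g • D) = S37B2_coeffAut k N τ • Finsupp.mapDomain r D := by
  induction D using Finsupp.induction with
  | zero => simp
  | single_add P n D _ _ ih =>
    rw [smul_add, Finsupp.mapDomain_add, Finsupp.mapDomain_add, smul_add, ih,
      SemilinearAut.smul_single, Finsupp.mapDomain_single, Finsupp.mapDomain_single,
      SemilinearAut.smul_single, S37B2_r_smul_gen hr hgen g τ hτ P]

/-- **B2 on `Pic⁰`.** -/
theorem S37B2_red_smul_gen (hr : IsPlaceReductionAlong A π N r)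
    (hgen : PrincipalGeneratedByIntegral A π N)
    (g : A.decompositionSubgroup ℚ) (τ : k ≃+* k) (hτ : ∀ a : A, π (g • a) = τ (π a))
    (x : JZero N) :
    reductionPic0Along r hr hgen ((g : Qb ≃ₐ[ℚ] Qb) • x)
      = S37B2_coeffAut k N τ • reductionPic0Along r hr hgen x := by
  obtain ⟨D, rfl⟩ := Pic0.mk_surjective x
  rw [galois_smul_pic0_def, SemilinearAut.pic0_smul_mk, reductionPic0Along_mk,
    reductionPic0Along_mk, SemilinearAut.pic0_smul_mk]
  refine congrArg Pic0.mk (Subtype.ext ?_)
  exact S37B2_mapDomain_smul_gen hr hgen g τ hτ D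

end Main

/-! ### The case of the residue field of `A` -/

section Residue

set_option synthInstance.maxHeartbeats 400000

local notation "Qb" => AlgebraicClosure ℚ

variable {N : ℕ} [NeZero N] {A : ValuationSubring Qb}
variable {r : Place Qb (modularFunctionFieldBar N) →
  Place (IsLocalRing.ResidueField A) (modularFunctionFieldFullC (IsLocalRing.ResidueField A) N)}

/-- **B2**, places: `r (σ P) = σ̄ (r P)` for `σ` in the decomposition group. -/
theorem S37B2_r_smul (hr : IsPlaceReductionAlong A (IsLocalRing.residue A) N r)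
    (hgen : PrincipalGeneratedByIntegral A (IsLocalRing.residue A) N)
    (σ : Qb ≃ₐ[ℚ] Qb) (hσ : σ ∈ A.decompositionSubgroup ℚ)
    (P : Place Qb (modularFunctionFieldBar N)) :
    r (arithmeticGalois (modularFunctionFieldFull N) σ • P)
      = S37B2_coeffAut (IsLocalRing.ResidueField A) N (S37B2_resAut A ⟨σ, hσ⟩) • r P :=
  S37B2_r_smul_gen hr hgen ⟨σ, hσ⟩ _ (S37B2_residue_smul A _) P

/-- **B2**, `Pic⁰`: `red (σ x) = σ̄ (red x)` for `σ` in the decomposition group. -/
theorem S37B2_red_smul (hr : IsPlaceReductionAlong A (IsLocalRing.residue A) N r)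
    (hgen : PrincipalGeneratedByIntegral A (IsLocalRing.residue A) N)
    (σ : Qb ≃ₐ[ℚ] Qb) (hσ : σ ∈ A.decompositionSubgroup ℚ) (x : JZero N) :
    reductionPic0Along r hr hgen (σ • x)
      = S37B2_coeffAut (IsLocalRing.ResidueField A) N (S37B2_resAut A ⟨σ, hσ⟩) •
        reductionPic0Along r hr hgen x :=
  S37B2_red_smul_gen hr hgen ⟨σ, hσ⟩ _ (S37B2_residue_smul A _) x

/-- **B2**, inertia: `red (σ x) = red x` for `σ` in the inertia group. -/
theorem S37B2_red_inertia (hr : IsPlaceReductionAlong A (IsLocalRing.residue A) N r)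
    (hgen : PrincipalGeneratedByIntegral A (IsLocalRing.residue A) N)
    (σ : Qb ≃ₐ[ℚ] Qb) (hσ : σ ∈ A.inertiaSubgroupIn ℚ) (x : JZero N) :
    reductionPic0Along r hr hgen (σ • x) = reductionPic0Along r hr hgen x := by
  obtain ⟨g, hg, rfl⟩ := hσ
  have h1 : S37B2_resAut A g = 1 := hg
  have h2 := S37B2_red_smul_gen hr hgen g (S37B2_resAut A g) (S37B2_residue_smul A g) x
  rw [h1, map_one, one_smul] at h2
  exact h2

/-- **B2**, Frobenius: `red (σ x) = Frob (red x)` for a Frobenius element `σ` at `A`, where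
`Frob` is the coefficientwise action of any automorphism `τ` of the residue field with
`τ x = x ^ ℓ`. -/
theorem S37B2_red_frobenius (hr : IsPlaceReductionAlong A (IsLocalRing.residue A) N r)
    (hgen : PrincipalGeneratedByIntegral A (IsLocalRing.residue A) N)
    (σ : Qb ≃ₐ[ℚ] Qb) (ℓ : ℕ) (hσ : A.IsFrobeniusAt σ ℓ)
    (τ : IsLocalRing.ResidueField A ≃+* IsLocalRing.ResidueField A)
    (hτ : ∀ x, τ x = x ^ ℓ) (x : JZero N) :
    reductionPic0Along r hr hgen (σ • x)
      = S37B2_coeffAut (IsLocalRing.ResidueField A) N τ • reductionPic0Along r hr hgen x := by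
  refine S37B2_red_smul_gen hr hgen ⟨σ, hσ.mem_decompositionSubgroup⟩ τ (fun a => ?_) x
  rw [hτ, ← hσ.smul_residue_eq]
  rfl

/-- The same on places. -/
theorem S37B2_r_frobenius (hr : IsPlaceReductionAlong A (IsLocalRing.residue A) N r)
    (hgen : PrincipalGeneratedByIntegral A (IsLocalRing.residue A) N)
    (σ : Qb ≃ₐ[ℚ] Qb) (ℓ : ℕ) (hσ : A.IsFrobeniusAt σ ℓ)
    (τ : IsLocalRing.ResidueField A ≃+* IsLocalRing.ResidueField A)
    (hτ : ∀ x, τ x = x ^ ℓ) (P : Place Qb (modularFunctionFieldBar N)) :
    r (arithmeticGalois (modularFunctionFieldFull N) σ • P)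
      = S37B2_coeffAut (IsLocalRing.ResidueField A) N τ • r P := by
  refine S37B2_r_smul_gen hr hgen ⟨σ, hσ.mem_decompositionSubgroup⟩ τ (fun a => ?_) P
  rw [hτ, ← hσ.smul_residue_eq]
  rfl

end Residue

end Fermat.Agent.S37_helper21_B2

end
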