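import Fermat.Prelude.Def_ModularCurve_HeckeModule
import Fermat.Agent.S37_helper21_B2
import Fermat.Agent.S18_helper25_GLUE

/-!
# Project G, piece G11(iv): open stabilisers on `J₀(N)(ℚ̄)`

Every divisor class of `X₀(N)` over `ℚ̄` is fixed by the pointwise fixator of a finite extension
of `ℚ`.

* every place `P` is the unique pole of some function `f` (Riemann's inequality);
* `f` is defined over a finite extension `L` of `ℚ`, so it is fixed by every `σ` fixing `L`;
* hence `σ P` is a pole of `f`, i.e. `σ P = P`.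
-/

set_option autoImplicit false
set_option linter.unusedSectionVars false
set_option linter.style.haveILetI false

open ModularCurve AlgebraicCurve IntermediateField

namespace Fermat.Agent.G_helper12_OPENSTAB

local notation "Qb" => AlgebraicClosure ℚ
local notation "GQ" => (AlgebraicClosure ℚ ≃ₐ[ℚ] AlgebraicClosure ℚ)

variable (N : ℕ) [NeZero N]

/-- **Step A**: every place is the unique pole of some function. -/
theorem PG_OPENSTAB_exists_unique_pole (P : Place Qb (modularFunctionFieldBar N)) :
    ∃ f : modularFunctionFieldBar N, P.ord f < 0 ∧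
      ∀ v : Place Qb (modularFunctionFieldBar N), v ≠ P → 0 ≤ v.ord f := by
  classical
  haveI := (Fermat.Agent.S24_helper23_DEG.DEG N).1
  obtain ⟨γ, hγ⟩ := Fermat.Agent.S37_helper21_RI.S37RI_riemann_inequality
    (Fermat.Agent.S24.jElt N) (Fermat.Agent.S24_helper23_GEN.TR N)
  set n : ℕ := (γ + 2).toNat with hn
  set D : Divisor Qb (modularFunctionFieldBar N) := Finsupp.single P (n : ℤ) with hD
  have hdeg : Divisor.degree D = (n : ℤ) := by
    rw [hD, Divisor.degree_single, Fermat.Agent.S37_helper21_B2.S37B2_deg_eq_one]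
    simp
  have h2 : (2 : ℤ) ≤ (Module.finrank Qb (Fermat.Agent.S37_helper21_RI.S37RI_LSpace D) : ℤ) := by
    have h1 : Divisor.degree D - γ ≤
        (Module.finrank Qb (Fermat.Agent.S37_helper21_RI.S37RI_LSpace D) : ℤ) := hγ D
    rw [hdeg] at h1
    have h3 : γ + 2 ≤ (n : ℤ) := Int.self_le_toNat _
    omega
  have hnot : ¬ Fermat.Agent.S37_helper21_RI.S37RI_LSpace D ≤
      Submodule.span Qb {(1 : modularFunctionFieldBar N)} := by
    intro hle
    have h3 := Submodule.finrank_mono hle
    have h4 : Module.finrank Qb (Submodule.span Qb {(1 : modularFunctionFieldBar N)}) ≤ 1 := by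
      have := finrank_span_le_card (R := Qb) ({(1 : modularFunctionFieldBar N)} : Set _)
      simpa using this
    have h5 : (Module.finrank Qb (Fermat.Agent.S37_helper21_RI.S37RI_LSpace D) : ℤ) ≤ 1 := by
      exact_mod_cast le_trans h3 h4
    omega
  obtain ⟨f, hfD, hf1⟩ := Set.not_subset.mp hnot
  have hf0 : f ≠ 0 := by
    rintro rfl
    exact hf1 (Submodule.zero_mem _)
  have hord := (Fermat.Agent.S37_helper21_RI.S37RI_mem_LSpace_iff_ord hf0).mp hfD
  have hv : ∀ v : Place Qb (modularFunctionFieldBar N), v ≠ P → 0 ≤ v.ord f := by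
    intro v hvP
    have := hord v
    rw [hD, Finsupp.single_apply, if_neg (Ne.symm hvP), add_zero] at this
    exact this
  refine ⟨f, ?_, hv⟩
  by_contra hP
  apply hf1
  apply Fermat.Agent.S37_helper21_RI.S37RI_LSpace_zero_le
    (Fermat.Agent.S24.jElt N) (Fermat.Agent.S24_helper23_GEN.TR N)
  rw [Fermat.Agent.S37_helper21_RI.S37RI_mem_LSpace_iff_ord hf0]
  intro v
  rw [Finsupp.zero_apply, add_zero]
  by_cases hvP : v = P
  · rw [hvP]
    omega
  · exact hv v hvP

/-- **Step B**: every function is fixed by the pointwise fixator of a finite extension of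
`ℚ`. -/
theorem PG_OPENSTAB_exists_field (f : modularFunctionFieldBar N) :
    ∃ L : IntermediateField ℚ Qb, FiniteDimensional ℚ L ∧
      ∀ σ : GQ, (∀ a ∈ L, σ a = a) →
        arithmeticGalois (modularFunctionFieldFull N) σ • f = f := by
  have hf : (f : LaurentSeries Qb) ∈ modularFunctionFieldFullC Qb N := by
    rw [← Fermat.Agent.S18_helper25_GLUE.S18G_bar_eq]
    exact f.2
  obtain ⟨S, hS⟩ := Fermat.Agent.S18_helper25_GLUE.S18G_exists_finset (k₀ := ℚ) N hf
  haveI : Algebra.IsAlgebraic ℚ Qb := AlgebraicClosure.isAlgebraic ℚ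
  refine ⟨IntermediateField.adjoin ℚ (S : Set Qb), ?_, ?_⟩
  · exact IntermediateField.finiteDimensional_adjoin
      (fun x _ => Algebra.IsIntegral.isIntegral x)
  · intro σ hσ
    obtain ⟨w, -, hw⟩ := hS (IntermediateField.adjoin ℚ (S : Set Qb))
      (fun s hs => IntermediateField.subset_adjoin ℚ _ hs)
    apply Subtype.ext
    rw [coe_arithmeticGalois_smul, ← hw, coeffMap_coeffMap]
    apply coeffMap_congr
    ext a
    exact hσ a a.2

/-- **Step C**: every place is fixed by the pointwise fixator of a finite extension of `ℚ`. -/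
theorem PG_OPENSTAB_place (P : Place Qb (modularFunctionFieldBar N)) :
    ∃ L : IntermediateField ℚ Qb, FiniteDimensional ℚ L ∧
      ∀ σ : GQ, (∀ a ∈ L, σ a = a) →
        arithmeticGalois (modularFunctionFieldFull N) σ • P = P := by
  obtain ⟨f, hfP, hfv⟩ := PG_OPENSTAB_exists_unique_pole N P
  obtain ⟨L, hL, hLσ⟩ := PG_OPENSTAB_exists_field N f
  refine ⟨L, hL, fun σ hσ => ?_⟩
  by_contra hne
  have h1 := hfv _ hne
  have h2 := SemilinearAut.ord_smul (arithmeticGalois (modularFunctionFieldFull N) σ) P f
  rw [hLσ σ hσ] at h2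
  omega

/-- **G11(iv)**: open stabilisers on `J₀(N)(ℚ̄)`. -/
theorem PG11_open_stabilizer (N : ℕ) [NeZero N] (x : JZero N) :
    ∃ L : IntermediateField ℚ Qb, FiniteDimensional ℚ L ∧
      ∀ σ : GQ, (∀ a ∈ L, σ a = a) → σ • x = x := by
  classical
  obtain ⟨D, rfl⟩ := Pic0.mk_surjective x
  choose L hLfin hL using PG_OPENSTAB_place N
  refine ⟨⨆ P ∈ (D : Divisor Qb (modularFunctionFieldBar N)).support, L P, ?_, ?_⟩
  · exact IntermediateField.finiteDimensional_iSup_of_finset' (fun P _ => hLfin P)
  · intro σ hσ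
    rw [galois_smul_pic0_def, SemilinearAut.pic0_smul_mk]
    congr 1
    apply Subtype.ext
    rw [SemilinearAut.coe_degZeroSMulHom, SemilinearAut.divisor_smul_def]
    have h1 : Finsupp.mapDomain
        (fun P => arithmeticGalois (modularFunctionFieldFull N) σ • P)
        (D : Divisor Qb (modularFunctionFieldBar N)) =
        Finsupp.mapDomain id (D : Divisor Qb (modularFunctionFieldBar N)) := by
      apply Finsupp.mapDomain_congr
      intro P hP
      apply hL P σ
      intro a ha
      apply hσ
      exact (le_iSup₂ (f := fun P (_ : P ∈ (D : Divisor Qb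
        (modularFunctionFieldBar N)).support) => L P) P hP) ha
    rw [h1, Finsupp.mapDomain_id]

end Fermat.Agent.G_helper12_OPENSTAB
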