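import Mathlib

set_option autoImplicit false

open Polynomial WeierstrassCurve WeierstrassCurve.Affine

namespace Fermat.Agent.S13_helper19_DPEXIST

section TwoTorsion

variable {K : Type*} [Field K] (W : WeierstrassCurve K)

theorem Ψ₂Sq_eval (e : K) :
    W.Ψ₂Sq.eval e = 4 * e ^ 3 + W.b₂ * e ^ 2 + 2 * W.b₄ * e + W.b₆ := by
  simp [Ψ₂Sq]

theorem Ψ₃_eval (e : K) :
    W.Ψ₃.eval e = 3 * e ^ 4 + W.b₂ * e ^ 3 + 3 * W.b₄ * e ^ 2 + 3 * W.b₆ * e + W.b₈ := by
  simp [Ψ₃]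

/-- `16 Ψ₃ = 2 h h'' - h'²` for `h = Ψ₂Sq`. -/
theorem sixteen_Ψ₃_eval (e : K) :
    16 * W.Ψ₃.eval e = 2 * W.Ψ₂Sq.eval e * (24 * e + 2 * W.b₂)
      - (12 * e ^ 2 + 2 * W.b₂ * e + 2 * W.b₄) ^ 2 := by
  rw [Ψ₂Sq_eval, Ψ₃_eval]
  linear_combination 4 * W.b_relation

/-- a common root of `h = Ψ₂Sq` and `h'` forces `Δ = 0` -/
theorem Δ_eq_zero_of_double_root (h2 : (2 : K) ≠ 0) (h3 : (3 : K) ≠ 0) (e : K)
    (he : W.Ψ₂Sq.eval e = 0)
    (he' : 12 * e ^ 2 + 2 * W.b₂ * e + 2 * W.b₄ = 0) : W.Δ = 0 := by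
  rw [Ψ₂Sq_eval] at he
  have hd := W.twoTorsionPolynomial_discr
  simp only [twoTorsionPolynomial, Cubic.discr] at hd
  -- a = 4, b = b₂, c = 2 b₄, d = b₆
  have key : (-9 * 4 * 16 : K) * W.Δ = 0 := by
    have : (-9 * 4 : K) * (16 * W.Δ) =
        -9 * 4 * (3 * 4 * (6 * 4 * (2 * W.b₄) - 2 * W.b₂ ^ 2) * e
          + 2 * W.b₂ * (6 * 4 * (2 * W.b₄) - 2 * W.b₂ ^ 2)
          - 3 * 4 * (9 * 4 * W.b₆ - W.b₂ * (2 * W.b₄)))
          * (4 * e ^ 3 + W.b₂ * e ^ 2 + 2 * W.b₄ * e + W.b₆)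
        + ((6 * 4 * (2 * W.b₄) - 2 * W.b₂ ^ 2) ^ 2
          + (3 * 4 * (6 * 4 * (2 * W.b₄) - 2 * W.b₂ ^ 2) * e
          + 2 * W.b₂ * (6 * 4 * (2 * W.b₄) - 2 * W.b₂ ^ 2)
          - 3 * 4 * (9 * 4 * W.b₆ - W.b₂ * (2 * W.b₄))) * (3 * 4 * e + W.b₂))
          * (12 * e ^ 2 + 2 * W.b₂ * e + 2 * W.b₄) := by
      rw [← hd]
      ring
    rw [he, he'] at this
    linear_combination this
  have h16 : (-9 * 4 * 16 : K) ≠ 0 := by
    have : (-9 * 4 * 16 : K) = -(3 ^ 2 * 2 ^ 6) := by norm_num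
    rw [this]
    exact neg_ne_zero.mpr (mul_ne_zero (pow_ne_zero _ h3) (pow_ne_zero _ h2))
  exact (mul_eq_zero.mp key).resolve_left h16

theorem Ψ₃_eval_ne_zero (hΔ : W.Δ ≠ 0) (h2 : (2 : K) ≠ 0) (h3 : (3 : K) ≠ 0) {e : K}
    (he : W.Ψ₂Sq.eval e = 0) : W.Ψ₃.eval e ≠ 0 := by
  intro h0
  have h := sixteen_Ψ₃_eval W e
  rw [h0, he] at h
  have h' : (12 * e ^ 2 + 2 * W.b₂ * e + 2 * W.b₄) ^ 2 = 0 := by linear_combination h
  exact hΔ (Δ_eq_zero_of_double_root W h2 h3 e he (pow_eq_zero_iff (two_ne_zero) |>.mp h'))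

/-- 2-torsion `x`-coordinates are never roots of the odd division polynomials -/
theorem preΨ'_odd_eval_ne_zero (hΔ : W.Δ ≠ 0) (h2 : (2 : K) ≠ 0) (h3 : (3 : K) ≠ 0) {e : K}
    (he : W.Ψ₂Sq.eval e = 0) : ∀ n : ℕ, Odd n → (W.preΨ' n).eval e ≠ 0 := by
  intro n
  induction n using Nat.strong_induction_on with
  | _ n ih =>
    intro hn
    obtain ⟨k, rfl⟩ := hn
    match k with
    | 0 => simp
    | 1 =>
      show (W.preΨ' 3).eval e ≠ 0
      rw [preΨ'_three]
      exact Ψ₃_eval_ne_zero W hΔ h2 h3 he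
    | m + 2 =>
      have e1 : 2 * (m + 2) + 1 = 2 * (m + 2) + 1 := rfl
      rw [preΨ'_odd]
      by_cases hm : Even m
      · rw [if_pos hm, if_pos hm]
        simp only [eval_sub, eval_mul, eval_pow, he, mul_one]
        have h1 := ih (m + 1) (by omega) (Even.add_one hm)
        have h2' := ih (m + 3) (by omega) (by
          have : m + 3 = (m + 2) + 1 := rfl
          rw [this]; exact Even.add_one (by simpa [Nat.even_add] using hm))
        simp only [ne_eq, OfNat.ofNat_ne_zero, not_false_eq_true, zero_pow, mul_zero, zero_sub,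
          neg_eq_zero, mul_eq_zero, pow_eq_zero_iff, not_or]
        exact ⟨h1, h2'⟩
      · rw [if_neg hm, if_neg hm]
        simp only [eval_sub, eval_mul, eval_pow, he, mul_one]
        have hodd : Odd m := Nat.not_even_iff_odd.mp hm
        have h1 := ih (m + 4) (by omega) (by
          obtain ⟨j, rfl⟩ := hodd; exact ⟨j + 2, by ring⟩)
        have h2' := ih (m + 2) (by omega) (by
          obtain ⟨j, rfl⟩ := hodd; exact ⟨j + 1, by ring⟩)
        simp only [ne_eq, OfNat.ofNat_ne_zero, not_false_eq_true, zero_pow, mul_zero, sub_zero,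
          mul_eq_zero, pow_eq_zero_iff, not_or]
        exact ⟨h1, h2'⟩

end TwoTorsion

section Generic

variable {K : Type*} [Field K] [IsAlgClosed K] [CharZero K]

omit [CharZero K] in
/-- a polynomial of degree at least two all of whose roots are simple has two distinct roots -/
theorem exists_two_roots_of_wronskian {h : K[X]} (hdeg : 2 ≤ h.natDegree)
    (hsimple : ∀ x, h.IsRoot x → (derivative h).eval x ≠ 0) :
    ∃ x₁ x₂ : K, x₁ ≠ x₂ ∧ h.IsRoot x₁ ∧ h.IsRoot x₂ := by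
  have hh0 : h ≠ 0 := by
    rintro rfl
    simp at hdeg
  obtain ⟨x₁, hx₁⟩ := IsAlgClosed.exists_root h (by
    rw [degree_eq_natDegree hh0]
    intro hd
    have : h.natDegree = 0 := by exact_mod_cast hd
    omega)
  obtain ⟨q, hq⟩ := dvd_iff_isRoot.mpr hx₁
  have hq0 : q ≠ 0 := by
    rintro rfl
    exact hh0 (by rw [hq, mul_zero])
  have hqdeg : q.natDegree + 1 = h.natDegree := by
    rw [hq, natDegree_mul (X_sub_C_ne_zero x₁) hq0, natDegree_X_sub_C, add_comm]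
  obtain ⟨x₂, hx₂⟩ := IsAlgClosed.exists_root q (by
    rw [degree_eq_natDegree hq0]
    intro hd
    have : q.natDegree = 0 := by exact_mod_cast hd
    omega)
  have hx₂' : h.IsRoot x₂ := by
    rw [IsRoot, hq, eval_mul, hx₂.eq_zero, mul_zero]
  refine ⟨x₁, x₂, ?_, hx₁, hx₂'⟩
  rintro rfl
  apply hsimple x₁ hx₁
  rw [hq, derivative_mul, eval_add, eval_mul, eval_mul, hx₂.eq_zero]
  simp

/-- **generic fibre**: a rational function `Φ/Ψ` with `deg Ψ < deg Φ` which is not of the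
degenerate form `A / b` (`deg A = 1`) takes some value at two distinct generic points. -/
theorem exists_generic_pair (Φ Ψ Cbad : K[X]) (hΨ : Ψ ≠ 0) (hC : Cbad ≠ 0)
    (hdeg : Ψ.natDegree < Φ.natDegree)
    (hnd : ¬ ∃ (A : K[X]) (b : K), b ≠ 0 ∧ A.natDegree = 1 ∧ C b * Φ = A * Ψ) :
    ∃ x₁ x₂ : K, x₁ ≠ x₂ ∧ Cbad.eval x₁ ≠ 0 ∧ Cbad.eval x₂ ≠ 0 ∧ Ψ.eval x₁ ≠ 0 ∧
      Ψ.eval x₂ ≠ 0 ∧ Φ.eval x₁ * Ψ.eval x₂ = Φ.eval x₂ * Ψ.eval x₁ := by
  classical
  set g := EuclideanDomain.gcd Φ Ψ with hg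
  obtain ⟨A, hA⟩ := EuclideanDomain.gcd_dvd_left Φ Ψ
  obtain ⟨B₁, hB⟩ := EuclideanDomain.gcd_dvd_right Φ Ψ
  rw [← hg] at hA hB
  have hg0 : g ≠ 0 := by
    intro h0
    rw [h0, zero_mul] at hB
    exact hΨ hB
  have hB0 : B₁ ≠ 0 := by
    rintro rfl
    exact hΨ (by rw [hB, mul_zero])
  have hΦ0 : Φ ≠ 0 := by
    rintro rfl
    simp at hdeg
  have hA0 : A ≠ 0 := by
    rintro rfl
    exact hΦ0 (by rw [hA, mul_zero])
  -- Bezout
  have hbez := EuclideanDomain.gcd_eq_gcd_ab Φ Ψ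
  rw [← hg] at hbez
  set s := EuclideanDomain.gcdA Φ Ψ
  set t := EuclideanDomain.gcdB Φ Ψ
  have hcop : A * s + B₁ * t = 1 := by
    have h1 : g * (A * s + B₁ * t) = g * 1 := by
      rw [mul_one]
      conv_rhs => rw [hbez]
      conv_rhs => rw [hA, hB]
      ring
    exact mul_left_cancel₀ hg0 h1
  have hcopx : ∀ x, ¬ (A.eval x = 0 ∧ B₁.eval x = 0) := by
    rintro x ⟨h1, h2⟩
    have := congrArg (eval x) hcop
    simp [h1, h2] at this
  have hdA : Φ.natDegree = g.natDegree + A.natDegree := by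
    rw [hA, natDegree_mul hg0 hA0]
  have hdB : Ψ.natDegree = g.natDegree + B₁.natDegree := by
    rw [hB, natDegree_mul hg0 hB0]
  have hdAB : B₁.natDegree < A.natDegree := by omega
  -- degree of `A` is at least `2`
  have hA2 : 2 ≤ A.natDegree := by
    by_contra hlt
    have hA1 : A.natDegree = 1 := by omega
    have hB1 : B₁.natDegree = 0 := by omega
    obtain ⟨b, hb⟩ := natDegree_eq_zero.mp hB1
    apply hnd
    refine ⟨A, b, ?_, hA1, ?_⟩
    · rintro rfl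
      rw [map_zero] at hb
      exact hB0 hb.symm
    · rw [hb, hA, hB]
      ring
  -- the Wronskian
  set w := derivative A * B₁ - A * derivative B₁ with hw
  have hw0 : w ≠ 0 := by
    intro h0
    have h1 : derivative A * B₁ = A * derivative B₁ := sub_eq_zero.mp h0
    have hdvd : A ∣ derivative A * B₁ := ⟨derivative B₁, h1⟩
    have hcop' : IsCoprime A B₁ := ⟨s, t, by rw [mul_comm s, mul_comm t]; exact hcop⟩
    have hdvd' : A ∣ derivative A := hcop'.dvd_of_dvd_mul_right hdvd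
    have hder : derivative A = 0 := by
      by_contra hne
      have := natDegree_le_of_dvd hdvd' hne
      have := natDegree_derivative_lt (p := A) (by omega)
      omega
    have := Polynomial.derivative_eq_zero.mp hder
    omega
  -- the bad set
  set bad := w * Cbad * Ψ with hbad
  have hbad0 : bad ≠ 0 := mul_ne_zero (mul_ne_zero hw0 hC) hΨ
  set E : Finset K := bad.roots.toFinset.image (fun z => A.eval z / B₁.eval z)
  obtain ⟨c, hc⟩ := Infinite.exists_notMem_finset E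
  set h := A - C c * B₁ with hh
  have hhdeg : h.natDegree = A.natDegree := by
    apply natDegree_sub_eq_left_of_natDegree_lt
    calc (C c * B₁).natDegree ≤ B₁.natDegree := natDegree_C_mul_le c B₁
      _ < A.natDegree := hdAB
  have hroot : ∀ x, h.IsRoot x → bad.eval x ≠ 0 := by
    intro x hx hbx
    have hx' : A.eval x = c * B₁.eval x := by
      have := hx.eq_zero
      rw [hh, eval_sub, eval_mul, eval_C] at this
      linear_combination this
    have hBx : B₁.eval x ≠ 0 := by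
      intro h0
      exact hcopx x ⟨by rw [hx', h0, mul_zero], h0⟩
    apply hc
    rw [Finset.mem_image]
    refine ⟨x, ?_, ?_⟩
    · rw [Multiset.mem_toFinset, mem_roots hbad0]
      exact hbx
    · rw [hx', mul_div_assoc, div_self hBx, mul_one]
  have hrootw : ∀ x, h.IsRoot x → w.eval x ≠ 0 ∧ Cbad.eval x ≠ 0 ∧ Ψ.eval x ≠ 0 := by
    intro x hx
    have := hroot x hx
    rw [hbad, eval_mul, eval_mul] at this
    exact ⟨left_ne_zero_of_mul (left_ne_zero_of_mul this),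
      right_ne_zero_of_mul (left_ne_zero_of_mul this), right_ne_zero_of_mul this⟩
  have hsimple : ∀ x, h.IsRoot x → (derivative h).eval x ≠ 0 := by
    intro x hx hder
    have hx' : A.eval x = c * B₁.eval x := by
      have := hx.eq_zero
      rw [hh, eval_sub, eval_mul, eval_C] at this
      linear_combination this
    have hder' : (derivative A).eval x = c * (derivative B₁).eval x := by
      rw [hh, derivative_sub, derivative_C_mul, eval_sub, eval_mul, eval_C] at hder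
      linear_combination hder
    apply (hrootw x hx).1
    rw [hw, eval_sub, eval_mul, eval_mul, hx', hder']
    ring
  obtain ⟨x₁, x₂, hne, hx₁, hx₂⟩ := exists_two_roots_of_wronskian (hhdeg ▸ hA2) hsimple
  refine ⟨x₁, x₂, hne, (hrootw x₁ hx₁).2.1, (hrootw x₂ hx₂).2.1, (hrootw x₁ hx₁).2.2,
    (hrootw x₂ hx₂).2.2, ?_⟩
  have e₁ : A.eval x₁ = c * B₁.eval x₁ := by
    have := hx₁.eq_zero
    rw [hh, eval_sub, eval_mul, eval_C] at this
    linear_combination this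
  have e₂ : A.eval x₂ = c * B₁.eval x₂ := by
    have := hx₂.eq_zero
    rw [hh, eval_sub, eval_mul, eval_C] at this
    linear_combination this
  rw [hA, hB, eval_mul, eval_mul, eval_mul, eval_mul, e₁, e₂]
  ring

end Generic


section Main

variable {K : Type*} [Field K] [IsAlgClosed K] [CharZero K]

/-- two distinct roots of `Ψ₂Sq` -/
theorem exists_two_roots_Ψ₂Sq (W : WeierstrassCurve K) (hΔ : W.Δ ≠ 0) :
    ∃ e₁ e₂ : K, e₁ ≠ e₂ ∧ W.Ψ₂Sq.eval e₁ = 0 ∧ W.Ψ₂Sq.eval e₂ = 0 := by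
  have h4 : (4 : K) ≠ 0 := by norm_num
  have hdeg : 2 ≤ W.Ψ₂Sq.natDegree := by rw [W.natDegree_Ψ₂Sq h4]; norm_num
  obtain ⟨e₁, e₂, hne, h1, h2⟩ := exists_two_roots_of_wronskian hdeg (by
    intro x hx hder
    apply hΔ
    refine Δ_eq_zero_of_double_root W two_ne_zero three_ne_zero x hx.eq_zero ?_
    have : (derivative W.Ψ₂Sq).eval x = 12 * x ^ 2 + 2 * W.b₂ * x + 2 * W.b₄ := by
      simp only [Ψ₂Sq, derivative_add, derivative_mul, derivative_C, derivative_X_pow,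
        derivative_X, eval_add, eval_mul, eval_C, eval_pow, eval_X, zero_mul, zero_add,
        mul_one, add_zero, Nat.cast_ofNat]
      norm_num
      ring
    rw [← this]
    exact hder)
  exact ⟨e₁, e₂, hne, h1.eq_zero, h2.eq_zero⟩

/-- the degenerate case `b Φ_p = A ΨSq_p`, `deg A = 1`, is impossible for odd `p` -/
theorem not_degenerate (W : WeierstrassCurve K) (hΔ : W.Δ ≠ 0) (p : ℕ) (hp1 : 1 < p)
    (hodd : Odd p) :
    ¬ ∃ (A : K[X]) (b : K), b ≠ 0 ∧ A.natDegree = 1 ∧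
      C b * W.Φ (p : ℤ) = A * W.ΨSq (p : ℤ) := by
  classical
  rintro ⟨A, b, hb, hA1, hrel⟩
  have hpodd : ¬ Even (p : ℤ) := by
    rw [Int.not_even_iff_odd]
    exact_mod_cast hodd
  have hΨ : W.ΨSq (p : ℤ) = W.preΨ' p ^ 2 := by
    rw [ΨSq, if_neg hpodd, mul_one, preΨ_ofNat]
  have hΦ : W.Φ (p : ℤ) = X * W.ΨSq (p : ℤ)
      - W.preΨ ((p : ℤ) + 1) * W.preΨ ((p : ℤ) - 1) * W.Ψ₂Sq := by
    rw [WeierstrassCurve.Φ, if_neg hpodd]
  obtain ⟨e₁, e₂, hne, he₁, he₂⟩ := exists_two_roots_Ψ₂Sq W hΔ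
  have key : ∀ e : K, W.Ψ₂Sq.eval e = 0 → A.eval e = b * e := by
    intro e he
    have h1 := congrArg (eval e) hrel
    rw [hΦ] at h1
    simp only [eval_mul, eval_sub, eval_C, eval_X, he, mul_zero, sub_zero] at h1
    have hne0 : (W.ΨSq (p : ℤ)).eval e ≠ 0 := by
      rw [hΨ, eval_pow]
      exact pow_ne_zero _ (preΨ'_odd_eval_ne_zero W hΔ two_ne_zero three_ne_zero he p hodd)
    have h2 : (A.eval e - b * e) * (W.ΨSq (p : ℤ)).eval e = 0 := by linear_combination -h1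
    rcases mul_eq_zero.mp h2 with h | h
    · linear_combination h
    · exact absurd h hne0
  -- `A = b X`
  have hAX : A = C b * X := by
    have hdeg : (A - C b * X).natDegree ≤ 1 := by
      refine (natDegree_sub_le _ _).trans ?_
      rw [hA1]
      refine max_le le_rfl ?_
      exact (natDegree_C_mul_le _ _).trans (by simp)
    by_contra hne'
    have h0 : A - C b * X ≠ 0 := sub_ne_zero.mpr hne'
    have hr₁ : e₁ ∈ (A - C b * X).roots := by
      rw [mem_roots h0, IsRoot, eval_sub, eval_mul, eval_C, eval_X, key e₁ he₁, sub_self]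
    have hr₂ : e₂ ∈ (A - C b * X).roots := by
      rw [mem_roots h0, IsRoot, eval_sub, eval_mul, eval_C, eval_X, key e₂ he₂, sub_self]
    have hcard : ({e₁, e₂} : Finset K).card ≤ (A - C b * X).roots.toFinset.card := by
      apply Finset.card_le_card
      intro x hx
      rw [Finset.mem_insert, Finset.mem_singleton] at hx
      rcases hx with rfl | rfl
      · exact Multiset.mem_toFinset.mpr hr₁
      · exact Multiset.mem_toFinset.mpr hr₂
    rw [Finset.card_pair hne] at hcard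
    have h3 := (Multiset.toFinset_card_le _).trans (card_roots' (A - C b * X))
    omega
  -- compare leading coefficients
  have hpK : ((p : ℤ) : K) ≠ 0 := by
    have : (p : K) ≠ 0 := Nat.cast_ne_zero.mpr (by omega)
    exact_mod_cast this
  have hrel' : W.Φ (p : ℤ) = X * W.ΨSq (p : ℤ) := by
    have h1 : C b * W.Φ (p : ℤ) = C b * (X * W.ΨSq (p : ℤ)) := by
      rw [hrel, hAX]; ring
    exact mul_left_cancel₀ (C_ne_zero.mpr hb) h1
  have hlc := congrArg leadingCoeff hrel'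
  rw [W.leadingCoeff_Φ, leadingCoeff_mul, leadingCoeff_X, one_mul, W.leadingCoeff_ΨSq hpK] at hlc
  have hp2 : ((p : ℤ) : K) ^ 2 = ((p ^ 2 : ℕ) : K) := by push_cast; ring
  rw [hp2] at hlc
  have : (p ^ 2 : ℕ) = 1 := by exact_mod_cast hlc.symm
  have : p = 1 := by
    rcases Nat.pow_eq_one.mp this with h | h
    · exact h
    · omega
  omega

omit [CharZero K] in
/-- for every `x` there is a point of the curve above `x` -/
theorem exists_point_of_X [DecidableEq K] (W : WeierstrassCurve.Affine K) (hΔ : W.Δ ≠ 0) (x : K) :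
    ∃ y : K, W.Nonsingular x y := by
  set Q : K[X] := X ^ 2 + C (W.a₁ * x + W.a₃) * X - C (x ^ 3 + W.a₂ * x ^ 2 + W.a₄ * x + W.a₆)
    with hQ
  have hQdeg : Q.degree = 2 := by
    rw [hQ, sub_eq_add_neg, ← C_neg, add_assoc]
    have : (C (W.a₁ * x + W.a₃) * X + C (-(x ^ 3 + W.a₂ * x ^ 2 + W.a₄ * x + W.a₆))).degree
        < (X ^ 2 : K[X]).degree := by
      rw [degree_X_pow]
      refine lt_of_le_of_lt (degree_linear_le) ?_
      norm_num
    rw [degree_add_eq_left_of_degree_lt this, degree_X_pow]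
    rfl
  obtain ⟨y, hy⟩ := IsAlgClosed.exists_root Q (by rw [hQdeg]; norm_num)
  refine ⟨y, (W.equation_iff_nonsingular_of_Δ_ne_zero hΔ).mp ?_⟩
  rw [WeierstrassCurve.Affine.equation_iff]
  have := hy.eq_zero
  rw [hQ] at this
  simp only [eval_sub, eval_add, eval_pow, eval_X, eval_mul, eval_C] at this
  linear_combination this

/-- **DP-EXIST** from the multiplication-by-`p` formula at generic points (DP-X). -/
theorem DP_EXIST [DecidableEq K]
    (W : WeierstrassCurve.Affine K) (hΔ : W.Δ ≠ 0) (p : ℕ) (hp : p.Prime) (hp2 : p ≠ 2)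
    (hX : ∃ B : K[X], B ≠ 0 ∧ ∀ (x y : K) (h : W.Nonsingular x y), B.eval x ≠ 0 →
      ∃ (x' y' : K) (h' : W.Nonsingular x' y'),
        p • (Point.some (W' := W) x y h) = Point.some (W' := W) x' y' h' ∧
          x' * (W.ΨSq (p : ℤ)).eval x = (W.Φ (p : ℤ)).eval x) :
    ∃ P : W.Point, P ≠ 0 ∧ p • P = 0 := by
  obtain ⟨B, hB0, hB⟩ := hX
  have hodd : Odd p := hp.odd_of_ne_two hp2
  have hp1 : 1 < p := hp.one_lt
  have hpK : ((p : ℤ) : K) ≠ 0 := by
    have : (p : K) ≠ 0 := Nat.cast_ne_zero.mpr (by omega)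
    exact_mod_cast this
  have hΨ0 : W.ΨSq (p : ℤ) ≠ 0 := W.ΨSq_ne_zero hpK
  have hdeg : (W.ΨSq (p : ℤ)).natDegree < (W.Φ (p : ℤ)).natDegree := by
    rw [W.natDegree_ΨSq hpK, W.natDegree_Φ]
    have : 0 < (p : ℤ).natAbs ^ 2 := by
      apply pow_pos
      simp only [Int.natAbs_natCast]
      omega
    omega
  obtain ⟨x₁, x₂, hne, hB₁, hB₂, hΨ₁, hΨ₂, hrel⟩ :=
    exists_generic_pair (W.Φ (p : ℤ)) (W.ΨSq (p : ℤ)) B hΨ0 hB0 hdeg
      (not_degenerate W hΔ p hp1 hodd)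
  obtain ⟨y₁, h₁⟩ := exists_point_of_X W hΔ x₁
  obtain ⟨y₂, h₂⟩ := exists_point_of_X W hΔ x₂
  obtain ⟨u₁, v₁, k₁, hP₁, hu₁⟩ := hB x₁ y₁ h₁ hB₁
  obtain ⟨u₂, v₂, k₂, hP₂, hu₂⟩ := hB x₂ y₂ h₂ hB₂
  have hu : u₁ = u₂ := by
    have e1 : u₁ = (W.Φ (p : ℤ)).eval x₁ / (W.ΨSq (p : ℤ)).eval x₁ := by
      rw [eq_div_iff hΨ₁]; exact hu₁
    have e2 : u₂ = (W.Φ (p : ℤ)).eval x₂ / (W.ΨSq (p : ℤ)).eval x₂ := by
      rw [eq_div_iff hΨ₂]; exact hu₂
    rw [e1, e2, div_eq_div_iff hΨ₁ hΨ₂, hrel]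
  subst hu
  rcases WeierstrassCurve.Affine.Y_eq_of_X_eq k₁.1 k₂.1 rfl with hv | hv
  · -- `p P₁ = p P₂`
    subst hv
    refine ⟨Point.some x₁ y₁ h₁ - Point.some x₂ y₂ h₂, ?_, ?_⟩
    · intro h0
      have := sub_eq_zero.mp h0
      rw [Point.some.injEq] at this
      exact hne this.1
    · rw [smul_sub, hP₁, hP₂, sub_self]
  · -- `p P₁ = - p P₂`
    subst hv
    refine ⟨Point.some x₁ y₁ h₁ + Point.some x₂ y₂ h₂, ?_, ?_⟩
    · intro h0
      have := eq_neg_of_add_eq_zero_left h0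
      rw [Point.neg_some, Point.some.injEq] at this
      exact hne this.1
    · rw [smul_add, hP₁, hP₂]
      have : Point.some (W' := W) u₁ (W.negY u₁ v₂) k₁ = - Point.some (W' := W) u₁ v₂ k₂ := by
        rw [Point.neg_some]
      rw [this, neg_add_cancel]

end Main

end Fermat.Agent.S13_helper19_DPEXIST
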