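import Mathlib

/-!
# S13 piece DP-CARD (helper20)

Cardinality of the `p`-torsion of a Weierstrass curve from the forward division-polynomial
fact, and the `ZMod p` linear algebra used by the assembly.
-/

set_option autoImplicit false
set_option linter.style.haveILetI false

namespace Fermat.Agent.S13_helper20_DPCARD

open WeierstrassCurve WeierstrassCurve.Affine Polynomial

section Card

variable {K : Type*} [Field K] [DecidableEq K] (W : WeierstrassCurve.Affine K)

/-- Forward division polynomial hypothesis: every affine point killed by `p` has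
`x`-coordinate a root of `preΨ_p`. -/
def ForwardDP (p : ℕ) : Prop :=
  ∀ (x y : K) (h : W.Nonsingular x y),
    (p : ℤ) • (Point.some (W' := W) x y h) = 0 → (W.preΨ (p : ℤ)).eval x = 0

/-- The (at most two) points with a given `x`-coordinate. -/
noncomputable def fibre (x : K) : Finset W.Point :=
  open Classical in
  if h : ∃ y, W.Nonsingular x y then
    {Point.some x h.choose h.choose_spec, -Point.some x h.choose h.choose_spec}
  else ∅

lemma card_fibre_le (x : K) : (fibre W x).card ≤ 2 := by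
  classical
  unfold fibre
  split_ifs with h
  · exact Finset.card_le_two
  · simp

lemma mem_fibre {x y : K} (h : W.Nonsingular x y) : Point.some x y h ∈ fibre W x := by
  classical
  unfold fibre
  have hex : ∃ y, W.Nonsingular x y := ⟨y, h⟩
  rw [dif_pos hex]
  have h2 := hex.choose_spec
  rcases Affine.Point.X_eq_iff (h₁ := h) (h₂ := h2) |>.mp rfl with h3 | h3
  · exact Finset.mem_insert.mpr (Or.inl h3)
  · exact Finset.mem_insert.mpr (Or.inr (Finset.mem_singleton.mpr h3))

/-- The finite set containing all `p`-torsion points. -/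
noncomputable def torsionSuperset (p : ℕ) : Finset W.Point :=
  insert 0 ((W.preΨ (p : ℤ)).roots.toFinset.biUnion (fibre W))

lemma mem_torsionSuperset {p : ℕ} (hpK : (p : K) ≠ 0) (hF : ForwardDP W p) {P : W.Point}
    (hP : (p : ℤ) • P = 0) : P ∈ torsionSuperset W p := by
  classical
  unfold torsionSuperset
  rcases P with _ | ⟨x, y, h⟩
  · exact Finset.mem_insert_self _ _
  · refine Finset.mem_insert_of_mem (Finset.mem_biUnion.mpr ⟨x, ?_, mem_fibre W h⟩)
    have hne : W.preΨ (p : ℤ) ≠ 0 := W.preΨ_ne_zero (by simpa using hpK)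
    rw [Multiset.mem_toFinset, mem_roots hne]
    exact hF x y h hP

lemma card_torsionSuperset_le (p : ℕ) (hodd : Odd p) :
    (torsionSuperset W p).card ≤ p ^ 2 := by
  classical
  unfold torsionSuperset
  have h1 : ((W.preΨ (p : ℤ)).roots.toFinset.biUnion (fibre W)).card
      ≤ (W.preΨ (p : ℤ)).roots.toFinset.card * 2 :=
    Finset.card_biUnion_le_card_mul _ _ _ (fun x _ => card_fibre_le W x)
  have h2 : (W.preΨ (p : ℤ)).roots.toFinset.card ≤ (W.preΨ (p : ℤ)).natDegree :=
    (Multiset.toFinset_card_le _).trans (card_roots' _)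
  have h3 : (W.preΨ (p : ℤ)).natDegree ≤ (p ^ 2 - 1) / 2 := by
    have := W.natDegree_preΨ_le (p : ℤ)
    have hne : ¬ Even (p : ℤ) := by
      rw [Int.not_even_iff_odd]
      exact_mod_cast hodd
    simpa [hne] using this
  have h4 : 1 ≤ p ^ 2 := Nat.one_le_pow _ _ hodd.pos
  calc (insert (0 : W.Point) ((W.preΨ (p : ℤ)).roots.toFinset.biUnion (fibre W))).card
      ≤ ((W.preΨ (p : ℤ)).roots.toFinset.biUnion (fibre W)).card + 1 := Finset.card_insert_le _ _
    _ ≤ (p ^ 2 - 1) / 2 * 2 + 1 := by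
        have := Nat.mul_le_mul_right 2 (h2.trans h3)
        omega
    _ ≤ p ^ 2 := by
        have := Nat.div_mul_le_self (p ^ 2 - 1) 2
        omega

theorem finite_torsion (p : ℕ) (hpK : (p : K) ≠ 0) (hF : ForwardDP W p) :
    Finite (Submodule.torsionBy ℤ W.Point (p : ℤ)) := by
  classical
  have hsub : ((Submodule.torsionBy ℤ W.Point (p : ℤ) : Submodule ℤ W.Point) : Set W.Point)
      ⊆ (torsionSuperset W p : Set W.Point) := by
    intro P hP
    exact mem_torsionSuperset W hpK hF ((Submodule.mem_torsionBy_iff _ _).mp hP)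
  exact ((torsionSuperset W p).finite_toSet.subset hsub).to_subtype

theorem card_torsion_le (p : ℕ) (hodd : Odd p) (hpK : (p : K) ≠ 0) (hF : ForwardDP W p) :
    Nat.card (Submodule.torsionBy ℤ W.Point (p : ℤ)) ≤ p ^ 2 := by
  classical
  have hsub : ((Submodule.torsionBy ℤ W.Point (p : ℤ) : Submodule ℤ W.Point) : Set W.Point)
      ⊆ (torsionSuperset W p : Set W.Point) := by
    intro P hP
    exact mem_torsionSuperset W hpK hF ((Submodule.mem_torsionBy_iff _ _).mp hP)
  have h1 : Nat.card (Submodule.torsionBy ℤ W.Point (p : ℤ))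
      ≤ Nat.card (torsionSuperset W p : Set W.Point) :=
    Nat.card_mono (torsionSuperset W p).finite_toSet hsub
  have h2 : Nat.card (torsionSuperset W p : Set W.Point) = (torsionSuperset W p).card := by
    simp
  rw [h2] at h1
  exact h1.trans (card_torsionSuperset_le W p hodd)

end Card

section LinAlg

variable {p : ℕ} [Fact p.Prime] {V : Type*} [AddCommGroup V] [Module (ZMod p) V]

theorem natCard_eq_pow_finrank [Finite V] : Nat.card V = p ^ Module.finrank (ZMod p) V := by
  haveI : Module.Finite (ZMod p) V := Module.Finite.of_finite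
  rw [Module.natCard_eq_pow_finrank (K := ZMod p), Nat.card_zmod]

theorem finrank_le_two [Finite V] (h : Nat.card V ≤ p ^ 2) : Module.finrank (ZMod p) V ≤ 2 := by
  rw [natCard_eq_pow_finrank (p := p)] at h
  exact (Nat.pow_le_pow_iff_right (Fact.out : p.Prime).one_lt).mp h

theorem finrank_of_ne_bot_ne_top [Finite V] (h : Nat.card V ≤ p ^ 2) (N : Submodule (ZMod p) V)
    (h0 : N ≠ ⊥) (h1 : N ≠ ⊤) :
    Module.finrank (ZMod p) N = 1 ∧ Module.finrank (ZMod p) V = 2 ∧
      Module.finrank (ZMod p) (V ⧸ N) = 1 := by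
  haveI : Module.Finite (ZMod p) V := Module.Finite.of_finite
  have h2 := finrank_le_two h
  have h3 : 0 < Module.finrank (ZMod p) N := by
    rw [Module.finrank_pos_iff_exists_ne_zero]
    obtain ⟨x, hx, hx0⟩ := (Submodule.ne_bot_iff N).mp h0
    exact ⟨⟨x, hx⟩, fun h => hx0 (congrArg Subtype.val h)⟩
  have h4 : Module.finrank (ZMod p) N < Module.finrank (ZMod p) V :=
    Submodule.finrank_lt h1
  have h5 := Submodule.finrank_quotient_add_finrank N
  omega

/-- An additive endomorphism of a line is a scalar. -/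
theorem exists_scalar_of_finrank_eq_one (h : Module.finrank (ZMod p) V = 1) (f : V →+ V) :
    ∃ c : ZMod p, ∀ x, f x = c • x := by
  have hpos : 0 < Module.finrank (ZMod p) V := by rw [h]; exact one_pos
  haveI : Module.Finite (ZMod p) V := Module.finite_of_finrank_pos hpos
  obtain ⟨x₀, hx₀⟩ := (Module.finrank_pos_iff_exists_ne_zero (R := ZMod p)).mp hpos
  obtain ⟨c, hc⟩ := exists_smul_eq_of_finrank_eq_one h hx₀ (f x₀)
  refine ⟨c, fun x => ?_⟩
  obtain ⟨d, rfl⟩ := exists_smul_eq_of_finrank_eq_one h hx₀ x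
  rw [ZMod.map_smul, ← hc, smul_comm]

/-- An additive endomorphism `f` of a line with `(f - 1)^2 = 0` is the identity. -/
theorem eq_self_of_sq_zero_of_finrank_eq_one (h : Module.finrank (ZMod p) V = 1) (f : V →+ V)
    (hf : ∀ x, f (f x - x) = f x - x) (x : V) : f x = x := by
  have hpos : 0 < Module.finrank (ZMod p) V := by rw [h]; exact one_pos
  haveI : Module.Finite (ZMod p) V := Module.finite_of_finrank_pos hpos
  obtain ⟨x₀, hx₀⟩ := (Module.finrank_pos_iff_exists_ne_zero (R := ZMod p)).mp hpos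
  obtain ⟨c, hc⟩ := exists_scalar_of_finrank_eq_one h f
  have h1 : ((c - 1) * (c - 1)) • x₀ = 0 := by
    have := hf x₀
    rw [hc x₀, hc] at this
    have h2 : ((c - 1) * (c - 1)) • x₀ = c • (c • x₀ - x₀) - (c • x₀ - x₀) := by
      simp only [sub_smul, mul_smul, one_smul, smul_sub]
    rw [h2, this, sub_self]
  have h3 : (c - 1) * (c - 1) = 0 := by
    rcases smul_eq_zero.mp h1 with h | h
    · exact h
    · exact absurd h hx₀
  have h4 : c = 1 := by
    rcases mul_self_eq_zero.mp h3 with h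
    exact sub_eq_zero.mp h
  rw [hc, h4, one_smul]

/-- Unipotent endomorphisms act trivially on a stable line and on the quotient by it. -/
theorem unipotent_on_line [Finite V] (h : Nat.card V ≤ p ^ 2) (N : Submodule (ZMod p) V)
    (h0 : N ≠ ⊥) (h1 : N ≠ ⊤) (f : V →+ V) (hN : ∀ x ∈ N, f x ∈ N)
    (hf : ∀ x, f (f x - x) = f x - x) :
    (∀ x ∈ N, f x = x) ∧ ∀ x, f x - x ∈ N := by
  obtain ⟨a, -, c⟩ := finrank_of_ne_bot_ne_top h N h0 h1
  constructor
  · -- restriction to `N`
    let g : N →+ N :=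
      { toFun := fun x => ⟨f x, hN x x.2⟩
        map_zero' := Subtype.ext (by simp)
        map_add' := fun x y => Subtype.ext (by simp) }
    have hg : ∀ x : N, g (g x - x) = g x - x := fun x => Subtype.ext (by
      simpa [g] using hf x)
    intro x hx
    have := eq_self_of_sq_zero_of_finrank_eq_one a g hg ⟨x, hx⟩
    exact congrArg Subtype.val this
  · -- induced map on `V ⧸ N`
    let fl : V →ₗ[ZMod p] V := AddMonoidHom.toZModLinearMap p f
    have hfl : N ≤ N.comap fl := fun x hx => hN x hx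
    let g : (V ⧸ N) →+ (V ⧸ N) := (N.mapQ N fl hfl).toAddMonoidHom
    have hg : ∀ x : V ⧸ N, g (g x - x) = g x - x := by
      intro x
      obtain ⟨v, rfl⟩ := Submodule.Quotient.mk_surjective N x
      change (N.mapQ N fl hfl) ((N.mapQ N fl hfl) (Submodule.Quotient.mk v) -
        Submodule.Quotient.mk v) = (N.mapQ N fl hfl) (Submodule.Quotient.mk v) -
        Submodule.Quotient.mk v
      rw [Submodule.mapQ_apply, ← Submodule.Quotient.mk_sub, Submodule.mapQ_apply]
      exact congrArg _ (hf v)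
    intro x
    have := eq_self_of_sq_zero_of_finrank_eq_one c g hg (Submodule.Quotient.mk x)
    change (N.mapQ N fl hfl) (Submodule.Quotient.mk x) = Submodule.Quotient.mk x at this
    rw [Submodule.mapQ_apply] at this
    exact (Submodule.Quotient.eq N).mp this


theorem card_of_ne_bot_ne_top [Finite V] (h : Nat.card V ≤ p ^ 2) (N : Submodule (ZMod p) V)
    (h0 : N ≠ ⊥) (h1 : N ≠ ⊤) :
    Nat.card N = p ∧ Nat.card V = p ^ 2 ∧ Nat.card (V ⧸ N) = p := by
  obtain ⟨a, b, c⟩ := finrank_of_ne_bot_ne_top h N h0 h1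
  haveI : Finite (V ⧸ N) := Quotient.finite _
  refine ⟨?_, ?_, ?_⟩
  · rw [natCard_eq_pow_finrank (p := p), a, pow_one]
  · rw [natCard_eq_pow_finrank (p := p), b]
  · rw [natCard_eq_pow_finrank (p := p), c, pow_one]

/-- A proper submodule containing a nonzero submodule equals it (when `#V ≤ p²`). -/
theorem eq_of_le_of_ne_bot_of_ne_top [Finite V] (h : Nat.card V ≤ p ^ 2)
    (N L : Submodule (ZMod p) V) (hN0 : N ≠ ⊥) (hL1 : L ≠ ⊤) (hNL : N ≤ L) : N = L := by
  haveI : Module.Finite (ZMod p) V := Module.Finite.of_finite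
  have hL0 : L ≠ ⊥ := fun h => hN0 (le_bot_iff.mp (h ▸ hNL))
  have hN1 : N ≠ ⊤ := fun h => hL1 (top_le_iff.mp (h ▸ hNL))
  obtain ⟨a, -, -⟩ := finrank_of_ne_bot_ne_top h N hN0 hN1
  obtain ⟨b, -, -⟩ := finrank_of_ne_bot_ne_top h L hL0 hL1
  exact Submodule.eq_of_le_of_finrank_eq hNL (a.trans b.symm)

/-- Two proper submodules: they meet trivially, or they are equal. -/
theorem inf_eq_bot_or_eq [Finite V] (h : Nat.card V ≤ p ^ 2)
    (N L : Submodule (ZMod p) V) (hN1 : N ≠ ⊤) (hL1 : L ≠ ⊤) : N ⊓ L = ⊥ ∨ L = N := by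
  by_cases hb : N ⊓ L = ⊥
  · exact Or.inl hb
  · right
    have h1 : N ⊓ L = N := eq_of_le_of_ne_bot_of_ne_top h _ _ hb hN1 inf_le_left
    have h2 : N ⊓ L = L := eq_of_le_of_ne_bot_of_ne_top h _ _ hb hL1 inf_le_right
    exact h2.symm.trans h1

/-- Dichotomy for a family `I` of additive maps stabilising a proper submodule `N` and moving
every vector by an element of a proper submodule `L`: either `I` fixes `N` pointwise, or `I`
acts trivially on `V ⧸ N`. -/
theorem fix_or_cofix [Finite V] (h : Nat.card V ≤ p ^ 2) (N L : Submodule (ZMod p) V)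
    (hN1 : N ≠ ⊤) (hL1 : L ≠ ⊤) (I : Set (V →+ V)) (hN : ∀ f ∈ I, ∀ x ∈ N, f x ∈ N)
    (hL : ∀ f ∈ I, ∀ x, f x - x ∈ L) :
    (∀ f ∈ I, ∀ x ∈ N, f x = x) ∨ ∀ f ∈ I, ∀ x, f x - x ∈ N := by
  rcases inf_eq_bot_or_eq h N L hN1 hL1 with h1 | h1
  · left
    intro f hf x hx
    have h2 : f x - x ∈ N ⊓ L := ⟨N.sub_mem (hN f hf x hx) hx, hL f hf x⟩
    rw [h1, Submodule.mem_bot] at h2
    exact sub_eq_zero.mp h2
  · right
    intro f hf x
    exact h1 ▸ hL f hf x

/-- Two-step version of `fix_or_cofix`: `(f - 1) V ≤ L₀`, `(f - 1) L₀ ≤ L₁` and `L₁ ≠ ⊤`. -/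
theorem fix_or_cofix_two_step [Finite V] (h : Nat.card V ≤ p ^ 2)
    (N L₀ L₁ : Submodule (ZMod p) V) (hN1 : N ≠ ⊤) (hL1 : L₁ ≠ ⊤) (I : Set (V →+ V))
    (hN : ∀ f ∈ I, ∀ x ∈ N, f x ∈ N) (h0 : ∀ f ∈ I, ∀ x, f x - x ∈ L₀)
    (h1 : ∀ f ∈ I, ∀ x ∈ L₀, f x - x ∈ L₁) :
    (∀ f ∈ I, ∀ x ∈ N, f x = x) ∨ ∀ f ∈ I, ∀ x, f x - x ∈ N := by
  by_cases hL0 : L₀ = ⊤
  · exact fix_or_cofix h N L₁ hN1 hL1 I hN
      (fun f hf x => h1 f hf x (hL0 ▸ Submodule.mem_top))
  · exact fix_or_cofix h N L₀ hN1 hL0 I hN h0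

end LinAlg

end Fermat.Agent.S13_helper20_DPCARD
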