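import Fermat.Agent.S13_helper27_DPG
import Fermat.Agent.S13_helper20_DPCARD
import Fermat.Agent.S13_helper19_DPEXIST

/-!
# S13, division polynomial block: final corollaries (helper27)

Combines DP-G/DP-FIRST/DP-X (`S13_helper27_DPG`) with DP-CARD (`S13_helper20_DPCARD`) and
DP-EXIST (`S13_helper19_DPEXIST`):

* `forwardDP` : for an odd prime `p`, `p • (x, y) = 0 → preΨ_p(x) = 0` (any field);
* `card_torsion_le_sq` : `#E[p] ≤ p²` for an odd prime `p` invertible in the field;
* `exists_torsion_point`, `nontrivial_torsion` : `E[p] ≠ 0` over an algebraically closed field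
  of characteristic zero (`Δ ≠ 0`, `p` an odd prime).
-/

namespace Fermat.Agent.S13_helper27_DPTorsion

open Polynomial WeierstrassCurve WeierstrassCurve.Affine
open Fermat.Agent.S13_helper27_DPG

variable {K : Type*} [Field K] [DecidableEq K] (W : WeierstrassCurve.Affine K)

/-- The forward division polynomial property, in the shape used by `S13_helper20_DPCARD`. -/
theorem forwardDP {p : ℕ} (hp : p.Prime) (hp2 : p ≠ 2) :
    Fermat.Agent.S13_helper20_DPCARD.ForwardDP W p := by
  intro x y h hP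
  rw [natCast_zsmul] at hP
  exact preΨ_eval_eq_zero_of_prime_nsmul h hp hp2 hP

/-- The `p`-torsion is finite (`p` an odd prime invertible in `K`). -/
theorem finite_torsion {p : ℕ} (hp : p.Prime) (hp2 : p ≠ 2) (hpK : (p : K) ≠ 0) :
    Finite (Submodule.torsionBy ℤ W.Point (p : ℤ)) :=
  Fermat.Agent.S13_helper20_DPCARD.finite_torsion W p hpK (forwardDP W hp hp2)

/-- `#E[p] ≤ p²` (`p` an odd prime invertible in `K`). -/
theorem card_torsion_le_sq {p : ℕ} (hp : p.Prime) (hp2 : p ≠ 2) (hpK : (p : K) ≠ 0) :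
    Nat.card (Submodule.torsionBy ℤ W.Point (p : ℤ)) ≤ p ^ 2 :=
  Fermat.Agent.S13_helper20_DPCARD.card_torsion_le W p (hp.odd_of_ne_two hp2) hpK
    (forwardDP W hp hp2)

/-- Existence of a nonzero `p`-torsion point over an algebraically closed field of
characteristic zero. -/
theorem exists_torsion_point [IsAlgClosed K] [CharZero K] (hΔ : W.Δ ≠ 0) {p : ℕ}
    (hp : p.Prime) (hp2 : p ≠ 2) : ∃ P : W.Point, P ≠ 0 ∧ p • P = 0 :=
  Fermat.Agent.S13_helper19_DPEXIST.DP_EXIST W hΔ p hp hp2 (DP_X_charZero W p hp.one_le)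

/-- `E[p]` is nontrivial over an algebraically closed field of characteristic zero. -/
theorem nontrivial_torsion [IsAlgClosed K] [CharZero K] (hΔ : W.Δ ≠ 0) {p : ℕ}
    (hp : p.Prime) (hp2 : p ≠ 2) :
    Nontrivial (Submodule.torsionBy ℤ W.Point (p : ℤ)) := by
  obtain ⟨P, hP0, hP⟩ := exists_torsion_point W hΔ hp hp2
  have hmem : P ∈ Submodule.torsionBy ℤ W.Point (p : ℤ) := by
    rw [Submodule.mem_torsionBy_iff, natCast_zsmul]
    exact hP
  refine ⟨⟨⟨P, hmem⟩, 0, ?_⟩⟩
  intro e
  exact hP0 (congrArg Subtype.val e)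

end Fermat.Agent.S13_helper27_DPTorsion
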