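import Mathlib
import Fermat.Prelude.Def_GaloisRep_Residual
import Fermat.Prelude.Def_FreyPackage_EigenformResidualAttachment
import Fermat.Agent.S13_helper27_DPTorsion

/-!
# Project G, piece G14: bookkeeping for the wiring of S42

* `PG42_frey_level` : the mod `p` representation of the Frey curve is trivial on the fixator
  of a finite extension of `ℚ` (for any `DecidableEq` instance on `AlgebraicClosure ℚ`);
* `PG42_exists_galois_level` : every finite subextension of `AlgebraicClosure ℚ` is contained
  in a finite Galois number field `F` (a `Type` with `Algebra F (AlgebraicClosure ℚ)`), in the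
  sense that the kernel of the restriction to `F` fixes it pointwise;
* `PG42_trace_det` : trace and determinant of an endomorphism of a plane from its
  characteristic polynomial.

By-products: `PG42_point_level`, `PG42_torsion_level` (any Weierstrass curve over `ℚ`).
-/

set_option autoImplicit false
set_option linter.unusedSectionVars false
set_option linter.style.haveILetI false

open Polynomial

namespace Fermat.Agent.G_helper12_S42AUX

local notation "Qb" => AlgebraicClosure ℚ
local notation "GQ" => (AlgebraicClosure ℚ ≃ₐ[ℚ] AlgebraicClosure ℚ)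

/-! ### (a) finite level of the torsion representation -/

open WeierstrassCurve WeierstrassCurve.Affine WeierstrassCurve.Affine.Point in
/-- Every point of a curve over `ℚ` with coordinates in `Qb` is fixed by the fixator of a
finite extension of `ℚ`. -/
theorem PG42_point_level [DecidableEq Qb] (W : Affine ℚ) (P : (W⁄Qb).Point) :
    ∃ L : IntermediateField ℚ Qb, FiniteDimensional ℚ L ∧
      ∀ σ : GQ, (∀ x ∈ L, σ x = x) → σ • P = P := by
  haveI : Algebra.IsIntegral ℚ Qb := (AlgebraicClosure.isAlgebraic ℚ).isIntegral
  cases P with
  | zero =>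
    exact ⟨⊥, inferInstance, fun σ _ => smul_zero (A := (W⁄Qb).Point) σ⟩
  | some x y h =>
    refine ⟨IntermediateField.adjoin ℚ {x, y}, ?_, ?_⟩
    · exact IntermediateField.finiteDimensional_adjoin
        (fun z _ => Algebra.IsIntegral.isIntegral z)
    · intro σ hσ
      have h1 : σ x = x := hσ x (IntermediateField.subset_adjoin ℚ _ (by simp))
      have h2 : σ y = y := hσ y (IntermediateField.subset_adjoin ℚ _ (by simp))
      rw [algEquiv_smul_def]
      simp only [Point.map_some]
      congr 1

open WeierstrassCurve WeierstrassCurve.Affine WeierstrassCurve.Affine.Point in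
/-- A finite torsion module of a curve over `ℚ` is acted on trivially by the fixator of a
finite extension of `ℚ`. -/
theorem PG42_torsion_level [DecidableEq Qb] (W : Affine ℚ) (n : ℕ)
    (hfin : Finite (Submodule.torsionBy ℤ (W⁄Qb).Point n)) :
    ∃ L : IntermediateField ℚ Qb, FiniteDimensional ℚ L ∧
      ∀ σ : GQ, (∀ x ∈ L, σ x = x) → galoisRepModuleEnd (S := ℚ) (K := Qb) W n σ = 1 := by
  choose Lf hLfd hLfix using
    fun t : Submodule.torsionBy ℤ (W⁄Qb).Point n => PG42_point_level W t.1
  refine ⟨⨆ t, Lf t, ?_, ?_⟩
  · haveI := hLfd
    exact IntermediateField.finiteDimensional_iSup_of_finite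
  · intro σ hσ
    refine LinearMap.ext fun t => ?_
    rw [galoisRepModuleEnd_apply, Module.End.one_apply]
    apply Subtype.ext
    exact hLfix t σ (fun x hx => hσ x ((le_iSup Lf t) hx))

open WeierstrassCurve WeierstrassCurve.Affine.Point Polynomial in
/-- (a) the mod `p` representation of the Frey curve factors through a finite level. -/
theorem PG42_frey_level (P : FreyPackage) [DecidableEq Qb] :
    ∃ L : IntermediateField ℚ Qb, FiniteDimensional ℚ L ∧
      ∀ σ : GQ, (∀ x ∈ L, σ x = x) →
        galoisRepModuleEnd (S := ℚ) (K := Qb) P.freyCurve P.p σ = 1 := by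
  refine PG42_torsion_level P.freyCurve P.p ?_
  exact Fermat.Agent.S13_helper27_DPTorsion.finite_torsion _ P.pp
    (by have := P.hp5; omega) (Nat.cast_ne_zero.mpr P.hp0)

/-! ### (b) a finite Galois number field containing a given finite level -/

/-- (b) every finite `L` is contained in a finite Galois number field `F`, given as a `Type`
with `Algebra F Qb`. -/
theorem PG42_exists_galois_level (L : IntermediateField ℚ Qb) [FiniteDimensional ℚ L] :
    ∃ (F : Type) (_ : Field F) (_ : NumberField F) (_ : IsGalois ℚ F)
      (_ : Algebra F Qb) (_ : IsScalarTower ℚ F Qb),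
      ∀ σ : GQ, σ ∈ (AlgEquiv.restrictNormalHom (F := ℚ) (K₁ := Qb) F).ker →
        ∀ x ∈ L, σ x = x := by
  haveI hcl : IsAlgClosure ℚ Qb := AlgebraicClosure.instIsAlgClosure ℚ
  haveI hnQ : Normal ℚ Qb := IsAlgClosure.normal ℚ Qb
  let F : IntermediateField ℚ Qb := IntermediateField.normalClosure ℚ L Qb
  haveI hfd : FiniteDimensional ℚ F := normalClosure.is_finiteDimensional ℚ L Qb
  haveI hnF : Normal ℚ F := normalClosure.normal ℚ L Qb
  haveI hNF : NumberField F := { to_charZero := inferInstance, to_finiteDimensional := hfd }
  haveI hG : IsGalois ℚ F := { }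
  refine ⟨F, inferInstance, hNF, hG, inferInstance, inferInstance, ?_⟩
  intro σ hσ x hx
  rw [MonoidHom.mem_ker] at hσ
  have hxF : x ∈ F := IntermediateField.le_normalClosure L hx
  have h1 := AlgEquiv.restrictNormal_commutes σ F ⟨x, hxF⟩
  have h2 : (AlgEquiv.restrictNormalHom (F := ℚ) (K₁ := Qb) F) σ = σ.restrictNormal F := rfl
  rw [h2] at hσ
  rw [hσ] at h1
  exact h1.symm

/-! ### (c) trace and determinant from the characteristic polynomial -/

/-- (c) trace and determinant of an endomorphism of a plane from its characteristic
polynomial. -/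
theorem PG42_trace_det {k : Type*} [Field k] {V : Type*} [AddCommGroup V] [Module k V]
    [Module.Finite k V]
    (hV : Module.finrank k V = 2) (f : Module.End k V) (t d : k)
    (h : LinearMap.charpoly f = X ^ 2 - C t * X + C d) :
    LinearMap.trace k V f = t ∧ LinearMap.det f = d := by
  classical
  let b : Module.Basis (Fin 2) k V := Module.finBasisOfFinrankEq k V hV
  have h1 : (LinearMap.toMatrix b b f).charpoly = X ^ 2 - C t * X + C d := by
    rw [LinearMap.charpoly_toMatrix f b, h]
  rw [Matrix.charpoly_fin_two] at h1
  have htr : (LinearMap.toMatrix b b f).trace = t := by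
    have := congrArg (fun q : k[X] => q.coeff 1) h1
    simp only [coeff_add, coeff_sub, coeff_X_pow, coeff_C_mul, coeff_X_one, coeff_C] at this
    simpa using this
  have hdet : (LinearMap.toMatrix b b f).det = d := by
    have := congrArg (fun q : k[X] => q.coeff 0) h1
    simp only [coeff_add, coeff_sub, coeff_X_pow, coeff_C_mul, coeff_X_zero, coeff_C] at this
    simpa using this
  exact ⟨by rw [LinearMap.trace_eq_matrix_trace k b f, htr],
    by rw [← LinearMap.det_toMatrix b f, hdet]⟩

end Fermat.Agent.G_helper12_S42AUX
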