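import Fermat.Agent.G_helper6_Defs

/-!
# Project G: the contracts between the pieces

Every piece proves one of the `Prop`s below and takes the contracts of its upstream pieces as
explicit hypotheses, so that all pieces can be written in parallel.  Only definitions here.
-/

set_option autoImplicit false

open UpperHalfPlane ModularForm CongruenceSubgroup AlgebraicCurve
open scoped MatrixGroups ModularForm Manifold TensorProduct

noncomputable section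

namespace Fermat.Agent.G_helper6_Defs

/-- Order of vanishing at a point of the upper half plane (for holomorphic `a ≠ 0`). -/
def PG_ordAt (a : ℍ → ℂ) (z : ℍ) : ℤ :=
  ((analyticOrderAt (a ∘ UpperHalfPlane.ofComplex) (z : ℂ)).toNat : ℤ)

/-- (G3) twisted Eisenstein series exist for every good character. -/
def PG_EIS (N : ℕ) : Prop :=
  ∀ χ : Gamma0 N →* ℂˣ, PG_IsGoodChar N χ →
    ∃ E : ℍ → ℂ, PG_IsForm N 4 χ E ∧ Filter.Tendsto E atImInfty (nhds 1)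

/-- (G8a) holomorphic `p`-th roots on the upper half plane. -/
def PG_ROOT (p : ℕ) : Prop :=
  ∀ g : ℂ → ℂ, DifferentiableOn ℂ g {z : ℂ | 0 < z.im} →
    (∃ z : ℂ, 0 < z.im ∧ g z ≠ 0) →
    (∀ z : ℂ, 0 < z.im → ∃ m : ℕ, analyticOrderAt g z = ((p * m : ℕ) : ℕ∞)) →
    ∃ f : ℂ → ℂ, DifferentiableOn ℂ f {z : ℂ | 0 < z.im} ∧
      ∀ z : ℂ, 0 < z.im → f z ^ p = g z

/-- (AN1 = G4) a quotient of two forms of the same weight with trivial character lies in the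
function field `ℂ (j (q ^ d) : d ∣ N)`. -/
def PG_AN1 (N : ℕ) : Prop :=
  ∀ (k : ℤ) (a b : ℍ → ℂ), PG_IsForm N k 1 a → PG_IsForm N k 1 b → b ≠ 0 →
    ∃ x : PG_FC N, PG_Realizes x a b

/-- (AN2) every element of the function field is a quotient of two forms. -/
def PG_AN2 (N : ℕ) : Prop :=
  ∀ x : PG_FC N, ∃ (k : ℤ) (a b : ℍ → ℂ),
    PG_IsForm N k 1 a ∧ PG_IsForm N k 1 b ∧ b ≠ 0 ∧ PG_Realizes x a b

/-- (AN3) the divisor of a `p`-th power of a quotient of forms with good characters is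
divisible by `p` at EVERY place (points, elliptic points, cusps). -/
def PG_AN3 (N p : ℕ) : Prop :=
  ∀ (k : ℤ) (χa χb : Gamma0 N →* ℂˣ) (a b : ℍ → ℂ) (x : PG_FC N),
    PG_IsGoodChar N χa → PG_IsGoodChar N χb → PG_IsForm N k χa a → PG_IsForm N k χb b →
    a ≠ 0 → b ≠ 0 → PG_Realizes x (a ^ p) (b ^ p) →
    ∀ v : Place ℂ (PG_FC N), (p : ℤ) ∣ v.ord x

/-- (AN4) at every point of the upper half plane the analytic order of a quotient of forms is
a positive multiple of the order at some place. -/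
def PG_AN4 (N : ℕ) : Prop :=
  ∀ z : ℍ, ∃ (v : Place ℂ (PG_FC N)) (e : ℕ), 0 < e ∧
    ∀ (x : PG_FC N) (k : ℤ) (a b : ℍ → ℂ), x ≠ 0 →
      PG_IsForm N k 1 a → PG_IsForm N k 1 b → b ≠ 0 → PG_Realizes x a b →
      PG_ordAt a z - PG_ordAt b z = (e : ℤ) * v.ord x

/-- (AN5) a function without zeros and poles is constant. -/
def PG_AN5 (N : ℕ) : Prop :=
  ∀ x : PG_FC N, x ≠ 0 → (∀ v : Place ℂ (PG_FC N), v.ord x = 0) →
    ∃ c : ℂ, x = algebraMap ℂ (PG_FC N) c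

/-- (G8b) the `p`-torsion of `Pic⁰` over `ℂ` is finite. -/
def PG_FIN (N p : ℕ) : Prop :=
  (Pic0.torsion ℂ (PG_FC N) p : Set (PG_JC N)).Finite

/-- (G6) the characterising properties of `Θ : M → Pic⁰ (F_ℂ) [p]`. -/
structure PG_THETA (N p : ℕ) (Θ : PG_M N →+ PG_JC N) : Prop where
  tors : ∀ c : PG_M N, (p : ℤ) • Θ c = 0
  inj : ∀ c : PG_M N, Θ c = 0 → ∃ c' : PG_M N, c = (p : ℤ) • c'
  char : ∀ (c : PG_M N) (k : ℤ) (χb : Gamma0 N →* ℂˣ) (a b : ℍ → ℂ) (x : PG_FC N)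
    (D : Divisor.degZero (K := ℂ) (F := PG_FC N)),
    PG_IsGoodChar N χb → PG_IsForm N k (PG_chi N p (c : Additive (Gamma0 N) →+ ℤ) * χb) a →
    PG_IsForm N k χb b → a ≠ 0 → b ≠ 0 → PG_Realizes x (a ^ p) (b ^ p) →
    (∀ v : Place ℂ (PG_FC N), (p : ℤ) * (D : Divisor ℂ (PG_FC N)) v = v.ord x) →
    Θ c = Pic0.mk D

/-- (G7) `Θ` is Hecke-equivariant at `ℓ`. -/
def PG_THETAHECKE (N ℓ : ℕ) [NeZero N] [NeZero ℓ] (Θ : PG_M N →+ PG_JC N) : Prop :=
  ∀ c c' : PG_M N,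
    (c' : Additive (Gamma0 N) →+ ℤ) = PG_heckeHom N ℓ (c : Additive (Gamma0 N) →+ ℤ) →
    ModularCurve.heckeOperatorAlong ℂ N ℓ (Θ c) = Θ c'

/-- (G8) the descent map `Pic⁰ (F_ℚ̄) → Pic⁰ (F_ℂ)`: injective, Hecke-equivariant, and onto
the `p`-torsion. -/
structure PG_DESC (N p : ℕ) [NeZero N] (b : ModularCurve.JZero N →+ PG_JC N) : Prop where
  inj : Function.Injective b
  hecke : ∀ (ℓ : Nat.Primes) (x : ModularCurve.JZero N), ¬ (ℓ : ℕ) ∣ N →
    haveI : NeZero (ℓ : ℕ) := ⟨ℓ.2.ne_zero⟩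
    b (ModularCurve.heckeOperatorBar N ℓ x) = ModularCurve.heckeOperatorAlong ℂ N ℓ (b x)
  surj : ∀ y : PG_JC N, (p : ℤ) • y = 0 → ∃ x : ModularCurve.JZero N, b x = y

/-- (E2, map form) the output of the analytic part of Project G: a Hecke-equivariant map
`Θ₀ : M → J₀(N)(ℚ̄)[p]` which is injective modulo `p`, and finiteness of `J₀(N)(ℚ̄)[p]`. -/
structure PG_E2 (N p : ℕ) [NeZero N] (Θ₀ : PG_M N →+ ModularCurve.JZero N) : Prop where
  tors : ∀ c : PG_M N, (p : ℤ) • Θ₀ c = 0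
  inj : ∀ c : PG_M N, Θ₀ c = 0 → ∃ c' : PG_M N, c = (p : ℤ) • c'
  hecke : ∀ (ℓ : Nat.Primes) (c c' : PG_M N), ¬ (ℓ : ℕ) ∣ N →
    haveI : NeZero (ℓ : ℕ) := ⟨ℓ.2.ne_zero⟩
    (c' : Additive (Gamma0 N) →+ ℤ) = PG_heckeHom N ℓ (c : Additive (Gamma0 N) →+ ℤ) →
    ModularCurve.heckeOperatorBar N ℓ (Θ₀ c) = Θ₀ c'
  fin : (Pic0.torsion (AlgebraicClosure ℚ) (ModularCurve.modularFunctionFieldBar N) p :
    Set (ModularCurve.JZero N)).Finite

end Fermat.Agent.G_helper6_Defs
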