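import Mathlib
import Fermat.Agent.G_helper6_Contracts

set_option autoImplicit false

open UpperHalfPlane ModularForm CongruenceSubgroup AlgebraicCurve
open scoped MatrixGroups ModularForm Manifold TensorProduct
open Fermat.Agent.G_helper6_Defs

namespace Fermat.Agent.G_helper14_G8bForms

/-! ### Toolkit: products and powers of forms -/

theorem PG_G8b_form_congr {N : ℕ} {k k' : ℤ} {χ χ' : Gamma0 N →* ℂˣ} {a a' : ℍ → ℂ}
    (ha : PG_IsForm N k χ a) (hk : k = k') (hχ : χ = χ') (haa : a = a') :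
    PG_IsForm N k' χ' a' := by
  subst hk hχ haa
  exact ha

theorem PG_G8b_form_mul {N : ℕ} {k k' : ℤ} {χ χ' : Gamma0 N →* ℂˣ} {a a' : ℍ → ℂ}
    (ha : PG_IsForm N k χ a) (ha' : PG_IsForm N k' χ' a') :
    PG_IsForm N (k + k') (χ * χ') (a * a') where
  holo := ha.holo.mul ha'.holo
  aut γ z := by
    simp only [Pi.mul_apply, ha.aut γ z, ha'.aut γ z, MonoidHom.mul_apply, Units.val_mul]
    rw [zpow_add₀ (denom_ne_zero _ z)]
    ring
  bdd σ := by
    rw [ModularForm.mul_slash_SL2]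
    exact (ha.bdd σ).mul (ha'.bdd σ)

theorem PG_G8b_form_one (N : ℕ) : PG_IsForm N 0 1 (1 : ℍ → ℂ) where
  holo := mdifferentiable_const
  aut γ z := by simp
  bdd σ := by
    rw [ModularForm.is_invariant_one]
    exact Filter.const_boundedAtFilter _ _

theorem PG_G8b_form_pow {N : ℕ} {k : ℤ} {χ : Gamma0 N →* ℂˣ} {a : ℍ → ℂ}
    (ha : PG_IsForm N k χ a) (n : ℕ) :
    PG_IsForm N (n * k) (χ ^ n) (a ^ n) := by
  induction n with
  | zero =>
    exact PG_G8b_form_congr (PG_G8b_form_one N) (by simp)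
      (MonoidHom.ext fun γ => by simp) (by rw [pow_zero])
  | succ n ih =>
    exact PG_G8b_form_congr (PG_G8b_form_mul ih ha) (by push_cast; ring)
      (MonoidHom.ext fun γ => by simp [pow_succ]) (by rw [pow_succ])

/-! ### Toolkit: `q`-expansions of forms with trivial character -/

theorem PG_G8b_T_mem (N : ℕ) : ModularGroup.T ∈ Gamma0 N := by
  rw [Gamma0_mem]
  simp [ModularGroup.T]

theorem PG_G8b_periodic {N : ℕ} {k : ℤ} {a : ℍ → ℂ} (ha : PG_IsForm N k 1 a) :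
    Function.Periodic (a ∘ ofComplex) (1 : ℝ) := by
  intro w
  by_cases hw : 0 < w.im
  · have hw1 : 0 < (w + (1 : ℝ)).im := by simpa using hw
    simp only [Function.comp_apply, ofComplex_apply_of_im_pos hw1, ofComplex_apply_of_im_pos hw]
    have h := ha.aut ⟨ModularGroup.T, PG_G8b_T_mem N⟩ ⟨w, hw⟩
    have hd : denom ((ModularGroup.T : SL(2, ℤ)) : GL (Fin 2) ℝ) (⟨w, hw⟩ : ℍ) = 1 := by
      simp [denom, ModularGroup.coe_T]
    simp only [MonoidHom.one_apply, Units.val_one, one_mul] at h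
    rw [hd, one_zpow, one_mul] at h
    rw [← h]
    congr 1
    rw [modular_T_smul]
    ext
    simp [add_comm]
  · have hw' : w.im ≤ 0 := not_lt.mp hw
    have hw1 : (w + (1 : ℝ)).im ≤ 0 := by simpa using hw'
    simp only [Function.comp_apply]
    rw [ofComplex_apply_of_im_nonpos hw1, ofComplex_apply_of_im_nonpos hw']

theorem PG_G8b_bdd {N : ℕ} {k : ℤ} {χ : Gamma0 N →* ℂˣ} {a : ℍ → ℂ} (ha : PG_IsForm N k χ a) :
    IsBoundedAtImInfty a := by
  have h := ha.bdd 1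
  rwa [SlashAction.slash_one] at h

theorem PG_G8b_analyticAt {N : ℕ} {k : ℤ} {a : ℍ → ℂ} (ha : PG_IsForm N k 1 a) :
    AnalyticAt ℂ (cuspFunction 1 a) 0 :=
  analyticAt_cuspFunction_zero one_pos (PG_G8b_periodic ha) ha.holo (PG_G8b_bdd ha)

theorem PG_G8b_qLaur_mul {N : ℕ} {k k' : ℤ} {a b : ℍ → ℂ} (ha : PG_IsForm N k 1 a)
    (hb : PG_IsForm N k' 1 b) : PG_qLaur (a * b) = PG_qLaur a * PG_qLaur b := by
  unfold PG_qLaur
  rw [qExpansion_mul (PG_G8b_analyticAt ha) (PG_G8b_analyticAt hb), map_mul]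

theorem PG_G8b_qLaur_one : PG_qLaur (1 : ℍ → ℂ) = 1 := by
  unfold PG_qLaur
  rw [qExpansion_one, map_one]

theorem PG_G8b_qLaur_zero : PG_qLaur (0 : ℍ → ℂ) = 0 := by
  unfold PG_qLaur
  rw [qExpansion_zero, map_zero]

theorem PG_G8b_form_pow_triv {N : ℕ} {k : ℤ} {a : ℍ → ℂ}
    (ha : PG_IsForm N k 1 a) (n : ℕ) : PG_IsForm N (n * k) 1 (a ^ n) :=
  PG_G8b_form_congr (PG_G8b_form_pow ha n) rfl (MonoidHom.ext fun γ => by simp) rfl

theorem PG_G8b_form_mul_triv {N : ℕ} {k k' : ℤ} {a a' : ℍ → ℂ}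
    (ha : PG_IsForm N k 1 a) (ha' : PG_IsForm N k' 1 a') :
    PG_IsForm N (k + k') 1 (a * a') :=
  PG_G8b_form_congr (PG_G8b_form_mul ha ha') rfl (MonoidHom.ext fun γ => by simp) rfl

theorem PG_G8b_qLaur_pow {N : ℕ} {k : ℤ} {a : ℍ → ℂ} (ha : PG_IsForm N k 1 a) (n : ℕ) :
    PG_qLaur (a ^ n) = PG_qLaur a ^ n := by
  induction n with
  | zero => simpa using PG_G8b_qLaur_one
  | succ n ih =>
    rw [pow_succ, pow_succ, PG_G8b_qLaur_mul (PG_G8b_form_pow_triv ha n) ha, ih]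

theorem PG_G8b_qLaur_eq_zero_iff {N : ℕ} {k : ℤ} {a : ℍ → ℂ} (ha : PG_IsForm N k 1 a) :
    PG_qLaur a = 0 ↔ a = 0 := by
  unfold PG_qLaur
  rw [← qExpansion_eq_zero_iff one_pos (PG_G8b_periodic ha) ha.holo (PG_G8b_bdd ha)]
  constructor
  · intro h
    exact HahnSeries.ofPowerSeries_injective (by rw [h, map_zero])
  · intro h
    rw [h, map_zero]

theorem PG_G8b_qLaur_ne_zero {N : ℕ} {k : ℤ} {a : ℍ → ℂ} (ha : PG_IsForm N k 1 a)
    (h0 : a ≠ 0) : PG_qLaur a ≠ 0 := fun h => h0 ((PG_G8b_qLaur_eq_zero_iff ha).1 h)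

end Fermat.Agent.G_helper14_G8bForms
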