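import Mathlib
import Fermat.Agent.G_helper14_G8bForms

set_option autoImplicit false

open UpperHalfPlane ModularForm CongruenceSubgroup AlgebraicCurve
open scoped MatrixGroups ModularForm Manifold TensorProduct
open Fermat.Agent.G_helper6_Defs Fermat.Agent.G_helper14_G8bForms

namespace Fermat.Agent.G_helper14_G8bRoot

/-! ### Analytic orders -/

theorem PG_G8b_analyticAt_comp {a : ℍ → ℂ} (ha : MDifferentiable 𝓘(ℂ) 𝓘(ℂ) a) {z : ℂ}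
    (hz : 0 < z.im) : AnalyticAt ℂ (a ∘ ofComplex) z :=
  (UpperHalfPlane.mdifferentiable_iff.1 ha).analyticOnNhd isOpen_upperHalfPlaneSet z hz

theorem PG_G8b_order_ne_top {a : ℍ → ℂ} (ha : MDifferentiable 𝓘(ℂ) 𝓘(ℂ) a) (h0 : a ≠ 0)
    {z : ℂ} (hz : 0 < z.im) : analyticOrderAt (a ∘ ofComplex) z ≠ ⊤ := by
  intro htop
  apply h0
  rw [analyticOrderAt_eq_top] at htop
  have h := (UpperHalfPlane.mdifferentiable_iff.1 ha).analyticOnNhd isOpen_upperHalfPlaneSet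
  have hpre : IsPreconnected {z : ℂ | 0 < z.im} :=
    (Complex.isConnected_of_upperHalfPlane subset_rfl (by grind)).isPreconnected
  have key := h.eqOn_zero_of_preconnected_of_eventuallyEq_zero hpre hz htop
  ext w
  have := key w.im_pos
  simpa using this

theorem PG_G8b_order_dvd {N m : ℕ} (hm : 0 < m) (h4 : PG_AN4 N) {x : PG_FC N} (hx : x ≠ 0)
    {k : ℤ} {a b : ℍ → ℂ} (ha : PG_IsForm N k 1 a) (hb : PG_IsForm N k 1 b) (ha0 : a ≠ 0)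
    (hb0 : b ≠ 0) (hreal : PG_Realizes x a b)
    (hdiv : ∀ v : Place ℂ (PG_FC N), (m : ℤ) ∣ v.ord x) {z : ℂ} (hz : 0 < z.im) :
    ∃ M : ℕ, analyticOrderAt ((a * b ^ (m - 1)) ∘ ofComplex) z = ((m * M : ℕ) : ℕ∞) := by
  obtain ⟨m', rfl⟩ : ∃ m', m = m' + 1 := ⟨m - 1, by omega⟩
  obtain ⟨v, e, he, hv⟩ := h4 ⟨z, hz⟩
  have h1 := hv x k a b hx ha hb hb0 hreal
  obtain ⟨d, hd⟩ := hdiv v
  have hAa := PG_G8b_analyticAt_comp ha.holo hz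
  have hAb := PG_G8b_analyticAt_comp hb.holo hz
  have hoa := PG_G8b_order_ne_top ha.holo ha0 hz
  have hob := PG_G8b_order_ne_top hb.holo hb0 hz
  set na := (analyticOrderAt (a ∘ ofComplex) z).toNat with hna
  set nb := (analyticOrderAt (b ∘ ofComplex) z).toNat with hnb
  have ea : analyticOrderAt (a ∘ ofComplex) z = (na : ℕ∞) := (ENat.natCast_toNat hoa).symm
  have eb : analyticOrderAt (b ∘ ofComplex) z = (nb : ℕ∞) := (ENat.natCast_toNat hob).symm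
  have h1' : (na : ℤ) - (nb : ℤ) = (e : ℤ) * (((m' + 1 : ℕ) : ℤ) * d) := by
    rw [← hd]
    exact h1
  have hnn : 0 ≤ (nb : ℤ) + (e : ℤ) * d := by
    have h2 : ((m' : ℤ) + 1) * ((nb : ℤ) + (e : ℤ) * d) = (na : ℤ) + (m' : ℤ) * nb := by
      push_cast at h1'
      linear_combination -h1'
    have h3 : 0 ≤ ((m' : ℤ) + 1) * ((nb : ℤ) + (e : ℤ) * d) := by
      rw [h2]
      positivity
    exact nonneg_of_mul_nonneg_right h3 (by positivity)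
  refine ⟨((nb : ℤ) + (e : ℤ) * d).toNat, ?_⟩
  have hfun : (a * b ^ (m' + 1 - 1)) ∘ ofComplex = (a ∘ ofComplex) * (b ∘ ofComplex) ^ m' := by
    funext w
    simp
  rw [hfun, analyticOrderAt_mul hAa (hAb.pow m'), analyticOrderAt_pow hAb, ea, eb]
  have hnat : na + m' * nb = (m' + 1) * ((nb : ℤ) + (e : ℤ) * d).toNat := by
    zify
    rw [Int.toNat_of_nonneg hnn]
    push_cast at h1'
    linear_combination h1'
  rw [← hnat]
  push_cast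
  rfl


/-! ### Extraction of the root -/

theorem PG_G8b_mul_pow_ne_zero {N : ℕ} {k : ℤ} {a b : ℍ → ℂ} (ha : PG_IsForm N k 1 a)
    (hb : PG_IsForm N k 1 b) (ha0 : a ≠ 0) (hb0 : b ≠ 0) (n : ℕ) : a * b ^ n ≠ 0 := by
  intro h
  have h1 := (PG_G8b_qLaur_eq_zero_iff
    (PG_G8b_form_mul_triv ha (PG_G8b_form_pow_triv hb n))).2 h
  rw [PG_G8b_qLaur_mul ha (PG_G8b_form_pow_triv hb n), PG_G8b_qLaur_pow hb] at h1
  rcases mul_eq_zero.1 h1 with h2 | h2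
  · exact PG_G8b_qLaur_ne_zero ha ha0 h2
  · exact PG_G8b_qLaur_ne_zero hb hb0 (pow_eq_zero_iff'.1 h2).1

theorem PG_G8b_exists_root {N m : ℕ} (hm : 0 < m) (hroot : PG_ROOT m) (h4 : PG_AN4 N)
    {x : PG_FC N} (hx : x ≠ 0)
    {k : ℤ} {a b : ℍ → ℂ} (ha : PG_IsForm N k 1 a) (hb : PG_IsForm N k 1 b) (ha0 : a ≠ 0)
    (hb0 : b ≠ 0) (hreal : PG_Realizes x a b)
    (hdiv : ∀ v : Place ℂ (PG_FC N), (m : ℤ) ∣ v.ord x) :
    ∃ r : ℍ → ℂ, MDifferentiable 𝓘(ℂ) 𝓘(ℂ) r ∧ r ^ m = a * b ^ (m - 1) := by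
  have hg := PG_G8b_form_mul_triv ha (PG_G8b_form_pow_triv hb (m - 1))
  have hg0 : a * b ^ (m - 1) ≠ 0 := PG_G8b_mul_pow_ne_zero ha hb ha0 hb0 (m - 1)
  obtain ⟨τ, hτ⟩ := Function.ne_iff.1 hg0
  obtain ⟨f, hf, hfp⟩ := hroot ((a * b ^ (m - 1)) ∘ ofComplex)
    (UpperHalfPlane.mdifferentiable_iff.1 hg.holo)
    ⟨(τ : ℂ), τ.im_pos, by simpa using hτ⟩
    (fun z hz => PG_G8b_order_dvd hm h4 hx ha hb ha0 hb0 hreal hdiv hz)
  refine ⟨fun τ => f τ, ?_, ?_⟩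
  · rw [UpperHalfPlane.mdifferentiable_iff]
    refine hf.congr fun z hz => ?_
    simp only [Function.comp_apply]
    rw [ofComplex_apply_of_im_pos hz]
  · funext τ
    have := hfp τ τ.im_pos
    simpa using this

/-! ### Rigidity -/

theorem PG_G8b_rigid {m : ℕ} (hm : 0 < m) {h s : ℍ → ℂ} (hh : MDifferentiable 𝓘(ℂ) 𝓘(ℂ) h)
    (hs : MDifferentiable 𝓘(ℂ) 𝓘(ℂ) s) (hpow : h ^ m = s ^ m) :
    ∃ ζ : ℂ, ζ ^ m = 1 ∧ ∀ τ, h τ = ζ * s τ := by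
  have hprim := Complex.isPrimitiveRoot_exp m hm.ne'
  have hprod : ∏ ζ ∈ Polynomial.nthRootsFinset m (1 : ℂ), (fun τ : ℍ => h τ - ζ * s τ) = 0 := by
    funext τ
    rw [Finset.prod_apply, ← hprim.pow_sub_pow_eq_prod_sub_mul (h τ) (s τ) hm]
    have := congrFun hpow τ
    simp only [Pi.pow_apply] at this
    simp [this]
  obtain ⟨ζ, hζ, h0⟩ := (UpperHalfPlane.prod_eq_zero_iff
    (fun ζ _ => hh.sub (mdifferentiable_const.mul hs))).1 hprod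
  refine ⟨ζ, (Polynomial.mem_nthRootsFinset hm 1).1 hζ, fun τ => ?_⟩
  have := congrFun h0 τ
  simpa [sub_eq_zero] using this


/-! ### The character of the root -/

theorem PG_G8b_exists_zeta {N m : ℕ} (hm : 0 < m) {k : ℤ} {g r : ℍ → ℂ}
    (hg : PG_IsForm N ((m : ℤ) * k) 1 g) (hr : MDifferentiable 𝓘(ℂ) 𝓘(ℂ) r)
    (hrg : r ^ m = g) (γ : Gamma0 N) :
    ∃ ζ : ℂ, ζ ^ m = 1 ∧ ∀ τ : ℍ, r ((γ : SL(2, ℤ)) • τ) =
      ζ * denom ((γ : SL(2, ℤ)) : GL (Fin 2) ℝ) τ ^ k * r τ := by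
  have hh : MDifferentiable 𝓘(ℂ) 𝓘(ℂ) (fun τ : ℍ => r ((γ : SL(2, ℤ)) • τ)) :=
    hr.comp (mdifferentiable_smul (g := ((γ : SL(2, ℤ)) : GL (Fin 2) ℝ)) (by simp))
  have hs : MDifferentiable 𝓘(ℂ) 𝓘(ℂ)
      (fun τ : ℍ => denom ((γ : SL(2, ℤ)) : GL (Fin 2) ℝ) τ ^ k * r τ) :=
    (mdifferentiable_denom_zpow _ k).mul hr
  have hpow : (fun τ : ℍ => r ((γ : SL(2, ℤ)) • τ)) ^ m =
      (fun τ : ℍ => denom ((γ : SL(2, ℤ)) : GL (Fin 2) ℝ) τ ^ k * r τ) ^ m := by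
    funext τ
    simp only [Pi.pow_apply]
    have e1 := congrFun hrg ((γ : SL(2, ℤ)) • τ)
    have e2 := congrFun hrg τ
    simp only [Pi.pow_apply] at e1 e2
    rw [e1, hg.aut γ τ, mul_pow, e2, ← zpow_natCast (denom _ _ ^ k), ← zpow_mul]
    simp [mul_comm]
  obtain ⟨ζ, hζ, h⟩ := PG_G8b_rigid hm hh hs hpow
  exact ⟨ζ, hζ, fun τ => by rw [h τ]; ring⟩

theorem PG_G8b_bdd_root {m : ℕ} (hm : 0 < m) {k : ℤ} {g r : ℍ → ℂ} (hrg : r ^ m = g)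
    (σ : SL(2, ℤ)) (hb : IsBoundedAtImInfty (g ∣[(m : ℤ) * k] σ)) :
    IsBoundedAtImInfty (r ∣[k] σ) := by
  rw [isBoundedAtImInfty_iff] at hb ⊢
  obtain ⟨M, A, hMA⟩ := hb
  refine ⟨max M 1, A, fun z hz => ?_⟩
  have h1 := hMA z hz
  have e : ((r ∣[k] σ) z) ^ m = (g ∣[(m : ℤ) * k] σ) z := by
    rw [SL_slash_apply, SL_slash_apply, mul_pow, ← hrg, Pi.pow_apply, ← zpow_natCast (_ ^ (-k)),
      ← zpow_mul]
    congr 2
    ring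
  rw [← e, norm_pow] at h1
  by_cases h2 : ‖(r ∣[k] σ) z‖ ≤ 1
  · exact h2.trans (le_max_right _ _)
  · rw [not_le] at h2
    exact ((le_self_pow₀ h2.le hm.ne').trans h1).trans (le_max_left _ _)

theorem PG_G8b_exists_char {N m : ℕ} (hm : 0 < m) {k : ℤ} {g r : ℍ → ℂ}
    (hg : PG_IsForm N ((m : ℤ) * k) 1 g) (hg0 : g ≠ 0) (hr : MDifferentiable 𝓘(ℂ) 𝓘(ℂ) r)
    (hrg : r ^ m = g) :
    ∃ χ : Gamma0 N →* ℂˣ, (∀ γ, χ γ ^ m = 1) ∧ PG_IsForm N k χ r := by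
  choose ζ hζ hζr using fun γ : Gamma0 N => PG_G8b_exists_zeta hm hg hr hrg γ
  obtain ⟨τ0, hτ0⟩ := Function.ne_iff.1 hg0
  have hr0 : r τ0 ≠ 0 := by
    intro h
    apply hτ0
    rw [← hrg]
    simp [h, hm.ne']
  have hne : ∀ γ, ζ γ ≠ 0 := by
    intro γ h
    have := hζ γ
    rw [h, zero_pow hm.ne'] at this
    exact zero_ne_one this
  have hmul : ∀ γ γ' : Gamma0 N, ζ (γ * γ') = ζ γ * ζ γ' := by
    intro γ γ'
    have e1 := hζr (γ * γ') τ0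
    have e2 := hζr γ ((γ' : SL(2, ℤ)) • τ0)
    have e3 := hζr γ' τ0
    have hact : (((γ * γ' : Gamma0 N) : SL(2, ℤ))) • τ0 =
        (γ : SL(2, ℤ)) • ((γ' : SL(2, ℤ)) • τ0) := by
      rw [Subgroup.coe_mul, mul_smul]
    have hcoc : denom (((γ * γ' : Gamma0 N) : SL(2, ℤ)) : GL (Fin 2) ℝ) τ0 =
        denom ((γ : SL(2, ℤ)) : GL (Fin 2) ℝ) (((γ' : SL(2, ℤ)) • τ0 : ℍ) : ℂ) *
          denom ((γ' : SL(2, ℤ)) : GL (Fin 2) ℝ) τ0 := by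
      rw [Subgroup.coe_mul, map_mul, map_mul, denom_cocycle _ _ τ0.im_ne_zero]
      congr 2
      rw [ModularGroup.sl_moeb, coe_smul_of_det_pos (by simp)]
    rw [hact, e2, e3, hcoc, mul_zpow] at e1
    have hd1 := denom_ne_zero ((γ : SL(2, ℤ)) : GL (Fin 2) ℝ) ((γ' : SL(2, ℤ)) • τ0 : ℍ)
    have hd2 := denom_ne_zero ((γ' : SL(2, ℤ)) : GL (Fin 2) ℝ) τ0
    have hd : denom ((γ : SL(2, ℤ)) : GL (Fin 2) ℝ) (((γ' : SL(2, ℤ)) • τ0 : ℍ) : ℂ) ^ k *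
        denom ((γ' : SL(2, ℤ)) : GL (Fin 2) ℝ) τ0 ^ k * r τ0 ≠ 0 :=
      mul_ne_zero (mul_ne_zero (zpow_ne_zero _ hd1) (zpow_ne_zero _ hd2)) hr0
    apply mul_right_cancel₀ hd
    linear_combination -e1
  refine ⟨MonoidHom.mk' (fun γ => Units.mk0 (ζ γ) (hne γ))
    (fun γ γ' => Units.ext (by simpa using hmul γ γ')), fun γ => Units.ext (by simpa using hζ γ),
    ⟨hr, fun γ τ => by simpa using hζr γ τ, fun σ => PG_G8b_bdd_root hm hrg σ (hg.bdd σ)⟩⟩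

end Fermat.Agent.G_helper14_G8bRoot
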