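import Mathlib
import Fermat.Agent.G_helper14_G8bRoot

/-!
# Project G, piece G8b-FINITE

Finiteness of `Pic⁰ (F_ℂ) [m]` for every `m ≥ 1` (`PG_G8b_gen`), and the pieces-row statement
`PG_G8b` for a prime `p`.  For `y = [D]` with `m D = div x`, `x = a / b`, the holomorphic
function `a b ^ (m - 1)` has all its orders divisible by `m` (contract AN4), hence an `m`-th
root `r` (contract ROOT), which transforms under `Gamma0 N` by a character `χ` with `χ ^ m = 1`.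
The map `y ↦ χ` is injective (contract AN1) with values in a finite set (`Gamma0 N` is finitely
generated).
-/

set_option autoImplicit false
set_option linter.style.haveILetI false

open UpperHalfPlane ModularForm CongruenceSubgroup AlgebraicCurve
open scoped MatrixGroups ModularForm Manifold TensorProduct
open Fermat.Agent.G_helper6_Defs Fermat.Agent.G_helper14_G8bForms
open Fermat.Agent.G_helper14_G8bRoot

namespace Fermat.Agent.G_helper14_G8b

/-- The data attached to an `m`-torsion class `y`: a divisor `D` with `m D = div x`,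
`x = a / b`, an `m`-th root `r` of `a b ^ (m - 1)` and its character `χ`. -/
def PG_G8b_Datum (N m : ℕ) (y : PG_JC N) (χ : Gamma0 N →* ℂˣ) : Prop :=
  ∃ (D : Divisor.degZero (K := ℂ) (F := PG_FC N)) (x : PG_FC N) (k : ℤ) (a b r : ℍ → ℂ),
    y = Pic0.mk D ∧ x ≠ 0 ∧
    (∀ v : Place ℂ (PG_FC N), (m : ℤ) * (D : Divisor ℂ (PG_FC N)) v = v.ord x) ∧
    PG_IsForm N k 1 a ∧ PG_IsForm N k 1 b ∧ a ≠ 0 ∧ b ≠ 0 ∧ PG_Realizes x a b ∧
    PG_IsForm N k χ r ∧ r ^ m = a * b ^ (m - 1) ∧ ∀ γ, χ γ ^ m = 1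

theorem PG_G8b_exists_datum {N m : ℕ} (hm : 0 < m) (hroot : PG_ROOT m) (h2 : PG_AN2 N)
    (h4 : PG_AN4 N) (y : PG_JC N) (hy : (m : ℤ) • y = 0) : ∃ χ, PG_G8b_Datum N m y χ := by
  obtain ⟨D, rfl⟩ := Pic0.mk_surjective y
  have hprin : ((m : ℤ) • D) ∈ (Divisor.principal (K := ℂ) (F := PG_FC N)).addSubgroupOf
      (Divisor.degZero (K := ℂ) (F := PG_FC N)) := by
    apply (QuotientAddGroup.eq_zero_iff _).1
    rw [← hy]
    rfl
  rw [AddSubgroup.mem_addSubgroupOf] at hprin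
  obtain ⟨x, hx, hxD⟩ := hprin
  have hxD' : ∀ v : Place ℂ (PG_FC N), (m : ℤ) * (D : Divisor ℂ (PG_FC N)) v = v.ord x := by
    intro v
    rw [← hxD v]
    simp
  obtain ⟨k, a, b, ha, hb, hb0, hreal⟩ := h2 x
  have hX : (x : LaurentSeries ℂ) ≠ 0 := fun h => hx (Subtype.ext h)
  have ha0 : a ≠ 0 := by
    intro h
    have h1 : PG_qLaur a = 0 := by rw [h]; exact PG_G8b_qLaur_zero
    have h2 : (x : LaurentSeries ℂ) * PG_qLaur b = 0 := by rw [hreal, h1]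
    rcases mul_eq_zero.1 h2 with h3 | h3
    · exact hX h3
    · exact PG_G8b_qLaur_ne_zero hb hb0 h3
  have hdiv : ∀ v : Place ℂ (PG_FC N), (m : ℤ) ∣ v.ord x := fun v => ⟨_, (hxD' v).symm⟩
  obtain ⟨r, hr, hrg⟩ := PG_G8b_exists_root hm hroot h4 hx ha hb ha0 hb0 hreal hdiv
  have hg : PG_IsForm N ((m : ℤ) * k) 1 (a * b ^ (m - 1)) := by
    refine PG_G8b_form_congr (PG_G8b_form_mul_triv ha (PG_G8b_form_pow_triv hb (m - 1))) ?_ rfl rfl
    have : ((m - 1 : ℕ) : ℤ) = (m : ℤ) - 1 := by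
      rw [Nat.cast_sub hm]; simp
    rw [this]
    ring
  obtain ⟨χ, hχ, hrf⟩ := PG_G8b_exists_char hm hg
    (PG_G8b_mul_pow_ne_zero ha hb ha0 hb0 (m - 1)) hr hrg
  exact ⟨χ, D, x, k, a, b, r, rfl, hx, hxD', ha, hb, ha0, hb0, hreal, hrf, hrg, hχ⟩

theorem PG_G8b_finite_chars (N m : ℕ) [NeZero N] (hm : 0 < m) :
    {χ : Gamma0 N →* ℂˣ | ∀ γ, χ γ ^ m = 1}.Finite := by
  haveI : Group.FG SL(2, ℤ) :=
    Group.fg_iff.2 ⟨{ModularGroup.S, ModularGroup.T}, SpecialLinearGroup.SL2Z_generators,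
      Set.toFinite _⟩
  haveI : Group.FG (Gamma0 N) := inferInstance
  obtain ⟨S, hS, hSfin⟩ := Group.fg_iff.1 (inferInstance : Group.FG (Gamma0 N))
  haveI : Finite S := hSfin.to_subtype
  haveI : NeZero m := ⟨hm.ne'⟩
  have hfin : {f : S → ℂˣ | ∀ i, f i ∈ ((rootsOfUnity m ℂ : Subgroup ℂˣ) : Set ℂˣ)}.Finite :=
    Set.Finite.pi' (fun _ => Set.finite_coe_iff.1 (inferInstanceAs (Finite (rootsOfUnity m ℂ))))
  refine Set.Finite.of_injOn (f := fun χ : Gamma0 N →* ℂˣ => fun s : S => χ (s : Gamma0 N))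
    ?_ ?_ hfin
  · intro χ hχ s
    simp only [SetLike.mem_coe, mem_rootsOfUnity]
    exact hχ s
  · intro χ _ χ' _ h
    refine MonoidHom.eq_of_eqOn_dense hS fun s hs => ?_
    exact congrFun h ⟨s, hs⟩


theorem PG_G8b_datum_inj {N m : ℕ} (hm : 0 < m) (h1 : PG_AN1 N) {y y' : PG_JC N}
    {χ : Gamma0 N →* ℂˣ} (hd : PG_G8b_Datum N m y χ) (hd' : PG_G8b_Datum N m y' χ) :
    y = y' := by
  obtain ⟨m', rfl⟩ : ∃ m', m = m' + 1 := ⟨m - 1, by omega⟩
  obtain ⟨D, x, k, a, b, r, rfl, hx, hxD, ha, hb, ha0, hb0, hreal, hr, hrg, hχ⟩ := hd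
  obtain ⟨D', x', k', a', b', r', rfl, hx', hxD', ha', hb', ha0', hb0', hreal', hr', hrg', -⟩ :=
    hd'
  simp only [Nat.add_sub_cancel] at hrg hrg'
  -- the forms `A = r b' (r' b)^(m-1)` and `B = (r' b)^m`
  have hrb' := PG_G8b_form_mul hr hb'
  have hr'b := PG_G8b_form_mul hr' hb
  have hA : PG_IsForm N (((m' + 1 : ℕ) : ℤ) * (k' + k)) 1 (r * b' * (r' * b) ^ m') :=
    PG_G8b_form_congr (PG_G8b_form_mul hrb' (PG_G8b_form_pow hr'b m')) (by push_cast; ring)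
      (MonoidHom.ext fun γ => by
        have := hχ γ
        simp only [MonoidHom.mul_apply, MonoidHom.pow_apply, MonoidHom.one_apply, mul_one]
        rw [← pow_succ']
        exact this) rfl
  have hB : PG_IsForm N (((m' + 1 : ℕ) : ℤ) * (k' + k)) 1 ((r' * b) ^ (m' + 1)) :=
    PG_G8b_form_congr (PG_G8b_form_pow hr'b (m' + 1)) rfl
      (MonoidHom.ext fun γ => by simpa using hχ γ) rfl
  have hBeq : (r' * b) ^ (m' + 1) = (a' * b' ^ m') * b ^ (m' + 1) := by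
    rw [mul_pow, hrg']
  have hAeq : (r * b' * (r' * b) ^ m') ^ (m' + 1) =
      (a * b ^ m') * b' ^ (m' + 1) * ((r' * b) ^ (m' + 1)) ^ m' := by
    rw [mul_pow, mul_pow, hrg, ← pow_mul, ← pow_mul, mul_comm m' (m' + 1)]
  -- `q`-expansions
  have fab := PG_G8b_form_mul_triv ha (PG_G8b_form_pow_triv hb m')
  have fab' := PG_G8b_form_mul_triv ha' (PG_G8b_form_pow_triv hb' m')
  have hqB : PG_qLaur ((r' * b) ^ (m' + 1)) =
      PG_qLaur a' * PG_qLaur b' ^ m' * PG_qLaur b ^ (m' + 1) := by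
    rw [hBeq, PG_G8b_qLaur_mul fab' (PG_G8b_form_pow_triv hb (m' + 1)),
      PG_G8b_qLaur_mul ha' (PG_G8b_form_pow_triv hb' m'), PG_G8b_qLaur_pow hb',
      PG_G8b_qLaur_pow hb]
  have hqA : PG_qLaur (r * b' * (r' * b) ^ m') ^ (m' + 1) =
      PG_qLaur a * PG_qLaur b ^ m' * PG_qLaur b' ^ (m' + 1) *
        PG_qLaur ((r' * b) ^ (m' + 1)) ^ m' := by
    rw [← PG_G8b_qLaur_pow hA, hAeq,
      PG_G8b_qLaur_mul (PG_G8b_form_mul_triv fab (PG_G8b_form_pow_triv hb' (m' + 1)))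
        (PG_G8b_form_pow_triv hB m'),
      PG_G8b_qLaur_mul fab (PG_G8b_form_pow_triv hb' (m' + 1)),
      PG_G8b_qLaur_mul ha (PG_G8b_form_pow_triv hb m'), PG_G8b_qLaur_pow hb,
      PG_G8b_qLaur_pow hb', PG_G8b_qLaur_pow hB]
  have hα' := PG_G8b_qLaur_ne_zero ha' ha0'
  have hβ := PG_G8b_qLaur_ne_zero hb hb0
  have hβ' := PG_G8b_qLaur_ne_zero hb' hb0'
  have hW0 : PG_qLaur ((r' * b) ^ (m' + 1)) ≠ 0 := by
    rw [hqB]
    exact mul_ne_zero (mul_ne_zero hα' (pow_ne_zero _ hβ')) (pow_ne_zero _ hβ)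
  have hB0 : (r' * b) ^ (m' + 1) ≠ 0 := by
    intro h
    apply hW0
    rw [h]
    exact PG_G8b_qLaur_zero
  obtain ⟨u, hu⟩ := h1 _ _ _ hA hB hB0
  unfold PG_Realizes at hu hreal hreal'
  -- the algebra in the field of Laurent series
  have e1 : (u : LaurentSeries ℂ) ^ (m' + 1) * PG_qLaur ((r' * b) ^ (m' + 1)) ^ (m' + 1) =
      PG_qLaur a * PG_qLaur b ^ m' * PG_qLaur b' ^ (m' + 1) *
        PG_qLaur ((r' * b) ^ (m' + 1)) ^ m' := by
    rw [← mul_pow, hu, hqA]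
  have e2 : (u : LaurentSeries ℂ) ^ (m' + 1) * PG_qLaur ((r' * b) ^ (m' + 1)) =
      PG_qLaur a * PG_qLaur b ^ m' * PG_qLaur b' ^ (m' + 1) := by
    apply mul_right_cancel₀ (pow_ne_zero m' hW0)
    linear_combination e1
  rw [hqB, ← hreal, ← hreal'] at e2
  have e3 : (u : LaurentSeries ℂ) ^ (m' + 1) * (x' : LaurentSeries ℂ) = (x : LaurentSeries ℂ) := by
    apply mul_right_cancel₀ (mul_ne_zero (pow_ne_zero (m' + 1) hβ) (pow_ne_zero (m' + 1) hβ'))
    linear_combination e2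
  have hux : u ^ (m' + 1) * x' = x := Subtype.ext (by push_cast; exact e3)
  have hu0 : u ≠ 0 := by
    intro h
    apply hx
    rw [← hux, h]
    simp
  have hord : ∀ v : Place ℂ (PG_FC N),
      v.ord x = ((m' + 1 : ℕ) : ℤ) * v.ord u + v.ord x' := by
    intro v
    rw [← hux, v.ord_mul (pow_ne_zero _ hu0) hx', ← zpow_natCast, v.ord_zpow]
  -- conclusion
  unfold Pic0.mk
  rw [QuotientAddGroup.eq, AddSubgroup.mem_addSubgroupOf]
  refine ⟨u⁻¹, inv_ne_zero hu0, fun v => ?_⟩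
  rw [Place.ord_inv]
  have h3 := hxD v
  have h4 := hxD' v
  have h5 := hord v
  have h6 : ((m' + 1 : ℕ) : ℤ) * ((D : Divisor ℂ (PG_FC N)) v - (D' : Divisor ℂ (PG_FC N)) v
      - v.ord u) = 0 := by
    linear_combination h3 - h4 + h5
  have h7 : ((m' + 1 : ℕ) : ℤ) ≠ 0 := by positivity
  have h8 := (mul_eq_zero.1 h6).resolve_left h7
  simp only [AddSubgroup.coe_add, AddSubgroup.coe_neg, Finsupp.add_apply, Finsupp.neg_apply]
  linarith

/-- **G8b, general exponent.** -/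
theorem PG_G8b_gen (N m : ℕ) [NeZero N] (hm : 0 < m) (hroot : PG_ROOT m) (h1 : PG_AN1 N)
    (h2 : PG_AN2 N) (h4 : PG_AN4 N) : PG_FIN N m := by
  classical
  unfold PG_FIN
  let Ψ : PG_JC N → (Gamma0 N →* ℂˣ) := fun y =>
    if h : ∃ χ, PG_G8b_Datum N m y χ then h.choose else 1
  have hΨ : ∀ y : PG_JC N, (m : ℤ) • y = 0 → PG_G8b_Datum N m y (Ψ y) := by
    intro y hy
    have hex := PG_G8b_exists_datum hm hroot h2 h4 y hy
    simp only [Ψ, dif_pos hex]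
    exact hex.choose_spec
  refine Set.Finite.of_injOn (f := Ψ) (t := {χ | ∀ γ, χ γ ^ m = 1}) ?_ ?_
    (PG_G8b_finite_chars N m hm)
  · intro y hy
    obtain ⟨D, x, k, a, b, r, -, -, -, -, -, -, -, -, -, -, hχ⟩ := hΨ y (Pic0.mem_torsion.1 hy)
    exact hχ
  · intro y hy y' hy' h
    have hd := hΨ y (Pic0.mem_torsion.1 hy)
    have hd' := hΨ y' (Pic0.mem_torsion.1 hy')
    have h' : Ψ y = Ψ y' := h
    rw [← h'] at hd'
    exact PG_G8b_datum_inj hm h1 hd hd'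

set_option linter.unusedVariables false in
/-- **G8b**: the `p`-torsion of `Pic⁰` of the function field of `X₀(N)` over `ℂ` is finite. -/
theorem PG_G8b (N p : ℕ) [NeZero N] (hp : p.Prime) [HasPrincipalDivisors ℂ (PG_FC N)]
    (hroot : PG_ROOT p) (h1 : PG_AN1 N) (h2 : PG_AN2 N) (h4 : PG_AN4 N) (h5 : PG_AN5 N) :
    PG_FIN N p :=
  PG_G8b_gen N p hp.pos hroot h1 h2 h4

end Fermat.Agent.G_helper14_G8b
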