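import Mathlib

/-!
# Project G, piece G1b (part T): the transfer through an arbitrary indexed transversal

`PG_G1b_transfer_section`: for a section `t` of `G → G ⧸ H`,
`transfer ϕ g = ∏ q, ϕ ((t (g • q))⁻¹ * g * t q)`.

`PG_G1b_transfer_indexed`: the same with the cosets indexed by `e : ι ≃ G ⧸ H`.
-/

set_option autoImplicit false

namespace Fermat.Agent.G_helper23_G1bT

open Subgroup MulAction

variable {G : Type*} [Group G] {H : Subgroup G} {A : Type*} [CommGroup A]

theorem PG_G1b_section_mem (t : G ⧸ H → G) (ht : ∀ q, (t q : G ⧸ H) = q) (g : G) (q : G ⧸ H) :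
    (t (g • q))⁻¹ * g * t q ∈ H := by
  rw [mul_assoc, ← QuotientGroup.eq]
  rw [ht (g • q)]
  have : ((g * t q : G) : G ⧸ H) = g • ((t q : G) : G ⧸ H) := rfl
  rw [this, ht q]

theorem PG_G1b_transfer_section [H.FiniteIndex] (ϕ : H →* A) (t : G ⧸ H → G)
    (ht : ∀ q, (t q : G ⧸ H) = q) [Fintype (G ⧸ H)] (g : G) :
    MonoidHom.transfer ϕ g =
      ∏ q : G ⧸ H, ϕ ⟨(t (g • q))⁻¹ * g * t q, PG_G1b_section_mem t ht g q⟩ := by
  rw [MonoidHom.transfer_def ϕ ⟨Set.range t, isComplement_range_left ht⟩ g]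
  unfold Subgroup.leftTransversals.diff
  simp only
  have hsub : (H.fintypeQuotientOfFiniteIndex) = ‹Fintype (G ⧸ H)› := Subsingleton.elim _ _
  rw [hsub]
  refine Fintype.prod_equiv (MulAction.toPerm g).symm _ _ fun q => ?_
  congr 1
  apply Subtype.ext
  simp only [smul_apply_eq_smul_apply_inv_smul, toPerm_symm_apply, smul_inv_smul]
  rw [IsComplement.leftQuotientEquiv_apply ht, IsComplement.leftQuotientEquiv_apply ht]
  simp only [smul_eq_mul, mul_assoc]

theorem PG_G1b_indexed_mem {ι : Type*} (e : ι ≃ G ⧸ H) (s : ι → G)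
    (hs : ∀ i, (s i : G ⧸ H) = e i) (g : G) (i : ι) :
    (s (e.symm (g • e i)))⁻¹ * g * s i ∈ H := by
  have := PG_G1b_section_mem (fun q => s (e.symm q)) (fun q => by simp [hs]) g (e i)
  simpa using this

theorem PG_G1b_transfer_indexed [H.FiniteIndex] (ϕ : H →* A) {ι : Type*} [Fintype ι]
    (e : ι ≃ G ⧸ H) (s : ι → G) (hs : ∀ i, (s i : G ⧸ H) = e i) (g : G) :
    MonoidHom.transfer ϕ g =
      ∏ i : ι, ϕ ⟨(s (e.symm (g • e i)))⁻¹ * g * s i, PG_G1b_indexed_mem e s hs g i⟩ := by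
  letI : Fintype (G ⧸ H) := Fintype.ofEquiv ι e
  rw [PG_G1b_transfer_section ϕ (fun q => s (e.symm q)) (fun q => by simp [hs]) g]
  refine (Fintype.prod_equiv e _ _ fun i => ?_).symm
  congr 1
  apply Subtype.ext
  simp

end Fermat.Agent.G_helper23_G1bT
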