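import Mathlib
import Fermat.Prelude.Def_ModularForm_HeckeOperator
import Fermat.Prelude.Def_ModularCurve_PeriodMapBundled
import Fermat.Agent.G_helper23_G1bT

/-!
# Project G, piece G1b (part A): abstract telescoping and the derivative of `F ∘ δ`
-/

set_option autoImplicit false

open UpperHalfPlane ModularForm CongruenceSubgroup
open scoped MatrixGroups ModularForm

namespace Fermat.Agent.G_helper23_G1bA

open Fermat.Agent.G_helper23_G1bT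

/-! ### Derivatives -/

/-- If `δ` acts on `ℍ` by the affine map `z ↦ a z + b`, then `F ∘ δ` has derivative
`f (δ τ) * a` whenever `F` has derivative `f`. -/
theorem PG_G1b_hasDerivAt_comp_affine {F f : ℍ → ℂ}
    (hF : ∀ τ : ℍ, HasDerivAt (F ∘ ofComplex) (f τ) ↑τ) (δ : GL (Fin 2) ℝ) (a b : ℂ)
    (hδ : ∀ z : ℍ, ((δ • z : ℍ) : ℂ) = a * z + b) (τ : ℍ) :
    HasDerivAt ((fun z : ℍ => F (δ • z)) ∘ ofComplex) (f (δ • τ) * a) ↑τ := by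
  have h1 : HasDerivAt (fun w : ℂ => a * w + b) a (τ : ℂ) := by
    simpa using ((hasDerivAt_id (τ : ℂ)).const_mul a).add_const b
  have h2 : HasDerivAt (F ∘ ofComplex) (f (δ • τ)) (a * (τ : ℂ) + b) := by
    have := hF (δ • τ)
    rwa [hδ τ] at this
  have h3 := HasDerivAt.comp (τ : ℂ) (h₂ := F ∘ ofComplex) (h := fun w : ℂ => a * w + b) h2 h1
  refine h3.congr_of_eventuallyEq ?_
  have hopen : IsOpen {w : ℂ | 0 < w.im} := isOpen_lt continuous_const Complex.continuous_im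
  filter_upwards [hopen.mem_nhds τ.im_pos] with w hw
  simp only [Function.comp_apply]
  congr 1
  have e1 : ofComplex w = ⟨w, hw⟩ := ofComplex_apply_of_im_pos hw
  rw [e1]
  have e2 := hδ ⟨w, hw⟩
  have e3 : (0 : ℝ) < (a * w + b).im := by
    have := (δ • (⟨w, hw⟩ : ℍ)).im_pos
    rw [← UpperHalfPlane.coe_im, e2] at this
    exact this
  rw [ofComplex_apply_of_im_pos e3]
  exact UpperHalfPlane.ext e2

theorem PG_G1b_hasDerivAt_heckeMatrix {F f : ℍ → ℂ}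
    (hF : ∀ τ : ℍ, HasDerivAt (F ∘ ofComplex) (f τ) ↑τ) {ℓ : ℕ} (hℓ : ℓ ≠ 0) (j : ℕ) (τ : ℍ) :
    HasDerivAt ((fun z : ℍ => F (heckeMatrix ℓ j • z)) ∘ ofComplex)
      ((f ∣[(2 : ℤ)] heckeMatrix ℓ j) τ) ↑τ := by
  have hℓ' : (ℓ : ℂ) ≠ 0 := by exact_mod_cast hℓ
  have := PG_G1b_hasDerivAt_comp_affine hF (heckeMatrix ℓ j) ((ℓ : ℂ)⁻¹) ((j : ℂ) / ℓ)
    (fun z => by rw [coe_heckeMatrix_smul hℓ]; field_simp) τ
  rw [slash_heckeMatrix_apply 2 hℓ, mul_comm]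
  exact this

theorem PG_G1b_hasDerivAt_heckeDiagMatrix {F f : ℍ → ℂ}
    (hF : ∀ τ : ℍ, HasDerivAt (F ∘ ofComplex) (f τ) ↑τ) {ℓ : ℕ} (hℓ : ℓ ≠ 0) (τ : ℍ) :
    HasDerivAt ((fun z : ℍ => F (heckeDiagMatrix ℓ • z)) ∘ ofComplex)
      ((f ∣[(2 : ℤ)] heckeDiagMatrix ℓ) τ) ↑τ := by
  have := PG_G1b_hasDerivAt_comp_affine hF (heckeDiagMatrix ℓ) (ℓ : ℂ) 0
    (fun z => by rw [coe_heckeDiagMatrix_smul hℓ, add_zero]) τ
  rw [slash_heckeDiagMatrix_apply 2 hℓ, mul_comm]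
  simpa using this

/-- The Hecke matrices indexed by `Option (Fin ℓ)`. -/
noncomputable def PG_G1b_D (ℓ : ℕ) : Option (Fin ℓ) → GL (Fin 2) ℝ
  | none => heckeDiagMatrix ℓ
  | some j => heckeMatrix ℓ j

theorem PG_G1b_heckeT_eq_sum (ℓ : ℕ) (f : ℍ → ℂ) :
    heckeT 2 ℓ f = ∑ i : Option (Fin ℓ), f ∣[(2 : ℤ)] PG_G1b_D ℓ i := by
  rw [heckeT_def, Fintype.sum_option, Finset.sum_range, add_comm]
  rfl

/-- `∑ i, F ∘ δ_i` is a primitive of `T_ℓ f`. -/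
theorem PG_G1b_hasDerivAt_sum {F f : ℍ → ℂ}
    (hF : ∀ τ : ℍ, HasDerivAt (F ∘ ofComplex) (f τ) ↑τ) {ℓ : ℕ} (hℓ : ℓ ≠ 0) (τ : ℍ) :
    HasDerivAt ((fun z : ℍ => ∑ i : Option (Fin ℓ), F (PG_G1b_D ℓ i • z)) ∘ ofComplex)
      (heckeT 2 ℓ f τ) ↑τ := by
  rw [PG_G1b_heckeT_eq_sum, Finset.sum_apply]
  have : ((fun z : ℍ => ∑ i : Option (Fin ℓ), F (PG_G1b_D ℓ i • z)) ∘ ofComplex) =
      fun w : ℂ => ∑ i : Option (Fin ℓ), ((fun z : ℍ => F (PG_G1b_D ℓ i • z)) ∘ ofComplex) w := by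
    funext w
    simp
  rw [this]
  refine HasDerivAt.fun_sum fun i _ => ?_
  rcases i with _ | j
  · exact PG_G1b_hasDerivAt_heckeDiagMatrix hF hℓ τ
  · exact PG_G1b_hasDerivAt_heckeMatrix hF hℓ j τ

end Fermat.Agent.G_helper23_G1bA
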