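import Mathlib
import Fermat.Prelude.Def_ModularCurve_HeckeModule
import Fermat.Prelude.Def_ModularCurve_PeriodHomPair
import Fermat.Prelude.Def_GaloisRep_Residual

/-!
# Project G (S29 + S42): shared definitions

Only definitions and a few trivial lemmas live here.  Route: board row 895.

* `PG_M N`            : the lattice of integral parabolic homomorphisms of `Gamma0 N`.
* `PG_FC N`, `PG_JC N`: the function field of `X₀(N)` over `ℂ` and its `Pic⁰`.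
* `PG_IsForm`         : holomorphic forms of weight `k` with character, bounded at all cusps.
* `PG_IsGoodChar`     : finite order characters killing parabolic and torsion elements.
* `PG_chi p c`        : the character `γ ↦ exp (2 π i c(γ) / p)`.
* `PG_qLaur`, `PG_Realizes` : `q`-expansions at `i∞`; `x = a / b` for `x` in the function field.
* `PG_conj`, `PG_heckeHom`  : the Hecke operator on `Hom (Gamma0 N, A)` as a transfer.
-/

set_option autoImplicit false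

open UpperHalfPlane ModularForm CongruenceSubgroup AlgebraicCurve
open scoped MatrixGroups ModularForm Manifold

noncomputable section

namespace Fermat.Agent.G_helper6_Defs

/-- The lattice `M = Hom_par (Gamma0 N, ℤ)`. -/
abbrev PG_M (N : ℕ) : Submodule ℤ (Additive (Gamma0 N) →+ ℤ) :=
  ModularCurve.Period.parabolicHoms ℤ (Gamma0 N) ℤ

/-- The function field of `X₀(N)` over `ℂ` (prelude construction with `L = ℂ`). -/
abbrev PG_FC (N : ℕ) : IntermediateField ℂ (LaurentSeries ℂ) :=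
  ModularCurve.laurentBaseChange ℂ (ModularCurve.modularFunctionFieldFull N)

/-- `Pic⁰` of the function field of `X₀(N)` over `ℂ`. -/
abbrev PG_JC (N : ℕ) : Type := Pic0 ℂ (PG_FC N)

/-- A holomorphic form of weight `k` on `Gamma0 N` with character `χ`, bounded at all cusps. -/
structure PG_IsForm (N : ℕ) (k : ℤ) (χ : Gamma0 N →* ℂˣ) (a : ℍ → ℂ) : Prop where
  holo : MDifferentiable 𝓘(ℂ) 𝓘(ℂ) a
  aut : ∀ (γ : Gamma0 N) (z : ℍ),
    a ((γ : SL(2, ℤ)) • z) = (χ γ : ℂ) * denom ((γ : SL(2, ℤ)) : GL (Fin 2) ℝ) z ^ k * a z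
  bdd : ∀ σ : SL(2, ℤ), IsBoundedAtImInfty (a ∣[k] σ)

/-- The characters we allow: finite order, trivial on every element of trace `± 2`
and on every torsion element. -/
structure PG_IsGoodChar (N : ℕ) (χ : Gamma0 N →* ℂˣ) : Prop where
  fin : ∃ n : ℕ, 0 < n ∧ ∀ γ : Gamma0 N, χ γ ^ n = 1
  par : ∀ γ : Gamma0 N,
    ((γ : SL(2, ℤ)) : Matrix (Fin 2) (Fin 2) ℤ).trace ^ 2 = 4 → χ γ = 1
  tors : ∀ (γ : Gamma0 N) (n : ℕ), 0 < n → γ ^ n = 1 → χ γ = 1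

/-- The character `γ ↦ exp (2 π i c(γ) / p)` attached to an integral homomorphism `c`. -/
def PG_chi (N p : ℕ) (c : Additive (Gamma0 N) →+ ℤ) : Gamma0 N →* ℂˣ where
  toFun γ := Units.mk0
    (Complex.exp (2 * Real.pi * Complex.I * (c (Additive.ofMul γ) : ℂ) / (p : ℂ)))
    (Complex.exp_ne_zero _)
  map_one' := by
    apply Units.ext
    simp
  map_mul' γ γ' := by
    apply Units.ext
    simp only [Units.val_mk0, Units.val_mul, ofMul_mul, map_add, Int.cast_add]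
    rw [← Complex.exp_add]
    congr 1
    ring

theorem PG_chi_apply (N p : ℕ) (c : Additive (Gamma0 N) →+ ℤ) (γ : Gamma0 N) :
    (PG_chi N p c γ : ℂ) =
      Complex.exp (2 * Real.pi * Complex.I * (c (Additive.ofMul γ) : ℂ) / (p : ℂ)) := rfl

/-- The `q`-expansion at `i∞` (period `1`) as a Laurent series. -/
def PG_qLaur (a : ℍ → ℂ) : LaurentSeries ℂ :=
  HahnSeries.ofPowerSeries ℤ ℂ (qExpansion 1 a)

/-- `x = a / b`, expressed on `q`-expansions at `i∞`. -/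
def PG_Realizes {N : ℕ} (x : PG_FC N) (a b : ℍ → ℂ) : Prop :=
  (x : LaurentSeries ℂ) * PG_qLaur b = PG_qLaur a

/-! ### The Hecke operator on `Hom (Gamma0 N, A)` -/

theorem PG_gamma0_mul_le (N ℓ : ℕ) : Gamma0 (N * ℓ) ≤ Gamma0 N := by
  intro γ hγ
  rw [Gamma0_mem] at hγ ⊢
  have h1 : ((N * ℓ : ℕ) : ℤ) ∣ (γ 1 0 : ℤ) := by
    rw [← ZMod.intCast_zmod_eq_zero_iff_dvd]
    exact hγ
  rw [ZMod.intCast_zmod_eq_zero_iff_dvd]
  exact Dvd.dvd.trans ⟨(ℓ : ℤ), by push_cast; ring⟩ h1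

/-- `Gamma0 (N ℓ)` as a subgroup of `Gamma0 N`. -/
def PG_H (N ℓ : ℕ) : Subgroup (Gamma0 N) := (Gamma0 (N * ℓ)).subgroupOf (Gamma0 N)

theorem PG_mem_H {N ℓ : ℕ} (B : Gamma0 N) :
    B ∈ PG_H N ℓ ↔ ((N * ℓ : ℕ) : ℤ) ∣ ((B : SL(2, ℤ)) 1 0 : ℤ) := by
  rw [PG_H, Subgroup.mem_subgroupOf, Gamma0_mem, ZMod.intCast_zmod_eq_zero_iff_dvd]

/-- The matrix `δ B δ⁻¹ = !![a, ℓ b; c / ℓ, d]` for `δ = diag (ℓ, 1)` and `B = !![a, b; c, d]`
(junk unless `ℓ ∣ c`). -/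
def PG_conjMat (ℓ : ℕ) (B : Matrix (Fin 2) (Fin 2) ℤ) : Matrix (Fin 2) (Fin 2) ℤ :=
  !![B 0 0, (ℓ : ℤ) * B 0 1; B 1 0 / (ℓ : ℤ), B 1 1]

theorem PG_conjMat_det (ℓ : ℕ) (B : Matrix (Fin 2) (Fin 2) ℤ) (h : (ℓ : ℤ) ∣ B 1 0) :
    (PG_conjMat ℓ B).det = B.det := by
  obtain ⟨c, hc⟩ := h
  rw [PG_conjMat, Matrix.det_fin_two, Matrix.det_fin_two]
  simp only [Matrix.of_apply, Matrix.cons_val', Matrix.cons_val_zero, Matrix.cons_val_one,
    Matrix.cons_val_fin_one]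
  rcases Nat.eq_zero_or_pos ℓ with h0 | hpos
  · subst h0
    simp only [Nat.cast_zero, zero_mul] at hc
    simp [hc]
  · have hℓ : (ℓ : ℤ) ≠ 0 := by exact_mod_cast hpos.ne'
    rw [hc, Int.mul_ediv_cancel_left _ hℓ]
    ring

theorem PG_conjMat_mul (ℓ : ℕ) (hℓ : 0 < ℓ) (B B' : Matrix (Fin 2) (Fin 2) ℤ)
    (h : (ℓ : ℤ) ∣ B 1 0) (h' : (ℓ : ℤ) ∣ B' 1 0) :
    PG_conjMat ℓ (B * B') = PG_conjMat ℓ B * PG_conjMat ℓ B' := by
  obtain ⟨c, hc⟩ := h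
  obtain ⟨c', hc'⟩ := h'
  have hℓ0 : (ℓ : ℤ) ≠ 0 := by exact_mod_cast hℓ.ne'
  have e1 : (B * B') 1 0 = (ℓ : ℤ) * (c * B' 0 0 + B 1 1 * c') := by
    rw [Matrix.mul_apply, Fin.sum_univ_two, hc, hc']
    ring
  ext i j
  fin_cases i <;> fin_cases j
  · simp only [PG_conjMat, Matrix.mul_apply, Fin.sum_univ_two, Fin.zero_eta, Fin.isValue,
      Matrix.of_apply, Matrix.cons_val', Matrix.cons_val_zero, Matrix.cons_val_one,
      Matrix.cons_val_fin_one]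
    rw [hc', Int.mul_ediv_cancel_left _ hℓ0]
    ring
  · simp only [PG_conjMat, Matrix.mul_apply, Fin.sum_univ_two, Fin.zero_eta, Fin.isValue,
      Fin.mk_one, Matrix.of_apply, Matrix.cons_val', Matrix.cons_val_zero, Matrix.cons_val_one,
      Matrix.cons_val_fin_one]
    ring
  · simp only [PG_conjMat, Fin.mk_one, Fin.isValue, Fin.zero_eta,
      Matrix.of_apply, Matrix.cons_val', Matrix.cons_val_zero, Matrix.cons_val_one,
      Matrix.cons_val_fin_one]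
    rw [e1, Int.mul_ediv_cancel_left _ hℓ0]
    simp only [Matrix.mul_apply, Fin.sum_univ_two, Fin.isValue,
      Matrix.of_apply, Matrix.cons_val', Matrix.cons_val_zero, Matrix.cons_val_one,
      Matrix.cons_val_fin_one]
    rw [hc, hc', Int.mul_ediv_cancel_left _ hℓ0, Int.mul_ediv_cancel_left _ hℓ0]
  · simp only [PG_conjMat, Matrix.mul_apply, Fin.sum_univ_two, Fin.mk_one, Fin.isValue,
      Matrix.of_apply, Matrix.cons_val', Matrix.cons_val_zero, Matrix.cons_val_one,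
      Matrix.cons_val_fin_one]
    rw [hc, Int.mul_ediv_cancel_left _ hℓ0]
    ring


theorem PG_dvd_of_mem_H {N ℓ : ℕ} {u : Gamma0 N} (hu : u ∈ PG_H N ℓ) :
    (ℓ : ℤ) ∣ ((u : SL(2, ℤ)) : Matrix (Fin 2) (Fin 2) ℤ) 1 0 :=
  Dvd.dvd.trans ⟨(N : ℤ), by push_cast; ring⟩ ((PG_mem_H u).1 hu)

theorem PG_conjMat_mem (N ℓ : ℕ) (hℓ : 0 < ℓ) {u : Gamma0 N} (hu : u ∈ PG_H N ℓ) :
    (N : ℤ) ∣ PG_conjMat ℓ ((u : SL(2, ℤ)) : Matrix (Fin 2) (Fin 2) ℤ) 1 0 := by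
  obtain ⟨c, hc⟩ := (PG_mem_H u).1 hu
  have hℓ0 : (ℓ : ℤ) ≠ 0 := by exact_mod_cast hℓ.ne'
  have e : PG_conjMat ℓ ((u : SL(2, ℤ)) : Matrix (Fin 2) (Fin 2) ℤ) 1 0 = (N : ℤ) * c := by
    simp only [PG_conjMat, Matrix.of_apply, Matrix.cons_val', Matrix.cons_val_zero,
      Matrix.cons_val_one, Matrix.cons_val_fin_one]
    rw [hc]
    push_cast
    rw [show (N : ℤ) * (ℓ : ℤ) * c = (ℓ : ℤ) * ((N : ℤ) * c) by ring,
      Int.mul_ediv_cancel_left _ hℓ0]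
  rw [e]
  exact dvd_mul_right _ _

/-- `δ B δ⁻¹` in `SL(2, ℤ)` for `δ = diag (ℓ, 1)`, when `ℓ ∣ c`. -/
def PG_conjSL (ℓ : ℕ) (B : SL(2, ℤ)) (h : (ℓ : ℤ) ∣ (B : Matrix (Fin 2) (Fin 2) ℤ) 1 0) :
    SL(2, ℤ) :=
  ⟨PG_conjMat ℓ (B : Matrix (Fin 2) (Fin 2) ℤ), by rw [PG_conjMat_det ℓ _ h]; exact B.2⟩

theorem PG_conjSL_coe (ℓ : ℕ) (B : SL(2, ℤ)) (h : (ℓ : ℤ) ∣ (B : Matrix (Fin 2) (Fin 2) ℤ) 1 0) :
    ((PG_conjSL ℓ B h : SL(2, ℤ)) : Matrix (Fin 2) (Fin 2) ℤ) =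
      PG_conjMat ℓ (B : Matrix (Fin 2) (Fin 2) ℤ) := rfl

theorem PG_conjSL_mem (N ℓ : ℕ) (hℓ : 0 < ℓ) {u : Gamma0 N} (hu : u ∈ PG_H N ℓ) :
    PG_conjSL ℓ (u : SL(2, ℤ)) (PG_dvd_of_mem_H hu) ∈ Gamma0 N := by
  rw [Gamma0_mem, ZMod.intCast_zmod_eq_zero_iff_dvd]
  exact PG_conjMat_mem N ℓ hℓ hu

/-- Conjugation by `δ = diag (ℓ, 1)`, as a homomorphism `Gamma0 (N ℓ) → Gamma0 N`:
`!![a, b; c, d] ↦ !![a, ℓ b; c / ℓ, d]`. -/
def PG_conj (N ℓ : ℕ) [NeZero ℓ] : ↥(PG_H N ℓ) →* Gamma0 N where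
  toFun u :=
    ⟨PG_conjSL ℓ ((u : Gamma0 N) : SL(2, ℤ)) (PG_dvd_of_mem_H u.2),
      PG_conjSL_mem N ℓ (Nat.pos_of_ne_zero (NeZero.ne ℓ)) u.2⟩
  map_one' := by
    apply Subtype.ext
    apply Subtype.ext
    show PG_conjMat ℓ (1 : Matrix (Fin 2) (Fin 2) ℤ) = 1
    ext i j
    fin_cases i <;> fin_cases j <;> simp [PG_conjMat]
  map_mul' u v := by
    apply Subtype.ext
    apply Subtype.ext
    exact PG_conjMat_mul ℓ (Nat.pos_of_ne_zero (NeZero.ne ℓ)) _ _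
      (PG_dvd_of_mem_H u.2) (PG_dvd_of_mem_H v.2)

theorem PG_conj_coe (N ℓ : ℕ) [NeZero ℓ] (u : ↥(PG_H N ℓ)) :
    (((PG_conj N ℓ u : Gamma0 N) : SL(2, ℤ)) : Matrix (Fin 2) (Fin 2) ℤ) =
      PG_conjMat ℓ (((u : Gamma0 N) : SL(2, ℤ)) : Matrix (Fin 2) (Fin 2) ℤ) := rfl

open Classical in
/-- The Hecke operator `T_ℓ` on `Hom (Gamma0 N, A)`: the transfer from `Gamma0 (N ℓ)` to
`Gamma0 N` of `u ↦ c (δ u δ⁻¹)`, `δ = diag (ℓ, 1)`.  Explicitly, for any left transversal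
`(t_i)` of `Gamma0 (N ℓ)` in `Gamma0 N` and `γ t_i = t_{π i} u_i`:
`(T_ℓ c) γ = ∑ i, c (δ u_i δ⁻¹)` (`MonoidHom.transfer_def`).
Junk value `0` if the index is infinite (it never is for `N ℓ ≠ 0`). -/
def PG_heckeHom (N ℓ : ℕ) [NeZero ℓ] {A : Type*} [AddCommGroup A]
    (c : Additive (Gamma0 N) →+ A) : Additive (Gamma0 N) →+ A :=
  if h : (PG_H N ℓ).FiniteIndex then
    haveI := h
    MonoidHom.toAdditiveLeft
      (MonoidHom.transfer ((AddMonoidHom.toMultiplicativeRight c).comp (PG_conj N ℓ)))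
  else 0

theorem PG_heckeHom_def (N ℓ : ℕ) [NeZero ℓ] {A : Type*} [AddCommGroup A]
    (c : Additive (Gamma0 N) →+ A) [h : (PG_H N ℓ).FiniteIndex] :
    PG_heckeHom N ℓ c = MonoidHom.toAdditiveLeft
      (MonoidHom.transfer ((AddMonoidHom.toMultiplicativeRight c).comp (PG_conj N ℓ))) := by
  rw [PG_heckeHom, dif_pos h]


/-! ### The lattice inside the complex parabolic homomorphisms -/

/-- Coefficient extension `ℤ → ℂ` on homomorphisms. -/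
def PG_castHom (N : ℕ) : (Additive (Gamma0 N) →+ ℤ) →+ (Additive (Gamma0 N) →+ ℂ) where
  toFun c := (Int.castAddHom ℂ).comp c
  map_zero' := by ext; simp
  map_add' c c' := by ext; simp

theorem PG_castHom_apply (N : ℕ) (c : Additive (Gamma0 N) →+ ℤ) (γ : Additive (Gamma0 N)) :
    PG_castHom N c γ = ((c γ : ℤ) : ℂ) := rfl

open scoped TensorProduct in
/-- The comparison map `ℂ ⊗ M → Hom (Gamma0 N, ℂ)`, `z ⊗ c ↦ z • c`. -/
def PG_latticeMap (N : ℕ) : ℂ ⊗[ℤ] (PG_M N) →ₗ[ℂ] (Additive (Gamma0 N) →+ ℂ) :=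
  LinearMap.liftBaseChange ℂ ((PG_castHom N).toIntLinearMap ∘ₗ (PG_M N).subtype)

end Fermat.Agent.G_helper6_Defs
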