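import Mathlib
import Fermat.Agent.G_helper6_Defs

/-!
# Project G, piece G1a-HECKEHOM: basic properties of the Hecke operator on `Hom (Gamma0 N, A)`

`PG_heckeHom N ℓ` is the transfer from `Gamma0 (N ℓ)` to `Gamma0 N` of `c ∘ (conjugation by
diag (ℓ, 1))`.  We prove: the index is finite, the operator is additive in `c`, functorial in the
coefficient group, and preserves parabolic homomorphisms.
-/

set_option autoImplicit false
set_option linter.style.haveILetI false

open UpperHalfPlane ModularForm CongruenceSubgroup AlgebraicCurve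
open scoped MatrixGroups ModularForm Manifold TensorProduct
open Fermat.Agent.G_helper6_Defs

namespace Fermat.Agent.G_helper3_G1aHECKEHOM

/-! ### Generic facts on the transfer -/

section Transfer

variable {G : Type*} [Group G] {H : Subgroup G} [H.FiniteIndex]

open Subgroup Subgroup.leftTransversals in
theorem PG_G1aHECKEHOM_transfer_mul {A : Type*} [CommGroup A] (ϕ ϕ' : H →* A) (g : G) :
    MonoidHom.transfer (ϕ * ϕ') g = MonoidHom.transfer ϕ g * MonoidHom.transfer ϕ' g := by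
  classical
  rw [MonoidHom.transfer_def (ϕ * ϕ') default g, MonoidHom.transfer_def ϕ default g,
    MonoidHom.transfer_def ϕ' default g]
  unfold diff
  simp only [MonoidHom.mul_apply]
  exact Finset.prod_mul_distrib

open Subgroup Subgroup.leftTransversals in
theorem PG_G1aHECKEHOM_transfer_comp {A B : Type*} [CommGroup A] [CommGroup B] (f : A →* B)
    (ϕ : H →* A) (g : G) :
    MonoidHom.transfer (f.comp ϕ) g = f (MonoidHom.transfer ϕ g) := by
  classical
  rw [MonoidHom.transfer_def (f.comp ϕ) default g, MonoidHom.transfer_def ϕ default g]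
  unfold diff
  simp only [MonoidHom.comp_apply]
  exact (map_prod f _ _).symm

theorem PG_G1aHECKEHOM_transfer_eq_one {A : Type*} [CommGroup A] (ϕ : H →* A) (g : G)
    (h : ∀ (t : G) (k : ℕ) (hmem : t⁻¹ * g ^ k * t ∈ H), ϕ ⟨t⁻¹ * g ^ k * t, hmem⟩ = 1) :
    MonoidHom.transfer ϕ g = 1 := by
  classical
  haveI : Finite (G ⧸ H) := H.finite_quotient_of_finiteIndex
  haveI : Fintype (Quotient (MulAction.orbitRel (Subgroup.zpowers g) (G ⧸ H))) :=
    Fintype.ofFinite _
  rw [MonoidHom.transfer_eq_prod_quotient_orbitRel_zpowers_quot ϕ g]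
  exact Finset.prod_eq_one fun q _ => h _ _ _

end Transfer

/-! ### Traces of powers of parabolic matrices -/

section Trace

theorem PG_G1aHECKEHOM_sq (M : Matrix (Fin 2) (Fin 2) ℤ) (hdet : M.det = 1) :
    M * M = M.trace • M - 1 := by
  rw [Matrix.det_fin_two] at hdet
  ext i j
  fin_cases i <;> fin_cases j <;>
    simp only [Matrix.mul_apply, Fin.sum_univ_two, Matrix.trace_fin_two, Matrix.sub_apply,
      Matrix.smul_apply, smul_eq_mul, Matrix.one_apply, Fin.zero_eta, Fin.mk_one, Fin.isValue,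
      if_true, if_false, one_ne_zero, zero_ne_one] <;>
    first
    | linear_combination (-1 : ℤ) * hdet
    | linear_combination (0 : ℤ) * hdet
    | linear_combination hdet

theorem PG_G1aHECKEHOM_trace_pow_succ_succ (M : Matrix (Fin 2) (Fin 2) ℤ) (hdet : M.det = 1)
    (k : ℕ) : (M ^ (k + 2)).trace = M.trace * (M ^ (k + 1)).trace - (M ^ k).trace := by
  have h1 : M ^ (k + 2) = M.trace • M ^ (k + 1) - M ^ k := by
    rw [pow_add, pow_two, PG_G1aHECKEHOM_sq M hdet, mul_sub, mul_one, Matrix.mul_smul, pow_succ]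
  rw [h1, Matrix.trace_sub, Matrix.trace_smul, smul_eq_mul]

theorem PG_G1aHECKEHOM_trace_pow (M : Matrix (Fin 2) (Fin 2) ℤ) (hdet : M.det = 1)
    (htr : M.trace ^ 2 = 4) (k : ℕ) : (M ^ k).trace ^ 2 = 4 := by
  obtain ⟨ε, hε, hM⟩ : ∃ ε : ℤ, ε ^ 2 = 1 ∧ M.trace = 2 * ε := by
    have h2 : (M.trace - 2) * (M.trace + 2) = 0 := by linear_combination htr
    rcases mul_eq_zero.1 h2 with h3 | h3
    · exact ⟨1, by norm_num, by linarith⟩
    · exact ⟨-1, by norm_num, by linarith⟩
  have key : ∀ n : ℕ, (M ^ n).trace = 2 * ε ^ n ∧ (M ^ (n + 1)).trace = 2 * ε ^ (n + 1) := by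
    intro n
    induction n with
    | zero =>
      refine ⟨?_, ?_⟩
      · simp
      · simpa using hM
    | succ n ih =>
      refine ⟨ih.2, ?_⟩
      rw [PG_G1aHECKEHOM_trace_pow_succ_succ M hdet n, ih.1, ih.2, hM]
      have h1 : ε ^ (n + 1 + 1) = ε ^ n * ε ^ 2 := by ring
      rw [h1, hε]
      have h2 : ε ^ (n + 1) = ε ^ n * ε := by ring
      rw [h2]
      linear_combination (4 * ε ^ n) * hε
  rw [(key k).1, mul_pow, ← pow_mul, mul_comm k 2, pow_mul, hε, one_pow]
  norm_num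

theorem PG_G1aHECKEHOM_trace_conj (X Y : SL(2, ℤ)) :
    ((Y⁻¹ * X * Y : SL(2, ℤ)) : Matrix (Fin 2) (Fin 2) ℤ).trace =
      (X : Matrix (Fin 2) (Fin 2) ℤ).trace := by
  rw [Matrix.SpecialLinearGroup.coe_mul, Matrix.SpecialLinearGroup.coe_mul, Matrix.trace_mul_comm,
    ← Matrix.mul_assoc, ← Matrix.SpecialLinearGroup.coe_mul, mul_inv_cancel,
    Matrix.SpecialLinearGroup.coe_one, Matrix.one_mul]

theorem PG_G1aHECKEHOM_trace_conjMat (ℓ : ℕ) (B : Matrix (Fin 2) (Fin 2) ℤ) :
    (PG_conjMat ℓ B).trace = B.trace := by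
  simp [PG_conjMat, Matrix.trace_fin_two]

end Trace

/-! ### The four statements -/

theorem PG_finiteIndex_H (N ℓ : ℕ) [NeZero N] [NeZero ℓ] : (PG_H N ℓ).FiniteIndex := by
  haveI : NeZero (N * ℓ) := ⟨Nat.mul_ne_zero (NeZero.ne N) (NeZero.ne ℓ)⟩
  unfold PG_H
  infer_instance

theorem PG_heckeHom_add (N ℓ : ℕ) [NeZero N] [NeZero ℓ] {A : Type*} [AddCommGroup A]
    (c c' : Additive (Gamma0 N) →+ A) :
    PG_heckeHom N ℓ (c + c') = PG_heckeHom N ℓ c + PG_heckeHom N ℓ c' := by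
  haveI := PG_finiteIndex_H N ℓ
  rw [PG_heckeHom_def, PG_heckeHom_def, PG_heckeHom_def]
  ext γ
  have h : (AddMonoidHom.toMultiplicativeRight (c + c')).comp (PG_conj N ℓ) =
      (AddMonoidHom.toMultiplicativeRight c).comp (PG_conj N ℓ) *
        (AddMonoidHom.toMultiplicativeRight c').comp (PG_conj N ℓ) := by
    ext u
    rfl
  show Multiplicative.toAdd (MonoidHom.transfer
      ((AddMonoidHom.toMultiplicativeRight (c + c')).comp (PG_conj N ℓ)) γ) =
    Multiplicative.toAdd (MonoidHom.transfer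
      ((AddMonoidHom.toMultiplicativeRight c).comp (PG_conj N ℓ)) γ) +
    Multiplicative.toAdd (MonoidHom.transfer
      ((AddMonoidHom.toMultiplicativeRight c').comp (PG_conj N ℓ)) γ)
  rw [h, PG_G1aHECKEHOM_transfer_mul]
  rfl

theorem PG_heckeHom_comp (N ℓ : ℕ) [NeZero N] [NeZero ℓ] {A B : Type*} [AddCommGroup A]
    [AddCommGroup B] (f : A →+ B) (c : Additive (Gamma0 N) →+ A) :
    PG_heckeHom N ℓ (f.comp c) = f.comp (PG_heckeHom N ℓ c) := by
  haveI := PG_finiteIndex_H N ℓ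
  rw [PG_heckeHom_def, PG_heckeHom_def]
  ext γ
  have h : (AddMonoidHom.toMultiplicativeRight (f.comp c)).comp (PG_conj N ℓ) =
      (AddMonoidHom.toMultiplicative f).comp
        ((AddMonoidHom.toMultiplicativeRight c).comp (PG_conj N ℓ)) := by
    ext u
    rfl
  show Multiplicative.toAdd (MonoidHom.transfer
      ((AddMonoidHom.toMultiplicativeRight (f.comp c)).comp (PG_conj N ℓ)) γ) =
    f (Multiplicative.toAdd (MonoidHom.transfer
      ((AddMonoidHom.toMultiplicativeRight c).comp (PG_conj N ℓ)) γ))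
  rw [h, PG_G1aHECKEHOM_transfer_comp]
  rfl

theorem PG_heckeHom_parabolic (N ℓ : ℕ) [NeZero N] [NeZero ℓ] {A : Type*} [AddCommGroup A]
    (c : Additive (Gamma0 N) →+ A) (hc : ModularCurve.Period.IsParabolicHom (Gamma0 N) c) :
    ModularCurve.Period.IsParabolicHom (Gamma0 N) (PG_heckeHom N ℓ c) := by
  haveI := PG_finiteIndex_H N ℓ
  intro γ hγ
  rw [PG_heckeHom_def]
  show Multiplicative.toAdd (MonoidHom.transfer
      ((AddMonoidHom.toMultiplicativeRight c).comp (PG_conj N ℓ)) γ) = 0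
  have key : MonoidHom.transfer ((AddMonoidHom.toMultiplicativeRight c).comp (PG_conj N ℓ))
      γ = 1 := by
    refine PG_G1aHECKEHOM_transfer_eq_one _ γ fun t k hmem => ?_
    show Multiplicative.ofAdd (c (Additive.ofMul (PG_conj N ℓ ⟨t⁻¹ * γ ^ k * t, hmem⟩))) = 1
    rw [hc _ ?_]
    · rfl
    rw [PG_conj_coe, PG_G1aHECKEHOM_trace_conjMat]
    show (((t⁻¹ * γ ^ k * t : Gamma0 N) : SL(2, ℤ)) : Matrix (Fin 2) (Fin 2) ℤ).trace ^ 2 = 4
    have h1 : ((t⁻¹ * γ ^ k * t : Gamma0 N) : SL(2, ℤ)) =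
        (t : SL(2, ℤ))⁻¹ * (γ : SL(2, ℤ)) ^ k * (t : SL(2, ℤ)) := by
      push_cast
      rfl
    rw [h1, PG_G1aHECKEHOM_trace_conj, Matrix.SpecialLinearGroup.coe_pow]
    exact PG_G1aHECKEHOM_trace_pow _ (γ : SL(2, ℤ)).2 hγ k
  rw [key]
  rfl

end Fermat.Agent.G_helper3_G1aHECKEHOM
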