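import Mathlib
import Fermat.Agent.S24_helper10_LOCinf

/-!
# S37 preparation (helper8), piece K1a: explicit conjugates of `z ↦ j(d ℓ z)`

For `ℓ x - N y = 1` and `γ_b = [[x, x b + y], [N, N b + ℓ]] ∈ Γ₀(N)` we have, for every `d ∣ N`,
`j(d ℓ · γ_b z) = j((d z + d b) / ℓ)`.
-/

set_option autoImplicit false
set_option linter.unusedSectionVars false
set_option linter.unusedVariables false

open UpperHalfPlane ModularForm CongruenceSubgroup Matrix.SpecialLinearGroup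
open scoped MatrixGroups ModularForm Manifold Real
open Fermat.Agent.S20 Fermat.Agent.S24 Fermat.Agent.S28_helper14_ADefs

namespace Fermat.Agent.S37K1

noncomputable section

/-- Hermite relations imply the formula for the conjugate of `z ↦ j(δ z)`. -/
theorem S37K1_jd_eq_tri_of_rel (δ : ℕ) (γ : SL(2, ℤ)) (a d : ℕ) (b : ℤ) (γ' : SL(2, ℤ))
    (hapos : 0 < a) (hdpos : 0 < d) (had : a * d = δ)
    (h00 : γ' 0 0 * a = δ * γ 0 0) (h10 : γ' 1 0 * a = γ 1 0)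
    (h01 : γ' 0 0 * b + γ' 0 1 * d = δ * γ 0 1) (h11 : γ' 1 0 * b + γ' 1 1 * d = γ 1 1) :
    jd δ γ = tri a d b jfun := by
  funext z
  have haC : (a : ℂ) ≠ 0 := by exact_mod_cast hapos.ne'
  have hdC : (d : ℂ) ≠ 0 := by exact_mod_cast hdpos.ne'
  have hδC : (δ : ℂ) = a * d := by exact_mod_cast had.symm
  set w : ℂ := ((a : ℂ) * (z : ℂ) + (b : ℂ)) / (d : ℂ) with hw
  have hwim : 0 < w.im := by
    have : w.im = (a : ℝ) * z.im / d := by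
      rw [hw]
      have e1 : ((a : ℂ) * (z : ℂ) + (b : ℂ)) / (d : ℂ)
          = (((a : ℝ) * (z : ℂ) + ((b : ℝ) : ℂ)) / ((d : ℝ) : ℂ)) := by push_cast; ring
      rw [e1, Complex.div_ofReal_im]
      simp
    rw [this]
    have h1 : (0 : ℝ) < a := by exact_mod_cast hapos
    have h2 : (0 : ℝ) < d := by exact_mod_cast hdpos
    exact div_pos (mul_pos h1 z.im_pos) h2
  set W : ℍ := ⟨w, hwim⟩ with hW
  have hWof : ofComplex w = W := ofComplex_apply_of_im_pos hwim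
  have c00 : ((γ' 0 0 : ℤ) : ℂ) * a = δ * ((γ 0 0 : ℤ) : ℂ) := by exact_mod_cast h00
  have c10 : ((γ' 1 0 : ℤ) : ℂ) * a = ((γ 1 0 : ℤ) : ℂ) := by exact_mod_cast h10
  have c01 : ((γ' 0 0 : ℤ) : ℂ) * b + ((γ' 0 1 : ℤ) : ℂ) * d = δ * ((γ 0 1 : ℤ) : ℂ) := by
    exact_mod_cast h01
  have c11 : ((γ' 1 0 : ℤ) : ℂ) * b + ((γ' 1 1 : ℤ) : ℂ) * d = ((γ 1 1 : ℤ) : ℂ) := by
    exact_mod_cast h11
  have hden : denom γ z = ((γ 1 0 : ℤ) : ℂ) * z + ((γ 1 1 : ℤ) : ℂ) := by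
    rw [ModularGroup.denom_apply]
  have hdz : denom γ z ≠ 0 := denom_ne_zero _ z
  have hD1 : ((γ' 1 0 : ℤ) : ℂ) * w + ((γ' 1 1 : ℤ) : ℂ)
      = (((γ 1 0 : ℤ) : ℂ) * z + ((γ 1 1 : ℤ) : ℂ)) / d := by
    rw [hw, ← c10, ← c11]
    field_simp
    ring
  have hN1 : ((γ' 0 0 : ℤ) : ℂ) * w + ((γ' 0 1 : ℤ) : ℂ)
      = (δ : ℂ) * (((γ 0 0 : ℤ) : ℂ) * z + ((γ 0 1 : ℤ) : ℂ)) / d := by
    rw [hw]
    field_simp
    linear_combination (z : ℂ) * c00 + c01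
  have hpt : ((γ' • W : ℍ) : ℂ) = (δ : ℂ) * ((γ • z : ℍ) : ℂ) := by
    rw [coe_specialLinearGroup_apply, coe_specialLinearGroup_apply]
    simp only [algebraMap_int_eq, Int.coe_castRingHom, Complex.ofReal_intCast]
    have h2 : ((γ 1 0 : ℤ) : ℂ) * (z : ℂ) + ((γ 1 1 : ℤ) : ℂ) ≠ 0 := by
      rw [← hden]; exact hdz
    change (((γ' 0 0 : ℤ) : ℂ) * w + ((γ' 0 1 : ℤ) : ℂ)) / (((γ' 1 0 : ℤ) : ℂ) * w + _) = _
    rw [hN1, hD1]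
    field_simp
  have hpt' : dmul δ (γ • z) = γ' • W := by
    unfold dmul
    rw [← hpt, ofComplex_apply]
  show jfun (dmul δ (γ • z)) = jfun (ofComplex w)
  rw [hpt', hWof, Fermat.Agent.S24_helper27_J1.jfun_smul]

/-- The matrix `γ_b = [[x, x b + y], [N, N b + ℓ]]`, for `ℓ x - N y = 1`. -/
def S37K1_gam (N ℓ : ℕ) (x y : ℤ) (hxy : (ℓ : ℤ) * x - N * y = 1) (b : ℤ) : SL(2, ℤ) :=
  ⟨!![x, x * b + y; (N : ℤ), N * b + ℓ], by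
    rw [Matrix.det_fin_two_of]; linear_combination hxy⟩

theorem S37K1_gam_mem_Gamma0 (N ℓ : ℕ) (x y : ℤ) (hxy : (ℓ : ℤ) * x - N * y = 1) (b : ℤ) :
    S37K1_gam N ℓ x y hxy b ∈ Gamma0 N := by
  rw [Gamma0_mem]
  show (((N : ℤ) : ℤ) : ZMod N) = 0
  simp

/-- `j(d ℓ · γ_b z) = j((d z + d b) / ℓ)` for `d ∣ N`. -/
theorem S37K1_jd_gam (N ℓ : ℕ) (hℓ : 0 < ℓ) (x y : ℤ) (hxy : (ℓ : ℤ) * x - N * y = 1) (b : ℤ)
    (d : ℕ) (hd0 : 0 < d) (hd : d ∣ N) :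
    jd (d * ℓ) (S37K1_gam N ℓ x y hxy b) = tri d ℓ ((d : ℤ) * b) jfun := by
  obtain ⟨e, he⟩ := hd
  have heZ : (N : ℤ) = d * e := by exact_mod_cast he
  refine S37K1_jd_eq_tri_of_rel (d * ℓ) _ d ℓ ((d : ℤ) * b)
    ⟨!![(ℓ : ℤ) * x, d * y; (e : ℤ), 1], by
      rw [Matrix.det_fin_two_of]; rw [heZ] at hxy; linear_combination hxy⟩
    hd0 hℓ rfl ?_ ?_ ?_ ?_
  · show (ℓ : ℤ) * x * d = ((d * ℓ : ℕ) : ℤ) * x
    push_cast; ring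
  · show (e : ℤ) * d = (N : ℤ)
    rw [heZ]; ring
  · show (ℓ : ℤ) * x * ((d : ℤ) * b) + (d : ℤ) * y * ℓ = ((d * ℓ : ℕ) : ℤ) * (x * b + y)
    push_cast; ring
  · show (e : ℤ) * ((d : ℤ) * b) + 1 * (ℓ : ℤ) = (N : ℤ) * b + ℓ
    rw [heZ]; ring

/-- `j(d · γ_b z) = j(d z)` for `d ∣ N`. -/
theorem S37K1_jd_gam_low (N ℓ : ℕ) (hN : 0 < N) (x y : ℤ) (hxy : (ℓ : ℤ) * x - N * y = 1)
    (b : ℤ) (d : ℕ) (hd : d ∣ N) :
    jd d (S37K1_gam N ℓ x y hxy b) = jd d 1 := by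
  have := Fermat.Agent.S24_helper27_J1.jd_Gamma0 hd hN (S37K1_gam N ℓ x y hxy b)
    (S37K1_gam_mem_Gamma0 N ℓ x y hxy b) 1
  rwa [mul_one] at this

end

end Fermat.Agent.S37K1
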