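import Mathlib
import Fermat.Agent.S37_helper8_K1a

/-!
# S37 preparation (helper8), piece K1b: Laurent expansions at `i∞` of the conjugates
-/

set_option autoImplicit false
set_option linter.unusedSectionVars false
set_option linter.unusedVariables false

open UpperHalfPlane ModularForm CongruenceSubgroup Matrix.SpecialLinearGroup
open scoped MatrixGroups ModularForm Manifold Real
open Fermat.Agent.S20 Fermat.Agent.S24 Fermat.Agent.S28_helper14_ADefs
open Fermat.Agent.S24_helper16_B Fermat.Agent.S24_helper24_JD Fermat.Agent.S28_SUBST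

namespace Fermat.Agent.S37K1

noncomputable section

/-- the root of unity `exp(2πi/ℓ)` as a unit of `ℂ` -/
def S37K1_zeta (ℓ : ℕ) : ℂˣ :=
  Units.mk0 (Complex.exp (2 * π * Complex.I / ℓ)) (Complex.exp_ne_zero _)

theorem S37K1_coeff_single_mul_ofPowerSeries (A : ℕ) (P : PowerSeries ℂ) (k : ℤ) :
    (HahnSeries.single (-(A : ℤ)) (1 : ℂ) * HahnSeries.ofPowerSeries ℤ ℂ P).coeff k =
      if 0 ≤ k + A then P.coeff (k + A).toNat else 0 := by
  rw [HahnSeries.coeff_single_mul, one_mul, sub_neg_eq_add]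
  split_ifs with h
  · obtain ⟨m, hm⟩ := Int.eq_ofNat_of_zero_le h
    rw [hm, HahnSeries.ofPowerSeries_apply_coeff, Int.toNat_natCast]
  · exact ModularCurve.ofPowerSeries_coeff_of_neg P (not_le.mp h)

theorem S37K1_coeff_jqModC (k : ℤ) :
    (ModularCurve.jqModC ℂ).coeff k =
      if 0 ≤ k + 1 then (ModularCurve.jNum.map (Int.castRingHom ℂ)).coeff (k + 1).toNat else 0 := by
  unfold ModularCurve.jqModC
  have := S37K1_coeff_single_mul_ofPowerSeries 1 (ModularCurve.jNum.map (Int.castRingHom ℂ)) k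
  simpa using this

theorem S37K1_laurentInf_tri (N ℓ d : ℕ) [NeZero N] [NeZero ℓ] [NeZero d] (hd : d ∣ N) (b : ℤ)
    (hdiff : MDifferentiable 𝓘(ℂ) 𝓘(ℂ) (tri d ℓ ((d : ℤ) * b) jfun)) :
    laurentInf (N * ℓ) (tri d ℓ ((d : ℤ) * b) jfun) =
      ModularCurve.qExpand ℂ N
        (lsScale (S37K1_zeta ℓ ^ b) (ModularCurve.qExpand ℂ d (ModularCurve.jqModC ℂ))) := by
  have hN : 0 < N := Nat.pos_of_ne_zero (NeZero.ne N)
  have hℓ : 0 < ℓ := Nat.pos_of_ne_zero (NeZero.ne ℓ)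
  have hd0 : 0 < d := Nat.pos_of_ne_zero (NeZero.ne d)
  have hNℓ : 0 < N * ℓ := Nat.mul_pos hN hℓ
  rw [Fermat.Agent.S24_helper24_JD.laurentInf_tri_jfun (N * ℓ) hd0 hℓ (dvd_mul_left ℓ N)
    ((d : ℤ) * b) hdiff]
  have hdiv : N * ℓ / ℓ = N := Nat.mul_div_cancel _ hℓ
  rw [hdiv]
  have hcast : ((N * ℓ : ℕ) : ℝ) = ((N * ℓ : ℕ) : ℝ) := rfl
  have hQ : ∀ m : ℕ, (qExpansion ((N * ℓ : ℕ) : ℝ) (tri d ℓ ((d : ℤ) * b) J0)).coeff m =
      if d * N ∣ m then
        (ModularCurve.jNum.map (Int.castRingHom ℂ)).coeff (m / (d * N)) *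
          Complex.exp (2 * π * Complex.I * (((d : ℤ) * b : ℤ) : ℂ) * ((m / (d * N) : ℕ) : ℂ) / (ℓ : ℂ))
      else 0 := by
    intro m
    rw [Fermat.Agent.S28_SUBST.qExpansion_tri_coeff Fermat.Agent.S24_helper24_JD.nice_J0 hd0 hℓ hNℓ
      (dvd_mul_left ℓ N) ((d : ℤ) * b) m, hdiv, Fermat.Agent.S24_helper24_JD.qExpansion_J0]
  ext k
  rw [S37K1_coeff_single_mul_ofPowerSeries]
  by_cases hNk : (N : ℤ) ∣ k
  · obtain ⟨k', rfl⟩ := hNk
    rw [ModularCurve.qExpand_coeff_mul, coeff_lsScale]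
    by_cases hdk : (d : ℤ) ∣ k'
    · obtain ⟨k'', rfl⟩ := hdk
      rw [ModularCurve.qExpand_coeff_mul, S37K1_coeff_jqModC]
      have hsum : (N : ℤ) * ((d : ℤ) * k'') + ((d * N : ℕ) : ℤ) = ((d * N : ℕ) : ℤ) * (k'' + 1) := by
        push_cast; ring
      have hdNpos : (0 : ℤ) < ((d * N : ℕ) : ℤ) := by exact_mod_cast Nat.mul_pos hd0 hN
      rw [hsum]
      by_cases hk : 0 ≤ k'' + 1
      · rw [if_pos hk, if_pos (mul_nonneg hdNpos.le hk)]
        obtain ⟨t, ht⟩ := Int.eq_ofNat_of_zero_le hk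
        have htn : (((d * N : ℕ) : ℤ) * (k'' + 1)).toNat = d * N * t := by
          rw [ht]
          have : ((d * N : ℕ) : ℤ) * (t : ℤ) = ((d * N * t : ℕ) : ℤ) := by push_cast; ring
          rw [this, Int.toNat_natCast]
        rw [htn, PowerSeries.coeff_smul, hQ, if_pos (dvd_mul_right _ _),
          Nat.mul_div_cancel_left _ (Nat.mul_pos hd0 hN), ht, Int.toNat_natCast]
        have hk'' : k'' = (t : ℤ) - 1 := by omega
        rw [smul_eq_mul]
        have hz : (((S37K1_zeta ℓ ^ b) ^ ((d : ℤ) * k'') : ℂˣ) : ℂ) =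
            Complex.exp (2 * π * Complex.I * (((d : ℤ) * b : ℤ) : ℂ) * ((t : ℕ) : ℂ) / (ℓ : ℂ)) *
              (Complex.exp (2 * π * Complex.I * (((d : ℤ) * b : ℤ) : ℂ) / (ℓ : ℂ)))⁻¹ := by
          rw [← zpow_mul, Units.val_zpow_eq_zpow_val]
          show Complex.exp (2 * π * Complex.I / ℓ) ^ (b * ((d : ℤ) * k'')) = _
          rw [← Complex.exp_int_mul, ← Complex.exp_neg, ← Complex.exp_add, hk'']
          congr 1
          push_cast
          ring
        rw [hz]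
        ring
      · rw [if_neg hk, if_neg, mul_zero]
        intro h
        apply hk
        exact nonneg_of_mul_nonneg_right h hdNpos
    · rw [ModularCurve.qExpand_coeff_of_not_dvd _ _ hdk, mul_zero]
      split_ifs with h
      · rw [PowerSeries.coeff_smul, hQ, if_neg, smul_zero]
        intro hdvd
        apply hdk
        have h1 : ((d * N : ℕ) : ℤ) ∣ (N : ℤ) * k' + ((d * N : ℕ) : ℤ) := by
          have := Int.natCast_dvd_natCast.mpr hdvd
          rwa [Int.toNat_of_nonneg h] at this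
        have h2 : ((d * N : ℕ) : ℤ) ∣ (N : ℤ) * k' := (Int.dvd_add_left (dvd_refl _)).mp h1
        have h3 : (N : ℤ) * (d : ℤ) ∣ (N : ℤ) * k' := by
          have : ((d * N : ℕ) : ℤ) = (N : ℤ) * (d : ℤ) := by push_cast; ring
          rwa [this] at h2
        exact (mul_dvd_mul_iff_left (by exact_mod_cast hN.ne')).mp h3
      · rfl
  · rw [ModularCurve.qExpand_coeff_of_not_dvd _ _ hNk]
    split_ifs with h
    · rw [PowerSeries.coeff_smul, hQ, if_neg, smul_zero]
      intro hdvd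
      apply hNk
      have h1 : ((d * N : ℕ) : ℤ) ∣ k + ((d * N : ℕ) : ℤ) := by
        have := Int.natCast_dvd_natCast.mpr hdvd
        rwa [Int.toNat_of_nonneg h] at this
      have h2 : ((d * N : ℕ) : ℤ) ∣ k := (Int.dvd_add_left (dvd_refl _)).mp h1
      exact dvd_trans ⟨(d : ℤ), by push_cast; ring⟩ h2
    · rfl

end

end Fermat.Agent.S37K1
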