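import Mathlib
import Fermat.Agent.G_helper6_Contracts
import Fermat.Agent.G_helper3_G1aHECKEHOM
import Fermat.Agent.G_helper23_G1bA
import Fermat.Agent.S24_helper16_Scale
import Fermat.Agent.S37_helper8_K1b

/-!
# Project G, piece G7 (Hecke equivariance of `Θ`): shared definitions and contracts

* `PG7_heckeProd ℓ k a`   : the Hecke product `∏_δ a ∣[k] δ` over the `ℓ + 1` prelude matrices
  `heckeDiagMatrix ℓ`, `heckeMatrix ℓ j` (`j < ℓ`), indexed by `Option (Fin ℓ)` (helper23's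
  `PG_G1b_D`).
* `PG7_transferChar N ℓ χ` : the transfer of `χ ∘ conj` from `Gamma0 (N ℓ)` to `Gamma0 N`.
* `PG7_FORM`, `PG7_QEXP`, `PG7_NORM` : the three contracts consumed by the assembly of G7.

Only definitions here.
-/

set_option autoImplicit false

open UpperHalfPlane ModularForm CongruenceSubgroup AlgebraicCurve
open scoped MatrixGroups ModularForm Manifold

noncomputable section

namespace Fermat.Agent.G_helper28_G7Defs

open Fermat.Agent.G_helper6_Defs Fermat.Agent.G_helper23_G1bA Fermat.Agent.S24_helper16_B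
open Fermat.Agent.S37K1 ModularCurve

/-- The Hecke product `∏_δ a ∣[k] δ`, `δ` running over the `ℓ + 1` prelude Hecke matrices. -/
def PG7_heckeProd (ℓ : ℕ) (k : ℤ) (a : ℍ → ℂ) : ℍ → ℂ :=
  ∏ i : Option (Fin ℓ), a ∣[k] PG_G1b_D ℓ i

theorem PG7_heckeProd_def (ℓ : ℕ) (k : ℤ) (a : ℍ → ℂ) :
    PG7_heckeProd ℓ k a = ∏ i : Option (Fin ℓ), a ∣[k] PG_G1b_D ℓ i := rfl

open Classical in
/-- The transfer of the character `u ↦ χ (δ u δ⁻¹)` from `Gamma0 (N ℓ)` to `Gamma0 N`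
(junk value `1` if the index is infinite; it never is). -/
def PG7_transferChar (N ℓ : ℕ) [NeZero ℓ] (χ : Gamma0 N →* ℂˣ) : Gamma0 N →* ℂˣ :=
  if h : (PG_H N ℓ).FiniteIndex then
    haveI := h
    MonoidHom.transfer (χ.comp (PG_conj N ℓ))
  else 1

theorem PG7_transferChar_def (N ℓ : ℕ) [NeZero ℓ] (χ : Gamma0 N →* ℂˣ)
    [h : (PG_H N ℓ).FiniteIndex] :
    PG7_transferChar N ℓ χ = MonoidHom.transfer (χ.comp (PG_conj N ℓ)) := by
  rw [PG7_transferChar, dif_pos h]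

/-- The constant of the `q`-expansion formula: `ℓ ^ (k - 1) * (ℓ ^ ℓ)⁻¹`. -/
def PG7_kappa (ℓ : ℕ) (k : ℤ) : ℂ := (ℓ : ℂ) ^ (k - 1) * ((ℓ : ℂ) ^ ℓ)⁻¹

/-- (AN6a) the Hecke product of a form with character `χ` is a form of weight `k (ℓ + 1)` with
character the transfer of `χ`. -/
def PG7_FORM (N ℓ : ℕ) [NeZero ℓ] : Prop :=
  ∀ (k : ℤ) (χ : Gamma0 N →* ℂˣ) (a : ℍ → ℂ), PG_IsForm N k χ a →
    PG_IsForm N (k * ((ℓ : ℤ) + 1)) (PG7_transferChar N ℓ χ) (PG7_heckeProd ℓ k a)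

/-- (AN6b) the `q`-expansion of the Hecke product of a form with trivial character:
`A'(q ^ ℓ) = κ · A(q ^ (ℓ²)) · ∏_{b < ℓ} A(ζ ^ b q)`, `ζ = exp (2 π i / ℓ)`. -/
def PG7_QEXP (N ℓ : ℕ) [NeZero ℓ] : Prop :=
  ∀ (k : ℤ) (A : ℍ → ℂ), PG_IsForm N k 1 A →
    qExpand ℂ ℓ (PG_qLaur (PG7_heckeProd ℓ k A)) =
      HahnSeries.C (PG7_kappa ℓ k) *
        (qExpand ℂ (ℓ * ℓ) (PG_qLaur A) *
          ∏ b ∈ Finset.range ℓ, lsScale (S37K1_zeta ℓ ^ b) (PG_qLaur A))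

/-- (K1 over `ℂ`) the norm product formula:
`Nm_{F_{Nℓ}/F_N} (f (q ^ ℓ)) (q ^ ℓ) = f (q ^ (ℓ²)) · ∏_{b < ℓ} f (ζ ^ b q)`. -/
def PG7_NORM (N ℓ : ℕ) [NeZero N] [NeZero ℓ] : Prop :=
  ∀ f : PG_FC N,
    letI := algebraAlong (heckeAlphaBar ℂ N ℓ)
    qExpand ℂ ℓ ((Algebra.norm (PG_FC N) (heckeBetaBar ℂ N ℓ f) : PG_FC N) : LaurentSeries ℂ) =
      qExpand ℂ (ℓ * ℓ) (f : LaurentSeries ℂ) *
        ∏ b ∈ Finset.range ℓ, lsScale (S37K1_zeta ℓ ^ b) (f : LaurentSeries ℂ)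

end Fermat.Agent.G_helper28_G7Defs
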