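import Mathlib
import Fermat.Prelude.Def_ModularCurve_X0
import Fermat.Prelude.Def_ModularCurve_X0ModL
import Fermat.Prelude.Def_ModularCurve_LaurentCoeff
import Fermat.Prelude.Thm_ModularCurve_coeffMap_qExpand
import Fermat.Prelude.Def_FLTPrelim_Ramification
import Fermat.Prelude.Def_ModularCurve_HeckeOperator
import Fermat.Prelude.Def_ModularCurve_ArithmeticGalois
import Fermat.Prelude.Def_AlgebraicCurve_Correspondence
import Fermat.Agent.S24_helper16_Scale

/-!
# S37, piece K2-ABS: the Kronecker congruence at the level of `q`-expansions (abstract form)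

Series-level statement, no modular functions and no places.  Let `A` be a ring with an injection
`ι : A → K` into a field and a map `res : A → k` to a reduced ring of characteristic `ℓ`; let
`ζ = ι u` be an `ℓ`-th root of unity which is a unit of `A`.  If `y ∈ A((q))`, `Y := ι y` and
`n ∈ K((q))` satisfy (the conclusion of K1)

  `n(q^ℓ) = Y(q^{ℓ²}) · ∏_{b < ℓ} Y(ζ^b q)`,

then `n = ι z` with `z ∈ A((q))` and `res z = (res y)^σ(q) · (res y)(q^ℓ)`, `σ` the Frobenius of
`k` applied coefficientwise (`S37K2_abs`; `S37K2_abs_valuationSubring` for a valuation subring).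

Ingredients: `S37K2_pow_eq_qExpand_frob` (freshman's dream `w^ℓ = w^σ(q^ℓ)` for Laurent series in
characteristic `ℓ`), `scaleR` (the substitution `q ↦ u q` over a commutative ring) and its
compatibility with `coeffMap`, `S37K2_exists_unit` (roots of unity are units of every valuation
subring), `S37K2_charP_residueField`.
-/

set_option autoImplicit false
set_option linter.unusedSectionVars false
set_option linter.style.haveILetI false

open HahnSeries ModularCurve

noncomputable section

namespace Fermat.Agent.S37_helper2_K2ABS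

/-! ### Scaling `q ↦ u q` over a commutative ring -/

section Scale

variable {R S : Type*} [CommRing R] [CommRing S]

theorem support_scaleR_aux (u : Rˣ) (x : LaurentSeries R) :
    Function.support (fun n : ℤ => ((u ^ n : Rˣ) : R) * x.coeff n) = x.support := by
  ext n
  simp only [Function.mem_support, ne_eq, HahnSeries.mem_support, Units.mul_right_eq_zero]

/-- the substitution `q ↦ u q` on Laurent series over a commutative ring -/
def scaleR (u : Rˣ) (x : LaurentSeries R) : LaurentSeries R :=
  ⟨fun n => ((u ^ n : Rˣ) : R) * x.coeff n, by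
    rw [support_scaleR_aux]; exact x.isPWO_support⟩

@[simp] theorem coeff_scaleR (u : Rˣ) (x : LaurentSeries R) (n : ℤ) :
    (scaleR u x).coeff n = ((u ^ n : Rˣ) : R) * x.coeff n := rfl

theorem scaleR_one (x : LaurentSeries R) : scaleR (1 : Rˣ) x = x := by
  ext n
  simp

theorem coeffMap_scaleR (f : R →+* S) (u : Rˣ) (x : LaurentSeries R) :
    coeffMap f (scaleR u x) = scaleR (Units.map (f : R →* S) u) (coeffMap f x) := by
  ext n
  simp only [coeffMap_coeff, coeff_scaleR, map_mul]
  congr 1
  rw [← map_zpow]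
  rfl

theorem scaleR_eq_lsScale {C : Type*} [Field C] (z : Cˣ) (x : LaurentSeries C) :
    scaleR z x = Fermat.Agent.S24_helper16_B.lsScale z x := rfl

end Scale

/-! ### Freshman's dream for Laurent series -/

section Frobenius

theorem qExpand_ofPowerSeries {R : Type*} [CommRing R] (N : ℕ) [NeZero N] (g : PowerSeries R) :
    qExpand R N (ofPowerSeries ℤ R g)
      = ofPowerSeries ℤ R (PowerSeries.expand N (NeZero.ne N) g) := by
  ext n
  by_cases hn : (N : ℤ) ∣ n
  · obtain ⟨m, rfl⟩ := hn
    rw [qExpand_coeff_mul]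
    rcases le_or_gt 0 m with hm | hm
    · lift m to ℕ using hm
      rw [HahnSeries.ofPowerSeries_apply_coeff, ← Nat.cast_mul,
        HahnSeries.ofPowerSeries_apply_coeff, PowerSeries.coeff_expand_mul]
    · have hN : (0 : ℤ) < N := by exact_mod_cast Nat.pos_of_ne_zero (NeZero.ne N)
      rw [ofPowerSeries_coeff_of_neg _ hm,
        ofPowerSeries_coeff_of_neg _ (mul_neg_of_pos_of_neg hN hm)]
  · rw [qExpand_coeff_of_not_dvd _ _ hn]
    rcases le_or_gt 0 n with hn0 | hn0
    · lift n to ℕ using hn0
      rw [HahnSeries.ofPowerSeries_apply_coeff, PowerSeries.coeff_expand_of_not_dvd]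
      exact fun h => hn (by exact_mod_cast h)
    · rw [ofPowerSeries_coeff_of_neg _ hn0]

variable {k : Type*} [CommRing k] (ℓ : ℕ) [NeZero ℓ] [ExpChar k ℓ]

theorem ofPowerSeries_pow_char (f : PowerSeries k) :
    (ofPowerSeries ℤ k f) ^ ℓ = qExpand k ℓ (coeffMap (frobenius k ℓ) (ofPowerSeries ℤ k f)) := by
  rw [← map_pow, ← MvPowerSeries.map_frobenius_expand ℓ (NeZero.ne ℓ), coeffMap_ofPowerSeries,
    qExpand_ofPowerSeries]
  congr 1
  exact PowerSeries.map_expand ℓ (NeZero.ne ℓ) (frobenius k ℓ) f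

/-- **Freshman's dream**: in characteristic `ℓ`, `w(q)^ℓ = w^σ(q^ℓ)`. -/
theorem S37K2_pow_eq_qExpand_frob (w : LaurentSeries k) :
    w ^ ℓ = qExpand k ℓ (coeffMap (frobenius k ℓ) w) := by
  conv_lhs => rw [← LaurentSeries.single_order_mul_powerSeriesPart w]
  conv_rhs => rw [← LaurentSeries.single_order_mul_powerSeriesPart w]
  rw [mul_pow, map_mul, map_mul, ofPowerSeries_pow_char]
  congr 1
  rw [HahnSeries.single_pow, coeffMap_single, qExpand_single]
  simp

end Frobenius

/-! ### Lifting coefficients, reduction of roots of unity -/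

section Lift

variable {A K : Type*} [CommRing A] [CommRing K]

theorem coeffMap_injective (ι : A →+* K) (hι : Function.Injective ι) :
    Function.Injective (coeffMap ι) := by
  intro x y h
  ext n
  apply hι
  have := congrArg (fun s : LaurentSeries K => s.coeff n) h
  simpa using this

/-- A Laurent series all of whose coefficients are in the range of `ι` comes from `A`. -/
theorem exists_coeffMap_eq (ι : A →+* K) (n : LaurentSeries K)
    (h : ∀ m, n.coeff m ∈ Set.range ι) : ∃ z : LaurentSeries A, coeffMap ι z = n := by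
  classical
  choose c hc using h
  have hsupp : Function.support (fun m : ℤ => if n.coeff m = 0 then (0 : A) else c m)
      ⊆ n.support := by
    intro m hm
    rw [Function.mem_support] at hm
    rw [HahnSeries.mem_support]
    intro h0
    exact hm (if_pos h0)
  refine ⟨⟨fun m => if n.coeff m = 0 then (0 : A) else c m, n.isPWO_support.mono hsupp⟩, ?_⟩
  ext m
  rw [coeffMap_coeff]
  show ι (if n.coeff m = 0 then (0 : A) else c m) = n.coeff m
  split_ifs with h0
  · rw [map_zero, h0]
  · exact hc m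

theorem eq_one_of_pow_char_eq_one {k : Type*} [CommRing k] [IsReduced k] (ℓ : ℕ) [ExpChar k ℓ]
    {x : k} (hx : x ^ ℓ = 1) : x = 1 := by
  have h : (x - 1) ^ ℓ = 0 := by
    rw [sub_pow_expChar, hx, one_pow, sub_self]
  have := IsReduced.eq_zero _ ⟨ℓ, h⟩
  exact sub_eq_zero.mp this

end Lift

/-! ### The abstract K2 -/

section Main

open Fermat.Agent.S24_helper16_B

/-- **Abstract K2.**  If `n(q^ℓ) = Y(q^{ℓ²}) ∏_{b<ℓ} Y(ζ^b q)` with `Y` having coefficients in `A`
and `ζ` an `ℓ`-th root of unity in `A`, then `n` has coefficients in `A`, and modulo any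
reduced quotient `k` of characteristic `ℓ`: `n̄ = ȳ^σ(q) · ȳ(q^ℓ)`. -/
theorem S37K2_abs {A K k : Type*} [CommRing A] [Field K] [CommRing k] [IsReduced k]
    (ℓ : ℕ) [NeZero ℓ] [ExpChar k ℓ] (ι : A →+* K) (hι : Function.Injective ι)
    (res : A →+* k) (ζ : Kˣ) (hζ : ζ ^ ℓ = 1) (u : Aˣ) (hu : ι u = ζ)
    (y : LaurentSeries A) (n : LaurentSeries K)
    (hn : qExpand K ℓ n = qExpand K (ℓ * ℓ) (coeffMap ι y)
      * ∏ b ∈ Finset.range ℓ, lsScale (ζ ^ b) (coeffMap ι y)) :
    ∃ z : LaurentSeries A, coeffMap ι z = n ∧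
      coeffMap res z = coeffMap (frobenius k ℓ) (coeffMap res y) * qExpand k ℓ (coeffMap res y) := by
  -- the product over `A`
  set P : LaurentSeries A := qExpand A (ℓ * ℓ) y * ∏ b ∈ Finset.range ℓ, scaleR (u ^ b) y with hP
  have hmapu : Units.map (ι : A →* K) u = ζ := Units.ext hu
  have hPι : coeffMap ι P = qExpand K ℓ n := by
    rw [hn, hP, map_mul, map_prod, coeffMap_qExpand]
    congr 1
    refine Finset.prod_congr rfl fun b _ => ?_
    rw [coeffMap_scaleR, map_pow, hmapu]
    rfl
  -- `n` has coefficients in `A`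
  obtain ⟨z, hz⟩ := exists_coeffMap_eq ι n (fun m => by
    refine ⟨P.coeff ((ℓ : ℤ) * m), ?_⟩
    rw [← coeffMap_coeff, hPι, qExpand_coeff_mul])
  refine ⟨z, hz, ?_⟩
  have hzP : qExpand A ℓ z = P := by
    apply coeffMap_injective ι hι
    rw [coeffMap_qExpand, hz, hPι]
  -- reduction
  have hres1 : Units.map (res : A →* k) u = 1 := by
    apply Units.ext
    have h1 : ι ((u : A) ^ ℓ) = ι 1 := by
      rw [map_pow, hu, map_one, ← Units.val_pow_eq_pow_val, hζ, Units.val_one]
    have h2 : (u : A) ^ ℓ = 1 := hι h1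
    have h3 : (res (u : A)) ^ ℓ = 1 := by rw [← map_pow, h2, map_one]
    exact eq_one_of_pow_char_eq_one ℓ h3
  have hPres : coeffMap res P
      = qExpand k ℓ (qExpand k ℓ (coeffMap res y) * coeffMap (frobenius k ℓ) (coeffMap res y)) := by
    rw [hP, map_mul, map_prod, coeffMap_qExpand, map_mul, qExpand_qExpand,
      ← S37K2_pow_eq_qExpand_frob]
    congr 1
    rw [Finset.prod_congr rfl (fun b _ => by
      rw [coeffMap_scaleR, map_pow, hres1, one_pow, scaleR_one] :
      ∀ b ∈ Finset.range ℓ, coeffMap res (scaleR (u ^ b) y) = coeffMap res y)]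
    rw [Finset.prod_const, Finset.card_range]
  apply qExpand_injective (R := k) ℓ
  rw [← coeffMap_qExpand, hzP, hPres, mul_comm]

end Main

/-! ### Plug lemmas for valuation subrings -/

section Plug

variable {L : Type*} [Field L]

/-- Roots of unity are units of every valuation subring. -/
theorem S37K2_exists_unit (A : ValuationSubring L) (ζ : Lˣ) (n : ℕ) (hn : 0 < n)
    (h : ζ ^ n = 1) : ∃ u : Aˣ, ((u : A) : L) = ζ := by
  have hv : A.valuation (ζ : L) = 1 := by
    have h1 : A.valuation (ζ : L) ^ n = 1 := by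
      rw [← map_pow, ← Units.val_pow_eq_pow_val, h, Units.val_one, map_one]
    exact (pow_eq_one_iff_of_nonneg zero_le hn.ne').mp h1
  exact ⟨A.unitGroupMulEquiv ⟨ζ, (A.mem_unitGroup_iff ζ).2 hv⟩, rfl⟩

/-- The residue field of a valuation subring over `ℓ` has characteristic `ℓ`. -/
theorem S37K2_charP_residueField (A : ValuationSubring L) {ℓ : ℕ} (hl : ℓ.Prime)
    (hA : A.LiesOverPrime ℓ) : CharP (IsLocalRing.ResidueField A) ℓ := by
  rw [CharP.charP_iff_prime_eq_zero hl]
  obtain ⟨ha, hmem⟩ := A.mem_nonunits_iff_exists_mem_maximalIdeal.mp hA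
  have h0 : IsLocalRing.residue A (⟨(ℓ : L), ha⟩ : A) = 0 :=
    (IsLocalRing.residue_eq_zero_iff _).2 hmem
  have h1 : (⟨(ℓ : L), ha⟩ : A) = ((ℓ : ℕ) : A) := Subtype.ext (by simp)
  rw [h1, map_natCast] at h0
  exact h0

theorem S37K2_expChar_residueField (A : ValuationSubring L) {ℓ : ℕ} (hl : ℓ.Prime)
    (hA : A.LiesOverPrime ℓ) : ExpChar (IsLocalRing.ResidueField A) ℓ :=
  haveI := S37K2_charP_residueField A hl hA
  ExpChar.prime hl

open Fermat.Agent.S24_helper16_B in
/-- **K2 for a valuation subring** (the shape used with `A ⊆ ℚ̄` over `ℓ`,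
`res = IsLocalRing.residue A`). -/
theorem S37K2_abs_valuationSubring (A : ValuationSubring L) (ℓ : ℕ) [NeZero ℓ]
    [ExpChar (IsLocalRing.ResidueField A) ℓ] (ζ : Lˣ) (hζ : ζ ^ ℓ = 1)
    (y : LaurentSeries A) (n : LaurentSeries L)
    (hn : qExpand L ℓ n = qExpand L (ℓ * ℓ) (coeffMap A.subtype y)
      * ∏ b ∈ Finset.range ℓ, lsScale (ζ ^ b) (coeffMap A.subtype y)) :
    ∃ z : LaurentSeries A, coeffMap A.subtype z = n ∧
      coeffMap (IsLocalRing.residue A) z
        = coeffMap (frobenius (IsLocalRing.ResidueField A) ℓ) (coeffMap (IsLocalRing.residue A) y)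
          * qExpand (IsLocalRing.ResidueField A) ℓ (coeffMap (IsLocalRing.residue A) y) := by
  obtain ⟨u, hu⟩ := S37K2_exists_unit A ζ ℓ (Nat.pos_of_ne_zero (NeZero.ne ℓ)) hζ
  exact S37K2_abs ℓ A.subtype Subtype.val_injective (IsLocalRing.residue A) ζ hζ u hu y n hn

end Plug

/-! ### K2 for the modular function fields, from the conclusion of K1 -/

section Modular

open Fermat.Agent.S24_helper16_B AlgebraicCurve

/-- **K2 from K1.**  `hK1` is the conclusion of K1 (`S37K1_norm_qexp`), the norm being taken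
along `α`, i.e. for `algebraAlong (heckeAlphaBar ℚ̄ N ℓ)`. -/
theorem S37K2_reduction_of_K1 (N ℓ : ℕ) [NeZero N] [NeZero ℓ]
    (A : ValuationSubring (AlgebraicClosure ℚ)) [ExpChar (IsLocalRing.ResidueField A) ℓ]
    (hK1 : letI := algebraAlong (heckeAlphaBar (AlgebraicClosure ℚ) N ℓ)
       ∃ ζ : (AlgebraicClosure ℚ)ˣ, IsPrimitiveRoot (ζ : AlgebraicClosure ℚ) ℓ ∧
        ∀ y : modularFunctionFieldBar N,
        qExpand (AlgebraicClosure ℚ) ℓ ((Algebra.norm (modularFunctionFieldBar N)
            (heckeBetaBar (AlgebraicClosure ℚ) N ℓ y) : modularFunctionFieldBar N) :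
              LaurentSeries (AlgebraicClosure ℚ))
         = qExpand (AlgebraicClosure ℚ) (ℓ * ℓ) (y : LaurentSeries (AlgebraicClosure ℚ))
            * ∏ b ∈ Finset.range ℓ, lsScale (ζ ^ b) (y : LaurentSeries (AlgebraicClosure ℚ)))
    (y : LaurentSeries A) (hy : coeffMap A.subtype y ∈ modularFunctionFieldBar N) :
    letI := algebraAlong (heckeAlphaBar (AlgebraicClosure ℚ) N ℓ)
    ∃ z : LaurentSeries A, coeffMap A.subtype z
        = ((Algebra.norm (modularFunctionFieldBar N)
            (heckeBetaBar (AlgebraicClosure ℚ) N ℓ ⟨_, hy⟩) : modularFunctionFieldBar N) :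
              LaurentSeries (AlgebraicClosure ℚ))
        ∧ coeffMap (IsLocalRing.residue A) z
          = coeffMap (frobenius (IsLocalRing.ResidueField A) ℓ) (coeffMap (IsLocalRing.residue A) y)
            * qExpand (IsLocalRing.ResidueField A) ℓ (coeffMap (IsLocalRing.residue A) y) := by
  letI := algebraAlong (heckeAlphaBar (AlgebraicClosure ℚ) N ℓ)
  obtain ⟨ζ, hζ, hK⟩ := hK1
  exact S37K2_abs_valuationSubring A ℓ ζ (Units.ext (by simpa using hζ.pow_eq_one)) y _
    (hK ⟨_, hy⟩)

end Modular

end Fermat.Agent.S37_helper2_K2ABS
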