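import Mathlib
import Fermat.Agent.G_helper28_G7Defs
import Fermat.Agent.S37_helper2_K2ABS

/-!
# Project G, piece G7b-QEXP (helper15): the `q`-expansion of the Hecke product

For a form `A` of weight `k` on `Gamma0 N` with trivial character, the Hecke product
`A' = ∏_δ A ∣[k] δ` satisfies `A'(q ^ ℓ) = κ · A(q ^ (ℓ²)) · ∏_{b < ℓ} A(ζ ^ b q)`.
-/

set_option autoImplicit false
set_option linter.unusedSectionVars false
set_option linter.unusedVariables false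
set_option linter.style.haveILetI false

open UpperHalfPlane ModularForm CongruenceSubgroup AlgebraicCurve Function
open scoped MatrixGroups ModularForm Manifold Real
open Fermat.Agent.G_helper6_Defs Fermat.Agent.G_helper28_G7Defs Fermat.Agent.S24_helper16_B
open Fermat.Agent.S37K1 ModularCurve Fermat.Agent.G_helper23_G1bA

noncomputable section

namespace Fermat.Agent.G_helper15_G7QEXP

/-! ### Generalities on `q`-expansions -/

/-- periodicity on `ℍ` gives periodicity of `f ∘ ofComplex`. -/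
theorem PG7Q_periodic_comp {f : ℍ → ℂ} {h : ℝ} (hf : ∀ τ : ℍ, f (h +ᵥ τ) = f τ) :
    Periodic (f ∘ ofComplex) h := by
  intro w
  by_cases hw : 0 < w.im
  · have hw' : 0 < (w + h).im := by simp [hw]
    simp only [comp_apply, ofComplex_apply_of_im_pos hw', ofComplex_apply_of_im_pos hw]
    rw [← hf ⟨w, hw⟩]
    congr 1
    ext
    simp [add_comm]
  · have hw0 : w.im ≤ 0 := not_lt.1 hw
    have : (w + h).im ≤ 0 := by simpa using hw0
    simp [ofComplex_apply_of_im_nonpos this, ofComplex_apply_of_im_nonpos hw0]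

theorem PG7Q_qParam_add {h : ℝ} (hh : h ≠ 0) (z : ℂ) :
    Periodic.qParam h (z + h) = Periodic.qParam h z := by
  have hh' : (h : ℂ) ≠ 0 := by exact_mod_cast hh
  rw [Periodic.qParam, Periodic.qParam]
  have : 2 * (π : ℂ) * Complex.I * (z + h) / h = 2 * π * Complex.I * z / h + 2 * π * Complex.I := by
    field_simp
  rw [this, Complex.exp_add, Complex.exp_two_pi_mul_I, mul_one]

/-- uniqueness of the coefficients of a convergent `q`-expansion (plain functions). -/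
theorem PG7Q_coeff_unique {f : ℍ → ℂ} {h : ℝ} (hh : 0 < h)
    {c : ℕ → ℂ} (hf : ∀ τ : ℍ, HasSum (fun m => c m • Periodic.qParam h τ ^ m) (f τ))
    (han : AnalyticAt ℂ (cuspFunction h f) 0) (m : ℕ) :
    c m = (qExpansion h f).coeff m := by
  have h1 := (hasFPowerSeriesOnBall_cuspFunction hh han hf).hasFPowerSeriesAt
  have h2 : HasFPowerSeriesAt (cuspFunction h f)
      (FormalMultilinearSeries.ofScalars ℂ fun m => (qExpansion h f).coeff m) 0 := by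
    simpa [qExpansion_coeff, div_eq_mul_inv, mul_comm] using han.hasFPowerSeriesAt
  have h3 := congr_arg (FormalMultilinearSeries.coeff · m) (h1.eq_formalMultilinearSeries h2)
  simpa [FormalMultilinearSeries.coeff_ofScalars] using h3

/-- A holomorphic function with a convergent `q`-expansion: its `q`-expansion is the given
one, and its cusp function is analytic at `0`. -/
theorem PG7Q_qExpansion_of_hasSum {f : ℍ → ℂ} {h : ℝ} (hh : 0 < h) (hfhol : MDiff f)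
    (P : PowerSeries ℂ)
    (hf : ∀ τ : ℍ, HasSum (fun m => P.coeff m • Periodic.qParam h τ ^ m) (f τ)) :
    Periodic (f ∘ ofComplex) h ∧ IsBoundedAtImInfty f ∧ AnalyticAt ℂ (cuspFunction h f) 0 ∧
      qExpansion h f = P := by
  have hper : Periodic (f ∘ ofComplex) h := by
    apply PG7Q_periodic_comp
    intro τ
    have h1 : Periodic.qParam h ((h +ᵥ τ : ℍ) : ℂ) = Periodic.qParam h τ := by
      rw [coe_vadd, add_comm]
      exact PG7Q_qParam_add hh.ne' _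
    have h2 : (fun m => P.coeff m • Periodic.qParam h ((h +ᵥ τ : ℍ) : ℂ) ^ m) =
        fun m => P.coeff m • Periodic.qParam h τ ^ m := by rw [h1]
    have h3 := hf (h +ᵥ τ)
    rw [h2] at h3
    exact h3.unique (hf τ)
  have hbdd := isBoundedAtImInfty_of_hasSum_qExpansion hh hf
  have han := analyticAt_cuspFunction_zero hh hper hfhol hbdd
  refine ⟨hper, hbdd, han, ?_⟩
  refine PowerSeries.ext fun m => ?_
  exact (PG7Q_coeff_unique hh hf han m).symm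

/-! ### Transformations of expansions -/

/-- substitution `y = x ^ p`. -/
theorem PG7Q_hasSum_expand (a : PowerSeries ℂ) (p : ℕ) (hp : p ≠ 0) {x y s : ℂ}
    (hxy : y = x ^ p) (h : HasSum (fun m => a.coeff m • y ^ m) s) :
    HasSum (fun n => (PowerSeries.expand p hp a).coeff n • x ^ n) s := by
  have hinj : Function.Injective (fun m : ℕ => p * m) := fun m m' hmm =>
    Nat.eq_of_mul_eq_mul_left (Nat.pos_of_ne_zero hp) hmm
  refine (Function.Injective.hasSum_iff hinj ?_).1 ?_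
  · intro n hn
    have hnd : ¬ p ∣ n := by
      rintro ⟨m, rfl⟩
      exact hn ⟨m, rfl⟩
    rw [PowerSeries.coeff_expand_of_not_dvd p hp a hnd, zero_smul]
  · have : ((fun n => (PowerSeries.expand p hp a).coeff n • x ^ n) ∘ fun m : ℕ => p * m) =
        fun m => a.coeff m • y ^ m := by
      funext m
      simp only [comp_apply]
      rw [PowerSeries.coeff_expand_mul, hxy, ← pow_mul]
    rw [this]
    exact h

/-- substitution `y = z x`. -/
theorem PG7Q_hasSum_rescale (a : PowerSeries ℂ) (z : ℂ) {x y s : ℂ}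
    (hxy : y = z * x) (h : HasSum (fun m => a.coeff m • y ^ m) s) :
    HasSum (fun n => (PowerSeries.rescale z a).coeff n • x ^ n) s := by
  have : (fun n => (PowerSeries.rescale z a).coeff n • x ^ n) =
      fun m => a.coeff m • y ^ m := by
    funext m
    rw [PowerSeries.coeff_rescale, hxy, mul_pow, smul_eq_mul, smul_eq_mul]
    ring
  rw [this]
  exact h

/-- multiplication by a constant. -/
theorem PG7Q_hasSum_C_mul (P : PowerSeries ℂ) (r : ℂ) {x s : ℂ}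
    (h : HasSum (fun m => P.coeff m • x ^ m) s) :
    HasSum (fun n => (PowerSeries.C r * P).coeff n • x ^ n) (r * s) := by
  have : (fun n => (PowerSeries.C r * P).coeff n • x ^ n) =
      fun m => r * (P.coeff m • x ^ m) := by
    funext m
    rw [PowerSeries.coeff_C_mul, smul_eq_mul, smul_eq_mul, mul_assoc]
  rw [this]
  exact h.mul_left r

/-! ### Finite products -/

theorem PG7Q_cuspFunction_one (h : ℝ) : cuspFunction h (1 : ℍ → ℂ) = 1 := by
  ext q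
  rcases eq_or_ne q 0 with rfl | hq
  · simpa [cuspFunction, Periodic.cuspFunction] using! tendsto_const_nhds.limUnder_eq
  · simp [cuspFunction, Periodic.cuspFunction_eq_of_nonzero h _ hq]

theorem PG7Q_qExpansion_prod {ι : Type*} {h : ℝ} (s : Finset ι) (G : ι → ℍ → ℂ)
    (hG : ∀ i ∈ s, AnalyticAt ℂ (cuspFunction h (G i)) 0) :
    AnalyticAt ℂ (cuspFunction h (∏ i ∈ s, G i)) 0 ∧
      qExpansion h (∏ i ∈ s, G i) = ∏ i ∈ s, qExpansion h (G i) := by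
  classical
  induction s using Finset.induction_on with
  | empty =>
    rw [Finset.prod_empty, Finset.prod_empty, PG7Q_cuspFunction_one]
    exact ⟨analyticAt_const, qExpansion_one h⟩
  | insert i s hi ih =>
    obtain ⟨h1, h2⟩ := ih (fun j hj => hG j (Finset.mem_insert_of_mem hj))
    have h3 := hG i (Finset.mem_insert_self i s)
    rw [Finset.prod_insert hi, Finset.prod_insert hi]
    refine ⟨?_, ?_⟩
    · rw [cuspFunction_mul h3.continuousAt h1.continuousAt]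
      exact h3.mul h1
    · rw [qExpansion_mul h3 h1, h2]

theorem PG7Q_mdiff_prod {ι : Type*} (s : Finset ι) (G : ι → ℍ → ℂ)
    (hG : ∀ i ∈ s, MDiff (G i)) : MDiff (∏ i ∈ s, G i) := by
  classical
  induction s using Finset.induction_on with
  | empty =>
    rw [Finset.prod_empty]
    exact mdifferentiable_const
  | insert i s hi ih =>
    rw [Finset.prod_insert hi]
    exact (hG i (Finset.mem_insert_self i s)).mul
      (ih (fun j hj => hG j (Finset.mem_insert_of_mem hj)))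

theorem PG7Q_bdd_prod {ι : Type*} (s : Finset ι) (G : ι → ℍ → ℂ)
    (hG : ∀ i ∈ s, IsBoundedAtImInfty (G i)) : IsBoundedAtImInfty (∏ i ∈ s, G i) := by
  classical
  induction s using Finset.induction_on with
  | empty =>
    rw [Finset.prod_empty]
    exact Filter.const_boundedAtFilter _ (1 : ℂ)
  | insert i s hi ih =>
    rw [Finset.prod_insert hi]
    exact Filter.BoundedAtFilter.mul (hG i (Finset.mem_insert_self i s))
      (ih (fun j hj => hG j (Finset.mem_insert_of_mem hj)))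

/-! ### The `q`-parameters -/

theorem PG7Q_qParam_mul (ℓ : ℕ) (hℓ : ℓ ≠ 0) (z : ℂ) :
    Periodic.qParam 1 ((ℓ : ℂ) * z) = Periodic.qParam (ℓ : ℝ) z ^ (ℓ * ℓ) := by
  have hℓ' : (ℓ : ℂ) ≠ 0 := by exact_mod_cast hℓ
  rw [Periodic.qParam, Periodic.qParam, ← Complex.exp_nat_mul]
  congr 1
  push_cast
  field_simp

theorem PG7Q_qParam_pow (ℓ : ℕ) (hℓ : ℓ ≠ 0) (z : ℂ) :
    Periodic.qParam 1 z = Periodic.qParam (ℓ : ℝ) z ^ ℓ := by
  have hℓ' : (ℓ : ℂ) ≠ 0 := by exact_mod_cast hℓ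
  rw [Periodic.qParam, Periodic.qParam, ← Complex.exp_nat_mul]
  congr 1
  push_cast
  field_simp

theorem PG7Q_qParam_shift (ℓ : ℕ) (hℓ : ℓ ≠ 0) (j : ℕ) (z : ℂ) :
    Periodic.qParam 1 ((z + j) / ℓ) =
      ((S37K1_zeta ℓ : ℂˣ) : ℂ) ^ j * Periodic.qParam (ℓ : ℝ) z := by
  have hℓ' : (ℓ : ℂ) ≠ 0 := by exact_mod_cast hℓ
  rw [S37K1_zeta, Units.val_mk0, Periodic.qParam, Periodic.qParam, ← Complex.exp_nat_mul,
    ← Complex.exp_add]
  congr 1
  push_cast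
  field_simp
  ring

/-! ### Forms with trivial character -/

section Form

variable {N : ℕ} {k : ℤ} {A : ℍ → ℂ}

theorem PG7Q_vadd_one (hA : PG_IsForm N k 1 A) (τ : ℍ) : A ((1 : ℝ) +ᵥ τ) = A τ := by
  have hT : ModularGroup.T ∈ Gamma0 N := by rw [Gamma0_mem]; simp [ModularGroup.T]
  have h := hA.aut ⟨ModularGroup.T, hT⟩ τ
  rw [← modular_T_smul]
  have hd : denom ((ModularGroup.T : SL(2, ℤ)) : GL (Fin 2) ℝ) τ = 1 := by
    rw [ModularGroup.denom_apply]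
    simp [ModularGroup.T]
  simp only [MonoidHom.one_apply, Units.val_one, one_mul] at h
  rw [hd, one_zpow, one_mul] at h
  exact h

theorem PG7Q_vadd_nat (hA : PG_IsForm N k 1 A) (n : ℕ) (τ : ℍ) :
    A (((n : ℝ)) +ᵥ τ) = A τ := by
  induction n with
  | zero => simp
  | succ n ih =>
    have : (((n + 1 : ℕ) : ℝ)) +ᵥ τ = (1 : ℝ) +ᵥ ((n : ℝ) +ᵥ τ) := by
      apply UpperHalfPlane.ext
      simp only [coe_vadd]
      push_cast
      ring
    rw [this, PG7Q_vadd_one hA, ih]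

theorem PG7Q_bdd (hA : PG_IsForm N k 1 A) : IsBoundedAtImInfty A := by
  have := hA.bdd 1
  rwa [SlashAction.slash_one] at this

theorem PG7Q_hasSum (hA : PG_IsForm N k 1 A) (τ : ℍ) :
    HasSum (fun m => (qExpansion 1 A).coeff m • Periodic.qParam 1 τ ^ m) (A τ) := by
  have hper : Periodic (A ∘ ofComplex) (1 : ℝ) := PG7Q_periodic_comp (PG7Q_vadd_one hA)
  exact hasSum_qExpansion one_pos hper hA.holo (PG7Q_bdd hA) τ

/-- the expected `q`-expansions (in `q ^ (1 / ℓ)`) of the factors of the Hecke product. -/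
def PG7Q_P (ℓ : ℕ) [NeZero ℓ] (k : ℤ) (a : PowerSeries ℂ) : Option (Fin ℓ) → PowerSeries ℂ
  | none => PowerSeries.C ((ℓ : ℂ) ^ (k - 1)) *
      PowerSeries.expand (ℓ * ℓ) (mul_ne_zero (NeZero.ne ℓ) (NeZero.ne ℓ)) a
  | some j => PowerSeries.C ((ℓ : ℂ)⁻¹) *
      PowerSeries.rescale (((S37K1_zeta ℓ : ℂˣ) : ℂ) ^ (j : ℕ)) a

theorem PG7Q_hasSum_factor (hA : PG_IsForm N k 1 A) (ℓ : ℕ) [NeZero ℓ]
    (i : Option (Fin ℓ)) (τ : ℍ) :
    HasSum (fun n => (PG7Q_P ℓ k (qExpansion 1 A) i).coeff n • Periodic.qParam (ℓ : ℝ) τ ^ n)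
      ((A ∣[k] PG_G1b_D ℓ i) τ) := by
  have hℓ : ℓ ≠ 0 := NeZero.ne ℓ
  rcases i with _ | j
  · show HasSum _ ((A ∣[k] heckeDiagMatrix ℓ) τ)
    rw [slash_heckeDiagMatrix_apply k hℓ]
    refine PG7Q_hasSum_C_mul _ _ (PG7Q_hasSum_expand _ _ _ ?_ (PG7Q_hasSum hA _))
    rw [coe_heckeDiagMatrix_smul hℓ]
    exact PG7Q_qParam_mul ℓ hℓ τ
  · show HasSum _ ((A ∣[k] heckeMatrix ℓ j) τ)
    rw [slash_heckeMatrix_apply k hℓ]
    refine PG7Q_hasSum_C_mul _ _ (PG7Q_hasSum_rescale _ _ ?_ (PG7Q_hasSum hA _))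
    rw [coe_heckeMatrix_smul hℓ]
    exact PG7Q_qParam_shift ℓ hℓ j τ

theorem PG7Q_factor (hA : PG_IsForm N k 1 A) (ℓ : ℕ) [NeZero ℓ] (i : Option (Fin ℓ)) :
    AnalyticAt ℂ (cuspFunction (ℓ : ℝ) (A ∣[k] PG_G1b_D ℓ i)) 0 ∧
      qExpansion (ℓ : ℝ) (A ∣[k] PG_G1b_D ℓ i) = PG7Q_P ℓ k (qExpansion 1 A) i := by
  have hh : (0 : ℝ) < ℓ := by exact_mod_cast Nat.pos_of_ne_zero (NeZero.ne ℓ)
  obtain ⟨-, -, h1, h2⟩ := PG7Q_qExpansion_of_hasSum hh (hA.holo.slash k (PG_G1b_D ℓ i))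
    (PG7Q_P ℓ k (qExpansion 1 A) i) (PG7Q_hasSum_factor hA ℓ i)
  exact ⟨h1, h2⟩

theorem PG7Q_D_lower (ℓ : ℕ) [NeZero ℓ] (i : Option (Fin ℓ)) :
    ((PG_G1b_D ℓ i : GL (Fin 2) ℝ) : Matrix (Fin 2) (Fin 2) ℝ) 1 0 = 0 := by
  have hℓ : ℓ ≠ 0 := NeZero.ne ℓ
  rcases i with _ | j
  · show ((heckeDiagMatrix ℓ : GL (Fin 2) ℝ) : Matrix (Fin 2) (Fin 2) ℝ) 1 0 = 0
    rw [val_heckeDiagMatrix hℓ]
    simp
  · show ((heckeMatrix ℓ j : GL (Fin 2) ℝ) : Matrix (Fin 2) (Fin 2) ℝ) 1 0 = 0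
    rw [val_heckeMatrix hℓ]
    simp

theorem PG7Q_heckeProd_mdiff (hA : PG_IsForm N k 1 A) (ℓ : ℕ) [NeZero ℓ] :
    MDiff (PG7_heckeProd ℓ k A) :=
  PG7Q_mdiff_prod Finset.univ _ (fun i _ => hA.holo.slash k (PG_G1b_D ℓ i))

theorem PG7Q_heckeProd_bdd (hA : PG_IsForm N k 1 A) (ℓ : ℕ) [NeZero ℓ] :
    IsBoundedAtImInfty (PG7_heckeProd ℓ k A) :=
  PG7Q_bdd_prod Finset.univ _
    (fun i _ => IsBoundedAtImInfty.slash k (PG7Q_D_lower ℓ i) (PG7Q_bdd hA))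

/-- the product formula in `q ^ (1 / ℓ)`. -/
theorem PG7Q_heckeProd_qExpansion (hA : PG_IsForm N k 1 A) (ℓ : ℕ) [NeZero ℓ] :
    qExpansion (ℓ : ℝ) (PG7_heckeProd ℓ k A) = ∏ i, PG7Q_P ℓ k (qExpansion 1 A) i := by
  rw [PG7_heckeProd,
    (PG7Q_qExpansion_prod Finset.univ _ (fun i _ => (PG7Q_factor hA ℓ i).1)).2]
  exact Finset.prod_congr rfl fun i _ => (PG7Q_factor hA ℓ i).2

end Form

/-! ### Periodicity of the Hecke product -/

/-- a cyclic shift does not change a product over a period. -/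
theorem PG7Q_prod_shift (ℓ : ℕ) (hℓ : ℓ ≠ 0) (g : ℕ → ℂ) (hg : g ℓ = g 0) :
    ∏ j ∈ Finset.range ℓ, g (j + 1) = ∏ j ∈ Finset.range ℓ, g j := by
  have h1 : ∏ j ∈ Finset.range (ℓ + 1), g j = (∏ j ∈ Finset.range ℓ, g (j + 1)) * g 0 :=
    Finset.prod_range_succ' g ℓ
  have h2 : ∏ j ∈ Finset.range (ℓ + 1), g j = (∏ j ∈ Finset.range ℓ, g j) * g ℓ :=
    Finset.prod_range_succ g ℓ
  by_cases h0 : g 0 = 0
  · have hpos : 0 < ℓ := Nat.pos_of_ne_zero hℓ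
    rw [Finset.prod_eq_zero (i := ℓ - 1) (Finset.mem_range.2 (by omega))
        (by rw [Nat.sub_add_cancel hpos, hg, h0]),
      Finset.prod_eq_zero (i := 0) (Finset.mem_range.2 hpos) h0]
  · rw [hg] at h2
    exact mul_right_cancel₀ h0 (h1.symm.trans h2)

section Form2

variable {N : ℕ} {k : ℤ} {A : ℍ → ℂ}

theorem PG7Q_heckeProd_apply (ℓ : ℕ) [NeZero ℓ] (k : ℤ) (A : ℍ → ℂ) (τ : ℍ) :
    PG7_heckeProd ℓ k A τ = ((ℓ : ℂ) ^ (k - 1) * A (heckeDiagMatrix ℓ • τ)) *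
      ∏ j ∈ Finset.range ℓ, ((ℓ : ℂ)⁻¹ * A (heckeMatrix ℓ j • τ)) := by
  have hℓ : ℓ ≠ 0 := NeZero.ne ℓ
  rw [PG7_heckeProd, Finset.prod_apply, Fintype.prod_option]
  congr 1
  · exact slash_heckeDiagMatrix_apply k hℓ A τ
  · rw [← Fin.prod_univ_eq_prod_range (fun j => (ℓ : ℂ)⁻¹ * A (heckeMatrix ℓ j • τ)) ℓ]
    exact Finset.prod_congr rfl fun j _ => slash_heckeMatrix_apply k hℓ j A τ

theorem PG7Q_heckeProd_vadd_one (hA : PG_IsForm N k 1 A) (ℓ : ℕ) [NeZero ℓ] (τ : ℍ) :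
    PG7_heckeProd ℓ k A ((1 : ℝ) +ᵥ τ) = PG7_heckeProd ℓ k A τ := by
  have hℓ : ℓ ≠ 0 := NeZero.ne ℓ
  have hℓ' : (ℓ : ℂ) ≠ 0 := by exact_mod_cast hℓ
  rw [PG7Q_heckeProd_apply, PG7Q_heckeProd_apply]
  have h1 : heckeDiagMatrix ℓ • ((1 : ℝ) +ᵥ τ) = (ℓ : ℝ) +ᵥ (heckeDiagMatrix ℓ • τ) := by
    apply UpperHalfPlane.ext
    rw [coe_heckeDiagMatrix_smul hℓ, coe_vadd, coe_vadd, coe_heckeDiagMatrix_smul hℓ]
    push_cast
    ring
  have h2 : ∀ j : ℕ, heckeMatrix ℓ j • ((1 : ℝ) +ᵥ τ) = heckeMatrix ℓ (j + 1) • τ := by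
    intro j
    apply UpperHalfPlane.ext
    rw [coe_heckeMatrix_smul hℓ, coe_heckeMatrix_smul hℓ, coe_vadd]
    push_cast
    ring
  have h3 : heckeMatrix ℓ ℓ • τ = (1 : ℝ) +ᵥ (heckeMatrix ℓ 0 • τ) := by
    apply UpperHalfPlane.ext
    rw [coe_heckeMatrix_smul hℓ, coe_vadd, coe_heckeMatrix_smul hℓ]
    push_cast
    field_simp
    ring
  rw [h1, PG7Q_vadd_nat hA]
  congr 1
  have h4 : ∀ j ∈ Finset.range ℓ, (ℓ : ℂ)⁻¹ * A (heckeMatrix ℓ j • ((1 : ℝ) +ᵥ τ)) =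
      (fun j : ℕ => (ℓ : ℂ)⁻¹ * A (heckeMatrix ℓ j • τ)) (j + 1) := by
    intro j _
    rw [h2 j]
  rw [Finset.prod_congr rfl h4]
  refine PG7Q_prod_shift ℓ hℓ (fun j : ℕ => (ℓ : ℂ)⁻¹ * A (heckeMatrix ℓ j • τ)) ?_
  show (ℓ : ℂ)⁻¹ * A (heckeMatrix ℓ ℓ • τ) = (ℓ : ℂ)⁻¹ * A (heckeMatrix ℓ 0 • τ)
  rw [h3, PG7Q_vadd_one hA]

/-- the `q`-expansion in `q ^ (1 / ℓ)` of the Hecke product is the expansion of its
`q`-expansion. -/
theorem PG7Q_heckeProd_expand (hA : PG_IsForm N k 1 A) (ℓ : ℕ) [NeZero ℓ] :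
    qExpansion (ℓ : ℝ) (PG7_heckeProd ℓ k A) =
      PowerSeries.expand ℓ (NeZero.ne ℓ) (qExpansion 1 (PG7_heckeProd ℓ k A)) := by
  have hℓ : ℓ ≠ 0 := NeZero.ne ℓ
  have hh : (0 : ℝ) < ℓ := by exact_mod_cast Nat.pos_of_ne_zero hℓ
  have hper : Periodic (PG7_heckeProd ℓ k A ∘ ofComplex) (1 : ℝ) :=
    PG7Q_periodic_comp (PG7Q_heckeProd_vadd_one hA ℓ)
  have hsum := fun τ : ℍ => hasSum_qExpansion one_pos hper (PG7Q_heckeProd_mdiff hA ℓ)
    (PG7Q_heckeProd_bdd hA ℓ) τ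
  have hsum' : ∀ τ : ℍ, HasSum (fun n =>
      (PowerSeries.expand ℓ hℓ (qExpansion 1 (PG7_heckeProd ℓ k A))).coeff n •
        Periodic.qParam (ℓ : ℝ) τ ^ n) (PG7_heckeProd ℓ k A τ) :=
    fun τ => PG7Q_hasSum_expand _ ℓ hℓ (PG7Q_qParam_pow ℓ hℓ τ) (hsum τ)
  exact (PG7Q_qExpansion_of_hasSum hh (PG7Q_heckeProd_mdiff hA ℓ) _ hsum').2.2.2

end Form2

/-! ### Laurent series -/

theorem PG7Q_lsScale_ofPowerSeries (z : ℂˣ) (P : PowerSeries ℂ) :
    lsScale z (HahnSeries.ofPowerSeries ℤ ℂ P) =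
      HahnSeries.ofPowerSeries ℤ ℂ (PowerSeries.rescale (z : ℂ) P) := by
  ext n
  rw [coeff_lsScale]
  rcases le_or_gt 0 n with hn | hn
  · lift n to ℕ using hn
    rw [HahnSeries.ofPowerSeries_apply_coeff, HahnSeries.ofPowerSeries_apply_coeff,
      PowerSeries.coeff_rescale, zpow_natCast, Units.val_pow_eq_pow_val]
  · rw [ModularCurve.ofPowerSeries_coeff_of_neg _ hn, ModularCurve.ofPowerSeries_coeff_of_neg _ hn,
      mul_zero]

/-- **G7b-QEXP.** -/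
theorem PG7_qexp (N ℓ : ℕ) [NeZero N] [NeZero ℓ] : PG7_QEXP N ℓ := by
  intro k A hA
  have hℓ : ℓ ≠ 0 := NeZero.ne ℓ
  have hℓ' : (ℓ : ℂ) ≠ 0 := by exact_mod_cast hℓ
  set a := qExpansion 1 A with ha
  have hL : qExpand ℂ ℓ (PG_qLaur (PG7_heckeProd ℓ k A)) =
      HahnSeries.ofPowerSeries ℤ ℂ (∏ i, PG7Q_P ℓ k a i) := by
    rw [PG_qLaur, Fermat.Agent.S37_helper2_K2ABS.qExpand_ofPowerSeries,
      ← PG7Q_heckeProd_expand hA ℓ, PG7Q_heckeProd_qExpansion hA ℓ]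
  have hR : HahnSeries.C (PG7_kappa ℓ k) *
        (qExpand ℂ (ℓ * ℓ) (PG_qLaur A) *
          ∏ b ∈ Finset.range ℓ, lsScale (S37K1_zeta ℓ ^ b) (PG_qLaur A)) =
      HahnSeries.ofPowerSeries ℤ ℂ (PowerSeries.C (PG7_kappa ℓ k) *
        (PowerSeries.expand (ℓ * ℓ) (mul_ne_zero (NeZero.ne ℓ) (NeZero.ne ℓ)) a *
          ∏ b ∈ Finset.range ℓ,
            PowerSeries.rescale (((S37K1_zeta ℓ : ℂˣ) : ℂ) ^ b) a)) := by
    rw [map_mul, map_mul, map_prod, HahnSeries.ofPowerSeries_C, PG_qLaur,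
      Fermat.Agent.S37_helper2_K2ABS.qExpand_ofPowerSeries]
    congr 2
    refine Finset.prod_congr rfl fun b _ => ?_
    rw [PG7Q_lsScale_ofPowerSeries, Units.val_pow_eq_pow_val]
  rw [hL, hR]
  congr 1
  rw [Fintype.prod_option]
  show PowerSeries.C ((ℓ : ℂ) ^ (k - 1)) *
        PowerSeries.expand (ℓ * ℓ) (mul_ne_zero (NeZero.ne ℓ) (NeZero.ne ℓ)) a *
      ∏ j : Fin ℓ, (PowerSeries.C ((ℓ : ℂ)⁻¹) *
        PowerSeries.rescale (((S37K1_zeta ℓ : ℂˣ) : ℂ) ^ (j : ℕ)) a) = _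
  rw [Fin.prod_univ_eq_prod_range (fun j => PowerSeries.C ((ℓ : ℂ)⁻¹) *
      PowerSeries.rescale (((S37K1_zeta ℓ : ℂˣ) : ℂ) ^ j) a) ℓ,
    Finset.prod_mul_distrib, Finset.prod_const, Finset.card_range, PG7_kappa, map_mul,
    ← map_pow, inv_pow]
  ring

end Fermat.Agent.G_helper15_G7QEXP
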