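import Fermat.Agent.G_helper16_G5i

/-!
# Project G, piece G5-DICT: the analytic dictionary over `ℂ`

This file collects the five contract theorems of piece G5 (pieces row 369).  They are proved
in the files `G_helper16_G5a` ... `G_helper16_G5i` (namespace `Fermat.Agent.G_helper16_G5`):

* `PG_G5_hpd N : HasPrincipalDivisors ℂ (PG_FC N)`   (`G_helper16_G5e`)
* `PG_G5_an2 N : PG_AN2 N`                            (`G_helper16_G5f`)
* `PG_G5_an4 N : PG_AN4 N`                            (`G_helper16_G5f`)
* `PG_G5_an5 N : PG_AN5 N`                            (`G_helper16_G5e`)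
* `PG_G5_an3 N p hp : PG_AN3 N p`                     (`G_helper16_G5i`)

The checks below make sure that the statements are the contracts of `G_helper6_Contracts`
verbatim.
-/

set_option autoImplicit false

open UpperHalfPlane ModularForm CongruenceSubgroup AlgebraicCurve
open scoped MatrixGroups ModularForm Manifold TensorProduct
open Fermat.Agent.G_helper6_Defs

namespace Fermat.Agent.G_helper16_G5

theorem PG_G5_check_hpd (N : ℕ) [NeZero N] : HasPrincipalDivisors ℂ (PG_FC N) := PG_G5_hpd N

theorem PG_G5_check_an2 (N : ℕ) [NeZero N] : PG_AN2 N := PG_G5_an2 N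

theorem PG_G5_check_an4 (N : ℕ) [NeZero N] : PG_AN4 N := PG_G5_an4 N

theorem PG_G5_check_an5 (N : ℕ) [NeZero N] : PG_AN5 N := PG_G5_an5 N

theorem PG_G5_check_an3 (N p : ℕ) [NeZero N] (hp : p.Prime) : PG_AN3 N p := PG_G5_an3 N p hp

end Fermat.Agent.G_helper16_G5
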