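import Fermat.Agent.S24_Defs

/-!
# S24, piece C-PSI (core): from formal `q`-series to functions

`PSI_of` is the statement of piece C-PSI with the analytic inputs (the ring-hom and
injectivity properties of `laurentInf 1`, pieces C-LINF and C-JD) as explicit hypotheses.
-/

set_option autoImplicit false

open UpperHalfPlane ModularForm CongruenceSubgroup AlgebraicCurve IntermediateField
open scoped MatrixGroups ModularForm Manifold
open Fermat.Agent.S20 Fermat.Agent.S24

namespace Fermat.Agent.S24_helper29_PSIcore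

/-! ### Closure properties of `HasPoleInf` -/

section Pole

variable (N : ℕ) [NeZero N] {g h : ℍ → ℂ} {M M' : ℕ}

theorem psi_qpow_bdd (k : ℕ) :
    IsBoundedAtImInfty (fun z : ℍ => Function.Periodic.qParam (N : ℝ) (z : ℂ) ^ k) := by
  rw [UpperHalfPlane.isBoundedAtImInfty_iff]
  refine ⟨1, 0, fun z _ => ?_⟩
  have hN : (0 : ℝ) < N := by exact_mod_cast Nat.pos_of_ne_zero (NeZero.ne N)
  have h1 : ‖Function.Periodic.qParam (N : ℝ) (z : ℂ)‖ ≤ 1 :=
    (Function.Periodic.norm_qParam_lt_one hN z.im_pos).le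
  rw [norm_pow]
  exact pow_le_one₀ (norm_nonneg _) h1

theorem psi_pole_const (c : ℂ) : HasPoleInf N 0 (fun _ : ℍ => c) := by
  refine ⟨mdifferentiable_const, fun _ => rfl, ?_⟩
  simp only [pow_zero, one_mul]
  exact Filter.const_boundedAtFilter _ c

theorem psi_pole_mono (hMM : M ≤ M') (hg : HasPoleInf N M g) : HasPoleInf N M' g := by
  refine ⟨hg.1, hg.2.1, ?_⟩
  have h1 := (psi_qpow_bdd N (M' - M)).mul hg.2.2
  have : (fun z : ℍ => Function.Periodic.qParam (N : ℝ) (z : ℂ) ^ M' * g z) =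
      (fun z : ℍ => Function.Periodic.qParam (N : ℝ) (z : ℂ) ^ (M' - M)) *
        (fun z : ℍ => Function.Periodic.qParam (N : ℝ) (z : ℂ) ^ M * g z) := by
    funext z
    simp only [Pi.mul_apply]
    rw [← mul_assoc, ← pow_add, Nat.sub_add_cancel hMM]
  rw [this]
  exact h1

theorem psi_pole_add_same (hg : HasPoleInf N M g) (hh : HasPoleInf N M h) :
    HasPoleInf N M (g + h) := by
  refine ⟨hg.1.add hh.1, fun z => ?_, ?_⟩
  · simp only [Pi.add_apply, hg.2.1 z, hh.2.1 z]
  · have := hg.2.2.add hh.2.2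
    have e : (fun z : ℍ => Function.Periodic.qParam (N : ℝ) (z : ℂ) ^ M * (g + h) z) =
        (fun z : ℍ => Function.Periodic.qParam (N : ℝ) (z : ℂ) ^ M * g z) +
          (fun z : ℍ => Function.Periodic.qParam (N : ℝ) (z : ℂ) ^ M * h z) := by
      funext z
      simp only [Pi.add_apply, mul_add]
    rw [e]
    exact this

theorem psi_pole_add (hg : HasPoleInf N M g) (hh : HasPoleInf N M' h) :
    HasPoleInf N (max M M') (g + h) :=
  psi_pole_add_same N (psi_pole_mono N (le_max_left _ _) hg)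
    (psi_pole_mono N (le_max_right _ _) hh)

theorem psi_pole_neg (hg : HasPoleInf N M g) : HasPoleInf N M (-g) := by
  refine ⟨hg.1.neg, fun z => ?_, ?_⟩
  · simp only [Pi.neg_apply, hg.2.1 z]
  · have := hg.2.2.neg
    have e : (fun z : ℍ => Function.Periodic.qParam (N : ℝ) (z : ℂ) ^ M * (-g) z) =
        -(fun z : ℍ => Function.Periodic.qParam (N : ℝ) (z : ℂ) ^ M * g z) := by
      funext z
      simp only [Pi.neg_apply, mul_neg]
    rw [e]
    exact this

theorem psi_pole_mul (hg : HasPoleInf N M g) (hh : HasPoleInf N M' h) :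
    HasPoleInf N (M + M') (g * h) := by
  refine ⟨hg.1.mul hh.1, fun z => ?_, ?_⟩
  · simp only [Pi.mul_apply, hg.2.1 z, hh.2.1 z]
  · have := hg.2.2.mul hh.2.2
    have e : (fun z : ℍ => Function.Periodic.qParam (N : ℝ) (z : ℂ) ^ (M + M') * (g * h) z) =
        (fun z : ℍ => Function.Periodic.qParam (N : ℝ) (z : ℂ) ^ M * g z) *
          (fun z : ℍ => Function.Periodic.qParam (N : ℝ) (z : ℂ) ^ M' * h z) := by
      funext z
      simp only [Pi.mul_apply, pow_add]
      ring
    rw [e]
    exact this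

end Pole

/-! ### A purely algebraic lifting lemma -/

theorem psi_exists_lift {A R L : Type*} [Ring A] [Ring R] [Ring L] (E : A →+* L)
    (hE : Function.Injective E) (c : R →+* L) (hc : ∀ x, ∃ a, E a = c x) :
    ∃ ψ : R →+* A, ∀ x, E (ψ x) = c x := by
  choose f hf using hc
  refine ⟨{ toFun := f
            map_one' := hE (by rw [hf, map_one, map_one])
            map_mul' := fun x y => hE (by rw [hf, map_mul, map_mul, hf, hf])
            map_zero' := hE (by rw [hf, map_zero, map_zero])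
            map_add' := fun x y => hE (by rw [hf, map_add, map_add, hf, hf]) }, hf⟩

/-! ### The main construction -/

section Main

variable (N : ℕ) [NeZero N]

/-- The generators of the ring of functions. -/
def psiGens : Set (ℍ → ℂ) :=
  Set.range (fun c : ℂ => (fun _ : ℍ => c)) ∪ {f | ∃ d : ℕ, d ∣ N ∧ f = jd d 1}

theorem psi_jLaur_ne_zero (d : ℕ) [NeZero d] : jLaur d ≠ 0 := by
  unfold jLaur
  intro h
  have h1 : ModularCurve.coeffEmb Kbar (ModularCurve.qExpand ℚ d ModularCurve.jq) =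
      ModularCurve.coeffEmb Kbar 0 := by rw [h, map_zero]
  have h2 := (ModularCurve.coeffEmb Kbar).injective h1
  have h3 : ModularCurve.qExpand ℚ d ModularCurve.jq = ModularCurve.qExpand ℚ d 0 := by
    rw [h2, map_zero]
  exact ModularCurve.jq_ne_zero (ModularCurve.qExpand_injective d h3)

theorem psi_coeffMap_algebraMap (a : Kbar) :
    ModularCurve.coeffMap phi0 (algebraMap Kbar (LaurentSeries Kbar) a) =
      HahnSeries.C (phi0 a) := by
  rw [ModularCurve.algebraMap_laurentSeries_eq_single, ModularCurve.coeffMap_single]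
  rfl

/-- Every function in the ring generated by the constants and the `j(dz)` has a pole of finite
order at `i∞`, provided the `j(dz)` have the expected expansions. -/
theorem psi_pole_of_mem
    (h_jd : ∀ (d : ℕ) [NeZero d], d ∣ N →
      laurentInf 1 (jd d 1) = ModularCurve.coeffMap phi0 (jLaur d))
    {g : ℍ → ℂ} (hg : g ∈ Subring.closure (psiGens N)) : ∃ M : ℕ, HasPoleInf 1 M g := by
  induction hg using Subring.closure_induction with
  | mem x hx =>
      rcases hx with ⟨c, rfl⟩ | ⟨d, hd, rfl⟩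
      · exact ⟨0, psi_pole_const 1 c⟩
      · have hd0 : d ≠ 0 := fun h => NeZero.ne N (by simpa [h] using hd)
        haveI : NeZero d := ⟨hd0⟩
        by_contra hcon
        have h1 : laurentInf 1 (jd d 1) = 0 := by
          unfold laurentInf
          rw [dif_neg hcon]
        rw [h_jd d hd] at h1
        have h2 : ModularCurve.coeffMap phi0 (jLaur d) = ModularCurve.coeffMap phi0 0 := by
          rw [h1, map_zero]
        exact psi_jLaur_ne_zero d ((ModularCurve.coeffMap phi0).injective h2)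
  | zero => exact ⟨0, psi_pole_const 1 0⟩
  | one => exact ⟨0, psi_pole_const 1 1⟩
  | add x y _ _ hx hy =>
      obtain ⟨M, hM⟩ := hx
      obtain ⟨M', hM'⟩ := hy
      exact ⟨_, psi_pole_add 1 hM hM'⟩
  | neg x _ hx =>
      obtain ⟨M, hM⟩ := hx
      exact ⟨_, psi_pole_neg 1 hM⟩
  | mul x y _ _ hx hy =>
      obtain ⟨M, hM⟩ := hx
      obtain ⟨M', hM'⟩ := hy
      exact ⟨_, psi_pole_mul 1 hM hM'⟩

/-- Piece C-PSI with the analytic inputs (C-LINF for `N = 1`, C-JD `laurentInf_jd_one`) as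
hypotheses. -/
theorem PSI_of
    (h_add : ∀ {g h : ℍ → ℂ} {M M' : ℕ}, HasPoleInf 1 M g → HasPoleInf 1 M' h →
      laurentInf 1 (g + h) = laurentInf 1 g + laurentInf 1 h)
    (h_mul : ∀ {g h : ℍ → ℂ} {M M' : ℕ}, HasPoleInf 1 M g → HasPoleInf 1 M' h →
      laurentInf 1 (g * h) = laurentInf 1 g * laurentInf 1 h)
    (h_const : ∀ c : ℂ, laurentInf 1 (fun _ : ℍ => c) = HahnSeries.C c)
    (h_inj : ∀ {g : ℍ → ℂ} {M : ℕ}, HasPoleInf 1 M g → laurentInf 1 g = 0 → g = 0)
    (h_jd : ∀ (d : ℕ) [NeZero d], d ∣ N →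
      laurentInf 1 (jd d 1) = ModularCurve.coeffMap phi0 (jLaur d)) :
    ∃ ψ : (Algebra.adjoin Kbar
        {x : LaurentSeries Kbar | ∃ (d : ℕ) (_ : NeZero d), d ∣ N ∧ x = jLaur d}) →+* (ℍ → ℂ),
      Function.Injective ψ ∧ (∀ a : Kbar, ψ (algebraMap Kbar _ a) = fun _ => phi0 a) ∧
      (∀ (d : ℕ) [NeZero d] (hd : d ∣ N),
        ψ ⟨jLaur d, Algebra.subset_adjoin ⟨d, inferInstance, hd, rfl⟩⟩ = jd d 1) ∧
      (∀ x, ψ x ∈ Subring.closure
        (Set.range (fun c : ℂ => (fun _ : ℍ => c)) ∪ {f | ∃ d : ℕ, d ∣ N ∧ f = jd d 1})) ∧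
      ∀ x, laurentInf 1 (ψ x) = ModularCurve.coeffMap phi0 (x : LaurentSeries Kbar) := by
  classical
  -- the ring of functions and the expansion map
  set A₁ : Subring (ℍ → ℂ) := Subring.closure (psiGens N) with hA₁
  have hpole : ∀ g : A₁, ∃ M : ℕ, HasPoleInf 1 M (g : ℍ → ℂ) := fun g =>
    psi_pole_of_mem N h_jd g.2
  have hconst_mem : ∀ c : ℂ, (fun _ : ℍ => c) ∈ A₁ := fun c =>
    Subring.subset_closure (Or.inl ⟨c, rfl⟩)
  have hjd_mem : ∀ d : ℕ, d ∣ N → jd d 1 ∈ A₁ := fun d hd =>
    Subring.subset_closure (Or.inr ⟨d, hd, rfl⟩)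
  let E : A₁ →+* LaurentSeries ℂ :=
    { toFun := fun g => laurentInf 1 (g : ℍ → ℂ)
      map_one' := by
        show laurentInf 1 (fun _ : ℍ => (1 : ℂ)) = 1
        rw [h_const, map_one]
      map_mul' := fun g h => by
        obtain ⟨M, hM⟩ := hpole g
        obtain ⟨M', hM'⟩ := hpole h
        exact h_mul hM hM'
      map_zero' := by
        show laurentInf 1 (fun _ : ℍ => (0 : ℂ)) = 0
        rw [h_const, map_zero]
      map_add' := fun g h => by
        obtain ⟨M, hM⟩ := hpole g
        obtain ⟨M', hM'⟩ := hpole h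
        exact h_add hM hM' }
  have hE_apply : ∀ g : A₁, E g = laurentInf 1 (g : ℍ → ℂ) := fun _ => rfl
  have hE : Function.Injective E := by
    rw [injective_iff_map_eq_zero]
    intro g hg
    obtain ⟨M, hM⟩ := hpole g
    exact Subtype.ext (h_inj hM hg)
  -- the coefficient map on the algebra of formal series
  set RK := Algebra.adjoin Kbar
    {x : LaurentSeries Kbar | ∃ (d : ℕ) (_ : NeZero d), d ∣ N ∧ x = jLaur d} with hRK
  let c : RK →+* LaurentSeries ℂ := (ModularCurve.coeffMap phi0).comp RK.val.toRingHom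
  have hc_apply : ∀ x : RK, c x = ModularCurve.coeffMap phi0 (x : LaurentSeries Kbar) :=
    fun _ => rfl
  have hrange : ∀ x : RK, ∃ a, E a = c x := by
    rintro ⟨x, hx⟩
    rw [hc_apply]
    show ∃ a, E a = ModularCurve.coeffMap phi0 x
    induction hx using Algebra.adjoin_induction with
    | mem y hy =>
        obtain ⟨d, hd0, hd, rfl⟩ := hy
        exact ⟨⟨jd d 1, hjd_mem d hd⟩, by rw [hE_apply]; exact h_jd d hd⟩
    | algebraMap r =>
        refine ⟨⟨fun _ => phi0 r, hconst_mem _⟩, ?_⟩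
        rw [hE_apply, psi_coeffMap_algebraMap]
        exact h_const _
    | add y z _ _ hy hz =>
        obtain ⟨a, ha⟩ := hy
        obtain ⟨b, hb⟩ := hz
        exact ⟨a + b, by rw [map_add, map_add, ha, hb]⟩
    | mul y z _ _ hy hz =>
        obtain ⟨a, ha⟩ := hy
        obtain ⟨b, hb⟩ := hz
        exact ⟨a * b, by rw [map_mul, map_mul, ha, hb]⟩
  obtain ⟨ψ', hψ'⟩ := psi_exists_lift E hE c hrange
  refine ⟨A₁.subtype.comp ψ', ?_, ?_, ?_, ?_, ?_⟩
  · -- injectivity
    intro x y hxy
    have h1 : ψ' x = ψ' y := Subtype.ext hxy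
    have h2 : c x = c y := by rw [← hψ', ← hψ', h1]
    rw [hc_apply, hc_apply] at h2
    exact Subtype.ext ((ModularCurve.coeffMap phi0).injective h2)
  · -- constants
    intro a
    have h1 : ψ' (algebraMap Kbar RK a) = ⟨fun _ => phi0 a, hconst_mem _⟩ := by
      apply hE
      rw [hψ', hc_apply, hE_apply]
      show ModularCurve.coeffMap phi0 (algebraMap Kbar (LaurentSeries Kbar) a) = _
      rw [psi_coeffMap_algebraMap]
      exact (h_const _).symm
    show ((ψ' (algebraMap Kbar RK a) : A₁) : ℍ → ℂ) = _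
    rw [h1]
  · -- generators
    intro d _ hd
    have h1 : ψ' ⟨jLaur d, Algebra.subset_adjoin ⟨d, inferInstance, hd, rfl⟩⟩ =
        ⟨jd d 1, hjd_mem d hd⟩ := by
      apply hE
      rw [hψ', hc_apply, hE_apply]
      exact (h_jd d hd).symm
    show ((ψ' ⟨jLaur d, _⟩ : A₁) : ℍ → ℂ) = _
    rw [h1]
  · intro x
    exact (ψ' x).2
  · intro x
    have := hψ' x
    rw [hc_apply, hE_apply] at this
    exact this

end Main

end Fermat.Agent.S24_helper29_PSIcore
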