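import Fermat.Agent.S24_Defs
import Fermat.Agent.S24_helper29_PSIcore
import Fermat.Agent.S24_helper29_PSI
import Fermat.Agent.S24_helper23_GEN
import Fermat.Agent.S24_helper27_J1
import Fermat.Agent.S24_helper26_TAY
import Fermat.Agent.S24_helper21_LINF
import Fermat.Agent.S24_helper24_JD
import Fermat.Agent.S24_helper17_EMB

/-!
# Project G, piece G5 (part a): the S24 dictionary re-wired over `ℂ`

The files of S24 that are hard-wired to `ℚ̄ = AlgebraicClosure ℚ` (with the embedding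
`phi0 : ℚ̄ → ℂ`) are copied here with `ℚ̄` replaced by `ℂ` and `phi0` by the identity
(`PG_G5_phi`).  This part: the function field `PG_G5_FC N = ℂ(j(q^d) : d ∣ N) ⊆ ℂ((q))`, its
generators, the realisation map `ψ` and the embeddings into Laurent series fields.
-/

set_option autoImplicit false
set_option linter.unusedSectionVars false
set_option linter.unusedVariables false
set_option linter.style.haveILetI false

noncomputable section

open UpperHalfPlane ModularForm CongruenceSubgroup AlgebraicCurve IntermediateField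
open scoped MatrixGroups ModularForm Manifold Real
open Fermat.Agent.S20 Fermat.Agent.S24

namespace Fermat.Agent.G_helper16_G5

/-! ### Definitions -/

/-- The function field of `X₀(N)` over `ℂ`, inside `ℂ((q))`. -/
abbrev PG_G5_FC (N : ℕ) [NeZero N] : IntermediateField ℂ (LaurentSeries ℂ) :=
  ModularCurve.laurentBaseChange ℂ (ModularCurve.modularFunctionFieldFull N)

/-- The identity of `ℂ`, in the role of `phi0` of S24. -/
def PG_G5_phi : ℂ →+* ℂ := RingHom.id ℂ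

@[simp] theorem PG_G5_phi_apply (a : ℂ) : PG_G5_phi a = a := rfl

theorem PG_G5_coeffMap_phi (x : LaurentSeries ℂ) : ModularCurve.coeffMap PG_G5_phi x = x := by
  ext n
  rfl

/-- The formal series `j(q^d)` with coefficients in `ℂ`. -/
noncomputable def PG_G5_jLaur (d : ℕ) [NeZero d] : LaurentSeries ℂ :=
  ModularCurve.coeffEmb ℂ (ModularCurve.qExpand ℚ d ModularCurve.jq)

theorem PG_G5_jLaur_mem (N : ℕ) [NeZero N] {d : ℕ} [NeZero d] (hd : d ∣ N) :
    PG_G5_jLaur d ∈ PG_G5_FC N :=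
  ModularCurve.coeffEmb_mem_laurentBaseChange ℂ (ModularCurve.jqd_mem_full N hd)

/-- `j(q^d)` as an element of the function field. -/
noncomputable def PG_G5_jF (N : ℕ) [NeZero N] (d : ℕ) [NeZero d] (hd : d ∣ N) :
    PG_G5_FC N := ⟨PG_G5_jLaur d, PG_G5_jLaur_mem N hd⟩

/-- `j` as an element of the function field. -/
noncomputable def PG_G5_jElt (N : ℕ) [NeZero N] : PG_G5_FC N :=
  PG_G5_jF N 1 (one_dvd N)

/-! ### PSI (copy of `S24_helper29_PSIcore`, `S24_helper24_JD`, `S24_helper29_PSI`) -/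

section PSIcore

open Fermat.Agent.S24_helper29_PSIcore

variable (N : ℕ) [NeZero N]

theorem PG_G5_psi_jLaur_ne_zero (d : ℕ) [NeZero d] : PG_G5_jLaur d ≠ 0 := by
  unfold PG_G5_jLaur
  intro h
  have h1 : ModularCurve.coeffEmb ℂ (ModularCurve.qExpand ℚ d ModularCurve.jq) =
      ModularCurve.coeffEmb ℂ 0 := by rw [h, map_zero]
  have h2 := (ModularCurve.coeffEmb ℂ).injective h1
  have h3 : ModularCurve.qExpand ℚ d ModularCurve.jq = ModularCurve.qExpand ℚ d 0 := by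
    rw [h2, map_zero]
  exact ModularCurve.jq_ne_zero (ModularCurve.qExpand_injective d h3)

theorem PG_G5_psi_coeffMap_algebraMap (a : ℂ) :
    ModularCurve.coeffMap PG_G5_phi (algebraMap ℂ (LaurentSeries ℂ) a) =
      HahnSeries.C (PG_G5_phi a) := by
  rw [ModularCurve.algebraMap_laurentSeries_eq_single, ModularCurve.coeffMap_single]
  rfl

/-- Every function in the ring generated by the constants and the `j(dz)` has a pole of finite
order at `i∞`, provided the `j(dz)` have the expected expansions. -/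
theorem PG_G5_psi_pole_of_mem
    (h_jd : ∀ (d : ℕ) [NeZero d], d ∣ N →
      laurentInf 1 (jd d 1) = ModularCurve.coeffMap PG_G5_phi (PG_G5_jLaur d))
    {g : ℍ → ℂ} (hg : g ∈ Subring.closure (psiGens N)) : ∃ M : ℕ, HasPoleInf 1 M g := by
  induction hg using Subring.closure_induction with
  | mem x hx =>
      rcases hx with ⟨c, rfl⟩ | ⟨d, hd, rfl⟩
      · exact ⟨0, psi_pole_const 1 c⟩
      · have hd0 : d ≠ 0 := fun h => NeZero.ne N (by simpa [h] using hd)
        have : NeZero d := ⟨hd0⟩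
        by_contra hcon
        have h1 : laurentInf 1 (jd d 1) = 0 := by
          unfold laurentInf
          rw [dif_neg hcon]
        rw [h_jd d hd] at h1
        have h2 : ModularCurve.coeffMap PG_G5_phi (PG_G5_jLaur d) = ModularCurve.coeffMap PG_G5_phi 0 := by
          rw [h1, map_zero]
        exact PG_G5_psi_jLaur_ne_zero d ((ModularCurve.coeffMap PG_G5_phi).injective h2)
  | zero => exact ⟨0, psi_pole_const 1 0⟩
  | one => exact ⟨0, psi_pole_const 1 1⟩
  | add x y _ _ hx hy =>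
      obtain ⟨M, hM⟩ := hx
      obtain ⟨M', hM'⟩ := hy
      exact ⟨_, psi_pole_add 1 hM hM'⟩
  | neg x _ hx =>
      obtain ⟨M, hM⟩ := hx
      exact ⟨_, psi_pole_neg 1 hM⟩
  | mul x y _ _ hx hy =>
      obtain ⟨M, hM⟩ := hx
      obtain ⟨M', hM'⟩ := hy
      exact ⟨_, psi_pole_mul 1 hM hM'⟩

/-- Piece C-PG_G5_PSI with the analytic inputs (C-LINF for `N = 1`, C-JD `PG_G5_laurentInf_jd_one`) as
hypotheses. -/
theorem PG_G5_PSI_of
    (h_add : ∀ {g h : ℍ → ℂ} {M M' : ℕ}, HasPoleInf 1 M g → HasPoleInf 1 M' h →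
      laurentInf 1 (g + h) = laurentInf 1 g + laurentInf 1 h)
    (h_mul : ∀ {g h : ℍ → ℂ} {M M' : ℕ}, HasPoleInf 1 M g → HasPoleInf 1 M' h →
      laurentInf 1 (g * h) = laurentInf 1 g * laurentInf 1 h)
    (h_const : ∀ c : ℂ, laurentInf 1 (fun _ : ℍ => c) = HahnSeries.C c)
    (h_inj : ∀ {g : ℍ → ℂ} {M : ℕ}, HasPoleInf 1 M g → laurentInf 1 g = 0 → g = 0)
    (h_jd : ∀ (d : ℕ) [NeZero d], d ∣ N →
      laurentInf 1 (jd d 1) = ModularCurve.coeffMap PG_G5_phi (PG_G5_jLaur d)) :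
    ∃ ψ : (Algebra.adjoin ℂ
        {x : LaurentSeries ℂ | ∃ (d : ℕ) (_ : NeZero d), d ∣ N ∧ x = PG_G5_jLaur d}) →+* (ℍ → ℂ),
      Function.Injective ψ ∧ (∀ a : ℂ, ψ (algebraMap ℂ _ a) = fun _ => PG_G5_phi a) ∧
      (∀ (d : ℕ) [NeZero d] (hd : d ∣ N),
        ψ ⟨PG_G5_jLaur d, Algebra.subset_adjoin ⟨d, inferInstance, hd, rfl⟩⟩ = jd d 1) ∧
      (∀ x, ψ x ∈ Subring.closure
        (Set.range (fun c : ℂ => (fun _ : ℍ => c)) ∪ {f | ∃ d : ℕ, d ∣ N ∧ f = jd d 1})) ∧
      ∀ x, laurentInf 1 (ψ x) = ModularCurve.coeffMap PG_G5_phi (x : LaurentSeries ℂ) := by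
  classical
  -- the ring of functions and the expansion map
  set A₁ : Subring (ℍ → ℂ) := Subring.closure (psiGens N) with hA₁
  have hpole : ∀ g : A₁, ∃ M : ℕ, HasPoleInf 1 M (g : ℍ → ℂ) := fun g =>
    PG_G5_psi_pole_of_mem N h_jd g.2
  have hconst_mem : ∀ c : ℂ, (fun _ : ℍ => c) ∈ A₁ := fun c =>
    Subring.subset_closure (Or.inl ⟨c, rfl⟩)
  have hjd_mem : ∀ d : ℕ, d ∣ N → jd d 1 ∈ A₁ := fun d hd =>
    Subring.subset_closure (Or.inr ⟨d, hd, rfl⟩)
  let E : A₁ →+* LaurentSeries ℂ :=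
    { toFun := fun g => laurentInf 1 (g : ℍ → ℂ)
      map_one' := by
        show laurentInf 1 (fun _ : ℍ => (1 : ℂ)) = 1
        rw [h_const, map_one]
      map_mul' := fun g h => by
        obtain ⟨M, hM⟩ := hpole g
        obtain ⟨M', hM'⟩ := hpole h
        exact h_mul hM hM'
      map_zero' := by
        show laurentInf 1 (fun _ : ℍ => (0 : ℂ)) = 0
        rw [h_const, map_zero]
      map_add' := fun g h => by
        obtain ⟨M, hM⟩ := hpole g
        obtain ⟨M', hM'⟩ := hpole h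
        exact h_add hM hM' }
  have hE_apply : ∀ g : A₁, E g = laurentInf 1 (g : ℍ → ℂ) := fun _ => rfl
  have hE : Function.Injective E := by
    rw [injective_iff_map_eq_zero]
    intro g hg
    obtain ⟨M, hM⟩ := hpole g
    exact Subtype.ext (h_inj hM hg)
  -- the coefficient map on the algebra of formal series
  set RK := Algebra.adjoin ℂ
    {x : LaurentSeries ℂ | ∃ (d : ℕ) (_ : NeZero d), d ∣ N ∧ x = PG_G5_jLaur d} with hRK
  let c : RK →+* LaurentSeries ℂ := (ModularCurve.coeffMap PG_G5_phi).comp RK.val.toRingHom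
  have hc_apply : ∀ x : RK, c x = ModularCurve.coeffMap PG_G5_phi (x : LaurentSeries ℂ) :=
    fun _ => rfl
  have hrange : ∀ x : RK, ∃ a, E a = c x := by
    rintro ⟨x, hx⟩
    rw [hc_apply]
    show ∃ a, E a = ModularCurve.coeffMap PG_G5_phi x
    induction hx using Algebra.adjoin_induction with
    | mem y hy =>
        obtain ⟨d, hd0, hd, rfl⟩ := hy
        exact ⟨⟨jd d 1, hjd_mem d hd⟩, by rw [hE_apply]; exact h_jd d hd⟩
    | algebraMap r =>
        refine ⟨⟨fun _ => PG_G5_phi r, hconst_mem _⟩, ?_⟩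
        rw [hE_apply, PG_G5_psi_coeffMap_algebraMap]
        exact h_const _
    | add y z _ _ hy hz =>
        obtain ⟨a, ha⟩ := hy
        obtain ⟨b, hb⟩ := hz
        exact ⟨a + b, by rw [map_add, map_add, ha, hb]⟩
    | mul y z _ _ hy hz =>
        obtain ⟨a, ha⟩ := hy
        obtain ⟨b, hb⟩ := hz
        exact ⟨a * b, by rw [map_mul, map_mul, ha, hb]⟩
  obtain ⟨ψ', hψ'⟩ := psi_exists_lift (R := RK) E hE c hrange
  refine ⟨A₁.subtype.comp ψ', ?_, ?_, ?_, ?_, ?_⟩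
  · -- injectivity
    intro x y hxy
    have h1 : ψ' x = ψ' y := Subtype.ext hxy
    have h2 : c x = c y := by rw [← hψ', ← hψ', h1]
    rw [hc_apply, hc_apply] at h2
    exact Subtype.ext ((ModularCurve.coeffMap PG_G5_phi).injective h2)
  · -- constants
    intro a
    have h1 : ψ' (algebraMap ℂ RK a) = ⟨fun _ => PG_G5_phi a, hconst_mem _⟩ := by
      apply hE
      rw [hψ', hc_apply, hE_apply]
      show ModularCurve.coeffMap PG_G5_phi (algebraMap ℂ (LaurentSeries ℂ) a) = _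
      rw [PG_G5_psi_coeffMap_algebraMap]
      exact (h_const _).symm
    show ((ψ' (algebraMap ℂ RK a) : A₁) : ℍ → ℂ) = _
    rw [h1]
  · -- generators
    intro d _ hd
    have h1 : ψ' ⟨PG_G5_jLaur d, Algebra.subset_adjoin ⟨d, inferInstance, hd, rfl⟩⟩ =
        ⟨jd d 1, hjd_mem d hd⟩ := by
      apply hE
      rw [hψ', hc_apply, hE_apply]
      exact (h_jd d hd).symm
    show ((ψ' ⟨PG_G5_jLaur d, _⟩ : A₁) : ℍ → ℂ) = _
    rw [h1]
  · intro x
    exact (ψ' x).2
  · intro x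
    have := hψ' x
    rw [hc_apply, hE_apply] at this
    exact this

end PSIcore

section JD

open Fermat.Agent.S24_helper24_JD
open Fermat.Agent.S28_helper14_ADefs Fermat.Agent.S28_SUBST

variable {N : ℕ} [NeZero N]

lemma PG_G5_coeffMap_phi0_jLaur (d : ℕ) [NeZero d] :
    ModularCurve.coeffMap PG_G5_phi (PG_G5_jLaur d) = ModularCurve.qExpand ℂ d (ModularCurve.jqModC ℂ) := by
  have h1 : PG_G5_phi.comp (algebraMap ℚ ℂ) = algebraMap ℚ ℂ := Subsingleton.elim _ _
  rw [PG_G5_jLaur, ModularCurve.coeffEmb, ModularCurve.coeffMap_coeffMap, h1,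
    ModularCurve.coeffMap_qExpand]
  congr 1
  rw [← ModularCurve.jqModC_rat]
  exact ModularCurve.map_jqModC (algebraMap ℚ ℂ)

theorem PG_G5_laurentInf_jd_one {d : ℕ} [NeZero d] :
    laurentInf 1 (jd d 1) = ModularCurve.coeffMap PG_G5_phi (PG_G5_jLaur d) := by
  have hd : 0 < d := Nat.pos_of_ne_zero (NeZero.ne d)
  have hdiff : MDifferentiable 𝓘(ℂ) 𝓘(ℂ) (tri d 1 0 jfun) := by
    rw [← jd_one_eq_tri]
    exact Fermat.Agent.S24_helper27_J1.jd_mdiff d hd 1
  rw [PG_G5_coeffMap_phi0_jLaur, jd_one_eq_tri, laurentInf_tri_jfun 1 hd one_pos (one_dvd 1) 0 hdiff]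
  have h1 : (Complex.exp (2 * π * Complex.I * ((0 : ℤ) : ℂ) / ((1 : ℕ) : ℂ)))⁻¹ = 1 := by
    simp
  rw [h1, one_smul, ofPowerSeries_tri_eq_qExpand, ModularCurve.jqModC, map_mul,
    ModularCurve.qExpand_single]
  congr 2

end JD

section PSI

theorem PG_G5_PSI (N : ℕ) [NeZero N] :
    ∃ ψ : (Algebra.adjoin ℂ
        {x : LaurentSeries ℂ | ∃ (d : ℕ) (_ : NeZero d), d ∣ N ∧ x = PG_G5_jLaur d}) →+* (ℍ → ℂ),
      Function.Injective ψ ∧ (∀ a : ℂ, ψ (algebraMap ℂ _ a) = fun _ => PG_G5_phi a) ∧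
      (∀ (d : ℕ) [NeZero d] (hd : d ∣ N),
        ψ ⟨PG_G5_jLaur d, Algebra.subset_adjoin ⟨d, inferInstance, hd, rfl⟩⟩ = jd d 1) ∧
      (∀ x, ψ x ∈ Subring.closure
        (Set.range (fun c : ℂ => (fun _ : ℍ => c)) ∪ {f | ∃ d : ℕ, d ∣ N ∧ f = jd d 1})) ∧
      ∀ x, laurentInf 1 (ψ x) = ModularCurve.coeffMap PG_G5_phi (x : LaurentSeries ℂ) :=
  PG_G5_PSI_of N
    (fun hg hh => Fermat.Agent.S24_helper21_LINF.laurentInf_add 1 hg hh)
    (fun hg hh => Fermat.Agent.S24_helper21_LINF.laurentInf_mul 1 hg hh)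
    (fun c => Fermat.Agent.S24_helper21_LINF.laurentInf_const 1 c)
    (fun hg h0 => Fermat.Agent.S24_helper21_LINF.laurentInf_eq_zero 1 hg h0)
    (fun _ _ _ => PG_G5_laurentInf_jd_one)

end PSI

/-! ### GEN (copy of `S24_helper23_GEN`) -/

section GEN

/-- The generating set `{j(q^d) : d ∣ N}` inside `ℚ̄((q))`. -/
def PG_G5_gens (N : ℕ) : Set (LaurentSeries ℂ) :=
  {x | ∃ (d : ℕ) (_ : NeZero d), d ∣ N ∧ x = PG_G5_jLaur d}

theorem PG_G5_coeffEmb_algebraMap (c : ℚ) :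
    ModularCurve.coeffEmb ℂ (algebraMap ℚ (LaurentSeries ℚ) c)
      = algebraMap ℂ (LaurentSeries ℂ) (algebraMap ℚ ℂ c) := by
  rw [ModularCurve.algebraMap_laurentSeries_eq_single,
    ModularCurve.algebraMap_laurentSeries_eq_single, ModularCurve.coeffEmb,
    ModularCurve.coeffMap_single]

theorem PG_G5_coeffEmb_mem_adjoin (N : ℕ) [NeZero N] {x : LaurentSeries ℚ}
    (hx : x ∈ ModularCurve.modularFunctionFieldFull N) :
    ModularCurve.coeffEmb ℂ x ∈ IntermediateField.adjoin ℂ (PG_G5_gens N) := by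
  unfold ModularCurve.modularFunctionFieldFull at hx
  induction hx using IntermediateField.adjoin_induction with
  | mem y hy =>
    obtain ⟨d, hd0, hd, rfl⟩ := hy
    exact IntermediateField.subset_adjoin _ _ ⟨d, hd0, hd, rfl⟩
  | algebraMap c =>
    rw [PG_G5_coeffEmb_algebraMap]
    exact IntermediateField.algebraMap_mem _ _
  | add x y hx hy h1 h2 =>
    rw [map_add]; exact add_mem h1 h2
  | inv x hx h =>
    rw [map_inv₀]; exact inv_mem h
  | mul x y hx hy h1 h2 =>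
    rw [map_mul]; exact mul_mem h1 h2

/-- PG_G5_GEN: the function field is generated over `ℚ̄` by the `j(q^d)`, `d ∣ N`. -/
theorem PG_G5_GEN (N : ℕ) [NeZero N] :
    PG_G5_FC N =
      IntermediateField.adjoin ℂ {x | ∃ (d : ℕ) (_ : NeZero d), d ∣ N ∧ x = PG_G5_jLaur d} := by
  apply le_antisymm
  · show ModularCurve.laurentBaseChange ℂ (ModularCurve.modularFunctionFieldFull N) ≤ _
    unfold ModularCurve.laurentBaseChange
    rw [IntermediateField.adjoin_le_iff]
    rintro _ ⟨x, hx, rfl⟩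
    exact PG_G5_coeffEmb_mem_adjoin N hx
  · rw [IntermediateField.adjoin_le_iff]
    rintro _ ⟨d, hd0, hd, rfl⟩
    exact PG_G5_jLaur_mem N hd

/-- Ring homs out of the function field agreeing on constants and on the generators are equal. -/
theorem PG_G5_ringHom_ext_FN (N : ℕ) [NeZero N] {Ω : Type*} [Field Ω]
    (f g : PG_G5_FC N →+* Ω)
    (hK : ∀ a : ℂ, f (algebraMap ℂ _ a) = g (algebraMap ℂ _ a))
    (hj : ∀ (d : ℕ) [NeZero d] (hd : d ∣ N), f (PG_G5_jF N d hd) = g (PG_G5_jF N d hd)) : f = g := by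
  have key : ∀ x : LaurentSeries ℂ,
      x ∈ IntermediateField.adjoin ℂ {x | ∃ (d : ℕ) (_ : NeZero d), d ∣ N ∧ x = PG_G5_jLaur d} →
      ∀ hx' : x ∈ PG_G5_FC N, f ⟨x, hx'⟩ = g ⟨x, hx'⟩ := by
    intro x hx
    induction hx using IntermediateField.adjoin_induction with
    | mem y hy =>
      intro hy'
      obtain ⟨d, hd0, hd, rfl⟩ := hy
      exact hj d hd
    | algebraMap a =>
      intro ha'
      exact hK a
    | add x y hx hy h1 h2 =>
      intro hxy
      have hx' : x ∈ PG_G5_FC N := by rw [PG_G5_GEN]; exact hx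
      have hy' : y ∈ PG_G5_FC N := by rw [PG_G5_GEN]; exact hy
      have e : (⟨x + y, hxy⟩ : PG_G5_FC N)
          = ⟨x, hx'⟩ + ⟨y, hy'⟩ := rfl
      rw [e, map_add, map_add, h1 hx', h2 hy']
    | inv x hx h =>
      intro hxi
      have hx' : x ∈ PG_G5_FC N := by rw [PG_G5_GEN]; exact hx
      have e : (⟨x⁻¹, hxi⟩ : PG_G5_FC N)
          = (⟨x, hx'⟩ : PG_G5_FC N)⁻¹ := rfl
      rw [e, map_inv₀, map_inv₀, h hx']
    | mul x y hx hy h1 h2 =>
      intro hxy
      have hx' : x ∈ PG_G5_FC N := by rw [PG_G5_GEN]; exact hx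
      have hy' : y ∈ PG_G5_FC N := by rw [PG_G5_GEN]; exact hy
      have e : (⟨x * y, hxy⟩ : PG_G5_FC N)
          = ⟨x, hx'⟩ * ⟨y, hy'⟩ := rfl
      rw [e, map_mul, map_mul, h1 hx', h2 hy']
  ext ⟨x, hx⟩
  exact key x (by rw [← PG_G5_GEN]; exact hx) hx

/-- Coefficients of powers of `j(q)` over `ℚ̄`. -/
theorem PG_G5_coeff_jLaur_one_pow_self (n : ℕ) : ((PG_G5_jLaur 1) ^ n).coeff (-(n : ℤ)) = 1 := by
  have h : (PG_G5_jLaur 1) ^ n = ModularCurve.coeffEmb ℂ (ModularCurve.jq ^ n) := by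
    rw [map_pow, PG_G5_jLaur, ModularCurve.qExpand_one_apply]
  rw [h, ModularCurve.coeffEmb_coeff, ModularCurve.coeff_jq_pow_self, map_one]

theorem PG_G5_coeff_jLaur_one_pow_of_lt {n : ℕ} {m : ℤ} (hm : m < -(n : ℤ)) :
    ((PG_G5_jLaur 1) ^ n).coeff m = 0 := by
  have h : (PG_G5_jLaur 1) ^ n = ModularCurve.coeffEmb ℂ (ModularCurve.jq ^ n) := by
    rw [map_pow, PG_G5_jLaur, ModularCurve.qExpand_one_apply]
  rw [h, ModularCurve.coeffEmb_coeff, ModularCurve.coeff_jq_pow_of_lt hm, map_zero]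

/-- The leading Laurent coefficient of `P(j)` is the leading coefficient of `P`. -/
theorem PG_G5_coeff_aeval_jLaur (P : Polynomial ℂ) :
    (Polynomial.aeval (PG_G5_jLaur 1) P).coeff (-(P.natDegree : ℤ)) = P.leadingCoeff := by
  rw [Polynomial.aeval_eq_sum_range, HahnSeries.coeff_sum]
  rw [Finset.sum_eq_single P.natDegree]
  · rw [Algebra.smul_def, ModularCurve.algebraMap_laurentSeries_eq_single,
      HahnSeries.coeff_single_zero_mul, PG_G5_coeff_jLaur_one_pow_self, mul_one]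
    rfl
  · intro k hk hkn
    have hlt : k < P.natDegree :=
      lt_of_le_of_ne (Nat.lt_succ_iff.mp (Finset.mem_range.mp hk)) hkn
    rw [Algebra.smul_def, ModularCurve.algebraMap_laurentSeries_eq_single,
      HahnSeries.coeff_single_zero_mul, PG_G5_coeff_jLaur_one_pow_of_lt (by omega), mul_zero]
  · intro h
    exact absurd (Finset.mem_range.mpr (Nat.lt_succ_self _)) h

theorem PG_G5_transcendental_jLaur_one : Transcendental ℂ (PG_G5_jLaur 1) := by
  intro halg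
  obtain ⟨P, hP0, hP⟩ := halg
  have h := PG_G5_coeff_aeval_jLaur P
  rw [hP, HahnSeries.coeff_zero] at h
  exact hP0 (Polynomial.leadingCoeff_eq_zero.mp h.symm)

/-- PG_G5_TR: `j` is transcendental over `ℚ̄`. -/
theorem PG_G5_TR (N : ℕ) [NeZero N] : Transcendental ℂ (PG_G5_jElt N) := by
  intro halg
  apply PG_G5_transcendental_jLaur_one
  have := (IntermediateField.isAlgebraic_iff (S := PG_G5_FC N)
    (x := PG_G5_jElt N)).mp halg
  exact this

end GEN

/-! ### EMB (copy of `S24_helper17_EMB`) -/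

section EMB

open Fermat.Agent.S24_helper27_J1 Fermat.Agent.S24_helper26_TAY Fermat.Agent.S24_helper21_LINF
  Fermat.Agent.S24_helper24_JD Fermat.Agent.S24_helper17_EMB

/-- The generators `j(q^d)`, `d ∣ N`, of the function field. -/
abbrev PG_G5_genSet (N : ℕ) : Set (LaurentSeries ℂ) :=
  {x | ∃ (d : ℕ) (_ : NeZero d), d ∣ N ∧ x = PG_G5_jLaur d}

open scoped IntermediateField.algebraAdjoinAdjoin in
theorem PG_G5_EMB (N : ℕ) [NeZero N] (γ : SL(2, ℤ)) {Ω : Type*} [Field Ω]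
    (A : Subring (ℍ → ℂ)) (hAc : ∀ c : ℂ, (fun _ => c) ∈ A)
    (hAj : ∀ d : ℕ, d ∣ N → jd d γ ∈ A)
    (E : A →+* Ω) (hE : Function.Injective E) :
    ∃ ι : PG_G5_FC N →+* Ω,
      (∀ a : ℂ, ι (algebraMap ℂ _ a) = E ⟨fun _ => PG_G5_phi a, hAc _⟩) ∧
      ∀ (d : ℕ) [NeZero d] (hd : d ∣ N), ι (PG_G5_jF N d hd) = E ⟨jd d γ, hAj d hd⟩ := by
  classical
  obtain ⟨ψ, hψinj, hψc, hψj, hψmem, -⟩ := PG_G5_PSI N
  have hle : Subring.closure
      (Set.range (fun c : ℂ => (fun _ : ℍ => c)) ∪ {f | ∃ d : ℕ, d ∣ N ∧ f = jd d 1})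
      ≤ A.comap (precomp γ) := by
    rw [Subring.closure_le]
    rintro f (⟨c, rfl⟩ | ⟨d, hd, rfl⟩)
    · exact hAc c
    · show precomp γ (jd d 1) ∈ A
      rw [precomp_jd]
      exact hAj d hd
  have hmem : ∀ x, ((precomp γ).comp ψ) x ∈ A := fun x => hle (hψmem x)
  set θ : Algebra.adjoin ℂ (PG_G5_genSet N) →+* Ω := E.comp (((precomp γ).comp ψ).codRestrict A hmem)
    with hθ
  have hθinj : Function.Injective θ := by
    intro x y hxy
    have h1 := hE hxy
    have h2 : (precomp γ) (ψ x) = (precomp γ) (ψ y) := congrArg Subtype.val h1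
    exact hψinj (precomp_injective γ h2)
  let ι₀ : IntermediateField.adjoin ℂ (PG_G5_genSet N) →+* Ω :=
    IsFractionRing.lift (A := Algebra.adjoin ℂ (PG_G5_genSet N))
      (K := IntermediateField.adjoin ℂ (PG_G5_genSet N)) hθinj
  have hι₀ : ∀ x : Algebra.adjoin ℂ (PG_G5_genSet N),
      ι₀ (algebraMap (Algebra.adjoin ℂ (PG_G5_genSet N)) (IntermediateField.adjoin ℂ (PG_G5_genSet N)) x) = θ x :=
    fun x => IsFractionRing.lift_algebraMap (A := Algebra.adjoin ℂ (PG_G5_genSet N))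
      (K := IntermediateField.adjoin ℂ (PG_G5_genSet N)) hθinj x
  let e : PG_G5_FC N ≃ₐ[ℂ] IntermediateField.adjoin ℂ (PG_G5_genSet N) :=
    IntermediateField.equivOfEq (PG_G5_GEN N)
  refine ⟨ι₀.comp (e : PG_G5_FC N →+* _), ?_, ?_⟩
  · intro a
    have h1 : (e : PG_G5_FC N →+* _) (algebraMap ℂ _ a)
        = algebraMap (Algebra.adjoin ℂ (PG_G5_genSet N)) (IntermediateField.adjoin ℂ (PG_G5_genSet N))
            (algebraMap ℂ (Algebra.adjoin ℂ (PG_G5_genSet N)) a) := by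
      apply Subtype.ext
      rfl
    rw [RingHom.comp_apply, h1, hι₀, hθ, RingHom.comp_apply]
    congr 1
    apply Subtype.ext
    show precomp γ (ψ (algebraMap ℂ _ a)) = fun _ => PG_G5_phi a
    rw [hψc]
    rfl
  · intro d _ hd
    have h1 : (e : PG_G5_FC N →+* _) (PG_G5_jF N d hd)
        = algebraMap (Algebra.adjoin ℂ (PG_G5_genSet N)) (IntermediateField.adjoin ℂ (PG_G5_genSet N))
            ⟨PG_G5_jLaur d, Algebra.subset_adjoin ⟨d, inferInstance, hd, rfl⟩⟩ := by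
      apply Subtype.ext
      rfl
    rw [RingHom.comp_apply, h1, hι₀, hθ, RingHom.comp_apply]
    congr 1
    apply Subtype.ext
    show precomp γ (ψ ⟨PG_G5_jLaur d, Algebra.subset_adjoin ⟨d, inferInstance, hd, rfl⟩⟩) = jd d γ
    rw [hψj d hd, precomp_jd]

theorem PG_G5_MASTER_fin (N : ℕ) [NeZero N] (z₀ : ℍ) (γ : SL(2, ℤ)) :
    ∃ ι : PG_G5_FC N →+* LaurentSeries ℂ,
      (∀ a : ℂ, ι (algebraMap ℂ _ a) = HahnSeries.C (PG_G5_phi a)) ∧
      ∀ (d : ℕ) [NeZero d] (hd : d ∣ N), ι (PG_G5_jF N d hd) = laurentAt z₀ (jd d γ) := by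
  have hAj : ∀ d : ℕ, d ∣ N → jd d γ ∈ holoSubring := fun d hd =>
    jd_mdiff d (Nat.pos_of_dvd_of_pos hd (Nat.pos_of_ne_zero (NeZero.ne N))) γ
  obtain ⟨ι, h1, h2⟩ := PG_G5_EMB N γ holoSubring (fun c => mdifferentiable_const) hAj
    (laurentAtHom z₀) (laurentAtHom_injective z₀)
  refine ⟨ι, fun a => ?_, fun d _ hd => ?_⟩
  · rw [h1, laurentAtHom_apply]
    show laurentAt z₀ (fun _ => PG_G5_phi a) = HahnSeries.C (PG_G5_phi a)
    rw [laurentAt, taylorAt_const, HahnSeries.ofPowerSeries_C]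
  · rw [h2 d hd, laurentAtHom_apply]

theorem PG_G5_MASTER_inf (N : ℕ) [NeZero N] (γ : SL(2, ℤ)) :
    ∃ ι : PG_G5_FC N →+* LaurentSeries ℂ,
      (∀ a : ℂ, ι (algebraMap ℂ _ a) = HahnSeries.C (PG_G5_phi a)) ∧
      ∀ (d : ℕ) [NeZero d] (hd : d ∣ N), ι (PG_G5_jF N d hd) = laurentInf N (jd d γ) := by
  have hAj : ∀ d : ℕ, d ∣ N → jd d γ ∈ poleSubring N := fun d hd =>
    ⟨N * N, hasPoleInf_jd N hd γ⟩
  obtain ⟨ι, h1, h2⟩ := PG_G5_EMB N γ (poleSubring N) (fun c => ⟨0, Fermat.Agent.S24_helper17_EMB.hasPoleInf_const N c⟩) hAj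
    (laurentInfHom N) (laurentInfHom_injective N)
  refine ⟨ι, fun a => ?_, fun d _ hd => ?_⟩
  · rw [h1, laurentInfHom_apply]
    exact laurentInf_const N (PG_G5_phi a)
  · rw [h2 d hd, laurentInfHom_apply]

end EMB

end Fermat.Agent.G_helper16_G5
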