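import Fermat.Agent.S24_Defs
import Fermat.Agent.S20_Basic
import Fermat.Agent.S20_helper13_B2
import Fermat.Agent.S20_helper19_B3

set_option autoImplicit false

open UpperHalfPlane ModularForm CongruenceSubgroup Filter
open scoped MatrixGroups ModularForm Manifold Topology Modular
open Fermat.Agent.S20 Fermat.Agent.S24

namespace Fermat.Agent.S24_helper10_J

/-- transformation rule of a level one form -/
theorem isMF1_smul_apply {k : ℤ} {f : ℍ → ℂ} (hf : IsMF1 k f) (γ : SL(2, ℤ)) (z : ℍ) :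
    f (γ • z) = denom γ z ^ k * f z := by
  have h := congrFun (hf.slash_eq γ) z
  rw [ModularForm.SL_slash_apply] at h
  rw [← h, mul_comm, mul_assoc, ← zpow_add₀ (denom_ne_zero _ z)]
  simp

theorem jfun_smul (γ : SL(2, ℤ)) (z : ℍ) : jfun (γ • z) = jfun z := by
  unfold jfun
  have h4 := isMF1_smul_apply isMF1_E₄ γ z
  have h12 := isMF1_smul_apply isMF1_discriminant γ z
  rw [h4, h12]
  have hd : denom γ z ≠ 0 := denom_ne_zero _ z
  have hΔ : ModularForm.discriminant z ≠ 0 := discriminant_ne_zero z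
  field_simp

theorem jfun_mdiff : MDifferentiable 𝓘(ℂ) 𝓘(ℂ) jfun := by
  have h4 : MDifferentiable 𝓘(ℂ) 𝓘(ℂ) (⇑E₄ : ℍ → ℂ) := isMF1_E₄.holo
  have hΔ : MDifferentiable 𝓘(ℂ) 𝓘(ℂ) (ModularForm.discriminant : ℍ → ℂ) :=
    isMF1_discriminant.holo
  rw [UpperHalfPlane.mdifferentiable_iff] at h4 hΔ ⊢
  have : (jfun ∘ ofComplex) = fun w => ((⇑E₄ ∘ ofComplex) w) ^ 3 /
      ((ModularForm.discriminant : ℍ → ℂ) ∘ ofComplex) w := by
    funext w
    simp [jfun]
  rw [this]
  refine DifferentiableOn.div (h4.pow 3) hΔ ?_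
  intro w _
  exact discriminant_ne_zero _

theorem tendsto_norm_jfun : Tendsto (fun z : ℍ => ‖jfun z‖) atImInfty atTop := by
  have h4 : Tendsto (fun z : ℍ => ‖E₄ z ^ 3‖) atImInfty (𝓝 1) := by
    have := ((Fermat.Agent.S20_helper13_B2.tendsto_E (k := 4) (by norm_num) (by decide)).pow 3).norm
    simpa using this
  have hΔ : Tendsto (fun z : ℍ => ‖ModularForm.discriminant z‖) atImInfty (𝓝[>] 0) := by
    rw [tendsto_nhdsWithin_iff]
    constructor
    · have := (discriminant_isZeroAtImInfty).norm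
      simpa using this
    · exact Eventually.of_forall fun z => norm_pos_iff.mpr (discriminant_ne_zero z)
  have hinv : Tendsto (fun z : ℍ => ‖ModularForm.discriminant z‖⁻¹) atImInfty atTop :=
    tendsto_inv_nhdsGT_zero.comp hΔ
  have := Filter.Tendsto.pos_mul_atTop (zero_lt_one) h4 hinv
  refine this.congr fun z => ?_
  simp [jfun, div_eq_mul_inv]

theorem jfun_continuous : Continuous jfun := jfun_mdiff.continuous

theorem exists_im_bound (R : ℝ) : ∃ M : ℝ, ∀ z : ℍ, M ≤ z.im → R < ‖jfun z‖ := by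
  have h := tendsto_norm_jfun.eventually (eventually_gt_atTop R)
  rw [Filter.Eventually, atImInfty_mem] at h
  obtain ⟨A, hA⟩ := h
  exact ⟨A, fun z hz => hA z hz⟩

theorem jfun_not_const : ¬ ∃ w : ℂ, ∀ z : ℍ, jfun z = w := by
  rintro ⟨w, hw⟩
  obtain ⟨M, hM⟩ := exists_im_bound ‖w‖
  have hpos : 0 < max M 1 := lt_of_lt_of_le one_pos (le_max_right _ _)
  have := hM ⟨⟨0, max M 1⟩, hpos⟩ (le_max_left _ _)
  rw [hw] at this
  exact lt_irrefl _ this

theorem isOpen_range_jfun : IsOpen (Set.range jfun) := by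
  have hd : DifferentiableOn ℂ (jfun ∘ ofComplex) upperHalfPlaneSet :=
    (UpperHalfPlane.mdifferentiable_iff).mp jfun_mdiff
  have ha : AnalyticOnNhd ℂ (jfun ∘ ofComplex) upperHalfPlaneSet :=
    hd.analyticOnNhd isOpen_upperHalfPlaneSet
  have hpc : IsPreconnected upperHalfPlaneSet :=
    (convex_halfSpace_im_gt 0).isPreconnected
  have hrange : Set.range jfun = (jfun ∘ ofComplex) '' upperHalfPlaneSet := by
    ext c
    constructor
    · rintro ⟨z, rfl⟩
      exact ⟨(z : ℂ), z.im_pos, by simp⟩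
    · rintro ⟨w, _, rfl⟩
      exact ⟨ofComplex w, rfl⟩
  rcases ha.is_constant_or_isOpen hpc with ⟨w, hw⟩ | h
  · exfalso
    apply jfun_not_const
    refine ⟨w, fun z => ?_⟩
    have := hw (z : ℂ) z.im_pos
    simpa using this
  · rw [hrange]
    exact h _ subset_rfl isOpen_upperHalfPlaneSet

/-- the truncated fundamental domain is compact -/
theorem isCompact_fd_trunc (M : ℝ) : IsCompact {z : ℍ | z ∈ 𝒟 ∧ z.im ≤ M} := by
  rw [UpperHalfPlane.isEmbedding_coe.isCompact_iff]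
  have himg : ((↑) : ℍ → ℂ) '' {z : ℍ | z ∈ 𝒟 ∧ z.im ≤ M} =
      {w : ℂ | 1 ≤ Complex.normSq w ∧ |w.re| ≤ 1 / 2 ∧ 1 / 2 ≤ w.im ∧ w.im ≤ M} := by
    ext w
    constructor
    · rintro ⟨z, ⟨⟨h1, h2⟩, h3⟩, rfl⟩
      refine ⟨h1, h2, ?_, h3⟩
      have hre : (z : ℂ).re ^ 2 ≤ 1 / 4 := by
        have : |z.re| ^ 2 ≤ (1 / 2) ^ 2 := pow_le_pow_left₀ (abs_nonneg _) h2 2
        rw [sq_abs] at this
        norm_num at this ⊢
        exact this
      have him : 0 < (z : ℂ).im := z.im_pos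
      rw [Complex.normSq_apply] at h1
      nlinarith
    · rintro ⟨h1, h2, h3, h4⟩
      have hpos : 0 < w.im := by linarith
      exact ⟨⟨w, hpos⟩, ⟨⟨h1, h2⟩, h4⟩, rfl⟩
  rw [himg]
  apply Metric.isCompact_of_isClosed_isBounded
  · have c1 : IsClosed {w : ℂ | 1 ≤ Complex.normSq w} :=
      isClosed_le continuous_const Complex.continuous_normSq
    have c2 : IsClosed {w : ℂ | |w.re| ≤ 1 / 2} :=
      isClosed_le (continuous_abs.comp Complex.continuous_re) continuous_const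
    have c3 : IsClosed {w : ℂ | 1 / 2 ≤ w.im} :=
      isClosed_le continuous_const Complex.continuous_im
    have c4 : IsClosed {w : ℂ | w.im ≤ M} :=
      isClosed_le Complex.continuous_im continuous_const
    exact c1.inter (c2.inter (c3.inter c4))
  · rw [Metric.isBounded_iff_subset_closedBall 0]
    refine ⟨1 / 2 + |M|, ?_⟩
    rintro w ⟨_, h2, h3, h4⟩
    rw [mem_closedBall_zero_iff]
    calc ‖w‖ ≤ |w.re| + |w.im| := Complex.norm_le_abs_re_add_abs_im w
      _ ≤ 1 / 2 + |M| := by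
        have : |w.im| ≤ |M| := by
          rw [abs_of_nonneg (by linarith : (0 : ℝ) ≤ w.im)]
          exact le_trans h4 (le_abs_self M)
        linarith

theorem range_jfun_eq : Set.range jfun = jfun '' 𝒟 := by
  ext c
  constructor
  · rintro ⟨z, rfl⟩
    obtain ⟨g, hg⟩ := ModularGroup.exists_smul_mem_fd z
    exact ⟨g • z, hg, jfun_smul g z⟩
  · rintro ⟨z, _, rfl⟩
    exact ⟨z, rfl⟩

theorem isClosed_range_jfun : IsClosed (Set.range jfun) := by
  rw [← closure_subset_iff_isClosed]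
  intro c hc
  -- restrict to a ball around `c`
  set R : ℝ := ‖c‖ + 1 with hR
  obtain ⟨M, hM⟩ := exists_im_bound R
  have hcomp : IsCompact (jfun '' {z : ℍ | z ∈ 𝒟 ∧ z.im ≤ M}) :=
    (isCompact_fd_trunc M).image jfun_continuous
  have hsub : Set.range jfun ∩ Metric.ball c 1 ⊆ jfun '' {z : ℍ | z ∈ 𝒟 ∧ z.im ≤ M} := by
    rintro x ⟨hx, hxb⟩
    rw [range_jfun_eq] at hx
    obtain ⟨z, hz, rfl⟩ := hx
    refine ⟨z, ⟨hz, ?_⟩, rfl⟩
    by_contra hcon
    have h1 := hM z (le_of_lt (not_le.mp hcon))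
    have h2 : ‖jfun z‖ < R := by
      have : ‖jfun z - c‖ < 1 := by simpa [dist_eq_norm] using hxb
      calc ‖jfun z‖ = ‖(jfun z - c) + c‖ := by ring_nf
        _ ≤ ‖jfun z - c‖ + ‖c‖ := norm_add_le _ _
        _ < R := by rw [hR]; linarith
    exact lt_irrefl _ (lt_trans h1 h2)
  have hc' : c ∈ closure (Set.range jfun ∩ Metric.ball c 1) := by
    rw [mem_closure_iff_nhds] at hc ⊢
    intro t ht
    have := hc (t ∩ Metric.ball c 1) (Filter.inter_mem ht (Metric.ball_mem_nhds c one_pos))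
    obtain ⟨x, ⟨hxt, hxb⟩, hxr⟩ := this
    exact ⟨x, hxt, hxr, hxb⟩
  have h3 := closure_mono hsub hc'
  rw [hcomp.isClosed.closure_eq] at h3
  obtain ⟨z, _, rfl⟩ := h3
  exact ⟨z, rfl⟩

theorem jfun_surjective : Function.Surjective jfun := by
  have hclopen : IsClopen (Set.range jfun) := ⟨isClosed_range_jfun, isOpen_range_jfun⟩
  have hne : (Set.range jfun).Nonempty := ⟨jfun UpperHalfPlane.I, UpperHalfPlane.I, rfl⟩
  have := hclopen.eq_univ hne
  exact Set.range_eq_univ.mp this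

theorem jfun_eq_zero_iff (z : ℍ) : jfun z = 0 ↔ E₄ z = 0 := by
  unfold jfun
  rw [div_eq_zero_iff]
  constructor
  · rintro (h | h)
    · exact pow_eq_zero_iff (by norm_num) |>.mp h
    · exact absurd h (discriminant_ne_zero z)
  · intro h
    left
    rw [h]
    norm_num

theorem jfun_sub (z : ℍ) (j₀ : ℂ) : jfun z - j₀ =
    ((1 - j₀ / 1728) * E₄ z ^ 3 + (j₀ / 1728) * E₆ z ^ 2) / ModularForm.discriminant z := by
  unfold jfun
  have hΔ : ModularForm.discriminant z ≠ 0 := discriminant_ne_zero z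
  have h := discriminant_eq_E₄_cube_sub_E₆_sq z
  rw [div_sub' hΔ]
  congr 1
  rw [h]
  ring

theorem jfun_sub_1728 (z : ℍ) : jfun z - 1728 = E₆ z ^ 2 / ModularForm.discriminant z := by
  rw [jfun_sub]
  congr 1
  norm_num

theorem jfun_eq_1728_iff (z : ℍ) : jfun z = 1728 ↔ E₆ z = 0 := by
  rw [← sub_eq_zero, jfun_sub_1728, div_eq_zero_iff]
  constructor
  · rintro (h | h)
    · exact pow_eq_zero_iff (by norm_num) |>.mp h
    · exact absurd h (discriminant_ne_zero z)
  · intro h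
    left
    rw [h]
    norm_num

theorem jfun_I : jfun UpperHalfPlane.I = 1728 :=
  (jfun_eq_1728_iff _).mpr Fermat.Agent.S20_helper19_B3.B3a

theorem ST_smul_rho : (ModularGroup.S * ModularGroup.T) • rho = rho := by
  ext1
  rw [Fermat.Agent.S20_helper19_B3.ST_smul]
  have h3 : ((Real.sqrt 3 : ℝ) : ℂ) ^ 2 = 3 := by
    rw [← Complex.ofReal_pow, Real.sq_sqrt (by norm_num)]
    norm_num
  have hrho : ((rho : ℍ) : ℂ) = (-1 / 2 : ℂ) + ((Real.sqrt 3 / 2 : ℝ) : ℂ) * Complex.I := rfl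
  set w : ℂ := ((rho : ℍ) : ℂ) with hw
  have hw2 : w * (w + 1) = -1 := by
    rw [hrho]
    push_cast
    linear_combination (-1 / 4 : ℂ) * h3 + (((Real.sqrt 3 : ℝ) : ℂ) ^ 2 / 4) * Complex.I_sq
  have hne : w + 1 ≠ 0 := by
    intro h0
    rw [h0] at hw2
    norm_num at hw2
  field_simp
  linear_combination -hw2

theorem E₄_rho : E₄ rho = 0 := Fermat.Agent.S20_helper19_B3.B3b rho ST_smul_rho

theorem jfun_rho : jfun rho = 0 := (jfun_eq_zero_iff _).mpr E₄_rho

/-- a function with a simple zero factors through the coordinate -/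
theorem exists_factor_of_deriv_ne_zero {f : ℂ → ℂ} {a : ℂ} (hf : AnalyticAt ℂ f a)
    (h0 : f a = 0) (hd : deriv f a ≠ 0) :
    ∃ g : ℂ → ℂ, AnalyticAt ℂ g a ∧ g a ≠ 0 ∧ ∀ᶠ w in 𝓝 a, f w = (w - a) * g w := by
  have hord : analyticOrderAt f a = ((1 : ℕ) : ℕ∞) := by
    rw [Nat.cast_one]
    exact hf.analyticOrderAt_eq_one_of_zero_deriv_ne_zero h0 hd
  rw [hf.analyticOrderAt_eq_natCast] at hord
  obtain ⟨g, hg, hg0, hfg⟩ := hord
  refine ⟨g, hg, hg0, ?_⟩
  filter_upwards [hfg] with w hw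
  rw [hw]
  simp

end Fermat.Agent.S24_helper10_J
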