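import Fermat.Agent.S24_helper1_ORD_Core
import Fermat.Agent.S24_helper26_TAY

/-!
# S24, piece C-ORD: local orders of `j` in the Cayley coordinate
-/

set_option autoImplicit false

open UpperHalfPlane ModularForm CongruenceSubgroup AlgebraicCurve IntermediateField
open scoped MatrixGroups ModularForm Manifold
open Fermat.Agent.S20 Fermat.Agent.S24

namespace Fermat.Agent.S24_helper1_ORD

theorem tayMulHyp : TayMulHyp := fun z₀ _ _ hg hh =>
  Fermat.Agent.S24_helper26_TAY.taylorAt_mul z₀ hg hh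

theorem tayOrderOneHyp : TayOrderOneHyp := fun z₀ _ hg h0 h1 =>
  Fermat.Agent.S24_helper26_TAY.taylorAt_order_one z₀ hg h0 h1

theorem AN7_generic (z₀ : ℍ) (h4 : E₄ z₀ ≠ 0) (h6 : E₆ z₀ ≠ 0) :
    (taylorAt z₀ (fun z => jfun z - jfun z₀)).order = 1 :=
  AN7_generic_of tayMulHyp tayOrderOneHyp z₀ h4 h6

theorem AN7_I : (taylorAt UpperHalfPlane.I (fun z => jfun z - 1728)).order = 2 :=
  AN7_I_of tayMulHyp tayOrderOneHyp

theorem AN7_rho : (taylorAt rho jfun).order = 3 :=
  AN7_rho_of tayMulHyp tayOrderOneHyp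

end Fermat.Agent.S24_helper1_ORD
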