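import Fermat.Agent.S24_Defs
import Fermat.Agent.S24_helper10_J
import Fermat.Agent.S24_helper16_Scale
import Fermat.Agent.S24_helper26_TAY
import Fermat.Agent.S24_helper27_J1
import Fermat.Agent.S24_helper23_GEN
import Fermat.Agent.S24_helper1_ORD
import Fermat.Agent.S24_helper24_JD
import Fermat.Agent.S24_helper17_EMB

/-!
# S24, piece C-LOCfin: the local picture of the function field above a finite point

For every `j₀ : ℚ̄` we produce, for each coset `q : Q N`, an embedding of the modular function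
field into `ℂ((s))` (the Cayley coordinate at a point `z₀` with `j z₀ = j₀`), together with the
rotation action of the stabiliser of `z₀`.
-/

set_option autoImplicit false
set_option linter.unusedSectionVars false
set_option linter.unnecessarySimpa false

open UpperHalfPlane ModularForm CongruenceSubgroup AlgebraicCurve IntermediateField
open scoped MatrixGroups ModularForm Manifold
open Fermat.Agent.S20 Fermat.Agent.S24 Fermat.Agent.S24_helper10_J

namespace Fermat.Agent.S24_helper10_LOCfin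

/-- characterisation of the order of a Laurent series by its coefficients -/
theorem order_eq_of_coeff {x : LaurentSeries ℂ} {n : ℤ} (h1 : x.coeff n ≠ 0)
    (h2 : ∀ m < n, x.coeff m = 0) : x.order = n := by
  have hx : x ≠ 0 := by
    rintro rfl
    simp at h1
  apply le_antisymm
  · exact HahnSeries.order_le_of_coeff_ne_zero h1
  · by_contra hlt
    exact hx (HahnSeries.coeff_order_eq_zero.mp (h2 _ (not_le.mp hlt)))

theorem coeff_ofPowerSeries_neg (p : PowerSeries ℂ) {n : ℤ} (hn : n < 0) :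
    (HahnSeries.ofPowerSeries ℤ ℂ p).coeff n = 0 :=
  ModularCurve.ofPowerSeries_coeff_of_neg p hn

theorem order_ofPowerSeries {p : PowerSeries ℂ} {n : ℕ} (h : p.order = (n : ℕ∞)) :
    (HahnSeries.ofPowerSeries ℤ ℂ p).order = (n : ℤ) := by
  rw [PowerSeries.order_eq_nat] at h
  apply order_eq_of_coeff
  · rw [HahnSeries.ofPowerSeries_apply_coeff]
    exact h.1
  · intro m hm
    rcases lt_or_ge m 0 with hneg | hnn
    · exact coeff_ofPowerSeries_neg p hneg
    · obtain ⟨k, rfl⟩ := Int.eq_ofNat_of_zero_le hnn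
      rw [HahnSeries.ofPowerSeries_apply_coeff]
      exact h.2 k (by exact_mod_cast hm)

theorem taylorAt_sub_const (z₀ : ℍ) {g : ℍ → ℂ} (hg : MDifferentiable 𝓘(ℂ) 𝓘(ℂ) g) (c : ℂ) :
    taylorAt z₀ (fun z => g z - c) = taylorAt z₀ g - PowerSeries.C c := by
  have h1 : (fun z => g z - c) = g + (fun _ : ℍ => -c) := by
    funext z
    simp [sub_eq_add_neg]
  rw [h1, Fermat.Agent.S24_helper26_TAY.taylorAt_add z₀ hg mdifferentiable_const, Fermat.Agent.S24_helper26_TAY.taylorAt_const, map_neg, sub_eq_add_neg]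

theorem taylorAt_sub (z₀ : ℍ) {g h : ℍ → ℂ} (hg : MDifferentiable 𝓘(ℂ) 𝓘(ℂ) g)
    (hh : MDifferentiable 𝓘(ℂ) 𝓘(ℂ) h) :
    taylorAt z₀ (g - h) = taylorAt z₀ g - taylorAt z₀ h := by
  have h1 : g - h = g + (fun _ : ℍ => (-1 : ℂ)) * h := by
    funext z
    simp [sub_eq_add_neg]
  have hc : MDifferentiable 𝓘(ℂ) 𝓘(ℂ) (fun _ : ℍ => (-1 : ℂ)) := mdifferentiable_const
  rw [h1, Fermat.Agent.S24_helper26_TAY.taylorAt_add z₀ hg (hc.mul hh), Fermat.Agent.S24_helper26_TAY.taylorAt_mul z₀ hc hh, Fermat.Agent.S24_helper26_TAY.taylorAt_const]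
  simp [sub_eq_add_neg]

variable (N : ℕ) [NeZero N]

/-- the embedding attached to a coset at the point `z₀` -/
noncomputable def iotaFin (z₀ : ℍ) (q : Q N) :
    ModularCurve.modularFunctionFieldBar N →+* LaurentSeries ℂ :=
  (Fermat.Agent.S24_helper17_EMB.MASTER_fin N z₀ (q.out⁻¹)).choose

theorem iotaFin_const (z₀ : ℍ) (q : Q N) (a : Kbar) :
    iotaFin N z₀ q (algebraMap Kbar _ a) = HahnSeries.C (phi0 a) :=
  (Fermat.Agent.S24_helper17_EMB.MASTER_fin N z₀ (q.out⁻¹)).choose_spec.1 a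

theorem iotaFin_jF (z₀ : ℍ) (q : Q N) (d : ℕ) [NeZero d] (hd : d ∣ N) :
    iotaFin N z₀ q (jF N d hd) = laurentAt z₀ (jd d (q.out⁻¹)) :=
  (Fermat.Agent.S24_helper17_EMB.MASTER_fin N z₀ (q.out⁻¹)).choose_spec.2 d hd

theorem iotaFin_jElt (z₀ : ℍ) (q : Q N) :
    iotaFin N z₀ q (jElt N) = laurentAt z₀ jfun := by
  unfold jElt
  rw [iotaFin_jF, Fermat.Agent.S24_helper27_J1.jd_one]

theorem Npos : 0 < N := Nat.pos_of_ne_zero (NeZero.ne N)

theorem iotaFin_injective (z₀ : ℍ) : Function.Injective (iotaFin N z₀) := by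
  intro q q' h
  have h1 := congrArg (fun ι => ι (jF N N dvd_rfl)) h
  simp only [iotaFin_jF] at h1
  have h2 : taylorAt z₀ (jd N (q.out⁻¹)) = taylorAt z₀ (jd N (q'.out⁻¹)) :=
    HahnSeries.ofPowerSeries_injective h1
  have hd1 := Fermat.Agent.S24_helper27_J1.jd_mdiff N (Npos N) (q.out⁻¹)
  have hd2 := Fermat.Agent.S24_helper27_J1.jd_mdiff N (Npos N) (q'.out⁻¹)
  have h3 : jd N (q.out⁻¹) - jd N (q'.out⁻¹) = 0 :=
    Fermat.Agent.S24_helper26_TAY.taylorAt_eq_zero z₀ (hd1.sub hd2) (by rw [taylorAt_sub z₀ hd1 hd2, h2, sub_self])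
  have h4 : jd N (q.out⁻¹) = jd N (q'.out⁻¹) := sub_eq_zero.mp h3
  have h5 : jd N (q.out⁻¹ * q'.out) = jd N 1 := by
    funext z
    rw [Fermat.Agent.S24_helper27_J1.jd_mul, h4, ← Fermat.Agent.S24_helper27_J1.jd_mul, inv_mul_cancel]
  have h6 := Fermat.Agent.S24_helper24_JD.jd_stab N _ h5
  have h7 : (QuotientGroup.mk q.out : Q N) = QuotientGroup.mk q'.out :=
    QuotientGroup.eq.mpr h6
  rwa [QuotientGroup.out_eq', QuotientGroup.out_eq'] at h7

theorem iotaFin_order (z₀ : ℍ) (q : Q N) (j₀ : Kbar) (e₀ : ℕ)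
    (he : (taylorAt z₀ (fun z => jfun z - phi0 j₀)).order = (e₀ : ℕ∞)) :
    (iotaFin N z₀ q (jElt N - algebraMap Kbar _ j₀)).order = (e₀ : ℤ) := by
  rw [map_sub, iotaFin_jElt, iotaFin_const]
  have : laurentAt z₀ jfun - HahnSeries.C (phi0 j₀) =
      HahnSeries.ofPowerSeries ℤ ℂ (taylorAt z₀ (fun z => jfun z - phi0 j₀)) := by
    rw [taylorAt_sub_const z₀ jfun_mdiff, map_sub, HahnSeries.ofPowerSeries_C]
    rfl
  rw [this]
  exact order_ofPowerSeries he

/-- the out-representative of a translated coset -/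
theorem jd_out_smul (g₀ : SL(2, ℤ)) (q : Q N) (d : ℕ) (hd : d ∣ N) :
    jd d (((g₀⁻¹ • q : Q N)).out⁻¹) = fun z => jd d (q.out⁻¹) (g₀ • z) := by
  set h : SL(2, ℤ) := ((g₀⁻¹ • q : Q N)).out with hh
  have h1 : (QuotientGroup.mk h : Q N) = QuotientGroup.mk (g₀⁻¹ * q.out) := by
    rw [hh, QuotientGroup.out_eq']
    conv_lhs => rw [← QuotientGroup.out_eq' q]
    rfl
  have h2 : h⁻¹ * (g₀⁻¹ * q.out) ∈ Gamma0 N := QuotientGroup.eq.mp h1
  have h3 : h⁻¹ = (h⁻¹ * (g₀⁻¹ * q.out)) * (q.out⁻¹ * g₀) := by group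
  funext z
  rw [h3, Fermat.Agent.S24_helper27_J1.jd_Gamma0 hd (Npos N) _ h2, Fermat.Agent.S24_helper27_J1.jd_mul]

theorem iotaFin_rescale (z₀ : ℍ) (g₀ : SL(2, ℤ)) (hg₀ : g₀ • z₀ = z₀) (ζ : ℂ)
    (hζ : ζ = (((g₀ 1 0 : ℤ) : ℂ) * (starRingEnd ℂ) (z₀ : ℂ) + ((g₀ 1 1 : ℤ) : ℂ)) /
        (((g₀ 1 0 : ℤ) : ℂ) * (z₀ : ℂ) + ((g₀ 1 1 : ℤ) : ℂ)))
    (hζ0 : ζ ≠ 0) (q : Q N) (f : ModularCurve.modularFunctionFieldBar N) (n : ℤ) :
    (iotaFin N z₀ (MulAction.toPerm (g₀⁻¹) q) f).coeff n =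
      ζ ^ n * (iotaFin N z₀ q f).coeff n := by
  set ζu : ℂˣ := Units.mk0 ζ hζ0 with hζu
  have key : iotaFin N z₀ (MulAction.toPerm (g₀⁻¹) q) =
      (Fermat.Agent.S24_helper16_B.lsScale ζu : LaurentSeries ℂ →+* LaurentSeries ℂ).comp
        (iotaFin N z₀ q) := by
    apply Fermat.Agent.S24_helper23_GEN.ringHom_ext_FN
    · intro a
      rw [iotaFin_const, RingHom.comp_apply, iotaFin_const]
      exact (Fermat.Agent.S24_helper16_B.lsScale_C ζu _).symm
    · intro d _ hd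
      rw [iotaFin_jF, RingHom.comp_apply, iotaFin_jF]
      have h1 : jd d (((MulAction.toPerm (g₀⁻¹) q : Q N)).out⁻¹) =
          fun z => jd d (q.out⁻¹) (g₀ • z) := jd_out_smul N g₀ q d hd
      rw [h1]
      ext m
      show (laurentAt z₀ _).coeff m = (Fermat.Agent.S24_helper16_B.lsScale ζu _).coeff m
      rw [Fermat.Agent.S24_helper16_B.coeff_lsScale]
      unfold laurentAt
      rcases lt_or_ge m 0 with hneg | hnn
      · rw [coeff_ofPowerSeries_neg _ hneg, coeff_ofPowerSeries_neg _ hneg, mul_zero]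
      · obtain ⟨k, rfl⟩ := Int.eq_ofNat_of_zero_le hnn
        rw [HahnSeries.ofPowerSeries_apply_coeff, HahnSeries.ofPowerSeries_apply_coeff]
        have hpos : 0 < d := Nat.pos_of_ne_zero (NeZero.ne d)
        rw [Fermat.Agent.S24_helper26_TAY.taylorAt_smul z₀ (Fermat.Agent.S24_helper27_J1.jd_mdiff d hpos (q.out⁻¹)) g₀ hg₀ k, ← hζ]
        simp [hζu]
  rw [key, RingHom.comp_apply]
  show (Fermat.Agent.S24_helper16_B.lsScale ζu _).coeff n = _
  rw [Fermat.Agent.S24_helper16_B.coeff_lsScale]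
  simp [hζu]


theorem phi0_injective : Function.Injective phi0 := phi0.injective

theorem S_smul_I : ModularGroup.S • UpperHalfPlane.I = UpperHalfPlane.I :=
  Fermat.Agent.S20_helper19_B3.B3d

theorem coe_rho : ((rho : ℍ) : ℂ) = (-1 / 2 : ℂ) + ((Real.sqrt 3 / 2 : ℝ) : ℂ) * Complex.I := rfl

theorem sqrt3_sq : ((Real.sqrt 3 : ℝ) : ℂ) ^ 2 = 3 := by
  rw [← Complex.ofReal_pow, Real.sq_sqrt (by norm_num)]
  norm_num

/-- the rotation number of `S * T` at `rho` -/
noncomputable def zetaRho : ℂ :=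
  (((1 : ℤ) : ℂ) * (starRingEnd ℂ) ((rho : ℍ) : ℂ) + ((1 : ℤ) : ℂ)) /
    (((1 : ℤ) : ℂ) * ((rho : ℍ) : ℂ) + ((1 : ℤ) : ℂ))

theorem zetaRho_eq : zetaRho = (-1 / 2 : ℂ) - ((Real.sqrt 3 : ℝ) : ℂ) / 2 * Complex.I := by
  unfold zetaRho
  have h3 := sqrt3_sq
  have hden : (((1 : ℤ) : ℂ) * ((rho : ℍ) : ℂ) + ((1 : ℤ) : ℂ)) ≠ 0 := by
    intro h0
    have := congrArg Complex.im h0
    rw [coe_rho] at this
    simp at this
  rw [div_eq_iff hden, coe_rho]
  simp only [map_add, map_mul, map_div₀, map_neg, map_one, Complex.conj_ofReal, Complex.conj_I,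
    Int.cast_one, one_mul]
  push_cast
  have hconj2 : (starRingEnd ℂ) (2 : ℂ) = 2 := Complex.conj_ofReal 2
  rw [hconj2]
  linear_combination (-1 / 4 : ℂ) * h3 + (((Real.sqrt 3 : ℝ) : ℂ) ^ 2 / 4) * Complex.I_sq

theorem zetaRho_ne_one : zetaRho ≠ 1 := by
  rw [zetaRho_eq]
  intro h
  have := congrArg Complex.re h
  simp at this
  norm_num at this

theorem zetaRho_pow_three : zetaRho ^ 3 = 1 := by
  rw [zetaRho_eq]
  have h3 := sqrt3_sq
  linear_combination
    (-(3 + ((Real.sqrt 3 : ℝ) : ℂ) * Complex.I) / 8 * ((Real.sqrt 3 : ℝ) : ℂ) ^ 2) * Complex.I_sq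
      + ((3 + ((Real.sqrt 3 : ℝ) : ℂ) * Complex.I) / 8) * h3

theorem isPrimitiveRoot_zetaRho : IsPrimitiveRoot zetaRho 3 := by
  refine IsPrimitiveRoot.mk_of_lt zetaRho (by norm_num) zetaRho_pow_three ?_
  intro l hl0 hl3
  interval_cases l
  · simpa using zetaRho_ne_one
  · intro h2
    apply zetaRho_ne_one
    have h3 := zetaRho_pow_three
    have : zetaRho ^ 3 = zetaRho ^ 2 * zetaRho := by ring
    rw [this, h2, one_mul] at h3
    exact h3

theorem LOC_fin (N : ℕ) [NeZero N] (j₀ : Kbar) :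
    ∃ (e₀ : ℕ) (ζ : ℂ) (π : Equiv.Perm (Q N))
      (ι : Q N → ModularCurve.modularFunctionFieldBar N →+* LaurentSeries ℂ),
      0 < e₀ ∧ IsPrimitiveRoot ζ e₀ ∧
      (∀ q a, ι q (algebraMap Kbar _ a) = HahnSeries.C (phi0 a)) ∧
      Function.Injective ι ∧
      (∀ q q', ι q (jElt N) = ι q' (jElt N)) ∧
      (∀ q, (ι q (jElt N - algebraMap Kbar _ j₀)).order = (e₀ : ℤ)) ∧
      (∀ q f (n : ℤ), (ι (π q) f).coeff n = ζ ^ n * (ι q f).coeff n) ∧
      ((j₀ ≠ 0 ∧ j₀ ≠ 1728 → π = 1) ∧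
       (j₀ = 1728 → π = MulAction.toPerm (ModularGroup.S⁻¹)) ∧
       (j₀ = 0 → π = MulAction.toPerm ((ModularGroup.S * ModularGroup.T)⁻¹))) := by
  have h1728 : (1728 : Kbar) ≠ 0 := by norm_num
  by_cases h0 : j₀ = 0
  · -- the point `rho`
    subst h0
    refine ⟨3, zetaRho, MulAction.toPerm ((ModularGroup.S * ModularGroup.T)⁻¹),
      iotaFin N rho, by norm_num, isPrimitiveRoot_zetaRho, iotaFin_const N rho,
      iotaFin_injective N rho, fun q q' => by rw [iotaFin_jElt, iotaFin_jElt], ?_, ?_, ?_⟩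
    · intro q
      apply iotaFin_order
      have : (fun z => jfun z - phi0 0) = jfun := by
        funext z
        simp
      rw [this]
      exact_mod_cast Fermat.Agent.S24_helper1_ORD.AN7_rho
    · intro q f n
      refine iotaFin_rescale N rho (ModularGroup.S * ModularGroup.T) ST_smul_rho zetaRho ?_ ?_
        q f n
      · have e10 : (ModularGroup.S * ModularGroup.T : SL(2, ℤ)) 1 0 = 1 := by decide
        have e11 : (ModularGroup.S * ModularGroup.T : SL(2, ℤ)) 1 1 = 1 := by decide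
        rw [e10, e11]
        rfl
      · intro h
        have := zetaRho_pow_three
        rw [h] at this
        norm_num at this
    · exact ⟨fun h => absurd rfl h.1, fun h => absurd h.symm h1728, fun _ => rfl⟩
  by_cases h17 : j₀ = 1728
  · -- the point `I`
    subst h17
    have hζ : (-1 : ℂ) = (((ModularGroup.S 1 0 : ℤ) : ℂ) *
        (starRingEnd ℂ) ((UpperHalfPlane.I : ℍ) : ℂ) + ((ModularGroup.S 1 1 : ℤ) : ℂ)) /
        (((ModularGroup.S 1 0 : ℤ) : ℂ) * ((UpperHalfPlane.I : ℍ) : ℂ) +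
          ((ModularGroup.S 1 1 : ℤ) : ℂ)) := by
      have e10 : (ModularGroup.S : SL(2, ℤ)) 1 0 = 1 := by decide
      have e11 : (ModularGroup.S : SL(2, ℤ)) 1 1 = 0 := by decide
      rw [e10, e11]
      simp only [Int.cast_one, one_mul, Int.cast_zero, add_zero, UpperHalfPlane.coe_I,
        Complex.conj_I]
      rw [neg_div, div_self Complex.I_ne_zero]
    refine ⟨2, -1, MulAction.toPerm (ModularGroup.S⁻¹),
      iotaFin N UpperHalfPlane.I, by norm_num, IsPrimitiveRoot.neg_one 0 (by norm_num),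
      iotaFin_const N _, iotaFin_injective N _,
      fun q q' => by rw [iotaFin_jElt, iotaFin_jElt], ?_, ?_, ?_⟩
    · intro q
      apply iotaFin_order
      have : (fun z => jfun z - phi0 1728) = fun z => jfun z - 1728 := by
        funext z
        rw [map_ofNat]
      rw [this]
      exact_mod_cast Fermat.Agent.S24_helper1_ORD.AN7_I
    · intro q f n
      exact iotaFin_rescale N _ ModularGroup.S S_smul_I (-1) hζ (by norm_num) q f n
    · exact ⟨fun h => absurd rfl h.2, fun _ => rfl, fun h => absurd h h1728⟩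
  · -- a generic point
    obtain ⟨z₀, hz₀⟩ := jfun_surjective (phi0 j₀)
    have h4 : E₄ z₀ ≠ 0 := by
      intro h
      have := (jfun_eq_zero_iff z₀).mpr h
      rw [hz₀] at this
      exact h0 (phi0_injective (by rw [this, map_zero]))
    have h6 : E₆ z₀ ≠ 0 := by
      intro h
      have := (jfun_eq_1728_iff z₀).mpr h
      rw [hz₀] at this
      exact h17 (phi0_injective (by rw [this, map_ofNat]))
    refine ⟨1, 1, 1, iotaFin N z₀, one_pos, IsPrimitiveRoot.one, iotaFin_const N _,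
      iotaFin_injective N _, fun q q' => by rw [iotaFin_jElt, iotaFin_jElt], ?_, ?_, ?_⟩
    · intro q
      apply iotaFin_order
      rw [← hz₀]
      exact_mod_cast Fermat.Agent.S24_helper1_ORD.AN7_generic z₀ h4 h6
    · intro q f n
      have h := iotaFin_rescale N z₀ 1 (one_smul _ z₀) 1 (by simp) one_ne_zero q f n
      simpa using h
    · exact ⟨fun _ => rfl, fun h => absurd h h17, fun h => absurd h h0⟩

end Fermat.Agent.S24_helper10_LOCfin
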