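import Mathlib
import Fermat.Agent.S24_Defs
import Fermat.Agent.S24_helper23_GEN
import Fermat.Agent.S24_helper27_J1
import Fermat.Agent.S24_helper28_DEGleAlg

/-!
# S24, piece C-DEGle: the degree bound `[F : ℚ̄(j)] ≤ mu N`, modulo its analytic inputs

`DEG_le_of` proves the exact statement of `DEG_le` from the conclusions of the pieces C-PSI
(`PSI`), C-INVb (`AN9b`) and the ring homomorphism property of `laurentInf 1` on the ring of
functions generated by the constants and the `z ↦ j(dz)`.
-/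

set_option autoImplicit false

open UpperHalfPlane ModularForm CongruenceSubgroup AlgebraicCurve IntermediateField
open scoped MatrixGroups ModularForm Manifold
open Fermat.Agent.S20 Fermat.Agent.S24
open Fermat.Agent.S24_helper28_DEGleAlg

namespace Fermat.Agent.S24_helper28_DEGleCore

/-- The ring of functions generated by the constants and the `z ↦ j(dz)`, `d ∣ N`. -/
abbrev A1 (N : ℕ) : Subring (ℍ → ℂ) :=
  Subring.closure
    (Set.range (fun c : ℂ => (fun _ : ℍ => c)) ∪ {f | ∃ d : ℕ, d ∣ N ∧ f = jd d 1})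

/-- The constants as a ring homomorphism into `A1 N`. -/
noncomputable def constA1 (N : ℕ) : ℂ →+* A1 N where
  toFun c := ⟨fun _ => c, Subring.subset_closure (Or.inl ⟨c, rfl⟩)⟩
  map_one' := rfl
  map_mul' _ _ := rfl
  map_zero' := rfl
  map_add' _ _ := rfl

/-- Evaluation at a point as a ring homomorphism on `A1 N`. -/
noncomputable def evA1 (N : ℕ) (z : ℍ) : A1 N →+* ℂ :=
  (Pi.evalRingHom (fun _ : ℍ => ℂ) z).comp (Subring.subtype (A1 N))

/-- From `laurentInf`-additivity/multiplicativity on functions with poles of finite order to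
a ring homomorphism on `A1 N`. -/
theorem exists_E_of (N : ℕ)
    (hpole : ∀ g : ℍ → ℂ, g ∈ A1 N → ∃ M : ℕ, HasPoleInf 1 M g)
    (hadd : ∀ (g h : ℍ → ℂ) (M M' : ℕ), HasPoleInf 1 M g → HasPoleInf 1 M' h →
      laurentInf 1 (g + h) = laurentInf 1 g + laurentInf 1 h)
    (hmul : ∀ (g h : ℍ → ℂ) (M M' : ℕ), HasPoleInf 1 M g → HasPoleInf 1 M' h →
      laurentInf 1 (g * h) = laurentInf 1 g * laurentInf 1 h)
    (hconst : ∀ c : ℂ, laurentInf 1 (fun _ : ℍ => c) = HahnSeries.C c) :
    ∃ E : A1 N →+* LaurentSeries ℂ,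
      (∀ c : ℂ, E (constA1 N c) = HahnSeries.C c) ∧
      ∀ g : A1 N, E g = laurentInf 1 (g : ℍ → ℂ) := by
  refine ⟨{ toFun := fun g => laurentInf 1 (g : ℍ → ℂ)
            map_one' := ?_
            map_mul' := ?_
            map_zero' := ?_
            map_add' := ?_ }, ?_, ?_⟩
  · have := hconst 1
    rw [map_one] at this
    exact this
  · intro g h
    obtain ⟨M, hM⟩ := hpole g g.2
    obtain ⟨M', hM'⟩ := hpole h h.2
    exact hmul g h M M' hM hM'
  · have := hconst 0
    rw [map_zero] at this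
    exact this
  · intro g h
    obtain ⟨M, hM⟩ := hpole g g.2
    obtain ⟨M', hM'⟩ := hpole h h.2
    exact hadd g h M M' hM hM'
  · intro c
    exact hconst c
  · intro g
    rfl

/-- The degree bound, from its analytic inputs. -/
theorem DEG_le_of (N : ℕ) [NeZero N]
    (hPSI : ∃ ψ : (Algebra.adjoin Kbar
        {x : LaurentSeries Kbar | ∃ (d : ℕ) (_ : NeZero d), d ∣ N ∧ x = jLaur d}) →+* (ℍ → ℂ),
      Function.Injective ψ ∧ (∀ a : Kbar, ψ (algebraMap Kbar _ a) = fun _ => phi0 a) ∧
      (∀ (d : ℕ) [NeZero d] (hd : d ∣ N),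
        ψ ⟨jLaur d, Algebra.subset_adjoin ⟨d, inferInstance, hd, rfl⟩⟩ = jd d 1) ∧
      (∀ x, ψ x ∈ Subring.closure
        (Set.range (fun c : ℂ => (fun _ : ℍ => c)) ∪ {f | ∃ d : ℕ, d ∣ N ∧ f = jd d 1})) ∧
      ∀ x, laurentInf 1 (ψ x) = ModularCurve.coeffMap phi0 (x : LaurentSeries Kbar))
    (hAN9b : ∀ g : ℍ → ℂ, g ∈ Subring.closure
        (Set.range (fun c : ℂ => (fun _ : ℍ => c)) ∪ {f | ∃ d : ℕ, d ∣ N ∧ f = jd d 1}) →
      ∃ P : Polynomial (Polynomial ℂ), P.Monic ∧ P.natDegree = mu N ∧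
        ∀ z : ℍ, (P.map (Polynomial.evalRingHom (jfun z))).eval (g z) = 0)
    (hE : ∃ E : A1 N →+* LaurentSeries ℂ,
      (∀ c : ℂ, E (constA1 N c) = HahnSeries.C c) ∧
      ∀ g : A1 N, E g = laurentInf 1 (g : ℍ → ℂ)) :
    FiniteDimensional Kbar⟮jElt N⟯ (ModularCurve.modularFunctionFieldBar N) ∧
      Module.finrank Kbar⟮jElt N⟯ (ModularCurve.modularFunctionFieldBar N) ≤ mu N := by
  classical
  obtain ⟨ψ, -, -, hψj, hψmem, hψL⟩ := hPSI
  obtain ⟨E, hEc, hEL⟩ := hE
  -- Step A: every element of `RK` satisfies a nonzero polynomial of degree `≤ mu N` over `ℚ̄[j]`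
  have stepA : ∀ y : LaurentSeries Kbar, y ∈ Algebra.adjoin Kbar
        {x : LaurentSeries Kbar | ∃ (d : ℕ) (_ : NeZero d), d ∣ N ∧ x = jLaur d} →
      ∃ Q : Polynomial (Polynomial Kbar), Q ≠ 0 ∧ Q.natDegree ≤ mu N ∧
        ev2 (jLaur 1) y Q = 0 := by
    intro y hy
    have hjmem : jLaur 1 ∈ Algebra.adjoin Kbar
        {x : LaurentSeries Kbar | ∃ (d : ℕ) (_ : NeZero d), d ∣ N ∧ x = jLaur d} :=
      Algebra.subset_adjoin ⟨1, inferInstance, one_dvd N, rfl⟩
    have hψjj : ψ ⟨jLaur 1, hjmem⟩ = jfun :=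
      (hψj 1 (one_dvd N)).trans (Fermat.Agent.S24_helper27_J1.jd_one 1)
    have hjf : jfun ∈ A1 N := hψjj ▸ hψmem ⟨jLaur 1, hjmem⟩
    have hg : ψ ⟨y, hy⟩ ∈ A1 N := hψmem ⟨y, hy⟩
    obtain ⟨P, hPm, hPd, hPz⟩ := hAN9b _ hg
    -- the evaluation of bivariate polynomials at `(j, g)` inside `A1 N`
    let Φ : Polynomial (Polynomial ℂ) →+* A1 N :=
      Polynomial.eval₂RingHom (Polynomial.eval₂RingHom (constA1 N) ⟨jfun, hjf⟩) ⟨ψ ⟨y, hy⟩, hg⟩
    have hΦ0 : Φ P = 0 := by
      apply Subtype.ext
      funext z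
      have h1 : (evA1 N z).comp (Polynomial.eval₂RingHom (constA1 N) ⟨jfun, hjf⟩)
          = Polynomial.evalRingHom (jfun z) := by
        apply Polynomial.ringHom_ext
        · intro c
          simp [evA1, constA1]
        · simp [evA1]
      have h2 : evA1 N z (Φ P) = (P.map (Polynomial.evalRingHom (jfun z))).eval (ψ ⟨y, hy⟩ z) := by
        simp only [Φ, Polynomial.coe_eval₂RingHom]
        rw [Polynomial.hom_eval₂, h1, Polynomial.eval_map]
        rfl
      rw [hPz z] at h2
      exact h2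
    have hEΦ : E (Φ P) = ev2 (ModularCurve.coeffMap phi0 (jLaur 1))
        (ModularCurve.coeffMap phi0 y) P := by
      have h1 : E.comp (Polynomial.eval₂RingHom (constA1 N) ⟨jfun, hjf⟩)
          = Polynomial.eval₂RingHom (HahnSeries.C : ℂ →+* LaurentSeries ℂ)
              (ModularCurve.coeffMap phi0 (jLaur 1)) := by
        apply Polynomial.ringHom_ext
        · intro c
          simp [hEc]
        · simp only [RingHom.comp_apply, Polynomial.coe_eval₂RingHom, Polynomial.eval₂_X]
          rw [hEL, ← hψL ⟨jLaur 1, hjmem⟩, hψjj]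
      have h3 : E ⟨ψ ⟨y, hy⟩, hg⟩ = ModularCurve.coeffMap phi0 y := by
        rw [hEL, hψL ⟨y, hy⟩]
      simp only [Φ, ev2, Polynomial.coe_eval₂RingHom]
      rw [Polynomial.hom_eval₂, h1, h3]
    rw [hΦ0, map_zero] at hEΦ
    let _ : Algebra Kbar ℂ := phi0.toAlgebra
    obtain ⟨Q, hQ0, hQd, hQev⟩ := descend_relation (K := Kbar) (L := ℂ) (jLaur 1) y P
      hPm.ne_zero hEΦ.symm
    exact ⟨Q, hQ0, hQd.trans hPd.le, hQev⟩
  -- the subalgebra `R` of the function field generated by the `j(q^d)`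
  let R : Subalgebra Kbar (ModularCurve.modularFunctionFieldBar N) :=
    (Algebra.adjoin Kbar
      {x : LaurentSeries Kbar | ∃ (d : ℕ) (_ : NeZero d), d ∣ N ∧ x = jLaur d}).comap
      (ModularCurve.modularFunctionFieldBar N).val
  have hR : ∀ y : ModularCurve.modularFunctionFieldBar N, y ∈ R ↔
      (y : LaurentSeries Kbar) ∈ Algebra.adjoin Kbar
        {x : LaurentSeries Kbar | ∃ (d : ℕ) (_ : NeZero d), d ∣ N ∧ x = jLaur d} :=
    fun y => Iff.rfl
  have hjR : jElt N ∈ R :=
    (hR _).mpr (Algebra.subset_adjoin ⟨1, inferInstance, one_dvd N, rfl⟩)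
  -- the function field is generated by `R`
  have hgen : ∀ θ : ModularCurve.modularFunctionFieldBar N,
      θ ∈ IntermediateField.adjoin Kbar (R : Set (ModularCurve.modularFunctionFieldBar N)) := by
    have key : ∀ x : LaurentSeries Kbar,
        x ∈ IntermediateField.adjoin Kbar
          {x | ∃ (d : ℕ) (_ : NeZero d), d ∣ N ∧ x = jLaur d} →
        ∀ hx' : x ∈ ModularCurve.modularFunctionFieldBar N,
          (⟨x, hx'⟩ : ModularCurve.modularFunctionFieldBar N) ∈ IntermediateField.adjoin Kbar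
            (R : Set (ModularCurve.modularFunctionFieldBar N)) := by
      intro x hx
      induction hx using IntermediateField.adjoin_induction with
      | mem y hy =>
        intro hy'
        exact IntermediateField.subset_adjoin _ _ ((hR ⟨y, hy'⟩).mpr (Algebra.subset_adjoin hy))
      | algebraMap a =>
        intro ha'
        exact IntermediateField.algebraMap_mem _ a
      | add x y hx hy h1 h2 =>
        intro hxy
        have hx' : x ∈ ModularCurve.modularFunctionFieldBar N := by
          rw [Fermat.Agent.S24_helper23_GEN.GEN]; exact hx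
        have hy' : y ∈ ModularCurve.modularFunctionFieldBar N := by
          rw [Fermat.Agent.S24_helper23_GEN.GEN]; exact hy
        have e : (⟨x + y, hxy⟩ : ModularCurve.modularFunctionFieldBar N)
            = ⟨x, hx'⟩ + ⟨y, hy'⟩ := rfl
        rw [e]
        exact add_mem (h1 hx') (h2 hy')
      | inv x hx h =>
        intro hxi
        have hx' : x ∈ ModularCurve.modularFunctionFieldBar N := by
          rw [Fermat.Agent.S24_helper23_GEN.GEN]; exact hx
        have e : (⟨x⁻¹, hxi⟩ : ModularCurve.modularFunctionFieldBar N)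
            = (⟨x, hx'⟩ : ModularCurve.modularFunctionFieldBar N)⁻¹ := rfl
        rw [e]
        exact inv_mem (h hx')
      | mul x y hx hy h1 h2 =>
        intro hxy
        have hx' : x ∈ ModularCurve.modularFunctionFieldBar N := by
          rw [Fermat.Agent.S24_helper23_GEN.GEN]; exact hx
        have hy' : y ∈ ModularCurve.modularFunctionFieldBar N := by
          rw [Fermat.Agent.S24_helper23_GEN.GEN]; exact hy
        have e : (⟨x * y, hxy⟩ : ModularCurve.modularFunctionFieldBar N)
            = ⟨x, hx'⟩ * ⟨y, hy'⟩ := rfl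
        rw [e]
        exact mul_mem (h1 hx') (h2 hy')
    rintro ⟨x, hx⟩
    exact key x (by rw [← Fermat.Agent.S24_helper23_GEN.GEN]; exact hx) hx
  have hι : ∀ a : Kbar,
      ((ModularCurve.modularFunctionFieldBar N).val : _ →+* LaurentSeries Kbar)
        (algebraMap Kbar (ModularCurve.modularFunctionFieldBar N) a) = HahnSeries.C a := by
    intro a
    exact ((ModularCurve.modularFunctionFieldBar N).val.commutes a).trans
      (ModularCurve.algebraMap_laurentSeries_eq_single Kbar a)
  exact finrank_le_of_relations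
    ((ModularCurve.modularFunctionFieldBar N).val : _ →+* LaurentSeries Kbar) hι R hgen
    (jElt N) hjR (Fermat.Agent.S24_helper23_GEN.TR N) (mu N)
    (fun y hy => stepA (y : LaurentSeries Kbar) ((hR y).mp hy))

end Fermat.Agent.S24_helper28_DEGleCore
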