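import Fermat.Agent.G_helper16_G5a
import Fermat.Agent.S24_helper10_LOCfin
import Fermat.Agent.S24_helper10_LOCinf
import Fermat.Agent.S24_helper28_DEGleCore
import Fermat.Agent.S24_helper28_DEGle
import Fermat.Agent.S24_helper23_DEGof
import Fermat.Agent.S24_helper9_INVb

/-!
# Project G, piece G5 (part b): the local pictures and the degree, over `ℂ`

Copies of `S24_helper10_LOCfin`, `S24_helper10_LOCinf`, `S24_helper28_DEGleCore`,
`S24_helper28_DEGle`, `S24_helper23_DEGof`, `S24_helper23_DEG` with `ℚ̄` replaced by `ℂ`.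
-/

set_option autoImplicit false
set_option linter.unusedSectionVars false
set_option linter.unusedVariables false
set_option linter.style.haveILetI false
set_option linter.unnecessarySimpa false

noncomputable section

open UpperHalfPlane ModularForm CongruenceSubgroup AlgebraicCurve IntermediateField
open scoped MatrixGroups ModularForm Manifold
open Fermat.Agent.S20 Fermat.Agent.S24

namespace Fermat.Agent.G_helper16_G5

/-! ### LOCfin -/

section LOCfin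

open Fermat.Agent.S24_helper10_J Fermat.Agent.S24_helper10_LOCfin

variable (N : ℕ) [NeZero N]

/-- the embedding attached to a coset at the point `z₀` -/
noncomputable def PG_G5_iotaFin (z₀ : ℍ) (q : Q N) :
    PG_G5_FC N →+* LaurentSeries ℂ :=
  (PG_G5_MASTER_fin N z₀ (q.out⁻¹)).choose

theorem PG_G5_iotaFin_const (z₀ : ℍ) (q : Q N) (a : ℂ) :
    PG_G5_iotaFin N z₀ q (algebraMap ℂ _ a) = HahnSeries.C (PG_G5_phi a) :=
  (PG_G5_MASTER_fin N z₀ (q.out⁻¹)).choose_spec.1 a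

theorem PG_G5_iotaFin_jF (z₀ : ℍ) (q : Q N) (d : ℕ) [NeZero d] (hd : d ∣ N) :
    PG_G5_iotaFin N z₀ q (PG_G5_jF N d hd) = laurentAt z₀ (jd d (q.out⁻¹)) :=
  (PG_G5_MASTER_fin N z₀ (q.out⁻¹)).choose_spec.2 d hd

theorem PG_G5_iotaFin_jElt (z₀ : ℍ) (q : Q N) :
    PG_G5_iotaFin N z₀ q (PG_G5_jElt N) = laurentAt z₀ jfun := by
  unfold PG_G5_jElt
  rw [PG_G5_iotaFin_jF, Fermat.Agent.S24_helper27_J1.jd_one]

theorem PG_G5_iotaFin_injective (z₀ : ℍ) : Function.Injective (PG_G5_iotaFin N z₀) := by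
  intro q q' h
  have h1 := congrArg (fun ι => ι (PG_G5_jF N N dvd_rfl)) h
  simp only [PG_G5_iotaFin_jF] at h1
  have h2 : taylorAt z₀ (jd N (q.out⁻¹)) = taylorAt z₀ (jd N (q'.out⁻¹)) :=
    HahnSeries.ofPowerSeries_injective h1
  have hd1 := Fermat.Agent.S24_helper27_J1.jd_mdiff N (Npos N) (q.out⁻¹)
  have hd2 := Fermat.Agent.S24_helper27_J1.jd_mdiff N (Npos N) (q'.out⁻¹)
  have h3 : jd N (q.out⁻¹) - jd N (q'.out⁻¹) = 0 :=
    Fermat.Agent.S24_helper26_TAY.taylorAt_eq_zero z₀ (hd1.sub hd2) (by rw [taylorAt_sub z₀ hd1 hd2, h2, sub_self])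
  have h4 : jd N (q.out⁻¹) = jd N (q'.out⁻¹) := sub_eq_zero.mp h3
  have h5 : jd N (q.out⁻¹ * q'.out) = jd N 1 := by
    funext z
    rw [Fermat.Agent.S24_helper27_J1.jd_mul, h4, ← Fermat.Agent.S24_helper27_J1.jd_mul, inv_mul_cancel]
  have h6 := Fermat.Agent.S24_helper24_JD.jd_stab N _ h5
  have h7 : (QuotientGroup.mk q.out : Q N) = QuotientGroup.mk q'.out :=
    QuotientGroup.eq.mpr h6
  rwa [QuotientGroup.out_eq', QuotientGroup.out_eq'] at h7

theorem PG_G5_iotaFin_order (z₀ : ℍ) (q : Q N) (j₀ : ℂ) (e₀ : ℕ)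
    (he : (taylorAt z₀ (fun z => jfun z - PG_G5_phi j₀)).order = (e₀ : ℕ∞)) :
    (PG_G5_iotaFin N z₀ q (PG_G5_jElt N - algebraMap ℂ _ j₀)).order = (e₀ : ℤ) := by
  rw [map_sub, PG_G5_iotaFin_jElt, PG_G5_iotaFin_const]
  have : laurentAt z₀ jfun - HahnSeries.C (PG_G5_phi j₀) =
      HahnSeries.ofPowerSeries ℤ ℂ (taylorAt z₀ (fun z => jfun z - PG_G5_phi j₀)) := by
    rw [taylorAt_sub_const z₀ jfun_mdiff, map_sub, HahnSeries.ofPowerSeries_C]
    rfl
  rw [this]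
  exact order_ofPowerSeries he

theorem PG_G5_iotaFin_rescale (z₀ : ℍ) (g₀ : SL(2, ℤ)) (hg₀ : g₀ • z₀ = z₀) (ζ : ℂ)
    (hζ : ζ = (((g₀ 1 0 : ℤ) : ℂ) * (starRingEnd ℂ) (z₀ : ℂ) + ((g₀ 1 1 : ℤ) : ℂ)) /
        (((g₀ 1 0 : ℤ) : ℂ) * (z₀ : ℂ) + ((g₀ 1 1 : ℤ) : ℂ)))
    (hζ0 : ζ ≠ 0) (q : Q N) (f : PG_G5_FC N) (n : ℤ) :
    (PG_G5_iotaFin N z₀ (MulAction.toPerm (g₀⁻¹) q) f).coeff n =
      ζ ^ n * (PG_G5_iotaFin N z₀ q f).coeff n := by
  set ζu : ℂˣ := Units.mk0 ζ hζ0 with hζu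
  have key : PG_G5_iotaFin N z₀ (MulAction.toPerm (g₀⁻¹) q) =
      (Fermat.Agent.S24_helper16_B.lsScale ζu : LaurentSeries ℂ →+* LaurentSeries ℂ).comp
        (PG_G5_iotaFin N z₀ q) := by
    apply PG_G5_ringHom_ext_FN
    · intro a
      rw [PG_G5_iotaFin_const, RingHom.comp_apply, PG_G5_iotaFin_const]
      exact (Fermat.Agent.S24_helper16_B.lsScale_C ζu _).symm
    · intro d _ hd
      rw [PG_G5_iotaFin_jF, RingHom.comp_apply, PG_G5_iotaFin_jF]
      have h1 : jd d (((MulAction.toPerm (g₀⁻¹) q : Q N)).out⁻¹) =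
          fun z => jd d (q.out⁻¹) (g₀ • z) := jd_out_smul N g₀ q d hd
      rw [h1]
      ext m
      show (laurentAt z₀ _).coeff m = (Fermat.Agent.S24_helper16_B.lsScale ζu _).coeff m
      rw [Fermat.Agent.S24_helper16_B.coeff_lsScale]
      unfold laurentAt
      rcases lt_or_ge m 0 with hneg | hnn
      · rw [coeff_ofPowerSeries_neg _ hneg, coeff_ofPowerSeries_neg _ hneg, mul_zero]
      · obtain ⟨k, rfl⟩ := Int.eq_ofNat_of_zero_le hnn
        rw [HahnSeries.ofPowerSeries_apply_coeff, HahnSeries.ofPowerSeries_apply_coeff]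
        have hpos : 0 < d := Nat.pos_of_ne_zero (NeZero.ne d)
        rw [Fermat.Agent.S24_helper26_TAY.taylorAt_smul z₀ (Fermat.Agent.S24_helper27_J1.jd_mdiff d hpos (q.out⁻¹)) g₀ hg₀ k, ← hζ]
        simp [hζu]
  rw [key, RingHom.comp_apply]
  show (Fermat.Agent.S24_helper16_B.lsScale ζu _).coeff n = _
  rw [Fermat.Agent.S24_helper16_B.coeff_lsScale]
  simp [hζu]

theorem PG_G5_phi0_injective : Function.Injective PG_G5_phi := PG_G5_phi.injective

theorem PG_G5_LOC_fin (N : ℕ) [NeZero N] (j₀ : ℂ) :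
    ∃ (e₀ : ℕ) (ζ : ℂ) (π : Equiv.Perm (Q N))
      (ι : Q N → PG_G5_FC N →+* LaurentSeries ℂ),
      0 < e₀ ∧ IsPrimitiveRoot ζ e₀ ∧
      (∀ q a, ι q (algebraMap ℂ _ a) = HahnSeries.C (PG_G5_phi a)) ∧
      Function.Injective ι ∧
      (∀ q q', ι q (PG_G5_jElt N) = ι q' (PG_G5_jElt N)) ∧
      (∀ q, (ι q (PG_G5_jElt N - algebraMap ℂ _ j₀)).order = (e₀ : ℤ)) ∧
      (∀ q f (n : ℤ), (ι (π q) f).coeff n = ζ ^ n * (ι q f).coeff n) ∧
      ((j₀ ≠ 0 ∧ j₀ ≠ 1728 → π = 1) ∧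
       (j₀ = 1728 → π = MulAction.toPerm (ModularGroup.S⁻¹)) ∧
       (j₀ = 0 → π = MulAction.toPerm ((ModularGroup.S * ModularGroup.T)⁻¹))) := by
  have h1728 : (1728 : ℂ) ≠ 0 := by norm_num
  by_cases h0 : j₀ = 0
  · -- the point `rho`
    subst h0
    refine ⟨3, zetaRho, MulAction.toPerm ((ModularGroup.S * ModularGroup.T)⁻¹),
      PG_G5_iotaFin N rho, by norm_num, isPrimitiveRoot_zetaRho, PG_G5_iotaFin_const N rho,
      PG_G5_iotaFin_injective N rho, fun q q' => by rw [PG_G5_iotaFin_jElt, PG_G5_iotaFin_jElt], ?_, ?_, ?_⟩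
    · intro q
      apply PG_G5_iotaFin_order
      have : (fun z => jfun z - PG_G5_phi 0) = jfun := by
        funext z
        simp
      rw [this]
      exact_mod_cast Fermat.Agent.S24_helper1_ORD.AN7_rho
    · intro q f n
      refine PG_G5_iotaFin_rescale N rho (ModularGroup.S * ModularGroup.T) ST_smul_rho zetaRho ?_ ?_
        q f n
      · have e10 : (ModularGroup.S * ModularGroup.T : SL(2, ℤ)) 1 0 = 1 := by decide
        have e11 : (ModularGroup.S * ModularGroup.T : SL(2, ℤ)) 1 1 = 1 := by decide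
        rw [e10, e11]
        rfl
      · intro h
        have := zetaRho_pow_three
        rw [h] at this
        norm_num at this
    · exact ⟨fun h => absurd rfl h.1, fun h => absurd h.symm h1728, fun _ => rfl⟩
  by_cases h17 : j₀ = 1728
  · -- the point `I`
    subst h17
    have hζ : (-1 : ℂ) = (((ModularGroup.S 1 0 : ℤ) : ℂ) *
        (starRingEnd ℂ) ((UpperHalfPlane.I : ℍ) : ℂ) + ((ModularGroup.S 1 1 : ℤ) : ℂ)) /
        (((ModularGroup.S 1 0 : ℤ) : ℂ) * ((UpperHalfPlane.I : ℍ) : ℂ) +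
          ((ModularGroup.S 1 1 : ℤ) : ℂ)) := by
      have e10 : (ModularGroup.S : SL(2, ℤ)) 1 0 = 1 := by decide
      have e11 : (ModularGroup.S : SL(2, ℤ)) 1 1 = 0 := by decide
      rw [e10, e11]
      simp only [Int.cast_one, one_mul, Int.cast_zero, add_zero, UpperHalfPlane.coe_I,
        Complex.conj_I]
      rw [neg_div, div_self Complex.I_ne_zero]
    refine ⟨2, -1, MulAction.toPerm (ModularGroup.S⁻¹),
      PG_G5_iotaFin N UpperHalfPlane.I, by norm_num, IsPrimitiveRoot.neg_one 0 (by norm_num),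
      PG_G5_iotaFin_const N _, PG_G5_iotaFin_injective N _,
      fun q q' => by rw [PG_G5_iotaFin_jElt, PG_G5_iotaFin_jElt], ?_, ?_, ?_⟩
    · intro q
      apply PG_G5_iotaFin_order
      have : (fun z => jfun z - PG_G5_phi 1728) = fun z => jfun z - 1728 := by
        funext z
        rw [map_ofNat]
      rw [this]
      exact_mod_cast Fermat.Agent.S24_helper1_ORD.AN7_I
    · intro q f n
      exact PG_G5_iotaFin_rescale N _ ModularGroup.S S_smul_I (-1) hζ (by norm_num) q f n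
    · exact ⟨fun h => absurd rfl h.2, fun _ => rfl, fun h => absurd h h1728⟩
  · -- a generic point
    obtain ⟨z₀, hz₀⟩ := jfun_surjective (PG_G5_phi j₀)
    have h4 : E₄ z₀ ≠ 0 := by
      intro h
      have := (jfun_eq_zero_iff z₀).mpr h
      rw [hz₀] at this
      exact h0 (PG_G5_phi0_injective (by rw [this, map_zero]))
    have h6 : E₆ z₀ ≠ 0 := by
      intro h
      have := (jfun_eq_1728_iff z₀).mpr h
      rw [hz₀] at this
      exact h17 (PG_G5_phi0_injective (by rw [this, map_ofNat]))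
    refine ⟨1, 1, 1, PG_G5_iotaFin N z₀, one_pos, IsPrimitiveRoot.one, PG_G5_iotaFin_const N _,
      PG_G5_iotaFin_injective N _, fun q q' => by rw [PG_G5_iotaFin_jElt, PG_G5_iotaFin_jElt], ?_, ?_, ?_⟩
    · intro q
      apply PG_G5_iotaFin_order
      rw [← hz₀]
      exact_mod_cast Fermat.Agent.S24_helper1_ORD.AN7_generic z₀ h4 h6
    · intro q f n
      have h := PG_G5_iotaFin_rescale N z₀ 1 (one_smul _ z₀) 1 (by simp) one_ne_zero q f n
      simpa using h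
    · exact ⟨fun _ => rfl, fun h => absurd h h17, fun h => absurd h h0⟩

end LOCfin

/-! ### LOCinf -/

section LOCinf

open Fermat.Agent.S24_helper10_LOCinf

variable (N : ℕ) [NeZero N]

/-- the embedding attached to a coset at the cusp `∞` -/
noncomputable def PG_G5_iotaInf (q : Q N) :
    PG_G5_FC N →+* LaurentSeries ℂ :=
  (PG_G5_MASTER_inf N (q.out⁻¹)).choose

theorem PG_G5_iotaInf_const (q : Q N) (a : ℂ) :
    PG_G5_iotaInf N q (algebraMap ℂ _ a) = HahnSeries.C (PG_G5_phi a) :=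
  (PG_G5_MASTER_inf N (q.out⁻¹)).choose_spec.1 a

theorem PG_G5_iotaInf_jF (q : Q N) (d : ℕ) [NeZero d] (hd : d ∣ N) :
    PG_G5_iotaInf N q (PG_G5_jF N d hd) = laurentInf N (jd d (q.out⁻¹)) :=
  (PG_G5_MASTER_inf N (q.out⁻¹)).choose_spec.2 d hd

theorem PG_G5_iotaInf_jElt (q : Q N) :
    PG_G5_iotaInf N q (PG_G5_jElt N) = laurentInf N jfun := by
  unfold PG_G5_jElt
  rw [PG_G5_iotaInf_jF, Fermat.Agent.S24_helper27_J1.jd_one]

theorem PG_G5_iotaInf_injective : Function.Injective (PG_G5_iotaInf N) := by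
  intro q q' h
  have h1 := congrArg (fun ι => ι (PG_G5_jF N N dvd_rfl)) h
  simp only [PG_G5_iotaInf_jF] at h1
  have hd1 := Fermat.Agent.S24_helper24_JD.hasPoleInf_jd N (dvd_refl N) (q.out⁻¹)
  have hd2 := Fermat.Agent.S24_helper24_JD.hasPoleInf_jd N (dvd_refl N) (q'.out⁻¹)
  have h3 : jd N (q.out⁻¹) - jd N (q'.out⁻¹) = 0 :=
    Fermat.Agent.S24_helper21_LINF.laurentInf_eq_zero N (hasPoleInf_sub N hd1 hd2)
      (by rw [laurentInf_sub N hd1 hd2, h1, sub_self])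
  have h4 : jd N (q.out⁻¹) = jd N (q'.out⁻¹) := sub_eq_zero.mp h3
  have h5 : jd N (q.out⁻¹ * q'.out) = jd N 1 := by
    funext z
    rw [Fermat.Agent.S24_helper27_J1.jd_mul, h4, ← Fermat.Agent.S24_helper27_J1.jd_mul, inv_mul_cancel]
  have h6 := Fermat.Agent.S24_helper24_JD.jd_stab N _ h5
  have h7 : (QuotientGroup.mk q.out : Q N) = QuotientGroup.mk q'.out :=
    QuotientGroup.eq.mpr h6
  rwa [QuotientGroup.out_eq', QuotientGroup.out_eq'] at h7

theorem PG_G5_iotaInf_order (q : Q N) : (PG_G5_iotaInf N q (PG_G5_jElt N)⁻¹).order = (N : ℤ) := by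
  rw [map_inv₀, PG_G5_iotaInf_jElt]
  have hx := laurentInf_jfun_ne_zero N
  have h1 : (laurentInf N jfun * (laurentInf N jfun)⁻¹).order =
      (laurentInf N jfun).order + ((laurentInf N jfun)⁻¹).order :=
    HahnSeries.order_mul hx (inv_ne_zero hx)
  rw [mul_inv_cancel₀ hx, HahnSeries.order_one, order_laurentInf_jfun] at h1
  linarith

theorem PG_G5_iotaInf_rescale (q : Q N) (f : PG_G5_FC N) (n : ℤ) :
    (PG_G5_iotaInf N (MulAction.toPerm (ModularGroup.T⁻¹) q) f).coeff n =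
      Complex.exp (2 * Real.pi * Complex.I / N) ^ n * (PG_G5_iotaInf N q f).coeff n := by
  set ζ : ℂ := Complex.exp (2 * Real.pi * Complex.I / N) with hζ
  have hζ0 : ζ ≠ 0 := Complex.exp_ne_zero _
  set ζu : ℂˣ := Units.mk0 ζ hζ0 with hζu
  have key : PG_G5_iotaInf N (MulAction.toPerm (ModularGroup.T⁻¹) q) =
      (Fermat.Agent.S24_helper16_B.lsScale ζu : LaurentSeries ℂ →+* LaurentSeries ℂ).comp
        (PG_G5_iotaInf N q) := by
    apply PG_G5_ringHom_ext_FN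
    · intro a
      rw [PG_G5_iotaInf_const, RingHom.comp_apply, PG_G5_iotaInf_const]
      exact (Fermat.Agent.S24_helper16_B.lsScale_C ζu _).symm
    · intro d _ hd
      rw [PG_G5_iotaInf_jF, RingHom.comp_apply, PG_G5_iotaInf_jF]
      have h1 : jd d (((MulAction.toPerm (ModularGroup.T⁻¹) q : Q N)).out⁻¹) =
          fun z => jd d (q.out⁻¹) (ModularGroup.T • z) := jd_out_smul' N ModularGroup.T q d hd
      rw [h1]
      have h2 : (fun z : ℍ => jd d (q.out⁻¹) (ModularGroup.T • z)) =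
          fun z : ℍ => jd d (q.out⁻¹) ((1 : ℝ) +ᵥ z) := by
        funext z
        rw [UpperHalfPlane.modular_T_smul]
      rw [h2]
      ext m
      show (laurentInf N _).coeff m = (Fermat.Agent.S24_helper16_B.lsScale ζu _).coeff m
      rw [Fermat.Agent.S24_helper16_B.coeff_lsScale,
        Fermat.Agent.S24_helper21_LINF.laurentInf_T N (Fermat.Agent.S24_helper24_JD.hasPoleInf_jd N hd (q.out⁻¹)) m]
      simp [hζu, hζ]
  rw [key, RingHom.comp_apply]
  show (Fermat.Agent.S24_helper16_B.lsScale ζu _).coeff n = _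
  rw [Fermat.Agent.S24_helper16_B.coeff_lsScale]
  simp [hζu]

theorem PG_G5_LOC_inf (N : ℕ) [NeZero N] : ∃ (ζ : ℂ) (ι : Q N → PG_G5_FC N →+* LaurentSeries ℂ), IsPrimitiveRoot ζ N ∧ (∀ q a, ι q (algebraMap ℂ _ a) = HahnSeries.C (PG_G5_phi a)) ∧ Function.Injective ι ∧ (∀ q q', ι q (PG_G5_jElt N) = ι q' (PG_G5_jElt N)) ∧ (∀ q, (ι q (PG_G5_jElt N)⁻¹).order = (N : ℤ)) ∧ (∀ q f (n : ℤ), (ι (MulAction.toPerm (ModularGroup.T⁻¹) q) f).coeff n = ζ ^ n * (ι q f).coeff n) := by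
  refine ⟨Complex.exp (2 * Real.pi * Complex.I / N), PG_G5_iotaInf N,
    Complex.isPrimitiveRoot_exp N (NeZero.ne N), PG_G5_iotaInf_const N, PG_G5_iotaInf_injective N, ?_,
    PG_G5_iotaInf_order N, PG_G5_iotaInf_rescale N⟩
  intro q q'
  rw [PG_G5_iotaInf_jElt, PG_G5_iotaInf_jElt]

end LOCinf

/-! ### DEG -/

section DEG

open Fermat.Agent.S24_helper28_DEGleAlg Fermat.Agent.S24_helper28_DEGleCore

/-- The degree bound, from its analytic inputs. -/
theorem PG_G5_DEG_le_of (N : ℕ) [NeZero N]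
    (hPSI : ∃ ψ : (Algebra.adjoin ℂ
        {x : LaurentSeries ℂ | ∃ (d : ℕ) (_ : NeZero d), d ∣ N ∧ x = PG_G5_jLaur d}) →+* (ℍ → ℂ),
      Function.Injective ψ ∧ (∀ a : ℂ, ψ (algebraMap ℂ _ a) = fun _ => PG_G5_phi a) ∧
      (∀ (d : ℕ) [NeZero d] (hd : d ∣ N),
        ψ ⟨PG_G5_jLaur d, Algebra.subset_adjoin ⟨d, inferInstance, hd, rfl⟩⟩ = jd d 1) ∧
      (∀ x, ψ x ∈ Subring.closure
        (Set.range (fun c : ℂ => (fun _ : ℍ => c)) ∪ {f | ∃ d : ℕ, d ∣ N ∧ f = jd d 1})) ∧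
      ∀ x, laurentInf 1 (ψ x) = ModularCurve.coeffMap PG_G5_phi (x : LaurentSeries ℂ))
    (hAN9b : ∀ g : ℍ → ℂ, g ∈ Subring.closure
        (Set.range (fun c : ℂ => (fun _ : ℍ => c)) ∪ {f | ∃ d : ℕ, d ∣ N ∧ f = jd d 1}) →
      ∃ P : Polynomial (Polynomial ℂ), P.Monic ∧ P.natDegree = mu N ∧
        ∀ z : ℍ, (P.map (Polynomial.evalRingHom (jfun z))).eval (g z) = 0)
    (hE : ∃ E : A1 N →+* LaurentSeries ℂ,
      (∀ c : ℂ, E (constA1 N c) = HahnSeries.C c) ∧
      ∀ g : A1 N, E g = laurentInf 1 (g : ℍ → ℂ)) :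
    FiniteDimensional ℂ⟮PG_G5_jElt N⟯ (PG_G5_FC N) ∧
      Module.finrank ℂ⟮PG_G5_jElt N⟯ (PG_G5_FC N) ≤ mu N := by
  classical
  obtain ⟨ψ, -, -, hψj, hψmem, hψL⟩ := hPSI
  obtain ⟨E, hEc, hEL⟩ := hE
  -- Step A: every element of `RK` satisfies a nonzero polynomial of degree `≤ mu N` over `ℚ̄[j]`
  have stepA : ∀ y : LaurentSeries ℂ, y ∈ Algebra.adjoin ℂ
        {x : LaurentSeries ℂ | ∃ (d : ℕ) (_ : NeZero d), d ∣ N ∧ x = PG_G5_jLaur d} →
      ∃ Q : Polynomial (Polynomial ℂ), Q ≠ 0 ∧ Q.natDegree ≤ mu N ∧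
        ev2 (PG_G5_jLaur 1) y Q = 0 := by
    intro y hy
    have hjmem : PG_G5_jLaur 1 ∈ Algebra.adjoin ℂ
        {x : LaurentSeries ℂ | ∃ (d : ℕ) (_ : NeZero d), d ∣ N ∧ x = PG_G5_jLaur d} :=
      Algebra.subset_adjoin ⟨1, inferInstance, one_dvd N, rfl⟩
    have hψjj : ψ ⟨PG_G5_jLaur 1, hjmem⟩ = jfun :=
      (hψj 1 (one_dvd N)).trans (Fermat.Agent.S24_helper27_J1.jd_one 1)
    have hjf : jfun ∈ A1 N := hψjj ▸ hψmem ⟨PG_G5_jLaur 1, hjmem⟩
    have hg : ψ ⟨y, hy⟩ ∈ A1 N := hψmem ⟨y, hy⟩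
    obtain ⟨P, hPm, hPd, hPz⟩ := hAN9b _ hg
    -- the evaluation of bivariate polynomials at `(j, g)` inside `A1 N`
    let Φ : Polynomial (Polynomial ℂ) →+* A1 N :=
      Polynomial.eval₂RingHom (Polynomial.eval₂RingHom (constA1 N) ⟨jfun, hjf⟩) ⟨ψ ⟨y, hy⟩, hg⟩
    have hΦ0 : Φ P = 0 := by
      apply Subtype.ext
      funext z
      have h1 : (evA1 N z).comp (Polynomial.eval₂RingHom (constA1 N) ⟨jfun, hjf⟩)
          = Polynomial.evalRingHom (jfun z) := by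
        apply Polynomial.ringHom_ext
        · intro c
          simp [evA1, constA1]
        · simp [evA1]
      have h2 : evA1 N z (Φ P) = (P.map (Polynomial.evalRingHom (jfun z))).eval (ψ ⟨y, hy⟩ z) := by
        simp only [Φ, Polynomial.coe_eval₂RingHom]
        rw [Polynomial.hom_eval₂, h1, Polynomial.eval_map]
        rfl
      rw [hPz z] at h2
      exact h2
    have hEΦ : E (Φ P) = ev2 (ModularCurve.coeffMap PG_G5_phi (PG_G5_jLaur 1))
        (ModularCurve.coeffMap PG_G5_phi y) P := by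
      have h1 : E.comp (Polynomial.eval₂RingHom (constA1 N) ⟨jfun, hjf⟩)
          = Polynomial.eval₂RingHom (HahnSeries.C : ℂ →+* LaurentSeries ℂ)
              (ModularCurve.coeffMap PG_G5_phi (PG_G5_jLaur 1)) := by
        apply Polynomial.ringHom_ext
        · intro c
          simp [hEc]
        · simp only [RingHom.comp_apply, Polynomial.coe_eval₂RingHom, Polynomial.eval₂_X]
          rw [hEL, ← hψL ⟨PG_G5_jLaur 1, hjmem⟩, hψjj]
      have h3 : E ⟨ψ ⟨y, hy⟩, hg⟩ = ModularCurve.coeffMap PG_G5_phi y := by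
        rw [hEL, hψL ⟨y, hy⟩]
      simp only [Φ, ev2, Polynomial.coe_eval₂RingHom]
      rw [Polynomial.hom_eval₂, h1, h3]
    rw [hΦ0, map_zero] at hEΦ
    let _ : Algebra ℂ ℂ := PG_G5_phi.toAlgebra
    obtain ⟨Q, hQ0, hQd, hQev⟩ := descend_relation (K := ℂ) (L := ℂ) (PG_G5_jLaur 1) y P
      hPm.ne_zero hEΦ.symm
    exact ⟨Q, hQ0, hQd.trans hPd.le, hQev⟩
  -- the subalgebra `R` of the function field generated by the `j(q^d)`
  let R : Subalgebra ℂ (PG_G5_FC N) :=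
    (Algebra.adjoin ℂ
      {x : LaurentSeries ℂ | ∃ (d : ℕ) (_ : NeZero d), d ∣ N ∧ x = PG_G5_jLaur d}).comap
      (PG_G5_FC N).val
  have hR : ∀ y : PG_G5_FC N, y ∈ R ↔
      (y : LaurentSeries ℂ) ∈ Algebra.adjoin ℂ
        {x : LaurentSeries ℂ | ∃ (d : ℕ) (_ : NeZero d), d ∣ N ∧ x = PG_G5_jLaur d} :=
    fun y => Iff.rfl
  have hjR : PG_G5_jElt N ∈ R :=
    (hR _).mpr (Algebra.subset_adjoin ⟨1, inferInstance, one_dvd N, rfl⟩)
  -- the function field is generated by `R`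
  have hgen : ∀ θ : PG_G5_FC N,
      θ ∈ IntermediateField.adjoin ℂ (R : Set (PG_G5_FC N)) := by
    have key : ∀ x : LaurentSeries ℂ,
        x ∈ IntermediateField.adjoin ℂ
          {x | ∃ (d : ℕ) (_ : NeZero d), d ∣ N ∧ x = PG_G5_jLaur d} →
        ∀ hx' : x ∈ PG_G5_FC N,
          (⟨x, hx'⟩ : PG_G5_FC N) ∈ IntermediateField.adjoin ℂ
            (R : Set (PG_G5_FC N)) := by
      intro x hx
      induction hx using IntermediateField.adjoin_induction with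
      | mem y hy =>
        intro hy'
        exact IntermediateField.subset_adjoin _ _ ((hR ⟨y, hy'⟩).mpr (Algebra.subset_adjoin hy))
      | algebraMap a =>
        intro ha'
        exact IntermediateField.algebraMap_mem _ a
      | add x y hx hy h1 h2 =>
        intro hxy
        have hx' : x ∈ PG_G5_FC N := by
          rw [PG_G5_GEN]; exact hx
        have hy' : y ∈ PG_G5_FC N := by
          rw [PG_G5_GEN]; exact hy
        have e : (⟨x + y, hxy⟩ : PG_G5_FC N)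
            = ⟨x, hx'⟩ + ⟨y, hy'⟩ := rfl
        rw [e]
        exact add_mem (h1 hx') (h2 hy')
      | inv x hx h =>
        intro hxi
        have hx' : x ∈ PG_G5_FC N := by
          rw [PG_G5_GEN]; exact hx
        have e : (⟨x⁻¹, hxi⟩ : PG_G5_FC N)
            = (⟨x, hx'⟩ : PG_G5_FC N)⁻¹ := rfl
        rw [e]
        exact inv_mem (h hx')
      | mul x y hx hy h1 h2 =>
        intro hxy
        have hx' : x ∈ PG_G5_FC N := by
          rw [PG_G5_GEN]; exact hx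
        have hy' : y ∈ PG_G5_FC N := by
          rw [PG_G5_GEN]; exact hy
        have e : (⟨x * y, hxy⟩ : PG_G5_FC N)
            = ⟨x, hx'⟩ * ⟨y, hy'⟩ := rfl
        rw [e]
        exact mul_mem (h1 hx') (h2 hy')
    rintro ⟨x, hx⟩
    exact key x (by rw [← PG_G5_GEN]; exact hx) hx
  have hι : ∀ a : ℂ,
      ((PG_G5_FC N).val : _ →+* LaurentSeries ℂ)
        (algebraMap ℂ (PG_G5_FC N) a) = HahnSeries.C a := by
    intro a
    exact ((PG_G5_FC N).val.commutes a).trans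
      (ModularCurve.algebraMap_laurentSeries_eq_single ℂ a)
  exact finrank_le_of_relations
    ((PG_G5_FC N).val : _ →+* LaurentSeries ℂ) hι R hgen
    (PG_G5_jElt N) hjR (PG_G5_TR N) (mu N)
    (fun y hy => stepA (y : LaurentSeries ℂ) ((hR y).mp hy))
/-- **C-DEGle.** The function field of `X₀(N)` has degree at most `mu N` over `ℚ̄(j)`. -/
theorem PG_G5_DEG_le (N : ℕ) [NeZero N] :
    FiniteDimensional ℂ⟮PG_G5_jElt N⟯ (PG_G5_FC N) ∧
      Module.finrank ℂ⟮PG_G5_jElt N⟯ (PG_G5_FC N) ≤ mu N :=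
  PG_G5_DEG_le_of N (PG_G5_PSI N)
    (fun g hg => Fermat.Agent.S24_helper9_INVb.AN9b N g hg)
    (Fermat.Agent.S24_helper28_DEGleCore.exists_E_of N
      (fun _ hg => PG_G5_psi_pole_of_mem N
        (fun _ _ _ => PG_G5_laurentInf_jd_one) hg)
      (fun _ _ _ _ hg hh => Fermat.Agent.S24_helper21_LINF.laurentInf_add 1 hg hh)
      (fun _ _ _ _ hg hh => Fermat.Agent.S24_helper21_LINF.laurentInf_mul 1 hg hh)
      (fun c => Fermat.Agent.S24_helper21_LINF.laurentInf_const 1 c))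
/-- `[F : ℚ̄(j)] = mu N`, from the upper bound (piece C-DEGle) and the existence of `mu N`
pairwise distinct embeddings agreeing on constants and on `j` (from piece C-LOCinf or
C-LOCfin). -/
theorem PG_G5_DEG_of (N : ℕ) [NeZero N] {Ω : Type*} [Field Ω]
    (hle : FiniteDimensional ℂ⟮PG_G5_jElt N⟯ (PG_G5_FC N) ∧
      Module.finrank ℂ⟮PG_G5_jElt N⟯ (PG_G5_FC N) ≤ mu N)
    (ι : Q N → PG_G5_FC N →+* Ω)
    (hinj : Function.Injective ι)
    (hK : ∀ q q' a, ι q (algebraMap ℂ _ a) = ι q' (algebraMap ℂ _ a))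
    (hj : ∀ q q', ι q (PG_G5_jElt N) = ι q' (PG_G5_jElt N)) :
    FiniteDimensional ℂ⟮PG_G5_jElt N⟯ (PG_G5_FC N) ∧
      Module.finrank ℂ⟮PG_G5_jElt N⟯ (PG_G5_FC N) = mu N := by
  obtain ⟨hfin, hle'⟩ := hle
  refine ⟨hfin, le_antisymm hle' ?_⟩
  haveI := hfin
  -- `Q N` is finite: it injects into the finite set of `K⟮j⟯`-algebra homs
  haveI : Finite (Q N) := by
    classical
    by_cases hne : Nonempty (Q N)
    · obtain ⟨q₀⟩ := hne
      letI algΩ : Algebra ℂ⟮PG_G5_jElt N⟯ Ω :=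
        ((ι q₀).comp (algebraMap ℂ⟮PG_G5_jElt N⟯ (PG_G5_FC N))).toAlgebra
      have hagree : ∀ q (x : ℂ⟮PG_G5_jElt N⟯),
          ι q (x : PG_G5_FC N)
            = ι q₀ (x : PG_G5_FC N) := fun q x =>
        Fermat.Agent.S24_helper23_CARD.agree_on_adjoin (PG_G5_jElt N) (ι q) (ι q₀) (hK q q₀) (hj q q₀)
          x x.2
      let φ : Q N → (PG_G5_FC N →ₐ[ℂ⟮PG_G5_jElt N⟯] Ω) := fun q =>
        { ι q with commutes' := fun x => hagree q x }
      have hφ : Function.Injective φ := by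
        intro q q' h
        apply hinj
        ext x
        exact congrArg (fun f : PG_G5_FC N →ₐ[ℂ⟮PG_G5_jElt N⟯] Ω => f x) h
      exact Finite.of_injective φ hφ
    · haveI : IsEmpty (Q N) := not_nonempty_iff.mp hne
      infer_instance
  letI : Fintype (Q N) := Fintype.ofFinite (Q N)
  have h := Fermat.Agent.S24_helper23_CARD.CARD (K := ℂ) (PG_G5_jElt N) ι hinj
    (fun q q' a => hK q q' a) hj
  rw [mu, Nat.card_eq_fintype_card]
  exact h
/-- C-PG_G5_DEG: `[F : ℚ̄(j)] = mu N`. -/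
theorem PG_G5_DEG (N : ℕ) [NeZero N] :
    FiniteDimensional ℂ⟮PG_G5_jElt N⟯ (PG_G5_FC N) ∧
      Module.finrank ℂ⟮PG_G5_jElt N⟯ (PG_G5_FC N) = mu N := by
  obtain ⟨ζ, ι, -, hK, hinj, hj, -, -⟩ := PG_G5_LOC_inf N
  exact PG_G5_DEG_of N (PG_G5_DEG_le N) ι hinj
    (fun q q' a => by rw [hK q a, hK q' a]) hj

end DEG

end Fermat.Agent.G_helper16_G5
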