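import Fermat.Agent.S24_helper16_B

/-!
# Project G, piece G5 (part c): ramification index times period (abstract)

In the situation of S24 part (B) (embeddings `ι i : F → L((s))` of a function field above
`t = 0`, permuted by the rescaling `s ↦ ζ s`), the ramification index `e` of `ι i` over the
place it induces and the period `k` of `i` under the permutation satisfy `e * k = e₀`.
-/

set_option autoImplicit false
set_option linter.unusedSectionVars false
set_option linter.unusedVariables false
set_option linter.style.haveILetI false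

open HahnSeries AlgebraicCurve IntermediateField

noncomputable section

namespace Fermat.Agent.G_helper16_G5

open Fermat.Agent.S24_helper16_B

/-- **Ramification index times period.** -/
theorem PG_G5_ram_period {K F : Type*} [Field K] [IsAlgClosed K] [CharZero K] [Field F]
    [Algebra K F]
    (t : F) (ht : Transcendental K t) [FiniteDimensional K⟮t⟯ F]
    {L : Type*} [Field L] (φ₀ : K →+* L)
    {I : Type*} [Fintype I] (hI : Fintype.card I = Module.finrank K⟮t⟯ F)
    (ι : I → F →+* LaurentSeries L)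
    (hιK : ∀ i a, ι i (algebraMap K F a) = HahnSeries.C (φ₀ a))
    (hιinj : Function.Injective ι)
    (hιt : ∀ i i', ι i t = ι i' t)
    (e₀ : ℕ) (he₀ : 0 < e₀) (hord : ∀ i, (ι i t).order = (e₀ : ℤ))
    (ζ : L) (hζ : IsPrimitiveRoot ζ e₀)
    (π : Equiv.Perm I)
    (hπ : ∀ i f (n : ℤ), (ι (π i) f).coeff n = ζ ^ n * (ι i f).coeff n) (i₀ : I) :
    ∃ (v : Place K F) (e k : ℕ), 0 < e ∧ 0 < k ∧ e * k = e₀ ∧ (π ^ k) i₀ = i₀ ∧
      (∀ f : F, f ∈ v.toValuationSubring ↔ 0 ≤ (ι i₀ f).order) ∧
      (∀ f : F, f ≠ 0 → (ι i₀ f).order = (e : ℤ) * v.ord f) ∧ v.ord t = (k : ℤ) := by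
  classical
  have hζ0 : ζ ≠ 0 := hζ.ne_zero he₀.ne'
  have hι : ∀ i, IsConst φ₀ (ι i) := fun i a => hιK i a
  have hne : ∀ i, ∃ f : F, w (ι i) f ≠ 0 := fun i =>
    ⟨t, by show (ι i t).order ≠ 0; rw [hord]; exact_mod_cast he₀.ne'⟩
  have ht0 : t ≠ 0 := by
    rintro rfl
    exact ht (isAlgebraic_zero)
  set P : I → Place K F := fun i => placeOf (ι i) (hι i) (hne i) with hP
  -- `P` is invariant under `π`
  have hPπ : ∀ i, P (π i) = P i := by
    intro i
    apply Place.ext
    ext f
    show 0 ≤ (ι (π i) f).order ↔ 0 ≤ (ι i f).order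
    rw [eq_lsScale_of_coeff (ι i f) (ι (π i) f) ζ hζ0 (hπ i f), order_lsScale]
  let H : Subgroup (Equiv.Perm I) :=
    { carrier := {g | ∀ i, P (g i) = P i}
      one_mem' := fun i => rfl
      mul_mem' := fun {a b} ha hb i => by rw [Equiv.Perm.mul_apply, ha, hb]
      inv_mem' := fun {a} ha i => by
        have := ha (a⁻¹ i)
        have h2 : a (a⁻¹ i) = i := by
          rw [← Equiv.Perm.mul_apply, mul_inv_cancel, Equiv.Perm.one_apply]
        rw [h2] at this
        exact this.symm }
  have hH : Subgroup.zpowers π ≤ H := (Subgroup.zpowers_le).mpr hPπ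
  -- the places above `t = 0`
  set S : Finset (Place K F) := (S24_helper6_A2.zeros_finite t ht).toFinset with hSdef
  have hS : ∀ v, v ∈ S ↔ 0 < v.ord t := fun v => by
    rw [hSdef, Set.Finite.mem_toFinset]; rfl
  have hsum : ∑ v ∈ S, v.ord t = (Fintype.card I : ℤ) := by
    rw [hI]; exact S24_helper6_A2.sum_ord_zeros t ht
  have hPpos : ∀ i, 0 < (P i).ord t := by
    intro i
    obtain ⟨m, hm, hmw⟩ := exists_w_eq_mul_ord (ι i) (hι i) (hne i)
    have h1 := hmw t ht0
    rw [hord i] at h1
    have h3 : (0 : ℤ) < m * (P i).ord t := by rw [← h1]; exact_mod_cast he₀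
    exact pos_of_mul_pos_left (by rwa [mul_comm] at h3) (by positivity)
  have hPS : ∀ i, P i ∈ S := fun i => (hS _).mpr (hPpos i)
  have hsurj : ∀ v ∈ S, ∃ i, P i = v := by
    intro v hv
    obtain ⟨i, hi⟩ := S24_helper3_B2.B2 t ht φ₀ hI ι hιK hιinj hιt
      (fun i => by rw [hord]; exact_mod_cast he₀) v ((hS v).mp hv)
    refine ⟨i, Place.ext ?_⟩
    ext f
    rw [hi f]
    show 0 ≤ (ι i f).order ↔ _
    by_cases hf : ι i f = 0
    · rw [hf]; simp
    · rw [← HahnSeries.order_eq_orderTop_of_ne_zero hf]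
      exact_mod_cast Iff.rfl
  -- the quotient by orbits
  let Ω := MulAction.orbitRel.Quotient (Subgroup.zpowers π) I
  let _instΩ : Fintype Ω := Quotient.fintype _
  let q : I → Ω := fun i => Quotient.mk'' i
  have hq : ∀ i i', q i = q i' ↔ ∃ g ∈ Subgroup.zpowers π, g i' = i := by
    intro i i'
    show (Quotient.mk'' i : Ω) = Quotient.mk'' i' ↔ _
    rw [Quotient.eq'', MulAction.orbitRel_apply, MulAction.mem_orbit_iff]
    constructor
    · rintro ⟨g, hg⟩
      exact ⟨g.1, g.2, hg⟩
    · rintro ⟨g, hg, hgi⟩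
      exact ⟨⟨g, hg⟩, hgi⟩
  let ō : Ω → Place K F := Quotient.lift P (by
    intro a b hab
    have hab' : q a = q b := Quotient.sound hab
    obtain ⟨g, hg, hgi⟩ := (hq a b).mp hab'
    rw [← hgi]
    exact hH hg b)
  have hōq : ∀ i, ō (q i) = P i := fun i => rfl
  have hōpos : ∀ ω, 0 < (ō ω).ord t := by
    intro ω
    induction ω using Quotient.inductionOn with
    | _ i => exact hPpos i
  -- sizes of orbits
  let sz : Ω → ℕ := fun ω => (Finset.univ.filter (fun i => q i = ω)).card
  have hszsum : ∑ ω, sz ω = Fintype.card I := by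
    rw [← Finset.card_univ]
    exact (Finset.card_eq_sum_card_fiberwise (f := q) (s := Finset.univ) (t := Finset.univ)
      (fun _ _ => Finset.mem_univ _)).symm
  have hle : ∀ ω, (ō ω).ord t ≤ sz ω := by
    intro ω
    induction ω using Quotient.inductionOn with
    | _ i =>
    show (P i).ord t ≤ ((Finset.univ.filter (fun i' => q i' = q i)).card : ℤ)
    set e : ℕ := ((P i).ord t).toNat with he
    have hee : ((P i).ord t) = e := (Int.toNat_of_nonneg (hPpos i).le).symm
    rw [hee]
    have hcard : (Finset.range e).card ≤ (Finset.univ.filter (fun i' => q i' = q i)).card := by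
      refine Finset.card_le_card_of_injOn (fun j => (π ^ j) i) ?_ ?_
      · intro j _
        simp only [Finset.coe_filter, Finset.mem_univ, true_and, Set.mem_ofPred_eq]
        exact (hq _ _).mpr ⟨π ^ j, Subgroup.pow_mem _ (Subgroup.mem_zpowers π) j, rfl⟩
      · -- injectivity
        have key : ∀ a b : ℕ, a < b → b < e → (π ^ a) i ≠ (π ^ b) i := by
          intro a b hab hbe h
          have h1 : (π ^ (b - a)) i = i := by
            have h2 : (π ^ b) i = (π ^ a) ((π ^ (b - a)) i) := by
              rw [← Equiv.Perm.mul_apply, ← _root_.pow_add]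
              congr 2
              omega
            rw [h2] at h
            exact ((π ^ a).injective h).symm
          have h3 := ord_dvd_of_pow_apply_eq φ₀ t ι hι e₀ he₀ hord ζ hζ π hπ i (hne i) (b - a) h1
          have h4 : ((P i).ord t) ≤ ((b - a : ℕ) : ℤ) :=
            Int.le_of_dvd (by exact_mod_cast Nat.sub_pos_of_lt hab) h3
          rw [hee] at h4
          have h5 : e ≤ b - a := by exact_mod_cast h4
          omega
        intro a ha b hb hab
        simp only [Finset.coe_range, Set.mem_Iio] at ha hb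
        by_contra hne'
        rcases lt_or_gt_of_ne hne' with h | h
        · exact key a b h hb hab
        · exact key b a h ha hab.symm
    rw [Finset.card_range] at hcard
    exact_mod_cast hcard
  -- injectivity of `ō`
  have hinj : Function.Injective ō := by
    intro ω₁ ω₂ h12
    by_contra hne12
    have hsub : S ⊆ (Finset.univ.erase ω₁).image ō := by
      intro v hv
      obtain ⟨i, rfl⟩ := hsurj v hv
      rw [Finset.mem_image]
      by_cases hi : q i = ω₁
      · refine ⟨ω₂, Finset.mem_erase.mpr ⟨fun h => hne12 h.symm, Finset.mem_univ _⟩, ?_⟩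
        rw [← h12, ← hi]
        exact hōq i
      · exact ⟨q i, Finset.mem_erase.mpr ⟨hi, Finset.mem_univ _⟩, rfl⟩
    have h1 : ∑ v ∈ S, v.ord t ≤ ∑ v ∈ (Finset.univ.erase ω₁).image ō, v.ord t := by
      refine Finset.sum_le_sum_of_subset_of_nonneg hsub ?_
      intro v hv _
      obtain ⟨ω, -, rfl⟩ := Finset.mem_image.mp hv
      exact (hōpos ω).le
    have h2 : ∑ v ∈ (Finset.univ.erase ω₁).image ō, v.ord t
        ≤ ∑ ω ∈ Finset.univ.erase ω₁, (ō ω).ord t := by
      refine Finset.sum_image_le_of_nonneg ?_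
      intro v hv
      obtain ⟨ω, -, rfl⟩ := Finset.mem_image.mp hv
      exact (hōpos ω).le
    have h3 : ∑ ω ∈ Finset.univ.erase ω₁, (ō ω).ord t + (ō ω₁).ord t = ∑ ω, (ō ω).ord t :=
      Finset.sum_erase_add _ _ (Finset.mem_univ _)
    have h4 : ∑ ω, (ō ω).ord t ≤ ∑ ω, (sz ω : ℤ) := Finset.sum_le_sum fun ω _ => hle ω
    have h5 : ∑ ω, (sz ω : ℤ) = (Fintype.card I : ℤ) := by exact_mod_cast hszsum
    have h6 := hōpos ω₁
    linarith
  -- NEW: the orders equal the orbit sizes
  have hsumō : ∑ v ∈ S, v.ord t = ∑ ω, (ō ω).ord t := by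
    have himg : S = Finset.univ.image ō := by
      ext v
      constructor
      · intro hv
        obtain ⟨i, rfl⟩ := hsurj v hv
        exact Finset.mem_image.mpr ⟨q i, Finset.mem_univ _, hōq i⟩
      · intro hv
        obtain ⟨ω, -, rfl⟩ := Finset.mem_image.mp hv
        exact (hS _).mpr (hōpos ω)
    rw [himg, Finset.sum_image (fun a _ b _ hab => hinj hab)]
  have heq : ∀ ω, (ō ω).ord t = sz ω := by
    by_contra hcon
    push Not at hcon
    obtain ⟨ω₁, hω₁⟩ := hcon
    have hlt : (ō ω₁).ord t < sz ω₁ := lt_of_le_of_ne (hle ω₁) hω₁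
    have h1 : ∑ ω, (ō ω).ord t < ∑ ω, (sz ω : ℤ) :=
      Finset.sum_lt_sum (fun ω _ => hle ω) ⟨ω₁, Finset.mem_univ _, hlt⟩
    have h5 : ∑ ω, (sz ω : ℤ) = (Fintype.card I : ℤ) := by exact_mod_cast hszsum
    rw [← hsumō, hsum, h5] at h1
    exact lt_irrefl _ h1
  -- the data for `i₀`
  obtain ⟨m, hm, hmw⟩ := exists_w_eq_mul_ord (ι i₀) (hι i₀) (hne i₀)
  set k : ℕ := sz (q i₀) with hk
  have hkord : (P i₀).ord t = (k : ℤ) := heq (q i₀)
  have hkpos : 0 < k := by
    have := hPpos i₀
    rw [hkord] at this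
    exact_mod_cast this
  have hmk : m * k = e₀ := by
    have h1 := hmw t ht0
    rw [hord i₀] at h1
    have h2 : ((m * k : ℕ) : ℤ) = (e₀ : ℤ) := by
      rw [h1]
      push_cast
      rw [← hkord]
    exact_mod_cast h2
  -- the period
  have hperiod : (π ^ k) i₀ = i₀ := by
    -- the map `j ↦ π ^ j i₀` is injective on `range k` with values in the fibre of `q i₀`
    have key : ∀ a b : ℕ, a < b → b ≤ k → (π ^ a) i₀ = (π ^ b) i₀ → a = 0 ∧ b = k := by
      intro a b hab hbk h
      have h1 : (π ^ (b - a)) i₀ = i₀ := by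
        have h2 : (π ^ b) i₀ = (π ^ a) ((π ^ (b - a)) i₀) := by
          rw [← Equiv.Perm.mul_apply, ← _root_.pow_add]
          congr 2
          omega
        rw [h2] at h
        exact ((π ^ a).injective h).symm
      have h3 := ord_dvd_of_pow_apply_eq φ₀ t ι hι e₀ he₀ hord ζ hζ π hπ i₀ (hne i₀) (b - a) h1
      have h3' : (P i₀).ord t ∣ ((b - a : ℕ) : ℤ) := h3
      rw [hkord] at h3'
      have h4 : k ∣ b - a := by exact_mod_cast h3'
      have h5 : k ≤ b - a := Nat.le_of_dvd (Nat.sub_pos_of_lt hab) h4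
      omega
    by_contra hcon
    -- then `j ↦ π ^ j i₀` is injective on `range (k + 1)`
    have hinj' : Set.InjOn (fun j => (π ^ j) i₀) (Finset.range (k + 1) : Finset ℕ) := by
      intro a ha b hb hab
      simp only [Finset.coe_range, Set.mem_Iio] at ha hb
      by_contra hne'
      rcases lt_or_gt_of_ne hne' with h | h
      · obtain ⟨rfl, rfl⟩ := key a b h (by omega) hab
        apply hcon
        simpa using hab.symm
      · obtain ⟨rfl, rfl⟩ := key b a h (by omega) hab.symm
        apply hcon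
        simpa using hab
    have hcard : (Finset.range (k + 1)).card ≤ (Finset.univ.filter (fun i' => q i' = q i₀)).card := by
      refine Finset.card_le_card_of_injOn (fun j => (π ^ j) i₀) ?_ hinj'
      intro j _
      simp only [Finset.coe_filter, Finset.mem_univ, true_and, Set.mem_ofPred_eq]
      exact (hq _ _).mpr ⟨π ^ j, Subgroup.pow_mem _ (Subgroup.mem_zpowers π) j, rfl⟩
    rw [Finset.card_range] at hcard
    have : (Finset.univ.filter (fun i' => q i' = q i₀)).card = k := rfl
    omega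
  exact ⟨P i₀, m, k, hm, hkpos, hmk, hperiod, fun f => Iff.rfl, hmw, hkord⟩

/-- Every place above `t = 0` is induced by one of the embeddings. -/
theorem PG_G5_exists_of_place {K F : Type*} [Field K] [IsAlgClosed K] [CharZero K] [Field F]
    [Algebra K F]
    (t : F) (ht : Transcendental K t) [FiniteDimensional K⟮t⟯ F]
    {L : Type*} [Field L] (φ₀ : K →+* L)
    {I : Type*} [Fintype I] (hI : Fintype.card I = Module.finrank K⟮t⟯ F)
    (ι : I → F →+* LaurentSeries L)
    (hιK : ∀ i a, ι i (algebraMap K F a) = HahnSeries.C (φ₀ a))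
    (hιinj : Function.Injective ι)
    (hιt : ∀ i i', ι i t = ι i' t)
    (e₀ : ℕ) (he₀ : 0 < e₀) (hord : ∀ i, (ι i t).order = (e₀ : ℤ))
    (ζ : L) (hζ : IsPrimitiveRoot ζ e₀)
    (π : Equiv.Perm I)
    (hπ : ∀ i f (n : ℤ), (ι (π i) f).coeff n = ζ ^ n * (ι i f).coeff n)
    (v : Place K F) (hv : 0 < v.ord t) :
    ∃ (i : I) (e k : ℕ), 0 < e ∧ 0 < k ∧ e * k = e₀ ∧ (π ^ k) i = i ∧
      (∀ f : F, f ≠ 0 → (ι i f).order = (e : ℤ) * v.ord f) := by
  obtain ⟨i, hi⟩ := S24_helper3_B2.B2 t ht φ₀ hI ι hιK hιinj hιt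
    (fun i => by rw [hord]; exact_mod_cast he₀) v hv
  obtain ⟨v', e, k, he, hk, hek, hper, hmem, hw, -⟩ := PG_G5_ram_period t ht φ₀ hI ι hιK hιinj hιt
    e₀ he₀ hord ζ hζ π hπ i
  have hvv : v' = v := by
    apply Place.ext
    ext f
    rw [hmem f, hi f]
    by_cases hf : ι i f = 0
    · rw [hf]; simp
    · rw [← HahnSeries.order_eq_orderTop_of_ne_zero hf]
      exact_mod_cast Iff.rfl
  subst hvv
  exact ⟨i, e, k, he, hk, hek, hper, hw⟩

end Fermat.Agent.G_helper16_G5
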