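import Fermat.Agent.G_helper16_G5b
import Fermat.Agent.G_helper16_G5c
import Fermat.Agent.G_helper6_Contracts

/-!
# Project G, piece G5 (part d): realisations and the embeddings

The bridge between realisations `x = a / b` by holomorphic functions (on `q`-expansions at
`i∞`) and the embeddings of the function field into Laurent series fields.
-/

set_option autoImplicit false
set_option linter.unusedSectionVars false
set_option linter.unusedVariables false
set_option linter.style.haveILetI false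

noncomputable section

open UpperHalfPlane ModularForm CongruenceSubgroup AlgebraicCurve IntermediateField
open scoped MatrixGroups ModularForm Manifold
open Fermat.Agent.S20 Fermat.Agent.S24
open Fermat.Agent.G_helper6_Defs

namespace Fermat.Agent.G_helper16_G5

open Fermat.Agent.S24_helper17_EMB (precomp precomp_apply precomp_injective precomp_jd
  holoSubring laurentAtHom laurentAtHom_apply laurentAtHom_injective
  poleSubring laurentInfHom laurentInfHom_apply laurentInfHom_injective)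

/-! ### The realisation map `ψ` -/

section Psi

variable (N : ℕ) [NeZero N]

/-- The ring of `q`-series generated over `ℂ` by the `j(q^d)`, `d ∣ N`. -/
abbrev PG_G5_R : Subalgebra ℂ (LaurentSeries ℂ) :=
  Algebra.adjoin ℂ {x : LaurentSeries ℂ | ∃ (d : ℕ) (_ : NeZero d), d ∣ N ∧ x = PG_G5_jLaur d}

/-- The realisation of `q`-series in `PG_G5_R N` as functions on the upper half plane. -/
def PG_G5_psi : PG_G5_R N →+* (ℍ → ℂ) := (PG_G5_PSI N).choose

theorem PG_G5_psi_injective : Function.Injective (PG_G5_psi N) :=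
  (PG_G5_PSI N).choose_spec.1

theorem PG_G5_psi_const (a : ℂ) :
    PG_G5_psi N (algebraMap ℂ (PG_G5_R N) a) = fun _ => a :=
  (PG_G5_PSI N).choose_spec.2.1 a

theorem PG_G5_psi_jLaur (d : ℕ) [NeZero d] (hd : d ∣ N) :
    PG_G5_psi N ⟨PG_G5_jLaur d, Algebra.subset_adjoin ⟨d, inferInstance, hd, rfl⟩⟩ = jd d 1 :=
  (PG_G5_PSI N).choose_spec.2.2.1 d hd

theorem PG_G5_psi_mem (x : PG_G5_R N) :
    PG_G5_psi N x ∈ Subring.closure
      (Set.range (fun c : ℂ => (fun _ : ℍ => c)) ∪ {f | ∃ d : ℕ, d ∣ N ∧ f = jd d 1}) :=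
  (PG_G5_PSI N).choose_spec.2.2.2.1 x

theorem PG_G5_psi_laurentInf (x : PG_G5_R N) :
    laurentInf 1 (PG_G5_psi N x) = (x : LaurentSeries ℂ) := by
  have h := (PG_G5_PSI N).choose_spec.2.2.2.2 x
  rw [PG_G5_coeffMap_phi] at h
  exact h

theorem PG_G5_psi_pole (x : PG_G5_R N) : ∃ M : ℕ, HasPoleInf 1 M (PG_G5_psi N x) :=
  PG_G5_psi_pole_of_mem N (fun _ _ _ => PG_G5_laurentInf_jd_one) (PG_G5_psi_mem N x)

theorem PG_G5_psi_mdiff (x : PG_G5_R N) : MDifferentiable 𝓘(ℂ) 𝓘(ℂ) (PG_G5_psi N x) := by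
  obtain ⟨M, hM⟩ := PG_G5_psi_pole N x
  exact hM.1

/-- every element of the function field is a quotient of two elements of `PG_G5_R N`. -/
theorem PG_G5_exists_frac (x : PG_G5_FC N) :
    ∃ r s : PG_G5_R N, s ≠ 0 ∧ (x : LaurentSeries ℂ) * (s : LaurentSeries ℂ) = r := by
  have hx : (x : LaurentSeries ℂ) ∈ IntermediateField.adjoin ℂ
      {x : LaurentSeries ℂ | ∃ (d : ℕ) (_ : NeZero d), d ∣ N ∧ x = PG_G5_jLaur d} := by
    rw [← PG_G5_GEN N]
    exact x.2
  generalize (x : LaurentSeries ℂ) = y at hx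
  -- closure under the field operations
  induction hx using IntermediateField.adjoin_induction with
  | mem y hy => exact ⟨⟨y, Algebra.subset_adjoin hy⟩, 1, one_ne_zero, by simp⟩
  | algebraMap c => exact ⟨algebraMap ℂ _ c, 1, one_ne_zero, by simp⟩
  | add y z _ _ hy hz =>
    obtain ⟨r, s, hs, h⟩ := hy
    obtain ⟨r', s', hs', h'⟩ := hz
    refine ⟨r * s' + r' * s, s * s', mul_ne_zero hs hs', ?_⟩
    push_cast
    rw [← h, ← h']
    ring
  | inv y _ hy =>
    obtain ⟨r, s, hs, h⟩ := hy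
    by_cases hr : r = 0
    · refine ⟨0, 1, one_ne_zero, ?_⟩
      have hs' : (s : LaurentSeries ℂ) ≠ 0 := fun h0 => hs (Subtype.ext h0)
      have hy0 : y = 0 := by
        have : y * (s : LaurentSeries ℂ) = 0 := by rw [h, hr]; rfl
        exact (mul_eq_zero.mp this).resolve_right hs'
      simp [hy0]
    · refine ⟨s, r, hr, ?_⟩
      have hr' : (r : LaurentSeries ℂ) ≠ 0 := fun h0 => hr (Subtype.ext h0)
      have hs' : (s : LaurentSeries ℂ) ≠ 0 := fun h0 => hs (Subtype.ext h0)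
      have hy0 : y ≠ 0 := by
        rintro rfl
        rw [zero_mul] at h
        exact hr' h.symm
      rw [← h]
      field_simp
  | mul y z _ _ hy hz =>
    obtain ⟨r, s, hs, h⟩ := hy
    obtain ⟨r', s', hs', h'⟩ := hz
    refine ⟨r * r', s * s', mul_ne_zero hs hs', ?_⟩
    push_cast
    rw [← h, ← h']
    ring

end Psi

/-! ### `q`-expansions -/

section QLaur

/-- for a holomorphic `1`-periodic function bounded at `i∞`, the `q`-expansion of G0 is the
Laurent expansion of S24. -/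
theorem PG_G5_qLaur_eq {a : ℍ → ℂ} (ha : HasPoleInf 1 0 a) : PG_qLaur a = laurentInf 1 a := by
  rw [Fermat.Agent.S24_helper21_LINF.laurentInf_eq 1 ha]
  simp only [Nat.cast_zero, neg_zero, pow_zero, one_mul, Nat.cast_one]
  rw [show (HahnSeries.single (0 : ℤ) (1 : ℂ)) = 1 from rfl, one_mul]
  rfl

theorem PG_G5_isGoodChar_one (N : ℕ) : PG_IsGoodChar N (1 : Gamma0 N →* ℂˣ) :=
  ⟨⟨1, one_pos, fun _ => by simp⟩, fun _ _ => rfl, fun _ _ _ _ => rfl⟩

/-- `T` as an element of `Gamma0 N`. -/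
def PG_G5_T (N : ℕ) : Gamma0 N :=
  ⟨ModularGroup.T, by
    rw [Gamma0_mem]
    simp [ModularGroup.T]⟩

theorem PG_G5_form_periodic {N : ℕ} {k : ℤ} {χ : Gamma0 N →* ℂˣ} {a : ℍ → ℂ}
    (hχ : PG_IsGoodChar N χ) (ha : PG_IsForm N k χ a) (z : ℍ) :
    a ((1 : ℝ) +ᵥ z) = a z := by
  have h1 := ha.aut (PG_G5_T N) z
  have h2 : χ (PG_G5_T N) = 1 := by
    apply hχ.par
    simp [PG_G5_T, ModularGroup.T, Matrix.trace_fin_two]
  have h3 : ((PG_G5_T N : Gamma0 N) : SL(2, ℤ)) • z = (1 : ℝ) +ᵥ z := by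
    show ModularGroup.T • z = _
    exact UpperHalfPlane.modular_T_smul z
  have h4 : denom (((PG_G5_T N : Gamma0 N) : SL(2, ℤ)) : GL (Fin 2) ℝ) z = 1 := by
    show denom ((ModularGroup.T : SL(2, ℤ)) : GL (Fin 2) ℝ) z = 1
    rw [ModularGroup.denom_apply]
    have e10 : (ModularGroup.T : SL(2, ℤ)) 1 0 = 0 := by decide
    have e11 : (ModularGroup.T : SL(2, ℤ)) 1 1 = 1 := by decide
    rw [e10, e11]
    simp
  rw [h3, h2, h4] at h1
  simpa using h1

theorem PG_G5_form_hasPoleInf {N : ℕ} {k : ℤ} {χ : Gamma0 N →* ℂˣ} {a : ℍ → ℂ}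
    (hχ : PG_IsGoodChar N χ) (ha : PG_IsForm N k χ a) : HasPoleInf 1 0 a := by
  refine ⟨ha.holo, fun z => ?_, ?_⟩
  · have := PG_G5_form_periodic hχ ha z
    simpa using this
  · have h := ha.bdd 1
    rw [SlashAction.slash_one] at h
    simpa using h

end QLaur

/-! ### From realisations to identities of functions -/

section Bridge

variable (N : ℕ) [NeZero N]

/-- a realisation `x = a / b` and a fraction `x = r / s` give `ψ r * b = ψ s * a`. -/
theorem PG_G5_psi_mul_eq (x : PG_G5_FC N) (r s : PG_G5_R N)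
    (hrs : (x : LaurentSeries ℂ) * (s : LaurentSeries ℂ) = r) {a b : ℍ → ℂ} {Ma Mb : ℕ}
    (ha : HasPoleInf 1 Ma a) (hb : HasPoleInf 1 Mb b)
    (hx : (x : LaurentSeries ℂ) * laurentInf 1 b = laurentInf 1 a) :
    PG_G5_psi N r * b = PG_G5_psi N s * a := by
  obtain ⟨Mr, hr⟩ := PG_G5_psi_pole N r
  obtain ⟨Ms, hs⟩ := PG_G5_psi_pole N s
  have h1 : laurentInf 1 (PG_G5_psi N r * b) = (r : LaurentSeries ℂ) * laurentInf 1 b := by
    rw [Fermat.Agent.S24_helper21_LINF.laurentInf_mul 1 hr hb, PG_G5_psi_laurentInf]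
  have h2 : laurentInf 1 (PG_G5_psi N s * a) = (s : LaurentSeries ℂ) * laurentInf 1 a := by
    rw [Fermat.Agent.S24_helper21_LINF.laurentInf_mul 1 hs ha, PG_G5_psi_laurentInf]
  have h3 : laurentInf 1 (PG_G5_psi N r * b) = laurentInf 1 (PG_G5_psi N s * a) := by
    rw [h1, h2, ← hrs, ← hx]
    ring
  have h4 : (⟨PG_G5_psi N r * b, ⟨_, Fermat.Agent.S24_helper17_EMB.hasPoleInf_mul 1 hr hb⟩⟩ :
      poleSubring 1) = ⟨PG_G5_psi N s * a,
        ⟨_, Fermat.Agent.S24_helper17_EMB.hasPoleInf_mul 1 hs ha⟩⟩ := by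
    apply laurentInfHom_injective 1
    rw [laurentInfHom_apply, laurentInfHom_apply]
    exact h3
  exact congrArg Subtype.val h4

/-- ring homomorphisms out of an adjoin are determined by the generators and the constants -/
theorem PG_G5_adjoin_ringHom_ext {S : Set (LaurentSeries ℂ)} {Ω : Type*} [Semiring Ω]
    (f g : Algebra.adjoin ℂ S →+* Ω)
    (hc : ∀ c : ℂ, f (algebraMap ℂ (Algebra.adjoin ℂ S) c) = g (algebraMap ℂ (Algebra.adjoin ℂ S) c))
    (hS : ∀ x (hx : x ∈ S), f ⟨x, Algebra.subset_adjoin hx⟩ = g ⟨x, Algebra.subset_adjoin hx⟩) :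
    f = g := by
  ext ⟨x, hx⟩
  induction hx using Algebra.adjoin_induction with
  | mem y hy => exact hS y hy
  | algebraMap c => exact hc c
  | add y z hy hz h1 h2 =>
    have e : (⟨y + z, add_mem hy hz⟩ : Algebra.adjoin ℂ S) = ⟨y, hy⟩ + ⟨z, hz⟩ := rfl
    rw [e, map_add, map_add, h1, h2]
  | mul y z hy hz h1 h2 =>
    have e : (⟨y * z, mul_mem hy hz⟩ : Algebra.adjoin ℂ S) = ⟨y, hy⟩ * ⟨z, hz⟩ := rfl
    rw [e, map_mul, map_mul, h1, h2]

theorem PG_G5_R_le : PG_G5_R N ≤ (PG_G5_FC N).toSubalgebra := by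
  apply Algebra.adjoin_le
  rintro _ ⟨d, hd0, hd, rfl⟩
  exact PG_G5_jLaur_mem N hd

/-- the translates of the realisations lie in every subring containing the constants and the
translates of the generators -/
theorem PG_G5_precomp_psi_mem (γ : SL(2, ℤ)) (A : Subring (ℍ → ℂ))
    (hAc : ∀ c : ℂ, (fun _ => c) ∈ A) (hAj : ∀ d : ℕ, d ∣ N → jd d γ ∈ A) (y : PG_G5_R N) :
    precomp γ (PG_G5_psi N y) ∈ A := by
  have hle : Subring.closure
      (Set.range (fun c : ℂ => (fun _ : ℍ => c)) ∪ {f | ∃ d : ℕ, d ∣ N ∧ f = jd d 1})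
      ≤ A.comap (precomp γ) := by
    rw [Subring.closure_le]
    rintro f (⟨c, rfl⟩ | ⟨d, hd, rfl⟩)
    · exact hAc c
    · show precomp γ (jd d 1) ∈ A
      rw [precomp_jd]
      exact hAj d hd
  exact hle (PG_G5_psi_mem N y)

/-- an embedding constructed as in `EMB` is given on `PG_G5_R N` by expanding the translates of
the realisations -/
theorem PG_G5_emb_eq_on_R (γ : SL(2, ℤ)) {Ω : Type*} [Field Ω]
    (A : Subring (ℍ → ℂ)) (hAc : ∀ c : ℂ, (fun _ => c) ∈ A)
    (hAj : ∀ d : ℕ, d ∣ N → jd d γ ∈ A)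
    (E : A →+* Ω) (ι : PG_G5_FC N →+* Ω)
    (hιc : ∀ a : ℂ, ι (algebraMap ℂ _ a) = E ⟨fun _ => a, hAc a⟩)
    (hιj : ∀ (d : ℕ) [NeZero d] (hd : d ∣ N), ι (PG_G5_jF N d hd) = E ⟨jd d γ, hAj d hd⟩)
    (y : PG_G5_R N) :
    ι ⟨(y : LaurentSeries ℂ), PG_G5_R_le N y.2⟩ =
      E ⟨precomp γ (PG_G5_psi N y), PG_G5_precomp_psi_mem N γ A hAc hAj y⟩ := by
  let θ : PG_G5_R N →+* Ω :=
    E.comp (((precomp γ).comp (PG_G5_psi N)).codRestrict A
      (PG_G5_precomp_psi_mem N γ A hAc hAj))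
  let incl : PG_G5_R N →+* PG_G5_FC N :=
    { toFun := fun y => ⟨(y : LaurentSeries ℂ), PG_G5_R_le N y.2⟩
      map_one' := rfl
      map_mul' := fun _ _ => rfl
      map_zero' := rfl
      map_add' := fun _ _ => rfl }
  have key : ι.comp incl = θ := by
    apply PG_G5_adjoin_ringHom_ext
    · intro c
      show ι (incl (algebraMap ℂ _ c)) = θ (algebraMap ℂ _ c)
      have e1 : incl (algebraMap ℂ (PG_G5_R N) c) = algebraMap ℂ (PG_G5_FC N) c := rfl
      rw [e1, hιc]
      show _ = E _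
      congr 1
      apply Subtype.ext
      show _ = precomp γ (PG_G5_psi N (algebraMap ℂ _ c))
      rw [PG_G5_psi_const]
      rfl
    · rintro _ ⟨d, hd0, hd, rfl⟩
      show ι (PG_G5_jF N d hd) = θ _
      rw [hιj d hd]
      show _ = E _
      congr 1
      apply Subtype.ext
      show _ = precomp γ (PG_G5_psi N _)
      rw [PG_G5_psi_jLaur N d hd, precomp_jd]
  exact congrArg (fun f : PG_G5_R N →+* Ω => f y) key

/-- **The bridge.** If `x = r / s` and the functions `a'`, `b'` in the domain of the expansion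
`E` satisfy `(ψ r ∘ γ) * b' = (ψ s ∘ γ) * a'`, then `ι x * E b' = E a'`. -/
theorem PG_G5_emb_mul (γ : SL(2, ℤ)) {Ω : Type*} [Field Ω]
    (A : Subring (ℍ → ℂ)) (hAc : ∀ c : ℂ, (fun _ => c) ∈ A)
    (hAj : ∀ d : ℕ, d ∣ N → jd d γ ∈ A)
    (E : A →+* Ω) (hE : Function.Injective E) (ι : PG_G5_FC N →+* Ω)
    (hιc : ∀ a : ℂ, ι (algebraMap ℂ _ a) = E ⟨fun _ => a, hAc a⟩)
    (hιj : ∀ (d : ℕ) [NeZero d] (hd : d ∣ N), ι (PG_G5_jF N d hd) = E ⟨jd d γ, hAj d hd⟩)
    (x : PG_G5_FC N) (r s : PG_G5_R N) (hs : s ≠ 0)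
    (hrs : (x : LaurentSeries ℂ) * (s : LaurentSeries ℂ) = r) (a' b' : A)
    (h : ∀ z : ℍ, PG_G5_psi N r (γ • z) * (b' : ℍ → ℂ) z =
      PG_G5_psi N s (γ • z) * (a' : ℍ → ℂ) z) :
    ι x * E b' = E a' := by
  have hr := PG_G5_emb_eq_on_R N γ A hAc hAj E ι hιc hιj r
  have hs' := PG_G5_emb_eq_on_R N γ A hAc hAj E ι hιc hιj s
  set R' : A := ⟨precomp γ (PG_G5_psi N r), PG_G5_precomp_psi_mem N γ A hAc hAj r⟩ with hR'
  set S' : A := ⟨precomp γ (PG_G5_psi N s), PG_G5_precomp_psi_mem N γ A hAc hAj s⟩ with hS'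
  have hS0 : E S' ≠ 0 := by
    intro h0
    have h1 : S' = 0 := hE (by rw [h0, map_zero])
    have h2 : precomp γ (PG_G5_psi N s) = 0 := congrArg Subtype.val h1
    have h3 : PG_G5_psi N s = 0 := precomp_injective γ (by rw [h2, map_zero])
    exact hs (PG_G5_psi_injective N (by rw [h3, map_zero]))
  have hx : x * ⟨(s : LaurentSeries ℂ), PG_G5_R_le N s.2⟩ =
      ⟨(r : LaurentSeries ℂ), PG_G5_R_le N r.2⟩ := Subtype.ext hrs
  have h1 : ι x * E S' = E R' := by
    rw [← hs', ← hr, ← map_mul, hx]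
  have h2 : R' * b' = S' * a' := by
    apply Subtype.ext
    funext z
    exact h z
  have h3 : E R' * E b' = E S' * E a' := by
    rw [← map_mul, ← map_mul, h2]
  have h4 : E S' * (ι x * E b') = E S' * E a' := by
    rw [← h3, ← h1]
    ring
  exact mul_left_cancel₀ hS0 h4

end Bridge

/-! ### Orders -/

section Orders

open Fermat.Agent.S24_helper26_TAY

/-- the order of the Taylor series in the Cayley coordinate is the analytic order -/
theorem PG_G5_order_taylorAt (z : ℍ) {a : ℍ → ℂ} (ha : MDifferentiable 𝓘(ℂ) 𝓘(ℂ) a) :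
    (taylorAt z a).order = analyticOrderAt (a ∘ UpperHalfPlane.ofComplex) (z : ℂ) := by
  have hpull : AnalyticAt ℂ (pull z a) 0 := analyticAt_pull z ha
  have h1 : analyticOrderAt (pull z a) 0 =
      analyticOrderAt (a ∘ UpperHalfPlane.ofComplex) (z : ℂ) := by
    have h := analyticOrderAt_comp_of_deriv_ne_zero (f := a ∘ UpperHalfPlane.ofComplex)
      (g := chart z) (z₀ := 0) (analyticAt_chart z)
      (by rw [(hasDerivAt_chart z).deriv]; exact sub_conj_ne_zero z)
    rw [chart_zero] at h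
    exact h
  rw [← h1]
  apply ENat.eq_of_forall_natCast_le_iff
  intro n
  rw [natCast_le_analyticOrderAt_iff_iteratedDeriv_eq_zero hpull]
  constructor
  · intro h i hi
    have h2 := PowerSeries.coeff_of_lt_order i
      (lt_of_lt_of_le (by exact_mod_cast hi) h : (i : ℕ∞) < (taylorAt z a).order)
    rw [taylorAt_coeff] at h2
    exact (mul_eq_zero.mp h2).resolve_left
      (inv_ne_zero (Nat.cast_ne_zero.mpr (Nat.factorial_ne_zero i)))
  · intro h
    apply PowerSeries.nat_le_order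
    intro i hi
    rw [taylorAt_coeff, h i hi, mul_zero]

theorem PG_G5_order_laurentAt (z : ℍ) {a : ℍ → ℂ} (ha : MDifferentiable 𝓘(ℂ) 𝓘(ℂ) a)
    (ha0 : a ≠ 0) : (laurentAt z a).order = PG_ordAt a z := by
  have hP : taylorAt z a ≠ 0 := fun h => ha0 (taylorAt_eq_zero z ha h)
  have hfin : (taylorAt z a).order ≠ ⊤ := by
    rw [Ne, PowerSeries.order_eq_top]
    exact hP
  obtain ⟨n, hn⟩ := ENat.ne_top_iff_exists.mp hfin
  have h1 := Fermat.Agent.S24_helper10_LOCfin.order_ofPowerSeries hn.symm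
  unfold laurentAt PG_ordAt
  rw [h1, ← PG_G5_order_taylorAt z ha, ← hn]
  simp

end Orders

end Fermat.Agent.G_helper16_G5
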