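import Fermat.Agent.G_helper16_G5d
import Fermat.Agent.S24_helper6_A2Shapes

/-!
# Project G, piece G5 (part e): principal divisors, constants, quotients of forms
-/

set_option autoImplicit false
set_option linter.unusedSectionVars false
set_option linter.unusedVariables false
set_option linter.style.haveILetI false

noncomputable section

open UpperHalfPlane ModularForm CongruenceSubgroup AlgebraicCurve IntermediateField
open scoped MatrixGroups ModularForm Manifold
open Fermat.Agent.S20 Fermat.Agent.S24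
open Fermat.Agent.G_helper6_Defs

namespace Fermat.Agent.G_helper16_G5

/-! ### (hpd) -/

theorem PG_G5_finiteDimensional (N : ℕ) [NeZero N] :
    FiniteDimensional ℂ⟮PG_G5_jElt N⟯ (PG_G5_FC N) := (PG_G5_DEG N).1

theorem PG_G5_hpd (N : ℕ) [NeZero N] : HasPrincipalDivisors ℂ (PG_FC N) := by
  haveI := PG_G5_finiteDimensional N
  exact Fermat.Agent.S24_helper6_A2Shapes.hasPrincipalDivisors' (PG_G5_jElt N) (PG_G5_TR N)

/-! ### (an5) -/

/-- there is at least one place -/
theorem PG_G5_exists_place (N : ℕ) [NeZero N] : Nonempty (Place ℂ (PG_G5_FC N)) := by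
  haveI := PG_G5_finiteDimensional N
  obtain ⟨S, hS⟩ := Fermat.Agent.S24_helper6_A2Shapes.exists_zeros_finset (PG_G5_jElt N)
    (PG_G5_TR N) (0 : ℂ)
  have hsum := Fermat.Agent.S24_helper6_A2Shapes.hzeros (PG_G5_jElt N) (PG_G5_TR N) 0 S hS
  by_contra hcon
  have hS0 : S = ∅ := by
    apply Finset.eq_empty_of_forall_notMem
    intro v _
    exact hcon ⟨v⟩
  rw [hS0, Finset.sum_empty] at hsum
  have hpos : 0 < Module.finrank ℂ⟮PG_G5_jElt N⟯ (PG_G5_FC N) := Module.finrank_pos
  omega

theorem PG_G5_an5 (N : ℕ) [NeZero N] : PG_AN5 N := by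
  intro x hx0 hord
  haveI := PG_G5_finiteDimensional N
  have halg : Algebra.IsAlgebraic ℂ⟮PG_G5_jElt N⟯ (PG_G5_FC N) :=
    Algebra.IsAlgebraic.of_finite _ _
  obtain ⟨v₀⟩ := PG_G5_exists_place N
  have hxmem : x ∈ v₀.toValuationSubring :=
    Fermat.Agent.S24_helper6_A2.mem_of_ord_nonneg v₀ (by rw [hord v₀])
  obtain ⟨c, hc | hc⟩ :=
    Fermat.Agent.S24_helper15_A1.exists_const_sub_mem (PG_G5_jElt N) halg v₀ x hxmem
  · exfalso
    set y : PG_G5_FC N := x - algebraMap ℂ (PG_G5_FC N) c with hy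
    have hy0 : y ≠ 0 := by
      intro h0
      rw [h0, Place.ord_zero] at hc
      exact lt_irrefl _ hc
    have hnn : ∀ v : Place ℂ (PG_G5_FC N), 0 ≤ v.ord y := fun v =>
      Fermat.Agent.S24_helper6_A2.ord_nonneg_of_mem v
        (sub_mem (Fermat.Agent.S24_helper6_A2.mem_of_ord_nonneg v (by rw [hord v]))
          (v.algebraMap_mem' c))
    obtain ⟨D, hD, hdeg⟩ :=
      Fermat.Agent.S24_helper6_A2Shapes.hprin (PG_G5_jElt N) (PG_G5_TR N) y hy0
    have hdeg' : Divisor.degree D = D.sum fun v n => n * (v.deg : ℤ) := by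
      simp [Divisor.degree, Finsupp.liftAddHom_apply]
    have hv₀ : v₀ ∈ D.support := by
      rw [Finsupp.mem_support_iff, hD]
      exact hc.ne'
    have hterm : ∀ v ∈ D.support, 0 ≤ D v * (v.deg : ℤ) := fun v _ =>
      mul_nonneg (by rw [hD]; exact hnn v) (Int.natCast_nonneg _)
    have hpos : 0 < D v₀ * (v₀.deg : ℤ) := by
      rw [hD, Fermat.Agent.S24_helper6_A2Shapes.deg_eq_one (PG_G5_jElt N) v₀]
      simpa using hc
    have : 0 < D.sum fun v n => n * (v.deg : ℤ) := by
      rw [Finsupp.sum]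
      exact Finset.sum_pos' hterm ⟨v₀, hv₀, hpos⟩
    rw [← hdeg', hdeg] at this
    exact lt_irrefl _ this
  · exact ⟨c, hc⟩

end Fermat.Agent.G_helper16_G5
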