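import Fermat.Agent.G_helper16_G5e
import Fermat.Agent.S24_helper9_INVb
import Fermat.Agent.S28_helper25_HD

/-!
# Project G, piece G5 (part f): (an4) orders at the points of the upper half plane, and (an2)
every element of the function field is a quotient of two forms
-/

set_option autoImplicit false
set_option linter.unusedSectionVars false
set_option linter.unusedVariables false
set_option linter.style.haveILetI false

noncomputable section

open UpperHalfPlane ModularForm CongruenceSubgroup AlgebraicCurve IntermediateField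
open scoped MatrixGroups ModularForm Manifold
open Fermat.Agent.S20 Fermat.Agent.S24
open Fermat.Agent.G_helper6_Defs

namespace Fermat.Agent.G_helper16_G5

open Fermat.Agent.S24_helper17_EMB (precomp precomp_apply precomp_injective precomp_jd
  holoSubring laurentAtHom laurentAtHom_apply laurentAtHom_injective
  poleSubring laurentInfHom laurentInfHom_apply laurentInfHom_injective)
open Fermat.Agent.S24_helper16_B (IsConst placeOf exists_w_eq_mul_ord w)

/-! ### The embedding at a point -/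

section Point

variable (N : ℕ) [NeZero N]

theorem PG_G5_jd_mem_holo (γ : SL(2, ℤ)) (d : ℕ) (hd : d ∣ N) : jd d γ ∈ holoSubring :=
  Fermat.Agent.S24_helper27_J1.jd_mdiff d
    (Nat.pos_of_dvd_of_pos hd (Nat.pos_of_ne_zero (NeZero.ne N))) γ

theorem PG_G5_const_mem_holo (c : ℂ) : (fun _ : ℍ => c) ∈ holoSubring :=
  (mdifferentiable_const : MDifferentiable 𝓘(ℂ) 𝓘(ℂ) (fun _ : ℍ => c))

theorem PG_G5_laurentAtHom_const (z : ℍ) (c : ℂ) :
    laurentAtHom z ⟨fun _ => c, PG_G5_const_mem_holo c⟩ = HahnSeries.C c := by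
  rw [laurentAtHom_apply]
  show laurentAt z (fun _ => c) = HahnSeries.C c
  rw [laurentAt, Fermat.Agent.S24_helper26_TAY.taylorAt_const, HahnSeries.ofPowerSeries_C]

/-- the expansion at `z` of the translates by `γ` -/
def PG_G5_iotaAt (z : ℍ) (γ : SL(2, ℤ)) : PG_G5_FC N →+* LaurentSeries ℂ :=
  (PG_G5_MASTER_fin N z γ).choose

theorem PG_G5_iotaAt_const (z : ℍ) (γ : SL(2, ℤ)) (a : ℂ) :
    PG_G5_iotaAt N z γ (algebraMap ℂ _ a) = HahnSeries.C a :=
  (PG_G5_MASTER_fin N z γ).choose_spec.1 a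

theorem PG_G5_iotaAt_jF (z : ℍ) (γ : SL(2, ℤ)) (d : ℕ) [NeZero d] (hd : d ∣ N) :
    PG_G5_iotaAt N z γ (PG_G5_jF N d hd) = laurentAt z (jd d γ) :=
  (PG_G5_MASTER_fin N z γ).choose_spec.2 d hd

theorem PG_G5_iotaAt_isConst (z : ℍ) (γ : SL(2, ℤ)) :
    IsConst (RingHom.id ℂ) (PG_G5_iotaAt N z γ) := fun a => PG_G5_iotaAt_const N z γ a

/-- the order of `j - j(γ z)` at `z` is positive -/
theorem PG_G5_iotaAt_order_pos (z : ℍ) (γ : SL(2, ℤ)) :
    0 < (PG_G5_iotaAt N z γ (PG_G5_jElt N - algebraMap ℂ _ (jfun z))).order := by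
  have hg : MDifferentiable 𝓘(ℂ) 𝓘(ℂ) (fun w : ℍ => jfun w - jfun z) :=
    Fermat.Agent.S24_helper27_J1.jfun_mdiff.sub mdifferentiable_const
  have e1 : PG_G5_iotaAt N z γ (PG_G5_jElt N - algebraMap ℂ _ (jfun z)) =
      HahnSeries.ofPowerSeries ℤ ℂ (taylorAt z (fun w => jfun w - jfun z)) := by
    rw [map_sub, PG_G5_iotaAt_const]
    unfold PG_G5_jElt
    rw [PG_G5_iotaAt_jF, Fermat.Agent.S24_helper27_J1.jd_one,
      Fermat.Agent.S24_helper10_LOCfin.taylorAt_sub_const z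
        Fermat.Agent.S24_helper27_J1.jfun_mdiff, map_sub, HahnSeries.ofPowerSeries_C]
    rfl
  rw [e1]
  have hP : taylorAt z (fun w => jfun w - jfun z) ≠ 0 := by
    intro h0
    have h1 := Fermat.Agent.S24_helper26_TAY.taylorAt_eq_zero z hg h0
    exact Fermat.Agent.S24_helper10_J.jfun_not_const
      ⟨jfun z, fun w => sub_eq_zero.mp (congrFun h1 w)⟩
  have hfin : (taylorAt z (fun w => jfun w - jfun z)).order ≠ ⊤ := by
    rw [Ne, PowerSeries.order_eq_top]
    exact hP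
  obtain ⟨n, hn⟩ := ENat.ne_top_iff_exists.mp hfin
  have h1 := Fermat.Agent.S24_helper10_LOCfin.order_ofPowerSeries hn.symm
  rw [h1]
  have h0 : (taylorAt z (fun w => jfun w - jfun z)).order ≠ 0 := by
    rw [PowerSeries.order_ne_zero_iff_constCoeff_eq_zero,
      Fermat.Agent.S24_helper26_TAY.taylorAt_constantCoeff]
    simp
  rw [← hn] at h0
  have : n ≠ 0 := by exact_mod_cast h0
  exact_mod_cast Nat.pos_of_ne_zero this

theorem PG_G5_iotaAt_hne (z : ℍ) (γ : SL(2, ℤ)) :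
    ∃ f : PG_G5_FC N, w (PG_G5_iotaAt N z γ) f ≠ 0 :=
  ⟨_, (PG_G5_iotaAt_order_pos N z γ).ne'⟩

/-- the place at the image of `γ z` -/
def PG_G5_placeAt (z : ℍ) (γ : SL(2, ℤ)) : Place ℂ (PG_G5_FC N) :=
  placeOf (PG_G5_iotaAt N z γ) (PG_G5_iotaAt_isConst N z γ) (PG_G5_iotaAt_hne N z γ)

/-- **The bridge at a point.**  If `x` is realised by `(a, b)` and `a'`, `b'` are holomorphic
with `a' = u * (a ∘ γ)`, `b' = u * (b ∘ γ)` for some function `u`, then
`ι x * laurentAt z b' = laurentAt z a'`. -/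
theorem PG_G5_iotaAt_mul (z : ℍ) (γ : SL(2, ℤ)) (x : PG_G5_FC N) {a b : ℍ → ℂ} {Ma Mb : ℕ}
    (ha : HasPoleInf 1 Ma a) (hb : HasPoleInf 1 Mb b)
    (hx : (x : LaurentSeries ℂ) * laurentInf 1 b = laurentInf 1 a)
    {a' b' : ℍ → ℂ} (ha' : MDifferentiable 𝓘(ℂ) 𝓘(ℂ) a') (hb' : MDifferentiable 𝓘(ℂ) 𝓘(ℂ) b')
    (u : ℍ → ℂ) (hau : ∀ w, a' w = u w * a (γ • w)) (hbu : ∀ w, b' w = u w * b (γ • w)) :
    PG_G5_iotaAt N z γ x * laurentAt z b' = laurentAt z a' := by
  obtain ⟨r, s, hs, hrs⟩ := PG_G5_exists_frac N x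
  have hfun := PG_G5_psi_mul_eq N x r s hrs ha hb hx
  have h := PG_G5_emb_mul N γ holoSubring PG_G5_const_mem_holo (PG_G5_jd_mem_holo N γ)
    (laurentAtHom z) (laurentAtHom_injective z) (PG_G5_iotaAt N z γ)
    (fun c => by rw [PG_G5_iotaAt_const, PG_G5_laurentAtHom_const])
    (fun d _ hd => by rw [PG_G5_iotaAt_jF, laurentAtHom_apply])
    x r s hs hrs ⟨a', ha'⟩ ⟨b', hb'⟩ (fun w => by
      show PG_G5_psi N r (γ • w) * b' w = PG_G5_psi N s (γ • w) * a' w
      have h1 := congrFun hfun (γ • w)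
      simp only [Pi.mul_apply] at h1
      rw [hau, hbu]
      linear_combination u w * h1)
  exact h

end Point

/-! ### (an4) -/

section AN4

variable (N : ℕ) [NeZero N]

theorem PG_G5_laurentAt_ne_zero (z : ℍ) {a : ℍ → ℂ} (ha : MDifferentiable 𝓘(ℂ) 𝓘(ℂ) a)
    (ha0 : a ≠ 0) : laurentAt z a ≠ 0 := by
  intro h0
  apply ha0
  apply Fermat.Agent.S24_helper26_TAY.taylorAt_eq_zero z ha
  apply HahnSeries.ofPowerSeries_injective (Γ := ℤ)
  rw [map_zero]
  exact h0

theorem PG_G5_realizes_iff {N : ℕ} [NeZero N] (x : PG_FC N) {a b : ℍ → ℂ}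
    (ha : HasPoleInf 1 0 a) (hb : HasPoleInf 1 0 b) :
    PG_Realizes x a b ↔ (x : LaurentSeries ℂ) * laurentInf 1 b = laurentInf 1 a := by
  unfold PG_Realizes
  rw [PG_G5_qLaur_eq ha, PG_G5_qLaur_eq hb]

theorem PG_G5_an4 (N : ℕ) [NeZero N] : PG_AN4 N := by
  intro z
  obtain ⟨e, he, hw⟩ := exists_w_eq_mul_ord (PG_G5_iotaAt N z 1) (PG_G5_iotaAt_isConst N z 1)
    (PG_G5_iotaAt_hne N z 1)
  refine ⟨PG_G5_placeAt N z 1, e, he, ?_⟩
  intro x k a b hx0 ha hb hb0 hreal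
  have hgood := PG_G5_isGoodChar_one N
  have ha' := PG_G5_form_hasPoleInf hgood ha
  have hb' := PG_G5_form_hasPoleInf hgood hb
  have hx := (PG_G5_realizes_iff x ha' hb').mp hreal
  have hmul := PG_G5_iotaAt_mul N z 1 x ha' hb' hx ha.holo hb.holo (fun _ => 1)
    (fun w => by rw [one_smul, one_mul]) (fun w => by rw [one_smul, one_mul])
  have hιx : PG_G5_iotaAt N z 1 x ≠ 0 := (map_ne_zero _).mpr hx0
  have hLb : laurentAt z b ≠ 0 := PG_G5_laurentAt_ne_zero z hb.holo hb0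
  have ha0 : a ≠ 0 := by
    intro h0
    have h1 : laurentAt z a = 0 := by
      rw [h0]
      show laurentAt z (fun _ => (0 : ℂ)) = 0
      rw [laurentAt, Fermat.Agent.S24_helper26_TAY.taylorAt_const, map_zero, map_zero]
    rw [h1] at hmul
    exact (mul_ne_zero hιx hLb) hmul
  have hord := HahnSeries.order_mul hιx hLb
  rw [hmul, PG_G5_order_laurentAt z ha.holo ha0, PG_G5_order_laurentAt z hb.holo hb0,
    hw x hx0] at hord
  show PG_ordAt a z - PG_ordAt b z = (e : ℤ) * (PG_G5_placeAt N z 1).ord x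
  unfold PG_G5_placeAt
  linarith

end AN4

/-! ### (an2) -/

section AN2

variable (N : ℕ) [NeZero N]

/-- modular forms on `Γ₀(N)` are forms with trivial character in the sense of G0 -/
theorem PG_G5_isForm_of_isMF {k : ℤ} {a : ℍ → ℂ} (ha : IsMF N k a) : PG_IsForm N k 1 a := by
  refine ⟨ha.holo, fun γ z => ?_, fun σ => ha.bdd σ⟩
  have h1 := congrFun (ha.slash_eq γ.2) z
  rw [ModularForm.SL_slash_apply] at h1
  have hden : denom ((γ : SL(2, ℤ)) : GL (Fin 2) ℝ) z ≠ 0 := denom_ne_zero _ z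
  rw [MonoidHom.one_apply, Units.val_one, one_mul, ← h1, mul_comm, mul_assoc,
    ← zpow_add₀ hden]
  simp

theorem PG_G5_an2 (N : ℕ) [NeZero N] : PG_AN2 N := by
  intro x
  obtain ⟨r, s, hs, hrs⟩ := PG_G5_exists_frac N x
  obtain ⟨Mr, Hr, hHr, hr⟩ := Fermat.Agent.S24_helper9_INVb.INVb_cls_of_mem N
    (fun d hd => Fermat.Agent.S28_HD.isMF_Hd N d hd) _ (PG_G5_psi_mem N r)
  obtain ⟨Ms, Hs, hHs, hsq⟩ := Fermat.Agent.S24_helper9_INVb.INVb_cls_of_mem N
    (fun d hd => Fermat.Agent.S28_HD.isMF_Hd N d hd) _ (PG_G5_psi_mem N s)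
  have hΔ : ∀ M : ℕ, IsMF N (12 * (M : ℤ)) (ModularForm.discriminant ^ M) :=
    Fermat.Agent.S24_helper9_INVb.INVb_isMF_disc_pow N
  have hA : IsMF N (12 * (Mr : ℤ) + 12 * (Ms : ℤ)) (Hr * ModularForm.discriminant ^ Ms) :=
    hHr.mul (hΔ Ms)
  have hB : IsMF N (12 * (Mr : ℤ) + 12 * (Ms : ℤ)) (Hs * ModularForm.discriminant ^ Mr) :=
    (hHs.mul (hΔ Mr)).cast (by ring)
  have hD : IsMF N (12 * ((Mr + Ms : ℕ) : ℤ)) (ModularForm.discriminant ^ (Mr + Ms)) :=
    hΔ (Mr + Ms)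
  have hgood := PG_G5_isGoodChar_one N
  have hfA := PG_G5_isForm_of_isMF N hA
  have hfB := PG_G5_isForm_of_isMF N hB
  have hfD := PG_G5_isForm_of_isMF N hD
  have hpA := PG_G5_form_hasPoleInf hgood hfA
  have hpB := PG_G5_form_hasPoleInf hgood hfB
  have hpD := PG_G5_form_hasPoleInf hgood hfD
  obtain ⟨Pr, hPr⟩ := PG_G5_psi_pole N r
  obtain ⟨Ps, hPs⟩ := PG_G5_psi_pole N s
  have hΔ0 : ∀ z : ℍ, ModularForm.discriminant z ≠ 0 := ModularForm.discriminant_ne_zero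
  have eA : Hr * ModularForm.discriminant ^ Ms =
      PG_G5_psi N r * ModularForm.discriminant ^ (Mr + Ms) := by
    funext z
    simp only [Pi.mul_apply, Pi.pow_apply]
    rw [hr z, pow_add]
    have := hΔ0 z
    field_simp
  have eB : Hs * ModularForm.discriminant ^ Mr =
      PG_G5_psi N s * ModularForm.discriminant ^ (Mr + Ms) := by
    funext z
    simp only [Pi.mul_apply, Pi.pow_apply]
    rw [hsq z, pow_add]
    have := hΔ0 z
    field_simp
  refine ⟨12 * (Mr : ℤ) + 12 * (Ms : ℤ), _, _, hfA, hfB, ?_, ?_⟩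
  · -- `b ≠ 0`
    intro h0
    have hs0 : PG_G5_psi N s = 0 := by
      funext z
      have h1 := congrFun h0 z
      rw [eB] at h1
      simp only [Pi.mul_apply, Pi.pow_apply, Pi.zero_apply] at h1
      exact (mul_eq_zero.mp h1).resolve_right (pow_ne_zero _ (hΔ0 z))
    exact hs (PG_G5_psi_injective N (by rw [hs0, map_zero]))
  · rw [PG_G5_realizes_iff x hpA hpB, eA, eB,
      Fermat.Agent.S24_helper21_LINF.laurentInf_mul 1 hPr hpD,
      Fermat.Agent.S24_helper21_LINF.laurentInf_mul 1 hPs hpD,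
      PG_G5_psi_laurentInf, PG_G5_psi_laurentInf, ← mul_assoc, hrs]

end AN2

end Fermat.Agent.G_helper16_G5
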