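import Mathlib

set_option autoImplicit false
set_option linter.unusedSectionVars false

open CongruenceSubgroup UpperHalfPlane Filter Topology
open scoped MatrixGroups Manifold

namespace Fermat.Agent.S21_helper22_MM

open Matrix.SpecialLinearGroup in
theorem mdiff_smul_SL (δ : SL(2, ℤ)) :
    MDifferentiable 𝓘(ℂ) 𝓘(ℂ) (fun τ : ℍ => δ • τ) := by
  have : 0 < (mapGL ℝ δ).det.val := by simp
  exact mdifferentiable_smul this

theorem tendsto_T_pow_smul (n : ℤ) :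
    Tendsto (fun w : ℍ => ModularGroup.T ^ n • w) atImInfty atImInfty := by
  rw [atImInfty, tendsto_comap_iff]
  have : (UpperHalfPlane.im ∘ fun w : ℍ => ModularGroup.T ^ n • w) = UpperHalfPlane.im := by
    funext w
    exact ModularGroup.im_T_zpow_smul w n
  rw [this]
  exact tendsto_comap

theorem T_pow_mem_Gamma (N : ℕ) : ModularGroup.T ^ (N : ℤ) ∈ Gamma N := by
  have := ModularGroup_T_pow_mem_Gamma (N : ℤ) (N : ℤ) dvd_rfl
  simpa using this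

theorem Gamma_le_Gamma0 (N : ℕ) : Gamma N ≤ Gamma0 N := by
  intro γ hγ
  rw [Gamma_mem] at hγ
  rw [Gamma0_mem]
  exact hγ.2.2.1

theorem conj_T_pow_mem (N : ℕ) (δ : SL(2, ℤ)) :
    δ * ModularGroup.T ^ (N : ℤ) * δ⁻¹ ∈ Gamma0 N :=
  Gamma_le_Gamma0 N ((Gamma_normal N).conj_mem _ (T_pow_mem_Gamma N) δ)

section main

variable (N : ℕ) [NeZero N] (Ω : ℍ → ℂ)

/-- all translates are `N`-periodic -/
theorem translate_periodic
    (hper : ∀ γ ∈ Gamma0 N, ∃ c : ℂ, c.re = 0 ∧ ∀ z : ℍ, Ω (γ • z) = Ω z + c)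
    (hcusp : ∀ δ : SL(2, ℤ), ∃ L : ℂ, Tendsto (fun w : ℍ => Ω (δ • w)) atImInfty (𝓝 L))
    (δ : SL(2, ℤ)) (z : ℍ) : Ω (δ • (ModularGroup.T ^ (N : ℤ) • z)) = Ω (δ • z) := by
  obtain ⟨c, -, hc⟩ := hper _ (conj_T_pow_mem N δ)
  have h1 : ∀ w : ℍ, Ω (δ • (ModularGroup.T ^ (N : ℤ) • w)) = Ω (δ • w) + c := by
    intro w
    rw [← hc (δ • w), ← mul_smul, ← mul_smul]
    congr 2
    group
  obtain ⟨L, hL⟩ := hcusp δ
  have h2 : Tendsto (fun w : ℍ => Ω (δ • (ModularGroup.T ^ (N : ℤ) • w))) atImInfty (𝓝 L) :=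
    hL.comp (tendsto_T_pow_smul (N : ℤ))
  have h3 : Tendsto (fun w : ℍ => Ω (δ • (ModularGroup.T ^ (N : ℤ) • w))) atImInfty
      (𝓝 (L + c)) := by
    simp only [h1]
    exact hL.add_const c
  have h4 : L = L + c := tendsto_nhds_unique h2 h3
  have hc0 : c = 0 := by
    have := congrArg (fun x => x - L) h4
    simpa using this.symm
  rw [h1 z, hc0, add_zero]

/-- the translate of `exp Ω` by `δ`, as a function on `ℂ` -/
noncomputable def fC (δ : SL(2, ℤ)) : ℂ → ℂ := fun x => Complex.exp (Ω (δ • ofComplex x))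

theorem fC_periodic
    (hper : ∀ γ ∈ Gamma0 N, ∃ c : ℂ, c.re = 0 ∧ ∀ z : ℍ, Ω (γ • z) = Ω z + c)
    (hcusp : ∀ δ : SL(2, ℤ), ∃ L : ℂ, Tendsto (fun w : ℍ => Ω (δ • w)) atImInfty (𝓝 L))
    (δ : SL(2, ℤ)) : Function.Periodic (fC Ω δ) ((N : ℝ) : ℂ) := by
  intro w
  unfold fC
  by_cases hw : 0 < w.im
  · have hw' : 0 < (w + ((N : ℝ) : ℂ)).im := by simpa using hw
    have h1 : ofComplex (w + ((N : ℝ) : ℂ)) = ModularGroup.T ^ (N : ℤ) • ofComplex w := by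
      apply UpperHalfPlane.ext
      rw [ModularGroup.coe_T_zpow_smul_eq, ofComplex_apply_of_im_pos hw',
        ofComplex_apply_of_im_pos hw]
      simp
    rw [h1, translate_periodic N Ω hper hcusp]
  · have hw' : (w + ((N : ℝ) : ℂ)).im ≤ 0 := by simpa using not_lt.mp hw
    rw [ofComplex_apply_of_im_nonpos hw', ofComplex_apply_of_im_nonpos (not_lt.mp hw)]

theorem fC_differentiableAt
    (hΩ : ∀ τ : ℍ, DifferentiableAt ℂ (Ω ∘ ofComplex) (τ : ℂ))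
    (δ : SL(2, ℤ)) {x : ℂ} (hx : 0 < x.im) : DifferentiableAt ℂ (fC Ω δ) x := by
  have h1 : MDifferentiable 𝓘(ℂ) 𝓘(ℂ) Ω := fun τ => mdifferentiableAt_iff.mpr (hΩ τ)
  have h2 : MDifferentiable 𝓘(ℂ) 𝓘(ℂ) (fun τ : ℍ => Ω (δ • τ)) := h1.comp (mdiff_smul_SL δ)
  have h3 := mdifferentiableAt_iff.mp (h2 ⟨x, hx⟩)
  exact h3.cexp

theorem fC_tendsto
    (hcusp : ∀ δ : SL(2, ℤ), ∃ L : ℂ, Tendsto (fun w : ℍ => Ω (δ • w)) atImInfty (𝓝 L))
    (δ : SL(2, ℤ)) : ∃ L : ℂ, Tendsto (fC Ω δ) (comap Complex.im atTop) (𝓝 L) := by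
  obtain ⟨L, hL⟩ := hcusp δ
  refine ⟨Complex.exp L, ?_⟩
  have h1 : Tendsto (fun x : ℂ => Ω (δ • ofComplex x)) (comap Complex.im atTop) (𝓝 L) :=
    hL.comp tendsto_comap_im_ofComplex
  exact (Complex.continuous_exp.tendsto L).comp h1

theorem fC_bounded
    (hcusp : ∀ δ : SL(2, ℤ), ∃ L : ℂ, Tendsto (fun w : ℍ => Ω (δ • w)) atImInfty (𝓝 L))
    (δ : SL(2, ℤ)) : BoundedAtFilter (comap Complex.im atTop) (fC Ω δ) := by
  obtain ⟨L, hL⟩ := fC_tendsto Ω hcusp δ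
  exact hL.isBigO_one ℝ

/-- the cusp function of the translate -/
noncomputable def cF (δ : SL(2, ℤ)) : ℂ → ℂ := Function.Periodic.cuspFunction N (fC Ω δ)

theorem Npos : (0 : ℝ) < (N : ℝ) := by
  have := NeZero.pos N
  exact_mod_cast this

theorem cF_qParam
    (hper : ∀ γ ∈ Gamma0 N, ∃ c : ℂ, c.re = 0 ∧ ∀ z : ℍ, Ω (γ • z) = Ω z + c)
    (hcusp : ∀ δ : SL(2, ℤ), ∃ L : ℂ, Tendsto (fun w : ℍ => Ω (δ • w)) atImInfty (𝓝 L))
    (δ : SL(2, ℤ)) (z : ℍ) :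
    cF N Ω δ (Function.Periodic.qParam N z) = Complex.exp (Ω (δ • z)) := by
  unfold cF
  rw [Function.Periodic.eq_cuspFunction (Npos N).ne' (fC_periodic N Ω hper hcusp δ)]
  unfold fC
  rw [ofComplex_apply]

theorem cF_differentiableOn
    (hΩ : ∀ τ : ℍ, DifferentiableAt ℂ (Ω ∘ ofComplex) (τ : ℂ))
    (hper : ∀ γ ∈ Gamma0 N, ∃ c : ℂ, c.re = 0 ∧ ∀ z : ℍ, Ω (γ • z) = Ω z + c)
    (hcusp : ∀ δ : SL(2, ℤ), ∃ L : ℂ, Tendsto (fun w : ℍ => Ω (δ • w)) atImInfty (𝓝 L))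
    (δ : SL(2, ℤ)) : DifferentiableOn ℂ (cF N Ω δ) (Metric.ball 0 1) := by
  intro w hw
  apply DifferentiableAt.differentiableWithinAt
  have hw1 : ‖w‖ < 1 := by simpa using hw
  rcases eq_or_ne w 0 with rfl | hw0
  · refine Function.Periodic.differentiableAt_cuspFunction_zero (Npos N)
      (fC_periodic N Ω hper hcusp δ) ?_ (fC_bounded Ω hcusp δ)
    have : {x : ℂ | 0 < x.im} ∈ comap Complex.im atTop := by
      refine mem_comap.mpr ⟨Set.Ioi 0, Ioi_mem_atTop 0, fun x hx => hx⟩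
    filter_upwards [this] with x hx
    exact fC_differentiableAt Ω hΩ δ hx
  · have him := Function.Periodic.im_invQParam_pos_of_norm_lt_one (Npos N) hw1 hw0
    have := Function.Periodic.differentiableAt_cuspFunction (Npos N).ne'
      (fC_periodic N Ω hper hcusp δ) (fC_differentiableAt Ω hΩ δ him)
    rw [Function.Periodic.qParam_right_inv (Npos N).ne' hw0] at this
    exact this

/-- real parts only depend on the coset -/
theorem re_eq_of_mk_eq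
    (hper : ∀ γ ∈ Gamma0 N, ∃ c : ℂ, c.re = 0 ∧ ∀ z : ℍ, Ω (γ • z) = Ω z + c)
    {h h' : SL(2, ℤ)} (hh : (h : SL(2, ℤ) ⧸ Gamma0 N) = h') (z : ℍ) :
    (Ω (h⁻¹ • z)).re = (Ω (h'⁻¹ • z)).re := by
  have hmem : h⁻¹ * h' ∈ Gamma0 N := QuotientGroup.eq.mp hh
  obtain ⟨c, hc0, hc⟩ := hper _ hmem
  have h1 : h⁻¹ • z = (h⁻¹ * h') • (h'⁻¹ • z) := by
    rw [← mul_smul]
    congr 1
    group
  rw [h1, hc, Complex.add_re, hc0, add_zero]

noncomputable instance instFintypeQuot : Fintype (SL(2, ℤ) ⧸ Gamma0 N) := Fintype.ofFinite _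

/-- the vector of all cusp functions -/
noncomputable def Phi : ℂ → EuclideanSpace ℂ (SL(2, ℤ) ⧸ Gamma0 N) :=
  fun w => WithLp.toLp 2 (fun q => cF N Ω (q.out)⁻¹ w)

theorem Phi_apply (w : ℂ) (q : SL(2, ℤ) ⧸ Gamma0 N) : Phi N Ω w q = cF N Ω (q.out)⁻¹ w := rfl

theorem Phi_differentiableOn
    (hΩ : ∀ τ : ℍ, DifferentiableAt ℂ (Ω ∘ ofComplex) (τ : ℂ))
    (hper : ∀ γ ∈ Gamma0 N, ∃ c : ℂ, c.re = 0 ∧ ∀ z : ℍ, Ω (γ • z) = Ω z + c)
    (hcusp : ∀ δ : SL(2, ℤ), ∃ L : ℂ, Tendsto (fun w : ℍ => Ω (δ • w)) atImInfty (𝓝 L)) :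
    DifferentiableOn ℂ (Phi N Ω) (Metric.ball 0 1) := by
  rw [differentiableOn_euclidean]
  intro q
  exact cF_differentiableOn N Ω hΩ hper hcusp _

theorem norm_sq_Phi_qParam
    (hper : ∀ γ ∈ Gamma0 N, ∃ c : ℂ, c.re = 0 ∧ ∀ z : ℍ, Ω (γ • z) = Ω z + c)
    (hcusp : ∀ δ : SL(2, ℤ), ∃ L : ℂ, Tendsto (fun w : ℍ => Ω (δ • w)) atImInfty (𝓝 L))
    (z : ℍ) :
    ‖Phi N Ω (Function.Periodic.qParam N z)‖ ^ 2 =
      ∑ q : SL(2, ℤ) ⧸ Gamma0 N, Real.exp ((Ω ((q.out)⁻¹ • z)).re) ^ 2 := by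
  rw [EuclideanSpace.norm_sq_eq]
  refine Finset.sum_congr rfl fun q _ => ?_
  rw [Phi_apply, cF_qParam N Ω hper hcusp, Complex.norm_exp]

theorem norm_Phi_smul
    (hper : ∀ γ ∈ Gamma0 N, ∃ c : ℂ, c.re = 0 ∧ ∀ z : ℍ, Ω (γ • z) = Ω z + c)
    (hcusp : ∀ δ : SL(2, ℤ), ∃ L : ℂ, Tendsto (fun w : ℍ => Ω (δ • w)) atImInfty (𝓝 L))
    (g : SL(2, ℤ)) (z : ℍ) :
    ‖Phi N Ω (Function.Periodic.qParam N (g • z : ℍ))‖ =
      ‖Phi N Ω (Function.Periodic.qParam N z)‖ := by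
  have h1 : ‖Phi N Ω (Function.Periodic.qParam N (g • z : ℍ))‖ ^ 2 =
      ‖Phi N Ω (Function.Periodic.qParam N z)‖ ^ 2 := by
    rw [norm_sq_Phi_qParam N Ω hper hcusp, norm_sq_Phi_qParam N Ω hper hcusp]
    have h2 : ∀ q : SL(2, ℤ) ⧸ Gamma0 N, (Ω ((q.out)⁻¹ • (g • z))).re =
        (Ω (((g⁻¹ • q).out)⁻¹ • z)).re := by
      intro q
      have h3 : ((g⁻¹ * q.out : SL(2, ℤ)) : SL(2, ℤ) ⧸ Gamma0 N) = ((g⁻¹ • q).out : SL(2, ℤ)) := by
        rw [QuotientGroup.out_eq']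
        conv_rhs => rw [← QuotientGroup.out_eq' q]
        rfl
      have h4 := re_eq_of_mk_eq N Ω hper h3 z
      rw [← h4]
      congr 2
      rw [← mul_smul]
      congr 1
      group
    simp only [h2]
    exact Fintype.sum_equiv (MulAction.toPerm g⁻¹) _ _ fun q => rfl
  exact (sq_eq_sq₀ (norm_nonneg _) (norm_nonneg _)).mp h1

/-- the vector of cusp functions is constant on the unit disc -/
theorem Phi_const
    (hΩ : ∀ τ : ℍ, DifferentiableAt ℂ (Ω ∘ ofComplex) (τ : ℂ))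
    (hper : ∀ γ ∈ Gamma0 N, ∃ c : ℂ, c.re = 0 ∧ ∀ z : ℍ, Ω (γ • z) = Ω z + c)
    (hcusp : ∀ δ : SL(2, ℤ), ∃ L : ℂ, Tendsto (fun w : ℍ => Ω (δ • w)) atImInfty (𝓝 L)) :
    Set.EqOn (Phi N Ω) (Function.const ℂ (Phi N Ω 0)) (Metric.ball 0 1) := by
  have hN := Npos N
  refine Complex.eq_const_of_exists_le (r := Real.exp (-Real.pi / N))
    (Phi_differentiableOn N Ω hΩ hper hcusp) (Real.exp_nonneg _) ?_ ?_
  · rw [Real.exp_lt_one_iff]
    exact div_neg_of_neg_of_pos (neg_lt_zero.mpr Real.pi_pos) hN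
  · intro w hw
    have hw1 : ‖w‖ < 1 := by simpa using hw
    rcases eq_or_ne w 0 with rfl | hw0
    · exact ⟨0, by simp [Real.exp_nonneg], le_rfl⟩
    · have him := Function.Periodic.im_invQParam_pos_of_norm_lt_one hN hw1 hw0
      set z : ℍ := ⟨Function.Periodic.invQParam N w, him⟩ with hz
      obtain ⟨γ, hγ⟩ := ModularGroup.exists_one_half_le_im_smul z
      refine ⟨Function.Periodic.qParam N (γ • z : ℍ), ?_, ?_⟩
      · rw [Metric.mem_closedBall, dist_zero_right, Function.Periodic.norm_qParam,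
          Real.exp_le_exp]
        have h1 : (1 : ℝ) / 2 ≤ ((γ • z : ℍ) : ℂ).im := hγ
        rw [div_le_div_iff_of_pos_right hN]
        nlinarith [Real.pi_pos]
      · rw [norm_Phi_smul N Ω hper hcusp γ z]
        have h2 : Function.Periodic.qParam N (z : ℂ) = w :=
          Function.Periodic.qParam_right_inv hN.ne' hw0
        rw [h2]

end main

/-- MM: a holomorphic function on `ℍ` whose real part is `Γ₀(N)`-invariant (the function itself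
changing by purely imaginary constants) and which has limits at all cusps is constant. -/
theorem const_of_re_invariant (N : ℕ) [NeZero N] (Ω : ℍ → ℂ)
    (hΩ : ∀ τ : ℍ, DifferentiableAt ℂ (Ω ∘ ofComplex) (τ : ℂ))
    (hper : ∀ γ ∈ Gamma0 N, ∃ c : ℂ, c.re = 0 ∧ ∀ z : ℍ, Ω (γ • z) = Ω z + c)
    (hcusp : ∀ δ : SL(2, ℤ), ∃ L : ℂ, Tendsto (fun w : ℍ => Ω (δ • w)) atImInfty (𝓝 L)) :
    ∃ c : ℂ, ∀ z : ℍ, Ω z = c := by
  have hN := Npos N
  -- `exp (Ω (δ₀ • z))` is constant for `δ₀` the representative of the trivial coset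
  set q₀ : SL(2, ℤ) ⧸ Gamma0 N := ((1 : SL(2, ℤ)) : SL(2, ℤ) ⧸ Gamma0 N) with hq₀
  set δ₀ : SL(2, ℤ) := (q₀.out)⁻¹ with hδ₀
  have hδ₀mem : δ₀ ∈ Gamma0 N := by
    have h1 : ((q₀.out : SL(2, ℤ)) : SL(2, ℤ) ⧸ Gamma0 N) = ((1 : SL(2, ℤ)) : _) :=
      QuotientGroup.out_eq' q₀
    have h2 := QuotientGroup.eq.mp h1
    simpa [hδ₀] using h2
  obtain ⟨c₀, -, hc₀⟩ := hper δ₀ hδ₀mem
  have hconst := Phi_const N Ω hΩ hper hcusp
  have h1 : ∀ z : ℍ, Complex.exp (Ω z) = cF N Ω δ₀ 0 * Complex.exp (-c₀) := by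
    intro z
    have hz : Function.Periodic.qParam N (z : ℂ) ∈ Metric.ball (0 : ℂ) 1 := by
      rw [Metric.mem_ball, dist_zero_right]
      exact Function.Periodic.norm_qParam_lt_one hN z.im_pos
    have h2 := congrFun (congrArg (fun v : EuclideanSpace ℂ (SL(2, ℤ) ⧸ Gamma0 N) => v.ofLp)
      (hconst hz)) q₀
    have h3 : cF N Ω δ₀ (Function.Periodic.qParam N z) = cF N Ω δ₀ 0 := h2
    rw [cF_qParam N Ω hper hcusp, hc₀, Complex.exp_add] at h3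
    rw [← h3, mul_assoc, ← Complex.exp_add, add_neg_cancel, Complex.exp_zero, mul_one]
  -- hence `Ω ∘ ofComplex` has zero derivative on the upper half plane
  set C : ℂ := cF N Ω δ₀ 0 * Complex.exp (-c₀) with hC
  have hopen : IsOpen {x : ℂ | 0 < x.im} := isOpen_upperHalfPlaneSet
  have hdiff : DifferentiableOn ℂ (Ω ∘ ofComplex) {x : ℂ | 0 < x.im} := fun x hx =>
    (hΩ ⟨x, hx⟩).differentiableWithinAt
  have hderiv : Set.EqOn (deriv (Ω ∘ ofComplex)) 0 {x : ℂ | 0 < x.im} := by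
    intro x hx
    have hd : DifferentiableAt ℂ (Ω ∘ ofComplex) x := hΩ ⟨x, hx⟩
    have h2 : HasDerivAt (fun y => Complex.exp ((Ω ∘ ofComplex) y))
        (Complex.exp ((Ω ∘ ofComplex) x) * deriv (Ω ∘ ofComplex) x) x := hd.hasDerivAt.cexp
    have h3 : (fun y => Complex.exp ((Ω ∘ ofComplex) y)) =ᶠ[𝓝 x] fun _ => C := by
      filter_upwards [hopen.mem_nhds hx] with y hy
      exact h1 (ofComplex y)
    have h4 : HasDerivAt (fun y => Complex.exp ((Ω ∘ ofComplex) y)) 0 x :=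
      (hasDerivAt_const x C).congr_of_eventuallyEq h3
    have h5 := h2.unique h4
    rcases mul_eq_zero.mp h5 with h | h
    · exact absurd h (Complex.exp_ne_zero _)
    · exact h
  have hconn : IsPreconnected {x : ℂ | 0 < x.im} :=
    (convex_halfSpace_im_gt 0).isPreconnected
  refine ⟨Ω UpperHalfPlane.I, fun z => ?_⟩
  have h6 := hopen.is_const_of_deriv_eq_zero hconn hdiff hderiv
    (show (z : ℂ) ∈ {x : ℂ | 0 < x.im} from z.im_pos)
    (show ((UpperHalfPlane.I : ℍ) : ℂ) ∈ {x : ℂ | 0 < x.im} from UpperHalfPlane.I.im_pos)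
  rw [Function.comp_apply, Function.comp_apply, ofComplex_apply, ofComplex_apply] at h6
  exact h6

end Fermat.Agent.S21_helper22_MM
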