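import Fermat.Agent.S24_helper19_Wire

set_option autoImplicit false

open UpperHalfPlane ModularForm CongruenceSubgroup AlgebraicCurve IntermediateField
open KaehlerDifferential
open scoped MatrixGroups ModularForm Manifold
open Fermat.Agent.S20 Fermat.Agent.S24 Fermat.Agent.S24_helper19_Wire

namespace Fermat.Agent.S24_helper19_Final

section abstract

variable {K F : Type*} [Field K] [Field F] [Algebra K F]

theorem finrank_congr_field {E₁ E₂ : IntermediateField K F} (h : E₁ = E₂) :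
    Module.finrank E₁ F = Module.finrank E₂ F := by
  subst h; rfl

theorem finiteDimensional_congr_field {E₁ E₂ : IntermediateField K F} (h : E₁ = E₂)
    (h1 : FiniteDimensional E₁ F) : FiniteDimensional E₂ F := by
  subst h; exact h1

theorem adjoin_sub_const (x : F) (c : K) : K⟮x - algebraMap K F c⟯ = K⟮x⟯ := by
  apply le_antisymm
  · rw [adjoin_simple_le_iff]
    exact sub_mem (mem_adjoin_simple_self K x) (IntermediateField.algebraMap_mem _ c)
  · rw [adjoin_simple_le_iff]
    have h1 : x = (x - algebraMap K F c) + algebraMap K F c := by ring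
    have h2 : (x - algebraMap K F c) + algebraMap K F c ∈ K⟮x - algebraMap K F c⟯ :=
      add_mem (mem_adjoin_simple_self K _) (IntermediateField.algebraMap_mem _ c)
    rwa [← h1] at h2

theorem adjoin_inv (x : F) : K⟮x⁻¹⟯ = K⟮x⟯ := by
  apply le_antisymm
  · rw [adjoin_simple_le_iff]
    exact inv_mem (mem_adjoin_simple_self K x)
  · rw [adjoin_simple_le_iff]
    have h2 : (x⁻¹)⁻¹ ∈ K⟮x⁻¹⟯ := inv_mem (mem_adjoin_simple_self K _)
    rwa [inv_inv] at h2

theorem transcendental_sub_const {x : F} (hx : Transcendental K x) (c : K) :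
    Transcendental K (x - algebraMap K F c) := by
  intro h
  apply hx
  have h1 : x = (x - algebraMap K F c) + algebraMap K F c := by ring
  rw [h1]
  exact h.add (isAlgebraic_algebraMap c)

theorem transcendental_inv {x : F} (hx : Transcendental K x) : Transcendental K x⁻¹ := by
  intro h
  apply hx
  have h1 : x = (x⁻¹)⁻¹ := (inv_inv x).symm
  rw [h1]
  exact h.inv

theorem D_sub_const (x : F) (c : K) : D K F (x - algebraMap K F c) = D K F x := by
  rw [map_sub, Derivation.map_algebraMap, sub_zero]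

variable [IsAlgClosed K] [CharZero K]

/-- local count at a finite point -/
theorem hfin_abs (j : F) (hj : Transcendental K j) [FiniteDimensional K⟮j⟯ F] (j₀ : K)
    {L : Type*} [Field L] (φ₀ : K →+* L)
    {I : Type*} [Fintype I] (hI : Fintype.card I = Module.finrank K⟮j⟯ F)
    (ι : I → F →+* LaurentSeries L)
    (hιK : ∀ i a, ι i (algebraMap K F a) = HahnSeries.C (φ₀ a))
    (hιinj : Function.Injective ι)
    (hιj : ∀ i i', ι i j = ι i' j)
    (e₀ : ℕ) (he₀ : 0 < e₀) (hord : ∀ i, (ι i (j - algebraMap K F j₀)).order = (e₀ : ℤ))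
    (ζ : L) (hζ : IsPrimitiveRoot ζ e₀)
    (π : Equiv.Perm I)
    (hπ : ∀ i f (n : ℤ), (ι (π i) f).coeff n = ζ ^ n * (ι i f).coeff n) :
    ∃ S : Finset (Place K F),
      (∀ v, v ∈ S ↔ 0 < v.ord (j - algebraMap K F j₀)) ∧
      S.card = Nat.card (MulAction.orbitRel.Quotient (Subgroup.zpowers π) I) ∧
      ∀ v ∈ S, v.ordDifferential (D K F j) = v.ord (j - algebraMap K F j₀) - 1 := by
  have ht := transcendental_sub_const hj j₀
  have hfd : FiniteDimensional K⟮j - algebraMap K F j₀⟯ F :=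
    finiteDimensional_congr_field (adjoin_sub_const j j₀).symm inferInstance
  have hI' : Fintype.card I = Module.finrank K⟮j - algebraMap K F j₀⟯ F := by
    rw [finrank_congr_field (adjoin_sub_const j j₀), hI]
  have hιt : ∀ q q', ι q (j - algebraMap K F j₀) = ι q' (j - algebraMap K F j₀) := by
    intro q q'
    rw [map_sub, map_sub, hιj q q', hιK, hιK]
  obtain ⟨S, o, hS, ho⟩ := B (j - algebraMap K F j₀) ht φ₀ hI' ι hιK hιinj hιt e₀ he₀ hord
    ζ hζ π hπ
  have halg : Algebra.IsAlgebraic K⟮j⟯ F := Algebra.IsAlgebraic.of_finite _ _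
  refine ⟨S, hS, ?_, ?_⟩
  · rw [← Nat.card_eq_of_bijective o ho]
    simp
  · intro v hv
    have h1 := A4loc (j - algebraMap K F j₀) ht φ₀ hI' ι hιK hιinj hιt
      (fun i => by rw [hord i]; exact_mod_cast he₀) v ((hS v).mp hv)
      (j - algebraMap K F j₀) (ne_of_gt ((hS v).mp hv))
    rw [D_sub_const] at h1
    exact h1

/-- local count at infinity -/
theorem hinf_abs (j : F) (hj : Transcendental K j) [FiniteDimensional K⟮j⟯ F]
    {L : Type*} [Field L] (φ₀ : K →+* L)
    {I : Type*} [Fintype I] (hI : Fintype.card I = Module.finrank K⟮j⟯ F)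
    (ι : I → F →+* LaurentSeries L)
    (hιK : ∀ i a, ι i (algebraMap K F a) = HahnSeries.C (φ₀ a))
    (hιinj : Function.Injective ι)
    (hιj : ∀ i i', ι i j = ι i' j)
    (e₀ : ℕ) (he₀ : 0 < e₀) (hord : ∀ i, (ι i j⁻¹).order = (e₀ : ℤ))
    (ζ : L) (hζ : IsPrimitiveRoot ζ e₀)
    (π : Equiv.Perm I)
    (hπ : ∀ i f (n : ℤ), (ι (π i) f).coeff n = ζ ^ n * (ι i f).coeff n) :
    ∃ S : Finset (Place K F),
      (∀ v, v ∈ S ↔ v.ord j < 0) ∧
      S.card = Nat.card (MulAction.orbitRel.Quotient (Subgroup.zpowers π) I) ∧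
      ∀ v ∈ S, v.ordDifferential (D K F j) = v.ord j - 1 := by
  have ht := transcendental_inv hj
  have hfd : FiniteDimensional K⟮j⁻¹⟯ F :=
    finiteDimensional_congr_field (adjoin_inv j).symm inferInstance
  have hI' : Fintype.card I = Module.finrank K⟮j⁻¹⟯ F := by
    rw [finrank_congr_field (adjoin_inv j), hI]
  have hιt : ∀ q q', ι q j⁻¹ = ι q' j⁻¹ := by
    intro q q'
    rw [map_inv₀, map_inv₀, hιj q q']
  obtain ⟨S, o, hS, ho⟩ := B j⁻¹ ht φ₀ hI' ι hιK hιinj hιt e₀ he₀ hord ζ hζ π hπ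
  have halg : Algebra.IsAlgebraic K⟮j⟯ F := Algebra.IsAlgebraic.of_finite _ _
  have hS' : ∀ v, v ∈ S ↔ v.ord j < 0 := by
    intro v
    rw [hS v, Place.ord_inv]
    constructor <;> intro h <;> linarith
  refine ⟨S, hS', ?_, ?_⟩
  · rw [← Nat.card_eq_of_bijective o ho]
    simp
  · intro v hv
    exact A4loc j⁻¹ ht φ₀ hI' ι hιK hιinj hιt
      (fun i => by rw [hord i]; exact_mod_cast he₀) v ((hS v).mp hv) j
      (ne_of_lt ((hS' v).mp hv))

end abstract

section concrete

variable (N : ℕ) [NeZero N]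

/-- number of orbits of the cyclic group generated by a permutation of the cosets -/
noncomputable def orb (π : Equiv.Perm (Q N)) : ℕ :=
  Nat.card (MulAction.orbitRel.Quotient (Subgroup.zpowers π) (Q N))

open Classical in
/-- the number of places above `j = j₀` -/
noncomputable def nfun (j₀ : Kbar) : ℕ :=
  if j₀ = 0 then orb N (MulAction.toPerm ((ModularGroup.S * ModularGroup.T)⁻¹))
  else if j₀ = 1728 then orb N (MulAction.toPerm (ModularGroup.S⁻¹))
  else mu N

theorem card_Q : Fintype.card (Q N) = mu N := by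
  unfold mu
  rw [Nat.card_eq_fintype_card]

theorem hfin (j₀ : Kbar) : ∃ S : Finset (Place Kbar (ModularCurve.modularFunctionFieldBar N)),
    (∀ v, v ∈ S ↔ 0 < v.ord (jElt N - algebraMap Kbar _ j₀)) ∧ S.card = nfun N j₀ ∧
    ∀ v ∈ S, v.ordDifferential (D Kbar (ModularCurve.modularFunctionFieldBar N) (jElt N)) =
      v.ord (jElt N - algebraMap Kbar _ j₀) - 1 := by
  obtain ⟨e₀, ζ, π, ι, he₀, hζ, hιK, hinj, hιj, hord, hπ, hπ1, hπS, hπST⟩ := LOC_fin N j₀
  have hj := TR N
  obtain ⟨hfd, hdeg⟩ := DEG N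
  have hI : Fintype.card (Q N) = Module.finrank Kbar⟮jElt N⟯
      (ModularCurve.modularFunctionFieldBar N) := by
    rw [hdeg, card_Q]
  obtain ⟨S, hS, hcard, hdiff⟩ := hfin_abs (jElt N) hj j₀ phi0 hI ι hιK hinj hιj e₀ he₀ hord
    ζ hζ π hπ
  refine ⟨S, hS, ?_, hdiff⟩
  rw [hcard]
  unfold nfun
  by_cases h0 : j₀ = 0
  · rw [if_pos h0, hπST h0]
    rfl
  · rw [if_neg h0]
    by_cases h1728 : j₀ = 1728
    · rw [if_pos h1728, hπS h1728]
      rfl
    · rw [if_neg h1728, hπ1 ⟨h0, h1728⟩]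
      exact ORB_one N

theorem hinf : ∃ S : Finset (Place Kbar (ModularCurve.modularFunctionFieldBar N)),
    (∀ v, v ∈ S ↔ v.ord (jElt N) < 0) ∧ S.card = cusps N ∧
    ∀ v ∈ S, v.ordDifferential (D Kbar (ModularCurve.modularFunctionFieldBar N) (jElt N)) =
      v.ord (jElt N) - 1 := by
  obtain ⟨ζ, ι, hζ, hιK, hinj, hιj, hord, hπ⟩ := LOC_inf N
  have hj := TR N
  obtain ⟨hfd, hdeg⟩ := DEG N
  have hI : Fintype.card (Q N) = Module.finrank Kbar⟮jElt N⟯
      (ModularCurve.modularFunctionFieldBar N) := by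
    rw [hdeg, card_Q]
  have hN : 0 < N := Nat.pos_of_ne_zero (NeZero.ne N)
  obtain ⟨S, hS, hcard, hdiff⟩ := hinf_abs (jElt N) hj phi0 hI ι hιK hinj hιj N hN hord
    ζ hζ _ hπ
  refine ⟨S, hS, ?_, hdiff⟩
  rw [hcard]
  exact ORB_T N

theorem degree_eq [HasCanonicalDivisor (K := Kbar) (F := ModularCurve.modularFunctionFieldBar N)]
    {ω : Ω[ModularCurve.modularFunctionFieldBar N⁄Kbar]} (hω : ω ≠ 0) :
    Divisor.degree (canonicalDivisorOf hω) =
      ((mu N : ℤ) - orb N (MulAction.toPerm ((ModularGroup.S * ModularGroup.T)⁻¹)))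
        + ((mu N : ℤ) - orb N (MulAction.toPerm (ModularGroup.S⁻¹))) - (mu N : ℤ) - cusps N := by
  have hj := TR N
  obtain ⟨hfd, hdeg⟩ := DEG N
  have hne : (1728 : Kbar) ≠ 0 := by norm_num
  have h := G (jElt N) hj (nfun N) (cusps N) (hfin N) (hinf N)
    (fun j₀ h0 h1 => by unfold nfun; rw [if_neg h0, if_neg h1, hdeg]) hω
  rw [h, hdeg]
  unfold nfun
  rw [if_pos rfl, if_neg hne, if_pos rfl]

theorem main [HasCanonicalDivisor (K := Kbar) (F := ModularCurve.modularFunctionFieldBar N)] :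
    (AlgebraicCurve.genus Kbar (ModularCurve.modularFunctionFieldBar N) : ℚ)
      = ModularCurve.genusFormula N := by
  have hj := TR N
  obtain ⟨hfd, hdeg0⟩ := DEG N
  have halg : Algebra.IsAlgebraic Kbar⟮jElt N⟯ (ModularCurve.modularFunctionFieldBar N) :=
    Algebra.IsAlgebraic.of_finite _ _
  have hΩ : ∃ ω : Ω[ModularCurve.modularFunctionFieldBar N⁄Kbar], ω ≠ 0 :=
    ⟨_, Fermat.Agent.S24_helper2_A3.D_ne_zero (jElt N) hj halg⟩
  have hdeg := degree_eq N hΩ.choose_spec
  have hS20 := Fermat.Agent.S20.result N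
  have h1 := ORB_S N
  have h2 := ORB_ST N
  have hA1 := Fermat.Agent.S20_helper29_A1.A1 N
  have hA2 := Fermat.Agent.S20_helper22_A2.A2 N
  have hA3 := Fermat.Agent.S20_helper22_A3.A3 N
  have hA4 := Fermat.Agent.S20_helper29_A4.A4 N
  unfold ModularCurve.genusFormula at hS20
  rw [← hA1, ← hA2, ← hA3, ← hA4] at hS20
  unfold orb at hdeg
  generalize Module.finrank ℂ (CuspForm (CongruenceSubgroup.Gamma0 N) 2) = g at hS20
  have key : Divisor.degree (canonicalDivisorOf hΩ.choose_spec) + 2 = 2 * (g : ℤ) := by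
    rw [hdeg]
    generalize Nat.card (MulAction.orbitRel.Quotient
      (Subgroup.zpowers (MulAction.toPerm (ModularGroup.S⁻¹) : Equiv.Perm (Q N))) (Q N)) = a
      at h1 ⊢
    generalize Nat.card (MulAction.orbitRel.Quotient
      (Subgroup.zpowers (MulAction.toPerm ((ModularGroup.S * ModularGroup.T)⁻¹) :
        Equiv.Perm (Q N))) (Q N)) = b at h2 ⊢
    have e1 : (2 : ℚ) * a = mu N + nu2 N := by exact_mod_cast h1
    have e2 : (3 : ℚ) * b = mu N + 2 * nu3 N := by exact_mod_cast h2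
    have : (((mu N : ℤ) - b + ((mu N : ℤ) - a) - (mu N : ℤ) - cusps N + 2 : ℤ) : ℚ)
        = ((2 * (g : ℤ) : ℤ) : ℚ) := by
      push_cast
      linarith
    exact_mod_cast this
  have hgen : (AlgebraicCurve.genus Kbar (ModularCurve.modularFunctionFieldBar N)) = g := by
    unfold AlgebraicCurve.genus
    rw [dif_pos hΩ, key]
    omega
  rw [hgen, hS20]
  unfold ModularCurve.genusFormula
  rw [hA1, hA2, hA3, hA4]

end concrete

end Fermat.Agent.S24_helper19_Final
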