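import Fermat.Agent.G_helper16_G5f
import Fermat.Agent.S24_helper19_Final
import Fermat.Agent.S21_helper22_MM

/-!
# Project G, piece G5 (part g): general lemmas for (an3)
-/

set_option autoImplicit false
set_option linter.unusedSectionVars false
set_option linter.unusedVariables false
set_option linter.style.haveILetI false

noncomputable section

open UpperHalfPlane ModularForm CongruenceSubgroup AlgebraicCurve IntermediateField
open scoped MatrixGroups ModularForm Manifold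
open Fermat.Agent.S20 Fermat.Agent.S24
open Fermat.Agent.G_helper6_Defs

namespace Fermat.Agent.G_helper16_G5

open Fermat.Agent.S24_helper17_EMB (precomp precomp_apply precomp_injective precomp_jd
  holoSubring laurentAtHom laurentAtHom_apply laurentAtHom_injective
  poleSubring laurentInfHom laurentInfHom_apply laurentInfHom_injective)
open Fermat.Agent.S24_helper16_B (IsConst placeOf exists_w_eq_mul_ord w lsScale coeff_lsScale
  eq_lsScale_of_coeff)

/-! ### Laurent series invariant under a rescaling -/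

/-- the order of a nonzero Laurent series fixed by `s ↦ ζ s`, `ζ` a primitive `e`-th root of
unity, is divisible by `e` -/
theorem PG_G5_dvd_order_of_scale {C : LaurentSeries ℂ} (hC : C ≠ 0) {ζ : ℂ} {e : ℕ}
    (hζ : IsPrimitiveRoot ζ e) (h : ∀ n : ℤ, C.coeff n = ζ ^ n * C.coeff n) :
    (e : ℤ) ∣ C.order := by
  have h1 : C.coeff C.order ≠ 0 := Fermat.Agent.S24_helper16_B.coeff_order_ne_zero hC
  have h2 := h C.order
  have h3 : (ζ ^ C.order - 1) * C.coeff C.order = 0 := by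
    rw [sub_mul, one_mul, ← h2, sub_self]
  have h4 : ζ ^ C.order = 1 := by
    rcases mul_eq_zero.mp h3 with h | h
    · exact sub_eq_zero.mp h
    · exact absurd h h1
  exact (hζ.zpow_eq_one_iff_dvd _).mp h4

/-- the same for a quotient: if `SA * B = SB * A` with `SA`, `SB` the rescalings of `A`, `B`
then the order of `A / B` is divisible by `e` -/
theorem PG_G5_dvd_order_sub {A B SA SB : LaurentSeries ℂ} (hA : A ≠ 0) (hB : B ≠ 0)
    {ζ : ℂ} {e : ℕ} (he : 0 < e) (hζ : IsPrimitiveRoot ζ e)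
    (hSA : ∀ n : ℤ, SA.coeff n = ζ ^ n * A.coeff n)
    (hSB : ∀ n : ℤ, SB.coeff n = ζ ^ n * B.coeff n)
    (h : SA * B = SB * A) : (e : ℤ) ∣ A.order - B.order := by
  have hζ0 : ζ ≠ 0 := hζ.ne_zero he.ne'
  have e1 := eq_lsScale_of_coeff A SA ζ hζ0 hSA
  have e2 := eq_lsScale_of_coeff B SB ζ hζ0 hSB
  set S := lsScale (Units.mk0 ζ hζ0) with hS
  have hSB0 : SB ≠ 0 := by
    rw [e2]
    exact (map_ne_zero_iff _ S.injective).mpr hB
  have hC : A * B⁻¹ ≠ 0 := mul_ne_zero hA (inv_ne_zero hB)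
  have hfix : S (A * B⁻¹) = A * B⁻¹ := by
    rw [map_mul, map_inv₀, ← e1, ← e2]
    field_simp
    exact h
  have h1 : ∀ n : ℤ, (A * B⁻¹).coeff n = ζ ^ n * (A * B⁻¹).coeff n := by
    intro n
    conv_lhs => rw [← hfix]
    rw [hS, coeff_lsScale]
    congr 1
    simp
  have h2 := PG_G5_dvd_order_of_scale hC hζ h1
  have h3 : (A * B⁻¹).order = A.order - B.order := by
    have h4 := HahnSeries.order_mul hA (inv_ne_zero hB)
    have h5 := HahnSeries.order_mul hB (inv_ne_zero hB)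
    rw [mul_inv_cancel₀ hB, HahnSeries.order_one] at h5
    rw [h4]
    linarith
  rwa [h3] at h2

/-! ### Cosets fixed by an element -/

/-- if `g⁻¹` fixes the coset `q` then `q.out⁻¹ * g * q.out ∈ Γ₀(N)` -/
theorem PG_G5_conj_mem (N : ℕ) (g : SL(2, ℤ)) (q : Q N)
    (h : MulAction.toPerm (g⁻¹) q = q) : q.out⁻¹ * g * q.out ∈ Gamma0 N := by
  have h1 : (g⁻¹ • q : Q N) = q := h
  have h2 : (QuotientGroup.mk (g⁻¹ * q.out) : Q N) = QuotientGroup.mk q.out := by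
    rw [QuotientGroup.out_eq']
    conv_rhs => rw [← h1]
    conv_rhs => rw [← QuotientGroup.out_eq' q]
    rfl
  have h3 : (g⁻¹ * q.out)⁻¹ * q.out ∈ Gamma0 N := QuotientGroup.eq.mp h2
  have h4 : (g⁻¹ * q.out)⁻¹ * q.out = q.out⁻¹ * g * q.out := by group
  rwa [h4] at h3

theorem PG_G5_conj_mem_pow (N : ℕ) (g : SL(2, ℤ)) (q : Q N) (k : ℕ)
    (h : ((MulAction.toPerm (g⁻¹) : Equiv.Perm (Q N)) ^ k) q = q) :
    q.out⁻¹ * g ^ k * q.out ∈ Gamma0 N := by
  apply PG_G5_conj_mem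
  have e : (MulAction.toPerm ((g ^ k)⁻¹) : Equiv.Perm (Q N)) =
      (MulAction.toPerm (g⁻¹) : Equiv.Perm (Q N)) ^ k := by
    rw [← inv_pow]
    exact map_pow (MulAction.toPermHom (SL(2, ℤ)) (Q N)) g⁻¹ k
  rw [e]
  exact h

/-! ### Automorphy -/

/-- automorphy for an element of `Γ₀(N)` in the kernel of the character -/
theorem PG_G5_aut_of_char_eq_one {N : ℕ} {k : ℤ} {χ : Gamma0 N →* ℂˣ} {a : ℍ → ℂ}
    (ha : PG_IsForm N k χ a) (δ : SL(2, ℤ)) (hδ : δ ∈ Gamma0 N)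
    (hχ : χ ⟨δ, hδ⟩ = 1) (u : ℍ) :
    a (δ • u) = denom (δ : GL (Fin 2) ℝ) u ^ k * a u := by
  have h := ha.aut ⟨δ, hδ⟩ u
  rw [hχ, Units.val_one, one_mul] at h
  exact h

/-- a conjugate of a torsion element is killed by a good character -/
theorem PG_G5_char_torsion {N : ℕ} {χ : Gamma0 N →* ℂˣ} (hχ : PG_IsGoodChar N χ)
    (δ : SL(2, ℤ)) (hδ : δ ∈ Gamma0 N) (n : ℕ) (hn : 0 < n) (h : δ ^ n = 1) :
    χ ⟨δ, hδ⟩ = 1 := by
  apply hχ.tors ⟨δ, hδ⟩ n hn
  apply Subtype.ext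
  exact h

/-- an element of trace `2` is killed by a good character -/
theorem PG_G5_char_parabolic {N : ℕ} {χ : Gamma0 N →* ℂˣ} (hχ : PG_IsGoodChar N χ)
    (δ : SL(2, ℤ)) (hδ : δ ∈ Gamma0 N)
    (h : (δ : Matrix (Fin 2) (Fin 2) ℤ).trace = 2) : χ ⟨δ, hδ⟩ = 1 := by
  apply hχ.par ⟨δ, hδ⟩
  show (δ : Matrix (Fin 2) (Fin 2) ℤ).trace ^ 2 = 4
  rw [h]
  norm_num

/-! ### Powers -/

theorem PG_G5_hasPoleInf_pow (N : ℕ) [NeZero N] {g : ℍ → ℂ} (hg : HasPoleInf N 0 g) (n : ℕ) :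
    HasPoleInf N 0 (g ^ n) := by
  induction n with
  | zero =>
    rw [pow_zero]
    exact Fermat.Agent.S24_helper17_EMB.hasPoleInf_const N 1
  | succ n ih =>
    rw [pow_succ]
    exact Fermat.Agent.S24_helper17_EMB.hasPoleInf_mul N ih hg

theorem PG_G5_laurentAt_pow (z : ℍ) {g : ℍ → ℂ} (hg : MDifferentiable 𝓘(ℂ) 𝓘(ℂ) g) (n : ℕ) :
    laurentAt z (fun w => g w ^ n) = laurentAt z g ^ n := by
  have h := map_pow (laurentAtHom z) (⟨g, hg⟩ : holoSubring) n
  rw [laurentAtHom_apply, laurentAtHom_apply] at h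
  exact h

theorem PG_G5_laurentInf_pow (N : ℕ) [NeZero N] {g : ℍ → ℂ} (hg : HasPoleInf N 0 g) (n : ℕ) :
    laurentInf N (fun w => g w ^ n) = laurentInf N g ^ n := by
  have h := map_pow (laurentInfHom N) (⟨g, ⟨0, hg⟩⟩ : poleSubring N) n
  rw [laurentInfHom_apply, laurentInfHom_apply] at h
  exact h

theorem PG_G5_mdiff_comp_smul {g : ℍ → ℂ} (hg : MDifferentiable 𝓘(ℂ) 𝓘(ℂ) g) (γ : SL(2, ℤ)) :
    MDifferentiable 𝓘(ℂ) 𝓘(ℂ) (fun w : ℍ => g (γ • w)) :=
  hg.comp (Fermat.Agent.S21_helper22_MM.mdiff_smul_SL γ)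

theorem PG_G5_comp_smul_ne_zero {g : ℍ → ℂ} (hg : g ≠ 0) (γ : SL(2, ℤ)) :
    (fun w : ℍ => g (γ • w)) ≠ 0 := by
  intro h
  apply hg
  funext u
  have := congrFun h (γ⁻¹ • u)
  simpa using this

end Fermat.Agent.G_helper16_G5
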