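import Fermat.Agent.G_helper16_G5i

/-!
# Project G, piece G5: (an3) for an arbitrary modulus

`PG_AN3 N m` holds for EVERY `m : ℕ` (primality is never used; not even `m ≠ 0`).  This is the
twin of `PG_G5_an3` asked for by the general-modulus chain (S30 / S31 option):

* `PG_G5_an3_all N m : PG_AN3 N m`
* `PG_G5_an3_gen N m (hm : 0 < m) : PG_AN3 N m`
* `PG_G5_an3_ne N m (hm : m ≠ 0) : PG_AN3 N m`
* `PG_G5_an3_pow N p n : PG_AN3 N (p ^ n)`
-/

set_option autoImplicit false
set_option linter.unusedSectionVars false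
set_option linter.unusedVariables false
set_option linter.style.haveILetI false
set_option linter.unnecessarySimpa false

noncomputable section

open UpperHalfPlane ModularForm CongruenceSubgroup AlgebraicCurve IntermediateField
open scoped MatrixGroups ModularForm Manifold
open Fermat.Agent.S20 Fermat.Agent.S24
open Fermat.Agent.G_helper6_Defs

namespace Fermat.Agent.G_helper16_G5

theorem PG_G5_an3_all (N p : ℕ) [NeZero N] : PG_AN3 N p := by
  intro k χa χb a b x hχa hχb ha hb ha0 hb0 hreal v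
  have hA := PG_G5_hasPoleInf_pow 1 (PG_G5_form_hasPoleInf hχa ha) p
  have hB := PG_G5_hasPoleInf_pow 1 (PG_G5_form_hasPoleInf hχb hb) p
  have hx := (PG_G5_realizes_iff x hA hB).mp hreal
  have hap : a ^ p ≠ 0 := by
    intro h0
    apply ha0
    funext u
    have := congrFun h0 u
    simpa using eq_zero_of_pow_eq_zero this
  have hx0 : x ≠ 0 := by
    rintro rfl
    apply hap
    apply Fermat.Agent.S24_helper21_LINF.laurentInf_eq_zero 1 hA
    rw [← hx]
    simp
  haveI := PG_G5_finiteDimensional N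
  have halg : Algebra.IsAlgebraic ℂ⟮PG_G5_jElt N⟯ (PG_G5_FC N) :=
    Algebra.IsAlgebraic.of_finite _ _
  by_cases hmem : PG_G5_jElt N ∈ v.toValuationSubring
  · obtain ⟨c, hc | hc⟩ :=
      Fermat.Agent.S24_helper15_A1.exists_const_sub_mem (PG_G5_jElt N) halg v (PG_G5_jElt N) hmem
    · exact PG_G5_an3_fin N p k χa χb a b x hχa hχb ha hb ha0 hb0 hx0 hx v c hc
    · exfalso
      apply PG_G5_TR N
      rw [hc]
      exact isAlgebraic_algebraMap c
  · have hneg : v.ord (PG_G5_jElt N) < 0 := by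
      by_contra h
      exact hmem (Fermat.Agent.S24_helper6_A2.mem_of_ord_nonneg v (not_lt.mp h))
    exact PG_G5_an3_inf N p k χa χb a b x hχa hχb ha hb ha0 hb0 hx0 hx v hneg

theorem PG_G5_an3_gen (N m : ℕ) [NeZero N] (hm : 0 < m) : PG_AN3 N m := PG_G5_an3_all N m

theorem PG_G5_an3_ne (N m : ℕ) [NeZero N] (hm : m ≠ 0) : PG_AN3 N m := PG_G5_an3_all N m

theorem PG_G5_an3_pow (N p n : ℕ) [NeZero N] : PG_AN3 N (p ^ n) := PG_G5_an3_all N (p ^ n)

theorem PG_G5_an3_family (N p : ℕ) [NeZero N] : ∀ n : ℕ, PG_AN3 N (p ^ n) :=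
  fun n => PG_G5_an3_all N (p ^ n)

end Fermat.Agent.G_helper16_G5
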