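import Fermat.Agent.G_helper16_G5g

/-!
# Project G, piece G5 (part h): (an3) at the places above a finite value of `j`
-/

set_option autoImplicit false
set_option linter.unusedSectionVars false
set_option linter.unusedVariables false
set_option linter.style.haveILetI false
set_option linter.unnecessarySimpa false

noncomputable section

open UpperHalfPlane ModularForm CongruenceSubgroup AlgebraicCurve IntermediateField
open scoped MatrixGroups ModularForm Manifold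
open Fermat.Agent.S20 Fermat.Agent.S24
open Fermat.Agent.G_helper6_Defs

namespace Fermat.Agent.G_helper16_G5

open Fermat.Agent.S24_helper17_EMB (precomp precomp_apply precomp_injective precomp_jd
  holoSubring laurentAtHom laurentAtHom_apply laurentAtHom_injective
  poleSubring laurentInfHom laurentInfHom_apply laurentInfHom_injective)
open Fermat.Agent.S24_helper16_B (IsConst placeOf exists_w_eq_mul_ord w lsScale coeff_lsScale
  eq_lsScale_of_coeff)
open Fermat.Agent.S24_helper10_J Fermat.Agent.S24_helper10_LOCfin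

/-! ### The local data above a finite value of `j` -/

section Local

variable (N : ℕ) [NeZero N]

/-- the local data above `j = j₀`: a point `z₀`, a generator `g₀` of its stabiliser (torsion),
the rotation number `ζ` of `g₀` at `z₀`, of order `e₀ ∈ {1, 2, 3}`. -/
theorem PG_G5_local_fin (j₀ : ℂ) :
    ∃ (z₀ : ℍ) (g₀ : SL(2, ℤ)) (e₀ : ℕ) (ζ : ℂ), g₀ • z₀ = z₀ ∧
      (∃ n : ℕ, 0 < n ∧ g₀ ^ n = 1) ∧ 0 < e₀ ∧ (e₀ = 1 ∨ e₀.Prime) ∧ IsPrimitiveRoot ζ e₀ ∧
      ζ = (((g₀ 1 0 : ℤ) : ℂ) * (starRingEnd ℂ) (z₀ : ℂ) + ((g₀ 1 1 : ℤ) : ℂ)) /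
        (((g₀ 1 0 : ℤ) : ℂ) * (z₀ : ℂ) + ((g₀ 1 1 : ℤ) : ℂ)) ∧
      ∀ q : Q N, (PG_G5_iotaFin N z₀ q (PG_G5_jElt N - algebraMap ℂ _ j₀)).order = (e₀ : ℤ) := by
  have h1728 : (1728 : ℂ) ≠ 0 := by norm_num
  by_cases h0 : j₀ = 0
  · subst h0
    refine ⟨rho, ModularGroup.S * ModularGroup.T, 3, zetaRho, ST_smul_rho,
      ⟨6, by norm_num, by decide⟩, by norm_num, Or.inr Nat.prime_three,
      isPrimitiveRoot_zetaRho, ?_, ?_⟩
    · have e10 : (ModularGroup.S * ModularGroup.T : SL(2, ℤ)) 1 0 = 1 := by decide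
      have e11 : (ModularGroup.S * ModularGroup.T : SL(2, ℤ)) 1 1 = 1 := by decide
      rw [e10, e11]
      rfl
    · intro q
      apply PG_G5_iotaFin_order
      have : (fun z => jfun z - PG_G5_phi 0) = jfun := by
        funext z
        simp
      rw [this]
      exact_mod_cast Fermat.Agent.S24_helper1_ORD.AN7_rho
  by_cases h17 : j₀ = 1728
  · subst h17
    have hζ : (-1 : ℂ) = (((ModularGroup.S 1 0 : ℤ) : ℂ) *
        (starRingEnd ℂ) ((UpperHalfPlane.I : ℍ) : ℂ) + ((ModularGroup.S 1 1 : ℤ) : ℂ)) /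
        (((ModularGroup.S 1 0 : ℤ) : ℂ) * ((UpperHalfPlane.I : ℍ) : ℂ) +
          ((ModularGroup.S 1 1 : ℤ) : ℂ)) := by
      have e10 : (ModularGroup.S : SL(2, ℤ)) 1 0 = 1 := by decide
      have e11 : (ModularGroup.S : SL(2, ℤ)) 1 1 = 0 := by decide
      rw [e10, e11]
      simp only [Int.cast_one, one_mul, Int.cast_zero, add_zero, UpperHalfPlane.coe_I,
        Complex.conj_I]
      rw [neg_div, div_self Complex.I_ne_zero]
    refine ⟨UpperHalfPlane.I, ModularGroup.S, 2, -1, S_smul_I,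
      ⟨4, by norm_num, by decide⟩, by norm_num, Or.inr Nat.prime_two,
      IsPrimitiveRoot.neg_one 0 (by norm_num), hζ, ?_⟩
    intro q
    apply PG_G5_iotaFin_order
    have : (fun z => jfun z - PG_G5_phi 1728) = fun z => jfun z - 1728 := by
      funext z
      rw [map_ofNat]
    rw [this]
    exact_mod_cast Fermat.Agent.S24_helper1_ORD.AN7_I
  · obtain ⟨z₀, hz₀⟩ := jfun_surjective (PG_G5_phi j₀)
    have h4 : E₄ z₀ ≠ 0 := by
      intro h
      have := (jfun_eq_zero_iff z₀).mpr h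
      rw [hz₀] at this
      exact h0 this
    have h6 : E₆ z₀ ≠ 0 := by
      intro h
      have := (jfun_eq_1728_iff z₀).mpr h
      rw [hz₀] at this
      exact h17 this
    refine ⟨z₀, 1, 1, 1, one_smul _ z₀, ⟨1, one_pos, by simp⟩, one_pos, Or.inl rfl,
      IsPrimitiveRoot.one, by simp, ?_⟩
    intro q
    apply PG_G5_iotaFin_order
    rw [← hz₀]
    exact_mod_cast Fermat.Agent.S24_helper1_ORD.AN7_generic z₀ h4 h6

end Local

/-! ### The rescaling at a fixed point -/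

section Rescale

/-- the expansion at a fixed point `z₀` of `g₀` of `G ∘ g₀` is the rescaling of the expansion
of `G` -/
theorem PG_G5_laurentAt_smul_coeff (z₀ : ℍ) (g₀ : SL(2, ℤ)) (hfix : g₀ • z₀ = z₀) (ζ : ℂ)
    (hζdef : ζ = (((g₀ 1 0 : ℤ) : ℂ) * (starRingEnd ℂ) (z₀ : ℂ) + ((g₀ 1 1 : ℤ) : ℂ)) /
        (((g₀ 1 0 : ℤ) : ℂ) * (z₀ : ℂ) + ((g₀ 1 1 : ℤ) : ℂ)))
    {G : ℍ → ℂ} (hG : MDifferentiable 𝓘(ℂ) 𝓘(ℂ) G) (n : ℤ) :
    (laurentAt z₀ (fun w => G (g₀ • w))).coeff n = ζ ^ n * (laurentAt z₀ G).coeff n := by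
  unfold laurentAt
  rcases lt_or_ge n 0 with hneg | hnn
  · rw [coeff_ofPowerSeries_neg _ hneg, coeff_ofPowerSeries_neg _ hneg, mul_zero]
  · obtain ⟨m, rfl⟩ := Int.eq_ofNat_of_zero_le hnn
    rw [HahnSeries.ofPowerSeries_apply_coeff, HahnSeries.ofPowerSeries_apply_coeff,
      Fermat.Agent.S24_helper26_TAY.taylorAt_smul z₀ hG g₀ hfix m, ← hζdef, zpow_natCast]

end Rescale

/-! ### (an3) above a finite value of `j` -/

section Fin

variable (N : ℕ) [NeZero N]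

theorem PG_G5_an3_fin (p : ℕ) (k : ℤ) (χa χb : Gamma0 N →* ℂˣ) (a b : ℍ → ℂ)
    (x : PG_G5_FC N) (hχa : PG_IsGoodChar N χa) (hχb : PG_IsGoodChar N χb)
    (ha : PG_IsForm N k χa a) (hb : PG_IsForm N k χb b) (ha0 : a ≠ 0) (hb0 : b ≠ 0)
    (hx0 : x ≠ 0)
    (hx : (x : LaurentSeries ℂ) * laurentInf 1 (b ^ p) = laurentInf 1 (a ^ p))
    (v : Place ℂ (PG_G5_FC N)) (j₀ : ℂ)
    (hv : 0 < v.ord (PG_G5_jElt N - algebraMap ℂ _ j₀)) :
    (p : ℤ) ∣ v.ord x := by
  obtain ⟨z₀, g₀, e₀, ζ, hfix, ⟨n₀, hn₀, htors⟩, he₀, hprime, hζ, hζdef, hord⟩ :=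
    PG_G5_local_fin N j₀
  have hζ0 : ζ ≠ 0 := hζ.ne_zero he₀.ne'
  haveI := PG_G5_finiteDimensional N
  have hj := PG_G5_TR N
  have ht := Fermat.Agent.S24_helper19_Final.transcendental_sub_const hj j₀
  haveI hfd : FiniteDimensional ℂ⟮PG_G5_jElt N - algebraMap ℂ (PG_G5_FC N) j₀⟯ (PG_G5_FC N) :=
    Fermat.Agent.S24_helper19_Final.finiteDimensional_congr_field
      (Fermat.Agent.S24_helper19_Final.adjoin_sub_const (PG_G5_jElt N) j₀).symm inferInstance
  have hI : Fintype.card (Q N) =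
      Module.finrank ℂ⟮PG_G5_jElt N - algebraMap ℂ (PG_G5_FC N) j₀⟯ (PG_G5_FC N) := by
    rw [Fermat.Agent.S24_helper19_Final.finrank_congr_field
      (Fermat.Agent.S24_helper19_Final.adjoin_sub_const (PG_G5_jElt N) j₀), (PG_G5_DEG N).2,
      Fermat.Agent.S24_helper19_Final.card_Q]
  have hιt : ∀ q q', PG_G5_iotaFin N z₀ q (PG_G5_jElt N - algebraMap ℂ (PG_G5_FC N) j₀) =
      PG_G5_iotaFin N z₀ q' (PG_G5_jElt N - algebraMap ℂ (PG_G5_FC N) j₀) := by
    intro q q'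
    rw [map_sub, map_sub, PG_G5_iotaFin_jElt, PG_G5_iotaFin_jElt, PG_G5_iotaFin_const,
      PG_G5_iotaFin_const]
  obtain ⟨q, e, kk, he, hkk, hek, hper, hw⟩ := PG_G5_exists_of_place
    (PG_G5_jElt N - algebraMap ℂ (PG_G5_FC N) j₀) ht PG_G5_phi hI (PG_G5_iotaFin N z₀)
    (PG_G5_iotaFin_const N z₀) (PG_G5_iotaFin_injective N z₀) hιt e₀ he₀ hord ζ hζ
    (MulAction.toPerm g₀⁻¹)
    (fun q f n => PG_G5_iotaFin_rescale N z₀ g₀ hfix ζ hζdef hζ0 q f n) v hv
  set γ : SL(2, ℤ) := q.out⁻¹ with hγ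
  -- the bridge
  have hA := PG_G5_hasPoleInf_pow 1 (PG_G5_form_hasPoleInf hχa ha) p
  have hB := PG_G5_hasPoleInf_pow 1 (PG_G5_form_hasPoleInf hχb hb) p
  have hGa : MDifferentiable 𝓘(ℂ) 𝓘(ℂ) (fun w : ℍ => a (γ • w)) :=
    PG_G5_mdiff_comp_smul ha.holo γ
  have hGb : MDifferentiable 𝓘(ℂ) 𝓘(ℂ) (fun w : ℍ => b (γ • w)) :=
    PG_G5_mdiff_comp_smul hb.holo γ
  have hGap : MDifferentiable 𝓘(ℂ) 𝓘(ℂ) (fun w : ℍ => a (γ • w) ^ p) := by
    have := (⟨_, hGa⟩ ^ p : holoSubring).2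
    exact this
  have hGbp : MDifferentiable 𝓘(ℂ) 𝓘(ℂ) (fun w : ℍ => b (γ • w) ^ p) := by
    have := (⟨_, hGb⟩ ^ p : holoSubring).2
    exact this
  have hmul := PG_G5_iotaAt_mul N z₀ γ x hA hB hx hGap hGbp (fun _ => 1)
    (fun w => by simp) (fun w => by simp)
  rw [PG_G5_laurentAt_pow z₀ hGa p, PG_G5_laurentAt_pow z₀ hGb p] at hmul
  have hιeq : PG_G5_iotaAt N z₀ γ = PG_G5_iotaFin N z₀ q := rfl
  rw [hιeq] at hmul
  set A' := laurentAt z₀ (fun w => a (γ • w)) with hA'def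
  set B' := laurentAt z₀ (fun w => b (γ • w)) with hB'def
  have hA' : A' ≠ 0 := PG_G5_laurentAt_ne_zero z₀ hGa (PG_G5_comp_smul_ne_zero ha0 γ)
  have hB' : B' ≠ 0 := PG_G5_laurentAt_ne_zero z₀ hGb (PG_G5_comp_smul_ne_zero hb0 γ)
  have hιx : PG_G5_iotaFin N z₀ q x ≠ 0 := (map_ne_zero _).mpr hx0
  have hordeq : (PG_G5_iotaFin N z₀ q x).order + p * B'.order = p * A'.order := by
    have h1 := HahnSeries.order_mul hιx (pow_ne_zero p hB')
    rw [hmul, HahnSeries.order_pow, HahnSeries.order_pow] at h1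
    simp only [nsmul_eq_mul] at h1
    linarith
  have hwx := hw x hx0
  -- divisibility
  have hdiv : (e : ℤ) ∣ A'.order - B'.order := by
    have hcase : e = 1 ∨ (e = e₀ ∧ kk = 1) := by
      rcases hprime with h1 | hpr
      · left
        rw [h1] at hek
        exact Nat.eq_one_of_mul_eq_one_right hek
      · have hdvd : e ∣ e₀ := ⟨kk, hek.symm⟩
        rcases (Nat.dvd_prime hpr).mp hdvd with h1 | h1
        · exact Or.inl h1
        · right
          refine ⟨h1, ?_⟩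
          rw [h1] at hek
          have : e₀ * kk = e₀ * 1 := by rw [hek, mul_one]
          exact Nat.eq_of_mul_eq_mul_left he₀ this
    rcases hcase with h1 | ⟨h1, hkk1⟩
    · rw [h1]
      simp
    · rw [hkk1, pow_one] at hper
      have hδ := PG_G5_conj_mem N g₀ q hper
      set δ : SL(2, ℤ) := q.out⁻¹ * g₀ * q.out with hδdef
      have hδn : δ ^ n₀ = 1 := by
        have e1 : δ = q.out⁻¹ * g₀ * (q.out⁻¹)⁻¹ := by rw [hδdef, inv_inv]
        rw [e1, conj_pow, htors]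
        group
      have hχa1 := PG_G5_char_torsion hχa δ hδ n₀ hn₀ hδn
      have hχb1 := PG_G5_char_torsion hχb δ hδ n₀ hn₀ hδn
      have hkey : ∀ w : ℍ, a (γ • (g₀ • w)) * b (γ • w) = b (γ • (g₀ • w)) * a (γ • w) := by
        intro w
        have e1 : γ • (g₀ • w) = δ • (γ • w) := by
          rw [← mul_smul, ← mul_smul]
          congr 1
          rw [hδdef, hγ]
          group
        rw [e1, PG_G5_aut_of_char_eq_one ha δ hδ hχa1, PG_G5_aut_of_char_eq_one hb δ hδ hχb1]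
        ring
      have hGa' : MDifferentiable 𝓘(ℂ) 𝓘(ℂ) (fun w : ℍ => a (γ • (g₀ • w))) :=
        PG_G5_mdiff_comp_smul hGa g₀
      have hGb' : MDifferentiable 𝓘(ℂ) 𝓘(ℂ) (fun w : ℍ => b (γ • (g₀ • w))) :=
        PG_G5_mdiff_comp_smul hGb g₀
      have hSA := fun n => PG_G5_laurentAt_smul_coeff z₀ g₀ hfix ζ hζdef hGa n
      have hSB := fun n => PG_G5_laurentAt_smul_coeff z₀ g₀ hfix ζ hζdef hGb n
      have hprod : laurentAt z₀ (fun w => a (γ • (g₀ • w))) * B' =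
          laurentAt z₀ (fun w => b (γ • (g₀ • w))) * A' := by
        have h2 : (⟨_, hGa'⟩ : holoSubring) * ⟨_, hGb⟩ = ⟨_, hGb'⟩ * ⟨_, hGa⟩ :=
          Subtype.ext (funext hkey)
        have h3 := congrArg (laurentAtHom z₀) h2
        rw [map_mul, map_mul] at h3
        exact h3
      rw [h1]
      exact PG_G5_dvd_order_sub hA' hB' he₀ hζ hSA hSB hprod
  -- conclusion
  obtain ⟨m, hm⟩ := hdiv
  have he0 : (e : ℤ) ≠ 0 := by exact_mod_cast he.ne'
  have h1 : (e : ℤ) * v.ord x = (e : ℤ) * ((p : ℤ) * m) := by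
    rw [← hwx]
    have h2 : (PG_G5_iotaFin N z₀ q x).order = p * (A'.order - B'.order) := by linarith
    rw [h2, hm]
    ring
  exact ⟨m, mul_left_cancel₀ he0 h1⟩

end Fin

end Fermat.Agent.G_helper16_G5
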