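import Fermat.Agent.G_helper16_G5h

/-!
# Project G, piece G5 (part i): (an3) at the places above `j = ∞`, and the final theorem
-/

set_option autoImplicit false
set_option linter.unusedSectionVars false
set_option linter.unusedVariables false
set_option linter.style.haveILetI false
set_option linter.unnecessarySimpa false

noncomputable section

open UpperHalfPlane ModularForm CongruenceSubgroup AlgebraicCurve IntermediateField
open scoped MatrixGroups ModularForm Manifold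
open Fermat.Agent.S20 Fermat.Agent.S24
open Fermat.Agent.G_helper6_Defs

namespace Fermat.Agent.G_helper16_G5

open Fermat.Agent.S24_helper17_EMB (precomp precomp_apply precomp_injective precomp_jd
  holoSubring laurentAtHom laurentAtHom_apply laurentAtHom_injective
  poleSubring laurentInfHom laurentInfHom_apply laurentInfHom_injective)
open Fermat.Agent.S24_helper16_B (IsConst placeOf exists_w_eq_mul_ord w lsScale coeff_lsScale
  eq_lsScale_of_coeff)

/-! ### Iterated translations -/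

section Shift

variable (N : ℕ) [NeZero N]

theorem PG_G5_shift_nat {M : ℕ} {g : ℍ → ℂ} (hg : HasPoleInf N M g) (k : ℕ) :
    HasPoleInf N M (fun w => g ((k : ℝ) +ᵥ w)) ∧
      ∀ n : ℤ, (laurentInf N (fun w => g ((k : ℝ) +ᵥ w))).coeff n =
        (Complex.exp (2 * Real.pi * Complex.I / N) ^ n) ^ k * (laurentInf N g).coeff n := by
  induction k with
  | zero =>
    have e : (fun w : ℍ => g (((0 : ℕ) : ℝ) +ᵥ w)) = g := by
      funext w
      simp
    rw [e]
    exact ⟨hg, fun n => by simp⟩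
  | succ k ih =>
    obtain ⟨h1, h2⟩ := ih
    have e : (fun w : ℍ => g (((k + 1 : ℕ) : ℝ) +ᵥ w)) =
        fun w : ℍ => (fun u : ℍ => g ((k : ℝ) +ᵥ u)) ((1 : ℝ) +ᵥ w) := by
      funext w
      simp only [vadd_vadd]
      congr 2
      push_cast
      ring
    rw [e]
    refine ⟨Fermat.Agent.S24_helper21_LINF.hasPoleInf_shift N h1, fun n => ?_⟩
    rw [Fermat.Agent.S24_helper21_LINF.laurentInf_T N h1 n, h2 n, pow_succ]
    ring

/-- a `k`-periodic function with a pole at `i∞` has its `q_N`-expansion fixed by the rescaling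
by `ζ_N ^ k` -/
theorem PG_G5_coeff_of_periodic {M : ℕ} {g : ℍ → ℂ} (hg : HasPoleInf N M g) (k : ℕ)
    (hper : ∀ w : ℍ, g ((k : ℝ) +ᵥ w) = g w) (n : ℤ) :
    (laurentInf N g).coeff n =
      (Complex.exp (2 * Real.pi * Complex.I / N) ^ k) ^ n * (laurentInf N g).coeff n := by
  have h := (PG_G5_shift_nat N hg k).2 n
  have e : (fun w : ℍ => g ((k : ℝ) +ᵥ w)) = g := funext hper
  rw [e] at h
  have e3 : ∀ ζ : ℂ, (ζ ^ n) ^ k = (ζ ^ k) ^ n := by
    intro ζ
    rw [← zpow_natCast (ζ ^ n) k, ← zpow_mul, mul_comm n (k : ℤ), zpow_mul, zpow_natCast]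
  rw [e3] at h
  exact h

end Shift

/-! ### Slashes of forms with good characters -/

section Slash

variable {N : ℕ} [NeZero N]

theorem PG_G5_slash_eq_of_char_eq_one {k : ℤ} {χ : Gamma0 N →* ℂˣ} {a : ℍ → ℂ}
    (ha : PG_IsForm N k χ a) (δ : SL(2, ℤ)) (hδ : δ ∈ Gamma0 N) (hχ : χ ⟨δ, hδ⟩ = 1) :
    a ∣[k] δ = a := by
  funext u
  rw [ModularForm.SL_slash_apply, PG_G5_aut_of_char_eq_one ha δ hδ hχ u]
  have hden : denom (δ : GL (Fin 2) ℝ) u ≠ 0 := denom_ne_zero _ u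
  rw [mul_comm, ← mul_assoc, ← zpow_add₀ hden]
  simp

theorem PG_G5_denom_T_pow (k : ℕ) (w : ℍ) :
    denom ((ModularGroup.T ^ k : SL(2, ℤ)) : GL (Fin 2) ℝ) w = 1 := by
  rw [ModularGroup.denom_apply]
  have h := ModularGroup.coe_T_zpow (k : ℤ)
  rw [zpow_natCast] at h
  have e10 : (ModularGroup.T ^ k : SL(2, ℤ)) 1 0 = 0 := by
    show ((ModularGroup.T ^ k : SL(2, ℤ)) : Matrix (Fin 2) (Fin 2) ℤ) 1 0 = 0
    rw [h]
    simp
  have e11 : (ModularGroup.T ^ k : SL(2, ℤ)) 1 1 = 1 := by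
    show ((ModularGroup.T ^ k : SL(2, ℤ)) : Matrix (Fin 2) (Fin 2) ℤ) 1 1 = 1
    rw [h]
    simp
  rw [e10, e11]
  simp

/-- the slash of a form by `γ` is `k`-periodic if `γ T ^ k γ⁻¹ ∈ Γ₀(N)` -/
theorem PG_G5_slash_periodic {wt : ℤ} {χ : Gamma0 N →* ℂˣ} {a : ℍ → ℂ}
    (hχ : PG_IsGoodChar N χ) (ha : PG_IsForm N wt χ a) (γ : SL(2, ℤ)) (k : ℕ)
    (hδ : γ * ModularGroup.T ^ k * γ⁻¹ ∈ Gamma0 N) (w : ℍ) :
    (a ∣[wt] γ) ((k : ℝ) +ᵥ w) = (a ∣[wt] γ) w := by
  set δ : SL(2, ℤ) := γ * ModularGroup.T ^ k * γ⁻¹ with hδdef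
  have htr : (δ : Matrix (Fin 2) (Fin 2) ℤ).trace = 2 := by
    rw [hδdef, Matrix.SpecialLinearGroup.coe_mul, Matrix.SpecialLinearGroup.coe_mul,
      Matrix.trace_mul_cycle, ← Matrix.SpecialLinearGroup.coe_mul, inv_mul_cancel]
    have h := ModularGroup.coe_T_zpow (k : ℤ)
    rw [zpow_natCast] at h
    rw [Matrix.SpecialLinearGroup.coe_one, one_mul, h]
    simp [Matrix.trace_fin_two]
  have hχ1 := PG_G5_char_parabolic hχ δ hδ htr
  have h1 : a ∣[wt] δ = a := PG_G5_slash_eq_of_char_eq_one ha δ hδ hχ1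
  have h2 : (a ∣[wt] γ) ∣[wt] (ModularGroup.T ^ k : SL(2, ℤ)) = a ∣[wt] γ := by
    rw [← SlashAction.slash_mul]
    have e : γ * ModularGroup.T ^ k = δ * γ := by
      rw [hδdef]
      group
    rw [e, SlashAction.slash_mul, h1]
  have h3 := congrFun h2 w
  rw [ModularForm.SL_slash_apply, PG_G5_denom_T_pow] at h3
  have e2 : (ModularGroup.T ^ k : SL(2, ℤ)) • w = (k : ℝ) +ᵥ w := by
    have := UpperHalfPlane.modular_T_zpow_smul w (k : ℤ)
    rw [zpow_natCast] at this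
    rw [this]
    simp
  rw [e2] at h3
  simpa using h3

end Slash

/-! ### The bridge at the cusps -/

section Inf

variable (N : ℕ) [NeZero N]

theorem PG_G5_const_mem_pole (c : ℂ) : (fun _ : ℍ => c) ∈ poleSubring N :=
  ⟨0, Fermat.Agent.S24_helper17_EMB.hasPoleInf_const N c⟩

theorem PG_G5_jd_mem_pole (γ : SL(2, ℤ)) (d : ℕ) (hd : d ∣ N) : jd d γ ∈ poleSubring N :=
  ⟨N * N, Fermat.Agent.S24_helper24_JD.hasPoleInf_jd N hd γ⟩

theorem PG_G5_iotaInf_mul (q : Q N) (x : PG_G5_FC N) {a b : ℍ → ℂ} {Ma Mb : ℕ}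
    (ha : HasPoleInf 1 Ma a) (hb : HasPoleInf 1 Mb b)
    (hx : (x : LaurentSeries ℂ) * laurentInf 1 b = laurentInf 1 a)
    {a' b' : ℍ → ℂ} {Ma' Mb' : ℕ} (ha' : HasPoleInf N Ma' a') (hb' : HasPoleInf N Mb' b')
    (u : ℍ → ℂ) (hau : ∀ w, a' w = u w * a (q.out⁻¹ • w))
    (hbu : ∀ w, b' w = u w * b (q.out⁻¹ • w)) :
    PG_G5_iotaInf N q x * laurentInf N b' = laurentInf N a' := by
  obtain ⟨r, s, hs, hrs⟩ := PG_G5_exists_frac N x
  have hfun := PG_G5_psi_mul_eq N x r s hrs ha hb hx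
  have h := PG_G5_emb_mul N (q.out⁻¹) (poleSubring N) (PG_G5_const_mem_pole N)
    (PG_G5_jd_mem_pole N (q.out⁻¹))
    (laurentInfHom N) (laurentInfHom_injective N) (PG_G5_iotaInf N q)
    (fun c => by
      rw [PG_G5_iotaInf_const, laurentInfHom_apply]
      exact (Fermat.Agent.S24_helper21_LINF.laurentInf_const N c).symm)
    (fun d _ hd => by rw [PG_G5_iotaInf_jF, laurentInfHom_apply])
    x r s hs hrs ⟨a', ⟨_, ha'⟩⟩ ⟨b', ⟨_, hb'⟩⟩ (fun w => by
      show PG_G5_psi N r (q.out⁻¹ • w) * b' w = PG_G5_psi N s (q.out⁻¹ • w) * a' w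
      have h1 := congrFun hfun (q.out⁻¹ • w)
      simp only [Pi.mul_apply] at h1
      rw [hau, hbu]
      linear_combination u w * h1)
  exact h

theorem PG_G5_laurentInf_ne_zero {M : ℕ} {g : ℍ → ℂ} (hg : HasPoleInf N M g) (hg0 : g ≠ 0) :
    laurentInf N g ≠ 0 := fun h0 =>
  hg0 (Fermat.Agent.S24_helper21_LINF.laurentInf_eq_zero N hg h0)

theorem PG_G5_slash_ne_zero {wt : ℤ} {a : ℍ → ℂ} (ha0 : a ≠ 0) (γ : SL(2, ℤ)) :
    a ∣[wt] γ ≠ 0 := by
  intro h
  apply ha0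
  funext u
  have h1 := congrFun h (γ⁻¹ • u)
  rw [ModularForm.SL_slash_apply] at h1
  have hden : denom (γ : GL (Fin 2) ℝ) ((γ⁻¹ • u : ℍ) : ℂ) ≠ 0 := denom_ne_zero _ _
  have h2 : a (γ • γ⁻¹ • u) = 0 := by
    rcases mul_eq_zero.mp h1 with h3 | h3
    · exact h3
    · exact absurd h3 (zpow_ne_zero _ hden)
  simpa using h2

/-! ### (an3) above `j = ∞` -/

theorem PG_G5_an3_inf (p : ℕ) (k : ℤ) (χa χb : Gamma0 N →* ℂˣ) (a b : ℍ → ℂ)
    (x : PG_G5_FC N) (hχa : PG_IsGoodChar N χa) (hχb : PG_IsGoodChar N χb)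
    (ha : PG_IsForm N k χa a) (hb : PG_IsForm N k χb b) (ha0 : a ≠ 0) (hb0 : b ≠ 0)
    (hx0 : x ≠ 0)
    (hx : (x : LaurentSeries ℂ) * laurentInf 1 (b ^ p) = laurentInf 1 (a ^ p))
    (v : Place ℂ (PG_G5_FC N)) (hv : v.ord (PG_G5_jElt N) < 0) :
    (p : ℤ) ∣ v.ord x := by
  haveI := PG_G5_finiteDimensional N
  have hj := PG_G5_TR N
  have ht := Fermat.Agent.S24_helper19_Final.transcendental_inv hj
  haveI hfd : FiniteDimensional ℂ⟮(PG_G5_jElt N)⁻¹⟯ (PG_G5_FC N) :=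
    Fermat.Agent.S24_helper19_Final.finiteDimensional_congr_field
      (Fermat.Agent.S24_helper19_Final.adjoin_inv (PG_G5_jElt N)).symm inferInstance
  have hI : Fintype.card (Q N) =
      Module.finrank ℂ⟮(PG_G5_jElt N)⁻¹⟯ (PG_G5_FC N) := by
    rw [Fermat.Agent.S24_helper19_Final.finrank_congr_field
      (Fermat.Agent.S24_helper19_Final.adjoin_inv (PG_G5_jElt N)), (PG_G5_DEG N).2,
      Fermat.Agent.S24_helper19_Final.card_Q]
  have hιt : ∀ q q', PG_G5_iotaInf N q (PG_G5_jElt N)⁻¹ =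
      PG_G5_iotaInf N q' (PG_G5_jElt N)⁻¹ := by
    intro q q'
    rw [map_inv₀, map_inv₀, PG_G5_iotaInf_jElt, PG_G5_iotaInf_jElt]
  have hvt : 0 < v.ord (PG_G5_jElt N)⁻¹ := by
    rw [Place.ord_inv]
    linarith
  have hN : 0 < N := Nat.pos_of_ne_zero (NeZero.ne N)
  have hζ : IsPrimitiveRoot (Complex.exp (2 * Real.pi * Complex.I / N)) N :=
    Complex.isPrimitiveRoot_exp N (NeZero.ne N)
  obtain ⟨q, e, kk, he, hkk, hek, hper, hw⟩ := PG_G5_exists_of_place
    ((PG_G5_jElt N)⁻¹) ht PG_G5_phi hI (PG_G5_iotaInf N)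
    (PG_G5_iotaInf_const N) (PG_G5_iotaInf_injective N) hιt N hN (PG_G5_iotaInf_order N)
    (Complex.exp (2 * Real.pi * Complex.I / N)) hζ
    (MulAction.toPerm ModularGroup.T⁻¹) (PG_G5_iotaInf_rescale N) v hvt
  set γ : SL(2, ℤ) := q.out⁻¹ with hγ
  have hδk : γ * ModularGroup.T ^ kk * γ⁻¹ ∈ Gamma0 N := by
    have := PG_G5_conj_mem_pow N ModularGroup.T q kk hper
    rw [hγ, inv_inv]
    exact this
  have hperN : ((MulAction.toPerm ModularGroup.T⁻¹ : Equiv.Perm (Q N)) ^ N) q = q := by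
    have key : ∀ m : ℕ, m = kk * e →
        ((MulAction.toPerm ModularGroup.T⁻¹ : Equiv.Perm (Q N)) ^ m) q = q := by
      intro m hm
      rw [hm, pow_mul]
      exact Equiv.Perm.pow_apply_eq_self_of_apply_eq_self hper e
    exact key N (by rw [← hek, mul_comm])
  have hδN : γ * ModularGroup.T ^ N * γ⁻¹ ∈ Gamma0 N := by
    have := PG_G5_conj_mem_pow N ModularGroup.T q N hperN
    rw [hγ, inv_inv]
    exact this
  -- the slashes
  have hPa : HasPoleInf N 0 (a ∣[k] γ) :=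
    ⟨MDifferentiable.slash ha.holo k _, fun z => PG_G5_slash_periodic hχa ha γ N hδN z,
      by simpa using ha.bdd γ⟩
  have hPb : HasPoleInf N 0 (b ∣[k] γ) :=
    ⟨MDifferentiable.slash hb.holo k _, fun z => PG_G5_slash_periodic hχb hb γ N hδN z,
      by simpa using hb.bdd γ⟩
  have hA := PG_G5_hasPoleInf_pow 1 (PG_G5_form_hasPoleInf hχa ha) p
  have hB := PG_G5_hasPoleInf_pow 1 (PG_G5_form_hasPoleInf hχb hb) p
  have hmul := PG_G5_iotaInf_mul N q x hA hB hx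
    (a' := fun w => (a ∣[k] γ) w ^ p) (b' := fun w => (b ∣[k] γ) w ^ p)
    (PG_G5_hasPoleInf_pow N hPa p) (PG_G5_hasPoleInf_pow N hPb p)
    (fun w => (denom (γ : GL (Fin 2) ℝ) w ^ (-k)) ^ p)
    (fun w => by
      rw [ModularForm.SL_slash_apply, Pi.pow_apply, mul_pow, mul_comm])
    (fun w => by
      rw [ModularForm.SL_slash_apply, Pi.pow_apply, mul_pow, mul_comm])
  rw [PG_G5_laurentInf_pow N hPa p, PG_G5_laurentInf_pow N hPb p] at hmul
  set A' := laurentInf N (a ∣[k] γ) with hA'def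
  set B' := laurentInf N (b ∣[k] γ) with hB'def
  have hA' : A' ≠ 0 := PG_G5_laurentInf_ne_zero N hPa (PG_G5_slash_ne_zero ha0 γ)
  have hB' : B' ≠ 0 := PG_G5_laurentInf_ne_zero N hPb (PG_G5_slash_ne_zero hb0 γ)
  have hιx : PG_G5_iotaInf N q x ≠ 0 := (map_ne_zero _).mpr hx0
  have hordeq : (PG_G5_iotaInf N q x).order + p * B'.order = p * A'.order := by
    have h1 := HahnSeries.order_mul hιx (pow_ne_zero p hB')
    rw [hmul, HahnSeries.order_pow, HahnSeries.order_pow] at h1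
    simp only [nsmul_eq_mul] at h1
    linarith
  have hwx := hw x hx0
  -- divisibility
  have hζk : IsPrimitiveRoot (Complex.exp (2 * Real.pi * Complex.I / N) ^ kk) e :=
    IsPrimitiveRoot.pow hN hζ (by rw [← hek, mul_comm])
  obtain ⟨m1, hm1⟩ := PG_G5_dvd_order_of_scale hA' hζk
    (fun n => PG_G5_coeff_of_periodic N hPa kk
      (fun w => PG_G5_slash_periodic hχa ha γ kk hδk w) n)
  obtain ⟨m2, hm2⟩ := PG_G5_dvd_order_of_scale hB' hζk
    (fun n => PG_G5_coeff_of_periodic N hPb kk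
      (fun w => PG_G5_slash_periodic hχb hb γ kk hδk w) n)
  have he0 : (e : ℤ) ≠ 0 := by exact_mod_cast he.ne'
  have h1 : (e : ℤ) * v.ord x = (e : ℤ) * ((p : ℤ) * (m1 - m2)) := by
    rw [← hwx]
    have h2 : (PG_G5_iotaInf N q x).order = p * (A'.order - B'.order) := by linarith
    rw [h2, hm1, hm2]
    ring
  exact ⟨m1 - m2, mul_left_cancel₀ he0 h1⟩

end Inf

/-! ### (an3) -/

theorem PG_G5_an3 (N p : ℕ) [NeZero N] (hp : p.Prime) : PG_AN3 N p := by
  intro k χa χb a b x hχa hχb ha hb ha0 hb0 hreal v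
  have hA := PG_G5_hasPoleInf_pow 1 (PG_G5_form_hasPoleInf hχa ha) p
  have hB := PG_G5_hasPoleInf_pow 1 (PG_G5_form_hasPoleInf hχb hb) p
  have hx := (PG_G5_realizes_iff x hA hB).mp hreal
  have hap : a ^ p ≠ 0 := by
    intro h0
    apply ha0
    funext u
    have := congrFun h0 u
    simpa using eq_zero_of_pow_eq_zero this
  have hx0 : x ≠ 0 := by
    rintro rfl
    apply hap
    apply Fermat.Agent.S24_helper21_LINF.laurentInf_eq_zero 1 hA
    rw [← hx]
    simp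
  haveI := PG_G5_finiteDimensional N
  have halg : Algebra.IsAlgebraic ℂ⟮PG_G5_jElt N⟯ (PG_G5_FC N) :=
    Algebra.IsAlgebraic.of_finite _ _
  by_cases hmem : PG_G5_jElt N ∈ v.toValuationSubring
  · obtain ⟨c, hc | hc⟩ :=
      Fermat.Agent.S24_helper15_A1.exists_const_sub_mem (PG_G5_jElt N) halg v (PG_G5_jElt N) hmem
    · exact PG_G5_an3_fin N p k χa χb a b x hχa hχb ha hb ha0 hb0 hx0 hx v c hc
    · exfalso
      apply PG_G5_TR N
      rw [hc]
      exact isAlgebraic_algebraMap c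
  · have hneg : v.ord (PG_G5_jElt N) < 0 := by
      by_contra h
      exact hmem (Fermat.Agent.S24_helper6_A2.mem_of_ord_nonneg v (not_lt.mp h))
    exact PG_G5_an3_inf N p k χa χb a b x hχa hχb ha hb ha0 hb0 hx0 hx v hneg

end Fermat.Agent.G_helper16_G5
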