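import Mathlib

/-!
# Project G, piece G9c1: Möbius inversion on a cyclic group

Pure finite group theory: for `s φ : G`, the number of `g` with `⟨g⁻¹ φ g⟩ = ⟨s⟩` is
`∑_{d ∣ n} μ(d) · #{g | g⁻¹ φ g ∈ ⟨s ^ d⟩}` with `n = orderOf s`.
-/

set_option autoImplicit false

namespace Fermat.Agent.G_helper17_MOEBIUS

open ArithmeticFunction Finset

/-- `∑_{d ∣ m} μ(d) = [m = 1]`. -/
theorem PG9c_sum_moebius_divisors (m : ℕ) :
    ∑ d ∈ m.divisors, (moebius d : ℤ) = if m = 1 then 1 else 0 := by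
  have h := congrArg (fun f : ArithmeticFunction ℤ => f m) moebius_mul_coe_zeta
  simp only [coe_mul_zeta_apply, one_apply] at h
  exact h

/-- `∑_{d ∣ n} μ(d) · (n / d) = φ(n)`. -/
theorem PG9c_sum_moebius_div (n : ℕ) (hn : 0 < n) :
    ∑ d ∈ n.divisors, (ArithmeticFunction.moebius d : ℤ) * ((n / d : ℕ) : ℤ) =
      (Nat.totient n : ℤ) := by
  have key := (sum_eq_iff_sum_mul_moebius_eq (R := ℤ) (f := fun i => (Nat.totient i : ℤ))
    (g := fun i => (i : ℤ))).1 (by
      intro m _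
      have := Nat.sum_totient m
      exact_mod_cast this) n hn
  rw [← key]
  exact (Nat.sum_divisorsAntidiagonal (n := n)
    (f := fun a b => (moebius a : ℤ) * ((b : ℕ) : ℤ))).symm

variable {G : Type*} [Group G]

/-- For `d ∣ orderOf s`, `|⟨s ^ d⟩| · d = orderOf s`. -/
theorem PG9c_card_zpowers_pow [Fintype G] (s : G) (d : ℕ)
    (hd : d ∣ orderOf s) : Nat.card (Subgroup.zpowers (s ^ d)) * d = orderOf s := by
  have hpos : 0 < orderOf s := orderOf_pos s
  have hd0 : d ≠ 0 := by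
    rintro rfl
    rw [zero_dvd_iff] at hd
    omega
  rw [Nat.card_zpowers, orderOf_pow_of_dvd hd0 hd, Nat.div_mul_cancel hd]

/-- For `d ∣ orderOf s`: `s ^ k ∈ ⟨s ^ d⟩ ↔ d ∣ k`. -/
theorem PG9c_pow_mem_zpowers_pow_iff [Finite G] (s : G) {d : ℕ} (hd : d ∣ orderOf s) (k : ℕ) :
    s ^ k ∈ Subgroup.zpowers (s ^ d) ↔ d ∣ k := by
  constructor
  · intro h
    rw [← mem_powers_iff_mem_zpowers] at h
    obtain ⟨i, hi⟩ := Submonoid.mem_powers_iff _ _ |>.1 h
    rw [← pow_mul, pow_eq_pow_iff_modEq] at hi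
    exact (hi.dvd_iff hd).1 (dvd_mul_right d i)
  · rintro ⟨j, rfl⟩
    rw [pow_mul]
    exact Subgroup.npow_mem_zpowers _ _

/-- `⟨s ^ k⟩ = ⟨s⟩ ↔ gcd(orderOf s, k) = 1`. -/
theorem PG9c_zpowers_pow_eq_iff (s : G) (k : ℕ) :
    Subgroup.zpowers (s ^ k) = Subgroup.zpowers s ↔ Nat.gcd (orderOf s) k = 1 := by
  rw [Nat.gcd_comm, ← mem_zpowers_pow_iff]
  constructor
  · intro h
    rw [h]
    exact Subgroup.mem_zpowers s
  · intro h
    apply le_antisymm
    · rw [Subgroup.zpowers_le]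
      exact Subgroup.npow_mem_zpowers _ _
    · rw [Subgroup.zpowers_le]
      exact h

/-- Pointwise Möbius inversion: `[⟨x⟩ = ⟨s⟩] = ∑_{d ∣ n} μ(d) [x ∈ ⟨s ^ d⟩]`. -/
theorem PG9c_pointwise [Finite G] (s x : G)
    [Decidable (Subgroup.zpowers x = Subgroup.zpowers s)]
    [∀ d : ℕ, Decidable (x ∈ Subgroup.zpowers (s ^ d))] :
    (if Subgroup.zpowers x = Subgroup.zpowers s then (1 : ℤ) else 0) =
      ∑ d ∈ (orderOf s).divisors, (moebius d : ℤ) *
        (if x ∈ Subgroup.zpowers (s ^ d) then (1 : ℤ) else 0) := by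
  have hpos : 0 < orderOf s := orderOf_pos s
  by_cases hx : x ∈ Subgroup.zpowers s
  · rw [← mem_powers_iff_mem_zpowers] at hx
    obtain ⟨k, hk⟩ := Submonoid.mem_powers_iff _ _ |>.1 hx
    have h1 : ∀ d ∈ (orderOf s).divisors, (moebius d : ℤ) *
        (if x ∈ Subgroup.zpowers (s ^ d) then (1 : ℤ) else 0) =
        if d ∣ k then (moebius d : ℤ) else 0 := by
      intro d hd
      have hiff : x ∈ Subgroup.zpowers (s ^ d) ↔ d ∣ k := by
        rw [← hk]
        exact PG9c_pow_mem_zpowers_pow_iff s (Nat.dvd_of_mem_divisors hd) k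
      by_cases hdk : d ∣ k
      · rw [if_pos (hiff.2 hdk), if_pos hdk, mul_one]
      · rw [if_neg (fun h => hdk (hiff.1 h)), if_neg hdk, mul_zero]
    rw [Finset.sum_congr rfl h1, ← Finset.sum_filter]
    have h2 : (orderOf s).divisors.filter (fun d => d ∣ k) = (Nat.gcd (orderOf s) k).divisors := by
      ext d
      simp only [Finset.mem_filter, Nat.mem_divisors, Nat.dvd_gcd_iff]
      constructor
      · rintro ⟨⟨h1, _⟩, h3⟩
        exact ⟨⟨h1, h3⟩, Nat.gcd_ne_zero_left hpos.ne'⟩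
      · rintro ⟨⟨h1, h3⟩, _⟩
        exact ⟨⟨h1, hpos.ne'⟩, h3⟩
    rw [h2, PG9c_sum_moebius_divisors]
    have hB : Subgroup.zpowers x = Subgroup.zpowers s ↔ Nat.gcd (orderOf s) k = 1 := by
      rw [← hk]
      exact PG9c_zpowers_pow_eq_iff s k
    by_cases hg : Nat.gcd (orderOf s) k = 1
    · rw [if_pos (hB.2 hg), if_pos hg]
    · rw [if_neg (fun h => hg (hB.1 h)), if_neg hg]
  · have h0 : ¬ Subgroup.zpowers x = Subgroup.zpowers s := by
      intro h
      exact hx (h ▸ Subgroup.mem_zpowers x)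
    rw [if_neg h0]
    symm
    apply Finset.sum_eq_zero
    intro d _
    have : x ∉ Subgroup.zpowers (s ^ d) := by
      intro h
      apply hx
      have hle : Subgroup.zpowers (s ^ d) ≤ Subgroup.zpowers s := by
        rw [Subgroup.zpowers_le]
        exact Subgroup.npow_mem_zpowers _ _
      exact hle h
    rw [if_neg this, mul_zero]

omit [Group G] in
theorem PG9c_natCard_subtype [Fintype G] (P : G → Prop) [DecidablePred P] :
    (Nat.card {g : G // P g} : ℤ) = ∑ g : G, if P g then (1 : ℤ) else 0 := by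
  rw [Nat.card_eq_fintype_card, Fintype.card_subtype, Finset.card_filter]
  push_cast
  rfl

/-- **Möbius inversion on the cyclic group `⟨s⟩`**, summed over the conjugates of `φ`. -/
theorem PG9c_moebius [Fintype G] (s φ : G) :
    (Nat.card {g : G // Subgroup.zpowers (g⁻¹ * φ * g) = Subgroup.zpowers s} : ℤ) =
      ∑ d ∈ (orderOf s).divisors, (ArithmeticFunction.moebius d : ℤ) *
        (Nat.card {g : G // g⁻¹ * φ * g ∈ Subgroup.zpowers (s ^ d)} : ℤ) := by
  classical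
  rw [PG9c_natCard_subtype]
  have h : ∀ d : ℕ, (Nat.card {g : G // g⁻¹ * φ * g ∈ Subgroup.zpowers (s ^ d)} : ℤ) =
      ∑ g : G, if g⁻¹ * φ * g ∈ Subgroup.zpowers (s ^ d) then (1 : ℤ) else 0 := fun d =>
    PG9c_natCard_subtype (fun g : G => g⁻¹ * φ * g ∈ Subgroup.zpowers (s ^ d))
  simp_rw [h, Finset.mul_sum]
  rw [Finset.sum_comm]
  refine Finset.sum_congr rfl fun g _ => ?_
  exact PG9c_pointwise s (g⁻¹ * φ * g)

end Fermat.Agent.G_helper17_MOEBIUS
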