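import Fermat.Agent.G_helper6_Contracts

/-!
# Project G: a toolkit for forms with character (helper18)

* `PG_FORMS_mul`, `PG_FORMS_pow`, `PG_FORMS_one` : products and powers of `PG_IsForm`s;
* `PG_FORMS_Nice` : `1`-periodic, holomorphic, bounded at `i∞`; forms with a good character are
  nice, and `PG_qLaur` is multiplicative and injective on nice functions;
* `PG_FORMS_chi_*` : the characters `PG_chi N p c`;
* `PG_FORMS_realizes_*` : algebra of `PG_Realizes`.
-/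

set_option autoImplicit false

open UpperHalfPlane ModularForm CongruenceSubgroup AlgebraicCurve Function
open scoped MatrixGroups ModularForm Manifold

noncomputable section

namespace Fermat.Agent.G_helper18_FORMS

open Fermat.Agent.G_helper6_Defs

variable {N : ℕ}

/-! ### Products and powers of forms -/

theorem PG_FORMS_mul {k k' : ℤ} {χ χ' : Gamma0 N →* ℂˣ} {a a' : ℍ → ℂ}
    (ha : PG_IsForm N k χ a) (ha' : PG_IsForm N k' χ' a') :
    PG_IsForm N (k + k') (χ * χ') (a * a') where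
  holo := ha.holo.mul ha'.holo
  aut := by
    intro γ z
    have hd : denom ((γ : SL(2, ℤ)) : GL (Fin 2) ℝ) z ≠ 0 := denom_ne_zero _ z
    simp only [Pi.mul_apply, ha.aut γ z, ha'.aut γ z, MonoidHom.mul_apply, Units.val_mul,
      zpow_add₀ hd]
    ring
  bdd := by
    intro σ
    rw [mul_slash_SL2]
    exact (ha.bdd σ).mul (ha'.bdd σ)

theorem PG_FORMS_one : PG_IsForm N 0 1 (1 : ℍ → ℂ) where
  holo := mdifferentiable_const
  aut := by
    intro γ z
    simp
  bdd := by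
    intro σ
    rw [is_invariant_one]
    exact Filter.const_boundedAtFilter _ (1 : ℂ)

theorem PG_FORMS_congr {k k' : ℤ} {χ χ' : Gamma0 N →* ℂˣ} {a a' : ℍ → ℂ}
    (ha : PG_IsForm N k χ a) (hk : k = k') (hχ : χ = χ') (haa : a = a') :
    PG_IsForm N k' χ' a' := by
  subst hk hχ haa
  exact ha

theorem PG_FORMS_pow {k : ℤ} {χ : Gamma0 N →* ℂˣ} {a : ℍ → ℂ}
    (ha : PG_IsForm N k χ a) (n : ℕ) : PG_IsForm N (n * k) (χ ^ n) (a ^ n) := by
  induction n with
  | zero =>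
    exact PG_FORMS_congr PG_FORMS_one (by simp) (pow_zero χ).symm (pow_zero a).symm
  | succ n ih =>
    exact PG_FORMS_congr (PG_FORMS_mul ih ha) (by push_cast; ring) (pow_succ χ n).symm
      (pow_succ a n).symm

theorem PG_FORMS_smul {k : ℤ} {χ : Gamma0 N →* ℂˣ} {a : ℍ → ℂ}
    (ha : PG_IsForm N k χ a) (c : ℂ) : PG_IsForm N k χ (c • a) where
  holo := ha.holo.const_smul c
  aut := by
    intro γ z
    simp only [Pi.smul_apply, ha.aut γ z, smul_eq_mul]
    ring
  bdd := by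
    intro σ
    rw [SL_smul_slash]
    exact Filter.BoundedAtFilter.smul c (ha.bdd σ)

/-! ### Good characters -/

theorem PG_FORMS_good_one : PG_IsGoodChar N (1 : Gamma0 N →* ℂˣ) where
  fin := ⟨1, one_pos, fun _ => by simp⟩
  par := fun _ _ => rfl
  tors := fun _ _ _ _ => rfl

theorem PG_FORMS_good_mul {χ χ' : Gamma0 N →* ℂˣ} (h : PG_IsGoodChar N χ)
    (h' : PG_IsGoodChar N χ') : PG_IsGoodChar N (χ * χ') where
  fin := by
    obtain ⟨n, hn, h1⟩ := h.fin
    obtain ⟨n', hn', h1'⟩ := h'.fin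
    refine ⟨n * n', Nat.mul_pos hn hn', fun γ => ?_⟩
    rw [MonoidHom.mul_apply, mul_pow, pow_mul, h1, one_pow, mul_comm n n', pow_mul, h1',
      one_pow, one_mul]
  par := fun γ hγ => by rw [MonoidHom.mul_apply, h.par γ hγ, h'.par γ hγ, one_mul]
  tors := fun γ n hn hγ => by
    rw [MonoidHom.mul_apply, h.tors γ n hn hγ, h'.tors γ n hn hγ, one_mul]

theorem PG_FORMS_good_pow {χ : Gamma0 N →* ℂˣ} (h : PG_IsGoodChar N χ) (n : ℕ) :
    PG_IsGoodChar N (χ ^ n) := by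
  induction n with
  | zero => exact (pow_zero χ).symm ▸ PG_FORMS_good_one
  | succ n ih => exact (pow_succ χ n).symm ▸ PG_FORMS_good_mul ih h

/-- the translation `T` lies in `Gamma0 N` -/
theorem PG_FORMS_T_mem : ModularGroup.T ∈ Gamma0 N := by
  rw [Gamma0_mem]
  simp [ModularGroup.T]

/-! ### Nice functions: `1`-periodic, holomorphic, bounded at `i∞` -/

/-- `1`-periodic, holomorphic and bounded at `i∞`. -/
structure PG_FORMS_Nice (a : ℍ → ℂ) : Prop where
  per : Periodic (a ∘ ofComplex) ((1 : ℝ) : ℂ)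
  holo : MDifferentiable 𝓘(ℂ) 𝓘(ℂ) a
  bdd : IsBoundedAtImInfty a

theorem PG_FORMS_nice_of_form {k : ℤ} {χ : Gamma0 N →* ℂˣ} {a : ℍ → ℂ}
    (hχ : PG_IsGoodChar N χ) (ha : PG_IsForm N k χ a) : PG_FORMS_Nice a where
  per := by
    intro w
    by_cases hw : 0 < w.im
    · have hw' : 0 < (w + ((1 : ℝ) : ℂ)).im := by simpa using hw
      simp only [comp_apply, ofComplex_apply_of_im_pos hw', ofComplex_apply_of_im_pos hw]
      have h1 := ha.aut ⟨ModularGroup.T, PG_FORMS_T_mem⟩ ⟨w, hw⟩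
      have h2 : χ ⟨ModularGroup.T, PG_FORMS_T_mem⟩ = 1 := by
        apply hχ.par
        simp [ModularGroup.T, Matrix.trace_fin_two]
      have h3 : denom ((ModularGroup.T : SL(2, ℤ)) : GL (Fin 2) ℝ) (⟨w, hw⟩ : ℍ) = 1 := by
        rw [ModularGroup.denom_apply]
        simp [ModularGroup.T]
      have h4 : (ModularGroup.T : SL(2, ℤ)) • (⟨w, hw⟩ : ℍ) = ⟨w + ((1 : ℝ) : ℂ), hw'⟩ := by
        apply UpperHalfPlane.ext
        rw [modular_T_smul, coe_vadd]
        simp [add_comm]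
      simp only [h2, h3, Units.val_one, one_zpow, one_mul] at h1
      rw [← h4]
      exact h1
    · have hw' : (w + ((1 : ℝ) : ℂ)).im ≤ 0 := by simpa using not_lt.mp hw
      show a (ofComplex (w + ((1 : ℝ) : ℂ))) = a (ofComplex w)
      rw [ofComplex_apply_of_im_nonpos hw', ofComplex_apply_of_im_nonpos (not_lt.mp hw)]
  holo := ha.holo
  bdd := by
    have := ha.bdd 1
    rwa [SlashAction.slash_one] at this

namespace PG_FORMS_Nice

variable {a b : ℍ → ℂ}

theorem analytic (ha : PG_FORMS_Nice a) : AnalyticAt ℂ (cuspFunction 1 a) 0 :=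
  analyticAt_cuspFunction_zero one_pos ha.per ha.holo ha.bdd

theorem mul (ha : PG_FORMS_Nice a) (hb : PG_FORMS_Nice b) : PG_FORMS_Nice (a * b) where
  per := by
    intro w
    have h1 := ha.per w
    have h2 := hb.per w
    simp only [comp_apply, Pi.mul_apply] at h1 h2 ⊢
    rw [h1, h2]
  holo := ha.holo.mul hb.holo
  bdd := ha.bdd.mul hb.bdd

theorem one : PG_FORMS_Nice (1 : ℍ → ℂ) where
  per := fun _ => rfl
  holo := mdifferentiable_const
  bdd := Filter.const_boundedAtFilter _ (1 : ℂ)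

theorem pow (ha : PG_FORMS_Nice a) (n : ℕ) : PG_FORMS_Nice (a ^ n) := by
  induction n with
  | zero => rw [pow_zero]; exact one
  | succ n ih => rw [pow_succ]; exact ih.mul ha

theorem smul (ha : PG_FORMS_Nice a) (c : ℂ) : PG_FORMS_Nice (c • a) where
  per := by
    intro w
    have h1 := ha.per w
    simp only [comp_apply, Pi.smul_apply] at h1 ⊢
    rw [h1]
  holo := ha.holo.const_smul c
  bdd := Filter.BoundedAtFilter.smul c ha.bdd

theorem sub (ha : PG_FORMS_Nice a) (hb : PG_FORMS_Nice b) : PG_FORMS_Nice (a - b) where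
  per := by
    intro w
    have h1 := ha.per w
    have h2 := hb.per w
    simp only [comp_apply, Pi.sub_apply] at h1 h2 ⊢
    rw [h1, h2]
  holo := ha.holo.sub hb.holo
  bdd := by
    have := ha.bdd.add hb.bdd.neg
    rwa [← sub_eq_add_neg] at this

theorem qLaur_mul (ha : PG_FORMS_Nice a) (hb : PG_FORMS_Nice b) :
    PG_qLaur (a * b) = PG_qLaur a * PG_qLaur b := by
  rw [PG_qLaur, PG_qLaur, PG_qLaur, qExpansion_mul ha.analytic hb.analytic, map_mul]

theorem qLaur_one : PG_qLaur (1 : ℍ → ℂ) = 1 := by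
  rw [PG_qLaur, qExpansion_one, map_one]

theorem qLaur_pow (ha : PG_FORMS_Nice a) (n : ℕ) : PG_qLaur (a ^ n) = PG_qLaur a ^ n := by
  induction n with
  | zero => rw [pow_zero, pow_zero]; exact qLaur_one
  | succ n ih => rw [pow_succ, pow_succ, (ha.pow n).qLaur_mul ha, ih]

theorem qLaur_eq_zero_iff (ha : PG_FORMS_Nice a) : PG_qLaur a = 0 ↔ a = 0 := by
  rw [PG_qLaur, map_eq_zero_iff _ HahnSeries.ofPowerSeries_injective,
    qExpansion_eq_zero_iff one_pos ha.per ha.holo ha.bdd]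

theorem qLaur_sub (ha : PG_FORMS_Nice a) (hb : PG_FORMS_Nice b) :
    PG_qLaur (a - b) = PG_qLaur a - PG_qLaur b := by
  rw [PG_qLaur, PG_qLaur, PG_qLaur, qExpansion_sub ha.analytic hb.analytic, map_sub]

theorem qLaur_smul (ha : PG_FORMS_Nice a) (c : ℂ) :
    PG_qLaur (c • a) = c • PG_qLaur a := by
  rw [PG_qLaur, PG_qLaur, qExpansion_smul ha.analytic, PowerSeries.smul_eq_C_mul, map_mul,
    HahnSeries.ofPowerSeries_C, HahnSeries.C_mul_eq_smul]

theorem qLaur_injective (ha : PG_FORMS_Nice a) (hb : PG_FORMS_Nice b)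
    (h : PG_qLaur a = PG_qLaur b) : a = b := by
  have h1 : PG_qLaur (a - b) = 0 := by rw [ha.qLaur_sub hb, h, sub_self]
  exact sub_eq_zero.mp ((ha.sub hb).qLaur_eq_zero_iff.mp h1)

end PG_FORMS_Nice

/-! ### The characters `PG_chi` -/

theorem PG_FORMS_chi_add (p : ℕ) (c c' : Additive (Gamma0 N) →+ ℤ) :
    PG_chi N p (c + c') = PG_chi N p c * PG_chi N p c' := by
  ext γ
  rw [MonoidHom.mul_apply, Units.val_mul, PG_chi_apply, PG_chi_apply, PG_chi_apply,
    ← Complex.exp_add]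
  congr 1
  rw [AddMonoidHom.add_apply]
  push_cast
  ring

theorem PG_FORMS_chi_zero (p : ℕ) : PG_chi N p 0 = 1 := by
  ext γ
  rw [PG_chi_apply]
  simp

theorem PG_FORMS_chi_pow (p : ℕ) (hp : p ≠ 0) (c : Additive (Gamma0 N) →+ ℤ) (γ : Gamma0 N) :
    PG_chi N p c γ ^ p = 1 := by
  apply Units.ext
  rw [Units.val_pow_eq_pow_val, PG_chi_apply, ← Complex.exp_nat_mul, Units.val_one]
  have hp' : (p : ℂ) ≠ 0 := by exact_mod_cast hp
  have : (p : ℂ) * (2 * Real.pi * Complex.I * (c (Additive.ofMul γ) : ℂ) / (p : ℂ)) =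
      (c (Additive.ofMul γ) : ℂ) * (2 * Real.pi * Complex.I) := by
    field_simp
  rw [this]
  exact Complex.exp_int_mul_two_pi_mul_I _

theorem PG_FORMS_chi_pow_eq_one (p : ℕ) (hp : p ≠ 0) (c : Additive (Gamma0 N) →+ ℤ) :
    PG_chi N p c ^ p = 1 := by
  ext γ
  rw [MonoidHom.pow_apply, PG_FORMS_chi_pow p hp c γ]
  rfl

theorem PG_FORMS_chi_apply_eq_one_iff (p : ℕ) (hp : p ≠ 0) (c : Additive (Gamma0 N) →+ ℤ)
    (γ : Gamma0 N) : PG_chi N p c γ = 1 ↔ (p : ℤ) ∣ c (Additive.ofMul γ) := by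
  have hp' : (p : ℂ) ≠ 0 := by exact_mod_cast hp
  have hpi : (2 * Real.pi * Complex.I : ℂ) ≠ 0 := by
    simp [Real.pi_ne_zero, Complex.I_ne_zero]
  rw [← Units.val_inj, PG_chi_apply, Units.val_one, Complex.exp_eq_one_iff]
  constructor
  · rintro ⟨n, hn⟩
    refine ⟨n, ?_⟩
    have h1 : (c (Additive.ofMul γ) : ℂ) = (p : ℂ) * (n : ℂ) := by
      field_simp at hn
      have h2 : (2 * Real.pi * Complex.I : ℂ) * (c (Additive.ofMul γ) : ℂ) =
          (2 * Real.pi * Complex.I : ℂ) * ((p : ℂ) * (n : ℂ)) := by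
        rw [hn]
      exact mul_left_cancel₀ hpi h2
    exact_mod_cast h1
  · rintro ⟨n, hn⟩
    refine ⟨n, ?_⟩
    rw [hn]
    push_cast
    field_simp

theorem PG_FORMS_chi_good (p : ℕ) (hp : p ≠ 0) (c : PG_M N) :
    PG_IsGoodChar N (PG_chi N p (c : Additive (Gamma0 N) →+ ℤ)) where
  fin := ⟨p, Nat.pos_of_ne_zero hp, fun γ => PG_FORMS_chi_pow p hp _ γ⟩
  par := by
    intro γ hγ
    rw [PG_FORMS_chi_apply_eq_one_iff p hp]
    have : (c : Additive (Gamma0 N) →+ ℤ) (Additive.ofMul γ) = 0 := c.2 γ hγ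
    rw [this]
    exact dvd_zero _
  tors := by
    intro γ n hn hγ
    rw [PG_FORMS_chi_apply_eq_one_iff p hp]
    have h1 : (c : Additive (Gamma0 N) →+ ℤ) (Additive.ofMul (γ ^ n)) = 0 := by
      rw [hγ]
      exact map_zero _
    have h2 : (c : Additive (Gamma0 N) →+ ℤ) (Additive.ofMul (γ ^ n)) =
        n • (c : Additive (Gamma0 N) →+ ℤ) (Additive.ofMul γ) := by
      rw [ofMul_pow, map_nsmul]
    rw [h2] at h1
    have h3 : (c : Additive (Gamma0 N) →+ ℤ) (Additive.ofMul γ) = 0 := by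
      rcases smul_eq_zero.mp h1 with h | h
      · exact absurd h hn.ne'
      · exact h
    rw [h3]
    exact dvd_zero _

/-! ### Algebra of `PG_Realizes` -/

theorem PG_FORMS_realizes_mul {x x' : PG_FC N} {a a' b b' : ℍ → ℂ}
    (ha : PG_FORMS_Nice a) (ha' : PG_FORMS_Nice a') (hb : PG_FORMS_Nice b)
    (hb' : PG_FORMS_Nice b') (h : PG_Realizes x a b) (h' : PG_Realizes x' a' b') :
    PG_Realizes (x * x') (a * a') (b * b') := by
  unfold PG_Realizes at h h' ⊢
  rw [ha.qLaur_mul ha', hb.qLaur_mul hb', ← h, ← h']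
  push_cast
  ring

theorem PG_FORMS_realizes_ne_zero {x : PG_FC N} {a b : ℍ → ℂ} (ha : PG_FORMS_Nice a)
    (ha0 : a ≠ 0) (h : PG_Realizes x a b) : x ≠ 0 := by
  intro hx
  unfold PG_Realizes at h
  rw [hx] at h
  simp only [ZeroMemClass.coe_zero, zero_mul] at h
  exact ha0 (ha.qLaur_eq_zero_iff.mp h.symm)

theorem PG_FORMS_qLaur_ne_zero {a : ℍ → ℂ} (ha : PG_FORMS_Nice a) (ha0 : a ≠ 0) :
    PG_qLaur a ≠ 0 := fun h => ha0 (ha.qLaur_eq_zero_iff.mp h)

theorem PG_FORMS_pow_ne_zero {a : ℍ → ℂ} (ha : PG_FORMS_Nice a) (ha0 : a ≠ 0) (n : ℕ) :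
    a ^ n ≠ 0 := by
  intro h
  have h1 : PG_qLaur (a ^ n) = 0 := (ha.pow n).qLaur_eq_zero_iff.mpr h
  rw [ha.qLaur_pow] at h1
  exact PG_FORMS_qLaur_ne_zero ha ha0 (eq_zero_of_pow_eq_zero h1)

theorem PG_FORMS_mul_ne_zero {a b : ℍ → ℂ} (ha : PG_FORMS_Nice a) (hb : PG_FORMS_Nice b)
    (ha0 : a ≠ 0) (hb0 : b ≠ 0) : a * b ≠ 0 := by
  intro h
  have h1 : PG_qLaur (a * b) = 0 := (ha.mul hb).qLaur_eq_zero_iff.mpr h
  rw [ha.qLaur_mul hb] at h1
  rcases mul_eq_zero.mp h1 with h2 | h2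
  · exact PG_FORMS_qLaur_ne_zero ha ha0 h2
  · exact PG_FORMS_qLaur_ne_zero hb hb0 h2

/-- a function tending to `1` at `i∞` is not zero -/
theorem PG_FORMS_ne_zero_of_tendsto {E : ℍ → ℂ} (h : Filter.Tendsto E atImInfty (nhds 1)) :
    E ≠ 0 := by
  intro h0
  rw [h0] at h
  have h1 : Filter.Tendsto (0 : ℍ → ℂ) atImInfty (nhds 0) := tendsto_const_nhds
  exact zero_ne_one (tendsto_nhds_unique h1 h)

end Fermat.Agent.G_helper18_FORMS
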