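import Mathlib

/-!
# Project G, piece G8a-ROOT: holomorphic `p`-th roots on the upper half plane

A holomorphic function `g` on the upper half plane, not identically zero, all of whose zero orders
are divisible by `p`, is the `p`-th power of a holomorphic function.

Proof: on every ball `B` whose closure lies in the upper half plane, `g` has finitely many zeros
in the closed ball; dividing by the factorized rational function of its divisor
(`MeromorphicOn.extract_zeros_poles`) leaves a zero-free holomorphic function, which has a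
holomorphic logarithm on the ball (`DifferentiableOn.isExactOn_ball`).  Roots on two balls through
a common base point, normalised at the base point, agree on the intersection (identity theorem),
so they glue.
-/

set_option autoImplicit false

namespace Fermat.Agent.G_helper3_G8aROOT

open Complex Metric Filter Topology Set

/-- A zero-free holomorphic function on a ball has a holomorphic `p`-th root. -/
theorem PG_G8aROOT_root_of_ne_zero (p : ℕ) (hp : 0 < p) (c : ℂ) (r : ℝ) (h : ℂ → ℂ)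
    (hh : DifferentiableOn ℂ h (ball c r)) (hne : ∀ z ∈ ball c r, h z ≠ 0) :
    ∃ ρ : ℂ → ℂ, DifferentiableOn ℂ ρ (ball c r) ∧ ∀ z ∈ ball c r, ρ z ^ p = h z := by
  by_cases hr : 0 < r
  swap
  · refine ⟨fun _ => 0, differentiableOn_const _, fun z hz => ?_⟩
    rw [ball_eq_empty.2 (not_lt.1 hr)] at hz
    exact absurd hz (Set.notMem_empty z)
  have hc : c ∈ ball c r := mem_ball_self hr
  have hφ : DifferentiableOn ℂ (fun z => deriv h z / h z) (ball c r) :=
    (hh.deriv isOpen_ball).div hh hne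
  obtain ⟨L, hL⟩ := hφ.isExactOn_ball
  set q : ℂ → ℂ := fun z => h z * Complex.exp (-L z) with hq
  have hqd : ∀ z ∈ ball c r, HasDerivAt q 0 z := by
    intro z hz
    have h1 : HasDerivAt h (deriv h z) z :=
      (hh.differentiableAt (isOpen_ball.mem_nhds hz)).hasDerivAt
    have h2 : HasDerivAt (fun z => Complex.exp (-L z))
        (Complex.exp (-L z) * (-(deriv h z / h z))) z := (hL z hz).neg.cexp
    have h3 := h1.mul h2
    have h4 : deriv h z * Complex.exp (-L z) +
        h z * (Complex.exp (-L z) * (-(deriv h z / h z))) = 0 := by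
      have := hne z hz
      field_simp
      ring
    rw [h4] at h3
    exact h3
  have hqconst : ∀ z ∈ ball c r, q z = q c := by
    intro z hz
    refine isOpen_ball.is_const_of_deriv_eq_zero (convex_ball c r).isPreconnected
      (fun x hx => (hqd x hx).differentiableAt.differentiableWithinAt)
      (fun x hx => (hqd x hx).deriv) hz hc
  have hC : q c ≠ 0 := mul_ne_zero (hne c hc) (Complex.exp_ne_zero _)
  obtain ⟨c₀, hc₀⟩ := IsAlgClosed.exists_pow_nat_eq (q c) hp
  refine ⟨fun z => c₀ * Complex.exp (L z / p), fun z hz => ?_, fun z hz => ?_⟩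
  · exact (((hL z hz).differentiableAt.div_const _).cexp.const_mul _).differentiableWithinAt
  · have h1 : h z = q c * Complex.exp (L z) := by
      rw [← hqconst z hz, hq]
      simp only
      rw [mul_assoc, ← Complex.exp_add, neg_add_cancel, Complex.exp_zero, mul_one]
    have hp0 : (p : ℂ) ≠ 0 := Nat.cast_ne_zero.2 hp.ne'
    rw [mul_pow, hc₀, ← Complex.exp_nat_mul, h1]
    congr 2
    field_simp


theorem PG_G8aROOT_isOpen_H : IsOpen {z : ℂ | 0 < z.im} :=
  isOpen_lt continuous_const Complex.continuous_im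

/-- A holomorphic `p`-th root on a ball whose closure lies in the upper half plane. -/
theorem PG_G8aROOT_root_on_ball (p : ℕ) (hp : 0 < p) (g : ℂ → ℂ)
    (hg : DifferentiableOn ℂ g {z : ℂ | 0 < z.im})
    (hord : ∀ z : ℂ, 0 < z.im → ∃ m : ℕ, analyticOrderAt g z = ((p * m : ℕ) : ℕ∞))
    (c : ℂ) (r : ℝ) (hcr : closedBall c r ⊆ {z : ℂ | 0 < z.im}) :
    ∃ f : ℂ → ℂ, DifferentiableOn ℂ f (ball c r) ∧ ∀ z ∈ ball c r, f z ^ p = g z := by
  classical
  set U : Set ℂ := closedBall c r with hU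
  have hgU : AnalyticOnNhd ℂ g U := fun z hz =>
    hg.analyticAt (PG_G8aROOT_isOpen_H.mem_nhds (hcr hz))
  have hmero : MeromorphicOn g U := hgU.meromorphicOn
  have hordU : ∀ u ∈ U, ∃ m : ℕ, meromorphicOrderAt g u = ((p * m : ℕ) : ℤ) := by
    intro u hu
    obtain ⟨m, hm⟩ := hord u (hcr hu)
    refine ⟨m, ?_⟩
    rw [(hgU u hu).meromorphicOrderAt_eq, hm]
    rfl
  have h₂ : ∀ u : U, meromorphicOrderAt g u ≠ ⊤ := by
    rintro ⟨u, hu⟩
    obtain ⟨m, hm⟩ := hordU u hu
    rw [hm]
    exact WithTop.coe_ne_top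
  have h₃ : (MeromorphicOn.divisor g U).support.Finite :=
    (MeromorphicOn.divisor g U).finiteSupport (isCompact_closedBall c r)
  obtain ⟨h, hh_an, hh_ne, hgh⟩ := hmero.extract_zeros_poles h₂ h₃
  set D : ℂ → ℤ := fun u => MeromorphicOn.divisor g U u with hD
  -- the divisor is `p` times a nonnegative function
  have hDp : ∀ u, ∃ m : ℕ, D u = (p : ℤ) * m := by
    intro u
    by_cases hu : u ∈ U
    · obtain ⟨m, hm⟩ := hordU u hu
      refine ⟨m, ?_⟩
      rw [hD]
      simp only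
      rw [hmero.divisor_apply hu, hm]
      simp
    · refine ⟨0, ?_⟩
      rw [hD]
      simp only
      rw [(MeromorphicOn.divisor g U).apply_eq_zero_of_notMem hu]
      simp
  choose m hm using hDp
  have hDfin : D.support.Finite := h₃
  have hmfin : (fun u => ((m u : ℕ) : ℤ)).support.Finite := by
    refine hDfin.subset fun u hu => ?_
    rw [Function.mem_support] at hu ⊢
    rw [hm u]
    intro h0
    apply hu
    rcases mul_eq_zero.1 h0 with h1 | h1
    · exact absurd h1 (by exact_mod_cast hp.ne')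
    · exact h1
  -- the root of the rational factor
  set W : ℂ → ℂ := ∏ᶠ u, (· - u) ^ ((m u : ℕ) : ℤ) with hW
  have hWan : ∀ x, AnalyticAt ℂ W x := fun x =>
    Function.FactorizedRational.analyticAt (d := fun u => ((m u : ℕ) : ℤ)) (by positivity)
  have hWp : ∀ x, W x ^ p = (∏ᶠ u, (· - u) ^ D u) x := by
    intro x
    rw [hW, Function.FactorizedRational.finprod_eq_fun hmfin,
      Function.FactorizedRational.finprod_eq_fun hDfin]
    simp only
    rw [finprod_pow]
    · refine finprod_congr fun u => ?_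
      rw [hm u, zpow_natCast, zpow_mul, zpow_natCast, zpow_natCast, ← pow_mul, ← pow_mul,
        mul_comm]
    · refine hmfin.subset fun u hu => ?_
      rw [Function.mem_mulSupport] at hu
      rw [Function.mem_support]
      intro h0
      apply hu
      rw [h0, zpow_zero]
  -- the root of the zero-free factor
  have hball : ball c r ⊆ U := ball_subset_closedBall
  obtain ⟨ρ, hρd, hρp⟩ := PG_G8aROOT_root_of_ne_zero p hp c r h
    (fun z hz => (hh_an z (hball hz)).differentiableAt.differentiableWithinAt)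
    (fun z hz => hh_ne ⟨z, hball hz⟩)
  refine ⟨fun z => W z * ρ z, fun z hz => ?_, fun z hz => ?_⟩
  · exact ((hWan z).differentiableAt.mul
      (hρd.differentiableAt (isOpen_ball.mem_nhds hz))).differentiableWithinAt
  · -- equality off a discrete set, then everywhere by analyticity
    have hfan : AnalyticAt ℂ (fun z => (W z * ρ z) ^ p) z :=
      ((hWan z).mul (hρd.analyticAt (isOpen_ball.mem_nhds hz))).pow p
    have hgan : AnalyticAt ℂ g z := hgU z (hball hz)
    have hev : ∀ᶠ x in 𝓝[≠] z, g x = (W x * ρ x) ^ p := by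
      have h1 := (mem_codiscreteWithin_iff_forall_mem_nhdsNE.1 hgh) z (hball hz)
      have h2 : ball c r ∈ 𝓝[≠] z := mem_nhdsWithin_of_mem_nhds (isOpen_ball.mem_nhds hz)
      filter_upwards [h1, h2] with x hx hxb
      rcases hx with hx | hx
      · have hx' : g x = ((∏ᶠ u, (· - u) ^ MeromorphicOn.divisor g U u) • h) x := hx
        rw [hx', mul_pow, hWp x, hρp x hxb]
        rfl
      · exact absurd (hball hxb) hx
    have h3 := (hgan.frequently_eq_iff_eventually_eq hfan).1 hev.frequently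
    exact (h3.self_of_nhds).symm


/-- Two holomorphic functions with the same `p`-th power on a preconnected open set, which agree
and do not vanish at one point, are equal. -/
theorem PG_G8aROOT_unique (p : ℕ) (hp : 0 < p) (V : Set ℂ) (hV : IsOpen V)
    (hV' : IsPreconnected V) (f₁ f₂ : ℂ → ℂ) (h₁ : DifferentiableOn ℂ f₁ V)
    (h₂ : DifferentiableOn ℂ f₂ V) (hpow : ∀ z ∈ V, f₁ z ^ p = f₂ z ^ p) (z₀ : ℂ) (hz₀ : z₀ ∈ V)
    (h0 : f₁ z₀ = f₂ z₀) (hne : f₁ z₀ ≠ 0) : EqOn f₁ f₂ V := by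
  have ha₁ : AnalyticOnNhd ℂ f₁ V := h₁.analyticOnNhd hV
  have ha₂ : AnalyticOnNhd ℂ f₂ V := h₂.analyticOnNhd hV
  refine ha₁.eqOn_of_preconnected_of_eventuallyEq ha₂ hV' hz₀ ?_
  -- the roots of unity different from `1`
  set T : Set ℂ := {ζ : ℂ | ζ ^ p = 1 ∧ ζ ≠ 1} with hT
  have hTfin : T.Finite := by
    have hpoly : (Polynomial.X ^ p - Polynomial.C 1 : Polynomial ℂ) ≠ 0 :=
      Polynomial.X_pow_sub_C_ne_zero hp 1
    refine (Polynomial.finite_setOfPred_isRoot hpoly).subset ?_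
    rintro ζ ⟨hζ, -⟩
    simp [hζ]
  have hT1 : Tᶜ ∈ 𝓝 (1 : ℂ) := hTfin.isClosed.isOpen_compl.mem_nhds (fun h => h.2 rfl)
  have hc₁ : ContinuousAt f₁ z₀ := (h₁.differentiableAt (hV.mem_nhds hz₀)).continuousAt
  have hc₂ : ContinuousAt f₂ z₀ := (h₂.differentiableAt (hV.mem_nhds hz₀)).continuousAt
  have hcr : ContinuousAt (fun z => f₂ z / f₁ z) z₀ := hc₂.div hc₁ hne
  have hr0 : f₂ z₀ / f₁ z₀ = 1 := by rw [← h0]; exact div_self hne
  have hev1 : ∀ᶠ z in 𝓝 z₀, f₂ z / f₁ z ∈ Tᶜ := by
    have := hcr.tendsto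
    rw [hr0] at this
    exact this.eventually hT1
  have hev2 : ∀ᶠ z in 𝓝 z₀, f₁ z ≠ 0 := hc₁.eventually_ne hne
  filter_upwards [hev1, hev2, hV.mem_nhds hz₀] with z hz1 hz2 hzV
  by_contra hcon
  apply hz1
  refine ⟨?_, fun h1 => hcon ?_⟩
  · rw [div_pow, ← hpow z hzV]
    exact div_self (pow_ne_zero p hz2)
  · rw [div_eq_one_iff_eq hz2] at h1
    exact h1.symm

/-- Two points of the upper half plane lie in a common ball whose closure is contained in the
upper half plane. -/
theorem PG_G8aROOT_exists_ball (z w : ℂ) (hz : 0 < z.im) (hw : 0 < w.im) :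
    ∃ (c : ℂ) (r : ℝ), z ∈ ball c r ∧ w ∈ ball c r ∧ closedBall c r ⊆ {x : ℂ | 0 < x.im} := by
  set δ : ℝ := min z.im w.im / 2 with hδ
  have hδ0 : 0 < δ := by
    rw [hδ]
    have := lt_min hz hw
    linarith
  have hδz : δ ≤ z.im / 2 := by
    rw [hδ]
    have := min_le_left z.im w.im
    linarith
  have hδw : δ ≤ w.im / 2 := by
    rw [hδ]
    have := min_le_right z.im w.im
    linarith
  set R : ℝ := (z.re ^ 2 + z.im ^ 2) / z.im + (w.re ^ 2 + w.im ^ 2) / w.im + δ + 1 with hR
  have hRz : z.re ^ 2 + z.im ^ 2 < R * z.im := by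
    have h1 : (z.re ^ 2 + z.im ^ 2) / z.im * z.im = z.re ^ 2 + z.im ^ 2 :=
      div_mul_cancel₀ _ hz.ne'
    have h2 : 0 ≤ (w.re ^ 2 + w.im ^ 2) / w.im := by positivity
    have h3 : R * z.im = (z.re ^ 2 + z.im ^ 2) / z.im * z.im +
        ((w.re ^ 2 + w.im ^ 2) / w.im + δ + 1) * z.im := by rw [hR]; ring
    have h4 : 0 < ((w.re ^ 2 + w.im ^ 2) / w.im + δ + 1) * z.im := by positivity
    linarith
  have hRw : w.re ^ 2 + w.im ^ 2 < R * w.im := by
    have h1 : (w.re ^ 2 + w.im ^ 2) / w.im * w.im = w.re ^ 2 + w.im ^ 2 :=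
      div_mul_cancel₀ _ hw.ne'
    have h2 : 0 ≤ (z.re ^ 2 + z.im ^ 2) / z.im := by positivity
    have h3 : R * w.im = (w.re ^ 2 + w.im ^ 2) / w.im * w.im +
        ((z.re ^ 2 + z.im ^ 2) / z.im + δ + 1) * w.im := by rw [hR]; ring
    have h4 : 0 < ((z.re ^ 2 + z.im ^ 2) / z.im + δ + 1) * w.im := by positivity
    linarith
  have hRδ : δ < R := by
    have h1 : 0 ≤ (z.re ^ 2 + z.im ^ 2) / z.im := by positivity
    have h2 : 0 ≤ (w.re ^ 2 + w.im ^ 2) / w.im := by positivity
    rw [hR]; linarith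
  have hR0 : 0 < R := hδ0.trans hRδ
  have key : ∀ x : ℂ, 0 < x.im → δ ≤ x.im / 2 → x.re ^ 2 + x.im ^ 2 < R * x.im →
      x ∈ ball ((R : ℂ) * Complex.I) (R - δ) := by
    intro x hx hxδ hxR
    rw [mem_ball, Complex.dist_eq]
    have hsq : ‖x - (R : ℂ) * Complex.I‖ ^ 2 < (R - δ) ^ 2 := by
      rw [Complex.sq_norm, Complex.normSq_apply]
      simp only [Complex.sub_re, Complex.sub_im, Complex.mul_re, Complex.mul_im,
        Complex.ofReal_re, Complex.ofReal_im, Complex.I_re, Complex.I_im, mul_zero, mul_one,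
        sub_zero, add_zero, sub_self]
      nlinarith [mul_pos hR0 hx, mul_pos hR0 hδ0, sq_nonneg δ]
    exact lt_of_pow_lt_pow_left₀ 2 (by linarith) hsq
  refine ⟨(R : ℂ) * Complex.I, R - δ, key z hz hδz hRz, key w hw hδw hRw, ?_⟩
  intro x hx
  rw [mem_closedBall, Complex.dist_eq] at hx
  have h1 : |(x - (R : ℂ) * Complex.I).im| ≤ ‖x - (R : ℂ) * Complex.I‖ :=
    Complex.abs_im_le_norm _
  have h2 : (x - (R : ℂ) * Complex.I).im = x.im - R := by
    simp
  rw [h2] at h1
  have h3 := (abs_le.1 (h1.trans hx)).1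
  show 0 < x.im
  linarith

/-- **G8a-ROOT.**  A holomorphic function on the upper half plane, not identically zero, all of
whose zero orders are divisible by `p`, is the `p`-th power of a holomorphic function. -/
theorem PG_exists_root (p : ℕ) (hp : 0 < p) (g : ℂ → ℂ)
    (hg : DifferentiableOn ℂ g {z : ℂ | 0 < z.im})
    (hne : ∃ z : ℂ, 0 < z.im ∧ g z ≠ 0)
    (hord : ∀ z : ℂ, 0 < z.im → ∃ m : ℕ, analyticOrderAt g z = ((p * m : ℕ) : ℕ∞)) :
    ∃ f : ℂ → ℂ, DifferentiableOn ℂ f {z : ℂ | 0 < z.im} ∧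
      ∀ z : ℂ, 0 < z.im → f z ^ p = g z := by
  classical
  obtain ⟨z₀, hz₀, hgz₀⟩ := hne
  obtain ⟨w₀, hw₀⟩ := IsAlgClosed.exists_pow_nat_eq (g z₀) hp
  have hw₀ne : w₀ ≠ 0 := by
    rintro rfl
    rw [zero_pow hp.ne'] at hw₀
    exact hgz₀ hw₀.symm
  -- normalised local roots
  have key : ∀ z : ℂ, 0 < z.im → ∃ (c : ℂ) (r : ℝ) (F : ℂ → ℂ), z ∈ ball c r ∧ z₀ ∈ ball c r ∧
      closedBall c r ⊆ {x : ℂ | 0 < x.im} ∧ DifferentiableOn ℂ F (ball c r) ∧
      (∀ x ∈ ball c r, F x ^ p = g x) ∧ F z₀ = w₀ := by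
    intro z hz
    obtain ⟨c, r, hzc, hz₀c, hcr⟩ := PG_G8aROOT_exists_ball z z₀ hz hz₀
    obtain ⟨F, hFd, hFp⟩ := PG_G8aROOT_root_on_ball p hp g hg hord c r hcr
    have hF0 : F z₀ ≠ 0 := by
      intro h0
      have := hFp z₀ hz₀c
      rw [h0, zero_pow hp.ne'] at this
      exact hgz₀ this.symm
    refine ⟨c, r, fun x => w₀ / F z₀ * F x, hzc, hz₀c, hcr, hFd.const_mul _, fun x hx => ?_, ?_⟩
    · rw [mul_pow, div_pow, hw₀, hFp z₀ hz₀c, div_self hgz₀, one_mul, hFp x hx]
    · exact div_mul_cancel₀ _ hF0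
  choose! c r F hzc hz₀c hcr hFd hFp hFz₀ using key
  -- compatibility
  have hcompat : ∀ z : ℂ, 0 < z.im → ∀ x ∈ ball (c z) (r z), F x x = F z x := by
    intro z hz x hx
    have hxH : 0 < x.im := hcr z hz (ball_subset_closedBall hx)
    have hV : IsOpen (ball (c z) (r z) ∩ ball (c x) (r x)) := isOpen_ball.inter isOpen_ball
    have hV' : IsPreconnected (ball (c z) (r z) ∩ ball (c x) (r x)) :=
      ((convex_ball _ _).inter (convex_ball _ _)).isPreconnected
    have := PG_G8aROOT_unique p hp _ hV hV' (F x) (F z)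
      ((hFd x hxH).mono Set.inter_subset_right) ((hFd z hz).mono Set.inter_subset_left)
      (fun y hy => by rw [hFp x hxH y hy.2, hFp z hz y hy.1]) z₀ ⟨hz₀c z hz, hz₀c x hxH⟩
      (by rw [hFz₀ x hxH, hFz₀ z hz]) (by rw [hFz₀ x hxH]; exact hw₀ne)
    exact this ⟨hx, hzc x hxH⟩
  refine ⟨fun z => F z z, fun z hz => ?_, fun z hz => hFp z hz z (hzc z hz)⟩
  have hz' : 0 < z.im := hz
  have hev : (fun x => F x x) =ᶠ[𝓝 z] F z := by
    filter_upwards [isOpen_ball.mem_nhds (hzc z hz')] with x hx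
    exact hcompat z hz' x hx
  have hd : DifferentiableAt ℂ (F z) z :=
    (hFd z hz').differentiableAt (isOpen_ball.mem_nhds (hzc z hz'))
  exact (hd.congr_of_eventuallyEq hev).differentiableWithinAt

end Fermat.Agent.G_helper3_G8aROOT
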