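import Fermat.Agent.G_helper18_FORMS
import Fermat.Agent.G_helper3_G8aROOT

/-!
# Project G, piece G6 (helper18): the map `Θ : M → Pic⁰ (F_ℂ) [p]`

For `c ∈ M = Hom_par (Gamma0 N, ℤ)` let `χ_c = exp (2 π i c / p)`.  If `a`, `b` are nonzero
forms of the same weight with characters `χ_c χ_b`, `χ_b` and `x ∈ F_ℂ` is realised by
`(a ^ p, b ^ p)`, then `div x` is divisible by `p` and `Θ c` is the class of `(1 / p) div x`.
-/

set_option autoImplicit false

open UpperHalfPlane ModularForm CongruenceSubgroup AlgebraicCurve Function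
open scoped MatrixGroups ModularForm Manifold

noncomputable section

namespace Fermat.Agent.G_helper18_G6

open Fermat.Agent.G_helper6_Defs Fermat.Agent.G_helper18_FORMS

/-! ### Divisor bookkeeping -/

section Divisors

variable {K F : Type*} [Field K] [Field F] [Algebra K F]

/-- `mk D = mk D'` if `D - D'` is the divisor of a function. -/
theorem PG_G6_mk_eq {D D' : Divisor.degZero (K := K) (F := F)} (y : F) (hy : y ≠ 0)
    (h : ∀ v : Place K F, (D : Divisor K F) v - (D' : Divisor K F) v = v.ord y) :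
    Pic0.mk D = Pic0.mk D' := by
  rw [Pic0.mk, Pic0.mk, QuotientAddGroup.eq, AddSubgroup.mem_addSubgroupOf]
  refine ⟨y⁻¹, inv_ne_zero hy, fun v => ?_⟩
  rw [Place.ord_inv, ← h v]
  simp only [AddSubgroup.coe_add, AddSubgroup.coe_neg, Finsupp.add_apply, Finsupp.neg_apply]
  ring

/-- `mk D = 0` iff `D` is the divisor of a function. -/
theorem PG_G6_mk_eq_zero {D : Divisor.degZero (K := K) (F := F)} (h : Pic0.mk D = 0) :
    ∃ u : F, u ≠ 0 ∧ ∀ v : Place K F, (D : Divisor K F) v = v.ord u := by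
  rw [Pic0.mk, QuotientAddGroup.eq_zero_iff, AddSubgroup.mem_addSubgroupOf] at h
  exact h

/-- Division of a principal divisor by `p`. -/
theorem PG_G6_exists_div [HasPrincipalDivisors K F] (p : ℕ) (hp : p ≠ 0) (x : F) (hx : x ≠ 0)
    (h : ∀ v : Place K F, (p : ℤ) ∣ v.ord x) :
    ∃ D : Divisor.degZero (K := K) (F := F),
      ∀ v : Place K F, (p : ℤ) * (D : Divisor K F) v = v.ord x := by
  obtain ⟨D', hD', hdeg⟩ := HasPrincipalDivisors.exists_divisor (K := K) x hx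
  let D : Divisor K F := D'.mapRange (fun n => n / (p : ℤ)) (by simp)
  have hD : ∀ v, (p : ℤ) * D v = v.ord x := by
    intro v
    rw [Finsupp.mapRange_apply, hD' v]
    exact Int.mul_ediv_cancel' (h v)
  have hpD : (p : ℤ) • D = D' := by
    ext v
    rw [Finsupp.smul_apply, smul_eq_mul, hD v, hD' v]
  have hdeg' : Divisor.degree D = 0 := by
    have := congrArg Divisor.degree hpD
    rw [map_zsmul, hdeg, smul_eq_mul] at this
    rcases mul_eq_zero.mp this with h0 | h0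
    · exact absurd (by exact_mod_cast h0) hp
    · exact h0
  exact ⟨⟨D, hdeg'⟩, hD⟩

theorem PG_G6_ord_pow (v : Place K F) (y : F) (n : ℕ) : v.ord (y ^ n) = n * v.ord y := by
  rw [← zpow_natCast, Place.ord_zpow]

end Divisors

/-! ### Rigidity -/

/-- Two holomorphic functions on `ℍ` whose `p`-th powers are proportional are proportional. -/
theorem PG_G6_rigid (p : ℕ) (hp : 0 < p) (f g : ℍ → ℂ) (hf : MDifferentiable 𝓘(ℂ) 𝓘(ℂ) f)
    (hg : MDifferentiable 𝓘(ℂ) 𝓘(ℂ) g) (κ : ℂ) (h : f ^ p = κ • g ^ p) (hf0 : f ≠ 0) :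
    ∃ ζ : ℂ, f = ζ • g := by
  obtain ⟨z₀, hz₀⟩ : ∃ z₀ : ℍ, f z₀ ≠ 0 := by
    by_contra hcon
    push Not at hcon
    exact hf0 (funext hcon)
  have hpt : ∀ z : ℍ, f z ^ p = κ * g z ^ p := fun z => by
    have := congrFun h z
    simpa using this
  have hg₀ : g z₀ ≠ 0 := by
    intro h0
    have := hpt z₀
    rw [h0, zero_pow hp.ne', mul_zero] at this
    exact hz₀ (pow_eq_zero_iff hp.ne' |>.mp this)
  set ζ : ℂ := f z₀ / g z₀ with hζ
  have hζp : ζ ^ p = κ := by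
    rw [hζ, div_pow, hpt z₀, mul_div_assoc, div_self (pow_ne_zero p hg₀), mul_one]
  refine ⟨ζ, ?_⟩
  have hV : IsOpen {z : ℂ | 0 < z.im} := isOpen_lt continuous_const Complex.continuous_im
  have hV' : IsPreconnected {z : ℂ | 0 < z.im} := (convex_halfSpace_im_gt 0).isPreconnected
  have h1 : DifferentiableOn ℂ (f ∘ ofComplex) {z : ℂ | 0 < z.im} :=
    UpperHalfPlane.mdifferentiable_iff.mp hf
  have h2 : DifferentiableOn ℂ (fun w => ζ * (g ∘ ofComplex) w) {z : ℂ | 0 < z.im} :=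
    (UpperHalfPlane.mdifferentiable_iff.mp hg).const_mul ζ
  have hEq := Fermat.Agent.G_helper3_G8aROOT.PG_G8aROOT_unique p hp _ hV hV' _ _ h1 h2
    (fun w hw => by
      simp only [comp_apply, mul_pow, hζp]
      exact hpt _) (z₀ : ℂ) z₀.2
    (by
      simp only [comp_apply, ofComplex_apply]
      rw [hζ, div_mul_cancel₀ _ hg₀])
    (by
      simp only [comp_apply, ofComplex_apply]
      exact hz₀)
  funext z
  have := hEq z.2
  simp only [comp_apply, ofComplex_apply] at this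
  rw [this]
  rfl

/-! ### The data computing `Θ c` -/

variable {N p : ℕ}

/-- A divisor `D` of degree `0` computes `Θ c`. -/
def PG_G6_Datum (N p : ℕ) (c : PG_M N) (D : Divisor.degZero (K := ℂ) (F := PG_FC N)) : Prop :=
  ∃ (k : ℤ) (χb : Gamma0 N →* ℂˣ) (a b : ℍ → ℂ) (x : PG_FC N),
    PG_IsGoodChar N χb ∧
    PG_IsForm N k (PG_chi N p (c : Additive (Gamma0 N) →+ ℤ) * χb) a ∧
    PG_IsForm N k χb b ∧ a ≠ 0 ∧ b ≠ 0 ∧ PG_Realizes x (a ^ p) (b ^ p) ∧
    ∀ v : Place ℂ (PG_FC N), (p : ℤ) * (D : Divisor ℂ (PG_FC N)) v = v.ord x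

/-- Cancellation in the field of Laurent series. -/
theorem PG_G6_cancel {L : Type*} [Field L] {u v w : L} (hw : w ≠ 0) (h : u * w = v * w) :
    u = v := mul_right_cancel₀ hw h

/-- **Uniqueness**: two data for the same `c` give the same class. -/
theorem PG_G6_datum_unique (hp : p ≠ 0) (h1 : PG_AN1 N) {c : PG_M N}
    {D D' : Divisor.degZero (K := ℂ) (F := PG_FC N)}
    (h : PG_G6_Datum N p c D) (h' : PG_G6_Datum N p c D') : Pic0.mk D = Pic0.mk D' := by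
  obtain ⟨k, χb, a, b, x, hχb, ha, hb, ha0, hb0, hx, hD⟩ := h
  obtain ⟨k', χb', a', b', x', hχb', ha', hb', ha0', hb0', hx', hD'⟩ := h'
  have hχc := PG_FORMS_chi_good (N := N) p hp c
  set χc := PG_chi N p (c : Additive (Gamma0 N) →+ ℤ) with hχc_def
  -- niceness
  have na := PG_FORMS_nice_of_form (PG_FORMS_good_mul hχc hχb) ha
  have nb := PG_FORMS_nice_of_form hχb hb
  have na' := PG_FORMS_nice_of_form (PG_FORMS_good_mul hχc hχb') ha'
  have nb' := PG_FORMS_nice_of_form hχb' hb'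
  -- the two forms `A = a b'` and `B = a' b` with the same weight and character
  have hψ : PG_IsGoodChar N (χc * χb * χb') := PG_FORMS_good_mul (PG_FORMS_good_mul hχc hχb) hχb'
  have hA : PG_IsForm N (k + k') (χc * χb * χb') (a * b') := PG_FORMS_mul ha hb'
  have hB : PG_IsForm N (k + k') (χc * χb * χb') (a' * b) :=
    PG_FORMS_congr (PG_FORMS_mul ha' hb) (add_comm k' k) (mul_right_comm χc χb' χb) rfl
  have nA := na.mul nb'
  have nB := na'.mul nb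
  have hB0 : a' * b ≠ 0 := PG_FORMS_mul_ne_zero na' nb ha0' hb0
  obtain ⟨n, hn, hψn⟩ := hψ.fin
  obtain ⟨m, rfl⟩ := Nat.exists_eq_succ_of_ne_zero hn.ne'
  have hψ1 : (χc * χb * χb') ^ (m + 1) = 1 := by
    ext γ
    rw [MonoidHom.pow_apply, hψn γ]
    rfl
  have hDen : PG_IsForm N (((m + 1 : ℕ) : ℤ) * (k + k')) 1 ((a' * b) ^ (m + 1)) :=
    PG_FORMS_congr (PG_FORMS_pow hB (m + 1)) rfl hψ1 rfl
  have hNum : PG_IsForm N (((m + 1 : ℕ) : ℤ) * (k + k')) 1 ((a * b') * (a' * b) ^ m) :=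
    PG_FORMS_congr (PG_FORMS_mul hA (PG_FORMS_pow hB m)) (by push_cast; ring)
      (MonoidHom.ext fun γ => by
        rw [MonoidHom.mul_apply, MonoidHom.pow_apply, ← pow_succ', hψn γ]
        rfl) rfl
  obtain ⟨y, hy⟩ := h1 _ _ _ hNum hDen (PG_FORMS_pow_ne_zero nB hB0 _)
  -- `y * qL (a' b) = qL (a b')`
  have hqB : PG_qLaur (a' * b) ≠ 0 := PG_FORMS_qLaur_ne_zero nB hB0
  have hy1 : (y : LaurentSeries ℂ) * PG_qLaur (a' * b) = PG_qLaur (a * b') := by
    unfold PG_Realizes at hy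
    rw [nB.qLaur_pow, nA.qLaur_mul (nB.pow m), nB.qLaur_pow, pow_succ, ← mul_assoc] at hy
    have hy' : (y : LaurentSeries ℂ) * PG_qLaur (a' * b) * PG_qLaur (a' * b) ^ m =
        PG_qLaur (a * b') * PG_qLaur (a' * b) ^ m := by
      rw [← hy]
      ring
    exact PG_G6_cancel (pow_ne_zero m hqB) hy'
  rw [na'.qLaur_mul nb, na.qLaur_mul nb'] at hy1
  -- the relations for `x`, `x'`
  have hx1 : (x : LaurentSeries ℂ) * PG_qLaur b ^ p = PG_qLaur a ^ p := by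
    unfold PG_Realizes at hx
    rwa [nb.qLaur_pow, na.qLaur_pow] at hx
  have hx1' : (x' : LaurentSeries ℂ) * PG_qLaur b' ^ p = PG_qLaur a' ^ p := by
    unfold PG_Realizes at hx'
    rwa [nb'.qLaur_pow, na'.qLaur_pow] at hx'
  have hqb : PG_qLaur b ≠ 0 := PG_FORMS_qLaur_ne_zero nb hb0
  have hqb' : PG_qLaur b' ≠ 0 := PG_FORMS_qLaur_ne_zero nb' hb0'
  have hxy : ((y ^ p * x' : PG_FC N) : LaurentSeries ℂ) = (x : LaurentSeries ℂ) := by
    push_cast
    have h2 : (y : LaurentSeries ℂ) ^ p * (x' : LaurentSeries ℂ) *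
        (PG_qLaur b' ^ p * PG_qLaur b ^ p) =
        (x : LaurentSeries ℂ) * (PG_qLaur b' ^ p * PG_qLaur b ^ p) := by
      calc (y : LaurentSeries ℂ) ^ p * (x' : LaurentSeries ℂ) *
            (PG_qLaur b' ^ p * PG_qLaur b ^ p)
          = (y : LaurentSeries ℂ) ^ p * ((x' : LaurentSeries ℂ) * PG_qLaur b' ^ p) *
              PG_qLaur b ^ p := by ring
        _ = ((y : LaurentSeries ℂ) * (PG_qLaur a' * PG_qLaur b)) ^ p := by
            rw [hx1']
            ring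
        _ = (PG_qLaur a * PG_qLaur b') ^ p := by rw [hy1]
        _ = ((x : LaurentSeries ℂ) * PG_qLaur b ^ p) * PG_qLaur b' ^ p := by
            rw [hx1]
            ring
        _ = (x : LaurentSeries ℂ) * (PG_qLaur b' ^ p * PG_qLaur b ^ p) := by ring
    exact PG_G6_cancel (mul_ne_zero (pow_ne_zero p hqb') (pow_ne_zero p hqb)) h2
  have hxy' : y ^ p * x' = x := Subtype.ext hxy
  have hx0 : x ≠ 0 := PG_FORMS_realizes_ne_zero (na.pow p) (PG_FORMS_pow_ne_zero na ha0 p) hx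
  have hx0' : x' ≠ 0 :=
    PG_FORMS_realizes_ne_zero (na'.pow p) (PG_FORMS_pow_ne_zero na' ha0' p) hx'
  have hy0 : y ≠ 0 := by
    intro h0
    rw [h0, zero_pow hp, zero_mul] at hxy'
    exact hx0 hxy'.symm
  refine PG_G6_mk_eq y hy0 (fun v => ?_)
  have h3 : v.ord x = (p : ℤ) * v.ord y + v.ord x' := by
    rw [← hxy', Place.ord_mul v (pow_ne_zero p hy0) hx0', PG_G6_ord_pow]
  have h4 : (p : ℤ) * ((D : Divisor ℂ (PG_FC N)) v - (D' : Divisor ℂ (PG_FC N)) v) =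
      (p : ℤ) * v.ord y := by
    rw [mul_sub, hD v, hD' v, h3]
    ring
  exact mul_left_cancel₀ (by exact_mod_cast hp) h4

/-- **Additivity** of the data. -/
theorem PG_G6_datum_add (hp : p ≠ 0) {c c' : PG_M N}
    {D D' : Divisor.degZero (K := ℂ) (F := PG_FC N)}
    (h : PG_G6_Datum N p c D) (h' : PG_G6_Datum N p c' D') :
    PG_G6_Datum N p (c + c') (D + D') := by
  obtain ⟨k, χb, a, b, x, hχb, ha, hb, ha0, hb0, hx, hD⟩ := h
  obtain ⟨k', χb', a', b', x', hχb', ha', hb', ha0', hb0', hx', hD'⟩ := h'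
  have hχc := PG_FORMS_chi_good (N := N) p hp c
  have hχc' := PG_FORMS_chi_good (N := N) p hp c'
  have na := PG_FORMS_nice_of_form (PG_FORMS_good_mul hχc hχb) ha
  have nb := PG_FORMS_nice_of_form hχb hb
  have na' := PG_FORMS_nice_of_form (PG_FORMS_good_mul hχc' hχb') ha'
  have nb' := PG_FORMS_nice_of_form hχb' hb'
  have hx0 : x ≠ 0 := PG_FORMS_realizes_ne_zero (na.pow p) (PG_FORMS_pow_ne_zero na ha0 p) hx
  have hx0' : x' ≠ 0 :=
    PG_FORMS_realizes_ne_zero (na'.pow p) (PG_FORMS_pow_ne_zero na' ha0' p) hx'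
  refine ⟨k + k', χb * χb', a * a', b * b', x * x', PG_FORMS_good_mul hχb hχb', ?_,
    PG_FORMS_mul hb hb', PG_FORMS_mul_ne_zero na na' ha0 ha0',
    PG_FORMS_mul_ne_zero nb nb' hb0 hb0', ?_, fun v => ?_⟩
  · refine PG_FORMS_congr (PG_FORMS_mul ha ha') rfl ?_ rfl
    rw [Submodule.coe_add, PG_FORMS_chi_add]
    exact MonoidHom.ext fun γ => by
      simp only [MonoidHom.mul_apply]
      exact mul_mul_mul_comm _ _ _ _
  · rw [mul_pow, mul_pow]
    exact PG_FORMS_realizes_mul (na.pow p) (na'.pow p) (nb.pow p) (nb'.pow p) hx hx'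
  · rw [Place.ord_mul v hx0 hx0', ← hD v, ← hD' v]
    simp only [AddSubgroup.coe_add, Finsupp.add_apply]
    ring

/-- **Existence** of a datum. -/
theorem PG_G6_exists_datum (hp : p ≠ 0) [HasPrincipalDivisors ℂ (PG_FC N)]
    (hE : PG_EIS N) (h1 : PG_AN1 N) (h3 : PG_AN3 N p) (c : PG_M N) :
    ∃ D : Divisor.degZero (K := ℂ) (F := PG_FC N), PG_G6_Datum N p c D := by
  have hχc := PG_FORMS_chi_good (N := N) p hp c
  obtain ⟨Ec, hEc, hEct⟩ := hE _ hχc
  obtain ⟨E1, hE1, hE1t⟩ := hE 1 PG_FORMS_good_one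
  have hEc0 := PG_FORMS_ne_zero_of_tendsto hEct
  have hE10 := PG_FORMS_ne_zero_of_tendsto hE1t
  have nc := PG_FORMS_nice_of_form hχc hEc
  have n1 := PG_FORMS_nice_of_form PG_FORMS_good_one hE1
  have hNum : PG_IsForm N ((p : ℤ) * 4) 1 (Ec ^ p) :=
    PG_FORMS_congr (PG_FORMS_pow hEc p) rfl (PG_FORMS_chi_pow_eq_one p hp _) rfl
  have hDen : PG_IsForm N ((p : ℤ) * 4) 1 (E1 ^ p) :=
    PG_FORMS_congr (PG_FORMS_pow hE1 p) rfl
      (MonoidHom.ext fun γ => by rw [MonoidHom.pow_apply, MonoidHom.one_apply, one_pow]) rfl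
  obtain ⟨x, hx⟩ := h1 _ _ _ hNum hDen (PG_FORMS_pow_ne_zero n1 hE10 p)
  have hx0 : x ≠ 0 := PG_FORMS_realizes_ne_zero (nc.pow p) (PG_FORMS_pow_ne_zero nc hEc0 p) hx
  have hdvd := h3 4 _ 1 Ec E1 x hχc PG_FORMS_good_one hEc hE1 hEc0 hE10 hx
  obtain ⟨D, hD⟩ := PG_G6_exists_div (K := ℂ) p hp x hx0 hdvd
  exact ⟨D, 4, 1, Ec, E1, x, PG_FORMS_good_one,
    PG_FORMS_congr hEc rfl (MonoidHom.ext fun γ => by
      rw [MonoidHom.mul_apply, MonoidHom.one_apply, mul_one]) rfl, hE1, hEc0, hE10, hx, hD⟩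

/-! ### The map `Θ` -/

/-- The class attached to `c`, given the existence of data. -/
def PG_G6_thetaFun
    (hex : ∀ c : PG_M N, ∃ D : Divisor.degZero (K := ℂ) (F := PG_FC N), PG_G6_Datum N p c D)
    (c : PG_M N) : PG_JC N :=
  Pic0.mk (hex c).choose

theorem PG_G6_thetaFun_eq (hp : p ≠ 0) (h1 : PG_AN1 N)
    (hex : ∀ c : PG_M N, ∃ D : Divisor.degZero (K := ℂ) (F := PG_FC N), PG_G6_Datum N p c D)
    {c : PG_M N} {D : Divisor.degZero (K := ℂ) (F := PG_FC N)} (hD : PG_G6_Datum N p c D) :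
    PG_G6_thetaFun hex c = Pic0.mk D :=
  PG_G6_datum_unique hp h1 (hex c).choose_spec hD

/-- `Θ` as an additive map. -/
def PG_G6_theta (hp : p ≠ 0) (h1 : PG_AN1 N)
    (hex : ∀ c : PG_M N, ∃ D : Divisor.degZero (K := ℂ) (F := PG_FC N), PG_G6_Datum N p c D) :
    PG_M N →+ PG_JC N :=
  AddMonoidHom.mk' (PG_G6_thetaFun hex) (fun c c' => by
    rw [PG_G6_thetaFun_eq hp h1 hex
      (PG_G6_datum_add hp (hex c).choose_spec (hex c').choose_spec), Pic0.mk_add]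
    rfl)

theorem PG_G6_theta_apply (hp : p ≠ 0) (h1 : PG_AN1 N)
    (hex : ∀ c : PG_M N, ∃ D : Divisor.degZero (K := ℂ) (F := PG_FC N), PG_G6_Datum N p c D)
    (c : PG_M N) : PG_G6_theta hp h1 hex c = PG_G6_thetaFun hex c := rfl

/-- `p Θ = 0`. -/
theorem PG_G6_tors (hp : p ≠ 0) (h1 : PG_AN1 N)
    (hex : ∀ c : PG_M N, ∃ D : Divisor.degZero (K := ℂ) (F := PG_FC N), PG_G6_Datum N p c D)
    (c : PG_M N) : (p : ℤ) • PG_G6_theta hp h1 hex c = 0 := by
  obtain ⟨D, hD⟩ := hex c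
  rw [PG_G6_theta_apply, PG_G6_thetaFun_eq hp h1 hex hD]
  obtain ⟨k, χb, a, b, x, hχb, ha, hb, ha0, hb0, hx, hDx⟩ := hD
  have hχc := PG_FORMS_chi_good (N := N) p hp c
  have na := PG_FORMS_nice_of_form (PG_FORMS_good_mul hχc hχb) ha
  have hx0 : x ≠ 0 := PG_FORMS_realizes_ne_zero (na.pow p) (PG_FORMS_pow_ne_zero na ha0 p) hx
  have h2 : (p : ℤ) • Pic0.mk D = Pic0.mk ((p : ℤ) • D) := rfl
  rw [h2, ← Pic0.mk_zero]
  refine PG_G6_mk_eq x hx0 (fun v => ?_)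
  simp only [AddSubgroup.coe_zsmul, Finsupp.smul_apply, smul_eq_mul, AddSubgroup.coe_zero,
    Finsupp.zero_apply, sub_zero]
  exact hDx v

/-- `Θ` is injective modulo `p`. -/
theorem PG_G6_inj (hp : p ≠ 0) (h1 : PG_AN1 N) (h2 : PG_AN2 N) (h5 : PG_AN5 N)
    (hex : ∀ c : PG_M N, ∃ D : Divisor.degZero (K := ℂ) (F := PG_FC N), PG_G6_Datum N p c D)
    (c : PG_M N) (hc : PG_G6_theta hp h1 hex c = 0) : ∃ c' : PG_M N, c = (p : ℤ) • c' := by
  obtain ⟨D, hD⟩ := hex c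
  rw [PG_G6_theta_apply, PG_G6_thetaFun_eq hp h1 hex hD] at hc
  obtain ⟨k, χb, a, b, x, hχb, ha, hb, ha0, hb0, hx, hDx⟩ := hD
  have hχc := PG_FORMS_chi_good (N := N) p hp c
  have na := PG_FORMS_nice_of_form (PG_FORMS_good_mul hχc hχb) ha
  have nb := PG_FORMS_nice_of_form hχb hb
  have hx0 : x ≠ 0 := PG_FORMS_realizes_ne_zero (na.pow p) (PG_FORMS_pow_ne_zero na ha0 p) hx
  -- `D = div u`
  obtain ⟨u, hu0, hu⟩ := PG_G6_mk_eq_zero hc
  -- `x = κ u ^ p`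
  have hord : ∀ v : Place ℂ (PG_FC N), v.ord (x * (u ^ p)⁻¹) = 0 := by
    intro v
    rw [Place.ord_mul v hx0 (inv_ne_zero (pow_ne_zero p hu0)), Place.ord_inv, PG_G6_ord_pow,
      ← hDx v, hu v]
    ring
  obtain ⟨κ, hκ⟩ := h5 (x * (u ^ p)⁻¹) (mul_ne_zero hx0 (inv_ne_zero (pow_ne_zero p hu0))) hord
  have hxκ : x = algebraMap ℂ (PG_FC N) κ * u ^ p := by
    rw [← hκ, mul_assoc, inv_mul_cancel₀ (pow_ne_zero p hu0), mul_one]
  -- `u = A / B`
  obtain ⟨k', A, B, hA, hB, hB0, hu'⟩ := h2 u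
  have nA := PG_FORMS_nice_of_form PG_FORMS_good_one hA
  have nB := PG_FORMS_nice_of_form PG_FORMS_good_one hB
  -- the two functions `f = a B`, `g = A b`
  have hf : PG_IsForm N (k + k') (PG_chi N p (c : Additive (Gamma0 N) →+ ℤ) * χb) (a * B) :=
    PG_FORMS_congr (PG_FORMS_mul ha hB) rfl (MonoidHom.ext fun γ => by
      simp only [MonoidHom.mul_apply, MonoidHom.one_apply, mul_one]) rfl
  have hg : PG_IsForm N (k + k') χb (A * b) :=
    PG_FORMS_congr (PG_FORMS_mul hA hb) (add_comm k' k) (MonoidHom.ext fun γ => by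
      simp only [MonoidHom.mul_apply, MonoidHom.one_apply, one_mul]) rfl
  have nf := na.mul nB
  have ng := nA.mul nb
  have hf0 : a * B ≠ 0 := PG_FORMS_mul_ne_zero na nB ha0 hB0
  -- `f ^ p = κ g ^ p`
  have hfg : (a * B) ^ p = κ • (A * b) ^ p := by
    apply (nf.pow p).qLaur_injective ((ng.pow p).smul κ)
    rw [((ng.pow p)).qLaur_smul, nf.qLaur_pow, ng.qLaur_pow, na.qLaur_mul nB, nA.qLaur_mul nb]
    unfold PG_Realizes at hx hu'
    rw [na.qLaur_pow, nb.qLaur_pow] at hx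
    rw [mul_pow, ← hx, mul_pow, ← hu', hxκ]
    push_cast
    rw [mul_pow, ← HahnSeries.C_mul_eq_smul]
    have hC : algebraMap ℂ (LaurentSeries ℂ) κ = HahnSeries.C κ := by
      rw [ModularCurve.algebraMap_laurentSeries_eq_single, HahnSeries.C_apply]
    rw [hC]
    ring
  obtain ⟨ζ, hζ⟩ := PG_G6_rigid p (Nat.pos_of_ne_zero hp) (a * B) (A * b) nf.holo ng.holo κ
    hfg hf0
  -- compare characters
  obtain ⟨z₀, hz₀⟩ : ∃ z₀ : ℍ, (a * B) z₀ ≠ 0 := by
    by_contra hcon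
    push Not at hcon
    exact hf0 (funext hcon)
  have hχ1 : ∀ γ : Gamma0 N, PG_chi N p (c : Additive (Gamma0 N) →+ ℤ) γ = 1 := by
    intro γ
    have e1 := hf.aut γ z₀
    have e2 := hg.aut γ z₀
    have hd : denom ((γ : SL(2, ℤ)) : GL (Fin 2) ℝ) z₀ ^ (k + k') ≠ 0 :=
      zpow_ne_zero _ (denom_ne_zero _ z₀)
    have e3 : (a * B) ((γ : SL(2, ℤ)) • z₀) = ζ * (A * b) ((γ : SL(2, ℤ)) • z₀) := by
      rw [hζ]
      rfl
    have e4 : (a * B) z₀ = ζ * (A * b) z₀ := by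
      rw [hζ]
      rfl
    rw [e1, e2, MonoidHom.mul_apply, Units.val_mul] at e3
    have hχb0 : ((χb γ : ℂˣ) : ℂ) ≠ 0 := Units.ne_zero _
    have e5 : ((PG_chi N p (c : Additive (Gamma0 N) →+ ℤ) γ : ℂˣ) : ℂ) *
        (((χb γ : ℂˣ) : ℂ) * denom ((γ : SL(2, ℤ)) : GL (Fin 2) ℝ) z₀ ^ (k + k') *
          (a * B) z₀) =
        1 * (((χb γ : ℂˣ) : ℂ) * denom ((γ : SL(2, ℤ)) : GL (Fin 2) ℝ) z₀ ^ (k + k') *
          (a * B) z₀) := by
      rw [one_mul]
      calc _ = ((PG_chi N p (c : Additive (Gamma0 N) →+ ℤ) γ : ℂˣ) : ℂ) * ((χb γ : ℂˣ) : ℂ) *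
            denom ((γ : SL(2, ℤ)) : GL (Fin 2) ℝ) z₀ ^ (k + k') * (a * B) z₀ := by ring
        _ = ζ * (((χb γ : ℂˣ) : ℂ) * denom ((γ : SL(2, ℤ)) : GL (Fin 2) ℝ) z₀ ^ (k + k') *
            (A * b) z₀) := e3
        _ = ((χb γ : ℂˣ) : ℂ) * denom ((γ : SL(2, ℤ)) : GL (Fin 2) ℝ) z₀ ^ (k + k') *
            (ζ * (A * b) z₀) := by ring
        _ = _ := by rw [← e4]
    have e6 := mul_right_cancel₀ (mul_ne_zero (mul_ne_zero hχb0 hd) hz₀) e5
    exact Units.ext e6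
  -- divide `c` by `p`
  have hdvd : ∀ γ : Gamma0 N, (p : ℤ) ∣ (c : Additive (Gamma0 N) →+ ℤ) (Additive.ofMul γ) :=
    fun γ => (PG_FORMS_chi_apply_eq_one_iff p hp _ γ).mp (hχ1 γ)
  have hp' : (p : ℤ) ≠ 0 := by exact_mod_cast hp
  let c0 : Additive (Gamma0 N) →+ ℤ :=
    { toFun := fun γ => (c : Additive (Gamma0 N) →+ ℤ) γ / (p : ℤ)
      map_zero' := by simp
      map_add' := fun γ γ' => by
        rw [map_add]
        exact Int.add_ediv_of_dvd_left (hdvd (Additive.toMul γ)) }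
  have hc0 : ∀ γ, (p : ℤ) * c0 γ = (c : Additive (Gamma0 N) →+ ℤ) γ := fun γ =>
    Int.mul_ediv_cancel' (hdvd (Additive.toMul γ))
  have hc0par : c0 ∈ PG_M N := by
    intro γ hγ
    have h0 : (c : Additive (Gamma0 N) →+ ℤ) (Additive.ofMul γ) = 0 := c.2 γ hγ
    have := hc0 (Additive.ofMul γ)
    rw [h0] at this
    rcases mul_eq_zero.mp this with h | h
    · exact absurd h hp'
    · exact h
  refine ⟨⟨c0, hc0par⟩, Subtype.ext (AddMonoidHom.ext fun γ => ?_)⟩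
  rw [Submodule.coe_smul, AddMonoidHom.smul_apply, smul_eq_mul]
  exact (hc0 γ).symm

/-- **G6.** The map `Θ : M → Pic⁰ (F_ℂ)`. -/
theorem PG_G6 (N p : ℕ) [NeZero N] (hp : p.Prime) [HasPrincipalDivisors ℂ (PG_FC N)]
    (hE : PG_EIS N) (h1 : PG_AN1 N) (h2 : PG_AN2 N) (h3 : PG_AN3 N p) (h5 : PG_AN5 N) :
    ∃ Θ : PG_M N →+ PG_JC N, PG_THETA N p Θ := by
  have hp0 : p ≠ 0 := hp.ne_zero
  have hex := PG_G6_exists_datum hp0 hE h1 h3
  refine ⟨PG_G6_theta hp0 h1 hex, ⟨PG_G6_tors hp0 h1 hex, PG_G6_inj hp0 h1 h2 h5 hex, ?_⟩⟩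
  intro c k χb a b x D hχb ha hb ha0 hb0 hx hD
  rw [PG_G6_theta_apply]
  exact PG_G6_thetaFun_eq hp0 h1 hex ⟨k, χb, a, b, x, hχb, ha, hb, ha0, hb0, hx, hD⟩

end Fermat.Agent.G_helper18_G6
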