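import Fermat.Agent.G_helper18_G6

/-!
# Project G / S30 follow-up (helper18): `Θ` for an arbitrary modulus and compatibility

* `PG_G6ADIC_exists` : `PG_G6` for every modulus `m ≠ 0` (no primality).
* `PG_G6ADIC_datum_pow` : a datum at the modulus `m * m'` gives a datum at the modulus `m`.
* `PG_G6ADIC_compat` : `Θ_m c = m' • Θ_(m m') c`.
* `PG_G6ADIC_family` : the compatible family `Θ_(p ^ n)`.
-/

set_option autoImplicit false

open UpperHalfPlane ModularForm CongruenceSubgroup AlgebraicCurve Function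
open scoped MatrixGroups ModularForm Manifold

noncomputable section

namespace Fermat.Agent.G_helper18_G6ADIC

open Fermat.Agent.G_helper6_Defs Fermat.Agent.G_helper18_FORMS Fermat.Agent.G_helper18_G6

variable {N : ℕ}

/-- **G6 for an arbitrary modulus** `m ≠ 0`. -/
theorem PG_G6ADIC_exists (N m : ℕ) [NeZero N] (hm : m ≠ 0)
    [HasPrincipalDivisors ℂ (PG_FC N)]
    (hE : PG_EIS N) (h1 : PG_AN1 N) (h2 : PG_AN2 N) (h3 : PG_AN3 N m) (h5 : PG_AN5 N) :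
    ∃ Θ : PG_M N →+ PG_JC N, PG_THETA N m Θ := by
  have hex := PG_G6_exists_datum hm hE h1 h3
  refine ⟨PG_G6_theta hm h1 hex, ⟨PG_G6_tors hm h1 hex, PG_G6_inj hm h1 h2 h5 hex, ?_⟩⟩
  intro c k χb a b x D hχb ha hb ha0 hb0 hx hD
  rw [PG_G6_theta_apply]
  exact PG_G6_thetaFun_eq hm h1 hex ⟨k, χb, a, b, x, hχb, ha, hb, ha0, hb0, hx, hD⟩

/-- Existence of the datum, unfolded (the hypotheses of `PG_THETA.char`). -/
theorem PG_G6ADIC_exists_datum (N m : ℕ) [NeZero N] (hm : m ≠ 0)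
    [HasPrincipalDivisors ℂ (PG_FC N)]
    (hE : PG_EIS N) (h1 : PG_AN1 N) (h3 : PG_AN3 N m) (c : PG_M N) :
    ∃ (k : ℤ) (χb : Gamma0 N →* ℂˣ) (a b : ℍ → ℂ) (x : PG_FC N)
      (D : Divisor.degZero (K := ℂ) (F := PG_FC N)),
      PG_IsGoodChar N χb ∧
      PG_IsForm N k (PG_chi N m (c : Additive (Gamma0 N) →+ ℤ) * χb) a ∧
      PG_IsForm N k χb b ∧ a ≠ 0 ∧ b ≠ 0 ∧ PG_Realizes x (a ^ m) (b ^ m) ∧
      ∀ v : Place ℂ (PG_FC N), (m : ℤ) * (D : Divisor ℂ (PG_FC N)) v = v.ord x := by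
  obtain ⟨D, k, χb, a, b, x, h⟩ := PG_G6_exists_datum hm hE h1 h3 c
  exact ⟨k, χb, a, b, x, D, h⟩

/-- The character at the modulus `m` is the `m'`-th power of the character at the modulus
`m * m'`. -/
theorem PG_G6ADIC_chi_pow (m m' : ℕ) (hm' : m' ≠ 0) (c : Additive (Gamma0 N) →+ ℤ) :
    PG_chi N (m * m') c ^ m' = PG_chi N m c := by
  ext γ
  rw [MonoidHom.pow_apply, Units.val_pow_eq_pow_val, PG_chi_apply, PG_chi_apply,
    ← Complex.exp_nat_mul]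
  congr 1
  have h' : (m' : ℂ) ≠ 0 := by exact_mod_cast hm'
  by_cases hm : m = 0
  · subst hm
    simp
  have h : (m : ℂ) ≠ 0 := by exact_mod_cast hm
  push_cast
  field_simp

/-- A datum at the modulus `m * m'` gives a datum at the modulus `m`. -/
theorem PG_G6ADIC_datum_pow {m m' : ℕ} (hm : m ≠ 0) (hm' : m' ≠ 0) {c : PG_M N}
    {D : Divisor.degZero (K := ℂ) (F := PG_FC N)} (hD : PG_G6_Datum N (m * m') c D) :
    PG_G6_Datum N m c ((m' : ℤ) • D) := by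
  obtain ⟨k, χb, a, b, x, hχb, ha, hb, ha0, hb0, hx, hDx⟩ := hD
  have hmm : m * m' ≠ 0 := Nat.mul_ne_zero hm hm'
  have hχc := PG_FORMS_chi_good (N := N) (m * m') hmm c
  have na := PG_FORMS_nice_of_form (PG_FORMS_good_mul hχc hχb) ha
  have nb := PG_FORMS_nice_of_form hχb hb
  refine ⟨(m' : ℤ) * k, χb ^ m', a ^ m', b ^ m', x, PG_FORMS_good_pow hχb m', ?_,
    PG_FORMS_pow hb m', PG_FORMS_pow_ne_zero na ha0 m', PG_FORMS_pow_ne_zero nb hb0 m', ?_, ?_⟩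
  · refine PG_FORMS_congr (PG_FORMS_pow ha m') rfl ?_ rfl
    rw [← PG_G6ADIC_chi_pow m m' hm' (c : Additive (Gamma0 N) →+ ℤ)]
    exact MonoidHom.ext fun γ => by
      rw [MonoidHom.pow_apply, MonoidHom.mul_apply, MonoidHom.mul_apply, MonoidHom.pow_apply,
        MonoidHom.pow_apply, mul_pow]
  · rw [← pow_mul, ← pow_mul, mul_comm m' m]
    exact hx
  · intro v
    rw [← hDx v]
    simp only [AddSubgroup.coe_zsmul, Finsupp.smul_apply, smul_eq_mul]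
    push_cast
    ring

/-- **Compatibility**: `Θ_m c = m' • Θ_(m m') c`. -/
theorem PG_G6ADIC_compat (N m m' : ℕ) [NeZero N] (hm : m ≠ 0) (hm' : m' ≠ 0)
    [HasPrincipalDivisors ℂ (PG_FC N)]
    (hE : PG_EIS N) (h1 : PG_AN1 N) (h3 : PG_AN3 N (m * m'))
    {Θ Θ' : PG_M N →+ PG_JC N} (hΘ : PG_THETA N m Θ) (hΘ' : PG_THETA N (m * m') Θ')
    (c : PG_M N) : Θ c = (m' : ℤ) • Θ' c := by
  have hmm : m * m' ≠ 0 := Nat.mul_ne_zero hm hm'
  obtain ⟨D, hD⟩ := PG_G6_exists_datum hmm hE h1 h3 c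
  obtain ⟨k', χb', a', b', x', hχb', ha', hb', ha0', hb0', hx', hDx'⟩ :=
    PG_G6ADIC_datum_pow hm hm' hD
  obtain ⟨k, χb, a, b, x, hχb, ha, hb, ha0, hb0, hx, hDx⟩ := hD
  rw [hΘ.char c k' χb' a' b' x' _ hχb' ha' hb' ha0' hb0' hx' hDx',
    hΘ'.char c k χb a b x D hχb ha hb ha0 hb0 hx hDx]
  rfl

/-- **The compatible family** `Θ_(p ^ n)`. -/
theorem PG_G6ADIC_family (N p : ℕ) [NeZero N] (hp : p ≠ 0)
    [HasPrincipalDivisors ℂ (PG_FC N)]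
    (hE : PG_EIS N) (h1 : PG_AN1 N) (h2 : PG_AN2 N) (h3 : ∀ n : ℕ, PG_AN3 N (p ^ n))
    (h5 : PG_AN5 N) :
    ∃ Θ : ℕ → PG_M N →+ PG_JC N, (∀ n, PG_THETA N (p ^ n) (Θ n)) ∧
      ∀ (n : ℕ) (c : PG_M N), (p : ℤ) • Θ (n + 1) c = Θ n c := by
  have hex : ∀ n : ℕ, ∃ Θ : PG_M N →+ PG_JC N, PG_THETA N (p ^ n) Θ := fun n =>
    PG_G6ADIC_exists N (p ^ n) (pow_ne_zero n hp) hE h1 h2 (h3 n) h5
  choose Θ hΘ using hex
  refine ⟨Θ, hΘ, fun n c => ?_⟩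
  have h3' : PG_AN3 N (p ^ n * p) := by
    rw [← pow_succ]
    exact h3 (n + 1)
  have hΘ' : PG_THETA N (p ^ n * p) (Θ (n + 1)) := by
    rw [← pow_succ]
    exact hΘ (n + 1)
  exact (PG_G6ADIC_compat N (p ^ n) p (pow_ne_zero n hp) hp hE h1 h3' (hΘ n) hΘ' c).symm

end Fermat.Agent.G_helper18_G6ADIC
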