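import Mathlib

/-!
# Project G, piece G2b (helper18): reduction of an eigen-system

A common eigenvector in `ℂ ⊗ M` of a family of endomorphisms of a lattice `M` has integral
eigenvalues, and for every ring homomorphism `φ` from the ring of algebraic integers to a
field `k` there is a nonzero common eigenvector in `k ⊗ M` with the reduced eigenvalues.

The proof is linear algebra: the eigenvector equations form a homogeneous linear system with
coefficients in the ring `O` of algebraic integers; it has a nonzero solution over a field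
containing `O` iff all maximal minors vanish, and this property is preserved by `φ`.
-/

set_option autoImplicit false
set_option linter.unusedVariables false

open Matrix Module
open scoped TensorProduct

namespace Fermat.Agent.G_helper18_REDUCE

section Core

variable {n : Type*} [Fintype n] [DecidableEq n] {J : Type*}
  {O K k : Type*} [CommRing O] [CommRing K] [IsDomain K] [Field k]

/-- If the rows of a family of matrices over a field have no common nonzero orthogonal vector,
they span the whole space. -/
theorem PG_REDUCE_span_rows (B : J → Matrix n n k)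
    (h : ∀ y : n → k, (∀ j, B j *ᵥ y = 0) → y = 0) :
    Submodule.span k {r : n → k | ∃ j l, r = B j l} = ⊤ := by
  by_contra hne
  obtain ⟨ψ, hψ0, hψ⟩ := Submodule.exists_le_ker_of_lt_top _ (lt_top_iff_ne_top.mpr hne)
  let y : n → k := fun c => ψ (fun j => if c = j then 1 else 0)
  have hψy : ∀ r : n → k, ψ r = r ⬝ᵥ y := by
    intro r
    rw [LinearMap.pi_apply_eq_sum_univ ψ r]
    simp only [dotProduct, smul_eq_mul, y]
  have hy : y = 0 := by
    apply h
    intro j
    ext l
    have h1 : B j l ∈ Submodule.span k {r : n → k | ∃ j l, r = B j l} :=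
      Submodule.subset_span ⟨j, l, rfl⟩
    have h2 := hψ h1
    rw [LinearMap.mem_ker, hψy] at h2
    exact h2
  apply hψ0
  apply LinearMap.ext
  intro r
  rw [hψy, hy]
  simp

/-- **Core lemma**: solvability of a homogeneous linear system in a nonzero vector is preserved
by ring homomorphisms to fields. -/
theorem PG_REDUCE_core (f : O →+* K) (hf : Function.Injective f) (φ : O →+* k)
    (N : J → Matrix n n O) (x : n → K) (hx : x ≠ 0)
    (hN : ∀ j, (N j).map f *ᵥ x = 0) :
    ∃ y : n → k, y ≠ 0 ∧ ∀ j, (N j).map φ *ᵥ y = 0 := by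
  by_contra hcon
  have h : ∀ y : n → k, (∀ j, (N j).map φ *ᵥ y = 0) → y = 0 := by
    intro y hy
    by_contra hy0
    exact hcon ⟨y, hy0, hy⟩
  have hspan := PG_REDUCE_span_rows (fun j => (N j).map φ) h
  set S : Set (n → k) := {r : n → k | ∃ j l, r = (N j).map φ l} with hS
  obtain ⟨g, hgS, -, hgli⟩ := Submodule.exists_fun_fin_finrank_span_eq k S
  have hcard : Fintype.card n = Fintype.card (Fin (finrank k (Submodule.span k S))) := by
    rw [Fintype.card_fin, hspan, finrank_top, Module.finrank_fintype_fun_eq_card]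
  let e : n ≃ Fin (finrank k (Submodule.span k S)) := Fintype.equivOfCardEq hcard
  choose jj ll hjl using hgS
  -- the square matrix of the chosen rows, over `O`
  let R : Matrix n n O := fun i c => N (jj (e i)) (ll (e i)) c
  have hRφ : (R.map φ).row = g ∘ e := by
    funext i
    rw [Function.comp_apply, hjl (e i)]
    rfl
  have hli : LinearIndependent k (R.map φ).row := by
    rw [hRφ]
    exact hgli.comp e e.injective
  have hunit : IsUnit (R.map φ) := linearIndependent_rows_iff_isUnit.mp hli
  have hdetφ : (R.map φ).det ≠ 0 := by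
    have := (Matrix.isUnit_iff_isUnit_det _).mp hunit
    exact this.ne_zero
  have hdet : R.det ≠ 0 := by
    intro h0
    apply hdetφ
    have h1 : (R.map φ).det = φ R.det := by
      rw [← RingHom.mapMatrix_apply, ← RingHom.map_det]
    rw [h1, h0, map_zero]
  have hdetf : (R.map f).det ≠ 0 := by
    have h1 : (R.map f).det = f R.det := by
      rw [← RingHom.mapMatrix_apply, ← RingHom.map_det]
    rw [h1]
    intro h0
    exact hdet (hf (by rw [h0, map_zero]))
  apply hdetf
  rw [← Matrix.exists_mulVec_eq_zero_iff]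
  refine ⟨x, hx, ?_⟩
  ext i
  have := congrFun (hN (jj (e i))) (ll (e i))
  exact this

/-- Bookkeeping: the matrix of `A - c` after base change along `g`. -/
theorem PG_REDUCE_map_mulVec {R S : Type*} [CommRing R] [CommRing S] (g : R →+* S)
    (A : Matrix n n ℤ) (c : R) (y : n → S) :
    ((A.map (algebraMap ℤ R) - c • (1 : Matrix n n R)).map g) *ᵥ y =
      (A.map (algebraMap ℤ S)) *ᵥ y - g c • y := by
  have h : (A.map (algebraMap ℤ R) - c • (1 : Matrix n n R)).map g =
      A.map (algebraMap ℤ S) - g c • (1 : Matrix n n S) := by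
    ext i j
    simp only [Matrix.map_apply, Matrix.sub_apply, Matrix.smul_apply, Matrix.one_apply,
      smul_eq_mul, map_sub, map_mul, eq_intCast, map_intCast]
    split_ifs <;> simp
  rw [h, Matrix.sub_mulVec, Matrix.smul_mulVec, Matrix.one_mulVec]

end Core

section Main

open Polynomial

variable {M : Type*} [AddCommGroup M] [Module.Finite ℤ M] [Module.Free ℤ M]

/-- The eigenvalues of an endomorphism of a lattice are algebraic integers. -/
theorem PG_REDUCE_integral (T : Module.End ℤ M) (v : ℂ ⊗[ℤ] M) (hv : v ≠ 0) (a : ℂ)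
    (hav : T.baseChange ℂ v = a • v) : IsIntegral ℤ a := by
  refine ⟨T.charpoly, LinearMap.charpoly_monic T, ?_⟩
  have hev : Module.End.HasEigenvector (T.baseChange ℂ) a v :=
    ⟨Module.End.mem_eigenspace_iff.mpr hav, hv⟩
  have h1 := Module.End.aeval_apply_of_hasEigenvector (p := (T.baseChange ℂ).charpoly) hev
  rw [LinearMap.aeval_self_charpoly, LinearMap.zero_apply, LinearMap.charpoly_baseChange] at h1
  have h2 := (smul_eq_zero.mp h1.symm).resolve_right hv
  rw [eval_map] at h2
  exact h2

/-- **G2b.** Reduction of an eigen-system. -/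
theorem PG_reduce_eigen {ι : Type*} {M : Type*} [AddCommGroup M] [Module.Finite ℤ M]
    [Module.Free ℤ M] (T : ι → Module.End ℤ M) (hT : ∀ i j, Commute (T i) (T j))
    (v : ℂ ⊗[ℤ] M) (hv : v ≠ 0) (a : ι → ℂ)
    (hav : ∀ i, (T i).baseChange ℂ v = a i • v)
    {p : ℕ} (hp : p.Prime) {k : Type*} [Field k] [CharP k p]
    (φ : integralClosure ℤ ℂ →+* k) :
    ∃ (b : ι → integralClosure ℤ ℂ) (x : k ⊗[ℤ] M),
      (∀ i, ((b i : integralClosure ℤ ℂ) : ℂ) = a i) ∧ x ≠ 0 ∧
        ∀ i, (T i).baseChange k x = φ (b i) • x := by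
  classical
  let b : ι → integralClosure ℤ ℂ :=
    fun i => ⟨a i, PG_REDUCE_integral (T i) v hv (a i) (hav i)⟩
  let bM : Basis (Module.Free.ChooseBasisIndex ℤ M) ℤ M := Module.Free.chooseBasis ℤ M
  let bC : Basis (Module.Free.ChooseBasisIndex ℤ M) ℂ (ℂ ⊗[ℤ] M) :=
    Algebra.TensorProduct.basis ℂ bM
  let bk : Basis (Module.Free.ChooseBasisIndex ℤ M) k (k ⊗[ℤ] M) :=
    Algebra.TensorProduct.basis k bM
  let A : ι → Matrix (Module.Free.ChooseBasisIndex ℤ M) (Module.Free.ChooseBasisIndex ℤ M) ℤ :=
    fun i => LinearMap.toMatrix bM bM (T i)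
  let N : ι → Matrix (Module.Free.ChooseBasisIndex ℤ M) (Module.Free.ChooseBasisIndex ℤ M)
      (integralClosure ℤ ℂ) :=
    fun i => (A i).map (algebraMap ℤ (integralClosure ℤ ℂ)) -
      b i • (1 : Matrix _ _ (integralClosure ℤ ℂ))
  have hAC : ∀ i, LinearMap.toMatrix bC bC ((T i).baseChange ℂ) =
      (A i).map (algebraMap ℤ ℂ) := fun i => LinearMap.toMatrix_baseChange ℂ (T i) bM bM
  have hAk : ∀ i, LinearMap.toMatrix bk bk ((T i).baseChange k) =
      (A i).map (algebraMap ℤ k) := fun i => LinearMap.toMatrix_baseChange k (T i) bM bM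
  have hx : (⇑(bC.repr v) : Module.Free.ChooseBasisIndex ℤ M → ℂ) ≠ 0 := by
    intro h0
    apply hv
    apply bC.repr.injective
    rw [map_zero]
    exact DFunLike.coe_injective h0
  have hN : ∀ i, (N i).map (algebraMap (integralClosure ℤ ℂ) ℂ) *ᵥ ⇑(bC.repr v) = 0 := by
    intro i
    rw [PG_REDUCE_map_mulVec, ← hAC i, LinearMap.toMatrix_mulVec_repr, hav i, map_smul,
      Finsupp.coe_smul]
    exact sub_self _
  obtain ⟨y, hy0, hy⟩ := PG_REDUCE_core (algebraMap (integralClosure ℤ ℂ) ℂ)
    (fun _ _ h => Subtype.ext h) φ N _ hx hN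
  refine ⟨b, bk.equivFun.symm y, fun i => rfl, ?_, fun i => ?_⟩
  · intro h0
    apply hy0
    have := congrArg bk.equivFun h0
    rwa [LinearEquiv.apply_symm_apply, map_zero] at this
  · apply bk.equivFun.injective
    have hrepr : (⇑(bk.repr (bk.equivFun.symm y)) : Module.Free.ChooseBasisIndex ℤ M → k) = y := by
      rw [← Basis.equivFun_apply, LinearEquiv.apply_symm_apply]
    have h1 := hy i
    rw [PG_REDUCE_map_mulVec, ← hAk i, ← hrepr, LinearMap.toMatrix_mulVec_repr, sub_eq_zero]
      at h1
    rw [map_smul, Basis.equivFun_apply, h1, Basis.equivFun_apply]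

end Main

end Fermat.Agent.G_helper18_REDUCE
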