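import Mathlib

/-!
# Project G, piece G9e (helper18): unramified primes and existence of Frobenius elements

For a finite Galois extension `L/ℚ`:
* `PG9e_unramified`: all but finitely many primes `ℓ` have trivial inertia at every prime of
  `𝓞 L` above them (elementwise form);
* `PG9e_exists_frob`: for every prime `ℓ` there is a prime `P` of `𝓞 L` above `ℓ` and a
  Frobenius element at `P`.
-/

set_option autoImplicit false
set_option linter.unusedSectionVars false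

open NumberField

namespace Fermat.Agent.G_helper18_UNRAM

variable (L : Type*) [Field L] [NumberField L]

/-- A nontrivial automorphism moves an algebraic integer. -/
theorem PG9e_exists_moved (g : Gal(L/ℚ)) (hg : g ≠ 1) : ∃ x : 𝓞 L, g • x - x ≠ 0 := by
  by_contra h
  simp only [not_exists, not_not] at h
  apply hg
  have hfix : ∀ x : 𝓞 L, g (x : L) = (x : L) := by
    intro x
    have h1 : g • x = x := sub_eq_zero.mp (h x)
    exact congrArg (fun y : 𝓞 L => (y : L)) h1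
  ext y
  obtain ⟨a, b, -, rfl⟩ := IsFractionRing.div_surjective (A := 𝓞 L) y
  rw [map_div₀]
  show g (a : L) / g (b : L) = (1 : Gal(L/ℚ)) ((a : L) / (b : L))
  rw [hfix a, hfix b]
  rfl

/-- A prime of `𝓞 L` containing the rational prime `ℓ` has norm divisible by `ℓ`. -/
theorem PG9e_dvd_absNorm {ℓ : ℕ} (hℓ : ℓ.Prime) (P : Ideal (𝓞 L)) [P.IsPrime]
    (hP : (ℓ : 𝓞 L) ∈ P) : ℓ ∣ Ideal.absNorm P := by
  by_contra hnd
  have hcop : Nat.Coprime ℓ (Ideal.absNorm P) := (Nat.Prime.coprime_iff_not_dvd hℓ).mpr hnd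
  have hn : ((Ideal.absNorm P : ℕ) : 𝓞 L) ∈ P := by
    have := Ideal.absNorm_mem P
    exact_mod_cast this
  have h1 : (1 : 𝓞 L) ∈ P := by
    have hb : (ℓ : ℤ) * Nat.gcdA ℓ (Ideal.absNorm P) +
        (Ideal.absNorm P : ℤ) * Nat.gcdB ℓ (Ideal.absNorm P) = 1 := by
      have := Nat.gcd_eq_gcd_ab ℓ (Ideal.absNorm P)
      rw [hcop.gcd_eq_one] at this
      exact_mod_cast this.symm
    have h2 : ((ℓ : ℕ) : 𝓞 L) * ((Nat.gcdA ℓ (Ideal.absNorm P) : ℤ) : 𝓞 L) +
        ((Ideal.absNorm P : ℕ) : 𝓞 L) * ((Nat.gcdB ℓ (Ideal.absNorm P) : ℤ) : 𝓞 L) = 1 := by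
      have := congrArg (fun z : ℤ => (z : 𝓞 L)) hb
      simpa using this
    rw [← h2]
    exact P.add_mem (P.mul_mem_right _ hP) (P.mul_mem_right _ hn)
  exact (Ideal.IsPrime.ne_top ‹P.IsPrime›) ((Ideal.eq_top_iff_one P).mpr h1)

variable [IsGalois ℚ L]

/-- **G9e, part 1.** All but finitely many primes are unramified in `L`: the inertia group at
every prime above them is trivial. -/
theorem PG9e_unramified :
    ∃ T : Finset ℕ, ∀ ℓ : ℕ, ℓ.Prime → ℓ ∉ T → ∀ (P : Ideal (𝓞 L)) [P.IsPrime],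
      (ℓ : 𝓞 L) ∈ P → ∀ g : Gal(L/ℚ), (∀ x : 𝓞 L, g • x - x ∈ P) → g = 1 := by
  classical
  let _ : Fintype Gal(L/ℚ) := Fintype.ofFinite _
  have hex := PG9e_exists_moved L
  choose! x hx using hex
  refine ⟨(∏ g ∈ (Finset.univ.filter (fun g : Gal(L/ℚ) => g ≠ 1)),
    Ideal.absNorm (Ideal.span {g • x g - x g})).primeFactors, ?_⟩
  intro ℓ hℓ hℓT P _ hP g hg
  by_contra hg1
  apply hℓT
  rw [Nat.mem_primeFactors]
  refine ⟨hℓ, ?_, ?_⟩
  · have h1 : Ideal.span {g • x g - x g} ≤ P :=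
      (Ideal.span_singleton_le_iff_mem P).mpr (hg _)
    have h2 := Ideal.absNorm_dvd_absNorm_of_le h1
    have h3 := PG9e_dvd_absNorm L hℓ P hP
    exact (h3.trans h2).trans
      (Finset.dvd_prod_of_mem _ (Finset.mem_filter.mpr ⟨Finset.mem_univ _, hg1⟩))
  · rw [Finset.prod_ne_zero_iff]
    intro g' hg'
    rw [Ne, Ideal.absNorm_eq_zero_iff, Ideal.span_singleton_eq_bot]
    exact hx g' (Finset.mem_filter.mp hg').2

/-- **G9e, part 2.** For every prime `ℓ` there are a prime `P` of `𝓞 L` above `ℓ` and a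
Frobenius element at `P`. -/
theorem PG9e_exists_frob (ℓ : ℕ) (hℓ : ℓ.Prime) :
    ∃ (P : Ideal (𝓞 L)) (_ : P.IsPrime) (φ : Gal(L/ℚ)), (ℓ : 𝓞 L) ∈ P ∧
      ∀ x : 𝓞 L, φ • x - x ^ ℓ ∈ P := by
  have hprime : (Ideal.span {(ℓ : ℤ)}).IsPrime :=
    (Ideal.span_singleton_prime (by exact_mod_cast hℓ.ne_zero)).mpr
      (Nat.prime_iff_prime_int.mp hℓ)
  obtain ⟨P, -, hPprime, hPover⟩ :=
    Ideal.exists_ideal_over_prime_of_isIntegral (S := 𝓞 L) (Ideal.span {(ℓ : ℤ)})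
      (⊥ : Ideal (𝓞 L)) (by
        have hinj : Function.Injective (algebraMap ℤ (𝓞 L)) :=
          FaithfulSMul.algebraMap_injective ℤ (𝓞 L)
        rw [← RingHom.ker_eq_comap_bot, (RingHom.injective_iff_ker_eq_bot _).mp hinj]
        exact bot_le)
  have hP : (ℓ : 𝓞 L) ∈ P := by
    have h1 : (ℓ : ℤ) ∈ P.comap (algebraMap ℤ (𝓞 L)) := by
      rw [hPover]
      exact Ideal.mem_span_singleton_self _
    rw [Ideal.mem_comap] at h1
    simpa using h1
  have hPbot : P ≠ ⊥ := by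
    intro h
    rw [h, Ideal.mem_bot] at hP
    exact hℓ.ne_zero (by exact_mod_cast hP)
  have hfin : Finite (𝓞 L ⧸ P) := Ideal.finiteQuotientOfFreeOfNeBot P hPbot
  obtain ⟨σ, hσ⟩ := IsArithFrobAt.exists_of_isInvariant ℤ Gal(L/ℚ) P
  have hunder : P.under ℤ = Ideal.span {(ℓ : ℤ)} := hPover
  have hcard : Nat.card (ℤ ⧸ P.under ℤ) = ℓ := by
    rw [hunder, Nat.card_congr (Int.quotientSpanNatEquivZMod ℓ).toEquiv, Nat.card_zmod]
  refine ⟨P, hPprime, σ, hP, fun x => ?_⟩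
  have := hσ x
  rw [hcard] at this
  exact this

end Fermat.Agent.G_helper18_UNRAM
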