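import Fermat.Agent.G_helper25_G4L1
import Fermat.Agent.G_helper16_G5b

/-!
# Project G, piece G4 (quotients of forms lie in the function field): interface

The level `N` case of G4 is split into

* `PG_G4_DEPF N` (dimension count): any `mu N + 1` modular forms of the same weight on `Γ₀(N)`
  are linearly dependent over the level one forms of a suitable common weight;
* `PG_G4_DEP N`: any `mu N + 1` quotients of forms are linearly dependent over `ℂ(j)`;
* the final step `PG_G4_DEP N → PG_AN2 N → PG_AN1 N` (degree argument).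

Only definitions here.
-/

set_option autoImplicit false

open UpperHalfPlane ModularForm CongruenceSubgroup AlgebraicCurve
open scoped MatrixGroups ModularForm Manifold
open Fermat.Agent.G_helper6_Defs Fermat.Agent.S20 ModularCurve

noncomputable section

namespace Fermat.Agent.G_helper19_G4Defs

/-- `x` is the quotient of two forms of the same weight on `Γ₀(N)` (on `q`-expansions). -/
def PG_G4_IsQuot (N : ℕ) (x : LaurentSeries ℂ) : Prop :=
  ∃ (k : ℤ) (a b : ℍ → ℂ), PG_IsForm N k 1 a ∧ PG_IsForm N k 1 b ∧ b ≠ 0 ∧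
    x * PG_qLaur b = PG_qLaur a

/-- (DEPF) any `mu N + 1` forms of the same weight on `Γ₀(N)` are linearly dependent over the
level one forms of some common weight. -/
def PG_G4_DEPF (N : ℕ) : Prop :=
  ∀ (k : ℤ) (A : Fin (mu N + 1) → ℍ → ℂ), (∀ j, IsMF N k (A j)) →
    ∃ (w : ℤ) (c : Fin (mu N + 1) → ℍ → ℂ), (∀ j, IsMF1 w (c j)) ∧ (∃ j, c j ≠ 0) ∧
      ∑ j, c j * A j = 0

/-- (DEP) any `mu N + 1` quotients of forms on `Γ₀(N)` are linearly dependent over `ℂ(j)`. -/
def PG_G4_DEP (N : ℕ) : Prop :=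
  ∀ x : Fin (mu N + 1) → LaurentSeries ℂ, (∀ i, PG_G4_IsQuot N (x i)) →
    ∃ c : Fin (mu N + 1) → LaurentSeries ℂ,
      (∀ i, c i ∈ IntermediateField.adjoin ℂ {jqModC ℂ}) ∧ (∃ i, c i ≠ 0) ∧
        ∑ i, c i * x i = 0

end Fermat.Agent.G_helper19_G4Defs
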