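import Mathlib

/-!
# Project G, piece G10-R2: from a quadratic relation to a two-dimensional representation

`PG_R2`: a nonzero finite-dimensional representation `W` of a group `G` over an algebraically
closed field on which every `g` satisfies `X² - t(g) X + d(g)` (`d` a character) yields a
two-dimensional representation with characteristic polynomials `X² - t(g) X + d(g)`.

The proof is elementary (no Wedderburn theory): every element of the image algebra satisfies a
monic quadratic polynomial; a minimal invariant subspace on which `G` does not act by scalars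
carries a nontrivial idempotent `e` of the image algebra, and the Peirce corners `eBe`,
`(1-e)B(1-e)` are reduced to scalars, so that the subspace has dimension `2`.
-/

set_option autoImplicit false
set_option linter.unusedSectionVars false
set_option linter.style.haveILetI false

open Polynomial

namespace Fermat.Agent.G_helper19_R2

/-! ### The power lemma -/

section Pow

variable {K : Type*} [Field K] {E : Type*} [Ring E] [Algebra K E]

/-- The conjugate `x' = a - x` of a quadratic element: `x * x' = e`. -/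
theorem PG_R2_mul_conj (x : E) (a e : K) (h : x * x - a • x + e • (1 : E) = 0) :
    x * (a • (1 : E) - x) = e • (1 : E) := by
  have h1 : x * x = a • x - e • (1 : E) := by
    rw [eq_sub_iff_add_eq, ← sub_eq_zero, ← h]
    abel
  rw [mul_sub, mul_smul_comm, mul_one, h1]
  abel

theorem PG_R2_conj_commute (x : E) (a : K) : Commute x (a • (1 : E) - x) :=
  ((Commute.one_right x).smul_right a).sub_right (Commute.refl x)

/-- Power sums of a quadratic element and its conjugate are scalars. -/
theorem PG_R2_pow_add_pow (x : E) (a e : K) (h : x * x - a • x + e • (1 : E) = 0) (b : ℕ) :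
    ∃ s : K, x ^ b + (a • (1 : E) - x) ^ b = s • (1 : E) := by
  set x' : E := a • (1 : E) - x with hx'
  have hprod : x * x' = e • (1 : E) := PG_R2_mul_conj x a e h
  have hcomm : Commute x x' := PG_R2_conj_commute x a
  have hprod' : x' * x = e • (1 : E) := by rw [← hcomm.eq, hprod]
  have hsum : x + x' = a • (1 : E) := by rw [hx']; abel
  suffices H : ∀ b : ℕ, (∃ s : K, x ^ b + x' ^ b = s • (1 : E)) ∧
      (∃ s : K, x ^ (b + 1) + x' ^ (b + 1) = s • (1 : E)) from (H b).1
  intro b
  induction b with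
  | zero =>
    refine ⟨⟨2, ?_⟩, ⟨a, ?_⟩⟩
    · rw [pow_zero, pow_zero, two_smul]
    · rw [zero_add, pow_one, pow_one, hsum]
  | succ b ih =>
    obtain ⟨⟨s0, hs0⟩, ⟨s1, hs1⟩⟩ := ih
    refine ⟨⟨s1, hs1⟩, ⟨a * s1 - e * s0, ?_⟩⟩
    have key : x ^ (b + 1 + 1) + x' ^ (b + 1 + 1)
        = (x + x') * (x ^ (b + 1) + x' ^ (b + 1)) - (x * x') * (x ^ b + x' ^ b) := by
      have e1 : x * x' ^ (b + 1) = (x * x') * x' ^ b := by rw [pow_succ', mul_assoc]
      have e2 : x' * x ^ (b + 1) = (x * x') * x ^ b := by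
        rw [pow_succ', ← mul_assoc, hprod', hprod]
      rw [add_mul, mul_add, mul_add, e1, e2, mul_add, pow_succ' x (b + 1),
        pow_succ' x' (b + 1)]
      abel
    rw [key, hsum, hprod, hs0, hs1]
    simp only [smul_mul_assoc, one_mul, smul_smul, sub_smul]

/-- **Power lemma**, ring version: powers of a quadratic element are quadratic. -/
theorem PG_R2_pow_ring (x : E) (a e : K) (h : x * x - a • x + e • (1 : E) = 0) (b : ℕ) :
    ∃ t : K, x ^ b * x ^ b - t • x ^ b + e ^ b • (1 : E) = 0 := by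
  set x' : E := a • (1 : E) - x with hx'
  have hprod : x * x' = e • (1 : E) := PG_R2_mul_conj x a e h
  have hcomm : Commute x x' := PG_R2_conj_commute x a
  obtain ⟨s, hs⟩ := PG_R2_pow_add_pow x a e h b
  refine ⟨s, ?_⟩
  have h1 : x ^ b * x' ^ b = e ^ b • (1 : E) := by
    rw [← hcomm.mul_pow, hprod, _root_.smul_pow, one_pow]
  have h2 : s • x ^ b = x ^ b * x ^ b + x ^ b * x' ^ b := by
    have : s • x ^ b = x ^ b * (s • (1 : E)) := by rw [mul_smul_comm, mul_one]
    rw [this, ← hs, mul_add]
  rw [h2, h1]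
  abel

end Pow

/-! ### Every element of the image algebra is quadratic -/

section Quadratic

variable {K : Type*} [Field K] {E : Type*} [Ring E] [Algebra K E]
  {G : Type*} [Group G] (r : G →* E) (d : G →* Kˣ)

/-- The conjugate of a group element. -/
noncomputable def PG_R2_gs (g : G) : E := ((d g : Kˣ) : K) • r g⁻¹

theorem PG_R2_add_gs (g : G) (t : K)
    (h : r g * r g - t • r g + ((d g : Kˣ) : K) • (1 : E) = 0) :
    r g + PG_R2_gs r d g = t • (1 : E) := by
  have h1 : r g * r g⁻¹ = 1 := by rw [← map_mul, mul_inv_cancel, map_one]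
  have h2 := congrArg (fun y => y * r g⁻¹) h
  simp only [add_mul, sub_mul, zero_mul, mul_assoc, h1, mul_one, smul_mul_assoc, one_mul] at h2
  unfold PG_R2_gs
  rw [← sub_eq_zero, ← h2]
  abel

theorem PG_R2_mul_gs (g : G) : r g * PG_R2_gs r d g = ((d g : Kˣ) : K) • (1 : E) := by
  unfold PG_R2_gs
  rw [mul_smul_comm, ← map_mul, mul_inv_cancel, map_one]

theorem PG_R2_cross (hq : ∀ g : G, ∃ t : K,
    r g * r g - t • r g + ((d g : Kˣ) : K) • (1 : E) = 0) (g h : G) :
    ∃ s : K, r g * PG_R2_gs r d h + r h * PG_R2_gs r d g = s • (1 : E) := by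
  obtain ⟨t, ht⟩ := hq (g * h⁻¹)
  have h1 := PG_R2_add_gs r d (g * h⁻¹) t ht
  refine ⟨((d h : Kˣ) : K) * t, ?_⟩
  have h2 : r g * PG_R2_gs r d h = ((d h : Kˣ) : K) • r (g * h⁻¹) := by
    unfold PG_R2_gs
    rw [mul_smul_comm, ← map_mul]
  have h3 : r h * PG_R2_gs r d g = ((d h : Kˣ) : K) • PG_R2_gs r d (g * h⁻¹) := by
    unfold PG_R2_gs
    rw [mul_smul_comm, ← map_mul, smul_smul, mul_inv_rev, inv_inv]
    congr 1
    rw [map_mul, map_inv, Units.val_mul, ← mul_assoc, mul_comm ((d h : Kˣ) : K), mul_assoc]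
    simp
  rw [h2, h3, ← smul_add, h1, smul_smul]

/-- The inductive invariant. -/
def PG_R2_Good (x x' : E) : Prop :=
  (∃ s : K, x + x' = s • (1 : E)) ∧
  (∀ g : G, ∃ s : K, x * PG_R2_gs r d g + r g * x' = s • (1 : E)) ∧
  (∃ s : K, x * x' = s • (1 : E))

theorem PG_R2_good_zero : PG_R2_Good r d (0 : E) 0 :=
  ⟨⟨0, by simp⟩, fun _ => ⟨0, by simp⟩, ⟨0, by simp⟩⟩

theorem PG_R2_good_add (hq : ∀ g : G, ∃ t : K,
    r g * r g - t • r g + ((d g : Kˣ) : K) • (1 : E) = 0) {x x' : E}
    (hx : PG_R2_Good r d x x') (c : K) (g : G) :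
    PG_R2_Good r d (c • r g + x) (c • PG_R2_gs r d g + x') := by
  obtain ⟨⟨s1, h1⟩, h2, ⟨s3, h3⟩⟩ := hx
  obtain ⟨t, ht⟩ := hq g
  have hg := PG_R2_add_gs r d g t ht
  refine ⟨⟨c * t + s1, ?_⟩, fun h => ?_, ?_⟩
  · have : c • r g + x + (c • PG_R2_gs r d g + x') = c • (r g + PG_R2_gs r d g) + (x + x') := by
      rw [smul_add]; abel
    rw [this, hg, h1, smul_smul, add_smul]
  · obtain ⟨s, hs⟩ := h2 h
    obtain ⟨s', hs'⟩ := PG_R2_cross r d hq g h
    refine ⟨c * s' + s, ?_⟩
    have : (c • r g + x) * PG_R2_gs r d h + r h * (c • PG_R2_gs r d g + x')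
        = c • (r g * PG_R2_gs r d h + r h * PG_R2_gs r d g)
          + (x * PG_R2_gs r d h + r h * x') := by
      rw [add_mul, mul_add, smul_mul_assoc, mul_smul_comm, smul_add]
      abel
    rw [this, hs, hs', smul_smul, add_smul]
  · obtain ⟨s, hs⟩ := h2 g
    refine ⟨c * c * ((d g : Kˣ) : K) + c * s + s3, ?_⟩
    have : (c • r g + x) * (c • PG_R2_gs r d g + x')
        = (c * c) • (r g * PG_R2_gs r d g) + c • (x * PG_R2_gs r d g + r g * x') + x * x' := by
      rw [add_mul, mul_add, mul_add, smul_mul_assoc, smul_mul_assoc, mul_smul_comm,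
        mul_smul_comm, smul_smul, smul_add]
      abel
    rw [this, PG_R2_mul_gs, hs, h3, smul_smul, smul_smul, add_smul, add_smul]

/-- A good pair gives a quadratic relation. -/
theorem PG_R2_quadratic_of_good {x x' : E} (hx : PG_R2_Good r d x x') :
    ∃ τ ν : K, x * x - τ • x + ν • (1 : E) = 0 := by
  obtain ⟨⟨s1, h1⟩, -, ⟨s3, h3⟩⟩ := hx
  refine ⟨s1, s3, ?_⟩
  have hx' : x' = s1 • (1 : E) - x := by rw [← h1]; abel
  rw [hx', mul_sub, mul_smul_comm, mul_one] at h3
  rw [← h3]
  abel

/-- **Every element of the span of the image of `G` satisfies a monic quadratic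
polynomial.** -/
theorem PG_R2_quadratic_span (hq : ∀ g : G, ∃ t : K,
    r g * r g - t • r g + ((d g : Kˣ) : K) • (1 : E) = 0) (x : E)
    (hx : x ∈ Submodule.span K (Set.range r)) :
    ∃ τ ν : K, x * x - τ • x + ν • (1 : E) = 0 := by
  classical
  rw [Finsupp.mem_span_range_iff_exists_finsupp] at hx
  obtain ⟨c, rfl⟩ := hx
  have key : ∀ c : G →₀ K, PG_R2_Good r d (c.sum fun g a => a • r g)
      (c.sum fun g a => a • PG_R2_gs r d g) := by
    intro c
    induction c using Finsupp.induction with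
    | zero =>
      rw [Finsupp.sum_zero_index, Finsupp.sum_zero_index]
      exact PG_R2_good_zero r d
    | single_add g a f hg ha ih =>
      rw [Finsupp.sum_add_index' (by simp) (by intros; rw [add_smul]),
        Finsupp.sum_add_index' (by simp) (by intros; rw [add_smul]),
        Finsupp.sum_single_index (by simp), Finsupp.sum_single_index (by simp)]
      exact PG_R2_good_add r d hq ih a g
  exact PG_R2_quadratic_of_good r d (key c)

end Quadratic

/-! ### Idempotents in an algebra of quadratic elements -/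

section Idempotent

variable {K : Type*} [Field K] {E : Type*} [Ring E] [Algebra K E] (B : Subalgebra K E)

/-- A quadratic element over an algebraically closed field is killed by a product of two
linear factors. -/
theorem PG_R2_split [IsAlgClosed K] {x : E} {τ ν : K}
    (h : x * x - τ • x + ν • (1 : E) = 0) :
    ∃ α β : K, (x - α • (1 : E)) * (x - β • (1 : E)) = 0 := by
  have hdeg : (X ^ 2 - C τ * X + C ν : K[X]).degree ≠ 0 := by
    have h1 : (X ^ 2 - C τ * X + C ν : K[X]) = X ^ 2 + (C (-τ) * X + C ν) := by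
      rw [map_neg]; ring
    have h2 : (C (-τ) * X + C ν : K[X]).degree < (X ^ 2 : K[X]).degree := by
      rw [degree_X_pow]
      exact lt_of_le_of_lt (degree_linear_le) (by norm_num)
    rw [h1, degree_add_eq_left_of_degree_lt h2, degree_X_pow]
    norm_num
  obtain ⟨α, hα⟩ := IsAlgClosed.exists_root _ hdeg
  simp only [IsRoot.def, eval_add, eval_sub, eval_pow, eval_X, eval_mul, eval_C] at hα
  refine ⟨α, τ - α, ?_⟩
  have h4 : α * (τ - α) = ν := by linear_combination -hα
  have h3 : (x - α • (1 : E)) * (x - (τ - α) • (1 : E))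
      = x * x - τ • x + (α * (τ - α)) • (1 : E) := by
    simp only [sub_mul, mul_sub, smul_mul_assoc, mul_smul_comm, one_mul, mul_one, smul_smul]
    module
  rw [h3, h4, h]

/-- If `u z = 0` with `u ≠ 0`, a quadratic relation for `z` has no constant term. -/
theorem PG_R2_const_zero {u z : E} (huz : u * z = 0) (hu : u ≠ 0) {τ ν : K}
    (h : z * z - τ • z + ν • (1 : E) = 0) : z * z = τ • z := by
  have h1 : u * (z * z - τ • z + ν • (1 : E)) = ν • u := by
    rw [mul_add, mul_sub, ← mul_assoc, huz, zero_mul, mul_smul_comm, huz, smul_zero, sub_zero,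
      zero_add, mul_smul_comm, mul_one]
  rw [h, mul_zero] at h1
  have hν : ν = 0 := by
    rcases smul_eq_zero.1 h1.symm with h2 | h2
    · exact h2
    · exact absurd h2 hu
  rw [hν, zero_smul, add_zero, sub_eq_zero] at h
  exact h

/-- Normalising an element with `y² = δ y`, `δ ≠ 0`. -/
theorem PG_R2_smul_idem {y : E} {δ : K} (hδ : δ ≠ 0) (h : y * y = δ • y) :
    (δ⁻¹ • y) * (δ⁻¹ • y) = δ⁻¹ • y := by
  rw [smul_mul_assoc, mul_smul_comm, h, smul_smul, smul_smul]
  congr 1
  field_simp

/-- A non-scalar element of an algebra of quadratic elements produces a nontrivial idempotent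
or a nonzero element of square zero. -/
theorem PG_R2_idem_or_nilp [IsAlgClosed K]
    (hQ : ∀ x ∈ B, ∃ τ ν : K, x * x - τ • x + ν • (1 : E) = 0)
    {x : E} (hx : x ∈ B) (hns : ∀ c : K, x ≠ c • (1 : E)) :
    (∃ e ∈ B, e * e = e ∧ e ≠ 0 ∧ e ≠ 1) ∨ (∃ n ∈ B, n ≠ 0 ∧ n * n = 0) := by
  obtain ⟨τ, ν, h⟩ := hQ x hx
  obtain ⟨α, β, hαβ⟩ := PG_R2_split h
  have hxα : x - α • (1 : E) ≠ 0 := fun h0 => hns α (sub_eq_zero.1 h0)
  have hxβ : x - β • (1 : E) ≠ 0 := fun h0 => hns β (sub_eq_zero.1 h0)
  have hmemβ : x - β • (1 : E) ∈ B := B.sub_mem hx (B.smul_mem B.one_mem β)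
  have hmemα : x - α • (1 : E) ∈ B := B.sub_mem hx (B.smul_mem B.one_mem α)
  by_cases hab : α = β
  · right
    refine ⟨x - α • (1 : E), hmemα, hxα, ?_⟩
    have := hαβ
    rw [← hab] at this
    exact this
  · left
    have hab' : α - β ≠ 0 := sub_ne_zero.2 hab
    have hy : x - β • (1 : E) = (x - α • (1 : E)) + (α - β) • (1 : E) := by module
    have h1 : (x - β • (1 : E)) * (x - β • (1 : E)) = (α - β) • (x - β • (1 : E)) := by
      conv_lhs =>
        arg 1
        rw [hy]
      rw [add_mul, hαβ, zero_add, smul_mul_assoc, one_mul]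
    refine ⟨(α - β)⁻¹ • (x - β • (1 : E)), B.smul_mem hmemβ _, PG_R2_smul_idem hab' h1, ?_, ?_⟩
    · intro h0
      rcases smul_eq_zero.1 h0 with h2 | h2
      · exact hab' (inv_eq_zero.1 h2)
      · exact hxβ h2
    · intro h2
      apply hxα
      have h3 : (α - β) • ((α - β)⁻¹ • (x - β • (1 : E))) = (α - β) • (1 : E) :=
        congrArg (fun w => (α - β) • w) h2
      rw [smul_smul, mul_inv_cancel₀ hab', one_smul] at h3
      have h4 : x - α • (1 : E) = (x - β • (1 : E)) - (α - β) • (1 : E) := by module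
      rw [h4, h3, sub_self]

/-- A nonzero element `n` of square zero with `n y n ≠ 0` produces a nontrivial
idempotent. -/
theorem PG_R2_idem_of_nilp
    (hQ : ∀ x ∈ B, ∃ τ ν : K, x * x - τ • x + ν • (1 : E) = 0)
    {n y : E} (hn : n ∈ B) (hy : y ∈ B) (hnn : n * n = 0) (hnyn : n * y * n ≠ 0) :
    ∃ e ∈ B, e * e = e ∧ e ≠ 0 ∧ e ≠ 1 := by
  have hn0 : n ≠ 0 := by
    rintro rfl
    exact hnyn (by simp)
  have main : ∀ z : E, z ∈ B → n * z = 0 → z ≠ 0 → ∀ τ : K, τ ≠ 0 → z * z = τ • z →
      ∃ e ∈ B, e * e = e ∧ e ≠ 0 ∧ e ≠ 1 := by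
    intro z hz hnz hz0 τ hτ h
    refine ⟨τ⁻¹ • z, B.smul_mem hz _, PG_R2_smul_idem hτ h, ?_, ?_⟩
    · intro h0
      rcases smul_eq_zero.1 h0 with h1 | h1
      · exact hτ (inv_eq_zero.1 h1)
      · exact hz0 h1
    · intro h1
      apply hn0
      have h2 : n * (τ⁻¹ • z) = n * 1 := congrArg (fun w => n * w) h1
      rw [mul_smul_comm, hnz, smul_zero, mul_one] at h2
      exact h2.symm
  -- the two elements `n y` and `n y + n`
  have hB0 : n * y ∈ B := B.mul_mem hn hy
  have hB1 : n * y + n ∈ B := B.add_mem hB0 hn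
  have hn0' : n * (n * y) = 0 := by rw [← mul_assoc, hnn, zero_mul]
  have hn1' : n * (n * y + n) = 0 := by rw [mul_add, hn0', hnn, add_zero]
  have hz0 : n * y ≠ 0 := fun h0 => hnyn (by rw [h0, zero_mul])
  have hz1 : n * y + n ≠ 0 := by
    intro h0
    apply hnyn
    have : (n * y + n) * n = n * y * n := by rw [add_mul, hnn, add_zero]
    rw [← this, h0, zero_mul]
  obtain ⟨τ0, ν0, h0⟩ := hQ _ hB0
  obtain ⟨τ1, ν1, h1⟩ := hQ _ hB1
  have h0' := PG_R2_const_zero hn0' hn0 h0
  have h1' := PG_R2_const_zero hn1' hn0 h1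
  by_cases hτ0 : τ0 = 0
  · by_cases hτ1 : τ1 = 0
    · exfalso
      apply hnyn
      rw [hτ1, zero_smul] at h1'
      rw [hτ0, zero_smul] at h0'
      have h2 : (n * y + n) * (n * y + n)
          = n * y * (n * y) + n * y * n + (n * (n * y) + n * n) := by
        rw [add_mul, mul_add, mul_add]
      rw [h2, h0', hn0', hnn, add_zero, add_zero, zero_add] at h1'
      exact h1'
    · exact main _ hB1 hn1' hz1 τ1 hτ1 h1'
  · exact main _ hB0 hn0' hz0 τ0 hτ0 h0'

/-- **Peirce corner**: in an algebra of quadratic elements over an infinite field, the corner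
`e B e` of a nontrivial idempotent is reduced to the scalars. -/
theorem PG_R2_corner [Infinite K]
    (hQ : ∀ x ∈ B, ∃ τ ν : K, x * x - τ • x + ν • (1 : E) = 0)
    {e : E} (he : e ∈ B) (hee : e * e = e) (he0 : e ≠ 0) (he1 : e ≠ 1) {z : E} (hz : z ∈ B) :
    ∃ c : K, e * z * e = c • e := by
  classical
  by_contra hcon
  push Not at hcon
  set z0 : E := e * z * e with hz0
  have hz0B : z0 ∈ B := B.mul_mem (B.mul_mem he hz) he
  have hez0 : e * z0 = z0 := by rw [hz0, ← mul_assoc, ← mul_assoc, hee]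
  have hz0e : z0 * e = z0 := by rw [hz0, mul_assoc, hee]
  have h1e : (1 : E) - e ≠ 0 := fun h => he1 (sub_eq_zero.1 h).symm
  have hw : ∀ c : K, z0 + c • e ∈ B := fun c => B.add_mem hz0B (B.smul_mem he c)
  have hkill : ∀ c : K, (1 - e) * (z0 + c • e) = 0 := fun c => by
    rw [sub_mul, one_mul, mul_add, hez0, mul_smul_comm, hee, sub_self]
  have hsq : ∀ c : K, ∃ τ : K, (z0 + c • e) * (z0 + c • e) = τ • (z0 + c • e) := by
    intro c
    obtain ⟨τ, ν, h⟩ := hQ _ (hw c)
    exact ⟨τ, PG_R2_const_zero (hkill c) h1e h⟩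
  have hexp : ∀ c : K, (z0 + c • e) * (z0 + c • e)
      = z0 * z0 + (c + c) • z0 + (c * c) • e := by
    intro c
    simp only [add_mul, mul_add, smul_mul_assoc, mul_smul_comm, hez0, hz0e, hee]
    module
  obtain ⟨τ, hτ⟩ := hsq 0
  rw [zero_smul, add_zero] at hτ
  obtain ⟨c, hc⟩ := Infinite.exists_notMem_finset ({0, -τ} : Finset K)
  rw [Finset.mem_insert, Finset.mem_singleton, not_or] at hc
  obtain ⟨τc, hτc⟩ := hsq c
  rw [hexp c, hτ] at hτc
  -- `(τ + 2c - τc) z0 = (τc c - c²) e`
  have h2 : (τ + (c + c) - τc) • z0 = (τc * c - c * c) • e := by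
    have h3 : (τ + (c + c) - τc) • z0 - (τc * c - c * c) • e
        = (τ • z0 + (c + c) • z0 + (c * c) • e) - τc • (z0 + c • e) := by module
    rw [← sub_eq_zero, h3, hτc, sub_self]
  by_cases h3 : τ + (c + c) - τc = 0
  · rw [h3, zero_smul] at h2
    rcases smul_eq_zero.1 h2.symm with h4 | h4
    · have h5 : c * (τc - c) = 0 := by linear_combination h4
      rcases mul_eq_zero.1 h5 with h6 | h6
      · exact hc.1 h6
      · apply hc.2
        linear_combination h3 + h6
    · exact he0 h4
  · apply hcon ((τ + (c + c) - τc)⁻¹ * (τc * c - c * c))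
    rw [← smul_smul, ← h2, smul_smul, inv_mul_cancel₀ h3, one_smul]

end Idempotent

/-! ### Irreducible representations with quadratic elements have dimension at most two -/

section Rep

variable {K : Type*} [Field K] {G : Type*} [Group G]
  {W : Type*} [AddCommGroup W] [Module K W]
  (ρ : G →* Module.End K W) (d : G →* Kˣ)

/-- Irreducibility of the representation `ρ`. -/
def PG_R2_Irr : Prop :=
  ∀ U : Submodule K W, (∀ g : G, ∀ w ∈ U, ρ g w ∈ U) → U = ⊥ ∨ U = ⊤

/-- The image algebra. -/
def PG_R2_img : Subalgebra K (Module.End K W) := Algebra.adjoin K (Set.range ρ)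

theorem PG_R2_mem_img (g : G) : ρ g ∈ PG_R2_img ρ :=
  Algebra.subset_adjoin ⟨g, rfl⟩

theorem PG_R2_img_le_span {x : Module.End K W} (hx : x ∈ PG_R2_img ρ) :
    x ∈ Submodule.span K (Set.range ρ) := by
  have h1 : x ∈ Subalgebra.toSubmodule (PG_R2_img ρ) := hx
  unfold PG_R2_img at h1
  rw [Algebra.adjoin_eq_span] at h1
  have h2 : (Submonoid.closure (Set.range ρ) : Set (Module.End K W)) = Set.range ρ := by
    rw [← MonoidHom.coe_mrange, Submonoid.closure_eq]
  rwa [h2] at h1

/-- Every element of the image algebra is quadratic. -/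
theorem PG_R2_img_quadratic (hq : ∀ g : G, ∃ t : K,
    ρ g * ρ g - t • ρ g + ((d g : Kˣ) : K) • (1 : Module.End K W) = 0) :
    ∀ x ∈ PG_R2_img ρ, ∃ τ ν : K, x * x - τ • x + ν • (1 : Module.End K W) = 0 :=
  fun x hx => PG_R2_quadratic_span ρ d hq x (PG_R2_img_le_span ρ hx)

/-- Transitivity: in an irreducible representation, the image algebra moves any nonzero
vector to any vector. -/
theorem PG_R2_transitive (hirr : PG_R2_Irr ρ) {u : W} (hu : u ≠ 0) (w : W) :
    ∃ x ∈ PG_R2_img ρ, x u = w := by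
  let U : Submodule K W :=
    { carrier := {w | ∃ x ∈ PG_R2_img ρ, x u = w}
      add_mem' := by
        rintro a b ⟨x, hx, rfl⟩ ⟨y, hy, rfl⟩
        exact ⟨x + y, (PG_R2_img ρ).add_mem hx hy, rfl⟩
      zero_mem' := ⟨0, (PG_R2_img ρ).zero_mem, rfl⟩
      smul_mem' := by
        rintro c a ⟨x, hx, rfl⟩
        exact ⟨c • x, (PG_R2_img ρ).smul_mem hx c, rfl⟩ }
  have hU : ∀ g : G, ∀ w ∈ U, ρ g w ∈ U := by
    rintro g w ⟨x, hx, rfl⟩
    exact ⟨ρ g * x, (PG_R2_img ρ).mul_mem (PG_R2_mem_img ρ g) hx, rfl⟩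
  have hu' : u ∈ U := ⟨1, (PG_R2_img ρ).one_mem, rfl⟩
  rcases hirr U hU with h | h
  · exfalso
    rw [h, Submodule.mem_bot] at hu'
    exact hu hu'
  · have : w ∈ U := by rw [h]; trivial
    exact this

/-- In an irreducible representation whose image algebra is not reduced to the scalars, the
image algebra contains a nontrivial idempotent. -/
theorem PG_R2_exists_idem [IsAlgClosed K] (hq : ∀ g : G, ∃ t : K,
    ρ g * ρ g - t • ρ g + ((d g : Kˣ) : K) • (1 : Module.End K W) = 0)
    (hirr : PG_R2_Irr ρ) {x : Module.End K W} (hx : x ∈ PG_R2_img ρ)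
    (hns : ∀ c : K, x ≠ c • (1 : Module.End K W)) :
    ∃ e ∈ PG_R2_img ρ, e * e = e ∧ e ≠ 0 ∧ e ≠ 1 := by
  have hQ := PG_R2_img_quadratic ρ d hq
  rcases PG_R2_idem_or_nilp (PG_R2_img ρ) hQ hx hns with h | ⟨n, hn, hn0, hnn⟩
  · exact h
  · have hex : ∃ u : W, n u ≠ 0 := by
      by_contra hcon
      push Not at hcon
      exact hn0 (LinearMap.ext hcon)
    obtain ⟨u, hu⟩ := hex
    obtain ⟨y, hy, hyu⟩ := PG_R2_transitive ρ hirr hu u
    apply PG_R2_idem_of_nilp (PG_R2_img ρ) hQ hn hy hnn
    intro h0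
    apply hu
    have h1 : (n * y * n) u = n u := by
      show n (y (n u)) = n u
      rw [hyu]
    rw [h0] at h1
    exact h1.symm

/-- The image of a nontrivial idempotent of the image algebra of an irreducible
representation is a line. -/
theorem PG_R2_finrank_range [IsAlgClosed K] (hq : ∀ g : G, ∃ t : K,
    ρ g * ρ g - t • ρ g + ((d g : Kˣ) : K) • (1 : Module.End K W) = 0)
    (hirr : PG_R2_Irr ρ) {e : Module.End K W} (he : e ∈ PG_R2_img ρ) (hee : e * e = e)
    (he0 : e ≠ 0) (he1 : e ≠ 1) : Module.finrank K (LinearMap.range e) = 1 := by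
  have hQ := PG_R2_img_quadratic ρ d hq
  have hex : ∃ u : W, e u ≠ 0 := by
    by_contra hcon
    push Not at hcon
    exact he0 (LinearMap.ext hcon)
  obtain ⟨u0, hu0⟩ := hex
  have heu : e (e u0) = e u0 := by
    have := congrArg (fun f : Module.End K W => f u0) hee
    exact this
  apply finrank_eq_one (⟨e u0, ⟨u0, rfl⟩⟩ : LinearMap.range e)
  · intro h
    exact hu0 (congrArg Subtype.val h)
  · rintro ⟨w, ⟨w', rfl⟩⟩
    obtain ⟨x, hx, hxu⟩ := PG_R2_transitive ρ hirr hu0 w'
    obtain ⟨c, hc⟩ := PG_R2_corner (PG_R2_img ρ) hQ he hee he0 he1 hx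
    refine ⟨c, ?_⟩
    apply Subtype.ext
    show c • e u0 = e w'
    have h1 : (e * x * e) u0 = e w' := by
      show e (x (e u0)) = e w'
      rw [hxu]
    rw [← h1, hc]
    rfl

/-- **An irreducible representation with quadratic elements on which `G` does not act by
scalars has dimension `2`.** -/
theorem PG_R2_finrank_eq_two [IsAlgClosed K] [FiniteDimensional K W] (hq : ∀ g : G, ∃ t : K,
    ρ g * ρ g - t • ρ g + ((d g : Kˣ) : K) • (1 : Module.End K W) = 0)
    (hirr : PG_R2_Irr ρ) {x : Module.End K W} (hx : x ∈ PG_R2_img ρ)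
    (hns : ∀ c : K, x ≠ c • (1 : Module.End K W)) : Module.finrank K W = 2 := by
  obtain ⟨e, he, hee, he0, he1⟩ := PG_R2_exists_idem ρ d hq hirr hx hns
  have h1 := PG_R2_finrank_range ρ d hq hirr he hee he0 he1
  have he' : (1 - e) * (1 - e) = 1 - e := by
    rw [sub_mul, mul_sub, mul_sub, one_mul, one_mul, mul_one, hee, sub_self, sub_zero]
  have h2 := PG_R2_finrank_range ρ d hq hirr
    ((PG_R2_img ρ).sub_mem (PG_R2_img ρ).one_mem he) he'
    (fun h => he1 (sub_eq_zero.1 h).symm)
    (fun h => he0 (by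
      have : e = 1 - (1 - e) := by abel
      rw [this, h, sub_self]))
  have h3 : LinearMap.ker e = LinearMap.range (1 - e) := by
    ext w
    rw [LinearMap.mem_ker, LinearMap.mem_range]
    constructor
    · intro hw
      refine ⟨w, ?_⟩
      show w - e w = w
      rw [hw, sub_zero]
    · rintro ⟨w', rfl⟩
      show e (w' - e w') = 0
      have : e (e w') = e w' := congrArg (fun f : Module.End K W => f w') hee
      rw [map_sub, this, sub_self]
  have h4 := LinearMap.finrank_range_add_finrank_ker e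
  rw [h3, h1, h2] at h4
  exact h4.symm

end Rep

/-! ### Characteristic polynomials in dimension two -/

section Charpoly

variable {K : Type*} [Field K] {W : Type*} [AddCommGroup W] [Module K W]
  [FiniteDimensional K W]

theorem PG_R2_quad_monic (a b : K) :
    (X ^ 2 - C a * X + C b : K[X]).Monic ∧ (X ^ 2 - C a * X + C b : K[X]).natDegree = 2 := by
  have h1 : (X ^ 2 - C a * X + C b : K[X]) = X ^ 2 + (C (-a) * X + C b) := by
    rw [map_neg]; ring
  have h2 : (C (-a) * X + C b : K[X]).degree < ((2 : ℕ) : WithBot ℕ) :=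
    lt_of_le_of_lt degree_linear_le (by norm_num)
  have hm : (X ^ 2 + (C (-a) * X + C b) : K[X]).Monic := monic_X_pow_add h2
  rw [h1]
  refine ⟨hm, ?_⟩
  have h3 : (X ^ 2 + (C (-a) * X + C b) : K[X]).degree = ((2 : ℕ) : WithBot ℕ) := by
    rw [degree_add_eq_left_of_degree_lt (by rw [degree_X_pow]; exact h2), degree_X_pow]
  exact natDegree_eq_of_degree_eq_some h3

theorem PG_R2_quad_inj {a b a' b' : K}
    (h : (X ^ 2 - C a * X + C b : K[X]) = X ^ 2 - C a' * X + C b') : a = a' ∧ b = b' := by
  have h0 := congrArg (fun p : K[X] => p.coeff 0) h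
  have h1 := congrArg (fun p : K[X] => p.coeff 1) h
  simp only [coeff_add, coeff_sub, coeff_X_pow, coeff_C_mul, coeff_X_zero, coeff_C_zero,
    mul_zero, sub_zero, coeff_X_one, mul_one, coeff_C_succ, add_zero] at h0 h1
  norm_num at h0 h1
  exact ⟨h1, h0⟩

theorem PG_R2_quad_aeval (f : Module.End K W) (a b : K) :
    aeval f (X ^ 2 - C a * X + C b : K[X]) = f * f - a • f + b • (1 : Module.End K W) := by
  rw [map_add, map_sub, map_mul, map_pow, aeval_X, aeval_C, aeval_C, pow_two,
    Algebra.algebraMap_eq_smul_one, Algebra.algebraMap_eq_smul_one, smul_mul_assoc, one_mul]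

theorem PG_R2_one_ne_zero [Nontrivial W] : (1 : Module.End K W) ≠ 0 := by
  intro h
  obtain ⟨w, hw⟩ := exists_ne (0 : W)
  apply hw
  have := congrArg (fun f : Module.End K W => f w) h
  simpa using this

theorem PG_R2_smul_one_inj [Nontrivial W] {c c' : K}
    (h : c • (1 : Module.End K W) = c' • (1 : Module.End K W)) : c = c' := by
  rw [← sub_eq_zero, ← sub_smul] at h
  rcases smul_eq_zero.1 h with h1 | h1
  · exact sub_eq_zero.1 h1
  · exact absurd h1 PG_R2_one_ne_zero

/-- In dimension `2`: `charpoly = X² - tr X + det`. -/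
theorem PG_R2_charpoly_two (h2 : Module.finrank K W = 2) (f : Module.End K W) :
    f.charpoly = X ^ 2 - C (LinearMap.trace K W f) * X + C (LinearMap.det f) := by
  classical
  let b : Module.Basis (Fin 2) K W := Module.finBasisOfFinrankEq K W h2
  rw [← LinearMap.charpoly_toMatrix f b, Matrix.charpoly_fin_two,
    LinearMap.trace_eq_matrix_trace K b f, LinearMap.det_toMatrix b f]

/-- A non-scalar endomorphism of a plane killed by a monic quadratic polynomial has this
polynomial as characteristic polynomial. -/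
theorem PG_R2_charpoly_nonscalar (h2 : Module.finrank K W = 2) (f : Module.End K W)
    (a b : K) (hf : f * f - a • f + b • (1 : Module.End K W) = 0)
    (hns : ∀ c : K, f ≠ c • (1 : Module.End K W)) :
    f.charpoly = X ^ 2 - C a * X + C b := by
  haveI : Nontrivial W := Module.nontrivial_of_finrank_pos (R := K) (by rw [h2]; norm_num)
  haveI : Nontrivial (Module.End K W) := ⟨⟨1, 0, PG_R2_one_ne_zero⟩⟩
  obtain ⟨hqm, hqd⟩ := PG_R2_quad_monic a b
  have hqf : aeval f (X ^ 2 - C a * X + C b : K[X]) = 0 := by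
    rw [PG_R2_quad_aeval, hf]
  have hint : IsIntegral K f := ⟨_, hqm, hqf⟩
  have h1 : minpoly K f ∣ (X ^ 2 - C a * X + C b : K[X]) := minpoly.dvd K f hqf
  have h3 : 2 ≤ (minpoly K f).natDegree := by
    rw [minpoly.two_le_natDegree_iff hint]
    rintro ⟨c, hc⟩
    apply hns c
    rw [← hc, Algebra.algebraMap_eq_smul_one]
  have h4 : (X ^ 2 - C a * X + C b : K[X]) = minpoly K f :=
    eq_of_monic_of_dvd_of_natDegree_le (minpoly.monic hint) hqm h1 (by rw [hqd]; exact h3)
  have h5 : f.charpoly = minpoly K f :=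
    eq_of_monic_of_dvd_of_natDegree_le (minpoly.monic hint) f.charpoly_monic
      (LinearMap.minpoly_dvd_charpoly f) (by rw [LinearMap.charpoly_natDegree, h2]; exact h3)
  rw [h5, ← h4]

end Charpoly

/-! ### The two cases for an irreducible representation -/

section Cases

variable {K : Type*} [Field K] {G : Type*} [Group G]
  {W : Type*} [AddCommGroup W] [Module K W] [FiniteDimensional K W]
  (ρ : G →* Module.End K W) (d : G →* Kˣ) (t : G → K)

/-- In dimension two, if some element does not act as a scalar, every `ρ g` has the expected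
characteristic polynomial. -/
theorem PG_R2_charpoly_of_two (h2 : Module.finrank K W = 2)
    (hE : ∀ g : G, ρ g * ρ g - t g • ρ g + ((d g : Kˣ) : K) • (1 : Module.End K W) = 0)
    (h0 : G) (hh0 : ∀ c : K, ρ h0 ≠ c • (1 : Module.End K W)) (g : G) :
    (ρ g).charpoly = X ^ 2 - C (t g) * X + C ((d g : Kˣ) : K) := by
  haveI : Nontrivial W := Module.nontrivial_of_finrank_pos (R := K) (by rw [h2]; norm_num)
  by_cases hs : ∃ c : K, ρ g = c • (1 : Module.End K W)
  · obtain ⟨c, hc⟩ := hs
    have hc0 : c ≠ 0 := by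
      rintro rfl
      have h1 : ρ g * ρ g⁻¹ = 1 := by rw [← map_mul, mul_inv_cancel, map_one]
      rw [hc, zero_smul, zero_mul] at h1
      exact PG_R2_one_ne_zero h1.symm
    have hgh : ρ (g * h0) = c • ρ h0 := by
      rw [map_mul, hc, smul_mul_assoc, one_mul]
    have hns : ∀ c' : K, ρ (g * h0) ≠ c' • (1 : Module.End K W) := by
      intro c' h
      apply hh0 (c⁻¹ * c')
      rw [hgh] at h
      rw [← smul_smul, ← h, smul_smul, inv_mul_cancel₀ hc0, one_smul]
    have c1 := PG_R2_charpoly_nonscalar h2 (ρ h0) _ _ (hE h0) hh0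
    have c2 := PG_R2_charpoly_nonscalar h2 (ρ (g * h0)) _ _ (hE (g * h0)) hns
    rw [PG_R2_charpoly_two h2] at c1 c2
    have d1 := (PG_R2_quad_inj c1).2
    have d2 := (PG_R2_quad_inj c2).2
    rw [hgh, LinearMap.det_smul, h2, d1, map_mul, Units.val_mul] at d2
    have hd : ((d g : Kˣ) : K) = c ^ 2 :=
      (mul_right_cancel₀ (Units.ne_zero (d h0)) d2).symm
    have hrel : c * c - t g * c + ((d g : Kˣ) : K) = 0 := by
      have h3 := hE g
      rw [hc, smul_mul_assoc, one_mul, smul_smul, smul_smul, ← sub_smul, ← add_smul] at h3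
      rcases smul_eq_zero.1 h3 with h4 | h4
      · exact h4
      · exact absurd h4 PG_R2_one_ne_zero
    have ht : t g = 2 * c := by
      have h5 : c * (2 * c - t g) = 0 := by
        rw [hd] at hrel
        linear_combination hrel
      rcases mul_eq_zero.1 h5 with h6 | h6
      · exact absurd h6 hc0
      · linear_combination -h6
    rw [PG_R2_charpoly_two h2, hc, LinearMap.det_smul, h2, map_smul, LinearMap.trace_one, h2,
      map_one, hd, ht]
    simp only [smul_eq_mul, mul_one, Nat.cast_ofNat]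
    rw [mul_comm c 2]
  · push Not at hs
    exact PG_R2_charpoly_nonscalar h2 (ρ g) _ _ (hE g) hs

/-- **Irreducible, non-scalar case.** -/
theorem PG_R2_of_two (h2 : Module.finrank K W = 2)
    (hE : ∀ g : G, ρ g * ρ g - t g • ρ g + ((d g : Kˣ) : K) • (1 : Module.End K W) = 0)
    (h0 : G) (hh0 : ∀ c : K, ρ h0 ≠ c • (1 : Module.End K W)) :
    ∃ ρ' : G →* Module.End K (Fin 2 → K),
      (∀ g : G, LinearMap.charpoly (ρ' g) = X ^ 2 - C (t g) * X + C ((d g : Kˣ) : K)) ∧
      (∀ g : G, ρ g = 1 → d g = 1 → ρ' g = 1) := by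
  let e : W ≃ₗ[K] (Fin 2 → K) := (Module.finBasisOfFinrankEq K W h2).equivFun
  refine ⟨(e.conjRingEquiv : Module.End K W →+* Module.End K (Fin 2 → K)).toMonoidHom.comp ρ,
    fun g => ?_, fun g hg _ => ?_⟩
  · show (e.conj (ρ g)).charpoly = _
    rw [LinearEquiv.charpoly_conj]
    exact PG_R2_charpoly_of_two ρ d t h2 hE h0 hh0 g
  · show e.conjRingEquiv (ρ g) = 1
    rw [hg, map_one]

/-- **Scalar case.** -/
theorem PG_R2_of_scalar [Nontrivial W]
    (hE : ∀ g : G, ρ g * ρ g - t g • ρ g + ((d g : Kˣ) : K) • (1 : Module.End K W) = 0)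
    (hs : ∀ g : G, ∃ c : K, ρ g = c • (1 : Module.End K W)) :
    ∃ ρ' : G →* Module.End K (Fin 2 → K),
      (∀ g : G, LinearMap.charpoly (ρ' g) = X ^ 2 - C (t g) * X + C ((d g : Kˣ) : K)) ∧
      (∀ g : G, ρ g = 1 → d g = 1 → ρ' g = 1) := by
  classical
  choose ψ hψ using hs
  have hψ1 : ψ 1 = 1 := by
    apply PG_R2_smul_one_inj (W := W)
    rw [← hψ, map_one, one_smul]
  have hψmul : ∀ g h : G, ψ (g * h) = ψ g * ψ h := by
    intro g h
    apply PG_R2_smul_one_inj (W := W)
    rw [← hψ, map_mul, hψ g, hψ h, smul_mul_assoc, one_mul, smul_smul]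
  have hψ0 : ∀ g : G, ψ g ≠ 0 := by
    intro g h
    have h1 := hψmul g g⁻¹
    rw [mul_inv_cancel, hψ1, h, zero_mul] at h1
    exact one_ne_zero h1
  have hrel : ∀ g : G, ψ g * ψ g - t g * ψ g + ((d g : Kˣ) : K) = 0 := by
    intro g
    have h3 := hE g
    rw [hψ g, smul_mul_assoc, one_mul, smul_smul, smul_smul, ← sub_smul, ← add_smul] at h3
    rcases smul_eq_zero.1 h3 with h4 | h4
    · exact h4
    · exact absurd h4 PG_R2_one_ne_zero
  let M : G →* Matrix (Fin 2) (Fin 2) K :=
    { toFun := fun g => Matrix.diagonal ![ψ g, ((d g : Kˣ) : K) * (ψ g)⁻¹]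
      map_one' := by
        rw [← Matrix.diagonal_one]
        congr 1
        ext i
        fin_cases i
        · simp [hψ1]
        · simp [hψ1]
      map_mul' := by
        intro g h
        rw [Matrix.diagonal_mul_diagonal]
        congr 1
        ext i
        fin_cases i
        · simp [hψmul]
        · simp [hψmul]
          ring }
  have hM : ∀ g, M g = Matrix.diagonal ![ψ g, ((d g : Kˣ) : K) * (ψ g)⁻¹] := fun _ => rfl
  refine ⟨((Matrix.toLinAlgEquiv' : Matrix (Fin 2) (Fin 2) K ≃ₐ[K] _).toAlgHom.toRingHom :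
      Matrix (Fin 2) (Fin 2) K →+* Module.End K (Fin 2 → K)).toMonoidHom.comp M,
    fun g => ?_, fun g hg hd => ?_⟩
  · show (Matrix.toLin' (M g)).charpoly = _
    rw [Matrix.charpoly_toLin', Matrix.charpoly_fin_two, hM, Matrix.trace_fin_two,
      Matrix.det_fin_two]
    simp only [Matrix.diagonal_apply_eq, Matrix.cons_val_zero, Matrix.cons_val_one,
      Matrix.diagonal_apply_ne, ne_eq, zero_ne_one, one_ne_zero, not_false_eq_true,
      mul_zero, sub_zero]
    have hg0 := hψ0 g
    have h1 : ψ g + ((d g : Kˣ) : K) * (ψ g)⁻¹ = t g := by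
      have := hrel g
      field_simp
      linear_combination this
    have h2 : ψ g * (((d g : Kˣ) : K) * (ψ g)⁻¹) = ((d g : Kˣ) : K) := by
      field_simp
    rw [h1, h2]
  · have hψg : ψ g = 1 := by
      apply PG_R2_smul_one_inj (W := W)
      rw [← hψ, hg, one_smul]
    have hMg : M g = 1 := by
      rw [hM, hψg, hd, ← Matrix.diagonal_one]
      congr 1
      ext i
      fin_cases i
      · simp
      · simp
    show Matrix.toLinAlgEquiv' (M g) = 1
    rw [hMg, map_one]

end Cases

/-! ### The main theorem -/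

section Main

universe uK uG uW

/-- Induction on the dimension: restriction to a minimal invariant subspace. -/
theorem PG_R2_aux {K : Type uK} [Field K] [IsAlgClosed K] {G : Type uG} [Group G]
    (d : G →* Kˣ) (t : G → K) (n : ℕ) :
    ∀ (W : Type uW) [AddCommGroup W] [Module K W] [FiniteDimensional K W] [Nontrivial W]
      (ρ : G →* Module.End K W), Module.finrank K W = n →
      (∀ g : G, ρ g * ρ g - t g • ρ g + ((d g : Kˣ) : K) • (1 : Module.End K W) = 0) →
      ∃ ρ' : G →* Module.End K (Fin 2 → K),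
        (∀ g : G, LinearMap.charpoly (ρ' g) = X ^ 2 - C (t g) * X + C ((d g : Kˣ) : K)) ∧
        (∀ g : G, ρ g = 1 → d g = 1 → ρ' g = 1) := by
  induction n using Nat.strong_induction_on with
  | _ n ih =>
    intro W _ _ _ _ ρ hn hE
    have hq : ∀ g : G, ∃ t : K,
        ρ g * ρ g - t • ρ g + ((d g : Kˣ) : K) • (1 : Module.End K W) = 0 :=
      fun g => ⟨t g, hE g⟩
    by_cases hirr : PG_R2_Irr ρ
    · by_cases hs : ∀ g : G, ∃ c : K, ρ g = c • (1 : Module.End K W)
      · exact PG_R2_of_scalar ρ d t hE hs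
      · push Not at hs
        obtain ⟨h0, hh0⟩ := hs
        have h2 := PG_R2_finrank_eq_two ρ d hq hirr (PG_R2_mem_img ρ h0) hh0
        exact PG_R2_of_two ρ d t h2 hE h0 hh0
    · unfold PG_R2_Irr at hirr
      push Not at hirr
      obtain ⟨U, hU, hbot, htop⟩ := hirr
      have hlt : Module.finrank K U < n := by
        rw [← hn]
        exact Submodule.finrank_lt htop
      haveI : Nontrivial U := Submodule.nontrivial_iff_ne_bot.2 hbot
      let ρU : G →* Module.End K U :=
        { toFun := fun g => (ρ g).restrict (hU g)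
          map_one' := by
            ext w
            show ((ρ 1) (w : W)) = w
            rw [map_one]
            rfl
          map_mul' := by
            intro g h
            ext w
            show ((ρ (g * h)) (w : W)) = (ρ g) ((ρ h) (w : W))
            rw [map_mul]
            rfl }
      have hρU : ∀ (g : G) (w : U), ((ρU g w : U) : W) = ρ g (w : W) := fun _ _ => rfl
      have hEU : ∀ g : G, ρU g * ρU g - t g • ρU g
          + ((d g : Kˣ) : K) • (1 : Module.End K U) = 0 := by
        intro g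
        ext w
        have h1 := congrArg (fun f : Module.End K W => f (w : W)) (hE g)
        simp only [LinearMap.add_apply, LinearMap.sub_apply, LinearMap.smul_apply,
          Module.End.mul_apply, Module.End.one_apply, LinearMap.zero_apply] at h1
        simp only [LinearMap.add_apply, LinearMap.sub_apply, LinearMap.smul_apply,
          Module.End.mul_apply, Module.End.one_apply, LinearMap.zero_apply,
          Submodule.coe_add, Submodule.coe_sub, Submodule.coe_smul, Submodule.coe_zero, hρU]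
        exact h1
      obtain ⟨ρ', h1, h2⟩ := ih _ hlt U ρU rfl hEU
      refine ⟨ρ', h1, fun g hg hd => h2 g ?_ hd⟩
      ext w
      show ρ g (w : W) = w
      rw [hg]
      rfl

/-- **G10 (R2).** A nonzero finite-dimensional representation on which every `g` satisfies
`X² - t(g) X + d(g)` yields a two-dimensional representation with these characteristic
polynomials. -/
theorem PG_R2 {G : Type*} [Group G] {K : Type} [Field K] [IsAlgClosed K]
    {W : Type*} [AddCommGroup W] [Module K W] [FiniteDimensional K W] [Nontrivial W]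
    (ρ : G →* Module.End K W) (d : G →* Kˣ) (t : G → K)
    (h : ∀ (g : G) (w : W), ρ g (ρ g w) - t g • ρ g w + (d g : K) • w = 0) :
    ∃ ρ' : G →* Module.End K (Fin 2 → K),
      (∀ g : G, LinearMap.charpoly (ρ' g) = X ^ 2 - C (t g) * X + C (d g : K)) ∧
      (∀ g : G, ρ g = 1 → d g = 1 → ρ' g = 1) := by
  apply PG_R2_aux d t (Module.finrank K W) W ρ rfl
  intro g
  ext w
  exact h g w

/-- **Power lemma.** -/
theorem PG_R2_pow {K : Type*} [Field K] {W : Type*} [AddCommGroup W] [Module K W]
    (A : Module.End K W) (a e : K)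
    (h : A * A - a • A + e • (1 : Module.End K W) = 0) (b : ℕ) :
    ∃ t : K, A ^ b * A ^ b - t • A ^ b + e ^ b • (1 : Module.End K W) = 0 :=
  PG_R2_pow_ring A a e h b

/-- Uniqueness of the linear coefficient of a quadratic relation for an invertible element
with prescribed constant term. -/
theorem PG_R2_t_unique {K : Type*} [Field K] {W : Type*} [AddCommGroup W] [Module K W]
    [Nontrivial W] (f : Module.End K W) (hf : IsUnit f) (t t' dd : K)
    (h : f * f - t • f + dd • (1 : Module.End K W) = 0)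
    (h' : f * f - t' • f + dd • (1 : Module.End K W) = 0) : t = t' := by
  have h1 : (t - t') • f = 0 := by
    have : (t - t') • f = (f * f - t' • f + dd • (1 : Module.End K W))
        - (f * f - t • f + dd • (1 : Module.End K W)) := by module
    rw [this, h, h', sub_self]
  rcases smul_eq_zero.1 h1 with h2 | h2
  · exact sub_eq_zero.1 h2
  · exfalso
    rw [h2] at hf
    exact not_isUnit_zero (M₀ := Module.End K W) hf

/-- **G10 (R2), existential form** (the shape of pieces row `G10-ALGEBRA`). -/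
theorem PG_R2_exists_two_dim {k : Type} [Field k] [IsAlgClosed k] {G : Type*} [Group G]
    {W : Type*} [AddCommGroup W] [Module k W] [Module.Finite k W] [Nontrivial W]
    (r : G →* Module.End k W) (d : G →* kˣ)
    (h : ∀ g : G, ∃ t : k, r g * r g - t • r g + ((d g : kˣ) : k) • (1 : Module.End k W) = 0) :
    ∃ ρ : G →* Module.End k (Fin 2 → k),
      (∀ g, r g = 1 → d g = 1 → ρ g = 1) ∧
      ∀ (g : G) (t : k), r g * r g - t • r g + ((d g : kˣ) : k) • (1 : Module.End k W) = 0 →
        LinearMap.charpoly (ρ g) = X ^ 2 - C t * X + C ((d g : kˣ) : k) := by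
  choose t ht using h
  obtain ⟨ρ', h1, h2⟩ := PG_R2_aux d t (Module.finrank k W) W r rfl ht
  refine ⟨ρ', h2, fun g t' ht' => ?_⟩
  have hu : IsUnit (r g) := by
    refine ⟨⟨r g, r g⁻¹, ?_, ?_⟩, rfl⟩
    · rw [← map_mul, mul_inv_cancel, map_one]
    · rw [← map_mul, inv_mul_cancel, map_one]
  rw [h1 g, PG_R2_t_unique (r g) hu (t g) t' _ (ht g) ht']

end Main

end Fermat.Agent.G_helper19_R2
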