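import Mathlib
import Fermat.Prelude.Def_EllipticCurve_FrobeniusTrace
import Fermat.Prelude.Def_FLTPrelim_Ramification

set_option autoImplicit false
set_option linter.style.haveILetI false
set_option linter.unusedVariables false

namespace Fermat.Agent.S54Frob

open Polynomial

noncomputable section

theorem seidenberg {L : Type*} [Field L] {B : Type*} [CommRing B] [Algebra B L]
    (hinj : Function.Injective (algebraMap B L))
    (hB : ∀ x : L, IsIntegral B x → ∃ b : B, algebraMap B L b = x)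
    (Q : Ideal B) [hQ : Q.IsPrime] (u : L) (f : B[X]) (hf : aeval u f = 0)
    (n : ℕ) (hn : f.coeff n ∉ Q) :
    (∃ s b : B, s ∉ Q ∧ u * algebraMap B L s = algebraMap B L b) ∨
    (∃ s b : B, s ∉ Q ∧ u⁻¹ * algebraMap B L s = algebraMap B L b) := by
  induction hm : f.natDegree using Nat.strong_induction_on generalizing f n with | h m IH =>
  by_cases Hfp : f.leadingCoeff ∈ Q
  · obtain ⟨a, ha⟩ := hB _ (isIntegral_leadingCoeff_smul f u hf)
    obtain (_ | m) := m
    · obtain ⟨r, rfl⟩ := natDegree_eq_zero.mp hm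
      exfalso
      cases n with
      | zero => simp at Hfp hn; exact hn Hfp
      | succ n => simp at hn
    by_cases haQ : a ∈ Q
    · refine IH _ ?_ (f.eraseLead + C a * X ^ m) ?_ n ?_ rfl
      · suffices f.eraseLead.natDegree ≤ m by
          have : (f.eraseLead + C a * X ^ m).natDegree ≤ m := by compute_degree!
          omega
        exact (eraseLead_natDegree_le ..).trans (by lia)
      · simp [← self_sub_monomial_natDegree_leadingCoeff, hf, hm, pow_succ', ← Algebra.smul_def,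
          ← Algebra.smul_mul_assoc, ← ha]
      · have hne : n ≠ f.natDegree := by rintro rfl; exact hn (by simpa using Hfp)
        simp only [coeff_add, eraseLead_coeff, hne, if_false, coeff_C_mul, coeff_X_pow]
        intro h
        apply hn
        have : a * (if n = m then 1 else 0) ∈ Q := Q.mul_mem_right _ haQ
        exact (Ideal.add_mem_iff_left Q this).mp h
    · right
      refine ⟨a, f.leadingCoeff, haQ, ?_⟩
      rw [ha, Algebra.smul_def]
      have hu : u ≠ 0 := by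
        rintro rfl
        rw [smul_zero] at ha
        apply haQ
        have : a = 0 := hinj (ha.trans (map_zero _).symm)
        rw [this]; exact Q.zero_mem
      field_simp
  · left
    obtain ⟨a, ha⟩ := hB _ (isIntegral_leadingCoeff_smul f u hf)
    refine ⟨f.leadingCoeff, a, Hfp, ?_⟩
    rw [ha, Algebra.smul_def, mul_comm]

theorem exists_frobAlgEquiv {B : Type*} [CommRing B] [Algebra ℤ B] [Algebra.IsIntegral ℤ B]
    (ℓ : ℕ) (hℓ : ℓ.Prime) (Q : Ideal B) [hQ : Q.IsMaximal]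
    [hQP : Q.LiesOver (Ideal.span {(ℓ : ℤ)})] :
    ∃ l : (B ⧸ Q) ≃ₐ[ℤ ⧸ Ideal.span {(ℓ : ℤ)}] (B ⧸ Q), ∀ x, l x = x ^ ℓ := by
  haveI : Fact ℓ.Prime := ⟨hℓ⟩
  have hPmax : (Ideal.span {(ℓ : ℤ)}).IsMaximal :=
    PrincipalIdealRing.isMaximal_of_irreducible
      (Nat.prime_iff_prime_int.mp hℓ).irreducible
  letI : Field (B ⧸ Q) := Ideal.Quotient.field Q
  letI : Field (ℤ ⧸ Ideal.span {(ℓ : ℤ)}) := Ideal.Quotient.field _
  haveI : Finite (ℤ ⧸ Ideal.span {(ℓ : ℤ)}) :=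
    Finite.of_equiv _ (Int.quotientSpanNatEquivZMod ℓ).symm.toEquiv
  haveI : CharP (B ⧸ Q) ℓ := by
    refine (CharP.charP_iff_prime_eq_zero hℓ).mpr ?_
    have : ((ℓ : ℤ) : B) ∈ Q := by
      have : (ℓ : ℤ) ∈ Q.under ℤ := by
        rw [← hQP.over]
        exact Ideal.subset_span rfl
      simpa [Ideal.under] using this
    have h2 := Ideal.Quotient.eq_zero_iff_mem.mpr this
    simpa using h2
  haveI : PerfectField (B ⧸ Q) :=
    Algebra.IsAlgebraic.perfectField (K := ℤ ⧸ Ideal.span {(ℓ : ℤ)})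
  haveI : PerfectRing (B ⧸ Q) ℓ := PerfectField.toPerfectRing ℓ
  refine ⟨{ __ := frobeniusEquiv (B ⧸ Q) ℓ, commutes' := ?_ }, ?_⟩
  · intro r
    obtain ⟨n, rfl⟩ := Ideal.Quotient.mk_surjective r
    simp
  · intro x
    rfl

abbrev Qb : Type := AlgebraicClosure ℚ
abbrev GQ : Type := Qb ≃ₐ[ℚ] Qb
abbrev Zb : Subalgebra ℤ Qb := integralClosure ℤ Qb

theorem isAlgQb : Algebra.IsAlgebraic ℚ Qb := AlgebraicClosure.isAlgebraic ℚ
attribute [local instance] isAlgQb
theorem isAlgClosureQb : IsAlgClosure ℚ Qb := ⟨inferInstance, inferInstance⟩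
attribute [local instance] isAlgClosureQb
theorem normalQb : Normal ℚ Qb := IsAlgClosure.normal ℚ Qb
attribute [local instance] normalQb

theorem smul_mem_Zb (σ : GQ) {x : Qb} (hx : x ∈ Zb) : σ x ∈ Zb := by
  have hx' : IsIntegral ℤ x := hx
  exact hx'.map (σ.toAlgHom.restrictScalars ℤ)

@[reducible] def actZb : MulSemiringAction GQ Zb where
  smul σ b := ⟨σ b.1, smul_mem_Zb σ b.2⟩
  one_smul _ := Subtype.ext rfl
  mul_smul _ _ _ := Subtype.ext rfl
  smul_zero σ := Subtype.ext (map_zero σ)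
  smul_add σ a b := Subtype.ext (map_add σ a.1 b.1)
  smul_one σ := Subtype.ext (map_one σ)
  smul_mul σ a b := Subtype.ext (map_mul σ a.1 b.1)

attribute [local instance] actZb

theorem actZb_coe (σ : GQ) (b : Zb) : ((σ • b : Zb) : Qb) = σ (b : Qb) := rfl

theorem smulComm_Zb : SMulCommClass GQ ℤ Zb where
  smul_comm σ n b := by
    apply Subtype.ext
    simp

attribute [local instance] smulComm_Zb

@[reducible] def topZb : TopologicalSpace Zb := ⊥

attribute [local instance] topZb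

theorem discrete_Zb : DiscreteTopology Zb := ⟨rfl⟩

attribute [local instance] discrete_Zb

theorem contSMul_Zb : ContinuousSMul GQ Zb := by
  have := (continuousSMul_iff_stabilizer_isOpen (M := GQ) (X := Zb)).mpr (by
    intro b
    have h := stabilizer_isOpen_of_isIntegral (K := ℚ) (L := Qb) (b : Qb)
    convert h using 1
    ext σ
    simp only [SetLike.mem_coe, MulAction.mem_stabilizer_iff]
    constructor
    · intro h; exact congrArg Subtype.val h
    · intro h; exact Subtype.ext h)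
  exact this

attribute [local instance] contSMul_Zb

theorem isInvariant_Zb : Algebra.IsInvariant ℤ Zb GQ := by
  refine ⟨fun b hb => ?_⟩
  have hfix : ∀ σ : GQ, σ (b : Qb) = b := fun σ => congrArg Subtype.val (hb σ)
  have hmem : (b : Qb) ∈ (⊥ : IntermediateField ℚ Qb) :=
    (InfiniteGalois.mem_bot_iff_fixed (k := ℚ) (K := Qb) (b : Qb)).mpr hfix
  obtain ⟨q, hq⟩ := IntermediateField.mem_bot.mp hmem
  have hbint : IsIntegral ℤ (b : Qb) := b.2
  rw [← hq, isIntegral_algebraMap_iff (FaithfulSMul.algebraMap_injective ℚ Qb)] at hbint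
  obtain ⟨a, rfl⟩ := IsIntegrallyClosed.algebraMap_eq_of_integral hbint
  refine ⟨a, Subtype.ext ?_⟩
  rw [← hq]
  simp

attribute [local instance] isInvariant_Zb

open scoped Pointwise in
theorem exists_prime_frob (ℓ : ℕ) (hℓ : ℓ.Prime) :
    ∃ (Q : Ideal Zb) (_ : Q.IsPrime) (σ : GQ), ((ℓ : ℤ) : Zb) ∈ Q ∧
      (∀ n : ℤ, (n : Zb) ∈ Q → (ℓ : ℤ) ∣ n) ∧
      (∀ b : Zb, b ∈ Q ↔ σ • b ∈ Q) ∧ ∀ b : Zb, σ • b - b ^ ℓ ∈ Q := by
  haveI : Fact ℓ.Prime := ⟨hℓ⟩
  have hPmax : (Ideal.span {(ℓ : ℤ)}).IsMaximal :=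
    PrincipalIdealRing.isMaximal_of_irreducible
      (Nat.prime_iff_prime_int.mp hℓ).irreducible
  obtain ⟨Q, hQmax, hQP⟩ :=
    Ideal.exists_maximal_ideal_liesOver_of_isIntegral (S := Zb) (Ideal.span {(ℓ : ℤ)})
  haveI hQprime : Q.IsPrime := hQmax.isPrime
  have hℓQ : ((ℓ : ℤ) : Zb) ∈ Q := by
    have : (ℓ : ℤ) ∈ Q.under ℤ := by
      rw [← hQP.over]
      exact Ideal.subset_span rfl
    simpa [Ideal.under] using this
  have hQℓ : ∀ n : ℤ, (n : Zb) ∈ Q → (ℓ : ℤ) ∣ n := by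
    intro n hn
    have : n ∈ Q.under ℤ := by simpa [Ideal.under] using hn
    rw [← hQP.over] at this
    exact Ideal.mem_span_singleton.mp this
  obtain ⟨l, hl⟩ := exists_frobAlgEquiv ℓ hℓ Q
  obtain ⟨⟨σ, hσQ⟩, hσ⟩ :=
    Ideal.Quotient.stabilizerHom_surjective_of_profinite (G := GQ) (Ideal.span {(ℓ : ℤ)}) Q l
  refine ⟨Q, hQprime, σ, hℓQ, hQℓ, ?_, ?_⟩
  · intro b
    rw [MulAction.mem_stabilizer_iff] at hσQ
    conv_rhs => rw [← hσQ]
    exact (Ideal.smul_mem_pointwise_smul_iff (a := σ) (S := Q) (x := b)).symm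
  · intro b
    have h1 := DFunLike.congr_fun hσ (Ideal.Quotient.mk Q b)
    rw [hl, Ideal.Quotient.stabilizerHom_apply, ← map_pow] at h1
    exact Ideal.Quotient.eq.mp h1

def locSet (Q : Ideal Zb) : Set Qb := {x | ∃ s b : Zb, s ∉ Q ∧ x * (s : Qb) = (b : Qb)}

theorem mem_locSet_or_inv (ℓ : ℕ) (hℓ : ℓ.Prime) (Q : Ideal Zb) [Q.IsPrime]
    (hQℓ : ∀ n : ℤ, (n : Zb) ∈ Q → (ℓ : ℤ) ∣ n) (x : Qb) :
    x ∈ locSet Q ∨ x⁻¹ ∈ locSet Q := by
  have halg : IsAlgebraic ℤ x :=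
    (IsFractionRing.isAlgebraic_iff ℤ ℚ Qb).mpr (Algebra.IsAlgebraic.isAlgebraic x)
  obtain ⟨p, hp0, hpx⟩ := halg
  have hpp : aeval x p.primPart = 0 := aeval_primPart_eq_zero hp0 hpx
  have hprim : p.primPart.IsPrimitive := isPrimitive_primPart p
  obtain ⟨n, hn⟩ : ∃ n, ¬ (ℓ : ℤ) ∣ p.primPart.coeff n := by
    by_contra hcon
    push Not at hcon
    have hdvd : C (ℓ : ℤ) ∣ p.primPart := (C_dvd_iff_dvd_coeff _ _).mpr hcon
    have hunit : IsUnit (ℓ : ℤ) := hprim _ hdvd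
    have := Int.isUnit_iff.mp hunit
    have h2 := hℓ.two_le
    omega
  have hB : ∀ y : Qb, IsIntegral Zb y → ∃ b : Zb, algebraMap Zb Qb b = y := by
    intro y hy
    exact ⟨⟨y, isIntegral_trans (R := ℤ) y hy⟩, rfl⟩
  have key := seidenberg (L := Qb) (B := Zb) Subtype.val_injective hB Q x
    (p.primPart.map (algebraMap ℤ Zb)) (by rw [aeval_map_algebraMap]; exact hpp) n (by
      rw [coeff_map]
      intro h
      exact hn (hQℓ _ (by simpa using h)))
  exact key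

def valSub (Q : Ideal Zb) [hQ : Q.IsPrime] (h : ∀ x : Qb, x ∈ locSet Q ∨ x⁻¹ ∈ locSet Q) :
    ValuationSubring Qb where
  carrier := locSet Q
  mul_mem' := by
    rintro x y ⟨s, b, hs, hx⟩ ⟨t, c, ht, hy⟩
    refine ⟨s * t, b * c, fun hst => (hQ.mem_or_mem hst).elim hs ht, ?_⟩
    push_cast
    rw [← hx, ← hy]; ring
  one_mem' := ⟨1, 1, fun h1 => hQ.ne_top ((Ideal.eq_top_iff_one Q).mpr h1), by simp⟩
  add_mem' := by
    rintro x y ⟨s, b, hs, hx⟩ ⟨t, c, ht, hy⟩
    refine ⟨s * t, b * t + c * s, fun hst => (hQ.mem_or_mem hst).elim hs ht, ?_⟩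
    push_cast
    rw [← hx, ← hy]; ring
  zero_mem' := ⟨1, 0, fun h1 => hQ.ne_top ((Ideal.eq_top_iff_one Q).mpr h1), by simp⟩
  neg_mem' := by
    rintro x ⟨s, b, hs, hx⟩
    refine ⟨s, -b, hs, ?_⟩
    push_cast
    rw [← hx]; ring
  mem_or_inv_mem' := h

theorem mem_valSub_iff (Q : Ideal Zb) [hQ : Q.IsPrime]
    (h : ∀ x : Qb, x ∈ locSet Q ∨ x⁻¹ ∈ locSet Q) (x : Qb) :
    x ∈ valSub Q h ↔ ∃ s b : Zb, s ∉ Q ∧ x * (s : Qb) = (b : Qb) := Iff.rfl

theorem mem_nonunits_valSub (Q : Ideal Zb) [hQ : Q.IsPrime]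
    (h : ∀ x : Qb, x ∈ locSet Q ∨ x⁻¹ ∈ locSet Q) (y : Qb) (s q : Zb) (hs : s ∉ Q)
    (hq : q ∈ Q) (hy : y * (s : Qb) = (q : Qb)) : y ∈ (valSub Q h).nonunits := by
  rw [ValuationSubring.mem_nonunits_iff_or]
  by_cases hy0 : y = 0
  · exact Or.inl hy0
  right
  rintro ⟨t, c, ht, hc⟩
  have : s * t = q * c := by
    apply Subtype.ext
    push_cast
    rw [← hy, ← hc]
    field_simp
  have hmem : s * t ∈ Q := this ▸ Q.mul_mem_right c hq
  exact (hQ.mem_or_mem hmem).elim hs ht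

open scoped Pointwise in
theorem exists_frobenius (ℓ : ℕ) (hℓ : ℓ.Prime) :
    ∃ A : ValuationSubring (AlgebraicClosure ℚ), A.LiesOverPrime ℓ ∧
      ∃ σ : AlgebraicClosure ℚ ≃ₐ[ℚ] AlgebraicClosure ℚ, A.IsFrobeniusAt σ ℓ := by
  obtain ⟨Q, hQ, σ, hℓQ, hQℓ, hσQ, hσ⟩ := exists_prime_frob ℓ hℓ
  have hval := mem_locSet_or_inv ℓ hℓ Q hQℓ
  refine ⟨valSub Q hval, ?_, σ, ?_⟩
  · -- lies over ℓ
    refine mem_nonunits_valSub Q hval _ 1 ((ℓ : ℤ) : Zb)
      (fun h1 => hQ.ne_top ((Ideal.eq_top_iff_one Q).mpr h1)) hℓQ ?_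
    simp
  · have hstab : ∀ x : Qb, x ∈ valSub Q hval → σ x ∈ valSub Q hval := by
      rintro x ⟨s, b, hs, hx⟩
      refine ⟨σ • s, σ • b, fun h => hs ((hσQ s).mpr h), ?_⟩
      rw [actZb_coe, actZb_coe, ← map_mul, hx]
    have hstab' : ∀ x : Qb, σ x ∈ valSub Q hval → x ∈ valSub Q hval := by
      rintro x ⟨s, b, hs, hx⟩
      refine ⟨σ⁻¹ • s, σ⁻¹ • b, fun h => hs ?_, ?_⟩
      · have := (hσQ (σ⁻¹ • s)).mp h
        rwa [smul_inv_smul] at this
      · rw [actZb_coe, actZb_coe, ← hx, map_mul]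
        change x * (σ⁻¹ (s : Qb)) = σ⁻¹ (σ x) * σ⁻¹ (s : Qb)
        congr 1
        exact (σ.symm_apply_apply x).symm
    have hdec : σ ∈ (valSub Q hval).decompositionSubgroup ℚ := by
      rw [MulAction.mem_stabilizer_iff]
      apply SetLike.ext
      intro x
      rw [ValuationSubring.mem_pointwise_smul_iff_inv_smul_mem]
      constructor
      · intro hx
        have := hstab _ hx
        simpa using this
      · intro hx
        apply hstab'
        simpa using hx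
    refine ⟨hdec, ?_⟩
    intro x
    obtain ⟨a, rfl⟩ := IsLocalRing.residue_surjective x
    rw [← IsLocalRing.ResidueField.residue_smul, ← map_pow]
    refine Ideal.Quotient.eq.mpr ?_
    obtain ⟨a, s, b, hs, hx⟩ := a
    have hnon : σ a - a ^ ℓ ∈ (valSub Q hval).nonunits := by
      refine mem_nonunits_valSub Q hval _ (σ • s * s ^ ℓ)
        ((σ • b - b ^ ℓ) * s ^ ℓ + b ^ ℓ * (s ^ ℓ - σ • s)) ?_ ?_ ?_
      · intro h
        rcases hQ.mem_or_mem h with h1 | h1
        · exact hs ((hσQ s).mpr h1)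
        · exact hs (hQ.mem_of_pow_mem _ h1)
      · refine Q.add_mem (Q.mul_mem_right _ (hσ b)) (Q.mul_mem_left _ ?_)
        have := hσ s
        have h2 : s ^ ℓ - σ • s = -(σ • s - s ^ ℓ) := by ring
        rw [h2]
        exact Q.neg_mem this
      · push_cast
        rw [actZb_coe, actZb_coe, ← hx, map_mul]
        ring
    obtain ⟨ha, hmem⟩ := ValuationSubring.mem_nonunits_iff_exists_mem_maximalIdeal.mp hnon
    exact hmem

end

end Fermat.Agent.S54Frob
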