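import Mathlib
import Fermat.Prelude.Def_EllipticCurve_FrobeniusTrace
import Fermat.Prelude.Def_FLTPrelim_Ramification
import Fermat.Agent.S54_Frob

/-!
# S37 preparation (helper8): Frobenius elements exist at EVERY valuation subring of `ℚ̄`
lying over a prime `ℓ`, and two Frobenius elements differ by an element of inertia.
-/

set_option autoImplicit false
set_option linter.style.haveILetI false
set_option linter.unusedVariables false

namespace Fermat.Agent.S37FROB

open Polynomial Fermat.Agent.S54Frob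

noncomputable section

attribute [local instance] isAlgQb isAlgClosureQb normalQb actZb smulComm_Zb topZb discrete_Zb
  contSMul_Zb isInvariant_Zb

/-- Integral elements lie in every valuation subring. -/
theorem S37FROB_Zb_le (A : ValuationSubring Qb) (b : Zb) : (b : Qb) ∈ A := by
  have hb : IsIntegral ℤ (b : Qb) := b.2
  have hb' : IsIntegral A (b : Qb) := hb.tower_top
  obtain ⟨y, hy⟩ := IsIntegrallyClosed.algebraMap_eq_of_integral hb'
  rw [← hy]
  exact y.2

/-- The inclusion of the algebraic integers into a valuation subring. -/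
def S37FROB_incl (A : ValuationSubring Qb) : Zb →+* A where
  toFun b := ⟨(b : Qb), S37FROB_Zb_le A b⟩
  map_one' := rfl
  map_mul' _ _ := rfl
  map_zero' := rfl
  map_add' _ _ := rfl

/-- The centre of `A` on the ring of algebraic integers. -/
def S37FROB_centre (A : ValuationSubring Qb) : Ideal Zb :=
  (IsLocalRing.maximalIdeal A).comap (S37FROB_incl A)

instance S37FROB_centre_isPrime (A : ValuationSubring Qb) : (S37FROB_centre A).IsPrime :=
  Ideal.comap_isPrime _ _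

theorem S37FROB_mem_centre (A : ValuationSubring Qb) (b : Zb) :
    b ∈ S37FROB_centre A ↔ (b : Qb) ∈ A.nonunits := by
  rw [ValuationSubring.mem_nonunits_iff_exists_mem_maximalIdeal]
  constructor
  · intro h
    exact ⟨S37FROB_Zb_le A b, h⟩
  · rintro ⟨_, h⟩
    exact h

theorem S37FROB_not_mem_centre (A : ValuationSubring Qb) (b : Zb) (hb : b ∉ S37FROB_centre A) :
    ∃ u : A, (u : Qb) * (b : Qb) = 1 := by
  have h1 : ¬ (S37FROB_incl A b) ∈ IsLocalRing.maximalIdeal A := hb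
  rw [IsLocalRing.mem_maximalIdeal, mem_nonunits_iff, not_not] at h1
  obtain ⟨u, hu⟩ := h1.exists_left_inv
  refine ⟨u, ?_⟩
  have := congrArg Subtype.val hu
  simpa [S37FROB_incl] using this

/-- `A` is the localisation of the algebraic integers at its centre. -/
theorem S37FROB_mem_iff (A : ValuationSubring Qb) (ℓ : ℕ) (hℓ : ℓ.Prime)
    (hQℓ : ∀ n : ℤ, (n : Zb) ∈ S37FROB_centre A → (ℓ : ℤ) ∣ n) (x : Qb) :
    x ∈ A ↔ x ∈ locSet (S37FROB_centre A) := by
  constructor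
  · intro hx
    by_cases hx0 : x = 0
    · refine ⟨1, 0, fun h1 => (S37FROB_centre_isPrime A).ne_top ((Ideal.eq_top_iff_one _).mpr h1), ?_⟩
      rw [hx0]
      simp
    rcases mem_locSet_or_inv ℓ hℓ (S37FROB_centre A) hQℓ x with h | h
    · exact h
    · obtain ⟨s, b, hs, hsb⟩ := h
      by_cases hb : b ∈ S37FROB_centre A
      · exfalso
        -- x⁻¹ = b / s is a nonunit of A, but x ∈ A
        obtain ⟨u, hu⟩ := S37FROB_not_mem_centre A s hs
        have hb' := (S37FROB_mem_centre A b).mp hb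
        have hxinv : x⁻¹ = (u : Qb) * (b : Qb) := by
          calc x⁻¹ = x⁻¹ * ((u : Qb) * (s : Qb)) := by rw [hu, mul_one]
            _ = (u : Qb) * (x⁻¹ * (s : Qb)) := by ring
            _ = (u : Qb) * (b : Qb) := by rw [hsb]
        have hnon : x⁻¹ ∈ A.nonunits := by
          rw [hxinv]
          rw [ValuationSubring.mem_nonunits_iff_exists_mem_maximalIdeal] at hb' ⊢
          obtain ⟨hb1, hb2⟩ := hb'
          exact ⟨A.mul_mem _ _ u.2 hb1, Ideal.mul_mem_left _ u hb2⟩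
        have h1 : x * x⁻¹ = 1 := mul_inv_cancel₀ hx0
        rw [ValuationSubring.mem_nonunits_iff_exists_mem_maximalIdeal] at hnon
        obtain ⟨hm1, hm2⟩ := hnon
        rw [IsLocalRing.mem_maximalIdeal, mem_nonunits_iff] at hm2
        apply hm2
        refine isUnit_iff_exists_inv'.mpr ⟨⟨x, hx⟩, ?_⟩
        exact Subtype.ext h1
      · -- x = s / b
        refine ⟨b, s, hb, ?_⟩
        field_simp at hsb
        rw [hsb]
  · rintro ⟨s, b, hs, hsb⟩
    obtain ⟨u, hu⟩ := S37FROB_not_mem_centre A s hs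
    have : x = (u : Qb) * (b : Qb) := by
      calc x = x * ((u : Qb) * (s : Qb)) := by rw [hu, mul_one]
        _ = (u : Qb) * (x * (s : Qb)) := by ring
        _ = (u : Qb) * (b : Qb) := by rw [hsb]
    rw [this]
    exact A.mul_mem _ _ u.2 (S37FROB_Zb_le A b)

theorem S37FROB_natCast_mem_centre (A : ValuationSubring Qb) (ℓ : ℕ) (hA : A.LiesOverPrime ℓ) :
    ((ℓ : ℤ) : Zb) ∈ S37FROB_centre A := by
  rw [S37FROB_mem_centre]
  have : (((ℓ : ℤ) : Zb) : Qb) = (ℓ : Qb) := by simp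
  rw [this]
  exact hA

theorem S37FROB_dvd_of_mem_centre (A : ValuationSubring Qb) (ℓ : ℕ) (hℓ : ℓ.Prime)
    (hA : A.LiesOverPrime ℓ) (n : ℤ) (hn : (n : Zb) ∈ S37FROB_centre A) : (ℓ : ℤ) ∣ n := by
  by_contra hdvd
  have hcop : IsCoprime (ℓ : ℤ) n :=
    ((Nat.prime_iff_prime_int.mp hℓ).coprime_iff_not_dvd).mpr hdvd
  obtain ⟨a, b, hab⟩ := hcop
  have h1 : ((a * (ℓ : ℤ) + b * n : ℤ) : Zb) ∈ S37FROB_centre A := by
    push_cast
    exact Ideal.add_mem _ (Ideal.mul_mem_left _ _ (S37FROB_natCast_mem_centre A ℓ hA))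
      (Ideal.mul_mem_left _ _ hn)
  rw [hab] at h1
  apply (S37FROB_centre_isPrime A).ne_top
  rw [Ideal.eq_top_iff_one]
  simpa using h1

set_option synthInstance.maxHeartbeats 400000 in
set_option maxHeartbeats 1600000 in
open scoped Pointwise in
/-- **Existence of Frobenius elements at every place over `ℓ`.** -/
theorem S37FROB_exists_isFrobeniusAt (A : ValuationSubring (AlgebraicClosure ℚ)) (ℓ : ℕ)
    (hℓ : ℓ.Prime) (hA : A.LiesOverPrime ℓ) :
    ∃ σ : AlgebraicClosure ℚ ≃ₐ[ℚ] AlgebraicClosure ℚ, A.IsFrobeniusAt σ ℓ := by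
  haveI : Fact ℓ.Prime := ⟨hℓ⟩
  set Q : Ideal Zb := S37FROB_centre A with hQdef
  haveI hQprime : Q.IsPrime := S37FROB_centre_isPrime A
  have hℓQ : ((ℓ : ℤ) : Zb) ∈ Q := S37FROB_natCast_mem_centre A ℓ hA
  have hQℓ : ∀ n : ℤ, (n : Zb) ∈ Q → (ℓ : ℤ) ∣ n := S37FROB_dvd_of_mem_centre A ℓ hℓ hA
  have hPmax : (Ideal.span {(ℓ : ℤ)}).IsMaximal :=
    PrincipalIdealRing.isMaximal_of_irreducible
      (Nat.prime_iff_prime_int.mp hℓ).irreducible
  have hunder : Q.under ℤ = Ideal.span {(ℓ : ℤ)} := by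
    ext n
    rw [Ideal.mem_span_singleton]
    constructor
    · intro hn
      apply hQℓ n
      simpa [Ideal.under] using hn
    · rintro ⟨c, rfl⟩
      show algebraMap ℤ Zb ((ℓ : ℤ) * c) ∈ Q
      rw [map_mul]
      exact Ideal.mul_mem_right _ _ (by simpa using hℓQ)
  haveI hQP : Q.LiesOver (Ideal.span {(ℓ : ℤ)}) := ⟨hunder.symm⟩
  haveI hQmax : Q.IsMaximal :=
    Ideal.IsMaximal.of_liesOver_isMaximal Q (Ideal.span {(ℓ : ℤ)})
  obtain ⟨l, hl⟩ := exists_frobAlgEquiv ℓ hℓ Q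
  obtain ⟨⟨σ, hσQ'⟩, hσ'⟩ :=
    Ideal.Quotient.stabilizerHom_surjective_of_profinite (G := GQ) (Ideal.span {(ℓ : ℤ)}) Q l
  have hσQ : ∀ b : Zb, b ∈ Q ↔ σ • b ∈ Q := by
    intro b
    rw [MulAction.mem_stabilizer_iff] at hσQ'
    conv_rhs => rw [← hσQ']
    exact (Ideal.smul_mem_pointwise_smul_iff (a := σ) (S := Q) (x := b)).symm
  have hσ : ∀ b : Zb, σ • b - b ^ ℓ ∈ Q := by
    intro b
    have h1 := DFunLike.congr_fun hσ' (Ideal.Quotient.mk Q b)
    rw [hl, Ideal.Quotient.stabilizerHom_apply, ← map_pow] at h1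
    exact Ideal.Quotient.eq.mp h1
  have hmem : ∀ x : Qb, x ∈ A ↔ x ∈ locSet Q := S37FROB_mem_iff A ℓ hℓ hQℓ
  refine ⟨σ, ?_⟩
  have hstab : ∀ x : Qb, x ∈ A → σ x ∈ A := by
    intro x hx
    obtain ⟨s, b, hs, hx⟩ := (hmem x).mp hx
    refine (hmem _).mpr ⟨σ • s, σ • b, fun h => hs ((hσQ s).mpr h), ?_⟩
    rw [actZb_coe, actZb_coe, ← map_mul, hx]
  have hstab' : ∀ x : Qb, σ x ∈ A → x ∈ A := by
    intro x hx
    obtain ⟨s, b, hs, hx⟩ := (hmem _).mp hx
    refine (hmem _).mpr ⟨σ⁻¹ • s, σ⁻¹ • b, fun h => hs ?_, ?_⟩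
    · have := (hσQ (σ⁻¹ • s)).mp h
      rwa [smul_inv_smul] at this
    · rw [actZb_coe, actZb_coe, ← hx, map_mul]
      change x * (σ⁻¹ (s : Qb)) = σ⁻¹ (σ x) * σ⁻¹ (s : Qb)
      congr 1
      exact (σ.symm_apply_apply x).symm
  have hdec : σ ∈ A.decompositionSubgroup ℚ := by
    rw [MulAction.mem_stabilizer_iff]
    apply SetLike.ext
    intro x
    rw [ValuationSubring.mem_pointwise_smul_iff_inv_smul_mem]
    constructor
    · intro hx
      have := hstab _ hx
      simpa using this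
    · intro hx
      apply hstab'
      simpa using hx
  refine ⟨hdec, ?_⟩
  intro x
  obtain ⟨a, rfl⟩ := IsLocalRing.residue_surjective x
  rw [← IsLocalRing.ResidueField.residue_smul, ← map_pow]
  refine Ideal.Quotient.eq.mpr ?_
  obtain ⟨a, ha⟩ := a
  obtain ⟨s, b, hs, hx⟩ := (hmem a).mp ha
  have hnon : σ a - a ^ ℓ ∈ A.nonunits := by
    -- σ a - a^ℓ = q / t with q ∈ Q, t ∉ Q
    set t : Zb := σ • s * s ^ ℓ with ht
    set q : Zb := (σ • b - b ^ ℓ) * s ^ ℓ + b ^ ℓ * (s ^ ℓ - σ • s) with hq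
    have htQ : t ∉ Q := by
      intro h
      rcases hQprime.mem_or_mem h with h1 | h1
      · exact hs ((hσQ s).mpr h1)
      · exact hs (hQprime.mem_of_pow_mem _ h1)
    have hqQ : q ∈ Q := by
      refine Q.add_mem (Q.mul_mem_right _ (hσ b)) (Q.mul_mem_left _ ?_)
      have := hσ s
      have h2 : s ^ ℓ - σ • s = -(σ • s - s ^ ℓ) := by ring
      rw [h2]
      exact Q.neg_mem this
    have hrel : (σ a - a ^ ℓ) * (t : Qb) = (q : Qb) := by
      rw [ht, hq]
      push_cast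
      rw [actZb_coe, actZb_coe, ← hx, map_mul]
      ring
    obtain ⟨u, hu⟩ := S37FROB_not_mem_centre A t htQ
    have hq' := (S37FROB_mem_centre A q).mp hqQ
    have heq : σ a - a ^ ℓ = (u : Qb) * (q : Qb) := by
      calc σ a - a ^ ℓ = (σ a - a ^ ℓ) * ((u : Qb) * (t : Qb)) := by rw [hu, mul_one]
        _ = (u : Qb) * ((σ a - a ^ ℓ) * (t : Qb)) := by ring
        _ = (u : Qb) * (q : Qb) := by rw [hrel]
    rw [heq]
    rw [ValuationSubring.mem_nonunits_iff_exists_mem_maximalIdeal] at hq' ⊢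
    obtain ⟨hq1, hq2⟩ := hq'
    exact ⟨A.mul_mem _ _ u.2 hq1, Ideal.mul_mem_left _ u hq2⟩
  obtain ⟨ha', hmem'⟩ := ValuationSubring.mem_nonunits_iff_exists_mem_maximalIdeal.mp hnon
  exact hmem'

end

end Fermat.Agent.S37FROB
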