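import Mathlib
import Fermat.Prelude.Def_EllipticCurve_FrobeniusTrace
import Fermat.Prelude.Def_FLTPrelim_Ramification
import Fermat.Agent.S54_Frob
import Fermat.Agent.S37_helper8_FROB

set_option autoImplicit false

namespace Fermat.Agent.G_helper1_FDLIFT

open NumberField Fermat.Agent.S54Frob Fermat.Agent.S37FROB

noncomputable section

/-- The inclusion of the ring of integers of a subfield of `ℚ̄` into the algebraic integers. -/
def PG9d_incl (L : IntermediateField ℚ Qb) : 𝓞 L →+* Zb where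
  toFun x := ⟨((x : L) : Qb),
    (RingOfIntegers.isIntegral_coe x).map (IsScalarTower.toAlgHom ℤ L Qb)⟩
  map_one' := Subtype.ext (by simp)
  map_mul' _ _ := Subtype.ext (by simp)
  map_zero' := Subtype.ext (by simp)
  map_add' _ _ := Subtype.ext (by simp)

theorem PG9d_incl_coe (L : IntermediateField ℚ Qb) (x : 𝓞 L) :
    ((PG9d_incl L x : Zb) : Qb) = ((x : L) : Qb) := rfl

theorem PG9d_incl_injective (L : IntermediateField ℚ Qb) :
    Function.Injective (PG9d_incl L) := by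
  intro x y h
  have h1 := congrArg Subtype.val h
  rw [PG9d_incl_coe, PG9d_incl_coe] at h1
  exact RingOfIntegers.ext (Subtype.ext h1)

theorem PG9d_incl_isIntegral (L : IntermediateField ℚ Qb) : (PG9d_incl L).IsIntegral := by
  intro b
  have hb : IsIntegral ℤ b := by
    have := b.2
    exact (isIntegral_algebraMap_iff (A := Zb) (B := Qb) Subtype.val_injective).mp this
  obtain ⟨p, hp, hpb⟩ := hb
  refine ⟨p.map (algebraMap ℤ (𝓞 L)), hp.map _, ?_⟩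
  rw [Polynomial.eval₂_map]
  have : (PG9d_incl L).comp (algebraMap ℤ (𝓞 L)) = algebraMap ℤ Zb := RingHom.ext_int _ _
  rw [this]
  exact hpb

/-- Lying over: a prime of `𝓞 L` is the contraction of a prime of the algebraic integers. -/
theorem PG9d_exists_prime_over (L : IntermediateField ℚ Qb) (P : Ideal (𝓞 L)) [P.IsPrime] :
    ∃ Q : Ideal Zb, Q.IsPrime ∧ Q.comap (PG9d_incl L) = P := by
  let _ : Algebra (𝓞 L) Zb := (PG9d_incl L).toAlgebra
  have _ : Algebra.IsIntegral (𝓞 L) Zb := ⟨PG9d_incl_isIntegral L⟩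
  have hker : RingHom.ker (algebraMap (𝓞 L) Zb) ≤ P := by
    intro x hx
    have : x = 0 := PG9d_incl_injective L (by rw [map_zero]; exact hx)
    rw [this]
    exact P.zero_mem
  exact Ideal.exists_ideal_over_prime_of_isIntegral_of_isDomain P hker

/-- A prime of the algebraic integers containing `ℓ` meets `ℤ` in `(ℓ)`. -/
theorem PG9d_dvd_of_mem (ℓ : ℕ) (hℓ : ℓ.Prime) (Q : Ideal Zb) [hQ : Q.IsPrime]
    (hℓQ : ((ℓ : ℤ) : Zb) ∈ Q) (n : ℤ) (hn : (n : Zb) ∈ Q) : (ℓ : ℤ) ∣ n := by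
  by_contra hdvd
  have hcop : IsCoprime (ℓ : ℤ) n :=
    ((Nat.prime_iff_prime_int.mp hℓ).coprime_iff_not_dvd).mpr hdvd
  obtain ⟨a, b, hab⟩ := hcop
  have h1 : ((a * (ℓ : ℤ) + b * n : ℤ) : Zb) ∈ Q := by
    push_cast
    exact Ideal.add_mem _ (Ideal.mul_mem_left _ _ hℓQ) (Ideal.mul_mem_left _ _ hn)
  rw [hab] at h1
  apply hQ.ne_top
  rw [Ideal.eq_top_iff_one]
  simpa using h1

/-- The centre of `valSub Q` on the algebraic integers is `Q`. -/
theorem PG9d_mem_of_nonunits (Q : Ideal Zb) [hQ : Q.IsPrime]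
    (h : ∀ x : Qb, x ∈ locSet Q ∨ x⁻¹ ∈ locSet Q) (b : Zb)
    (hb : (b : Qb) ∈ (valSub Q h).nonunits) : b ∈ Q := by
  by_contra hbQ
  rw [ValuationSubring.mem_nonunits_iff_or] at hb
  rcases hb with hb | hb
  · apply hbQ
    have : b = 0 := Subtype.ext hb
    rw [this]
    exact Q.zero_mem
  · apply hb
    have hb0 : (b : Qb) ≠ 0 := by
      intro h0
      apply hbQ
      have : b = 0 := Subtype.ext h0
      rw [this]
      exact Q.zero_mem
    refine ⟨b, 1, hbQ, ?_⟩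
    rw [inv_mul_cancel₀ hb0]
    rfl

/-- A Frobenius element at `A` is a Frobenius on `A`, elementwise. -/
theorem PG9d_frob_sub_mem (A : ValuationSubring Qb) (σ : GQ) (ℓ : ℕ)
    (hσ : A.IsFrobeniusAt σ ℓ) (a : Qb) (ha : a ∈ A) : σ a - a ^ ℓ ∈ A.nonunits := by
  obtain ⟨hdec, hfr⟩ := hσ
  have h1 := hfr (IsLocalRing.residue A ⟨a, ha⟩)
  rw [← IsLocalRing.ResidueField.residue_smul, ← map_pow] at h1
  have h2 : (⟨σ, hdec⟩ : A.decompositionSubgroup ℚ) • (⟨a, ha⟩ : A) - (⟨a, ha⟩ : A) ^ ℓ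
      ∈ IsLocalRing.maximalIdeal A := Ideal.Quotient.eq.mp h1
  rw [ValuationSubring.mem_nonunits_iff_exists_mem_maximalIdeal]
  have hmem : σ a - a ^ ℓ ∈ A := by
    have := ((⟨σ, hdec⟩ : A.decompositionSubgroup ℚ) • (⟨a, ha⟩ : A) - (⟨a, ha⟩ : A) ^ ℓ).2
    exact this
  exact ⟨hmem, h2⟩

set_option maxHeartbeats 800000 in
/-- **G9d (LIFT)**: from a Frobenius at an unramified prime of a finite Galois subextension
`L` of `ℚ̄` to a valuation subring of `ℚ̄` over `ℓ` with a Frobenius lift restricting to it. -/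
theorem PG9d_lift (L : IntermediateField ℚ (AlgebraicClosure ℚ)) [FiniteDimensional ℚ L]
    [IsGalois ℚ L] (ℓ : ℕ) (hℓ : ℓ.Prime) (P : Ideal (𝓞 L)) [P.IsPrime] (hP : (ℓ : 𝓞 L) ∈ P)
    (hunr : ∀ g : Gal(L/ℚ), (∀ x : 𝓞 L, g • x - x ∈ P) → g = 1)
    (φ : Gal(L/ℚ)) (hφ : ∀ x : 𝓞 L, φ • x - x ^ ℓ ∈ P) :
    ∃ A : ValuationSubring (AlgebraicClosure ℚ), A.LiesOverPrime ℓ ∧
      ∃ σ : AlgebraicClosure ℚ ≃ₐ[ℚ] AlgebraicClosure ℚ, A.IsFrobeniusAt σ ℓ ∧
        ∀ x : L, σ (x : AlgebraicClosure ℚ) = ((φ x : L) : AlgebraicClosure ℚ) := by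
  obtain ⟨Q, hQ, hQP⟩ := PG9d_exists_prime_over L P
  have hℓQ : ((ℓ : ℤ) : Zb) ∈ Q := by
    have h1 : (ℓ : 𝓞 L) ∈ Q.comap (PG9d_incl L) := by rw [hQP]; exact hP
    rw [Ideal.mem_comap] at h1
    have h2 : PG9d_incl L (ℓ : 𝓞 L) = ((ℓ : ℤ) : Zb) := by
      rw [map_natCast]
      simp
    rwa [h2] at h1
  have hQℓ : ∀ n : ℤ, (n : Zb) ∈ Q → (ℓ : ℤ) ∣ n := PG9d_dvd_of_mem ℓ hℓ Q hℓQ
  have hval := mem_locSet_or_inv ℓ hℓ Q hQℓ
  set A : ValuationSubring Qb := valSub Q hval with hA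
  have hAℓ : A.LiesOverPrime ℓ := by
    refine mem_nonunits_valSub Q hval _ 1 ((ℓ : ℤ) : Zb)
      (fun h1 => hQ.ne_top ((Ideal.eq_top_iff_one Q).mpr h1)) hℓQ ?_
    simp
  obtain ⟨σ, hσ⟩ := S37FROB_exists_isFrobeniusAt A ℓ hℓ hAℓ
  refine ⟨A, hAℓ, σ, hσ, ?_⟩
  -- the restriction of `σ` to `L`
  set φ' : Gal(L/ℚ) := σ.restrictNormal L with hφ'
  have hcomm : ∀ x : L, ((φ' x : L) : Qb) = σ (x : Qb) := fun x =>
    AlgEquiv.restrictNormal_commutes σ L x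
  have hφ'P : ∀ x : 𝓞 L, φ' • x - x ^ ℓ ∈ P := by
    intro x
    rw [← hQP, Ideal.mem_comap]
    apply PG9d_mem_of_nonunits Q hval
    have h1 := PG9d_frob_sub_mem A σ ℓ hσ ((x : L) : Qb) (S37FROB_Zb_le A (PG9d_incl L x))
    have h2 : ((PG9d_incl L (φ' • x - x ^ ℓ) : Zb) : Qb)
        = σ ((x : L) : Qb) - ((x : L) : Qb) ^ ℓ := by
      rw [PG9d_incl_coe]
      have h3 : ((φ' • x - x ^ ℓ : 𝓞 L) : L) = φ' (x : L) - (x : L) ^ ℓ := by
        simp only [map_sub, map_pow]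
        rfl
      rw [h3]
      push_cast
      rw [hcomm]
    rw [h2]
    exact h1
  have hg : φ' * φ⁻¹ = 1 := by
    apply hunr
    intro x
    have h1 := hφ'P (φ⁻¹ • x)
    have h2 := hφ (φ⁻¹ • x)
    have h3 : (φ' * φ⁻¹) • x - x
        = (φ' • (φ⁻¹ • x) - (φ⁻¹ • x) ^ ℓ) - (φ • (φ⁻¹ • x) - (φ⁻¹ • x) ^ ℓ) := by
      rw [mul_smul, smul_inv_smul]
      ring
    rw [h3]
    exact P.sub_mem h1 h2
  have hφφ' : φ' = φ := by
    have := congrArg (· * φ) hg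
    simpa using this
  intro x
  rw [← hcomm, hφφ']

end

end Fermat.Agent.G_helper1_FDLIFT
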