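import Fermat.Agent.S20_Basic

/-!
# S20, piece C1 (helper18)

A modular form of weight `4` on `Γ₀(N)` whose stabiliser in `SL(2, ℤ)` (for the weight `4`
slash action) is exactly `Γ₀(N)`: the form `z ↦ N³ E₄(N z)`, i.e. `E₄ ∣[4] diag(N, 1)`.

For `γ ∈ SL(2, ℤ)` write `diag(N, 1) * γ = γ' * [[A, B], [0, D]]` with `γ' ∈ SL(2, ℤ)`,
`A * D = N` and `A ∣ γ 1 0` (Hermite normal form).  Then `f ∣ γ = E₄ ∣ [[A, B], [0, D]]`
tends to `N³ / D⁴` at `i∞`, while `f` tends to `N³`.  Hence `f ∣ γ = f` forces `D = ± 1`,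
so `N ∣ A ∣ γ 1 0`.
-/

set_option autoImplicit false

open UpperHalfPlane ModularForm CongruenceSubgroup Matrix.SpecialLinearGroup
open scoped MatrixGroups ModularForm Manifold
open Fermat.Agent.S20

namespace Fermat.Agent.S20_helper18_C1

open Filter Topology

/-- The Eisenstein series `E₄` tends to `1` at `i∞`. -/
theorem tendsto_E4 : Tendsto (⇑E₄) atImInfty (𝓝 1) := by
  have hper : Function.Periodic ((⇑E₄) ∘ ofComplex) (1 : ℝ) :=
    SlashInvariantFormClass.periodic_comp_ofComplex E₄ one_mem_strictPeriods_SL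
  have han : AnalyticAt ℂ (cuspFunction 1 (⇑E₄)) 0 :=
    ModularFormClass.analyticAt_cuspFunction_zero E₄ one_pos one_mem_strictPeriods_SL
  have h0 : cuspFunction 1 (⇑E₄) 0 = 1 := by
    have := EisensteinSeries.E_qExpansion_coeff_zero (k := 4) (by norm_num) ⟨2, rfl⟩
    simpa [qExpansion_coeff] using this
  have hcomp : (cuspFunction 1 (⇑E₄) ∘ fun τ : ℍ => Function.Periodic.qParam 1 τ) = ⇑E₄ := by
    funext τ
    simpa using eq_cuspFunction (h := 1) τ one_ne_zero hper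
  have := han.continuousAt.tendsto.comp (qParam_tendsto_atImInfty (h := 1) one_pos)
  rw [hcomp, h0] at this
  exact this

/-- The upper triangular matrix `[[a, b], [0, d]]` as an element of `GL(2, ℝ)`. -/
noncomputable def ut (a b d : ℝ) (h : a * d ≠ 0) : GL (Fin 2) ℝ :=
  Matrix.GeneralLinearGroup.mkOfDetNeZero !![a, b; 0, d]
    (by rw [Matrix.det_fin_two_of]; simpa using h)

@[simp] theorem val_ut (a b d : ℝ) (h : a * d ≠ 0) :
    ((ut a b d h : GL (Fin 2) ℝ) : Matrix (Fin 2) (Fin 2) ℝ) = !![a, b; 0, d] := rfl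

theorem det_ut (a b d : ℝ) (h : a * d ≠ 0) : ((ut a b d h).det : ℝ) = a * d := by
  rw [Matrix.GeneralLinearGroup.val_det_apply, val_ut, Matrix.det_fin_two_of]
  ring

theorem ut_one_zero (a b d : ℝ) (h : a * d ≠ 0) : (ut a b d h) 1 0 = 0 := by
  simp [ut]

theorem ut_one_one (a b d : ℝ) (h : a * d ≠ 0) : (ut a b d h) 1 1 = d := by
  simp [ut]

theorem slash_ut_apply (k : ℤ) (f : ℍ → ℂ) (a b d : ℝ) (h : 0 < a * d) (τ : ℍ) :
    (f ∣[k] ut a b d h.ne') τ =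
      f (ut a b d h.ne' • τ) * ((a * d : ℝ) : ℂ) ^ (k - 1) * ((d : ℝ) : ℂ) ^ (-k) := by
  have hdet : 0 < ((ut a b d h.ne').det : ℝ) := by rw [det_ut]; exact h
  rw [ModularForm.slash_apply, UpperHalfPlane.σ, if_pos hdet, det_ut, abs_of_pos h]
  simp [UpperHalfPlane.denom]

theorem tendsto_slash_ut (a b d : ℝ) (h : 0 < a * d) :
    Tendsto ((⇑E₄) ∣[(4 : ℤ)] ut a b d h.ne') atImInfty
      (𝓝 (((a * d : ℝ) : ℂ) ^ (3 : ℤ) * ((d : ℝ) : ℂ) ^ (-4 : ℤ))) := by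
  have h1 : Tendsto (fun τ : ℍ => E₄ (ut a b d h.ne' • τ)) atImInfty (𝓝 1) :=
    tendsto_E4.comp (tendsto_smul_atImInfty (ut_one_zero a b d h.ne'))
  have h2 := (h1.mul_const (((a * d : ℝ) : ℂ) ^ ((4 : ℤ) - 1))).mul_const
    (((d : ℝ) : ℂ) ^ (-(4 : ℤ)))
  have e : ((⇑E₄) ∣[(4 : ℤ)] ut a b d h.ne') = fun τ : ℍ =>
      E₄ (ut a b d h.ne' • τ) * ((a * d : ℝ) : ℂ) ^ ((4 : ℤ) - 1) * ((d : ℝ) : ℂ) ^ (-(4 : ℤ)) := by
    funext τ
    exact slash_ut_apply 4 _ a b d h τ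
  rw [e]
  convert h2 using 2
  norm_num

theorem sl_det_eq (g : SL(2, ℤ)) : g 0 0 * g 1 1 - g 0 1 * g 1 0 = 1 := by
  have h := g.det_coe
  rwa [Matrix.det_fin_two] at h

/-- An element of `SL(2, ℤ)` given by its entries. -/
def mkSL (a b c d : ℤ) (h : a * d - b * c = 1) : SL(2, ℤ) :=
  ⟨!![a, b; c, d], by rw [Matrix.det_fin_two_of]; exact h⟩

@[simp] theorem mkSL_00 (a b c d : ℤ) (h : a * d - b * c = 1) : (mkSL a b c d h) 0 0 = a := rfl
@[simp] theorem mkSL_01 (a b c d : ℤ) (h : a * d - b * c = 1) : (mkSL a b c d h) 0 1 = b := rfl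
@[simp] theorem mkSL_10 (a b c d : ℤ) (h : a * d - b * c = 1) : (mkSL a b c d h) 1 0 = c := rfl
@[simp] theorem mkSL_11 (a b c d : ℤ) (h : a * d - b * c = 1) : (mkSL a b c d h) 1 1 = d := rfl

theorem natCast_mul_one_ne_zero (N : ℕ) [NeZero N] : (N : ℝ) * 1 ≠ 0 := by
  rw [mul_one]
  exact_mod_cast NeZero.ne N

/-- The matrix `diag(N, 1)`. -/
noncomputable def alpha (N : ℕ) [NeZero N] : GL (Fin 2) ℝ :=
  ut N 0 1 (natCast_mul_one_ne_zero N)

/-- Conjugating an element of `Γ₀(N)` by `diag(N, 1)` gives an integral matrix. -/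
theorem alpha_mul_of_dvd (N : ℕ) [NeZero N] (g : SL(2, ℤ)) (e : ℤ) (he : g 1 0 = N * e) :
    ∃ g' : SL(2, ℤ), alpha N * mapGL ℝ g = mapGL ℝ g' * alpha N := by
  have hdet := sl_det_eq g
  refine ⟨mkSL (g 0 0) (N * g 0 1) e (g 1 1) ?_, ?_⟩
  · linear_combination hdet + (g 0 1) * he
  · ext i j
    fin_cases i <;> fin_cases j <;>
      simp [alpha, ut, Matrix.mul_apply, Fin.sum_univ_two]
    all_goals first
      | ring1
      | (have := congrArg (Int.cast : ℤ → ℝ) he; push_cast at this ⊢; linear_combination this)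

/-- Hermite normal form of `diag(N, 1) * γ`. -/
theorem alpha_mul_decomp (N : ℕ) [NeZero N] (g : SL(2, ℤ)) :
    ∃ (g' : SL(2, ℤ)) (A B D : ℤ), A * D = N ∧ A ∣ g 1 0 ∧
      ∀ h : (A : ℝ) * (D : ℝ) ≠ 0, alpha N * mapGL ℝ g = mapGL ℝ g' * ut A B D h := by
  have hdet := sl_det_eq g
  have hN : (N : ℤ) ≠ 0 := by exact_mod_cast NeZero.ne N
  have hpos : 0 < Int.gcd ((N : ℤ) * g 0 0) (g 1 0) := by
    rw [Int.gcd_pos_iff]
    by_contra hcon
    push Not at hcon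
    obtain ⟨h1, h2⟩ := hcon
    have h3 : g 0 0 = 0 := by
      rcases mul_eq_zero.mp h1 with h | h
      · exact absurd h hN
      · exact h
    rw [h3, h2] at hdet
    simp at hdet
  obtain ⟨x, y, hxy, hx, hy⟩ := Int.exists_gcd_one hpos
  set A : ℤ := ((Int.gcd ((N : ℤ) * g 0 0) (g 1 0) : ℕ) : ℤ) with hA
  obtain ⟨u, v, huv⟩ := Int.isCoprime_iff_gcd_eq_one.mpr hxy
  -- u * x + v * y = 1
  refine ⟨mkSL x (-v) y u ?_, A, u * N * g 0 1 + v * g 1 1, -y * N * g 0 1 + x * g 1 1,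
    ?_, ⟨y, by rw [hy]; ring⟩, ?_⟩
  · linear_combination huv
  · linear_combination (N : ℤ) * hdet - (g 1 1) * hx + (N * g 0 1) * hy
  · intro h
    ext i j
    fin_cases i <;> fin_cases j <;>
      simp [alpha, ut, Matrix.mul_apply, Fin.sum_univ_two]
    · have := congrArg (Int.cast : ℤ → ℝ) hx
      push_cast at this ⊢
      linear_combination this
    · have := congrArg (Int.cast : ℤ → ℝ) huv
      push_cast at this ⊢
      linear_combination (-(N : ℝ) * (g 0 1 : ℝ)) * this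
    · have := congrArg (Int.cast : ℤ → ℝ) hy
      push_cast at this ⊢
      linear_combination this
    · have := congrArg (Int.cast : ℤ → ℝ) huv
      push_cast at this ⊢
      linear_combination (-(g 1 1 : ℝ)) * this

/-- The function `z ↦ N³ E₄(N z)`, as a slash translate of `E₄`. -/
noncomputable def fN (N : ℕ) [NeZero N] : ℍ → ℂ := (⇑E₄) ∣[(4 : ℤ)] alpha N

theorem E4_slash_SL (g : SL(2, ℤ)) : (⇑E₄) ∣[(4 : ℤ)] (mapGL ℝ g) = ⇑E₄ :=
  SlashInvariantFormClass.slash_action_eq E₄ _ ⟨g, rfl⟩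

theorem fN_slash (N : ℕ) [NeZero N] (g : SL(2, ℤ)) :
    ∃ (A B D : ℤ) (h : 0 < (A : ℝ) * (D : ℝ)), A * D = N ∧ A ∣ g 1 0 ∧
      fN N ∣[(4 : ℤ)] g = (⇑E₄) ∣[(4 : ℤ)] ut A B D h.ne' := by
  obtain ⟨g', A, B, D, hAD, hA, hmat⟩ := alpha_mul_decomp N g
  have hpos : 0 < (A : ℝ) * (D : ℝ) := by
    have h1 : (A : ℝ) * (D : ℝ) = (N : ℝ) := by exact_mod_cast hAD
    rw [h1]
    exact_mod_cast Nat.pos_of_ne_zero (NeZero.ne N)
  refine ⟨A, B, D, hpos, hAD, hA, ?_⟩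
  show ((⇑E₄) ∣[(4 : ℤ)] alpha N) ∣[(4 : ℤ)] (mapGL ℝ g) = _
  rw [← SlashAction.slash_mul, hmat hpos.ne', SlashAction.slash_mul, E4_slash_SL]

theorem isMF_fN (N : ℕ) [NeZero N] : IsMF N 4 (fN N) := by
  rw [isMF_iff]
  refine ⟨(ModularFormClass.holo E₄).slash 4 (alpha N), ?_, ?_⟩
  · intro γ hγ
    obtain ⟨e, he⟩ : (N : ℤ) ∣ γ 1 0 :=
      (ZMod.intCast_zmod_eq_zero_iff_dvd _ _).mp (Gamma0_mem.mp hγ)
    obtain ⟨g', hg'⟩ := alpha_mul_of_dvd N γ e he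
    show ((⇑E₄) ∣[(4 : ℤ)] alpha N) ∣[(4 : ℤ)] (mapGL ℝ γ) = _
    rw [← SlashAction.slash_mul, hg', SlashAction.slash_mul, E4_slash_SL]
    rfl
  · intro γ
    obtain ⟨A, B, D, h, -, -, e⟩ := fN_slash N γ
    rw [e]
    exact IsBoundedAtImInfty.slash 4 (ut_one_zero _ _ _ _) (tendsto_E4.isBigO_one ℝ)

/-- The stabiliser of `fN N` is contained in `Γ₀(N)`. -/
theorem mem_Gamma0_of_fN_slash_eq (N : ℕ) [NeZero N] (γ : SL(2, ℤ))
    (hγ : fN N ∣[(4 : ℤ)] γ = fN N) : γ ∈ Gamma0 N := by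
  obtain ⟨A, B, D, h, hAD, hA, e⟩ := fN_slash N γ
  have hNpos : 0 < (N : ℝ) * 1 := by
    rw [mul_one]
    exact_mod_cast Nat.pos_of_ne_zero (NeZero.ne N)
  have l1 := tendsto_slash_ut A B D h
  rw [← e, hγ] at l1
  have l2 : Tendsto (fN N) atImInfty _ := tendsto_slash_ut N 0 1 hNpos
  have key := tendsto_nhds_unique l1 l2
  have hNC : (N : ℂ) ≠ 0 := by exact_mod_cast NeZero.ne N
  have h1 : (((A : ℝ) * (D : ℝ) : ℝ) : ℂ) = (N : ℂ) := by
    have : (A : ℝ) * (D : ℝ) = (N : ℝ) := by exact_mod_cast hAD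
    rw [this]
    simp
  have hD0 : (D : ℂ) ≠ 0 := by
    intro h0
    have : (D : ℤ) = 0 := by exact_mod_cast h0
    rw [this] at hAD
    simp at hAD
    exact (NeZero.ne N) (by exact_mod_cast hAD.symm)
  have hD4 : (D : ℂ) ^ 4 = 1 := by
    rw [h1] at key
    simp only [mul_one, Complex.ofReal_natCast, Complex.ofReal_one, Complex.ofReal_intCast,
      one_zpow] at key
    have h3 : (N : ℂ) ^ (3 : ℤ) ≠ 0 := zpow_ne_zero _ hNC
    have h4 : (D : ℂ) ^ (-4 : ℤ) = 1 := mul_left_cancel₀ h3 (by rw [key, mul_one])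
    have h5 : (D : ℂ) ^ (4 : ℤ) = 1 := by
      have := congrArg (fun x => x⁻¹) h4
      simpa [zpow_neg] using this
    exact_mod_cast h5
  have hD4' : D ^ 4 = 1 := by exact_mod_cast hD4
  have hDu : IsUnit D := IsUnit.of_pow_eq_one hD4' (by norm_num)
  have hNA : (N : ℤ) ∣ A := by
    rcases Int.isUnit_iff.mp hDu with h | h
    · rw [h, mul_one] at hAD
      rw [hAD]
    · rw [h] at hAD
      exact ⟨-1, by linarith⟩
  rw [Gamma0_mem]
  exact (ZMod.intCast_zmod_eq_zero_iff_dvd _ _).mpr (hNA.trans hA)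

/-- Weight `4` version of `C1`, with the explicit form `fN N`. -/
theorem C1_four (N : ℕ) [NeZero N] : ∃ f : ModularForm (Gamma0 N) 4,
    ⇑f = fN N ∧ ∀ γ : SL(2, ℤ), (⇑f) ∣[(4 : ℤ)] γ = ⇑f → γ ∈ Gamma0 N := by
  obtain ⟨F, hF⟩ := isMF_fN N
  refine ⟨F, hF, fun γ hγ => ?_⟩
  rw [hF] at hγ
  exact mem_Gamma0_of_fN_slash_eq N γ hγ

theorem C1 (N : ℕ) [NeZero N] : ∃ (k : ℤ) (f : ModularForm (Gamma0 N) k),
    ∀ γ : SL(2, ℤ), (⇑f) ∣[k] γ = ⇑f → γ ∈ Gamma0 N := by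
  obtain ⟨F, -, hF⟩ := C1_four N
  exact ⟨4, F, hF⟩

end Fermat.Agent.S20_helper18_C1
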