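import Fermat.Agent.S20_Core

set_option autoImplicit false

open UpperHalfPlane ModularForm CongruenceSubgroup
open scoped MatrixGroups ModularForm Manifold
open Fermat.Agent.S20

namespace Fermat.Agent.S20_helper10_DDefs

/-- weight `w` forms on `Γ₀(N)` as a subspace of the space of functions -/
def MS (N : ℕ) [NeZero N] (w : ℤ) : Submodule ℂ (ℍ → ℂ) where
  carrier := {f | IsMF N w f}
  zero_mem' := IsMF.zero
  add_mem' := fun hf hg => IsMF.add hf hg
  smul_mem' := fun c _ hf => IsMF.smul c hf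

/-- weight `w` level one forms as a subspace of the space of functions -/
def RS (w : ℤ) : Submodule ℂ (ℍ → ℂ) where
  carrier := {f | IsMF1 w f}
  zero_mem' := IsMF1.zero
  add_mem' := fun hf hg => IsMF1.add hf hg
  smul_mem' := fun c _ hf => IsMF1.smul c hf

theorem mem_MS {N : ℕ} [NeZero N] {w : ℤ} {f : ℍ → ℂ} : f ∈ MS N w ↔ IsMF N w f := Iff.rfl

theorem mem_RS {w : ℤ} {f : ℍ → ℂ} : f ∈ RS w ↔ IsMF1 w f := Iff.rfl

/-- the linear equivalence between the bundled forms and the subspace of functions -/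
noncomputable def linMS (N : ℕ) [NeZero N] (w : ℤ) :
    ModularForm (Gamma0 N) w →ₗ[ℂ] MS N w where
  toFun := fun F => ⟨⇑F, ⟨F, rfl⟩⟩
  map_add' := fun _ _ => rfl
  map_smul' := fun _ _ => rfl

theorem linMS_bijective (N : ℕ) [NeZero N] (w : ℤ) : Function.Bijective (linMS N w) :=
  ⟨fun _ _ h => DFunLike.coe_injective (congrArg Subtype.val h),
    fun ⟨_, ⟨F, hF⟩⟩ => ⟨F, Subtype.ext hF⟩⟩

noncomputable def equivMS (N : ℕ) [NeZero N] (w : ℤ) :
    ModularForm (Gamma0 N) w ≃ₗ[ℂ] MS N w :=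
  LinearEquiv.ofBijective (linMS N w) (linMS_bijective N w)

/-- the linear equivalence between the bundled level one forms and the subspace of functions -/
noncomputable def linRS (w : ℤ) : ModularForm 𝒮ℒ w →ₗ[ℂ] RS w where
  toFun := fun F => ⟨⇑F, ⟨F, rfl⟩⟩
  map_add' := fun _ _ => rfl
  map_smul' := fun _ _ => rfl

theorem linRS_bijective (w : ℤ) : Function.Bijective (linRS w) :=
  ⟨fun _ _ h => DFunLike.coe_injective (congrArg Subtype.val h),
    fun ⟨_, ⟨F, hF⟩⟩ => ⟨F, Subtype.ext hF⟩⟩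

noncomputable def equivRS (w : ℤ) : ModularForm 𝒮ℒ w ≃ₗ[ℂ] RS w :=
  LinearEquiv.ofBijective (linRS w) (linRS_bijective w)

theorem equivMS_apply (N : ℕ) [NeZero N] (w : ℤ) (F : ModularForm (Gamma0 N) w) :
    ((equivMS N w F : MS N w) : ℍ → ℂ) = ⇑F := rfl

theorem equivRS_apply (w : ℤ) (F : ModularForm 𝒮ℒ w) :
    ((equivRS w F : RS w) : ℍ → ℂ) = ⇑F := rfl

end Fermat.Agent.S20_helper10_DDefs
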