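import Mathlib
import Fermat.Agent.S20_helper10_DDefs
import Fermat.Prelude.Thm_ModularForm_sturm_bound_Gamma0
import Fermat.Prelude.Thm_CongruenceSubgroup_one_mem_strictPeriods_Gamma0

/-!
# S20 sub-piece Da: Sturm dimension bound
-/

set_option autoImplicit false

open UpperHalfPlane ModularForm CongruenceSubgroup
open scoped MatrixGroups ModularForm Manifold
open Fermat.Agent.S20 Fermat.Agent.S20_helper10_DDefs

namespace Fermat.Agent.S20_helper13_Da

/-- The first `B + 1` coefficients of the `q`-expansion, as a linear map. -/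
noncomputable def coeffLin (N : ℕ) [NeZero N] (w : ℤ) (B : ℕ) :
    ModularForm (Gamma0 N) w →ₗ[ℂ] (Fin (B + 1) → ℂ) where
  toFun := fun f n => (qExpansion 1 f).coeff (n : ℕ)
  map_add' := fun f g => by
    funext n
    have h := ModularForm.qExpansion_add (h := 1) one_pos
      (CongruenceSubgroup.one_mem_strictPeriods_Gamma0 N) f g
    have h' : qExpansion 1 (⇑(f + g)) = qExpansion 1 (⇑f) + qExpansion 1 (⇑g) := h
    simp only [h', map_add, Pi.add_apply]
  map_smul' := fun c f => by
    funext n
    have h := ModularForm.qExpansion_smul (h := 1) one_pos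
      (CongruenceSubgroup.one_mem_strictPeriods_Gamma0 N) c f
    have h' : qExpansion 1 (⇑(c • f)) = c • qExpansion 1 (⇑f) := h
    simp only [h', PowerSeries.coeff_smul, RingHom.id_apply, Pi.smul_apply, smul_eq_mul]

theorem coeffLin_apply (N : ℕ) [NeZero N] (w : ℤ) (B : ℕ) (f : ModularForm (Gamma0 N) w)
    (n : Fin (B + 1)) : coeffLin N w B f n = (qExpansion 1 f).coeff (n : ℕ) := rfl

theorem mu_eq_index (N : ℕ) : mu N = (Gamma0 N).index := rfl

theorem coeffLin_injective (N : ℕ) [NeZero N] (w : ℤ) :
    Function.Injective (coeffLin N w ((w * (mu N : ℤ)).toNat / 12)) := by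
  rw [injective_iff_map_eq_zero]
  intro f hf
  apply ModularForm.sturm_bound_Gamma0 N f
  intro n hn
  have := congrFun hf ⟨n, Nat.lt_succ_of_le (by rw [mu_eq_index]; exact hn)⟩
  simpa [coeffLin_apply] using this

theorem D_sturm (N : ℕ) [NeZero N] (w : ℤ) :
    Module.Finite ℂ (MS N w) ∧
      Module.finrank ℂ (MS N w) ≤ (w * (mu N : ℤ)).toNat / 12 + 1 := by
  have hinj := coeffLin_injective N w
  have hfin : Module.Finite ℂ (ModularForm (Gamma0 N) w) :=
    Module.Finite.of_injective _ hinj
  have hle : Module.finrank ℂ (ModularForm (Gamma0 N) w) ≤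
      (w * (mu N : ℤ)).toNat / 12 + 1 := by
    have h := LinearMap.finrank_le_finrank_of_injective hinj
    simpa using h
  refine ⟨Module.Finite.equiv (equivMS N w), ?_⟩
  rw [← (equivMS N w).finrank_eq]
  exact hle

end Fermat.Agent.S20_helper13_Da
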