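import Mathlib
import Fermat.Agent.S20_helper10_DDefs

/-!
# S20 sub-piece Db: dimensions of the spaces of level one forms
-/

set_option autoImplicit false

open UpperHalfPlane ModularForm CongruenceSubgroup
open scoped MatrixGroups ModularForm Manifold
open Fermat.Agent.S20 Fermat.Agent.S20_helper10_DDefs

namespace Fermat.Agent.S20_helper13_Db

theorem finrank_levelone (v : ℕ) (hv : Even v) :
    Module.finrank ℂ (ModularForm 𝒮ℒ (v : ℤ)) =
      if v ≡ 2 [MOD 12] then v / 12 else v / 12 + 1 :=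
  Module.finrank_eq_of_rank_eq (dimension_level_one v hv)

theorem D_levelone (v : ℕ) (hv : Even v) :
    Module.Finite ℂ (RS (v : ℤ)) ∧ v / 12 ≤ Module.finrank ℂ (RS (v : ℤ)) ∧
      Module.finrank ℂ (RS (v : ℤ)) ≤ v / 12 + 1 := by
  have hfin : Module.Finite ℂ (RS (v : ℤ)) := Module.Finite.equiv (equivRS (v : ℤ))
  have hrank : Module.finrank ℂ (RS (v : ℤ)) =
      if v ≡ 2 [MOD 12] then v / 12 else v / 12 + 1 := by
    rw [← (equivRS (v : ℤ)).finrank_eq, finrank_levelone v hv]
  refine ⟨hfin, ?_, ?_⟩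
  · rw [hrank]; split_ifs <;> omega
  · rw [hrank]; split_ifs <;> omega

end Fermat.Agent.S20_helper13_Db
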