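import Mathlib
import Fermat.Agent.S20_helper13_Da
import Fermat.Agent.S20_helper13_Db

/-!
# S20 sub-piece Dd: growth bounds (pure linear algebra)
-/

set_option autoImplicit false

open UpperHalfPlane ModularForm CongruenceSubgroup
open scoped MatrixGroups ModularForm Manifold
open Fermat.Agent.S20 Fermat.Agent.S20_helper10_DDefs

namespace Fermat.Agent.S20_helper24_Dd

/-- the spaces of level one forms are finite-dimensional in every weight -/
theorem finite_RS (v : ℤ) : Module.Finite ℂ (RS v) := by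
  by_cases hneg : v < 0
  · have h : RS v = ⊥ := by
      rw [eq_bot_iff]
      intro f hf
      exact (Submodule.mem_bot _).2 (IsMF1.eq_zero_of_neg (mem_RS.1 hf) hneg)
    rw [h]
    infer_instance
  · by_cases hodd : Odd v
    · have h : RS v = ⊥ := by
        rw [eq_bot_iff]
        intro f hf
        exact (Submodule.mem_bot _).2 (IsMF1.eq_zero_of_odd (mem_RS.1 hf) hodd)
      rw [h]
      infer_instance
    · obtain ⟨n, rfl⟩ := Int.eq_ofNat_of_zero_le (not_lt.1 hneg)
      have hev : Even n := by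
        have := Int.not_odd_iff_even.1 hodd
        exact_mod_cast this
      exact (Fermat.Agent.S20_helper13_Db.D_levelone n hev).1

/-- the linear map `a ↦ ∑ j, a j * g j` -/
noncomputable def lin {J : Type} [Fintype J] (k : J → ℤ) (g : J → ℍ → ℂ) (w : ℤ) :
    (Π j, RS (w - k j)) →ₗ[ℂ] (ℍ → ℂ) where
  toFun a := ∑ j, (a j : ℍ → ℂ) * g j
  map_add' a b := by
    simp only [Pi.add_apply, Submodule.coe_add, add_mul, Finset.sum_add_distrib]
  map_smul' c a := by
    simp only [Pi.smul_apply, Submodule.coe_smul, smul_mul_assoc, Finset.smul_sum,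
      RingHom.id_apply]

theorem lin_apply {J : Type} [Fintype J] (k : J → ℤ) (g : J → ℍ → ℂ) (w : ℤ)
    (a : Π j, RS (w - k j)) : lin k g w a = ∑ j, (a j : ℍ → ℂ) * g j := rfl

theorem finrank_pi_RS {J : Type} [Fintype J] (k : J → ℤ) (w : ℤ) :
    Module.finrank ℂ (Π j, RS (w - k j)) = ∑ j, Module.finrank ℂ (RS (w - k j)) := by
  have : ∀ j, Module.Finite ℂ (RS (w - k j)) := fun j => finite_RS _
  exact Module.finrank_pi_fintype ℂ

theorem D_gb_lower {N : ℕ} [NeZero N] {J : Type} [Fintype J] (k : J → ℤ) (g : J → ℍ → ℂ)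
    (hg : ∀ j, IsMF N (k j) (g j)) (w : ℤ)
    (hind : ∀ a : J → ℍ → ℂ, (∀ j, IsMF1 (w - k j) (a j)) → ∑ j, a j * g j = 0 → ∀ j, a j = 0) :
    ∑ j, Module.finrank ℂ (RS (w - k j)) ≤ Module.finrank ℂ (MS N w) := by
  have : ∀ j, Module.Finite ℂ (RS (w - k j)) := fun j => finite_RS _
  have : Module.Finite ℂ (MS N w) := (Fermat.Agent.S20_helper13_Da.D_sturm N w).1
  have hinj : Function.Injective (lin k g w) := by
    rw [injective_iff_map_eq_zero]
    intro a ha
    have := hind (fun j => (a j : ℍ → ℂ)) (fun j => mem_RS.1 (a j).2) ha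
    funext j
    exact Subtype.ext (this j)
  have hrange : LinearMap.range (lin k g w) ≤ MS N w := by
    rintro F ⟨a, rfl⟩
    rw [mem_MS, lin_apply]
    refine IsMF.sum _ _ (fun j _ => ?_)
    have h1 : IsMF N (w - k j) (a j : ℍ → ℂ) := (mem_RS.1 (a j).2).isMF
    exact (h1.mul (hg j)).cast (by ring)
  rw [← finrank_pi_RS, ← LinearMap.finrank_range_of_inj hinj]
  exact Submodule.finrank_mono hrange

theorem D_gb_upper {N : ℕ} [NeZero N] {J : Type} [Fintype J] (k : J → ℤ) (g : J → ℍ → ℂ)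
    (w : ℤ)
    (hspan : ∀ F, IsMF N w F → ∃ a : J → ℍ → ℂ, (∀ j, IsMF1 (w - k j) (a j)) ∧
      F = ∑ j, a j * g j) :
    Module.finrank ℂ (MS N w) ≤ ∑ j, Module.finrank ℂ (RS (w - k j)) := by
  have : ∀ j, Module.Finite ℂ (RS (w - k j)) := fun j => finite_RS _
  have hrange : MS N w ≤ LinearMap.range (lin k g w) := by
    intro F hF
    obtain ⟨a, ha, rfl⟩ := hspan F (mem_MS.1 hF)
    exact ⟨fun j => ⟨a j, mem_RS.2 (ha j)⟩, rfl⟩
  rw [← finrank_pi_RS]
  exact (Submodule.finrank_mono hrange).trans (LinearMap.finrank_range_le _)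

end Fermat.Agent.S20_helper24_Dd
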