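import Fermat.Agent.S20_helper13_Da
import Fermat.Agent.S20_helper13_Db

/-!
# S20 sub-piece Df: counting from the dimension bounds
-/

set_option autoImplicit false

open UpperHalfPlane ModularForm CongruenceSubgroup
open scoped MatrixGroups ModularForm Manifold
open Fermat.Agent.S20 Fermat.Agent.S20_helper10_DDefs

namespace Fermat.Agent.S20_helper4_Df

lemma RS_eq_bot_of_neg {v : ℤ} (hv : v < 0) : RS v = ⊥ := by
  rw [eq_bot_iff]
  intro f hf
  rw [Submodule.mem_bot]
  exact (mem_RS.mp hf).eq_zero_of_neg hv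

lemma RS_eq_bot_of_odd {v : ℤ} (hv : Odd v) : RS v = ⊥ := by
  rw [eq_bot_iff]
  intro f hf
  rw [Submodule.mem_bot]
  exact (mem_RS.mp hf).eq_zero_of_odd hv

lemma finrank_RS_le (t : ℕ) (k : ℤ) (hk : 0 ≤ k) :
    Module.finrank ℂ (RS (12 * (t : ℤ) - k)) ≤ t + 1 := by
  by_cases hneg : 12 * (t : ℤ) - k < 0
  · rw [RS_eq_bot_of_neg hneg]; simp
  by_cases hodd : Odd (12 * (t : ℤ) - k)
  · rw [RS_eq_bot_of_odd hodd]; simp
  rw [not_lt] at hneg
  rw [Int.not_odd_iff_even] at hodd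
  obtain ⟨n, hn⟩ := Int.eq_ofNat_of_zero_le hneg
  rw [hn] at hodd ⊢
  have hev : Even n := by exact_mod_cast hodd
  have h1 := (Fermat.Agent.S20_helper13_Db.D_levelone n hev).2.2
  have hn12 : n ≤ 12 * t := by omega
  have h2 : n / 12 ≤ t := by omega
  omega

lemma finrank_RS_ge (t : ℕ) (k : ℤ) (hk : 0 ≤ k) (hk2 : Even k) :
    t - k.toNat ≤ Module.finrank ℂ (RS (12 * (t : ℤ) - k)) := by
  by_cases h : k.toNat ≤ t
  · have hn : 12 * (t : ℤ) - k = ((12 * t - k.toNat : ℕ) : ℤ) := by omega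
    rw [hn]
    have hev : Even (12 * t - k.toNat) := by
      obtain ⟨m, hm⟩ := hk2
      rw [Nat.even_iff]
      omega
    have h1 := (Fermat.Agent.S20_helper13_Db.D_levelone _ hev).2.1
    omega
  · have h0 : t - k.toNat = 0 := by omega
    rw [h0]
    exact Nat.zero_le _

lemma sum_sub_add {J : Type} [Fintype J] (K : J → ℕ) (t : ℕ) (hKt : ∀ j, K j ≤ t) :
    ∑ j, (t - K j) + ∑ j, K j = Fintype.card J * t := by
  rw [← Finset.sum_add_distrib, Finset.sum_congr rfl (fun j _ => Nat.sub_add_cancel (hKt j))]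
  simp [Finset.card_univ]

theorem D_count_le {N : ℕ} [NeZero N] {J : Type} [Fintype J] (k : J → ℤ)
    (hk0 : ∀ j, 0 ≤ k j) (hk2 : ∀ j, Even (k j))
    (h : ∀ t : ℕ, ∑ j, Module.finrank ℂ (RS (12 * (t : ℤ) - k j))
      ≤ Module.finrank ℂ (MS N (12 * (t : ℤ)))) : Fintype.card J ≤ mu N := by
  set K : J → ℕ := fun j => (k j).toNat with hK
  set s := ∑ j, K j with hs
  set t := 2 + s with ht
  have hKt : ∀ j, K j ≤ t := fun j => by
    have := Finset.single_le_sum (f := K) (fun i _ => Nat.zero_le _) (Finset.mem_univ j)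
    omega
  have h1 : ∑ j, (t - K j) ≤ ∑ j, Module.finrank ℂ (RS (12 * (t : ℤ) - k j)) :=
    Finset.sum_le_sum (fun j _ => finrank_RS_ge t (k j) (hk0 j) (hk2 j))
  have h2 : ∑ j, (t - K j) + s = Fintype.card J * t := sum_sub_add K t hKt
  have h3 := (Fermat.Agent.S20_helper13_Da.D_sturm N (12 * (t : ℤ))).2
  have h4 : (12 * (t : ℤ) * (mu N : ℤ)).toNat / 12 = t * mu N := by
    have h41 : (12 * (t : ℤ) * (mu N : ℤ)) = ((12 * (t * mu N) : ℕ) : ℤ) := by
      push_cast; ring
    rw [h41, Int.toNat_natCast]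
    omega
  rw [h4] at h3
  have h5 := h t
  have h6 : Fintype.card J * t ≤ t * mu N + 1 + s := by omega
  have h7 : Fintype.card J * t < (mu N + 1) * t := by
    have h71 : (mu N + 1) * t = t * mu N + t := by ring
    omega
  have h8 := Nat.lt_of_mul_lt_mul_right h7
  omega

theorem D_count_ge {J J' : Type} [Fintype J] [Fintype J'] (k : J → ℤ) (k' : J' → ℤ)
    (hk0 : ∀ j, 0 ≤ k j) (hk0' : ∀ j, 0 ≤ k' j) (hk2' : ∀ j, Even (k' j))
    (h : ∀ t : ℕ, ∑ j, Module.finrank ℂ (RS (12 * (t : ℤ) - k' j))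
      ≤ ∑ j, Module.finrank ℂ (RS (12 * (t : ℤ) - k j))) :
    Fintype.card J' ≤ Fintype.card J := by
  set K : J' → ℕ := fun j => (k' j).toNat with hK
  set s := ∑ j, K j with hs
  set t := s + Fintype.card J + 1 with ht
  have hKt : ∀ j, K j ≤ t := fun j => by
    have := Finset.single_le_sum (f := K) (fun i _ => Nat.zero_le _) (Finset.mem_univ j)
    omega
  have h1 : ∑ j, (t - K j) ≤ ∑ j, Module.finrank ℂ (RS (12 * (t : ℤ) - k' j)) :=
    Finset.sum_le_sum (fun j _ => finrank_RS_ge t (k' j) (hk0' j) (hk2' j))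
  have h2 : ∑ j, (t - K j) + s = Fintype.card J' * t := sum_sub_add K t hKt
  have h3 : ∑ j, Module.finrank ℂ (RS (12 * (t : ℤ) - k j)) ≤ Fintype.card J * (t + 1) := by
    calc ∑ j, Module.finrank ℂ (RS (12 * (t : ℤ) - k j)) ≤ ∑ _j : J, (t + 1) :=
          Finset.sum_le_sum (fun j _ => finrank_RS_le t (k j) (hk0 j))
      _ = Fintype.card J * (t + 1) := by simp [Finset.card_univ]
  have h5 := h t
  have h6 : Fintype.card J' * t ≤ Fintype.card J * (t + 1) + s := by omega
  have h7 : Fintype.card J' * t < (Fintype.card J + 1) * t := by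
    have h71 : (Fintype.card J + 1) * t = Fintype.card J * t + t := by ring
    have h72 : Fintype.card J * (t + 1) = Fintype.card J * t + Fintype.card J := by ring
    omega
  have h8 := Nat.lt_of_mul_lt_mul_right h7
  omega

end Fermat.Agent.S20_helper4_Df
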