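import Fermat.Agent.S20_helper10_DDefs

set_option autoImplicit false

open UpperHalfPlane ModularForm CongruenceSubgroup
open scoped MatrixGroups ModularForm Manifold
open Fermat.Agent.S20 Fermat.Agent.S20_helper10_DDefs

namespace Fermat.Agent.S20_helper9_Dc

theorem Dc_cj_congr_wt {N : ℕ} {w w' : ℤ} (h : w = w') (g : ℍ → ℂ) (q : Q N) :
    cj N w g q = cj N w' g q := by
  subst h; rfl

/-- The conjugates `cj f q` are pairwise distinct when the stabiliser of `f` is `Γ₀(N)`. -/
theorem Dc_cj_injective {N : ℕ} [NeZero N] {k : ℤ} {f : ℍ → ℂ} (hf : IsMF N k f)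
    (hstab : ∀ γ : SL(2, ℤ), f ∣[k] γ = f → γ ∈ Gamma0 N) :
    Function.Injective (cj N k f) := by
  intro q q' hqq
  induction q using QuotientGroup.induction_on with
  | H h =>
  induction q' using QuotientGroup.induction_on with
  | H h' =>
    rw [cj_eq hf, cj_eq hf] at hqq
    have h1 : f ∣[k] (h⁻¹ * h') = f := by
      rw [SlashAction.slash_mul, hqq, ← SlashAction.slash_mul, inv_mul_cancel,
        SlashAction.slash_one]
    exact QuotientGroup.eq.mpr (hstab _ h1)

/-- Applying the conjugation `cj · q` to the relation. -/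
theorem Dc_relation {N : ℕ} [NeZero N] {k : ℤ} {f : ℍ → ℂ}
    (w : ℤ) (a : Fin (mu N) → ℍ → ℂ)
    (ha : ∀ j : Fin (mu N), IsMF1 (w - ((j : ℕ) : ℤ) * k) (a j))
    (h : ∑ j, a j * f ^ (j : ℕ) = 0) (q : Q N) :
    ∑ j, a j * (cj N k f q) ^ (j : ℕ) = 0 := by
  have h1 : cj N w (∑ j, a j * f ^ (j : ℕ)) q = 0 := by rw [h, cj_zero]
  rw [cj_sum] at h1
  rw [← h1]
  refine Finset.sum_congr rfl fun j _ => ?_
  have hw : w = (w - ((j : ℕ) : ℤ) * k) + ((j : ℕ) : ℤ) * k := by ring
  rw [Dc_cj_congr_wt hw, cj_mul_left (ha j), cj_pow]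

theorem D_powers {N : ℕ} [NeZero N] {k : ℤ} {f : ℍ → ℂ} (hf : IsMF N k f)
    (hstab : ∀ γ : SL(2, ℤ), f ∣[k] γ = f → γ ∈ Gamma0 N) (w : ℤ)
    (a : Fin (mu N) → ℍ → ℂ) (ha : ∀ j : Fin (mu N), IsMF1 (w - ((j : ℕ) : ℤ) * k) (a j))
    (h : ∑ j, a j * f ^ (j : ℕ) = 0) : ∀ j, a j = 0 := by
  classical
  intro j
  have hinj := Dc_cj_injective hf hstab
  -- the discriminant-like product
  set D : ℍ → ℂ := ∏ p ∈ (Finset.univ : Finset (Q N)).offDiag, (cj N k f p.1 - cj N k f p.2)
    with hD
  have hDholo : ∀ p ∈ (Finset.univ : Finset (Q N)).offDiag,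
      MDifferentiable 𝓘(ℂ) 𝓘(ℂ) (cj N k f p.1 - cj N k f p.2) := fun p _ =>
    (cj_holo hf.holo p.1).sub (cj_holo hf.holo p.2)
  have hDne : D ≠ 0 := by
    intro h0
    obtain ⟨p, hp, hp0⟩ := (UpperHalfPlane.prod_eq_zero_iff hDholo).mp h0
    rw [Finset.mem_offDiag] at hp
    exact hp.2.2 (hinj (sub_eq_zero.mp hp0))
  have hDmd : MDifferentiable 𝓘(ℂ) 𝓘(ℂ) D := by
    rw [hD]
    exact MDifferentiable.prod hDholo
  -- pointwise vanishing where `D z ≠ 0`
  have key : a j * D = 0 := by
    funext z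
    simp only [Pi.mul_apply, Pi.zero_apply]
    by_cases hz : D z = 0
    · rw [hz, mul_zero]
    · have hzinj : Function.Injective fun q : Q N => cj N k f q z := by
        intro q q' hqq
        by_contra hne
        apply hz
        rw [hD, Finset.prod_apply]
        refine Finset.prod_eq_zero (i := (q, q')) ?_ ?_
        · simp [Finset.mem_offDiag, hne]
        · simpa [sub_eq_zero] using hqq
      set P : Polynomial ℂ := ∑ i : Fin (mu N), Polynomial.C (a i z) * Polynomial.X ^ (i : ℕ)
        with hP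
      have hdeg : P.degree < (mu N : ℕ) := Polynomial.degree_sum_fin_lt _
      have hP0 : P = 0 := by
        refine Polynomial.eq_zero_of_natDegree_lt_card_of_eval_eq_zero P hzinj ?_ ?_
        · intro q
          have := congrFun (Dc_relation (f := f) w a ha h q) z
          simp only [Finset.sum_apply, Pi.mul_apply, Pi.pow_apply, Pi.zero_apply] at this
          rw [hP, Polynomial.eval_finsetSum]
          simpa using this
        · by_cases hP0 : P = 0
          · rw [hP0, Polynomial.natDegree_zero, Fintype.card_pos_iff]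
            exact ⟨((1 : SL(2, ℤ)) : Q N)⟩
          · have := (Polynomial.natDegree_lt_iff_degree_lt hP0).mpr hdeg
            rwa [mu, Nat.card_eq_fintype_card] at this
      have hc : P.coeff (j : ℕ) = a j z := by
        rw [hP, Polynomial.finsetSum_coeff]
        simp only [Polynomial.coeff_C_mul, Polynomial.coeff_X_pow]
        rw [Finset.sum_eq_single j]
        · simp
        · intro b _ hb
          have : (j : ℕ) ≠ (b : ℕ) := fun hh => hb (Fin.ext hh.symm)
          simp [this]
        · intro hj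
          exact absurd (Finset.mem_univ j) hj
      rw [← hc, hP0, Polynomial.coeff_zero, zero_mul]
  rcases (UpperHalfPlane.mul_eq_zero_iff (ha j).holo hDmd).mp key with h0 | h0
  · exact h0
  · exact absurd h0 hDne

end Fermat.Agent.S20_helper9_Dc
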