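import Fermat.Agent.S20_helper10_D1
import Fermat.Agent.S20_helper24_Dd
import Fermat.Agent.S20_helper4_Df
import Fermat.Agent.S20_helper9_Dc
import Fermat.Agent.S20_helper18_C1

set_option autoImplicit false

open UpperHalfPlane ModularForm CongruenceSubgroup
open scoped MatrixGroups ModularForm Manifold Topology
open Fermat.Agent.S20 Fermat.Agent.S20_helper10_DDefs Fermat.Agent.S20_helper10_DK
open Fermat.Agent.S20_helper10_D1

namespace Fermat.Agent.S20_helper10_D

/-- conversion of a basis indexed by a finset into a `HomBasis` -/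
theorem homBasis_of_finset {N : ℕ} [NeZero N] {ι : Type} (S : Finset ι) (wt : ι → ℤ)
    (f : ι → ℍ → ℂ) (hMF : ∀ i ∈ S, IsMF N (wt i) (f i))
    (hspan : ∀ (w : ℤ) (F : ℍ → ℂ), IsMF N w F →
      ∃ a : ι → ℍ → ℂ, (∀ i, IsMF1 (w - wt i) (a i)) ∧ F = ∑ i ∈ S, a i * f i)
    (hindep : ∀ (w : ℤ) (a : ι → ℍ → ℂ), (∀ i ∈ S, IsMF1 (w - wt i) (a i)) →
      ∑ i ∈ S, a i * f i = 0 → ∀ i ∈ S, a i = 0) :
    Nonempty (HomBasis N) := by
  classical
  let e : S ≃ Fin S.card := S.equivFin
  refine ⟨{ n := S.card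
            wt := fun j => wt (e.symm j).1
            f := fun j => f (e.symm j).1
            isMF := fun j => hMF _ (e.symm j).2
            span := ?_
            indep := ?_ }⟩
  · intro w F hF
    obtain ⟨a, ha, hFa⟩ := hspan w F hF
    refine ⟨fun j => a (e.symm j).1, fun j => ha _, ?_⟩
    rw [hFa, ← Finset.sum_coe_sort S (fun i => a i * f i)]
    exact (Equiv.sum_comp e.symm (fun x : S => a x.1 * f x.1)).symm
  · intro w a ha hsum
    set a' : ι → ℍ → ℂ := fun i => if h : i ∈ S then a (e ⟨i, h⟩) else 0 with ha'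
    have h1 : ∀ x : S, a' x.1 = a (e x) := by
      intro x
      simp only [ha', x.2, dif_pos, Subtype.coe_eta]
    have h2 : ∀ i ∈ S, IsMF1 (w - wt i) (a' i) := by
      intro i hi
      have := ha (e ⟨i, hi⟩)
      simp only [Equiv.symm_apply_apply] at this
      simpa only [ha', hi, dif_pos] using this
    have h3 : ∑ i ∈ S, a' i * f i = 0 := by
      rw [← hsum, ← Finset.sum_coe_sort S (fun i => a' i * f i)]
      rw [← Equiv.sum_comp e (fun j => a j * f (e.symm j).1)]
      refine Finset.sum_congr rfl fun x _ => ?_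
      rw [h1 x, Equiv.symm_apply_apply]
    have h4 := hindep w a' h2 h3
    intro j
    have := h4 (e.symm j).1 (e.symm j).2
    rw [h1, Equiv.apply_symm_apply] at this
    exact this

variable (N : ℕ) [NeZero N]

theorem fI_ne_zero (i : Idx N) : fI N i ≠ 0 := by
  classical
  intro h
  obtain ⟨w, j⟩ := i
  have h0 : gg N w j = 0 := h
  have h1 : ∑ j' : Fin (gm N w), (Pi.single j (1 : ℂ) : Fin (gm N w) → ℂ) j' • gg N w j' =
      ⇑E₄ * (0 : ℍ → ℂ) + ⇑E₆ * (0 : ℍ → ℂ) := by
    rw [Finset.sum_eq_single j]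
    · simp [h0]
    · intro j' _ hj'
      simp [Pi.single_eq_of_ne hj']
    · intro hj
      exact absurd (Finset.mem_univ j) hj
  have h2 := gg_indep N w _ 0 0 IsMF.zero IsMF.zero h1
  have h3 := congrFun h2 j
  simp at h3

theorem idx_even (i : Idx N) : Even (i.1 : ℤ) := by
  by_contra h
  rw [Int.not_even_iff_odd] at h
  exact fI_ne_zero N i ((fI_isMF N i).eq_zero_of_odd h)

theorem card_SW_le (W : ℕ) : (SW N W).card ≤ mu N := by
  classical
  have key := Fermat.Agent.S20_helper4_Df.D_count_le (N := N) (J := {i // i ∈ SW N W})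
    (fun j => (j.1.1 : ℤ)) (fun j => Int.natCast_nonneg _) (fun j => idx_even N j.1)
    (fun t => Fermat.Agent.S20_helper24_Dd.D_gb_lower (N := N) (J := {i // i ∈ SW N W})
      (fun j => (j.1.1 : ℤ)) (fun j => fI N j.1) (fun j => fI_isMF N j.1) (12 * (t : ℤ))
      (fun a ha hsum => by
        set a' : Idx N → ℍ → ℂ := fun i => if h : i ∈ SW N W then a ⟨i, h⟩ else 0 with ha'
        have h1 : ∀ x : {i // i ∈ SW N W}, a' x.1 = a x := by
          intro x
          simp only [ha', x.2, dif_pos, Subtype.coe_eta]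
        have h2 : ∀ i ∈ SW N W, IsMF1 (12 * (t : ℤ) - i.1) (a' i) := by
          intro i hi
          have := ha ⟨i, hi⟩
          simpa only [ha', hi, dif_pos] using this
        have h3 : ∑ i ∈ SW N W, a' i * fI N i = 0 := by
          rw [← hsum, ← Finset.sum_coe_sort (SW N W) (fun i => a' i * fI N i)]
          refine Finset.sum_congr rfl fun x _ => ?_
          rw [h1 x]
        have h4 := indep_all N W (12 * (t : ℤ)) a' h2 h3
        intro j
        have := h4 j.1 j.2
        rwa [h1] at this))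
  simpa using key

theorem exists_bound : ∃ W₀ : ℕ, ∀ i : Idx N, i.1 ≤ W₀ := by
  classical
  by_contra hcon
  simp only [not_exists, not_forall, not_le] at hcon
  have key : ∀ n : ℕ, ∃ W : ℕ, n ≤ (SW N W).card := by
    intro n
    induction n with
    | zero => exact ⟨0, Nat.zero_le _⟩
    | succ n ih =>
      obtain ⟨W, hW⟩ := ih
      obtain ⟨i, hi⟩ := hcon W
      refine ⟨i.1, ?_⟩
      have hsub : insert i (SW N W) ⊆ SW N i.1 := by
        intro x hx
        rw [Finset.mem_insert] at hx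
        rw [mem_SW]
        rcases hx with rfl | hx
        · exact le_rfl
        · rw [mem_SW] at hx
          omega
      have hnot : i ∉ SW N W := by
        rw [mem_SW]
        omega
      have := Finset.card_le_card hsub
      rw [Finset.card_insert_of_notMem hnot] at this
      omega
  obtain ⟨W, hW⟩ := key (mu N + 1)
  have := card_SW_le N W
  omega

theorem D1 : Nonempty (HomBasis N) := by
  obtain ⟨W₀, hW₀⟩ := exists_bound N
  refine homBasis_of_finset (SW N W₀) (fun i => (i.1 : ℤ)) (fI N) (fun i _ => fI_isMF N i) ?_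
    (fun w a ha hsum => indep_all N W₀ w a ha hsum)
  intro w F hF
  set W : ℕ := max W₀ w.toNat with hW
  have hwW : w ≤ (W : ℤ) := by
    have h1 : w ≤ (w.toNat : ℤ) := Int.self_le_toNat w
    have h2 : (w.toNat : ℤ) ≤ (W : ℤ) := by exact_mod_cast le_max_right W₀ w.toNat
    exact le_trans h1 h2
  obtain ⟨a, ha, hFa⟩ := spanW N (W + 1) W w (by push_cast; omega) hwW F hF
  refine ⟨a, ha, ?_⟩
  have hS : SW N W = SW N W₀ := by
    ext i
    rw [mem_SW, mem_SW]
    constructor
    · intro _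
      exact hW₀ i
    · intro h
      exact le_trans h (le_max_left _ _)
  rw [← hS]
  exact hFa

/-- a form with stabiliser `Γ₀(N)` of even nonnegative weight -/
theorem exists_good_form {N : ℕ} [NeZero N]
    (hC1 : ∃ (k : ℤ) (f : ModularForm (Gamma0 N) k),
      ∀ γ : SL(2, ℤ), (⇑f) ∣[k] γ = ⇑f → γ ∈ Gamma0 N) :
    ∃ (k : ℤ) (f : ℍ → ℂ), IsMF N k f ∧ (∀ γ : SL(2, ℤ), f ∣[k] γ = f → γ ∈ Gamma0 N) ∧
      0 ≤ k ∧ Even k := by
  obtain ⟨k, F, hstab⟩ := hC1
  have hF : IsMF N k (⇑F) := ⟨F, rfl⟩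
  by_cases h0 : (⇑F : ℍ → ℂ) = 0
  · have hall : ∀ γ : SL(2, ℤ), γ ∈ Gamma0 N := by
      intro γ
      apply hstab
      rw [h0]
      exact SlashAction.zero_slash _ _
    exact ⟨0, 1, IsMF1.one.isMF, fun γ _ => hall γ, le_rfl, by decide⟩
  · refine ⟨k, ⇑F, hF, hstab, ?_, ?_⟩
    · by_contra hk
      exact h0 (hF.eq_zero_of_neg (not_le.mp hk))
    · by_contra hk
      rw [Int.not_even_iff_odd] at hk
      exact h0 (hF.eq_zero_of_odd hk)

theorem D2_of_C1 {N : ℕ} [NeZero N]
    (hC1 : ∃ (k : ℤ) (f : ModularForm (Gamma0 N) k),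
      ∀ γ : SL(2, ℤ), (⇑f) ∣[k] γ = ⇑f → γ ∈ Gamma0 N)
    (B : HomBasis N) : B.n = mu N := by
  apply le_antisymm
  · have := Fermat.Agent.S20_helper4_Df.D_count_le (N := N) (J := Fin B.n) B.wt B.wt_nonneg B.wt_even
      (fun t => Fermat.Agent.S20_helper24_Dd.D_gb_lower B.wt B.f B.isMF (12 * (t : ℤ))
        (B.indep (12 * (t : ℤ))))
    simpa using this
  · obtain ⟨k, f, hf, hstab, hk0, hk2⟩ := exists_good_form hC1
    have := Fermat.Agent.S20_helper4_Df.D_count_ge (J := Fin B.n) (J' := Fin (mu N)) B.wt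
      (fun j => ((j : ℕ) : ℤ) * k) B.wt_nonneg
      (fun j => mul_nonneg (Int.natCast_nonneg _) hk0)
      (fun j => hk2.mul_left _)
      (fun t => le_trans
        (Fermat.Agent.S20_helper24_Dd.D_gb_lower (N := N) (J := Fin (mu N))
          (fun j => ((j : ℕ) : ℤ) * k) (fun j => f ^ (j : ℕ)) (fun j => hf.pow (j : ℕ))
          (12 * (t : ℤ))
          (Fermat.Agent.S20_helper9_Dc.D_powers hf hstab (12 * (t : ℤ))))
        (Fermat.Agent.S20_helper24_Dd.D_gb_upper B.wt B.f (12 * (t : ℤ)) (B.span (12 * (t : ℤ)))))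
    simpa using this

/-- D2: the number of basis elements is the index. -/
theorem D2 {N : ℕ} [NeZero N] (B : HomBasis N) : B.n = mu N :=
  D2_of_C1 (Fermat.Agent.S20_helper18_C1.C1 N) B

end Fermat.Agent.S20_helper10_D

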