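import Fermat.Agent.S28_helper14_ADefs

set_option autoImplicit false

/-!
# S28 piece NINT: closure properties of `IsNInt` (integrality over `ℤ[1/N]`)
-/

open Fermat.Agent.S28_helper14_Defs

namespace Fermat.Agent.S28_NINT

theorem isIntegral_natCast_pow (N e : ℕ) : IsIntegral ℤ ((N : ℂ) ^ e) :=
  (isIntegral_algebraMap (R := ℤ) (A := ℂ) (x := (N : ℤ))).pow e |> fun h => by
    simpa using h

theorem isNInt_add {N : ℕ} {x y : ℂ} (hx : IsNInt N x) (hy : IsNInt N y) : IsNInt N (x + y) := by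
  obtain ⟨e, he⟩ := hx
  obtain ⟨f, hf⟩ := hy
  refine ⟨e + f, ?_⟩
  have : (N : ℂ) ^ (e + f) * (x + y)
      = (N : ℂ) ^ f * ((N : ℂ) ^ e * x) + (N : ℂ) ^ e * ((N : ℂ) ^ f * y) := by
    rw [pow_add]; ring
  rw [this]
  exact ((isIntegral_natCast_pow N f).mul he).add ((isIntegral_natCast_pow N e).mul hf)

theorem isNInt_mul {N : ℕ} {x y : ℂ} (hx : IsNInt N x) (hy : IsNInt N y) : IsNInt N (x * y) := by
  obtain ⟨e, he⟩ := hx
  obtain ⟨f, hf⟩ := hy
  refine ⟨e + f, ?_⟩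
  have : (N : ℂ) ^ (e + f) * (x * y) = ((N : ℂ) ^ e * x) * ((N : ℂ) ^ f * y) := by
    rw [pow_add]; ring
  rw [this]
  exact he.mul hf

theorem isNInt_neg {N : ℕ} {x : ℂ} (hx : IsNInt N x) : IsNInt N (-x) := by
  obtain ⟨e, he⟩ := hx
  refine ⟨e, ?_⟩
  rw [mul_neg]
  exact he.neg

theorem isNInt_of_isIntegral {N : ℕ} {x : ℂ} (hx : IsIntegral ℤ x) : IsNInt N x :=
  ⟨0, by simpa using hx⟩

theorem isNInt_zero {N : ℕ} : IsNInt N 0 := isNInt_of_isIntegral isIntegral_zero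

theorem isNInt_one {N : ℕ} : IsNInt N 1 := isNInt_of_isIntegral isIntegral_one

theorem isNInt_intCast {N : ℕ} (n : ℤ) : IsNInt N (n : ℂ) :=
  isNInt_of_isIntegral (by simpa using (isIntegral_algebraMap (R := ℤ) (A := ℂ) (x := n)))

theorem isNInt_natCast {N : ℕ} (n : ℕ) : IsNInt N (n : ℂ) := by
  simpa using isNInt_intCast (N := N) (n : ℤ)

theorem isNInt_inv_of_dvd {N d : ℕ} (hN : N ≠ 0) (hd : d ∣ N) : IsNInt N ((d : ℂ)⁻¹) := by
  obtain ⟨k, rfl⟩ := hd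
  have hd0 : (d : ℂ) ≠ 0 := by
    intro h
    apply hN
    have : d = 0 := by exact_mod_cast h
    rw [this, zero_mul]
  refine ⟨1, ?_⟩
  have : ((d * k : ℕ) : ℂ) ^ 1 * (d : ℂ)⁻¹ = ((k : ℤ) : ℂ) := by
    push_cast
    field_simp
  rw [this]
  simpa using (isIntegral_algebraMap (R := ℤ) (A := ℂ) (x := (k : ℤ)))

theorem isNInt_sub {N : ℕ} {x y : ℂ} (hx : IsNInt N x) (hy : IsNInt N y) : IsNInt N (x - y) := by
  rw [sub_eq_add_neg]
  exact isNInt_add hx (isNInt_neg hy)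

theorem isNInt_pow {N : ℕ} {x : ℂ} (hx : IsNInt N x) (n : ℕ) : IsNInt N (x ^ n) := by
  induction n with
  | zero => simpa using isNInt_one
  | succ n ih => rw [pow_succ]; exact isNInt_mul ih hx

/-- The subring of `ℂ` of elements integral over `ℤ[1/N]`. -/
def nIntSubring (N : ℕ) : Subring ℂ where
  carrier := {x | IsNInt N x}
  mul_mem' := fun hx hy => isNInt_mul hx hy
  one_mem' := isNInt_one
  add_mem' := fun hx hy => isNInt_add hx hy
  zero_mem' := isNInt_zero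
  neg_mem' := fun hx => isNInt_neg hx

theorem mem_nIntSubring {N : ℕ} {x : ℂ} : x ∈ nIntSubring N ↔ IsNInt N x := Iff.rfl

theorem isNInt_sum {N : ℕ} {ι : Type*} (s : Finset ι) (f : ι → ℂ) (h : ∀ i ∈ s, IsNInt N (f i)) :
    IsNInt N (∑ i ∈ s, f i) :=
  (nIntSubring N).sum_mem h

theorem isNInt_prod {N : ℕ} {ι : Type*} (s : Finset ι) (f : ι → ℂ) (h : ∀ i ∈ s, IsNInt N (f i)) :
    IsNInt N (∏ i ∈ s, f i) :=
  (nIntSubring N).prod_mem h

end Fermat.Agent.S28_NINT
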