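import Fermat.Agent.S28_helper14_ADefs

set_option autoImplicit false
set_option linter.unusedVariables false

/-!
# S28, piece ORDER: arithmetic of the exponents of the modular unit
-/

open UpperHalfPlane ModularForm CongruenceSubgroup Matrix.SpecialLinearGroup
open scoped MatrixGroups ModularForm Manifold Real
open Fermat.Agent.S20 Fermat.Agent.S28_helper14_Defs Fermat.Agent.S28_helper14_ADefs ModularCurve

namespace Fermat.Agent.S28_ORDER

open ArithmeticFunction

theorem rad_dvd (N : ℕ) : rad N ∣ N := Nat.prod_primeFactors_dvd N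

theorem rad_squarefree (N : ℕ) : Squarefree (rad N) := by
  unfold rad
  refine Finset.squarefree_prod_of_pairwise_isCoprime (fun p hp q hq hpq => ?_) ?_
  · have hp' := Nat.prime_of_mem_primeFactors hp
    have hq' := Nat.prime_of_mem_primeFactors hq
    exact Nat.coprime_iff_isRelPrime.mp ((Nat.coprime_primes hp' hq').mpr hpq)
  · intro p hp
    exact (Nat.prime_of_mem_primeFactors hp).squarefree

theorem rad_ne_zero (N : ℕ) : rad N ≠ 0 := (rad_squarefree N).ne_zero

theorem rad_pos (N : ℕ) : 0 < rad N := Nat.pos_of_ne_zero (rad_ne_zero N)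

theorem primeFactors_rad (N : ℕ) : (rad N).primeFactors = N.primeFactors :=
  Nat.primeFactors_prod_primeFactors N

/-- Möbius inversion of `∑ φ = id`. -/
theorem sum_moebius_mul_div (n : ℕ) (hn : 0 < n) :
    ∑ s ∈ n.divisors, (moebius s : ℤ) * ((n / s : ℕ) : ℤ) = (n.totient : ℤ) := by
  have h1 : ∀ m : ℕ, m > 0 → ∑ i ∈ m.divisors, ((i.totient : ℕ) : ℤ) = (m : ℤ) := by
    intro m _
    have := Nat.sum_totient m
    exact_mod_cast this
  have h2 := (ArithmeticFunction.sum_eq_iff_sum_mul_moebius_eq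
    (f := fun i : ℕ => ((i.totient : ℕ) : ℤ)) (g := fun m : ℕ => (m : ℤ))).mp h1 n hn
  simp only [Int.cast_id] at h2
  rw [← h2, Nat.sum_divisorsAntidiagonal (f := fun a b => (moebius a : ℤ) * (b : ℤ))]

theorem sum_uexp (N : ℕ) (hN : 0 < N) : ∑ s ∈ (rad N).divisors, uexp N s = (k0 N : ℤ) := by
  unfold uexp k0
  exact sum_moebius_mul_div (rad N) (rad_pos N)

theorem k0_pos (N : ℕ) (hN : 0 < N) : 0 < k0 N :=
  Nat.totient_pos.mpr (rad_pos N)

theorem sum_moebius_mul_div_sq (n : ℕ) (hn : Squarefree n) :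
    ∑ s ∈ n.divisors, (moebius s : ℤ) * (((n / s : ℕ) : ℤ))^2
      = ∏ p ∈ n.primeFactors, ((p:ℤ)^2 - 1) := by
  have hf : IsMultiplicative ((pow 2 : ArithmeticFunction ℕ) : ArithmeticFunction ℤ) :=
    isMultiplicative_pow.natCast
  have h := hf.prodPrimeFactors_add_of_squarefree isMultiplicative_moebius hn
  rw [prodPrimeFactors_apply hn.ne_zero] at h
  rw [mul_apply, Nat.sum_divisorsAntidiagonal'
    (f := fun a b => ((pow 2 : ArithmeticFunction ℕ) : ArithmeticFunction ℤ) a * moebius b)] at h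
  have h3 : ∀ s ∈ n.divisors, (moebius s : ℤ) * (((n / s : ℕ) : ℤ))^2
      = ((pow 2 : ArithmeticFunction ℕ) : ArithmeticFunction ℤ) (n / s) * moebius s := by
    intro s hs
    rw [natCoe_apply, pow_apply, if_neg (by norm_num)]
    push_cast
    ring
  rw [Finset.sum_congr rfl h3, ← h]
  refine Finset.prod_congr rfl (fun p hp => ?_)
  have hp' := Nat.prime_of_mem_primeFactors hp
  rw [ArithmeticFunction.add_apply, natCoe_apply, pow_apply, if_neg (by norm_num),
    moebius_apply_prime hp']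
  push_cast
  ring

theorem ordG_nonneg (N : ℕ) (hN : 0 < N) : 0 ≤ ordG N := by
  have hR := rad_dvd N
  have h1 : ordG N = ((N / rad N : ℕ) : ℤ) *
      ∑ s ∈ (rad N).divisors, (moebius s : ℤ) * (((rad N / s : ℕ) : ℤ))^2 := by
    unfold ordG uexp
    rw [Finset.mul_sum]
    refine Finset.sum_congr rfl (fun s hs => ?_)
    have hs' : s ∣ rad N := Nat.dvd_of_mem_divisors hs
    have h2 : N / s = (N / rad N) * (rad N / s) := by
      rw [Nat.div_mul_div_comm hR hs', mul_comm (rad N) s,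
        Nat.mul_div_mul_right _ _ (rad_pos N)]
    rw [h2]
    push_cast
    ring
  rw [h1, sum_moebius_mul_div_sq _ (rad_squarefree N)]
  refine mul_nonneg (Int.natCast_nonneg _) (Finset.prod_nonneg (fun p hp => ?_))
  have hp' := (Nat.prime_of_mem_primeFactors hp).one_le
  have : (1 : ℤ) ≤ (p : ℤ) := by exact_mod_cast hp'
  nlinarith

theorem gcd_step (p m s' c' k : ℕ) (hp : p.Prime) (hk : p ^ k ∣ p * m * s') (hps : ¬ p ∣ s')
    (hc : ¬ p ^ k ∣ c') : Nat.gcd (p * m) c' = Nat.gcd m c' := by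
  have hk0 : k ≠ 0 := by
    rintro rfl
    exact hc (by simp)
  obtain ⟨k', rfl⟩ := Nat.exists_eq_succ_of_ne_zero hk0
  have hcop : Nat.Coprime p s' := (Nat.Prime.coprime_iff_not_dvd hp).mpr hps
  have hm : p ^ k' ∣ m := by
    have h1 : p ^ k' ∣ m * s' := by
      have : p * p ^ k' ∣ p * (m * s') := by
        rw [← pow_succ', ← mul_assoc]; exact hk
      exact (Nat.mul_dvd_mul_iff_left hp.pos).mp this
    exact (Nat.Coprime.pow_left k' hcop).dvd_of_dvd_mul_right h1
  apply Nat.dvd_antisymm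
  · apply Nat.dvd_gcd _ (Nat.gcd_dvd_right _ _)
    rw [Nat.dvd_iff_prime_pow_dvd_dvd]
    intro q j hq hqj
    by_cases hqp : q = p
    · subst hqp
      have hj : j ≤ k' := by
        by_contra hlt
        push Not at hlt
        exact hc ((pow_dvd_pow q hlt).trans (hqj.trans (Nat.gcd_dvd_right _ _)))
      exact (pow_dvd_pow q hj).trans hm
    · have h2 : q ^ j ∣ p * m := hqj.trans (Nat.gcd_dvd_left _ _)
      have hcop2 : Nat.Coprime (q ^ j) p :=
        Nat.Coprime.pow_left j ((Nat.coprime_primes hq hp).mpr hqp)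
      exact hcop2.dvd_of_dvd_mul_left h2
  · exact Nat.dvd_gcd ((Nat.gcd_dvd_left _ _).trans (Dvd.intro_left p rfl))
      (Nat.gcd_dvd_right _ _)

theorem sum_uexp_gcd (N : ℕ) (hN : 0 < N) (c : ℤ) (hc : ¬ (N : ℤ) ∣ c) :
    ∑ s ∈ (rad N).divisors,
      uexp N s * (((Int.gcd ((N / s : ℕ) : ℤ) c : ℕ) : ℤ) ^ 2 * (s : ℤ)) = 0 := by
  have hc' : ¬ N ∣ c.natAbs := fun h => hc (Int.natCast_dvd.mpr h)
  rw [Nat.dvd_iff_prime_pow_dvd_dvd] at hc'
  push Not at hc'
  obtain ⟨p, k, hp, hpk, hpc⟩ := hc'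
  have hk0 : k ≠ 0 := by rintro rfl; exact hpc (by simp)
  have hpN : p ∣ N := (dvd_pow_self p hk0).trans hpk
  have hpR : p ∣ rad N := by
    have : p ∈ N.primeFactors := Nat.mem_primeFactors.mpr ⟨hp, hpN, hN.ne'⟩
    exact Finset.dvd_prod_of_mem _ this
  have hgcd : ∀ m : ℕ, Int.gcd (m : ℤ) c = Nat.gcd m c.natAbs := fun m => by
    simp [Int.gcd]
  have key : ∀ s' : ℕ, ¬ p ∣ s' → s' * p ∣ rad N →
      uexp N s' * (((Int.gcd ((N / s' : ℕ) : ℤ) c : ℕ) : ℤ) ^ 2 * (s' : ℤ))
      + uexp N (s' * p) * (((Int.gcd ((N / (s' * p) : ℕ) : ℤ) c : ℕ) : ℤ) ^ 2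
          * ((s' * p : ℕ) : ℤ)) = 0 := by
    intro s' hps hsR
    have hsN : s' * p ∣ N := hsR.trans (rad_dvd N)
    have hcop : Nat.Coprime s' p := ((Nat.Prime.coprime_iff_not_dvd hp).mpr hps).symm
    have hmu : moebius (s' * p) = - moebius s' := by
      rw [isMultiplicative_moebius.map_mul_of_coprime hcop, moebius_apply_prime hp]; ring
    have hdiv : ∀ M : ℕ, s' * p ∣ M → M / s' = p * (M / (s' * p)) := by
      intro M hM
      obtain ⟨t, rfl⟩ := hM
      have hs'pos : 0 < s' := Nat.pos_of_ne_zero (by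
        rintro rfl
        exact hps (dvd_zero p))
      rw [Nat.mul_div_cancel_left _ (Nat.mul_pos hs'pos hp.pos), mul_assoc,
        Nat.mul_div_cancel_left _ hs'pos]
    have hg : Nat.gcd (N / s') c.natAbs = Nat.gcd (N / (s' * p)) c.natAbs := by
      rw [hdiv N hsN]
      apply gcd_step p _ s' _ k hp _ hps hpc
      have : p * (N / (s' * p)) * s' = N := by
        rw [mul_comm p, mul_assoc, mul_comm p s', Nat.div_mul_cancel hsN]
      rw [this]; exact hpk
    unfold uexp
    rw [hgcd, hgcd, hg, hmu, hdiv _ hsR]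
    push_cast
    ring
  have hsq := rad_squarefree N
  refine Finset.sum_involution (fun s _ => if p ∣ s then s / p else s * p) ?_ ?_ ?_ ?_
  · intro s hs
    have hsR : s ∣ rad N := Nat.dvd_of_mem_divisors hs
    by_cases hps : p ∣ s
    · simp only [if_pos hps]
      obtain ⟨t, rfl⟩ := hps
      rw [Nat.mul_div_cancel_left _ hp.pos]
      have hpt : ¬ p ∣ t := by
        intro hpt
        have : p * p ∣ rad N := (Nat.mul_dvd_mul_left p hpt).trans hsR
        exact hp.not_isUnit (hsq p this)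
      have := key t hpt (by rw [mul_comm]; exact hsR)
      rw [mul_comm t p] at this
      rw [add_comm]
      exact this
    · simp only [if_neg hps]
      refine key s hps ?_
      exact Nat.Coprime.mul_dvd_of_dvd_of_dvd
        ((Nat.Prime.coprime_iff_not_dvd hp).mpr hps).symm hsR hpR
  · intro s hs _
    have hsR : s ∣ rad N := Nat.dvd_of_mem_divisors hs
    have hs0 : 0 < s := Nat.pos_of_dvd_of_pos hsR (rad_pos N)
    by_cases hps : p ∣ s
    · simp only [if_pos hps]
      exact (Nat.div_lt_self hs0 hp.one_lt).ne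
    · simp only [if_neg hps]
      have : s * 1 < s * p := Nat.mul_lt_mul_of_pos_left hp.one_lt hs0
      omega
  · intro s hs
    have hsR : s ∣ rad N := Nat.dvd_of_mem_divisors hs
    rw [Nat.mem_divisors]
    refine ⟨?_, rad_ne_zero N⟩
    by_cases hps : p ∣ s
    · simp only [if_pos hps]
      exact (Nat.div_dvd_of_dvd hps).trans hsR
    · simp only [if_neg hps]
      exact Nat.Coprime.mul_dvd_of_dvd_of_dvd
        ((Nat.Prime.coprime_iff_not_dvd hp).mpr hps).symm hsR hpR
  · intro s hs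
    have hsR : s ∣ rad N := Nat.dvd_of_mem_divisors hs
    by_cases hps : p ∣ s
    · simp only [if_pos hps]
      obtain ⟨t, rfl⟩ := hps
      rw [Nat.mul_div_cancel_left _ hp.pos]
      have hpt : ¬ p ∣ t := by
        intro hpt
        have : p * p ∣ rad N := (Nat.mul_dvd_mul_left p hpt).trans hsR
        exact hp.not_isUnit (hsq p this)
      rw [if_neg hpt, mul_comm]
    · simp only [if_neg hps]
      rw [if_pos (Dvd.intro_left s rfl), Nat.mul_div_cancel _ hp.pos]

end Fermat.Agent.S28_ORDER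

section Checks
open Fermat.Agent.S28_helper14_ADefs

example (N : ℕ) (hN : 0 < N) : ∑ s ∈ (rad N).divisors, uexp N s = (k0 N : ℤ) :=
  Fermat.Agent.S28_ORDER.sum_uexp N hN
example (N : ℕ) (hN : 0 < N) : 0 < k0 N := Fermat.Agent.S28_ORDER.k0_pos N hN
example (N : ℕ) (hN : 0 < N) : 0 ≤ ordG N := Fermat.Agent.S28_ORDER.ordG_nonneg N hN
example (N : ℕ) (hN : 0 < N) (c : ℤ) (hc : ¬ (N : ℤ) ∣ c) :
    ∑ s ∈ (rad N).divisors,
      uexp N s * (((Int.gcd ((N / s : ℕ) : ℤ) c : ℕ) : ℤ) ^ 2 * (s : ℤ)) = 0 :=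
  Fermat.Agent.S28_ORDER.sum_uexp_gcd N hN c hc

end Checks
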