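import Fermat.Agent.S28_helper14_ADefs
import Fermat.Agent.S28_helper21_HERMITE

/-!
# S28, piece GFORM

Explicit formula for the `SL(2, ℤ)`-conjugates of the eta quotient
`GN N = ∏_{s ∣ rad N} Δ((N/s) z) ^ (uexp N s)`.
-/

set_option autoImplicit false

noncomputable section

namespace Fermat.Agent.S28_GFORM

open UpperHalfPlane ModularForm CongruenceSubgroup Matrix.SpecialLinearGroup
open scoped MatrixGroups ModularForm Manifold Real
open Fermat.Agent.S20 Fermat.Agent.S28_helper14_Defs Fermat.Agent.S28_helper14_ADefs ModularCurve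

/-- `s ∣ rad N` implies `0 < N / s`. -/
theorem div_pos_of_mem_divisors_rad (N : ℕ) [NeZero N] {s : ℕ} (hs : s ∈ (rad N).divisors) :
    0 < N / s := by
  have h1 : s ∣ rad N := Nat.dvd_of_mem_divisors hs
  have h2 : rad N ∣ N := Nat.prod_primeFactors_dvd N
  have h3 : s ∣ N := h1.trans h2
  have hN : 0 < N := Nat.pos_of_ne_zero (NeZero.ne N)
  exact Nat.div_pos (Nat.le_of_dvd hN h3) (Nat.pos_of_dvd_of_pos h3 hN)

/-- Möbius inversion of `∑_{d ∣ n} φ(d) = n`. -/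
theorem sum_moebius_mul_div_eq_totient (n : ℕ) (hn : 0 < n) :
    ∑ s ∈ n.divisors, (ArithmeticFunction.moebius s : ℤ) * ((n / s : ℕ) : ℤ)
      = (n.totient : ℤ) := by
  have h1 : ∀ m > 0, ∑ i ∈ m.divisors, ((Nat.totient i : ℕ) : ℤ) = ((m : ℕ) : ℤ) := by
    intro m _
    rw [← Nat.cast_sum, Nat.sum_totient]
  have h2 := (ArithmeticFunction.sum_eq_iff_sum_mul_moebius_eq
    (f := fun i => ((Nat.totient i : ℕ) : ℤ)) (g := fun m => ((m : ℕ) : ℤ))).1 h1 n hn
  simp only [Int.cast_id] at h2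
  rw [← h2]
  exact (Nat.sum_divisorsAntidiagonal
    (f := fun i j => (ArithmeticFunction.moebius i : ℤ) * ((j : ℕ) : ℤ))).symm

/-- The weights add up to `k0 N` (self-contained copy of the ORDER identity). -/
theorem sum_uexp_aux (N : ℕ) :
    ∑ s ∈ (rad N).divisors, uexp N s = (k0 N : ℤ) := by
  have hr : 0 < rad N := by
    unfold rad
    exact Finset.prod_pos fun p hp => (Nat.prime_of_mem_primeFactors hp).pos
  exact sum_moebius_mul_div_eq_totient (rad N) hr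

/-- Product of integer powers of a fixed nonzero element. -/
theorem prod_zpow_const {ι : Type*} (S : Finset ι) (x : ℂ) (hx : x ≠ 0) (n : ι → ℤ) :
    ∏ s ∈ S, x ^ (n s) = x ^ (∑ s ∈ S, n s) := by
  classical
  induction S using Finset.induction_on with
  | empty => simp
  | insert a S ha ih =>
    rw [Finset.prod_insert ha, Finset.sum_insert ha, ih, zpow_add₀ hx]

/-- **GFORM.** The slash of `GN N` by `γ ∈ SL(2, ℤ)`. -/
theorem GN_slash_formula (N : ℕ) [NeZero N] (γ : SL(2, ℤ)) :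
    ∃ (a d : ℕ → ℕ) (b : ℕ → ℤ),
      (∀ s ∈ (rad N).divisors, 0 < a s ∧ 0 < d s ∧ a s * d s = N / s ∧
        a s = Int.gcd ((N / s : ℕ) : ℤ) (γ 1 0)) ∧
      GN N ∣[12 * (k0 N : ℤ)] γ = fun z => ∏ s ∈ (rad N).divisors,
        (((d s : ℂ) ^ 12)⁻¹ * tri (a s) (d s) (b s) discriminant z) ^ (uexp N s) := by
  classical
  have hΔ : ∀ γ : SL(2, ℤ), (discriminant : ℍ → ℂ) ∣[(12 : ℤ)] γ = discriminant :=
    fun γ => isMF1_discriminant.slash_eq γ
  have key : ∀ s : ℕ, ∃ (a d : ℕ) (b : ℤ), s ∈ (rad N).divisors →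
      (0 < a ∧ 0 < d ∧ a * d = N / s ∧ a = Int.gcd ((N / s : ℕ) : ℤ) (γ 1 0) ∧
      (tri (N / s) 1 0 discriminant) ∣[(12 : ℤ)] γ
        = fun z => ((d : ℂ) ^ (12 : ℤ))⁻¹ * tri a d b discriminant z) := by
    intro s
    by_cases hs : s ∈ (rad N).divisors
    · obtain ⟨a, d, b, h1, h2, h3, h4, h5⟩ :=
        Fermat.Agent.S28_HERMITE.slash_tri_eq hΔ (N / s) (div_pos_of_mem_divisors_rad N hs) γ
      exact ⟨a, d, b, fun _ => ⟨h1, h2, h3, h4, h5⟩⟩
    · exact ⟨0, 0, 0, fun h => absurd h hs⟩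
  choose a d b hab using key
  refine ⟨a, d, b, fun s hs => ⟨(hab s hs).1, (hab s hs).2.1, (hab s hs).2.2.1,
    (hab s hs).2.2.2.1⟩, ?_⟩
  funext z
  rw [SL_slash_apply]
  have hdz : denom γ z ≠ 0 := denom_ne_zero _ z
  have hsum : (12 : ℤ) * (k0 N : ℤ) = ∑ s ∈ (rad N).divisors, 12 * uexp N s := by
    rw [← Finset.mul_sum, sum_uexp_aux N]
  have hden : denom γ z ^ (-(12 * (k0 N : ℤ)))
      = ∏ s ∈ (rad N).divisors, (denom γ z ^ (-(12 : ℤ))) ^ (uexp N s) := by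
    rw [hsum, ← Finset.sum_neg_distrib, ← prod_zpow_const _ _ hdz]
    refine Finset.prod_congr rfl fun s _ => ?_
    rw [← zpow_mul, neg_mul]
  rw [hden]
  change (∏ s ∈ (rad N).divisors, (tri (N / s) 1 0 discriminant (γ • z)) ^ (uexp N s)) * _ = _
  rw [← Finset.prod_mul_distrib]
  refine Finset.prod_congr rfl fun s hs => ?_
  rw [← mul_zpow]
  congr 1
  have h5 := congrFun (hab s hs).2.2.2.2 z
  rw [SL_slash_apply] at h5
  rw [h5]
  norm_cast

end Fermat.Agent.S28_GFORM
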