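import Fermat.Agent.S28_helper14_ADefs
import Fermat.Agent.S28_helper17_NINT
import Fermat.Agent.S28_helper11_DT
import Fermat.Agent.S28_helper24_SUBST
import Fermat.Agent.S28_helper28_ORDER
import Fermat.Agent.S28_helper2_GFORM

/-!
# S28 piece GCONJ: the conjugates of the eta quotient `GN N`
-/

set_option autoImplicit false

open UpperHalfPlane ModularForm CongruenceSubgroup Matrix.SpecialLinearGroup
open scoped MatrixGroups ModularForm Manifold Real
open Fermat.Agent.S20 Fermat.Agent.S28_helper14_Defs Fermat.Agent.S28_helper14_ADefs ModularCurve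

namespace Fermat.Agent.S28_GCONJ

open Fermat.Agent.S28_NINT

/-! ### closure properties of `Nice` -/

theorem nice_analyticAt {h : ℝ} (hh : 0 < h) {f : ℍ → ℂ} (hf : Nice h f) :
    AnalyticAt ℂ (cuspFunction h f) 0 :=
  analyticAt_cuspFunction_zero hh hf.per hf.holo hf.bdd

theorem nice_one (h : ℝ) : Nice h (1 : ℍ → ℂ) where
  per := fun _ => rfl
  holo := mdifferentiable_const
  bdd := Filter.const_boundedAtFilter _ (1 : ℂ)

theorem nice_mul {h : ℝ} {f g : ℍ → ℂ} (hf : Nice h f) (hg : Nice h g) : Nice h (f * g) where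
  per := fun x => by
    have h1 := hf.per x
    have h2 := hg.per x
    simp only [Function.comp_apply, Pi.mul_apply] at h1 h2 ⊢
    rw [h1, h2]
  holo := hf.holo.mul hg.holo
  bdd := hf.bdd.mul hg.bdd

theorem nice_const_mul {h : ℝ} {f : ℍ → ℂ} (c : ℂ) (hf : Nice h f) :
    Nice h (fun z => c * f z) where
  per := fun x => by
    have h1 := hf.per x
    simp only [Function.comp_apply] at h1 ⊢
    rw [h1]
  holo := (mdifferentiable_const (c := c)).mul hf.holo
  bdd := (Filter.const_boundedAtFilter _ c).mul hf.bdd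

theorem nice_pow {h : ℝ} {f : ℍ → ℂ} (hf : Nice h f) (n : ℕ) : Nice h (f ^ n) := by
  induction n with
  | zero => simpa using nice_one h
  | succ n ih => rw [pow_succ]; exact nice_mul ih hf

theorem nice_prod {h : ℝ} {ι : Type*} (s : Finset ι) (F : ι → ℍ → ℂ)
    (hF : ∀ i ∈ s, Nice h (F i)) : Nice h (∏ i ∈ s, F i) := by
  classical
  induction s using Finset.induction_on with
  | empty => simpa using nice_one h
  | insert a s ha ih =>
    rw [Finset.prod_insert ha]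
    exact nice_mul (hF a (Finset.mem_insert_self a s))
      (ih fun i hi => hF i (Finset.mem_insert_of_mem hi))

theorem qExpansion_mul' {h : ℝ} (hh : 0 < h) {f g : ℍ → ℂ} (hf : Nice h f) (hg : Nice h g) :
    qExpansion h (f * g) = qExpansion h f * qExpansion h g :=
  qExpansion_mul (nice_analyticAt hh hf) (nice_analyticAt hh hg)

theorem qExpansion_pow' {h : ℝ} (hh : 0 < h) {f : ℍ → ℂ} (hf : Nice h f) (n : ℕ) :
    qExpansion h (f ^ n) = qExpansion h f ^ n := by
  induction n with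
  | zero => simpa using qExpansion_one h
  | succ n ih => rw [pow_succ, qExpansion_mul' hh (nice_pow hf n) hf, ih, pow_succ]

theorem qExpansion_prod' {h : ℝ} (hh : 0 < h) {ι : Type*} (s : Finset ι) (F : ι → ℍ → ℂ)
    (hF : ∀ i ∈ s, Nice h (F i)) :
    qExpansion h (∏ i ∈ s, F i) = ∏ i ∈ s, qExpansion h (F i) := by
  classical
  induction s using Finset.induction_on with
  | empty => simpa using qExpansion_one h
  | insert a s ha ih =>
    rw [Finset.prod_insert ha, Finset.prod_insert ha,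
      qExpansion_mul' hh (hF a (Finset.mem_insert_self a s))
        (nice_prod s F fun i hi => hF i (Finset.mem_insert_of_mem hi)),
      ih fun i hi => hF i (Finset.mem_insert_of_mem hi)]

theorem qExpansion_const_mul' {h : ℝ} (hh : 0 < h) {f : ℍ → ℂ} (hf : Nice h f) (c : ℂ) :
    qExpansion h (fun z => c * f z) = PowerSeries.C c * qExpansion h f := by
  have : (fun z => c * f z) = c • f := by ext z; simp
  rw [this, qExpansion_smul (nice_analyticAt hh hf)]
  ext m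
  simp

/-! ### closure properties of `IsNIntSeries` -/

theorem isNIntSeries_iff {N : ℕ} {P : PowerSeries ℂ} :
    IsNIntSeries N P ↔
      ∃ P' : PowerSeries (nIntSubring N), P'.map (nIntSubring N).subtype = P := by
  constructor
  · intro h
    refine ⟨PowerSeries.mk fun m => ⟨P.coeff m, h m⟩, ?_⟩
    ext m
    simp
  · rintro ⟨P', rfl⟩ m
    rw [PowerSeries.coeff_map]
    exact (P'.coeff m).2

theorem isNIntSeries_one {N : ℕ} : IsNIntSeries N (1 : PowerSeries ℂ) :=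
  isNIntSeries_iff.mpr ⟨1, by simp⟩

theorem isNIntSeries_mul {N : ℕ} {P Q : PowerSeries ℂ} (hP : IsNIntSeries N P)
    (hQ : IsNIntSeries N Q) : IsNIntSeries N (P * Q) := by
  obtain ⟨P', rfl⟩ := isNIntSeries_iff.mp hP
  obtain ⟨Q', rfl⟩ := isNIntSeries_iff.mp hQ
  exact isNIntSeries_iff.mpr ⟨P' * Q', by simp⟩

theorem isNIntSeries_pow {N : ℕ} {P : PowerSeries ℂ} (hP : IsNIntSeries N P) (n : ℕ) :
    IsNIntSeries N (P ^ n) := by
  obtain ⟨P', rfl⟩ := isNIntSeries_iff.mp hP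
  exact isNIntSeries_iff.mpr ⟨P' ^ n, by simp⟩

theorem isNIntSeries_prod {N : ℕ} {ι : Type*} (s : Finset ι) (F : ι → PowerSeries ℂ)
    (hF : ∀ i ∈ s, IsNIntSeries N (F i)) : IsNIntSeries N (∏ i ∈ s, F i) := by
  classical
  induction s using Finset.induction_on with
  | empty => simpa using isNIntSeries_one
  | insert a s ha ih =>
    rw [Finset.prod_insert ha]
    exact isNIntSeries_mul (hF a (Finset.mem_insert_self a s))
      (ih fun i hi => hF i (Finset.mem_insert_of_mem hi))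

theorem isNIntSeries_C {N : ℕ} {c : ℂ} (hc : IsNInt N c) :
    IsNIntSeries N (PowerSeries.C c) :=
  isNIntSeries_iff.mpr ⟨PowerSeries.C ⟨c, hc⟩, by simp⟩

theorem isNIntSeries_X_pow {N : ℕ} (n : ℕ) :
    IsNIntSeries N ((PowerSeries.X : PowerSeries ℂ) ^ n) :=
  isNIntSeries_iff.mpr ⟨PowerSeries.X ^ n, by simp⟩

theorem isNIntSeries_map_int {N : ℕ} (U : PowerSeries ℤ) :
    IsNIntSeries N (U.map (Int.castRingHom ℂ)) := by
  intro m
  rw [PowerSeries.coeff_map]
  exact isNInt_intCast _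

/-! ### the function `q_h` -/

/-- The function `z ↦ exp (2 π i z / h)` on the upper half plane. -/
noncomputable def qN (h : ℝ) : ℍ → ℂ := fun z => Function.Periodic.qParam h (z : ℂ)

theorem qN_ne_zero (h : ℝ) (z : ℍ) : qN h z ≠ 0 := Function.Periodic.qParam_ne_zero _

theorem nice_qN {h : ℝ} (hh : 0 < h) : Nice h (qN h) where
  per := fun x => by
    simp only [Function.comp_apply, qN]
    by_cases hx : 0 < x.im
    · have hx' : 0 < (x + (h : ℂ)).im := by simpa using hx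
      rw [ofComplex_apply_of_im_pos hx, ofComplex_apply_of_im_pos hx']
      show Function.Periodic.qParam h (x + (h : ℂ)) = Function.Periodic.qParam h x
      unfold Function.Periodic.qParam
      have hh' : (h : ℂ) ≠ 0 := by exact_mod_cast hh.ne'
      have : 2 * (π : ℂ) * Complex.I * (x + (h : ℂ)) / (h : ℂ) =
          2 * (π : ℂ) * Complex.I * x / (h : ℂ) + 2 * (π : ℂ) * Complex.I := by
        field_simp
      rw [this, Complex.exp_add, Complex.exp_two_pi_mul_I, mul_one]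
    · have hx0 : x.im ≤ 0 := not_lt.mp hx
      have hx' : (x + (h : ℂ)).im ≤ 0 := by simpa using hx0
      rw [ofComplex_apply_of_im_nonpos hx0, ofComplex_apply_of_im_nonpos hx']
  holo := by
    rw [UpperHalfPlane.mdifferentiable_iff]
    have h1 : DifferentiableOn ℂ (Function.Periodic.qParam h) {z : ℂ | 0 < z.im} :=
      (Function.Periodic.differentiable_qParam).differentiableOn
    refine h1.congr fun z hz => ?_
    simp only [Function.comp_apply, qN]
    rw [ofComplex_apply_of_im_pos hz]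
  bdd := by
    rw [isBoundedAtImInfty_iff]
    refine ⟨1, 0, fun z _ => ?_⟩
    exact (Function.Periodic.norm_qParam_lt_one hh z.im_pos).le

/-- Uniqueness of `q`-expansion coefficients, for plain functions. -/
theorem qExp_coeff_unique {h : ℝ} {g : ℍ → ℂ} (hh : 0 < h) (hg : Nice h g) {c : ℕ → ℂ}
    (hs : ∀ τ : ℍ, HasSum (fun m ↦ c m • Function.Periodic.qParam h τ ^ m) (g τ)) (m : ℕ) :
    c m = (qExpansion h g).coeff m :=
  UpperHalfPlane.qExpansion_coeff_unique (ContinuousMap.mk g hg.holo.continuous) hh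
    (nice_analyticAt hh hg) hs m

theorem qExpansion_qN {h : ℝ} (hh : 0 < h) : qExpansion h (qN h) = PowerSeries.X := by
  ext m
  have key := qExp_coeff_unique hh (nice_qN hh) (c := fun m => if m = 1 then 1 else 0)
    (fun τ => by
      have := hasSum_ite_eq (1 : ℕ) (Function.Periodic.qParam h (τ : ℂ))
      convert this using 2 with m
      · by_cases hm : m = 1
        · subst hm; simp
        · simp [hm]
      · rfl) m
  rw [← key, PowerSeries.coeff_X]

/-! ### units of the ring of `N`-integers -/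

/-- `x` is a unit of the ring of `N`-integers. -/
def IsNUnit (N : ℕ) (x : ℂ) : Prop := x ≠ 0 ∧ IsNInt N x ∧ IsNInt N x⁻¹

theorem isNUnit_one {N : ℕ} : IsNUnit N 1 :=
  ⟨one_ne_zero, isNInt_one, by simpa using isNInt_one⟩

theorem isNUnit_mul {N : ℕ} {x y : ℂ} (hx : IsNUnit N x) (hy : IsNUnit N y) :
    IsNUnit N (x * y) :=
  ⟨mul_ne_zero hx.1 hy.1, isNInt_mul hx.2.1 hy.2.1, by
    rw [mul_inv]; exact isNInt_mul hx.2.2 hy.2.2⟩

theorem isNUnit_inv {N : ℕ} {x : ℂ} (hx : IsNUnit N x) : IsNUnit N x⁻¹ :=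
  ⟨inv_ne_zero hx.1, hx.2.2, by rw [inv_inv]; exact hx.2.1⟩

theorem isNUnit_pow {N : ℕ} {x : ℂ} (hx : IsNUnit N x) (n : ℕ) : IsNUnit N (x ^ n) := by
  induction n with
  | zero => simpa using isNUnit_one
  | succ n ih => rw [pow_succ]; exact isNUnit_mul ih hx

theorem isNUnit_zpow {N : ℕ} {x : ℂ} (hx : IsNUnit N x) (n : ℤ) : IsNUnit N (x ^ n) := by
  cases n with
  | ofNat n => simpa using isNUnit_pow hx n
  | negSucc n =>
    rw [zpow_negSucc]
    exact isNUnit_inv (isNUnit_pow hx (n + 1))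

theorem isNUnit_prod {N : ℕ} {ι : Type*} (s : Finset ι) (f : ι → ℂ)
    (h : ∀ i ∈ s, IsNUnit N (f i)) : IsNUnit N (∏ i ∈ s, f i) := by
  classical
  induction s using Finset.induction_on with
  | empty => simpa using isNUnit_one
  | insert a s ha ih =>
    rw [Finset.prod_insert ha]
    exact isNUnit_mul (h a (Finset.mem_insert_self a s))
      (ih fun i hi => h i (Finset.mem_insert_of_mem hi))

theorem isNUnit_natCast_of_dvd {N d : ℕ} (hN : N ≠ 0) (hd : d ∣ N) : IsNUnit N (d : ℂ) := by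
  have hd0 : d ≠ 0 := fun h => hN (by rw [h] at hd; exact Nat.eq_zero_of_zero_dvd hd)
  exact ⟨by exact_mod_cast hd0, isNInt_natCast d, isNInt_inv_of_dvd hN hd⟩

theorem isNUnit_of_pow_eq_one {N : ℕ} {ζ : ℂ} {n : ℕ} (hn : 0 < n) (h : ζ ^ n = 1) :
    IsNUnit N ζ := by
  have h0 : ζ ≠ 0 := by
    rintro rfl
    rw [zero_pow hn.ne'] at h
    exact zero_ne_one h
  have h1 : IsIntegral ℤ ζ := IsIntegral.of_pow hn (by rw [h]; exact isIntegral_one)
  have h2 : IsIntegral ℤ ζ⁻¹ :=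
    IsIntegral.of_pow hn (by rw [inv_pow, h, inv_one]; exact isIntegral_one)
  exact ⟨h0, isNInt_of_isIntegral h1, isNInt_of_isIntegral h2⟩

/-- The root of unity `exp (2 π i b k / d)`. -/
theorem exp_pow_eq_one (b : ℤ) (k d : ℕ) (hd : 0 < d) :
    Complex.exp (2 * π * Complex.I * (b : ℂ) * (k : ℂ) / (d : ℂ)) ^ d = 1 := by
  have hd' : (d : ℂ) ≠ 0 := by exact_mod_cast hd.ne'
  rw [← Complex.exp_nat_mul]
  have : (d : ℂ) * (2 * π * Complex.I * (b : ℂ) * (k : ℂ) / (d : ℂ)) =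
      ((b * k : ℤ) : ℂ) * (2 * π * Complex.I) := by
    push_cast
    field_simp
  rw [this]
  exact Complex.exp_int_mul_two_pi_mul_I _

/-! ### the functions `tri a d b f` for `f = Dt, DtInv` -/

theorem int_tri {f : ℍ → ℂ} (hf : Nice 1 f) (U : PowerSeries ℤ)
    (hU : qExpansion 1 f = U.map (Int.castRingHom ℂ))
    {a d N : ℕ} (ha : 0 < a) (hd : 0 < d) (hN : 0 < N) (hdN : d ∣ N) (b : ℤ) :
    IsNIntSeries N (qExpansion (N : ℝ) (tri a d b f)) := by
  intro m
  rw [Fermat.Agent.S28_SUBST.qExpansion_tri_coeff hf ha hd hN hdN b m]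
  split_ifs with h
  · rw [hU, PowerSeries.coeff_map]
    refine isNInt_mul (isNInt_intCast _) ?_
    exact (isNUnit_of_pow_eq_one hd (exp_pow_eq_one b _ d hd)).2.1
  · exact isNInt_zero

theorem coeff_zero_tri {f : ℍ → ℂ} (hf : Nice 1 f) (U : PowerSeries ℤ)
    (hU : qExpansion 1 f = U.map (Int.castRingHom ℂ)) (hU0 : PowerSeries.constantCoeff U = 1)
    {a d N : ℕ} (ha : 0 < a) (hd : 0 < d) (hN : 0 < N) (hdN : d ∣ N) (b : ℤ) :
    (qExpansion (N : ℝ) (tri a d b f)).coeff 0 = 1 := by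
  rw [Fermat.Agent.S28_SUBST.qExpansion_tri_coeff hf ha hd hN hdN b 0]
  rw [if_pos (dvd_zero _), hU, PowerSeries.coeff_map]
  simp [hU0]

/-- `(tri a d b Dt) ^ r` for an integer exponent `r`, written with natural powers of
`Dt` and `DtInv`. -/
noncomputable def triPow (a d : ℕ) (b : ℤ) (r : ℤ) : ℍ → ℂ :=
  if 0 ≤ r then (tri a d b Dt) ^ r.toNat else (tri a d b DtInv) ^ (-r).toNat

theorem triPow_apply (a d : ℕ) (b : ℤ) (r : ℤ) (z : ℍ) :
    triPow a d b r z = (tri a d b Dt z) ^ r := by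
  unfold triPow
  split_ifs with h
  · rw [Pi.pow_apply]
    conv_rhs => rw [← Int.toNat_of_nonneg h]
    rw [zpow_natCast]
  · have h' : 0 ≤ -r := by omega
    rw [Pi.pow_apply]
    have : tri a d b DtInv z = (tri a d b Dt z)⁻¹ := rfl
    rw [this, inv_pow, ← zpow_natCast, Int.toNat_of_nonneg h', ← zpow_neg, neg_neg]

theorem nice_triPow {a d N : ℕ} (ha : 0 < a) (hd : 0 < d) (hN : 0 < N) (hdN : d ∣ N)
    (b : ℤ) (r : ℤ) : Nice (N : ℝ) (triPow a d b r) := by
  unfold triPow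
  split_ifs
  · exact nice_pow (Fermat.Agent.S28_SUBST.nice_tri Fermat.Agent.S28_DT.nice_Dt ha hd hN hdN b) _
  · exact nice_pow
      (Fermat.Agent.S28_SUBST.nice_tri Fermat.Agent.S28_DT.nice_DtInv ha hd hN hdN b) _

theorem int_triPow {a d N : ℕ} (ha : 0 < a) (hd : 0 < d) (hN : 0 < N) (hdN : d ∣ N)
    (b : ℤ) (r : ℤ) : IsNIntSeries N (qExpansion (N : ℝ) (triPow a d b r)) := by
  have hN' : (0 : ℝ) < N := by exact_mod_cast hN
  unfold triPow
  split_ifs
  · rw [qExpansion_pow' hN'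
      (Fermat.Agent.S28_SUBST.nice_tri Fermat.Agent.S28_DT.nice_Dt ha hd hN hdN b)]
    exact isNIntSeries_pow
      (int_tri Fermat.Agent.S28_DT.nice_Dt _ Fermat.Agent.S28_DT.qExpansion_Dt ha hd hN hdN b) _
  · rw [qExpansion_pow' hN'
      (Fermat.Agent.S28_SUBST.nice_tri Fermat.Agent.S28_DT.nice_DtInv ha hd hN hdN b)]
    exact isNIntSeries_pow
      (int_tri Fermat.Agent.S28_DT.nice_DtInv _ Fermat.Agent.S28_DT.qExpansion_DtInv
        ha hd hN hdN b) _

theorem coeff_zero_triPow {a d N : ℕ} (ha : 0 < a) (hd : 0 < d) (hN : 0 < N) (hdN : d ∣ N)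
    (b : ℤ) (r : ℤ) : (qExpansion (N : ℝ) (triPow a d b r)).coeff 0 = 1 := by
  have hN' : (0 : ℝ) < N := by exact_mod_cast hN
  unfold triPow
  split_ifs
  · rw [qExpansion_pow' hN'
      (Fermat.Agent.S28_SUBST.nice_tri Fermat.Agent.S28_DT.nice_Dt ha hd hN hdN b),
      PowerSeries.coeff_zero_eq_constantCoeff_apply, map_pow,
      ← PowerSeries.coeff_zero_eq_constantCoeff_apply,
      coeff_zero_tri Fermat.Agent.S28_DT.nice_Dt _ Fermat.Agent.S28_DT.qExpansion_Dt
        constantCoeff_dedekindEtaUnit ha hd hN hdN b, one_pow]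
  · rw [qExpansion_pow' hN'
      (Fermat.Agent.S28_SUBST.nice_tri Fermat.Agent.S28_DT.nice_DtInv ha hd hN hdN b),
      PowerSeries.coeff_zero_eq_constantCoeff_apply, map_pow,
      ← PowerSeries.coeff_zero_eq_constantCoeff_apply,
      coeff_zero_tri Fermat.Agent.S28_DT.nice_DtInv _ Fermat.Agent.S28_DT.qExpansion_DtInv
        constantCoeff_dedekindEtaUnitInv ha hd hN hdN b, one_pow]

/-! ### the factorisation of a product of translates of `Δ` -/

theorem prod_zpow_sum {ι : Type*} (S : Finset ι) (e : ι → ℤ) {x : ℂ} (hx : x ≠ 0) :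
    ∏ s ∈ S, x ^ (e s) = x ^ (∑ s ∈ S, e s) := by
  classical
  induction S using Finset.induction_on with
  | empty => simp
  | insert a S ha ih => rw [Finset.prod_insert ha, Finset.sum_insert ha, zpow_add₀ hx, ih]

theorem tri_coe {a d : ℕ} (ha : 0 < a) (hd : 0 < d) (b : ℤ) (z : ℍ) :
    ((ofComplex (((a : ℂ) * (z : ℂ) + (b : ℂ)) / (d : ℂ)) : ℍ) : ℂ) =
      ((a : ℂ) * (z : ℂ) + (b : ℂ)) / (d : ℂ) := by
  have him : 0 < ((((a : ℂ) * (z : ℂ) + (b : ℂ)) / (d : ℂ))).im := by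
    have h1 : ((((a : ℂ) * (z : ℂ) + (b : ℂ)) / (d : ℂ))).im = (a : ℝ) * z.im / (d : ℝ) := by
      have : (((a : ℂ) * (z : ℂ) + (b : ℂ)) / (d : ℂ)) =
          (((a : ℂ) * (z : ℂ) + (b : ℂ))) * (((d : ℝ)⁻¹ : ℝ) : ℂ) := by
        push_cast; rw [div_eq_mul_inv]
      rw [this, Complex.mul_im]
      simp
      ring
    rw [h1]
    have ha' : (0 : ℝ) < a := by exact_mod_cast ha
    have hd' : (0 : ℝ) < d := by exact_mod_cast hd
    exact div_pos (mul_pos ha' z.im_pos) hd'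
  rw [ofComplex_apply_of_im_pos him]

theorem qParam_tri {a d h : ℕ} (ha : 0 < a) (hd : 0 < d) (hh : 0 < h) (hdh : d ∣ h) (b : ℤ)
    (z : ℍ) :
    Function.Periodic.qParam 1
        ((ofComplex (((a : ℂ) * (z : ℂ) + (b : ℂ)) / (d : ℂ)) : ℍ) : ℂ) =
      Complex.exp (2 * π * Complex.I * (b : ℂ) * ((1 : ℕ) : ℂ) / (d : ℂ)) *
        (qN (h : ℝ) z) ^ (a * (h / d)) := by
  rw [tri_coe ha hd b z]
  unfold qN Function.Periodic.qParam
  rw [← Complex.exp_nat_mul, ← Complex.exp_add]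
  congr 1
  obtain ⟨k, rfl⟩ := hdh
  have hd' : (d : ℂ) ≠ 0 := by exact_mod_cast hd.ne'
  have hk : 0 < k := Nat.pos_of_mul_pos_left hh |> fun h => by
    rcases Nat.eq_zero_or_pos k with hk | hk
    · subst hk; simp at hh
    · exact hk
  have hk' : (k : ℂ) ≠ 0 := by exact_mod_cast hk.ne'
  rw [Nat.mul_div_cancel_left k hd]
  push_cast
  field_simp
  ring

theorem tri_discriminant_eq {a d h : ℕ} (ha : 0 < a) (hd : 0 < d) (hh : 0 < h) (hdh : d ∣ h)
    (b : ℤ) (z : ℍ) :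
    tri a d b discriminant z =
      Complex.exp (2 * π * Complex.I * (b : ℂ) * ((1 : ℕ) : ℂ) / (d : ℂ)) *
        (qN (h : ℝ) z) ^ (a * (h / d)) * tri a d b Dt z := by
  have h1 : tri a d b discriminant z =
      discriminant (ofComplex (((a : ℂ) * (z : ℂ) + (b : ℂ)) / (d : ℂ))) := rfl
  have h2 : tri a d b Dt z = Dt (ofComplex (((a : ℂ) * (z : ℂ) + (b : ℂ)) / (d : ℂ))) := rfl
  rw [h1, h2, Fermat.Agent.S28_DT.discriminant_eq_q_mul_Dt, qParam_tri ha hd hh hdh b z]

theorem prod_factor (S : Finset ℕ) (r : ℕ → ℤ) (a d : ℕ → ℕ) (b : ℕ → ℤ) (cst : ℕ → ℂ)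
    (h : ℕ) (hh : 0 < h) (hS : ∀ s ∈ S, 0 < a s ∧ 0 < d s ∧ d s ∣ h) (z : ℍ) :
    ∏ s ∈ S, (cst s * tri (a s) (d s) (b s) discriminant z) ^ (r s) =
      (∏ s ∈ S, (cst s *
          Complex.exp (2 * π * Complex.I * (b s : ℂ) * ((1 : ℕ) : ℂ) / (d s : ℂ))) ^ (r s)) *
        (qN (h : ℝ) z) ^ (∑ s ∈ S, r s * ((a s * (h / d s) : ℕ) : ℤ)) *
        ∏ s ∈ S, triPow (a s) (d s) (b s) (r s) z := by
  rw [← prod_zpow_sum S _ (qN_ne_zero _ z), ← Finset.prod_mul_distrib,
    ← Finset.prod_mul_distrib]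
  refine Finset.prod_congr rfl fun s hs => ?_
  obtain ⟨ha, hd, hdh⟩ := hS s hs
  have e1 : qN (h : ℝ) z ^ (r s * ((a s * (h / d s) : ℕ) : ℤ)) =
      (qN (h : ℝ) z ^ (a s * (h / d s))) ^ (r s) := by
    rw [mul_comm, zpow_mul, zpow_natCast]
  rw [tri_discriminant_eq ha hd hh hdh (b s) z, triPow_apply, e1, ← mul_zpow, ← mul_zpow]
  congr 1
  ring

/-! ### the conjugates of `GN N` -/

theorem rad_dvd (N : ℕ) : rad N ∣ N := Nat.prod_primeFactors_dvd N

theorem gcd_natCast_eq {m : ℕ} {c : ℤ} (h : (m : ℤ) ∣ c) : Int.gcd (m : ℤ) c = m := by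
  have := Int.gcd_eq_natAbs_left_iff_dvd.mpr h
  simpa using this

theorem GN_slash_decomp (N : ℕ) [NeZero N] (γ : SL(2, ℤ)) :
    ∃ (u : ℂ) (e : ℕ) (F : ℍ → ℂ), IsNUnit N u ∧ Nice (N : ℝ) F ∧
      IsNIntSeries N (qExpansion (N : ℝ) F) ∧ (qExpansion (N : ℝ) F).coeff 0 = 1 ∧
      (¬ (N : ℤ) ∣ γ 1 0 → e = 0) ∧
      GN N ∣[12 * (k0 N : ℤ)] γ = fun z => u * ((qN (N : ℝ) z) ^ e * F z) := by
  have hN : 0 < N := Nat.pos_of_ne_zero (NeZero.ne N)
  have hN' : (0 : ℝ) < N := by exact_mod_cast hN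
  obtain ⟨a, d, b, hS, hform⟩ := Fermat.Agent.S28_GFORM.GN_slash_formula N γ
  have hsN : ∀ s ∈ (rad N).divisors, s ∣ N := fun s hs =>
    (Nat.dvd_of_mem_divisors hs).trans (rad_dvd N)
  have hdN : ∀ s ∈ (rad N).divisors, d s ∣ N := fun s hs =>
    (Dvd.intro_left (a s) (hS s hs).2.2.1).trans (Nat.div_dvd_of_dvd (hsN s hs))
  have hS' : ∀ s ∈ (rad N).divisors, 0 < a s ∧ 0 < d s ∧ d s ∣ N := fun s hs =>
    ⟨(hS s hs).1, (hS s hs).2.1, hdN s hs⟩
  have hexp : ∀ s ∈ (rad N).divisors, a s * (N / d s) = a s ^ 2 * s := by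
    intro s hs
    have h1 : N = s * a s * d s := by
      rw [mul_assoc, (hS s hs).2.2.1, Nat.mul_div_cancel' (hsN s hs)]
    have h2 : N / d s = s * a s := Nat.div_eq_of_eq_mul_left (hS s hs).2.1 h1
    rw [h2]; ring
  have he0 : 0 ≤ ∑ s ∈ (rad N).divisors, uexp N s * ((a s * (N / d s) : ℕ) : ℤ) ∧
      (¬ (N : ℤ) ∣ γ 1 0 →
        ∑ s ∈ (rad N).divisors, uexp N s * ((a s * (N / d s) : ℕ) : ℤ) = 0) := by
    by_cases hc : (N : ℤ) ∣ γ 1 0
    · refine ⟨?_, fun h => absurd hc h⟩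
      have h1 : ∑ s ∈ (rad N).divisors, uexp N s * ((a s * (N / d s) : ℕ) : ℤ) =
          (N : ℤ) * ordG N := by
        unfold ordG
        rw [Finset.mul_sum]
        refine Finset.sum_congr rfl fun s hs => ?_
        have ha : a s = N / s := by
          rw [(hS s hs).2.2.2]
          refine gcd_natCast_eq (dvd_trans ?_ hc)
          exact_mod_cast Nat.div_dvd_of_dvd (hsN s hs)
        rw [hexp s hs, ha]
        have h3 : (N / s) * s = N := Nat.div_mul_cancel (hsN s hs)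
        have h4 : (N / s) ^ 2 * s = N * (N / s) := by
          rw [sq, mul_assoc, h3, mul_comm]
        rw [h4]
        push_cast
        ring
      rw [h1]
      exact mul_nonneg (by exact_mod_cast hN.le) (Fermat.Agent.S28_ORDER.ordG_nonneg N hN)
    · have h1 : ∑ s ∈ (rad N).divisors, uexp N s * ((a s * (N / d s) : ℕ) : ℤ) = 0 := by
        rw [← Fermat.Agent.S28_ORDER.sum_uexp_gcd N hN (γ 1 0) hc]
        refine Finset.sum_congr rfl fun s hs => ?_
        rw [hexp s hs, ← (hS s hs).2.2.2]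
        push_cast
        ring
      exact ⟨h1.ge, fun _ => h1⟩
  refine ⟨∏ s ∈ (rad N).divisors, (((d s : ℂ) ^ 12)⁻¹ *
      Complex.exp (2 * π * Complex.I * (b s : ℂ) * ((1 : ℕ) : ℂ) / (d s : ℂ))) ^ (uexp N s),
    (∑ s ∈ (rad N).divisors, uexp N s * ((a s * (N / d s) : ℕ) : ℤ)).toNat,
    ∏ s ∈ (rad N).divisors, triPow (a s) (d s) (b s) (uexp N s), ?_, ?_, ?_, ?_, ?_, ?_⟩
  · refine isNUnit_prod _ _ fun s hs => isNUnit_zpow (isNUnit_mul ?_ ?_) _
    · exact isNUnit_inv (isNUnit_pow (isNUnit_natCast_of_dvd hN.ne' (hdN s hs)) 12)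
    · exact isNUnit_of_pow_eq_one (hS s hs).2.1 (exp_pow_eq_one (b s) 1 (d s) (hS s hs).2.1)
  · exact nice_prod _ _ fun s hs =>
      nice_triPow (hS s hs).1 (hS s hs).2.1 hN (hdN s hs) (b s) (uexp N s)
  · rw [qExpansion_prod' hN' _ _ fun s hs =>
      nice_triPow (hS s hs).1 (hS s hs).2.1 hN (hdN s hs) (b s) (uexp N s)]
    exact isNIntSeries_prod _ _ fun s hs =>
      int_triPow (hS s hs).1 (hS s hs).2.1 hN (hdN s hs) (b s) (uexp N s)
  · rw [qExpansion_prod' hN' _ _ fun s hs =>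
      nice_triPow (hS s hs).1 (hS s hs).2.1 hN (hdN s hs) (b s) (uexp N s),
      PowerSeries.coeff_zero_eq_constantCoeff_apply, map_prod]
    refine Finset.prod_eq_one fun s hs => ?_
    rw [← PowerSeries.coeff_zero_eq_constantCoeff_apply]
    exact coeff_zero_triPow (hS s hs).1 (hS s hs).2.1 hN (hdN s hs) (b s) (uexp N s)
  · intro hc
    rw [he0.2 hc]
    rfl
  · rw [hform]
    funext z
    rw [prod_factor (rad N).divisors (uexp N) a d b (fun s => ((d s : ℂ) ^ 12)⁻¹) N hN hS' z,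
      Finset.prod_apply, mul_assoc]
    congr 2
    conv_lhs => rw [← Int.toNat_of_nonneg he0.1]
    rw [zpow_natCast]

theorem GN_slash_nice (N : ℕ) [NeZero N] (γ : SL(2, ℤ)) :
    Nice (N : ℝ) (GN N ∣[12 * (k0 N : ℤ)] γ) := by
  have hN' : (0 : ℝ) < N := by exact_mod_cast Nat.pos_of_ne_zero (NeZero.ne N)
  obtain ⟨u, e, F, -, hF, -, -, -, h⟩ := GN_slash_decomp N γ
  rw [h]
  exact nice_const_mul u (nice_mul (nice_pow (nice_qN hN') e) hF)

theorem qExpansion_GN_slash (N : ℕ) [NeZero N] (γ : SL(2, ℤ)) :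
    ∃ (u : ℂ) (e : ℕ) (P : PowerSeries ℂ), IsNUnit N u ∧ IsNIntSeries N P ∧
      P.coeff 0 = 1 ∧ (¬ (N : ℤ) ∣ γ 1 0 → e = 0) ∧
      qExpansion (N : ℝ) (GN N ∣[12 * (k0 N : ℤ)] γ) =
        PowerSeries.C u * (PowerSeries.X ^ e * P) := by
  have hN' : (0 : ℝ) < N := by exact_mod_cast Nat.pos_of_ne_zero (NeZero.ne N)
  obtain ⟨u, e, F, hu, hF, hint, h0, he, h⟩ := GN_slash_decomp N γ
  refine ⟨u, e, qExpansion (N : ℝ) F, hu, hint, h0, he, ?_⟩
  rw [h]
  have h1 : (fun z => u * ((qN (N : ℝ) z) ^ e * F z)) =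
      fun z => u * ((qN (N : ℝ)) ^ e * F) z := rfl
  rw [h1, qExpansion_const_mul' hN' (nice_mul (nice_pow (nice_qN hN') e) hF),
    qExpansion_mul' hN' (nice_pow (nice_qN hN') e) hF, qExpansion_pow' hN' (nice_qN hN'),
    qExpansion_qN hN']

theorem GN_slash_int (N : ℕ) [NeZero N] (γ : SL(2, ℤ)) :
    IsNIntSeries N (qExpansion (N : ℝ) (GN N ∣[12 * (k0 N : ℤ)] γ)) := by
  obtain ⟨u, e, P, hu, hP, -, -, h⟩ := qExpansion_GN_slash N γ
  rw [h]
  exact isNIntSeries_mul (isNIntSeries_C hu.2.1) (isNIntSeries_mul (isNIntSeries_X_pow e) hP)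

theorem GN_slash_unit (N : ℕ) [NeZero N] (γ : SL(2, ℤ)) (hγ : ¬ (N : ℤ) ∣ γ 1 0) :
    (qExpansion (N : ℝ) (GN N ∣[12 * (k0 N : ℤ)] γ)).coeff 0 ≠ 0 ∧
    IsNInt N ((qExpansion (N : ℝ) (GN N ∣[12 * (k0 N : ℤ)] γ)).coeff 0)⁻¹ := by
  obtain ⟨u, e, P, hu, -, h0, he, h⟩ := qExpansion_GN_slash N γ
  have hc : (qExpansion (N : ℝ) (GN N ∣[12 * (k0 N : ℤ)] γ)).coeff 0 = u := by
    rw [h, he hγ, pow_zero, one_mul, PowerSeries.coeff_C_mul, h0, mul_one]
  rw [hc]
  exact ⟨hu.1, hu.2.2⟩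

/-! ### `GN N` is a modular form on `Γ₀(N)` -/

theorem GN_ne_zero (N : ℕ) [NeZero N] (z : ℍ) : GN N z ≠ 0 := by
  unfold GN
  rw [Finset.prod_ne_zero_iff]
  intro s _
  exact zpow_ne_zero _ (discriminant_ne_zero _)

theorem periodic_discriminant :
    Function.Periodic (discriminant ∘ ofComplex) ((1 : ℝ) : ℂ) :=
  SlashInvariantFormClass.periodic_comp_ofComplex
      (CuspForm.discriminant : CuspForm 𝒮ℒ 12) one_mem_strictPeriods_SL

theorem discriminant_translate (x : ℂ) (b : ℤ) :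
    discriminant (ofComplex (x + (b : ℂ))) = discriminant (ofComplex x) := by
  have h1 := (periodic_discriminant.int_mul b) x
  simp only [Function.comp_apply, Complex.ofReal_one, mul_one] at h1
  exact h1

theorem tri_discriminant_translate (a : ℕ) (b : ℤ) (z : ℍ) :
    tri a 1 b discriminant z = tri a 1 0 discriminant z := by
  unfold tri
  have e1 : ((a : ℂ) * (z : ℂ) + (b : ℂ)) / ((1 : ℕ) : ℂ) = (a : ℂ) * (z : ℂ) + (b : ℂ) := by
    simp
  have e2 : ((a : ℂ) * (z : ℂ) + ((0 : ℤ) : ℂ)) / ((1 : ℕ) : ℂ) = (a : ℂ) * (z : ℂ) := by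
    simp
  rw [e1, e2]
  exact discriminant_translate _ b

theorem GN_slash_Gamma0 (N : ℕ) [NeZero N] (γ : SL(2, ℤ)) (hγ : γ ∈ Gamma0 N) :
    GN N ∣[12 * (k0 N : ℤ)] γ = GN N := by
  have hN : 0 < N := Nat.pos_of_ne_zero (NeZero.ne N)
  obtain ⟨a, d, b, hS, hform⟩ := Fermat.Agent.S28_GFORM.GN_slash_formula N γ
  have hc : (N : ℤ) ∣ γ 1 0 := by
    rw [Gamma0_mem] at hγ
    exact (ZMod.intCast_zmod_eq_zero_iff_dvd _ _).mp hγ
  rw [hform]
  funext z
  unfold GN
  refine Finset.prod_congr rfl fun s hs => ?_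
  have hsN : s ∣ N := (Nat.dvd_of_mem_divisors hs).trans (rad_dvd N)
  have ha : a s = N / s := by
    rw [(hS s hs).2.2.2]
    refine gcd_natCast_eq (dvd_trans ?_ hc)
    exact_mod_cast Nat.div_dvd_of_dvd hsN
  have hd : d s = 1 := by
    have h1 := (hS s hs).2.2.1
    rw [ha] at h1
    have h2 : 0 < N / s := ha ▸ (hS s hs).1
    exact Nat.eq_of_mul_eq_mul_left h2 (by rw [h1, mul_one])
  rw [ha, hd, tri_discriminant_translate]
  simp

theorem isMF_GN (N : ℕ) [NeZero N] : IsMF N (12 * (k0 N : ℤ)) (GN N) := by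
  refine isMF_iff.mpr ⟨?_, fun γ hγ => GN_slash_Gamma0 N γ hγ, fun γ => (GN_slash_nice N γ).bdd⟩
  have := GN_slash_nice N 1
  rw [SlashAction.slash_one] at this
  exact this.holo

/-! ### the `q`-expansion of `GN N` -/

/-- The series `U (X ^ a)`. -/
noncomputable def expandSeries (a : ℕ) (U : PowerSeries ℤ) : PowerSeries ℤ :=
  PowerSeries.mk fun m => if a ∣ m then U.coeff (m / a) else 0

theorem constantCoeff_expandSeries (a : ℕ) (U : PowerSeries ℤ) :
    PowerSeries.constantCoeff (expandSeries a U) = PowerSeries.constantCoeff U := by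
  rw [← PowerSeries.coeff_zero_eq_constantCoeff_apply, ← PowerSeries.coeff_zero_eq_constantCoeff_apply]
  simp [expandSeries]

theorem qExpansion_tri_one {f : ℍ → ℂ} (hf : Nice 1 f) (U : PowerSeries ℤ)
    (hU : qExpansion 1 f = U.map (Int.castRingHom ℂ)) {a : ℕ} (ha : 0 < a) :
    qExpansion 1 (tri a 1 0 f) = (expandSeries a U).map (Int.castRingHom ℂ) := by
  ext m
  have h1 := Fermat.Agent.S28_SUBST.qExpansion_tri_coeff hf ha one_pos one_pos (dvd_refl 1) 0 m
  simp only [Nat.cast_one, Nat.div_self one_pos, mul_one] at h1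
  rw [h1, PowerSeries.coeff_map, expandSeries, PowerSeries.coeff_mk]
  split_ifs with h
  · rw [hU, PowerSeries.coeff_map]
    simp
  · simp

/-- The integral series of `triPow a 1 0 r`. -/
noncomputable def triPowSeries (a : ℕ) (r : ℤ) : PowerSeries ℤ :=
  if 0 ≤ r then (expandSeries a dedekindEtaUnit) ^ r.toNat
  else (expandSeries a dedekindEtaUnitInv) ^ (-r).toNat

theorem constantCoeff_triPowSeries (a : ℕ) (r : ℤ) :
    PowerSeries.constantCoeff (triPowSeries a r) = 1 := by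
  unfold triPowSeries
  split_ifs
  · rw [map_pow, constantCoeff_expandSeries, constantCoeff_dedekindEtaUnit, one_pow]
  · rw [map_pow, constantCoeff_expandSeries, constantCoeff_dedekindEtaUnitInv, one_pow]

theorem qExpansion_triPow_one {a : ℕ} (ha : 0 < a) (r : ℤ) :
    qExpansion 1 (triPow a 1 0 r) = (triPowSeries a r).map (Int.castRingHom ℂ) := by
  have h1 : Nice (1 : ℝ) (tri a 1 0 Dt) := by
    simpa using Fermat.Agent.S28_SUBST.nice_tri Fermat.Agent.S28_DT.nice_Dt ha one_pos one_pos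
      (dvd_refl 1) 0
  have h2 : Nice (1 : ℝ) (tri a 1 0 DtInv) := by
    simpa using Fermat.Agent.S28_SUBST.nice_tri Fermat.Agent.S28_DT.nice_DtInv ha one_pos one_pos
      (dvd_refl 1) 0
  unfold triPow triPowSeries
  split_ifs
  · rw [qExpansion_pow' one_pos h1, map_pow,
      qExpansion_tri_one Fermat.Agent.S28_DT.nice_Dt _ Fermat.Agent.S28_DT.qExpansion_Dt ha]
  · rw [qExpansion_pow' one_pos h2, map_pow,
      qExpansion_tri_one Fermat.Agent.S28_DT.nice_DtInv _ Fermat.Agent.S28_DT.qExpansion_DtInv ha]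

theorem GN_eq (N : ℕ) [NeZero N] :
    GN N = (qN 1) ^ (ordG N).toNat *
      ∏ s ∈ (rad N).divisors, triPow (N / s) 1 0 (uexp N s) := by
  have hN : 0 < N := Nat.pos_of_ne_zero (NeZero.ne N)
  have hS : ∀ s ∈ (rad N).divisors, 0 < N / s ∧ 0 < 1 ∧ 1 ∣ 1 := fun s hs =>
    ⟨Nat.div_pos (Nat.le_of_dvd hN ((Nat.dvd_of_mem_divisors hs).trans (rad_dvd N)))
      (Nat.pos_of_mem_divisors hs), one_pos, dvd_refl 1⟩
  funext z
  have h1 := prod_factor (rad N).divisors (uexp N) (fun s => N / s) (fun _ => 1) (fun _ => 0)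
    (fun _ => 1) 1 one_pos hS z
  simp only [one_mul, Nat.cast_one, Int.cast_zero, mul_zero, zero_div, Complex.exp_zero,
    one_zpow, Finset.prod_const_one, Nat.div_self one_pos, mul_one] at h1
  have h2 : GN N z = ∏ s ∈ (rad N).divisors, tri (N / s) 1 0 discriminant z ^ uexp N s := rfl
  rw [h2, h1, Pi.mul_apply, Pi.pow_apply, Finset.prod_apply]
  congr 1
  have h3 : ∑ s ∈ (rad N).divisors, uexp N s * ((N / s : ℕ) : ℤ) = ordG N := rfl
  rw [h3]
  conv_lhs => rw [← Int.toNat_of_nonneg (Fermat.Agent.S28_ORDER.ordG_nonneg N hN)]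
  rw [zpow_natCast]

theorem qExpansion_GN (N : ℕ) [NeZero N] : ∃ U : PowerSeries ℤ, PowerSeries.constantCoeff U = 1 ∧
    qExpansion 1 (GN N) = (PowerSeries.X ^ (ordG N).toNat * U).map (Int.castRingHom ℂ) := by
  have hN : 0 < N := Nat.pos_of_ne_zero (NeZero.ne N)
  have hpos : ∀ s ∈ (rad N).divisors, 0 < N / s := fun s hs =>
    Nat.div_pos (Nat.le_of_dvd hN ((Nat.dvd_of_mem_divisors hs).trans (rad_dvd N)))
      (Nat.pos_of_mem_divisors hs)
  have hnice : ∀ s ∈ (rad N).divisors, Nice (1 : ℝ) (triPow (N / s) 1 0 (uexp N s)) :=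
    fun s hs => by
      simpa using nice_triPow (hpos s hs) one_pos one_pos (dvd_refl 1) 0 (uexp N s)
  refine ⟨∏ s ∈ (rad N).divisors, triPowSeries (N / s) (uexp N s), ?_, ?_⟩
  · rw [map_prod]
    exact Finset.prod_eq_one fun s _ => constantCoeff_triPowSeries _ _
  · rw [GN_eq, qExpansion_mul' one_pos (nice_pow (nice_qN one_pos) _) (nice_prod _ _ hnice),
      qExpansion_pow' one_pos (nice_qN one_pos), qExpansion_qN one_pos,
      qExpansion_prod' one_pos _ _ hnice, map_mul, map_pow, PowerSeries.map_X, map_prod]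
    congr 1
    exact Finset.prod_congr rfl fun s hs => qExpansion_triPow_one (hpos s hs) _

end Fermat.Agent.S28_GCONJ
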