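import Fermat.Agent.S28_helper13_EINT_Core
import Fermat.Agent.S28_helper5_GCONJ

set_option autoImplicit false

open UpperHalfPlane ModularForm CongruenceSubgroup Matrix.SpecialLinearGroup
open scoped MatrixGroups ModularForm Manifold Real
open Fermat.Agent.S20 Fermat.Agent.S28_helper14_Defs Fermat.Agent.S28_helper14_ADefs ModularCurve
open Fermat.Agent.S28_GCONJ

/-!
# S28 piece EINT: integrality of the elementary symmetric functions of the conjugates of `GN N`
-/

namespace Fermat.Agent.S28_EINT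

theorem gConjFacts (N : ℕ) [NeZero N] : GConjFacts N :=
  ⟨GN_ne_zero N, isMF_GN N, qExpansion_GN N, GN_slash_nice N, GN_slash_int N, GN_slash_unit N⟩

theorem Esym_GN_int (N : ℕ) [NeZero N] (i : ℕ) :
    IsNIntSeries N (qExpansion 1 (Esym N (12 * (k0 N : ℤ)) (GN N) i)) :=
  Esym_GN_int_of (gConjFacts N) i

theorem Esym_GN_top (N : ℕ) [NeZero N] :
    ordG N = (k0 N : ℤ) * (Fintype.card (Q N) : ℤ) ∧
    ∃ u : ℂ, u ≠ 0 ∧ IsNInt N u ∧ IsNInt N u⁻¹ ∧
      Esym N (12 * (k0 N : ℤ)) (GN N) (Fintype.card (Q N)) =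
        u • (discriminant ^ (k0 N * Fintype.card (Q N)) : ℍ → ℂ) :=
  Esym_GN_top_of (gConjFacts N)

end Fermat.Agent.S28_EINT
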