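import Fermat.Agent.S28_helper1_LEVEL1_Core
import Fermat.Agent.S28_helper26_QDELTA
import Fermat.Agent.S28_helper20_QE4

/-!
# S28, piece LEVEL1: level-one structure theorem with integrality, formal form
-/

set_option autoImplicit false

open UpperHalfPlane ModularForm CongruenceSubgroup Matrix.SpecialLinearGroup
open scoped MatrixGroups ModularForm Manifold Real
open Fermat.Agent.S20 Fermat.Agent.S28_helper14_Defs Fermat.Agent.S28_helper14_ADefs ModularCurve

namespace Fermat.Agent.S28_LEVEL1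

theorem qDeltaHyp : QDeltaHyp := Fermat.Agent.S28_QDELTA.qExpansion_discriminant

theorem qE4Hyp : QE4Hyp := Fermat.Agent.S28_QE4.qExpansion_E4

theorem jqModC_mul_DeltaL :
    jqModC ℂ * DeltaL = (HahnSeries.ofPowerSeries ℤ ℂ (qExpansion 1 (⇑E₄ : ℍ → ℂ))) ^ 3 :=
  jqModC_mul_DeltaL_of qDeltaHyp qE4Hyp

theorem level1_structure (O : Subring ℂ) (m : ℕ) (f : ℍ → ℂ) (hf : IsMF1 (12 * (m : ℤ)) f)
    (hO : ∀ n, (qExpansion 1 f).coeff n ∈ O) :
    ∃ c : Polynomial ℂ, c.natDegree ≤ m ∧ (∀ a, c.coeff a ∈ O) ∧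
      HahnSeries.ofPowerSeries ℤ ℂ (qExpansion 1 f) = Polynomial.aeval (jqModC ℂ) c * DeltaL ^ m :=
  level1_structure_of qDeltaHyp qE4Hyp O m f hf hO

end Fermat.Agent.S28_LEVEL1
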