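import Fermat.Agent.S28_helper14_ADefs
import Fermat.Prelude.Thm_CongruenceSubgroup_one_mem_strictPeriods_Gamma0
import Fermat.Agent.S28_helper17_NINT
import Fermat.Agent.S28_helper27_ESYMM
import Fermat.Agent.S28_helper13_EINT
import Fermat.Agent.S28_helper1_LEVEL1
import Fermat.Agent.S28_helper5_GCONJ
import Fermat.Agent.S28_helper26_QDELTA

set_option autoImplicit false
set_option linter.unusedSectionVars false
set_option linter.unusedVariables false

/-!
# S28 piece RELF: the formal relation satisfied by the modular unit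
-/

noncomputable section

open UpperHalfPlane ModularForm CongruenceSubgroup Matrix.SpecialLinearGroup
open scoped MatrixGroups ModularForm Manifold Real
open Fermat.Agent.S20 Fermat.Agent.S28_helper14_Defs Fermat.Agent.S28_helper14_ADefs ModularCurve
open Fermat.Agent.S28_NINT Fermat.Agent.S28_ESYMM Fermat.Agent.S28_EINT Fermat.Agent.S28_LEVEL1
  Fermat.Agent.S28_GCONJ Fermat.Agent.S28_QDELTA

namespace Fermat.Agent.S28_RELF

/-- The cusp function (for the period `1`) is analytic at `0`. -/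
def An (f : ℍ → ℂ) : Prop := AnalyticAt ℂ (cuspFunction 1 f) 0

theorem an_of_isMF {N : ℕ} [NeZero N] {k : ℤ} {f : ℍ → ℂ} (hf : IsMF N k f) : An f := by
  obtain ⟨F, rfl⟩ := hf
  exact ModularFormClass.analyticAt_cuspFunction_zero F one_pos
    (CongruenceSubgroup.one_mem_strictPeriods_Gamma0 N)

theorem an_of_isMF1 {k : ℤ} {f : ℍ → ℂ} (hf : IsMF1 k f) : An f :=
  an_of_isMF (N := 1) hf.isMF

theorem an_mul {f g : ℍ → ℂ} (hf : An f) (hg : An g) : An (f * g) := by
  unfold An at *
  rw [cuspFunction_mul hf.continuousAt hg.continuousAt]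
  exact hf.mul hg

theorem an_add {f g : ℍ → ℂ} (hf : An f) (hg : An g) : An (f + g) := by
  unfold An at *
  rw [cuspFunction_add hf.continuousAt hg.continuousAt]
  exact hf.add hg

theorem an_smul {f : ℍ → ℂ} (a : ℂ) (hf : An f) : An (a • f) := by
  unfold An at *
  rw [cuspFunction_smul hf.continuousAt]
  exact hf.const_smul

theorem an_one : An (1 : ℍ → ℂ) := an_of_isMF1 IsMF1.one

theorem an_zero : An (0 : ℍ → ℂ) := an_of_isMF1 (k := 0) IsMF1.zero

theorem an_pow {f : ℍ → ℂ} (hf : An f) (n : ℕ) : An (f ^ n) := by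
  induction n with
  | zero => simpa using an_one
  | succ n ih => rw [pow_succ]; exact an_mul ih hf

theorem an_sum {ι : Type*} (s : Finset ι) (f : ι → ℍ → ℂ) (h : ∀ i ∈ s, An (f i)) :
    An (∑ i ∈ s, f i) := by
  classical
  induction s using Finset.induction_on with
  | empty => simpa using an_zero
  | insert a s ha ih =>
    rw [Finset.sum_insert ha]
    exact an_add (h a (Finset.mem_insert_self a s))
      (ih fun i hi => h i (Finset.mem_insert_of_mem hi))

/-- The `q`-expansion as a Laurent series. -/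
def qL (f : ℍ → ℂ) : LaurentSeries ℂ := HahnSeries.ofPowerSeries ℤ ℂ (qExpansion 1 f)

theorem qL_mul {f g : ℍ → ℂ} (hf : An f) (hg : An g) : qL (f * g) = qL f * qL g := by
  unfold qL
  rw [qExpansion_mul hf hg, map_mul]

theorem qL_add {f g : ℍ → ℂ} (hf : An f) (hg : An g) : qL (f + g) = qL f + qL g := by
  unfold qL
  rw [qExpansion_add hf hg, map_add]

theorem qL_one : qL (1 : ℍ → ℂ) = 1 := by
  unfold qL
  rw [qExpansion_one, map_one]

theorem qL_zero : qL (0 : ℍ → ℂ) = 0 := by
  unfold qL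
  rw [qExpansion_zero, map_zero]

theorem qL_smul {f : ℍ → ℂ} (a : ℂ) (hf : An f) : qL (a • f) = HahnSeries.C a * qL f := by
  unfold qL
  rw [qExpansion_smul hf, PowerSeries.smul_eq_C_mul, map_mul, HahnSeries.ofPowerSeries_C]

theorem qL_pow {f : ℍ → ℂ} (hf : An f) (n : ℕ) : qL (f ^ n) = qL f ^ n := by
  induction n with
  | zero => simpa using qL_one
  | succ n ih => rw [pow_succ, qL_mul (an_pow hf n) hf, ih, pow_succ]

theorem qL_sum {ι : Type*} (s : Finset ι) (f : ι → ℍ → ℂ) (h : ∀ i ∈ s, An (f i)) :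
    qL (∑ i ∈ s, f i) = ∑ i ∈ s, qL (f i) := by
  classical
  induction s using Finset.induction_on with
  | empty => simpa using qL_zero
  | insert a s ha ih =>
    rw [Finset.sum_insert ha, Finset.sum_insert ha,
      qL_add (h a (Finset.mem_insert_self a s))
        (an_sum s f fun i hi => h i (Finset.mem_insert_of_mem hi)),
      ih fun i hi => h i (Finset.mem_insert_of_mem hi)]

theorem algebraMap_eq_C (a : ℂ) : algebraMap ℂ (LaurentSeries ℂ) a = HahnSeries.C a := by
  rw [algebraMap_laurentSeries_eq_single]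
  rfl

theorem smul_eq_C_mul' (a : ℂ) (x : LaurentSeries ℂ) : a • x = HahnSeries.C a * x :=
  HahnSeries.C_mul_eq_smul.symm

theorem qL_discriminant : qL discriminant = DeltaL := rfl

theorem exists_rel (N : ℕ) [NeZero N] :
    ∃ (U : PowerSeries ℤ) (p : ℕ → Polynomial ℂ) (u : ℂ),
      PowerSeries.constantCoeff U = 1 ∧ (∀ i n, IsNInt N ((p i).coeff n)) ∧ p 0 = 1 ∧
      (∀ i, (p i).natDegree ≤ k0 N * i) ∧ IsNInt N u ∧ IsNInt N u⁻¹ ∧ u ≠ 0 ∧
      p (Fintype.card (Q N)) = Polynomial.C u ∧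
      (∀ i ≤ Fintype.card (Q N),
        HahnSeries.ofPowerSeries ℤ ℂ (qExpansion 1 (Esym N (12 * (k0 N : ℤ)) (GN N) i)) =
          (-1 : ℂ) ^ i • (Polynomial.aeval (jqModC ℂ) (p i) * DeltaL ^ (k0 N * i))) ∧
      HahnSeries.ofPowerSeries ℤ ℂ (qExpansion 1 (GN N)) =
        Vser ℂ (k0 N * (Fintype.card (Q N) - 1)) U * DeltaL ^ (k0 N) ∧
      ∑ i ∈ Finset.range (Fintype.card (Q N) + 1),
        Polynomial.aeval (jqModC ℂ) (p i) *
          (Vser ℂ (k0 N * (Fintype.card (Q N) - 1)) U) ^ (Fintype.card (Q N) - i) = 0 := by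
  classical
  set n := Fintype.card (Q N) with hn
  set k := k0 N with hk
  set w : ℤ := 12 * (k : ℤ) with hw
  set G := GN N with hGdef
  set E : ℕ → ℍ → ℂ := fun i => Esym N w G i with hEdef
  have hnpos : 0 < n := Fintype.card_pos
  have hG : IsMF N w G := isMF_GN N
  have hE : ∀ i, IsMF1 (12 * ((k * i : ℕ) : ℤ)) (E i) := fun i =>
    (isMF1_Esym hG i).cast (by rw [hw]; push_cast; ring)
  have hAnG : An G := an_of_isMF hG
  have hAnE : ∀ i, An (E i) := fun i => an_of_isMF1 (hE i)
  have hAnΔ : An discriminant := an_of_isMF1 isMF1_discriminant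
  have hD0 : DeltaL ≠ 0 := DeltaL_ne_zero
  -- the level one structure of the `E i`
  have hstruct : ∀ i, ∃ c : Polynomial ℂ, c.natDegree ≤ k * i ∧ (∀ a, c.coeff a ∈ nIntSubring N) ∧
      qL (E i) = Polynomial.aeval (jqModC ℂ) c * DeltaL ^ (k * i) := fun i =>
    level1_structure (nIntSubring N) (k * i) (E i) (hE i) (fun m => Esym_GN_int N i m)
  choose c hcdeg hcO hc using hstruct
  -- the bottom coefficient
  have hc0 : c 0 = 1 := by
    apply aeval_jqModC_injective
    have h1 := hc 0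
    have h2 : E 0 = 1 := Esym_zero w G
    rw [h2, qL_one, mul_zero, pow_zero, mul_one] at h1
    rw [← h1, map_one]
  -- the top coefficient
  obtain ⟨hord, u', hu'0, hu'int, hu'inv, hEn⟩ := Esym_GN_top N
  have hcn : c n = Polynomial.C u' := by
    apply aeval_jqModC_injective
    have h1 := hc n
    have h2 : E n = u' • (discriminant ^ (k * n) : ℍ → ℂ) := hEn
    rw [h2, qL_smul _ (an_pow hAnΔ _), qL_pow hAnΔ, qL_discriminant] at h1
    have h3 := mul_right_cancel₀ (pow_ne_zero (k * n) hD0) h1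
    rw [← h3, Polynomial.aeval_C, algebraMap_eq_C]
  -- the modular unit
  obtain ⟨UG, hUG1, hqG⟩ := qExpansion_GN N
  have hordnat : (ordG N).toNat = k * n := by
    rw [hord]
    have : (k : ℤ) * (n : ℤ) = ((k * n : ℕ) : ℤ) := by push_cast; ring
    rw [this, Int.toNat_natCast]
  set U : PowerSeries ℤ := UG * dedekindEtaUnitInv ^ k with hU
  set V := Vser ℂ (k * (n - 1)) U with hV
  have hqLG : qL G = V * DeltaL ^ k := by
    have hΔ : DeltaL = HahnSeries.ofPowerSeries ℤ ℂ
        ((PowerSeries.X * dedekindEtaUnit).map (Int.castRingHom ℂ)) := by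
      rw [DeltaL, qExpansion_discriminant]
    rw [hΔ, hV, Vser, ← map_pow, ← map_mul, ← map_pow, ← map_mul]
    unfold qL
    rw [hqG, hordnat]
    congr 2
    have e : k * n = k * (n - 1) + k := by
      have : n = (n - 1) + 1 := by omega
      conv_lhs => rw [this]
      ring
    rw [hU, e]
    have h1 : dedekindEtaUnitInv ^ k * dedekindEtaUnit ^ k = 1 := by
      rw [← mul_pow, mul_comm, dedekindEtaUnit_mul_inv, one_pow]
    calc PowerSeries.X ^ (k * (n - 1) + k) * UG
        = PowerSeries.X ^ (k * (n - 1)) * UG * PowerSeries.X ^ k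
            * (dedekindEtaUnitInv ^ k * dedekindEtaUnit ^ k) := by
          rw [h1, pow_add]; ring
      _ = PowerSeries.X ^ (k * (n - 1)) * (UG * dedekindEtaUnitInv ^ k)
            * (PowerSeries.X * dedekindEtaUnit) ^ k := by
          rw [mul_pow]; ring
  -- the polynomials
  set p : ℕ → Polynomial ℂ := fun i => Polynomial.C ((-1 : ℂ) ^ i) * c i with hp
  have hsq : ∀ i : ℕ, ((-1 : ℂ) ^ i) * ((-1 : ℂ) ^ i) = 1 := by
    intro i
    rw [← mul_pow]
    norm_num
  have hpE : ∀ i, qL (E i) = (-1 : ℂ) ^ i • (Polynomial.aeval (jqModC ℂ) (p i) * DeltaL ^ (k * i)) := by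
    intro i
    rw [hc i, smul_eq_C_mul', hp]
    simp only [map_mul, Polynomial.aeval_C, algebraMap_eq_C]
    rw [← mul_assoc, ← mul_assoc, ← map_mul, hsq, map_one, one_mul]
  have hminus : ∀ i : ℕ, IsNInt N ((-1 : ℂ) ^ i) := fun i =>
    isNInt_pow (isNInt_neg isNInt_one) i
  refine ⟨U, p, (-1 : ℂ) ^ n * u', ?_, ?_, ?_, ?_, ?_, ?_, ?_, ?_, ?_, ?_, ?_⟩
  · rw [hU, map_mul, map_pow, hUG1, constantCoeff_dedekindEtaUnitInv, one_pow, one_mul]
  · intro i m
    rw [hp, Polynomial.coeff_C_mul]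
    exact isNInt_mul (hminus i) (hcO i m)
  · rw [hp]
    simp only [pow_zero, map_one, one_mul]
    exact hc0
  · intro i
    exact (Polynomial.natDegree_C_mul_le _ _).trans (hcdeg i)
  · exact isNInt_mul (hminus n) hu'int
  · rw [mul_inv, ← inv_pow]
    have : ((-1 : ℂ))⁻¹ = -1 := by norm_num
    rw [this]
    exact isNInt_mul (hminus n) hu'inv
  · exact mul_ne_zero (pow_ne_zero _ (by norm_num)) hu'0
  · rw [hp]
    simp only
    rw [hcn, ← map_mul]
  · intro i _
    exact hpE i
  · exact hqLG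
  · -- the relation
    have hrel := Esym_rel hG
    have hAnterm : ∀ i ∈ Finset.range (n + 1),
        An ((-1 : ℂ) ^ i • (E i * G ^ (n - i))) := fun i _ =>
      an_smul _ (an_mul (hAnE i) (an_pow hAnG _))
    have h1 := congrArg qL hrel
    rw [qL_zero, qL_sum _ _ hAnterm] at h1
    have h2 : ∀ i ∈ Finset.range (n + 1), qL ((-1 : ℂ) ^ i • (E i * G ^ (n - i)))
        = (Polynomial.aeval (jqModC ℂ) (p i) * V ^ (n - i)) * DeltaL ^ (k * n) := by
      intro i hi
      have hi' : i ≤ n := Nat.lt_succ_iff.mp (Finset.mem_range.mp hi)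
      rw [qL_smul _ (an_mul (hAnE i) (an_pow hAnG _)), qL_mul (hAnE i) (an_pow hAnG _),
        qL_pow hAnG, hpE i, hqLG, smul_eq_C_mul', mul_pow, ← pow_mul]
      have e : k * n = k * i + k * (n - i) := by
        rw [← Nat.mul_add, Nat.add_sub_cancel' hi']
      rw [e, pow_add]
      have hCC : HahnSeries.C ((-1 : ℂ) ^ i) * HahnSeries.C ((-1 : ℂ) ^ i)
          = (1 : LaurentSeries ℂ) := by
        rw [← map_mul, hsq, map_one]
      calc HahnSeries.C ((-1 : ℂ) ^ i) *
            (HahnSeries.C ((-1 : ℂ) ^ i) *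
              (Polynomial.aeval (jqModC ℂ) (p i) * DeltaL ^ (k * i)) *
              (V ^ (n - i) * DeltaL ^ (k * (n - i))))
          = (HahnSeries.C ((-1 : ℂ) ^ i) * HahnSeries.C ((-1 : ℂ) ^ i)) *
              (Polynomial.aeval (jqModC ℂ) (p i) * V ^ (n - i) *
                (DeltaL ^ (k * i) * DeltaL ^ (k * (n - i)))) := by ring
        _ = Polynomial.aeval (jqModC ℂ) (p i) * V ^ (n - i) *
                (DeltaL ^ (k * i) * DeltaL ^ (k * (n - i))) := by rw [hCC, one_mul]
    rw [Finset.sum_congr rfl h2, ← Finset.sum_mul] at h1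
    rcases mul_eq_zero.mp h1 with h | h
    · exact h
    · exact absurd h (pow_ne_zero _ hD0)

end Fermat.Agent.S28_RELF
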