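import Mathlib
import Fermat.Agent.S20_helper10_D
import Fermat.Agent.S28_helper1_LEVEL1
import Fermat.Agent.S28_helper25_HD
import Fermat.Agent.S28_helper17_RELF
import Fermat.Agent.S24_helper24_JD
import Fermat.Agent.G_helper6_Contracts

set_option autoImplicit false

open UpperHalfPlane ModularForm CongruenceSubgroup
open scoped MatrixGroups ModularForm Manifold
open Fermat.Agent.S20 Fermat.Agent.S20_helper10_DDefs Fermat.Agent.S28_helper14_ADefs
  Fermat.Agent.S28_RELF Fermat.Agent.S24 ModularCurve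

namespace Fermat.Agent.G_helper1_G4N

/-- **DEP**: any `μ(N) + 1` modular forms of the same weight on `Γ₀(N)` satisfy a nontrivial
linear relation whose coefficients are level one forms of a common weight. -/
theorem PG_G4N_dep (N : ℕ) [NeZero N] (k : ℤ) (hk0 : 0 ≤ k) (hk2 : Even k)
    (A : Fin (mu N + 1) → ℍ → ℂ) (hA : ∀ j, IsMF N k (A j)) :
    ∃ (w : ℤ) (c : Fin (mu N + 1) → ℍ → ℂ), (∀ j, IsMF1 w (c j)) ∧ (∃ j, c j ≠ 0) ∧
      ∑ j, c j * A j = 0 := by
  by_contra hcon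
  push Not at hcon
  obtain ⟨B⟩ := Fermat.Agent.S20_helper10_D.D1 N
  have hBn : B.n = mu N := Fermat.Agent.S20_helper10_D.D2 B
  have hind : ∀ (w : ℤ) (a : Fin (mu N + 1) → ℍ → ℂ), (∀ j, IsMF1 (w - k) (a j)) →
      ∑ j, a j * A j = 0 → ∀ j, a j = 0 := by
    intro w a ha hsum
    by_contra hne
    push Not at hne
    exact hcon (w - k) a ha hne hsum
  have h := Fermat.Agent.S20_helper4_Df.D_count_ge (J := Fin B.n) (J' := Fin (mu N + 1)) B.wt
    (fun _ => k) B.wt_nonneg (fun _ => hk0) (fun _ => hk2)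
    (fun t => le_trans
      (Fermat.Agent.S20_helper24_Dd.D_gb_lower (N := N) (J := Fin (mu N + 1))
        (fun _ => k) A hA (12 * (t : ℤ)) (hind (12 * (t : ℤ))))
      (Fermat.Agent.S20_helper24_Dd.D_gb_upper B.wt B.f (12 * (t : ℤ)) (B.span (12 * (t : ℤ)))))
  simp only [Fintype.card_fin] at h
  omega

/-- `Hd N N = j(N z) Δ(z)^N`, slashed. -/
theorem PG_G4N_slash_Hd (N : ℕ) [NeZero N] (γ : SL(2, ℤ)) (z : ℍ) :
    (Hd N N ∣[(12 * (N : ℤ))] γ) z = jd N γ z * discriminant z ^ N := by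
  rw [Fermat.Agent.S28_HD.slash_Hd, isMF1_discriminant.slash_eq γ]
  simp only [ModularForm.SL_slash_apply]
  have hδ : denom γ z ≠ 0 := denom_ne_zero _ z
  have hne := Fermat.Agent.S28_HD.tri_disc_ne_zero N 1 0 (γ • z)
  have htri : ∀ f : ℍ → ℂ, tri N 1 0 f (γ • z) = f (dmul N (γ • z)) := by
    intro f
    simp [tri, dmul]
  rw [htri] at hne ⊢
  rw [htri]
  simp only [jd, jfun]
  have h2 : (denom γ z) ^ (-(4 : ℤ)) = ((denom γ z) ^ 4)⁻¹ := by
    rw [zpow_neg]; norm_cast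
  have h3 : (denom γ z) ^ (-(12 : ℤ)) = ((denom γ z) ^ 12)⁻¹ := by
    rw [zpow_neg]; norm_cast
  rw [h2, h3]
  field_simp

/-- The stabiliser of `Hd N N` is `Γ₀(N)`. -/
theorem PG_G4N_stab_Hd (N : ℕ) [NeZero N] (γ : SL(2, ℤ))
    (h : Hd N N ∣[(12 * (N : ℤ))] γ = Hd N N) : γ ∈ Gamma0 N := by
  apply Fermat.Agent.S24_helper24_JD.jd_stab N γ
  funext z
  have h1 := PG_G4N_slash_Hd N γ z
  have h2 := PG_G4N_slash_Hd N 1 z
  rw [h] at h1
  rw [SlashAction.slash_one] at h2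
  rw [h2] at h1
  have hΔ : discriminant z ^ N ≠ 0 :=
    pow_ne_zero _ (Fermat.Agent.S28_HD.discriminant_ne_zero' z)
  exact (mul_right_cancel₀ hΔ h1).symm

/-! ### `q`-expansions -/

theorem PG_G4N_qL_eq_zero {N : ℕ} [NeZero N] {k : ℤ} {f : ℍ → ℂ} (hf : IsMF N k f)
    (h : qL f = 0) : f = 0 := by
  have hn := Fermat.Agent.S28_HD.nice_of_isMF hf
  have h1 : qExpansion 1 f = 0 := by
    apply HahnSeries.ofPowerSeries_injective (Γ := ℤ)
    rw [map_zero]
    exact h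
  exact (qExpansion_eq_zero_iff one_pos hn.per hn.holo hn.bdd).1 h1

theorem PG_G4N_qL_ne_zero {N : ℕ} [NeZero N] {k : ℤ} {f : ℍ → ℂ} (hf : IsMF N k f)
    (h : f ≠ 0) : qL f ≠ 0 := fun h0 => h (PG_G4N_qL_eq_zero hf h0)

/-- the series `j(q^N)` -/
noncomputable def PG_G4N_theta (N : ℕ) [NeZero N] : LaurentSeries ℂ :=
  qExpand ℂ N (jqModC ℂ)

theorem PG_G4N_qL_Hd (N : ℕ) [NeZero N] : qL (Hd N N) = PG_G4N_theta N * DeltaL ^ N :=
  Fermat.Agent.S28_HD.qExpansion_Hd N N dvd_rfl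

/-- **IND**: the powers `1, θ, …, θ^(μ-1)` of `θ = j(q^N)` are linearly independent over
the level one forms. -/
theorem PG_G4N_ind (N : ℕ) [NeZero N] (w : ℤ) (c : Fin (mu N) → ℍ → ℂ)
    (hc : ∀ j, IsMF1 w (c j))
    (h : ∑ j, qL (c j) * PG_G4N_theta N ^ (j : ℕ) = 0) : ∀ j, c j = 0 := by
  have hf : IsMF N (12 * (N : ℤ)) (Hd N N) := Fermat.Agent.S28_HD.isMF_Hd N N dvd_rfl
  have hΔ : IsMF1 12 discriminant := isMF1_discriminant
  set e : Fin (mu N) → ℕ := fun j => N * (mu N - 1 - (j : ℕ)) with he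
  set a : Fin (mu N) → ℍ → ℂ := fun j => c j * discriminant ^ (e j) with ha
  set W : ℤ := w + 12 * ((N * (mu N - 1) : ℕ) : ℤ) with hW
  have hej : ∀ j : Fin (mu N), e j + N * (j : ℕ) = N * (mu N - 1) := by
    intro j
    have hj := j.2
    simp only [he]
    rw [← Nat.mul_add]
    congr 1
    omega
  have haMF : ∀ j : Fin (mu N), IsMF1 (W - ((j : ℕ) : ℤ) * (12 * (N : ℤ))) (a j) := by
    intro j
    refine ((hc j).mul (hΔ.pow (e j))).cast ?_
    have := hej j
    have h2 : ((e j : ℕ) : ℤ) + (N : ℤ) * ((j : ℕ) : ℤ) = ((N * (mu N - 1) : ℕ) : ℤ) := by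
      exact_mod_cast this
    rw [hW]
    linear_combination 12 * h2
  have hsumMF : IsMF N W (∑ j, a j * Hd N N ^ (j : ℕ)) := by
    refine IsMF.sum _ _ (fun j _ => ?_)
    refine (((haMF j).isMF (N := N)).mul (hf.pow (j : ℕ))).cast ?_
    ring
  have hsum : ∑ j, a j * Hd N N ^ (j : ℕ) = 0 := by
    apply PG_G4N_qL_eq_zero hsumMF
    have hAn : ∀ j ∈ (Finset.univ : Finset (Fin (mu N))), An (a j * Hd N N ^ (j : ℕ)) :=
      fun j _ => an_mul (an_of_isMF1 (haMF j)) (an_pow (an_of_isMF hf) _)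
    rw [qL_sum _ _ hAn]
    have hterm : ∀ j : Fin (mu N), qL (a j * Hd N N ^ (j : ℕ))
        = DeltaL ^ (N * (mu N - 1)) * (qL (c j) * PG_G4N_theta N ^ (j : ℕ)) := by
      intro j
      rw [qL_mul (an_of_isMF1 (haMF j)) (an_pow (an_of_isMF hf) _), qL_pow (an_of_isMF hf),
        PG_G4N_qL_Hd]
      simp only [ha]
      rw [qL_mul (an_of_isMF1 (hc j)) (an_pow (an_of_isMF1 hΔ) _), qL_pow (an_of_isMF1 hΔ),
        qL_discriminant, ← hej j, mul_pow, pow_add, ← pow_mul]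
      ring
    rw [Finset.sum_congr rfl (fun j _ => hterm j), ← Finset.mul_sum, h, mul_zero]
  have hall := Fermat.Agent.S20_helper9_Dc.D_powers hf (PG_G4N_stab_Hd N) W a haMF hsum
  intro j
  funext z
  have h1 := congrFun (hall j) z
  simp only [ha, Pi.mul_apply, Pi.pow_apply, Pi.zero_apply] at h1
  rcases mul_eq_zero.mp h1 with h2 | h2
  · exact h2
  · exact absurd h2 (pow_ne_zero _ (Fermat.Agent.S28_HD.discriminant_ne_zero' z))

/-! ### Level one: ratios of forms of the same weight are rational functions of `j` -/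

theorem PG_G4N_level1 (w : ℤ) (c c' : ℍ → ℂ) (hc : IsMF1 w c) (hc' : IsMF1 w c')
    (h0 : c' ≠ 0) :
    ∃ x ∈ IntermediateField.adjoin ℂ {jqModC ℂ}, x * qL c' = qL c := by
  have hw : 0 ≤ w := by
    by_contra hneg
    exact h0 (hc'.eq_zero_of_neg (not_le.mp hneg))
  obtain ⟨m, rfl⟩ := Int.eq_ofNat_of_zero_le hw
  have hnum : IsMF1 (12 * (m : ℤ)) (c * c' ^ 11) := by
    refine (hc.mul (hc'.pow 11)).cast ?_
    push_cast
    ring
  have hden : IsMF1 (12 * (m : ℤ)) (c' ^ 12) := by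
    refine (hc'.pow 12).cast ?_
    push_cast
    ring
  obtain ⟨P, -, -, hP⟩ := Fermat.Agent.S28_LEVEL1.level1_structure ⊤ m _ hnum
    (fun _ => Subring.mem_top _)
  obtain ⟨Q, -, -, hQ⟩ := Fermat.Agent.S28_LEVEL1.level1_structure ⊤ m _ hden
    (fun _ => Subring.mem_top _)
  have hqc' : qL c' ≠ 0 := PG_G4N_qL_ne_zero (hc'.isMF (N := 1)) h0
  have hP' : qL c * qL c' ^ 11 = Polynomial.aeval (jqModC ℂ) P * DeltaL ^ m := by
    rw [← hP]
    show _ = qL (c * c' ^ 11)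
    rw [qL_mul (an_of_isMF1 hc) (an_pow (an_of_isMF1 hc') _), qL_pow (an_of_isMF1 hc')]
  have hQ' : qL c' ^ 12 = Polynomial.aeval (jqModC ℂ) Q * DeltaL ^ m := by
    rw [← hQ]
    show _ = qL (c' ^ 12)
    rw [qL_pow (an_of_isMF1 hc')]
  have hQ0 : Polynomial.aeval (jqModC ℂ) Q ≠ 0 := by
    intro h
    rw [h, zero_mul] at hQ'
    exact hqc' (pow_eq_zero_iff (by norm_num) |>.mp hQ')
  have hJ : jqModC ℂ ∈ IntermediateField.adjoin ℂ {jqModC ℂ} :=
    IntermediateField.mem_adjoin_simple_self ℂ _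
  have hmemP : Polynomial.aeval (jqModC ℂ) P ∈ IntermediateField.adjoin ℂ {jqModC ℂ} := by
    rw [Polynomial.aeval_def, Polynomial.eval₂_eq_sum_range]
    exact sum_mem fun i _ => mul_mem (IntermediateField.algebraMap_mem _ _) (pow_mem hJ _)
  have hmemQ : Polynomial.aeval (jqModC ℂ) Q ∈ IntermediateField.adjoin ℂ {jqModC ℂ} := by
    rw [Polynomial.aeval_def, Polynomial.eval₂_eq_sum_range]
    exact sum_mem fun i _ => mul_mem (IntermediateField.algebraMap_mem _ _) (pow_mem hJ _)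
  refine ⟨Polynomial.aeval (jqModC ℂ) P * (Polynomial.aeval (jqModC ℂ) Q)⁻¹,
    mul_mem hmemP (inv_mem hmemQ), ?_⟩
  have h11 : qL c' ^ 11 ≠ 0 := pow_ne_zero _ hqc'
  apply mul_right_cancel₀ h11
  have hΔ : DeltaL ^ m ≠ 0 := pow_ne_zero _ Fermat.Agent.S28_LEVEL1.DeltaL_ne_zero
  rw [hP']
  have h12 : qL c' * qL c' ^ 11 = qL c' ^ 12 := by ring
  rw [mul_assoc, h12, hQ']
  field_simp

/-! ### The function field -/

open Fermat.Agent.G_helper6_Defs

theorem PG_G4N_J_mem (N : ℕ) [NeZero N] : jqModC ℂ ∈ PG_FC N := by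
  have h1 : jq ∈ modularFunctionFieldFull N := by
    have h := jqd_mem_full N (one_dvd N)
    rwa [qExpand_one_apply] at h
  have h2 := coeffEmb_mem_laurentBaseChange ℂ h1
  have h3 : coeffEmb ℂ jq = jqModC ℂ := coeffMap_jqModC (algebraMap ℚ ℂ)
  rwa [h3] at h2

theorem PG_G4N_theta_mem (N : ℕ) [NeZero N] : PG_G4N_theta N ∈ PG_FC N := by
  have h1 : qExpand ℚ N jq ∈ modularFunctionFieldFull N := jqd_mem_full N dvd_rfl
  have h2 := coeffEmb_mem_laurentBaseChange ℂ h1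
  have h3 : coeffEmb ℂ (qExpand ℚ N jq) = PG_G4N_theta N := by
    rw [coeffEmb, coeffMap_qExpand]
    show qExpand ℂ N (coeffMap (algebraMap ℚ ℂ) (jqModC ℚ)) = _
    rw [coeffMap_jqModC]
    rfl
  rwa [h3] at h2

theorem PG_G4N_adjoin_le (N : ℕ) [NeZero N] :
    IntermediateField.adjoin ℂ {jqModC ℂ} ≤ PG_FC N := by
  rw [IntermediateField.adjoin_le_iff]
  intro y hy
  rw [Set.mem_singleton_iff] at hy
  rw [hy]
  exact PG_G4N_J_mem N

/-- **Main theorem**: a quotient of two modular forms of the same weight on `Γ₀(N)`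
lies in the function field `ℂ(j(q^d) : d ∣ N)`. -/
theorem PG_G4N_mem (N : ℕ) [NeZero N] (k : ℤ) (a b : ℍ → ℂ) (ha : IsMF N k a)
    (hb : IsMF N k b) (hb0 : b ≠ 0) (x : LaurentSeries ℂ) (hx : x * qL b = qL a) :
    x ∈ PG_FC N := by
  classical
  have hk0 : 0 ≤ k := by
    by_contra hneg
    exact hb0 (hb.eq_zero_of_neg (not_le.mp hneg))
  have hk2 : Even k := by
    by_contra hodd
    exact hb0 (hb.eq_zero_of_odd (Int.not_even_iff_odd.mp hodd))
  have hf : IsMF N (12 * (N : ℤ)) (Hd N N) := Fermat.Agent.S28_HD.isMF_Hd N N dvd_rfl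
  have hΔ : IsMF1 12 discriminant := isMF1_discriminant
  set M : ℕ := N * (mu N - 1) with hM
  set k' : ℤ := k + 12 * (M : ℤ) with hk'
  -- the forms
  set A : Fin (mu N + 1) → ℍ → ℂ := fun j =>
    if hj : (j : ℕ) < mu N then Hd N N ^ (j : ℕ) * discriminant ^ (N * (mu N - 1 - (j : ℕ))) * b
    else a * discriminant ^ M with hAdef
  -- the corresponding series
  set y : Fin (mu N + 1) → LaurentSeries ℂ := fun j =>
    if (j : ℕ) < mu N then PG_G4N_theta N ^ (j : ℕ) else x with hydef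
  set E : LaurentSeries ℂ := DeltaL ^ M * qL b with hE
  have hqb : qL b ≠ 0 := PG_G4N_qL_ne_zero hb hb0
  have hE0 : E ≠ 0 := mul_ne_zero (pow_ne_zero _ Fermat.Agent.S28_LEVEL1.DeltaL_ne_zero) hqb
  have hA : ∀ j, IsMF N k' (A j) := by
    intro j
    simp only [hAdef]
    split_ifs with hj
    · refine (((hf.pow (j : ℕ)).mul ((hΔ.pow _).isMF (N := N))).mul hb).cast ?_
      have h1 : N * (mu N - 1 - (j : ℕ)) + N * (j : ℕ) = M := by
        rw [hM, ← Nat.mul_add]
        congr 1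
        omega
      have h2 : ((N * (mu N - 1 - (j : ℕ)) : ℕ) : ℤ) + (N : ℤ) * ((j : ℕ) : ℤ) = (M : ℤ) := by
        exact_mod_cast h1
      rw [hk']
      linear_combination 12 * h2
    · refine (ha.mul ((hΔ.pow _).isMF (N := N))).cast ?_
      rw [hk']
      ring
  have hAn : ∀ j, An (A j) := fun j => an_of_isMF (hA j)
  have hqA : ∀ j, qL (A j) = y j * E := by
    intro j
    simp only [hAdef, hydef]
    split_ifs with hj
    · rw [qL_mul (an_mul (an_pow (an_of_isMF hf) _) (an_pow (an_of_isMF1 hΔ) _)) (an_of_isMF hb),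
        qL_mul (an_pow (an_of_isMF hf) _) (an_pow (an_of_isMF1 hΔ) _), qL_pow (an_of_isMF hf),
        qL_pow (an_of_isMF1 hΔ), PG_G4N_qL_Hd, qL_discriminant, hE, mul_pow, ← pow_mul]
      have h1 : N * (j : ℕ) + N * (mu N - 1 - (j : ℕ)) = M := by
        rw [hM, ← Nat.mul_add]
        congr 1
        omega
      rw [← h1, pow_add]
      ring
    · rw [qL_mul (an_of_isMF ha) (an_pow (an_of_isMF1 hΔ) _), qL_pow (an_of_isMF1 hΔ),
        qL_discriminant, hE, ← hx]
      ring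
  have hk'0 : 0 ≤ k' := by
    rw [hk']
    positivity
  have hk'2 : Even k' := by
    rw [hk']
    refine hk2.add ?_
    exact ⟨6 * (M : ℤ), by ring⟩
  obtain ⟨w, c, hc, hcne, hsum⟩ := PG_G4N_dep N k' hk'0 hk'2 A hA
  -- the relation between the series
  have hrel : ∑ j, qL (c j) * y j = 0 := by
    have h1 : qL (∑ j, c j * A j) = 0 := by rw [hsum, qL_zero]
    rw [qL_sum _ _ (fun j _ => an_mul (an_of_isMF1 (hc j)) (hAn j))] at h1
    have h2 : ∀ j, qL (c j * A j) = (qL (c j) * y j) * E := by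
      intro j
      rw [qL_mul (an_of_isMF1 (hc j)) (hAn j), hqA]
      ring
    rw [Finset.sum_congr rfl (fun j _ => h2 j), ← Finset.sum_mul] at h1
    exact (mul_eq_zero.mp h1).resolve_right hE0
  rw [Fin.sum_univ_castSucc] at hrel
  have hy1 : ∀ j : Fin (mu N), y (Fin.castSucc j) = PG_G4N_theta N ^ (j : ℕ) := by
    intro j
    simp only [hydef, Fin.val_castSucc, j.2, if_true]
  have hy2 : y (Fin.last (mu N)) = x := by
    simp only [hydef, Fin.val_last, lt_irrefl, if_false]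
  rw [hy2] at hrel
  simp only [hy1] at hrel
  by_cases hlast : c (Fin.last (mu N)) = 0
  · exfalso
    rw [hlast, qL_zero, zero_mul, add_zero] at hrel
    have hall := PG_G4N_ind N w (fun j => c (Fin.castSucc j)) (fun j => hc _) hrel
    obtain ⟨j, hj⟩ := hcne
    refine Fin.lastCases ?_ (fun i => ?_) j hj
    · exact fun h => h hlast
    · exact fun h => h (hall i)
  · -- the ratios
    have hr : ∀ j : Fin (mu N), ∃ r ∈ IntermediateField.adjoin ℂ {jqModC ℂ},
        r * qL (c (Fin.last (mu N))) = qL (c (Fin.castSucc j)) :=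
      fun j => PG_G4N_level1 w _ _ (hc _) (hc _) hlast
    choose r hrmem hreq using hr
    have hql : qL (c (Fin.last (mu N))) ≠ 0 := PG_G4N_qL_ne_zero ((hc _).isMF (N := 1)) hlast
    have hxeq : x = -∑ j : Fin (mu N), r j * PG_G4N_theta N ^ (j : ℕ) := by
      apply mul_left_cancel₀ hql
      have h3 : ∀ j : Fin (mu N), qL (c (Fin.last (mu N))) * (r j * PG_G4N_theta N ^ (j : ℕ))
          = qL (c (Fin.castSucc j)) * PG_G4N_theta N ^ (j : ℕ) := by
        intro j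
        rw [← hreq j]
        ring
      have h4 : qL (c (Fin.last (mu N))) * x
          = -∑ j : Fin (mu N), qL (c (Fin.castSucc j)) * PG_G4N_theta N ^ (j : ℕ) :=
        eq_neg_of_add_eq_zero_right hrel
      have h5 : qL (c (Fin.last (mu N))) * -∑ j : Fin (mu N), r j * PG_G4N_theta N ^ (j : ℕ)
          = -∑ j : Fin (mu N), qL (c (Fin.last (mu N))) * (r j * PG_G4N_theta N ^ (j : ℕ)) := by
        rw [← Finset.mul_sum]
        ring
      rw [h4, h5, Finset.sum_congr rfl (fun j _ => h3 j)]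
    rw [hxeq]
    exact neg_mem (sum_mem fun j _ =>
      mul_mem (PG_G4N_adjoin_le N (hrmem j)) (pow_mem (PG_G4N_theta_mem N) _))

/-! ### The contract `PG_AN1` -/

/-- A form with trivial character in the sense of Project G is a modular form. -/
theorem PG_G4N_isMF_of_isForm {N : ℕ} [NeZero N] {k : ℤ} {a : ℍ → ℂ}
    (ha : PG_IsForm N k 1 a) : IsMF N k a := by
  refine isMF_iff.mpr ⟨ha.holo, fun γ hγ => ?_, ha.bdd⟩
  funext z
  have h := ha.aut ⟨γ, hγ⟩ z
  rw [ModularForm.SL_slash_apply]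
  simp only [MonoidHom.one_apply, Units.val_one, one_mul] at h
  rw [h, mul_assoc, mul_comm (a z), ← mul_assoc, ← zpow_add₀ (denom_ne_zero _ z)]
  simp

/-- A modular form is a form with trivial character in the sense of Project G. -/
theorem PG_G4N_isForm_of_isMF {N : ℕ} [NeZero N] {k : ℤ} {a : ℍ → ℂ}
    (ha : IsMF N k a) : PG_IsForm N k 1 a := by
  obtain ⟨h1, h2, h3⟩ := isMF_iff.mp ha
  refine ⟨h1, fun γ z => ?_, h3⟩
  have h := congrFun (h2 γ γ.2) z
  rw [ModularForm.SL_slash_apply] at h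
  simp only [MonoidHom.one_apply, Units.val_one, one_mul]
  have hd : denom ((γ : SL(2, ℤ)) : GL (Fin 2) ℝ) z ≠ 0 := denom_ne_zero _ z
  rw [← h, mul_comm, mul_assoc, ← zpow_add₀ hd]
  simp

theorem PG_G4N_qLaur_eq (a : ℍ → ℂ) : PG_qLaur a = qL a := rfl

/-- **G4 = (AN1)**: a quotient of two forms of the same weight with trivial character lies in
the function field `ℂ (j (q ^ d) : d ∣ N)`. -/
theorem PG_G4 (N : ℕ) [NeZero N] : PG_AN1 N := by
  intro k a b ha hb hb0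
  have ha' := PG_G4N_isMF_of_isForm ha
  have hb' := PG_G4N_isMF_of_isForm hb
  have hqb : qL b ≠ 0 := PG_G4N_qL_ne_zero hb' hb0
  have hx : qL a * (qL b)⁻¹ * qL b = qL a := by
    rw [mul_assoc, inv_mul_cancel₀ hqb, mul_one]
  exact ⟨⟨qL a * (qL b)⁻¹, PG_G4N_mem N k a b ha' hb' hb0 _ hx⟩, hx⟩

end Fermat.Agent.G_helper1_G4N
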