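import Mathlib

set_option autoImplicit false

namespace Fermat.Agent.G_helper1_K0

open Polynomial

local notation "Zbar" => integralClosure ℤ ℂ

/-- The kernel of a ring homomorphism from the algebraic integers to a field of
characteristic `p` is a maximal ideal. -/
theorem PGK0_ker_isMaximal {p : ℕ} (hp : p.Prime) {k : Type*} [Field k] [CharP k p]
    (φ : Zbar →+* k) : (RingHom.ker φ).IsMaximal := by
  have hprime : (RingHom.ker φ).IsPrime := RingHom.ker_isPrime φ
  have hcomap : ((RingHom.ker φ).comap (algebraMap ℤ Zbar)).IsMaximal := by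
    have hp' : ((RingHom.ker φ).comap (algebraMap ℤ Zbar)).IsPrime := Ideal.comap_isPrime _ _
    refine hp'.isMaximal ?_
    intro hbot
    have hmem : (p : ℤ) ∈ (RingHom.ker φ).comap (algebraMap ℤ Zbar) := by
      rw [Ideal.mem_comap, RingHom.mem_ker, map_natCast, map_natCast]
      exact CharP.cast_eq_zero k p
    rw [hbot, Ideal.mem_bot] at hmem
    exact hp.ne_zero (by exact_mod_cast hmem)
  exact Ideal.isMaximal_of_isIntegral_of_isMaximal_comap (R := ℤ) (RingHom.ker φ) hcomap

/-- The residue fields of the ring of algebraic integers are algebraically closed. -/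
theorem PGK0_isAlgClosed (𝔪 : Ideal Zbar) [𝔪.IsMaximal] :
    letI := Ideal.Quotient.field 𝔪
    IsAlgClosed (Zbar ⧸ 𝔪) := by
  let _ := Ideal.Quotient.field 𝔪
  refine IsAlgClosed.of_exists_root _ ?_
  intro P hPmon hPirr
  obtain ⟨q, hq, hqdeg, hqmon⟩ := Polynomial.lifts_and_degree_eq_and_monic
    ((Polynomial.mem_lifts P).mpr (Polynomial.map_surjective (Ideal.Quotient.mk 𝔪)
      Ideal.Quotient.mk_surjective P)) hPmon
  have hdeg : (q.map (algebraMap Zbar ℂ)).degree ≠ 0 := by
    rw [Polynomial.degree_map_eq_of_injective (FaithfulSMul.algebraMap_injective Zbar ℂ), hqdeg]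
    exact Polynomial.degree_pos_of_irreducible hPirr |>.ne'
  obtain ⟨z, hz⟩ := IsAlgClosed.exists_root (q.map (algebraMap Zbar ℂ)) hdeg
  have hz' : IsIntegral Zbar z := ⟨q, hqmon, by rwa [Polynomial.IsRoot.def, Polynomial.eval_map] at hz⟩
  have hzint : z ∈ integralClosure ℤ ℂ := isIntegral_trans (R := ℤ) z hz'
  have hroot : Polynomial.eval (⟨z, hzint⟩ : Zbar) q = 0 := by
    apply FaithfulSMul.algebraMap_injective Zbar ℂ
    rw [Polynomial.eval, Polynomial.hom_eval₂, RingHom.comp_id, map_zero]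
    rw [Polynomial.IsRoot.def, Polynomial.eval_map] at hz
    exact hz
  refine ⟨Ideal.Quotient.mk 𝔪 ⟨z, hzint⟩, ?_⟩
  rw [← hq, Polynomial.eval_map, Polynomial.eval₂_at_apply, hroot, map_zero]

/-- The characteristic of the residue field at a maximal ideal containing `p`. -/
theorem PGK0_charP {p : ℕ} (hp : p.Prime) (𝔪 : Ideal Zbar) [𝔪.IsMaximal]
    (h : (p : Zbar) ∈ 𝔪) : CharP (Zbar ⧸ 𝔪) p := by
  let _ := Ideal.Quotient.field 𝔪
  refine (CharP.charP_iff_prime_eq_zero hp).mpr ?_
  have := Ideal.Quotient.eq_zero_iff_mem.mpr h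
  simpa using this

end Fermat.Agent.G_helper1_K0
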