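import Mathlib
import Fermat.Prelude.Def_AlgebraicCurve_DivisorPushPull
import Fermat.Agent.S24_helper6_A2

/-!
# S37, brick B0 (dictionary): places over `v` and primes of the integral closure of `O_v`

`F'/F` is an algebraic extension of fields over `K`, `v` a place of `F` with valuation ring
`A = O_v`, and `B` a Dedekind domain with fraction field `F'` which is integral over `A`
(in the application `B = integralClosure A F'`).  The places `w` of `F'` with
`w.restrict F = v` are exactly the places attached to the maximal ideals of `B`.
-/

set_option autoImplicit false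

open AlgebraicCurve IsDedekindDomain

namespace Fermat.Agent.S37_helper11_FIBER

open Fermat.Agent.S24_helper6_A2

variable {K F F' : Type*} [Field K] [Field F] [Field F'] [Algebra K F] [Algebra K F']
  [Algebra F F'] [IsScalarTower K F F'] [Algebra.IsIntegral F F']

section Abstract

variable (v : Place K F)
variable (B : Type*) [CommRing B] [IsDedekindDomain B] [Algebra B F'] [IsFractionRing B F']
  [Algebra K B] [IsScalarTower K B F']
  [Algebra v.toValuationSubring B] [IsScalarTower v.toValuationSubring B F']
  [Algebra.IsIntegral v.toValuationSubring B]

/-- A place of `F'` over `v` contains `B`. -/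
theorem S37B0_containsRing_of_restrict_eq {w : Place K F'} (hw : w.restrict F = v) :
    ContainsRing B w := by
  intro b
  have hint : IsIntegral v.toValuationSubring b := Algebra.IsIntegral.isIntegral b
  -- `b` is integral over `O_w`, which is integrally closed
  have hle : ∀ a : v.toValuationSubring,
      algebraMap v.toValuationSubring F' a ∈ w.toValuationSubring := by
    intro a
    have : (a : F) ∈ (w.restrict F).toValuationSubring := by rw [hw]; exact a.2
    exact (Place.mem_restrict_iff (w := w)).mp this
  let _ : Algebra v.toValuationSubring w.toValuationSubring :=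
    ((algebraMap v.toValuationSubring F').codRestrict w.toValuationSubring.toSubring hle).toAlgebra
  have : IsScalarTower v.toValuationSubring w.toValuationSubring F' :=
    IsScalarTower.of_algebraMap_eq fun _ => rfl
  have hint' : IsIntegral w.toValuationSubring (algebraMap B F' b) :=
    (hint.map (IsScalarTower.toAlgHom v.toValuationSubring B F')).tower_top
  have hic : IsIntegrallyClosed w.toValuationSubring := inferInstance
  obtain ⟨y, hy⟩ := (isIntegrallyClosed_iff F').mp hic hint'
  rw [← hy]
  exact y.2

/-- The place attached to a maximal ideal of `B` lies over `v`. -/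
theorem S37B0_restrict_ofHeightOneSpectrum (P : HeightOneSpectrum B) :
    (Place.ofHeightOneSpectrum (K := K) (F := F') P).restrict F = v := by
  apply Place.ext
  symm
  refine ValuationSubring.eq_of_le_of_ne_top v.toValuationSubring ?_
    ((Place.ofHeightOneSpectrum (K := K) (F := F') P).restrict F).ne_top'
  intro a ha
  rw [Place.mem_restrict_iff]
  have h := containsRing_ofHeightOneSpectrum (K := K) (F := F') P
    (algebraMap v.toValuationSubring B ⟨a, ha⟩)
  rwa [← IsScalarTower.algebraMap_apply v.toValuationSubring B F'] at h

/-- Every place of `F'` over `v` is attached to a (unique) maximal ideal of `B`. -/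
theorem S37B0_exists_ofHeightOneSpectrum_eq {w : Place K F'} (hw : w.restrict F = v) :
    ∃ P : HeightOneSpectrum B, Place.ofHeightOneSpectrum (K := K) (F := F') P = w :=
  (containsRing_iff (B := B) w).mp (S37B0_containsRing_of_restrict_eq v B hw)

variable [HasPrincipalDivisors K F']

/-- The places over `v` are the places attached to the maximal ideals of `B`. -/
noncomputable def S37B0_fiberEquiv : HeightOneSpectrum B ≃ {w : Place K F' // w ∈ v.fiber F'} :=
  Equiv.ofBijective
    (fun P => ⟨Place.ofHeightOneSpectrum (K := K) (F := F') P,
      Place.mem_fiber.mpr (S37B0_restrict_ofHeightOneSpectrum v B P)⟩)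
    ⟨fun P Q h => ofHeightOneSpectrum_injective (K := K) (F := F') (congrArg Subtype.val h),
      fun w => by
        obtain ⟨P, hP⟩ := S37B0_exists_ofHeightOneSpectrum_eq v B (Place.mem_fiber.mp w.2)
        exact ⟨P, Subtype.ext hP⟩⟩

@[simp]
theorem S37B0_fiberEquiv_apply (P : HeightOneSpectrum B) :
    ((S37B0_fiberEquiv v B P : {w : Place K F' // w ∈ v.fiber F'}) : Place K F') =
      Place.ofHeightOneSpectrum (K := K) (F := F') P := rfl

variable (F') in
/-- `B` has finitely many maximal ideals. -/
@[reducible] noncomputable def S37B0_fintypeHeightOneSpectrum : Fintype (HeightOneSpectrum B) :=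
  Fintype.ofEquiv _ (S37B0_fiberEquiv (F' := F') v B).symm

/-- Sums over the fibre are sums over the maximal ideals of `B`. -/
theorem S37B0_sum_fiber_eq {M : Type*} [AddCommMonoid M] (g : Place K F' → M)
    [Fintype (HeightOneSpectrum B)] :
    ∑ w ∈ v.fiber F', g w =
      ∑ P : HeightOneSpectrum B, g (Place.ofHeightOneSpectrum (K := K) (F := F') P) := by
  rw [← Finset.sum_coe_sort (v.fiber F') g]
  exact (Fintype.sum_equiv (S37B0_fiberEquiv v B) _ _ (fun P => rfl)).symm

end Abstract

end Fermat.Agent.S37_helper11_FIBER
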