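import Mathlib
import Fermat.Prelude.Def_AlgebraicCurve_DivisorPushPull
import Fermat.Agent.S24_helper6_A2
import Fermat.Agent.S24_helper6_A2Shapes

/-!
# S37, piece B0a (SUMEF): the fundamental identity `∑ e f = n`

`K` algebraically closed of characteristic zero, `F ⊆ F'` a finite extension of function fields
of one variable over `K`.  For every place `v` of `F`,
`∑_{w | v} e(w | v) f(w | v) = [F' : F]` (prelude class `AlgebraicCurve.SumRamificationInertia`).

Route: `R := O_v` (a DVR), `S :=` integral closure of `R` in `F'` (Dedekind, finite over `R`),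
Mathlib's `Ideal.sum_ramification_inertia_eq_finrank`, and the dictionary
"primes of `S` over `m_v`" `↔` "places `w` of `F'` with `w.restrict F = v`"
(`S24_helper6_A2`: `ofHeightOneSpectrum` / `center`).

Main statements:
* `sumRamificationInertia_of_deg` : from `deg = 1` for all places of `F` and of `F'`;
* `S37B0_sumRamificationInertia` : the piece statement (pieces row 269);
* `S37B0_fundamentalIdentity` : the `FundamentalIdentity` consequence.
-/

set_option autoImplicit false
set_option linter.unusedSectionVars false
set_option linter.style.haveILetI false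

open AlgebraicCurve IsDedekindDomain IsDedekindDomain.HeightOneSpectrum WithZero

namespace Fermat.Agent.S37_helper2_SUMEF

open Fermat.Agent.S24_helper6_A2

section Setup

variable {K F F' : Type*} [Field K] [Field F] [Field F'] [Algebra K F] [Algebra K F']
  [Algebra F F'] [IsScalarTower K F F'] [FiniteDimensional F F'] [Algebra.IsSeparable F F']
  (v : Place K F)

/-- The integral closure of the valuation ring of `v` in `F'`. -/
abbrev SvRing (v : Place K F) (F' : Type*) [Field F'] [Algebra F F'] : Type _ :=
  integralClosure v.toValuationSubring F'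

local instance instDedekindSv : IsDedekindDomain (SvRing v F') :=
  integralClosure.isDedekindDomain v.toValuationSubring F F'

local instance instFracSv : IsFractionRing (SvRing v F') F' :=
  integralClosure.isFractionRing_of_finite_extension F F'

local instance instFiniteSv : Module.Finite v.toValuationSubring (SvRing v F') :=
  IsIntegralClosure.finite v.toValuationSubring F F' _

local instance instTFSv : Module.IsTorsionFree v.toValuationSubring (SvRing v F') := by
  infer_instance

local instance instFlatSv : Module.Flat v.toValuationSubring (SvRing v F') := by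
  infer_instance

/-- The `K`-algebra structure on the integral closure. -/
local instance instAlgKSv : Algebra K (SvRing v F') :=
  ((algebraMap v.toValuationSubring (SvRing v F')).comp
    (algebraMap K v.toValuationSubring)).toAlgebra

local instance instTowerKSv : IsScalarTower K (SvRing v F') F' :=
  IsScalarTower.of_algebraMap_eq fun a => by
    show algebraMap K F' a = algebraMap F F' (algebraMap K F a)
    rw [← IsScalarTower.algebraMap_apply]

noncomputable local instance instFintypePrimesOver :
    Fintype ((IsLocalRing.maximalIdeal v.toValuationSubring).primesOver (SvRing v F')) :=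
  (Algebra.QuasiFinite.finite_primesOver _).fintype

theorem finrank_Sv : Module.finrank v.toValuationSubring (SvRing v F') = Module.finrank F F' :=
  (IsFractionRing.finrank_eq v.toValuationSubring F (SvRing v F') F').symm

theorem sum_ideal :
    ∑ q : (IsLocalRing.maximalIdeal v.toValuationSubring).primesOver (SvRing v F'),
      q.1.ramificationIdx v.toValuationSubring * q.1.inertiaDeg v.toValuationSubring
      = Module.finrank F F' := by
  rw [← finrank_Sv v]
  exact Ideal.sum_ramification_inertia_eq_finrank _ _

theorem maxIdeal_ne_bot : IsLocalRing.maximalIdeal v.toValuationSubring ≠ ⊥ :=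
  IsDiscreteValuationRing.not_a_field _

/-- The height one prime of the integral closure attached to a prime over `m_v`. -/
def hos (q : (IsLocalRing.maximalIdeal v.toValuationSubring).primesOver (SvRing v F')) :
    HeightOneSpectrum (SvRing v F') where
  asIdeal := q.1
  isPrime := q.2.1
  ne_bot := by
    haveI := q.2.2
    exact Ideal.ne_bot_of_liesOver_of_ne_bot (maxIdeal_ne_bot v) q.1

theorem hos_injective : Function.Injective (hos (F' := F') v) := by
  intro q q' h
  apply Subtype.ext
  exact congrArg HeightOneSpectrum.asIdeal h

/-- The place of `F'` attached to a prime over `m_v`. -/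
noncomputable def placeOf
    (q : (IsLocalRing.maximalIdeal v.toValuationSubring).primesOver (SvRing v F')) :
    Place K F' :=
  Place.ofHeightOneSpectrum (K := K) (F := F') (hos v q)

theorem placeOf_injective : Function.Injective (placeOf (F' := F') v) :=
  ofHeightOneSpectrum_injective.comp (hos_injective v)

theorem algebraMap_Sv_apply (a : v.toValuationSubring) :
    algebraMap (SvRing v F') F' (algebraMap v.toValuationSubring (SvRing v F') a)
      = algebraMap F F' (a : F) := by
  rw [← IsScalarTower.algebraMap_apply v.toValuationSubring (SvRing v F') F']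
  rfl

theorem restrict_placeOf
    (q : (IsLocalRing.maximalIdeal v.toValuationSubring).primesOver (SvRing v F')) :
    (placeOf v q).restrict F = v := by
  symm
  apply Place.ext
  refine ValuationSubring.eq_of_le_of_ne_top _ ?_ ((placeOf v q).restrict F).ne_top'
  intro f hf
  rw [Place.mem_restrict_iff]
  have := containsRing_ofHeightOneSpectrum (K := K) (F := F') (hos v q)
    (algebraMap v.toValuationSubring (SvRing v F') ⟨f, hf⟩)
  rwa [algebraMap_Sv_apply] at this

theorem containsRing_of_restrict (w : Place K F') (hw : w.restrict F = v) :
    ContainsRing (SvRing v F') w := by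
  subst hw
  intro b
  have hb : IsIntegral (w.restrict F).toValuationSubring (algebraMap (SvRing (w.restrict F) F') F' b) :=
    b.2
  obtain ⟨P, hP, hPb⟩ := hb
  have hint : IsIntegral w.toValuationSubring (algebraMap (SvRing (w.restrict F) F') F' b) := by
    refine ⟨P.map (Place.restrictInclusion F w), hP.map _, ?_⟩
    rw [Polynomial.eval₂_map]
    exact hPb
  obtain ⟨y, hy⟩ :=
    (IsIntegrallyClosed.isIntegral_iff (R := w.toValuationSubring) (K := F')).1 hint
  rw [← hy]
  exact y.2

theorem center_liesOver (w : Place K F') (hw : w.restrict F = v) :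
    (center w (containsRing_of_restrict v w hw)).asIdeal.LiesOver
      (IsLocalRing.maximalIdeal v.toValuationSubring) := by
  subst hw
  constructor
  have hmax : (IsLocalRing.maximalIdeal (w.restrict F).toValuationSubring).IsMaximal :=
    inferInstance
  have hne : (center w (containsRing_of_restrict (w.restrict F) w rfl)).asIdeal.under
      (w.restrict F).toValuationSubring ≠ ⊤ :=
    (Ideal.IsPrime.under _ _).ne_top
  refine hmax.eq_of_le hne ?_
  intro a ha
  rw [Ideal.under_def, Ideal.mem_comap, mem_center_iff]
  intro hu
  have h1 : toValRing w (containsRing_of_restrict (w.restrict F) w rfl)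
      (algebraMap (w.restrict F).toValuationSubring (SvRing (w.restrict F) F') a)
      = Place.restrictInclusion F w a :=
    Subtype.ext (algebraMap_Sv_apply (w.restrict F) a)
  rw [h1] at hu
  exact ha (isUnit_of_map_unit (Place.restrictInclusion F w) a hu)

theorem exists_placeOf_eq (w : Place K F') (hw : w.restrict F = v) :
    ∃ q : (IsLocalRing.maximalIdeal v.toValuationSubring).primesOver (SvRing v F'),
      placeOf v q = w := by
  have hc := containsRing_of_restrict v w hw
  refine ⟨⟨(center w hc).asIdeal, (center w hc).isPrime, center_liesOver v w hw⟩, ?_⟩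
  exact ofHeightOneSpectrum_center w hc

theorem ramificationIndex_placeOf
    (q : (IsLocalRing.maximalIdeal v.toValuationSubring).primesOver (SvRing v F')) :
    (placeOf v q).ramificationIndex F = q.1.ramificationIdx v.toValuationSubring := by
  obtain ⟨π, hπ⟩ := IsDiscreteValuationRing.exists_irreducible v.toValuationSubring
  have h1 := (placeOf v q).ord_restrict (F := F) (π : F)
  rw [restrict_placeOf, v.ord_coe_irreducible hπ, mul_one] at h1
  haveI : (hos v q).asIdeal.LiesOver v.heightOneSpectrum.asIdeal := q.2.2
  have hA := intValuation_liesOver (A := v.toValuationSubring) (B := SvRing v F')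
    v.heightOneSpectrum (hos v q) π
  have hB : v.heightOneSpectrum.intValuation π = exp (-1 : ℤ) :=
    intValuation_singleton _ hπ.ne_zero
      (by rw [Place.heightOneSpectrum_asIdeal, hπ.maximalIdeal_eq])
  have hC : v.heightOneSpectrum.asIdeal.ramificationIdx' (hos v q).asIdeal
      = q.1.ramificationIdx v.toValuationSubring :=
    Ideal.ramificationIdx'_eq_ramificationIdx _ _ v.heightOneSpectrum.ne_bot
  have h2 : (placeOf v q).ord (algebraMap F F' (π : F))
      = (q.1.ramificationIdx v.toValuationSubring : ℤ) := by
    rw [← algebraMap_Sv_apply v π, placeOf, ord_ofHeightOneSpectrum, valuation_of_algebraMap,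
      ← hA, hB, hC, ← exp_nsmul]
    simp
  have h3 : ((placeOf v q).ramificationIndex F : ℤ)
      = (q.1.ramificationIdx v.toValuationSubring : ℤ) := by
    rw [← h1, h2]
  exact_mod_cast h3

theorem inertiaDeg_placeOf (hv : v.deg = 1) (hdeg' : ∀ w : Place K F', w.deg = 1)
    (q : (IsLocalRing.maximalIdeal v.toValuationSubring).primesOver (SvRing v F')) :
    (placeOf v q).inertiaDeg F = 1 := by
  have h := (placeOf v q).deg_restrict_mul_inertiaDeg (F := F)
  rw [restrict_placeOf, hv, hdeg', one_mul] at h
  exact h

omit [Algebra K F] [Algebra K F'] [Algebra F F'] [IsScalarTower K F F']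
  [FiniteDimensional F F'] [Algebra.IsSeparable F F'] in
/-- Universe-polymorphic transport of algebraic closedness along a surjection of fields. -/
theorem isAlgClosed_of_surjective {k k' : Type*} [Field k] [Field k'] [IsAlgClosed k]
    (e : k →+* k') (he : Function.Surjective e) : IsAlgClosed k' := by
  apply IsAlgClosed.of_exists_root
  intro p _ hp
  obtain ⟨q, rfl⟩ := Polynomial.map_surjective e he p
  have hq : q.degree ≠ 0 := by
    rw [← Polynomial.degree_map q e]
    exact ne_of_gt (Polynomial.degree_pos_of_irreducible hp)
  obtain ⟨x, hx⟩ := IsAlgClosed.exists_root q hq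
  exact ⟨e x, hx.map⟩

theorem bijective_algebraMap_residue (hv : v.deg = 1) :
    Function.Bijective (algebraMap K v.ResidueField) := by
  refine ⟨(algebraMap K v.ResidueField).injective, ?_⟩
  rw [Algebra.surjective_algebraMap_iff]
  exact (Subalgebra.bot_eq_top_of_finrank_eq_one hv).symm

theorem inertiaDeg_prime [IsAlgClosed K] (hv : v.deg = 1)
    (q : (IsLocalRing.maximalIdeal v.toValuationSubring).primesOver (SvRing v F')) :
    q.1.inertiaDeg v.toValuationSubring = 1 := by
  haveI : q.1.LiesOver (IsLocalRing.maximalIdeal v.toValuationSubring) := q.2.2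
  haveI : q.1.IsPrime := q.2.1
  haveI : q.1.IsMaximal := (hos v q).isMaximal
  rw [Ideal.inertiaDeg_eq_of_isMaximal (IsLocalRing.maximalIdeal v.toValuationSubring) q.1]
  letI : Field (v.toValuationSubring ⧸ IsLocalRing.maximalIdeal v.toValuationSubring) :=
    Ideal.Quotient.field _
  haveI : IsAlgClosed (v.toValuationSubring ⧸ IsLocalRing.maximalIdeal v.toValuationSubring) :=
    isAlgClosed_of_surjective (algebraMap K v.ResidueField)
      (bijective_algebraMap_residue v hv).2
  have hbij : Function.Bijective
      (algebraMap (v.toValuationSubring ⧸ IsLocalRing.maximalIdeal v.toValuationSubring)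
        (SvRing v F' ⧸ q.1)) :=
    IsAlgClosed.algebraMap_bijective_of_isIntegral
  rw [← Module.finrank_self
    (v.toValuationSubring ⧸ IsLocalRing.maximalIdeal v.toValuationSubring)]
  exact ((AlgEquiv.ofBijective (Algebra.ofId _ (SvRing v F' ⧸ q.1)) hbij).toLinearEquiv.finrank_eq).symm

end Setup

section Main

variable {K F F' : Type*} [Field K] [Field F] [Field F'] [Algebra K F] [Algebra K F']
  [Algebra F F'] [IsScalarTower K F F'] [FiniteDimensional F F']

attribute [local instance] instDedekindSv instFracSv instFiniteSv instTFSv instFlatSv
  instAlgKSv instTowerKSv instFintypePrimesOver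

/-- The fundamental identity `∑ e f = n` from `deg = 1` on both sides. -/
theorem sumRamificationInertia_of_deg [IsAlgClosed K] [Algebra.IsSeparable F F']
    [HasPrincipalDivisors K F']
    (hdeg : ∀ v : Place K F, v.deg = 1) (hdeg' : ∀ w : Place K F', w.deg = 1) :
    SumRamificationInertia K F F' := by
  classical
  refine ⟨fun v => ?_⟩
  have himg : v.fiber F' = Finset.univ.image (placeOf (F' := F') v) := by
    ext w
    rw [Place.mem_fiber, Finset.mem_image]
    constructor
    · intro hw
      obtain ⟨q, hq⟩ := exists_placeOf_eq v w hw
      exact ⟨q, Finset.mem_univ _, hq⟩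
    · rintro ⟨q, _, rfl⟩
      exact restrict_placeOf v q
  rw [himg, Finset.sum_image (fun a _ b _ h => placeOf_injective v h), ← sum_ideal v]
  push_cast
  refine Finset.sum_congr rfl fun q _ => ?_
  rw [ramificationIndex_placeOf, inertiaDeg_placeOf v (hdeg v) hdeg', inertiaDeg_prime v (hdeg v)]

open IntermediateField in
/-- `F'` is algebraic over `K(x')`, `x'` the image of `x`. -/
theorem isAlgebraic_adjoin_algebraMap (x : F) (hx : Transcendental K x)
    [FiniteDimensional K⟮x⟯ F] : Algebra.IsAlgebraic K⟮algebraMap F F' x⟯ F' := by
  letI a2 : Algebra (RatFunc K) F := (ratToF x hx).toAlgebra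
  letI a3 : Algebra (RatFunc K) K⟮x⟯ :=
    ((RatFunc.algEquivOfTranscendental x hx : RatFunc K ≃ₐ[K] K⟮x⟯) : RatFunc K →+* K⟮x⟯).toAlgebra
  haveI t3 : IsScalarTower (RatFunc K) K⟮x⟯ F := IsScalarTower.of_algebraMap_eq (fun _ => rfl)
  have hbij : Function.Bijective (algebraMap (RatFunc K) K⟮x⟯) :=
    (RatFunc.algEquivOfTranscendental x hx).bijective
  haveI f1 : Module.Finite (RatFunc K) K⟮x⟯ :=
    Module.Finite.of_surjective (Algebra.linearMap (RatFunc K) K⟮x⟯) hbij.2
  haveI f2 : FiniteDimensional (RatFunc K) F := Module.Finite.trans K⟮x⟯ F
  letI a4 : Algebra (RatFunc K) F' := ((algebraMap F F').comp (ratToF x hx)).toAlgebra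
  haveI t5 : IsScalarTower (RatFunc K) F F' := IsScalarTower.of_algebraMap_eq (fun _ => rfl)
  haveI f3 : FiniteDimensional (RatFunc K) F' := Module.Finite.trans F F'
  haveI t6 : IsScalarTower K (RatFunc K) F' := IsScalarTower.of_algebraMap_eq (fun a => by
    show algebraMap K F' a = algebraMap F F' (ratToF x hx (algebraMap K (RatFunc K) a))
    rw [ratToF_algebraMap, ← IsScalarTower.algebraMap_apply])
  have hX : algebraMap (RatFunc K) F' RatFunc.X = algebraMap F F' x := by
    show algebraMap F F' (ratToF x hx RatFunc.X) = _
    rw [ratToF_X]
  have key := FunctionField.Algebra.IsAlgebraic.adjoin_algebraMap_X (F := K) (K := F')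
  rwa [hX] at key

/-- **Fundamental identity** `∑_{w | v} e(w|v) f(w|v) = [F' : F]` for a finite extension of
function fields of one variable over an algebraically closed field of characteristic zero. -/
theorem S37B0_sumRamificationInertia (K F F' : Type*) [Field K] [Field F] [Field F']
    [Algebra K F] [Algebra K F'] [Algebra F F'] [IsScalarTower K F F'] [IsAlgClosed K]
    [CharZero K] [FiniteDimensional F F'] [AlgebraicCurve.HasPrincipalDivisors K F']
    (x : F) (hx : Transcendental K x) [FiniteDimensional (IntermediateField.adjoin K {x}) F] :
    haveI : Algebra.IsIntegral F F' := inferInstance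
    AlgebraicCurve.SumRamificationInertia K F F' := by
  haveI : CharZero F := charZero_of_injective_algebraMap (algebraMap K F).injective
  haveI : Algebra.IsSeparable F F' := inferInstance
  haveI := isAlgebraic_adjoin_algebraMap (F' := F') x hx
  exact sumRamificationInertia_of_deg
    (fun v => Fermat.Agent.S24_helper6_A2Shapes.deg_eq_one x v)
    (fun w => Fermat.Agent.S24_helper15_A1.deg_eq_one (algebraMap F F' x) inferInstance w)

/-- The `FundamentalIdentity` consequence (degree-weighted form). -/
theorem S37B0_fundamentalIdentity (K F F' : Type*) [Field K] [Field F] [Field F']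
    [Algebra K F] [Algebra K F'] [Algebra F F'] [IsScalarTower K F F'] [IsAlgClosed K]
    [CharZero K] [FiniteDimensional F F'] [AlgebraicCurve.HasPrincipalDivisors K F']
    (x : F) (hx : Transcendental K x) [FiniteDimensional (IntermediateField.adjoin K {x}) F] :
    haveI : Algebra.IsIntegral F F' := inferInstance
    AlgebraicCurve.FundamentalIdentity K F F' := by
  haveI := S37B0_sumRamificationInertia K F F' x hx
  infer_instance

end Main

end Fermat.Agent.S37_helper2_SUMEF
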