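import Mathlib
import Fermat.Prelude.Def_AlgebraicCurve_DivisorPushPull
import Fermat.Prelude.Def_AlgebraicCurve_Correspondence
import Fermat.Agent.S24_helper6_A2
import Fermat.Agent.S24_helper15_A1
import Fermat.Agent.S37_helper11_FIBER
import Fermat.Agent.S37_helper2_SUMEF

/-!
# S37, brick B0b: the norm formula for a finite extension of function fields

For a finite extension `F'/F` of function fields over an algebraically closed field `K` of
characteristic zero, a nonzero `f : F'` with divisor `D` and a place `v` of `F`:
`pushforward F D v = v.ord (Algebra.norm F f)`.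

Main results: `S37B0_pushforwardNormFormula` (pieces row 270) and `S37B0_normFormulaAlong`
(the `NormFormulaAlong` form for a `K`-algebra map `φ : F → F'`).
-/

set_option autoImplicit false
set_option linter.unusedSectionVars false
set_option linter.style.haveILetI false

open AlgebraicCurve IsDedekindDomain IntermediateField

namespace Fermat.Agent.S37_helper11_NORM

open Fermat.Agent.S24_helper6_A2 Fermat.Agent.S37_helper11_FIBER

variable {K F F' : Type*} [Field K] [Field F] [Field F'] [Algebra K F] [Algebra K F']
  [Algebra F F'] [IsScalarTower K F F'] [Algebra.IsIntegral F F']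

section OrdBase

variable (v : Place K F)

/-- The order at `v` of an element of the valuation ring generating `m_v ^ n` is `n`. -/
theorem S37B0b_ord_eq_of_span_eq_pow (a : v.toValuationSubring) (n : ℕ)
    (h : Ideal.span {a} = IsLocalRing.maximalIdeal v.toValuationSubring ^ n) :
    v.ord (a : F) = n := by
  have hm0 : IsLocalRing.maximalIdeal v.toValuationSubring ≠ ⊥ := v.heightOneSpectrum.ne_bot
  have ha0 : a ≠ 0 := by
    rintro rfl
    rw [Ideal.span_singleton_eq_bot.mpr rfl] at h
    exact pow_ne_zero n hm0 h.symm
  rw [Place.ord, v.adicValuation_coe,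
    HeightOneSpectrum.intValuation_eq_exp_neg_multiplicity _ ha0, WithZero.log_exp, neg_neg,
    Place.heightOneSpectrum_asIdeal, h]
  have hprime : Prime (IsLocalRing.maximalIdeal v.toValuationSubring) :=
    Ideal.prime_of_isPrime hm0 inferInstance
  rw [multiplicity_pow_self hprime.ne_zero hprime.not_isUnit]

end OrdBase

section Abstract

variable (v : Place K F)
variable (B : Type*) [CommRing B] [IsDedekindDomain B] [Algebra B F'] [IsFractionRing B F']
  [Algebra K B] [IsScalarTower K B F']
  [Algebra v.toValuationSubring B] [IsScalarTower v.toValuationSubring B F']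
  [Module.Finite v.toValuationSubring B] [Module.IsTorsionFree v.toValuationSubring B]

/-- Every maximal ideal of `B` lies over the maximal ideal of `O_v`. -/
theorem S37B0b_liesOver (P : HeightOneSpectrum B) :
    P.asIdeal.LiesOver (IsLocalRing.maximalIdeal v.toValuationSubring) := by
  constructor
  have hne : P.asIdeal.comap (algebraMap v.toValuationSubring B) ≠ ⊥ := fun h =>
    P.ne_bot (Ideal.eq_bot_of_comap_eq_bot h)
  have hprime : (P.asIdeal.comap (algebraMap v.toValuationSubring B)).IsPrime :=
    Ideal.comap_isPrime _ _
  exact (IsLocalRing.eq_maximalIdeal (hprime.isMaximal hne)).symm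

/-- The relative norm of the ideal `(b)` is `m_v ^ (sum of the orders of b)`, provided all
inertia degrees are one. -/
theorem S37B0b_relNorm_span [Fintype (HeightOneSpectrum B)]
    [PerfectField (FractionRing v.toValuationSubring)]
    (hres : ∀ P : HeightOneSpectrum B, P.asIdeal.inertiaDeg v.toValuationSubring = 1)
    (b : B) (hb : b ≠ 0) :
    Ideal.relNorm v.toValuationSubring (Ideal.span {b}) =
      IsLocalRing.maximalIdeal v.toValuationSubring ^
        (∑ P : HeightOneSpectrum B,
          (Associates.mk P.asIdeal).count (Associates.mk (Ideal.span {b})).factors) := by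
  have hI : (Ideal.span {b} : Ideal B) ≠ 0 := by
    rw [Ne, Ideal.zero_eq_bot, Ideal.span_singleton_eq_bot]; exact hb
  have h1 := Ideal.finprod_heightOneSpectrum_factorization hI
  rw [finprod_eq_prod_of_fintype] at h1
  conv_lhs => rw [← h1]
  rw [map_prod, ← Finset.prod_pow_eq_pow_sum]
  refine Finset.prod_congr rfl fun P _ => ?_
  rw [HeightOneSpectrum.maxPowDividing, map_pow]
  haveI := S37B0b_liesOver v B P
  haveI : P.asIdeal.IsMaximal := P.isMaximal
  rw [Ideal.relNorm_eq_pow_of_isMaximal P.asIdeal (IsLocalRing.maximalIdeal v.toValuationSubring),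
    hres P, pow_one]

/-- **Norm formula for elements of `B`.** -/
theorem S37B0b_ord_norm_algebraMap [FiniteDimensional F F'] [Fintype (HeightOneSpectrum B)]
    [PerfectField (FractionRing v.toValuationSubring)]
    [IsIntegralClosure B v.toValuationSubring F']
    (hres : ∀ P : HeightOneSpectrum B, P.asIdeal.inertiaDeg v.toValuationSubring = 1)
    (b : B) (hb : b ≠ 0) :
    v.ord (Algebra.norm F (algebraMap B F' b)) =
      ∑ P : HeightOneSpectrum B,
        (Place.ofHeightOneSpectrum (K := K) (F := F') P).ord (algebraMap B F' b) := by
  have h1 := S37B0b_relNorm_span v B hres b hb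
  rw [Ideal.relNorm_singleton] at h1
  have h2 := S37B0b_ord_eq_of_span_eq_pow v _ _ h1
  have h3 : ((Algebra.intNorm v.toValuationSubring B b : v.toValuationSubring) : F) =
      Algebra.norm F (algebraMap B F' b) :=
    Algebra.algebraMap_intNorm (A := v.toValuationSubring) (K := F) (L := F') (B := B) b
  rw [← h3, h2]
  push_cast
  refine Finset.sum_congr rfl fun P _ => ?_
  rw [ord_ofHeightOneSpectrum_algebraMap (K := K) (F := F') P hb]

variable [IsScalarTower K v.toValuationSubring B]

/-- If `K` is algebraically closed and the residue field of `v` is `K`, then `K` maps onto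
the residue field of every maximal ideal of `B`. -/
theorem S37B0b_surjective_quotient [IsAlgClosed K]
    (hv : ∀ a : v.toValuationSubring, ∃ c : K,
      a - algebraMap K v.toValuationSubring c ∈ IsLocalRing.maximalIdeal v.toValuationSubring)
    (P : HeightOneSpectrum B) :
    Function.Surjective ((Ideal.Quotient.mk P.asIdeal).comp (algebraMap K B)) := by
  haveI : P.asIdeal.IsMaximal := P.isMaximal
  letI : Field (B ⧸ P.asIdeal) := Ideal.Quotient.field P.asIdeal
  have hlies := S37B0b_liesOver v B P
  set φ : K →+* B ⧸ P.asIdeal := (Ideal.Quotient.mk P.asIdeal).comp (algebraMap K B) with hφ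
  -- images of elements of `O_v` are images of constants
  have hconst : ∀ a : v.toValuationSubring, ∃ c : K,
      Ideal.Quotient.mk P.asIdeal (algebraMap v.toValuationSubring B a) = φ c := by
    intro a
    obtain ⟨c, hc⟩ := hv a
    refine ⟨c, ?_⟩
    rw [hφ, RingHom.comp_apply, IsScalarTower.algebraMap_apply K v.toValuationSubring B,
      ← sub_eq_zero, ← map_sub, ← map_sub, Ideal.Quotient.eq_zero_iff_mem, ← Ideal.mem_comap]
    have hover : IsLocalRing.maximalIdeal v.toValuationSubring =
        P.asIdeal.comap (algebraMap v.toValuationSubring B) := hlies.over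
    rw [← hover]
    exact hc
  choose c hc using hconst
  refine (IsAlgClosed.ringHom_bijective_of_isIntegral φ ?_).2
  intro x
  obtain ⟨b, rfl⟩ := Ideal.Quotient.mk_surjective x
  obtain ⟨p, hp, hpb⟩ := (Algebra.IsIntegral.isIntegral (R := v.toValuationSubring) b)
  -- the polynomial `X ^ n + ∑_{i < n} c (p_i) X ^ i`
  refine ⟨Polynomial.X ^ p.natDegree +
    ∑ i ∈ Finset.range p.natDegree, Polynomial.C (c (p.coeff i)) * Polynomial.X ^ i, ?_, ?_⟩
  · refine Polynomial.monic_X_pow_add ?_
    refine (Polynomial.degree_sum_le _ _).trans_lt ?_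
    rw [Finset.sup_lt_iff (WithBot.bot_lt_coe _)]
    intro i hi
    refine (Polynomial.degree_C_mul_X_pow_le _ _).trans_lt ?_
    exact_mod_cast Finset.mem_range.mp hi
  · rw [Polynomial.eval₂_add, Polynomial.eval₂_pow, Polynomial.eval₂_X, Polynomial.eval₂_finsetSum]
    simp only [Polynomial.eval₂_mul, Polynomial.eval₂_C, Polynomial.eval₂_pow, Polynomial.eval₂_X]
    have h1 : Ideal.Quotient.mk P.asIdeal
        (Polynomial.eval₂ (algebraMap v.toValuationSubring B) b p) = 0 := by rw [hpb, map_zero]
    rw [Polynomial.eval₂_eq_sum_range, Finset.sum_range_succ, map_add, map_sum] at h1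
    simp only [map_mul, map_pow] at h1
    rw [← Polynomial.leadingCoeff, hp.leadingCoeff, map_one, map_one, one_mul] at h1
    rw [← h1, add_comm]
    congr 1
    refine Finset.sum_congr rfl fun i _ => ?_
    rw [hc]

/-- All inertia degrees of `B` over `O_v` are one. -/
theorem S37B0b_inertiaDeg_eq_one [IsAlgClosed K]
    (hv : ∀ a : v.toValuationSubring, ∃ c : K,
      a - algebraMap K v.toValuationSubring c ∈ IsLocalRing.maximalIdeal v.toValuationSubring)
    (P : HeightOneSpectrum B) :
    P.asIdeal.inertiaDeg v.toValuationSubring = 1 := by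
  haveI : P.asIdeal.IsMaximal := P.isMaximal
  haveI := S37B0b_liesOver v B P
  rw [Ideal.inertiaDeg_eq_of_isMaximal (IsLocalRing.maximalIdeal v.toValuationSubring) P.asIdeal]
  letI : Field (v.toValuationSubring ⧸ IsLocalRing.maximalIdeal v.toValuationSubring) :=
    Ideal.Quotient.field _
  letI : Field (B ⧸ P.asIdeal) := Ideal.Quotient.field P.asIdeal
  have hsurj : Function.Surjective
      (algebraMap (v.toValuationSubring ⧸ IsLocalRing.maximalIdeal v.toValuationSubring)
        (B ⧸ P.asIdeal)) := by
    intro x
    obtain ⟨c, hc⟩ := S37B0b_surjective_quotient v B hv P x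
    refine ⟨Ideal.Quotient.mk _ (algebraMap K v.toValuationSubring c), ?_⟩
    rw [Ideal.Quotient.algebraMap_mk_of_liesOver, ← hc, RingHom.comp_apply,
      ← IsScalarTower.algebraMap_apply K v.toValuationSubring B]
  have hinj : Function.Injective
      (algebraMap (v.toValuationSubring ⧸ IsLocalRing.maximalIdeal v.toValuationSubring)
        (B ⧸ P.asIdeal)) := RingHom.injective _
  have e := LinearEquiv.ofBijective
    (Algebra.linearMap (v.toValuationSubring ⧸ IsLocalRing.maximalIdeal v.toValuationSubring)
      (B ⧸ P.asIdeal)) ⟨hinj, hsurj⟩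
  rw [← e.finrank_eq, Module.finrank_self]

end Abstract

section Concrete

variable {K F F' : Type*} [Field K] [Field F] [Field F'] [Algebra K F] [Algebra K F']
  [Algebra F F'] [IsScalarTower K F F'] [FiniteDimensional F F'] [Algebra.IsSeparable F F']

open Fermat.Agent.S37_helper2_SUMEF in
attribute [local instance] instDedekindSv instFracSv instFiniteSv instTFSv instFlatSv
  instAlgKSv instTowerKSv

variable (v : Place K F)

/-- The sum of the orders of `f` over the places above `v` is the order of the norm. -/
theorem S37B0b_sum_fiber_ord_eq [IsAlgClosed K] [CharZero K] [HasPrincipalDivisors K F']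
    (hv : Function.Surjective (algebraMap K v.ResidueField)) (f : F') (hf : f ≠ 0) :
    ∑ w ∈ v.fiber F', w.ord f = v.ord (Algebra.norm F f) := by
  haveI : CharZero F := charZero_of_injective_algebraMap (algebraMap K F).injective
  haveI : CharZero v.toValuationSubring := inferInstance
  haveI : PerfectField (FractionRing v.toValuationSubring) := inferInstance
  haveI : IsScalarTower K v.toValuationSubring (integralClosure v.toValuationSubring F') :=
    IsScalarTower.of_algebraMap_eq fun _ => rfl
  letI : Fintype (HeightOneSpectrum (integralClosure v.toValuationSubring F')) :=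
    S37B0_fintypeHeightOneSpectrum F' v (integralClosure v.toValuationSubring F')
  have hv' : ∀ a : v.toValuationSubring, ∃ c : K,
      a - algebraMap K v.toValuationSubring c ∈
        IsLocalRing.maximalIdeal v.toValuationSubring := by
    intro a
    obtain ⟨c, hc⟩ := hv (IsLocalRing.residue v.toValuationSubring a)
    refine ⟨c, ?_⟩
    have halgmap : algebraMap K v.ResidueField c =
        IsLocalRing.residue v.toValuationSubring (algebraMap K v.toValuationSubring c) := rfl
    rw [halgmap] at hc
    rw [← IsLocalRing.residue_eq_zero_iff, map_sub, hc, sub_self]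
  have hres := S37B0b_inertiaDeg_eq_one v (integralClosure v.toValuationSubring F') hv'
  obtain ⟨b₁, b₂, hb₂, hfb⟩ :=
    IsFractionRing.div_surjective (A := integralClosure v.toValuationSubring F') f
  have hb₂0 : b₂ ≠ 0 := nonZeroDivisors.ne_zero hb₂
  have hb₂' : algebraMap (integralClosure v.toValuationSubring F') F' b₂ ≠ 0 := by
    simpa using hb₂0
  have hmul : f * algebraMap (integralClosure v.toValuationSubring F') F' b₂ =
      algebraMap (integralClosure v.toValuationSubring F') F' b₁ := by
    rw [← hfb, div_mul_cancel₀ _ hb₂']
  have hb₁' : algebraMap (integralClosure v.toValuationSubring F') F' b₁ ≠ 0 := by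
    rw [← hmul]; exact mul_ne_zero hf hb₂'
  have hb₁0 : b₁ ≠ 0 := by
    rintro rfl
    simp at hb₁'
  have hN : Algebra.norm F f *
      Algebra.norm F (algebraMap (integralClosure v.toValuationSubring F') F' b₂) =
      Algebra.norm F (algebraMap (integralClosure v.toValuationSubring F') F' b₁) := by
    rw [← map_mul, hmul]
  have h1 := S37B0b_ord_norm_algebraMap (F' := F') v _ hres b₁ hb₁0
  have h2 := S37B0b_ord_norm_algebraMap (F' := F') v _ hres b₂ hb₂0
  rw [← hN, v.ord_mul (Algebra.norm_ne_zero_iff.mpr hf) (Algebra.norm_ne_zero_iff.mpr hb₂'),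
    h2] at h1
  rw [S37B0_sum_fiber_eq v (integralClosure v.toValuationSubring F')]
  have h4 : ∑ P : HeightOneSpectrum (integralClosure v.toValuationSubring F'),
        (Place.ofHeightOneSpectrum (K := K) (F := F') P).ord f +
      ∑ P : HeightOneSpectrum (integralClosure v.toValuationSubring F'),
        (Place.ofHeightOneSpectrum (K := K) (F := F') P).ord
          (algebraMap (integralClosure v.toValuationSubring F') F' b₂) =
      ∑ P : HeightOneSpectrum (integralClosure v.toValuationSubring F'),
        (Place.ofHeightOneSpectrum (K := K) (F := F') P).ord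
          (algebraMap (integralClosure v.toValuationSubring F') F' b₁) := by
    rw [← Finset.sum_add_distrib]
    refine Finset.sum_congr rfl fun P _ => ?_
    rw [← Place.ord_mul _ hf hb₂', hmul]
  linarith

/-- If all places of `F'` have degree one, the pushforward at `v` is the sum over the fibre. -/
theorem S37B0b_pushforward_eq_sum_fiber [HasPrincipalDivisors K F']
    (hdeg' : ∀ w : Place K F', w.deg = 1) (D : Divisor K F') :
    Divisor.pushforward F D v = ∑ w ∈ v.fiber F', D w := by
  classical
  rw [Divisor.pushforward_apply]
  have hin : ∀ w : Place K F', w.inertiaDeg F = 1 := by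
    intro w
    have h := w.deg_restrict_mul_inertiaDeg (F := F)
    rw [hdeg' w] at h
    exact Nat.eq_one_of_mul_eq_one_left h
  have h1 : ∀ w ∈ D.support,
      (if w.restrict F = v then D w * (w.inertiaDeg F : ℤ) else 0) =
        if w.restrict F = v then D w else 0 := by
    intro w _
    rw [hin w, Nat.cast_one, mul_one]
  rw [Finset.sum_congr rfl h1, ← Finset.sum_filter]
  refine Finset.sum_subset ?_ ?_
  · intro w hw
    rw [Finset.mem_filter] at hw
    exact Place.mem_fiber.mpr hw.2
  · intro w hw hnot
    rw [Finset.mem_filter, not_and] at hnot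
    have : w ∉ D.support := fun h => hnot h (Place.mem_fiber.mp hw)
    exact Finsupp.notMem_support_iff.mp this

end Concrete

section Main

open Fermat.Agent.S37_helper2_SUMEF in
/-- **Norm formula for the pushforward of divisors** along a finite extension of function
fields of one variable over an algebraically closed field of characteristic zero. -/
theorem S37B0_pushforwardNormFormula (K F F' : Type*) [Field K] [Field F] [Field F']
    [Algebra K F] [Algebra K F'] [Algebra F F'] [IsScalarTower K F F'] [IsAlgClosed K]
    [CharZero K] [FiniteDimensional F F'] [AlgebraicCurve.HasPrincipalDivisors K F']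
    (x : F) (hx : Transcendental K x) [FiniteDimensional K⟮x⟯ F] :
    AlgebraicCurve.Divisor.PushforwardNormFormula K F F' := by
  haveI : CharZero F := charZero_of_injective_algebraMap (algebraMap K F).injective
  haveI : Algebra.IsSeparable F F' := inferInstance
  have halg' : Algebra.IsAlgebraic K⟮algebraMap F F' x⟯ F' :=
    isAlgebraic_adjoin_algebraMap (F' := F') x hx
  intro f hf D hD v
  rw [S37B0b_pushforward_eq_sum_fiber v
    (fun w => Fermat.Agent.S24_helper15_A1.deg_eq_one (algebraMap F F' x) halg' w) D,
    ← S37B0b_sum_fiber_ord_eq v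
      (Fermat.Agent.S24_helper15_A1.algebraMap_residue_surjective x
        (Algebra.IsAlgebraic.of_finite K⟮x⟯ F) v) f hf]
  exact Finset.sum_congr rfl fun w _ => hD w

/-- The norm formula along a `K`-algebra map `φ : F → F'`. -/
theorem S37B0_normFormulaAlong (K F F' : Type*) [Field K] [Field F] [Field F']
    [Algebra K F] [Algebra K F'] [IsAlgClosed K] [CharZero K]
    [AlgebraicCurve.HasPrincipalDivisors K F'] (φ : F →ₐ[K] F') (hfin : FiniteAlong K φ)
    (x : F) (hx : Transcendental K x) [FiniteDimensional K⟮x⟯ F] :
    NormFormulaAlong K φ hfin := by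
  letI := algebraAlong φ
  haveI := isScalarTower_along φ
  haveI : Module.Finite F F' := hfin
  exact S37B0_pushforwardNormFormula K F F' x hx

end Main

end Fermat.Agent.S37_helper11_NORM
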