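import Mathlib
import Fermat.Prelude.Def_ModularCurve_HeckeOperatorTotal
import Fermat.Agent.S37_helper21_B0c
import Fermat.Agent.S37_helper2_SUMEF
import Fermat.Agent.S37_helper11_NORM

/-!
# Project G, piece G7-B0L: the Hecke inputs over an arbitrary algebraically closed field

For every algebraically closed field `L` with `[Algebra ℚ L]` (for instance `L = ℂ`):

* `PG_B0L_transcendental`   : `j` is transcendental over `L`;
* `PG_B0L_gen`              : `F_L = L(j(q^d) : d ∣ N)`;
* `PG_B0L_finiteDimensional`: `F_L` is finite over `L(j)` (base change `ℚ̄ → L` of S24 `DEG`);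
* `PG_B0L_hasPrincipalDivisors` : `HasPrincipalDivisors L F_L`;
* `PG_B0L_heckeInputsAlong` : `HeckeInputsAlong L N ℓ`.
-/

set_option autoImplicit false
set_option linter.style.haveILetI false
set_option linter.unusedSectionVars false

open AlgebraicCurve IntermediateField ModularCurve

noncomputable section

namespace Fermat.Agent.G_helper21_B0L

open Fermat.Agent.S24

section Abstract

/-- Algebraicity is transported along a commutative square of ring homomorphisms of fields. -/
theorem PG_B0L_isAlgebraic_of_map {E F E' Ω : Type*} [Field E] [Field F] [Field E'] [Field Ω]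
    [Algebra E F] [Algebra E' Ω] (Ψ : F →+* Ω) (ψ : E →+* E')
    (hcomm : ∀ e, Ψ (algebraMap E F e) = algebraMap E' Ω (ψ e)) {y : F}
    (hy : IsAlgebraic E y) : IsAlgebraic E' (Ψ y) := by
  obtain ⟨p, hp0, hp⟩ := hy
  refine ⟨p.map ψ, (Polynomial.map_ne_zero_iff ψ.injective).2 hp0, ?_⟩
  rw [Polynomial.aeval_def, Polynomial.eval₂_map]
  have h : (algebraMap E' Ω).comp ψ = Ψ.comp (algebraMap E F) :=
    RingHom.ext fun e => (hcomm e).symm
  rw [h, ← Polynomial.hom_eval₂, ← Polynomial.aeval_def, hp, map_zero]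

end Abstract

variable (L : Type*) [Field L] [Algebra ℚ L]

/-- The function field of `X₀(N)` over `L`. -/
abbrev PG_B0L_F (N : ℕ) : IntermediateField L (LaurentSeries L) :=
  laurentBaseChange L (modularFunctionFieldFull N)

/-- The formal series `j(q^d)` with coefficients in `L`. -/
def PG_B0L_jLaur (d : ℕ) [NeZero d] : LaurentSeries L :=
  coeffEmb L (qExpand ℚ d jq)

theorem PG_B0L_jLaur_mem (N : ℕ) {d : ℕ} [NeZero d] (hd : d ∣ N) :
    PG_B0L_jLaur L d ∈ PG_B0L_F L N :=
  coeffEmb_mem_laurentBaseChange L (jqd_mem_full N hd)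

/-- `j(q^d)` as an element of the function field over `L`. -/
def PG_B0L_jF (N d : ℕ) [NeZero d] (hd : d ∣ N) : PG_B0L_F L N :=
  ⟨PG_B0L_jLaur L d, PG_B0L_jLaur_mem L N hd⟩

/-- `j` as an element of the function field over `L`. -/
def PG_B0L_jElt (N : ℕ) : PG_B0L_F L N :=
  PG_B0L_jF L N 1 (one_dvd N)

@[simp]
theorem PG_B0L_coe_jF (N d : ℕ) [NeZero d] (hd : d ∣ N) :
    (PG_B0L_jF L N d hd : LaurentSeries L) = PG_B0L_jLaur L d := rfl

@[simp]
theorem PG_B0L_coe_jElt (N : ℕ) :
    (PG_B0L_jElt L N : LaurentSeries L) = PG_B0L_jLaur L 1 := rfl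

/-! ### Transcendence of `j` -/

theorem PG_B0L_coeff_pow_self (n : ℕ) :
    ((PG_B0L_jLaur L 1) ^ n).coeff (-(n : ℤ)) = 1 := by
  have h : (PG_B0L_jLaur L 1) ^ n = coeffEmb L (jq ^ n) := by
    rw [map_pow, PG_B0L_jLaur, qExpand_one_apply]
  rw [h, coeffEmb_coeff, coeff_jq_pow_self, map_one]

theorem PG_B0L_coeff_pow_of_lt {n : ℕ} {m : ℤ} (hm : m < -(n : ℤ)) :
    ((PG_B0L_jLaur L 1) ^ n).coeff m = 0 := by
  have h : (PG_B0L_jLaur L 1) ^ n = coeffEmb L (jq ^ n) := by
    rw [map_pow, PG_B0L_jLaur, qExpand_one_apply]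
  rw [h, coeffEmb_coeff, coeff_jq_pow_of_lt hm, map_zero]

/-- The leading Laurent coefficient of `P(j)` is the leading coefficient of `P`. -/
theorem PG_B0L_coeff_aeval (P : Polynomial L) :
    (Polynomial.aeval (PG_B0L_jLaur L 1) P).coeff (-(P.natDegree : ℤ)) = P.leadingCoeff := by
  rw [Polynomial.aeval_eq_sum_range, HahnSeries.coeff_sum]
  rw [Finset.sum_eq_single P.natDegree]
  · rw [Algebra.smul_def, algebraMap_laurentSeries_eq_single,
      HahnSeries.coeff_single_zero_mul, PG_B0L_coeff_pow_self, mul_one]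
    rfl
  · intro k hk hkn
    have hlt : k < P.natDegree :=
      lt_of_le_of_ne (Nat.lt_succ_iff.mp (Finset.mem_range.mp hk)) hkn
    rw [Algebra.smul_def, algebraMap_laurentSeries_eq_single,
      HahnSeries.coeff_single_zero_mul, PG_B0L_coeff_pow_of_lt L (by omega), mul_zero]
  · intro h
    exact absurd (Finset.mem_range.mpr (Nat.lt_succ_self _)) h

theorem PG_B0L_transcendental_jLaur : Transcendental L (PG_B0L_jLaur L 1) := by
  intro halg
  obtain ⟨P, hP0, hP⟩ := halg
  have h := PG_B0L_coeff_aeval L P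
  rw [hP, HahnSeries.coeff_zero] at h
  exact hP0 (Polynomial.leadingCoeff_eq_zero.mp h.symm)

/-- `j` is transcendental over `L`. -/
theorem PG_B0L_transcendental (N : ℕ) : Transcendental L (PG_B0L_jElt L N) := by
  intro halg
  apply PG_B0L_transcendental_jLaur L
  have := (IntermediateField.isAlgebraic_iff (S := PG_B0L_F L N)
    (x := PG_B0L_jElt L N)).mp halg
  exact this

/-! ### Generators -/

/-- The generating set `{j(q^d) : d ∣ N}` inside `L((q))`. -/
def PG_B0L_gens (N : ℕ) : Set (LaurentSeries L) :=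
  {x | ∃ (d : ℕ) (_ : NeZero d), d ∣ N ∧ x = PG_B0L_jLaur L d}

theorem PG_B0L_coeffEmb_algebraMap (c : ℚ) :
    coeffEmb L (algebraMap ℚ (LaurentSeries ℚ) c)
      = algebraMap L (LaurentSeries L) (algebraMap ℚ L c) := by
  rw [algebraMap_laurentSeries_eq_single, algebraMap_laurentSeries_eq_single, coeffEmb,
    coeffMap_single]

theorem PG_B0L_coeffEmb_mem_adjoin (N : ℕ) [NeZero N] {x : LaurentSeries ℚ}
    (hx : x ∈ modularFunctionFieldFull N) :
    coeffEmb L x ∈ IntermediateField.adjoin L (PG_B0L_gens L N) := by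
  unfold modularFunctionFieldFull at hx
  induction hx using IntermediateField.adjoin_induction with
  | mem y hy =>
    obtain ⟨d, hd0, hd, rfl⟩ := hy
    exact IntermediateField.subset_adjoin _ _ ⟨d, hd0, hd, rfl⟩
  | algebraMap c =>
    rw [PG_B0L_coeffEmb_algebraMap]
    exact IntermediateField.algebraMap_mem _ _
  | add x y hx hy h1 h2 =>
    rw [map_add]; exact add_mem h1 h2
  | inv x hx h =>
    rw [map_inv₀]; exact inv_mem h
  | mul x y hx hy h1 h2 =>
    rw [map_mul]; exact mul_mem h1 h2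

/-- The function field over `L` is generated by the `j(q^d)`, `d ∣ N`. -/
theorem PG_B0L_gen (N : ℕ) [NeZero N] :
    PG_B0L_F L N = IntermediateField.adjoin L (PG_B0L_gens L N) := by
  apply le_antisymm
  · show laurentBaseChange L (modularFunctionFieldFull N) ≤ _
    unfold laurentBaseChange
    rw [IntermediateField.adjoin_le_iff]
    rintro _ ⟨x, hx, rfl⟩
    exact PG_B0L_coeffEmb_mem_adjoin L N hx
  · rw [IntermediateField.adjoin_le_iff]
    rintro _ ⟨d, hd0, hd, rfl⟩
    exact PG_B0L_jLaur_mem L N hd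

theorem PG_B0L_gens_finite (N : ℕ) [NeZero N] : (PG_B0L_gens L N).Finite := by
  classical
  refine Set.Finite.subset
    ((N.divisors.image fun d => if h : d = 0 then 0 else
      haveI : NeZero d := ⟨h⟩; PG_B0L_jLaur L d).finite_toSet) ?_
  rintro _ ⟨d, hd0, hd, rfl⟩
  simp only [Finset.coe_image, Set.mem_image, Finset.mem_coe, Nat.mem_divisors]
  exact ⟨d, ⟨hd, NeZero.ne N⟩, by rw [dif_neg (NeZero.ne d)]⟩

/-- The generators as elements of the function field. -/
def PG_B0L_gensF (N : ℕ) : Set (PG_B0L_F L N) :=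
  {x | (x : LaurentSeries L) ∈ PG_B0L_gens L N}

theorem PG_B0L_gensF_finite (N : ℕ) [NeZero N] : (PG_B0L_gensF L N).Finite :=
  (PG_B0L_gens_finite L N).preimage Subtype.val_injective.injOn

/-- `F_L` is generated over `L(j)` by the `j(q^d)`, `d ∣ N`. -/
theorem PG_B0L_adjoin_gensF (N : ℕ) [NeZero N] :
    IntermediateField.adjoin L⟮PG_B0L_jElt L N⟯ (PG_B0L_gensF L N) = ⊤ := by
  rw [eq_top_iff]
  rintro x -
  let T : IntermediateField L (LaurentSeries L) :=
    Subfield.toIntermediateField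
      ((IntermediateField.adjoin L⟮PG_B0L_jElt L N⟯ (PG_B0L_gensF L N)).toSubfield.map
        (PG_B0L_F L N).val.toRingHom) (by
      intro a
      refine ⟨algebraMap L _ a, ?_, rfl⟩
      have hmem : algebraMap L (PG_B0L_F L N) a ∈ L⟮PG_B0L_jElt L N⟯ :=
        IntermediateField.algebraMap_mem _ a
      have h : algebraMap L (PG_B0L_F L N) a =
          algebraMap L⟮PG_B0L_jElt L N⟯ (PG_B0L_F L N) ⟨_, hmem⟩ := rfl
      rw [h]
      exact IntermediateField.algebraMap_mem _ _)
  have hle : PG_B0L_F L N ≤ T := by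
    rw [PG_B0L_gen, IntermediateField.adjoin_le_iff]
    rintro y hy
    have hy' : y ∈ PG_B0L_F L N := by
      rw [PG_B0L_gen]; exact IntermediateField.subset_adjoin _ _ hy
    exact ⟨⟨y, hy'⟩, IntermediateField.subset_adjoin _ _ hy, rfl⟩
  obtain ⟨y, hy, hyx⟩ := hle x.2
  have hxy : y = x := Subtype.ext hyx
  rw [← hxy]
  exact hy

/-! ### Base change from `ℚ̄` -/

section BaseChange

variable [IsAlgClosed L]

/-- An embedding `ℚ̄ → L`. -/
def PG_B0L_emb : Kbar →ₐ[ℚ] L :=
  letI : Algebra.IsAlgebraic ℚ (AlgebraicClosure ℚ) := AlgebraicClosure.isAlgebraic ℚ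
  IsAlgClosed.lift

theorem PG_B0L_coeffMap_emb_coeffEmb (x : LaurentSeries ℚ) :
    coeffMap (PG_B0L_emb L : Kbar →+* L) (coeffEmb Kbar x) = coeffEmb L x := by
  rw [coeffEmb, coeffMap_coeffMap]
  exact coeffMap_congr (RingHom.ext fun c => (PG_B0L_emb L).commutes c) x

theorem PG_B0L_coeffMap_emb_mem (N : ℕ) {x : LaurentSeries Kbar}
    (hx : x ∈ modularFunctionFieldBar N) :
    coeffMap (PG_B0L_emb L : Kbar →+* L) x ∈ PG_B0L_F L N := by
  rw [mem_laurentBaseChange_iff] at hx
  induction hx using Subfield.closure_induction with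
  | mem y hy =>
      rcases hy with ⟨a, rfl⟩ | ⟨z, hz, rfl⟩
      · rw [algebraMap_laurentSeries_eq_single, coeffMap_single,
          ← algebraMap_laurentSeries_eq_single]
        exact (PG_B0L_F L N).algebraMap_mem _
      · rw [PG_B0L_coeffMap_emb_coeffEmb]
        exact coeffEmb_mem_laurentBaseChange L hz
  | one => simp
  | add x y _ _ hx hy => simpa using add_mem hx hy
  | neg x _ hx => simpa using neg_mem hx
  | inv x _ hx => simpa using inv_mem hx
  | mul x y _ _ hx hy => simpa using mul_mem hx hy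

/-- The base change map `F_{ℚ̄} → F_L`. -/
def PG_B0L_bc (N : ℕ) : modularFunctionFieldBar N →+* PG_B0L_F L N where
  toFun x := ⟨coeffMap (PG_B0L_emb L : Kbar →+* L) (x : LaurentSeries Kbar),
    PG_B0L_coeffMap_emb_mem L N x.2⟩
  map_one' := Subtype.ext (map_one _)
  map_mul' _ _ := Subtype.ext (map_mul _ _ _)
  map_zero' := Subtype.ext (map_zero _)
  map_add' _ _ := Subtype.ext (map_add _ _ _)

@[simp]
theorem PG_B0L_coe_bc (N : ℕ) (x : modularFunctionFieldBar N) :
    (PG_B0L_bc L N x : LaurentSeries L) =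
      coeffMap (PG_B0L_emb L : Kbar →+* L) (x : LaurentSeries Kbar) := rfl

theorem PG_B0L_bc_jF (N d : ℕ) [NeZero d] (hd : d ∣ N) :
    PG_B0L_bc L N (jF N d hd) = PG_B0L_jF L N d hd :=
  Subtype.ext (PG_B0L_coeffMap_emb_coeffEmb L _)

theorem PG_B0L_bc_jElt (N : ℕ) : PG_B0L_bc L N (jElt N) = PG_B0L_jElt L N :=
  PG_B0L_bc_jF L N 1 (one_dvd N)

theorem PG_B0L_bc_algebraMap (N : ℕ) (a : Kbar) :
    PG_B0L_bc L N (algebraMap Kbar _ a) = algebraMap L _ (PG_B0L_emb L a) := by
  apply Subtype.ext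
  show coeffMap (PG_B0L_emb L : Kbar →+* L) (algebraMap Kbar (LaurentSeries Kbar) a) =
    algebraMap L (LaurentSeries L) (PG_B0L_emb L a)
  rw [algebraMap_laurentSeries_eq_single, coeffMap_single, ← algebraMap_laurentSeries_eq_single]
  rfl

theorem PG_B0L_bc_mem (N : ℕ) {x : modularFunctionFieldBar N} (hx : x ∈ Kbar⟮jElt N⟯) :
    PG_B0L_bc L N x ∈ L⟮PG_B0L_jElt L N⟯ := by
  induction hx using IntermediateField.adjoin_induction with
  | mem y hy =>
    rw [Set.mem_singleton_iff] at hy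
    subst hy
    rw [PG_B0L_bc_jElt]
    exact IntermediateField.mem_adjoin_simple_self L _
  | algebraMap a =>
    rw [PG_B0L_bc_algebraMap]
    exact IntermediateField.algebraMap_mem _ _
  | add x y hx hy h1 h2 =>
    rw [map_add]; exact add_mem h1 h2
  | inv x hx h =>
    rw [map_inv₀]; exact inv_mem h
  | mul x y hx hy h1 h2 =>
    rw [map_mul]; exact mul_mem h1 h2

/-- The base change map on `ℚ̄(j) → L(j)`. -/
def PG_B0L_bcj (N : ℕ) : Kbar⟮jElt N⟯ →+* L⟮PG_B0L_jElt L N⟯ :=
  RingHom.codRestrict ((PG_B0L_bc L N).comp (algebraMap Kbar⟮jElt N⟯ _))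
    (L⟮PG_B0L_jElt L N⟯) (fun e => PG_B0L_bc_mem L N e.2)

/-- Every generator `j(q^d)` is algebraic over `L(j)`. -/
theorem PG_B0L_isAlgebraic_jF (N d : ℕ) [NeZero N] [NeZero d] (hd : d ∣ N) :
    IsAlgebraic L⟮PG_B0L_jElt L N⟯ (PG_B0L_jF L N d hd) := by
  haveI := (Fermat.Agent.S24_helper23_DEG.DEG N).1
  haveI : Algebra.IsAlgebraic Kbar⟮jElt N⟯ (modularFunctionFieldBar N) :=
    Algebra.IsAlgebraic.of_finite _ _
  have halg : IsAlgebraic Kbar⟮jElt N⟯ (jF N d hd) :=
    Algebra.IsAlgebraic.isAlgebraic _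
  have h := PG_B0L_isAlgebraic_of_map (PG_B0L_bc L N) (PG_B0L_bcj L N) (fun e => rfl) halg
  rwa [PG_B0L_bc_jF] at h

/-- `F_L` is finite over `L(j)`. -/
theorem PG_B0L_finiteDimensional (N : ℕ) [NeZero N] :
    FiniteDimensional L⟮PG_B0L_jElt L N⟯ (PG_B0L_F L N) := by
  haveI : Finite (PG_B0L_gensF L N) := (PG_B0L_gensF_finite L N).to_subtype
  have h := IntermediateField.finiteDimensional_adjoin (K := L⟮PG_B0L_jElt L N⟯)
    (S := PG_B0L_gensF L N) (fun x hx => by
      obtain ⟨d, hd0, hd, hx'⟩ := hx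
      have hx'' : x = PG_B0L_jF L N d hd := Subtype.ext hx'
      rw [hx'']
      exact (PG_B0L_isAlgebraic_jF L N d hd).isIntegral)
  rw [PG_B0L_adjoin_gensF] at h
  exact Module.Finite.equiv
    (IntermediateField.topEquiv (F := L⟮PG_B0L_jElt L N⟯) (E := PG_B0L_F L N)).toLinearEquiv

/-! ### The Hecke inputs over `L` -/

theorem PG_B0L_charZero : CharZero L := algebraRat.charZero L

/-- `HasPrincipalDivisors` for the function field of `X₀(N)` over `L`. -/
theorem PG_B0L_hasPrincipalDivisors (N : ℕ) [NeZero N] :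
    HasPrincipalDivisors L (laurentBaseChange L (modularFunctionFieldFull N)) := by
  haveI := PG_B0L_charZero L
  haveI := PG_B0L_finiteDimensional L N
  exact Fermat.Agent.S24_helper6_A2Shapes.hasPrincipalDivisors' (PG_B0L_jElt L N)
    (PG_B0L_transcendental L N)

variable (N ℓ : ℕ) [NeZero N] [NeZero ℓ]

theorem PG_B0L_finiteAlong_alpha : FiniteAlong L (heckeAlphaBar L N ℓ) := by
  haveI := PG_B0L_charZero L
  haveI := PG_B0L_finiteDimensional L (N * ℓ)
  exact Fermat.Agent.S37_helper21_B0c.S37B0_finiteAlong (heckeAlphaBar L N ℓ) (PG_B0L_jElt L N)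
    (PG_B0L_transcendental L N) (PG_B0L_jElt L (N * ℓ)) (PG_B0L_transcendental L (N * ℓ))

theorem PG_B0L_finiteAlong_beta : FiniteAlong L (heckeBetaBar L N ℓ) := by
  haveI := PG_B0L_charZero L
  haveI := PG_B0L_finiteDimensional L (N * ℓ)
  exact Fermat.Agent.S37_helper21_B0c.S37B0_finiteAlong (heckeBetaBar L N ℓ) (PG_B0L_jElt L N)
    (PG_B0L_transcendental L N) (PG_B0L_jElt L (N * ℓ)) (PG_B0L_transcendental L (N * ℓ))

theorem PG_B0L_heckeAlphaBarIntegral : HeckeAlphaBarIntegral L N ℓ :=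
  Fermat.Agent.S37_helper21_B0c.S37B0_isIntegral_of_finiteAlong _ (PG_B0L_finiteAlong_alpha L N ℓ)

theorem PG_B0L_heckeBetaBarIntegral : HeckeBetaBarIntegral L N ℓ :=
  Fermat.Agent.S37_helper21_B0c.S37B0_isIntegral_of_finiteAlong _ (PG_B0L_finiteAlong_beta L N ℓ)

/-- **B0 over `L`.** The inputs of the Hecke correspondence hold over every algebraically
closed field `L` of characteristic zero. -/
theorem PG_B0L_heckeInputsAlong : HeckeInputsAlong L N ℓ := by
  haveI := PG_B0L_charZero L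
  haveI hP : HasPrincipalDivisors L (laurentBaseChange L (modularFunctionFieldFull (N * ℓ))) :=
    PG_B0L_hasPrincipalDivisors L (N * ℓ)
  haveI hfN : FiniteDimensional L⟮PG_B0L_jElt L N⟯ (PG_B0L_F L N) :=
    PG_B0L_finiteDimensional L N
  refine heckeInputsAlong_intro (PG_B0L_heckeAlphaBarIntegral L N ℓ)
    (PG_B0L_heckeBetaBarIntegral L N ℓ) ?_ (PG_B0L_finiteAlong_alpha L N ℓ) ?_
  · -- fundamental identity along `β`
    letI := algebraAlong (heckeBetaBar L N ℓ)
    haveI := isScalarTower_along (heckeBetaBar L N ℓ)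
    haveI : FiniteDimensional (laurentBaseChange L (modularFunctionFieldFull N))
        (laurentBaseChange L (modularFunctionFieldFull (N * ℓ))) :=
      PG_B0L_finiteAlong_beta L N ℓ
    haveI : SumRamificationInertia L (laurentBaseChange L (modularFunctionFieldFull N))
        (laurentBaseChange L (modularFunctionFieldFull (N * ℓ))) :=
      Fermat.Agent.S37_helper2_SUMEF.S37B0_sumRamificationInertia L _ _ (PG_B0L_jElt L N)
        (PG_B0L_transcendental L N)
    show FundamentalIdentity L (laurentBaseChange L (modularFunctionFieldFull N))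
      (laurentBaseChange L (modularFunctionFieldFull (N * ℓ)))
    infer_instance
  · -- norm formula along `α`
    letI := algebraAlong (heckeAlphaBar L N ℓ)
    haveI := isScalarTower_along (heckeAlphaBar L N ℓ)
    haveI : FiniteDimensional (laurentBaseChange L (modularFunctionFieldFull N))
        (laurentBaseChange L (modularFunctionFieldFull (N * ℓ))) :=
      PG_B0L_finiteAlong_alpha L N ℓ
    exact Fermat.Agent.S37_helper11_NORM.S37B0_pushforwardNormFormula L _ _ (PG_B0L_jElt L N)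
      (PG_B0L_transcendental L N)

/-- Consequently the prelude Hecke operator over `L` is the honest correspondence. -/
theorem PG_B0L_heckeOperatorAlong_eq :
    heckeOperatorAlong L N ℓ =
      haveI := (PG_B0L_heckeInputsAlong L N ℓ).snd.snd.fst
      heckePic0Bar (PG_B0L_heckeInputsAlong L N ℓ).fst (PG_B0L_heckeInputsAlong L N ℓ).snd.fst
        (PG_B0L_heckeInputsAlong L N ℓ).snd.snd.snd.snd.1
        (PG_B0L_heckeInputsAlong L N ℓ).snd.snd.snd.fst
        (PG_B0L_heckeInputsAlong L N ℓ).snd.snd.snd.snd.2 := by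
  rw [heckeOperatorAlong, dif_pos (PG_B0L_heckeInputsAlong L N ℓ)]

end BaseChange

end Fermat.Agent.G_helper21_B0L
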