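import Mathlib
import Fermat.Prelude.Def_ModularForm_HeckeOperator
import Fermat.Agent.G_helper6_Defs

/-!
# Project G, piece G1b (part C): explicit coset representatives

For `ℓ` prime, `ℓ ∤ N`, and a Bezout relation `ℓ u + N v = 1`:

* `PG_G1b_tau i`, `i : Option (Fin ℓ)`: representatives of the left cosets of
  `PG_H N ℓ` in `Gamma0 N`;
* `PG_G1b_equiv : Option (Fin ℓ) ≃ Gamma0 N ⧸ PG_H N ℓ`;
* `PG_G1b_heckeMatrix_mul`: `heckeMatrix ℓ j * τ_j = g * heckeDiagMatrix ℓ` in `GL (Fin 2) ℝ`;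
* `PG_G1b_diag_mul`: `heckeDiagMatrix ℓ * h = conj h * heckeDiagMatrix ℓ` for `h ∈ PG_H N ℓ`.
-/

set_option autoImplicit false

open CongruenceSubgroup ModularForm
open scoped MatrixGroups

namespace Fermat.Agent.G_helper23_G1bC

open Fermat.Agent.G_helper6_Defs

/-- The coset criterion: `γ⁻¹ γ' ∈ Gamma0 (N ℓ)` iff `ℓ ∣ a c' - c a'`. -/
theorem PG_G1b_inv_mul_mem {N ℓ : ℕ} (hco : IsCoprime (ℓ : ℤ) (N : ℤ)) (γ γ' : Gamma0 N) :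
    γ⁻¹ * γ' ∈ PG_H N ℓ ↔
      (ℓ : ℤ) ∣ (γ : SL(2, ℤ)) 0 0 * (γ' : SL(2, ℤ)) 1 0 -
        (γ : SL(2, ℤ)) 1 0 * (γ' : SL(2, ℤ)) 0 0 := by
  rw [PG_mem_H]
  have hγ : (N : ℤ) ∣ (γ : SL(2, ℤ)) 1 0 := by
    have := γ.2
    rw [Gamma0_mem, ZMod.intCast_zmod_eq_zero_iff_dvd] at this
    exact this
  have hγ' : (N : ℤ) ∣ (γ' : SL(2, ℤ)) 1 0 := by
    have := γ'.2
    rw [Gamma0_mem, ZMod.intCast_zmod_eq_zero_iff_dvd] at this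
    exact this
  have e : (((γ⁻¹ * γ' : Gamma0 N) : SL(2, ℤ)) 1 0 : ℤ) =
      (γ : SL(2, ℤ)) 0 0 * (γ' : SL(2, ℤ)) 1 0 - (γ : SL(2, ℤ)) 1 0 * (γ' : SL(2, ℤ)) 0 0 := by
    rw [Subgroup.coe_mul, Subgroup.coe_inv, Matrix.SpecialLinearGroup.coe_mul,
      Matrix.SpecialLinearGroup.coe_inv, Matrix.adjugate_fin_two, Matrix.mul_apply,
      Fin.sum_univ_two]
    simp only [Matrix.of_apply, Matrix.cons_val', Matrix.cons_val_zero, Matrix.cons_val_one,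
      Matrix.cons_val_fin_one]
    ring
  rw [e]
  push_cast
  constructor
  · intro h
    exact Dvd.dvd.trans (dvd_mul_left _ _) h
  · intro h
    rw [mul_comm]
    exact hco.mul_dvd h (dvd_sub (Dvd.dvd.mul_left hγ' _) (Dvd.dvd.mul_right hγ _))

/-! ### The representatives -/

section Reps

variable (N ℓ : ℕ) (u v : ℤ)

/-- `τ_j = !![ℓ - j N, -v - j u; N, u]`. -/
def PG_G1b_tauMat (j : ℕ) : Matrix (Fin 2) (Fin 2) ℤ :=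
  !![(ℓ : ℤ) - j * N, -v - j * u; (N : ℤ), u]

theorem PG_G1b_tauMat_det (huv : (ℓ : ℤ) * u + (N : ℤ) * v = 1) (j : ℕ) :
    (PG_G1b_tauMat N ℓ u v j).det = 1 := by
  rw [PG_G1b_tauMat, Matrix.det_fin_two_of]
  linear_combination huv

/-- `τ_j` in `SL(2, ℤ)`. -/
def PG_G1b_tauSL (huv : (ℓ : ℤ) * u + (N : ℤ) * v = 1) (j : ℕ) : SL(2, ℤ) :=
  ⟨PG_G1b_tauMat N ℓ u v j, PG_G1b_tauMat_det N ℓ u v huv j⟩

theorem PG_G1b_tauSL_mem (huv : (ℓ : ℤ) * u + (N : ℤ) * v = 1) (j : ℕ) :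
    PG_G1b_tauSL N ℓ u v huv j ∈ Gamma0 N := by
  rw [Gamma0_mem]
  show (((PG_G1b_tauMat N ℓ u v j) 1 0 : ℤ) : ZMod N) = 0
  simp [PG_G1b_tauMat]

/-- The left coset representatives `τ_i`, `i : Option (Fin ℓ)`: `τ_∞ = 1`. -/
def PG_G1b_tau (huv : (ℓ : ℤ) * u + (N : ℤ) * v = 1) : Option (Fin ℓ) → Gamma0 N
  | none => 1
  | some j => ⟨PG_G1b_tauSL N ℓ u v huv j, PG_G1b_tauSL_mem N ℓ u v huv j⟩

theorem PG_G1b_tau_none (huv : (ℓ : ℤ) * u + (N : ℤ) * v = 1) :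
    PG_G1b_tau N ℓ u v huv none = 1 := rfl

theorem PG_G1b_tau_some_00 (huv : (ℓ : ℤ) * u + (N : ℤ) * v = 1) (j : Fin ℓ) :
    ((PG_G1b_tau N ℓ u v huv (some j) : Gamma0 N) : SL(2, ℤ)) 0 0 = (ℓ : ℤ) - (j : ℕ) * N := rfl

theorem PG_G1b_tau_some_10 (huv : (ℓ : ℤ) * u + (N : ℤ) * v = 1) (j : Fin ℓ) :
    ((PG_G1b_tau N ℓ u v huv (some j) : Gamma0 N) : SL(2, ℤ)) 1 0 = (N : ℤ) := rfl

/-- `g = !![1, -v; N, ℓ u]`. -/
def PG_G1b_gMat : Matrix (Fin 2) (Fin 2) ℤ :=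
  !![1, -v; (N : ℤ), (ℓ : ℤ) * u]

theorem PG_G1b_gMat_det (huv : (ℓ : ℤ) * u + (N : ℤ) * v = 1) :
    (PG_G1b_gMat N ℓ u v).det = 1 := by
  rw [PG_G1b_gMat, Matrix.det_fin_two_of]
  linear_combination huv

/-- `g` in `SL(2, ℤ)`. -/
def PG_G1b_gSL (huv : (ℓ : ℤ) * u + (N : ℤ) * v = 1) : SL(2, ℤ) :=
  ⟨PG_G1b_gMat N ℓ u v, PG_G1b_gMat_det N ℓ u v huv⟩

theorem PG_G1b_gSL_mem (huv : (ℓ : ℤ) * u + (N : ℤ) * v = 1) :
    PG_G1b_gSL N ℓ u v huv ∈ Gamma0 N := by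
  rw [Gamma0_mem]
  show (((PG_G1b_gMat N ℓ u v) 1 0 : ℤ) : ZMod N) = 0
  simp [PG_G1b_gMat]

/-- `g` in `Gamma0 N`. -/
def PG_G1b_g (huv : (ℓ : ℤ) * u + (N : ℤ) * v = 1) : Gamma0 N :=
  ⟨PG_G1b_gSL N ℓ u v huv, PG_G1b_gSL_mem N ℓ u v huv⟩

end Reps

/-! ### Bijectivity -/

section Bij

variable {N ℓ : ℕ} {u v : ℤ}

theorem PG_G1b_coprime (huv : (ℓ : ℤ) * u + (N : ℤ) * v = 1) : IsCoprime (ℓ : ℤ) (N : ℤ) :=
  ⟨u, v, by linear_combination huv⟩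

theorem PG_G1b_not_dvd_N (hℓ : ℓ.Prime) (huv : (ℓ : ℤ) * u + (N : ℤ) * v = 1) :
    ¬ (ℓ : ℤ) ∣ (N : ℤ) := by
  intro h
  have h1 : (ℓ : ℤ) ∣ 1 := by
    rw [← huv]
    exact dvd_add (dvd_mul_right _ _) (Dvd.dvd.mul_right h _)
  have h2 : (ℓ : ℤ) = 1 := by
    have := Int.eq_one_of_dvd_one (by positivity) h1
    exact this
  have : ℓ = 1 := by exact_mod_cast h2
  exact hℓ.one_lt.ne' this

theorem PG_G1b_tau_injective (hℓ : ℓ.Prime) (huv : (ℓ : ℤ) * u + (N : ℤ) * v = 1) :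
    Function.Injective
      (fun i : Option (Fin ℓ) => ((PG_G1b_tau N ℓ u v huv i : Gamma0 N) : Gamma0 N ⧸ PG_H N ℓ)) := by
  have hco := PG_G1b_coprime huv
  have hN := PG_G1b_not_dvd_N hℓ huv
  have hpr : Prime (ℓ : ℤ) := Nat.prime_iff_prime_int.mp hℓ
  intro i j hij
  simp only at hij
  rw [QuotientGroup.eq, PG_G1b_inv_mul_mem hco] at hij
  rcases i with _ | i <;> rcases j with _ | j
  · rfl
  · exfalso
    rw [PG_G1b_tau_none, PG_G1b_tau_some_00, PG_G1b_tau_some_10] at hij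
    simp only [OneMemClass.coe_one, Matrix.SpecialLinearGroup.coe_one, Matrix.one_apply_eq,
      one_mul, ne_eq, one_ne_zero, not_false_eq_true, Matrix.one_apply_ne, zero_mul, sub_zero]
      at hij
    exact hN hij
  · exfalso
    rw [PG_G1b_tau_none, PG_G1b_tau_some_00, PG_G1b_tau_some_10] at hij
    simp only [OneMemClass.coe_one, Matrix.SpecialLinearGroup.coe_one, Matrix.one_apply_eq,
      mul_one, ne_eq, one_ne_zero, not_false_eq_true, Matrix.one_apply_ne, mul_zero, zero_sub,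
      dvd_neg] at hij
    exact hN hij
  · rw [PG_G1b_tau_some_00, PG_G1b_tau_some_10, PG_G1b_tau_some_00, PG_G1b_tau_some_10] at hij
    have h1 : (ℓ : ℤ) ∣ (N : ℤ) * ((N : ℤ) * (((j : ℕ) : ℤ) - ((i : ℕ) : ℤ))) := by
      have e : ((ℓ : ℤ) - ((i : ℕ) : ℤ) * N) * N - N * ((ℓ : ℤ) - ((j : ℕ) : ℤ) * N) =
          (N : ℤ) * ((N : ℤ) * (((j : ℕ) : ℤ) - ((i : ℕ) : ℤ))) := by ring
      rw [← e]
      exact hij
    have h2 : (ℓ : ℤ) ∣ ((j : ℕ) : ℤ) - ((i : ℕ) : ℤ) := by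
      rcases hpr.dvd_or_dvd h1 with h | h
      · exact absurd h hN
      · rcases hpr.dvd_or_dvd h with h | h
        · exact absurd h hN
        · exact h
    have h3 : ((j : ℕ) : ℤ) ≡ ((i : ℕ) : ℤ) [ZMOD (ℓ : ℤ)] :=
      (Int.modEq_iff_dvd.mpr (by rw [← dvd_neg, neg_sub]; exact h2))
    have h4 : (j : ℕ) ≡ (i : ℕ) [MOD ℓ] := Int.natCast_modEq_iff.mp h3
    have h5 : (j : ℕ) = (i : ℕ) := Nat.ModEq.eq_of_lt_of_lt h4 j.2 i.2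
    rw [Fin.ext h5.symm]

theorem PG_G1b_tau_surjective (hℓ : ℓ.Prime) (huv : (ℓ : ℤ) * u + (N : ℤ) * v = 1) :
    Function.Surjective
      (fun i : Option (Fin ℓ) => ((PG_G1b_tau N ℓ u v huv i : Gamma0 N) : Gamma0 N ⧸ PG_H N ℓ)) := by
  have hco := PG_G1b_coprime huv
  have hN := PG_G1b_not_dvd_N hℓ huv
  have hpr : Prime (ℓ : ℤ) := Nat.prime_iff_prime_int.mp hℓ
  have : Fact ℓ.Prime := ⟨hℓ⟩
  have : NeZero ℓ := ⟨hℓ.ne_zero⟩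
  intro q
  obtain ⟨γ, rfl⟩ := QuotientGroup.mk_surjective q
  by_cases hc : (ℓ : ℤ) ∣ (γ : SL(2, ℤ)) 1 0
  · refine ⟨none, ?_⟩
    simp only
    rw [QuotientGroup.eq, PG_G1b_inv_mul_mem hco, PG_G1b_tau_none]
    simp only [OneMemClass.coe_one, Matrix.SpecialLinearGroup.coe_one, Matrix.one_apply_eq,
      one_mul, ne_eq, one_ne_zero, not_false_eq_true, Matrix.one_apply_ne, zero_mul, sub_zero]
    exact hc
  · -- `j ≡ - a / c mod ℓ`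
    set a : ℤ := (γ : SL(2, ℤ)) 0 0 with ha
    set c : ℤ := (γ : SL(2, ℤ)) 1 0 with hc'
    have hcz : (c : ZMod ℓ) ≠ 0 := by
      rw [Ne, ZMod.intCast_zmod_eq_zero_iff_dvd]
      exact hc
    obtain ⟨c', hcN⟩ : (N : ℤ) ∣ c := by
      have := γ.2
      rw [Gamma0_mem, ZMod.intCast_zmod_eq_zero_iff_dvd] at this
      exact this
    have hNz : ((N : ℤ) : ZMod ℓ) ≠ 0 := by
      rw [Ne, ZMod.intCast_zmod_eq_zero_iff_dvd]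
      exact hN
    have hc'z : ((c' : ℤ) : ZMod ℓ) ≠ 0 := by
      intro h
      apply hcz
      rw [hcN]
      push_cast
      rw [h, mul_zero]
    -- need ℓ ∣ (ℓ - j N) c - N a, i.e. j c' N + a ≡ 0, i.e. j ≡ - a / (c' N)... 
    set jz : ZMod ℓ := - (a : ZMod ℓ) * ((c : ZMod ℓ))⁻¹ with hjz
    refine ⟨some ⟨jz.val, ZMod.val_lt jz⟩, ?_⟩
    simp only
    rw [QuotientGroup.eq, PG_G1b_inv_mul_mem hco, PG_G1b_tau_some_00, PG_G1b_tau_some_10]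
    rw [← ZMod.intCast_zmod_eq_zero_iff_dvd]
    push_cast
    rw [ZMod.natCast_self, ZMod.natCast_zmod_val, ← ha, ← hc', hjz]
    field_simp
    ring

/-- The left cosets of `Gamma0 (N ℓ)` in `Gamma0 N` are indexed by `Option (Fin ℓ)`. -/
noncomputable def PG_G1b_equiv (hℓ : ℓ.Prime) (huv : (ℓ : ℤ) * u + (N : ℤ) * v = 1) :
    Option (Fin ℓ) ≃ Gamma0 N ⧸ PG_H N ℓ :=
  Equiv.ofBijective _ ⟨PG_G1b_tau_injective hℓ huv, PG_G1b_tau_surjective hℓ huv⟩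

theorem PG_G1b_equiv_apply (hℓ : ℓ.Prime) (huv : (ℓ : ℤ) * u + (N : ℤ) * v = 1)
    (i : Option (Fin ℓ)) :
    ((PG_G1b_tau N ℓ u v huv i : Gamma0 N) : Gamma0 N ⧸ PG_H N ℓ) = PG_G1b_equiv hℓ huv i := rfl

theorem PG_G1b_finiteIndex (hℓ : ℓ.Prime) (huv : (ℓ : ℤ) * u + (N : ℤ) * v = 1) :
    (PG_H N ℓ).FiniteIndex := by
  have : Finite (Gamma0 N ⧸ PG_H N ℓ) := Finite.of_equiv _ (PG_G1b_equiv hℓ huv)
  exact Subgroup.finiteIndex_of_finite_quotient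

theorem PG_G1b_exists_bezout {N ℓ : ℕ} (hℓ : ℓ.Prime) (hℓN : ¬ ℓ ∣ N) :
    ∃ u v : ℤ, (ℓ : ℤ) * u + (N : ℤ) * v = 1 := by
  have h : IsCoprime (ℓ : ℤ) (N : ℤ) := by
    rw [Int.isCoprime_iff_gcd_eq_one, Int.gcd_natCast_natCast]
    exact (Nat.Prime.coprime_iff_not_dvd hℓ).mpr hℓN
  obtain ⟨u, v, h⟩ := h
  exact ⟨u, v, by linear_combination h⟩

end Bij

/-! ### Relations in `GL (Fin 2) ℝ` -/

section Real

variable {N ℓ : ℕ} {u v : ℤ}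

theorem PG_G1b_mapGL_val (γ : SL(2, ℤ)) :
    ((Matrix.SpecialLinearGroup.mapGL ℝ γ : GL (Fin 2) ℝ) : Matrix (Fin 2) (Fin 2) ℝ) =
      !![((γ 0 0 : ℤ) : ℝ), ((γ 0 1 : ℤ) : ℝ); ((γ 1 0 : ℤ) : ℝ), ((γ 1 1 : ℤ) : ℝ)] := by
  rw [Matrix.SpecialLinearGroup.mapGL_coe_matrix]
  ext i j
  fin_cases i <;> fin_cases j <;> simp

/-- `heckeMatrix ℓ j * τ_j = g * heckeDiagMatrix ℓ`. -/
theorem PG_G1b_heckeMatrix_mul (hℓ : ℓ ≠ 0) (huv : (ℓ : ℤ) * u + (N : ℤ) * v = 1) (j : Fin ℓ) :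
    heckeMatrix ℓ j *
        Matrix.SpecialLinearGroup.mapGL ℝ ((PG_G1b_tau N ℓ u v huv (some j) : Gamma0 N) : SL(2, ℤ)) =
      Matrix.SpecialLinearGroup.mapGL ℝ ((PG_G1b_g N ℓ u v huv : Gamma0 N) : SL(2, ℤ)) *
        heckeDiagMatrix ℓ := by
  apply Units.ext
  rw [Units.val_mul, Units.val_mul, val_heckeMatrix hℓ, val_heckeDiagMatrix hℓ,
    PG_G1b_mapGL_val, PG_G1b_mapGL_val]
  have e1 : ((PG_G1b_tau N ℓ u v huv (some j) : Gamma0 N) : SL(2, ℤ)) 0 0 =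
      (ℓ : ℤ) - (j : ℕ) * N := rfl
  have e2 : ((PG_G1b_tau N ℓ u v huv (some j) : Gamma0 N) : SL(2, ℤ)) 0 1 =
      -v - (j : ℕ) * u := rfl
  have e3 : ((PG_G1b_tau N ℓ u v huv (some j) : Gamma0 N) : SL(2, ℤ)) 1 0 = (N : ℤ) := rfl
  have e4 : ((PG_G1b_tau N ℓ u v huv (some j) : Gamma0 N) : SL(2, ℤ)) 1 1 = u := rfl
  have g1 : ((PG_G1b_g N ℓ u v huv : Gamma0 N) : SL(2, ℤ)) 0 0 = 1 := rfl
  have g2 : ((PG_G1b_g N ℓ u v huv : Gamma0 N) : SL(2, ℤ)) 0 1 = -v := rfl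
  have g3 : ((PG_G1b_g N ℓ u v huv : Gamma0 N) : SL(2, ℤ)) 1 0 = (N : ℤ) := rfl
  have g4 : ((PG_G1b_g N ℓ u v huv : Gamma0 N) : SL(2, ℤ)) 1 1 = (ℓ : ℤ) * u := rfl
  rw [e1, e2, e3, e4, g1, g2, g3, g4]
  ext a b
  fin_cases a <;> fin_cases b <;>
    simp [Matrix.mul_apply, Fin.sum_univ_two] <;> ring

/-- `heckeDiagMatrix ℓ * h = (δ h δ⁻¹) * heckeDiagMatrix ℓ` for `h ∈ Gamma0 (N ℓ)`. -/
theorem PG_G1b_diag_mul [NeZero ℓ] (h : ↥(PG_H N ℓ)) :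
    heckeDiagMatrix ℓ *
        Matrix.SpecialLinearGroup.mapGL ℝ (((h : Gamma0 N) : SL(2, ℤ))) =
      Matrix.SpecialLinearGroup.mapGL ℝ ((PG_conj N ℓ h : Gamma0 N) : SL(2, ℤ)) *
        heckeDiagMatrix ℓ := by
  have hℓ : ℓ ≠ 0 := NeZero.ne ℓ
  have hℓ0 : (ℓ : ℤ) ≠ 0 := by exact_mod_cast hℓ
  apply Units.ext
  rw [Units.val_mul, Units.val_mul, val_heckeDiagMatrix hℓ, PG_G1b_mapGL_val, PG_G1b_mapGL_val]
  obtain ⟨c, hc⟩ := PG_dvd_of_mem_H h.2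
  have e1 : ((PG_conj N ℓ h : Gamma0 N) : SL(2, ℤ)) 0 0 = ((h : Gamma0 N) : SL(2, ℤ)) 0 0 := by
    show (PG_conjMat ℓ _) 0 0 = _
    simp [PG_conjMat]
  have e2 : ((PG_conj N ℓ h : Gamma0 N) : SL(2, ℤ)) 0 1 =
      (ℓ : ℤ) * ((h : Gamma0 N) : SL(2, ℤ)) 0 1 := by
    show (PG_conjMat ℓ _) 0 1 = _
    simp [PG_conjMat]
  have e3 : ((PG_conj N ℓ h : Gamma0 N) : SL(2, ℤ)) 1 0 = c := by
    show (PG_conjMat ℓ _) 1 0 = _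
    simp only [PG_conjMat, Matrix.of_apply, Matrix.cons_val', Matrix.cons_val_zero,
      Matrix.cons_val_one, Matrix.cons_val_fin_one]
    rw [hc, Int.mul_ediv_cancel_left _ hℓ0]
  have e4 : ((PG_conj N ℓ h : Gamma0 N) : SL(2, ℤ)) 1 1 = ((h : Gamma0 N) : SL(2, ℤ)) 1 1 := by
    show (PG_conjMat ℓ _) 1 1 = _
    simp [PG_conjMat]
  rw [e1, e2, e3, e4, hc]
  ext a b
  fin_cases a <;> fin_cases b <;>
    simp [Matrix.mul_apply, Fin.sum_univ_two] <;> ring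

end Real

end Fermat.Agent.G_helper23_G1bC
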