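import Mathlib

set_option autoImplicit false

namespace Fermat.Agent.S22_helper11

open Complex Set Metric Filter Topology MeasureTheory



/-- the upper half plane as a subset of `ℂ` -/
def UH : Set ℂ := {z : ℂ | 0 < z.im}

lemma mem_UH {z : ℂ} : z ∈ UH ↔ 0 < z.im := Iff.rfl

lemma isOpen_UH : IsOpen UH := isOpen_lt continuous_const Complex.continuous_im

lemma convex_UH : Convex ℝ UH := convex_halfSpace_im_gt 0

lemma isPreconnected_UH : IsPreconnected UH := convex_UH.isPreconnected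

/-- exhausting balls -/
def exBall (n : ℕ) : Set ℂ := ball (((n : ℝ) + 1) * I) ((n : ℝ) + 1)

lemma exBall_subset_UH (n : ℕ) : exBall n ⊆ UH := by
  intro z hz
  rw [exBall, mem_ball, dist_eq] at hz
  have h1 : |(z - ((n : ℝ) + 1) * I).im| ≤ ‖z - ((n : ℝ) + 1) * I‖ := Complex.abs_im_le_norm _
  have h2 : (z - ((n : ℝ) + 1) * I).im = z.im - ((n : ℝ) + 1) := by
    simp
  rw [h2] at h1
  have := (abs_lt.mp (lt_of_le_of_lt h1 hz)).1
  rw [mem_UH]; linarith

lemma exBall_mono {m n : ℕ} (h : m ≤ n) : exBall m ⊆ exBall n := by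
  intro z hz
  rw [exBall, mem_ball] at hz ⊢
  have hmn : (m : ℝ) ≤ n := by exact_mod_cast h
  calc dist z (((n : ℝ) + 1) * I) ≤ dist z (((m : ℝ) + 1) * I)
        + dist (((m : ℝ) + 1) * I) (((n : ℝ) + 1) * I) := dist_triangle _ _ _
    _ < ((m : ℝ) + 1) + ((n : ℝ) - m) := by
        have : dist (((m : ℝ) + 1) * I) (((n : ℝ) + 1) * I) = (n : ℝ) - m := by
          rw [dist_eq, ← sub_mul, norm_mul, norm_I, mul_one]
          have : ((m : ℝ) + 1 : ℂ) - ((n : ℝ) + 1) = (((m : ℝ) - n : ℝ) : ℂ) := by push_cast; ring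
          rw [this, Complex.norm_real, Real.norm_eq_abs, abs_of_nonpos (by linarith)]
          ring
        rw [this]; linarith
    _ = (n : ℝ) + 1 := by ring

lemma I_mem_exBall (n : ℕ) : I ∈ exBall n := by
  rw [exBall, mem_ball, dist_eq]
  have : I - ((n : ℝ) + 1) * I = ((-(n : ℝ) : ℝ) : ℂ) * I := by push_cast; ring
  rw [this, norm_mul, norm_I, mul_one, Complex.norm_real, Real.norm_eq_abs, abs_neg,
    abs_of_nonneg (by positivity)]
  linarith

lemma exists_mem_exBall {z : ℂ} (hz : z ∈ UH) : ∃ n : ℕ, z ∈ exBall n := by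
  rw [mem_UH] at hz
  obtain ⟨n, hn⟩ := exists_nat_gt (‖z‖ ^ 2 / (2 * z.im))
  refine ⟨n, ?_⟩
  rw [exBall, mem_ball, dist_eq]
  have hpos : (0 : ℝ) < (n : ℝ) + 1 := by positivity
  refine (sq_lt_sq₀ (norm_nonneg _) hpos.le).mp ?_
  rw [← Complex.normSq_eq_norm_sq, Complex.normSq_apply]
  have hz2 : ‖z‖ ^ 2 = z.re * z.re + z.im * z.im := by
    rw [← Complex.normSq_eq_norm_sq, Complex.normSq_apply]
  have h1 : ‖z‖ ^ 2 < (n : ℝ) * (2 * z.im) := by
    rwa [div_lt_iff₀ (by positivity)] at hn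
  simp only [sub_re, sub_im, mul_re, mul_im, I_re, I_im, add_re, add_im, ofReal_re, ofReal_im,
    one_re, one_im, mul_zero, mul_one, zero_mul, add_zero, sub_zero, zero_add]
  nlinarith

theorem isExactOn_UH {f : ℂ → ℂ} (hf : DifferentiableOn ℂ f UH) : Complex.IsExactOn f UH := by
  classical
  -- primitives on each ball, normalised at `I`
  have hex : ∀ n : ℕ, ∃ g : ℂ → ℂ, g I = 0 ∧ ∀ z ∈ exBall n, HasDerivAt g (f z) z := fun n =>
    ((hf.mono (exBall_subset_UH n)).isExactOn_ball).with_val_at I 0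
  choose g hgI hg using hex
  -- consistency
  have hcons : ∀ m n : ℕ, m ≤ n → EqOn (g m) (g n) (exBall m) := by
    intro m n hmn
    have hopen : IsOpen (exBall m) := isOpen_ball
    refine hopen.eqOn_of_deriv_eq (convex_ball _ _).isPreconnected
      (fun z hz => (hg m z hz).differentiableAt.differentiableWithinAt)
      (fun z hz => (hg n z (exBall_mono hmn hz)).differentiableAt.differentiableWithinAt)
      (fun z hz => ?_) (I_mem_exBall m) ?_
    · rw [(hg m z hz).deriv, (hg n z (exBall_mono hmn hz)).deriv]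
    · rw [hgI, hgI]
  refine ⟨fun z => if h : ∃ n : ℕ, z ∈ exBall n then g (Nat.find h) z else 0, fun z hz => ?_⟩
  obtain ⟨n, hn⟩ := exists_mem_exBall hz
  have hev : (fun w => if h : ∃ n : ℕ, w ∈ exBall n then g (Nat.find h) w else 0)
      =ᶠ[nhds z] g n := by
    filter_upwards [isOpen_ball.mem_nhds hn] with w hw
    have hw' : ∃ n : ℕ, w ∈ exBall n := ⟨n, hw⟩
    rw [dif_pos hw']
    exact hcons _ _ (Nat.find_min' hw' hw) (Nat.find_spec hw')
  exact (hg n z hn).congr_of_eventuallyEq hev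




/-- exponentially small in every vertical strip -/
def ExpSmall (ψ : ℂ → ℂ) : Prop :=
  ∀ M : ℝ, ∃ A C c : ℝ, 0 < A ∧ 0 < c ∧
    ∀ z : ℂ, |z.re| ≤ M → A ≤ z.im → ‖ψ z‖ ≤ C * Real.exp (-c * z.im)

lemma ExpSmall.add {ψ₁ ψ₂ : ℂ → ℂ} (h₁ : ExpSmall ψ₁) (h₂ : ExpSmall ψ₂) :
    ExpSmall (fun z => ψ₁ z + ψ₂ z) := by
  intro M
  obtain ⟨A₁, C₁, c₁, hA₁, hc₁, H₁⟩ := h₁ M
  obtain ⟨A₂, C₂, c₂, hA₂, hc₂, H₂⟩ := h₂ M
  refine ⟨max A₁ A₂, |C₁| + |C₂|, min c₁ c₂, lt_max_of_lt_left hA₁, lt_min hc₁ hc₂, ?_⟩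
  intro z hzM hzA
  have hz1 : A₁ ≤ z.im := le_trans (le_max_left _ _) hzA
  have hz2 : A₂ ≤ z.im := le_trans (le_max_right _ _) hzA
  have hzpos : 0 ≤ z.im := le_trans hA₁.le hz1
  have e1 : Real.exp (-c₁ * z.im) ≤ Real.exp (-(min c₁ c₂) * z.im) := by
    apply Real.exp_le_exp.mpr
    have : min c₁ c₂ ≤ c₁ := min_le_left _ _
    nlinarith
  have e2 : Real.exp (-c₂ * z.im) ≤ Real.exp (-(min c₁ c₂) * z.im) := by
    apply Real.exp_le_exp.mpr
    have : min c₁ c₂ ≤ c₂ := min_le_right _ _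
    nlinarith
  calc ‖ψ₁ z + ψ₂ z‖ ≤ ‖ψ₁ z‖ + ‖ψ₂ z‖ := norm_add_le _ _
    _ ≤ C₁ * Real.exp (-c₁ * z.im) + C₂ * Real.exp (-c₂ * z.im) :=
        add_le_add (H₁ z hzM hz1) (H₂ z hzM hz2)
    _ ≤ |C₁| * Real.exp (-(min c₁ c₂) * z.im) + |C₂| * Real.exp (-(min c₁ c₂) * z.im) := by
        apply add_le_add
        · exact (mul_le_mul_of_nonneg_right (le_abs_self _) (Real.exp_pos _).le).trans
            (mul_le_mul_of_nonneg_left e1 (abs_nonneg _))
        · exact (mul_le_mul_of_nonneg_right (le_abs_self _) (Real.exp_pos _).le).trans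
            (mul_le_mul_of_nonneg_left e2 (abs_nonneg _))
    _ = (|C₁| + |C₂|) * Real.exp (-(min c₁ c₂) * z.im) := by ring

lemma ExpSmall.const_mul {ψ : ℂ → ℂ} (h : ExpSmall ψ) (a : ℂ) :
    ExpSmall (fun z => a * ψ z) := by
  intro M
  obtain ⟨A, C, c, hA, hc, H⟩ := h M
  refine ⟨A, ‖a‖ * C, c, hA, hc, fun z hzM hzA => ?_⟩
  rw [norm_mul, mul_assoc]
  exact mul_le_mul_of_nonneg_left (H z hzM hzA) (norm_nonneg _)

lemma ExpSmall.zero : ExpSmall (fun _ => 0) := by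
  intro M
  exact ⟨1, 0, 1, one_pos, one_pos, fun z _ _ => by simp⟩

lemma ExpSmall.sum {ι : Type*} (s : Finset ι) {ψ : ι → ℂ → ℂ} (h : ∀ i ∈ s, ExpSmall (ψ i)) :
    ExpSmall (fun z => ∑ i ∈ s, ψ i z) := by
  classical
  induction s using Finset.induction_on with
  | empty => simpa using ExpSmall.zero
  | insert i t hi IH =>
    simp only [Finset.sum_insert hi]
    exact (h i (Finset.mem_insert_self _ _)).add
      (IH fun j hj => h j (Finset.mem_insert_of_mem hj))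

/-- a function with at most polynomial growth in vertical strips -/
def PolyGrowth (P : ℂ → ℂ) : Prop :=
  ∀ M : ℝ, ∃ C : ℝ, ∃ n : ℕ, ∀ z : ℂ, |z.re| ≤ M → 1 ≤ z.im → ‖P z‖ ≤ C * z.im ^ n

lemma ExpSmall.mul_polyGrowth {ψ P : ℂ → ℂ} (h : ExpSmall ψ) (hP : PolyGrowth P) :
    ExpSmall (fun z => ψ z * P z) := by
  intro M
  obtain ⟨A, C, c, hA, hc, H⟩ := h M
  obtain ⟨D, n, HP⟩ := hP M
  -- y^n ≤ K exp (c/2 y)
  have hc2 : 0 < c / 2 := by positivity
  obtain ⟨K, hK⟩ : ∃ K : ℝ, ∀ y : ℝ, 0 ≤ y → y ^ n ≤ K * Real.exp (c / 2 * y) := by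
    refine ⟨(n.factorial : ℝ) / (c / 2) ^ n, fun y hy => ?_⟩
    have h1 : (c / 2 * y) ^ n / n.factorial ≤ Real.exp (c / 2 * y) :=
      Real.pow_div_factorial_le_exp _ (by positivity) n
    have h2 : (0 : ℝ) < (c / 2) ^ n := by positivity
    have h3 : (0 : ℝ) < n.factorial := by positivity
    rw [div_mul_eq_mul_div, le_div_iff₀ h2]
    calc y ^ n * (c / 2) ^ n = (c / 2 * y) ^ n / n.factorial * n.factorial := by
          field_simp; ring
      _ ≤ Real.exp (c / 2 * y) * n.factorial := by gcongr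
      _ = n.factorial * Real.exp (c / 2 * y) := by ring
  refine ⟨max A 1, |C| * |D| * |K|, c / 2, lt_max_of_lt_left hA, hc2, fun z hzM hzA => ?_⟩
  have hz1 : A ≤ z.im := le_trans (le_max_left _ _) hzA
  have hz2 : 1 ≤ z.im := le_trans (le_max_right _ _) hzA
  have hz0 : 0 ≤ z.im := by linarith
  have hψ := H z hzM hz1
  have hPz := HP z hzM hz2
  have hKz := hK z.im hz0
  have hexp : Real.exp (-c * z.im) * Real.exp (c / 2 * z.im) = Real.exp (-(c / 2) * z.im) := by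
    rw [← Real.exp_add]; congr 1; ring
  rw [norm_mul]
  calc ‖ψ z‖ * ‖P z‖ ≤ (|C| * Real.exp (-c * z.im)) * (|D| * (|K| * Real.exp (c / 2 * z.im))) := by
        apply mul_le_mul _ _ (norm_nonneg _) (by positivity)
        · exact hψ.trans (mul_le_mul_of_nonneg_right (le_abs_self _) (Real.exp_pos _).le)
        · refine hPz.trans ?_
          calc D * z.im ^ n ≤ |D| * z.im ^ n :=
                mul_le_mul_of_nonneg_right (le_abs_self _) (by positivity)
            _ ≤ |D| * (|K| * Real.exp (c / 2 * z.im)) := by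
                apply mul_le_mul_of_nonneg_left _ (abs_nonneg _)
                exact hKz.trans (mul_le_mul_of_nonneg_right (le_abs_self _) (Real.exp_pos _).le)
    _ = |C| * |D| * |K| * (Real.exp (-c * z.im) * Real.exp (c / 2 * z.im)) := by ring
    _ = |C| * |D| * |K| * Real.exp (-(c / 2) * z.im) := by rw [hexp]





lemma hasDerivAt_vert (x u : ℝ) : HasDerivAt (fun u : ℝ => (x : ℂ) + (u : ℂ) * I) I u := by
  have h1 : HasDerivAt (fun u : ℝ => (u : ℂ)) 1 u := (hasDerivAt_id u).ofReal_comp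
  simpa using (h1.mul_const I).const_add (x : ℂ)

lemma hasDerivAt_horiz (y u : ℝ) : HasDerivAt (fun u : ℝ => (u : ℂ) + (y : ℂ) * I) 1 u := by
  have h1 : HasDerivAt (fun u : ℝ => (u : ℂ)) 1 u := (hasDerivAt_id u).ofReal_comp
  simpa using h1.add_const ((y : ℂ) * I)

lemma vert_bound {F ψ : ℂ → ℂ} (hF : ∀ z : ℂ, 0 < z.im → HasDerivAt F (ψ z) z)
    {x A C c : ℝ} (hA : 0 < A) (hc : 0 < c)
    (hb : ∀ u : ℝ, A ≤ u → ‖ψ (x + u * I)‖ ≤ C * Real.exp (-c * u)) {s t : ℝ}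
    (hs : A ≤ s) (hst : s ≤ t) :
    ‖F (x + t * I) - F (x + s * I)‖ ≤ C / c * Real.exp (-c * s) := by
  have hC : 0 ≤ C := by
    have := (norm_nonneg _).trans (hb A le_rfl)
    exact nonneg_of_mul_nonneg_left this (Real.exp_pos _)
  have him : ∀ u : ℝ, ((x : ℂ) + (u : ℂ) * I).im = u := fun u => by simp
  have hd : ∀ u : ℝ, A ≤ u → HasDerivAt (fun u : ℝ => F ((x : ℂ) + (u : ℂ) * I) - F (x + s * I))
      (I • ψ (x + u * I)) u := by
    intro u hu
    have h1 := hF ((x : ℂ) + (u : ℂ) * I) (by rw [him]; linarith)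
    exact (h1.scomp u (hasDerivAt_vert x u)).sub_const _
  let B : ℝ → ℝ := fun u => C / c * (Real.exp (-c * s) - Real.exp (-c * u))
  have hB : ∀ u : ℝ, HasDerivAt B (C * Real.exp (-c * u)) u := by
    intro u
    have h1 : HasDerivAt (fun u : ℝ => Real.exp (-c * u)) (Real.exp (-c * u) * (-c)) u := by
      have := (hasDerivAt_id u).const_mul (-c)
      simpa using this.exp
    have h2 : HasDerivAt B (C / c * (0 - Real.exp (-c * u) * -c)) u :=
      ((hasDerivAt_const u (Real.exp (-c * s))).sub h1).const_mul (C / c)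
    refine h2.congr_deriv ?_
    have hc' : c ≠ 0 := hc.ne'
    field_simp
    ring
  have key := image_norm_le_of_norm_deriv_right_le_deriv_boundary
    (f := fun u : ℝ => F ((x : ℂ) + (u : ℂ) * I) - F (x + s * I))
    (f' := fun u => I • ψ (x + u * I)) (a := s) (b := t) (B := B)
    (B' := fun u => C * Real.exp (-c * u))
    (fun u hu => (hd u (hs.trans hu.1)).continuousAt.continuousWithinAt)
    (fun u hu => (hd u (hs.trans hu.1)).hasDerivWithinAt)
    (by simp [B]) hB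
    (fun u hu => by
      rw [norm_smul, norm_I, one_mul]
      exact hb u (hs.trans hu.1))
    (right_mem_Icc.mpr hst)
  refine key.trans ?_
  simp only [B]
  have : Real.exp (-c * s) - Real.exp (-c * t) ≤ Real.exp (-c * s) := by
    linarith [Real.exp_pos (-c * t)]
  exact mul_le_mul_of_nonneg_left this (div_nonneg hC hc.le)

lemma horiz_bound {F ψ : ℂ → ℂ} (hF : ∀ z : ℂ, 0 < z.im → HasDerivAt F (ψ z) z)
    {y K : ℝ} (hy : 0 < y) {x₁ x₂ : ℝ}
    (hb : ∀ u : ℝ, u ∈ uIcc x₁ x₂ → ‖ψ (u + y * I)‖ ≤ K) :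
    ‖F (x₂ + y * I) - F (x₁ + y * I)‖ ≤ K * |x₂ - x₁| := by
  have him : ∀ u : ℝ, ((u : ℂ) + (y : ℂ) * I).im = y := fun u => by simp
  have hd : ∀ u : ℝ, HasDerivAt (fun u : ℝ => F ((u : ℂ) + (y : ℂ) * I))
      ((1 : ℂ) • ψ (u + y * I)) u := by
    intro u
    have h1 := hF ((u : ℂ) + (y : ℂ) * I) (by rw [him]; exact hy)
    exact h1.scomp u (hasDerivAt_horiz y u)
  have := Convex.norm_image_sub_le_of_norm_hasDerivWithin_le (𝕜 := ℝ)
    (f := fun u : ℝ => F ((u : ℂ) + (y : ℂ) * I)) (f' := fun u => (1 : ℂ) • ψ (u + y * I))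
    (s := uIcc x₁ x₂) (C := K)
    (fun u _ => (hd u).hasDerivWithinAt)
    (fun u hu => by rw [one_smul]; exact hb u hu) (convex_uIcc x₁ x₂)
    left_mem_uIcc right_mem_uIcc
  simpa [Real.norm_eq_abs] using this

theorem exists_limit_of_expSmall {F ψ : ℂ → ℂ}
    (hF : ∀ z : ℂ, 0 < z.im → HasDerivAt F (ψ z) z) (hψ : ExpSmall ψ) :
    ∃ ℓ : ℂ, ExpSmall (fun z => F z - ℓ) := by
  obtain ⟨A₀, C₀, c₀, hA₀, hc₀, H₀⟩ := hψ 0
  have hb₀ : ∀ u : ℝ, A₀ ≤ u → ‖ψ ((0 : ℝ) + u * I)‖ ≤ C₀ * Real.exp (-c₀ * u) := by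
    intro u hu
    have := H₀ ((0 : ℝ) + u * I) (by simp) (by simpa using hu)
    simpa using this
  have hC₀ : 0 ≤ C₀ := by
    have := (norm_nonneg _).trans (hb₀ A₀ le_rfl)
    exact nonneg_of_mul_nonneg_left this (Real.exp_pos _)
  have hv : ∀ s t : ℝ, A₀ ≤ s → s ≤ t →
      ‖F ((0 : ℝ) + t * I) - F ((0 : ℝ) + s * I)‖ ≤ C₀ / c₀ * Real.exp (-c₀ * s) :=
    fun s t hs hst => vert_bound hF hA₀ hc₀ hb₀ hs hst
  -- the sequence
  let a : ℕ → ℂ := fun n => F ((0 : ℝ) + ((A₀ + n : ℝ) : ℂ) * I)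
  have hb0 : Tendsto (fun n : ℕ => C₀ / c₀ * Real.exp (-c₀ * (A₀ + n))) atTop (𝓝 0) := by
    have h1 : Tendsto (fun n : ℕ => -c₀ * (A₀ + (n : ℝ))) atTop atBot := by
      have : Tendsto (fun n : ℕ => A₀ + (n : ℝ)) atTop atTop :=
        tendsto_atTop_add_const_left _ _ tendsto_natCast_atTop_atTop
      exact this.const_mul_atTop_of_neg (by linarith)
    have := (Real.tendsto_exp_atBot.comp h1).const_mul (C₀ / c₀)
    simpa using this
  have hcau : CauchySeq a := by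
    refine cauchySeq_of_le_tendsto_0' (fun n : ℕ => C₀ / c₀ * Real.exp (-c₀ * (A₀ + n))) ?_ hb0
    intro n m hnm
    rw [dist_comm, dist_eq]
    have h1 : (A₀ + (n : ℝ)) ≤ A₀ + m := by
      have : (n : ℝ) ≤ m := by exact_mod_cast hnm
      linarith
    exact hv _ _ (by linarith [Nat.cast_nonneg (α := ℝ) n]) h1
  obtain ⟨ℓ, hℓ⟩ := cauchySeq_tendsto_of_complete hcau
  refine ⟨ℓ, ?_⟩
  -- bound on the imaginary axis
  have hax : ∀ s : ℝ, A₀ ≤ s → ‖F ((0 : ℝ) + s * I) - ℓ‖ ≤ C₀ / c₀ * Real.exp (-c₀ * s) := by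
    intro s hs
    have hlim : Tendsto (fun n : ℕ => ‖a n - F ((0 : ℝ) + s * I)‖) atTop
        (𝓝 ‖ℓ - F ((0 : ℝ) + s * I)‖) := (hℓ.sub_const _).norm
    rw [norm_sub_rev]
    refine le_of_tendsto hlim ?_
    obtain ⟨n₀, hn₀⟩ := exists_nat_ge (s - A₀)
    filter_upwards [eventually_ge_atTop n₀] with n hn
    have : s ≤ A₀ + n := by
      have : (n₀ : ℝ) ≤ n := by exact_mod_cast hn
      linarith
    exact hv s _ hs this
  intro M
  obtain ⟨A, C, c, hA, hc, H⟩ := hψ |M|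
  have hC : 0 ≤ C := by
    have := (norm_nonneg _).trans (H ((0 : ℝ) + A * I) (by simp) (by simp))
    exact nonneg_of_mul_nonneg_left this (Real.exp_pos _)
  refine ⟨max A A₀, |M| * C + C₀ / c₀, min c c₀, lt_max_of_lt_left hA, lt_min hc hc₀, ?_⟩
  intro z hzM hzA
  have hz1 : A ≤ z.im := le_trans (le_max_left _ _) hzA
  have hz2 : A₀ ≤ z.im := le_trans (le_max_right _ _) hzA
  have hzpos : 0 < z.im := lt_of_lt_of_le hA hz1
  have hzeq : z = (z.re : ℂ) + (z.im : ℂ) * I := (re_add_im z).symm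
  have hh : ‖F ((z.re : ℂ) + (z.im : ℂ) * I) - F ((0 : ℝ) + (z.im : ℂ) * I)‖
      ≤ C * Real.exp (-c * z.im) * |z.re - 0| := by
    rw [norm_sub_rev]
    have := horiz_bound (F := F) (ψ := ψ) hF (y := z.im) (K := C * Real.exp (-c * z.im)) hzpos
      (x₁ := z.re) (x₂ := 0) (fun u hu => by
        have hu' : |u| ≤ |M| := by
          rcases le_total z.re 0 with h0 | h0
          · rw [uIcc_of_le h0] at hu
            rw [abs_of_nonpos hu.2]
            have : |z.re| = -z.re := abs_of_nonpos h0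
            have h3 : |z.re| ≤ |M| := hzM.trans (le_abs_self M)
            linarith [hu.1]
          · rw [uIcc_of_ge h0] at hu
            rw [abs_of_nonneg hu.1]
            have : |z.re| = z.re := abs_of_nonneg h0
            have h3 : |z.re| ≤ |M| := hzM.trans (le_abs_self M)
            linarith [hu.2]
        have := H ((u : ℂ) + (z.im : ℂ) * I) (by simpa using hu') (by simpa using hz1)
        simpa using this)
    simpa [abs_sub_comm] using this
  have e1 : Real.exp (-c * z.im) ≤ Real.exp (-(min c c₀) * z.im) := by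
    apply Real.exp_le_exp.mpr
    have : min c c₀ ≤ c := min_le_left _ _
    nlinarith
  have e2 : Real.exp (-c₀ * z.im) ≤ Real.exp (-(min c c₀) * z.im) := by
    apply Real.exp_le_exp.mpr
    have : min c c₀ ≤ c₀ := min_le_right _ _
    nlinarith
  have hre : |z.re - 0| ≤ |M| := by simpa using hzM.trans (le_abs_self M)
  calc ‖F z - ℓ‖ = ‖(F ((z.re : ℂ) + (z.im : ℂ) * I) - F ((0 : ℝ) + (z.im : ℂ) * I))
        + (F ((0 : ℝ) + (z.im : ℂ) * I) - ℓ)‖ := by rw [← hzeq]; ring_nf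
    _ ≤ C * Real.exp (-c * z.im) * |z.re - 0| + C₀ / c₀ * Real.exp (-c₀ * z.im) :=
        (norm_add_le _ _).trans (add_le_add hh (hax _ hz2))
    _ ≤ C * Real.exp (-(min c c₀) * z.im) * |M| + C₀ / c₀ * Real.exp (-(min c c₀) * z.im) := by
        apply add_le_add
        · apply mul_le_mul (mul_le_mul_of_nonneg_left e1 hC) hre (abs_nonneg _)
          exact mul_nonneg hC (Real.exp_pos _).le
        · exact mul_le_mul_of_nonneg_left e2 (div_nonneg hC₀ hc₀.le)
    _ = (|M| * C + C₀ / c₀) * Real.exp (-(min c c₀) * z.im) := by ring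


end Fermat.Agent.S22_helper11
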