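import Mathlib
import Fermat.Agent.S22_helper11_Core

set_option autoImplicit false
set_option linter.unusedSectionVars false
set_option linter.unusedVariables false

open Complex UpperHalfPlane Filter Topology Asymptotics
open scoped MatrixGroups ModularForm

namespace Fermat.Agent.S22_helper11

/-! ### polynomial growth -/

lemma PolyGrowth.const (a : ℂ) : PolyGrowth (fun _ => a) := by
  intro M
  refine ⟨‖a‖, 0, fun z _ _ => by simp⟩

lemma PolyGrowth.id : PolyGrowth (fun z => z) := by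
  intro M
  refine ⟨|M| + 1, 1, fun z hzM hz1 => ?_⟩
  have h1 : ‖z‖ ≤ |z.re| + |z.im| := Complex.norm_le_abs_re_add_abs_im z
  have h2 : |z.im| = z.im := abs_of_nonneg (by linarith)
  have h3 : |z.re| ≤ |M| := hzM.trans (le_abs_self M)
  rw [pow_one]
  nlinarith [abs_nonneg M]

lemma PolyGrowth.mul {P Q : ℂ → ℂ} (hP : PolyGrowth P) (hQ : PolyGrowth Q) :
    PolyGrowth (fun z => P z * Q z) := by
  intro M
  obtain ⟨C, n, hC⟩ := hP M
  obtain ⟨D, l, hD⟩ := hQ M
  refine ⟨C * D, n + l, fun z hzM hz1 => ?_⟩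
  have hz0 : (0 : ℝ) ≤ z.im := by linarith
  have h1 := hC z hzM hz1
  have h2 := hD z hzM hz1
  rw [norm_mul, pow_add]
  calc ‖P z‖ * ‖Q z‖ ≤ (C * z.im ^ n) * (D * z.im ^ l) :=
        mul_le_mul h1 h2 (norm_nonneg _) ((norm_nonneg _).trans h1)
    _ = C * D * (z.im ^ n * z.im ^ l) := by ring

lemma PolyGrowth.add {P Q : ℂ → ℂ} (hP : PolyGrowth P) (hQ : PolyGrowth Q) :
    PolyGrowth (fun z => P z + Q z) := by
  intro M
  obtain ⟨C, n, hC⟩ := hP M
  obtain ⟨D, l, hD⟩ := hQ M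
  refine ⟨|C| + |D|, max n l, fun z hzM hz1 => ?_⟩
  have hz0 : (0 : ℝ) ≤ z.im := by linarith
  have h1 := hC z hzM hz1
  have h2 := hD z hzM hz1
  have e1 : z.im ^ n ≤ z.im ^ (max n l) := pow_le_pow_right₀ hz1 (le_max_left _ _)
  have e2 : z.im ^ l ≤ z.im ^ (max n l) := pow_le_pow_right₀ hz1 (le_max_right _ _)
  calc ‖P z + Q z‖ ≤ ‖P z‖ + ‖Q z‖ := norm_add_le _ _
    _ ≤ C * z.im ^ n + D * z.im ^ l := add_le_add h1 h2
    _ ≤ |C| * z.im ^ (max n l) + |D| * z.im ^ (max n l) := by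
        apply add_le_add
        · exact (mul_le_mul_of_nonneg_right (le_abs_self _) (by positivity)).trans
            (mul_le_mul_of_nonneg_left e1 (abs_nonneg _))
        · exact (mul_le_mul_of_nonneg_right (le_abs_self _) (by positivity)).trans
            (mul_le_mul_of_nonneg_left e2 (abs_nonneg _))
    _ = (|C| + |D|) * z.im ^ (max n l) := by ring

lemma PolyGrowth.pow {P : ℂ → ℂ} (hP : PolyGrowth P) (n : ℕ) :
    PolyGrowth (fun z => P z ^ n) := by
  induction n with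
  | zero => simpa using PolyGrowth.const 1
  | succ n ih => simpa [pow_succ] using ih.mul hP

lemma PolyGrowth.affine (a b : ℂ) : PolyGrowth (fun z => a * z + b) :=
  ((PolyGrowth.const a).mul PolyGrowth.id).add (PolyGrowth.const b)

/-! ### uniqueness of limits -/

lemma ExpSmall.const_eq_zero {c : ℂ} (h : ExpSmall (fun _ => c)) : c = 0 := by
  obtain ⟨A, C, κ, hA, hκ, H⟩ := h 0
  by_contra hc
  have hc' : 0 < ‖c‖ := norm_pos_iff.mpr hc
  have hlim : Tendsto (fun y : ℝ => C * Real.exp (-κ * y)) atTop (𝓝 (C * 0)) := by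
    apply Tendsto.const_mul
    have h1 : Tendsto (fun y : ℝ => -κ * y) atTop atBot :=
      tendsto_id.const_mul_atTop_of_neg (by linarith)
    exact Real.tendsto_exp_atBot.comp h1
  rw [mul_zero] at hlim
  have hev : ∀ᶠ y : ℝ in atTop, ‖c‖ ≤ C * Real.exp (-κ * y) := by
    filter_upwards [eventually_ge_atTop A] with y hy
    have := H ((0 : ℝ) + y * Complex.I) (by simp) (by simpa using hy)
    simpa using this
  have := ge_of_tendsto hlim hev
  linarith

lemma ExpSmall.sub {ψ₁ ψ₂ : ℂ → ℂ} (h₁ : ExpSmall ψ₁) (h₂ : ExpSmall ψ₂) :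
    ExpSmall (fun z => ψ₁ z - ψ₂ z) := by
  have := h₁.add (h₂.const_mul (-1))
  simpa [sub_eq_add_neg] using this

lemma ExpSmall.limit_unique {F : ℂ → ℂ} {ℓ ℓ' : ℂ} (h : ExpSmall (fun z => F z - ℓ))
    (h' : ExpSmall (fun z => F z - ℓ')) : ℓ = ℓ' := by
  have := (h'.sub h)
  have h2 : ExpSmall (fun _ : ℂ => ℓ - ℓ') := by
    refine fun M => ?_
    obtain ⟨A, C, c, hA, hc, H⟩ := this M
    exact ⟨A, C, c, hA, hc, fun z hz hz' => by simpa using H z hz hz'⟩
  exact sub_eq_zero.mp h2.const_eq_zero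

lemma ExpSmall.congr {ψ₁ ψ₂ : ℂ → ℂ} (h : ExpSmall ψ₁) (hEq : ∀ z : ℂ, 0 < z.im → ψ₁ z = ψ₂ z) :
    ExpSmall ψ₂ := by
  intro M
  obtain ⟨A, C, c, hA, hc, H⟩ := h M
  exact ⟨A, C, c, hA, hc, fun z hz hz' => by
    rw [← hEq z (lt_of_lt_of_le hA hz')]; exact H z hz hz'⟩

/-- composition with an affine map `z ↦ a z + b`, `a > 0`, `b` real. -/
lemma ExpSmall.comp_affine {ψ : ℂ → ℂ} (h : ExpSmall ψ) {a : ℝ} (ha : 0 < a) (b : ℝ) :
    ExpSmall (fun z => ψ (a * z + b)) := by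
  intro M
  obtain ⟨A, C, c, hA, hc, H⟩ := h (a * |M| + |b|)
  refine ⟨A / a, C, c * a, by positivity, by positivity, fun z hzM hzA => ?_⟩
  have hre : ((a : ℂ) * z + b).re = a * z.re + b := by simp
  have him : ((a : ℂ) * z + b).im = a * z.im := by simp
  have h1 : |((a : ℂ) * z + b).re| ≤ a * |M| + |b| := by
    rw [hre]
    calc |a * z.re + b| ≤ |a * z.re| + |b| := abs_add_le _ _
      _ = a * |z.re| + |b| := by rw [abs_mul, abs_of_pos ha]
      _ ≤ a * |M| + |b| := by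
          have := hzM.trans (le_abs_self M)
          nlinarith
  have h2 : A ≤ ((a : ℂ) * z + b).im := by
    rw [him]
    have := (div_le_iff₀ ha).mp hzA
    linarith
  have := H _ h1 h2
  rw [him] at this
  convert this using 2
  ring_nf

/-! ### Moebius maps on `ℂ` -/

/-- the Moebius action of `SL(2,ℤ)` transported to `ℂ` (junk outside the upper half plane) -/
noncomputable def mob (g : SL(2, ℤ)) (z : ℂ) : ℂ := ((g • ofComplex z : ℍ) : ℂ)

lemma mob_im_pos (g : SL(2, ℤ)) (z : ℂ) : 0 < (mob g z).im := (g • ofComplex z).im_pos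

lemma ofComplex_mob (g : SL(2, ℤ)) (z : ℂ) : ofComplex (mob g z) = g • ofComplex z :=
  ofComplex_apply _

lemma mob_coe (g : SL(2, ℤ)) (τ : ℍ) : mob g τ = ((g • τ : ℍ) : ℂ) := by
  rw [mob, ofComplex_apply]

lemma mob_one (z : ℂ) (hz : 0 < z.im) : mob 1 z = z := by
  rw [mob, one_smul, ofComplex_apply_of_im_pos hz]

lemma det_coe_SL (g : SL(2, ℤ)) :
    ((g : GL (Fin 2) ℝ) : Matrix (Fin 2) (Fin 2) ℝ).det = 1 :=
  (Matrix.SpecialLinearGroup.map (Int.castRingHom ℝ) g).det_coe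

lemma mob_mul (g h : SL(2, ℤ)) (z : ℂ) : mob (g * h) z = mob g (mob h z) := by
  rw [mob, mob, ofComplex_mob, mul_smul]

lemma hasDerivAt_mob (g : SL(2, ℤ)) {z : ℂ} (hz : 0 < z.im) :
    HasDerivAt (mob g) (1 / denom (g : GL (Fin 2) ℝ) z ^ 2) z := by
  have h := (hasStrictDerivAt_smul (g := (g : GL (Fin 2) ℝ))
    (by rw [det_coe_SL]; exact one_pos) ⟨z, hz⟩).hasDerivAt
  rw [det_coe_SL, Complex.ofReal_one] at h
  exact h

lemma hasDerivAt_comp_mob {F ψ : ℂ → ℂ} (hF : ∀ z : ℂ, 0 < z.im → HasDerivAt F (ψ z) z)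
    (g : SL(2, ℤ)) {z : ℂ} (hz : 0 < z.im) :
    HasDerivAt (fun w => F (mob g w))
      (ψ (mob g z) * (1 / denom (g : GL (Fin 2) ℝ) z ^ 2)) z :=
  (hF (mob g z) (mob_im_pos g z)).comp z (hasDerivAt_mob g hz)

/-! ### decay of cusp forms at all cusps -/

section CuspForms

variable {Γ : Subgroup (GL (Fin 2) ℝ)} [Γ.IsArithmetic] {k : ℤ}

open ConjAct Pointwise Matrix.SpecialLinearGroup in
lemma isArithmetic_conj (Γ : Subgroup (GL (Fin 2) ℝ)) [Γ.IsArithmetic] (g : SL(2, ℤ)) :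
    ((toConjAct (g : GL (Fin 2) ℝ)⁻¹) • Γ).IsArithmetic := by
  simpa [(show Rat.castHom ℝ = algebraMap ℚ ℝ by rfl), map_inv, map_mapGL]
    using! Subgroup.IsArithmetic.conj Γ (mapGL ℚ g)⁻¹

lemma exists_decay_slash (f : CuspForm Γ k) (g : SL(2, ℤ)) :
    ∃ c > 0, (⇑f ∣[k] g) =O[atImInfty] fun τ => Real.exp (-c * τ.im) := by
  have hI := isArithmetic_conj Γ g
  have := CuspFormClass.exp_decay_atImInfty' (CuspForm.translate f (g : GL (Fin 2) ℝ))
  exact this

lemma expSmall_slash (f : CuspForm Γ k) (g : SL(2, ℤ)) :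
    ExpSmall (fun z => (⇑f ∣[k] g) (ofComplex z)) := by
  obtain ⟨c, hc, hO⟩ := exists_decay_slash f g
  rw [Asymptotics.isBigO_iff] at hO
  obtain ⟨C, hC⟩ := hO
  rw [(atImInfty_basis.eventually_iff)] at hC
  obtain ⟨A, -, hA⟩ := hC
  intro M
  refine ⟨max A 1, C, c, lt_max_of_lt_right one_pos, hc, fun z _ hz => ?_⟩
  have hz1 : (1 : ℝ) ≤ z.im := le_trans (le_max_right _ _) hz
  have hzpos : 0 < z.im := by linarith
  have hzA : A ≤ z.im := le_trans (le_max_left _ _) hz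
  have := hA (x := ofComplex z) (by
    simp only [Set.mem_preimage, Set.mem_Ici]
    rw [ofComplex_apply_of_im_pos hzpos]
    exact hzA)
  rw [Real.norm_of_nonneg (Real.exp_pos _).le] at this
  rw [ofComplex_apply_of_im_pos hzpos] at this
  show ‖(⇑f ∣[k] g) (ofComplex z)‖ ≤ _
  rw [ofComplex_apply_of_im_pos hzpos]
  exact this

/-! ### uniqueness of primitives -/

lemma eq_add_const_of_hasDerivAt {F G ψ : ℂ → ℂ}
    (hF : ∀ z : ℂ, 0 < z.im → HasDerivAt F (ψ z) z)
    (hG : ∀ z : ℂ, 0 < z.im → HasDerivAt G (ψ z) z) :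
    ∃ c : ℂ, ∀ z : ℂ, 0 < z.im → F z = G z + c := by
  refine ⟨F Complex.I - G Complex.I, fun z hz => ?_⟩
  have hd : ∀ w ∈ UH, HasDerivAt (fun w => F w - G w) 0 w := fun w hw => by
    have := (hF w hw).sub (hG w hw)
    rw [sub_self] at this
    exact this
  have := isOpen_UH.is_const_of_deriv_eq_zero isPreconnected_UH
    (fun w hw => (hd w hw).differentiableAt.differentiableWithinAt)
    (fun w hw => (hd w hw).deriv) (x := z) (y := Complex.I) hz (by simp [UH])
  linear_combination this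

/-- two primitives of the same function which are both exponentially close to constants
differ by the difference of the constants -/
lemma prim_unique {F G ψ : ℂ → ℂ} {a b : ℂ}
    (hF : ∀ z : ℂ, 0 < z.im → HasDerivAt F (ψ z) z)
    (hG : ∀ z : ℂ, 0 < z.im → HasDerivAt G (ψ z) z)
    (hFa : ExpSmall (fun z => F z - a)) (hGb : ExpSmall (fun z => G z - b)) :
    ∀ z : ℂ, 0 < z.im → F z - a = G z - b := by
  obtain ⟨c, hc⟩ := eq_add_const_of_hasDerivAt hF hG
  have h1 : ExpSmall (fun _ : ℂ => c - a + b) := by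
    refine (hFa.sub hGb).congr fun z hz => ?_
    rw [hc z hz]; ring
  have h2 := h1.const_eq_zero
  intro z hz
  rw [hc z hz]
  linear_combination h2

/-! ### the normalised primitives of `f(z) z^j` -/

/-- the integrand `f(z) z^j` -/
noncomputable def integrand (f : ℍ → ℂ) (j : ℕ) (z : ℂ) : ℂ := f (ofComplex z) * z ^ j

lemma differentiableOn_integrand (f : CuspForm Γ k) (j : ℕ) :
    DifferentiableOn ℂ (integrand f j) UH := by
  have h1 : DifferentiableOn ℂ (⇑f ∘ ofComplex) UH :=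
    UpperHalfPlane.mdifferentiable_iff.mp (CuspFormClass.holo f)
  exact h1.mul (differentiable_id.pow j).differentiableOn

lemma expSmall_integrand (f : CuspForm Γ k) (j : ℕ) : ExpSmall (integrand f j) := by
  have h1 := expSmall_slash f 1
  have h2 : ExpSmall (fun z => (⇑f) (ofComplex z)) := by
    simpa using h1
  exact h2.mul_polyGrowth (PolyGrowth.id.pow j)

lemma exists_normPrim (f : CuspForm Γ k) (j : ℕ) :
    ∃ Φ : ℂ → ℂ, (∀ z : ℂ, 0 < z.im → HasDerivAt Φ (integrand f j z) z) ∧ ExpSmall Φ := by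
  obtain ⟨Ψ, hΨ⟩ := isExactOn_UH (differentiableOn_integrand f j)
  obtain ⟨ℓ, hℓ⟩ := exists_limit_of_expSmall hΨ (expSmall_integrand f j)
  exact ⟨fun z => Ψ z - ℓ, fun z hz => (hΨ z hz).sub_const ℓ, hℓ⟩

/-- the normalised primitive of `f(z) z^j` (Eichler integral from `i∞`) -/
noncomputable def Phi (f : CuspForm Γ k) (j : ℕ) : ℂ → ℂ := (exists_normPrim f j).choose

lemma hasDerivAt_Phi (f : CuspForm Γ k) (j : ℕ) {z : ℂ} (hz : 0 < z.im) :
    HasDerivAt (Phi f j) (integrand f j z) z := (exists_normPrim f j).choose_spec.1 z hz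

lemma expSmall_Phi (f : CuspForm Γ k) (j : ℕ) : ExpSmall (Phi f j) :=
  (exists_normPrim f j).choose_spec.2

lemma Phi_unique (f : CuspForm Γ k) (j : ℕ) {F : ℂ → ℂ}
    (hF : ∀ z : ℂ, 0 < z.im → HasDerivAt F (integrand f j z) z) (hF' : ExpSmall F) :
    ∀ z : ℂ, 0 < z.im → F z = Phi f j z := by
  have := prim_unique (a := 0) (b := 0) hF (fun z hz => hasDerivAt_Phi f j hz)
    (by simpa using hF') (by simpa using expSmall_Phi f j)
  simpa using this

end CuspForms

end Fermat.Agent.S22_helper11
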