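import Mathlib
import Fermat.Prelude.Def_ModularCurve_PeriodHomPair
import Fermat.Agent.S22_helper11_Periods

set_option autoImplicit false
set_option linter.unusedSectionVars false
set_option linter.unusedVariables false

open Complex UpperHalfPlane Filter Topology CongruenceSubgroup ModularCurve ModularCurve.Period
open scoped MatrixGroups ModularForm

namespace Fermat.Agent.S21_helper11

open Fermat.Agent.S22_helper11

variable {N : ℕ} [NeZero N]

/-- slash invariance in function form -/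
lemma slash_eq (f : CuspForm (Gamma0 N) 2) (γ : SL(2, ℤ)) (hγ : γ ∈ Gamma0 N) :
    (⇑f ∣[(2:ℤ)] γ) = ⇑f :=
  SlashInvariantFormClass.slash_action_eq f _ ⟨γ, hγ, rfl⟩

/-- the normalised primitive of `f`, as a function on `ℂ` -/
noncomputable def primC (f : CuspForm (Gamma0 N) 2) : ℂ → ℂ := Phi f 0

/-- the normalised primitive of `f`, as a function on `ℍ` -/
noncomputable def prim (f : CuspForm (Gamma0 N) 2) : ℍ → ℂ := fun τ => primC f (τ : ℂ)

lemma hasDerivAt_primC (f : CuspForm (Gamma0 N) 2) {z : ℂ} (hz : 0 < z.im) :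
    HasDerivAt (primC f) (f (ofComplex z)) z := by
  have := hasDerivAt_Phi f 0 hz
  simp only [integrand, pow_zero, mul_one] at this
  exact this

lemma expSmall_primC (f : CuspForm (Gamma0 N) 2) : ExpSmall (primC f) := expSmall_Phi f 0

lemma primC_unique (f : CuspForm (Gamma0 N) 2) {F : ℂ → ℂ}
    (hF : ∀ z : ℂ, 0 < z.im → HasDerivAt F (f (ofComplex z)) z) (hF' : ExpSmall F) :
    ∀ z : ℂ, 0 < z.im → F z = primC f z :=
  Phi_unique f 0 (fun z hz => by simpa [integrand] using hF z hz) hF'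

lemma deriv_comp_eq (f : ℍ → ℂ) (g : SL(2, ℤ)) {z : ℂ} (hz : 0 < z.im) :
    f (ofComplex (mob g z)) * (1 / denom (g : GL (Fin 2) ℝ) z ^ 2)
      = (f ∣[(2:ℤ)] g) (ofComplex z) := by
  rw [ModularForm.SL_slash_apply, ofComplex_mob, ofComplex_apply_of_im_pos hz]
  congr 1
  rw [one_div, zpow_neg]
  norm_cast

lemma hasDerivAt_primC_mob (f : CuspForm (Gamma0 N) 2) (g : SL(2, ℤ)) {z : ℂ} (hz : 0 < z.im) :
    HasDerivAt (fun w => primC f (mob g w)) ((⇑f ∣[(2:ℤ)] g) (ofComplex z)) z := by
  have := hasDerivAt_comp_mob (F := primC f) (ψ := fun z => f (ofComplex z))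
    (fun z hz => hasDerivAt_primC f hz) g hz
  rwa [deriv_comp_eq (⇑f) g hz] at this

/-- equivariance up to constants -/
lemma primC_mob_eq (f : CuspForm (Gamma0 N) 2) (γ : SL(2, ℤ)) (hγ : γ ∈ Gamma0 N) :
    ∃ c : ℂ, ∀ z : ℂ, 0 < z.im → primC f (mob γ z) = primC f z + c := by
  refine eq_add_const_of_hasDerivAt (ψ := fun z => f (ofComplex z)) (fun z hz => ?_)
    (fun z hz => hasDerivAt_primC f hz)
  have := hasDerivAt_primC_mob f γ hz
  rwa [slash_eq f γ hγ] at this

/-- periodic + exponentially close to `ℓ` in strips ⇒ uniform limit at `i∞` -/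
lemma tendsto_of_expSmall_of_periodic {G : ℂ → ℂ} {ℓ : ℂ} {h : ℝ} (hh : 0 < h)
    (hG : ExpSmall (fun z => G z - ℓ)) (hper : ∀ z : ℂ, 0 < z.im → G (z + h) = G z) :
    Tendsto (fun w : ℍ => G (w : ℂ)) atImInfty (𝓝 ℓ) := by
  have hperZ : ∀ n : ℤ, ∀ z : ℂ, 0 < z.im → G (z + n * h) = G z := by
    intro n
    induction n using Int.induction_on with
    | zero => intro z hz; simp
    | succ n ih =>
      intro z hz
      have e : z + (((n : ℤ) + 1 : ℤ) : ℂ) * h = (z + ((n : ℤ) : ℂ) * h) + h := by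
        push_cast; ring
      rw [e, hper _ (by simpa using hz), ih z hz]
    | pred n ih =>
      intro z hz
      have e : z + (((-(n : ℤ) - 1 : ℤ)) : ℂ) * h + h = z + ((-(n : ℤ) : ℤ) : ℂ) * h := by
        push_cast; ring
      have := hper (z + (((-(n : ℤ) - 1 : ℤ)) : ℂ) * h) (by simpa using hz)
      rw [e, ih z hz] at this
      exact this.symm
  obtain ⟨A, C, c, hA, hc, H⟩ := hG h
  rw [tendsto_iff_norm_sub_tendsto_zero]
  have hb : Tendsto (fun w : ℍ => C * Real.exp (-c * w.im)) atImInfty (𝓝 0) := by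
    have h1 : Tendsto (fun y : ℝ => C * Real.exp (-c * y)) atTop (𝓝 (C * 0)) := by
      apply Tendsto.const_mul
      have h1 : Tendsto (fun y : ℝ => -c * y) atTop atBot :=
        tendsto_id.const_mul_atTop_of_neg (by linarith)
      exact Real.tendsto_exp_atBot.comp h1
    rw [mul_zero] at h1
    exact h1.comp tendsto_comap
  refine squeeze_zero' (Eventually.of_forall fun _ => norm_nonneg _) ?_ hb
  filter_upwards [atImInfty_basis.mem_of_mem (i := A) trivial] with w hw
  have hwA : A ≤ w.im := hw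
  set n : ℤ := ⌊w.re / h⌋ with hn
  set z : ℂ := (w : ℂ) - n * h with hz
  have hz_im : z.im = w.im := by simp [hz]
  have hz_re : z.re = w.re - n * h := by simp [hz]
  have h1 : (n : ℝ) ≤ w.re / h := Int.floor_le _
  have h2 : w.re / h < n + 1 := Int.lt_floor_add_one _
  have h1' : (n : ℝ) * h ≤ w.re := (le_div_iff₀ hh).mp h1
  have h2' : w.re < (n + 1) * h := (div_lt_iff₀ hh).mp h2
  have hzre : |z.re| ≤ h := by
    rw [hz_re, abs_le]
    constructor <;> nlinarith
  have hGz : G z = G w := by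
    have := hperZ n z (by rw [hz_im]; exact w.im_pos)
    rw [← this]
    congr 1
    simp [hz]
  have := H z hzre (by rw [hz_im]; exact hwA)
  simp only [] at this
  rw [hGz, hz_im] at this
  exact this

lemma mob_T_zpow (n : ℤ) {z : ℂ} (hz : 0 < z.im) : mob (ModularGroup.T ^ n) z = z + n := by
  rw [mob, ModularGroup.coe_T_zpow_smul_eq, ofComplex_apply_of_im_pos hz]

lemma Gamma_le_Gamma0 (N : ℕ) : CongruenceSubgroup.Gamma N ≤ Gamma0 N := fun γ h =>
  Gamma0_mem.mpr (Gamma_mem.mp h).2.2.1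

lemma conj_T_pow_mem (N : ℕ) (δ : SL(2, ℤ)) :
    δ * ModularGroup.T ^ (N : ℤ) * δ⁻¹ ∈ Gamma0 N := by
  have h1 : ModularGroup.T ^ (N : ℤ) ∈ CongruenceSubgroup.Gamma N := by
    simpa using ModularGroup_T_pow_mem_Gamma (N : ℤ) (N : ℤ) dvd_rfl
  exact Gamma_le_Gamma0 N ((Gamma_normal N).conj_mem _ h1 δ)

/-- the primitive has a limit, in strips, at every cusp -/
lemma exists_cuspLimit (f : CuspForm (Gamma0 N) 2) (δ : SL(2, ℤ)) :
    ∃ ℓ : ℂ, ExpSmall (fun z => primC f (mob δ z) - ℓ) :=
  exists_limit_of_expSmall (fun z hz => hasDerivAt_primC_mob f δ hz) (expSmall_slash f δ)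

/-- the primitive composed with `δ` is `N`-periodic -/
lemma primC_mob_periodic (f : CuspForm (Gamma0 N) 2) (δ : SL(2, ℤ)) :
    ∀ z : ℂ, 0 < z.im → primC f (mob δ (z + (N : ℝ))) = primC f (mob δ z) := by
  obtain ⟨ℓ, hℓ⟩ := exists_cuspLimit f δ
  obtain ⟨c, hc⟩ := primC_mob_eq f _ (conj_T_pow_mem N δ)
  have key : ∀ z : ℂ, 0 < z.im → primC f (mob δ (z + (N : ℝ))) = primC f (mob δ z) + c := by
    intro z hz
    have e1 : z + ((N : ℝ) : ℂ) = mob (ModularGroup.T ^ (N : ℤ)) z := by
      rw [mob_T_zpow _ hz]; push_cast; rfl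
    rw [e1, ← mob_mul]
    have e2 : δ * ModularGroup.T ^ (N : ℤ) = (δ * ModularGroup.T ^ (N : ℤ) * δ⁻¹) * δ := by
      group
    rw [e2, mob_mul]
    exact hc _ (mob_im_pos δ z)
  have h1 : ExpSmall (fun z => primC f (mob δ (z + (N : ℝ))) - ℓ) := by
    have := hℓ.comp_affine (a := 1) one_pos (N : ℝ)
    simpa using this
  have h2 : ExpSmall (fun _ : ℂ => c) := by
    refine (h1.sub hℓ).congr fun z hz => ?_
    rw [key z hz]; ring
  have hc0 : c = 0 := h2.const_eq_zero
  intro z hz
  rw [key z hz, hc0, add_zero]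

lemma tendsto_prim_smul (f : CuspForm (Gamma0 N) 2) (δ : SL(2, ℤ)) :
    ∃ L : ℂ, Tendsto (fun w : ℍ => prim f (δ • w)) atImInfty (𝓝 L) := by
  obtain ⟨ℓ, hℓ⟩ := exists_cuspLimit f δ
  refine ⟨ℓ, ?_⟩
  have hN : (0 : ℝ) < N := by exact_mod_cast Nat.pos_of_ne_zero (NeZero.ne N)
  have := tendsto_of_expSmall_of_periodic (G := fun z => primC f (mob δ z)) hN hℓ
    (primC_mob_periodic f δ)
  refine this.congr fun w => ?_
  simp only [prim, mob_coe]

lemma tendsto_prim_zero (f : CuspForm (Gamma0 N) 2) :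
    Tendsto (prim f) atImInfty (𝓝 0) := by
  have h0 : ExpSmall (fun z => primC f (mob 1 z) - 0) := by
    refine (expSmall_primC f).congr fun z hz => ?_
    rw [mob_one z hz, sub_zero]
  have hN : (0 : ℝ) < N := by exact_mod_cast Nat.pos_of_ne_zero (NeZero.ne N)
  have := tendsto_of_expSmall_of_periodic (G := fun z => primC f (mob 1 z)) hN h0
    (primC_mob_periodic f 1)
  refine this.congr fun w => ?_
  simp only [prim, mob_coe, one_smul]

lemma hasDerivAt_prim (f : CuspForm (Gamma0 N) 2) (τ : ℍ) :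
    HasDerivAt (prim f ∘ ofComplex) (f τ) (τ : ℂ) := by
  have h1 := hasDerivAt_primC f τ.im_pos
  rw [ofComplex_apply] at h1
  refine h1.congr_of_eventuallyEq ?_
  have hopen : UH ∈ 𝓝 (τ : ℂ) := isOpen_UH.mem_nhds τ.im_pos
  filter_upwards [hopen] with z hz
  simp only [Function.comp_apply, prim]
  rw [ofComplex_apply_of_im_pos hz]

lemma isEquivariantPrimitive_prim (f : CuspForm (Gamma0 N) 2) :
    IsEquivariantPrimitive (Gamma0 N) (prim f) := by
  intro γ
  obtain ⟨c, hc⟩ := primC_mob_eq f γ γ.2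
  refine ⟨c, fun z => ?_⟩
  have := hc z z.im_pos
  simp only [prim]
  rw [← mob_coe, this]
  ring

theorem hasEquivariantPrimitive_prim (f : CuspForm (Gamma0 N) 2) :
    HasEquivariantPrimitive N f (prim f) :=
  ⟨hasDerivAt_prim f, tendsto_prim_zero f, isEquivariantPrimitive_prim f, tendsto_prim_smul f⟩

/-- uniqueness of the equivariant primitive -/
theorem eq_prim_of_hasEquivariantPrimitive (f : CuspForm (Gamma0 N) 2) {F : ℍ → ℂ}
    (hF : HasEquivariantPrimitive N f F) : F = prim f := by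
  obtain ⟨c, hc⟩ := eq_add_const_of_hasDerivAt (F := F ∘ ofComplex) (G := primC f)
    (ψ := fun z => f (ofComplex z))
    (fun z hz => by
      have := hF.1 ⟨z, hz⟩
      rw [ofComplex_apply_of_im_pos hz]
      exact this)
    (fun z hz => hasDerivAt_primC f hz)
  have hc' : ∀ τ : ℍ, F τ = prim f τ + c := fun τ => by
    have := hc τ τ.im_pos
    simpa [prim] using this
  have h1 : Tendsto (fun τ : ℍ => F τ - prim f τ) atImInfty (𝓝 (0 - 0)) :=
    hF.2.1.sub (tendsto_prim_zero f)
  have h2 : Tendsto (fun τ : ℍ => F τ - prim f τ) atImInfty (𝓝 c) := by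
    refine tendsto_const_nhds.congr fun τ => ?_
    rw [hc' τ]; ring
  have hc0 : c = 0 := by
    have := tendsto_nhds_unique h2 h1
    simpa using this
  funext τ
  rw [hc' τ, hc0, add_zero]

theorem periodMap_apply (f : CuspForm (Gamma0 N) 2) (γ : Gamma0 N) :
    periodMap N f (Additive.ofMul γ)
      = prim f ((γ : SL(2, ℤ)) • UpperHalfPlane.I) - prim f UpperHalfPlane.I := by
  obtain ⟨F₀, h₀, h⟩ := periodMap_def N f (hasEquivariantPrimitive_prim f)
  rw [h, IsEquivariantPrimitive.periodHom_apply, IsEquivariantPrimitive.period,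
    eq_prim_of_hasEquivariantPrimitive f h₀]

/-- the period of `f` along `γ` does not depend on the base point -/
theorem prim_smul_sub (f : CuspForm (Gamma0 N) 2) (γ : Gamma0 N) (z : ℍ) :
    prim f ((γ : SL(2, ℤ)) • z) - prim f z = periodMap N f (Additive.ofMul γ) := by
  rw [periodMap_apply]
  have h := (isEquivariantPrimitive_prim f).sub_eq_period γ z
  rw [h, IsEquivariantPrimitive.period]

lemma primC_add (f g : CuspForm (Gamma0 N) 2) {z : ℂ} (hz : 0 < z.im) :
    primC (f + g) z = primC f z + primC g z := by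
  refine (primC_unique (f + g) (F := fun z => primC f z + primC g z) (fun z hz => ?_)
    ((expSmall_primC f).add (expSmall_primC g)) z hz).symm
  exact (hasDerivAt_primC f hz).add (hasDerivAt_primC g hz)

lemma primC_smul (c : ℂ) (f : CuspForm (Gamma0 N) 2) {z : ℂ} (hz : 0 < z.im) :
    primC (c • f) z = c * primC f z := by
  refine (primC_unique (c • f) (F := fun z => c * primC f z) (fun z hz => ?_)
    ((expSmall_primC f).const_mul c) z hz).symm
  have := (hasDerivAt_primC f hz).const_mul c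
  simpa using this

lemma prim_add (f g : CuspForm (Gamma0 N) 2) (τ : ℍ) :
    prim (f + g) τ = prim f τ + prim g τ := primC_add f g τ.im_pos

lemma prim_smul (c : ℂ) (f : CuspForm (Gamma0 N) 2) (τ : ℍ) :
    prim (c • f) τ = c * prim f τ := primC_smul c f τ.im_pos

/-- the period map as a linear map -/
noncomputable def periodLin (N : ℕ) [NeZero N] :
    CuspForm (Gamma0 N) 2 →ₗ[ℂ] (Additive (Gamma0 N) →+ ℂ) where
  toFun f := periodMap N f
  map_add' f g := by
    refine AddMonoidHom.ext fun γ => ?_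
    obtain ⟨γ, rfl⟩ := Additive.ofMul.surjective γ
    rw [AddMonoidHom.add_apply, periodMap_apply, periodMap_apply, periodMap_apply,
      prim_add, prim_add]
    ring
  map_smul' c f := by
    refine AddMonoidHom.ext fun γ => ?_
    obtain ⟨γ, rfl⟩ := Additive.ofMul.surjective γ
    rw [RingHom.id_apply, AddMonoidHom.smul_apply, periodMap_apply, periodMap_apply,
      prim_smul, prim_smul, smul_eq_mul]
    ring

@[simp] theorem periodLin_apply (f : CuspForm (Gamma0 N) 2) : periodLin N f = periodMap N f := rfl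

theorem existsPeriodMapLinear (N : ℕ) [NeZero N] : ExistsPeriodMapLinear N :=
  ⟨periodLin N, fun _ => rfl⟩

/-- the explicit form of `periodHomPair` -/
theorem periodHomPair_eq (N : ℕ) [NeZero N] :
    periodHomPair N = LinearMap.coprod
      ((LinearMap.id + charInvolution N ℂ ℂ) ∘ₗ periodLin N)
      ((LinearMap.id - charInvolution N ℂ ℂ) ∘ₗ periodLin N) := by
  obtain ⟨pml, hpml, h⟩ := periodHomPair_def N (existsPeriodMapLinear N)
  have : pml = periodLin N := LinearMap.ext fun f => by rw [hpml f]; rfl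
  rw [h, this]

theorem periodHomPair_apply (N : ℕ) [NeZero N] (f g : CuspForm (Gamma0 N) 2) :
    periodHomPair N (f, g) = (periodMap N f + charInvolution N ℂ ℂ (periodMap N f))
      + (periodMap N g - charInvolution N ℂ ℂ (periodMap N g)) := by
  rw [periodHomPair_eq]
  simp [LinearMap.coprod_apply]

end Fermat.Agent.S21_helper11
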