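import Mathlib
import Fermat.Prelude.Def_ModularCurve_PeriodHomPair
import Fermat.Agent.S21_helper11_Prim

/-!
# S21 piece P1a2: any primitive of a weight two cusp form is equivariant
-/

set_option autoImplicit false

open UpperHalfPlane CongruenceSubgroup Filter Topology ModularCurve ModularCurve.Period
open scoped MatrixGroups ComplexConjugate

namespace Fermat.Agent.S21_helper13_P1a2

open Fermat.Agent.S22_helper11 Fermat.Agent.S21_helper11

/-- A primitive on `ℍ` gives a primitive on the upper half plane of `ℂ`. -/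
lemma hasDerivAt_comp_ofComplex {N : ℕ} (f : CuspForm (Gamma0 N) 2) (F : ℍ → ℂ)
    (hder : ∀ τ : ℍ, HasDerivAt (F ∘ ofComplex) (f τ) ↑τ) {z : ℂ} (hz : 0 < z.im) :
    HasDerivAt (F ∘ ofComplex) (f (ofComplex z)) z := by
  have h := hder ⟨z, hz⟩
  rw [ofComplex_apply_of_im_pos hz]
  exact h

/-- equivariance up to constants, on `ℂ` -/
lemma comp_mob_eq {N : ℕ} [NeZero N] (f : CuspForm (Gamma0 N) 2) (F : ℍ → ℂ)
    (hder : ∀ τ : ℍ, HasDerivAt (F ∘ ofComplex) (f τ) ↑τ)
    (γ : SL(2, ℤ)) (hγ : γ ∈ Gamma0 N) :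
    ∃ c : ℂ, ∀ z : ℂ, 0 < z.im →
      (F ∘ ofComplex) (mob γ z) = (F ∘ ofComplex) z + c := by
  refine eq_add_const_of_hasDerivAt (F := fun w => (F ∘ ofComplex) (mob γ w))
    (G := F ∘ ofComplex) (ψ := fun z => f (ofComplex z)) (fun z hz => ?_)
    (fun z hz => hasDerivAt_comp_ofComplex f F hder hz)
  have h := hasDerivAt_comp_mob (F := F ∘ ofComplex) (ψ := fun z => f (ofComplex z))
    (fun z hz => hasDerivAt_comp_ofComplex f F hder hz) γ hz
  rw [deriv_comp_eq (⇑f) γ hz, slash_eq f γ hγ] at h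
  exact h

theorem P1a2 (N : ℕ) [NeZero N] (f : CuspForm (Gamma0 N) 2) (F : ℍ → ℂ)
    (hder : ∀ τ : ℍ, HasDerivAt (F ∘ ofComplex) (f τ) ↑τ) :
    IsEquivariantPrimitive (Gamma0 N) F := by
  intro γ
  obtain ⟨c, hc⟩ := comp_mob_eq f F hder γ γ.2
  refine ⟨c, fun z => ?_⟩
  have h := hc z z.im_pos
  simp only [Function.comp_apply, ofComplex_mob, ofComplex_apply] at h
  rw [h]
  ring

end Fermat.Agent.S21_helper13_P1a2
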