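import Mathlib
import Fermat.Prelude.Def_ModularCurve_PeriodHomPair
import Fermat.Agent.S21_helper11_Prim

set_option autoImplicit false

open UpperHalfPlane CongruenceSubgroup Filter Topology ModularCurve ModularCurve.Period
open scoped MatrixGroups ComplexConjugate

namespace Fermat.Agent.S21_helper16_P1a1

open Fermat.Agent.S21_helper11 Fermat.Agent.S22_helper11

theorem P1a1 (N : ℕ) [NeZero N] (f : CuspForm (Gamma0 N) 2) :
    ∃ F : ℍ → ℂ, (∀ τ : ℍ, HasDerivAt (F ∘ ofComplex) (f τ) ↑τ) ∧ Tendsto F atImInfty (𝓝 0) :=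
  ⟨prim f, hasDerivAt_prim f, tendsto_prim_zero f⟩

end Fermat.Agent.S21_helper16_P1a1
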