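import Mathlib
import Fermat.Prelude.Def_ModularCurve_PeriodHomPair
import Fermat.Agent.S21_helper11_Prim

set_option autoImplicit false

open UpperHalfPlane CongruenceSubgroup Filter Topology ModularCurve ModularCurve.Period
open scoped MatrixGroups ComplexConjugate

namespace Fermat.Agent.S21_helper16_P1a3

open Fermat.Agent.S21_helper11 Fermat.Agent.S22_helper11

/-- any primitive of `f` differs from the normalised one by a constant -/
theorem exists_eq_prim_add_const (N : ℕ) [NeZero N] (f : CuspForm (Gamma0 N) 2) (F : ℍ → ℂ)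
    (hder : ∀ τ : ℍ, HasDerivAt (F ∘ ofComplex) (f τ) ↑τ) :
    ∃ c : ℂ, ∀ z : ℍ, F z = prim f z + c := by
  obtain ⟨c, hc⟩ := eq_add_const_of_hasDerivAt (F := F ∘ ofComplex) (G := primC f)
    (ψ := fun z => f (ofComplex z))
    (fun z hz => by
      have := hder ⟨z, hz⟩
      rwa [show (f ⟨z, hz⟩) = f (ofComplex z) by rw [ofComplex_apply_of_im_pos hz]] at this)
    (fun z hz => hasDerivAt_primC f hz)
  refine ⟨c, fun z => ?_⟩
  have := hc (z : ℂ) z.im_pos
  simp only [Function.comp_apply, ofComplex_apply] at this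
  exact this

theorem P1a3 (N : ℕ) [NeZero N] (f : CuspForm (Gamma0 N) 2) (F : ℍ → ℂ)
    (hder : ∀ τ : ℍ, HasDerivAt (F ∘ ofComplex) (f τ) ↑τ) (δ : SL(2, ℤ)) :
    ∃ L : ℂ, Tendsto (fun w : ℍ => F (δ • w)) atImInfty (𝓝 L) := by
  obtain ⟨c, hc⟩ := exists_eq_prim_add_const N f F hder
  obtain ⟨L, hL⟩ := tendsto_prim_smul f δ
  refine ⟨L + c, ?_⟩
  have h1 : (fun w : ℍ => F (δ • w)) = fun w : ℍ => prim f (δ • w) + c := by
    funext w
    exact hc _
  rw [h1]
  exact hL.add tendsto_const_nhds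

end Fermat.Agent.S21_helper16_P1a3
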