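import Mathlib
import Fermat.Prelude.Def_ModularCurve_PeriodHomPair

set_option autoImplicit false

open UpperHalfPlane CongruenceSubgroup Filter Topology ModularCurve ModularCurve.Period
open scoped MatrixGroups ComplexConjugate

namespace Fermat.Agent.S21_helper23_P1b

/-- A function on `ℂ` with zero derivative on the upper half plane is constant there. -/
theorem const_of_hasDerivAt_zero_uhp {D : ℂ → ℂ} (h : ∀ z : ℂ, 0 < z.im → HasDerivAt D 0 z)
    {z₁ z₂ : ℂ} (h₁ : 0 < z₁.im) (h₂ : 0 < z₂.im) : D z₁ = D z₂ := by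
  have hopen : IsOpen {w : ℂ | 0 < w.im} := isOpen_lt continuous_const Complex.continuous_im
  have hconv : Convex ℝ {w : ℂ | 0 < w.im} := by
    simpa using convex_halfSpace_im_gt 0
  refine hopen.is_const_of_deriv_eq_zero hconv.isPreconnected
    (fun z hz => (h z hz).differentiableAt.differentiableWithinAt)
    (fun z hz => (h z hz).deriv) h₁ h₂

/-- Two functions on `ℍ` with the same derivative differ by a constant. -/
theorem sub_const_of_hasDerivAt {F F' : ℍ → ℂ} {f : ℍ → ℂ}
    (hF : ∀ τ : ℍ, HasDerivAt (F ∘ ofComplex) (f τ) ↑τ)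
    (hF' : ∀ τ : ℍ, HasDerivAt (F' ∘ ofComplex) (f τ) ↑τ) (z₁ z₂ : ℍ) :
    F z₁ - F' z₁ = F z₂ - F' z₂ := by
  have h : ∀ z : ℂ, 0 < z.im → HasDerivAt (fun w => (F ∘ ofComplex) w - (F' ∘ ofComplex) w) 0 z := by
    intro z hz
    have h1 := hF ⟨z, hz⟩
    have h2 := hF' ⟨z, hz⟩
    have h3 := h1.sub h2
    rw [sub_self] at h3
    exact h3
  have := const_of_hasDerivAt_zero_uhp h z₁.im_pos z₂.im_pos
  simpa using this

/-- P1b: uniqueness of the primitive. -/
theorem P1b (N : ℕ) (f : CuspForm (Gamma0 N) 2) {F F' : ℍ → ℂ}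
    (hF : HasEquivariantPrimitive N f F) (hF' : HasEquivariantPrimitive N f F') : F = F' := by
  funext z
  have hlim : Tendsto (fun w : ℍ => F w - F' w) atImInfty (𝓝 (0 - 0)) := hF.2.1.sub hF'.2.1
  have hconst : (fun w : ℍ => F w - F' w) = fun _ => F z - F' z := by
    funext w
    exact sub_const_of_hasDerivAt hF.1 hF'.1 w z
  rw [hconst, sub_zero] at hlim
  have := tendsto_nhds_unique hlim tendsto_const_nhds
  exact sub_eq_zero.mp this.symm ▸ rfl

end Fermat.Agent.S21_helper23_P1b
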