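import Mathlib
import Fermat.Prelude.Def_ModularForm_HeckeOperatorForms
import Fermat.Agent.G_helper6_Defs
import Fermat.Agent.G_helper23_G1bT
import Fermat.Agent.G_helper23_G1bC
import Fermat.Agent.G_helper23_G1bA
import Fermat.Agent.S21_helper16_P1a1
import Fermat.Agent.S21_helper13_P1a2
import Fermat.Agent.S21_helper16_P1a3
import Fermat.Agent.S21_helper23_P1b
import Fermat.Agent.S49_QCoeff

/-!
# Project G, piece G1b: the period map is Hecke-equivariant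

* `PG_period_hecke`: `periodMap N (T_ℓ f) = PG_heckeHom N ℓ (periodMap N f)` for `ℓ` prime,
  `ℓ ∤ N`.
* `PG_eigen_of_normalized`: `T_ℓ g = a_ℓ(g) • g` for a normalized eigenform `g`.
-/

set_option autoImplicit false

open UpperHalfPlane ModularForm CongruenceSubgroup AlgebraicCurve
open scoped MatrixGroups ModularForm Manifold TensorProduct
open Fermat.Agent.G_helper6_Defs

namespace Fermat.Agent.G_helper23_G1b

open Fermat.Agent.G_helper23_G1bT Fermat.Agent.G_helper23_G1bC Fermat.Agent.G_helper23_G1bA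
open ModularCurve ModularCurve.Period

/-! ### Primitives (from the S21 files) -/

theorem PG_G1b_exists_prim (N : ℕ) [NeZero N] (f : CuspForm (Gamma0 N) 2) :
    ∃ F : ℍ → ℂ, HasEquivariantPrimitive N f F := by
  obtain ⟨F, hder, h0⟩ := Fermat.Agent.S21_helper16_P1a1.P1a1 N f
  exact ⟨F, hder, h0, Fermat.Agent.S21_helper13_P1a2.P1a2 N f F hder,
    Fermat.Agent.S21_helper16_P1a3.P1a3 N f F hder⟩

theorem PG_G1b_periodMap_apply (N : ℕ) (f : CuspForm (Gamma0 N) 2) {F : ℍ → ℂ}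
    (hF : HasEquivariantPrimitive N f F) (γ : Gamma0 N) (z : ℍ) :
    periodMap N f (Additive.ofMul γ) = F ((γ : SL(2, ℤ)) • z) - F z := by
  obtain ⟨F₀, h₀, h⟩ := periodMap_def N f hF
  have := Fermat.Agent.S21_helper23_P1b.P1b N f h₀ hF
  subst this
  rw [h, IsEquivariantPrimitive.periodHom_apply, ← h₀.2.2.1.sub_eq_period γ z]

theorem PG_G1b_sl_smul (γ : SL(2, ℤ)) (z : ℍ) :
    γ • z = Matrix.SpecialLinearGroup.mapGL ℝ γ • z := rfl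

/-- Equivariance of the primitive, in `GL (Fin 2) ℝ` form. -/
theorem PG_G1b_prim_smul (N : ℕ) (f : CuspForm (Gamma0 N) 2) {F : ℍ → ℂ}
    (hF : HasEquivariantPrimitive N f F) (γ : Gamma0 N) (z : ℍ) :
    F (Matrix.SpecialLinearGroup.mapGL ℝ (γ : SL(2, ℤ)) • z) =
      F z + periodMap N f (Additive.ofMul γ) := by
  rw [PG_G1b_periodMap_apply N f hF γ z, PG_G1b_sl_smul]
  ring

/-! ### The transfer formula for `PG_heckeHom` -/

theorem PG_G1b_heckeHom_apply (N ℓ : ℕ) [NeZero ℓ] [(PG_H N ℓ).FiniteIndex]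
    {A : Type*} [AddCommGroup A] (c : Additive (Gamma0 N) →+ A)
    {ι : Type*} [Fintype ι] (e : ι ≃ Gamma0 N ⧸ PG_H N ℓ) (s : ι → Gamma0 N)
    (hs : ∀ i, (s i : Gamma0 N ⧸ PG_H N ℓ) = e i) (γ : Gamma0 N) :
    PG_heckeHom N ℓ c (Additive.ofMul γ) =
      ∑ i : ι, c (Additive.ofMul (PG_conj N ℓ
        ⟨(s (e.symm (γ • e i)))⁻¹ * γ * s i, PG_G1b_indexed_mem e s hs γ i⟩)) := by
  rw [PG_heckeHom_def]
  show Multiplicative.toAdd (MonoidHom.transfer _ γ) = _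
  rw [PG_G1b_transfer_indexed _ e s hs γ, toAdd_prod]
  rfl

/-! ### Telescoping -/

section Telescoping

variable {N ℓ : ℕ} [NeZero ℓ]

/-- `B i = δ τ_i⁻¹` for a family `s = τ` of elements of `Gamma0 N`. -/
noncomputable def PG_G1b_B (ℓ : ℕ) {N : ℕ} {ι : Type*} (s : ι → Gamma0 N) (i : ι) :
    GL (Fin 2) ℝ :=
  heckeDiagMatrix ℓ * (Matrix.SpecialLinearGroup.mapGL ℝ ((s i : Gamma0 N) : SL(2, ℤ)))⁻¹

theorem PG_G1b_B_mul {ι : Type*} (e : ι ≃ Gamma0 N ⧸ PG_H N ℓ) (s : ι → Gamma0 N)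
    (hs : ∀ i, (s i : Gamma0 N ⧸ PG_H N ℓ) = e i) (γ : Gamma0 N) (i : ι) :
    PG_G1b_B ℓ s (e.symm (γ • e i)) * Matrix.SpecialLinearGroup.mapGL ℝ (γ : SL(2, ℤ)) =
      Matrix.SpecialLinearGroup.mapGL ℝ ((PG_conj N ℓ
        ⟨(s (e.symm (γ • e i)))⁻¹ * γ * s i, PG_G1b_indexed_mem e s hs γ i⟩ : Gamma0 N) :
          SL(2, ℤ)) * PG_G1b_B ℓ s i := by
  have h := PG_G1b_diag_mul (N := N) (ℓ := ℓ)
    ⟨(s (e.symm (γ • e i)))⁻¹ * γ * s i, PG_G1b_indexed_mem e s hs γ i⟩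
  simp only [Subgroup.coe_mul, Subgroup.coe_inv, map_mul, map_inv] at h
  unfold PG_G1b_B
  rw [← mul_assoc, ← h]
  simp only [mul_assoc, mul_inv_cancel, mul_one]

theorem PG_G1b_telescope (f : CuspForm (Gamma0 N) 2) {F : ℍ → ℂ}
    (hF : HasEquivariantPrimitive N f F) {ι : Type*} [Fintype ι]
    (e : ι ≃ Gamma0 N ⧸ PG_H N ℓ) (s : ι → Gamma0 N)
    (hs : ∀ i, (s i : Gamma0 N ⧸ PG_H N ℓ) = e i) (γ : Gamma0 N) (z : ℍ) :
    ∑ i : ι, (F (PG_G1b_B ℓ s i • (γ : SL(2, ℤ)) • z) - F (PG_G1b_B ℓ s i • z)) =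
      ∑ i : ι, periodMap N f (Additive.ofMul (PG_conj N ℓ
        ⟨(s (e.symm (γ • e i)))⁻¹ * γ * s i, PG_G1b_indexed_mem e s hs γ i⟩)) := by
  -- the permutation `π i = e.symm (γ • e i)`
  let π : ι ≃ ι := e.trans ((MulAction.toPerm γ).trans e.symm)
  have hπ : ∀ i, π i = e.symm (γ • e i) := fun i => rfl
  rw [Finset.sum_sub_distrib, sub_eq_iff_eq_add]
  rw [← Equiv.sum_comp π (fun i => F (PG_G1b_B ℓ s i • (γ : SL(2, ℤ)) • z)),
    ← Finset.sum_add_distrib]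
  refine Finset.sum_congr rfl fun i _ => ?_
  rw [hπ, PG_G1b_sl_smul, ← mul_smul, PG_G1b_B_mul e s hs γ i, mul_smul,
    PG_G1b_prim_smul N f hF]
  ring

end Telescoping

/-! ### The main theorem -/

theorem PG_G1b_D_eq {N ℓ : ℕ} {u v : ℤ} (hℓ : ℓ ≠ 0) (huv : (ℓ : ℤ) * u + (N : ℤ) * v = 1)
    (i : Option (Fin ℓ)) :
    ∃ g : Gamma0 N, PG_G1b_D ℓ i =
      Matrix.SpecialLinearGroup.mapGL ℝ (g : SL(2, ℤ)) *
        PG_G1b_B ℓ (PG_G1b_tau N ℓ u v huv) i := by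
  rcases i with _ | j
  · refine ⟨1, ?_⟩
    simp [PG_G1b_D, PG_G1b_B, PG_G1b_tau_none]
  · refine ⟨PG_G1b_g N ℓ u v huv, ?_⟩
    unfold PG_G1b_B
    rw [← mul_assoc, ← PG_G1b_heckeMatrix_mul hℓ huv j]
    simp [PG_G1b_D]

theorem PG_period_hecke (N ℓ : ℕ) [NeZero N] (hℓ : ℓ.Prime) (hℓN : ¬ ℓ ∣ N)
    (f : CuspForm (Gamma0 N) 2) :
    haveI : NeZero ℓ := ⟨hℓ.ne_zero⟩
    ModularCurve.periodMap N (CuspForm.heckeTLin 2 hℓ hℓN f) =
      PG_heckeHom N ℓ (ModularCurve.periodMap N f) := by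
  haveI : NeZero ℓ := ⟨hℓ.ne_zero⟩
  obtain ⟨u, v, huv⟩ := PG_G1b_exists_bezout hℓ hℓN
  haveI := PG_G1b_finiteIndex (N := N) hℓ huv
  obtain ⟨F, hF⟩ := PG_G1b_exists_prim N f
  obtain ⟨G, hG⟩ := PG_G1b_exists_prim N (CuspForm.heckeTLin 2 hℓ hℓN f)
  refine AddMonoidHom.ext fun γ => ?_
  obtain ⟨γ, rfl⟩ := Additive.ofMul.surjective γ
  rw [PG_G1b_periodMap_apply N _ hG γ UpperHalfPlane.I,
    PG_G1b_heckeHom_apply N ℓ _ (PG_G1b_equiv hℓ huv) (PG_G1b_tau N ℓ u v huv)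
      (PG_G1b_equiv_apply hℓ huv) γ,
    ← PG_G1b_telescope f hF (PG_G1b_equiv hℓ huv) (PG_G1b_tau N ℓ u v huv)
      (PG_G1b_equiv_apply hℓ huv) γ UpperHalfPlane.I]
  -- `G - ∑ F ∘ δ_i` is constant
  have hconst := Fermat.Agent.S21_helper23_P1b.sub_const_of_hasDerivAt
    (F := G) (F' := fun z : ℍ => ∑ i : Option (Fin ℓ), F (PG_G1b_D ℓ i • z))
    (f := heckeT 2 ℓ ⇑f) hG.1 (PG_G1b_hasDerivAt_sum hF.1 hℓ.ne_zero)
    ((γ : SL(2, ℤ)) • UpperHalfPlane.I) UpperHalfPlane.I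
  have e1 : G ((γ : SL(2, ℤ)) • UpperHalfPlane.I) - G UpperHalfPlane.I =
      ∑ i : Option (Fin ℓ), (F (PG_G1b_D ℓ i • (γ : SL(2, ℤ)) • UpperHalfPlane.I) -
        F (PG_G1b_D ℓ i • UpperHalfPlane.I)) := by
    rw [Finset.sum_sub_distrib]
    linear_combination hconst
  rw [e1]
  refine Finset.sum_congr rfl fun i _ => ?_
  obtain ⟨g, hg⟩ := PG_G1b_D_eq (N := N) hℓ.ne_zero huv i
  rw [hg, mul_smul, mul_smul, PG_G1b_prim_smul N f hF, PG_G1b_prim_smul N f hF]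
  ring

/-! ### Normalized eigenforms are eigenvectors -/

theorem PG_G1b_qc_rel {N : ℕ} {g : CuspForm (Gamma0 N) 2}
    (hg : g.IsNormalizedEigenform) {ℓ : ℕ} (hℓ : ℓ.Prime) (hℓN : ¬ ℓ ∣ N) (n : ℕ) :
    ModularFormClass.qCoeff g (n * ℓ) +
        (if ℓ ∣ n then (ℓ : ℂ) * ModularFormClass.qCoeff g (n / ℓ) else 0) =
      ModularFormClass.qCoeff g ℓ * ModularFormClass.qCoeff g n := by
  rcases Nat.eq_zero_or_pos n with rfl | hn
  · have h0 : ModularFormClass.qCoeff (⇑g) 0 = 0 := Fermat.Agent.S49.qc_coeff_zero g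
    simp [h0]
  · obtain ⟨r, m, hm, rfl⟩ := Nat.exists_eq_pow_mul_and_not_dvd hn.ne' ℓ hℓ.ne_one
    have hcop : ∀ k : ℕ, (ℓ ^ k).Coprime m := fun k =>
      Nat.Coprime.pow_left k ((Nat.Prime.coprime_iff_not_dvd hℓ).mpr hm)
    have e1 : ℓ ^ r * m * ℓ = ℓ ^ (r + 1) * m := by ring
    rw [e1, hg.qCoeff_mul_of_coprime _ _ (hcop (r + 1)), hg.qCoeff_mul_of_coprime _ _ (hcop r)]
    rcases r with _ | r
    · have hnd : ¬ ℓ ∣ ℓ ^ 0 * m := by simpa using hm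
      rw [if_neg hnd]
      simp [hg.qCoeff_one]
    · have hd : ℓ ∣ ℓ ^ (r + 1) * m := Dvd.dvd.mul_right (dvd_pow_self ℓ (Nat.succ_ne_zero r)) m
      have e2 : ℓ ^ (r + 1) * m / ℓ = ℓ ^ r * m := by
        rw [pow_succ, mul_comm (ℓ ^ r) ℓ, mul_assoc, Nat.mul_div_cancel_left _ hℓ.pos]
      rw [if_pos hd, e2, hg.qCoeff_mul_of_coprime _ _ (hcop r),
        hg.qCoeff_prime_pow_of_not_dvd ℓ r hℓ hℓN]
      ring

theorem PG_eigen_of_normalized {N : ℕ} [NeZero N] {g : CuspForm (Gamma0 N) 2}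
    (hg : g.IsNormalizedEigenform) {ℓ : ℕ} (hℓ : ℓ.Prime) (hℓN : ¬ ℓ ∣ N) :
    CuspForm.heckeTLin 2 hℓ hℓN g = ModularFormClass.qCoeff g ℓ • g := by
  rw [← sub_eq_zero]
  refine Fermat.Agent.S49.eq_zero_of_qc _ fun n => ?_
  rw [Fermat.Agent.S49.qc_sub, Fermat.Agent.S49.qc_smul, Fermat.Agent.S49.qc_heckeT,
    PG_G1b_qc_rel hg hℓ hℓN n, sub_self]

end Fermat.Agent.G_helper23_G1b
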