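import Mathlib
import Fermat.Prelude.Def_ModularForm_HeckeOperator
import Fermat.Agent.G_helper6_Defs
import Fermat.Agent.G_helper23_G1b

/-!
# Project G, piece G7 step (iv): the product of the Hecke translates of a form with character

For a function `a` on `ℍ` transforming under `Gamma0 N` with weight `k` and character `χ`, the
product `∏ δ, a ∣[k] δ` over the `ℓ + 1` prelude Hecke matrices transforms with weight
`k * (ℓ + 1)` and character `transfer (χ ∘ PG_conj)`.  For `χ = PG_chi N p c` the latter is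
`PG_chi N p (PG_heckeHom N ℓ c)`.
-/

set_option autoImplicit false

open UpperHalfPlane ModularForm CongruenceSubgroup
open scoped MatrixGroups ModularForm Manifold
open Fermat.Agent.G_helper6_Defs

namespace Fermat.Agent.G_helper23_G7iv

open Fermat.Agent.G_helper23_G1bT Fermat.Agent.G_helper23_G1bC Fermat.Agent.G_helper23_G1bA
  Fermat.Agent.G_helper23_G1b

/-! ### The character of the transfer -/

/-- The transfer is functorial in the target. -/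
theorem PG_G7iv_transfer_comp {G : Type*} [Group G] {H : Subgroup G} [H.FiniteIndex]
    {A B : Type*} [CommGroup A] [CommGroup B] (f : A →* B) (ϕ : H →* A) (g : G) :
    f (MonoidHom.transfer ϕ g) = MonoidHom.transfer (f.comp ϕ) g := by
  letI : Fintype (G ⧸ H) := H.fintypeQuotientOfFiniteIndex
  rw [PG_G1b_transfer_section ϕ Quotient.out QuotientGroup.out_eq' g,
    PG_G1b_transfer_section (f.comp ϕ) Quotient.out QuotientGroup.out_eq' g, map_prod]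
  rfl

/-- The transfer is multiplicative in the character. -/
theorem PG_G7iv_transfer_mul {G : Type*} [Group G] {H : Subgroup G} [H.FiniteIndex]
    {A : Type*} [CommGroup A] (ϕ ψ : H →* A) (g : G) :
    MonoidHom.transfer (ϕ * ψ) g = MonoidHom.transfer ϕ g * MonoidHom.transfer ψ g := by
  letI : Fintype (G ⧸ H) := H.fintypeQuotientOfFiniteIndex
  rw [PG_G1b_transfer_section ϕ Quotient.out QuotientGroup.out_eq' g,
    PG_G1b_transfer_section ψ Quotient.out QuotientGroup.out_eq' g,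
    PG_G1b_transfer_section (ϕ * ψ) Quotient.out QuotientGroup.out_eq' g,
    ← Finset.prod_mul_distrib]
  rfl

/-- `n ↦ exp (2 π i n / p)`. -/
noncomputable def PG_G7iv_E (p : ℕ) : Multiplicative ℤ →* ℂˣ where
  toFun n := Units.mk0
    (Complex.exp (2 * Real.pi * Complex.I * ((Multiplicative.toAdd n : ℤ) : ℂ) / (p : ℂ)))
    (Complex.exp_ne_zero _)
  map_one' := by
    apply Units.ext
    simp
  map_mul' m n := by
    apply Units.ext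
    simp only [Units.val_mk0, Units.val_mul, toAdd_mul, Int.cast_add]
    rw [← Complex.exp_add]
    congr 1
    ring

theorem PG_G7iv_chi_eq (N p : ℕ) (c : Additive (Gamma0 N) →+ ℤ) :
    PG_chi N p c = (PG_G7iv_E p).comp (AddMonoidHom.toMultiplicativeRight c) := rfl

/-- `χ_{T_ℓ c} = transfer (χ_c ∘ conj)`. -/
theorem PG_G7iv_chi_heckeHom (N p ℓ : ℕ) [NeZero ℓ] [(PG_H N ℓ).FiniteIndex]
    (c : Additive (Gamma0 N) →+ ℤ) :
    PG_chi N p (PG_heckeHom N ℓ c) =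
      MonoidHom.transfer ((PG_chi N p c).comp (PG_conj N ℓ)) := by
  ext γ
  rw [PG_G7iv_chi_eq, PG_G7iv_chi_eq, MonoidHom.comp_assoc, ← PG_G7iv_transfer_comp,
    PG_heckeHom_def]
  rfl

/-! ### Automorphy of the product -/

/-- The product of the translates of `a` by the `ℓ + 1` prelude Hecke matrices
(same order as in `heckeT`). -/
noncomputable def PG_G7iv_prod (ℓ : ℕ) (k : ℤ) (a : ℍ → ℂ) : ℍ → ℂ :=
  (∏ j ∈ Finset.range ℓ, a ∣[k] heckeMatrix ℓ j) * a ∣[k] heckeDiagMatrix ℓ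

theorem PG_G7iv_prod_eq (ℓ : ℕ) (k : ℤ) (a : ℍ → ℂ) :
    PG_G7iv_prod ℓ k a = ∏ i : Option (Fin ℓ), a ∣[k] PG_G1b_D ℓ i := by
  rw [PG_G7iv_prod, Fintype.prod_option, Finset.prod_range, mul_comm]
  rfl

theorem PG_G7iv_σ_D (ℓ : ℕ) (i : Option (Fin ℓ)) : UpperHalfPlane.σ (PG_G1b_D ℓ i) = .refl ℝ ℂ := by
  rcases i with _ | j
  · exact σ_heckeDiagMatrix ℓ
  · exact σ_heckeMatrix ℓ j

/-- automorphy in slash form -/
theorem PG_G7iv_slash_of_aut {N : ℕ} {k : ℤ} {χ : Gamma0 N →* ℂˣ} {a : ℍ → ℂ}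
    (haut : ∀ (γ : Gamma0 N) (z : ℍ),
      a ((γ : SL(2, ℤ)) • z) = (χ γ : ℂ) * denom ((γ : SL(2, ℤ)) : GL (Fin 2) ℝ) z ^ k * a z)
    (γ : Gamma0 N) :
    a ∣[k] (Matrix.SpecialLinearGroup.mapGL ℝ (γ : SL(2, ℤ))) = (χ γ : ℂ) • a := by
  funext z
  have h : (a ∣[k] (Matrix.SpecialLinearGroup.mapGL ℝ (γ : SL(2, ℤ)))) z =
      a ((γ : SL(2, ℤ)) • z) * denom ((γ : SL(2, ℤ)) : GL (Fin 2) ℝ) z ^ (-k) :=
    ModularForm.SL_slash_apply (f := a) (k := k) (γ : SL(2, ℤ)) z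
  rw [h, haut γ z, Pi.smul_apply, smul_eq_mul, zpow_neg]
  have hd : denom ((γ : SL(2, ℤ)) : GL (Fin 2) ℝ) z ^ k ≠ 0 :=
    zpow_ne_zero k (denom_ne_zero _ z)
  field_simp

theorem PG_G7iv_aut_of_slash {N : ℕ} {k : ℤ} {c : ℂ} {a : ℍ → ℂ} (γ : Gamma0 N)
    (h : a ∣[k] (Matrix.SpecialLinearGroup.mapGL ℝ (γ : SL(2, ℤ))) = c • a) (z : ℍ) :
    a ((γ : SL(2, ℤ)) • z) = c * denom ((γ : SL(2, ℤ)) : GL (Fin 2) ℝ) z ^ k * a z := by
  have h1 : (a ∣[k] (Matrix.SpecialLinearGroup.mapGL ℝ (γ : SL(2, ℤ)))) z =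
      a ((γ : SL(2, ℤ)) • z) * denom ((γ : SL(2, ℤ)) : GL (Fin 2) ℝ) z ^ (-k) :=
    ModularForm.SL_slash_apply (f := a) (k := k) (γ : SL(2, ℤ)) z
  have h2 := congrFun h z
  rw [h1, Pi.smul_apply, smul_eq_mul, zpow_neg] at h2
  have hd : denom ((γ : SL(2, ℤ)) : GL (Fin 2) ℝ) z ^ k ≠ 0 :=
    zpow_ne_zero k (denom_ne_zero _ z)
  field_simp at h2
  linear_combination h2

section Aut

variable {N ℓ : ℕ} [NeZero ℓ]

/-- one factor: `(a ∣ D_{π i}) ∣ γ = χ (g_{π i} * conj h_i * g_i⁻¹) • (a ∣ D_i)` -/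
theorem PG_G7iv_factor {k : ℤ} {χ : Gamma0 N →* ℂˣ} {a : ℍ → ℂ}
    (haut : ∀ (γ : Gamma0 N) (z : ℍ),
      a ((γ : SL(2, ℤ)) • z) = (χ γ : ℂ) * denom ((γ : SL(2, ℤ)) : GL (Fin 2) ℝ) z ^ k * a z)
    (e : Option (Fin ℓ) ≃ Gamma0 N ⧸ PG_H N ℓ) (s : Option (Fin ℓ) → Gamma0 N)
    (hs : ∀ i, (s i : Gamma0 N ⧸ PG_H N ℓ) = e i)
    (g : Option (Fin ℓ) → Gamma0 N)
    (hg : ∀ i, PG_G1b_D ℓ i =
      Matrix.SpecialLinearGroup.mapGL ℝ ((g i : Gamma0 N) : SL(2, ℤ)) * PG_G1b_B ℓ s i)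
    (γ : Gamma0 N) (i : Option (Fin ℓ)) :
    (a ∣[k] PG_G1b_D ℓ (e.symm (γ • e i))) ∣[k]
        (Matrix.SpecialLinearGroup.mapGL ℝ (γ : SL(2, ℤ))) =
      ((χ (g (e.symm (γ • e i))) * χ (PG_conj N ℓ
          ⟨(s (e.symm (γ • e i)))⁻¹ * γ * s i, PG_G1b_indexed_mem e s hs γ i⟩) *
        (χ (g i))⁻¹ : ℂˣ) : ℂ) • (a ∣[k] PG_G1b_D ℓ i) := by
  have hgrp : ∀ x y z B : GL (Fin 2) ℝ, x * (y * B) = (x * y * z⁻¹) * (z * B) := by
    intro x y z B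
    group
  have key : PG_G1b_D ℓ (e.symm (γ • e i)) * Matrix.SpecialLinearGroup.mapGL ℝ (γ : SL(2, ℤ)) =
      Matrix.SpecialLinearGroup.mapGL ℝ
        (((g (e.symm (γ • e i)) * PG_conj N ℓ
          ⟨(s (e.symm (γ • e i)))⁻¹ * γ * s i, PG_G1b_indexed_mem e s hs γ i⟩ *
            (g i)⁻¹ : Gamma0 N) : SL(2, ℤ))) *
        PG_G1b_D ℓ i := by
    rw [hg (e.symm (γ • e i)), mul_assoc, PG_G1b_B_mul e s hs γ i,
      hgrp _ _ (Matrix.SpecialLinearGroup.mapGL ℝ ((g i : Gamma0 N) : SL(2, ℤ))), ← hg i]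
    simp only [Subgroup.coe_mul, Subgroup.coe_inv, map_mul, map_inv]
  rw [← SlashAction.slash_mul, key, SlashAction.slash_mul, PG_G7iv_slash_of_aut haut,
    ModularForm.smul_slash, PG_G7iv_σ_D]
  simp only [map_mul, map_inv, ContinuousAlgEquiv.refl_apply]

theorem PG_G7iv_slash {k : ℤ} {χ : Gamma0 N →* ℂˣ} {a : ℍ → ℂ}
    (haut : ∀ (γ : Gamma0 N) (z : ℍ),
      a ((γ : SL(2, ℤ)) • z) = (χ γ : ℂ) * denom ((γ : SL(2, ℤ)) : GL (Fin 2) ℝ) z ^ k * a z)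
    [(PG_H N ℓ).FiniteIndex]
    (e : Option (Fin ℓ) ≃ Gamma0 N ⧸ PG_H N ℓ) (s : Option (Fin ℓ) → Gamma0 N)
    (hs : ∀ i, (s i : Gamma0 N ⧸ PG_H N ℓ) = e i)
    (g : Option (Fin ℓ) → Gamma0 N)
    (hg : ∀ i, PG_G1b_D ℓ i =
      Matrix.SpecialLinearGroup.mapGL ℝ ((g i : Gamma0 N) : SL(2, ℤ)) * PG_G1b_B ℓ s i)
    (γ : Gamma0 N) :
    (PG_G7iv_prod ℓ k a) ∣[k * ((ℓ : ℤ) + 1)]
        (Matrix.SpecialLinearGroup.mapGL ℝ (γ : SL(2, ℤ))) =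
      ((MonoidHom.transfer (χ.comp (PG_conj N ℓ)) γ : ℂˣ) : ℂ) • PG_G7iv_prod ℓ k a := by
  let π : Option (Fin ℓ) ≃ Option (Fin ℓ) := e.trans ((MulAction.toPerm γ).trans e.symm)
  have hπ : ∀ i, π i = e.symm (γ • e i) := fun i => rfl
  have hcard : ((Finset.univ : Finset (Option (Fin ℓ))).card : ℤ) = (ℓ : ℤ) + 1 := by
    simp
  rw [PG_G7iv_prod_eq, ← hcard, ModularForm.prod_slash]
  have hdet : |((Matrix.GeneralLinearGroup.det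
      (Matrix.SpecialLinearGroup.mapGL ℝ (γ : SL(2, ℤ))) : ℝˣ) : ℝ)| = 1 := by
    simp
  rw [hdet, one_zpow, one_smul]
  rw [← Equiv.prod_comp π (fun i => (a ∣[k] PG_G1b_D ℓ i) ∣[k]
    (Matrix.SpecialLinearGroup.mapGL ℝ (γ : SL(2, ℤ))))]
  simp only [hπ]
  rw [Finset.prod_congr rfl (fun i _ => PG_G7iv_factor haut e s hs g hg γ i),
    Finset.prod_smul]
  congr 1
  rw [PG_G1b_transfer_indexed _ e s hs γ]
  push_cast
  rw [Finset.prod_mul_distrib, Finset.prod_mul_distrib]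
  have h1 : ∏ i : Option (Fin ℓ), ((χ (g (e.symm (γ • e i))) : ℂˣ) : ℂ) =
      ∏ i : Option (Fin ℓ), ((χ (g i) : ℂˣ) : ℂ) :=
    Equiv.prod_comp π (fun i => ((χ (g i) : ℂˣ) : ℂ))
  rw [h1, Finset.prod_inv_distrib]
  have h2 : (∏ i : Option (Fin ℓ), ((χ (g i) : ℂˣ) : ℂ)) ≠ 0 :=
    Finset.prod_ne_zero_iff.mpr fun i _ => Units.ne_zero _
  field_simp
  rfl

end Aut

/-- **Automorphy of the product** (`ℓ` prime, `ℓ ∤ N`). -/
theorem PG_G7iv_aut (N ℓ : ℕ) [NeZero N] [NeZero ℓ] [(PG_H N ℓ).FiniteIndex]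
    (hℓ : ℓ.Prime) (hℓN : ¬ ℓ ∣ N) (k : ℤ)
    (χ : Gamma0 N →* ℂˣ) (a : ℍ → ℂ)
    (haut : ∀ (γ : Gamma0 N) (z : ℍ),
      a ((γ : SL(2, ℤ)) • z) = (χ γ : ℂ) * denom ((γ : SL(2, ℤ)) : GL (Fin 2) ℝ) z ^ k * a z)
    (γ : Gamma0 N) (z : ℍ) :
    PG_G7iv_prod ℓ k a ((γ : SL(2, ℤ)) • z) =
      ((MonoidHom.transfer (χ.comp (PG_conj N ℓ)) γ : ℂˣ) : ℂ) *
        denom ((γ : SL(2, ℤ)) : GL (Fin 2) ℝ) z ^ (k * ((ℓ : ℤ) + 1)) *
        PG_G7iv_prod ℓ k a z := by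
  obtain ⟨u, v, huv⟩ := PG_G1b_exists_bezout hℓ hℓN
  choose g hg using PG_G1b_D_eq (N := N) hℓ.ne_zero huv
  exact PG_G7iv_aut_of_slash γ
    (PG_G7iv_slash haut (PG_G1b_equiv hℓ huv) (PG_G1b_tau N ℓ u v huv)
      (PG_G1b_equiv_apply hℓ huv) g hg γ) z

/-! ### Holomorphy and boundedness at the cusps -/

theorem PG_G7iv_holo (ℓ : ℕ) (k : ℤ) {a : ℍ → ℂ} (ha : MDifferentiable 𝓘(ℂ) 𝓘(ℂ) a) :
    MDifferentiable 𝓘(ℂ) 𝓘(ℂ) (PG_G7iv_prod ℓ k a) := by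
  unfold PG_G7iv_prod
  refine MDifferentiable.mul ?_ (ha.slash k _)
  exact MDifferentiable.prod fun j _ => ha.slash k _

/-- rational matrices map `∞` to a rational cusp -/
theorem PG_G7iv_isCusp_rat (g : GL (Fin 2) ℚ) :
    IsCusp ((Matrix.GeneralLinearGroup.map (Rat.castHom ℝ) g) • (OnePoint.infty : OnePoint ℝ)) 𝒮ℒ := by
  rw [isCusp_SL2Z_iff]
  refine ⟨g • OnePoint.infty, ?_⟩
  rw [← Rat.coe_castHom, OnePoint.map_smul]
  rfl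

/-- boundedness of one slash by a rational matrix -/
theorem PG_G7iv_bdd_rat {k : ℤ} {a : ℍ → ℂ}
    (hbdd : ∀ σ : SL(2, ℤ), IsBoundedAtImInfty (a ∣[k] σ)) (g : GL (Fin 2) ℚ) :
    IsBoundedAtImInfty (a ∣[k] (Matrix.GeneralLinearGroup.map (Rat.castHom ℝ) g)) := by
  have hc := PG_G7iv_isCusp_rat g
  have h1 : OnePoint.IsBoundedAt
      ((Matrix.GeneralLinearGroup.map (Rat.castHom ℝ) g) • (OnePoint.infty : OnePoint ℝ)) a k := by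
    rw [OnePoint.isBoundedAt_iff_exists_SL2Z hc]
    obtain ⟨γ, hγ⟩ := isCusp_SL2Z_iff'.mp hc
    exact ⟨γ, hγ.symm, hbdd γ⟩
  exact h1 _ rfl

theorem PG_G7iv_exists_rat (ℓ : ℕ) (i : Option (Fin ℓ)) (σ : SL(2, ℤ)) :
    ∃ g : GL (Fin 2) ℚ, PG_G1b_D ℓ i * Matrix.SpecialLinearGroup.mapGL ℝ σ =
      Matrix.GeneralLinearGroup.map (Rat.castHom ℝ) g := by
  have hσ : ∃ g : GL (Fin 2) ℚ, Matrix.SpecialLinearGroup.mapGL ℝ σ =
      Matrix.GeneralLinearGroup.map (Rat.castHom ℝ) g :=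
    ⟨Matrix.SpecialLinearGroup.mapGL ℚ σ, by
      ext a b
      simp [Matrix.SpecialLinearGroup.mapGL_coe_matrix]⟩
  have hD : ∃ g : GL (Fin 2) ℚ, PG_G1b_D ℓ i =
      Matrix.GeneralLinearGroup.map (Rat.castHom ℝ) g := by
    rcases eq_or_ne ℓ 0 with rfl | hℓ
    · exact ⟨1, by rcases i with _ | j <;> simp [PG_G1b_D]⟩
    · rcases i with _ | j
      · refine ⟨Matrix.GeneralLinearGroup.mkOfDetNeZero !![(ℓ : ℚ), 0; 0, 1]
          (by rw [Matrix.det_fin_two_of]; simpa using hℓ), ?_⟩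
        ext a b
        fin_cases a <;> fin_cases b <;>
          simp [PG_G1b_D, heckeDiagMatrix, hℓ, upperTriangularGL,
            Matrix.GeneralLinearGroup.mkOfDetNeZero]
      · refine ⟨Matrix.GeneralLinearGroup.mkOfDetNeZero !![(1 : ℚ), ((j : ℕ) : ℚ); 0, (ℓ : ℚ)]
          (by rw [Matrix.det_fin_two_of]; simpa using hℓ), ?_⟩
        ext a b
        fin_cases a <;> fin_cases b <;>
          simp [PG_G1b_D, heckeMatrix, hℓ, upperTriangularGL,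
            Matrix.GeneralLinearGroup.mkOfDetNeZero]
  obtain ⟨g1, h1⟩ := hD
  obtain ⟨g2, h2⟩ := hσ
  exact ⟨g1 * g2, by rw [h1, h2, map_mul]⟩

theorem PG_G7iv_bdd (ℓ : ℕ) (k : ℤ) {a : ℍ → ℂ}
    (hbdd : ∀ σ : SL(2, ℤ), IsBoundedAtImInfty (a ∣[k] σ)) (σ : SL(2, ℤ)) :
    IsBoundedAtImInfty ((PG_G7iv_prod ℓ k a) ∣[k * ((ℓ : ℤ) + 1)] σ) := by
  have hcard : ((Finset.univ : Finset (Option (Fin ℓ))).card : ℤ) = (ℓ : ℤ) + 1 := by
    simp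
  rw [PG_G7iv_prod_eq, ← hcard, ModularForm.SL_slash, ModularForm.prod_slash]
  have hdet : |((Matrix.GeneralLinearGroup.det
      (Matrix.SpecialLinearGroup.mapGL ℝ σ) : ℝˣ) : ℝ)| = 1 := by
    simp
  have hdet' : |((Matrix.GeneralLinearGroup.det
      ((σ : SL(2, ℤ)) : GL (Fin 2) ℝ) : ℝˣ) : ℝ)| = 1 := hdet
  rw [hdet', one_zpow, one_smul]
  have hmem : ∀ i : Option (Fin ℓ),
      (a ∣[k] PG_G1b_D ℓ i) ∣[k] ((σ : SL(2, ℤ)) : GL (Fin 2) ℝ) ∈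
        boundedAtImInftySubalgebra ℂ := by
    intro i
    obtain ⟨g, hg⟩ := PG_G7iv_exists_rat ℓ i σ
    have h1 : (a ∣[k] PG_G1b_D ℓ i) ∣[k] ((σ : SL(2, ℤ)) : GL (Fin 2) ℝ) =
        a ∣[k] (Matrix.GeneralLinearGroup.map (Rat.castHom ℝ) g) := by
      rw [← hg, SlashAction.slash_mul]
      rfl
    rw [h1]
    exact PG_G7iv_bdd_rat hbdd g
  exact Subalgebra.prod_mem _ fun i _ => hmem i

/-! ### Non-vanishing -/

theorem PG_G7iv_slash_eq_zero_iff (k : ℤ) (g : GL (Fin 2) ℝ) (a : ℍ → ℂ) :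
    a ∣[k] g = 0 ↔ a = 0 := by
  constructor
  · intro h
    have h1 : (a ∣[k] g) ∣[k] g⁻¹ = 0 := by rw [h, SlashAction.zero_slash]
    rwa [← SlashAction.slash_mul, mul_inv_cancel, SlashAction.slash_one] at h1
  · rintro rfl
    exact SlashAction.zero_slash _ _

theorem PG_G7iv_prod_ne_zero (ℓ : ℕ) (k : ℤ) {a : ℍ → ℂ} (ha : MDifferentiable 𝓘(ℂ) 𝓘(ℂ) a)
    (h0 : a ≠ 0) : PG_G7iv_prod ℓ k a ≠ 0 := by
  rw [PG_G7iv_prod_eq]
  intro h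
  rw [UpperHalfPlane.prod_eq_zero_iff (fun i _ => ha.slash k _)] at h
  obtain ⟨i, -, hi⟩ := h
  exact h0 ((PG_G7iv_slash_eq_zero_iff k _ a).mp hi)

/-! ### The product is a form -/

theorem PG_G7iv_isForm (N ℓ : ℕ) [NeZero N] [NeZero ℓ] [(PG_H N ℓ).FiniteIndex]
    (hℓ : ℓ.Prime) (hℓN : ¬ ℓ ∣ N) (k : ℤ) (χ : Gamma0 N →* ℂˣ) (a : ℍ → ℂ)
    (ha : PG_IsForm N k χ a) :
    PG_IsForm N (k * ((ℓ : ℤ) + 1)) (MonoidHom.transfer (χ.comp (PG_conj N ℓ)))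
      (PG_G7iv_prod ℓ k a) where
  holo := PG_G7iv_holo ℓ k ha.holo
  aut := PG_G7iv_aut N ℓ hℓ hℓN k χ a ha.aut
  bdd := PG_G7iv_bdd ℓ k ha.bdd

theorem PG_G7iv_transfer_one {G : Type*} [Group G] {H : Subgroup G} [H.FiniteIndex]
    {A : Type*} [CommGroup A] : MonoidHom.transfer (1 : H →* A) = 1 := by
  ext g
  letI : Fintype (G ⧸ H) := H.fintypeQuotientOfFiniteIndex
  rw [PG_G1b_transfer_section (1 : H →* A) Quotient.out QuotientGroup.out_eq' g]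
  simp

/-- The version consumed by G7: character `χ_c * χb`. -/
theorem PG_G7iv_isForm_chi (N p ℓ : ℕ) [NeZero N] [NeZero ℓ] [(PG_H N ℓ).FiniteIndex]
    (hℓ : ℓ.Prime) (hℓN : ¬ ℓ ∣ N) (k : ℤ) (c : Additive (Gamma0 N) →+ ℤ)
    (χb : Gamma0 N →* ℂˣ) (a : ℍ → ℂ) (ha : PG_IsForm N k (PG_chi N p c * χb) a) :
    PG_IsForm N (k * ((ℓ : ℤ) + 1))
      (PG_chi N p (PG_heckeHom N ℓ c) * MonoidHom.transfer (χb.comp (PG_conj N ℓ)))
      (PG_G7iv_prod ℓ k a) := by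
  have h := PG_G7iv_isForm N ℓ hℓ hℓN k _ a ha
  have e : MonoidHom.transfer ((PG_chi N p c * χb).comp (PG_conj N ℓ)) =
      PG_chi N p (PG_heckeHom N ℓ c) * MonoidHom.transfer (χb.comp (PG_conj N ℓ)) := by
    ext γ
    rw [MonoidHom.mul_comp, PG_G7iv_transfer_mul, PG_G7iv_chi_heckeHom]
    rfl
  rwa [e] at h

/-- Trivial character. -/
theorem PG_G7iv_isForm_one (N ℓ : ℕ) [NeZero N] [NeZero ℓ] [(PG_H N ℓ).FiniteIndex]
    (hℓ : ℓ.Prime) (hℓN : ¬ ℓ ∣ N) (k : ℤ) (b : ℍ → ℂ) (hb : PG_IsForm N k 1 b) :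
    PG_IsForm N (k * ((ℓ : ℤ) + 1)) 1 (PG_G7iv_prod ℓ k b) := by
  have h := PG_G7iv_isForm N ℓ hℓ hℓN k _ b hb
  have e : MonoidHom.transfer ((1 : Gamma0 N →* ℂˣ).comp (PG_conj N ℓ)) = 1 := by
    rw [MonoidHom.one_comp, PG_G7iv_transfer_one]
  rwa [e] at h

/-- Character `χ_c * 1`, as in `PG_THETA.char` with `χb = 1`. -/
theorem PG_G7iv_isForm_chi_one (N p ℓ : ℕ) [NeZero N] [NeZero ℓ] [(PG_H N ℓ).FiniteIndex]
    (hℓ : ℓ.Prime) (hℓN : ¬ ℓ ∣ N) (k : ℤ) (c : Additive (Gamma0 N) →+ ℤ)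
    (a : ℍ → ℂ) (ha : PG_IsForm N k (PG_chi N p c * 1) a) :
    PG_IsForm N (k * ((ℓ : ℤ) + 1)) (PG_chi N p (PG_heckeHom N ℓ c) * 1)
      (PG_G7iv_prod ℓ k a) := by
  have h := PG_G7iv_isForm_chi N p ℓ hℓ hℓN k c 1 a ha
  have e : MonoidHom.transfer ((1 : Gamma0 N →* ℂˣ).comp (PG_conj N ℓ)) = 1 := by
    rw [MonoidHom.one_comp, PG_G7iv_transfer_one]
  rwa [e] at h

end Fermat.Agent.G_helper23_G7iv
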