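import Mathlib
import Fermat.Agent.G_helper28_G7Defs
import Fermat.Agent.G_helper23_G7iv

/-!
# Project G, piece G7 part (1): the contract `PG7_FORM` and the character of the transfer

`PG7_form : PG7_FORM N ℓ` and `PG7_transferChar_chi`, in the shape of `G_helper28_G7Defs`.
-/

set_option autoImplicit false

open UpperHalfPlane ModularForm CongruenceSubgroup AlgebraicCurve
open scoped MatrixGroups ModularForm Manifold
open Fermat.Agent.G_helper6_Defs Fermat.Agent.G_helper28_G7Defs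

namespace Fermat.Agent.G_helper23_G7form

open Fermat.Agent.G_helper23_G1bC Fermat.Agent.G_helper23_G7iv

theorem PG7_form (N ℓ : ℕ) [NeZero N] [NeZero ℓ] (hℓ : ℓ.Prime) (hℓN : ¬ ℓ ∣ N) :
    PG7_FORM N ℓ := by
  obtain ⟨u, v, huv⟩ := PG_G1b_exists_bezout hℓ hℓN
  haveI hfi : (PG_H N ℓ).FiniteIndex := PG_G1b_finiteIndex (N := N) hℓ huv
  intro k χ a ha
  rw [PG7_transferChar_def, PG7_heckeProd_def, ← PG_G7iv_prod_eq]
  exact PG_G7iv_isForm N ℓ hℓ hℓN k χ a ha

theorem PG7_transferChar_chi (N p ℓ : ℕ) [NeZero N] [NeZero ℓ]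
    (c : Additive (Gamma0 N) →+ ℤ) :
    PG7_transferChar N ℓ (PG_chi N p c) = PG_chi N p (PG_heckeHom N ℓ c) := by
  by_cases h : (PG_H N ℓ).FiniteIndex
  · haveI := h
    rw [PG7_transferChar_def, PG_G7iv_chi_heckeHom]
  · rw [PG7_transferChar, dif_neg h, PG_heckeHom, dif_neg h]
    ext γ
    simp [PG_chi_apply]

end Fermat.Agent.G_helper23_G7form
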