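import Mathlib
import Fermat.Agent.G_helper6_Defs
import Fermat.Agent.G_helper3_G1aHECKEHOM

/-!
# Project G, piece G1c-COMM: the Hecke operators on `Hom (Gamma0 N, A)` commute

* `PG_G1c_transfer_smul`: naturality of the transfer under automorphisms preserving the subgroup.
* `PG_heckeHom_charInvolution`: `T_ℓ` commutes with the prelude involution `charInvolution`.

The commutation of the `T_ℓ` on parabolic homomorphisms is in `G_helper24_G1cCOMM2.lean`.
-/

set_option autoImplicit false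
set_option linter.style.haveILetI false
set_option linter.unusedSectionVars false
set_option linter.unusedVariables false

open UpperHalfPlane ModularForm CongruenceSubgroup AlgebraicCurve
open scoped MatrixGroups ModularForm Manifold TensorProduct
open Fermat.Agent.G_helper6_Defs Fermat.Agent.G_helper3_G1aHECKEHOM

noncomputable section

namespace Fermat.Agent.G_helper24_G1cCOMM

/-! ### Naturality of the transfer -/

section Transfer

open scoped Pointwise
open Subgroup Subgroup.leftTransversals MulAction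

variable {G : Type*} [Group G] {H : Subgroup G} {A : Type*} [CommGroup A]

/-- The automorphisms of `G` preserving the subgroup `H`. -/
def PG_G1c_stab (H : Subgroup G) : Subgroup (MulAut G) where
  carrier := {σ | ∀ g, σ g ∈ H ↔ g ∈ H}
  one_mem' := fun g => Iff.rfl
  mul_mem' := fun {a b} ha hb g => by rw [MulAut.mul_apply, ha, hb]
  inv_mem' := fun {a} ha g => by
    rw [← ha (a⁻¹ g)]
    simp

theorem PG_G1c_stab_smul (σ : PG_G1c_stab H) (g : G) : σ • g = (σ : MulAut G) g := rfl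

instance PG_G1c_quotientAction : MulAction.QuotientAction (PG_G1c_stab H) H where
  inv_mul_mem := fun σ a a' h => by
    have : (σ • a)⁻¹ * σ • a' = (σ : MulAut G) (a⁻¹ * a') := by
      rw [PG_G1c_stab_smul, PG_G1c_stab_smul, map_mul, map_inv]
    rw [this]
    exact (σ.2 _).mpr h

/-- Restriction to `H` of an automorphism preserving `H`. -/
def PG_G1c_stabRes (σ : PG_G1c_stab H) : H →* H where
  toFun h := ⟨(σ : MulAut G) h, (σ.2 _).mpr h.2⟩
  map_one' := by ext; simp
  map_mul' a b := by ext; simp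

theorem PG_G1c_stabRes_coe (σ : PG_G1c_stab H) (h : H) :
    ((PG_G1c_stabRes σ h : H) : G) = (σ : MulAut G) h := rfl

variable [H.FiniteIndex]

theorem PG_G1c_diff_smul (ϕ : H →* A) (σ : PG_G1c_stab H) (S T : H.LeftTransversal) :
    diff ϕ (σ • S) (σ • T) = diff (ϕ.comp (PG_G1c_stabRes σ)) S T := by
  let _ := H.fintypeQuotientOfFiniteIndex
  unfold diff
  refine Fintype.prod_equiv (MulAction.toPerm σ).symm _ _ fun q => ?_
  simp only [MonoidHom.comp_apply]
  congr 1
  apply Subtype.ext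
  simp only [PG_G1c_stabRes, MonoidHom.coe_mk, OneHom.coe_mk, smul_apply_eq_smul_apply_inv_smul,
    toPerm_symm_apply, PG_G1c_stab_smul, map_mul, map_inv]

/-- **Naturality of the transfer** under an automorphism `σ` of `G` preserving `H`:
`transfer ϕ (σ g) = transfer (ϕ ∘ σ|_H) g`. -/
theorem PG_G1c_transfer_smul (ϕ : H →* A) (σ : PG_G1c_stab H) (g : G) :
    MonoidHom.transfer ϕ ((σ : MulAut G) g) =
      MonoidHom.transfer (ϕ.comp (PG_G1c_stabRes σ)) g := by
  rw [MonoidHom.transfer_def ϕ (σ • (default : H.LeftTransversal)),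
    MonoidHom.transfer_def (ϕ.comp (PG_G1c_stabRes σ)) (default : H.LeftTransversal),
    ← PG_G1c_diff_smul]
  congr 1
  apply Subtype.ext
  show ((σ : MulAut G) g) • (σ • ((default : H.LeftTransversal) : Set G))
    = σ • (g • ((default : H.LeftTransversal) : Set G))
  ext x
  constructor
  · rintro ⟨-, ⟨t, ht, rfl⟩, rfl⟩
    refine ⟨g • t, ⟨t, ht, rfl⟩, ?_⟩
    show σ • (g • t) = ((σ : MulAut G) g) • (σ • t)
    rw [PG_G1c_stab_smul, PG_G1c_stab_smul, smul_eq_mul, smul_eq_mul, map_mul]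
  · rintro ⟨-, ⟨t, ht, rfl⟩, rfl⟩
    refine ⟨σ • t, ⟨t, ht, rfl⟩, ?_⟩
    show ((σ : MulAut G) g) • (σ • t) = σ • (g • t)
    rw [PG_G1c_stab_smul, PG_G1c_stab_smul, smul_eq_mul, smul_eq_mul, map_mul]

end Transfer

/-! ### The involution -/

section Involution

open ModularCurve.Period

/-- `jConjGamma0` as an automorphism of `Gamma0 N`. -/
def PG_G1c_J (N : ℕ) : MulAut (Gamma0 N) :=
  { toFun := jConjGamma0 N
    invFun := jConjGamma0 N
    left_inv := jConjGamma0_jConjGamma0 N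
    right_inv := jConjGamma0_jConjGamma0 N
    map_mul' := map_mul (jConjGamma0 N) }

theorem PG_G1c_J_apply (N : ℕ) (γ : Gamma0 N) : PG_G1c_J N γ = jConjGamma0 N γ := rfl

theorem PG_G1c_J_mem_stab (N ℓ : ℕ) : PG_G1c_J N ∈ PG_G1c_stab (PG_H N ℓ) := by
  intro g
  rw [PG_mem_H, PG_mem_H, PG_G1c_J_apply, jConjGamma0_coe, jConjSL_coe,
    jConjMat_apply_one_zero, dvd_neg]

theorem PG_G1c_conjMat_jConjMat (ℓ : ℕ) (B : Matrix (Fin 2) (Fin 2) ℤ)
    (h : (ℓ : ℤ) ∣ B 1 0) :
    PG_conjMat ℓ (jConjMat B) = jConjMat (PG_conjMat ℓ B) := by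
  ext i j
  fin_cases i <;> fin_cases j
  · simp [PG_conjMat, jConjMat]
  · simp [PG_conjMat, jConjMat]
  · simp only [PG_conjMat, jConjMat, Fin.mk_one, Fin.isValue, Fin.zero_eta,
      Matrix.of_apply, Matrix.cons_val', Matrix.cons_val_zero, Matrix.cons_val_one,
      Matrix.cons_val_fin_one]
    exact Int.neg_ediv_of_dvd h
  · simp [PG_conjMat, jConjMat]

/-- conjugation by `diag (ℓ, 1)` commutes with the involution -/
theorem PG_G1c_conj_J (N ℓ : ℕ) [NeZero ℓ] (u : ↥(PG_H N ℓ)) :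
    PG_conj N ℓ (PG_G1c_stabRes ⟨PG_G1c_J N, PG_G1c_J_mem_stab N ℓ⟩ u) =
      jConjGamma0 N (PG_conj N ℓ u) := by
  apply Subtype.ext
  apply Subtype.ext
  rw [PG_conj_coe, jConjGamma0_coe, jConjSL_coe, PG_conj_coe, PG_G1c_stabRes_coe]
  show PG_conjMat ℓ (((jConjGamma0 N (u : Gamma0 N) : Gamma0 N) : SL(2, ℤ)) :
    Matrix (Fin 2) (Fin 2) ℤ) = _
  rw [jConjGamma0_coe, jConjSL_coe]
  exact PG_G1c_conjMat_jConjMat ℓ _ (PG_dvd_of_mem_H u.2)

theorem PG_heckeHom_charInvolution (N ℓ : ℕ) [NeZero N] [NeZero ℓ] (hℓ : ℓ.Prime)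
    (hℓN : ¬ ℓ ∣ N) (c : Additive (Gamma0 N) →+ ℂ) :
    PG_heckeHom N ℓ (ModularCurve.Period.charInvolution N ℂ ℂ c) =
      ModularCurve.Period.charInvolution N ℂ ℂ (PG_heckeHom N ℓ c) := by
  haveI := PG_finiteIndex_H N ℓ
  rw [PG_heckeHom_def, PG_heckeHom_def]
  ext γ
  show Multiplicative.toAdd (MonoidHom.transfer
      ((AddMonoidHom.toMultiplicativeRight (charInvolution N ℂ ℂ c)).comp (PG_conj N ℓ)) γ) =
    Multiplicative.toAdd (MonoidHom.transfer
      ((AddMonoidHom.toMultiplicativeRight c).comp (PG_conj N ℓ))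
        (jConjGamma0 N (Additive.toMul γ)))
  congr 1
  have key := PG_G1c_transfer_smul ((AddMonoidHom.toMultiplicativeRight c).comp (PG_conj N ℓ))
    ⟨PG_G1c_J N, PG_G1c_J_mem_stab N ℓ⟩ (Additive.toMul γ)
  rw [show jConjGamma0 N (Additive.toMul γ) = (PG_G1c_J N) (Additive.toMul γ) from rfl]
  have hcomp : (AddMonoidHom.toMultiplicativeRight (charInvolution N ℂ ℂ c)).comp (PG_conj N ℓ) =
      ((AddMonoidHom.toMultiplicativeRight c).comp (PG_conj N ℓ)).comp
        (PG_G1c_stabRes ⟨PG_G1c_J N, PG_G1c_J_mem_stab N ℓ⟩) := by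
    refine MonoidHom.ext fun u => ?_
    show Multiplicative.ofAdd (c (Additive.ofMul (jConjGamma0 N (PG_conj N ℓ u)))) =
      Multiplicative.ofAdd (c (Additive.ofMul
        (PG_conj N ℓ (PG_G1c_stabRes ⟨PG_G1c_J N, PG_G1c_J_mem_stab N ℓ⟩ u))))
    rw [PG_G1c_conj_J]
  rw [hcomp]
  exact key.symm

end Involution

end Fermat.Agent.G_helper24_G1cCOMM
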