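import Mathlib
import Fermat.Agent.S20_Defs

set_option autoImplicit false

open UpperHalfPlane ModularForm CongruenceSubgroup
open scoped MatrixGroups ModularForm Manifold Topology
open Fermat.Agent.S20

namespace Fermat.Agent.S20_helper17_B4

/-- Division lemma on an open subset of `ℂ`. -/
theorem B4_div_on_open {U : Set ℂ} (hU : IsOpen U) (f p : ℂ → ℂ)
    (hf : DifferentiableOn ℂ f U) (hp : DifferentiableOn ℂ p U)
    (h : ∀ w ∈ U, p w = 0 → f w = 0 ∧ deriv p w ≠ 0) :
    ∃ g : ℂ → ℂ, DifferentiableOn ℂ g U ∧ ∀ w ∈ U, f w = p w * g w := by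
  classical
  refine ⟨fun w => if p w = 0 then deriv f w / deriv p w else f w / p w, ?_, ?_⟩
  · intro w₀ hw₀
    apply DifferentiableAt.differentiableWithinAt
    have hUn : U ∈ 𝓝 w₀ := hU.mem_nhds hw₀
    by_cases hp0 : p w₀ = 0
    · obtain ⟨hf0, hdp⟩ := h w₀ hw₀ hp0
      have hdf : DifferentiableOn ℂ (dslope f w₀) U := (Complex.differentiableOn_dslope hUn).mpr hf
      have hdpd : DifferentiableOn ℂ (dslope p w₀) U := (Complex.differentiableOn_dslope hUn).mpr hp
      have hne : dslope p w₀ w₀ ≠ 0 := by rw [dslope_same]; exact hdp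
      have hcont : ContinuousAt (dslope p w₀) w₀ := (hdpd.differentiableAt hUn).continuousAt
      have hev : ∀ᶠ w in 𝓝 w₀, dslope p w₀ w ≠ 0 := hcont.eventually_ne hne
      have hquot : DifferentiableAt ℂ (fun w => dslope f w₀ w / dslope p w₀ w) w₀ :=
        (hdf.differentiableAt hUn).div (hdpd.differentiableAt hUn) hne
      refine hquot.congr_of_eventuallyEq ?_
      filter_upwards [hev, hUn] with w hw hwU
      have e1 : p w = (w - w₀) * dslope p w₀ w := by
        have := sub_smul_dslope p w₀ w
        rw [smul_eq_mul, hp0, sub_zero] at this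
        exact this.symm
      have e2 : f w = (w - w₀) * dslope f w₀ w := by
        have := sub_smul_dslope f w₀ w
        rw [smul_eq_mul, hf0, sub_zero] at this
        exact this.symm
      by_cases hww : w = w₀
      · subst hww
        simp only [hp0, if_true]
        rw [dslope_same, dslope_same]
      · have hpw : p w ≠ 0 := by
          rw [e1]
          exact mul_ne_zero (sub_ne_zero.mpr hww) hw
        simp only [hpw, if_false]
        rw [e1, e2]
        rw [mul_div_mul_left _ _ (sub_ne_zero.mpr hww)]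
    · have hcont : ContinuousAt p w₀ := (hp.differentiableAt hUn).continuousAt
      have hev : ∀ᶠ w in 𝓝 w₀, p w ≠ 0 := hcont.eventually_ne hp0
      have hquot : DifferentiableAt ℂ (fun w => f w / p w) w₀ :=
        (hf.differentiableAt hUn).div (hp.differentiableAt hUn) hp0
      refine hquot.congr_of_eventuallyEq ?_
      filter_upwards [hev] with w hw
      simp only [hw, if_false]
  · intro w hw
    by_cases hp0 : p w = 0
    · simp only [hp0, if_true, zero_mul]
      exact (h w hw hp0).1
    · simp only [hp0, if_false]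
      field_simp

theorem B4 (F P : ℍ → ℂ) (hF : MDifferentiable 𝓘(ℂ) 𝓘(ℂ) F) (hP : MDifferentiable 𝓘(ℂ) 𝓘(ℂ) P) (h : ∀ z : ℍ, P z = 0 → F z = 0 ∧ deriv (P ∘ ofComplex) z ≠ 0) : ∃ G : ℍ → ℂ, MDifferentiable 𝓘(ℂ) 𝓘(ℂ) G ∧ F = P * G := by
  rw [UpperHalfPlane.mdifferentiable_iff] at hF hP
  obtain ⟨g, hg, hfg⟩ := B4_div_on_open isOpen_upperHalfPlaneSet (F ∘ ofComplex) (P ∘ ofComplex)
    hF hP (fun w hw hpw => by
      have hw' : 0 < w.im := hw
      have e : (ofComplex w : ℂ) = w := by rw [ofComplex_apply_of_im_pos hw']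
      have := h (ofComplex w) hpw
      rw [e] at this
      exact this)
  refine ⟨fun z => g z, ?_, ?_⟩
  · rw [UpperHalfPlane.mdifferentiable_iff]
    refine hg.congr ?_
    intro w hw
    have hw' : 0 < w.im := hw
    show g (ofComplex w : ℂ) = g w
    rw [ofComplex_apply_of_im_pos hw']
  · funext z
    have := hfg (z : ℂ) z.im_pos
    simp only [Function.comp_apply, ofComplex_apply] at this
    simpa using this

end Fermat.Agent.S20_helper17_B4
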