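import Fermat.Agent.S20_Core
import Fermat.Agent.S20_helper17_B4
import Fermat.Agent.S20_helper8_B1

set_option autoImplicit false

open UpperHalfPlane ModularForm CongruenceSubgroup
open scoped MatrixGroups ModularForm Manifold Topology
open Fermat.Agent.S20

namespace Fermat.Agent.S20_helper10_E0

/-- A continuous function killed by a holomorphic function with simple zeros vanishes. -/
theorem eq_zero_of_mul_eq_zero {P H : ℍ → ℂ} (hP : MDifferentiable 𝓘(ℂ) 𝓘(ℂ) P)
    (hH : Continuous H)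
    (hsimple : ∀ z : ℍ, P z = 0 → deriv (P ∘ ofComplex) z ≠ 0)
    (h : ∀ z : ℍ, P z * H z = 0) : H = 0 := by
  funext z
  by_cases hz : P z = 0
  · -- use isolatedness of the zero
    have hd : DifferentiableAt ℂ (P ∘ ofComplex) (z : ℂ) := by
      rw [UpperHalfPlane.mdifferentiable_iff] at hP
      exact (hP (z : ℂ) z.im_pos).differentiableAt (isOpen_upperHalfPlaneSet.mem_nhds z.im_pos)
    have hne : ∀ᶠ x in 𝓝[≠] (z : ℂ), (P ∘ ofComplex) x ≠ 0 :=
      hd.hasDerivAt.eventually_ne (c := 0) (hsimple z hz)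
    have hcont : ContinuousAt (H ∘ ofComplex) (z : ℂ) := by
      have h1 : ContinuousAt ofComplex (z : ℂ) :=
        (UpperHalfPlane.contMDiffAt_ofComplex (n := 0) z.im_pos).continuousAt
      exact (hH.continuousAt).comp h1
    have hev : ∀ᶠ x in 𝓝[≠] (z : ℂ), (H ∘ ofComplex) x = 0 := by
      filter_upwards [hne] with x hx
      have := h (ofComplex x)
      rcases mul_eq_zero.mp this with h0 | h0
      · exact absurd h0 hx
      · exact h0
    have hlim : Filter.Tendsto (H ∘ ofComplex) (𝓝[≠] (z : ℂ)) (𝓝 ((H ∘ ofComplex) (z : ℂ))) :=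
      hcont.tendsto.mono_left nhdsWithin_le_nhds
    have hlim0 : Filter.Tendsto (H ∘ ofComplex) (𝓝[≠] (z : ℂ)) (𝓝 0) :=
      Filter.Tendsto.congr' (Filter.EventuallyEq.symm hev) tendsto_const_nhds
    have := tendsto_nhds_unique hlim hlim0
    simpa using this
  · rcases mul_eq_zero.mp (h z) with h0 | h0
    · exact absurd h0 hz
    · exact h0

theorem E0_div {N : ℕ} [NeZero N] {w wP : ℤ} {F P : ℍ → ℂ} (hF : IsMF N w F) (hP : IsMF1 wP P)
    (hPinf : ∃ c : ℂ, c ≠ 0 ∧ Filter.Tendsto P atImInfty (nhds c))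
    (hsimple : ∀ z : ℍ, P z = 0 → deriv (P ∘ ofComplex) z ≠ 0)
    (hvan : ∀ z : ℍ, P z = 0 → ∀ q : Q N, cj N w F q z = 0) :
    ∃ G : ℍ → ℂ, IsMF N (w - wP) G ∧ F = P * G := by
  have hF0 : ∀ z : ℍ, P z = 0 → F z = 0 := by
    intro z hz
    have := hvan z hz ((1 : SL(2, ℤ)) : Q N)
    rwa [cj_one hF] at this
  obtain ⟨G, hG, hFG⟩ := Fermat.Agent.S20_helper17_B4.B4 F P hF.holo hP.holo
    (fun z hz => ⟨hF0 z hz, hsimple z hz⟩)
  refine ⟨G, ?_, hFG⟩
  have hw : w = wP + (w - wP) := by ring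
  have key : ∀ γ : SL(2, ℤ), F ∣[w] γ = P * (G ∣[w - wP] γ) := by
    intro γ
    have : F ∣[w] γ = (P * G) ∣[wP + (w - wP)] γ := by rw [← hFG, ← hw]
    rw [this, ModularForm.mul_slash_SL2, hP.slash_eq]
  refine isMF_iff.mpr ⟨hG, fun γ hγ => ?_, fun γ => ?_⟩
  · have h1 := key γ
    rw [hF.slash_eq hγ] at h1
    have hH : Continuous (G ∣[w - wP] γ - G) := by
      have : MDifferentiable 𝓘(ℂ) 𝓘(ℂ) (G ∣[w - wP] γ - G) := by
        refine MDifferentiable.sub ?_ hG
        rw [ModularForm.SL_slash]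
        exact hG.slash _ _
      exact this.continuous
    have := eq_zero_of_mul_eq_zero hP.holo hH hsimple (fun z => by
      have h2 := congrFun h1 z
      have h3 := congrFun hFG z
      simp only [Pi.mul_apply, Pi.sub_apply] at h2 h3 ⊢
      rw [mul_sub, ← h2, ← h3, sub_self])
    exact sub_eq_zero.mp this
  · obtain ⟨c, hc, hlim⟩ := hPinf
    have hb := hF.bdd γ
    rw [key γ] at hb
    -- eventually `‖P z‖ ≥ ‖c‖ / 2`
    have hcpos : 0 < ‖c‖ / 2 := by positivity
    have hev : ∀ᶠ z in atImInfty, ‖c‖ / 2 ≤ ‖P z‖ := by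
      have h1 : Filter.Tendsto (fun z => ‖P z‖) atImInfty (𝓝 ‖c‖) := hlim.norm
      have h2 : ‖c‖ / 2 < ‖c‖ := by
        have : 0 < ‖c‖ := norm_pos_iff.mpr hc
        linarith
      filter_upwards [h1.eventually (lt_mem_nhds h2)] with z hz using hz.le
    unfold IsBoundedAtImInfty Filter.BoundedAtFilter at hb ⊢
    rw [Asymptotics.isBigO_iff] at hb ⊢
    obtain ⟨C, hC⟩ := hb
    refine ⟨C / (‖c‖ / 2), ?_⟩
    filter_upwards [hC, hev] with z hz1 hz2
    simp only [Pi.mul_apply, norm_mul, Pi.one_apply, norm_one, mul_one] at hz1 ⊢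
    rw [le_div_iff₀ hcpos]
    have hn : 0 ≤ ‖(G ∣[w - wP] γ) z‖ := norm_nonneg _
    calc ‖(G ∣[w - wP] γ) z‖ * (‖c‖ / 2) ≤ ‖(G ∣[w - wP] γ) z‖ * ‖P z‖ :=
          mul_le_mul_of_nonneg_left hz2 hn
      _ = ‖P z‖ * ‖(G ∣[w - wP] γ) z‖ := mul_comm _ _
      _ ≤ C := hz1

open Polynomial in
/-- In characteristic zero, vanishing of all positive power sums forces all values to vanish. -/
theorem eq_zero_of_psum_eq_zero {ι : Type*} [Fintype ι] (x : ι → ℂ)
    (h : ∀ m : ℕ, 1 ≤ m → ∑ i, x i ^ m = 0) : ∀ i, x i = 0 := by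
  classical
  by_contra hcon
  rw [not_forall] at hcon
  obtain ⟨i₀, hi₀⟩ := hcon
  set S : Finset ℂ := (Finset.univ.image x).erase (x i₀) with hS
  set g : ℂ[X] := X * ∏ y ∈ S, (X - C y) with hg
  -- the sum of `g (x i)` vanishes
  have h1 : ∑ i, g.eval (x i) = 0 := by
    have : ∀ i, g.eval (x i) = ∑ m ∈ Finset.range (g.natDegree + 1), g.coeff m * x i ^ m :=
      fun i => Polynomial.eval_eq_sum_range _
    simp_rw [this]
    rw [Finset.sum_comm]
    refine Finset.sum_eq_zero fun m _ => ?_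
    rw [← Finset.mul_sum]
    rcases Nat.eq_zero_or_pos m with hm | hm
    · subst hm
      have : g.coeff 0 = 0 := by
        rw [hg, Polynomial.coeff_zero_eq_eval_zero]
        simp
      rw [this, zero_mul]
    · rw [h m hm, mul_zero]
  -- but it is a nonzero multiple of `g (x i₀)`
  have h2 : ∀ i, g.eval (x i) = if x i = x i₀ then g.eval (x i₀) else 0 := by
    intro i
    split_ifs with hi
    · rw [hi]
    · rw [hg, Polynomial.eval_mul, Polynomial.eval_prod]
      have hmem : x i ∈ S := by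
        rw [hS, Finset.mem_erase]
        exact ⟨hi, Finset.mem_image_of_mem _ (Finset.mem_univ _)⟩
      rw [Finset.prod_eq_zero hmem (by simp), mul_zero]
  have h3 : g.eval (x i₀) ≠ 0 := by
    rw [hg, Polynomial.eval_mul, Polynomial.eval_prod, Polynomial.eval_X]
    refine mul_ne_zero hi₀ (Finset.prod_ne_zero_iff.mpr fun y hy => ?_)
    rw [Polynomial.eval_sub, Polynomial.eval_X, Polynomial.eval_C, sub_ne_zero]
    rw [hS, Finset.mem_erase] at hy
    exact fun h => hy.1 h.symm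
  rw [Finset.sum_congr rfl (fun i _ => h2 i)] at h1
  rw [Finset.sum_ite, Finset.sum_const_zero, add_zero, Finset.sum_const, nsmul_eq_mul] at h1
  rcases mul_eq_zero.mp h1 with h4 | h4
  · have : (Finset.univ.filter fun i => x i = x i₀).card ≠ 0 :=
      Finset.card_ne_zero.mpr ⟨i₀, by simp⟩
    exact this (by exact_mod_cast h4)
  · exact h3 h4


theorem E0_prop {N : ℕ} [NeZero N] {w : ℤ} {F : ℍ → ℂ} (hF : IsMF N w F) (z₀ z₁ : ℍ) (t : ℂ)
    (h4 : E₄ z₁ = t ^ 4 * E₄ z₀) (h6 : E₆ z₁ = t ^ 6 * E₆ z₀)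
    (hvan : ∀ q : Q N, cj N w F q z₀ = 0) : ∀ q : Q N, cj N w F q z₁ = 0 := by
  apply eq_zero_of_psum_eq_zero
  intro m hm
  have h1 := Fermat.Agent.S20_helper8_B1.B1a (isMF1_sum_cj_pow hF m) z₀ z₁ t h4 h6
  simp only [Finset.sum_apply, Pi.pow_apply] at h1
  rw [h1]
  have : ∑ q : Q N, cj N w F q z₀ ^ m = 0 := by
    refine Finset.sum_eq_zero fun q _ => ?_
    rw [hvan q, zero_pow (by omega)]
  rw [this, mul_zero]

end Fermat.Agent.S20_helper10_E0
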