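import Fermat.Agent.S20_Core
import Fermat.Agent.S20_helper10_E0
import Fermat.Agent.S20_helper13_B2

set_option autoImplicit false

open UpperHalfPlane ModularForm CongruenceSubgroup
open scoped MatrixGroups ModularForm Manifold
open Fermat.Agent.S20

namespace Fermat.Agent.S20_helper19_E1

/-- A level one modular form tends to the constant coefficient of its `q`-expansion. -/
theorem tendsto_coeff_zero {k : ℤ} (f : ModularForm 𝒮ℒ k) :
    Filter.Tendsto (⇑f) atImInfty (nhds ((qExpansion 1 f).coeff 0)) := by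
  have hper : Function.Periodic (⇑f ∘ ofComplex) 1 := by
    have := SlashInvariantFormClass.periodic_comp_ofComplex (h := 1) f one_mem_strictPeriods_SL
    simpa using this
  have han : AnalyticAt ℂ (cuspFunction 1 f) 0 :=
    analyticAt_cuspFunction_zero one_pos hper (ModularFormClass.holo f)
      (ModularFormClass.bdd_at_infty f)
  have h0 : (qExpansion 1 f).coeff 0 = cuspFunction 1 f 0 := by
    simp [qExpansion_coeff]
  have hcomp : (cuspFunction 1 f ∘ fun τ : ℍ ↦ Function.Periodic.qParam 1 τ : ℍ → ℂ) = f := by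
    funext τ
    simpa using eq_cuspFunction τ one_ne_zero hper
  have := han.continuousAt.tendsto.comp (qParam_tendsto_atImInfty one_pos)
  rw [hcomp] at this
  rw [h0]
  exact this

theorem tendsto_E₄ : Filter.Tendsto (⇑E₄) atImInfty (nhds 1) := by
  have h := tendsto_coeff_zero E₄
  have h4 := EisensteinSeries.E_qExpansion_coeff_zero (k := 4) (by norm_num) ⟨2, rfl⟩
  rw [h4] at h
  exact h

theorem tendsto_E₆ : Filter.Tendsto (⇑E₆) atImInfty (nhds 1) := by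
  have h := tendsto_coeff_zero E₆
  have h6 := EisensteinSeries.E_qExpansion_coeff_zero (k := 6) (by norm_num) ⟨3, rfl⟩
  rw [h6] at h
  exact h

theorem exists_weight (m : ℤ) (hm : Even m) (hm4 : 4 ≤ m) :
    ∃ a b : ℕ, (4 * (a : ℤ) + 6 * (b : ℤ)) = m := by
  obtain ⟨j, hj⟩ := hm
  rcases Int.even_or_odd' j with ⟨i, hi | hi⟩
  · exact ⟨i.toNat, 0, by omega⟩
  · exact ⟨(i - 1).toNat, 1, by omega⟩

theorem exists_normalized (z₀ : ℍ) (h4 : E₄ z₀ ≠ 0) (h6 : E₆ z₀ ≠ 0) (m : ℤ) (hm : Even m)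
    (hm4 : 4 ≤ m) : ∃ g : ℍ → ℂ, IsMF1 m g ∧ g z₀ = 1 := by
  obtain ⟨a, b, hab⟩ := exists_weight m hm hm4
  refine ⟨((E₄ z₀) ^ a * (E₆ z₀) ^ b)⁻¹ • ((⇑E₄) ^ a * (⇑E₆) ^ b), ?_, ?_⟩
  · exact (((isMF1_E₄.pow a).mul (isMF1_E₆.pow b)).smul _).cast (by rw [← hab]; ring)
  · simp only [Pi.smul_apply, Pi.mul_apply, Pi.pow_apply, smul_eq_mul]
    have h1 : (E₄ z₀) ^ a * (E₆ z₀) ^ b ≠ 0 := mul_ne_zero (pow_ne_zero _ h4) (pow_ne_zero _ h6)
    exact inv_mul_cancel₀ h1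

theorem cj_mul_left' {N : ℕ} {k k₁ : ℤ} (k₂ : ℤ) {f : ℍ → ℂ} (ha : IsMF1 k₁ f) (g : ℍ → ℂ)
    (q : Q N) (hk : k = k₁ + k₂) : cj N k (f * g) q = f * cj N k₂ g q := by
  subst hk
  exact cj_mul_left ha g q

/-- `E1` with the three inputs (division, propagation, simple zeros) as hypotheses. -/
theorem E1_of {N : ℕ} [NeZero N]
    (hdiv : ∀ {w wP : ℤ} {F P : ℍ → ℂ}, IsMF N w F → IsMF1 wP P →
      (∃ c : ℂ, c ≠ 0 ∧ Filter.Tendsto P atImInfty (nhds c)) →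
      (∀ z : ℍ, P z = 0 → deriv (P ∘ ofComplex) z ≠ 0) →
      (∀ z : ℍ, P z = 0 → ∀ q : Q N, cj N w F q z = 0) →
      ∃ G : ℍ → ℂ, IsMF N (w - wP) G ∧ F = P * G)
    (hprop : ∀ {w : ℤ} {F : ℍ → ℂ}, IsMF N w F → ∀ (z₀ z₁ : ℍ) (t : ℂ),
      E₄ z₁ = t ^ 4 * E₄ z₀ → E₆ z₁ = t ^ 6 * E₆ z₀ →
      (∀ q : Q N, cj N w F q z₀ = 0) → ∀ q : Q N, cj N w F q z₁ = 0)
    (hB2c : ∀ (α β : ℂ), α + β ≠ 0 → ∀ (z : ℍ), E₄ z ≠ 0 → E₆ z ≠ 0 →
      α * E₄ z ^ 3 + β * E₆ z ^ 2 = 0 →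
      deriv ((fun w : ℍ => α * E₄ w ^ 3 + β * E₆ w ^ 2) ∘ ofComplex) z ≠ 0)
    (B : HomBasis N) (z₀ : ℍ) (h4 : E₄ z₀ ≠ 0) (h6 : E₆ z₀ ≠ 0)
    (c : Fin B.n → ℂ) (h : ∀ q : Q N, ∑ i, c i * cj N (B.wt i) (B.f i) q z₀ = 0) : c = 0 := by
  classical
  -- the common weight
  obtain ⟨w, hwt⟩ : ∃ w : ℤ, ∀ i, Even (w - B.wt i) ∧ 4 ≤ w - B.wt i := by
    refine ⟨12 + ∑ i, B.wt i, fun i => ⟨?_, ?_⟩⟩
    · have hKe : Even (∑ i, B.wt i) := Finset.even_sum _ (fun j _ => B.wt_even j)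
      have h12 : Even (12 : ℤ) := ⟨6, rfl⟩
      exact (h12.add hKe).sub (B.wt_even i)
    · have : B.wt i ≤ ∑ i, B.wt i :=
        Finset.single_le_sum (fun j _ => B.wt_nonneg j) (Finset.mem_univ i)
      omega
  choose g hg hg0 using fun i => exists_normalized z₀ h4 h6 (w - B.wt i) (hwt i).1 (hwt i).2
  -- the form `F`
  obtain ⟨F, hF⟩ : ∃ F : ℍ → ℂ, F = ∑ i, c i • (g i * B.f i) := ⟨_, rfl⟩
  have hFi : ∀ i, IsMF N w (c i • (g i * B.f i)) := fun i =>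
    (((hg i).isMF.mul (B.isMF i)).smul (c i)).cast (by ring)
  have hFmf : IsMF N w F := by
    rw [hF]
    exact IsMF.sum _ _ (fun i _ => hFi i)
  have hcjF : ∀ q z, cj N w F q z = ∑ i, c i * (g i z * cj N (B.wt i) (B.f i) q z) := by
    intro q z
    rw [hF, cj_sum, Finset.sum_apply]
    refine Finset.sum_congr rfl fun i _ => ?_
    rw [cj_smul, cj_mul_left' (B.wt i) (hg i) _ q (by ring)]
    simp
  have hvan0 : ∀ q, cj N w F q z₀ = 0 := by
    intro q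
    rw [hcjF]
    simp only [hg0, one_mul]
    exact h q
  -- the level one form `P`
  obtain ⟨α, hα⟩ : ∃ α : ℂ, α = (E₄ z₀ ^ 3)⁻¹ := ⟨_, rfl⟩
  obtain ⟨β, hβ⟩ : ∃ β : ℂ, β = -(E₆ z₀ ^ 2)⁻¹ := ⟨_, rfl⟩
  have hα0 : α ≠ 0 := by rw [hα]; exact inv_ne_zero (pow_ne_zero _ h4)
  have hβ0 : β ≠ 0 := by rw [hβ]; exact neg_ne_zero.mpr (inv_ne_zero (pow_ne_zero _ h6))
  have hΔ : ∀ z : ℍ, E₄ z ^ 3 - E₆ z ^ 2 ≠ 0 := by
    intro z h0
    apply ModularForm.discriminant_ne_zero z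
    rw [ModularForm.discriminant_eq_E₄_cube_sub_E₆_sq, h0, zero_div]
  have hαβ : α + β ≠ 0 := by
    intro h0
    apply hΔ z₀
    rw [hα, hβ] at h0
    field_simp at h0
    linear_combination -h0
  obtain ⟨P, hPdef⟩ : ∃ P : ℍ → ℂ, P = fun z : ℍ => α * E₄ z ^ 3 + β * E₆ z ^ 2 := ⟨_, rfl⟩
  have hPz : ∀ z, P z = α * E₄ z ^ 3 + β * E₆ z ^ 2 := fun z => by rw [hPdef]
  have hP : IsMF1 12 P := by
    have h1 : IsMF1 12 (α • (⇑E₄) ^ 3) := ((isMF1_E₄.pow 3).smul α).cast (by norm_num)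
    have h2 : IsMF1 12 (β • (⇑E₆) ^ 2) := ((isMF1_E₆.pow 2).smul β).cast (by norm_num)
    have e : P = α • (⇑E₄) ^ 3 + β • (⇑E₆) ^ 2 := by
      rw [hPdef]
      ext z
      simp
    rw [e]
    exact h1.add h2
  have hPz₀ : P z₀ = 0 := by
    rw [hPz, hα, hβ]
    field_simp
    ring
  have hPinf : ∃ c : ℂ, c ≠ 0 ∧ Filter.Tendsto P atImInfty (nhds c) := by
    refine ⟨α + β, hαβ, ?_⟩
    have := ((tendsto_E₄.pow 3).const_mul α).add ((tendsto_E₆.pow 2).const_mul β)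
    rw [hPdef]
    simpa using this
  have hne : ∀ z, P z = 0 → E₄ z ≠ 0 ∧ E₆ z ≠ 0 := by
    intro z hz
    rw [hPz] at hz
    constructor
    · intro h0
      rw [h0] at hz
      have h1 : E₆ z ^ 2 = 0 := by
        have : β * E₆ z ^ 2 = 0 := by simpa using hz
        exact (mul_eq_zero.mp this).resolve_left hβ0
      apply hΔ z
      rw [h0, h1]
      norm_num
    · intro h0
      rw [h0] at hz
      have h1 : E₄ z ^ 3 = 0 := by
        have : α * E₄ z ^ 3 = 0 := by simpa using hz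
        exact (mul_eq_zero.mp this).resolve_left hα0
      apply hΔ z
      rw [h0, h1]
      norm_num
  have hsimple : ∀ z : ℍ, P z = 0 → deriv (P ∘ ofComplex) z ≠ 0 := by
    intro z hz
    have := hB2c α β hαβ z (hne z hz).1 (hne z hz).2 (by rw [← hPz]; exact hz)
    rw [hPdef]
    exact this
  have hvan : ∀ z : ℍ, P z = 0 → ∀ q : Q N, cj N w F q z = 0 := by
    intro z₁ hz₁
    obtain ⟨h4', h6'⟩ := hne z₁ hz₁
    obtain ⟨u, hu⟩ : ∃ u : ℂ, u = E₄ z₁ / E₄ z₀ := ⟨_, rfl⟩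
    obtain ⟨v, hv⟩ : ∃ v : ℂ, v = E₆ z₁ / E₆ z₀ := ⟨_, rfl⟩
    have hu0 : u ≠ 0 := by rw [hu]; exact div_ne_zero h4' h4
    have hv0 : v ≠ 0 := by rw [hv]; exact div_ne_zero h6' h6
    have huv : u ^ 3 = v ^ 2 := by
      rw [hPz, hα, hβ] at hz₁
      rw [hu, hv, div_pow, div_pow]
      field_simp at hz₁ ⊢
      linear_combination hz₁
    obtain ⟨t, ht⟩ := IsAlgClosed.exists_pow_nat_eq (v / u) (n := 2) (by norm_num)
    have ht4 : t ^ 4 = u := by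
      have e : t ^ 4 = (t ^ 2) ^ 2 := by ring
      rw [e, ht, div_pow, ← huv]
      field_simp
    have ht6 : t ^ 6 = v := by
      have e : t ^ 6 = (t ^ 2) ^ 3 := by ring
      rw [e, ht, div_pow, huv]
      field_simp
    refine hprop hFmf z₀ z₁ t ?_ ?_ hvan0
    · rw [ht4, hu]
      field_simp
    · rw [ht6, hv]
      field_simp
  -- divide and conclude
  obtain ⟨G, hG, hFG⟩ := hdiv hFmf hP hPinf hsimple hvan
  obtain ⟨a, ha, hGa⟩ := B.span (w - 12) G hG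
  have hb : ∀ i, IsMF1 (w - B.wt i) (c i • g i - P * a i) := fun i =>
    ((hg i).smul (c i)).sub ((hP.mul (ha i)).cast (by ring))
  have hsum : ∑ i, (c i • g i - P * a i) * B.f i = 0 := by
    have e : ∑ i, (c i • g i - P * a i) * B.f i = F - P * G := by
      rw [hGa, Finset.mul_sum, hF, ← Finset.sum_sub_distrib]
      refine Finset.sum_congr rfl fun i _ => ?_
      ext z
      simp only [Pi.mul_apply, Pi.sub_apply, Pi.smul_apply, smul_eq_mul]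
      ring
    rw [e, ← hFG, sub_self]
  have hzero := B.indep w _ hb hsum
  funext i
  have hi := congrFun (hzero i) z₀
  simp only [Pi.sub_apply, Pi.smul_apply, Pi.mul_apply, smul_eq_mul, Pi.zero_apply, hg0, hPz₀,
    zero_mul, mul_one, sub_zero] at hi
  simpa using hi

/-- Pointwise independence of the conjugates of a homogeneous basis at generic points. -/
theorem E1 {N : ℕ} [NeZero N] (B : HomBasis N) (z₀ : ℍ) (h4 : E₄ z₀ ≠ 0) (h6 : E₆ z₀ ≠ 0)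
    (c : Fin B.n → ℂ) (h : ∀ q : Q N, ∑ i, c i * cj N (B.wt i) (B.f i) q z₀ = 0) : c = 0 :=
  E1_of (fun hF hP hPinf hsimple hvan => Fermat.Agent.S20_helper10_E0.E0_div hF hP hPinf hsimple hvan)
    (fun hF z₀ z₁ t h4 h6 hvan => Fermat.Agent.S20_helper10_E0.E0_prop hF z₀ z₁ t h4 h6 hvan)
    (fun α β hαβ z h4 h6 h => Fermat.Agent.S20_helper13_B2.B2c α β hαβ z h4 h6 h)
    B z₀ h4 h6 c h

end Fermat.Agent.S20_helper19_E1
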