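import Fermat.Agent.S20_helper1_E3

/-!
# S20, piece E (final): pointwise independence everywhere

`E2'` is the analogue of E3 at the zeros of `E₆`, obtained from the generic results of
`S20_helper1_E3`; `E_of` assembles `PointwiseIndep B` from the generic point case (piece E1).
-/

set_option autoImplicit false

open UpperHalfPlane ModularForm CongruenceSubgroup Matrix.SpecialLinearGroup
open scoped MatrixGroups ModularForm Manifold
open Fermat.Agent.S20

namespace Fermat.Agent.S20_helper1_E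

open Fermat.Agent.S20_helper1_E3

/-- `I ^ k = 1` with `k` even forces `4 ∣ k`. -/
theorem four_dvd_of_I_zpow_eq_one (k : ℤ) (hk : Even k) (h : Complex.I ^ k = 1) :
    (4 : ℤ) ∣ k := by
  have hne : Complex.I ≠ 0 := Complex.I_ne_zero
  have h4 : Complex.I ^ (4 : ℤ) = 1 := by
    rw [show (4 : ℤ) = ((4 : ℕ) : ℤ) from rfl, zpow_natCast]
    exact Complex.I_pow_four
  obtain ⟨j, hj⟩ := hk
  have hjd : j = 2 * (j / 2) + j % 2 := (Int.mul_ediv_add_emod j 2).symm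
  have hkd : k = 4 * (j / 2) + 2 * (j % 2) := by
    rw [hj]
    linarith
  have hpow : Complex.I ^ k = Complex.I ^ (2 * (j % 2)) := by
    rw [hkd, zpow_add₀ hne, zpow_mul, h4, one_zpow, one_mul]
  rw [hpow] at h
  have hcases : j % 2 = 0 ∨ j % 2 = 1 := by omega
  rcases hcases with hr | hr
  · rw [hkd, hr]
    exact ⟨j / 2, by ring⟩
  · exfalso
    rw [hr] at h
    have h' : Complex.I ^ 2 = 1 := by
      have : Complex.I ^ (2 * 1 : ℤ) = Complex.I ^ 2 := by
        rw [show (2 * 1 : ℤ) = ((2 : ℕ) : ℤ) from rfl, zpow_natCast]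
      rw [← this]
      exact h
    rw [Complex.I_sq] at h'
    norm_num at h'

/-- Pointwise independence at the zeros of `E₆` (same statement as piece E2). -/
theorem E2' {N : ℕ} [NeZero N] (B : HomBasis N) (hn : B.n = mu N) (z₀ : ℍ) (h6 : E₆ z₀ = 0)
    (c : Fin B.n → ℂ) (h : ∀ q : Q N, ∑ i, c i * cj N (B.wt i) (B.f i) q z₀ = 0) : c = 0 := by
  have hfix : ModularGroup.S • UpperHalfPlane.I = UpperHalfPlane.I :=
    Fermat.Agent.S20_helper19_B3.B3d
  have hE6I : E₆ UpperHalfPlane.I = 0 := Fermat.Agent.S20_helper19_B3.B3a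
  have hE4I : E₄ UpperHalfPlane.I ≠ 0 := fun h4 =>
    Fermat.Agent.S20_helper13_B2.E₄_E₆_not_both_zero _ h4 hE6I
  have hE4z : E₄ z₀ ≠ 0 := fun h4 =>
    Fermat.Agent.S20_helper13_B2.E₄_E₆_not_both_zero z₀ h4 h6
  have key : ∀ z₁ : ℍ, E₆ z₁ = 0 →
      ∃ t : ℂ, E₄ z₁ = t ^ 4 * E₄ UpperHalfPlane.I ∧ E₆ z₁ = t ^ 6 * E₆ UpperHalfPlane.I := by
    intro z₁ hz₁
    obtain ⟨t, ht⟩ := IsAlgClosed.exists_pow_nat_eq (E₄ z₁ / E₄ UpperHalfPlane.I) (n := 4)
      (by norm_num)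
    refine ⟨t, ?_, by rw [hz₁, hE6I, mul_zero]⟩
    rw [ht, div_mul_cancel₀ _ hE4I]
  obtain ⟨t, ht4, ht6⟩ := key z₀ h6
  have ht : t ≠ 0 := by
    rintro rfl
    rw [zero_pow (by norm_num), zero_mul] at ht4
    exact hE4z ht4
  refine indep_transport B hn UpperHalfPlane.I z₀ t ht ht4 ht6 ?_ c h
  intro c' hc'
  refine indep_at_fixed B ModularGroup.S UpperHalfPlane.I hfix 4 (by norm_num) ?_
    (⇑E₄) isMF1_E₄ hE4I (⇑E₆) 6 isMF1_E₆ hE6I
    ⟨1, one_ne_zero, Fermat.Agent.S20_helper13_B2.tendsto_E _ ⟨3, rfl⟩⟩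
    Fermat.Agent.S20_helper13_B2.B2b key c' hc'
  intro k hk hk1
  rw [ModularGroup.denom_S] at hk1
  exact four_dvd_of_I_zpow_eq_one k hk hk1

/-- Pointwise independence everywhere, given the generic point case (piece E1). -/
theorem E_of {N : ℕ} [NeZero N] (B : HomBasis N) (hn : B.n = mu N)
    (hE1 : ∀ z₀ : ℍ, E₄ z₀ ≠ 0 → E₆ z₀ ≠ 0 → ∀ c : Fin B.n → ℂ,
      (∀ q : Q N, ∑ i, c i * cj N (B.wt i) (B.f i) q z₀ = 0) → c = 0) :
    PointwiseIndep B := by
  intro z c h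
  by_cases h4 : E₄ z = 0
  · exact E3 B hn z h4 c h
  · by_cases h6 : E₆ z = 0
    · exact E2' B hn z h6 c h
    · exact hE1 z h4 h6 c h

end Fermat.Agent.S20_helper1_E
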