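import Mathlib
import Fermat.Agent.S20_Defs

set_option autoImplicit false

open UpperHalfPlane ModularForm CongruenceSubgroup
open scoped MatrixGroups ModularForm Manifold
open Fermat.Agent.S20

namespace Fermat.Agent.S20_helper22_Fix

/-- the matrix `[[a, -1], [1, 0]]` of `SL(2, ℤ)` -/
def mat (a : ℤ) : SL(2, ℤ) := ⟨!![a, -1; 1, 0], by simp [Matrix.det_fin_two]⟩

@[simp] theorem mat_00 (a : ℤ) : mat a 0 0 = a := rfl
@[simp] theorem mat_01 (a : ℤ) : mat a 0 1 = -1 := rfl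
@[simp] theorem mat_10 (a : ℤ) : mat a 1 0 = 1 := rfl
@[simp] theorem mat_11 (a : ℤ) : mat a 1 1 = 0 := rfl

theorem inv_mul_10 (h h' : SL(2, ℤ)) :
    (h⁻¹ * h') 1 0 = h 0 0 * h' 1 0 - h 1 0 * h' 0 0 := by
  rw [Matrix.SpecialLinearGroup.coe_mul, Matrix.SpecialLinearGroup.coe_inv,
    Matrix.adjugate_fin_two, Matrix.mul_apply, Fin.sum_univ_two]
  simp
  ring

/-- two cosets of `Γ₀(N)` agree iff the first columns are proportional mod `N`. -/
theorem mk_eq_mk_iff (N : ℕ) (h h' : SL(2, ℤ)) :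
    (QuotientGroup.mk h : Q N) = QuotientGroup.mk h' ↔
      ((h 0 0 : ℤ) : ZMod N) * (h' 1 0 : ℤ) - (h 1 0 : ℤ) * (h' 0 0 : ℤ) = 0 := by
  rw [QuotientGroup.eq, Gamma0_mem, inv_mul_10]
  push_cast
  rfl

theorem smul_mk (N : ℕ) (g h : SL(2, ℤ)) :
    g • (QuotientGroup.mk h : Q N) = QuotientGroup.mk (g * h) := rfl

theorem S_mul_00 (h : SL(2, ℤ)) : (ModularGroup.S * h) 0 0 = - h 1 0 := by
  rw [Matrix.SpecialLinearGroup.coe_mul, ModularGroup.coe_S, Matrix.mul_apply, Fin.sum_univ_two]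
  simp

theorem S_mul_10 (h : SL(2, ℤ)) : (ModularGroup.S * h) 1 0 = h 0 0 := by
  rw [Matrix.SpecialLinearGroup.coe_mul, ModularGroup.coe_S, Matrix.mul_apply, Fin.sum_univ_two]
  simp

theorem ST_mul_00 (h : SL(2, ℤ)) : (ModularGroup.S * ModularGroup.T * h) 0 0 = - h 1 0 := by
  rw [Matrix.SpecialLinearGroup.coe_mul, Matrix.SpecialLinearGroup.coe_mul, ModularGroup.coe_S,
    ModularGroup.coe_T, Matrix.mul_apply, Fin.sum_univ_two]
  simp

theorem ST_mul_10 (h : SL(2, ℤ)) :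
    (ModularGroup.S * ModularGroup.T * h) 1 0 = h 0 0 + h 1 0 := by
  rw [Matrix.SpecialLinearGroup.coe_mul, Matrix.SpecialLinearGroup.coe_mul, ModularGroup.coe_S,
    ModularGroup.coe_T, Matrix.mul_apply, Fin.sum_univ_two]
  simp

theorem det_eq (h : SL(2, ℤ)) : h 0 0 * h 1 1 - h 0 1 * h 1 0 = 1 := by
  have := h.2
  rw [Matrix.det_fin_two] at this
  exact this

theorem det_eq_zmod (N : ℕ) (h : SL(2, ℤ)) :
    ((h 0 0 : ℤ) : ZMod N) * (h 1 1 : ℤ) - (h 0 1 : ℤ) * (h 1 0 : ℤ) = 1 := by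
  have := congrArg (Int.cast : ℤ → ZMod N) (det_eq h)
  push_cast at this
  exact this

/-- `S` fixes the coset of `h` iff `a ^ 2 + c ^ 2 = 0` mod `N` for the first column `(a, c)`. -/
theorem S_smul_mk_eq_iff (N : ℕ) (h : SL(2, ℤ)) :
    ModularGroup.S • (QuotientGroup.mk h : Q N) = QuotientGroup.mk h ↔
      ((h 0 0 : ℤ) : ZMod N) ^ 2 + ((h 1 0 : ℤ) : ZMod N) ^ 2 = 0 := by
  rw [smul_mk, mk_eq_mk_iff, S_mul_00, S_mul_10]
  push_cast
  constructor
  · intro H; linear_combination -H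
  · intro H; linear_combination -H

/-- `S * T` fixes the coset of `h` iff `a ^ 2 + a * c + c ^ 2 = 0` mod `N` for the first
column `(a, c)`. -/
theorem ST_smul_mk_eq_iff (N : ℕ) (h : SL(2, ℤ)) :
    (ModularGroup.S * ModularGroup.T) • (QuotientGroup.mk h : Q N) = QuotientGroup.mk h ↔
      ((h 0 0 : ℤ) : ZMod N) ^ 2 + ((h 0 0 : ℤ) : ZMod N) * ((h 1 0 : ℤ) : ZMod N)
        + ((h 1 0 : ℤ) : ZMod N) ^ 2 = 0 := by
  rw [smul_mk, mk_eq_mk_iff, ST_mul_00, ST_mul_10]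
  push_cast
  constructor
  · intro H; linear_combination -H
  · intro H; linear_combination -H

/-- The generic count of fixed cosets: if being fixed by `g` is cut out by a quadratic form
`F` in the first column, and zeros of `F` on unimodular columns have invertible second entry,
then the fixed cosets are in bijection with the zeros of `F (x, 1)`. -/
theorem card_fixed_eq (N : ℕ) [NeZero N] (g : SL(2, ℤ)) (F : ZMod N → ZMod N → ZMod N)
    (hfix : ∀ h : SL(2, ℤ), g • (QuotientGroup.mk h : Q N) = QuotientGroup.mk h ↔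
      F ((h 0 0 : ℤ) : ZMod N) ((h 1 0 : ℤ) : ZMod N) = 0)
    (hunit : ∀ a b c d : ZMod N, a * d - b * c = 1 → F a c = 0 → ∃ c', c * c' = 1)
    (hhom : ∀ a c u : ZMod N, F (u * a) (u * c) = u ^ 2 * F a c) :
    Nat.card {q : Q N // g • q = q} = Nat.card {x : ZMod N // F x 1 = 0} := by
  symm
  have hcast : ∀ x : ZMod N, (((x.cast : ℤ)) : ZMod N) = x := fun x => ZMod.intCast_zmod_cast x
  have hmem : ∀ x : {x : ZMod N // F x 1 = 0},
      g • (QuotientGroup.mk (mat (x.1.cast : ℤ)) : Q N) = QuotientGroup.mk (mat (x.1.cast : ℤ)) := by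
    intro x
    rw [hfix, mat_00, mat_10, hcast, Int.cast_one]
    exact x.2
  refine Nat.card_eq_of_bijective
    (fun x => (⟨QuotientGroup.mk (mat (x.1.cast : ℤ)), hmem x⟩ : {q : Q N // g • q = q})) ⟨?_, ?_⟩
  · intro x y hxy
    have h1 : (QuotientGroup.mk (mat (x.1.cast : ℤ)) : Q N) =
        QuotientGroup.mk (mat (y.1.cast : ℤ)) := congrArg Subtype.val hxy
    rw [mk_eq_mk_iff, mat_00, mat_10, mat_10, mat_00, hcast, hcast, Int.cast_one] at h1
    apply Subtype.ext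
    linear_combination h1
  · rintro ⟨q, hq⟩
    obtain ⟨h, rfl⟩ := QuotientGroup.mk_surjective q
    have hF := (hfix h).mp hq
    obtain ⟨c', hc'⟩ := hunit _ _ _ _ (det_eq_zmod N h) hF
    have hx : F (((h 0 0 : ℤ) : ZMod N) * c') 1 = 0 := by
      have := hhom ((h 0 0 : ℤ) : ZMod N) ((h 1 0 : ℤ) : ZMod N) c'
      rw [hF, mul_zero, mul_comm c' ((h 1 0 : ℤ) : ZMod N), hc', mul_comm c'] at this
      exact this
    refine ⟨⟨((h 0 0 : ℤ) : ZMod N) * c', hx⟩, ?_⟩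
    apply Subtype.ext
    change (QuotientGroup.mk (mat _) : Q N) = QuotientGroup.mk h
    rw [mk_eq_mk_iff, mat_00, mat_10, hcast, Int.cast_one]
    linear_combination ((h 0 0 : ℤ) : ZMod N) * hc'

end Fermat.Agent.S20_helper22_Fix
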