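import Mathlib
import Fermat.Agent.S20_Defs
import Fermat.Agent.S20_helper22_Fix

set_option autoImplicit false

open UpperHalfPlane ModularForm CongruenceSubgroup
open scoped MatrixGroups ModularForm Manifold
open Fermat.Agent.S20

namespace Fermat.Agent.S20_helper22_A3

open Fermat.Agent.S20_helper22_Fix

/-- A3: the number of cosets of `Γ₀(N)` fixed by `S * T` is the number of roots of
`x ^ 2 + x + 1` in `ZMod N`. -/
theorem A3 (N : ℕ) [NeZero N] : nu3 N = ModularCurve.nuThree N := by
  unfold nu3 ModularCurve.nuThree
  have := card_fixed_eq N (ModularGroup.S * ModularGroup.T) (fun a c => a ^ 2 + a * c + c ^ 2)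
    (fun h => ST_smul_mk_eq_iff N h)
    (fun a b c d hdet hF => ⟨-(a + c) * d ^ 2 - a * b * d - b, by
      linear_combination (-d ^ 2) * hF + (a * d + 1) * hdet⟩)
    (fun a c u => by ring)
  simpa using this

end Fermat.Agent.S20_helper22_A3
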