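import Fermat.Agent.S20_Core

set_option autoImplicit false
set_option linter.unusedSectionVars false

open UpperHalfPlane ModularForm CongruenceSubgroup Matrix.SpecialLinearGroup
open scoped MatrixGroups ModularForm Manifold
open Fermat.Agent.S20

namespace Fermat.Agent.S20_helper22_H

/-- the determinant of a matrix of holomorphic functions is holomorphic -/
theorem mdiff_det {n : Type} [Fintype n] [DecidableEq n] (A : ℍ → Matrix n n ℂ)
    (hA : ∀ i j, MDifferentiable 𝓘(ℂ) 𝓘(ℂ) (fun z => A z i j)) :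
    MDifferentiable 𝓘(ℂ) 𝓘(ℂ) (fun z => (A z).det) := by
  have h1 : (fun z => (A z).det) =
      ∑ σ : Equiv.Perm n, (fun z => ((Equiv.Perm.sign σ : ℤ) : ℂ) * ∏ i, A z (σ i) i) := by
    funext z
    rw [Matrix.det_apply, Finset.sum_apply]
    refine Finset.sum_congr rfl fun σ _ => ?_
    rw [Units.smul_def, zsmul_eq_mul]
  rw [h1]
  refine MDifferentiable.sum fun σ _ => ?_
  refine MDifferentiable.mul mdifferentiable_const ?_
  have h2 : (fun z => ∏ i, A z (σ i) i) = ∏ i, (fun z => A z (σ i) i) := by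
    funext z
    rw [Finset.prod_apply]
  rw [h2]
  exact MDifferentiable.prod fun i _ => hA (σ i) i

/-- the entries of the inverse of a matrix of holomorphic functions are holomorphic -/
theorem mdiff_inv {n : Type} [Fintype n] [DecidableEq n] (A : ℍ → Matrix n n ℂ)
    (hA : ∀ i j, MDifferentiable 𝓘(ℂ) 𝓘(ℂ) (fun z => A z i j))
    (hdet : ∀ z, (A z).det ≠ 0) (i j : n) :
    MDifferentiable 𝓘(ℂ) 𝓘(ℂ) (fun z => (A z)⁻¹ i j) := by
  have h1 : (fun z => (A z)⁻¹ i j) =
      (fun z => ((A z).det)⁻¹ * ((A z).updateRow j (Pi.single i 1)).det) := by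
    funext z
    rw [Matrix.inv_def, Matrix.smul_apply, Matrix.adjugate_apply, smul_eq_mul, Ring.inverse_eq_inv']
  rw [h1]
  refine MDifferentiable.mul (MDifferentiable.inv (mdiff_det A hA) hdet) ?_
  refine mdiff_det (fun z => (A z).updateRow j (Pi.single i 1)) fun a b => ?_
  by_cases ha : a = j
  · subst ha
    simp only [Matrix.updateRow_self]
    exact mdifferentiable_const
  · simp only [Matrix.updateRow_ne ha]
    exact hA a b

/-- a level one form vanishing at `i∞` is a level one cusp form -/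
theorem exists_cuspForm_of_isMF1 {k : ℤ} {f : ℍ → ℂ} (h : IsMF1 k f)
    (h0 : IsZeroAtImInfty f) : ∃ F : CuspForm 𝒮ℒ k, ⇑F = f := by
  obtain ⟨h1, h2, -⟩ := isMF1_iff.mp h
  refine ⟨⟨⟨f, ?_⟩, h1, ?_⟩, rfl⟩
  · rintro γ ⟨γ', rfl⟩
    exact h2 γ'
  · intro c hc
    rw [OnePoint.isZeroAt_iff_forall_SL2Z hc]
    intro γ _
    show IsZeroAtImInfty (f ∣[k] γ)
    rw [h2 γ]
    exact h0

/-- level one cusp forms of weight `< 12` vanish -/
theorem eq_zero_of_isMF1_of_lt {k : ℤ} {f : ℍ → ℂ} (h : IsMF1 k f)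
    (h0 : IsZeroAtImInfty f) (hk : k < 12) : f = 0 := by
  obtain ⟨F, rfl⟩ := exists_cuspForm_of_isMF1 h h0
  have := rank_zero_iff_forall_zero.mp (CuspForm.rank_eq_zero_of_weight_lt_twelve hk) F
  rw [this]
  rfl

/-- level one cusp forms of weight `12` are multiples of the discriminant -/
theorem eq_smul_discriminant_of_isMF1 {f : ℍ → ℂ} (h : IsMF1 12 f)
    (h0 : IsZeroAtImInfty f) : ∃ c : ℂ, f = fun z => c * ModularForm.discriminant z := by
  obtain ⟨F, rfl⟩ := exists_cuspForm_of_isMF1 h h0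
  obtain ⟨c, hc⟩ := CuspForm.exists_smul_discriminant_of_weight_eq_twelve F
  refine ⟨c, ?_⟩
  rw [← hc]
  funext z
  rfl

section setup

variable {N : ℕ} [NeZero N] (B : HomBasis N) (hn : B.n = mu N)

/-- the reindexing of the cosets -/
noncomputable def eqv : Q N ≃ Fin B.n :=
  Fintype.equivFinOfCardEq (by rw [hn]; unfold mu; rw [Nat.card_eq_fintype_card])

/-- the square version of `Phi` -/
noncomputable def Msq (z : ℍ) : Matrix (Fin B.n) (Fin B.n) ℂ :=
  (Phi B z).submatrix (eqv B hn).symm id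

/-- the inverse of `Phi` -/
noncomputable def Psi (z : ℍ) : Matrix (Fin B.n) (Q N) ℂ :=
  ((Msq B hn z)⁻¹).submatrix id (eqv B hn)

variable (hind : PointwiseIndep B)

include hind in
theorem det_Msq_ne_zero (z : ℍ) : (Msq B hn z).det ≠ 0 := by
  intro h0
  obtain ⟨v, hv, hv0⟩ := Matrix.exists_mulVec_eq_zero_iff.mpr h0
  apply hv
  apply hind z v
  intro q
  have := congrFun hv0 (eqv B hn q)
  simp only [Matrix.mulVec, dotProduct, Msq, Matrix.submatrix_apply, Equiv.symm_apply_apply,
    id_eq, Pi.zero_apply, Phi_apply] at this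
  rw [← this]
  exact Finset.sum_congr rfl fun i _ => mul_comm _ _

include hind in
theorem Psi_mul_Phi (z : ℍ) : Psi B hn z * Phi B z = 1 := by
  have hu : IsUnit (Msq B hn z).det := isUnit_iff_ne_zero.mpr (det_Msq_ne_zero B hn hind z)
  have h1 : (Msq B hn z)⁻¹ * Msq B hn z = 1 := Matrix.nonsing_inv_mul _ hu
  ext i j
  have := congrFun (congrFun h1 i) j
  rw [Matrix.mul_apply] at this ⊢
  rw [← this]
  unfold Psi Msq
  simp only [Matrix.submatrix_apply, id_eq]
  exact Fintype.sum_equiv (eqv B hn) _ _ fun q => by simp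

open Classical in
include hind in
theorem Phi_mul_Psi (z : ℍ) : Phi B z * Psi B hn z = 1 :=
  (Matrix.mul_eq_one_comm_of_equiv (eqv B hn).symm).mp (Psi_mul_Phi B hn hind z)

open Classical in
include hind in
theorem Psi_unique (z : ℍ) (Ψ' : Matrix (Fin B.n) (Q N) ℂ) (h : Ψ' * Phi B z = 1) :
    Ψ' = Psi B hn z := by
  calc Ψ' = Ψ' * (Phi B z * Psi B hn z) := by rw [Phi_mul_Psi B hn hind z, Matrix.mul_one]
    _ = (Ψ' * Phi B z) * Psi B hn z := by rw [Matrix.mul_assoc]
    _ = Psi B hn z := by rw [h, Matrix.one_mul]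

include hind in
theorem mdiff_Psi (i : Fin B.n) (q : Q N) :
    MDifferentiable 𝓘(ℂ) 𝓘(ℂ) (fun z => Psi B hn z i q) := by
  unfold Psi
  simp only [Matrix.submatrix_apply, id_eq]
  refine mdiff_inv (Msq B hn) (fun a b => ?_) (det_Msq_ne_zero B hn hind) i _
  unfold Msq
  simp only [Matrix.submatrix_apply, id_eq, Phi_apply]
  exact cj_holo (B.isMF b).holo _

open Classical in
include hind in
/-- transformation law of the inverse matrix -/
theorem Psi_smul (γ : SL(2, ℤ)) (z : ℍ) (i : Fin B.n) (q : Q N) :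
    Psi B hn (γ • z) i (γ • q) = (denom γ z) ^ (-(B.wt i)) * Psi B hn z i q := by
  have hd : denom γ z ≠ 0 := denom_ne_zero _ z
  have key : (Matrix.of fun i q => (denom γ z) ^ (B.wt i) * Psi B hn (γ • z) i (γ • q)) *
      Phi B z = 1 := by
    ext i j
    rw [Matrix.mul_apply]
    have h1 : ∀ q : Q N, Phi B z q j = (denom γ z) ^ (-(B.wt j)) * Phi B (γ • z) (γ • q) j := by
      intro q
      rw [Phi_apply, Phi_apply, cj_smul_apply (B.isMF j) γ (γ • q) z, inv_smul_smul, ← mul_assoc,
        ← zpow_add₀ hd]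
      simp
    have h2 : ∑ q : Q N, Psi B hn (γ • z) i (γ • q) * Phi B (γ • z) (γ • q) j =
        (1 : Matrix (Fin B.n) (Fin B.n) ℂ) i j := by
      rw [← Psi_mul_Phi B hn hind (γ • z), Matrix.mul_apply]
      exact Fintype.sum_equiv (MulAction.toPerm γ) _ _ fun q => rfl
    calc ∑ q : Q N, (Matrix.of fun i q => (denom γ z) ^ (B.wt i) * Psi B hn (γ • z) i (γ • q)) i q
          * Phi B z q j
        = ∑ q : Q N, (denom γ z) ^ (B.wt i) * (denom γ z) ^ (-(B.wt j)) *
            (Psi B hn (γ • z) i (γ • q) * Phi B (γ • z) (γ • q) j) := by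
          refine Finset.sum_congr rfl fun q _ => ?_
          rw [Matrix.of_apply, h1 q]
          ring
      _ = (denom γ z) ^ (B.wt i) * (denom γ z) ^ (-(B.wt j)) *
            (1 : Matrix (Fin B.n) (Fin B.n) ℂ) i j := by
          rw [← Finset.mul_sum, h2]
      _ = (1 : Matrix (Fin B.n) (Fin B.n) ℂ) i j := by
          by_cases hij : i = j
          · subst hij
            rw [Matrix.one_apply_eq, mul_one, ← zpow_add₀ hd]
            simp
          · rw [Matrix.one_apply_ne hij, mul_zero]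
  have h3 := Psi_unique B hn hind z _ key
  have h4 := congrFun (congrFun h3 i) q
  rw [Matrix.of_apply] at h4
  rw [← h4, ← mul_assoc, ← zpow_add₀ hd]
  simp

/-- the dual family: `Δ` times the entries of the inverse matrix -/
noncomputable def gfun (i : Fin B.n) (q : Q N) : ℍ → ℂ :=
  fun z => ModularForm.discriminant z * Psi B hn z i q

theorem discriminant_smul (γ : SL(2, ℤ)) (z : ℍ) :
    ModularForm.discriminant (γ • z) = (denom γ z) ^ (12 : ℤ) * ModularForm.discriminant z := by
  have h := congrFun (isMF1_discriminant.slash_eq γ) z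
  rw [ModularForm.SL_slash_apply] at h
  have hd : denom γ z ≠ 0 := denom_ne_zero _ z
  rw [← h, mul_comm, mul_assoc, ← zpow_add₀ hd]
  simp

include hind in
theorem gfun_slash (γ : SL(2, ℤ)) (i : Fin B.n) (q : Q N) :
    (gfun B hn i q) ∣[12 - B.wt i] γ = gfun B hn i (γ⁻¹ • q) := by
  funext z
  have hd : denom γ z ≠ 0 := denom_ne_zero _ z
  rw [ModularForm.SL_slash_apply]
  unfold gfun
  have h1 := Psi_smul B hn hind γ z i (γ⁻¹ • q)
  rw [smul_inv_smul] at h1
  rw [h1, discriminant_smul]
  have : (denom γ z) ^ (12 : ℤ) * (denom γ z) ^ (-(B.wt i)) * (denom γ z) ^ (-(12 - B.wt i)) = 1 := by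
    rw [← zpow_add₀ hd, ← zpow_add₀ hd]
    have : (12 : ℤ) + -(B.wt i) + -(12 - B.wt i) = 0 := by ring
    rw [this, zpow_zero]
  linear_combination (ModularForm.discriminant z * Psi B hn z i (γ⁻¹ • q)) * this

include hind in
theorem mdiff_gfun (i : Fin B.n) (q : Q N) : MDifferentiable 𝓘(ℂ) 𝓘(ℂ) (gfun B hn i q) :=
  MDifferentiable.mul isMF1_discriminant.holo (mdiff_Psi B hn hind i q)

/-- the coset of the identity -/
def q0 (N : ℕ) : Q N := ((1 : SL(2, ℤ)) : Q N)

theorem smul_q0 {γ : SL(2, ℤ)} (hγ : γ ∈ Gamma0 N) : γ • q0 N = q0 N := by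
  unfold q0
  change ((γ * 1 : SL(2, ℤ)) : Q N) = _
  rw [mul_one, QuotientGroup.eq, mul_one]
  exact inv_mem hγ

theorem exists_smul_q0 (q : Q N) : ∃ γ : SL(2, ℤ), γ • q0 N = q := by
  obtain ⟨h, rfl⟩ := QuotientGroup.mk_surjective q
  refine ⟨h, ?_⟩
  unfold q0
  change ((h * 1 : SL(2, ℤ)) : Q N) = _
  rw [mul_one]

variable (hdec : InvDecay B)

include hind hdec in
theorem isCF_gfun (i : Fin B.n) : IsCF N (12 - B.wt i) (gfun B hn i (q0 N)) := by
  refine isCF_iff.mpr ⟨mdiff_gfun B hn hind i _, fun γ hγ => ?_, fun γ => ?_⟩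
  · rw [gfun_slash B hn hind, smul_q0 (inv_mem hγ)]
  · rw [gfun_slash B hn hind]
    exact hdec (Psi B hn) (Psi_mul_Phi B hn hind) i _

include hind in
theorem gfun_ne_zero (i : Fin B.n) : gfun B hn i (q0 N) ≠ 0 := by
  intro h0
  have h1 : ∀ q : Q N, gfun B hn i q = 0 := by
    intro q
    obtain ⟨γ, rfl⟩ := exists_smul_q0 q
    have := gfun_slash B hn hind γ⁻¹ i (q0 N)
    rw [inv_inv] at this
    rw [← this, h0]
    exact SlashAction.zero_slash _ _
  have h2 : ∀ q : Q N, Psi B hn UpperHalfPlane.I i q = 0 := by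
    intro q
    have := congrFun (h1 q) UpperHalfPlane.I
    unfold gfun at this
    simp only [Pi.zero_apply, mul_eq_zero] at this
    rcases this with h | h
    · exact absurd h (ModularForm.discriminant_ne_zero _)
    · exact h
  have h3 := congrFun (congrFun (Psi_mul_Phi B hn hind UpperHalfPlane.I) i) i
  rw [Matrix.mul_apply, Matrix.one_apply_eq] at h3
  simp only [h2, zero_mul, Finset.sum_const_zero] at h3
  exact zero_ne_one h3

/-- a nonzero cusp form on `Γ₀(N)` has positive weight -/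
theorem weight_pos_of_isCF {k : ℤ} {f : ℍ → ℂ} (hf : IsCF N k f) (h0 : f ≠ 0) : 0 < k := by
  by_contra hk
  rw [not_lt] at hk
  rcases lt_or_eq_of_le hk with h | h
  · exact h0 (hf.isMF.eq_zero_of_neg h)
  · subst h
    obtain ⟨c, hc⟩ := hf.isMF.eq_const
    have hz := (isCF_iff.mp hf).2.2 1
    rw [SlashAction.slash_one] at hz
    rw [hc] at hz
    have hc0 : c = 0 := by
      have h1 : Filter.Tendsto (fun _ : ℍ => c) atImInfty (nhds 0) := hz
      have h2 : Filter.Tendsto (fun _ : ℍ => c) atImInfty (nhds c) := tendsto_const_nhds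
      exact tendsto_nhds_unique h2 h1
    apply h0
    rw [hc, hc0]
    rfl

include hn hind hdec in
/-- H1: the weights of a homogeneous basis are at most `10`. -/
theorem H1' (i : Fin B.n) : B.wt i ≤ 10 := by
  have h1 := weight_pos_of_isCF (isCF_gfun B hn hind hdec i) (gfun_ne_zero B hn hind i)
  obtain ⟨m, hm⟩ := B.wt_even i
  omega

include hind hdec in
theorem isCF_gfun_two (i : {i : Fin B.n // B.wt i = 10}) :
    IsCF N 2 (gfun B hn i.1 (q0 N)) := by
  have h := isCF_gfun B hn hind hdec i.1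
  have h2 : (12 : ℤ) - B.wt i.1 = 2 := by rw [i.2]; norm_num
  rw [h2] at h
  exact h

/-- the dual cusp forms of weight `2` -/
noncomputable def Gform (i : {i : Fin B.n // B.wt i = 10}) : CuspForm (Gamma0 N) 2 :=
  (isCF_gfun_two B hn hind hdec i).choose

theorem coe_Gform (i : {i : Fin B.n // B.wt i = 10}) :
    ⇑(Gform B hn hind hdec i) = gfun B hn i.1 (q0 N) :=
  (isCF_gfun_two B hn hind hdec i).choose_spec

theorem coe_sum_smul {ι : Type} (s : Finset ι) (c : ι → ℂ) (G : ι → CuspForm (Gamma0 N) 2)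
    (z : ℍ) : (∑ i ∈ s, c i • G i) z = ∑ i ∈ s, c i * G i z := by
  classical
  induction s using Finset.induction_on with
  | empty => simp
  | insert a s ha ih =>
    rw [Finset.sum_insert ha, Finset.sum_insert ha, add_apply, ih]
    rfl

include hind in
/-- vanishing of a combination of the weight-`10` rows at `q0` propagates to all cosets -/
theorem sum_Psi_eq_zero (c : {i : Fin B.n // B.wt i = 10} → ℂ)
    (h : ∀ z : ℍ, ∑ i, c i * Psi B hn z i.1 (q0 N) = 0) (q : Q N) (z : ℍ) :
    ∑ i, c i * Psi B hn z i.1 q = 0 := by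
  obtain ⟨γ, rfl⟩ := exists_smul_q0 q
  have hz : (γ • (γ⁻¹ • z) : ℍ) = z := smul_inv_smul γ z
  have h1 : ∀ i : {i : Fin B.n // B.wt i = 10}, Psi B hn z i.1 (γ • q0 N) =
      (denom γ (γ⁻¹ • z : ℍ)) ^ (-(10 : ℤ)) * Psi B hn (γ⁻¹ • z) i.1 (q0 N) := by
    intro i
    have := Psi_smul B hn hind γ (γ⁻¹ • z) i.1 (q0 N)
    rw [hz, i.2] at this
    exact this
  calc ∑ i, c i * Psi B hn z i.1 (γ • q0 N)
      = ∑ i : {i : Fin B.n // B.wt i = 10}, (denom γ (γ⁻¹ • z : ℍ)) ^ (-(10 : ℤ)) *
          (c i * Psi B hn (γ⁻¹ • z) i.1 (q0 N)) := by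
        refine Finset.sum_congr rfl fun i _ => ?_
        rw [h1 i]
        ring
    _ = 0 := by rw [← Finset.mul_sum, h (γ⁻¹ • z), mul_zero]

include hind in
theorem linearIndependent_Gform : LinearIndependent ℂ (Gform B hn hind hdec) := by
  rw [Fintype.linearIndependent_iff]
  intro c hc j
  have h1 : ∀ z : ℍ, ∑ i, c i * Psi B hn z i.1 (q0 N) = 0 := by
    intro z
    have h2 := congrArg (fun F : CuspForm (Gamma0 N) 2 => F z) hc
    simp only [coe_sum_smul, zero_apply] at h2
    have h3 : ∑ i, c i * (Gform B hn hind hdec i) z =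
        ModularForm.discriminant z * ∑ i, c i * Psi B hn z i.1 (q0 N) := by
      rw [Finset.mul_sum]
      refine Finset.sum_congr rfl fun i _ => ?_
      rw [coe_Gform]
      unfold gfun
      ring
    rw [h3] at h2
    rcases mul_eq_zero.mp h2 with h | h
    · exact absurd h (ModularForm.discriminant_ne_zero _)
    · exact h
  have h4 := sum_Psi_eq_zero B hn hind c h1
  -- evaluate at `I` and multiply by `Phi`
  have h5 : ∀ i : {i : Fin B.n // B.wt i = 10},
      ∑ q : Q N, Psi B hn UpperHalfPlane.I i.1 q * Phi B UpperHalfPlane.I q j.1 =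
        if i = j then 1 else 0 := by
    intro i
    have := congrFun (congrFun (Psi_mul_Phi B hn hind UpperHalfPlane.I) i.1) j.1
    rw [Matrix.mul_apply, Matrix.one_apply] at this
    rw [this]
    simp only [Subtype.ext_iff]
  calc c j = ∑ i, c i * (if i = j then 1 else 0) := by simp
    _ = ∑ i, c i * ∑ q : Q N, Psi B hn UpperHalfPlane.I i.1 q * Phi B UpperHalfPlane.I q j.1 := by
        refine Finset.sum_congr rfl fun i _ => ?_
        rw [h5 i]
    _ = ∑ q : Q N, (∑ i, c i * Psi B hn UpperHalfPlane.I i.1 q) * Phi B UpperHalfPlane.I q j.1 := by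
        simp only [Finset.mul_sum, Finset.sum_mul]
        rw [Finset.sum_comm]
        refine Finset.sum_congr rfl fun q _ => Finset.sum_congr rfl fun i _ => ?_
        ring
    _ = 0 := by
        simp only [h4, zero_mul, Finset.sum_const_zero]

/-- the pairing of a cusp form of weight `2` with the basis element `i` -/
noncomputable def afun (f : ℍ → ℂ) (i : Fin B.n) : ℍ → ℂ :=
  ∑ q : Q N, cj N (B.wt i) (B.f i) q * cj N 2 f q

theorem isMF1_afun {f : ℍ → ℂ} (hf : IsCF N 2 f) (i : Fin B.n) :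
    IsMF1 (B.wt i + 2) (afun B f i) :=
  isMF1_sum_cj_mul (B.isMF i) hf.isMF

theorem isZeroAt_afun {f : ℍ → ℂ} (hf : IsCF N 2 f) (i : Fin B.n) :
    IsZeroAtImInfty (afun B f i) := by
  unfold afun
  have : ∀ s : Finset (Q N),
      IsZeroAtImInfty (∑ q ∈ s, cj N (B.wt i) (B.f i) q * cj N 2 f q) := by
    intro s
    classical
    induction s using Finset.induction_on with
    | empty =>
      rw [Finset.sum_empty]
      exact Filter.zero_zeroAtFilter _
    | insert a s ha ih =>
      rw [Finset.sum_insert ha]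
      exact Filter.ZeroAtFilter.add
        (Filter.BoundedAtFilter.mul_zeroAtFilter (cj_bdd (B.isMF i) a) (cj_zeroAt hf a)) ih
  exact this _

open Classical in
include hind in
/-- recovering a form from its pairings -/
theorem eq_sum_Psi_afun {f : ℍ → ℂ} (hf : IsCF N 2 f) (z : ℍ) :
    f z = ∑ i, Psi B hn z i (q0 N) * afun B f i z := by
  have h1 : ∀ q : Q N, ∑ i, Phi B z q i * Psi B hn z i (q0 N) = if q = q0 N then 1 else 0 := by
    intro q
    have := congrFun (congrFun (Phi_mul_Psi B hn hind z) q) (q0 N)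
    rw [Matrix.mul_apply, Matrix.one_apply] at this
    exact this
  have h2 : f = cj N 2 f (q0 N) := (cj_one hf.isMF).symm
  calc f z = cj N 2 f (q0 N) z := by rw [← h2]
    _ = ∑ q : Q N, (if q = q0 N then 1 else 0) * cj N 2 f q z := by simp
    _ = ∑ q : Q N, (∑ i, Phi B z q i * Psi B hn z i (q0 N)) * cj N 2 f q z := by
        refine Finset.sum_congr rfl fun q _ => ?_
        rw [h1 q]
    _ = ∑ i, Psi B hn z i (q0 N) * afun B f i z := by
        unfold afun
        simp only [Finset.sum_mul, Finset.mul_sum, Finset.sum_apply, Pi.mul_apply]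
        rw [Finset.sum_comm]
        refine Finset.sum_congr rfl fun i _ => Finset.sum_congr rfl fun q _ => ?_
        rw [Phi_apply]
        ring

include hn hind hdec in
theorem exists_coeff {f : ℍ → ℂ} (hf : IsCF N 2 f) (i : Fin B.n) :
    ∃ c : ℂ, (B.wt i ≠ 10 → c = 0) ∧
      afun B f i = fun z => c * ModularForm.discriminant z := by
  by_cases h10 : B.wt i = 10
  · have h1 := isMF1_afun B hf i
    have h12 : B.wt i + 2 = 12 := by rw [h10]; norm_num
    rw [h12] at h1
    obtain ⟨c, hc⟩ := eq_smul_discriminant_of_isMF1 h1 (isZeroAt_afun B hf i)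
    exact ⟨c, fun h => absurd h10 h, hc⟩
  · have hle := H1' B hn hind hdec i
    have hlt : B.wt i + 2 < 12 := by
      have := lt_of_le_of_ne hle h10
      omega
    refine ⟨0, fun _ => rfl, ?_⟩
    rw [eq_zero_of_isMF1_of_lt (isMF1_afun B hf i) (isZeroAt_afun B hf i) hlt]
    funext z
    simp

include hind in
theorem span_Gform : ⊤ ≤ Submodule.span ℂ (Set.range (Gform B hn hind hdec)) := by
  intro F _
  have hF : IsCF N 2 (⇑F) := ⟨F, rfl⟩
  choose c hc0 hc using exists_coeff B hn hind hdec hF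
  have key : F = ∑ i : {i : Fin B.n // B.wt i = 10}, c i.1 • Gform B hn hind hdec i := by
    apply DFunLike.ext
    intro z
    rw [coe_sum_smul, eq_sum_Psi_afun B hn hind hF z]
    have h1 : ∀ i : Fin B.n, Psi B hn z i (q0 N) * afun B (⇑F) i z =
        c i * gfun B hn i (q0 N) z := by
      intro i
      rw [hc i]
      unfold gfun
      ring
    simp only [h1, coe_Gform]
    have h2 : ∑ i : Fin B.n, c i * gfun B hn i (q0 N) z =
        ∑ i ∈ Finset.univ.filter (fun i : Fin B.n => B.wt i = 10),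
          c i * gfun B hn i (q0 N) z := by
      symm
      apply Finset.sum_subset (Finset.filter_subset _ _)
      intro i _ hi
      have : B.wt i ≠ 10 := by
        intro h
        exact hi (Finset.mem_filter.mpr ⟨Finset.mem_univ _, h⟩)
      rw [hc0 i this, zero_mul]
    rw [h2]
    exact Finset.sum_subtype _ (fun i => by simp) _
  rw [key]
  exact Submodule.sum_mem _ fun i _ =>
    Submodule.smul_mem _ _ (Submodule.subset_span ⟨i, rfl⟩)

end setup

/-- H1: the weights of a homogeneous basis are at most `10`. -/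
theorem H1 {N : ℕ} [NeZero N] (B : HomBasis N) (hn : B.n = mu N) (hind : PointwiseIndep B)
    (hdec : InvDecay B) (i : Fin B.n) : B.wt i ≤ 10 :=
  H1' B hn hind hdec i

/-- H2: the dimension of the space of cusp forms of weight `2` is the number of basis
elements of weight `10`. -/
theorem H2 {N : ℕ} [NeZero N] (B : HomBasis N) (hn : B.n = mu N) (hind : PointwiseIndep B)
    (hdec : InvDecay B) :
    Module.finrank ℂ (CuspForm (Gamma0 N) 2) = Fintype.card {i : Fin B.n // B.wt i = 10} :=
  Module.finrank_eq_card_basis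
    (Module.Basis.mk (linearIndependent_Gform B hn hind hdec) (span_Gform B hn hind hdec))

end Fermat.Agent.S20_helper22_H
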