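import Fermat.Agent.S20_Core
import Fermat.Agent.S20_helper19_B3

set_option autoImplicit false

open UpperHalfPlane ModularForm CongruenceSubgroup Matrix.SpecialLinearGroup
open scoped MatrixGroups ModularForm Manifold
open Fermat.Agent.S20

namespace Fermat.Agent.S20_helper27_G

variable {N : ℕ} [NeZero N]

/-- the permutation matrix of `q ↦ γ⁻¹ • q` on the cosets -/
noncomputable def permMat (N : ℕ) [NeZero N] (γ : SL(2, ℤ)) : Matrix (Q N) (Q N) ℂ := by
  classical
  exact Matrix.of fun q q' => if γ⁻¹ • q = q' then (1 : ℂ) else 0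

theorem permMat_mul (γ : SL(2, ℤ)) {n : ℕ} (A : Matrix (Q N) (Fin n) ℂ) (q : Q N)
    (i : Fin n) : (permMat N γ * A) q i = A (γ⁻¹ • q) i := by
  classical
  rw [Matrix.mul_apply]
  simp [permMat]

theorem trace_permMat (γ : SL(2, ℤ)) :
    (permMat N γ).trace = (Nat.card {q : Q N // γ • q = q} : ℂ) := by
  classical
  rw [Matrix.trace]
  simp only [Matrix.diag_apply, permMat, Matrix.of_apply]
  rw [Finset.sum_boole, Nat.card_eq_fintype_card, Fintype.card_subtype]
  congr 2
  ext q
  simp only [Finset.mem_filter, Finset.mem_univ, true_and]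
  rw [inv_smul_eq_iff, eq_comm]

/-- The general trace identity: if `γ` fixes `z` then the sum of the `denom γ z ^ (-k_i)` is the
number of cosets fixed by `γ`. -/
theorem trace_identity (B : HomBasis N) (hn : B.n = mu N) (hind : PointwiseIndep B)
    (γ : SL(2, ℤ)) (z : ℍ) (hz : γ • z = z) :
    ∑ i, (denom γ z) ^ (-(B.wt i)) = (Nat.card {q : Q N // γ • q = q} : ℂ) := by
  classical
  set Φ : Matrix (Q N) (Fin B.n) ℂ := Phi B z with hΦ
  set d : Fin B.n → ℂ := fun i => (denom γ z) ^ (-(B.wt i)) with hd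
  -- the key matrix relation
  have hrel : permMat N γ * Φ = Φ * Matrix.diagonal d := by
    ext q i
    rw [permMat_mul, Matrix.mul_diagonal]
    have h1 := cj_smul_apply (B.isMF i) γ q z
    rw [hz] at h1
    have hne : (denom γ z) ^ (B.wt i) ≠ 0 := zpow_ne_zero _ (denom_ne_zero _ z)
    simp only [hΦ, Phi_apply, hd]
    rw [h1, zpow_neg]
    field_simp
  -- the linear map attached to `Φ` is injective
  have hinj : Function.Injective (Matrix.toLin' Φ) := by
    rw [← LinearMap.ker_eq_bot, LinearMap.ker_eq_bot']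
    intro c hc
    refine hind z c fun q => ?_
    have := congrFun hc q
    rw [Matrix.toLin'_apply, Matrix.mulVec, dotProduct] at this
    simp only [Pi.zero_apply] at this
    rw [← this]
    refine Finset.sum_congr rfl fun i _ => ?_
    rw [mul_comm]
    rfl
  have hfr : Module.finrank ℂ (Fin B.n → ℂ) = Module.finrank ℂ (Q N → ℂ) := by
    rw [Module.finrank_fin_fun, Module.finrank_pi, hn, mu, Nat.card_eq_fintype_card]
  let e : (Fin B.n → ℂ) ≃ₗ[ℂ] (Q N → ℂ) :=
    LinearMap.linearEquivOfInjective (Matrix.toLin' Φ) hinj hfr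
  have he : ∀ c, e c = Matrix.toLin' Φ c := fun c =>
    LinearMap.linearEquivOfInjective_apply hinj hfr c
  have hconj : e.conj (Matrix.toLin' (Matrix.diagonal d)) = Matrix.toLin' (permMat N γ) := by
    apply LinearMap.ext
    intro v
    obtain ⟨c, rfl⟩ := e.surjective v
    rw [LinearEquiv.conj_apply_apply, LinearEquiv.symm_apply_apply, he, he,
      ← LinearMap.comp_apply, ← LinearMap.comp_apply, ← Matrix.toLin'_mul, ← Matrix.toLin'_mul,
      hrel]
  have h2 := LinearMap.trace_conj' (Matrix.toLin' (Matrix.diagonal d)) e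
  rw [hconj, Matrix.trace_toLin'_eq, Matrix.trace_toLin'_eq, Matrix.trace_diagonal,
    trace_permMat] at h2
  exact h2.symm

theorem G1 (B : HomBasis N) (hn : B.n = mu N) (hind : PointwiseIndep B) :
    ∑ i, Complex.I ^ (-(B.wt i)) = (nu2 N : ℂ) := by
  have h := trace_identity B hn hind ModularGroup.S UpperHalfPlane.I
    Fermat.Agent.S20_helper19_B3.B3d
  rw [ModularGroup.denom_S] at h
  exact h

theorem G2 (B : HomBasis N) (hn : B.n = mu N) (hind : PointwiseIndep B) (z : ℍ)
    (hz : (ModularGroup.S * ModularGroup.T) • z = z) :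
    ∑ i, ((z : ℂ) + 1) ^ (-(B.wt i)) = (nu3 N : ℂ) := by
  have h := trace_identity B hn hind (ModularGroup.S * ModularGroup.T) z hz
  rw [Fermat.Agent.S20_helper19_B3.denom_ST] at h
  exact h

end Fermat.Agent.S20_helper27_G
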