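import Mathlib
import Fermat.Agent.S20_Defs

set_option autoImplicit false

open UpperHalfPlane ModularForm CongruenceSubgroup
open scoped MatrixGroups ModularForm Manifold
open Fermat.Agent.S20

namespace Fermat.Agent.S20_helper29_P1

/-- Coset equality in `SL(2,ℤ)/Γ₀(N)` in terms of the first columns. -/
theorem mk_eq_mk_iff (N : ℕ) (h h' : SL(2, ℤ)) :
    ((h : SL(2, ℤ)) : Q N) = ((h' : SL(2, ℤ)) : Q N) ↔
      (N : ℤ) ∣ h 0 0 * h' 1 0 - h 1 0 * h' 0 0 := by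
  rw [QuotientGroup.eq, Gamma0_mem, ZMod.intCast_zmod_eq_zero_iff_dvd]
  have : (h⁻¹ * h') 1 0 = h 0 0 * h' 1 0 - h 1 0 * h' 0 0 := by
    rw [Matrix.SpecialLinearGroup.coe_mul, Matrix.SpecialLinearGroup.coe_inv,
      Matrix.adjugate_fin_two, Matrix.mul_apply, Fin.sum_univ_two]
    simp
    ring
  rw [this]

theorem smul_mk (N : ℕ) (g h : SL(2, ℤ)) :
    g • ((h : SL(2, ℤ)) : Q N) = ((g * h : SL(2, ℤ)) : Q N) := rfl

theorem col_coprime (h : SL(2, ℤ)) : IsCoprime (h 0 0) (h 1 0) := by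
  refine ⟨h 1 1, - h 0 1, ?_⟩
  have := h.det_coe
  rw [Matrix.det_fin_two] at this
  linarith

theorem exists_col (a c : ℤ) (hac : IsCoprime a c) :
    ∃ h : SL(2, ℤ), h 0 0 = a ∧ h 1 0 = c := by
  obtain ⟨x, y, hxy⟩ := hac
  refine ⟨⟨!![a, -y; c, x], ?_⟩, rfl, rfl⟩
  rw [Matrix.det_fin_two_of]
  linarith

theorem T_zpow_mul_col (k : ℤ) (h : SL(2, ℤ)) :
    (ModularGroup.T ^ k * h) 0 0 = h 0 0 + k * h 1 0 ∧ (ModularGroup.T ^ k * h) 1 0 = h 1 0 := by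
  rw [Matrix.SpecialLinearGroup.coe_mul, ModularGroup.coe_T_zpow]
  constructor <;> simp [Matrix.mul_apply, Fin.sum_univ_two]

theorem S_mul_col (h : SL(2, ℤ)) :
    (ModularGroup.S * h) 0 0 = - h 1 0 ∧ (ModularGroup.S * h) 1 0 = h 0 0 := by
  rw [Matrix.SpecialLinearGroup.coe_mul, ModularGroup.coe_S]
  constructor <;> simp [Matrix.mul_apply, Fin.sum_univ_two]

theorem ST_mul_col (h : SL(2, ℤ)) :
    (ModularGroup.S * ModularGroup.T * h) 0 0 = - h 1 0 ∧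
      (ModularGroup.S * ModularGroup.T * h) 1 0 = h 0 0 + h 1 0 := by
  rw [Matrix.SpecialLinearGroup.coe_mul, Matrix.SpecialLinearGroup.coe_mul, ModularGroup.coe_S,
    ModularGroup.coe_T]
  constructor <;> simp [Matrix.mul_apply, Fin.sum_univ_two]

end Fermat.Agent.S20_helper29_P1
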