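import Mathlib
import Fermat.Agent.S20_Defs
import Fermat.Agent.S20_helper29_P1

set_option autoImplicit false

open UpperHalfPlane ModularForm CongruenceSubgroup
open scoped MatrixGroups ModularForm Manifold
open Fermat.Agent.S20 Fermat.Agent.S20_helper29_P1

namespace Fermat.Agent.S20_helper29_A1

/-! ### general counting lemma -/

theorem A1_card_eq_of_fiber_iff {α β γ : Type*} (f : α → β) (g : α → γ)
    (hf : Function.Surjective f) (hfg : ∀ a a', f a = f a' ↔ g a = g a') :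
    Nat.card β = Nat.card (Set.range g) := by
  refine Nat.card_congr (Equiv.ofBijective
    (fun b => ⟨g (Function.surjInv hf b), Set.mem_range_self _⟩) ⟨?_, ?_⟩)
  · intro b b' hbb'
    simp only [Subtype.mk.injEq] at hbb'
    have h3 := (hfg _ _).mpr hbb'
    have h1 := Function.surjInv_eq hf b
    have h2 := Function.surjInv_eq hf b'
    rw [h1, h2] at h3
    exact h3
  · rintro ⟨_, a, rfl⟩
    refine ⟨f a, ?_⟩
    simp only [Subtype.mk.injEq]
    exact (hfg _ _).mp (Function.surjInv_eq hf (f a))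

/-! ### the projective invariant over a field -/

open scoped Classical in
/-- the point of the projective line, as an element of `Option F` -/
noncomputable def pt {F : Type*} [Field F] (a c : F) : Option F :=
  if a = 0 then none else some (c / a)

theorem pt_eq_iff {F : Type*} [Field F] (a c a' c' : F) (h : a ≠ 0 ∨ c ≠ 0)
    (h' : a' ≠ 0 ∨ c' ≠ 0) : pt a c = pt a' c' ↔ a * c' - c * a' = 0 := by
  unfold pt
  by_cases ha : a = 0
  · by_cases ha' : a' = 0
    · simp [ha, ha']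
    · have hc : c ≠ 0 := by
        rcases h with h | h
        · exact absurd ha h
        · exact h
      simp [ha, ha', hc]
  · by_cases ha' : a' = 0
    · have hc' : c' ≠ 0 := by
        rcases h' with h' | h'
        · exact absurd ha' h'
        · exact h'
      simp [ha, ha', hc']
    · simp only [ha, ha', if_false, Option.some.injEq]
      rw [div_eq_div_iff ha ha', sub_eq_zero]
      constructor <;> intro e <;> linear_combination -e

/-! ### the relative index of `Γ₀(pM)` in `Γ₀(M)` -/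

theorem Gamma0_mul_le (p M : ℕ) : Gamma0 (p * M) ≤ Gamma0 M := by
  intro γ hγ
  rw [Gamma0_mem, ZMod.intCast_zmod_eq_zero_iff_dvd] at hγ ⊢
  refine dvd_trans ?_ hγ
  push_cast
  exact dvd_mul_left _ _

theorem inv_mul_mem_iff (N : ℕ) (h h' : SL(2, ℤ)) :
    h⁻¹ * h' ∈ Gamma0 N ↔ (N : ℤ) ∣ h 0 0 * h' 1 0 - h 1 0 * h' 0 0 := by
  rw [← mk_eq_mk_iff, QuotientGroup.eq]

/-- the invariant of a coset of `Γ₀(pM)` in `Γ₀(M)` -/
noncomputable def inv (p M : ℕ) [Fact p.Prime] (γ : Gamma0 M) : Option (ZMod p) :=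
  pt (((γ : SL(2, ℤ)) 0 0 : ℤ) : ZMod p) ((((γ : SL(2, ℤ)) 1 0 / (M : ℤ) : ℤ)) : ZMod p)

theorem Gamma0_dvd (M : ℕ) (γ : Gamma0 M) : (M : ℤ) ∣ (γ : SL(2, ℤ)) 1 0 := by
  have := γ.2
  rw [Gamma0_mem, ZMod.intCast_zmod_eq_zero_iff_dvd] at this
  exact this

theorem nonzero_pair (p M : ℕ) [Fact p.Prime] (γ : Gamma0 M) :
    (((γ : SL(2, ℤ)) 0 0 : ℤ) : ZMod p) ≠ 0 ∨
      ((((γ : SL(2, ℤ)) 1 0 / (M : ℤ) : ℤ)) : ZMod p) ≠ 0 := by
  by_contra hcon
  simp only [not_or, not_not] at hcon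
  obtain ⟨h1, h2⟩ := hcon
  rw [ZMod.intCast_zmod_eq_zero_iff_dvd] at h1 h2
  have h3 : (p : ℤ) ∣ (γ : SL(2, ℤ)) 1 0 := by
    have := Int.mul_ediv_cancel' (Gamma0_dvd M γ)
    rw [← this]
    exact Dvd.dvd.mul_left h2 _
  have hcop := col_coprime (γ : SL(2, ℤ))
  have hu : IsUnit (p : ℤ) := hcop.isUnit_of_dvd' h1 h3
  rw [Int.isUnit_iff] at hu
  rcases hu with hu | hu
  · have : p = 1 := by exact_mod_cast hu
    exact (Fact.out : p.Prime).one_lt.ne' this
  · have : (0 : ℤ) ≤ (p : ℤ) := Int.natCast_nonneg _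
    omega

theorem inv_eq_iff (p M : ℕ) (hM : M ≠ 0) [Fact p.Prime] (γ γ' : Gamma0 M) :
    inv p M γ = inv p M γ' ↔
      (γ : SL(2, ℤ))⁻¹ * (γ' : SL(2, ℤ)) ∈ Gamma0 (p * M) := by
  unfold inv
  rw [pt_eq_iff _ _ _ _ (nonzero_pair p M γ) (nonzero_pair p M γ'), inv_mul_mem_iff]
  have e1 := Int.mul_ediv_cancel' (Gamma0_dvd M γ)
  have e2 := Int.mul_ediv_cancel' (Gamma0_dvd M γ')
  set a := (γ : SL(2, ℤ)) 0 0
  set c := (γ : SL(2, ℤ)) 1 0
  set a' := (γ' : SL(2, ℤ)) 0 0
  set c' := (γ' : SL(2, ℤ)) 1 0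
  have hM' : (M : ℤ) ≠ 0 := by exact_mod_cast hM
  have key : a * c' - c * a' = (M : ℤ) * (a * (c' / (M : ℤ)) - (c / (M : ℤ)) * a') := by
    rw [mul_sub, ← mul_assoc (M : ℤ) (c / (M : ℤ)), e1, mul_left_comm, e2]
  rw [key]
  have : ((p * M : ℕ) : ℤ) = (M : ℤ) * (p : ℤ) := by push_cast; ring
  rw [this, mul_dvd_mul_iff_left hM', ← ZMod.intCast_zmod_eq_zero_iff_dvd]
  push_cast
  rfl

theorem relIndex_eq (p M : ℕ) (hM : M ≠ 0) [Fact p.Prime] :
    (Gamma0 (p * M)).relIndex (Gamma0 M) = Nat.card (Set.range (inv p M)) := by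
  unfold Subgroup.relIndex Subgroup.index
  refine A1_card_eq_of_fiber_iff
    (fun γ : Gamma0 M => (QuotientGroup.mk γ : Gamma0 M ⧸ (Gamma0 (p * M)).subgroupOf (Gamma0 M)))
    (inv p M) ?_ ?_
  · intro q
    induction q using QuotientGroup.induction_on with
    | _ h => exact ⟨h, rfl⟩
  · intro γ γ'
    rw [inv_eq_iff p M hM, QuotientGroup.eq, Subgroup.mem_subgroupOf]
    rfl

theorem some_mem_range (p M : ℕ) (hM : M ≠ 0) [Fact p.Prime] (t : ZMod p) :
    some t ∈ Set.range (inv p M) := by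
  obtain ⟨h, h00, h10⟩ := exists_col 1 ((M : ℤ) * (t.val : ℤ)) isCoprime_one_left
  have hmem : h ∈ Gamma0 M := by
    rw [Gamma0_mem, ZMod.intCast_zmod_eq_zero_iff_dvd, h10]
    exact dvd_mul_right _ _
  refine ⟨⟨h, hmem⟩, ?_⟩
  unfold inv pt
  have hM' : (M : ℤ) ≠ 0 := by exact_mod_cast hM
  simp only [h00, h10]
  rw [Int.mul_ediv_cancel_left _ hM']
  simp

theorem none_mem_range (p M : ℕ) [Fact p.Prime] (hpM : ¬ p ∣ M) :
    none ∈ Set.range (inv p M) := by
  have hcop : IsCoprime (p : ℤ) (M : ℤ) := by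
    rw [Nat.isCoprime_iff_coprime]
    exact (Nat.Prime.coprime_iff_not_dvd Fact.out).mpr hpM
  obtain ⟨h, h00, h10⟩ := exists_col (p : ℤ) (M : ℤ) hcop
  have hmem : h ∈ Gamma0 M := by
    rw [Gamma0_mem, ZMod.intCast_zmod_eq_zero_iff_dvd, h10]
  refine ⟨⟨h, hmem⟩, ?_⟩
  unfold inv pt
  simp [h00]

theorem none_not_mem_range (p M : ℕ) [Fact p.Prime] (hpM : p ∣ M) :
    none ∉ Set.range (inv p M) := by
  rintro ⟨γ, hγ⟩
  unfold inv pt at hγ
  split_ifs at hγ with h1
  rw [ZMod.intCast_zmod_eq_zero_iff_dvd] at h1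
  have h3 : (p : ℤ) ∣ (γ : SL(2, ℤ)) 1 0 :=
    dvd_trans (by exact_mod_cast hpM) (Gamma0_dvd M γ)
  have hcop := col_coprime (γ : SL(2, ℤ))
  have hu : IsUnit (p : ℤ) := hcop.isUnit_of_dvd' h1 h3
  rw [Int.isUnit_iff] at hu
  rcases hu with hu | hu
  · have : p = 1 := by exact_mod_cast hu
    exact (Fact.out : p.Prime).one_lt.ne' this
  · have : (0 : ℤ) ≤ (p : ℤ) := Int.natCast_nonneg _
    omega

theorem relIndex_val (p M : ℕ) (hM : M ≠ 0) (hp : p.Prime) :
    (Gamma0 (p * M)).relIndex (Gamma0 M) = if p ∣ M then p else p + 1 := by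
  haveI : Fact p.Prime := ⟨hp⟩
  rw [relIndex_eq p M hM]
  split_ifs with hpM
  · have : Set.range (inv p M) = Set.range (some : ZMod p → Option (ZMod p)) := by
      ext x
      constructor
      · intro hx
        cases x with
        | none => exact absurd hx (none_not_mem_range p M hpM)
        | some t => exact ⟨t, rfl⟩
      · rintro ⟨t, rfl⟩
        exact some_mem_range p M hM t
    rw [this, Nat.card_range_of_injective (Option.some_injective _), Nat.card_eq_fintype_card,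
      ZMod.card]
  · have : Set.range (inv p M) = Set.univ := by
      ext x
      simp only [Set.mem_univ, iff_true]
      cases x with
      | none => exact none_mem_range p M hpM
      | some t => exact some_mem_range p M hM t
    rw [this, Nat.card_congr (Equiv.Set.univ _), Nat.card_eq_fintype_card, Fintype.card_option,
      ZMod.card]

/-! ### the recursion for `ψ` -/

theorem psi_mul_of_dvd (p M : ℕ) (hp : p.Prime) (hM : M ≠ 0) (hpM : p ∣ M) :
    ModularCurve.dedekindPsi (p * M) = ModularCurve.dedekindPsi M * p := by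
  unfold ModularCurve.dedekindPsi
  have hset : (p * M).divisors.filter Squarefree = M.divisors.filter Squarefree := by
    ext d
    simp only [Finset.mem_filter, Nat.mem_divisors]
    constructor
    · rintro ⟨⟨hd, _⟩, hsq⟩
      refine ⟨⟨?_, hM⟩, hsq⟩
      by_cases hpd : p ∣ d
      · obtain ⟨d', rfl⟩ := hpd
        have hcop : Nat.Coprime p d' := (Nat.squarefree_mul_iff.mp hsq).1
        have hd' : d' ∣ M := (Nat.mul_dvd_mul_iff_left hp.pos).mp hd
        exact hcop.mul_dvd_of_dvd_of_dvd hpM hd'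
      · have hcop : Nat.Coprime d p := ((Nat.Prime.coprime_iff_not_dvd hp).mpr hpd).symm
        exact hcop.dvd_of_dvd_mul_left hd
    · rintro ⟨⟨hd, _⟩, hsq⟩
      exact ⟨⟨dvd_mul_of_dvd_right hd p, mul_ne_zero hp.ne_zero hM⟩, hsq⟩
  rw [hset, Finset.sum_mul]
  refine Finset.sum_congr rfl fun d hd => ?_
  have hd' : d ∣ M := (Nat.mem_divisors.mp (Finset.mem_filter.mp hd).1).1
  rw [Nat.mul_div_assoc p hd', mul_comm]

theorem psi_mul_of_not_dvd (p M : ℕ) (hp : p.Prime) (hM : M ≠ 0) (hpM : ¬ p ∣ M) :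
    ModularCurve.dedekindPsi (p * M) = ModularCurve.dedekindPsi M * (p + 1) := by
  unfold ModularCurve.dedekindPsi
  rw [← Finset.sum_filter_add_sum_filter_not ((p * M).divisors.filter Squarefree)
    (fun d => p ∣ d)]
  have h1 : ((p * M).divisors.filter Squarefree).filter (fun d => p ∣ d) =
      (M.divisors.filter Squarefree).image (fun d => p * d) := by
    ext d
    simp only [Finset.mem_filter, Nat.mem_divisors, Finset.mem_image]
    constructor
    · rintro ⟨⟨⟨hd, _⟩, hsq⟩, hpd⟩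
      obtain ⟨d', rfl⟩ := hpd
      have hd' : d' ∣ M := (Nat.mul_dvd_mul_iff_left hp.pos).mp hd
      exact ⟨d', ⟨⟨hd', hM⟩, (Nat.squarefree_mul_iff.mp hsq).2.2⟩, rfl⟩
    · rintro ⟨d', ⟨⟨hd', _⟩, hsq'⟩, rfl⟩
      have hpd' : ¬ p ∣ d' := fun h => hpM (dvd_trans h hd')
      have hcop : Nat.Coprime p d' := (Nat.Prime.coprime_iff_not_dvd hp).mpr hpd'
      refine ⟨⟨⟨Nat.mul_dvd_mul_left p hd', mul_ne_zero hp.ne_zero hM⟩, ?_⟩, dvd_mul_right _ _⟩
      exact Nat.squarefree_mul_iff.mpr ⟨hcop, hp.squarefree, hsq'⟩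
  have h2 : ((p * M).divisors.filter Squarefree).filter (fun d => ¬ p ∣ d) =
      M.divisors.filter Squarefree := by
    ext d
    simp only [Finset.mem_filter, Nat.mem_divisors]
    constructor
    · rintro ⟨⟨⟨hd, _⟩, hsq⟩, hpd⟩
      have hcop : Nat.Coprime d p := ((Nat.Prime.coprime_iff_not_dvd hp).mpr hpd).symm
      exact ⟨⟨hcop.dvd_of_dvd_mul_left hd, hM⟩, hsq⟩
    · rintro ⟨⟨hd, _⟩, hsq⟩
      exact ⟨⟨⟨dvd_mul_of_dvd_right hd p, mul_ne_zero hp.ne_zero hM⟩, hsq⟩,
        fun h => hpM (dvd_trans h hd)⟩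
  rw [h1, h2, Finset.sum_image (fun x _ y _ hxy => Nat.eq_of_mul_eq_mul_left hp.pos hxy),
    mul_add, mul_one, add_comm]
  congr 1
  · rw [Finset.sum_mul]
    refine Finset.sum_congr rfl fun d hd => ?_
    have hd' : d ∣ M := (Nat.mem_divisors.mp (Finset.mem_filter.mp hd).1).1
    rw [Nat.mul_div_assoc p hd', mul_comm]
  · refine Finset.sum_congr rfl fun d _ => ?_
    rw [Nat.mul_div_mul_left _ _ hp.pos]

theorem psi_mul (p M : ℕ) (hp : p.Prime) (hM : M ≠ 0) :
    ModularCurve.dedekindPsi (p * M) =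
      (if p ∣ M then p else p + 1) * ModularCurve.dedekindPsi M := by
  split_ifs with h
  · rw [psi_mul_of_dvd p M hp hM h, mul_comm]
  · rw [psi_mul_of_not_dvd p M hp hM h, mul_comm]

/-! ### the index formula -/

theorem Gamma0_one : Gamma0 1 = ⊤ := by
  ext γ
  simp only [Subgroup.mem_top, iff_true]
  rw [Gamma0_mem]
  exact Subsingleton.elim _ _

theorem index_Gamma0 (n : ℕ) (hn : n ≠ 0) : (Gamma0 n).index = ModularCurve.dedekindPsi n := by
  induction n using induction_on_primes with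
  | zero => exact absurd rfl hn
  | one => rw [ModularCurve.dedekindPsi_one, Gamma0_one, Subgroup.index_top]
  | prime_mul p a hp ih =>
    have ha : a ≠ 0 := fun h => hn (by rw [h, mul_zero])
    rw [← Subgroup.relIndex_mul_index (Gamma0_mul_le p a), relIndex_val p a ha hp, ih ha,
      psi_mul p a hp ha]

theorem A1 (N : ℕ) [NeZero N] : mu N = ModularCurve.dedekindPsi N :=
  index_Gamma0 N (NeZero.ne N)

end Fermat.Agent.S20_helper29_A1
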