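import Mathlib
import Fermat.Agent.S20_Defs
import Fermat.Agent.S20_helper29_P1

set_option autoImplicit false

open UpperHalfPlane ModularForm CongruenceSubgroup
open scoped MatrixGroups ModularForm Manifold
open Fermat.Agent.S20 Fermat.Agent.S20_helper29_P1

namespace Fermat.Agent.S20_helper29_A4

/-! ### pure integer lemmas -/

theorem A4_key_forward {d m a a' γ γ' k : ℤ} (hd : d ≠ 0)
    (h : d * m ∣ (a + k * (d * γ)) * (d * γ') - (d * γ) * a') :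
    m ∣ a * γ' - a' * γ + k * d * γ * γ' := by
  obtain ⟨t, ht⟩ := h
  refine ⟨t, ?_⟩
  apply mul_left_cancel₀ hd
  linear_combination ht

theorem A4_key_backward {d m g a a' γ γ' : ℤ}
    (hg : ∃ x y : ℤ, g = x * d + y * m)
    (hγ : IsCoprime γ m) (hγ' : IsCoprime γ' m)
    (h : g ∣ a * γ' - a' * γ) :
    ∃ k : ℤ, d * m ∣ (a + k * (d * γ)) * (d * γ') - (d * γ) * a' := by
  obtain ⟨x, y, hxy⟩ := hg
  obtain ⟨u, v, huv⟩ := hγ
  obtain ⟨u', v', huv'⟩ := hγ'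
  obtain ⟨t, ht⟩ := h
  -- want  m ∣ a γ' - a' γ + k d γ γ'
  refine ⟨- t * x * u * u', ?_⟩
  have hm : m ∣ a * γ' - a' * γ + (- t * x * u * u') * d * γ * γ' := by
    refine ⟨t * y + t * x * d * (v + v' - m * v * v'), ?_⟩
    have e1 : u * γ = 1 - v * m := by linear_combination huv
    have e2 : u' * γ' = 1 - v' * m := by linear_combination huv'
    have e3 : (- t * x * u * u') * d * γ * γ' = - t * x * d * ((u * γ) * (u' * γ')) := by ring
    rw [e3, e1, e2, ht, hxy]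
    ring
  obtain ⟨s, hs⟩ := hm
  refine ⟨s, ?_⟩
  linear_combination d * hs


/-- the relation "same `T`-orbit of cosets" in terms of first columns -/
theorem A4_rel_iff (N : ℕ) (hN : N ≠ 0) (a c a' c' : ℤ) (hac : IsCoprime a c)
    (hac' : IsCoprime a' c') :
    (∃ k : ℤ, (N : ℤ) ∣ (a + k * c) * c' - c * a') ↔
      Int.gcd c N = Int.gcd c' N ∧
        ((Nat.gcd (Int.gcd c N) (N / Int.gcd c N) : ℕ) : ℤ) ∣
          a * (c' / (Int.gcd c N : ℤ)) - a' * (c / (Int.gcd c N : ℤ)) := by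
  set d : ℕ := Int.gcd c N with hd
  have hdpos : 0 < d := Int.gcd_pos_of_ne_zero_right _ (by exact_mod_cast hN)
  have hd0 : (d : ℤ) ≠ 0 := by exact_mod_cast hdpos.ne'
  have hdc : (d : ℤ) ∣ c := Int.gcd_dvd_left _ _
  have hdN : (d : ℤ) ∣ (N : ℤ) := Int.gcd_dvd_right _ _
  have hdN' : d ∣ N := by exact_mod_cast hdN
  set m : ℕ := N / d with hm
  have hNdm : (N : ℤ) = (d : ℤ) * (m : ℤ) := by
    have : N = d * m := (Nat.mul_div_cancel' hdN').symm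
    exact_mod_cast this
  have hcγ : c = (d : ℤ) * (c / (d : ℤ)) := (Int.mul_ediv_cancel' hdc).symm
  have hγm : IsCoprime (c / (d : ℤ)) (m : ℤ) := by
    rw [Int.isCoprime_iff_gcd_eq_one]
    have h1 := Int.gcd_div_gcd_div_gcd (i := c) (j := (N : ℤ)) hdpos
    have h2 : ((N : ℤ) / (d : ℤ)) = (m : ℤ) := by
      rw [hm]; push_cast; rfl
    rw [← hd, h2] at h1
    exact h1
  have hg : ∃ x y : ℤ, ((Nat.gcd d m : ℕ) : ℤ) = x * d + y * m :=
    ⟨Nat.gcdA d m, Nat.gcdB d m, by rw [Nat.gcd_eq_gcd_ab]; ring⟩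
  have hgd : ((Nat.gcd d m : ℕ) : ℤ) ∣ (d : ℤ) := by exact_mod_cast Nat.gcd_dvd_left d m
  have hgm : ((Nat.gcd d m : ℕ) : ℤ) ∣ (m : ℤ) := by exact_mod_cast Nat.gcd_dvd_right d m
  constructor
  · rintro ⟨k, hk⟩
    -- step 1: d ∣ c'
    have h1 : (d : ℤ) ∣ (a + k * c) * c' := by
      have h2 : (d : ℤ) ∣ (a + k * c) * c' - c * a' := dvd_trans hdN hk
      have h3 : (d : ℤ) ∣ c * a' := Dvd.dvd.mul_right hdc _
      have := dvd_add h2 h3
      simpa using this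
    have hcop1 : IsCoprime (a + k * c) (d : ℤ) := by
      have : IsCoprime (a + k * c) c := by
        have := hac.add_mul_right_left k
        simpa [mul_comm] using this
      exact this.of_isCoprime_of_dvd_right hdc
    have hdc' : (d : ℤ) ∣ c' := hcop1.symm.dvd_of_dvd_mul_left h1
    have hdd' : d ∣ Int.gcd c' N := by
      have : (d : ℤ) ∣ ((Int.gcd c' N : ℕ) : ℤ) := Int.dvd_coe_gcd hdc' hdN
      exact_mod_cast this
    -- step 2: d' ∣ c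
    set d' : ℕ := Int.gcd c' N with hd'
    have hd'c' : (d' : ℤ) ∣ c' := Int.gcd_dvd_left _ _
    have hd'N : (d' : ℤ) ∣ (N : ℤ) := Int.gcd_dvd_right _ _
    have h4 : (d' : ℤ) ∣ c * a' := by
      have h2 : (d' : ℤ) ∣ (a + k * c) * c' - c * a' := dvd_trans hd'N hk
      have h3 : (d' : ℤ) ∣ (a + k * c) * c' := Dvd.dvd.mul_left hd'c' _
      have := dvd_sub h3 h2
      simpa using this
    have hcop2 : IsCoprime a' (d' : ℤ) := hac'.of_isCoprime_of_dvd_right hd'c'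
    have hd'c : (d' : ℤ) ∣ c := hcop2.symm.dvd_of_dvd_mul_right h4
    have hd'd : d' ∣ d := by
      have : (d' : ℤ) ∣ ((Int.gcd c N : ℕ) : ℤ) := Int.dvd_coe_gcd hd'c hd'N
      rw [← hd] at this
      exact_mod_cast this
    have hdeq : d = d' := Nat.dvd_antisymm hdd' hd'd
    refine ⟨hdeq, ?_⟩
    have hcγ' : c' = (d : ℤ) * (c' / (d : ℤ)) := (Int.mul_ediv_cancel' hdc').symm
    have hk' : (d : ℤ) * (m : ℤ) ∣ (a + k * ((d : ℤ) * (c / (d : ℤ)))) *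
        ((d : ℤ) * (c' / (d : ℤ))) - ((d : ℤ) * (c / (d : ℤ))) * a' := by
      rw [← hcγ, ← hcγ', ← hNdm]; exact hk
    have h5 := A4_key_forward hd0 hk'
    have h6 : ((Nat.gcd d m : ℕ) : ℤ) ∣ k * (d : ℤ) * (c / (d : ℤ)) * (c' / (d : ℤ)) := by
      have : ((Nat.gcd d m : ℕ) : ℤ) ∣ (d : ℤ) * (k * (c / (d : ℤ)) * (c' / (d : ℤ))) :=
        Dvd.dvd.mul_right hgd _
      have e : k * (d : ℤ) * (c / (d : ℤ)) * (c' / (d : ℤ)) =
          (d : ℤ) * (k * (c / (d : ℤ)) * (c' / (d : ℤ))) := by ring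
      rw [e]; exact this
    have h7 := dvd_sub (dvd_trans hgm h5) h6
    simpa using h7
  · rintro ⟨hdeq, hdiv⟩
    have hdc' : (d : ℤ) ∣ c' := by rw [hdeq]; exact Int.gcd_dvd_left _ _
    have hcγ' : c' = (d : ℤ) * (c' / (d : ℤ)) := (Int.mul_ediv_cancel' hdc').symm
    have hγ'm : IsCoprime (c' / (d : ℤ)) (m : ℤ) := by
      rw [Int.isCoprime_iff_gcd_eq_one]
      have hd'pos : 0 < Int.gcd c' N := by rw [← hdeq]; exact hdpos
      have h1 := Int.gcd_div_gcd_div_gcd (i := c') (j := (N : ℤ)) hd'pos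
      have h2 : ((N : ℤ) / (d : ℤ)) = (m : ℤ) := by
        rw [hm]; push_cast; rfl
      rw [← hdeq, h2] at h1
      exact h1
    obtain ⟨k, hk⟩ := A4_key_backward hg hγm hγ'm hdiv
    refine ⟨k, ?_⟩
    rw [← hcγ, ← hcγ', ← hNdm] at hk
    exact hk


/-! ### the residue invariant -/

theorem A4_isUnit_intCast (g : ℕ) (γ : ℤ) (hγ : IsCoprime γ (g : ℤ)) :
    IsUnit ((γ : ℤ) : ZMod g) := by
  obtain ⟨u, v, huv⟩ := hγ
  have h1 : ((u * γ + v * (g : ℤ) : ℤ) : ZMod g) = 1 := by rw [huv]; simp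
  push_cast at h1
  simp only [ZMod.natCast_self, mul_zero, add_zero] at h1
  exact IsUnit.of_mul_eq_one _ (by rw [mul_comm]; exact h1)

theorem A4_val_eq_iff (g : ℕ) [NeZero g] (a γ a' γ' : ℤ) (hγ : IsCoprime γ (g : ℤ))
    (hγ' : IsCoprime γ' (g : ℤ)) :
    (((a : ℤ) : ZMod g) * ((γ : ℤ) : ZMod g)⁻¹).val =
        (((a' : ℤ) : ZMod g) * ((γ' : ℤ) : ZMod g)⁻¹).val ↔
      (g : ℤ) ∣ a * γ' - a' * γ := by
  have hu := A4_isUnit_intCast g γ hγ
  have hu' := A4_isUnit_intCast g γ' hγ'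
  have e1 : ((γ : ℤ) : ZMod g) * ((γ : ℤ) : ZMod g)⁻¹ = 1 := ZMod.mul_inv_of_unit _ hu
  have e2 : ((γ' : ℤ) : ZMod g) * ((γ' : ℤ) : ZMod g)⁻¹ = 1 := ZMod.mul_inv_of_unit _ hu'
  rw [← ZMod.intCast_zmod_eq_zero_iff_dvd]
  push_cast
  constructor
  · intro h
    have h' := ZMod.val_injective g h
    have : ((a : ℤ) : ZMod g) * (γ' : ZMod g) - (a' : ZMod g) * (γ : ZMod g) =
        (((a : ℤ) : ZMod g) * ((γ : ℤ) : ZMod g)⁻¹ -
          ((a' : ℤ) : ZMod g) * ((γ' : ℤ) : ZMod g)⁻¹) * ((γ : ZMod g) * (γ' : ZMod g)) := by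
      have : (((a : ℤ) : ZMod g) * ((γ : ℤ) : ZMod g)⁻¹ -
          ((a' : ℤ) : ZMod g) * ((γ' : ℤ) : ZMod g)⁻¹) * ((γ : ZMod g) * (γ' : ZMod g)) =
          (a : ZMod g) * (γ' : ZMod g) * ((γ : ZMod g) * ((γ : ℤ) : ZMod g)⁻¹) -
          (a' : ZMod g) * (γ : ZMod g) * ((γ' : ZMod g) * ((γ' : ℤ) : ZMod g)⁻¹) := by ring
      rw [this, e1, e2]; ring
    rw [this, h', sub_self, zero_mul]
  · intro h
    congr 1
    have h1 : ((a : ℤ) : ZMod g) * (γ' : ZMod g) = (a' : ZMod g) * (γ : ZMod g) :=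
      sub_eq_zero.mp h
    calc ((a : ℤ) : ZMod g) * ((γ : ℤ) : ZMod g)⁻¹
        = ((a : ZMod g) * (γ' : ZMod g)) * (((γ : ℤ) : ZMod g)⁻¹ * ((γ' : ℤ) : ZMod g)⁻¹) := by
          have : ((a : ZMod g) * (γ' : ZMod g)) * (((γ : ℤ) : ZMod g)⁻¹ * ((γ' : ℤ) : ZMod g)⁻¹) =
            (a : ZMod g) * ((γ : ℤ) : ZMod g)⁻¹ * ((γ' : ZMod g) * ((γ' : ℤ) : ZMod g)⁻¹) := by ring
          rw [this, e2, mul_one]
      _ = ((a' : ZMod g) * (γ : ZMod g)) * (((γ : ℤ) : ZMod g)⁻¹ * ((γ' : ℤ) : ZMod g)⁻¹) := by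
          rw [h1]
      _ = ((a' : ℤ) : ZMod g) * ((γ' : ℤ) : ZMod g)⁻¹ := by
          have : ((a' : ZMod g) * (γ : ZMod g)) * (((γ : ℤ) : ZMod g)⁻¹ * ((γ' : ℤ) : ZMod g)⁻¹) =
            (a' : ZMod g) * ((γ' : ℤ) : ZMod g)⁻¹ * ((γ : ZMod g) * ((γ : ℤ) : ZMod g)⁻¹) := by ring
          rw [this, e1, mul_one]

/-- the residue invariant, with the divisor `d` as an explicit parameter -/
noncomputable def rInv (N d : ℕ) (a c : ℤ) : ℕ :=
  (((a : ℤ) : ZMod (Nat.gcd d (N / d))) *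
    (((c / (d : ℤ) : ℤ)) : ZMod (Nat.gcd d (N / d)))⁻¹).val

/-- the complete invariant of the `T`-orbit of the coset of `h` -/
noncomputable def iota (N : ℕ) (h : SL(2, ℤ)) : Σ _ : ℕ, ℕ :=
  ⟨Int.gcd (h 1 0) N, rInv N (Int.gcd (h 1 0) N) (h 0 0) (h 1 0)⟩

/-- the target set of invariants -/
def target (N : ℕ) : Finset (Σ _ : ℕ, ℕ) :=
  N.divisors.sigma fun d =>
    (Finset.range (Nat.gcd d (N / d))).filter (Nat.Coprime (Nat.gcd d (N / d)))

theorem card_target (N : ℕ) : (target N).card = ModularCurve.cuspCount N := by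
  rw [target, Finset.card_sigma, ModularCurve.cuspCount]
  refine Finset.sum_congr rfl fun d _ => ?_
  rw [Nat.totient_eq_card_coprime]

theorem A4_gcd_pos (N : ℕ) (hN : N ≠ 0) {d : ℕ} (hd : d ∣ N) : 0 < Nat.gcd d (N / d) := by
  have hdpos : 0 < d := Nat.pos_of_dvd_of_pos hd (Nat.pos_of_ne_zero hN)
  exact Nat.gcd_pos_of_pos_left _ hdpos

theorem A4_gamma_coprime (N : ℕ) (hN : N ≠ 0) (c : ℤ) :
    IsCoprime (c / (Int.gcd c N : ℤ))
      ((Nat.gcd (Int.gcd c N) (N / Int.gcd c N) : ℕ) : ℤ) := by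
  set d : ℕ := Int.gcd c N with hd
  have hdpos : 0 < d := Int.gcd_pos_of_ne_zero_right _ (by exact_mod_cast hN)
  have hγm : IsCoprime (c / (d : ℤ)) ((N / d : ℕ) : ℤ) := by
    rw [Int.isCoprime_iff_gcd_eq_one]
    have h1 := Int.gcd_div_gcd_div_gcd (i := c) (j := (N : ℤ)) hdpos
    have h2 : ((N : ℤ) / (d : ℤ)) = ((N / d : ℕ) : ℤ) := by
      push_cast; rfl
    rw [← hd, h2] at h1
    exact h1
  have hgm : ((Nat.gcd d (N / d) : ℕ) : ℤ) ∣ ((N / d : ℕ) : ℤ) := by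
    exact_mod_cast Nat.gcd_dvd_right d (N / d)
  exact hγm.of_isCoprime_of_dvd_right hgm

theorem iota_eq_iff (N : ℕ) (hN : N ≠ 0) (h h' : SL(2, ℤ)) :
    iota N h = iota N h' ↔
      ∃ k : ℤ, (N : ℤ) ∣ (h 0 0 + k * h 1 0) * h' 1 0 - h 1 0 * h' 0 0 := by
  rw [A4_rel_iff N hN _ _ _ _ (col_coprime h) (col_coprime h')]
  unfold iota
  rw [Sigma.mk.inj_iff, heq_iff_eq]
  constructor
  · rintro ⟨h1, h2⟩
    refine ⟨h1, ?_⟩
    rw [← h1] at h2
    unfold rInv at h2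
    have hd : Int.gcd (h 1 0) N ∣ N := by
      have : ((Int.gcd (h 1 0) N : ℕ) : ℤ) ∣ (N : ℤ) := Int.gcd_dvd_right _ _
      exact_mod_cast this
    haveI : NeZero (Nat.gcd (Int.gcd (h 1 0) N) (N / Int.gcd (h 1 0) N)) :=
      ⟨(A4_gcd_pos N hN hd).ne'⟩
    have hγ := A4_gamma_coprime N hN (h 1 0)
    have hγ' := A4_gamma_coprime N hN (h' 1 0)
    rw [← h1] at hγ'
    exact (A4_val_eq_iff _ _ _ _ _ hγ hγ').mp h2
  · rintro ⟨h1, h2⟩
    refine ⟨h1, ?_⟩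
    rw [← h1]
    unfold rInv
    have hd : Int.gcd (h 1 0) N ∣ N := by
      have : ((Int.gcd (h 1 0) N : ℕ) : ℤ) ∣ (N : ℤ) := Int.gcd_dvd_right _ _
      exact_mod_cast this
    haveI : NeZero (Nat.gcd (Int.gcd (h 1 0) N) (N / Int.gcd (h 1 0) N)) :=
      ⟨(A4_gcd_pos N hN hd).ne'⟩
    have hγ := A4_gamma_coprime N hN (h 1 0)
    have hγ' := A4_gamma_coprime N hN (h' 1 0)
    rw [← h1] at hγ'
    exact (A4_val_eq_iff _ _ _ _ _ hγ hγ').mpr h2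

theorem A4_isUnit_inv (g : ℕ) (γ : ℤ) (hγ : IsCoprime γ (g : ℤ)) :
    IsUnit (((γ : ℤ) : ZMod g)⁻¹) := by
  have hu := A4_isUnit_intCast g γ hγ
  have e1 : ((γ : ℤ) : ZMod g) * ((γ : ℤ) : ZMod g)⁻¹ = 1 := ZMod.mul_inv_of_unit _ hu
  exact IsUnit.of_mul_eq_one _ (by rw [mul_comm]; exact e1)

theorem A4_gcd_dvd_N (N : ℕ) (c : ℤ) : Int.gcd c N ∣ N := by
  have : ((Int.gcd c N : ℕ) : ℤ) ∣ (N : ℤ) := Int.gcd_dvd_right _ _
  exact_mod_cast this

theorem iota_mem_target (N : ℕ) (hN : N ≠ 0) (h : SL(2, ℤ)) : iota N h ∈ target N := by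
  unfold iota target
  rw [Finset.mem_sigma]
  have hd : Int.gcd (h 1 0) N ∣ N := A4_gcd_dvd_N N _
  haveI : NeZero (Nat.gcd (Int.gcd (h 1 0) N) (N / Int.gcd (h 1 0) N)) :=
    ⟨(A4_gcd_pos N hN hd).ne'⟩
  refine ⟨Nat.mem_divisors.mpr ⟨hd, hN⟩, ?_⟩
  rw [Finset.mem_filter, Finset.mem_range]
  refine ⟨ZMod.val_lt _, ?_⟩
  unfold rInv
  have hγ := A4_gamma_coprime N hN (h 1 0)
  have hγu := A4_isUnit_inv _ _ hγ
  have ha : IsCoprime (h 0 0)
      ((Nat.gcd (Int.gcd (h 1 0) N) (N / Int.gcd (h 1 0) N) : ℕ) : ℤ) := by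
    have h1 : ((Nat.gcd (Int.gcd (h 1 0) N) (N / Int.gcd (h 1 0) N) : ℕ) : ℤ) ∣ h 1 0 := by
      have h2 : ((Nat.gcd (Int.gcd (h 1 0) N) (N / Int.gcd (h 1 0) N) : ℕ) : ℤ) ∣
          ((Int.gcd (h 1 0) N : ℕ) : ℤ) := by
        exact_mod_cast Nat.gcd_dvd_left _ _
      exact dvd_trans h2 (Int.gcd_dvd_left _ _)
    exact (col_coprime h).of_isCoprime_of_dvd_right h1
  have hau := A4_isUnit_intCast _ _ ha
  obtain ⟨u, hu⟩ := hau.mul hγu
  rw [← hu]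
  exact (ZMod.val_coe_unit_coprime u).symm

theorem iota_surj (N : ℕ) (hN : N ≠ 0) (x : Σ _ : ℕ, ℕ) (hx : x ∈ target N) :
    ∃ h : SL(2, ℤ), iota N h = x := by
  obtain ⟨d, r⟩ := x
  unfold target at hx
  rw [Finset.mem_sigma, Finset.mem_filter, Finset.mem_range] at hx
  obtain ⟨hdN, hr, hcop⟩ := hx
  simp only at hdN hr hcop
  have hdN' : d ∣ N := Nat.dvd_of_mem_divisors hdN
  have hdpos : 0 < d := Nat.pos_of_dvd_of_pos hdN' (Nat.pos_of_ne_zero hN)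
  have : NeZero d := ⟨hdpos.ne'⟩
  have : NeZero (Nat.gcd d (N / d)) := ⟨(A4_gcd_pos N hN hdN').ne'⟩
  have hgd : Nat.gcd d (N / d) ∣ d := Nat.gcd_dvd_left _ _
  obtain ⟨u', hu'⟩ := ZMod.unitsMap_surjective hgd (ZMod.unitOfCoprime r hcop.symm)
  have hu'' : ZMod.castHom hgd (ZMod (Nat.gcd d (N / d))) (u' : ZMod d) = (r : ZMod _) := by
    have := congrArg (fun v : (ZMod (Nat.gcd d (N / d)))ˣ => (v : ZMod (Nat.gcd d (N / d)))) hu'
    simpa [ZMod.unitsMap] using this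
  set a : ℕ := (u' : ZMod d).val with ha
  have hacop : Nat.Coprime a d := ZMod.val_coe_unit_coprime u'
  have hac : IsCoprime (a : ℤ) (d : ℤ) := Nat.isCoprime_iff_coprime.mpr hacop
  obtain ⟨h, h00, h10⟩ := exists_col (a : ℤ) (d : ℤ) hac
  refine ⟨h, ?_⟩
  unfold iota
  have e1 : Int.gcd (h 1 0) N = d := by
    rw [h10, Int.gcd_natCast_natCast]
    exact Nat.gcd_eq_left hdN'
  rw [e1, h00, h10]
  congr 1
  unfold rInv
  have e2 : ((d : ℤ) / (d : ℤ)) = 1 := Int.ediv_self (by exact_mod_cast hdpos.ne')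
  rw [e2]
  have e3 : (((a : ℕ) : ℤ) : ZMod (Nat.gcd d (N / d))) = (r : ZMod _) := by
    rw [← hu'', ha]
    simp
  rw [e3]
  rw [Int.cast_one, ZMod.inv_one, mul_one]
  exact ZMod.val_cast_of_lt hr

theorem range_iota (N : ℕ) (hN : N ≠ 0) : Set.range (iota N) = ↑(target N) := by
  ext x
  constructor
  · rintro ⟨h, rfl⟩
    exact iota_mem_target N hN h
  · intro hx
    exact iota_surj N hN x hx

/-! ### the orbit relation -/

theorem orbit_iff (N : ℕ) (h h' : SL(2, ℤ)) :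
    (Quotient.mk (MulAction.orbitRel (Subgroup.zpowers ModularGroup.T) (Q N)) (h : Q N) =
      Quotient.mk (MulAction.orbitRel (Subgroup.zpowers ModularGroup.T) (Q N)) (h' : Q N)) ↔
      ∃ k : ℤ, (N : ℤ) ∣ (h' 0 0 + k * h' 1 0) * h 1 0 - h' 1 0 * h 0 0 := by
  rw [Quotient.eq, MulAction.orbitRel_apply, MulAction.mem_orbit_iff]
  constructor
  · rintro ⟨⟨x, k, rfl⟩, hx⟩
    refine ⟨k, ?_⟩
    have hx' : ((ModularGroup.T ^ k * h' : SL(2, ℤ)) : Q N) = (h : Q N) := hx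
    rw [mk_eq_mk_iff, (T_zpow_mul_col k h').1, (T_zpow_mul_col k h').2] at hx'
    exact hx'
  · rintro ⟨k, hk⟩
    refine ⟨⟨ModularGroup.T ^ k, k, rfl⟩, ?_⟩
    show ((ModularGroup.T ^ k * h' : SL(2, ℤ)) : Q N) = (h : Q N)
    rw [mk_eq_mk_iff, (T_zpow_mul_col k h').1, (T_zpow_mul_col k h').2]
    exact hk

theorem A4_card_eq_of_fiber_iff {α β γ : Type*} (f : α → β) (g : α → γ)
    (hf : Function.Surjective f) (hfg : ∀ a a', f a = f a' ↔ g a = g a') :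
    Nat.card β = Nat.card (Set.range g) := by
  refine Nat.card_congr (Equiv.ofBijective
    (fun b => ⟨g (Function.surjInv hf b), Set.mem_range_self _⟩) ⟨?_, ?_⟩)
  · intro b b' hbb'
    simp only [Subtype.mk.injEq] at hbb'
    have h3 := (hfg _ _).mpr hbb'
    have h1 := Function.surjInv_eq hf b
    have h2 := Function.surjInv_eq hf b'
    rw [h1, h2] at h3
    exact h3
  · rintro ⟨_, a, rfl⟩
    refine ⟨f a, ?_⟩
    simp only [Subtype.mk.injEq]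
    exact (hfg _ _).mp (Function.surjInv_eq hf (f a))

theorem A4 (N : ℕ) [NeZero N] : cusps N = ModularCurve.cuspCount N := by
  have hN : N ≠ 0 := NeZero.ne N
  unfold cusps
  rw [A4_card_eq_of_fiber_iff
    (fun h : SL(2, ℤ) =>
      Quotient.mk (MulAction.orbitRel (Subgroup.zpowers ModularGroup.T) (Q N)) (h : Q N))
    (iota N) ?_ ?_]
  · rw [range_iota N hN, ← card_target]
    simp
  · intro q
    induction q using Quotient.inductionOn with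
    | _ q =>
      induction q using QuotientGroup.induction_on with
      | _ h => exact ⟨h, rfl⟩
  · intro h h'
    rw [orbit_iff, eq_comm]
    exact (iota_eq_iff N hN h' h).symm

end Fermat.Agent.S20_helper29_A4
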