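import Fermat.Agent.S20_Core

set_option autoImplicit false

open UpperHalfPlane ModularForm CongruenceSubgroup
open scoped MatrixGroups ModularForm Manifold
open Fermat.Agent.S20

namespace Fermat.Agent.S20_helper29_D3

theorem exists_wt_zero {N : ℕ} [NeZero N] (B : HomBasis N) : ∃ i, B.wt i = 0 := by
  by_contra hcon
  simp only [not_exists] at hcon
  obtain ⟨a, ha, h1⟩ := B.span 0 (1 : ℍ → ℂ) (IsMF1.one.isMF)
  have h2 : ∀ i, a i = 0 := fun i =>
    (ha i).eq_zero_of_neg (by
      have h3 := B.wt_nonneg i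
      have h4 := hcon i
      omega)
  have h5 : (1 : ℍ → ℂ) = 0 := by
    rw [h1]
    apply Finset.sum_eq_zero
    intro i _
    rw [h2 i, zero_mul]
  have := congrFun h5 UpperHalfPlane.I
  simp at this

theorem wt_zero_unique {N : ℕ} [NeZero N] (B : HomBasis N) (i i₀ : Fin B.n) (hi : B.wt i = 0)
    (hi₀ : B.wt i₀ = 0) : i = i₀ := by
  classical
  by_contra hne
  obtain ⟨c, hc⟩ := ((B.isMF i).cast hi).eq_const
  obtain ⟨c', hc'⟩ := ((B.isMF i₀).cast hi₀).eq_const
  have key := B.indep 0
    (fun j => if j = i then (fun _ => c') else if j = i₀ then (fun _ => -c) else 0) ?_ ?_ i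
  · simp only [if_true] at key
    have hc'0 : c' = 0 := congrFun key UpperHalfPlane.I
    apply B.f_ne_zero i₀
    rw [hc', hc'0]
    rfl
  · intro j
    by_cases hj : j = i
    · subst hj
      simp only [if_true]
      exact (IsMF1.const c').cast (by rw [hi]; ring)
    · by_cases hj' : j = i₀
      · subst hj'
        simp only [hj, if_false, if_true]
        exact (IsMF1.const (-c)).cast (by rw [hi₀]; ring)
      · simp only [hj, hj', if_false]
        exact IsMF1.zero
  · have hsplit : ∀ j ∈ (Finset.univ : Finset (Fin B.n)), j ≠ i ∧ j ≠ i₀ →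
        (if j = i then (fun _ => c') else if j = i₀ then (fun _ => -c) else (0 : ℍ → ℂ)) * B.f j
          = 0 := by
      rintro j _ ⟨hj, hj'⟩
      simp [hj, hj']
    rw [Finset.sum_eq_add_of_mem i i₀ (Finset.mem_univ _) (Finset.mem_univ _) hne hsplit]
    have hne' : ¬ i₀ = i := fun h => hne h.symm
    simp only [if_true, hne', if_false]
    rw [hc, hc']
    funext z
    simp only [Pi.add_apply, Pi.mul_apply, Pi.zero_apply]
    ring

theorem D3 {N : ℕ} [NeZero N] (B : HomBasis N) :
    Fintype.card {i : Fin B.n // B.wt i = 0} = 1 := by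
  rw [Fintype.card_eq_one_iff]
  obtain ⟨i₀, hi₀⟩ := exists_wt_zero B
  refine ⟨⟨i₀, hi₀⟩, ?_⟩
  rintro ⟨i, hi⟩
  rw [Subtype.mk.injEq]
  exact wt_zero_unique B i i₀ hi hi₀

end Fermat.Agent.S20_helper29_D3
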