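import Fermat.Agent.S20_helper7_FAn3
import Fermat.Agent.S20_helper28_B5

/-!
# Piece F of S20: behaviour at `i∞`

* `F1`: the sum of the weights of a homogeneous basis is `6 (μ - c)`;
* `F2`: the inverse of the conjugate matrix, multiplied by `Δ`, tends to zero at `i∞`.
-/

set_option autoImplicit false

open UpperHalfPlane ModularForm CongruenceSubgroup Filter Topology Asymptotics
open scoped MatrixGroups ModularForm Manifold Real

namespace Fermat.Agent.S20_helper7_F

open Fermat.Agent.S20 Fermat.Agent.S20_helper7_FDefs Fermat.Agent.S20_helper7_FAn1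
open Fermat.Agent.S20_helper7_FAn2 Fermat.Agent.S20_helper7_FAn3
open Fermat.Agent.S20_helper4_FAlg1 (EE_mul_EEinv EEinv_mul_EE EE_add_one EEinv_add_one EE_transpose_mul)
open Fermat.Agent.S20_helper29_FAlg2 Fermat.Agent.S20_helper27_FGram

local notation "Δ" => ModularForm.discriminant

attribute [local instance] decQ

variable {N : ℕ} [NeZero N] (B : HomBasis N)

/-- The square version of `A(z)`. -/
noncomputable def Asq (e : Q N ≃ Fin B.n) (z : ℍ) : Matrix (Q N) (Q N) ℂ :=
  (Amat B z).submatrix id e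

/-- The square version of the limit matrix. -/
noncomputable def A0sq (e : Q N ≃ Fin B.n) : Matrix (Q N) (Q N) ℂ :=
  (A0 B).submatrix id e

theorem tendsto_Asq (e : Q N ≃ Fin B.n) : Tendsto (Asq B e) atImInfty (𝓝 (A0sq B e)) := by
  refine tendsto_pi_nhds.mpr fun q => tendsto_pi_nhds.mpr fun q' => ?_
  exact tendsto_Amat B q (e q')

theorem det_A0sq_ne_zero (e : Q N ≃ Fin B.n) : (A0sq B e).det ≠ 0 := by
  intro h0
  obtain ⟨v, hv, hv0⟩ := Matrix.exists_mulVec_eq_zero_iff.mpr h0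
  apply hv
  have hc := A0_injective B (fun i => v (e.symm i)) (fun q => by
    have h1 := congrFun hv0 q
    rw [Matrix.mulVec, dotProduct] at h1
    simp only [A0sq, Matrix.submatrix_apply, id, Pi.zero_apply] at h1
    rw [← h1, ← Equiv.sum_comp e]
    refine Finset.sum_congr rfl fun q' _ => ?_
    rw [Equiv.symm_apply_apply])
  funext q
  have := congrFun hc (e q)
  simpa using this

theorem tendsto_det_Asq (e : Q N ≃ Fin B.n) :
    Tendsto (fun z => (Asq B e z).det) atImInfty (𝓝 (A0sq B e).det) :=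
  (continuous_id.matrix_det.tendsto _).comp (tendsto_Asq B e)

theorem tendsto_inv_Asq (e : Q N ≃ Fin B.n) :
    Tendsto (fun z => (Asq B e z)⁻¹) atImInfty (𝓝 (A0sq B e)⁻¹) := by
  simp only [Matrix.inv_def, Ring.inverse_eq_inv']
  exact ((tendsto_det_Asq B e).inv₀ (det_A0sq_ne_zero B e)).smul
    ((continuous_id.matrix_adjugate.tendsto _).comp (tendsto_Asq B e))

theorem tendsto_inv_Asq_apply (e : Q N ≃ Fin B.n) (a b : Q N) :
    Tendsto (fun z => (Asq B e z)⁻¹ a b) atImInfty (𝓝 ((A0sq B e)⁻¹ a b)) :=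
  tendsto_pi_nhds.mp (tendsto_pi_nhds.mp (tendsto_inv_Asq B e) a) b

theorem Phi_submatrix (e : Q N ≃ Fin B.n) (z : ℍ) :
    (Phi B z).submatrix id e = EE N (PT N) (z : ℂ) * Asq B e z := by
  rw [← EE_mul_Amat]
  ext q q'
  simp [Asq, Matrix.mul_apply]

set_option linter.unusedVariables false in
/-- **F2**: decay of the inverse of `Phi` at `i∞`. -/
theorem F2 {N : ℕ} [NeZero N] (B : HomBasis N) (hn : B.n = mu N) (hind : PointwiseIndep B) :
    InvDecay B := by
  intro Ψ hΨ i q
  obtain ⟨e⟩ := exists_equiv B hn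
  have key : ∀ z : ℍ, (Ψ z).submatrix e id = (Asq B e z)⁻¹ * EEinv N (PT N) (z : ℂ) := by
    intro z
    have h1 : ((Ψ z).submatrix e id * EE N (PT N) (z : ℂ)) * Asq B e z = 1 := by
      rw [Matrix.mul_assoc, ← Phi_submatrix]
      have : (Ψ z).submatrix e id * (Phi B z).submatrix id e =
          (Ψ z * Phi B z).submatrix e e := by
        ext a b
        simp [Matrix.mul_apply]
      rw [this, hΨ z]
      simp
    have h2 : (Asq B e z)⁻¹ = (Ψ z).submatrix e id * EE N (PT N) (z : ℂ) :=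
      Matrix.inv_eq_left_inv h1
    rw [h2, Matrix.mul_assoc, EE_mul_EEinv (NeZero.pos N) (PT_pow N), Matrix.mul_one]
  have hentry : ∀ z : ℍ, Δ z * Ψ z i q = ∑ q'' : Q N, (Asq B e z)⁻¹ (e.symm i) q'' *
      ((Δ z / ee (z : ℂ)) * (ee (z : ℂ) * EEinv N (PT N) (z : ℂ) q'' q)) := by
    intro z
    have h1 : Ψ z i q = ((Ψ z).submatrix e id) (e.symm i) q := by simp
    rw [h1, key z, Matrix.mul_apply, Finset.mul_sum]
    refine Finset.sum_congr rfl fun q'' _ => ?_
    field_simp [ee_ne_zero]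
  have hz : IsZeroAtImInfty (fun z : ℍ => ∑ q'' : Q N, (Asq B e z)⁻¹ (e.symm i) q'' *
      ((Δ z / ee (z : ℂ)) * (ee (z : ℂ) * EEinv N (PT N) (z : ℂ) q'' q))) :=
    zero_sum _ _ fun q'' _ =>
      bdd_mul_zero (bdd_of_tendsto (tendsto_inv_Asq_apply B e (e.symm i) q''))
        (bdd_mul_zero (bdd_of_tendsto tendsto_discriminant_div_ee)
          (ee_mul_EEinv_zero N (PT N) q'' q))
  exact hz.congr fun z => (hentry z).symm

/-- **F1**: the sum of the weights. -/
theorem F1 {N : ℕ} [NeZero N] (B : HomBasis N) (hn : B.n = mu N) (hind : PointwiseIndep B) :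
    ∑ i, B.wt i = 6 * ((mu N : ℤ) - (cusps N : ℤ)) := by
  obtain ⟨e⟩ := exists_equiv B hn
  set m : ℕ := mu N - cusps N with hm
  have hD : ∀ z : ℍ, (gram B z).det = ee (z : ℂ) ^ m * (Asq B e z).det ^ 2 := by
    intro z
    rw [det_gram_eq B e z, Phi_submatrix, Matrix.det_mul, mul_pow]
    congr 1
    rw [hm, ← det_proj_zero N (ee (z : ℂ)),
      ← EE_transpose_mul (NeZero.pos N) (PT_pow N) (PT_transpose_mul N), Matrix.det_mul,
      Matrix.det_transpose, sq]
  have h1 : IsBoundedAtImInfty (fun z => (gram B z).det / Δ z ^ m) := by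
    have : Tendsto (fun z : ℍ => (ee (z : ℂ) / Δ z) ^ m * (Asq B e z).det ^ 2) atImInfty
        (𝓝 (1 ^ m * (A0sq B e).det ^ 2)) :=
      (tendsto_ee_div_discriminant.pow m).mul ((tendsto_det_Asq B e).pow 2)
    refine (bdd_of_tendsto this).congr' ?_ (by rfl)
    filter_upwards with z
    rw [hD, div_pow]
    ring
  have h2 : IsBoundedAtImInfty (fun z => Δ z ^ m / (gram B z).det) := by
    have : Tendsto (fun z : ℍ => (Δ z / ee (z : ℂ)) ^ m * ((Asq B e z).det ^ 2)⁻¹) atImInfty
        (𝓝 (1 ^ m * ((A0sq B e).det ^ 2)⁻¹)) :=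
      (tendsto_discriminant_div_ee.pow m).mul
        (((tendsto_det_Asq B e).pow 2).inv₀ (pow_ne_zero 2 (det_A0sq_ne_zero B e)))
    refine (bdd_of_tendsto this).congr' ?_ (by rfl)
    filter_upwards with z
    rw [hD, div_pow, div_eq_mul_inv, div_eq_mul_inv, mul_inv]
    ring
  have h3 := Fermat.Agent.S20_helper28_B5.B5 (isMF1_det_gram B) (det_gram_ne_zero B hn hind) m h1 h2
  have h4 : cusps N ≤ mu N := cusps_le_mu N
  have h5 : (m : ℤ) = (mu N : ℤ) - (cusps N : ℤ) := by
    rw [hm, Nat.cast_sub h4]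
  linarith

end Fermat.Agent.S20_helper7_F
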