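import Fermat.Statements.S20
import Fermat.Agent.S20_helper29_A1
import Fermat.Agent.S20_helper22_A2
import Fermat.Agent.S20_helper22_A3
import Fermat.Agent.S20_helper29_A4
import Fermat.Agent.S20_helper19_B3
import Fermat.Agent.S20_helper19_E1
import Fermat.Agent.S20_helper1_E
import Fermat.Agent.S20_helper27_G
import Fermat.Agent.S20_helper22_H
import Fermat.Agent.S20_helper10_D
import Fermat.Agent.S20_helper29_D3
import Fermat.Agent.S20_helper7_F

set_option autoImplicit false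

open UpperHalfPlane ModularForm CongruenceSubgroup Matrix.SpecialLinearGroup
open scoped MatrixGroups ModularForm Manifold

namespace Fermat.Agent.S20

variable {N : ℕ} [NeZero N]

/-- the number of basis elements of weight `k` -/
noncomputable def HomBasis.cnt (B : HomBasis N) (k : ℤ) : ℕ :=
  (Finset.univ.filter fun i : Fin B.n => B.wt i = k).card

theorem HomBasis.cnt_eq_card (B : HomBasis N) (k : ℤ) :
    B.cnt k = Fintype.card {i : Fin B.n // B.wt i = k} := by
  unfold HomBasis.cnt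
  rw [Fintype.card_subtype]

/-- the possible weights -/
def wtSet : Finset ℤ := {0, 2, 4, 6, 8, 10}

theorem HomBasis.wt_mem (B : HomBasis N) (hle : ∀ i, B.wt i ≤ 10) (i : Fin B.n) :
    B.wt i ∈ wtSet := by
  have h1 := B.wt_nonneg i
  have h2 := B.wt_even i
  have h3 := hle i
  obtain ⟨r, hr⟩ := h2
  simp only [wtSet, Finset.mem_insert, Finset.mem_singleton]
  omega

theorem HomBasis.sum_eq {α : Type*} [AddCommMonoid α] (B : HomBasis N)
    (hle : ∀ i, B.wt i ≤ 10) (g : ℤ → α) :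
    ∑ i, g (B.wt i) = ∑ k ∈ wtSet, B.cnt k • g k := by
  classical
  rw [← Finset.sum_fiberwise_of_maps_to (s := Finset.univ) (t := wtSet) (g := B.wt)
    (fun i _ => B.wt_mem hle i)]
  refine Finset.sum_congr rfl fun k _ => ?_
  rw [Finset.sum_congr rfl (fun i hi => by rw [(Finset.mem_filter.mp hi).2] :
    ∀ i ∈ Finset.univ.filter (fun i => B.wt i = k), g (B.wt i) = g k)]
  rw [Finset.sum_const]
  rfl

theorem sum_wtSet {α : Type*} [AddCommMonoid α] (g : ℤ → α) :
    ∑ k ∈ wtSet, g k = g 0 + (g 2 + (g 4 + (g 6 + (g 8 + g 10)))) := by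
  simp [wtSet, Finset.sum_insert]

theorem result (N : ℕ) [NeZero N] :
    (Module.finrank ℂ (CuspForm (CongruenceSubgroup.Gamma0 N) 2) : ℚ) = ModularCurve.genusFormula N := by
  obtain ⟨B⟩ := Fermat.Agent.S20_helper10_D.D1 N
  have hn := Fermat.Agent.S20_helper10_D.D2 B
  have hind : PointwiseIndep B := Fermat.Agent.S20_helper1_E.E_of B hn
    (fun z h4 h6 c h => Fermat.Agent.S20_helper19_E1.E1 B z h4 h6 c h)
  have hdec := Fermat.Agent.S20_helper7_F.F2 B hn hind
  have hle := Fermat.Agent.S20_helper22_H.H1 B hn hind hdec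
  have hfin := Fermat.Agent.S20_helper22_H.H2 B hn hind hdec
  have h0 := Fermat.Agent.S20_helper29_D3.D3 B
  have hK := Fermat.Agent.S20_helper7_F.F1 B hn hind
  have hS := Fermat.Agent.S20_helper27_G.G1 B hn hind
  obtain ⟨zρ, hzρ⟩ := Fermat.Agent.S20_helper19_B3.B3c
  have hU := Fermat.Agent.S20_helper27_G.G2 B hn hind zρ hzρ
  have hζ := Fermat.Agent.S20_helper19_B3.B3g zρ hzρ
  have hζim : ((zρ : ℂ) + 1).im ≠ 0 := by
    have : ((zρ : ℂ) + 1).im = zρ.im := by simp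
    rw [this]
    exact ne_of_gt zρ.im_pos
  generalize (zρ : ℂ) + 1 = ζ at hU hζ hζim
  rw [← B.cnt_eq_card] at hfin h0
  -- counting
  have hcount : (∑ k ∈ wtSet, B.cnt k) = mu N := by
    have := B.sum_eq hle (fun _ => (1 : ℕ))
    simp only [Finset.sum_const, Finset.card_univ, Fintype.card_fin, smul_eq_mul, mul_one] at this
    rw [← this, hn]
  rw [sum_wtSet] at hcount
  -- sum of weights
  have hK' := B.sum_eq hle (fun k => k)
  rw [hK, sum_wtSet] at hK'
  simp only [nsmul_eq_mul] at hK'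
  -- trace of S
  have hS' := B.sum_eq hle (fun k => Complex.I ^ (-k))
  rw [hS, sum_wtSet] at hS'
  have I2 : Complex.I ^ (-2 : ℤ) = -1 := by
    rw [zpow_neg, show (2 : ℤ) = ((2 : ℕ) : ℤ) from rfl, zpow_natCast, Complex.I_sq]; norm_num
  have I4 : Complex.I ^ (-4 : ℤ) = 1 := by
    rw [show (-4 : ℤ) = (-2) + (-2) by norm_num, zpow_add₀ Complex.I_ne_zero, I2]; norm_num
  have I6 : Complex.I ^ (-6 : ℤ) = -1 := by
    rw [show (-6 : ℤ) = (-4) + (-2) by norm_num, zpow_add₀ Complex.I_ne_zero, I2, I4]; norm_num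
  have I8 : Complex.I ^ (-8 : ℤ) = 1 := by
    rw [show (-8 : ℤ) = (-4) + (-4) by norm_num, zpow_add₀ Complex.I_ne_zero, I4]; norm_num
  have I10 : Complex.I ^ (-10 : ℤ) = -1 := by
    rw [show (-10 : ℤ) = (-8) + (-2) by norm_num, zpow_add₀ Complex.I_ne_zero, I2, I8]; norm_num
  simp only [neg_zero, zpow_zero, I2, I4, I6, I8, I10, nsmul_eq_mul, mul_one, mul_neg] at hS'
  -- trace of ST
  have hU' := B.sum_eq hle (fun k => ζ ^ (-k))
  rw [hU, sum_wtSet] at hU'
  have hζ0 : ζ ≠ 0 := by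
    intro h
    rw [h] at hζ
    norm_num at hζ
  have hζ3 : ζ ^ 3 = -1 := by linear_combination (ζ + 1) * hζ
  have hinv : ζ⁻¹ = 1 - ζ := by
    symm
    apply eq_inv_of_mul_eq_one_left
    linear_combination -hζ
  have Z2 : ζ ^ (-2 : ℤ) = -ζ := by
    rw [zpow_neg, ← inv_zpow, hinv, show (2 : ℤ) = ((2 : ℕ) : ℤ) from rfl, zpow_natCast]
    linear_combination hζ
  have Z4 : ζ ^ (-4 : ℤ) = ζ - 1 := by
    rw [show (-4 : ℤ) = (-2) + (-2) by norm_num, zpow_add₀ hζ0, Z2]
    linear_combination hζ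
  have Z6 : ζ ^ (-6 : ℤ) = 1 := by
    rw [show (-6 : ℤ) = (-4) + (-2) by norm_num, zpow_add₀ hζ0, Z2, Z4]
    linear_combination -hζ
  have Z8 : ζ ^ (-8 : ℤ) = -ζ := by
    rw [show (-8 : ℤ) = (-6) + (-2) by norm_num, zpow_add₀ hζ0, Z2, Z6]; ring
  have Z10 : ζ ^ (-10 : ℤ) = ζ - 1 := by
    rw [show (-10 : ℤ) = (-6) + (-4) by norm_num, zpow_add₀ hζ0, Z4, Z6]; ring
  simp only [neg_zero, zpow_zero, Z2, Z4, Z6, Z8, Z10, nsmul_eq_mul, mul_one] at hU'
  have hUim := congrArg Complex.im hU'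
  have hUre := congrArg Complex.re hU'
  simp only [Complex.add_im, Complex.mul_im, Complex.natCast_im, Complex.natCast_re,
    Complex.neg_im, Complex.sub_im, Complex.one_im, Complex.add_re, Complex.mul_re,
    Complex.neg_re, Complex.sub_re, Complex.one_re, zero_mul, sub_zero, add_zero,
    zero_add] at hUim hUre
  have hSre := congrArg Complex.re hS'
  simp only [Complex.add_re, Complex.neg_re, Complex.natCast_re] at hSre
  have hU2 : (B.cnt 2 : ℝ) + B.cnt 8 = B.cnt 4 + B.cnt 10 := by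
    have : ζ.im * ((B.cnt 4 : ℝ) + B.cnt 10 - B.cnt 2 - B.cnt 8) = 0 := by
      linear_combination -hUim
    rcases mul_eq_zero.mp this with h | h
    · exact absurd h hζim
    · linarith
  have hU1 : (B.cnt 0 : ℝ) + B.cnt 6 - (B.cnt 4 + B.cnt 10) = nu3 N := by
    have : ζ.re * ((B.cnt 4 : ℝ) + B.cnt 10 - B.cnt 2 - B.cnt 8) = 0 := by
      rw [show (B.cnt 4 : ℝ) + B.cnt 10 - B.cnt 2 - B.cnt 8 = 0 by linarith, mul_zero]
    first | linear_combination hUre + this | linear_combination -hUre + this | linear_combination -hUre - this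
  -- conclude
  have key : (B.cnt 10 : ℝ) = 1 + (mu N : ℝ) / 12 - (nu2 N : ℝ) / 4 - (nu3 N : ℝ) / 3
      - (cusps N : ℝ) / 2 := by
    have e0 : (B.cnt 0 : ℝ) = 1 := by exact_mod_cast h0
    have eμ : (B.cnt 0 : ℝ) + (B.cnt 2 + (B.cnt 4 + (B.cnt 6 + (B.cnt 8 + B.cnt 10))))
        = mu N := by exact_mod_cast hcount
    have eK : (6 : ℝ) * ((mu N : ℝ) - cusps N) = B.cnt 0 * 0 + (B.cnt 2 * 2 + (B.cnt 4 * 4 +
        (B.cnt 6 * 6 + (B.cnt 8 * 8 + B.cnt 10 * 10)))) := by exact_mod_cast hK'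
    linarith
  rw [hfin]
  unfold ModularCurve.genusFormula
  rw [← Fermat.Agent.S20_helper29_A1.A1 N, ← Fermat.Agent.S20_helper22_A2.A2 N,
    ← Fermat.Agent.S20_helper22_A3.A3 N, ← Fermat.Agent.S20_helper29_A4.A4 N]
  have : ((B.cnt 10 : ℚ) : ℝ) = ((1 + (mu N : ℚ) / 12 - (nu2 N : ℚ) / 4 - (nu3 N : ℚ) / 3
      - (cusps N : ℚ) / 2 : ℚ) : ℝ) := by
    push_cast
    exact key
  exact_mod_cast this

end Fermat.Agent.S20
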