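import Mathlib
import Fermat.Prelude.Def_ModularCurve_PeriodHomPair
import Fermat.Agent.S21_helper11_Prim

set_option autoImplicit false
set_option linter.unusedSectionVars false
set_option linter.unusedVariables false

open Complex UpperHalfPlane Filter Topology CongruenceSubgroup ModularCurve ModularCurve.Period
open scoped MatrixGroups ModularForm ComplexConjugate

namespace Fermat.Agent.S21_helper11

open Fermat.Agent.S22_helper11

variable {N : ℕ} [NeZero N]

/-- the statement of the max modulus piece (piece MM) -/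
def MaxModStatement (N : ℕ) : Prop :=
  ∀ Ω : ℍ → ℂ, (∀ τ : ℍ, DifferentiableAt ℂ (Ω ∘ ofComplex) (τ : ℂ)) →
    (∀ γ ∈ Gamma0 N, ∃ c : ℂ, c.re = 0 ∧ ∀ z : ℍ, Ω (γ • z) = Ω z + c) →
    (∀ δ : SL(2, ℤ), ∃ L : ℂ, Tendsto (fun w : ℍ => Ω (δ • w)) atImInfty (𝓝 L)) →
    ∃ c : ℂ, ∀ z : ℍ, Ω z = c

/-- the reflection `z ↦ -conj z` intertwines `γ` and `jConjSL γ` -/
lemma jConj_smul_J (γ : SL(2, ℤ)) (z : ℍ) :
    (jConjSL γ) • (UpperHalfPlane.J • z) = UpperHalfPlane.J • (γ • z) := by
  apply UpperHalfPlane.ext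
  rw [coe_specialLinearGroup_apply, coe_J_smul, coe_J_smul, coe_specialLinearGroup_apply]
  simp only [jConjSL_coe, jConjMat_apply_zero_zero, jConjMat_apply_zero_one,
    jConjMat_apply_one_zero, jConjMat_apply_one_one, map_div₀, map_add, map_mul]
  simp only [algebraMap_int_eq, eq_intCast, ofReal_intCast, ofReal_neg,
    map_intCast, map_neg]
  rw [neg_mul_neg, ← neg_div]
  congr 1
  ring

lemma tendsto_J_smul : Tendsto (fun w : ℍ => UpperHalfPlane.J • w) atImInfty atImInfty := by
  rw [atImInfty, tendsto_comap_iff]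
  have : (UpperHalfPlane.im ∘ fun w : ℍ => UpperHalfPlane.J • w) = UpperHalfPlane.im := by
    funext w
    simp only [Function.comp_apply]
    rw [← UpperHalfPlane.coe_im, coe_J_smul]
    simp
  rw [this]
  exact tendsto_comap

/-- the reflected primitive `z ↦ conj (F (-conj z))` -/
noncomputable def primSharp (f : CuspForm (Gamma0 N) 2) : ℍ → ℂ :=
  fun τ => conj (prim f (UpperHalfPlane.J • τ))

lemma differentiableAt_prim (f : CuspForm (Gamma0 N) 2) (τ : ℍ) :
    DifferentiableAt ℂ (prim f ∘ ofComplex) (τ : ℂ) :=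
  (hasDerivAt_prim f τ).differentiableAt

lemma differentiableAt_primSharp (f : CuspForm (Gamma0 N) 2) (τ : ℍ) :
    DifferentiableAt ℂ (primSharp f ∘ ofComplex) (τ : ℂ) := by
  -- the function `K w = primC f (-w)` is differentiable at `conj τ`
  have hτ : 0 < (-(conj (τ : ℂ))).im := by simpa using τ.im_pos
  have hK : DifferentiableAt ℂ (fun w : ℂ => primC f (-w)) (conj (τ : ℂ)) := by
    have h1 : DifferentiableAt ℂ (primC f) (-(conj (τ : ℂ))) :=
      (hasDerivAt_primC f hτ).differentiableAt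
    exact DifferentiableAt.comp (conj (τ : ℂ)) (g := primC f) (f := fun w : ℂ => -w) h1
      differentiableAt_id.neg
  have h2 := hK.conj_conj
  rw [Complex.conj_conj] at h2
  refine h2.congr_of_eventuallyEq ?_
  have hopen : UH ∈ 𝓝 (τ : ℂ) := isOpen_UH.mem_nhds τ.im_pos
  filter_upwards [hopen] with z hz
  simp only [Function.comp_apply, primSharp, prim]
  rw [coe_J_smul, ofComplex_apply_of_im_pos hz]

lemma primSharp_smul (f : CuspForm (Gamma0 N) 2) (γ : Gamma0 N) (z : ℍ) :
    primSharp f ((γ : SL(2, ℤ)) • z)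
      = primSharp f z + conj (charInvolution N ℂ ℂ (periodMap N f) (Additive.ofMul γ)) := by
  have h := prim_smul_sub f (jConjGamma0 N γ) (UpperHalfPlane.J • z)
  rw [jConjGamma0_coe, jConj_smul_J] at h
  simp only [primSharp, charInvolution_apply, toMul_ofMul]
  rw [← h, map_sub]
  ring

lemma tendsto_primSharp_smul (f : CuspForm (Gamma0 N) 2) (δ : SL(2, ℤ)) :
    ∃ L : ℂ, Tendsto (fun w : ℍ => primSharp f (δ • w)) atImInfty (𝓝 L) := by
  obtain ⟨L, hL⟩ := tendsto_prim_smul f (jConjSL δ)
  refine ⟨conj L, ?_⟩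
  have h1 : Tendsto (fun w : ℍ => prim f ((jConjSL δ) • (UpperHalfPlane.J • w))) atImInfty (𝓝 L) :=
    hL.comp tendsto_J_smul
  have h2 := (Complex.continuous_conj.tendsto L).comp h1
  refine h2.congr fun w => ?_
  simp only [Function.comp_apply, primSharp, jConj_smul_J]

lemma eq_zero_of_prim_const (f : CuspForm (Gamma0 N) 2) (c : ℂ) (h : ∀ z : ℍ, prim f z = c) :
    f = 0 := by
  ext τ
  have h1 := hasDerivAt_prim f τ
  have h2 : HasDerivAt (prim f ∘ ofComplex) 0 (τ : ℂ) := by
    have : prim f ∘ ofComplex = fun _ => c := by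
      funext z
      simp [h]
    rw [this]
    exact hasDerivAt_const _ _
  exact h1.unique h2

/-- a cusp form whose period homomorphism is an eigenvector of the involution is zero -/
theorem eq_zero_of_symm (hMM : MaxModStatement N) (f : CuspForm (Gamma0 N) 2) (ε : ℂ)
    (hε : ε = 1 ∨ ε = -1)
    (h : charInvolution N ℂ ℂ (periodMap N f) = ε • periodMap N f) : f = 0 := by
  have hε2 : ε * ε = 1 := by rcases hε with rfl | rfl <;> norm_num
  have hεc : conj ε = ε := by rcases hε with rfl | rfl <;> simp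
  have hsharp : ∀ (γ : Gamma0 N) (z : ℍ), primSharp f ((γ : SL(2, ℤ)) • z)
      = primSharp f z + ε * conj (periodMap N f (Additive.ofMul γ)) := by
    intro γ z
    rw [primSharp_smul, h, AddMonoidHom.smul_apply, smul_eq_mul, map_mul, hεc]
  have hprim : ∀ (γ : Gamma0 N) (z : ℍ), prim f ((γ : SL(2, ℤ)) • z)
      = prim f z + periodMap N f (Additive.ofMul γ) := fun γ z => by
    have := prim_smul_sub f γ z
    linear_combination this
  obtain ⟨c₁, hc₁⟩ := hMM (fun z => prim f z - ε * primSharp f z)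
    (fun τ => by
      have := (differentiableAt_prim f τ).sub ((differentiableAt_primSharp f τ).const_mul ε)
      exact this)
    (fun γ hγ => by
      refine ⟨periodMap N f (Additive.ofMul (⟨γ, hγ⟩ : Gamma0 N))
        - conj (periodMap N f (Additive.ofMul (⟨γ, hγ⟩ : Gamma0 N))), ?_, fun z => ?_⟩
      · simp
      · have h1 := hprim ⟨γ, hγ⟩ z
        have h2 := hsharp ⟨γ, hγ⟩ z
        simp only at h1 h2 ⊢
        rw [h1, h2]
        linear_combination (- conj (periodMap N f (Additive.ofMul (⟨γ, hγ⟩ : Gamma0 N)))) * hε2)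
    (fun δ => by
      obtain ⟨L₁, hL₁⟩ := tendsto_prim_smul f δ
      obtain ⟨L₂, hL₂⟩ := tendsto_primSharp_smul f δ
      exact ⟨L₁ - ε * L₂, hL₁.sub (hL₂.const_mul ε)⟩)
  obtain ⟨c₂, hc₂⟩ := hMM (fun z => Complex.I * (prim f z + ε * primSharp f z))
    (fun τ => by
      have := ((differentiableAt_prim f τ).add
        ((differentiableAt_primSharp f τ).const_mul ε)).const_mul Complex.I
      exact this)
    (fun γ hγ => by
      refine ⟨Complex.I * (periodMap N f (Additive.ofMul (⟨γ, hγ⟩ : Gamma0 N))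
        + conj (periodMap N f (Additive.ofMul (⟨γ, hγ⟩ : Gamma0 N)))), ?_, fun z => ?_⟩
      · simp
      · have h1 := hprim ⟨γ, hγ⟩ z
        have h2 := hsharp ⟨γ, hγ⟩ z
        simp only at h1 h2 ⊢
        rw [h1, h2]
        linear_combination (Complex.I *
          conj (periodMap N f (Additive.ofMul (⟨γ, hγ⟩ : Gamma0 N)))) * hε2)
    (fun δ => by
      obtain ⟨L₁, hL₁⟩ := tendsto_prim_smul f δ
      obtain ⟨L₂, hL₂⟩ := tendsto_primSharp_smul f δ
      exact ⟨Complex.I * (L₁ + ε * L₂), (hL₁.add (hL₂.const_mul ε)).const_mul Complex.I⟩)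
  refine eq_zero_of_prim_const f ((c₁ - Complex.I * c₂) / 2) (fun z => ?_)
  have h1 := hc₁ z
  have h2 := hc₂ z
  have hI : Complex.I * Complex.I = -1 := Complex.I_mul_I
  linear_combination h1 / 2 - (Complex.I / 2) * h2
    + ((prim f z + ε * primSharp f z) / 2) * hI

theorem injective_periodHomPair (hMM : MaxModStatement N) :
    Function.Injective (periodHomPair N) := by
  rw [injective_iff_map_eq_zero]
  rintro ⟨f, g⟩ h
  rw [periodHomPair_apply] at h
  have hι : ∀ ψ : Additive (Gamma0 N) →+ ℂ,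
      charInvolution N ℂ ℂ (charInvolution N ℂ ℂ ψ) = ψ :=
    charInvolution_charInvolution N ℂ ℂ
  have h' : (charInvolution N ℂ ℂ (periodMap N f) + periodMap N f)
      + (charInvolution N ℂ ℂ (periodMap N g) - periodMap N g) = 0 := by
    have := congrArg (charInvolution N ℂ ℂ) h
    simpa [map_add, map_sub, hι] using this
  have ha : charInvolution N ℂ ℂ (periodMap N f) = (-1 : ℂ) • periodMap N f := by
    refine AddMonoidHom.ext fun γ => ?_
    have h1 := DFunLike.congr_fun h γ
    have h2 := DFunLike.congr_fun h' γ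
    simp only [AddMonoidHom.add_apply, AddMonoidHom.sub_apply, AddMonoidHom.zero_apply,
      AddMonoidHom.smul_apply, smul_eq_mul] at h1 h2 ⊢
    linear_combination (h1 + h2) / 2
  have hb : charInvolution N ℂ ℂ (periodMap N g) = (1 : ℂ) • periodMap N g := by
    refine AddMonoidHom.ext fun γ => ?_
    have h1 := DFunLike.congr_fun h γ
    have h2 := DFunLike.congr_fun h' γ
    simp only [AddMonoidHom.add_apply, AddMonoidHom.sub_apply, AddMonoidHom.zero_apply,
      AddMonoidHom.smul_apply, smul_eq_mul] at h1 h2 ⊢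
    linear_combination (h2 - h1) / 2
  have hf : f = 0 := eq_zero_of_symm hMM f (-1) (Or.inr rfl) ha
  have hg : g = 0 := eq_zero_of_symm hMM g 1 (Or.inl rfl) hb
  rw [hf, hg]
  rfl

end Fermat.Agent.S21_helper11
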