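import Mathlib

set_option autoImplicit false

/-!
# S21, piece P5 (part a): linear algebra of permutation modules

Dimension counts for spaces of functions `X → ℂ` on a finite set `X`, cut out by
permutation operators.
-/

open Module

namespace Fermat.Agent.S21_helper28_P5a

set_option linter.unusedSectionVars false

section Trace

variable {X : Type} [Fintype X] [DecidableEq X]

/-- The composition operator `v ↦ v ∘ π` on functions `X → ℂ`. -/
noncomputable def opf (π : X → X) : (X → ℂ) →ₗ[ℂ] (X → ℂ) := LinearMap.funLeft ℂ ℂ π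

@[simp] theorem opf_apply (π : X → X) (v : X → ℂ) (x : X) : opf π v x = v (π x) := rfl

theorem opf_comp (π π' : X → X) : opf π ∘ₗ opf π' = opf (π' ∘ π) :=
  LinearMap.ext fun v => funext fun x => rfl

theorem opf_id : opf (id : X → X) = LinearMap.id :=
  LinearMap.ext fun v => funext fun x => rfl

/-- The trace of a composition operator is the number of fixed points. -/
theorem trace_opf (π : X → X) :
    LinearMap.trace ℂ (X → ℂ) (opf π) = (Fintype.card {x : X // π x = x} : ℂ) := by
  rw [LinearMap.trace_eq_matrix_trace ℂ (Pi.basisFun ℂ X), LinearMap.toMatrix_eq_toMatrix',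
    Matrix.trace]
  simp only [Matrix.diag_apply, LinearMap.toMatrix'_apply, opf_apply, Pi.single_apply]
  rw [Fintype.card_subtype, Finset.sum_boole]

end Trace

section Proj

variable {V : Type} [AddCommGroup V] [Module ℂ V] [FiniteDimensional ℂ V]

/-- Dimension of the `(-1)`-eigenspace of an involution. -/
theorem finrank_ker_of_sq (f : V →ₗ[ℂ] V) (hf : f ∘ₗ f = LinearMap.id) :
    2 * (finrank ℂ (LinearMap.ker (LinearMap.id + f)) : ℂ) =
      (finrank ℂ V : ℂ) - LinearMap.trace ℂ V f := by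
  have hff : ∀ v, f (f v) = v := fun v => by
    have := congrArg (fun g : V →ₗ[ℂ] V => g v) hf
    simpa using this
  let e : V →ₗ[ℂ] V := (2⁻¹ : ℂ) • (LinearMap.id - f)
  have he : LinearMap.IsProj (LinearMap.ker (LinearMap.id + f)) e := by
    refine ⟨fun v => ?_, fun v hv => ?_⟩
    · rw [LinearMap.mem_ker]
      simp only [e, LinearMap.smul_apply, LinearMap.sub_apply, LinearMap.add_apply,
        LinearMap.id_apply, map_smul, map_sub, hff]
      rw [add_comm v (f v), sub_self, smul_zero]
    · rw [LinearMap.mem_ker] at hv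
      simp only [LinearMap.add_apply, LinearMap.id_apply] at hv
      have hfv : f v = -v := by
        rw [eq_neg_iff_add_eq_zero, add_comm]; exact hv
      simp only [e, LinearMap.smul_apply, LinearMap.sub_apply, LinearMap.id_apply, hfv,
        sub_neg_eq_add]
      rw [← two_smul ℂ v, smul_smul]
      norm_num
  have h1 := he.trace
  have h2 : LinearMap.trace ℂ V e = 2⁻¹ * ((finrank ℂ V : ℂ) - LinearMap.trace ℂ V f) := by
    simp only [e, map_smul, map_sub, smul_eq_mul]
    rw [LinearMap.trace_id]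
  rw [← h1, h2]
  ring

/-- Dimension of the kernel of `1 + f + f²` for `f³ = 1`. -/
theorem finrank_ker_of_cube (f : V →ₗ[ℂ] V) (hf : f ∘ₗ f ∘ₗ f = LinearMap.id) :
    3 * (finrank ℂ (LinearMap.ker (LinearMap.id + f + f ∘ₗ f)) : ℂ) =
      2 * (finrank ℂ V : ℂ) - LinearMap.trace ℂ V f - LinearMap.trace ℂ V (f ∘ₗ f) := by
  have hfff : ∀ v, f (f (f v)) = v := fun v => by
    have := congrArg (fun g : V →ₗ[ℂ] V => g v) hf
    simpa using this
  let e : V →ₗ[ℂ] V := LinearMap.id - (3⁻¹ : ℂ) • (LinearMap.id + f + f ∘ₗ f)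
  have he : LinearMap.IsProj (LinearMap.ker (LinearMap.id + f + f ∘ₗ f)) e := by
    refine ⟨fun v => ?_, fun v hv => ?_⟩
    · rw [LinearMap.mem_ker]
      simp only [e, LinearMap.smul_apply, LinearMap.sub_apply, LinearMap.add_apply,
        LinearMap.id_apply, LinearMap.comp_apply, map_smul, map_sub, map_add, hfff]
      module
    · rw [LinearMap.mem_ker] at hv
      simp only [e, LinearMap.sub_apply, LinearMap.smul_apply, LinearMap.id_apply, hv,
        smul_zero, sub_zero]
  have h1 := he.trace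
  have h2 : LinearMap.trace ℂ V e = (finrank ℂ V : ℂ) -
      3⁻¹ * ((finrank ℂ V : ℂ) + LinearMap.trace ℂ V f + LinearMap.trace ℂ V (f ∘ₗ f)) := by
    simp only [e, map_smul, map_sub, map_add, smul_eq_mul]
    rw [LinearMap.trace_id]
  rw [← h1, h2]
  ring

end Proj

section Action

variable {G : Type} [Group G] {X : Type} [MulAction G X] [Fintype X] [DecidableEq X]

/-- The operator `(g • v)(x) = v (g⁻¹ • x)` on functions. -/
noncomputable def op (g : G) : (X → ℂ) →ₗ[ℂ] (X → ℂ) := opf (fun x => g⁻¹ • x)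

@[simp] theorem op_apply (g : G) (v : X → ℂ) (x : X) : op g v x = v (g⁻¹ • x) := rfl

theorem card_fixed_inv (g : G) :
    Fintype.card {x : X // g⁻¹ • x = x} = Fintype.card {x : X // g • x = x} := by
  refine Fintype.card_congr (Equiv.subtypeEquivRight fun x => ?_)
  rw [inv_smul_eq_iff, eq_comm]

/-- The `(-1)`-eigenspace of `op s`. -/
noncomputable def spA (s : G) : Submodule ℂ (X → ℂ) := LinearMap.ker (LinearMap.id + op s)

theorem mem_spA (s : G) (a : X → ℂ) : a ∈ spA s ↔ ∀ x, a x + a (s⁻¹ • x) = 0 := by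
  rw [spA, LinearMap.mem_ker]
  constructor
  · intro h x
    have := congrFun h x
    simpa using this
  · intro h
    ext x
    simpa using h x

/-- The kernel of `1 + op u + op u ^ 2`. -/
noncomputable def spB (u : G) : Submodule ℂ (X → ℂ) :=
  LinearMap.ker (LinearMap.id + op u + op u ∘ₗ op u)

theorem mem_spB (u : G) (b : X → ℂ) :
    b ∈ spB u ↔ ∀ x, b x + b (u⁻¹ • x) + b (u⁻¹ • u⁻¹ • x) = 0 := by
  rw [spB, LinearMap.mem_ker]
  constructor
  · intro h x
    have := congrFun h x
    simpa using this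
  · intro h
    ext x
    simpa using h x

theorem finrank_spA (s : G) (hs : ∀ x : X, (s * s) • x = x) :
    2 * finrank ℂ (spA (X := X) s) + Fintype.card {x : X // s • x = x} = Fintype.card X := by
  have hsq : op s ∘ₗ op s = (LinearMap.id : (X → ℂ) →ₗ[ℂ] (X → ℂ)) := by
    refine LinearMap.ext fun v => funext fun x => ?_
    simp only [LinearMap.comp_apply, op_apply, LinearMap.id_apply]
    congr 1
    rw [inv_smul_eq_iff, inv_smul_eq_iff, ← mul_smul, hs]
  have h1 := finrank_ker_of_sq (op (X := X) s) hsq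
  have h2 : LinearMap.trace ℂ (X → ℂ) (op s) = (Fintype.card {x : X // s • x = x} : ℂ) := by
    rw [op, trace_opf, card_fixed_inv]
  rw [h2, Module.finrank_fintype_fun_eq_card] at h1
  have h3 : ((2 * finrank ℂ (spA (X := X) s) + Fintype.card {x : X // s • x = x} : ℕ) : ℂ) =
      ((Fintype.card X : ℕ) : ℂ) := by
    push_cast
    rw [spA, h1]
    ring
  exact_mod_cast h3

theorem finrank_spB (u : G) (hu : ∀ x : X, (u * u * u) • x = x) :
    3 * finrank ℂ (spB (X := X) u) + 2 * Fintype.card {x : X // u • x = x} =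
      2 * Fintype.card X := by
  have hu' : ∀ x : X, u⁻¹ • u⁻¹ • u⁻¹ • x = x := fun x => by
    rw [inv_smul_eq_iff, inv_smul_eq_iff, inv_smul_eq_iff, ← mul_smul, ← mul_smul, hu]
  have hcube : op u ∘ₗ op u ∘ₗ op u = (LinearMap.id : (X → ℂ) →ₗ[ℂ] (X → ℂ)) := by
    refine LinearMap.ext fun v => funext fun x => ?_
    simp only [LinearMap.comp_apply, op_apply, LinearMap.id_apply]
    rw [hu']
  have h1 := finrank_ker_of_cube (op (X := X) u) hcube
  have h2 : LinearMap.trace ℂ (X → ℂ) (op u) = (Fintype.card {x : X // u • x = x} : ℂ) := by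
    rw [op, trace_opf, card_fixed_inv]
  have h3 : LinearMap.trace ℂ (X → ℂ) (op u ∘ₗ op u) =
      (Fintype.card {x : X // u • x = x} : ℂ) := by
    rw [op, opf_comp, trace_opf]
    congr 1
    refine Fintype.card_congr (Equiv.subtypeEquivRight fun x => ?_)
    simp only [Function.comp_apply]
    constructor
    · intro h
      have h4 := hu' x
      rw [h] at h4
      rw [inv_smul_eq_iff] at h4
      exact h4.symm
    · intro h
      have h4 : u⁻¹ • x = x := by rw [inv_smul_eq_iff, h]
      rw [h4, h4]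
  rw [h2, h3, Module.finrank_fintype_fun_eq_card] at h1
  have h4 : ((3 * finrank ℂ (spB (X := X) u) + 2 * Fintype.card {x : X // u • x = x} : ℕ) : ℂ) =
      ((2 * Fintype.card X : ℕ) : ℂ) := by
    push_cast
    rw [spB, h1]
    ring
  exact_mod_cast h4

/-- The difference of two delta functions related by `s` lies in `spA s`. -/
theorem single_sub_mem_spA (s : G) (hs : ∀ x : X, (s * s) • x = x) (x : X) :
    (Pi.single (s • x) (1 : ℂ) - Pi.single x (1 : ℂ) : X → ℂ) ∈ spA s := by
  rw [mem_spA]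
  intro y
  have e1 : s⁻¹ • y = s • x ↔ y = x := by
    rw [inv_smul_eq_iff, ← mul_smul, hs]
  have e2 : s⁻¹ • y = x ↔ y = s • x := by
    rw [inv_smul_eq_iff]
  simp only [Pi.sub_apply, Pi.single_apply, e1, e2]
  ring

/-- The difference of two delta functions related by `u` lies in `spB u`. -/
theorem single_sub_mem_spB (u : G) (hu : ∀ x : X, (u * u * u) • x = x) (x : X) :
    (Pi.single (u • x) (1 : ℂ) - Pi.single x (1 : ℂ) : X → ℂ) ∈ spB u := by
  rw [mem_spB]
  intro y
  have e1 : u⁻¹ • y = u • x ↔ y = u • u • x := by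
    rw [inv_smul_eq_iff]
  have e2 : u⁻¹ • y = x ↔ y = u • x := by
    rw [inv_smul_eq_iff]
  have e3 : u⁻¹ • u⁻¹ • y = u • x ↔ y = x := by
    rw [inv_smul_eq_iff, inv_smul_eq_iff, ← mul_smul, ← mul_smul, hu]
  have e4 : u⁻¹ • u⁻¹ • y = x ↔ y = u • u • x := by
    rw [inv_smul_eq_iff, inv_smul_eq_iff]
  simp only [Pi.sub_apply, Pi.single_apply, e1, e2, e3, e4]
  ring

/-- Connectivity: `spA s + spB u` has codimension at most one. -/
theorem card_le_finrank_sup [MulAction.IsPretransitive G X] (s u : G)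
    (hs : ∀ x : X, (s * s) • x = x) (hu : ∀ x : X, (u * u * u) • x = x)
    (hgen : Subgroup.closure {s, u} = ⊤) :
    Fintype.card X ≤ finrank ℂ ↥(spA (X := X) s ⊔ spB u) + 1 := by
  rcases isEmpty_or_nonempty X with hX | hX
  · simp
  obtain ⟨x₀⟩ := hX
  set W : Submodule ℂ (X → ℂ) := spA (X := X) s ⊔ spB u with hW
  let K : Subgroup G :=
    { carrier := {g | ∀ x : X, (Pi.single (g • x) (1 : ℂ) - Pi.single x (1 : ℂ) : X → ℂ) ∈ W}
      one_mem' := fun x => by simp
      mul_mem' := by
        intro g h hg hh x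
        have e : (Pi.single ((g * h) • x) (1 : ℂ) - Pi.single x (1 : ℂ) : X → ℂ) =
            (Pi.single (g • h • x) (1 : ℂ) - Pi.single (h • x) (1 : ℂ)) +
              (Pi.single (h • x) (1 : ℂ) - Pi.single x (1 : ℂ)) := by
          rw [mul_smul]; abel
        rw [e]
        exact W.add_mem (hg (h • x)) (hh x)
      inv_mem' := by
        intro g hg x
        have e : (Pi.single (g⁻¹ • x) (1 : ℂ) - Pi.single x (1 : ℂ) : X → ℂ) =
            -(Pi.single (g • g⁻¹ • x) (1 : ℂ) - Pi.single (g⁻¹ • x) (1 : ℂ)) := by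
          rw [smul_inv_smul]; abel
        rw [e]
        exact W.neg_mem (hg (g⁻¹ • x)) }
  have hK : K = ⊤ := by
    rw [eq_top_iff, ← hgen, Subgroup.closure_le]
    rintro g (rfl | rfl)
    · exact fun x => Submodule.mem_sup_left (single_sub_mem_spA g hs x)
    · exact fun x => Submodule.mem_sup_right (single_sub_mem_spB g hu x)
  have hdiff : ∀ x : X, (Pi.single x (1 : ℂ) - Pi.single x₀ (1 : ℂ) : X → ℂ) ∈ W := by
    intro x
    obtain ⟨g, rfl⟩ := MulAction.exists_smul_eq G x₀ x
    have : g ∈ K := by rw [hK]; trivial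
    exact this x₀
  have htop : (⊤ : Submodule ℂ (X → ℂ)) ≤ W ⊔ Submodule.span ℂ {Pi.single x₀ (1 : ℂ)} := by
    intro v _
    have e : v = ∑ x, v x • (Pi.single x (1 : ℂ) - Pi.single x₀ (1 : ℂ) : X → ℂ) +
        (∑ x, v x) • (Pi.single x₀ (1 : ℂ) : X → ℂ) := by
      rw [Finset.sum_smul, ← Finset.sum_add_distrib]
      conv_lhs => rw [pi_eq_sum_univ v]
      refine Finset.sum_congr rfl fun x _ => ?_
      rw [smul_sub, sub_add_cancel]
      ext y
      simp [Pi.single_apply, eq_comm]
    rw [e]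
    refine Submodule.add_mem _ (Submodule.mem_sup_left ?_) (Submodule.mem_sup_right ?_)
    · exact Submodule.sum_mem _ fun x _ => Submodule.smul_mem _ _ (hdiff x)
    · exact Submodule.smul_mem _ _ (Submodule.subset_span rfl)
  have h1 : finrank ℂ (X → ℂ) ≤
      finrank ℂ ↥(W ⊔ Submodule.span ℂ {(Pi.single x₀ (1 : ℂ) : X → ℂ)}) := by
    rw [← finrank_top ℂ (X → ℂ)]
    exact Submodule.finrank_mono htop
  have h2 := Submodule.finrank_add_le_finrank_add_finrank W
    (Submodule.span ℂ {(Pi.single x₀ (1 : ℂ) : X → ℂ)})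
  have h3 : finrank ℂ ↥(Submodule.span ℂ {(Pi.single x₀ (1 : ℂ) : X → ℂ)}) ≤ 1 := by
    have := finrank_span_le_card (R := ℂ) ({(Pi.single x₀ (1 : ℂ) : X → ℂ)} : Set (X → ℂ))
    simpa using this
  rw [Module.finrank_fintype_fun_eq_card] at h1
  omega

/-- The averaging operator over the powers of `t`. -/
noncomputable def avg (t : G) (n : ℕ) : (X → ℂ) →ₗ[ℂ] (X → ℂ) :=
  ∑ j ∈ Finset.range n, op (t ^ j)

theorem avg_apply (t : G) (n : ℕ) (w : X → ℂ) (x : X) :
    avg t n w x = ∑ j ∈ Finset.range n, w ((t ^ j)⁻¹ • x) := by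
  simp [avg, LinearMap.sum_apply, Finset.sum_apply]

/-- The kernel of the averaging operator has codimension at least the number of orbits. -/
theorem finrank_ker_avg_add_card_orbits (t : G) (n : ℕ) (hn : n ≠ 0) :
    finrank ℂ (LinearMap.ker (avg (X := X) t n)) +
      Nat.card (MulAction.orbitRel.Quotient (Subgroup.zpowers t) X) ≤ Fintype.card X := by
  classical
  set Ω := MulAction.orbitRel.Quotient (Subgroup.zpowers t) X with hΩ
  haveI : Finite Ω := Quotient.finite _
  letI : Fintype Ω := Fintype.ofFinite Ω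
  let mk : X → Ω := Quotient.mk''
  have hmk : Function.Surjective mk := Quotient.mk''_surjective
  let J : (Ω → ℂ) →ₗ[ℂ] (X → ℂ) := LinearMap.funLeft ℂ ℂ mk
  have hJ : Function.Injective J := LinearMap.funLeft_injective_of_surjective ℂ ℂ mk hmk
  have hmk_eq : ∀ (j : ℕ) (x : X), mk ((t ^ j)⁻¹ • x) = mk x := by
    intro j x
    refine Quotient.sound ?_
    change (t ^ j)⁻¹ • x ∈ MulAction.orbit (Subgroup.zpowers t) x
    exact ⟨⟨(t ^ j)⁻¹, Subgroup.inv_mem _ (Subgroup.pow_mem _ (Subgroup.mem_zpowers t) j)⟩, rfl⟩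
  have hrange : LinearMap.range J ≤ LinearMap.range (avg (X := X) t n) := by
    rintro _ ⟨F, rfl⟩
    refine ⟨(n : ℂ)⁻¹ • J F, ?_⟩
    ext x
    rw [avg_apply]
    simp only [Pi.smul_apply, smul_eq_mul, J, LinearMap.funLeft_apply, hmk_eq]
    rw [Finset.sum_const, Finset.card_range, nsmul_eq_mul, ← mul_assoc,
      mul_inv_cancel₀ (Nat.cast_ne_zero.mpr hn), one_mul]
  have h1 : finrank ℂ (LinearMap.range J) = Nat.card Ω := by
    rw [LinearMap.finrank_range_of_inj hJ, Module.finrank_fintype_fun_eq_card,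
      Nat.card_eq_fintype_card]
  have h2 := Submodule.finrank_mono hrange
  have h3 := LinearMap.finrank_range_add_finrank_ker (avg (X := X) t n)
  rw [Module.finrank_fintype_fun_eq_card] at h3
  omega

end Action

end Fermat.Agent.S21_helper28_P5a
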