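import Mathlib
import Fermat.Agent.S21_helper28_P5a

set_option autoImplicit false
set_option linter.unusedSectionVars false

/-!
# S21, piece P5 (part b): the Shapiro cocycle and the abstract dimension bound
-/

open Module Fermat.Agent.S21_helper28_P5a

namespace Fermat.Agent.S21_helper28_P5b

variable {G : Type} [Group G] (Γ : Subgroup G)

/-- The element `σ(x)⁻¹ g σ(g⁻¹ x)` of `Γ`, where `σ = Quotient.out`. -/
noncomputable def gam (g : G) (x : G ⧸ Γ) : Γ :=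
  ⟨(x.out)⁻¹ * g * (g⁻¹ • x).out, by
    have h : ((x.out : G) : G ⧸ Γ) = ((g * (g⁻¹ • x).out : G) : G ⧸ Γ) := by
      have e : ((g * (g⁻¹ • x).out : G) : G ⧸ Γ) = g • (((g⁻¹ • x).out : G) : G ⧸ Γ) := rfl
      rw [e, QuotientGroup.out_eq', QuotientGroup.out_eq', smul_inv_smul]
    have := QuotientGroup.eq.mp h
    rwa [← mul_assoc] at this⟩

theorem gam_coe (g : G) (x : G ⧸ Γ) :
    ((gam Γ g x : Γ) : G) = (x.out)⁻¹ * g * (g⁻¹ • x).out := rfl

theorem gam_mul (g h : G) (x : G ⧸ Γ) :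
    gam Γ (g * h) x = gam Γ g x * gam Γ h (g⁻¹ • x) := by
  apply Subtype.ext
  rw [Subgroup.coe_mul, gam_coe, gam_coe, gam_coe, mul_inv_rev, mul_smul]
  group

/-- The full cocycle attached to a homomorphism `ψ` and a function `v`. -/
noncomputable def coc (ψ : Additive Γ →+ ℂ) (v : G ⧸ Γ → ℂ) (g : G) (x : G ⧸ Γ) : ℂ :=
  ψ (Additive.ofMul (gam Γ g x)) + v (g⁻¹ • x) - v x

theorem coc_mul (ψ : Additive Γ →+ ℂ) (v : G ⧸ Γ → ℂ) (g h : G) (x : G ⧸ Γ) :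
    coc Γ ψ v (g * h) x = coc Γ ψ v g x + coc Γ ψ v h (g⁻¹ • x) := by
  simp only [coc, gam_mul, ofMul_mul, map_add, mul_inv_rev, mul_smul]
  ring

theorem coc_one (ψ : Additive Γ →+ ℂ) (v : G ⧸ Γ → ℂ) (x : G ⧸ Γ) :
    coc Γ ψ v 1 x = 0 := by
  have h := coc_mul Γ ψ v 1 1 x
  simp only [mul_one, inv_one, one_smul] at h
  exact left_eq_add.mp h

theorem coc_inv (ψ : Additive Γ →+ ℂ) (v : G ⧸ Γ → ℂ) (g : G) (x : G ⧸ Γ) :
    coc Γ ψ v g⁻¹ x = - coc Γ ψ v g (g • x) := by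
  have h := coc_mul Γ ψ v g⁻¹ g x
  rw [inv_mul_cancel, coc_one, inv_inv] at h
  exact eq_neg_of_add_eq_zero_left h.symm

theorem coc_pow (ψ : Additive Γ →+ ℂ) (v : G ⧸ Γ → ℂ) (t : G) (n : ℕ) (x : G ⧸ Γ) :
    coc Γ ψ v (t ^ n) x = ∑ j ∈ Finset.range n, coc Γ ψ v t ((t ^ j)⁻¹ • x) := by
  induction n with
  | zero => simp [coc_one]
  | succ n ih => rw [pow_succ, coc_mul, ih, Finset.sum_range_succ]

theorem coc_cube (ψ : Additive Γ →+ ℂ) (v : G ⧸ Γ → ℂ) (u : G) (x : G ⧸ Γ) :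
    coc Γ ψ v (u * u * u) x =
      coc Γ ψ v u x + coc Γ ψ v u (u⁻¹ • x) + coc Γ ψ v u (u⁻¹ • u⁻¹ • x) := by
  rw [coc_mul, coc_mul, mul_inv_rev, mul_smul]

/-- The subgroup on which the cocycle vanishes. -/
noncomputable def vanishing (ψ : Additive Γ →+ ℂ) (v : G ⧸ Γ → ℂ) : Subgroup G where
  carrier := {g | ∀ x, coc Γ ψ v g x = 0}
  one_mem' := fun x => coc_one Γ ψ v x
  mul_mem' := by
    intro g h hg hh x
    rw [coc_mul, hg x, hh _, add_zero]
  inv_mem' := by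
    intro g hg x
    rw [coc_inv, hg _, neg_zero]

theorem mem_vanishing (ψ : Additive Γ →+ ℂ) (v : G ⧸ Γ → ℂ) (g : G) :
    g ∈ vanishing Γ ψ v ↔ ∀ x, coc Γ ψ v g x = 0 := Iff.rfl

/-- If the cocycle vanishes identically then `ψ = 0` and `v` is constant. -/
theorem eq_zero_of_vanishing (ψ : Additive Γ →+ ℂ) (v : G ⧸ Γ → ℂ)
    (h : vanishing Γ ψ v = ⊤) : ψ = 0 ∧ ∀ x y, v x = v y := by
  have hall : ∀ g x, coc Γ ψ v g x = 0 := fun g x => by
    have : g ∈ vanishing Γ ψ v := by rw [h]; trivial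
    exact this x
  have hψ : ψ = 0 := by
    refine AddMonoidHom.ext fun γ' => ?_
    obtain ⟨γ, rfl⟩ : ∃ γ : Γ, Additive.ofMul γ = γ' := ⟨Additive.toMul γ', rfl⟩
    set x₀ : G ⧸ Γ := ((1 : G) : G ⧸ Γ) with hx₀
    set γ₀ : G := x₀.out with hγ₀
    have hγ₀mem : γ₀ ∈ Γ := by
      have h1 : ((1 : G) : G ⧸ Γ) = ((γ₀ : G) : G ⧸ Γ) := by
        rw [hγ₀, QuotientGroup.out_eq']
      have := QuotientGroup.eq.mp h1
      simpa using this
    set g : G := γ₀ * γ * γ₀⁻¹ with hg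
    have hgmem : g ∈ Γ := Γ.mul_mem (Γ.mul_mem hγ₀mem γ.2) (Γ.inv_mem hγ₀mem)
    have hgx : g⁻¹ • x₀ = x₀ := by
      rw [hx₀, MulAction.Quotient.smul_mk, smul_eq_mul, mul_one, QuotientGroup.eq]
      simpa using hgmem
    have hgam : gam Γ g x₀ = γ := by
      apply Subtype.ext
      rw [gam_coe, hgx, ← hγ₀, hg]
      group
    have := hall g x₀
    rw [coc, hgx, hgam] at this
    simpa using this
  refine ⟨hψ, ?_⟩
  have hinv : ∀ (g : G) (x : G ⧸ Γ), v (g⁻¹ • x) = v x := by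
    intro g x
    have := hall g x
    rw [coc, hψ] at this
    simp only [AddMonoidHom.zero_apply, zero_add] at this
    exact sub_eq_zero.mp this
  intro x y
  obtain ⟨g, rfl⟩ := MulAction.exists_smul_eq G y x
  have := hinv g⁻¹ y
  rwa [inv_inv] at this

/-- An element all of whose conjugates lie in `Γ` and are killed by `ψ` acts trivially and
the cocycle vanishes on it. -/
theorem coc_eq_zero_of_conj (ψ : Additive Γ →+ ℂ) (v : G ⧸ Γ → ℂ) (z : G)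
    (hz : ∀ g : G, ∃ h : g⁻¹ * z * g ∈ Γ, ψ (Additive.ofMul (⟨g⁻¹ * z * g, h⟩ : Γ)) = 0)
    (x : G ⧸ Γ) :
    z • x = x ∧ coc Γ ψ v z x = 0 := by
  have hzx : ∀ y : G ⧸ Γ, z • y = y := by
    intro y
    obtain ⟨g, rfl⟩ := QuotientGroup.mk_surjective y
    rw [MulAction.Quotient.smul_mk, smul_eq_mul, eq_comm, QuotientGroup.eq]
    obtain ⟨h, -⟩ := hz g
    rwa [mul_assoc] at h
  have hzx' : z⁻¹ • x = x := by rw [inv_smul_eq_iff, hzx]
  refine ⟨hzx x, ?_⟩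
  obtain ⟨h, hψ⟩ := hz x.out
  have hgam : gam Γ z x = ⟨_, h⟩ := by
    apply Subtype.ext
    rw [gam_coe, hzx']
  rw [coc, hzx', hgam, hψ]
  ring

section Main

variable [Fintype (G ⧸ Γ)] [DecidableEq (G ⧸ Γ)]

theorem coc_add (ψ ψ' : Additive Γ →+ ℂ) (v v' : G ⧸ Γ → ℂ) (g : G) (x : G ⧸ Γ) :
    coc Γ (ψ + ψ') (v + v') g x = coc Γ ψ v g x + coc Γ ψ' v' g x := by
  simp only [coc, AddMonoidHom.add_apply, Pi.add_apply]
  ring

theorem coc_smul (c : ℂ) (ψ : Additive Γ →+ ℂ) (v : G ⧸ Γ → ℂ) (g : G) (x : G ⧸ Γ) :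
    coc Γ (c • ψ) (c • v) g x = c * coc Γ ψ v g x := by
  simp only [coc, AddMonoidHom.smul_apply, Pi.smul_apply, smul_eq_mul]
  ring

/-- The linear map `(ψ, v) ↦ (C(s), C(s t))`. -/
noncomputable def theta (H : Submodule ℂ (Additive Γ →+ ℂ)) (s t : G) :
    (H × (G ⧸ Γ → ℂ)) →ₗ[ℂ] ((G ⧸ Γ → ℂ) × (G ⧸ Γ → ℂ)) where
  toFun p := (coc Γ p.1.1 p.2 s, coc Γ p.1.1 p.2 (s * t))
  map_add' p q := by
    refine Prod.ext (funext fun x => ?_) (funext fun x => ?_)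
    · exact coc_add Γ _ _ _ _ _ _
    · exact coc_add Γ _ _ _ _ _ _
  map_smul' c p := by
    refine Prod.ext (funext fun x => ?_) (funext fun x => ?_)
    · exact coc_smul Γ _ _ _ _ _
    · exact coc_smul Γ _ _ _ _ _

theorem theta_apply (H : Submodule ℂ (Additive Γ →+ ℂ)) (s t : G)
    (p : H × (G ⧸ Γ → ℂ)) :
    theta Γ H s t p = (coc Γ p.1.1 p.2 s, coc Γ p.1.1 p.2 (s * t)) := rfl

/-- The map `(a, b) ↦ (x ↦ (b - a)(s • x))`. -/
noncomputable def rho (s : G) :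
    ((G ⧸ Γ → ℂ) × (G ⧸ Γ → ℂ)) →ₗ[ℂ] (G ⧸ Γ → ℂ) :=
  op s⁻¹ ∘ₗ (LinearMap.snd ℂ _ _ - LinearMap.fst ℂ _ _)

theorem rho_apply (s : G) (p : (G ⧸ Γ → ℂ) × (G ⧸ Γ → ℂ)) (x : G ⧸ Γ) :
    rho Γ s p x = p.2 (s • x) - p.1 (s • x) := by
  simp [rho]

/-- The abstract dimension bound. -/
theorem abstract_bound (s t : G) (hgen : Subgroup.closure {s, t} = ⊤) (n : ℕ) (hn : n ≠ 0)
    (H : Submodule ℂ (Additive Γ →+ ℂ))
    (hs : ∀ ψ ∈ H, ∀ g : G, ∃ h : g⁻¹ * (s * s) * g ∈ Γ,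
      ψ (Additive.ofMul (⟨g⁻¹ * (s * s) * g, h⟩ : Γ)) = 0)
    (hu : ∀ ψ ∈ H, ∀ g : G, ∃ h : g⁻¹ * (s * t * (s * t) * (s * t)) * g ∈ Γ,
      ψ (Additive.ofMul (⟨g⁻¹ * (s * t * (s * t) * (s * t)) * g, h⟩ : Γ)) = 0)
    (ht : ∀ ψ ∈ H, ∀ g : G, ∃ h : g⁻¹ * t ^ n * g ∈ Γ,
      ψ (Additive.ofMul (⟨g⁻¹ * t ^ n * g, h⟩ : Γ)) = 0) :
    Module.Finite ℂ H ∧
      6 * finrank ℂ H + 3 * Fintype.card {x : G ⧸ Γ // s • x = x} +
        4 * Fintype.card {x : G ⧸ Γ // (s * t) • x = x} +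
        6 * Nat.card (MulAction.orbitRel.Quotient (Subgroup.zpowers t) (G ⧸ Γ)) ≤
      Fintype.card (G ⧸ Γ) + 12 := by
  classical
  -- trivial actions
  have hact_s : ∀ x : G ⧸ Γ, (s * s) • x = x := fun x =>
    (coc_eq_zero_of_conj Γ 0 0 (s * s) (hs 0 H.zero_mem) x).1
  have hact_u : ∀ x : G ⧸ Γ, (s * t * (s * t) * (s * t)) • x = x := fun x =>
    (coc_eq_zero_of_conj Γ 0 0 _ (hu 0 H.zero_mem) x).1
  -- the kernel of `theta`
  have hker : ∀ p : H × (G ⧸ Γ → ℂ), theta Γ H s t p = 0 →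
      p.1 = 0 ∧ ∀ x y, p.2 x = p.2 y := by
    intro p hp
    rw [theta_apply, Prod.mk_eq_zero] at hp
    have h1 : s ∈ vanishing Γ p.1.1 p.2 := fun x => congrFun hp.1 x
    have h2 : s * t ∈ vanishing Γ p.1.1 p.2 := fun x => congrFun hp.2 x
    have h3 : t ∈ vanishing Γ p.1.1 p.2 := by
      have := Subgroup.mul_mem _ (Subgroup.inv_mem _ h1) h2
      rwa [inv_mul_cancel_left] at this
    have h4 : vanishing Γ p.1.1 p.2 = ⊤ := by
      rw [eq_top_iff, ← hgen, Subgroup.closure_le]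
      rintro g (rfl | rfl)
      · exact h1
      · exact h3
    obtain ⟨h5, h6⟩ := eq_zero_of_vanishing Γ p.1.1 p.2 h4
    exact ⟨Subtype.ext h5, h6⟩
  -- finite-dimensionality
  have hfin : Module.Finite ℂ H := by
    refine Module.Finite.of_injective (theta Γ H s t ∘ₗ LinearMap.inl ℂ H (G ⧸ Γ → ℂ)) ?_
    rw [← LinearMap.ker_eq_bot, LinearMap.ker_eq_bot']
    intro ψ hψ
    exact (hker (ψ, 0) hψ).1
  refine ⟨hfin, ?_⟩
  -- dimension of the kernel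
  set x₀ : G ⧸ Γ := ((1 : G) : G ⧸ Γ) with hx₀
  have hkerdim : finrank ℂ (LinearMap.ker (theta Γ H s t)) ≤ 1 := by
    let E : LinearMap.ker (theta Γ H s t) →ₗ[ℂ] ℂ :=
      (LinearMap.proj x₀ : (G ⧸ Γ → ℂ) →ₗ[ℂ] ℂ) ∘ₗ LinearMap.snd ℂ H (G ⧸ Γ → ℂ) ∘ₗ
        (LinearMap.ker (theta Γ H s t)).subtype
    have hE0 : ∀ p : LinearMap.ker (theta Γ H s t), E p = 0 → p = 0 := by
      intro p hp
      obtain ⟨h1, h2⟩ := hker p.1 p.2
      have h3 : p.1.2 x₀ = 0 := hp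
      apply Subtype.ext
      refine Prod.ext h1 (funext fun x => ?_)
      rw [h2 x x₀, h3]
      rfl
    have hE : Function.Injective E := by
      intro p q hpq
      have h0 : E (p - q) = 0 := by rw [LinearMap.map_sub E p q, hpq, sub_self]
      exact sub_eq_zero.mp (hE0 _ h0)
    have := LinearMap.finrank_le_finrank_of_injective hE
    simpa using this
  -- the target subspace
  set Z : Submodule ℂ ((G ⧸ Γ → ℂ) × (G ⧸ Γ → ℂ)) :=
    (spA (X := G ⧸ Γ) s).prod (spB (s * t)) ⊓ LinearMap.ker (avg t n ∘ₗ rho Γ s) with hZ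
  have hrange : LinearMap.range (theta Γ H s t) ≤ Z := by
    rintro _ ⟨p, rfl⟩
    rw [theta_apply]
    have hA : coc Γ p.1.1 p.2 s ∈ spA (X := G ⧸ Γ) s := by
      rw [mem_spA]
      intro x
      rw [← coc_mul]
      exact (coc_eq_zero_of_conj Γ p.1.1 p.2 (s * s) (hs p.1.1 p.1.2) x).2
    have hB : coc Γ p.1.1 p.2 (s * t) ∈ spB (X := G ⧸ Γ) (s * t) := by
      rw [mem_spB]
      intro x
      have e := (coc_eq_zero_of_conj Γ p.1.1 p.2 _ (hu p.1.1 p.1.2) x).2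
      rw [coc_cube] at e
      exact e
    refine Submodule.mem_inf.mpr ⟨Submodule.mem_prod.mpr ⟨hA, hB⟩, ?_⟩
    rw [LinearMap.mem_ker, LinearMap.comp_apply]
    have hρ : rho Γ s (coc Γ p.1.1 p.2 s, coc Γ p.1.1 p.2 (s * t)) = coc Γ p.1.1 p.2 t := by
      funext x
      rw [rho_apply]
      dsimp only
      rw [coc_mul, inv_smul_smul]
      ring
    rw [hρ]
    funext x
    rw [avg_apply, ← coc_pow]
    exact (coc_eq_zero_of_conj Γ p.1.1 p.2 (t ^ n) (ht p.1.1 p.1.2) x).2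
  -- dimension of `Z`
  have hZdim : finrank ℂ Z ≤
      finrank ℂ ↥(spA (X := G ⧸ Γ) s ⊓ spB (s * t)) +
        finrank ℂ (LinearMap.ker (avg (X := G ⧸ Γ) t n)) := by
    set ρZ : Z →ₗ[ℂ] (G ⧸ Γ → ℂ) := (rho Γ s).domRestrict Z with hρZ
    have h1 := LinearMap.finrank_range_add_finrank_ker ρZ
    have h2 : LinearMap.range ρZ ≤ LinearMap.ker (avg (X := G ⧸ Γ) t n) := by
      rintro _ ⟨z, rfl⟩
      have := (Submodule.mem_inf.mp z.2).2
      rw [LinearMap.mem_ker, LinearMap.comp_apply] at this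
      exact LinearMap.mem_ker.mpr this
    have h3 := Submodule.finrank_mono h2
    let L : LinearMap.ker ρZ →ₗ[ℂ] (G ⧸ Γ → ℂ) :=
      LinearMap.fst ℂ _ _ ∘ₗ Z.subtype ∘ₗ (LinearMap.ker ρZ).subtype
    have hba : ∀ z : LinearMap.ker ρZ, z.1.1.2 = z.1.1.1 := by
      intro z
      have h := z.2
      rw [LinearMap.mem_ker] at h
      funext x
      have hx : rho Γ s z.1.1 (s⁻¹ • x) = 0 := congrFun h (s⁻¹ • x)
      rw [rho_apply, smul_inv_smul] at hx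
      exact sub_eq_zero.mp hx
    have hL0 : ∀ z : LinearMap.ker ρZ, L z = 0 → z = 0 := by
      intro z hz
      have h1 : z.1.1.1 = 0 := hz
      apply Subtype.ext
      apply Subtype.ext
      refine Prod.ext h1 ?_
      rw [hba z, h1]
      rfl
    have hL : Function.Injective L := by
      intro z w hzw
      have h0 : L (z - w) = 0 := by rw [LinearMap.map_sub L z w, hzw, sub_self]
      exact sub_eq_zero.mp (hL0 _ h0)
    have hLrange : LinearMap.range L ≤ spA (X := G ⧸ Γ) s ⊓ spB (s * t) := by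
      rintro _ ⟨z, rfl⟩
      have hz := Submodule.mem_prod.mp (Submodule.mem_inf.mp z.1.2).1
      refine Submodule.mem_inf.mpr ⟨hz.1, ?_⟩
      have := hz.2
      rw [hba z] at this
      exact this
    have h4 := Submodule.finrank_mono hLrange
    rw [LinearMap.finrank_range_of_inj hL] at h4
    omega
  -- assemble
  have hrn := LinearMap.finrank_range_add_finrank_ker (theta Γ H s t)
  rw [Module.finrank_prod, Module.finrank_fintype_fun_eq_card] at hrn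
  have hrZ := Submodule.finrank_mono hrange
  have hA := finrank_spA (X := G ⧸ Γ) s hact_s
  have hB := finrank_spB (X := G ⧸ Γ) (s * t) hact_u
  have hsup := card_le_finrank_sup (X := G ⧸ Γ) s (s * t) hact_s hact_u (by
    rw [eq_top_iff, ← hgen, Subgroup.closure_le]
    intro g hg
    have h1 : s ∈ Subgroup.closure ({s, s * t} : Set G) :=
      Subgroup.subset_closure (Set.mem_insert _ _)
    have h2 : s * t ∈ Subgroup.closure ({s, s * t} : Set G) :=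
      Subgroup.subset_closure (Set.mem_insert_of_mem _ rfl)
    rcases hg with hg | hg
    · rw [hg]; exact h1
    · rw [Set.mem_singleton_iff] at hg
      rw [hg]
      have := Subgroup.mul_mem _ (Subgroup.inv_mem _ h1) h2
      rwa [inv_mul_cancel_left] at this)
  have hsi := Submodule.finrank_sup_add_finrank_inf_eq (spA (X := G ⧸ Γ) s) (spB (s * t))
  have hT : finrank ℂ (LinearMap.ker (avg (X := G ⧸ Γ) t n)) +
      Nat.card (MulAction.orbitRel.Quotient (Subgroup.zpowers t) (G ⧸ Γ)) ≤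
        Fintype.card (G ⧸ Γ) := finrank_ker_avg_add_card_orbits (X := G ⧸ Γ) t n hn
  omega

end Main

end Fermat.Agent.S21_helper28_P5b
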