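import Mathlib
import Fermat.Prelude.Def_ModularCurve_PeriodHomPair
import Fermat.Prelude.Def_ModularCurve_GenusNumerics
import Fermat.Agent.S20_Defs
import Fermat.Agent.S20_helper29_A1
import Fermat.Agent.S20_helper22_A2
import Fermat.Agent.S20_helper22_A3
import Fermat.Agent.S20_helper29_A4
import Fermat.Agent.S21_helper28_P5b

set_option autoImplicit false

/-!
# S21, piece P5: `finrank parabolicHoms (Γ₀(N)) ≤ 2 * genusFormula N`
-/

open Module CongruenceSubgroup Matrix.SpecialLinearGroup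
open scoped MatrixGroups

namespace Fermat.Agent.S21_helper28_P5

/-- The trace of a conjugate. -/
theorem trace_conj (g z : SL(2, ℤ)) :
    ((g⁻¹ * z * g : SL(2, ℤ)) : Matrix (Fin 2) (Fin 2) ℤ).trace =
      (z : Matrix (Fin 2) (Fin 2) ℤ).trace := by
  rw [coe_mul, coe_mul, Matrix.trace_mul_comm, ← mul_assoc, ← coe_mul, mul_inv_cancel, coe_one,
    one_mul]

/-- Conjugates of an element with matrix `-1`. -/
theorem conj_neg_one (g z : SL(2, ℤ)) (hz : (z : Matrix (Fin 2) (Fin 2) ℤ) = -1) :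
    ((g⁻¹ * z * g : SL(2, ℤ)) : Matrix (Fin 2) (Fin 2) ℤ) = -1 := by
  rw [coe_mul, coe_mul, hz, mul_neg, mul_one, neg_mul, ← coe_mul, inv_mul_cancel, coe_one]

theorem S_mul_S_coe : ((ModularGroup.S * ModularGroup.S : SL(2, ℤ)) :
    Matrix (Fin 2) (Fin 2) ℤ) = -1 := by
  rw [coe_mul, ModularGroup.S_mul_S_eq]

theorem ST_cube_coe :
    ((ModularGroup.S * ModularGroup.T * (ModularGroup.S * ModularGroup.T) *
      (ModularGroup.S * ModularGroup.T) : SL(2, ℤ)) : Matrix (Fin 2) (Fin 2) ℤ) = -1 := by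
  simp only [coe_mul, ModularGroup.coe_S, ModularGroup.coe_T]
  ext i j
  fin_cases i <;> fin_cases j <;> simp [Matrix.mul_apply, Fin.sum_univ_two]

/-- The hypothesis of the abstract bound for elements with matrix `-1`. -/
theorem hyp_neg_one (N : ℕ) (z : SL(2, ℤ)) (hz : (z : Matrix (Fin 2) (Fin 2) ℤ) = -1)
    (ψ : Additive (Gamma0 N) →+ ℂ)
    (hψ : ψ ∈ ModularCurve.Period.parabolicHoms ℂ (Gamma0 N) ℂ) (g : SL(2, ℤ)) :
    ∃ h : g⁻¹ * z * g ∈ Gamma0 N, ψ (Additive.ofMul (⟨g⁻¹ * z * g, h⟩ : Gamma0 N)) = 0 := by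
  have h1 := conj_neg_one g z hz
  have hmem : g⁻¹ * z * g ∈ Gamma0 N := by
    rw [Gamma0_mem]
    have : ((g⁻¹ * z * g : SL(2, ℤ)) : Matrix (Fin 2) (Fin 2) ℤ) 1 0 = 0 := by
      rw [h1]; simp
    rw [this]; simp
  refine ⟨hmem, hψ ⟨_, hmem⟩ ?_⟩
  change ((g⁻¹ * z * g : SL(2, ℤ)) : Matrix (Fin 2) (Fin 2) ℤ).trace ^ 2 = 4
  rw [h1]
  simp [Matrix.trace_fin_two]

/-- The hypothesis of the abstract bound for `T ^ N`. -/
theorem hyp_T_pow (N : ℕ) (ψ : Additive (Gamma0 N) →+ ℂ)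
    (hψ : ψ ∈ ModularCurve.Period.parabolicHoms ℂ (Gamma0 N) ℂ) (g : SL(2, ℤ)) :
    ∃ h : g⁻¹ * ModularGroup.T ^ N * g ∈ Gamma0 N,
      ψ (Additive.ofMul (⟨g⁻¹ * ModularGroup.T ^ N * g, h⟩ : Gamma0 N)) = 0 := by
  have hT : ModularGroup.T ^ N ∈ Gamma N := by
    have := ModularGroup_T_pow_mem_Gamma (N : ℤ) (N : ℤ) dvd_rfl
    simpa using this
  have hconj : g⁻¹ * ModularGroup.T ^ N * g ∈ Gamma N := by
    have := (Gamma_normal (N := N)).conj_mem _ hT g⁻¹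
    simpa using this
  have hmem : g⁻¹ * ModularGroup.T ^ N * g ∈ Gamma0 N := by
    rw [Gamma0_mem]
    exact (Gamma_mem.mp hconj).2.2.1
  refine ⟨hmem, hψ ⟨_, hmem⟩ ?_⟩
  change ((g⁻¹ * ModularGroup.T ^ N * g : SL(2, ℤ)) : Matrix (Fin 2) (Fin 2) ℤ).trace ^ 2 = 4
  rw [trace_conj]
  have : ((ModularGroup.T ^ N : SL(2, ℤ)) : Matrix (Fin 2) (Fin 2) ℤ) = !![1, (N : ℤ); 0, 1] := by
    have := ModularGroup.coe_T_zpow (N : ℤ)
    simpa using this
  rw [this]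
  simp [Matrix.trace_fin_two]

/-- P5, raw form: the dimension bound in terms of the permutation data of `S`, `T` on the
cosets of `Γ₀(N)`. -/
theorem P5_raw (N : ℕ) [NeZero N] :
    Module.Finite ℂ (ModularCurve.Period.parabolicHoms ℂ (Gamma0 N) ℂ) ∧
      6 * finrank ℂ (ModularCurve.Period.parabolicHoms ℂ (Gamma0 N) ℂ) +
        3 * Fermat.Agent.S20.nu2 N + 4 * Fermat.Agent.S20.nu3 N + 6 * Fermat.Agent.S20.cusps N ≤
      Fermat.Agent.S20.mu N + 12 := by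
  classical
  haveI : Finite (SL(2, ℤ) ⧸ Gamma0 N) := Subgroup.finite_quotient_of_finiteIndex
  letI : Fintype (SL(2, ℤ) ⧸ Gamma0 N) := Fintype.ofFinite _
  have hN : N ≠ 0 := NeZero.ne N
  obtain ⟨h1, h2⟩ := Fermat.Agent.S21_helper28_P5b.abstract_bound (Gamma0 N)
    ModularGroup.S ModularGroup.T SpecialLinearGroup.SL2Z_generators N hN
    (ModularCurve.Period.parabolicHoms ℂ (Gamma0 N) ℂ)
    (fun ψ hψ g => hyp_neg_one N _ S_mul_S_coe ψ hψ g)
    (fun ψ hψ g => hyp_neg_one N _ ST_cube_coe ψ hψ g)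
    (fun ψ hψ g => hyp_T_pow N ψ hψ g)
  refine ⟨h1, ?_⟩
  have e2 : Fermat.Agent.S20.nu2 N =
      Fintype.card {x : SL(2, ℤ) ⧸ Gamma0 N // ModularGroup.S • x = x} := by
    rw [Fermat.Agent.S20.nu2, Nat.card_eq_fintype_card]
  have e3 : Fermat.Agent.S20.nu3 N =
      Fintype.card {x : SL(2, ℤ) ⧸ Gamma0 N // (ModularGroup.S * ModularGroup.T) • x = x} := by
    rw [Fermat.Agent.S20.nu3, Nat.card_eq_fintype_card]
  have e1 : Fermat.Agent.S20.mu N = Fintype.card (SL(2, ℤ) ⧸ Gamma0 N) := by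
    rw [Fermat.Agent.S20.mu, Nat.card_eq_fintype_card]
  rw [e1, e2, e3, Fermat.Agent.S20.cusps]
  exact h2

/-- P5: the space of parabolic homomorphisms `Γ₀(N) → ℂ` is finite-dimensional of dimension at
most `2 * genusFormula N`. -/
theorem P5 (N : ℕ) [NeZero N] :
    Module.Finite ℂ (ModularCurve.Period.parabolicHoms ℂ (Gamma0 N) ℂ) ∧
      (finrank ℂ (ModularCurve.Period.parabolicHoms ℂ (Gamma0 N) ℂ) : ℚ) ≤
        2 * ModularCurve.genusFormula N := by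
  obtain ⟨h1, h2⟩ := P5_raw N
  refine ⟨h1, ?_⟩
  rw [Fermat.Agent.S20_helper29_A1.A1, Fermat.Agent.S20_helper22_A2.A2,
    Fermat.Agent.S20_helper22_A3.A3, Fermat.Agent.S20_helper29_A4.A4] at h2
  have h3 : ((6 * finrank ℂ (ModularCurve.Period.parabolicHoms ℂ (Gamma0 N) ℂ) +
      3 * ModularCurve.nuTwo N + 4 * ModularCurve.nuThree N + 6 * ModularCurve.cuspCount N : ℕ) : ℚ)
      ≤ ((ModularCurve.dedekindPsi N + 12 : ℕ) : ℚ) := by exact_mod_cast h2
  push_cast at h3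
  unfold ModularCurve.genusFormula
  linarith

end Fermat.Agent.S21_helper28_P5
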