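import Mathlib
import Fermat.Prelude.Def_ModularCurve_PeriodHomPair

set_option autoImplicit false

open UpperHalfPlane CongruenceSubgroup Filter Topology
open scoped MatrixGroups

namespace Fermat.Agent.S21_helper29_P2

open ModularCurve ModularCurve.Period

/-! ### parabolic elements of `SL(2,ℤ)` fix a cusp -/

/-- an eigenvector with coprime entries -/
theorem exists_coprime_eigen (p q r s ε : ℤ) (hε : ε * ε = 1) (htr : p + s = 2 * ε)
    (hdet : p * s - q * r = 1) :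
    ∃ a c : ℤ, IsCoprime a c ∧ p * a + q * c = ε * a ∧ r * a + s * c = ε * c := by
  by_cases h0 : q = 0 ∧ p = ε
  · obtain ⟨hq, hp⟩ := h0
    refine ⟨0, 1, isCoprime_one_right, ?_, ?_⟩
    · rw [hq]; ring
    · have hs : s = ε := by linarith
      rw [hs]; ring
  · have hg : 0 < Int.gcd q (ε - p) := by
      rw [Int.gcd_pos_iff]
      by_contra hcon
      simp only [not_or, not_not] at hcon
      exact h0 ⟨hcon.1, by linarith [hcon.2]⟩
    obtain ⟨a, c, hac, hq, hp⟩ := Int.exists_gcd_one hg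
    have hg' : ((Int.gcd q (ε - p) : ℕ) : ℤ) ≠ 0 := by exact_mod_cast hg.ne'
    refine ⟨a, c, Int.isCoprime_iff_gcd_eq_one.mpr hac, ?_, ?_⟩
    · apply mul_right_cancel₀ hg'
      have e1 : (p * a + q * c) * ((Int.gcd q (ε - p) : ℕ) : ℤ) =
          p * (a * ((Int.gcd q (ε - p) : ℕ) : ℤ)) + q * (c * ((Int.gcd q (ε - p) : ℕ) : ℤ)) := by
        ring
      have e2 : ε * a * ((Int.gcd q (ε - p) : ℕ) : ℤ) =
          ε * (a * ((Int.gcd q (ε - p) : ℕ) : ℤ)) := by ring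
      rw [e1, e2, ← hq, ← hp]
      ring
    · apply mul_right_cancel₀ hg'
      have e1 : (r * a + s * c) * ((Int.gcd q (ε - p) : ℕ) : ℤ) =
          r * (a * ((Int.gcd q (ε - p) : ℕ) : ℤ)) + s * (c * ((Int.gcd q (ε - p) : ℕ) : ℤ)) := by
        ring
      have e2 : ε * c * ((Int.gcd q (ε - p) : ℕ) : ℤ) =
          ε * (c * ((Int.gcd q (ε - p) : ℕ) : ℤ)) := by ring
      rw [e1, e2, ← hq, ← hp]
      have hs : s = 2 * ε - p := by linarith
      rw [hs]
      linear_combination -hdet + p * hs + hε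

theorem exists_conj_c_eq_zero (γ : SL(2, ℤ))
    (h : (γ : Matrix (Fin 2) (Fin 2) ℤ).trace ^ 2 = 4) :
    ∃ δ : SL(2, ℤ), (δ⁻¹ * γ * δ) 1 0 = 0 := by
  rw [Matrix.trace_fin_two] at h
  have hdet := γ.det_coe
  rw [Matrix.det_fin_two] at hdet
  have htr : γ 0 0 + γ 1 1 = 2 * 1 ∨ γ 0 0 + γ 1 1 = 2 * (-1) := by
    have h' : (γ 0 0 + γ 1 1 - 2) * (γ 0 0 + γ 1 1 + 2) = 0 := by linear_combination h
    rcases mul_eq_zero.mp h' with h1 | h1
    · left; linarith
    · right; linarith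
  have key : ∃ ε : ℤ, ε * ε = 1 ∧ γ 0 0 + γ 1 1 = 2 * ε := by
    rcases htr with h1 | h1
    · exact ⟨1, by norm_num, h1⟩
    · exact ⟨-1, by norm_num, h1⟩
  obtain ⟨ε, hε, htr'⟩ := key
  obtain ⟨a, c, hac, e1, e2⟩ := exists_coprime_eigen (γ 0 0) (γ 0 1) (γ 1 0) (γ 1 1) ε hε htr'
    (by linarith)
  obtain ⟨x, y, hxy⟩ := hac
  refine ⟨⟨!![a, -y; c, x], by rw [Matrix.det_fin_two_of]; linarith⟩, ?_⟩
  rw [Matrix.SpecialLinearGroup.coe_mul, Matrix.SpecialLinearGroup.coe_mul,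
    Matrix.SpecialLinearGroup.coe_inv, Matrix.adjugate_fin_two]
  simp only [Matrix.mul_apply, Fin.sum_univ_two, Matrix.of_apply, Matrix.cons_val', Matrix.cons_val_zero,
    Matrix.cons_val_one, Matrix.cons_val_fin_one]
  linear_combination (-c) * e1 + a * e2

/-- matrix form: an element with `c = 0` is `± T ^ m` -/
theorem eq_T_zpow_of_c_eq_zero (g : SL(2, ℤ)) (hc : g 1 0 = 0) :
    ∃ m : ℤ, g = ModularGroup.T ^ m ∨ g = -(ModularGroup.T ^ m) := by
  have had := g.det_coe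
  replace had : g 0 0 * g 1 1 = 1 := by rw [Matrix.det_fin_two, hc] at had; linarith
  rcases Int.eq_one_or_neg_one_of_mul_eq_one' had with (⟨ha, hd⟩ | ⟨ha, hd⟩)
  · refine ⟨g 0 1, Or.inl ?_⟩
    ext i j; fin_cases i <;> fin_cases j <;>
      simp [ha, hc, hd, ModularGroup.coe_T_zpow, show (1 : Fin (0 + 2)) = (1 : Fin 2) from rfl]
  · refine ⟨-(g 0 1), Or.inr ?_⟩
    ext i j; fin_cases i <;> fin_cases j <;>
      simp [ha, hc, hd, ModularGroup.coe_T_zpow, show (1 : Fin (0 + 2)) = (1 : Fin 2) from rfl]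

/-- parabolic elements of `SL(2,ℤ)` are conjugate to `± T ^ m` -/
theorem parabolic_conj (γ : SL(2, ℤ))
    (h : (γ : Matrix (Fin 2) (Fin 2) ℤ).trace ^ 2 = 4) :
    ∃ (δ : SL(2, ℤ)) (m : ℤ), γ = δ * ModularGroup.T ^ m * δ⁻¹ ∨
      γ = δ * (-(ModularGroup.T ^ m)) * δ⁻¹ := by
  obtain ⟨δ, hδ⟩ := exists_conj_c_eq_zero γ h
  obtain ⟨m, hm⟩ := eq_T_zpow_of_c_eq_zero _ hδ
  refine ⟨δ, m, ?_⟩
  rcases hm with hm | hm
  · left
    rw [← hm]
    group
  · right
    rw [← hm]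
    group

/-! ### periods of parabolic elements vanish -/

theorem tendsto_T_zpow_smul (n : ℤ) :
    Tendsto (fun w : ℍ => (ModularGroup.T ^ n) • w) atImInfty atImInfty := by
  unfold atImInfty
  rw [tendsto_comap_iff]
  have : (im ∘ fun w : ℍ => (ModularGroup.T ^ n) • w) = im := by
    funext w
    exact ModularGroup.im_T_zpow_smul w n
  rw [this]
  exact tendsto_comap

theorem periodHom_mem_parabolicHoms {N : ℕ} {f : CuspForm (Gamma0 N) 2} {F : ℍ → ℂ}
    (hF : HasEquivariantPrimitive N f F) :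
    hF.2.2.1.periodHom ∈ parabolicHoms ℂ (Gamma0 N) ℂ := by
  rw [mem_parabolicHoms_iff]
  intro γ hγ
  rw [IsEquivariantPrimitive.periodHom_apply]
  obtain ⟨δ, hδ⟩ := exists_conj_c_eq_zero (γ : SL(2, ℤ)) hγ
  obtain ⟨n, hn⟩ := ModularGroup.exists_eq_T_zpow_of_c_eq_zero hδ
  obtain ⟨L, hL⟩ := hF.2.2.2 δ
  have key : ∀ w : ℍ, F (δ • ((ModularGroup.T ^ n) • w)) - F (δ • w) = hF.2.2.1.period γ := by
    intro w
    have h1 := hF.2.2.1.sub_eq_period γ (δ • w)
    rw [← h1, ← hn w, ← mul_smul, ← mul_smul]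
    congr 3
    group
  have h1 : Tendsto (fun w : ℍ => F (δ • ((ModularGroup.T ^ n) • w))) atImInfty (𝓝 L) :=
    hL.comp (tendsto_T_zpow_smul n)
  have h2 : Tendsto (fun w : ℍ => F (δ • ((ModularGroup.T ^ n) • w)) - F (δ • w)) atImInfty
      (𝓝 (L - L)) := h1.sub hL
  simp only [key, sub_self] at h2
  exact tendsto_nhds_unique tendsto_const_nhds h2

theorem periodMap_mem_parabolicHoms (N : ℕ) (f : CuspForm (Gamma0 N) 2) :
    periodMap N f ∈ parabolicHoms ℂ (Gamma0 N) ℂ := by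
  by_cases h : ∃ F : ℍ → ℂ, HasEquivariantPrimitive N f F
  · obtain ⟨F, hF⟩ := h
    obtain ⟨F₀, h₀, heq⟩ := periodMap_def N f hF
    rw [heq]
    exact periodHom_mem_parabolicHoms h₀
  · unfold periodMap
    rw [dif_neg h]
    exact Submodule.zero_mem _

theorem range_periodHomPair_le (N : ℕ) :
    LinearMap.range (periodHomPair N) ≤ parabolicHoms ℂ (Gamma0 N) ℂ := by
  by_cases hE : ExistsPeriodMapLinear N
  · obtain ⟨pml, hpml, heq⟩ := periodHomPair_def N hE
    rw [heq]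
    rintro _ ⟨⟨f, g⟩, rfl⟩
    rw [LinearMap.coprod_apply]
    simp only [LinearMap.comp_apply, LinearMap.add_apply, LinearMap.sub_apply, LinearMap.id_apply]
    have hf : pml f ∈ parabolicHoms ℂ (Gamma0 N) ℂ := by
      rw [hpml]; exact periodMap_mem_parabolicHoms N f
    have hg : pml g ∈ parabolicHoms ℂ (Gamma0 N) ℂ := by
      rw [hpml]; exact periodMap_mem_parabolicHoms N g
    exact Submodule.add_mem _
      (Submodule.add_mem _ hf (charInvolution_mem_parabolicHoms N ℂ ℂ hf))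
      (Submodule.sub_mem _ hg (charInvolution_mem_parabolicHoms N ℂ ℂ hg))
  · unfold periodHomPair
    rw [dif_neg hE]
    rw [LinearMap.range_zero]
    exact bot_le

end Fermat.Agent.S21_helper29_P2
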