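import Mathlib
import Fermat.Prelude.Def_ModularCurve_PeriodHomPair
import Fermat.Prelude.Def_ModularCurve_GenusNumerics
import Fermat.Agent.S21_helper11_Inj
import Fermat.Agent.S21_helper22_MM
import Fermat.Agent.S21_helper28_P5
import Fermat.Agent.S21_helper29_P2

set_option autoImplicit false
set_option linter.style.haveILetI false

open UpperHalfPlane Filter Topology CongruenceSubgroup ModularCurve ModularCurve.Period
open scoped MatrixGroups ModularForm

namespace Fermat.Agent.S21_helper11

variable {N : ℕ} [NeZero N]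

theorem maxModStatement (N : ℕ) [NeZero N] : MaxModStatement N :=
  fun Ω h1 h2 h3 => Fermat.Agent.S21_helper22_MM.const_of_re_invariant N Ω h1 h2 h3

/-- Eichler–Shimura injectivity for the pair map (unconditional). -/
theorem periodHomPair_injective (N : ℕ) [NeZero N] : Function.Injective (periodHomPair N) :=
  injective_periodHomPair (maxModStatement N)

/-- cusp forms of weight 2 on `Γ₀(N)` form a finite-dimensional space -/
theorem finite_cuspForm (N : ℕ) [NeZero N] : Module.Finite ℂ (CuspForm (Gamma0 N) 2) := by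
  haveI : Module.Finite ℂ (parabolicHoms ℂ (Gamma0 N) ℂ) := (Fermat.Agent.S21_helper28_P5.P5 N).1
  -- the injective linear map `f ↦ periodHomPair (f, 0)` into the parabolic homs
  let ι : CuspForm (Gamma0 N) 2 →ₗ[ℂ] parabolicHoms ℂ (Gamma0 N) ℂ :=
    LinearMap.codRestrict (parabolicHoms ℂ (Gamma0 N) ℂ)
      ((periodHomPair N) ∘ₗ LinearMap.inl ℂ _ _)
      (fun f => Fermat.Agent.S21_helper29_P2.range_periodHomPair_le N ⟨(f, 0), rfl⟩)
  have hι : Function.Injective ι := by
    intro f g h
    have h1 : periodHomPair N (f, 0) = periodHomPair N (g, 0) := congrArg Subtype.val h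
    have h2 := periodHomPair_injective N h1
    exact (Prod.mk.inj h2).1
  exact Module.Finite.of_injective ι hι

/-- Upper bound for the dimension of `S₂(Γ₀(N))` (unconditional): `dim S₂ ≤ genusFormula N`. -/
theorem finrank_cuspForm_le (N : ℕ) [NeZero N] :
    (Module.finrank ℂ (CuspForm (Gamma0 N) 2) : ℚ) ≤ genusFormula N := by
  obtain ⟨hfin, hle⟩ := Fermat.Agent.S21_helper28_P5.P5 N
  haveI := hfin
  haveI := finite_cuspForm N
  let ι : (CuspForm (Gamma0 N) 2 × CuspForm (Gamma0 N) 2) →ₗ[ℂ] parabolicHoms ℂ (Gamma0 N) ℂ :=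
    LinearMap.codRestrict (parabolicHoms ℂ (Gamma0 N) ℂ) (periodHomPair N)
      (fun x => Fermat.Agent.S21_helper29_P2.range_periodHomPair_le N ⟨x, rfl⟩)
  have hι : Function.Injective ι := fun x y h =>
    periodHomPair_injective N (congrArg Subtype.val h)
  have h1 := LinearMap.finrank_le_finrank_of_injective hι
  rw [Module.finrank_prod] at h1
  have h2 : ((Module.finrank ℂ (CuspForm (Gamma0 N) 2)
      + Module.finrank ℂ (CuspForm (Gamma0 N) 2) : ℕ) : ℚ)
      ≤ (Module.finrank ℂ (parabolicHoms ℂ (Gamma0 N) ℂ) : ℚ) := by exact_mod_cast h1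
  push_cast at h2
  linarith

/-- The Eichler–Shimura isomorphism, given the dimension formula. -/
theorem eichlerShimura_of_dim (N : ℕ) [NeZero N]
    (hdim : (Module.finrank ℂ (CuspForm (Gamma0 N) 2) : ℚ) = genusFormula N) :
    Function.Injective (periodHomPair N)
      ∧ LinearMap.range (periodHomPair N) = parabolicHoms ℂ (Gamma0 N) ℂ := by
  refine ⟨periodHomPair_injective N, ?_⟩
  obtain ⟨hfin, hle⟩ := Fermat.Agent.S21_helper28_P5.P5 N
  haveI := hfin
  haveI := finite_cuspForm N
  have h1 : Module.finrank ℂ (LinearMap.range (periodHomPair N))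
      = Module.finrank ℂ (CuspForm (Gamma0 N) 2 × CuspForm (Gamma0 N) 2) :=
    LinearMap.finrank_range_of_inj (periodHomPair_injective N)
  have h2 : Module.finrank ℂ (CuspForm (Gamma0 N) 2 × CuspForm (Gamma0 N) 2)
      = Module.finrank ℂ (CuspForm (Gamma0 N) 2) + Module.finrank ℂ (CuspForm (Gamma0 N) 2) :=
    Module.finrank_prod
  have h3 : Module.finrank ℂ (parabolicHoms ℂ (Gamma0 N) ℂ)
      ≤ Module.finrank ℂ (LinearMap.range (periodHomPair N)) := by
    rw [h1, h2]
    have : (Module.finrank ℂ (parabolicHoms ℂ (Gamma0 N) ℂ) : ℚ)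
        ≤ ((Module.finrank ℂ (CuspForm (Gamma0 N) 2)
          + Module.finrank ℂ (CuspForm (Gamma0 N) 2) : ℕ) : ℚ) := by
      push_cast
      rw [hdim]
      linarith
    exact_mod_cast this
  exact Submodule.eq_of_le_of_finrank_le (Fermat.Agent.S21_helper29_P2.range_periodHomPair_le N) h3

end Fermat.Agent.S21_helper11
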