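import Mathlib
import Fermat.Agent.G_helper24_G1cCOMM
import Fermat.Agent.S21
import Fermat.Agent.G_helper23_G1b
import Fermat.Prelude.Thm_CuspForm_heckeTLin_comm

/-!
# Project G, piece G1c-COMM, part 2: the Hecke operators commute on parabolic homomorphisms

Given the Hecke-equivariance of the period map (piece G1b, here the hypothesis
`PG_G1c_PeriodHecke N`, discharged at the end by helper23's `PG_period_hecke`), the operators `PG_heckeHom N ℓ` commute on parabolic homomorphisms with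
complex coefficients (`PG_G1c_comm_complex`; Eichler–Shimura `S21` + commutation on cusp forms +
`PG_heckeHom_charInvolution`) and with integral coefficients (`PG_G1c_comm_int`).
-/

set_option autoImplicit false
set_option linter.style.haveILetI false
set_option linter.unusedSectionVars false
set_option linter.unusedVariables false

open UpperHalfPlane ModularForm CongruenceSubgroup AlgebraicCurve
open scoped MatrixGroups ModularForm Manifold TensorProduct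
open Fermat.Agent.G_helper6_Defs Fermat.Agent.G_helper3_G1aHECKEHOM
open Fermat.Agent.G_helper24_G1cCOMM

noncomputable section

namespace Fermat.Agent.G_helper24_G1cCOMM2

open ModularCurve ModularCurve.Period

/-- The statement of piece G1b: the period map is Hecke-equivariant. -/
def PG_G1c_PeriodHecke (N : ℕ) [NeZero N] : Prop :=
  ∀ (ℓ : ℕ) (hℓ : ℓ.Prime) (hℓN : ¬ ℓ ∣ N) (f : CuspForm (Gamma0 N) 2),
    haveI : NeZero ℓ := ⟨hℓ.ne_zero⟩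
    ModularCurve.periodMap N (CuspForm.heckeTLin 2 hℓ hℓN f) =
      PG_heckeHom N ℓ (ModularCurve.periodMap N f)

section

variable (N : ℕ) [NeZero N]

/-- `PG_heckeHom N ℓ` as an additive map. -/
def PG_G1c_T (ℓ : ℕ) [NeZero ℓ] (A : Type*) [AddCommGroup A] :
    (Additive (Gamma0 N) →+ A) →+ (Additive (Gamma0 N) →+ A) :=
  AddMonoidHom.mk' (PG_heckeHom N ℓ) (PG_heckeHom_add N ℓ)

theorem PG_G1c_T_apply (ℓ : ℕ) [NeZero ℓ] (A : Type*) [AddCommGroup A]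
    (c : Additive (Gamma0 N) →+ A) : PG_G1c_T N ℓ A c = PG_heckeHom N ℓ c := rfl

/-- `charInvolution` as an additive map. -/
def PG_G1c_I : (Additive (Gamma0 N) →+ ℂ) →+ (Additive (Gamma0 N) →+ ℂ) :=
  (charInvolution N ℂ ℂ).toAddMonoidHom

theorem PG_G1c_I_apply (c : Additive (Gamma0 N) →+ ℂ) :
    PG_G1c_I N c = charInvolution N ℂ ℂ c := rfl

variable {N}

theorem PG_G1c_comm_period (hper : PG_G1c_PeriodHecke N) (ℓ ℓ' : ℕ) [NeZero ℓ] [NeZero ℓ']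
    (hℓ : ℓ.Prime) (hℓ' : ℓ'.Prime) (hℓN : ¬ ℓ ∣ N) (hℓ'N : ¬ ℓ' ∣ N)
    (f : CuspForm (Gamma0 N) 2) :
    PG_heckeHom N ℓ (PG_heckeHom N ℓ' (periodMap N f)) =
      PG_heckeHom N ℓ' (PG_heckeHom N ℓ (periodMap N f)) := by
  have h1 := hper ℓ hℓ hℓN
  have h2 := hper ℓ' hℓ' hℓ'N
  rw [← h2 f, ← h1 f, ← h1, ← h2]
  congr 1
  exact LinearMap.congr_fun (CuspForm.heckeTLin_comm 2 hℓ hℓN hℓ' hℓ'N).eq f

theorem PG_G1c_comm_invol (ℓ ℓ' : ℕ) [NeZero ℓ] [NeZero ℓ']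
    (hℓ : ℓ.Prime) (hℓ' : ℓ'.Prime) (hℓN : ¬ ℓ ∣ N) (hℓ'N : ¬ ℓ' ∣ N)
    (c : Additive (Gamma0 N) →+ ℂ)
    (hc : PG_heckeHom N ℓ (PG_heckeHom N ℓ' c) = PG_heckeHom N ℓ' (PG_heckeHom N ℓ c)) :
    PG_heckeHom N ℓ (PG_heckeHom N ℓ' (charInvolution N ℂ ℂ c)) =
      PG_heckeHom N ℓ' (PG_heckeHom N ℓ (charInvolution N ℂ ℂ c)) := by
  rw [PG_heckeHom_charInvolution N ℓ' hℓ' hℓ'N, PG_heckeHom_charInvolution N ℓ hℓ hℓN,
    PG_heckeHom_charInvolution N ℓ hℓ hℓN, PG_heckeHom_charInvolution N ℓ' hℓ' hℓ'N, hc]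

/-- **The Hecke operators commute on parabolic homomorphisms with complex coefficients.** -/
theorem PG_G1c_comm_complex (hper : PG_G1c_PeriodHecke N) (ℓ ℓ' : ℕ) [NeZero ℓ] [NeZero ℓ']
    (hℓ : ℓ.Prime) (hℓ' : ℓ'.Prime) (hℓN : ¬ ℓ ∣ N) (hℓ'N : ¬ ℓ' ∣ N)
    (c : Additive (Gamma0 N) →+ ℂ) (hc : IsParabolicHom (Gamma0 N) c) :
    PG_heckeHom N ℓ (PG_heckeHom N ℓ' c) = PG_heckeHom N ℓ' (PG_heckeHom N ℓ c) := by
  -- the set of `c` on which the two operators commute is an additive subgroup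
  have hzero : PG_heckeHom N ℓ (PG_heckeHom N ℓ' (0 : Additive (Gamma0 N) →+ ℂ)) =
      PG_heckeHom N ℓ' (PG_heckeHom N ℓ 0) := by
    rw [← PG_G1c_T_apply N ℓ, ← PG_G1c_T_apply N ℓ', ← PG_G1c_T_apply N ℓ',
      ← PG_G1c_T_apply N ℓ]
    simp only [map_zero]
  have hadd : ∀ x y : Additive (Gamma0 N) →+ ℂ,
      PG_heckeHom N ℓ (PG_heckeHom N ℓ' x) = PG_heckeHom N ℓ' (PG_heckeHom N ℓ x) →
      PG_heckeHom N ℓ (PG_heckeHom N ℓ' y) = PG_heckeHom N ℓ' (PG_heckeHom N ℓ y) →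
      PG_heckeHom N ℓ (PG_heckeHom N ℓ' (x + y)) =
        PG_heckeHom N ℓ' (PG_heckeHom N ℓ (x + y)) := by
    intro x y hx hy
    rw [PG_heckeHom_add N ℓ', PG_heckeHom_add N ℓ, PG_heckeHom_add N ℓ, PG_heckeHom_add N ℓ',
      hx, hy]
  have hneg : ∀ x : Additive (Gamma0 N) →+ ℂ,
      PG_heckeHom N ℓ (PG_heckeHom N ℓ' x) = PG_heckeHom N ℓ' (PG_heckeHom N ℓ x) →
      PG_heckeHom N ℓ (PG_heckeHom N ℓ' (-x)) = PG_heckeHom N ℓ' (PG_heckeHom N ℓ (-x)) := by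
    intro x hx
    rw [← PG_G1c_T_apply N ℓ, ← PG_G1c_T_apply N ℓ', ← PG_G1c_T_apply N ℓ',
      ← PG_G1c_T_apply N ℓ, map_neg, map_neg, map_neg, map_neg, PG_G1c_T_apply,
      PG_G1c_T_apply, PG_G1c_T_apply, PG_G1c_T_apply, hx]
  -- Eichler–Shimura
  have hS21 := (Fermat.Agent.S21.result N).2
  have hmem : c ∈ LinearMap.range (periodHomPair N) := by
    rw [hS21]
    exact hc
  obtain ⟨⟨f, g⟩, rfl⟩ := hmem
  by_cases h : ExistsPeriodMapLinear N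
  · obtain ⟨pml, hpml, heq⟩ := periodHomPair_def N h
    rw [heq]
    simp only [LinearMap.coprod_apply, LinearMap.comp_apply, LinearMap.add_apply,
      LinearMap.sub_apply, LinearMap.id_apply, hpml]
    rw [sub_eq_add_neg]
    have hf := PG_G1c_comm_period hper ℓ ℓ' hℓ hℓ' hℓN hℓ'N f
    have hg := PG_G1c_comm_period hper ℓ ℓ' hℓ hℓ' hℓN hℓ'N g
    exact hadd _ _ (hadd _ _ hf (PG_G1c_comm_invol ℓ ℓ' hℓ hℓ' hℓN hℓ'N _ hf))
      (hadd _ _ hg (hneg _ (PG_G1c_comm_invol ℓ ℓ' hℓ hℓ' hℓN hℓ'N _ hg)))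
  · have h0 : periodHomPair N = 0 := by
      unfold periodHomPair
      rw [dif_neg h]
    rw [h0, LinearMap.zero_apply]
    exact hzero

theorem PG_G1c_castHom_injective (N : ℕ) : Function.Injective (PG_castHom N) := by
  intro c c' h
  refine AddMonoidHom.ext fun γ => ?_
  have := DFunLike.congr_fun h γ
  rw [PG_castHom_apply, PG_castHom_apply] at this
  exact_mod_cast this

theorem PG_G1c_castHom_hecke (ℓ : ℕ) [NeZero ℓ] (c : Additive (Gamma0 N) →+ ℤ) :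
    PG_castHom N (PG_heckeHom N ℓ c) = PG_heckeHom N ℓ (PG_castHom N c) :=
  (PG_heckeHom_comp N ℓ (Int.castAddHom ℂ) c).symm

/-- **The Hecke operators commute on parabolic homomorphisms with integral coefficients.** -/
theorem PG_G1c_comm_int (hper : PG_G1c_PeriodHecke N) (ℓ ℓ' : ℕ) [NeZero ℓ] [NeZero ℓ']
    (hℓ : ℓ.Prime) (hℓ' : ℓ'.Prime) (hℓN : ¬ ℓ ∣ N) (hℓ'N : ¬ ℓ' ∣ N)
    (c : Additive (Gamma0 N) →+ ℤ) (hc : IsParabolicHom (Gamma0 N) c) :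
    PG_heckeHom N ℓ (PG_heckeHom N ℓ' c) = PG_heckeHom N ℓ' (PG_heckeHom N ℓ c) := by
  apply PG_G1c_castHom_injective N
  rw [PG_G1c_castHom_hecke, PG_G1c_castHom_hecke, PG_G1c_castHom_hecke, PG_G1c_castHom_hecke]
  refine PG_G1c_comm_complex hper ℓ ℓ' hℓ hℓ' hℓN hℓ'N _ ?_
  intro γ hγ
  show ((c (Additive.ofMul γ) : ℤ) : ℂ) = 0
  rw [hc γ hγ, Int.cast_zero]

end

/-! ### The unconditional statements -/

theorem PG_G1c_periodHecke (N : ℕ) [NeZero N] : PG_G1c_PeriodHecke N :=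
  fun ℓ hℓ hℓN f => Fermat.Agent.G_helper23_G1b.PG_period_hecke N ℓ hℓ hℓN f

/-- **G1c**: the Hecke operators commute on integral parabolic homomorphisms. -/
theorem PG_heckeHom_comm (N ℓ ℓ' : ℕ) [NeZero N] [NeZero ℓ] [NeZero ℓ'] (hℓ : ℓ.Prime)
    (hℓ' : ℓ'.Prime) (hℓN : ¬ ℓ ∣ N) (hℓ'N : ¬ ℓ' ∣ N)
    (c : Additive (Gamma0 N) →+ ℤ) (hc : ModularCurve.Period.IsParabolicHom (Gamma0 N) c) :
    PG_heckeHom N ℓ (PG_heckeHom N ℓ' c) = PG_heckeHom N ℓ' (PG_heckeHom N ℓ c) :=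
  PG_G1c_comm_int (PG_G1c_periodHecke N) ℓ ℓ' hℓ hℓ' hℓN hℓ'N c hc

/-- The same with complex coefficients. -/
theorem PG_heckeHom_comm_complex (N ℓ ℓ' : ℕ) [NeZero N] [NeZero ℓ] [NeZero ℓ'] (hℓ : ℓ.Prime)
    (hℓ' : ℓ'.Prime) (hℓN : ¬ ℓ ∣ N) (hℓ'N : ¬ ℓ' ∣ N)
    (c : Additive (Gamma0 N) →+ ℂ) (hc : ModularCurve.Period.IsParabolicHom (Gamma0 N) c) :
    PG_heckeHom N ℓ (PG_heckeHom N ℓ' c) = PG_heckeHom N ℓ' (PG_heckeHom N ℓ c) :=
  PG_G1c_comm_complex (PG_G1c_periodHecke N) ℓ ℓ' hℓ hℓ' hℓN hℓ'N c hc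

end Fermat.Agent.G_helper24_G1cCOMM2
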