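import Mathlib

set_option autoImplicit false

/-! # Project G, piece G8c-ORBIT: elements with finite `Aut(Ω/K)`-orbit are algebraic

`Ω` an algebraically closed field, `K ⊆ Ω` an infinite subfield.  If `x : Ω` is transcendental
over `K`, then for every `c : K` there is a `K`-automorphism of `Ω` with `x ↦ x + c`
(translation on a transcendence basis containing `x`, extended to the algebraic closure).
Hence the orbit of `x` under `Aut(Ω/K)` is infinite.
-/

namespace Fermat.Agent.G_helper24_ORBIT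

open MvPolynomial

section Translate

variable {ι : Type*} [DecidableEq ι] (K : Type*) [CommRing K]

/-- The translation `X i₀ ↦ X i₀ + c` of a polynomial ring, as an algebra endomorphism. -/
noncomputable def PG_ORBIT_shift (i₀ : ι) (c : K) : MvPolynomial ι K →ₐ[K] MvPolynomial ι K :=
  aeval (fun i => if i = i₀ then X i + C c else X i)

theorem PG_ORBIT_shift_X_self (i₀ : ι) (c : K) :
    PG_ORBIT_shift K i₀ c (X i₀) = X i₀ + C c := by
  simp [PG_ORBIT_shift]

theorem PG_ORBIT_shift_X_ne (i₀ : ι) (c : K) {i : ι} (hi : i ≠ i₀) :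
    PG_ORBIT_shift K i₀ c (X i) = X i := by
  simp [PG_ORBIT_shift, hi]

theorem PG_ORBIT_shift_comp (i₀ : ι) (c d : K) (h : c + d = 0) :
    (PG_ORBIT_shift K i₀ c).comp (PG_ORBIT_shift K i₀ d) = AlgHom.id K _ := by
  apply MvPolynomial.algHom_ext
  intro i
  by_cases hi : i = i₀
  · subst hi
    rw [AlgHom.comp_apply, PG_ORBIT_shift_X_self, map_add, PG_ORBIT_shift_X_self]
    simp only [AlgHom.coe_id, id_eq]
    have : (PG_ORBIT_shift K i c) (C d) = C d := by
      simp [PG_ORBIT_shift]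
    rw [this, add_assoc, ← C_add, h, C_0, add_zero]
  · rw [AlgHom.comp_apply, PG_ORBIT_shift_X_ne K i₀ d hi, PG_ORBIT_shift_X_ne K i₀ c hi]
    rfl

/-- The translation as an algebra automorphism. -/
noncomputable def PG_ORBIT_shiftEquiv (i₀ : ι) (c : K) :
    MvPolynomial ι K ≃ₐ[K] MvPolynomial ι K :=
  AlgEquiv.ofAlgHom (PG_ORBIT_shift K i₀ c) (PG_ORBIT_shift K i₀ (-c))
    (PG_ORBIT_shift_comp K i₀ c (-c) (add_neg_cancel c))
    (PG_ORBIT_shift_comp K i₀ (-c) c (neg_add_cancel c))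

theorem PG_ORBIT_shiftEquiv_X_self (i₀ : ι) (c : K) :
    PG_ORBIT_shiftEquiv K i₀ c (X i₀) = X i₀ + C c :=
  PG_ORBIT_shift_X_self K i₀ c

end Translate

/-- For `x` transcendental over `K` in an algebraically closed field `Ω` and `c : K` there is a
`K`-automorphism of `Ω` sending `x` to `x + c`. -/
theorem PG_ORBIT_exists_algEquiv_add {K Ω : Type*} [Field K] [Field Ω] [Algebra K Ω]
    [IsAlgClosed Ω] (x : Ω) (hx : Transcendental K x) (c : K) :
    ∃ σ : Ω ≃ₐ[K] Ω, σ x = x + algebraMap K Ω c := by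
  classical
  -- a transcendence basis containing `x`
  have hind : AlgebraicIndepOn K id ({x} : Set Ω) := by
    have : AlgebraicIndependent K (fun i : ({x} : Set Ω) => (i : Ω)) := by
      rw [algebraicIndependent_singleton_iff (⟨x, rfl⟩ : ({x} : Set Ω))]
      exact hx
    exact this
  obtain ⟨t, hxt, ht⟩ := exists_isTranscendenceBasis_superset hind
  have hxmem : x ∈ t := hxt rfl
  let i₀ : t := ⟨x, hxmem⟩
  let S := Algebra.adjoin K (Set.range ((↑) : t → Ω))
  have : IsAlgClosure S Ω := IsAlgClosed.isAlgClosure_of_transcendence_basis _ ht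
  let e : MvPolynomial t K ≃ₐ[K] S := ht.1.aevalEquiv
  let τ : S ≃ₐ[K] S := (e.symm.trans (PG_ORBIT_shiftEquiv K i₀ c)).trans e
  let σ0 : Ω ≃+* Ω := IsAlgClosure.equivOfEquiv Ω Ω τ.toRingEquiv
  have hσ0 : ∀ s : S, σ0 (algebraMap S Ω s) = algebraMap S Ω (τ s) := fun s =>
    IsAlgClosure.equivOfEquiv_algebraMap Ω Ω τ.toRingEquiv s
  have hcomm : ∀ k : K, σ0 (algebraMap K Ω k) = algebraMap K Ω k := by
    intro k
    have h1 : algebraMap K Ω k = algebraMap S Ω (algebraMap K S k) := rfl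
    rw [h1, hσ0, AlgEquiv.commutes]
  refine ⟨AlgEquiv.ofRingEquiv (f := σ0) hcomm, ?_⟩
  change σ0 x = _
  have hx1 : x = algebraMap S Ω (e (X i₀)) := by
    rw [ht.1.algebraMap_aevalEquiv, aeval_X]
  have hτ : τ (e (X i₀)) = e (X i₀ + C c) := by
    simp only [τ, AlgEquiv.trans_apply, AlgEquiv.symm_apply_apply]
    rw [PG_ORBIT_shiftEquiv_X_self]
  conv_lhs => rw [hx1]
  rw [hσ0, hτ, ht.1.algebraMap_aevalEquiv, map_add, aeval_X, aeval_C]

/-- **Generic form.** An element of an algebraically closed field `Ω` with finite orbit under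
`Aut(Ω/K)`, `K` infinite, is algebraic over `K`. -/
theorem PG_ORBIT_isAlgebraic_of_finite_orbit {K Ω : Type*} [Field K] [Infinite K] [Field Ω]
    [Algebra K Ω] [IsAlgClosed Ω] (x : Ω)
    (h : (Set.range fun σ : Ω ≃ₐ[K] Ω => σ x).Finite) : IsAlgebraic K x := by
  by_contra hx
  have hx' : Transcendental K x := hx
  have hinj : Function.Injective (fun c : K => x + algebraMap K Ω c) := by
    intro a b hab
    exact (algebraMap K Ω).injective (add_left_cancel hab)
  have hsub : Set.range (fun c : K => x + algebraMap K Ω c) ⊆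
      Set.range fun σ : Ω ≃ₐ[K] Ω => σ x := by
    rintro _ ⟨c, rfl⟩
    obtain ⟨σ, hσ⟩ := PG_ORBIT_exists_algEquiv_add x hx' c
    exact ⟨σ, hσ⟩
  exact (Set.infinite_range_of_injective hinj) (h.subset hsub)

/-- **G8c-ORBIT.** A complex number with finite orbit under `Aut(ℂ/ℚ)` is algebraic. -/
theorem PG_isAlgebraic_of_finite_orbit (x : ℂ)
    (h : (Set.range fun σ : ℂ ≃ₐ[ℚ] ℂ => σ x).Finite) : IsAlgebraic ℚ x :=
  PG_ORBIT_isAlgebraic_of_finite_orbit x h

end Fermat.Agent.G_helper24_ORBIT
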