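import Mathlib

/-!
# Project G, piece G10-R2C: the 2x2 matrix bookkeeping for (R2)

* `PG_R2C_charpoly`: a 2x2 matrix representation `M` of a group all of whose elements satisfy a
  quadratic relation `M g ^ 2 - t M g + d g = 0` (with `d` a character), and containing at least
  one non-scalar matrix, has `charpoly (M g) = X ^ 2 - t X + d g` for every `t` satisfying the
  relation.
* `PG_R2C_diag`: the one-dimensional case: for characters `ψ, d` the diagonal representation
  `ψ ⊕ d ψ⁻¹` has the expected characteristic polynomials.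
-/

namespace Fermat.Agent.G_helper24_R2C

open Polynomial Matrix

/-- Cayley–Hamilton for 2x2 matrices, in explicit form. -/
theorem PG_R2C_cayley {K : Type*} [Field K] (A : Matrix (Fin 2) (Fin 2) K) :
    A * A - A.trace • A + A.det • (1 : Matrix (Fin 2) (Fin 2) K) = 0 := by
  ext i j
  fin_cases i <;> fin_cases j <;>
    simp [Matrix.mul_apply, Fin.sum_univ_two, Matrix.trace_fin_two, Matrix.det_fin_two] <;> ring

/-- A non-scalar 2x2 matrix satisfying `A² - t A + d = 0` has trace `t` and determinant `d`. -/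
theorem PG_R2C_nonscalar {K : Type*} [Field K] (A : Matrix (Fin 2) (Fin 2) K)
    (hA : ∀ c : K, A ≠ c • (1 : Matrix (Fin 2) (Fin 2) K)) (t d : K)
    (h : A * A - t • A + d • (1 : Matrix (Fin 2) (Fin 2) K) = 0) :
    A.trace = t ∧ A.det = d := by
  have hc := PG_R2C_cayley A
  have hsub : (t - A.trace) • A = (d - A.det) • (1 : Matrix (Fin 2) (Fin 2) K) := by
    have h1 : A * A = t • A - d • (1 : Matrix (Fin 2) (Fin 2) K) := by
      rw [← sub_eq_zero]; rw [← h]; abel
    have h2 : A * A = A.trace • A - A.det • (1 : Matrix (Fin 2) (Fin 2) K) := by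
      rw [← sub_eq_zero]; rw [← hc]; abel
    have h3 : t • A - d • (1 : Matrix (Fin 2) (Fin 2) K)
        = A.trace • A - A.det • (1 : Matrix (Fin 2) (Fin 2) K) := by rw [← h1, h2]
    rw [sub_smul, sub_smul]
    rw [sub_eq_sub_iff_add_eq_add] at h3 ⊢
    rw [h3, add_comm]
  have htr : A.trace = t := by
    by_contra hne
    have hne' : t - A.trace ≠ 0 := sub_ne_zero.mpr (Ne.symm hne)
    refine hA ((t - A.trace)⁻¹ * (d - A.det)) ?_
    have := congrArg (fun B => (t - A.trace)⁻¹ • B) hsub
    simp only [smul_smul, inv_mul_cancel₀ hne', one_smul] at this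
    exact this
  refine ⟨htr, ?_⟩
  rw [htr, sub_self, zero_smul] at hsub
  have h00 := congrFun (congrFun hsub 0) 0
  simp at h00
  exact (sub_eq_zero.mp h00.symm).symm

theorem PG_R2C_charpoly {K : Type*} [Field K] {G : Type*} [Group G]
    (M : G →* Matrix (Fin 2) (Fin 2) K) (d : G →* Kˣ)
    (hrel : ∀ g : G, ∃ t : K, M g * M g - t • M g
      + ((d g : Kˣ) : K) • (1 : Matrix (Fin 2) (Fin 2) K) = 0)
    (hns : ∃ h : G, ∀ c : K, M h ≠ c • (1 : Matrix (Fin 2) (Fin 2) K)) (g : G) (t : K)
    (ht : M g * M g - t • M g + ((d g : Kˣ) : K) • (1 : Matrix (Fin 2) (Fin 2) K) = 0) :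
    (M g).charpoly = X ^ 2 - C t * X + C ((d g : Kˣ) : K) := by
  rw [Matrix.charpoly_fin_two]
  by_cases hg : ∀ c : K, M g ≠ c • (1 : Matrix (Fin 2) (Fin 2) K)
  · obtain ⟨h1, h2⟩ := PG_R2C_nonscalar (M g) hg t _ ht
    rw [h1, h2]
  · simp only [ne_eq, not_forall, not_not] at hg
    obtain ⟨c, hc⟩ := hg
    obtain ⟨h, hh⟩ := hns
    -- `c ≠ 0` since `M g` is invertible
    have hc0 : c ≠ 0 := by
      rintro rfl
      have h1 : M g * M g⁻¹ = 1 := by rw [← map_mul, mul_inv_cancel, map_one]
      rw [hc, zero_smul, zero_mul] at h1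
      have := congrFun (congrFun h1 0) 0
      simp at this
    -- `M (g * h) = c • M h` is not scalar
    have hgh : ∀ c' : K, M (g * h) ≠ c' • (1 : Matrix (Fin 2) (Fin 2) K) := by
      intro c' hc'
      rw [map_mul, hc, smul_mul_assoc, one_mul] at hc'
      refine hh (c⁻¹ * c') ?_
      have := congrArg (fun B => c⁻¹ • B) hc'
      simp only [smul_smul, inv_mul_cancel₀ hc0, one_smul] at this
      exact this
    obtain ⟨th, hth⟩ := hrel h
    obtain ⟨tgh, htgh⟩ := hrel (g * h)
    obtain ⟨-, hdh⟩ := PG_R2C_nonscalar (M h) hh th _ hth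
    obtain ⟨-, hdgh⟩ := PG_R2C_nonscalar (M (g * h)) hgh tgh _ htgh
    -- determinants: `d (g h) = c² d h`
    have hdet : (M (g * h)).det = c ^ 2 * (M h).det := by
      rw [map_mul, hc, smul_mul_assoc, one_mul, Matrix.det_smul]
      simp
    have hdg : ((d g : Kˣ) : K) = c ^ 2 := by
      have h1 : ((d (g * h) : Kˣ) : K) = ((d g : Kˣ) : K) * ((d h : Kˣ) : K) := by
        rw [map_mul, Units.val_mul]
      have h2 : ((d g : Kˣ) : K) * ((d h : Kˣ) : K) = c ^ 2 * ((d h : Kˣ) : K) := by
        rw [← h1, ← hdgh, hdet, hdh]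
      exact mul_right_cancel₀ (Units.ne_zero (d h)) h2
    -- the relation for `g`: `c² - t c + c² = 0`, so `t = 2 c`
    have hrelc : c * c - t * c + ((d g : Kˣ) : K) = 0 := by
      have h1 := congrFun (congrFun ht 0) 0
      rw [hc] at h1
      simpa using h1
    have htc : t = 2 * c := by
      rw [hdg] at hrelc
      have h1 : c * (2 * c - t) = 0 := by linear_combination hrelc
      rcases mul_eq_zero.mp h1 with h2 | h2
      · exact absurd h2 hc0
      · exact (sub_eq_zero.mp h2).symm
    have htr : (M g).trace = t := by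
      rw [hc, htc, Matrix.trace_fin_two]
      simp [two_mul]
    have hdt : (M g).det = ((d g : Kˣ) : K) := by
      rw [hc, hdg, Matrix.det_fin_two]
      simp [pow_two]
    rw [htr, hdt]

theorem PG_R2C_diag {K : Type*} [Field K] {G : Type*} [Group G] (ψ : G →* Kˣ) (d : G →* Kˣ) :
    ∃ M : G →* Matrix (Fin 2) (Fin 2) K, (∀ g, ψ g = 1 → d g = 1 → M g = 1) ∧
      ∀ (g : G) (t : K), ((ψ g : Kˣ) : K) * ((ψ g : Kˣ) : K) - t * ((ψ g : Kˣ) : K)
        + ((d g : Kˣ) : K) = 0 →
        (M g).charpoly = X ^ 2 - C t * X + C ((d g : Kˣ) : K) := by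
  refine ⟨{ toFun := fun g => Matrix.diagonal ![((ψ g : Kˣ) : K), ((d g : Kˣ) : K) / ((ψ g : Kˣ) : K)]
            map_one' := ?_
            map_mul' := ?_ }, ?_, ?_⟩
  · ext i j
    fin_cases i <;> fin_cases j <;> simp
  · intro a b
    rw [Matrix.diagonal_mul_diagonal]
    congr 1
    ext i
    fin_cases i
    · simp
    · simp only [map_mul, Units.val_mul]
      have ha := Units.ne_zero (ψ a)
      have hb := Units.ne_zero (ψ b)
      simp
      field_simp
  · intro g h1 h2
    ext i j
    fin_cases i <;> fin_cases j <;> simp [h1, h2]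
  · intro g t ht
    have ha := Units.ne_zero (ψ g)
    rw [Matrix.charpoly_fin_two]
    have htr : (Matrix.diagonal ![((ψ g : Kˣ) : K), ((d g : Kˣ) : K) / ((ψ g : Kˣ) : K)]).trace = t := by
      rw [Matrix.trace_fin_two]
      simp only [Matrix.diagonal_apply_eq, Matrix.cons_val_zero, Matrix.cons_val_one]
      field_simp
      linear_combination ht
    have hdt : (Matrix.diagonal ![((ψ g : Kˣ) : K), ((d g : Kˣ) : K) / ((ψ g : Kˣ) : K)]).det
        = ((d g : Kˣ) : K) := by
      rw [Matrix.det_fin_two]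
      simp only [Matrix.diagonal_apply_eq, Matrix.cons_val_zero, Matrix.cons_val_one]
      simp
      field_simp
    simp only [MonoidHom.coe_mk, OneHom.coe_mk]
    rw [htr, hdt]

end Fermat.Agent.G_helper24_R2C
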