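import Fermat.Agent.G_helper25_G4PLUG
import Fermat.Agent.G_helper16_G5f
import Fermat.Agent.S20_helper24_Dd

/-!
# Project G, piece G4: the dimension count (DEP) and the final statement (helper25)

* `PG_G4D_depf` : any `μ + 1` forms of the same weight `k` on `Γ₀(N)` are linearly dependent over
  the level-one forms of weight `12 t`, `t = k μ + 2`: otherwise
  `(μ + 1) t ≤ (μ + 1) dim M_{12 t}(SL₂ℤ) ≤ dim M_{12 t + k}(Γ₀(N)) ≤ (12 t + k) μ / 12 + 1`
  (Sturm bound `D_sturm` of S20).
* `PG_G4D_an1` : `PG_AN1 N`, i.e. G4.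
-/

set_option autoImplicit false

open UpperHalfPlane ModularForm CongruenceSubgroup AlgebraicCurve
open scoped MatrixGroups ModularForm Manifold
open Fermat.Agent.G_helper6_Defs Fermat.Agent.S20 Fermat.Agent.S20_helper10_DDefs
open Fermat.Agent.G_helper25_G4FIN Fermat.Agent.G_helper25_G4PLUG

namespace Fermat.Agent.G_helper25_G4DEP

/-- **DEP** (dimension count). -/
theorem PG_G4D_depf (N : ℕ) [NeZero N] : PG_G4F_DEP N := by
  intro k A hA
  by_contra hcon
  push Not at hcon
  set t : ℕ := k.toNat * mu N + 2 with ht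
  set w : ℤ := 12 * (t : ℤ) + k with hw
  have hwk : w - k = ((12 * t : ℕ) : ℤ) := by rw [hw]; push_cast; ring
  have hind : ∀ a : Fin (mu N + 1) → ℍ → ℂ, (∀ j, IsMF1 (w - k) (a j)) →
      ∑ j, a j * A j = 0 → ∀ j, a j = 0 := by
    intro a ha hsum
    by_contra h
    push Not at h
    exact hcon (w - k) a ha h hsum
  have h1 := Fermat.Agent.S20_helper24_Dd.D_gb_lower (N := N) (J := Fin (mu N + 1))
    (fun _ => k) A hA w hind
  have h2 := (Fermat.Agent.S20_helper13_Da.D_sturm N w).2
  have h3 : t ≤ Module.finrank ℂ (RS (w - k)) := by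
    rw [hwk]
    have := (Fermat.Agent.S20_helper13_Db.D_levelone (12 * t) ⟨6 * t, by ring⟩).2.1
    omega
  have h4 : (mu N + 1) * t ≤ Module.finrank ℂ (MS N w) := by
    refine le_trans ?_ h1
    rw [Finset.sum_const, Finset.card_univ, Fintype.card_fin, smul_eq_mul]
    exact Nat.mul_le_mul_left _ h3
  have h5 : (w * (mu N : ℤ)).toNat ≤ (12 * t + k.toNat) * mu N := by
    have hk : k ≤ (k.toNat : ℤ) := Int.self_le_toNat k
    have : w * (mu N : ℤ) ≤ (((12 * t + k.toNat) * mu N : ℕ) : ℤ) := by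
      push_cast
      rw [hw]
      exact mul_le_mul_of_nonneg_right (by linarith) (Int.natCast_nonneg _)
    omega
  have h6 : (w * (mu N : ℤ)).toNat / 12 ≤ t * mu N + k.toNat * mu N := by
    calc (w * (mu N : ℤ)).toNat / 12 ≤ ((12 * t + k.toNat) * mu N) / 12 := Nat.div_le_div_right h5
      _ ≤ t * mu N + k.toNat * mu N := by
        rw [Nat.div_le_iff_le_mul_add_pred (by norm_num)]
        nlinarith [Nat.zero_le (k.toNat * mu N), Nat.zero_le (t * mu N)]
  have h7 : (mu N + 1) * t = t * mu N + t := by ring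
  omega

/-- **G4**: a quotient of two forms of the same weight on `Γ₀(N)` with trivial character lies in
the function field `ℂ(j(q^d) : d ∣ N)`. -/
theorem PG_G4D_an1 (N : ℕ) [NeZero N] : PG_AN1 N :=
  PG_G4P_an1_of_depf N (PG_G4D_depf N) (Fermat.Agent.G_helper16_G5.PG_G5_an2 N)

end Fermat.Agent.G_helper25_G4DEP
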