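import Fermat.Agent.G_helper25_G4L1
import Fermat.Agent.S28_helper17_RELF

/-!
# Project G, piece G4 (quotients of forms lie in the function field): DEG + FINAL (helper25)

`K = ℂ(j)`, `L = ℂ((q))`, `Rat N` = the set of Laurent series realised as quotients of two forms
of the same weight on `Γ₀(N)`.

* `PG_G4F_DEP N`  : (hypothesis, helper1) any `μ + 1` forms of the same weight on `Γ₀(N)` are
  linearly dependent over the level-one forms.
* `PG_G4F_deg`    : any `μ + 1` elements of `Rat N` are `K`-linearly dependent.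
* `PG_G4F_INDEP N`: (hypothesis, G5) the function field contains `μ` elements which are
  `K`-linearly independent.
* `PG_G4F_an1`    : `PG_AN1 N` from `DEP`, `AN2` and `INDEP`.
-/

set_option autoImplicit false

open UpperHalfPlane ModularForm CongruenceSubgroup AlgebraicCurve
open scoped MatrixGroups ModularForm Manifold
open Fermat.Agent.G_helper6_Defs Fermat.Agent.S20 Fermat.Agent.S28_helper14_ADefs ModularCurve
open Fermat.Agent.S28_RELF Fermat.Agent.G_helper25_G4L1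

namespace Fermat.Agent.G_helper25_G4FIN

/-- (DEP) any `μ + 1` forms of the same weight on `Γ₀(N)` are linearly dependent over the
level-one forms. -/
def PG_G4F_DEP (N : ℕ) : Prop :=
  ∀ (k : ℤ) (A : Fin (mu N + 1) → ℍ → ℂ), (∀ j, IsMF N k (A j)) →
    ∃ (w : ℤ) (c : Fin (mu N + 1) → ℍ → ℂ),
      (∀ j, IsMF1 w (c j)) ∧ (∃ j, c j ≠ 0) ∧ ∑ j, c j * A j = 0

/-- the Laurent series which are quotients of two forms of the same weight on `Γ₀(N)`. -/
def PG_G4F_Rat (N : ℕ) : Set (LaurentSeries ℂ) :=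
  {x | ∃ (k : ℤ) (a b : ℍ → ℂ), IsMF N k a ∧ IsMF N k b ∧ b ≠ 0 ∧ x * PG_qLaur b = PG_qLaur a}

/-- (INDEP) the function field contains `μ` elements which are linearly independent over
`ℂ(j)`. -/
def PG_G4F_INDEP (N : ℕ) : Prop :=
  ∃ b : Fin (mu N) → LaurentSeries ℂ, (∀ i, b i ∈ PG_FC N) ∧
    ∀ κ : Fin (mu N) → LaurentSeries ℂ,
      (∀ i, κ i ∈ IntermediateField.adjoin ℂ {jqModC ℂ}) → ∑ i, κ i * b i = 0 → ∀ i, κ i = 0

theorem PG_G4F_qLaur_eq_qL (f : ℍ → ℂ) : PG_qLaur f = qL f := rfl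

/-! ### finite products of forms -/

theorem PG_G4F_isMF_prod {N : ℕ} [NeZero N] {ι : Type*} (s : Finset ι) (k : ι → ℤ)
    (b : ι → ℍ → ℂ) (hb : ∀ i ∈ s, IsMF N (k i) (b i)) :
    IsMF N (∑ i ∈ s, k i) (∏ i ∈ s, b i) := by
  classical
  induction s using Finset.induction_on with
  | empty => simpa using (IsMF1.one.isMF (N := N))
  | insert a s ha ih =>
    rw [Finset.prod_insert ha, Finset.sum_insert ha]
    exact (hb a (Finset.mem_insert_self a s)).mul
      (ih fun i hi => hb i (Finset.mem_insert_of_mem hi))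

theorem PG_G4F_an_prod {ι : Type*} (s : Finset ι) (f : ι → ℍ → ℂ) (h : ∀ i ∈ s, An (f i)) :
    An (∏ i ∈ s, f i) := by
  classical
  induction s using Finset.induction_on with
  | empty => simpa using an_one
  | insert a s ha ih =>
    rw [Finset.prod_insert ha]
    exact an_mul (h a (Finset.mem_insert_self a s))
      (ih fun i hi => h i (Finset.mem_insert_of_mem hi))

theorem PG_G4F_qL_prod {ι : Type*} (s : Finset ι) (f : ι → ℍ → ℂ) (h : ∀ i ∈ s, An (f i)) :
    qL (∏ i ∈ s, f i) = ∏ i ∈ s, qL (f i) := by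
  classical
  induction s using Finset.induction_on with
  | empty => simpa using qL_one
  | insert a s ha ih =>
    rw [Finset.prod_insert ha, Finset.prod_insert ha,
      qL_mul (h a (Finset.mem_insert_self a s))
        (PG_G4F_an_prod s f fun i hi => h i (Finset.mem_insert_of_mem hi)),
      ih fun i hi => h i (Finset.mem_insert_of_mem hi)]

theorem PG_G4F_qL_ne_zero {N : ℕ} [NeZero N] {k : ℤ} {b : ℍ → ℂ} (hb : IsMF N k b)
    (hb0 : b ≠ 0) : qL b ≠ 0 := fun h =>
  hb0 ((PG_G4L1_qLaur_eq_zero_iff (Fermat.Agent.S28_HD.nice_of_isMF hb)).1 h)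

/-! ### DEG -/

/-- a finite family of elements of `Rat N` has a common denominator. -/
theorem PG_G4F_common_denominator (N : ℕ) [NeZero N] {n : ℕ} (x : Fin n → LaurentSeries ℂ)
    (hx : ∀ j, x j ∈ PG_G4F_Rat N) :
    ∃ (k : ℤ) (A : Fin n → ℍ → ℂ) (B : ℍ → ℂ), (∀ j, IsMF N k (A j)) ∧ IsMF N k B ∧
      qL B ≠ 0 ∧ ∀ j, x j * qL B = qL (A j) := by
  classical
  choose k a b ha hb hb0 hab using hx
  refine ⟨∑ i, k i, fun j => a j * ∏ i ∈ Finset.univ.erase j, b i, ∏ i, b i, fun j => ?_, ?_, ?_,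
    fun j => ?_⟩
  · have h1 := (ha j).mul (PG_G4F_isMF_prod (Finset.univ.erase j) k b fun i _ => hb i)
    refine h1.cast ?_
    rw [Finset.add_sum_erase _ _ (Finset.mem_univ j)]
  · exact PG_G4F_isMF_prod Finset.univ k b fun i _ => hb i
  · rw [PG_G4F_qL_prod _ _ fun i _ => an_of_isMF (hb i)]
    exact Finset.prod_ne_zero_iff.2 fun i _ => PG_G4F_qL_ne_zero (hb i) (hb0 i)
  · rw [qL_mul (an_of_isMF (ha j)) (PG_G4F_an_prod _ _ fun i _ => an_of_isMF (hb i)),
      PG_G4F_qL_prod _ _ fun i _ => an_of_isMF (hb i),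
      PG_G4F_qL_prod _ _ fun i _ => an_of_isMF (hb i),
      ← Finset.mul_prod_erase _ _ (Finset.mem_univ j), ← mul_assoc]
    have := hab j
    rw [PG_G4F_qLaur_eq_qL, PG_G4F_qLaur_eq_qL] at this
    rw [this]

/-- **DEG**: any `μ + 1` elements of `Rat N` are linearly dependent over `ℂ(j)`. -/
theorem PG_G4F_deg (N : ℕ) [NeZero N] (hdep : PG_G4F_DEP N)
    (x : Fin (mu N + 1) → LaurentSeries ℂ) (hx : ∀ j, x j ∈ PG_G4F_Rat N) :
    ∃ κ : Fin (mu N + 1) → LaurentSeries ℂ,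
      (∀ j, κ j ∈ IntermediateField.adjoin ℂ {jqModC ℂ}) ∧ (∃ j, κ j ≠ 0) ∧
        ∑ j, κ j * x j = 0 := by
  obtain ⟨k, A, B, hA, -, hB0, hAB⟩ := PG_G4F_common_denominator N x hx
  obtain ⟨w, c, hc, ⟨j0, hj0⟩, hsum⟩ := hdep k A hA
  have hγ0 : qL (c j0) ≠ 0 := fun h =>
    hj0 ((PG_G4L1_qLaur_eq_zero_iff (Fermat.Agent.S28_HD.nice_of_isMF1 (hc j0))).1 h)
  -- the relation on `q`-expansions
  have hrel : ∑ j, qL (c j) * x j = 0 := by
    have h1 : qL (∑ j, c j * A j) = ∑ j, qL (c j) * qL (A j) := by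
      rw [qL_sum _ _ fun j _ => an_mul (an_of_isMF1 (hc j)) (an_of_isMF (hA j))]
      exact Finset.sum_congr rfl fun j _ => qL_mul (an_of_isMF1 (hc j)) (an_of_isMF (hA j))
    rw [hsum, qL_zero] at h1
    have h2 : (∑ j, qL (c j) * x j) * qL B = 0 := by
      rw [Finset.sum_mul, h1]
      exact Finset.sum_congr rfl fun j _ => by rw [mul_assoc, hAB j]
    exact (mul_eq_zero.1 h2).resolve_right hB0
  -- divide by `qL (c j0)`
  have hκ : ∀ j, ∃ κ ∈ IntermediateField.adjoin ℂ {jqModC ℂ}, κ * qL (c j0) = qL (c j) :=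
    fun j => PG_G4L1_adjoin_isMF1 (hc j) (hc j0) hj0
  choose κ hκK hκeq using hκ
  refine ⟨κ, hκK, ⟨j0, ?_⟩, ?_⟩
  · intro h0
    have := hκeq j0
    rw [h0, zero_mul] at this
    exact hγ0 this.symm
  · have h3 : qL (c j0) * ∑ j, κ j * x j = 0 := by
      rw [Finset.mul_sum, ← hrel]
      exact Finset.sum_congr rfl fun j _ => by rw [← hκeq j]; ring
    exact (mul_eq_zero.1 h3).resolve_left hγ0

/-! ### FINAL -/

/-- **G4 at level `N`** from the dimension count (DEP), `AN2` and the lower bound for the degree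
of the function field over `ℂ(j)` (INDEP). -/
theorem PG_G4F_an1 (N : ℕ) [NeZero N] (hdep : PG_G4F_DEP N) (h2 : PG_AN2 N)
    (hind : PG_G4F_INDEP N) : PG_AN1 N := by
  intro k a b ha hb hb0
  obtain ⟨β, hβF, hβind⟩ := hind
  have hK : IntermediateField.adjoin ℂ {jqModC ℂ} ≤ PG_FC N := PG_G4L1_adjoin_le N
  have hb' : IsMF N k b := (PG_G4L1_isForm_iff_isMF N k b).1 hb
  have ha' : IsMF N k a := (PG_G4L1_isForm_iff_isMF N k a).1 ha
  have hqb : qL b ≠ 0 := PG_G4F_qL_ne_zero hb' hb0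
  -- the quotient as a Laurent series
  set x : LaurentSeries ℂ := qL a / qL b with hxdef
  have hxb : x * qL b = qL a := div_mul_cancel₀ _ hqb
  have hxRat : x ∈ PG_G4F_Rat N := ⟨k, a, b, ha', hb', hb0, hxb⟩
  have hβRat : ∀ i, β i ∈ PG_G4F_Rat N := by
    intro i
    obtain ⟨k', a', b', ha1, hb1, hb10, hr⟩ := h2 ⟨β i, hβF i⟩
    exact ⟨k', a', b', (PG_G4L1_isForm_iff_isMF N k' a').1 ha1,
      (PG_G4L1_isForm_iff_isMF N k' b').1 hb1, hb10, hr⟩
  -- apply DEG to `(β, x)`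
  obtain ⟨κ, hκK, ⟨j1, hj1⟩, hsum⟩ := PG_G4F_deg N hdep (Fin.snoc β x)
    (fun j => by
      refine Fin.lastCases ?_ (fun i => ?_) j
      · simpa using hxRat
      · simpa using hβRat i)
  rw [Fin.sum_univ_castSucc] at hsum
  simp only [Fin.snoc_castSucc, Fin.snoc_last] at hsum
  have hlast : κ (Fin.last _) ≠ 0 := by
    intro h0
    rw [h0, zero_mul, add_zero] at hsum
    have hall := hβind (fun i => κ i.castSucc) (fun i => hκK _) hsum
    refine hj1 ?_
    refine Fin.lastCases ?_ (fun i => ?_) j1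
    · exact h0
    · exact hall i
  have hxF : x ∈ PG_FC N := by
    have hx : x = -(∑ i : Fin (mu N), κ i.castSucc * β i) / κ (Fin.last _) := by
      rw [eq_div_iff hlast]
      linear_combination hsum
    rw [hx]
    exact div_mem (neg_mem (sum_mem fun i _ => mul_mem (hK (hκK _)) (hβF i))) (hK (hκK _))
  exact ⟨⟨x, hxF⟩, hxb⟩

end Fermat.Agent.G_helper25_G4FIN
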