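import Fermat.Agent.S28_helper14_Defs

set_option autoImplicit false

noncomputable section

namespace Fermat.Agent.S28_helper14_Res

open ModularCurve

variable (ℓ : ℕ) [Fact ℓ.Prime]

/-- The ring `ℤ_(ℓ)` of the statement. -/
abbrev Rl : Type := ↥(GaloisRep.ratLocalizedAt ℓ)

theorem not_dvd_den (x : Rl ℓ) : ¬ ℓ ∣ (x : ℚ).den := by
  intro h
  have hx : (x : ℚ).den.Coprime ℓ := x.2
  have := Nat.Coprime.eq_one_of_dvd hx.symm h
  exact (Fact.out : ℓ.Prime).one_lt.ne' this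

theorem den_ne_zero (x : Rl ℓ) : (((x : ℚ).den : ℕ) : ZMod ℓ) ≠ 0 := by
  rw [Ne, ZMod.natCast_eq_zero_iff]
  exact not_dvd_den ℓ x

/-- The residue map `ℤ_(ℓ) → 𝔽_ℓ`. -/
def resR : Rl ℓ →+* ZMod ℓ where
  toFun x := ((x : ℚ) : ZMod ℓ)
  map_one' := by simp
  map_mul' x y := by
    simpa using Rat.cast_mul_of_ne_zero (α := ZMod ℓ) (den_ne_zero ℓ x) (den_ne_zero ℓ y)
  map_zero' := by simp
  map_add' x y := by
    simpa using Rat.cast_add_of_ne_zero (α := ZMod ℓ) (den_ne_zero ℓ x) (den_ne_zero ℓ y)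

theorem resR_apply (x : Rl ℓ) : resR ℓ x = ((x : ℚ) : ZMod ℓ) := rfl

theorem resR_surjective : Function.Surjective (resR ℓ) := by
  intro a
  obtain ⟨n, rfl⟩ := ZMod.natCast_zmod_surjective a
  exact ⟨(n : Rl ℓ), by simp⟩

theorem mem_ratLocalizedAt_of_not_dvd {q : ℚ} (h : ¬ ℓ ∣ q.den) :
    q ∈ GaloisRep.ratLocalizedAt ℓ := by
  show q.den.Coprime ℓ
  exact ((Nat.Prime.coprime_iff_not_dvd (Fact.out : ℓ.Prime)).mpr h).symm

theorem resR_eq_zero_iff (x : Rl ℓ) : resR ℓ x = 0 ↔ ∃ y : Rl ℓ, x = (ℓ : Rl ℓ) * y := by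
  constructor
  · intro h
    rw [resR_apply, Rat.cast_def, div_eq_zero_iff] at h
    have hnum : (ℓ : ℤ) ∣ (x : ℚ).num := by
      rcases h with h | h
      · exact (ZMod.intCast_zmod_eq_zero_iff_dvd _ _).mp h
      · exact absurd h (den_ne_zero ℓ x)
    obtain ⟨m, hm⟩ := hnum
    have hℓ0 : (ℓ : ℚ) ≠ 0 := by exact_mod_cast (Fact.out : ℓ.Prime).ne_zero
    have hy : ((m : ℚ) / (x : ℚ).den) ∈ GaloisRep.ratLocalizedAt ℓ := by
      apply mem_ratLocalizedAt_of_not_dvd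
      intro hd
      have h1 : (((m : ℚ) / (x : ℚ).den).den : ℤ) ∣ ((x : ℚ).den : ℤ) := by
        have := Rat.den_dvd m ((x : ℚ).den : ℤ)
        rwa [Rat.divInt_eq_div] at this
      exact not_dvd_den ℓ x (hd.trans (Int.natCast_dvd_natCast.mp h1))
    refine ⟨⟨_, hy⟩, Subtype.ext ?_⟩
    show (x : ℚ) = (ℓ : ℚ) * ((m : ℚ) / (x : ℚ).den)
    conv_lhs => rw [← Rat.num_div_den (x : ℚ), hm]
    push_cast
    ring
  · rintro ⟨y, rfl⟩
    rw [map_mul, map_natCast, ZMod.natCast_self, zero_mul]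

end Fermat.Agent.S28_helper14_Res
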