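import Mathlib
import Fermat.Prelude.Def_ModularCurve_LaurentCoeff

/-!
# S28, piece DESCENT: descent of linear dependence from `ℂ` to `ℚ`

A finite family of Laurent series with rational coefficients which is `ℂ`-linearly dependent
in `ℂ((q))` is `ℚ`-linearly dependent.
-/

set_option autoImplicit false

namespace Fermat.Agent.S28_DESCENT

theorem descent {σ : Type*} (s : Finset σ) (x : σ → LaurentSeries ℚ) (c : σ → ℂ)
    (hc : ∃ i ∈ s, c i ≠ 0) (h : ∑ i ∈ s, c i • ModularCurve.coeffEmb ℂ (x i) = 0) :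
    ∃ c' : σ → ℚ, (∃ i ∈ s, c' i ≠ 0) ∧ ∑ i ∈ s, c' i • x i = 0 := by
  obtain ⟨i₀, hi₀, hci₀⟩ := hc
  -- a `ℚ`-linear functional not vanishing on `c i₀`
  obtain ⟨φ, hφ⟩ : ∃ φ : Module.Dual ℚ ℂ, φ (c i₀) ≠ 0 := by
    by_contra hne
    simp only [not_exists, not_not] at hne
    exact hci₀ ((Module.forall_dual_apply_eq_zero_iff ℚ (c i₀)).mp hne)
  refine ⟨fun i => φ (c i), ⟨i₀, hi₀, hφ⟩, ?_⟩
  ext n
  have hn := congrArg (fun y : LaurentSeries ℂ => y.coeff n) h
  simp only [HahnSeries.coeff_sum, HahnSeries.coeff_smul, ModularCurve.coeffEmb_coeff,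
    HahnSeries.coeff_zero, smul_eq_mul] at hn
  simp only [HahnSeries.coeff_sum, HahnSeries.coeff_smul, HahnSeries.coeff_zero, smul_eq_mul]
  have h1 : φ (∑ i ∈ s, c i * (algebraMap ℚ ℂ) ((x i).coeff n)) = 0 := by
    rw [hn, map_zero]
  rw [map_sum] at h1
  rw [← h1]
  refine Finset.sum_congr rfl fun i _ => ?_
  have h2 : c i * (algebraMap ℚ ℂ) ((x i).coeff n) = ((x i).coeff n) • c i := by
    rw [Algebra.smul_def, mul_comm]
  rw [h2, map_smul, smul_eq_mul, mul_comm]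

end Fermat.Agent.S28_DESCENT
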