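import Mathlib
import Fermat.Agent.S28_helper14_Defs

set_option autoImplicit false

noncomputable section

namespace Fermat.Agent.S28_INDEPC

open ModularCurve Polynomial Fermat.Agent.S28_helper14_Defs

/-- Order of a Laurent series with prescribed lowest nonzero coefficient. -/
theorem orderTop_eq_of_coeff {k : Type*} [Field k] (x : LaurentSeries k) (n : ℤ)
    (hn : x.coeff n ≠ 0) (hlt : ∀ m < n, x.coeff m = 0) :
    x.orderTop = ((n : ℤ) : WithTop ℤ) := by
  refine HahnSeries.orderTop_eq_of_le (by simpa using hn) ?_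
  intro m hm
  by_contra h
  push Not at h
  exact (HahnSeries.mem_support _ _).1 hm (hlt m h)

theorem coeff_single_neg_one_mul {k : Type*} [Field k] (y : LaurentSeries k) (n : ℤ) :
    (HahnSeries.single (-1 : ℤ) (1 : k) * y).coeff n = y.coeff (n + 1) := by
  have h : n = (n + 1) + (-1 : ℤ) := by ring
  conv_lhs => rw [h]
  rw [HahnSeries.coeff_single_mul_add, one_mul]

theorem orderTop_jqModC (k : Type*) [Field k] :
    (ModularCurve.jqModC k).orderTop = ((-1 : ℤ) : WithTop ℤ) := by
  apply orderTop_eq_of_coeff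
  · rw [coeff_jqModC_neg_one]
    exact one_ne_zero
  · intro m hm
    exact coeff_jqModC_of_lt k hm

theorem coeff_Vser {k : Type*} [Field k] (m : ℕ) (U : PowerSeries ℤ) (n : ℕ) :
    (Vser k m U).coeff (n : ℤ) =
      ((PowerSeries.coeff n (PowerSeries.X ^ m * U) : ℤ) : k) := by
  rw [Vser, HahnSeries.ofPowerSeries_apply_coeff, PowerSeries.coeff_map]
  rfl

theorem orderTop_Vser (k : Type*) [Field k] (m : ℕ) (U : PowerSeries ℤ)
    (hU : PowerSeries.constantCoeff U = 1) :
    (Vser k m U).orderTop = (((m : ℕ) : ℤ) : WithTop ℤ) := by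
  apply orderTop_eq_of_coeff
  · rw [coeff_Vser, PowerSeries.coeff_X_pow_mul', if_pos le_rfl, Nat.sub_self,
      PowerSeries.coeff_zero_eq_constantCoeff_apply, hU]
    simp
  · intro n hn
    rcases lt_or_ge n 0 with h0 | h0
    · rw [Vser]
      exact ofPowerSeries_coeff_of_neg _ h0
    · lift n to ℕ using h0
      rw [coeff_Vser, PowerSeries.coeff_X_pow_mul', if_neg (by exact_mod_cast not_le.2 hn)]
      simp

end Fermat.Agent.S28_INDEPC
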