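import Mathlib

set_option autoImplicit false

open Polynomial

namespace Fermat.Agent.S28_NORMARG

variable {k : Type*} [Field k]

theorem algebraMap_eq_single (a : k) :
    algebraMap k (LaurentSeries k) a = HahnSeries.single 0 a :=
  LaurentSeries.algebraMap_apply k a

theorem le_orderTop_algebraMap (a : k) :
    (0 : WithTop ℤ) ≤ (algebraMap k (LaurentSeries k) a).orderTop := by
  rw [algebraMap_eq_single]
  exact_mod_cast HahnSeries.orderTop_single_le (Γ := ℤ) (a := (0:ℤ)) (r := a)

theorem orderTop_algebraMap {a : k} (ha : a ≠ 0) :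
    (algebraMap k (LaurentSeries k) a).orderTop = 0 := by
  rw [algebraMap_eq_single, HahnSeries.orderTop_single ha]
  rfl

theorem orderTop_pow (x : LaurentSeries k) (n : ℕ) : (x ^ n).orderTop = n • x.orderTop := by
  rw [← HahnSeries.addVal_apply, AddValuation.map_pow, HahnSeries.addVal_apply]

theorem le_orderTop_aeval (j : LaurentSeries k) (hj : ((-1 : ℤ) : WithTop ℤ) ≤ j.orderTop)
    (c : Polynomial k) (n : ℕ) (hc : c.natDegree ≤ n) :
    ((-(n : ℤ) : ℤ) : WithTop ℤ) ≤ (Polynomial.aeval j c).orderTop := by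
  rw [← HahnSeries.addVal_apply, Polynomial.aeval_eq_sum_range]
  apply AddValuation.map_le_sum
  intro i hi
  rw [Finset.mem_range] at hi
  rw [Algebra.smul_def, AddValuation.map_mul, HahnSeries.addVal_apply, HahnSeries.addVal_apply,
    orderTop_pow]
  have h1 := le_orderTop_algebraMap (c.coeff i)
  have h2 : i • ((-1 : ℤ) : WithTop ℤ) ≤ i • j.orderTop := nsmul_le_nsmul_right hj i
  have h3 : ((-(n : ℤ) : ℤ) : WithTop ℤ) ≤ i • ((-1 : ℤ) : WithTop ℤ) := by
    rw [← WithTop.coe_nsmul]
    apply WithTop.coe_le_coe.mpr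
    simp only [nsmul_eq_mul]
    omega
  calc ((-(n : ℤ) : ℤ) : WithTop ℤ) ≤ i • ((-1 : ℤ) : WithTop ℤ) := h3
    _ ≤ i • j.orderTop := h2
    _ = 0 + i • j.orderTop := by rw [zero_add]
    _ ≤ _ := add_le_add h1 le_rfl

/-- `j` of order `-1` is transcendental over `k`. -/
theorem aeval_injective (j : LaurentSeries k) (hj : j.orderTop = ((-1 : ℤ) : WithTop ℤ)) :
    Function.Injective (Polynomial.aeval (R := k) j) := by
  rw [injective_iff_map_eq_zero]
  intro c hc
  by_contra hne
  have hlead : c.leadingCoeff ≠ 0 := Polynomial.leadingCoeff_ne_zero.mpr hne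
  rcases Nat.eq_zero_or_pos c.natDegree with h0 | hpos
  · rw [Polynomial.eq_C_of_natDegree_eq_zero h0, Polynomial.aeval_C] at hc
    have := orderTop_algebraMap (k := k) (a := c.coeff 0) (by
      intro h
      apply hne
      rw [Polynomial.eq_C_of_natDegree_eq_zero h0, h, map_zero])
    rw [hc, HahnSeries.orderTop_zero] at this
    exact WithTop.top_ne_zero this
  · have hdecomp := Polynomial.eraseLead_add_C_mul_X_pow c
    have h1 : Polynomial.aeval j c = Polynomial.aeval j c.eraseLead +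
        algebraMap k _ c.leadingCoeff * j ^ c.natDegree := by
      calc Polynomial.aeval j c
          = Polynomial.aeval j (c.eraseLead + C c.leadingCoeff * X ^ c.natDegree) := by
            rw [hdecomp]
        _ = _ := by rw [map_add, map_mul, Polynomial.aeval_C, map_pow, Polynomial.aeval_X]
    have h2 : ((-((c.natDegree - 1 : ℕ) : ℤ) : ℤ) : WithTop ℤ) ≤
        (Polynomial.aeval j c.eraseLead).orderTop :=
      le_orderTop_aeval j hj.ge _ _ (Polynomial.eraseLead_natDegree_le c)
    have h3 : (algebraMap k (LaurentSeries k) c.leadingCoeff * j ^ c.natDegree).orderTop =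
        ((-(c.natDegree : ℤ) : ℤ) : WithTop ℤ) := by
      rw [HahnSeries.orderTop_mul, orderTop_algebraMap hlead, orderTop_pow, hj, zero_add,
        ← WithTop.coe_nsmul]
      congr 1
      simp
    have h4 : (algebraMap k (LaurentSeries k) c.leadingCoeff * j ^ c.natDegree).orderTop <
        (Polynomial.aeval j c.eraseLead).orderTop := by
      rw [h3]
      refine lt_of_lt_of_le ?_ h2
      apply WithTop.coe_lt_coe.mpr
      omega
    have h5 := HahnSeries.orderTop_add_eq_left h4
    rw [add_comm, ← h1, hc, HahnSeries.orderTop_zero, h3] at h5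
    exact WithTop.top_ne_coe h5

theorem coeff_ofPowerSeries_neg (F : PowerSeries k) (n : ℤ) (hn : n < 0) :
    (HahnSeries.ofPowerSeries ℤ k F).coeff n = 0 := by
  rw [HahnSeries.ofPowerSeries_apply]
  apply HahnSeries.embDomain_of_notMem_range
  simp only [Set.mem_range, not_exists]
  intro m hm
  have : ((m : ℕ) : ℤ) = n := hm
  omega

theorem le_orderTop_ofPowerSeries (F : PowerSeries k) :
    (0 : WithTop ℤ) ≤ (HahnSeries.ofPowerSeries ℤ k F).orderTop := by
  rw [HahnSeries.le_orderTop_iff_forall]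
  intro n hn
  apply coeff_ofPowerSeries_neg
  exact_mod_cast hn

theorem exists_ofPowerSeries_eq (f : LaurentSeries k) (hf : (0 : WithTop ℤ) ≤ f.orderTop) :
    ∃ F : PowerSeries k, HahnSeries.ofPowerSeries ℤ k F = f := by
  refine ⟨PowerSeries.mk fun n => f.coeff n, ?_⟩
  ext n
  rcases lt_or_ge n 0 with hn | hn
  · rw [coeff_ofPowerSeries_neg _ _ hn]
    symm
    apply HahnSeries.coeff_eq_zero_of_lt_orderTop
    exact lt_of_lt_of_le (by exact_mod_cast hn) hf
  · obtain ⟨m, rfl⟩ := Int.eq_ofNat_of_zero_le hn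
    rw [HahnSeries.ofPowerSeries_apply_coeff, PowerSeries.coeff_mk]


theorem orderTop_single_pow (k₀ m : ℕ) :
    ((HahnSeries.single (k₀ : ℤ) (1 : k)) ^ m).orderTop = (((k₀ * m : ℕ) : ℤ) : WithTop ℤ) := by
  rw [orderTop_pow, HahnSeries.orderTop_single one_ne_zero, ← WithTop.coe_nsmul]
  congr 1
  simp [mul_comm]

theorem gauss_order (k₀ : ℕ) (PL μL : Polynomial (LaurentSeries k)) (hP : PL.Monic)
    (hμ : μL.Monic) (hdvd : μL ∣ PL)
    (hcoeff : ∀ n, (0 : WithTop ℤ) ≤
      (PL.coeff n).orderTop + (((k₀ * (PL.natDegree - n) : ℕ) : ℤ) : WithTop ℤ)) :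
    ∀ n, (0 : WithTop ℤ) ≤
      (μL.coeff n).orderTop + (((k₀ * (μL.natDegree - n) : ℕ) : ℤ) : WithTop ℤ) := by
  set s : LaurentSeries k := HahnSeries.single (k₀ : ℤ) (1 : k) with hs
  have hdvd' : μL.scaleRoots s ∣ PL.scaleRoots s := Polynomial.scaleRoots_dvd _ _ hdvd
  have hPs : (PL.scaleRoots s).Monic := (Polynomial.monic_scaleRoots_iff s).mpr hP
  have hμs : (μL.scaleRoots s).Monic := (Polynomial.monic_scaleRoots_iff s).mpr hμ
  have hlift : PL.scaleRoots s ∈ Polynomial.lifts (algebraMap (PowerSeries k) (LaurentSeries k)) := by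
    rw [Polynomial.lifts_iff_coeff_lifts]
    intro n
    rw [Polynomial.coeff_scaleRoots, LaurentSeries.coe_algebraMap]
    apply exists_ofPowerSeries_eq
    rw [HahnSeries.orderTop_mul, hs, orderTop_single_pow]
    exact hcoeff n
  obtain ⟨f, hf, -, hfm⟩ := Polynomial.lifts_and_natDegree_eq_and_monic hlift hPs
  rw [← hf] at hdvd'
  obtain ⟨g', hg'⟩ := IsIntegrallyClosed.eq_map_mul_C_of_dvd (LaurentSeries k) hfm hdvd'
  rw [hμs.leadingCoeff, map_one, mul_one] at hg'
  intro n
  have h1 := congrArg (fun q => q.coeff n) hg'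
  simp only [Polynomial.coeff_map, Polynomial.coeff_scaleRoots] at h1
  have h2 := le_orderTop_ofPowerSeries (Polynomial.coeff g' n)
  rw [← LaurentSeries.coe_algebraMap, h1, HahnSeries.orderTop_mul, hs, orderTop_single_pow] at h2
  exact h2


theorem nonneg_add_of_neg_le {x : WithTop ℤ} {a : ℤ} (h : ((-a : ℤ) : WithTop ℤ) ≤ x) :
    (0 : WithTop ℤ) ≤ x + (a : WithTop ℤ) := by
  induction x using WithTop.recTopCoe with
  | top => simp
  | coe z =>
    have h' : -a ≤ z := WithTop.coe_le_coe.mp h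
    rw [← WithTop.coe_add, ← WithTop.coe_zero]
    exact WithTop.coe_le_coe.mpr (by omega)

/-- `LaurentSeries k` as a `k[X]`-algebra via `X ↦ j`. -/
def LJ (_j : LaurentSeries k) : Type _ := LaurentSeries k

noncomputable instance instFieldLJ (j : LaurentSeries k) : Field (LJ j) :=
  inferInstanceAs (Field (LaurentSeries k))

noncomputable instance instAlgebraLJ (j : LaurentSeries k) : Algebra (Polynomial k) (LJ j) :=
  (Polynomial.aeval (R := k) (A := LaurentSeries k) j).toRingHom.toAlgebra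

theorem algebraMap_LJ (j : LaurentSeries k) (c : Polynomial k) :
    algebraMap (Polynomial k) (LJ j) c = (Polynomial.aeval j c : LaurentSeries k) := rfl

theorem aeval_LJ (j V : LaurentSeries k) (Q : Polynomial (Polynomial k)) :
    (Polynomial.aeval (show LJ j from V) Q : LJ j) =
      (∑ n ∈ Finset.range (Q.natDegree + 1),
        Polynomial.aeval j (Q.coeff n) * V ^ n : LaurentSeries k) := by
  rw [Polynomial.aeval_eq_sum_range]
  simp only [Algebra.smul_def]
  rfl

theorem natDegree_minpoly_ge (ι k₀ : ℕ) (hι : 0 < ι) (hk₀ : 0 < k₀)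
    (j V : LaurentSeries k) (hj : j.orderTop = ((-1 : ℤ) : WithTop ℤ))
    (hV : V.orderTop = (((k₀ * (ι - 1) : ℕ) : ℤ) : WithTop ℤ))
    (PA : Polynomial (Polynomial k)) (hPm : PA.Monic) (hPdeg : PA.natDegree = ι)
    (hPcoeff : ∀ n, (PA.coeff n).natDegree ≤ k₀ * (ι - n))
    (u : k) (hu : u ≠ 0) (hP0 : PA.coeff 0 = C u)
    (hPV : Polynomial.aeval (show LJ j from V) PA = 0) :
    ι ≤ (minpoly (Polynomial k) (show LJ j from V)).natDegree := by
  have hinj : Function.Injective (algebraMap (Polynomial k) (LJ j)) := aeval_injective j hj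
  have : Module.IsTorsionFree (Polynomial k) (LJ j) :=
    Module.isTorsionFree_iff_algebraMap_injective.mpr hinj
  have hint : IsIntegral (Polynomial k) (show LJ j from V) := ⟨PA, hPm, hPV⟩
  set μ := minpoly (Polynomial k) (show LJ j from V) with hμdef
  have hμm : μ.Monic := minpoly.monic hint
  have hμV : Polynomial.aeval (show LJ j from V) μ = 0 := minpoly.aeval _ _
  have hdvd : μ ∣ PA := minpoly.isIntegrallyClosed_dvd hint hPV
  by_contra hlt
  rw [not_le] at hlt
  obtain ⟨S, hS⟩ := hdvd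
  -- the constant coefficient of μ is a nonzero constant
  have h0 : μ.coeff 0 * S.coeff 0 = C u := by
    rw [← Polynomial.mul_coeff_zero, ← hS, hP0]
  have hunit : IsUnit (μ.coeff 0) := by
    apply isUnit_of_mul_isUnit_left (y := S.coeff 0)
    rw [h0]
    exact Polynomial.isUnit_C.mpr (IsUnit.mk0 u hu)
  obtain ⟨b, hb, hbμ⟩ := Polynomial.isUnit_iff.mp hunit
  have hb0 : b ≠ 0 := hb.ne_zero
  -- pass to Laurent series
  let φ : Polynomial k →+* LaurentSeries k := (Polynomial.aeval (R := k) j).toRingHom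
  have hφ : ∀ c, φ c = Polynomial.aeval j c := fun c => rfl
  have hPL : (PA.map φ).Monic := hPm.map φ
  have hμL : (μ.map φ).Monic := hμm.map φ
  have hdvdL : μ.map φ ∣ PA.map φ := by
    rw [hS, Polynomial.map_mul]
    exact dvd_mul_right _ _
  have hPLdeg : (PA.map φ).natDegree = ι := by rw [hPm.natDegree_map, hPdeg]
  have hμLdeg : (μ.map φ).natDegree = μ.natDegree := hμm.natDegree_map φ
  have hg := gauss_order k₀ (PA.map φ) (μ.map φ) hPL hμL hdvdL (by
    intro n
    rw [hPLdeg, Polynomial.coeff_map, hφ]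
    apply nonneg_add_of_neg_le
    exact le_orderTop_aeval j hj.ge _ _ (hPcoeff n))
  -- evaluate
  have hsum := aeval_LJ j V μ
  rw [hμV] at hsum
  have hsum' : (0 : LaurentSeries k) = ∑ n ∈ Finset.range (μ.natDegree + 1),
        Polynomial.aeval j (μ.coeff n) * V ^ n := hsum
  rw [Finset.sum_range_succ'] at hsum'
  have hc0 := congrArg (fun x : LaurentSeries k => x.coeff 0) hsum'
  simp only [HahnSeries.coeff_zero, HahnSeries.coeff_add, HahnSeries.coeff_sum, pow_zero,
    mul_one] at hc0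
  have hterm : ∀ n ∈ Finset.range μ.natDegree,
      (Polynomial.aeval j (μ.coeff (n + 1)) * V ^ (n + 1)).coeff 0 = 0 := by
    intro n hn
    rw [Finset.mem_range] at hn
    apply HahnSeries.coeff_eq_zero_of_lt_orderTop
    rw [HahnSeries.orderTop_mul, orderTop_pow, hV]
    have h1 := hg (n + 1)
    rw [hμLdeg, Polynomial.coeff_map, hφ] at h1
    generalize (Polynomial.aeval j (μ.coeff (n + 1))).orderTop = x at h1 ⊢
    induction x using WithTop.recTopCoe with
    | top => simp
    | coe z =>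
      rw [← WithTop.coe_nsmul, ← WithTop.coe_add]
      rw [← WithTop.coe_add, ← WithTop.coe_zero] at h1
      have h1' : (0 : ℤ) ≤ z + ((k₀ * (μ.natDegree - (n + 1)) : ℕ) : ℤ) := WithTop.coe_le_coe.mp h1
      apply WithTop.coe_lt_coe.mpr
      simp only [nsmul_eq_mul]
      push_cast at h1' ⊢
      have e1 : ((μ.natDegree - (n + 1) : ℕ) : ℤ) = (μ.natDegree : ℤ) - (n + 1) := by
        push_cast [Nat.cast_sub (by omega : n + 1 ≤ μ.natDegree)]
        ring
      have e2 : ((ι - 1 : ℕ) : ℤ) = (ι : ℤ) - 1 := by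
        push_cast [Nat.cast_sub (by omega : 1 ≤ ι)]
        ring
      rw [e1] at h1'
      rw [e2]
      have hk : (1 : ℤ) ≤ k₀ := by exact_mod_cast hk₀
      have hr : (μ.natDegree : ℤ) + 1 ≤ ι := by exact_mod_cast hlt
      have hn0 : (0 : ℤ) ≤ n := by positivity
      have hι0 : (0 : ℤ) ≤ ι := by positivity
      have hnι : (0 : ℤ) ≤ (n : ℤ) * ι := mul_nonneg hn0 hι0
      have hA : (0 : ℤ) ≤ ((n : ℤ) + 1) * ι - μ.natDegree - 1 := by linarith
      have hkA : (0 : ℤ) ≤ (k₀ : ℤ) * (((n : ℤ) + 1) * ι - μ.natDegree - 1) :=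
        mul_nonneg (by linarith) hA
      nlinarith [h1', hkA, hk]
  rw [Finset.sum_eq_zero hterm, zero_add, hbμ.symm, Polynomial.aeval_C, algebraMap_eq_single,
    HahnSeries.coeff_single_same] at hc0
  exact hb0 hc0.symm


theorem aeval_LJ' (j V : LaurentSeries k) (Q : Polynomial (Polynomial k)) (N : ℕ)
    (hN : Q.natDegree < N) :
    (Polynomial.aeval (show LJ j from V) Q : LJ j) =
      (∑ n ∈ Finset.range N, Polynomial.aeval j (Q.coeff n) * V ^ n : LaurentSeries k) := by
  rw [Polynomial.aeval_eq_sum_range' hN]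
  simp only [Algebra.smul_def]
  rfl

theorem coeff_sum_C_mul_X_pow {A : Type*} [CommRing A] (N : ℕ) (a : ℕ → A) (n : ℕ) :
    (∑ m ∈ Finset.range N, C (a m) * X ^ m : Polynomial A).coeff n =
      if n < N then a n else 0 := by
  rw [Polynomial.finsetSum_coeff]
  simp only [Polynomial.coeff_C_mul_X_pow]
  rw [Finset.sum_ite_eq]
  simp [Finset.mem_range]

theorem natDegree_sum_C_mul_X_pow_lt {A : Type*} [CommRing A] (N : ℕ) (hN : 0 < N) (a : ℕ → A) :
    (∑ m ∈ Finset.range N, C (a m) * X ^ m : Polynomial A).natDegree < N := by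
  have h : (∑ m ∈ Finset.range N, C (a m) * X ^ m : Polynomial A).natDegree ≤ N - 1 := by
    rw [Polynomial.natDegree_le_iff_coeff_eq_zero]
    intro n hn
    rw [coeff_sum_C_mul_X_pow, if_neg (by omega)]
  omega

theorem normArg {k : Type*} [Field k] (ι k₀ : ℕ) (hι : 0 < ι) (hk₀ : 0 < k₀)
    (j V : LaurentSeries k) (hj : j.orderTop = ((-1 : ℤ) : WithTop ℤ))
    (hV : V.orderTop = (((k₀ * (ι - 1) : ℕ) : ℤ) : WithTop ℤ))
    (p : ℕ → Polynomial k) (hp0 : p 0 = 1) (hdeg : ∀ i, (p i).natDegree ≤ k₀ * i)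
    (u : k) (hu : u ≠ 0) (hpι : p ι = Polynomial.C u)
    (rel : ∑ i ∈ Finset.range (ι + 1), Polynomial.aeval j (p i) * V ^ (ι - i) = 0)
    (c : ℕ → Polynomial k) (hc : ∑ i ∈ Finset.range ι, Polynomial.aeval j (c i) * V ^ i = 0) :
    ∀ i < ι, c i = 0 := by
  set PA : Polynomial (Polynomial k) :=
    ∑ n ∈ Finset.range (ι + 1), C (p (ι - n)) * X ^ n with hPA
  have hPAcoeff : ∀ n, PA.coeff n = if n < ι + 1 then p (ι - n) else 0 :=
    fun n => coeff_sum_C_mul_X_pow (ι + 1) (fun m => p (ι - m)) n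
  have hPAlt : PA.natDegree < ι + 1 :=
    natDegree_sum_C_mul_X_pow_lt (ι + 1) (Nat.succ_pos ι) (fun m => p (ι - m))
  have hPAι : PA.coeff ι = 1 := by
    rw [hPAcoeff, if_pos (Nat.lt_succ_self ι), Nat.sub_self, hp0]
  have hPm : PA.Monic :=
    Polynomial.monic_of_natDegree_le_of_coeff_eq_one ι (Nat.lt_succ_iff.mp hPAlt) hPAι
  have hPdeg : PA.natDegree = ι :=
    Polynomial.natDegree_eq_of_le_of_coeff_ne_zero (Nat.lt_succ_iff.mp hPAlt)
      (by rw [hPAι]; exact one_ne_zero)
  have hPcoeff : ∀ n, (PA.coeff n).natDegree ≤ k₀ * (ι - n) := by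
    intro n
    rw [hPAcoeff]
    split_ifs with h
    · exact hdeg _
    · simp
  have hP0 : PA.coeff 0 = C u := by
    rw [hPAcoeff, if_pos (Nat.succ_pos ι), Nat.sub_zero, hpι]
  have hPV : Polynomial.aeval (show LJ j from V) PA = 0 := by
    refine (aeval_LJ' j V PA (ι + 1) hPAlt).trans ?_
    show (∑ n ∈ Finset.range (ι + 1), Polynomial.aeval j (PA.coeff n) * V ^ n :
      LaurentSeries k) = 0
    rw [← rel, ← Finset.sum_range_reflect]
    apply Finset.sum_congr rfl
    intro n hn
    rw [Finset.mem_range] at hn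
    have e1 : ι + 1 - 1 - n = ι - n := by omega
    have e2 : ι - (ι - n) = n := by omega
    rw [hPAcoeff, if_pos (by omega), e1, e2]
  have hge := natDegree_minpoly_ge ι k₀ hι hk₀ j V hj hV PA hPm hPdeg hPcoeff u hu hP0 hPV
  -- the relation
  set CA : Polynomial (Polynomial k) := ∑ n ∈ Finset.range ι, C (c n) * X ^ n with hCA
  have hCAcoeff : ∀ n, CA.coeff n = if n < ι then c n else 0 :=
    fun n => coeff_sum_C_mul_X_pow ι c n
  have hCAlt : CA.natDegree < ι := natDegree_sum_C_mul_X_pow_lt ι hι c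
  have hCV : Polynomial.aeval (show LJ j from V) CA = 0 := by
    refine (aeval_LJ' j V CA ι hCAlt).trans ?_
    show (∑ n ∈ Finset.range ι, Polynomial.aeval j (CA.coeff n) * V ^ n :
      LaurentSeries k) = 0
    rw [← hc]
    apply Finset.sum_congr rfl
    intro n hn
    rw [Finset.mem_range] at hn
    rw [hCAcoeff, if_pos hn]
  have hinj : Function.Injective (algebraMap (Polynomial k) (LJ j)) := aeval_injective j hj
  have : Module.IsTorsionFree (Polynomial k) (LJ j) :=
    Module.isTorsionFree_iff_algebraMap_injective.mpr hinj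
  have hint : IsIntegral (Polynomial k) (show LJ j from V) := ⟨PA, hPm, hPV⟩
  have hdvd : minpoly (Polynomial k) (show LJ j from V) ∣ CA :=
    minpoly.isIntegrallyClosed_dvd hint hCV
  have hCA0 : CA = 0 :=
    Polynomial.eq_zero_of_dvd_of_natDegree_lt hdvd (lt_of_lt_of_le hCAlt hge)
  intro i hi
  have := hCAcoeff i
  rw [if_pos hi, hCA0, Polynomial.coeff_zero] at this
  exact this.symm

end Fermat.Agent.S28_NORMARG
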