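import Mathlib
import Fermat.Agent.S28_helper14_Defs
import Fermat.Agent.S28_helper2_INDEPC_Order
import Fermat.Agent.S28_helper3_NORMARG

set_option autoImplicit false

noncomputable section

namespace Fermat.Agent.S28_INDEPC

open ModularCurve Polynomial Fermat.Agent.S28_helper14_Defs

theorem indep_C (N : ℕ) [NeZero N] (D : UnitData N) (c : ℕ → Polynomial ℂ)
    (hc : ∑ i ∈ Finset.range D.ι, Polynomial.aeval (ModularCurve.jqModC ℂ) (c i) *
      (Vser ℂ (D.k₀ * (D.ι - 1)) D.U) ^ i = 0) :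
    ∀ i < D.ι, c i = 0 :=
  Fermat.Agent.S28_NORMARG.normArg D.ι D.k₀ D.hι D.hk₀ (ModularCurve.jqModC ℂ)
    (Vser ℂ (D.k₀ * (D.ι - 1)) D.U) (orderTop_jqModC ℂ)
    (orderTop_Vser ℂ (D.k₀ * (D.ι - 1)) D.U D.hU) D.p D.hp0 D.hp_deg D.u D.hu0 D.hpι D.rel c hc

end Fermat.Agent.S28_INDEPC
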