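import Fermat.Agent.S28_helper14_Defs
import Fermat.Agent.S28_helper14_Res
import Fermat.Agent.S28_helper2_INDEPC
import Fermat.Agent.S28_helper1_DESCENT

set_option autoImplicit false

/-!
# S28 piece RELRAT: the relation polynomials have coefficients in `ℤ_(ℓ)`
-/

noncomputable section

open ModularCurve Polynomial
open Fermat.Agent.S28_helper14_Defs Fermat.Agent.S28_helper14_Res

namespace Fermat.Agent.S28_RELRAT

theorem coeffEmb_jqModC : coeffEmb ℂ (jqModC ℚ) = jqModC ℂ :=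
  coeffMap_jqModC (algebraMap ℚ ℂ)

theorem coeffEmb_Vser (m : ℕ) (U : PowerSeries ℤ) : coeffEmb ℂ (Vser ℚ m U) = Vser ℂ m U := by
  rw [coeffEmb, Vser, Vser, coeffMap_ofPowerSeries]
  congr 1

/-- The two scalar actions on Laurent series agree. -/
theorem algebraMap_mul_eq_smul (k : Type*) [Field k] (r : k) (x : LaurentSeries k) :
    algebraMap k (LaurentSeries k) r * x = r • x := by
  rw [algebraMap_laurentSeries_eq_single]
  exact HahnSeries.single_zero_mul_eq_smul

theorem coeffEmb_aeval (x : LaurentSeries ℚ) (P : ℚ[X]) :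
    coeffEmb ℂ (aeval x P) = aeval (coeffEmb ℂ x) (P.map (algebraMap ℚ ℂ)) := by
  rw [aeval_def, aeval_def, hom_eval₂, eval₂_map]
  congr 1
  exact RingHom.ext_rat _ _

/-- A rational number which is `N`-integral lies in `ℤ_(ℓ)` when `ℓ ∤ N`. -/
theorem mem_ratLocalizedAt_of_isNInt (N ℓ : ℕ) [Fact ℓ.Prime] (h : ¬ ℓ ∣ N) (x : ℚ)
    (hx : IsNInt N ((algebraMap ℚ ℂ) x)) : x ∈ GaloisRep.ratLocalizedAt ℓ := by
  obtain ⟨e, he⟩ := hx
  have h1 : IsIntegral ℤ ((algebraMap ℚ ℂ) ((N : ℚ) ^ e * x)) := by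
    rw [map_mul, map_pow, map_natCast]
    exact he
  rw [isIntegral_algebraMap_iff (algebraMap ℚ ℂ).injective] at h1
  obtain ⟨y, hy⟩ := (IsIntegrallyClosed.isIntegral_iff (R := ℤ) (K := ℚ)).mp h1
  apply mem_ratLocalizedAt_of_not_dvd
  intro hd
  have hℓ : ℓ.Prime := Fact.out
  by_cases hN : N = 0
  · subst hN
    exact h (dvd_zero _)
  have hNe : ((N : ℚ) ^ e) ≠ 0 := pow_ne_zero _ (by exact_mod_cast hN)
  have hxeq : x = (y : ℚ) / ((N ^ e : ℕ) : ℤ) := by
    rw [eq_div_iff (by exact_mod_cast hNe)]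
    have : (algebraMap ℤ ℚ) y = (y : ℚ) := rfl
    rw [this] at hy
    rw [hy]
    push_cast
    ring
  have hden : ((x.den : ℕ) : ℤ) ∣ ((N ^ e : ℕ) : ℤ) := by
    have := Rat.den_dvd y ((N ^ e : ℕ) : ℤ)
    rw [Rat.divInt_eq_div] at this
    rw [hxeq]
    exact this
  have : ℓ ∣ N ^ e := hd.trans (Int.natCast_dvd_natCast.mp hden)
  exact h (hℓ.dvd_of_dvd_pow this)

theorem rel_rat (N ℓ : ℕ) [NeZero N] [Fact ℓ.Prime] (h : ¬ ℓ ∣ N) (D : UnitData N) :
    ∃ p' : ℕ → Polynomial ↥(GaloisRep.ratLocalizedAt ℓ), ∀ i ≤ D.ι,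
      (p' i).map ((algebraMap ℚ ℂ).comp (GaloisRep.ratLocalizedAt ℓ).subtype) = D.p i := by
  classical
  set ι := D.ι with hι
  set m := D.k₀ * (D.ι - 1) with hm
  set B := D.k₀ * D.ι with hB
  set j := jqModC ℂ with hj
  set V := Vser ℂ m D.U with hV
  set jQ := jqModC ℚ with hjQ
  set VQ := Vser ℚ m D.U with hVQ
  set φ : ℚ →+* ℂ := algebraMap ℚ ℂ with hφ
  have hφinj : Function.Injective φ := (algebraMap ℚ ℂ).injective
  -- the relation, reindexed
  have hdegB : ∀ i ≤ ι, (D.p i).natDegree < B + 1 := by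
    intro i hi
    have := D.hp_deg i
    have : D.k₀ * i ≤ B := Nat.mul_le_mul_left _ hi
    omega
  have hrel : ∑ b ∈ Finset.range (ι + 1), aeval j (D.p (ι - b)) * V ^ b = 0 := by
    have h1 := D.rel
    rw [← Finset.sum_range_reflect] at h1
    rw [← h1]
    apply Finset.sum_congr rfl
    intro b hb
    have hb' : b ≤ ι := Nat.lt_succ_iff.mp (Finset.mem_range.mp hb)
    have e1 : ι + 1 - 1 - b = ι - b := by omega
    have e2 : D.ι - (ι - b) = b := by omega
    rw [e1, e2]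
  -- as a linear relation between the series `j ^ a * V ^ b`
  set s : Finset (ℕ × ℕ) := Finset.range (B + 1) ×ˢ Finset.range (ι + 1) with hs
  set x : ℕ × ℕ → LaurentSeries ℚ := fun ab => jQ ^ ab.1 * VQ ^ ab.2 with hx
  set c : ℕ × ℕ → ℂ := fun ab => (D.p (ι - ab.2)).coeff ab.1 with hc
  have hxemb : ∀ ab, coeffEmb ℂ (x ab) = j ^ ab.1 * V ^ ab.2 := by
    intro ab
    simp only [hx, map_mul, map_pow, hjQ, hVQ, coeffEmb_jqModC, coeffEmb_Vser]
    rfl
  have hlin : ∑ ab ∈ s, c ab • coeffEmb ℂ (x ab) = 0 := by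
    rw [hs, Finset.sum_product_right, ← hrel]
    apply Finset.sum_congr rfl
    intro b hb
    have hb' : b ≤ ι := Nat.lt_succ_iff.mp (Finset.mem_range.mp hb)
    rw [aeval_def, eval₂_eq_sum_range' _ (hdegB (ι - b) (Nat.sub_le _ _)), Finset.sum_mul]
    apply Finset.sum_congr rfl
    intro a _
    rw [hxemb, ← algebraMap_mul_eq_smul, mul_assoc]
  have hcne : ∃ ab ∈ s, c ab ≠ 0 := by
    refine ⟨(0, ι), ?_, ?_⟩
    · simp [hs]
    · simp [hc, D.hp0]
  obtain ⟨c', ⟨ab0, hab0, hc'ne⟩, hc'⟩ := Fermat.Agent.S28_DESCENT.descent s x c hcne hlin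
  -- the rational polynomials
  set Cq : ℕ → ℚ[X] := fun b => ∑ a ∈ Finset.range (B + 1), monomial a (c' (a, b)) with hCq
  have hCqcoeff : ∀ b a, a ∈ Finset.range (B + 1) → (Cq b).coeff a = c' (a, b) := by
    intro b a ha
    simp only [hCq, finsetSum_coeff, coeff_monomial]
    rw [Finset.sum_ite_eq' (Finset.range (B + 1)) a, if_pos ha]
  have hCqrel : ∑ b ∈ Finset.range (ι + 1), aeval jQ (Cq b) * VQ ^ b = 0 := by
    rw [← hc', hs, Finset.sum_product_right]
    apply Finset.sum_congr rfl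
    intro b _
    rw [hCq, map_sum, Finset.sum_mul]
    apply Finset.sum_congr rfl
    intro a _
    rw [aeval_monomial, hx, ← algebraMap_mul_eq_smul, mul_assoc]
  set CC : ℕ → ℂ[X] := fun b => (Cq b).map φ with hCC
  have hCCrel : ∑ b ∈ Finset.range (ι + 1), aeval j (CC b) * V ^ b = 0 := by
    have := congrArg (coeffEmb ℂ) hCqrel
    rw [map_sum, map_zero] at this
    rw [← this]
    apply Finset.sum_congr rfl
    intro b _
    rw [map_mul, map_pow, coeffEmb_aeval, hjQ, hVQ, coeffEmb_jqModC, coeffEmb_Vser]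
  -- subtract
  have hsub : ∑ b ∈ Finset.range ι, aeval j (CC b - CC ι * D.p (ι - b)) * V ^ b = 0 := by
    have h1 : ∑ b ∈ Finset.range (ι + 1), aeval j (CC b - CC ι * D.p (ι - b)) * V ^ b = 0 := by
      have : ∀ b, aeval j (CC b - CC ι * D.p (ι - b)) * V ^ b
          = aeval j (CC b) * V ^ b - aeval j (CC ι) * (aeval j (D.p (ι - b)) * V ^ b) := by
        intro b
        rw [map_sub, map_mul]
        ring
      simp only [this]
      rw [Finset.sum_sub_distrib, ← Finset.mul_sum, hCCrel, hrel, mul_zero, sub_zero]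
    rw [Finset.sum_range_succ, Nat.sub_self, D.hp0, mul_one, sub_self, map_zero, zero_mul,
      add_zero] at h1
    exact h1
  have hzero := Fermat.Agent.S28_INDEPC.indep_C N D (fun b => CC b - CC ι * D.p (ι - b)) hsub
  have hCCeq : ∀ b ≤ ι, CC b = CC ι * D.p (ι - b) := by
    intro b hb
    rcases Nat.lt_or_ge b ι with hlt | hge
    · exact sub_eq_zero.mp (hzero b hlt)
    · have : b = ι := le_antisymm hb hge
      subst this
      rw [Nat.sub_self, D.hp0, mul_one]
  have hCCι : CC ι ≠ 0 := by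
    intro h0
    apply hc'ne
    obtain ⟨a0, b0⟩ := ab0
    rw [hs, Finset.mem_product] at hab0
    have hb0 : b0 ≤ ι := Nat.lt_succ_iff.mp (Finset.mem_range.mp hab0.2)
    have h1 : CC b0 = 0 := by rw [hCCeq b0 hb0, h0, zero_mul]
    have h2 : Cq b0 = 0 := by
      have : (Cq b0).map φ = (0 : ℚ[X]).map φ := by rw [Polynomial.map_zero]; exact h1
      exact Polynomial.map_injective φ hφinj this
    rw [← hCqcoeff b0 a0 hab0.1, h2, coeff_zero]
  have key : ∀ i, i ≤ ι → ∃ q : Polynomial ↥(GaloisRep.ratLocalizedAt ℓ),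
      q.map ((algebraMap ℚ ℂ).comp (GaloisRep.ratLocalizedAt ℓ).subtype) = D.p i := by
    intro i hi
    have h1 := hCCeq (ι - i) (Nat.sub_le _ _)
    have e : ι - (ι - i) = i := by omega
    rw [e] at h1
    have hdvd : (Cq ι).map φ ∣ (Cq (ι - i)).map φ := ⟨D.p i, h1⟩
    rw [Polynomial.map_dvd_map' φ] at hdvd
    obtain ⟨Q, hQ⟩ := hdvd
    have hpi : D.p i = Q.map φ := by
      have h2 : CC ι * D.p i = CC ι * Q.map φ := by
        rw [← h1, hCC]
        simp only
        rw [hQ, Polynomial.map_mul]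
      exact mul_left_cancel₀ hCCι h2
    have hcoef : (↑Q.coeffs : Set ℚ) ⊆ GaloisRep.ratLocalizedAt ℓ := by
      intro y hy
      rw [Finset.mem_coe, mem_coeffs_iff] at hy
      obtain ⟨n, _, rfl⟩ := hy
      apply mem_ratLocalizedAt_of_isNInt N ℓ h
      have := D.hp_int i n
      rw [hpi, coeff_map] at this
      exact this
    refine ⟨Q.toSubring (GaloisRep.ratLocalizedAt ℓ) hcoef, ?_⟩
    rw [← Polynomial.map_map, map_toSubring, hpi]
  refine ⟨fun i => if hi : i ≤ ι then (key i hi).choose else 0, fun i hi => ?_⟩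
  simp only [hi, dif_pos]
  exact (key i hi).choose_spec

end Fermat.Agent.S28_RELRAT
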