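import Mathlib
import Fermat.Agent.S28_helper14_Defs
import Fermat.Agent.S28_helper1_DESCENT
import Fermat.Agent.S28_helper2_INDEPC
import Fermat.Agent.S28_helper17_RELRAT

set_option autoImplicit false

open Fermat.Agent.S28_helper14_Defs ModularCurve Polynomial IntermediateField

namespace Fermat.Agent.S28_SPANQ

/-- `coeffEmb ℂ` abbreviated. -/
noncomputable abbrev emb : LaurentSeries ℚ →+* LaurentSeries ℂ := coeffEmb ℂ

lemma emb_injective : Function.Injective emb := by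
  intro x y h
  ext k
  have := congrArg (fun z => HahnSeries.coeff z k) h
  simp only [coeffEmb_coeff] at this
  exact (algebraMap ℚ ℂ).injective this

lemma jq_eq : jq = jqModC ℚ := rfl

lemma emb_jq : emb jq = jqModC ℂ := by
  rw [jq_eq]
  exact coeffMap_jqModC (algebraMap ℚ ℂ)

lemma emb_Vser (m : ℕ) (U : PowerSeries ℤ) : emb (Vser ℚ m U) = Vser ℂ m U := by
  unfold Vser emb coeffEmb
  rw [coeffMap_ofPowerSeries]
  congr 1

lemma emb_aeval (a : Polynomial ℚ) :
    emb (aeval jq a) = aeval (jqModC ℂ) (a.map (algebraMap ℚ ℂ)) := by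
  rw [← emb_jq]
  exact Polynomial.map_aeval_eq_aeval_map (RingHom.ext_rat _ _) a jq

lemma emb_qExpand (d : ℕ) [NeZero d] :
    emb (qExpand ℚ d jq) = qExpand ℂ d (jqModC ℂ) := by
  unfold emb coeffEmb
  rw [coeffMap_qExpand, ← emb_jq]
  rfl

lemma emb_smul (q : ℚ) (x : LaurentSeries ℚ) : emb (q • x) = (q : ℂ) • emb x := by
  ext k
  simp [coeffEmb_coeff]

lemma smul_eq_mulC (r : ℂ) (x : LaurentSeries ℂ) :
    r • x = algebraMap ℂ (LaurentSeries ℂ) r * x := by
  rw [algebraMap_laurentSeries_eq_single, ← HahnSeries.C_mul_eq_smul]; rfl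

lemma smul_eq_mulQ (r : ℚ) (x : LaurentSeries ℚ) :
    r • x = algebraMap ℚ (LaurentSeries ℚ) r * x := by
  rw [algebraMap_laurentSeries_eq_single, ← HahnSeries.C_mul_eq_smul]; rfl

section main

variable {N : ℕ} [NeZero N] (D : UnitData N)

/-- The series `V` over `ℚ`. -/
noncomputable abbrev Vq : LaurentSeries ℚ := Vser ℚ (D.k₀ * (D.ι - 1)) D.U

/-- The series `V` over `ℂ`. -/
noncomputable abbrev Vc : LaurentSeries ℂ := Vser ℂ (D.k₀ * (D.ι - 1)) D.U

lemma emb_Vq : emb (Vq D) = Vc D := emb_Vser _ _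

/-- Step 1: the monic relation has rational coefficients. -/
lemma exists_rat_rel :
    ∃ P : ℕ → Polynomial ℚ, P 0 = 1 ∧ (∀ i ≤ D.ι, (P i).map (algebraMap ℚ ℂ) = D.p i) ∧
      ∑ i ∈ Finset.range (D.ι + 1), aeval jq (P i) * (Vq D) ^ (D.ι - i) = 0 := by
  obtain ⟨ℓ, hℓN, hℓ⟩ := Nat.exists_infinite_primes (N + 1)
  have : Fact ℓ.Prime := ⟨hℓ⟩
  have hnd : ¬ ℓ ∣ N :=
    Nat.not_dvd_of_pos_of_lt (Nat.pos_of_ne_zero (NeZero.ne N)) (by omega)
  obtain ⟨p', hp'⟩ := Fermat.Agent.S28_RELRAT.rel_rat N ℓ hnd D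
  let P : ℕ → Polynomial ℚ := fun i => (p' i).map (GaloisRep.ratLocalizedAt ℓ).subtype
  have hP : ∀ i ≤ D.ι, (P i).map (algebraMap ℚ ℂ) = D.p i := by
    intro i hi
    rw [← hp' i hi, Polynomial.map_map]
  refine ⟨P, ?_, hP, ?_⟩
  · apply Polynomial.map_injective (algebraMap ℚ ℂ) (algebraMap ℚ ℂ).injective
    rw [hP 0 (Nat.zero_le _), D.hp0, Polynomial.map_one]
  · apply emb_injective
    rw [map_zero, map_sum, ← D.rel]
    refine Finset.sum_congr rfl fun i hi => ?_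
    rw [map_mul, map_pow, emb_aeval, emb_Vq, hP i (by simpa [Nat.lt_succ_iff] using hi)]

/-- Independence of `1, V, …, V^(ι-1)` over `ℚ[j]`. -/
lemma indep_Q (c : ℕ → Polynomial ℚ)
    (hc : ∑ i ∈ Finset.range D.ι, aeval jq (c i) * (Vq D) ^ i = 0) :
    ∀ i < D.ι, c i = 0 := by
  have h := congrArg emb hc
  rw [map_zero, map_sum] at h
  have h' : ∑ i ∈ Finset.range D.ι, aeval (jqModC ℂ) ((c i).map (algebraMap ℚ ℂ)) *
      (Vc D) ^ i = 0 := by
    rw [← h]
    refine Finset.sum_congr rfl fun i _ => ?_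
    rw [map_mul, map_pow, emb_aeval, emb_Vq]
  intro i hi
  have := Fermat.Agent.S28_INDEPC.indep_C N D _ h' i hi
  exact (Polynomial.map_eq_zero_iff (algebraMap ℚ ℂ).injective).1 this

/-- The base field `ℚ(j)`. -/
noncomputable abbrev K0 : IntermediateField ℚ (LaurentSeries ℚ) := ℚ⟮jq⟯

lemma aeval_jq_mem_K0 (p : Polynomial ℚ) : aeval jq p ∈ K0 :=
  IntermediateField.algebra_adjoin_le_adjoin ℚ {jq} (aeval_mem_adjoin_singleton ℚ jq)

/-- `p(j)` as an element of `ℚ(j)`. -/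
noncomputable def jP (p : Polynomial ℚ) : K0 := ⟨aeval jq p, aeval_jq_mem_K0 p⟩

lemma algebraMap_jP (p : Polynomial ℚ) :
    algebraMap K0 (LaurentSeries ℚ) (jP p) = aeval jq p := rfl

/-- The monic polynomial over `ℚ(j)` with root `V`. -/
noncomputable def Pmon (P : ℕ → Polynomial ℚ) : Polynomial K0 :=
  X ^ D.ι + ∑ i ∈ Finset.range D.ι, C (jP (P (i + 1))) * X ^ (D.ι - (i + 1))

lemma degree_Pmon_aux (P : ℕ → Polynomial ℚ) :
    (∑ i ∈ Finset.range D.ι, C (jP (P (i + 1))) * X ^ (D.ι - (i + 1)) : Polynomial K0).degree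
      < (D.ι : WithBot ℕ) := by
  refine lt_of_le_of_lt (degree_sum_le _ _) ?_
  rw [Finset.sup_lt_iff (WithBot.bot_lt_coe _)]
  intro i hi
  refine lt_of_le_of_lt (degree_C_mul_X_pow_le _ _) ?_
  have := Finset.mem_range.1 hi
  exact_mod_cast (by omega : D.ι - (i + 1) < D.ι)

lemma Pmon_monic (P : ℕ → Polynomial ℚ) : (Pmon D P).Monic :=
  monic_X_pow_add (degree_Pmon_aux D P)

lemma natDegree_Pmon (P : ℕ → Polynomial ℚ) : (Pmon D P).natDegree = D.ι := by
  have h := degree_Pmon_aux D P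
  have hdeg : (Pmon D P).degree = (D.ι : WithBot ℕ) := by
    unfold Pmon
    rw [degree_add_eq_left_of_degree_lt (by rwa [degree_X_pow]), degree_X_pow]
  exact natDegree_eq_of_degree_eq_some hdeg

lemma aeval_Pmon (P : ℕ → Polynomial ℚ) (hP0 : P 0 = 1)
    (hrel : ∑ i ∈ Finset.range (D.ι + 1), aeval jq (P i) * (Vq D) ^ (D.ι - i) = 0) :
    aeval (Vq D) (Pmon D P) = 0 := by
  rw [Finset.sum_range_succ', hP0, map_one, one_mul, Nat.sub_zero] at hrel
  rw [← hrel, Pmon, map_add, map_pow, aeval_X, map_sum, add_comm]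
  congr 1
  refine Finset.sum_congr rfl fun i _ => ?_
  rw [map_mul, aeval_C, map_pow, aeval_X, algebraMap_jP]

/-- The field `ℚ(j, V)` as an intermediate field over `ℚ(j)`. -/
noncomputable def E' : IntermediateField K0 (LaurentSeries ℚ) :=
  IntermediateField.adjoin K0 {Vq D}

lemma Vq_mem : Vq D ∈ E' D := IntermediateField.mem_adjoin_simple_self K0 (Vq D)

lemma K0_mem (c : K0) : (c : LaurentSeries ℚ) ∈ E' D :=
  (E' D).algebraMap_mem c

lemma aeval_jq_mem (p : Polynomial ℚ) : aeval jq p ∈ E' D :=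
  K0_mem D (jP p)

lemma rat_mem (q : ℚ) : algebraMap ℚ (LaurentSeries ℚ) q ∈ E' D := by
  have : algebraMap ℚ (LaurentSeries ℚ) q = aeval jq (C q) := by simp
  rw [this]
  exact aeval_jq_mem D _

/-- Elements of `ℚ(j, V)` are `ℚ(j)`-combinations of `1, V, …, V^(ι-1)`. -/
lemma exists_coeffs_of_mem (P : ℕ → Polynomial ℚ) (hP0 : P 0 = 1)
    (hrel : ∑ i ∈ Finset.range (D.ι + 1), aeval jq (P i) * (Vq D) ^ (D.ι - i) = 0)
    {y : LaurentSeries ℚ} (hy : y ∈ E' D) :
    ∃ c : ℕ → K0, y = ∑ i ∈ Finset.range D.ι, (c i : LaurentSeries ℚ) * (Vq D) ^ i := by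
  have hroot := aeval_Pmon D P hP0 hrel
  have hmon := Pmon_monic D P
  have hint : IsIntegral K0 (Vq D) := ⟨Pmon D P, hmon, hroot⟩
  have hy' : y ∈ (IntermediateField.adjoin K0 {Vq D}).toSubalgebra := hy
  rw [IntermediateField.adjoin_simple_toSubalgebra_of_isAlgebraic hint.isAlgebraic,
    Algebra.adjoin_singleton_eq_range_aeval] at hy'
  obtain ⟨f, rfl⟩ := hy'
  have hne1 : Pmon D P ≠ 1 := by
    intro h
    have := natDegree_Pmon D P
    rw [h, natDegree_one] at this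
    exact D.hι.ne this
  have hdeg : (f %ₘ Pmon D P).natDegree < D.ι := by
    have := natDegree_modByMonic_lt f hmon hne1
    rwa [natDegree_Pmon] at this
  refine ⟨fun i => (f %ₘ Pmon D P).coeff i, ?_⟩
  show aeval (Vq D) f = _
  rw [← aeval_modByMonic_eq_self_of_root hroot (p := f), aeval_eq_sum_range' hdeg]
  refine Finset.sum_congr rfl fun i _ => ?_
  rw [Algebra.smul_def]
  rfl

/-- Elements of `ℚ(j)` are fractions of polynomials in `j`. -/
lemma exists_frac (c : K0) :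
    ∃ r s : Polynomial ℚ, aeval jq s ≠ 0 ∧ (c : LaurentSeries ℚ) * aeval jq s = aeval jq r := by
  obtain ⟨r, s, hrs⟩ := (IntermediateField.mem_adjoin_simple_iff ℚ (c : LaurentSeries ℚ)).1 c.2
  by_cases hs : aeval jq s = 0
  · refine ⟨0, 1, by simp, ?_⟩
    rw [hrs, hs, div_zero]
    simp
  · exact ⟨r, s, hs, by rw [hrs, div_mul_cancel₀ _ hs]⟩

/-- The element `G = ∂P/∂Y (j, V)`. -/
noncomputable def Gq (P : ℕ → Polynomial ℚ) : LaurentSeries ℚ :=
  ∑ i ∈ Finset.range D.ι, (D.ι - i) • (aeval jq (P i) * (Vq D) ^ (D.ι - 1 - i))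

lemma Gq_mem (P : ℕ → Polynomial ℚ) : Gq D P ∈ E' D :=
  sum_mem fun i _ => nsmul_mem (mul_mem (aeval_jq_mem D _) (pow_mem (Vq_mem D) _)) _

lemma emb_Gq (P : ℕ → Polynomial ℚ) (hP : ∀ i ≤ D.ι, (P i).map (algebraMap ℚ ℂ) = D.p i) :
    emb (Gq D P) = ∑ i ∈ Finset.range D.ι, ((D.ι - i : ℕ) : ℂ) •
      (aeval (jqModC ℂ) (D.p i) * (Vc D) ^ (D.ι - 1 - i)) := by
  rw [Gq, map_sum]
  refine Finset.sum_congr rfl fun i hi => ?_
  rw [map_nsmul, Nat.cast_smul_eq_nsmul, map_mul, map_pow, emb_aeval, emb_Vq,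
    hP i (Finset.mem_range.1 hi).le]

lemma emb_Gq_ne_zero (P : ℕ → Polynomial ℚ)
    (hP : ∀ i ≤ D.ι, (P i).map (algebraMap ℚ ℂ) = D.p i) : emb (Gq D P) ≠ 0 := by
  intro h0
  rw [emb_Gq D P hP, ← Finset.sum_range_reflect] at h0
  have hι := D.hι
  have h1 : ∑ k ∈ Finset.range D.ι,
      aeval (jqModC ℂ) (C ((k + 1 : ℕ) : ℂ) * D.p (D.ι - 1 - k)) * (Vc D) ^ k = 0 := by
    rw [← h0]
    refine Finset.sum_congr rfl fun k hk => ?_
    have hk' := Finset.mem_range.1 hk
    rw [show D.ι - (D.ι - 1 - k) = k + 1 by omega, show D.ι - 1 - (D.ι - 1 - k) = k by omega,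
      map_mul, aeval_C, smul_eq_mulC, mul_assoc]
  have h2 := Fermat.Agent.S28_INDEPC.indep_C N D _ h1 (D.ι - 1) (by omega)
  rw [show D.ι - 1 - (D.ι - 1) = 0 by omega, D.hp0, show D.ι - 1 + 1 = D.ι by omega,
    mul_one] at h2
  have h3 : ((D.ι : ℕ) : ℂ) = 0 := by
    have := congrArg (fun p : Polynomial ℂ => p.coeff 0) h2
    simpa using this
  have : (D.ι : ℂ) ≠ 0 := by exact_mod_cast hι.ne'
  exact this h3

lemma Gq_ne_zero (P : ℕ → Polynomial ℚ)
    (hP : ∀ i ≤ D.ι, (P i).map (algebraMap ℚ ℂ) = D.p i) : Gq D P ≠ 0 := by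
  intro h
  exact emb_Gq_ne_zero D P hP (by rw [h, map_zero])

lemma rat_smul_mem (q : ℚ) {y : LaurentSeries ℚ} (hy : y ∈ E' D) : q • y ∈ E' D := by
  rw [smul_eq_mulQ]
  exact mul_mem (rat_mem D q) hy

/-- Each `j(q^d)`, `d ∣ N`, lies in `ℚ(j, V)`. -/
lemma qExpand_mem (P : ℕ → Polynomial ℚ)
    (hP : ∀ i ≤ D.ι, (P i).map (algebraMap ℚ ℂ) = D.p i)
    (d : ℕ) [NeZero d] (hd : d ∣ N) : qExpand ℚ d jq ∈ E' D := by
  classical
  obtain ⟨Q, hQ⟩ := D.int d hd
  set A : ℕ := (Finset.range D.ι).sup (fun i => (Q i).natDegree) + 1 with hA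
  have hdegQ : ∀ i < D.ι, (Q i).natDegree < A := by
    intro i hi
    have : (Q i).natDegree ≤ (Finset.range D.ι).sup (fun i => (Q i).natDegree) :=
      Finset.le_sup (f := fun i => (Q i).natDegree) (Finset.mem_range.2 hi)
    omega
  let S : Finset (ℕ × ℕ) := Finset.range D.ι ×ˢ Finset.range A
  let x : Option (ℕ × ℕ) → LaurentSeries ℚ := fun o =>
    o.elim (qExpand ℚ d jq * Gq D P) (fun ia => jq ^ ia.2 * (Vq D) ^ ia.1)
  let c : Option (ℕ × ℕ) → ℂ := fun o => o.elim (-1) (fun ia => (Q ia.1).coeff ia.2)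
  have hrel : ∑ o ∈ Finset.insertNone S, c o • emb (x o) = 0 := by
    rw [Finset.sum_insertNone]
    simp only [c, x, Option.elim_none, Option.elim_some, S]
    rw [Finset.sum_product, map_mul, emb_qExpand, emb_Gq D P hP, hQ, smul_eq_mulC, map_neg,
      map_one]
    have key : ∑ i ∈ Finset.range D.ι, ∑ a ∈ Finset.range A,
        (Q (i, a).1).coeff (i, a).2 • emb (jq ^ (i, a).2 * Vq D ^ (i, a).1) =
        ∑ i ∈ Finset.range D.ι, aeval (jqModC ℂ) (Q i) * Vc D ^ i := by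
      refine Finset.sum_congr rfl fun i hi => ?_
      rw [aeval_eq_sum_range' (hdegQ i (Finset.mem_range.1 hi)), Finset.sum_mul]
      refine Finset.sum_congr rfl fun a _ => ?_
      rw [map_mul, map_pow, map_pow, emb_jq, emb_Vq, smul_eq_mulC, Algebra.smul_def, mul_assoc]
    rw [key]
    ring
  obtain ⟨c', ⟨o, ho, hne⟩, hsum⟩ :=
    Fermat.Agent.S28_DESCENT.descent (Finset.insertNone S) x c
      ⟨none, by simp, by simp [c]⟩ hrel
  -- the polynomials collecting the rational coefficients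
  let Cp : ℕ → Polynomial ℚ := fun i =>
    ∑ a ∈ Finset.range A, monomial a (c' (some (i, a)))
  have hCp_coeff : ∀ i a, a < A → (Cp i).coeff a = c' (some (i, a)) := by
    intro i a ha
    simp only [Cp, finsetSum_coeff, coeff_monomial]
    rw [Finset.sum_ite_eq' (Finset.range A) a]
    simp [ha]
  have hT : ∑ ia ∈ S, c' (some ia) • x (some ia) =
      ∑ i ∈ Finset.range D.ι, aeval jq (Cp i) * (Vq D) ^ i := by
    simp only [x, Option.elim_some, S]
    rw [Finset.sum_product]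
    refine Finset.sum_congr rfl fun i _ => ?_
    simp only [Cp, map_sum, aeval_monomial, Finset.sum_mul]
    refine Finset.sum_congr rfl fun a _ => ?_
    rw [smul_eq_mulQ, mul_assoc]
  rw [Finset.sum_insertNone, hT] at hsum
  by_cases h0 : c' none = 0
  · exfalso
    rw [h0, smul_eq_mulQ, map_zero, zero_mul, zero_add] at hsum
    have hz := indep_Q D Cp hsum
    rcases o with _ | ⟨i, a⟩
    · exact hne h0
    · have hmem : (i, a) ∈ S := by simpa using ho
      simp only [S, Finset.mem_product, Finset.mem_range] at hmem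
      apply hne
      rw [← hCp_coeff i a hmem.2, hz i hmem.1, coeff_zero]
  · have hx : x none = qExpand ℚ d jq * Gq D P := rfl
    rw [hx] at hsum
    have hG := Gq_ne_zero D P hP
    rw [smul_eq_mulQ] at hsum
    have hc0 : algebraMap ℚ (LaurentSeries ℚ) (c' none) ≠ 0 := by
      rw [Ne, map_eq_zero]; exact h0
    have hprod : qExpand ℚ d jq * Gq D P =
        -(algebraMap ℚ (LaurentSeries ℚ) (c' none))⁻¹ *
          ∑ i ∈ Finset.range D.ι, aeval jq (Cp i) * (Vq D) ^ i := by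
      have h1 : ∑ i ∈ Finset.range D.ι, aeval jq (Cp i) * (Vq D) ^ i =
          -(algebraMap ℚ (LaurentSeries ℚ) (c' none) * (qExpand ℚ d jq * Gq D P)) := by
        rw [eq_neg_iff_add_eq_zero, add_comm]; exact hsum
      rw [h1]
      field_simp
    have hmem : qExpand ℚ d jq * Gq D P ∈ E' D := by
      rw [hprod]
      exact mul_mem (neg_mem (inv_mem (rat_mem D _)))
        (sum_mem fun i _ => mul_mem (aeval_jq_mem D _) (pow_mem (Vq_mem D) _))
    have : qExpand ℚ d jq = (qExpand ℚ d jq * Gq D P) * (Gq D P)⁻¹ := by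
      rw [mul_assoc, mul_inv_cancel₀ hG, mul_one]
    rw [this]
    exact mul_mem hmem (inv_mem (Gq_mem D P))

/-- The full modular function field lies in `ℚ(j, V)`. -/
lemma full_le (P : ℕ → Polynomial ℚ)
    (hP : ∀ i ≤ D.ι, (P i).map (algebraMap ℚ ℂ) = D.p i)
    {y : LaurentSeries ℚ} (hy : y ∈ modularFunctionFieldFull N) : y ∈ E' D := by
  unfold modularFunctionFieldFull at hy
  induction hy using IntermediateField.adjoin_induction with
  | mem x hx =>
    obtain ⟨d, hne, hd, rfl⟩ := hx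
    exact qExpand_mem D P hP d hd
  | algebraMap q => exact rat_mem D q
  | add x y _ _ hx hy => exact add_mem hx hy
  | inv x _ hx => exact inv_mem hx
  | mul x y _ _ hx hy => exact mul_mem hx hy

theorem spanQ (N : ℕ) [NeZero N] (D : UnitData N) (y : LaurentSeries ℚ)
    (hy : y ∈ ModularCurve.modularFunctionFieldFull N) :
    ∃ (A : Polynomial ℚ) (B : ℕ → Polynomial ℚ), A ≠ 0 ∧
      Polynomial.aeval ModularCurve.jq A * y = ∑ i ∈ Finset.range D.ι,
        Polynomial.aeval ModularCurve.jq (B i) * (Vser ℚ (D.k₀ * (D.ι - 1)) D.U) ^ i := by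
  classical
  obtain ⟨P, hP0, hP, hrel⟩ := exists_rat_rel D
  obtain ⟨c, hc⟩ := exists_coeffs_of_mem D P hP0 hrel (full_le D P hP hy)
  choose r s hs hrs using fun i => exists_frac (c i)
  refine ⟨∏ i ∈ Finset.range D.ι, s i,
    fun i => r i * ∏ k ∈ (Finset.range D.ι).erase i, s k, ?_, ?_⟩
  · intro h
    have := congrArg (aeval jq) h
    rw [map_prod, map_zero, Finset.prod_eq_zero_iff] at this
    obtain ⟨i, _, hi⟩ := this
    exact hs i hi
  · rw [hc, Finset.mul_sum]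
    refine Finset.sum_congr rfl fun i hi => ?_
    rw [map_prod, ← Finset.mul_prod_erase _ _ hi, map_mul, map_prod, ← hrs i]
    ring

end main

end Fermat.Agent.S28_SPANQ
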