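import Fermat.Agent.G_helper6_Contracts
import Fermat.Agent.S28_helper1_LEVEL1
import Fermat.Agent.S28_helper25_HD
import Fermat.Agent.S28_helper25_SPANQ

/-!
# Project G, piece G4 (quotients of forms lie in the function field): LEVEL ONE (helper25)

* `PG_G4L1_isForm_iff_isMF` : `PG_IsForm N k 1 a ↔ IsMF N k a` (the S20 predicate).
* `PG_G4L1_isMF1_of_isForm` : `PG_IsForm 1 k 1 a → IsMF1 k a`.
* `PG_G4L1_poly` : for level-one forms `a`, `b` of the same weight, `b ≠ 0`, there are polynomials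
  `P`, `Q ≠ 0` with `P(j) * qLaur b = Q(j) * qLaur a`.
* `PG_G4L1_adjoin`, `PG_G4L1_levelN`, `PG_G4L1` : the quotient `a / b` lies in `ℂ(j)`, hence in
  the function field of every level; `PG_AN1 1`.
-/

set_option autoImplicit false

open UpperHalfPlane ModularForm CongruenceSubgroup AlgebraicCurve
open scoped MatrixGroups ModularForm Manifold
open Fermat.Agent.G_helper6_Defs Fermat.Agent.S20 Fermat.Agent.S28_helper14_ADefs ModularCurve

namespace Fermat.Agent.G_helper25_G4L1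

/-! ### The bridge `PG_IsForm ↔ IsMF` -/

theorem PG_G4L1_slash_eq_iff (k : ℤ) (a : ℍ → ℂ) (γ : SL(2, ℤ)) :
    a ∣[k] γ = a ↔ ∀ z : ℍ, a (γ • z) = denom (γ : GL (Fin 2) ℝ) z ^ k * a z := by
  constructor
  · intro h z
    have h1 := congrFun h z
    rw [SL_slash_apply, zpow_neg] at h1
    have hd : denom (γ : GL (Fin 2) ℝ) z ^ k ≠ 0 := zpow_ne_zero k (denom_ne_zero _ z)
    rw [← h1]
    field_simp
  · intro h
    funext z
    rw [SL_slash_apply, h z, zpow_neg]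
    have hd : denom (γ : GL (Fin 2) ℝ) z ^ k ≠ 0 := zpow_ne_zero k (denom_ne_zero _ z)
    field_simp

/-- forms with trivial character in the sense of Project G are exactly the modular forms on
`Γ₀(N)` (S20 predicate `IsMF`). -/
theorem PG_G4L1_isForm_iff_isMF (N : ℕ) [NeZero N] (k : ℤ) (a : ℍ → ℂ) :
    PG_IsForm N k 1 a ↔ IsMF N k a := by
  rw [isMF_iff]
  constructor
  · intro h
    refine ⟨h.holo, fun γ hγ => ?_, h.bdd⟩
    rw [PG_G4L1_slash_eq_iff]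
    intro z
    have := h.aut ⟨γ, hγ⟩ z
    simpa using this
  · rintro ⟨h1, h2, h3⟩
    refine ⟨h1, fun γ z => ?_, h3⟩
    have := (PG_G4L1_slash_eq_iff k a γ).1 (h2 γ γ.2) z
    simpa using this

theorem PG_G4L1_isMF1_of_isMF_one {k : ℤ} {a : ℍ → ℂ} (h : IsMF 1 k a) : IsMF1 k a := by
  rw [isMF1_iff]
  refine ⟨h.holo, fun γ => h.slash_eq ?_, ?_⟩
  · rw [Gamma0_mem]
    exact Subsingleton.elim _ _
  · have := h.bdd 1
    rwa [SlashAction.slash_one] at this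

theorem PG_G4L1_isMF1_of_isForm {k : ℤ} {a : ℍ → ℂ} (h : PG_IsForm 1 k 1 a) : IsMF1 k a :=
  PG_G4L1_isMF1_of_isMF_one ((PG_G4L1_isForm_iff_isMF 1 k a).1 h)

theorem PG_G4L1_isForm_of_isMF1 (N : ℕ) [NeZero N] {k : ℤ} {a : ℍ → ℂ} (h : IsMF1 k a) :
    PG_IsForm N k 1 a :=
  (PG_G4L1_isForm_iff_isMF N k a).2 h.isMF

/-! ### `q`-expansions -/

theorem PG_G4L1_qLaur_mul {a b : ℍ → ℂ} (ha : Nice 1 a) (hb : Nice 1 b) :
    PG_qLaur (a * b) = PG_qLaur a * PG_qLaur b := by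
  unfold PG_qLaur
  rw [qExpansion_mul (Fermat.Agent.S28_HD.nice_analyticAt ha)
    (Fermat.Agent.S28_HD.nice_analyticAt hb), map_mul]

theorem PG_G4L1_qLaur_pow {a : ℍ → ℂ} (ha : Nice 1 a) (n : ℕ) :
    PG_qLaur (a ^ n) = PG_qLaur a ^ n := by
  unfold PG_qLaur
  rw [(Fermat.Agent.S28_HD.qExpansion_pow ha n).2, map_pow]

theorem PG_G4L1_qLaur_eq_zero_iff {a : ℍ → ℂ} (ha : Nice 1 a) : PG_qLaur a = 0 ↔ a = 0 := by
  unfold PG_qLaur
  rw [map_eq_zero_iff _ HahnSeries.ofPowerSeries_injective]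
  exact qExpansion_eq_zero_iff one_pos ha.per ha.holo ha.bdd

/-! ### Level one -/

/-- **Level one, polynomial form**: `P(j) * qLaur b = Q(j) * qLaur a` with `Q ≠ 0`. -/
theorem PG_G4L1_poly {k : ℤ} {a b : ℍ → ℂ} (ha : IsMF1 k a) (hb : IsMF1 k b) (hb0 : b ≠ 0) :
    ∃ P Q : Polynomial ℂ, Q ≠ 0 ∧
      Polynomial.aeval (jqModC ℂ) P * PG_qLaur b = Polynomial.aeval (jqModC ℂ) Q * PG_qLaur a := by
  have hk : 0 ≤ k := by
    by_contra hk
    obtain ⟨B, rfl⟩ := hb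
    exact hb0 (ModularFormClass.levelOne_neg_weight_eq_zero (not_le.mp hk) B)
  obtain ⟨m, rfl⟩ := Int.eq_ofNat_of_zero_le hk
  have hna := Fermat.Agent.S28_HD.nice_of_isMF1 ha
  have hnb := Fermat.Agent.S28_HD.nice_of_isMF1 hb
  have hA : IsMF1 (12 * (m : ℤ)) (a * b ^ 11) :=
    (ha.mul (hb.pow 11)).cast (by push_cast; ring)
  have hB : IsMF1 (12 * (m : ℤ)) (b ^ 12) := (hb.pow 12).cast (by push_cast; ring)
  obtain ⟨cA, -, -, hcA⟩ := Fermat.Agent.S28_LEVEL1.level1_structure ⊤ m _ hA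
    (fun _ => Subring.mem_top _)
  obtain ⟨cB, -, -, hcB⟩ := Fermat.Agent.S28_LEVEL1.level1_structure ⊤ m _ hB
    (fun _ => Subring.mem_top _)
  have hqA : PG_qLaur (a * b ^ 11) = PG_qLaur a * PG_qLaur b ^ 11 := by
    rw [PG_G4L1_qLaur_mul hna (Fermat.Agent.S28_HD.nice_pow hnb 11), PG_G4L1_qLaur_pow hnb]
  have hqB : PG_qLaur (b ^ 12) = PG_qLaur b ^ 12 := PG_G4L1_qLaur_pow hnb 12
  have hcA' : PG_qLaur a * PG_qLaur b ^ 11 = Polynomial.aeval (jqModC ℂ) cA * DeltaL ^ m := by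
    rw [← hqA]; exact hcA
  have hcB' : PG_qLaur b ^ 12 = Polynomial.aeval (jqModC ℂ) cB * DeltaL ^ m := by
    rw [← hqB]; exact hcB
  have hβ : PG_qLaur b ≠ 0 := fun h => hb0 ((PG_G4L1_qLaur_eq_zero_iff hnb).1 h)
  have hΔ : DeltaL ^ m ≠ 0 := pow_ne_zero _ Fermat.Agent.S28_LEVEL1.DeltaL_ne_zero
  refine ⟨cA, cB, ?_, ?_⟩
  · rintro rfl
    rw [map_zero, zero_mul] at hcB'
    exact hβ (pow_eq_zero_iff (by norm_num) |>.1 hcB')
  · have h1 : (Polynomial.aeval (jqModC ℂ) cA * PG_qLaur b) * (DeltaL ^ m * PG_qLaur b ^ 11) =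
        (Polynomial.aeval (jqModC ℂ) cB * PG_qLaur a) * (DeltaL ^ m * PG_qLaur b ^ 11) := by
      calc (Polynomial.aeval (jqModC ℂ) cA * PG_qLaur b) * (DeltaL ^ m * PG_qLaur b ^ 11)
          = (Polynomial.aeval (jqModC ℂ) cA * DeltaL ^ m) * PG_qLaur b ^ 12 := by ring
        _ = (PG_qLaur a * PG_qLaur b ^ 11) *
              (Polynomial.aeval (jqModC ℂ) cB * DeltaL ^ m) := by rw [← hcA', ← hcB']
        _ = _ := by ring
    exact mul_right_cancel₀ (mul_ne_zero hΔ (pow_ne_zero _ hβ)) h1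

/-- **Level one**: the quotient of two level-one forms of the same weight lies in `ℂ(j)`. -/
theorem PG_G4L1_adjoin_isMF1 {k : ℤ} {a b : ℍ → ℂ} (ha : IsMF1 k a) (hb : IsMF1 k b)
    (hb0 : b ≠ 0) :
    ∃ x ∈ IntermediateField.adjoin ℂ {jqModC ℂ}, x * PG_qLaur b = PG_qLaur a := by
  obtain ⟨P, Q, hQ, h⟩ := PG_G4L1_poly ha hb hb0
  have hQ' : Polynomial.aeval (jqModC ℂ) Q ≠ 0 := fun h0 =>
    hQ (Fermat.Agent.S28_LEVEL1.aeval_jqModC_injective (by rw [h0, map_zero]))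
  have hmem : ∀ R : Polynomial ℂ,
      Polynomial.aeval (jqModC ℂ) R ∈ IntermediateField.adjoin ℂ {jqModC ℂ} := fun R =>
    IntermediateField.algebra_adjoin_le_adjoin ℂ {jqModC ℂ}
      (Polynomial.aeval_mem_adjoin_singleton ℂ (jqModC ℂ))
  refine ⟨Polynomial.aeval (jqModC ℂ) P / Polynomial.aeval (jqModC ℂ) Q,
    div_mem (hmem P) (hmem Q), ?_⟩
  rw [div_mul_eq_mul_div, h, mul_comm, mul_div_assoc, div_self hQ', mul_one]

theorem PG_G4L1_jqModC_eq : jqModC ℂ = coeffEmb ℂ jq := Fermat.Agent.S28_SPANQ.emb_jq.symm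

theorem PG_G4L1_adjoin (k : ℤ) (a b : ℍ → ℂ) (ha : PG_IsForm 1 k 1 a) (hb : PG_IsForm 1 k 1 b)
    (hb0 : b ≠ 0) :
    ∃ x ∈ IntermediateField.adjoin ℂ {coeffEmb ℂ jq}, x * PG_qLaur b = PG_qLaur a := by
  rw [← PG_G4L1_jqModC_eq]
  exact PG_G4L1_adjoin_isMF1 (PG_G4L1_isMF1_of_isForm ha) (PG_G4L1_isMF1_of_isForm hb) hb0

theorem PG_G4L1_adjoin_le (N : ℕ) [NeZero N] :
    IntermediateField.adjoin ℂ {jqModC ℂ} ≤ PG_FC N := by
  rw [IntermediateField.adjoin_le_iff, Set.singleton_subset_iff, PG_G4L1_jqModC_eq]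
  exact coeffEmb_mem_laurentBaseChange ℂ (modularFunctionField_le_full N (jq_mem N))

/-- the quotient of two LEVEL-ONE forms, realised inside the function field of level `N`
(S20 predicate form). -/
theorem PG_G4L1_levelN_isMF1 (N : ℕ) [NeZero N] {k : ℤ} {a b : ℍ → ℂ} (ha : IsMF1 k a)
    (hb : IsMF1 k b) (hb0 : b ≠ 0) :
    ∃ x : PG_FC N, (x : LaurentSeries ℂ) * PG_qLaur b = PG_qLaur a := by
  obtain ⟨x, hx, h⟩ := PG_G4L1_adjoin_isMF1 ha hb hb0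
  exact ⟨⟨x, PG_G4L1_adjoin_le N hx⟩, h⟩

/-- the quotient of two LEVEL-ONE forms, realised inside the function field of level `N`. -/
theorem PG_G4L1_levelN (N : ℕ) [NeZero N] (k : ℤ) (a b : ℍ → ℂ) (ha : PG_IsForm 1 k 1 a)
    (hb : PG_IsForm 1 k 1 b) (hb0 : b ≠ 0) :
    ∃ x : PG_FC N, (x : LaurentSeries ℂ) * PG_qLaur b = PG_qLaur a :=
  PG_G4L1_levelN_isMF1 N (PG_G4L1_isMF1_of_isForm ha) (PG_G4L1_isMF1_of_isForm hb) hb0

/-- **G4 at level one**. -/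
theorem PG_G4L1 : PG_AN1 1 := fun k a b ha hb hb0 => PG_G4L1_levelN 1 k a b ha hb hb0

end Fermat.Agent.G_helper25_G4L1
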