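import Fermat.Agent.G_helper25_G4FIN
import Fermat.Agent.G_helper16_G5b

/-!
# Project G, piece G4: the degree input (INDEP) from G5 (helper25)

* `PG_G4P_indep` : `PG_G4F_INDEP N` from helper16's `PG_G5_DEG` (`[F_ℂ : ℂ(j)] = μ`).
* `PG_G4P_an1_of_depf` : `PG_AN1 N` from the dimension count (DEP) and `AN2`.
-/

set_option autoImplicit false

open UpperHalfPlane ModularForm CongruenceSubgroup AlgebraicCurve IntermediateField
open scoped MatrixGroups ModularForm Manifold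
open Fermat.Agent.G_helper6_Defs Fermat.Agent.S20 ModularCurve
open Fermat.Agent.G_helper25_G4L1 Fermat.Agent.G_helper25_G4FIN Fermat.Agent.G_helper16_G5

namespace Fermat.Agent.G_helper25_G4PLUG

theorem PG_G4P_jElt_coe (N : ℕ) [NeZero N] :
    ((PG_G5_jElt N : PG_G5_FC N) : LaurentSeries ℂ) = jqModC ℂ := by
  rw [PG_G4L1_jqModC_eq]
  show coeffEmb ℂ (qExpand ℚ 1 jq) = coeffEmb ℂ jq
  rw [qExpand_one_apply]

/-- `ℂ(j) ⊆ ℂ((q))` is the image of `ℂ(j) ⊆ F_ℂ`. -/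
theorem PG_G4P_map_adjoin (N : ℕ) [NeZero N] :
    (ℂ⟮PG_G5_jElt N⟯).map (PG_G5_FC N).val = IntermediateField.adjoin ℂ {jqModC ℂ} := by
  rw [IntermediateField.adjoin_map, Set.image_singleton]
  congr 2
  exact PG_G4P_jElt_coe N

/-- **INDEP** from G5: the function field contains `μ` elements linearly independent over
`ℂ(j)`. -/
theorem PG_G4P_indep (N : ℕ) [NeZero N] : PG_G4F_INDEP N := by
  obtain ⟨hfin, hrank⟩ := PG_G5_DEG N
  have : Module.Free ℂ⟮PG_G5_jElt N⟯ (PG_G5_FC N) := Module.Free.of_divisionRing _ _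
  let b : Module.Basis (Fin (mu N)) ℂ⟮PG_G5_jElt N⟯ (PG_G5_FC N) :=
    Module.finBasisOfFinrankEq _ _ hrank
  refine ⟨fun i => ((b i : PG_G5_FC N) : LaurentSeries ℂ), fun i => (b i).2, fun κ hκ hsum => ?_⟩
  have hκ' : ∀ i, ∃ y : ℂ⟮PG_G5_jElt N⟯, ((y : PG_G5_FC N) : LaurentSeries ℂ) = κ i := by
    intro i
    have h := hκ i
    rw [← PG_G4P_map_adjoin N, IntermediateField.mem_map] at h
    obtain ⟨y, hy, hyκ⟩ := h
    exact ⟨⟨y, hy⟩, hyκ⟩
  choose y hy using hκ'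
  have hsum' : ∑ i, y i • b i = 0 := by
    apply Subtype.ext
    have h1 : ((∑ i, y i • b i : PG_G5_FC N) : LaurentSeries ℂ) =
        ∑ i, κ i * ((b i : PG_G5_FC N) : LaurentSeries ℂ) := by
      rw [AddSubmonoidClass.coe_finsetSum]
      refine Finset.sum_congr rfl fun i _ => ?_
      rw [← hy i]
      rfl
    rw [h1, hsum]
    rfl
  have h0 := (Fintype.linearIndependent_iff.1 b.linearIndependent) y hsum'
  intro i
  rw [← hy i, h0 i]
  rfl

/-- **G4 at level `N`** from the dimension count (DEP) and `AN2`. -/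
theorem PG_G4P_an1_of_depf (N : ℕ) [NeZero N] (hdep : PG_G4F_DEP N) (h2 : PG_AN2 N) :
    PG_AN1 N :=
  PG_G4F_an1 N hdep h2 (PG_G4P_indep N)

end Fermat.Agent.G_helper25_G4PLUG
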