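import Mathlib
import Fermat.Agent.G_helper9_FDDefs

/-!
# Project G, piece G9a, algebraic part: the ideal counting function of a number field

For a number field `M` and `a(n) := PG_idealCount M n` (the number of ideals of `𝓞 M` of norm `n`):

* `PG9a_idealCount_one : a(1) = 1`, `PG9a_idealCount_zero : a(0) = 1`;
* `PG9a_idealCount_mul : m.Coprime n → a(m * n) = a(m) * a(n)`;
* `PG9a_idealCount_prime_pow_le : p.Prime → a(p ^ e) ≤ (e + 1) ^ [M : ℚ]`.
-/

set_option autoImplicit false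
set_option linter.unusedSectionVars false
set_option linter.deprecated false

open NumberField UniqueFactorizationMonoid

namespace Fermat.Agent.G_helper25_G9aMult

open Fermat.Agent.G_helper9_FDDefs

variable (M : Type*) [Field M] [NumberField M]

instance PG9a_finite (n : ℕ) : Finite {I : Ideal (𝓞 M) // Ideal.absNorm I = n} :=
  (Ideal.finite_setOfPred_absNorm_eq (S := 𝓞 M) n).to_subtype

theorem PG9a_idealCount_one : PG_idealCount M 1 = 1 := by
  rw [PG_idealCount, Nat.card_eq_one_iff_unique]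
  refine ⟨⟨?_⟩, ⟨⟨⊤, Ideal.absNorm_top⟩⟩⟩
  rintro ⟨I, hI⟩ ⟨J, hJ⟩
  apply Subtype.ext
  show I = J
  rw [Ideal.absNorm_eq_one_iff.mp hI, Ideal.absNorm_eq_one_iff.mp hJ]

theorem PG9a_idealCount_zero : PG_idealCount M 0 = 1 := by
  rw [PG_idealCount, Nat.card_eq_one_iff_unique]
  refine ⟨⟨?_⟩, ⟨⟨⊥, Ideal.absNorm_bot⟩⟩⟩
  rintro ⟨I, hI⟩ ⟨J, hJ⟩
  apply Subtype.ext
  show I = J
  rw [Ideal.absNorm_eq_zero_iff.mp hI, Ideal.absNorm_eq_zero_iff.mp hJ]

variable {M}

omit [NumberField M] in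
/-- coprime integers generate coprime ideals -/
theorem PG9a_span_sup_span {m n : ℕ} (h : m.Coprime n) :
    Ideal.span {(m : 𝓞 M)} ⊔ Ideal.span {(n : 𝓞 M)} = ⊤ := by
  rw [← Ideal.isCoprime_iff_sup_eq, Ideal.isCoprime_span_singleton_iff]
  have h1 : IsCoprime (m : ℤ) (n : ℤ) := h.isCoprime
  have h2 := h1.map (algebraMap ℤ (𝓞 M))
  simpa using h2

/-- if `n ∈ J` and `m` is prime to `n` then `J + (m) = 1` -/
theorem PG9a_sup_span_eq_top {m n : ℕ} (h : m.Coprime n) (J : Ideal (𝓞 M))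
    (hJ : (n : 𝓞 M) ∈ J) : J ⊔ Ideal.span {(m : 𝓞 M)} = ⊤ := by
  rw [eq_top_iff, ← PG9a_span_sup_span h, sup_comm]
  exact sup_le_sup_right ((Ideal.span_singleton_le_iff_mem J).mpr hJ) _

/-- the `m`-part of an ideal of norm `m * n` -/
theorem PG9a_mul_sup_span {m n : ℕ} (h : m.Coprime n) (I J : Ideal (𝓞 M))
    (hI : (m : 𝓞 M) ∈ I) (hJ : (n : 𝓞 M) ∈ J) :
    I * J ⊔ Ideal.span {(m : 𝓞 M)} = I := by
  apply le_antisymm
  · exact sup_le Ideal.mul_le_left ((Ideal.span_singleton_le_iff_mem I).mpr hI)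
  · calc I = I * ⊤ := (Ideal.mul_top I).symm
      _ = I * (J ⊔ Ideal.span {(m : 𝓞 M)}) := by rw [PG9a_sup_span_eq_top h J hJ]
      _ = I * J ⊔ I * Ideal.span {(m : 𝓞 M)} := Ideal.mul_sup _ _ _
      _ ≤ I * J ⊔ Ideal.span {(m : 𝓞 M)} := sup_le_sup_left Ideal.mul_le_right _

theorem PG9a_sup_mul_sup {m n : ℕ} (h : m.Coprime n) (K : Ideal (𝓞 M))
    (hK : ((m * n : ℕ) : 𝓞 M) ∈ K) :
    (K ⊔ Ideal.span {(m : 𝓞 M)}) * (K ⊔ Ideal.span {(n : 𝓞 M)}) = K := by
  apply le_antisymm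
  · rw [Ideal.sup_mul, Ideal.mul_sup, Ideal.mul_sup]
    refine sup_le (sup_le Ideal.mul_le_left Ideal.mul_le_left) (sup_le Ideal.mul_le_right ?_)
    rw [Ideal.span_singleton_mul_span_singleton, Ideal.span_singleton_le_iff_mem]
    simpa using hK
  · calc K = K * ⊤ := (Ideal.mul_top K).symm
      _ = K * (Ideal.span {(m : 𝓞 M)} ⊔ Ideal.span {(n : 𝓞 M)}) := by
        rw [PG9a_span_sup_span h]
      _ = K * Ideal.span {(m : 𝓞 M)} ⊔ K * Ideal.span {(n : 𝓞 M)} := Ideal.mul_sup _ _ _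
      _ ≤ (K ⊔ Ideal.span {(m : 𝓞 M)}) * (K ⊔ Ideal.span {(n : 𝓞 M)}) := by
        refine sup_le ?_ ?_
        · rw [mul_comm]
          exact Ideal.mul_mono le_sup_right le_sup_left
        · exact Ideal.mul_mono le_sup_left le_sup_right

/-- the norm of the `m`-part -/
theorem PG9a_absNorm_sup_span {m n : ℕ} (hm : 0 < m) (hn : 0 < n) (h : m.Coprime n)
    (K : Ideal (𝓞 M)) (hK : Ideal.absNorm K = m * n) :
    Ideal.absNorm (K ⊔ Ideal.span {(m : 𝓞 M)}) = m ∧
      Ideal.absNorm (K ⊔ Ideal.span {(n : 𝓞 M)}) = n := by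
  have hKmem : ((m * n : ℕ) : 𝓞 M) ∈ K := by
    rw [← hK]; exact Ideal.absNorm_mem K
  have hprod := congrArg Ideal.absNorm (PG9a_sup_mul_sup h K hKmem)
  rw [map_mul, hK] at hprod
  set a := Ideal.absNorm (K ⊔ Ideal.span {(m : 𝓞 M)}) with ha
  set b := Ideal.absNorm (K ⊔ Ideal.span {(n : 𝓞 M)}) with hb
  have ha1 : a ∣ m ^ Module.finrank ℤ (𝓞 M) := by
    rw [← Ideal.absNorm_span_natCast (S := 𝓞 M) m]
    exact Ideal.absNorm_dvd_absNorm_of_le le_sup_right
  have hb1 : b ∣ n ^ Module.finrank ℤ (𝓞 M) := by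
    rw [← Ideal.absNorm_span_natCast (S := 𝓞 M) n]
    exact Ideal.absNorm_dvd_absNorm_of_le le_sup_right
  have hcop_a : a.Coprime n := Nat.Coprime.coprime_dvd_left ha1 (Nat.Coprime.pow_left _ h)
  have hcop_b : b.Coprime m := Nat.Coprime.coprime_dvd_left hb1 (Nat.Coprime.pow_left _ h.symm)
  have ham : a ∣ m := by
    have : a ∣ m * n := ⟨b, hprod.symm⟩
    exact hcop_a.dvd_of_dvd_mul_right this
  have hbn : b ∣ n := by
    have : b ∣ m * n := ⟨a, by rw [mul_comm b a]; exact hprod.symm⟩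
    exact hcop_b.dvd_of_dvd_mul_left this
  obtain ⟨c, hc⟩ := ham
  obtain ⟨e, he⟩ := hbn
  have hc0 : 0 < c := Nat.pos_of_ne_zero (by rintro rfl; simp at hc; omega)
  have he0 : 0 < e := Nat.pos_of_ne_zero (by rintro rfl; simp at he; omega)
  have ha0 : 0 < a := Nat.pos_of_ne_zero (by rintro h0; rw [h0] at hc; simp at hc; omega)
  have hb0 : 0 < b := Nat.pos_of_ne_zero (by rintro h0; rw [h0] at he; simp at he; omega)
  have hce : c * e = 1 := by
    have h1 : a * b = (a * b) * (c * e) := by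
      calc a * b = m * n := hprod
        _ = (a * c) * (b * e) := by rw [← hc, ← he]
        _ = (a * b) * (c * e) := by ring
    have h2 : (a * b) * 1 = (a * b) * (c * e) := by rw [mul_one]; exact h1
    exact (Nat.eq_of_mul_eq_mul_left (Nat.mul_pos ha0 hb0) h2).symm
  have hc1 : c = 1 := Nat.eq_one_of_mul_eq_one_right hce
  have he1 : e = 1 := Nat.eq_one_of_mul_eq_one_left hce
  constructor
  · rw [hc, hc1, mul_one]
  · rw [he, he1, mul_one]

variable (M)

/-- **multiplicativity** of the ideal counting function on coprime arguments -/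
theorem PG9a_idealCount_mul {m n : ℕ} (h : m.Coprime n) :
    PG_idealCount M (m * n) = PG_idealCount M m * PG_idealCount M n := by
  rcases Nat.eq_zero_or_pos m with rfl | hm
  · have hn1 : n = 1 := by simpa using h
    subst hn1
    simp [PG9a_idealCount_one]
  rcases Nat.eq_zero_or_pos n with rfl | hn
  · have hm1 : m = 1 := by simpa using h
    subst hm1
    simp [PG9a_idealCount_one]
  rw [PG_idealCount, PG_idealCount, PG_idealCount, ← Nat.card_prod]
  refine (Nat.card_congr ?_).symm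
  refine
    { toFun := fun x => ⟨x.1.1 * x.2.1, by rw [map_mul, x.1.2, x.2.2]⟩
      invFun := fun K =>
        (⟨K.1 ⊔ Ideal.span {(m : 𝓞 M)}, (PG9a_absNorm_sup_span hm hn h K.1 K.2).1⟩,
          ⟨K.1 ⊔ Ideal.span {(n : 𝓞 M)}, (PG9a_absNorm_sup_span hm hn h K.1 K.2).2⟩)
      left_inv := ?_
      right_inv := ?_ }
  · rintro ⟨⟨I, hI⟩, ⟨J, hJ⟩⟩
    have hIm : (m : 𝓞 M) ∈ I := by rw [← hI]; exact Ideal.absNorm_mem I
    have hJn : (n : 𝓞 M) ∈ J := by rw [← hJ]; exact Ideal.absNorm_mem J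
    refine Prod.ext (Subtype.ext ?_) (Subtype.ext ?_)
    · exact PG9a_mul_sup_span h I J hIm hJn
    · show I * J ⊔ Ideal.span {(n : 𝓞 M)} = J
      rw [mul_comm]
      exact PG9a_mul_sup_span h.symm J I hJn hIm
  · rintro ⟨K, hK⟩
    apply Subtype.ext
    have hKmem : ((m * n : ℕ) : 𝓞 M) ∈ K := by
      rw [← hK]; exact Ideal.absNorm_mem K
    exact PG9a_sup_mul_sup h K hKmem

/-! ### Ideals of prime power norm -/

section PrimePow

variable {M}

/-- the prime factors of an ideal of norm `p ^ e` lie over `p`, with multiplicity at most `e` -/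
theorem PG9a_factor_props {p : ℕ} (hp : p.Prime) {e : ℕ} {I : Ideal (𝓞 M)}
    (hI : Ideal.absNorm I = p ^ e) (P : Ideal (𝓞 M)) (hP : P ∈ normalizedFactors I) :
    P ∈ (Ideal.span {(p : ℤ)}).primesOver (𝓞 M) := by
  have hI0 : I ≠ ⊥ := by
    intro h
    rw [h, Ideal.absNorm_bot] at hI
    exact (pow_ne_zero e hp.ne_zero) hI.symm
  obtain ⟨hPprime, hIP⟩ := (Ideal.mem_normalizedFactors_iff hI0).mp hP
  have hmem : ((p : ℕ) : 𝓞 M) ∈ P := by
    have h1 : ((p ^ e : ℕ) : 𝓞 M) ∈ I := by rw [← hI]; exact Ideal.absNorm_mem I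
    have h2 : ((p : ℕ) : 𝓞 M) ^ e ∈ P := by
      have := hIP h1
      simpa using this
    exact hPprime.mem_of_pow_mem e h2
  refine ⟨hPprime, ?_⟩
  rw [Ideal.liesOver_iff, Ideal.under_def]
  have : Fact p.Prime := ⟨hp⟩
  refine (Int.ideal_span_isMaximal_of_prime p).eq_of_le ?_ ?_
  · exact Ideal.comap_ne_top _ hPprime.ne_top
  · rw [Ideal.span_singleton_le_iff_mem, Ideal.mem_comap]
    simpa using hmem

theorem PG9a_count_le {p : ℕ} (hp : p.Prime) {e : ℕ} {I : Ideal (𝓞 M)}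
    (hI : Ideal.absNorm I = p ^ e) (P : Ideal (𝓞 M)) :
    Multiset.count P (normalizedFactors I) ≤ e := by
  classical
  have hI0 : I ≠ ⊥ := by
    intro h
    rw [h, Ideal.absNorm_bot] at hI
    exact (pow_ne_zero e hp.ne_zero) hI.symm
  by_cases hP : P ∈ normalizedFactors I
  · obtain ⟨hPprime, hIP⟩ := (Ideal.mem_normalizedFactors_iff hI0).mp hP
    set c := Multiset.count P (normalizedFactors I) with hc
    have hdvd : P ^ c ∣ I := by
      have h1 : Multiset.replicate c P ≤ normalizedFactors I :=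
        Multiset.le_count_iff_replicate_le.mp le_rfl
      have h2 := Multiset.prod_dvd_prod_of_le h1
      rwa [Multiset.prod_replicate, Ideal.prod_normalizedFactors_eq_self hI0] at h2
    have hnorm : Ideal.absNorm P ^ c ∣ p ^ e := by
      rw [← hI, ← map_pow]
      exact Ideal.absNorm_dvd_absNorm_of_le (Ideal.le_of_dvd hdvd)
    have hP1 : Ideal.absNorm P ∣ p ^ e := by
      rw [← hI]
      exact Ideal.absNorm_dvd_absNorm_of_le hIP
    obtain ⟨f, -, hf⟩ := (Nat.dvd_prime_pow hp).mp hP1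
    have hf0 : f ≠ 0 := by
      rintro rfl
      rw [pow_zero, Ideal.absNorm_eq_one_iff] at hf
      exact hPprime.ne_top hf
    rw [hf, ← pow_mul, Nat.pow_dvd_pow_iff_le_right hp.one_lt] at hnorm
    calc c ≤ f * c := Nat.le_mul_of_pos_left c (Nat.pos_of_ne_zero hf0)
      _ ≤ e := hnorm
  · rw [Multiset.count_eq_zero_of_notMem hP]
    exact Nat.zero_le e

variable (M)

/-- **polynomial bound** for the number of ideals of prime power norm -/
theorem PG9a_idealCount_prime_pow_le {p : ℕ} (hp : p.Prime) (e : ℕ) :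
    PG_idealCount M (p ^ e) ≤ (e + 1) ^ Module.finrank ℚ M := by
  classical
  have : Fact p.Prime := ⟨hp⟩
  have := Int.ideal_span_isMaximal_of_prime p
  have hp0 : (Ideal.span {(p : ℤ)} : Ideal ℤ) ≠ ⊥ := by
    rw [Ne, Ideal.span_singleton_eq_bot]
    exact_mod_cast hp.ne_zero
  set T := IsDedekindDomain.primesOverFinset (Ideal.span {(p : ℤ)}) (𝓞 M) with hT
  have hcard : T.card ≤ Module.finrank ℚ M :=
    Ideal.card_primesOverFinset_le_finrank (𝓞 M) ℚ M hp0
  let ι : {I : Ideal (𝓞 M) // Ideal.absNorm I = p ^ e} → (T → Fin (e + 1)) :=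
    fun I P => ⟨Multiset.count P.1 (normalizedFactors I.1),
      Nat.lt_succ_of_le (PG9a_count_le hp I.2 P.1)⟩
  have hinj : Function.Injective ι := by
    rintro ⟨I, hI⟩ ⟨J, hJ⟩ h
    apply Subtype.ext
    show I = J
    have hI0 : I ≠ ⊥ := by
      intro h0
      rw [h0, Ideal.absNorm_bot] at hI
      exact (pow_ne_zero e hp.ne_zero) hI.symm
    have hJ0 : J ≠ ⊥ := by
      intro h0
      rw [h0, Ideal.absNorm_bot] at hJ
      exact (pow_ne_zero e hp.ne_zero) hJ.symm
    have hfac : normalizedFactors I = normalizedFactors J := by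
      ext P
      by_cases hPT : P ∈ T
      · have := congrFun h ⟨P, hPT⟩
        exact congrArg Fin.val this
      · have h1 : P ∉ normalizedFactors I := fun hP =>
          hPT ((IsDedekindDomain.mem_primesOverFinset_iff hp0 _).mpr (PG9a_factor_props hp hI P hP))
        have h2 : P ∉ normalizedFactors J := fun hP =>
          hPT ((IsDedekindDomain.mem_primesOverFinset_iff hp0 _).mpr (PG9a_factor_props hp hJ P hP))
        rw [Multiset.count_eq_zero_of_notMem h1, Multiset.count_eq_zero_of_notMem h2]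
    rw [← Ideal.prod_normalizedFactors_eq_self hI0, ← Ideal.prod_normalizedFactors_eq_self hJ0,
      hfac]
  calc PG_idealCount M (p ^ e) ≤ Nat.card (T → Fin (e + 1)) :=
        Nat.card_le_card_of_injective ι hinj
    _ = (e + 1) ^ T.card := by
        rw [Nat.card_eq_fintype_card, Fintype.card_fun, Fintype.card_fin, Fintype.card_coe]
    _ ≤ (e + 1) ^ Module.finrank ℚ M := Nat.pow_le_pow_right (Nat.succ_pos e) hcard

end PrimePow

end Fermat.Agent.G_helper25_G9aMult
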