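import Mathlib
import Fermat.Agent.G_helper9_FDDefs
import Fermat.Agent.G_helper25_G9aMult

set_option autoImplicit false
set_option linter.unusedSectionVars false

/-! # Project G, piece G9a (analytic part, Euler product and logarithms) (helper25)

For a number field `M` with ideal counting function `a(n) = PG_idealCount M n` and `s > 1`:
* `PG9a_summable` : `∑_p a(p) p^{-s}` converges;
* `PG9a_euler_log` : `|log (∑_n a(n) n^{-s}) - ∑_p a(p) p^{-s}| ≤ C` with `C` independent of `s`.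
-/

open NumberField Filter Topology

namespace Fermat.Agent.G_helper25_G9aEuler

open Fermat.Agent.G_helper9_FDDefs Fermat.Agent.G_helper25_G9aMult

variable (M : Type*) [Field M] [NumberField M]

/-- the real Dirichlet coefficient function `n ↦ a(n) n^{-s}`. -/
noncomputable def PG9a_f (s : ℝ) (n : ℕ) : ℝ := (PG_idealCount M n : ℝ) * (n : ℝ) ^ (-s)

theorem PG9a_f_nonneg (s : ℝ) (n : ℕ) : 0 ≤ PG9a_f M s n :=
  mul_nonneg (Nat.cast_nonneg _) (Real.rpow_nonneg (Nat.cast_nonneg _) _)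

theorem PG9a_f_zero {s : ℝ} (hs : s ≠ 0) : PG9a_f M s 0 = 0 := by
  simp [PG9a_f, Real.zero_rpow (neg_ne_zero.mpr hs)]

theorem PG9a_f_one (s : ℝ) : PG9a_f M s 1 = 1 := by
  simp [PG9a_f, PG9a_idealCount_one]

theorem PG9a_f_mul (s : ℝ) {m n : ℕ} (h : m.Coprime n) :
    PG9a_f M s (m * n) = PG9a_f M s m * PG9a_f M s n := by
  simp only [PG9a_f, PG9a_idealCount_mul M h, Nat.cast_mul,
    Real.mul_rpow (Nat.cast_nonneg m) (Nat.cast_nonneg n)]
  ring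

theorem PG9a_count_prime_le {p : ℕ} (hp : p.Prime) :
    (PG_idealCount M p : ℝ) ≤ 2 ^ Module.finrank ℚ M := by
  have h := PG9a_idealCount_prime_pow_le M hp 1
  rw [pow_one] at h
  have h2 : ((PG_idealCount M p : ℕ) : ℝ) ≤ (((1 + 1) ^ Module.finrank ℚ M : ℕ) : ℝ) :=
    Nat.cast_le.mpr h
  simpa [one_add_one_eq_two] using h2

theorem PG9a_f_prime_le (s : ℝ) {p : ℕ} (hp : p.Prime) :
    PG9a_f M s p ≤ 2 ^ Module.finrank ℚ M * (p : ℝ) ^ (-s) :=
  mul_le_mul_of_nonneg_right (PG9a_count_prime_le M hp) (Real.rpow_nonneg (Nat.cast_nonneg _) _)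

/-- **G9a, summability** (pieces row 345, verbatim). -/
theorem PG9a_summable (M : Type*) [Field M] [NumberField M] {s : ℝ} (hs : 1 < s) :
    Summable (fun p : Nat.Primes => (PG_idealCount M p : ℝ) * ((p : ℕ) : ℝ) ^ (-s)) := by
  have h1 : Summable (fun p : Nat.Primes => ((p : ℕ) : ℝ) ^ (-s)) :=
    Nat.Primes.summable_rpow.mpr (by linarith)
  refine Summable.of_nonneg_of_le (fun p => PG9a_f_nonneg M s p)
    (fun p => PG9a_f_prime_le M s p.2) (h1.mul_left _)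

/-! ### Abstract real-analysis lemmas -/

theorem PG9a_hasSum_log_of_hasProd {ι : Type*} {F : ι → ℝ} {Z : ℝ} (hF : ∀ i, 1 ≤ F i)
    (h : HasProd F Z) : 1 ≤ Z ∧ HasSum (fun i => Real.log (F i)) (Real.log Z) := by
  have ht : Tendsto (fun S : Finset ι => ∏ i ∈ S, F i) atTop (𝓝 Z) := h
  have hZ : 1 ≤ Z := by
    refine ge_of_tendsto' ht (fun S => ?_)
    have := Finset.prod_le_prod (s := S) (f := fun _ => (1:ℝ)) (g := F)
      (fun i _ => zero_le_one) (fun i _ => hF i)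
    simpa using this
  refine ⟨hZ, ?_⟩
  have hlog : Tendsto (fun S : Finset ι => Real.log (∏ i ∈ S, F i)) atTop (𝓝 (Real.log Z)) :=
    ht.log (by linarith)
  have heq : (fun S : Finset ι => ∑ i ∈ S, Real.log (F i)) =
      fun S : Finset ι => Real.log (∏ i ∈ S, F i) := by
    funext S
    rw [Real.log_prod]
    intro i _
    have := hF i
    linarith
  change Tendsto (fun S : Finset ι => ∑ i ∈ S, Real.log (F i)) atTop (𝓝 (Real.log Z))
  rw [heq]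
  exact hlog

theorem PG9a_log_bounds {x t : ℝ} (hx : 0 ≤ x) (ht : 0 ≤ t) :
    |Real.log (1 + x + t) - x| ≤ x ^ 2 + t := by
  have hpos : 0 < 1 + x + t := by linarith
  have h1 : Real.log (1 + x + t) ≤ (1 + x + t) - 1 := Real.log_le_sub_one_of_pos hpos
  have h2 : Real.log (1 + x) ≤ Real.log (1 + x + t) :=
    Real.log_le_log (by linarith) (by linarith)
  have h3 : 1 - (1 + x)⁻¹ ≤ Real.log (1 + x) := Real.one_sub_inv_le_log_of_pos (by linarith)
  have h4 : x - x ^ 2 ≤ 1 - (1 + x)⁻¹ := by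
    have hx1 : (0 : ℝ) < 1 + x := by linarith
    have : 1 - (1 + x)⁻¹ = x / (1 + x) := by
      field_simp
      ring
    rw [this, le_div_iff₀ hx1]
    nlinarith [mul_nonneg hx (mul_nonneg hx hx)]
  rw [abs_le]
  constructor
  · nlinarith [sq_nonneg x]
  · linarith [sq_nonneg x]

/-- the series defining the constant `K_d = ∑_e (e+3)^d 2^{-e}` converges. -/
theorem PG9a_K_summable (d : ℕ) : Summable (fun e : ℕ => ((e : ℝ) + 3) ^ d * (1 / 2 : ℝ) ^ e) := by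
  have h1 : Summable (fun n : ℕ => ((n : ℝ)) ^ d * (1 / 2 : ℝ) ^ n) :=
    summable_pow_mul_geometric_of_norm_lt_one d (by norm_num)
  have h2 : Summable (fun n : ℕ => (((n + 3 : ℕ) : ℝ)) ^ d * (1 / 2 : ℝ) ^ (n + 3)) :=
    (summable_nat_add_iff (f := fun n : ℕ => ((n : ℝ)) ^ d * (1 / 2 : ℝ) ^ n) 3).mpr h1
  have h3 := h2.mul_left 8
  refine h3.congr (fun e => ?_)
  push_cast
  ring

/-- the constant `K_d = ∑_e (e+3)^d 2^{-e}`. -/
noncomputable def PG9a_K (d : ℕ) : ℝ := ∑' e : ℕ, ((e : ℝ) + 3) ^ d * (1 / 2 : ℝ) ^ e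

theorem PG9a_K_nonneg (d : ℕ) : 0 ≤ PG9a_K d :=
  tsum_nonneg (fun e => by positivity)

/-! ### The local Euler factors -/

section local_factor

variable {p : ℕ} (hp : p.Prime) {s : ℝ} (hs : 1 < s)

include hp hs

theorem PG9a_u_le_inv : (p : ℝ) ^ (-s) ≤ (p : ℝ)⁻¹ := by
  have hp1 : (1 : ℝ) ≤ p := by exact_mod_cast hp.one_lt.le
  have := Real.rpow_le_rpow_of_exponent_le hp1 (show -s ≤ -1 by linarith)
  rwa [Real.rpow_neg_one] at this

theorem PG9a_u_le_half : (p : ℝ) ^ (-s) ≤ 1 / 2 := by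
  have hp2 : (2 : ℝ) ≤ p := by exact_mod_cast hp.two_le
  have h1 := PG9a_u_le_inv hp hs
  have h2 : (p : ℝ)⁻¹ ≤ 1 / 2 := by
    rw [inv_le_comm₀ (by linarith) (by norm_num)]
    simpa using hp2
  linarith

theorem PG9a_u_sq_le : ((p : ℝ) ^ (-s)) ^ 2 ≤ (p : ℝ) ^ (-2 : ℝ) := by
  have h0 : (0 : ℝ) ≤ (p : ℝ) ^ (-s) := Real.rpow_nonneg (Nat.cast_nonneg _) _
  have h1 := PG9a_u_le_inv hp hs
  have h2 : ((p : ℝ) ^ (-s)) ^ 2 ≤ ((p : ℝ)⁻¹) ^ 2 := pow_le_pow_left₀ h0 h1 2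
  have h3 : (p : ℝ) ^ (-2 : ℝ) = ((p : ℝ)⁻¹) ^ 2 := by
    rw [Real.rpow_neg (Nat.cast_nonneg _), inv_pow]
    congr 1
    exact_mod_cast Real.rpow_natCast (p : ℝ) 2
  rw [h3]
  exact h2

theorem PG9a_f_pow_le (e : ℕ) :
    PG9a_f M s (p ^ (e + 2)) ≤
      ((e : ℝ) + 3) ^ Module.finrank ℚ M * (1 / 2 : ℝ) ^ e * ((p : ℝ) ^ (-s)) ^ 2 := by
  have h0 : (0 : ℝ) ≤ (p : ℝ) ^ (-s) := Real.rpow_nonneg (Nat.cast_nonneg _) _
  have ha : ((PG_idealCount M (p ^ (e + 2)) : ℕ) : ℝ) ≤ ((e : ℝ) + 3) ^ Module.finrank ℚ M := by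
    have h := PG9a_idealCount_prime_pow_le M hp (e + 2)
    have h2 : ((PG_idealCount M (p ^ (e + 2)) : ℕ) : ℝ) ≤
        (((e + 2 + 1) ^ Module.finrank ℚ M : ℕ) : ℝ) := Nat.cast_le.mpr h
    refine h2.trans (le_of_eq ?_)
    push_cast
    ring
  have hu : (((p ^ (e + 2) : ℕ) : ℝ)) ^ (-s) = ((p : ℝ) ^ (-s)) ^ e * ((p : ℝ) ^ (-s)) ^ 2 := by
    rw [Nat.cast_pow, ← Real.rpow_pow_comm (Nat.cast_nonneg _), pow_add]
  have hue : ((p : ℝ) ^ (-s)) ^ e ≤ (1 / 2 : ℝ) ^ e :=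
    pow_le_pow_left₀ h0 (PG9a_u_le_half hp hs) e
  unfold PG9a_f
  rw [hu]
  calc ((PG_idealCount M (p ^ (e + 2)) : ℕ) : ℝ) * (((p : ℝ) ^ (-s)) ^ e * ((p : ℝ) ^ (-s)) ^ 2)
      ≤ ((e : ℝ) + 3) ^ Module.finrank ℚ M * ((1 / 2 : ℝ) ^ e * ((p : ℝ) ^ (-s)) ^ 2) := by
        apply mul_le_mul ha _ (by positivity) (by positivity)
        exact mul_le_mul_of_nonneg_right hue (by positivity)
    _ = _ := by ring

variable (hsum : Summable (PG9a_f M s))

include hsum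

omit hs in
theorem PG9a_summable_pow : Summable (fun e : ℕ => PG9a_f M s (p ^ e)) :=
  hsum.comp_injective (Nat.pow_right_injective hp.two_le)

theorem PG9a_factor_eq :
    ∑' e : ℕ, PG9a_f M s (p ^ e) = 1 + PG9a_f M s p + ∑' e : ℕ, PG9a_f M s (p ^ (e + 2)) := by
  have h := (PG9a_summable_pow M hp hsum).sum_add_tsum_nat_add 2
  rw [← h]
  simp [Finset.sum_range_succ, PG9a_f_one]

omit hp hs hsum in
theorem PG9a_tail_nonneg : 0 ≤ ∑' e : ℕ, PG9a_f M s (p ^ (e + 2)) :=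
  tsum_nonneg (fun _ => PG9a_f_nonneg M s _)

theorem PG9a_tail_le :
    ∑' e : ℕ, PG9a_f M s (p ^ (e + 2)) ≤ PG9a_K (Module.finrank ℚ M) * (p : ℝ) ^ (-2 : ℝ) := by
  have hs1 : Summable (fun e : ℕ => PG9a_f M s (p ^ (e + 2))) :=
    (summable_nat_add_iff (f := fun e : ℕ => PG9a_f M s (p ^ e)) 2).mpr
      (PG9a_summable_pow M hp hsum)
  have hs2 : Summable (fun e : ℕ =>
      ((e : ℝ) + 3) ^ Module.finrank ℚ M * (1 / 2 : ℝ) ^ e * ((p : ℝ) ^ (-s)) ^ 2) :=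
    (PG9a_K_summable (Module.finrank ℚ M)).mul_right _
  have h1 := hs1.tsum_le_tsum (fun e => PG9a_f_pow_le M hp hs e) hs2
  rw [tsum_mul_right] at h1
  refine h1.trans ?_
  exact mul_le_mul_of_nonneg_left (PG9a_u_sq_le hp hs) (PG9a_K_nonneg _)

theorem PG9a_one_le_factor : 1 ≤ ∑' e : ℕ, PG9a_f M s (p ^ e) := by
  rw [PG9a_factor_eq M hp hs hsum]
  have := PG9a_tail_nonneg M (p := p) (s := s)
  have := PG9a_f_nonneg M s p
  linarith

theorem PG9a_log_factor_le :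
    |Real.log (∑' e : ℕ, PG9a_f M s (p ^ e)) - PG9a_f M s p| ≤
      (4 ^ Module.finrank ℚ M + PG9a_K (Module.finrank ℚ M)) * (p : ℝ) ^ (-2 : ℝ) := by
  rw [PG9a_factor_eq M hp hs hsum]
  refine (PG9a_log_bounds (PG9a_f_nonneg M s p) (PG9a_tail_nonneg M (p := p) (s := s))).trans ?_
  have h1 := PG9a_tail_le M hp hs hsum
  have h0 : (0 : ℝ) ≤ (p : ℝ) ^ (-s) := Real.rpow_nonneg (Nat.cast_nonneg _) _
  have h2 : PG9a_f M s p ^ 2 ≤ 4 ^ Module.finrank ℚ M * (p : ℝ) ^ (-2 : ℝ) := by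
    have h3 := PG9a_f_prime_le M s hp
    have h4 : PG9a_f M s p ^ 2 ≤ (2 ^ Module.finrank ℚ M * (p : ℝ) ^ (-s)) ^ 2 :=
      pow_le_pow_left₀ (PG9a_f_nonneg M s p) h3 2
    refine h4.trans ?_
    have e4 : ((2 : ℝ) ^ Module.finrank ℚ M) ^ 2 = 4 ^ Module.finrank ℚ M := by
      rw [← pow_mul, mul_comm, pow_mul]
      norm_num
    rw [mul_pow, e4]
    exact mul_le_mul_of_nonneg_left (PG9a_u_sq_le hp hs) (by positivity)
  linarith

end local_factor

/-! ### The global statement -/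

/-- **G9a, Euler product + logarithm**: `log Z_M(s) = ∑_p a(p) p^{-s} + O(1)` uniformly in
`s > 1`. -/
theorem PG9a_euler_log (M : Type*) [Field M] [NumberField M] :
    ∃ C : ℝ, ∀ s : ℝ, 1 < s →
      Summable (fun n : ℕ => (PG_idealCount M n : ℝ) * (n : ℝ) ^ (-s)) →
      |Real.log (∑' n : ℕ, (PG_idealCount M n : ℝ) * (n : ℝ) ^ (-s)) - PG_primeSum M s| ≤ C := by
  have hP : Summable (fun p : Nat.Primes => ((p : ℕ) : ℝ) ^ (-2 : ℝ)) :=
    Nat.Primes.summable_rpow.mpr (by norm_num)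
  refine ⟨(4 ^ Module.finrank ℚ M + PG9a_K (Module.finrank ℚ M)) *
    ∑' p : Nat.Primes, ((p : ℕ) : ℝ) ^ (-2 : ℝ), fun s hs hsum => ?_⟩
  have hsum' : Summable (PG9a_f M s) := hsum
  have hnorm : Summable (fun n => ‖PG9a_f M s n‖) := by
    simpa [Real.norm_of_nonneg (PG9a_f_nonneg M s _)] using hsum'
  have hprod := EulerProduct.eulerProduct_hasProd (f := PG9a_f M s) (PG9a_f_one M s)
    (fun h => PG9a_f_mul M s h) hnorm (PG9a_f_zero M (by linarith))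
  obtain ⟨-, hlog⟩ := PG9a_hasSum_log_of_hasProd
    (fun p : Nat.Primes => PG9a_one_le_factor M p.2 hs hsum') hprod
  have hx : HasSum (fun p : Nat.Primes => PG9a_f M s p) (PG_primeSum M s) :=
    (PG9a_summable M hs).hasSum
  have hdiff := hlog.sub hx
  have hg : HasSum (fun p : Nat.Primes =>
      (4 ^ Module.finrank ℚ M + PG9a_K (Module.finrank ℚ M)) * ((p : ℕ) : ℝ) ^ (-2 : ℝ))
      ((4 ^ Module.finrank ℚ M + PG9a_K (Module.finrank ℚ M)) *
        ∑' p : Nat.Primes, ((p : ℕ) : ℝ) ^ (-2 : ℝ)) := hP.hasSum.mul_left _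
  have := hdiff.norm_le_of_bounded hg (fun p => by
    rw [Real.norm_eq_abs]
    exact PG9a_log_factor_le M p.2 hs hsum')
  rw [Real.norm_eq_abs] at this
  exact this

end Fermat.Agent.G_helper25_G9aEuler
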