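import Mathlib
import Fermat.Agent.G_helper9_FDDefs
import Fermat.Agent.G_helper25_G9aEuler

set_option autoImplicit false

/-! # Project G, piece G9a: final step (helper25)

`PG9a_primeSum_asymp_of_zeta`: the prime sum asymptotics `∑_p a(p) p^{-s} = log (1/(s-1)) + O(1)`
as `s → 1⁺` follow from the two ℕ-indexed zeta statements (summability for `s > 1` and
`log Z(s) = log (1/(s-1)) + O(1)`), by the Euler product estimate `PG9a_euler_log`.
-/

open NumberField Filter Topology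

namespace Fermat.Agent.G_helper25_G9aFin

open Fermat.Agent.G_helper9_FDDefs Fermat.Agent.G_helper25_G9aEuler

/-- the final step of G9a, with the two zeta statements as hypotheses. -/
theorem PG9a_primeSum_asymp_of_zeta (M : Type*) [Field M] [NumberField M]
    (hsum : ∀ {s : ℝ}, 1 < s →
      Summable (fun n : ℕ => (PG_idealCount M n : ℝ) * (n : ℝ) ^ (-s)))
    (hzeta : ∃ C : ℝ, ∀ᶠ s in 𝓝[>] (1 : ℝ),
      |Real.log (∑' n : ℕ, (PG_idealCount M n : ℝ) * (n : ℝ) ^ (-s)) -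
        Real.log (1 / (s - 1))| ≤ C) :
    ∃ C : ℝ, ∀ᶠ s in 𝓝[>] (1 : ℝ), |PG_primeSum M s - Real.log (1 / (s - 1))| ≤ C := by
  obtain ⟨C₁, h₁⟩ := PG9a_euler_log M
  obtain ⟨C₂, h₂⟩ := hzeta
  refine ⟨C₁ + C₂, ?_⟩
  filter_upwards [h₂, self_mem_nhdsWithin] with s hs2 hs
  have hs1 : (1 : ℝ) < s := hs
  have h3 := h₁ s hs1 (hsum hs1)
  have h4 : PG_primeSum M s - Real.log (1 / (s - 1)) =
      -(Real.log (∑' n : ℕ, (PG_idealCount M n : ℝ) * (n : ℝ) ^ (-s)) - PG_primeSum M s) +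
      (Real.log (∑' n : ℕ, (PG_idealCount M n : ℝ) * (n : ℝ) ^ (-s)) -
        Real.log (1 / (s - 1))) := by ring
  rw [h4]
  refine (abs_add_le _ _).trans ?_
  rw [abs_neg]
  exact add_le_add h3 hs2

end Fermat.Agent.G_helper25_G9aFin
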