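import Mathlib
import Fermat.Prelude.Def_ModularCurve_LaurentCoeff

/-!
# Project G, piece G8c: the fixed field of `Aut(Ω / K)`

`K` an algebraically closed field, `Ω` an algebraically closed extension of `K`
(application: `K = AlgebraicClosure ℚ`, `Ω = ℂ`).

* `PG8c_exists_algEquiv_add`: for `x ∈ Ω` outside `K` and `c ∈ K` there is a `K`-automorphism of
  `Ω` with `x ↦ x + c`;
* `PG8c_mem_range_of_finite_orbit`: an element with finite orbit lies in `K`;
* `PG8c_mem_range_of_finiteIndex`: an element fixed by a subgroup of finite index lies in `K`;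
* `PG8c_coeffMap_fixed`: a Laurent series fixed coefficientwise by a subgroup of finite index has
  coefficients in `K`.
-/

set_option autoImplicit false

noncomputable section

open ModularCurve

namespace Fermat.Agent.G_helper26_G8c

section Transl

variable {K : Type*} [Field K] {ι : Type*}

/-- The translation automorphism `X_i ↦ X_i + g i` of a polynomial ring. -/
def PG8c_translAlgHom (g : ι → K) : MvPolynomial ι K →ₐ[K] MvPolynomial ι K :=
  MvPolynomial.aeval fun i => MvPolynomial.X i + MvPolynomial.C (g i)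

@[simp]
theorem PG8c_translAlgHom_X (g : ι → K) (i : ι) :
    PG8c_translAlgHom g (MvPolynomial.X i) = MvPolynomial.X i + MvPolynomial.C (g i) := by
  simp [PG8c_translAlgHom]

theorem PG8c_translAlgHom_comp (g h : ι → K) :
    (PG8c_translAlgHom g).comp (PG8c_translAlgHom h) = PG8c_translAlgHom (fun i => g i + h i) := by
  apply MvPolynomial.algHom_ext
  intro i
  simp only [AlgHom.comp_apply, PG8c_translAlgHom_X, map_add, MvPolynomial.algHom_C]
  try rw [MvPolynomial.algebraMap_eq]
  try rw [map_add]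
  ring

theorem PG8c_translAlgHom_zero :
    PG8c_translAlgHom (fun _ : ι => (0 : K)) = AlgHom.id K (MvPolynomial ι K) := by
  apply MvPolynomial.algHom_ext
  intro i
  simp

/-- The translation automorphism as an algebra equivalence. -/
def PG8c_translEquiv (g : ι → K) : MvPolynomial ι K ≃ₐ[K] MvPolynomial ι K :=
  AlgEquiv.ofAlgHom (PG8c_translAlgHom g) (PG8c_translAlgHom fun i => - g i)
    (by rw [PG8c_translAlgHom_comp]; simp [PG8c_translAlgHom_zero])
    (by rw [PG8c_translAlgHom_comp]; simp [PG8c_translAlgHom_zero])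

@[simp]
theorem PG8c_translEquiv_X (g : ι → K) (i : ι) :
    PG8c_translEquiv g (MvPolynomial.X i) = MvPolynomial.X i + MvPolynomial.C (g i) := by
  simp [PG8c_translEquiv]

end Transl

variable {K Ω : Type*} [Field K] [Field Ω] [Algebra K Ω]

/-- Over an algebraically closed field, the elements outside the base field are transcendental. -/
theorem PG8c_transcendental [IsAlgClosed K] (x : Ω) (hx : x ∉ (algebraMap K Ω).range) :
    Transcendental K x := by
  intro halg
  apply hx
  have hint : IsIntegral K x := halg.isIntegral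
  have hirr := minpoly.irreducible hint
  have hdeg := IsAlgClosed.degree_eq_one_of_irreducible K hirr
  exact minpoly.mem_range_of_degree_eq_one K x hdeg

/-- **Translations extend**: for `x` outside `K` and `c ∈ K` there is a `K`-automorphism of `Ω`
with `x ↦ x + c`. -/
theorem PG8c_exists_algEquiv_add [IsAlgClosed K] [IsAlgClosed Ω] (x : Ω)
    (hx : x ∉ (algebraMap K Ω).range) (c : K) :
    ∃ σ : Ω ≃ₐ[K] Ω, σ x = x + algebraMap K Ω c := by
  classical
  have htr : Transcendental K x := PG8c_transcendental x hx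
  have hs : AlgebraicIndepOn K id ({x} : Set Ω) :=
    (algebraicIndependent_singleton_iff (R := K) (x := fun i : ({x} : Set Ω) => id (i : Ω))
      (⟨x, Set.mem_singleton x⟩ : ({x} : Set Ω))).mpr htr
  obtain ⟨B, hxB, hB⟩ := exists_isTranscendenceBasis_superset hs
  have hxB' : x ∈ B := hxB (Set.mem_singleton x)
  let v : B → Ω := fun b => (b : Ω)
  have hv : IsTranscendenceBasis K v := hB
  have : IsAlgClosure (Algebra.adjoin K (Set.range v)) Ω :=
    IsAlgClosed.isAlgClosure_of_transcendence_basis v hv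
  let g : B → K := fun b => if (b : Ω) = x then c else 0
  let ev := hv.1.aevalEquiv
  let e : Algebra.adjoin K (Set.range v) ≃ₐ[K] Algebra.adjoin K (Set.range v) :=
    (ev.symm.trans (PG8c_translEquiv g)).trans ev
  let σ₀ : Ω ≃+* Ω := IsAlgClosure.equivOfEquiv Ω Ω e.toRingEquiv
  have hσ₀ : ∀ a : Algebra.adjoin K (Set.range v),
      σ₀ (algebraMap _ Ω a) = algebraMap _ Ω (e a) := fun a =>
    IsAlgClosure.equivOfEquiv_algebraMap Ω Ω e.toRingEquiv a
  have hcomm : ∀ r : K, σ₀ (algebraMap K Ω r) = algebraMap K Ω r := by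
    intro r
    have h1 : algebraMap K Ω r =
        algebraMap (Algebra.adjoin K (Set.range v)) Ω
          (algebraMap K (Algebra.adjoin K (Set.range v)) r) := rfl
    rw [h1, hσ₀, AlgEquiv.commutes]
  refine ⟨AlgEquiv.ofRingEquiv (f := σ₀) hcomm, ?_⟩
  change σ₀ x = _
  have hxa : x = algebraMap (Algebra.adjoin K (Set.range v)) Ω
      (ev (MvPolynomial.X ⟨x, hxB'⟩)) := by
    have : ((ev (MvPolynomial.X ⟨x, hxB'⟩) : Algebra.adjoin K (Set.range v)) : Ω) = x := by
      simp [ev, v]
    exact this.symm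
  have he : e (ev (MvPolynomial.X ⟨x, hxB'⟩)) =
      ev (MvPolynomial.X ⟨x, hxB'⟩) + algebraMap K _ c := by
    simp only [e, AlgEquiv.trans_apply, AlgEquiv.symm_apply_apply, PG8c_translEquiv_X, map_add]
    congr 1
    have hg : g ⟨x, hxB'⟩ = c := by simp [g]
    rw [hg, ← MvPolynomial.algebraMap_eq, AlgEquiv.commutes]
  conv_lhs => rw [hxa]
  rw [hσ₀, he, map_add, ← hxa]
  rfl

/-- An element with finite orbit under `Aut(Ω / K)` lies in `K`. -/
theorem PG8c_mem_range_of_finite_orbit [IsAlgClosed K] [IsAlgClosed Ω] (x : Ω)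
    (h : (Set.range fun σ : Ω ≃ₐ[K] Ω => σ x).Finite) : x ∈ (algebraMap K Ω).range := by
  by_contra hx
  have : Infinite K := IsAlgClosed.instInfinite
  have hinj : Function.Injective fun c : K => x + algebraMap K Ω c := by
    intro c d hcd
    exact (algebraMap K Ω).injective (add_left_cancel hcd)
  have hsub : (Set.range fun c : K => x + algebraMap K Ω c) ⊆
      Set.range fun σ : Ω ≃ₐ[K] Ω => σ x := by
    rintro _ ⟨c, rfl⟩
    obtain ⟨σ, hσ⟩ := PG8c_exists_algEquiv_add x hx c
    exact ⟨σ, hσ⟩
  exact (Set.infinite_range_of_injective hinj) (h.subset hsub)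

/-- The orbit form of `PG8c_mem_range_of_finite_orbit`. -/
theorem PG8c_mem_range_of_finite_orbit' [IsAlgClosed K] [IsAlgClosed Ω] (x : Ω)
    (h : (MulAction.orbit (Ω ≃ₐ[K] Ω) x).Finite) : x ∈ (algebraMap K Ω).range :=
  PG8c_mem_range_of_finite_orbit x h

/-- The orbit of a point fixed by a subgroup of finite index is finite (any action). -/
theorem PG8c_finite_range_of_finiteIndex {G X : Type*} [Group G] [MulAction G X]
    (H : Subgroup G) [H.FiniteIndex] (x : X) (h : ∀ σ ∈ H, σ • x = x) :
    (Set.range fun σ : G => σ • x).Finite := by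
  have : Finite (G ⧸ H) := Subgroup.finite_quotient_of_finiteIndex
  let f : G ⧸ H → X := Quotient.lift (s := QuotientGroup.leftRel H) (fun σ : G => σ • x) (by
    intro a b hab
    have hab' : a⁻¹ * b ∈ H := QuotientGroup.leftRel_apply.mp hab
    have := h _ hab'
    change a • x = b • x
    rw [mul_smul] at this
    calc a • x = a • (a⁻¹ • b • x) := by rw [this]
      _ = b • x := smul_inv_smul a (b • x))
  have hsub : (Set.range fun σ : G => σ • x) ⊆ Set.range f := by
    rintro _ ⟨σ, rfl⟩
    exact ⟨QuotientGroup.mk σ, rfl⟩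
  exact (Set.finite_range f).subset hsub

/-- An element fixed by a subgroup of finite index of `Aut(Ω / K)` lies in `K`. -/
theorem PG8c_mem_range_of_finiteIndex [IsAlgClosed K] [IsAlgClosed Ω]
    (H : Subgroup (Ω ≃ₐ[K] Ω)) [H.FiniteIndex] (x : Ω) (h : ∀ σ ∈ H, σ x = x) :
    x ∈ (algebraMap K Ω).range :=
  PG8c_mem_range_of_finite_orbit x (PG8c_finite_range_of_finiteIndex H x h)

/-- The fixed field of `Aut(Ω / K)` is `K`. -/
theorem PG8c_mem_range_of_fixed [IsAlgClosed K] [IsAlgClosed Ω] (x : Ω)
    (h : ∀ σ : Ω ≃ₐ[K] Ω, σ x = x) : x ∈ (algebraMap K Ω).range := by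
  refine PG8c_mem_range_of_finite_orbit x ?_
  have : (Set.range fun σ : Ω ≃ₐ[K] Ω => σ x) ⊆ {x} := by
    rintro _ ⟨σ, rfl⟩
    exact h σ
  exact (Set.finite_singleton x).subset this

/-- A Laurent series all of whose coefficients lie in `K` comes from `K((q))`. -/
theorem PG8c_exists_coeffMap_eq (f : LaurentSeries Ω)
    (h : ∀ n : ℤ, f.coeff n ∈ (algebraMap K Ω).range) :
    ∃ g : LaurentSeries K, coeffMap (algebraMap K Ω) g = f := by
  classical
  choose c hc using h
  have hsupp : Function.support c ⊆ f.support := by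
    intro n hn
    rw [Function.mem_support] at hn
    rw [HahnSeries.mem_support]
    intro h0
    apply hn
    apply (algebraMap K Ω).injective
    rw [hc n, h0, map_zero]
  refine ⟨⟨c, f.isPWO_support.mono hsupp⟩, ?_⟩
  ext n
  rw [coeffMap_coeff]
  exact hc n

/-- A Laurent series fixed coefficientwise by a subgroup of finite index of `Aut(Ω / K)` has
coefficients in `K`. -/
theorem PG8c_coeffMap_fixed [IsAlgClosed K] [IsAlgClosed Ω]
    (H : Subgroup (Ω ≃ₐ[K] Ω)) [H.FiniteIndex] (f : LaurentSeries Ω)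
    (h : ∀ σ ∈ H, coeffMap ((σ : Ω ≃ₐ[K] Ω) : Ω →+* Ω) f = f) :
    ∃ g : LaurentSeries K, coeffMap (algebraMap K Ω) g = f := by
  refine PG8c_exists_coeffMap_eq f fun n => ?_
  refine PG8c_mem_range_of_finiteIndex H (f.coeff n) fun σ hσ => ?_
  have := congrArg (fun z => HahnSeries.coeff z n) (h σ hσ)
  simpa using this

/-- A Laurent series fixed coefficientwise by all of `Aut(Ω / K)` has coefficients in `K`. -/
theorem PG8c_coeffMap_fixed_all [IsAlgClosed K] [IsAlgClosed Ω] (f : LaurentSeries Ω)
    (h : ∀ σ : Ω ≃ₐ[K] Ω, coeffMap ((σ : Ω ≃ₐ[K] Ω) : Ω →+* Ω) f = f) :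
    ∃ g : LaurentSeries K, coeffMap (algebraMap K Ω) g = f := by
  refine PG8c_exists_coeffMap_eq f fun n => ?_
  refine PG8c_mem_range_of_fixed (f.coeff n) fun σ => ?_
  have := congrArg (fun z => HahnSeries.coeff z n) (h σ)
  simpa using this

end Fermat.Agent.G_helper26_G8c
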