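import Mathlib
import Fermat.Prelude.Def_AlgebraicCurve_DivisorClassGroup
import Fermat.Prelude.Def_AlgebraicCurve_BaseChangeGalois
import Fermat.Agent.S18_helper26_PLACE
import Fermat.Agent.S24_helper6_A2
import Fermat.Agent.S24_helper15_A1

/-!
# Project G, piece G8e: places under a constant field extension `K → Ω`

`K ⊆ Ω` fields (`K` algebraically closed for the main results, `Ω/K` arbitrary, e.g. `ℚ̄ → ℂ`),
`FK/K` and `FΩ/Ω` function fields, `ι : FK →+* FΩ` over `K → Ω`, with
* `hgen`: `FΩ` is generated by `Ω` and `ι(FK)`;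
* linear disjointness, in the form: for a `K`-basis `b` of `Ω` the map
  `Ψ : (J →₀ FK) → FΩ`, `a ↦ ∑ b_β · ι(a_β)`, is injective.

Main results: places of `FΩ` above a place of `FK` (`PG8e_Above`): `e = 1`, uniqueness,
existence, restriction; the base change of divisors and of `Pic⁰`.
-/

set_option autoImplicit false
set_option linter.unusedSectionVars false
set_option linter.style.haveILetI false

noncomputable section

universe uK uΩ uFK uFΩ uJ

open AlgebraicCurve IntermediateField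
open scoped Pointwise

namespace Fermat.Agent.G_helper26_G8e

section Psi

variable {K : Type uK} {Ω : Type uΩ} [Field K] [Field Ω] [Algebra K Ω]
variable {FK : Type uFK} {FΩ : Type uFΩ} [Field FK] [Field FΩ] [Algebra K FK] [Algebra Ω FΩ]
variable {J : Type uJ} (b : Module.Basis J K Ω) (ι : FK →+* FΩ)

/-- The coordinate map `Ψ : a ↦ ∑ b_β · ι(a_β)`. -/
def PG8e_Psi : (J →₀ FK) →+ FΩ :=
  Finsupp.liftAddHom fun β =>
    (AddMonoidHom.mulLeft (algebraMap Ω FΩ (b β))).comp ι.toAddMonoidHom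

theorem PG8e_Psi_apply (a : J →₀ FK) :
    PG8e_Psi b ι a = a.sum fun β x => algebraMap Ω FΩ (b β) * ι x := rfl

@[simp]
theorem PG8e_Psi_single (β : J) (x : FK) :
    PG8e_Psi b ι (Finsupp.single β x) = algebraMap Ω FΩ (b β) * ι x := by
  rw [PG8e_Psi_apply, Finsupp.sum_single_index]
  rw [map_zero, mul_zero]

theorem PG8e_Psi_eq_sum (a : J →₀ FK) (s : Finset J) (hs : a.support ⊆ s) :
    PG8e_Psi b ι a = ∑ β ∈ s, algebraMap Ω FΩ (b β) * ι (a β) := by
  rw [PG8e_Psi_apply]
  exact Finsupp.sum_of_support_subset a hs _ fun β _ => by rw [map_zero, mul_zero]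

/-- `Ψ(a) · ι(y) = Ψ(a · y)`. -/
theorem PG8e_Psi_mul_right (a : J →₀ FK) (y : FK) :
    PG8e_Psi b ι a * ι y = PG8e_Psi b ι (a.mapRange (· * y) (zero_mul y)) := by
  induction a using Finsupp.induction_linear with
  | zero => simp
  | add f g hf hg =>
    rw [map_add, add_mul, hf, hg, ← map_add]
    congr 1
    ext β
    simp [add_mul]
  | single β x =>
    rw [Finsupp.mapRange_single, PG8e_Psi_single, PG8e_Psi_single, map_mul, mul_assoc]

variable (hι : ∀ a : K, ι (algebraMap K FK a) = algebraMap Ω FΩ (algebraMap K Ω a))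

/-- The coordinates of `c · ι(x)`, `c ∈ Ω`. -/
def PG8e_const (c : Ω) (x : FK) : J →₀ FK :=
  (b.repr c).mapRange (fun μ => μ • x) (zero_smul K x)

theorem PG8e_const_apply (c : Ω) (x : FK) (β : J) :
    PG8e_const b c x β = b.repr c β • x := rfl

include hι in
theorem PG8e_Psi_const (c : Ω) (x : FK) :
    PG8e_Psi b ι (PG8e_const b c x) = algebraMap Ω FΩ c * ι x := by
  have hsupp : (PG8e_const b c x).support ⊆ (b.repr c).support := by
    intro β hβ
    rw [Finsupp.mem_support_iff] at hβ ⊢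
    intro h0
    apply hβ
    rw [PG8e_const_apply, h0, zero_smul]
  rw [PG8e_Psi_eq_sum b ι _ _ hsupp]
  have hc : c = ∑ β ∈ (b.repr c).support, b.repr c β • b β := by
    conv_lhs => rw [← b.linearCombination_repr c]
    rw [Finsupp.linearCombination_apply, Finsupp.sum]
  conv_rhs => rw [hc]
  rw [map_sum, Finset.sum_mul]
  refine Finset.sum_congr rfl fun β _ => ?_
  rw [PG8e_const_apply, Algebra.smul_def, Algebra.smul_def, map_mul, map_mul, hι]
  ring

/-- The subring generated by `Ω` and `ι(S)`. -/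
def PG8e_T (S : Set FK) : Subring FΩ :=
  Subring.closure (Set.range (algebraMap Ω FΩ) ∪ ι '' S)

theorem PG8e_algebraMap_mem_T (S : Set FK) (c : Ω) :
    algebraMap Ω FΩ c ∈ PG8e_T (Ω := Ω) ι S :=
  Subring.subset_closure (Or.inl ⟨c, rfl⟩)

theorem PG8e_map_mem_T (S : Set FK) {x : FK} (hx : x ∈ S) : ι x ∈ PG8e_T (Ω := Ω) ι S :=
  Subring.subset_closure (Or.inr ⟨x, hx, rfl⟩)

include hι in
/-- Every element of the ring generated by `Ω` and `ι(S)`, `S` a `K`-subalgebra, has coordinates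
in `S`. -/
theorem PG8e_exists_Psi_eq (S : Subalgebra K FK) {z : FΩ}
    (hz : z ∈ PG8e_T (Ω := Ω) ι (S : Set FK)) :
    ∃ a : J →₀ FK, (∀ β, a β ∈ S) ∧ PG8e_Psi b ι a = z := by
  classical
  -- products `c · ι x`
  have hprod : ∀ y ∈ Submonoid.closure (Set.range (algebraMap Ω FΩ) ∪ ι '' (S : Set FK)),
      ∃ (c : Ω) (x : FK), x ∈ S ∧ y = algebraMap Ω FΩ c * ι x := by
    intro y hy
    induction hy using Submonoid.closure_induction with
    | mem y hy =>
      rcases hy with ⟨c, rfl⟩ | ⟨x, hx, rfl⟩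
      · exact ⟨c, 1, S.one_mem, by rw [map_one, mul_one]⟩
      · exact ⟨1, x, hx, by rw [map_one, one_mul]⟩
    | one => exact ⟨1, 1, S.one_mem, by rw [map_one, map_one, mul_one]⟩
    | mul y y' _ _ h h' =>
      obtain ⟨c, x, hx, rfl⟩ := h
      obtain ⟨c', x', hx', rfl⟩ := h'
      exact ⟨c * c', x * x', S.mul_mem hx hx', by rw [map_mul, map_mul]; ring⟩
  have hz' : z ∈ AddSubgroup.closure
      ((Submonoid.closure (Set.range (algebraMap Ω FΩ) ∪ ι '' (S : Set FK)) : Submonoid FΩ) :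
        Set FΩ) := Subring.mem_closure_iff.1 hz
  clear hz
  induction hz' using AddSubgroup.closure_induction with
  | mem y hy =>
    obtain ⟨c, x, hx, rfl⟩ := hprod y hy
    refine ⟨PG8e_const b c x, fun β => ?_, PG8e_Psi_const b ι hι c x⟩
    rw [PG8e_const_apply]
    exact S.smul_mem hx _
  | zero => exact ⟨0, fun β => S.zero_mem, map_zero _⟩
  | add y y' _ _ h h' =>
    obtain ⟨a, ha, rfl⟩ := h
    obtain ⟨a', ha', rfl⟩ := h'
    exact ⟨a + a', fun β => S.add_mem (ha β) (ha' β), map_add _ _ _⟩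
  | neg y _ h =>
    obtain ⟨a, ha, rfl⟩ := h
    exact ⟨-a, fun β => S.neg_mem (ha β), map_neg _ _⟩

include hι in
/-- Every element of `FΩ` is a quotient of two elements with coordinates. -/
theorem PG8e_exists_div
    (hgen : Subfield.closure (Set.range (algebraMap Ω FΩ) ∪ Set.range ι) = ⊤) (z : FΩ) :
    ∃ a a' : J →₀ FK, PG8e_Psi b ι a' ≠ 0 ∧ z = PG8e_Psi b ι a / PG8e_Psi b ι a' := by
  have hz : z ∈ Subfield.closure (Set.range (algebraMap Ω FΩ) ∪ Set.range ι) := by
    rw [hgen]; exact Subfield.mem_top z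
  obtain ⟨y, hy, y', hy', rfl⟩ := Subfield.mem_closure_iff.1 hz
  have hT : Subring.closure (Set.range (algebraMap Ω FΩ) ∪ Set.range ι) =
      PG8e_T (Ω := Ω) ι ((⊤ : Subalgebra K FK) : Set FK) := by
    unfold PG8e_T
    congr 2
    ext w
    simp
  rw [hT] at hy hy'
  obtain ⟨a, -, rfl⟩ := PG8e_exists_Psi_eq b ι hι ⊤ hy
  obtain ⟨a', -, rfl⟩ := PG8e_exists_Psi_eq b ι hι ⊤ hy'
  by_cases h0 : PG8e_Psi b ι a' = 0
  · refine ⟨0, PG8e_const b 1 1, ?_, ?_⟩
    · rw [PG8e_Psi_const b ι hι, map_one, map_one, mul_one]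
      exact one_ne_zero
    · rw [h0, div_zero, map_zero, zero_div]
  · exact ⟨a, a', h0, rfl⟩

end Psi

section NormalForm

variable {K : Type uK} {Ω : Type uΩ} [Field K] [Field Ω] [Algebra K Ω]
variable {FK : Type uFK} {FΩ : Type uFΩ} [Field FK] [Field FΩ] [Algebra K FK] [Algebra Ω FΩ]
variable {J : Type uJ} (b : Module.Basis J K Ω) (ι : FK →+* FΩ)
variable (hι : ∀ a : K, ι (algebraMap K FK a) = algebraMap Ω FΩ (algebraMap K Ω a))
variable (PK : Place K FK)

/-- The valuation ring of a place, as a `K`-subalgebra. -/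
def PG8e_OK : Subalgebra K FK :=
  { PK.toValuationSubring.toSubring with algebraMap_mem' := PK.algebraMap_mem' }

theorem PG8e_mem_OK {x : FK} : x ∈ PG8e_OK PK ↔ x ∈ PK.toValuationSubring := Iff.rfl

/-- The ring generated by `Ω` and `ι(O_PK)`. -/
def PG8e_T0 : Subring FΩ := PG8e_T (Ω := Ω) ι (PG8e_OK PK : Set FK)

theorem PG8e_ne_zero_of_ord {t : FK} (ht : PK.ord t = 1) : t ≠ 0 := by
  rintro rfl
  rw [Place.ord_zero] at ht
  exact zero_ne_one ht

theorem PG8e_mul_zpow_mem {t : FK} (ht : PK.ord t = 1) {x : FK} {m : ℤ}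
    (hx : x = 0 ∨ m ≤ PK.ord x) : x * t ^ (-m) ∈ PK.toValuationSubring := by
  rcases hx with rfl | hm
  · rw [zero_mul]; exact PK.toValuationSubring.zero_mem
  by_cases hx0 : x = 0
  · rw [hx0, zero_mul]; exact PK.toValuationSubring.zero_mem
  apply Fermat.Agent.S24_helper6_A2.mem_of_ord_nonneg
  have ht0 := PG8e_ne_zero_of_ord PK ht
  rw [PK.ord_mul hx0 (zpow_ne_zero _ ht0), PK.ord_zpow, ht]
  omega

theorem PG8e_ord_mul_zpow {t : FK} (ht : PK.ord t = 1) {x : FK} (hx0 : x ≠ 0) (m : ℤ) :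
    PK.ord (x * t ^ (-m)) = PK.ord x - m := by
  have ht0 := PG8e_ne_zero_of_ord PK ht
  rw [PK.ord_mul hx0 (zpow_ne_zero _ ht0), PK.ord_zpow, ht]
  ring

/-- Rationality of a place: every element of the valuation ring is congruent to a constant. -/
def PG8e_IsRational : Prop :=
  ∀ y ∈ PK.toValuationSubring, ∃ c : K, 0 < PK.ord (y - algebraMap K FK c) ∨ y = algebraMap K FK c

theorem PG8e_isRational [IsAlgClosed K] (j : FK) [FiniteDimensional K⟮j⟯ FK] :
    PG8e_IsRational PK := fun y hy =>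
  Fermat.Agent.S24_helper15_A1.exists_const_sub_mem j
    (Algebra.IsAlgebraic.of_finite K⟮j⟯ FK) PK y hy

theorem PG8e_exists_const_add {t : FK} (ht : PK.ord t = 1) (hrat : PG8e_IsRational PK)
    {u : FK} (hu : u ∈ PK.toValuationSubring) :
    ∃ (c : K) (v : FK), v ∈ PK.toValuationSubring ∧ u = algebraMap K FK c + t * v ∧
      (u ≠ 0 → PK.ord u = 0 → c ≠ 0) := by
  have ht0 := PG8e_ne_zero_of_ord PK ht
  obtain ⟨c, hc⟩ := hrat u hu
  refine ⟨c, (u - algebraMap K FK c) * t ^ (-(1 : ℤ)), ?_, ?_, ?_⟩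
  · apply PG8e_mul_zpow_mem PK ht
    rcases hc with hc | hc
    · exact Or.inr (by omega)
    · exact Or.inl (by rw [hc, sub_self])
  · rw [zpow_neg, zpow_one]
    field_simp
    ring
  · intro hu0 hord hc0
    rw [hc0, map_zero, sub_zero] at hc
    rcases hc with hc | hc
    · omega
    · exact hu0 hc

include hι in
/-- **Normal form** at a rational place: a nonzero element `Ψ(a)` is
`ι(t)^m · (c + ι(t) · w)` with `c ∈ Ωˣ` and `w` in the ring generated by `Ω` and `ι(O_PK)`. -/
theorem PG8e_normal_form {t : FK} (ht : PK.ord t = 1) (hrat : PG8e_IsRational PK)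
    (a : J →₀ FK) (ha : a ≠ 0) :
    ∃ (m : ℤ) (c : Ω) (w : FΩ), c ≠ 0 ∧ w ∈ PG8e_T0 (Ω := Ω) ι PK ∧
      (∀ β, a β = 0 ∨ m ≤ PK.ord (a β)) ∧
      PG8e_Psi b ι a = ι t ^ m * (algebraMap Ω FΩ c + ι t * w) := by
  classical
  have ht0 := PG8e_ne_zero_of_ord PK ht
  have hs : a.support.Nonempty := Finsupp.support_nonempty_iff.2 ha
  set m : ℤ := a.support.inf' hs (fun β => PK.ord (a β)) with hm
  obtain ⟨β₀, hβ₀, hβ₀m⟩ := Finset.exists_mem_eq_inf' hs (fun β => PK.ord (a β))
  have hmle : ∀ β, a β = 0 ∨ m ≤ PK.ord (a β) := by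
    intro β
    by_cases h0 : a β = 0
    · exact Or.inl h0
    · exact Or.inr (Finset.inf'_le _ (Finsupp.mem_support_iff.2 h0))
  have hu : ∀ β, a β * t ^ (-m) ∈ PK.toValuationSubring := fun β =>
    PG8e_mul_zpow_mem PK ht (hmle β)
  choose c v hv huv hc using fun β => PG8e_exists_const_add PK ht hrat (hu β)
  have ha0 : a β₀ ≠ 0 := Finsupp.mem_support_iff.1 hβ₀
  have hc0 : c β₀ ≠ 0 := by
    apply hc β₀ (mul_ne_zero ha0 (zpow_ne_zero _ ht0))
    rw [PG8e_ord_mul_zpow PK ht ha0, ← hβ₀m, sub_self]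
  refine ⟨m, ∑ β ∈ a.support, c β • b β,
    ∑ β ∈ a.support, algebraMap Ω FΩ (b β) * ι (v β), ?_, ?_, hmle, ?_⟩
  · intro h0
    have := linearIndependent_iff'.1 b.linearIndependent a.support c h0 β₀ hβ₀
    exact hc0 this
  · refine Subring.sum_mem _ fun β _ => Subring.mul_mem _ ?_ ?_
    · exact PG8e_algebraMap_mem_T ι _ _
    · exact PG8e_map_mem_T ι _ (hv β)
  · rw [PG8e_Psi_eq_sum b ι a a.support (Finset.Subset.refl _), map_sum, Finset.mul_sum,
      ← Finset.sum_add_distrib, Finset.mul_sum]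
    refine Finset.sum_congr rfl fun β _ => ?_
    have h1 : a β = t ^ m * (algebraMap K FK (c β) + t * v β) := by
      rw [← huv β, zpow_neg]
      field_simp
    have h2 : ι (a β) = ι t ^ m * (algebraMap Ω FΩ (algebraMap K Ω (c β)) + ι t * ι (v β)) := by
      rw [h1, map_mul, map_zpow₀, map_add, map_mul, hι]
    rw [h2, Algebra.smul_def, map_mul]
    ring

end NormalForm

section OrdLemmas

variable {K : Type uK} {F : Type uFK} [Field K] [Field F] [Algebra K F] (P : Place K F)

theorem PG8e_ord_add_eq_zero {x y : F} (hx0 : x ≠ 0) (hx : P.ord x = 0)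
    (hy : y = 0 ∨ 0 < P.ord y) : x + y ≠ 0 ∧ P.ord (x + y) = 0 := by
  rcases hy with rfl | hy
  · rw [add_zero]; exact ⟨hx0, hx⟩
  have hy0 : y ≠ 0 := by
    rintro rfl
    rw [Place.ord_zero] at hy
    exact lt_irrefl _ hy
  have hvx : P.adicValuation x = 1 := by
    rw [P.adicValuation_eq_exp_neg_ord hx0, hx, neg_zero, WithZero.exp_zero]
  have hvy : P.adicValuation y < 1 := by
    rw [P.adicValuation_eq_exp_neg_ord hy0, ← WithZero.exp_zero, WithZero.exp_lt_exp]
    omega
  have hv : P.adicValuation (x + y) = 1 := by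
    have h := Valuation.map_add_eq_of_lt_left P.adicValuation (x := x) (y := y)
      (by rw [hvx]; exact hvy)
    rw [h, hvx]
  have hne : x + y ≠ 0 := by
    intro h0
    rw [h0, map_zero] at hv
    exact zero_ne_one hv
  refine ⟨hne, ?_⟩
  have h1 := P.adicValuation_eq_exp_neg_ord hne
  rw [hv, ← WithZero.exp_zero, WithZero.exp_inj] at h1
  omega

theorem PG8e_mem_iff_ord {z : F} : z ∈ P.toValuationSubring ↔ z = 0 ∨ 0 ≤ P.ord z := by
  constructor
  · intro hz
    exact Or.inr (Fermat.Agent.S24_helper6_A2.ord_nonneg_of_mem P hz)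
  · rintro (rfl | h)
    · exact P.toValuationSubring.zero_mem
    · exact Fermat.Agent.S24_helper6_A2.mem_of_ord_nonneg P h

theorem PG8e_ord_pos_of_inv_notMem {z : F} (hz : z ∈ P.toValuationSubring)
    (hinv : z⁻¹ ∉ P.toValuationSubring) : 0 < P.ord z := by
  by_contra h
  exact hinv (Fermat.Agent.S24_helper15_A1.inv_mem_of_ord_nonpos P hz h)

theorem PG8e_ord_eq_zero_of_mem_of_inv_mem {z : F} (hz : z ∈ P.toValuationSubring)
    (hinv : z⁻¹ ∈ P.toValuationSubring) : P.ord z = 0 := by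
  have h1 := Fermat.Agent.S24_helper6_A2.ord_nonneg_of_mem P hz
  have h2 := Fermat.Agent.S24_helper6_A2.ord_nonneg_of_mem P hinv
  rw [Place.ord_inv] at h2
  omega

theorem PG8e_place_ext_of_ord {P P' : Place K F} (h : ∀ z : F, P.ord z = P'.ord z) : P = P' := by
  apply Place.ext
  ext z
  rw [PG8e_mem_iff_ord, PG8e_mem_iff_ord, h z]

end OrdLemmas

section Above

variable {K : Type uK} {Ω : Type uΩ} [Field K] [Field Ω] [Algebra K Ω]
variable {FK : Type uFK} {FΩ : Type uFΩ} [Field FK] [Field FΩ] [Algebra K FK] [Algebra Ω FΩ]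
variable {J : Type uJ} (b : Module.Basis J K Ω) (ι : FK →+* FΩ)
variable (hι : ∀ a : K, ι (algebraMap K FK a) = algebraMap Ω FΩ (algebraMap K Ω a))
variable (hgen : Subfield.closure (Set.range (algebraMap Ω FΩ) ∪ Set.range ι) = ⊤)
variable (hLD : Function.Injective (PG8e_Psi b ι))

/-- The place `P` of `FΩ` lies above the place `PK` of `FK`. -/
def PG8e_Above (PK : Place K FK) (P : Place Ω FΩ) : Prop :=
  P.toValuationSubring.comap ι = PK.toValuationSubring

variable {ι} {PK : Place K FK} {P : Place Ω FΩ}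

theorem PG8e_above_mem_iff (h : PG8e_Above ι PK P) {x : FK} :
    ι x ∈ P.toValuationSubring ↔ x ∈ PK.toValuationSubring := by
  rw [← h]
  exact ValuationSubring.mem_comap.symm

theorem PG8e_T0_le (h : PG8e_Above ι PK P) :
    PG8e_T0 (Ω := Ω) ι PK ≤ P.toValuationSubring.toSubring := by
  unfold PG8e_T0 PG8e_T
  rw [Subring.closure_le]
  rintro z (⟨c, rfl⟩ | ⟨x, hx, rfl⟩)
  · exact P.algebraMap_mem' c
  · exact (PG8e_above_mem_iff h).2 hx

theorem PG8e_ord_map_pos (h : PG8e_Above ι PK P) {t : FK} (ht : PK.ord t = 1) :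
    0 < P.ord (ι t) := by
  have htm : t ∈ PK.toValuationSubring :=
    Fermat.Agent.S24_helper6_A2.mem_of_ord_nonneg PK (by omega)
  have htinv : t⁻¹ ∉ PK.toValuationSubring := by
    intro hmem
    have := Fermat.Agent.S24_helper6_A2.ord_nonneg_of_mem PK hmem
    rw [Place.ord_inv] at this
    omega
  apply PG8e_ord_pos_of_inv_notMem P ((PG8e_above_mem_iff h).2 htm)
  rw [← map_inv₀]
  exact fun hmem => htinv ((PG8e_above_mem_iff h).1 hmem)

theorem PG8e_ord_map_unit (h : PG8e_Above ι PK P) {u : FK} (hu : PK.ord u = 0) :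
    P.ord (ι u) = 0 := by
  apply PG8e_ord_eq_zero_of_mem_of_inv_mem
  · exact (PG8e_above_mem_iff h).2 (Fermat.Agent.S24_helper6_A2.mem_of_ord_nonneg PK (by omega))
  · rw [← map_inv₀]
    refine (PG8e_above_mem_iff h).2 (Fermat.Agent.S24_helper6_A2.mem_of_ord_nonneg PK ?_)
    rw [Place.ord_inv]
    omega

theorem PG8e_ord_unit (h : PG8e_Above ι PK P) {t : FK} (ht : PK.ord t = 1) {c : Ω} (hc : c ≠ 0)
    {w : FΩ} (hw : w ∈ PG8e_T0 (Ω := Ω) ι PK) :
    algebraMap Ω FΩ c + ι t * w ≠ 0 ∧ P.ord (algebraMap Ω FΩ c + ι t * w) = 0 := by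
  have hc0 : algebraMap Ω FΩ c ≠ 0 := by
    rw [Ne, map_eq_zero]; exact hc
  apply PG8e_ord_add_eq_zero P hc0 (Fermat.Agent.S24_helper6_A2.ord_algebraMap_eq_zero P c)
  by_cases hw0 : w = 0
  · exact Or.inl (by rw [hw0, mul_zero])
  right
  have ht0 : ι t ≠ 0 := by
    rw [Ne, map_eq_zero]; exact PG8e_ne_zero_of_ord PK ht
  rw [P.ord_mul ht0 hw0]
  have h1 := PG8e_ord_map_pos h ht
  have h2 := Fermat.Agent.S24_helper6_A2.ord_nonneg_of_mem P (PG8e_T0_le h hw)
  omega

include hι in
/-- The order of `Ψ(a)` at a place above `PK` is a multiple of `e = ord (ι t)`, with a factor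
which does not depend on the place. -/
theorem PG8e_exists_ord_Psi (hrat : PG8e_IsRational PK) {t : FK} (ht : PK.ord t = 1)
    (a : J →₀ FK) (ha : a ≠ 0) :
    ∃ m : ℤ, (∀ β, a β = 0 ∨ m ≤ PK.ord (a β)) ∧ ∀ P : Place Ω FΩ, PG8e_Above ι PK P →
      PG8e_Psi b ι a ≠ 0 ∧ P.ord (PG8e_Psi b ι a) = m * P.ord (ι t) := by
  obtain ⟨m, c, w, hc, hw, hm, heq⟩ := PG8e_normal_form b ι hι PK ht hrat a ha
  refine ⟨m, hm, fun P hP => ?_⟩
  have ht0 : ι t ≠ 0 := by
    rw [Ne, map_eq_zero]; exact PG8e_ne_zero_of_ord PK ht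
  obtain ⟨hu0, hu⟩ := PG8e_ord_unit hP ht hc hw
  rw [heq]
  refine ⟨mul_ne_zero (zpow_ne_zero _ ht0) hu0, ?_⟩
  rw [P.ord_mul (zpow_ne_zero _ ht0) hu0, P.ord_zpow, hu, add_zero]

include hι hgen in
/-- The order of any element at a place above `PK` is a multiple of `e = ord (ι t)`, with a
factor which does not depend on the place. -/
theorem PG8e_exists_ord (hrat : PG8e_IsRational PK) {t : FK} (ht : PK.ord t = 1) (z : FΩ) :
    ∃ n : ℤ, ∀ P : Place Ω FΩ, PG8e_Above ι PK P → P.ord z = n * P.ord (ι t) := by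
  let b := Module.Free.chooseBasis K Ω
  obtain ⟨a, a', ha', rfl⟩ := PG8e_exists_div b ι hι hgen z
  have ha'0 : a' ≠ 0 := by
    rintro rfl
    exact ha' (map_zero _)
  obtain ⟨m', -, hm'⟩ := PG8e_exists_ord_Psi b hι hrat ht a' ha'0
  by_cases ha0 : a = 0
  · refine ⟨0, fun P _ => ?_⟩
    rw [ha0, map_zero, zero_div, Place.ord_zero, zero_mul]
  obtain ⟨m, -, hm⟩ := PG8e_exists_ord_Psi b hι hrat ht a ha0
  refine ⟨m - m', fun P hP => ?_⟩
  obtain ⟨h1, h2⟩ := hm P hP
  obtain ⟨h3, h4⟩ := hm' P hP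
  rw [div_eq_mul_inv, P.ord_mul h1 (inv_ne_zero h3), Place.ord_inv, h2, h4]
  ring

include hι hgen in
/-- **`e = 1`**: a uniformiser of `PK` stays a uniformiser above. -/
theorem PG8e_ord_map_uniformizer (hrat : PG8e_IsRational PK) (h : PG8e_Above ι PK P) {t : FK}
    (ht : PK.ord t = 1) : P.ord (ι t) = 1 := by
  obtain ⟨π, hπ⟩ := IsDiscreteValuationRing.exists_irreducible P.toValuationSubring
  have h1 := P.ord_coe_irreducible hπ
  obtain ⟨n, hn⟩ := PG8e_exists_ord hι hgen hrat ht (π : FΩ)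
  have h2 := hn P h
  rw [h1] at h2
  have h3 := PG8e_ord_map_pos h ht
  have h4 : P.ord (ι t) ∣ 1 := ⟨n, by rw [h2]; ring⟩
  exact Int.eq_one_of_dvd_one h3.le h4

include hι hgen in
/-- **`e = 1`**: orders are preserved. -/
theorem PG8e_ord_eq (hrat : PG8e_IsRational PK) (h : PG8e_Above ι PK P) (x : FK) :
    P.ord (ι x) = PK.ord x := by
  obtain ⟨π, hπ⟩ := IsDiscreteValuationRing.exists_irreducible PK.toValuationSubring
  have ht := PK.ord_coe_irreducible hπ
  set t : FK := (π : FK) with htdef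
  have ht0 := PG8e_ne_zero_of_ord PK ht
  by_cases hx0 : x = 0
  · rw [hx0, map_zero, Place.ord_zero, Place.ord_zero]
  have hu0 : x * t ^ (-(PK.ord x)) ≠ 0 := mul_ne_zero hx0 (zpow_ne_zero _ ht0)
  have hu : PK.ord (x * t ^ (-(PK.ord x))) = 0 := by
    rw [PG8e_ord_mul_zpow PK ht hx0, sub_self]
  have h1 := PG8e_ord_map_unit h hu
  have h2 := PG8e_ord_map_uniformizer hι hgen hrat h ht
  have hιt0 : ι t ≠ 0 := by rw [Ne, map_eq_zero]; exact ht0
  have hx : ι x = ι (x * t ^ (-(PK.ord x))) * ι t ^ (PK.ord x) := by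
    rw [← map_zpow₀, ← map_mul, mul_assoc, ← zpow_add₀ ht0, neg_add_cancel, zpow_zero, mul_one]
  have hιu0 : ι (x * t ^ (-(PK.ord x))) ≠ 0 := by rw [Ne, map_eq_zero]; exact hu0
  rw [hx, P.ord_mul hιu0 (zpow_ne_zero _ hιt0), h1, P.ord_zpow, h2]
  ring

include hι hgen in
/-- **Uniqueness** of the place above a rational place. -/
theorem PG8e_above_unique (hrat : PG8e_IsRational PK) {P' : Place Ω FΩ}
    (h : PG8e_Above ι PK P) (h' : PG8e_Above ι PK P') : P = P' := by
  obtain ⟨π, hπ⟩ := IsDiscreteValuationRing.exists_irreducible PK.toValuationSubring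
  have ht := PK.ord_coe_irreducible hπ
  apply PG8e_place_ext_of_ord
  intro z
  obtain ⟨n, hn⟩ := PG8e_exists_ord hι hgen hrat ht z
  rw [hn P h, hn P' h', PG8e_ord_map_uniformizer hι hgen hrat h ht,
    PG8e_ord_map_uniformizer hι hgen hrat h' ht]

/-- Two places of `FK` below the same place coincide. -/
theorem PG8e_below_unique {PK' : Place K FK} (h : PG8e_Above ι PK P) (h' : PG8e_Above ι PK' P) :
    PK = PK' :=
  Place.ext (h.symm.trans h')

end Above

section Existence

variable {K : Type uK} {Ω : Type uΩ} [Field K] [Field Ω] [Algebra K Ω]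
variable {FK : Type uFK} {FΩ : Type uFΩ} [Field FK] [Field FΩ] [Algebra K FK] [Algebra Ω FΩ]
variable {J : Type uJ} (b : Module.Basis J K Ω) (ι : FK →+* FΩ)
variable (hι : ∀ a : K, ι (algebraMap K FK a) = algebraMap Ω FΩ (algebraMap K Ω a))
variable (hgen : Subfield.closure (Set.range (algebraMap Ω FΩ) ∪ Set.range ι) = ⊤)
variable (hLD : Function.Injective (PG8e_Psi b ι))

include hι hLD in
/-- Transcendental elements stay transcendental. -/
theorem PG8e_transcendental_map {x : FK} (hx : Transcendental K x) : Transcendental Ω (ι x) := by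
  classical
  rw [transcendental_iff]
  intro p hp
  by_contra hp0
  -- coordinates of `p(ι x)`
  set A : J →₀ FK := ∑ k ∈ p.support, PG8e_const b (p.coeff k) (x ^ k) with hA
  have hΨA : PG8e_Psi b ι A = 0 := by
    rw [hA, map_sum, ← hp, Polynomial.aeval_eq_sum_range, Finset.sum_range]
    rw [← Finset.sum_range (fun k => p.coeff k • ι x ^ k)]
    rw [Finset.sum_subset (s₁ := p.support) (s₂ := Finset.range (p.natDegree + 1))]
    · refine Finset.sum_congr rfl fun k _ => ?_
      rw [PG8e_Psi_const b ι hι, map_pow, Algebra.smul_def]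
    · intro k hk
      rw [Finset.mem_range]
      exact Nat.lt_succ_of_le (Polynomial.le_natDegree_of_mem_supp k hk)
    · intro k _ hk
      rw [Polynomial.notMem_support_iff.1 hk]
      rw [PG8e_Psi_const b ι hι, map_zero, zero_mul]
  have hA0 : A = 0 := hLD (hΨA.trans (map_zero _).symm)
  -- the polynomial over `K` at the coordinate `β`
  have hq : ∀ β : J, (∑ k ∈ p.support, Polynomial.monomial k (b.repr (p.coeff k) β) :
      Polynomial K) = 0 := by
    intro β
    apply (transcendental_iff.1 hx)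
    rw [map_sum]
    have h1 : A β = 0 := by rw [hA0]; rfl
    rw [hA, Finsupp.finsetSum_apply] at h1
    rw [← h1]
    refine Finset.sum_congr rfl fun k _ => ?_
    rw [Polynomial.aeval_monomial, PG8e_const_apply, Algebra.smul_def]
  obtain ⟨k, hk⟩ : p.support.Nonempty := by
    rw [Finset.nonempty_iff_ne_empty, Ne, Polynomial.support_eq_empty]
    exact hp0
  apply Polynomial.mem_support_iff.1 hk
  apply b.repr.injective
  rw [map_zero]
  ext β
  have h2 := congrArg (fun q : Polynomial K => q.coeff k) (hq β)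
  simp only [Polynomial.finsetSum_coeff, Polynomial.coeff_monomial, Polynomial.coeff_zero] at h2
  rw [Finset.sum_ite_eq' p.support k, if_pos hk] at h2
  exact h2

/-- A uniformiser is transcendental. -/
theorem PG8e_transcendental_of_ord [IsAlgClosed K] (PK : Place K FK) {t : FK}
    (ht : PK.ord t ≠ 0) : Transcendental K t := by
  intro halg
  obtain ⟨c, hc⟩ := Fermat.Agent.S24_helper15_A1.exists_eq_algebraMap_of_isAlgebraic halg
  apply ht
  rw [hc]
  exact Fermat.Agent.S24_helper6_A2.ord_algebraMap_eq_zero PK c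

/-- A valuation ring of `FK` which contains the ring of a place and is not everything is the
ring of the place. -/
theorem PG8e_eq_of_le_of_ne_top (PK : Place K FK) (V : ValuationSubring FK)
    (hle : PK.toValuationSubring ≤ V) {t : FK} (ht : PK.ord t = 1) (htV : t⁻¹ ∉ V) :
    V = PK.toValuationSubring := by
  apply le_antisymm _ hle
  intro x hx
  by_contra hxP
  have ht0 := PG8e_ne_zero_of_ord PK ht
  have hx0 : x ≠ 0 := by
    rintro rfl
    exact hxP PK.toValuationSubring.zero_mem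
  have hord : PK.ord x < 0 := by
    by_contra h
    exact hxP (Fermat.Agent.S24_helper6_A2.mem_of_ord_nonneg PK (not_lt.1 h))
  -- `t⁻¹ = x · (x⁻¹ t⁻¹)` with `x⁻¹ t⁻¹ ∈ O_PK`
  have hy : x⁻¹ * t⁻¹ ∈ PK.toValuationSubring := by
    apply Fermat.Agent.S24_helper6_A2.mem_of_ord_nonneg
    rw [PK.ord_mul (inv_ne_zero hx0) (inv_ne_zero ht0), Place.ord_inv, Place.ord_inv, ht]
    omega
  apply htV
  have : t⁻¹ = x * (x⁻¹ * t⁻¹) := by
    field_simp
  rw [this]
  exact V.mul_mem _ _ hx (hle hy)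

include hι hLD in
/-- **Existence** of a place above a place of `FK`. -/
theorem PG8e_exists_above [IsAlgClosed K] (j : FK) (hj : Transcendental K j)
    [FiniteDimensional K⟮j⟯ FK] [FiniteDimensional Ω⟮ι j⟯ FΩ] (PK : Place K FK) :
    ∃ P : Place Ω FΩ, PG8e_Above ι PK P := by
  classical
  obtain ⟨π, hπ⟩ := IsDiscreteValuationRing.exists_irreducible PK.toValuationSubring
  have ht := PK.ord_coe_irreducible hπ
  set t : FK := (π : FK) with htdef
  have ht0 := PG8e_ne_zero_of_ord PK ht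
  have htm : t ∈ PK.toValuationSubring := π.2
  have httr : Transcendental K t := PG8e_transcendental_of_ord PK (by rw [ht]; exact one_ne_zero)
  have hιttr : Transcendental Ω (ι t) := PG8e_transcendental_map b ι hι hLD httr
  have hιjtr : Transcendental Ω (ι j) := PG8e_transcendental_map b ι hι hLD hj
  haveI : FiniteDimensional Ω⟮ι t⟯ FΩ :=
    Fermat.Agent.S24_helper6_A2.finiteDimensional_adjoin_of_transcendental (ι j) hιjtr (ι t) hιttr
  -- the ideal generated by `ι t` in `T0`
  let A : Subring FΩ := PG8e_T0 (Ω := Ω) ι PK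
  have htA : ι t ∈ A := PG8e_map_mem_T ι _ htm
  let I : Ideal A := Ideal.span {⟨ι t, htA⟩}
  have hI : I ≠ ⊤ := by
    intro h
    rw [Ideal.span_singleton_eq_top] at h
    obtain ⟨⟨w, hw⟩, hw1⟩ := h.exists_right_inv
    have hw1' : ι t * w = 1 := congrArg Subtype.val hw1
    obtain ⟨v, hv, hΨv⟩ := PG8e_exists_Psi_eq b ι hι (PG8e_OK PK) hw
    have h1 : PG8e_Psi b ι (v.mapRange (· * t) (zero_mul t)) = PG8e_Psi b ι (PG8e_const b 1 1) := by
      rw [← PG8e_Psi_mul_right, hΨv, PG8e_Psi_const b ι hι, map_one, map_one, mul_one, mul_comm]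
      exact hw1'
    have h2 := hLD h1
    have h3 : ∀ β, b.repr (1 : Ω) β = 0 := by
      intro β
      by_contra hne
      have h4 := congrArg (fun f : J →₀ FK => f β) h2
      simp only [Finsupp.mapRange_apply, PG8e_const_apply] at h4
      have h5 : PK.ord (v β * t) = 0 := by
        rw [h4, Algebra.smul_def, mul_one]
        exact Fermat.Agent.S24_helper6_A2.ord_algebraMap_eq_zero PK _
      have hvβ0 : v β ≠ 0 := by
        intro h0
        rw [h0, zero_mul, Algebra.smul_def, mul_one] at h4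
        exact hne ((map_eq_zero (algebraMap K FK)).1 h4.symm)
      rw [PK.ord_mul hvβ0 ht0, ht] at h5
      have h6 := Fermat.Agent.S24_helper6_A2.ord_nonneg_of_mem PK (hv β)
      omega
    have h7 : b.repr (1 : Ω) = 0 := Finsupp.ext h3
    have h8 : (1 : Ω) = 0 := b.repr.injective (by rw [h7, map_zero])
    exact one_ne_zero h8
  obtain ⟨V, hAV, hIV⟩ := Ideal.image_subset_nonunits_valuationSubring I hI
  have hΩV : ∀ c : Ω, algebraMap Ω FΩ c ∈ V := fun c => hAV (PG8e_algebraMap_mem_T ι _ c)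
  have hιV : ∀ x ∈ PK.toValuationSubring, ι x ∈ V := fun x hx => hAV (PG8e_map_mem_T ι _ hx)
  have htnu : ι t ∈ V.nonunits := hIV ⟨⟨ι t, htA⟩, Ideal.subset_span rfl, rfl⟩
  have htlt : V.valuation (ι t) < 1 := (V.mem_nonunits_iff).1 htnu
  have htinv : (ι t)⁻¹ ∉ V := by
    intro hmem
    have h1 : V.valuation (ι t)⁻¹ ≤ 1 := (V.valuation_le_one_iff _).2 hmem
    have hιt0 : ι t ≠ 0 := by rw [Ne, map_eq_zero]; exact ht0
    have h2 : V.valuation (ι t) * V.valuation (ι t)⁻¹ = 1 := by
      rw [← map_mul, mul_inv_cancel₀ hιt0, map_one]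
    have h3 : V.valuation (ι t) * V.valuation (ι t)⁻¹ < 1 := by
      calc V.valuation (ι t) * V.valuation (ι t)⁻¹ ≤ V.valuation (ι t) * 1 := by gcongr
        _ = V.valuation (ι t) := mul_one _
        _ < 1 := htlt
    rw [h2] at h3
    exact lt_irrefl _ h3
  have hne : V ≠ ⊤ := by
    rintro rfl
    exact htinv (ValuationSubring.mem_top _)
  let P : Place Ω FΩ :=
    ⟨V, hΩV, hne, Fermat.Agent.S18_helper26_PLACE.S18P15_isPrincipalIdealRing V hΩV (ι t) hιttr htlt⟩
  refine ⟨P, ?_⟩
  show V.comap ι = PK.toValuationSubring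
  apply PG8e_eq_of_le_of_ne_top PK (V.comap ι) _ ht
  · rw [ValuationSubring.mem_comap, map_inv₀]
    exact htinv
  · intro x hx
    exact ValuationSubring.mem_comap.2 (hιV x hx)

/-- **Restriction**: a place of `FΩ` whose ring does not contain `ι(FK)` lies above a place of
`FK`. -/
theorem PG8e_exists_restrict [IsAlgClosed K] (j : FK) (hj : Transcendental K j)
    [FiniteDimensional K⟮j⟯ FK] (hι : ∀ a : K, ι (algebraMap K FK a) =
      algebraMap Ω FΩ (algebraMap K Ω a)) (P : Place Ω FΩ)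
    (hP : ∃ x : FK, ι x ∉ P.toValuationSubring) : ∃ PK : Place K FK, PG8e_Above ι PK P := by
  obtain ⟨x, hx⟩ := hP
  set V : ValuationSubring FK := P.toValuationSubring.comap ι with hV
  have hxV : x ∉ V := fun h => hx (ValuationSubring.mem_comap.1 h)
  have hKV : ∀ a : K, algebraMap K FK a ∈ V := by
    intro a
    rw [hV, ValuationSubring.mem_comap, hι]
    exact P.algebraMap_mem' _
  have hx0 : x ≠ 0 := by
    rintro rfl
    exact hxV V.zero_mem
  have hyV : x⁻¹ ∈ V := (V.mem_or_inv_mem x).resolve_left hxV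
  have hylt : V.valuation x⁻¹ < 1 := by
    have h1 : ¬ V.valuation x ≤ 1 := fun h => hxV ((V.valuation_le_one_iff x).1 h)
    have h2 : V.valuation x * V.valuation x⁻¹ = 1 := by
      rw [← map_mul, mul_inv_cancel₀ hx0, map_one]
    by_contra h3
    rw [not_lt] at h3
    apply h1
    calc V.valuation x = V.valuation x * 1 := (mul_one _).symm
      _ ≤ V.valuation x * V.valuation x⁻¹ := by gcongr
      _ = 1 := h2
  have hytr : Transcendental K x⁻¹ := by
    intro halg
    obtain ⟨c, hc⟩ := Fermat.Agent.S24_helper15_A1.exists_eq_algebraMap_of_isAlgebraic halg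
    apply hxV
    have hc0 : c ≠ 0 := by
      rintro rfl
      rw [map_zero, inv_eq_zero] at hc
      exact hx0 hc
    have : x = algebraMap K FK c⁻¹ := by
      rw [map_inv₀, ← hc, inv_inv]
    rw [this]
    exact hKV _
  haveI : FiniteDimensional K⟮x⁻¹⟯ FK :=
    Fermat.Agent.S24_helper6_A2.finiteDimensional_adjoin_of_transcendental j hj x⁻¹ hytr
  have hne : V ≠ ⊤ := by
    intro h
    apply hxV
    rw [h]
    exact ValuationSubring.mem_top _
  exact ⟨⟨V, hKV, hne,
    Fermat.Agent.S18_helper26_PLACE.S18P15_isPrincipalIdealRing V hKV x⁻¹ hytr hylt⟩, rfl⟩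

end Existence

section Setup

variable {K : Type uK} {Ω : Type uΩ} [Field K] [Field Ω] [Algebra K Ω]
variable {FK : Type uFK} {FΩ : Type uFΩ} [Field FK] [Field FΩ] [Algebra K FK] [Algebra Ω FΩ]

/-- The hypotheses on a constant field extension of function fields. -/
structure PG8e_Setup (ι : FK →+* FΩ) : Prop where
  /-- `ι` lies over `K → Ω` -/
  map_algebraMap : ∀ a : K, ι (algebraMap K FK a) = algebraMap Ω FΩ (algebraMap K Ω a)
  /-- `FΩ` is generated by `Ω` and `ι(FK)` -/
  gen : Subfield.closure (Set.range (algebraMap Ω FΩ) ∪ Set.range ι) = ⊤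
  /-- linear disjointness, in coordinates with respect to some `K`-basis of `Ω` -/
  ld : ∃ (J : Type uΩ) (b : Module.Basis J K Ω), Function.Injective (PG8e_Psi b ι)
  /-- `FK` and `FΩ` are function fields of one variable -/
  fin : ∃ j : FK, Transcendental K j ∧ FiniteDimensional K⟮j⟯ FK ∧ FiniteDimensional Ω⟮ι j⟯ FΩ

namespace PG8e_Setup

variable {ι : FK →+* FΩ} (S : PG8e_Setup (K := K) (Ω := Ω) ι)
include S

theorem isRational [IsAlgClosed K] (PK : Place K FK) : PG8e_IsRational PK := by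
  obtain ⟨j, -, hfin, -⟩ := S.fin
  exact PG8e_isRational PK j

theorem transcendental_map {x : FK} (hx : Transcendental K x) : Transcendental Ω (ι x) := by
  obtain ⟨J, b, hLD⟩ := S.ld
  exact PG8e_transcendental_map b ι S.map_algebraMap hLD hx

theorem map_injective : Function.Injective ι := ι.injective

/-- every place of `FK` has a place of `FΩ` above it -/
theorem exists_above [IsAlgClosed K] (PK : Place K FK) : ∃ P : Place Ω FΩ, PG8e_Above ι PK P := by
  obtain ⟨J, b, hLD⟩ := S.ld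
  obtain ⟨j, hj, hfin, hfinΩ⟩ := S.fin
  exact PG8e_exists_above b ι S.map_algebraMap hLD j hj PK

/-- the place above is unique -/
theorem above_unique [IsAlgClosed K] {PK : Place K FK} {P P' : Place Ω FΩ}
    (h : PG8e_Above ι PK P) (h' : PG8e_Above ι PK P') : P = P' :=
  PG8e_above_unique S.map_algebraMap S.gen (S.isRational PK) h h'

/-- orders are preserved (`e = 1`) -/
theorem ord_eq [IsAlgClosed K] {PK : Place K FK} {P : Place Ω FΩ} (h : PG8e_Above ι PK P)
    (x : FK) : P.ord (ι x) = PK.ord x :=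
  PG8e_ord_eq S.map_algebraMap S.gen (S.isRational PK) h x

/-- a place of `FΩ` which is not trivial on `ι(FK)` lies above a place of `FK` -/
theorem exists_restrict [IsAlgClosed K] (P : Place Ω FΩ)
    (hP : ∃ x : FK, ι x ∉ P.toValuationSubring) : ∃ PK : Place K FK, PG8e_Above ι PK P := by
  obtain ⟨j, hj, hfin, -⟩ := S.fin
  exact PG8e_exists_restrict ι j hj S.map_algebraMap P hP

/-- **The place above** a place of `FK`. -/
def ext [IsAlgClosed K] (PK : Place K FK) : Place Ω FΩ := (S.exists_above PK).choose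

theorem ext_above [IsAlgClosed K] (PK : Place K FK) : PG8e_Above ι PK (S.ext PK) :=
  (S.exists_above PK).choose_spec

theorem eq_ext [IsAlgClosed K] {PK : Place K FK} {P : Place Ω FΩ} (h : PG8e_Above ι PK P) :
    P = S.ext PK :=
  S.above_unique h (S.ext_above PK)

theorem ext_injective [IsAlgClosed K] : Function.Injective S.ext := fun PK PK' h =>
  PG8e_below_unique (S.ext_above PK) (h ▸ S.ext_above PK')

theorem ord_ext [IsAlgClosed K] (PK : Place K FK) (x : FK) : (S.ext PK).ord (ι x) = PK.ord x :=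
  S.ord_eq (S.ext_above PK) x

theorem mem_ext_iff [IsAlgClosed K] (PK : Place K FK) (x : FK) :
    ι x ∈ (S.ext PK).toValuationSubring ↔ x ∈ PK.toValuationSubring :=
  PG8e_above_mem_iff (S.ext_above PK)

/-- a place which is not of the form `ext PK` is trivial on `ι(FK)` -/
theorem map_mem_of_notMem_range [IsAlgClosed K] {P : Place Ω FΩ} (hP : P ∉ Set.range S.ext)
    (x : FK) : ι x ∈ P.toValuationSubring := by
  by_contra hx
  obtain ⟨PK, hPK⟩ := S.exists_restrict P ⟨x, hx⟩
  exact hP ⟨PK, (S.eq_ext hPK).symm⟩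

theorem ord_eq_zero_of_notMem_range [IsAlgClosed K] {P : Place Ω FΩ}
    (hP : P ∉ Set.range S.ext) (x : FK) : P.ord (ι x) = 0 := by
  apply PG8e_ord_eq_zero_of_mem_of_inv_mem
  · exact S.map_mem_of_notMem_range hP x
  · rw [← map_inv₀]
    exact S.map_mem_of_notMem_range hP x⁻¹

/-- **Base change of divisors.** -/
def baseChange [IsAlgClosed K] : Divisor K FK →+ Divisor Ω FΩ :=
  Finsupp.mapDomain.addMonoidHom S.ext

theorem baseChange_apply [IsAlgClosed K] (D : Divisor K FK) :
    S.baseChange D = Finsupp.mapDomain S.ext D := rfl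

@[simp]
theorem baseChange_single [IsAlgClosed K] (PK : Place K FK) (n : ℤ) :
    S.baseChange (Finsupp.single PK n) = Finsupp.single (S.ext PK) n := by
  rw [baseChange_apply, Finsupp.mapDomain_single]

theorem baseChange_apply_ext [IsAlgClosed K] (D : Divisor K FK) (PK : Place K FK) :
    S.baseChange D (S.ext PK) = D PK :=
  Finsupp.mapDomain_apply S.ext_injective D PK

theorem baseChange_apply_of_notMem [IsAlgClosed K] (D : Divisor K FK) {P : Place Ω FΩ}
    (hP : P ∉ Set.range S.ext) : S.baseChange D P = 0 :=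
  Finsupp.mapDomain_of_notMem_range D P hP

theorem baseChange_injective [IsAlgClosed K] : Function.Injective S.baseChange :=
  Finsupp.mapDomain_injective S.ext_injective

/-- the base change of the divisor of `f` is the divisor of `ι f` -/
theorem baseChange_principal [IsAlgClosed K] {D : Divisor K FK} {f : FK}
    (hD : ∀ v : Place K FK, D v = v.ord f) (P : Place Ω FΩ) :
    S.baseChange D P = P.ord (ι f) := by
  by_cases hP : P ∈ Set.range S.ext
  · obtain ⟨PK, rfl⟩ := hP
    rw [S.baseChange_apply_ext, hD, S.ord_ext]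
  · rw [S.baseChange_apply_of_notMem D hP, S.ord_eq_zero_of_notMem_range hP]

theorem baseChange_mem_principal [IsAlgClosed K] {D : Divisor K FK}
    (hD : D ∈ Divisor.principal (K := K) (F := FK)) :
    S.baseChange D ∈ Divisor.principal (K := Ω) (F := FΩ) := by
  obtain ⟨f, hf, hD⟩ := hD
  exact ⟨ι f, by rw [Ne, map_eq_zero]; exact hf, S.baseChange_principal hD⟩

theorem deg_eq_one [IsAlgClosed K] (PK : Place K FK) : PK.deg = 1 := by
  obtain ⟨j, -, hfin, -⟩ := S.fin
  exact Fermat.Agent.S24_helper15_A1.deg_eq_one j (Algebra.IsAlgebraic.of_finite K⟮j⟯ FK) PK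

theorem deg_eq_one' [IsAlgClosed Ω] (P : Place Ω FΩ) : P.deg = 1 := by
  obtain ⟨j, -, -, hfin⟩ := S.fin
  exact Fermat.Agent.S24_helper15_A1.deg_eq_one (ι j)
    (Algebra.IsAlgebraic.of_finite Ω⟮ι j⟯ FΩ) P

theorem degree_baseChange [IsAlgClosed K] [IsAlgClosed Ω] (D : Divisor K FK) :
    Divisor.degree (S.baseChange D) = Divisor.degree D := by
  induction D using Finsupp.induction with
  | zero => simp
  | single_add PK n D _ _ ih =>
    rw [map_add, map_add, map_add, ih, S.baseChange_single, Divisor.degree_single,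
      Divisor.degree_single, S.deg_eq_one, S.deg_eq_one']

theorem baseChange_mem_degZero [IsAlgClosed K] [IsAlgClosed Ω] {D : Divisor K FK}
    (hD : D ∈ Divisor.degZero (K := K) (F := FK)) :
    S.baseChange D ∈ Divisor.degZero (K := Ω) (F := FΩ) := by
  rw [Divisor.mem_degZero] at hD ⊢
  rw [S.degree_baseChange, hD]

/-- base change on divisors of degree zero -/
def baseChangeDegZero [IsAlgClosed K] [IsAlgClosed Ω] :
    Divisor.degZero (K := K) (F := FK) →+ Divisor.degZero (K := Ω) (F := FΩ) :=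
  (S.baseChange.domRestrict _).codRestrict _ fun D => S.baseChange_mem_degZero D.2

@[simp]
theorem coe_baseChangeDegZero [IsAlgClosed K] [IsAlgClosed Ω]
    (D : Divisor.degZero (K := K) (F := FK)) :
    (S.baseChangeDegZero D : Divisor Ω FΩ) = S.baseChange (D : Divisor K FK) := rfl

/-- **Base change on `Pic⁰`.** -/
def pic0 [IsAlgClosed K] [IsAlgClosed Ω] : Pic0 K FK →+ Pic0 Ω FΩ :=
  QuotientAddGroup.map _ _ S.baseChangeDegZero (by
    rintro ⟨D, hD0⟩ hD
    simp only [AddSubgroup.mem_addSubgroupOf] at hD ⊢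
    exact S.baseChange_mem_principal hD)

theorem pic0_mk [IsAlgClosed K] [IsAlgClosed Ω] (D : Divisor.degZero (K := K) (F := FK)) :
    S.pic0 (Pic0.mk D) = Pic0.mk (S.baseChangeDegZero D) := rfl

/-- a semilinear automorphism of `FΩ` which fixes `ι(FK)` pointwise fixes the places `ext PK` -/
theorem smul_ext [IsAlgClosed K] (g : SemilinearAut Ω FΩ) (hg : ∀ x : FK, g • ι x = ι x)
    (PK : Place K FK) : g • S.ext PK = S.ext PK := by
  apply S.eq_ext
  show (g • (S.ext PK).toValuationSubring).comap ι = PK.toValuationSubring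
  ext x
  rw [ValuationSubring.mem_comap, ValuationSubring.mem_pointwise_smul_iff_inv_smul_mem,
    ← S.mem_ext_iff PK x]
  have : g⁻¹ • ι x = ι x := by
    conv_lhs => rw [← hg x]
    exact inv_smul_smul g (ι x)
  rw [this]

/-- a semilinear automorphism of `FΩ` which fixes `ι(FK)` pointwise preserves the set of places
of the form `ext PK` -/
theorem smul_mem_range_iff [IsAlgClosed K] (g : SemilinearAut Ω FΩ)
    (hg : ∀ x : FK, g • ι x = ι x) (P : Place Ω FΩ) :
    g • P ∈ Set.range S.ext ↔ P ∈ Set.range S.ext := by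
  have hg' : ∀ x : FK, g⁻¹ • ι x = ι x := by
    intro x
    conv_lhs => rw [← hg x]
    exact inv_smul_smul g (ι x)
  constructor
  · rintro ⟨PK, hPK⟩
    refine ⟨PK, ?_⟩
    have h1 := S.smul_ext g⁻¹ hg' PK
    have h2 : g⁻¹ • S.ext PK = P := by rw [hPK, inv_smul_smul]
    exact h1.symm.trans h2
  · rintro ⟨PK, rfl⟩
    exact ⟨PK, (S.smul_ext g hg PK).symm⟩

end PG8e_Setup

end Setup

end Fermat.Agent.G_helper26_G8e
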