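import Mathlib
import Fermat.Agent.G_helper26_G8e
import Fermat.Agent.G_helper26_G8c
import Fermat.Agent.G_helper21_B0L

/-!
# Project G, piece G8-MOD: the constant field extension `ℚ̄ → L` for modular function fields

For an algebraically closed field `L` with `[Algebra ℚ L]` (e.g. `L = ℂ`), with the
`ℚ̄`-algebra structure given by `PG_B0L_emb L`, the base change map
`PG_B0L_bc L N : F_{ℚ̄} → F_L` satisfies the hypotheses `PG8e_Setup` of the abstract theory of
places under a constant field extension.
-/

set_option autoImplicit false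
set_option linter.unusedSectionVars false
set_option linter.style.haveILetI false

noncomputable section

universe u

open AlgebraicCurve IntermediateField ModularCurve
open scoped Pointwise

namespace Fermat.Agent.G_helper26_G8MOD

open Fermat.Agent.S24 Fermat.Agent.G_helper21_B0L Fermat.Agent.G_helper26_G8e
  Fermat.Agent.G_helper26_G8c

variable (L : Type u) [Field L] [Algebra ℚ L] [IsAlgClosed L]

/-- The `ℚ̄`-algebra structure on `L` given by the embedding `PG_B0L_emb L`. -/
@[reducible] def PG8M_algebra : Algebra Kbar L := (PG_B0L_emb L).toRingHom.toAlgebra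

theorem PG8M_algebraMap_apply (a : Kbar) :
    letI := PG8M_algebra L
    algebraMap Kbar L a = PG_B0L_emb L a := rfl

theorem PG8M_isScalarTower :
    letI := PG8M_algebra L
    IsScalarTower ℚ Kbar L :=
  letI := PG8M_algebra L
  IsScalarTower.of_algebraMap_eq fun c => ((PG_B0L_emb L).commutes c).symm

/-! ### Linear disjointness, coefficientwise -/

section LD

variable {L}
variable {J : Type*} (b : letI := PG8M_algebra L; Module.Basis J Kbar L)

/-- coefficientwise linear independence: if `∑ b_β · coeffMap emb (y_β) = 0` in `L((q))` with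
`y_β ∈ ℚ̄((q))` then all `y_β` vanish. -/
theorem PG8M_ld_laurent (y : J →₀ LaurentSeries Kbar)
    (h : (y.sum fun β x => algebraMap L (LaurentSeries L) (b β) *
      coeffMap (PG_B0L_emb L : Kbar →+* L) x) = 0) : y = 0 := by
  letI := PG8M_algebra L
  ext β : 1
  ext n
  have hn : (y.sum fun β x => (b β) * (PG_B0L_emb L) (x.coeff n)) = 0 := by
    have := congrArg (fun z : LaurentSeries L => z.coeff n) h
    simp only [HahnSeries.coeff_zero] at this
    rw [← this, Finsupp.sum, Finsupp.sum, HahnSeries.coeff_sum]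
    refine Finset.sum_congr rfl fun β _ => ?_
    rw [algebraMap_laurentSeries_eq_single, HahnSeries.coeff_single_zero_mul, coeffMap_coeff]
    rfl
  have hli := b.linearIndependent
  rw [linearIndependent_iff] at hli
  have h0 := hli (y.mapRange (fun x => x.coeff n) (by simp)) (by
    rw [Finsupp.linearCombination_apply, Finsupp.sum_mapRange_index (by simp)]
    rw [← hn]
    refine Finset.sum_congr rfl fun β _ => ?_
    show (y β).coeff n • b β = b β * _
    rw [Algebra.smul_def, mul_comm]
    rfl)
  have := DFunLike.congr_fun h0 β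
  simpa using this

/-- the coordinate map on Laurent series -/
def PG8M_Phi : (J →₀ LaurentSeries Kbar) →+ LaurentSeries L :=
  Finsupp.liftAddHom fun β =>
    (AddMonoidHom.mulLeft (algebraMap L (LaurentSeries L) (b β))).comp
      (coeffMap (PG_B0L_emb L : Kbar →+* L)).toAddMonoidHom

theorem PG8M_Phi_apply (y : J →₀ LaurentSeries Kbar) :
    PG8M_Phi b y = y.sum fun β x => algebraMap L (LaurentSeries L) (b β) *
      coeffMap (PG_B0L_emb L : Kbar →+* L) x := rfl

theorem PG8M_Phi_single (β : J) (x : LaurentSeries Kbar) :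
    PG8M_Phi b (Finsupp.single β x) = algebraMap L (LaurentSeries L) (b β) *
      coeffMap (PG_B0L_emb L : Kbar →+* L) x := by
  rw [PG8M_Phi_apply, Finsupp.sum_single_index]
  rw [map_zero, mul_zero]

theorem PG8M_Phi_injective : Function.Injective (PG8M_Phi b) := by
  rw [injective_iff_map_eq_zero]
  intro y hy
  exact PG8M_ld_laurent b y hy

/-- `Φ (h · a) = coeffMap emb h · Φ a` -/
theorem PG8M_Phi_mul_left (h : LaurentSeries Kbar) (y : J →₀ LaurentSeries Kbar) :
    PG8M_Phi b (y.mapRange (fun x => h * x) (mul_zero h)) =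
      coeffMap (PG_B0L_emb L : Kbar →+* L) h * PG8M_Phi b y := by
  induction y using Finsupp.induction_linear with
  | zero => simp
  | add f g hf hg =>
    rw [map_add, mul_add, ← hf, ← hg, ← map_add]
    congr 1
    ext β : 1
    simp [mul_add]
  | single β x =>
    rw [Finsupp.mapRange_single, PG8M_Phi_single, PG8M_Phi_single, map_mul]
    ring

end LD

variable (N : ℕ) [NeZero N]

/-- **G8-MOD.** The base change `F_{ℚ̄} → F_L` of modular function fields is a constant field
extension in the sense of `PG8e_Setup`. -/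
theorem PG8M_setup :
    @PG8e_Setup Kbar L _ _ (PG8M_algebra L) (modularFunctionFieldBar N) (PG_B0L_F L N) _ _ _ _
      (PG_B0L_bc L N) := by
  letI := PG8M_algebra L
  refine ⟨fun a => PG_B0L_bc_algebraMap L N a, ?_, ?_, ?_⟩
  · -- generation
    rw [eq_top_iff]
    intro x _
    have hle : Subfield.closure
        (Set.range (algebraMap L (LaurentSeries L)) ∪
          (⇑(coeffEmb L) '' ((modularFunctionFieldFull N : IntermediateField ℚ _) :
            Set (LaurentSeries ℚ)))) ≤
        (Subfield.closure
          (Set.range (algebraMap L (PG_B0L_F L N)) ∪ Set.range (PG_B0L_bc L N))).map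
          (algebraMap (PG_B0L_F L N) (LaurentSeries L)) := by
      rw [Subfield.closure_le]
      rintro z (⟨a, rfl⟩ | ⟨w, hw, rfl⟩)
      · exact ⟨algebraMap L (PG_B0L_F L N) a, Subfield.subset_closure (Or.inl ⟨a, rfl⟩), rfl⟩
      · exact ⟨PG_B0L_bc L N ⟨coeffEmb Kbar w, coeffEmb_mem_laurentBaseChange Kbar hw⟩,
          Subfield.subset_closure (Or.inr ⟨_, rfl⟩), PG_B0L_coeffMap_emb_coeffEmb L w⟩
    obtain ⟨y, hy, hyx⟩ := hle ((mem_laurentBaseChange_iff).1 x.2)
    have : y = x := Subtype.ext hyx
    rw [← this]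
    exact hy
  · -- linear disjointness
    refine ⟨Module.Free.ChooseBasisIndex Kbar L, Module.Free.chooseBasis Kbar L, ?_⟩
    rw [injective_iff_map_eq_zero]
    intro a ha
    have h1 := PG8M_ld_laurent (L := L) (Module.Free.chooseBasis Kbar L)
      (a.mapRange (fun x : modularFunctionFieldBar N => (x : LaurentSeries Kbar)) rfl) (by
        rw [Finsupp.sum_mapRange_index (by simp)]
        have := congrArg (fun z : PG_B0L_F L N => (z : LaurentSeries L)) ha
        simp only [ZeroMemClass.coe_zero] at this
        rw [← this, PG8e_Psi_apply, Finsupp.sum, Finsupp.sum]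
        rw [AddSubmonoidClass.coe_finsetSum]
        rfl)
    ext β : 1
    have := DFunLike.congr_fun h1 β
    simpa using this
  · -- function fields
    refine ⟨jElt N, Fermat.Agent.S24_helper23_GEN.TR N, (Fermat.Agent.S24_helper23_DEG.DEG N).1, ?_⟩
    rw [PG_B0L_bc_jElt]
    exact PG_B0L_finiteDimensional L N

/-! ### The Galois action of `Aut (L / ℚ̄)` -/

/-- The group `Aut (L / ℚ̄)` acting semilinearly on the function field over `L`. -/
def PG8M_gal : (@AlgEquiv Kbar L L _ _ _ (PG8M_algebra L) (PG8M_algebra L)) →*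
    SemilinearAut L (PG_B0L_F L N) :=
  letI := PG8M_algebra L
  haveI := PG8M_isScalarTower L
  (arithmeticGalois (modularFunctionFieldFull N)).comp (AlgEquiv.restrictScalarsHom ℚ)

theorem PG8M_coe_gal_smul (σ : @AlgEquiv Kbar L L _ _ _ (PG8M_algebra L) (PG8M_algebra L))
    (x : PG_B0L_F L N) :
    ((PG8M_gal L N σ • x : PG_B0L_F L N) : LaurentSeries L) =
      coeffMap (letI := PG8M_algebra L; (σ : L →+* L)) (x : LaurentSeries L) := rfl

theorem PG8M_baseAut_gal (σ : @AlgEquiv Kbar L L _ _ _ (PG8M_algebra L) (PG8M_algebra L))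
    (c : L) : SemilinearAut.baseAut (PG8M_gal L N σ) c = σ c := rfl

/-- the Galois action fixes the image of `F_{ℚ̄}` -/
theorem PG8M_gal_smul_bc (σ : @AlgEquiv Kbar L L _ _ _ (PG8M_algebra L) (PG8M_algebra L))
    (x : modularFunctionFieldBar N) :
    PG8M_gal L N σ • PG_B0L_bc L N x = PG_B0L_bc L N x := by
  letI := PG8M_algebra L
  apply Subtype.ext
  rw [PG8M_coe_gal_smul, PG_B0L_coe_bc, coeffMap_coeffMap]
  exact coeffMap_congr (RingHom.ext fun a => σ.commutes a) _

/-- constants fixed by a subgroup of finite index are algebraic -/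
theorem PG8M_const_of_fixed
    (H : Subgroup (@AlgEquiv Kbar L L _ _ _ (PG8M_algebra L) (PG8M_algebra L)))
    [H.FiniteIndex] (c : L)
    (h : ∀ σ ∈ H, SemilinearAut.baseAut (PG8M_gal L N σ) c = c) :
    c ∈ (@algebraMap Kbar L _ _ (PG8M_algebra L)).range :=
  letI := PG8M_algebra L
  PG8c_mem_range_of_finiteIndex H c h

/-- a Laurent series over `ℚ̄` whose base change lies in `F_L` lies in `F_{ℚ̄}` -/
theorem PG8M_mem_of_coeffMap_mem (h : LaurentSeries Kbar)
    (hh : coeffMap (PG_B0L_emb L : Kbar →+* L) h ∈ PG_B0L_F L N) :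
    h ∈ modularFunctionFieldBar N := by
  letI := PG8M_algebra L
  have S := PG8M_setup L N
  obtain ⟨a, a', ha', hz⟩ := PG8e_exists_div (Module.Free.chooseBasis Kbar L) (PG_B0L_bc L N)
    S.map_algebraMap S.gen (⟨_, hh⟩ : PG_B0L_F L N)
  set b := Module.Free.chooseBasis Kbar L with hb
  -- the coordinates as Laurent series
  have hval : ∀ c : Module.Free.ChooseBasisIndex Kbar L →₀ modularFunctionFieldBar N,
      ((PG8e_Psi b (PG_B0L_bc L N) c : PG_B0L_F L N) : LaurentSeries L) =
        PG8M_Phi b (c.mapRange (fun x : modularFunctionFieldBar N => (x : LaurentSeries Kbar))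
          rfl) := by
    intro c
    rw [PG8M_Phi_apply, Finsupp.sum_mapRange_index (by simp), PG8e_Psi_apply, Finsupp.sum,
      Finsupp.sum, AddSubmonoidClass.coe_finsetSum]
    rfl
  have h1 : (⟨_, hh⟩ : PG_B0L_F L N) * PG8e_Psi b (PG_B0L_bc L N) a' =
      PG8e_Psi b (PG_B0L_bc L N) a := by
    rw [hz, div_mul_cancel₀ _ ha']
  have h2 := congrArg (fun z : PG_B0L_F L N => (z : LaurentSeries L)) h1
  simp only [MulMemClass.coe_mul] at h2
  rw [hval, hval, ← PG8M_Phi_mul_left] at h2
  have h3 := PG8M_Phi_injective b h2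
  have ha'0 : a' ≠ 0 := by
    rintro rfl
    exact ha' (map_zero _)
  obtain ⟨β, hβ⟩ : ∃ β, a' β ≠ 0 := by
    by_contra hcon
    push Not at hcon
    exact ha'0 (Finsupp.ext hcon)
  have h4 := DFunLike.congr_fun h3 β
  simp only [Finsupp.mapRange_apply] at h4
  have hβ' : ((a' β : modularFunctionFieldBar N) : LaurentSeries Kbar) ≠ 0 := by
    intro h0
    exact hβ (Subtype.ext h0)
  have h5 : h = ((a β / a' β : modularFunctionFieldBar N) : LaurentSeries Kbar) := by
    push_cast
    rw [eq_div_iff hβ']
    exact h4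
  rw [h5]
  exact (a β / a' β).2

/-- **descent of functions**: a nonzero function which every Galois automorphism multiplies by a
constant is a constant multiple of a function defined over `ℚ̄`. -/
theorem PG8M_descend (z : PG_B0L_F L N) (hz : z ≠ 0)
    (h : ∀ σ : @AlgEquiv Kbar L L _ _ _ (PG8M_algebra L) (PG8M_algebra L),
      ∃ c : L, PG8M_gal L N σ • z = algebraMap L (PG_B0L_F L N) c * z) :
    ∃ (c : L) (x : modularFunctionFieldBar N),
      z = algebraMap L (PG_B0L_F L N) c * PG_B0L_bc L N x := by
  letI := PG8M_algebra L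
  have hz' : (z : LaurentSeries L) ≠ 0 := fun h0 => hz (Subtype.ext h0)
  set n := (z : LaurentSeries L).order with hn
  set a := (z : LaurentSeries L).coeff n with ha
  have ha0 : a ≠ 0 := fun h0 => hz' (HahnSeries.coeff_order_eq_zero.1 h0)
  -- the normalised function
  set z' : PG_B0L_F L N := algebraMap L (PG_B0L_F L N) a⁻¹ * z with hz'def
  have hz'coe : (z' : LaurentSeries L) = HahnSeries.single 0 a⁻¹ * (z : LaurentSeries L) := by
    rw [hz'def, MulMemClass.coe_mul]
    congr 1
    exact algebraMap_laurentSeries_eq_single L a⁻¹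
  have hfix : ∀ σ : L ≃ₐ[Kbar] L,
      coeffMap (σ : L →+* L) (z' : LaurentSeries L) = (z' : LaurentSeries L) := by
    intro σ
    obtain ⟨c, hc⟩ := h σ
    have hc' : coeffMap (σ : L →+* L) (z : LaurentSeries L) =
        HahnSeries.single 0 c * (z : LaurentSeries L) := by
      have := congrArg (fun w : PG_B0L_F L N => (w : LaurentSeries L)) hc
      simp only [MulMemClass.coe_mul] at this
      rw [PG8M_coe_gal_smul] at this
      rw [this]
      congr 1
      exact algebraMap_laurentSeries_eq_single L c
    have hcoef : σ a = c * a := by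
      have := congrArg (fun w : LaurentSeries L => w.coeff n) hc'
      simp only [coeffMap_coeff, HahnSeries.coeff_single_zero_mul] at this
      exact this
    rw [hz'coe, map_mul, coeffMap_single, hc', ← mul_assoc, HahnSeries.single_mul_single,
      zero_add]
    congr 2
    have hσa : σ a ≠ 0 := by
      rw [Ne, map_eq_zero]
      exact ha0
    show (σ : L →+* L) a⁻¹ * c = a⁻¹
    rw [RingHom.coe_coe, map_inv₀, hcoef]
    have hc0 : c ≠ 0 := by
      rintro rfl
      rw [zero_mul] at hcoef
      exact hσa hcoef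
    field_simp
  obtain ⟨g, hg⟩ := PG8c_coeffMap_fixed_all (K := Kbar) (z' : LaurentSeries L) hfix
  have hgmem : g ∈ modularFunctionFieldBar N := by
    apply PG8M_mem_of_coeffMap_mem L N g
    have : coeffMap (PG_B0L_emb L : Kbar →+* L) g = (z' : LaurentSeries L) := hg
    rw [this]
    exact z'.2
  refine ⟨a, ⟨g, hgmem⟩, ?_⟩
  have hx : PG_B0L_bc L N ⟨g, hgmem⟩ = z' := Subtype.ext hg
  rw [hx, hz'def, ← mul_assoc, ← map_mul, mul_inv_cancel₀ ha0, map_one, one_mul]

end Fermat.Agent.G_helper26_G8MOD
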