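import Mathlib
import Fermat.Agent.G_helper26_G8MOD

/-!
# Project G, piece G8-MOD (continued): the base change map on `Pic⁰` for `ℚ̄ → L`
-/

set_option autoImplicit false
set_option linter.unusedSectionVars false
set_option linter.style.haveILetI false

noncomputable section

universe u

open AlgebraicCurve IntermediateField ModularCurve

namespace Fermat.Agent.G_helper26_G8MOD

open Fermat.Agent.S24 Fermat.Agent.G_helper21_B0L Fermat.Agent.G_helper26_G8e

variable (L : Type u) [Field L] [Algebra ℚ L] [IsAlgClosed L] (N : ℕ) [NeZero N]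

/-- The base change map `J₀(N)(ℚ̄) = Pic⁰ (F_{ℚ̄}) → Pic⁰ (F_L)`. -/
def PG8M_pic0 : JZero N →+ Pic0 L (PG_B0L_F L N) :=
  letI := PG8M_algebra L
  (PG8M_setup L N).pic0

theorem PG8M_pic0_eq :
    PG8M_pic0 L N = @PG8e_Setup.pic0 Kbar L _ _ (PG8M_algebra L) (modularFunctionFieldBar N)
      (PG_B0L_F L N) _ _ _ _ (PG_B0L_bc L N) (PG8M_setup L N) _ _ := rfl

/-- the Galois action is the given one on constants -/
theorem PG8M_gal_smul_algebraMap
    (σ : @AlgEquiv Kbar L L _ _ _ (PG8M_algebra L) (PG8M_algebra L)) (c : L) :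
    PG8M_gal L N σ • algebraMap L (PG_B0L_F L N) c = algebraMap L (PG_B0L_F L N) (σ c) :=
  SemilinearAut.smul_algebraMap (PG8M_gal L N σ) c

end Fermat.Agent.G_helper26_G8MOD
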