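import Mathlib
import Fermat.Agent.G_helper26_G8e

/-!
# Project G, piece G8f: injectivity of the base change on `Pic⁰`

Abstract setting of `G_helper26_G8e` (`K → Ω` algebraically closed, `ι : FK → FΩ`), together with
a group `G` acting semilinearly on `FΩ` (`ρ : G →* SemilinearAut Ω FΩ`) such that
* `fix`    : `G` fixes `ι(FK)` pointwise;
* `const`  : a constant with finite `G`-orbit lies in `K`;
* `descend`: a nonzero function which every `g ∈ G` multiplies by a constant is a constant
  multiple of an element of `ι(FK)`.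

Then `S.pic0 : Pic⁰(FK) → Pic⁰(FΩ)` is injective.
-/

set_option autoImplicit false
set_option linter.unusedSectionVars false
set_option linter.style.haveILetI false

noncomputable section

universe uK uΩ uFK uFΩ uG

open AlgebraicCurve IntermediateField
open scoped Pointwise

namespace Fermat.Agent.G_helper26_G8f

open Fermat.Agent.G_helper26_G8e

variable {K : Type uK} {Ω : Type uΩ} [Field K] [Field Ω] [Algebra K Ω]
variable {FK : Type uFK} {FΩ : Type uFΩ} [Field FK] [Field FΩ] [Algebra K FK] [Algebra Ω FΩ]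

/-- The Galois data used for the descent from `FΩ` to `FK`. -/
structure PG8f_Galois {G : Type uG} [Group G] (ι : FK →+* FΩ) (ρ : G →* SemilinearAut Ω FΩ) :
    Prop where
  /-- `G` fixes `ι(FK)` pointwise -/
  fix : ∀ (g : G) (x : FK), ρ g • ι x = ι x
  /-- constants with finite orbit lie in `K` -/
  const : ∀ c : Ω, (Set.range fun g : G => SemilinearAut.baseAut (ρ g) c).Finite →
    c ∈ (algebraMap K Ω).range
  /-- descent of functions -/
  descend : ∀ z : FΩ, z ≠ 0 → (∀ g : G, ∃ c : Ω, ρ g • z = algebraMap Ω FΩ c * z) →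
    ∃ (c : Ω) (x : FK), z = algebraMap Ω FΩ c * ι x

section Const

/-- a function without zeros and poles is constant -/
theorem PG8f_const_of_ord_eq_zero [IsAlgClosed Ω] (j : FΩ) (hj : Transcendental Ω j)
    [FiniteDimensional Ω⟮j⟯ FΩ] (z : FΩ) (hz : ∀ P : Place Ω FΩ, P.ord z = 0) :
    ∃ c : Ω, z = algebraMap Ω FΩ c := by
  by_cases halg : IsAlgebraic Ω z
  · obtain ⟨a, ha⟩ := Fermat.Agent.S24_helper6_A2.exists_algebraMap_eq_of_isAlgebraic z halg
    exact ⟨a, ha.symm⟩
  · exfalso
    haveI : FiniteDimensional Ω⟮z⟯ FΩ :=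
      Fermat.Agent.S24_helper6_A2.finiteDimensional_adjoin_of_transcendental j hj z halg
    obtain ⟨P, hP⟩ := Fermat.Agent.S18_helper26_PLACE.S18P15_exists_place_ord_pos (k := Ω) z halg
    rw [hz P] at hP
    exact lt_irrefl _ hP

end Const

variable {ι : FK →+* FΩ} (S : PG8e_Setup (K := K) (Ω := Ω) ι)
variable {G : Type uG} [Group G] {ρ : G →* SemilinearAut Ω FΩ}

include S in
/-- the divisors `S.baseChange D` are Galois-invariant -/
theorem PG8f_baseChange_smul [IsAlgClosed K] (hfix : ∀ (g : G) (x : FK), ρ g • ι x = ι x)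
    (D : Divisor K FK) (g : G) (w : Place Ω FΩ) :
    S.baseChange D (ρ g • w) = S.baseChange D w := by
  by_cases hw : w ∈ Set.range S.ext
  · obtain ⟨PK, rfl⟩ := hw
    rw [S.smul_ext (ρ g) (hfix g) PK]
  · rw [S.baseChange_apply_of_notMem D hw, S.baseChange_apply_of_notMem D]
    rwa [S.smul_mem_range_iff (ρ g) (hfix g)]

include S in
/-- **G8f, divisor form.** If the base change of `D` is principal then `D` is principal. -/
theorem PG8f_principal_of_baseChange [IsAlgClosed K] [IsAlgClosed Ω] (hG : PG8f_Galois (K := K) ι ρ)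
    {D : Divisor K FK} (hD : S.baseChange D ∈ Divisor.principal (K := Ω) (F := FΩ)) :
    D ∈ Divisor.principal (K := K) (F := FK) := by
  obtain ⟨f, hf0, hf⟩ := hD
  obtain ⟨j, hj, hfinK, hfinΩ⟩ := S.fin
  have hjΩ : Transcendental Ω (ι j) := S.transcendental_map hj
  -- every `g` multiplies `f` by a constant
  have hconst : ∀ g : G, ∃ c : Ω, ρ g • f = algebraMap Ω FΩ c * f := by
    intro g
    have hgf0 : ρ g • f ≠ 0 := by
      rw [SemilinearAut.smul_def]
      simpa using hf0
    have hord : ∀ P : Place Ω FΩ, P.ord (ρ g • f / f) = 0 := by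
      intro P
      have h1 : P.ord (ρ g • f) = ((ρ g)⁻¹ • P).ord f := by
        have := SemilinearAut.ord_smul (ρ g) ((ρ g)⁻¹ • P) f
        rwa [smul_inv_smul] at this
      rw [div_eq_mul_inv, P.ord_mul hgf0 (inv_ne_zero hf0), P.ord_inv, h1, ← hf, ← hf]
      have h2 := PG8f_baseChange_smul S hG.fix D g ((ρ g)⁻¹ • P)
      rw [smul_inv_smul] at h2
      rw [h2]
      ring
    obtain ⟨c, hc⟩ := PG8f_const_of_ord_eq_zero (ι j) hjΩ _ hord
    exact ⟨c, by rw [← hc, div_mul_cancel₀ _ hf0]⟩
  obtain ⟨c, x, hcx⟩ := hG.descend f hf0 hconst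
  have hc0 : c ≠ 0 := by
    rintro rfl
    rw [map_zero, zero_mul] at hcx
    exact hf0 hcx
  have hx0 : x ≠ 0 := by
    rintro rfl
    rw [map_zero, mul_zero] at hcx
    exact hf0 hcx
  refine ⟨x, hx0, fun PK => ?_⟩
  have h1 := hf (S.ext PK)
  rw [S.baseChange_apply_ext, hcx, Place.ord_mul _ (by simpa using hc0) (by simpa using hx0),
    Fermat.Agent.S24_helper6_A2.ord_algebraMap_eq_zero, zero_add, S.ord_ext] at h1
  exact h1

include S in
/-- **G8f.** The base change `Pic⁰(FK) → Pic⁰(FΩ)` is injective. -/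
theorem PG8f_pic0_injective [IsAlgClosed K] [IsAlgClosed Ω] (hG : PG8f_Galois (K := K) ι ρ) :
    Function.Injective S.pic0 := by
  rw [injective_iff_map_eq_zero]
  intro x hx
  obtain ⟨D, rfl⟩ := Pic0.mk_surjective x
  rw [S.pic0_mk] at hx
  have h1 : (S.baseChangeDegZero D : Divisor Ω FΩ) ∈ Divisor.principal (K := Ω) (F := FΩ) := by
    have := (QuotientAddGroup.eq_zero_iff _).1 hx
    exact this
  rw [S.coe_baseChangeDegZero] at h1
  have h2 := PG8f_principal_of_baseChange S hG h1
  exact (QuotientAddGroup.eq_zero_iff _).2 h2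

end Fermat.Agent.G_helper26_G8f
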