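import Mathlib
import Fermat.Prelude.Def_AlgebraicCurve_BaseChangeGalois
import Fermat.Agent.G_helper26_G8e
import Fermat.Agent.G_helper26_G8c
import Fermat.Agent.S37_helper21_RI
import Fermat.Agent.S24_helper6_A2Shapes

/-!
# Project G, piece G8d-EFFECTIVE-ABS

`K → Ω` algebraically closed fields of characteristic zero, `ι : FK →+* FΩ` a constant field
extension of function fields (`PG8e_Setup`), and a coefficientwise action
`act : Aut(Ω / K) →* SemilinearAut Ω FΩ` (`act σ = σ` on `Ω`, `act σ = id` on `ι FK`).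

* `PG8d_mem_range_ext_of_finite_orbit`: a place of `FΩ` with finite orbit is `S.ext` of a place
  of `FK`;
* `PG8d_exists_of_finite_orbit`: a class of `Pic⁰ (FΩ)` with finite orbit is `S.pic0` of a class
  of `Pic⁰ (FK)`;
* `PG8d_exists_of_torsion`: if the `p`-torsion of `Pic⁰ (FΩ)` is finite then every `p`-torsion
  class is in the range of `S.pic0`.
-/

set_option autoImplicit false
set_option linter.unusedSectionVars false
set_option linter.style.haveILetI false

noncomputable section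

universe uK uΩ uFK uFΩ

open AlgebraicCurve IntermediateField
open Fermat.Agent.G_helper26_G8e Fermat.Agent.G_helper26_G8c Fermat.Agent.S37_helper21_RI

namespace Fermat.Agent.G_helper7_G8d

/-! ### Orbits -/

/-- If every element fixing `x` fixes `y` and the orbit of `x` is finite, the orbit of `y` is
finite. -/
theorem PG8d_finite_orbit_of_stab {G G' X Y : Type*} [Group G] [Group G'] [MulAction G' X]
    [MulAction G' Y] (act : G →* G') (x : X) (y : Y)
    (hx : (Set.range fun σ : G => act σ • x).Finite)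
    (h : ∀ σ : G, act σ • x = x → act σ • y = y) :
    (Set.range fun σ : G => act σ • y).Finite := by
  classical
  let φ : X → Y := fun x' => if hx' : ∃ σ : G, act σ • x = x' then act hx'.choose • y else y
  have hφ : ∀ σ : G, act σ • y = φ (act σ • x) := by
    intro σ
    have hex : ∃ τ : G, act τ • x = act σ • x := ⟨σ, rfl⟩
    have hτ := hex.choose_spec
    show act σ • y = if hx' : ∃ τ : G, act τ • x = act σ • x then act hx'.choose • y else y
    rw [dif_pos hex]
    have h1 : act (σ⁻¹ * hex.choose) • x = x := by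
      rw [map_mul, mul_smul, hτ, map_inv, inv_smul_smul]
    have h2 := h _ h1
    rw [map_mul, mul_smul, map_inv, inv_smul_eq_iff] at h2
    exact h2.symm
  refine (hx.image φ).subset ?_
  rintro _ ⟨σ, rfl⟩
  exact ⟨act σ • x, ⟨σ, rfl⟩, (hφ σ).symm⟩

variable {K : Type uK} {Ω : Type uΩ} [Field K] [Field Ω] [Algebra K Ω] [IsAlgClosed K]
  [IsAlgClosed Ω]
variable {FK : Type uFK} {FΩ : Type uFΩ} [Field FK] [Field FΩ] [Algebra K FK] [Algebra Ω FΩ]
variable {ι : FK →+* FΩ} (S : PG8e_Setup (K := K) (Ω := Ω) ι)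
variable (act : (Ω ≃ₐ[K] Ω) →* SemilinearAut Ω FΩ)
  (hbase : ∀ (σ : Ω ≃ₐ[K] Ω) (c : Ω), act σ • algebraMap Ω FΩ c = algebraMap Ω FΩ (σ c))
  (hfix : ∀ (σ : Ω ≃ₐ[K] Ω) (x : FK), act σ • ι x = ι x)

/-! ### Places with finite orbit -/

/-- two constants which are both the value of `u` at a place coincide -/
theorem PG8d_value_unique (P : Place Ω FΩ) (u : FΩ) (a₁ a₂ : Ω)
    (h₁ : 0 < P.ord (u - algebraMap Ω FΩ a₁)) (h₂ : 0 < P.ord (u - algebraMap Ω FΩ a₂)) :
    a₁ = a₂ := by
  by_contra hne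
  have hx0 : algebraMap Ω FΩ (a₂ - a₁) ≠ 0 := by
    rw [Ne, map_eq_zero, sub_eq_zero]
    exact fun h => hne h.symm
  have h := PG8e_ord_add_eq_zero P hx0
    (Fermat.Agent.S24_helper6_A2.ord_algebraMap_eq_zero P (a₂ - a₁))
    (y := u - algebraMap Ω FΩ a₂) (Or.inr h₂)
  have e : algebraMap Ω FΩ (a₂ - a₁) + (u - algebraMap Ω FΩ a₂) = u - algebraMap Ω FΩ a₁ := by
    rw [map_sub]
    ring
  rw [e] at h
  omega

include hbase hfix in
/-- the value of `ι j` at the translated place -/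
theorem PG8d_ord_smul_sub (σ : Ω ≃ₐ[K] Ω) (w : Place Ω FΩ) (j : FK) (c : Ω) :
    (act σ • w).ord (ι j - algebraMap Ω FΩ (σ c)) = w.ord (ι j - algebraMap Ω FΩ c) := by
  have h := SemilinearAut.ord_smul (act σ) w (ι j - algebraMap Ω FΩ c)
  rw [smul_sub, hfix, hbase] at h
  exact h

include S hbase hfix in
/-- **A place of `FΩ` with finite orbit comes from `FK`.** -/
theorem PG8d_mem_range_ext_of_finite_orbit (w : Place Ω FΩ)
    (hw : (Set.range fun σ : Ω ≃ₐ[K] Ω => act σ • w).Finite) : w ∈ Set.range S.ext := by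
  by_contra hnot
  obtain ⟨j, hj, hfinK, hfinΩ⟩ := S.fin
  have hx : Transcendental Ω (ι j) := S.transcendental_map hj
  have halg : Algebra.IsAlgebraic Ω⟮ι j⟯ FΩ := Algebra.IsAlgebraic.of_finite _ _
  have h0 : ∀ x : FK, w.ord (ι x) = 0 := S.ord_eq_zero_of_notMem_range hnot
  have hmem : ι j ∈ w.toValuationSubring := S.map_mem_of_notMem_range hnot j
  obtain ⟨c, hc⟩ := Fermat.Agent.S24_helper15_A1.exists_const_sub_mem (ι j) halg w (ι j) hmem
  have hc' : 0 < w.ord (ι j - algebraMap Ω FΩ c) := by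
    rcases hc with hc | hc
    · exact hc
    · exfalso
      apply hx
      rw [hc]
      exact isAlgebraic_algebraMap c
  have hcK : c ∉ (algebraMap K Ω).range := by
    rintro ⟨c₀, rfl⟩
    have e : ι j - algebraMap Ω FΩ (algebraMap K Ω c₀) = ι (j - algebraMap K FK c₀) := by
      rw [map_sub, S.map_algebraMap]
    rw [e, h0] at hc'
    exact lt_irrefl _ hc'
  choose σ hσ using fun d : K => PG8c_exists_algEquiv_add c hcK d
  have hinj : Function.Injective fun d : K => act (σ d) • w := by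
    intro d d' hdd
    have hdd' : act (σ d) • w = act (σ d') • w := hdd
    have h1 : 0 < (act (σ d) • w).ord (ι j - algebraMap Ω FΩ (σ d c)) := by
      rw [PG8d_ord_smul_sub act hbase hfix]
      exact hc'
    have h2 : 0 < (act (σ d) • w).ord (ι j - algebraMap Ω FΩ (σ d' c)) := by
      rw [hdd', PG8d_ord_smul_sub act hbase hfix]
      exact hc'
    have h3 := PG8d_value_unique _ _ _ _ h1 h2
    rw [hσ, hσ] at h3
    exact (algebraMap K Ω).injective (add_left_cancel h3)
  have : Infinite K := IsAlgClosed.instInfinite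
  refine Set.infinite_range_of_injective hinj (hw.subset ?_)
  rintro _ ⟨d, rfl⟩
  exact ⟨σ d, rfl⟩

/-! ### Linear systems: generic lemmas -/

section Generic

variable {k : Type*} {F : Type*} [Field k] [Field F] [Algebra k F]

/-- a divisor of negative degree has no nonzero section -/
theorem PG8d_eq_zero_of_degree_neg [IsAlgClosed k] [CharZero k] (x : F)
    (hx : Transcendental k x) [FiniteDimensional k⟮x⟯ F] (A : Divisor k F)
    (hA : Divisor.degree A < 0) (f : F) (hf : ∀ v : Place k F, 0 ≤ v.ord f + A v) : f = 0 := by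
  by_contra hf0
  have halg : Algebra.IsAlgebraic k⟮x⟯ F := Algebra.IsAlgebraic.of_finite _ _
  have hdeg : ∀ v : Place k F, v.deg = 1 := Fermat.Agent.S24_helper15_A1.deg_eq_one x halg
  obtain ⟨Df, hDf, hDf0⟩ := Fermat.Agent.S24_helper6_A2.exists_divisor x hx hdeg f hf0
  have h := S37RI_degree_nonneg hdeg (Df + A) (fun v => by
    rw [Finsupp.add_apply, hDf]
    exact hf v)
  rw [map_add, hDf0, zero_add] at h
  omega

/-- if `L(A) = 0` then any two nonzero elements of `L(A + P)` have the same divisor -/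
theorem PG8d_ord_eq_of_unique [IsAlgClosed k] (x : F) (halg : Algebra.IsAlgebraic k⟮x⟯ F)
    (A : Divisor k F) (P : Place k F)
    (hA : ∀ h : F, (∀ v : Place k F, 0 ≤ v.ord h + A v) → h = 0) (f g : F) (hf0 : f ≠ 0)
    (hg0 : g ≠ 0) (hf : ∀ v : Place k F, 0 ≤ v.ord f + (A + Finsupp.single P (1 : ℤ)) v)
    (hg : ∀ v : Place k F, 0 ≤ v.ord g + (A + Finsupp.single P (1 : ℤ)) v) (v : Place k F) :
    v.ord f = v.ord g := by
  have hgA : g ∉ S37RI_LSpace A := by
    intro hmem
    exact hg0 (hA g ((S37RI_mem_LSpace_iff_ord hg0).1 hmem))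
  obtain ⟨c, hc⟩ := S37RI_step x halg A P f g ((S37RI_mem_LSpace_iff_ord hf0).2 hf)
    ((S37RI_mem_LSpace_iff_ord hg0).2 hg) hgA
  have h0 : f - c • g = 0 := by
    by_contra hne
    exact hne (hA _ ((S37RI_mem_LSpace_iff_ord hne).1 hc))
  have hfc : f = algebraMap k F c * g := by
    rw [← Algebra.smul_def]
    exact sub_eq_zero.1 h0
  have hc0 : algebraMap k F c ≠ 0 := by
    intro h
    rw [hfc, h, zero_mul] at hf0
    exact hf0 rfl
  rw [hfc, v.ord_mul hc0 hg0, Fermat.Agent.S24_helper6_A2.ord_algebraMap_eq_zero, zero_add]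

/-- the order of `g • f` -/
theorem PG8d_ord_smul' (g : SemilinearAut k F) (v : Place k F) (f : F) :
    v.ord (g • f) = (g⁻¹ • v).ord f := by
  have h := SemilinearAut.ord_smul g (g⁻¹ • v) f
  rw [smul_inv_smul] at h
  exact h

/-- invariance of the unique effective divisor of a class under an automorphism which preserves
the class -/
theorem PG8d_smul_eq_of_unique (g : SemilinearAut k F) (Dn Df : Divisor k F) (f : F)
    (hf0 : f ≠ 0) (hDf : ∀ v : Place k F, Df v = v.ord f)
    (hE : ∀ v : Place k F, 0 ≤ (Dn + Df) v)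
    (huniq : ∀ h : F, h ≠ 0 → (∀ v : Place k F, 0 ≤ v.ord h + Dn v) →
      ∀ v : Place k F, v.ord h = v.ord f)
    (u : F) (hu0 : u ≠ 0) (hu : ∀ v : Place k F, (g • Dn) v = Dn v - v.ord u) :
    g • (Dn + Df) = Dn + Df := by
  have hgf0 : g • f ≠ 0 := by
    rw [SemilinearAut.smul_def]
    simpa using hf0
  have hh0 : (g • f) * u⁻¹ ≠ 0 := mul_ne_zero hgf0 (inv_ne_zero hu0)
  have hkey : ∀ v : Place k F, (g • (Dn + Df)) v = v.ord ((g • f) * u⁻¹) + Dn v := by
    intro v
    rw [smul_add, Finsupp.add_apply, hu, SemilinearAut.divisor_smul_apply g Df, hDf,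
      ← PG8d_ord_smul', v.ord_mul hgf0 (inv_ne_zero hu0), Place.ord_inv]
    ring
  have hh : ∀ v : Place k F, 0 ≤ v.ord ((g • f) * u⁻¹) + Dn v := by
    intro v
    rw [← hkey, SemilinearAut.divisor_smul_apply]
    exact hE _
  ext v
  rw [hkey, huniq _ hh0 hh v, Finsupp.add_apply, hDf]
  ring

end Generic

/-! ### The descent of classes with finite orbit -/

include S hbase hfix in
/-- **A class of `Pic⁰ (FΩ)` with finite orbit under the coefficientwise action of
`Aut(Ω / K)` comes from `Pic⁰ (FK)`.** -/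
theorem PG8d_exists_of_finite_orbit [CharZero Ω] (y : Pic0 Ω FΩ)
    (hy : (Set.range fun σ : Ω ≃ₐ[K] Ω => act σ • y).Finite) :
    ∃ x : Pic0 K FK, S.pic0 x = y := by
  classical
  obtain ⟨j, hj, hfinK, hfinΩ⟩ := S.fin
  have hx : Transcendental Ω (ι j) := S.transcendental_map hj
  have halg : Algebra.IsAlgebraic Ω⟮ι j⟯ FΩ := Algebra.IsAlgebraic.of_finite _ _
  have hdeg : ∀ v : Place Ω FΩ, v.deg = 1 := S.deg_eq_one'
  obtain ⟨P0K, -⟩ := Fermat.Agent.S18_helper26_PLACE.S18P15_exists_place_ord_pos j hj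
  have hP0 : ∀ σ : Ω ≃ₐ[K] Ω, act σ • S.ext P0K = S.ext P0K := fun σ =>
    S.smul_ext (act σ) (hfix σ) P0K
  obtain ⟨⟨D, hD⟩, rfl⟩ := Pic0.mk_surjective y
  have hD0 : Divisor.degree D = 0 := Divisor.mem_degZero.1 hD
  -- the minimal `m` with `L(D - P0 + m P0) ≠ 0`
  have hQ : ∃ m : ℕ, ∃ f : FΩ, f ≠ 0 ∧ ∀ v : Place Ω FΩ,
      0 ≤ v.ord f + (D - Finsupp.single (S.ext P0K) (1 : ℤ) +
        Finsupp.single (S.ext P0K) (m : ℤ)) v := by
    obtain ⟨c, hc⟩ := S37RI_exists_effective (ι j) hx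
    refine ⟨(c + 1).toNat, hc _ ?_⟩
    rw [map_add, map_sub, hD0, Divisor.degree_single, Divisor.degree_single, hdeg]
    have := Int.self_le_toNat (c + 1)
    push_cast
    omega
  have hm := Nat.find_spec hQ
  have hm0 : Nat.find hQ ≠ 0 := by
    intro h0
    obtain ⟨f, hf0, hf⟩ := hm
    rw [h0, Nat.cast_zero, Finsupp.single_zero, add_zero] at hf
    refine hf0 (PG8d_eq_zero_of_degree_neg (ι j) hx _ ?_ f hf)
    rw [map_sub, hD0, Divisor.degree_single, hdeg]
    norm_num
  obtain ⟨m', hm'⟩ : ∃ m', Nat.find hQ = m' + 1 := Nat.exists_eq_succ_of_ne_zero hm0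
  have hAzero : ∀ h : FΩ, (∀ v : Place Ω FΩ, 0 ≤ v.ord h +
      (D - Finsupp.single (S.ext P0K) (1 : ℤ) + Finsupp.single (S.ext P0K) (m' : ℤ)) v) →
      h = 0 := by
    intro h hh
    by_contra h0
    exact Nat.find_min hQ (m := m') (by omega) ⟨h, h0, hh⟩
  have hAm : D - Finsupp.single (S.ext P0K) (1 : ℤ) +
      Finsupp.single (S.ext P0K) ((Nat.find hQ : ℕ) : ℤ) =
      (D - Finsupp.single (S.ext P0K) (1 : ℤ) + Finsupp.single (S.ext P0K) (m' : ℤ)) +
        Finsupp.single (S.ext P0K) (1 : ℤ) := by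
    rw [hm']
    push_cast
    rw [Finsupp.single_add, add_assoc]
  have hDn : (D - Finsupp.single (S.ext P0K) (1 : ℤ) + Finsupp.single (S.ext P0K) (m' : ℤ)) +
        Finsupp.single (S.ext P0K) (1 : ℤ) = D + Finsupp.single (S.ext P0K) (m' : ℤ) := by
    abel
  obtain ⟨f, hf0, hf⟩ := hm
  rw [hAm] at hf
  obtain ⟨Df, hDf, hDf0⟩ := Fermat.Agent.S24_helper6_A2.exists_divisor (ι j) hx hdeg f hf0
  -- the effective divisor
  have huniq : ∀ h : FΩ, h ≠ 0 → (∀ v : Place Ω FΩ, 0 ≤ v.ord h +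
      (D + Finsupp.single (S.ext P0K) (m' : ℤ)) v) → ∀ v : Place Ω FΩ, v.ord h = v.ord f := by
    intro h hh0 hh v
    rw [← hDn] at hh
    exact PG8d_ord_eq_of_unique (ι j) halg _ (S.ext P0K) hAzero h f hh0 hf0 hh hf v
  rw [hDn] at hf
  have hE : ∀ v : Place Ω FΩ, 0 ≤ (D + Finsupp.single (S.ext P0K) (m' : ℤ) + Df) v := by
    intro v
    rw [Finsupp.add_apply, hDf, add_comm]
    exact hf v
  -- invariance under the stabiliser
  have hstab : ∀ σ : Ω ≃ₐ[K] Ω,
      act σ • Pic0.mk (⟨D, hD⟩ : Divisor.degZero (K := Ω) (F := FΩ)) = Pic0.mk ⟨D, hD⟩ →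
      act σ • (D + Finsupp.single (S.ext P0K) (m' : ℤ) + Df) =
        D + Finsupp.single (S.ext P0K) (m' : ℤ) + Df := by
    intro σ hσ
    rw [SemilinearAut.pic0_smul_mk] at hσ
    have hprin := (QuotientAddGroup.eq).1 hσ
    rw [AddSubgroup.mem_addSubgroupOf] at hprin
    obtain ⟨u, hu0, hu⟩ := hprin
    refine PG8d_smul_eq_of_unique (act σ) _ Df f hf0 hDf hE huniq u hu0 fun v => ?_
    have hu' := hu v
    rw [AddSubgroup.coe_add, AddSubgroup.coe_neg, SemilinearAut.coe_degZeroSMulHom,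
      Finsupp.add_apply, Finsupp.neg_apply] at hu'
    rw [smul_add, SemilinearAut.smul_single, hP0, Finsupp.add_apply, Finsupp.add_apply]
    have e : (((⟨D, hD⟩ : Divisor.degZero (K := Ω) (F := FΩ)) : Divisor Ω FΩ)) = D := rfl
    rw [e] at hu'
    linarith
  have hEorb := PG8d_finite_orbit_of_stab act
    (Pic0.mk (⟨D, hD⟩ : Divisor.degZero (K := Ω) (F := FΩ)))
    (D + Finsupp.single (S.ext P0K) (m' : ℤ) + Df) hy hstab
  have hsupp : ∀ w ∈ (D + Finsupp.single (S.ext P0K) (m' : ℤ) + Df).support,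
      w ∈ Set.range S.ext := by
    intro w hw
    apply PG8d_mem_range_ext_of_finite_orbit S act hbase hfix
    refine (hEorb.biUnion (fun E' _ => E'.support.finite_toSet)).subset ?_
    rintro _ ⟨σ, rfl⟩
    simp only [Set.mem_iUnion]
    refine ⟨act σ • (D + Finsupp.single (S.ext P0K) (m' : ℤ) + Df), ⟨σ, rfl⟩, ?_⟩
    rw [Finset.mem_coe, Finsupp.mem_support_iff, SemilinearAut.divisor_smul_apply_smul]
    exact Finsupp.mem_support_iff.1 hw
  -- descent of the effective divisor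
  have hEK : S.baseChange ((D + Finsupp.single (S.ext P0K) (m' : ℤ) + Df).comapDomain S.ext
      S.ext_injective.injOn) = D + Finsupp.single (S.ext P0K) (m' : ℤ) + Df :=
    Finsupp.mapDomain_comapDomain S.ext S.ext_injective _ (fun w hw => hsupp w hw)
  have hDKbc : S.baseChange ((D + Finsupp.single (S.ext P0K) (m' : ℤ) + Df).comapDomain S.ext
      S.ext_injective.injOn - Finsupp.single P0K (m' : ℤ)) = D + Df := by
    rw [map_sub, hEK, S.baseChange_single]
    abel
  have hDKdeg : (D + Finsupp.single (S.ext P0K) (m' : ℤ) + Df).comapDomain S.ext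
      S.ext_injective.injOn - Finsupp.single P0K (m' : ℤ) ∈
      Divisor.degZero (K := K) (F := FK) := by
    rw [Divisor.mem_degZero, ← S.degree_baseChange, hDKbc, map_add, hDf0, hD0, add_zero]
  refine ⟨Pic0.mk ⟨_, hDKdeg⟩, ?_⟩
  rw [S.pic0_mk]
  refine (QuotientAddGroup.eq).2 ?_
  rw [AddSubgroup.mem_addSubgroupOf, AddSubgroup.coe_add, AddSubgroup.coe_neg,
    PG8e_Setup.coe_baseChangeDegZero]
  have e : ((⟨(D + Finsupp.single (S.ext P0K) (m' : ℤ) + Df).comapDomain S.ext
      S.ext_injective.injOn - Finsupp.single P0K (m' : ℤ), hDKdeg⟩ :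
      Divisor.degZero (K := K) (F := FK)) : Divisor K FK) =
      (D + Finsupp.single (S.ext P0K) (m' : ℤ) + Df).comapDomain S.ext
      S.ext_injective.injOn - Finsupp.single P0K (m' : ℤ) := rfl
  rw [e, hDKbc]
  have e2 : -(D + Df) + ((⟨D, hD⟩ : Divisor.degZero (K := Ω) (F := FΩ)) : Divisor Ω FΩ) =
      -Df := by
    show -(D + Df) + D = -Df
    abel
  rw [e2]
  exact neg_mem ⟨f, hf0, hDf⟩

include S hbase hfix in
/-- **Surjectivity onto the torsion**: if the `p`-torsion of `Pic⁰ (FΩ)` is finite, every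
`p`-torsion class comes from `Pic⁰ (FK)`. -/
theorem PG8d_exists_of_torsion [CharZero Ω] (p : ℕ)
    (hfin : (Pic0.torsion Ω FΩ p : Set (Pic0 Ω FΩ)).Finite) (y : Pic0 Ω FΩ)
    (hy : (p : ℤ) • y = 0) : ∃ x : Pic0 K FK, S.pic0 x = y := by
  apply PG8d_exists_of_finite_orbit S act hbase hfix
  refine hfin.subset ?_
  rintro _ ⟨σ, rfl⟩
  exact SemilinearAut.smul_mem_torsion (act σ) (Pic0.mem_torsion.2 hy)

end Fermat.Agent.G_helper7_G8d
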