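import Mathlib
import Fermat.Prelude.Def_AlgebraicCurve_Correspondence
import Fermat.Agent.G_helper26_G8e

/-!
# Project G, piece G8g-HECKE-ABS

Base change of divisors along a constant field extension `K → Ω` commutes with
pullback, pushforward and the correspondence on `Pic⁰`.

Setting: `ι : FK →+* FΩ`, `ι' : FK' →+* FΩ'` two constant field extensions of function fields
(`PG8e_Setup`), `φK : FK →ₐ[K] FK'` and `φΩ : FΩ →ₐ[Ω] FΩ'` with `φΩ ∘ ι = ι' ∘ φK`.

* `PG8g_restrictAlong_ext`: `(S'.ext Q).restrictAlong φΩ = S.ext (Q.restrictAlong φK)`;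
* `PG8g_ramificationIndexAlong_ext`: `e(S'.ext Q | φΩ) = e(Q | φK)`;
* `PG8g_inertiaDegAlong_ext`: `f(S'.ext Q | φΩ) = f(Q | φK)` (both are `1`);
* `PG8g_mem_range_ext_iff`: a place `w` of `FΩ'` is of the form `S'.ext Q` iff its restriction
  along `φΩ` is of the form `S.ext P`;
* `PG8g_pullbackAlong`, `PG8g_pushforwardAlong`, `PG8g_correspondence`,
  `PG8g_pic0_correspondence`.
-/

set_option autoImplicit false
set_option linter.unusedSectionVars false
set_option linter.style.haveILetI false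

noncomputable section

universe uK uΩ uFK uFΩ uFK' uFΩ'

open AlgebraicCurve IntermediateField
open Fermat.Agent.G_helper26_G8e

namespace Fermat.Agent.G_helper7_G8g

section AlongBasics

variable {K : Type*} {F : Type*} {F' : Type*} [Field K] [Field F] [Field F'] [Algebra K F]
  [Algebra K F']

/-- membership in the ring of the restricted place -/
theorem PG8g_mem_restrictAlong (φ : F →ₐ[K] F') (hφ : φ.toRingHom.IsIntegral) (w : Place K F')
    (x : F) : x ∈ (w.restrictAlong φ hφ).toValuationSubring ↔ φ x ∈ w.toValuationSubring :=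
  Iff.rfl

/-- tower formula for the degrees along `φ` -/
theorem PG8g_deg_restrictAlong_mul (φ : F →ₐ[K] F') (hφ : φ.toRingHom.IsIntegral)
    (w : Place K F') : (w.restrictAlong φ hφ).deg * w.inertiaDegAlong φ hφ = w.deg := by
  letI := algebraAlong φ
  haveI := isScalarTower_along φ
  haveI := isIntegral_along φ hφ
  exact w.deg_restrict_mul_inertiaDeg (F := F)

/-- if all places have degree one, the inertia degree is one -/
theorem PG8g_inertiaDegAlong_eq_one (φ : F →ₐ[K] F') (hφ : φ.toRingHom.IsIntegral)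
    (w : Place K F') (h1 : (w.restrictAlong φ hφ).deg = 1) (h2 : w.deg = 1) :
    w.inertiaDegAlong φ hφ = 1 := by
  have h := PG8g_deg_restrictAlong_mul φ hφ w
  rw [h1, h2, one_mul] at h
  exact h

/-- a uniformiser at a place -/
theorem PG8g_exists_ord_eq_one (v : Place K F) : ∃ t : F, v.ord t = 1 := by
  obtain ⟨π, hπ⟩ := IsDiscreteValuationRing.exists_irreducible v.toValuationSubring
  exact ⟨(π : F), v.ord_coe_irreducible hπ⟩

end AlongBasics

variable {K : Type uK} {Ω : Type uΩ} [Field K] [Field Ω] [Algebra K Ω] [IsAlgClosed K]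
  [IsAlgClosed Ω]
variable {FK : Type uFK} {FΩ : Type uFΩ} [Field FK] [Field FΩ] [Algebra K FK] [Algebra Ω FΩ]
variable {FK' : Type uFK'} {FΩ' : Type uFΩ'} [Field FK'] [Field FΩ'] [Algebra K FK']
  [Algebra Ω FΩ']
variable {ι : FK →+* FΩ} {ι' : FK' →+* FΩ'} (S : PG8e_Setup (K := K) (Ω := Ω) ι)
  (S' : PG8e_Setup (K := K) (Ω := Ω) ι')

/-- **(1) restriction commutes with `ext`.** -/
theorem PG8g_restrictAlong_ext (φK : FK →ₐ[K] FK') (φΩ : FΩ →ₐ[Ω] FΩ')
    (hφK : φK.toRingHom.IsIntegral) (hφΩ : φΩ.toRingHom.IsIntegral)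
    (hcomm : ∀ x : FK, φΩ (ι x) = ι' (φK x)) (Q : Place K FK') :
    (S'.ext Q).restrictAlong φΩ hφΩ = S.ext (Q.restrictAlong φK hφK) := by
  apply S.eq_ext
  show ((S'.ext Q).restrictAlong φΩ hφΩ).toValuationSubring.comap ι =
    (Q.restrictAlong φK hφK).toValuationSubring
  ext x
  rw [ValuationSubring.mem_comap, PG8g_mem_restrictAlong, PG8g_mem_restrictAlong, hcomm,
    S'.mem_ext_iff]

include S in
/-- **(2) the ramification index is preserved by `ext`.** -/
theorem PG8g_ramificationIndexAlong_ext (φK : FK →ₐ[K] FK') (φΩ : FΩ →ₐ[Ω] FΩ')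
    (hφK : φK.toRingHom.IsIntegral) (hφΩ : φΩ.toRingHom.IsIntegral)
    (hcomm : ∀ x : FK, φΩ (ι x) = ι' (φK x)) (Q : Place K FK') :
    Place.ramificationIndexAlong φΩ (S'.ext Q) = Place.ramificationIndexAlong φK Q := by
  obtain ⟨t, ht⟩ := PG8g_exists_ord_eq_one (Q.restrictAlong φK hφK)
  have h1 := Place.ord_restrictAlong φΩ hφΩ (S'.ext Q) (ι t)
  rw [PG8g_restrictAlong_ext S S' φK φΩ hφK hφΩ hcomm Q, S.ord_ext, ht, mul_one, hcomm,
    S'.ord_ext, Place.ord_restrictAlong φK hφK Q t, ht, mul_one] at h1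
  exact_mod_cast h1.symm

include S in
/-- **the inertia degree is preserved by `ext`** (both sides are `1`). -/
theorem PG8g_inertiaDegAlong_ext (φK : FK →ₐ[K] FK') (φΩ : FΩ →ₐ[Ω] FΩ')
    (hφK : φK.toRingHom.IsIntegral) (hφΩ : φΩ.toRingHom.IsIntegral) (Q : Place K FK') :
    Place.inertiaDegAlong φΩ hφΩ (S'.ext Q) = Place.inertiaDegAlong φK hφK Q := by
  rw [PG8g_inertiaDegAlong_eq_one φΩ hφΩ (S'.ext Q) (S.deg_eq_one' _) (S'.deg_eq_one' _),
    PG8g_inertiaDegAlong_eq_one φK hφK Q (S.deg_eq_one _) (S'.deg_eq_one _)]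

/-- **(3)** a place of `FΩ'` is of the form `S'.ext Q` iff its restriction along `φΩ` is of the
form `S.ext P`. -/
theorem PG8g_mem_range_ext_iff (φK : FK →ₐ[K] FK') (φΩ : FΩ →ₐ[Ω] FΩ')
    (hφK : φK.toRingHom.IsIntegral) (hφΩ : φΩ.toRingHom.IsIntegral)
    (hcomm : ∀ x : FK, φΩ (ι x) = ι' (φK x)) (w : Place Ω FΩ') :
    w.restrictAlong φΩ hφΩ ∈ Set.range S.ext ↔ w ∈ Set.range S'.ext := by
  constructor
  · rintro ⟨P, hP⟩
    by_contra hw
    apply P.ne_top'
    refine SetLike.ext fun x => ⟨fun _ => ValuationSubring.mem_top x, fun _ => ?_⟩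
    rw [← S.mem_ext_iff P x, hP, PG8g_mem_restrictAlong, hcomm]
    exact S'.map_mem_of_notMem_range hw (φK x)
  · rintro ⟨Q, rfl⟩
    exact ⟨Q.restrictAlong φK hφK, (PG8g_restrictAlong_ext S S' φK φΩ hφK hφΩ hcomm Q).symm⟩

/-- **(4) base change commutes with pullback.** -/
theorem PG8g_pullbackAlong [HasPrincipalDivisors K FK'] [HasPrincipalDivisors Ω FΩ']
    (φK : FK →ₐ[K] FK') (φΩ : FΩ →ₐ[Ω] FΩ') (hφK : φK.toRingHom.IsIntegral)
    (hφΩ : φΩ.toRingHom.IsIntegral) (hcomm : ∀ x : FK, φΩ (ι x) = ι' (φK x))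
    (D : Divisor K FK) :
    Divisor.pullbackAlong φΩ hφΩ (S.baseChange D) =
      S'.baseChange (Divisor.pullbackAlong φK hφK D) := by
  ext w
  rw [Divisor.pullbackAlong_apply]
  by_cases hw : w ∈ Set.range S'.ext
  · obtain ⟨Q, rfl⟩ := hw
    rw [PG8g_restrictAlong_ext S S' φK φΩ hφK hφΩ hcomm Q, S.baseChange_apply_ext,
      S'.baseChange_apply_ext, Divisor.pullbackAlong_apply,
      PG8g_ramificationIndexAlong_ext S S' φK φΩ hφK hφΩ hcomm Q]
  · have hw' : w.restrictAlong φΩ hφΩ ∉ Set.range S.ext := fun h =>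
      hw ((PG8g_mem_range_ext_iff S S' φK φΩ hφK hφΩ hcomm w).1 h)
    rw [S.baseChange_apply_of_notMem D hw', mul_zero, S'.baseChange_apply_of_notMem _ hw]

/-- **(5) base change commutes with pushforward.** -/
theorem PG8g_pushforwardAlong (φK : FK →ₐ[K] FK') (φΩ : FΩ →ₐ[Ω] FΩ')
    (hφK : φK.toRingHom.IsIntegral) (hφΩ : φΩ.toRingHom.IsIntegral)
    (hcomm : ∀ x : FK, φΩ (ι x) = ι' (φK x)) (D : Divisor K FK') :
    Divisor.pushforwardAlong φΩ hφΩ (S'.baseChange D) =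
      S.baseChange (Divisor.pushforwardAlong φK hφK D) := by
  induction D using Finsupp.induction with
  | zero => simp
  | single_add Q n D _ _ ih =>
    rw [map_add, map_add, map_add, map_add, ih, S'.baseChange_single,
      Divisor.pushforwardAlong_single, Divisor.pushforwardAlong_single, S.baseChange_single,
      PG8g_restrictAlong_ext S S' φK φΩ hφK hφΩ hcomm Q,
      PG8g_inertiaDegAlong_ext S S' φK φΩ hφK hφΩ Q]

include S' in
/-- base change commutes with the correspondence on divisors -/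
theorem PG8g_correspondence [HasPrincipalDivisors K FK'] [HasPrincipalDivisors Ω FΩ']
    (φK ψK : FK →ₐ[K] FK') (φΩ ψΩ : FΩ →ₐ[Ω] FΩ') (hφK : φK.toRingHom.IsIntegral)
    (hψK : ψK.toRingHom.IsIntegral) (hφΩ : φΩ.toRingHom.IsIntegral)
    (hψΩ : ψΩ.toRingHom.IsIntegral)
    (hφ : ∀ x : FK, φΩ (ι x) = ι' (φK x)) (hψ : ∀ x : FK, ψΩ (ι x) = ι' (ψK x))
    (D : Divisor K FK) :
    Divisor.correspondence φΩ ψΩ hφΩ hψΩ (S.baseChange D) =
      S.baseChange (Divisor.correspondence φK ψK hφK hψK D) := by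
  rw [Divisor.correspondence_apply, Divisor.correspondence_apply,
    PG8g_pullbackAlong S S' φK φΩ hφK hφΩ hφ, PG8g_pushforwardAlong S S' ψK ψΩ hψK hψΩ hψ]

include S' in
/-- **(6) base change commutes with the correspondence on `Pic⁰`.** -/
theorem PG8g_pic0_correspondence [HasPrincipalDivisors K FK'] [HasPrincipalDivisors Ω FΩ']
    (φK ψK : FK →ₐ[K] FK') (φΩ ψΩ : FΩ →ₐ[Ω] FΩ') (hφK : φK.toRingHom.IsIntegral)
    (hψK : ψK.toRingHom.IsIntegral) (hφΩ : φΩ.toRingHom.IsIntegral)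
    (hψΩ : ψΩ.toRingHom.IsIntegral)
    (hFIK : FundamentalIdentityAlong K φK hφK) (hfinK : FiniteAlong K ψK)
    (hNK : NormFormulaAlong K ψK hfinK) (hFIΩ : FundamentalIdentityAlong Ω φΩ hφΩ)
    (hfinΩ : FiniteAlong Ω ψΩ) (hNΩ : NormFormulaAlong Ω ψΩ hfinΩ)
    (hφ : ∀ x : FK, φΩ (ι x) = ι' (φK x)) (hψ : ∀ x : FK, ψΩ (ι x) = ι' (ψK x))
    (x : Pic0 K FK) :
    Pic0.correspondence φΩ ψΩ hφΩ hψΩ hFIΩ hfinΩ hNΩ (S.pic0 x) =
      S.pic0 (Pic0.correspondence φK ψK hφK hψK hFIK hfinK hNK x) := by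
  obtain ⟨D, rfl⟩ := Pic0.mk_surjective x
  rw [S.pic0_mk, Pic0.correspondence_mk, Pic0.correspondence_mk, S.pic0_mk]
  congr 1
  apply Subtype.ext
  rw [Pic0.coe_degZeroCorrespondence, PG8e_Setup.coe_baseChangeDegZero,
    PG8e_Setup.coe_baseChangeDegZero, Pic0.coe_degZeroCorrespondence]
  exact PG8g_correspondence S S' φK ψK φΩ ψΩ hφK hψK hφΩ hψΩ hφ hψ D

end Fermat.Agent.G_helper7_G8g
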