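import Mathlib
import Fermat.Prelude.Def_ModularCurve_HeckeModule
import Fermat.Prelude.Thm_ModularCurve_coeffMap_qExpand
import Fermat.Agent.G_helper6_Contracts
import Fermat.Agent.G_helper26_G8MOD
import Fermat.Agent.G_helper7_G8g
import Fermat.Agent.G_helper7_G8d

/-!
# Project G, piece G8-PLUG: the modular specialisation of G8g (Hecke) and G8d (surjectivity)

For an algebraically closed field `L` with `[Algebra ℚ L]` and `S := PG8M_setup L N` (the
constant field extension `F_{ℚ̄} → F_L` of modular function fields):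

* `PG8P_hecke`: `S.pic0` commutes with the Hecke correspondences;
* `PG8P_surj`: if `Pic⁰ (F_L) [p]` is finite, every `p`-torsion class is in the range of
  `S.pic0`;
* `PG8P_desc_of_inj`: the contract `PG_DESC N p b` for `b := S.pic0` over `ℂ`, from the
  injectivity of `b` (G8f) and the finiteness of the torsion (G8b).
-/

set_option autoImplicit false
set_option linter.unusedSectionVars false
set_option linter.style.haveILetI false

noncomputable section

universe u

open AlgebraicCurve IntermediateField ModularCurve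

namespace Fermat.Agent.G_helper7_G8PLUG

open Fermat.Agent.S24 Fermat.Agent.G_helper21_B0L Fermat.Agent.G_helper26_G8e
  Fermat.Agent.G_helper26_G8MOD Fermat.Agent.G_helper7_G8g Fermat.Agent.G_helper7_G8d
  Fermat.Agent.G_helper6_Defs

variable (L : Type u) [Field L] [Algebra ℚ L] [IsAlgClosed L]

/-- The base change map `J₀(N)(ℚ̄) = Pic⁰ (F_{ℚ̄}) → Pic⁰ (F_L)`. -/
def PG8P_b (N : ℕ) [NeZero N] : JZero N →+ Pic0 L (PG_B0L_F L N) :=
  letI := PG8M_algebra L
  (PG8M_setup L N).pic0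

theorem PG8P_b_def (N : ℕ) [NeZero N] :
    PG8P_b L N = (letI := PG8M_algebra L; (PG8M_setup L N).pic0) := rfl

section Hecke

variable (N ℓ : ℕ) [NeZero N] [NeZero ℓ]

theorem PG8P_beta_bc (x : modularFunctionFieldBar N) :
    heckeBetaBar L N ℓ (PG_B0L_bc L N x) = PG_B0L_bc L (N * ℓ) (heckeBetaBar Kbar N ℓ x) := by
  apply Subtype.ext
  rw [coe_heckeBetaBar, PG_B0L_coe_bc, PG_B0L_coe_bc, coe_heckeBetaBar, coeffMap_qExpand]

theorem PG8P_alpha_bc (x : modularFunctionFieldBar N) :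
    heckeAlphaBar L N ℓ (PG_B0L_bc L N x) = PG_B0L_bc L (N * ℓ) (heckeAlphaBar Kbar N ℓ x) := by
  apply Subtype.ext
  rw [coe_heckeAlphaBar, PG_B0L_coe_bc, PG_B0L_coe_bc, coe_heckeAlphaBar]

/-- **Hecke compatibility of the base change on `Pic⁰`.** -/
theorem PG8P_hecke (x : JZero N) :
    PG8P_b L N (heckeOperatorAlong Kbar N ℓ x) = heckeOperatorAlong L N ℓ (PG8P_b L N x) := by
  letI := PG8M_algebra L
  obtain ⟨hαK, hβK, hPK, hfinK, hFIK, hNK⟩ := PG_B0L_heckeInputsAlong Kbar N ℓ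
  obtain ⟨hαL, hβL, hPL, hfinL, hFIL, hNL⟩ := PG_B0L_heckeInputsAlong L N ℓ
  haveI := hPK
  haveI := hPL
  rw [heckeOperatorAlong_eq hαK hβK hFIK hfinK hNK, heckeOperatorAlong_eq hαL hβL hFIL hfinL hNL]
  exact (PG8g_pic0_correspondence (PG8M_setup L N) (PG8M_setup L (N * ℓ))
    (heckeBetaBar Kbar N ℓ) (heckeAlphaBar Kbar N ℓ) (heckeBetaBar L N ℓ) (heckeAlphaBar L N ℓ)
    hβK hαK hβL hαL hFIK hfinK hNK hFIL hfinL hNL (PG8P_beta_bc L N ℓ) (PG8P_alpha_bc L N ℓ)
    x).symm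

/-- the same for the prelude operator `heckeOperatorBar` -/
theorem PG8P_heckeBar (N : ℕ) [NeZero N] (ℓ : Nat.Primes) (x : JZero N) :
    haveI : NeZero (ℓ : ℕ) := ⟨ℓ.2.ne_zero⟩
    PG8P_b L N (heckeOperatorBar N ℓ x) = heckeOperatorAlong L N ℓ (PG8P_b L N x) := by
  haveI : NeZero (ℓ : ℕ) := ⟨ℓ.2.ne_zero⟩
  exact PG8P_hecke L N (ℓ : ℕ) x

end Hecke

section Surj

variable (N : ℕ) [NeZero N]

theorem PG8P_gal_algebraMap
    (σ : @AlgEquiv Kbar L L _ _ _ (PG8M_algebra L) (PG8M_algebra L)) (c : L) :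
    PG8M_gal L N σ • algebraMap L (PG_B0L_F L N) c = algebraMap L (PG_B0L_F L N) (σ c) := by
  rw [SemilinearAut.smul_algebraMap, PG8M_baseAut_gal]

/-- **Surjectivity onto classes with finite orbit.** -/
theorem PG8P_exists_of_finite_orbit (y : Pic0 L (PG_B0L_F L N))
    (hy : (Set.range fun σ : @AlgEquiv Kbar L L _ _ _ (PG8M_algebra L) (PG8M_algebra L) =>
      PG8M_gal L N σ • y).Finite) : ∃ x : JZero N, PG8P_b L N x = y := by
  letI := PG8M_algebra L
  haveI := PG_B0L_charZero L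
  exact PG8d_exists_of_finite_orbit (PG8M_setup L N) (PG8M_gal L N) (PG8P_gal_algebraMap L N)
    (PG8M_gal_smul_bc L N) y hy

/-- **Surjectivity onto the torsion.** -/
theorem PG8P_surj (p : ℕ)
    (hfin : (Pic0.torsion L (PG_B0L_F L N) p : Set (Pic0 L (PG_B0L_F L N))).Finite)
    (y : Pic0 L (PG_B0L_F L N)) (hy : (p : ℤ) • y = 0) : ∃ x : JZero N, PG8P_b L N x = y := by
  letI := PG8M_algebra L
  haveI := PG_B0L_charZero L
  exact PG8d_exists_of_torsion (PG8M_setup L N) (PG8M_gal L N) (PG8P_gal_algebraMap L N)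
    (PG8M_gal_smul_bc L N) p hfin y hy

end Surj

/-- **The descent contract over `ℂ`, modulo injectivity (G8f).** -/
theorem PG8P_desc_of_inj (N p : ℕ) [NeZero N] (hfin : PG_FIN N p)
    (hinj : Function.Injective (PG8P_b ℂ N)) : PG_DESC N p (PG8P_b ℂ N) where
  inj := hinj
  hecke ℓ x _ := PG8P_heckeBar ℂ N ℓ x
  surj y hy := PG8P_surj ℂ N p hfin y hy

end Fermat.Agent.G_helper7_G8PLUG
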