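import Mathlib
import Fermat.Agent.G_helper6_Contracts
import Fermat.Agent.G_helper26_G8MOD2
import Fermat.Agent.G_helper26_G8f
import Fermat.Agent.G_helper7_G8PLUG

/-!
# Project G, piece G8: the descent `Pic⁰ (F_{ℚ̄}) → Pic⁰ (F_ℂ)`

`PG_G8`: the base change map `b : J₀(N)(ℚ̄) → Pic⁰ (F_ℂ)` is injective, Hecke-equivariant and
onto the `p`-torsion (given the finiteness of the `p`-torsion of `Pic⁰ (F_ℂ)`).

* injectivity: `G_helper26_G8f` (Galois descent of functions) + `G_helper26_G8MOD`;
* Hecke equivariance and surjectivity: `G_helper7_G8PLUG` (from `G_helper7_G8g`, `G_helper7_G8d`).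
-/

set_option autoImplicit false
set_option linter.unusedSectionVars false
set_option linter.unusedVariables false
set_option linter.style.haveILetI false

noncomputable section

open UpperHalfPlane ModularForm CongruenceSubgroup AlgebraicCurve
open scoped MatrixGroups ModularForm Manifold TensorProduct
open Fermat.Agent.G_helper6_Defs

namespace Fermat.Agent.G_helper26_G8

open Fermat.Agent.S24 Fermat.Agent.G_helper21_B0L Fermat.Agent.G_helper26_G8e
  Fermat.Agent.G_helper26_G8c Fermat.Agent.G_helper26_G8MOD Fermat.Agent.G_helper26_G8f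
  Fermat.Agent.G_helper7_G8PLUG ModularCurve

section Generic

universe u

variable (L : Type u) [Field L] [Algebra ℚ L] [IsAlgClosed L] (N : ℕ) [NeZero N]

/-- the Galois data of the modular constant field extension `ℚ̄ → L` -/
theorem PG8_galois :
    @PG8f_Galois Kbar L _ _ (PG8M_algebra L) (modularFunctionFieldBar N) (PG_B0L_F L N) _ _ _
      _ _ (PG_B0L_bc L N) (PG8M_gal L N) := by
  letI := PG8M_algebra L
  refine ⟨PG8M_gal_smul_bc L N, fun c hc => ?_, PG8M_descend L N⟩
  exact PG8c_mem_range_of_finite_orbit c hc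

/-- **G8f, modular form.** The base change map `J₀(N)(ℚ̄) → Pic⁰ (F_L)` is injective. -/
theorem PG8_pic0_injective : Function.Injective (PG8M_pic0 L N) := by
  letI := PG8M_algebra L
  exact PG8f_pic0_injective (PG8M_setup L N) (PG8_galois L N)

theorem PG8_b_injective : Function.Injective (PG8P_b L N) := PG8_pic0_injective L N

/-- **G8 for an arbitrary modulus** `m` (no primality needed). -/
theorem PG_G8_gen (N m : ℕ) [NeZero N] (hfin : PG_FIN N m) : PG_DESC N m (PG8P_b ℂ N) :=
  PG8P_desc_of_inj N m hfin (PG8_b_injective ℂ N)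

end Generic

/-- **G8.** The descent map `b : J₀(N)(ℚ̄) → Pic⁰ (F_ℂ)`: injective, Hecke-equivariant and onto
the `p`-torsion. -/
theorem PG_G8 (N p : ℕ) [NeZero N] (hp : p.Prime) [HasPrincipalDivisors ℂ (PG_FC N)]
    (hfin : PG_FIN N p) (hin : ∀ ℓ : ℕ, ℓ.Prime → ¬ ℓ ∣ N → ∀ [NeZero ℓ],
      ModularCurve.HeckeInputsAlong ℂ N ℓ) :
    ∃ b : ModularCurve.JZero N →+ PG_JC N, PG_DESC N p b :=
  ⟨PG8P_b ℂ N, PG_G8_gen N p hfin⟩

end Fermat.Agent.G_helper26_G8
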