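import Mathlib
import Fermat.Agent.G_helper28_G7Defs

/-!
# Project G, piece G7 (Hecke equivariance of `Θ`): the assembly

`PG_G7_of`: `PG_THETAHECKE N ℓ Θ` from the contracts `PG7_FORM`, `PG7_QEXP`, `PG7_NORM`
(+ the compatibility of `PG_chi` with the transfer) and the upstream contracts of the row.
-/

set_option autoImplicit false
set_option linter.style.haveILetI false

open UpperHalfPlane ModularForm CongruenceSubgroup AlgebraicCurve
open scoped MatrixGroups ModularForm Manifold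

noncomputable section

namespace Fermat.Agent.G_helper28_G7ASM

open Fermat.Agent.G_helper6_Defs Fermat.Agent.G_helper28_G7Defs Fermat.Agent.G_helper23_G1bA
open Fermat.Agent.S24_helper16_B Fermat.Agent.S37K1 ModularCurve


/-! ### Generic divisor lemmas -/

section Divisors

variable {K F F' : Type*} [Field K] [Field F] [Field F'] [Algebra K F] [Algebra K F']

/-- `(1/p) div x` as a degree-zero divisor. -/
theorem PG7A_exists_div_root [HasPrincipalDivisors K F] (p : ℕ) (hp : 0 < p) (x : F)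
    (hx : x ≠ 0) (hdiv : ∀ v : Place K F, (p : ℤ) ∣ v.ord x) :
    ∃ D : Divisor.degZero (K := K) (F := F),
      ∀ v : Place K F, (p : ℤ) * (D : Divisor K F) v = v.ord x := by
  obtain ⟨D0, hD0, hdeg⟩ := HasPrincipalDivisors.exists_divisor (K := K) x hx
  have hp0 : (p : ℤ) ≠ 0 := by exact_mod_cast hp.ne'
  let D : Divisor K F := D0.mapRange (fun n => n / (p : ℤ)) (by simp)
  have hD : ∀ v, (p : ℤ) * D v = v.ord x := by
    intro v
    show (p : ℤ) * (D0.mapRange (fun n => n / (p : ℤ)) (by simp)) v = _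
    rw [Finsupp.mapRange_apply, hD0 v]
    exact Int.mul_ediv_cancel' (hdiv v)
  have hpD : (p : ℤ) • D = D0 := by
    ext v
    rw [Finsupp.smul_apply, smul_eq_mul, hD v, hD0 v]
  have hdegD : Divisor.degree D = 0 := by
    have h := congrArg Divisor.degree hpD
    rw [map_zsmul, hdeg, smul_eq_mul] at h
    rcases mul_eq_zero.mp h with h1 | h1
    · exact absurd h1 hp0
    · exact h1
  exact ⟨⟨D, hdegD⟩, hD⟩

/-- The correspondence of the divisor of `x` is the divisor of the norm of `φ x`. -/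
theorem PG7A_correspondence_ord [HasPrincipalDivisors K F'] (φ ψ : F →ₐ[K] F')
    (hφ : φ.toRingHom.IsIntegral) (hψ : ψ.toRingHom.IsIntegral)
    (hfin : FiniteAlong K ψ) (hN : NormFormulaAlong K ψ hfin)
    (x : F) (hx : x ≠ 0) (D0 : Divisor K F) (hD0 : ∀ v : Place K F, D0 v = v.ord x)
    (v : Place K F) :
    Divisor.correspondence φ ψ hφ hψ D0 v =
      v.ord (letI := algebraAlong ψ; Algebra.norm F (φ x)) := by
  have h1 : ∀ w : Place K F', Divisor.pullbackAlong φ hφ D0 w = w.ord (φ x) := by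
    intro w
    letI := algebraAlong φ
    haveI := isScalarTower_along φ
    haveI := isIntegral_along φ hφ
    exact Divisor.pullback_apply_eq_ord hD0 w
  have hφx : φ x ≠ 0 := by
    intro h
    exact hx ((map_eq_zero φ).mp h)
  rw [Divisor.correspondence_apply]
  letI := algebraAlong ψ
  haveI := isScalarTower_along ψ
  haveI := isIntegral_along ψ hψ
  haveI : Module.Finite F F' := hfin
  exact hN (φ x) hφx _ h1 v

end Divisors



/-! ### Characters -/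

theorem PG7A_chi_pow (N p : ℕ) (hp : 0 < p) (c : Additive (Gamma0 N) →+ ℤ) :
    (PG_chi N p c) ^ p = 1 := by
  ext γ
  rw [MonoidHom.pow_apply, Units.val_pow_eq_pow_val, PG_chi_apply, MonoidHom.one_apply,
    Units.val_one, ← Complex.exp_nat_mul]
  have hp0 : (p : ℂ) ≠ 0 := by exact_mod_cast hp.ne'
  have : (p : ℂ) * (2 * Real.pi * Complex.I * (c (Additive.ofMul γ) : ℂ) / (p : ℂ)) =
      (c (Additive.ofMul γ) : ℤ) * (2 * Real.pi * Complex.I) := by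
    field_simp
  rw [this]
  exact Complex.exp_int_mul_two_pi_mul_I _

theorem PG7A_chi_eq_one_of_zero (N p : ℕ) (c : Additive (Gamma0 N) →+ ℤ) (γ : Gamma0 N)
    (h : c (Additive.ofMul γ) = 0) : PG_chi N p c γ = 1 := by
  apply Units.ext
  rw [PG_chi_apply, h]
  simp

theorem PG7A_chi_good (N p : ℕ) (hp : 0 < p) (c : PG_M N) :
    PG_IsGoodChar N (PG_chi N p (c : Additive (Gamma0 N) →+ ℤ)) where
  fin := ⟨p, hp, fun γ => by
    have := PG7A_chi_pow N p hp (c : Additive (Gamma0 N) →+ ℤ)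
    rw [← MonoidHom.pow_apply, this, MonoidHom.one_apply]⟩
  par := fun γ hγ => by
    apply PG7A_chi_eq_one_of_zero
    exact (ModularCurve.Period.mem_parabolicHoms_iff.mp c.2) γ hγ
  tors := fun γ n hn hγ => by
    apply PG7A_chi_eq_one_of_zero
    have h1 : (c : Additive (Gamma0 N) →+ ℤ) (Additive.ofMul (γ ^ n)) =
        n • (c : Additive (Gamma0 N) →+ ℤ) (Additive.ofMul γ) := by
      rw [ofMul_pow, map_nsmul]
    rw [hγ, ofMul_one, map_zero] at h1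
    have h2 : (n : ℤ) * (c : Additive (Gamma0 N) →+ ℤ) (Additive.ofMul γ) = 0 := by
      rw [← nsmul_eq_mul]
      exact h1.symm
    rcases mul_eq_zero.mp h2 with h3 | h3
    · exact absurd h3 (by exact_mod_cast hn.ne')
    · exact h3

theorem PG7A_one_good (N : ℕ) : PG_IsGoodChar N (1 : Gamma0 N →* ℂˣ) where
  fin := ⟨1, one_pos, fun γ => by simp⟩
  par := fun γ _ => rfl
  tors := fun γ n _ _ => rfl

/-! ### Powers of forms -/

theorem PG7A_slash_pow (k : ℤ) (n : ℕ) (a : ℍ → ℂ) (g : GL (Fin 2) ℝ) :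
    (a ^ n) ∣[k * n] g = |g.det.val| ^ ((n : ℤ) - 1) • (a ∣[k] g) ^ n := by
  have h := ModularForm.prod_slash (k := k) (g := g) (f := fun _ : ℕ => a) (s := Finset.range n)
  simpa [Finset.prod_const, Finset.card_range] using h

theorem PG7A_SL_slash_pow (k : ℤ) (n : ℕ) (a : ℍ → ℂ) (σ : SL(2, ℤ)) :
    (a ^ n) ∣[k * n] σ = (a ∣[k] σ) ^ n := by
  rw [ModularForm.SL_slash, PG7A_slash_pow]
  simp [ModularForm.SL_slash]

theorem PG7A_isBounded_pow {f : ℍ → ℂ} (hf : IsBoundedAtImInfty f) (n : ℕ) :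
    IsBoundedAtImInfty (f ^ n) := by
  induction n with
  | zero =>
    rw [pow_zero]
    exact Filter.const_boundedAtFilter _ (1 : ℂ)
  | succ n ih =>
    rw [pow_succ]
    exact ih.mul hf

theorem PG7A_isForm_pow {N : ℕ} {k : ℤ} {χ : Gamma0 N →* ℂˣ} {a : ℍ → ℂ}
    (ha : PG_IsForm N k χ a) (n : ℕ) : PG_IsForm N (k * n) (χ ^ n) (a ^ n) where
  holo := ha.holo.pow n
  aut := fun γ z => by
    rw [Pi.pow_apply, ha.aut γ z, MonoidHom.pow_apply, Units.val_pow_eq_pow_val, Pi.pow_apply,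
      mul_pow, mul_pow, zpow_mul, zpow_natCast]
  bdd := fun σ => by
    rw [PG7A_SL_slash_pow]
    exact PG7A_isBounded_pow (ha.bdd σ) n



/-! ### `q`-expansions of forms -/

/-- `T = !![1, 1; 0, 1]` as an element of `Gamma0 N`. -/
def PG7A_T (N : ℕ) : Gamma0 N :=
  ⟨ModularGroup.T, by rw [Gamma0_mem]; simp [ModularGroup.T]⟩

theorem PG7A_T_trace (N : ℕ) :
    (((PG7A_T N : Gamma0 N) : SL(2, ℤ)) : Matrix (Fin 2) (Fin 2) ℤ).trace ^ 2 = 4 := by
  show ((ModularGroup.T : SL(2, ℤ)) : Matrix (Fin 2) (Fin 2) ℤ).trace ^ 2 = 4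
  simp [ModularGroup.T, Matrix.trace_fin_two]

/-- holomorphic, `1`-periodic and bounded at `i∞` -/
structure PG7A_Nice (f : ℍ → ℂ) : Prop where
  per : Function.Periodic (f ∘ ofComplex) 1
  holo : MDifferentiable 𝓘(ℂ) 𝓘(ℂ) f
  bdd : IsBoundedAtImInfty f

theorem PG7A_nice_of_isForm {N : ℕ} {k : ℤ} {χ : Gamma0 N →* ℂˣ} {a : ℍ → ℂ}
    (ha : PG_IsForm N k χ a) (hχ : χ (PG7A_T N) = 1) : PG7A_Nice a where
  per := by
    have hv : ∀ z : ℍ, a ((1 : ℝ) +ᵥ z) = a z := by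
      intro z
      have h := ha.aut (PG7A_T N) z
      rw [hχ] at h
      have h1 : ((PG7A_T N : Gamma0 N) : SL(2, ℤ)) • z = (1 : ℝ) +ᵥ z :=
        UpperHalfPlane.modular_T_smul z
      have h2 : denom (((PG7A_T N : Gamma0 N) : SL(2, ℤ)) : GL (Fin 2) ℝ) z = 1 := by
        show denom ((ModularGroup.T : SL(2, ℤ)) : GL (Fin 2) ℝ) z = 1
        rw [ModularGroup.denom_apply]
        simp [ModularGroup.T]
      rw [h1, h2] at h
      simpa using h
    intro w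
    by_cases hw : 0 < w.im
    · have hw' : 0 < (w + 1).im := by simpa using hw
      simp only [Function.comp_apply, ofComplex_apply_of_im_pos hw',
        ofComplex_apply_of_im_pos hw]
      have := hv ⟨w, hw⟩
      convert this using 2
      ext
      simp [add_comm]
    · have hw0 : w.im ≤ 0 := not_lt.mp hw
      have hw' : (w + 1).im ≤ 0 := by simpa using hw0
      simp [ofComplex_apply_of_im_nonpos hw', ofComplex_apply_of_im_nonpos hw0]
  holo := ha.holo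
  bdd := by
    have := ha.bdd 1
    rwa [SlashAction.slash_one] at this

theorem PG7A_nice_of_isForm_one {N : ℕ} {k : ℤ} {a : ℍ → ℂ}
    (ha : PG_IsForm N k 1 a) : PG7A_Nice a :=
  PG7A_nice_of_isForm ha rfl

theorem PG7A_Nice.analytic {f : ℍ → ℂ} (hf : PG7A_Nice f) :
    AnalyticAt ℂ (cuspFunction 1 f) 0 :=
  analyticAt_cuspFunction_zero one_pos hf.per hf.holo hf.bdd

theorem PG7A_qLaur_smul {f : ℍ → ℂ} (hf : PG7A_Nice f) (c : ℂ) :
    PG_qLaur (c • f) = HahnSeries.C c * PG_qLaur f := by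
  rw [PG_qLaur, PG_qLaur, qExpansion_smul hf.analytic, ← HahnSeries.ofPowerSeries_C,
    ← map_mul]
  congr 1
  ext n
  simp [PowerSeries.coeff_C_mul]

theorem PG7A_qLaur_ne_zero {f : ℍ → ℂ} (hf : PG7A_Nice f) (h0 : f ≠ 0) : PG_qLaur f ≠ 0 := by
  intro h
  apply h0
  rw [PG_qLaur] at h
  have h1 : qExpansion 1 f = 0 := by
    apply HahnSeries.ofPowerSeries_injective (Γ := ℤ)
    rw [h, map_zero]
  exact (qExpansion_eq_zero_iff one_pos hf.per hf.holo hf.bdd).mp h1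

/-! ### The norm realisation (AN6) -/

theorem PG7A_realizes_norm {N ℓ : ℕ} [NeZero N] [NeZero ℓ] (hq : PG7_QEXP N ℓ)
    (hnorm : PG7_NORM N ℓ) (k : ℤ) (A B : ℍ → ℂ) (hA : PG_IsForm N k 1 A)
    (hB : PG_IsForm N k 1 B) (x : PG_FC N) (hx : PG_Realizes x A B) :
    PG_Realizes (letI := algebraAlong (heckeAlphaBar ℂ N ℓ);
      (Algebra.norm (PG_FC N) (heckeBetaBar ℂ N ℓ x) : PG_FC N))
      (PG7_heckeProd ℓ k A) (PG7_heckeProd ℓ k B) := by
  unfold PG_Realizes at hx ⊢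
  apply qExpand_injective (R := ℂ) ℓ
  rw [map_mul, hnorm x, hq k B hB, hq k A hA, ← hx, map_mul]
  simp only [map_mul, Finset.prod_mul_distrib]
  ring



theorem PG7A_ne_zero_of_tendsto {a : ℍ → ℂ} (h : Filter.Tendsto a atImInfty (nhds 1)) :
    a ≠ 0 := by
  rintro rfl
  have h0 : Filter.Tendsto (0 : ℍ → ℂ) atImInfty (nhds 0) := tendsto_const_nhds
  exact zero_ne_one (tendsto_nhds_unique h0 h)

theorem PG7A_pow_ne_zero {a : ℍ → ℂ} (h : a ≠ 0) (n : ℕ) : a ^ n ≠ 0 := by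
  intro h0
  apply h
  -- `ℍ → ℂ` is not a domain, but holomorphy is not needed: argue pointwise
  funext z
  have h1 : (a z) ^ n = 0 := congrFun h0 z
  exact pow_eq_zero_iff (fun hn => by subst hn; simp at h1) |>.mp h1

theorem PG7A_ne_zero_of_pow_ne_zero {a : ℍ → ℂ} {n : ℕ} (hn : 0 < n) (h : a ^ n ≠ 0) :
    a ≠ 0 := by
  rintro rfl
  exact h (zero_pow hn.ne')

theorem PG7A_heckeProd_pow (ℓ : ℕ) [NeZero ℓ] (k : ℤ) (p : ℕ) (a : ℍ → ℂ) :
    PG7_heckeProd ℓ (k * p) (a ^ p) =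
      ((((ℓ : ℝ) ^ ((p : ℤ) - 1)) ^ (ℓ + 1) : ℝ) : ℂ) • (PG7_heckeProd ℓ k a) ^ p := by
  have hℓ : ℓ ≠ 0 := NeZero.ne ℓ
  have hdet : ∀ i : Option (Fin ℓ), |(PG_G1b_D ℓ i).det.val| = (ℓ : ℝ) := by
    intro i
    rcases i with _ | j
    · show |((heckeDiagMatrix ℓ).det : ℝ)| = _
      rw [det_heckeDiagMatrix hℓ]
      simp
    · show |((heckeMatrix ℓ j).det : ℝ)| = _
      rw [det_heckeMatrix hℓ]
      simp
  unfold PG7_heckeProd
  have h1 : ∀ i : Option (Fin ℓ), (a ^ p) ∣[k * p] PG_G1b_D ℓ i =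
      ((ℓ : ℝ) ^ ((p : ℤ) - 1)) • (a ∣[k] PG_G1b_D ℓ i) ^ p := by
    intro i
    have h := ModularForm.prod_slash (k := k) (g := PG_G1b_D ℓ i) (f := fun _ : ℕ => a)
      (s := Finset.range p)
    simp only [Finset.prod_const, Finset.card_range] at h
    rw [h, hdet i]
  rw [Finset.prod_congr rfl (fun i _ => h1 i)]
  funext z
  simp only [Finset.prod_apply, Pi.smul_apply, Pi.pow_apply, Complex.real_smul,
    Finset.prod_mul_distrib, Finset.prod_const, Finset.card_univ, Fintype.card_option,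
    Fintype.card_fin, Finset.prod_pow, smul_eq_mul]
  push_cast
  ring


/-! ### The trivial character -/

theorem PG7A_chi_zero (N p : ℕ) : PG_chi N p (0 : Additive (Gamma0 N) →+ ℤ) = 1 := by
  ext γ
  rw [PG_chi_apply]
  simp

theorem PG7A_heckeHom_zero (N ℓ : ℕ) [NeZero N] [NeZero ℓ] :
    PG_heckeHom N ℓ (0 : Additive (Gamma0 N) →+ ℤ) = 0 := by
  have h := Fermat.Agent.G_helper3_G1aHECKEHOM.PG_heckeHom_add N ℓ
    (0 : Additive (Gamma0 N) →+ ℤ) 0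
  rw [add_zero] at h
  exact left_eq_add.mp h

theorem PG7A_C_ne_zero {c : ℂ} (hc : c ≠ 0) : (HahnSeries.C c : LaurentSeries ℂ) ≠ 0 :=
  (map_ne_zero (HahnSeries.C : ℂ →+* LaurentSeries ℂ)).mpr hc

theorem PG7A_kappa_ne_zero (ℓ : ℕ) [NeZero ℓ] (k : ℤ) : PG7_kappa ℓ k ≠ 0 := by
  have hℓc : (ℓ : ℂ) ≠ 0 := by exact_mod_cast NeZero.ne ℓ
  exact mul_ne_zero (zpow_ne_zero _ hℓc) (inv_ne_zero (pow_ne_zero _ hℓc))

/-! ### The main theorem -/

set_option maxHeartbeats 800000 in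
theorem PG_G7_of (N p ℓ : ℕ) [NeZero N] [NeZero ℓ] (hp : p.Prime)
    [HasPrincipalDivisors ℂ (PG_FC N)] (hin : ModularCurve.HeckeInputsAlong ℂ N ℓ)
    (hE : PG_EIS N) (h1 : PG_AN1 N) (h3 : PG_AN3 N p)
    (hform : PG7_FORM N ℓ) (hq : PG7_QEXP N ℓ) (hnorm : PG7_NORM N ℓ)
    (hchi : ∀ c : Additive (Gamma0 N) →+ ℤ,
      PG7_transferChar N ℓ (PG_chi N p c) = PG_chi N p (PG_heckeHom N ℓ c))
    (Θ : PG_M N →+ PG_JC N) (hΘ : PG_THETA N p Θ) : PG_THETAHECKE N ℓ Θ := by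
  intro c c' hcc'
  have hp0 : 0 < p := hp.pos
  -- the Eisenstein series
  obtain ⟨a, ha, hat⟩ := hE _ (PG7A_chi_good N p hp0 c)
  obtain ⟨b, hb, hbt⟩ := hE _ (PG7A_one_good N)
  have ha0 : a ≠ 0 := PG7A_ne_zero_of_tendsto hat
  have hb0 : b ≠ 0 := PG7A_ne_zero_of_tendsto hbt
  -- their `p`-th powers
  have hA : PG_IsForm N (4 * p) 1 (a ^ p) := by
    have h := PG7A_isForm_pow ha p
    rwa [PG7A_chi_pow N p hp0] at h
  have hB : PG_IsForm N (4 * p) 1 (b ^ p) := by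
    have h := PG7A_isForm_pow hb p
    rwa [one_pow (M := Gamma0 N →* ℂˣ) p] at h
  have hA0 : a ^ p ≠ 0 := PG7A_pow_ne_zero ha0 p
  have hB0 : b ^ p ≠ 0 := PG7A_pow_ne_zero hb0 p
  obtain ⟨x, hx⟩ := h1 (4 * p) (a ^ p) (b ^ p) hA hB hB0
  have hx0 : x ≠ 0 := by
    rintro rfl
    unfold PG_Realizes at hx
    rw [ZeroMemClass.coe_zero, zero_mul] at hx
    exact PG7A_qLaur_ne_zero (PG7A_nice_of_isForm_one hA) hA0 hx.symm
  have hdiv : ∀ v : Place ℂ (PG_FC N), (p : ℤ) ∣ v.ord x :=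
    h3 4 _ 1 a b x (PG7A_chi_good N p hp0 c) (PG7A_one_good N) ha hb ha0 hb0 hx
  obtain ⟨D, hD⟩ := PG7A_exists_div_root p hp0 x hx0 hdiv
  have hΘc : Θ c = Pic0.mk D :=
    hΘ.char c 4 1 a b x D (PG7A_one_good N)
      (by rw [mul_one (PG_chi N p (c : Additive (Gamma0 N) →+ ℤ))]; exact ha) hb ha0 hb0 hx hD
  -- the Hecke operator
  obtain ⟨hα, hβ, hP, hfin, hFI, hN⟩ := hin
  haveI := hP
  rw [heckeOperatorAlong_eq hα hβ hFI hfin hN, hΘc]
  show Pic0.mk (Pic0.degZeroCorrespondence (heckeBetaBar ℂ N ℓ) (heckeAlphaBar ℂ N ℓ) hβ hα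
    hFI D) = Θ c'
  -- the divisor of the norm
  have hD' : ∀ v : Place ℂ (PG_FC N),
      (p : ℤ) * (Divisor.correspondence (heckeBetaBar ℂ N ℓ) (heckeAlphaBar ℂ N ℓ) hβ hα
        (D : Divisor ℂ (PG_FC N))) v =
      v.ord (letI := algebraAlong (heckeAlphaBar ℂ N ℓ);
        (Algebra.norm (PG_FC N) (heckeBetaBar ℂ N ℓ x) : PG_FC N)) := by
    intro v
    have h := PG7A_correspondence_ord (heckeBetaBar ℂ N ℓ) (heckeAlphaBar ℂ N ℓ) hβ hα hfin hN
      x hx0 ((p : ℤ) • (D : Divisor ℂ (PG_FC N)))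
      (fun w => by rw [Finsupp.smul_apply, smul_eq_mul, hD w]) v
    rw [map_zsmul, Finsupp.smul_apply, smul_eq_mul] at h
    exact h
  -- the Hecke products
  have ha' : PG_IsForm N (4 * ((ℓ : ℤ) + 1))
      (PG_chi N p (c' : Additive (Gamma0 N) →+ ℤ) * 1) (PG7_heckeProd ℓ 4 a) := by
    have h := hform 4 _ a ha
    rw [hchi, ← hcc'] at h
    rw [mul_one (PG_chi N p (c' : Additive (Gamma0 N) →+ ℤ))]
    exact h
  have hb' : PG_IsForm N (4 * ((ℓ : ℤ) + 1)) 1 (PG7_heckeProd ℓ 4 b) := by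
    have h := hform 4 _ b hb
    rwa [← PG7A_chi_zero N p, hchi, PG7A_heckeHom_zero, PG7A_chi_zero] at h
  have hA' : PG_IsForm N (4 * ((ℓ : ℤ) + 1) * p) 1 ((PG7_heckeProd ℓ 4 a) ^ p) := by
    have h := PG7A_isForm_pow ha' p
    rwa [mul_one (PG_chi N p (c' : Additive (Gamma0 N) →+ ℤ)), PG7A_chi_pow N p hp0] at h
  have hB' : PG_IsForm N (4 * ((ℓ : ℤ) + 1) * p) 1 ((PG7_heckeProd ℓ 4 b) ^ p) := by
    have h := PG7A_isForm_pow hb' p
    rwa [one_pow (M := Gamma0 N →* ℂˣ) p] at h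
  -- the constant
  set c₀ : ℂ := ((((ℓ : ℝ) ^ ((p : ℤ) - 1)) ^ (ℓ + 1) : ℝ) : ℂ) with hc₀
  have hℓ0 : (ℓ : ℝ) ≠ 0 := by exact_mod_cast NeZero.ne ℓ
  have hc₀0 : c₀ ≠ 0 := by
    rw [hc₀]
    exact_mod_cast pow_ne_zero _ (zpow_ne_zero _ hℓ0)
  -- the realisation of the norm
  have hreal := PG7A_realizes_norm hq hnorm (4 * p) (a ^ p) (b ^ p) hA hB x hx
  rw [PG7A_heckeProd_pow, PG7A_heckeProd_pow] at hreal
  unfold PG_Realizes at hreal
  rw [PG7A_qLaur_smul (PG7A_nice_of_isForm_one hA'),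
    PG7A_qLaur_smul (PG7A_nice_of_isForm_one hB')] at hreal
  have hC : (HahnSeries.C c₀ : LaurentSeries ℂ) ≠ 0 := PG7A_C_ne_zero hc₀0
  have hreal' : PG_Realizes (letI := algebraAlong (heckeAlphaBar ℂ N ℓ);
      (Algebra.norm (PG_FC N) (heckeBetaBar ℂ N ℓ x) : PG_FC N))
      ((PG7_heckeProd ℓ 4 a) ^ p) ((PG7_heckeProd ℓ 4 b) ^ p) := by
    unfold PG_Realizes
    apply mul_left_cancel₀ hC
    rw [← hreal]
    ring
  -- nonvanishing
  have hA'0 : (PG7_heckeProd ℓ 4 a) ^ p ≠ 0 := by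
    intro h0
    have h2 := hq (4 * p) (a ^ p) hA
    rw [PG7A_heckeProd_pow, h0, smul_zero] at h2
    have h3 : PG_qLaur (0 : ℍ → ℂ) = 0 := by
      rw [PG_qLaur, qExpansion_zero, map_zero]
    rw [h3, map_zero] at h2
    have hqA : PG_qLaur (a ^ p) ≠ 0 := PG7A_qLaur_ne_zero (PG7A_nice_of_isForm_one hA) hA0
    have hκ : (HahnSeries.C (PG7_kappa ℓ (4 * p)) : LaurentSeries ℂ) ≠ 0 :=
      PG7A_C_ne_zero (PG7A_kappa_ne_zero ℓ _)
    have h5 : qExpand ℂ (ℓ * ℓ) (PG_qLaur (a ^ p)) ≠ 0 := fun h =>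
      hqA ((map_eq_zero_iff _ (qExpand_injective (R := ℂ) (ℓ * ℓ))).mp h)
    have h6 : ∏ b ∈ Finset.range ℓ, lsScale (S37K1_zeta ℓ ^ b) (PG_qLaur (a ^ p)) ≠ 0 := by
      rw [Finset.prod_ne_zero_iff]
      intro i _ h
      exact hqA ((map_eq_zero_iff _ (lsScale (S37K1_zeta ℓ ^ i)).injective).mp h)
    exact mul_ne_zero hκ (mul_ne_zero h5 h6) h2.symm
  have hB'0 : (PG7_heckeProd ℓ 4 b) ^ p ≠ 0 := by
    intro h0
    have h2 := hq (4 * p) (b ^ p) hB
    rw [PG7A_heckeProd_pow, h0, smul_zero] at h2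
    have h3 : PG_qLaur (0 : ℍ → ℂ) = 0 := by
      rw [PG_qLaur, qExpansion_zero, map_zero]
    rw [h3, map_zero] at h2
    have hqB : PG_qLaur (b ^ p) ≠ 0 := PG7A_qLaur_ne_zero (PG7A_nice_of_isForm_one hB) hB0
    have hκ : (HahnSeries.C (PG7_kappa ℓ (4 * p)) : LaurentSeries ℂ) ≠ 0 :=
      PG7A_C_ne_zero (PG7A_kappa_ne_zero ℓ _)
    have h5 : qExpand ℂ (ℓ * ℓ) (PG_qLaur (b ^ p)) ≠ 0 := fun h =>
      hqB ((map_eq_zero_iff _ (qExpand_injective (R := ℂ) (ℓ * ℓ))).mp h)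
    have h6 : ∏ i ∈ Finset.range ℓ, lsScale (S37K1_zeta ℓ ^ i) (PG_qLaur (b ^ p)) ≠ 0 := by
      rw [Finset.prod_ne_zero_iff]
      intro i _ h
      exact hqB ((map_eq_zero_iff _ (lsScale (S37K1_zeta ℓ ^ i)).injective).mp h)
    exact mul_ne_zero hκ (mul_ne_zero h5 h6) h2.symm
  have ha'0 : PG7_heckeProd ℓ 4 a ≠ 0 := PG7A_ne_zero_of_pow_ne_zero hp0 hA'0
  have hb'0 : PG7_heckeProd ℓ 4 b ≠ 0 := PG7A_ne_zero_of_pow_ne_zero hp0 hB'0
  exact (hΘ.char c' (4 * ((ℓ : ℤ) + 1)) 1 (PG7_heckeProd ℓ 4 a) (PG7_heckeProd ℓ 4 b) _ _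
    (PG7A_one_good N) ha' hb' ha'0 hb'0 hreal' (fun v => hD' v)).symm

end Fermat.Agent.G_helper28_G7ASM
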