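import Mathlib
import Fermat.Agent.S24_helper17_EMB
import Fermat.Agent.G_helper21_B0L

/-!
# Project G, piece G7-K1C (part a): the Laurent embeddings of the function field over `ℂ`

The S24 constructions `PSI`, `EMB`, `MASTER_inf` restated for the function field
`F_ℂ(N) = laurentBaseChange ℂ (modularFunctionFieldFull N)` (coefficients in `ℂ`, no embedding
`ℚ̄ → ℂ`): for every `γ ∈ SL(2, ℤ)` a ring homomorphism `F_ℂ(N) → ℂ((s))`, the identity on
constants, sending `j(q^d)` to the expansion at `i∞` (in the variable `s = q^{1/N}`) of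
`z ↦ j(d γ z)`.
-/

set_option autoImplicit false
set_option linter.unusedSectionVars false
set_option linter.unusedVariables false

noncomputable section

open UpperHalfPlane ModularForm CongruenceSubgroup AlgebraicCurve IntermediateField
open scoped MatrixGroups ModularForm Manifold
open Fermat.Agent.S20 Fermat.Agent.S24 ModularCurve
open Fermat.Agent.S24_helper29_PSIcore Fermat.Agent.S24_helper17_EMB
  Fermat.Agent.S24_helper24_JD Fermat.Agent.S24_helper21_LINF Fermat.Agent.G_helper21_B0L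

namespace Fermat.Agent.G_helper8_K1C

/-- `j(q^d)` over `ℂ` -/
theorem PGK1C_jLaur_eq (d : ℕ) [NeZero d] : PG_B0L_jLaur ℂ d = qExpand ℂ d (jqModC ℂ) := by
  rw [PG_B0L_jLaur, coeffEmb, coeffMap_qExpand]
  congr 1
  rw [← jqModC_rat]
  exact map_jqModC (algebraMap ℚ ℂ)

theorem PGK1C_laurentInf_jd_one (d : ℕ) [NeZero d] :
    laurentInf 1 (jd d 1) = PG_B0L_jLaur ℂ d := by
  rw [laurentInf_jd_one, coeffMap_phi0_jLaur, PGK1C_jLaur_eq]

theorem PGK1C_algebraMap_eq_C (a : ℂ) :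
    algebraMap ℂ (LaurentSeries ℂ) a = HahnSeries.C a := by
  rw [ModularCurve.algebraMap_laurentSeries_eq_single]
  rfl

/-- `PSI` over `ℂ`: the ring of polynomials in the `j(q^d)` with complex coefficients embeds
into the ring of functions on `ℍ`. -/
theorem PGK1C_PSI (N : ℕ) [NeZero N] :
    ∃ ψ : (Algebra.adjoin ℂ (PG_B0L_gens ℂ N)) →+* (ℍ → ℂ),
      Function.Injective ψ ∧ (∀ a : ℂ, ψ (algebraMap ℂ _ a) = fun _ => a) ∧
      (∀ (d : ℕ) [NeZero d] (hd : d ∣ N),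
        ψ ⟨PG_B0L_jLaur ℂ d, Algebra.subset_adjoin ⟨d, inferInstance, hd, rfl⟩⟩ = jd d 1) ∧
      (∀ x, ψ x ∈ Subring.closure
        (Set.range (fun c : ℂ => (fun _ : ℍ => c)) ∪ {f | ∃ d : ℕ, d ∣ N ∧ f = jd d 1})) := by
  classical
  set A₁ : Subring (ℍ → ℂ) := Subring.closure (psiGens N) with hA₁
  have hpole : ∀ g : ℍ → ℂ, g ∈ A₁ → ∃ M : ℕ, HasPoleInf 1 M g := fun g hg =>
    psi_pole_of_mem N (fun d _ _ => laurentInf_jd_one) hg
  have hle : A₁ ≤ poleSubring 1 := fun g hg => hpole g hg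
  have hconst_mem : ∀ c : ℂ, (fun _ : ℍ => c) ∈ A₁ := fun c =>
    Subring.subset_closure (Or.inl ⟨c, rfl⟩)
  have hjd_mem : ∀ d : ℕ, d ∣ N → jd d 1 ∈ A₁ := fun d hd =>
    Subring.subset_closure (Or.inr ⟨d, hd, rfl⟩)
  let E : A₁ →+* LaurentSeries ℂ := (laurentInfHom 1).comp (Subring.inclusion hle)
  have hE_apply : ∀ g : A₁, E g = laurentInf 1 (g : ℍ → ℂ) := fun _ => rfl
  have hE : Function.Injective E :=
    (laurentInfHom_injective 1).comp (Subring.inclusion_injective hle)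
  set RC := Algebra.adjoin ℂ (PG_B0L_gens ℂ N) with hRC
  let c : RC →+* LaurentSeries ℂ := RC.val.toRingHom
  have hc_apply : ∀ x : RC, c x = (x : LaurentSeries ℂ) := fun _ => rfl
  have hrange : ∀ x : RC, ∃ a, E a = c x := by
    rintro ⟨x, hx⟩
    rw [hc_apply]
    show ∃ a, E a = x
    induction hx using Algebra.adjoin_induction with
    | mem y hy =>
        obtain ⟨d, hd0, hd, rfl⟩ := hy
        exact ⟨⟨jd d 1, hjd_mem d hd⟩, by rw [hE_apply]; exact PGK1C_laurentInf_jd_one d⟩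
    | algebraMap r =>
        refine ⟨⟨fun _ => r, hconst_mem _⟩, ?_⟩
        rw [hE_apply, PGK1C_algebraMap_eq_C]
        exact laurentInf_const 1 r
    | add y z _ _ hy hz =>
        obtain ⟨a, ha⟩ := hy
        obtain ⟨b, hb⟩ := hz
        exact ⟨a + b, by rw [map_add, ha, hb]⟩
    | mul y z _ _ hy hz =>
        obtain ⟨a, ha⟩ := hy
        obtain ⟨b, hb⟩ := hz
        exact ⟨a * b, by rw [map_mul, ha, hb]⟩
  obtain ⟨ψ', hψ'⟩ := psi_exists_lift E hE c hrange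
  refine ⟨A₁.subtype.comp ψ', ?_, ?_, ?_, ?_⟩
  · intro x y hxy
    have h1 : ψ' x = ψ' y := Subtype.ext hxy
    have h2 : c x = c y := by rw [← hψ', ← hψ', h1]
    rw [hc_apply, hc_apply] at h2
    exact Subtype.ext h2
  · intro a
    have h1 : ψ' (algebraMap ℂ RC a) = ⟨fun _ => a, hconst_mem _⟩ := by
      apply hE
      rw [hψ', hc_apply, hE_apply]
      show algebraMap ℂ (LaurentSeries ℂ) a = _
      rw [PGK1C_algebraMap_eq_C]
      exact (laurentInf_const 1 a).symm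
    show ((ψ' (algebraMap ℂ RC a) : A₁) : ℍ → ℂ) = _
    rw [h1]
  · intro d _ hd
    have h1 : ψ' ⟨PG_B0L_jLaur ℂ d, Algebra.subset_adjoin ⟨d, inferInstance, hd, rfl⟩⟩ =
        ⟨jd d 1, hjd_mem d hd⟩ := by
      apply hE
      rw [hψ', hc_apply, hE_apply]
      exact (PGK1C_laurentInf_jd_one d).symm
    show ((ψ' ⟨PG_B0L_jLaur ℂ d, _⟩ : A₁) : ℍ → ℂ) = _
    rw [h1]
  · intro x
    exact (ψ' x).2

open scoped IntermediateField.algebraAdjoinAdjoin in
/-- `EMB` over `ℂ`. -/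
theorem PGK1C_EMB (N : ℕ) [NeZero N] (γ : SL(2, ℤ)) {Ω : Type*} [Field Ω]
    (A : Subring (ℍ → ℂ)) (hAc : ∀ c : ℂ, (fun _ => c) ∈ A)
    (hAj : ∀ d : ℕ, d ∣ N → jd d γ ∈ A)
    (E : A →+* Ω) (hE : Function.Injective E) :
    ∃ ι : PG_B0L_F ℂ N →+* Ω,
      (∀ a : ℂ, ι (algebraMap ℂ _ a) = E ⟨fun _ => a, hAc _⟩) ∧
      ∀ (d : ℕ) [NeZero d] (hd : d ∣ N), ι (PG_B0L_jF ℂ N d hd) = E ⟨jd d γ, hAj d hd⟩ := by
  classical
  obtain ⟨ψ, hψinj, hψc, hψj, hψmem⟩ := PGK1C_PSI N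
  have hle : Subring.closure
      (Set.range (fun c : ℂ => (fun _ : ℍ => c)) ∪ {f | ∃ d : ℕ, d ∣ N ∧ f = jd d 1})
      ≤ A.comap (precomp γ) := by
    rw [Subring.closure_le]
    rintro f (⟨c, rfl⟩ | ⟨d, hd, rfl⟩)
    · exact hAc c
    · show precomp γ (jd d 1) ∈ A
      rw [precomp_jd]
      exact hAj d hd
  have hmem : ∀ x, ((precomp γ).comp ψ) x ∈ A := fun x => hle (hψmem x)
  set θ : Algebra.adjoin ℂ (PG_B0L_gens ℂ N) →+* Ω :=
    E.comp (((precomp γ).comp ψ).codRestrict A hmem) with hθ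
  have hθinj : Function.Injective θ := by
    intro x y hxy
    have h1 := hE hxy
    have h2 : (precomp γ) (ψ x) = (precomp γ) (ψ y) := congrArg Subtype.val h1
    exact hψinj (precomp_injective γ h2)
  let ι₀ : IntermediateField.adjoin ℂ (PG_B0L_gens ℂ N) →+* Ω := IsFractionRing.lift hθinj
  have hι₀ : ∀ x : Algebra.adjoin ℂ (PG_B0L_gens ℂ N),
      ι₀ (algebraMap (Algebra.adjoin ℂ (PG_B0L_gens ℂ N))
        (IntermediateField.adjoin ℂ (PG_B0L_gens ℂ N)) x) = θ x :=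
    fun x => IsFractionRing.lift_algebraMap hθinj x
  let e : PG_B0L_F ℂ N ≃ₐ[ℂ] IntermediateField.adjoin ℂ (PG_B0L_gens ℂ N) :=
    IntermediateField.equivOfEq (PG_B0L_gen ℂ N)
  refine ⟨ι₀.comp (e : PG_B0L_F ℂ N →+* _), ?_, ?_⟩
  · intro a
    have h1 : (e : PG_B0L_F ℂ N →+* _) (algebraMap ℂ _ a)
        = algebraMap (Algebra.adjoin ℂ (PG_B0L_gens ℂ N))
            (IntermediateField.adjoin ℂ (PG_B0L_gens ℂ N))
            (algebraMap ℂ (Algebra.adjoin ℂ (PG_B0L_gens ℂ N)) a) := by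
      apply Subtype.ext
      rfl
    rw [RingHom.comp_apply, h1, hι₀, hθ, RingHom.comp_apply]
    congr 1
    apply Subtype.ext
    show precomp γ (ψ (algebraMap ℂ _ a)) = fun _ => a
    rw [hψc]
    rfl
  · intro d _ hd
    have h1 : (e : PG_B0L_F ℂ N →+* _) (PG_B0L_jF ℂ N d hd)
        = algebraMap (Algebra.adjoin ℂ (PG_B0L_gens ℂ N))
            (IntermediateField.adjoin ℂ (PG_B0L_gens ℂ N))
            ⟨PG_B0L_jLaur ℂ d, Algebra.subset_adjoin ⟨d, inferInstance, hd, rfl⟩⟩ := by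
      apply Subtype.ext
      rfl
    rw [RingHom.comp_apply, h1, hι₀, hθ, RingHom.comp_apply]
    congr 1
    apply Subtype.ext
    show precomp γ (ψ ⟨PG_B0L_jLaur ℂ d, Algebra.subset_adjoin ⟨d, inferInstance, hd, rfl⟩⟩)
      = jd d γ
    rw [hψj d hd, precomp_jd]

/-- `MASTER_inf` over `ℂ`: the embedding of `F_ℂ(N)` attached to `γ` and the cusp `i∞`. -/
theorem PGK1C_MASTER_inf (N : ℕ) [NeZero N] (γ : SL(2, ℤ)) :
    ∃ ι : PG_B0L_F ℂ N →+* LaurentSeries ℂ,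
      (∀ a : ℂ, ι (algebraMap ℂ _ a) = HahnSeries.C a) ∧
      ∀ (d : ℕ) [NeZero d] (hd : d ∣ N), ι (PG_B0L_jF ℂ N d hd) = laurentInf N (jd d γ) := by
  have hAj : ∀ d : ℕ, d ∣ N → jd d γ ∈ poleSubring N := fun d hd =>
    ⟨N * N, hasPoleInf_jd N hd γ⟩
  obtain ⟨ι, h1, h2⟩ := PGK1C_EMB N γ (poleSubring N) (fun c => ⟨0, Fermat.Agent.S24_helper17_EMB.hasPoleInf_const N c⟩) hAj
    (laurentInfHom N) (laurentInfHom_injective N)
  refine ⟨ι, fun a => ?_, fun d _ hd => ?_⟩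
  · rw [h1, laurentInfHom_apply]
    exact laurentInf_const N a
  · rw [h2 d hd, laurentInfHom_apply]

/-- Ring homs out of `F_ℂ(N)` agreeing on constants and on the generators are equal. -/
theorem PGK1C_ringHom_ext (N : ℕ) [NeZero N] {Ω : Type*} [Field Ω]
    (f g : PG_B0L_F ℂ N →+* Ω)
    (hK : ∀ a : ℂ, f (algebraMap ℂ _ a) = g (algebraMap ℂ _ a))
    (hj : ∀ (d : ℕ) [NeZero d] (hd : d ∣ N), f (PG_B0L_jF ℂ N d hd) = g (PG_B0L_jF ℂ N d hd)) :
    f = g := by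
  have key : ∀ x : LaurentSeries ℂ,
      x ∈ IntermediateField.adjoin ℂ (PG_B0L_gens ℂ N) →
      ∀ hx' : x ∈ PG_B0L_F ℂ N, f ⟨x, hx'⟩ = g ⟨x, hx'⟩ := by
    intro x hx
    induction hx using IntermediateField.adjoin_induction with
    | mem y hy =>
      intro hy'
      obtain ⟨d, hd0, hd, rfl⟩ := hy
      exact hj d hd
    | algebraMap a =>
      intro ha'
      exact hK a
    | add x y hx hy h1 h2 =>
      intro hxy
      have hx' : x ∈ PG_B0L_F ℂ N := by rw [PG_B0L_gen]; exact hx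
      have hy' : y ∈ PG_B0L_F ℂ N := by rw [PG_B0L_gen]; exact hy
      have e : (⟨x + y, hxy⟩ : PG_B0L_F ℂ N) = ⟨x, hx'⟩ + ⟨y, hy'⟩ := rfl
      rw [e, map_add, map_add, h1 hx', h2 hy']
    | inv x hx h =>
      intro hxi
      have hx' : x ∈ PG_B0L_F ℂ N := by rw [PG_B0L_gen]; exact hx
      have e : (⟨x⁻¹, hxi⟩ : PG_B0L_F ℂ N) = (⟨x, hx'⟩ : PG_B0L_F ℂ N)⁻¹ := rfl
      rw [e, map_inv₀, map_inv₀, h hx']
    | mul x y hx hy h1 h2 =>
      intro hxy
      have hx' : x ∈ PG_B0L_F ℂ N := by rw [PG_B0L_gen]; exact hx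
      have hy' : y ∈ PG_B0L_F ℂ N := by rw [PG_B0L_gen]; exact hy
      have e : (⟨x * y, hxy⟩ : PG_B0L_F ℂ N) = ⟨x, hx'⟩ * ⟨y, hy'⟩ := rfl
      rw [e, map_mul, map_mul, h1 hx', h2 hy']
  ext ⟨x, hx⟩
  exact key x (by rw [← PG_B0L_gen]; exact hx) hx

end Fermat.Agent.G_helper8_K1C
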