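import Mathlib
import Fermat.Agent.S37_helper8_K1b
import Fermat.Agent.S24_helper17_EMB
import Fermat.Agent.S24_helper23_GEN
import Fermat.Agent.S24_helper23_DEG
import Fermat.Agent.S20_helper29_A1
import Fermat.Agent.S37_helper21_B0c

/-!
# S37 preparation (helper8), piece K1c: the `ℓ + 1` embeddings of `F_{Nℓ}` over `F_N`
-/

set_option autoImplicit false
set_option linter.unusedSectionVars false
set_option linter.unusedVariables false
set_option linter.style.haveILetI false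

open UpperHalfPlane ModularForm CongruenceSubgroup Matrix.SpecialLinearGroup
open scoped MatrixGroups ModularForm Manifold Real
open Fermat.Agent.S20 Fermat.Agent.S24 Fermat.Agent.S28_helper14_ADefs
open Fermat.Agent.S24_helper16_B Fermat.Agent.S24_helper24_JD Fermat.Agent.S28_SUBST
open ModularCurve

namespace Fermat.Agent.S37K1

noncomputable section

/-- expansion at `i∞` (level `M`) of `z ↦ j(δ z)`, `δ ∣ M` -/
theorem S37K1_laurentInf_jd_one (M δ : ℕ) [NeZero M] [NeZero δ] (hδ : δ ∣ M) :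
    laurentInf M (jd δ 1) = qExpand ℂ M (qExpand ℂ δ (jqModC ℂ)) := by
  have hδ0 : 0 < δ := Nat.pos_of_ne_zero (NeZero.ne δ)
  have hdiff : MDifferentiable 𝓘(ℂ) 𝓘(ℂ) (tri δ 1 ((δ : ℤ) * 0) jfun) := by
    rw [mul_zero, ← jd_one_eq_tri]
    exact Fermat.Agent.S24_helper27_J1.jd_mdiff δ hδ0 1
  have h := S37K1_laurentInf_tri M 1 δ hδ 0 hdiff
  rw [mul_zero, ← jd_one_eq_tri, zpow_zero] at h
  simp only [mul_one] at h
  rw [h]
  congr 1
  ext n
  rw [coeff_lsScale, one_zpow, Units.val_one, one_mul]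

/-- the ring hom `x(q) ↦ x^{φ₀}(s^M)` -/
def S37K1_Theta (M : ℕ) [NeZero M] : LaurentSeries Kbar →+* LaurentSeries ℂ :=
  (qExpand ℂ M).comp (coeffMap phi0)

theorem S37K1_Theta_apply (M : ℕ) [NeZero M] (x : LaurentSeries Kbar) :
    S37K1_Theta M x = qExpand ℂ M (coeffMap phi0 x) := rfl

theorem S37K1_Theta_injective (M : ℕ) [NeZero M] : Function.Injective (S37K1_Theta M) := by
  intro x y h
  have h1 := qExpand_injective (R := ℂ) M h
  ext n
  have h2 := congrArg (fun z => z.coeff n) h1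
  simp only [coeffMap_coeff] at h2
  exact phi0.injective h2

theorem S37K1_Theta_algebraMap (M : ℕ) [NeZero M] (a : Kbar) :
    S37K1_Theta M (algebraMap Kbar (LaurentSeries Kbar) a) = HahnSeries.C (phi0 a) := by
  rw [S37K1_Theta_apply, ModularCurve.algebraMap_laurentSeries_eq_single]
  show qExpand ℂ M (coeffMap phi0 (HahnSeries.single 0 a)) = HahnSeries.single 0 (phi0 a)
  rw [coeffMap_single, qExpand_single, mul_zero]

/-- the embedding attached to `γ` at level `M` -/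
def S37K1_emb (M : ℕ) [NeZero M] (γ : SL(2, ℤ)) :
    modularFunctionFieldBar M →+* LaurentSeries ℂ :=
  (Fermat.Agent.S24_helper17_EMB.MASTER_inf M γ).choose

theorem S37K1_emb_const (M : ℕ) [NeZero M] (γ : SL(2, ℤ)) (a : Kbar) :
    S37K1_emb M γ (algebraMap Kbar _ a) = HahnSeries.C (phi0 a) :=
  (Fermat.Agent.S24_helper17_EMB.MASTER_inf M γ).choose_spec.1 a

theorem S37K1_emb_jF (M : ℕ) [NeZero M] (γ : SL(2, ℤ)) (d : ℕ) [NeZero d] (hd : d ∣ M) :
    S37K1_emb M γ (jF M d hd) = laurentInf M (jd d γ) :=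
  (Fermat.Agent.S24_helper17_EMB.MASTER_inf M γ).choose_spec.2 d hd

theorem S37K1_emb_injective (M : ℕ) [NeZero M] (γ : SL(2, ℤ)) :
    Function.Injective (S37K1_emb M γ) :=
  (S37K1_emb M γ).injective

variable (N ℓ : ℕ) [NeZero N] [NeZero ℓ]

/-- Claim B_∞: the embedding attached to `1` is `Θ`. -/
theorem S37K1_emb_one (M : ℕ) [NeZero M] (x : modularFunctionFieldBar M) :
    S37K1_emb M 1 x = S37K1_Theta M (x : LaurentSeries Kbar) := by
  have h := Fermat.Agent.S24_helper23_GEN.ringHom_ext_FN M (S37K1_emb M 1)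
    ((S37K1_Theta M).comp (modularFunctionFieldBar M).val.toRingHom)
    (fun a => by
      rw [S37K1_emb_const]
      show _ = S37K1_Theta M (algebraMap Kbar (LaurentSeries Kbar) a)
      rw [S37K1_Theta_algebraMap])
    (fun d _ hd => by
      rw [S37K1_emb_jF, S37K1_laurentInf_jd_one M d hd]
      show _ = S37K1_Theta M (jLaur d)
      rw [S37K1_Theta_apply, coeffMap_phi0_jLaur])
  exact congrArg (fun f => f x) h

/-- Claim A: on `F_N`, every embedding attached to `γ ∈ Γ₀(N)` is `Θ`. -/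
theorem S37K1_emb_alpha (γ : SL(2, ℤ)) (hγ : ∀ d : ℕ, d ∣ N → jd d γ = jd d 1)
    (x : modularFunctionFieldBar N) :
    S37K1_emb (N * ℓ) γ (heckeAlphaBar Kbar N ℓ x) = S37K1_Theta (N * ℓ) (x : LaurentSeries Kbar) := by
  have h := Fermat.Agent.S24_helper23_GEN.ringHom_ext_FN N
    ((S37K1_emb (N * ℓ) γ).comp (heckeAlphaBar Kbar N ℓ).toRingHom)
    ((S37K1_Theta (N * ℓ)).comp (modularFunctionFieldBar N).val.toRingHom)
    (fun a => by
      show S37K1_emb (N * ℓ) γ (heckeAlphaBar Kbar N ℓ (algebraMap Kbar _ a)) =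
        S37K1_Theta (N * ℓ) (algebraMap Kbar (LaurentSeries Kbar) a)
      rw [AlgHom.commutes, S37K1_emb_const, S37K1_Theta_algebraMap])
    (fun d _ hd => by
      show S37K1_emb (N * ℓ) γ (heckeAlphaBar Kbar N ℓ (jF N d hd)) =
        S37K1_Theta (N * ℓ) (jLaur d)
      have h1 : heckeAlphaBar Kbar N ℓ (jF N d hd) = jF (N * ℓ) d (hd.trans (dvd_mul_right N ℓ)) :=
        Subtype.ext rfl
      rw [h1, S37K1_emb_jF, hγ d hd, S37K1_laurentInf_jd_one (N * ℓ) d (hd.trans (dvd_mul_right N ℓ)),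
        S37K1_Theta_apply, coeffMap_phi0_jLaur])
  exact congrArg (fun f => f x) h

theorem S37K1_qExpand_jLaur (d : ℕ) [NeZero d] :
    qExpand Kbar ℓ (jLaur d) = jLaur (d * ℓ) := by
  rw [jLaur, jLaur, coeffEmb, ← coeffMap_qExpand, qExpand_qExpand]
  congr 1
  exact qExpand_congr (mul_comm ℓ d) _

theorem S37K1_beta_jF (d : ℕ) [NeZero d] (hd : d ∣ N) :
    heckeBetaBar Kbar N ℓ (jF N d hd) = jF (N * ℓ) (d * ℓ) (Nat.mul_dvd_mul hd dvd_rfl) :=
  Subtype.ext (S37K1_qExpand_jLaur ℓ d)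

/-- the substitution `f(q) ↦ f^{φ₀}(ζ^b s^N)` -/
def S37K1_Sub (b : ℤ) : LaurentSeries Kbar →+* LaurentSeries ℂ :=
  (qExpand ℂ N).comp ((lsScale (S37K1_zeta ℓ ^ b)).toRingHom.comp (coeffMap phi0))

theorem S37K1_Sub_apply (b : ℤ) (f : LaurentSeries Kbar) :
    S37K1_Sub N ℓ b f = qExpand ℂ N (lsScale (S37K1_zeta ℓ ^ b) (coeffMap phi0 f)) := rfl

/-- Claim B_b: the embedding attached to `γ_b` composed with `β` is the substitution
`f(q) ↦ f(ζ^b s^N)`. -/
theorem S37K1_emb_beta (x y : ℤ) (hxy : (ℓ : ℤ) * x - N * y = 1) (b : ℤ)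
    (f : modularFunctionFieldBar N) :
    S37K1_emb (N * ℓ) (S37K1_gam N ℓ x y hxy b) (heckeBetaBar Kbar N ℓ f) =
      S37K1_Sub N ℓ b (f : LaurentSeries Kbar) := by
  have hℓ : 0 < ℓ := Nat.pos_of_ne_zero (NeZero.ne ℓ)
  have h := Fermat.Agent.S24_helper23_GEN.ringHom_ext_FN N
    ((S37K1_emb (N * ℓ) (S37K1_gam N ℓ x y hxy b)).comp (heckeBetaBar Kbar N ℓ).toRingHom)
    ((S37K1_Sub N ℓ b).comp (modularFunctionFieldBar N).val.toRingHom)
    (fun a => by
      show S37K1_emb (N * ℓ) _ (heckeBetaBar Kbar N ℓ (algebraMap Kbar _ a)) =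
        S37K1_Sub N ℓ b (algebraMap Kbar (LaurentSeries Kbar) a)
      rw [AlgHom.commutes, S37K1_emb_const, S37K1_Sub_apply,
        ModularCurve.algebraMap_laurentSeries_eq_single, coeffMap_single]
      show _ = qExpand ℂ N (lsScale (S37K1_zeta ℓ ^ b) (HahnSeries.C (phi0 a)))
      rw [lsScale_C, qExpand_C])
    (fun d _ hd => by
      show S37K1_emb (N * ℓ) _ (heckeBetaBar Kbar N ℓ (jF N d hd)) =
        S37K1_Sub N ℓ b (jLaur d)
      have hd0 : 0 < d := Nat.pos_of_ne_zero (NeZero.ne d)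
      have hjd := S37K1_jd_gam N ℓ hℓ x y hxy b d hd0 hd
      have hdiff : MDifferentiable 𝓘(ℂ) 𝓘(ℂ) (tri d ℓ ((d : ℤ) * b) jfun) := by
        rw [← hjd]
        exact Fermat.Agent.S24_helper27_J1.jd_mdiff (d * ℓ) (Nat.mul_pos hd0 hℓ) _
      rw [S37K1_beta_jF, S37K1_emb_jF, hjd, S37K1_laurentInf_tri N ℓ d hd b hdiff,
        S37K1_Sub_apply, coeffMap_phi0_jLaur])
  exact congrArg (fun g => g f) h

/-! ### the degree of `F_{Nℓ}` over `F_N` -/

open IntermediateField in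
theorem S37K1_finrank_generic {K F F' : Type*} [Field K] [Field F] [Field F'] [Algebra K F]
    [Algebra K F'] (φ : F →ₐ[K] F') (x : F) (m c : ℕ) (hm : 0 < m)
    (h1 : Module.finrank K⟮x⟯ F = m) (h2 : Module.finrank K⟮φ x⟯ F' = m * c) :
    letI := φ.toRingHom.toAlgebra
    Module.finrank F F' = c := by
  letI := φ.toRingHom.toAlgebra
  letI algRF' : Algebra K⟮x⟯ F' := (φ.toRingHom.comp (algebraMap K⟮x⟯ F)).toAlgebra
  haveI : IsScalarTower K⟮x⟯ F F' := IsScalarTower.of_algebraMap_eq (fun x => rfl)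
  have htower := Module.finrank_mul_finrank K⟮x⟯ F F'
  have hmap : (K⟮x⟯).map φ = K⟮φ x⟯ := by
    rw [IntermediateField.adjoin_map, Set.image_singleton]
  let i : K⟮x⟯ ≃+* K⟮φ x⟯ :=
    ((IntermediateField.equivMap K⟮x⟯ φ).trans (IntermediateField.equivOfEq hmap)).toRingEquiv
  have h3 : Module.finrank K⟮x⟯ F' = Module.finrank K⟮φ x⟯ F' :=
    Algebra.finrank_eq_of_equiv_equiv i (RingEquiv.refl _) (by ext x; rfl)
  rw [h3, h1, h2] at htower
  exact Nat.eq_of_mul_eq_mul_left hm htower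

set_option synthInstance.maxHeartbeats 400000 in
set_option maxHeartbeats 1000000 in
open IntermediateField AlgebraicCurve in
theorem S37K1_finrank (hℓp : ℓ.Prime) (hℓN : ¬ ℓ ∣ N) :
    letI := algebraAlong (heckeAlphaBar Kbar N ℓ)
    Module.finrank (modularFunctionFieldBar N) (modularFunctionFieldBar (N * ℓ)) = ℓ + 1 := by
  obtain ⟨hfd1, hdeg1⟩ := Fermat.Agent.S24_helper23_DEG.DEG N
  obtain ⟨hfd2, hdeg2⟩ := Fermat.Agent.S24_helper23_DEG.DEG (N * ℓ)
  have hj : heckeAlphaBar Kbar N ℓ (jElt N) = jElt (N * ℓ) := Subtype.ext rfl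
  have hpos : 0 < mu N := by
    rw [← hdeg1]
    exact Module.finrank_pos
  refine S37K1_finrank_generic (heckeAlphaBar Kbar N ℓ) (jElt N) (mu N) (ℓ + 1) hpos hdeg1 ?_
  rw [hj, hdeg2, Fermat.Agent.S20_helper29_A1.A1 N, Fermat.Agent.S20_helper29_A1.A1 (N * ℓ),
    mul_comm N ℓ, Fermat.Agent.S20_helper29_A1.psi_mul_of_not_dvd ℓ N hℓp (NeZero.ne N) hℓN]

/-! ### the norm as a product over explicit embeddings -/

theorem S37K1_norm_generic {F F' Ω : Type*} [Field F] [Field F'] [Field Ω] [Algebra F F']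
    [CharZero F] [FiniteDimensional F F'] {ι : Type*} [Fintype ι]
    (e : ι → F' →+* Ω) (θ : F →+* Ω) (he : ∀ i x, e i (algebraMap F F' x) = θ x)
    (hinj : Function.Injective e) (hcard : Fintype.card ι = Module.finrank F F') (z : F') :
    θ (Algebra.norm F z) = ∏ i, e i z := by
  classical
  letI : Algebra F (AlgebraicClosure Ω) := ((algebraMap Ω (AlgebraicClosure Ω)).comp θ).toAlgebra
  let e' : ι → (F' →ₐ[F] AlgebraicClosure Ω) := fun i =>
    { toRingHom := (algebraMap Ω (AlgebraicClosure Ω)).comp (e i)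
      commutes' := fun x => by
        show algebraMap Ω (AlgebraicClosure Ω) (e i (algebraMap F F' x)) =
          algebraMap Ω (AlgebraicClosure Ω) (θ x)
        rw [he] }
  have he'inj : Function.Injective e' := by
    intro i j hij
    apply hinj
    ext x
    have h1 : e' i x = e' j x := by rw [hij]
    exact (algebraMap Ω (AlgebraicClosure Ω)).injective h1
  have hbij : Function.Bijective e' := by
    rw [Fintype.bijective_iff_injective_and_card]
    refine ⟨he'inj, ?_⟩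
    rw [hcard, AlgHom.card]
  have hnorm := Algebra.norm_eq_prod_embeddings F (AlgebraicClosure Ω) z
  rw [← Fintype.prod_bijective e' hbij (fun i => e' i z) (fun σ => σ z) (fun i => rfl)] at hnorm
  apply (algebraMap Ω (AlgebraicClosure Ω)).injective
  rw [map_prod]
  exact hnorm

/-- the `ℓ + 1` embeddings of `F_{Nℓ}` -/
def S37K1_embOpt (x y : ℤ) (hxy : (ℓ : ℤ) * x - N * y = 1) :
    Option (Fin ℓ) → (modularFunctionFieldBar (N * ℓ) →+* LaurentSeries ℂ)
  | none => S37K1_emb (N * ℓ) 1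
  | some b => S37K1_emb (N * ℓ) (S37K1_gam N ℓ x y hxy ((b : ℕ) : ℤ))

theorem S37K1_embOpt_alpha (x y : ℤ) (hxy : (ℓ : ℤ) * x - N * y = 1) (i : Option (Fin ℓ))
    (f : modularFunctionFieldBar N) :
    S37K1_embOpt N ℓ x y hxy i (heckeAlphaBar Kbar N ℓ f) =
      S37K1_Theta (N * ℓ) (f : LaurentSeries Kbar) := by
  have hN : 0 < N := Nat.pos_of_ne_zero (NeZero.ne N)
  cases i with
  | none => exact S37K1_emb_alpha N ℓ 1 (fun d _ => rfl) f
  | some b =>
    exact S37K1_emb_alpha N ℓ _ (fun d hd => S37K1_jd_gam_low N ℓ hN x y hxy _ d hd) f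

theorem S37K1_embOpt_beta_none (x y : ℤ) (hxy : (ℓ : ℤ) * x - N * y = 1)
    (f : modularFunctionFieldBar N) :
    S37K1_embOpt N ℓ x y hxy none (heckeBetaBar Kbar N ℓ f) =
      S37K1_Theta (N * ℓ) (qExpand Kbar ℓ (f : LaurentSeries Kbar)) :=
  S37K1_emb_one (N * ℓ) _

theorem S37K1_embOpt_beta_some (x y : ℤ) (hxy : (ℓ : ℤ) * x - N * y = 1) (b : Fin ℓ)
    (f : modularFunctionFieldBar N) :
    S37K1_embOpt N ℓ x y hxy (some b) (heckeBetaBar Kbar N ℓ f) =
      S37K1_Sub N ℓ ((b : ℕ) : ℤ) (f : LaurentSeries Kbar) :=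
  S37K1_emb_beta N ℓ x y hxy _ f

theorem S37K1_zeta_isPrimitiveRoot : IsPrimitiveRoot (S37K1_zeta ℓ) ℓ := by
  rw [← IsPrimitiveRoot.coe_units_iff]
  exact Complex.isPrimitiveRoot_exp ℓ (NeZero.ne ℓ)

theorem S37K1_coeff_jLaur_one :
    (coeffMap phi0 (jLaur 1)).coeff (-1) = 1 := by
  rw [coeffMap_phi0_jLaur, qExpand_one_apply]
  exact coeff_jqModC_neg_one ℂ

theorem S37K1_coeff_none (hℓ2 : 2 ≤ ℓ) (w : LaurentSeries Kbar) :
    (S37K1_Theta (N * ℓ) w).coeff (-(N : ℤ)) = 0 := by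
  rw [S37K1_Theta_apply]
  apply qExpand_coeff_of_not_dvd
  rintro ⟨k, hk⟩
  have hN : (N : ℤ) ≠ 0 := by exact_mod_cast NeZero.ne N
  have h1 : (N : ℤ) * ((ℓ : ℤ) * k + 1) = 0 := by push_cast at hk; linarith
  rcases mul_eq_zero.mp h1 with h | h
  · exact hN h
  · have h2 : (ℓ : ℤ) ∣ 1 := ⟨-k, by linarith⟩
    have h3 : ℓ ∣ 1 := by exact_mod_cast h2
    have := Nat.le_of_dvd one_pos h3
    omega

theorem S37K1_coeff_some (b : ℤ) :
    (S37K1_Sub N ℓ b (jLaur 1)).coeff (-(N : ℤ)) = (((S37K1_zeta ℓ ^ b)⁻¹ : ℂˣ) : ℂ) := by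
  rw [S37K1_Sub_apply]
  have h : (-(N : ℤ)) = (N : ℤ) * (-1) := by ring
  rw [h, qExpand_coeff_mul, coeff_lsScale, S37K1_coeff_jLaur_one, mul_one, zpow_neg_one]

theorem S37K1_embOpt_injective (hℓ2 : 2 ≤ ℓ) (x y : ℤ) (hxy : (ℓ : ℤ) * x - N * y = 1) :
    Function.Injective (S37K1_embOpt N ℓ x y hxy) := by
  intro i j hij
  have hval : ∀ k : Option (Fin ℓ),
      (S37K1_embOpt N ℓ x y hxy k (heckeBetaBar Kbar N ℓ (jElt N))).coeff (-(N : ℤ)) =
        match k with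
        | none => 0
        | some b => (((S37K1_zeta ℓ ^ ((b : ℕ) : ℤ))⁻¹ : ℂˣ) : ℂ) := by
    intro k
    cases k with
    | none => rw [S37K1_embOpt_beta_none]; exact S37K1_coeff_none N ℓ hℓ2 _
    | some b => rw [S37K1_embOpt_beta_some]; exact S37K1_coeff_some N ℓ _
  have h1 := hval i
  have h2 := hval j
  rw [hij] at h1
  rw [h1] at h2
  cases i with
  | none =>
    cases j with
    | none => rfl
    | some b => exact absurd h2.symm (Units.ne_zero _)
  | some b =>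
    cases j with
    | none => exact absurd h2 (Units.ne_zero _)
    | some b' =>
      have h3 : (S37K1_zeta ℓ ^ ((b : ℕ) : ℤ))⁻¹ = (S37K1_zeta ℓ ^ ((b' : ℕ) : ℤ))⁻¹ :=
        Units.ext h2
      rw [inv_inj, zpow_natCast, zpow_natCast] at h3
      have := (S37K1_zeta_isPrimitiveRoot ℓ).pow_inj b.2 b'.2 h3
      rw [Fin.ext this]

set_option synthInstance.maxHeartbeats 400000 in
set_option maxHeartbeats 1000000 in
open AlgebraicCurve in
/-- **Norm product formula over `ℂ`.** -/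
theorem S37K1_norm_Theta (hℓp : ℓ.Prime) (hℓN : ¬ ℓ ∣ N) (f : modularFunctionFieldBar N) :
    letI := algebraAlong (heckeAlphaBar Kbar N ℓ)
    S37K1_Theta (N * ℓ) ((Algebra.norm (modularFunctionFieldBar N)
        (heckeBetaBar Kbar N ℓ f) : modularFunctionFieldBar N) : LaurentSeries Kbar) =
      S37K1_Theta (N * ℓ) (qExpand Kbar ℓ (f : LaurentSeries Kbar)) *
        ∏ b ∈ Finset.range ℓ, S37K1_Sub N ℓ (b : ℤ) (f : LaurentSeries Kbar) := by
  letI := algebraAlong (heckeAlphaBar Kbar N ℓ)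
  haveI : FiniteDimensional (modularFunctionFieldBar N) (modularFunctionFieldBar (N * ℓ)) :=
    Fermat.Agent.S37_helper21_B0c.S37B0_finiteAlong_alpha N ℓ
  haveI : CharZero (modularFunctionFieldBar N) :=
    charZero_of_injective_algebraMap (algebraMap Kbar (modularFunctionFieldBar N)).injective
  obtain ⟨x, y, hxy⟩ : ∃ x y : ℤ, (ℓ : ℤ) * x - N * y = 1 := by
    have hcop : Nat.Coprime ℓ N := (Nat.Prime.coprime_iff_not_dvd hℓp).mpr hℓN
    obtain ⟨u, v, huv⟩ := Nat.isCoprime_iff_coprime.mpr hcop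
    exact ⟨u, -v, by linarith⟩
  have h := S37K1_norm_generic (S37K1_embOpt N ℓ x y hxy)
    ((S37K1_Theta (N * ℓ)).comp (modularFunctionFieldBar N).val.toRingHom)
    (fun i g => S37K1_embOpt_alpha N ℓ x y hxy i g)
    (S37K1_embOpt_injective N ℓ hℓp.two_le x y hxy)
    (by rw [Fintype.card_option, Fintype.card_fin]; exact (S37K1_finrank N ℓ hℓp hℓN).symm)
    (heckeBetaBar Kbar N ℓ f)
  rw [Fintype.prod_option, S37K1_embOpt_beta_none] at h
  rw [← Fin.prod_univ_eq_prod_range (fun b : ℕ => S37K1_Sub N ℓ (b : ℤ) (f : LaurentSeries Kbar))]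
  refine h.trans ?_
  congr 1
  exact Finset.prod_congr rfl (fun b _ => S37K1_embOpt_beta_some N ℓ x y hxy b f)

/-! ### descent to `ℚ̄((q))` -/

theorem S37K1_lsScale_coeffMap (z : Kbarˣ) (w : LaurentSeries Kbar) :
    lsScale (Units.map (phi0 : Kbar →* ℂ) z) (coeffMap phi0 w) = coeffMap phi0 (lsScale z w) := by
  ext n
  rw [coeff_lsScale, coeffMap_coeff, coeffMap_coeff, coeff_lsScale, map_mul, ← map_zpow]
  rfl

theorem S37K1_exists_zeta :
    ∃ ζ : Kbarˣ, IsPrimitiveRoot ζ ℓ ∧ Units.map (phi0 : Kbar →* ℂ) ζ = S37K1_zeta ℓ := by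
  haveI : NeZero ((ℓ : ℕ) : Kbar) := NeZero.charZero
  obtain ⟨ξ, hξ⟩ := HasEnoughRootsOfUnity.exists_primitiveRoot Kbar ℓ
  have hξ' : IsPrimitiveRoot (phi0 ξ) ℓ := hξ.map_of_injective phi0.injective
  have hz : ((S37K1_zeta ℓ : ℂˣ) : ℂ) ^ ℓ = 1 := by
    have := (S37K1_zeta_isPrimitiveRoot ℓ).pow_eq_one
    rw [← Units.val_pow_eq_pow_val, this, Units.val_one]
  obtain ⟨k, -, hk⟩ := hξ'.eq_pow_of_pow_eq_one hz
  have hne : ξ ^ k ≠ 0 := pow_ne_zero _ (hξ.ne_zero (NeZero.ne ℓ))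
  have hmap : Units.map (phi0 : Kbar →* ℂ) (Units.mk0 (ξ ^ k) hne) = S37K1_zeta ℓ := by
    apply Units.ext
    show phi0 (ξ ^ k) = _
    rw [map_pow, hk]
  refine ⟨Units.mk0 (ξ ^ k) hne, ?_, hmap⟩
  have h1 : IsPrimitiveRoot (Units.map (phi0 : Kbar →* ℂ) (Units.mk0 (ξ ^ k) hne)) ℓ := by
    rw [hmap]; exact S37K1_zeta_isPrimitiveRoot ℓ
  exact IsPrimitiveRoot.of_map_of_injective h1
    (Units.map_injective (f := (phi0 : Kbar →* ℂ)) phi0.injective)

theorem S37K1_coeffMap_phi0_injective : Function.Injective (coeffMap phi0) := by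
  intro x y h
  ext n
  have h2 := congrArg (fun z => z.coeff n) h
  simp only [coeffMap_coeff] at h2
  exact phi0.injective h2

set_option synthInstance.maxHeartbeats 400000 in
set_option maxHeartbeats 1000000 in
open AlgebraicCurve in
/-- **K1: the norm product formula.**  For `ℓ ∤ N` prime and `f ∈ F_N`,
`Nm_{F_{Nℓ}/F_N}(f(q^ℓ))(q^ℓ) = f(q^{ℓ²}) · ∏_{b < ℓ} f(ζ^b q)`. -/
theorem S37K1_norm_qexp (hℓp : ℓ.Prime) (hℓN : ¬ ℓ ∣ N) :
    ∃ ζ : Kbarˣ, IsPrimitiveRoot ζ ℓ ∧ ∀ f : modularFunctionFieldBar N,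
      letI := algebraAlong (heckeAlphaBar Kbar N ℓ)
      qExpand Kbar ℓ ((Algebra.norm (modularFunctionFieldBar N)
          (heckeBetaBar Kbar N ℓ f) : modularFunctionFieldBar N) : LaurentSeries Kbar) =
        qExpand Kbar (ℓ * ℓ) (f : LaurentSeries Kbar) *
          ∏ b ∈ Finset.range ℓ, lsScale (ζ ^ b) (f : LaurentSeries Kbar) := by
  obtain ⟨ζ, hζ, hζmap⟩ := S37K1_exists_zeta ℓ
  refine ⟨ζ, hζ, fun f => ?_⟩
  have h := S37K1_norm_Theta N ℓ hℓp hℓN f
  have hsub : ∀ b : ℕ, S37K1_Sub N ℓ (b : ℤ) (f : LaurentSeries Kbar) =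
      coeffMap phi0 (qExpand Kbar N (lsScale (ζ ^ b) (f : LaurentSeries Kbar))) := by
    intro b
    rw [S37K1_Sub_apply, coeffMap_qExpand, ← S37K1_lsScale_coeffMap, map_pow, hζmap, zpow_natCast]
  have hTh : ∀ w : LaurentSeries Kbar, S37K1_Theta (N * ℓ) w =
      coeffMap phi0 (qExpand Kbar N (qExpand Kbar ℓ w)) := by
    intro w
    rw [S37K1_Theta_apply, coeffMap_qExpand, coeffMap_qExpand, qExpand_qExpand]
  rw [hTh, hTh, Finset.prod_congr rfl (fun b _ => hsub b), ← map_prod, ← map_prod, ← map_mul,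
    ← map_mul] at h
  have h2 := qExpand_injective (R := Kbar) N (S37K1_coeffMap_phi0_injective h)
  rw [h2, qExpand_qExpand]

end

end Fermat.Agent.S37K1
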