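import Mathlib
import Fermat.Agent.G_helper8_K1Ca
import Fermat.Agent.S37_helper8_K1c

/-!
# Project G, piece G7-K1C (part b): the norm product formula over `ℂ`

For `ℓ ∤ N` prime and `f ∈ F_ℂ(N) = laurentBaseChange ℂ (modularFunctionFieldFull N)`:
`Nm_{F_ℂ(Nℓ)/F_ℂ(N)}(f(q^ℓ))(q^ℓ) = f(q^{ℓ²}) · ∏_{b < ℓ} f(ζ^b q)`, `ζ = exp(2πi/ℓ)`
(the norm along `heckeAlphaBar ℂ N ℓ`), together with the `ℓ + 1` embeddings of `F_ℂ(Nℓ)` over
`F_ℂ(N)` and the degree `[F_ℂ(Nℓ) : F_ℂ(N)] = ℓ + 1`.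
-/

set_option autoImplicit false
set_option linter.unusedSectionVars false
set_option linter.unusedVariables false
set_option linter.style.haveILetI false

open UpperHalfPlane ModularForm CongruenceSubgroup Matrix.SpecialLinearGroup
open scoped MatrixGroups ModularForm Manifold Real
open Fermat.Agent.S20 Fermat.Agent.S24 Fermat.Agent.S28_helper14_ADefs
open Fermat.Agent.S24_helper16_B Fermat.Agent.S24_helper24_JD Fermat.Agent.S28_SUBST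
open Fermat.Agent.S37K1 Fermat.Agent.G_helper21_B0L
open ModularCurve

namespace Fermat.Agent.G_helper8_K1C

noncomputable section

/-- the embedding of `F_ℂ(M)` attached to `γ` -/
def PGK1C_emb (M : ℕ) [NeZero M] (γ : SL(2, ℤ)) : PG_B0L_F ℂ M →+* LaurentSeries ℂ :=
  (PGK1C_MASTER_inf M γ).choose

theorem PGK1C_emb_const (M : ℕ) [NeZero M] (γ : SL(2, ℤ)) (a : ℂ) :
    PGK1C_emb M γ (algebraMap ℂ _ a) = HahnSeries.C a :=
  (PGK1C_MASTER_inf M γ).choose_spec.1 a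

theorem PGK1C_emb_jF (M : ℕ) [NeZero M] (γ : SL(2, ℤ)) (d : ℕ) [NeZero d] (hd : d ∣ M) :
    PGK1C_emb M γ (PG_B0L_jF ℂ M d hd) = laurentInf M (jd d γ) :=
  (PGK1C_MASTER_inf M γ).choose_spec.2 d hd

theorem PGK1C_emb_injective (M : ℕ) [NeZero M] (γ : SL(2, ℤ)) :
    Function.Injective (PGK1C_emb M γ) :=
  (PGK1C_emb M γ).injective

theorem PGK1C_qExpand_algebraMap (M : ℕ) [NeZero M] (a : ℂ) :
    qExpand ℂ M (algebraMap ℂ (LaurentSeries ℂ) a) = HahnSeries.C a := by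
  rw [PGK1C_algebraMap_eq_C, qExpand_C]

variable (N ℓ : ℕ) [NeZero N] [NeZero ℓ]

/-- Claim B_∞: the embedding attached to `1` is `x(q) ↦ x(s^M)`. -/
theorem PGK1C_emb_one (M : ℕ) [NeZero M] (x : PG_B0L_F ℂ M) :
    PGK1C_emb M 1 x = qExpand ℂ M (x : LaurentSeries ℂ) := by
  have h := PGK1C_ringHom_ext M (PGK1C_emb M 1)
    ((qExpand ℂ M).comp (PG_B0L_F ℂ M).val.toRingHom)
    (fun a => by
      rw [PGK1C_emb_const]
      show _ = qExpand ℂ M (algebraMap ℂ (LaurentSeries ℂ) a)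
      rw [PGK1C_qExpand_algebraMap])
    (fun d _ hd => by
      rw [PGK1C_emb_jF, S37K1_laurentInf_jd_one M d hd]
      show _ = qExpand ℂ M (PG_B0L_jLaur ℂ d)
      rw [PGK1C_jLaur_eq])
  exact congrArg (fun f => f x) h

/-- Claim A: on `F_ℂ(N)`, every embedding attached to `γ ∈ Γ₀(N)` is `x(q) ↦ x(s^{Nℓ})`. -/
theorem PGK1C_emb_alpha (γ : SL(2, ℤ)) (hγ : ∀ d : ℕ, d ∣ N → jd d γ = jd d 1)
    (x : PG_B0L_F ℂ N) :
    PGK1C_emb (N * ℓ) γ (heckeAlphaBar ℂ N ℓ x) = qExpand ℂ (N * ℓ) (x : LaurentSeries ℂ) := by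
  have h := PGK1C_ringHom_ext N
    ((PGK1C_emb (N * ℓ) γ).comp (heckeAlphaBar ℂ N ℓ).toRingHom)
    ((qExpand ℂ (N * ℓ)).comp (PG_B0L_F ℂ N).val.toRingHom)
    (fun a => by
      show PGK1C_emb (N * ℓ) γ (heckeAlphaBar ℂ N ℓ (algebraMap ℂ _ a)) =
        qExpand ℂ (N * ℓ) (algebraMap ℂ (LaurentSeries ℂ) a)
      rw [AlgHom.commutes, PGK1C_emb_const, PGK1C_qExpand_algebraMap])
    (fun d _ hd => by
      show PGK1C_emb (N * ℓ) γ (heckeAlphaBar ℂ N ℓ (PG_B0L_jF ℂ N d hd)) =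
        qExpand ℂ (N * ℓ) (PG_B0L_jLaur ℂ d)
      have h1 : heckeAlphaBar ℂ N ℓ (PG_B0L_jF ℂ N d hd) =
          PG_B0L_jF ℂ (N * ℓ) d (hd.trans (dvd_mul_right N ℓ)) :=
        Subtype.ext (coe_heckeAlphaBar N ℓ _)
      rw [h1, PGK1C_emb_jF, hγ d hd,
        S37K1_laurentInf_jd_one (N * ℓ) d (hd.trans (dvd_mul_right N ℓ)), PGK1C_jLaur_eq])
  exact congrArg (fun f => f x) h

theorem PGK1C_qExpand_jLaur (d : ℕ) [NeZero d] :
    qExpand ℂ ℓ (PG_B0L_jLaur ℂ d) = PG_B0L_jLaur ℂ (d * ℓ) := by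
  rw [PGK1C_jLaur_eq, PGK1C_jLaur_eq, qExpand_qExpand]
  exact qExpand_congr (mul_comm ℓ d) _

theorem PGK1C_beta_jF (d : ℕ) [NeZero d] (hd : d ∣ N) :
    heckeBetaBar ℂ N ℓ (PG_B0L_jF ℂ N d hd) =
      PG_B0L_jF ℂ (N * ℓ) (d * ℓ) (Nat.mul_dvd_mul hd dvd_rfl) :=
  Subtype.ext (PGK1C_qExpand_jLaur ℓ d)

/-- the substitution `f(q) ↦ f(ζ^b s^N)` -/
def PGK1C_Sub (b : ℤ) : LaurentSeries ℂ →+* LaurentSeries ℂ :=
  (qExpand ℂ N).comp (lsScale (S37K1_zeta ℓ ^ b)).toRingHom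

theorem PGK1C_Sub_apply (b : ℤ) (f : LaurentSeries ℂ) :
    PGK1C_Sub N ℓ b f = qExpand ℂ N (lsScale (S37K1_zeta ℓ ^ b) f) := rfl

/-- Claim B_b: the embedding attached to `γ_b` composed with `β` is the substitution
`f(q) ↦ f(ζ^b s^N)`. -/
theorem PGK1C_emb_beta (x y : ℤ) (hxy : (ℓ : ℤ) * x - N * y = 1) (b : ℤ)
    (f : PG_B0L_F ℂ N) :
    PGK1C_emb (N * ℓ) (S37K1_gam N ℓ x y hxy b) (heckeBetaBar ℂ N ℓ f) =
      PGK1C_Sub N ℓ b (f : LaurentSeries ℂ) := by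
  have hℓ : 0 < ℓ := Nat.pos_of_ne_zero (NeZero.ne ℓ)
  have h := PGK1C_ringHom_ext N
    ((PGK1C_emb (N * ℓ) (S37K1_gam N ℓ x y hxy b)).comp (heckeBetaBar ℂ N ℓ).toRingHom)
    ((PGK1C_Sub N ℓ b).comp (PG_B0L_F ℂ N).val.toRingHom)
    (fun a => by
      show PGK1C_emb (N * ℓ) _ (heckeBetaBar ℂ N ℓ (algebraMap ℂ _ a)) =
        PGK1C_Sub N ℓ b (algebraMap ℂ (LaurentSeries ℂ) a)
      rw [AlgHom.commutes, PGK1C_emb_const, PGK1C_Sub_apply, PGK1C_algebraMap_eq_C,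
        lsScale_C, qExpand_C])
    (fun d _ hd => by
      show PGK1C_emb (N * ℓ) _ (heckeBetaBar ℂ N ℓ (PG_B0L_jF ℂ N d hd)) =
        PGK1C_Sub N ℓ b (PG_B0L_jLaur ℂ d)
      have hd0 : 0 < d := Nat.pos_of_ne_zero (NeZero.ne d)
      have hjd := S37K1_jd_gam N ℓ hℓ x y hxy b d hd0 hd
      have hdiff : MDifferentiable 𝓘(ℂ) 𝓘(ℂ) (tri d ℓ ((d : ℤ) * b) jfun) := by
        rw [← hjd]
        exact Fermat.Agent.S24_helper27_J1.jd_mdiff (d * ℓ) (Nat.mul_pos hd0 hℓ) _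
      rw [PGK1C_beta_jF, PGK1C_emb_jF, hjd, S37K1_laurentInf_tri N ℓ d hd b hdiff,
        PGK1C_Sub_apply, PGK1C_jLaur_eq])
  exact congrArg (fun g => g f) h

/-- the `ℓ + 1` embeddings of `F_ℂ(Nℓ)` -/
def PGK1C_embOpt (x y : ℤ) (hxy : (ℓ : ℤ) * x - N * y = 1) :
    Option (Fin ℓ) → (PG_B0L_F ℂ (N * ℓ) →+* LaurentSeries ℂ)
  | none => PGK1C_emb (N * ℓ) 1
  | some b => PGK1C_emb (N * ℓ) (S37K1_gam N ℓ x y hxy ((b : ℕ) : ℤ))

theorem PGK1C_embOpt_alpha (x y : ℤ) (hxy : (ℓ : ℤ) * x - N * y = 1) (i : Option (Fin ℓ))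
    (f : PG_B0L_F ℂ N) :
    PGK1C_embOpt N ℓ x y hxy i (heckeAlphaBar ℂ N ℓ f) =
      qExpand ℂ (N * ℓ) (f : LaurentSeries ℂ) := by
  have hN : 0 < N := Nat.pos_of_ne_zero (NeZero.ne N)
  cases i with
  | none => exact PGK1C_emb_alpha N ℓ 1 (fun d _ => rfl) f
  | some b =>
    exact PGK1C_emb_alpha N ℓ _ (fun d hd => S37K1_jd_gam_low N ℓ hN x y hxy _ d hd) f

theorem PGK1C_embOpt_beta_none (x y : ℤ) (hxy : (ℓ : ℤ) * x - N * y = 1)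
    (f : PG_B0L_F ℂ N) :
    PGK1C_embOpt N ℓ x y hxy none (heckeBetaBar ℂ N ℓ f) =
      qExpand ℂ (N * ℓ) (qExpand ℂ ℓ (f : LaurentSeries ℂ)) :=
  PGK1C_emb_one (N * ℓ) _

theorem PGK1C_embOpt_beta_some (x y : ℤ) (hxy : (ℓ : ℤ) * x - N * y = 1) (b : Fin ℓ)
    (f : PG_B0L_F ℂ N) :
    PGK1C_embOpt N ℓ x y hxy (some b) (heckeBetaBar ℂ N ℓ f) =
      PGK1C_Sub N ℓ ((b : ℕ) : ℤ) (f : LaurentSeries ℂ) :=
  PGK1C_emb_beta N ℓ x y hxy _ f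

theorem PGK1C_coeff_jLaur_one : (PG_B0L_jLaur ℂ 1).coeff (-1) = 1 := by
  rw [PGK1C_jLaur_eq, qExpand_one_apply]
  exact coeff_jqModC_neg_one ℂ

theorem PGK1C_coeff_none (hℓ2 : 2 ≤ ℓ) (w : LaurentSeries ℂ) :
    (qExpand ℂ (N * ℓ) w).coeff (-(N : ℤ)) = 0 := by
  apply qExpand_coeff_of_not_dvd
  rintro ⟨k, hk⟩
  have hN : (N : ℤ) ≠ 0 := by exact_mod_cast NeZero.ne N
  have h1 : (N : ℤ) * ((ℓ : ℤ) * k + 1) = 0 := by push_cast at hk; linarith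
  rcases mul_eq_zero.mp h1 with h | h
  · exact hN h
  · have h2 : (ℓ : ℤ) ∣ 1 := ⟨-k, by linarith⟩
    have h3 : ℓ ∣ 1 := by exact_mod_cast h2
    have := Nat.le_of_dvd one_pos h3
    omega

theorem PGK1C_coeff_some (b : ℤ) :
    (PGK1C_Sub N ℓ b (PG_B0L_jLaur ℂ 1)).coeff (-(N : ℤ)) =
      (((S37K1_zeta ℓ ^ b)⁻¹ : ℂˣ) : ℂ) := by
  rw [PGK1C_Sub_apply]
  have h : (-(N : ℤ)) = (N : ℤ) * (-1) := by ring
  rw [h, qExpand_coeff_mul, coeff_lsScale, PGK1C_coeff_jLaur_one, mul_one, zpow_neg_one]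

theorem PGK1C_embOpt_injective (hℓ2 : 2 ≤ ℓ) (x y : ℤ) (hxy : (ℓ : ℤ) * x - N * y = 1) :
    Function.Injective (PGK1C_embOpt N ℓ x y hxy) := by
  intro i j hij
  have hval : ∀ k : Option (Fin ℓ),
      (PGK1C_embOpt N ℓ x y hxy k (heckeBetaBar ℂ N ℓ (PG_B0L_jElt ℂ N))).coeff (-(N : ℤ)) =
        match k with
        | none => 0
        | some b => (((S37K1_zeta ℓ ^ ((b : ℕ) : ℤ))⁻¹ : ℂˣ) : ℂ) := by
    intro k
    cases k with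
    | none => rw [PGK1C_embOpt_beta_none]; exact PGK1C_coeff_none N ℓ hℓ2 _
    | some b => rw [PGK1C_embOpt_beta_some]; exact PGK1C_coeff_some N ℓ _
  have h1 := hval i
  have h2 := hval j
  rw [hij] at h1
  rw [h1] at h2
  cases i with
  | none =>
    cases j with
    | none => rfl
    | some b => exact absurd h2.symm (Units.ne_zero _)
  | some b =>
    cases j with
    | none => exact absurd h2 (Units.ne_zero _)
    | some b' =>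
      have h3 : (S37K1_zeta ℓ ^ ((b : ℕ) : ℤ))⁻¹ = (S37K1_zeta ℓ ^ ((b' : ℕ) : ℤ))⁻¹ :=
        Units.ext h2
      rw [inv_inj, zpow_natCast, zpow_natCast] at h3
      have := (S37K1_zeta_isPrimitiveRoot ℓ).pow_inj b.2 b'.2 h3
      rw [Fin.ext this]

end

end Fermat.Agent.G_helper8_K1C
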