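import Mathlib
import Fermat.Agent.G_helper8_K1Cb
import Fermat.Agent.G_helper21_B0L

/-!
# Project G, piece G7-K1C (part c): degree and norm product formula over `ℂ`
-/

set_option autoImplicit false
set_option linter.unusedSectionVars false
set_option linter.unusedVariables false
set_option linter.style.haveILetI false

open UpperHalfPlane ModularForm CongruenceSubgroup Matrix.SpecialLinearGroup
open scoped MatrixGroups ModularForm Manifold Real
open Fermat.Agent.S20 Fermat.Agent.S24 Fermat.Agent.S28_helper14_ADefs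
open Fermat.Agent.S24_helper16_B Fermat.Agent.S24_helper24_JD Fermat.Agent.S28_SUBST
open Fermat.Agent.S37K1 Fermat.Agent.G_helper21_B0L
open ModularCurve AlgebraicCurve

namespace Fermat.Agent.G_helper8_K1C

noncomputable section

/-! ### two generic degree bounds -/

theorem PGK1C_card_le_finrank {F F' Ω : Type*} [Field F] [Field F'] [Field Ω] [Algebra F F']
    [CharZero F] [FiniteDimensional F F'] {ι : Type*} [Fintype ι]
    (e : ι → F' →+* Ω) (θ : F →+* Ω) (he : ∀ i x, e i (algebraMap F F' x) = θ x)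
    (hinj : Function.Injective e) : Fintype.card ι ≤ Module.finrank F F' := by
  classical
  letI : Algebra F (AlgebraicClosure Ω) := ((algebraMap Ω (AlgebraicClosure Ω)).comp θ).toAlgebra
  let e' : ι → (F' →ₐ[F] AlgebraicClosure Ω) := fun i =>
    { toRingHom := (algebraMap Ω (AlgebraicClosure Ω)).comp (e i)
      commutes' := fun x => by
        show algebraMap Ω (AlgebraicClosure Ω) (e i (algebraMap F F' x)) =
          algebraMap Ω (AlgebraicClosure Ω) (θ x)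
        rw [he] }
  have he'inj : Function.Injective e' := by
    intro i j hij
    apply hinj
    ext x
    have h1 : e' i x = e' j x := by rw [hij]
    exact (algebraMap Ω (AlgebraicClosure Ω)).injective h1
  have h := Fintype.card_le_of_injective e' he'inj
  rwa [AlgHom.card] at h

theorem PGK1C_finrank_le_of_bc {F F' E E' : Type*} [Field F] [Field F'] [Field E] [Field E']
    [Algebra F F'] [Algebra E E'] [FiniteDimensional F F'] [FiniteDimensional E E']
    (b : F →+* E) (b' : F' →+* E')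
    (hcomm : ∀ x, b' (algebraMap F F' x) = algebraMap E E' (b x))
    (hgen : ∀ S : Subalgebra E E', (∀ x ∈ S, x⁻¹ ∈ S) → (∀ x, b' x ∈ S) → S = ⊤) :
    Module.finrank E E' ≤ Module.finrank F F' := by
  classical
  set n := Module.finrank F F' with hn
  let B := Module.finBasis F F'
  let v : Fin n → E' := fun i => b' (B i)
  have claim1 : ∀ x : F', b' x ∈ Submodule.span E (Set.range v) := by
    intro x
    have hx : x = ∑ i, B.repr x i • B i := (B.sum_repr x).symm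
    rw [hx, map_sum]
    refine Submodule.sum_mem _ (fun i _ => ?_)
    rw [Algebra.smul_def, map_mul, hcomm, ← Algebra.smul_def]
    exact Submodule.smul_mem _ _ (Submodule.subset_span ⟨i, rfl⟩)
  let S : Subalgebra E E' := Algebra.adjoin E (Set.range b')
  have hS : Subalgebra.toSubmodule S ≤ Submodule.span E (Set.range v) := by
    have h1 : Subalgebra.toSubmodule S = Submodule.span E (Submonoid.closure (Set.range b')) :=
      Algebra.adjoin_eq_span E (Set.range b')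
    have h2 : (Submonoid.closure (Set.range b') : Set E') = Set.range b' := by
      have : Set.range b' = ((MonoidHom.mrange (b' : F' →* E') : Submonoid E') : Set E') := by
        ext y; simp
      rw [this, Submonoid.closure_eq]
    rw [h1, h2, Submodule.span_le]
    rintro _ ⟨x, rfl⟩
    exact claim1 x
  have hStop : S = ⊤ := by
    apply hgen
    · intro x hx
      exact Subalgebra.inv_mem_of_algebraic S (x := ⟨x, hx⟩)
        (Algebra.IsAlgebraic.isAlgebraic _)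
    · intro x
      exact Algebra.subset_adjoin ⟨x, rfl⟩
  have h3 : Module.finrank E E' = Module.finrank E (Subalgebra.toSubmodule S) := by
    rw [hStop]
    exact (finrank_top E E').symm
  rw [h3]
  calc Module.finrank E (Subalgebra.toSubmodule S)
      ≤ Module.finrank E (Submodule.span E (Set.range v)) := Submodule.finrank_mono hS
    _ ≤ Fintype.card (Fin n) := finrank_range_le_card v
    _ = n := Fintype.card_fin n

/-! ### the degree of `F_ℂ(Nℓ)` over `F_ℂ(N)` -/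

variable (N ℓ : ℕ) [NeZero N] [NeZero ℓ]

theorem PGK1C_bc_alpha (x : modularFunctionFieldBar N) :
    PG_B0L_bc ℂ (N * ℓ) (heckeAlphaBar Kbar N ℓ x) = heckeAlphaBar ℂ N ℓ (PG_B0L_bc ℂ N x) := by
  apply Subtype.ext
  rw [PG_B0L_coe_bc, coe_heckeAlphaBar, coe_heckeAlphaBar, PG_B0L_coe_bc]

set_option synthInstance.maxHeartbeats 400000 in
set_option maxHeartbeats 1000000 in
/-- `F_ℂ(Nℓ)` is generated, as a field over `F_ℂ(N)`, by the image of `F_ℚ̄(Nℓ)`. -/
theorem PGK1C_gen_bc :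
    letI := algebraAlong (heckeAlphaBar ℂ N ℓ)
    ∀ S : Subalgebra (PG_B0L_F ℂ N) (PG_B0L_F ℂ (N * ℓ)), (∀ x ∈ S, x⁻¹ ∈ S) →
      (∀ x, PG_B0L_bc ℂ (N * ℓ) x ∈ S) → S = ⊤ := by
  letI := algebraAlong (heckeAlphaBar ℂ N ℓ)
  haveI := isScalarTower_along (heckeAlphaBar ℂ N ℓ)
  intro S hinv hbc
  have key : ∀ x : LaurentSeries ℂ,
      x ∈ IntermediateField.adjoin ℂ (PG_B0L_gens ℂ (N * ℓ)) →
      ∀ hx' : x ∈ PG_B0L_F ℂ (N * ℓ), (⟨x, hx'⟩ : PG_B0L_F ℂ (N * ℓ)) ∈ S := by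
    intro x hx
    induction hx using IntermediateField.adjoin_induction with
    | mem y hy =>
      intro hy'
      obtain ⟨d, hd0, hd, rfl⟩ := hy
      have h1 := hbc (jF (N * ℓ) d hd)
      rw [PG_B0L_bc_jF] at h1
      exact h1
    | algebraMap a =>
      intro ha'
      have h1 : (⟨algebraMap ℂ (LaurentSeries ℂ) a, ha'⟩ : PG_B0L_F ℂ (N * ℓ)) =
          algebraMap (PG_B0L_F ℂ N) (PG_B0L_F ℂ (N * ℓ)) (algebraMap ℂ (PG_B0L_F ℂ N) a) := by
        rw [← IsScalarTower.algebraMap_apply]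
        rfl
      rw [h1]
      exact Subalgebra.algebraMap_mem S _
    | add x y hx hy h1 h2 =>
      intro hxy
      have hx' : x ∈ PG_B0L_F ℂ (N * ℓ) := by rw [PG_B0L_gen]; exact hx
      have hy' : y ∈ PG_B0L_F ℂ (N * ℓ) := by rw [PG_B0L_gen]; exact hy
      have e : (⟨x + y, hxy⟩ : PG_B0L_F ℂ (N * ℓ)) = ⟨x, hx'⟩ + ⟨y, hy'⟩ := rfl
      rw [e]
      exact add_mem (h1 hx') (h2 hy')
    | inv x hx h =>
      intro hxi
      have hx' : x ∈ PG_B0L_F ℂ (N * ℓ) := by rw [PG_B0L_gen]; exact hx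
      have e : (⟨x⁻¹, hxi⟩ : PG_B0L_F ℂ (N * ℓ)) = (⟨x, hx'⟩ : PG_B0L_F ℂ (N * ℓ))⁻¹ := rfl
      rw [e]
      exact hinv _ (h hx')
    | mul x y hx hy h1 h2 =>
      intro hxy
      have hx' : x ∈ PG_B0L_F ℂ (N * ℓ) := by rw [PG_B0L_gen]; exact hx
      have hy' : y ∈ PG_B0L_F ℂ (N * ℓ) := by rw [PG_B0L_gen]; exact hy
      have e : (⟨x * y, hxy⟩ : PG_B0L_F ℂ (N * ℓ)) = ⟨x, hx'⟩ * ⟨y, hy'⟩ := rfl
      rw [e]
      exact mul_mem (h1 hx') (h2 hy')
  rw [eq_top_iff]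
  rintro ⟨x, hx⟩ -
  exact key x (by rw [← PG_B0L_gen]; exact hx) hx

theorem PGK1C_exists_bezout (hℓp : ℓ.Prime) (hℓN : ¬ ℓ ∣ N) :
    ∃ x y : ℤ, (ℓ : ℤ) * x - N * y = 1 := by
  have hcop : Nat.Coprime ℓ N := (Nat.Prime.coprime_iff_not_dvd hℓp).mpr hℓN
  obtain ⟨u, v, huv⟩ := Nat.isCoprime_iff_coprime.mpr hcop
  exact ⟨u, -v, by linarith⟩

set_option synthInstance.maxHeartbeats 400000 in
set_option maxHeartbeats 1000000 in
/-- `[F_ℂ(Nℓ) : F_ℂ(N)] = ℓ + 1` (along `α`). -/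
theorem PGK1C_finrank (hℓp : ℓ.Prime) (hℓN : ¬ ℓ ∣ N) :
    letI := algebraAlong (heckeAlphaBar ℂ N ℓ)
    Module.finrank (PG_B0L_F ℂ N) (PG_B0L_F ℂ (N * ℓ)) = ℓ + 1 := by
  letI := algebraAlong (heckeAlphaBar ℂ N ℓ)
  letI := algebraAlong (heckeAlphaBar Kbar N ℓ)
  haveI : FiniteDimensional (PG_B0L_F ℂ N) (PG_B0L_F ℂ (N * ℓ)) :=
    PG_B0L_finiteAlong_alpha ℂ N ℓ
  haveI : FiniteDimensional (modularFunctionFieldBar N) (modularFunctionFieldBar (N * ℓ)) :=
    Fermat.Agent.S37_helper21_B0c.S37B0_finiteAlong_alpha N ℓ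
  haveI : CharZero (PG_B0L_F ℂ N) :=
    charZero_of_injective_algebraMap (algebraMap ℂ (PG_B0L_F ℂ N)).injective
  apply le_antisymm
  · have h := PGK1C_finrank_le_of_bc (PG_B0L_bc ℂ N) (PG_B0L_bc ℂ (N * ℓ))
      (fun x => PGK1C_bc_alpha N ℓ x) (PGK1C_gen_bc N ℓ)
    rw [S37K1_finrank N ℓ hℓp hℓN] at h
    exact h
  · obtain ⟨x, y, hxy⟩ := PGK1C_exists_bezout N ℓ hℓp hℓN
    have h := PGK1C_card_le_finrank (PGK1C_embOpt N ℓ x y hxy)
      ((qExpand ℂ (N * ℓ)).comp (PG_B0L_F ℂ N).val.toRingHom)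
      (fun i g => PGK1C_embOpt_alpha N ℓ x y hxy i g)
      (PGK1C_embOpt_injective N ℓ hℓp.two_le x y hxy)
    rw [Fintype.card_option, Fintype.card_fin] at h
    exact h

theorem PGK1C_finrankAlong (hℓp : ℓ.Prime) (hℓN : ¬ ℓ ∣ N) :
    finrankAlong ℂ (heckeAlphaBar ℂ N ℓ) = ℓ + 1 :=
  PGK1C_finrank N ℓ hℓp hℓN

/-! ### the norm product formula -/

set_option synthInstance.maxHeartbeats 400000 in
set_option maxHeartbeats 1000000 in
/-- **Norm product formula over `ℂ`**, in the variable `s = q^{1/(Nℓ)}`. -/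
theorem PGK1C_norm_Theta (hℓp : ℓ.Prime) (hℓN : ¬ ℓ ∣ N) (f : PG_B0L_F ℂ N) :
    letI := algebraAlong (heckeAlphaBar ℂ N ℓ)
    qExpand ℂ (N * ℓ) ((Algebra.norm (PG_B0L_F ℂ N)
        (heckeBetaBar ℂ N ℓ f) : PG_B0L_F ℂ N) : LaurentSeries ℂ) =
      qExpand ℂ (N * ℓ) (qExpand ℂ ℓ (f : LaurentSeries ℂ)) *
        ∏ b ∈ Finset.range ℓ, PGK1C_Sub N ℓ (b : ℤ) (f : LaurentSeries ℂ) := by
  letI := algebraAlong (heckeAlphaBar ℂ N ℓ)
  haveI : FiniteDimensional (PG_B0L_F ℂ N) (PG_B0L_F ℂ (N * ℓ)) :=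
    PG_B0L_finiteAlong_alpha ℂ N ℓ
  haveI : CharZero (PG_B0L_F ℂ N) :=
    charZero_of_injective_algebraMap (algebraMap ℂ (PG_B0L_F ℂ N)).injective
  obtain ⟨x, y, hxy⟩ := PGK1C_exists_bezout N ℓ hℓp hℓN
  have h := S37K1_norm_generic (PGK1C_embOpt N ℓ x y hxy)
    ((qExpand ℂ (N * ℓ)).comp (PG_B0L_F ℂ N).val.toRingHom)
    (fun i g => PGK1C_embOpt_alpha N ℓ x y hxy i g)
    (PGK1C_embOpt_injective N ℓ hℓp.two_le x y hxy)
    (by rw [Fintype.card_option, Fintype.card_fin]; exact (PGK1C_finrank N ℓ hℓp hℓN).symm)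
    (heckeBetaBar ℂ N ℓ f)
  rw [Fintype.prod_option, PGK1C_embOpt_beta_none] at h
  rw [← Fin.prod_univ_eq_prod_range (fun b : ℕ => PGK1C_Sub N ℓ (b : ℤ) (f : LaurentSeries ℂ))]
  refine h.trans ?_
  congr 1
  exact Finset.prod_congr rfl (fun b _ => PGK1C_embOpt_beta_some N ℓ x y hxy b f)

set_option synthInstance.maxHeartbeats 400000 in
set_option maxHeartbeats 1000000 in
/-- **K1 over `ℂ`: the norm product formula.**  For `ℓ ∤ N` prime and `f ∈ F_ℂ(N)`,
`Nm_{F_ℂ(Nℓ)/F_ℂ(N)}(f(q^ℓ))(q^ℓ) = f(q^{ℓ²}) · ∏_{b < ℓ} f(ζ^b q)`, `ζ = exp(2πi/ℓ)`. -/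
theorem PGK1C_norm_qexp (hℓp : ℓ.Prime) (hℓN : ¬ ℓ ∣ N)
    (f : laurentBaseChange ℂ (modularFunctionFieldFull N)) :
    (letI := algebraAlong (heckeAlphaBar ℂ N ℓ)
     qExpand ℂ ℓ ((Algebra.norm (laurentBaseChange ℂ (modularFunctionFieldFull N))
        (heckeBetaBar ℂ N ℓ f) : laurentBaseChange ℂ (modularFunctionFieldFull N)) :
          LaurentSeries ℂ)) =
      qExpand ℂ (ℓ * ℓ) (f : LaurentSeries ℂ) *
        ∏ b ∈ Finset.range ℓ, lsScale (S37K1_zeta ℓ ^ b) (f : LaurentSeries ℂ) := by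
  have h := PGK1C_norm_Theta N ℓ hℓp hℓN f
  have hsub : ∀ b : ℕ, PGK1C_Sub N ℓ (b : ℤ) (f : LaurentSeries ℂ) =
      qExpand ℂ N (lsScale (S37K1_zeta ℓ ^ b) (f : LaurentSeries ℂ)) := by
    intro b
    rw [PGK1C_Sub_apply, zpow_natCast]
  have hTh : ∀ w : LaurentSeries ℂ, qExpand ℂ (N * ℓ) w = qExpand ℂ N (qExpand ℂ ℓ w) := by
    intro w
    rw [qExpand_qExpand]
  rw [hTh, hTh, Finset.prod_congr rfl (fun b _ => hsub b), ← map_prod, ← map_mul] at h
  have h2 := qExpand_injective (R := ℂ) N h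
  rw [h2, qExpand_qExpand]

end

end Fermat.Agent.G_helper8_K1C
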