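import Mathlib
import Fermat.Agent.G_helper28_G7ASM
import Fermat.Agent.G_helper23_G7form
import Fermat.Agent.G_helper8_K1Cc

/-!
# Project G, piece G7 (Hecke equivariance of `Θ`): everything except the `q`-expansion
of the Hecke product

`PG_G7_of_qexp`: the statement of the row with the single extra hypothesis `PG7_QEXP N ℓ`.
-/

set_option autoImplicit false

open UpperHalfPlane ModularForm CongruenceSubgroup AlgebraicCurve
open scoped MatrixGroups ModularForm Manifold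

namespace Fermat.Agent.G_helper28_G7pre

open Fermat.Agent.G_helper6_Defs Fermat.Agent.G_helper28_G7Defs

theorem PG7_norm (N ℓ : ℕ) [NeZero N] [NeZero ℓ] (hℓ : ℓ.Prime) (hℓN : ¬ ℓ ∣ N) :
    PG7_NORM N ℓ :=
  fun f => Fermat.Agent.G_helper8_K1C.PGK1C_norm_qexp N ℓ hℓ hℓN f

theorem PG_G7_of_qexp (N p ℓ : ℕ) [NeZero N] [NeZero ℓ] (hp : p.Prime) (hℓ : ℓ.Prime)
    (hℓN : ¬ ℓ ∣ N) [HasPrincipalDivisors ℂ (PG_FC N)]
    (hin : ModularCurve.HeckeInputsAlong ℂ N ℓ)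
    (hE : PG_EIS N) (h1 : PG_AN1 N) (h3 : PG_AN3 N p) (hq : PG7_QEXP N ℓ)
    (Θ : PG_M N →+ PG_JC N) (hΘ : PG_THETA N p Θ) : PG_THETAHECKE N ℓ Θ :=
  Fermat.Agent.G_helper28_G7ASM.PG_G7_of N p ℓ hp hin hE h1 h3
    (Fermat.Agent.G_helper23_G7form.PG7_form N ℓ hℓ hℓN) hq (PG7_norm N ℓ hℓ hℓN)
    (Fermat.Agent.G_helper23_G7form.PG7_transferChar_chi N p ℓ) Θ hΘ

end Fermat.Agent.G_helper28_G7pre
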