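import Mathlib
import Fermat.Agent.G_helper28_G7pre

/-!
# Project G, piece G7 (Hecke equivariance of `Θ`): the twin for an arbitrary modulus `p ≥ 1`

`PG_G7_of_gen` / `PG_G7_of_qexp_gen`: the statements of `PG_G7_of` / `PG_G7_of_qexp` with
`0 < p` instead of `p.Prime` (the proof never uses primality of `p`).  Wanted by the
`p ^ n` version of the project.
-/

set_option autoImplicit false
set_option linter.style.haveILetI false

open UpperHalfPlane ModularForm CongruenceSubgroup AlgebraicCurve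
open scoped MatrixGroups ModularForm Manifold

noncomputable section

namespace Fermat.Agent.G_helper28_G7gen

open Fermat.Agent.G_helper6_Defs Fermat.Agent.G_helper28_G7Defs Fermat.Agent.G_helper23_G1bA
open Fermat.Agent.S24_helper16_B Fermat.Agent.S37K1 ModularCurve
open Fermat.Agent.G_helper28_G7ASM

set_option maxHeartbeats 800000 in
theorem PG_G7_of_gen (N p ℓ : ℕ) [NeZero N] [NeZero ℓ] (hp : 0 < p)
    [HasPrincipalDivisors ℂ (PG_FC N)] (hin : ModularCurve.HeckeInputsAlong ℂ N ℓ)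
    (hE : PG_EIS N) (h1 : PG_AN1 N) (h3 : PG_AN3 N p)
    (hform : PG7_FORM N ℓ) (hq : PG7_QEXP N ℓ) (hnorm : PG7_NORM N ℓ)
    (hchi : ∀ c : Additive (Gamma0 N) →+ ℤ,
      PG7_transferChar N ℓ (PG_chi N p c) = PG_chi N p (PG_heckeHom N ℓ c))
    (Θ : PG_M N →+ PG_JC N) (hΘ : PG_THETA N p Θ) : PG_THETAHECKE N ℓ Θ := by
  intro c c' hcc'
  have hp0 : 0 < p := hp
  -- the Eisenstein series
  obtain ⟨a, ha, hat⟩ := hE _ (PG7A_chi_good N p hp0 c)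
  obtain ⟨b, hb, hbt⟩ := hE _ (PG7A_one_good N)
  have ha0 : a ≠ 0 := PG7A_ne_zero_of_tendsto hat
  have hb0 : b ≠ 0 := PG7A_ne_zero_of_tendsto hbt
  -- their `p`-th powers
  have hA : PG_IsForm N (4 * p) 1 (a ^ p) := by
    have h := PG7A_isForm_pow ha p
    rwa [PG7A_chi_pow N p hp0] at h
  have hB : PG_IsForm N (4 * p) 1 (b ^ p) := by
    have h := PG7A_isForm_pow hb p
    rwa [one_pow (M := Gamma0 N →* ℂˣ) p] at h
  have hA0 : a ^ p ≠ 0 := PG7A_pow_ne_zero ha0 p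
  have hB0 : b ^ p ≠ 0 := PG7A_pow_ne_zero hb0 p
  obtain ⟨x, hx⟩ := h1 (4 * p) (a ^ p) (b ^ p) hA hB hB0
  have hx0 : x ≠ 0 := by
    rintro rfl
    unfold PG_Realizes at hx
    rw [ZeroMemClass.coe_zero, zero_mul] at hx
    exact PG7A_qLaur_ne_zero (PG7A_nice_of_isForm_one hA) hA0 hx.symm
  have hdiv : ∀ v : Place ℂ (PG_FC N), (p : ℤ) ∣ v.ord x :=
    h3 4 _ 1 a b x (PG7A_chi_good N p hp0 c) (PG7A_one_good N) ha hb ha0 hb0 hx
  obtain ⟨D, hD⟩ := PG7A_exists_div_root p hp0 x hx0 hdiv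
  have hΘc : Θ c = Pic0.mk D :=
    hΘ.char c 4 1 a b x D (PG7A_one_good N)
      (by rw [mul_one (PG_chi N p (c : Additive (Gamma0 N) →+ ℤ))]; exact ha) hb ha0 hb0 hx hD
  -- the Hecke operator
  obtain ⟨hα, hβ, hP, hfin, hFI, hN⟩ := hin
  haveI := hP
  rw [heckeOperatorAlong_eq hα hβ hFI hfin hN, hΘc]
  show Pic0.mk (Pic0.degZeroCorrespondence (heckeBetaBar ℂ N ℓ) (heckeAlphaBar ℂ N ℓ) hβ hα
    hFI D) = Θ c'
  -- the divisor of the norm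
  have hD' : ∀ v : Place ℂ (PG_FC N),
      (p : ℤ) * (Divisor.correspondence (heckeBetaBar ℂ N ℓ) (heckeAlphaBar ℂ N ℓ) hβ hα
        (D : Divisor ℂ (PG_FC N))) v =
      v.ord (letI := algebraAlong (heckeAlphaBar ℂ N ℓ);
        (Algebra.norm (PG_FC N) (heckeBetaBar ℂ N ℓ x) : PG_FC N)) := by
    intro v
    have h := PG7A_correspondence_ord (heckeBetaBar ℂ N ℓ) (heckeAlphaBar ℂ N ℓ) hβ hα hfin hN
      x hx0 ((p : ℤ) • (D : Divisor ℂ (PG_FC N)))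
      (fun w => by rw [Finsupp.smul_apply, smul_eq_mul, hD w]) v
    rw [map_zsmul, Finsupp.smul_apply, smul_eq_mul] at h
    exact h
  -- the Hecke products
  have ha' : PG_IsForm N (4 * ((ℓ : ℤ) + 1))
      (PG_chi N p (c' : Additive (Gamma0 N) →+ ℤ) * 1) (PG7_heckeProd ℓ 4 a) := by
    have h := hform 4 _ a ha
    rw [hchi, ← hcc'] at h
    rw [mul_one (PG_chi N p (c' : Additive (Gamma0 N) →+ ℤ))]
    exact h
  have hb' : PG_IsForm N (4 * ((ℓ : ℤ) + 1)) 1 (PG7_heckeProd ℓ 4 b) := by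
    have h := hform 4 _ b hb
    rwa [← PG7A_chi_zero N p, hchi, PG7A_heckeHom_zero, PG7A_chi_zero] at h
  have hA' : PG_IsForm N (4 * ((ℓ : ℤ) + 1) * p) 1 ((PG7_heckeProd ℓ 4 a) ^ p) := by
    have h := PG7A_isForm_pow ha' p
    rwa [mul_one (PG_chi N p (c' : Additive (Gamma0 N) →+ ℤ)), PG7A_chi_pow N p hp0] at h
  have hB' : PG_IsForm N (4 * ((ℓ : ℤ) + 1) * p) 1 ((PG7_heckeProd ℓ 4 b) ^ p) := by
    have h := PG7A_isForm_pow hb' p
    rwa [one_pow (M := Gamma0 N →* ℂˣ) p] at h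
  -- the constant
  set c₀ : ℂ := ((((ℓ : ℝ) ^ ((p : ℤ) - 1)) ^ (ℓ + 1) : ℝ) : ℂ) with hc₀
  have hℓ0 : (ℓ : ℝ) ≠ 0 := by exact_mod_cast NeZero.ne ℓ
  have hc₀0 : c₀ ≠ 0 := by
    rw [hc₀]
    exact_mod_cast pow_ne_zero _ (zpow_ne_zero _ hℓ0)
  -- the realisation of the norm
  have hreal := PG7A_realizes_norm hq hnorm (4 * p) (a ^ p) (b ^ p) hA hB x hx
  rw [PG7A_heckeProd_pow, PG7A_heckeProd_pow] at hreal
  unfold PG_Realizes at hreal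
  rw [PG7A_qLaur_smul (PG7A_nice_of_isForm_one hA'),
    PG7A_qLaur_smul (PG7A_nice_of_isForm_one hB')] at hreal
  have hC : (HahnSeries.C c₀ : LaurentSeries ℂ) ≠ 0 := PG7A_C_ne_zero hc₀0
  have hreal' : PG_Realizes (letI := algebraAlong (heckeAlphaBar ℂ N ℓ);
      (Algebra.norm (PG_FC N) (heckeBetaBar ℂ N ℓ x) : PG_FC N))
      ((PG7_heckeProd ℓ 4 a) ^ p) ((PG7_heckeProd ℓ 4 b) ^ p) := by
    unfold PG_Realizes
    apply mul_left_cancel₀ hC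
    rw [← hreal]
    ring
  -- nonvanishing
  have hA'0 : (PG7_heckeProd ℓ 4 a) ^ p ≠ 0 := by
    intro h0
    have h2 := hq (4 * p) (a ^ p) hA
    rw [PG7A_heckeProd_pow, h0, smul_zero] at h2
    have h3 : PG_qLaur (0 : ℍ → ℂ) = 0 := by
      rw [PG_qLaur, qExpansion_zero, map_zero]
    rw [h3, map_zero] at h2
    have hqA : PG_qLaur (a ^ p) ≠ 0 := PG7A_qLaur_ne_zero (PG7A_nice_of_isForm_one hA) hA0
    have hκ : (HahnSeries.C (PG7_kappa ℓ (4 * p)) : LaurentSeries ℂ) ≠ 0 :=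
      PG7A_C_ne_zero (PG7A_kappa_ne_zero ℓ _)
    have h5 : qExpand ℂ (ℓ * ℓ) (PG_qLaur (a ^ p)) ≠ 0 := fun h =>
      hqA ((map_eq_zero_iff _ (qExpand_injective (R := ℂ) (ℓ * ℓ))).mp h)
    have h6 : ∏ b ∈ Finset.range ℓ, lsScale (S37K1_zeta ℓ ^ b) (PG_qLaur (a ^ p)) ≠ 0 := by
      rw [Finset.prod_ne_zero_iff]
      intro i _ h
      exact hqA ((map_eq_zero_iff _ (lsScale (S37K1_zeta ℓ ^ i)).injective).mp h)
    exact mul_ne_zero hκ (mul_ne_zero h5 h6) h2.symm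
  have hB'0 : (PG7_heckeProd ℓ 4 b) ^ p ≠ 0 := by
    intro h0
    have h2 := hq (4 * p) (b ^ p) hB
    rw [PG7A_heckeProd_pow, h0, smul_zero] at h2
    have h3 : PG_qLaur (0 : ℍ → ℂ) = 0 := by
      rw [PG_qLaur, qExpansion_zero, map_zero]
    rw [h3, map_zero] at h2
    have hqB : PG_qLaur (b ^ p) ≠ 0 := PG7A_qLaur_ne_zero (PG7A_nice_of_isForm_one hB) hB0
    have hκ : (HahnSeries.C (PG7_kappa ℓ (4 * p)) : LaurentSeries ℂ) ≠ 0 :=
      PG7A_C_ne_zero (PG7A_kappa_ne_zero ℓ _)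
    have h5 : qExpand ℂ (ℓ * ℓ) (PG_qLaur (b ^ p)) ≠ 0 := fun h =>
      hqB ((map_eq_zero_iff _ (qExpand_injective (R := ℂ) (ℓ * ℓ))).mp h)
    have h6 : ∏ i ∈ Finset.range ℓ, lsScale (S37K1_zeta ℓ ^ i) (PG_qLaur (b ^ p)) ≠ 0 := by
      rw [Finset.prod_ne_zero_iff]
      intro i _ h
      exact hqB ((map_eq_zero_iff _ (lsScale (S37K1_zeta ℓ ^ i)).injective).mp h)
    exact mul_ne_zero hκ (mul_ne_zero h5 h6) h2.symm
  have ha'0 : PG7_heckeProd ℓ 4 a ≠ 0 := PG7A_ne_zero_of_pow_ne_zero hp0 hA'0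
  have hb'0 : PG7_heckeProd ℓ 4 b ≠ 0 := PG7A_ne_zero_of_pow_ne_zero hp0 hB'0
  exact (hΘ.char c' (4 * ((ℓ : ℤ) + 1)) 1 (PG7_heckeProd ℓ 4 a) (PG7_heckeProd ℓ 4 b) _ _
    (PG7A_one_good N) ha' hb' ha'0 hb'0 hreal' (fun v => hD' v)).symm


theorem PG_G7_of_qexp_gen (N p ℓ : ℕ) [NeZero N] [NeZero ℓ] (hp : 0 < p) (hℓ : ℓ.Prime)
    (hℓN : ¬ ℓ ∣ N) [HasPrincipalDivisors ℂ (PG_FC N)]
    (hin : ModularCurve.HeckeInputsAlong ℂ N ℓ)
    (hE : PG_EIS N) (h1 : PG_AN1 N) (h3 : PG_AN3 N p) (hq : PG7_QEXP N ℓ)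
    (Θ : PG_M N →+ PG_JC N) (hΘ : PG_THETA N p Θ) : PG_THETAHECKE N ℓ Θ :=
  PG_G7_of_gen N p ℓ hp hin hE h1 h3
    (Fermat.Agent.G_helper23_G7form.PG7_form N ℓ hℓ hℓN) hq
    (Fermat.Agent.G_helper28_G7pre.PG7_norm N ℓ hℓ hℓN)
    (Fermat.Agent.G_helper23_G7form.PG7_transferChar_chi N p ℓ) Θ hΘ

end Fermat.Agent.G_helper28_G7gen
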