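import Mathlib
import Fermat.Agent.G_helper28_G7gen
import Fermat.Agent.G_helper15_G7QEXP
import Fermat.Agent.G_helper6_Contracts

/-!
# Project G, piece G7 (Hecke equivariance of `Θ`): the row statement, unconditional

`PG_G7`: the row statement verbatim (`hp : p.Prime`, with the unused `h2 : PG_AN2 N`).
`PG_G7_gen`: the same for an arbitrary modulus `0 < p`.
-/

set_option autoImplicit false

open UpperHalfPlane ModularForm CongruenceSubgroup AlgebraicCurve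
open scoped MatrixGroups ModularForm Manifold TensorProduct

namespace Fermat.Agent.G_helper28_G7

open Fermat.Agent.G_helper6_Defs

/-- G7 for an arbitrary modulus `p ≥ 1`. -/
theorem PG_G7_gen (N p ℓ : ℕ) [NeZero N] [NeZero ℓ] (hp : 0 < p) (hℓ : ℓ.Prime) (hℓN : ¬ ℓ ∣ N)
    [HasPrincipalDivisors ℂ (PG_FC N)] (hin : ModularCurve.HeckeInputsAlong ℂ N ℓ)
    (hE : PG_EIS N) (h1 : PG_AN1 N) (h3 : PG_AN3 N p)
    (Θ : PG_M N →+ PG_JC N) (hΘ : PG_THETA N p Θ) : PG_THETAHECKE N ℓ Θ :=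
  Fermat.Agent.G_helper28_G7gen.PG_G7_of_qexp_gen N p ℓ hp hℓ hℓN hin hE h1 h3
    (Fermat.Agent.G_helper15_G7QEXP.PG7_qexp N ℓ) Θ hΘ

/-- **G7** (row statement verbatim). -/
theorem PG_G7 (N p ℓ : ℕ) [NeZero N] [NeZero ℓ] (hp : p.Prime) (hℓ : ℓ.Prime) (hℓN : ¬ ℓ ∣ N)
    [HasPrincipalDivisors ℂ (PG_FC N)] (hin : ModularCurve.HeckeInputsAlong ℂ N ℓ)
    (hE : PG_EIS N) (h1 : PG_AN1 N) (h2 : PG_AN2 N) (h3 : PG_AN3 N p)
    (Θ : PG_M N →+ PG_JC N) (hΘ : PG_THETA N p Θ) : PG_THETAHECKE N ℓ Θ :=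
  PG_G7_gen N p ℓ hp.pos hℓ hℓN hin hE h1 h3 Θ hΘ

end Fermat.Agent.G_helper28_G7
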