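import Mathlib

set_option autoImplicit false
set_option linter.unusedSimpArgs false
set_option linter.unusedVariables false
set_option linter.unusedSectionVars false

open Polynomial

namespace Fermat.Agent.G_helper29_ALG

section PowQuadratic

variable {k : Type*} [Field k] {E : Type*} [Ring E] [Algebra k E]

/-- The companion `x' = t - x` of a quadratic element. -/
theorem PG_companion (x : E) (t d : k) (h : x * x - t • x + d • (1 : E) = 0) :
    x * (t • (1 : E) - x) = d • (1 : E) ∧ (t • (1 : E) - x) * x = d • (1 : E) := by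
  constructor
  · rw [mul_sub, mul_smul_comm, mul_one]
    rw [← sub_eq_zero]
    have : t • x - x * x - d • (1 : E) = -(x * x - t • x + d • (1 : E)) := by abel
    rw [this, h, neg_zero]
  · rw [sub_mul, smul_mul_assoc, one_mul]
    rw [← sub_eq_zero]
    have : t • x - x * x - d • (1 : E) = -(x * x - t • x + d • (1 : E)) := by abel
    rw [this, h, neg_zero]

/-- Powers of a quadratic element are quadratic, with constant term the power of the constant
term. -/
theorem PG_pow_quadratic (x : E) (t d : k) (h : x * x - t • x + d • (1 : E) = 0) (j : ℕ) :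
    ∃ tj : k, x ^ j * x ^ j - tj • x ^ j + (d ^ j) • (1 : E) = 0 := by
  obtain ⟨h1, h2⟩ := PG_companion x t d h
  set y : E := t • (1 : E) - x with hy
  have hcomm : Commute x y := by
    show x * y = y * x
    rw [h1, h2]
  have hsum : x + y = t • (1 : E) := by rw [hy]; abel
  -- `x^j + y^j` is a scalar
  have key : ∀ j : ℕ, (∃ s : k, x ^ j + y ^ j = s • (1 : E)) ∧
      ∃ s : k, x ^ (j + 1) + y ^ (j + 1) = s • (1 : E) := by
    intro j
    induction j with
    | zero =>
      refine ⟨⟨2, ?_⟩, ⟨t, ?_⟩⟩
      · rw [pow_zero, pow_zero, two_smul]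
      · rw [zero_add, pow_one, pow_one, hsum]
    | succ n ih =>
      obtain ⟨⟨s0, hs0⟩, ⟨s1, hs1⟩⟩ := ih
      refine ⟨⟨s1, hs1⟩, ⟨t * s1 - d * s0, ?_⟩⟩
      have e : x ^ (n + 1 + 1) + y ^ (n + 1 + 1) =
          (x + y) * (x ^ (n + 1) + y ^ (n + 1)) - (x * y) * (x ^ n + y ^ n) := by
        have c1 : y * x ^ (n + 1) = x * y * x ^ n := by
          rw [pow_succ', ← mul_assoc, hcomm.eq]
        have c2 : x * y ^ (n + 1) = x * y * y ^ n := by
          rw [pow_succ', ← mul_assoc]
        rw [add_mul, mul_add, mul_add, mul_add, c1, c2, pow_succ' x (n + 1), pow_succ' y (n + 1)]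
        abel
      rw [e, hsum, h1, hs0, hs1]
      simp only [smul_mul_assoc, one_mul, mul_smul_comm, mul_one, smul_smul, sub_smul]
      rw [mul_comm s1 t, mul_comm s0 d]
  obtain ⟨s, hs⟩ := (key j).1
  refine ⟨s, ?_⟩
  have hxy : x ^ j * y ^ j = d ^ j • (1 : E) := by
    rw [← hcomm.mul_pow, h1, _root_.smul_pow, one_pow]
  have : x ^ j * x ^ j - s • x ^ j + d ^ j • (1 : E) = x ^ j * (x ^ j + y ^ j) - s • x ^ j := by
    rw [mul_add, hxy]; abel
  rw [this, hs, mul_smul_comm, mul_one, sub_self]

end PowQuadratic

section QuadAlgebra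

variable {k : Type*} [Field k] {E : Type*} [Ring E] [Algebra k E] {G : Type*} [Group G]
  (r : G →* E) (d : G →* kˣ)

/-- the submodule of scalars -/
def PG_scal (k : Type*) [Field k] (E : Type*) [Ring E] [Algebra k E] : Submodule k E :=
  LinearMap.range (Algebra.linearMap k E)

theorem PG_mem_scal {x : E} : x ∈ PG_scal k E ↔ ∃ c : k, c • (1 : E) = x := by
  simp [PG_scal, Algebra.algebraMap_eq_smul_one]

theorem PG_smul_one_mem_scal (c : k) : c • (1 : E) ∈ PG_scal k E := PG_mem_scal.mpr ⟨c, rfl⟩

/-- pairs `(a, a')` with `a'` the formal conjugate of `a` -/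
def PG_conjSpan : Submodule k (E × E) :=
  Submodule.span k (Set.range fun g : G => (r g, ((d g : kˣ) : k) • r g⁻¹))

variable {r d}

theorem PG_inv_formula {g : G} {t : k}
    (h : r g * r g - t • r g + ((d g : kˣ) : k) • (1 : E) = 0) :
    r g + ((d g : kˣ) : k) • r g⁻¹ = t • (1 : E) := by
  have h1 : r g * r g⁻¹ = 1 := by rw [← map_mul, mul_inv_cancel, map_one]
  have h2 := congrArg (fun z => z * r g⁻¹) h
  simp only [add_mul, sub_mul, mul_assoc, h1, mul_one, smul_mul_assoc, one_mul, zero_mul] at h2
  rw [← sub_eq_zero]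
  rw [← h2]; abel

variable (hrel : ∀ g : G, ∃ t : k, r g * r g - t • r g + ((d g : kˣ) : k) • (1 : E) = 0)
include hrel

theorem PG_conj_add_mem {p : E × E} (hp : p ∈ PG_conjSpan r d) : p.1 + p.2 ∈ PG_scal k E := by
  induction hp using Submodule.span_induction with
  | mem x hx =>
    obtain ⟨g, rfl⟩ := hx
    obtain ⟨t, ht⟩ := hrel g
    exact PG_mem_scal.mpr ⟨t, (PG_inv_formula ht).symm⟩
  | zero => simp
  | add x y _ _ hx hy =>
    have : (x + y).1 + (x + y).2 = (x.1 + x.2) + (y.1 + y.2) := by
      simp only [Prod.fst_add, Prod.snd_add]; abel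
    rw [this]; exact add_mem hx hy
  | smul c x _ hx =>
    have : (c • x).1 + (c • x).2 = c • (x.1 + x.2) := by
      simp only [Prod.smul_fst, Prod.smul_snd, smul_add]
    rw [this]; exact Submodule.smul_mem _ c hx

theorem PG_conj_cross_gen (g h : G) :
    r g * (((d h : kˣ) : k) • r h⁻¹) + r h * (((d g : kˣ) : k) • r g⁻¹) ∈ PG_scal k E := by
  obtain ⟨t, ht⟩ := hrel (g * h⁻¹)
  have key := PG_inv_formula ht
  refine PG_mem_scal.mpr ⟨((d h : kˣ) : k) * t, ?_⟩
  rw [mul_smul, ← key, smul_add, smul_smul]
  have e1 : ((d h : kˣ) : k) * ((d (g * h⁻¹) : kˣ) : k) = ((d g : kˣ) : k) := by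
    have e0 : d h * d (g * h⁻¹) = d g := by
      rw [map_mul, map_inv, mul_comm, inv_mul_cancel_right]
    rw [← Units.val_mul, e0]
  rw [e1]
  have e2 : (g * h⁻¹)⁻¹ = h * g⁻¹ := by group
  rw [e2, map_mul, map_mul, mul_smul_comm, mul_smul_comm]

theorem PG_conj_cross_mem {p q : E × E} (hp : p ∈ PG_conjSpan r d) (hq : q ∈ PG_conjSpan r d) :
    p.1 * q.2 + q.1 * p.2 ∈ PG_scal k E := by
  induction hp using Submodule.span_induction with
  | mem x hx =>
    obtain ⟨g, rfl⟩ := hx
    induction hq using Submodule.span_induction with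
    | mem y hy =>
      obtain ⟨h, rfl⟩ := hy
      exact PG_conj_cross_gen hrel g h
    | zero => simp
    | add y z _ _ hy hz =>
      have : (r g, ((d g : kˣ) : k) • r g⁻¹).1 * (y + z).2 + (y + z).1 *
          (r g, ((d g : kˣ) : k) • r g⁻¹).2 =
          ((r g, ((d g : kˣ) : k) • r g⁻¹).1 * y.2 + y.1 * (r g, ((d g : kˣ) : k) • r g⁻¹).2) +
          ((r g, ((d g : kˣ) : k) • r g⁻¹).1 * z.2 + z.1 * (r g, ((d g : kˣ) : k) • r g⁻¹).2) := by
        simp only [Prod.fst_add, Prod.snd_add, mul_add, add_mul]; abel
      rw [this]; exact add_mem hy hz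
    | smul c y _ hy =>
      have : (r g, ((d g : kˣ) : k) • r g⁻¹).1 * (c • y).2 + (c • y).1 *
          (r g, ((d g : kˣ) : k) • r g⁻¹).2 =
          c • ((r g, ((d g : kˣ) : k) • r g⁻¹).1 * y.2 + y.1 *
            (r g, ((d g : kˣ) : k) • r g⁻¹).2) := by
        simp only [Prod.smul_fst, Prod.smul_snd, mul_smul_comm, smul_mul_assoc, smul_add]
        rw [smul_comm]
      rw [this]; exact Submodule.smul_mem _ c hy
  | zero => simp
  | add x y _ _ hx hy =>
    have : (x + y).1 * q.2 + q.1 * (x + y).2 = (x.1 * q.2 + q.1 * x.2) + (y.1 * q.2 + q.1 * y.2) := by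
      simp only [Prod.fst_add, Prod.snd_add, mul_add, add_mul]; abel
    rw [this]; exact add_mem hx hy
  | smul c x _ hx =>
    have : (c • x).1 * q.2 + q.1 * (c • x).2 = c • (x.1 * q.2 + q.1 * x.2) := by
      simp only [Prod.smul_fst, Prod.smul_snd, mul_smul_comm, smul_mul_assoc, smul_add]
    rw [this]; exact Submodule.smul_mem _ c hx

theorem PG_conj_mul_mem {p : E × E} (hp : p ∈ PG_conjSpan r d) : p.1 * p.2 ∈ PG_scal k E := by
  induction hp using Submodule.span_induction with
  | mem x hx =>
    obtain ⟨g, rfl⟩ := hx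
    refine PG_mem_scal.mpr ⟨((d g : kˣ) : k), ?_⟩
    show _ = r g * (((d g : kˣ) : k) • r g⁻¹)
    rw [mul_smul_comm, ← map_mul, mul_inv_cancel, map_one]
  | zero => simp
  | add x y hx' hy' hx hy =>
    have : (x + y).1 * (x + y).2 = x.1 * x.2 + y.1 * y.2 + (x.1 * y.2 + y.1 * x.2) := by
      simp only [Prod.fst_add, Prod.snd_add, mul_add, add_mul]; abel
    rw [this]
    exact add_mem (add_mem hx hy) (PG_conj_cross_mem hrel hx' hy')
  | smul c x _ hx =>
    have : (c • x).1 * (c • x).2 = (c * c) • (x.1 * x.2) := by
      simp only [Prod.smul_fst, Prod.smul_snd, mul_smul_comm, smul_mul_assoc, smul_smul]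
    rw [this]; exact Submodule.smul_mem _ _ hx

/-- **Every element of the span of the image of `r` is quadratic.** -/
theorem PG_span_quadratic {a : E} (ha : a ∈ Submodule.span k (Set.range r)) :
    ∃ T n : k, a * a - T • a + n • (1 : E) = 0 := by
  have hmap : Submodule.map (LinearMap.fst k E E) (PG_conjSpan r d) =
      Submodule.span k (Set.range r) := by
    rw [PG_conjSpan, Submodule.map_span]
    congr 1
    ext x
    simp
  rw [← hmap] at ha
  obtain ⟨p, hp, rfl⟩ := ha
  obtain ⟨T, hT⟩ := PG_mem_scal.mp (PG_conj_add_mem hrel hp)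
  obtain ⟨n, hn⟩ := PG_mem_scal.mp (PG_conj_mul_mem hrel hp)
  refine ⟨T, n, ?_⟩
  have e : p.2 = T • (1 : E) - p.1 := by rw [hT]; abel
  rw [e, mul_sub, mul_smul_comm, mul_one] at hn
  show p.1 * p.1 - T • p.1 + n • (1 : E) = 0
  rw [hn]; abel

/-- **Every element of the algebra generated by the image of `r` is quadratic.** -/
theorem PG_adjoin_quadratic {a : E} (ha : a ∈ Algebra.adjoin k (Set.range r)) :
    ∃ T n : k, a * a - T • a + n • (1 : E) = 0 := by
  apply PG_span_quadratic hrel
  have h1 : (Algebra.adjoin k (Set.range r)).toSubmodule =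
      Submodule.span k (Submonoid.closure (Set.range r) : Set E) := Algebra.adjoin_eq_span k _
  have h2 : (Submonoid.closure (Set.range r) : Set E) = Set.range r := by
    have : Submonoid.closure (Set.range r) = MonoidHom.mrange r := by
      rw [← MonoidHom.coe_mrange, Submonoid.closure_eq]
    rw [this, MonoidHom.coe_mrange]
  rw [h2] at h1
  rw [← h1]
  exact ha

end QuadAlgebra

section Irreducible

variable {k : Type*} [Field k] {V : Type*} [AddCommGroup V] [Module k V]

/-- `A` acts irreducibly on `V`. -/
def PG_Irred (A : Subalgebra k (Module.End k V)) : Prop :=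
  ∀ U : Submodule k V, (∀ a ∈ A, ∀ x ∈ U, a x ∈ U) → U = ⊥ ∨ U = ⊤

/-- every element of `A` is quadratic over `k`. -/
def PG_Quad (A : Subalgebra k (Module.End k V)) : Prop :=
  ∀ a ∈ A, ∃ T n : k, a * a - T • a + n • (1 : Module.End k V) = 0

variable {A : Subalgebra k (Module.End k V)}

theorem PG_cyclic (hirr : PG_Irred A) {v : V} (hv : v ≠ 0) (w : V) : ∃ a ∈ A, a v = w := by
  let U : Submodule k V := Submodule.map (LinearMap.applyₗ v) (Subalgebra.toSubmodule A)
  have hU : ∀ a ∈ A, ∀ x ∈ U, a x ∈ U := by
    rintro a ha x ⟨b, hb, rfl⟩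
    exact ⟨a * b, A.mul_mem ha hb, rfl⟩
  have hvU : v ∈ U := ⟨1, A.one_mem, rfl⟩
  rcases hirr U hU with h | h
  · exfalso
    rw [h] at hvU
    exact hv ((Submodule.mem_bot k).mp hvU)
  · have : w ∈ U := by rw [h]; exact Submodule.mem_top
    obtain ⟨a, ha, rfl⟩ := this
    exact ⟨a, ha, rfl⟩

theorem PG_smul_one_mem (A : Subalgebra k (Module.End k V)) (c : k) :
    c • (1 : Module.End k V) ∈ A :=
  A.smul_mem A.one_mem c

/-- If all elements of `A` are scalars and `A` is irreducible then `V` has dimension `≤ 1`. -/
theorem PG_finrank_le_one_of_scalar [FiniteDimensional k V] (hirr : PG_Irred A)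
    (hs : ∀ a ∈ A, ∃ c : k, a = c • (1 : Module.End k V)) : Module.finrank k V ≤ 1 := by
  by_cases hV : ∀ v : V, v = 0
  · have : Module.finrank k V = 0 := by
      have : Subsingleton V := ⟨fun a b => by rw [hV a, hV b]⟩
      exact Module.finrank_zero_of_subsingleton
    omega
  · push Not at hV
    obtain ⟨v, hv⟩ := hV
    have hU : ∀ a ∈ A, ∀ x ∈ Submodule.span k {v}, a x ∈ Submodule.span k {v} := by
      intro a ha x hx
      obtain ⟨c, rfl⟩ := hs a ha
      simpa using Submodule.smul_mem _ c hx
    rcases hirr _ hU with h | h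
    · exfalso
      have : v ∈ Submodule.span k {v} := Submodule.mem_span_singleton_self v
      rw [h] at this
      exact hv ((Submodule.mem_bot k).mp this)
    · have h1 : Module.finrank k (Submodule.span k {v}) = 1 := finrank_span_singleton hv
      have h2 : Module.finrank k (⊤ : Submodule k V) = Module.finrank k V := finrank_top k V
      rw [← h2, ← h, h1]

/-- A non-scalar element of an irreducible quadratic algebra over an algebraically closed field
produces a nontrivial idempotent. -/
theorem PG_exists_idempotent [IsAlgClosed k] (hirr : PG_Irred A) (hquad : PG_Quad A)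
    {a : Module.End k V} (ha : a ∈ A) (hns : ∀ c : k, a ≠ c • (1 : Module.End k V)) :
    ∃ e ∈ A, e * e = e ∧ e ≠ 0 ∧ e ≠ 1 := by
  obtain ⟨T, n, hTn⟩ := hquad a ha
  -- a root of `X^2 - T X + n`
  obtain ⟨α, hα⟩ : ∃ α : k, α * α - T * α + n = 0 := by
    have hdeg : (X ^ 2 - C T * X + C n : k[X]).degree ≠ 0 := by
      have : (X ^ 2 - C T * X + C n : k[X]).degree = 2 := by
        compute_degree!
      rw [this]; norm_num
    obtain ⟨α, hα⟩ := IsAlgClosed.exists_root _ hdeg
    refine ⟨α, ?_⟩
    simpa [IsRoot, pow_two] using hα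
  obtain ⟨β, hβ⟩ : ∃ β : k, β = T - α := ⟨_, rfl⟩
  have hfac : (a - α • 1) * (a - β • 1) = 0 := by
    have e1 : (a - α • (1 : Module.End k V)) * (a - β • 1) =
        a * a - (α + β) • a + (α * β) • (1 : Module.End k V) := by
      simp only [sub_mul, mul_sub, smul_mul_assoc, mul_smul_comm, one_mul, mul_one]
      module
    have e2 : α + β = T := by rw [hβ]; ring
    have e3 : α * β = n := by rw [hβ]; linear_combination -hα
    rw [e1, e2, e3, hTn]
  have hfac' : (a - β • 1) * (a - α • 1) = 0 := by
    have : (a - β • (1 : Module.End k V)) * (a - α • 1) = (a - α • 1) * (a - β • 1) := by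
      simp only [sub_mul, mul_sub, smul_mul_assoc, mul_smul_comm, one_mul, mul_one]
      module
    rw [this, hfac]
  by_cases hαβ : α = β
  · -- nilpotent case
    set N : Module.End k V := a - α • 1 with hN
    have hNN : N * N = 0 := by
      have := hfac
      rw [← hαβ] at this
      exact this
    have hN0 : N ≠ 0 := by
      intro h0
      apply hns α
      rw [hN, sub_eq_zero] at h0
      exact h0
    have hNA : N ∈ A := A.sub_mem ha (PG_smul_one_mem A α)
    obtain ⟨w, hw⟩ : ∃ w : V, N w ≠ 0 := by
      by_contra hcon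
      push Not at hcon
      apply hN0
      ext w
      simpa using hcon w
    obtain ⟨b, hb, hbw⟩ := PG_cyclic hirr hw w
    have hcA : b * N ∈ A := A.mul_mem hb hNA
    obtain ⟨T', n', hc⟩ := hquad (b * N) hcA
    have hcw : (b * N) w = w := by simpa using hbw
    have hcx : (b * N) (N w) = 0 := by
      have : N (N w) = 0 := by
        have := congrArg (fun f : Module.End k V => f w) hNN
        simpa using this
      show b (N (N w)) = 0
      rw [this, map_zero]
    have hn' : n' = 0 := by
      have := congrArg (fun f : Module.End k V => f (N w)) hc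
      simp only [LinearMap.add_apply, LinearMap.sub_apply, Module.End.mul_apply,
        LinearMap.smul_apply, Module.End.one_apply, LinearMap.zero_apply] at this
      rw [show b (N (N w)) = 0 from hcx] at this
      simp only [map_zero, smul_zero, sub_zero, zero_add] at this
      rcases smul_eq_zero.mp this with h | h
      · exact h
      · exact absurd h hw
    have hw0 : w ≠ 0 := by
      rintro rfl
      apply hw
      simp
    have hT' : T' = 1 := by
      have := congrArg (fun f : Module.End k V => f w) hc
      simp only [LinearMap.add_apply, LinearMap.sub_apply, Module.End.mul_apply,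
        LinearMap.smul_apply, Module.End.one_apply, LinearMap.zero_apply] at this
      have hcw' : b (N w) = w := hbw
      rw [hcw', hcw', hn', zero_smul, add_zero] at this
      have h1 : (1 - T') • w = 0 := by rw [sub_smul, one_smul]; exact this
      rcases smul_eq_zero.mp h1 with h | h
      · linear_combination -h
      · exact absurd h hw0
    refine ⟨b * N, hcA, ?_, ?_, ?_⟩
    · rw [hn', hT', one_smul, zero_smul, add_zero, sub_eq_zero] at hc
      exact hc
    · intro h0
      rw [h0] at hcw
      exact hw0 (by simpa using hcw.symm)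
    · intro h1
      rw [h1] at hcx
      exact hw (by simpa using hcx)
  · -- two distinct roots
    have hne : α - β ≠ 0 := sub_ne_zero.mpr hαβ
    refine ⟨(α - β)⁻¹ • (a - β • 1), A.smul_mem (A.sub_mem ha (PG_smul_one_mem A β)) _, ?_, ?_, ?_⟩
    · have e1 : (a - β • (1 : Module.End k V)) * (a - β • 1) = (α - β) • (a - β • 1) := by
        have : (a - β • (1 : Module.End k V)) = (a - α • 1) + (α - β) • 1 := by
          rw [sub_smul]; abel
        calc (a - β • (1 : Module.End k V)) * (a - β • 1)
            = ((a - α • 1) + (α - β) • 1) * (a - β • 1) := by rw [← this]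
          _ = (α - β) • (a - β • 1) := by
            rw [add_mul, hfac, zero_add, smul_mul_assoc, one_mul]
      rw [smul_mul_assoc, mul_smul_comm, e1, smul_smul, smul_smul]
      congr 1
      field_simp
    · intro h0
      apply hns β
      have := congrArg (fun z => (α - β) • z) h0
      simp only [smul_smul, mul_inv_cancel₀ hne, one_smul, smul_zero] at this
      exact sub_eq_zero.mp this
    · intro h1
      apply hns α
      have h2 : a - β • (1 : Module.End k V) = (α - β) • 1 := by
        have := congrArg (fun z => (α - β) • z) h1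
        simp only [smul_smul, mul_inv_cancel₀ hne, one_smul] at this
        exact this
      have h3 : a = (a - β • (1 : Module.End k V)) + β • 1 := by abel
      rw [h3, h2, ← add_smul]
      congr 1
      ring

/-- **Peirce argument.** The image of a nontrivial idempotent of an irreducible quadratic algebra
is at most one-dimensional. -/
theorem PG_finrank_range_idempotent [FiniteDimensional k V] (hirr : PG_Irred A)
    (hquad : PG_Quad A) {e : Module.End k V} (he : e ∈ A) (hee : e * e = e) (he0 : e ≠ 0)
    (he1 : e ≠ 1) : Module.finrank k (LinearMap.range e) ≤ 1 := by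
  have hee' : ∀ x : V, e (e x) = e x := fun x => by
    have := congrArg (fun f : Module.End k V => f x) hee
    simpa using this
  -- a vector in the kernel part
  obtain ⟨w', hw'⟩ : ∃ w' : V, w' - e w' ≠ 0 := by
    by_contra hcon
    push Not at hcon
    apply he1
    ext x
    have := hcon x
    simp only [Module.End.one_apply]
    exact (sub_eq_zero.mp this).symm
  set w₁ : V := w' - e w' with hw₁
  have hew₁ : e w₁ = 0 := by rw [hw₁, map_sub, hee', sub_self]
  obtain ⟨z, hz⟩ : ∃ z : V, e z ≠ 0 := by
    by_contra hcon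
    push Not at hcon
    apply he0
    ext x
    simpa using hcon x
  obtain ⟨b, hb, hbz⟩ := PG_cyclic hirr hw' z
  set v₀ : V := e (b w₁) with hv₀
  have hv₀ne : v₀ ≠ 0 := by rw [hv₀, hbz]; exact hz
  have hev₀ : e v₀ = v₀ := by rw [hv₀, hee']
  set u : Module.End k V := e * b * (1 - e) with hu
  have huA : u ∈ A := A.mul_mem (A.mul_mem he hb) (A.sub_mem A.one_mem he)
  have huw : u w₁ = v₀ := by
    show e (b ((1 - e) w₁)) = v₀
    rw [LinearMap.sub_apply, Module.End.one_apply, hew₁, sub_zero]
  have huv : u v₀ = 0 := by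
    show e (b ((1 - e) v₀)) = 0
    rw [LinearMap.sub_apply, Module.End.one_apply, hev₀, sub_self, map_zero, map_zero]
  -- every `e b' v₀` is a multiple of `v₀`
  have key : ∀ b' ∈ A, ∃ T : k, e (b' v₀) = T • v₀ := by
    intro b' hb'
    have haA : e * b' * e ∈ A := A.mul_mem (A.mul_mem he hb') he
    obtain ⟨T, n, hx⟩ := hquad (e * b' * e + u) (A.add_mem haA huA)
    refine ⟨T, ?_⟩
    have hxw : (e * b' * e + u) w₁ = v₀ := by
      rw [LinearMap.add_apply, huw]
      show e (b' (e w₁)) + v₀ = v₀
      rw [hew₁, map_zero, map_zero, zero_add]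
    have hxv : (e * b' * e + u) v₀ = e (b' v₀) := by
      rw [LinearMap.add_apply, huv, add_zero]
      show e (b' (e v₀)) = e (b' v₀)
      rw [hev₀]
    have := congrArg (fun f : Module.End k V => e (f w₁)) hx
    simp only [LinearMap.add_apply, LinearMap.sub_apply, Module.End.mul_apply,
      LinearMap.smul_apply, Module.End.one_apply, LinearMap.zero_apply, map_add, map_sub,
      map_smul, map_zero] at this
    have hxw' : e (b' (e w₁)) + u w₁ = v₀ := by
      have := hxw
      simpa [LinearMap.add_apply, Module.End.mul_apply] using this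
    have hxv' : e (b' (e v₀)) + u v₀ = e (b' v₀) := by
      have := hxv
      simpa [LinearMap.add_apply, Module.End.mul_apply] using this
    -- rewrite the relation
    have h1 : (e * b' * e + u) ((e * b' * e + u) w₁) = e (b' v₀) := by rw [hxw, hxv]
    have h2 := congrArg (fun f : Module.End k V => f w₁) hx
    simp only [LinearMap.add_apply, LinearMap.sub_apply, LinearMap.smul_apply,
      Module.End.one_apply, LinearMap.zero_apply] at h2
    have h3 : ((e * b' * e + u) * (e * b' * e + u)) w₁ = e (b' v₀) := h1
    rw [h3] at h2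
    have h4 : (e * b' * e) w₁ + u w₁ = v₀ := hxw
    rw [h4] at h2
    -- apply `e`
    have h5 := congrArg (fun y : V => e y) h2
    simp only [map_add, map_sub, map_smul, map_zero, hee', hev₀, hew₁, smul_zero, add_zero] at h5
    exact sub_eq_zero.mp h5
  -- conclusion
  have hle : LinearMap.range e ≤ Submodule.span k {v₀} := by
    rintro y ⟨y', rfl⟩
    obtain ⟨b', hb', hb'y⟩ := PG_cyclic hirr hv₀ne (e y')
    obtain ⟨T, hT⟩ := key b' hb'
    rw [hb'y, hee'] at hT
    rw [hT]
    exact Submodule.smul_mem _ T (Submodule.mem_span_singleton_self v₀)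
  calc Module.finrank k (LinearMap.range e)
      ≤ Module.finrank k (Submodule.span k {v₀}) := Submodule.finrank_mono hle
    _ = 1 := finrank_span_singleton hv₀ne

/-- **Dimension bound.** A finite-dimensional space with an irreducible action of an algebra all
of whose elements are quadratic (over an algebraically closed field) has dimension `≤ 2`. -/
theorem PG_finrank_le_two [IsAlgClosed k] [FiniteDimensional k V] (hirr : PG_Irred A)
    (hquad : PG_Quad A) : Module.finrank k V ≤ 2 := by
  by_cases hs : ∀ a ∈ A, ∃ c : k, a = c • (1 : Module.End k V)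
  · have := PG_finrank_le_one_of_scalar hirr hs
    omega
  · push Not at hs
    obtain ⟨a, ha, hns⟩ := hs
    obtain ⟨e, he, hee, he0, he1⟩ := PG_exists_idempotent hirr hquad ha hns
    have h1 := PG_finrank_range_idempotent hirr hquad he hee he0 he1
    have he' : (1 - e) * (1 - e) = 1 - e := by
      have : (1 - e) * (1 - e) = 1 - e - e + e * e := by noncomm_ring
      rw [this, hee]; abel
    have h2 := PG_finrank_range_idempotent hirr hquad (A.sub_mem A.one_mem he) he'
      (fun h => he1 (sub_eq_zero.mp h).symm) (fun h => he0 (by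
        have : e = 1 - (1 - e) := by abel
        rw [this, h, sub_self]))
    have hker : LinearMap.ker e = LinearMap.range (1 - e) := by
      ext x
      constructor
      · intro hx
        refine ⟨x, ?_⟩
        rw [LinearMap.sub_apply, Module.End.one_apply, LinearMap.mem_ker.mp hx, sub_zero]
      · rintro ⟨y, rfl⟩
        rw [LinearMap.mem_ker, LinearMap.sub_apply, Module.End.one_apply, map_sub]
        have := congrArg (fun f : Module.End k V => f y) hee
        simp only [Module.End.mul_apply] at this
        rw [this, sub_self]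
    have hrn := LinearMap.finrank_range_add_finrank_ker e
    rw [hker] at hrn
    omega

end Irreducible

end Fermat.Agent.G_helper29_ALG
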