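import Mathlib
import Fermat.Prelude.Def_GaloisRep_Residual
import Fermat.Prelude.Def_ModularCurve_HeckeModule

/-!
# Project G, wiring definitions (helper29)

* `PG_Jp N p`  : the `p`-torsion of `JZero N` (the prelude `Pic0.torsion`), a `ZMod p`-module;
* `PG_Tp N p ℓ` : the Hecke operator `heckeOperatorBar N ℓ` restricted to `PG_Jp N p`, as a
  `ZMod p`-linear endomorphism;
* `PG_rp N p`  : the Galois action on `PG_Jp N p` (the prelude `JZero.torsionGaloisRep`).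

These are the objects in which the interface statement (E2) and the final wiring are stated.

* `PG_E2_statement N g p k φ` : (E2) EigenformSupport, the contract between the E2 assembly
  and the wiring: a nonzero class in `k ⊗ J₀(N)[p]` with Hecke eigenvalues `φ (a_ℓ g)`;
* `PG_E1_statement N p` : (E1) the Eichler-Shimura relations on `J₀(N)[p]`
  (this is `S37EP_relations` with `n = 1`, once its two inputs are on main).
-/

set_option autoImplicit false

namespace Fermat.Agent.G_helper29_WDefs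

open ModularCurve AlgebraicCurve
open scoped TensorProduct

noncomputable section

/-- The `p`-torsion of `J₀(N)(ℚ̄)`. -/
abbrev PG_Jp (N p : ℕ) : AddSubgroup (JZero N) :=
  Pic0.torsion (AlgebraicClosure ℚ) (modularFunctionFieldBar N) p

theorem PG_mem_Jp {N p : ℕ} {x : JZero N} : x ∈ PG_Jp N p ↔ p • x = 0 := by
  rw [Pic0.mem_torsion, natCast_zsmul]

theorem PG_hecke_mem_Jp {N p : ℕ} [NeZero N] (ℓ : Nat.Primes) {x : JZero N}
    (hx : x ∈ PG_Jp N p) : heckeOperatorBar N ℓ x ∈ PG_Jp N p := by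
  rw [PG_mem_Jp] at hx ⊢
  rw [← map_nsmul, hx, map_zero]

/-- The Hecke operator `T_ℓ` on the `p`-torsion, as an additive map. -/
def PG_TpAdd (N p : ℕ) [NeZero N] (ℓ : Nat.Primes) : PG_Jp N p →+ PG_Jp N p where
  toFun x := ⟨heckeOperatorBar N ℓ (x : JZero N), PG_hecke_mem_Jp ℓ x.2⟩
  map_zero' := Subtype.ext (by simp)
  map_add' x y := Subtype.ext (by simp)

/-- The Hecke operator `T_ℓ` on the `p`-torsion, as a `ZMod p`-linear endomorphism. -/
def PG_Tp (N p : ℕ) [NeZero N] (ℓ : Nat.Primes) : Module.End (ZMod p) (PG_Jp N p) :=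
  (PG_TpAdd N p ℓ).toZModLinearMap p

@[simp]
theorem PG_coe_Tp_apply (N p : ℕ) [NeZero N] (ℓ : Nat.Primes) (x : PG_Jp N p) :
    ((PG_Tp N p ℓ x : PG_Jp N p) : JZero N) = heckeOperatorBar N ℓ (x : JZero N) := rfl

/-- The Galois action on the `p`-torsion. -/
abbrev PG_rp (N p : ℕ) :
    (AlgebraicClosure ℚ ≃ₐ[ℚ] AlgebraicClosure ℚ) →* Module.End (ZMod p) (PG_Jp N p) :=
  JZero.torsionGaloisRep N p

theorem PG_coe_rp_apply (N p : ℕ) (σ : AlgebraicClosure ℚ ≃ₐ[ℚ] AlgebraicClosure ℚ)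
    (x : PG_Jp N p) : ((PG_rp N p σ x : PG_Jp N p) : JZero N) = σ • (x : JZero N) := rfl

/-- **(E2) EigenformSupport**: a nonzero class in `k ⊗ J₀(N)[p]` on which every `T_ℓ`
(`ℓ ∤ N p`) acts through `φ (a_ℓ(g))`. -/
def PG_E2_statement (N : ℕ) [NeZero N] (g : CuspForm (CongruenceSubgroup.Gamma0 N) 2)
    (p : ℕ) (k : Type) [Field k] [Algebra (ZMod p) k] (φ : integralClosure ℤ ℂ →+* k) : Prop :=
  ∃ x : k ⊗[ZMod p] (PG_Jp N p), x ≠ 0 ∧
    ∀ ℓ : Nat.Primes, ¬ (ℓ : ℕ) ∣ N * p →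
      ∃ a : integralClosure ℤ ℂ, (a : ℂ) = ModularFormClass.qCoeff g ℓ ∧
        (PG_Tp N p ℓ).baseChange k x = φ a • x

/-- **(E1)** the Eichler-Shimura relations on `J₀(N)[p]`: inertia at `ℓ ∤ N p` acts trivially
and every Frobenius lift `σ` satisfies `σ² - T_ℓ σ + ℓ = 0`. -/
def PG_E1_statement (N p : ℕ) [NeZero N] : Prop :=
  ∀ (ℓ : ℕ) (hℓ : ℓ.Prime), ¬ ℓ ∣ N * p →
    ∀ A : ValuationSubring (AlgebraicClosure ℚ), A.LiesOverPrime ℓ →
      ∀ x : JZero N, p • x = 0 →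
        (∀ σ ∈ A.inertiaSubgroupIn ℚ, σ • x = x) ∧
          ∀ σ : AlgebraicClosure ℚ ≃ₐ[ℚ] AlgebraicClosure ℚ, A.IsFrobeniusAt σ ℓ →
            σ • σ • x - heckeOperatorBar N ⟨ℓ, hℓ⟩ (σ • x) + ℓ • x = 0

end

end Fermat.Agent.G_helper29_WDefs
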