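import Mathlib
import Fermat.Prelude.Def_GaloisRep_Residual
import Fermat.Agent.G_helper29_ALG

/-!
# Project G: the abstract wiring theorem (helper29)

`PG_wire_abstract`: let `k` be a field, `V` a `k`-vector space with an action `r` of
`GQ = Gal(ℚ̄/ℚ)` and operators `T ℓ` commuting with it, such that every vector has an open
stabiliser, `r` is trivial on inertia at the primes outside a finite set `S ∋ p`, and every
Frobenius lift `σ` at `ℓ ∉ S` satisfies `σ² - T_ℓ σ + ℓ = 0`. If `x ≠ 0` is a simultaneous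
eigenvector of the `T ℓ` (`ℓ ∉ S`) with eigenvalues `a ℓ`, there is a two-dimensional
representation `ρ` of `GQ` over `k`, factoring through a finite level, unramified outside `S`,
with `charpoly (ρ σ) = X² - a_ℓ X + ℓ` for every Frobenius lift `σ` at `ℓ ∉ S`.

The three inputs (Frobenius density, the algebra lemma for quadratic relations, the mod `p`
cyclotomic character) enter as the hypotheses `PG_FD_statement`, `PG_R2_statement`,
`PG_CYC_statement`.
-/

set_option autoImplicit false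
set_option linter.unusedSimpArgs false
set_option linter.unusedVariables false
set_option linter.unusedSectionVars false

open Polynomial

universe u

noncomputable section

namespace Fermat.Agent.G_helper29_WIRE

open Fermat.Agent.G_helper29_ALG

local notation "Qb" => AlgebraicClosure ℚ
local notation "GQ" => (AlgebraicClosure ℚ ≃ₐ[ℚ] AlgebraicClosure ℚ)

/-! ### the three inputs, as statements

The wiring is proved from the following three statements, which are supplied at the very end by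
the landed theorems (Frobenius density, the mod `p` cyclotomic character, the algebra lemma). -/

/-- Frobenius density (piece G9). -/
def PG_FD_statement : Prop :=
  ∀ (L : IntermediateField ℚ (AlgebraicClosure ℚ)) [FiniteDimensional ℚ L]
    (g : AlgebraicClosure ℚ ≃ₐ[ℚ] AlgebraicClosure ℚ) (S : Finset ℕ),
    ∃ (ℓ : ℕ) (A : ValuationSubring (AlgebraicClosure ℚ))
      (σ : AlgebraicClosure ℚ ≃ₐ[ℚ] AlgebraicClosure ℚ) (b : ℕ),
      ℓ.Prime ∧ ℓ ∉ S ∧ A.LiesOverPrime ℓ ∧ A.IsFrobeniusAt σ ℓ ∧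
        ∀ x ∈ L, g x = (σ ^ b) x

/-- The algebra lemma (piece G10), for the group `GQ` and spaces in a fixed universe. -/
def PG_R2_statement (k : Type) [Field k] : Prop :=
  ∀ (W : Type u) [AddCommGroup W] [Module k W] [Module.Finite k W] [Nontrivial W]
    (r : GQ →* Module.End k W) (d : GQ →* kˣ),
    (∀ g : GQ, ∃ t : k,
      r g * r g - t • r g + ((d g : kˣ) : k) • (1 : Module.End k W) = 0) →
    ∃ ρ : GQ →* Module.End k (Fin 2 → k),
      (∀ g, r g = 1 → d g = 1 → ρ g = 1) ∧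
      ∀ (g : GQ) (t : k),
        r g * r g - t • r g + ((d g : kˣ) : k) • (1 : Module.End k W) = 0 →
        LinearMap.charpoly (ρ g) = X ^ 2 - C t * X + C ((d g : kˣ) : k)

/-- The mod `p` cyclotomic character with values in `k` (piece CYC). -/
def PG_CYC_statement (p : ℕ) (k : Type*) [Field k] : Prop :=
  ∃ d : GQ →* kˣ,
    (∃ L : IntermediateField ℚ Qb, FiniteDimensional ℚ L ∧
      ∀ σ : GQ, (∀ x ∈ L, σ x = x) → d σ = 1) ∧
    (∀ ℓ : ℕ, ℓ.Prime → ℓ ≠ p → ∀ A : ValuationSubring Qb, A.LiesOverPrime ℓ →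
      ∀ σ ∈ A.inertiaSubgroupIn ℚ, d σ = 1) ∧
    (∀ ℓ : ℕ, ℓ.Prime → ℓ ≠ p → ∀ A : ValuationSubring Qb, A.LiesOverPrime ℓ →
      ∀ σ : GQ, A.IsFrobeniusAt σ ℓ → ((d σ : kˣ) : k) = (ℓ : k))

/-! ### finite orbits -/

section Orbit

variable {k : Type*} [Field k] {V : Type*} [AddCommGroup V] [Module k V]
  (r : GQ →* Module.End k V)

/-- If the fixator of a finite extension `L` fixes `x`, the orbit of `x` is finite. -/
theorem PGW_finite_orbit (x : V) (L : IntermediateField ℚ Qb) [FiniteDimensional ℚ L]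
    (hL : ∀ σ : GQ, (∀ a ∈ L, σ a = a) → r σ x = x) :
    (Set.range fun σ : GQ => r σ x).Finite := by
  classical
  let res : GQ → (L →ₐ[ℚ] Qb) := fun σ => (σ : Qb →ₐ[ℚ] Qb).comp L.val
  have hfac : ∀ σ τ : GQ, res σ = res τ → r σ x = r τ x := by
    intro σ τ h
    have hfix : ∀ a ∈ L, (τ⁻¹ * σ) a = a := by
      intro a ha
      have h1 : σ a = τ a := congrArg (fun e : L →ₐ[ℚ] Qb => e ⟨a, ha⟩) h
      rw [AlgEquiv.mul_apply, h1]
      exact τ.symm_apply_apply a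
    have h2 := hL _ hfix
    rw [map_mul, Module.End.mul_apply] at h2
    have h3 : r τ ((r τ⁻¹) ((r σ) x)) = r τ x := congrArg (fun v => r τ v) h2
    rw [← Module.End.mul_apply, ← map_mul, mul_inv_cancel, map_one, Module.End.one_apply] at h3
    exact h3
  have : Finite (L →ₐ[ℚ] Qb) := inferInstance
  let F : (L →ₐ[ℚ] Qb) → V := Function.extend res (fun σ => r σ x) 0
  have hF : ∀ σ : GQ, F (res σ) = r σ x := by
    intro σ
    have hft : Function.FactorsThrough (fun σ : GQ => r σ x) res := fun σ τ h => hfac σ τ h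
    exact hft.extend_apply 0 σ
  refine (Set.finite_range F).subset ?_
  rintro _ ⟨σ, rfl⟩
  exact ⟨res σ, hF σ⟩

/-- Finitely many vectors with open stabilisers have a common finite level. -/
theorem PGW_common_level (s : Set V) (hs : s.Finite)
    (h : ∀ v ∈ s, ∃ L : IntermediateField ℚ Qb, FiniteDimensional ℚ L ∧
      ∀ σ : GQ, (∀ a ∈ L, σ a = a) → r σ v = v) :
    ∃ L : IntermediateField ℚ Qb, FiniteDimensional ℚ L ∧
      ∀ σ : GQ, (∀ a ∈ L, σ a = a) → ∀ v ∈ s, r σ v = v := by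
  induction s, hs using Set.Finite.induction_on with
  | empty =>
    exact ⟨⊥, inferInstance, fun σ _ v hv => absurd hv (Set.notMem_empty v)⟩
  | @insert v s hv hs ih =>
    obtain ⟨L₁, hL₁, h₁⟩ := ih (fun w hw => h w (Set.mem_insert_of_mem v hw))
    obtain ⟨L₂, hL₂, h₂⟩ := h v (Set.mem_insert v s)
    refine ⟨L₁ ⊔ L₂, inferInstance, fun σ hσ w hw => ?_⟩
    rcases hw with rfl | hw
    · exact h₂ σ (fun a ha => hσ a ((le_sup_right : L₂ ≤ L₁ ⊔ L₂) ha))
    · exact h₁ σ (fun a ha => hσ a ((le_sup_left : L₁ ≤ L₁ ⊔ L₂) ha)) w hw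

end Orbit

/-! ### the abstract wiring theorem -/

section Wire

variable {p : ℕ} {k : Type} [Field k] {V : Type u} [AddCommGroup V] [Module k V]

/-- the span of the orbit of `x` -/
def PGW_orbitSpan (r : GQ →* Module.End k V) (x : V) : Submodule k V :=
  Submodule.span k (Set.range fun σ : GQ => r σ x)

theorem PGW_mem_orbitSpan (r : GQ →* Module.End k V) (x : V) : x ∈ PGW_orbitSpan r x := by
  refine Submodule.subset_span ⟨1, ?_⟩
  simp

theorem PGW_orbitSpan_stable (r : GQ →* Module.End k V) (x : V) (σ : GQ) :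
    ∀ w ∈ PGW_orbitSpan r x, r σ w ∈ PGW_orbitSpan r x := by
  intro w hw
  induction hw using Submodule.span_induction with
  | mem w hw =>
    obtain ⟨τ, rfl⟩ := hw
    refine Submodule.subset_span ⟨σ * τ, ?_⟩
    simp [map_mul]
  | zero => rw [map_zero]; exact Submodule.zero_mem _
  | add u v _ _ hu hv => rw [map_add]; exact Submodule.add_mem _ hu hv
  | smul c u _ hu => rw [map_smul]; exact Submodule.smul_mem _ c hu

/-- the restricted representation -/
def PGW_res (r : GQ →* Module.End k V) (x : V) : GQ →* Module.End k (PGW_orbitSpan r x) where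
  toFun σ := (r σ).restrict (PGW_orbitSpan_stable r x σ)
  map_one' := by
    ext w
    simp
  map_mul' σ τ := by
    ext w
    simp [map_mul]

@[simp]
theorem PGW_coe_res_apply (r : GQ →* Module.End k V) (x : V) (σ : GQ)
    (w : PGW_orbitSpan r x) : ((PGW_res r x σ w : PGW_orbitSpan r x) : V) = r σ (w : V) := rfl

theorem PGW_res_eq_one (r : GQ →* Module.End k V) (x : V) (σ : GQ)
    (h : ∀ w ∈ PGW_orbitSpan r x, r σ w = w) : PGW_res r x σ = 1 := by
  ext w
  exact h w w.2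

theorem PGW_eigen_orbitSpan (r : GQ →* Module.End k V) (x : V) (T : Module.End k V)
    (hTr : ∀ σ : GQ, T * r σ = r σ * T) (a : k) (hxa : T x = a • x) :
    ∀ w ∈ PGW_orbitSpan r x, T w = a • w := by
  intro w hw
  induction hw using Submodule.span_induction with
  | mem w hw =>
    obtain ⟨τ, rfl⟩ := hw
    show T (r τ x) = a • r τ x
    rw [← Module.End.mul_apply, hTr τ, Module.End.mul_apply, hxa, map_smul]
  | zero => rw [map_zero, smul_zero]
  | add u v _ _ hu hv => rw [map_add, hu, hv, smul_add]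
  | smul c u _ hu => rw [map_smul, hu, smul_comm]

theorem PGW_level_orbitSpan (r : GQ →* Module.End k V) (x : V)
    (hopen : ∀ v : V, ∃ L : IntermediateField ℚ Qb, FiniteDimensional ℚ L ∧
      ∀ σ : GQ, (∀ a ∈ L, σ a = a) → r σ v = v) :
    FiniteDimensional k (PGW_orbitSpan r x) ∧
    ∃ L : IntermediateField ℚ Qb, FiniteDimensional ℚ L ∧
      ∀ σ : GQ, (∀ a ∈ L, σ a = a) → ∀ w ∈ PGW_orbitSpan r x, r σ w = w := by
  obtain ⟨L₀, hL₀, h₀⟩ := hopen x
  have hfin : (Set.range fun σ : GQ => r σ x).Finite := PGW_finite_orbit r x L₀ h₀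
  refine ⟨FiniteDimensional.span_of_finite k hfin, ?_⟩
  obtain ⟨L, hL, h⟩ := PGW_common_level r _ hfin (fun v _ => hopen v)
  refine ⟨L, hL, fun σ hσ w hw => ?_⟩
  induction hw using Submodule.span_induction with
  | mem w hw => exact h σ hσ w hw
  | zero => rw [map_zero]
  | add u v _ _ hu hv => rw [map_add, hu, hv]
  | smul c u _ hu => rw [map_smul, hu]

/-- **Abstract wiring theorem.** -/
theorem PG_wire_abstract (hFD : PG_FD_statement) (hR2 : PG_R2_statement.{u} k)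
    (hCYC : PG_CYC_statement p k) (S : Finset ℕ) (hpS : p ∈ S)
    (r : GQ →* Module.End k V) (T : Nat.Primes → Module.End k V)
    (hTr : ∀ (ℓ : Nat.Primes) (σ : GQ), T ℓ * r σ = r σ * T ℓ)
    (hopen : ∀ v : V, ∃ L : IntermediateField ℚ Qb, FiniteDimensional ℚ L ∧
      ∀ σ : GQ, (∀ a ∈ L, σ a = a) → r σ v = v)
    (hunr : ∀ ℓ : ℕ, ℓ.Prime → ℓ ∉ S → ∀ A : ValuationSubring Qb, A.LiesOverPrime ℓ →
      ∀ σ ∈ A.inertiaSubgroupIn ℚ, r σ = 1)
    (hfrob : ∀ (ℓ : ℕ) (hℓ : ℓ.Prime), ℓ ∉ S → ∀ A : ValuationSubring Qb, A.LiesOverPrime ℓ →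
      ∀ σ : GQ, A.IsFrobeniusAt σ ℓ →
        r σ * r σ - T ⟨ℓ, hℓ⟩ * r σ + (ℓ : k) • (1 : Module.End k V) = 0)
    (a : Nat.Primes → k) (x : V) (hx : x ≠ 0)
    (hxa : ∀ ℓ : Nat.Primes, (ℓ : ℕ) ∉ S → T ℓ x = a ℓ • x) :
    ∃ ρ : GQ →* Module.End k (Fin 2 → k),
      GaloisFactorsThroughFiniteLevel ρ ∧
      (∀ ℓ : ℕ, ℓ.Prime → ℓ ∉ S → ∀ A : ValuationSubring Qb, A.LiesOverPrime ℓ →
        ∀ σ ∈ A.inertiaSubgroupIn ℚ, ρ σ = 1) ∧
      (∀ (ℓ : ℕ) (hℓ : ℓ.Prime), ℓ ∉ S → ∀ A : ValuationSubring Qb, A.LiesOverPrime ℓ →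
        ∀ σ : GQ, A.IsFrobeniusAt σ ℓ →
          LinearMap.charpoly (ρ σ) = X ^ 2 - C (a ⟨ℓ, hℓ⟩) * X + C (ℓ : k)) := by
  classical
  -- the space
  obtain ⟨hWfin, L₁, hL₁, hL₁fix⟩ := PGW_level_orbitSpan r x hopen
  have : Module.Finite k (PGW_orbitSpan r x) := hWfin
  have : Nontrivial (PGW_orbitSpan r x) :=
    ⟨⟨⟨x, PGW_mem_orbitSpan r x⟩, 0, fun h => hx (congrArg Subtype.val h)⟩⟩
  -- the character
  obtain ⟨d, ⟨L₂, hL₂, hL₂fix⟩, hdin, hdfr⟩ := hCYC
  have hpne : ∀ ℓ : ℕ, ℓ ∉ S → ℓ ≠ p := fun ℓ hℓ h => hℓ (h ▸ hpS)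
  -- relation on Frobenius elements, on `W`
  have hrelF : ∀ (ℓ : ℕ) (hℓ : ℓ.Prime), ℓ ∉ S → ∀ A : ValuationSubring Qb,
      A.LiesOverPrime ℓ → ∀ σ : GQ, A.IsFrobeniusAt σ ℓ →
        PGW_res r x σ * PGW_res r x σ - a ⟨ℓ, hℓ⟩ • PGW_res r x σ +
          ((d σ : kˣ) : k) • (1 : Module.End k (PGW_orbitSpan r x)) = 0 := by
    intro ℓ hℓ hℓS A hA σ hσ
    rw [hdfr ℓ hℓ (hpne ℓ hℓS) A hA σ hσ]
    ext w
    have h1 := congrArg (fun f : Module.End k V => f (w : V)) (hfrob ℓ hℓ hℓS A hA σ hσ)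
    simp only [LinearMap.add_apply, LinearMap.sub_apply, Module.End.mul_apply,
      LinearMap.smul_apply, Module.End.one_apply, LinearMap.zero_apply] at h1
    have h2 : T ⟨ℓ, hℓ⟩ (r σ (w : V)) = a ⟨ℓ, hℓ⟩ • r σ (w : V) :=
      PGW_eigen_orbitSpan r x (T ⟨ℓ, hℓ⟩) (hTr ⟨ℓ, hℓ⟩) (a ⟨ℓ, hℓ⟩) (hxa ⟨ℓ, hℓ⟩ hℓS) _
        (PGW_orbitSpan_stable r x σ w w.2)
    rw [h2] at h1
    simp only [LinearMap.add_apply, LinearMap.sub_apply, Module.End.mul_apply,
      LinearMap.smul_apply, Module.End.one_apply, LinearMap.zero_apply, Submodule.coe_add,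
      Submodule.coe_sub, Submodule.coe_smul, PGW_coe_res_apply, Submodule.coe_zero]
    exact h1
  -- relation on all elements
  have hrel : ∀ g : GQ, ∃ t : k, PGW_res r x g * PGW_res r x g - t • PGW_res r x g +
      ((d g : kˣ) : k) • (1 : Module.End k (PGW_orbitSpan r x)) = 0 := by
    intro g
    have : FiniteDimensional ℚ (L₁ ⊔ L₂ : IntermediateField ℚ Qb) := inferInstance
    obtain ⟨ℓ, A, σ, b, hℓ, hℓS, hA, hσ, hgσ⟩ := hFD (L₁ ⊔ L₂) g S
    have hfix : ∀ y ∈ (L₁ ⊔ L₂ : IntermediateField ℚ Qb), ((σ ^ b)⁻¹ * g) y = y := by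
      intro y hy
      rw [AlgEquiv.mul_apply, hgσ y hy]
      exact (σ ^ b).symm_apply_apply y
    have e1 : PGW_res r x ((σ ^ b)⁻¹ * g) = 1 :=
      PGW_res_eq_one r x _ (hL₁fix _ (fun y hy => hfix y ((le_sup_left : L₁ ≤ L₁ ⊔ L₂) hy)))
    have e2 : d ((σ ^ b)⁻¹ * g) = 1 :=
      hL₂fix _ (fun y hy => hfix y ((le_sup_right : L₂ ≤ L₁ ⊔ L₂) hy))
    have e3 : PGW_res r x g = PGW_res r x σ ^ b := by
      have : g = σ ^ b * ((σ ^ b)⁻¹ * g) := by group
      rw [this, map_mul, e1, mul_one, map_pow]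
    have e4 : d g = d σ ^ b := by
      have : g = σ ^ b * ((σ ^ b)⁻¹ * g) := by group
      rw [this, map_mul, e2, mul_one, map_pow]
    obtain ⟨tj, htj⟩ := PG_pow_quadratic (PGW_res r x σ) (a ⟨ℓ, hℓ⟩) ((d σ : kˣ) : k)
      (hrelF ℓ hℓ hℓS A hA σ hσ) b
    refine ⟨tj, ?_⟩
    rw [e3, e4, Units.val_pow_eq_pow_val]
    exact htj
  obtain ⟨ρ, hρ1, hρ2⟩ := hR2 (PGW_orbitSpan r x) (PGW_res r x) d hrel
  refine ⟨ρ, ?_, ?_, ?_⟩
  · refine ⟨L₁ ⊔ L₂, inferInstance, fun σ hσ => ?_⟩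
    refine hρ1 σ (PGW_res_eq_one r x σ (hL₁fix σ
      (fun y hy => hσ y ((le_sup_left : L₁ ≤ L₁ ⊔ L₂) hy)))) ?_
    exact hL₂fix σ (fun y hy => hσ y ((le_sup_right : L₂ ≤ L₁ ⊔ L₂) hy))
  · intro ℓ hℓ hℓS A hA σ hσ
    refine hρ1 σ (PGW_res_eq_one r x σ ?_) (hdin ℓ hℓ (hpne ℓ hℓS) A hA σ hσ)
    intro w _
    rw [hunr ℓ hℓ hℓS A hA σ hσ, Module.End.one_apply]
  · intro ℓ hℓ hℓS A hA σ hσ
    have := hρ2 σ (a ⟨ℓ, hℓ⟩) (hrelF ℓ hℓ hℓS A hA σ hσ)
    rw [this, hdfr ℓ hℓ (hpne ℓ hℓS) A hA σ hσ]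

end Wire

end Fermat.Agent.G_helper29_WIRE

end
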