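import Mathlib
import Fermat.Prelude.Def_GaloisRep_Residual
import Fermat.Prelude.Def_ModularCurve_HeckeModule
import Fermat.Agent.G_helper29_WDefs
import Fermat.Agent.G_helper29_WIRE

/-!
# Project G: the concrete wiring (helper29)

* `PG_wire_tensor`: the abstract wiring theorem for `V = k ⊗[ZMod p] M`, `M` a `ZMod p`-module
  with a Galois action and Hecke operators;
* `PG_core`: from (E1), (E2), the Galois-Hecke commutation, open stabilisers and the three inputs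
  of `PG_wire_abstract`, the residual representation attached to an eigenform, over any field `k`
  which is a `ZMod p`-algebra and for which the algebra lemma holds.
-/

set_option autoImplicit false
set_option linter.unusedSimpArgs false
set_option linter.unusedVariables false
set_option linter.unusedSectionVars false

open Polynomial ModularCurve AlgebraicCurve
open scoped TensorProduct

noncomputable section

namespace Fermat.Agent.G_helper29_CORE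

open Fermat.Agent.G_helper29_WDefs Fermat.Agent.G_helper29_WIRE

local notation "Qb" => AlgebraicClosure ℚ
local notation "GQ" => (AlgebraicClosure ℚ ≃ₐ[ℚ] AlgebraicClosure ℚ)
local notation "Zbar" => integralClosure ℤ ℂ

section Tensor

variable {p : ℕ} {k : Type} [Field k] [Algebra (ZMod p) k]
  {M : Type} [AddCommGroup M] [Module (ZMod p) M]

/-- base change of endomorphisms, as a monoid homomorphism -/
def PGC_bc (p : ℕ) (k : Type) [Field k] [Algebra (ZMod p) k]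
    (M : Type) [AddCommGroup M] [Module (ZMod p) M] :
    Module.End (ZMod p) M →* Module.End k (k ⊗[ZMod p] M) :=
  (Module.End.baseChangeHom (ZMod p) k M : Module.End (ZMod p) M →* Module.End k (k ⊗[ZMod p] M))

theorem PGC_bc_apply (f : Module.End (ZMod p) M) : PGC_bc p k M f = f.baseChange k := rfl

theorem PGC_bc_tmul (f : Module.End (ZMod p) M) (c : k) (y : M) :
    PGC_bc p k M f (c ⊗ₜ[ZMod p] y) = c ⊗ₜ[ZMod p] f y := rfl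

theorem PGC_bc_rel (f T : Module.End (ZMod p) M) (ℓ : ℕ)
    (h : f * f - T * f + (ℓ : ZMod p) • (1 : Module.End (ZMod p) M) = 0) :
    PGC_bc p k M f * PGC_bc p k M f - PGC_bc p k M T * PGC_bc p k M f +
      (ℓ : k) • (1 : Module.End k (k ⊗[ZMod p] M)) = 0 := by
  have h1 := congrArg (Module.End.baseChangeHom (ZMod p) k M) h
  rw [map_add, map_sub, map_mul, map_mul, map_smul, map_one, map_zero] at h1
  have h2 : (ℓ : k) • (1 : Module.End k (k ⊗[ZMod p] M)) =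
      (ℓ : ZMod p) • (1 : Module.End k (k ⊗[ZMod p] M)) := by
    rw [← algebraMap_smul k (ℓ : ZMod p) (1 : Module.End k (k ⊗[ZMod p] M)), map_natCast]
  rw [h2]
  exact h1

theorem PGC_open (r₀ : GQ →* Module.End (ZMod p) M)
    (hopen : ∀ y : M, ∃ L : IntermediateField ℚ Qb, FiniteDimensional ℚ L ∧
      ∀ σ : GQ, (∀ a ∈ L, σ a = a) → r₀ σ y = y) (v : k ⊗[ZMod p] M) :
    ∃ L : IntermediateField ℚ Qb, FiniteDimensional ℚ L ∧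
      ∀ σ : GQ, (∀ a ∈ L, σ a = a) → PGC_bc p k M (r₀ σ) v = v := by
  induction v using TensorProduct.induction_on with
  | zero => exact ⟨⊥, inferInstance, fun σ _ => map_zero _⟩
  | tmul c y =>
    obtain ⟨L, hL, h⟩ := hopen y
    refine ⟨L, hL, fun σ hσ => ?_⟩
    rw [PGC_bc_tmul, h σ hσ]
  | add u v hu hv =>
    obtain ⟨L₁, hL₁, h₁⟩ := hu
    obtain ⟨L₂, hL₂, h₂⟩ := hv
    refine ⟨L₁ ⊔ L₂, inferInstance, fun σ hσ => ?_⟩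
    rw [map_add, h₁ σ (fun a ha => hσ a ((le_sup_left : L₁ ≤ L₁ ⊔ L₂) ha)),
      h₂ σ (fun a ha => hσ a ((le_sup_right : L₂ ≤ L₁ ⊔ L₂) ha))]

/-- **The wiring theorem for `k ⊗[ZMod p] M`.** -/
theorem PG_wire_tensor (hFD : PG_FD_statement) (hR2 : PG_R2_statement.{0} k)
    (hCYC : PG_CYC_statement p k) (S : Finset ℕ) (hpS : p ∈ S)
    (r₀ : GQ →* Module.End (ZMod p) M) (T₀ : Nat.Primes → Module.End (ZMod p) M)
    (hTr : ∀ (ℓ : Nat.Primes) (σ : GQ), T₀ ℓ * r₀ σ = r₀ σ * T₀ ℓ)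
    (hopen : ∀ y : M, ∃ L : IntermediateField ℚ Qb, FiniteDimensional ℚ L ∧
      ∀ σ : GQ, (∀ a ∈ L, σ a = a) → r₀ σ y = y)
    (hunr : ∀ ℓ : ℕ, ℓ.Prime → ℓ ∉ S → ∀ A : ValuationSubring Qb, A.LiesOverPrime ℓ →
      ∀ σ ∈ A.inertiaSubgroupIn ℚ, r₀ σ = 1)
    (hfrob : ∀ (ℓ : ℕ) (hℓ : ℓ.Prime), ℓ ∉ S → ∀ A : ValuationSubring Qb, A.LiesOverPrime ℓ →
      ∀ σ : GQ, A.IsFrobeniusAt σ ℓ →
        r₀ σ * r₀ σ - T₀ ⟨ℓ, hℓ⟩ * r₀ σ + (ℓ : ZMod p) • (1 : Module.End (ZMod p) M) = 0)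
    (a : Nat.Primes → k) (x : k ⊗[ZMod p] M) (hx : x ≠ 0)
    (hxa : ∀ ℓ : Nat.Primes, (ℓ : ℕ) ∉ S → (T₀ ℓ).baseChange k x = a ℓ • x) :
    ∃ ρ : GQ →* Module.End k (Fin 2 → k),
      GaloisFactorsThroughFiniteLevel ρ ∧
      (∀ ℓ : ℕ, ℓ.Prime → ℓ ∉ S → ∀ A : ValuationSubring Qb, A.LiesOverPrime ℓ →
        ∀ σ ∈ A.inertiaSubgroupIn ℚ, ρ σ = 1) ∧
      (∀ (ℓ : ℕ) (hℓ : ℓ.Prime), ℓ ∉ S → ∀ A : ValuationSubring Qb, A.LiesOverPrime ℓ →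
        ∀ σ : GQ, A.IsFrobeniusAt σ ℓ →
          LinearMap.charpoly (ρ σ) = X ^ 2 - C (a ⟨ℓ, hℓ⟩) * X + C (ℓ : k)) := by
  refine PG_wire_abstract (V := k ⊗[ZMod p] M) hFD hR2 hCYC S hpS ((PGC_bc p k M).comp r₀)
    (fun ℓ => PGC_bc p k M (T₀ ℓ)) ?_ ?_ ?_ ?_ a x hx hxa
  · intro ℓ σ
    show PGC_bc p k M (T₀ ℓ) * PGC_bc p k M (r₀ σ) = PGC_bc p k M (r₀ σ) * PGC_bc p k M (T₀ ℓ)
    rw [← (PGC_bc p k M).map_mul, ← (PGC_bc p k M).map_mul, hTr ℓ σ]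
  · exact fun v => PGC_open r₀ hopen v
  · intro ℓ hℓ hℓS A hA σ hσ
    show PGC_bc p k M (r₀ σ) = 1
    rw [hunr ℓ hℓ hℓS A hA σ hσ, map_one]
  · intro ℓ hℓ hℓS A hA σ hσ
    exact PGC_bc_rel (r₀ σ) (T₀ ⟨ℓ, hℓ⟩) ℓ (hfrob ℓ hℓ hℓS A hA σ hσ)

end Tensor

section Concrete

/-- Galois-Hecke commutation on `JZero N` (piece G11 (i)). -/
def PG_GH_statement (N : ℕ) [NeZero N] : Prop :=
  ∀ (ℓ : Nat.Primes) (σ : GQ) (x : JZero N),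
    heckeOperatorBar N ℓ (σ • x) = σ • heckeOperatorBar N ℓ x

/-- Open stabilisers on `JZero N` (piece G11 (iv)). -/
def PG_OPEN_statement (N : ℕ) : Prop :=
  ∀ x : JZero N, ∃ L : IntermediateField ℚ Qb, FiniteDimensional ℚ L ∧
    ∀ σ : GQ, (∀ a ∈ L, σ a = a) → σ • x = x

variable {N p : ℕ}

theorem PGC_comm [NeZero N] (hGH : PG_GH_statement N) (ℓ : Nat.Primes) (σ : GQ) :
    PG_Tp N p ℓ * PG_rp N p σ = PG_rp N p σ * PG_Tp N p ℓ :=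
  LinearMap.ext fun y => Subtype.ext (hGH ℓ σ (y : JZero N))

theorem PGC_open_Jp (hOPEN : PG_OPEN_statement N) (y : PG_Jp N p) :
    ∃ L : IntermediateField ℚ Qb, FiniteDimensional ℚ L ∧
      ∀ σ : GQ, (∀ a ∈ L, σ a = a) → PG_rp N p σ y = y := by
  obtain ⟨L, hL, h⟩ := hOPEN (y : JZero N)
  exact ⟨L, hL, fun σ hσ => Subtype.ext (h σ hσ)⟩

theorem PGC_unr [NeZero N] (hE1 : PG_E1_statement N p) (ℓ : ℕ) (hℓ : ℓ.Prime)
    (hℓNp : ¬ ℓ ∣ N * p) (A : ValuationSubring Qb) (hA : A.LiesOverPrime ℓ) (σ : GQ)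
    (hσ : σ ∈ A.inertiaSubgroupIn ℚ) : PG_rp N p σ = 1 :=
  LinearMap.ext fun y => Subtype.ext
    ((hE1 ℓ hℓ hℓNp A hA (y : JZero N) (PG_mem_Jp.mp y.2)).1 σ hσ)

theorem PGC_frob [NeZero N] (hE1 : PG_E1_statement N p) (ℓ : ℕ) (hℓ : ℓ.Prime)
    (hℓNp : ¬ ℓ ∣ N * p) (A : ValuationSubring Qb) (hA : A.LiesOverPrime ℓ) (σ : GQ)
    (hσ : A.IsFrobeniusAt σ ℓ) :
    PG_rp N p σ * PG_rp N p σ - PG_Tp N p ⟨ℓ, hℓ⟩ * PG_rp N p σ +
      (ℓ : ZMod p) • (1 : Module.End (ZMod p) (PG_Jp N p)) = 0 := by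
  refine LinearMap.ext fun y => Subtype.ext ?_
  have h := (hE1 ℓ hℓ hℓNp A hA (y : JZero N) (PG_mem_Jp.mp y.2)).2 σ hσ
  have e : ((ℓ : ZMod p) • y : PG_Jp N p) = ℓ • y := Nat.cast_smul_eq_nsmul (ZMod p) ℓ y
  show ((PG_rp N p σ (PG_rp N p σ y) - PG_Tp N p ⟨ℓ, hℓ⟩ (PG_rp N p σ y) +
    (ℓ : ZMod p) • y : PG_Jp N p) : JZero N) = 0
  rw [e]
  exact h

/-- **The residual representation attached to an eigenform** (from the inputs). -/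
theorem PG_core (N : ℕ) [NeZero N] {g : CuspForm (CongruenceSubgroup.Gamma0 N) 2}
    {p : ℕ} (hp : p.Prime) {k : Type} [Field k] [Algebra (ZMod p) k] (φ : Zbar →+* k)
    (hFD : PG_FD_statement) (hR2 : PG_R2_statement.{0} k) (hCYC : PG_CYC_statement p k)
    (hGH : PG_GH_statement N) (hOPEN : PG_OPEN_statement N)
    (hE1 : PG_E1_statement N p) (hE2 : PG_E2_statement N g p k φ) :
    ∃ ρ : GQ →* Module.End k (Fin 2 → k),
      GaloisFactorsThroughFiniteLevel ρ ∧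
      (∀ ℓ : ℕ, ℓ.Prime → ¬ ℓ ∣ N * p → ∀ A : ValuationSubring Qb, A.LiesOverPrime ℓ →
        ∀ σ ∈ A.inertiaSubgroupIn ℚ, ρ σ = 1) ∧
      (∀ ℓ : ℕ, ℓ.Prime → ¬ ℓ ∣ N * p → ∀ A : ValuationSubring Qb, A.LiesOverPrime ℓ →
        ∀ σ : GQ, A.IsFrobeniusAt σ ℓ →
          ∃ a : Zbar, (a : ℂ) = ModularFormClass.qCoeff g ℓ ∧
            LinearMap.charpoly (ρ σ) = X ^ 2 - C (φ a) * X + C (ℓ : k)) := by
  classical
  obtain ⟨x, hx, hxa⟩ := hE2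
  have hNp : N * p ≠ 0 := Nat.mul_ne_zero (NeZero.ne N) hp.ne_zero
  have hS : ∀ ℓ : ℕ, ℓ.Prime → (ℓ ∉ (N * p).primeFactors ↔ ¬ ℓ ∣ N * p) := by
    intro ℓ hℓ
    rw [Nat.mem_primeFactors]
    constructor
    · intro h hd
      exact h ⟨hℓ, hd, hNp⟩
    · rintro h ⟨_, hd, _⟩
      exact h hd
  have hpS : p ∈ (N * p).primeFactors :=
    Nat.mem_primeFactors.mpr ⟨hp, Dvd.intro_left N rfl, hNp⟩
  let a : Nat.Primes → k := fun ℓ =>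
    if h : ¬ (ℓ : ℕ) ∣ N * p then φ (hxa ℓ h).choose else 0
  have ha : ∀ (ℓ : Nat.Primes) (h : ¬ (ℓ : ℕ) ∣ N * p), a ℓ = φ (hxa ℓ h).choose :=
    fun ℓ h => dif_pos h
  obtain ⟨ρ, hρ1, hρ2, hρ3⟩ := PG_wire_tensor (M := PG_Jp N p) hFD hR2 hCYC
    (N * p).primeFactors hpS (PG_rp N p) (PG_Tp N p)
    (fun ℓ σ => PGC_comm hGH ℓ σ) (fun y => PGC_open_Jp hOPEN y)
    (fun ℓ hℓ hℓS A hA σ hσ => PGC_unr hE1 ℓ hℓ ((hS ℓ hℓ).mp hℓS) A hA σ hσ)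
    (fun ℓ hℓ hℓS A hA σ hσ => PGC_frob hE1 ℓ hℓ ((hS ℓ hℓ).mp hℓS) A hA σ hσ)
    a x hx
    (fun ℓ hℓS => by
      have h := (hS ℓ ℓ.2).mp hℓS
      rw [ha ℓ h]
      exact (hxa ℓ h).choose_spec.2)
  refine ⟨ρ, hρ1, ?_, ?_⟩
  · intro ℓ hℓ hℓNp A hA σ hσ
    exact hρ2 ℓ hℓ ((hS ℓ hℓ).mpr hℓNp) A hA σ hσ
  · intro ℓ hℓ hℓNp A hA σ hσ
    have h : ¬ ((⟨ℓ, hℓ⟩ : Nat.Primes) : ℕ) ∣ N * p := hℓNp
    refine ⟨(hxa ⟨ℓ, hℓ⟩ h).choose, (hxa ⟨ℓ, hℓ⟩ h).choose_spec.1, ?_⟩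
    rw [hρ3 ℓ hℓ ((hS ℓ hℓ).mpr hℓNp) A hA σ hσ, ha ⟨ℓ, hℓ⟩ h]

end Concrete

end Fermat.Agent.G_helper29_CORE

end
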