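import Mathlib

set_option autoImplicit false

/-! # S18 block C: abstract two-chart setting (carriers = subrings of ONE ambient field `L`)

Everything is elementwise inside a field `L` (in the application `L = LaurentSeries K1`).
* `O`    : the base DVR (image of `O1` in `L`), uniformiser `π`;
* `j`    : the coordinate; chart `0` uses `x = j`, chart `∞` uses `x = j⁻¹`;
* `F1`   : the function field (a subfield of `L`);
* `V`    : the Gauss valuation ring of `F1` (a DVR with uniformiser `π`);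
* `A0`, `Ainf` : integral closures of `O[j]`, `O[j⁻¹]` in `F1`.
-/

namespace Fermat.Agent.S18_helper9_CDefs

variable {L : Type*} [Field L]

/-- `O[x]` inside `L`. -/
def adj (O : Subring L) (x : L) : Subring L := Subring.closure ((O : Set L) ∪ {x})

/-- `O[x, x⁻¹]` inside `L`. -/
def adjMid (O : Subring L) (x : L) : Subring L := Subring.closure ((O : Set L) ∪ {x, x⁻¹})

/-- `F1(h)` inside `L`. -/
def fadj (F1 : Subfield L) (h : L) : Subfield L := Subfield.closure ((F1 : Set L) ∪ {h})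

/-- Elements of the subfield `E` which are integral over the subring `R`. -/
def icl (R : Subring L) (E : Subfield L) : Subring L :=
  (integralClosure R L).toSubring ⊓ E.toSubring

theorem mem_icl {R : Subring L} {E : Subfield L} {x : L} :
    x ∈ icl R E ↔ IsIntegral R x ∧ x ∈ E := Iff.rfl

/-- `V[s] = ∑_{i<p} V s^i` as a set. -/
def vadj (V : Subring L) (s : L) (p : ℕ) : Set L :=
  {x | ∃ c : ℕ → L, (∀ i, c i ∈ V) ∧ x = ∑ i ∈ Finset.range p, c i * s ^ i}

/-- The Kummer idempotent `(1/p) ∑_{i<p} s^i`. -/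
noncomputable def kumIdem (p : ℕ) (s : L) : L := (p : L)⁻¹ * ∑ i ∈ Finset.range p, s ^ i

/-- One chart: `A` is the integral closure of `O[x]` in `F1`, `V` is its localisation at the
prime ideal `π A`. -/
structure Chart (O : Subring L) (π x : L) (F1 : Subfield L) (V A : Subring L) : Prop where
  mem_iff : ∀ y : L, y ∈ A ↔ IsIntegral (adj O x) y ∧ y ∈ F1
  x_inv_mem : x⁻¹ ∈ V
  le_V : A ≤ V
  sat : ∀ v ∈ V, π * v ∈ A → v ∈ A
  loc : ∀ v ∈ V, ∃ b ∈ A, b ≠ 0 ∧ b⁻¹ ∈ V ∧ v * b ∈ A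

/-- The data provided by block A. -/
structure Setup (O : Subring L) (π j : L) (F1 : Subfield L) (V A0 Ainf : Subring L) : Prop where
  dvr : IsDiscreteValuationRing O
  π_mem : π ∈ O
  π_irr : ∀ hπ : π ∈ O, Irreducible (⟨π, hπ⟩ : O)
  algClosed : ∀ x : L, IsAlgebraic O x → ∃ a ∈ O, ∃ b ∈ O, b ≠ 0 ∧ x * b = a
  j_trans : Transcendental O j
  j_mem : j ∈ F1
  O_le : (O : Set L) ⊆ F1
  finite : ∃ s : Finset L, ∀ x ∈ F1, ∃ c : L → L,
    (∀ y, c y ∈ Subfield.closure ((O : Set L) ∪ {j})) ∧ x = ∑ y ∈ s, c y * y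
  V_le : (V : Set L) ⊆ F1
  V_val : ∀ x ∈ F1, x ∈ V ∨ x⁻¹ ∈ V
  V_unif : ∀ x ∈ V, x⁻¹ ∉ V → ∃ v ∈ V, x = π * v
  π_nonunit : π⁻¹ ∉ V
  chart0 : Chart O π j F1 V A0
  chartInf : Chart O π j⁻¹ F1 V Ainf

/-- Block B output `[IG]` at one chart, elementwise: every maximal ideal `m ∋ π` of `A` is
generated, locally at `m`, by `π` and one more element `y` (i.e. `(A/π)_m` is a discrete valuation
ring or a field). -/
def IG (π : L) (A : Subring L) : Prop :=
  ∀ (hπ : π ∈ A) (m : Ideal A), m.IsMaximal → (⟨π, hπ⟩ : A) ∈ m →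
    ∃ y ∈ m, ∀ x ∈ m, ∃ c : A, c ∉ m ∧ ∃ a b : A, c * x = a * ⟨π, hπ⟩ + b * y

/-- Input from block D / X-A3: at every discrete valuation ring `P` of `F1` containing `O[1/π]`
(= every place of `F1/K1`), `f` is a unit times a `p`-th power. -/
def PowDiv (O : Subring L) (π : L) (F1 : Subfield L) (p : ℕ) (f : L) : Prop :=
  ∀ P : Subring L, (P : Set L) ⊆ F1 → O ≤ P → π⁻¹ ∈ P → (∀ x ∈ F1, x ∈ P ∨ x⁻¹ ∈ P) →
    IsDiscreteValuationRing P → ∃ ε g : L, ε ∈ P ∧ ε⁻¹ ∈ P ∧ g ∈ F1 ∧ f = ε * g ^ p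

/-- Input from block D: `f` is a `v`-unit whose reduction is a `p`-th power. -/
def RedPow (π : L) (V : Subring L) (p : ℕ) (f G : L) : Prop :=
  G ∈ V ∧ G⁻¹ ∈ V ∧ ∃ c ∈ V, f = G ^ p * (1 + π * c)

end Fermat.Agent.S18_helper9_CDefs
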