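import Fermat.Agent.S18_helper13_GAUSS2
import Fermat.Agent.S18_helper9_CDefs

/-!
# S18, block A: the concrete carriers of the two-chart setting (helper14)

The base is ABSTRACT: a discrete valuation ring `O` with fraction field `K1` and a residue map
`ρ : O →+* k` whose kernel is the maximal ideal (instantiated by X-A1 with `O = A ∩ K1`,
`k =` the residue field of `A`).  Everything lives inside the ambient field
`L = LaurentSeries K1`, in the shape of `S18_helper9_CDefs.Setup`:

* `gd O K1 ρ hρ`   : the Gauss data (`S18_helper13_GAUSS.GaussData`);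
* `OL O K1`        : the image of `O` in `L` (constant series);
* `πL O K1 ρ hρ`   : the uniformiser, as a constant series (`= (gd ..).πK`);
* `F1L K1 N`       : the function field `modularFunctionFieldFullC K1 N`, as a `Subfield L`;
* `VL O K1 ρ hρ N` : the Gauss valuation ring of `F1` (`= Vring ⊓ F1`);
* `A0L O K1 N`, `AinfL O K1 N` : the integral closures of `O[j]`, `O[j⁻¹]` in `F1`.
-/

set_option autoImplicit false

noncomputable section

open ModularCurve Fermat.Agent.S18_helper13_GAUSS Fermat.Agent.S18_helper9_CDefs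

namespace Fermat.Agent.S18A

section Basic

variable (O K1 : Type*) [CommRing O] [Field K1] [Algebra O K1] (N : ℕ)

/-- The constants of `O`, as a subring of `K1((q))`. -/
def OL : Subring (LaurentSeries K1) :=
  ((HahnSeries.C : K1 →+* LaurentSeries K1).comp (algebraMap O K1)).range

theorem mem_OL_iff {x : LaurentSeries K1} :
    x ∈ OL O K1 ↔ ∃ a : O, HahnSeries.C (algebraMap O K1 a) = x := Iff.rfl

theorem C_mem_OL (a : O) : HahnSeries.C (algebraMap O K1 a) ∈ OL O K1 := ⟨a, rfl⟩

/-- The function field `F1 = K1(j(q^d) : d ∣ N)`, as a subfield of `K1((q))`. -/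
def F1L : Subfield (LaurentSeries K1) := (modularFunctionFieldFullC K1 N).toSubfield

theorem mem_F1L_iff {x : LaurentSeries K1} :
    x ∈ F1L K1 N ↔ x ∈ modularFunctionFieldFullC K1 N := Iff.rfl

/-- The finite chart `A_0`: the integral closure of `O[j]` in `F1`. -/
def A0L : Subring (LaurentSeries K1) := icl (adj (OL O K1) (jqModC K1)) (F1L K1 N)

/-- The chart at infinity `A_∞`: the integral closure of `O[j⁻¹]` in `F1`. -/
def AinfL : Subring (LaurentSeries K1) := icl (adj (OL O K1) (jqModC K1)⁻¹) (F1L K1 N)

end Basic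

section Gauss

variable (O K1 : Type*) [CommRing O] [IsDomain O] [IsDiscreteValuationRing O] [Field K1]
  [Algebra O K1] [IsFractionRing O K1]
variable {k : Type*} [Field k] (ρ : O →+* k)
  (hρ : ∀ x : O, ρ x = 0 ↔ x ∈ IsLocalRing.maximalIdeal O) (N : ℕ)

/-- The Gauss data of the base. -/
def gd : GaussData O K1 k :=
  GaussData.ofDVR' O K1 k (algebraMap O K1) (IsFractionRing.injective O K1) ρ hρ

@[simp] theorem gd_inc : (gd O K1 ρ hρ).inc = algebraMap O K1 := rfl

@[simp] theorem gd_res : (gd O K1 ρ hρ).res = ρ := rfl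

/-- The uniformiser, as a constant series. -/
def πL : LaurentSeries K1 := (gd O K1 ρ hρ).πK

/-- The Gauss valuation ring of `F1`. -/
def VL : Subring (LaurentSeries K1) := (gd O K1 ρ hρ).Vring ⊓ (F1L K1 N).toSubring

theorem mem_VL_iff {x : LaurentSeries K1} :
    x ∈ VL O K1 ρ hρ N ↔ x ∈ (gd O K1 ρ hρ).Vring ∧ x ∈ modularFunctionFieldFullC K1 N :=
  Iff.rfl

end Gauss

end Fermat.Agent.S18A
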