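import Mathlib

set_option autoImplicit false

/-!
# S18 block A/B support: the residue field of the base is algebraically closed

* `S18RES_isAlgClosed_of_integrallyClosedIn`: if `A` is integrally closed in an algebraically
  closed field `K` and `A → k` is a surjective ring hom onto a field then `k` is algebraically
  closed.
* `S18RES_isAlgClosed_residueField`: the residue field of a valuation subring of an
  algebraically closed field is algebraically closed.
* `S18RES_isAlgClosed_of_surjective_ker`: transport of algebraic closedness between two
  surjective images of the same ring.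
* `S18RES_isAlgClosed_of_surjective`: for a local ring `O` and a surjective `ρ : O →+* k`
  with kernel the maximal ideal, `k` algebraically closed implies that
  `IsLocalRing.ResidueField O` is algebraically closed.
-/

namespace Fermat.Agent.S18_helper27_RESALGCL

open Polynomial

/-- If `A` is integrally closed in an algebraically closed field `K` and `A → k` is a surjective
ring hom onto a field, then `k` is algebraically closed. -/
theorem S18RES_isAlgClosed_of_integrallyClosedIn {A K k : Type*} [CommRing A] [Field K]
    [IsAlgClosed K] [Algebra A K] [IsIntegrallyClosedIn A K]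
    (hinj : Function.Injective (algebraMap A K)) [Field k]
    (ρ : A →+* k) (hρ : Function.Surjective ρ) : IsAlgClosed k := by
  have : Nontrivial A := hρ.nontrivial
  refine IsAlgClosed.of_exists_root k fun p hpm hpirr => ?_
  have hlift : p ∈ Polynomial.lifts ρ := by
    rw [Polynomial.mem_lifts]
    exact Polynomial.map_surjective ρ hρ p
  obtain ⟨P, hPp, hPdeg, hPm⟩ := Polynomial.lifts_and_natDegree_eq_and_monic hlift hpm
  have hdeg : (P.map (algebraMap A K)).degree ≠ 0 := by
    rw [hPm.degree_map, degree_eq_natDegree hPm.ne_zero, hPdeg]
    exact_mod_cast (Irreducible.natDegree_pos hpirr).ne'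
  obtain ⟨x, hx⟩ := IsAlgClosed.exists_root (P.map (algebraMap A K)) hdeg
  have hxint : IsIntegral A x := ⟨P, hPm, by rw [← eval_map]; exact hx⟩
  obtain ⟨a, rfl⟩ := IsIntegrallyClosedIn.algebraMap_eq_of_integral hxint
  have hPa : P.eval a = 0 := by
    apply hinj
    rw [map_zero, ← eval₂_hom, ← eval_map]
    exact hx
  refine ⟨ρ a, ?_⟩
  rw [← hPp, eval_map, eval₂_hom, hPa, map_zero]

/-- The residue field of a valuation subring of an algebraically closed field is algebraically
closed. -/
theorem S18RES_isAlgClosed_residueField {K : Type*} [Field K] [IsAlgClosed K]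
    (A : ValuationSubring K) : IsAlgClosed (IsLocalRing.ResidueField A) := by
  have : IsIntegrallyClosedIn A K := (isIntegrallyClosed_iff_isIntegrallyClosedIn K).mp inferInstance
  exact S18RES_isAlgClosed_of_integrallyClosedIn (A := A) (K := K) Subtype.val_injective
    (IsLocalRing.residue A) IsLocalRing.residue_surjective

/-- Transport of algebraic closedness between two surjective images of the same ring. -/
theorem S18RES_isAlgClosed_of_surjective_ker {O k k' : Type*} [CommRing O] [Field k]
    [IsAlgClosed k] [Field k'] (ρ : O →+* k) (ρ' : O →+* k')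
    (hρ : Function.Surjective ρ) (hρ' : Function.Surjective ρ')
    (hker : ∀ x, ρ x = 0 → ρ' x = 0) : IsAlgClosed k' := by
  have : Nontrivial O := hρ.nontrivial
  refine IsAlgClosed.of_exists_root k' fun p hpm hpirr => ?_
  have hlift : p ∈ Polynomial.lifts ρ' := by
    rw [Polynomial.mem_lifts]
    exact Polynomial.map_surjective ρ' hρ' p
  obtain ⟨P, hPp, hPdeg, hPm⟩ := Polynomial.lifts_and_natDegree_eq_and_monic hlift hpm
  have hdeg : (P.map ρ).degree ≠ 0 := by
    rw [hPm.degree_map, degree_eq_natDegree hPm.ne_zero, hPdeg]
    exact_mod_cast (Irreducible.natDegree_pos hpirr).ne'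
  obtain ⟨c, hc⟩ := IsAlgClosed.exists_root (P.map ρ) hdeg
  obtain ⟨a, rfl⟩ := hρ c
  have hPa : ρ (P.eval a) = 0 := by
    rw [← eval₂_hom, ← eval_map]
    exact hc
  refine ⟨ρ' a, ?_⟩
  rw [← hPp, eval_map, eval₂_hom]
  exact hker _ hPa

/-- For a local ring `O` and a surjective `ρ : O →+* k` whose kernel is the maximal ideal, with
`k` algebraically closed, the residue field of `O` is algebraically closed. -/
theorem S18RES_isAlgClosed_of_surjective {O k : Type*} [CommRing O] [IsLocalRing O] [Field k]
    [IsAlgClosed k] (ρ : O →+* k) (hsurj : Function.Surjective ρ)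
    (hker : ∀ x, ρ x = 0 ↔ x ∈ IsLocalRing.maximalIdeal O) :
    IsAlgClosed (IsLocalRing.ResidueField O) :=
  S18RES_isAlgClosed_of_surjective_ker ρ (IsLocalRing.residue O) hsurj
    IsLocalRing.residue_surjective
    (fun x hx => (IsLocalRing.residue_eq_zero_iff x).mpr ((hker x).mp hx))

/-- Conversely, the target of a surjective `ρ : O →+* k` with kernel the maximal ideal is
algebraically closed as soon as the residue field of `O` is. -/
theorem S18RES_isAlgClosed_target {O k : Type*} [CommRing O] [IsLocalRing O] [Field k]
    [IsAlgClosed (IsLocalRing.ResidueField O)] (ρ : O →+* k) (hsurj : Function.Surjective ρ)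
    (hker : ∀ x, ρ x = 0 ↔ x ∈ IsLocalRing.maximalIdeal O) :
    IsAlgClosed k :=
  S18RES_isAlgClosed_of_surjective_ker (IsLocalRing.residue O) ρ
    IsLocalRing.residue_surjective hsurj
    (fun x hx => (hker x).mpr ((IsLocalRing.residue_eq_zero_iff x).mp hx))

/-- The residue field of a valuation subring of `AlgebraicClosure ℚ` is algebraically closed. -/
theorem S18RES_isAlgClosed_residueField_Qbar (A : ValuationSubring (AlgebraicClosure ℚ)) :
    IsAlgClosed (IsLocalRing.ResidueField A) :=
  S18RES_isAlgClosed_residueField A

end Fermat.Agent.S18_helper27_RESALGCL
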