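import Mathlib
import Fermat.Prelude.Def_FLTPrelim_Ramification

set_option autoImplicit false

set_option linter.style.haveILetI false

namespace Fermat.Agent.S18_helper5_BASE

open Polynomial IntermediateField

local notation "Qb" => AlgebraicClosure ℚ

section Basic

variable (A : ValuationSubring Qb) {ℓ : ℕ}

theorem S18A1_val_int_le (a : ℤ) : A.valuation (a : Qb) ≤ 1 :=
  (A.valuation_le_one_iff _).2 (intCast_mem A a)

theorem S18A1_val_nat_le (a : ℕ) : A.valuation (a : Qb) ≤ 1 :=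
  (A.valuation_le_one_iff _).2 (natCast_mem A a)

theorem S18A1_val_l_lt (hA : A.LiesOverPrime ℓ) : A.valuation (ℓ : Qb) < 1 :=
  A.mem_nonunits_iff.1 hA

theorem S18A1_val_l_pos (hℓ : ℓ.Prime) : 0 < A.valuation (ℓ : Qb) :=
  (A.valuation.pos_iff).2 (Nat.cast_ne_zero.2 hℓ.ne_zero)

theorem S18A1_val_int_eq_one (hℓ : ℓ.Prime) (hA : A.LiesOverPrime ℓ) (a : ℤ)
    (ha : ¬ (ℓ : ℤ) ∣ a) : A.valuation (a : Qb) = 1 := by
  have hp : Prime (ℓ : ℤ) := Nat.prime_iff_prime_int.1 hℓ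
  obtain ⟨u, w, h⟩ := (hp.coprime_iff_not_dvd).2 ha
  refine le_antisymm (S18A1_val_int_le A a) ?_
  by_contra hlt
  rw [not_le] at hlt
  have h1 : ((u : Qb) * (ℓ : Qb) + (w : Qb) * (a : Qb)) = 1 := by
    have := congrArg (fun z : ℤ => (z : Qb)) h
    simpa using this
  have h2 : A.valuation ((u : Qb) * (ℓ : Qb)) < 1 := by
    rw [map_mul]
    exact mul_lt_one_of_nonneg_of_lt_one_right (S18A1_val_int_le A u) zero_le
      (S18A1_val_l_lt A hA)
  have h3 : A.valuation ((w : Qb) * (a : Qb)) < 1 := by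
    rw [map_mul]
    exact mul_lt_one_of_nonneg_of_lt_one_right (S18A1_val_int_le A w) zero_le hlt
  have := A.valuation.map_add_lt h2 h3
  rw [h1, map_one] at this
  exact lt_irrefl _ this

theorem S18A1_val_nat (hℓ : ℓ.Prime) (hA : A.LiesOverPrime ℓ) (n : ℕ) (hn : n ≠ 0) :
    ∃ e : ℕ, A.valuation (n : Qb) = A.valuation (ℓ : Qb) ^ e := by
  obtain ⟨e, n', hn', rfl⟩ := Nat.exists_eq_pow_mul_and_not_dvd hn ℓ hℓ.ne_one
  refine ⟨e, ?_⟩
  have h1 : A.valuation ((n' : ℤ) : Qb) = 1 :=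
    S18A1_val_int_eq_one A hℓ hA n' (by exact_mod_cast hn')
  push_cast at h1 ⊢
  rw [map_mul, map_pow, h1, mul_one]

/-- Valuations of nonzero rationals are commensurable with `v ℓ`. -/
theorem S18A1_val_rat (hℓ : ℓ.Prime) (hA : A.LiesOverPrime ℓ) (q : ℚ) (hq : q ≠ 0) :
    ∃ a b : ℕ, A.valuation (ℓ : Qb) ^ a * A.valuation (algebraMap ℚ Qb q)
      = A.valuation (ℓ : Qb) ^ b := by
  have hnum : q.num.natAbs ≠ 0 := Int.natAbs_ne_zero.2 (Rat.num_ne_zero.2 hq)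
  obtain ⟨b, hb⟩ := S18A1_val_nat A hℓ hA _ hnum
  obtain ⟨a, ha⟩ := S18A1_val_nat A hℓ hA _ q.den_ne_zero
  refine ⟨a, b, ?_⟩
  have hden : (q.den : Qb) ≠ 0 := Nat.cast_ne_zero.2 q.den_ne_zero
  have e : algebraMap ℚ Qb q * (q.den : Qb) = (q.num : Qb) := by
    rw [← map_natCast (algebraMap ℚ Qb), ← map_intCast (algebraMap ℚ Qb), ← map_mul,
      Rat.mul_den_eq_num]
  have hv : A.valuation ((q.num : ℤ) : Qb) = A.valuation ((q.num.natAbs : ℕ) : Qb) := by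
    rcases Int.natAbs_eq q.num with h | h
    · conv_lhs => rw [h]
      simp
    · conv_lhs => rw [h]
      simp
  rw [← ha, ← hb, ← hv, ← e, map_mul, mul_comm]

/-- A sum with a unique dominant term has the valuation of that term. -/
theorem S18A1_val_sum_eq {ι : Type*} [DecidableEq ι] (s : Finset ι) (f : ι → Qb) (i0 : ι)
    (hi0 : i0 ∈ s)
    (h : ∀ i ∈ s, i ≠ i0 → A.valuation (f i) < A.valuation (f i0)) :
    A.valuation (∑ i ∈ s, f i) = A.valuation (f i0) := by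
  rw [← Finset.add_sum_erase s f hi0]
  by_cases h0 : A.valuation (f i0) = 0
  · have hem : s.erase i0 = ∅ := by
      rw [Finset.eq_empty_iff_forall_notMem]
      intro i hi
      have := h i (Finset.mem_of_mem_erase hi) (Finset.ne_of_mem_erase hi)
      rw [h0] at this
      exact not_lt_zero this
    rw [hem, Finset.sum_empty, add_zero]
  · apply A.valuation.map_add_eq_of_lt_left
    apply A.valuation.map_sum_lt h0
    intro i hi
    exact h i (Finset.mem_of_mem_erase hi) (Finset.ne_of_mem_erase hi)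

/-- Elements with pairwise incommensurable valuations are linearly independent over `ℚ`. -/
theorem S18A1_linIndep (hℓ : ℓ.Prime) (hA : A.LiesOverPrime ℓ) {ι : Type*} (z : ι → Qb)
    (hz : ∀ i, z i ≠ 0)
    (hinc : ∀ i j, i ≠ j → ∀ a b : ℕ,
      A.valuation (ℓ : Qb) ^ a * A.valuation (z i) ≠ A.valuation (ℓ : Qb) ^ b * A.valuation (z j)) :
    LinearIndependent ℚ z := by
  classical
  rw [linearIndependent_iff']
  intro s g hsum
  by_contra hcon
  push Not at hcon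
  obtain ⟨i1, hi1, hg1⟩ := hcon
  set s' := s.filter (fun i => g i ≠ 0) with hs'
  have hne : s'.Nonempty := ⟨i1, by simp [hs', hi1, hg1]⟩
  obtain ⟨i0, hi0, hmax⟩ := Finset.exists_max_image s' (fun i => A.valuation (g i • z i)) hne
  have hi0s : i0 ∈ s := (Finset.mem_filter.1 hi0).1
  have hg0 : g i0 ≠ 0 := (Finset.mem_filter.1 hi0).2
  have hpos : ∀ i, g i ≠ 0 → A.valuation (g i • z i) ≠ 0 := by
    intro i hgi
    rw [Ne, Valuation.zero_iff, Algebra.smul_def]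
    exact mul_ne_zero (by simpa using hgi) (hz i)
  have hℓ0 : A.valuation (ℓ : Qb) ≠ 0 := (S18A1_val_l_pos A hℓ).ne'
  have key := S18A1_val_sum_eq A s (fun i => g i • z i) i0 hi0s ?_
  · rw [hsum, map_zero] at key
    exact hpos i0 hg0 key.symm
  · intro i hi hii0
    by_cases hgi : g i = 0
    · rw [hgi, zero_smul, map_zero]
      exact lt_of_le_of_ne zero_le (hpos i0 hg0).symm
    · have hle := hmax i (Finset.mem_filter.2 ⟨hi, hgi⟩)
      refine lt_of_le_of_ne hle ?_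
      intro heq
      obtain ⟨a, b, hab⟩ := S18A1_val_rat A hℓ hA (g i) hgi
      obtain ⟨a0, b0, hab0⟩ := S18A1_val_rat A hℓ hA (g i0) hg0
      rw [Algebra.smul_def, Algebra.smul_def, map_mul, map_mul] at heq
      apply hinc i i0 hii0 (b + a0) (a + b0)
      have e1 : A.valuation (ℓ : Qb) ^ (b + a0) * A.valuation (z i)
          = A.valuation (ℓ : Qb) ^ a0 * A.valuation (ℓ : Qb) ^ a *
            (A.valuation (algebraMap ℚ Qb (g i)) * A.valuation (z i)) := by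
        rw [pow_add, ← hab]; ac_rfl
      have e2 : A.valuation (ℓ : Qb) ^ (a + b0) * A.valuation (z i0)
          = A.valuation (ℓ : Qb) ^ a0 * A.valuation (ℓ : Qb) ^ a *
            (A.valuation (algebraMap ℚ Qb (g i0)) * A.valuation (z i0)) := by
        rw [pow_add, ← hab0]; ac_rfl
      rw [e1, e2, heq]

theorem S18A1_pow_succ_le {γ : A.ValueGroup} (hγ : γ ≤ 1) (d : ℕ) : γ ^ (d + 1) ≤ γ := by
  calc γ ^ (d + 1) = γ ^ d * γ := pow_succ γ d
    _ ≤ 1 * γ := by gcongr; exact pow_le_one₀ zero_le hγ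
    _ = γ := one_mul γ

/-- Key commensurability dichotomy: two values in the window `(v ℓ, 1]` are incommensurable
unless equal. -/
theorem S18A1_window_incomm (hℓ : ℓ.Prime) (hA : A.LiesOverPrime ℓ) {γ δ : A.ValueGroup}
    (hγ : A.valuation (ℓ : Qb) < γ) (hγ1 : γ ≤ 1) (hδ : A.valuation (ℓ : Qb) < δ) (hδ1 : δ ≤ 1)
    (hne : γ ≠ δ) (a b : ℕ) :
    A.valuation (ℓ : Qb) ^ a * γ ≠ A.valuation (ℓ : Qb) ^ b * δ := by
  have hℓ0 : A.valuation (ℓ : Qb) ≠ 0 := (S18A1_val_l_pos A hℓ).ne'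
  have hℓ1 : A.valuation (ℓ : Qb) ≤ 1 := (S18A1_val_l_lt A hA).le
  intro h
  rcases lt_trichotomy a b with hab | hab | hab
  · obtain ⟨d, rfl⟩ : ∃ d, b = a + (d + 1) := ⟨b - a - 1, by omega⟩
    rw [pow_add, mul_assoc] at h
    have h' := mul_left_cancel₀ (pow_ne_zero a hℓ0) h
    have : γ ≤ A.valuation (ℓ : Qb) := by
      rw [h']
      calc A.valuation (ℓ : Qb) ^ (d + 1) * δ ≤ A.valuation (ℓ : Qb) * 1 := by
            gcongr
            exact S18A1_pow_succ_le A hℓ1 d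
        _ = _ := mul_one _
    exact absurd hγ (not_lt.2 this)
  · subst hab
    exact hne (mul_left_cancel₀ (pow_ne_zero a hℓ0) h)
  · obtain ⟨d, rfl⟩ : ∃ d, a = b + (d + 1) := ⟨a - b - 1, by omega⟩
    rw [pow_add, mul_assoc] at h
    have h' := mul_left_cancel₀ (pow_ne_zero b hℓ0) h
    have : δ ≤ A.valuation (ℓ : Qb) := by
      rw [← h']
      calc A.valuation (ℓ : Qb) ^ (d + 1) * γ ≤ A.valuation (ℓ : Qb) * 1 := by
            gcongr
            exact S18A1_pow_succ_le A hℓ1 d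
        _ = _ := mul_one _
    exact absurd hδ (not_lt.2 this)

/-- No infinite family with pairwise incommensurable valuations inside a finite extension. -/
theorem S18A1_no_infinite (hℓ : ℓ.Prime) (hA : A.LiesOverPrime ℓ)
    (E : IntermediateField ℚ Qb) [FiniteDimensional ℚ E] (z : ℕ → Qb) (hzE : ∀ i, z i ∈ E)
    (hz : ∀ i, z i ≠ 0)
    (hinc : ∀ i j, i ≠ j → ∀ a b : ℕ,
      A.valuation (ℓ : Qb) ^ a * A.valuation (z i) ≠ A.valuation (ℓ : Qb) ^ b * A.valuation (z j)) :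
    False := by
  have hli := S18A1_linIndep A hℓ hA z hz hinc
  have hli' : LinearIndependent ℚ (fun i => (⟨z i, hzE i⟩ : E)) := by
    apply LinearIndependent.of_comp E.val.toLinearMap
    exact hli
  have := hli'.finite_of_isNoetherian
  exact not_finite ℕ

theorem S18A1_window_finite (hℓ : ℓ.Prime) (hA : A.LiesOverPrime ℓ)
    (E : IntermediateField ℚ Qb) [FiniteDimensional ℚ E] :
    {γ : A.ValueGroup | ∃ x ∈ E, A.valuation x = γ ∧ A.valuation (ℓ : Qb) < γ ∧ γ ≤ 1}.Finite := by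
  by_contra hinf
  have hinf' : Set.Infinite _ := hinf
  let f := hinf'.natEmbedding
  have hf : ∀ n : ℕ, ∃ x ∈ E, A.valuation x = (f n : A.ValueGroup) ∧
      A.valuation (ℓ : Qb) < (f n : A.ValueGroup) ∧ (f n : A.ValueGroup) ≤ 1 := fun n => (f n).2
  choose z hzE hzv hzl hz1 using hf
  refine S18A1_no_infinite A hℓ hA E z hzE ?_ ?_
  · intro i h0
    have := hzl i
    rw [← hzv i, h0, map_zero] at this
    exact not_lt_zero this
  · intro i j hij a b
    rw [hzv i, hzv j]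
    refine S18A1_window_incomm A hℓ hA (hzl i) (hz1 i) (hzl j) (hz1 j) ?_ a b
    intro h
    exact hij (f.injective (Subtype.ext h))

/-- Existence of a uniformiser for a finite extension of `ℚ` inside `Qb`. -/
theorem S18A1_exists_unif (hℓ : ℓ.Prime) (hA : A.LiesOverPrime ℓ)
    (E : IntermediateField ℚ Qb) [FiniteDimensional ℚ E] :
    ∃ π ∈ E, π ≠ 0 ∧ A.valuation π < 1 ∧ ∀ x ∈ E, A.valuation x < 1 →
      A.valuation x ≤ A.valuation π := by
  classical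
  set W : Set A.ValueGroup :=
    {γ | ∃ x ∈ E, A.valuation x = γ ∧ A.valuation (ℓ : Qb) < γ ∧ γ ≤ 1} with hW
  have hWfin : W.Finite := S18A1_window_finite A hℓ hA E
  set W' : Set A.ValueGroup := {γ | γ ∈ W ∧ γ < 1} ∪ {A.valuation (ℓ : Qb)} with hW'
  have hW'fin : W'.Finite := (hWfin.subset (fun γ h => h.1)).union (Set.finite_singleton _)
  have hW'ne : W'.Nonempty := ⟨_, Or.inr rfl⟩
  obtain ⟨γ0, hγ0, hmax⟩ := Set.exists_max_image W' id hW'fin hW'ne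
  have hγ0' : ∃ π ∈ E, π ≠ 0 ∧ A.valuation π < 1 ∧ A.valuation π = γ0 := by
    rcases hγ0 with ⟨⟨x, hxE, hxv, hxl, -⟩, hlt⟩ | h
    · refine ⟨x, hxE, ?_, hxv ▸ hlt, hxv⟩
      rintro rfl
      rw [map_zero] at hxv
      rw [← hxv] at hxl
      exact not_lt_zero hxl
    · refine ⟨(ℓ : Qb), _root_.natCast_mem E ℓ, Nat.cast_ne_zero.2 hℓ.ne_zero, S18A1_val_l_lt A hA, ?_⟩
      exact h.symm
  obtain ⟨π, hπE, hπ0, hπ1, hπv⟩ := hγ0'
  refine ⟨π, hπE, hπ0, hπ1, ?_⟩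
  intro x hxE hx1
  rw [hπv]
  have hℓle : A.valuation (ℓ : Qb) ≤ γ0 := hmax (A.valuation (ℓ : Qb)) (Or.inr rfl)
  rcases le_or_gt (A.valuation x) (A.valuation (ℓ : Qb)) with h | h
  · exact h.trans hℓle
  · exact hmax (A.valuation x) (Or.inl ⟨⟨x, hxE, rfl, h, hx1.le⟩, hx1⟩)

theorem S18A1_isIntegral (x : Qb) : IsIntegral ℚ x := by
  have := AlgebraicClosure.isAlgebraic ℚ
  exact (this.isAlgebraic x).isIntegral

/-- Archimedean property, upper half: a power of any non-unit is below `v ℓ`. -/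
theorem S18A1_arch_upper (hℓ : ℓ.Prime) (hA : A.LiesOverPrime ℓ) (x : Qb)
    (hx : A.valuation x < 1) : ∃ N : ℕ, 0 < N ∧ A.valuation x ^ N ≤ A.valuation (ℓ : Qb) := by
  by_contra hcon
  push Not at hcon
  have hx0 : x ≠ 0 := by
    rintro rfl
    have := hcon 1 one_pos
    rw [map_zero, pow_one] at this
    exact not_lt_zero this
  have hvx0 : 0 < A.valuation x := (A.valuation.pos_iff).2 hx0
  have : FiniteDimensional ℚ ℚ⟮x⟯ := IntermediateField.adjoin.finiteDimensional (S18A1_isIntegral x)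
  refine S18A1_no_infinite A hℓ hA ℚ⟮x⟯ (fun i => x ^ (i + 1))
    (fun i => pow_mem (IntermediateField.mem_adjoin_simple_self ℚ x) _)
    (fun i => pow_ne_zero _ hx0) ?_
  intro i j hij a b
  simp only [map_pow]
  refine S18A1_window_incomm A hℓ hA (hcon _ (Nat.succ_pos i)) (pow_le_one₀ zero_le hx.le)
    (hcon _ (Nat.succ_pos j)) (pow_le_one₀ zero_le hx.le) ?_ a b
  intro h
  rcases lt_or_gt_of_ne hij with hlt | hlt
  · exact absurd h (pow_lt_pow_right_of_lt_one₀ hvx0 hx (by omega : i + 1 < j + 1)).ne'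
  · exact absurd h (pow_lt_pow_right_of_lt_one₀ hvx0 hx (by omega : j + 1 < i + 1)).ne

/-- Archimedean property, lower half: every nonzero element is above a power of `v ℓ`. -/
theorem S18A1_arch_lower (hℓ : ℓ.Prime) (hA : A.LiesOverPrime ℓ) (x : Qb) (hx : x ≠ 0) :
    ∃ M : ℕ, A.valuation (ℓ : Qb) ^ M ≤ A.valuation x := by
  by_contra hcon
  push Not at hcon
  have hvx0 : A.valuation x ≠ 0 := ((A.valuation.pos_iff).2 hx).ne'
  have hx1 : A.valuation x ≤ 1 := by simpa using (hcon 0).le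
  have hℓ1 : A.valuation (ℓ : Qb) ≤ 1 := (S18A1_val_l_lt A hA).le
  have : FiniteDimensional ℚ ℚ⟮x⟯ := IntermediateField.adjoin.finiteDimensional (S18A1_isIntegral x)
  have aux : ∀ (i d a b : ℕ), A.valuation (ℓ : Qb) ^ a * A.valuation x ^ i
      ≠ A.valuation (ℓ : Qb) ^ b * A.valuation x ^ (i + (d + 1)) := by
    intro i d a b h
    rw [pow_add, ← mul_assoc, mul_comm _ (A.valuation x ^ i), mul_comm _ (A.valuation x ^ i),
      mul_assoc] at h
    have h' := mul_left_cancel₀ (pow_ne_zero i hvx0) h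
    have : A.valuation (ℓ : Qb) ^ a ≤ A.valuation x := by
      rw [h']
      calc A.valuation (ℓ : Qb) ^ b * A.valuation x ^ (d + 1) ≤ 1 * A.valuation x := by
            gcongr
            · exact pow_le_one₀ zero_le hℓ1
            · exact S18A1_pow_succ_le A hx1 d
        _ = _ := one_mul _
    exact absurd (hcon a) (not_lt.2 this)
  refine S18A1_no_infinite A hℓ hA ℚ⟮x⟯ (fun i => x ^ i)
    (fun i => pow_mem (IntermediateField.mem_adjoin_simple_self ℚ x) _)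
    (fun i => pow_ne_zero _ hx) ?_
  intro i j hij a b
  simp only [map_pow]
  rcases lt_or_gt_of_ne hij with hlt | hlt
  · obtain ⟨d, rfl⟩ : ∃ d, j = i + (d + 1) := ⟨j - i - 1, by omega⟩
    exact aux i d a b
  · obtain ⟨d, rfl⟩ : ∃ d, i = j + (d + 1) := ⟨i - j - 1, by omega⟩
    exact fun h => aux j d b a h.symm

/-- Structure of the value group of a finite extension: integral elements. -/
theorem S18A1_val_eq_pow_nat (hℓ : ℓ.Prime) (hA : A.LiesOverPrime ℓ)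
    (E : IntermediateField ℚ Qb) (π : Qb) (hπE : π ∈ E) (hπ0 : π ≠ 0)
    (hπ1 : A.valuation π < 1)
    (hmax : ∀ x ∈ E, A.valuation x < 1 → A.valuation x ≤ A.valuation π)
    (x : Qb) (hxE : x ∈ E) (hx : x ≠ 0) (hx1 : A.valuation x ≤ 1) :
    ∃ n : ℕ, A.valuation x = A.valuation π ^ n := by
  classical
  have hex : ∃ n : ℕ, A.valuation π ^ n ≤ A.valuation x := by
    obtain ⟨M, hM⟩ := S18A1_arch_lower A hℓ hA x hx
    obtain ⟨N, -, hN⟩ := S18A1_arch_upper A hℓ hA π hπ1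
    refine ⟨N * M, ?_⟩
    rw [pow_mul]
    exact (pow_le_pow_left₀ zero_le hN M).trans hM
  have hvπ0 : 0 < A.valuation π := (A.valuation.pos_iff).2 hπ0
  refine ⟨Nat.find hex, le_antisymm ?_ (Nat.find_spec hex)⟩
  rcases Nat.eq_zero_or_pos (Nat.find hex) with h0 | hpos
  · rw [h0, pow_zero]; exact hx1
  · obtain ⟨k, hk⟩ : ∃ k, Nat.find hex = k + 1 := ⟨Nat.find hex - 1, by omega⟩
    have hmin : ¬ A.valuation π ^ k ≤ A.valuation x := Nat.find_min hex (by omega)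
    rw [not_le] at hmin
    have hy : A.valuation (x / π ^ k) < 1 := by
      rw [map_div₀, map_pow, div_lt_one₀ (pow_pos hvπ0 k)]
      exact hmin
    have := hmax (x / π ^ k) (div_mem hxE (pow_mem hπE k)) hy
    rw [map_div₀, map_pow, div_le_iff₀ (pow_pos hvπ0 k)] at this
    rw [hk, pow_succ']
    exact this

theorem S18A1_val_eq_zpow (hℓ : ℓ.Prime) (hA : A.LiesOverPrime ℓ)
    (E : IntermediateField ℚ Qb) (π : Qb) (hπE : π ∈ E) (hπ0 : π ≠ 0)
    (hπ1 : A.valuation π < 1)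
    (hmax : ∀ x ∈ E, A.valuation x < 1 → A.valuation x ≤ A.valuation π)
    (x : Qb) (hxE : x ∈ E) (hx : x ≠ 0) :
    ∃ n : ℤ, A.valuation x = A.valuation π ^ n := by
  rcases le_total (A.valuation x) 1 with h | h
  · obtain ⟨n, hn⟩ := S18A1_val_eq_pow_nat A hℓ hA E π hπE hπ0 hπ1 hmax x hxE hx h
    exact ⟨n, by rw [hn, zpow_natCast]⟩
  · have h' : A.valuation x⁻¹ ≤ 1 := by
      rw [map_inv₀]
      exact inv_le_one_of_one_le₀ h
    obtain ⟨n, hn⟩ := S18A1_val_eq_pow_nat A hℓ hA E π hπE hπ0 hπ1 hmax x⁻¹ (inv_mem hxE)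
      (inv_ne_zero hx) h'
    refine ⟨-n, ?_⟩
    rw [map_inv₀] at hn
    rw [zpow_neg, zpow_natCast, ← hn, inv_inv]

end Basic


noncomputable section Unram

variable (A : ValuationSubring Qb) (E : IntermediateField ℚ Qb)

/-- `π` is a uniformiser of `A ∩ E`. -/
structure S18A1_IsUnif (π : Qb) : Prop where
  mem : π ∈ E
  ne_zero : π ≠ 0
  lt_one : A.valuation π < 1
  max : ∀ x ∈ E, A.valuation x < 1 → A.valuation x ≤ A.valuation π

/-- The ring `𝒪 = E ∩ A`. -/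
def S18A1_O : Subring Qb := E.toSubring ⊓ A.toSubring

variable {A E}

theorem S18A1_mem_O {x : Qb} : x ∈ S18A1_O A E ↔ x ∈ E ∧ x ∈ A := Iff.rfl

theorem S18A1_O_mem_E (c : S18A1_O A E) : (c : Qb) ∈ E := c.2.1

theorem S18A1_O_mem_A (c : S18A1_O A E) : (c : Qb) ∈ A := c.2.2

theorem S18A1_val_coe_le (a : A.toSubring) : A.valuation (a : Qb) ≤ 1 :=
  (A.valuation_le_one_iff _).2 a.2

theorem S18A1_val_O_le (c : S18A1_O A E) : A.valuation (c : Qb) ≤ 1 :=
  (A.valuation_le_one_iff _).2 c.2.2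

variable (A E) in
/-- The inclusion `𝒪 → A`. -/
def S18A1_incl : S18A1_O A E →+* A.toSubring := Subring.inclusion inf_le_right

@[simp] theorem S18A1_incl_coe (c : S18A1_O A E) : ((S18A1_incl A E c : A.toSubring) : Qb) = c := rfl

variable (A E) in
/-- Evaluation of polynomials over `𝒪` at a point of `A`. -/
noncomputable def S18A1_ev (ζ : A.toSubring) : (S18A1_O A E)[X] →+* A.toSubring :=
  Polynomial.eval₂RingHom (S18A1_incl A E) ζ

theorem S18A1_ev_C (ζ : A.toSubring) (c : S18A1_O A E) :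
    S18A1_ev A E ζ (C c) = S18A1_incl A E c := by
  simp [S18A1_ev]

theorem S18A1_ev_X (ζ : A.toSubring) : S18A1_ev A E ζ X = ζ := by
  simp [S18A1_ev]

/-- Elements of `𝒪` of valuation `< 1` are divisible by the uniformiser. -/
theorem S18A1_dvd_of_val_lt {π : Qb} (hπ : S18A1_IsUnif A E π) (hπA : π ∈ A)
    (c : S18A1_O A E) (hc : A.valuation (c : Qb) < 1) :
    (⟨π, hπ.mem, hπA⟩ : S18A1_O A E) ∣ c := by
  have hvπ0 : 0 < A.valuation π := (A.valuation.pos_iff).2 hπ.ne_zero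
  have h1 : A.valuation ((c : Qb) / π) ≤ 1 := by
    rw [map_div₀, div_le_one₀ hvπ0]
    exact hπ.max c (S18A1_O_mem_E c) hc
  refine ⟨⟨(c : Qb) / π, E.div_mem (S18A1_O_mem_E c) hπ.mem, (A.valuation_le_one_iff _).1 h1⟩, ?_⟩
  apply Subtype.ext
  show (c : Qb) = π * ((c : Qb) / π)
  field_simp [hπ.ne_zero]

theorem S18A1_unif_mem_A {π : Qb} (hπ : S18A1_IsUnif A E π) : π ∈ A :=
  (A.valuation_le_one_iff _).1 hπ.lt_one.le

/-- Units of `𝒪`. -/
theorem S18A1_inv_mem_O (c : S18A1_O A E) (hc : A.valuation (c : Qb) = 1) :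
    (c : Qb)⁻¹ ∈ S18A1_O A E := by
  refine ⟨E.inv_mem (S18A1_O_mem_E c), (A.valuation_le_one_iff _).1 ?_⟩
  rw [map_inv₀, hc, inv_one]

variable (A) in
/-- The valuation on `A`. -/
def S18A1_w (x : A.toSubring) : A.ValueGroup := A.valuation (x : Qb)

theorem S18A1_w_le (x : A.toSubring) : S18A1_w A x ≤ 1 := S18A1_val_coe_le x

theorem S18A1_w_mul (x y : A.toSubring) : S18A1_w A (x * y) = S18A1_w A x * S18A1_w A y := by
  simp [S18A1_w]

theorem S18A1_w_zero : S18A1_w A 0 = 0 := by simp [S18A1_w]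

theorem S18A1_w_one : S18A1_w A 1 = 1 := by simp [S18A1_w]

theorem S18A1_w_neg (x : A.toSubring) : S18A1_w A (-x) = S18A1_w A x := by
  simp [S18A1_w]

theorem S18A1_w_add_lt {x y : A.toSubring} {g : A.ValueGroup} (hx : S18A1_w A x < g)
    (hy : S18A1_w A y < g) : S18A1_w A (x + y) < g := by
  simpa [S18A1_w] using A.valuation.map_add_lt hx hy

theorem S18A1_w_sub_lt {x y : A.toSubring} {g : A.ValueGroup} (hx : S18A1_w A x < g)
    (hy : S18A1_w A y < g) : S18A1_w A (x - y) < g := by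
  rw [sub_eq_add_neg]
  exact S18A1_w_add_lt hx (by rwa [S18A1_w_neg])

theorem S18A1_w_mul_lt_left {x y : A.toSubring} (hx : S18A1_w A x < 1) :
    S18A1_w A (x * y) < 1 := by
  rw [S18A1_w_mul]
  exact mul_lt_one_of_nonneg_of_lt_one_left zero_le hx (S18A1_w_le y)

theorem S18A1_w_mul_lt_right {x y : A.toSubring} (hy : S18A1_w A y < 1) :
    S18A1_w A (x * y) < 1 := by
  rw [mul_comm]; exact S18A1_w_mul_lt_left hy

theorem S18A1_w_pow (x : A.toSubring) (k : ℕ) : S18A1_w A (x ^ k) = S18A1_w A x ^ k := by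
  simp [S18A1_w]

/-- Key step 1: a polynomial of degree below the minimal degree `d0` with small value has all
coefficients small. -/
theorem S18A1_coeff_small (ζ : A.toSubring) (d0 : ℕ)
    (hmin : ∀ G : (S18A1_O A E)[X], G.Monic → S18A1_w A (S18A1_ev A E ζ G) < 1 → d0 ≤ G.natDegree)
    (r : (S18A1_O A E)[X]) (hlt : r.natDegree < d0)
    (hsmall : S18A1_w A (S18A1_ev A E ζ r) < 1) (i : ℕ) :
    A.valuation ((r.coeff i : S18A1_O A E) : Qb) < 1 := by
  induction' hm : r.natDegree using Nat.strong_induction_on with m ih generalizing r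
  by_cases hr0 : r = 0
  · subst hr0; simp
  have ha0 : r.leadingCoeff ≠ 0 := leadingCoeff_ne_zero.2 hr0
  rcases (S18A1_val_O_le r.leadingCoeff).lt_or_eq with hlt1 | heq1
  · have hdecomp := eraseLead_add_C_mul_X_pow r
    have hsmall' : S18A1_w A (S18A1_ev A E ζ r.eraseLead) < 1 := by
      have e : S18A1_ev A E ζ r.eraseLead = S18A1_ev A E ζ r
          - S18A1_incl A E r.leadingCoeff * ζ ^ r.natDegree := by
        have e' : S18A1_ev A E ζ r = S18A1_ev A E ζ r.eraseLead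
            + S18A1_incl A E r.leadingCoeff * ζ ^ r.natDegree := by
          conv_lhs => rw [← hdecomp]
          rw [map_add, map_mul, map_pow, S18A1_ev_C, S18A1_ev_X]
        rw [e']; ring
      rw [e]
      refine S18A1_w_sub_lt hsmall (S18A1_w_mul_lt_left ?_)
      exact hlt1
    by_cases him : i = r.natDegree
    · rw [him]; exact hlt1
    rcases eraseLead_natDegree_lt_or_eraseLead_eq_zero r with h | h
    · have := ih r.eraseLead.natDegree (hm ▸ h) r.eraseLead (by omega) hsmall' rfl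
      rw [eraseLead_coeff, if_neg him] at this
      exact this
    · have : r.coeff i = 0 := by
        have h' := eraseLead_coeff (f := r) i
        rw [h, if_neg him] at h'
        simpa using h'.symm
      rw [this]; simp
  · exfalso
    let b : S18A1_O A E := ⟨(r.leadingCoeff : Qb)⁻¹, S18A1_inv_mem_O r.leadingCoeff heq1⟩
    have hc0 : (r.leadingCoeff : Qb) ≠ 0 := fun h => ha0 (Subtype.ext h)
    have hb : b * r.leadingCoeff = 1 := Subtype.ext (inv_mul_cancel₀ hc0)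
    have hb0 : b ≠ 0 := fun h => by rw [h, zero_mul] at hb; exact zero_ne_one hb
    have hmonic : (C b * r).Monic := monic_C_mul_of_mul_leadingCoeff_eq_one hb
    have hdeg : (C b * r).natDegree = r.natDegree := natDegree_C_mul hb0
    have hs : S18A1_w A (S18A1_ev A E ζ (C b * r)) < 1 := by
      rw [map_mul]
      exact S18A1_w_mul_lt_right hsmall
    have := hmin _ hmonic hs
    omega

/-- Consequence: such a polynomial is divisible by the uniformiser. -/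
theorem S18A1_C_dvd {π : Qb} (hπ : S18A1_IsUnif A E π) (ζ : A.toSubring) (d0 : ℕ)
    (hmin : ∀ G : (S18A1_O A E)[X], G.Monic → S18A1_w A (S18A1_ev A E ζ G) < 1 → d0 ≤ G.natDegree)
    (r : (S18A1_O A E)[X]) (hlt : r.natDegree < d0)
    (hsmall : S18A1_w A (S18A1_ev A E ζ r) < 1) :
    C (⟨π, hπ.mem, S18A1_unif_mem_A hπ⟩ : S18A1_O A E) ∣ r := by
  rw [C_dvd_iff_dvd_coeff]
  intro i
  exact S18A1_dvd_of_val_lt hπ (S18A1_unif_mem_A hπ) _ (S18A1_coeff_small ζ d0 hmin r hlt hsmall i)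

theorem S18A1_w_eq_one_of_pow {ζ : A.toSubring} {n : ℕ} (hn : n ≠ 0) (hζ : ζ ^ n = 1) :
    S18A1_w A ζ = 1 := by
  obtain ⟨k, rfl⟩ : ∃ k, n = k + 1 := ⟨n - 1, by omega⟩
  refine le_antisymm (S18A1_w_le ζ) ?_
  have h1 : S18A1_w A (ζ ^ (k + 1)) = 1 := by rw [hζ, S18A1_w_one]
  rw [pow_succ, S18A1_w_mul] at h1
  calc (1 : A.ValueGroup) = S18A1_w A (ζ ^ k) * S18A1_w A ζ := h1.symm
    _ ≤ 1 * S18A1_w A ζ := by gcongr; exact S18A1_w_le _
    _ = _ := one_mul _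

theorem S18A1_w_natCast {ℓ : ℕ} (hℓ : ℓ.Prime) (hA : A.LiesOverPrime ℓ) {n : ℕ} (hn : ¬ ℓ ∣ n) :
    S18A1_w A (n : A.toSubring) = 1 := by
  have := S18A1_val_int_eq_one A hℓ hA (n : ℤ) (by exact_mod_cast hn)
  simpa [S18A1_w] using this

/-- Key step 2: the reduction step `v (P ζ) = v π * v (P₁ ζ)`. -/
theorem S18A1_step {ℓ : ℕ} (hℓ : ℓ.Prime) (hA : A.LiesOverPrime ℓ) {π : Qb}
    (hπ : S18A1_IsUnif A E π) (ζ : A.toSubring) {n : ℕ} (hn : ¬ ℓ ∣ n) (hζ : ζ ^ n = 1)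
    (P : (S18A1_O A E)[X]) (hP : S18A1_w A (S18A1_ev A E ζ P) < 1) :
    ∃ P₁ : (S18A1_O A E)[X],
      S18A1_w A (S18A1_ev A E ζ P) = A.valuation π * S18A1_w A (S18A1_ev A E ζ P₁) := by
  classical
  have hn0 : n ≠ 0 := by rintro rfl; exact hn (dvd_zero ℓ)
  set ev := S18A1_ev A E ζ with hev
  set πO : S18A1_O A E := ⟨π, hπ.mem, S18A1_unif_mem_A hπ⟩ with hπO
  have hevπ : S18A1_w A (ev (C πO)) = A.valuation π := by
    rw [hev, S18A1_ev_C]; rfl
  have hevπ1 : S18A1_w A (ev (C πO)) < 1 := by rw [hevπ]; exact hπ.lt_one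
  -- the polynomial `T = X ^ n - 1`
  set T : (S18A1_O A E)[X] := X ^ n - C 1 with hT
  have hevT : ev T = 0 := by
    rw [hT, map_sub, map_pow, hev, S18A1_ev_X, S18A1_ev_C, map_one, hζ, sub_self]
  have hex : ∃ d : ℕ, ∃ G : (S18A1_O A E)[X], G.Monic ∧ G.natDegree = d ∧
      S18A1_w A (ev G) < 1 :=
    ⟨n, T, monic_X_pow_sub_C 1 hn0, natDegree_X_pow_sub_C, by
      rw [hevT, S18A1_w_zero]; exact zero_lt_one⟩
  obtain ⟨G, hGm, hGd, hGs⟩ := Nat.find_spec hex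
  have hmin : ∀ G' : (S18A1_O A E)[X], G'.Monic → S18A1_w A (ev G') < 1 →
      Nat.find hex ≤ G'.natDegree := fun G' hm hs => Nat.find_min' hex ⟨G', hm, rfl, hs⟩
  have hG1 : G ≠ 1 := by
    rintro rfl
    rw [map_one, S18A1_w_one] at hGs
    exact lt_irrefl _ hGs
  -- division of `T` by `G`
  have hdivT := modByMonic_add_div T G
  have hr0deg : (T %ₘ G).natDegree < Nat.find hex := hGd ▸ natDegree_modByMonic_lt T hGm hG1
  have hr0small : S18A1_w A (ev (T %ₘ G)) < 1 := by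
    have e : ev (T %ₘ G) = ev T - ev G * ev (T /ₘ G) := by
      have e' : ev T = ev (T %ₘ G) + ev G * ev (T /ₘ G) := by
        rw [← map_mul, ← map_add, hdivT]
      rw [e']; ring
    rw [e, hevT, zero_sub, S18A1_w_neg]
    exact S18A1_w_mul_lt_left hGs
  obtain ⟨r0, hr0⟩ := S18A1_C_dvd hπ ζ (Nat.find hex) hmin _ hr0deg hr0small
  -- the quotient `q0 = T / G` takes a unit value
  have hq0 : S18A1_w A (ev (T /ₘ G)) = 1 := by
    refine le_antisymm (S18A1_w_le _) ?_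
    by_contra hcon
    rw [not_le] at hcon
    have hder : derivative T = C πO * derivative r0 + (derivative G * (T /ₘ G)
        + G * derivative (T /ₘ G)) := by
      have h := congrArg derivative hdivT
      rw [hr0, derivative_add, derivative_C_mul, derivative_mul] at h
      exact h.symm
    have hderT : derivative T = C (n : S18A1_O A E) * X ^ (n - 1) := by
      rw [hT, derivative_sub, derivative_X_pow, derivative_C, sub_zero]
    have h1 : S18A1_w A (ev (derivative T)) = 1 := by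
      rw [hderT, map_mul, map_pow, hev, S18A1_ev_X, S18A1_ev_C, S18A1_w_mul, S18A1_w_pow,
        S18A1_w_eq_one_of_pow hn0 hζ, one_pow, mul_one, map_natCast]
      exact S18A1_w_natCast hℓ hA hn
    have h2 : S18A1_w A (ev (derivative T)) < 1 := by
      rw [hder, map_add, map_add, map_mul, map_mul, map_mul]
      refine S18A1_w_add_lt (S18A1_w_mul_lt_left hevπ1) (S18A1_w_add_lt ?_ ?_)
      · exact S18A1_w_mul_lt_right hcon
      · exact S18A1_w_mul_lt_left hGs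
    rw [h1] at h2
    exact lt_irrefl _ h2
  -- division of `P` by `G`
  have hdivP := modByMonic_add_div P G
  have hrdeg : (P %ₘ G).natDegree < Nat.find hex := hGd ▸ natDegree_modByMonic_lt P hGm hG1
  have hrsmall : S18A1_w A (ev (P %ₘ G)) < 1 := by
    have e : ev (P %ₘ G) = ev P - ev G * ev (P /ₘ G) := by
      have e' : ev P = ev (P %ₘ G) + ev G * ev (P /ₘ G) := by
        rw [← map_mul, ← map_add, hdivP]
      rw [e']; ring
    rw [e]
    exact S18A1_w_sub_lt hP (S18A1_w_mul_lt_left hGs)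
  obtain ⟨r', hr'⟩ := S18A1_C_dvd hπ ζ (Nat.find hex) hmin _ hrdeg hrsmall
  refine ⟨(T /ₘ G) * r' - (P /ₘ G) * r0, ?_⟩
  have key : ev (T /ₘ G) * ev P = ev (C πO) * ev ((T /ₘ G) * r' - (P /ₘ G) * r0) := by
    have eP : ev P = ev (C πO) * ev r' + ev G * ev (P /ₘ G) := by
      rw [← map_mul, ← map_mul, ← map_add, ← hr', hdivP]
    have eT : (0 : A.toSubring) = ev (C πO) * ev r0 + ev G * ev (T /ₘ G) := by
      rw [← map_mul, ← map_mul, ← map_add, ← hr0, hdivT, hevT]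
    rw [map_sub, map_mul, map_mul, eP]
    linear_combination (-(ev (P /ₘ G))) * eT
  have := congrArg (S18A1_w A) key
  rw [S18A1_w_mul, S18A1_w_mul, hq0, one_mul, hevπ] at this
  exact this

/-- Values of polynomial expressions in `ζ` are powers of `v π`. -/
theorem S18A1_ev_val {ℓ : ℕ} (hℓ : ℓ.Prime) (hA : A.LiesOverPrime ℓ) {π : Qb}
    (hπ : S18A1_IsUnif A E π) (ζ : A.toSubring) {n : ℕ} (hn : ¬ ℓ ∣ n) (hζ : ζ ^ n = 1)
    (P : (S18A1_O A E)[X]) (hP0 : S18A1_ev A E ζ P ≠ 0) :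
    ∃ m : ℕ, S18A1_w A (S18A1_ev A E ζ P) = A.valuation π ^ m := by
  have hvπ0 : 0 < A.valuation π := (A.valuation.pos_iff).2 hπ.ne_zero
  have hex : ∃ N : ℕ, A.valuation π ^ N ≤ S18A1_w A (S18A1_ev A E ζ P) := by
    have hx0 : ((S18A1_ev A E ζ P : A.toSubring) : Qb) ≠ 0 := fun h => hP0 (Subtype.ext h)
    obtain ⟨M, hM⟩ := S18A1_arch_lower A hℓ hA _ hx0
    obtain ⟨N, -, hN⟩ := S18A1_arch_upper A hℓ hA π hπ.lt_one
    refine ⟨N * M, ?_⟩
    rw [pow_mul]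
    exact (pow_le_pow_left₀ zero_le hN M).trans hM
  obtain ⟨N, hN⟩ := hex
  clear hP0
  induction N generalizing P with
  | zero =>
    refine ⟨0, ?_⟩
    rw [pow_zero] at hN ⊢
    exact le_antisymm (S18A1_w_le _) hN
  | succ N ih =>
    rcases (S18A1_w_le (S18A1_ev A E ζ P)).lt_or_eq with hlt | heq
    · obtain ⟨P₁, hP₁⟩ := S18A1_step hℓ hA hπ ζ hn hζ P hlt
      rw [hP₁, pow_succ'] at hN
      have hN' : A.valuation π ^ N ≤ S18A1_w A (S18A1_ev A E ζ P₁) :=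
        le_of_mul_le_mul_left hN hvπ0
      obtain ⟨m, hm⟩ := ih P₁ hN'
      exact ⟨m + 1, by rw [hP₁, hm, pow_succ']⟩
    · exact ⟨0, by rw [heq, pow_zero]⟩

/-- Every element of `E` becomes integral after multiplication by a power of `π`. -/
theorem S18A1_exists_pow_mul_mem {ℓ : ℕ} (hℓ : ℓ.Prime) (hA : A.LiesOverPrime ℓ) {π : Qb}
    (hπ : S18A1_IsUnif A E π) (c : Qb) (hc : c ∈ E) :
    ∃ M : ℕ, π ^ M * c ∈ S18A1_O A E := by
  rcases eq_or_ne c 0 with rfl | hc0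
  · exact ⟨0, by simp [zero_mem]⟩
  obtain ⟨k, hk⟩ := S18A1_val_eq_zpow A hℓ hA E π hπ.mem hπ.ne_zero hπ.lt_one hπ.max c hc hc0
  have hvπ0 : 0 < A.valuation π := (A.valuation.pos_iff).2 hπ.ne_zero
  refine ⟨(-k).toNat, E.mul_mem (_root_.pow_mem hπ.mem _) hc, (A.valuation_le_one_iff _).1 ?_⟩
  rw [map_mul, map_pow, hk, ← zpow_natCast, ← zpow_add₀ hvπ0.ne']
  obtain ⟨j, hj⟩ : ∃ j : ℕ, ((-k).toNat : ℤ) + k = j :=
    ⟨(((-k).toNat : ℤ) + k).toNat, by omega⟩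
  rw [hj, zpow_natCast]
  exact pow_le_one₀ zero_le hπ.lt_one.le

/-- Elements of `E(ζ)` are of the form `P(ζ) / π ^ M`. -/
theorem S18A1_adjoin_repr {ℓ : ℕ} (hℓ : ℓ.Prime) (hA : A.LiesOverPrime ℓ) {π : Qb}
    (hπ : S18A1_IsUnif A E π) (ζ : A.toSubring) (x : Qb)
    (hx : x ∈ Algebra.adjoin E {(ζ : Qb)}) :
    ∃ (M : ℕ) (P : (S18A1_O A E)[X]), π ^ M * x = ((S18A1_ev A E ζ P : A.toSubring) : Qb) := by
  set πO : S18A1_O A E := ⟨π, hπ.mem, S18A1_unif_mem_A hπ⟩ with hπO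
  induction hx using Algebra.adjoin_induction with
  | mem x hx =>
    rw [Set.mem_singleton_iff] at hx
    subst hx
    exact ⟨0, X, by rw [S18A1_ev_X]; simp⟩
  | algebraMap c =>
    obtain ⟨M, hM⟩ := S18A1_exists_pow_mul_mem hℓ hA hπ (c : Qb) c.2
    exact ⟨M, C ⟨_, hM⟩, by rw [S18A1_ev_C]; rfl⟩
  | add x y _ _ hx hy =>
    obtain ⟨M₁, P₁, h₁⟩ := hx
    obtain ⟨M₂, P₂, h₂⟩ := hy
    refine ⟨M₁ + M₂, C (πO ^ M₂) * P₁ + C (πO ^ M₁) * P₂, ?_⟩
    rw [map_add, map_mul, map_mul, S18A1_ev_C, S18A1_ev_C]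
    push_cast
    rw [S18A1_incl_coe, S18A1_incl_coe, ← h₁, ← h₂]
    push_cast
    ring
  | mul x y _ _ hx hy =>
    obtain ⟨M₁, P₁, h₁⟩ := hx
    obtain ⟨M₂, P₂, h₂⟩ := hy
    refine ⟨M₁ + M₂, P₁ * P₂, ?_⟩
    rw [map_mul]
    push_cast
    rw [← h₁, ← h₂]
    ring

/-- Unramifiedness: the value group of `E(ζ)` is generated by `v π`. -/
theorem S18A1_val_adjoin {ℓ : ℕ} (hℓ : ℓ.Prime) (hA : A.LiesOverPrime ℓ) {π : Qb}
    (hπ : S18A1_IsUnif A E π) (ζ : Qb) {n : ℕ} (hn : ¬ ℓ ∣ n) (hζ : ζ ^ n = 1) (x : Qb)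
    (hx : x ∈ Algebra.adjoin E {ζ}) (hx0 : x ≠ 0) :
    ∃ k : ℤ, A.valuation x = A.valuation π ^ k := by
  have hn0 : n ≠ 0 := by rintro rfl; exact hn (dvd_zero ℓ)
  have hvπ0 : 0 < A.valuation π := (A.valuation.pos_iff).2 hπ.ne_zero
  have hζA : ζ ∈ A.toSubring := by
    show ζ ∈ A
    rw [← A.valuation_le_one_iff]
    by_contra hcon
    rw [not_le] at hcon
    have := one_lt_pow₀ hcon hn0
    rw [← map_pow, hζ, map_one] at this
    exact lt_irrefl _ this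
  set ζA : A.toSubring := ⟨ζ, hζA⟩ with hζAdef
  have hζA' : ζA ^ n = 1 := Subtype.ext (by simpa using hζ)
  obtain ⟨M, P, hMP⟩ := S18A1_adjoin_repr hℓ hA hπ ζA x hx
  have hP0 : S18A1_ev A E ζA P ≠ 0 := by
    intro h
    rw [h] at hMP
    simp only [ZeroMemClass.coe_zero, mul_eq_zero] at hMP
    rcases hMP with h | h
    · exact hπ.ne_zero (pow_eq_zero_iff (by
        rintro rfl
        simp at h) |>.1 h)
    · exact hx0 h
  obtain ⟨m, hm⟩ := S18A1_ev_val hℓ hA hπ ζA hn hζA' P hP0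
  refine ⟨(m : ℤ) - M, ?_⟩
  have h1 : A.valuation π ^ M * A.valuation x = A.valuation π ^ m := by
    rw [← map_pow, ← map_mul, hMP]
    exact hm
  rw [zpow_sub₀ hvπ0.ne', zpow_natCast, zpow_natCast, ← h1]
  field_simp

end Unram

noncomputable section Assembly

variable (A : ValuationSubring Qb) {ℓ : ℕ}

/-- Roots of unity of order prime to `ℓ`. -/
def S18A1_roots (ℓ : ℕ) : Set Qb := {ζ | ∃ n : ℕ, ¬ ℓ ∣ n ∧ ζ ^ n = 1}

/-- The number field generated by `S`. -/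
def S18A1_K0 (S : Finset Qb) : IntermediateField ℚ Qb := adjoin ℚ (S : Set Qb)

/-- The field generated by `S` and all roots of unity of order prime to `ℓ`. -/
def S18A1_K1 (ℓ : ℕ) (S : Finset Qb) : IntermediateField ℚ Qb :=
  adjoin ℚ ((S : Set Qb) ∪ S18A1_roots ℓ)

instance S18A1_K0_finiteDimensional (S : Finset Qb) : FiniteDimensional ℚ (S18A1_K0 S) :=
  finiteDimensional_adjoin (fun x _ => S18A1_isIntegral x)

theorem S18A1_K0_le_K1 (ℓ : ℕ) (S : Finset Qb) : S18A1_K0 S ≤ S18A1_K1 ℓ S :=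
  IntermediateField.adjoin.mono _ _ _ Set.subset_union_left

theorem S18A1_mem_K1_of_mem (ℓ : ℕ) (S : Finset Qb) {s : Qb} (hs : s ∈ S) : s ∈ S18A1_K1 ℓ S :=
  subset_adjoin ℚ _ (Or.inl hs)

theorem S18A1_root_mem_K1 (ℓ : ℕ) (S : Finset Qb) {n : ℕ} (hn : ¬ ℓ ∣ n) {ζ : Qb}
    (hζ : ζ ^ n = 1) : ζ ∈ S18A1_K1 ℓ S :=
  subset_adjoin ℚ _ (Or.inr ⟨n, hn, hζ⟩)

/-- Every element of `K1` lies in `K0(ζ)` for a single root of unity `ζ` of order prime to `ℓ`. -/
theorem S18A1_exists_single_root (hℓ : ℓ.Prime) (S : Finset Qb) (x : Qb)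
    (hx : x ∈ S18A1_K1 ℓ S) :
    ∃ (ζ : Qb) (n : ℕ), ¬ ℓ ∣ n ∧ ζ ^ n = 1 ∧ x ∈ Algebra.adjoin (S18A1_K0 S) {ζ} := by
  classical
  obtain ⟨T, hT, hxT⟩ := exists_finset_of_mem_adjoin hx
  set ord : Qb → ℕ := fun t => if h : t ∈ S18A1_roots ℓ then Classical.choose h else 1 with hord
  have hord1 : ∀ t, ¬ ℓ ∣ ord t := by
    intro t
    by_cases h : t ∈ S18A1_roots ℓ
    · simp only [hord, dif_pos h]; exact (Classical.choose_spec h).1
    · simp only [hord, dif_neg h]; exact fun h1 => hℓ.one_lt.ne' (Nat.dvd_one.1 h1)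
  have hord2 : ∀ t, t ∈ S18A1_roots ℓ → t ^ ord t = 1 := by
    intro t h
    simp only [hord, dif_pos h]; exact (Classical.choose_spec h).2
  set N := ∏ t ∈ T, ord t with hN
  have hNℓ : ¬ ℓ ∣ N := by
    intro h
    obtain ⟨t, -, ht⟩ := (Prime.dvd_finsetProd_iff hℓ.prime _).1 h
    exact hord1 t ht
  have hN0 : N ≠ 0 := by rintro h; rw [h] at hNℓ; exact hNℓ (dvd_zero ℓ)
  haveI : NeZero N := ⟨hN0⟩
  obtain ⟨ζ, hζ⟩ := HasEnoughRootsOfUnity.exists_primitiveRoot Qb N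
  refine ⟨ζ, N, hNℓ, hζ.pow_eq_one, ?_⟩
  have hζalg : IsAlgebraic (S18A1_K0 S) ζ := (S18A1_isIntegral ζ).tower_top.isAlgebraic
  have hsub : (T : Set Qb) ⊆ ((IntermediateField.adjoin (S18A1_K0 S) {ζ}).restrictScalars ℚ :
      IntermediateField ℚ Qb) := by
    intro t ht
    rcases hT ht with h | h
    · exact (IntermediateField.adjoin (S18A1_K0 S) {ζ}).algebraMap_mem
        ⟨t, subset_adjoin ℚ _ h⟩
    · have htN : t ^ N = 1 := by
        obtain ⟨c, hc⟩ := Finset.dvd_prod_of_mem ord ht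
        rw [hN, hc, pow_mul, hord2 t h, one_pow]
      obtain ⟨i, -, rfl⟩ := hζ.eq_pow_of_pow_eq_one htN
      exact pow_mem (mem_adjoin_simple_self (S18A1_K0 S) ζ) i
  have hle := (adjoin_le_iff (F := ℚ)).2 hsub
  have hxL : x ∈ IntermediateField.adjoin (S18A1_K0 S) {ζ} := hle hxT
  rw [← adjoin_simple_toSubalgebra_of_isAlgebraic hζalg]
  exact hxL

/-- The value group of `K1` is generated by the valuation of a uniformiser of `K0`. -/
theorem S18A1_val_K1 (hℓ : ℓ.Prime) (hA : A.LiesOverPrime ℓ) (S : Finset Qb) {π : Qb}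
    (hπ : S18A1_IsUnif A (S18A1_K0 S) π) (x : Qb) (hx : x ∈ S18A1_K1 ℓ S) (hx0 : x ≠ 0) :
    ∃ k : ℤ, A.valuation x = A.valuation π ^ k := by
  obtain ⟨ζ, n, hn, hζ, hxζ⟩ := S18A1_exists_single_root hℓ S x hx
  exact S18A1_val_adjoin hℓ hA hπ ζ hn hζ x hxζ hx0

/-! ### The residue field of `K1 ∩ A` is the residue field of `A` -/

theorem S18A1_val_root_eq_one {ζ : Qb} {n : ℕ} (hn : n ≠ 0) (hζ : ζ ^ n = 1) :
    A.valuation ζ = 1 := by
  have h : (A.valuation ζ) ^ n = 1 := by rw [← map_pow, hζ, map_one]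
  exact (pow_eq_one_iff_of_nonneg zero_le hn).1 h

theorem S18A1_root_mem_A {ζ : Qb} {n : ℕ} (hn : n ≠ 0) (hζ : ζ ^ n = 1) : ζ ∈ A :=
  (A.valuation_le_one_iff ζ).1 (S18A1_val_root_eq_one A hn hζ).le

/-- The residue field of `A` has characteristic `ℓ`. -/
theorem S18A1_charP_residue (hℓ : ℓ.Prime) (hA : A.LiesOverPrime ℓ) :
    CharP (IsLocalRing.ResidueField A) ℓ := by
  have hℓ0 : ((ℓ : ℕ) : IsLocalRing.ResidueField A) = 0 := by
    have h1 : (IsLocalRing.residue A) ((ℓ : ℕ) : A) = 0 := by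
      rw [IsLocalRing.residue_eq_zero_iff, ValuationSubring.valuation_lt_one_iff]
      simpa using S18A1_val_l_lt A hA
    simpa using h1
  exact (CharP.charP_iff_prime_eq_zero hℓ).2 hℓ0

/-- Every unit of `A` has a power of exponent prime to `ℓ` congruent to `1`. -/
theorem S18A1_exists_pow_near_one (hℓ : ℓ.Prime) (hA : A.LiesOverPrime ℓ)
    (a : Qb) (ha : a ∈ A) (ha1 : ¬ A.valuation a < 1) :
    ∃ N : ℕ, ¬ ℓ ∣ N ∧ A.valuation (a ^ N - 1) < 1 := by
  classical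
  haveI : Fact ℓ.Prime := ⟨hℓ⟩
  haveI : CharP (IsLocalRing.ResidueField A) ℓ := S18A1_charP_residue A hℓ hA
  letI : Algebra (ZMod ℓ) (IsLocalRing.ResidueField A) := ZMod.algebra _ ℓ
  set a' : A := ⟨a, ha⟩ with ha'
  set ab : IsLocalRing.ResidueField A := IsLocalRing.residue A a' with hab
  have hab0 : ab ≠ 0 := by
    intro h
    rw [hab, IsLocalRing.residue_eq_zero_iff, ValuationSubring.valuation_lt_one_iff] at h
    exact ha1 h
  have halgZ : IsAlgebraic ℤ a :=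
    (IsFractionRing.isAlgebraic_iff ℤ ℚ Qb).2 (S18A1_isIntegral a).isAlgebraic
  obtain ⟨p0, hp0, hp0a⟩ := halgZ
  set p := p0.primPart with hp
  have hpa : aeval a p = 0 := aeval_primPart_eq_zero hp0 hp0a
  have hprim : p.IsPrimitive := isPrimitive_primPart p0
  have hpbar : p.map (Int.castRingHom (ZMod ℓ)) ≠ 0 := by
    intro h
    have hdvd : C (ℓ : ℤ) ∣ p := by
      rw [Polynomial.C_dvd_iff_dvd_coeff]
      intro i
      have : (p.map (Int.castRingHom (ZMod ℓ))).coeff i = 0 := by rw [h, coeff_zero]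
      rw [coeff_map] at this
      exact (ZMod.intCast_zmod_eq_zero_iff_dvd _ _).1 this
    have hu := (isPrimitive_iff_isUnit_of_C_dvd.1 hprim) _ hdvd
    rw [Int.isUnit_iff] at hu
    rcases hu with h1 | h1
    · have : ℓ = 1 := by exact_mod_cast h1
      exact hℓ.one_lt.ne' this
    · have : (0 : ℤ) ≤ ℓ := Int.natCast_nonneg _
      omega
  have hroot : aeval ab (p.map (Int.castRingHom (ZMod ℓ))) = 0 := by
    have h1 : eval₂ (Int.castRingHom A) a' p = 0 := by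
      have h := hom_eval₂ p (Int.castRingHom A) A.subtype a'
      have hcomp : (A.subtype.comp (Int.castRingHom A)) = algebraMap ℤ Qb := RingHom.ext_int _ _
      rw [hcomp] at h
      have h3 : A.subtype (eval₂ (Int.castRingHom ↥A) a' p) = 0 := by
        rw [h]; simpa [aeval_def] using hpa
      exact Subtype.ext h3
    have h2 := congrArg (IsLocalRing.residue A) h1
    rw [hom_eval₂, map_zero] at h2
    rw [aeval_def, eval₂_map]
    have hcomp : ((algebraMap (ZMod ℓ) (IsLocalRing.ResidueField A)).comp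
        (Int.castRingHom (ZMod ℓ))) = (IsLocalRing.residue A).comp (Int.castRingHom A) :=
      RingHom.ext_int _ _
    rw [hcomp]
    exact h2
  have halg : IsAlgebraic (ZMod ℓ) ab := ⟨_, hpbar, hroot⟩
  haveI : FiniteDimensional (ZMod ℓ) (ZMod ℓ)⟮ab⟯ :=
    adjoin.finiteDimensional halg.isIntegral
  haveI : Finite (ZMod ℓ)⟮ab⟯ := Module.finite_of_finite (ZMod ℓ)
  letI : Fintype (ZMod ℓ)⟮ab⟯ := Fintype.ofFinite _
  haveI : CharP (ZMod ℓ)⟮ab⟯ ℓ := charP_of_injective_algebraMap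
    (algebraMap (ZMod ℓ) (ZMod ℓ)⟮ab⟯).injective ℓ
  obtain ⟨n, -, hcard⟩ := FiniteField.card (ZMod ℓ)⟮ab⟯ ℓ
  set b' : (ZMod ℓ)⟮ab⟯ := ⟨ab, mem_adjoin_simple_self _ ab⟩ with hb'
  have hb0 : b' ≠ 0 := by
    intro h
    exact hab0 (congrArg Subtype.val h)
  have hpow := FiniteField.pow_card_sub_one_eq_one b' hb0
  refine ⟨Fintype.card (ZMod ℓ)⟮ab⟯ - 1, ?_, ?_⟩
  · rw [hcard]
    intro hdvd
    have h1 : ℓ ∣ ℓ ^ (n : ℕ) := dvd_pow_self ℓ n.ne_zero
    have h2 : 1 ≤ ℓ ^ (n : ℕ) := Nat.one_le_pow _ _ hℓ.pos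
    have h3 : ℓ ∣ 1 := by
      have := (Nat.dvd_sub h1 hdvd)
      rwa [Nat.sub_sub_self h2] at this
    exact hℓ.one_lt.ne' (Nat.dvd_one.1 h3)
  · have h1 : ab ^ (Fintype.card (ZMod ℓ)⟮ab⟯ - 1) = 1 := by
      have := congrArg Subtype.val hpow
      simpa using this
    have h2 : IsLocalRing.residue A (a' ^ (Fintype.card (ZMod ℓ)⟮ab⟯ - 1) - 1) = 0 := by
      rw [map_sub, map_pow, map_one, ← hab, h1, sub_self]
    rw [IsLocalRing.residue_eq_zero_iff, ValuationSubring.valuation_lt_one_iff] at h2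
    simpa using h2

/-- If `a ^ N` is congruent to `1` then `a` is congruent to an `N`-th root of unity. -/
theorem S18A1_exists_root_near (a : Qb) (ha : a ∈ A) {N : ℕ} (hN : N ≠ 0)
    (h : A.valuation (a ^ N - 1) < 1) :
    ∃ η : Qb, η ^ N = 1 ∧ A.valuation (a - η) < 1 := by
  classical
  haveI : NeZero N := ⟨hN⟩
  obtain ⟨ζ, hζ⟩ := HasEnoughRootsOfUnity.exists_primitiveRoot Qb N
  have hfac := X_pow_sub_one_eq_prod (Nat.pos_of_ne_zero hN) hζ
  have hev : a ^ N - 1 = ∏ η ∈ nthRootsFinset N (1 : Qb), (a - η) := by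
    have := congrArg (eval a) hfac
    simpa [eval_prod] using this
  by_contra hcon
  push Not at hcon
  have hall : ∀ η ∈ nthRootsFinset N (1 : Qb), A.valuation (a - η) = 1 := by
    intro η hη
    have hη1 : η ^ N = 1 := (mem_nthRootsFinset (Nat.pos_of_ne_zero hN) 1).1 hη
    refine le_antisymm ?_ (hcon η hη1)
    exact (A.valuation_le_one_iff _).2 (A.sub_mem ha (S18A1_root_mem_A A hN hη1))
  rw [hev, map_prod, Finset.prod_eq_one hall] at h
  exact lt_irrefl _ h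

/-- **Residue fields agree**: every element of `A` is congruent modulo the maximal ideal to an
element of `K1 ∩ A` (in fact to `0` or to a root of unity of order prime to `ℓ`). -/
theorem S18A1_residue_surj (hℓ : ℓ.Prime) (hA : A.LiesOverPrime ℓ) (S : Finset Qb)
    (a : Qb) (ha : a ∈ A) :
    ∃ b ∈ S18A1_K1 ℓ S, b ∈ A ∧ A.valuation (a - b) < 1 := by
  by_cases ha1 : A.valuation a < 1
  · exact ⟨0, zero_mem _, zero_mem _, by simpa using ha1⟩
  obtain ⟨N, hN, hv⟩ := S18A1_exists_pow_near_one A hℓ hA a ha ha1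
  have hN0 : N ≠ 0 := by rintro rfl; exact hN (dvd_zero _)
  obtain ⟨η, hη, hvη⟩ := S18A1_exists_root_near A a ha hN0 hv
  exact ⟨η, S18A1_root_mem_K1 ℓ S hN hη, S18A1_root_mem_A A hN0 hη, hvη⟩

/-! ### Uniformiser and factorisation in `K1` -/

theorem S18A1_exists_isUnif (hℓ : ℓ.Prime) (hA : A.LiesOverPrime ℓ) (S : Finset Qb) :
    ∃ π : Qb, S18A1_IsUnif A (S18A1_K0 S) π := by
  obtain ⟨π, h1, h2, h3, h4⟩ := S18A1_exists_unif A hℓ hA (S18A1_K0 S)
  exact ⟨π, ⟨h1, h2, h3, h4⟩⟩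

theorem S18A1_pi_mem_K1 (S : Finset Qb) {π : Qb} (hπ : S18A1_IsUnif A (S18A1_K0 S) π) :
    π ∈ S18A1_K1 ℓ S := S18A1_K0_le_K1 ℓ S hπ.mem

theorem S18A1_val_pi_pos {E : IntermediateField ℚ Qb} {π : Qb} (hπ : S18A1_IsUnif A E π) :
    0 < A.valuation π :=
  zero_lt_iff.2 ((_root_.map_ne_zero _).2 hπ.ne_zero)

/-- Every nonzero element of `K1` is a unit of `K1 ∩ A` times a power of `π`. -/
theorem S18A1_factor (hℓ : ℓ.Prime) (hA : A.LiesOverPrime ℓ) (S : Finset Qb) {π : Qb}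
    (hπ : S18A1_IsUnif A (S18A1_K0 S) π) (x : Qb) (hx : x ∈ S18A1_K1 ℓ S) (hx0 : x ≠ 0) :
    ∃ n : ℤ, ∃ u ∈ S18A1_K1 ℓ S, u ∈ A ∧ u⁻¹ ∈ A ∧ A.valuation u = 1 ∧ x = u * π ^ n := by
  obtain ⟨k, hk⟩ := S18A1_val_K1 A hℓ hA S hπ x hx hx0
  have hπ0 : π ≠ 0 := hπ.ne_zero
  have hvu : A.valuation (x * (π ^ k)⁻¹) = 1 := by
    rw [map_mul, map_inv₀, map_zpow₀, hk]
    exact mul_inv_cancel₀ (zpow_ne_zero _ ((_root_.map_ne_zero _).2 hπ0))
  refine ⟨k, x * (π ^ k)⁻¹, ?_, ?_, ?_, hvu, ?_⟩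
  · exact mul_mem hx (inv_mem (zpow_mem (S18A1_pi_mem_K1 A S hπ) k))
  · exact (A.valuation_le_one_iff _).1 hvu.le
  · refine (A.valuation_le_one_iff _).1 ?_
    rw [map_inv₀, hvu, inv_one]
  · rw [mul_assoc, inv_mul_cancel₀ (zpow_ne_zero _ hπ0), mul_one]

/-- **X-A1, existential form.** -/
theorem exists_baseDVR (ℓ : ℕ) [Fact ℓ.Prime] (A : ValuationSubring Qb)
    (hA : A.LiesOverPrime ℓ) (S : Finset Qb) :
    ∃ (K1 : IntermediateField ℚ Qb) (π : Qb),
      (∀ s ∈ S, s ∈ K1) ∧ (∀ n : ℕ, ¬ ℓ ∣ n → ∀ ζ : Qb, ζ ^ n = 1 → ζ ∈ K1) ∧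
      π ∈ K1 ∧ π ∈ A ∧ π ≠ 0 ∧ A.valuation π < 1 ∧
      (∀ x ∈ K1, x ≠ 0 → ∃ n : ℤ, ∃ u ∈ K1, u ∈ A ∧ u⁻¹ ∈ A ∧ x = u * π ^ n) ∧
      (∀ a ∈ A, ∃ b ∈ K1, b ∈ A ∧ A.valuation (a - b) < 1) := by
  have hℓ : ℓ.Prime := Fact.out
  obtain ⟨π, hπ⟩ := S18A1_exists_isUnif A hℓ hA S
  refine ⟨S18A1_K1 ℓ S, π, fun s hs => S18A1_mem_K1_of_mem ℓ S hs,
    fun n hn ζ hζ => S18A1_root_mem_K1 ℓ S hn hζ, S18A1_pi_mem_K1 A S hπ,
    S18A1_unif_mem_A hπ, hπ.ne_zero, hπ.lt_one, ?_, ?_⟩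
  · intro x hx hx0
    obtain ⟨n, u, hu, huA, huA', -, hxu⟩ := S18A1_factor A hℓ hA S hπ x hx hx0
    exact ⟨n, u, hu, huA, huA', hxu⟩
  · intro a ha
    exact S18A1_residue_surj A hℓ hA S a ha

/-! ### The base ring `O1 = K1 ∩ A` as a discrete valuation ring -/

/-- The base valuation ring `O1 = K1 ∩ A`, a valuation subring of `K1`. -/
def S18A1_O1 (ℓ : ℕ) (S : Finset Qb) : ValuationSubring (S18A1_K1 ℓ S) :=
  A.comap (algebraMap (S18A1_K1 ℓ S) Qb)

theorem S18A1_mem_O1 (S : Finset Qb) {x : S18A1_K1 ℓ S} :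
    x ∈ S18A1_O1 A ℓ S ↔ (x : Qb) ∈ A := Iff.rfl

theorem S18A1_O1_val_le (S : Finset Qb) (x : S18A1_O1 A ℓ S) :
    A.valuation ((x : S18A1_K1 ℓ S) : Qb) ≤ 1 :=
  (A.valuation_le_one_iff _).2 x.2

/-- The inclusion `O1 → A`. -/
def S18A1_inc (ℓ : ℕ) (S : Finset Qb) : ↥(S18A1_O1 A ℓ S) →+* ↥A :=
  ((algebraMap (S18A1_K1 ℓ S) Qb).comp (S18A1_O1 A ℓ S).subtype).codRestrict A (fun x => x.2)

@[simp] theorem S18A1_inc_coe (S : Finset Qb) (x : S18A1_O1 A ℓ S) :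
    ((S18A1_inc A ℓ S x : A) : Qb) = ((x : S18A1_K1 ℓ S) : Qb) := rfl

theorem S18A1_inc_injective (S : Finset Qb) : Function.Injective (S18A1_inc A ℓ S) := by
  intro x y h
  have h1 : ((x : S18A1_K1 ℓ S) : Qb) = ((y : S18A1_K1 ℓ S) : Qb) :=
    congrArg (fun z : A => (z : Qb)) h
  exact Subtype.ext (Subtype.ext h1)

/-- The residue map `O1 → ResidueField A`. -/
def S18A1_res (ℓ : ℕ) (S : Finset Qb) : ↥(S18A1_O1 A ℓ S) →+* IsLocalRing.ResidueField ↥A :=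
  (IsLocalRing.residue ↥A).comp (S18A1_inc A ℓ S)

theorem S18A1_res_apply (S : Finset Qb) (x : S18A1_O1 A ℓ S) :
    S18A1_res A ℓ S x = IsLocalRing.residue ↥A (S18A1_inc A ℓ S x) := rfl

theorem S18A1_isUnit_O1_iff (S : Finset Qb) (x : S18A1_O1 A ℓ S) :
    IsUnit x ↔ A.valuation ((x : S18A1_K1 ℓ S) : Qb) = 1 := by
  constructor
  · rintro ⟨u, rfl⟩
    have h1 := S18A1_O1_val_le A S (u : S18A1_O1 A ℓ S)
    have h2 := S18A1_O1_val_le A S ((u⁻¹ : (S18A1_O1 A ℓ S)ˣ) : S18A1_O1 A ℓ S)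
    have h3 : A.valuation (((u : S18A1_O1 A ℓ S) : S18A1_K1 ℓ S) : Qb) *
        A.valuation ((((u⁻¹ : (S18A1_O1 A ℓ S)ˣ) : S18A1_O1 A ℓ S) : S18A1_K1 ℓ S) : Qb) = 1 := by
      rw [← map_mul]
      have : (((u : S18A1_O1 A ℓ S) : S18A1_K1 ℓ S) : Qb) *
          ((((u⁻¹ : (S18A1_O1 A ℓ S)ˣ) : S18A1_O1 A ℓ S) : S18A1_K1 ℓ S) : Qb) = 1 := by
        exact congrArg (fun z : S18A1_O1 A ℓ S => ((z : S18A1_K1 ℓ S) : Qb)) u.mul_inv
      rw [this, map_one]
    refine le_antisymm h1 ?_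
    by_contra hlt
    push Not at hlt
    have : A.valuation (((u : S18A1_O1 A ℓ S) : S18A1_K1 ℓ S) : Qb) *
        A.valuation ((((u⁻¹ : (S18A1_O1 A ℓ S)ˣ) : S18A1_O1 A ℓ S) : S18A1_K1 ℓ S) : Qb) < 1 := by
      calc _ ≤ A.valuation (((u : S18A1_O1 A ℓ S) : S18A1_K1 ℓ S) : Qb) * 1 :=
            mul_le_mul_right h2 _
        _ = A.valuation (((u : S18A1_O1 A ℓ S) : S18A1_K1 ℓ S) : Qb) := mul_one _
        _ < 1 := hlt
    rw [h3] at this
    exact lt_irrefl _ this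
  · intro h
    have hx0 : ((x : S18A1_K1 ℓ S) : Qb) ≠ 0 := by
      intro h0
      rw [h0, map_zero] at h
      exact zero_ne_one h
    have hx0' : (x : S18A1_K1 ℓ S) ≠ 0 := by
      intro h0
      apply hx0
      rw [h0]; rfl
    have hinv : (x : S18A1_K1 ℓ S)⁻¹ ∈ S18A1_O1 A ℓ S := by
      rw [S18A1_mem_O1]
      refine (A.valuation_le_one_iff _).1 ?_
      have : (((x : S18A1_K1 ℓ S)⁻¹ : S18A1_K1 ℓ S) : Qb) = ((x : S18A1_K1 ℓ S) : Qb)⁻¹ := rfl
      rw [this, map_inv₀, h, inv_one]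
    refine isUnit_iff_exists_inv.2 ⟨⟨_, hinv⟩, ?_⟩
    apply Subtype.ext
    exact mul_inv_cancel₀ hx0'

theorem S18A1_mem_maximalIdeal_O1_iff (S : Finset Qb) (x : S18A1_O1 A ℓ S) :
    x ∈ IsLocalRing.maximalIdeal ↥(S18A1_O1 A ℓ S) ↔
      A.valuation ((x : S18A1_K1 ℓ S) : Qb) < 1 := by
  rw [IsLocalRing.mem_maximalIdeal, mem_nonunits_iff, S18A1_isUnit_O1_iff]
  exact ⟨fun h => lt_of_le_of_ne (S18A1_O1_val_le A S x) h, fun h => h.ne⟩

/-- The kernel of the residue map `O1 → ResidueField A` is the maximal ideal of `O1`. -/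
theorem S18A1_res_eq_zero_iff (S : Finset Qb) (x : S18A1_O1 A ℓ S) :
    S18A1_res A ℓ S x = 0 ↔ x ∈ IsLocalRing.maximalIdeal ↥(S18A1_O1 A ℓ S) := by
  rw [S18A1_res_apply, IsLocalRing.residue_eq_zero_iff, ValuationSubring.valuation_lt_one_iff,
    S18A1_mem_maximalIdeal_O1_iff]
  rfl

/-- The residue map `O1 → ResidueField A` is surjective. -/
theorem S18A1_res_surjective (hℓ : ℓ.Prime) (hA : A.LiesOverPrime ℓ) (S : Finset Qb) :
    Function.Surjective (S18A1_res A ℓ S) := by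
  intro y
  obtain ⟨a, rfl⟩ := IsLocalRing.residue_surjective y
  obtain ⟨b, hbK, hbA, hv⟩ := S18A1_residue_surj A hℓ hA S (a : Qb) a.2
  refine ⟨⟨⟨b, hbK⟩, hbA⟩, ?_⟩
  rw [S18A1_res_apply]
  symm
  rw [← sub_eq_zero, ← map_sub, IsLocalRing.residue_eq_zero_iff,
    ValuationSubring.valuation_lt_one_iff]
  exact hv

/-- The uniformiser as an element of `O1`. -/
def S18A1_piO1 (S : Finset Qb) {π : Qb} (hπ : S18A1_IsUnif A (S18A1_K0 S) π) :
    ↥(S18A1_O1 A ℓ S) :=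
  ⟨⟨π, S18A1_pi_mem_K1 A S hπ⟩, S18A1_unif_mem_A hπ⟩

@[simp] theorem S18A1_piO1_coe (S : Finset Qb) {π : Qb}
    (hπ : S18A1_IsUnif A (S18A1_K0 S) π) :
    (((S18A1_piO1 (ℓ := ℓ) A S hπ : S18A1_O1 A ℓ S) : S18A1_K1 ℓ S) : Qb) = π := rfl

theorem S18A1_piO1_ne_zero (S : Finset Qb) {π : Qb} (hπ : S18A1_IsUnif A (S18A1_K0 S) π) :
    S18A1_piO1 (ℓ := ℓ) A S hπ ≠ 0 := by
  intro h
  have := congrArg (fun z : S18A1_O1 A ℓ S => ((z : S18A1_K1 ℓ S) : Qb)) h
  exact hπ.ne_zero this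

/-- Every nonzero element of `O1` is associated to a power of the uniformiser. -/
theorem S18A1_exists_associated_pow (hℓ : ℓ.Prime) (hA : A.LiesOverPrime ℓ) (S : Finset Qb)
    {π : Qb} (hπ : S18A1_IsUnif A (S18A1_K0 S) π) (x : S18A1_O1 A ℓ S) (hx : x ≠ 0) :
    ∃ n : ℕ, Associated (S18A1_piO1 (ℓ := ℓ) A S hπ ^ n) x := by
  have hx0 : ((x : S18A1_K1 ℓ S) : Qb) ≠ 0 := by
    intro h0
    apply hx
    apply Subtype.ext
    apply Subtype.ext
    exact h0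
  obtain ⟨k, u, huK, huA, huA', hvu, hxu⟩ :=
    S18A1_factor A hℓ hA S hπ _ (x : S18A1_K1 ℓ S).2 hx0
  have hvx : A.valuation ((x : S18A1_K1 ℓ S) : Qb) = A.valuation π ^ k := by
    rw [hxu, map_mul, hvu, one_mul, map_zpow₀]
  have hk : 0 ≤ k := by
    have h1 := S18A1_O1_val_le A S x
    rw [hvx] at h1
    exact (zpow_le_one_iff_right_of_lt_one₀ (S18A1_val_pi_pos A hπ) hπ.lt_one).1 h1
  obtain ⟨n, rfl⟩ := Int.eq_ofNat_of_zero_le hk
  refine ⟨n, ?_⟩
  have huU : IsUnit (⟨⟨u, huK⟩, huA⟩ : S18A1_O1 A ℓ S) := (S18A1_isUnit_O1_iff A S _).2 hvu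
  obtain ⟨w, hw⟩ := huU
  refine ⟨w, ?_⟩
  apply Subtype.ext
  apply Subtype.ext
  rw [hw]
  change π ^ n * u = ((x : S18A1_K1 ℓ S) : Qb)
  rw [hxu, zpow_natCast, mul_comm]

theorem S18A1_piO1_not_isUnit (S : Finset Qb) {π : Qb} (hπ : S18A1_IsUnif A (S18A1_K0 S) π) :
    ¬ IsUnit (S18A1_piO1 (ℓ := ℓ) A S hπ) := by
  rw [S18A1_isUnit_O1_iff]
  exact hπ.lt_one.ne

/-- The uniformiser is irreducible in `O1`. -/
theorem S18A1_piO1_irreducible (hℓ : ℓ.Prime) (hA : A.LiesOverPrime ℓ) (S : Finset Qb)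
    {π : Qb} (hπ : S18A1_IsUnif A (S18A1_K0 S) π) :
    Irreducible (S18A1_piO1 (ℓ := ℓ) A S hπ) := by
  rw [irreducible_iff]
  refine ⟨S18A1_piO1_not_isUnit A S hπ, ?_⟩
  intro a b hab
  have ha0 : a ≠ 0 := by
    rintro rfl
    rw [zero_mul] at hab
    exact S18A1_piO1_ne_zero A S hπ hab
  have hb0 : b ≠ 0 := by
    rintro rfl
    rw [mul_zero] at hab
    exact S18A1_piO1_ne_zero A S hπ hab
  obtain ⟨m, u, hu⟩ := S18A1_exists_associated_pow A hℓ hA S hπ a ha0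
  obtain ⟨n, w, hw⟩ := S18A1_exists_associated_pow A hℓ hA S hπ b hb0
  rcases Nat.eq_zero_or_pos m with hm | hm
  · left
    rw [← hu, hm, pow_zero, one_mul]
    exact u.isUnit
  rcases Nat.eq_zero_or_pos n with hn | hn
  · right
    rw [← hw, hn, pow_zero, one_mul]
    exact w.isUnit
  exfalso
  -- valuation comparison: v π = v π ^ (m + n) with m + n ≥ 2
  have hva : A.valuation ((a : S18A1_K1 ℓ S) : Qb) = A.valuation π ^ m := by
    have h1 := congrArg (fun z : S18A1_O1 A ℓ S => A.valuation ((z : S18A1_K1 ℓ S) : Qb)) hu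
    rw [← h1]
    have h2 : ((((S18A1_piO1 (ℓ := ℓ) A S hπ ^ m * (u : S18A1_O1 A ℓ S) :
        S18A1_O1 A ℓ S) : S18A1_K1 ℓ S) : Qb)) =
        π ^ m * (((u : S18A1_O1 A ℓ S) : S18A1_K1 ℓ S) : Qb) := rfl
    rw [h2, map_mul, map_pow, (S18A1_isUnit_O1_iff A S _).1 u.isUnit, mul_one]
  have hvb : A.valuation ((b : S18A1_K1 ℓ S) : Qb) = A.valuation π ^ n := by
    have h1 := congrArg (fun z : S18A1_O1 A ℓ S => A.valuation ((z : S18A1_K1 ℓ S) : Qb)) hw
    rw [← h1]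
    have h2 : ((((S18A1_piO1 (ℓ := ℓ) A S hπ ^ n * (w : S18A1_O1 A ℓ S) :
        S18A1_O1 A ℓ S) : S18A1_K1 ℓ S) : Qb)) =
        π ^ n * (((w : S18A1_O1 A ℓ S) : S18A1_K1 ℓ S) : Qb) := rfl
    rw [h2, map_mul, map_pow, (S18A1_isUnit_O1_iff A S _).1 w.isUnit, mul_one]
  have hvπ : A.valuation π = A.valuation π ^ m * A.valuation π ^ n := by
    have h1 := congrArg (fun z : S18A1_O1 A ℓ S => A.valuation ((z : S18A1_K1 ℓ S) : Qb)) hab
    have h2 : (((a * b : S18A1_O1 A ℓ S) : S18A1_K1 ℓ S) : Qb) =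
        ((a : S18A1_K1 ℓ S) : Qb) * ((b : S18A1_K1 ℓ S) : Qb) := rfl
    rw [h2, map_mul, hva, hvb] at h1
    exact h1
  have hpos := S18A1_val_pi_pos A hπ
  have h1 : A.valuation π ^ m ≤ A.valuation π := by
    obtain ⟨d, rfl⟩ : ∃ d, m = d + 1 := ⟨m - 1, by omega⟩
    exact S18A1_pow_succ_le A hπ.lt_one.le d
  have h2 : A.valuation π ^ n < 1 := by
    obtain ⟨d, rfl⟩ : ∃ d, n = d + 1 := ⟨n - 1, by omega⟩
    exact lt_of_le_of_lt (S18A1_pow_succ_le A hπ.lt_one.le d) hπ.lt_one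
  have h3 : A.valuation π ^ m * A.valuation π ^ n < A.valuation π := by
    calc A.valuation π ^ m * A.valuation π ^ n < A.valuation π ^ m * 1 := by
          exact mul_lt_mul_of_pos_left h2 (pow_pos hpos m)
      _ = A.valuation π ^ m := mul_one _
      _ ≤ A.valuation π := h1
  rw [← hvπ] at h3
  exact lt_irrefl _ h3

/-- **`O1` is a discrete valuation ring.** -/
theorem S18A1_isDVR (hℓ : ℓ.Prime) (hA : A.LiesOverPrime ℓ) (S : Finset Qb) :
    IsDiscreteValuationRing ↥(S18A1_O1 A ℓ S) := by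
  obtain ⟨π, hπ⟩ := S18A1_exists_isUnif A hℓ hA S
  refine IsDiscreteValuationRing.ofHasUnitMulPowIrreducibleFactorization
    ⟨S18A1_piO1 (ℓ := ℓ) A S hπ, S18A1_piO1_irreducible A hℓ hA S hπ, ?_⟩
  intro x hx
  exact S18A1_exists_associated_pow A hℓ hA S hπ x hx

/-- The maximal ideal of `O1` is generated by the uniformiser. -/
theorem S18A1_maximalIdeal_eq (hℓ : ℓ.Prime) (hA : A.LiesOverPrime ℓ) (S : Finset Qb)
    {π : Qb} (hπ : S18A1_IsUnif A (S18A1_K0 S) π) :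
    IsLocalRing.maximalIdeal ↥(S18A1_O1 A ℓ S) =
      Ideal.span {S18A1_piO1 (ℓ := ℓ) A S hπ} := by
  haveI := S18A1_isDVR A hℓ hA S
  exact (S18A1_piO1_irreducible A hℓ hA S hπ).maximalIdeal_eq

/-- Elements with nonzero residue are units of `O1`. -/
theorem S18A1_isUnit_of_res_ne_zero (S : Finset Qb) (x : S18A1_O1 A ℓ S)
    (hx : S18A1_res A ℓ S x ≠ 0) : IsUnit x := by
  by_contra h
  apply hx
  rw [S18A1_res_eq_zero_iff, IsLocalRing.mem_maximalIdeal, mem_nonunits_iff]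
  exact h

/-- Integers prime to `ℓ` are units of `O1`. -/
theorem S18A1_isUnit_natCast (hℓ : ℓ.Prime) (hA : A.LiesOverPrime ℓ) (S : Finset Qb)
    (n : ℕ) (hn : ¬ ℓ ∣ n) : IsUnit ((n : ℕ) : S18A1_O1 A ℓ S) := by
  rw [S18A1_isUnit_O1_iff]
  have hn0 : n ≠ 0 := by rintro rfl; exact hn (dvd_zero _)
  have h1 : ((((n : ℕ) : S18A1_O1 A ℓ S) : S18A1_K1 ℓ S) : Qb) = (n : Qb) := by
    simp
  rw [h1]
  have := S18A1_val_int_eq_one A hℓ hA (n : ℤ) (by exact_mod_cast hn)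
  simpa using this

end Assembly

end Fermat.Agent.S18_helper5_BASE
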