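import Fermat.Agent.S18_helper25_COREDefs
import Fermat.Agent.S18_helper14_ADefs
import Fermat.Agent.S18_helper27_RESALGCL
import Fermat.Agent.S18_helper5_BASE

/-!
# S18: bridge between the abstract base of block A (`S18_helper14_ADefs`) and the concrete
carriers of the final assembly (`S18_helper25_COREDefs`)

For `O := A ∩ K1` (as a type), `K1` an intermediate field of `ℚ̄ / ℚ` (as a type),
`k :=` the residue field of `A` and `ρ := S18K_res A K1`, the carriers `OL`, `πL`, `F1L`, `VL`,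
`A0L`, `AinfL` of block A are EQUAL to the carriers `S18K_O`, `S18K_π`, `S18K_F1`, `S18K_V`,
`S18K_A0`, `S18K_Ainf`.  Hence the contract `S18K_BlocksAB` follows from `Setup` and `IG` stated
for the abstract base.
-/

set_option autoImplicit false
set_option linter.unusedSectionVars false
set_option linter.style.haveILetI false

open HahnSeries IntermediateField ModularCurve
open Fermat.Agent.S18_helper13_GAUSS Fermat.Agent.S18_helper9_CDefs
open Fermat.Agent.S18_helper25_COREDefs Fermat.Agent.S18A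

noncomputable section

namespace Fermat.Agent.S18_helper12_BRIDGE

variable (A : ValuationSubring (AlgebraicClosure ℚ))
  (K1 : IntermediateField ℚ (AlgebraicClosure ℚ))

/-- an intermediate field of `ℚ̄ / ℚ` is algebraic over `ℚ`. -/
theorem S18BR_isAlgebraic : Algebra.IsAlgebraic ℚ K1 := by
  haveI : Algebra.IsAlgebraic ℚ (AlgebraicClosure ℚ) := AlgebraicClosure.isAlgebraic ℚ
  exact Algebra.IsAlgebraic.of_injective (IsScalarTower.toAlgHom ℚ K1 (AlgebraicClosure ℚ))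
    (algebraMap K1 (AlgebraicClosure ℚ)).injective

/-- the residue field of `A` has characteristic `ℓ`. -/
theorem S18BR_charP {ℓ : ℕ} (hℓ : ℓ.Prime) (hA : A.LiesOverPrime ℓ) :
    CharP (IsLocalRing.ResidueField A) ℓ :=
  Fermat.Agent.S18_helper5_BASE.S18A1_charP_residue A hℓ hA

theorem S18BR_OL_eq : OL (S18K_O1 A K1) K1 = S18K_O A K1 := by
  ext x
  rw [mem_OL_iff, S18K_mem_O]
  constructor
  · rintro ⟨a, rfl⟩
    exact ⟨a.1, a.2, rfl⟩
  · rintro ⟨c, hc, rfl⟩
    exact ⟨⟨c, hc⟩, rfl⟩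

theorem S18BR_F1L_eq (N : ℕ) : F1L K1 N = S18K_F1 K1 N := rfl

theorem S18BR_A0L_eq (N : ℕ) : A0L (S18K_O1 A K1) K1 N = S18K_A0 A K1 N := by
  unfold A0L S18K_A0
  rw [S18BR_OL_eq]
  rfl

theorem S18BR_AinfL_eq (N : ℕ) : AinfL (S18K_O1 A K1) K1 N = S18K_Ainf A K1 N := by
  unfold AinfL S18K_Ainf
  rw [S18BR_OL_eq]
  rfl

section DVR

variable [IsDiscreteValuationRing (S18K_O1 A K1)]

theorem S18BR_gd_eq :
    gd (S18K_O1 A K1) K1 (S18K_res A K1) (S18K_res_eq_zero_iff A K1) = S18K_D A K1 := rfl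

theorem S18BR_πL_eq :
    πL (S18K_O1 A K1) K1 (S18K_res A K1) (S18K_res_eq_zero_iff A K1) = S18K_π A K1 := rfl

theorem S18BR_VL_eq (N : ℕ) :
    VL (S18K_O1 A K1) K1 (S18K_res A K1) (S18K_res_eq_zero_iff A K1) N = S18K_V A K1 N := rfl

/-- `Setup` for the abstract base, instantiated at `O1 = A ∩ K1`, is `Setup` for the concrete
carriers. -/
theorem S18BR_setup (N : ℕ)
    (h : Setup (OL (S18K_O1 A K1) K1)
      (πL (S18K_O1 A K1) K1 (S18K_res A K1) (S18K_res_eq_zero_iff A K1)) (jqModC K1)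
      (F1L K1 N) (VL (S18K_O1 A K1) K1 (S18K_res A K1) (S18K_res_eq_zero_iff A K1) N)
      (A0L (S18K_O1 A K1) K1 N) (AinfL (S18K_O1 A K1) K1 N)) :
    Setup (S18K_O A K1) (S18K_π A K1) (S18K_j K1) (S18K_F1 K1 N) (S18K_V A K1 N)
      (S18K_A0 A K1 N) (S18K_Ainf A K1 N) := by
  rw [S18BR_OL_eq, S18BR_A0L_eq, S18BR_AinfL_eq] at h
  exact h

theorem S18BR_IG0 (N : ℕ)
    (h : IG (πL (S18K_O1 A K1) K1 (S18K_res A K1) (S18K_res_eq_zero_iff A K1))
      (A0L (S18K_O1 A K1) K1 N)) :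
    IG (S18K_π A K1) (S18K_A0 A K1 N) := by
  rw [S18BR_A0L_eq] at h
  exact h

theorem S18BR_IGinf (N : ℕ)
    (h : IG (πL (S18K_O1 A K1) K1 (S18K_res A K1) (S18K_res_eq_zero_iff A K1))
      (AinfL (S18K_O1 A K1) K1 N)) :
    IG (S18K_π A K1) (S18K_Ainf A K1 N) := by
  rw [S18BR_AinfL_eq] at h
  exact h

end DVR

/-- the residue field of `O1 = A ∩ K1` is algebraically closed when `K1` is admissible. -/
theorem S18BR_isAlgClosed_residueField {ℓ : ℕ} (h : S18K_Admissible A K1 ℓ) :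
    IsAlgClosed (IsLocalRing.ResidueField (S18K_O1 A K1)) := by
  haveI := Fermat.Agent.S18_helper27_RESALGCL.S18RES_isAlgClosed_residueField_Qbar A
  exact Fermat.Agent.S18_helper27_RESALGCL.S18RES_isAlgClosed_of_surjective
    (S18K_res A K1) h.res_surj (S18K_res_eq_zero_iff A K1)

/-- **the bridge**: the contract `S18K_BlocksAB` of the final assembly follows from `Setup` and
`IG` at the abstract base of block A, instantiated at `O := A ∩ K1`, `ρ := S18K_res A K1`. -/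
theorem S18BR_blocksAB_of (N : ℕ) [NeZero N] (ℓ : ℕ)
    (hAB : ∀ (K1 : IntermediateField ℚ (AlgebraicClosure ℚ)) (h : S18K_Admissible A K1 ℓ),
      letI := h.dvr
      Setup (OL (S18K_O1 A K1) K1)
          (πL (S18K_O1 A K1) K1 (S18K_res A K1) (S18K_res_eq_zero_iff A K1)) (jqModC K1)
          (F1L K1 N) (VL (S18K_O1 A K1) K1 (S18K_res A K1) (S18K_res_eq_zero_iff A K1) N)
          (A0L (S18K_O1 A K1) K1 N) (AinfL (S18K_O1 A K1) K1 N) ∧
        IG (πL (S18K_O1 A K1) K1 (S18K_res A K1) (S18K_res_eq_zero_iff A K1))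
          (A0L (S18K_O1 A K1) K1 N) ∧
        IG (πL (S18K_O1 A K1) K1 (S18K_res A K1) (S18K_res_eq_zero_iff A K1))
          (AinfL (S18K_O1 A K1) K1 N)) :
    S18K_BlocksAB A N ℓ := by
  intro K1 h
  letI := h.dvr
  obtain ⟨h1, h2, h3⟩ := hAB K1 h
  exact ⟨S18BR_setup A K1 N h1, S18BR_IG0 A K1 N h2, S18BR_IGinf A K1 N h3⟩

end Fermat.Agent.S18_helper12_BRIDGE
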