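import Fermat.Agent.S18_helper25_COREDefs
import Fermat.Agent.S18_helper5_BASE

/-!
# S18: roots of unity in the base ring `O1 = A ∩ K1` of an admissible field `K1`

For an admissible `K1` (`S18K_Admissible A K1 ℓ`) and `n` prime to `ℓ`, the ring `O1 = A ∩ K1`
contains a primitive `n`-th root of unity; in particular an element `w` with `w ^ 2 + w + 1 = 0`
when `ℓ ≠ 3`.
-/

set_option autoImplicit false
set_option linter.unusedSectionVars false
set_option linter.style.haveILetI false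

open Fermat.Agent.S18_helper25_COREDefs

namespace Fermat.Agent.S18_helper12_ROOTS

variable (A : ValuationSubring (AlgebraicClosure ℚ))
  (K1 : IntermediateField ℚ (AlgebraicClosure ℚ))

/-- the inclusion `O1 → ℚ̄`. -/
noncomputable def S18RT_toQb : S18K_O1 A K1 →+* AlgebraicClosure ℚ :=
  (algebraMap K1 (AlgebraicClosure ℚ)).comp (S18K_O1 A K1).subtype

theorem S18RT_toQb_injective : Function.Injective (S18RT_toQb A K1) := by
  intro x y h
  apply Subtype.ext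
  apply Subtype.ext
  exact h

/-- roots of unity of order prime to `ℓ` lie in `O1 = A ∩ K1`. -/
theorem S18RT_exists_eq {ℓ : ℕ} (h : S18K_Admissible A K1 ℓ) {n : ℕ} (hn0 : n ≠ 0)
    (hn : ¬ ℓ ∣ n) (ζ : AlgebraicClosure ℚ) (hζ : ζ ^ n = 1) :
    ∃ z : S18K_O1 A K1, S18RT_toQb A K1 z = ζ :=
  ⟨⟨⟨ζ, h.roots n hn ζ hζ⟩, Fermat.Agent.S18_helper5_BASE.S18A1_root_mem_A A hn0 hζ⟩, rfl⟩

/-- `O1 = A ∩ K1` contains a primitive `n`-th root of unity for every `n` prime to `ℓ`. -/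
theorem S18RT_exists_primitiveRoot {ℓ : ℕ} (h : S18K_Admissible A K1 ℓ) {n : ℕ} (hn0 : n ≠ 0)
    (hn : ¬ ℓ ∣ n) : ∃ z : S18K_O1 A K1, IsPrimitiveRoot z n := by
  haveI : NeZero n := ⟨hn0⟩
  haveI : NeZero (n : AlgebraicClosure ℚ) := ⟨by exact_mod_cast hn0⟩
  obtain ⟨ζ, hζ⟩ := HasEnoughRootsOfUnity.exists_primitiveRoot (AlgebraicClosure ℚ) n
  obtain ⟨z, hz⟩ := S18RT_exists_eq A K1 h hn0 hn ζ hζ.pow_eq_one
  refine ⟨z, IsPrimitiveRoot.of_map_of_injective (f := S18RT_toQb A K1) ?_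
    (S18RT_toQb_injective A K1)⟩
  rw [hz]
  exact hζ

/-- a primitive cube root of unity in `O1` when `ℓ ≠ 3`. -/
theorem S18RT_exists_cubeRoot {ℓ : ℕ} (hℓ : ℓ.Prime) (h : S18K_Admissible A K1 ℓ)
    (hℓ3 : ℓ ≠ 3) : ∃ w : S18K_O1 A K1, w ^ 2 + w + 1 = 0 := by
  have h3 : ¬ ℓ ∣ 3 := by
    intro hdvd
    exact hℓ3 ((Nat.prime_dvd_prime_iff_eq hℓ Nat.prime_three).mp hdvd)
  obtain ⟨z, hz⟩ := S18RT_exists_primitiveRoot A K1 h (by norm_num : (3 : ℕ) ≠ 0) h3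
  refine ⟨z, ?_⟩
  have h1 : z ^ 3 = 1 := hz.pow_eq_one
  have hne : z ≠ 1 := hz.ne_one (by norm_num)
  have h2 : (z - 1) * (z ^ 2 + z + 1) = 0 := by linear_combination h1
  rcases mul_eq_zero.mp h2 with h3 | h3
  · exact absurd (sub_eq_zero.mp h3) hne
  · exact h3

/-- natural numbers prime to `ℓ` are units of `O1`. -/
theorem S18RT_isUnit_natCast {ℓ : ℕ} (hℓ : ℓ.Prime) (hA : A.LiesOverPrime ℓ) {n : ℕ}
    (hn : ¬ ℓ ∣ n) : IsUnit ((n : ℕ) : S18K_O1 A K1) := by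
  haveI : CharP (IsLocalRing.ResidueField A) ℓ :=
    Fermat.Agent.S18_helper5_BASE.S18A1_charP_residue A hℓ hA
  by_contra hnu
  have hmem : ((n : ℕ) : S18K_O1 A K1) ∈ IsLocalRing.maximalIdeal (S18K_O1 A K1) :=
    (IsLocalRing.mem_maximalIdeal _).mpr hnu
  have h0 : S18K_res A K1 ((n : ℕ) : S18K_O1 A K1) = 0 :=
    (S18K_res_eq_zero_iff A K1 _).mpr hmem
  rw [map_natCast] at h0
  exact hn ((CharP.cast_eq_zero_iff (IsLocalRing.ResidueField A) ℓ n).mp h0)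

end Fermat.Agent.S18_helper12_ROOTS
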