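import Fermat.Agent.S18_helper14_ADefs

/-!
# S18, block A: the `Setup` structure for the concrete carriers (helper14)

`setup_of` proves `S18_helper9_CDefs.Setup` for the carriers of `S18_helper14_ADefs` from
* the saturation of the two charts (`X-A-SAT`), and
* the finiteness of `F1` over `K1(j)` (`X-A-FIN`),
everything else coming from the Gauss valuation ring (helper13, `GAUSS`, `GAUSS2`).
-/

set_option autoImplicit false
set_option linter.unusedSectionVars false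
set_option linter.unusedVariables false

noncomputable section

open ModularCurve Fermat.Agent.S18_helper13_GAUSS Fermat.Agent.S18_helper9_CDefs

namespace Fermat.Agent.S18A

section Base

variable (O K1 : Type*) [CommRing O] [Field K1] [Algebra O K1]

/-- The embedding `O → K1((q))`, `a ↦ C a`. -/
def toL : O →+* LaurentSeries K1 :=
  (HahnSeries.C : K1 →+* LaurentSeries K1).comp (algebraMap O K1)

theorem toL_apply (a : O) : toL O K1 a = HahnSeries.C (algebraMap O K1 a) := rfl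

theorem OL_eq_range : OL O K1 = (toL O K1).range := rfl

theorem toL_injective [FaithfulSMul O K1] : Function.Injective (toL O K1) := by
  intro a b h
  have h1 : (HahnSeries.C (algebraMap O K1 a) : LaurentSeries K1) = HahnSeries.C (algebraMap O K1 b) := h
  exact FaithfulSMul.algebraMap_injective O K1 (HahnSeries.C_injective h1)

/-- `O ≃ OL`. -/
def equivOL [FaithfulSMul O K1] : O ≃+* OL O K1 :=
  RingEquiv.ofBijective (toL O K1).rangeRestrict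
    ⟨fun a b h => toL_injective O K1 (congrArg Subtype.val h),
      (toL O K1).rangeRestrict_surjective⟩

theorem coe_equivOL [FaithfulSMul O K1] (a : O) :
    ((equivOL O K1 a : OL O K1) : LaurentSeries K1) = HahnSeries.C (algebraMap O K1 a) := rfl

theorem algebraMap_eq_C (c : K1) :
    algebraMap K1 (LaurentSeries K1) c = HahnSeries.C c := by
  rw [algebraMap_laurentSeries_eq_single, HahnSeries.C_apply]

end Base

section Main

variable {O K1 : Type*} [CommRing O] [IsDomain O] [IsDiscreteValuationRing O] [Field K1]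
  [Algebra O K1] [IsFractionRing O K1]
variable {k : Type*} [Field k] (ρ : O →+* k)
  (hρ : ∀ x : O, ρ x = 0 ↔ x ∈ IsLocalRing.maximalIdeal O) (N : ℕ)

theorem gd_hK (c : K1) :
    ∃ a b : O, b ≠ 0 ∧ (gd O K1 ρ hρ).inc b * c = (gd O K1 ρ hρ).inc a := by
  obtain ⟨a, b, hb, rfl⟩ := IsFractionRing.div_surjective (A := O) c
  have hb0 : b ≠ 0 := nonZeroDivisors.ne_zero hb
  refine ⟨a, b, hb0, ?_⟩
  have : algebraMap O K1 b ≠ 0 := by
    simpa using (IsFractionRing.injective O K1).ne hb0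
  rw [gd_inc]
  field_simp

theorem mem_fracField_of_mem_F1L {x : LaurentSeries K1} (hx : x ∈ F1L K1 N) :
    x ∈ (gd O K1 ρ hρ).fracField :=
  (gd O K1 ρ hρ).modularFunctionFieldFullC_le_fracField (gd_hK ρ hρ) N x hx

theorem toL_eq_incS (a : O) :
    toL O K1 a = (gd O K1 ρ hρ).incS (HahnSeries.C a) := by
  rw [toL_apply, GaussData.incS, HahnSeries.C_apply, HahnSeries.C_apply, coeffMap_single]
  rfl

theorem OL_le_Vring : OL O K1 ≤ (gd O K1 ρ hρ).Vring := by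
  rintro x ⟨a, rfl⟩
  show toL O K1 a ∈ _
  rw [toL_eq_incS ρ hρ]
  exact (gd O K1 ρ hρ).incS_mem_Vring _

theorem OL_le_F1L : (OL O K1 : Set (LaurentSeries K1)) ⊆ F1L K1 N := by
  rintro x ⟨a, rfl⟩
  show toL O K1 a ∈ modularFunctionFieldFullC K1 N
  rw [toL_apply, ← algebraMap_eq_C]
  exact (modularFunctionFieldFullC K1 N).algebraMap_mem _

theorem πL_eq_toL : πL O K1 ρ hρ = toL O K1 (gd O K1 ρ hρ).π := rfl

theorem πL_mem_OL : πL O K1 ρ hρ ∈ OL O K1 := ⟨_, (πL_eq_toL ρ hρ).symm⟩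

theorem πL_mem_F1L : πL O K1 ρ hρ ∈ F1L K1 N := OL_le_F1L N (πL_mem_OL ρ hρ)

theorem πL_ne_zero : πL O K1 ρ hρ ≠ 0 := (gd O K1 ρ hρ).πK_ne_zero

theorem gd_π_irreducible : Irreducible (gd O K1 ρ hρ).π :=
  (IsDiscreteValuationRing.exists_irreducible O).choose_spec

theorem redFun_πL : (gd O K1 ρ hρ).redFun (πL O K1 ρ hρ) = 0 := by
  have h := (gd O K1 ρ hρ).redFun_πK_mul (one_mem _)
  rwa [mul_one] at h

theorem jq_mem_F1L : jqModC K1 ∈ F1L K1 N := jqModC_mem_full K1 N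

theorem jq_ne_zero : jqModC K1 ≠ 0 := jqModC_ne_zero_of_nontrivial K1

theorem redFun_jq_ne_zero : (gd O K1 ρ hρ).redFun (jqModC K1) ≠ 0 := by
  rw [(gd O K1 ρ hρ).redFun_jqModC]
  exact jqModC_ne_zero_of_nontrivial k

theorem jq_mem_VL : jqModC K1 ∈ VL O K1 ρ hρ N :=
  ⟨(gd O K1 ρ hρ).jqModC_mem_Vring, jq_mem_F1L N⟩

theorem jq_inv_mem_VL : (jqModC K1)⁻¹ ∈ VL O K1 ρ hρ N :=
  ⟨(gd O K1 ρ hρ).inv_mem_Vring (gd O K1 ρ hρ).jqModC_mem_Vring (redFun_jq_ne_zero ρ hρ),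
    (F1L K1 N).inv_mem (jq_mem_F1L N)⟩

/-- `V` is a valuation ring of `F1`. -/
theorem VL_val {x : LaurentSeries K1} (hx : x ∈ F1L K1 N) :
    x ∈ VL O K1 ρ hρ N ∨ x⁻¹ ∈ VL O K1 ρ hρ N := by
  rcases (gd O K1 ρ hρ).mem_or_inv_mem (mem_fracField_of_mem_F1L ρ hρ N hx) with h | h
  · exact Or.inl ⟨h, hx⟩
  · exact Or.inr ⟨h, (F1L K1 N).inv_mem hx⟩

/-- Units of `V` are the elements with nonzero reduction. -/
theorem inv_mem_VL {x : LaurentSeries K1} (hx : x ∈ VL O K1 ρ hρ N)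
    (h : (gd O K1 ρ hρ).redFun x ≠ 0) : x⁻¹ ∈ VL O K1 ρ hρ N :=
  ⟨(gd O K1 ρ hρ).inv_mem_Vring hx.1 h, (F1L K1 N).inv_mem hx.2⟩

theorem redFun_ne_zero_of_inv_mem {x : LaurentSeries K1} (hx : x ∈ VL O K1 ρ hρ N)
    (hx' : x⁻¹ ∈ VL O K1 ρ hρ N) (hx0 : x ≠ 0) : (gd O K1 ρ hρ).redFun x ≠ 0 := by
  intro h
  have h1 := (gd O K1 ρ hρ).redFun_mul hx.1 hx'.1
  rw [mul_inv_cancel₀ hx0, (gd O K1 ρ hρ).redFun_one, h, zero_mul] at h1
  exact one_ne_zero h1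

/-- Non-units of `V` are divisible by `π`. -/
theorem VL_unif {x : LaurentSeries K1} (hx : x ∈ VL O K1 ρ hρ N)
    (hx' : x⁻¹ ∉ VL O K1 ρ hρ N) : ∃ v ∈ VL O K1 ρ hρ N, x = πL O K1 ρ hρ * v := by
  have h0 : (gd O K1 ρ hρ).redFun x = 0 := by
    by_contra h
    exact hx' (inv_mem_VL ρ hρ N hx h)
  obtain ⟨y, hy, hxy⟩ := (gd O K1 ρ hρ).exists_eq_mul_of_redFun_eq_zero hx.1 h0
  refine ⟨y, ⟨hy, ?_⟩, hxy⟩
  have hy' : y = (πL O K1 ρ hρ)⁻¹ * x := by
    rw [hxy]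
    show y = ((gd O K1 ρ hρ).πK)⁻¹ * ((gd O K1 ρ hρ).πK * y)
    rw [← mul_assoc, inv_mul_cancel₀ (gd O K1 ρ hρ).πK_ne_zero, one_mul]
  rw [hy']
  exact (F1L K1 N).mul_mem ((F1L K1 N).inv_mem (πL_mem_F1L ρ hρ N)) hx.2

theorem πL_inv_notMem : (πL O K1 ρ hρ)⁻¹ ∉ VL O K1 ρ hρ N := by
  intro h
  have hπ : πL O K1 ρ hρ ∈ VL O K1 ρ hρ N :=
    ⟨(gd O K1 ρ hρ).πK_mem_Vring, πL_mem_F1L ρ hρ N⟩
  exact redFun_ne_zero_of_inv_mem ρ hρ N hπ h (πL_ne_zero ρ hρ) (redFun_πL ρ hρ)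

/-! ### The base ring -/

theorem dvr_OL : IsDiscreteValuationRing (OL O K1) :=
  IsDiscreteValuationRing.RingEquivClass.isDiscreteValuationRing (equivOL O K1)

theorem πL_irreducible (hπ : πL O K1 ρ hρ ∈ OL O K1) :
    Irreducible (⟨πL O K1 ρ hρ, hπ⟩ : OL O K1) := by
  have h : (⟨πL O K1 ρ hρ, hπ⟩ : OL O K1) = equivOL O K1 (gd O K1 ρ hρ).π := Subtype.ext rfl
  rw [h]
  exact (MulEquiv.irreducible_iff (equivOL O K1).toMulEquiv).mpr (gd_π_irreducible ρ hρ)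

/-- The retraction `OL → K1`. -/
def OLtoK : OL O K1 →+* K1 := (algebraMap O K1).comp (equivOL O K1).symm.toRingHom

theorem C_OLtoK (y : OL O K1) : HahnSeries.C (OLtoK (O := O) (K1 := K1) y) = (y : LaurentSeries K1) := by
  obtain ⟨a, rfl⟩ := (equivOL O K1).surjective y
  simp only [OLtoK, RingHom.comp_apply, RingEquiv.toRingHom_eq_coe, RingEquiv.coe_toRingHom,
    RingEquiv.symm_apply_apply]
  rfl

theorem OLtoK_injective : Function.Injective (OLtoK (O := O) (K1 := K1)) := by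
  intro x y h
  apply Subtype.ext
  rw [← C_OLtoK x, ← C_OLtoK y, h]

theorem isAlgebraic_K1_of_OL {x : LaurentSeries K1} (hx : IsAlgebraic (OL O K1) x) :
    IsAlgebraic K1 x := by
  obtain ⟨p, hp0, hp⟩ := hx
  refine ⟨p.map (OLtoK (O := O) (K1 := K1)), ?_, ?_⟩
  · exact (Polynomial.map_ne_zero_iff OLtoK_injective).mpr hp0
  · rw [Polynomial.aeval_def, Polynomial.eval₂_map]
    rw [Polynomial.aeval_def] at hp
    have hcomp : (algebraMap K1 (LaurentSeries K1)).comp (OLtoK (O := O) (K1 := K1)) =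
        algebraMap (OL O K1) (LaurentSeries K1) := by
      ext y : 1
      rw [RingHom.comp_apply, algebraMap_eq_C, C_OLtoK]
      rfl
    rw [hcomp]
    exact hp

theorem OL_algClosed (x : LaurentSeries K1) (hx : IsAlgebraic (OL O K1) x) :
    ∃ a ∈ OL O K1, ∃ b ∈ OL O K1, b ≠ 0 ∧ x * b = a := by
  obtain ⟨c, rfl⟩ := mem_range_C_of_isAlgebraic (isAlgebraic_K1_of_OL hx)
  obtain ⟨a, b, hb, rfl⟩ := IsFractionRing.div_surjective (A := O) c
  have hb0 : algebraMap O K1 b ≠ 0 := by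
    simpa using (IsFractionRing.injective O K1).ne (nonZeroDivisors.ne_zero hb)
  refine ⟨toL O K1 a, ⟨a, rfl⟩, toL O K1 b, ⟨b, rfl⟩, ?_, ?_⟩
  · rw [toL_apply]
    intro h
    exact hb0 (HahnSeries.C_injective (by rw [h, map_zero]))
  · rw [toL_apply, toL_apply, ← map_mul]
    congr 1
    field_simp

theorem jq_transcendental : Transcendental (OL O K1) (jqModC K1) := by
  intro halg
  obtain ⟨c, hc⟩ := mem_range_C_of_isAlgebraic (isAlgebraic_K1_of_OL halg)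
  have h1 := coeff_jqModC_neg_one K1
  rw [hc, HahnSeries.C_apply, HahnSeries.coeff_single_of_ne (by norm_num)] at h1
  exact zero_ne_one h1

/-! ### The charts -/

theorem adj_le_Vring {x : LaurentSeries K1} (hx : x ∈ (gd O K1 ρ hρ).Vring) :
    adj (OL O K1) x ≤ (gd O K1 ρ hρ).Vring := by
  rw [adj, Subring.closure_le]
  rintro y (hy | hy)
  · exact OL_le_Vring ρ hρ hy
  · rw [Set.mem_singleton_iff] at hy
    rw [hy]
    exact hx

theorem icl_le_VL {x : LaurentSeries K1} (hx : x ∈ (gd O K1 ρ hρ).Vring) :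
    icl (adj (OL O K1) x) (F1L K1 N) ≤ VL O K1 ρ hρ N := by
  rintro y ⟨hy, hyF⟩
  refine ⟨?_, hyF⟩
  refine (gd O K1 ρ hρ).mem_Vring_of_isIntegral ?_ ?_
  · exact mem_fracField_of_mem_F1L ρ hρ N hyF
  · have hy' : IsIntegral (adj (OL O K1) x) y := hy
    exact hy'.map_of_comp_eq (Subring.inclusion (adj_le_Vring ρ hρ hx)) (RingHom.id _)
      (by ext; rfl)

theorem sat_pow {A : Subring (LaurentSeries K1)}
    (hsat : ∀ v ∈ VL O K1 ρ hρ N, πL O K1 ρ hρ * v ∈ A → v ∈ A) :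
    ∀ (n : ℕ), ∀ v ∈ VL O K1 ρ hρ N, πL O K1 ρ hρ ^ n * v ∈ A → v ∈ A := by
  have hπ : πL O K1 ρ hρ ∈ VL O K1 ρ hρ N :=
    ⟨(gd O K1 ρ hρ).πK_mem_Vring, πL_mem_F1L ρ hρ N⟩
  intro n
  induction n with
  | zero => intro v _ h; simpa using h
  | succ n ih =>
    intro v hv h
    apply ih v hv
    apply hsat _ (Subring.mul_mem _ (Subring.pow_mem _ hπ n) hv)
    rw [← mul_assoc, ← pow_succ']
    exact h

/-- Normalisation: a nonzero element of a saturated chart is a power of `π` times an element of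
the chart which is a unit of `V`. -/
theorem exists_normalize {A : Subring (LaurentSeries K1)} (hAV : A ≤ VL O K1 ρ hρ N)
    (hsat : ∀ v ∈ VL O K1 ρ hρ N, πL O K1 ρ hρ * v ∈ A → v ∈ A)
    {c : LaurentSeries K1} (hc : c ∈ A) (hc0 : c ≠ 0) :
    ∃ (n : ℕ) (c' : LaurentSeries K1), c' ∈ A ∧ c'⁻¹ ∈ VL O K1 ρ hρ N ∧
      c = πL O K1 ρ hρ ^ n * c' := by
  have hcV := hAV hc
  obtain ⟨z, u, hu, hu0, hcu⟩ :=
    (gd O K1 ρ hρ).exists_zpow_mul hc0 (mem_fracField_of_mem_F1L ρ hρ N hcV.2)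
  have hπ0 := (gd O K1 ρ hρ).πK_ne_zero
  have hz : 0 ≤ z := by
    by_contra hneg
    rw [not_le] at hneg
    obtain ⟨m, hm⟩ := Int.eq_ofNat_of_zero_le (show 0 ≤ -z by omega)
    have hm0 : m ≠ 0 := by
      rintro rfl
      simp at hm
      omega
    have hu' : u = (gd O K1 ρ hρ).πK ^ m * c := by
      rw [hcu, ← zpow_natCast, ← hm, ← mul_assoc, ← zpow_add₀ hπ0]
      simp
    apply hu0
    rw [hu', (gd O K1 ρ hρ).redFun_mul (Subring.pow_mem _ (gd O K1 ρ hρ).πK_mem_Vring m) hcV.1,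
      (gd O K1 ρ hρ).redFun_pow (gd O K1 ρ hρ).πK_mem_Vring]
    have h0 : (gd O K1 ρ hρ).redFun (gd O K1 ρ hρ).πK = 0 := redFun_πL ρ hρ
    rw [h0, zero_pow hm0, zero_mul]
  obtain ⟨n, rfl⟩ := Int.eq_ofNat_of_zero_le hz
  rw [zpow_natCast] at hcu
  have huF : u ∈ F1L K1 N := by
    have : u = ((gd O K1 ρ hρ).πK ^ n)⁻¹ * c := by
      rw [hcu, ← mul_assoc, inv_mul_cancel₀ (pow_ne_zero n hπ0), one_mul]
    rw [this]
    exact (F1L K1 N).mul_mem ((F1L K1 N).inv_mem ((F1L K1 N).pow_mem (πL_mem_F1L ρ hρ N) n))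
      hcV.2
  have huV : u ∈ VL O K1 ρ hρ N := ⟨hu, huF⟩
  refine ⟨n, u, ?_, inv_mem_VL ρ hρ N huV hu0, hcu⟩
  apply sat_pow ρ hρ N hsat n u huV
  show (gd O K1 ρ hρ).πK ^ n * u ∈ A
  rw [← hcu]
  exact hc

theorem chart_loc {A : Subring (LaurentSeries K1)} (hAV : A ≤ VL O K1 ρ hρ N)
    (hsat : ∀ v ∈ VL O K1 ρ hρ N, πL O K1 ρ hρ * v ∈ A → v ∈ A)
    (hfrac : ∀ v ∈ F1L K1 N, ∃ b ∈ A, b ≠ 0 ∧ v * b ∈ A) :
    ∀ v ∈ VL O K1 ρ hρ N, ∃ b ∈ A, b ≠ 0 ∧ b⁻¹ ∈ VL O K1 ρ hρ N ∧ v * b ∈ A := by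
  intro v hv
  obtain ⟨b0, hb0, hb0ne, hvb0⟩ := hfrac v hv.2
  obtain ⟨n, b, hb, hbinv, rfl⟩ := exists_normalize ρ hρ N hAV hsat hb0 hb0ne
  have hbne : b ≠ 0 := by
    rintro rfl
    exact hb0ne (mul_zero _)
  refine ⟨b, hb, hbne, hbinv, ?_⟩
  apply sat_pow ρ hρ N hsat n (v * b) (Subring.mul_mem _ hv (hAV hb))
  have : πL O K1 ρ hρ ^ n * (v * b) = v * (πL O K1 ρ hρ ^ n * b) := by ring
  rw [this]
  exact hvb0

/-- **Block A, main theorem (conditional form).** The `Setup` of block C for the concrete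
carriers, from the saturation of the charts, `Frac A = F1` and the finiteness of `F1/K1(j)`. -/
theorem setup_of
    (hsat0 : ∀ v ∈ VL O K1 ρ hρ N, πL O K1 ρ hρ * v ∈ A0L O K1 N → v ∈ A0L O K1 N)
    (hsatInf : ∀ v ∈ VL O K1 ρ hρ N, πL O K1 ρ hρ * v ∈ AinfL O K1 N → v ∈ AinfL O K1 N)
    (hfrac0 : ∀ v ∈ F1L K1 N, ∃ b ∈ A0L O K1 N, b ≠ 0 ∧ v * b ∈ A0L O K1 N)
    (hfracInf : ∀ v ∈ F1L K1 N, ∃ b ∈ AinfL O K1 N, b ≠ 0 ∧ v * b ∈ AinfL O K1 N)
    (hfin : ∃ s : Finset (LaurentSeries K1), ∀ x ∈ F1L K1 N,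
      ∃ c : LaurentSeries K1 → LaurentSeries K1,
        (∀ y, c y ∈ Subfield.closure ((OL O K1 : Set (LaurentSeries K1)) ∪ {jqModC K1})) ∧
          x = ∑ y ∈ s, c y * y) :
    Setup (OL O K1) (πL O K1 ρ hρ) (jqModC K1) (F1L K1 N) (VL O K1 ρ hρ N)
      (A0L O K1 N) (AinfL O K1 N) where
  dvr := dvr_OL
  π_mem := πL_mem_OL ρ hρ
  π_irr := πL_irreducible ρ hρ
  algClosed := OL_algClosed
  j_trans := jq_transcendental
  j_mem := jq_mem_F1L N
  O_le := OL_le_F1L N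
  finite := hfin
  V_le := fun _ hx => hx.2
  V_val := fun _ hx => VL_val ρ hρ N hx
  V_unif := fun _ hx hx' => VL_unif ρ hρ N hx hx'
  π_nonunit := πL_inv_notMem ρ hρ N
  chart0 :=
    { mem_iff := fun _ => Iff.rfl
      x_inv_mem := jq_inv_mem_VL ρ hρ N
      le_V := icl_le_VL ρ hρ N (gd O K1 ρ hρ).jqModC_mem_Vring
      sat := hsat0
      loc := chart_loc ρ hρ N (icl_le_VL ρ hρ N (gd O K1 ρ hρ).jqModC_mem_Vring) hsat0 hfrac0 }
  chartInf :=
    { mem_iff := fun _ => Iff.rfl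
      x_inv_mem := by rw [inv_inv]; exact jq_mem_VL ρ hρ N
      le_V := icl_le_VL ρ hρ N (jq_inv_mem_VL ρ hρ N).1
      sat := hsatInf
      loc := chart_loc ρ hρ N (icl_le_VL ρ hρ N (jq_inv_mem_VL ρ hρ N).1) hsatInf hfracInf }

end Main

end Fermat.Agent.S18A
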