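import Mathlib
import Fermat.Agent.S18_helper26_CONST
import Fermat.Agent.S18_helper25_GLUE
import Fermat.Agent.S24_helper23_DEG
import Fermat.Agent.S24_helper23_CARD
import Fermat.Agent.S24_helper23_GEN
import Fermat.Agent.S24_helper10_LOCinf
import Fermat.Agent.S24_helper28_DEGleAlg

/-!
# S18, piece X-B5b-DEGK1: the degree of the modular function field over `K1(j)`

For a field `K1` of characteristic zero with an embedding `emb : K1 →+* ℚ̄`:
`[K1(j(q^d) : d ∣ N) : K1(j)] = mu N`.
-/

set_option autoImplicit false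
set_option linter.unusedSectionVars false
set_option linter.style.haveILetI false

open Polynomial IntermediateField AlgebraicCurve ModularCurve
open Fermat.Agent.S20 Fermat.Agent.S24 Fermat.Agent.S24_helper28_DEGleAlg
open Fermat.Agent.S18_helper26_CONST Fermat.Agent.S18_helper25_GLUE

namespace Fermat.Agent.S18_helper26_DEGK1

section Generic

variable {K E : Type*} [Field K] [Field E] [Algebra K E]

open scoped IntermediateField.algebraAdjoinAdjoin in
/-- An element integral over `K(u)` satisfies a nonzero two-variable relation with `u` whose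
degree is at most the degree of its minimal polynomial. -/
theorem S18DEG_exists_rel_natDegree (u v : E) (hu : Transcendental K u)
    (hv : IsIntegral K⟮u⟯ v) :
    ∃ Q : Polynomial (Polynomial K), Q ≠ 0 ∧ Q.natDegree ≤ (minpoly K⟮u⟯ v).natDegree ∧
      Polynomial.eval₂ (Polynomial.eval₂RingHom (algebraMap K E) u) v Q = 0 := by
  classical
  set p := minpoly K⟮u⟯ v with hp
  have hp0 : p ≠ 0 := minpoly.ne_zero hv
  set p' := IsLocalization.integerNormalization (nonZeroDivisors (Algebra.adjoin K {u})) p
    with hp'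
  have hp'0 : p' ≠ 0 := by
    intro h
    exact hp0 ((IsFractionRing.integerNormalization_eq_zero_iff).1 h)
  have hp'root : Polynomial.aeval v p' = 0 :=
    IsLocalization.integerNormalization_aeval_eq_zero _ p (minpoly.aeval _ _)
  have hp'deg : p'.natDegree ≤ p.natDegree := by
    have hsupp := IsLocalization.integerNormalization_support
      (nonZeroDivisors (Algebra.adjoin K {u})) p
    rw [Polynomial.natDegree_le_iff_coeff_eq_zero]
    intro i hi
    by_contra hne
    have h1 : i ∈ p'.support := Polynomial.mem_support_iff.2 hne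
    have h2 := Polynomial.mem_support_iff.1 (hsupp h1)
    exact h2 (Polynomial.coeff_eq_zero_of_natDegree_lt hi)
  let φ : Polynomial K →+* Algebra.adjoin K {u} :=
    ((Polynomial.aeval u : Polynomial K →ₐ[K] E).codRestrict (Algebra.adjoin K {u})
      (fun q => Polynomial.aeval_mem_adjoin_singleton K u)).toRingHom
  have hφs : Function.Surjective φ := by
    rintro ⟨a, ha⟩
    have ha' := ha
    rw [Algebra.adjoin_singleton_eq_range_aeval] at ha'
    obtain ⟨q, hq⟩ := ha'
    exact ⟨q, Subtype.ext hq⟩
  have hφi : Function.Injective φ := by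
    rw [injective_iff_map_eq_zero]
    intro q hq
    by_contra hq0
    apply hu
    refine ⟨q, hq0, ?_⟩
    exact congrArg Subtype.val hq
  obtain ⟨Q, hQ⟩ := Polynomial.map_surjective φ hφs p'
  refine ⟨Q, ?_, ?_, ?_⟩
  · rintro rfl
    apply hp'0
    rw [← hQ, Polynomial.map_zero]
  · rw [← Polynomial.natDegree_map_eq_of_injective hφi Q, hQ]
    exact hp'deg
  · have hcomp : (algebraMap (Algebra.adjoin K {u}) E).comp φ =
        Polynomial.eval₂RingHom (algebraMap K E) u := by
      apply Polynomial.ringHom_ext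
      · intro a
        simp [φ]
      · simp [φ]
    rw [← hcomp, ← Polynomial.eval₂_map, hQ]
    exact hp'root

end Generic

section Inc

variable {K1 : Type*} [Field K1] (emb : K1 →+* Kbar) (N : ℕ) [NeZero N]

/-- The inclusion of the function field over `K1` into the function field over `ℚ̄`
(the restriction of `coeffMap emb`). -/
noncomputable def S18DEG_inc :
    modularFunctionFieldFullC K1 N →+* modularFunctionFieldBar N where
  toFun x := ⟨coeffMap emb (x : LaurentSeries K1), by
    rw [S18G_bar_eq]
    exact S18G_coeffMap_mem emb N x.2⟩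
  map_one' := Subtype.ext (map_one (coeffMap emb))
  map_mul' x y := Subtype.ext (map_mul (coeffMap emb) (x : LaurentSeries K1) y)
  map_zero' := Subtype.ext (map_zero (coeffMap emb))
  map_add' x y := Subtype.ext (map_add (coeffMap emb) (x : LaurentSeries K1) y)

@[simp]
theorem S18DEG_inc_coe (x : modularFunctionFieldFullC K1 N) :
    ((S18DEG_inc emb N x : modularFunctionFieldBar N) : LaurentSeries Kbar) =
      coeffMap emb (x : LaurentSeries K1) := rfl

/-- (H1) of helper10 #839. -/
theorem S18DEG_inc_algebraMap (a : K1) :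
    S18DEG_inc emb N (algebraMap K1 (modularFunctionFieldFullC K1 N) a) =
      algebraMap Kbar (modularFunctionFieldBar N) (emb a) := by
  apply Subtype.ext
  rw [S18DEG_inc_coe]
  exact S18G_coeffMap_algebraMap emb a

theorem S18DEG_jLaur (d : ℕ) [NeZero d] : jLaur d = qExpand Kbar d (jqModC Kbar) := by
  show coeffMap (algebraMap ℚ Kbar) (qExpand ℚ d (jqModC ℚ)) = _
  exact S18G_coeffMap_gen (algebraMap ℚ Kbar) d

/-- (H2) of helper10 #839. -/
theorem S18DEG_inc_jbard (d : ℕ) [NeZero d] (hd : d ∣ N) :
    S18DEG_inc emb N (S18P15_jbard K1 N d hd) = jF N d hd := by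
  apply Subtype.ext
  rw [S18DEG_inc_coe]
  show coeffMap emb (qExpand K1 d (jqModC K1)) = jLaur d
  rw [S18DEG_jLaur, S18G_coeffMap_gen]

/-- (H3) of helper10 #839. -/
theorem S18DEG_inc_jbar : S18DEG_inc emb N (S18P15_jbar K1 N) = jElt N := by
  apply Subtype.ext
  rw [S18DEG_inc_coe]
  show coeffMap emb (jqModC K1) = jLaur 1
  rw [S18DEG_jLaur, qExpand_one_apply, coeffMap_jqModC]

theorem S18DEG_jbard_one : S18P15_jbard K1 N 1 (one_dvd N) = S18P15_jbar K1 N := by
  apply Subtype.ext
  show qExpand K1 1 (jqModC K1) = jqModC K1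
  rw [qExpand_one_apply]

end Inc

section Upper

variable {K1 : Type*} [Field K1] [CharZero K1] (emb : K1 →+* Kbar) (N : ℕ) [NeZero N]

include emb

/-- every element of the function field over `K1` satisfies a relation of degree `≤ mu N`. -/
theorem S18DEG_stepA (y : modularFunctionFieldFullC K1 N) :
    ∃ Q : Polynomial (Polynomial K1), Q ≠ 0 ∧ Q.natDegree ≤ mu N ∧
      ev2 (jqModC K1) (y : LaurentSeries K1) Q = 0 := by
  obtain ⟨hfin, hdeg⟩ := Fermat.Agent.S24_helper23_DEG.DEG N
  haveI := hfin
  have hint : IsIntegral Kbar⟮jElt N⟯ (S18DEG_inc emb N y) := IsIntegral.of_finite _ _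
  obtain ⟨P, hP0, hPd, hP⟩ := S18DEG_exists_rel_natDegree (jElt N) (S18DEG_inc emb N y)
    (Fermat.Agent.S24_helper23_GEN.TR N) hint
  have hPd' : P.natDegree ≤ mu N := by
    refine hPd.trans ?_
    rw [← hdeg]
    exact minpoly.natDegree_le _
  letI : Algebra K1 Kbar := emb.toAlgebra
  have h1 := congrArg (algebraMap (modularFunctionFieldBar N) (LaurentSeries Kbar)) hP
  rw [map_zero, Polynomial.hom_eval₂] at h1
  have hcomp : (algebraMap (modularFunctionFieldBar N) (LaurentSeries Kbar)).comp
      (Polynomial.eval₂RingHom (algebraMap Kbar (modularFunctionFieldBar N)) (jElt N)) =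
      Polynomial.eval₂RingHom (HahnSeries.C : Kbar →+* LaurentSeries Kbar)
        (coeffMap (algebraMap K1 Kbar) (jqModC K1)) := by
    apply Polynomial.ringHom_ext
    · intro a
      rw [S18P15_C_eq_algebraMap]
      simp
    · simp only [RingHom.comp_apply, Polynomial.coe_eval₂RingHom, Polynomial.eval₂_X]
      show jLaur 1 = _
      rw [S18DEG_jLaur, qExpand_one_apply, coeffMap_jqModC]
  rw [hcomp] at h1
  have h2 : ev2 (coeffMap (algebraMap K1 Kbar) (jqModC K1))
      (coeffMap (algebraMap K1 Kbar) (y : LaurentSeries K1)) P = 0 := h1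
  obtain ⟨Q, hQ0, hQd, hQ⟩ := descend_relation (K := K1) (L := Kbar) (jqModC K1)
    (y : LaurentSeries K1) P hP0 h2
  exact ⟨Q, hQ0, hQd.trans hPd', hQ⟩

theorem S18DEG_finrank_le :
    Module.finrank K1⟮S18P15_jbar K1 N⟯ (modularFunctionFieldFullC K1 N) ≤ mu N := by
  have h := finrank_le_of_relations (K := K1) (F := modularFunctionFieldFullC K1 N)
    (algebraMap (modularFunctionFieldFullC K1 N) (LaurentSeries K1))
    (fun a => by rw [S18P15_C_eq_algebraMap]; rfl)
    ⊤ (fun θ => IntermediateField.subset_adjoin K1 _ (Set.mem_univ θ))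
    (S18P15_jbar K1 N) (Set.mem_univ _) (S18P15_transcendental_jbar K1 N) (mu N)
    (fun y _ => S18DEG_stepA emb N y)
  exact h.2

end Upper

section Lower

variable {K1 : Type*} [Field K1] [CharZero K1] (emb : K1 →+* Kbar) (N : ℕ) [NeZero N]

include emb

theorem S18DEG_le_finrank :
    mu N ≤ Module.finrank K1⟮S18P15_jbar K1 N⟯ (modularFunctionFieldFullC K1 N) := by
  classical
  obtain ⟨ζ, ι, -, hK, hinj, hj, -, -⟩ := Fermat.Agent.S24_helper10_LOCinf.LOC_inf N
  haveI := S18P15_finiteDimensional K1 N
  have hinj' : Function.Injective (fun q : Q N => (ι q).comp (S18DEG_inc emb N)) := by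
    intro q q' h
    apply hinj
    refine Fermat.Agent.S24_helper23_GEN.ringHom_ext_FN N (ι q) (ι q')
      (fun a => by rw [hK q a, hK q' a]) ?_
    intro d _ hd
    have := congrArg (fun f : modularFunctionFieldFullC K1 N →+* LaurentSeries ℂ =>
      f (S18P15_jbard K1 N d hd)) h
    simp only [RingHom.comp_apply, S18DEG_inc_jbard] at this
    exact this
  have h := Fermat.Agent.S24_helper23_CARD.CARD (K := K1) (S18P15_jbar K1 N)
    (fun q : Q N => (ι q).comp (S18DEG_inc emb N)) hinj'
    (fun q q' a => by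
      simp only [RingHom.comp_apply, S18DEG_inc_algebraMap]
      rw [hK q, hK q'])
    (fun q q' => by
      simp only [RingHom.comp_apply, S18DEG_inc_jbar]
      exact hj q q')
  rw [mu, Nat.card_eq_fintype_card]
  exact h

end Lower

section Main

variable {K1 : Type*} [Field K1] [CharZero K1] (emb : K1 →+* Kbar) (N : ℕ) [NeZero N]

include emb

/-- **X-B5b-DEGK1**: `[K1(j(q^d) : d ∣ N) : K1(j)] = mu N`. -/
theorem S18DEG_finrank :
    Module.finrank K1⟮S18P15_jbar K1 N⟯ (modularFunctionFieldFullC K1 N) = mu N :=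
  le_antisymm (S18DEG_finrank_le emb N) (S18DEG_le_finrank emb N)

/-- (H4) of helper10 #839. -/
theorem S18DEG_finrank_card :
    Module.finrank K1⟮S18P15_jbar K1 N⟯ (modularFunctionFieldFullC K1 N) =
      Fintype.card (Q N) := by
  rw [S18DEG_finrank emb N, mu, Nat.card_eq_fintype_card]

/-- the same over `K1(1/j)`. -/
theorem S18DEG_finrank_inv :
    Module.finrank K1⟮(S18P15_jbar K1 N)⁻¹⟯ (modularFunctionFieldFullC K1 N) = mu N := by
  rw [Fermat.Agent.S24_helper6_A2.finrank_adjoin_inv]
  exact S18DEG_finrank emb N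

theorem S18DEG_finrank_inv_card :
    Module.finrank K1⟮(S18P15_jbar K1 N)⁻¹⟯ (modularFunctionFieldFullC K1 N) =
      Fintype.card (Q N) := by
  rw [S18DEG_finrank_inv emb N, mu, Nat.card_eq_fintype_card]

omit emb in
theorem S18DEG_finiteDimensional_inv :
    FiniteDimensional K1⟮(S18P15_jbar K1 N)⁻¹⟯ (modularFunctionFieldFullC K1 N) := by
  haveI := S18P15_finiteDimensional K1 N
  exact Fermat.Agent.S24_helper6_A2.finiteDimensional_adjoin_inv (S18P15_jbar K1 N)

end Main

end Fermat.Agent.S18_helper26_DEGK1
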