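import Fermat.Agent.S18_helper10_LOCDATA
import Fermat.Agent.S18_helper26_DEGK1

/-!
# S18, piece X-B5b-HLOC: the local analytic data for the concrete function field

`F₁ = modularFunctionFieldFullC K₁ N`, `j = S18P15_jbar K₁ N`: the hypothesis `hloc` of the
abstract assembly of X-B5b-HOR for the three covers `lam`, `mu`, `tau`, with no hypothesis left
on the function field (combination of `S18_helper10_LOCDATA` and `S18_helper26_DEGK1`).
-/

set_option autoImplicit false
set_option linter.unusedSectionVars false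

open IntermediateField ModularCurve
open Fermat.Agent.S20 Fermat.Agent.S24
open Fermat.Agent.S18_helper10_LOCDATA Fermat.Agent.S18_helper29_COVERS
open Fermat.Agent.S18_helper26_CONST Fermat.Agent.S18_helper26_DEGK1

namespace Fermat.Agent.S18_helper10_HLOC

variable {K1 : Type} [Field K1] [CharZero K1] {O : Type} [CommRing O] [Algebra O K1]
  (N : ℕ) [NeZero N]

/-- **hloc, Legendre cover**, for `F₁ = modularFunctionFieldFullC K₁ N`. -/
theorem S18XB5_hloc_lam_FullC (hOK : Function.Injective (algebraMap O K1)) (emb : K1 →+* Kbar)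
    (π t₀ : O) (hden : ¬ π ∣ (lamDen O).eval t₀) (θ : ℂ)
    (hθ : ∀ p : Polynomial O,
      p ∉ (Ideal.span {Polynomial.C π, Polynomial.X - Polynomial.C t₀} : Ideal (Polynomial O)) →
      Polynomial.eval₂ ((phi0.comp emb).comp (algebraMap O K1)) θ p ≠ 0)
    (hθalg : ∃ p : Polynomial O, p ≠ 0 ∧
      Polynomial.eval₂ ((phi0.comp emb).comp (algebraMap O K1)) θ p = 0) :
    ∃ (T : PowerSeries ℂ) (κ : Type) (_ : Fintype κ)
      (ι : κ → modularFunctionFieldFullC K1 N →+* LaurentSeries ℂ),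
      PowerSeries.constantCoeff T = θ ∧ PowerSeries.coeff 1 T ≠ 0 ∧
      Function.Injective ι ∧
      (∀ q a, ι q (algebraMap K1 (modularFunctionFieldFullC K1 N) a) =
        HahnSeries.C ((phi0.comp emb) a)) ∧
      (∀ q, ι q (S18P15_jbar K1 N) * HahnSeries.ofPowerSeries ℤ ℂ (Polynomial.eval₂
          ((PowerSeries.C : ℂ →+* PowerSeries ℂ).comp
            ((phi0.comp emb).comp (algebraMap O K1))) T (lamDen O)) =
        HahnSeries.ofPowerSeries ℤ ℂ (Polynomial.eval₂
          ((PowerSeries.C : ℂ →+* PowerSeries ℂ).comp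
            ((phi0.comp emb).comp (algebraMap O K1))) T (lamNum O))) ∧
      Fintype.card κ =
        Module.finrank K1⟮S18P15_jbar K1 N⟯ (modularFunctionFieldFullC K1 N) :=
  S18XB5_hloc_lam N hOK emb (S18DEG_inc emb N) (S18DEG_inc_algebraMap emb N)
    (fun d _ hd => ⟨S18P15_jbard K1 N d hd, S18DEG_inc_jbard emb N d hd⟩) (S18P15_jbar K1 N)
    (S18DEG_inc_jbar emb N) (S18DEG_finrank_card emb N) π t₀ hden θ hθ hθalg

/-- **hloc, Hesse cover**, for `F₁ = modularFunctionFieldFullC K₁ N`. -/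
theorem S18XB5_hloc_mu_FullC (hOK : Function.Injective (algebraMap O K1)) (emb : K1 →+* Kbar)
    (π t₀ : O) (hden : ¬ π ∣ (muDen O).eval t₀) (θ : ℂ)
    (hθ : ∀ p : Polynomial O,
      p ∉ (Ideal.span {Polynomial.C π, Polynomial.X - Polynomial.C t₀} : Ideal (Polynomial O)) →
      Polynomial.eval₂ ((phi0.comp emb).comp (algebraMap O K1)) θ p ≠ 0)
    (hθalg : ∃ p : Polynomial O, p ≠ 0 ∧
      Polynomial.eval₂ ((phi0.comp emb).comp (algebraMap O K1)) θ p = 0) :
    ∃ (T : PowerSeries ℂ) (κ : Type) (_ : Fintype κ)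
      (ι : κ → modularFunctionFieldFullC K1 N →+* LaurentSeries ℂ),
      PowerSeries.constantCoeff T = θ ∧ PowerSeries.coeff 1 T ≠ 0 ∧
      Function.Injective ι ∧
      (∀ q a, ι q (algebraMap K1 (modularFunctionFieldFullC K1 N) a) =
        HahnSeries.C ((phi0.comp emb) a)) ∧
      (∀ q, ι q (S18P15_jbar K1 N) * HahnSeries.ofPowerSeries ℤ ℂ (Polynomial.eval₂
          ((PowerSeries.C : ℂ →+* PowerSeries ℂ).comp
            ((phi0.comp emb).comp (algebraMap O K1))) T (muDen O)) =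
        HahnSeries.ofPowerSeries ℤ ℂ (Polynomial.eval₂
          ((PowerSeries.C : ℂ →+* PowerSeries ℂ).comp
            ((phi0.comp emb).comp (algebraMap O K1))) T (muNum O))) ∧
      Fintype.card κ =
        Module.finrank K1⟮S18P15_jbar K1 N⟯ (modularFunctionFieldFullC K1 N) :=
  S18XB5_hloc_mu N hOK emb (S18DEG_inc emb N) (S18DEG_inc_algebraMap emb N)
    (fun d _ hd => ⟨S18P15_jbard K1 N d hd, S18DEG_inc_jbard emb N d hd⟩) (S18P15_jbar K1 N)
    (S18DEG_inc_jbar emb N) (S18DEG_finrank_card emb N) π t₀ hden θ hθ hθalg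

/-- **hloc, cusp cover** (`x = j⁻¹ = t ^ N`), for `F₁ = modularFunctionFieldFullC K₁ N`. -/
theorem S18XB5_hloc_tau_FullC (hOK : Function.Injective (algebraMap O K1)) (emb : K1 →+* Kbar)
    (π t₀ : O) (hπ : ¬ IsUnit π) (ht₀ : π ∣ t₀) (θ : ℂ)
    (hθ : ∀ p : Polynomial O,
      p ∉ (Ideal.span {Polynomial.C π, Polynomial.X - Polynomial.C t₀} : Ideal (Polynomial O)) →
      Polynomial.eval₂ ((phi0.comp emb).comp (algebraMap O K1)) θ p ≠ 0)
    (hθalg : ∃ p : Polynomial O, p ≠ 0 ∧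
      Polynomial.eval₂ ((phi0.comp emb).comp (algebraMap O K1)) θ p = 0) :
    ∃ (T : PowerSeries ℂ) (κ : Type) (_ : Fintype κ)
      (ι : κ → modularFunctionFieldFullC K1 N →+* LaurentSeries ℂ),
      PowerSeries.constantCoeff T = θ ∧ PowerSeries.coeff 1 T ≠ 0 ∧
      Function.Injective ι ∧
      (∀ q a, ι q (algebraMap K1 (modularFunctionFieldFullC K1 N) a) =
        HahnSeries.C ((phi0.comp emb) a)) ∧
      (∀ q, ι q (S18P15_jbar K1 N)⁻¹ * HahnSeries.ofPowerSeries ℤ ℂ (Polynomial.eval₂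
          ((PowerSeries.C : ℂ →+* PowerSeries ℂ).comp
            ((phi0.comp emb).comp (algebraMap O K1))) T (1 : Polynomial O)) =
        HahnSeries.ofPowerSeries ℤ ℂ (Polynomial.eval₂
          ((PowerSeries.C : ℂ →+* PowerSeries ℂ).comp
            ((phi0.comp emb).comp (algebraMap O K1))) T (Polynomial.X ^ N : Polynomial O))) ∧
      Fintype.card κ =
        Module.finrank K1⟮(S18P15_jbar K1 N)⁻¹⟯ (modularFunctionFieldFullC K1 N) :=
  S18XB5_hloc_tau N hOK emb (S18DEG_inc emb N) (S18DEG_inc_algebraMap emb N)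
    (fun d _ hd => ⟨S18P15_jbard K1 N d hd, S18DEG_inc_jbard emb N d hd⟩) (S18P15_jbar K1 N)
    (S18DEG_inc_jbar emb N) (S18DEG_finrank_card emb N) π t₀ hπ ht₀ θ hθ hθalg

end Fermat.Agent.S18_helper10_HLOC
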