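import Fermat.Agent.S18_helper16_HOR
import Fermat.Agent.S18_helper10_HLOC

/-!
# S18, block B, piece X-B5b-HOR (concrete form)

The horizontal input `S18B_Hor` of the purity theorem for the function field
`F₁ = modularFunctionFieldFullC K₁ N` and the three covers `lam` (Legendre), `mu` (Hesse) and
`tau` (cusp), obtained by plugging helper10's local analytic data (`S18_helper10_HLOC`) into the
abstract assembly `S18HOR_of_local`.
-/

set_option autoImplicit false
set_option linter.unusedSectionVars false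
set_option linter.style.haveILetI false

open Polynomial IntermediateField ModularCurve
open Fermat.Agent.S20 Fermat.Agent.S24
open Fermat.Agent.S18_helper17_BDefs Fermat.Agent.S18_helper29_COVERS
open Fermat.Agent.S18_helper26_CONST Fermat.Agent.S18_helper26_DEGK1
open Fermat.Agent.S18_helper10_HLOC Fermat.Agent.S18_helper16_HOR

namespace Fermat.Agent.S18_helper16_HORC

variable {O K1 : Type} [CommRing O] [IsDomain O] [IsDiscreteValuationRing O]
  [Field K1] [CharZero K1] [Algebra O K1] [IsFractionRing O K1] (N : ℕ) [NeZero N]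
  [Algebra O (modularFunctionFieldFullC K1 N)]
  [IsScalarTower O K1 (modularFunctionFieldFullC K1 N)]

/-- **X-B5b-HOR, Legendre cover.** -/
theorem S18HOR_lam (emb : K1 →+* Kbar) (π : O) (hπ : Irreducible π) (t₀ : O)
    (hden : ¬ π ∣ (lamDen O).eval t₀) :
    S18B_Hor O (modularFunctionFieldFullC K1 N) π (S18P15_jbar K1 N) (lamNum O) (lamDen O)
      t₀ := by
  haveI : FiniteDimensional K1⟮S18P15_jbar K1 N⟯ (modularFunctionFieldFullC K1 N) :=
    S18P15_finiteDimensional K1 N
  refine S18HOR_of_local π hπ (S18P15_jbar K1 N) (S18P15_transcendental_jbar K1 N)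
    (lamNum O) (lamDen O) ?_ t₀ (phi0.comp emb)
    (fun θ hθ hθalg => S18XB5_hloc_lam_FullC N (IsFractionRing.injective O K1) emb π t₀ hden θ
      hθ hθalg)
  intro E _ _ _ _ t hrel
  haveI : CharZero (modularFunctionFieldFullC K1 N) :=
    charZero_of_injective_algebraMap (algebraMap K1 (modularFunctionFieldFullC K1 N)).injective
  haveI : CharZero E :=
    charZero_of_injective_algebraMap (algebraMap (modularFunctionFieldFullC K1 N) E).injective
  unfold S18B_rel at hrel
  rw [aeval_lamNum, aeval_lamDen] at hrel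
  rw [aeval_lamDen]
  exact pow_ne_zero 2 (lam_den_ne_zero two_ne_zero _ t hrel)

/-- **X-B5b-HOR, Hesse cover.** -/
theorem S18HOR_mu (emb : K1 →+* Kbar) (π : O) (hπ : Irreducible π) (t₀ : O)
    (hden : ¬ π ∣ (muDen O).eval t₀) :
    S18B_Hor O (modularFunctionFieldFullC K1 N) π (S18P15_jbar K1 N) (muNum O) (muDen O)
      t₀ := by
  haveI : FiniteDimensional K1⟮S18P15_jbar K1 N⟯ (modularFunctionFieldFullC K1 N) :=
    S18P15_finiteDimensional K1 N
  refine S18HOR_of_local π hπ (S18P15_jbar K1 N) (S18P15_transcendental_jbar K1 N)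
    (muNum O) (muDen O) ?_ t₀ (phi0.comp emb)
    (fun θ hθ hθalg => S18XB5_hloc_mu_FullC N (IsFractionRing.injective O K1) emb π t₀ hden θ
      hθ hθalg)
  intro E _ _ _ _ t hrel
  haveI : CharZero (modularFunctionFieldFullC K1 N) :=
    charZero_of_injective_algebraMap (algebraMap K1 (modularFunctionFieldFullC K1 N)).injective
  haveI : CharZero E :=
    charZero_of_injective_algebraMap (algebraMap (modularFunctionFieldFullC K1 N) E).injective
  unfold S18B_rel at hrel
  rw [aeval_muNum, aeval_muDen] at hrel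
  rw [aeval_muDen]
  exact pow_ne_zero 3 (mu_den_ne_zero three_ne_zero _ t hrel)

/-- **X-B5b-HOR, cusp cover** (`x = j⁻¹ = t ^ N`). -/
theorem S18HOR_tau (emb : K1 →+* Kbar) (π : O) (hπ : Irreducible π) (t₀ : O) (ht₀ : π ∣ t₀) :
    S18B_Hor O (modularFunctionFieldFullC K1 N) π (S18P15_jbar K1 N)⁻¹ (X ^ N) 1 t₀ := by
  haveI : FiniteDimensional K1⟮(S18P15_jbar K1 N)⁻¹⟯ (modularFunctionFieldFullC K1 N) :=
    S18DEG_finiteDimensional_inv (K1 := K1) N
  have htr : Transcendental K1 (S18P15_jbar K1 N)⁻¹ := by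
    intro h
    exact S18P15_transcendental_jbar K1 N (by simpa using h.inv)
  refine S18HOR_of_local π hπ (S18P15_jbar K1 N)⁻¹ htr
    (X ^ N) 1 ?_ t₀ (phi0.comp emb)
    (fun θ hθ hθalg => S18XB5_hloc_tau_FullC N (IsFractionRing.injective O K1) emb π t₀
      hπ.not_isUnit ht₀ θ hθ hθalg)
  intro E _ _ _ _ t _
  rw [map_one]
  exact one_ne_zero

end Fermat.Agent.S18_helper16_HORC
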