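import Mathlib

/-!
# S18, block B, piece X-B7a-DVRINV

`S18B_invariant_mem_pow`: let `D` be a discrete valuation ring with a faithful action of a
finite group `S` such that every residue class modulo the maximal ideal contains an
`S`-invariant element. Then every `S`-invariant element of the maximal ideal lies in
`𝔪 ^ |S|`.

The proof is elementary (no fraction fields, no Galois theory, no ramification theory):
if `x` is invariant of valuation `m`, then every element of `D` is congruent modulo `x ^ k`
to a polynomial of degree `< m` in a uniformiser `t` with invariant coefficients; applied to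
`t ^ m` and conjugated by `m + 1` elements of `S`, a Vandermonde determinant argument shows
that `S` cannot have more than `m` elements.
-/

set_option autoImplicit false

namespace Fermat.Agent.S18_helper19_DVRINV

open IsLocalRing

section Approx

variable {D : Type*} [CommRing D] {S : Type*} [Group S] [MulSemiringAction S D]

/-- Successive approximation: if every class modulo `t` has an invariant representative,
every element is congruent modulo `t ^ k` to a polynomial of degree `< k` in `t` with
invariant coefficients. -/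
theorem S18B_approx_pow (t : D)
    (hres : ∀ d : D, ∃ a : D, (∀ h : S, h • a = a) ∧ t ∣ d - a) (k : ℕ) (d : D) :
    ∃ a : ℕ → D, (∀ i, ∀ h : S, h • a i = a i) ∧
      t ^ k ∣ d - ∑ i ∈ Finset.range k, a i * t ^ i := by
  induction k with
  | zero => exact ⟨fun _ => 0, fun _ _ => smul_zero _, by simp⟩
  | succ k ih =>
    obtain ⟨a, ha, d1, hd1⟩ := ih
    obtain ⟨b, hb, d2, hd2⟩ := hres d1
    refine ⟨fun i => if i = k then b else a i, ?_, d2, ?_⟩
    · intro i h
      by_cases hik : i = k
      · simp only [if_pos hik]; exact hb h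
      · simp only [if_neg hik]; exact ha i h
    · rw [Finset.sum_range_succ]
      have hsum : ∑ i ∈ Finset.range k, (if i = k then b else a i) * t ^ i
          = ∑ i ∈ Finset.range k, a i * t ^ i := by
        apply Finset.sum_congr rfl
        intro i hi
        rw [if_neg (Finset.mem_range.1 hi).ne]
      rw [hsum]
      beta_reduce
      rw [if_pos rfl, pow_succ]
      linear_combination hd1 + t ^ k * hd2

/-- Iteration: if `x = u * t ^ m` is invariant (`u` a unit), every element is congruent
modulo `x ^ k` to a polynomial of degree `< m` in `t` with invariant coefficients. -/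
theorem S18B_approx_invariant (t x u v : D) (m : ℕ) (hx : x = u * t ^ m) (huv : u * v = 1)
    (hxinv : ∀ h : S, h • x = x)
    (hres : ∀ d : D, ∃ a : D, (∀ h : S, h • a = a) ∧ t ∣ d - a) (k : ℕ) (d : D) :
    ∃ a : ℕ → D, (∀ i, ∀ h : S, h • a i = a i) ∧
      x ^ k ∣ d - ∑ i ∈ Finset.range m, a i * t ^ i := by
  induction k generalizing d with
  | zero => exact ⟨fun _ => 0, fun _ _ => smul_zero _, by simp⟩
  | succ k ih =>
    obtain ⟨a, ha, d1, hd1⟩ := S18B_approx_pow t hres m d
    obtain ⟨b, hb, d2, hd2⟩ := ih (v * d1)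
    refine ⟨fun i => a i + x * b i, ?_, d2, ?_⟩
    · intro i h
      rw [smul_add, smul_mul', ha i h, hb i h, hxinv h]
    · have hsum : ∑ i ∈ Finset.range m, (a i + x * b i) * t ^ i
          = ∑ i ∈ Finset.range m, a i * t ^ i + x * ∑ i ∈ Finset.range m, b i * t ^ i := by
        rw [Finset.mul_sum, ← Finset.sum_add_distrib]
        apply Finset.sum_congr rfl
        intro i _
        ring
      rw [hsum, pow_succ]
      have hxt : t ^ m = x * v := by
        rw [hx]
        linear_combination (-(t ^ m)) * huv
      linear_combination hd1 + x * hd2 + d1 * hxt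

/-- The action of `h` on a polynomial in `t` with invariant coefficients. -/
theorem S18B_smul_sum (t : D) (a : ℕ → D) (h : S) (ha : ∀ i, h • a i = a i) (m : ℕ) :
    h • ∑ i ∈ Finset.range m, a i * t ^ i = ∑ i ∈ Finset.range m, a i * (h • t) ^ i := by
  rw [Finset.smul_sum]
  apply Finset.sum_congr rfl
  intro i _
  rw [smul_mul', smul_pow', ha i]

end Approx

section DVR

variable {D : Type*} [CommRing D] [IsDomain D] [IsDiscreteValuationRing D]
  {S : Type*} [Group S] [MulSemiringAction S D]

/-- In a DVR, an element divisible by all powers of a non-unit is zero. -/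
theorem S18B_eq_zero_of_forall_pow_dvd {x y : D} (hx : ¬ IsUnit x) (h : ∀ k : ℕ, x ^ k ∣ y) :
    y = 0 := by
  by_contra hy
  exact (FiniteMultiplicity.not_iff_forall.2 h) (FiniteMultiplicity.of_not_isUnit hx hy)

/-- An element of `S` fixing the uniformiser `t` acts trivially. -/
theorem S18B_smul_eq_of_smul_uniformizer (t x u v : D) (m : ℕ) (hx : x = u * t ^ m)
    (huv : u * v = 1) (hxnu : ¬ IsUnit x) (hxinv : ∀ h : S, h • x = x)
    (hres : ∀ d : D, ∃ a : D, (∀ h : S, h • a = a) ∧ t ∣ d - a)
    (h : S) (ht : h • t = t) (d : D) : h • d = d := by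
  have key : ∀ k : ℕ, x ^ k ∣ h • d - d := by
    intro k
    obtain ⟨a, ha, d', hd'⟩ := S18B_approx_invariant t x u v m hx huv hxinv hres k d
    refine ⟨h • d' - d', ?_⟩
    have h1 : h • (d - ∑ i ∈ Finset.range m, a i * t ^ i) = h • (x ^ k * d') := by rw [hd']
    rw [smul_sub, S18B_smul_sum t a h (fun i => ha i h), ht, smul_mul', smul_pow', hxinv h] at h1
    linear_combination h1 - hd'
  exact sub_eq_zero.1 (S18B_eq_zero_of_forall_pow_dvd hxnu key)

end DVR

/-- **X-B7a-DVRINV.** `S`-invariant elements of the maximal ideal of a DVR `D` with faithful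
action of a finite group `S` and `S`-fixed residue representatives lie in `𝔪 ^ |S|`. -/
theorem S18B_invariant_mem_pow
    {D : Type*} [CommRing D] [IsDomain D] [IsDiscreteValuationRing D]
    {S : Type*} [Group S] [Finite S] [MulSemiringAction S D] [FaithfulSMul S D]
    (hres : ∀ d : D, ∃ a : D, (∀ h : S, h • a = a) ∧ d - a ∈ IsLocalRing.maximalIdeal D)
    (x : D) (hx : x ∈ IsLocalRing.maximalIdeal D) (hinv : ∀ h : S, h • x = x) :
    x ∈ (IsLocalRing.maximalIdeal D) ^ (Nat.card S) := by
  classical
  rcases eq_or_ne x 0 with rfl | hx0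
  · exact Ideal.zero_mem _
  obtain ⟨t, ht⟩ := IsDiscreteValuationRing.exists_irreducible D
  have hmax : IsLocalRing.maximalIdeal D = Ideal.span {t} := ht.maximalIdeal_eq
  have hres' : ∀ d : D, ∃ a : D, (∀ h : S, h • a = a) ∧ t ∣ d - a := by
    intro d
    obtain ⟨a, ha, hda⟩ := hres d
    rw [hmax, Ideal.mem_span_singleton] at hda
    exact ⟨a, ha, hda⟩
  have hxnu : ¬ IsUnit x := by
    rwa [IsLocalRing.mem_maximalIdeal, mem_nonunits_iff] at hx
  obtain ⟨m, hm⟩ := IsDiscreteValuationRing.associated_pow_irreducible hx0 ht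
  obtain ⟨w, hw⟩ := hm.symm
  -- `t ^ m * w = x`
  have hxu : x = (w : D) * t ^ m := by rw [← hw]; ring
  have huv : (w : D) * ((w⁻¹ : Dˣ) : D) = 1 := Units.mul_inv w
  -- it suffices to show `Nat.card S ≤ m`
  suffices hle : Nat.card S ≤ m by
    rw [hmax, Ideal.span_singleton_pow, Ideal.mem_span_singleton, hxu]
    exact Dvd.dvd.mul_left (pow_dvd_pow t hle) _
  by_contra hlt
  rw [not_le] at hlt
  let _ : Fintype S := Fintype.ofFinite S
  have hcard : Fintype.card (Fin (m + 1)) ≤ Fintype.card S := by
    rw [Fintype.card_fin, ← Nat.card_eq_fintype_card]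
    exact hlt
  obtain ⟨e⟩ := Function.Embedding.nonempty_of_card_le hcard
  -- the conjugates of `t`
  let r : Fin (m + 1) → D := fun i => e i • t
  have hr : Function.Injective r := by
    intro i i' hii
    apply e.injective
    have h1 : (e i')⁻¹ • (e i • t) = t := by
      have : e i • t = e i' • t := hii
      rw [this, inv_smul_smul]
    rw [← mul_smul] at h1
    have h2 : (e i')⁻¹ * e i = 1 := by
      apply FaithfulSMul.eq_of_smul_eq_smul (α := D)
      intro d
      rw [one_smul]
      exact S18B_smul_eq_of_smul_uniformizer t x w ((w⁻¹ : Dˣ) : D) m hxu huv hxnu hinv hres'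
        _ h1 d
    exact (inv_mul_eq_one.1 h2).symm
  have hdet : (Matrix.vandermonde r).det ≠ 0 := Matrix.det_vandermonde_ne_zero_iff.2 hr
  apply hdet
  apply S18B_eq_zero_of_forall_pow_dvd hxnu
  intro k
  obtain ⟨a, ha, d', hd'⟩ :=
    S18B_approx_invariant t x w ((w⁻¹ : Dˣ) : D) m hxu huv hinv hres' k (t ^ m)
  -- the coefficient vector of `X ^ m - ∑ a i X ^ i`
  let c : Fin (m + 1) → D := fun j => if (j : ℕ) < m then - a j else 1
  let wv : Fin (m + 1) → D := fun i => e i • d'
  have hVc : (Matrix.vandermonde r).mulVec c = x ^ k • wv := by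
    funext i
    have h1 : e i • (t ^ m - ∑ j ∈ Finset.range m, a j * t ^ j) = e i • (x ^ k * d') := by
      rw [hd']
    rw [smul_sub, S18B_smul_sum t a (e i) (fun j => ha j (e i)), smul_pow', smul_mul',
      smul_pow', hinv] at h1
    show ∑ j : Fin (m + 1), Matrix.vandermonde r i j * c j = (x ^ k • wv) i
    have h2 : ∑ j : Fin (m + 1), Matrix.vandermonde r i j * c j
        = ∑ j ∈ Finset.range (m + 1), r i ^ j * (if j < m then - a j else 1) := by
      rw [← Fin.sum_univ_eq_sum_range (fun j => r i ^ j * (if j < m then - a j else 1)) (m + 1)]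
      apply Finset.sum_congr rfl
      intro j _
      rw [Matrix.vandermonde_apply]
    rw [h2, Finset.sum_range_succ, if_neg (lt_irrefl m)]
    have h3 : ∑ j ∈ Finset.range m, r i ^ j * (if j < m then - a j else 1)
        = - ∑ j ∈ Finset.range m, a j * (e i • t) ^ j := by
      rw [← Finset.sum_neg_distrib]
      apply Finset.sum_congr rfl
      intro j hj
      rw [if_pos (Finset.mem_range.1 hj)]
      show (e i • t) ^ j * (- a j) = _
      ring
    rw [h3]
    show _ = x ^ k * (e i • d')
    show - ∑ j ∈ Finset.range m, a j * (e i • t) ^ j + (e i • t) ^ m * 1 = _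
    linear_combination h1
  have hadj : (Matrix.vandermonde r).det • c
      = x ^ k • (Matrix.adjugate (Matrix.vandermonde r)).mulVec wv := by
    have h1 : (Matrix.adjugate (Matrix.vandermonde r)).mulVec ((Matrix.vandermonde r).mulVec c)
        = (Matrix.vandermonde r).det • c := by
      rw [Matrix.mulVec_mulVec, Matrix.adjugate_mul, Matrix.smul_mulVec, Matrix.one_mulVec]
    rw [← h1, hVc, Matrix.mulVec_smul]
  have hlast := congrFun hadj (Fin.last m)
  have hc : c (Fin.last m) = 1 := by
    show (if ((Fin.last m : Fin (m + 1)) : ℕ) < m then - a _ else 1) = 1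
    rw [if_neg (by simp)]
  simp only [Pi.smul_apply, smul_eq_mul, hc, mul_one] at hlast
  exact ⟨_, hlast⟩

end Fermat.Agent.S18_helper19_DVRINV
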