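import Mathlib
import Fermat.Agent.S18_helper19_DVRINV

/-!
# S18, block B, piece X-B7-NORM: the norm descent

`A = B^H`, `B` finite over `A`; if `B/π` is, locally at every maximal ideal `m'` over `m`,
a discrete valuation ring on which the stabiliser of `m'` acts faithfully with trivial residue
field extension, then `A/π` is, locally at `m`, a discrete valuation ring whose uniformiser is
the norm of a suitable element of `B`.
-/

set_option autoImplicit false
set_option linter.unusedSectionVars false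
set_option linter.style.haveILetI false

open scoped Pointwise

namespace Fermat.Agent.S18_helper12_NORM

section DVR

variable {R : Type*} [CommRing R] [IsLocalRing R] [IsNoetherianRing R]

/-- in a noetherian local ring with principal maximal ideal `(t)`, every nonzero element is a
unit times a power of `t`. -/
theorem exists_unit_mul_pow (t : R) (ht : IsLocalRing.maximalIdeal R = Ideal.span {t})
    (x : R) (hx : x ≠ 0) : ∃ (n : ℕ) (u : R), IsUnit u ∧ x = u * t ^ n := by
  have hbot : ⨅ i : ℕ, IsLocalRing.maximalIdeal R ^ i = ⊥ :=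
    Ideal.iInf_pow_eq_bot_of_isLocalRing _ (IsLocalRing.maximalIdeal.isMaximal R).ne_top
  -- there is a largest `n` with `x ∈ m ^ n`
  have hex : ∃ n : ℕ, x ∉ IsLocalRing.maximalIdeal R ^ n := by
    by_contra hcon
    apply hx
    have : x ∈ ⨅ i : ℕ, IsLocalRing.maximalIdeal R ^ i := by
      rw [Ideal.mem_iInf]
      intro i
      by_contra hi
      exact hcon ⟨i, hi⟩
    rw [hbot] at this
    exact this
  classical
  set n := Nat.find hex with hn
  have hn1 : x ∉ IsLocalRing.maximalIdeal R ^ n := Nat.find_spec hex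
  have hn0 : n ≠ 0 := by
    intro h0
    rw [h0, pow_zero, Ideal.one_eq_top] at hn1
    exact hn1 trivial
  obtain ⟨k, hk⟩ : ∃ k, n = k + 1 := ⟨n - 1, by omega⟩
  have hk1 : x ∈ IsLocalRing.maximalIdeal R ^ k := by
    by_contra hcon
    have := Nat.find_min' hex hcon
    omega
  rw [ht, Ideal.span_singleton_pow, Ideal.mem_span_singleton] at hk1
  obtain ⟨u, hu⟩ := hk1
  refine ⟨k, u, ?_, by rw [hu, mul_comm]⟩
  by_contra hunit
  have hum : u ∈ IsLocalRing.maximalIdeal R := (IsLocalRing.mem_maximalIdeal u).mpr hunit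
  rw [ht, Ideal.mem_span_singleton] at hum
  obtain ⟨v, hv⟩ := hum
  apply hn1
  rw [hk, ht, Ideal.span_singleton_pow, Ideal.mem_span_singleton]
  exact ⟨v, by rw [hu, hv, pow_succ]; ring⟩

/-- a noetherian local ring whose maximal ideal is generated by a non-nilpotent element is a
domain. -/
theorem isDomain_of_maximalIdeal_eq_span (t : R)
    (ht : IsLocalRing.maximalIdeal R = Ideal.span {t}) (hnil : ∀ n : ℕ, t ^ n ≠ 0) :
    IsDomain R := by
  have hnzd : NoZeroDivisors R := by
    refine ⟨?_⟩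
    intro a b hab
    by_contra hcon
    rw [not_or] at hcon
    obtain ⟨n, u, hu, rfl⟩ := exists_unit_mul_pow t ht a hcon.1
    obtain ⟨k, v, hv, rfl⟩ := exists_unit_mul_pow t ht b hcon.2
    have h1 : (u * v) * t ^ (n + k) = 0 := by
      rw [pow_add]; linear_combination hab
    have h2 : t ^ (n + k) = 0 := (hu.mul hv).mul_right_eq_zero.mp h1
    exact hnil _ h2
  exact NoZeroDivisors.to_isDomain R

/-- a noetherian local ring whose maximal ideal is generated by a non-nilpotent element is a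
discrete valuation ring. -/
theorem isDVR_of_maximalIdeal_eq_span [IsDomain R] (t : R)
    (ht : IsLocalRing.maximalIdeal R = Ideal.span {t}) (hnil : ∀ n : ℕ, t ^ n ≠ 0) :
    IsDiscreteValuationRing R := by
  have hfield : ¬ IsField R := by
    intro hf
    have h1 : IsLocalRing.maximalIdeal R = ⊥ := IsLocalRing.isField_iff_maximalIdeal_eq.mp hf
    have h2 : t ∈ IsLocalRing.maximalIdeal R := by
      rw [ht]; exact Ideal.mem_span_singleton_self t
    rw [h1] at h2
    exact hnil 1 (by simpa using h2)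
  have := ((IsDiscreteValuationRing.TFAE R hfield).out 0 4).mpr
  exact this ⟨⟨t, ht⟩⟩

end DVR

section Avoid

variable {A B : Type*} [CommRing A] [CommRing B] [Algebra A B] [Module.Finite A B]

/-- **L1**: an ideal of `B` which is contained in no maximal ideal above `m` meets `A \ m`. -/
theorem exists_notMem_algebraMap_mem (m : Ideal A) [m.IsMaximal] (I : Ideal B)
    (hI : ∀ M : Ideal B, M.IsMaximal → M.comap (algebraMap A B) = m → ¬ I ≤ M) :
    ∃ a : A, a ∉ m ∧ algebraMap A B a ∈ I := by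
  -- `I + m B = B`
  have htop : I ⊔ Ideal.map (algebraMap A B) m = ⊤ := by
    by_contra hne
    obtain ⟨M, hM, hle⟩ := Ideal.exists_le_maximal _ hne
    have h1 : m ≤ M.comap (algebraMap A B) := by
      rw [← Ideal.map_le_iff_le_comap]
      exact le_trans le_sup_right hle
    have h2 : M.comap (algebraMap A B) ≠ ⊤ := (Ideal.comap_ne_top _ hM.ne_top)
    have h3 : m = M.comap (algebraMap A B) := (‹m.IsMaximal›).eq_of_le h2 h1
    exact hI M hM h3.symm (le_trans le_sup_left hle)
  -- Nakayama on `B / I`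
  set N : Submodule A B := I.restrictScalars A with hN
  have hfg : (⊤ : Submodule A (B ⧸ N)).FG := Module.finite_def.mp inferInstance
  have hle : (⊤ : Submodule A (B ⧸ N)) ≤ m • (⊤ : Submodule A (B ⧸ N)) := by
    rintro x -
    obtain ⟨b, rfl⟩ := N.mkQ_surjective x
    have h1 : (1 : B) ∈ I ⊔ Ideal.map (algebraMap A B) m := by rw [htop]; trivial
    obtain ⟨i, hi, z, hz, hiz⟩ := Submodule.mem_sup.mp h1
    have hzb : z * b ∈ (m • (⊤ : Submodule A B)) := by
      rw [Ideal.smul_top_eq_map]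
      exact Ideal.mul_mem_right _ _ hz
    have hb : N.mkQ b = N.mkQ (z * b) := by
      have : b - z * b ∈ N := by
        have e : b - z * b = i * b := by
          have : i = 1 - z := by rw [← hiz]; ring
          rw [this]; ring
        rw [e]
        exact Ideal.mul_mem_right _ _ hi
      rw [← sub_eq_zero, ← map_sub]
      exact (Submodule.Quotient.mk_eq_zero N).mpr this
    rw [hb]
    have h2 : N.mkQ (z * b) ∈ Submodule.map N.mkQ (m • (⊤ : Submodule A B)) :=
      Submodule.mem_map_of_mem hzb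
    rw [Submodule.map_smul'', Submodule.map_top, Submodule.range_mkQ] at h2
    exact h2
  obtain ⟨r, hr1, hr0⟩ :=
    Submodule.exists_sub_one_mem_and_smul_eq_zero_of_fg_of_le_smul m _ hfg hle
  refine ⟨r, ?_, ?_⟩
  · intro hrm
    have : (1 : A) ∈ m := by
      have := m.sub_mem hrm hr1
      simpa using this
    exact (‹m.IsMaximal›).ne_top ((Ideal.eq_top_iff_one m).mpr this)
  · have h0 := hr0 (N.mkQ 1) trivial
    rw [← map_smul] at h0
    have h1 : r • (1 : B) ∈ N := (Submodule.Quotient.mk_eq_zero N).mp h0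
    rw [Algebra.smul_def, mul_one] at h1
    exact h1

end Avoid

section LocalRing

variable {B : Type*} [CommRing B] (p : B) (m' : Ideal B) [hm' : m'.IsMaximal]

/-- the quotient `B / p`. -/
abbrev Qp : Type _ := B ⧸ Ideal.span {p}

/-- the image of `m'` in `B / p`. -/
abbrev Mq : Ideal (Qp p) := m'.map (Ideal.Quotient.mk (Ideal.span {p}))

variable {p m'}

theorem ker_le (hp : p ∈ m') : RingHom.ker (Ideal.Quotient.mk (Ideal.span {p})) ≤ m' := by
  rw [Ideal.mk_ker, Ideal.span_le, Set.singleton_subset_iff]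
  exact hp

theorem mq_isMaximal (hp : p ∈ m') : (Mq p m').IsMaximal :=
  Ideal.IsMaximal.map_of_surjective_of_ker_le Ideal.Quotient.mk_surjective (ker_le hp)

theorem mk_mem_mq_iff (hp : p ∈ m') (b : B) :
    Ideal.Quotient.mk (Ideal.span {p}) b ∈ Mq p m' ↔ b ∈ m' := by
  constructor
  · intro h
    obtain ⟨c, hc, hcb⟩ := (Ideal.mem_map_iff_of_surjective _ Ideal.Quotient.mk_surjective).mp h
    have h1 : c - b ∈ RingHom.ker (Ideal.Quotient.mk (Ideal.span {p})) := by
      rw [RingHom.mem_ker, map_sub, hcb, sub_self]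
    have h2 := ker_le hp h1
    have h3 : b = c - (c - b) := by ring
    rw [h3]
    exact m'.sub_mem hc h2
  · intro h
    exact Ideal.mem_map_of_mem _ h

section TheRingD

variable [hp : Fact (p ∈ m')]

instance mq_isMaximal_inst : (Mq p m').IsMaximal := mq_isMaximal hp.out

instance mq_isPrime_inst : (Mq p m').IsPrime := (mq_isMaximal hp.out).isPrime

variable (p m') in
/-- the local ring `(B / p)_{m'}`. -/
abbrev Dloc : Type _ := Localization.AtPrime (Mq p m')

variable (p m') in
/-- the canonical map `B → (B / p)_{m'}`. -/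
noncomputable def toD : B →+* Dloc p m' :=
  (algebraMap (Qp p) (Dloc p m')).comp (Ideal.Quotient.mk (Ideal.span {p}))

theorem toD_apply (b : B) :
    toD p m' b = algebraMap (Qp p) (Dloc p m') (Ideal.Quotient.mk (Ideal.span {p}) b) := rfl

theorem toD_eq_zero_iff (b : B) :
    toD p m' b = 0 ↔ ∃ s, s ∉ m' ∧ p ∣ s * b := by
  rw [toD_apply, IsLocalization.map_eq_zero_iff (Mq p m').primeCompl]
  constructor
  · rintro ⟨⟨t, ht⟩, htb⟩
    obtain ⟨s, rfl⟩ := Ideal.Quotient.mk_surjective t
    refine ⟨s, fun hs => ht ((mk_mem_mq_iff hp.out s).mpr hs), ?_⟩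
    have h1 : Ideal.Quotient.mk (Ideal.span {p}) (s * b) = 0 := by
      rw [map_mul]; exact htb
    rw [Ideal.Quotient.eq_zero_iff_mem, Ideal.mem_span_singleton] at h1
    exact h1
  · rintro ⟨s, hs, hdvd⟩
    refine ⟨⟨Ideal.Quotient.mk _ s, fun h => hs ((mk_mem_mq_iff hp.out s).mp h)⟩, ?_⟩
    show Ideal.Quotient.mk (Ideal.span {p}) s * Ideal.Quotient.mk (Ideal.span {p}) b = 0
    rw [← map_mul, Ideal.Quotient.eq_zero_iff_mem, Ideal.mem_span_singleton]
    exact hdvd

theorem toD_isUnit_iff (s : B) : IsUnit (toD p m' s) ↔ s ∉ m' := by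
  rw [toD_apply, IsLocalization.AtPrime.isUnit_to_map_iff (Dloc p m') (Mq p m'),
    Ideal.mem_primeCompl_iff, mk_mem_mq_iff hp.out]

theorem toD_mem_maximalIdeal_iff (b : B) :
    toD p m' b ∈ IsLocalRing.maximalIdeal (Dloc p m') ↔ b ∈ m' := by
  rw [IsLocalRing.mem_maximalIdeal, mem_nonunits_iff, toD_isUnit_iff, not_not]

theorem toD_surj (d : Dloc p m') : ∃ b s : B, s ∉ m' ∧ d * toD p m' s = toD p m' b := by
  obtain ⟨⟨q, ⟨t, ht⟩⟩, hq⟩ := IsLocalization.surj (Mq p m').primeCompl d
  obtain ⟨b, rfl⟩ := Ideal.Quotient.mk_surjective q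
  obtain ⟨s, rfl⟩ := Ideal.Quotient.mk_surjective t
  exact ⟨b, s, fun hs => ht ((mk_mem_mq_iff hp.out s).mpr hs), hq⟩

/-- ring homomorphisms out of `(B / p)_{m'}` are determined by their values on `B`. -/
theorem ringHom_ext_toD {T : Type*} [CommRing T] {f g : Dloc p m' →+* T}
    (h : ∀ b : B, f (toD p m' b) = g (toD p m' b)) : f = g := by
  apply IsLocalization.ringHom_ext (Mq p m').primeCompl
  apply Ideal.Quotient.ringHom_ext
  ext b
  exact h b

theorem toD_p : toD p m' p = 0 := by
  rw [toD_eq_zero_iff]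
  exact ⟨1, (Ideal.ne_top_iff_one m').mp hm'.ne_top, by simp⟩

section Structure

variable (τ : B) (hτ : τ ∈ m')
  (hgen : ∀ x ∈ m', ∃ s, s ∉ m' ∧ ∃ a b : B, s * x = a * p + b * τ)
  (hnil : ∀ (n : ℕ) (s : B), s ∉ m' → ¬ p ∣ s * τ ^ n)

include hτ hgen in
theorem maximalIdeal_Dloc :
    IsLocalRing.maximalIdeal (Dloc p m') = Ideal.span {toD p m' τ} := by
  apply le_antisymm
  · intro d hd
    obtain ⟨b, s, hs, hds⟩ := toD_surj (p := p) (m' := m') d
    have hsu : IsUnit (toD p m' s) := (toD_isUnit_iff s).mpr hs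
    have hb : b ∈ m' := by
      rw [← toD_mem_maximalIdeal_iff (p := p), ← hds]
      exact Ideal.mul_mem_right _ _ hd
    obtain ⟨s', hs', a, c, hac⟩ := hgen b hb
    have hsu' : IsUnit (toD p m' s') := (toD_isUnit_iff s').mpr hs'
    have h1 : toD p m' s' * toD p m' b = toD p m' c * toD p m' τ := by
      rw [← map_mul, hac, map_add, map_mul, map_mul, toD_p, mul_zero, zero_add]
    rw [Ideal.mem_span_singleton]
    obtain ⟨u, hu⟩ := hsu
    obtain ⟨u', hu'⟩ := hsu'
    refine ⟨(↑u⁻¹ : Dloc p m') * ↑u'⁻¹ * toD p m' c, ?_⟩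
    have h2 : d = ↑u⁻¹ * toD p m' b := by
      rw [← hds, ← hu]
      rw [mul_comm d, ← mul_assoc, Units.inv_mul, one_mul]
    have h3 : toD p m' b = ↑u'⁻¹ * (toD p m' c * toD p m' τ) := by
      rw [← h1, ← hu', ← mul_assoc, Units.inv_mul, one_mul]
    rw [h2, h3]
    ring
  · rw [Ideal.span_le, Set.singleton_subset_iff]
    exact (toD_mem_maximalIdeal_iff τ).mpr hτ

include hnil in
theorem toD_pow_ne_zero (n : ℕ) : toD p m' τ ^ n ≠ 0 := by
  intro h0
  rw [← map_pow, toD_eq_zero_iff] at h0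
  obtain ⟨s, hs, hdvd⟩ := h0
  exact hnil n s hs hdvd

variable [IsNoetherianRing B]

include hτ hgen hnil in
theorem isDomain_Dloc : IsDomain (Dloc p m') :=
  isDomain_of_maximalIdeal_eq_span _ (maximalIdeal_Dloc τ hτ hgen) (toD_pow_ne_zero τ hnil)

include hτ hgen hnil in
theorem isDVR_Dloc [IsDomain (Dloc p m')] : IsDiscreteValuationRing (Dloc p m') :=
  isDVR_of_maximalIdeal_eq_span _ (maximalIdeal_Dloc τ hτ hgen) (toD_pow_ne_zero τ hnil)

end Structure

section Action

variable {H : Type*} [Group H] [MulSemiringAction H B] (hinv : ∀ σ : H, σ • p = p)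

include hinv in
theorem span_le_comap (σ : H) :
    Ideal.span {p} ≤ (Ideal.span {p}).comap (MulSemiringAction.toRingHom H B σ) := by
  rw [Ideal.span_le, Set.singleton_subset_iff]
  show MulSemiringAction.toRingHom H B σ p ∈ Ideal.span {p}
  rw [MulSemiringAction.toRingHom_apply, hinv σ]
  exact Ideal.mem_span_singleton_self p

/-- the action of `σ` on `B / p`. -/
noncomputable def fQ (σ : H) : Qp p →+* Qp p :=
  Ideal.quotientMap (Ideal.span {p}) (MulSemiringAction.toRingHom H B σ) (span_le_comap hinv σ)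

theorem fQ_mk (σ : H) (b : B) :
    fQ hinv σ (Ideal.Quotient.mk (Ideal.span {p}) b) =
      Ideal.Quotient.mk (Ideal.span {p}) (σ • b) := by
  rw [fQ, Ideal.quotientMap_mk]
  rfl

theorem mq_eq_comap (σ : H) (hσ : σ • m' = m') :
    Mq p m' = (Mq p m').comap (fQ hinv σ) := by
  ext x
  obtain ⟨b, rfl⟩ := Ideal.Quotient.mk_surjective x
  rw [Ideal.mem_comap, fQ_mk, mk_mem_mq_iff hp.out, mk_mem_mq_iff hp.out]
  constructor
  · intro hb
    rw [← hσ]
    exact Ideal.smul_mem_pointwise_smul σ b m' hb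
  · intro hb
    rw [← hσ] at hb
    exact (Ideal.smul_mem_pointwise_smul_iff).mp hb

/-- the action of `σ ∈ Stab(m')` on `(B / p)_{m'}`. -/
noncomputable def phiD (σ : H) (hσ : σ • m' = m') : Dloc p m' →+* Dloc p m' :=
  Localization.localRingHom (Mq p m') (Mq p m') (fQ hinv σ) (mq_eq_comap hinv σ hσ)

theorem phiD_toD (σ : H) (hσ : σ • m' = m') (b : B) :
    phiD hinv σ hσ (toD p m' b) = toD p m' (σ • b) := by
  rw [phiD, toD_apply, Localization.localRingHom_to_map, fQ_mk]
  rfl

theorem phiD_one (h1 : (1 : H) • m' = m') : phiD hinv (1 : H) h1 = RingHom.id _ := by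
  apply ringHom_ext_toD
  intro b
  rw [phiD_toD, one_smul, RingHom.id_apply]

theorem phiD_mul (σ τ : H) (hσ : σ • m' = m') (hτ : τ • m' = m') (hστ : (σ * τ) • m' = m') :
    phiD hinv (σ * τ) hστ = (phiD hinv σ hσ).comp (phiD hinv τ hτ) := by
  apply ringHom_ext_toD
  intro b
  rw [phiD_toD, RingHom.comp_apply, phiD_toD, phiD_toD, mul_smul]

/-- the action of the stabiliser of `m'` on `(B / p)_{m'}`. -/
@[instance_reducible]
noncomputable def actD : MulSemiringAction (MulAction.stabilizer H m') (Dloc p m') where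
  smul σ d := phiD hinv σ.1 (MulAction.mem_stabilizer_iff.mp σ.2) d
  one_smul d := by
    show phiD hinv (1 : H) _ d = d
    rw [phiD_one, RingHom.id_apply]
  mul_smul σ τ d := by
    show phiD hinv (σ.1 * τ.1) _ d = phiD hinv σ.1 _ (phiD hinv τ.1 _ d)
    rw [phiD_mul hinv σ.1 τ.1 (MulAction.mem_stabilizer_iff.mp σ.2)
      (MulAction.mem_stabilizer_iff.mp τ.2), RingHom.comp_apply]
  smul_zero σ := map_zero _
  smul_add σ := map_add _
  smul_one σ := map_one _
  smul_mul σ := map_mul _

theorem actD_toD (σ : MulAction.stabilizer H m') (b : B) :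
    letI := actD (p := p) (m' := m') hinv
    σ • toD p m' b = toD p m' (σ.1 • b) :=
  phiD_toD hinv σ.1 (MulAction.mem_stabilizer_iff.mp σ.2) b

end Action

end TheRingD

end LocalRing


section Descent

variable {A B : Type*} [CommRing A] [CommRing B] [Algebra A B]

/-- the kernel of `B → (B / π)_m`. -/
def pk (π : A) (m : Ideal A) [hm : m.IsPrime] : Ideal B where
  carrier := {b | ∃ s : A, s ∉ m ∧ algebraMap A B π ∣ algebraMap A B s * b}
  add_mem' := by
    rintro b₁ b₂ ⟨s₁, hs₁, h₁⟩ ⟨s₂, hs₂, h₂⟩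
    refine ⟨s₁ * s₂, fun h => (hm.mem_or_mem h).elim hs₁ hs₂, ?_⟩
    rw [map_mul]
    have e : algebraMap A B s₁ * algebraMap A B s₂ * (b₁ + b₂) =
        algebraMap A B s₂ * (algebraMap A B s₁ * b₁) +
          algebraMap A B s₁ * (algebraMap A B s₂ * b₂) := by ring
    rw [e]
    exact dvd_add (Dvd.dvd.mul_left h₁ _) (Dvd.dvd.mul_left h₂ _)
  zero_mem' := ⟨1, (Ideal.ne_top_iff_one m).mp hm.ne_top, by simp⟩
  smul_mem' := by
    rintro c b ⟨s, hs, h⟩
    refine ⟨s, hs, ?_⟩
    rw [smul_eq_mul, mul_left_comm]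
    exact Dvd.dvd.mul_left h _

theorem mem_pk_iff {π : A} {m : Ideal A} [hm : m.IsPrime] {b : B} :
    b ∈ pk (B := B) π m ↔ ∃ s : A, s ∉ m ∧ algebraMap A B π ∣ algebraMap A B s * b :=
  Iff.rfl

theorem mem_pk_of_dvd {π : A} {m : Ideal A} [hm : m.IsPrime] {b : B}
    (h : algebraMap A B π ∣ b) : b ∈ pk (B := B) π m :=
  ⟨1, (Ideal.ne_top_iff_one m).mp hm.ne_top, by simpa using h⟩

variable {H : Type*} [Group H] [MulSemiringAction H B] [SMulCommClass H A B]

theorem smul_dvd_smul (σ : H) (a : A) {b : B} (h : algebraMap A B a ∣ b) :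
    algebraMap A B a ∣ σ • b := by
  obtain ⟨c, rfl⟩ := h
  exact ⟨σ • c, by rw [smul_mul', smul_algebraMap]⟩

theorem smul_mem_pk {π : A} {m : Ideal A} [hm : m.IsPrime] (σ : H) {b : B}
    (hb : b ∈ pk (B := B) π m) : σ • b ∈ pk (B := B) π m := by
  obtain ⟨s, hs, h⟩ := hb
  refine ⟨s, hs, ?_⟩
  have := smul_dvd_smul σ π h
  rwa [smul_mul', smul_algebraMap] at this

/-- **L1'**: an ideal of `B` meeting the complement of every conjugate of `M` meets `A \ m`. -/
theorem exists_notMem_algebraMap_mem_of_conj [Module.Finite A B] [Finite H]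
    [Algebra.IsInvariant A B H] (m : Ideal A) [m.IsMaximal] (M : Ideal B) [M.IsMaximal]
    (hM : M.comap (algebraMap A B) = m) (I : Ideal B) (hI : ∀ g : H, ∃ s ∈ I, s ∉ g • M) :
    ∃ a : A, a ∉ m ∧ algebraMap A B a ∈ I := by
  apply exists_notMem_algebraMap_mem m I
  intro M' hM' hM'm hle
  haveI := hM'.isPrime
  obtain ⟨g, hg⟩ := Algebra.IsInvariant.exists_smul_of_under_eq A B H M M'
    (by rw [Ideal.under_def, Ideal.under_def, hM, hM'm])
  obtain ⟨s, hsI, hs⟩ := hI g
  exact hs (hg ▸ hle hsI)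

end Descent


section Descent2

/-- the colon ideal `(J : b)`. -/
def colon {B : Type*} [CommRing B] (J : Ideal B) (b : B) : Ideal B where
  carrier := {c | c * b ∈ J}
  add_mem' := by
    intro c₁ c₂ h₁ h₂
    show (c₁ + c₂) * b ∈ J
    rw [add_mul]
    exact J.add_mem h₁ h₂
  zero_mem' := by
    show 0 * b ∈ J
    rw [zero_mul]
    exact J.zero_mem
  smul_mem' := by
    intro r c h
    show (r • c) * b ∈ J
    rw [smul_eq_mul, mul_assoc]
    exact J.mul_mem_left _ h

theorem mem_colon {B : Type*} [CommRing B] {J : Ideal B} {b c : B} :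
    c ∈ colon J b ↔ c * b ∈ J := Iff.rfl

variable {A B : Type*} [CommRing A] [CommRing B] [Algebra A B]
    (H : Type*) [Group H] [MulSemiringAction H B] [SMulCommClass H A B]

/-- the elements of `B` which are `H`-invariant modulo the kernel of `B → (B / π)_m`. -/
def Tsub (π : A) (m : Ideal A) [hm : m.IsPrime] : Submodule A B where
  carrier := {c | ∀ h : H, h • c - c ∈ pk (B := B) π m}
  add_mem' := by
    intro c₁ c₂ h₁ h₂ h
    have e : h • (c₁ + c₂) - (c₁ + c₂) = (h • c₁ - c₁) + (h • c₂ - c₂) := by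
      rw [smul_add]; ring
    rw [e]
    exact add_mem (h₁ h) (h₂ h)
  zero_mem' := by
    intro h
    rw [smul_zero, sub_zero]
    exact zero_mem _
  smul_mem' := by
    intro a c hc h
    have e : h • (a • c) - a • c = algebraMap A B a * (h • c - c) := by
      rw [smul_comm, Algebra.smul_def, Algebra.smul_def]; ring
    rw [e]
    exact Ideal.mul_mem_left _ _ (hc h)

variable {H}

theorem mem_Tsub {π : A} {m : Ideal A} [hm : m.IsPrime] {c : B} :
    c ∈ Tsub (B := B) H π m ↔ ∀ h : H, h • c - c ∈ pk (B := B) π m := Iff.rfl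

theorem algebraMap_mem_Tsub {π : A} {m : Ideal A} [hm : m.IsPrime] (a : A) :
    algebraMap A B a ∈ Tsub (B := B) H π m := by
  intro h
  rw [smul_algebraMap, sub_self]
  exact zero_mem _

variable (H) in
/-- **F5**: divisibility by `π` descends from `B` to `A`. -/
theorem dvd_of_algebraMap_dvd [IsDomain B] [FaithfulSMul A B] [Algebra.IsInvariant A B H]
    {π : A} (hπ0 : π ≠ 0) (a : A) (h : algebraMap A B π ∣ algebraMap A B a) : π ∣ a := by
  obtain ⟨b, hb⟩ := h
  have hinj : Function.Injective (algebraMap A B) := FaithfulSMul.algebraMap_injective A B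
  have hP0 : algebraMap A B π ≠ 0 := fun h0 => hπ0 (hinj (by rw [h0, map_zero]))
  have hbinv : ∀ σ : H, σ • b = b := by
    intro σ
    have h1 : σ • (algebraMap A B a) = algebraMap A B a := smul_algebraMap σ a
    rw [hb, smul_mul', smul_algebraMap] at h1
    exact mul_left_cancel₀ hP0 h1
  obtain ⟨b₀, rfl⟩ := Algebra.IsInvariant.isInvariant (A := A) (G := H) b hbinv
  exact ⟨b₀, hinj (by rw [hb, map_mul])⟩

variable [IsDomain B] [IsNoetherianRing A] [Module.Finite A B] [FaithfulSMul A B]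
    [Finite H] [Algebra.IsInvariant A B H]
    {π : A} {m : Ideal A} [hmax : m.IsMaximal]
    {M : Ideal B} [hMmax : M.IsMaximal] (hM : M.comap (algebraMap A B) = m)
    {D : Type*} [CommRing D] [IsDomain D] (f : B →+* D)
    (hf0 : ∀ b, f b = 0 ↔ ∃ s, s ∉ M ∧ algebraMap A B π ∣ s * b)

include hM hf0 in
theorem mem_pk_iff_forall (b : B) : b ∈ pk (B := B) π m ↔ ∀ g : H, f (g • b) = 0 := by
  constructor
  · intro hb g
    obtain ⟨s, hs, h⟩ := smul_mem_pk g hb
    rw [hf0]
    refine ⟨algebraMap A B s, fun hsM => hs ?_, h⟩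
    rw [← hM]
    exact hsM
  · intro hall
    obtain ⟨a, ha, haI⟩ := exists_notMem_algebraMap_mem_of_conj (H := H) m M hM
      (colon (Ideal.span {algebraMap A B π}) b) (by
        intro g
        obtain ⟨s, hs, hdvd⟩ := (hf0 _).mp (hall g⁻¹)
        refine ⟨g • s, ?_, ?_⟩
        · rw [mem_colon, Ideal.mem_span_singleton]
          have := smul_dvd_smul g π hdvd
          rwa [smul_mul', smul_inv_smul] at this
        · intro hmem
          exact hs (Ideal.smul_mem_pointwise_smul_iff.mp hmem))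
    rw [mem_colon, Ideal.mem_span_singleton] at haI
    exact ⟨a, ha, haI⟩

include hM hf0 in
theorem claimA (hfsurj : ∀ d : D, ∃ b s : B, s ∉ M ∧ d * f s = f b) (y : A)
    (hy0 : f (algebraMap A B y) ≠ 0)
    (hkey : ∀ c ∈ M, (∀ σ : H, σ • M = M → f (σ • c) = f c) → f (algebraMap A B y) ∣ f c)
    (c : B) (hcT : c ∈ Tsub (B := B) H π m) (hcM : c ∈ M) :
    ∃ s : A, s ∉ m ∧ ∃ c' ∈ Tsub (B := B) H π m,
      algebraMap A B π ∣ algebraMap A B s * c - c' * algebraMap A B y := by
  have hpk := mem_pk_iff_forall (H := H) hM f hf0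
  -- step 1: `f c` is invariant
  have h1 : ∀ σ : H, f (σ • c) = f c := by
    intro σ
    have := (hpk _).mp (hcT σ) 1
    rw [one_smul, map_sub, sub_eq_zero] at this
    exact this
  -- step 2: divisibility in `D`
  obtain ⟨d, hd⟩ := hkey c hcM (fun σ _ => h1 σ)
  obtain ⟨b₁, s₁, hs₁, hds⟩ := hfsurj d
  have h2 : f (s₁ * c - b₁ * algebraMap A B y) = 0 := by
    rw [map_sub, map_mul, map_mul, hd, ← hds]; ring
  obtain ⟨s₂, hs₂, hdvd⟩ := (hf0 _).mp h2
  -- the colon ideal
  have hJmem : ∀ s, s ∈ colon (Ideal.span {algebraMap A B y} ⊔ pk (B := B) π m) c ↔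
      ∃ c'', s * c - c'' * algebraMap A B y ∈ pk (B := B) π m := by
    intro s
    rw [mem_colon, Ideal.mem_span_singleton_sup]
    constructor
    · rintro ⟨a, b, hb, hab⟩
      refine ⟨a, ?_⟩
      rw [← hab, add_sub_cancel_left]
      exact hb
    · rintro ⟨c'', hc''⟩
      exact ⟨c'', _, hc'', by ring⟩
  have hs0 : s₂ * s₁ ∈ colon (Ideal.span {algebraMap A B y} ⊔ pk (B := B) π m) c :=
    (hJmem _).mpr ⟨s₂ * b₁, mem_pk_of_dvd (by
      have e : s₂ * s₁ * c - s₂ * b₁ * algebraMap A B y =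
          s₂ * (s₁ * c - b₁ * algebraMap A B y) := by ring
      rw [e]
      exact hdvd)⟩
  have hs0M : s₂ * s₁ ∉ M := fun h => (hMmax.isPrime.mem_or_mem h).elim hs₂ hs₁
  have hJstable : ∀ g : H, ∀ s ∈ colon (Ideal.span {algebraMap A B y} ⊔ pk (B := B) π m) c,
      g • s ∈ colon (Ideal.span {algebraMap A B y} ⊔ pk (B := B) π m) c := by
    intro g s hs
    obtain ⟨c'', hc''⟩ := (hJmem s).mp hs
    refine (hJmem _).mpr ⟨g • c'', ?_⟩
    have e1 : g • (s * c - c'' * algebraMap A B y) ∈ pk (B := B) π m := smul_mem_pk g hc''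
    have e2 : (g • s) * (g • c - c) ∈ pk (B := B) π m := Ideal.mul_mem_left _ _ (hcT g)
    have e3 : g • s * c - g • c'' * algebraMap A B y =
        g • (s * c - c'' * algebraMap A B y) - (g • s) * (g • c - c) := by
      rw [smul_sub, smul_mul', smul_mul', smul_algebraMap]; ring
    rw [e3]
    exact sub_mem e1 e2
  obtain ⟨a, ha, haJ⟩ := exists_notMem_algebraMap_mem_of_conj (H := H) m M hM
    (colon (Ideal.span {algebraMap A B y} ⊔ pk (B := B) π m) c)
    (fun g => ⟨g • (s₂ * s₁), hJstable g _ hs0,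
      fun hmem => hs0M (Ideal.smul_mem_pointwise_smul_iff.mp hmem)⟩)
  obtain ⟨c'', hc''⟩ := (hJmem _).mp haJ
  -- `y` is a non-zero-divisor modulo `pk`
  have hnzd : ∀ w : B, w * algebraMap A B y ∈ pk (B := B) π m → w ∈ pk (B := B) π m := by
    intro w hw
    rw [hpk] at hw ⊢
    intro g
    have := hw g
    rw [smul_mul', smul_algebraMap, map_mul] at this
    exact (mul_eq_zero.mp this).resolve_right hy0
  have hc''T : c'' ∈ Tsub (B := B) H π m := by
    intro h
    apply hnzd
    have e1 : h • (algebraMap A B a * c - c'' * algebraMap A B y) -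
        (algebraMap A B a * c - c'' * algebraMap A B y) ∈ pk (B := B) π m :=
      sub_mem (smul_mem_pk h hc'') hc''
    have e2 : algebraMap A B a * (h • c - c) ∈ pk (B := B) π m :=
      Ideal.mul_mem_left _ _ (hcT h)
    have e3 : (h • c'' - c'') * algebraMap A B y = algebraMap A B a * (h • c - c) -
        (h • (algebraMap A B a * c - c'' * algebraMap A B y) -
          (algebraMap A B a * c - c'' * algebraMap A B y)) := by
      rw [smul_sub, smul_mul', smul_mul', smul_algebraMap, smul_algebraMap]; ring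
    rw [e3]
    exact sub_mem e2 e1
  obtain ⟨s', hs', hdvd'⟩ := hc''
  refine ⟨s' * a, fun h => (hmax.isPrime.mem_or_mem h).elim hs' ha, s' • c'',
    Submodule.smul_mem _ _ hc''T, ?_⟩
  have e : algebraMap A B (s' * a) * c - s' • c'' * algebraMap A B y =
      algebraMap A B s' * (algebraMap A B a * c - c'' * algebraMap A B y) := by
    rw [map_mul, Algebra.smul_def]; ring
  rw [e]
  exact hdvd'

include hM hf0 in
theorem claimB (hfsurj : ∀ d : D, ∃ b s : B, s ∉ M ∧ d * f s = f b)
    (hresM : ∀ b : B, ∃ a : A, b - algebraMap A B a ∈ M) (y : A) (hym : y ∈ m)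
    (hy0 : f (algebraMap A B y) ≠ 0)
    (hkey : ∀ c ∈ M, (∀ σ : H, σ • M = M → f (σ • c) = f c) → f (algebraMap A B y) ∣ f c)
    (c : B) (hcT : c ∈ Tsub (B := B) H π m) :
    ∃ s : A, s ∉ m ∧ ∃ a : A, algebraMap A B π ∣ algebraMap A B s * c - algebraMap A B a := by
  have hTU : Tsub (B := B) H π m ≤
      (LinearMap.range (Algebra.linearMap A B) ⊔ (pk (B := B) π m).restrictScalars A) ⊔
        m • Tsub (B := B) H π m := by
    intro c hc
    obtain ⟨a₀, ha₀⟩ := hresM c
    have hc0T : c - algebraMap A B a₀ ∈ Tsub (B := B) H π m :=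
      sub_mem hc (algebraMap_mem_Tsub a₀)
    obtain ⟨s, hs, c', hc'T, w, hw⟩ := claimA hM f hf0 hfsurj y hy0 hkey _ hc0T ha₀
    obtain ⟨t, i, hi, hti⟩ := hmax.exists_inv hs
    have h1 : algebraMap A B t * algebraMap A B s + algebraMap A B i = 1 := by
      rw [← map_mul, ← map_add, hti, map_one]
    have e : c = (algebraMap A B a₀ + algebraMap A B π * (algebraMap A B t * w)) +
        ((t * y) • c' + i • (c - algebraMap A B a₀)) := by
      rw [Algebra.smul_def, Algebra.smul_def, map_mul]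
      linear_combination (-(c - algebraMap A B a₀)) * h1 + (algebraMap A B t) * hw
    rw [e]
    refine Submodule.add_mem_sup (Submodule.add_mem_sup ?_ ?_) ?_
    · exact ⟨a₀, rfl⟩
    · exact mem_pk_of_dvd (Dvd.intro _ rfl)
    · exact add_mem (Submodule.smul_mem_smul (Ideal.mul_mem_left _ _ hym) hc'T)
        (Submodule.smul_mem_smul hi hc0T)
  have hfgT : (Tsub (B := B) H π m).FG := IsNoetherian.noetherian _
  have hfg : ((Tsub (B := B) H π m).map (LinearMap.range (Algebra.linearMap A B) ⊔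
      (pk (B := B) π m).restrictScalars A).mkQ).FG := hfgT.map _
  have hle : (Tsub (B := B) H π m).map (LinearMap.range (Algebra.linearMap A B) ⊔
      (pk (B := B) π m).restrictScalars A).mkQ ≤
      m • (Tsub (B := B) H π m).map (LinearMap.range (Algebra.linearMap A B) ⊔
      (pk (B := B) π m).restrictScalars A).mkQ := by
    rintro x ⟨c, hc, rfl⟩
    obtain ⟨u, hu, z, hz, huz⟩ := Submodule.mem_sup.mp (hTU hc)
    have h3 : (LinearMap.range (Algebra.linearMap A B) ⊔
        (pk (B := B) π m).restrictScalars A).mkQ c =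
        (LinearMap.range (Algebra.linearMap A B) ⊔
          (pk (B := B) π m).restrictScalars A).mkQ z := by
      rw [← huz, map_add, Submodule.mkQ_apply, Submodule.mkQ_apply,
        (Submodule.Quotient.mk_eq_zero _).mpr hu, zero_add]
    rw [h3]
    have h2 := Submodule.mem_map_of_mem (f := (LinearMap.range (Algebra.linearMap A B) ⊔
      (pk (B := B) π m).restrictScalars A).mkQ) hz
    rwa [Submodule.map_smul''] at h2
  obtain ⟨r, hr1, hr0⟩ :=
    Submodule.exists_sub_one_mem_and_smul_eq_zero_of_fg_of_le_smul m _ hfg hle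
  have hrm : r ∉ m := by
    intro hrm
    have : (1 : A) ∈ m := by
      have := m.sub_mem hrm hr1
      simpa using this
    exact hmax.ne_top ((Ideal.eq_top_iff_one m).mpr this)
  have h0 := hr0 _ (Submodule.mem_map_of_mem hcT)
  rw [← map_smul] at h0
  have h1 : r • c ∈ LinearMap.range (Algebra.linearMap A B) ⊔
      (pk (B := B) π m).restrictScalars A := (Submodule.Quotient.mk_eq_zero _).mp h0
  obtain ⟨u, ⟨a, rfl⟩, z, hz, huz⟩ := Submodule.mem_sup.mp h1
  obtain ⟨s', hs', hdvd⟩ := hz
  refine ⟨s' * r, fun h => (hmax.isPrime.mem_or_mem h).elim hs' hrm, s' * a, ?_⟩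
  have e : algebraMap A B (s' * r) * c - algebraMap A B (s' * a) = algebraMap A B s' * z := by
    rw [Algebra.smul_def, Algebra.linearMap_apply] at huz
    rw [map_mul, map_mul]
    linear_combination (-(algebraMap A B s')) * huz
  rw [e]
  exact hdvd

include hM hf0 in
/-- the abstract descent: from the local structure at one maximal ideal `M` above `m`. -/
theorem descent (hπ0 : π ≠ 0) (hπm : π ∈ m)
    (hfsurj : ∀ d : D, ∃ b s : B, s ∉ M ∧ d * f s = f b)
    (hresM : ∀ b : B, ∃ a : A, b - algebraMap A B a ∈ M) (y : A) (hym : y ∈ m)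
    (hy0 : f (algebraMap A B y) ≠ 0)
    (hkey : ∀ c ∈ M, (∀ σ : H, σ • M = M → f (σ • c) = f c) → f (algebraMap A B y) ∣ f c) :
    (∀ x ∈ m, ∃ s, s ∉ m ∧ ∃ a b : A, s * x = a * π + b * y) ∧
      ∀ (n : ℕ) (s : A), s ∉ m → ¬ π ∣ s * y ^ n := by
  have hmemM : ∀ a : A, algebraMap A B a ∈ M ↔ a ∈ m := by
    intro a
    rw [← hM, Ideal.mem_comap]
  constructor
  · intro x hx
    obtain ⟨s, hs, c', hc'T, hdvd⟩ := claimA hM f hf0 hfsurj y hy0 hkey (algebraMap A B x)
      (algebraMap_mem_Tsub (H := H) x) ((hmemM x).mpr hx)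
    obtain ⟨s', hs', a, hdvd'⟩ := claimB hM f hf0 hfsurj hresM y hym hy0 hkey c' hc'T
    have hdvd2 : algebraMap A B π ∣ algebraMap A B (s' * s * x - a * y) := by
      have e : algebraMap A B (s' * s * x - a * y) =
          algebraMap A B s' * (algebraMap A B s * algebraMap A B x - c' * algebraMap A B y) +
            (algebraMap A B s' * c' - algebraMap A B a) * algebraMap A B y := by
        rw [map_sub, map_mul, map_mul, map_mul]; ring
      rw [e]
      exact dvd_add (Dvd.dvd.mul_left hdvd _) (Dvd.dvd.mul_right hdvd' _)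
    obtain ⟨b, hb⟩ := dvd_of_algebraMap_dvd H hπ0 _ hdvd2
    refine ⟨s' * s, fun h => (hmax.isPrime.mem_or_mem h).elim hs' hs, b, a, ?_⟩
    linear_combination hb
  · intro n s hs hdvd
    have h1 : algebraMap A B π ∣ 1 * (algebraMap A B s * algebraMap A B y ^ n) := by
      obtain ⟨b, hb⟩ := hdvd
      refine ⟨algebraMap A B b, ?_⟩
      rw [one_mul, ← map_pow, ← map_mul, hb, map_mul]
    have h2 : f (algebraMap A B s * algebraMap A B y ^ n) = 0 :=
      (hf0 _).mpr ⟨1, (Ideal.ne_top_iff_one M).mp hMmax.ne_top, h1⟩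
    rw [map_mul, map_pow] at h2
    have h3 : f (algebraMap A B s) = 0 :=
      (mul_eq_zero.mp h2).resolve_right (pow_ne_zero n hy0)
    obtain ⟨s₂, hs₂, hdvd₂⟩ := (hf0 _).mp h3
    have h4 : s₂ * algebraMap A B s ∈ M := by
      obtain ⟨b, hb⟩ := hdvd₂
      rw [hb]
      exact Ideal.mul_mem_right _ _ ((hmemM π).mpr hπm)
    rcases hMmax.isPrime.mem_or_mem h4 with h5 | h5
    · exact hs₂ h5
    · exact hs ((hmemM s).mp h5)

end Descent2


section Key

/-- **K1**: prime avoidance: an element of `M` outside `I` and outside all conjugates of `M`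
different from `M`. -/
theorem exists_unif {B : Type*} [CommRing B] {H : Type*} [Group H] [Finite H]
    [MulSemiringAction H B] (M : Ideal B) [hM : M.IsMaximal] (I : Ideal B) (hI : ¬ M ≤ I) :
    ∃ u ∈ M, u ∉ I ∧ ∀ g : H, g • M ≠ M → u ∉ g • M := by
  classical
  cases nonempty_fintype H
  let s : Finset (Option H) := Finset.univ.filter (fun o => ∀ g, o = some g → g • M ≠ M)
  let F : Option H → Ideal B := fun o => o.elim I (fun g => g • M)
  have hprime : ∀ i ∈ s, i ≠ none → i ≠ none → (F i).IsPrime := by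
    intro i _ hi _
    cases i with
    | none => exact absurd rfl hi
    | some g =>
      haveI := hM.isPrime
      exact Ideal.IsPrime.smul g
  have hnot : ¬ ((M : Set B) ⊆ ⋃ i ∈ (↑s : Set (Option H)), F i) := by
    rw [Ideal.subset_union_prime none none hprime]
    rintro ⟨i, his, hle⟩
    cases i with
    | none => exact hI hle
    | some g =>
      have hg : g • M ≠ M := (Finset.mem_filter.mp his).2 g rfl
      haveI := hM.isPrime
      have hne : g • M ≠ ⊤ := (Ideal.IsPrime.smul (I := M) g).ne_top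
      exact hg (hM.eq_of_le hne hle).symm
  rw [Set.not_subset] at hnot
  obtain ⟨u, hu, hnu⟩ := hnot
  refine ⟨u, hu, ?_, ?_⟩
  · intro huI
    apply hnu
    refine Set.mem_biUnion (x := none) ?_ huI
    show none ∈ s
    rw [Finset.mem_filter]
    exact ⟨Finset.mem_univ _, fun g hg => absurd hg (by simp)⟩
  · intro g hg hug
    apply hnu
    refine Set.mem_biUnion (x := some g) ?_ hug
    show some g ∈ s
    rw [Finset.mem_filter]
    refine ⟨Finset.mem_univ _, fun g' hg' => ?_⟩
    rw [Option.some.injEq] at hg'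
    rw [← hg']
    exact hg

/-- **K2**: an element of `m \ m ^ 2` of a discrete valuation ring is a uniformiser. -/
theorem associated_of_mem_of_notMem_sq {R : Type*} [CommRing R] [IsDomain R]
    [IsDiscreteValuationRing R] (t x : R) (ht : IsLocalRing.maximalIdeal R = Ideal.span {t})
    (hx : x ∈ IsLocalRing.maximalIdeal R) (hx2 : x ∉ IsLocalRing.maximalIdeal R ^ 2) :
    Associated x t := by
  have hx' := hx
  rw [ht, Ideal.mem_span_singleton] at hx'
  obtain ⟨c, rfl⟩ := hx'
  have hc : IsUnit c := by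
    by_contra hc
    have hcm : c ∈ IsLocalRing.maximalIdeal R := (IsLocalRing.mem_maximalIdeal c).mpr hc
    rw [ht, Ideal.mem_span_singleton] at hcm
    obtain ⟨c', rfl⟩ := hcm
    apply hx2
    rw [ht, Ideal.span_singleton_pow, Ideal.mem_span_singleton]
    exact ⟨c', by ring⟩
  exact associated_mul_unit_left t c hc

theorem notMem_sq_of_uniformizer {R : Type*} [CommRing R] [IsDomain R]
    [IsDiscreteValuationRing R] (t : R) (ht : IsLocalRing.maximalIdeal R = Ideal.span {t}) :
    t ∉ IsLocalRing.maximalIdeal R ^ 2 := by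
  intro h
  rw [ht, Ideal.span_singleton_pow, Ideal.mem_span_singleton] at h
  obtain ⟨c, hc⟩ := h
  have hirr : Irreducible t := (IsDiscreteValuationRing.irreducible_iff_uniformizer t).mpr ht
  have h1 : t * 1 = t * (t * c) := by linear_combination hc
  have h2 : 1 = t * c := mul_left_cancel₀ hirr.ne_zero h1
  exact hirr.not_isUnit (IsUnit.of_mul_eq_one c h2.symm)

variable {B : Type*} [CommRing B] {p : B} {m' : Ideal B} [hm' : m'.IsMaximal]
  [hp : Fact (p ∈ m')] {H : Type*} [Group H] [MulSemiringAction H B]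

/-- the norm of a suitable uniformiser generates `m_D ^ |Stab|`. -/
theorem exists_key [IsNoetherianRing B] [Finite H] (hinv : ∀ σ : H, σ • p = p) (τ : B)
    (hτ : τ ∈ m')
    (hgen : ∀ x ∈ m', ∃ s, s ∉ m' ∧ ∃ a b : B, s * x = a * p + b * τ)
    (hnil : ∀ (n : ℕ) (s : B), s ∉ m' → ¬ p ∣ s * τ ^ n)
    (hresD : ∀ b : B, ∃ a : B, (∀ σ : H, σ • a = a) ∧ b - a ∈ m')
    (hfaithD : ∀ h : H, (∀ b : B, ∃ s, s ∉ m' ∧ p ∣ s * (h • b - b)) → h = 1) :
    ∃ yB : B, (∀ σ : H, σ • yB = yB) ∧ yB ∈ m' ∧ toD p m' yB ≠ 0 ∧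
      ∀ c ∈ m', (∀ σ : H, σ • m' = m' → toD p m' (σ • c) = toD p m' c) →
        toD p m' yB ∣ toD p m' c := by
  classical
  cases nonempty_fintype H
  haveI : IsDomain (Dloc p m') := isDomain_Dloc τ hτ hgen hnil
  haveI : IsDiscreteValuationRing (Dloc p m') := isDVR_Dloc τ hτ hgen hnil
  letI := actD (p := p) (m' := m') hinv
  have hmax := maximalIdeal_Dloc (p := p) τ hτ hgen
  have hirr_t : Irreducible (toD p m' τ) :=
    (IsDiscreteValuationRing.irreducible_iff_uniformizer _).mpr hmax
  -- faithfulness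
  haveI : FaithfulSMul (MulAction.stabilizer H m') (Dloc p m') := ⟨by
    intro σ₁ σ₂ h
    have hρ : ∀ d : Dloc p m', (σ₂⁻¹ * σ₁) • d = d := by
      intro d
      rw [mul_smul, h d, inv_smul_smul]
    have h1 : ((σ₂⁻¹ * σ₁ : MulAction.stabilizer H m') : H) = 1 := by
      apply hfaithD
      intro b
      rw [← toD_eq_zero_iff, map_sub, sub_eq_zero, ← actD_toD hinv]
      exact hρ _
    have h2 : σ₂⁻¹ * σ₁ = 1 := Subtype.ext h1
    exact (inv_mul_eq_one.mp h2).symm⟩
  -- residue field
  have hresD' : ∀ d : Dloc p m', ∃ a : Dloc p m',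
      (∀ h : MulAction.stabilizer H m', h • a = a) ∧
        d - a ∈ IsLocalRing.maximalIdeal (Dloc p m') := by
    intro d
    obtain ⟨b, s, hs, hds⟩ := toD_surj (p := p) (m' := m') d
    obtain ⟨s', i, hi, hsi⟩ := hm'.exists_inv hs
    obtain ⟨a, hainv, ha⟩ := hresD (b * s')
    refine ⟨toD p m' a, fun h => by rw [actD_toD hinv, hainv], ?_⟩
    have h1 : (d - toD p m' a) * toD p m' s = toD p m' (b - a * s) := by
      rw [sub_mul, hds, map_sub, map_mul]
    have h2 : b - a * s ∈ m' := by
      have e : b - a * s = (b * s' - a) * s + b * i := by linear_combination (-b) * hsi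
      rw [e]
      exact add_mem (Ideal.mul_mem_right _ _ ha) (Ideal.mul_mem_left _ _ hi)
    have h3 : (d - toD p m' a) * toD p m' s ∈ IsLocalRing.maximalIdeal (Dloc p m') := by
      rw [h1]
      exact (toD_mem_maximalIdeal_iff _).mpr h2
    have hsu : IsUnit (toD p m' s) := (toD_isUnit_iff s).mpr hs
    rcases (IsLocalRing.maximalIdeal.isMaximal _).isPrime.mem_or_mem h3 with h4 | h4
    · exact h4
    · exact absurd hsu ((IsLocalRing.mem_maximalIdeal _).mp h4)
  -- the element `u`
  obtain ⟨u, huM, hu2, huconj⟩ := exists_unif (H := H) m'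
    ((IsLocalRing.maximalIdeal (Dloc p m') ^ 2).comap (toD p m'))
    (fun hle => notMem_sq_of_uniformizer _ hmax (Ideal.mem_comap.mp (hle hτ)))
  have hu_assoc : Associated (toD p m' u) (toD p m' τ) :=
    associated_of_mem_of_notMem_sq _ _ hmax ((toD_mem_maximalIdeal_iff u).mpr huM)
      (fun h => hu2 (Ideal.mem_comap.mpr h))
  have hirr_u : Irreducible (toD p m' u) := hu_assoc.symm.irreducible hirr_t
  -- the factors
  have hfac_stab : ∀ h : H, h • m' = m' → Associated (toD p m' (h • u)) (toD p m' τ) := by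
    intro h hh
    have e : toD p m' (h • u) =
        (⟨h, MulAction.mem_stabilizer_iff.mpr hh⟩ : MulAction.stabilizer H m') • toD p m' u :=
      (actD_toD hinv ⟨h, MulAction.mem_stabilizer_iff.mpr hh⟩ u).symm
    rw [e]
    have hirr : Irreducible
        ((⟨h, MulAction.mem_stabilizer_iff.mpr hh⟩ : MulAction.stabilizer H m') •
          toD p m' u) :=
      (MulEquiv.irreducible_iff (MulSemiringAction.toRingEquiv (MulAction.stabilizer H m')
        (Dloc p m') ⟨h, MulAction.mem_stabilizer_iff.mpr hh⟩)).mpr hirr_u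
    exact IsDiscreteValuationRing.associated_of_irreducible _ hirr hirr_t
  have hfac_nstab : ∀ h : H, ¬ h • m' = m' → IsUnit (toD p m' (h • u)) := by
    intro h hh
    rw [toD_isUnit_iff]
    intro hmem
    have h1 : u ∈ h⁻¹ • m' := by
      have := Ideal.smul_mem_pointwise_smul h⁻¹ (h • u) m' hmem
      rwa [inv_smul_smul] at this
    have h2 : h⁻¹ • m' ≠ m' := by
      intro h3
      apply hh
      have h4 : h • (h⁻¹ • m') = h • m' := congrArg (fun J => h • J) h3
      rw [smul_inv_smul] at h4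
      exact h4.symm
    exact huconj h⁻¹ h2 h1
  -- the norm
  have hprod : toD p m' (∏ h : H, h • u) =
      (∏ h ∈ Finset.univ.filter (fun h : H => h • m' = m'), toD p m' (h • u)) *
        ∏ h ∈ Finset.univ.filter (fun h : H => ¬ h • m' = m'), toD p m' (h • u) := by
    rw [map_prod, Finset.prod_filter_mul_prod_filter_not]
  have hcard : (Finset.univ.filter (fun h : H => h • m' = m')).card =
      Nat.card (MulAction.stabilizer H m') := by
    rw [← Nat.subtype_card (Finset.univ.filter (fun h : H => h • m' = m'))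
      (p := fun h => h ∈ MulAction.stabilizer H m')]
    intro x
    rw [Finset.mem_filter, MulAction.mem_stabilizer_iff]
    simp
  have hassoc : Associated (toD p m' (∏ h : H, h • u))
      (toD p m' τ ^ Nat.card (MulAction.stabilizer H m')) := by
    rw [hprod, ← hcard, ← Finset.prod_const]
    have hu2 : IsUnit (∏ h ∈ Finset.univ.filter (fun h : H => ¬ h • m' = m'),
        toD p m' (h • u)) :=
      IsUnit.prod_iff.mpr (fun h hh => hfac_nstab h (Finset.mem_filter.mp hh).2)
    exact (associated_mul_unit_left _ _ hu2).trans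
      (Associated.prod _ _ _ (fun h hh => hfac_stab h (Finset.mem_filter.mp hh).2))
  refine ⟨∏ h : H, h • u, fun σ => Finset.smul_prod_perm u σ, ?_, ?_, ?_⟩
  · have h1 : (1 : H) • u ∣ ∏ h : H, h • u :=
      Finset.dvd_prod_of_mem (fun h : H => h • u) (Finset.mem_univ 1)
    rw [one_smul] at h1
    exact Ideal.mem_of_dvd _ h1 huM
  · intro h0
    rw [h0] at hassoc
    have := hassoc.symm.eq_zero_iff.mpr rfl
    exact pow_ne_zero _ hirr_t.ne_zero this
  · intro c hc hcinv
    have hx : toD p m' c ∈ IsLocalRing.maximalIdeal (Dloc p m') :=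
      (toD_mem_maximalIdeal_iff c).mpr hc
    have hinvc : ∀ σ : MulAction.stabilizer H m', σ • toD p m' c = toD p m' c := by
      intro σ
      rw [actD_toD hinv]
      exact hcinv σ.1 (MulAction.mem_stabilizer_iff.mp σ.2)
    have h1 := Fermat.Agent.S18_helper19_DVRINV.S18B_invariant_mem_pow hresD' (toD p m' c)
      hx hinvc
    rw [hmax, Ideal.span_singleton_pow, Ideal.mem_span_singleton] at h1
    exact hassoc.dvd_iff_dvd_left.mpr h1

end Key


section Main

/-- **X-B7-NORM**: the norm descent. -/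
theorem S18B_norm_descent
    {A B : Type*} [CommRing A] [CommRing B] [IsDomain B] [Algebra A B]
    [IsNoetherianRing A] [Module.Finite A B] [FaithfulSMul A B]
    (H : Type*) [Group H] [Finite H] [MulSemiringAction H B] [SMulCommClass H A B]
    [Algebra.IsInvariant A B H]
    (π : A) (hπ0 : π ≠ 0) (m : Ideal A) [m.IsMaximal] (hπm : π ∈ m)
    (hres : ∀ m' : Ideal B, m'.IsMaximal → m'.comap (algebraMap A B) = m →
        ∀ b : B, ∃ a : A, b - algebraMap A B a ∈ m')
    (hloc : ∀ m' : Ideal B, m'.IsMaximal → m'.comap (algebraMap A B) = m →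
        ∃ τ ∈ m', (∀ x ∈ m', ∃ s, s ∉ m' ∧ ∃ a b : B, s * x = a * algebraMap A B π + b * τ) ∧
          ∀ (n : ℕ) (s : B), s ∉ m' → ¬ algebraMap A B π ∣ s * τ ^ n)
    (hfaith : ∀ m' : Ideal B, m'.IsMaximal → m'.comap (algebraMap A B) = m →
        ∀ h : H, (∀ b : B, ∃ s, s ∉ m' ∧ algebraMap A B π ∣ s * (h • b - b)) → h = 1) :
    ∃ y ∈ m, (∀ x ∈ m, ∃ s, s ∉ m ∧ ∃ a b : A, s * x = a * π + b * y) ∧
      ∀ (n : ℕ) (s : A), s ∉ m → ¬ π ∣ s * y ^ n := by
  have hinj : Function.Injective (algebraMap A B) := FaithfulSMul.algebraMap_injective A B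
  obtain ⟨M, hMmax, hM⟩ := Ideal.exists_ideal_over_maximal_of_isIntegral (S := B) m
    (by rw [(RingHom.injective_iff_ker_eq_bot _).mp hinj]; exact bot_le)
  haveI := hMmax
  haveI : Fact (algebraMap A B π ∈ M) := ⟨by rw [← Ideal.mem_comap, hM]; exact hπm⟩
  haveI : IsNoetherianRing B := IsNoetherianRing.of_finite A B
  obtain ⟨τ, hτ, hgen, hnil⟩ := hloc M hMmax hM
  obtain ⟨yB, hyinv, hyM, hy0, hkey⟩ := exists_key (H := H) (p := algebraMap A B π) (m' := M)
    (fun σ => smul_algebraMap σ π) τ hτ hgen hnil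
    (fun b => by
      obtain ⟨a, ha⟩ := hres M hMmax hM b
      exact ⟨algebraMap A B a, fun σ => smul_algebraMap σ a, ha⟩)
    (hfaith M hMmax hM)
  obtain ⟨y, rfl⟩ := Algebra.IsInvariant.isInvariant (A := A) (G := H) yB hyinv
  haveI : IsDomain (Dloc (algebraMap A B π) M) := isDomain_Dloc τ hτ hgen hnil
  have hym : y ∈ m := by rw [← hM]; exact hyM
  exact ⟨y, hym, descent (H := H) hM (toD (algebraMap A B π) M) toD_eq_zero_iff hπ0 hπm
    (fun d => toD_surj d) (hres M hMmax hM) y hym hy0 hkey⟩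

end Main

end Fermat.Agent.S18_helper12_NORM
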