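import Mathlib

set_option autoImplicit false

/-! # S18 block B: interface definitions (cover data, horizontal input, output `[IG]`) -/

namespace Fermat.Agent.S18_helper17_BDefs

open Polynomial

/-- The cover relation `An(t) = x * Bd(t)` for `t` in a field `E` over `F1`. -/
def S18B_rel {O F1 : Type} [CommRing O] [Field F1] [Algebra O F1] (x : F1) (An Bd : O[X])
    (E : Type) [Field E] [Algebra F1 E] [Algebra O E] (t : E) : Prop :=
  aeval t An = algebraMap F1 E x * aeval t Bd

/-- Abstract tame cover `x = An(t)/Bd(t)` of the `x`-line over `O`, with the properties consumed by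
the block-B assembly. -/
structure S18B_Cover (O F1 : Type) [CommRing O] [Field F1] [Algebra O F1] (π : O) (x : F1)
    (An Bd : O[X]) : Prop where
  /-- the cover polynomial is not constant -/
  deg_pos : 0 < (An.map (algebraMap O F1) - C x * Bd.map (algebraMap O F1)).natDegree
  /-- `An`, `Bd` are linearly independent modulo `π` (the reduced cover is non-constant) -/
  nonconst : ∀ c d : O, C π ∣ (C c * An - C d * Bd) → π ∣ c ∧ π ∣ d
  /-- `t` is integral over `O[x]` -/
  integral_t : ∀ (E : Type) [Field E] [Algebra F1 E] [Algebra O E] [IsScalarTower O F1 E] (t : E),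
    S18B_rel x An Bd E t → IsIntegral (Algebra.adjoin O {algebraMap F1 E x}) t
  /-- `Bd(t) ≠ 0` -/
  den_ne : ∀ (E : Type) [Field E] [Algebra F1 E] [Algebra O E] [IsScalarTower O F1 E] (t : E),
    S18B_rel x An Bd E t → aeval t Bd ≠ 0
  /-- `1/Bd(t)` is integral over `O[x]` -/
  integral_inv : ∀ (E : Type) [Field E] [Algebra F1 E] [Algebra O E] [IsScalarTower O F1 E]
    (t : E), S18B_rel x An Bd E t →
      IsIntegral (Algebra.adjoin O {algebraMap F1 E x}) (aeval t Bd)⁻¹
  /-- two distinct roots differ by a function of `t` which is nonzero modulo `π` -/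
  faith : ∀ (E : Type) [Field E] [Algebra F1 E] [Algebra O E] [IsScalarTower O F1 E] (t t' : E),
    S18B_rel x An Bd E t → S18B_rel x An Bd E t' → t' ≠ t →
      ∃ p q : O[X], aeval t q ≠ 0 ∧ aeval t q * (t' - t) = aeval t p ∧ ¬ C π ∣ p

/-- The horizontal input (X-B5b-HOR) at the point `t = t₀` of the cover. -/
def S18B_Hor (O F1 : Type) [CommRing O] [Field F1] [Algebra O F1] (π : O) (x : F1)
    (An Bd : O[X]) (t₀ : O) : Prop :=
  ∀ (E : Type) [Field E] [Algebra F1 E] [Algebra O E] [IsScalarTower O F1 E] (t : E),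
    S18B_rel x An Bd E t → IntermediateField.adjoin F1 {t} = ⊤ →
  ∀ [(Ideal.span {C π, X - C t₀} : Ideal O[X]).IsPrime]
    (R : Type) [CommRing R] [IsDomain R] [Algebra O[X] R]
    [IsLocalization.AtPrime R (Ideal.span {C π, X - C t₀} : Ideal O[X])] [Algebra R E],
    (∀ p : O[X], algebraMap R E (algebraMap O[X] R p) = aeval t p) →
  ∀ (B : Type) [CommRing B] [Algebra R B] [Algebra B E] [IsScalarTower R B E]
    [IsIntegralClosure B R E]
    (g : R), Prime g → ¬ Associated g (algebraMap O[X] R (C π)) →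
  ∀ (ι : Type) [Fintype ι] [DecidableEq ι] (b : Module.Basis ι R B), ¬ g ∣ Algebra.discr R b

/-- Block B output `[IG]` at a maximal ideal, elementwise. -/
def S18B_IGat {A : Type} [CommRing A] (π : A) (m : Ideal A) : Prop :=
  ∃ y ∈ m, (∀ x ∈ m, ∃ s, s ∉ m ∧ ∃ a b : A, s * x = a * π + b * y) ∧
    ∀ (n : ℕ) (s : A), s ∉ m → ¬ π ∣ s * y ^ n

end Fermat.Agent.S18_helper17_BDefs
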