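import Mathlib
import Fermat.Agent.S18_helper17_BDefs

set_option linter.style.haveILetI false

/-!
# S18 block B glue (M6): the cover field is generated by one root

The splitting field of the cover polynomial `An - x * Bd` over `F1` contains a root `t` with
`F1(t) = ⊤`, because any other root is a rational function of `t` (`hcov.faith`).
Also: a splitting field in characteristic zero is Galois.
-/

namespace Fermat.Agent.S18_helper15_SPLIT

open Polynomial Fermat.Agent.S18_helper17_BDefs

/-- In characteristic zero every splitting field is Galois. -/
theorem S18B_isGalois_splittingField {F1 : Type} [Field F1] [CharZero F1] (f : F1[X]) :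
    IsGalois F1 f.SplittingField := by
  haveI : Normal F1 f.SplittingField := Normal.of_isSplittingField f
  exact ⟨⟩

/-- Variant for an arbitrary splitting field. -/
theorem S18B_isGalois_of_isSplittingField {F1 E : Type} [Field F1] [CharZero F1] [Field E]
    [Algebra F1 E] (f : F1[X]) [IsSplittingField F1 E f] : IsGalois F1 E := by
  haveI : Normal F1 E := Normal.of_isSplittingField f
  haveI : FiniteDimensional F1 E := IsSplittingField.finiteDimensional E f
  exact ⟨⟩

theorem S18B_rel_iff_aeval {O F1 : Type} [CommRing O] [Field F1] [Algebra O F1]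
    (x : F1) (An Bd : O[X]) (E : Type) [Field E] [Algebra F1 E] [Algebra O E]
    [IsScalarTower O F1 E] (t : E) :
    S18B_rel x An Bd E t ↔
      aeval t (An.map (algebraMap O F1) - C x * Bd.map (algebraMap O F1)) = 0 := by
  unfold S18B_rel
  rw [map_sub, map_mul, aeval_C, aeval_map_algebraMap, aeval_map_algebraMap, sub_eq_zero]

/-- (M6) the cover field: splitting field of the cover polynomial over `F1`. -/
theorem S18B_splittingField_root {O F1 : Type} [CommRing O] [Field F1] [Algebra O F1]
    (π : O) (x : F1) (An Bd : O[X]) (hcov : S18B_Cover O F1 π x An Bd) :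
    ∃ t : (An.map (algebraMap O F1) - C x * Bd.map (algebraMap O F1)).SplittingField,
      S18B_rel x An Bd (An.map (algebraMap O F1) - C x * Bd.map (algebraMap O F1)).SplittingField t
      ∧ IntermediateField.adjoin F1 {t} = ⊤ := by
  classical
  set f : F1[X] := An.map (algebraMap O F1) - C x * Bd.map (algebraMap O F1) with hf
  have hdeg : f.natDegree ≠ 0 := hcov.deg_pos.ne'
  have hf0 : f ≠ 0 := fun h => hdeg (by rw [h, natDegree_zero])
  have hsplit : (f.map (algebraMap F1 f.SplittingField)).Splits := SplittingField.splits f
  have hdeg' : (f.map (algebraMap F1 f.SplittingField)).degree ≠ 0 := by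
    rw [degree_map]
    intro h
    exact hdeg (natDegree_eq_zero_iff_degree_le_zero.mpr h.le)
  obtain ⟨t, ht⟩ := hsplit.exists_eval_eq_zero hdeg'
  have ht' : aeval t f = 0 := by
    rwa [eval_map_algebraMap] at ht
  have hrel : S18B_rel x An Bd f.SplittingField t :=
    (S18B_rel_iff_aeval x An Bd f.SplittingField t).mpr ht'
  refine ⟨t, hrel, ?_⟩
  -- every root lies in `F1(t)`
  have hroots : f.rootSet f.SplittingField ⊆ (IntermediateField.adjoin F1 {t} : Set f.SplittingField) := by
    intro t' ht'
    have ht'0 : aeval t' f = 0 := (mem_rootSet.mp ht').2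
    have hrel' : S18B_rel x An Bd f.SplittingField t' :=
      (S18B_rel_iff_aeval x An Bd f.SplittingField t').mpr ht'0
    by_cases htt : t' = t
    · rw [htt]
      exact IntermediateField.mem_adjoin_simple_self F1 t
    obtain ⟨p, q, hq, hpq, -⟩ := hcov.faith f.SplittingField t t' hrel hrel' htt
    have hmem : ∀ r : O[X], aeval t r ∈ IntermediateField.adjoin F1 {t} := by
      intro r
      rw [← aeval_map_algebraMap F1]
      exact IntermediateField.algebra_adjoin_le_adjoin F1 {t}
        (aeval_mem_adjoin_singleton F1 t)
    have hteq : t' = t + aeval t p / aeval t q := by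
      field_simp
      linear_combination hpq
    rw [hteq]
    exact add_mem (IntermediateField.mem_adjoin_simple_self F1 t) (div_mem (hmem p) (hmem q))
  have htop : (⊤ : Subalgebra F1 f.SplittingField) ≤
      (IntermediateField.adjoin F1 {t}).toSubalgebra := by
    rw [← SplittingField.adjoin_rootSet f]
    exact Algebra.adjoin_le hroots
  rw [eq_top_iff]
  intro y _
  exact htop Algebra.mem_top

end Fermat.Agent.S18_helper15_SPLIT
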