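import Mathlib

set_option autoImplicit false
set_option linter.unusedSectionVars false
set_option linter.style.haveILetI false

namespace Fermat.Agent.S18_helper17_BASE

open Polynomial

section n0

variable {O : Type} [CommRing O]

theorem S18B_mem_n0_iff (π t₀ : O) (p : O[X]) :
    p ∈ (Ideal.span {C π, X - C t₀} : Ideal O[X]) ↔ π ∣ p.eval t₀ := by
  constructor
  · intro h
    rw [Ideal.mem_span_pair] at h
    obtain ⟨a, b, rfl⟩ := h
    simp only [eval_add, eval_mul, eval_C, eval_sub, eval_X, sub_self, mul_zero, add_zero]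
    exact Dvd.intro_left _ rfl
  · rintro ⟨c, hc⟩
    rw [Ideal.mem_span_pair]
    refine ⟨C c, p /ₘ (X - C t₀), ?_⟩
    have h1 := modByMonic_add_div p (X - C t₀)
    rw [modByMonic_X_sub_C_eq_C_eval, hc] at h1
    calc C c * C π + p /ₘ (X - C t₀) * (X - C t₀)
        = C (π * c) + (X - C t₀) * (p /ₘ (X - C t₀)) := by rw [C_mul]; ring
      _ = p := h1

theorem S18B_n0_eq_comap (π t₀ : O) :
    (Ideal.span {C π, X - C t₀} : Ideal O[X]) = (Ideal.span {π}).comap (evalRingHom t₀) := by
  ext p
  rw [S18B_mem_n0_iff, Ideal.mem_comap, Ideal.mem_span_singleton]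
  rfl

theorem S18B_n0_isMaximal (π t₀ : O) (hπ : (Ideal.span {π} : Ideal O).IsMaximal) :
    (Ideal.span {C π, X - C t₀} : Ideal O[X]).IsMaximal := by
  rw [S18B_n0_eq_comap]
  exact Ideal.comap_isMaximal_of_surjective _ (fun a => ⟨C a, by simp⟩)

end n0

section Rloc

variable {O : Type} [CommRing O] [IsDomain O]

theorem S18B_R_isDomain (π t₀ : O) [hn : (Ideal.span {C π, X - C t₀} : Ideal O[X]).IsPrime]
    (R : Type) [CommRing R] [Algebra O[X] R]
    [IsLocalization.AtPrime R (Ideal.span {C π, X - C t₀} : Ideal O[X])] : IsDomain R :=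
  IsLocalization.isDomain_of_atPrime R (Ideal.span {C π, X - C t₀} : Ideal O[X])

theorem S18B_R_isNoetherianRing [IsNoetherianRing O] (π t₀ : O)
    [hn : (Ideal.span {C π, X - C t₀} : Ideal O[X]).IsPrime]
    (R : Type) [CommRing R] [Algebra O[X] R]
    [IsLocalization.AtPrime R (Ideal.span {C π, X - C t₀} : Ideal O[X])] : IsNoetherianRing R :=
  IsLocalization.isNoetherianRing (Ideal.span {C π, X - C t₀} : Ideal O[X]).primeCompl R
    inferInstance

theorem S18B_R_injective (π t₀ : O) [hn : (Ideal.span {C π, X - C t₀} : Ideal O[X]).IsPrime]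
    (R : Type) [CommRing R] [Algebra O[X] R]
    [IsLocalization.AtPrime R (Ideal.span {C π, X - C t₀} : Ideal O[X])] :
    Function.Injective (algebraMap O[X] R) :=
  IsLocalization.injective R
    (Ideal.primeCompl_le_nonZeroDivisors (Ideal.span {C π, X - C t₀} : Ideal O[X]))

theorem S18B_R_maximalIdeal (π t₀ : O) [hn : (Ideal.span {C π, X - C t₀} : Ideal O[X]).IsPrime]
    (R : Type) [CommRing R] [Algebra O[X] R]
    [IsLocalization.AtPrime R (Ideal.span {C π, X - C t₀} : Ideal O[X])] [IsLocalRing R] :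
    IsLocalRing.maximalIdeal R =
      Ideal.span {algebraMap O[X] R (C π), algebraMap O[X] R (X - C t₀)} := by
  rw [← IsLocalization.AtPrime.map_eq_maximalIdeal (Ideal.span {C π, X - C t₀} : Ideal O[X]) R,
    Ideal.map_span]
  congr 1
  ext y
  simp [Set.image_pair]

theorem S18B_R_prime (π t₀ : O) [hn : (Ideal.span {C π, X - C t₀} : Ideal O[X]).IsPrime]
    (R : Type) [CommRing R] [Algebra O[X] R]
    [IsLocalization.AtPrime R (Ideal.span {C π, X - C t₀} : Ideal O[X])]
    (hπ : Prime π) : Prime (algebraMap O[X] R (C π)) := by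
  have hCπ : Prime (C π : O[X]) := prime_C_iff.2 hπ
  have hI : (Ideal.span {C π} : Ideal O[X]).IsPrime :=
    (Ideal.span_singleton_prime hCπ.ne_zero).2 hCπ
  have hd : Disjoint ((Ideal.span {C π, X - C t₀} : Ideal O[X]).primeCompl : Set O[X])
      (Ideal.span {C π} : Ideal O[X]) := by
    rw [Set.disjoint_left]
    intro p hp hp'
    apply hp
    exact (Ideal.span_mono (by simp : ({C π} : Set O[X]) ⊆ {C π, X - C t₀})) hp'
  have h := IsLocalization.isPrime_of_isPrime_disjoint
    (Ideal.span {C π, X - C t₀} : Ideal O[X]).primeCompl R _ hI hd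
  rw [Ideal.map_span, Set.image_singleton] at h
  haveI := S18B_R_isDomain π t₀ R
  have hne : algebraMap O[X] R (C π) ≠ 0 := by
    intro h0
    have := (IsLocalization.to_map_eq_zero_iff R
      (Ideal.primeCompl_le_nonZeroDivisors (Ideal.span {C π, X - C t₀} : Ideal O[X]))).1 h0
    exact hCπ.ne_zero this
  exact (Ideal.span_singleton_prime hne).1 h

theorem S18B_R_not_dvd_pow (π t₀ : O) [hn : (Ideal.span {C π, X - C t₀} : Ideal O[X]).IsPrime]
    (R : Type) [CommRing R] [Algebra O[X] R]
    [IsLocalization.AtPrime R (Ideal.span {C π, X - C t₀} : Ideal O[X])]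
    (hπ : Prime π) (n : ℕ) :
    ¬ algebraMap O[X] R (C π) ∣ algebraMap O[X] R (X - C t₀) ^ n := by
  intro h
  have hp := S18B_R_prime π t₀ R hπ
  have h1 : algebraMap O[X] R (C π) ∣ algebraMap O[X] R (X - C t₀) := hp.dvd_of_dvd_pow h
  obtain ⟨c, hc⟩ := h1
  obtain ⟨⟨a, s⟩, hs⟩ := IsLocalization.surj
    (Ideal.span {C π, X - C t₀} : Ideal O[X]).primeCompl c
  simp only at hs
  have h2 : algebraMap O[X] R ((X - C t₀) * (s : O[X])) = algebraMap O[X] R (C π * a) := by
    rw [map_mul, map_mul, hc, ← hs]; ring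
  have h3 := S18B_R_injective π t₀ R h2
  have hCπ : Prime (C π : O[X]) := prime_C_iff.2 hπ
  have h4 : C π ∣ (X - C t₀) * (s : O[X]) := ⟨a, h3⟩
  rcases hCπ.dvd_or_dvd h4 with h5 | h5
  · obtain ⟨d, hd⟩ := h5
    have := congrArg (fun p => p.coeff 1) hd
    simp only [coeff_sub, coeff_X_one, coeff_C_succ, sub_zero, coeff_C_mul] at this
    exact hπ.not_isUnit (IsUnit.of_mul_eq_one _ this.symm)
  · apply s.2
    exact Ideal.mem_of_dvd _ h5 (Ideal.subset_span (by simp))

end Rloc

section Carrier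

/-- The local base ring `O[X]_(π, X - t₀)`, as an opaque carrier (so that instance search does
not see through `Localization`). -/
def S18B_Rloc {O : Type} [CommRing O] (π t₀ : O)
    [hn : (Ideal.span {C π, X - C t₀} : Ideal O[X]).IsPrime] : Type :=
  Localization.AtPrime (Ideal.span {C π, X - C t₀} : Ideal O[X])

variable {O : Type} [CommRing O] (π t₀ : O)
  [hn : (Ideal.span {C π, X - C t₀} : Ideal O[X]).IsPrime]

noncomputable instance S18B_Rloc_commRing : CommRing (S18B_Rloc π t₀) :=
  inferInstanceAs (CommRing (Localization.AtPrime (Ideal.span {C π, X - C t₀} : Ideal O[X])))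

noncomputable instance S18B_Rloc_algebra : Algebra O[X] (S18B_Rloc π t₀) :=
  inferInstanceAs (Algebra O[X] (Localization.AtPrime (Ideal.span {C π, X - C t₀} : Ideal O[X])))

instance S18B_Rloc_isLocalization :
    IsLocalization.AtPrime (S18B_Rloc π t₀) (Ideal.span {C π, X - C t₀} : Ideal O[X]) :=
  inferInstanceAs (IsLocalization.AtPrime
    (Localization.AtPrime (Ideal.span {C π, X - C t₀} : Ideal O[X])) _)

end Carrier

end Fermat.Agent.S18_helper17_BASE
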