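import Fermat.Agent.S18_helper24_PURITY

/-!
# S18, block B glue T5 (helper24): the minimal polynomial of the generic etale element

`R` an integrally closed domain, `K = Frac R`, `E` a field finite over `K`, `B` the integral
closure of `R` in `E`, `V : B` a generator of `E` over `K`, annihilated by a monic `P0 ∈ R[X]`
which becomes separable under `f : R → κ`.  Then `P := minpoly R V` satisfies all the hypotheses
of the purity theorems (`S18PUR_purity`, `S18P4_not_dvd_discr_of_separable`).
-/

set_option autoImplicit false
set_option linter.unusedSectionVars false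
set_option linter.style.haveILetI false

noncomputable section

namespace Fermat.Agent.S18_helper24_MINPOLY

open Module Polynomial IntermediateField

variable {R : Type*} [CommRing R] [IsDomain R] [IsIntegrallyClosed R]
  (K : Type*) [Field K] [Algebra R K] [IsFractionRing R K]
  (E : Type*) [Field E] [Algebra R E] [Algebra K E] [IsScalarTower R K E]
  {B : Type*} [CommRing B] [Algebra R B] [Algebra B E] [IsScalarTower R B E]
  [IsIntegralClosure B R E]

include K E

/-- The minimal polynomial over `R` of an element of `B` agrees with that of its image in `E`. -/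
theorem S18T5_minpoly_eq (V : B) : minpoly R (algebraMap B E V) = minpoly R V :=
  minpoly.algebraMap_eq (IsIntegralClosure.algebraMap_injective B R E) V

theorem S18T5_isIntegral (V : B) : IsIntegral R V :=
  IsIntegralClosure.isIntegral R E V

/-- **T5.** -/
theorem S18T5_minpoly_data [FiniteDimensional K E] {κ : Type*} [Field κ] (f : R →+* κ)
    (V : B) (hgen : K⟮algebraMap B E V⟯ = ⊤)
    (P0 : R[X]) (hV0 : aeval V P0 = 0) (hsep0 : (P0.map f).Separable) :
    (minpoly R V).Monic ∧ (minpoly R V).natDegree = Module.finrank K E ∧
      aeval V (minpoly R V) = 0 ∧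
      LinearIndependent R (fun i : Fin (minpoly R V).natDegree => V ^ (i : ℕ)) ∧
      ((minpoly R V).map f).Separable ∧ minpoly R V ∣ P0 := by
  have hint : IsIntegral R V := S18T5_isIntegral K E V
  have hintE : IsIntegral R (algebraMap B E V) := hint.map (IsScalarTower.toAlgHom R B E)
  have hintK : IsIntegral K (algebraMap B E V) := hintE.tower_top
  have hmonic : (minpoly R V).Monic := minpoly.monic hint
  have hKR : minpoly K (algebraMap B E V) = (minpoly R V).map (algebraMap R K) := by
    rw [minpoly.isIntegrallyClosed_eq_field_fractions' K hintE, S18T5_minpoly_eq K E V]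
  have hdegK : (minpoly K (algebraMap B E V)).natDegree = (minpoly R V).natDegree := by
    rw [hKR, hmonic.natDegree_map]
  have hinjBE : Function.Injective (algebraMap B E) :=
    IsIntegralClosure.algebraMap_injective B R E
  haveI : Module.IsTorsionFree R B := by
    refine Module.IsTorsionFree.of_smul_eq_zero fun r x hrx => ?_
    by_cases hr : r = 0
    · exact Or.inl hr
    · right
      apply hinjBE
      rw [map_zero]
      have h1 := congrArg (algebraMap B E) hrx
      rw [Algebra.smul_def, map_mul, ← IsScalarTower.algebraMap_apply, map_zero,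
        IsScalarTower.algebraMap_apply R K E] at h1
      have hK : algebraMap R K r ≠ 0 := by
        rwa [Ne, map_eq_zero_iff _ (IsFractionRing.injective R K)]
      rcases mul_eq_zero.mp h1 with h2 | h2
      · exact absurd ((map_eq_zero _).mp h2) hK
      · exact h2
  haveI : IsDomain B := hinjBE.isDomain (algebraMap B E)
  have hdvd : minpoly R V ∣ P0 := minpoly.isIntegrallyClosed_dvd hint hV0
  refine ⟨hmonic, ?_, minpoly.aeval R V, ?_, ?_, hdvd⟩
  · rw [← hdegK, ← IntermediateField.adjoin.finrank hintK, hgen]
    exact IntermediateField.finrank_top'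
  · have hliK := linearIndependent_pow (K := K) (algebraMap B E V)
    have hliR : LinearIndependent R
        (fun i : Fin (minpoly K (algebraMap B E V)).natDegree =>
          (algebraMap B E V) ^ (i : ℕ)) :=
      hliK.restrict_scalars (by
        intro a b hab
        simp only [Algebra.smul_def, mul_one] at hab
        exact IsFractionRing.injective R K hab)
    have hliR' : LinearIndependent R
        (fun i : Fin (minpoly R V).natDegree => (algebraMap B E V) ^ (i : ℕ)) := by
      have := hliR.comp (fun i : Fin (minpoly R V).natDegree => Fin.cast hdegK.symm i)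
        (Fin.cast_injective _)
      exact this
    refine LinearIndependent.of_comp (IsScalarTower.toAlgHom R B E).toLinearMap ?_
    convert hliR' using 1
    funext i
    simp
  · obtain ⟨c, hc⟩ := hdvd
    refine hsep0.of_dvd ⟨c.map f, ?_⟩
    rw [hc, Polynomial.map_mul]

/-- The rank of `B` over `R` is the degree of `E` over `K`. -/
theorem S18T5_card_eq_finrank [FiniteDimensional K E] {ι : Type*} [Fintype ι]
    (b : Basis ι R B) : Fintype.card ι = Module.finrank K E := by
  classical
  have hinjBE : Function.Injective (algebraMap B E) :=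
    IsIntegralClosure.algebraMap_injective B R E
  have hliR : LinearIndependent R (fun i => algebraMap B E (b i)) :=
    b.linearIndependent.map' (IsScalarTower.toAlgHom R B E).toLinearMap
      (LinearMap.ker_eq_bot.mpr hinjBE)
  have hliK : LinearIndependent K (fun i => algebraMap B E (b i)) :=
    LinearIndependent.localization K (nonZeroDivisors R) hliR
  have hspan : ⊤ ≤ Submodule.span K (Set.range fun i => algebraMap B E (b i)) := by
    intro x _
    have hxalg : IsAlgebraic K x := Algebra.IsAlgebraic.isAlgebraic x
    have hxalgR : IsAlgebraic R x := (IsFractionRing.isAlgebraic_iff R K E).mpr hxalg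
    obtain ⟨r, hr0, hrx⟩ := hxalgR.exists_integral_multiple
    obtain ⟨y, hy⟩ := (IsIntegralClosure.isIntegral_iff (A := B)).mp hrx
    have hK : algebraMap R K r ≠ 0 := by
      rwa [Ne, map_eq_zero_iff _ (IsFractionRing.injective R K)]
    have hx : x = (algebraMap R K r)⁻¹ • algebraMap B E y := by
      rw [hy, Algebra.smul_def r x, IsScalarTower.algebraMap_apply R K E, ← Algebra.smul_def,
        smul_smul, inv_mul_cancel₀ hK, one_smul]
    rw [hx]
    refine Submodule.smul_mem _ _ ?_
    rw [← b.sum_repr y, map_sum]
    refine Submodule.sum_mem _ fun i _ => ?_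
    rw [Algebra.smul_def, map_mul, ← IsScalarTower.algebraMap_apply,
      IsScalarTower.algebraMap_apply R K E, ← Algebra.smul_def]
    exact Submodule.smul_mem _ _ (Submodule.subset_span ⟨i, rfl⟩)
  rw [Module.finrank_eq_card_basis (Basis.mk hliK hspan)]

/-- **B3 + B4 + B6 with T5 plugged in**: the purity theorem with the generic etale element given
as a generator `V` of `E` over `K` killed by a monic polynomial `P0` that is separable after
`f`. -/
theorem S18T5_purity_of_generator [FiniteDimensional K E] [IsNoetherianRing R]
    [UniqueFactorizationMonoid R] [Module.Finite R B]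
    (π : R) (hπ : Prime π) (hπJ : π ∈ Ideal.jacobson (⊥ : Ideal R))
    [IsPrincipalIdealRing (R ⧸ Ideal.span {π})]
    {κ : Type*} [Field κ] (f : R →+* κ) (hfπ : f π = 0)
    (V : B) (hgen : K⟮algebraMap B E V⟯ = ⊤)
    (P0 : R[X]) (hV0 : aeval V P0 = 0) (hsep0 : (P0.map f).Separable)
    (hhor : ∀ (m : ℕ) (b' : Basis (Fin m) R B) (g : R), Prime g → ¬ Associated g π →
      ¬ g ∣ Algebra.discr R b') :
    ∃ (n : ℕ) (b : Basis (Fin n) R B)
      (bb : Basis (Fin n) (R ⧸ Ideal.span {π})
        (Fermat.Agent.S18_helper24_PURITY.S18PUR_Fibre B π)),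
      (∀ i, bb i = Ideal.Quotient.mk _ (b i)) ∧ IsUnit (Algebra.discr R b) ∧
        IsUnit (Algebra.discr (R ⧸ Ideal.span {π}) bb) := by
  obtain ⟨n, b, bb, hbb⟩ :=
    Fermat.Agent.S18_helper24_PURITY.S18PUR_exists_basis K E (B := B) π hπ hπJ
  obtain ⟨hmonic, hdeg, hV, hli, hsep, -⟩ := S18T5_minpoly_data K E f V hgen P0 hV0 hsep0
  have hn : Fintype.card (Fin n) = Module.finrank K E := S18T5_card_eq_finrank K E b
  rw [Fintype.card_fin] at hn
  exact ⟨n, b, bb, hbb,
    Fermat.Agent.S18_helper24_PURITY.S18PUR_isUnit_discr π b bb hbb f hfπ V (minpoly R V) hmonic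
      (hdeg.trans hn.symm) hV hli hsep (hhor n b)⟩

end Fermat.Agent.S18_helper24_MINPOLY
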