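import Mathlib

/-!
# S18, abstract piece P4 (helper24): discriminants of finite free algebras

Mathlib only.  Contents:

* `S18P4_isUnit_of_forall_prime_not_dvd`: in a UFD a nonzero element with no prime divisor is a
  unit (purity step B6).
* `S18P4_trace_map`, `S18P4_discr_map`: traces and discriminants commute with every semilinear
  ring homomorphism carrying a basis to a basis (localisation, quotient, base change).
* `S18P4_discr_family_eq`, `S18P4_not_dvd_discr_of_family`, `S18P4_discr_associated`.
* `S18P4_trace_pi`, `S18P4_eq_zero_of_trace_mul_eq_zero`, `S18P4_discr_ne_zero_of_isReduced`: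
  a finite-dimensional reduced algebra over a field with separable residue fields has nonzero
  discriminant (products of fields allowed).
* `S18P4_trace_of_injective`: injective algebra maps between free algebras of equal finite rank
  over a domain preserve traces.
* `S18P4_isReduced_of_adjoin_separable`, `S18P4_isSeparable_quotient_of_adjoin_separable`.
* `S18P4_map_discr_ne_zero_of_separable`, `S18P4_not_dvd_discr_of_separable`: the bridge used in
  step B4 (generic separability implies that the prime does not divide the discriminant).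
-/

set_option autoImplicit false
set_option linter.unusedSectionVars false
set_option linter.style.haveILetI false

noncomputable section

namespace Fermat.Agent.S18_helper24_DISC

open Module Polynomial

section Map

variable {R S B B' ι : Type*} [CommRing R] [CommRing S] [CommRing B] [CommRing B']
  [Algebra R B] [Algebra S B'] [Fintype ι] [DecidableEq ι]

/-- Coordinates are compatible with a semilinear ring homomorphism carrying a basis to a
basis. -/
theorem S18P4_repr_map (f : R →+* S) (φ : B →+* B')
    (hφ : ∀ (r : R) (x : B), φ (r • x) = f r • φ x)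
    (b : Basis ι R B) (b' : Basis ι S B') (hb : ∀ i, φ (b i) = b' i) (x : B) (i : ι) :
    b'.repr (φ x) i = f (b.repr x i) := by
  have hx : φ x = ∑ j, f (b.repr x j) • b' j := by
    conv_lhs => rw [← b.sum_repr x]
    rw [map_sum]
    exact Finset.sum_congr rfl fun j _ => by rw [hφ, hb]
  rw [hx, map_sum, Finsupp.coe_finsetSum, Finset.sum_apply]
  simp [Finsupp.single_apply]

/-- Traces are compatible with a semilinear ring homomorphism carrying a basis to a basis. -/
theorem S18P4_trace_map (f : R →+* S) (φ : B →+* B')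
    (hφ : ∀ (r : R) (x : B), φ (r • x) = f r • φ x)
    (b : Basis ι R B) (b' : Basis ι S B') (hb : ∀ i, φ (b i) = b' i) (x : B) :
    Algebra.trace S B' (φ x) = f (Algebra.trace R B x) := by
  rw [Algebra.trace_eq_matrix_trace b', Algebra.trace_eq_matrix_trace b, Matrix.trace,
    Matrix.trace, map_sum]
  refine Finset.sum_congr rfl fun i _ => ?_
  rw [Matrix.diag_apply, Matrix.diag_apply, Algebra.leftMulMatrix_eq_repr_mul,
    Algebra.leftMulMatrix_eq_repr_mul, ← hb i, ← map_mul, S18P4_repr_map f φ hφ b b' hb]

/-- Discriminants are compatible with a semilinear ring homomorphism carrying a basis to a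
basis.  This covers localisation, quotients and tensor base change uniformly. -/
theorem S18P4_discr_map (f : R →+* S) (φ : B →+* B')
    (hφ : ∀ (r : R) (x : B), φ (r • x) = f r • φ x)
    (b : Basis ι R B) (b' : Basis ι S B') (hb : ∀ i, φ (b i) = b' i) :
    Algebra.discr S b' = f (Algebra.discr R b) := by
  rw [Algebra.discr_def, Algebra.discr_def, RingHom.map_det]
  congr 1
  ext i j
  rw [RingHom.mapMatrix_apply, Matrix.map_apply, Algebra.traceMatrix_apply,
    Algebra.traceMatrix_apply, Algebra.traceForm_apply, Algebra.traceForm_apply, ← hb i, ← hb j,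
    ← map_mul, S18P4_trace_map f φ hφ b b' hb]

end Map

section UFD

variable {R : Type*} [CommRing R] [UniqueFactorizationMonoid R]

/-- In a UFD, a nonzero element not divisible by any prime element is a unit. -/
theorem S18P4_isUnit_of_forall_prime_not_dvd {d : R} (hd : d ≠ 0)
    (h : ∀ p : R, Prime p → ¬ p ∣ d) : IsUnit d := by
  by_contra hu
  obtain ⟨i, hi, hid⟩ := WfDvdMonoid.exists_irreducible_factor hu hd
  exact h i (UniqueFactorizationMonoid.irreducible_iff_prime.mp hi) hid

end UFD

section Family

variable {R B ι : Type*} [CommRing R] [CommRing B] [Algebra R B] [Fintype ι] [DecidableEq ι]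

/-- The discriminant of any family of `|ι|` elements is a multiple of the discriminant of a
basis. -/
theorem S18P4_discr_family_eq (b : Basis ι R B) (v : ι → B) :
    Algebra.discr R v = (Matrix.of fun j i => b.repr (v i) j).det ^ 2 * Algebra.discr R b := by
  rw [← Algebra.discr_of_matrix_vecMul]
  congr 1
  ext i
  rw [Matrix.vecMul, dotProduct]
  conv_lhs => rw [← b.sum_repr (v i)]
  refine Finset.sum_congr rfl fun j _ => ?_
  rw [Matrix.map_apply, Matrix.of_apply, Algebra.smul_def, mul_comm]

theorem S18P4_discr_basis_dvd_discr_family (b : Basis ι R B) (v : ι → B) :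
    Algebra.discr R b ∣ Algebra.discr R v :=
  ⟨_, (S18P4_discr_family_eq b v).trans (mul_comm _ _)⟩

/-- If some family of `|ι|` elements has discriminant not divisible by `p`, then neither is the
discriminant of a basis. -/
theorem S18P4_not_dvd_discr_of_family (b : Basis ι R B) (v : ι → B) {p : R}
    (h : ¬ p ∣ Algebra.discr R v) : ¬ p ∣ Algebra.discr R b :=
  fun hp => h (hp.trans (S18P4_discr_basis_dvd_discr_family b v))

/-- Two bases have associated discriminants. -/
theorem S18P4_discr_associated [IsDomain R] (b b' : Basis ι R B) :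
    Associated (Algebra.discr R b) (Algebra.discr R b') :=
  associated_of_dvd_dvd (S18P4_discr_basis_dvd_discr_family b b')
    (S18P4_discr_basis_dvd_discr_family b' b)

end Family

section PiTrace

variable {k : Type*} [Field k] {η : Type*} [Fintype η] [DecidableEq η] (L : η → Type*)
  [∀ m, CommRing (L m)] [∀ m, Algebra k (L m)] [∀ m, Module.Finite k (L m)]

theorem S18P4_trace_pi (x : ∀ m, L m) :
    Algebra.trace k (∀ m, L m) x = ∑ m, Algebra.trace k (L m) (x m) := by
  classical
  let s : ∀ m, Basis (Fin (finrank k (L m))) k (L m) := fun m => Module.finBasis k (L m)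
  rw [Algebra.trace_eq_matrix_trace (Pi.basis s), Matrix.trace, Fintype.sum_sigma]
  refine Finset.sum_congr rfl fun m _ => ?_
  rw [Algebra.trace_eq_matrix_trace (s m), Matrix.trace]
  refine Finset.sum_congr rfl fun i _ => ?_
  rw [Matrix.diag_apply, Matrix.diag_apply, Algebra.leftMulMatrix_eq_repr_mul,
    Algebra.leftMulMatrix_eq_repr_mul, Pi.basis_repr, Pi.basis_apply]
  simp

end PiTrace

section Field

variable {k B' : Type*} [Field k] [CommRing B'] [Algebra k B'] [Module.Finite k B']
  [IsReduced B']

/-- The trace form of a finite-dimensional reduced commutative algebra over a field, all of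
whose residue fields are separable, is nondegenerate (elementwise form). -/
theorem S18P4_eq_zero_of_trace_mul_eq_zero
    (hsep : ∀ m : MaximalSpectrum B', Algebra.IsSeparable k (B' ⧸ m.asIdeal))
    (x : B') (hx : ∀ y, Algebra.trace k B' (x * y) = 0) : x = 0 := by
  classical
  haveI : IsArtinianRing B' := IsArtinianRing.of_finite k B'
  haveI : Fintype (MaximalSpectrum B') := Fintype.ofFinite _
  let e : B' ≃ₐ[k] (∀ m : MaximalSpectrum B', B' ⧸ m.asIdeal) :=
    (IsArtinianRing.equivPi B').restrictScalars k
  have he : ∀ (z : B') (m : MaximalSpectrum B'), e z m = Ideal.Quotient.mk m.asIdeal z :=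
    fun z m => rfl
  apply e.injective
  rw [map_zero]
  funext m
  haveI := hsep m
  letI : Field (B' ⧸ m.asIdeal) := Ideal.Quotient.field m.asIdeal
  have hnd := (traceForm_nondegenerate k (B' ⧸ m.asIdeal)).1
  refine hnd (e x m) fun ym => ?_
  have h1 := hx (e.symm (Pi.single m ym))
  rw [← Algebra.trace_eq_of_algEquiv e, map_mul, e.apply_symm_apply, S18P4_trace_pi] at h1
  rw [Algebra.traceForm_apply]
  rw [Finset.sum_eq_single m] at h1
  · simpa using h1
  · intro m' _ hm'
    simp [Pi.single_eq_of_ne hm']
  · intro h; exact absurd (Finset.mem_univ m) h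

variable {ι : Type*} [Fintype ι] [DecidableEq ι]

theorem S18P4_discr_ne_zero_of_isReduced
    (hsep : ∀ m : MaximalSpectrum B', Algebra.IsSeparable k (B' ⧸ m.asIdeal))
    (b : Basis ι k B') : Algebra.discr k b ≠ 0 := by
  intro h0
  rw [Algebra.discr_def] at h0
  obtain ⟨v, hv, hMv⟩ := Matrix.exists_mulVec_eq_zero_iff.mpr h0
  set x : B' := b.equivFun.symm v with hxdef
  have hxv : b.equivFun x = v := by rw [hxdef, LinearEquiv.apply_symm_apply]
  have hx0 : x = 0 := by
    refine S18P4_eq_zero_of_trace_mul_eq_zero hsep x fun y => ?_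
    have h2 := Algebra.traceMatrix_of_basis_mulVec (A := k) b x
    rw [hxv, hMv] at h2
    rw [← b.sum_repr y, Finset.mul_sum, map_sum]
    refine Finset.sum_eq_zero fun i _ => ?_
    rw [mul_smul_comm, map_smul, ← congrFun h2 i, Pi.zero_apply, smul_zero]
  apply hv
  rw [← hxv, hx0, map_zero]

/-- Perfect ground field (in particular characteristic zero): reduced implies nonzero
discriminant. -/
theorem S18P4_discr_ne_zero_of_isReduced_of_perfectField [PerfectField k]
    (b : Basis ι k B') : Algebra.discr k b ≠ 0 :=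
  S18P4_discr_ne_zero_of_isReduced
    (fun m => by
      letI : Field (B' ⧸ m.asIdeal) := Ideal.Quotient.field m.asIdeal
      exact Algebra.IsAlgebraic.isSeparable_of_perfectField) b

end Field

section TraceInj

variable {R B₁ B₂ ι : Type*} [CommRing R] [IsDomain R] [CommRing B₁] [CommRing B₂]
  [Algebra R B₁] [Algebra R B₂] [Fintype ι] [DecidableEq ι]

/-- An injective algebra homomorphism between free algebras of the same finite rank over a
domain preserves traces. -/
theorem S18P4_trace_of_injective (b₁ : Basis ι R B₁) (b₂ : Basis ι R B₂) (φ : B₁ →ₐ[R] B₂)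
    (hφ : Function.Injective φ) (x : B₁) :
    Algebra.trace R B₂ (φ x) = Algebra.trace R B₁ x := by
  set M : Matrix ι ι R := LinearMap.toMatrix b₁ b₂ φ.toLinearMap with hM
  set L₁ : Matrix ι ι R := Algebra.leftMulMatrix b₁ x with hL₁
  set L₂ : Matrix ι ι R := Algebra.leftMulMatrix b₂ (φ x) with hL₂
  have hcomm : M * L₁ = L₂ * M := by
    rw [hM, hL₁, hL₂, Algebra.leftMulMatrix_apply, Algebra.leftMulMatrix_apply,
      ← LinearMap.toMatrix_comp, ← LinearMap.toMatrix_comp]
    congr 1
    ext y
    simp
  have hdet : M.det ≠ 0 := by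
    intro h0
    obtain ⟨v, hv, hMv⟩ := Matrix.exists_mulVec_eq_zero_iff.mpr h0
    apply hv
    have h1 : φ (b₁.equivFun.symm v) = 0 := by
      have h2 := LinearMap.toMatrix_mulVec_repr b₁ b₂ φ.toLinearMap (b₁.equivFun.symm v)
      have h3 : (b₁.repr (b₁.equivFun.symm v) : ι → R) = v :=
        b₁.equivFun.apply_symm_apply v
      rw [h3, ← hM, hMv] at h2
      have h4 : b₂.repr (φ (b₁.equivFun.symm v)) = 0 := by
        ext i
        exact (congrFun h2 i).symm
      exact (LinearEquiv.map_eq_zero_iff _).mp h4
    have h5 : b₁.equivFun.symm v = 0 := hφ (by rw [h1, map_zero])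
    exact (LinearEquiv.map_eq_zero_iff _).mp h5
  rw [Algebra.trace_eq_matrix_trace b₂, Algebra.trace_eq_matrix_trace b₁, ← hL₁, ← hL₂]
  have key : L₂.trace * M.det = L₁.trace * M.det := by
    calc L₂.trace * M.det = (L₂ * (M * M.adjugate)).trace := by
          rw [Matrix.mul_adjugate, Matrix.mul_smul, Matrix.mul_one, Matrix.trace_smul,
            smul_eq_mul, mul_comm]
      _ = ((M * L₁) * M.adjugate).trace := by rw [hcomm, Matrix.mul_assoc]
      _ = (M.adjugate * (M * L₁)).trace := Matrix.trace_mul_comm _ _
      _ = L₁.trace * M.det := by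
          rw [← Matrix.mul_assoc, Matrix.adjugate_mul, Matrix.smul_mul, Matrix.one_mul,
            Matrix.trace_smul, smul_eq_mul, mul_comm]
  exact mul_right_cancel₀ hdet key

end TraceInj

section Sep

variable {κ B' : Type*} [Field κ] [CommRing B'] [Algebra κ B']

theorem S18P4_isReduced_of_adjoin_separable (W : B') (hW : Algebra.adjoin κ {W} = ⊤)
    (Q : κ[X]) (hQ : Q.Separable) (hQW : aeval W Q = 0) : IsReduced B' := by
  refine ⟨fun x hx => ?_⟩
  have hx' : x ∈ Algebra.adjoin κ {W} := by rw [hW]; exact Algebra.mem_top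
  rw [Algebra.adjoin_singleton_eq_range_aeval] at hx'
  obtain ⟨g, rfl⟩ := hx'
  obtain ⟨n, hn⟩ := hx
  have hμQ : minpoly κ W ∣ Q := minpoly.dvd κ W hQW
  have hμsep : (minpoly κ W).Separable := hQ.of_dvd hμQ
  have hdvd : minpoly κ W ∣ g ^ n := minpoly.dvd κ W (by rw [map_pow]; exact hn)
  have hdvd' : minpoly κ W ∣ g := hμsep.squarefree.isRadical n g hdvd
  obtain ⟨c, hc⟩ := hdvd'
  show aeval W g = 0
  rw [hc, map_mul, minpoly.aeval, zero_mul]

theorem S18P4_isSeparable_quotient_of_adjoin_separable (W : B') (hW : Algebra.adjoin κ {W} = ⊤)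
    (Q : κ[X]) (hQ : Q.Separable) (hQW : aeval W Q = 0) (m : MaximalSpectrum B') :
    Algebra.IsSeparable κ (B' ⧸ m.asIdeal) := by
  letI : Field (B' ⧸ m.asIdeal) := Ideal.Quotient.field m.asIdeal
  set α : B' ⧸ m.asIdeal := Ideal.Quotient.mk m.asIdeal W with hα
  have hαQ : aeval α Q = 0 := by
    have : aeval α Q = Ideal.Quotient.mk m.asIdeal (aeval W Q) := by
      rw [hα]
      exact (Polynomial.aeval_algHom_apply (Ideal.Quotient.mkₐ κ m.asIdeal) W Q)
    rw [this, hQW, map_zero]
  have hαsep : IsSeparable κ α := hQ.of_dvd (minpoly.dvd κ α hαQ)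
  have hαmem : α ∈ separableClosure κ (B' ⧸ m.asIdeal) := mem_separableClosure_iff.mpr hαsep
  refine ⟨fun y => ?_⟩
  obtain ⟨x, rfl⟩ := Ideal.Quotient.mk_surjective y
  have hx' : x ∈ Algebra.adjoin κ {W} := by rw [hW]; exact Algebra.mem_top
  rw [Algebra.adjoin_singleton_eq_range_aeval] at hx'
  obtain ⟨g, rfl⟩ := hx'
  have h1 : Ideal.Quotient.mk m.asIdeal (aeval W g) = aeval α g :=
    (Polynomial.aeval_algHom_apply (Ideal.Quotient.mkₐ κ m.asIdeal) W g).symm
  change IsSeparable κ (Ideal.Quotient.mk m.asIdeal (aeval W g))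
  rw [h1]
  have h2 : aeval α g ∈ (separableClosure κ (B' ⧸ m.asIdeal)).toSubalgebra := by
    have h3 : aeval α g ∈ Algebra.adjoin κ {α} := Polynomial.aeval_mem_adjoin_singleton κ α
    refine Algebra.adjoin_le ?_ h3
    rintro z (rfl : z = α)
    exact hαmem
  exact mem_separableClosure_iff.mp h2

end Sep

section Bridge

variable {R B κ ι : Type*} [CommRing R] [IsDomain R] [CommRing B] [Algebra R B] [Field κ]
  [Fintype ι] [DecidableEq ι]

/-- The discriminant of the power basis of `R[X]/(P)` does not vanish under `f : R → κ` when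
`P` is separable over `κ`. -/
theorem S18P4_map_discr_adjoinRoot_ne_zero (f : R →+* κ) (P : R[X]) (hP : P.Monic)
    (hsep : (P.map f).Separable) :
    f (Algebra.discr R (AdjoinRoot.powerBasisAux' hP)) ≠ 0 := by
  have hPm : (P.map f).Monic := hP.map f
  have hdeg : (P.map f).natDegree = P.natDegree := hP.natDegree_map f
  set b₁ := AdjoinRoot.powerBasisAux' hP with hb₁
  set b₂ : Basis (Fin P.natDegree) κ (AdjoinRoot (P.map f)) :=
    (AdjoinRoot.powerBasisAux' hPm).reindex (finCongr hdeg) with hb₂
  have hb₁pow : ∀ i, b₁ i = AdjoinRoot.root P ^ (i : ℕ) := fun i =>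
    (AdjoinRoot.powerBasis' hP).basis_eq_pow i
  have hb₂pow : ∀ i, b₂ i = AdjoinRoot.root (P.map f) ^ (i : ℕ) := fun i => by
    rw [hb₂, Basis.reindex_apply]
    exact (AdjoinRoot.powerBasis' hPm).basis_eq_pow _
  set φ : AdjoinRoot P →+* AdjoinRoot (P.map f) := AdjoinRoot.map f P (P.map f) dvd_rfl with hφ
  have hφsmul : ∀ (r : R) (x : AdjoinRoot P), φ (r • x) = f r • φ x := by
    intro r x
    rw [Algebra.smul_def, Algebra.smul_def, map_mul, AdjoinRoot.algebraMap_eq,
      AdjoinRoot.algebraMap_eq, hφ, AdjoinRoot.map_of]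
  have hφb : ∀ i, φ (b₁ i) = b₂ i := by
    intro i
    rw [hb₁pow, hb₂pow, map_pow, hφ, AdjoinRoot.map_root]
  rw [← S18P4_discr_map f φ hφsmul b₁ b₂ hφb]
  haveI : Module.Finite κ (AdjoinRoot (P.map f)) := Module.Finite.of_basis b₂
  have hroot : aeval (AdjoinRoot.root (P.map f)) (P.map f) = 0 := by
    rw [AdjoinRoot.aeval_eq, AdjoinRoot.mk_self]
  haveI : IsReduced (AdjoinRoot (P.map f)) :=
    S18P4_isReduced_of_adjoin_separable (AdjoinRoot.root (P.map f))
      AdjoinRoot.adjoinRoot_eq_top (P.map f) hsep hroot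
  exact S18P4_discr_ne_zero_of_isReduced
    (fun m => S18P4_isSeparable_quotient_of_adjoin_separable (AdjoinRoot.root (P.map f))
      AdjoinRoot.adjoinRoot_eq_top (P.map f) hsep hroot m) b₂

/-- **Generic etaleness implies that the discriminant does not vanish at the prime**
(route B4).  No localisation is needed: `V` only has to generate a full-rank subalgebra. -/
theorem S18P4_map_discr_ne_zero_of_separable (b : Basis ι R B) (f : R →+* κ) (V : B) (P : R[X])
    (hP : P.Monic) (hdeg : P.natDegree = Fintype.card ι) (hV : aeval V P = 0)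
    (hli : LinearIndependent R (fun i : Fin P.natDegree => V ^ (i : ℕ)))
    (hsep : (P.map f).Separable) : f (Algebra.discr R b) ≠ 0 := by
  set b₁ := AdjoinRoot.powerBasisAux' hP with hb₁
  have hb₁pow : ∀ i, b₁ i = AdjoinRoot.root P ^ (i : ℕ) := fun i =>
    (AdjoinRoot.powerBasis' hP).basis_eq_pow i
  set e : ι ≃ Fin P.natDegree := Fintype.equivFinOfCardEq hdeg.symm with he
  set b₀ : Basis (Fin P.natDegree) R B := b.reindex e with hb₀
  have hb₀discr : Algebra.discr R b₀ = Algebra.discr R b := by
    rw [hb₀]
    have := Algebra.discr_reindex (A := R) b e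
    rwa [← Basis.coe_reindex] at this
  set φ : AdjoinRoot P →ₐ[R] B := AdjoinRoot.liftAlgHom P (Algebra.ofId R B) V (by
    rw [← hV]; rfl) with hφ
  have hφroot : φ (AdjoinRoot.root P) = V := AdjoinRoot.liftAlgHom_root _ _ _ _
  have hφb : ∀ i, φ (b₁ i) = V ^ (i : ℕ) := fun i => by rw [hb₁pow, map_pow, hφroot]
  have hφinj : Function.Injective φ := by
    rw [injective_iff_map_eq_zero]
    intro x hx
    rw [← b₁.sum_repr x, map_sum] at hx
    simp only [map_smul, hφb] at hx
    have h0 := (Fintype.linearIndependent_iff.mp hli) (fun i => b₁.repr x i) hx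
    rw [← b₁.sum_repr x]
    exact Finset.sum_eq_zero fun i _ => by rw [h0 i, zero_smul]
  have htr : ∀ x, Algebra.trace R B (φ x) = Algebra.trace R (AdjoinRoot P) x :=
    S18P4_trace_of_injective b₁ b₀ φ hφinj
  have hdiscr : Algebra.discr R (fun i : Fin P.natDegree => V ^ (i : ℕ)) = Algebra.discr R b₁ := by
    rw [Algebra.discr_def, Algebra.discr_def]
    congr 1
    ext i j
    rw [Algebra.traceMatrix_apply, Algebra.traceMatrix_apply, Algebra.traceForm_apply,
      Algebra.traceForm_apply, ← hφb i, ← hφb j, ← map_mul, htr]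
  have hfam := S18P4_discr_family_eq b₀ (fun i : Fin P.natDegree => V ^ (i : ℕ))
  rw [hdiscr, hb₀discr] at hfam
  have h1 := S18P4_map_discr_adjoinRoot_ne_zero f P hP hsep
  rw [← hb₁, hfam, map_mul] at h1
  exact right_ne_zero_of_mul h1

theorem S18P4_not_dvd_discr_of_separable (b : Basis ι R B) (f : R →+* κ) (V : B) (P : R[X])
    (hP : P.Monic) (hdeg : P.natDegree = Fintype.card ι) (hV : aeval V P = 0)
    (hli : LinearIndependent R (fun i : Fin P.natDegree => V ^ (i : ℕ)))
    (hsep : (P.map f).Separable) {p : R} (hp : f p = 0) : ¬ p ∣ Algebra.discr R b := by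
  intro h
  obtain ⟨c, hc⟩ := h
  apply S18P4_map_discr_ne_zero_of_separable b f V P hP hdeg hV hli hsep
  rw [hc, map_mul, hp, zero_mul]

end Bridge

end Fermat.Agent.S18_helper24_DISC
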