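import Mathlib

/-!
# S18, abstract piece P3 [TF]: torsion-freeness of `B / π B`

`R` an integrally closed domain (e.g. a UFD) with fraction field `K`, `E` any commutative
`K`-algebra, `π` a prime element of `R`, `g : R` not divisible by `π`.  If `x, b : E` are integral
over `R` and `g x = π b`, then `x = π y` with `y` integral over `R`.

Proof: `y := π⁻¹ x = g⁻¹ b`.  Let `q` be the minimal polynomial of `y` over `K`, of degree `n`.
The minimal polynomial of `x = π y` is `scaleRoots q π` and that of `b = g y` is `scaleRoots q g`;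
both have coefficients in `R` (Gauss), i.e. `c_i π^(n-i) ∈ R` and `c_i g^(n-i) ∈ R` for every
coefficient `c_i` of `q`.  As `π` is prime and does not divide `g`, `c_i ∈ R`.
-/

set_option autoImplicit false

open Polynomial

namespace Fermat.Agent.S18_helper25_P3

section Core

variable {R E : Type*} [CommRing R] [IsDomain R] [IsIntegrallyClosed R]
  [CommRing E] [Algebra R E]

section
variable {K : Type*} [Field K] [Algebra R K] [IsFractionRing R K]
  [Algebra K E] [IsScalarTower R K E]

/-- the minimal polynomial over `K` of `a • y` (`a ≠ 0`) is the root-scaling of that of `y` -/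
theorem S18P3_minpoly_mul (a : K) (ha : a ≠ 0) (y : E) (hy : IsIntegral K y) :
    minpoly K (algebraMap K E a * y) = (minpoly K y).scaleRoots a := by
  have hay : IsIntegral K (algebraMap K E a * y) := isIntegral_algebraMap.mul hy
  have hmon : ((minpoly K y).scaleRoots a).Monic :=
    (monic_scaleRoots_iff a).mpr (minpoly.monic hy)
  have h1 : minpoly K (algebraMap K E a * y) ∣ (minpoly K y).scaleRoots a :=
    minpoly.dvd _ _ (scaleRoots_aeval_eq_zero (minpoly.aeval K y))
  have h2 : minpoly K y ∣ (minpoly K (algebraMap K E a * y)).scaleRoots a⁻¹ := by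
    refine minpoly.dvd _ _ ?_
    have h := scaleRoots_aeval_eq_zero (r := a⁻¹) (minpoly.aeval K (algebraMap K E a * y))
    rwa [← mul_assoc, ← map_mul, inv_mul_cancel₀ ha, map_one, one_mul] at h
  have hmon2 : ((minpoly K (algebraMap K E a * y)).scaleRoots a⁻¹).Monic :=
    (monic_scaleRoots_iff a⁻¹).mpr (minpoly.monic hay)
  have hd1 : (minpoly K (algebraMap K E a * y)).natDegree ≤ (minpoly K y).natDegree := by
    have := natDegree_le_of_dvd h1 hmon.ne_zero
    rwa [natDegree_scaleRoots] at this
  have hd2 : (minpoly K y).natDegree ≤ (minpoly K (algebraMap K E a * y)).natDegree := by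
    have := natDegree_le_of_dvd h2 hmon2.ne_zero
    rwa [natDegree_scaleRoots] at this
  refine (eq_of_monic_of_dvd_of_natDegree_le (minpoly.monic hay) hmon h1 ?_).symm
  rw [natDegree_scaleRoots]
  exact hd2

omit [IsDomain R] in
/-- coefficients of the minimal polynomial over `K` of an `R`-integral element lie in `R` -/
theorem S18P3_coeff_minpoly_mem (x : E) (hx : IsIntegral R x) (i : ℕ) :
    ∃ r : R, algebraMap R K r = (minpoly K x).coeff i := by
  obtain ⟨P, hP, hPx⟩ := hx
  have hxK : IsIntegral K x := ⟨P.map (algebraMap R K), hP.map _, by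
    rw [eval₂_map, ← IsScalarTower.algebraMap_eq]; exact hPx⟩
  have hdvd : minpoly K x ∣ P.map (algebraMap R K) := by
    refine minpoly.dvd _ _ ?_
    rw [aeval_def, eval₂_map, ← IsScalarTower.algebraMap_eq]; exact hPx
  have hint := isIntegral_coeff_of_dvd P (minpoly K x) hP (minpoly.monic hxK) hdvd i
  exact IsIntegrallyClosed.isIntegral_iff.mp hint

end

/-- **P3, core.**  `π` prime, `π ∤ g`, `x`, `b` integral over `R`, `g x = π b` ⟹ `x = π y` with
`y` integral over `R`. -/
theorem S18P3_exists_eq_mul (K : Type*) [Field K] [Algebra R K] [IsFractionRing R K]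
    [Algebra K E] [IsScalarTower R K E] (p g : R) (hp : Prime p) (hg : ¬ p ∣ g) (x b : E)
    (hx : IsIntegral R x) (hb : IsIntegral R b)
    (h : algebraMap R E g * x = algebraMap R E p * b) :
    ∃ y : E, IsIntegral R y ∧ x = algebraMap R E p * y := by
  have hinj : Function.Injective (algebraMap R K) := IsFractionRing.injective R K
  have hp0 : p ≠ 0 := hp.ne_zero
  have hg0 : g ≠ 0 := fun h0 => hg (h0 ▸ dvd_zero p)
  have hpK : algebraMap R K p ≠ 0 := fun h0 => hp0 (hinj (by rw [h0, map_zero]))
  have hgK : algebraMap R K g ≠ 0 := fun h0 => hg0 (hinj (by rw [h0, map_zero]))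
  set y : E := algebraMap K E (algebraMap R K p)⁻¹ * x with hy
  have hxy : x = algebraMap R E p * y := by
    rw [hy, ← mul_assoc, IsScalarTower.algebraMap_apply R K E, ← map_mul, mul_inv_cancel₀ hpK,
      map_one, one_mul]
  have hby : b = algebraMap R E g * y := by
    have h1 : algebraMap R E p * b = algebraMap R E p * (algebraMap R E g * y) := by
      rw [← h, hxy]; ring
    have hunit : IsUnit (algebraMap R E p) := by
      rw [IsScalarTower.algebraMap_apply R K E]
      exact (IsUnit.mk0 _ hpK).map (algebraMap K E)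
    exact hunit.mul_left_cancel h1
  have hxK : IsIntegral K x := hx.tower_top
  have hyK : IsIntegral K y := isIntegral_algebraMap.mul hxK
  -- the two scaled minimal polynomials
  have hmx : minpoly K x = (minpoly K y).scaleRoots (algebraMap R K p) := by
    rw [← S18P3_minpoly_mul _ hpK y hyK, ← IsScalarTower.algebraMap_apply R K E, ← hxy]
  have hmb : minpoly K b = (minpoly K y).scaleRoots (algebraMap R K g) := by
    rw [← S18P3_minpoly_mul _ hgK y hyK, ← IsScalarTower.algebraMap_apply R K E, ← hby]
  -- every coefficient of `minpoly K y` lies in `R`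
  have hcoeff : ∀ i, ∃ r : R, algebraMap R K r = (minpoly K y).coeff i := by
    intro i
    obtain ⟨r, hr⟩ := S18P3_coeff_minpoly_mem (R := R) (K := K) x hx i
    obtain ⟨s, hs⟩ := S18P3_coeff_minpoly_mem (R := R) (K := K) b hb i
    rw [hmx, coeff_scaleRoots] at hr
    rw [hmb, coeff_scaleRoots] at hs
    set k := (minpoly K y).natDegree - i with hk
    set c := (minpoly K y).coeff i with hc
    -- `r g^k = s p^k`
    have hrs : r * g ^ k = s * p ^ k := by
      apply hinj
      rw [map_mul, map_mul, map_pow, map_pow, hr, hs]; ring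
    have hdvd : p ^ k ∣ r := by
      have h1 : p ^ k ∣ r * g ^ k := ⟨s, by rw [hrs]; ring⟩
      exact hp.pow_dvd_of_dvd_mul_right k (fun hh => hg (hp.dvd_of_dvd_pow hh)) h1
    obtain ⟨r', hr'⟩ := hdvd
    refine ⟨r', ?_⟩
    have hpk : algebraMap R K p ^ k ≠ 0 := pow_ne_zero _ hpK
    have : algebraMap R K r' * algebraMap R K p ^ k = c * algebraMap R K p ^ k := by
      rw [← hr, hr', map_mul, map_pow]; ring
    exact mul_right_cancel₀ hpk this
  -- assemble a monic polynomial over `R`
  choose r hr using hcoeff
  let Q : R[X] := ∑ i ∈ Finset.range ((minpoly K y).natDegree + 1), C (r i) * X ^ i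
  have hQmap : Q.map (algebraMap R K) = minpoly K y := by
    ext i
    simp only [Q, Polynomial.map_sum, Polynomial.map_mul, map_C, Polynomial.map_pow, map_X,
      finsetSum_coeff, coeff_C_mul, coeff_X_pow]
    rw [Finset.sum_eq_single i]
    · simp [hr]
    · intro j _ hji
      simp [Ne.symm hji]
    · intro hi
      simp only [Finset.mem_range, not_lt] at hi
      simp only [if_true, mul_one, hr]
      exact coeff_eq_zero_of_natDegree_lt (by omega)
  have hQmonic : Q.Monic := by
    have hmon := minpoly.monic hyK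
    rw [← hQmap] at hmon
    exact monic_of_injective hinj hmon
  refine ⟨y, ⟨Q, hQmonic, ?_⟩, hxy⟩
  have := minpoly.aeval K y
  rw [← hQmap, aeval_def, eval₂_map, ← IsScalarTower.algebraMap_eq] at this
  exact this

end Core

/-! ### Corollaries for an integral closure `B` of `R` in `E` -/

section Closure

variable {R : Type*} [CommRing R] [IsDomain R] [IsIntegrallyClosed R]
  {B : Type*} [CommRing B] [Algebra R B]

/-- **P3, element form.** `B` the integral closure of `R` in `E`: `g x = π b` in `B`, `π` prime,
`π ∤ g` ⟹ `x = π y` with `y ∈ B`. -/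
theorem S18P3_exists_eq_mul_closure (K : Type*) [Field K] [Algebra R K] [IsFractionRing R K]
    (E : Type*) [CommRing E] [Algebra R E] [Algebra K E] [IsScalarTower R K E]
    [Algebra B E] [IsScalarTower R B E] [IsIntegralClosure B R E]
    (p g : R) (hp : Prime p) (hg : ¬ p ∣ g) (x b : B)
    (h : algebraMap R B g * x = algebraMap R B p * b) :
    ∃ y : B, x = algebraMap R B p * y := by
  have hxi : IsIntegral R (algebraMap B E x) :=
    (IsIntegralClosure.isIntegral_iff (A := B)).mpr ⟨x, rfl⟩
  have hbi : IsIntegral R (algebraMap B E b) :=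
    (IsIntegralClosure.isIntegral_iff (A := B)).mpr ⟨b, rfl⟩
  have hE : algebraMap R E g * algebraMap B E x = algebraMap R E p * algebraMap B E b := by
    have := congrArg (algebraMap B E) h
    rwa [map_mul, map_mul, ← IsScalarTower.algebraMap_apply, ← IsScalarTower.algebraMap_apply]
      at this
  obtain ⟨y, hy, hxy⟩ := S18P3_exists_eq_mul K p g hp hg _ _ hxi hbi hE
  obtain ⟨y', rfl⟩ := (IsIntegralClosure.isIntegral_iff (A := B)).mp hy
  refine ⟨y', IsIntegralClosure.algebraMap_injective B R E ?_⟩
  rw [hxy, map_mul, ← IsScalarTower.algebraMap_apply]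

/-- **P3, ideal form.** `g x ∈ π B` ⟹ `x ∈ π B`. -/
theorem S18P3_mem_span (K : Type*) [Field K] [Algebra R K] [IsFractionRing R K]
    (E : Type*) [CommRing E] [Algebra R E] [Algebra K E] [IsScalarTower R K E]
    [Algebra B E] [IsScalarTower R B E] [IsIntegralClosure B R E]
    (p g : R) (hp : Prime p) (hg : ¬ p ∣ g) (x : B)
    (h : algebraMap R B g * x ∈ Ideal.span {algebraMap R B p}) :
    x ∈ Ideal.span {algebraMap R B p} := by
  rw [Ideal.mem_span_singleton'] at h ⊢
  obtain ⟨b, hb⟩ := h
  obtain ⟨y, hy⟩ := S18P3_exists_eq_mul_closure K E p g hp hg x b (by rw [← hb]; ring)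
  exact ⟨y, by rw [hy]; ring⟩

/-- **P3, ideal form with `Ideal.map`.** -/
theorem S18P3_mem_map (K : Type*) [Field K] [Algebra R K] [IsFractionRing R K]
    (E : Type*) [CommRing E] [Algebra R E] [Algebra K E] [IsScalarTower R K E]
    [Algebra B E] [IsScalarTower R B E] [IsIntegralClosure B R E]
    (p g : R) (hp : Prime p) (hg : ¬ p ∣ g) (x : B)
    (h : algebraMap R B g * x ∈ (Ideal.span {p}).map (algebraMap R B)) :
    x ∈ (Ideal.span {p}).map (algebraMap R B) := by
  rw [Ideal.map_span, Set.image_singleton] at h ⊢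
  exact S18P3_mem_span K E p g hp hg x h

/-- **P3, module form.** `B / π B` is a torsion-free `R / π`-module. -/
theorem S18P3_isTorsionFree (K : Type*) [Field K] [Algebra R K] [IsFractionRing R K]
    (E : Type*) [CommRing E] [Algebra R E] [Algebra K E] [IsScalarTower R K E]
    [Algebra B E] [IsScalarTower R B E] [IsIntegralClosure B R E]
    (p : R) (hp : Prime p) :
    Module.IsTorsionFree (R ⧸ Ideal.span {p})
      (B ⧸ (Ideal.span {p}).map (algebraMap R B)) := by
  have : (Ideal.span {p}).IsPrime := (Ideal.span_singleton_prime hp.ne_zero).mpr hp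
  refine Module.IsTorsionFree.of_smul_eq_zero fun r m hrm => ?_
  obtain ⟨g, rfl⟩ := Ideal.Quotient.mk_surjective r
  obtain ⟨x, rfl⟩ := Ideal.Quotient.mk_surjective m
  by_cases hg : p ∣ g
  · left
    exact Ideal.Quotient.eq_zero_iff_mem.mpr (Ideal.mem_span_singleton.mpr hg)
  · right
    rw [Ideal.Quotient.mk_smul_mk_quotient_map_quotient, Ideal.Quotient.eq_zero_iff_mem] at hrm
    exact Ideal.Quotient.eq_zero_iff_mem.mpr (S18P3_mem_map K E p g hp hg x hrm)

/-- **P3, freeness.** If moreover `R / π` is a PID and `B` is a finite `R`-module, then `B / π B`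
is a free `R / π`-module. -/
theorem S18P3_free (K : Type*) [Field K] [Algebra R K] [IsFractionRing R K]
    (E : Type*) [CommRing E] [Algebra R E] [Algebra K E] [IsScalarTower R K E]
    [Algebra B E] [IsScalarTower R B E] [IsIntegralClosure B R E]
    (p : R) (hp : Prime p) [IsPrincipalIdealRing (R ⧸ Ideal.span {p})]
    [Module.Finite R B] :
    Module.Free (R ⧸ Ideal.span {p}) (B ⧸ (Ideal.span {p}).map (algebraMap R B)) := by
  have : (Ideal.span {p}).IsPrime := (Ideal.span_singleton_prime hp.ne_zero).mpr hp
  have := S18P3_isTorsionFree K E (B := B) p hp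
  have : Module.Finite R (B ⧸ (Ideal.span {p}).map (algebraMap R B)) :=
    Module.Finite.of_surjective (Ideal.Quotient.mkₐ R _).toLinearMap
      (Ideal.Quotient.mkₐ_surjective R _)
  have : Module.Finite (R ⧸ Ideal.span {p}) (B ⧸ (Ideal.span {p}).map (algebraMap R B)) :=
    Module.Finite.of_restrictScalars_finite R _ _
  exact Module.free_of_finite_type_torsion_free'

/-- **P3, localisation form.** Let `Bₚ` be the localisation of `B` at the image of `R ∖ (π)`.
Then `B ∩ π Bₚ = π B`. -/
theorem S18P3_mem_span_of_localization (K : Type*) [Field K] [Algebra R K] [IsFractionRing R K]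
    (E : Type*) [CommRing E] [Algebra R E] [Algebra K E] [IsScalarTower R K E]
    [Algebra B E] [IsScalarTower R B E] [IsIntegralClosure B R E]
    (p : R) (hp0 : p ≠ 0) [hpI : (Ideal.span {p}).IsPrime]
    (Bp : Type*) [CommRing Bp] [Algebra B Bp]
    [IsLocalization (Algebra.algebraMapSubmonoid B (Ideal.span {p}).primeCompl) Bp]
    (x : B)
    (h : algebraMap B Bp x ∈ Ideal.span {algebraMap B Bp (algebraMap R B p)}) :
    x ∈ Ideal.span {algebraMap R B p} := by
  have hp : Prime p := (Ideal.span_singleton_prime hp0).mp hpI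
  set M := Algebra.algebraMapSubmonoid B (Ideal.span {p}).primeCompl with hM
  rw [Ideal.mem_span_singleton'] at h
  obtain ⟨z, hz⟩ := h
  obtain ⟨⟨b, s⟩, hbs⟩ := IsLocalization.mk'_surjective M z
  -- `s x = π b` in `Bp`
  have h1 : algebraMap B Bp (s * x) = algebraMap B Bp (algebraMap R B p * b) := by
    rw [map_mul, map_mul, ← hz, ← hbs]
    have := IsLocalization.mk'_spec Bp b s
    calc algebraMap B Bp s * (IsLocalization.mk' Bp b s * algebraMap B Bp (algebraMap R B p))
        = (IsLocalization.mk' Bp b s * algebraMap B Bp s) * algebraMap B Bp (algebraMap R B p) := by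
          ring
      _ = algebraMap B Bp (algebraMap R B p) * algebraMap B Bp b := by rw [this]; ring
  obtain ⟨t, ht⟩ := (IsLocalization.eq_iff_exists M Bp).mp h1
  obtain ⟨s', hs', hs'eq⟩ := s.2
  obtain ⟨t', ht', ht'eq⟩ := t.2
  have hg : ¬ p ∣ t' * s' := by
    intro hdvd
    rcases hp.dvd_or_dvd hdvd with h' | h'
    · exact ht' (Ideal.mem_span_singleton.mpr h')
    · exact hs' (Ideal.mem_span_singleton.mpr h')
  refine S18P3_mem_span K E p (t' * s') hp hg x ?_
  rw [Ideal.mem_span_singleton']
  refine ⟨t * b, ?_⟩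
  rw [map_mul, ht'eq, hs'eq]
  calc (t : B) * b * algebraMap R B p = t * (algebraMap R B p * b) := by ring
    _ = t * (s * x) := ht.symm
    _ = t * s * x := by ring

/-- **P3, primality.** If `π Bₚ` is prime in the localisation `Bₚ` of `B` at `R ∖ (π)`, then `π B`
is prime in `B`. -/
theorem S18P3_isPrime_of_localization (K : Type*) [Field K] [Algebra R K] [IsFractionRing R K]
    (E : Type*) [CommRing E] [Algebra R E] [Algebra K E] [IsScalarTower R K E]
    [Algebra B E] [IsScalarTower R B E] [IsIntegralClosure B R E]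
    (p : R) (hp0 : p ≠ 0) [hpI : (Ideal.span {p}).IsPrime]
    (Bp : Type*) [CommRing Bp] [Algebra B Bp]
    [IsLocalization (Algebra.algebraMapSubmonoid B (Ideal.span {p}).primeCompl) Bp]
    (hprime : (Ideal.span {algebraMap B Bp (algebraMap R B p)}).IsPrime) :
    (Ideal.span {algebraMap R B p}).IsPrime := by
  have hcomap : (Ideal.span {algebraMap B Bp (algebraMap R B p)}).comap (algebraMap B Bp)
      = Ideal.span {algebraMap R B p} := by
    apply le_antisymm
    · intro x hx
      exact S18P3_mem_span_of_localization K E p hp0 Bp x (Ideal.mem_comap.mp hx)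
    · rw [Ideal.span_singleton_le_iff_mem, Ideal.mem_comap]
      exact Ideal.mem_span_singleton_self _
  rw [← hcomap]
  exact Ideal.comap_isPrime _ _

end Closure

end Fermat.Agent.S18_helper25_P3
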