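import Mathlib

/-!
# S18 / P5: local factoriality from a DVR quotient

A noetherian domain `R` with an element `π` of its Jacobson radical such that `(π)` is prime and
`R ⧸ (π)` is a principal ideal ring is a unique factorisation domain; every prime ideal not
containing `π` is principal.  (Used for `R = (A_s)_m`, where `R ⧸ π` is a discrete valuation
ring.)  Also: in a UFD an element all of whose prime multiplicities are divisible by `p` is a
unit times a `p`-th power.
-/

set_option autoImplicit false

namespace Fermat.Agent.S18_helper3_P5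

open Ideal

variable {R : Type*} [CommRing R]

/-- If `R ⧸ (π)` is a principal ideal ring, every ideal `P` of `R` is contained in
`(g) + (π)` for some `g ∈ P`. -/
theorem exists_mem_le_span_sup_span {π : R} [IsPrincipalIdealRing (R ⧸ Ideal.span {π})]
    (P : Ideal R) :
    ∃ g ∈ P, P ≤ Ideal.span {g} ⊔ Ideal.span {π} := by
  have hsurj : Function.Surjective (Ideal.Quotient.mk (Ideal.span {π})) :=
    Ideal.Quotient.mk_surjective
  obtain ⟨g', hg'⟩ := (IsPrincipalIdealRing.principal
    (P.map (Ideal.Quotient.mk (Ideal.span {π})))).principal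
  have hg'mem : g' ∈ P.map (Ideal.Quotient.mk (Ideal.span {π})) := by
    rw [hg']; exact Submodule.mem_span_singleton_self g'
  obtain ⟨g, hgP, rfl⟩ := (Ideal.mem_map_iff_of_surjective _ hsurj).1 hg'mem
  refine ⟨g, hgP, fun x hx => ?_⟩
  have hxmem : Ideal.Quotient.mk (Ideal.span {π}) x ∈
      P.map (Ideal.Quotient.mk (Ideal.span {π})) := Ideal.mem_map_of_mem _ hx
  rw [hg'] at hxmem
  obtain ⟨a', ha'⟩ := Submodule.mem_span_singleton.1 hxmem
  obtain ⟨a, rfl⟩ := hsurj a'
  have hsub : x - a * g ∈ Ideal.span {π} := by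
    rw [← Ideal.Quotient.eq]
    rw [map_mul]
    exact ha'.symm
  have hx' : x = a * g + (x - a * g) := by ring
  rw [hx']
  exact Ideal.add_mem _
    (Ideal.mem_sup_left (Ideal.mul_mem_left _ a (Ideal.mem_span_singleton_self g)))
    (Ideal.mem_sup_right hsub)

/-- **Principal primes.** Let `R` be a noetherian ring, `π` in the Jacobson radical, with
`R ⧸ (π)` a principal ideal ring.  Then every prime ideal of `R` not containing `π` is
principal. -/
theorem exists_eq_span_singleton_of_isPrime_of_notMem [IsNoetherianRing R] {π : R}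
    (hπ : π ∈ Ideal.jacobson (⊥ : Ideal R)) [IsPrincipalIdealRing (R ⧸ Ideal.span {π})]
    (P : Ideal R) [hP : P.IsPrime] (hπP : π ∉ P) :
    ∃ g, P = Ideal.span {g} := by
  obtain ⟨g, hgP, hle⟩ := exists_mem_le_span_sup_span (π := π) P
  refine ⟨g, le_antisymm ?_ ((Ideal.span_singleton_le_iff_mem P).2 hgP)⟩
  have hI : Ideal.span {π} ≤ Ideal.jacobson (⊥ : Ideal R) :=
    (Ideal.span_singleton_le_iff_mem _).2 hπ
  refine Submodule.le_of_le_smul_of_le_jacobson_bot (IsNoetherian.noetherian P) hI ?_
  intro x hx
  obtain ⟨y, hy, z, hz, rfl⟩ := Submodule.mem_sup.1 (hle hx)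
  obtain ⟨b, rfl⟩ := Ideal.mem_span_singleton'.1 hz
  have hyP : y ∈ P := (Ideal.span_singleton_le_iff_mem P).2 hgP hy
  have hbπ : b * π ∈ P := by
    have := P.sub_mem hx hyP
    simpa using this
  have hb : b ∈ P := (hP.mem_or_mem hbπ).resolve_right hπP
  refine Submodule.mem_sup.2 ⟨y, hy, b * π, ?_, rfl⟩
  rw [mul_comm]
  exact Submodule.smul_mem_smul (Ideal.mem_span_singleton_self π) hb

/-- **P5.** A noetherian domain `R` with `π ≠ 0` in the Jacobson radical, `(π)` prime and
`R ⧸ (π)` a principal ideal ring, is a unique factorisation domain. -/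
theorem uniqueFactorizationMonoid_of_quotient_isPrincipalIdealRing [IsDomain R]
    [IsNoetherianRing R] {π : R} (hπ : π ∈ Ideal.jacobson (⊥ : Ideal R)) (hπ0 : π ≠ 0)
    (hprime : (Ideal.span {π}).IsPrime) [IsPrincipalIdealRing (R ⧸ Ideal.span {π})] :
    UniqueFactorizationMonoid R := by
  refine UniqueFactorizationMonoid.iff_exists_prime_mem_of_isPrime.2 fun I hI hIprime => ?_
  by_cases hπI : π ∈ I
  · exact ⟨π, hπI, (Ideal.span_singleton_prime hπ0).1 hprime⟩
  · obtain ⟨g, rfl⟩ := exists_eq_span_singleton_of_isPrime_of_notMem hπ I hπI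
    have hg0 : g ≠ 0 := by
      rintro rfl
      exact hI (by simp)
    exact ⟨g, Ideal.mem_span_singleton_self g, (Ideal.span_singleton_prime hg0).1 hIprime⟩

/-- **P5, local form.** A noetherian local domain `R` with `π ≠ 0` in the maximal ideal such
that `R ⧸ (π)` is a domain and a principal ideal ring (e.g. a discrete valuation ring) is a
unique factorisation domain. -/
theorem uniqueFactorizationMonoid_of_isLocalRing [IsDomain R] [IsNoetherianRing R]
    [IsLocalRing R] {π : R} (hπ : π ∈ IsLocalRing.maximalIdeal R) (hπ0 : π ≠ 0)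
    [IsDomain (R ⧸ Ideal.span {π})] [IsPrincipalIdealRing (R ⧸ Ideal.span {π})] :
    UniqueFactorizationMonoid R := by
  refine uniqueFactorizationMonoid_of_quotient_isPrincipalIdealRing (π := π) ?_ hπ0 ?_
  · rw [IsLocalRing.jacobson_eq_maximalIdeal ⊥ bot_ne_top]
    exact hπ
  · exact (Ideal.Quotient.isDomain_iff_prime _).1 inferInstance

/-- In a unique factorisation domain, a nonzero element all of whose prime multiplicities are
divisible by `p` is a unit times a `p`-th power. -/
theorem exists_eq_unit_mul_pow_of_forall_dvd_multiplicity [IsDomain R]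
    [UniqueFactorizationMonoid R] (p : ℕ) {f : R} (hf : f ≠ 0)
    (h : ∀ q : R, Prime q → p ∣ multiplicity q f) :
    ∃ (u : Rˣ) (g : R), f = u * g ^ p := by
  revert hf h
  induction f using UniqueFactorizationMonoid.induction_on_coprime with
  | h0 => intro hf; exact absurd rfl hf
  | h1 hx =>
    intro _ _
    exact ⟨hx.unit, 1, by simp⟩
  | hpr i hq =>
    rename_i q
    intro _ h
    have hi := h q hq
    rw [multiplicity_pow_self_of_prime hq] at hi
    obtain ⟨j, rfl⟩ := hi
    exact ⟨1, q ^ j, by rw [Units.val_one, one_mul, ← pow_mul, mul_comm]⟩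
  | hcp hxy hx hy =>
    rename_i x y
    intro hf h
    have hx0 : x ≠ 0 := left_ne_zero_of_mul hf
    have hy0 : y ≠ 0 := right_ne_zero_of_mul hf
    have key : ∀ q : R, Prime q → p ∣ multiplicity q x ∧ p ∣ multiplicity q y := by
      intro q hq
      have hmul := multiplicity_mul hq (FiniteMultiplicity.of_prime_left hq hf)
      have hq' := h q hq
      rw [hmul] at hq'
      by_cases hqx : q ∣ x
      · have hqy : ¬ q ∣ y := fun hqy => hq.not_isUnit (hxy hqx hqy)
        have h0 : multiplicity q y = 0 := multiplicity_eq_zero.2 hqy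
        rw [h0, add_zero] at hq'
        exact ⟨hq', by rw [h0]; exact dvd_zero p⟩
      · have h0 : multiplicity q x = 0 := multiplicity_eq_zero.2 hqx
        rw [h0, zero_add] at hq'
        exact ⟨by rw [h0]; exact dvd_zero p, hq'⟩
    obtain ⟨u, g, rfl⟩ := hx hx0 fun q hq => (key q hq).1
    obtain ⟨u', g', rfl⟩ := hy hy0 fun q hq => (key q hq).2
    exact ⟨u * u', g * g', by rw [Units.val_mul, mul_pow]; ring⟩

end Fermat.Agent.S18_helper3_P5
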