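import Mathlib

/-!
# S18, abstract piece P1: unit discriminant ⇒ integrally closed, reduced

* `S18P1_isIntegral_trace` : in a finite free commutative algebra `E` over a field `K`
  (NOT assumed to be a field), the trace of an element integral over `R` is integral over `R`.
* `S18P1_mem_span_of_isIntegral` : `R` an integrally closed domain with fraction field `K`,
  `b` a `K`-basis of `E` consisting of integral elements whose discriminant is (the image of) a
  unit of `R`; then every element of `E` integral over `R` lies in the `R`-span of `b`.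
* `S18P1_isReduced` : an algebra `B`, free of finite rank over a reduced ring `R` with unit
  discriminant, is reduced.
-/

set_option autoImplicit false

namespace Fermat.Agent.S18_helper4_P1

open Polynomial Matrix

section Trace

variable {R K E ι : Type*} [CommRing R] [Field K] [Algebra R K] [CommRing E] [Algebra K E]
  [Algebra R E] [IsScalarTower R K E] [Fintype ι] [DecidableEq ι]

theorem S18P1_isIntegral_trace (b : Module.Basis ι K E) {x : E} (hx : IsIntegral R x) :
    IsIntegral R (Algebra.trace K E x) := by
  obtain ⟨p, hpm, hp⟩ := hx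
  set A : Matrix ι ι K := Algebra.leftMulMatrix b x with hA
  have htr : Algebra.trace K E x = A.trace := Algebra.trace_eq_matrix_trace b x
  let Kb := AlgebraicClosure K
  set A' : Matrix ι ι Kb := A.map (algebraMap K Kb) with hA'
  have h1 : algebraMap K Kb (Algebra.trace K E x) = A'.trace := by
    rw [htr, hA', Matrix.trace, Matrix.trace, map_sum]
    rfl
  rw [← isIntegral_algebraMap_iff (algebraMap K Kb).injective, h1,
    Matrix.trace_eq_sum_roots_charpoly]
  refine IsIntegral.multiset_sum ?_
  intro μ hμ
  have hroot : IsRoot A'.charpoly μ := (mem_roots (charpoly_monic A').ne_zero).1 hμ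
  rcases isEmpty_or_nonempty ι with hι | hι
  · exfalso
    have : A'.charpoly = 1 := Matrix.charpoly_isEmpty
    rw [this] at hroot
    simp at hroot
  have hspec : μ ∈ spectrum Kb A' := Matrix.mem_spectrum_iff_isRoot_charpoly.2 hroot
  -- the ring hom `E → Matrix ι ι Kb`
  let φ : E →+* Matrix ι ι Kb :=
    (RingHom.mapMatrix (algebraMap K Kb)).comp (Algebra.leftMulMatrix b).toRingHom
  have hφx : φ x = A' := rfl
  have hφR : ∀ r : R, φ (algebraMap R E r) = algebraMap Kb (Matrix ι ι Kb) (algebraMap R Kb r) := by
    intro r
    have e1 : algebraMap R E r = algebraMap K E (algebraMap R K r) :=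
      IsScalarTower.algebraMap_apply R K E r
    have e2 : algebraMap R Kb r = algebraMap K Kb (algebraMap R K r) :=
      IsScalarTower.algebraMap_apply R K Kb r
    show (RingHom.mapMatrix (algebraMap K Kb)) ((Algebra.leftMulMatrix b) (algebraMap R E r)) = _
    rw [e1, e2, AlgHom.commutes]
    ext i j
    simp [Matrix.algebraMap_matrix_apply, RingHom.mapMatrix_apply]
    split_ifs <;> simp
  set q : Kb[X] := p.map (algebraMap R Kb) with hq
  have hqA : aeval A' q = 0 := by
    have h2 : φ (eval₂ (algebraMap R E) x p) = 0 := by rw [hp, map_zero]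
    rw [Polynomial.hom_eval₂, hφx] at h2
    rw [hq, aeval_def, eval₂_map]
    have e3 : (algebraMap Kb (Matrix ι ι Kb)).comp (algebraMap R Kb) = φ.comp (algebraMap R E) := by
      ext r : 1
      exact (hφR r).symm
    rw [e3]
    exact h2
  have h3 := spectrum.subset_polynomial_aeval A' q ⟨μ, hspec, rfl⟩
  rw [hqA, spectrum.zero_eq, Set.mem_singleton_iff] at h3
  refine ⟨p, hpm, ?_⟩
  rw [← eval_map]
  exact h3

end Trace

section Main

variable {R K E ι : Type*} [CommRing R] [IsIntegrallyClosed R] [Field K]
  [Algebra R K] [IsFractionRing R K] [CommRing E] [Algebra K E]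
  [Algebra R E] [IsScalarTower R K E] [Fintype ι] [DecidableEq ι]

/-- P1 (core): a `K`-basis of integral elements with unit discriminant spans the integral
closure. The coordinates of an integral element lie in `R`. -/
theorem S18P1_repr_mem_of_isIntegral (b : Module.Basis ι K E) (hb : ∀ i, IsIntegral R (b i))
    (hdisc : ∃ u : Rˣ, algebraMap R K (u : R) = Algebra.discr K b) {x : E}
    (hx : IsIntegral R x) : ∃ c : ι → R, ∀ i, b.repr x i = algebraMap R K (c i) := by
  obtain ⟨u, hu⟩ := hdisc
  have hinj : Function.Injective (algebraMap R K) := IsFractionRing.injective R K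
  -- integrality of the traces
  have ht : ∀ i j, ∃ t : R, algebraMap R K t = Algebra.trace K E (b i * b j) := fun i j =>
    IsIntegrallyClosed.isIntegral_iff.1 (S18P1_isIntegral_trace b ((hb i).mul (hb j)))
  choose t ht using ht
  have hr : ∀ i, ∃ r : R, algebraMap R K r = Algebra.trace K E (x * b i) := fun i =>
    IsIntegrallyClosed.isIntegral_iff.1 (S18P1_isIntegral_trace b (hx.mul (hb i)))
  choose r hr using hr
  set TR : Matrix ι ι R := Matrix.of t with hTR
  set T : Matrix ι ι K := Algebra.traceMatrix K b with hT
  have hmap : TR.map (algebraMap R K) = T := by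
    ext i j
    rw [Matrix.map_apply, hTR, Matrix.of_apply, ht, hT, Algebra.traceMatrix_apply,
      Algebra.traceForm_apply]
  have hdet : TR.det = (u : R) := by
    apply hinj
    rw [hu, Algebra.discr_def, ← hT, ← hmap]
    exact RingHom.map_det (algebraMap R K) TR
  have hunit : IsUnit TR.det := by rw [hdet]; exact u.isUnit
  have hunitT : IsUnit T.det := by
    rw [← hmap, ← RingHom.mapMatrix_apply, ← RingHom.map_det]
    exact hunit.map _
  -- the coordinates over `R`
  set aR : ι → R := TR⁻¹ *ᵥ r with haR
  have h1 : TR *ᵥ aR = r := by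
    rw [haR, Matrix.mulVec_mulVec, Matrix.mul_nonsing_inv TR hunit, Matrix.one_mulVec]
  have h2 : T *ᵥ (fun i => algebraMap R K (aR i)) = fun i => algebraMap R K (r i) := by
    rw [← hmap]
    ext i
    have := congrFun h1 i
    simp only [Matrix.mulVec, dotProduct, Matrix.map_apply] at this ⊢
    rw [← this, map_sum]
    simp [map_mul]
  have h3 : T *ᵥ b.equivFun x = fun i => algebraMap R K (r i) := by
    rw [hT, Algebra.traceMatrix_of_basis_mulVec]
    ext i
    rw [hr]
  have h4 : b.equivFun x = fun i => algebraMap R K (aR i) := by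
    have := congrArg (fun v => T⁻¹ *ᵥ v) (h3.trans h2.symm)
    simpa [Matrix.mulVec_mulVec, Matrix.nonsing_inv_mul T hunitT] using this
  refine ⟨aR, fun i => ?_⟩
  have := congrFun h4 i
  rwa [Module.Basis.equivFun_apply] at this

theorem S18P1_mem_span_of_isIntegral (b : Module.Basis ι K E) (hb : ∀ i, IsIntegral R (b i))
    (hdisc : ∃ u : Rˣ, algebraMap R K (u : R) = Algebra.discr K b) {x : E}
    (hx : IsIntegral R x) : x ∈ Submodule.span R (Set.range b) := by
  obtain ⟨c, hc⟩ := S18P1_repr_mem_of_isIntegral b hb hdisc hx
  rw [← b.sum_repr x]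
  refine Submodule.sum_mem _ fun i _ => ?_
  rw [hc i, algebraMap_smul]
  exact Submodule.smul_mem _ _ (Submodule.subset_span (Set.mem_range_self i))

/-- The integral closure of `R` in `E` is exactly the `R`-span of `b`. -/
theorem S18P1_isIntegral_iff_mem_span (b : Module.Basis ι K E) (hb : ∀ i, IsIntegral R (b i))
    (hdisc : ∃ u : Rˣ, algebraMap R K (u : R) = Algebra.discr K b) (x : E) :
    IsIntegral R x ↔ x ∈ Submodule.span R (Set.range b) := by
  refine ⟨S18P1_mem_span_of_isIntegral b hb hdisc, fun hx => ?_⟩
  induction hx using Submodule.span_induction with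
  | mem y hy => obtain ⟨i, rfl⟩ := hy; exact hb i
  | zero => exact isIntegral_zero
  | add y z _ _ hy hz => exact hy.add hz
  | smul a y _ hy => exact hy.smul a

end Main

section Reduced

variable {R B ι : Type*} [CommRing R] [IsReduced R] [CommRing B] [Algebra R B]
  [Fintype ι] [DecidableEq ι]

/-- A finite free algebra with unit discriminant over a reduced ring is reduced. -/
theorem S18P1_isReduced (b : Module.Basis ι R B) (hdisc : IsUnit (Algebra.discr R b)) :
    IsReduced B := by
  refine ⟨fun x hx => ?_⟩
  have h0 : ∀ i, Algebra.trace R B (x * b i) = 0 := by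
    intro i
    have hnil : IsNilpotent (x * b i) := (Commute.all x (b i)).isNilpotent_mul_right hx
    have hnil' : IsNilpotent (Algebra.lmul R B (x * b i)) := by
      obtain ⟨n, hn⟩ := hnil
      exact ⟨n, by rw [← map_pow, hn, map_zero]⟩
    have : Module.Free R B := Module.Free.of_basis b
    have : Module.Finite R B := Module.Finite.of_basis b
    exact (LinearMap.isNilpotent_trace_of_isNilpotent hnil').eq_zero
  have h1 : Algebra.traceMatrix R b *ᵥ b.equivFun x = 0 := by
    rw [Algebra.traceMatrix_of_basis_mulVec]
    ext i
    exact h0 i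
  have hunit : IsUnit (Algebra.traceMatrix R b).det := by
    rwa [← Algebra.discr_def]
  have h2 : b.equivFun x = 0 := by
    have := congrArg (fun v => (Algebra.traceMatrix R b)⁻¹ *ᵥ v) h1
    simpa [Matrix.mulVec_mulVec, Matrix.nonsing_inv_mul _ hunit] using this
  exact b.equivFun.map_eq_zero_iff.1 h2

end Reduced

end Fermat.Agent.S18_helper4_P1
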