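import Mathlib
import Fermat.Agent.S18_helper4_P1

/-!
# S18, block B, piece X-B6-LOCDVR (abstract)

`S` a noetherian local ring whose maximal ideal is generated by a non-zero-divisor `ϖ`
(e.g. a discrete valuation ring), `C` a finite free `S`-algebra with basis `b` and unit
discriminant. Then

* `S18B6_quotient_isReduced` : the special fibre `C ⧸ 𝔪C` is reduced;
* `S18B6_algebraMap_mem` : `ϖ ∈ Q` for every maximal ideal `Q` of `C`;
* `S18B6_exists_mul_eq` : `Q C_Q = ϖ C_Q`, elementwise: `∀ x ∈ Q, ∃ s ∉ Q, ∃ c, s * x = ϖ * c`;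
* `S18B6_isDomain_localization`, `S18B6_isDVR_localization` : `C_Q` is a discrete valuation ring.
-/

set_option autoImplicit false

namespace Fermat.Agent.S18_helper4_B6

open IsLocalRing

section Artinian

/-- In a reduced artinian ring every element `x` satisfies `x * (1 - x * y) = 0` for some `y`. -/
theorem S18B6_exists_mul_eq_zero {A : Type*} [CommRing A] [IsArtinianRing A] [IsReduced A]
    (x : A) : ∃ y : A, x * (1 - x * y) = 0 := by
  obtain ⟨n, y, hy⟩ := IsArtinian.exists_pow_succ_smul_dvd x (1 : A)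
  refine ⟨y, ?_⟩
  have h1 : x ^ n * (1 - x * y) = 0 := by
    have : x ^ (n + 1) * y = x ^ n := by simpa using hy
    calc x ^ n * (1 - x * y) = x ^ n - x ^ (n + 1) * y := by ring
      _ = 0 := by rw [this, sub_self]
  have h2 : IsNilpotent (x * (1 - x * y)) := by
    refine ⟨n + 1, ?_⟩
    have key : ∀ z : A, (x * z) ^ (n + 1) = (x ^ n * z) * (x * z ^ n) := fun z => by ring
    rw [key, h1, zero_mul]
  exact h2.eq_zero

end Artinian

section SpecialFibre

variable {S C ι : Type*} [CommRing S] [IsLocalRing S] [CommRing C] [Algebra S C]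
  [Module.Free S C] [Module.Finite S C] [Fintype ι] [DecidableEq ι]

attribute [local instance] Ideal.Quotient.field

/-- The discriminant of the reduced basis is the reduction of the discriminant. -/
theorem S18B6_discr_basisQuotient (b : Module.Basis ι S C) :
    Algebra.discr (S ⧸ maximalIdeal S) (basisQuotient b) =
      Ideal.Quotient.mk (maximalIdeal S) (Algebra.discr S b) := by
  rw [Algebra.discr_def, Algebra.discr_def, RingHom.map_det]
  congr 1
  ext i j
  rw [RingHom.mapMatrix_apply, Matrix.map_apply, Algebra.traceMatrix_apply,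
    Algebra.traceMatrix_apply, Algebra.traceForm_apply, Algebra.traceForm_apply,
    basisQuotient_apply, basisQuotient_apply, ← map_mul, Algebra.trace_quotient_mk]

/-- The special fibre of a finite free algebra with unit discriminant is reduced. -/
theorem S18B6_quotient_isReduced (b : Module.Basis ι S C)
    (hdisc : IsUnit (Algebra.discr S b)) :
    IsReduced (C ⧸ Ideal.map (algebraMap S C) (maximalIdeal S)) := by
  have h := S18B6_discr_basisQuotient b
  exact S18_helper4_P1.S18P1_isReduced (basisQuotient b) (h ▸ hdisc.map _)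

omit [Module.Free S C] in
/-- The special fibre is artinian. -/
theorem S18B6_quotient_isArtinianRing :
    IsArtinianRing (C ⧸ Ideal.map (algebraMap S C) (maximalIdeal S)) := by
  have : Module.Finite (S ⧸ maximalIdeal S) (C ⧸ Ideal.map (algebraMap S C) (maximalIdeal S)) :=
    Module.Finite.of_restrictScalars_finite S _ _
  exact IsArtinianRing.of_finite (S ⧸ maximalIdeal S) _

/-- `Q C_Q = 𝔪 C_Q`, elementwise. -/
theorem S18B6_exists_mul_mem (b : Module.Basis ι S C)
    (hdisc : IsUnit (Algebra.discr S b)) (Q : Ideal C) [Q.IsMaximal] (x : C) (hx : x ∈ Q) :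
    ∃ s : C, s ∉ Q ∧ s * x ∈ Ideal.map (algebraMap S C) (maximalIdeal S) := by
  have hred := S18B6_quotient_isReduced b hdisc
  have hart := S18B6_quotient_isArtinianRing (S := S) (C := C)
  obtain ⟨ybar, hy⟩ := S18B6_exists_mul_eq_zero
    (Ideal.Quotient.mk (Ideal.map (algebraMap S C) (maximalIdeal S)) x)
  obtain ⟨y, rfl⟩ := Ideal.Quotient.mk_surjective ybar
  refine ⟨1 - x * y, ?_, ?_⟩
  · intro hs
    have h1 : x * y ∈ Q := Q.mul_mem_right y hx
    have : (1 : C) ∈ Q := by
      have := Q.add_mem hs h1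
      simpa using this
    exact (Ideal.IsMaximal.ne_top ‹Q.IsMaximal›) ((Ideal.eq_top_iff_one Q).2 this)
  · rw [← Ideal.Quotient.eq_zero_iff_mem, mul_comm]
    simpa using hy

end SpecialFibre

section Localization

variable {S C ι : Type*} [CommRing S] [IsLocalRing S] [CommRing C] [Algebra S C]
  [Module.Free S C] [Module.Finite S C] [Fintype ι] [DecidableEq ι]

omit [Module.Free S C] in
/-- Every maximal ideal of `C` contains the maximal ideal of `S`. -/
theorem S18B6_algebraMap_mem (Q : Ideal C) [Q.IsMaximal] (s : S) (hs : s ∈ maximalIdeal S) :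
    algebraMap S C s ∈ Q := by
  have : Algebra.IsIntegral S C := Algebra.IsIntegral.of_finite S C
  have hmax : (Q.comap (algebraMap S C)).IsMaximal :=
    Ideal.isMaximal_comap_of_isIntegral_of_isMaximal Q
  have h1 : Q.comap (algebraMap S C) = maximalIdeal S := IsLocalRing.eq_maximalIdeal hmax
  have h : s ∈ Q.comap (algebraMap S C) := h1 ▸ hs
  exact h

omit [IsLocalRing S] [Module.Free S C] [Module.Finite S C] [DecidableEq ι] [Fintype ι] in
/-- A non-zero-divisor of `S` is a non-zero-divisor on the free module `C`. -/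
theorem S18B6_regular (b : Module.Basis ι S C) (ϖ : S) (hreg : ∀ s : S, ϖ * s = 0 → s = 0)
    (x : C) (h : algebraMap S C ϖ * x = 0) : x = 0 := by
  rw [← Algebra.smul_def] at h
  have h1 : b.repr x = 0 := by
    ext i
    have := congrArg (fun v => b.repr v i) h
    simp only [map_smul, Finsupp.smul_apply, smul_eq_mul, map_zero, Finsupp.zero_apply] at this
    simpa using hreg _ this
  exact b.repr.map_eq_zero_iff.1 h1

/-- `Q C_Q = ϖ C_Q`, elementwise. -/
theorem S18B6_exists_mul_eq (b : Module.Basis ι S C)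
    (hdisc : IsUnit (Algebra.discr S b)) (ϖ : S) (hϖ : maximalIdeal S = Ideal.span {ϖ})
    (Q : Ideal C) [Q.IsMaximal] (x : C) (hx : x ∈ Q) :
    ∃ s : C, s ∉ Q ∧ ∃ c : C, s * x = algebraMap S C ϖ * c := by
  obtain ⟨s, hs, hsx⟩ := S18B6_exists_mul_mem b hdisc Q x hx
  refine ⟨s, hs, ?_⟩
  rw [hϖ, Ideal.map_span, Set.image_singleton, Ideal.mem_span_singleton'] at hsx
  obtain ⟨c, hc⟩ := hsx
  exact ⟨c, by rw [← hc, mul_comm]⟩

/-- The maximal ideal of `C_Q` is generated by `ϖ`. -/
theorem S18B6_maximalIdeal_localization (b : Module.Basis ι S C)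
    (hdisc : IsUnit (Algebra.discr S b)) (ϖ : S) (hϖ : maximalIdeal S = Ideal.span {ϖ})
    (Q : Ideal C) [Q.IsMaximal] :
    maximalIdeal (Localization.AtPrime Q) =
      Ideal.span {algebraMap C (Localization.AtPrime Q) (algebraMap S C ϖ)} := by
  have hϖS : ϖ ∈ maximalIdeal S := by rw [hϖ]; exact Ideal.mem_span_singleton_self ϖ
  rw [← IsLocalization.AtPrime.map_eq_maximalIdeal Q (Localization.AtPrime Q)]
  apply le_antisymm
  · rw [Ideal.map_le_iff_le_comap]
    intro x hx
    obtain ⟨s, hs, c, hc⟩ := S18B6_exists_mul_eq b hdisc ϖ hϖ Q x hx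
    rw [Ideal.mem_comap, Ideal.mem_span_singleton']
    have hu : IsUnit (algebraMap C (Localization.AtPrime Q) s) :=
      IsLocalization.map_units (Localization.AtPrime Q) (⟨s, hs⟩ : Q.primeCompl)
    obtain ⟨u, hu'⟩ := hu
    refine ⟨↑u⁻¹ * algebraMap C (Localization.AtPrime Q) c, ?_⟩
    have h1 := congrArg (algebraMap C (Localization.AtPrime Q)) hc
    rw [map_mul, map_mul, ← hu'] at h1
    calc ↑u⁻¹ * algebraMap C (Localization.AtPrime Q) c *
          algebraMap C (Localization.AtPrime Q) (algebraMap S C ϖ)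
        = ↑u⁻¹ * (algebraMap C (Localization.AtPrime Q) (algebraMap S C ϖ) *
            algebraMap C (Localization.AtPrime Q) c) := by ring
      _ = ↑u⁻¹ * (↑u * algebraMap C (Localization.AtPrime Q) x) := by rw [h1]
      _ = algebraMap C (Localization.AtPrime Q) x := by rw [← mul_assoc, Units.inv_mul, one_mul]
  · rw [Ideal.span_singleton_le_iff_mem]
    exact Ideal.mem_map_of_mem _ (S18B6_algebraMap_mem Q ϖ hϖS)

omit [IsLocalRing S] [Module.Free S C] [Module.Finite S C] [DecidableEq ι] [Fintype ι] in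
/-- `ϖ` is a non-zero-divisor of `C_Q`. -/
theorem S18B6_regular_localization (b : Module.Basis ι S C) (ϖ : S)
    (hreg : ∀ s : S, ϖ * s = 0 → s = 0) (Q : Ideal C) [Q.IsPrime]
    (z : Localization.AtPrime Q)
    (h : algebraMap C (Localization.AtPrime Q) (algebraMap S C ϖ) * z = 0) : z = 0 := by
  obtain ⟨a, t, rfl⟩ := IsLocalization.exists_mk'_eq Q.primeCompl z
  rw [← IsLocalization.mk'_one (M := Q.primeCompl) (Localization.AtPrime Q),
    ← IsLocalization.mk'_mul, IsLocalization.mk'_eq_zero_iff] at h
  obtain ⟨u, hu⟩ := h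
  rw [IsLocalization.mk'_eq_zero_iff]
  refine ⟨u, ?_⟩
  apply S18B6_regular b ϖ hreg
  rw [← hu]
  ring

end Localization

section DVR

/-- In a noetherian local ring with principal maximal ideal `(p)`, every nonzero element is a
unit times a power of `p`. -/
theorem S18B6_exists_unit_mul_pow {L : Type*} [CommRing L] [IsLocalRing L] [IsNoetherianRing L]
    (p : L) (hp : maximalIdeal L = Ideal.span {p}) (z : L) (hz : z ≠ 0) :
    ∃ (n : ℕ) (v : Lˣ), z = p ^ n * v := by
  classical
  have hK : ⨅ n : ℕ, maximalIdeal L ^ n = ⊥ :=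
    Ideal.iInf_pow_eq_bot_of_isLocalRing _ (Ideal.IsMaximal.ne_top (maximalIdeal.isMaximal L))
  have hex : ∃ n, z ∉ maximalIdeal L ^ n := by
    by_contra hall
    rw [not_exists] at hall
    have : z ∈ ⨅ n : ℕ, maximalIdeal L ^ n := by
      rw [Ideal.mem_iInf]
      intro n
      exact not_not.1 (hall n)
    rw [hK] at this
    exact hz this
  have hn : z ∉ maximalIdeal L ^ Nat.find hex := Nat.find_spec hex
  have hn0 : Nat.find hex ≠ 0 := by
    intro h0
    rw [h0, pow_zero, Ideal.one_eq_top] at hn
    exact hn Submodule.mem_top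
  obtain ⟨m, hm⟩ := Nat.exists_eq_succ_of_ne_zero hn0
  have hm' : z ∈ maximalIdeal L ^ m := by
    by_contra h
    exact Nat.find_min hex (by omega : m < Nat.find hex) h
  have hm2 := hm'
  rw [hp, Ideal.span_singleton_pow, Ideal.mem_span_singleton'] at hm2
  obtain ⟨v, hv⟩ := hm2
  have hvu : IsUnit v := by
    by_contra hnu
    have hvm : v ∈ maximalIdeal L := (IsLocalRing.mem_maximalIdeal v).2 hnu
    have hpm : p ∈ maximalIdeal L := by rw [hp]; exact Ideal.mem_span_singleton_self p
    apply hn
    rw [hm, ← hv, mul_comm v, pow_succ]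
    exact Ideal.mul_mem_mul (Ideal.pow_mem_pow hpm m) hvm
  obtain ⟨u, rfl⟩ := hvu
  exact ⟨m, u, by rw [← hv, mul_comm]⟩

/-- A noetherian local ring whose maximal ideal is generated by a non-zero-divisor is a
domain. -/
theorem S18B6_isDomain_of_principal {L : Type*} [CommRing L] [IsLocalRing L] [IsNoetherianRing L]
    (p : L) (hp : maximalIdeal L = Ideal.span {p}) (hreg : ∀ z : L, p * z = 0 → z = 0) :
    IsDomain L := by
  have hpow : ∀ (n : ℕ) (z : L), p ^ n * z = 0 → z = 0 := by
    intro n
    induction n with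
    | zero => intro z hz; simpa using hz
    | succ n ih =>
      intro z hz
      apply ih
      apply hreg
      rw [← mul_assoc, ← pow_succ']
      exact hz
  have : NoZeroDivisors L := by
    refine ⟨fun {a c} hac => ?_⟩
    by_contra hne
    rw [not_or] at hne
    obtain ⟨n, u, hu⟩ := S18B6_exists_unit_mul_pow p hp a hne.1
    obtain ⟨m, v, hv⟩ := S18B6_exists_unit_mul_pow p hp c hne.2
    have h1 : p ^ (n + m) * ((u : L) * (v : L)) = 0 := by
      rw [← hac, hu, hv, pow_add]
      ring
    have h2 : ((u * v : Lˣ) : L) = 0 := by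
      rw [Units.val_mul]
      exact hpow _ _ h1
    exact (u * v).ne_zero h2
  exact NoZeroDivisors.to_isDomain L

/-- ... and a discrete valuation ring. -/
theorem S18B6_isDVR_of_principal {L : Type*} [CommRing L] [IsLocalRing L] [IsNoetherianRing L]
    [IsDomain L] (p : L) (hp : maximalIdeal L = Ideal.span {p}) (hp0 : p ≠ 0) :
    IsDiscreteValuationRing L := by
  have hprinc : (maximalIdeal L).IsPrincipal := ⟨⟨p, hp⟩⟩
  have hpir : IsPrincipalIdealRing L :=
    ((tfae_of_isNoetherianRing_of_isLocalRing_of_isDomain L).out 4 0).mp hprinc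
  exact
    { toIsPrincipalIdealRing := hpir
      toIsLocalRing := inferInstance
      not_a_field' := by
        intro h
        have : p ∈ maximalIdeal L := by rw [hp]; exact Ideal.mem_span_singleton_self p
        rw [h] at this
        exact hp0 this }

variable {S C ι : Type*} [CommRing S] [IsLocalRing S] [IsNoetherianRing S] [CommRing C]
  [Algebra S C] [Module.Free S C] [Module.Finite S C] [Fintype ι] [DecidableEq ι]

/-- X-B6 (local form): `C_Q` is a domain. -/
theorem S18B6_isDomain_localization (b : Module.Basis ι S C)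
    (hdisc : IsUnit (Algebra.discr S b)) (ϖ : S) (hϖ : maximalIdeal S = Ideal.span {ϖ})
    (hreg : ∀ s : S, ϖ * s = 0 → s = 0) (Q : Ideal C) [Q.IsMaximal] :
    IsDomain (Localization.AtPrime Q) := by
  have hC : IsNoetherianRing C := IsNoetherianRing.of_finite S C
  have hL : IsNoetherianRing (Localization.AtPrime Q) :=
    IsLocalization.isNoetherianRing Q.primeCompl _ hC
  exact S18B6_isDomain_of_principal _ (S18B6_maximalIdeal_localization b hdisc ϖ hϖ Q)
    (S18B6_regular_localization b ϖ hreg Q)

/-- X-B6 (local form): `C_Q` is a discrete valuation ring, with uniformiser the image of `ϖ`. -/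
theorem S18B6_isDVR_localization (b : Module.Basis ι S C)
    (hdisc : IsUnit (Algebra.discr S b)) (ϖ : S) (hϖ : maximalIdeal S = Ideal.span {ϖ})
    (hreg : ∀ s : S, ϖ * s = 0 → s = 0) (Q : Ideal C) [Q.IsMaximal]
    [IsDomain (Localization.AtPrime Q)] :
    IsDiscreteValuationRing (Localization.AtPrime Q) := by
  have hC : IsNoetherianRing C := IsNoetherianRing.of_finite S C
  have hL : IsNoetherianRing (Localization.AtPrime Q) :=
    IsLocalization.isNoetherianRing Q.primeCompl _ hC
  refine S18B6_isDVR_of_principal _ (S18B6_maximalIdeal_localization b hdisc ϖ hϖ Q) ?_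
  intro h0
  have := S18B6_regular_localization b ϖ hreg Q 1 (by rw [mul_one]; exact h0)
  exact one_ne_zero this

/-- X-B6 (local form), bundled. -/
theorem S18B6_localization_isDVR (b : Module.Basis ι S C)
    (hdisc : IsUnit (Algebra.discr S b)) (ϖ : S) (hϖ : maximalIdeal S = Ideal.span {ϖ})
    (hreg : ∀ s : S, ϖ * s = 0 → s = 0) (Q : Ideal C) [Q.IsMaximal] :
    ∃ (_ : IsDomain (Localization.AtPrime Q)), IsDiscreteValuationRing (Localization.AtPrime Q) :=
  ⟨S18B6_isDomain_localization b hdisc ϖ hϖ hreg Q,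
    @S18B6_isDVR_localization _ _ _ _ _ _ _ _ _ _ _ _ b hdisc ϖ hϖ hreg Q _
      (S18B6_isDomain_localization b hdisc ϖ hϖ hreg Q)⟩

end DVR

end Fermat.Agent.S18_helper4_B6
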