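import Mathlib

/-!
# S18, abstract piece P2: lifting a basis modulo `π`

`R` a commutative ring, `π ∈ R`, `M` an `R`-module, `m : ι → M` a finite family.

* `S18P2_linearIndependent` : if `π` is a non-zero-divisor on `M`, the images of the `m i` are
  linearly independent in `M / πM` over `R / π` (hypothesis `hind`) and `⋂ πⁿR = 0`, then the `m i`
  are linearly independent over `R`.
* `S18P2_span_eq_top` : if `π` lies in the Jacobson radical, `M` is finite and the images of the
  `m i` span `M / πM` (hypothesis `hspan`), then the `m i` span `M`.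
* `S18P2_basis`, `S18P2_free` : the resulting basis / freeness, for `R` a noetherian domain.
-/

set_option autoImplicit false

namespace Fermat.Agent.S18_helper4_P2

open Finset

variable {R M ι : Type*} [CommRing R] [AddCommGroup M] [Module R M]

/-- Independence: divide a relation by `π` again and again. -/
theorem S18P2_dvd_pow_of_sum_eq_zero [Fintype ι] (π : R)
    (hreg : ∀ x : M, π • x = 0 → x = 0) (m : ι → M)
    (hind : ∀ c : ι → R, (∃ y : M, ∑ i, c i • m i = π • y) → ∀ i, π ∣ c i) :
    ∀ (n : ℕ) (c : ι → R), ∑ i, c i • m i = 0 → ∀ i, π ^ n ∣ c i := by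
  intro n
  induction n with
  | zero => intro c _ i; simp
  | succ n ih =>
    intro c hc i
    have h1 : ∀ i, π ∣ c i := hind c ⟨0, by rw [hc, smul_zero]⟩
    choose c' hc' using h1
    have h2 : π • ∑ i, c' i • m i = 0 := by
      rw [Finset.smul_sum, ← hc]
      refine Finset.sum_congr rfl fun i _ => ?_
      rw [smul_smul, ← hc' i]
    have h3 := ih c' (hreg _ h2) i
    rw [hc' i, pow_succ']
    exact mul_dvd_mul_left π h3

theorem S18P2_linearIndependent [Fintype ι] (π : R)
    (hreg : ∀ x : M, π • x = 0 → x = 0) (m : ι → M)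
    (hind : ∀ c : ι → R, (∃ y : M, ∑ i, c i • m i = π • y) → ∀ i, π ∣ c i)
    (hinf : ∀ a : R, (∀ n : ℕ, π ^ n ∣ a) → a = 0) :
    LinearIndependent R m := by
  rw [Fintype.linearIndependent_iff]
  intro c hc i
  exact hinf (c i) fun n => S18P2_dvd_pow_of_sum_eq_zero π hreg m hind n c hc i

/-- Generation: Nakayama. -/
theorem S18P2_span_eq_top [Fintype ι] [Module.Finite R M] (π : R)
    (hπ : π ∈ Ideal.jacobson (⊥ : Ideal R)) (m : ι → M)
    (hspan : ∀ x : M, ∃ (c : ι → R) (y : M), x = ∑ i, c i • m i + π • y) :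
    Submodule.span R (Set.range m) = ⊤ := by
  rw [eq_top_iff]
  refine Submodule.le_of_le_smul_of_le_jacobson_bot (I := Ideal.span {π}) Module.Finite.fg_top
    ((Ideal.span_singleton_le_iff_mem _).2 hπ) ?_
  intro x _
  obtain ⟨c, y, rfl⟩ := hspan x
  refine Submodule.add_mem_sup ?_ ?_
  · exact Submodule.sum_mem _ fun i _ =>
      Submodule.smul_mem _ _ (Submodule.subset_span (Set.mem_range_self i))
  · exact Submodule.smul_mem_smul (Ideal.mem_span_singleton_self π) Submodule.mem_top

/-- In a noetherian domain, an element divisible by all powers of a non-unit of the Jacobson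
radical is zero. -/
theorem S18P2_eq_zero_of_forall_pow_dvd [IsNoetherianRing R] (π : R)
    (hπ : π ∈ Ideal.jacobson (⊥ : Ideal R)) (a : R) (h : ∀ n : ℕ, π ^ n ∣ a) : a = 0 := by
  have hle : Ideal.span {π} ≤ Ideal.jacobson (⊥ : Ideal R) :=
    (Ideal.span_singleton_le_iff_mem _).2 hπ
  have h1 := Ideal.iInf_pow_smul_eq_bot_of_le_jacobson (M := R) (Ideal.span {π}) hle
  have h2 : a ∈ (⨅ n : ℕ, Ideal.span {π} ^ n • ⊤ : Submodule R R) := by
    rw [Submodule.mem_iInf]
    intro n
    obtain ⟨c, hc⟩ := h n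
    rw [hc, ← smul_eq_mul]
    exact Submodule.smul_mem_smul (Ideal.pow_mem_pow (Ideal.mem_span_singleton_self π) n)
      Submodule.mem_top
  rw [h1] at h2
  exact h2

/-- P2: the lifted family is a basis. -/
noncomputable def S18P2_basis [Fintype ι] [IsNoetherianRing R] [Module.Finite R M] (π : R)
    (hπ : π ∈ Ideal.jacobson (⊥ : Ideal R))
    (hreg : ∀ x : M, π • x = 0 → x = 0) (m : ι → M)
    (hspan : ∀ x : M, ∃ (c : ι → R) (y : M), x = ∑ i, c i • m i + π • y)
    (hind : ∀ c : ι → R, (∃ y : M, ∑ i, c i • m i = π • y) → ∀ i, π ∣ c i) :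
    Module.Basis ι R M :=
  Module.Basis.mk
    (S18P2_linearIndependent π hreg m hind (S18P2_eq_zero_of_forall_pow_dvd π hπ))
    (S18P2_span_eq_top π hπ m hspan).ge

theorem S18P2_basis_apply [Fintype ι] [IsNoetherianRing R] [Module.Finite R M] (π : R)
    (hπ : π ∈ Ideal.jacobson (⊥ : Ideal R))
    (hreg : ∀ x : M, π • x = 0 → x = 0) (m : ι → M)
    (hspan : ∀ x : M, ∃ (c : ι → R) (y : M), x = ∑ i, c i • m i + π • y)
    (hind : ∀ c : ι → R, (∃ y : M, ∑ i, c i • m i = π • y) → ∀ i, π ∣ c i) (i : ι) :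
    S18P2_basis π hπ hreg m hspan hind i = m i := by
  simp [S18P2_basis]

theorem S18P2_free [Fintype ι] [IsNoetherianRing R] [Module.Finite R M] (π : R)
    (hπ : π ∈ Ideal.jacobson (⊥ : Ideal R))
    (hreg : ∀ x : M, π • x = 0 → x = 0) (m : ι → M)
    (hspan : ∀ x : M, ∃ (c : ι → R) (y : M), x = ∑ i, c i • m i + π • y)
    (hind : ∀ c : ι → R, (∃ y : M, ∑ i, c i • m i = π • y) → ∀ i, π ∣ c i) :
    Module.Free R M :=
  Module.Free.of_basis (S18P2_basis π hπ hreg m hspan hind)

end Fermat.Agent.S18_helper4_P2
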