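import Mathlib
import Fermat.Agent.S18_helper4_P2
import Fermat.Agent.S18_helper25_P3
import Fermat.Agent.S18_helper3_P5
import Fermat.Agent.S18_helper24_DISC
import Fermat.Agent.S18_helper4_B6

/-!
# S18 block B, piece X-B6-PUR (helper28): purity, local form

`R` a noetherian local domain with maximal ideal `(π, τ)`, `π` prime, `τ` not nilpotent modulo
`π`; `B` the integral closure of `R` in a finite extension `E` of `K = Frac R` (char 0).
If `B` is generically etale along `π` (a generator `V` with separable reduction) and the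
discriminant is prime to every horizontal prime element, then `B` is etale over `R`:
`M B_M = (π, τ) B_M` at every maximal ideal `M` of `B`.
-/

set_option autoImplicit false
set_option linter.unusedSectionVars false

namespace Fermat.Agent.S18_helper28_PUR

open Fermat.Agent.S18_helper4_P2 Fermat.Agent.S18_helper25_P3 Fermat.Agent.S18_helper3_P5
  Fermat.Agent.S18_helper24_DISC Fermat.Agent.S18_helper4_B6

section Quot

variable {R : Type*} [CommRing R] [IsDomain R] [IsNoetherianRing R] [IsLocalRing R]

theorem S18PUR_mem_maximalIdeal (π τ : R)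
    (hn : IsLocalRing.maximalIdeal R = Ideal.span {π, τ}) :
    π ∈ IsLocalRing.maximalIdeal R := by
  rw [hn]; exact Ideal.subset_span (by simp)

/-- `R ⧸ (π)` is a principal ideal domain. -/
theorem S18PUR_quotient_isPrincipalIdealRing (π τ : R) (hπ : Prime π)
    (hn : IsLocalRing.maximalIdeal R = Ideal.span {π, τ}) (hτ : ¬ π ∣ τ) :
    ∃ (_ : IsDomain (R ⧸ Ideal.span {π})), IsPrincipalIdealRing (R ⧸ Ideal.span {π}) := by
  have hprime : (Ideal.span {π}).IsPrime := (Ideal.span_singleton_prime hπ.ne_zero).mpr hπ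
  have hdom : IsDomain (R ⧸ Ideal.span {π}) := Ideal.Quotient.isDomain _
  refine ⟨hdom, ?_⟩
  have hI : Ideal.span {π} ≠ ⊤ := hprime.ne_top
  have hloc : IsLocalRing (R ⧸ Ideal.span {π}) :=
    IsLocalRing.of_surjective' (Ideal.Quotient.mk _) Ideal.Quotient.mk_surjective
  have hlh : IsLocalHom (Ideal.Quotient.mk (Ideal.span {π})) :=
    IsLocalHom.of_surjective (Ideal.Quotient.mk (Ideal.span {π})) Ideal.Quotient.mk_surjective
  have hmax : IsLocalRing.maximalIdeal (R ⧸ Ideal.span {π})
      = Ideal.span {Ideal.Quotient.mk (Ideal.span {π}) τ} := by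
    have h1 : (IsLocalRing.maximalIdeal R).map (Ideal.Quotient.mk (Ideal.span {π}))
        = IsLocalRing.maximalIdeal (R ⧸ Ideal.span {π}) := by
      ext x
      obtain ⟨x, rfl⟩ := Ideal.Quotient.mk_surjective x
      simp [sup_eq_left.mpr (IsLocalRing.le_maximalIdeal hI)]
    rw [← h1, hn, Ideal.map_span]
    have : (Ideal.Quotient.mk (Ideal.span {π})) '' {π, τ}
        = {0, Ideal.Quotient.mk (Ideal.span {π}) τ} := by
      rw [Set.image_pair]
      congr 1
      exact Ideal.Quotient.eq_zero_iff_mem.mpr (Ideal.mem_span_singleton_self π)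
    rw [this]
    apply le_antisymm
    · rw [Ideal.span_le]
      rintro x (rfl | rfl)
      · exact Ideal.zero_mem _
      · exact Ideal.mem_span_singleton_self _
    · rw [Ideal.span_le]
      rintro x rfl
      exact Ideal.subset_span (by simp)
  have hτ0 : Ideal.Quotient.mk (Ideal.span {π}) τ ≠ 0 := by
    intro h
    exact hτ (Ideal.mem_span_singleton.mp (Ideal.Quotient.eq_zero_iff_mem.mp h))
  have hdvr := S18B6_isDVR_of_principal (L := R ⧸ Ideal.span {π}) _ hmax hτ0
  exact hdvr.toIsPrincipalIdealRing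

end Quot

section Main

variable {R B : Type*} [CommRing R] [IsDomain R] [IsNoetherianRing R] [IsLocalRing R]
    [CommRing B] [Algebra R B]

omit [IsNoetherianRing R] [IsLocalRing R] in
theorem S18PUR_algebraMap_ne_zero (K : Type*) (E : Type*) [Field K] [Algebra R K]
    [IsFractionRing R K] [Field E] [Algebra K E] [Algebra R E] [IsScalarTower R K E]
    {r : R} (hr : r ≠ 0) : algebraMap R E r ≠ 0 := by
  rw [IsScalarTower.algebraMap_apply R K E]
  intro h
  have h1 : algebraMap R K r = 0 := (algebraMap K E).injective (by rw [h, map_zero])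
  exact hr (IsFractionRing.injective R K (by rw [h1, map_zero]))

omit [IsNoetherianRing R] [IsLocalRing R] in
/-- `B` is torsion-free over `R`. -/
theorem S18PUR_smul_eq_zero (K : Type*) (E : Type*) [Field K] [Algebra R K] [IsFractionRing R K]
    [Field E] [Algebra K E] [Algebra R E] [IsScalarTower R K E]
    [Algebra B E] [IsScalarTower R B E] [IsIntegralClosure B R E]
    {r : R} (hr : r ≠ 0) (x : B) (h : r • x = 0) : x = 0 := by
  apply IsIntegralClosure.algebraMap_injective B R E
  have h1 := congrArg (algebraMap B E) h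
  rw [Algebra.smul_def, map_mul, ← IsScalarTower.algebraMap_apply, map_zero] at h1
  rcases mul_eq_zero.mp h1 with h2 | h2
  · exact absurd h2 (S18PUR_algebraMap_ne_zero K E hr)
  · rw [h2, map_zero]

/-- **Freeness** (B3): `B` has an `R`-basis indexed by `Fin n`. -/
theorem S18PUR_exists_basis (K : Type*) (E : Type*) [Field K] [Algebra R K] [IsFractionRing R K]
    [CharZero K] [Field E] [Algebra K E] [Algebra R E] [IsScalarTower R K E]
    [FiniteDimensional K E] [Algebra B E] [IsScalarTower R B E] [IsIntegralClosure B R E]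
    (π τ : R) (hπ : Prime π)
    (hn : IsLocalRing.maximalIdeal R = Ideal.span {π, τ}) (hτ : ¬ π ∣ τ) :
    ∃ (_ : Module.Finite R B) (n : ℕ), Nonempty (Module.Basis (Fin n) R B) := by
  classical
  obtain ⟨hdom, hpir⟩ := S18PUR_quotient_isPrincipalIdealRing π τ hπ hn hτ
  have hπm := S18PUR_mem_maximalIdeal π τ hn
  have hUFD : UniqueFactorizationMonoid R :=
    uniqueFactorizationMonoid_of_isLocalRing (π := π) hπm hπ.ne_zero
  have hfin : Module.Finite R B := IsIntegralClosure.finite R K E B
  refine ⟨hfin, ?_⟩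
  have hfree : Module.Free (R ⧸ Ideal.span {π}) (B ⧸ (Ideal.span {π}).map (algebraMap R B)) :=
    S18P3_free K E π hπ
  have hfinq : Module.Finite R (B ⧸ (Ideal.span {π}).map (algebraMap R B)) :=
    Module.Finite.of_surjective (Ideal.Quotient.mkₐ R _).toLinearMap
      (Ideal.Quotient.mkₐ_surjective R _)
  have hfinq' : Module.Finite (R ⧸ Ideal.span {π})
      (B ⧸ (Ideal.span {π}).map (algebraMap R B)) :=
    Module.Finite.of_restrictScalars_finite R _ _
  set n := Module.finrank (R ⧸ Ideal.span {π}) (B ⧸ (Ideal.span {π}).map (algebraMap R B))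
    with hn'
  let bbar : Module.Basis (Fin n) (R ⧸ Ideal.span {π})
      (B ⧸ (Ideal.span {π}).map (algebraMap R B)) := Module.finBasis _ _
  choose m hm using fun i => Ideal.Quotient.mk_surjective (bbar i)
  have hπJ : π ∈ Ideal.jacobson (⊥ : Ideal R) := by
    rw [IsLocalRing.jacobson_eq_maximalIdeal ⊥ bot_ne_top]
    exact hπm
  have hreg : ∀ x : B, π • x = 0 → x = 0 := fun x hx =>
    S18PUR_smul_eq_zero K E hπ.ne_zero x hx
  have hmap : (Ideal.span {π}).map (algebraMap R B) = Ideal.span {algebraMap R B π} := by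
    rw [Ideal.map_span, Set.image_singleton]
  have hspan : ∀ x : B, ∃ (c : Fin n → R) (y : B), x = ∑ i, c i • m i + π • y := by
    intro x
    choose c hc using fun i => Ideal.Quotient.mk_surjective
      (bbar.repr (Ideal.Quotient.mk ((Ideal.span {π}).map (algebraMap R B)) x) i)
    have h0 : Ideal.Quotient.mk ((Ideal.span {π}).map (algebraMap R B)) (x - ∑ i, c i • m i)
        = 0 := by
      rw [map_sub, map_sum, sub_eq_zero]
      conv_lhs => rw [← bbar.sum_repr (Ideal.Quotient.mk _ x)]
      refine Finset.sum_congr rfl fun i _ => ?_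
      rw [← hc i, ← hm i, Ideal.Quotient.mk_smul_mk_quotient_map_quotient, Algebra.smul_def]
    rw [Ideal.Quotient.eq_zero_iff_mem, hmap, Ideal.mem_span_singleton'] at h0
    obtain ⟨y, hy⟩ := h0
    refine ⟨c, y, ?_⟩
    rw [Algebra.smul_def, mul_comm, hy]; ring
  have hind : ∀ c : Fin n → R, (∃ y : B, ∑ i, c i • m i = π • y) → ∀ i, π ∣ c i := by
    rintro c ⟨y, hy⟩ i
    have h0 : ∑ i, (Ideal.Quotient.mk (Ideal.span {π}) (c i)) • bbar i = 0 := by
      have h1 : Ideal.Quotient.mk ((Ideal.span {π}).map (algebraMap R B)) (∑ i, c i • m i)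
          = 0 := by
        rw [hy, Ideal.Quotient.eq_zero_iff_mem, hmap, Algebra.smul_def]
        exact Ideal.mul_mem_right _ _ (Ideal.mem_span_singleton_self _)
      rw [map_sum] at h1
      rw [← h1]
      refine Finset.sum_congr rfl fun i _ => ?_
      rw [← hm i, Ideal.Quotient.mk_smul_mk_quotient_map_quotient, Algebra.smul_def]
    have h2 := (Fintype.linearIndependent_iff.mp bbar.linearIndependent) _ h0 i
    exact Ideal.mem_span_singleton.mp (Ideal.Quotient.eq_zero_iff_mem.mp h2)
  exact ⟨n, ⟨S18P2_basis π hπJ hreg m hspan hind⟩⟩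

omit [IsNoetherianRing R] [IsLocalRing R] in
/-- The rank of `B` over `R` is `[E : K]`. -/
theorem S18PUR_card_eq_finrank (K : Type*) (E : Type*) [Field K] [Algebra R K]
    [IsFractionRing R K] [Field E] [Algebra K E] [Algebra R E] [IsScalarTower R K E]
    [FiniteDimensional K E] [Algebra B E] [IsScalarTower R B E] [IsIntegralClosure B R E]
    {ι : Type*} [Fintype ι] (b : Module.Basis ι R B) :
    Fintype.card ι = Module.finrank K E := by
  have hloc : IsLocalization (Algebra.algebraMapSubmonoid B (nonZeroDivisors R)) E :=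
    IsIntegralClosure.isLocalization R K E B
  let bK : Module.Basis ι K E := b.localizationLocalization K (nonZeroDivisors R) E
  exact (Module.finrank_eq_card_basis bK).symm

/-- **X-B6-PUR, purity in local form.**  (Corrected statement: the hypothesis `hli` - the powers
of `V` are linearly independent, i.e. `E = K(V)` - is necessary.) -/
theorem S18B_purity_local
    {R K E B : Type*} [CommRing R] [IsDomain R] [IsNoetherianRing R] [IsLocalRing R]
    [Field K] [Algebra R K] [IsFractionRing R K] [CharZero K]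
    [Field E] [Algebra K E] [Algebra R E] [IsScalarTower R K E] [FiniteDimensional K E]
    [CommRing B] [Algebra R B] [Algebra B E] [IsScalarTower R B E] [IsIntegralClosure B R E]
    (π τ : R) (hπ : Prime π)
    (hn : IsLocalRing.maximalIdeal R = Ideal.span {π, τ})
    (hτ : ∀ n : ℕ, ¬ π ∣ τ ^ n)
    (hk : ∀ M : Ideal B, M.IsMaximal → ∀ b : B, ∃ r : R, b - algebraMap R B r ∈ M)
    (V : B) (P : Polynomial R) (hP : P.Monic) (hdeg : P.natDegree = Module.finrank K E)
    (hPV : Polynomial.aeval V P = 0)
    (hli : LinearIndependent R (fun i : Fin P.natDegree => V ^ (i : ℕ)))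
    (hsep : (P.map (algebraMap R (FractionRing (R ⧸ Ideal.span {π})))).Separable)
    (hhor : ∀ g : R, Prime g → ¬ Associated g π →
        ∀ (ι : Type) [Fintype ι] [DecidableEq ι] (b : Module.Basis ι R B),
          ¬ g ∣ Algebra.discr R b) :
    ∀ M : Ideal B, M.IsMaximal →
      (∀ x ∈ M, ∃ s, s ∉ M ∧ ∃ a b : B, s * x = a * algebraMap R B π + b * algebraMap R B τ) ∧
      ∀ (n : ℕ) (s : B), s ∉ M → ¬ algebraMap R B π ∣ s * algebraMap R B τ ^ n := by
  classical
  intro M hM
  have hτ1 : ¬ π ∣ τ := by simpa using hτ 1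
  obtain ⟨hdom, hpir⟩ := S18PUR_quotient_isPrincipalIdealRing π τ hπ hn hτ1
  have hπm := S18PUR_mem_maximalIdeal π τ hn
  have hUFD : UniqueFactorizationMonoid R :=
    uniqueFactorizationMonoid_of_isLocalRing (π := π) hπm hπ.ne_zero
  obtain ⟨hfin, n, ⟨b⟩⟩ := S18PUR_exists_basis (B := B) K E π τ hπ hn hτ1
  have hcard : Fintype.card (Fin n) = Module.finrank K E := S18PUR_card_eq_finrank K E b
  have hfπ : algebraMap R (FractionRing (R ⧸ Ideal.span {π})) π = 0 := by
    rw [IsScalarTower.algebraMap_apply R (R ⧸ Ideal.span {π})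
      (FractionRing (R ⧸ Ideal.span {π})), Ideal.Quotient.algebraMap_eq,
      Ideal.Quotient.eq_zero_iff_mem.mpr (Ideal.mem_span_singleton_self π), map_zero]
  have hπd : ¬ π ∣ Algebra.discr R b :=
    S18P4_not_dvd_discr_of_separable b (algebraMap R (FractionRing (R ⧸ Ideal.span {π}))) V P hP
      (by rw [hdeg, hcard]) hPV hli hsep hfπ
  have hd0 : Algebra.discr R b ≠ 0 := fun h => hπd (h ▸ dvd_zero π)
  have hunit : IsUnit (Algebra.discr R b) :=
    S18P4_isUnit_of_forall_prime_not_dvd hd0 (fun g hg hgd => by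
      by_cases hgπ : Associated g π
      · exact hπd (hgπ.symm.dvd.trans hgd)
      · exact hhor g hg hgπ (Fin n) b hgd)
  have hfree : Module.Free R B := Module.Free.of_basis b
  constructor
  · intro x hx
    obtain ⟨s, hs, hsx⟩ := S18B6_exists_mul_mem b hunit M x hx
    rw [hn, Ideal.map_span, Set.image_pair, Ideal.mem_span_pair] at hsx
    obtain ⟨a, c, hac⟩ := hsx
    exact ⟨s, hs, a, c, hac.symm⟩
  · intro k s hs hdvd
    have h1 : algebraMap R B (τ ^ k) * s ∈ Ideal.span {algebraMap R B π} := by
      rw [Ideal.mem_span_singleton, map_pow, mul_comm]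
      exact hdvd
    have h2 := S18P3_mem_span K E π (τ ^ k) hπ (hτ k) s h1
    have h3 : algebraMap R B π ∈ M := S18B6_algebraMap_mem M π hπm
    exact hs ((Ideal.span_singleton_le_iff_mem M).mpr h3 h2)

omit [IsNoetherianRing R] [IsLocalRing R] in
/-- If `P` is monic with `P(V) = 0` and `P` is irreducible over `K`, then the powers
`1, V, …, V ^ (deg P - 1)` are linearly independent over `R`. -/
theorem S18PUR_linearIndependent_of_irreducible (K : Type*) (E : Type*) [Field K] [Algebra R K]
    [IsFractionRing R K] [Field E] [Algebra K E] [Algebra R E] [IsScalarTower R K E]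
    [Algebra B E] [IsScalarTower R B E] [IsIntegralClosure B R E]
    (V : B) (P : Polynomial R) (hP : P.Monic) (hPV : Polynomial.aeval V P = 0)
    (hirr : Irreducible (P.map (algebraMap R K))) :
    LinearIndependent R (fun i : Fin P.natDegree => V ^ (i : ℕ)) := by
  classical
  rw [Fintype.linearIndependent_iff]
  intro c hc
  set v : E := algebraMap B E V with hv
  have hPv : Polynomial.aeval v (P.map (algebraMap R K)) = 0 := by
    rw [Polynomial.aeval_map_algebraMap, hv, Polynomial.aeval_algebraMap_apply, hPV, map_zero]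
  have hmin : P.map (algebraMap R K) = minpoly K v :=
    minpoly.eq_of_irreducible_of_monic hirr hPv (hP.map _)
  set Q : Polynomial R := ∑ i : Fin P.natDegree, Polynomial.C (c i) * Polynomial.X ^ (i : ℕ)
    with hQ
  have hQcoeff : ∀ i : Fin P.natDegree, Q.coeff i = c i := by
    intro i
    rw [hQ, Polynomial.finsetSum_coeff]
    rw [Finset.sum_eq_single i]
    · simp
    · intro j _ hji
      rw [Polynomial.coeff_C_mul, Polynomial.coeff_X_pow, if_neg, mul_zero]
      intro h
      exact hji (Fin.ext h.symm)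
    · intro h; exact absurd (Finset.mem_univ i) h
  have hQdeg : Q.degree < P.natDegree := by
    rw [hQ]
    refine lt_of_le_of_lt (Polynomial.degree_sum_le _ _) ?_
    rw [Finset.sup_lt_iff (by exact WithBot.bot_lt_coe _)]
    intro i _
    refine lt_of_le_of_lt (Polynomial.degree_C_mul_X_pow_le _ _) ?_
    exact_mod_cast i.2
  have hQV : Polynomial.aeval V Q = 0 := by
    rw [hQ, map_sum, ← hc]
    refine Finset.sum_congr rfl fun i _ => ?_
    rw [map_mul, Polynomial.aeval_C, map_pow, Polynomial.aeval_X, Algebra.smul_def]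
  have hQv : Polynomial.aeval v (Q.map (algebraMap R K)) = 0 := by
    rw [Polynomial.aeval_map_algebraMap, hv, Polynomial.aeval_algebraMap_apply, hQV, map_zero]
  have hdvd : minpoly K v ∣ Q.map (algebraMap R K) := minpoly.dvd K v hQv
  have hQ0 : Q.map (algebraMap R K) = 0 := by
    by_contra hne
    have h1 := Polynomial.degree_le_of_dvd hdvd hne
    rw [← hmin, Polynomial.degree_map_eq_of_injective (IsFractionRing.injective R K),
      Polynomial.degree_map_eq_of_injective (IsFractionRing.injective R K),
      Polynomial.degree_eq_natDegree hP.ne_zero] at h1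
    exact absurd hQdeg (not_lt.mpr h1)
  have hQ0' : Q = 0 :=
    Polynomial.map_injective _ (IsFractionRing.injective R K) (by rw [hQ0, Polynomial.map_zero])
  intro i
  rw [← hQcoeff i, hQ0', Polynomial.coeff_zero]

/-- **X-B6-PUR**, variant with `P` irreducible over `K` instead of `hli`. -/
theorem S18B_purity_local_of_irreducible
    {R K E B : Type*} [CommRing R] [IsDomain R] [IsNoetherianRing R] [IsLocalRing R]
    [Field K] [Algebra R K] [IsFractionRing R K] [CharZero K]
    [Field E] [Algebra K E] [Algebra R E] [IsScalarTower R K E] [FiniteDimensional K E]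
    [CommRing B] [Algebra R B] [Algebra B E] [IsScalarTower R B E] [IsIntegralClosure B R E]
    (π τ : R) (hπ : Prime π)
    (hn : IsLocalRing.maximalIdeal R = Ideal.span {π, τ})
    (hτ : ∀ n : ℕ, ¬ π ∣ τ ^ n)
    (hk : ∀ M : Ideal B, M.IsMaximal → ∀ b : B, ∃ r : R, b - algebraMap R B r ∈ M)
    (V : B) (P : Polynomial R) (hP : P.Monic) (hdeg : P.natDegree = Module.finrank K E)
    (hPV : Polynomial.aeval V P = 0)
    (hirr : Irreducible (P.map (algebraMap R K)))
    (hsep : (P.map (algebraMap R (FractionRing (R ⧸ Ideal.span {π})))).Separable)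
    (hhor : ∀ g : R, Prime g → ¬ Associated g π →
        ∀ (ι : Type) [Fintype ι] [DecidableEq ι] (b : Module.Basis ι R B),
          ¬ g ∣ Algebra.discr R b) :
    ∀ M : Ideal B, M.IsMaximal →
      (∀ x ∈ M, ∃ s, s ∉ M ∧ ∃ a b : B, s * x = a * algebraMap R B π + b * algebraMap R B τ) ∧
      ∀ (n : ℕ) (s : B), s ∉ M → ¬ algebraMap R B π ∣ s * algebraMap R B τ ^ n :=
  S18B_purity_local π τ hπ hn hτ hk V P hP hdeg hPV
    (S18PUR_linearIndependent_of_irreducible K E V P hP hPV hirr) hsep hhor

/-- **X-B6-PUR**, variant with the REDUCTION of `P` irreducible over some field `κ`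
(e.g. `κ = Frac (R ⧸ π)`, `P mod π` the minimal polynomial of a primitive element). -/
theorem S18B_purity_local_of_irreducible_map
    {R K E B κ : Type*} [CommRing R] [IsDomain R] [IsNoetherianRing R] [IsLocalRing R]
    [Field K] [Algebra R K] [IsFractionRing R K] [CharZero K]
    [Field E] [Algebra K E] [Algebra R E] [IsScalarTower R K E] [FiniteDimensional K E]
    [CommRing B] [Algebra R B] [Algebra B E] [IsScalarTower R B E] [IsIntegralClosure B R E]
    [Field κ] (f : R →+* κ)
    (π τ : R) (hπ : Prime π)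
    (hn : IsLocalRing.maximalIdeal R = Ideal.span {π, τ})
    (hτ : ∀ n : ℕ, ¬ π ∣ τ ^ n)
    (hk : ∀ M : Ideal B, M.IsMaximal → ∀ b : B, ∃ r : R, b - algebraMap R B r ∈ M)
    (V : B) (P : Polynomial R) (hP : P.Monic) (hdeg : P.natDegree = Module.finrank K E)
    (hPV : Polynomial.aeval V P = 0)
    (hirr : Irreducible (P.map f))
    (hsep : (P.map (algebraMap R (FractionRing (R ⧸ Ideal.span {π})))).Separable)
    (hhor : ∀ g : R, Prime g → ¬ Associated g π →
        ∀ (ι : Type) [Fintype ι] [DecidableEq ι] (b : Module.Basis ι R B),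
          ¬ g ∣ Algebra.discr R b) :
    ∀ M : Ideal B, M.IsMaximal →
      (∀ x ∈ M, ∃ s, s ∉ M ∧ ∃ a b : B, s * x = a * algebraMap R B π + b * algebraMap R B τ) ∧
      ∀ (n : ℕ) (s : B), s ∉ M → ¬ algebraMap R B π ∣ s * algebraMap R B τ ^ n := by
  have hτ1 : ¬ π ∣ τ := by simpa using hτ 1
  obtain ⟨hdom, hpir⟩ := S18PUR_quotient_isPrincipalIdealRing π τ hπ hn hτ1
  have hπm := S18PUR_mem_maximalIdeal π τ hn
  have hUFD : UniqueFactorizationMonoid R :=
    uniqueFactorizationMonoid_of_isLocalRing (π := π) hπm hπ.ne_zero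
  have h1 : Irreducible P := hP.irreducible_of_irreducible_map f P hirr
  have h2 : Irreducible (P.map (algebraMap R K)) :=
    (Polynomial.Monic.irreducible_iff_irreducible_map_fraction_map hP).mp h1
  exact S18B_purity_local_of_irreducible π τ hπ hn hτ hk V P hP hdeg hPV h2 hsep hhor

end Main

end Fermat.Agent.S18_helper28_PUR
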