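import Mathlib
import Fermat.Agent.S18_helper28_PUR

/-!
# S18 block B, piece X-B6-PUR (helper28): purity, local form, WITHOUT the binder `hk`

Same statements as in `S18_helper28_PUR`, with the (unused) hypothesis `hk`
("the residue fields of `B` are trivial over `R`") removed, as requested by the block B owner.
-/

set_option autoImplicit false
set_option linter.unusedSectionVars false

namespace Fermat.Agent.S18_helper28_PUR2

open Fermat.Agent.S18_helper4_P2 Fermat.Agent.S18_helper25_P3 Fermat.Agent.S18_helper3_P5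
  Fermat.Agent.S18_helper24_DISC Fermat.Agent.S18_helper4_B6 Fermat.Agent.S18_helper28_PUR

/-- **X-B6-PUR, purity in local form**, without `hk`. -/
theorem S18B_purity_local_nohk
    {R K E B : Type*} [CommRing R] [IsDomain R] [IsNoetherianRing R] [IsLocalRing R]
    [Field K] [Algebra R K] [IsFractionRing R K] [CharZero K]
    [Field E] [Algebra K E] [Algebra R E] [IsScalarTower R K E] [FiniteDimensional K E]
    [CommRing B] [Algebra R B] [Algebra B E] [IsScalarTower R B E] [IsIntegralClosure B R E]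
    (π τ : R) (hπ : Prime π)
    (hn : IsLocalRing.maximalIdeal R = Ideal.span {π, τ})
    (hτ : ∀ n : ℕ, ¬ π ∣ τ ^ n)
    (V : B) (P : Polynomial R) (hP : P.Monic) (hdeg : P.natDegree = Module.finrank K E)
    (hPV : Polynomial.aeval V P = 0)
    (hli : LinearIndependent R (fun i : Fin P.natDegree => V ^ (i : ℕ)))
    (hsep : (P.map (algebraMap R (FractionRing (R ⧸ Ideal.span {π})))).Separable)
    (hhor : ∀ g : R, Prime g → ¬ Associated g π →
        ∀ (ι : Type) [Fintype ι] [DecidableEq ι] (b : Module.Basis ι R B),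
          ¬ g ∣ Algebra.discr R b) :
    ∀ M : Ideal B, M.IsMaximal →
      (∀ x ∈ M, ∃ s, s ∉ M ∧ ∃ a b : B, s * x = a * algebraMap R B π + b * algebraMap R B τ) ∧
      ∀ (n : ℕ) (s : B), s ∉ M → ¬ algebraMap R B π ∣ s * algebraMap R B τ ^ n := by
  classical
  intro M hM
  have hτ1 : ¬ π ∣ τ := by simpa using hτ 1
  obtain ⟨hdom, hpir⟩ := S18PUR_quotient_isPrincipalIdealRing π τ hπ hn hτ1
  have hπm := S18PUR_mem_maximalIdeal π τ hn
  have hUFD : UniqueFactorizationMonoid R :=
    uniqueFactorizationMonoid_of_isLocalRing (π := π) hπm hπ.ne_zero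
  obtain ⟨hfin, n, ⟨b⟩⟩ := S18PUR_exists_basis (B := B) K E π τ hπ hn hτ1
  have hcard : Fintype.card (Fin n) = Module.finrank K E := S18PUR_card_eq_finrank K E b
  have hfπ : algebraMap R (FractionRing (R ⧸ Ideal.span {π})) π = 0 := by
    rw [IsScalarTower.algebraMap_apply R (R ⧸ Ideal.span {π})
      (FractionRing (R ⧸ Ideal.span {π})), Ideal.Quotient.algebraMap_eq,
      Ideal.Quotient.eq_zero_iff_mem.mpr (Ideal.mem_span_singleton_self π), map_zero]
  have hπd : ¬ π ∣ Algebra.discr R b :=
    S18P4_not_dvd_discr_of_separable b (algebraMap R (FractionRing (R ⧸ Ideal.span {π}))) V P hP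
      (by rw [hdeg, hcard]) hPV hli hsep hfπ
  have hd0 : Algebra.discr R b ≠ 0 := fun h => hπd (h ▸ dvd_zero π)
  have hunit : IsUnit (Algebra.discr R b) :=
    S18P4_isUnit_of_forall_prime_not_dvd hd0 (fun g hg hgd => by
      by_cases hgπ : Associated g π
      · exact hπd (hgπ.symm.dvd.trans hgd)
      · exact hhor g hg hgπ (Fin n) b hgd)
  have hfree : Module.Free R B := Module.Free.of_basis b
  constructor
  · intro x hx
    obtain ⟨s, hs, hsx⟩ := S18B6_exists_mul_mem b hunit M x hx
    rw [hn, Ideal.map_span, Set.image_pair, Ideal.mem_span_pair] at hsx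
    obtain ⟨a, c, hac⟩ := hsx
    exact ⟨s, hs, a, c, hac.symm⟩
  · intro k s hs hdvd
    have h1 : algebraMap R B (τ ^ k) * s ∈ Ideal.span {algebraMap R B π} := by
      rw [Ideal.mem_span_singleton, map_pow, mul_comm]
      exact hdvd
    have h2 := S18P3_mem_span K E π (τ ^ k) hπ (hτ k) s h1
    have h3 : algebraMap R B π ∈ M := S18B6_algebraMap_mem M π hπm
    exact hs ((Ideal.span_singleton_le_iff_mem M).mpr h3 h2)

/-- **X-B6-PUR** without `hk`, variant with `P` irreducible over `K` instead of `hli`. -/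
theorem S18B_purity_local_of_irreducible_nohk
    {R K E B : Type*} [CommRing R] [IsDomain R] [IsNoetherianRing R] [IsLocalRing R]
    [Field K] [Algebra R K] [IsFractionRing R K] [CharZero K]
    [Field E] [Algebra K E] [Algebra R E] [IsScalarTower R K E] [FiniteDimensional K E]
    [CommRing B] [Algebra R B] [Algebra B E] [IsScalarTower R B E] [IsIntegralClosure B R E]
    (π τ : R) (hπ : Prime π)
    (hn : IsLocalRing.maximalIdeal R = Ideal.span {π, τ})
    (hτ : ∀ n : ℕ, ¬ π ∣ τ ^ n)
    (V : B) (P : Polynomial R) (hP : P.Monic) (hdeg : P.natDegree = Module.finrank K E)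
    (hPV : Polynomial.aeval V P = 0)
    (hirr : Irreducible (P.map (algebraMap R K)))
    (hsep : (P.map (algebraMap R (FractionRing (R ⧸ Ideal.span {π})))).Separable)
    (hhor : ∀ g : R, Prime g → ¬ Associated g π →
        ∀ (ι : Type) [Fintype ι] [DecidableEq ι] (b : Module.Basis ι R B),
          ¬ g ∣ Algebra.discr R b) :
    ∀ M : Ideal B, M.IsMaximal →
      (∀ x ∈ M, ∃ s, s ∉ M ∧ ∃ a b : B, s * x = a * algebraMap R B π + b * algebraMap R B τ) ∧
      ∀ (n : ℕ) (s : B), s ∉ M → ¬ algebraMap R B π ∣ s * algebraMap R B τ ^ n :=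
  S18B_purity_local_nohk π τ hπ hn hτ V P hP hdeg hPV
    (S18PUR_linearIndependent_of_irreducible K E V P hP hPV hirr) hsep hhor

/-- **X-B6-PUR** without `hk`, with the hypothesis `hgen : K(V) = E` in place of `hli`, for
`P = minpoly R V` data: `hli` in the form "every polynomial of degree `< deg P` killing `V`
vanishes". -/
theorem S18B_purity_local_of_minimal_nohk
    {R K E B : Type*} [CommRing R] [IsDomain R] [IsNoetherianRing R] [IsLocalRing R]
    [Field K] [Algebra R K] [IsFractionRing R K] [CharZero K]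
    [Field E] [Algebra K E] [Algebra R E] [IsScalarTower R K E] [FiniteDimensional K E]
    [CommRing B] [Algebra R B] [Algebra B E] [IsScalarTower R B E] [IsIntegralClosure B R E]
    (π τ : R) (hπ : Prime π)
    (hn : IsLocalRing.maximalIdeal R = Ideal.span {π, τ})
    (hτ : ∀ n : ℕ, ¬ π ∣ τ ^ n)
    (V : B) (P : Polynomial R) (hP : P.Monic) (hdeg : P.natDegree = Module.finrank K E)
    (hPV : Polynomial.aeval V P = 0)
    (hmin : ∀ Q : Polynomial R, Polynomial.aeval V Q = 0 → P ∣ Q)
    (hsep : (P.map (algebraMap R (FractionRing (R ⧸ Ideal.span {π})))).Separable)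
    (hhor : ∀ g : R, Prime g → ¬ Associated g π →
        ∀ (ι : Type) [Fintype ι] [DecidableEq ι] (b : Module.Basis ι R B),
          ¬ g ∣ Algebra.discr R b) :
    ∀ M : Ideal B, M.IsMaximal →
      (∀ x ∈ M, ∃ s, s ∉ M ∧ ∃ a b : B, s * x = a * algebraMap R B π + b * algebraMap R B τ) ∧
      ∀ (n : ℕ) (s : B), s ∉ M → ¬ algebraMap R B π ∣ s * algebraMap R B τ ^ n := by
  classical
  refine S18B_purity_local_nohk π τ hπ hn hτ V P hP hdeg hPV ?_ hsep hhor
  rw [Fintype.linearIndependent_iff]
  intro c hc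
  set Q : Polynomial R := ∑ i : Fin P.natDegree, Polynomial.C (c i) * Polynomial.X ^ (i : ℕ)
    with hQ
  have hQcoeff : ∀ i : Fin P.natDegree, Q.coeff i = c i := by
    intro i
    rw [hQ, Polynomial.finsetSum_coeff]
    rw [Finset.sum_eq_single i]
    · simp
    · intro j _ hji
      rw [Polynomial.coeff_C_mul, Polynomial.coeff_X_pow, if_neg, mul_zero]
      intro h
      exact hji (Fin.ext h.symm)
    · intro h; exact absurd (Finset.mem_univ i) h
  have hQdeg : Q.degree < P.natDegree := by
    rw [hQ]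
    refine lt_of_le_of_lt (Polynomial.degree_sum_le _ _) ?_
    rw [Finset.sup_lt_iff (by exact WithBot.bot_lt_coe _)]
    intro i _
    refine lt_of_le_of_lt (Polynomial.degree_C_mul_X_pow_le _ _) ?_
    exact_mod_cast i.2
  have hQV : Polynomial.aeval V Q = 0 := by
    rw [hQ, map_sum, ← hc]
    refine Finset.sum_congr rfl fun i _ => ?_
    rw [map_mul, Polynomial.aeval_C, map_pow, Polynomial.aeval_X, Algebra.smul_def]
  have hdvd : P ∣ Q := hmin Q hQV
  have hQ0 : Q = 0 := by
    by_contra hne
    have h1 := Polynomial.degree_le_of_dvd hdvd hne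
    rw [Polynomial.degree_eq_natDegree hP.ne_zero] at h1
    exact absurd hQdeg (not_lt.mpr h1)
  intro i
  rw [← hQcoeff i, hQ0, Polynomial.coeff_zero]

end Fermat.Agent.S18_helper28_PUR2
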