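import Mathlib

/-!
# S18 block B glue (M2a): `E = K(V)`

If `F1` is generated by `x, V` over `O` (in the fraction form `hVgen`), `E = F1(t)`, and `K ⊆ E`
is a field containing `O`, `x`, `t`, then `K⟮V⟯ = E`.
-/

set_option autoImplicit false

namespace Fermat.Agent.S18_helper3_ADJV

open Polynomial

/-- (M2a) `E = K(V)`: if `F1` is generated by `x, V` over `O` (hVgen) and `E = F1(t)`, and `K ⊆ E`
is a subfield containing `O`, `x`, `t`, then `K⟮V⟯ = ⊤`. -/
theorem S18B_adjoin_V_eq_top {O F1 A : Type} [CommRing O] [Field F1] [Algebra O F1]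
    [CommRing A] [Algebra O A] [Algebra A F1] [IsScalarTower O A F1]
    (x V : A)
    (hVgen : ∀ y : F1, ∃ (num : Polynomial O[X]) (den : O[X]), den ≠ 0 ∧
      y * algebraMap A F1 (aeval x den) =
        algebraMap A F1 (aeval V (num.map (aeval x : O[X] →ₐ[O] A).toRingHom)))
    (hx : Transcendental O x) [FaithfulSMul A F1]
    (E : Type) [Field E] [Algebra F1 E] [Algebra O E] [IsScalarTower O F1 E]
    [Algebra A E] [IsScalarTower A F1 E] [IsScalarTower O A E]
    (t : E) (hgen : IntermediateField.adjoin F1 {t} = ⊤)
    (K : Type) [Field K] [Algebra K E] [Algebra O K] [IsScalarTower O K E]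
    (xK tK : K) (hxK : algebraMap K E xK = algebraMap A E x) (htK : algebraMap K E tK = t) :
    IntermediateField.adjoin K {algebraMap A E V} = ⊤ := by
  set M := IntermediateField.adjoin K {algebraMap A E V} with hM
  -- polynomials in `x` land in `K`
  have hxM : ∀ q : O[X], algebraMap A E (aeval x q) ∈ M := by
    intro q
    have h1 : algebraMap A E (aeval x q) = algebraMap K E (aeval xK q) := by
      rw [← aeval_algebraMap_apply, ← aeval_algebraMap_apply, hxK]
    rw [h1]
    exact M.algebraMap_mem _
  have hVM : algebraMap A E V ∈ M := IntermediateField.mem_adjoin_simple_self K _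
  have htM : t ∈ M := by
    rw [← htK]
    exact M.algebraMap_mem _
  have hF1 : ∀ y : F1, algebraMap F1 E y ∈ M := by
    intro y
    obtain ⟨num, den, hden, h⟩ := hVgen y
    have hden' : algebraMap A F1 (aeval x den) ≠ 0 := by
      intro h0
      have h1 : aeval x den = 0 :=
        (FaithfulSMul.algebraMap_injective A F1) (by rw [h0, map_zero])
      exact hden ((transcendental_iff.1 hx) den h1)
    have hE := congrArg (algebraMap F1 E) h
    rw [map_mul, ← IsScalarTower.algebraMap_apply A F1 E,
      ← IsScalarTower.algebraMap_apply A F1 E] at hE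
    have hden'' : algebraMap A E (aeval x den) ≠ 0 := by
      rw [IsScalarTower.algebraMap_apply A F1 E]
      exact (_root_.map_ne_zero _).2 hden'
    have hnum : algebraMap A E (aeval V (num.map (aeval x : O[X] →ₐ[O] A).toRingHom)) ∈ M := by
      rw [aeval_def, eval₂_map, eval₂_eq_sum_range, map_sum]
      refine sum_mem fun i _ => ?_
      rw [map_mul, map_pow]
      refine M.mul_mem ?_ (pow_mem hVM i)
      simp only [RingHom.coe_comp, Function.comp_apply, Algebra.algebraMap_self,
        RingHom.id_apply, AlgHom.toRingHom_eq_coe, RingHom.coe_coe]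
      exact hxM _
    have hy : algebraMap F1 E y =
        algebraMap A E (aeval V (num.map (aeval x : O[X] →ₐ[O] A).toRingHom)) /
          algebraMap A E (aeval x den) := by
      rw [eq_div_iff hden'']
      exact hE
    rw [hy]
    exact M.div_mem hnum (hxM den)
  rw [eq_top_iff]
  intro z _
  have hz : z ∈ IntermediateField.adjoin F1 {t} := by
    rw [hgen]
    trivial
  induction hz using IntermediateField.adjoin_induction with
  | mem w hw =>
    rw [Set.mem_singleton_iff] at hw
    rw [hw]
    exact htM
  | algebraMap y => exact hF1 y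
  | add a b _ _ ha hb => exact M.add_mem (ha trivial) (hb trivial)
  | inv a _ ha => exact M.inv_mem (ha trivial)
  | mul a b _ _ ha hb => exact M.mul_mem (ha trivial) (hb trivial)

end Fermat.Agent.S18_helper3_ADJV
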