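import Mathlib

/-!
# S18, block B glue M3: the kernel of `p ↦ p(An/Bd)` modulo `π` is `(π)`
-/

set_option autoImplicit false

namespace Fermat.Agent.S18_helper5_KERNEL

open Polynomial

/-- An element of a field extension of an algebraically closed field `k` which is algebraic
over `k` lies in `k`. -/
theorem S18KER_mem_range_of_isAlgebraic {k K : Type*} [Field k] [IsAlgClosed k] [Field K]
    [Algebra k K] {θ : K} (hθ : IsAlgebraic k θ) : ∃ c : k, algebraMap k K c = θ := by
  have hint : IsIntegral k θ := hθ.isIntegral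
  have hirr : Irreducible (minpoly k θ) := minpoly.irreducible hint
  have hdeg : (minpoly k θ).degree = 1 := IsAlgClosed.degree_eq_one_of_irreducible k hirr
  exact minpoly.mem_range_of_degree_eq_one k θ hdeg

/-- Divisibility by the constant `π` is the vanishing of the reduction modulo `π`. -/
theorem S18KER_C_dvd_iff {O : Type} [CommRing O] [IsLocalRing O] (π : O)
    (hπ : IsLocalRing.maximalIdeal O = Ideal.span {π}) (q : O[X]) :
    C π ∣ q ↔ q.map (IsLocalRing.residue O) = 0 := by
  rw [Polynomial.C_dvd_iff_dvd_coeff]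
  constructor
  · intro h
    ext i
    rw [coeff_map, coeff_zero, IsLocalRing.residue_eq_zero_iff, hπ, Ideal.mem_span_singleton]
    exact h i
  · intro h i
    have := congrArg (fun r => r.coeff i) h
    simp only [coeff_map, coeff_zero] at this
    rw [IsLocalRing.residue_eq_zero_iff, hπ, Ideal.mem_span_singleton] at this
    exact this

/-- Homogenisation over a field: if `b ≠ 0` and `∑ pᵢ aⁱ b^(d-i) = 0` with `deg p ≤ d`, then
`a / b` is a root of `p` in the fraction field. -/
theorem S18KER_aeval_div_eq_zero {k : Type*} [Field k] (a b p : k[X]) (hb : b ≠ 0) (d : ℕ)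
    (hd : p.natDegree ≤ d)
    (h : ∑ i ∈ Finset.range (d + 1), C (p.coeff i) * a ^ i * b ^ (d - i) = 0) :
    aeval (algebraMap k[X] (RatFunc k) a / algebraMap k[X] (RatFunc k) b) p = 0 := by
  set φ := algebraMap k[X] (RatFunc k) with hφ
  have hφb : φ b ≠ 0 := by
    intro h0
    apply hb
    apply (IsFractionRing.injective k[X] (RatFunc k))
    rw [map_zero]; exact h0
  have hmul : (φ b) ^ d * aeval (φ a / φ b) p = 0 := by
    rw [aeval_eq_sum_range' (Nat.lt_succ_of_le hd), Finset.mul_sum]
    have := congrArg φ h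
    rw [map_sum, map_zero] at this
    rw [← this]
    refine Finset.sum_congr rfl ?_
    intro i hi
    have hi' : i ≤ d := Nat.lt_succ_iff.1 (Finset.mem_range.1 hi)
    rw [map_mul, map_mul, map_pow, map_pow, Algebra.smul_def, div_pow]
    have h1 : (φ b) ^ d = (φ b) ^ i * (φ b) ^ (d - i) := by
      rw [← pow_add, Nat.add_sub_cancel' hi']
    have h2 : algebraMap k (RatFunc k) (p.coeff i) = φ (C (p.coeff i)) := by
      rw [hφ, IsScalarTower.algebraMap_apply k k[X] (RatFunc k), Polynomial.algebraMap_eq]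
    rw [h1, h2]
    field_simp
  rcases mul_eq_zero.1 hmul with h0 | h0
  · exact absurd h0 (pow_ne_zero d hφb)
  · exact h0

/-- Over an algebraically closed field: if `a`, `b` are linearly independent polynomials
(`a ≠ c b` for all constants `c`, and `b ≠ 0`), then the homogenisation of a nonzero polynomial
`p` of degree `≤ d` evaluated at `(a, b)` is nonzero. -/
theorem S18KER_field {k : Type*} [Field k] [IsAlgClosed k] (a b p : k[X]) (hb : b ≠ 0)
    (hab : ∀ c : k, a ≠ C c * b) (d : ℕ) (hd : p.natDegree ≤ d)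
    (h : ∑ i ∈ Finset.range (d + 1), C (p.coeff i) * a ^ i * b ^ (d - i) = 0) :
    p = 0 := by
  by_contra hp
  have hroot := S18KER_aeval_div_eq_zero a b p hb d hd h
  obtain ⟨c, hc⟩ := S18KER_mem_range_of_isAlgebraic
    (⟨p, hp, hroot⟩ : IsAlgebraic k
      (algebraMap k[X] (RatFunc k) a / algebraMap k[X] (RatFunc k) b))
  apply hab c
  have hφb : algebraMap k[X] (RatFunc k) b ≠ 0 := by
    intro h0
    apply hb
    apply (IsFractionRing.injective k[X] (RatFunc k))
    rw [map_zero]; exact h0
  apply (IsFractionRing.injective k[X] (RatFunc k))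
  rw [map_mul, ← Polynomial.algebraMap_eq, ← IsScalarTower.algebraMap_apply k k[X] (RatFunc k),
    hc, div_mul_cancel₀ _ hφb]

/-- **(M3) KERNEL**: the reduced cover is non-constant, hence `p ↦ p(An/Bd)` is injective modulo
`π`: if `π` divides the homogenisation `∑ pᵢ Anⁱ Bd^(d-i)` then `π` divides `p`. -/
theorem S18B_cover_kernel {O : Type} [CommRing O] [IsDomain O] [IsLocalRing O]
    [IsAlgClosed (IsLocalRing.ResidueField O)] (π : O)
    (hπ : IsLocalRing.maximalIdeal O = Ideal.span {π}) (hπ' : Prime π)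
    (An Bd : O[X]) (hnc : ∀ c d : O, C π ∣ (C c * An - C d * Bd) → π ∣ c ∧ π ∣ d)
    (p : O[X]) (d : ℕ) (hd : p.natDegree ≤ d)
    (h : C π ∣ ∑ i ∈ Finset.range (d + 1), C (p.coeff i) * An ^ i * Bd ^ (d - i)) :
    C π ∣ p := by
  rw [S18KER_C_dvd_iff π hπ] at h ⊢
  have hnot1 : ¬ π ∣ (1 : O) := fun h1 => hπ'.not_isUnit (isUnit_of_dvd_one h1)
  have hb : Bd.map (IsLocalRing.residue O) ≠ 0 := by
    intro hb
    have h1 : C π ∣ (C (0 : O) * An - C (1 : O) * Bd) := by
      rw [S18KER_C_dvd_iff π hπ]
      simp [hb]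
    exact hnot1 (hnc 0 1 h1).2
  have hab : ∀ c : IsLocalRing.ResidueField O,
      An.map (IsLocalRing.residue O) ≠ C c * Bd.map (IsLocalRing.residue O) := by
    intro c hc
    obtain ⟨c', rfl⟩ := IsLocalRing.residue_surjective c
    have h1 : C π ∣ (C (1 : O) * An - C c' * Bd) := by
      rw [S18KER_C_dvd_iff π hπ]
      simp [hc]
    exact hnot1 (hnc 1 c' h1).1
  refine S18KER_field _ _ _ hb hab d ((natDegree_map_le).trans hd) ?_
  rw [← h, Polynomial.map_sum]
  refine Finset.sum_congr rfl ?_
  intro i _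
  simp [coeff_map]

end Fermat.Agent.S18_helper5_KERNEL
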