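import Mathlib
import Fermat.Agent.S18_helper17_BDefs
import Fermat.Agent.S18_helper17_BASE
import Fermat.Agent.S18_helper28_PUR2
import Fermat.Agent.S18_helper24_MINPOLY
import Fermat.Agent.S18_helper5_KERNEL
import Fermat.Agent.S18_helper3_ADJV

set_option autoImplicit false
set_option linter.unusedSectionVars false
set_option linter.style.haveILetI false
set_option linter.unusedVariables false

namespace Fermat.Agent.S18_helper17_LOC

open Polynomial Fermat.Agent.S18_helper17_BDefs Fermat.Agent.S18_helper17_BASE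
  Fermat.Agent.S18_helper5_KERNEL Fermat.Agent.S18_helper3_ADJV

section loc

variable {O : Type} [CommRing O] [IsDomain O] [IsDiscreteValuationRing O]
    {F1 : Type} [Field F1] [CharZero F1] [Algebra O F1] [FaithfulSMul O F1]
    {A : Type} [CommRing A] [Algebra O A] [Algebra A F1] [IsScalarTower O A F1]
    [FaithfulSMul A F1]

/-- If `π ∣` (image of `q`) in `R`, then `C π ∣ q` in `O[X]`. -/
theorem S18B_R_dvd_iff (π t₀ : O) [hn : (Ideal.span {C π, X - C t₀} : Ideal O[X]).IsPrime]
    (R : Type) [CommRing R] [Algebra O[X] R]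
    [IsLocalization.AtPrime R (Ideal.span {C π, X - C t₀} : Ideal O[X])]
    (hπ : Prime π) (q : O[X]) :
    algebraMap O[X] R (C π) ∣ algebraMap O[X] R q ↔ C π ∣ q := by
  constructor
  · rintro ⟨c, hc⟩
    obtain ⟨⟨a, s⟩, hs⟩ := IsLocalization.surj
      (Ideal.span {C π, X - C t₀} : Ideal O[X]).primeCompl c
    simp only at hs
    have h2 : algebraMap O[X] R (q * (s : O[X])) = algebraMap O[X] R (C π * a) := by
      rw [map_mul, map_mul, hc, ← hs]; ring
    have h3 := S18B_R_injective π t₀ R h2
    have hCπ : Prime (C π : O[X]) := prime_C_iff.2 hπ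
    have h4 : C π ∣ q * (s : O[X]) := ⟨a, h3⟩
    rcases hCπ.dvd_or_dvd h4 with h5 | h5
    · exact h5
    · exact absurd (Ideal.mem_of_dvd _ h5 (Ideal.subset_span (by simp))) s.2
  · rintro ⟨c, rfl⟩
    exact ⟨algebraMap O[X] R c, by rw [map_mul]⟩


/-- kernel of `R → Frac (R/π)` -/
theorem S18B_frac_quot_eq_zero_iff {R : Type*} [CommRing R] (π : R)
    [hp : (Ideal.span {π} : Ideal R).IsPrime] (r : R) :
    algebraMap R (FractionRing (R ⧸ Ideal.span {π})) r = 0 ↔ π ∣ r := by
  rw [IsScalarTower.algebraMap_apply R (R ⧸ Ideal.span {π}) (FractionRing (R ⧸ Ideal.span {π})),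
    map_eq_zero_iff _ (IsFractionRing.injective (R ⧸ Ideal.span {π})
      (FractionRing (R ⧸ Ideal.span {π}))),
    Ideal.Quotient.algebraMap_eq, Ideal.Quotient.eq_zero_iff_mem, Ideal.mem_span_singleton]

theorem S18B_hloc_abs
    (π : O) (hπ : Irreducible π) [hk : IsAlgClosed (IsLocalRing.ResidueField O)]
    (x : A) (hx : Transcendental O x)
    (V : A) (P₀ : Polynomial O[X]) (hP₀ : P₀.Monic)
    (hP₀V : aeval V (P₀.map (aeval x : O[X] →ₐ[O] A).toRingHom) = 0)
    (hVgen : ∀ y : F1, ∃ (num : Polynomial O[X]) (den : O[X]), den ≠ 0 ∧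
      y * algebraMap A F1 (aeval x den) =
        algebraMap A F1 (aeval V (num.map (aeval x : O[X] →ₐ[O] A).toRingHom)))
    (hsep : ∀ (κ : Type) [Field κ] (f : O[X] →+* κ), (∀ p, f p = 0 ↔ C π ∣ p) →
      (P₀.map f).Separable)
    (An Bd : O[X]) (hcov : S18B_Cover O F1 π (algebraMap A F1 x) An Bd)
    (E : Type) [Field E] [Algebra F1 E]
    [Algebra O E] [IsScalarTower O F1 E] [Algebra A E] [IsScalarTower A F1 E]
    [IsScalarTower O A E]
    (t : E) (ht : S18B_rel (algebraMap A F1 x) An Bd E t)
    (hgen : IntermediateField.adjoin F1 {t} = ⊤)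
    (t₀ : O) (hBd : ¬ π ∣ Bd.eval t₀)
    [hn : (Ideal.span {C π, X - C t₀} : Ideal O[X]).IsPrime]
    (R : Type) [CommRing R] [IsDomain R] [Algebra O[X] R]
    [IsLocalization.AtPrime R (Ideal.span {C π, X - C t₀} : Ideal O[X])] [Algebra R E]
    (hRt : ∀ p : O[X], algebraMap R E (algebraMap O[X] R p) = aeval t p)
    (K : Type) [Field K] [Algebra R K] [IsFractionRing R K] [Algebra K E] [IsScalarTower R K E]
    (hhor : S18B_Hor O F1 π (algebraMap A F1 x) An Bd t₀) :
    ∀ M : Ideal (integralClosure R E), M.IsMaximal →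
      (∀ y ∈ M, ∃ s, s ∉ M ∧ ∃ a b : integralClosure R E,
        s * y = a * algebraMap R (integralClosure R E) (algebraMap O[X] R (C π))
          + b * algebraMap R (integralClosure R E) (algebraMap O[X] R (X - C t₀))) ∧
      ∀ (n : ℕ) (s : integralClosure R E), s ∉ M →
        ¬ algebraMap R (integralClosure R E) (algebraMap O[X] R (C π)) ∣
          s * algebraMap R (integralClosure R E) (algebraMap O[X] R (X - C t₀)) ^ n := by
  classical
  haveI : IsLocalRing R :=
    IsLocalization.AtPrime.isLocalRing R (Ideal.span {C π, X - C t₀} : Ideal O[X])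
  haveI : IsNoetherianRing R := S18B_R_isNoetherianRing π t₀ R
  have hπp : Prime π := hπ.prime
  have hmax := S18B_R_maximalIdeal π t₀ R
  have hπR := S18B_R_prime π t₀ R hπp
  have hτR := S18B_R_not_dvd_pow π t₀ R hπp
  -- characteristic zero
  haveI : CharZero E := charZero_of_injective_algebraMap (algebraMap F1 E).injective
  haveI : CharZero K := by
    refine ⟨fun a b hab => ?_⟩
    have := congrArg (algebraMap K E) hab
    simpa using this
  -- the coordinate `x` inside `R`
  have hBdn : Bd ∈ (Ideal.span {C π, X - C t₀} : Ideal O[X]).primeCompl := by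
    show Bd ∉ (Ideal.span {C π, X - C t₀} : Ideal O[X])
    rw [S18B_mem_n0_iff]; exact hBd
  obtain ⟨u, hu⟩ : IsUnit (algebraMap O[X] R Bd) :=
    IsLocalization.map_units R (⟨Bd, hBdn⟩ : (Ideal.span {C π, X - C t₀} : Ideal O[X]).primeCompl)
  set xR : R := algebraMap O[X] R An * ↑u⁻¹ with hxR
  have hBdE : aeval t Bd ≠ 0 := hcov.den_ne E t ht
  have hxE : algebraMap A E x = algebraMap F1 E (algebraMap A F1 x) :=
    IsScalarTower.algebraMap_apply A F1 E x
  have hxRE : algebraMap R E xR = algebraMap A E x := by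
    have h1 : algebraMap R E (↑u⁻¹ : R) * aeval t Bd = 1 := by
      rw [← hRt Bd, ← hu, ← map_mul, Units.inv_mul, map_one]
    have h2 : algebraMap R E (↑u⁻¹ : R) = (aeval t Bd)⁻¹ := eq_inv_of_mul_eq_one_left h1
    rw [hxR, map_mul, hRt, h2, hxE]
    have := ht
    unfold S18B_rel at this
    rw [this, mul_assoc, mul_inv_cancel₀ hBdE, mul_one]
  set ψ : O[X] →+* R := eval₂RingHom ((algebraMap O[X] R).comp C) xR with hψ
  have hψC : ∀ a : O, ψ (C a) = algebraMap O[X] R (C a) := fun a => by
    simp [hψ]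
  have hψX : ψ X = xR := by simp [hψ]
  have hcomp : (algebraMap R E).comp ψ =
      (algebraMap A E).comp (aeval x : O[X] →ₐ[O] A).toRingHom := by
    apply Polynomial.ringHom_ext
    · intro a
      simp only [RingHom.comp_apply, hψC, hRt, aeval_C, AlgHom.toRingHom_eq_coe,
        RingHom.coe_coe]
      rw [← IsScalarTower.algebraMap_apply]
    · simp only [RingHom.comp_apply, hψX, hxRE, AlgHom.toRingHom_eq_coe, RingHom.coe_coe,
        aeval_X]
  -- the generic étale element
  set P₁ : R[X] := P₀.map ψ with hP₁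
  have hP₁m : P₁.Monic := hP₀.map ψ
  have hV₁ : eval₂ (algebraMap R E) (algebraMap A E V) P₁ = 0 := by
    rw [hP₁, eval₂_map, hcomp, ← eval₂_map, ← Polynomial.aeval_def,
      Polynomial.aeval_algebraMap_apply, hP₀V, map_zero]
  set VB : integralClosure R E := ⟨algebraMap A E V, ⟨P₁, hP₁m, hV₁⟩⟩ with hVB
  have hVB0 : aeval VB P₁ = 0 := by
    apply Subtype.ext
    have h := Polynomial.aeval_algebraMap_apply E VB P₁
    rw [show algebraMap (integralClosure R E) E VB = algebraMap A E V from rfl,
      Polynomial.aeval_def, hV₁] at h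
    exact h.symm
  -- `O`-algebra structures on `R` and `K`
  letI : Algebra O R := ((algebraMap O[X] R).comp C).toAlgebra
  letI : Algebra O K := ((algebraMap R K).comp (algebraMap O R)).toAlgebra
  haveI : IsScalarTower O K E := IsScalarTower.of_algebraMap_eq fun a => by
    show algebraMap O E a = algebraMap K E (algebraMap R K (algebraMap O[X] R (C a)))
    rw [← IsScalarTower.algebraMap_apply R K E, hRt, aeval_C]
  have hgenV : IntermediateField.adjoin K {algebraMap A E V} = ⊤ :=
    S18B_adjoin_V_eq_top x V hVgen hx E t hgen K (algebraMap R K xR)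
      (algebraMap R K (algebraMap O[X] R X))
      (by rw [← IsScalarTower.algebraMap_apply R K E, hxRE])
      (by rw [← IsScalarTower.algebraMap_apply R K E, hRt, aeval_X])
  have hVint : IsIntegral K (algebraMap A E V) :=
    (show IsIntegral R (algebraMap A E V) from ⟨P₁, hP₁m, hV₁⟩).tower_top
  haveI : FiniteDimensional K E := by
    have h1 : FiniteDimensional K (IntermediateField.adjoin K {algebraMap A E V}) :=
      IntermediateField.adjoin.finiteDimensional hVint
    rw [hgenV] at h1
    exact (IntermediateField.topEquiv : (⊤ : IntermediateField K E) ≃ₐ[K] E).toLinearEquiv.finiteDimensional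
  -- separability of the reduction
  haveI hπRp : (Ideal.span {algebraMap O[X] R (C π)} : Ideal R).IsPrime :=
    (Ideal.span_singleton_prime hπR.ne_zero).2 hπR
  set f : R →+* FractionRing (R ⧸ Ideal.span {algebraMap O[X] R (C π)}) :=
    algebraMap R (FractionRing (R ⧸ Ideal.span {algebraMap O[X] R (C π)})) with hf
  have hOmax : IsLocalRing.maximalIdeal O = Ideal.span {π} :=
    (Irreducible.maximalIdeal_eq hπ)
  have hker : ∀ p : O[X], (f.comp ψ) p = 0 ↔ C π ∣ p := by
    intro p
    rw [RingHom.comp_apply, hf, S18B_frac_quot_eq_zero_iff]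
    constructor
    · intro hdiv
      -- homogenise
      have hhom : ψ p * algebraMap O[X] R Bd ^ p.natDegree =
          algebraMap O[X] R (∑ i ∈ Finset.range (p.natDegree + 1),
            C (p.coeff i) * An ^ i * Bd ^ (p.natDegree - i)) := by
        rw [map_sum]
        conv_lhs => rw [hψ, coe_eval₂RingHom, eval₂_eq_sum_range, Finset.sum_mul]
        refine Finset.sum_congr rfl fun i hi => ?_
        have hi' : i ≤ p.natDegree := Nat.lt_succ_iff.1 (Finset.mem_range.1 hi)
        rw [map_mul, map_mul, map_pow, map_pow, RingHom.comp_apply, hxR, mul_pow, ← hu]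
        have : (↑u⁻¹ : R) ^ i * (↑u : R) ^ p.natDegree = (↑u : R) ^ (p.natDegree - i) := by
          have e1 : (↑u : R) ^ p.natDegree = (↑u : R) ^ (p.natDegree - i) * (↑u : R) ^ i := by
            rw [← pow_add, Nat.sub_add_cancel hi']
          rw [e1, mul_comm ((↑u : R) ^ (p.natDegree - i)), ← mul_assoc, ← mul_pow,
            Units.inv_mul, one_pow, one_mul]
        calc (algebraMap O[X] R) (C (p.coeff i)) * ((algebraMap O[X] R) An ^ i * (↑u⁻¹ : R) ^ i)
              * (↑u : R) ^ p.natDegree
            = (algebraMap O[X] R) (C (p.coeff i)) * (algebraMap O[X] R) An ^ i *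
                ((↑u⁻¹ : R) ^ i * (↑u : R) ^ p.natDegree) := by ring
          _ = _ := by rw [this]
      have h1 : algebraMap O[X] R (C π) ∣ algebraMap O[X] R (∑ i ∈ Finset.range (p.natDegree + 1),
            C (p.coeff i) * An ^ i * Bd ^ (p.natDegree - i)) := by
        rw [← hhom]; exact Dvd.dvd.mul_right hdiv _
      have h2 := (S18B_R_dvd_iff π t₀ R hπp _).1 h1
      exact S18B_cover_kernel π hOmax hπp An Bd hcov.nonconst p p.natDegree le_rfl h2
    · rintro ⟨c, rfl⟩
      rw [map_mul, hψC]
      exact Dvd.intro _ rfl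
  have hsep0 : (P₁.map f).Separable := by
    rw [hP₁, Polynomial.map_map]
    exact hsep _ (f.comp ψ) hker
  haveI : IsIntegrallyClosed R :=
    isIntegrallyClosed_of_isLocalization R
      (Ideal.span {C π, X - C t₀} : Ideal O[X]).primeCompl
      (Ideal.primeCompl_le_nonZeroDivisors _)
  obtain ⟨hPm, hPdeg, hPV, hPli, hPsep, -⟩ :=
    Fermat.Agent.S18_helper24_MINPOLY.S18T5_minpoly_data K E f VB hgenV P₁ hVB0 hsep0
  -- horizontal input
  have hhor' : ∀ g : R, Prime g → ¬ Associated g (algebraMap O[X] R (C π)) →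
      ∀ (ι : Type) [Fintype ι] [DecidableEq ι] (b : Module.Basis ι R (integralClosure R E)),
        ¬ g ∣ Algebra.discr R b :=
    fun g hg hgπ ι _ _ b => hhor E t ht hgen R hRt (integralClosure R E) g hg hgπ ι b
  exact Fermat.Agent.S18_helper28_PUR2.S18B_purity_local_nohk (K := K) (E := E)
    (algebraMap O[X] R (C π)) (algebraMap O[X] R (X - C t₀)) hπR hmax hτR VB
    (minpoly R VB) hPm hPdeg hPV hPli hPsep hhor'

end loc

end Fermat.Agent.S18_helper17_LOC
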