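import Mathlib

set_option autoImplicit false

/-! # S18 block B, glue T1 (X-B2-T1-TRANSFER): transfer of the local structure along a localisation

`Bn = S⁻¹ B`, `m'` a maximal ideal of `B` disjoint from `S`.  The local structure
(`M Bn_M = (π, τ)` and `τ` not nilpotent modulo `π`, written elementwise) at all maximal ideals of
`Bn` gives the same local structure of `B` at `m'`.
-/

namespace Fermat.Agent.S18_helper24_T1

/-- A maximal ideal of `B` disjoint from `S` is the contraction of a maximal ideal of `S⁻¹ B`. -/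
theorem S18T1_exists_maximal_comap {B Bn : Type*} [CommRing B] [CommRing Bn] [Algebra B Bn]
    (S : Submonoid B) [IsLocalization S Bn] (m' : Ideal B) (hm' : m'.IsMaximal)
    (hS : ∀ s ∈ S, s ∉ m') :
    ∃ M : Ideal Bn, M.IsMaximal ∧ M.comap (algebraMap B Bn) = m' := by
  have hdisj : Disjoint (S : Set B) (m' : Set B) := by
    rw [Set.disjoint_left]
    intro s hs hsm
    exact hS s hs hsm
  have hcm : Ideal.comap (algebraMap B Bn) (Ideal.map (algebraMap B Bn) m') = m' :=
    IsLocalization.under_map_of_isPrime_disjoint S Bn hm'.isPrime hdisj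
  have hne : Ideal.map (algebraMap B Bn) m' ≠ ⊤ := by
    intro htop
    rw [htop, Ideal.comap_top] at hcm
    exact hm'.ne_top hcm.symm
  obtain ⟨M, hM, hle⟩ := Ideal.exists_le_maximal _ hne
  refine ⟨M, hM, ?_⟩
  have h1 : m' ≤ M.comap (algebraMap B Bn) := by
    intro x hx
    exact hle (Ideal.mem_map_of_mem _ hx)
  have h2 : M.comap (algebraMap B Bn) ≠ ⊤ := by
    have hMp : M.IsPrime := hM.isPrime
    exact (Ideal.comap_isPrime (algebraMap B Bn) M).ne_top
  exact (hm'.eq_of_le h2 h1).symm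

/-- (M1) TRANSFER along a localisation `B → Bn` (`Bn = S⁻¹ B`), `m'` a maximal ideal of `B`
disjoint from `S`: the local structure at all maximal ideals of `Bn` gives the local structure of
`B` at `m'`. -/
theorem S18B_transfer {B Bn : Type*} [CommRing B] [CommRing Bn] [Algebra B Bn]
    (S : Submonoid B) [IsLocalization S Bn] (m' : Ideal B) (hm' : m'.IsMaximal)
    (hS : ∀ s ∈ S, s ∉ m') (π τ : B)
    (h : ∀ M : Ideal Bn, M.IsMaximal →
      (∀ x ∈ M, ∃ s, s ∉ M ∧ ∃ a b : Bn, s * x = a * algebraMap B Bn π + b * algebraMap B Bn τ) ∧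
      ∀ (n : ℕ) (s : Bn), s ∉ M → ¬ algebraMap B Bn π ∣ s * algebraMap B Bn τ ^ n) :
    (∀ x ∈ m', ∃ s, s ∉ m' ∧ ∃ a b : B, s * x = a * π + b * τ) ∧
      ∀ (n : ℕ) (s : B), s ∉ m' → ¬ π ∣ s * τ ^ n := by
  obtain ⟨M, hM, hcomap⟩ := S18T1_exists_maximal_comap (Bn := Bn) S m' hm' hS
  have hMp : M.IsPrime := hM.isPrime
  have hm'p : m'.IsPrime := hm'.isPrime
  have hmem : ∀ b : B, algebraMap B Bn b ∈ M ↔ b ∈ m' := by
    intro b
    rw [← hcomap, Ideal.mem_comap]
  have hSM : ∀ d : S, algebraMap B Bn d ∉ M := fun d hd => hS d d.2 ((hmem _).1 hd)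
  obtain ⟨h1, h2⟩ := h M hM
  refine ⟨?_, ?_⟩
  · intro x hx
    obtain ⟨s, hs, a, b, hab⟩ := h1 (algebraMap B Bn x) ((hmem x).2 hx)
    obtain ⟨⟨s1, d1⟩, hs1⟩ := IsLocalization.surj S s
    obtain ⟨⟨a1, d2⟩, ha1⟩ := IsLocalization.surj S a
    obtain ⟨⟨b1, d3⟩, hb1⟩ := IsLocalization.surj S b
    simp only at hs1 ha1 hb1
    have hs1M : s1 ∉ m' := by
      intro hs1m
      have : s * algebraMap B Bn d1 ∈ M := by
        rw [hs1]
        exact (hmem s1).2 hs1m
      rcases hMp.mem_or_mem this with h' | h'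
      · exact hs h'
      · exact hSM d1 h'
    have heq : algebraMap B Bn (s1 * d2 * d3 * x) =
        algebraMap B Bn (a1 * d1 * d3 * π + b1 * d1 * d2 * τ) := by
      simp only [map_mul, map_add]
      rw [← hs1, ← ha1, ← hb1]
      linear_combination (algebraMap B Bn d1 * algebraMap B Bn d2 * algebraMap B Bn d3) * hab
    obtain ⟨c, hc⟩ := (IsLocalization.eq_iff_exists S Bn).1 heq
    refine ⟨c * s1 * d2 * d3, ?_, c * a1 * d1 * d3, c * b1 * d1 * d2, ?_⟩
    · intro hmem'
      have hcS : (c : B) ∉ m' := hS c c.2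
      have hd2 : (d2 : B) ∉ m' := hS d2 d2.2
      have hd3 : (d3 : B) ∉ m' := hS d3 d3.2
      rcases hm'p.mem_or_mem hmem' with h' | h'
      · rcases hm'p.mem_or_mem h' with h'' | h''
        · rcases hm'p.mem_or_mem h'' with h3 | h3
          · exact hcS h3
          · exact hs1M h3
        · exact hd2 h''
      · exact hd3 h'
    · linear_combination hc
  · intro n s hs hdvd
    apply h2 n (algebraMap B Bn s) (fun hsM => hs ((hmem s).1 hsM))
    obtain ⟨c, hc⟩ := hdvd
    refine ⟨algebraMap B Bn c, ?_⟩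
    rw [← map_pow, ← map_mul, hc, map_mul]

end Fermat.Agent.S18_helper24_T1
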