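import Mathlib
import Fermat.Agent.S18_helper17_BDefs

set_option autoImplicit false

/-! # S18 block B, glue T4 of X-B2-CARR: the point `t = t₀` below a maximal ideal

Abstract setting: `O` a local ring with `maximalIdeal O = (π)`, `B` an `O`-algebra, `Q` a proper
ideal of `B` containing `π` such that every element of `B` is congruent modulo `Q` to a constant
from `O` (`hres`, the shape of T2).  If `t, x : B` satisfy the cover relation
`An(t) = x * Bd(t)` and `Bd(t) ∉ Q`, then `t - t₀ ∈ Q`, `x - c ∈ Q` for constants `t₀, c : O`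
with `π ∣ An(t₀) - c * Bd(t₀)` and `¬ π ∣ Bd(t₀)`: these are exactly the two hypotheses under
which `S18B_IG_generic` asks for the horizontal input `S18B_Hor … t₀`.
-/

namespace Fermat.Agent.S18_helper24_T4

open Polynomial Fermat.Agent.S18_helper17_BDefs

/-- Constants of `O` lying in a proper ideal of `B` are divisible by the uniformiser. -/
theorem S18T4_dvd_of_mem {O B : Type*} [CommRing O] [IsLocalRing O] [CommRing B] [Algebra O B]
    {π : O} (hπ : IsLocalRing.maximalIdeal O = Ideal.span {π})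
    {Q : Ideal B} (hQ : Q ≠ ⊤) {a : O} (ha : algebraMap O B a ∈ Q) : π ∣ a := by
  by_contra h
  have hu : IsUnit a := by
    by_contra hnu
    have hmem : a ∈ IsLocalRing.maximalIdeal O := (IsLocalRing.mem_maximalIdeal a).2 hnu
    rw [hπ, Ideal.mem_span_singleton] at hmem
    exact h hmem
  exact hQ (Ideal.eq_top_of_isUnit_mem _ ha (hu.map (algebraMap O B)))

/-- Constants divisible by `π` lie in every ideal containing `π`. -/
theorem S18T4_mem_of_dvd {O B : Type*} [CommRing O] [CommRing B] [Algebra O B]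
    {π : O} {Q : Ideal B} (hπQ : algebraMap O B π ∈ Q) {a : O} (ha : π ∣ a) :
    algebraMap O B a ∈ Q := by
  obtain ⟨b, rfl⟩ := ha
  rw [map_mul]
  exact Q.mul_mem_right _ hπQ

/-- Evaluation of a polynomial with constant coefficients is compatible with congruences. -/
theorem S18T4_aeval_sub_mem {O B : Type*} [CommRing O] [CommRing B] [Algebra O B]
    (Q : Ideal B) (p : O[X]) {t : B} {t0 : O} (h : t - algebraMap O B t0 ∈ Q) :
    aeval t p - algebraMap O B (p.eval t0) ∈ Q := by
  have h1 : algebraMap O B (p.eval t0) = aeval (algebraMap O B t0) p := by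
    rw [Polynomial.aeval_algebraMap_apply, Polynomial.coe_aeval_eq_eval]
  rw [h1, Polynomial.aeval_def, Polynomial.aeval_def, Polynomial.eval₂_eq_eval_map,
    Polynomial.eval₂_eq_eval_map]
  obtain ⟨d, hd⟩ := Polynomial.sub_dvd_eval_sub t (algebraMap O B t0) (p.map (algebraMap O B))
  rw [hd]
  exact Q.mul_mem_right _ h

/-- **T4, pointwise form.**  Given constants `t₀, c` with `t ≡ t₀`, `x ≡ c` modulo `Q`. -/
theorem S18T4_point {O B : Type*} [CommRing O] [IsLocalRing O] [CommRing B] [Algebra O B]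
    {π : O} (hπ : IsLocalRing.maximalIdeal O = Ideal.span {π})
    (Q : Ideal B) (hQ : Q ≠ ⊤) (hπQ : algebraMap O B π ∈ Q)
    (An Bd : O[X]) (x t : B) (hrel : aeval t An = x * aeval t Bd) (hden : aeval t Bd ∉ Q)
    (t0 c : O) (ht0 : t - algebraMap O B t0 ∈ Q) (hc : x - algebraMap O B c ∈ Q) :
    π ∣ An.eval t0 - c * Bd.eval t0 ∧ ¬ π ∣ Bd.eval t0 := by
  have hA := S18T4_aeval_sub_mem Q An ht0
  have hB := S18T4_aeval_sub_mem Q Bd ht0
  refine ⟨?_, ?_⟩
  · apply S18T4_dvd_of_mem hπ hQ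
    have key : algebraMap O B (An.eval t0 - c * Bd.eval t0) =
        -(aeval t An - algebraMap O B (An.eval t0))
          + (x - algebraMap O B c) * aeval t Bd
          + algebraMap O B c * (aeval t Bd - algebraMap O B (Bd.eval t0)) := by
      rw [map_sub, map_mul, hrel]; ring
    rw [key]
    exact Q.add_mem (Q.add_mem (Q.neg_mem hA) (Q.mul_mem_right _ hc)) (Q.mul_mem_left _ hB)
  · intro hdvd
    apply hden
    have h1 : algebraMap O B (Bd.eval t0) ∈ Q := S18T4_mem_of_dvd hπQ hdvd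
    have h2 : aeval t Bd = (aeval t Bd - algebraMap O B (Bd.eval t0))
        + algebraMap O B (Bd.eval t0) := by ring
    rw [h2]
    exact Q.add_mem hB h1

/-- **T4, existence form** (with `hres` = conclusion of T2 as a hypothesis). -/
theorem S18T4_exists_point {O B : Type*} [CommRing O] [IsLocalRing O] [CommRing B] [Algebra O B]
    {π : O} (hπ : IsLocalRing.maximalIdeal O = Ideal.span {π})
    (Q : Ideal B) (hQ : Q ≠ ⊤) (hπQ : algebraMap O B π ∈ Q)
    (hres : ∀ b : B, ∃ c : O, b - algebraMap O B c ∈ Q)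
    (An Bd : O[X]) (x t : B) (hrel : aeval t An = x * aeval t Bd) (hden : aeval t Bd ∉ Q) :
    ∃ t0 c : O, t - algebraMap O B t0 ∈ Q ∧ x - algebraMap O B c ∈ Q ∧
      π ∣ An.eval t0 - c * Bd.eval t0 ∧ ¬ π ∣ Bd.eval t0 := by
  obtain ⟨t0, ht0⟩ := hres t
  obtain ⟨c, hc⟩ := hres x
  obtain ⟨h1, h2⟩ := S18T4_point hπ Q hQ hπQ An Bd x t hrel hden t0 c ht0 hc
  exact ⟨t0, c, ht0, hc, h1, h2⟩

/-- From the cover structure: `t`, `x` and `Bd(t)⁻¹` live in any ring `B ⊆ E` containing all
elements integral over `O[x]`, and the relation holds in `B`. -/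
theorem S18T4_cover_in_B {O F1 : Type} [CommRing O] [Field F1] [Algebra O F1]
    {π : O} {x : F1} {An Bd : O[X]} (hcov : S18B_Cover O F1 π x An Bd)
    (E : Type) [Field E] [Algebra F1 E] [Algebra O E] [IsScalarTower O F1 E]
    (t : E) (ht : S18B_rel x An Bd E t)
    {B : Type*} [CommRing B] [Algebra O B] [Algebra B E] [IsScalarTower O B E]
    (hinj : Function.Injective (algebraMap B E))
    (hB : ∀ y : E, IsIntegral (Algebra.adjoin O {algebraMap F1 E x}) y →
      ∃ b : B, algebraMap B E b = y) :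
    ∃ tB xB v : B, algebraMap B E tB = t ∧ algebraMap B E xB = algebraMap F1 E x ∧
      aeval tB An = xB * aeval tB Bd ∧ aeval tB Bd * v = 1 := by
  obtain ⟨tB, htB⟩ := hB t (hcov.integral_t E t ht)
  obtain ⟨xB, hxB⟩ := hB (algebraMap F1 E x)
    (isIntegral_algebraMap (x := (⟨algebraMap F1 E x, Algebra.subset_adjoin rfl⟩ :
      Algebra.adjoin O {algebraMap F1 E x})))
  obtain ⟨v, hv⟩ := hB _ (hcov.integral_inv E t ht)
  refine ⟨tB, xB, v, htB, hxB, ?_, ?_⟩
  · apply hinj
    rw [map_mul, ← Polynomial.aeval_algebraMap_apply, ← Polynomial.aeval_algebraMap_apply, htB,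
      hxB]
    exact ht
  · apply hinj
    rw [map_mul, ← Polynomial.aeval_algebraMap_apply, htB, hv, map_one]
    exact mul_inv_cancel₀ (hcov.den_ne E t ht)

/-- **T4 for a cover.**  `O` local with `maximalIdeal O = (π)`, `hcov : S18B_Cover`, `t ∈ E` a root
of the cover relation, `B ⊆ E` containing the integral closure of `O[x]`, `Q` a proper ideal of `B`
containing `π` with residue field `O/π` (`hres`).  Then `t ≡ t₀`, `x ≡ c` modulo `Q` with
`π ∣ An(t₀) - c Bd(t₀)` and `¬ π ∣ Bd(t₀)`. -/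
theorem S18T4_point_of_cover {O F1 : Type} [CommRing O] [IsLocalRing O] [Field F1] [Algebra O F1]
    {π : O} (hπ : IsLocalRing.maximalIdeal O = Ideal.span {π})
    {x : F1} {An Bd : O[X]} (hcov : S18B_Cover O F1 π x An Bd)
    (E : Type) [Field E] [Algebra F1 E] [Algebra O E] [IsScalarTower O F1 E]
    (t : E) (ht : S18B_rel x An Bd E t)
    {B : Type*} [CommRing B] [Algebra O B] [Algebra B E] [IsScalarTower O B E]
    (hinj : Function.Injective (algebraMap B E))
    (hB : ∀ y : E, IsIntegral (Algebra.adjoin O {algebraMap F1 E x}) y →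
      ∃ b : B, algebraMap B E b = y)
    (Q : Ideal B) (hQ : Q ≠ ⊤) (hπQ : algebraMap O B π ∈ Q)
    (hres : ∀ b : B, ∃ c : O, b - algebraMap O B c ∈ Q) :
    ∃ (tB xB : B) (t0 c : O), algebraMap B E tB = t ∧ algebraMap B E xB = algebraMap F1 E x ∧
      tB - algebraMap O B t0 ∈ Q ∧ xB - algebraMap O B c ∈ Q ∧
      π ∣ An.eval t0 - c * Bd.eval t0 ∧ ¬ π ∣ Bd.eval t0 := by
  obtain ⟨tB, xB, v, htB, hxB, hrel, hv⟩ := S18T4_cover_in_B hcov E t ht hinj hB
  have hden : aeval tB Bd ∉ Q := fun hmem =>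
    hQ (Ideal.eq_top_of_isUnit_mem _ hmem (IsUnit.of_mul_eq_one _ hv))
  obtain ⟨t0, c, h1, h2, h3, h4⟩ :=
    S18T4_exists_point hπ Q hQ hπQ hres An Bd xB tB hrel hden
  exact ⟨tB, xB, t0, c, htB, hxB, h1, h2, h3, h4⟩

/-- **T4 in the chart shape of `S18B_IG_generic`.**  `A` is the chart ring (`O → A → F1`),
`xA : A` the coordinate, `m` the contraction of `Q` to `A`: the conclusion is literally the pair
of hypotheses of `hhor` at `t₀`. -/
theorem S18T4_point_chart {O F1 : Type} [CommRing O] [IsLocalRing O] [Field F1] [Algebra O F1]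
    {π : O} (hπ : IsLocalRing.maximalIdeal O = Ideal.span {π})
    {x : F1} {An Bd : O[X]} (hcov : S18B_Cover O F1 π x An Bd)
    {A : Type*} [CommRing A] [Algebra O A] [Algebra A F1] [IsScalarTower O A F1]
    (xA : A) (hxA : algebraMap A F1 xA = x)
    (E : Type) [Field E] [Algebra F1 E] [Algebra O E] [IsScalarTower O F1 E]
    [Algebra A E] [IsScalarTower A F1 E]
    (t : E) (ht : S18B_rel x An Bd E t)
    {B : Type*} [CommRing B] [Algebra O B] [Algebra B E] [IsScalarTower O B E]
    [Algebra A B] [IsScalarTower A B E] [IsScalarTower O A B]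
    (hinj : Function.Injective (algebraMap B E))
    (hB : ∀ y : E, IsIntegral (Algebra.adjoin O {algebraMap F1 E x}) y →
      ∃ b : B, algebraMap B E b = y)
    (Q : Ideal B) (hQ : Q ≠ ⊤) (hπQ : algebraMap O B π ∈ Q)
    (hres : ∀ b : B, ∃ c : O, b - algebraMap O B c ∈ Q) :
    ∃ (tB : B) (t0 : O), algebraMap B E tB = t ∧ tB - algebraMap O B t0 ∈ Q ∧
      (∃ c : O, xA - algebraMap O A c ∈ Q.comap (algebraMap A B) ∧
        π ∣ An.eval t0 - c * Bd.eval t0) ∧ ¬ π ∣ Bd.eval t0 := by
  obtain ⟨tB, xB, t0, c, htB, hxB, h1, h2, h3, h4⟩ :=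
    S18T4_point_of_cover hπ hcov E t ht hinj hB Q hQ hπQ hres
  refine ⟨tB, t0, htB, h1, ⟨c, ?_, h3⟩, h4⟩
  have hx : algebraMap A B xA = xB := by
    apply hinj
    rw [hxB, ← IsScalarTower.algebraMap_apply, IsScalarTower.algebraMap_apply A F1 E, hxA]
  rw [Ideal.mem_comap, map_sub, hx, ← IsScalarTower.algebraMap_apply]
  exact h2

end Fermat.Agent.S18_helper24_T4
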