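import Mathlib
import Fermat.Agent.S18_helper24_T1
import Fermat.Agent.S18_helper24_T4

set_option autoImplicit false

/-! # S18 block B glue (X-B2-ICLOC): the integral closure over the local base is a localisation

`B` = integral closure of `O[x]` in `E`, `R` = `O[X]` localised at `n₀ = (π, X - t₀)` with
`R → E`, `X ↦ t`, `Bn` = integral closure of `R` in `E`.  If `An(t) = x * Bd(t)`, `t` is integral
over `O[x]` and `π ∤ Bd(t₀)`, then `Bn` is the localisation of `B` at the image of `O[X] \ n₀`,
and the local structure of `Bn` (conclusion of purity) transfers to `B` at every maximal ideal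
containing `π` and `t - t₀`.
-/

namespace Fermat.Agent.S18_helper24_ICLOC

open Polynomial Fermat.Agent.S18_helper24_T1 Fermat.Agent.S18_helper24_T4

/-- Integrality transfers along an inclusion of images. -/
theorem S18ICLOC_isIntegral_of_range {R' S' E : Type*} [CommRing R'] [CommRing S'] [CommRing E]
    [Algebra R' E] [Algebra S' E]
    (h : ∀ s : S', ∃ r : R', algebraMap R' E r = algebraMap S' E s)
    {y : E} (hy : IsIntegral S' y) : IsIntegral R' y := by
  obtain ⟨p, hpm, hp⟩ := hy
  have hl : p.map (algebraMap S' E) ∈ Polynomial.lifts (algebraMap R' E) := by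
    rw [Polynomial.lifts_iff_coeff_lifts]
    intro n
    rw [Polynomial.coeff_map]
    obtain ⟨r, hr⟩ := h (p.coeff n)
    exact ⟨r, hr⟩
  obtain ⟨q, hq, -, hqm⟩ := Polynomial.lifts_and_natDegree_eq_and_monic hl (hpm.map _)
  refine ⟨q, hqm, ?_⟩
  rw [← Polynomial.eval_map, hq, Polynomial.eval_map]
  exact hp

/-- Membership in `n₀ = (π, X - t₀)` is tested by evaluation at `t₀`. -/
theorem S18ICLOC_mem_n0_iff {O : Type*} [CommRing O] (π t₀ : O) (d : O[X]) :
    d ∈ (Ideal.span {C π, X - C t₀} : Ideal O[X]) ↔ π ∣ d.eval t₀ := by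
  constructor
  · intro hd
    rw [Ideal.mem_span_pair] at hd
    obtain ⟨a, b, hab⟩ := hd
    refine ⟨a.eval t₀, ?_⟩
    rw [← hab]
    simp [mul_comm]
  · rintro ⟨c, hc⟩
    have h1 : d = (d - C (d.eval t₀)) + C (d.eval t₀) := by ring
    rw [h1]
    refine Ideal.add_mem _ ?_ ?_
    · obtain ⟨e, he⟩ := Polynomial.X_sub_C_dvd_sub_C_eval (a := t₀) (p := d)
      rw [he]
      exact Ideal.mul_mem_right _ _ (Ideal.subset_span (by simp))
    · rw [hc, C_mul]
      exact Ideal.mul_mem_right _ _ (Ideal.subset_span (by simp))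

/-- (iii) Elements of `O[X] \ n₀` evaluated at `tB` avoid every proper ideal containing `π` and
`tB - t₀`. -/
theorem S18ICLOC_notMem {O B : Type*} [CommRing O] [IsLocalRing O] [CommRing B] [Algebra O B]
    {π : O} (hπ : IsLocalRing.maximalIdeal O = Ideal.span {π}) (t₀ : O) (tB : B)
    (Q : Ideal B) (hQ : Q ≠ ⊤) (hτQ : tB - algebraMap O B t₀ ∈ Q)
    (d : O[X]) (hd : d ∉ (Ideal.span {C π, X - C t₀} : Ideal O[X])) :
    aeval tB d ∉ Q := by
  intro hmem
  apply hd
  rw [S18ICLOC_mem_n0_iff]
  apply S18T4_dvd_of_mem hπ hQ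
  have h1 := S18T4_aeval_sub_mem Q d hτQ
  have h2 : algebraMap O B (d.eval t₀) = aeval tB d - (aeval tB d - algebraMap O B (d.eval t₀)) := by
    ring
  rw [h2]
  exact Q.sub_mem hmem h1

section Setting

variable {O R E : Type*} [CommRing O] [CommRing R] [Algebra O[X] R] [CommRing E] [Algebra O E]
  [Algebra R E] (π t₀ : O) [hn0 : (Ideal.span {C π, X - C t₀} : Ideal O[X]).IsPrime]
  [IsLocalization.AtPrime R (Ideal.span {C π, X - C t₀} : Ideal O[X])]
  (t : E) (hRt : ∀ p : O[X], algebraMap R E (algebraMap O[X] R p) = aeval t p)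
  (xE : E) (An Bd : O[X]) (hrel : aeval t An = xE * aeval t Bd) (hBd : ¬ π ∣ Bd.eval t₀)

include hRt hrel hBd in
/-- The coordinate `x = An(t)/Bd(t)` lies in the image of `R`. -/
theorem S18ICLOC_x_mem_range : ∃ r : R, algebraMap R E r = xE := by
  have hBd' : Bd ∈ (Ideal.span {C π, X - C t₀} : Ideal O[X]).primeCompl := by
    intro hmem
    exact hBd ((S18ICLOC_mem_n0_iff π t₀ Bd).1 hmem)
  have hu : IsUnit (algebraMap O[X] R Bd) :=
    IsLocalization.map_units R (⟨Bd, hBd'⟩ : (Ideal.span {C π, X - C t₀} : Ideal O[X]).primeCompl)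
  obtain ⟨u, hu'⟩ := hu
  refine ⟨algebraMap O[X] R An * ↑u⁻¹, ?_⟩
  have h1 : algebraMap R E (↑u : R) = aeval t Bd := by rw [hu', hRt]
  have h2 : algebraMap R E (↑u : R) * algebraMap R E (↑u⁻¹ : R) = 1 := by
    rw [← map_mul, Units.mul_inv, map_one]
  rw [map_mul, hRt, hrel, mul_assoc, ← h1, h2, mul_one]

include hRt hrel hBd in
/-- `O[x] ⊆` image of `R`. -/
theorem S18ICLOC_adjoin_le_range (s : Algebra.adjoin O {xE}) :
    ∃ r : R, algebraMap R E r = algebraMap (Algebra.adjoin O {xE}) E s := by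
  obtain ⟨s, hs⟩ := s
  change ∃ r : R, algebraMap R E r = s
  induction hs using Algebra.adjoin_induction with
  | mem y hy =>
    rw [Set.mem_singleton_iff] at hy
    rw [hy]
    exact S18ICLOC_x_mem_range π t₀ t hRt xE An Bd hrel hBd
  | algebraMap c =>
    refine ⟨algebraMap O[X] R (C c), ?_⟩
    rw [hRt, aeval_C]
  | add y z _ _ hy hz =>
    obtain ⟨a, ha⟩ := hy
    obtain ⟨b, hb⟩ := hz
    exact ⟨a + b, by rw [map_add, ha, hb]⟩
  | mul y z _ _ hy hz =>
    obtain ⟨a, ha⟩ := hy
    obtain ⟨b, hb⟩ := hz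
    exact ⟨a * b, by rw [map_mul, ha, hb]⟩

include hRt hrel hBd in
/-- Integral over `O[x]` implies integral over `R`. -/
theorem S18ICLOC_isIntegral_R {y : E} (hy : IsIntegral (Algebra.adjoin O {xE}) y) :
    IsIntegral R y :=
  S18ICLOC_isIntegral_of_range (S18ICLOC_adjoin_le_range π t₀ t hRt xE An Bd hrel hBd) hy

include hRt in
/-- Integral over `R` implies, up to a denominator in `O[X] \ n₀`, integral over `O[x]`
(given that `t` is integral over `O[x]`). -/
theorem S18ICLOC_exists_mul_isIntegral (ht : IsIntegral (Algebra.adjoin O {xE}) t)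
    {y : E} (hy : IsIntegral R y) :
    ∃ d : O[X], d ∉ (Ideal.span {C π, X - C t₀} : Ideal O[X]) ∧
      IsIntegral (Algebra.adjoin O {xE}) (aeval t d * y) := by
  let _ : Algebra O[X] E := ((algebraMap R E).comp (algebraMap O[X] R)).toAlgebra
  have : IsScalarTower O[X] R E := IsScalarTower.of_algebraMap_eq (fun _ => rfl)
  obtain ⟨⟨d, hd⟩, hdy⟩ := IsIntegral.exists_multiple_integral_of_isLocalization
    (Ideal.span {C π, X - C t₀} : Ideal O[X]).primeCompl y hy
  refine ⟨d, hd, ?_⟩
  have hdy' : IsIntegral O[X] (aeval t d * y) := by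
    have : (⟨d, hd⟩ : (Ideal.span {C π, X - C t₀} : Ideal O[X]).primeCompl) • y
        = aeval t d * y := by
      rw [Submonoid.smul_def, Algebra.smul_def]
      change algebraMap R E (algebraMap O[X] R d) * y = _
      rw [hRt]
    rw [← this]
    exact hdy
  -- integral over `O[X]` (acting through `t`) ⇒ integral over the integral closure of `O[x]`
  have h1 : IsIntegral (integralClosure (Algebra.adjoin O {xE}) E) (aeval t d * y) := by
    refine S18ICLOC_isIntegral_of_range (S' := O[X]) ?_ hdy'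
    intro p
    have hp : IsIntegral (Algebra.adjoin O {xE}) (aeval t p) := by
      induction p using Polynomial.induction_on' with
      | add p q hp hq => rw [map_add]; exact hp.add hq
      | monomial n a =>
        rw [aeval_monomial]
        refine IsIntegral.mul ?_ (ht.pow n)
        have : algebraMap O E a = algebraMap (Algebra.adjoin O {xE}) E
            (algebraMap O (Algebra.adjoin O {xE}) a) := rfl
        rw [this]
        exact isIntegral_algebraMap
    refine ⟨⟨aeval t p, hp⟩, ?_⟩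
    change aeval t p = algebraMap R E (algebraMap O[X] R p)
    rw [hRt]
  exact isIntegral_trans _ h1

end Setting

section Closure

variable {O R E B Bn : Type*} [CommRing O] [IsLocalRing O] [CommRing R] [Algebra O[X] R]
  [CommRing E] [Algebra O E] [Algebra R E]
  (π t₀ : O) [hn0 : (Ideal.span {C π, X - C t₀} : Ideal O[X]).IsPrime]
  [IsLocalization.AtPrime R (Ideal.span {C π, X - C t₀} : Ideal O[X])]
  (t : E) (hRt : ∀ p : O[X], algebraMap R E (algebraMap O[X] R p) = aeval t p)
  [CommRing Bn] [Algebra R Bn] [Algebra Bn E] [IsScalarTower R Bn E] [IsIntegralClosure Bn R E]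
  [CommRing B] [Algebra O B] [Algebra B E] [IsScalarTower O B E]
  (xE : E)
  (hBint : ∀ b : B, IsIntegral (Algebra.adjoin O {xE}) (algebraMap B E b))
  (hBmem : ∀ y : E, IsIntegral (Algebra.adjoin O {xE}) y → ∃ b : B, algebraMap B E b = y)
  (An Bd : O[X]) (hrel : aeval t An = xE * aeval t Bd) (hBd : ¬ π ∣ Bd.eval t₀)
  (ht : IsIntegral (Algebra.adjoin O {xE}) t)

omit [IsLocalRing O] [Algebra R Bn] [IsScalarTower R Bn E] [Algebra O B] [IsScalarTower O B E] in
include hRt hBint hrel hBd in
/-- (i) `B ⊆ Bn` (inside `E`). -/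
theorem S18ICLOC_le (b : B) : ∃ z : Bn, algebraMap Bn E z = algebraMap B E b :=
  (IsIntegralClosure.isIntegral_iff (R := R) (A := Bn) (B := E)).1
    (S18ICLOC_isIntegral_R π t₀ t hRt xE An Bd hrel hBd (hBint b))

omit [IsLocalRing O] [Algebra R Bn] [IsScalarTower R Bn E] [Algebra O B] [IsScalarTower O B E] in
include hRt hBmem ht in
/-- (ii) every element of `Bn` has a denominator in `O[X] \ n₀`. -/
theorem S18ICLOC_denom (z : Bn) :
    ∃ d : O[X], d ∉ (Ideal.span {C π, X - C t₀} : Ideal O[X]) ∧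
      ∃ b : B, algebraMap B E b = aeval t d * algebraMap Bn E z := by
  have hz : IsIntegral R (algebraMap Bn E z) :=
    (IsIntegralClosure.isIntegral_iff (R := R) (A := Bn) (B := E)).2 ⟨z, rfl⟩
  obtain ⟨d, hd, hint⟩ := S18ICLOC_exists_mul_isIntegral π t₀ t hRt xE ht hz
  exact ⟨d, hd, hBmem _ hint⟩

omit [IsLocalRing O] in
include hRt hBmem ht in
/-- (iv) `Bn` is the localisation of `B` at the image of `O[X] \ n₀` under `X ↦ tB`. -/
theorem S18ICLOC_isLocalization [Algebra B Bn] [IsScalarTower B Bn E]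
    (hinj : Function.Injective (algebraMap B E)) (tB : B) (htB : algebraMap B E tB = t) :
    IsLocalization (Submonoid.map (aeval tB : O[X] →ₐ[O] B)
      (Ideal.span {C π, X - C t₀} : Ideal O[X]).primeCompl) Bn := by
  have hinjn : Function.Injective (algebraMap Bn E) :=
    IsIntegralClosure.algebraMap_injective Bn R E
  have haev : ∀ d : O[X], algebraMap B E (aeval tB d) = aeval t d := by
    intro d
    rw [← Polynomial.aeval_algebraMap_apply, htB]
  have hmap : ∀ d : O[X], algebraMap B Bn (aeval tB d) = algebraMap R Bn (algebraMap O[X] R d) := by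
    intro d
    apply hinjn
    rw [← IsScalarTower.algebraMap_apply B Bn E, ← IsScalarTower.algebraMap_apply R Bn E, haev,
      hRt]
  rw [isLocalization_iff]
  refine ⟨?_, ?_, ?_⟩
  · rintro ⟨_, d, hd, rfl⟩
    change IsUnit (algebraMap B Bn (aeval tB d))
    rw [hmap]
    exact (IsLocalization.map_units R
      (⟨d, hd⟩ : (Ideal.span {C π, X - C t₀} : Ideal O[X]).primeCompl)).map (algebraMap R Bn)
  · intro z
    obtain ⟨d, hd, b, hb⟩ := S18ICLOC_denom (B := B) π t₀ t hRt xE hBmem ht z
    refine ⟨(b, ⟨aeval tB d, d, hd, rfl⟩), ?_⟩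
    apply hinjn
    change algebraMap Bn E (z * algebraMap B Bn (aeval tB d)) = algebraMap Bn E (algebraMap B Bn b)
    rw [map_mul, ← IsScalarTower.algebraMap_apply B Bn E, ← IsScalarTower.algebraMap_apply B Bn E,
      haev, hb, mul_comm]
  · intro a b hab
    refine ⟨1, ?_⟩
    have : a = b := by
      apply hinj
      rw [IsScalarTower.algebraMap_apply B Bn E, IsScalarTower.algebraMap_apply B Bn E, hab]
    rw [this]

include hRt hBint hBmem hrel hBd ht in
/-- (v) **Transfer of the local structure from `Bn` to `B`.**  The conclusion of purity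
(`S18B_purity_local`) for `Bn` over `R`, with `π_R = C π` and `τ_R = X - C t₀`, gives `hloc` of the
norm descent for `B` at every maximal ideal `Q ∋ π, tB - t₀`, with `τ = tB - t₀`. -/
theorem S18ICLOC_hloc (hπ : IsLocalRing.maximalIdeal O = Ideal.span {π})
    (hinj : Function.Injective (algebraMap B E)) (tB : B) (htB : algebraMap B E tB = t)
    (Q : Ideal B) (hQ : Q.IsMaximal) (hτQ : tB - algebraMap O B t₀ ∈ Q)
    (h : ∀ M : Ideal Bn, M.IsMaximal →
      (∀ x ∈ M, ∃ s, s ∉ M ∧ ∃ a b : Bn, s * x =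
          a * algebraMap R Bn (algebraMap O[X] R (C π)) +
          b * algebraMap R Bn (algebraMap O[X] R (X - C t₀))) ∧
      ∀ (n : ℕ) (s : Bn), s ∉ M → ¬ algebraMap R Bn (algebraMap O[X] R (C π)) ∣
          s * algebraMap R Bn (algebraMap O[X] R (X - C t₀)) ^ n) :
    (∀ x ∈ Q, ∃ s, s ∉ Q ∧ ∃ a b : B, s * x =
        a * algebraMap O B π + b * (tB - algebraMap O B t₀)) ∧
      ∀ (n : ℕ) (s : B), s ∉ Q → ¬ algebraMap O B π ∣ s * (tB - algebraMap O B t₀) ^ n := by
  have hinjn : Function.Injective (algebraMap Bn E) :=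
    IsIntegralClosure.algebraMap_injective Bn R E
  have hle := S18ICLOC_le (Bn := Bn) (B := B) π t₀ t hRt xE hBint An Bd hrel hBd
  choose φ hφ using hle
  let φr : B →+* Bn :=
    { toFun := φ
      map_one' := by apply hinjn; rw [hφ, map_one, map_one]
      map_mul' := fun a b => by apply hinjn; rw [hφ, map_mul, map_mul, hφ, hφ]
      map_zero' := by apply hinjn; rw [hφ, map_zero, map_zero]
      map_add' := fun a b => by apply hinjn; rw [hφ, map_add, map_add, hφ, hφ] }
  let _ : Algebra B Bn := φr.toAlgebra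
  have : IsScalarTower B Bn E := IsScalarTower.of_algebraMap_eq (fun b => (hφ b).symm)
  have := S18ICLOC_isLocalization (Bn := Bn) (B := B) π t₀ t hRt xE hBmem ht hinj tB htB
  have hS : ∀ s ∈ Submonoid.map (aeval tB : O[X] →ₐ[O] B)
      (Ideal.span {C π, X - C t₀} : Ideal O[X]).primeCompl, s ∉ Q := by
    rintro _ ⟨d, hd, rfl⟩
    exact S18ICLOC_notMem hπ t₀ tB Q hQ.ne_top hτQ d hd
  have hπmap : algebraMap B Bn (algebraMap O B π) = algebraMap R Bn (algebraMap O[X] R (C π)) := by
    apply hinjn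
    rw [← IsScalarTower.algebraMap_apply B Bn E, ← IsScalarTower.algebraMap_apply R Bn E, hRt,
      aeval_C, ← IsScalarTower.algebraMap_apply O B E]
  have hτmap : algebraMap B Bn (tB - algebraMap O B t₀) =
      algebraMap R Bn (algebraMap O[X] R (X - C t₀)) := by
    apply hinjn
    rw [← IsScalarTower.algebraMap_apply B Bn E, ← IsScalarTower.algebraMap_apply R Bn E, hRt,
      map_sub, map_sub, aeval_X, aeval_C, htB, ← IsScalarTower.algebraMap_apply O B E]
  refine S18B_transfer (Bn := Bn) _ Q hQ hS (algebraMap O B π) (tB - algebraMap O B t₀) ?_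
  intro M hM
  rw [hπmap, hτmap]
  exact h M hM

end Closure

end Fermat.Agent.S18_helper24_ICLOC
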