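import Mathlib

set_option autoImplicit false

/-!
# S18 block B, glue T2: residue fields of an integral `O[x]`-algebra are trivial

`O` a local ring with algebraically closed residue field, `B` an `O`-algebra which is integral
over `O[x]`, `Q` a maximal ideal of `B` containing the image of the maximal ideal of `O`.
Then `B = O + Q` (every element of `B` is congruent modulo `Q` to a constant), and `B ⧸ Q` is
infinite.
-/

namespace Fermat.Agent.S18_helper4_T2

open IsLocalRing Polynomial

/-- Core: an algebraically closed field `k`, a field `κ`, and a ring hom `φ : k[X] → κ` over which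
`κ` is integral: then the constants already surject onto `κ`. -/
theorem S18T2_core {k κ : Type*} [Field k] [IsAlgClosed k] [Field κ] (φ : k[X] →+* κ)
    (hφ : φ.IsIntegral) : Function.Surjective (φ.comp (C : k →+* k[X])) := by
  have hfield : IsField (k[X] ⧸ RingHom.ker φ) := by
    let _ : Algebra (k[X] ⧸ RingHom.ker φ) κ := φ.kerLift.toAlgebra
    have : Algebra.IsIntegral (k[X] ⧸ RingHom.ker φ) κ := ⟨hφ.kerLift⟩
    exact isField_of_isIntegral_of_isField (R := k[X] ⧸ RingHom.ker φ) (S := κ)
      (RingHom.kerLift_injective φ) (Field.toIsField κ)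
  have hmax : (RingHom.ker φ).IsMaximal := Ideal.Quotient.maximal_of_isField _ hfield
  let _ : Field (k[X] ⧸ RingHom.ker φ) := Ideal.Quotient.field _
  have h1 : ((Ideal.Quotient.mk (RingHom.ker φ)).comp (C : k →+* k[X])).IsIntegral :=
    Polynomial.comp_C_integral_of_surjective_of_isJacobsonRing _ Ideal.Quotient.mk_surjective
  have h2 : (φ.kerLift.comp
      ((Ideal.Quotient.mk (RingHom.ker φ)).comp (C : k →+* k[X]))).IsIntegral :=
    RingHom.IsIntegral.trans _ _ h1 hφ.kerLift
  have h3 : φ.kerLift.comp ((Ideal.Quotient.mk (RingHom.ker φ)).comp (C : k →+* k[X])) =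
      φ.comp (C : k →+* k[X]) := by
    ext a
    simp
  rw [h3] at h2
  exact (IsAlgClosed.ringHom_bijective_of_isIntegral _ h2).2

/-- From the subalgebra form of integrality over `O[x]` to the ring-hom form. -/
theorem S18T2_isIntegralElem_of_adjoin {O B : Type*} [CommRing O] [CommRing B] [Algebra O B]
    (x b : B) (hb : IsIntegral (Algebra.adjoin O {x}) b) :
    (aeval x : O[X] →ₐ[O] B).toRingHom.IsIntegralElem b := by
  obtain ⟨Q, hQm, hQy⟩ := hb
  let φ' : O[X] →+* Algebra.adjoin O {x} :=
    ((aeval x : O[X] →ₐ[O] B).codRestrict (Algebra.adjoin O {x}) (fun P => by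
      rw [Algebra.adjoin_singleton_eq_range_aeval]
      exact ⟨P, rfl⟩)).toRingHom
  have hsurj : Function.Surjective φ' := by
    rintro ⟨a, ha⟩
    have ha' := ha
    rw [Algebra.adjoin_singleton_eq_range_aeval] at ha'
    obtain ⟨P, hP⟩ := ha'
    exact ⟨P, Subtype.ext hP⟩
  have hlift : Q ∈ Polynomial.lifts φ' := by
    rw [Polynomial.mem_lifts]
    exact Polynomial.map_surjective φ' hsurj Q
  obtain ⟨P, hPQ, -, hPm⟩ := Polynomial.lifts_and_natDegree_eq_and_monic hlift hQm
  refine ⟨P, hPm, ?_⟩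
  have hcomp : (aeval x : O[X] →ₐ[O] B).toRingHom =
      (algebraMap (Algebra.adjoin O {x}) B).comp φ' := by
    ext <;> rfl
  rw [hcomp, ← Polynomial.eval₂_map, hPQ]
  exact hQy

section Main

variable {O B : Type*} [CommRing O] [IsLocalRing O] [CommRing B] [Algebra O B]

/-- The map from the residue field of `O` to `B ⧸ Q`. -/
noncomputable def S18T2_resMap (Q : Ideal B)
    (hQ : ∀ c ∈ maximalIdeal O, algebraMap O B c ∈ Q) : ResidueField O →+* B ⧸ Q :=
  Ideal.Quotient.lift (maximalIdeal O) ((Ideal.Quotient.mk Q).comp (algebraMap O B))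
    (fun c hc => Ideal.Quotient.eq_zero_iff_mem.mpr (hQ c hc))

theorem S18T2_resMap_residue (Q : Ideal B)
    (hQ : ∀ c ∈ maximalIdeal O, algebraMap O B c ∈ Q) (c : O) :
    S18T2_resMap Q hQ (residue O c) = Ideal.Quotient.mk Q (algebraMap O B c) := by
  rfl

/-- Ring-hom form: `B` integral over (the image of) `O[X]`. -/
theorem S18T2_exists_sub_mem_of_ringHom [IsAlgClosed (ResidueField O)] (ψ : O[X] →+* B)
    (hψC : ∀ c : O, ψ (C c) = algebraMap O B c) (hψ : ψ.IsIntegral)
    (Q : Ideal B) [Q.IsMaximal] (hQ : ∀ c ∈ maximalIdeal O, algebraMap O B c ∈ Q) (b : B) :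
    ∃ c : O, b - algebraMap O B c ∈ Q := by
  let _ : Field (B ⧸ Q) := Ideal.Quotient.field Q
  let g : ResidueField O →+* B ⧸ Q := S18T2_resMap Q hQ
  let φ : (ResidueField O)[X] →+* B ⧸ Q := eval₂RingHom g (Ideal.Quotient.mk Q (ψ X))
  have hcomp : φ.comp (mapRingHom (residue O)) = (Ideal.Quotient.mk Q).comp ψ := by
    refine Polynomial.ringHom_ext (fun c => ?_) ?_
    · simp only [RingHom.comp_apply, coe_mapRingHom, map_C, φ, coe_eval₂RingHom, eval₂_C, hψC]
      rfl
    · simp only [RingHom.comp_apply, coe_mapRingHom, map_X, φ, coe_eval₂RingHom, eval₂_X]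
  have h1 : ((Ideal.Quotient.mk Q).comp ψ).IsIntegral :=
    RingHom.IsIntegral.trans _ _ hψ
      (RingHom.isIntegral_of_surjective _ Ideal.Quotient.mk_surjective)
  rw [← hcomp] at h1
  have h2 : φ.IsIntegral := RingHom.IsIntegral.tower_top _ _ h1
  obtain ⟨cbar, hcbar⟩ := S18T2_core φ h2 (Ideal.Quotient.mk Q b)
  obtain ⟨c, rfl⟩ := Ideal.Quotient.mk_surjective (I := maximalIdeal O) cbar
  refine ⟨c, ?_⟩
  have h3 : Ideal.Quotient.mk Q (algebraMap O B c) = Ideal.Quotient.mk Q b := by
    rw [← hcbar]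
    simp only [RingHom.comp_apply, φ, coe_eval₂RingHom, eval₂_C]
    rfl
  exact Ideal.Quotient.eq.mp h3.symm

/-- **T2**, subalgebra form: `B` integral over `O[x]`, `Q` maximal over the maximal ideal of `O`,
residue field of `O` algebraically closed: every `b : B` is congruent to a constant modulo `Q`. -/
theorem S18T2_exists_sub_mem [IsAlgClosed (ResidueField O)] (x : B)
    (hint : ∀ b : B, IsIntegral (Algebra.adjoin O {x}) b)
    (Q : Ideal B) [Q.IsMaximal] (hQ : ∀ c ∈ maximalIdeal O, algebraMap O B c ∈ Q) (b : B) :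
    ∃ c : O, b - algebraMap O B c ∈ Q :=
  S18T2_exists_sub_mem_of_ringHom (aeval x : O[X] →ₐ[O] B).toRingHom
    (fun c => by simp) (fun b => S18T2_isIntegralElem_of_adjoin x b (hint b)) Q hQ b

/-- `B ⧸ Q` is infinite as soon as `Q` is a proper ideal containing the image of the maximal ideal
of `O` (no integrality needed). -/
theorem S18T2_infinite_quotient [IsAlgClosed (ResidueField O)] (Q : Ideal B) (hQ1 : Q ≠ ⊤)
    (hQ : ∀ c ∈ maximalIdeal O, algebraMap O B c ∈ Q) : Infinite (B ⧸ Q) := by
  have : Nontrivial (B ⧸ Q) := Ideal.Quotient.nontrivial_iff.mpr hQ1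
  exact Infinite.of_injective (S18T2_resMap Q hQ) (S18T2_resMap Q hQ).injective

end Main

section Tower

variable {O A B : Type*} [CommRing O] [IsLocalRing O] [IsAlgClosed (ResidueField O)]
  [CommRing A] [CommRing B] [Algebra O A] [Algebra A B] [Algebra O B] [IsScalarTower O A B]

/-- **T2 in the shape `hres` of the norm descent**: `O → A → B`, `B` integral over `O[x]`
(`x : B`, e.g. the image of the coordinate of the chart), `π` in the maximal ideal `m` of `A`
lying under `Q`. -/
theorem S18T2_hres (x : B) (hint : ∀ b : B, IsIntegral (Algebra.adjoin O {x}) b)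
    (m : Ideal A) (hm : ∀ c ∈ maximalIdeal O, algebraMap O A c ∈ m)
    (Q : Ideal B) (hQmax : Q.IsMaximal) (hQm : Q.comap (algebraMap A B) = m) (b : B) :
    ∃ a : A, b - algebraMap A B a ∈ Q := by
  have hQ : ∀ c ∈ maximalIdeal O, algebraMap O B c ∈ Q := by
    intro c hc
    have h1 : algebraMap O A c ∈ Q.comap (algebraMap A B) := by
      rw [hQm]
      exact hm c hc
    rw [Ideal.mem_comap, ← IsScalarTower.algebraMap_apply] at h1
    exact h1
  obtain ⟨c, hc⟩ := S18T2_exists_sub_mem x hint Q hQ b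
  refine ⟨algebraMap O A c, ?_⟩
  rw [← IsScalarTower.algebraMap_apply]
  exact hc

/-- Same with integrality split along the tower: `A` integral over `O[x]` (`x : A`) and `B`
integral over `A`. -/
theorem S18T2_hres_tower (x : A) (hA : ∀ a : A, IsIntegral (Algebra.adjoin O {x}) a)
    [Algebra.IsIntegral A B]
    (m : Ideal A) (hm : ∀ c ∈ maximalIdeal O, algebraMap O A c ∈ m)
    (Q : Ideal B) (hQmax : Q.IsMaximal) (hQm : Q.comap (algebraMap A B) = m) (b : B) :
    ∃ a : A, b - algebraMap A B a ∈ Q := by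
  have hQ : ∀ c ∈ maximalIdeal O, algebraMap O B c ∈ Q := by
    intro c hc
    have h1 : algebraMap O A c ∈ Q.comap (algebraMap A B) := by
      rw [hQm]
      exact hm c hc
    rw [Ideal.mem_comap, ← IsScalarTower.algebraMap_apply] at h1
    exact h1
  have hψA : (aeval x : O[X] →ₐ[O] A).toRingHom.IsIntegral :=
    fun a => S18T2_isIntegralElem_of_adjoin x a (hA a)
  have hAB : (algebraMap A B).IsIntegral := fun z => Algebra.IsIntegral.isIntegral (R := A) z
  have hψ := RingHom.IsIntegral.trans _ _ hψA hAB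
  obtain ⟨c, hc⟩ := S18T2_exists_sub_mem_of_ringHom
    ((algebraMap A B).comp (aeval x : O[X] →ₐ[O] A).toRingHom)
    (fun c => by
      simp only [RingHom.comp_apply, AlgHom.toRingHom_eq_coe, RingHom.coe_coe, aeval_C]
      exact (IsScalarTower.algebraMap_apply O A B c).symm) hψ Q hQ b
  refine ⟨algebraMap O A c, ?_⟩
  rw [← IsScalarTower.algebraMap_apply]
  exact hc

/-- `A ⧸ m` is infinite (hypothesis `[Infinite (A ⧸ m)]` of the abstract norm trick). -/
theorem S18T2_infinite_of_comap (m : Ideal A) [m.IsMaximal]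
    (hm : ∀ c ∈ maximalIdeal O, algebraMap O A c ∈ m) : Infinite (A ⧸ m) :=
  S18T2_infinite_quotient m (Ideal.IsMaximal.ne_top ‹_›) hm

end Tower

end Fermat.Agent.S18_helper4_T2
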