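import Mathlib
import Fermat.Agent.S18_helper17_BDefs

set_option autoImplicit false

/-!
# S18 block B, glue T3: faithfulness modulo `π` from the cover structure

`O` a local ring with maximal ideal `(π)`, `B` an `O`-algebra, `Q` a prime ideal of `B` containing
`π` and `τ = t - t₀`, with `τ` not nilpotent modulo `π` locally at `Q`
(`h2 : ∀ n s, s ∉ Q → ¬ π ∣ s * τ ^ n`).  Then no polynomial `p ∈ O[X] \ π O[X]` vanishes at `t`
modulo `π` locally at `Q`; consequently two roots `t`, `t'` of a cover relation (in the sense of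
`S18B_Cover`) which agree modulo `π` locally at `Q` are equal.
-/

namespace Fermat.Agent.S18_helper4_T3

open IsLocalRing Polynomial Fermat.Agent.S18_helper17_BDefs

section NonVanishing

variable {O B : Type*} [CommRing O] [CommRing B] [Algebra O B]

/-- Shape lemma: a polynomial `q` not divisible by `π`, evaluated at an element `τ` of a prime
ideal `Q` which contains no image of an element of `O` prime to `π`:
`q(τ) = π b + τ ^ n * w` with `w ∉ Q`. -/
theorem S18T3_shape (π : O) (τ : B) (Q : Ideal B) [Q.IsPrime] (hτQ : τ ∈ Q)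
    (hunit : ∀ a : O, ¬ π ∣ a → algebraMap O B a ∉ Q) :
    ∀ (d : ℕ) (q : O[X]), q.natDegree ≤ d → ¬ C π ∣ q →
      ∃ (n : ℕ) (b w : B), w ∉ Q ∧ aeval τ q = algebraMap O B π * b + τ ^ n * w := by
  intro d
  induction d with
  | zero =>
    intro q hq hdiv
    have hqC : q = C (q.coeff 0) := Polynomial.eq_C_of_natDegree_le_zero hq
    have ha : ¬ π ∣ q.coeff 0 := by
      intro h
      apply hdiv
      rw [hqC]
      exact _root_.map_dvd C h
    refine ⟨0, 0, algebraMap O B (q.coeff 0), hunit _ ha, ?_⟩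
    rw [hqC, aeval_C]
    simp
  | succ d ih =>
    intro q hq hdiv
    by_cases ha : π ∣ q.coeff 0
    · obtain ⟨c, hc⟩ := ha
      have hdiv' : ¬ C π ∣ q.divX := by
        intro h
        apply hdiv
        obtain ⟨r, hr⟩ := h
        refine ⟨r * X + C c, ?_⟩
        rw [← Polynomial.divX_mul_X_add q, hr, hc]
        simp only [map_mul]
        ring
      have hdeg : q.divX.natDegree ≤ d := by
        rw [Polynomial.natDegree_divX_eq_natDegree_tsub_one]
        omega
      obtain ⟨n, b, w, hw, hq'⟩ := ih q.divX hdeg hdiv'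
      refine ⟨n + 1, τ * b + algebraMap O B c, w, hw, ?_⟩
      have h1 : aeval τ q = aeval τ q.divX * τ + algebraMap O B (q.coeff 0) := by
        conv_lhs => rw [← Polynomial.divX_mul_X_add q]
        simp
      rw [h1, hq', hc, map_mul]
      ring
    · refine ⟨0, 0, aeval τ q, ?_, by simp⟩
      intro hmem
      have h1 : aeval τ q = aeval τ q.divX * τ + algebraMap O B (q.coeff 0) := by
        conv_lhs => rw [← Polynomial.divX_mul_X_add q]
        simp
      have h2 : algebraMap O B (q.coeff 0) ∈ Q := by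
        have h3 : algebraMap O B (q.coeff 0) = aeval τ q - aeval τ q.divX * τ := by
          rw [h1]; ring
        rw [h3]
        exact Q.sub_mem hmem (Q.mul_mem_left _ hτQ)
      exact hunit _ ha h2

/-- Re-centering a polynomial at `t₀`. -/
theorem S18T3_taylor_comp (t₀ : O) (p : O[X]) :
    (Polynomial.taylor t₀ p).comp (X - C t₀) = p := by
  rw [Polynomial.taylor_apply, Polynomial.comp_assoc]
  simp

theorem S18T3_not_dvd_taylor (π t₀ : O) (p : O[X]) (hp : ¬ C π ∣ p) :
    ¬ C π ∣ Polynomial.taylor t₀ p := by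
  intro h
  apply hp
  obtain ⟨r, hr⟩ := h
  refine ⟨r.comp (X - C t₀), ?_⟩
  rw [← S18T3_taylor_comp t₀ p, hr, Polynomial.mul_comp, Polynomial.C_comp]

theorem S18T3_aeval_taylor (t : B) (t₀ : O) (p : O[X]) :
    aeval (t - algebraMap O B t₀) (Polynomial.taylor t₀ p) = aeval t p := by
  conv_rhs => rw [← S18T3_taylor_comp t₀ p]
  rw [Polynomial.aeval_comp]
  simp

/-- General form of the non-vanishing lemma (no local ring hypothesis). -/
theorem S18T3_not_dvd_aeval_of_unit (π : O) (t : B) (t₀ : O) (Q : Ideal B) [Q.IsPrime]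
    (hτQ : t - algebraMap O B t₀ ∈ Q)
    (hunit : ∀ a : O, ¬ π ∣ a → algebraMap O B a ∉ Q)
    (h2 : ∀ (n : ℕ) (s : B), s ∉ Q → ¬ algebraMap O B π ∣ s * (t - algebraMap O B t₀) ^ n)
    (p : O[X]) (hp : ¬ C π ∣ p) (s : B) (hs : s ∉ Q) :
    ¬ algebraMap O B π ∣ s * aeval t p := by
  obtain ⟨n, b, w, hw, hq⟩ := S18T3_shape π (t - algebraMap O B t₀) Q hτQ hunit _
    (Polynomial.taylor t₀ p) le_rfl (S18T3_not_dvd_taylor π t₀ p hp)
  rw [S18T3_aeval_taylor] at hq
  intro hdiv
  have hsw : s * w ∉ Q := fun h => (Ideal.IsPrime.mem_or_mem ‹Q.IsPrime› h).elim hs hw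
  apply h2 n (s * w) hsw
  have h3 : s * w * (t - algebraMap O B t₀) ^ n =
      s * aeval t p - algebraMap O B π * (s * b) := by
    rw [hq]; ring
  rw [h3]
  exact dvd_sub hdiv (Dvd.intro _ rfl)

/-- In a local ring with maximal ideal `(π)`, elements prime to `π` are units, so their images
avoid every proper ideal. -/
theorem S18T3_hunit [IsLocalRing O] (π : O) (hπ : maximalIdeal O = Ideal.span {π})
    (Q : Ideal B) (hQ : Q ≠ ⊤) (a : O) (ha : ¬ π ∣ a) : algebraMap O B a ∉ Q := by
  have hu : IsUnit a := by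
    by_contra hnu
    have hmem : a ∈ maximalIdeal O := (IsLocalRing.mem_maximalIdeal a).mpr hnu
    rw [hπ, Ideal.mem_span_singleton] at hmem
    exact ha hmem
  intro hmem
  exact hQ (Ideal.eq_top_of_isUnit_mem Q hmem (hu.map (algebraMap O B)))

/-- **T3 (a)**: non-vanishing modulo `π` at `Q` of `p(t)` for `p ∈ O[X] \ π O[X]`. -/
theorem S18T3_not_dvd_aeval [IsLocalRing O] (π : O) (hπ : maximalIdeal O = Ideal.span {π})
    (t : B) (t₀ : O) (Q : Ideal B) [Q.IsPrime] (hτQ : t - algebraMap O B t₀ ∈ Q)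
    (h2 : ∀ (n : ℕ) (s : B), s ∉ Q → ¬ algebraMap O B π ∣ s * (t - algebraMap O B t₀) ^ n)
    (p : O[X]) (hp : ¬ C π ∣ p) (s : B) (hs : s ∉ Q) :
    ¬ algebraMap O B π ∣ s * aeval t p :=
  S18T3_not_dvd_aeval_of_unit π t t₀ Q hτQ
    (S18T3_hunit π hπ Q (Ideal.IsPrime.ne_top ‹Q.IsPrime›)) h2 p hp s hs

end NonVanishing

section Faith

/-- **T3 (b)**: two roots `t, t' ∈ B` of the cover relation which are congruent modulo `π`
locally at `Q` coincide.  (`hfaith` of the norm descent: apply with `t' := h • t`.) -/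
theorem S18T3_faith {O F1 E : Type} {B : Type*} [CommRing O] [IsLocalRing O]
    [Field F1] [Algebra O F1] [Field E] [Algebra F1 E] [Algebra O E] [IsScalarTower O F1 E]
    [CommRing B] [Algebra O B] [Algebra B E] [IsScalarTower O B E]
    (hBE : Function.Injective (algebraMap B E))
    (π : O) (hπ : maximalIdeal O = Ideal.span {π}) (x : F1) (An Bd : O[X])
    (hcov : S18B_Cover O F1 π x An Bd) (t t' : B)
    (hrel : S18B_rel x An Bd E (algebraMap B E t))
    (hrel' : S18B_rel x An Bd E (algebraMap B E t'))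
    (t₀ : O) (Q : Ideal B) [Q.IsPrime] (hτQ : t - algebraMap O B t₀ ∈ Q)
    (h2 : ∀ (n : ℕ) (s : B), s ∉ Q → ¬ algebraMap O B π ∣ s * (t - algebraMap O B t₀) ^ n)
    (s : B) (hs : s ∉ Q) (hdiv : algebraMap O B π ∣ s * (t' - t)) : t' = t := by
  by_contra hne
  have hneE : algebraMap B E t' ≠ algebraMap B E t := fun h => hne (hBE h)
  obtain ⟨p, q, -, hpq, hp⟩ := hcov.faith E (algebraMap B E t) (algebraMap B E t') hrel hrel' hneE
  have hB : aeval t q * (t' - t) = aeval t p := by
    apply hBE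
    rw [map_mul, map_sub, ← Polynomial.aeval_algebraMap_apply, ← Polynomial.aeval_algebraMap_apply]
    exact hpq
  apply S18T3_not_dvd_aeval π hπ t t₀ Q hτQ h2 p hp s hs
  rw [← hB]
  have h3 : s * (aeval t q * (t' - t)) = aeval t q * (s * (t' - t)) := by ring
  rw [h3]
  exact Dvd.dvd.mul_left hdiv _

end Faith

end Fermat.Agent.S18_helper4_T3
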