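import Mathlib
import Fermat.Agent.S18_helper17_BDefs
import Fermat.Agent.S18_helper17_LOC
import Fermat.Agent.S18_helper12_NORM
import Fermat.Agent.S18_helper15_SPLIT
import Fermat.Agent.S18_helper4_T2
import Fermat.Agent.S18_helper4_T3
import Fermat.Agent.S18_helper24_T4
import Fermat.Agent.S18_helper24_ICLOC

set_option autoImplicit false
set_option linter.unusedSectionVars false
set_option linter.style.haveILetI false
set_option linter.unusedVariables false

namespace Fermat.Agent.S18_helper17_IG

open Polynomial Fermat.Agent.S18_helper17_BDefs Fermat.Agent.S18_helper17_BASE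
  Fermat.Agent.S18_helper17_LOC

section core

variable {O : Type} [CommRing O] [IsDomain O] [IsDiscreteValuationRing O]
    {F1 : Type} [Field F1] [CharZero F1] [Algebra O F1] [FaithfulSMul O F1]
    {A : Type} [CommRing A] [Algebra O A] [Algebra A F1] [IsScalarTower O A F1]
    [FaithfulSMul A F1]

instance S18B_smulCommClass (E : Type) [Field E] [Algebra F1 E] [Algebra A E]
    [IsScalarTower A F1 E] : SMulCommClass (E ≃ₐ[F1] E) A E where
  smul_comm g a y := by
    rw [AlgEquiv.smul_def, AlgEquiv.smul_def, Algebra.smul_def, Algebra.smul_def, map_mul,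
      IsScalarTower.algebraMap_apply A F1 E, AlgEquiv.commutes]

theorem S18B_isInvariant [IsDomain A] [IsFractionRing A F1] [IsIntegrallyClosed A]
    (E : Type) [Field E] [Algebra F1 E] [Algebra A E] [IsScalarTower A F1 E]
    [FiniteDimensional F1 E] [IsGalois F1 E] :
    Algebra.IsInvariant A (integralClosure A E) (E ≃ₐ[F1] E) := by
  refine ⟨fun b hb => ?_⟩
  have hb' : (b : E) ∈ IntermediateField.fixedField (⊤ : Subgroup (E ≃ₐ[F1] E)) := by
    rintro ⟨g, -⟩
    have := congrArg (fun z : integralClosure A E => (z : E)) (hb g)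
    simpa using this
  have hG : IsGalois F1 E := inferInstance
  have hfix : IntermediateField.fixedField (⊤ : Subgroup (E ≃ₐ[F1] E)) = ⊥ :=
    ((IsGalois.tfae (F := F1) (E := E)).out 0 1).mp hG
  rw [hfix, IntermediateField.mem_bot] at hb'
  obtain ⟨y, hy⟩ := hb'
  have hbi : IsIntegral A (b : E) := b.2
  rw [← hy, isIntegral_algebraMap_iff (FaithfulSMul.algebraMap_injective F1 E)] at hbi
  obtain ⟨a, rfl⟩ := IsIntegrallyClosed.algebraMap_eq_of_integral hbi
  refine ⟨a, ?_⟩
  apply Subtype.ext
  rw [← hy, ← IsScalarTower.algebraMap_apply]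
  rfl

/-- integrality over `O[x]` inside `E` implies integrality over `A`. -/
theorem S18B_isIntegral_of_adjoin (x : A) (E : Type) [Field E] [Algebra A E] [Algebra O E]
    [IsScalarTower O A E] (y : E)
    (h : IsIntegral (Algebra.adjoin O {algebraMap A E x}) y) : IsIntegral A y := by
  obtain ⟨p, hp, hpy⟩ := Fermat.Agent.S18_helper4_T2.S18T2_isIntegralElem_of_adjoin _ y h
  refine ⟨p.map (aeval x : O[X] →ₐ[O] A).toRingHom, hp.map _, ?_⟩
  rw [eval₂_map]
  have : (algebraMap A E).comp (aeval x : O[X] →ₐ[O] A).toRingHom =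
      (aeval (algebraMap A E x) : O[X] →ₐ[O] E).toRingHom := by
    apply Polynomial.ringHom_ext
    · intro a
      simp only [RingHom.comp_apply, AlgHom.toRingHom_eq_coe, RingHom.coe_coe, aeval_C]
      rw [← IsScalarTower.algebraMap_apply]
    · simp
  rw [this]
  exact hpy

/-- from the ring-hom form of integrality over `O[x]` to the subalgebra form -/
theorem S18B_isIntegral_adjoin_of_elem (E : Type) [CommRing E] [Algebra O E] (xE y : E)
    (h : (aeval xE : O[X] →ₐ[O] E).toRingHom.IsIntegralElem y) :
    IsIntegral (Algebra.adjoin O {xE}) y := by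
  obtain ⟨p, hp, hpy⟩ := h
  let φ' : O[X] →+* Algebra.adjoin O {xE} :=
    ((aeval xE : O[X] →ₐ[O] E).codRestrict (Algebra.adjoin O {xE}) (fun P => by
      rw [Algebra.adjoin_singleton_eq_range_aeval]
      exact ⟨P, rfl⟩)).toRingHom
  refine ⟨p.map φ', hp.map _, ?_⟩
  rw [eval₂_map]
  have : (algebraMap (Algebra.adjoin O {xE}) E).comp φ' =
      (aeval xE : O[X] →ₐ[O] E).toRingHom := by
    ext <;> rfl
  rw [this]
  exact hpy

/-- `t` is transcendental over `O`. -/
theorem S18B_transcendental_t [IsDomain A]
    (π : O) (x : A) (hx : Transcendental O x)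
    (An Bd : O[X]) (hcov : S18B_Cover O F1 π (algebraMap A F1 x) An Bd)
    (E : Type) [Field E] [Algebra F1 E]
    [Algebra O E] [IsScalarTower O F1 E] [Algebra A E] [IsScalarTower A F1 E]
    [IsScalarTower O A E]
    (t : E) (ht : S18B_rel (algebraMap A F1 x) An Bd E t) : Transcendental O t := by
  intro halg
  apply hx
  have hinjAE : Function.Injective (algebraMap A E) := by
    rw [IsScalarTower.algebraMap_eq A F1 E]
    exact (FaithfulSMul.algebraMap_injective F1 E).comp (FaithfulSMul.algebraMap_injective A F1)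
  rw [← isAlgebraic_algebraMap_iff (R := O) hinjAE]
  have hmem : ∀ p : O[X], IsAlgebraic O (aeval t p) := by
    intro p
    rw [← Subalgebra.mem_algebraicClosure]
    have h1 : Algebra.adjoin O {t} ≤ Subalgebra.algebraicClosure O E := by
      rw [Algebra.adjoin_le_iff]
      intro z hz
      rw [Set.mem_singleton_iff] at hz
      rw [hz]
      exact (Subalgebra.mem_algebraicClosure O E).2 halg
    exact h1 (aeval_mem_adjoin_singleton O t)
  have hBdE : aeval t Bd ≠ 0 := hcov.den_ne E t ht
  have hxE : algebraMap A E x = aeval t An * (aeval t Bd)⁻¹ := by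
    have := ht
    unfold S18B_rel at this
    rw [this, ← IsScalarTower.algebraMap_apply A F1 E, mul_assoc, mul_inv_cancel₀ hBdE, mul_one]
  rw [hxE]
  exact (hmem An).mul (hmem Bd).inv

/-- local structure of the cover at a maximal ideal of `B''` (from PUR + transfer) -/
theorem S18B_hloc [IsDomain A]
    (π : O) (hπ : Irreducible π) [hk : IsAlgClosed (IsLocalRing.ResidueField O)]
    (x : A) (hx : Transcendental O x)
    (hA' : ∀ a : A, IsIntegral (Algebra.adjoin O {x}) a)
    (V : A) (P₀ : Polynomial O[X]) (hP₀ : P₀.Monic)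
    (hP₀V : aeval V (P₀.map (aeval x : O[X] →ₐ[O] A).toRingHom) = 0)
    (hVgen : ∀ y : F1, ∃ (num : Polynomial O[X]) (den : O[X]), den ≠ 0 ∧
      y * algebraMap A F1 (aeval x den) =
        algebraMap A F1 (aeval V (num.map (aeval x : O[X] →ₐ[O] A).toRingHom)))
    (hsep : ∀ (κ : Type) [Field κ] (f : O[X] →+* κ), (∀ p, f p = 0 ↔ C π ∣ p) →
      (P₀.map f).Separable)
    (An Bd : O[X]) (hcov : S18B_Cover O F1 π (algebraMap A F1 x) An Bd)
    (E : Type) [Field E] [Algebra F1 E]
    [Algebra O E] [IsScalarTower O F1 E] [Algebra A E] [IsScalarTower A F1 E]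
    [IsScalarTower O A E]
    (t : E) (ht : S18B_rel (algebraMap A F1 x) An Bd E t)
    (hgen : IntermediateField.adjoin F1 {t} = ⊤)
    (m' : Ideal (integralClosure A E)) (hm' : m'.IsMaximal)
    (hπm' : algebraMap O (integralClosure A E) π ∈ m')
    (t₀ : O) (hBd : ¬ π ∣ Bd.eval t₀)
    (tB : integralClosure A E) (htB : algebraMap (integralClosure A E) E tB = t)
    (hτm : tB - algebraMap O (integralClosure A E) t₀ ∈ m')
    (hhor : S18B_Hor O F1 π (algebraMap A F1 x) An Bd t₀) :
    (∀ y ∈ m', ∃ s, s ∉ m' ∧ ∃ a b : integralClosure A E,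
        s * y = a * algebraMap O (integralClosure A E) π
          + b * (tB - algebraMap O (integralClosure A E) t₀)) ∧
      ∀ (n : ℕ) (s : integralClosure A E), s ∉ m' →
        ¬ algebraMap O (integralClosure A E) π ∣
          s * (tB - algebraMap O (integralClosure A E) t₀) ^ n := by
  classical
  have hOmax : IsLocalRing.maximalIdeal O = Ideal.span {π} := Irreducible.maximalIdeal_eq hπ
  have hspanmax : (Ideal.span {π} : Ideal O).IsMaximal :=
    hOmax ▸ IsLocalRing.maximalIdeal.isMaximal O
  haveI hn : (Ideal.span {C π, X - C t₀} : Ideal O[X]).IsPrime :=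
    (S18B_n0_isMaximal π t₀ hspanmax).isPrime
  have htr : Transcendental O t := S18B_transcendental_t π x hx An Bd hcov E t ht
  have hinjt : Function.Injective (aeval t : O[X] →ₐ[O] E) :=
    transcendental_iff_injective.1 htr
  haveI : IsDomain (S18B_Rloc π t₀) :=
    S18B_R_isDomain π t₀ _
  have hunits : ∀ s : (Ideal.span {C π, X - C t₀} : Ideal O[X]).primeCompl,
      IsUnit ((aeval t : O[X] →ₐ[O] E).toRingHom s) := by
    intro s
    refine IsUnit.mk0 _ fun h0 => s.2 ?_
    have : (s : O[X]) = 0 := hinjt (by simpa using h0)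
    rw [this]
    exact Ideal.zero_mem _
  letI : Algebra (S18B_Rloc π t₀) E :=
    (IsLocalization.lift hunits).toAlgebra
  have hRt : ∀ p : O[X],
      algebraMap (S18B_Rloc π t₀) E
        (algebraMap O[X] _ p) = aeval t p := fun p => IsLocalization.lift_eq hunits p
  haveI : FaithfulSMul (S18B_Rloc π t₀) E := by
    rw [faithfulSMul_iff_algebraMap_injective]
    show Function.Injective (IsLocalization.lift hunits)
    rw [IsLocalization.lift_injective_iff]
    intro a b
    constructor
    · intro h
      have : a = b := S18B_R_injective π t₀ _ h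
      rw [this]
    · intro h
      have : a = b := hinjt h
      rw [this]
  letI : Algebra (FractionRing (S18B_Rloc π t₀)) E :=
    FractionRing.liftAlgebra _ E
  haveI : IsScalarTower (S18B_Rloc π t₀)
      (FractionRing (S18B_Rloc π t₀)) E :=
    FractionRing.isScalarTower_liftAlgebra _ E
  have hpur := S18B_hloc_abs π hπ x hx V P₀ hP₀ hP₀V hVgen hsep An Bd hcov E t ht hgen t₀ hBd
    (S18B_Rloc π t₀) hRt
    (FractionRing (S18B_Rloc π t₀)) hhor
  have hinjBE : Function.Injective (algebraMap (integralClosure A E) E) := Subtype.val_injective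
  have hψA : (aeval x : O[X] →ₐ[O] A).toRingHom.IsIntegral :=
    fun a => Fermat.Agent.S18_helper4_T2.S18T2_isIntegralElem_of_adjoin x a (hA' a)
  have hAB : (algebraMap A (integralClosure A E)).IsIntegral :=
    fun z => Algebra.IsIntegral.isIntegral (R := A) z
  have hψ := RingHom.IsIntegral.trans _ _ hψA hAB
  have hcompE : (algebraMap (integralClosure A E) E).comp
      ((algebraMap A (integralClosure A E)).comp (aeval x : O[X] →ₐ[O] A).toRingHom) =
      (aeval (algebraMap A E x) : O[X] →ₐ[O] E).toRingHom := by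
    apply Polynomial.ringHom_ext
    · intro a
      simp only [RingHom.comp_apply, AlgHom.toRingHom_eq_coe, RingHom.coe_coe, aeval_C]
      rw [← IsScalarTower.algebraMap_apply A (integralClosure A E) E,
        ← IsScalarTower.algebraMap_apply O A E]
    · simp only [RingHom.comp_apply, AlgHom.toRingHom_eq_coe, RingHom.coe_coe, aeval_X]
      rw [← IsScalarTower.algebraMap_apply A (integralClosure A E) E]
  have hBint : ∀ b : integralClosure A E,
      IsIntegral (Algebra.adjoin O {algebraMap A E x}) (algebraMap (integralClosure A E) E b) := by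
    intro b
    apply S18B_isIntegral_adjoin_of_elem
    obtain ⟨p, hp, hpb⟩ := hψ b
    refine ⟨p, hp, ?_⟩
    rw [← hcompE, ← Polynomial.hom_eval₂, hpb, map_zero]
  have hBmem : ∀ y : E, IsIntegral (Algebra.adjoin O {algebraMap A E x}) y →
      ∃ b : integralClosure A E, algebraMap (integralClosure A E) E b = y :=
    fun y hy => ⟨⟨y, S18B_isIntegral_of_adjoin x E y hy⟩, rfl⟩
  have hxE : algebraMap A E x = algebraMap F1 E (algebraMap A F1 x) :=
    IsScalarTower.algebraMap_apply A F1 E x
  have hrel : aeval t An = algebraMap A E x * aeval t Bd := by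
    rw [hxE]; exact ht
  have htint : IsIntegral (Algebra.adjoin O {algebraMap A E x}) t := by
    rw [hxE]; exact hcov.integral_t E t ht
  exact Fermat.Agent.S18_helper24_ICLOC.S18ICLOC_hloc
    (R := S18B_Rloc π t₀)
    (Bn := integralClosure (S18B_Rloc π t₀) E)
    (B := integralClosure A E) π t₀ t hRt (algebraMap A E x) hBint hBmem An Bd hrel hBd htint
    hOmax hinjBE tB htB m' hm' hτm hpur

theorem S18B_IG_core [IsDomain A] [IsFractionRing A F1] [IsIntegrallyClosed A]
    [IsNoetherianRing A]
    (π : O) (hπ : Irreducible π) [hk : IsAlgClosed (IsLocalRing.ResidueField O)]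
    (x : A) (hx : Transcendental O x)
    (hA' : ∀ a : A, IsIntegral (Algebra.adjoin O {x}) a)
    (V : A) (P₀ : Polynomial O[X]) (hP₀ : P₀.Monic)
    (hP₀V : aeval V (P₀.map (aeval x : O[X] →ₐ[O] A).toRingHom) = 0)
    (hVgen : ∀ y : F1, ∃ (num : Polynomial O[X]) (den : O[X]), den ≠ 0 ∧
      y * algebraMap A F1 (aeval x den) =
        algebraMap A F1 (aeval V (num.map (aeval x : O[X] →ₐ[O] A).toRingHom)))
    (hsep : ∀ (κ : Type) [Field κ] (f : O[X] →+* κ), (∀ p, f p = 0 ↔ C π ∣ p) →
      (P₀.map f).Separable)
    (An Bd : O[X]) (hcov : S18B_Cover O F1 π (algebraMap A F1 x) An Bd)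
    (m : Ideal A) (hm : m.IsMaximal) (hπm : algebraMap O A π ∈ m)
    (hhor : ∀ t₀ : O, (∃ c : O, x - algebraMap O A c ∈ m ∧ π ∣ An.eval t₀ - c * Bd.eval t₀) →
      ¬ π ∣ Bd.eval t₀ → S18B_Hor O F1 π (algebraMap A F1 x) An Bd t₀)
    (E : Type) [Field E] [Algebra F1 E] [FiniteDimensional F1 E] [IsGalois F1 E]
    [Algebra O E] [IsScalarTower O F1 E] [Algebra A E] [IsScalarTower A F1 E]
    [IsScalarTower O A E]
    (t : E) (ht : S18B_rel (algebraMap A F1 x) An Bd E t)
    (hgen : IntermediateField.adjoin F1 {t} = ⊤) :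
    S18B_IGat (algebraMap O A π) m := by
  haveI := hm
  haveI : Algebra.IsInvariant A (integralClosure A E) (E ≃ₐ[F1] E) := S18B_isInvariant E
  haveI : Algebra.IsSeparable F1 E := inferInstance
  haveI : Module.Finite A (integralClosure A E) := IsIntegralClosure.finite A F1 E _
  have hinjAE : Function.Injective (algebraMap A E) := by
    rw [IsScalarTower.algebraMap_eq A F1 E]
    exact (FaithfulSMul.algebraMap_injective F1 E).comp (FaithfulSMul.algebraMap_injective A F1)
  have hinjBE : Function.Injective (algebraMap (integralClosure A E) E) := Subtype.val_injective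
  haveI : FaithfulSMul A (integralClosure A E) := by
    rw [faithfulSMul_iff_algebraMap_injective]
    intro a b hab
    apply hinjAE
    exact congrArg (fun z : integralClosure A E => (z : E)) hab
  have hπ0 : algebraMap O A π ≠ 0 := by
    intro h
    have h1 : algebraMap O F1 π = 0 := by
      rw [IsScalarTower.algebraMap_apply O A F1, h, map_zero]
    exact hπ.ne_zero ((FaithfulSMul.algebraMap_injective O F1) (by rw [h1, map_zero]))
  have hOmax : IsLocalRing.maximalIdeal O = Ideal.span {π} := Irreducible.maximalIdeal_eq hπ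
  have hmO : ∀ c ∈ IsLocalRing.maximalIdeal O, algebraMap O A c ∈ m := by
    rw [hOmax]
    intro c hc
    obtain ⟨d, rfl⟩ := Ideal.mem_span_singleton.1 hc
    rw [map_mul]
    exact m.mul_mem_right _ hπm
  have hres : ∀ m' : Ideal (integralClosure A E), m'.IsMaximal →
      m'.comap (algebraMap A (integralClosure A E)) = m →
      ∀ b : integralClosure A E, ∃ a : A, b - algebraMap A (integralClosure A E) a ∈ m' :=
    fun m' hm' hm'm b =>
      Fermat.Agent.S18_helper4_T2.S18T2_hres_tower (O := O) x hA' m hmO m' hm' hm'm b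
  have hBmem : ∀ y : E,
      IsIntegral (Algebra.adjoin O {algebraMap F1 E (algebraMap A F1 x)}) y →
      ∃ b : integralClosure A E, algebraMap (integralClosure A E) E b = y := by
    intro y hy
    rw [← IsScalarTower.algebraMap_apply A F1 E] at hy
    exact ⟨⟨y, S18B_isIntegral_of_adjoin x E y hy⟩, rfl⟩
  -- the local data
  have hdata : ∀ m' : Ideal (integralClosure A E), m'.IsMaximal →
      m'.comap (algebraMap A (integralClosure A E)) = m →
      ∃ (tB : integralClosure A E) (t₀ : O), algebraMap (integralClosure A E) E tB = t ∧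
        tB - algebraMap O (integralClosure A E) t₀ ∈ m' ∧
        (∀ y ∈ m', ∃ s, s ∉ m' ∧ ∃ a b : integralClosure A E,
          s * y = a * algebraMap O (integralClosure A E) π
            + b * (tB - algebraMap O (integralClosure A E) t₀)) ∧
        ∀ (n : ℕ) (s : integralClosure A E), s ∉ m' →
          ¬ algebraMap O (integralClosure A E) π ∣
            s * (tB - algebraMap O (integralClosure A E) t₀) ^ n := by
    intro m' hm' hm'm
    have hπm' : algebraMap O (integralClosure A E) π ∈ m' := by
      rw [IsScalarTower.algebraMap_apply O A (integralClosure A E)]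
      have : algebraMap O A π ∈ m'.comap (algebraMap A (integralClosure A E)) := hm'm ▸ hπm
      exact this
    have hresO : ∀ b : integralClosure A E, ∃ c : O,
        b - algebraMap O (integralClosure A E) c ∈ m' := by
      intro b
      have hQ : ∀ c ∈ IsLocalRing.maximalIdeal O, algebraMap O (integralClosure A E) c ∈ m' := by
        intro c hc
        rw [IsScalarTower.algebraMap_apply O A (integralClosure A E)]
        have : algebraMap O A c ∈ m'.comap (algebraMap A (integralClosure A E)) :=
          hm'm ▸ hmO c hc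
        exact this
      have hψA : (aeval x : O[X] →ₐ[O] A).toRingHom.IsIntegral :=
        fun a => Fermat.Agent.S18_helper4_T2.S18T2_isIntegralElem_of_adjoin x a (hA' a)
      have hAB : (algebraMap A (integralClosure A E)).IsIntegral :=
        fun z => Algebra.IsIntegral.isIntegral (R := A) z
      have hψ := RingHom.IsIntegral.trans _ _ hψA hAB
      haveI := hm'
      exact Fermat.Agent.S18_helper4_T2.S18T2_exists_sub_mem_of_ringHom
        ((algebraMap A (integralClosure A E)).comp (aeval x : O[X] →ₐ[O] A).toRingHom)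
        (fun c => by
          simp only [RingHom.comp_apply, AlgHom.toRingHom_eq_coe, RingHom.coe_coe, aeval_C]
          exact (IsScalarTower.algebraMap_apply O A (integralClosure A E) c).symm) hψ m' hQ b
    obtain ⟨tB, t₀, htB, htm, ⟨c, hc, hAn⟩, hBd⟩ :=
      Fermat.Agent.S18_helper24_T4.S18T4_point_chart hOmax hcov x rfl E t ht
        (B := integralClosure A E) hinjBE hBmem m' hm'.ne_top hπm' hresO
    rw [hm'm] at hc
    obtain ⟨h1, h2⟩ := S18B_hloc π hπ x hx hA' V P₀ hP₀ hP₀V hVgen hsep An Bd hcov E t ht hgen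
      m' hm' hπm' t₀ hBd tB htB htm (hhor t₀ ⟨c, hc, hAn⟩ hBd)
    exact ⟨tB, t₀, htB, htm, h1, h2⟩
  have hπAB : algebraMap A (integralClosure A E) (algebraMap O A π) =
      algebraMap O (integralClosure A E) π :=
    (IsScalarTower.algebraMap_apply O A (integralClosure A E) π).symm
  refine Fermat.Agent.S18_helper12_NORM.S18B_norm_descent (A := A) (B := integralClosure A E)
    (E ≃ₐ[F1] E) (algebraMap O A π) hπ0 m hπm hres ?_ ?_
  · intro m' hm' hm'm
    obtain ⟨tB, t₀, htB, htm, h1, h2⟩ := hdata m' hm' hm'm
    rw [hπAB]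
    exact ⟨_, htm, h1, h2⟩
  · intro m' hm' hm'm h hh
    obtain ⟨tB, t₀, htB, htm, h1, h2⟩ := hdata m' hm' hm'm
    obtain ⟨s, hs, hdiv⟩ := hh tB
    rw [hπAB] at hdiv
    haveI := hm'.isPrime
    have hrel : S18B_rel (algebraMap A F1 x) An Bd E (algebraMap (integralClosure A E) E tB) := by
      rw [htB]; exact ht
    have hrel' : S18B_rel (algebraMap A F1 x) An Bd E
        (algebraMap (integralClosure A E) E (h • tB)) := by
      have e1 : algebraMap (integralClosure A E) E (h • tB) = h t := by
        rw [← htB]; rfl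
      rw [e1]
      unfold S18B_rel at ht ⊢
      have e2 : ∀ p : O[X], aeval (h t) p = h (aeval t p) := fun p =>
        Polynomial.aeval_algHom_apply ((h.toAlgHom).restrictScalars O) t p
      rw [e2, e2, ht, map_mul, AlgEquiv.commutes]
    have hfix : h • tB = tB :=
      Fermat.Agent.S18_helper4_T3.S18T3_faith hinjBE π hOmax (algebraMap A F1 x) An Bd hcov
        tB (h • tB) hrel hrel' t₀ m' htm h2 s hs hdiv
    have hht : h t = t := by
      have e1 : algebraMap (integralClosure A E) E (h • tB) = h t := by
        rw [← htB]; rfl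
      have := congrArg (algebraMap (integralClosure A E) E) hfix
      rw [e1, htB] at this
      exact this
    -- `h` fixes `F1(t) = E`
    apply AlgEquiv.ext
    intro z
    have hz : z ∈ IntermediateField.adjoin F1 {t} := by rw [hgen]; trivial
    have : z ∈ IntermediateField.fixedField (Subgroup.zpowers h) := by
      revert z
      have hle : IntermediateField.adjoin F1 {t} ≤
          IntermediateField.fixedField (Subgroup.zpowers h) := by
        rw [IntermediateField.adjoin_simple_le_iff]
        rintro ⟨g, hg⟩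
        obtain ⟨k, rfl⟩ := Subgroup.mem_zpowers_iff.1 hg
        show (h ^ k) t = t
        have hstab : h ∈ MulAction.stabilizer (E ≃ₐ[F1] E) t := hht
        exact (MulAction.stabilizer (E ≃ₐ[F1] E) t).zpow_mem hstab k
      exact fun z hz => hle hz
    exact this ⟨h, Subgroup.mem_zpowers h⟩


theorem S18B_isScalarTower_splittingField (f : F1[X]) : IsScalarTower O A f.SplittingField :=
  IsScalarTower.of_algebraMap_eq fun a => by
    rw [IsScalarTower.algebraMap_apply O F1 f.SplittingField,
      IsScalarTower.algebraMap_apply A F1 f.SplittingField,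
      ← IsScalarTower.algebraMap_apply O A F1]

/-- **X-B-ASM, generic form**: `[IG]` at a maximal ideal `m ∋ π` of the chart ring `A`. -/
theorem S18B_IG_generic [IsDomain A] [IsFractionRing A F1] [IsIntegrallyClosed A]
    [IsNoetherianRing A]
    (π : O) (hπ : Irreducible π) [hk : IsAlgClosed (IsLocalRing.ResidueField O)]
    (x : A) (hx : Transcendental O x)
    (hA' : ∀ a : A, IsIntegral (Algebra.adjoin O {x}) a)
    (V : A) (P₀ : Polynomial O[X]) (hP₀ : P₀.Monic)
    (hP₀V : aeval V (P₀.map (aeval x : O[X] →ₐ[O] A).toRingHom) = 0)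
    (hVgen : ∀ y : F1, ∃ (num : Polynomial O[X]) (den : O[X]), den ≠ 0 ∧
      y * algebraMap A F1 (aeval x den) =
        algebraMap A F1 (aeval V (num.map (aeval x : O[X] →ₐ[O] A).toRingHom)))
    (hsep : ∀ (κ : Type) [Field κ] (f : O[X] →+* κ), (∀ p, f p = 0 ↔ C π ∣ p) →
      (P₀.map f).Separable)
    (An Bd : O[X]) (hcov : S18B_Cover O F1 π (algebraMap A F1 x) An Bd)
    (m : Ideal A) (hm : m.IsMaximal) (hπm : algebraMap O A π ∈ m)
    (hhor : ∀ t₀ : O, (∃ c : O, x - algebraMap O A c ∈ m ∧ π ∣ An.eval t₀ - c * Bd.eval t₀) →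
      ¬ π ∣ Bd.eval t₀ → S18B_Hor O F1 π (algebraMap A F1 x) An Bd t₀) :
    S18B_IGat (algebraMap O A π) m := by
  obtain ⟨t, ht, hgen⟩ :=
    Fermat.Agent.S18_helper15_SPLIT.S18B_splittingField_root π (algebraMap A F1 x) An Bd hcov
  haveI : IsGalois F1
      (An.map (algebraMap O F1) - C (algebraMap A F1 x) * Bd.map (algebraMap O F1)).SplittingField :=
    Fermat.Agent.S18_helper15_SPLIT.S18B_isGalois_splittingField _
  haveI : IsScalarTower O A
      (An.map (algebraMap O F1) - C (algebraMap A F1 x) * Bd.map (algebraMap O F1)).SplittingField :=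
    S18B_isScalarTower_splittingField _
  exact S18B_IG_core π hπ x hx hA' V P₀ hP₀ hP₀V hVgen hsep An Bd hcov m hm hπm hhor _ t ht hgen

end core

end Fermat.Agent.S18_helper17_IG
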