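import Mathlib

set_option autoImplicit false

namespace Fermat.Agent.S24_helper8_LDER

open HahnSeries

variable {L : Type*} [Field L]

/-- Coefficients of a product of Laurent series as a sum over an interval. -/
theorem coeff_mul_Icc (x y : LaurentSeries L) (a b : ℤ) (ha : ∀ i < a, x.coeff i = 0)
    (hb : ∀ j < b, y.coeff j = 0) (n : ℤ) :
    (x * y).coeff n = ∑ i ∈ Finset.Icc a (n - b), x.coeff i * y.coeff (n - i) := by
  rw [HahnSeries.coeff_mul]
  refine Finset.sum_of_injOn (fun ij => ij.1) ?_ ?_ ?_ ?_
  · intro p hp q hq hpq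
    simp only [Finset.mem_coe, Finset.mem_antidiagonal] at hp hq
    refine Prod.ext hpq ?_
    have h1 := hp.2.2
    have h2 := hq.2.2
    simp only at hpq
    omega
  · intro p hp
    simp only [Finset.mem_coe, Finset.mem_antidiagonal, HahnSeries.mem_support] at hp
    simp only [Finset.coe_Icc, Set.mem_Icc]
    obtain ⟨h1, h2, h3⟩ := hp
    constructor
    · by_contra h
      exact h1 (ha _ (not_le.mp h))
    · by_contra h
      apply h2
      apply hb
      omega
  · intro i hi hni
    simp only [Set.mem_image, Finset.mem_coe, Finset.mem_antidiagonal,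
      HahnSeries.mem_support, Prod.exists, exists_and_right, exists_eq_right, not_exists,
      not_and] at hni
    by_cases h1 : x.coeff i = 0
    · simp [h1]
    · by_cases h2 : y.coeff (n - i) = 0
      · simp [h2]
      · exact absurd (by ring) (hni (n - i) h1 h2)
  · intro p hp
    simp only [Finset.mem_antidiagonal] at hp
    have : p.2 = n - p.1 := by have := hp.2.2; omega
    rw [this]

theorem derivative_coeff (x : LaurentSeries L) (n : ℤ) :
    (LaurentSeries.derivative L x).coeff n = ((n : L) + 1) * x.coeff (n + 1) := by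
  rw [LaurentSeries.derivative_apply, LaurentSeries.hasseDeriv_coeff]
  simp only [Nat.cast_one, Ring.choose_one_right, zsmul_eq_mul]
  push_cast
  ring

theorem LDER_mul (x y : LaurentSeries L) :
    LaurentSeries.derivative L (x * y) =
      x * LaurentSeries.derivative L y + LaurentSeries.derivative L x * y := by
  ext n
  have hx : ∀ i < x.order, x.coeff i = 0 := fun i hi => coeff_eq_zero_of_lt_order hi
  have hy : ∀ j < y.order, y.coeff j = 0 := fun j hj => coeff_eq_zero_of_lt_order hj
  have hdx : ∀ i < x.order - 1, (LaurentSeries.derivative L x).coeff i = 0 := by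
    intro i hi
    rw [derivative_coeff, hx (i + 1) (by omega), mul_zero]
  have hdy : ∀ j < y.order - 1, (LaurentSeries.derivative L y).coeff j = 0 := by
    intro j hj
    rw [derivative_coeff, hy (j + 1) (by omega), mul_zero]
  rw [HahnSeries.coeff_add, derivative_coeff,
    coeff_mul_Icc x y x.order y.order hx hy (n + 1),
    coeff_mul_Icc x _ x.order (y.order - 1) hx hdy n,
    coeff_mul_Icc _ y (x.order - 1) y.order hdx hy n]
  have e1 : n - (y.order - 1) = n + 1 - y.order := by ring
  rw [e1]
  have e2 : ∑ i ∈ Finset.Icc (x.order - 1) (n - y.order),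
        (LaurentSeries.derivative L x).coeff i * y.coeff (n - i)
      = ∑ i ∈ Finset.Icc x.order (n + 1 - y.order),
        ((i : L) * x.coeff i) * y.coeff (n + 1 - i) := by
    have : Finset.Icc x.order (n + 1 - y.order)
        = (Finset.Icc (x.order - 1) (n - y.order)).map (addRightEmbedding 1) := by
      rw [Finset.map_add_right_Icc]
      congr 1 <;> ring
    rw [this, Finset.sum_map]
    refine Finset.sum_congr rfl fun i _ => ?_
    simp only [addRightEmbedding_apply]
    rw [derivative_coeff]
    have : n + 1 - (i + 1) = n - i := by ring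
    rw [this]
    push_cast
    ring
  rw [e2, Finset.mul_sum, ← Finset.sum_add_distrib]
  refine Finset.sum_congr rfl fun i _ => ?_
  rw [derivative_coeff]
  have : n - i + 1 = n + 1 - i := by ring
  rw [this]
  push_cast
  ring

theorem LDER_C (c : L) :
    LaurentSeries.derivative L (HahnSeries.C c : LaurentSeries L) = 0 := by
  ext n
  rw [derivative_coeff, HahnSeries.coeff_zero]
  by_cases h : n + 1 = 0
  · have : (n : L) + 1 = 0 := by
      have h' := congrArg (Int.cast : ℤ → L) h
      push_cast at h'
      exact h'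
    rw [this, zero_mul]
  · rw [HahnSeries.C_apply, HahnSeries.coeff_single_of_ne h, mul_zero]

theorem LDER_order [CharZero L] (x : LaurentSeries L) (hx : x.order ≠ 0) :
    (LaurentSeries.derivative L x).order = x.order - 1 ∧ LaurentSeries.derivative L x ≠ 0 := by
  have hx0 : x ≠ 0 := by
    rintro rfl
    exact hx HahnSeries.order_zero
  have hlead : x.coeff x.order ≠ 0 := fun h => hx0 (HahnSeries.coeff_order_eq_zero.mp h)
  have hc : (LaurentSeries.derivative L x).coeff (x.order - 1) ≠ 0 := by
    rw [derivative_coeff]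
    have : x.order - 1 + 1 = x.order := by ring
    rw [this]
    refine mul_ne_zero ?_ hlead
    have : ((x.order - 1 : ℤ) : L) + 1 = ((x.order : ℤ) : L) := by push_cast; ring
    rw [this]
    exact_mod_cast hx
  have hne : LaurentSeries.derivative L x ≠ 0 := HahnSeries.ne_zero_of_coeff_ne_zero hc
  refine ⟨le_antisymm (HahnSeries.order_le_of_coeff_ne_zero hc) ?_, hne⟩
  rw [HahnSeries.le_order_iff_forall hne]
  intro j hj
  rw [derivative_coeff, coeff_eq_zero_of_lt_order (by omega), mul_zero]

/-- Rescaling `s ↦ ζ s` as a function. -/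
noncomputable def rescFun (ζ : L) (x : LaurentSeries L) : LaurentSeries L where
  coeff n := ζ ^ n * x.coeff n
  isPWO_support' := by
    refine x.isPWO_support.mono fun n hn => ?_
    simp only [Function.mem_support, ne_eq, HahnSeries.mem_support] at hn ⊢
    exact fun h => hn (by rw [h, mul_zero])

@[simp] theorem rescFun_coeff (ζ : L) (x : LaurentSeries L) (n : ℤ) :
    (rescFun ζ x).coeff n = ζ ^ n * x.coeff n := rfl

/-- Rescaling `s ↦ ζ s` as a ring homomorphism. -/
noncomputable def resc (ζ : L) (hζ : ζ ≠ 0) : LaurentSeries L →+* LaurentSeries L where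
  toFun := rescFun ζ
  map_one' := by
    ext n
    rw [rescFun_coeff]
    by_cases h : n = 0
    · subst h
      simp
    · simp [HahnSeries.coeff_one, h]
  map_zero' := by
    ext n
    simp
  map_add' x y := by
    ext n
    simp [mul_add]
  map_mul' x y := by
    ext n
    have hx : ∀ i < x.order, x.coeff i = 0 := fun i hi => coeff_eq_zero_of_lt_order hi
    have hy : ∀ j < y.order, y.coeff j = 0 := fun j hj => coeff_eq_zero_of_lt_order hj
    have hrx : ∀ i < x.order, (rescFun ζ x).coeff i = 0 := fun i hi => by
      rw [rescFun_coeff, hx i hi, mul_zero]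
    have hry : ∀ j < y.order, (rescFun ζ y).coeff j = 0 := fun j hj => by
      rw [rescFun_coeff, hy j hj, mul_zero]
    rw [rescFun_coeff, coeff_mul_Icc x y _ _ hx hy, coeff_mul_Icc _ _ _ _ hrx hry,
      Finset.mul_sum]
    refine Finset.sum_congr rfl fun i _ => ?_
    rw [rescFun_coeff, rescFun_coeff]
    have : ζ ^ n = ζ ^ i * ζ ^ (n - i) := by
      rw [← zpow_add₀ hζ]
      congr 1
      ring
    rw [this]
    ring

theorem resc_coeff (ζ : L) (hζ : ζ ≠ 0) (x : LaurentSeries L) (n : ℤ) :
    (resc ζ hζ x).coeff n = ζ ^ n * x.coeff n := rfl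

theorem resc_C (ζ : L) (hζ : ζ ≠ 0) (c : L) : resc ζ hζ (HahnSeries.C c) = HahnSeries.C c := by
  ext n
  rw [resc_coeff, HahnSeries.C_apply]
  by_cases h : n = 0
  · subst h
    simp
  · rw [HahnSeries.coeff_single_of_ne h, mul_zero]

theorem resc_orderTop (ζ : L) (hζ : ζ ≠ 0) (x : LaurentSeries L) :
    (resc ζ hζ x).orderTop = x.orderTop := by
  apply le_antisymm
  · rw [HahnSeries.le_orderTop_iff_forall]
    intro j hj
    have := HahnSeries.coeff_eq_zero_of_lt_orderTop hj
    rw [resc_coeff] at this
    exact (mul_eq_zero.mp this).resolve_left (zpow_ne_zero _ hζ)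
  · rw [HahnSeries.le_orderTop_iff_forall]
    intro j hj
    rw [resc_coeff, HahnSeries.coeff_eq_zero_of_lt_orderTop hj, mul_zero]

theorem RESC (ζ : L) (hζ : ζ ≠ 0) :
    ∃ r : LaurentSeries L →+* LaurentSeries L, (∀ x n, (r x).coeff n = ζ ^ n * x.coeff n) ∧
      (∀ c : L, r (HahnSeries.C c) = HahnSeries.C c) ∧ ∀ x, (r x).orderTop = x.orderTop :=
  ⟨resc ζ hζ, resc_coeff ζ hζ, resc_C ζ hζ, resc_orderTop ζ hζ⟩

end Fermat.Agent.S24_helper8_LDER
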