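import Mathlib
import Fermat.Agent.S24_helper8_LDER

set_option autoImplicit false

namespace Fermat.Agent.S18_helper1_SEP

open Polynomial IntermediateField

variable {k M : Type*} [Field k] [Field M] [Algebra k M]

/-- An element with nonzero derivative is transcendental over a perfect field of constants. -/
theorem S18SEP_transcendental [PerfectField k] (D : Derivation k M M) (jb : M)
    (hj : D jb ≠ 0) : Transcendental k jb := by
  intro halg
  have hint : IsIntegral k jb := halg.isIntegral
  have hirr := minpoly.irreducible hint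
  have hsep := PerfectField.separable_of_irreducible hirr
  have h0 : D (aeval jb (minpoly k jb)) = aeval jb (derivative (minpoly k jb)) • D jb :=
    Derivation.comp_aeval_eq jb D _
  rw [minpoly.aeval, map_zero] at h0
  have h1 : aeval jb (derivative (minpoly k jb)) ≠ 0 :=
    hsep.aeval_derivative_ne_zero (minpoly.aeval k jb)
  exact (smul_ne_zero h1 hj) h0.symm

/-- The derivation maps `k(jb)` into `k(jb) * D jb`. -/
theorem S18SEP_D_mem (D : Derivation k M M) (jb : M) (c : M) (hc : c ∈ k⟮jb⟯) :
    ∃ c' ∈ k⟮jb⟯, D c = c' * D jb := by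
  induction hc using IntermediateField.adjoin_induction with
  | mem x hx =>
    rw [Set.mem_singleton_iff] at hx
    subst hx
    exact ⟨1, one_mem _, (one_mul _).symm⟩
  | algebraMap x =>
    exact ⟨0, zero_mem _, by rw [D.map_algebraMap, zero_mul]⟩
  | add x y hx hy ihx ihy =>
    obtain ⟨a, ha, hxa⟩ := ihx
    obtain ⟨b, hb, hyb⟩ := ihy
    exact ⟨a + b, add_mem ha hb, by rw [map_add, hxa, hyb, add_mul]⟩
  | inv x hx ih =>
    obtain ⟨a, ha, hxa⟩ := ih
    refine ⟨-x⁻¹ ^ 2 * a, mul_mem (neg_mem (pow_mem (inv_mem hx) 2)) ha, ?_⟩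
    rw [Derivation.leibniz_inv, hxa, smul_eq_mul, mul_assoc]
  | mul x y hx hy ihx ihy =>
    obtain ⟨a, ha, hxa⟩ := ihx
    obtain ⟨b, hb, hyb⟩ := ihy
    refine ⟨x * b + y * a, add_mem (mul_mem hx hb) (mul_mem hy ha), ?_⟩
    rw [Derivation.leibniz, hxa, hyb, smul_eq_mul, smul_eq_mul]
    ring

/-- `D (y ^ p) = 0` in characteristic `p`. -/
theorem S18SEP_D_pow_char (p : ℕ) [CharP k p] (D : Derivation k M M) (y : M) :
    D (y ^ p) = 0 := by
  have : CharP M p := (Algebra.charP_iff k M p).mp inferInstance
  rw [Derivation.leibniz_pow]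
  rw [← Nat.cast_smul_eq_nsmul M, CharP.cast_eq_zero, zero_smul]

/-- A constant of the derivation inside `k(jb)` is a `p`-th power in `k(jb)`. -/
theorem S18SEP_const_is_pow [PerfectField k] (p : ℕ) [hp : Fact p.Prime] [CharP k p]
    (D : Derivation k M M) (jb : M) (hj : D jb ≠ 0) (c : M) (hc : c ∈ k⟮jb⟯) (hDc : D c = 0) :
    ∃ b ∈ k⟮jb⟯, c = b ^ p := by
  have htr := S18SEP_transcendental D jb hj
  obtain ⟨r, s, hrs⟩ := (IntermediateField.mem_adjoin_simple_iff k c).mp hc
  by_cases hs : aeval jb s = 0
  · refine ⟨0, zero_mem _, ?_⟩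
    rw [hrs, hs, div_zero, zero_pow hp.out.ne_zero]
  have hG : aeval jb (r * s ^ (p - 1)) = c * (aeval jb s) ^ p := by
    rw [hrs, map_mul, map_pow]
    have : p = (p - 1) + 1 := (Nat.succ_pred_eq_of_pos hp.out.pos).symm
    conv_rhs => rw [this, pow_succ]
    field_simp
  have hDG : D (aeval jb (r * s ^ (p - 1))) = 0 := by
    rw [hG, Derivation.leibniz, hDc, S18SEP_D_pow_char p D, smul_zero, smul_zero, add_zero]
  rw [Derivation.comp_aeval_eq, smul_eq_mul] at hDG
  have hG' : aeval jb (derivative (r * s ^ (p - 1))) = 0 := by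
    rcases mul_eq_zero.mp hDG with h | h
    · exact h
    · exact absurd h hj
  have hG0 : derivative (r * s ^ (p - 1)) = 0 := (transcendental_iff.mp htr) _ hG'
  have hexp := Polynomial.expand_contract p hG0 hp.out.ne_zero
  have : ExpChar k p := ExpChar.prime hp.out
  rw [polynomial_expand_eq] at hexp
  set W := Polynomial.map ((frobeniusEquiv k p).symm : k →+* k) (contract p (r * s ^ (p - 1))) with hW
  refine ⟨aeval jb W / aeval jb s, ?_, ?_⟩
  · exact (IntermediateField.mem_adjoin_simple_iff k _).mpr ⟨W, s, rfl⟩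
  · rw [div_pow, ← map_pow, hexp, hG]
    field_simp


/-- Derivative of `g(y)` when `D y = 0`: only the coefficients are differentiated. -/
theorem S18SEP_D_aeval_const (D : Derivation k M M) (L : IntermediateField k M) (y : M)
    (hy : D y = 0) (g : L[X]) :
    D (aeval y g) = ∑ i ∈ Finset.range (g.natDegree + 1), D ((g.coeff i : L) : M) * y ^ i := by
  rw [Polynomial.aeval_eq_sum_range, map_sum]
  refine Finset.sum_congr rfl fun i _ => ?_
  rw [Algebra.smul_def, Derivation.leibniz, Derivation.leibniz_pow, hy, smul_zero, smul_zero,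
    smul_zero, zero_add, smul_eq_mul, IntermediateField.algebraMap_apply, mul_comm]

/-- Separability over `k(jb)` of algebraic elements, characteristic `p` case. -/
theorem S18SEP_isSeparable_charP [PerfectField k] (p : ℕ) [hp : Fact p.Prime] [CharP k p]
    (D : Derivation k M M) (jb : M) (hj : D jb ≠ 0) (x : M) (hx : IsIntegral k⟮jb⟯ x) :
    IsSeparable k⟮jb⟯ x := by
  have hirr := minpoly.irreducible hx
  have hcL : CharP k⟮jb⟯ p := (Algebra.charP_iff k k⟮jb⟯ p).mp inferInstance
  rcases Polynomial.separable_or p hirr with hsep | ⟨_, g, hg, hgP⟩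
  · exact hsep
  exfalso
  have hy : D (x ^ p) = 0 := S18SEP_D_pow_char p D x
  have hgy : aeval (x ^ p) g = 0 := by
    rw [← Polynomial.expand_aeval, hgP, minpoly.aeval]
  have hgm : g.Monic := by
    have := minpoly.monic hx
    rw [← hgP] at this
    exact (Polynomial.monic_expand_iff hp.out.pos).mp this
  have hgmin : g = minpoly k⟮jb⟯ (x ^ p) := minpoly.eq_of_irreducible_of_monic hg hgy hgm
  -- coefficient derivative
  have hf : ∀ c : k⟮jb⟯, ∃ c' : k⟮jb⟯, D (c : M) = (c' : M) * D jb := by
    intro c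
    obtain ⟨c', hc', h⟩ := S18SEP_D_mem D jb c c.2
    exact ⟨⟨c', hc'⟩, h⟩
  choose f hf using hf
  have hf0 : ∀ c : k⟮jb⟯, D (c : M) = 0 → f c = 0 := by
    intro c hc
    have := hf c
    rw [hc] at this
    rcases mul_eq_zero.mp this.symm with h | h
    · exact Subtype.ext h
    · exact absurd h hj
  have hf_zero : f 0 = 0 := hf0 0 (by simp)
  have hf_one : f 1 = 0 := hf0 1 (by simp)
  set n := g.natDegree with hn
  set Q : k⟮jb⟯[X] := ∑ i ∈ Finset.range (n + 1), Polynomial.monomial i (f (g.coeff i)) with hQ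
  have hQc : ∀ m, Q.coeff m = f (g.coeff m) := by
    intro m
    rw [hQ, Polynomial.finsetSum_coeff]
    simp only [Polynomial.coeff_monomial]
    rw [Finset.sum_ite_eq' (Finset.range (n + 1)) m (fun i => f (g.coeff i))]
    split_ifs with h
    · rfl
    · rw [Finset.mem_range, not_lt] at h
      rw [Polynomial.coeff_eq_zero_of_natDegree_lt (by omega), hf_zero]
  have hQy : aeval (x ^ p) Q * D jb = 0 := by
    have h1 := S18SEP_D_aeval_const D k⟮jb⟯ (x ^ p) hy g
    rw [hgy, map_zero] at h1
    rw [hQ, map_sum, Finset.sum_mul, h1]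
    refine Finset.sum_congr rfl fun i _ => ?_
    rw [Polynomial.aeval_monomial, hf, IntermediateField.algebraMap_apply]
    ring
  have hQy0 : aeval (x ^ p) Q = 0 := by
    rcases mul_eq_zero.mp hQy with h | h
    · exact h
    · exact absurd h hj
  have hQdeg : Q.degree < g.degree := by
    rw [Polynomial.degree_eq_natDegree hgm.ne_zero, Polynomial.degree_lt_iff_coeff_zero]
    intro m hm
    rw [hQc]
    rcases eq_or_lt_of_le hm with h | h
    · rw [← h, ← hn]
      have : g.coeff g.natDegree = 1 := hgm
      rw [this, hf_one]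
    · rw [Polynomial.coeff_eq_zero_of_natDegree_lt h, hf_zero]
  have hQ0 : Q = 0 := by
    by_contra hne
    have := minpoly.degree_le_of_ne_zero k⟮jb⟯ (x ^ p) hne hQy0
    rw [← hgmin] at this
    exact absurd this (not_le.mpr hQdeg)
  have key : ∀ i, D ((g.coeff i : k⟮jb⟯) : M) = 0 := by
    intro i
    rw [hf, ← hQc, hQ0, Polynomial.coeff_zero, ZeroMemClass.coe_zero, zero_mul]
  have hlift : g ∈ Polynomial.lifts (frobenius k⟮jb⟯ p) := by
    rw [Polynomial.lifts_iff_coeff_lifts]
    intro i
    obtain ⟨b, hb, hbc⟩ := S18SEP_const_is_pow p D jb hj _ (g.coeff i).2 (key i)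
    exact ⟨⟨b, hb⟩, Subtype.ext (by simp [frobenius_def, hbc])⟩
  obtain ⟨h, hh⟩ := hlift
  have hpow : minpoly k⟮jb⟯ x = h ^ p := by
    rw [← hgP, ← Polynomial.map_frobenius_expand, Polynomial.map_expand]
    congr 1
    exact hh.symm
  exact not_irreducible_pow hp.out.ne_one (hpow ▸ hirr)


/-- **Separability from a derivation.** `k` a perfect field, `M/k` a field with a `k`-derivation
`D`, `jb ∈ M` with `D jb ≠ 0`. Every element of `M` algebraic over `k(jb)` is separable over
`k(jb)`. -/
theorem S18SEP_isSeparable_of_derivation [PerfectField k] (D : Derivation k M M) (jb : M)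
    (hj : D jb ≠ 0) (x : M) (hx : IsIntegral k⟮jb⟯ x) : IsSeparable k⟮jb⟯ x := by
  obtain ⟨p, hp⟩ := CharP.exists k
  rcases CharP.char_is_prime_or_zero k p with hpp | hp0
  · have : Fact p.Prime := ⟨hpp⟩
    exact S18SEP_isSeparable_charP p D jb hj x hx
  · subst hp0
    have : CharZero k := CharP.charP_to_charZero k
    have : CharZero k⟮jb⟯ := charZero_of_injective_algebraMap (algebraMap k k⟮jb⟯).injective
    exact (minpoly.irreducible hx).separable

/-- Intermediate-field form: an intermediate field of `M / k(jb)` which is algebraic over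
`k(jb)` is separable over `k(jb)`. -/
theorem S18SEP_algebra_isSeparable [PerfectField k] (D : Derivation k M M) (jb : M)
    (hj : D jb ≠ 0) (κ : IntermediateField k⟮jb⟯ M) [Algebra.IsAlgebraic k⟮jb⟯ κ] :
    Algebra.IsSeparable k⟮jb⟯ κ := by
  refine ⟨fun x => ?_⟩
  have hx : IsIntegral k⟮jb⟯ x := Algebra.IsIntegral.isIntegral x
  have hx' : IsIntegral k⟮jb⟯ (x : M) := hx.map (IsScalarTower.toAlgHom k⟮jb⟯ κ M)
  have := S18SEP_isSeparable_of_derivation D jb hj (x : M) hx'
  unfold IsSeparable at this ⊢
  rwa [← minpoly.algebraMap_eq (algebraMap κ M).injective x]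

/-! ### The `q`-derivative on Laurent series -/

theorem S18SEP_algebraMap_eq_C (k : Type*) [Field k] (c : k) :
    algebraMap k (LaurentSeries k) c = HahnSeries.C c := by
  rw [HahnSeries.algebraMap_apply']
  simp

/-- The `q`-derivative of Laurent series as a `k`-derivation (for the `k`-module structure
coming from the `k`-algebra structure of `LaurentSeries k`). -/
noncomputable def S18SEP_lderiv (k : Type*) [Field k] :
    @Derivation k (LaurentSeries k) (LaurentSeries k) _ _ _ _ _ Algebra.toModule :=
  letI : Module k (LaurentSeries k) := Algebra.toModule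
  { toFun := fun x => LaurentSeries.derivative k x
    map_add' := fun x y => map_add _ x y
    map_smul' := fun c x => by
      simp only [RingHom.id_apply]
      rw [Algebra.smul_def, Algebra.smul_def, Fermat.Agent.S24_helper8_LDER.LDER_mul,
        S18SEP_algebraMap_eq_C, Fermat.Agent.S24_helper8_LDER.LDER_C, zero_mul,
        add_zero]
    map_one_eq_zero' := by
      have := Fermat.Agent.S24_helper8_LDER.LDER_C (1 : k)
      rw [map_one] at this
      exact this
    leibniz' := fun a b => by
      show LaurentSeries.derivative k (a * b) =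
        a • LaurentSeries.derivative k b + b • LaurentSeries.derivative k a
      rw [Fermat.Agent.S24_helper8_LDER.LDER_mul, smul_eq_mul, smul_eq_mul, mul_comm b] }

theorem S18SEP_lderiv_apply (k : Type*) [Field k] (x : LaurentSeries k) :
    S18SEP_lderiv k x = LaurentSeries.derivative k x := rfl

theorem S18SEP_lderiv_coeff (k : Type*) [Field k] (x : LaurentSeries k) (n : ℤ) :
    (LaurentSeries.derivative k x).coeff n = ((n : k) + 1) * x.coeff (n + 1) :=
  Fermat.Agent.S24_helper8_LDER.derivative_coeff x n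

/-- **Separability inside `k((q))`.** `k` perfect, `jb : k((q))` with `d(jb)/dq ≠ 0`:
every `x : k((q))` algebraic over `k(jb)` is separable over `k(jb)`. -/
theorem S18SEP_isSeparable {k : Type*} [Field k] [PerfectField k] (jb x : LaurentSeries k)
    (hj : LaurentSeries.derivative k jb ≠ 0) (hx : IsAlgebraic k⟮jb⟯ x) :
    IsSeparable k⟮jb⟯ x :=
  S18SEP_isSeparable_of_derivation (S18SEP_lderiv k) jb hj x hx.isIntegral

/-- Intermediate-field form inside `k((q))`. -/
theorem S18SEP_algebra_isSeparable_laurent {k : Type*} [Field k] [PerfectField k]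
    (jb : LaurentSeries k) (hj : LaurentSeries.derivative k jb ≠ 0)
    (κ : IntermediateField k⟮jb⟯ (LaurentSeries k)) [Algebra.IsAlgebraic k⟮jb⟯ κ] :
    Algebra.IsSeparable k⟮jb⟯ κ :=
  S18SEP_algebra_isSeparable (S18SEP_lderiv k) jb hj κ

/-- Coefficient criterion for `d(jb)/dq ≠ 0`: some coefficient `a_n` with `(n : k) ≠ 0`
is nonzero. -/
theorem S18SEP_derivative_ne_zero {k : Type*} [Field k] (jb : LaurentSeries k) (n : ℤ)
    (hn : (n : k) ≠ 0) (hc : jb.coeff n ≠ 0) : LaurentSeries.derivative k jb ≠ 0 := by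
  intro h
  have := Fermat.Agent.S24_helper8_LDER.derivative_coeff jb (n - 1)
  rw [h, HahnSeries.coeff_zero, sub_add_cancel] at this
  have h2 : ((n - 1 : ℤ) : k) + 1 = (n : k) := by push_cast; ring
  rw [h2] at this
  exact (mul_ne_zero hn hc) this.symm

end Fermat.Agent.S18_helper1_SEP
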