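import Mathlib
import Fermat.Agent.S18_helper1_SEP

set_option autoImplicit false

namespace Fermat.Agent.S18_helper1_GENETALE

open Polynomial IntermediateField

/-- Cayley–Hamilton form of Nakayama: if `b • M ⊆ N + I M` for a finite module `M`, then some
`d ≡ b ^ k (mod I)` satisfies `d • M ⊆ N`. -/
theorem S18GE_nakayama {R M : Type*} [CommRing R] [AddCommGroup M] [Module R M]
    [Module.Finite R M] (N : Submodule R M) (I : Ideal R) (b : R)
    (h : ∀ x : M, b • x ∈ N ⊔ I • (⊤ : Submodule R M)) :
    ∃ (d : R) (k : ℕ), d - b ^ k ∈ I ∧ ∀ x : M, d • x ∈ N := by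
  set g : Module.End R (M ⧸ N) := algebraMap R (Module.End R (M ⧸ N)) b with hg
  have hrange : LinearMap.range g ≤ I • (⊤ : Submodule R (M ⧸ N)) := by
    rintro _ ⟨q, rfl⟩
    obtain ⟨x, rfl⟩ := Submodule.Quotient.mk_surjective N q
    have hx := h x
    obtain ⟨n, hn, y, hy, hny⟩ := Submodule.mem_sup.mp hx
    have h1 : g (Submodule.Quotient.mk x) = N.mkQ y := by
      rw [hg, Module.algebraMap_end_apply, ← Submodule.Quotient.mk_smul, ← hny,
        Submodule.Quotient.mk_add, (Submodule.Quotient.mk_eq_zero N).mpr hn, zero_add]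
      rfl
    rw [h1]
    have h2 : N.mkQ y ∈ Submodule.map N.mkQ (I • (⊤ : Submodule R M)) :=
      Submodule.mem_map_of_mem hy
    rw [Submodule.map_smul''] at h2
    exact Submodule.smul_mono (le_refl I) le_top h2
  obtain ⟨p, hpm, -, hpc, hp0⟩ :=
    LinearMap.exists_monic_and_natDegree_eq_and_coeff_mem_pow_and_aeval_eq_zero R g I hrange
  refine ⟨p.eval b, p.natDegree, ?_, ?_⟩
  · rw [Polynomial.eval_eq_sum_range, Finset.sum_range_succ, hpm.coeff_natDegree, one_mul,
      add_sub_cancel_right]
    refine Ideal.sum_mem _ fun i hi => ?_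
    rw [Finset.mem_range] at hi
    exact Ideal.mul_mem_right _ _ (Ideal.pow_le_self (by omega) (hpc i))
  · intro x
    rw [hg, Polynomial.aeval_algebraMap_apply, Polynomial.coe_aeval_eq_eval] at hp0
    have := congrArg (fun e : Module.End R (M ⧸ N) => e (Submodule.Quotient.mk x)) hp0
    simp only [Module.algebraMap_end_apply, LinearMap.zero_apply] at this
    rw [← Submodule.Quotient.mk_smul, Submodule.Quotient.mk_eq_zero] at this
    exact this


section Abstract

variable {R A0 L' Ω : Type*} [CommRing R] [CommRing A0] [Algebra R A0]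
  [Field L'] [Field Ω] [Algebra L' Ω]
  (f : R →+* L') (red : A0 →+* Ω)

/-- Elements of the `L'`-span of `red(N)` are of the form `red(n) / f(D)`. -/
theorem S18GE_span_repr
    (hfrac : ∀ z : L', ∃ a b : R, f b ≠ 0 ∧ z * f b = f a)
    (hcompat : ∀ r : R, red (algebraMap R A0 r) = algebraMap L' Ω (f r))
    (N : Submodule R A0) (x : Ω) (hx : x ∈ Submodule.span L' (red '' (N : Set A0))) :
    ∃ (D : R) (n : A0), f D ≠ 0 ∧ n ∈ N ∧ x * algebraMap L' Ω (f D) = red n := by
  induction hx using Submodule.span_induction with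
  | mem x hx =>
    obtain ⟨n, hn, rfl⟩ := hx
    exact ⟨1, n, by simp, hn, by simp⟩
  | zero => exact ⟨1, 0, by simp, N.zero_mem, by simp⟩
  | add x y _ _ ihx ihy =>
    obtain ⟨D1, n1, hD1, hn1, h1⟩ := ihx
    obtain ⟨D2, n2, hD2, hn2, h2⟩ := ihy
    refine ⟨D1 * D2, D2 • n1 + D1 • n2, ?_, N.add_mem (N.smul_mem _ hn1) (N.smul_mem _ hn2), ?_⟩
    · rw [map_mul]; exact mul_ne_zero hD1 hD2
    · rw [map_add, Algebra.smul_def, Algebra.smul_def, map_mul red, map_mul red, hcompat,
        hcompat, ← h1, ← h2, map_mul f, map_mul (algebraMap L' Ω)]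
      ring
  | smul z x _ ih =>
    obtain ⟨D, n, hD, hn, h⟩ := ih
    obtain ⟨c, d, hd, hz⟩ := hfrac z
    refine ⟨d * D, c • n, ?_, N.smul_mem _ hn, ?_⟩
    · rw [map_mul]; exact mul_ne_zero hd hD
    · rw [Algebra.smul_def, Algebra.smul_def, map_mul red, hcompat, ← h, ← hz,
        map_mul f, map_mul (algebraMap L' Ω), map_mul (algebraMap L' Ω)]
      ring


/-- If the reductions of `N` span (over `L'`) all reductions, then `d • A0 ⊆ N` for some `d`
with `f d ≠ 0`. -/
theorem S18GE_saturate [Module.Finite R A0]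
    (hfrac : ∀ z : L', ∃ a b : R, f b ≠ 0 ∧ z * f b = f a)
    (hcompat : ∀ r : R, red (algebraMap R A0 r) = algebraMap L' Ω (f r))
    (hker : RingHom.ker red ≤ Ideal.map (algebraMap R A0) (RingHom.ker f))
    (N : Submodule R A0)
    (hN : ∀ a : A0, red a ∈ Submodule.span L' (red '' (N : Set A0))) :
    ∃ d : R, f d ≠ 0 ∧ ∀ x : A0, d • x ∈ N := by
  classical
  have h1 : ∀ x : A0, ∃ D : R, f D ≠ 0 ∧
      D • x ∈ N ⊔ (RingHom.ker f) • (⊤ : Submodule R A0) := by
    intro x
    obtain ⟨D, n, hD, hn, h⟩ := S18GE_span_repr f red hfrac hcompat N (red x) (hN x)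
    refine ⟨D, hD, ?_⟩
    have hk : D • x - n ∈ RingHom.ker red := by
      rw [RingHom.mem_ker, map_sub, Algebra.smul_def, map_mul, hcompat, ← h, mul_comm,
        sub_self]
    have hk' : D • x - n ∈ (RingHom.ker f) • (⊤ : Submodule R A0) := by
      rw [Ideal.smul_top_eq_map]
      exact hker hk
    have : D • x = n + (D • x - n) := by ring
    rw [this]
    exact Submodule.add_mem_sup hn hk'
  choose D hD hDx using h1
  obtain ⟨S, hS⟩ := (Module.Finite.fg_top : (⊤ : Submodule R A0).FG)
  set b : R := ∏ s ∈ S, D s with hb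
  have hfb : f b ≠ 0 := by
    rw [hb, map_prod]
    exact Finset.prod_ne_zero_iff.mpr fun s _ => hD s
  have h2 : ∀ x : A0, b • x ∈ N ⊔ (RingHom.ker f) • (⊤ : Submodule R A0) := by
    intro x
    have hx : x ∈ Submodule.span R (S : Set A0) := by rw [hS]; trivial
    induction hx using Submodule.span_induction with
    | mem s hs =>
      have hs' : s ∈ S := hs
      rw [hb, ← Finset.mul_prod_erase S D hs', mul_comm, mul_smul]
      exact Submodule.smul_mem _ _ (hDx s)
    | zero => rw [smul_zero]; exact Submodule.zero_mem _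
    | add x y _ _ ihx ihy => rw [smul_add]; exact Submodule.add_mem _ ihx ihy
    | smul r x _ ih => rw [smul_comm]; exact Submodule.smul_mem _ _ ih
  obtain ⟨d, k, hdk, hd⟩ := S18GE_nakayama N (RingHom.ker f) b h2
  refine ⟨d, ?_, hd⟩
  have : f d = f b ^ k := by
    have := (RingHom.mem_ker).mp hdk
    rw [map_sub, map_pow, sub_eq_zero] at this
    exact this
  rw [this]
  exact pow_ne_zero _ hfb

end Abstract


/-- **Generic étale element (abstract form).**
`R` an integrally closed domain with fraction field `K`, `F/K` a finite field extension,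
`A0 ⊆ F` a finite `R`-algebra with `F = K · A0`; `f : R → L'` a ring hom onto a generating
subring of a field `L'`; `red : A0 → Ω` a ring hom into a field extension `Ω / L'`, compatible
with `f`, with `ker red ⊆ (ker f) A0`, such that every `red a` is separable over `L'`.
Then there is `V ∈ A0` whose minimal polynomial `P` over `R` has degree `[F : K]` and
separable reduction `P.map f`. -/
theorem S18GE_exists_generic_etale
    {R A0 K F L' Ω : Type*} [CommRing R] [IsDomain R] [IsIntegrallyClosed R]
    [CommRing A0] [Algebra R A0] [Module.Finite R A0]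
    [Field K] [Algebra R K] [IsFractionRing R K]
    [Field F] [Algebra K F] [FiniteDimensional K F] [Algebra R F] [IsScalarTower R K F]
    [Algebra A0 F] [IsScalarTower R A0 F]
    (hinj : Function.Injective (algebraMap A0 F))
    (hgen : ∀ x : F, ∃ r : R, r ≠ 0 ∧ ∃ a : A0, r • x = algebraMap A0 F a)
    [Field L'] [Field Ω] [Algebra L' Ω]
    (f : R →+* L') (hfrac : ∀ z : L', ∃ a b : R, f b ≠ 0 ∧ z * f b = f a)
    (red : A0 →+* Ω) (hcompat : ∀ r : R, red (algebraMap R A0 r) = algebraMap L' Ω (f r))
    (hker : RingHom.ker red ≤ Ideal.map (algebraMap R A0) (RingHom.ker f))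
    (hsep : ∀ a : A0, IsSeparable L' (red a)) :
    ∃ (V : A0) (P : R[X]), P.Monic ∧ aeval V P = 0 ∧ P.natDegree = Module.finrank K F ∧
      (P.map f).Separable ∧ P = minpoly R V ∧ P.map f = minpoly L' (red V) ∧
      K⟮algebraMap A0 F V⟯ = ⊤ := by
  classical
  have hdomA0 : IsDomain A0 := hinj.isDomain (algebraMap A0 F)
  obtain ⟨S, hS⟩ := (Module.Finite.fg_top : (⊤ : Submodule R A0).FG)
  -- the residue field extension
  set κ : IntermediateField L' Ω := IntermediateField.adjoin L' (red '' (S : Set A0)) with hκ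
  have hSint : ∀ x ∈ red '' (S : Set A0), IsIntegral L' x := by
    rintro _ ⟨a, -, rfl⟩
    exact (hsep a).isIntegral
  have hfin : FiniteDimensional L' κ := by
    have : Finite (red '' (S : Set A0)) := (S.finite_toSet.image red).to_subtype
    exact IntermediateField.finiteDimensional_adjoin hSint
  have hsepκ : Algebra.IsSeparable L' κ := by
    rw [hκ, IntermediateField.isSeparable_adjoin_iff_isSeparable]
    rintro _ ⟨a, -, rfl⟩
    exact hsep a
  -- (κ1) reductions lie in κ
  have hκ1 : ∀ a : A0, red a ∈ κ := by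
    intro a
    have ha : a ∈ Submodule.span R (S : Set A0) := by rw [hS]; trivial
    induction ha using Submodule.span_induction with
    | mem s hs => exact IntermediateField.subset_adjoin L' _ ⟨s, hs, rfl⟩
    | zero => rw [map_zero]; exact zero_mem _
    | add x y _ _ ihx ihy => rw [map_add]; exact add_mem ihx ihy
    | smul r x _ ih =>
      rw [Algebra.smul_def, map_mul, hcompat]
      exact mul_mem (IntermediateField.algebraMap_mem _ _) ih
  -- (κ2) elements of κ are in the span of reductions
  have hκ2 : ∀ x ∈ κ, x ∈ Submodule.span L' (red '' ((⊤ : Submodule R A0) : Set A0)) := by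
    intro x hx
    have h1 : x ∈ κ.toSubalgebra := hx
    rw [hκ, IntermediateField.adjoin_toSubalgebra_of_isAlgebraic
      (fun y hy => (hSint y hy).isAlgebraic)] at h1
    have h2 : x ∈ Subalgebra.toSubmodule (Algebra.adjoin L' (red '' (S : Set A0))) := h1
    rw [Algebra.adjoin_eq_span] at h2
    refine Submodule.span_mono ?_ h2
    intro y hy
    have : Submonoid.closure (red '' (S : Set A0)) ≤ MonoidHom.mrange (red : A0 →* Ω) := by
      rw [Submonoid.closure_le]
      rintro _ ⟨a, -, rfl⟩
      exact ⟨a, rfl⟩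
    obtain ⟨a, rfl⟩ := this hy
    exact ⟨a, trivial, rfl⟩
  -- primitive element
  obtain ⟨α, hα⟩ := Field.exists_primitive_element L' κ
  obtain ⟨b, V, hb, -, hαV⟩ :=
    S18GE_span_repr f red hfrac hcompat ⊤ (α : Ω) (hκ2 _ α.2)
  have hαΩ : L'⟮(α : Ω)⟯ = κ := by
    rw [← IntermediateField.lift_adjoin_simple, hα, IntermediateField.lift_top]
  have hb' : algebraMap L' Ω (f b) ≠ 0 := by
    rw [Ne, map_eq_zero]; exact hb
  have hadj : L'⟮red V⟯ = κ := by
    rw [← hαΩ]
    apply le_antisymm
    · rw [IntermediateField.adjoin_simple_le_iff, ← hαV]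
      exact mul_mem (IntermediateField.mem_adjoin_simple_self L' _)
        (IntermediateField.algebraMap_mem _ _)
    · rw [IntermediateField.adjoin_simple_le_iff]
      have : (α : Ω) = red V * (algebraMap L' Ω (f b))⁻¹ := by
        rw [← hαV]; field_simp
      rw [this]
      exact mul_mem (IntermediateField.mem_adjoin_simple_self L' _)
        (inv_mem (IntermediateField.algebraMap_mem _ _))
  have hdeg1 : (minpoly L' (red V)).natDegree = Module.finrank L' κ := by
    rw [← hadj, IntermediateField.adjoin.finrank (hsep V).isIntegral]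
  -- rank inequality
  have hrank : Module.finrank K F ≤ Module.finrank L' κ := by
    set m := Module.finrank L' κ with hm
    let bκ : Module.Basis (Fin m) L' κ := Module.finBasis L' κ
    have hrep : ∀ i : Fin m, ∃ (D : R) (a : A0), f D ≠ 0 ∧
        ((bκ i : κ) : Ω) * algebraMap L' Ω (f D) = red a := by
      intro i
      obtain ⟨D, a, hD, -, h⟩ :=
        S18GE_span_repr f red hfrac hcompat ⊤ ((bκ i : κ) : Ω) (hκ2 _ (bκ i).2)
      exact ⟨D, a, hD, h⟩
    choose D a hD ha using hrep
    set N : Submodule R A0 := Submodule.span R (Set.range a) with hN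
    have hNspan : ∀ x : A0, red x ∈ Submodule.span L' (red '' (N : Set A0)) := by
      intro x
      have hx := bκ.sum_repr ⟨red x, hκ1 x⟩
      have hx' : red x = ∑ i, (bκ.repr ⟨red x, hκ1 x⟩ i) • ((bκ i : κ) : Ω) := by
        have := congrArg (fun y : κ => (y : Ω)) hx
        simp only [AddSubmonoidClass.coe_finsetSum, IntermediateField.coe_smul] at this
        exact this.symm
      rw [hx']
      refine Submodule.sum_mem _ fun i _ => ?_
      have hD' : algebraMap L' Ω (f (D i)) ≠ 0 := by
        rw [Ne, map_eq_zero]; exact hD i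
      have : (bκ.repr ⟨red x, hκ1 x⟩ i) • ((bκ i : κ) : Ω)
          = (bκ.repr ⟨red x, hκ1 x⟩ i * (f (D i))⁻¹) • red (a i) := by
        rw [← ha i, Algebra.smul_def, Algebra.smul_def, map_mul, map_inv₀]
        field_simp
      rw [this]
      exact Submodule.smul_mem _ _
        (Submodule.subset_span ⟨a i, Submodule.subset_span (Set.mem_range_self i), rfl⟩)
    obtain ⟨d, hd, hdN⟩ := S18GE_saturate f red hfrac hcompat hker N hNspan
    have hd0 : d ≠ 0 := by
      rintro rfl
      exact hd (map_zero f)
    have htop : Submodule.span K (Set.range (fun i => algebraMap A0 F (a i))) = ⊤ := by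
      rw [eq_top_iff]
      intro x _
      obtain ⟨r, hr, a0, hra⟩ := hgen x
      have h1 : d • a0 ∈ N := hdN a0
      have h2 : algebraMap A0 F (d • a0) ∈
          Submodule.span R (Set.range (fun i => algebraMap A0 F (a i))) := by
        have := Submodule.mem_map_of_mem (f := (IsScalarTower.toAlgHom R A0 F).toLinearMap) h1
        rw [hN, Submodule.map_span, ← Set.range_comp] at this
        exact this
      have h3 := Submodule.span_le_restrictScalars R K _ h2
      rw [Submodule.restrictScalars_mem] at h3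
      have h4 : algebraMap A0 F (d • a0) = algebraMap R K (d * r) • x := by
        rw [algebraMap_smul, mul_smul, hra, Algebra.smul_def d a0, map_mul,
          ← IsScalarTower.algebraMap_apply R A0 F, Algebra.smul_def d]
      rw [h4] at h3
      have h5 : algebraMap R K (d * r) ≠ 0 := by
        rw [Ne, map_eq_zero_iff _ (IsFractionRing.injective R K)]
        exact mul_ne_zero hd0 hr
      have := Submodule.smul_mem _ (algebraMap R K (d * r))⁻¹ h3
      rwa [smul_smul, inv_mul_cancel₀ h5, one_smul] at this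
    have h6 := finrank_range_le_card (R := K) (fun i : Fin m => algebraMap A0 F (a i))
    rw [Set.finrank, htop, finrank_top, Fintype.card_fin] at h6
    exact h6
  -- the polynomial
  have hVint : IsIntegral R V := Algebra.IsIntegral.isIntegral V
  have hPm : (minpoly R V).Monic := minpoly.monic hVint
  have hPK : minpoly K (algebraMap A0 F V) = (minpoly R V).map (algebraMap R K) :=
    minpoly.isIntegrallyClosed_eq_field_fractions K F hVint
  have hdeg2 : (minpoly R V).natDegree ≤ Module.finrank K F := by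
    have := minpoly.natDegree_le (A := K) (algebraMap A0 F V)
    rwa [hPK, hPm.natDegree_map] at this
  have hroot : aeval (red V) ((minpoly R V).map f) = 0 := by
    rw [Polynomial.aeval_def, Polynomial.eval₂_map]
    have : (algebraMap L' Ω).comp f = red.comp (algebraMap R A0) := by
      ext r; simp [hcompat]
    rw [this, ← Polynomial.hom_eval₂, ← Polynomial.aeval_def, minpoly.aeval, map_zero]
  have hdvd : minpoly L' (red V) ∣ (minpoly R V).map f := minpoly.dvd L' (red V) hroot
  have hdeg3 : (minpoly L' (red V)).natDegree ≤ ((minpoly R V).map f).natDegree :=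
    Polynomial.natDegree_le_of_dvd hdvd (hPm.map f).ne_zero
  rw [hPm.natDegree_map] at hdeg3
  have hPf : (minpoly R V).map f = minpoly L' (red V) :=
    Polynomial.eq_of_monic_of_dvd_of_natDegree_le (minpoly.monic (hsep V).isIntegral)
      (hPm.map f) hdvd (by rw [hPm.natDegree_map]; omega)
  refine ⟨V, minpoly R V, hPm, minpoly.aeval R V, by omega, ?_, rfl, hPf, ?_⟩
  · rw [hPf]
    exact hsep V
  · rw [Field.primitive_element_iff_minpoly_natDegree_eq, hPK, hPm.natDegree_map]
    omega


/-! ### Transfer of separability between residue fields -/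

/-- Separability of `P.map f` only depends on `ker f`: it is equivalent to separability over
the fraction field of `R ⧸ I`, `I = ker f`. -/
theorem S18GE_separable_iff_fractionRing {R L' : Type*} [CommRing R] [Field L']
    (f : R →+* L') (I : Ideal R) (hI : RingHom.ker f = I) (P : R[X]) :
    (P.map f).Separable ↔ (P.map (algebraMap R (FractionRing (R ⧸ I)))).Separable := by
  subst hI
  have hdom : IsDomain (R ⧸ RingHom.ker f) :=
    (RingHom.kerLift_injective f).isDomain f.kerLift
  let ι : FractionRing (R ⧸ RingHom.ker f) →+* L' :=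
    IsFractionRing.lift (RingHom.kerLift_injective f)
  have hι : ι.comp (algebraMap R (FractionRing (R ⧸ RingHom.ker f))) = f := by
    ext r
    rw [RingHom.comp_apply, IsScalarTower.algebraMap_apply R (R ⧸ RingHom.ker f)
      (FractionRing (R ⧸ RingHom.ker f)), IsFractionRing.lift_algebraMap,
      Ideal.Quotient.algebraMap_eq, RingHom.kerLift_mk]
  rw [← Polynomial.separable_map ι, Polynomial.map_map, hι]

/-- Separability of `P.map f` only depends on `ker f`. -/
theorem S18GE_separable_of_ker_eq {R L' L'' : Type*} [CommRing R] [Field L'] [Field L'']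
    (f : R →+* L') (g : R →+* L'') (h : RingHom.ker f = RingHom.ker g) (P : R[X])
    (hP : (P.map f).Separable) : (P.map g).Separable := by
  rw [S18GE_separable_iff_fractionRing g (RingHom.ker g) rfl]
  rwa [S18GE_separable_iff_fractionRing f (RingHom.ker g) h] at hP


/-! ### The Laurent-series form -/

/-- **Generic étale element, Laurent-series form.** Same as `S18GE_exists_generic_etale`, with
`Ω = k((q))`, `L' = k(jb)`, `k` perfect and `d(jb)/dq ≠ 0`: the separability hypothesis is
automatic (`S18SEP_isSeparable`). -/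
theorem S18GE_exists_generic_etale_laurent
    {R A0 K F : Type*} [CommRing R] [IsDomain R] [IsIntegrallyClosed R]
    [CommRing A0] [Algebra R A0] [Module.Finite R A0]
    [Field K] [Algebra R K] [IsFractionRing R K]
    [Field F] [Algebra K F] [FiniteDimensional K F] [Algebra R F] [IsScalarTower R K F]
    [Algebra A0 F] [IsScalarTower R A0 F]
    (hinj : Function.Injective (algebraMap A0 F))
    (hgen : ∀ x : F, ∃ r : R, r ≠ 0 ∧ ∃ a : A0, r • x = algebraMap A0 F a)
    {k : Type*} [Field k] [PerfectField k] (jb : LaurentSeries k)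
    (hj : LaurentSeries.derivative k jb ≠ 0)
    (f : R →+* k⟮jb⟯) (hfrac : ∀ z : k⟮jb⟯, ∃ a b : R, f b ≠ 0 ∧ z * f b = f a)
    (red : A0 →+* LaurentSeries k)
    (hcompat : ∀ r : R, red (algebraMap R A0 r) = (f r : LaurentSeries k))
    (hker : RingHom.ker red ≤ Ideal.map (algebraMap R A0) (RingHom.ker f)) :
    ∃ (V : A0) (P : R[X]), P.Monic ∧ aeval V P = 0 ∧ P.natDegree = Module.finrank K F ∧
      (P.map f).Separable ∧ P = minpoly R V ∧ P.map f = minpoly k⟮jb⟯ (red V) ∧
      K⟮algebraMap A0 F V⟯ = ⊤ := by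
  refine S18GE_exists_generic_etale hinj hgen f hfrac red hcompat hker fun a => ?_
  refine Fermat.Agent.S18_helper1_SEP.S18SEP_isSeparable jb (red a) hj ?_
  have haint : IsIntegral R a := Algebra.IsIntegral.isIntegral a
  have hm : (minpoly R a).Monic := minpoly.monic haint
  have hroot : aeval (red a) ((minpoly R a).map f) = 0 := by
    rw [Polynomial.aeval_def, Polynomial.eval₂_map]
    have : (algebraMap k⟮jb⟯ (LaurentSeries k)).comp f = red.comp (algebraMap R A0) := by
      ext r
      rw [RingHom.comp_apply, RingHom.comp_apply, hcompat]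
      rfl
    rw [this, ← Polynomial.hom_eval₂, ← Polynomial.aeval_def, minpoly.aeval, map_zero]
  exact (IsIntegral.isAlgebraic ⟨(minpoly R a).map f, hm.map f, hroot⟩)

/-! ### The concrete form over `O[X]` -/

section Poly

variable {O : Type*} [CommRing O] {k : Type*} [Field k]

/-- The reduction map `O[X] → k(jb)`, `c ↦ ρ c`, `X ↦ jb`. -/
noncomputable def S18GE_fPoly (ρ : O →+* k) (jb : LaurentSeries k) : O[X] →+* k⟮jb⟯ :=
  Polynomial.eval₂RingHom ((algebraMap k k⟮jb⟯).comp ρ)
    ⟨jb, IntermediateField.mem_adjoin_simple_self k jb⟩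

theorem S18GE_fPoly_coe (ρ : O →+* k) (jb : LaurentSeries k) (p : O[X]) :
    ((S18GE_fPoly ρ jb p : k⟮jb⟯) : LaurentSeries k) = aeval jb (p.map ρ) := by
  have h : (algebraMap k⟮jb⟯ (LaurentSeries k)).comp (S18GE_fPoly ρ jb)
      = ((aeval jb : k[X] →ₐ[k] LaurentSeries k) : k[X] →+* LaurentSeries k).comp
          (Polynomial.mapRingHom ρ) := by
    apply Polynomial.ringHom_ext
    · intro c
      simp [S18GE_fPoly]
    · simp [S18GE_fPoly]
  exact congrArg (fun φ : O[X] →+* LaurentSeries k => φ p) h

theorem S18GE_fPoly_eq_zero_iff [PerfectField k] (ρ : O →+* k) (jb : LaurentSeries k)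
    (hj : LaurentSeries.derivative k jb ≠ 0) (p : O[X]) :
    S18GE_fPoly ρ jb p = 0 ↔ p.map ρ = 0 := by
  have htr : Transcendental k jb :=
    Fermat.Agent.S18_helper1_SEP.S18SEP_transcendental
      (Fermat.Agent.S18_helper1_SEP.S18SEP_lderiv k) jb hj
  constructor
  · intro h
    have h1 := S18GE_fPoly_coe ρ jb p
    rw [h, ZeroMemClass.coe_zero] at h1
    exact (transcendental_iff.mp htr) _ h1.symm
  · intro h
    apply Subtype.ext
    rw [S18GE_fPoly_coe, h, map_zero, ZeroMemClass.coe_zero]

theorem S18GE_ker_fPoly [PerfectField k] (ρ : O →+* k) (jb : LaurentSeries k)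
    (hj : LaurentSeries.derivative k jb ≠ 0) (π0 : O) (hπ0 : ∀ c : O, ρ c = 0 ↔ π0 ∣ c) :
    RingHom.ker (S18GE_fPoly ρ jb) = Ideal.span {(C π0 : O[X])} := by
  ext p
  rw [RingHom.mem_ker, S18GE_fPoly_eq_zero_iff ρ jb hj, Ideal.mem_span_singleton,
    Polynomial.C_dvd_iff_dvd_coeff, Polynomial.ext_iff]
  refine forall_congr' fun n => ?_
  rw [Polynomial.coeff_map, Polynomial.coeff_zero, hπ0]

theorem S18GE_fPoly_frac (ρ : O →+* k) (hρ : Function.Surjective ρ) (jb : LaurentSeries k)
    (z : k⟮jb⟯) :
    ∃ a b : O[X], S18GE_fPoly ρ jb b ≠ 0 ∧ z * S18GE_fPoly ρ jb b = S18GE_fPoly ρ jb a := by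
  obtain ⟨r, s, hrs⟩ := (IntermediateField.mem_adjoin_simple_iff k (z : LaurentSeries k)).mp z.2
  obtain ⟨r0, rfl⟩ := Polynomial.map_surjective ρ hρ r
  obtain ⟨s0, rfl⟩ := Polynomial.map_surjective ρ hρ s
  by_cases hs : aeval jb (s0.map ρ) = 0
  · refine ⟨0, 1, by rw [map_one]; exact one_ne_zero, ?_⟩
    rw [map_one, map_zero, mul_one]
    apply Subtype.ext
    rw [hrs, hs, div_zero, ZeroMemClass.coe_zero]
  · refine ⟨r0, s0, ?_, ?_⟩
    · intro h
      apply hs
      rw [← S18GE_fPoly_coe, h, ZeroMemClass.coe_zero]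
    · apply Subtype.ext
      rw [MulMemClass.coe_mul, S18GE_fPoly_coe, S18GE_fPoly_coe, hrs]
      field_simp

/-- **Generic étale element over `O[X]`** (input (A-iv) of block B).
`O` a ring with a surjective residue map `ρ : O → k` onto a perfect field, kernel `(π0)`;
`A0 ⊆ F` a finite `O[X]`-algebra (`X ↦ x`) with `F = Frac A0` finite over `K = Frac O[X]`;
`red : A0 → k((q))` a ring hom with `red c = ρ c` on constants, kernel `π0 A0`, and
`d(red x)/dq ≠ 0`.  Then there is `V ∈ A0`, generating `F` over `K`, whose minimal polynomial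
`P` over `O[X]` is monic of degree `[F : K]` and separable modulo `π0`. -/
theorem S18GE_exists_generic_etale_poly
    {A0 K F : Type*} [IsDomain O] [IsIntegrallyClosed O[X]]
    [CommRing A0] [Algebra O[X] A0] [Module.Finite O[X] A0]
    [Field K] [Algebra O[X] K] [IsFractionRing O[X] K]
    [Field F] [Algebra K F] [FiniteDimensional K F] [Algebra O[X] F] [IsScalarTower O[X] K F]
    [Algebra A0 F] [IsScalarTower O[X] A0 F]
    (hinj : Function.Injective (algebraMap A0 F))
    (hgen : ∀ x : F, ∃ r : O[X], r ≠ 0 ∧ ∃ a : A0, r • x = algebraMap A0 F a)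
    [PerfectField k] (ρ : O →+* k) (hρ : Function.Surjective ρ)
    (π0 : O) (hπ0 : ∀ c : O, ρ c = 0 ↔ π0 ∣ c)
    (red : A0 →+* LaurentSeries k)
    (hredC : ∀ c : O, red (algebraMap O[X] A0 (C c)) = HahnSeries.C (ρ c))
    (hj : LaurentSeries.derivative k (red (algebraMap O[X] A0 X)) ≠ 0)
    (hker : ∀ a : A0, red a = 0 → algebraMap O[X] A0 (C π0) ∣ a) :
    ∃ (V : A0) (P : O[X][X]), P.Monic ∧ aeval V P = 0 ∧ P.natDegree = Module.finrank K F ∧
      K⟮algebraMap A0 F V⟯ = ⊤ ∧ P = minpoly O[X] V ∧
      (P.map (S18GE_fPoly ρ (red (algebraMap O[X] A0 X)))).Separable ∧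
      (P.map (algebraMap O[X]
        (FractionRing (O[X] ⧸ Ideal.span {(C π0 : O[X])})))).Separable := by
  set jb := red (algebraMap O[X] A0 X) with hjb
  have hcompat : ∀ r : O[X], red (algebraMap O[X] A0 r) = (S18GE_fPoly ρ jb r : LaurentSeries k) := by
    intro r
    have h : red.comp (algebraMap O[X] A0)
        = (algebraMap k⟮jb⟯ (LaurentSeries k)).comp (S18GE_fPoly ρ jb) := by
      apply Polynomial.ringHom_ext
      · intro c
        rw [RingHom.comp_apply, hredC, RingHom.comp_apply]
        simp [S18GE_fPoly, Fermat.Agent.S18_helper1_SEP.S18SEP_algebraMap_eq_C]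
      · simp [S18GE_fPoly, hjb]
    exact congrArg (fun φ : O[X] →+* LaurentSeries k => φ r) h
  have hkerf := S18GE_ker_fPoly ρ jb hj π0 hπ0
  have hker' : RingHom.ker red ≤ Ideal.map (algebraMap O[X] A0) (RingHom.ker (S18GE_fPoly ρ jb)) := by
    intro a ha
    rw [hkerf, Ideal.map_span, Set.image_singleton, Ideal.mem_span_singleton]
    exact hker a ha
  obtain ⟨V, P, hPm, hPV, hdeg, hsep, hPmin, -, hprim⟩ :=
    S18GE_exists_generic_etale_laurent (K := K) hinj hgen jb hj (S18GE_fPoly ρ jb)
      (S18GE_fPoly_frac ρ hρ jb) red hcompat hker'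
  refine ⟨V, P, hPm, hPV, hdeg, hprim, hPmin, hsep, ?_⟩
  exact (S18GE_separable_iff_fractionRing (S18GE_fPoly ρ jb) _ hkerf P).mp hsep

end Poly

end Fermat.Agent.S18_helper1_GENETALE
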