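import Mathlib
import Fermat.Agent.S18_helper1_GENETALE

set_option autoImplicit false

namespace Fermat.Agent.S18_helper1_AIV

open Polynomial IntermediateField Fermat.Agent.S18_helper1_GENETALE

/-- **Input (A-iv) of block B, carrier-free form.** -/
theorem S18AIV_exists {O A F1 k : Type*} [CommRing O] [IsDomain O] [IsIntegrallyClosed O[X]]
    [CommRing A] [Algebra O A] [Field F1] [Algebra A F1] [Field k] [PerfectField k]
    (hAinj : Function.Injective (algebraMap A F1)) (x : A)
    (hx : Function.Injective (aeval x : O[X] → A))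
    (hfin : ∃ s : Finset A, ∀ a : A, ∃ c : A → O[X], a = ∑ i ∈ s, aeval x (c i) * i)
    (hfrac : ∀ y : F1, ∃ d : O[X], d ≠ 0 ∧
      ∃ a : A, algebraMap A F1 (aeval x d) * y = algebraMap A F1 a)
    (ρ : O →+* k) (hρ : Function.Surjective ρ) (π : O) (hπ : ∀ c, ρ c = 0 ↔ π ∣ c)
    (red : A →+* LaurentSeries k)
    (hredC : ∀ c : O, red (algebraMap O A c) = HahnSeries.C (ρ c))
    (hj : LaurentSeries.derivative k (red x) ≠ 0)
    (hker : ∀ a : A, red a = 0 → algebraMap O A π ∣ a) :
    ∃ (V : A) (P₀ : (O[X])[X]), P₀.Monic ∧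
      aeval V (P₀.map (aeval x : O[X] →ₐ[O] A).toRingHom) = 0 ∧
      (∀ y : F1, ∃ (n : (O[X])[X]) (d : O[X]), d ≠ 0 ∧
        algebraMap A F1 (aeval x d) * y =
          algebraMap A F1 (aeval V (n.map (aeval x : O[X] →ₐ[O] A).toRingHom))) ∧
      (∀ (κ : Type) [Field κ] (f : O[X] →+* κ), (∀ p, f p = 0 ↔ C π ∣ p) →
        (P₀.map f).Separable) ∧
      (∀ Q : (O[X])[X], aeval V (Q.map (aeval x : O[X] →ₐ[O] A).toRingHom) = 0 → P₀ ∣ Q) := by
  classical
  let algRA : Algebra O[X] A := (aeval x : O[X] →ₐ[O] A).toRingHom.toAlgebra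
  have hRA : ∀ r : O[X], algebraMap O[X] A r = aeval x r := fun r => rfl
  let algRF : Algebra O[X] F1 := ((algebraMap A F1).comp (algebraMap O[X] A)).toAlgebra
  have : IsScalarTower O[X] A F1 := IsScalarTower.of_algebraMap_eq (fun r => rfl)
  have hinjRF : Function.Injective (algebraMap O[X] F1) := hAinj.comp hx
  let algKF : Algebra (FractionRing O[X]) F1 := (IsFractionRing.lift hinjRF).toAlgebra
  have : IsScalarTower O[X] (FractionRing O[X]) F1 :=
    IsScalarTower.of_algebraMap_eq (fun r => (IsFractionRing.lift_algebraMap hinjRF r).symm)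
  obtain ⟨s, hs⟩ := hfin
  have : Module.Finite O[X] A := by
    refine ⟨⟨s, ?_⟩⟩
    rw [eq_top_iff]
    intro a _
    obtain ⟨c, hc⟩ := hs a
    rw [hc]
    refine Submodule.sum_mem _ fun i hi => ?_
    rw [← hRA, ← Algebra.smul_def]
    exact Submodule.smul_mem _ _ (Submodule.subset_span hi)
  have hgen : ∀ y : F1, ∃ r : O[X], r ≠ 0 ∧ ∃ a : A, r • y = algebraMap A F1 a := by
    intro y
    obtain ⟨d, hd, a, h⟩ := hfrac y
    exact ⟨d, hd, a, by rw [Algebra.smul_def, ← h]; rfl⟩
  have : FiniteDimensional (FractionRing O[X]) F1 := by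
    refine ⟨⟨s.image (algebraMap A F1), ?_⟩⟩
    rw [eq_top_iff]
    intro y _
    obtain ⟨d, hd, a, h⟩ := hgen y
    obtain ⟨c, hc⟩ := hs a
    have hd' : algebraMap O[X] (FractionRing O[X]) d ≠ 0 := by
      rw [Ne, map_eq_zero_iff _ (IsFractionRing.injective O[X] (FractionRing O[X]))]
      exact hd
    have hy : y = (algebraMap O[X] (FractionRing O[X]) d)⁻¹ • algebraMap A F1 a := by
      rw [← h, ← algebraMap_smul (FractionRing O[X]) d y, smul_smul, inv_mul_cancel₀ hd',
        one_smul]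
    rw [hy, hc, map_sum]
    refine Submodule.smul_mem _ _ (Submodule.sum_mem _ fun i hi => ?_)
    rw [map_mul, ← hRA, ← IsScalarTower.algebraMap_apply O[X] A F1,
      IsScalarTower.algebraMap_apply O[X] (FractionRing O[X]) F1, ← Algebra.smul_def]
    refine Submodule.smul_mem _ _ (Submodule.subset_span ?_)
    rw [Finset.coe_image]
    exact ⟨i, hi, rfl⟩
  obtain ⟨V, P, hPm, hPV, hdeg, hprim, hPmin, hsep1, hsep2⟩ :=
    S18GE_exists_generic_etale_poly (K := FractionRing O[X]) hAinj hgen ρ hρ π hπ red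
      (fun c => by rw [hRA, aeval_C]; exact hredC c)
      (by rw [hRA, aeval_X]; exact hj)
      (fun a ha => by rw [hRA, aeval_C]; exact hker a ha)
  have hmapeq : ∀ Q : (O[X])[X],
      aeval V (Q.map (aeval x : O[X] →ₐ[O] A).toRingHom) = aeval V Q := by
    intro Q
    exact Polynomial.aeval_map_algebraMap A V Q
  refine ⟨V, P, hPm, ?_, ?_, ?_, ?_⟩
  · rw [hmapeq]; exact hPV
  · intro y
    have hV'alg : IsAlgebraic (FractionRing O[X]) (algebraMap A F1 V) :=
      Algebra.IsAlgebraic.isAlgebraic _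
    have hy : y ∈ (FractionRing O[X])⟮algebraMap A F1 V⟯.toSubalgebra := by
      rw [IntermediateField.mem_toSubalgebra, hprim]
      trivial
    rw [IntermediateField.adjoin_simple_toSubalgebra_of_isAlgebraic hV'alg,
      Algebra.adjoin_singleton_eq_range_aeval] at hy
    obtain ⟨g, hg⟩ := hy
    obtain ⟨b, hb, hn⟩ := IsLocalization.integerNormalization_spec (nonZeroDivisors O[X]) g
    refine ⟨IsLocalization.integerNormalization (nonZeroDivisors O[X]) g, b,
      nonZeroDivisors.ne_zero hb, ?_⟩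
    have hg' : aeval (algebraMap A F1 V) g = y := hg
    have h1 : aeval (algebraMap A F1 V)
        ((IsLocalization.integerNormalization (nonZeroDivisors O[X]) g).map
          (algebraMap O[X] (FractionRing O[X]))) = algebraMap O[X] F1 b * y := by
      rw [hn, ← algebraMap_smul (FractionRing O[X]) b g, map_smul, hg', algebraMap_smul,
        Algebra.smul_def]
    rw [hmapeq, ← Polynomial.aeval_algebraMap_apply F1 V,
      ← Polynomial.aeval_map_algebraMap (FractionRing O[X]) (algebraMap A F1 V), h1]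
    rfl
  · intro κ _ f hf
    refine S18GE_separable_of_ker_eq (S18GE_fPoly ρ (red (algebraMap O[X] A X))) f ?_ P hsep1
    rw [S18GE_ker_fPoly ρ _ (by rw [hRA, aeval_X]; exact hj) π hπ]
    ext p
    rw [Ideal.mem_span_singleton, RingHom.mem_ker, hf]
  · intro Q hQ
    rw [hmapeq] at hQ
    rw [hPmin]
    have hdomA : IsDomain A := hAinj.isDomain (algebraMap A F1)
    have htf : Module.IsTorsionFree O[X] A :=
      Module.isTorsionFree_iff_algebraMap_injective.mpr hx
    exact minpoly.isIntegrallyClosed_dvd (Algebra.IsIntegral.isIntegral V) hQ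


/-- The finiteness hypothesis of `S18AIV_exists` from `Module.Finite` over `O[x]`. -/
theorem S18AIV_hfin_of_finite {O A : Type*} [CommRing O] [CommRing A] [Algebra O A] (x : A)
    [Module.Finite (Algebra.adjoin O {x}) A] :
    ∃ s : Finset A, ∀ a : A, ∃ c : A → O[X], a = ∑ i ∈ s, aeval x (c i) * i := by
  classical
  obtain ⟨s, hs⟩ := (Module.Finite.fg_top : (⊤ : Submodule (Algebra.adjoin O {x}) A).FG)
  refine ⟨s, fun a => ?_⟩
  have ha : a ∈ Submodule.span (Algebra.adjoin O {x}) (s : Set A) := by rw [hs]; trivial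
  obtain ⟨f, -, hf⟩ := Submodule.mem_span_finset.mp ha
  have hc : ∀ i : A, ∃ c : O[X], aeval x c = ((f i : Algebra.adjoin O {x}) : A) := by
    intro i
    have h1 : ((f i : Algebra.adjoin O {x}) : A) ∈ (aeval x : O[X] →ₐ[O] A).range := by
      rw [← Algebra.adjoin_singleton_eq_range_aeval]
      exact (f i).2
    exact h1
  choose c hc using hc
  refine ⟨c, ?_⟩
  rw [← hf]
  refine Finset.sum_congr rfl fun i _ => ?_
  rw [hc]
  rfl

end Fermat.Agent.S18_helper1_AIV
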