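import Mathlib
import Fermat.Agent.S18_helper9_CDefs

set_option autoImplicit false

/-!
# S18 block C, piece X-C-FIN

* `S18CFIN_pole`: `y` integral over `O[x]` ⟹ `x⁻ⁿ y` integral over `O[x⁻¹]` for some `n`.
* `S18CFIN_fin`: the integral closure of `O[x]` (`x = j` or `j⁻¹`) in `F1(h)` is a finitely
  generated `O[x]`-module, elementwise inside the ambient field `L`.
-/

namespace Fermat.Agent.S18_helper27_CFIN

open Fermat.Agent.S18_helper9_CDefs Polynomial

variable {L : Type*} [Field L]

theorem S18CFIN_subset_adj (O : Subring L) (x : L) : O ≤ adj O x := fun _ ha =>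
  Subring.subset_closure (Or.inl ha)

theorem S18CFIN_self_mem_adj (O : Subring L) (x : L) : x ∈ adj O x :=
  Subring.subset_closure (Or.inr rfl)

/-- Multiplying an element of `O[x]` by a large power of `x⁻¹` lands in `O[x⁻¹]`. -/
theorem S18CFIN_pole_aux (O : Subring L) (x : L) (hx : x ≠ 0) (a : L) (ha : a ∈ adj O x) :
    ∃ m : ℕ, ∀ n, m ≤ n → x⁻¹ ^ n * a ∈ adj O x⁻¹ := by
  have hxi : x⁻¹ ∈ adj O x⁻¹ := S18CFIN_self_mem_adj O x⁻¹
  unfold adj at ha
  induction ha using Subring.closure_induction with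
  | mem a ha =>
    rcases ha with ha | ha
    · exact ⟨0, fun n _ => Subring.mul_mem _ (Subring.pow_mem _ hxi n)
        (S18CFIN_subset_adj O x⁻¹ ha)⟩
    · rw [Set.mem_singleton_iff] at ha
      subst ha
      refine ⟨1, fun n hn => ?_⟩
      obtain ⟨k, rfl⟩ : ∃ k, n = k + 1 := ⟨n - 1, by omega⟩
      rw [pow_succ, mul_assoc, inv_mul_cancel₀ hx, mul_one]
      exact Subring.pow_mem _ hxi k
  | zero => exact ⟨0, fun n _ => by rw [mul_zero]; exact Subring.zero_mem _⟩
  | one => exact ⟨0, fun n _ => by rw [mul_one]; exact Subring.pow_mem _ hxi n⟩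
  | add a b _ _ iha ihb =>
    obtain ⟨ma, hma⟩ := iha
    obtain ⟨mb, hmb⟩ := ihb
    refine ⟨max ma mb, fun n hn => ?_⟩
    rw [mul_add]
    exact Subring.add_mem _ (hma n (le_trans (le_max_left _ _) hn))
      (hmb n (le_trans (le_max_right _ _) hn))
  | neg a _ iha =>
    obtain ⟨ma, hma⟩ := iha
    refine ⟨ma, fun n hn => ?_⟩
    rw [mul_neg]
    exact Subring.neg_mem _ (hma n hn)
  | mul a b _ _ iha ihb =>
    obtain ⟨ma, hma⟩ := iha
    obtain ⟨mb, hmb⟩ := ihb
    refine ⟨ma + mb, fun n hn => ?_⟩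
    obtain ⟨k, rfl⟩ : ∃ k, n = ma + k := ⟨n - ma, by omega⟩
    have hk : mb ≤ k := by omega
    have : x⁻¹ ^ (ma + k) * (a * b) = (x⁻¹ ^ ma * a) * (x⁻¹ ^ k * b) := by
      rw [pow_add]; ring
    rw [this]
    exact Subring.mul_mem _ (hma ma le_rfl) (hmb k hk)

/-- **Pole lemma.** If `y` is integral over `O[x]` then `x⁻ⁿ y` is integral over `O[x⁻¹]` for
some `n`. -/
theorem S18CFIN_pole (O : Subring L) (x : L) (hx : x ≠ 0) (y : L)
    (hy : IsIntegral (adj O x) y) :
    ∃ n : ℕ, IsIntegral (adj O x⁻¹) (x⁻¹ ^ n * y) := by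
  classical
  obtain ⟨P, hPm, hPy⟩ := hy
  -- the polynomial over `L`
  set PL : L[X] := P.map (adj O x).subtype with hPL
  have hPLm : PL.Monic := hPm.map _
  have hPLy : PL.eval y = 0 := by
    rw [hPL, eval_map]; exact hPy
  have hcoeff : ∀ i, PL.coeff i ∈ adj O x := fun i => by
    rw [hPL, coeff_map]; exact (P.coeff i).2
  choose m hm using fun i => S18CFIN_pole_aux O x hx (PL.coeff i) (hcoeff i)
  -- a uniform bound, at least 1
  set n : ℕ := (Finset.range (PL.natDegree + 1)).sup m + 1 with hn
  have hmn : ∀ i, i ≤ PL.natDegree → m i ≤ n := fun i hi =>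
    le_trans (Finset.le_sup (f := m) (Finset.mem_range.mpr (Nat.lt_succ_of_le hi)))
      (Nat.le_succ _)
  refine ⟨n, ?_⟩
  set Q : L[X] := PL.scaleRoots (x⁻¹ ^ n) with hQ
  have hQm : Q.Monic := (monic_scaleRoots_iff _).mpr hPLm
  have hQy : Q.eval (x⁻¹ ^ n * y) = 0 := by
    rw [hQ, scaleRoots_eval_mul, hPLy, mul_zero]
  have hQc : (↑Q.coeffs : Set L) ⊆ adj O x⁻¹ := by
    intro c hc
    rw [Finset.mem_coe, mem_coeffs_iff] at hc
    obtain ⟨i, hi, rfl⟩ := hc
    rw [hQ, coeff_scaleRoots]
    have hile : i ≤ PL.natDegree := by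
      have := le_natDegree_of_mem_supp i hi
      rwa [hQ, natDegree_scaleRoots] at this
    rcases Nat.lt_or_ge i PL.natDegree with hlt | hge
    · rw [← pow_mul, mul_comm (PL.coeff i)]
      refine hm i _ (le_trans (hmn i hile) ?_)
      exact Nat.le_mul_of_pos_right n (Nat.sub_pos_of_lt hlt)
    · have hieq : i = PL.natDegree := le_antisymm hile hge
      rw [hieq, Nat.sub_self, pow_zero, mul_one, coeff_natDegree, hPLm.leadingCoeff]
      exact Subring.one_mem _
  refine ⟨Q.toSubring (adj O x⁻¹) hQc, (monic_toSubring Q _ hQc).mpr hQm, ?_⟩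
  have : eval₂ (algebraMap (adj O x⁻¹) L) (x⁻¹ ^ n * y) (Q.toSubring (adj O x⁻¹) hQc) =
      ((Q.toSubring (adj O x⁻¹) hQc).map (adj O x⁻¹).subtype).eval (x⁻¹ ^ n * y) := by
    rw [eval_map]; rfl
  rw [this, map_toSubring, hQy]

/-- `adj O x` is the range of `aeval x`. -/
theorem S18CFIN_mem_adj_iff (O : Subring L) (x a : L) :
    a ∈ adj O x ↔ ∃ P : Polynomial O, aeval x P = a := by
  have h1 : adj O x = (Algebra.adjoin O {x}).toSubring := by
    rw [Algebra.adjoin_eq_ring_closure]
    unfold adj
    congr 2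
    exact (Subtype.range_coe).symm
  rw [h1, Subalgebra.mem_toSubring, Algebra.adjoin_singleton_eq_range_aeval, AlgHom.mem_range]

/-- Integrality over `O[x]` can be tested over the polynomial ring. -/
theorem S18CFIN_isIntegral_iff (O : Subring L) (x y : L) :
    IsIntegral (adj O x) y ↔ (aeval x : Polynomial O →ₐ[O] L).toRingHom.IsIntegralElem y := by
  constructor
  · rintro ⟨Q, hQm, hQy⟩
    -- lift `Q` along the surjection `O[X] → adj O x`
    let φ' : Polynomial O →+* adj O x :=
      (aeval x : Polynomial O →ₐ[O] L).toRingHom.codRestrict (adj O x)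
        (fun P => (S18CFIN_mem_adj_iff O x _).mpr ⟨P, rfl⟩)
    have hsurj : Function.Surjective φ' := by
      rintro ⟨a, ha⟩
      obtain ⟨P, hP⟩ := (S18CFIN_mem_adj_iff O x a).mp ha
      exact ⟨P, Subtype.ext hP⟩
    have hlift : Q ∈ Polynomial.lifts φ' := by
      rw [Polynomial.mem_lifts]
      exact Polynomial.map_surjective φ' hsurj Q
    obtain ⟨P, hPQ, -, hPm⟩ := Polynomial.lifts_and_natDegree_eq_and_monic hlift hQm
    refine ⟨P, hPm, ?_⟩
    have hcomp : (aeval x : Polynomial O →ₐ[O] L).toRingHom =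
        (algebraMap (adj O x) L).comp φ' := by
      ext <;> rfl
    rw [hcomp, ← Polynomial.eval₂_map, hPQ]
    exact hQy
  · rintro ⟨P, hPm, hPy⟩
    let φ' : Polynomial O →+* adj O x :=
      (aeval x : Polynomial O →ₐ[O] L).toRingHom.codRestrict (adj O x)
        (fun P => (S18CFIN_mem_adj_iff O x _).mpr ⟨P, rfl⟩)
    refine ⟨P.map φ', hPm.map _, ?_⟩
    rw [Polynomial.eval₂_map]
    have hcomp : (aeval x : Polynomial O →ₐ[O] L).toRingHom =
        (algebraMap (adj O x) L).comp φ' := by
      ext <;> rfl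
    rw [← hcomp]
    exact hPy

/-- Elementwise finite generation of `F1(h)` over `F1`. -/
theorem S18CFIN_fadj_span {F1 : Subfield L} (h : L) (hh : IsAlgebraic F1 h) :
    ∃ t : Finset L, ∀ y ∈ fadj F1 h, ∃ f : L → L, (∀ b, f b ∈ F1) ∧ y = ∑ b ∈ t, f b * b := by
  classical
  have hfin : FiniteDimensional F1 (IntermediateField.adjoin F1 {h}) :=
    IntermediateField.adjoin.finiteDimensional hh.isIntegral
  have hcarrier : ((IntermediateField.adjoin F1 {h}).toSubfield : Subfield L) = fadj F1 h := by
    rw [IntermediateField.adjoin_toSubfield]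
    unfold fadj
    congr 2
    exact Subtype.range_coe
  obtain ⟨t₁, ht₁⟩ := (Module.finite_def.mp hfin)
  let ι : IntermediateField.adjoin F1 {h} → L := Subtype.val
  have hinj : Function.Injective ι := Subtype.val_injective
  refine ⟨t₁.image ι, fun y hy => ?_⟩
  have hy' : y ∈ IntermediateField.adjoin F1 {h} := by
    rw [← hcarrier] at hy
    exact hy
  have hmem : (⟨y, hy'⟩ : IntermediateField.adjoin F1 {h}) ∈ Submodule.span F1 (t₁ : Set _) := by
    rw [ht₁]; trivial
  obtain ⟨f, -, hf⟩ := Submodule.mem_span_finset.mp hmem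
  refine ⟨fun z => if hz : ∃ b ∈ t₁, ι b = z then ((f hz.choose : F1) : L) else 0, ?_, ?_⟩
  · intro b
    by_cases hb : ∃ b' ∈ t₁, ι b' = b
    · simp only [dif_pos hb]; exact (f hb.choose).2
    · simp only [dif_neg hb]; exact F1.zero_mem
  · rw [Finset.sum_image (fun a _ b _ hab => hinj hab)]
    have hy2 : y = ι (∑ a ∈ t₁, f a • a) := by rw [hf]
    rw [hy2]
    have hsum : ι (∑ a ∈ t₁, f a • a) = ∑ a ∈ t₁, ι (f a • a) :=
      map_sum (IntermediateField.adjoin F1 {h}).val _ _
    rw [hsum]
    refine Finset.sum_congr rfl fun b hb => ?_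
    have hex : ∃ b' ∈ t₁, ι b' = ι b := ⟨b, hb, rfl⟩
    simp only [dif_pos hex]
    have hch : hex.choose = b := hinj hex.choose_spec.2
    rw [hch]
    rfl

/-- **X-C-FIN.** The integral closure of `O[x]` (`x = j` or `x = j⁻¹`) in `F1(h)`, `h` algebraic
over `F1`, is a finitely generated `O[x]`-module (elementwise form). -/
theorem S18CFIN_fin [CharZero L] {O : Subring L} {π j : L} {F1 : Subfield L}
    {V A0 Ainf : Subring L}
    (S : Setup O π j F1 V A0 Ainf) (x : L) (hx : x = j ∨ x = j⁻¹)
    (h : L) (hh : IsAlgebraic F1 h) :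
    ∃ s : Finset L, (↑s ⊆ (icl (adj O x) (fadj F1 h) : Set L)) ∧
      ∀ y ∈ icl (adj O x) (fadj F1 h), ∃ c : L → L,
        (∀ z, c z ∈ adj O x) ∧ y = ∑ z ∈ s, c z * z := by
  classical
  have := S.dvr
  -- x is transcendental
  have hxtr : Transcendental O x := by
    rcases hx with rfl | rfl
    · exact S.j_trans
    · intro halg
      apply S.j_trans
      have := halg.inv
      rwa [inv_inv] at this
  have hxF1 : x ∈ F1 := by
    rcases hx with rfl | rfl
    · exact S.j_mem
    · exact F1.inv_mem S.j_mem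
  -- the polynomial ring and its fraction field
  let φ : Polynomial O →+* L := (aeval x : Polynomial O →ₐ[O] L).toRingHom
  have hφinj : Function.Injective φ := transcendental_iff_injective.mp hxtr
  let algAL : Algebra (Polynomial O) L := φ.toAlgebra
  let ψ : FractionRing (Polynomial O) →+* L := IsFractionRing.lift (g := φ) hφinj
  let algKL : Algebra (FractionRing (Polynomial O)) L := ψ.toAlgebra
  have : IsScalarTower (Polynomial O) (FractionRing (Polynomial O)) L :=
    IsScalarTower.of_algebraMap_eq (fun a => (IsFractionRing.lift_algebraMap hφinj a).symm)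
  have : CharZero (FractionRing (Polynomial O)) := ψ.charZero
  have hφF1 : ∀ P : Polynomial O, φ P ∈ F1 := by
    intro P
    induction P using Polynomial.induction_on' with
    | add p q hp hq => rw [map_add]; exact F1.add_mem hp hq
    | monomial n a =>
      have : φ (monomial n a) = (a : L) * x ^ n := by
        change aeval x (monomial n a) = _
        rw [aeval_monomial]
        rfl
      rw [this]
      exact F1.mul_mem (S.O_le a.2) (F1.pow_mem hxF1 n)
  have hF1E : (F1 : Set L) ⊆ fadj F1 h := fun y hy => Subfield.subset_closure (Or.inl hy)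
  have hψE : ∀ k : FractionRing (Polynomial O),
      algebraMap (FractionRing (Polynomial O)) L k ∈ fadj F1 h := by
    intro k
    obtain ⟨a, b, hb, rfl⟩ := IsFractionRing.div_surjective (A := Polynomial O) k
    rw [map_div₀]
    refine (fadj F1 h).div_mem ?_ ?_
    · rw [← IsScalarTower.algebraMap_apply]
      exact hF1E (hφF1 a)
    · rw [← IsScalarTower.algebraMap_apply]
      exact hF1E (hφF1 b)
  let E' : IntermediateField (FractionRing (Polynomial O)) L :=
    Subfield.toIntermediateField (fadj F1 h) hψE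
  have hE'mem : ∀ y : L, y ∈ E' ↔ y ∈ fadj F1 h := fun y => Iff.rfl
  -- `Frac(O)(j)` is inside the range of `ψ`
  have hKj : ∀ c ∈ Subfield.closure ((O : Set L) ∪ {j}),
      ∃ k : FractionRing (Polynomial O), ψ k = c := by
    have hle : Subfield.closure ((O : Set L) ∪ {j}) ≤ ψ.fieldRange := by
      rw [Subfield.closure_le]
      rintro c (hc | hc)
      · refine ⟨algebraMap (Polynomial O) _ (C ⟨c, hc⟩), ?_⟩
        rw [IsFractionRing.lift_algebraMap]
        change aeval x (C (⟨c, hc⟩ : O)) = c
        rw [aeval_C]; rfl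
      · rw [Set.mem_singleton_iff] at hc
        subst hc
        have hX : ψ (algebraMap (Polynomial O) _ X) = x := by
          rw [IsFractionRing.lift_algebraMap]
          change aeval x (X : Polynomial O) = x
          rw [aeval_X]
        rcases hx with hx | hx
        · exact ⟨algebraMap (Polynomial O) _ X, by rw [hX, hx]⟩
        · refine ⟨(algebraMap (Polynomial O) _ X)⁻¹, ?_⟩
          rw [map_inv₀, hX, hx, inv_inv]
    intro c hc
    exact hle hc
  -- finite-dimensionality
  obtain ⟨s₁, hs₁⟩ := S.finite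
  obtain ⟨t₁, ht₁⟩ := S18CFIN_fadj_span h hh
  let T : Finset L := (s₁ ×ˢ t₁).image (fun p => p.1 * p.2)
  have hspan : ∀ y ∈ fadj F1 h, y ∈ Submodule.span (FractionRing (Polynomial O)) (T : Set L) := by
    intro y hy
    obtain ⟨f, hf, rfl⟩ := ht₁ y hy
    refine Submodule.sum_mem _ fun b hb => ?_
    obtain ⟨c, hc, hfb⟩ := hs₁ (f b) (hf b)
    rw [hfb, Finset.sum_mul]
    refine Submodule.sum_mem _ fun z hz => ?_
    obtain ⟨k, hk⟩ := hKj (c z) (hc z)
    have : c z * z * b = k • (z * b) := by
      rw [Algebra.smul_def, mul_assoc]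
      congr 1
      exact hk.symm
    rw [this]
    refine Submodule.smul_mem _ _ (Submodule.subset_span ?_)
    rw [Finset.mem_coe, Finset.mem_image]
    exact ⟨(z, b), Finset.mem_product.mpr ⟨hz, hb⟩, rfl⟩
  have : FiniteDimensional (FractionRing (Polynomial O))
      (Submodule.span (FractionRing (Polynomial O)) (T : Set L)) :=
    FiniteDimensional.span_finset _ T
  have hle : Subalgebra.toSubmodule E'.toSubalgebra ≤
      Submodule.span (FractionRing (Polynomial O)) (T : Set L) := fun y hy => hspan y hy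
  have hfd : FiniteDimensional (FractionRing (Polynomial O)) E' :=
    Submodule.finiteDimensional_of_le hle
  -- the integral closure is finite
  have hfin : Module.Finite (Polynomial O) (integralClosure (Polynomial O) E') :=
    IsIntegralClosure.finite (Polynomial O) (FractionRing (Polynomial O)) E' _
  obtain ⟨t, ht⟩ := Module.finite_def.mp hfin
  have : IsScalarTower (Polynomial O) E' L := IsScalarTower.of_algebraMap_eq (fun a => rfl)
  let ι : integralClosure (Polynomial O) E' → L := fun c => ((c : E') : L)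
  have hιinj : Function.Injective ι := fun a b hab => Subtype.ext (Subtype.ext hab)
  have hint_iff : ∀ (y : L) (hy : y ∈ E'), IsIntegral (adj O x) y ↔
      IsIntegral (Polynomial O) (⟨y, hy⟩ : E') := by
    intro y hy
    rw [S18CFIN_isIntegral_iff]
    have h1 : IsIntegral (Polynomial O) (⟨y, hy⟩ : E') ↔
        IsIntegral (Polynomial O) (algebraMap E' L ⟨y, hy⟩) :=
      (isIntegral_algebraMap_iff (algebraMap E' L).injective).symm
    rw [h1]
    rfl
  refine ⟨t.image ι, ?_, ?_⟩
  · intro z hz
    rw [Finset.mem_coe, Finset.mem_image] at hz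
    obtain ⟨c, -, rfl⟩ := hz
    rw [SetLike.mem_coe, mem_icl]
    exact ⟨(hint_iff _ (c : E').2).mpr c.2, (c : E').2⟩
  · intro y hy
    rw [mem_icl] at hy
    obtain ⟨hyint, hyE⟩ := hy
    have hyC : (⟨y, hyE⟩ : E') ∈ integralClosure (Polynomial O) E' :=
      (hint_iff y hyE).mp hyint
    have hmem : (⟨⟨y, hyE⟩, hyC⟩ : integralClosure (Polynomial O) E') ∈
        Submodule.span (Polynomial O) (t : Set _) := by
      rw [ht]; trivial
    obtain ⟨f, -, hf⟩ := Submodule.mem_span_finset.mp hmem
    refine ⟨fun z => if hz : ∃ c ∈ t, ι c = z then φ (f hz.choose) else 0, ?_, ?_⟩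
    · intro z
      by_cases hz : ∃ c ∈ t, ι c = z
      · simp only [dif_pos hz]
        exact (S18CFIN_mem_adj_iff O x _).mpr ⟨_, rfl⟩
      · simp only [dif_neg hz]; exact Subring.zero_mem _
    · rw [Finset.sum_image (fun a _ b _ hab => hιinj hab)]
      have hy2 : y = ι (∑ a ∈ t, f a • a) := by rw [hf]
      rw [hy2]
      have hsum : ι (∑ a ∈ t, f a • a) = ∑ a ∈ t, ι (f a • a) := by
        change (E'.val.toRingHom.comp (integralClosure (Polynomial O) E').val.toRingHom)
          (∑ a ∈ t, f a • a) = _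
        rw [map_sum]
        rfl
      rw [hsum]
      refine Finset.sum_congr rfl fun b hb => ?_
      have hex : ∃ b' ∈ t, ι b' = ι b := ⟨b, hb, rfl⟩
      simp only [dif_pos hex]
      have hch : hex.choose = b := hιinj hex.choose_spec.2
      rw [hch]
      change ((f b • b : integralClosure (Polynomial O) E') : E').1 = φ (f b) * ι b
      rw [Algebra.smul_def]
      rfl

end Fermat.Agent.S18_helper27_CFIN
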