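import Mathlib
import Fermat.Agent.S18_helper9_CDefs
import Fermat.Agent.S18_helper27_CFIN

set_option autoImplicit false

/-!
# S18 block C, piece X-C-NOETH

The chart ring `A` (integral closure of `O[x]` in `F1`) is a noetherian ring.
-/

namespace Fermat.Agent.S18_helper27_CNOETH

open Fermat.Agent.S18_helper9_CDefs Fermat.Agent.S18_helper27_CFIN Polynomial

variable {L : Type*} [Field L]

theorem S18CNOETH_fadj_one (F1 : Subfield L) : fadj F1 1 = F1 := by
  unfold fadj
  apply le_antisymm
  · rw [Subfield.closure_le]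
    rintro y (hy | hy)
    · exact hy
    · rw [Set.mem_singleton_iff] at hy
      rw [hy]
      exact F1.one_mem
  · exact fun y hy => Subfield.subset_closure (Or.inl hy)

/-- **X-C-NOETH.** The chart ring is noetherian. -/
theorem S18CNOETH_chart_noetherian [CharZero L] {O : Subring L} {π j : L} {F1 : Subfield L}
    {V A0 Ainf : Subring L} (S : Setup O π j F1 V A0 Ainf) (x : L) (hx : x = j ∨ x = j⁻¹)
    (A : Subring L) (hC : Chart O π x F1 V A) : IsNoetherianRing ↥A := by
  classical
  have := S.dvr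
  obtain ⟨s, hs_sub, hs_gen⟩ := S18CFIN_fin S x hx 1 (isAlgebraic_one)
  have hA_iff : ∀ y : L, y ∈ A ↔ y ∈ icl (adj O x) (fadj F1 1) := by
    intro y
    rw [mem_icl, hC.mem_iff, S18CNOETH_fadj_one]
  have hxF1 : x ∈ F1 := by
    rcases hx with rfl | rfl
    · exact S.j_mem
    · exact F1.inv_mem S.j_mem
  have hadjF1 : ∀ a ∈ adj O x, a ∈ F1 := by
    intro a ha
    have hle : adj O x ≤ F1.toSubring := by
      unfold adj
      rw [Subring.closure_le]
      rintro y (hy | hy)
      · exact S.O_le hy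
      · rw [Set.mem_singleton_iff] at hy
        rw [hy]; exact hxF1
    exact hle ha
  have hadjA : ∀ a ∈ adj O x, a ∈ A := fun a ha =>
    (hC.mem_iff a).mpr ⟨isIntegral_algebraMap (R := adj O x) (x := ⟨a, ha⟩), hadjF1 a ha⟩
  let f : Polynomial O →+* A :=
    (aeval x : Polynomial O →ₐ[O] L).toRingHom.codRestrict A
      (fun P => hadjA _ ((S18CFIN_mem_adj_iff O x _).mpr ⟨P, rfl⟩))
  let g : {z : L // z ∈ s} → A := fun z => ⟨z.1, (hA_iff _).mpr (hs_sub z.2)⟩
  let Φ : MvPolynomial {z : L // z ∈ s} (Polynomial O) →+* A := MvPolynomial.eval₂Hom f g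
  have hsurj : Function.Surjective Φ := by
    rintro ⟨y, hy⟩
    obtain ⟨c, hc, hyc⟩ := hs_gen y ((hA_iff y).mp hy)
    choose P hP using fun z => (S18CFIN_mem_adj_iff O x _).mp (hc z)
    refine ⟨∑ z : {z : L // z ∈ s}, MvPolynomial.C (P z.1) * MvPolynomial.X z, ?_⟩
    apply Subtype.ext
    rw [map_sum]
    simp only [map_mul, Φ, MvPolynomial.eval₂Hom_C, MvPolynomial.eval₂Hom_X']
    rw [hyc]
    have h1 : ∀ z : {z : L // z ∈ s}, ((f (P z.1) * g z : A) : L) = c z.1 * z.1 := by
      intro z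
      change aeval x (P z.1) * z.1 = _
      rw [hP]
    rw [show ((∑ z : {z : L // z ∈ s}, f (P z.1) * g z : A) : L) =
      ∑ z : {z : L // z ∈ s}, ((f (P z.1) * g z : A) : L) from map_sum A.subtype _ _]
    simp only [h1]
    exact (Finset.sum_coe_sort s (fun z => c z * z))
  exact isNoetherianRing_of_surjective _ _ Φ hsurj

end Fermat.Agent.S18_helper27_CNOETH
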