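import Mathlib
import Fermat.Agent.S18_helper9_CDefs

set_option autoImplicit false

/-! # S18 block C: basic API for `adj`, `icl`, `vadj`, and the local-global lemma `glue` -/

namespace Fermat.Agent.S18_helper9_CBasic

open Fermat.Agent.S18_helper9_CDefs Polynomial

variable {L : Type*} [Field L]

/-! ## integrality over subrings of `L` -/

theorem isIntegral_mono {R R' : Subring L} (h : R ≤ R') {x : L} (hx : IsIntegral R x) :
    IsIntegral R' x := by
  obtain ⟨P, hP, hPx⟩ := hx
  refine ⟨P.map (Subring.inclusion h), hP.map _, ?_⟩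
  rw [← hPx, Polynomial.eval₂_map]
  rfl

theorem isIntegral_of_mem (R : Subring L) {x : L} (hx : x ∈ R) : IsIntegral R x := by
  have : x = algebraMap R L ⟨x, hx⟩ := rfl
  rw [this]
  exact isIntegral_algebraMap

theorem isIntegral_trans' {R A : Subring L} (hA : ∀ a ∈ A, IsIntegral R a) {x : L}
    (hx : IsIntegral A x) : IsIntegral R x := by
  -- `x` is integral over the integral closure of `R` in `L`
  have h1 : A ≤ (integralClosure R L).toSubring := fun a ha => hA a ha
  have h2 : IsIntegral (integralClosure R L).toSubring x := isIntegral_mono h1 hx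
  have h3 : IsIntegral (integralClosure R L) x := by
    obtain ⟨P, hP, hPx⟩ := h2
    exact ⟨P, hP, hPx⟩
  exact isIntegral_trans x h3 |> fun h => h

/-! ## `adj` -/

theorem le_adj (O : Subring L) (x : L) : O ≤ adj O x := fun _ hy =>
  Subring.subset_closure (Or.inl hy)

theorem mem_adj_self (O : Subring L) (x : L) : x ∈ adj O x :=
  Subring.subset_closure (Or.inr rfl)

theorem adj_le {O R : Subring L} {x : L} (hO : O ≤ R) (hx : x ∈ R) : adj O x ≤ R :=
  Subring.closure_le.mpr (by
    rintro y (hy | hy)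
    · exact hO hy
    · rw [Set.mem_singleton_iff] at hy; rw [hy]; exact hx)

theorem le_adjMid (O : Subring L) (x : L) : O ≤ adjMid O x := fun _ hy =>
  Subring.subset_closure (Or.inl hy)

theorem mem_adjMid_self (O : Subring L) (x : L) : x ∈ adjMid O x :=
  Subring.subset_closure (Or.inr (Or.inl rfl))

theorem inv_mem_adjMid (O : Subring L) (x : L) : x⁻¹ ∈ adjMid O x :=
  Subring.subset_closure (Or.inr (Or.inr rfl))

theorem adj_le_adjMid (O : Subring L) (x : L) : adj O x ≤ adjMid O x :=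
  adj_le (le_adjMid O x) (mem_adjMid_self O x)

theorem adj_inv_le_adjMid (O : Subring L) (x : L) : adj O x⁻¹ ≤ adjMid O x :=
  adj_le (le_adjMid O x) (inv_mem_adjMid O x)

/-- elements of `O[x]` are polynomials in `x` with coefficients in `O`. -/
theorem mem_adj_iff (O : Subring L) (x y : L) :
    y ∈ adj O x ↔ ∃ P : Polynomial O, y = eval₂ O.subtype x P := by
  constructor
  · intro hy
    refine Subring.closure_induction (p := fun y _ => ∃ P : Polynomial O, y = eval₂ O.subtype x P)
      ?_ ?_ ?_ ?_ ?_ ?_ hy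
    · rintro z (hz | hz)
      · exact ⟨C ⟨z, hz⟩, by simp⟩
      · rw [Set.mem_singleton_iff] at hz
        exact ⟨X, by simp [hz]⟩
    · exact ⟨0, by simp⟩
    · exact ⟨1, by simp⟩
    · rintro a b _ _ ⟨P, rfl⟩ ⟨Q, rfl⟩
      exact ⟨P + Q, by simp [eval₂_add]⟩
    · rintro a _ ⟨P, rfl⟩
      exact ⟨-P, by simp [eval₂_neg]⟩
    · rintro a b _ _ ⟨P, rfl⟩ ⟨Q, rfl⟩
      exact ⟨P * Q, by simp [eval₂_mul]⟩
  · rintro ⟨P, rfl⟩
    rw [eval₂_eq_sum_range]
    refine Subring.sum_mem _ fun i _ => ?_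
    exact Subring.mul_mem _ (le_adj O x (P.coeff i).2) (Subring.pow_mem _ (mem_adj_self O x) i)

/-! ## `icl` -/

theorem icl_mono {R R' : Subring L} (h : R ≤ R') (E : Subfield L) : icl R E ≤ icl R' E :=
  fun _ hx => ⟨isIntegral_mono h hx.1, hx.2⟩

theorem le_icl {R : Subring L} {E : Subfield L} (h : (R : Set L) ⊆ E) : R ≤ icl R E :=
  fun x hx => ⟨isIntegral_of_mem R hx, h hx⟩

theorem le_fadj (F1 : Subfield L) (h : L) : F1 ≤ fadj F1 h := fun _ hx =>
  Subfield.subset_closure (Or.inl hx)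

theorem mem_fadj_self (F1 : Subfield L) (h : L) : h ∈ fadj F1 h :=
  Subfield.subset_closure (Or.inr rfl)

/-! ## `vadj` -/

theorem vadj_zero (V : Subring L) (s : L) (p : ℕ) : (0 : L) ∈ vadj V s p :=
  ⟨fun _ => 0, fun _ => V.zero_mem, by simp⟩

theorem vadj_add {V : Subring L} {s : L} {p : ℕ} {x y : L} (hx : x ∈ vadj V s p)
    (hy : y ∈ vadj V s p) : x + y ∈ vadj V s p := by
  obtain ⟨c, hc, rfl⟩ := hx
  obtain ⟨d, hd, rfl⟩ := hy
  exact ⟨fun i => c i + d i, fun i => V.add_mem (hc i) (hd i), by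
    rw [← Finset.sum_add_distrib]; exact Finset.sum_congr rfl fun i _ => by ring⟩

theorem vadj_smul {V : Subring L} {s : L} {p : ℕ} {a x : L} (ha : a ∈ V)
    (hx : x ∈ vadj V s p) : a * x ∈ vadj V s p := by
  obtain ⟨c, hc, rfl⟩ := hx
  exact ⟨fun i => a * c i, fun i => V.mul_mem ha (hc i), by
    rw [Finset.mul_sum]; exact Finset.sum_congr rfl fun i _ => by ring⟩

theorem vadj_neg {V : Subring L} {s : L} {p : ℕ} {x : L} (hx : x ∈ vadj V s p) :
    -x ∈ vadj V s p := by
  have := vadj_smul (V.neg_mem V.one_mem) hx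
  simpa using this

theorem vadj_sub {V : Subring L} {s : L} {p : ℕ} {x y : L} (hx : x ∈ vadj V s p)
    (hy : y ∈ vadj V s p) : x - y ∈ vadj V s p := by
  rw [sub_eq_add_neg]; exact vadj_add hx (vadj_neg hy)

theorem vadj_of_mem {V : Subring L} {s : L} {p : ℕ} (hp : 0 < p) {a : L} (ha : a ∈ V) :
    a ∈ vadj V s p := by
  refine ⟨fun i => if i = 0 then a else 0, fun i => ?_, ?_⟩
  · by_cases h : i = 0 <;> simp [h, ha, V.zero_mem]
  · rw [Finset.sum_eq_single 0]
    · simp
    · intro i _ hi; simp [hi]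
    · intro h0; exact absurd (Finset.mem_range.mpr hp) h0

/-- `V s^k ⊆ V[s]` for every `k`, when `s^p ∈ V`. -/
theorem vadj_mul_pow {V : Subring L} {s : L} {p : ℕ} (hp : 0 < p) (hs : s ^ p ∈ V) {a : L}
    (ha : a ∈ V) (k : ℕ) : a * s ^ k ∈ vadj V s p := by
  induction k using Nat.strong_induction_on generalizing a with
  | _ k ih =>
    by_cases hk : k < p
    · refine ⟨fun i => if i = k then a else 0, fun i => ?_, ?_⟩
      · by_cases h : i = k <;> simp [h, ha, V.zero_mem]
      · rw [Finset.sum_eq_single k]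
        · simp
        · intro i _ hi; simp [hi]
        · intro h0; exact absurd (Finset.mem_range.mpr hk) h0
    · have hk' : p ≤ k := not_lt.mp hk
      have e1 : a * s ^ k = (a * s ^ p) * s ^ (k - p) := by
        rw [mul_assoc, ← pow_add, Nat.add_sub_cancel' hk']
      rw [e1]
      exact ih (k - p) (by omega) (V.mul_mem ha hs)

theorem vadj_mul {V : Subring L} {s : L} {p : ℕ} (hp : 0 < p) (hs : s ^ p ∈ V) {x y : L}
    (hx : x ∈ vadj V s p) (hy : y ∈ vadj V s p) : x * y ∈ vadj V s p := by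
  obtain ⟨c, hc, rfl⟩ := hx
  obtain ⟨d, hd, rfl⟩ := hy
  rw [Finset.sum_mul_sum]
  -- every term is in `vadj`
  have key : ∀ (S : Finset ℕ) (g : ℕ → L), (∀ i ∈ S, g i ∈ vadj V s p) →
      ∑ i ∈ S, g i ∈ vadj V s p := by
    intro S g hg
    induction S using Finset.induction_on with
    | empty => simpa using vadj_zero V s p
    | insert a S ha ih =>
      rw [Finset.sum_insert ha]
      exact vadj_add (hg a (Finset.mem_insert_self a S))
        (ih fun i hi => hg i (Finset.mem_insert_of_mem hi))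
  refine key _ _ fun i _ => key _ _ fun k _ => ?_
  have e1 : c i * s ^ i * (d k * s ^ k) = (c i * d k) * s ^ (i + k) := by
    rw [pow_add]; ring
  rw [e1]
  exact vadj_mul_pow hp hs (V.mul_mem (hc i) (hd k)) (i + k)

theorem vadj_sum {V : Subring L} {s : L} {p : ℕ} (S : Finset ℕ) (g : ℕ → L)
    (hg : ∀ i ∈ S, g i ∈ vadj V s p) : ∑ i ∈ S, g i ∈ vadj V s p := by
  induction S using Finset.induction_on with
  | empty => simpa using vadj_zero V s p
  | insert a S ha ih =>
    rw [Finset.sum_insert ha]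
    exact vadj_add (hg a (Finset.mem_insert_self a S))
      (ih fun i hi => hg i (Finset.mem_insert_of_mem hi))

theorem kumIdem_mem_vadj {V : Subring L} {s : L} {p : ℕ} (hpV : (p : L)⁻¹ ∈ V) :
    kumIdem p s ∈ vadj V s p :=
  ⟨fun _ => (p : L)⁻¹, fun _ => hpV, by rw [kumIdem, Finset.mul_sum]⟩

/-! ## the local-global lemma -/

/-- **X-C-GLUE.** If `T` is an additive subgroup of `L` stable under multiplication by `A`,
`π e ∈ T`, and for every maximal ideal `m ∋ π` of `A` some `d ∉ m` has `d e ∈ T`, then `e ∈ T`. -/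
theorem glue (A : Subring L) (π : L) (hπ : π ∈ A) (T : AddSubgroup L)
    (hT : ∀ a ∈ A, ∀ t ∈ T, a * t ∈ T) (e : L) (hπe : π * e ∈ T)
    (hloc : ∀ m : Ideal A, m.IsMaximal → (⟨π, hπ⟩ : A) ∈ m → ∃ d : A, d ∉ m ∧ (d : L) * e ∈ T) :
    e ∈ T := by
  classical
  let I : Ideal A :=
    { carrier := {a | (a : L) * e ∈ T}
      add_mem' := by
        intro a b ha hb
        show ((a + b : A) : L) * e ∈ T
        rw [Subring.coe_add, add_mul]
        exact T.add_mem ha hb
      zero_mem' := by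
        show ((0 : A) : L) * e ∈ T
        simp
      smul_mem' := by
        intro c a ha
        show ((c • a : A) : L) * e ∈ T
        rw [smul_eq_mul, Subring.coe_mul, mul_assoc]
        exact hT c c.2 _ ha }
  have hI : I = ⊤ := by
    by_contra hne
    obtain ⟨m, hm, hIm⟩ := Ideal.exists_le_maximal I hne
    have hπm : (⟨π, hπ⟩ : A) ∈ m := hIm (show ((⟨π, hπ⟩ : A) : L) * e ∈ T from hπe)
    obtain ⟨d, hd, hde⟩ := hloc m hm hπm
    exact hd (hIm hde)
  have h1 : (1 : A) ∈ I := by rw [hI]; trivial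
  have h2 : ((1 : A) : L) * e ∈ T := h1
  simpa using h2

end Fermat.Agent.S18_helper9_CBasic
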