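import Mathlib
import Fermat.Agent.S18_helper1_AIV
import Fermat.Agent.S18_helper9_CBasic
import Fermat.Agent.S18_helper27_CFIN
import Fermat.Agent.S18_helper27_CNOETH

set_option autoImplicit false

namespace Fermat.Agent.S18_helper1_AIVC

open Polynomial Fermat.Agent.S18_helper9_CDefs

variable {L : Type*} [Field L]

/-- Elements of `O` lie in every chart. -/
theorem S18AIVC_O_le {O : Subring L} {π x : L} {F1 : Subfield L} {V A : Subring L}
    (hC : Chart O π x F1 V A) (hOF : (O : Set L) ⊆ F1) : O ≤ A := fun c hc =>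
  (hC.mem_iff c).mpr ⟨Fermat.Agent.S18_helper9_CBasic.isIntegral_of_mem _
    (Fermat.Agent.S18_helper9_CBasic.le_adj O x hc), hOF hc⟩

/-- The coordinate lies in its chart. -/
theorem S18AIVC_x_mem {O : Subring L} {π x : L} {F1 : Subfield L} {V A : Subring L}
    (hC : Chart O π x F1 V A) (hxF : x ∈ F1) : x ∈ A :=
  (hC.mem_iff x).mpr ⟨Fermat.Agent.S18_helper9_CBasic.isIntegral_of_mem _
    (Fermat.Agent.S18_helper9_CBasic.mem_adj_self O x), hxF⟩

/-- The chart lies in the function field. -/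
theorem S18AIVC_le_F1 {O : Subring L} {π x : L} {F1 : Subfield L} {V A : Subring L}
    (hC : Chart O π x F1 V A) : ∀ a ∈ A, a ∈ F1 := fun a ha => ((hC.mem_iff a).mp ha).2


open Fermat.Agent.S18_helper9_CBasic Fermat.Agent.S18_helper27_CFIN
  Fermat.Agent.S18_helper27_CNOETH Fermat.Agent.S18_helper1_AIV

/-- Constant-term trick: a nonzero integral element divides a nonzero element of the base. -/
theorem S18AIVC_exists_dvd {R A : Type*} [CommRing R] [Nontrivial R] [CommRing A] [IsDomain A]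
    (φ : R →+* A) (a : A) (ha0 : a ≠ 0) (hint : φ.IsIntegralElem a) :
    ∃ r : R, r ≠ 0 ∧ a ∣ φ r := by
  let _ : Algebra R A := φ.toAlgebra
  have h1 : IsIntegral R a := hint
  exact h1.isAlgebraic.exists_nonzero_dvd (mem_nonZeroDivisors_of_ne_zero ha0)

/-- **(A-iv) at the carriers of `CDefs`** (both charts). -/
theorem S18AIVC_chart [CharZero L] {O : Subring L} {π j : L} {F1 : Subfield L}
    {V A0 Ainf : Subring L} (S : Setup O π j F1 V A0 Ainf) (x : L) (hx : x = j ∨ x = j⁻¹)
    (A : Subring L) (hC : Chart O π x F1 V A)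
    {k : Type*} [Field k] [PerfectField k] (red : V →+* LaurentSeries k)
    (ρ : O →+* k) (hρ : Function.Surjective ρ)
    (hρπ : ∀ c : O, ρ c = 0 ↔ (⟨π, S.π_mem⟩ : O) ∣ c)
    (hredO : ∀ (c : O) (hc : (c : L) ∈ V), red ⟨c, hc⟩ = HahnSeries.C (ρ c))
    (hredker : ∀ v : V, red v = 0 → ∃ w ∈ V, (v : L) = π * w)
    (hxV : x ∈ V) (hj : LaurentSeries.derivative k (red ⟨x, hxV⟩) ≠ 0) :
    ∃ (Vel : L) (P₀ : Polynomial (Polynomial O)), Vel ∈ A ∧ P₀.Monic ∧
      eval₂ (eval₂RingHom O.subtype x) Vel P₀ = 0 ∧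
      (∀ y ∈ F1, ∃ (n : Polynomial (Polynomial O)) (d : Polynomial O), d ≠ 0 ∧
        eval₂ O.subtype x d * y = eval₂ (eval₂RingHom O.subtype x) Vel n) ∧
      (∀ (κ : Type) [Field κ] (f : Polynomial O →+* κ),
        (∀ p, f p = 0 ↔ C (⟨π, S.π_mem⟩ : O) ∣ p) → (P₀.map f).Separable) ∧
      (∀ Q : Polynomial (Polynomial O),
        eval₂ (eval₂RingHom O.subtype x) Vel Q = 0 → P₀ ∣ Q) := by
  classical
  have hdvr := S.dvr
  have hxF : x ∈ F1 := by
    rcases hx with rfl | rfl
    · exact S.j_mem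
    · exact F1.inv_mem S.j_mem
  have hxtr : Transcendental O x := by
    rcases hx with rfl | rfl
    · exact S.j_trans
    · intro halg
      apply S.j_trans
      have := halg.inv
      rwa [inv_inv] at this
  have hOA : O ≤ A := S18AIVC_O_le hC S.O_le
  have hxA : x ∈ A := S18AIVC_x_mem hC hxF
  have hAF : ∀ a ∈ A, a ∈ F1 := S18AIVC_le_F1 hC
  -- local algebra structures
  let algOA : Algebra O A := (Subring.inclusion hOA).toAlgebra
  let ιAF : A →+* F1 := RingHom.codRestrict A.subtype F1 (fun a => hAF a a.2)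
  let algAF : Algebra A F1 := ιAF.toAlgebra
  have hιcoe : ∀ a : A, ((algebraMap A F1 a : F1) : L) = (a : L) := fun a => rfl
  have hOAcoe : ∀ c : O, ((algebraMap O A c : A) : L) = (c : L) := fun c => rfl
  let x' : A := ⟨x, hxA⟩
  -- evaluation at `x'` and at `x`
  have hev : ∀ p : Polynomial O, ((aeval x' p : A) : L) = eval₂ O.subtype x p := by
    intro p
    have h1 : A.subtype (eval₂ (algebraMap O A) x' p) = eval₂ (A.subtype.comp (algebraMap O A))
        (A.subtype x') p := Polynomial.hom_eval₂ p (algebraMap O A) A.subtype x'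
    exact h1
  have hAinj : Function.Injective (algebraMap A F1) := by
    intro a b h
    exact Subtype.ext (congrArg (fun z : F1 => (z : L)) h)
  have hx' : Function.Injective (aeval x' : Polynomial O → A) := by
    rw [injective_iff_map_eq_zero]
    intro p hp
    have h1 := hev p
    rw [hp] at h1
    have h2 : aeval x p = 0 := h1.symm
    exact (transcendental_iff.mp hxtr) p h2
  -- finiteness
  have hfin : ∃ s : Finset A, ∀ a : A, ∃ c : A → Polynomial O,
      a = ∑ i ∈ s, aeval x' (c i) * i := by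
    obtain ⟨s, hsub, hgen⟩ := S18CFIN_fin S x hx 1 isAlgebraic_one
    rw [S18CNOETH_fadj_one] at hsub hgen
    have hsA : ∀ z ∈ s, z ∈ A := fun z hz => (hC.mem_iff z).mpr (mem_icl.mp (hsub hz))
    refine ⟨s.subtype (· ∈ A), fun a => ?_⟩
    obtain ⟨c, hc, hsum⟩ := hgen a.1 (mem_icl.mpr ((hC.mem_iff a.1).mp a.2))
    have hP : ∀ z : L, ∃ P : Polynomial O, c z = eval₂ O.subtype x P :=
      fun z => (mem_adj_iff O x (c z)).mp (hc z)
    choose Pz hPz using hP
    refine ⟨fun i => Pz i.1, Subtype.ext ?_⟩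
    rw [AddSubmonoidClass.coe_finsetSum]
    simp only [MulMemClass.coe_mul, hev]
    rw [Finset.sum_subtype_of_mem (fun z : L => eval₂ O.subtype x (Pz z) * z) hsA, hsum]
    exact Finset.sum_congr rfl fun z _ => by rw [hPz]
  have hMF : ∀ a : A, (aeval x' : Polynomial O →ₐ[O] A).toRingHom.IsIntegralElem a := by
    intro a
    have h1 : IsIntegral (adj O x) (a : L) := ((hC.mem_iff a.1).mp a.2).1
    rw [S18CFIN_isIntegral_iff] at h1
    obtain ⟨p, hpm, hp⟩ := h1
    refine ⟨p, hpm, Subtype.ext ?_⟩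
    have h2 : A.subtype (eval₂ (aeval x' : Polynomial O →ₐ[O] A).toRingHom a p)
        = eval₂ (A.subtype.comp (aeval x' : Polynomial O →ₐ[O] A).toRingHom) (A.subtype a) p :=
      Polynomial.hom_eval₂ p _ A.subtype a
    have h3 : A.subtype.comp (aeval x' : Polynomial O →ₐ[O] A).toRingHom
        = (aeval x : Polynomial O →ₐ[O] L).toRingHom := by
      apply Polynomial.ringHom_ext
      · intro c
        simp only [RingHom.comp_apply, AlgHom.toRingHom_eq_coe, RingHom.coe_coe, aeval_C]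
        rfl
      · simp only [RingHom.comp_apply, AlgHom.toRingHom_eq_coe, RingHom.coe_coe, aeval_X]
        rfl
    rw [h3] at h2
    exact h2.trans hp
  have hfrac : ∀ y : F1, ∃ d : Polynomial O, d ≠ 0 ∧
      ∃ a : A, algebraMap A F1 (aeval x' d) * y = algebraMap A F1 a := by
    intro y
    have h1 : ∃ a1 a2 : A, a1 ≠ 0 ∧ (a1 : L) * (y : L) = (a2 : L) := by
      by_cases hyV : (y : L) ∈ V
      · obtain ⟨b, hbA, hb0, -, hyb⟩ := hC.loc (y : L) hyV
        refine ⟨⟨b, hbA⟩, ⟨(y : L) * b, hyb⟩, ?_, mul_comm _ _⟩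
        intro h
        exact hb0 (congrArg Subtype.val h)
      · have hinv : (y : L)⁻¹ ∈ V := (S.V_val (y : L) y.2).resolve_left hyV
        have hy0 : (y : L) ≠ 0 := by
          intro h
          apply hyV
          rw [h]
          exact V.zero_mem
        obtain ⟨b, hbA, hb0, -, hyb⟩ := hC.loc (y : L)⁻¹ hinv
        refine ⟨⟨(y : L)⁻¹ * b, hyb⟩, ⟨b, hbA⟩, ?_, ?_⟩
        · intro h
          have := congrArg Subtype.val h
          exact (mul_ne_zero (inv_ne_zero hy0) hb0) this
        · show (y : L)⁻¹ * b * (y : L) = b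
          field_simp
    obtain ⟨a1, a2, ha1, h12⟩ := h1
    obtain ⟨r, hr0, a3, ha3⟩ :=
      S18AIVC_exists_dvd (aeval x' : Polynomial O →ₐ[O] A).toRingHom a1 ha1 (hMF a1)
    refine ⟨r, hr0, a3 * a2, Subtype.ext ?_⟩
    have ha3' : aeval x' r = a1 * a3 := ha3
    show ((aeval x' r : A) : L) * (y : L) = ((a3 * a2 : A) : L)
    rw [ha3', MulMemClass.coe_mul, MulMemClass.coe_mul, ← h12]
    ring
  -- the reduction map on the chart
  let red' : A →+* LaurentSeries k := red.comp (Subring.inclusion hC.le_V)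
  have hredC : ∀ c : O, red' (algebraMap O A c) = HahnSeries.C (ρ c) := fun c =>
    hredO c (hC.le_V (hOA c.2))
  have hj' : LaurentSeries.derivative k (red' x') ≠ 0 := hj
  have hker : ∀ a : A, red' a = 0 → algebraMap O A (⟨π, S.π_mem⟩ : O) ∣ a := by
    intro a ha
    obtain ⟨w, hwV, haw⟩ := hredker ⟨a, hC.le_V a.2⟩ ha
    have hwA : w ∈ A := hC.sat w hwV (by rw [← haw]; exact a.2)
    exact ⟨⟨w, hwA⟩, Subtype.ext haw⟩
  obtain ⟨V', P₀, hmonic, hroot, hgenV, hsep, hmin⟩ :=
    S18AIV_exists hAinj x' hx' hfin hfrac ρ hρ (⟨π, S.π_mem⟩ : O) hρπ red' hredC hj' hker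
  have hconv : ∀ Q : Polynomial (Polynomial O),
      ((aeval V' (Q.map (aeval x' : Polynomial O →ₐ[O] A).toRingHom) : A) : L)
        = eval₂ (eval₂RingHom O.subtype x) (V' : L) Q := by
    intro Q
    rw [Polynomial.aeval_def, Polynomial.eval₂_map]
    have h2 : A.subtype (eval₂ ((algebraMap A A).comp
        (aeval x' : Polynomial O →ₐ[O] A).toRingHom) V' Q)
        = eval₂ (A.subtype.comp ((algebraMap A A).comp
            (aeval x' : Polynomial O →ₐ[O] A).toRingHom)) (A.subtype V') Q :=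
      Polynomial.hom_eval₂ Q _ A.subtype V'
    have h3 : A.subtype.comp ((algebraMap A A).comp
        (aeval x' : Polynomial O →ₐ[O] A).toRingHom) = eval₂RingHom O.subtype x := by
      apply Polynomial.ringHom_ext
      · intro c
        simp only [RingHom.comp_apply, AlgHom.toRingHom_eq_coe, RingHom.coe_coe, aeval_C,
          Algebra.algebraMap_self, RingHom.id_apply, coe_eval₂RingHom, eval₂_C]
        rfl
      · simp only [RingHom.comp_apply, AlgHom.toRingHom_eq_coe, RingHom.coe_coe, aeval_X,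
          Algebra.algebraMap_self, RingHom.id_apply, coe_eval₂RingHom, eval₂_X]
        rfl
    rw [h3] at h2
    exact h2
  refine ⟨(V' : L), P₀, V'.2, hmonic, ?_, ?_, hsep, ?_⟩
  · rw [← hconv, hroot]
    rfl
  · intro y hy
    obtain ⟨n, d, hd0, hnd⟩ := hgenV ⟨y, hy⟩
    refine ⟨n, d, hd0, ?_⟩
    have := congrArg (fun z : F1 => (z : L)) hnd
    rw [← hconv, ← hev]
    exact this
  · intro Q hQ
    apply hmin
    apply Subtype.ext
    rw [hconv, hQ]
    rfl

end Fermat.Agent.S18_helper1_AIVC
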