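import Mathlib
import Fermat.Agent.S18_helper1_AIVC
import Fermat.Agent.S18_helper14_ADefs

set_option autoImplicit false

namespace Fermat.Agent.S18_helper1_AIVA

open Polynomial ModularCurve Fermat.Agent.S18_helper13_GAUSS Fermat.Agent.S18_helper9_CDefs
  Fermat.Agent.S18A Fermat.Agent.S18_helper1_AIVC

/-- The derivative of the inverse of a series with nonzero derivative is nonzero. -/
theorem S18AIVA_derivative_inv_ne_zero {k : Type*} [Field k] (y : LaurentSeries k)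
    (hy : LaurentSeries.derivative k y ≠ 0) : LaurentSeries.derivative k y⁻¹ ≠ 0 := by
  have hy0 : y ≠ 0 := by
    rintro rfl
    exact hy (map_zero _)
  intro h0
  have h := Fermat.Agent.S24_helper8_LDER.LDER_mul y y⁻¹
  have h1 : LaurentSeries.derivative k (1 : LaurentSeries k) = 0 := by
    have := Fermat.Agent.S24_helper8_LDER.LDER_C (1 : k)
    rwa [map_one] at this
  rw [mul_inv_cancel₀ hy0, h1, h0, mul_zero, zero_add] at h
  rcases mul_eq_zero.mp h.symm with h2 | h2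
  · exact hy h2
  · exact (inv_ne_zero hy0) h2

/-- `d(jbar)/dq ≠ 0`. -/
theorem S18AIVA_derivative_jqModC_ne_zero (k : Type*) [Field k] :
    LaurentSeries.derivative k (jqModC k) ≠ 0 := by
  refine Fermat.Agent.S18_helper1_SEP.S18SEP_derivative_ne_zero (jqModC k) (-1) ?_ ?_
  · rw [Int.cast_neg, Int.cast_one]
    exact neg_ne_zero.mpr one_ne_zero
  · rw [coeff_jqModC_neg_one]
    exact one_ne_zero

/-- `coeffMap` on constants. -/
theorem S18AIVA_coeffMap_C {R S : Type*} [CommRing R] [CommRing S] (f : R →+* S) (a : R) :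
    coeffMap f (HahnSeries.C a : LaurentSeries R) = HahnSeries.C (f a) := by
  simp only [HahnSeries.C_apply, coeffMap_single]

section Base

variable (O K1 : Type*) [CommRing O] [IsDomain O] [Field K1] [Algebra O K1]
  [IsFractionRing O K1]

/-- `O ≃ OL`. -/
noncomputable def S18AIVA_equiv : O ≃+* OL O K1 :=
  RingEquiv.ofBijective
    (((HahnSeries.C : K1 →+* LaurentSeries K1).comp (algebraMap O K1)).rangeRestrict)
    ⟨by
      intro a b h
      have h1 := congrArg Subtype.val h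
      have h2 : (HahnSeries.C : K1 →+* LaurentSeries K1) (algebraMap O K1 a)
          = HahnSeries.C (algebraMap O K1 b) := h1
      exact IsFractionRing.injective O K1 (HahnSeries.C_injective h2),
     RingHom.rangeRestrict_surjective _⟩

omit [IsDomain O] in
theorem S18AIVA_equiv_coe (a : O) :
    ((S18AIVA_equiv O K1 a : OL O K1) : LaurentSeries K1) = HahnSeries.C (algebraMap O K1 a) :=
  rfl

end Base


section Main

variable {O K1 k : Type*} [CommRing O] [IsDomain O] [IsDiscreteValuationRing O] [Field K1]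
  [CharZero K1] [Algebra O K1] [IsFractionRing O K1] [Field k] [PerfectField k]
  (ρ : O →+* k) (hρ : ∀ x : O, ρ x = 0 ↔ x ∈ IsLocalRing.maximalIdeal O) (N : ℕ)

/-- **(A-iv) for the carriers of block A** (both charts): the reduction hypotheses of
`S18AIVC_chart` are discharged by the Gauss reduction map. -/
theorem S18AIVA_chart (hρs : Function.Surjective ρ)
    (S : Setup (OL O K1) (πL O K1 ρ hρ) (jqModC K1) (F1L K1 N) (VL O K1 ρ hρ N)
      (A0L O K1 N) (AinfL O K1 N))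
    (x : LaurentSeries K1) (hx : x = jqModC K1 ∨ x = (jqModC K1)⁻¹)
    (A : Subring (LaurentSeries K1))
    (hC : Chart (OL O K1) (πL O K1 ρ hρ) x (F1L K1 N) (VL O K1 ρ hρ N) A) :
    ∃ (Vel : LaurentSeries K1) (P₀ : Polynomial (Polynomial (OL O K1))), Vel ∈ A ∧ P₀.Monic ∧
      eval₂ (eval₂RingHom (OL O K1).subtype x) Vel P₀ = 0 ∧
      (∀ y ∈ F1L K1 N, ∃ (n : Polynomial (Polynomial (OL O K1))) (d : Polynomial (OL O K1)),
        d ≠ 0 ∧ eval₂ (OL O K1).subtype x d * y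
          = eval₂ (eval₂RingHom (OL O K1).subtype x) Vel n) ∧
      (∀ (κ : Type) [Field κ] (f : Polynomial (OL O K1) →+* κ),
        (∀ p, f p = 0 ↔ C (⟨πL O K1 ρ hρ, S.π_mem⟩ : OL O K1) ∣ p) → (P₀.map f).Separable) ∧
      (∀ Q : Polynomial (Polynomial (OL O K1)),
        eval₂ (eval₂RingHom (OL O K1).subtype x) Vel Q = 0 → P₀ ∣ Q) := by
  have hcz : CharZero (LaurentSeries K1) :=
    charZero_of_injective_ringHom (HahnSeries.C_injective (Γ := ℤ) (R := K1))
  set D := gd O K1 ρ hρ with hD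
  let e := S18AIVA_equiv O K1
  let ρ' : OL O K1 →+* k := ρ.comp (e.symm : OL O K1 →+* O)
  have hρ's : Function.Surjective ρ' := hρs.comp e.symm.surjective
  have hπe : (⟨πL O K1 ρ hρ, S.π_mem⟩ : OL O K1) = e D.π := Subtype.ext rfl
  have hρπ : ∀ c : OL O K1, ρ' c = 0 ↔ (⟨πL O K1 ρ hρ, S.π_mem⟩ : OL O K1) ∣ c := by
    intro c
    have h1 : ρ' c = 0 ↔ ∃ y : O, e.symm c = D.π * y := D.res_eq_zero_iff (e.symm c)
    rw [h1, hπe]
    constructor
    · rintro ⟨y, hy⟩
      refine ⟨e y, ?_⟩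
      rw [← map_mul, ← hy, RingEquiv.apply_symm_apply]
    · rintro ⟨z, hz⟩
      refine ⟨e.symm z, ?_⟩
      rw [hz, map_mul, RingEquiv.symm_apply_apply]
  have hVle : VL O K1 ρ hρ N ≤ D.Vring := inf_le_left
  let red : VL O K1 ρ hρ N →+* LaurentSeries k := D.red.comp (Subring.inclusion hVle)
  have hred : ∀ v : VL O K1 ρ hρ N, red v = D.redFun (v : LaurentSeries K1) := fun v => rfl
  have hredO : ∀ (c : OL O K1) (hc : (c : LaurentSeries K1) ∈ VL O K1 ρ hρ N),
      red ⟨c, hc⟩ = HahnSeries.C (ρ' c) := by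
    intro c hc
    rw [hred]
    obtain ⟨a, rfl⟩ := e.surjective c
    have h1 : ((e a : OL O K1) : LaurentSeries K1) = D.incS (HahnSeries.C a) := by
      rw [S18AIVA_equiv_coe]
      show _ = coeffMap D.inc (HahnSeries.C a)
      rw [S18AIVA_coeffMap_C]
      rfl
    show D.redFun ((e a : OL O K1) : LaurentSeries K1) = _
    rw [h1, D.redFun_incS]
    show coeffMap D.res (HahnSeries.C a) = _
    rw [S18AIVA_coeffMap_C]
    show _ = HahnSeries.C (ρ (e.symm (e a)))
    rw [RingEquiv.symm_apply_apply]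
    rfl
  have hπF : πL O K1 ρ hρ ∈ F1L K1 N := S.O_le S.π_mem
  have hredker : ∀ v : VL O K1 ρ hρ N, red v = 0 →
      ∃ w ∈ VL O K1 ρ hρ N, (v : LaurentSeries K1) = πL O K1 ρ hρ * w := by
    intro v hv
    rw [hred] at hv
    obtain ⟨y, hyV, hy⟩ := D.exists_eq_mul_of_redFun_eq_zero (hVle v.2) hv
    refine ⟨y, ⟨hyV, ?_⟩, hy⟩
    have hy' : y = (D.πK)⁻¹ * (v : LaurentSeries K1) := by
      rw [hy, ← mul_assoc, inv_mul_cancel₀ D.πK_ne_zero, one_mul]
    rw [hy']
    exact (F1L K1 N).mul_mem ((F1L K1 N).inv_mem hπF) v.2.2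
  have hxF : x ∈ F1L K1 N := by
    rcases hx with rfl | rfl
    · exact S.j_mem
    · exact (F1L K1 N).inv_mem S.j_mem
  have hxV : x ∈ VL O K1 ρ hρ N := hC.le_V (S18AIVC_x_mem hC hxF)
  have hj : LaurentSeries.derivative k (red ⟨x, hxV⟩) ≠ 0 := by
    rw [hred]
    show LaurentSeries.derivative k (D.redFun x) ≠ 0
    rcases hx with rfl | rfl
    · rw [D.redFun_jqModC]
      exact S18AIVA_derivative_jqModC_ne_zero k
    · rw [D.redFun_inv D.jqModC_mem_Vring (by
        rw [D.redFun_jqModC]; exact jqModC_ne_zero_of_nontrivial k), D.redFun_jqModC]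
      exact S18AIVA_derivative_inv_ne_zero _ (S18AIVA_derivative_jqModC_ne_zero k)
  exact S18AIVC_chart S x hx A hC red ρ' hρ's hρπ hredO hredker hxV hj

/-- `S18AIVA_chart` for the finite chart `A_0` (`x = j`). -/
theorem S18AIVA_chart0 (hρs : Function.Surjective ρ)
    (S : Setup (OL O K1) (πL O K1 ρ hρ) (jqModC K1) (F1L K1 N) (VL O K1 ρ hρ N)
      (A0L O K1 N) (AinfL O K1 N)) :
    ∃ (Vel : LaurentSeries K1) (P₀ : Polynomial (Polynomial (OL O K1))),
      Vel ∈ A0L O K1 N ∧ P₀.Monic ∧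
      eval₂ (eval₂RingHom (OL O K1).subtype (jqModC K1)) Vel P₀ = 0 ∧
      (∀ y ∈ F1L K1 N, ∃ (n : Polynomial (Polynomial (OL O K1))) (d : Polynomial (OL O K1)),
        d ≠ 0 ∧ eval₂ (OL O K1).subtype (jqModC K1) d * y
          = eval₂ (eval₂RingHom (OL O K1).subtype (jqModC K1)) Vel n) ∧
      (∀ (κ : Type) [Field κ] (f : Polynomial (OL O K1) →+* κ),
        (∀ p, f p = 0 ↔ C (⟨πL O K1 ρ hρ, S.π_mem⟩ : OL O K1) ∣ p) → (P₀.map f).Separable) ∧
      (∀ Q : Polynomial (Polynomial (OL O K1)),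
        eval₂ (eval₂RingHom (OL O K1).subtype (jqModC K1)) Vel Q = 0 → P₀ ∣ Q) :=
  S18AIVA_chart ρ hρ N hρs S (jqModC K1) (Or.inl rfl) (A0L O K1 N) S.chart0

/-- `S18AIVA_chart` for the chart at infinity `A_∞` (`x = j⁻¹`). -/
theorem S18AIVA_chartInf (hρs : Function.Surjective ρ)
    (S : Setup (OL O K1) (πL O K1 ρ hρ) (jqModC K1) (F1L K1 N) (VL O K1 ρ hρ N)
      (A0L O K1 N) (AinfL O K1 N)) :
    ∃ (Vel : LaurentSeries K1) (P₀ : Polynomial (Polynomial (OL O K1))),
      Vel ∈ AinfL O K1 N ∧ P₀.Monic ∧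
      eval₂ (eval₂RingHom (OL O K1).subtype (jqModC K1)⁻¹) Vel P₀ = 0 ∧
      (∀ y ∈ F1L K1 N, ∃ (n : Polynomial (Polynomial (OL O K1))) (d : Polynomial (OL O K1)),
        d ≠ 0 ∧ eval₂ (OL O K1).subtype (jqModC K1)⁻¹ d * y
          = eval₂ (eval₂RingHom (OL O K1).subtype (jqModC K1)⁻¹) Vel n) ∧
      (∀ (κ : Type) [Field κ] (f : Polynomial (OL O K1) →+* κ),
        (∀ p, f p = 0 ↔ C (⟨πL O K1 ρ hρ, S.π_mem⟩ : OL O K1) ∣ p) → (P₀.map f).Separable) ∧
      (∀ Q : Polynomial (Polynomial (OL O K1)),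
        eval₂ (eval₂RingHom (OL O K1).subtype (jqModC K1)⁻¹) Vel Q = 0 → P₀ ∣ Q) :=
  S18AIVA_chart ρ hρ N hρs S (jqModC K1)⁻¹ (Or.inr rfl) (AinfL O K1 N) S.chartInf

end Main

end Fermat.Agent.S18_helper1_AIVA
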