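import Fermat.Agent.S18_helper9_CDefs
import Fermat.Agent.S18_helper17_BDefs

/-!
# S18, block B glue, piece X-B-IGMID (helper18)

`[IG]` at the non-cuspidal points of the chart at infinity, transferred from `[IG]` of the finite
chart: for subrings `O ≤ A0, Ainf` of a field `L` with `j ∈ A0`, `j⁻¹ ∈ Ainf`,
`A0 ⊆ Ainf[j]`, `Ainf ⊆ A0[j⁻¹]`, and a maximal ideal `m ∋ π` of `Ainf` with `j⁻¹ ∉ m` whose
residue field is the image of `O`, the ideal `m0 = m · Ainf[j] ∩ A0` is maximal in `A0` and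
`[IG]` at `m0` implies `[IG]` at `m`.
-/

set_option autoImplicit false

namespace Fermat.Agent.S18_helper18_IGMID

open Fermat.Agent.S18_helper17_BDefs

variable {L : Type} [Field L]

/-- Membership of an element of the ambient field in an ideal of a subring. -/
def InIdeal (A : Subring L) (m : Ideal A) (z : L) : Prop := ∃ h : z ∈ A, (⟨z, h⟩ : A) ∈ m

namespace InIdeal

variable {A : Subring L} {m : Ideal A} {z w : L}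

theorem mem (h : InIdeal A m z) : z ∈ A := h.1

theorem of_mem (z : A) (h : z ∈ m) : InIdeal A m (z : L) := ⟨z.2, h⟩

theorem iff_mem (z : A) : InIdeal A m (z : L) ↔ z ∈ m :=
  ⟨fun h => h.2, fun h => ⟨z.2, h⟩⟩

theorem mk_iff (hz : z ∈ A) : InIdeal A m z ↔ (⟨z, hz⟩ : A) ∈ m :=
  ⟨fun h => h.2, fun h => ⟨hz, h⟩⟩

theorem zero : InIdeal A m 0 := ⟨A.zero_mem, m.zero_mem⟩

theorem add (hz : InIdeal A m z) (hw : InIdeal A m w) : InIdeal A m (z + w) :=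
  ⟨A.add_mem hz.1 hw.1, m.add_mem hz.2 hw.2⟩

theorem neg (hz : InIdeal A m z) : InIdeal A m (-z) :=
  ⟨A.neg_mem hz.1, m.neg_mem hz.2⟩

theorem sub (hz : InIdeal A m z) (hw : InIdeal A m w) : InIdeal A m (z - w) :=
  ⟨A.sub_mem hz.1 hw.1, m.sub_mem hz.2 hw.2⟩

theorem mul_left {c : L} (hc : c ∈ A) (hz : InIdeal A m z) : InIdeal A m (c * z) :=
  ⟨A.mul_mem hc hz.1, m.mul_mem_left ⟨c, hc⟩ hz.2⟩

theorem mul_right {c : L} (hc : c ∈ A) (hz : InIdeal A m z) : InIdeal A m (z * c) :=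
  ⟨A.mul_mem hz.1 hc, m.mul_mem_right ⟨c, hc⟩ hz.2⟩

theorem of_eq {z' : L} (hz : InIdeal A m z) (h : z = z') : InIdeal A m z' := h ▸ hz

theorem prime (hm : m.IsPrime) (hz : z ∈ A) (hw : w ∈ A) (h : InIdeal A m (z * w)) :
    InIdeal A m z ∨ InIdeal A m w := by
  have h1 : (⟨z, hz⟩ : A) * ⟨w, hw⟩ ∈ m := h.2
  rcases hm.mem_or_mem h1 with h2 | h2
  · exact Or.inl ⟨hz, h2⟩
  · exact Or.inr ⟨hw, h2⟩

theorem of_pow (hm : m.IsPrime) (hz : z ∈ A) (n : ℕ) (h : InIdeal A m (z ^ n)) :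
    InIdeal A m z := by
  have h1 : (⟨z, hz⟩ : A) ^ n ∈ m := h.2
  exact ⟨hz, hm.mem_of_pow_mem n h1⟩

end InIdeal

section Transfer

variable (O A0 Ainf : Subring L) (π j : L)

/-- The ideal `m · Ainf[j] ∩ A0` of the finite chart. -/
def idealZero (hjinv : j⁻¹ ∈ Ainf) (hpole0 : ∀ a ∈ A0, ∃ n : ℕ, j⁻¹ ^ n * a ∈ Ainf)
    (m : Ideal Ainf) : Ideal A0 where
  carrier := {a | ∃ n : ℕ, InIdeal Ainf m (j⁻¹ ^ n * (a : L))}
  zero_mem' := ⟨0, by simpa using InIdeal.zero⟩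
  add_mem' := by
    rintro a b ⟨n, hn⟩ ⟨k, hk⟩
    refine ⟨n + k, ?_⟩
    have h1 := (hn.mul_left (Ainf.pow_mem hjinv k)).add (hk.mul_left (Ainf.pow_mem hjinv n))
    refine h1.of_eq ?_
    push_cast
    ring
  smul_mem' := by
    rintro c a ⟨n, hn⟩
    obtain ⟨r, hr⟩ := hpole0 c c.2
    refine ⟨r + n, ?_⟩
    refine (hn.mul_left hr).of_eq ?_
    simp only [smul_eq_mul, Subring.coe_mul]
    ring

variable {O A0 Ainf π j}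

theorem mem_idealZero {hjinv : j⁻¹ ∈ Ainf} {hpole0 : ∀ a ∈ A0, ∃ n : ℕ, j⁻¹ ^ n * a ∈ Ainf}
    {m : Ideal Ainf} {a : A0} :
    a ∈ idealZero A0 Ainf j hjinv hpole0 m ↔ ∃ n : ℕ, InIdeal Ainf m (j⁻¹ ^ n * (a : L)) :=
  Iff.rfl

/-- Independence of the exponent. -/
theorem inIdeal_of_pow_mul {hjinv : j⁻¹ ∈ Ainf} {m : Ideal Ainf} (hm : m.IsPrime)
    (hjm : ¬ InIdeal Ainf m j⁻¹) {a : L} {n k : ℕ} (hn : InIdeal Ainf m (j⁻¹ ^ n * a))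
    (hk : j⁻¹ ^ k * a ∈ Ainf) : InIdeal Ainf m (j⁻¹ ^ k * a) := by
  have h1 : InIdeal Ainf m (j⁻¹ ^ n * (j⁻¹ ^ k * a)) :=
    (hn.mul_left (Ainf.pow_mem hjinv k)).of_eq (by ring)
  rcases InIdeal.prime hm (Ainf.pow_mem hjinv n) hk h1 with h2 | h2
  · exact absurd (InIdeal.of_pow hm hjinv n h2) hjm
  · exact h2

section Core

variable (hj0 : j ≠ 0) (hO0 : O ≤ A0) (hOinf : O ≤ Ainf) (hπO : π ∈ O) (hj : j ∈ A0)
  (hjinv : j⁻¹ ∈ Ainf)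
  (hpole0 : ∀ a ∈ A0, ∃ n : ℕ, j⁻¹ ^ n * a ∈ Ainf)
  (hpoleInf : ∀ z ∈ Ainf, ∃ n : ℕ, j ^ n * z ∈ A0)
  (m : Ideal Ainf) (hm : m.IsMaximal) (hπm : (⟨π, hOinf hπO⟩ : Ainf) ∈ m)
  (hjm : (⟨j⁻¹, hjinv⟩ : Ainf) ∉ m)
  (hres : ∀ z : Ainf, ∃ c : L, ∃ hc : c ∈ O, z - ⟨c, hOinf hc⟩ ∈ m)

include hπm in
theorem pi_mem_idealZero :
    (⟨π, hO0 hπO⟩ : A0) ∈ idealZero A0 Ainf j hjinv hpole0 m :=
  ⟨0, InIdeal.of_eq (z := π) ⟨hOinf hπO, hπm⟩ (by simp)⟩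

include hj0 in
theorem inv_pow_mul_pow (n : ℕ) : j⁻¹ ^ n * j ^ n = 1 := by
  rw [← mul_pow, inv_mul_cancel₀ hj0, one_pow]

include hm hjm hres hO0 in
/-- The ideal `m0` is maximal. -/
theorem idealZero_isMaximal : (idealZero A0 Ainf j hjinv hpole0 m).IsMaximal := by
  classical
  have hmp : m.IsPrime := hm.isPrime
  have hjm' : ¬ InIdeal Ainf m j⁻¹ := fun h => hjm h.2
  have hxn : ∀ n : ℕ, ¬ InIdeal Ainf m (j⁻¹ ^ n) := fun n h =>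
    hjm' (InIdeal.of_pow hmp hjinv n h)
  have hres' : ∀ z ∈ Ainf, ∃ c ∈ O, InIdeal Ainf m (z - c) := by
    intro z hz
    obtain ⟨c, hc, h⟩ := hres ⟨z, hz⟩
    exact ⟨c, hc, ⟨Ainf.sub_mem hz (hOinf hc), h⟩⟩
  have hinv : ∀ z ∈ Ainf, ¬ InIdeal Ainf m z → ∃ e ∈ O, InIdeal Ainf m (z * e - 1) := by
    intro z hz hzm
    have hzm' : (⟨z, hz⟩ : Ainf) ∉ m := fun h => hzm ⟨hz, h⟩
    obtain ⟨w, hw⟩ := Ideal.Quotient.exists_inv (I := m)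
      (a := Ideal.Quotient.mk m ⟨z, hz⟩)
      (by rwa [Ne, Ideal.Quotient.eq_zero_iff_mem])
    obtain ⟨w, rfl⟩ := Ideal.Quotient.mk_surjective w
    rw [← map_mul, ← map_one (Ideal.Quotient.mk m), Ideal.Quotient.eq] at hw
    obtain ⟨e, he, hwe⟩ := hres' (w : L) w.2
    refine ⟨e, he, ?_⟩
    have h1 : InIdeal Ainf m (z * (w : L) - 1) := ⟨_, hw⟩
    have h2 : InIdeal Ainf m (z * ((w : L) - e)) := hwe.mul_left hz
    exact (h1.sub h2).of_eq (by ring)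
  rw [Ideal.isMaximal_iff]
  refine ⟨?_, ?_⟩
  · rintro ⟨n, hn⟩
    apply hxn n
    simpa using hn
  · intro J a hJ ha haJ
    obtain ⟨r, hr⟩ := hpole0 a a.2
    have har : ¬ InIdeal Ainf m (j⁻¹ ^ r * (a : L)) := fun h => ha ⟨r, h⟩
    obtain ⟨e, he, hae⟩ := hinv _ hr har
    obtain ⟨e'', he'', hxe⟩ := hres' j⁻¹ hjinv
    have hbO : e * e'' ^ r ∈ O := O.mul_mem he (O.pow_mem he'' r)
    have hb : e * e'' ^ r ∈ A0 := hO0 hbO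
    have hkey : a * ⟨e * e'' ^ r, hb⟩ - 1 ∈ idealZero A0 Ainf j hjinv hpole0 m := by
      refine ⟨r, ?_⟩
      have h1 : InIdeal Ainf m ((j⁻¹ ^ r * (a : L) * e - 1) * e'' ^ r) :=
        hae.mul_right (Ainf.pow_mem (hOinf he'') r)
      have h2 : InIdeal Ainf m (e'' ^ r - j⁻¹ ^ r) := by
        have h3 : ((⟨e'', hOinf he''⟩ : Ainf) ^ r - (⟨j⁻¹, hjinv⟩ : Ainf) ^ r) ∈ m := by
          have h4 : (⟨e'', hOinf he''⟩ : Ainf) - ⟨j⁻¹, hjinv⟩ ∈ m := by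
            have := hxe.neg
            exact (this.of_eq (by ring : -(j⁻¹ - e'') = e'' - j⁻¹)).2
          exact m.mem_of_dvd (sub_dvd_pow_sub_pow _ _ r) h4
        exact ⟨_, h3⟩
      refine (h1.add h2).of_eq ?_
      push_cast
      ring
    have h1 : (1 : A0) = a * ⟨e * e'' ^ r, hb⟩ - (a * ⟨e * e'' ^ r, hb⟩ - 1) := by ring
    rw [h1]
    exact J.sub_mem (J.mul_mem_right _ haJ) (hJ hkey)

include hj0 hpoleInf in
/-- Transfer of the generation property. -/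
theorem gen_transfer (y0 : A0) (N : ℕ) (hN : InIdeal Ainf m (j⁻¹ ^ N * (y0 : L)))
    (hgen : ∀ x ∈ idealZero A0 Ainf j hjinv hpole0 m, ∃ s,
      s ∉ idealZero A0 Ainf j hjinv hpole0 m ∧
        ∃ a b : A0, s * x = a * (⟨π, hO0 hπO⟩ : A0) + b * y0) :
    ∀ x ∈ m, ∃ s, s ∉ m ∧
      ∃ a b : Ainf, s * x = a * (⟨π, hOinf hπO⟩ : Ainf) + b * ⟨j⁻¹ ^ N * (y0 : L), hN.1⟩ := by
  have hxj := inv_pow_mul_pow hj0
  intro z hz
  obtain ⟨k, hk⟩ := hpoleInf z z.2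
  have hzm0 : (⟨j ^ k * (z : L), hk⟩ : A0) ∈ idealZero A0 Ainf j hjinv hpole0 m := by
    refine ⟨k, ?_⟩
    have : j⁻¹ ^ k * (j ^ k * (z : L)) = z := by
      rw [← mul_assoc, hxj, one_mul]
    rw [this]
    exact InIdeal.of_mem z hz
  obtain ⟨s0, hs0, a0, b0, hrel⟩ := hgen _ hzm0
  obtain ⟨ns, hns⟩ := hpole0 s0 s0.2
  obtain ⟨na, hna⟩ := hpole0 a0 a0.2
  obtain ⟨nb, hnb⟩ := hpole0 b0 b0.2
  have hrelL : (s0 : L) * (j ^ k * (z : L)) = a0 * π + b0 * y0 := by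
    have := congrArg (Subtype.val : A0 → L) hrel
    simpa using this
  have hs : j⁻¹ ^ (ns + na + nb + N) * (s0 : L) ∈ Ainf := by
    have : j⁻¹ ^ (ns + na + nb + N) * (s0 : L) = j⁻¹ ^ (na + nb + N) * (j⁻¹ ^ ns * s0) := by
      ring
    rw [this]
    exact Ainf.mul_mem (Ainf.pow_mem hjinv _) hns
  have ha : j⁻¹ ^ (k + ns + na + nb + N) * (a0 : L) ∈ Ainf := by
    have : j⁻¹ ^ (k + ns + na + nb + N) * (a0 : L) =
        j⁻¹ ^ (k + ns + nb + N) * (j⁻¹ ^ na * a0) := by ring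
    rw [this]
    exact Ainf.mul_mem (Ainf.pow_mem hjinv _) hna
  have hb : j⁻¹ ^ (k + ns + na + nb) * (b0 : L) ∈ Ainf := by
    have : j⁻¹ ^ (k + ns + na + nb) * (b0 : L) = j⁻¹ ^ (k + ns + na) * (j⁻¹ ^ nb * b0) := by
      ring
    rw [this]
    exact Ainf.mul_mem (Ainf.pow_mem hjinv _) hnb
  refine ⟨⟨_, hs⟩, ?_, ⟨_, ha⟩, ⟨_, hb⟩, ?_⟩
  · intro hsm
    exact hs0 ⟨_, ⟨hs, hsm⟩⟩
  · apply Subtype.ext
    simp only [Subring.coe_mul, Subring.coe_add]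
    have h1 : j⁻¹ ^ (ns + na + nb + N) * (s0 : L) * z =
        j⁻¹ ^ (k + ns + na + nb + N) * ((s0 : L) * (j ^ k * z)) := by
      have h2 : j⁻¹ ^ (k + ns + na + nb + N) = j⁻¹ ^ (ns + na + nb + N) * j⁻¹ ^ k := by
        rw [← pow_add]
        congr 1
        ring
      rw [h2]
      calc j⁻¹ ^ (ns + na + nb + N) * (s0 : L) * z
          = j⁻¹ ^ (ns + na + nb + N) * (s0 : L) * z * (j⁻¹ ^ k * j ^ k) := by
            rw [hxj, mul_one]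
        _ = j⁻¹ ^ (ns + na + nb + N) * j⁻¹ ^ k * ((s0 : L) * (j ^ k * z)) := by ring
    rw [h1, hrelL]
    have h3 : j⁻¹ ^ (k + ns + na + nb + N) = j⁻¹ ^ (k + ns + na + nb) * j⁻¹ ^ N := by
      rw [← pow_add]
    rw [h3]
    ring

include hj0 hj hpoleInf hm hjm in
/-- Transfer of the non-nilpotency property. -/
theorem nil_transfer (y0 : A0) (N : ℕ) (hN : InIdeal Ainf m (j⁻¹ ^ N * (y0 : L)))
    (hnil : ∀ (n : ℕ) (s : A0), s ∉ idealZero A0 Ainf j hjinv hpole0 m →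
      ¬ (⟨π, hO0 hπO⟩ : A0) ∣ s * y0 ^ n) :
    ∀ (n : ℕ) (s : Ainf), s ∉ m →
      ¬ (⟨π, hOinf hπO⟩ : Ainf) ∣ s * (⟨j⁻¹ ^ N * (y0 : L), hN.1⟩ : Ainf) ^ n := by
  have hxj := inv_pow_mul_pow hj0
  have hmp : m.IsPrime := hm.isPrime
  have hjm' : ¬ InIdeal Ainf m j⁻¹ := fun h => hjm h.2
  rintro n s hs ⟨c, hc⟩
  obtain ⟨u, hu⟩ := hpoleInf s s.2
  obtain ⟨v, hv⟩ := hpoleInf c c.2
  have hcL : (s : L) * (j⁻¹ ^ N * (y0 : L)) ^ n = π * c := by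
    have := congrArg (Subtype.val : Ainf → L) hc
    simpa using this
  have hs' : j ^ (u + v) * (s : L) ∈ A0 := by
    have : j ^ (u + v) * (s : L) = j ^ v * (j ^ u * s) := by ring
    rw [this]
    exact A0.mul_mem (A0.pow_mem hj v) hu
  have hc' : j ^ (N * n + u + v) * (c : L) ∈ A0 := by
    have : j ^ (N * n + u + v) * (c : L) = j ^ (N * n + u) * (j ^ v * c) := by ring
    rw [this]
    exact A0.mul_mem (A0.pow_mem hj _) hv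
  refine hnil n ⟨_, hs'⟩ ?_ ⟨⟨_, hc'⟩, ?_⟩
  · rintro ⟨n', hn'⟩
    apply hs
    have h1 : j⁻¹ ^ (u + v) * (j ^ (u + v) * (s : L)) = s := by
      rw [← mul_assoc, hxj, one_mul]
    have h2 := inIdeal_of_pow_mul (hjinv := hjinv) hmp hjm' hn'
      (k := u + v) (by rw [h1]; exact s.2)
    rw [h1] at h2
    exact h2.2
  · apply Subtype.ext
    simp only [Subring.coe_mul, Subring.coe_pow]
    have h1 : j ^ (u + v) * (s : L) * (y0 : L) ^ n =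
        j ^ (N * n + u + v) * ((s : L) * (j⁻¹ ^ N * (y0 : L)) ^ n) := by
      have h2 : j ^ (N * n + u + v) = j ^ (u + v) * (j ^ N) ^ n := by
        rw [← pow_mul, ← pow_add]
        congr 1
        ring
      rw [h2, mul_pow]
      calc j ^ (u + v) * (s : L) * (y0 : L) ^ n
          = j ^ (u + v) * (s : L) * (y0 : L) ^ n * (j⁻¹ ^ N * j ^ N) ^ n := by
            rw [hxj, one_pow, mul_one]
        _ = j ^ (u + v) * (j ^ N) ^ n * ((s : L) * ((j⁻¹ ^ N) ^ n * (y0 : L) ^ n)) := by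
            rw [mul_pow]
            ring
    rw [h1, hcL]
    ring

end Core

/-- **Transfer of `[IG]`** (shape of `S18_helper17_BDefs.S18B_IGat`) from the finite chart to the
non-cuspidal points of the chart at infinity. -/
theorem S18IGMID_transfer (hj0 : j ≠ 0)
    (hO0 : O ≤ A0) (hOinf : O ≤ Ainf) (hπO : π ∈ O) (hj : j ∈ A0) (hjinv : j⁻¹ ∈ Ainf)
    (hpole0 : ∀ a ∈ A0, ∃ n : ℕ, j⁻¹ ^ n * a ∈ Ainf)
    (hpoleInf : ∀ z ∈ Ainf, ∃ n : ℕ, j ^ n * z ∈ A0)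
    (hIG0 : ∀ m0 : Ideal A0, m0.IsMaximal → (⟨π, hO0 hπO⟩ : A0) ∈ m0 →
      S18B_IGat (⟨π, hO0 hπO⟩ : A0) m0)
    (m : Ideal Ainf) (hm : m.IsMaximal) (hπm : (⟨π, hOinf hπO⟩ : Ainf) ∈ m)
    (hjm : (⟨j⁻¹, hjinv⟩ : Ainf) ∉ m)
    (hres : ∀ z : Ainf, ∃ c : L, ∃ hc : c ∈ O, z - ⟨c, hOinf hc⟩ ∈ m) :
    S18B_IGat (⟨π, hOinf hπO⟩ : Ainf) m := by
  obtain ⟨y0, ⟨N, hN⟩, hgen, hnil⟩ := hIG0 _
    (idealZero_isMaximal hO0 hOinf hjinv hpole0 m hm hjm hres)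
    (pi_mem_idealZero hO0 hOinf hπO hjinv hpole0 m hπm)
  exact ⟨⟨j⁻¹ ^ N * (y0 : L), hN.1⟩, hN.2,
    gen_transfer hj0 hO0 hOinf hπO hjinv hpole0 hpoleInf m y0 N hN hgen,
    nil_transfer hj0 hO0 hOinf hπO hj hjinv hpole0 hpoleInf m hm hjm y0 N hN hnil⟩

/-- **Transfer of `[IG]`** in the shape of `S18_helper9_CDefs.IG` (no non-nilpotency clause). -/
theorem S18IGMID_transfer_C (hj0 : j ≠ 0)
    (hO0 : O ≤ A0) (hOinf : O ≤ Ainf) (hπO : π ∈ O) (hjinv : j⁻¹ ∈ Ainf)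
    (hpole0 : ∀ a ∈ A0, ∃ n : ℕ, j⁻¹ ^ n * a ∈ Ainf)
    (hpoleInf : ∀ z ∈ Ainf, ∃ n : ℕ, j ^ n * z ∈ A0)
    (hIG0 : Fermat.Agent.S18_helper9_CDefs.IG π A0)
    (m : Ideal Ainf) (hm : m.IsMaximal) (hπm : (⟨π, hOinf hπO⟩ : Ainf) ∈ m)
    (hjm : (⟨j⁻¹, hjinv⟩ : Ainf) ∉ m)
    (hres : ∀ z : Ainf, ∃ c : L, ∃ hc : c ∈ O, z - ⟨c, hOinf hc⟩ ∈ m) :
    ∃ y ∈ m, ∀ x ∈ m, ∃ c : Ainf, c ∉ m ∧
      ∃ a b : Ainf, c * x = a * (⟨π, hOinf hπO⟩ : Ainf) + b * y := by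
  obtain ⟨y0, ⟨N, hN⟩, hgen⟩ := hIG0 (hO0 hπO) _
    (idealZero_isMaximal hO0 hOinf hjinv hpole0 m hm hjm hres)
    (pi_mem_idealZero hO0 hOinf hπO hjinv hpole0 m hπm)
  exact ⟨⟨j⁻¹ ^ N * (y0 : L), hN.1⟩, hN.2,
    gen_transfer hj0 hO0 hOinf hπO hjinv hpole0 hpoleInf m y0 N hN hgen⟩

/-- `[IG]` for the chart at infinity (shape of `S18_helper9_CDefs.IG`) from `[IG]` of the finite
chart and `[IG]` at the cuspidal points (those with `j⁻¹ ∈ m`). -/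
theorem S18IGMID_IG_inf (hj0 : j ≠ 0)
    (hO0 : O ≤ A0) (hOinf : O ≤ Ainf) (hπO : π ∈ O) (hjinv : j⁻¹ ∈ Ainf)
    (hpole0 : ∀ a ∈ A0, ∃ n : ℕ, j⁻¹ ^ n * a ∈ Ainf)
    (hpoleInf : ∀ z ∈ Ainf, ∃ n : ℕ, j ^ n * z ∈ A0)
    (hIG0 : Fermat.Agent.S18_helper9_CDefs.IG π A0)
    (hcusp : ∀ m : Ideal Ainf, m.IsMaximal → (⟨π, hOinf hπO⟩ : Ainf) ∈ m →
      (⟨j⁻¹, hjinv⟩ : Ainf) ∈ m → ∃ y ∈ m, ∀ x ∈ m, ∃ c : Ainf, c ∉ m ∧
        ∃ a b : Ainf, c * x = a * (⟨π, hOinf hπO⟩ : Ainf) + b * y)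
    (hres : ∀ m : Ideal Ainf, m.IsMaximal → (⟨π, hOinf hπO⟩ : Ainf) ∈ m →
      ∀ z : Ainf, ∃ c : L, ∃ hc : c ∈ O, z - ⟨c, hOinf hc⟩ ∈ m) :
    Fermat.Agent.S18_helper9_CDefs.IG π Ainf := by
  intro hπ m hm hπm
  by_cases hjm : (⟨j⁻¹, hjinv⟩ : Ainf) ∈ m
  · exact hcusp m hm hπm hjm
  · exact S18IGMID_transfer_C hj0 hO0 hOinf hπO hjinv hpole0 hpoleInf hIG0 m hm hπm hjm
      (hres m hm hπm)

end Transfer

end Fermat.Agent.S18_helper18_IGMID
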