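import Fermat.Agent.S18_helper9_CDefs
import Fermat.Agent.S18_helper25_P3

/-!
# S18 block C, piece X-C-SAT: `π`-saturation of the integral closures

* `sat_chart`: `y` integral over `O[j, j⁻¹]` and `π y` integral over `O[x]` (`x = j` or `j⁻¹`)
  imply `y` integral over `O[x]`.
* `sat_V`: `y ∈ V[s]` and `π y` integral over `O[j, j⁻¹]` imply `y` integral over `O[j, j⁻¹]`.

Both are instances of helper25's P3 (`g X = π b`, `X`, `b` integral, `π` prime, `π ∤ g`
⟹ `X / π` integral).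
-/

set_option autoImplicit false

open Polynomial

namespace Fermat.Agent.S18_helper20_CSAT

open Fermat.Agent.S18_helper9_CDefs Fermat.Agent.S18_helper25_P3

variable {L : Type*} [Field L]

/-! ### generalities on subrings of `L` -/

/-- clearing denominators: if every element of `R'` is moved into `R` by a power of `s ∈ R`,
then an element integral over `R'` becomes integral over `R` after multiplication by a power
of `s`. -/
theorem CSAT_exists_pow_mul_isIntegral (R R' : Subring L) (s : L) (hs : s ∈ R)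
    (h : ∀ r ∈ R', ∃ n : ℕ, s ^ n * r ∈ R) {y : L} (hy : IsIntegral R' y) :
    ∃ n : ℕ, IsIntegral R (s ^ n * y) := by
  classical
  obtain ⟨p, hmonic, hroot⟩ := hy
  have hcoeff : ∀ i, ∃ n : ℕ, s ^ n * (p.coeff i : L) ∈ R := fun i => h _ (p.coeff i).2
  choose n hn using hcoeff
  set M : ℕ := ∑ i ∈ Finset.range (p.natDegree + 1), n i with hM
  have hnM : ∀ i ≤ p.natDegree, n i ≤ M := fun i hi =>
    Finset.single_le_sum (f := n) (fun _ _ => Nat.zero_le _)
      (Finset.mem_range.mpr (Nat.lt_succ_of_le hi))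
  set q : L[X] := (p.map (algebraMap R' L)).scaleRoots (s ^ M) with hq
  have hqmonic : q.Monic := (Polynomial.monic_scaleRoots_iff _).mpr (hmonic.map _)
  have hqroot : q.eval (s ^ M * y) = 0 := by
    rw [hq, Polynomial.scaleRoots_eval_mul, Polynomial.eval_map, hroot, mul_zero]
  have hqcoeff : ∀ i, q.coeff i ∈ R := by
    intro i
    rw [hq, Polynomial.coeff_scaleRoots, Polynomial.coeff_map, hmonic.natDegree_map]
    by_cases hi : i < p.natDegree
    · have hle : n i ≤ M * (p.natDegree - i) := by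
        calc n i ≤ M := hnM i hi.le
          _ = M * 1 := (mul_one M).symm
          _ ≤ M * (p.natDegree - i) :=
            Nat.mul_le_mul_left M (Nat.one_le_iff_ne_zero.mpr (by omega))
      obtain ⟨k, hk⟩ := Nat.exists_eq_add_of_le hle
      have : (s ^ M) ^ (p.natDegree - i) = s ^ k * s ^ n i := by
        rw [← pow_mul, hk, pow_add, mul_comm]
      rw [this, show (algebraMap R' L) (p.coeff i) = (p.coeff i : L) from rfl,
        show (p.coeff i : L) * (s ^ k * s ^ n i) = s ^ k * (s ^ n i * (p.coeff i : L)) by ring]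
      exact mul_mem (pow_mem hs k) (hn i)
    · rcases (not_lt.mp hi).lt_or_eq with hlt | heq
      · rw [Polynomial.coeff_eq_zero_of_natDegree_lt hlt, map_zero, zero_mul]
        exact zero_mem _
      · rw [← heq, hmonic.coeff_natDegree, map_one, one_mul, Nat.sub_self, pow_zero]
        exact one_mem _
  have hlifts : q ∈ Polynomial.lifts (algebraMap R L) :=
    (Polynomial.lifts_iff_coeff_lifts q).mpr fun i => ⟨⟨q.coeff i, hqcoeff i⟩, rfl⟩
  obtain ⟨q', hq'q, -, hq'monic⟩ := Polynomial.lifts_and_natDegree_eq_and_monic hlifts hqmonic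
  refine ⟨M, q', hq'monic, ?_⟩
  rw [Polynomial.eval₂_eq_eval_map, hq'q, hqroot]

/-- integrality over a smaller subring implies integrality over a bigger one -/
theorem CSAT_isIntegral_mono {R R' : Subring L} (h : R ≤ R') {y : L} (hy : IsIntegral R y) :
    IsIntegral R' y := by
  obtain ⟨p, hp, hpy⟩ := hy
  refine ⟨p.map (Subring.inclusion h), hp.map _, ?_⟩
  rw [eval₂_map]
  exact hpy

theorem CSAT_O_le_adj (O : Subring L) (x : L) : O ≤ adj O x := fun _ ha =>
  Subring.subset_closure (Or.inl ha)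

theorem CSAT_mem_adj (O : Subring L) (x : L) : x ∈ adj O x :=
  Subring.subset_closure (Or.inr rfl)

theorem CSAT_adj_le_adjMid (O : Subring L) (j : L) : adj O j ≤ adjMid O j :=
  Subring.closure_mono (Set.union_subset_union_right _ (by
    intro y hy
    rw [Set.mem_singleton_iff] at hy
    exact Or.inl hy))

theorem CSAT_adj_inv_le_adjMid (O : Subring L) (j : L) : adj O j⁻¹ ≤ adjMid O j :=
  Subring.closure_mono (Set.union_subset_union_right _ (by
    intro y hy
    rw [Set.mem_singleton_iff] at hy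
    exact Or.inr hy))

/-- elements of `O[j, j⁻¹]` are moved into `O[j]` by a power of `j` -/
theorem CSAT_pow_mul_mem_adj (O : Subring L) (j : L) (hj : j ≠ 0) {r : L}
    (hr : r ∈ adjMid O j) : ∃ n : ℕ, j ^ n * r ∈ adj O j := by
  have hjA : j ∈ adj O j := CSAT_mem_adj O j
  induction hr using Subring.closure_induction with
  | mem y hy =>
    rcases hy with hy | hy
    · exact ⟨0, by rw [pow_zero, one_mul]; exact CSAT_O_le_adj O j hy⟩
    · rcases hy with rfl | hy
      · exact ⟨0, by rw [pow_zero, one_mul]; exact hjA⟩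
      · rw [Set.mem_singleton_iff] at hy
        subst hy
        exact ⟨1, by rw [pow_one, mul_inv_cancel₀ hj]; exact one_mem _⟩
  | zero => exact ⟨0, by rw [mul_zero]; exact zero_mem _⟩
  | one => exact ⟨0, by rw [mul_one, pow_zero]; exact one_mem _⟩
  | add y z _ _ hy hz =>
    obtain ⟨m, hm⟩ := hy
    obtain ⟨n, hn⟩ := hz
    refine ⟨m + n, ?_⟩
    have : j ^ (m + n) * (y + z) = j ^ n * (j ^ m * y) + j ^ m * (j ^ n * z) := by ring
    rw [this]
    exact add_mem (mul_mem (pow_mem hjA n) hm) (mul_mem (pow_mem hjA m) hn)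
  | neg y _ hy =>
    obtain ⟨m, hm⟩ := hy
    exact ⟨m, by rw [mul_neg]; exact neg_mem hm⟩
  | mul y z _ _ hy hz =>
    obtain ⟨m, hm⟩ := hy
    obtain ⟨n, hn⟩ := hz
    refine ⟨m + n, ?_⟩
    have : j ^ (m + n) * (y * z) = (j ^ m * y) * (j ^ n * z) := by ring
    rw [this]
    exact mul_mem hm hn

theorem CSAT_adjMid_inv (O : Subring L) (j : L) : adjMid O j⁻¹ = adjMid O j := by
  unfold adjMid
  rw [inv_inv]
  congr 2
  exact Set.pair_comm _ _

/-! ### `O[x]` is a polynomial ring when `x` is transcendental -/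

theorem CSAT_mem_adj_iff (O : Subring L) (x : L) (y : L) :
    y ∈ adj O x ↔ ∃ P : Polynomial O, Polynomial.aeval x P = y := by
  have h1 : adj O x = (Algebra.adjoin O {x}).toSubring := by
    rw [Algebra.adjoin_eq_ring_closure]
    unfold adj
    congr 2
    ext z
    constructor
    · intro hz
      exact ⟨⟨z, hz⟩, rfl⟩
    · rintro ⟨w, rfl⟩
      exact w.2
  rw [h1, Subalgebra.mem_toSubring, Algebra.adjoin_singleton_eq_range_aeval]
  rfl

/-- the ring isomorphism `O[X] ≃ O[x]` for transcendental `x` -/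
noncomputable def CSAT_adjEquiv (O : Subring L) (x : L) (hx : Transcendental O x) :
    Polynomial O ≃+* adj O x :=
  RingEquiv.ofBijective
    ((Polynomial.aeval x : Polynomial O →ₐ[O] L).toRingHom.codRestrict (adj O x)
      (fun P => (CSAT_mem_adj_iff O x _).mpr ⟨P, rfl⟩))
    ⟨fun P Q h => (transcendental_iff_injective.mp hx) (congrArg Subtype.val h),
     fun y => by
      obtain ⟨P, hP⟩ := (CSAT_mem_adj_iff O x y).mp y.2
      exact ⟨P, Subtype.ext hP⟩⟩

theorem CSAT_adjEquiv_apply (O : Subring L) (x : L) (hx : Transcendental O x)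
    (P : Polynomial O) : ((CSAT_adjEquiv O x hx P : adj O x) : L) = Polynomial.aeval x P := rfl

theorem CSAT_isIntegrallyClosed_adj (O : Subring L) [IsDiscreteValuationRing O] (x : L)
    (hx : Transcendental O x) : IsIntegrallyClosed (adj O x) :=
  IsIntegrallyClosed.of_equiv (CSAT_adjEquiv O x hx)

theorem CSAT_prime_adj (O : Subring L) [IsDiscreteValuationRing O] (x : L)
    (hx : Transcendental O x) (π : L) (hπ : π ∈ O) (hirr : Irreducible (⟨π, hπ⟩ : O)) :
    Prime (⟨π, CSAT_O_le_adj O x hπ⟩ : adj O x) := by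
  have h1 : Prime (Polynomial.C (⟨π, hπ⟩ : O)) := Polynomial.prime_C_iff.mpr hirr.prime
  have h2 := (MulEquiv.prime_iff (CSAT_adjEquiv O x hx)).mpr h1
  have h3 : CSAT_adjEquiv O x hx (Polynomial.C (⟨π, hπ⟩ : O)) =
      (⟨π, CSAT_O_le_adj O x hπ⟩ : adj O x) := by
    apply Subtype.ext
    rw [CSAT_adjEquiv_apply, Polynomial.aeval_C]
    rfl
  rwa [h3] at h2

theorem CSAT_transcendental_inv (O : Subring L) (j : L) (hj : Transcendental O j) :
    Transcendental O j⁻¹ := by
  intro h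
  exact hj (by simpa using h.inv)

/-! ### consequences of `Setup` -/

section Setup

variable {O : Subring L} {π j : L} {F1 : Subfield L} {V A0 Ainf : Subring L}

theorem CSAT_O_le_A0 (S : Setup O π j F1 V A0 Ainf) : O ≤ A0 := fun a ha =>
  (S.chart0.mem_iff a).mpr
    ⟨isIntegral_algebraMap (x := (⟨a, CSAT_O_le_adj O j ha⟩ : adj O j)), S.O_le ha⟩

theorem CSAT_O_le_V (S : Setup O π j F1 V A0 Ainf) : O ≤ V :=
  (CSAT_O_le_A0 S).trans S.chart0.le_V

theorem CSAT_j_mem_V (S : Setup O π j F1 V A0 Ainf) : j ∈ V := by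
  have := S.chartInf.x_inv_mem
  rwa [inv_inv] at this

theorem CSAT_j_inv_mem_V (S : Setup O π j F1 V A0 Ainf) : j⁻¹ ∈ V := S.chart0.x_inv_mem

theorem CSAT_adjMid_le_V (S : Setup O π j F1 V A0 Ainf) : adjMid O j ≤ V := by
  refine Subring.closure_le.mpr ?_
  rintro y (hy | hy)
  · exact CSAT_O_le_V S hy
  · rcases hy with rfl | hy
    · exact CSAT_j_mem_V S
    · rw [Set.mem_singleton_iff] at hy
      subst hy
      exact CSAT_j_inv_mem_V S

theorem CSAT_pi_ne_zero (S : Setup O π j F1 V A0 Ainf) : π ≠ 0 := by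
  intro h
  have h1 := (S.π_irr S.π_mem).ne_zero
  exact h1 (Subtype.ext h)

theorem CSAT_j_ne_zero (S : Setup O π j F1 V A0 Ainf) : j ≠ 0 := by
  intro h
  refine S.j_trans ?_
  rw [h]
  exact isAlgebraic_zero

/-- a unit of `V` is not divisible by `π` in `V` -/
theorem CSAT_not_pi_dvd_unit (S : Setup O π j F1 V A0 Ainf) {g a : L} (hg : g⁻¹ ∈ V)
    (ha : a ∈ V) (hg0 : g ≠ 0) : g ≠ π * a := by
  intro h
  refine S.π_nonunit ?_
  have hπ0 := CSAT_pi_ne_zero S
  have : π⁻¹ = a * g⁻¹ := by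
    rw [h]
    have ha0 : a ≠ 0 := by
      rintro rfl
      rw [mul_zero] at h
      exact hg0 h
    field_simp
  rw [this]
  exact V.mul_mem ha hg

/-- **X-C-SAT (a)**: saturation of the integral closure of `O[x]` inside that of `O[j, j⁻¹]`. -/
theorem sat_chart [CharZero L] (S : Setup O π j F1 V A0 Ainf) (x : L) (hx : x = j ∨ x = j⁻¹)
    (E : Subfield L) (hE : F1 ≤ E) (y : L) (hy : y ∈ icl (adjMid O j) E)
    (hπy : π * y ∈ icl (adj O x) E) : y ∈ icl (adj O x) E := by
  haveI := S.dvr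
  have hj0 := CSAT_j_ne_zero S
  have hπ0 := CSAT_pi_ne_zero S
  have hxt : Transcendental O x := by
    rcases hx with rfl | rfl
    · exact S.j_trans
    · exact CSAT_transcendental_inv O j S.j_trans
  have hx0 : x ≠ 0 := by
    rcases hx with rfl | rfl
    · exact hj0
    · exact inv_ne_zero hj0
  have hxV : x ∈ V ∧ x⁻¹ ∈ V := by
    rcases hx with rfl | rfl
    · exact ⟨CSAT_j_mem_V S, CSAT_j_inv_mem_V S⟩
    · exact ⟨CSAT_j_inv_mem_V S, by rw [inv_inv]; exact CSAT_j_mem_V S⟩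
  have hadjV : adj O x ≤ V := by
    refine Subring.closure_le.mpr ?_
    rintro z (hz | hz)
    · exact CSAT_O_le_V S hz
    · rw [Set.mem_singleton_iff] at hz
      subst hz
      exact hxV.1
  -- clearing the denominators
  have hclear : ∀ r ∈ adjMid O j, ∃ n : ℕ, x ^ n * r ∈ adj O x := by
    intro r hr
    rcases hx with rfl | rfl
    · exact CSAT_pow_mul_mem_adj O _ hj0 hr
    · rw [← CSAT_adjMid_inv] at hr
      exact CSAT_pow_mul_mem_adj O _ (inv_ne_zero hj0) hr
  obtain ⟨n, hb⟩ := CSAT_exists_pow_mul_isIntegral (adj O x) (adjMid O j) x (CSAT_mem_adj O x)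
    hclear hy.1
  -- P3
  haveI := CSAT_isIntegrallyClosed_adj O x hxt
  letI := FractionRing.liftAlgebra (adj O x) L
  haveI := FractionRing.isScalarTower_liftAlgebra (adj O x) L
  have hprime := CSAT_prime_adj O x hxt π S.π_mem (S.π_irr S.π_mem)
  have hndvd : ¬ (⟨π, CSAT_O_le_adj O x S.π_mem⟩ : adj O x) ∣
      (⟨x, CSAT_mem_adj O x⟩ : adj O x) ^ n := by
    rintro ⟨a, ha⟩
    have ha' : x ^ n = π * (a : L) := by
      have := congrArg (fun z : adj O x => (z : L)) ha
      simpa using this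
    have hxn : (x ^ n)⁻¹ ∈ V := by
      rw [← inv_pow]
      exact V.pow_mem hxV.2 n
    exact CSAT_not_pi_dvd_unit S hxn (hadjV a.2) (pow_ne_zero n hx0) ha'
  obtain ⟨y', hy', hEq⟩ := S18P3_exists_eq_mul (R := adj O x) (E := L)
    (FractionRing (adj O x)) (⟨π, CSAT_O_le_adj O x S.π_mem⟩ : adj O x)
    ((⟨x, CSAT_mem_adj O x⟩ : adj O x) ^ n) hprime hndvd (π * y) (x ^ n * y) hπy.1 hb
    (by
      show ((⟨x, CSAT_mem_adj O x⟩ : adj O x) ^ n : adj O x).1 * (π * y) = π * (x ^ n * y)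
      rw [SubmonoidClass.coe_pow]
      ring)
  have hyy : y = y' := mul_left_cancel₀ hπ0 hEq
  exact ⟨hyy ▸ hy', hy.2⟩

/-! ### the middle chart `A_mid = icl (adjMid O j) F1` -/

/-- integrality over `icl R₀ E` implies integrality over `R₀` -/
theorem CSAT_isIntegral_of_icl (R₀ : Subring L) (E : Subfield L) {y : L}
    (hy : IsIntegral (icl R₀ E) y) : IsIntegral R₀ y := by
  have hle : icl R₀ E ≤ (integralClosure R₀ L).toSubring := inf_le_left
  have h1 : IsIntegral (integralClosure R₀ L).toSubring y := CSAT_isIntegral_mono hle hy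
  have h2 : y ∈ (integralClosure R₀ L).toSubring :=
    (Subring.isIntegrallyClosedIn_iff (S := (integralClosure R₀ L).toSubring) (A := L)).mp
      inferInstance h1
  exact h2

theorem CSAT_A0_le_Amid (S : Setup O π j F1 V A0 Ainf) : A0 ≤ icl (adjMid O j) F1 := by
  intro a ha
  obtain ⟨h1, h2⟩ := (S.chart0.mem_iff a).mp ha
  exact ⟨CSAT_isIntegral_mono (CSAT_adj_le_adjMid O j) h1, h2⟩

/-- every element of `A_mid` is moved into `A0` by a power of `j` -/
theorem CSAT_pow_mul_mem_A0 (S : Setup O π j F1 V A0 Ainf) {a : L}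
    (ha : a ∈ icl (adjMid O j) F1) : ∃ n : ℕ, j ^ n * a ∈ A0 := by
  obtain ⟨n, hn⟩ := CSAT_exists_pow_mul_isIntegral (adj O j) (adjMid O j) j (CSAT_mem_adj O j)
    (fun r hr => CSAT_pow_mul_mem_adj O j (CSAT_j_ne_zero S) hr) ha.1
  exact ⟨n, (S.chart0.mem_iff _).mpr ⟨hn, F1.mul_mem (F1.pow_mem S.j_mem n) ha.2⟩⟩

theorem CSAT_Amid_le_V (S : Setup O π j F1 V A0 Ainf) : icl (adjMid O j) F1 ≤ V := by
  intro a ha
  obtain ⟨n, hn⟩ := CSAT_pow_mul_mem_A0 S ha
  have h1 : a = (j⁻¹) ^ n * (j ^ n * a) := by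
    have hj0 := CSAT_j_ne_zero S
    rw [← mul_assoc, ← mul_pow, inv_mul_cancel₀ hj0, one_pow, one_mul]
  rw [h1]
  exact V.mul_mem (V.pow_mem (CSAT_j_inv_mem_V S) n) (S.chart0.le_V hn)

/-- `A_mid` is `π`-saturated in `V` -/
theorem CSAT_Amid_sat (S : Setup O π j F1 V A0 Ainf) {v : L} (hv : v ∈ V)
    (hπv : π * v ∈ icl (adjMid O j) F1) : v ∈ icl (adjMid O j) F1 := by
  have hj0 := CSAT_j_ne_zero S
  obtain ⟨n, hn⟩ := CSAT_pow_mul_mem_A0 S hπv
  have h1 : j ^ n * (π * v) = π * (j ^ n * v) := by ring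
  rw [h1] at hn
  have h2 : j ^ n * v ∈ A0 := S.chart0.sat _ (V.mul_mem (V.pow_mem (CSAT_j_mem_V S) n) hv) hn
  have h3 := CSAT_A0_le_Amid S h2
  have hjinv : (j⁻¹) ^ n ∈ icl (adjMid O j) F1 := by
    have hmem : j⁻¹ ∈ adjMid O j := Subring.subset_closure (Or.inr (Or.inr rfl))
    have hmem' : j⁻¹ ∈ icl (adjMid O j) F1 :=
      mem_icl.mpr ⟨isIntegral_algebraMap (x := (⟨j⁻¹, hmem⟩ : adjMid O j)), F1.inv_mem S.j_mem⟩
    exact Subring.pow_mem _ hmem' n
  have h4 : v = (j⁻¹) ^ n * (j ^ n * v) := by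
    rw [← mul_assoc, ← mul_pow, inv_mul_cancel₀ hj0, one_pow, one_mul]
  rw [h4]
  exact Subring.mul_mem _ hjinv h3

theorem CSAT_pi_mem_Amid (S : Setup O π j F1 V A0 Ainf) : π ∈ icl (adjMid O j) F1 :=
  CSAT_A0_le_Amid S (CSAT_O_le_A0 S S.π_mem)

/-- `π` is a prime element of `A_mid` -/
theorem CSAT_prime_Amid (S : Setup O π j F1 V A0 Ainf) :
    Prime (⟨π, CSAT_pi_mem_Amid S⟩ : icl (adjMid O j) F1) := by
  have hπ0 := CSAT_pi_ne_zero S
  refine ⟨fun h => hπ0 (congrArg Subtype.val h), ?_, ?_⟩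
  · -- not a unit
    intro hu
    obtain ⟨u, hu⟩ := hu
    have h1 : π * ((u⁻¹ : (icl (adjMid O j) F1)ˣ) : icl (adjMid O j) F1).1 = 1 := by
      have := congrArg (fun z : icl (adjMid O j) F1 => (z : L)) (Units.mul_inv u)
      rw [hu] at this
      simpa using this
    refine S.π_nonunit ?_
    have h2 : π⁻¹ = ((u⁻¹ : (icl (adjMid O j) F1)ˣ) : icl (adjMid O j) F1).1 :=
      inv_eq_of_mul_eq_one_right h1
    rw [h2]
    exact CSAT_Amid_le_V S (Subtype.property _)
  · -- prime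
    rintro a b ⟨c, hc⟩
    have hc' : (a : L) * b = π * c := by
      have := congrArg (fun z : icl (adjMid O j) F1 => (z : L)) hc
      simpa using this
    have haV := CSAT_Amid_le_V S a.2
    have hbV := CSAT_Amid_le_V S b.2
    have hcV := CSAT_Amid_le_V S c.2
    by_cases ha0 : (a : L) = 0
    · left
      exact ⟨0, by apply Subtype.ext; simp [ha0]⟩
    by_cases hau : (a : L)⁻¹ ∈ V
    · -- `a` is a unit of `V`, so `b ∈ π V`
      right
      have hb : (b : L) = π * ((a : L)⁻¹ * c) := by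
        have : (b : L) = (a : L)⁻¹ * ((a : L) * b) := by
          rw [← mul_assoc, inv_mul_cancel₀ ha0, one_mul]
        rw [this, hc']
        ring
      have hv : (a : L)⁻¹ * c ∈ V := V.mul_mem hau hcV
      have hmem := CSAT_Amid_sat S hv (hb ▸ b.2)
      exact ⟨⟨_, hmem⟩, Subtype.ext hb⟩
    · left
      obtain ⟨v, hv, hav⟩ := S.V_unif a haV hau
      have hmem := CSAT_Amid_sat S hv (hav ▸ a.2)
      exact ⟨⟨v, hmem⟩, Subtype.ext hav⟩

/-- `icl R₀ E` is an integrally closed domain -/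
theorem CSAT_isIntegrallyClosed_icl (R₀ : Subring L) (E : Subfield L) :
    IsIntegrallyClosed (icl R₀ E) := by
  letI := FractionRing.liftAlgebra (icl R₀ E) L
  haveI := FractionRing.isScalarTower_liftAlgebra (icl R₀ E) L
  refine (isIntegrallyClosed_iff (FractionRing (icl R₀ E))).mpr ?_
  intro x hx
  have hinj : Function.Injective (algebraMap (FractionRing (icl R₀ E)) L) :=
    (algebraMap (FractionRing (icl R₀ E)) L).injective
  have h1 : IsIntegral (icl R₀ E) (algebraMap (FractionRing (icl R₀ E)) L x) :=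
    hx.map (IsScalarTower.toAlgHom (icl R₀ E) (FractionRing (icl R₀ E)) L)
  have h2 : IsIntegral R₀ (algebraMap (FractionRing (icl R₀ E)) L x) :=
    CSAT_isIntegral_of_icl R₀ E h1
  have h3 : algebraMap (FractionRing (icl R₀ E)) L x ∈ E := by
    obtain ⟨a, b, hb, rfl⟩ := IsFractionRing.div_surjective (A := icl R₀ E) x
    rw [map_div₀, ← IsScalarTower.algebraMap_apply, ← IsScalarTower.algebraMap_apply]
    exact E.div_mem a.2.2 b.2.2
  refine ⟨⟨_, mem_icl.mpr ⟨h2, h3⟩⟩, hinj ?_⟩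
  rw [← IsScalarTower.algebraMap_apply]
  rfl

theorem CSAT_adjMid_le_Amid (S : Setup O π j F1 V A0 Ainf) :
    adjMid O j ≤ icl (adjMid O j) F1 := by
  intro a ha
  refine mem_icl.mpr ⟨isIntegral_algebraMap (x := (⟨a, ha⟩ : adjMid O j)), ?_⟩
  have hle : adjMid O j ≤ F1.toSubring := by
    refine Subring.closure_le.mpr ?_
    rintro z (hz | hz)
    · exact S.O_le hz
    · rcases hz with rfl | hz
      · exact S.j_mem
      · rw [Set.mem_singleton_iff] at hz
        subst hz
        exact F1.inv_mem S.j_mem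
  exact hle ha

/-- **X-C-SAT (b)**: `y ∈ V[s]` with `π y` integral over `O[j, j⁻¹]` is integral over
`O[j, j⁻¹]`. -/
theorem sat_V [CharZero L] (S : Setup O π j F1 V A0 Ainf) (p : ℕ) (s : L) (hs : s ^ p ∈ V)
    (E : Subfield L) (hE : F1 ≤ E) (y : L) (hy : y ∈ vadj V s p)
    (hπy : π * y ∈ icl (adjMid O j) E) : y ∈ icl (adjMid O j) E := by
  classical
  have hπ0 := CSAT_pi_ne_zero S
  have hyE : y ∈ E := by
    have hπE : π ∈ E := hE (S.O_le S.π_mem)
    have h : y = π⁻¹ * (π * y) := by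
      rw [← mul_assoc, inv_mul_cancel₀ hπ0, one_mul]
    rw [h]
    exact E.mul_mem (E.inv_mem hπE) hπy.2
  refine mem_icl.mpr ⟨?_, hyE⟩
  obtain ⟨c, hc, rfl⟩ := hy
  rcases Nat.eq_zero_or_pos p with hp0 | hppos
  · subst hp0
    simp only [Finset.range_zero, Finset.sum_empty]
    exact isIntegral_zero
  -- the ring `R = A_mid`
  set R : Subring L := icl (adjMid O j) F1 with hR
  haveI : IsIntegrallyClosed R := CSAT_isIntegrallyClosed_icl (adjMid O j) F1
  have hA0R : A0 ≤ R := CSAT_A0_le_Amid S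
  have hRV : R ≤ V := CSAT_Amid_le_V S
  have hintR : ∀ a ∈ R, IsIntegral R a := fun a ha =>
    isIntegral_algebraMap (x := (⟨a, ha⟩ : R))
  -- denominators
  have hloc := S.chart0.loc
  obtain ⟨β, hβA, hβ0, hβinv, hβs⟩ := hloc _ hs
  have hden : ∀ i, ∃ b ∈ A0, b ≠ 0 ∧ b⁻¹ ∈ V ∧ c i * b ∈ A0 := fun i => hloc _ (hc i)
  choose b hbA hb0 hbinv hbc using hden
  -- `t = β s` is integral over `R`
  have htp : (β * s) ^ p ∈ A0 := by
    obtain ⟨m, rfl⟩ : ∃ m, p = m + 1 := ⟨p - 1, by omega⟩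
    have : (β * s) ^ (m + 1) = β ^ m * (s ^ (m + 1) * β) := by ring
    rw [this]
    exact A0.mul_mem (A0.pow_mem hβA m) hβs
  have htint : IsIntegral R (β * s) :=
    IsIntegral.of_pow hppos (hintR _ (hA0R htp))
  -- the common denominator
  set g : L := (∏ i ∈ Finset.range p, b i) * β ^ p with hg
  have hgA : g ∈ A0 := A0.mul_mem (Subring.prod_mem _ fun i _ => hbA i) (A0.pow_mem hβA p)
  have hg0 : g ≠ 0 :=
    mul_ne_zero (Finset.prod_ne_zero_iff.mpr fun i _ => hb0 i) (pow_ne_zero p hβ0)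
  have hginv : g⁻¹ ∈ V := by
    rw [hg, mul_inv, ← Finset.prod_inv_distrib, ← inv_pow]
    exact V.mul_mem (Subring.prod_mem _ fun i _ => hbinv i) (V.pow_mem hβinv p)
  -- `g y` is integral over `R`
  have hterm : ∀ i ∈ Finset.range p, IsIntegral R (g * (c i * s ^ i)) := by
    intro i hi
    have hip : i < p := Finset.mem_range.mp hi
    obtain ⟨k, hk⟩ : ∃ k, p = i + k := ⟨p - i, by omega⟩
    have hprod : b i * ∏ x ∈ (Finset.range p).erase i, b x = ∏ x ∈ Finset.range p, b x :=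
      Finset.mul_prod_erase _ _ hi
    have heq : g * (c i * s ^ i) =
        ((∏ x ∈ (Finset.range p).erase i, b x) * (c i * b i) * β ^ k) * (β * s) ^ i := by
      rw [hg, ← hprod, hk, pow_add, mul_pow]
      ring
    rw [heq]
    have hcoef : (∏ x ∈ (Finset.range p).erase i, b x) * (c i * b i) * β ^ k ∈ A0 :=
      A0.mul_mem (A0.mul_mem (Subring.prod_mem _ fun x _ => hbA x) (hbc i)) (A0.pow_mem hβA k)
    exact (hintR _ (hA0R hcoef)).mul (htint.pow i)
  have hgy : IsIntegral R (g * ∑ i ∈ Finset.range p, c i * s ^ i) := by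
    rw [Finset.mul_sum]
    exact IsIntegral.sum _ hterm
  -- P3
  letI := FractionRing.liftAlgebra R L
  haveI := FractionRing.isScalarTower_liftAlgebra R L
  have hprime : Prime (⟨π, CSAT_pi_mem_Amid S⟩ : R) := CSAT_prime_Amid S
  have hndvd : ¬ (⟨π, CSAT_pi_mem_Amid S⟩ : R) ∣ (⟨g, hA0R hgA⟩ : R) := by
    rintro ⟨a, ha⟩
    have ha' : g = π * (a : L) := by
      have := congrArg (fun z : R => (z : L)) ha
      simpa using this
    exact CSAT_not_pi_dvd_unit S hginv (hRV a.2) hg0 ha'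
  have hπyR : IsIntegral R (π * ∑ i ∈ Finset.range p, c i * s ^ i) :=
    CSAT_isIntegral_mono (CSAT_adjMid_le_Amid S) hπy.1
  obtain ⟨y', hy', hEq⟩ := S18P3_exists_eq_mul (R := R) (E := L)
    (FractionRing R) (⟨π, CSAT_pi_mem_Amid S⟩ : R) (⟨g, hA0R hgA⟩ : R) hprime hndvd
    (π * ∑ i ∈ Finset.range p, c i * s ^ i) (g * ∑ i ∈ Finset.range p, c i * s ^ i) hπyR hgy
    (by
      show g * (π * ∑ i ∈ Finset.range p, c i * s ^ i) =
        π * (g * ∑ i ∈ Finset.range p, c i * s ^ i)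
      ring)
  have hyy : ∑ i ∈ Finset.range p, c i * s ^ i = y' := mul_left_cancel₀ hπ0 hEq
  rw [hyy]
  exact CSAT_isIntegral_of_icl (adjMid O j) F1 hy'


end Setup

end Fermat.Agent.S18_helper20_CSAT
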