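import Mathlib
import Fermat.Agent.S18_helper9_CDefs
import Fermat.Agent.S18_helper9_CBasic
import Fermat.Agent.S18_helper17_BDefs
import Fermat.Agent.S18_helper27_CFIN
import Fermat.Agent.S18_helper27_CNOETH
import Fermat.Agent.S18_helper27_RESALGCL
import Fermat.Agent.S18_helper20_CSAT
import Fermat.Agent.S18_helper1_AIVC
import Fermat.Agent.S18_helper4_T2
import Fermat.Agent.S18_helper18_IGMID

/-!
# S18 block B, piece X-B-PLUG (helper28), layer 1: the typed instantiation of the generic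
theorem `S18B_IG_generic` of block B at the carriers of `CDefs`

`S18PLUG_Generic` is the STATEMENT of the generic theorem of block B (helper17), as a `Prop`.
`S18PLUG_chart`: for a chart `A` of a `Setup` (subrings of one field `L`), the generic theorem,
the (A-iv) data in the shape of `S18AIVC_chart`, a cover and the horizontal input give `[IG]`
(`S18B_IGat`) at a maximal ideal `m ∋ π` of `A`.  The function field enters as an abstract type
`F1t` with an embedding `val : F1t →+* L` whose range is `F1` (so that both `↥F1` and the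
intermediate field `modularFunctionFieldFullC K1 N` can be plugged).
-/

set_option autoImplicit false
set_option linter.unusedSectionVars false
set_option linter.unusedVariables false
set_option linter.style.haveILetI false

namespace Fermat.Agent.S18_helper28_PLUG

open Polynomial Fermat.Agent.S18_helper9_CDefs Fermat.Agent.S18_helper9_CBasic
  Fermat.Agent.S18_helper17_BDefs Fermat.Agent.S18_helper27_CFIN
  Fermat.Agent.S18_helper27_CNOETH Fermat.Agent.S18_helper27_RESALGCL
  Fermat.Agent.S18_helper20_CSAT Fermat.Agent.S18_helper1_AIVC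
  Fermat.Agent.S18_helper4_T2 Fermat.Agent.S18_helper18_IGMID

/-- The STATEMENT of the generic theorem of block B (`S18B_IG_generic`, helper17). -/
def S18PLUG_Generic : Prop :=
  ∀ {O : Type} [CommRing O] [IsDomain O] [IsDiscreteValuationRing O] {F1 : Type} [Field F1]
    [CharZero F1] [Algebra O F1] [FaithfulSMul O F1] {A : Type} [CommRing A] [Algebra O A]
    [Algebra A F1] [IsScalarTower O A F1] [FaithfulSMul A F1]
    [IsDomain A] [IsFractionRing A F1] [IsIntegrallyClosed A] [IsNoetherianRing A]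
    (π : O) (hπ : Irreducible π) [hk : IsAlgClosed (IsLocalRing.ResidueField O)]
    (x : A) (hx : Transcendental O x) (hA' : ∀ a : A, IsIntegral (Algebra.adjoin O {x}) a)
    (V : A) (P₀ : Polynomial O[X]) (hP₀ : P₀.Monic)
    (hP₀V : aeval V (P₀.map (aeval x : O[X] →ₐ[O] A).toRingHom) = 0)
    (hVgen : ∀ y : F1, ∃ (num : Polynomial O[X]) (den : O[X]), den ≠ 0 ∧
      y * algebraMap A F1 (aeval x den) =
        algebraMap A F1 (aeval V (num.map (aeval x : O[X] →ₐ[O] A).toRingHom)))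
    (hsep : ∀ (κ : Type) [Field κ] (f : O[X] →+* κ), (∀ p, f p = 0 ↔ C π ∣ p) →
      (P₀.map f).Separable)
    (An Bd : O[X]) (hcov : S18B_Cover O F1 π (algebraMap A F1 x) An Bd)
    (m : Ideal A) (hm : m.IsMaximal) (hπm : algebraMap O A π ∈ m)
    (hhor : ∀ t₀ : O, (∃ c : O, x - algebraMap O A c ∈ m ∧ π ∣ An.eval t₀ - c * Bd.eval t₀) →
      ¬ π ∣ Bd.eval t₀ → S18B_Hor O F1 π (algebraMap A F1 x) An Bd t₀),
    S18B_IGat (algebraMap O A π) m

variable {L : Type} [Field L]

section Basic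

variable {O : Subring L} {π j : L} {F1 : Subfield L} {V A0 Ainf : Subring L}

/-- the coordinate of a chart lies in the function field -/
theorem S18PLUG_x_mem_F1 (S : Setup O π j F1 V A0 Ainf) (x : L) (hx : x = j ∨ x = j⁻¹) :
    x ∈ F1 := by
  rcases hx with rfl | rfl
  · exact S.j_mem
  · exact F1.inv_mem S.j_mem

/-- the coordinate of a chart is transcendental over `O` -/
theorem S18PLUG_x_transcendental (S : Setup O π j F1 V A0 Ainf) (x : L)
    (hx : x = j ∨ x = j⁻¹) : Transcendental O x := by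
  rcases hx with rfl | rfl
  · exact S.j_trans
  · intro halg
    apply S.j_trans
    have := halg.inv
    rwa [inv_inv] at this

/-- `F1 = Frac A`, elementwise. -/
theorem S18PLUG_frac (S : Setup O π j F1 V A0 Ainf) {x : L} {A : Subring L}
    (hC : Chart O π x F1 V A) (y : L) (hy : y ∈ F1) :
    ∃ a ∈ A, ∃ b ∈ A, b ≠ 0 ∧ y * b = a := by
  by_cases hyV : y ∈ V
  · obtain ⟨b, hbA, hb0, -, hyb⟩ := hC.loc y hyV
    exact ⟨y * b, hyb, b, hbA, hb0, rfl⟩
  · have hinv : y⁻¹ ∈ V := (S.V_val y hy).resolve_left hyV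
    have hy0 : y ≠ 0 := by
      intro h
      apply hyV
      rw [h]
      exact V.zero_mem
    obtain ⟨b, hbA, hb0, -, hyb⟩ := hC.loc y⁻¹ hinv
    refine ⟨b, hbA, y⁻¹ * b, hyb, mul_ne_zero (inv_ne_zero hy0) hb0, ?_⟩
    field_simp

/-- a chart is the integral closure of `O[x]` in `F1` -/
theorem S18PLUG_eq_icl {x : L} {A : Subring L} (hC : Chart O π x F1 V A) :
    A = icl (adj O x) F1 := by
  ext y
  rw [hC.mem_iff y, mem_icl]

/-- a chart is integrally closed -/
theorem S18PLUG_isIntegrallyClosed {x : L} {A : Subring L} (hC : Chart O π x F1 V A) :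
    IsIntegrallyClosed A := by
  rw [S18PLUG_eq_icl hC]
  exact CSAT_isIntegrallyClosed_icl _ _

end Basic


section Chart

variable {O : Subring L} {π j : L} {F1 : Subfield L} {V A0 Ainf : Subring L}

/-- **X-B-PLUG, layer 1.**  The generic theorem of block B, instantiated at a chart of a
`Setup`. -/
theorem S18PLUG_chart (hG : S18PLUG_Generic) [CharZero L]
    (S : Setup O π j F1 V A0 Ainf) (x : L) (hx : x = j ∨ x = j⁻¹) (A : Subring L)
    (hC : Chart O π x F1 V A)
    {k : Type} [Field k] [IsAlgClosed k] (ρ : O →+* k) (hρ : Function.Surjective ρ)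
    (hρπ : ∀ c : O, ρ c = 0 ↔ (⟨π, S.π_mem⟩ : O) ∣ c)
    (hAIV : ∃ (Vel : L) (P₀ : Polynomial (Polynomial O)), Vel ∈ A ∧ P₀.Monic ∧
      eval₂ (eval₂RingHom O.subtype x) Vel P₀ = 0 ∧
      (∀ y ∈ F1, ∃ (n : Polynomial (Polynomial O)) (d : Polynomial O), d ≠ 0 ∧
        eval₂ O.subtype x d * y = eval₂ (eval₂RingHom O.subtype x) Vel n) ∧
      (∀ (κ : Type) [Field κ] (f : Polynomial O →+* κ),
        (∀ p, f p = 0 ↔ C (⟨π, S.π_mem⟩ : O) ∣ p) → (P₀.map f).Separable))
    {F1t : Type} [Field F1t] [Algebra O F1t] (val : F1t →+* L)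
    (hval : ∀ y : L, y ∈ F1 ↔ ∃ z : F1t, val z = y)
    (hvalO : ∀ c : O, val (algebraMap O F1t c) = (c : L))
    (xF : F1t) (hxF : val xF = x)
    (An Bd : Polynomial O) (hcov : S18B_Cover O F1t (⟨π, S.π_mem⟩ : O) xF An Bd)
    (m : Ideal A) (hm : m.IsMaximal) (hπA : π ∈ A) (hπm : (⟨π, hπA⟩ : A) ∈ m)
    (hhor : ∀ t₀ : O, (∃ c : O, (∃ h : x - (c : L) ∈ A, (⟨x - (c : L), h⟩ : A) ∈ m) ∧
        (⟨π, S.π_mem⟩ : O) ∣ An.eval t₀ - c * Bd.eval t₀) →
      ¬ (⟨π, S.π_mem⟩ : O) ∣ Bd.eval t₀ →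
      S18B_Hor O F1t (⟨π, S.π_mem⟩ : O) xF An Bd t₀) :
    S18B_IGat (⟨π, hπA⟩ : A) m := by
  classical
  haveI hdvr : IsDiscreteValuationRing O := S.dvr
  have hxFm : x ∈ F1 := S18PLUG_x_mem_F1 S x hx
  have hxtr : Transcendental O x := S18PLUG_x_transcendental S x hx
  have hOA : O ≤ A := S18AIVC_O_le hC S.O_le
  have hxA : x ∈ A := S18AIVC_x_mem hC hxFm
  have hAF : ∀ a ∈ A, a ∈ F1 := S18AIVC_le_F1 hC
  have hvalinj : Function.Injective val := val.injective
  -- algebra structures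
  letI algOA : Algebra O A := (Subring.inclusion hOA).toAlgebra
  have hAval : ∀ a : A, ∃ z : F1t, val z = (a : L) := fun a => (hval a).mp (hAF a a.2)
  choose ιfun hιfun using hAval
  let ιAF : A →+* F1t :=
    { toFun := ιfun
      map_one' := hvalinj (by rw [hιfun, map_one]; rfl)
      map_mul' := fun a b => hvalinj (by rw [hιfun, map_mul, hιfun, hιfun]; rfl)
      map_zero' := hvalinj (by rw [hιfun, map_zero]; rfl)
      map_add' := fun a b => hvalinj (by rw [hιfun, map_add, hιfun, hιfun]; rfl) }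
  letI algAF : Algebra A F1t := ιAF.toAlgebra
  have hιcoe : ∀ a : A, val (algebraMap A F1t a) = (a : L) := hιfun
  have hOAcoe : ∀ c : O, ((algebraMap O A c : A) : L) = (c : L) := fun c => rfl
  haveI : IsScalarTower O A F1t := IsScalarTower.of_algebraMap_eq (fun c =>
    hvalinj (by rw [hvalO, hιcoe, hOAcoe]))
  haveI : CharZero F1t := RingHom.charZero val
  haveI : FaithfulSMul O F1t := (faithfulSMul_iff_algebraMap_injective O F1t).mpr
    (fun a b h => Subtype.ext (by have := congrArg val h; rwa [hvalO, hvalO] at this))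
  have hAinj : Function.Injective (algebraMap A F1t) := fun a b h =>
    Subtype.ext (by have := congrArg val h; rwa [hιcoe, hιcoe] at this)
  haveI : FaithfulSMul A F1t := (faithfulSMul_iff_algebraMap_injective A F1t).mpr hAinj
  haveI : IsFractionRing A F1t := by
    refine IsFractionRing.of_field (↥A) F1t (fun z => ?_)
    obtain ⟨a, haA, b, hbA, hb0, hab⟩ := S18PLUG_frac S hC (val z) ((hval _).mpr ⟨z, rfl⟩)
    refine ⟨⟨a, haA⟩, ⟨b, hbA⟩, hvalinj ?_⟩
    rw [map_div₀, hιcoe, hιcoe]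
    show val z = a / b
    rw [eq_div_iff hb0, hab]
  haveI : IsIntegrallyClosed A := S18PLUG_isIntegrallyClosed hC
  haveI : IsNoetherianRing A := S18CNOETH_chart_noetherian S x hx A hC
  -- the residue field
  have hπirr : Irreducible (⟨π, S.π_mem⟩ : O) := S.π_irr S.π_mem
  haveI : IsAlgClosed (IsLocalRing.ResidueField O) := by
    refine S18RES_isAlgClosed_of_surjective ρ hρ (fun c => ?_)
    rw [hρπ, hπirr.maximalIdeal_eq, Ideal.mem_span_singleton]
  -- the coordinate
  set x' : A := ⟨x, hxA⟩ with hx'def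
  have hev : ∀ p : Polynomial O, ((aeval x' p : A) : L) = eval₂ O.subtype x p := by
    intro p
    have h1 : A.subtype (eval₂ (algebraMap O A) x' p) = eval₂ (A.subtype.comp (algebraMap O A))
        (A.subtype x') p := Polynomial.hom_eval₂ p (algebraMap O A) A.subtype x'
    exact h1
  have hx'tr : Transcendental O x' := by
    rw [transcendental_iff]
    intro p hp
    have h1 := hev p
    rw [hp] at h1
    have h2 : aeval x p = 0 := h1.symm
    exact (transcendental_iff.mp hxtr) p h2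
  have hcomp : A.subtype.comp (aeval x' : Polynomial O →ₐ[O] A).toRingHom
      = (aeval x : Polynomial O →ₐ[O] L).toRingHom := by
    apply Polynomial.ringHom_ext
    · intro c
      simp only [RingHom.comp_apply, AlgHom.toRingHom_eq_coe, RingHom.coe_coe, aeval_C]
      rfl
    · simp only [RingHom.comp_apply, AlgHom.toRingHom_eq_coe, RingHom.coe_coe, aeval_X]
      rfl
  -- integrality
  have hA' : ∀ a : A, IsIntegral (Algebra.adjoin O {x'}) a := by
    intro a
    have h1 : IsIntegral (adj O x) (a : L) := ((hC.mem_iff a.1).mp a.2).1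
    rw [S18CFIN_isIntegral_iff] at h1
    obtain ⟨p, hpm, hp⟩ := h1
    let φ' : Polynomial O →+* Algebra.adjoin O {x'} :=
      ((aeval x' : Polynomial O →ₐ[O] A).codRestrict (Algebra.adjoin O {x'}) (fun P => by
        rw [Algebra.adjoin_singleton_eq_range_aeval]
        exact ⟨P, rfl⟩)).toRingHom
    have hφ' : (aeval x' : Polynomial O →ₐ[O] A).toRingHom =
        (algebraMap (Algebra.adjoin O {x'}) A).comp φ' := by
      ext <;> rfl
    refine ⟨p.map φ', hpm.map φ', ?_⟩
    rw [Polynomial.eval₂_map, ← hφ']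
    apply Subtype.ext
    have h2 : A.subtype (eval₂ (aeval x' : Polynomial O →ₐ[O] A).toRingHom a p)
        = eval₂ (A.subtype.comp (aeval x' : Polynomial O →ₐ[O] A).toRingHom) (A.subtype a) p :=
      Polynomial.hom_eval₂ p _ A.subtype a
    rw [hcomp] at h2
    exact h2.trans hp
  -- (A-iv)
  obtain ⟨Vel, P₀, hVelA, hmonic, hroot, hgenV, hsep⟩ := hAIV
  set V' : A := ⟨Vel, hVelA⟩ with hV'def
  have hconv : ∀ Q : Polynomial (Polynomial O),
      ((aeval V' (Q.map (aeval x' : Polynomial O →ₐ[O] A).toRingHom) : A) : L)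
        = eval₂ (eval₂RingHom O.subtype x) Vel Q := by
    intro Q
    rw [Polynomial.aeval_def, Polynomial.eval₂_map]
    have h2 : A.subtype (eval₂ ((algebraMap A A).comp
        (aeval x' : Polynomial O →ₐ[O] A).toRingHom) V' Q)
        = eval₂ (A.subtype.comp ((algebraMap A A).comp
            (aeval x' : Polynomial O →ₐ[O] A).toRingHom)) (A.subtype V') Q :=
      Polynomial.hom_eval₂ Q _ A.subtype V'
    have h3 : A.subtype.comp ((algebraMap A A).comp
        (aeval x' : Polynomial O →ₐ[O] A).toRingHom) = eval₂RingHom O.subtype x := by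
      apply Polynomial.ringHom_ext
      · intro c
        simp only [RingHom.comp_apply, AlgHom.toRingHom_eq_coe, RingHom.coe_coe, aeval_C,
          Algebra.algebraMap_self, RingHom.id_apply, coe_eval₂RingHom, eval₂_C]
        rfl
      · simp only [RingHom.comp_apply, AlgHom.toRingHom_eq_coe, RingHom.coe_coe, aeval_X,
          Algebra.algebraMap_self, RingHom.id_apply, coe_eval₂RingHom, eval₂_X]
        rfl
    rw [h3] at h2
    exact h2
  have hroot' : aeval V' (P₀.map (aeval x' : Polynomial O →ₐ[O] A).toRingHom) = 0 := by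
    apply Subtype.ext
    rw [hconv, hroot]
    rfl
  have hVgen' : ∀ y : F1t, ∃ (num : Polynomial (Polynomial O)) (den : Polynomial O), den ≠ 0 ∧
      y * algebraMap A F1t (aeval x' den) =
        algebraMap A F1t (aeval V' (num.map (aeval x' : Polynomial O →ₐ[O] A).toRingHom)) := by
    intro y
    obtain ⟨n, d, hd0, hnd⟩ := hgenV (val y) ((hval _).mpr ⟨y, rfl⟩)
    refine ⟨n, d, hd0, hvalinj ?_⟩
    rw [map_mul, hιcoe, hιcoe, hconv, hev, mul_comm]
    exact hnd
  -- the cover and the horizontal input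
  have hxeq : algebraMap A F1t x' = xF := hvalinj (by rw [hιcoe, hxF])
  have hcov' : S18B_Cover O F1t (⟨π, S.π_mem⟩ : O) (algebraMap A F1t x') An Bd := by
    rw [hxeq]; exact hcov
  have hπm' : algebraMap O A (⟨π, S.π_mem⟩ : O) ∈ m := hπm
  have hhor' : ∀ t₀ : O, (∃ c : O, x' - algebraMap O A c ∈ m ∧
        (⟨π, S.π_mem⟩ : O) ∣ An.eval t₀ - c * Bd.eval t₀) →
      ¬ (⟨π, S.π_mem⟩ : O) ∣ Bd.eval t₀ →
      S18B_Hor O F1t (⟨π, S.π_mem⟩ : O) (algebraMap A F1t x') An Bd t₀ := by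
    intro t₀ hc hBd
    rw [hxeq]
    refine hhor t₀ ?_ hBd
    obtain ⟨c, hcm, hcd⟩ := hc
    exact ⟨c, ⟨(x' - algebraMap O A c).2, hcm⟩, hcd⟩
  exact hG (⟨π, S.π_mem⟩ : O) hπirr x' hx'tr hA' V' P₀ hmonic hroot' hVgen' hsep An Bd hcov'
    m hm hπm' hhor'

end Chart


section Inf

variable {O : Subring L} {π j : L} {F1 : Subfield L} {V A0 Ainf : Subring L}

/-- every element of a chart is congruent to a constant modulo a maximal ideal containing `π`
(the residue field of `O` is algebraically closed). -/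
theorem S18PLUG_hres [CharZero L] (S : Setup O π j F1 V A0 Ainf) (x : L) (hx : x = j ∨ x = j⁻¹)
    (A : Subring L) (hC : Chart O π x F1 V A)
    {k : Type} [Field k] [IsAlgClosed k] (ρ : O →+* k) (hρ : Function.Surjective ρ)
    (hρπ : ∀ c : O, ρ c = 0 ↔ (⟨π, S.π_mem⟩ : O) ∣ c)
    (hOA : O ≤ A) (m : Ideal A) (hm : m.IsMaximal) (hπm : (⟨π, hOA S.π_mem⟩ : A) ∈ m)
    (z : A) : ∃ c : L, ∃ hc : c ∈ O, z - ⟨c, hOA hc⟩ ∈ m := by
  classical
  haveI hdvr : IsDiscreteValuationRing O := S.dvr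
  have hxFm : x ∈ F1 := S18PLUG_x_mem_F1 S x hx
  have hxA : x ∈ A := S18AIVC_x_mem hC hxFm
  letI algOA : Algebra O A := (Subring.inclusion hOA).toAlgebra
  have hπirr : Irreducible (⟨π, S.π_mem⟩ : O) := S.π_irr S.π_mem
  haveI : IsAlgClosed (IsLocalRing.ResidueField O) := by
    refine S18RES_isAlgClosed_of_surjective ρ hρ (fun c => ?_)
    rw [hρπ, hπirr.maximalIdeal_eq, Ideal.mem_span_singleton]
  set x' : A := ⟨x, hxA⟩ with hx'def
  have hcomp : A.subtype.comp (aeval x' : Polynomial O →ₐ[O] A).toRingHom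
      = (aeval x : Polynomial O →ₐ[O] L).toRingHom := by
    apply Polynomial.ringHom_ext
    · intro c
      simp only [RingHom.comp_apply, AlgHom.toRingHom_eq_coe, RingHom.coe_coe, aeval_C]
      rfl
    · simp only [RingHom.comp_apply, AlgHom.toRingHom_eq_coe, RingHom.coe_coe, aeval_X]
      rfl
  have hMF : (aeval x' : Polynomial O →ₐ[O] A).toRingHom.IsIntegral := by
    intro a
    have h1 : IsIntegral (adj O x) (a : L) := ((hC.mem_iff a.1).mp a.2).1
    rw [S18CFIN_isIntegral_iff] at h1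
    obtain ⟨p, hpm, hp⟩ := h1
    refine ⟨p, hpm, Subtype.ext ?_⟩
    have h2 : A.subtype (eval₂ (aeval x' : Polynomial O →ₐ[O] A).toRingHom a p)
        = eval₂ (A.subtype.comp (aeval x' : Polynomial O →ₐ[O] A).toRingHom) (A.subtype a) p :=
      Polynomial.hom_eval₂ p _ A.subtype a
    rw [hcomp] at h2
    exact h2.trans hp
  haveI := hm
  have hQ : ∀ c ∈ IsLocalRing.maximalIdeal O, algebraMap O A c ∈ m := by
    intro c hc
    rw [hπirr.maximalIdeal_eq, Ideal.mem_span_singleton] at hc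
    obtain ⟨d, rfl⟩ := hc
    rw [map_mul]
    exact m.mul_mem_right _ hπm
  obtain ⟨c, hc⟩ := S18T2_exists_sub_mem_of_ringHom
    (aeval x' : Polynomial O →ₐ[O] A).toRingHom (fun c => by simp) hMF m hQ z
  exact ⟨(c : L), c.2, hc⟩

/-- **X-B-PLUG, chart at infinity (abstract form).**  `[IG]` for the chart at infinity from
`[IG]` for the finite chart and `[IG]` at the cuspidal points. -/
theorem S18PLUG_IG_inf [CharZero L] (S : Setup O π j F1 V A0 Ainf)
    {k : Type} [Field k] [IsAlgClosed k] (ρ : O →+* k) (hρ : Function.Surjective ρ)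
    (hρπ : ∀ c : O, ρ c = 0 ↔ (⟨π, S.π_mem⟩ : O) ∣ c)
    (hIG0 : IG π A0)
    (hcusp : ∀ (hπA : π ∈ Ainf) (hjA : j⁻¹ ∈ Ainf) (m : Ideal Ainf), m.IsMaximal →
      (⟨π, hπA⟩ : Ainf) ∈ m → (⟨j⁻¹, hjA⟩ : Ainf) ∈ m → S18B_IGat (⟨π, hπA⟩ : Ainf) m) :
    IG π Ainf := by
  have hj0 : j ≠ 0 := CSAT_j_ne_zero S
  have hO0 : O ≤ A0 := S18AIVC_O_le S.chart0 S.O_le
  have hOinf : O ≤ Ainf := S18AIVC_O_le S.chartInf S.O_le
  have hjinvF : j⁻¹ ∈ F1 := F1.inv_mem S.j_mem
  have hjinv : j⁻¹ ∈ Ainf := S18AIVC_x_mem S.chartInf hjinvF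
  have hpole0 : ∀ a ∈ A0, ∃ n : ℕ, j⁻¹ ^ n * a ∈ Ainf := by
    intro a ha
    obtain ⟨h1, h2⟩ := (S.chart0.mem_iff a).mp ha
    obtain ⟨n, hn⟩ := S18CFIN_pole O j hj0 a h1
    exact ⟨n, (S.chartInf.mem_iff _).mpr ⟨hn, F1.mul_mem (F1.pow_mem hjinvF n) h2⟩⟩
  have hpoleInf : ∀ z ∈ Ainf, ∃ n : ℕ, j ^ n * z ∈ A0 := by
    intro z hz
    obtain ⟨h1, h2⟩ := (S.chartInf.mem_iff z).mp hz
    obtain ⟨n, hn⟩ := S18CFIN_pole O j⁻¹ (inv_ne_zero hj0) z h1
    rw [inv_inv] at hn
    exact ⟨n, (S.chart0.mem_iff _).mpr ⟨hn, F1.mul_mem (F1.pow_mem S.j_mem n) h2⟩⟩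
  refine S18IGMID_IG_inf hj0 hO0 hOinf S.π_mem hjinv hpole0 hpoleInf hIG0 ?_ ?_
  · intro m hm hπm hjm
    obtain ⟨y, hy, hgen, -⟩ := hcusp (hOinf S.π_mem) hjinv m hm hπm hjm
    exact ⟨y, hy, hgen⟩
  · intro m hm hπm z
    exact S18PLUG_hres S j⁻¹ (Or.inr rfl) Ainf S.chartInf ρ hρ hρπ hOinf m hm hπm z

/-- `[IG]` in the shape of `CDefs` from `S18B_IGat` at all maximal ideals containing `π`. -/
theorem S18PLUG_IG_of_IGat {A : Subring L}
    (h : ∀ (hπA : π ∈ A) (m : Ideal A), m.IsMaximal → (⟨π, hπA⟩ : A) ∈ m →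
      S18B_IGat (⟨π, hπA⟩ : A) m) : IG π A := by
  intro hπ m hm hπm
  obtain ⟨y, hy, hgen, -⟩ := h hπ m hm hπm
  exact ⟨y, hy, hgen⟩

end Inf

end Fermat.Agent.S18_helper28_PLUG
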