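import Fermat.Agent.S18_helper29_COVERS

/-!
# S18, piece X-B1 (part 2): roots, faithfulness modulo `π`, and the cusp cover `t^N = 1/j`

Block B consumes, for a domain `E` receiving the base ring `O` and elements `t, j` of `E` satisfying
the cover relation:
* (ii) every root of the cover polynomial is a Moebius image of `t`;
* (iii) for every root `t' ≠ t` there are polynomials `p, q` over `O` with `q(t) (t' - t) = p(t)` and
  `p` has a unit coefficient (so `p` is nonzero modulo every proper ideal of `O`).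
-/

set_option autoImplicit false
set_option linter.unusedSimpArgs false
set_option linter.unusedVariables false

namespace Fermat.Agent.S18_helper29_COVERS

open Polynomial

section MuRoots

variable {D : Type*} [CommRing D] [IsDomain D]

/-- **Roots of the Hesse polynomial, explicit form.** If `t` and `x` lie over the same `j`, then
`x = w^i t` or `(w^k t - 1) x = w^i (w^k t + 2)` for some `i, k < 3`. -/
theorem mu_root_cases_explicit (h3 : (3 : D) ≠ 0) {w : D} (hw : w ^ 2 + w + 1 = 0) (j t x : D)
    (ht : 27 * (t * (t ^ 3 + 8)) ^ 3 = j * (t ^ 3 - 1) ^ 3)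
    (hx : 27 * (x * (x ^ 3 + 8)) ^ 3 = j * (x ^ 3 - 1) ^ 3) :
    (∃ i : ℕ, i < 3 ∧ x = w ^ i * t) ∨
      ∃ i k : ℕ, i < 3 ∧ k < 3 ∧ (w ^ k * t - 1) * x = w ^ i * (w ^ k * t + 2) := by
  rcases mu_root_cases h3 hw j t x ht hx with h | h | h | h
  · left
    rcases cube_eq_cube_cases hw h with h' | h' | h'
    · exact ⟨0, by norm_num, by rw [h']; ring⟩
    · exact ⟨1, by norm_num, by rw [h']; ring⟩
    · exact ⟨2, by norm_num, by rw [h']⟩
  · right
    rcases cube_eq_cube_cases hw h with h' | h' | h'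
    · exact ⟨0, 0, by norm_num, by norm_num, by rw [pow_zero, one_mul, one_mul]; exact h'⟩
    · exact ⟨1, 0, by norm_num, by norm_num, by rw [pow_zero, one_mul, pow_one]; exact h'⟩
    · exact ⟨2, 0, by norm_num, by norm_num, by rw [pow_zero, one_mul]; exact h'⟩
  · right
    rcases cube_eq_cube_cases hw h with h' | h' | h'
    · exact ⟨0, 1, by norm_num, by norm_num, by rw [pow_zero, one_mul, pow_one]; exact h'⟩
    · exact ⟨1, 1, by norm_num, by norm_num, by rw [pow_one]; exact h'⟩
    · exact ⟨2, 1, by norm_num, by norm_num, by rw [pow_one]; exact h'⟩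
  · right
    rcases cube_eq_cube_cases hw h with h' | h' | h'
    · exact ⟨0, 2, by norm_num, by norm_num, by rw [pow_zero, one_mul]; exact h'⟩
    · exact ⟨1, 2, by norm_num, by norm_num, by rw [pow_one]; exact h'⟩
    · exact ⟨2, 2, by norm_num, by norm_num, h'⟩

end MuRoots

section Faithful

variable {O : Type*} [CommRing O] {E : Type*} [CommRing E] [IsDomain E] [Algebra O E]

/-- **Faithfulness certificate, Legendre cover.** For every root `t' ≠ t` of the cover polynomial
there are `p, q ∈ O[X]` with `q(t) ≠ 0`, `q(t) (t' - t) = p(t)` and `p` has a coefficient which is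
a unit (in fact `± 1`). -/
theorem lam_faithful (h2 : (2 : E) ≠ 0) (j t t' : E)
    (ht : 256 * (t ^ 2 - t + 1) ^ 3 = j * (t ^ 2 - t) ^ 2)
    (ht' : 256 * (t' ^ 2 - t' + 1) ^ 3 = j * (t' ^ 2 - t') ^ 2) (hne : t' ≠ t) :
    ∃ p q : O[X], aeval t q ≠ 0 ∧ aeval t q * (t' - t) = aeval t p ∧
      ∃ n : ℕ, IsUnit (p.coeff n) := by
  have hden := lam_den_ne_zero h2 j t ht
  have ht0 : t ≠ 0 := by
    rintro rfl
    exact hden (by ring)
  have ht1 : (1 : E) - t ≠ 0 := by
    intro h
    exact hden (by linear_combination (-t) * h)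
  rcases lam_root_cases h2 j t t' ht ht' with h | h | h | h | h | h
  · exact absurd h hne
  · refine ⟨1 - 2 * X, 1, ?_, ?_, 0, ?_⟩
    · simp
    · simp only [map_one, map_sub, map_mul, aeval_X, map_ofNat]
      rw [h]; ring
    · simp [coeff_one]
  · refine ⟨1 - X ^ 2, X, ?_, ?_, 0, ?_⟩
    · simpa using ht0
    · simp only [map_one, map_sub, map_pow, aeval_X]
      linear_combination h
    · simp [coeff_one, coeff_X_pow]
  · refine ⟨X ^ 2 - X + 1, 1 - X, ?_, ?_, 0, ?_⟩
    · simpa using ht1
    · simp only [map_one, map_sub, map_add, map_pow, aeval_X]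
      linear_combination h
    · simp [coeff_one, coeff_X_pow, coeff_X]
  · refine ⟨-(X ^ 2 - X + 1), X, ?_, ?_, 0, ?_⟩
    · simpa using ht0
    · simp only [map_one, map_sub, map_add, map_pow, map_neg, aeval_X]
      linear_combination h
    · simp [coeff_one, coeff_X_pow, coeff_X]
  · refine ⟨X ^ 2 - 2 * X, 1 - X, ?_, ?_, 2, ?_⟩
    · simpa using ht1
    · simp only [map_one, map_sub, map_mul, map_pow, aeval_X, map_ofNat]
      linear_combination h
    · have : ((X ^ 2 - 2 * X : O[X])).coeff 2 = 1 := by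
        rw [coeff_sub, coeff_X_pow, if_pos rfl]
        have : ((2 : O[X]) * X).coeff 2 = 0 := by
          rw [show (2 : O[X]) = C 2 from (map_ofNat C 2).symm, coeff_C_mul, coeff_X]
          simp
        rw [this, sub_zero]
      rw [this]; exact isUnit_one

/-- A primitive cube root of unity is a unit. -/
theorem cube_root_isUnit {w : O} (hw : w ^ 2 + w + 1 = 0) : IsUnit w :=
  IsUnit.of_mul_eq_one (w ^ 2) (by linear_combination (w - 1) * hw)

/-- If `3` is a unit then `w - 1` is a unit, for a primitive cube root of unity `w`. -/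
theorem cube_root_sub_one_isUnit (h3 : IsUnit (3 : O)) {w : O} (hw : w ^ 2 + w + 1 = 0) :
    IsUnit (w - 1) := by
  have h : IsUnit ((w - 1) ^ 2) := by
    have e : (w - 1) ^ 2 = -(3 * w) := by linear_combination hw
    rw [e]
    exact (h3.mul (cube_root_isUnit hw)).neg
  exact (isUnit_pow_iff (by norm_num)).mp h

/-- If `3` is a unit then `w^2 - 1` is a unit, for a primitive cube root of unity `w`. -/
theorem cube_root_sq_sub_one_isUnit (h3 : IsUnit (3 : O)) {w : O} (hw : w ^ 2 + w + 1 = 0) :
    IsUnit (w ^ 2 - 1) := by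
  have e : w ^ 2 - 1 = (w - 1) * -(w ^ 2) := by linear_combination (w - 1) * hw
  rw [e]
  exact (cube_root_sub_one_isUnit h3 hw).mul ((cube_root_isUnit hw).pow 2).neg

/-- **Faithfulness certificate, Hesse cover.** Here `w ∈ O` is a primitive cube root of unity and
`3` is a unit of `O`. For every root `t' ≠ t` of the cover polynomial there are `p, q ∈ O[X]` with
`q(t) ≠ 0`, `q(t) (t' - t) = p(t)` and `p` has a coefficient which is a unit. -/
theorem mu_faithful (h3 : IsUnit (3 : O)) {w : O} (hw : w ^ 2 + w + 1 = 0) (j t t' : E)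
    (ht : 27 * (t * (t ^ 3 + 8)) ^ 3 = j * (t ^ 3 - 1) ^ 3)
    (ht' : 27 * (t' * (t' ^ 3 + 8)) ^ 3 = j * (t' ^ 3 - 1) ^ 3) (hne : t' ≠ t) :
    ∃ p q : O[X], aeval t q ≠ 0 ∧ aeval t q * (t' - t) = aeval t p ∧
      ∃ n : ℕ, IsUnit (p.coeff n) := by
  have h3E : (3 : E) ≠ 0 := by
    have := h3.map (algebraMap O E)
    rw [map_ofNat] at this
    exact this.ne_zero
  have hwE : (algebraMap O E w) ^ 2 + algebraMap O E w + 1 = 0 := by
    have := congrArg (algebraMap O E) hw
    simpa only [map_add, map_pow, map_one, map_zero] using this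
  have hw3 : (algebraMap O E w) ^ 3 = 1 := cube_root_one hwE
  have hden := mu_den_ne_zero h3E j t ht
  rcases mu_root_cases_explicit h3E hwE j t t' ht ht' with ⟨i, hi, h⟩ | ⟨i, k, hi, hk, h⟩
  · -- `t' = w^i t` with `i = 1, 2`
    have hunit : IsUnit (w ^ i - 1) := by
      interval_cases i
      · exfalso; apply hne; rw [h]; ring
      · simpa using cube_root_sub_one_isUnit h3 hw
      · exact cube_root_sq_sub_one_isUnit h3 hw
    refine ⟨C (w ^ i - 1) * X, 1, ?_, ?_, 1, ?_⟩
    · simp
    · simp only [map_one, map_mul, aeval_C, aeval_X, map_sub, map_pow]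
      rw [h]; ring
    · rw [coeff_C_mul_X, if_pos rfl]
      exact hunit
  · -- `(w^k t - 1) t' = w^i (w^k t + 2)`
    refine ⟨-(C (w ^ k) * X ^ 2) + C (w ^ (i + k) + 1) * X + C (2 * w ^ i), C (w ^ k) * X - 1,
      ?_, ?_, 2, ?_⟩
    · simp only [map_one, map_sub, map_mul, aeval_C, aeval_X, map_pow]
      intro h0
      apply hden
      have e : algebraMap O E w ^ k * t = 1 := by linear_combination h0
      have e3 : (algebraMap O E w ^ k * t) ^ 3 = 1 := by rw [e]; ring
      have e4 : (algebraMap O E w ^ k * t) ^ 3 = t ^ 3 := by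
        calc (algebraMap O E w ^ k * t) ^ 3 = ((algebraMap O E w) ^ 3) ^ k * t ^ 3 := by ring
          _ = t ^ 3 := by rw [hw3, one_pow, one_mul]
      rw [← e4, e3, sub_self]
    · simp only [map_one, map_sub, map_add, map_neg, map_mul, aeval_C, aeval_X, map_pow,
        map_ofNat]
      linear_combination h
    · have hc : (-(C (w ^ k) * X ^ 2) + C (w ^ (i + k) + 1) * X + C (2 * w ^ i) : O[X]).coeff 2
          = -(w ^ k) := by
        rw [coeff_add, coeff_add, coeff_neg, coeff_C_mul_X_pow, coeff_C_mul_X, coeff_C, if_pos rfl,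
          if_neg (by norm_num), if_neg (by norm_num), add_zero, add_zero]
      rw [hc]
      exact ((cube_root_isUnit hw).pow k).neg

end Faithful

section Tau

variable {O : Type*} [CommRing O] {E : Type*} [CommRing E] [Algebra O E]

/-- **Integrality, cusp cover.** If `t^N = x` with `x` in the base ring then `t` is integral. -/
theorem tau_isIntegral {N : ℕ} (hN : 0 < N) (x : O) (t : E) (h : t ^ N = algebraMap O E x) :
    IsIntegral O t := by
  refine ⟨X ^ N - C x, monic_X_pow_sub_C x hN.ne', ?_⟩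
  rw [← aeval_def]
  simp [h]

/-- If `t^N * j = 1` then `t` is integral over any ring containing the inverse `x` of `j`. -/
theorem tau_isIntegral_of_mul_eq_one {N : ℕ} (hN : 0 < N) (x : O) (t j : E)
    (hxj : algebraMap O E x * j = 1) (h : t ^ N * j = 1) : IsIntegral O t := by
  refine tau_isIntegral hN x t ?_
  calc t ^ N = t ^ N * (algebraMap O E x * j) := by rw [hxj, mul_one]
    _ = algebraMap O E x * (t ^ N * j) := by ring
    _ = algebraMap O E x := by rw [h, mul_one]

variable [IsDomain E]

/-- **Roots, cusp cover.** If `z` is a primitive `N`-th root of unity of the domain `E` and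
`t'^N = t^N`, then `t' = z^i t` for some `i < N`. -/
theorem tau_root_cases {N : ℕ} (hN : 0 < N) {z : E} (hz : IsPrimitiveRoot z N) (t t' : E)
    (h : t' ^ N = t ^ N) : ∃ i : ℕ, i < N ∧ t' = z ^ i * t := by
  have : NeZero N := ⟨hN.ne'⟩
  have key := hz.pow_sub_pow_eq_prod_sub_mul t' t hN
  rw [h, sub_self] at key
  obtain ⟨m, hm, hm0⟩ := Finset.prod_eq_zero_iff.mp key.symm
  rw [mem_nthRootsFinset hN] at hm
  obtain ⟨i, hi, rfl⟩ := hz.eq_pow_of_pow_eq_one hm
  exact ⟨i, hi, sub_eq_zero.mp hm0⟩

/-- If `N` is a unit of the domain `O` and `z` is a primitive `N`-th root of unity, then `z^i - 1`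
is a unit for `0 < i < N`. -/
theorem tau_unit {O : Type*} [CommRing O] [IsDomain O] {N : ℕ} (hNu : IsUnit (N : O)) {z : O}
    (hz : IsPrimitiveRoot z N) {i : ℕ} (hi0 : 0 < i) (hiN : i < N) : IsUnit (z ^ i - 1) := by
  obtain ⟨n, rfl⟩ : ∃ n, N = n + 1 := ⟨N - 1, by omega⟩
  have hprod := hz.prod_one_sub_pow_eq_order
  have hu : IsUnit (∏ k ∈ Finset.range n, (1 - z ^ (k + 1))) := by
    rw [hprod]
    simpa using hNu
  have hmem : i - 1 ∈ Finset.range n := Finset.mem_range.mpr (by omega)
  have hdvd : (1 - z ^ (i - 1 + 1)) ∣ ∏ k ∈ Finset.range n, (1 - z ^ (k + 1)) :=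
    Finset.dvd_prod_of_mem _ hmem
  have h1 : IsUnit (1 - z ^ (i - 1 + 1)) := isUnit_of_dvd_unit hdvd hu
  have e : i - 1 + 1 = i := by omega
  rw [e] at h1
  have : z ^ i - 1 = -(1 - z ^ i) := by ring
  rw [this]
  exact h1.neg

/-- The image in a nontrivial `O`-algebra of a primitive `N`-th root of unity of `O` is again
primitive, when `N` is a unit of the domain `O`. -/
theorem tau_primitive_map {O : Type*} [CommRing O] [IsDomain O] {E : Type*} [CommRing E]
    [Nontrivial E] [Algebra O E] {N : ℕ} (hN : 0 < N) (hNu : IsUnit (N : O)) {z : O}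
    (hz : IsPrimitiveRoot z N) : IsPrimitiveRoot (algebraMap O E z) N := by
  refine IsPrimitiveRoot.mk_of_lt _ hN ?_ ?_
  · rw [← map_pow, hz.pow_eq_one, map_one]
  · intro l hl0 hlN h1
    have hu := (tau_unit hNu hz hl0 hlN).map (algebraMap O E)
    rw [map_sub, map_pow, map_one, h1, sub_self] at hu
    exact not_isUnit_zero hu

end Tau

section TauFaithful

variable {O : Type*} [CommRing O] [IsDomain O] {E : Type*} [CommRing E] [IsDomain E] [Algebra O E]

/-- **Roots, cusp cover, roots of unity in the base.** -/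
theorem tau_root_cases_base {N : ℕ} (hN : 0 < N) (hNu : IsUnit (N : O)) {z : O}
    (hz : IsPrimitiveRoot z N) (t t' : E) (h : t' ^ N = t ^ N) :
    ∃ i : ℕ, i < N ∧ t' = algebraMap O E (z ^ i) * t := by
  obtain ⟨i, hi, e⟩ := tau_root_cases hN (tau_primitive_map (E := E) hN hNu hz) t t' h
  exact ⟨i, hi, by rw [map_pow]; exact e⟩

/-- **Faithfulness certificate, cusp cover.** Here `z ∈ O` is a primitive `N`-th root of unity and
`N` is a unit of `O`. For every root `t' ≠ t` of `T^N = t^N` there are `p, q ∈ O[X]` with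
`q(t) ≠ 0`, `q(t) (t' - t) = p(t)` and `p` has a coefficient which is a unit. -/
theorem tau_faithful {N : ℕ} (hN : 0 < N) (hNu : IsUnit (N : O)) {z : O}
    (hz : IsPrimitiveRoot z N) (t t' : E) (h : t' ^ N = t ^ N) (hne : t' ≠ t) :
    ∃ p q : O[X], aeval t q ≠ 0 ∧ aeval t q * (t' - t) = aeval t p ∧
      ∃ n : ℕ, IsUnit (p.coeff n) := by
  obtain ⟨i, hi, e⟩ := tau_root_cases_base hN hNu hz t t' h
  have hi0 : 0 < i := by
    rcases Nat.eq_zero_or_pos i with rfl | h0
    · exfalso; apply hne; rw [e]; simp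
    · exact h0
  refine ⟨C (z ^ i - 1) * X, 1, ?_, ?_, 1, ?_⟩
  · simp
  · simp only [map_one, map_mul, aeval_C, aeval_X, map_sub, map_pow]
    rw [e, map_pow]; ring
  · rw [coeff_C_mul_X, if_pos rfl]
    exact tau_unit hNu hz hi0 hi

end TauFaithful

section Transcendence

variable {O : Type*} [CommRing O] [IsDomain O] {E : Type*} [CommRing E] [IsDomain E] [Algebra O E]

/-- **Transcendence, Legendre cover.** If `j` is transcendental over `O` then so is `t`. -/
theorem lam_transcendental (h2 : (2 : E) ≠ 0) (j t : E)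
    (ht : 256 * (t ^ 2 - t + 1) ^ 3 = j * (t ^ 2 - t) ^ 2) (hj : Transcendental O j) :
    Transcendental O t := by
  intro halg
  apply hj
  have hden := lam_den_ne_zero h2 j t ht
  have hB : IsAlgebraic O ((t ^ 2 - t) ^ 2) := ((halg.pow 2).sub halg).pow 2
  have h256 : IsAlgebraic O (256 : E) := by
    have := isAlgebraic_algebraMap (R := O) (A := E) (256 : O)
    rwa [map_ofNat] at this
  have h1 : IsAlgebraic O (1 : E) := isAlgebraic_one
  have hA : IsAlgebraic O ((t ^ 2 - t) ^ 2 * j) := by
    rw [mul_comm, ← ht]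
    exact h256.mul ((((halg.pow 2).sub halg).add h1).pow 3)
  exact IsAlgebraic.of_mul (mem_nonZeroDivisors_of_ne_zero (pow_ne_zero 2 hden)) hB hA

/-- **Transcendence, Hesse cover.** If `j` is transcendental over `O` then so is `t`. -/
theorem mu_transcendental (h3 : (3 : E) ≠ 0) (j t : E)
    (ht : 27 * (t * (t ^ 3 + 8)) ^ 3 = j * (t ^ 3 - 1) ^ 3) (hj : Transcendental O j) :
    Transcendental O t := by
  intro halg
  apply hj
  have hden := mu_den_ne_zero h3 j t ht
  have h1 : IsAlgebraic O (1 : E) := isAlgebraic_one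
  have hB : IsAlgebraic O ((t ^ 3 - 1) ^ 3) := ((halg.pow 3).sub h1).pow 3
  have h27 : IsAlgebraic O (27 : E) := by
    have := isAlgebraic_algebraMap (R := O) (A := E) (27 : O)
    rwa [map_ofNat] at this
  have h8 : IsAlgebraic O (8 : E) := by
    have := isAlgebraic_algebraMap (R := O) (A := E) (8 : O)
    rwa [map_ofNat] at this
  have hA : IsAlgebraic O ((t ^ 3 - 1) ^ 3 * j) := by
    rw [mul_comm, ← ht]
    exact h27.mul ((halg.mul ((halg.pow 3).add h8)).pow 3)
  exact IsAlgebraic.of_mul (mem_nonZeroDivisors_of_ne_zero (pow_ne_zero 3 hden)) hB hA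

omit [IsDomain E] in
/-- **Transcendence, cusp cover.** If `x = t^N` is transcendental over `O` then so is `t`. -/
theorem tau_transcendental {N : ℕ} (x t : E) (h : t ^ N = x) (hx : Transcendental O x) :
    Transcendental O t := by
  intro halg
  apply hx
  rw [← h]
  exact halg.pow N

/-- **Transcendence, cusp cover, `j`-form.** If `t^N j = 1` and `j` is transcendental over `O`
then so is `t`. -/
theorem tau_transcendental_of_mul_eq_one {N : ℕ} (j t : E) (h : t ^ N * j = 1)
    (hj : Transcendental O j) : Transcendental O t := by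
  intro halg
  apply hj
  have hne : t ^ N ≠ 0 := by
    intro h0
    rw [h0, zero_mul] at h
    exact zero_ne_one h
  have h1 : IsAlgebraic O (t ^ N * j) := by rw [h]; exact isAlgebraic_one
  exact IsAlgebraic.of_mul (mem_nonZeroDivisors_of_ne_zero hne) (halg.pow N) h1

end Transcendence

section TauLocal

variable {L : Type*} [Field L]

/-- **Local factor, cusp cover.** Over a field in which `N ≠ 0`, the polynomial `X^N - t0^N` has a
simple zero at `t0 ≠ 0`. -/
theorem tau_local_factor {N : ℕ} (hN : (N : L) ≠ 0) (t0 : L) (ht0 : t0 ≠ 0) :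
    ∃ U : L[X], X ^ N - C (t0 ^ N) = (X - C t0) ^ 1 * U ∧ U.eval t0 ≠ 0 := by
  have hN0 : N ≠ 0 := by
    rintro rfl
    simp at hN
  have hroot : (X ^ N - C (t0 ^ N) : L[X]).IsRoot t0 := by simp
  obtain ⟨U, hU⟩ := dvd_iff_isRoot.mpr hroot
  refine ⟨U, by rw [pow_one]; exact hU, ?_⟩
  have hd := congrArg derivative hU
  have hd' := congrArg (eval t0) hd
  simp only [derivative_sub, derivative_X_pow, derivative_C, sub_zero, derivative_mul,
    derivative_X, one_mul, eval_add, eval_mul, eval_sub, eval_X, eval_C, sub_self, zero_mul,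
    add_zero, eval_pow, eval_natCast, map_natCast] at hd'
  rw [← hd']
  exact mul_ne_zero hN (pow_ne_zero _ ht0)

end TauLocal

end Fermat.Agent.S18_helper29_COVERS
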