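import Fermat.Agent.S18_helper17_BDefs
import Fermat.Agent.S18_helper29_COVERS2

/-!
# S18, piece X-B1 (part 3): the three covers as instances of `S18B_Cover`

The Legendre cover (`2` invertible), the Hesse cover (`3` invertible, cube roots of unity in the
base) and the cusp cover `t^N = x` (`N` invertible, `N`-th roots of unity in the base) satisfy the
interface `S18B_Cover` of block B.
-/

set_option autoImplicit false
set_option linter.unusedSimpArgs false
set_option linter.unusedVariables false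
set_option linter.unusedSectionVars false

namespace Fermat.Agent.S18_helper29_COVERS

open Polynomial Fermat.Agent.S18_helper17_BDefs

section MapLemmas

variable {R S : Type*} [CommRing R] [CommRing S] (f : R →+* S)

theorem map_lamNum : (lamNum R).map f = lamNum S := by
  simp [lamNum, lamA, Polynomial.map_mul, Polynomial.map_pow, Polynomial.map_sub,
    Polynomial.map_add]

theorem map_lamDen : (lamDen R).map f = lamDen S := by
  simp [lamDen, lamB, Polynomial.map_pow, Polynomial.map_sub]

theorem map_muNum : (muNum R).map f = muNum S := by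
  simp [muNum, muA, Polynomial.map_mul, Polynomial.map_pow, Polynomial.map_add]

theorem map_muDen : (muDen R).map f = muDen S := by
  simp [muDen, muB, Polynomial.map_pow, Polynomial.map_sub]

end MapLemmas

section Degrees

variable {K : Type*} [Field K]

theorem lamP_natDegree (h2 : (2 : K) ≠ 0) (j : K) : (lamP K j).natDegree = 6 := by
  have h256 : (256 : K) ≠ 0 := by
    have : (256 : K) = 2 ^ 8 := by norm_num
    rw [this]; exact pow_ne_zero _ h2
  have hc : (256 : K)⁻¹ * 256 = 1 := inv_mul_cancel₀ h256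
  have h := lamP_scaled_natDegree j (256 : K)⁻¹ hc
  rwa [natDegree_C_mul (inv_ne_zero h256)] at h

theorem muP_natDegree (h3 : (3 : K) ≠ 0) (j : K) : (muP K j).natDegree = 12 := by
  have h27 : (27 : K) ≠ 0 := by
    have : (27 : K) = 3 ^ 3 := by norm_num
    rw [this]; exact pow_ne_zero _ h3
  have hc : (27 : K)⁻¹ * 27 = 1 := inv_mul_cancel₀ h27
  have h := muP_scaled_natDegree j (27 : K)⁻¹ hc
  rwa [natDegree_C_mul (inv_ne_zero h27)] at h

end Degrees

section Nonconst

variable {O : Type*} [CommRing O]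

theorem lam_comb_expand (c d : O) :
    C c * lamNum O - C d * lamDen O = C (256 * c) * X ^ 6 + C (-768 * c) * X ^ 5
      + C (1536 * c - d) * X ^ 4 + C (2 * d - 1792 * c) * X ^ 3 + C (1536 * c - d) * X ^ 2
      + C (-768 * c) * X + C (256 * c) := by
  simp only [lamNum, lamDen, lamA, lamB, map_sub, map_mul, map_neg, map_ofNat]
  ring

theorem mu_comb_expand (c d : O) :
    C c * muNum O - C d * muDen O = C (27 * c) * X ^ 12 + C (648 * c - d) * X ^ 9
      + C (5184 * c + 3 * d) * X ^ 6 + C (13824 * c - 3 * d) * X ^ 3 + C d := by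
  simp only [muNum, muDen, muA, muB, map_sub, map_add, map_mul, map_ofNat]
  ring

theorem lam_comb_coeff_six (c d : O) : (C c * lamNum O - C d * lamDen O).coeff 6 = 256 * c := by
  rw [lam_comb_expand]
  simp only [coeff_add, coeff_C_mul_X_pow, coeff_C_mul_X, coeff_C]
  norm_num

theorem lam_comb_coeff_two (c d : O) :
    (C c * lamNum O - C d * lamDen O).coeff 2 = 1536 * c - d := by
  rw [lam_comb_expand]
  simp only [coeff_add, coeff_C_mul_X_pow, coeff_C_mul_X, coeff_C]
  norm_num

theorem mu_comb_coeff_twelve (c d : O) :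
    (C c * muNum O - C d * muDen O).coeff 12 = 27 * c := by
  rw [mu_comb_expand]
  simp only [coeff_add, coeff_C_mul_X_pow, coeff_C_mul_X, coeff_C]
  norm_num

theorem mu_comb_coeff_zero (c d : O) : (C c * muNum O - C d * muDen O).coeff 0 = d := by
  rw [mu_comb_expand]
  simp only [coeff_add, coeff_C_mul_X_pow, coeff_C_mul_X, coeff_C]
  norm_num

variable [IsDomain O]

theorem lam_nonconst {π : O} (hπ : Prime π) (h2 : ¬ π ∣ 2) (c d : O)
    (h : C π ∣ (C c * lamNum O - C d * lamDen O)) : π ∣ c ∧ π ∣ d := by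
  rw [C_dvd_iff_dvd_coeff] at h
  have h6 := h 6
  have h2' := h 2
  rw [lam_comb_coeff_six] at h6
  rw [lam_comb_coeff_two] at h2'
  have hc : π ∣ c := by
    rcases hπ.dvd_or_dvd h6 with h256 | hc
    · exfalso
      apply h2
      have : (256 : O) = 2 ^ 8 := by norm_num
      rw [this] at h256
      exact hπ.dvd_of_dvd_pow h256
    · exact hc
  refine ⟨hc, ?_⟩
  have : d = 1536 * c - (1536 * c - d) := by ring
  rw [this]
  exact dvd_sub (Dvd.dvd.mul_left hc _) h2'

theorem mu_nonconst {π : O} (hπ : Prime π) (h3 : ¬ π ∣ 3) (c d : O)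
    (h : C π ∣ (C c * muNum O - C d * muDen O)) : π ∣ c ∧ π ∣ d := by
  rw [C_dvd_iff_dvd_coeff] at h
  have h12 := h 12
  have h0 := h 0
  rw [mu_comb_coeff_twelve] at h12
  rw [mu_comb_coeff_zero] at h0
  refine ⟨?_, h0⟩
  rcases hπ.dvd_or_dvd h12 with h27 | hc
  · exfalso
    apply h3
    have : (27 : O) = 3 ^ 3 := by norm_num
    rw [this] at h27
    exact hπ.dvd_of_dvd_pow h27
  · exact hc

theorem tau_nonconst {π : O} {N : ℕ} (hN : 0 < N) (c d : O)
    (h : C π ∣ (C c * X ^ N - C d * 1)) : π ∣ c ∧ π ∣ d := by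
  rw [C_dvd_iff_dvd_coeff] at h
  have hN' := h N
  have h0 := h 0
  rw [mul_one, coeff_sub, coeff_C_mul_X_pow, if_pos rfl, coeff_C, if_neg hN.ne', sub_zero] at hN'
  rw [mul_one, coeff_sub, coeff_C_mul_X_pow, if_neg hN.ne, coeff_C, if_pos rfl, zero_sub] at h0
  exact ⟨hN', (dvd_neg.mp h0)⟩

theorem not_C_dvd_of_isUnit_coeff {π : O} (hπ : Prime π) {p : O[X]}
    (h : ∃ n : ℕ, IsUnit (p.coeff n)) : ¬ C π ∣ p := by
  intro hdvd
  obtain ⟨n, hn⟩ := h
  rw [C_dvd_iff_dvd_coeff] at hdvd
  exact hπ.not_isUnit (isUnit_of_dvd_unit (hdvd n) hn)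

end Nonconst

section Instances

variable {O F1 : Type} [CommRing O] [IsDomain O] [Field F1] [CharZero F1] [Algebra O F1]

/-- the generator `x` of `O[x]` inside `E` -/
noncomputable def adjX (x : F1) (E : Type) [Field E] [Algebra F1 E] [Algebra O E] :
    Algebra.adjoin O {algebraMap F1 E x} :=
  ⟨algebraMap F1 E x, Algebra.subset_adjoin (Set.mem_singleton _)⟩

theorem algebraMap_adjX (x : F1) (E : Type) [Field E] [Algebra F1 E] [Algebra O E] :
    algebraMap (Algebra.adjoin O {algebraMap F1 E x}) E (adjX (O := O) x E) = algebraMap F1 E x :=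
  rfl

theorem ofNat_ne_zero_of_charZero (E : Type) [Field E] [Algebra F1 E] (n : ℕ) [n.AtLeastTwo] :
    (OfNat.ofNat n : E) ≠ 0 := by
  have : CharZero E := charZero_of_injective_algebraMap (algebraMap F1 E).injective
  exact OfNat.ofNat_ne_zero n

/-- **The Legendre cover is an `S18B_Cover`** (residue characteristic `≠ 2`). -/
theorem S18B_cover_lam (π : O) (hπ : Prime π) (h2 : ¬ π ∣ 2) (c : O) (hc : c * 256 = 1)
    (x : F1) : S18B_Cover O F1 π x (lamNum O) (lamDen O) where
  deg_pos := by
    rw [map_lamNum, map_lamDen]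
    have h := lamP_natDegree (K := F1) two_ne_zero x
    rw [lamP] at h
    rw [h]; norm_num
  nonconst := fun c d h => lam_nonconst hπ h2 c d h
  integral_t := by
    intro E _ _ _ _ t ht
    have ht' : 256 * (t ^ 2 - t + 1) ^ 3 = algebraMap F1 E x * (t ^ 2 - t) ^ 2 := by
      simpa [S18B_rel] using ht
    have hcR : algebraMap O (Algebra.adjoin O {algebraMap F1 E x}) c * 256 = 1 := by
      have := congrArg (algebraMap O (Algebra.adjoin O {algebraMap F1 E x})) hc
      simpa [map_mul, map_ofNat] using this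
    exact lam_isIntegral (adjX (O := O) x E) _ hcR t (by rw [algebraMap_adjX]; exact ht')
  den_ne := by
    intro E _ _ _ _ t ht
    have ht' : 256 * (t ^ 2 - t + 1) ^ 3 = algebraMap F1 E x * (t ^ 2 - t) ^ 2 := by
      simpa [S18B_rel] using ht
    have h2E : (2 : E) ≠ 0 := ofNat_ne_zero_of_charZero (F1 := F1) E 2
    rw [aeval_lamDen]
    exact pow_ne_zero 2 (lam_den_ne_zero h2E _ t ht')
  integral_inv := by
    intro E _ _ _ _ t ht
    have ht' : 256 * (t ^ 2 - t + 1) ^ 3 = algebraMap F1 E x * (t ^ 2 - t) ^ 2 := by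
      simpa [S18B_rel] using ht
    have h2E : (2 : E) ≠ 0 := ofNat_ne_zero_of_charZero (F1 := F1) E 2
    have hden := lam_den_ne_zero h2E _ t ht'
    have hcR : algebraMap O (Algebra.adjoin O {algebraMap F1 E x}) c * 256 = 1 := by
      have := congrArg (algebraMap O (Algebra.adjoin O {algebraMap F1 E x})) hc
      simpa [map_mul, map_ofNat] using this
    have hs := lam_isIntegral_inv_den (adjX (O := O) x E) _ hcR t (t ^ 2 - t)⁻¹
      (mul_inv_cancel₀ hden) (by rw [algebraMap_adjX]; exact ht')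
    rw [aeval_lamDen, ← inv_pow]
    exact hs.pow 2
  faith := by
    intro E _ _ _ _ t t' ht ht1 hne
    have ht' : 256 * (t ^ 2 - t + 1) ^ 3 = algebraMap F1 E x * (t ^ 2 - t) ^ 2 := by
      simpa [S18B_rel] using ht
    have ht1' : 256 * (t' ^ 2 - t' + 1) ^ 3 = algebraMap F1 E x * (t' ^ 2 - t') ^ 2 := by
      simpa [S18B_rel] using ht1
    have h2E : (2 : E) ≠ 0 := ofNat_ne_zero_of_charZero (F1 := F1) E 2
    obtain ⟨p, q, hq, hpq, hu⟩ := lam_faithful (O := O) h2E _ t t' ht' ht1' hne
    exact ⟨p, q, hq, hpq, not_C_dvd_of_isUnit_coeff hπ hu⟩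

/-- **The Hesse cover is an `S18B_Cover`** (residue characteristic `≠ 3`, cube roots of unity in
the base). -/
theorem S18B_cover_mu (π : O) (hπ : Prime π) (h3 : ¬ π ∣ 3) (c : O) (hc : c * 27 = 1)
    (w : O) (hw : w ^ 2 + w + 1 = 0) (x : F1) : S18B_Cover O F1 π x (muNum O) (muDen O) where
  deg_pos := by
    rw [map_muNum, map_muDen]
    have h := muP_natDegree (K := F1) three_ne_zero x
    rw [muP] at h
    rw [h]; norm_num
  nonconst := fun c d h => mu_nonconst hπ h3 c d h
  integral_t := by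
    intro E _ _ _ _ t ht
    have ht' : 27 * (t * (t ^ 3 + 8)) ^ 3 = algebraMap F1 E x * (t ^ 3 - 1) ^ 3 := by
      simpa [S18B_rel] using ht
    have hcR : algebraMap O (Algebra.adjoin O {algebraMap F1 E x}) c * 27 = 1 := by
      have := congrArg (algebraMap O (Algebra.adjoin O {algebraMap F1 E x})) hc
      simpa [map_mul, map_ofNat] using this
    exact mu_isIntegral (adjX (O := O) x E) _ hcR t (by rw [algebraMap_adjX]; exact ht')
  den_ne := by
    intro E _ _ _ _ t ht
    have ht' : 27 * (t * (t ^ 3 + 8)) ^ 3 = algebraMap F1 E x * (t ^ 3 - 1) ^ 3 := by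
      simpa [S18B_rel] using ht
    have h3E : (3 : E) ≠ 0 := ofNat_ne_zero_of_charZero (F1 := F1) E 3
    rw [aeval_muDen]
    exact pow_ne_zero 3 (mu_den_ne_zero h3E _ t ht')
  integral_inv := by
    intro E _ _ _ _ t ht
    have ht' : 27 * (t * (t ^ 3 + 8)) ^ 3 = algebraMap F1 E x * (t ^ 3 - 1) ^ 3 := by
      simpa [S18B_rel] using ht
    have h3E : (3 : E) ≠ 0 := ofNat_ne_zero_of_charZero (F1 := F1) E 3
    have hden := mu_den_ne_zero h3E _ t ht'
    have hcR : algebraMap O (Algebra.adjoin O {algebraMap F1 E x}) c * 27 = 1 := by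
      have := congrArg (algebraMap O (Algebra.adjoin O {algebraMap F1 E x})) hc
      simpa [map_mul, map_ofNat] using this
    have hs := mu_isIntegral_inv_den (adjX (O := O) x E) _ hcR t (t ^ 3 - 1)⁻¹
      (mul_inv_cancel₀ hden) (by rw [algebraMap_adjX]; exact ht')
    rw [aeval_muDen, ← inv_pow]
    exact hs.pow 3
  faith := by
    intro E _ _ _ _ t t' ht ht1 hne
    have ht' : 27 * (t * (t ^ 3 + 8)) ^ 3 = algebraMap F1 E x * (t ^ 3 - 1) ^ 3 := by
      simpa [S18B_rel] using ht
    have ht1' : 27 * (t' * (t' ^ 3 + 8)) ^ 3 = algebraMap F1 E x * (t' ^ 3 - 1) ^ 3 := by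
      simpa [S18B_rel] using ht1
    have h3u : IsUnit (3 : O) := IsUnit.of_mul_eq_one (9 * c) (by linear_combination hc)
    obtain ⟨p, q, hq, hpq, hu⟩ := mu_faithful (O := O) h3u hw _ t t' ht' ht1' hne
    exact ⟨p, q, hq, hpq, not_C_dvd_of_isUnit_coeff hπ hu⟩

/-- **The cusp cover `t^N = x` is an `S18B_Cover`** (`N` invertible, `N`-th roots of unity in the
base). -/
theorem S18B_cover_tau (π : O) (hπ : Prime π) (N : ℕ) (hN : 0 < N) (hNu : IsUnit (N : O))
    (z : O) (hz : IsPrimitiveRoot z N) (x : F1) : S18B_Cover O F1 π x (X ^ N) 1 where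
  deg_pos := by
    rw [Polynomial.map_pow, Polynomial.map_X, Polynomial.map_one, mul_one,
      natDegree_X_pow_sub_C]
    exact hN
  nonconst := fun c d h => tau_nonconst hN c d h
  integral_t := by
    intro E _ _ _ _ t ht
    have ht' : t ^ N = algebraMap F1 E x := by
      simpa [S18B_rel] using ht
    exact tau_isIntegral hN (adjX (O := O) x E) t (by rw [algebraMap_adjX]; exact ht')
  den_ne := by
    intro E _ _ _ _ t ht
    simp
  integral_inv := by
    intro E _ _ _ _ t ht
    simpa using (isIntegral_one : IsIntegral (Algebra.adjoin O {algebraMap F1 E x}) (1 : E))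
  faith := by
    intro E _ _ _ _ t t' ht ht1 hne
    have ht' : t ^ N = algebraMap F1 E x := by
      simpa [S18B_rel] using ht
    have ht1' : t' ^ N = algebraMap F1 E x := by
      simpa [S18B_rel] using ht1
    obtain ⟨p, q, hq, hpq, hu⟩ := tau_faithful (O := O) hN hNu hz t t' (by rw [ht', ht1']) hne
    exact ⟨p, q, hq, hpq, not_C_dvd_of_isUnit_coeff hπ hu⟩

end Instances

end Fermat.Agent.S18_helper29_COVERS
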