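import Mathlib
import Fermat.Agent.S18_helper28_PLUG
import Fermat.Agent.S18_helper14_ADefs
import Fermat.Agent.S18_helper14_ASETUP
import Fermat.Agent.S18_helper16_HORC
import Fermat.Agent.S18_helper29_COVERINST
import Fermat.Agent.S18_helper1_AIVA
import Fermat.Agent.S18_helper17_IG

/-!
# S18 block B, piece X-B-PLUG (helper28), layer 2: `[IG]` for the two charts of `X₀(N)`

For the carriers of `S18_helper14_ADefs` (abstract base `O ⊆ K1`, residue map `ρ : O → k` onto an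
algebraically closed field): the generic theorem of block B (`S18B_IG_generic`, helper17), the
(A-iv) data (`S18AIVA_chart`, helper1), the three covers (`S18B_cover_lam/mu/tau`, helper29) and
the horizontal input (`S18HOR_lam/mu/tau`, helper16/helper10/helper26) give

* `S18PLUG_IG0   : IG π A₀`   (Legendre cover if `2` is a unit, Hesse cover if `3` is a unit),
* `S18PLUG_IGinf : IG π A_∞`  (cusp cover at the points with `1/j ∈ m`, chart `0` elsewhere).
-/

set_option autoImplicit false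
set_option linter.unusedSectionVars false
set_option linter.unusedVariables false
set_option linter.style.haveILetI false

open Polynomial IntermediateField ModularCurve
open Fermat.Agent.S20 Fermat.Agent.S24
open Fermat.Agent.S18_helper9_CDefs Fermat.Agent.S18_helper17_BDefs
open Fermat.Agent.S18_helper29_COVERS Fermat.Agent.S18_helper26_CONST
open Fermat.Agent.S18_helper16_HORC Fermat.Agent.S18A Fermat.Agent.S18_helper13_GAUSS
open Fermat.Agent.S18_helper28_PLUG Fermat.Agent.S18_helper1_AIVA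

noncomputable section

namespace Fermat.Agent.S18_helper28_PLUGC

/-- the generic theorem of block B, in the packaged form of layer 1 -/
theorem S18PLUG_generic : S18PLUG_Generic := @Fermat.Agent.S18_helper17_IG.S18B_IG_generic

variable {O K1 : Type} [CommRing O] [IsDomain O] [IsDiscreteValuationRing O] [Field K1]
  [CharZero K1] [Algebra O K1] [IsFractionRing O K1]

section Base

/-- the algebra structure `OL → K1` (inverse of `a ↦ C a`) -/
@[reducible] def S18PLUG_algOLK : Algebra (OL O K1) K1 := (OLtoK (O := O) (K1 := K1)).toAlgebra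

theorem S18PLUG_isFractionRing :
    @IsFractionRing (OL O K1) _ K1 _ (S18PLUG_algOLK (O := O) (K1 := K1)) := by
  letI := S18PLUG_algOLK (O := O) (K1 := K1)
  haveI : FaithfulSMul (OL O K1) K1 :=
    (faithfulSMul_iff_algebraMap_injective _ _).mpr (OLtoK_injective (O := O) (K1 := K1))
  refine IsFractionRing.of_field _ _ (fun z => ?_)
  obtain ⟨a, b, hb, rfl⟩ := IsFractionRing.div_surjective (A := O) z
  refine ⟨equivOL O K1 a, equivOL O K1 b, ?_⟩
  show _ = OLtoK (equivOL O K1 a) / OLtoK (equivOL O K1 b)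
  simp [OLtoK]

variable (N : ℕ)

/-- the algebra structure `OL → F1` (through `K1`) -/
@[reducible] def S18PLUG_algOLF : Algebra (OL O K1) (modularFunctionFieldFullC K1 N) :=
  ((algebraMap K1 (modularFunctionFieldFullC K1 N)).comp (OLtoK (O := O) (K1 := K1))).toAlgebra

theorem S18PLUG_val_algOLF (c : OL O K1) :
    (((algebraMap K1 (modularFunctionFieldFullC K1 N)) (OLtoK (O := O) (K1 := K1) c) :
      modularFunctionFieldFullC K1 N) : LaurentSeries K1) = (c : LaurentSeries K1) := by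
  rw [← C_OLtoK c, ← algebraMap_eq_C]
  rfl

end Base


section Main

variable {k : Type} [Field k] [IsAlgClosed k] (ρ : O →+* k)
  (hρ : ∀ x : O, ρ x = 0 ↔ x ∈ IsLocalRing.maximalIdeal O) (N : ℕ) [NeZero N]

/-- the residue map on `OL` -/
def S18PLUG_rho : OL O K1 →+* k := ρ.comp ((equivOL O K1).symm : OL O K1 →+* O)

theorem S18PLUG_rho_surjective (hρs : Function.Surjective ρ) :
    Function.Surjective (S18PLUG_rho (K1 := K1) ρ) :=
  hρs.comp (equivOL O K1).symm.surjective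

theorem S18PLUG_pi_eq (hπ : πL O K1 ρ hρ ∈ OL O K1) :
    (⟨πL O K1 ρ hρ, hπ⟩ : OL O K1) = equivOL O K1 (gd O K1 ρ hρ).π := Subtype.ext rfl

theorem S18PLUG_rho_eq_zero_iff (hπ : πL O K1 ρ hρ ∈ OL O K1) (c : OL O K1) :
    S18PLUG_rho (K1 := K1) ρ c = 0 ↔ (⟨πL O K1 ρ hρ, hπ⟩ : OL O K1) ∣ c := by
  have hirr : Irreducible (gd O K1 ρ hρ).π := gd_π_irreducible ρ hρ
  obtain ⟨a, rfl⟩ := (equivOL O K1).surjective c
  rw [S18PLUG_pi_eq ρ hρ hπ]
  show ρ ((equivOL O K1).symm (equivOL O K1 a)) = 0 ↔ _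
  rw [RingEquiv.symm_apply_apply, hρ, hirr.maximalIdeal_eq, Ideal.mem_span_singleton]
  constructor
  · rintro ⟨d, rfl⟩
    exact ⟨equivOL O K1 d, map_mul _ _ _⟩
  · rintro ⟨d, hd⟩
    obtain ⟨d', rfl⟩ := (equivOL O K1).surjective d
    rw [← map_mul] at hd
    exact ⟨d', (equivOL O K1).injective hd⟩

/-- units of `O` give units of `OL` -/
theorem S18PLUG_isUnit_natCast {n : ℕ} (h : IsUnit ((n : ℕ) : O)) :
    IsUnit ((n : ℕ) : OL O K1) := by
  have := h.map (equivOL O K1)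
  rwa [map_natCast] at this

/-- **`[IG]` at the finite chart, at one maximal ideal** (Legendre or Hesse cover). -/
theorem S18PLUG_IGat0 (hρs : Function.Surjective ρ) (emb : K1 →+* Kbar)
    (S : Setup (OL O K1) (πL O K1 ρ hρ) (jqModC K1) (F1L K1 N) (VL O K1 ρ hρ N)
      (A0L O K1 N) (AinfL O K1 N))
    (hcase : IsUnit ((2 : ℕ) : O) ∨ (IsUnit ((3 : ℕ) : O) ∧ ∃ w : O, w ^ 2 + w + 1 = 0))
    (hπA : πL O K1 ρ hρ ∈ A0L O K1 N) (m : Ideal (A0L O K1 N)) (hm : m.IsMaximal)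
    (hπm : (⟨πL O K1 ρ hρ, hπA⟩ : A0L O K1 N) ∈ m) :
    S18B_IGat (⟨πL O K1 ρ hρ, hπA⟩ : A0L O K1 N) m := by
  classical
  haveI hcz : CharZero (LaurentSeries K1) :=
    charZero_of_injective_ringHom (HahnSeries.C_injective (Γ := ℤ) (R := K1))
  haveI hdvr : IsDiscreteValuationRing (OL O K1) := S.dvr
  letI algOLK : Algebra (OL O K1) K1 := S18PLUG_algOLK
  haveI : IsFractionRing (OL O K1) K1 := S18PLUG_isFractionRing
  letI algOLF : Algebra (OL O K1) (modularFunctionFieldFullC K1 N) := S18PLUG_algOLF N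
  haveI : IsScalarTower (OL O K1) K1 (modularFunctionFieldFullC K1 N) :=
    IsScalarTower.of_algebraMap_eq (fun _ => rfl)
  haveI : CharZero (modularFunctionFieldFullC K1 N) :=
    charZero_of_injective_algebraMap (algebraMap K1 (modularFunctionFieldFullC K1 N)).injective
  have hπirr : Irreducible (⟨πL O K1 ρ hρ, S.π_mem⟩ : OL O K1) := S.π_irr S.π_mem
  have hπprime : Prime (⟨πL O K1 ρ hρ, S.π_mem⟩ : OL O K1) := by
    haveI : UniqueFactorizationMonoid (OL O K1) :=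
      PrincipalIdealRing.to_uniqueFactorizationMonoid
    exact UniqueFactorizationMonoid.irreducible_iff_prime.mp hπirr
  obtain ⟨Vel, P₀, hVel, hmonic, hroot, hgenV, hsep, -⟩ := S18AIVA_chart0 ρ hρ N hρs S
  have hval : ∀ y : LaurentSeries K1, y ∈ F1L K1 N ↔
      ∃ z : modularFunctionFieldFullC K1 N,
        algebraMap (modularFunctionFieldFullC K1 N) (LaurentSeries K1) z = y :=
    fun y => ⟨fun h => ⟨⟨y, h⟩, rfl⟩, fun ⟨z, hz⟩ => hz ▸ z.2⟩
  have hvalO : ∀ c : OL O K1, algebraMap (modularFunctionFieldFullC K1 N) (LaurentSeries K1)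
      (algebraMap (OL O K1) (modularFunctionFieldFullC K1 N) c) = (c : LaurentSeries K1) :=
    fun c => S18PLUG_val_algOLF N c
  rcases hcase with h2 | ⟨h3, w, hw⟩
  · -- the Legendre cover
    have h2' : IsUnit ((2 : ℕ) : OL O K1) := S18PLUG_isUnit_natCast h2
    have h256 : IsUnit (256 : OL O K1) := by
      have : (256 : OL O K1) = ((2 : ℕ) : OL O K1) ^ 8 := by push_cast; norm_num
      rw [this]
      exact h2'.pow 8
    obtain ⟨u, hu⟩ := h256
    have hnd : ¬ (⟨πL O K1 ρ hρ, S.π_mem⟩ : OL O K1) ∣ 2 := fun h =>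
      hπirr.not_isUnit (isUnit_of_dvd_unit h (by simpa using h2'))
    have hcov := S18B_cover_lam (F1 := modularFunctionFieldFullC K1 N)
      (⟨πL O K1 ρ hρ, S.π_mem⟩ : OL O K1) hπprime hnd (↑u⁻¹ : OL O K1)
      (by rw [← hu]; exact u.inv_mul) (S18P15_jbar K1 N)
    exact S18PLUG_chart S18PLUG_generic S (jqModC K1) (Or.inl rfl) (A0L O K1 N) S.chart0
      (S18PLUG_rho (K1 := K1) ρ) (S18PLUG_rho_surjective ρ hρs)
      (S18PLUG_rho_eq_zero_iff ρ hρ S.π_mem) ⟨Vel, P₀, hVel, hmonic, hroot, hgenV, hsep⟩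
      (algebraMap (modularFunctionFieldFullC K1 N) (LaurentSeries K1)) hval hvalO
      (S18P15_jbar K1 N) rfl (lamNum (OL O K1)) (lamDen (OL O K1)) hcov m hm hπA hπm
      (fun t₀ _ hBd => S18HOR_lam N emb _ hπirr t₀ hBd)
  · -- the Hesse cover
    have h3' : IsUnit ((3 : ℕ) : OL O K1) := S18PLUG_isUnit_natCast h3
    have h27 : IsUnit (27 : OL O K1) := by
      have : (27 : OL O K1) = ((3 : ℕ) : OL O K1) ^ 3 := by push_cast; norm_num
      rw [this]
      exact h3'.pow 3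
    obtain ⟨u, hu⟩ := h27
    have hnd : ¬ (⟨πL O K1 ρ hρ, S.π_mem⟩ : OL O K1) ∣ 3 := fun h =>
      hπirr.not_isUnit (isUnit_of_dvd_unit h (by simpa using h3'))
    have hw' : (equivOL O K1 w) ^ 2 + equivOL O K1 w + 1 = 0 := by
      rw [← map_pow, ← map_add, ← map_one (equivOL O K1), ← map_add, hw, map_zero]
    have hcov := S18B_cover_mu (F1 := modularFunctionFieldFullC K1 N)
      (⟨πL O K1 ρ hρ, S.π_mem⟩ : OL O K1) hπprime hnd (↑u⁻¹ : OL O K1)
      (by rw [← hu]; exact u.inv_mul) (equivOL O K1 w) hw' (S18P15_jbar K1 N)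
    exact S18PLUG_chart S18PLUG_generic S (jqModC K1) (Or.inl rfl) (A0L O K1 N) S.chart0
      (S18PLUG_rho (K1 := K1) ρ) (S18PLUG_rho_surjective ρ hρs)
      (S18PLUG_rho_eq_zero_iff ρ hρ S.π_mem) ⟨Vel, P₀, hVel, hmonic, hroot, hgenV, hsep⟩
      (algebraMap (modularFunctionFieldFullC K1 N) (LaurentSeries K1)) hval hvalO
      (S18P15_jbar K1 N) rfl (muNum (OL O K1)) (muDen (OL O K1)) hcov m hm hπA hπm
      (fun t₀ _ hBd => S18HOR_mu N emb _ hπirr t₀ hBd)

/-- **`[IG]` at the chart at infinity, at a cuspidal maximal ideal** (cusp cover). -/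
theorem S18PLUG_IGatCusp (hρs : Function.Surjective ρ) (emb : K1 →+* Kbar)
    (S : Setup (OL O K1) (πL O K1 ρ hρ) (jqModC K1) (F1L K1 N) (VL O K1 ρ hρ N)
      (A0L O K1 N) (AinfL O K1 N))
    (hNu : IsUnit ((N : ℕ) : O)) (hz : ∃ z : O, IsPrimitiveRoot z N)
    (hπA : πL O K1 ρ hρ ∈ AinfL O K1 N) (hjA : (jqModC K1)⁻¹ ∈ AinfL O K1 N)
    (m : Ideal (AinfL O K1 N)) (hm : m.IsMaximal)
    (hπm : (⟨πL O K1 ρ hρ, hπA⟩ : AinfL O K1 N) ∈ m)
    (hjm : (⟨(jqModC K1)⁻¹, hjA⟩ : AinfL O K1 N) ∈ m) :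
    S18B_IGat (⟨πL O K1 ρ hρ, hπA⟩ : AinfL O K1 N) m := by
  classical
  haveI hcz : CharZero (LaurentSeries K1) :=
    charZero_of_injective_ringHom (HahnSeries.C_injective (Γ := ℤ) (R := K1))
  haveI hdvr : IsDiscreteValuationRing (OL O K1) := S.dvr
  letI algOLK : Algebra (OL O K1) K1 := S18PLUG_algOLK
  haveI : IsFractionRing (OL O K1) K1 := S18PLUG_isFractionRing
  letI algOLF : Algebra (OL O K1) (modularFunctionFieldFullC K1 N) := S18PLUG_algOLF N
  haveI : IsScalarTower (OL O K1) K1 (modularFunctionFieldFullC K1 N) :=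
    IsScalarTower.of_algebraMap_eq (fun _ => rfl)
  haveI : CharZero (modularFunctionFieldFullC K1 N) :=
    charZero_of_injective_algebraMap (algebraMap K1 (modularFunctionFieldFullC K1 N)).injective
  have hπirr : Irreducible (⟨πL O K1 ρ hρ, S.π_mem⟩ : OL O K1) := S.π_irr S.π_mem
  have hπprime : Prime (⟨πL O K1 ρ hρ, S.π_mem⟩ : OL O K1) := by
    haveI : UniqueFactorizationMonoid (OL O K1) :=
      PrincipalIdealRing.to_uniqueFactorizationMonoid
    exact UniqueFactorizationMonoid.irreducible_iff_prime.mp hπirr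
  obtain ⟨Vel, P₀, hVel, hmonic, hroot, hgenV, hsep, -⟩ := S18AIVA_chartInf ρ hρ N hρs S
  have hval : ∀ y : LaurentSeries K1, y ∈ F1L K1 N ↔
      ∃ z : modularFunctionFieldFullC K1 N,
        algebraMap (modularFunctionFieldFullC K1 N) (LaurentSeries K1) z = y :=
    fun y => ⟨fun h => ⟨⟨y, h⟩, rfl⟩, fun ⟨z, hz⟩ => hz ▸ z.2⟩
  have hvalO : ∀ c : OL O K1, algebraMap (modularFunctionFieldFullC K1 N) (LaurentSeries K1)
      (algebraMap (OL O K1) (modularFunctionFieldFullC K1 N) c) = (c : LaurentSeries K1) :=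
    fun c => S18PLUG_val_algOLF N c
  have hxF : algebraMap (modularFunctionFieldFullC K1 N) (LaurentSeries K1)
      (S18P15_jbar K1 N)⁻¹ = (jqModC K1)⁻¹ := by
    rw [map_inv₀]
    rfl
  obtain ⟨z, hz⟩ := hz
  have hz' : IsPrimitiveRoot (equivOL O K1 z) N :=
    hz.map_of_injective (equivOL O K1).injective
  have hNu' : IsUnit ((N : ℕ) : OL O K1) := S18PLUG_isUnit_natCast hNu
  have hcov := S18B_cover_tau (F1 := modularFunctionFieldFullC K1 N)
    (⟨πL O K1 ρ hρ, S.π_mem⟩ : OL O K1) hπprime N (Nat.pos_of_ne_zero (NeZero.ne N)) hNu'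
    (equivOL O K1 z) hz' (S18P15_jbar K1 N)⁻¹
  have hOA : OL O K1 ≤ AinfL O K1 N :=
    Fermat.Agent.S18_helper1_AIVC.S18AIVC_O_le S.chartInf S.O_le
  refine S18PLUG_chart S18PLUG_generic S (jqModC K1)⁻¹ (Or.inr rfl) (AinfL O K1 N) S.chartInf
    (S18PLUG_rho (K1 := K1) ρ) (S18PLUG_rho_surjective ρ hρs)
    (S18PLUG_rho_eq_zero_iff ρ hρ S.π_mem) ⟨Vel, P₀, hVel, hmonic, hroot, hgenV, hsep⟩
    (algebraMap (modularFunctionFieldFullC K1 N) (LaurentSeries K1)) hval hvalO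
    (S18P15_jbar K1 N)⁻¹ hxF (X ^ N) 1 hcov m hm hπA hπm ?_
  rintro t₀ ⟨c, ⟨hxc, hxcm⟩, hdvd⟩ -
  refine S18HOR_tau N emb _ hπirr t₀ ?_
  -- `c ∈ m`
  have hcm : (⟨(c : LaurentSeries K1), hOA c.2⟩ : AinfL O K1 N) ∈ m := by
    have h1 := m.sub_mem hjm hxcm
    have h2 : (⟨(jqModC K1)⁻¹, hjA⟩ : AinfL O K1 N) - ⟨(jqModC K1)⁻¹ - (c : LaurentSeries K1), hxc⟩
        = ⟨(c : LaurentSeries K1), hOA c.2⟩ := by
      apply Subtype.ext
      show (jqModC K1)⁻¹ - ((jqModC K1)⁻¹ - (c : LaurentSeries K1)) = c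
      ring
    rwa [h2] at h1
  -- hence `π ∣ c`
  have hπc : (⟨πL O K1 ρ hρ, S.π_mem⟩ : OL O K1) ∣ c := by
    by_contra hnd
    have hcu : IsUnit c := by
      by_contra hnu
      have : c ∈ IsLocalRing.maximalIdeal (OL O K1) := hnu
      rw [hπirr.maximalIdeal_eq, Ideal.mem_span_singleton] at this
      exact hnd this
    have hcu' : IsUnit (⟨(c : LaurentSeries K1), hOA c.2⟩ : AinfL O K1 N) :=
      hcu.map (Subring.inclusion hOA)
    exact hm.ne_top (Ideal.eq_top_of_isUnit_mem m hcm hcu')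
  rw [eval_pow, eval_X, eval_one, mul_one] at hdvd
  have h3 : (⟨πL O K1 ρ hρ, S.π_mem⟩ : OL O K1) ∣ t₀ ^ N := by
    have := dvd_add hdvd hπc
    rwa [sub_add_cancel] at this
  exact hπprime.dvd_of_dvd_pow h3

/-- **X-B-PLUG, finite chart**: `[IG]` for `A₀`. -/
theorem S18PLUG_IG0 (hρs : Function.Surjective ρ) (emb : K1 →+* Kbar)
    (S : Setup (OL O K1) (πL O K1 ρ hρ) (jqModC K1) (F1L K1 N) (VL O K1 ρ hρ N)
      (A0L O K1 N) (AinfL O K1 N))
    (hcase : IsUnit ((2 : ℕ) : O) ∨ (IsUnit ((3 : ℕ) : O) ∧ ∃ w : O, w ^ 2 + w + 1 = 0)) :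
    IG (πL O K1 ρ hρ) (A0L O K1 N) :=
  S18PLUG_IG_of_IGat (fun hπA m hm hπm => S18PLUG_IGat0 ρ hρ N hρs emb S hcase hπA m hm hπm)

/-- **X-B-PLUG, chart at infinity**: `[IG]` for `A_∞`. -/
theorem S18PLUG_IGinf (hρs : Function.Surjective ρ) (emb : K1 →+* Kbar)
    (S : Setup (OL O K1) (πL O K1 ρ hρ) (jqModC K1) (F1L K1 N) (VL O K1 ρ hρ N)
      (A0L O K1 N) (AinfL O K1 N))
    (hcase : IsUnit ((2 : ℕ) : O) ∨ (IsUnit ((3 : ℕ) : O) ∧ ∃ w : O, w ^ 2 + w + 1 = 0))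
    (hNu : IsUnit ((N : ℕ) : O)) (hz : ∃ z : O, IsPrimitiveRoot z N) :
    IG (πL O K1 ρ hρ) (AinfL O K1 N) := by
  haveI hcz : CharZero (LaurentSeries K1) :=
    charZero_of_injective_ringHom (HahnSeries.C_injective (Γ := ℤ) (R := K1))
  exact S18PLUG_IG_inf S (S18PLUG_rho (K1 := K1) ρ) (S18PLUG_rho_surjective ρ hρs)
    (S18PLUG_rho_eq_zero_iff ρ hρ S.π_mem) (S18PLUG_IG0 ρ hρ N hρs emb S hcase)
    (fun hπA hjA m hm hπm hjm =>
      S18PLUG_IGatCusp ρ hρ N hρs emb S hNu hz hπA hjA m hm hπm hjm)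

/-- **X-B-PLUG = block B**: `[IG]` for both charts. -/
theorem S18PLUG_blockB (hρs : Function.Surjective ρ) (emb : K1 →+* Kbar)
    (S : Setup (OL O K1) (πL O K1 ρ hρ) (jqModC K1) (F1L K1 N) (VL O K1 ρ hρ N)
      (A0L O K1 N) (AinfL O K1 N))
    (hcase : IsUnit ((2 : ℕ) : O) ∨ (IsUnit ((3 : ℕ) : O) ∧ ∃ w : O, w ^ 2 + w + 1 = 0))
    (hNu : IsUnit ((N : ℕ) : O)) (hz : ∃ z : O, IsPrimitiveRoot z N) :
    IG (πL O K1 ρ hρ) (A0L O K1 N) ∧ IG (πL O K1 ρ hρ) (AinfL O K1 N) :=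
  ⟨S18PLUG_IG0 ρ hρ N hρs emb S hcase, S18PLUG_IGinf ρ hρ N hρs emb S hcase hNu hz⟩

end Main

end Fermat.Agent.S18_helper28_PLUGC
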