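import Fermat.Agent.S18_helper25_FINAL
import Fermat.Agent.S18_helper12_BRIDGE
import Fermat.Agent.S18_helper12_ROOTS
import Fermat.Agent.S18_helper28_PLUGC

/-!
# S18: block B for the concrete carriers of the final assembly

`S18TOP_blockB`: for every admissible `K1` the two charts `A_0`, `A_∞` of `X₀(N)` over
`O1 = A ∩ K1` satisfy `[IG]`; this is the plug of block B (`S18PLUG_blockB`, abstract base)
instantiated at `O := A ∩ K1`, `k :=` the residue field of `A`, `ρ := S18K_res A K1`.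
-/

set_option autoImplicit false
set_option linter.style.haveILetI false

open ModularCurve
open Fermat.Agent.S18_helper13_GAUSS Fermat.Agent.S18_helper9_CDefs
open Fermat.Agent.S18_helper25_COREDefs Fermat.Agent.S18A

namespace Fermat.Agent.S18_helper12_TOP

/-- **block B at the concrete base.** -/
theorem S18TOP_blockB (N : ℕ) [NeZero N] {ℓ : ℕ} [Fact ℓ.Prime] (hℓN : ¬ ℓ ∣ N)
    (A : ValuationSubring (AlgebraicClosure ℚ)) (hA : A.LiesOverPrime ℓ) :
    Fermat.Agent.S18_helper25_FINAL.S18K_BlockB A N ℓ := by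
  intro K1 h
  letI := h.dvr
  have hℓ : ℓ.Prime := Fact.out
  haveI : IsAlgClosed (IsLocalRing.ResidueField A) :=
    Fermat.Agent.S18_helper27_RESALGCL.S18RES_isAlgClosed_residueField_Qbar A
  haveI : CharP (IsLocalRing.ResidueField A) ℓ :=
    Fermat.Agent.S18_helper12_BRIDGE.S18BR_charP A hℓ hA
  haveI : Algebra.IsAlgebraic ℚ K1 := Fermat.Agent.S18_helper12_BRIDGE.S18BR_isAlgebraic K1
  have hcase : IsUnit ((2 : ℕ) : S18K_O1 A K1) ∨
      (IsUnit ((3 : ℕ) : S18K_O1 A K1) ∧ ∃ w : S18K_O1 A K1, w ^ 2 + w + 1 = 0) := by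
    by_cases h2 : ℓ = 2
    · right
      have hℓ3 : ℓ ≠ 3 := by rw [h2]; norm_num
      have h3 : ¬ ℓ ∣ 3 := by rw [h2]; norm_num
      exact ⟨Fermat.Agent.S18_helper12_ROOTS.S18RT_isUnit_natCast A K1 hℓ hA h3,
        Fermat.Agent.S18_helper12_ROOTS.S18RT_exists_cubeRoot A K1 hℓ h hℓ3⟩
    · left
      have h2' : ¬ ℓ ∣ 2 := fun hdvd =>
        h2 ((Nat.prime_dvd_prime_iff_eq hℓ Nat.prime_two).mp hdvd)
      exact Fermat.Agent.S18_helper12_ROOTS.S18RT_isUnit_natCast A K1 hℓ hA h2'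
  obtain ⟨h0, hinf⟩ := Fermat.Agent.S18_helper28_PLUGC.S18PLUG_blockB
    (S18K_res A K1) (S18K_res_eq_zero_iff A K1) N h.res_surj
    (algebraMap K1 (AlgebraicClosure ℚ))
    (Fermat.Agent.S18A.setup N ℓ (S18K_res A K1) (S18K_res_eq_zero_iff A K1) hℓN) hcase
    (Fermat.Agent.S18_helper12_ROOTS.S18RT_isUnit_natCast A K1 hℓ hA hℓN)
    (Fermat.Agent.S18_helper12_ROOTS.S18RT_exists_primitiveRoot A K1 h (NeZero.ne N) hℓN)
  exact ⟨Fermat.Agent.S18_helper12_BRIDGE.S18BR_IG0 A K1 N h0,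
    Fermat.Agent.S18_helper12_BRIDGE.S18BR_IGinf A K1 N hinf⟩

end Fermat.Agent.S18_helper12_TOP
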