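import Mathlib
import Fermat.Agent.S37_helper8_K1c

/-!
# S37, piece DEGB (helper15): the degree of `β : F_N → F_{Nℓ}`, `f(q) ↦ f(q^ℓ)`

For `ℓ` prime, `ℓ ∤ N`: `[F_{Nℓ} : β F_N] = ℓ + 1`.

Route: the Atkin-Lehner symmetry.  The embedding `e` of `F_{Nℓ}` into `ℂ((s))` attached to
`γ₀ = [[x, y], [N, ℓ]]` (landed K1c) satisfies `e ∘ α = ε ∘ β` and `e ∘ β = ε ∘ α`, where
`ε : g(q) ↦ g(s^N)`.  Since `F_{Nℓ}` is generated by `α F_N` and `β F_N`, the two embeddings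
have the same image, so `w := ε⁻¹ ∘ e` is an automorphism of `F_{Nℓ}` with `w ∘ α = β`.
Hence `[F_{Nℓ} : β F_N] = [F_{Nℓ} : α F_N] = ℓ + 1`.
-/

set_option autoImplicit false
set_option linter.unusedSectionVars false
set_option linter.unusedVariables false
set_option linter.style.haveILetI false

open Fermat.Agent.S20 Fermat.Agent.S24 Fermat.Agent.S24_helper16_B Fermat.Agent.S37K1
open ModularCurve AlgebraicCurve

namespace Fermat.Agent.S37_helper15_DEGB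

noncomputable section

/-! ### the abstract swap lemma -/

/-- If two embeddings `e, ε` of `F'` into a field intertwine `α` and `β` crosswise, and `F'`
is generated by `α F ∪ β F`, then there is an automorphism `w` of `F'` with `w ∘ α = β`. -/
theorem S37DEGB_exists_swap {F F' Ω : Type*} [Field F] [Field F'] [Field Ω]
    (α β : F →+* F') (e ε : F' →+* Ω)
    (h1 : ∀ x, e (α x) = ε (β x)) (h2 : ∀ x, e (β x) = ε (α x))
    (hgen : ∀ P : F' → Prop, (∀ x, P (α x)) → (∀ x, P (β x)) →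
      (∀ a b, P a → P b → P (a + b)) → (∀ a b, P a → P b → P (a * b)) →
      (∀ a, P a → P a⁻¹) → ∀ z, P z) :
    ∃ w : F' ≃+* F', ∀ x, w (α x) = β x := by
  have key : ∀ z : F', (∃ y, e z = ε y) ∧ (∃ y, ε z = e y) := by
    refine hgen _ (fun x => ⟨⟨β x, h1 x⟩, ⟨β x, (h2 x).symm⟩⟩)
      (fun x => ⟨⟨α x, h2 x⟩, ⟨α x, (h1 x).symm⟩⟩) ?_ ?_ ?_
    · rintro a b ⟨⟨ya, ha⟩, ⟨ya', ha'⟩⟩ ⟨⟨yb, hb⟩, ⟨yb', hb'⟩⟩
      exact ⟨⟨ya + yb, by rw [map_add, map_add, ha, hb]⟩,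
        ⟨ya' + yb', by rw [map_add, map_add, ha', hb']⟩⟩
    · rintro a b ⟨⟨ya, ha⟩, ⟨ya', ha'⟩⟩ ⟨⟨yb, hb⟩, ⟨yb', hb'⟩⟩
      exact ⟨⟨ya * yb, by rw [map_mul, map_mul, ha, hb]⟩,
        ⟨ya' * yb', by rw [map_mul, map_mul, ha', hb']⟩⟩
    · rintro a ⟨⟨ya, ha⟩, ⟨ya', ha'⟩⟩
      exact ⟨⟨ya⁻¹, by rw [map_inv₀, map_inv₀, ha]⟩, ⟨ya'⁻¹, by rw [map_inv₀, map_inv₀, ha']⟩⟩
  -- the ring equivalence `F' ≃ ε(F')`
  let εe : F' ≃+* ε.range :=
    RingEquiv.ofBijective ε.rangeRestrict ⟨ε.rangeRestrict.injective, ε.rangeRestrict_surjective⟩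
  let e' : F' →+* ε.range := e.codRestrict ε.range (fun z => by
    obtain ⟨y, hy⟩ := (key z).1
    exact ⟨y, hy.symm⟩)
  let w₀ : F' →+* F' := εe.symm.toRingHom.comp e'
  have hw₀ : ∀ z, ε (w₀ z) = e z := by
    intro z
    have h : εe (w₀ z) = e' z := εe.apply_symm_apply (e' z)
    exact congrArg Subtype.val h
  have hbij : Function.Bijective w₀ := by
    refine ⟨w₀.injective, fun y => ?_⟩
    obtain ⟨z, hz⟩ := (key y).2
    refine ⟨z, ε.injective ?_⟩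
    rw [hw₀, hz]
  refine ⟨RingEquiv.ofBijective w₀ hbij, fun x => ?_⟩
  apply ε.injective
  show ε (w₀ (α x)) = ε (β x)
  rw [hw₀, h1]

/-- The degrees along `α` and along `β` agree in the situation of `S37DEGB_exists_swap`. -/
theorem S37DEGB_finrank_eq_of_swap {F F' Ω : Type*} [Field F] [Field F'] [Field Ω]
    (α β : F →+* F') (e ε : F' →+* Ω)
    (h1 : ∀ x, e (α x) = ε (β x)) (h2 : ∀ x, e (β x) = ε (α x))
    (hgen : ∀ P : F' → Prop, (∀ x, P (α x)) → (∀ x, P (β x)) →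
      (∀ a b, P a → P b → P (a + b)) → (∀ a b, P a → P b → P (a * b)) →
      (∀ a, P a → P a⁻¹) → ∀ z, P z) :
    @Module.finrank F F' _ _ β.toAlgebra.toModule =
      @Module.finrank F F' _ _ α.toAlgebra.toModule := by
  obtain ⟨w, hw⟩ := S37DEGB_exists_swap α β e ε h1 h2 hgen
  refine (@Algebra.finrank_eq_of_equiv_equiv F F' _ _ α.toAlgebra F F' _ _ β.toAlgebra
    (RingEquiv.refl F) w ?_).symm
  refine RingHom.ext fun x => ?_
  exact (hw x).symm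

/-! ### the concrete situation -/

/-- divisors of `N ℓ`, `ℓ` prime. -/
theorem S37DEGB_dvd_cases {N ℓ D : ℕ} (hℓ : ℓ.Prime) (hD : D ∣ N * ℓ) :
    D ∣ N ∨ ∃ d, d ∣ N ∧ D = d * ℓ := by
  by_cases hℓD : ℓ ∣ D
  · obtain ⟨d, rfl⟩ := hℓD
    refine Or.inr ⟨d, ?_, mul_comm _ _⟩
    rw [mul_comm N ℓ] at hD
    exact Nat.dvd_of_mul_dvd_mul_left hℓ.pos hD
  · have hcop : Nat.Coprime D ℓ := ((Nat.Prime.coprime_iff_not_dvd hℓ).mpr hℓD).symm
    exact Or.inl (hcop.dvd_of_dvd_mul_right hD)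

variable (N ℓ : ℕ) [NeZero N] [NeZero ℓ]

/-- the embedding `g(q) ↦ g^{φ₀}(s^N)` of `F_{Nℓ}`. -/
def S37DEGB_eps : modularFunctionFieldBar (N * ℓ) →+* LaurentSeries ℂ :=
  (S37K1_Theta N).comp (modularFunctionFieldBar (N * ℓ)).val.toRingHom

theorem S37DEGB_eps_apply (z : modularFunctionFieldBar (N * ℓ)) :
    S37DEGB_eps N ℓ z = S37K1_Theta N (z : LaurentSeries Kbar) := rfl

theorem S37DEGB_eps_alpha (f : modularFunctionFieldBar N) :
    S37DEGB_eps N ℓ (heckeAlphaBar Kbar N ℓ f) = S37K1_Theta N (f : LaurentSeries Kbar) := by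
  rw [S37DEGB_eps_apply, coe_heckeAlphaBar]

theorem S37DEGB_eps_beta (f : modularFunctionFieldBar N) :
    S37DEGB_eps N ℓ (heckeBetaBar Kbar N ℓ f) =
      S37K1_Theta (N * ℓ) (f : LaurentSeries Kbar) := by
  rw [S37DEGB_eps_apply, coe_heckeBetaBar, S37K1_Theta_apply, S37K1_Theta_apply,
    coeffMap_qExpand, qExpand_qExpand]

theorem S37DEGB_Sub_zero (f : LaurentSeries Kbar) :
    S37K1_Sub N ℓ 0 f = S37K1_Theta N f := by
  rw [S37K1_Sub_apply, S37K1_Theta_apply, zpow_zero]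
  congr 1
  ext n
  rw [coeff_lsScale, one_zpow, Units.val_one, one_mul]

/-- `F_{Nℓ}` is generated, as a field, by `α F_N` and `β F_N`. -/
theorem S37DEGB_gen (hℓ : ℓ.Prime) (P : modularFunctionFieldBar (N * ℓ) → Prop)
    (hα : ∀ x, P (heckeAlphaBar Kbar N ℓ x)) (hβ : ∀ x, P (heckeBetaBar Kbar N ℓ x))
    (hadd : ∀ a b, P a → P b → P (a + b)) (hmul : ∀ a b, P a → P b → P (a * b))
    (hinv : ∀ a, P a → P a⁻¹) : ∀ z, P z := by
  have key : ∀ x : LaurentSeries Kbar,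
      x ∈ IntermediateField.adjoin Kbar
        {x | ∃ (d : ℕ) (_ : NeZero d), d ∣ N * ℓ ∧ x = jLaur d} →
      ∀ hx' : x ∈ modularFunctionFieldBar (N * ℓ), P ⟨x, hx'⟩ := by
    intro x hx
    induction hx using IntermediateField.adjoin_induction with
    | mem y hy =>
      intro hy'
      obtain ⟨D, hD0, hD, rfl⟩ := hy
      rcases S37DEGB_dvd_cases hℓ hD with hDN | ⟨d, hd, rfl⟩
      · have e : (⟨jLaur D, hy'⟩ : modularFunctionFieldBar (N * ℓ)) =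
            heckeAlphaBar Kbar N ℓ (jF N D hDN) := Subtype.ext rfl
        rw [e]
        exact hα _
      · haveI : NeZero d := ⟨fun h => by
          subst h
          exact (NeZero.ne (0 * ℓ)) (zero_mul ℓ)⟩
        have e : (⟨jLaur (d * ℓ), hy'⟩ : modularFunctionFieldBar (N * ℓ)) =
            heckeBetaBar Kbar N ℓ (jF N d hd) := by
          rw [S37K1_beta_jF]
          rfl
        rw [e]
        exact hβ _
    | algebraMap a =>
      intro ha'
      have e : (⟨algebraMap Kbar (LaurentSeries Kbar) a, ha'⟩ : modularFunctionFieldBar (N * ℓ)) =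
          heckeAlphaBar Kbar N ℓ (algebraMap Kbar (modularFunctionFieldBar N) a) := by
        rw [AlgHom.commutes]
        rfl
      rw [e]
      exact hα _
    | add x y hx hy h1 h2 =>
      intro hxy
      have hx' : x ∈ modularFunctionFieldBar (N * ℓ) := by
        rw [Fermat.Agent.S24_helper23_GEN.GEN]; exact hx
      have hy' : y ∈ modularFunctionFieldBar (N * ℓ) := by
        rw [Fermat.Agent.S24_helper23_GEN.GEN]; exact hy
      exact hadd ⟨x, hx'⟩ ⟨y, hy'⟩ (h1 hx') (h2 hy')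
    | inv x hx h =>
      intro hxi
      have hx' : x ∈ modularFunctionFieldBar (N * ℓ) := by
        rw [Fermat.Agent.S24_helper23_GEN.GEN]; exact hx
      exact hinv ⟨x, hx'⟩ (h hx')
    | mul x y hx hy h1 h2 =>
      intro hxy
      have hx' : x ∈ modularFunctionFieldBar (N * ℓ) := by
        rw [Fermat.Agent.S24_helper23_GEN.GEN]; exact hx
      have hy' : y ∈ modularFunctionFieldBar (N * ℓ) := by
        rw [Fermat.Agent.S24_helper23_GEN.GEN]; exact hy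
      exact hmul ⟨x, hx'⟩ ⟨y, hy'⟩ (h1 hx') (h2 hy')
  rintro ⟨x, hx⟩
  exact key x (by rw [← Fermat.Agent.S24_helper23_GEN.GEN]; exact hx) hx

/-- **Atkin-Lehner**: an automorphism `w` of `F_{Nℓ}` with `w ∘ α = β`. -/
theorem S37DEGB_exists_atkinLehner (hℓ : ℓ.Prime) (hℓN : ¬ ℓ ∣ N) :
    ∃ w : modularFunctionFieldBar (N * ℓ) ≃+* modularFunctionFieldBar (N * ℓ),
      ∀ x : modularFunctionFieldBar N,
        w (heckeAlphaBar Kbar N ℓ x) = heckeBetaBar Kbar N ℓ x := by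
  obtain ⟨x, y, hxy⟩ : ∃ x y : ℤ, (ℓ : ℤ) * x - N * y = 1 := by
    have hcop : Nat.Coprime ℓ N := (Nat.Prime.coprime_iff_not_dvd hℓ).mpr hℓN
    obtain ⟨u, v, huv⟩ := Nat.isCoprime_iff_coprime.mpr hcop
    exact ⟨u, -v, by linarith⟩
  have hN : 0 < N := Nat.pos_of_ne_zero (NeZero.ne N)
  refine S37DEGB_exists_swap (heckeAlphaBar Kbar N ℓ).toRingHom (heckeBetaBar Kbar N ℓ).toRingHom
    (S37K1_emb (N * ℓ) (S37K1_gam N ℓ x y hxy 0)) (S37DEGB_eps N ℓ) ?_ ?_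
    (fun P h1 h2 h3 h4 h5 => S37DEGB_gen N ℓ hℓ P h1 h2 h3 h4 h5)
  · intro f
    show S37K1_emb (N * ℓ) _ (heckeAlphaBar Kbar N ℓ f) = S37DEGB_eps N ℓ (heckeBetaBar Kbar N ℓ f)
    rw [S37DEGB_eps_beta]
    exact S37K1_emb_alpha N ℓ _ (fun d hd => S37K1_jd_gam_low N ℓ hN x y hxy _ d hd) f
  · intro f
    show S37K1_emb (N * ℓ) _ (heckeBetaBar Kbar N ℓ f) = S37DEGB_eps N ℓ (heckeAlphaBar Kbar N ℓ f)
    rw [S37DEGB_eps_alpha, S37K1_emb_beta, S37DEGB_Sub_zero]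

set_option synthInstance.maxHeartbeats 400000 in
set_option maxHeartbeats 1000000 in
/-- **DEGB**: `[F_{Nℓ} : β F_N] = ℓ + 1` for `ℓ` prime, `ℓ ∤ N`. -/
theorem S37DEGB_finrankAlong_beta (N ℓ : ℕ) [NeZero N] [NeZero ℓ] (hℓ : ℓ.Prime)
    (hℓN : ¬ ℓ ∣ N) :
    AlgebraicCurve.finrankAlong (AlgebraicClosure ℚ)
      (ModularCurve.heckeBetaBar (AlgebraicClosure ℚ) N ℓ) = ℓ + 1 := by
  obtain ⟨w, hw⟩ := S37DEGB_exists_atkinLehner N ℓ hℓ hℓN
  have hα := S37K1_finrank N ℓ hℓ hℓN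
  rw [← hα]
  unfold AlgebraicCurve.finrankAlong
  refine (@Algebra.finrank_eq_of_equiv_equiv (modularFunctionFieldBar N)
    (modularFunctionFieldBar (N * ℓ)) _ _ (algebraAlong (heckeAlphaBar Kbar N ℓ))
    (modularFunctionFieldBar N) (modularFunctionFieldBar (N * ℓ)) _ _
    (algebraAlong (heckeBetaBar Kbar N ℓ)) (RingEquiv.refl _) w ?_).symm
  refine RingHom.ext fun x => ?_
  exact (hw x).symm

end

end Fermat.Agent.S37_helper15_DEGB
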