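import Mathlib
import Fermat.Agent.S37_helper21_B0c
import Fermat.Agent.S37_helper2_SUMEF
import Fermat.Agent.S37_helper11_NORM

/-!
# S37, brick B0: `HeckeInputsAlong ℚ̄ N ℓ` (final plug)

`S37B0_heckeInputsAlong`: all inputs of the prelude's Hecke operator `heckeOperatorAlong` hold
over `ℚ̄`, for every level `N` and every `ℓ`; consequently `heckeOperatorAlong` is the honest
correspondence `α_* β^*` (`S37B0_heckeOperatorAlong_eq`).
-/

set_option autoImplicit false
set_option linter.style.haveILetI false

open AlgebraicCurve IntermediateField ModularCurve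

namespace Fermat.Agent.S37_helper21_B0c

open Fermat.Agent.S24

/-- **B0.** The inputs of the Hecke correspondence hold over `ℚ̄`. -/
theorem S37B0_heckeInputsAlong (N ℓ : ℕ) [NeZero N] [NeZero ℓ] :
    HeckeInputsAlong (AlgebraicClosure ℚ) N ℓ :=
  S37B0_heckeInputsAlong_of N ℓ
    (fun F F' _ _ _ _ _ _ _ _ x hx _ =>
      Fermat.Agent.S37_helper2_SUMEF.S37B0_sumRamificationInertia (AlgebraicClosure ℚ) F F' x hx)
    (fun F F' _ _ _ _ _ _ _ _ x hx _ =>
      Fermat.Agent.S37_helper11_NORM.S37B0_pushforwardNormFormula (AlgebraicClosure ℚ) F F' x hx)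

end Fermat.Agent.S37_helper21_B0c
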