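import Mathlib
import Fermat.Prelude.Def_ModularCurve_HeckeModule
import Fermat.Agent.S37_helper21_B2
import Fermat.Agent.S37_helper21_B0cFinal

/-!
# S37, the abstract endgame

For ANY place map `r` with `hr : IsPlaceReductionAlong A π N r` and
`hgen : PrincipalGeneratedByIntegral A π N`, we deduce from

* `S37END_K2` (the Kronecker congruence at the level of `q`-expansions: for every integral `y`
  the norm `Nm_α (β y)` is integral with reduction `τ(ȳ) · ȳ(q^ℓ)`),
* the identity `w ^ ℓ = (τ w)(q^ℓ)` in characteristic `ℓ`,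
* `deg β = ℓ + 1`,

that `r_* ∘ T_ℓ = (s + ℓ s⁻¹) ∘ r_*` on all divisors (`s` the coefficientwise action of `τ`),
and then the Eichler–Shimura relation `red (φ² x) - red (T_ℓ (φ x)) + ℓ red x = 0` for every
Frobenius element `φ`.
-/

set_option autoImplicit false
set_option linter.style.haveILetI false
set_option linter.unusedSectionVars false

open AlgebraicCurve IntermediateField ModularCurve HahnSeries

noncomputable section

namespace Fermat.Agent.S37_helper21_END

open Fermat.Agent.S37_helper21_B2 Fermat.Agent.S37_helper21_B0c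

local notation "Qb" => AlgebraicClosure ℚ

/-! ### Three values of `r` -/

section Values

variable {N : ℕ} [NeZero N] {A : ValuationSubring Qb}
variable {k : Type*} [Field k] {π : A →+* k}
variable {r : Place Qb (modularFunctionFieldBar N) → Place k (modularFunctionFieldFullC k N)}

/-- `r` takes at least three values: a zero of `j`, a pole of `j` and a zero of `j - 1`. -/
theorem S37END_exists_three (hr : IsPlaceReductionAlong A π N r) :
    ∃ P₁ P₂ P₃, r P₁ ≠ r P₂ ∧ r P₁ ≠ r P₃ ∧ r P₂ ≠ r P₃ := by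
  have hjk : coeffMap π (jqModC A) ∈ modularFunctionFieldFullC k N := by
    rw [S37B2_jA_residue]
    exact jqModC_mem_full k N
  have hjeq : (⟨coeffMap π (jqModC A), hjk⟩ : modularFunctionFieldFullC k N)
      = Fermat.Agent.S18_helper26_CONST.S18P15_jbar k N := Subtype.ext (S37B2_jA_residue π)
  have hj1L : coeffMap A.subtype (jqModC A - 1) ∈ modularFunctionFieldBar N := by
    rw [map_sub, map_one]
    exact sub_mem (S37B2_jA_mem N A) (one_mem _)
  have hj1k : coeffMap π (jqModC A - 1) ∈ modularFunctionFieldFullC k N := by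
    rw [map_sub, map_one]
    exact sub_mem hjk (one_mem _)
  have hj1eq : (⟨coeffMap π (jqModC A - 1), hj1k⟩ : modularFunctionFieldFullC k N)
      = Fermat.Agent.S18_helper26_CONST.S18P15_jbar k N
        - algebraMap k (modularFunctionFieldFullC k N) 1 := by
    apply Subtype.ext
    show coeffMap π (jqModC A - 1) = jqModC k
      - ((algebraMap k (modularFunctionFieldFullC k N) 1 : modularFunctionFieldFullC k N) :
          LaurentSeries k)
    rw [map_sub, map_one, S37B2_jA_residue, map_one]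
    rfl
  have htr := Fermat.Agent.S18_helper26_CONST.S18P15_transcendental_jbar k N
  haveI := Fermat.Agent.S18_helper26_CONST.S18P15_finiteDimensional k N
  haveI := Fermat.Agent.S24_helper6_A2.finiteDimensional_adjoin_inv (K := k)
    (Fermat.Agent.S18_helper26_CONST.S18P15_jbar k N)
  haveI := Fermat.Agent.S24_helper6_A2.finiteDimensional_adjoin_sub_const (K := k)
    (Fermat.Agent.S18_helper26_CONST.S18P15_jbar k N) 1
  obtain ⟨Q₀, hQ₀⟩ := Fermat.Agent.S18_helper26_PLACE.S18P15_exists_place_ord_pos _ htr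
  obtain ⟨Q₁, hQ₁⟩ := Fermat.Agent.S18_helper26_PLACE.S18P15_exists_place_ord_pos _
    (Fermat.Agent.S24_helper6_A2.transcendental_inv _ htr)
  obtain ⟨Q₂, hQ₂⟩ := Fermat.Agent.S18_helper26_PLACE.S18P15_exists_place_ord_pos _
    (Fermat.Agent.S24_helper6_A2.transcendental_sub_const _ htr 1)
  rw [Place.ord_inv] at hQ₁
  have hQ₂' : Q₂.ord (Fermat.Agent.S18_helper26_CONST.S18P15_jbar k N) = 0 := by
    have h := Fermat.Agent.S24_helper6_A2.ord_sub_const_eq_zero_of_ne
      (Fermat.Agent.S18_helper26_CONST.S18P15_jbar k N) Q₂ (a := 1) (b := 0) one_ne_zero hQ₂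
    simpa using h
  obtain ⟨P₀, hP₀⟩ := S37B2_exists_of_ord_ne_zero hr (jqModC A) (S37B2_jA_mem N A) hjk Q₀
    (by rw [hjeq]; omega)
  obtain ⟨P₁, hP₁⟩ := S37B2_exists_of_ord_ne_zero hr (jqModC A) (S37B2_jA_mem N A) hjk Q₁
    (by rw [hjeq]; omega)
  obtain ⟨P₂, hP₂⟩ := S37B2_exists_of_ord_ne_zero hr (jqModC A - 1) hj1L hj1k Q₂
    (by rw [hj1eq]; omega)
  refine ⟨P₀, P₁, P₂, ?_, ?_, ?_⟩
  · rw [hP₀, hP₁]
    rintro rfl
    omega
  · rw [hP₀, hP₂]
    rintro rfl
    omega
  · rw [hP₁, hP₂]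
    rintro rfl
    omega

end Values

/-! ### The correspondence on principal divisors (generic) -/

section Generic

variable {K F F' : Type*} [Field K] [Field F] [Field F'] [Algebra K F] [Algebra K F']

/-- The norm along a `K`-algebra map. -/
def S37END_normAlong (ψ : F →ₐ[K] F') (f : F') : F :=
  letI := algebraAlong ψ
  Algebra.norm F f

theorem S37END_normAlong_ne_zero (ψ : F →ₐ[K] F') (hfin : FiniteAlong K ψ) {f : F'}
    (hf : f ≠ 0) : S37END_normAlong ψ f ≠ 0 := by
  letI := algebraAlong ψ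
  haveI : Module.Finite F F' := hfin
  exact Algebra.norm_ne_zero_iff.mpr hf

/-- `ψ_* φ^* (div f) = div (Nm_ψ (φ f))`. -/
theorem S37END_correspondence_principal (φ ψ : F →ₐ[K] F')
    (hφ : φ.toRingHom.IsIntegral) (hψ : ψ.toRingHom.IsIntegral)
    [HasPrincipalDivisors K F'] (hfin : FiniteAlong K ψ) (hN : NormFormulaAlong K ψ hfin)
    (f : F) (hf : f ≠ 0) (D : Divisor K F) (hD : ∀ P, D P = P.ord f) (P : Place K F) :
    Divisor.correspondence φ ψ hφ hψ D P = P.ord (S37END_normAlong ψ (φ f)) := by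
  have h1 : ∀ W : Place K F', Divisor.pullbackAlong φ hφ D W = W.ord (φ f) := by
    intro W
    letI := algebraAlong φ
    haveI := isScalarTower_along φ
    haveI := isIntegral_along φ hφ
    exact Divisor.pullback_apply_eq_ord hD W
  have hφf : φ f ≠ 0 := by
    rw [Ne, map_eq_zero]
    exact hf
  letI := algebraAlong ψ
  haveI := isScalarTower_along ψ
  haveI : Module.Finite F F' := hfin
  exact hN (φ f) hφf _ h1 P

end Generic

/-! ### Positivity and mass of additive maps between divisor groups -/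

section Positivity

variable {X Y : Type*}

theorem S37END_map_eq_sum (Φ : (X →₀ ℤ) →+ (Y →₀ ℤ)) (E : X →₀ ℤ) :
    Φ E = E.sum fun x n => n • Φ (Finsupp.single x 1) := by
  induction E using Finsupp.induction_linear with
  | zero => simp
  | add f g hf hg =>
    rw [map_add, hf, hg, Finsupp.sum_add_index' (fun _ => by simp) (fun _ _ _ => add_smul _ _ _)]
  | single x n =>
    rw [Finsupp.sum_single_index (by simp), ← map_zsmul, Finsupp.smul_single, smul_eq_mul,
      mul_one]

theorem S37END_map_nonneg (Φ : (X →₀ ℤ) →+ (Y →₀ ℤ))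
    (hΦ : ∀ x y, 0 ≤ Φ (Finsupp.single x 1) y) {E : X →₀ ℤ} (hE : ∀ x, 0 ≤ E x) (y : Y) :
    0 ≤ Φ E y := by
  rw [S37END_map_eq_sum Φ E, Finsupp.sum, Finsupp.finsetSum_apply]
  refine Finset.sum_nonneg fun x _ => ?_
  rw [Finsupp.smul_apply, smul_eq_mul]
  exact mul_nonneg (hE x) (hΦ x y)

theorem S37END_mass_mapDomain (f : X → Y) (E : X →₀ ℤ) :
    Fermat.Agent.S37RIG.S37RIG_mass (Finsupp.mapDomain f E) = Fermat.Agent.S37RIG.S37RIG_mass E := by
  induction E using Finsupp.induction_linear with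
  | zero => simp
  | add f g hf hg => rw [Finsupp.mapDomain_add, map_add, map_add, hf, hg]
  | single x n =>
    rw [Finsupp.mapDomain_single, Fermat.Agent.S37RIG.S37RIG_mass_single,
      Fermat.Agent.S37RIG.S37RIG_mass_single]

theorem S37END_mass_eq_degree {K F : Type*} [Field K] [Field F] [Algebra K F]
    (hdeg : ∀ v : Place K F, v.deg = 1) (E : Divisor K F) :
    Fermat.Agent.S37RIG.S37RIG_mass E = Divisor.degree E := by
  induction E using Finsupp.induction_linear with
  | zero => simp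
  | add f g hf hg => rw [map_add, map_add, hf, hg]
  | single x n =>
    rw [Fermat.Agent.S37RIG.S37RIG_mass_single, Divisor.degree_single, hdeg, Nat.cast_one,
      mul_one]

end Positivity

section GenericPos

variable {K F F' : Type*} [Field K] [Field F] [Field F'] [Algebra K F] [Algebra K F']

theorem S37END_correspondence_single_nonneg (φ ψ : F →ₐ[K] F')
    (hφ : φ.toRingHom.IsIntegral) (hψ : ψ.toRingHom.IsIntegral)
    [HasPrincipalDivisors K F'] (v P : Place K F) :
    0 ≤ Divisor.correspondence φ ψ hφ hψ (Finsupp.single v 1) P := by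
  classical
  rw [Divisor.correspondence_apply]
  refine S37END_map_nonneg (Divisor.pushforwardAlong ψ hψ) (fun w P' => ?_) (fun W => ?_) P
  · rw [Divisor.pushforwardAlong_single, one_mul, Finsupp.single_apply]
    split_ifs
    · exact Int.natCast_nonneg _
    · exact le_rfl
  · rw [Divisor.pullbackAlong_apply]
    refine mul_nonneg (Int.natCast_nonneg _) ?_
    rw [Finsupp.single_apply]
    split_ifs <;> norm_num

end GenericPos

/-! ### The Kronecker congruence on divisors -/

section Main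

variable {N ℓ : ℕ} [NeZero N] [NeZero ℓ] {A : ValuationSubring Qb}
variable {k : Type*} [Field k] {π : A →+* k}
variable {r : Place Qb (modularFunctionFieldBar N) → Place k (modularFunctionFieldFullC k N)}

/-- **Input K2** (Kronecker congruence for `q`-expansions): for every `A`-integral `y` in the
function field of level `N`, the norm `Nm_α (β y)` has an `A`-integral `q`-expansion `z`, with
reduction `τ(ȳ) · ȳ(q^ℓ)`. -/
def S37END_K2 (N ℓ : ℕ) [NeZero N] [NeZero ℓ] (A : ValuationSubring Qb) (π : A →+* k)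
    (τ : k ≃+* k) : Prop :=
  ∀ (y : LaurentSeries A) (hy : coeffMap A.subtype y ∈ modularFunctionFieldBar N),
    ∃ z : LaurentSeries A,
      coeffMap A.subtype z
        = ((S37END_normAlong (heckeAlphaBar Qb N ℓ)
            (heckeBetaBar Qb N ℓ ⟨coeffMap A.subtype y, hy⟩) : modularFunctionFieldBar N) :
            LaurentSeries Qb) ∧
      coeffMap π z = coeffMap (τ : k →+* k) (coeffMap π y) * qExpand k ℓ (coeffMap π y)

theorem S37END_mapDomain_hecke_of_integral (hr : IsPlaceReductionAlong A π N r)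
    (τ : k ≃+* k) (hK2 : S37END_K2 N ℓ A π τ)
    (hpowq : ∀ w : LaurentSeries k, w ^ ℓ = qExpand k ℓ (coeffMap (τ : k →+* k) w))
    (hα : HeckeAlphaBarIntegral Qb N ℓ) (hβ : HeckeBetaBarIntegral Qb N ℓ)
    [HasPrincipalDivisors Qb (modularFunctionFieldBar (N * ℓ))]
    (hfin : FiniteAlong Qb (heckeAlphaBar Qb N ℓ))
    (hN : NormFormulaAlong Qb (heckeAlphaBar Qb N ℓ) hfin)
    {D : Divisor Qb (modularFunctionFieldBar N)}
    (hD : D ∈ integralPrincipalDivisors A π N) :
    Finsupp.mapDomain r (heckeDivBar hα hβ D)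
      = S37B2_coeffAut k N τ • Finsupp.mapDomain r D
        + ℓ • ((S37B2_coeffAut k N τ)⁻¹ • Finsupp.mapDomain r D) := by
  obtain ⟨y, hy, hyk, hne, hDy⟩ := hD
  obtain ⟨z, hzL, hzk⟩ := hK2 y hy
  set s := S37B2_coeffAut k N τ with hs
  set yb : modularFunctionFieldFullC k N := ⟨coeffMap π y, hyk⟩ with hyb
  have hyb0 : yb ≠ 0 := fun h => hne (congrArg Subtype.val h)
  have hneL : (⟨coeffMap A.subtype y, hy⟩ : modularFunctionFieldBar N) ≠ 0 := fun h =>
    S37B2_coeffMap_subtype_ne_zero hne (congrArg Subtype.val h)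
  have hq : qExpand k ℓ (coeffMap π y)
      = ((s⁻¹ • yb : modularFunctionFieldFullC k N) : LaurentSeries k) ^ ℓ := by
    rw [hpowq]
    have h1 : coeffMap (τ : k →+* k)
        ((s⁻¹ • yb : modularFunctionFieldFullC k N) : LaurentSeries k) = coeffMap π y := by
      rw [← S37B2_coe_coeffAut_smul, ← hs, smul_inv_smul]
    rw [h1]
  have hzk' : coeffMap π z
      = (((s • yb) * (s⁻¹ • yb) ^ ℓ : modularFunctionFieldFullC k N) : LaurentSeries k) := by
    rw [hzk, hq]
    rfl
  have hzmem : coeffMap π z ∈ modularFunctionFieldFullC k N := by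
    rw [hzk']
    exact Subtype.property _
  have hsy : s • yb ≠ 0 := by
    rw [SemilinearAut.smul_def]
    exact (map_ne_zero_iff _ (RingEquiv.injective _)).mpr hyb0
  have hsy' : s⁻¹ • yb ≠ 0 := by
    rw [SemilinearAut.smul_def]
    exact (map_ne_zero_iff _ (RingEquiv.injective _)).mpr hyb0
  have hzeq : (⟨coeffMap π z, hzmem⟩ : modularFunctionFieldFullC k N)
      = (s • yb) * (s⁻¹ • yb) ^ ℓ := Subtype.ext hzk'
  have hzne : coeffMap π z ≠ 0 := by
    intro h
    have h0 : (⟨coeffMap π z, hzmem⟩ : modularFunctionFieldFullC k N) = 0 := Subtype.ext h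
    rw [hzeq] at h0
    exact mul_ne_zero hsy (pow_ne_zero _ hsy') h0
  have hzLmem : coeffMap A.subtype z ∈ modularFunctionFieldBar N := by
    rw [hzL]
    exact Subtype.property _
  have hTD : ∀ P, heckeDivBar hα hβ D P
      = P.ord (⟨coeffMap A.subtype z, hzLmem⟩ : modularFunctionFieldBar N) := by
    intro P
    have h1 := S37END_correspondence_principal (heckeBetaBar Qb N ℓ) (heckeAlphaBar Qb N ℓ)
      hβ hα hfin hN ⟨_, hy⟩ hneL D hDy P
    rw [heckeDivBar, h1]
    congr 1
    exact Subtype.ext hzL.symm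
  ext Q
  rw [hr.2 z hzLmem hzmem hzne _ hTD Q, hzeq, Place.ord_mul Q hsy (pow_ne_zero _ hsy'),
    ← zpow_natCast, Place.ord_zpow, S37B2_ord_smul_eq, S37B2_ord_smul_eq, inv_inv,
    Finsupp.add_apply, Finsupp.smul_apply, SemilinearAut.divisor_smul_apply,
    SemilinearAut.divisor_smul_apply, inv_inv, hr.2 y hy hyk hne D hDy,
    hr.2 y hy hyk hne D hDy, nsmul_eq_mul]

/-- The map `D ↦ r_* (T_ℓ D)`. -/
def S37END_PhiT (r : Place Qb (modularFunctionFieldBar N) → Place k (modularFunctionFieldFullC k N))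
    (hα : HeckeAlphaBarIntegral Qb N ℓ) (hβ : HeckeBetaBarIntegral Qb N ℓ)
    [HasPrincipalDivisors Qb (modularFunctionFieldBar (N * ℓ))] :
    Divisor Qb (modularFunctionFieldBar N) →+ Divisor k (modularFunctionFieldFullC k N) :=
  (Finsupp.mapDomain.addMonoidHom r).comp (heckeDivBar hα hβ)

/-- The map `D ↦ (s + ℓ s⁻¹) (r_* D)`. -/
def S37END_PhiS (ℓ : ℕ)
    (r : Place Qb (modularFunctionFieldBar N) → Place k (modularFunctionFieldFullC k N))
    (s : SemilinearAut k (modularFunctionFieldFullC k N)) :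
    Divisor Qb (modularFunctionFieldBar N) →+ Divisor k (modularFunctionFieldFullC k N) :=
  (DistribSMul.toAddMonoidHom (Divisor k (modularFunctionFieldFullC k N)) s
    + ℓ • DistribSMul.toAddMonoidHom (Divisor k (modularFunctionFieldFullC k N)) s⁻¹).comp
    (Finsupp.mapDomain.addMonoidHom r)

theorem S37END_PhiT_apply (hα : HeckeAlphaBarIntegral Qb N ℓ) (hβ : HeckeBetaBarIntegral Qb N ℓ)
    [HasPrincipalDivisors Qb (modularFunctionFieldBar (N * ℓ))]
    (D : Divisor Qb (modularFunctionFieldBar N)) :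
    S37END_PhiT r hα hβ D = Finsupp.mapDomain r (heckeDivBar hα hβ D) := rfl

theorem S37END_PhiS_apply (s : SemilinearAut k (modularFunctionFieldFullC k N))
    (D : Divisor Qb (modularFunctionFieldBar N)) :
    S37END_PhiS ℓ r s D = s • Finsupp.mapDomain r D + ℓ • (s⁻¹ • Finsupp.mapDomain r D) := rfl

theorem S37END_PhiS_single (s : SemilinearAut k (modularFunctionFieldFullC k N))
    (P : Place Qb (modularFunctionFieldBar N)) :
    S37END_PhiS ℓ r s (Finsupp.single P 1)
      = Finsupp.single (s • r P) 1 + ℓ • Finsupp.single (s⁻¹ • r P) 1 := by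
  rw [S37END_PhiS_apply, Finsupp.mapDomain_single, SemilinearAut.smul_single,
    SemilinearAut.smul_single]

theorem S37END_Phi_eq_of_principal (hr : IsPlaceReductionAlong A π N r)
    (hgen : PrincipalGeneratedByIntegral A π N)
    (τ : k ≃+* k) (hK2 : S37END_K2 N ℓ A π τ)
    (hpowq : ∀ w : LaurentSeries k, w ^ ℓ = qExpand k ℓ (coeffMap (τ : k →+* k) w))
    (hα : HeckeAlphaBarIntegral Qb N ℓ) (hβ : HeckeBetaBarIntegral Qb N ℓ)
    [HasPrincipalDivisors Qb (modularFunctionFieldBar (N * ℓ))]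
    (hfin : FiniteAlong Qb (heckeAlphaBar Qb N ℓ))
    (hN : NormFormulaAlong Qb (heckeAlphaBar Qb N ℓ) hfin)
    {D : Divisor Qb (modularFunctionFieldBar N)}
    (hD : D ∈ Divisor.principal (K := Qb) (F := modularFunctionFieldBar N)) :
    S37END_PhiT r hα hβ D = S37END_PhiS ℓ r (S37B2_coeffAut k N τ) D := by
  have hle : AddSubgroup.closure (integralPrincipalDivisors A π N)
      ≤ AddMonoidHom.eqLocus (S37END_PhiT r hα hβ) (S37END_PhiS ℓ r (S37B2_coeffAut k N τ)) := by
    rw [AddSubgroup.closure_le]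
    intro E hE
    exact S37END_mapDomain_hecke_of_integral hr τ hK2 hpowq hα hβ hfin hN hE
  exact hle (hgen hD)

theorem S37END_exists_avoid (hr : IsPlaceReductionAlong A π N r)
    (a b : Place k (modularFunctionFieldFullC k N)) : ∃ P, r P ≠ a ∧ r P ≠ b := by
  obtain ⟨P₁, P₂, P₃, h12, h13, h23⟩ := S37END_exists_three hr
  by_contra hcon
  push Not at hcon
  have key : ∀ P, r P = a ∨ r P = b := fun P => by
    by_cases h : r P = a
    · exact Or.inl h
    · exact Or.inr (hcon P h)
  rcases key P₁ with e1 | e1 <;> rcases key P₂ with e2 | e2 <;> rcases key P₃ with e3 | e3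
  · exact h12 (e1.trans e2.symm)
  · exact h12 (e1.trans e2.symm)
  · exact h13 (e1.trans e3.symm)
  · exact h23 (e2.trans e3.symm)
  · exact h23 (e2.trans e3.symm)
  · exact h13 (e1.trans e3.symm)
  · exact h12 (e1.trans e2.symm)
  · exact h12 (e1.trans e2.symm)

/-- **The Kronecker congruence on all divisors**: `r_* ∘ T_ℓ = (s + ℓ s⁻¹) ∘ r_*`. -/
theorem S37END_Phi_eq (hr : IsPlaceReductionAlong A π N r)
    (hgen : PrincipalGeneratedByIntegral A π N)
    (τ : k ≃+* k) (hK2 : S37END_K2 N ℓ A π τ)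
    (hpowq : ∀ w : LaurentSeries k, w ^ ℓ = qExpand k ℓ (coeffMap (τ : k →+* k) w))
    (hα : HeckeAlphaBarIntegral Qb N ℓ) (hβ : HeckeBetaBarIntegral Qb N ℓ)
    [HasPrincipalDivisors Qb (modularFunctionFieldBar (N * ℓ))]
    (hFI : FundamentalIdentityAlong Qb (heckeBetaBar Qb N ℓ) hβ)
    (hfin : FiniteAlong Qb (heckeAlphaBar Qb N ℓ))
    (hN : NormFormulaAlong Qb (heckeAlphaBar Qb N ℓ) hfin)
    (hdegβ : finrankAlong Qb (heckeBetaBar Qb N ℓ) = ℓ + 1) :
    S37END_PhiT r hα hβ = S37END_PhiS ℓ r (S37B2_coeffAut k N τ) := by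
  classical
  obtain ⟨c, hRI⟩ := S37B2_exists_effective N
  haveI := S37B0_hasPrincipalDivisors N
  haveI := S37B2_nonempty_place N
  have hsingle : ∀ (Q₀ Q : Place k (modularFunctionFieldFullC k N)),
      0 ≤ (Finsupp.single Q₀ (1 : ℤ)) Q := fun Q₀ Q => by
    rw [Finsupp.single_apply]
    split_ifs <;> norm_num
  refine Fermat.Agent.S37RIG.S37RIG_eq_of_agree (S37B2_deg_eq_one N) c hRI _ _ (ℓ + 1)
    ?_ ?_ ?_ ?_ ?_ ?_
  · intro D hD
    exact S37END_Phi_eq_of_principal hr hgen τ hK2 hpowq hα hβ hfin hN hD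
  · intro v Q
    rw [S37END_PhiT_apply]
    refine S37END_map_nonneg (Finsupp.mapDomain.addMonoidHom r) (fun x y => ?_)
      (fun P => S37END_correspondence_single_nonneg _ _ hβ hα v P) Q
    rw [Finsupp.mapDomain.addMonoidHom_apply, Finsupp.mapDomain_single]
    exact hsingle _ _
  · intro v Q
    rw [S37END_PhiS_single, Finsupp.add_apply, Finsupp.smul_apply, nsmul_eq_mul]
    exact add_nonneg (hsingle _ _) (mul_nonneg (Nat.cast_nonneg _) (hsingle _ _))
  · intro v
    have h1 : Divisor.degree (heckeDivBar hα hβ (Finsupp.single v 1))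
        = (finrankAlong Qb (heckeBetaBar Qb N ℓ) : ℤ) * Divisor.degree (Finsupp.single v 1) :=
      Divisor.degree_correspondence (heckeBetaBar Qb N ℓ) (heckeAlphaBar Qb N ℓ) hβ hα hFI _
    rw [S37END_PhiT_apply, S37END_mass_mapDomain, S37END_mass_eq_degree (S37B2_deg_eq_one N),
      h1, hdegβ, Divisor.degree_single, S37B2_deg_eq_one]
    push_cast
    ring
  · intro v
    rw [S37END_PhiS_single, map_add, map_nsmul, Fermat.Agent.S37RIG.S37RIG_mass_single,
      Fermat.Agent.S37RIG.S37RIG_mass_single]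
    push_cast
    ring
  · intro Q
    obtain ⟨P, hP1, hP2⟩ := S37END_exists_avoid hr ((S37B2_coeffAut k N τ)⁻¹ • Q)
      (S37B2_coeffAut k N τ • Q)
    refine ⟨P, ?_⟩
    rw [S37END_PhiS_single, Finsupp.add_apply, Finsupp.smul_apply, Finsupp.single_apply,
      Finsupp.single_apply, if_neg, if_neg, smul_zero, add_zero]
    · intro h
      apply hP2
      rw [← h, smul_inv_smul]
    · intro h
      apply hP1
      rw [← h, inv_smul_smul]

/-- The same, evaluated on a divisor. -/
theorem S37END_mapDomain_hecke (hr : IsPlaceReductionAlong A π N r)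
    (hgen : PrincipalGeneratedByIntegral A π N)
    (τ : k ≃+* k) (hK2 : S37END_K2 N ℓ A π τ)
    (hpowq : ∀ w : LaurentSeries k, w ^ ℓ = qExpand k ℓ (coeffMap (τ : k →+* k) w))
    (hα : HeckeAlphaBarIntegral Qb N ℓ) (hβ : HeckeBetaBarIntegral Qb N ℓ)
    [HasPrincipalDivisors Qb (modularFunctionFieldBar (N * ℓ))]
    (hFI : FundamentalIdentityAlong Qb (heckeBetaBar Qb N ℓ) hβ)
    (hfin : FiniteAlong Qb (heckeAlphaBar Qb N ℓ))
    (hN : NormFormulaAlong Qb (heckeAlphaBar Qb N ℓ) hfin)
    (hdegβ : finrankAlong Qb (heckeBetaBar Qb N ℓ) = ℓ + 1)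
    (D : Divisor Qb (modularFunctionFieldBar N)) :
    Finsupp.mapDomain r (heckeDivBar hα hβ D)
      = S37B2_coeffAut k N τ • Finsupp.mapDomain r D
        + ℓ • ((S37B2_coeffAut k N τ)⁻¹ • Finsupp.mapDomain r D) := by
  have h := S37END_Phi_eq hr hgen τ hK2 hpowq hα hβ hFI hfin hN hdegβ
  exact congrArg (fun Φ => Φ D) h

theorem S37END_mk_nsmul {K F : Type*} [Field K] [Field F] [Algebra K F] (n : ℕ)
    (D : Divisor.degZero (K := K) (F := F)) : Pic0.mk (n • D) = n • Pic0.mk D :=
  QuotientAddGroup.mk_nsmul _ D n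

/-- **The Kronecker congruence on `Pic⁰`**: `red ∘ T_ℓ = (s + ℓ s⁻¹) ∘ red`. -/
theorem S37END_red_hecke (hr : IsPlaceReductionAlong A π N r)
    (hgen : PrincipalGeneratedByIntegral A π N)
    (τ : k ≃+* k) (hK2 : S37END_K2 N ℓ A π τ)
    (hpowq : ∀ w : LaurentSeries k, w ^ ℓ = qExpand k ℓ (coeffMap (τ : k →+* k) w))
    (hdegβ : finrankAlong Qb (heckeBetaBar Qb N ℓ) = ℓ + 1) (x : JZero N) :
    reductionPic0Along r hr hgen (heckeOperatorAlong Qb N ℓ x)
      = S37B2_coeffAut k N τ • reductionPic0Along r hr hgen x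
        + ℓ • ((S37B2_coeffAut k N τ)⁻¹ • reductionPic0Along r hr hgen x) := by
  obtain ⟨hα, hβ, hP, hfin, hFI, hN⟩ := S37B0_heckeInputsAlong N ℓ
  haveI := hP
  have hα' : (heckeAlphaBar Qb N ℓ).toRingHom.IsIntegral := hα
  have hβ' : (heckeBetaBar Qb N ℓ).toRingHom.IsIntegral := hβ
  obtain ⟨D, rfl⟩ := Pic0.mk_surjective x
  have h1 : heckeOperatorAlong Qb N ℓ (Pic0.mk D)
      = Pic0.mk (Pic0.degZeroCorrespondence (heckeBetaBar Qb N ℓ) (heckeAlphaBar Qb N ℓ)
          hβ' hα' hFI D) := by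
    rw [heckeOperatorAlong_eq hα hβ hFI hfin hN]
    rfl
  rw [h1, reductionPic0Along_mk, reductionPic0Along_mk,
    SemilinearAut.pic0_smul_mk, SemilinearAut.pic0_smul_mk, ← S37END_mk_nsmul, ← Pic0.mk_add]
  refine congrArg Pic0.mk (Subtype.ext ?_)
  exact S37END_mapDomain_hecke hr hgen τ hK2 hpowq hα hβ hFI hfin hN hdegβ D

end Main

/-! ### The Eichler–Shimura relation for the reduction map -/

section Final

set_option synthInstance.maxHeartbeats 400000

variable {N ℓ : ℕ} [NeZero N] [NeZero ℓ] {A : ValuationSubring Qb}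
variable {r : Place Qb (modularFunctionFieldBar N) →
  Place (IsLocalRing.ResidueField A) (modularFunctionFieldFullC (IsLocalRing.ResidueField A) N)}

set_option maxHeartbeats 3200000 in
/-- **Hypothesis (b) of the wrapper.** For a Frobenius element `σ` at `A`:
`red (σ σ x) - red (T_ℓ (σ x)) + ℓ red x = 0`. -/
theorem S37END_frobenius_relation (hℓ : ℓ.Prime)
    (hr : IsPlaceReductionAlong A (IsLocalRing.residue A) N r)
    (hgen : PrincipalGeneratedByIntegral A (IsLocalRing.residue A) N)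
    (hK2 : ∀ τ : IsLocalRing.ResidueField A ≃+* IsLocalRing.ResidueField A,
      (∀ x, τ x = x ^ ℓ) → S37END_K2 N ℓ A (IsLocalRing.residue A) τ)
    (hpowq : ∀ τ : IsLocalRing.ResidueField A ≃+* IsLocalRing.ResidueField A,
      (∀ x, τ x = x ^ ℓ) → ∀ w : LaurentSeries (IsLocalRing.ResidueField A),
        w ^ ℓ = qExpand (IsLocalRing.ResidueField A) ℓ (coeffMap (τ : _ →+* _) w))
    (hdegβ : finrankAlong Qb (heckeBetaBar Qb N ℓ) = ℓ + 1)
    (σ : Qb ≃ₐ[ℚ] Qb) (hσ : A.IsFrobeniusAt σ ℓ) (x : JZero N) :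
    reductionPic0Along r hr hgen (σ • σ • x)
      - reductionPic0Along r hr hgen (heckeOperatorBar N ⟨ℓ, hℓ⟩ (σ • x))
      + ℓ • reductionPic0Along r hr hgen x = 0 := by
  set τ := S37B2_resAut A ⟨σ, hσ.mem_decompositionSubgroup⟩ with hτdef
  have hτ : ∀ x, τ x = x ^ ℓ := fun x => hσ.smul_residue_eq x
  have hB2 : ∀ y : JZero N, reductionPic0Along r hr hgen (σ • y)
      = S37B2_coeffAut (IsLocalRing.ResidueField A) N τ • reductionPic0Along r hr hgen y :=
    fun y => S37B2_red_frobenius hr hgen σ ℓ hσ τ hτ y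
  have hT : reductionPic0Along r hr hgen (heckeOperatorBar N ⟨ℓ, hℓ⟩ (σ • x))
      = S37B2_coeffAut (IsLocalRing.ResidueField A) N τ • reductionPic0Along r hr hgen (σ • x)
        + ℓ • ((S37B2_coeffAut (IsLocalRing.ResidueField A) N τ)⁻¹ •
            reductionPic0Along r hr hgen (σ • x)) :=
    S37END_red_hecke hr hgen τ (hK2 τ hτ) (hpowq τ hτ) hdegβ (σ • x)
  rw [hT, hB2 (σ • x), hB2 x, inv_smul_smul]
  abel

end Final

end Fermat.Agent.S37_helper21_END

end
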