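import Mathlib
import Fermat.Prelude.Def_ModularCurve_HeckeModule
import Fermat.Agent.S37_helper8_FROB

/-!
# S37 preparation (helper8): the universal-quotient wrapper

`SpecializationExists N p (JZero N)` follows from the existence, for every prime `ℓ ∤ N p` and
every place `A` over `ℓ`, of an additive map `red : JZero N →+ G` which is
* invariant under inertia at `A`,
* kills `(φ² - T_ℓ φ + ℓ) x` for Frobenius elements `φ` at `A`,
* injective on `p`-power torsion.
The specialization is `J' := J / M'`, `M'` the Hecke-submodule generated by `(σ - 1) x`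
(`σ` in inertia) and `(φ² - T_ℓ φ + ℓ) x`.
-/

set_option autoImplicit false
set_option linter.style.haveILetI false
set_option linter.unusedVariables false

namespace Fermat.Agent.S37W

open ModularCurve

noncomputable section

/-- Conjugating an inertia element by a decomposition element stays in inertia. -/
theorem S37W_conj_mem_inertia {L : Type*} [Field L] (K : Type*) [Field K] [Algebra K L]
    (A : ValuationSubring L) {σ φ : L ≃ₐ[K] L} (hσ : σ ∈ A.inertiaSubgroupIn K)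
    (hφ : φ ∈ A.decompositionSubgroup K) : φ * σ * φ⁻¹ ∈ A.inertiaSubgroupIn K := by
  obtain ⟨s, hs, rfl⟩ := hσ
  haveI : (A.inertiaSubgroup K).Normal := by
    unfold ValuationSubring.inertiaSubgroup
    infer_instance
  refine ⟨(⟨φ, hφ⟩ : A.decompositionSubgroup K) * s * (⟨φ, hφ⟩ : A.decompositionSubgroup K)⁻¹,
    ?_, rfl⟩
  exact Subgroup.Normal.conj_mem inferInstance s hs _

/-- Two Frobenius elements at `A` differ by an element of inertia. -/
theorem S37W_frob_mul_inv_mem_inertia {L : Type*} [Field L] (K : Type*) [Field K] [Algebra K L]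
    (A : ValuationSubring L) {σ φ : L ≃ₐ[K] L} {q : ℕ} (hσ : A.IsFrobeniusAt σ q)
    (hφ : A.IsFrobeniusAt φ q) : σ * φ⁻¹ ∈ A.inertiaSubgroupIn K := by
  obtain ⟨hσd, hσr⟩ := hσ
  obtain ⟨hφd, hφr⟩ := hφ
  refine ⟨(⟨σ, hσd⟩ : A.decompositionSubgroup K) * (⟨φ, hφd⟩ : A.decompositionSubgroup K)⁻¹,
    ?_, rfl⟩
  unfold ValuationSubring.inertiaSubgroup
  rw [SetLike.mem_coe, MonoidHom.mem_ker]
  ext x
  show ((⟨σ, hσd⟩ : A.decompositionSubgroup K) * (⟨φ, hφd⟩ : A.decompositionSubgroup K)⁻¹) • x = x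
  rw [mul_smul]
  set y := (⟨φ, hφd⟩ : A.decompositionSubgroup K)⁻¹ • x with hy
  have hx : x = (⟨φ, hφd⟩ : A.decompositionSubgroup K) • y := by
    rw [hy, smul_inv_smul]
  rw [hσr y, hx, hφr y]

section Wrapper

variable (N p : ℕ) [NeZero N]

local notation "Qb" => AlgebraicClosure ℚ
local notation "GQ" => (AlgebraicClosure ℚ ≃ₐ[ℚ] AlgebraicClosure ℚ)

/-- The generating set of the universal kernel. -/
def S37W_gens (A : ValuationSubring Qb) (ℓ : ℕ) (hℓ : ℓ.Prime) (φ : GQ) : Set (JZero N) :=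
  letI := heckeModuleBar N
  {y | (∃ σ ∈ A.inertiaSubgroupIn ℚ, ∃ x : JZero N, y = σ • x - x) ∨
    (∃ x : JZero N, y = φ • φ • x - heckeGen ⟨ℓ, hℓ⟩ • (φ • x) + ℓ • x)}

set_option maxHeartbeats 2000000 in
theorem S37W_specializationExists_of_red
    (hcomm : HeckeOperatorsCommuteBar N)
    (hsmul : letI := heckeModuleBar N; SMulCommClass GQ HeckeAlg (JZero N))
    (H : ∀ ℓ : ℕ, (hℓ : ℓ.Prime) → ¬ ℓ ∣ N * p → ∀ A : ValuationSubring Qb, A.LiesOverPrime ℓ →
      ∃ (G : Type) (_ : AddCommGroup G) (red : JZero N →+ G),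
        (∀ σ ∈ A.inertiaSubgroupIn ℚ, ∀ x : JZero N, red (σ • x) = red x) ∧
        (∀ σ : GQ, A.IsFrobeniusAt σ ℓ → ∀ x : JZero N,
            red (σ • σ • x) - red (heckeOperatorBar N ⟨ℓ, hℓ⟩ (σ • x)) + ℓ • red x = 0) ∧
        (∀ x : JZero N, (∃ n : ℕ, p ^ n • x = 0) → red x = 0 → x = 0)) :
    letI := heckeModuleBar N
    SpecializationExists (K := ℚ) (L := Qb) N p (JZero N) := by
  letI := heckeModuleBar N
  haveI : SMulCommClass GQ HeckeAlg (JZero N) := hsmul
  haveI : SMulCommClass HeckeAlg GQ (JZero N) := SMulCommClass.symm _ _ _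
  intro ℓ hℓ hℓNp A hA
  obtain ⟨G, instG, red, h1, h2, h3⟩ := H ℓ hℓ hℓNp A hA
  obtain ⟨φ, hφ⟩ := Fermat.Agent.S37FROB.S37FROB_exists_isFrobeniusAt A ℓ hℓ hA
  have hφd : φ ∈ A.decompositionSubgroup ℚ := hφ.mem_decompositionSubgroup
  have hφn : ∀ (n : ℕ) (x : JZero N), φ • (n • x) = n • (φ • x) := fun n x =>
    map_nsmul (DistribSMul.toAddMonoidHom (JZero N) φ) n x
  have hTn : ∀ (T : HeckeAlg) (n : ℕ) (x : JZero N), T • (n • x) = n • (T • x) := fun T n x =>
    smul_comm T n x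
  set S : Set (JZero N) := S37W_gens N A ℓ hℓ φ with hS
  set M : Submodule HeckeAlg (JZero N) := Submodule.span HeckeAlg S with hM
  -- S is stable under the Hecke algebra
  have hST : ∀ (T : HeckeAlg) (y : JZero N), y ∈ S → T • y ∈ S := by
    rintro T y (⟨σ, hσ, x, rfl⟩ | ⟨x, rfl⟩)
    · left
      refine ⟨σ, hσ, T • x, ?_⟩
      rw [smul_sub, smul_comm T σ x]
    · right
      refine ⟨T • x, ?_⟩
      rw [smul_add, smul_sub, smul_comm T φ (φ • x), smul_comm T φ x,
        smul_comm T (heckeGen ⟨ℓ, hℓ⟩) (φ • x), smul_comm T φ x, hTn]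
  -- S is stable under φ
  have hSφ : ∀ y : JZero N, y ∈ S → φ • y ∈ S := by
    rintro y (⟨σ, hσ, x, rfl⟩ | ⟨x, rfl⟩)
    · left
      refine ⟨φ * σ * φ⁻¹, S37W_conj_mem_inertia ℚ A hσ hφd, φ • x, ?_⟩
      rw [smul_sub, mul_smul, mul_smul, inv_smul_smul]
    · right
      refine ⟨φ • x, ?_⟩
      rw [smul_add, smul_sub, smul_comm φ (heckeGen ⟨ℓ, hℓ⟩) (φ • x), hφn]
  -- red kills M
  have hredS : ∀ y : JZero N, y ∈ S → red y = 0 := by
    rintro y (⟨σ, hσ, x, rfl⟩ | ⟨x, rfl⟩)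
    · rw [map_sub, h1 σ hσ x, sub_self]
    · have h := h2 φ hφ x
      have e : (heckeGen ⟨ℓ, hℓ⟩ : HeckeAlg) • (φ • x) = heckeOperatorBar N ⟨ℓ, hℓ⟩ (φ • x) :=
        heckeModuleBar_heckeGen_smul hcomm ⟨ℓ, hℓ⟩ (φ • x)
      rw [map_add, map_sub, map_nsmul, e]
      exact h
  have hredM : ∀ y : JZero N, y ∈ M → ∀ T : HeckeAlg, red (T • y) = 0 := by
    intro y hy
    induction hy using Submodule.span_induction with
    | mem y hy => exact fun T => hredS _ (hST T y hy)
    | zero => intro T; rw [smul_zero, map_zero]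
    | add y z _ _ hy hz => intro T; rw [smul_add, map_add, hy T, hz T, add_zero]
    | smul c y _ hy => intro T; rw [smul_smul]; exact hy (T * c)
  -- φ preserves M
  let φlin : JZero N →ₗ[HeckeAlg] JZero N := DistribSMul.toLinearMap HeckeAlg (JZero N) φ
  have hφlin : ∀ x, φlin x = φ • x := fun x => rfl
  have hφM : M ≤ M.comap φlin := by
    rw [hM, Submodule.span_le]
    intro y hy
    exact Submodule.subset_span (hSφ y hy)
  let F : (JZero N ⧸ M) →ₗ[HeckeAlg] (JZero N ⧸ M) := M.mapQ M φlin hφM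
  have hF : ∀ z : JZero N, F (Submodule.Quotient.mk z) = Submodule.Quotient.mk (φ • z) :=
    fun z => rfl
  have hmk0 : ∀ z : JZero N, z ∈ S → (Submodule.Quotient.mk z : JZero N ⧸ M) = 0 := fun z hz =>
    (Submodule.Quotient.mk_eq_zero M).mpr (Submodule.subset_span hz)
  refine ⟨JZero N ⧸ M, inferInstance, inferInstance, M.mkQ.toAddMonoidHom, F.toAddMonoidHom,
    ⟨?_, ?_, ?_, ?_⟩, ?_⟩
  · -- hecke_comm
    intro T x
    rfl
  · -- inertia_comm
    intro σ hσ x
    show (Submodule.Quotient.mk (σ • x) : JZero N ⧸ M) = Submodule.Quotient.mk x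
    rw [← sub_eq_zero, ← Submodule.Quotient.mk_sub]
    exact hmk0 _ (Or.inl ⟨σ, hσ, x, rfl⟩)
  · -- frobenius_comm
    intro σ hσ x
    show (Submodule.Quotient.mk (σ • x) : JZero N ⧸ M) = F (Submodule.Quotient.mk x)
    rw [hF, ← sub_eq_zero, ← Submodule.Quotient.mk_sub]
    refine hmk0 _ (Or.inl ⟨σ * φ⁻¹, S37W_frob_mul_inv_mem_inertia ℚ A hσ hφ, φ • x, ?_⟩)
    rw [mul_smul, inv_smul_smul]
  · -- injective_torsion
    intro x hx hspx
    have hxM : x ∈ M := by
      have : (Submodule.Quotient.mk x : JZero N ⧸ M) = 0 := hspx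
      rwa [Submodule.Quotient.mk_eq_zero] at this
    have := hredM x hxM 1
    rw [one_smul] at this
    exact h3 x hx this
  · -- SpecialFibreRelation
    have hsurj : ∀ y : JZero N ⧸ M, ∃ x : JZero N, Submodule.Quotient.mk x = y :=
      Submodule.Quotient.mk_surjective M
    intro y
    obtain ⟨x, hx⟩ := hsurj y
    have e0 : F.toAddMonoidHom (F.toAddMonoidHom y) = Submodule.Quotient.mk (φ • φ • x) := by
      rw [← hx]
      rfl
    have e1 : (heckeGen ⟨ℓ, hℓ⟩ : HeckeAlg) • F.toAddMonoidHom y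
        = Submodule.Quotient.mk ((heckeGen ⟨ℓ, hℓ⟩ : HeckeAlg) • (φ • x)) := by
      rw [← hx]
      rfl
    have e2 : ℓ • y = (Submodule.Quotient.mk (ℓ • x) : JZero N ⧸ M) := by
      rw [← hx]
      exact (map_nsmul M.mkQ ℓ x).symm
    rw [e0, e1, e2, ← Submodule.Quotient.mk_sub, ← Submodule.Quotient.mk_add]
    exact hmk0 _ (Or.inr ⟨x, rfl⟩)

end Wrapper

end

end Fermat.Agent.S37W
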