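import Mathlib
import Fermat.Prelude.Def_ModularCurve_ReductionModL
import Fermat.Prelude.Def_HeckeGalois_EichlerShimura
import Fermat.Agent.S37_helper8_WRAP
import Fermat.Agent.S37_helper21_B2

/-!
# S37 (helper8): final assembly, with the three remaining inputs as hypotheses

* `hRI`  : `ReductionInputsModL A N` for every `ℓ ∤ N`, `A ∣ ℓ`     (block B1);
* `hS18` : the statement S18 (injectivity of the reduction on prime-to-`ℓ` torsion);
* `hEND` : the Eichler–Shimura relation for `red = reductionPic0Along r hr hgen`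
  (abstract endgame, for every place map `r` with `hr`, `hgen`).
Inertia invariance is the landed brick B2 (`S37B2_red_inertia`).
-/

set_option autoImplicit false
set_option linter.style.haveILetI false
set_option linter.unusedVariables false

namespace Fermat.Agent.S37ASM

open ModularCurve AlgebraicCurve

noncomputable section

local notation "Qb" => AlgebraicClosure ℚ
local notation "GQ" => (AlgebraicClosure ℚ ≃ₐ[ℚ] AlgebraicClosure ℚ)

set_option synthInstance.maxHeartbeats 400000 in
set_option maxHeartbeats 1000000 in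
theorem S37ASM_of_inputs (N p : ℕ) [NeZero N] (hcomm : HeckeOperatorsCommuteBar N)
    (hRI : ∀ ℓ : ℕ, ℓ.Prime → ¬ ℓ ∣ N → ∀ A : ValuationSubring Qb, A.LiesOverPrime ℓ →
      ReductionInputsModL A N)
    (hS18 : ∀ ℓ : ℕ, ℓ.Prime → ¬ ℓ ∣ N → ∀ A : ValuationSubring Qb, A.LiesOverPrime ℓ →
      ReductionInputsModL A N → ∀ m : ℕ, ¬ ℓ ∣ m → ∀ z : JZero N, m • z = 0 →
        reductionModL A N z = 0 → z = 0)
    (hEND : ∀ (ℓ : ℕ) (hℓ : ℓ.Prime), ¬ ℓ ∣ N → ∀ A : ValuationSubring Qb, A.LiesOverPrime ℓ →
      ∀ (r : Place Qb (modularFunctionFieldBar N) →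
          Place (IsLocalRing.ResidueField A)
            (modularFunctionFieldFullC (IsLocalRing.ResidueField A) N))
        (hr : IsPlaceReductionAlong A (IsLocalRing.residue A) N r)
        (hgen : PrincipalGeneratedByIntegral A (IsLocalRing.residue A) N)
        (σ : GQ), A.IsFrobeniusAt σ ℓ → ∀ x : JZero N,
          reductionPic0Along r hr hgen (σ • σ • x)
            - reductionPic0Along r hr hgen (heckeOperatorBar N ⟨ℓ, hℓ⟩ (σ • x))
            + ℓ • reductionPic0Along r hr hgen x = 0) :
    letI := heckeModuleBar N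
    ∀ (_ : SMulCommClass GQ HeckeAlg (JZero N)),
      SpecializationExists (K := ℚ) (L := Qb) N p (JZero N) := by
  letI := heckeModuleBar N
  intro hsmul
  refine Fermat.Agent.S37W.S37W_specializationExists_of_red N p hcomm hsmul ?_
  intro ℓ hℓ hℓNp A hA
  have hℓN : ¬ ℓ ∣ N := fun h => hℓNp (Dvd.dvd.mul_right h p)
  have hℓp : ¬ ℓ ∣ p := fun h => hℓNp (Dvd.dvd.mul_left h N)
  have h := hRI ℓ hℓ hℓN A hA
  have hred : reductionModL A N =
      reductionPic0Along h.choose h.choose_spec.1 h.choose_spec.2 := reductionAlong_eq h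
  refine ⟨JZeroC (IsLocalRing.ResidueField A) N, inferInstance, reductionModL A N, ?_, ?_, ?_⟩
  · intro σ hσ x
    rw [hred]
    exact Fermat.Agent.S37_helper21_B2.S37B2_red_inertia h.choose_spec.1 h.choose_spec.2 σ hσ x
  · intro σ hσ x
    rw [hred]
    exact hEND ℓ hℓ hℓN A hA h.choose h.choose_spec.1 h.choose_spec.2 σ hσ x
  · rintro x ⟨n, hn⟩ hx
    refine hS18 ℓ hℓ hℓN A hA h (p ^ n) ?_ x hn hx
    intro hd
    exact hℓp (hℓ.dvd_of_dvd_pow hd)

end

end Fermat.Agent.S37ASM
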