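import Mathlib
import Fermat.Agent.S37_helper8_ASM

/-!
# S37 (helper8): the Eichler–Shimura relations on `J₀(N)[p^∞]`, without the Hecke module

For `ℓ ∤ N p`, `A ∣ ℓ` and `x ∈ J₀(N)` killed by a power of `p`:
* inertia at `A` fixes `x`;
* every Frobenius element `σ` at `A` satisfies `σ² x - T_ℓ σ x + ℓ x = 0`
  (`T_ℓ = heckeOperatorBar N ℓ`).
The inputs are the same three hypotheses as in `S37ASM_of_inputs`; neither `heckeModuleBar`
nor the commutativity of the Hecke operators is used.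
-/

set_option autoImplicit false
set_option linter.style.haveILetI false
set_option linter.unusedVariables false

namespace Fermat.Agent.S37ESJ

open ModularCurve AlgebraicCurve

noncomputable section

local notation "Qb" => AlgebraicClosure ℚ
local notation "GQ" => (AlgebraicClosure ℚ ≃ₐ[ℚ] AlgebraicClosure ℚ)

set_option synthInstance.maxHeartbeats 400000 in
set_option maxHeartbeats 1000000 in
theorem S37ESJ_relations (N p : ℕ) [NeZero N]
    (hRI : ∀ ℓ : ℕ, ℓ.Prime → ¬ ℓ ∣ N → ∀ A : ValuationSubring Qb, A.LiesOverPrime ℓ →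
      ReductionInputsModL A N)
    (hS18 : ∀ ℓ : ℕ, ℓ.Prime → ¬ ℓ ∣ N → ∀ A : ValuationSubring Qb, A.LiesOverPrime ℓ →
      ReductionInputsModL A N → ∀ m : ℕ, ¬ ℓ ∣ m → ∀ z : JZero N, m • z = 0 →
        reductionModL A N z = 0 → z = 0)
    (hEND : ∀ (ℓ : ℕ) (hℓ : ℓ.Prime), ¬ ℓ ∣ N → ∀ A : ValuationSubring Qb, A.LiesOverPrime ℓ →
      ∀ (r : Place Qb (modularFunctionFieldBar N) →
          Place (IsLocalRing.ResidueField A)
            (modularFunctionFieldFullC (IsLocalRing.ResidueField A) N))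
        (hr : IsPlaceReductionAlong A (IsLocalRing.residue A) N r)
        (hgen : PrincipalGeneratedByIntegral A (IsLocalRing.residue A) N)
        (σ : GQ), A.IsFrobeniusAt σ ℓ → ∀ x : JZero N,
          reductionPic0Along r hr hgen (σ • σ • x)
            - reductionPic0Along r hr hgen (heckeOperatorBar N ⟨ℓ, hℓ⟩ (σ • x))
            + ℓ • reductionPic0Along r hr hgen x = 0)
    (ℓ : ℕ) (hℓ : ℓ.Prime) (hℓNp : ¬ ℓ ∣ N * p) (A : ValuationSubring Qb)
    (hA : A.LiesOverPrime ℓ) (x : JZero N) (n : ℕ) (hx : p ^ n • x = 0) :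
    (∀ σ ∈ A.inertiaSubgroupIn ℚ, σ • x = x) ∧
      ∀ σ : GQ, A.IsFrobeniusAt σ ℓ →
        σ • σ • x - heckeOperatorBar N ⟨ℓ, hℓ⟩ (σ • x) + ℓ • x = 0 := by
  have hℓN : ¬ ℓ ∣ N := fun h => hℓNp (Dvd.dvd.mul_right h p)
  have hℓp : ¬ ℓ ∣ p := fun h => hℓNp (Dvd.dvd.mul_left h N)
  have hℓpn : ¬ ℓ ∣ p ^ n := fun hd => hℓp (hℓ.dvd_of_dvd_pow hd)
  have h := hRI ℓ hℓ hℓN A hA
  have hred : reductionModL A N =
      reductionPic0Along h.choose h.choose_spec.1 h.choose_spec.2 := reductionAlong_eq h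
  have hσn : ∀ (σ : GQ) (m : ℕ) (y : JZero N), σ • (m • y) = m • (σ • y) := fun σ m y =>
    map_nsmul (DistribSMul.toAddMonoidHom (JZero N) σ) m y
  have hσ0 : ∀ σ : GQ, σ • (0 : JZero N) = 0 := fun σ =>
    map_zero (DistribSMul.toAddMonoidHom (JZero N) σ)
  have hσx : ∀ σ : GQ, p ^ n • (σ • x) = 0 := fun σ => by rw [← hσn, hx, hσ0]
  constructor
  · intro σ hσ
    have h1 : reductionModL A N (σ • x - x) = 0 := by
      rw [map_sub, hred,
        Fermat.Agent.S37_helper21_B2.S37B2_red_inertia h.choose_spec.1 h.choose_spec.2 σ hσ x,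
        sub_self]
    have h2 : p ^ n • (σ • x - x) = 0 := by rw [nsmul_sub, hσx, hx, sub_zero]
    exact sub_eq_zero.mp (hS18 ℓ hℓ hℓN A hA h (p ^ n) hℓpn _ h2 h1)
  · intro σ hσ
    have h1 : reductionModL A N (σ • σ • x - heckeOperatorBar N ⟨ℓ, hℓ⟩ (σ • x) + ℓ • x) = 0 := by
      rw [map_add, map_sub, map_nsmul, hred]
      exact hEND ℓ hℓ hℓN A hA h.choose h.choose_spec.1 h.choose_spec.2 σ hσ x
    have h2 : p ^ n • (σ • σ • x - heckeOperatorBar N ⟨ℓ, hℓ⟩ (σ • x) + ℓ • x) = 0 := by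
      rw [nsmul_add, nsmul_sub, ← hσn σ (p ^ n) (σ • x), hσx, hσ0,
        ← map_nsmul (heckeOperatorBar N ⟨ℓ, hℓ⟩), hσx, map_zero, nsmul_left_comm, hx, nsmul_zero,
        sub_zero, zero_add]
    exact hS18 ℓ hℓ hℓN A hA h (p ^ n) hℓpn _ h2 h1

end

end Fermat.Agent.S37ESJ
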