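import Mathlib
import Fermat.Agent.S37_helper8_K1c
import Fermat.Prelude.Def_ModularCurve_ReductionModL

/-!
# S37 preparation (helper8), piece K2: reduction of the norm product formula

For `A ∣ ℓ` a valuation subring of `ℚ̄`, `ℓ ∤ N`, and `y ∈ A((q))` with `y ∈ F_N`:
`Nm_{F_{Nℓ}/F_N}(y(q^ℓ))` has coefficients in `A` and reduces to `ȳ^σ(q) · ȳ(q^ℓ)`
(`σ` = coefficientwise Frobenius) — the Eichler–Shimura congruence on the level of functions.
-/

set_option autoImplicit false
set_option linter.unusedSectionVars false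
set_option linter.unusedVariables false
set_option linter.style.haveILetI false

open Fermat.Agent.S24 Fermat.Agent.S24_helper16_B
open ModularCurve

namespace Fermat.Agent.S37K2

noncomputable section

/-! ### `ℓ`-th powers of Laurent series in characteristic `ℓ` -/

theorem S37K2_qExpand_ofPowerSeries {R : Type*} [CommRing R] (n : ℕ) [NeZero n]
    (P : PowerSeries R) :
    qExpand R n (HahnSeries.ofPowerSeries ℤ R P) =
      HahnSeries.ofPowerSeries ℤ R (PowerSeries.expand n (NeZero.ne n) P) := by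
  have hn : (0 : ℤ) < n := by exact_mod_cast Nat.pos_of_ne_zero (NeZero.ne n)
  ext m
  rcases lt_or_ge m 0 with hm | hm
  · rw [ofPowerSeries_coeff_of_neg _ hm]
    by_cases hd : (n : ℤ) ∣ m
    · obtain ⟨m', rfl⟩ := hd
      rw [qExpand_coeff_mul]
      apply ofPowerSeries_coeff_of_neg
      by_contra h
      rw [not_lt] at h
      have := mul_nonneg hn.le h
      omega
    · exact qExpand_coeff_of_not_dvd n _ hd
  · obtain ⟨m₀, rfl⟩ := Int.eq_ofNat_of_zero_le hm
    rw [HahnSeries.ofPowerSeries_apply_coeff, PowerSeries.coeff_expand]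
    split_ifs with hd
    · obtain ⟨c, rfl⟩ := hd
      rw [Nat.mul_div_cancel_left _ (Nat.pos_of_ne_zero (NeZero.ne n))]
      have : ((n * c : ℕ) : ℤ) = (n : ℤ) * (c : ℤ) := by push_cast; ring
      rw [this, qExpand_coeff_mul, HahnSeries.ofPowerSeries_apply_coeff]
    · apply qExpand_coeff_of_not_dvd
      intro h
      exact hd (by exact_mod_cast h)

theorem S37K2_pow_char (k : Type*) [Field k] (ℓ : ℕ) [NeZero ℓ] [ExpChar k ℓ]
    (w : LaurentSeries k) :
    w ^ ℓ = qExpand k ℓ (coeffMap (frobenius k ℓ) w) := by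
  have h1 : (HahnSeries.single w.order (1 : k)) ^ ℓ =
      qExpand k ℓ (coeffMap (frobenius k ℓ) (HahnSeries.single w.order (1 : k))) := by
    rw [HahnSeries.single_pow, one_pow, coeffMap_single, RingHom.map_one (frobenius k ℓ),
      qExpand_single, nsmul_eq_mul]
  have h2 : (HahnSeries.ofPowerSeries ℤ k (LaurentSeries.powerSeriesPart w)) ^ ℓ =
      qExpand k ℓ (coeffMap (frobenius k ℓ)
        (HahnSeries.ofPowerSeries ℤ k (LaurentSeries.powerSeriesPart w))) := by
    rw [coeffMap_ofPowerSeries, S37K2_qExpand_ofPowerSeries, ← map_pow]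
    congr 1
    have h := MvPowerSeries.map_frobenius_expand (σ := Unit) ℓ (NeZero.ne ℓ)
      (f := (LaurentSeries.powerSeriesPart w : PowerSeries k))
    rw [← PowerSeries.map_expand]
    exact h.symm
  conv_lhs => rw [← LaurentSeries.single_order_mul_powerSeriesPart w]
  conv_rhs => rw [← LaurentSeries.single_order_mul_powerSeriesPart w]
  rw [mul_pow, map_mul, map_mul, ← h1, ← h2]

/-! ### lifting Laurent series with coefficients in a valuation subring -/

section Lift

variable {K : Type*} [Field K] (A : ValuationSubring K)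

/-- a Laurent series over `K` with coefficients in `A`, as a Laurent series over `A` -/
def S37K2_lift (X : LaurentSeries K) (h : ∀ n, X.coeff n ∈ A) : LaurentSeries A :=
  ⟨fun n => ⟨X.coeff n, h n⟩, by
    have : Function.support (fun n => (⟨X.coeff n, h n⟩ : A)) = X.support := by
      ext n
      simp only [Function.mem_support, ne_eq, HahnSeries.mem_support]
      rw [not_iff_not]
      exact ⟨fun h0 => congrArg Subtype.val h0, fun h0 => Subtype.ext h0⟩
    rw [this]
    exact X.isPWO_support⟩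

theorem S37K2_lift_coeff (X : LaurentSeries K) (h : ∀ n, X.coeff n ∈ A) (n : ℤ) :
    (S37K2_lift A X h).coeff n = ⟨X.coeff n, h n⟩ := rfl

theorem S37K2_coeffMap_lift (X : LaurentSeries K) (h : ∀ n, X.coeff n ∈ A) :
    coeffMap A.subtype (S37K2_lift A X h) = X := by
  ext n
  rfl

theorem S37K2_coeffMap_subtype_injective : Function.Injective (coeffMap A.subtype) := by
  intro x y h
  ext n
  have h2 := congrArg (fun z => z.coeff n) h
  simp only [coeffMap_coeff] at h2
  exact congrArg Subtype.val (Subtype.ext h2)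

theorem S37K2_coeff_mem (x : LaurentSeries A) (n : ℤ) : (coeffMap A.subtype x).coeff n ∈ A := by
  rw [coeffMap_coeff]
  exact (x.coeff n).2

/-- a root of unity lies in every valuation subring -/
theorem S37K2_mem_of_pow_eq_one (ζ : K) (n : ℕ) (hn : 0 < n) (h : ζ ^ n = 1) : ζ ∈ A := by
  rcases A.mem_or_inv_mem ζ with h1 | h1
  · exact h1
  · have h2 : ζ = (ζ⁻¹) ^ (n - 1) := by
      have hζ : ζ ≠ 0 := by
        rintro rfl
        rw [zero_pow hn.ne'] at h
        exact zero_ne_one h
      have h3 : ζ * ζ ^ (n - 1) = 1 := by rw [← pow_succ', Nat.sub_add_cancel hn, h]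
      rw [inv_pow]
      exact eq_inv_of_mul_eq_one_left h3
    rw [h2]
    exact pow_mem h1 _

/-- a root of unity as a unit of the valuation subring -/
def S37K2_unit (ζ : Kˣ) (n : ℕ) (hn : 0 < n) (h : ζ ^ n = 1) : Aˣ :=
  ⟨⟨(ζ : K), S37K2_mem_of_pow_eq_one A ζ n hn (by rw [← Units.val_pow_eq_pow_val, h]; rfl)⟩,
    ⟨((ζ⁻¹ : Kˣ) : K), S37K2_mem_of_pow_eq_one A _ n hn
      (by rw [← Units.val_pow_eq_pow_val, inv_pow, h]; simp)⟩,
    Subtype.ext (by simp), Subtype.ext (by simp)⟩

theorem S37K2_unit_val (ζ : Kˣ) (n : ℕ) (hn : 0 < n) (h : ζ ^ n = 1) :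
    Units.map (A.subtype : A →* K) (S37K2_unit A ζ n hn h) = ζ :=
  Units.ext rfl

end Lift

/-! ### the residue field has characteristic `ℓ` -/

theorem S37K2_expChar {K : Type*} [Field K] (A : ValuationSubring K) (ℓ : ℕ) (hℓ : ℓ.Prime)
    (hA : A.LiesOverPrime ℓ) : ExpChar (IsLocalRing.ResidueField A) ℓ := by
  have h0 : ((ℓ : ℕ) : IsLocalRing.ResidueField A) = 0 := by
    have hmem : (ℓ : K) ∈ A := A.nonunits_subset hA
    have h1 : (⟨(ℓ : K), hmem⟩ : A) ∈ IsLocalRing.maximalIdeal A := by
      rw [IsLocalRing.mem_maximalIdeal, mem_nonunits_iff]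
      intro hu
      have h2 : (ℓ : K) ∈ A.nonunits := hA
      rw [ValuationSubring.mem_nonunits_iff_exists_mem_maximalIdeal] at h2
      obtain ⟨ha, h3⟩ := h2
      exact (IsLocalRing.mem_maximalIdeal _).mp h3 hu
    have h4 : IsLocalRing.residue A ⟨(ℓ : K), hmem⟩ = 0 :=
      (IsLocalRing.residue_eq_zero_iff _).mpr h1
    have h5 : (⟨(ℓ : K), hmem⟩ : A) = ((ℓ : ℕ) : A) := Subtype.ext (by simp)
    rw [h5, map_natCast] at h4
    exact h4
  haveI : CharP (IsLocalRing.ResidueField A) ℓ := by
    have := CharP.ringChar_of_prime_eq_zero hℓ h0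
    exact ringChar.of_eq this
  exact ExpChar.prime hℓ

theorem S37K2_eq_one_of_pow_eq_one {k : Type*} [Field k] (ℓ : ℕ) [ExpChar k ℓ] (hℓ : ℓ.Prime)
    (u : k) (h : u ^ ℓ = 1) : u = 1 := by
  have h1 : (u - 1) ^ ℓ = 0 := by
    rw [sub_pow_expChar, h, one_pow, sub_self]
  have h2 := pow_eq_zero_iff (hℓ.ne_zero) |>.mp h1
  exact sub_eq_zero.mp h2

/-! ### K2 -/

set_option synthInstance.maxHeartbeats 400000 in
set_option maxHeartbeats 2000000 in
/-- **K2: reduction of the norm product formula.** -/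
theorem S37K2_reduction (N ℓ : ℕ) [NeZero N] [NeZero ℓ] (hℓp : ℓ.Prime) (hℓN : ¬ ℓ ∣ N)
    (A : ValuationSubring Kbar) [ExpChar (IsLocalRing.ResidueField A) ℓ]
    (y : LaurentSeries A) (hy : coeffMap A.subtype y ∈ modularFunctionFieldBar N) :
    ∃ z : LaurentSeries A,
      (letI := AlgebraicCurve.algebraAlong (heckeAlphaBar Kbar N ℓ)
       coeffMap A.subtype z = ((Algebra.norm (modularFunctionFieldBar N)
          (heckeBetaBar Kbar N ℓ ⟨_, hy⟩) : modularFunctionFieldBar N) : LaurentSeries Kbar)) ∧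
      coeffMap (IsLocalRing.residue A) z =
        coeffMap (frobenius (IsLocalRing.ResidueField A) ℓ) (coeffMap (IsLocalRing.residue A) y) *
          qExpand (IsLocalRing.ResidueField A) ℓ (coeffMap (IsLocalRing.residue A) y) := by
  obtain ⟨ζ, hζ, hK1⟩ := Fermat.Agent.S37K1.S37K1_norm_qexp N ℓ hℓp hℓN
  have hK1y := hK1 ⟨_, hy⟩
  set Nm : LaurentSeries Kbar :=
    letI := AlgebraicCurve.algebraAlong (heckeAlphaBar Kbar N ℓ)
    ((Algebra.norm (modularFunctionFieldBar N)
          (heckeBetaBar Kbar N ℓ ⟨_, hy⟩) : modularFunctionFieldBar N) : LaurentSeries Kbar)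
    with hNm
  change qExpand Kbar ℓ Nm = qExpand Kbar (ℓ * ℓ) (coeffMap A.subtype y) *
    ∏ b ∈ Finset.range ℓ, lsScale (ζ ^ b) (coeffMap A.subtype y) at hK1y
  have hℓ0 : 0 < ℓ := hℓp.pos
  set u : Aˣ := S37K2_unit A ζ ℓ hℓ0 hζ.pow_eq_one with hu
  have huζ : Units.map (A.subtype : A →* Kbar) u = ζ := S37K2_unit_val A ζ ℓ hℓ0 hζ.pow_eq_one
  have hures : Units.map (IsLocalRing.residue A : A →* IsLocalRing.ResidueField A) u = 1 := by
    apply Units.ext
    apply S37K2_eq_one_of_pow_eq_one ℓ hℓp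
    have h1 : u ^ ℓ = 1 := by
      apply Units.map_injective (f := (A.subtype : A →* Kbar)) A.subtype_injective
      rw [map_pow, huζ, hζ.pow_eq_one, map_one]
    rw [← Units.val_pow_eq_pow_val, ← map_pow, h1, map_one, Units.val_one]
  -- the factors
  have hcoeff : ∀ (b : ℕ) (n : ℤ), (lsScale (ζ ^ b) (coeffMap A.subtype y)).coeff n =
      (((((u ^ b) ^ n : Aˣ) : A) * y.coeff n : A) : Kbar) := by
    intro b n
    rw [coeff_lsScale, coeffMap_coeff, ← huζ, ← map_pow, ← map_zpow]
    rfl
  have hmem : ∀ (b : ℕ) (n : ℤ), (lsScale (ζ ^ b) (coeffMap A.subtype y)).coeff n ∈ A := by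
    intro b n
    rw [hcoeff]
    exact Subtype.property _
  set yb : ℕ → LaurentSeries A := fun b =>
    S37K2_lift A (lsScale (ζ ^ b) (coeffMap A.subtype y)) (hmem b) with hyb
  have hyb_sub : ∀ b, coeffMap A.subtype (yb b) = lsScale (ζ ^ b) (coeffMap A.subtype y) :=
    fun b => S37K2_coeffMap_lift A _ _
  have hyb_res : ∀ b, coeffMap (IsLocalRing.residue A) (yb b) =
      coeffMap (IsLocalRing.residue A) y := by
    intro b
    ext n
    rw [coeffMap_coeff, coeffMap_coeff]
    have h1 : (yb b).coeff n = (((u ^ b) ^ n : Aˣ) : A) * y.coeff n :=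
      Subtype.ext (hcoeff b n)
    rw [h1, map_mul]
    have h2 : IsLocalRing.residue A (((u ^ b) ^ n : Aˣ) : A) = 1 := by
      have h3 : Units.map (IsLocalRing.residue A : A →* IsLocalRing.ResidueField A)
          ((u ^ b) ^ n) = 1 := by
        rw [map_zpow, map_pow, hures, one_pow, one_zpow]
      exact congrArg Units.val h3
    rw [h2, one_mul]
  set W : LaurentSeries A := qExpand A (ℓ * ℓ) y * ∏ b ∈ Finset.range ℓ, yb b with hW
  have hW_sub : coeffMap A.subtype W = qExpand Kbar ℓ Nm := by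
    rw [hK1y, hW, map_mul, map_prod, coeffMap_qExpand,
      Finset.prod_congr rfl (fun b _ => hyb_sub b)]
  have hW_res : coeffMap (IsLocalRing.residue A) W =
      qExpand (IsLocalRing.ResidueField A) ℓ
        (qExpand (IsLocalRing.ResidueField A) ℓ (coeffMap (IsLocalRing.residue A) y) *
          coeffMap (frobenius (IsLocalRing.ResidueField A) ℓ)
            (coeffMap (IsLocalRing.residue A) y)) := by
    rw [hW, map_mul, map_prod, coeffMap_qExpand, Finset.prod_congr rfl (fun b _ => hyb_res b),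
      Finset.prod_const, Finset.card_range, S37K2_pow_char, map_mul, qExpand_qExpand]
  -- the norm has coefficients in `A`
  have hNm_mem : ∀ n, Nm.coeff n ∈ A := by
    intro n
    have h1 : Nm.coeff n = (qExpand Kbar ℓ Nm).coeff ((ℓ : ℤ) * n) := (qExpand_coeff_mul ℓ Nm n).symm
    rw [h1, ← hW_sub]
    exact S37K2_coeff_mem A W _
  refine ⟨S37K2_lift A Nm hNm_mem, S37K2_coeffMap_lift A Nm hNm_mem, ?_⟩
  have hz : qExpand A ℓ (S37K2_lift A Nm hNm_mem) = W := by
    apply S37K2_coeffMap_subtype_injective A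
    rw [coeffMap_qExpand, S37K2_coeffMap_lift, hW_sub]
  have h2 : qExpand (IsLocalRing.ResidueField A) ℓ
      (coeffMap (IsLocalRing.residue A) (S37K2_lift A Nm hNm_mem)) =
      coeffMap (IsLocalRing.residue A) W := by
    rw [← coeffMap_qExpand, hz]
  rw [hW_res] at h2
  rw [qExpand_injective (R := IsLocalRing.ResidueField A) ℓ h2, mul_comm]

/-! ### coefficientwise maps preserve the function field -/

theorem S37K2_coeffMap_mem_fullC {k k' : Type*} [Field k] [Field k'] (τ : k →+* k') (N : ℕ)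
    [NeZero N] (x : LaurentSeries k) (hx : x ∈ modularFunctionFieldFullC k N) :
    coeffMap τ x ∈ modularFunctionFieldFullC k' N := by
  unfold modularFunctionFieldFullC at hx
  induction hx using IntermediateField.adjoin_induction with
  | mem y hy =>
    obtain ⟨d, hd0, hd, rfl⟩ := hy
    rw [coeffMap_qExpand, coeffMap_jqModC]
    exact jqModCd_mem_full k' N hd
  | algebraMap a =>
    rw [algebraMap_laurentSeries_eq_single, coeffMap_single,
      ← algebraMap_laurentSeries_eq_single]
    exact (modularFunctionFieldFullC k' N).algebraMap_mem _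
  | add x y _ _ h1 h2 => rw [map_add]; exact add_mem h1 h2
  | inv x _ h => rw [map_inv₀]; exact inv_mem h
  | mul x y _ _ h1 h2 => rw [map_mul]; exact mul_mem h1 h2

theorem S37K2_coeffMap_injective {k k' : Type*} [Field k] [Field k'] (τ : k →+* k') :
    Function.Injective (coeffMap τ) := by
  intro x y h
  ext n
  have h2 := congrArg (fun z => z.coeff n) h
  simp only [coeffMap_coeff] at h2
  exact τ.injective h2

/-! ### the residue field is perfect -/

/-- the residue field of a valuation subring of an algebraically closed field has all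
`n`-th roots -/
theorem S37K2_exists_pow_eq_residue {K : Type*} [Field K] [IsAlgClosed K]
    (A : ValuationSubring K) (n : ℕ) (hn : 0 < n) (c : IsLocalRing.ResidueField A) :
    ∃ d : IsLocalRing.ResidueField A, d ^ n = c := by
  obtain ⟨a, rfl⟩ := IsLocalRing.residue_surjective c
  obtain ⟨x, hx⟩ := IsAlgClosed.exists_pow_nat_eq (a : K) hn
  have hxA : x ∈ A := by
    rcases A.mem_or_inv_mem x with h | h
    · exact h
    · by_cases hx0 : x = 0
      · rw [hx0]; exact A.zero_mem
      · have h1 : x = x⁻¹ ^ (n - 1) * x ^ n := by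
          obtain ⟨m, rfl⟩ : ∃ m, n = m + 1 := ⟨n - 1, by omega⟩
          simp only [Nat.add_sub_cancel]
          rw [pow_succ, ← mul_assoc, ← mul_pow, inv_mul_cancel₀ hx0, one_pow, one_mul]
        rw [h1]
        have h2 : x ^ n ∈ A := by rw [hx]; exact a.2
        exact A.mul_mem _ _ (pow_mem h _) h2
  refine ⟨IsLocalRing.residue A ⟨x, hxA⟩, ?_⟩
  rw [← map_pow]
  congr 1
  exact Subtype.ext hx

theorem S37K2_perfectRing {K : Type*} [Field K] [IsAlgClosed K] (A : ValuationSubring K)
    (ℓ : ℕ) (hℓ : ℓ.Prime) [ExpChar (IsLocalRing.ResidueField A) ℓ] :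
    PerfectRing (IsLocalRing.ResidueField A) ℓ :=
  PerfectRing.ofSurjective _ ℓ (fun c => S37K2_exists_pow_eq_residue A ℓ hℓ.pos c)

/-- in a perfect field of characteristic `ℓ`, `w(q^ℓ)` is the `ℓ`-th power of `w^{σ⁻¹}`. -/
theorem S37K2_qExpand_eq_pow (k : Type*) [Field k] (ℓ : ℕ) [NeZero ℓ] [ExpChar k ℓ]
    [PerfectRing k ℓ] (w : LaurentSeries k) :
    qExpand k ℓ w = (coeffMap ((frobeniusEquiv k ℓ).symm : k →+* k) w) ^ ℓ := by
  rw [S37K2_pow_char, coeffMap_coeffMap]
  congr 1
  conv_lhs => rw [← coeffMap_id w]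
  apply coeffMap_congr
  ext c
  show c = frobenius k ℓ ((frobeniusEquiv k ℓ).symm c)
  rw [frobenius_apply_frobeniusEquiv_symm]

end

end Fermat.Agent.S37K2
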