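import Mathlib
import Fermat.Agent.S37_helper8_ASM
import Fermat.Agent.S37_helper8_ESJ
import Fermat.Agent.S37_helper8_K2
import Fermat.Agent.S37_helper15_DEGB
import Fermat.Agent.S37_helper21_END

/-!
# S37 (helper8): the Eichler–Shimura relation, unconditionally in `r`

`S37EP_hEND` discharges the inputs of helper21's abstract endgame `S37END_frobenius_relation`
with K1/K2 (helper8), the char-`ℓ` power identity and `deg β = ℓ + 1` (helper15).
Consequently the frozen statement S37 follows from the two remaining inputs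
`hRI` (block B1: `ReductionInputsModL`) and `hS18` (statement S18): `S37EP_of_RI_S18`.
-/

set_option autoImplicit false
set_option linter.style.haveILetI false
set_option linter.unusedVariables false

namespace Fermat.Agent.S37EP

open ModularCurve AlgebraicCurve

noncomputable section

local notation "Qb" => AlgebraicClosure ℚ
local notation "GQ" => (AlgebraicClosure ℚ ≃ₐ[ℚ] AlgebraicClosure ℚ)

set_option synthInstance.maxHeartbeats 400000 in
set_option maxHeartbeats 2000000 in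
/-- **The Eichler–Shimura relation for every place reduction `r`.** -/
theorem S37EP_hEND (N : ℕ) [NeZero N] (ℓ : ℕ) (hℓ : ℓ.Prime) (hℓN : ¬ ℓ ∣ N)
    (A : ValuationSubring Qb) (hA : A.LiesOverPrime ℓ)
    (r : Place Qb (modularFunctionFieldBar N) →
      Place (IsLocalRing.ResidueField A)
        (modularFunctionFieldFullC (IsLocalRing.ResidueField A) N))
    (hr : IsPlaceReductionAlong A (IsLocalRing.residue A) N r)
    (hgen : PrincipalGeneratedByIntegral A (IsLocalRing.residue A) N)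
    (σ : GQ) (hσ : A.IsFrobeniusAt σ ℓ) (x : JZero N) :
    reductionPic0Along r hr hgen (σ • σ • x)
      - reductionPic0Along r hr hgen (heckeOperatorBar N ⟨ℓ, hℓ⟩ (σ • x))
      + ℓ • reductionPic0Along r hr hgen x = 0 := by
  haveI : NeZero ℓ := ⟨hℓ.ne_zero⟩
  haveI : ExpChar (IsLocalRing.ResidueField A) ℓ := Fermat.Agent.S37K2.S37K2_expChar A ℓ hℓ hA
  have hτf : ∀ τ : IsLocalRing.ResidueField A ≃+* IsLocalRing.ResidueField A,
      (∀ x, τ x = x ^ ℓ) →
        ((τ : IsLocalRing.ResidueField A →+* IsLocalRing.ResidueField A)) =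
          frobenius (IsLocalRing.ResidueField A) ℓ := by
    intro τ hτ
    ext c
    rw [frobenius_def]
    exact hτ c
  refine Fermat.Agent.S37_helper21_END.S37END_frobenius_relation hℓ hr hgen ?_ ?_
    (Fermat.Agent.S37_helper15_DEGB.S37DEGB_finrankAlong_beta N ℓ hℓ hℓN) σ hσ x
  · intro τ hτ y hy
    obtain ⟨z, hz1, hz2⟩ := Fermat.Agent.S37K2.S37K2_reduction N ℓ hℓ hℓN A y hy
    refine ⟨z, hz1, ?_⟩
    rw [hτf τ hτ]
    exact hz2
  · intro τ hτ w
    rw [hτf τ hτ]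
    exact Fermat.Agent.S37K2.S37K2_pow_char _ ℓ w

/-- **S37 from B1 and S18.** -/
theorem S37EP_of_RI_S18 (N p : ℕ) [NeZero N] (hcomm : HeckeOperatorsCommuteBar N)
    (hRI : ∀ ℓ : ℕ, ℓ.Prime → ¬ ℓ ∣ N → ∀ A : ValuationSubring Qb, A.LiesOverPrime ℓ →
      ReductionInputsModL A N)
    (hS18 : ∀ ℓ : ℕ, ℓ.Prime → ¬ ℓ ∣ N → ∀ A : ValuationSubring Qb, A.LiesOverPrime ℓ →
      ReductionInputsModL A N → ∀ m : ℕ, ¬ ℓ ∣ m → ∀ z : JZero N, m • z = 0 →
        reductionModL A N z = 0 → z = 0) :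
    letI := heckeModuleBar N
    ∀ (_ : SMulCommClass GQ HeckeAlg (JZero N)),
      SpecializationExists (K := ℚ) (L := Qb) N p (JZero N) :=
  Fermat.Agent.S37ASM.S37ASM_of_inputs N p hcomm hRI hS18
    (fun ℓ hℓ hℓN A hA r hr hgen σ hσ x => S37EP_hEND N ℓ hℓ hℓN A hA r hr hgen σ hσ x)

/-- The Eichler–Shimura relations on `J₀(N)[p^∞]` from B1 and S18. -/
theorem S37EP_relations (N p : ℕ) [NeZero N]
    (hRI : ∀ ℓ : ℕ, ℓ.Prime → ¬ ℓ ∣ N → ∀ A : ValuationSubring Qb, A.LiesOverPrime ℓ →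
      ReductionInputsModL A N)
    (hS18 : ∀ ℓ : ℕ, ℓ.Prime → ¬ ℓ ∣ N → ∀ A : ValuationSubring Qb, A.LiesOverPrime ℓ →
      ReductionInputsModL A N → ∀ m : ℕ, ¬ ℓ ∣ m → ∀ z : JZero N, m • z = 0 →
        reductionModL A N z = 0 → z = 0)
    (ℓ : ℕ) (hℓ : ℓ.Prime) (hℓNp : ¬ ℓ ∣ N * p) (A : ValuationSubring Qb)
    (hA : A.LiesOverPrime ℓ) (x : JZero N) (n : ℕ) (hx : p ^ n • x = 0) :
    (∀ σ ∈ A.inertiaSubgroupIn ℚ, σ • x = x) ∧
      ∀ σ : GQ, A.IsFrobeniusAt σ ℓ →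
        σ • σ • x - heckeOperatorBar N ⟨ℓ, hℓ⟩ (σ • x) + ℓ • x = 0 :=
  Fermat.Agent.S37ESJ.S37ESJ_relations N p hRI hS18
    (fun ℓ hℓ hℓN A hA r hr hgen σ hσ x => S37EP_hEND N ℓ hℓ hℓN A hA r hr hgen σ hσ x)
    ℓ hℓ hℓNp A hA x n hx

end

end Fermat.Agent.S37EP
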