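import Mathlib
import Fermat.Agent.G_helper29_WDefs
import Fermat.Agent.S18_helper12_TOP
import Fermat.Agent.S37_helper8_ENDPLUG

/-!
# Project G: (E1) from the landed S18 and S37 endgame (helper29)

`PGE1_of_RI`: the Eichler-Shimura relations on `J₀(N)[p]` (`PG_E1_statement N p`) from the single
remaining input of S37, the reduction inputs `ReductionInputsModL A N` (block B1) for all
`ℓ ∤ N` and all places `A` over `ℓ`.
-/

set_option autoImplicit false
set_option linter.style.haveILetI false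
set_option linter.unusedVariables false

open ModularCurve AlgebraicCurve

namespace Fermat.Agent.G_helper29_E1

open Fermat.Agent.G_helper29_WDefs

local notation "Qb" => AlgebraicClosure ℚ
local notation "GQ" => (AlgebraicClosure ℚ ≃ₐ[ℚ] AlgebraicClosure ℚ)

/-- the landed S18, in the shape consumed by the S37 endgame -/
theorem PGE1_S18 (N : ℕ) [NeZero N] :
    ∀ ℓ : ℕ, ℓ.Prime → ¬ ℓ ∣ N → ∀ A : ValuationSubring Qb, A.LiesOverPrime ℓ →
      ReductionInputsModL A N → ∀ m : ℕ, ¬ ℓ ∣ m → ∀ z : JZero N, m • z = 0 →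
        reductionModL A N z = 0 → z = 0 := by
  intro ℓ hℓ hℓN A hA h m hm z hmz hz
  haveI : Fact ℓ.Prime := ⟨hℓ⟩
  exact Fermat.Agent.S18_helper25_FINAL.S18_of_IG N hℓN A hA
    (Fermat.Agent.S18_helper12_TOP.S18TOP_blockB N hℓN A hA) h m hm z hmz hz

/-- **(E1) from block B1.** -/
theorem PGE1_of_RI (N p : ℕ) [NeZero N]
    (hRI : ∀ ℓ : ℕ, ℓ.Prime → ¬ ℓ ∣ N → ∀ A : ValuationSubring Qb, A.LiesOverPrime ℓ →
      ReductionInputsModL A N) :
    PG_E1_statement N p := by
  intro ℓ hℓ hℓNp A hA x hx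
  exact Fermat.Agent.S37EP.S37EP_relations N p hRI (PGE1_S18 N) ℓ hℓ hℓNp A hA x 1
    (by rw [pow_one]; exact hx)

end Fermat.Agent.G_helper29_E1
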