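import Mathlib
import Fermat.Statements.S05

set_option autoImplicit false

namespace Fermat.Agent.S05_helper5_Inertia

open scoped Pointwise

theorem inertia_spec_gen {K L : Type*} [Field K] [Field L] [Algebra K L]
    (A : ValuationSubring L) (σ : L ≃ₐ[K] L)
    (hσ : σ ∈ A.inertiaSubgroupIn K) (x : L) (hx : x ∈ A) :
    σ x ∈ A ∧ σ x - x ∈ A.nonunits := by
  obtain ⟨τ, hτ, rfl⟩ := hσ
  have hcoe : ((τ • (⟨x, hx⟩ : A) : A) : L) = (τ : L ≃ₐ[K] L) x := rfl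
  have hmem : (τ : L ≃ₐ[K] L) x ∈ A := by
    rw [← hcoe]; exact (τ • (⟨x, hx⟩ : A)).2
  refine ⟨hmem, ?_⟩
  have hker : MulSemiringAction.toRingAut (A.decompositionSubgroup K)
      (IsLocalRing.ResidueField A) τ = 1 := hτ
  have h1 : τ • (IsLocalRing.residue A ⟨x, hx⟩) = IsLocalRing.residue A ⟨x, hx⟩ := by
    have := congrArg (fun f => f (IsLocalRing.residue A ⟨x, hx⟩)) hker
    simpa using this
  have h2 : IsLocalRing.residue A (τ • (⟨x, hx⟩ : A)) = IsLocalRing.residue A ⟨x, hx⟩ := by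
    rw [IsLocalRing.ResidueField.residue_smul]; exact h1
  have h3 : (τ • (⟨x, hx⟩ : A)) - ⟨x, hx⟩ ∈ IsLocalRing.maximalIdeal A := by
    rw [← Ideal.Quotient.eq_zero_iff_mem]
    have : IsLocalRing.residue A ((τ • (⟨x, hx⟩ : A)) - ⟨x, hx⟩) = 0 := by
      rw [map_sub, h2, sub_self]
    exact this
  rw [IsLocalRing.mem_maximalIdeal] at h3
  have h4 := (ValuationSubring.coe_mem_nonunits_iff (A := A)).2 h3
  exact h4

theorem inertia_spec (A : ValuationSubring (AlgebraicClosure ℚ))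
    (σ : AlgebraicClosure ℚ ≃ₐ[ℚ] AlgebraicClosure ℚ)
    (hσ : σ ∈ A.inertiaSubgroupIn ℚ) (x : AlgebraicClosure ℚ) (hx : x ∈ A) :
    σ x ∈ A ∧ σ x - x ∈ A.nonunits :=
  inertia_spec_gen A σ hσ x hx

end Fermat.Agent.S05_helper5_Inertia
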