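import Mathlib
import Fermat.Prelude.Def_EllipticCurve_FrobeniusTrace
import Fermat.Prelude.Def_FLTPrelim_Ramification
import Fermat.Agent.S05_helper5_Inertia

/-!
# Project G, piece G12-CYC: the mod `p` cyclotomic character with values in a field of
characteristic `p`

`d : G_ℚ →* kˣ` factors through `Gal(ℚ(ζ_p)/ℚ)`, is trivial on inertia at every `ℓ ≠ p` and
sends every Frobenius element at `ℓ ≠ p` to `ℓ`.
-/

set_option autoImplicit false

open Polynomial

namespace Fermat.Agent.G_helper7_CYC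

noncomputable section

local notation "Qb" => AlgebraicClosure ℚ
local notation "GQ" => (AlgebraicClosure ℚ ≃ₐ[ℚ] AlgebraicClosure ℚ)

/-! ### Valuations of roots of unity -/

section Val

variable {L : Type*} [Field L] (A : ValuationSubring L)

theorem PGCYC_val_eq_one_of_pow_eq_one {x : L} {n : ℕ} (hn : n ≠ 0) (hx : x ^ n = 1) :
    A.valuation x = 1 := by
  have h : A.valuation x ^ n = 1 := by rw [← map_pow, hx, map_one]
  exact (pow_eq_one_iff_of_nonneg zero_le hn).mp h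

theorem PGCYC_val_natCast_le (n : ℕ) : A.valuation (n : L) ≤ 1 :=
  (A.valuation_le_one_iff _).mpr (natCast_mem A n)

theorem PGCYC_val_intCast_le (n : ℤ) : A.valuation (n : L) ≤ 1 :=
  (A.valuation_le_one_iff _).mpr (intCast_mem A n)

/-- If `ℓ` lies in the maximal ideal and `p` is prime to `ℓ`, then `p` is a unit. -/
theorem PGCYC_val_natCast_eq_one {ℓ p : ℕ} (hℓ : A.valuation (ℓ : L) < 1)
    (hcop : Nat.Coprime ℓ p) : A.valuation (p : L) = 1 := by
  refine le_antisymm (PGCYC_val_natCast_le A p) ?_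
  by_contra hlt
  rw [not_le] at hlt
  have hb : (ℓ : ℤ) * Nat.gcdA ℓ p + (p : ℤ) * Nat.gcdB ℓ p = 1 := by
    have := Nat.gcd_eq_gcd_ab ℓ p
    rw [hcop] at this
    exact_mod_cast this.symm
  have h1 : ((ℓ : L) * (Nat.gcdA ℓ p : L) + (p : L) * (Nat.gcdB ℓ p : L)) = 1 := by
    have := congrArg (fun z : ℤ => (z : L)) hb
    simpa using this
  have h2 : A.valuation ((ℓ : L) * (Nat.gcdA ℓ p : L)) < 1 := by
    rw [map_mul]
    calc A.valuation (ℓ : L) * A.valuation ((Nat.gcdA ℓ p : ℤ) : L)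
        ≤ A.valuation (ℓ : L) * 1 := mul_le_mul' le_rfl (PGCYC_val_intCast_le A _)
      _ = A.valuation (ℓ : L) := mul_one _
      _ < 1 := hℓ
  have h3 : A.valuation ((p : L) * (Nat.gcdB ℓ p : L)) < 1 := by
    rw [map_mul]
    calc A.valuation (p : L) * A.valuation ((Nat.gcdB ℓ p : ℤ) : L)
        ≤ A.valuation (p : L) * 1 := mul_le_mul' le_rfl (PGCYC_val_intCast_le A _)
      _ = A.valuation (p : L) := mul_one _
      _ < 1 := hlt
  have h4 : A.valuation (1 : L) < 1 := by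
    rw [← h1]
    exact lt_of_le_of_lt (A.valuation.map_add _ _) (max_lt h2 h3)
  rw [map_one] at h4
  exact lt_irrefl _ h4

/-- If `p` is a unit of `A`, then `1 - μ` is a unit of `A` for every primitive `p`-th root of
unity `μ` (`p` prime). -/
theorem PGCYC_val_one_sub_eq_one {p : ℕ} (hp : p.Prime) (hpA : A.valuation (p : L) = 1)
    {μ : L} (hμ : IsPrimitiveRoot μ p) : A.valuation (1 - μ) = 1 := by
  classical
  have : Fact p.Prime := ⟨hp⟩
  have hprod : ∏ ν ∈ primitiveRoots p L, (1 - ν) = (p : L) := by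
    have h1 := cyclotomic_eq_prod_X_sub_primitiveRoots (K := L) hμ
    have h2 := congrArg (Polynomial.eval 1) h1
    rw [eval_one_cyclotomic_prime, Polynomial.eval_prod] at h2
    simp only [eval_sub, eval_X, eval_C] at h2
    exact h2.symm
  have hle : ∀ ν ∈ primitiveRoots p L, A.valuation (1 - ν) ≤ 1 := by
    intro ν hν
    have hν' : IsPrimitiveRoot ν p := (mem_primitiveRoots hp.pos).mp hν
    have h1 : A.valuation ν = 1 := PGCYC_val_eq_one_of_pow_eq_one A hp.ne_zero hν'.pow_eq_one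
    calc A.valuation (1 - ν) ≤ max (A.valuation 1) (A.valuation ν) := A.valuation.map_sub _ _
      _ ≤ 1 := by rw [map_one, h1, max_self]
  have hμmem : μ ∈ primitiveRoots p L := (mem_primitiveRoots hp.pos).mpr hμ
  refine le_antisymm (hle μ hμmem) ?_
  have h3 : A.valuation (p : L) =
      A.valuation (1 - μ) * ∏ ν ∈ (primitiveRoots p L).erase μ, A.valuation (1 - ν) := by
    rw [← hprod, map_prod]
    exact (Finset.mul_prod_erase _ (fun ν => A.valuation (1 - ν)) hμmem).symm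
  have h4 : ∏ ν ∈ (primitiveRoots p L).erase μ, A.valuation (1 - ν) ≤ 1 :=
    Finset.prod_le_one' fun ν hν => hle ν (Finset.mem_of_mem_erase hν)
  calc (1 : A.ValueGroup) = A.valuation (p : L) := hpA.symm
    _ = A.valuation (1 - μ) * ∏ ν ∈ (primitiveRoots p L).erase μ, A.valuation (1 - ν) := h3
    _ ≤ A.valuation (1 - μ) * 1 := mul_le_mul' le_rfl h4
    _ = A.valuation (1 - μ) := mul_one _

/-- Two powers of a primitive `p`-th root of unity which are congruent modulo the maximal ideal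
have congruent exponents (when `p` is a unit). -/
theorem PGCYC_modEq_of_sub_mem {p : ℕ} (hp : p.Prime) (hpA : A.valuation (p : L) = 1)
    {ζ : L} (hζ : IsPrimitiveRoot ζ p) (a b : ℕ) (h : A.valuation (ζ ^ a - ζ ^ b) < 1) :
    (a : ZMod p) = (b : ZMod p) := by
  by_contra hne
  have hζ0 : ζ ≠ 0 := hζ.ne_zero hp.ne_zero
  have hdvd : ¬ (p : ℤ) ∣ ((a : ℤ) - (b : ℤ)) := by
    intro hd
    apply hne
    have : ((a : ℤ) : ZMod p) = ((b : ℤ) : ZMod p) := by
      rw [← sub_eq_zero, ← Int.cast_sub]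
      exact (ZMod.intCast_zmod_eq_zero_iff_dvd _ _).mpr hd
    exact_mod_cast this
  have hgcd : ((a : ℤ) - (b : ℤ)).gcd p = 1 := by
    have h1 : Nat.Coprime p ((a : ℤ) - (b : ℤ)).natAbs := by
      rw [Nat.Prime.coprime_iff_not_dvd hp]
      intro hd
      exact hdvd (Int.natCast_dvd.mpr hd)
    rw [Int.gcd_comm]
    exact h1
  have hμ : IsPrimitiveRoot (ζ ^ ((a : ℤ) - (b : ℤ))) p := hζ.zpow_of_gcd_eq_one _ hgcd
  have h1 := PGCYC_val_one_sub_eq_one A hp hpA hμ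
  have hvb : A.valuation (ζ ^ b) = 1 :=
    PGCYC_val_eq_one_of_pow_eq_one A hp.ne_zero
      (by rw [← pow_mul, mul_comm, pow_mul, hζ.pow_eq_one, one_pow])
  have e : ζ ^ a - ζ ^ b = -(ζ ^ b * (1 - ζ ^ ((a : ℤ) - (b : ℤ)))) := by
    rw [zpow_sub₀ hζ0, zpow_natCast, zpow_natCast]
    field_simp
    ring
  rw [e, Valuation.map_neg, map_mul, hvb, h1, one_mul] at h
  exact lt_irrefl _ h

end Val

/-! ### Frobenius elements on elements of the valuation ring -/

theorem PGCYC_frobenius_spec {K L : Type*} [Field K] [Field L] [Algebra K L]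
    (A : ValuationSubring L) (σ : L ≃ₐ[K] L) (q : ℕ)
    (hσ : A.IsFrobeniusAt σ q) (x : L) (hx : x ∈ A) :
    σ x - x ^ q ∈ A.nonunits := by
  have hdec := hσ.mem_decompositionSubgroup
  set τ : A.decompositionSubgroup K := ⟨σ, hdec⟩ with hτ
  have hcoe : ((τ • (⟨x, hx⟩ : A) : A) : L) = σ x := rfl
  have h1 : τ • (IsLocalRing.residue A ⟨x, hx⟩) = (IsLocalRing.residue A ⟨x, hx⟩) ^ q :=
    hσ.smul_residue_eq _
  have h2 : IsLocalRing.residue A (τ • (⟨x, hx⟩ : A)) = IsLocalRing.residue A (⟨x, hx⟩ ^ q) := by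
    rw [IsLocalRing.ResidueField.residue_smul, map_pow]; exact h1
  have h3 : (τ • (⟨x, hx⟩ : A)) - ⟨x, hx⟩ ^ q ∈ IsLocalRing.maximalIdeal A := by
    rw [← Ideal.Quotient.eq_zero_iff_mem]
    have : IsLocalRing.residue A ((τ • (⟨x, hx⟩ : A)) - ⟨x, hx⟩ ^ q) = 0 := by
      rw [map_sub, h2, sub_self]
    exact this
  have h4 := (ValuationSubring.coe_mem_nonunits_iff (A := A)).2 h3
  exact h4

/-! ### The character -/

/-- The inclusion of `G_ℚ` into the ring automorphisms of `ℚ̄`. -/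
def PGCYC_toRingEquiv : GQ →* (Qb ≃+* Qb) where
  toFun σ := σ.toRingEquiv
  map_one' := rfl
  map_mul' _ _ := rfl

theorem PGCYC_card (p : ℕ) [NeZero p] : Nat.card (rootsOfUnity p Qb) = p :=
  have : NeZero (p : Qb) := ⟨Nat.cast_ne_zero.mpr (NeZero.ne p)⟩
  HasEnoughRootsOfUnity.natCard_rootsOfUnity Qb p

/-- The mod `p` cyclotomic character of `G_ℚ`. -/
def PGCYC_chi (p : ℕ) [NeZero p] : GQ →* (ZMod p)ˣ :=
  (modularCyclotomicCharacter Qb (PGCYC_card p)).comp PGCYC_toRingEquiv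

theorem PGCYC_chi_spec (p : ℕ) [NeZero p] (σ : GQ) {ζ : Qb} (hζ : ζ ^ p = 1) :
    σ ζ = ζ ^ ((PGCYC_chi p σ : (ZMod p)ˣ) : ZMod p).val := by
  have hu : IsUnit ζ := IsUnit.of_pow_eq_one hζ (NeZero.ne p)
  obtain ⟨t, rfl⟩ := hu
  have ht : t ∈ rootsOfUnity p Qb := by
    rw [mem_rootsOfUnity]
    exact Units.ext (by simpa using hζ)
  exact modularCyclotomicCharacter.spec Qb (PGCYC_card p) σ.toRingEquiv ht

theorem PGCYC_chi_eq_one_of_fix (p : ℕ) [NeZero p] [Fact (1 < p)] (σ : GQ) {ζ : Qb}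
    (hζ : IsPrimitiveRoot ζ p) (hσ : σ ζ = ζ) : PGCYC_chi p σ = 1 := by
  have h := modularCyclotomicCharacter.unique Qb (PGCYC_card p) σ.toRingEquiv (c := 1)
    (fun t ht => by
      have htp : ((t : Qbˣ) : Qb) ^ p = 1 := by
        have := (mem_rootsOfUnity p t).mp ht
        have h2 := congrArg (fun u : Qbˣ => (u : Qb)) this
        simpa using h2
      obtain ⟨i, -, hi⟩ := hζ.eq_pow_of_pow_eq_one htp
      rw [ZMod.val_one, pow_one]
      show σ (t : Qb) = t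
      rw [← hi, map_pow, hσ])
  apply Units.ext
  rw [Units.val_one]
  exact h.symm

/-- The mod `p` cyclotomic character with values in a field of characteristic `p`. -/
def PGCYC_d (p : ℕ) [NeZero p] (k : Type*) [Field k] [CharP k p] : GQ →* kˣ :=
  (Units.map ((ZMod.castHom (dvd_refl p) k : ZMod p →+* k) : ZMod p →* k)).comp (PGCYC_chi p)

theorem PGCYC_d_coe (p : ℕ) [NeZero p] (k : Type*) [Field k] [CharP k p] (σ : GQ) :
    ((PGCYC_d p k σ : kˣ) : k) =
      ZMod.castHom (dvd_refl p) k ((PGCYC_chi p σ : (ZMod p)ˣ) : ZMod p) := rfl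

theorem PGCYC_exists_primitiveRoot (p : ℕ) [NeZero p] : ∃ ζ : Qb, IsPrimitiveRoot ζ p :=
  have : NeZero (p : Qb) := ⟨Nat.cast_ne_zero.mpr (NeZero.ne p)⟩
  HasEnoughRootsOfUnity.exists_primitiveRoot Qb p

/-- The key congruence: if `σ ζ ≡ ζ ^ m` modulo the maximal ideal of a valuation ring over
`ℓ ≠ p`, then the cyclotomic character of `σ` is `m`. -/
theorem PGCYC_chi_eq_of_sub_mem {p : ℕ} [NeZero p] (hp : p.Prime) {ℓ : ℕ} (hℓ : ℓ.Prime)
    (hne : ℓ ≠ p) (A : ValuationSubring Qb) (hA : A.LiesOverPrime ℓ) (σ : GQ) (m : ℕ)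
    (h : ∀ ζ : Qb, ζ ^ p = 1 → σ ζ - ζ ^ m ∈ A.nonunits) :
    ((PGCYC_chi p σ : (ZMod p)ˣ) : ZMod p) = (m : ZMod p) := by
  obtain ⟨ζ, hζ⟩ := PGCYC_exists_primitiveRoot p
  have hvℓ : A.valuation (ℓ : Qb) < 1 := by
    have : (ℓ : Qb) ∈ A.nonunits := hA
    exact (ValuationSubring.mem_nonunits_iff (A := A)).mp this
  have hpA : A.valuation (p : Qb) = 1 :=
    PGCYC_val_natCast_eq_one A hvℓ ((Nat.coprime_primes hℓ hp).mpr hne)
  have h1 := h ζ hζ.pow_eq_one
  rw [PGCYC_chi_spec p σ hζ.pow_eq_one] at h1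
  have h2 : A.valuation (ζ ^ ((PGCYC_chi p σ : (ZMod p)ˣ) : ZMod p).val - ζ ^ m) < 1 :=
    (ValuationSubring.mem_nonunits_iff (A := A)).mp h1
  have h3 := PGCYC_modEq_of_sub_mem A hp hpA hζ _ _ h2
  rw [ZMod.natCast_zmod_val] at h3
  exact h3

theorem PGCYC_mem_of_pow_eq_one (A : ValuationSubring Qb) {p : ℕ} (hp : p ≠ 0) {ζ : Qb}
    (hζ : ζ ^ p = 1) : ζ ∈ A := by
  rw [← ValuationSubring.valuation_le_one_iff]
  exact (PGCYC_val_eq_one_of_pow_eq_one A hp hζ).le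

/-- **G12-CYC.** The mod `p` cyclotomic character with values in a field `k` of
characteristic `p`: it factors through a finite level, it is trivial on the inertia groups at
all `ℓ ≠ p`, and it sends the Frobenius elements at `ℓ ≠ p` to `ℓ`. -/
theorem PGCYC_exists {p : ℕ} (hp : p.Prime) (k : Type*) [Field k] [CharP k p] :
    ∃ d : GQ →* kˣ,
      (∃ L : IntermediateField ℚ Qb, FiniteDimensional ℚ L ∧
        ∀ σ : GQ, (∀ x ∈ L, σ x = x) → d σ = 1) ∧
      (∀ ℓ : ℕ, ℓ.Prime → ℓ ≠ p → ∀ A : ValuationSubring Qb, A.LiesOverPrime ℓ →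
        ∀ σ ∈ A.inertiaSubgroupIn ℚ, d σ = 1) ∧
      (∀ ℓ : ℕ, ℓ.Prime → ℓ ≠ p → ∀ A : ValuationSubring Qb, A.LiesOverPrime ℓ →
        ∀ σ : GQ, A.IsFrobeniusAt σ ℓ → ((d σ : kˣ) : k) = (ℓ : k)) := by
  have : NeZero p := ⟨hp.ne_zero⟩
  have : Fact (1 < p) := ⟨hp.one_lt⟩
  refine ⟨PGCYC_d p k, ?_, ?_, ?_⟩
  · obtain ⟨ζ, hζ⟩ := PGCYC_exists_primitiveRoot p
    have hQb : Algebra.IsAlgebraic ℚ Qb := AlgebraicClosure.isAlgebraic ℚ
    refine ⟨IntermediateField.adjoin ℚ {ζ},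
      IntermediateField.adjoin.finiteDimensional
        (Algebra.IsAlgebraic.isAlgebraic (R := ℚ) ζ).isIntegral, ?_⟩
    intro σ hσ
    have h1 : σ ζ = ζ := hσ ζ (IntermediateField.mem_adjoin_simple_self ℚ ζ)
    show (Units.map _) (PGCYC_chi p σ) = 1
    rw [PGCYC_chi_eq_one_of_fix p σ hζ h1, map_one]
  · intro ℓ hℓ hne A hA σ hσ
    have h1 : ((PGCYC_chi p σ : (ZMod p)ˣ) : ZMod p) = ((1 : ℕ) : ZMod p) := by
      refine PGCYC_chi_eq_of_sub_mem hp hℓ hne A hA σ 1 (fun ζ hζ => ?_)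
      rw [pow_one]
      exact (Fermat.Agent.S05_helper5_Inertia.inertia_spec_gen A σ hσ ζ
        (PGCYC_mem_of_pow_eq_one A hp.ne_zero hζ)).2
    have h2 : PGCYC_chi p σ = 1 := by
      apply Units.ext
      rw [h1, Nat.cast_one, Units.val_one]
    show (Units.map _) (PGCYC_chi p σ) = 1
    rw [h2, map_one]
  · intro ℓ hℓ hne A hA σ hσ
    have h1 : ((PGCYC_chi p σ : (ZMod p)ˣ) : ZMod p) = ((ℓ : ℕ) : ZMod p) := by
      refine PGCYC_chi_eq_of_sub_mem hp hℓ hne A hA σ ℓ (fun ζ hζ => ?_)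
      exact PGCYC_frobenius_spec A σ ℓ hσ ζ (PGCYC_mem_of_pow_eq_one A hp.ne_zero hζ)
    rw [PGCYC_d_coe, h1, map_natCast]

end

end Fermat.Agent.G_helper7_CYC
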