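import Mathlib
import Fermat.Prelude.Def_ModularCurve_HeckeModule
import Fermat.Prelude.Thm_ModularCurve_coeffMap_qExpand

/-!
# Project G, piece G11(i): the Hecke operators commute with the Galois action

* generic core: for compatible semilinear automorphisms `g` of `F` and `g'` of `F'`
  (`g' (φ x) = φ (g x)`), `Place.restrict`, ramification index, inertia degree, pullback and
  pushforward of divisors commute with the actions;
* `PG11_hecke_galois_comm`: `heckeOperatorBar N ℓ (σ • x) = σ • heckeOperatorBar N ℓ x`;
* `PG11_smulCommClass`: the `SMulCommClass` hypothesis of the frozen statement S37.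
-/

set_option autoImplicit false
set_option linter.style.haveILetI false
set_option linter.unusedSectionVars false
set_option linter.unusedVariables false

open AlgebraicCurve ModularCurve

namespace Fermat.Agent.G_helper8_GALHECKE

noncomputable section

section Generic

open scoped Pointwise

variable {K F F' : Type*} [Field K] [Field F] [Field F']
  [Algebra K F] [Algebra K F'] [Algebra F F'] [IsScalarTower K F F']
  [Algebra.IsIntegral F F']

/-- compatibility of two semilinear automorphisms with `F → F'` -/
def PG11_Compat (g : SemilinearAut K F) (g' : SemilinearAut K F') : Prop :=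
  ∀ x : F, g' • algebraMap F F' x = algebraMap F F' (g • x)

theorem PG11_Compat.inv {g : SemilinearAut K F} {g' : SemilinearAut K F'}
    (h : PG11_Compat g g') : PG11_Compat g⁻¹ g'⁻¹ := by
  intro x
  have h1 := h (g⁻¹ • x)
  rw [smul_inv_smul] at h1
  rw [← h1, inv_smul_smul]

variable {g : SemilinearAut K F} {g' : SemilinearAut K F'}

theorem PG11_restrict_smul (h : PG11_Compat g g') (w : Place K F') :
    (g' • w).restrict F = g • w.restrict F := by
  apply Place.ext
  ext x
  rw [Place.restrict_toValuationSubring, ValuationSubring.mem_comap,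
    SemilinearAut.smul_toValuationSubring, SemilinearAut.smul_toValuationSubring,
    ValuationSubring.mem_pointwise_smul_iff_inv_smul_mem,
    ValuationSubring.mem_pointwise_smul_iff_inv_smul_mem, Place.restrict_toValuationSubring,
    ValuationSubring.mem_comap, h.inv x]

theorem PG11_ord_smul_algebraMap (h : PG11_Compat g g') (w : Place K F') (f : F) :
    (g' • w).ord (algebraMap F F' (g • f)) = w.ord (algebraMap F F' f) := by
  rw [← h f]
  exact SemilinearAut.ord_smul g' w _

theorem PG11_ramificationIndex_smul (h : PG11_Compat g g') (w : Place K F') :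
    (g' • w).ramificationIndex F = w.ramificationIndex F := by
  unfold Place.ramificationIndex
  congr 1
  ext n
  show (0 < n ∧ ∃ f : F, f ≠ 0 ∧ (g' • w).ord (algebraMap F F' f) = n) ↔
    (0 < n ∧ ∃ f : F, f ≠ 0 ∧ w.ord (algebraMap F F' f) = n)
  constructor
  · rintro ⟨hn, f, hf, hfn⟩
    refine ⟨hn, g⁻¹ • f, ?_, ?_⟩
    · rw [SemilinearAut.inv_smul_def]
      simpa using hf
    · rw [← hfn, ← PG11_ord_smul_algebraMap h w (g⁻¹ • f), smul_inv_smul]
  · rintro ⟨hn, f, hf, hfn⟩
    refine ⟨hn, g • f, ?_, ?_⟩
    · rw [SemilinearAut.smul_def]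
      simpa using hf
    · rw [PG11_ord_smul_algebraMap h w f, hfn]

/-- the ring isomorphism `O_{w|F} ≃ O_{(g' w)|F}` induced by `g` -/
def PG11_restrictEquiv (h : PG11_Compat g g') (w : Place K F') :
    (w.restrict F).toValuationSubring ≃+* ((g' • w).restrict F).toValuationSubring where
  toFun x := ⟨g • (x : F), by
    rw [Place.mem_restrict_iff, ← h, SemilinearAut.smul_toValuationSubring]
    exact ValuationSubring.smul_mem_pointwise_smul g' _ _ ((Place.mem_restrict_iff w).mp x.2)⟩
  invFun y := ⟨g⁻¹ • (y : F), by
    have hy := (Place.mem_restrict_iff (g' • w)).mp y.2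
    rw [SemilinearAut.smul_toValuationSubring,
      ValuationSubring.mem_pointwise_smul_iff_inv_smul_mem, h.inv] at hy
    exact (Place.mem_restrict_iff w).mpr hy⟩
  left_inv x := Subtype.ext (inv_smul_smul g (x : F))
  right_inv y := Subtype.ext (smul_inv_smul g (y : F))
  map_mul' x y := Subtype.ext (smul_mul' g (x : F) (y : F))
  map_add' x y := Subtype.ext (smul_add g (x : F) (y : F))

theorem PG11_coe_restrictEquiv (h : PG11_Compat g g') (w : Place K F')
    (x : (w.restrict F).toValuationSubring) :
    ((PG11_restrictEquiv h w x : ((g' • w).restrict F).toValuationSubring) : F) = g • (x : F) :=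
  rfl

theorem PG11_inertiaDeg_smul (h : PG11_Compat g g') (w : Place K F') :
    (g' • w).inertiaDeg F = w.inertiaDeg F := by
  unfold Place.inertiaDeg
  symm
  refine Algebra.finrank_eq_of_equiv_equiv
    (IsLocalRing.ResidueField.mapEquiv (PG11_restrictEquiv h w))
    (SemilinearAut.smulResidueRingEquiv g' w) ?_
  ext a
  obtain ⟨a, rfl⟩ := IsLocalRing.residue_surjective a
  show Place.restrictResidueMap F (g' • w)
      (IsLocalRing.ResidueField.mapEquiv (PG11_restrictEquiv h w) (IsLocalRing.residue _ a)) =
    SemilinearAut.smulResidueRingEquiv g' w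
      (Place.restrictResidueMap F w (IsLocalRing.residue _ a))
  rw [IsLocalRing.ResidueField.mapEquiv_apply, IsLocalRing.ResidueField.map_residue,
    Place.restrictResidueMap_residue, Place.restrictResidueMap_residue]
  show _ = IsLocalRing.ResidueField.mapEquiv _ (IsLocalRing.residue _ _)
  rw [IsLocalRing.ResidueField.mapEquiv_apply, IsLocalRing.ResidueField.map_residue]
  congr 1
  apply Subtype.ext
  exact (h (a : F)).symm

theorem PG11_pushforward_smul (h : PG11_Compat g g') (D : Divisor K F') :
    Divisor.pushforward F (g' • D) = g • Divisor.pushforward F D := by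
  induction D using Finsupp.induction with
  | zero => simp
  | single_add w n D _ _ ih =>
    rw [smul_add, map_add, map_add, smul_add, ih, SemilinearAut.smul_single,
      Divisor.pushforward_single, Divisor.pushforward_single, SemilinearAut.smul_single,
      PG11_restrict_smul h, PG11_inertiaDeg_smul h]

theorem PG11_pullback_smul [HasPrincipalDivisors K F'] (h : PG11_Compat g g')
    (D : Divisor K F) :
    Divisor.pullback F' (g • D) = g' • Divisor.pullback F' D := by
  ext w
  rw [Divisor.pullback_apply, SemilinearAut.divisor_smul_apply,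
    SemilinearAut.divisor_smul_apply, Divisor.pullback_apply, PG11_restrict_smul h.inv,
    PG11_ramificationIndex_smul h.inv]

end Generic

/-! ### along algebra maps -/

section Along

variable {K F F' : Type*} [Field K] [Field F] [Field F'] [Algebra K F] [Algebra K F']

theorem PG11_pushforwardAlong_smul (ψ : F →ₐ[K] F') (hψ : ψ.toRingHom.IsIntegral)
    (g : SemilinearAut K F) (g' : SemilinearAut K F')
    (h : ∀ x : F, g' • ψ x = ψ (g • x)) (D : Divisor K F') :
    Divisor.pushforwardAlong ψ hψ (g' • D) = g • Divisor.pushforwardAlong ψ hψ D := by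
  letI := algebraAlong ψ
  haveI := isScalarTower_along ψ
  haveI := isIntegral_along ψ hψ
  exact PG11_pushforward_smul (F := F) (F' := F') (g := g) (g' := g') h D

theorem PG11_pullbackAlong_smul [HasPrincipalDivisors K F'] (φ : F →ₐ[K] F')
    (hφ : φ.toRingHom.IsIntegral)
    (g : SemilinearAut K F) (g' : SemilinearAut K F')
    (h : ∀ x : F, g' • φ x = φ (g • x)) (D : Divisor K F) :
    Divisor.pullbackAlong φ hφ (g • D) = g' • Divisor.pullbackAlong φ hφ D := by
  letI := algebraAlong φ
  haveI := isScalarTower_along φ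
  haveI := isIntegral_along φ hφ
  exact PG11_pullback_smul (F := F) (F' := F') (g := g) (g' := g') h D

theorem PG11_correspondence_smul [HasPrincipalDivisors K F'] (φ ψ : F →ₐ[K] F')
    (hφ : φ.toRingHom.IsIntegral) (hψ : ψ.toRingHom.IsIntegral)
    (g : SemilinearAut K F) (g' : SemilinearAut K F')
    (h1 : ∀ x : F, g' • φ x = φ (g • x)) (h2 : ∀ x : F, g' • ψ x = ψ (g • x))
    (D : Divisor K F) :
    Divisor.correspondence φ ψ hφ hψ (g • D) = g • Divisor.correspondence φ ψ hφ hψ D := by
  rw [Divisor.correspondence_apply, Divisor.correspondence_apply,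
    PG11_pullbackAlong_smul φ hφ g g' h1, PG11_pushforwardAlong_smul ψ hψ g g' h2]

theorem PG11_pic0_correspondence_smul [HasPrincipalDivisors K F'] (φ ψ : F →ₐ[K] F')
    (hφ : φ.toRingHom.IsIntegral) (hψ : ψ.toRingHom.IsIntegral)
    (hFI : FundamentalIdentityAlong K φ hφ)
    (hfin : FiniteAlong K ψ) (hN : NormFormulaAlong K ψ hfin)
    (g : SemilinearAut K F) (g' : SemilinearAut K F')
    (h1 : ∀ x : F, g' • φ x = φ (g • x)) (h2 : ∀ x : F, g' • ψ x = ψ (g • x))
    (x : Pic0 K F) :
    Pic0.correspondence φ ψ hφ hψ hFI hfin hN (g • x) =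
      g • Pic0.correspondence φ ψ hφ hψ hFI hfin hN x := by
  obtain ⟨D, rfl⟩ := Pic0.mk_surjective x
  rw [SemilinearAut.pic0_smul_mk, Pic0.correspondence_mk, Pic0.correspondence_mk,
    SemilinearAut.pic0_smul_mk]
  congr 1
  apply Subtype.ext
  rw [Pic0.coe_degZeroCorrespondence, SemilinearAut.coe_degZeroSMulHom,
    SemilinearAut.coe_degZeroSMulHom, Pic0.coe_degZeroCorrespondence]
  exact PG11_correspondence_smul φ ψ hφ hψ g g' h1 h2 D

end Along

/-! ### the modular specialisation (generic coefficient field `L`) -/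

section Modular

variable (L : Type*) [Field L] [Algebra ℚ L] (N ℓ : ℕ) [NeZero N] [NeZero ℓ]

theorem PG11_alpha_compat (σ : L ≃ₐ[ℚ] L)
    (x : laurentBaseChange L (modularFunctionFieldFull N)) :
    arithmeticGalois (modularFunctionFieldFull (N * ℓ)) σ • heckeAlphaBar L N ℓ x =
      heckeAlphaBar L N ℓ (arithmeticGalois (modularFunctionFieldFull N) σ • x) := by
  apply Subtype.ext
  rw [coe_arithmeticGalois_smul, coe_heckeAlphaBar, coe_heckeAlphaBar, coe_arithmeticGalois_smul]

theorem PG11_beta_compat (σ : L ≃ₐ[ℚ] L)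
    (x : laurentBaseChange L (modularFunctionFieldFull N)) :
    arithmeticGalois (modularFunctionFieldFull (N * ℓ)) σ • heckeBetaBar L N ℓ x =
      heckeBetaBar L N ℓ (arithmeticGalois (modularFunctionFieldFull N) σ • x) := by
  apply Subtype.ext
  rw [coe_arithmeticGalois_smul, coe_heckeBetaBar, coe_heckeBetaBar, coe_arithmeticGalois_smul,
    coeffMap_qExpand]

/-- **Galois-equivariance of the Hecke correspondence** on `Pic⁰` of the modular function field
over any coefficient field `L`. -/
theorem PG11_heckeOperatorAlong_smul (σ : L ≃ₐ[ℚ] L)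
    (x : Pic0 L (laurentBaseChange L (modularFunctionFieldFull N))) :
    heckeOperatorAlong L N ℓ (σ • x) = σ • heckeOperatorAlong L N ℓ x := by
  by_cases h : HeckeInputsAlong L N ℓ
  · obtain ⟨hα, hβ, hP, hfin, hFI, hN⟩ := h
    haveI := hP
    rw [heckeOperatorAlong_eq hα hβ hFI hfin hN]
    exact PG11_pic0_correspondence_smul (heckeBetaBar L N ℓ) (heckeAlphaBar L N ℓ) hβ hα hFI hfin
      hN (arithmeticGalois (modularFunctionFieldFull N) σ)
      (arithmeticGalois (modularFunctionFieldFull (N * ℓ)) σ)
      (PG11_beta_compat L N ℓ σ) (PG11_alpha_compat L N ℓ σ) x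
  · rw [heckeOperatorAlong_of_not h]
    simp only [AddMonoidHom.zero_apply]
    exact (smul_zero σ).symm

end Modular

/-! ### `J₀(N)` over `ℚ̄` -/

section JZeroSection

variable (N : ℕ) [NeZero N]

/-- The Hecke operators on `J₀(N)` commute with the Galois action. -/
theorem PG11_hecke_galois_comm (ℓ : Nat.Primes) (σ : AlgebraicClosure ℚ ≃ₐ[ℚ] AlgebraicClosure ℚ)
    (x : JZero N) :
    heckeOperatorBar N ℓ (σ • x) = σ • heckeOperatorBar N ℓ x := by
  haveI : NeZero (ℓ : ℕ) := ⟨ℓ.2.ne_zero⟩
  exact PG11_heckeOperatorAlong_smul (AlgebraicClosure ℚ) N (ℓ : ℕ) σ x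

theorem PG11_heckeEvalBar_smul (hcomm : HeckeOperatorsCommuteBar N) (t : HeckeAlg)
    (σ : AlgebraicClosure ℚ ≃ₐ[ℚ] AlgebraicClosure ℚ) (x : JZero N) :
    heckeEvalBar hcomm t (σ • x) = σ • heckeEvalBar hcomm t x := by
  induction t using MvPolynomial.induction_on generalizing x with
  | C a =>
    rw [heckeEvalBar_C, Module.End.intCast_apply, Module.End.intCast_apply]
    exact (map_zsmul (DistribSMul.toAddMonoidHom (JZero N) σ) a x).symm
  | add p q hp hq =>
    rw [map_add, LinearMap.add_apply, LinearMap.add_apply, hp, hq, smul_add]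
  | mul_X p ℓ hp =>
    rw [map_mul, Module.End.mul_apply, Module.End.mul_apply]
    have h1 : heckeEvalBar hcomm (MvPolynomial.X ℓ) = heckeOperatorBar N ℓ :=
      heckeEvalBar_heckeGen hcomm ℓ
    rw [h1, PG11_hecke_galois_comm, hp]

/-- The Hecke module structure on `J₀(N)` commutes with the Galois action: this is the
`SMulCommClass` hypothesis of the frozen statement S37 (it holds unconditionally). -/
theorem PG11_smulCommClass :
    letI := heckeModuleBar N
    SMulCommClass (AlgebraicClosure ℚ ≃ₐ[ℚ] AlgebraicClosure ℚ) HeckeAlg (JZero N) := by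
  letI := heckeModuleBar N
  refine ⟨fun σ t x => ?_⟩
  by_cases hcomm : HeckeOperatorsCommuteBar N
  · rw [heckeModuleBar_smul_def hcomm, heckeModuleBar_smul_def hcomm]
    exact (PG11_heckeEvalBar_smul N hcomm t σ x).symm
  · rw [heckeModuleBar_smul_of_not hcomm, heckeModuleBar_smul_of_not hcomm]
    exact map_zsmul (DistribSMul.toAddMonoidHom (JZero N) σ) _ x

end JZeroSection

end

end Fermat.Agent.G_helper8_GALHECKE
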