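import Mathlib
import Fermat.Prelude.Def_GaloisRep_Residual
import Fermat.Prelude.Def_ModularCurve_HeckeModule
import Fermat.Agent.G_helper29_CORE
import Fermat.Agent.G_helper19_R2
import Fermat.Agent.G_helper7_CYC
import Fermat.Agent.G_helper8_GALHECKE
import Fermat.Agent.G_helper12_OPENSTAB
import Fermat.Agent.G_helper1_K0

/-!
# Project G: S29 from (E1), (E2) and Frobenius density (helper29)
-/

set_option autoImplicit false
set_option linter.style.haveILetI false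
set_option linter.unusedSimpArgs false
set_option linter.unusedVariables false
set_option linter.unusedSectionVars false

open Polynomial ModularCurve AlgebraicCurve
open scoped TensorProduct

universe u

noncomputable section

namespace Fermat.Agent.G_helper29_S29W

open Fermat.Agent.G_helper29_WDefs Fermat.Agent.G_helper29_WIRE Fermat.Agent.G_helper29_CORE

local notation "Qb" => AlgebraicClosure ℚ
local notation "GQ" => (AlgebraicClosure ℚ ≃ₐ[ℚ] AlgebraicClosure ℚ)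
local notation "Zbar" => integralClosure ℤ ℂ

/-! ### the landed inputs in the shape of the wiring -/

theorem PGS_R2 (k : Type) [Field k] [IsAlgClosed k] : PG_R2_statement.{u} k :=
  fun W _ _ _ _ r d h => Fermat.Agent.G_helper19_R2.PG_R2_exists_two_dim r d h

theorem PGS_CYC {p : ℕ} (hp : p.Prime) (k : Type) [Field k] [CharP k p] :
    PG_CYC_statement p k :=
  Fermat.Agent.G_helper7_CYC.PGCYC_exists hp k

theorem PGS_GH (N : ℕ) [NeZero N] : PG_GH_statement N :=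
  fun ℓ σ x => Fermat.Agent.G_helper8_GALHECKE.PG11_hecke_galois_comm N ℓ σ x

theorem PGS_OPEN (N : ℕ) [NeZero N] : PG_OPEN_statement N :=
  fun x => Fermat.Agent.G_helper12_OPENSTAB.PG11_open_stabilizer N x

/-! ### base change of a two-dimensional representation -/

theorem PGS_baseChange {k₀ k : Type} [Field k₀] [Field k] (ι : k₀ →+* k)
    (ρ₀ : GQ →* Module.End k₀ (Fin 2 → k₀)) (h1 : GaloisFactorsThroughFiniteLevel ρ₀) :
    ∃ ρ : ResidualGaloisRep k, (∀ σ, ρ₀ σ = 1 → ρ.ρ σ = 1) ∧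
      ∀ σ, LinearMap.charpoly (ρ.ρ σ) = (LinearMap.charpoly (ρ₀ σ)).map ι := by
  letI : Algebra k₀ k := ι.toAlgebra
  let ρ₀' : ResidualGaloisRep k₀ :=
    { V := Fin 2 → k₀
      finrank_eq := by rw [Module.finrank_fin_fun]
      ρ := ρ₀
      factorsThroughFiniteLevel := h1 }
  refine ⟨ρ₀'.baseChange k, ?_, ?_⟩
  · intro σ hσ
    show (ρ₀ σ).baseChange k = 1
    rw [hσ, LinearMap.baseChange_one]
  · intro σ
    exact LinearMap.charpoly_baseChange (ρ₀ σ) k

/-! ### the inputs that are not yet on main, as statements -/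

/-- (E1) for all levels and primes. -/
def PGS_E1_all : Prop :=
  ∀ (N p : ℕ) [NeZero N], p.Prime → PG_E1_statement N p

/-- (E2) for all levels, eigenforms, primes and coefficient fields. -/
def PGS_E2_all : Prop :=
  ∀ (N : ℕ) [NeZero N] (g : CuspForm (CongruenceSubgroup.Gamma0 N) 2),
    g.IsNormalizedEigenform → ∀ (p : ℕ), p.Prime →
      ∀ (k : Type) [Field k] [Algebra (ZMod p) k] (φ : Zbar →+* k), PG_E2_statement N g p k φ

/-! ### the representation over `Zbar ⧸ 𝔪` -/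

/-- **The residual representation over `k₀ = Zbar ⧸ 𝔪`.** -/
theorem PGS_core (hFD : PG_FD_statement) (hE1 : PGS_E1_all) (hE2 : PGS_E2_all)
    (N : ℕ) [NeZero N] {g : CuspForm (CongruenceSubgroup.Gamma0 N) 2}
    (hg : g.IsNormalizedEigenform) {p : ℕ} (hp : p.Prime)
    (𝔪 : Ideal Zbar) [𝔪.IsMaximal] (hp𝔪 : (p : Zbar) ∈ 𝔪) :
    letI := Ideal.Quotient.field 𝔪
    ∃ ρ : GQ →* Module.End (Zbar ⧸ 𝔪) (Fin 2 → Zbar ⧸ 𝔪),
      GaloisFactorsThroughFiniteLevel ρ ∧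
      (∀ ℓ : ℕ, ℓ.Prime → ¬ ℓ ∣ N * p → ∀ A : ValuationSubring Qb, A.LiesOverPrime ℓ →
        ∀ σ ∈ A.inertiaSubgroupIn ℚ, ρ σ = 1) ∧
      (∀ ℓ : ℕ, ℓ.Prime → ¬ ℓ ∣ N * p → ∀ A : ValuationSubring Qb, A.LiesOverPrime ℓ →
        ∀ σ : GQ, A.IsFrobeniusAt σ ℓ →
          ∃ a : Zbar, (a : ℂ) = ModularFormClass.qCoeff g ℓ ∧
            LinearMap.charpoly (ρ σ) =
              X ^ 2 - C (Ideal.Quotient.mk 𝔪 a) * X + C (ℓ : Zbar ⧸ 𝔪)) := by
  letI := Ideal.Quotient.field 𝔪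
  haveI : CharP (Zbar ⧸ 𝔪) p := Fermat.Agent.G_helper1_K0.PGK0_charP hp 𝔪 hp𝔪
  haveI : IsAlgClosed (Zbar ⧸ 𝔪) := Fermat.Agent.G_helper1_K0.PGK0_isAlgClosed 𝔪
  letI : Algebra (ZMod p) (Zbar ⧸ 𝔪) := ZMod.algebra _ p
  exact PG_core N hp (Ideal.Quotient.mk 𝔪) hFD (PGS_R2 _) (PGS_CYC hp _) (PGS_GH N)
    (PGS_OPEN N) (hE1 N p hp) (hE2 N g hg p hp _ _)

/-! ### S29 -/

/-- the trivial two-dimensional representation -/
def PGS_trivial (k : Type) [Field k] : ResidualGaloisRep k :=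
  { V := Fin 2 → k
    finrank_eq := by rw [Module.finrank_fin_fun]
    ρ := 1
    factorsThroughFiniteLevel := ⟨⊥, inferInstance, fun _ _ => rfl⟩ }

/-- **S29 from (E1), (E2) and Frobenius density.** -/
theorem PG_S29_of_inputs (hFD : PG_FD_statement) (hE1 : PGS_E1_all) (hE2 : PGS_E2_all)
    {N : ℕ} {g : CuspForm (CongruenceSubgroup.Gamma0 N) 2} (hg : g.IsNormalizedEigenform)
    {p : ℕ} (hp : p.Prime) {k : Type} [Field k] [CharP k p]
    (φ : Zbar →+* k) :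
    ∃ ρ : ResidualGaloisRep k, ρ.IsAttachedTo g φ ∧
      ∀ ℓ : ℕ, ℓ.Prime → ¬ ℓ ∣ N * p → ρ.IsUnramifiedAt ℓ := by
  rcases Nat.eq_zero_or_pos N with hN | hN
  · subst hN
    refine ⟨PGS_trivial k, ?_, ?_⟩
    · intro ℓ hℓ hℓN
      exact absurd (dvd_zero ℓ) hℓN
    · intro ℓ hℓ hℓN
      rw [zero_mul] at hℓN
      exact absurd (dvd_zero ℓ) hℓN
  · haveI : NeZero N := ⟨hN.ne'⟩
    haveI h𝔪 : (RingHom.ker φ).IsMaximal := Fermat.Agent.G_helper1_K0.PGK0_ker_isMaximal hp φ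
    have hp𝔪 : (p : Zbar) ∈ RingHom.ker φ := by
      rw [RingHom.mem_ker, map_natCast]
      exact CharP.cast_eq_zero k p
    letI := Ideal.Quotient.field (RingHom.ker φ)
    obtain ⟨ρ₀, h1, h2, h3⟩ := PGS_core hFD hE1 hE2 N hg hp (RingHom.ker φ) hp𝔪
    let ι : (Zbar ⧸ RingHom.ker φ) →+* k := Ideal.Quotient.lift (RingHom.ker φ) φ (fun a ha => ha)
    obtain ⟨ρ, hρ1, hρ2⟩ := PGS_baseChange ι ρ₀ h1
    refine ⟨ρ, ?_, ?_⟩
    · intro ℓ hℓ hℓN hℓk A hA σ hσ
      have hℓNp : ¬ ℓ ∣ N * p := by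
        intro hd
        rcases (Nat.Prime.dvd_mul hℓ).mp hd with h | h
        · exact hℓN h
        · have : ℓ = p := (Nat.prime_dvd_prime_iff_eq hℓ hp).mp h
          rw [this] at hℓk
          exact hℓk (CharP.cast_eq_zero k p)
      obtain ⟨a, ha, hcp⟩ := h3 ℓ hℓ hℓNp A hA σ hσ
      refine ⟨a, ha, ?_⟩
      rw [hρ2 σ, hcp]
      have hι : ι (Ideal.Quotient.mk (RingHom.ker φ) a) = φ a :=
        Ideal.Quotient.lift_mk (RingHom.ker φ) φ _
      simp only [Polynomial.map_add, Polynomial.map_sub, Polynomial.map_mul, Polynomial.map_pow,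
        Polynomial.map_X, Polynomial.map_C, map_natCast, Polynomial.map_natCast, hι]
    · intro ℓ hℓ hℓNp A hA σ hσ
      exact hρ1 σ (h2 ℓ hℓ hℓNp A hA σ hσ)

end Fermat.Agent.G_helper29_S29W

end
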