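import Mathlib
import Fermat.Prelude.Def_GaloisRep_Residual
import Fermat.Prelude.Def_ModularCurve_HeckeModule
import Fermat.Prelude.Def_FreyPackage_EigenformResidualAttachment
import Fermat.Agent.G_helper29_S29W
import Fermat.Agent.G_helper12_S42AUX

/-!
# Project G: S42 from (E1), (E2) and Frobenius density (helper29)
-/

set_option autoImplicit false
set_option linter.style.haveILetI false
set_option linter.unusedSimpArgs false
set_option linter.unusedVariables false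
set_option linter.unusedSectionVars false

open Polynomial ModularCurve AlgebraicCurve
open scoped TensorProduct

noncomputable section

namespace Fermat.Agent.G_helper29_S42W

open Fermat.Agent.G_helper29_WDefs Fermat.Agent.G_helper29_WIRE Fermat.Agent.G_helper29_CORE
  Fermat.Agent.G_helper29_S29W Fermat.Agent.G_helper12_S42AUX

local notation "Qb" => AlgebraicClosure ℚ
local notation "GQ" => (AlgebraicClosure ℚ ≃ₐ[ℚ] AlgebraicClosure ℚ)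
local notation "Zbar" => integralClosure ℤ ℂ

/-- **S42 from (E1), (E2) and Frobenius density.** -/
theorem PG_S42_of_inputs (hFD : PG_FD_statement) (hE1 : PGS_E1_all) (hE2 : PGS_E2_all)
    (P : FreyPackage) : ∀ M : ℕ, 0 < M → P.EigenformResidualAttachmentAt M := by
  intro M hM g hg 𝔪 h𝔪 hp𝔪
  haveI := h𝔪
  haveI : NeZero M := ⟨hM.ne'⟩
  letI := Ideal.Quotient.field 𝔪
  haveI : CharP (Zbar ⧸ 𝔪) P.p := Fermat.Agent.G_helper1_K0.PGK0_charP P.pp 𝔪 hp𝔪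
  obtain ⟨ρ₀, ⟨L₁, hL₁, hL₁fix⟩, -, h3⟩ := PGS_core hFD hE1 hE2 M hg P.pp 𝔪 hp𝔪
  obtain ⟨L₂, hL₂, hL₂fix⟩ := PG42_frey_level P
  obtain ⟨F, iF, iNF, iGal, iAlg, iST, hF⟩ := PG42_exists_galois_level (L₁ ⊔ L₂)
  have hℓ : ∀ ℓ : ℕ, ℓ.Prime → ¬ ℓ ∣ M → ℓ ≠ P.p → ¬ ℓ ∣ M * P.p := by
    intro ℓ hℓ hℓM hℓp hd
    rcases (Nat.Prime.dvd_mul hℓ).mp hd with h | h
    · exact hℓM h
    · exact hℓp ((Nat.prime_dvd_prime_iff_eq hℓ P.pp).mp h)
  have hfin : Module.finrank (Zbar ⧸ 𝔪) (Fin 2 → Zbar ⧸ 𝔪) = 2 := by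
    rw [Module.finrank_fin_fun]
  refine ⟨Zbar ⧸ 𝔪, Ideal.Quotient.field 𝔪, ZMod.algebra _ P.p, Fin 2 → Zbar ⧸ 𝔪,
    inferInstance, inferInstance, ρ₀, Ideal.Quotient.mk 𝔪, F, iF, iNF, iGal, iAlg, iST,
    ?_, hfin, ?_, ?_, ?_⟩
  · rw [Ideal.mk_ker]
  · intro σ hσ
    have hfix := hF σ hσ
    refine ⟨?_, ?_⟩
    · exact MonoidHom.mem_ker.mpr
        (hL₂fix σ (fun x hx => hfix x ((le_sup_right : L₂ ≤ L₁ ⊔ L₂) hx)))
    · exact MonoidHom.mem_ker.mpr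
        (hL₁fix σ (fun x hx => hfix x ((le_sup_left : L₁ ≤ L₁ ⊔ L₂) hx)))
  · intro ℓ hℓp hℓM hℓP A hA τ hτ
    obtain ⟨a, ha, hcp⟩ := h3 ℓ hℓp (hℓ ℓ hℓp hℓM hℓP) A hA τ hτ
    exact ⟨a, ha, (PG42_trace_det hfin (ρ₀ τ) _ _ hcp).1⟩
  · intro ℓ hℓp hℓM hℓP A hA τ hτ
    obtain ⟨a, ha, hcp⟩ := h3 ℓ hℓp (hℓ ℓ hℓp hℓM hℓP) A hA τ hτ
    exact (PG42_trace_det hfin (ρ₀ τ) _ _ hcp).2

end Fermat.Agent.G_helper29_S42W

end
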