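import Mathlib
import Fermat.Agent.G_helper6_Defs

/-!
# Project G, piece G2a-LATTICE

`PG_M N = Hom_par (Gamma0 N, ℤ)` is a finite free `ℤ`-module and
`ℂ ⊗ PG_M N → Hom (Gamma0 N, ℂ)` is injective with image the complex parabolic homomorphisms.
-/

set_option autoImplicit false
set_option linter.style.haveILetI false

open UpperHalfPlane ModularForm CongruenceSubgroup AlgebraicCurve
open scoped MatrixGroups ModularForm Manifold TensorProduct
open Fermat.Agent.G_helper6_Defs

namespace Fermat.Agent.G_helper3_G2aLATTICE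

theorem PG_G2aLATTICE_fg_SL2Z : Group.FG SL(2, ℤ) :=
  Group.fg_iff.2 ⟨{ModularGroup.S, ModularGroup.T}, SpecialLinearGroup.SL2Z_generators,
    Set.toFinite _⟩

theorem PG_G2aLATTICE_fg_Gamma0 (N : ℕ) [NeZero N] : Group.FG (Gamma0 N) := by
  haveI := PG_G2aLATTICE_fg_SL2Z
  infer_instance

section Eval

variable {Γ : Type*} [Group Γ] (S : Set Γ)

/-- Evaluation of a homomorphism at the elements of `S`. -/
def PG_G2aLATTICE_ev (R : Type*) [Semiring R] (A : Type*) [AddCommGroup A] [Module R A] :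
    (Additive Γ →+ A) →ₗ[R] (S → A) where
  toFun φ := fun s => φ (Additive.ofMul (s : Γ))
  map_add' φ ψ := by
    ext s
    rfl
  map_smul' r φ := by
    ext s
    rfl

theorem PG_G2aLATTICE_ev_apply (R : Type*) [Semiring R] (A : Type*) [AddCommGroup A] [Module R A]
    (φ : Additive Γ →+ A) (s : S) :
    PG_G2aLATTICE_ev S R A φ s = φ (Additive.ofMul (s : Γ)) := rfl

theorem PG_G2aLATTICE_ev_injective (hS : Subgroup.closure S = ⊤) (R : Type*) [Semiring R]
    (A : Type*) [AddCommGroup A] [Module R A] :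
    Function.Injective (PG_G2aLATTICE_ev S R A) := by
  intro φ ψ h
  apply AddMonoidHom.toMultiplicativeRight.injective
  refine MonoidHom.eq_of_eqOn_dense hS fun s hs => ?_
  have := congrFun h ⟨s, hs⟩
  exact congrArg Multiplicative.ofAdd this

/-- A homomorphism whose values on generators lie in a subgroup takes all its values there. -/
theorem PG_G2aLATTICE_mem_of_generators (hS : Subgroup.closure S = ⊤) {A : Type*}
    [AddCommGroup A] (W : AddSubgroup A) (φ : Additive Γ →+ A)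
    (h : ∀ s ∈ S, φ (Additive.ofMul s) ∈ W) (γ : Γ) : φ (Additive.ofMul γ) ∈ W := by
  have hγ : γ ∈ Subgroup.closure S := by rw [hS]; trivial
  induction hγ using Subgroup.closure_induction with
  | mem x hx => exact h x hx
  | one => rw [ofMul_one, map_zero]; exact W.zero_mem
  | mul x y _ _ hx hy => rw [ofMul_mul, map_add]; exact W.add_mem hx hy
  | inv x _ hx => rw [ofMul_inv, map_neg]; exact W.neg_mem hx

end Eval

/-- `PG_latticeMap` on pure tensors. -/
theorem PG_G2aLATTICE_latticeMap_tmul (N : ℕ) (z : ℂ) (c : PG_M N) (γ : Additive (Gamma0 N)) :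
    PG_latticeMap N (z ⊗ₜ[ℤ] c) γ = z * (((c : Additive (Gamma0 N) →+ ℤ) γ : ℤ) : ℂ) := by
  rw [PG_latticeMap, LinearMap.liftBaseChange_tmul]
  rfl

/-- The integral evaluation map on the lattice. -/
def PG_G2aLATTICE_g (N : ℕ) (S : Set (Gamma0 N)) : PG_M N →ₗ[ℤ] (S → ℤ) :=
  PG_G2aLATTICE_ev S ℤ ℤ ∘ₗ (PG_M N).subtype

theorem PG_G2aLATTICE_g_injective (N : ℕ) (S : Set (Gamma0 N)) (hS : Subgroup.closure S = ⊤) :
    Function.Injective (PG_G2aLATTICE_g N S) := by
  rw [PG_G2aLATTICE_g, LinearMap.coe_comp]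
  exact (PG_G2aLATTICE_ev_injective S hS ℤ ℤ).comp (PG_M N).subtype_injective

theorem PG_G2aLATTICE_finite (N : ℕ) [NeZero N] : Module.Finite ℤ (PG_M N) := by
  obtain ⟨S, hS, hSfin⟩ := Group.fg_iff.1 (PG_G2aLATTICE_fg_Gamma0 N)
  haveI : Finite S := hSfin.to_subtype
  exact Module.Finite.of_injective (PG_G2aLATTICE_g N S) (PG_G2aLATTICE_g_injective N S hS)

theorem PG_G2aLATTICE_free (N : ℕ) [NeZero N] : Module.Free ℤ (PG_M N) := by
  haveI := PG_G2aLATTICE_finite N
  obtain ⟨S, hS, -⟩ := Group.fg_iff.1 (PG_G2aLATTICE_fg_Gamma0 N)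
  haveI : Module.IsTorsionFree ℤ (PG_M N) :=
    Function.Injective.moduleIsTorsionFree (PG_G2aLATTICE_g N S)
      (PG_G2aLATTICE_g_injective N S hS) (fun r m => map_smul _ r m)
  exact Module.free_of_finite_type_torsion_free'

theorem PG_G2aLATTICE_injective (N : ℕ) [NeZero N] : Function.Injective (PG_latticeMap N) := by
  classical
  obtain ⟨S, hS, hSfin⟩ := Group.fg_iff.1 (PG_G2aLATTICE_fg_Gamma0 N)
  haveI : Finite S := hSfin.to_subtype
  haveI : Fintype S := Fintype.ofFinite S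
  have h1 : Function.Injective (LinearMap.lTensor ℂ (PG_G2aLATTICE_g N S)) :=
    Module.Flat.lTensor_preserves_injective_linearMap _ (PG_G2aLATTICE_g_injective N S hS)
  have h2 : Function.Injective
      (fun x => TensorProduct.piScalarRight ℤ ℂ ℂ S (LinearMap.lTensor ℂ (PG_G2aLATTICE_g N S) x)) :=
    (TensorProduct.piScalarRight ℤ ℂ ℂ S).injective.comp h1
  have key : ∀ x : ℂ ⊗[ℤ] (PG_M N),
      TensorProduct.piScalarRight ℤ ℂ ℂ S (LinearMap.lTensor ℂ (PG_G2aLATTICE_g N S) x) =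
        PG_G2aLATTICE_ev S ℂ ℂ (PG_latticeMap N x) := by
    intro x
    induction x using TensorProduct.induction_on with
    | zero => simp
    | tmul z c =>
      rw [LinearMap.lTensor_tmul, TensorProduct.piScalarRight_apply,
        TensorProduct.piScalarRightHom_tmul]
      ext s
      rw [PG_G2aLATTICE_ev_apply, PG_G2aLATTICE_latticeMap_tmul]
      show (PG_G2aLATTICE_g N S c s) • z = _
      rw [zsmul_eq_mul, mul_comm]
      rfl
    | add x y hx hy =>
      rw [map_add, map_add, hx, hy, map_add, map_add]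
  intro x y hxy
  apply h2
  show TensorProduct.piScalarRight ℤ ℂ ℂ S (LinearMap.lTensor ℂ (PG_G2aLATTICE_g N S) x) =
    TensorProduct.piScalarRight ℤ ℂ ℂ S (LinearMap.lTensor ℂ (PG_G2aLATTICE_g N S) y)
  rw [key, key, hxy]

theorem PG_G2aLATTICE_range_le (N : ℕ) :
    LinearMap.range (PG_latticeMap N) ≤ ModularCurve.Period.parabolicHoms ℂ (Gamma0 N) ℂ := by
  rintro _ ⟨x, rfl⟩
  induction x using TensorProduct.induction_on with
  | zero => rw [map_zero]; exact Submodule.zero_mem _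
  | tmul z c =>
    intro γ hγ
    rw [PG_G2aLATTICE_latticeMap_tmul]
    have hc : (c : Additive (Gamma0 N) →+ ℤ) (Additive.ofMul γ) = 0 := c.2 γ hγ
    rw [hc, Int.cast_zero, mul_zero]
  | add x y hx hy => rw [map_add]; exact Submodule.add_mem _ hx hy

theorem PG_G2aLATTICE_le_range (N : ℕ) [NeZero N] :
    ModularCurve.Period.parabolicHoms ℂ (Gamma0 N) ℂ ≤ LinearMap.range (PG_latticeMap N) := by
  classical
  intro ψ hψ
  obtain ⟨S, hS, hSfin⟩ := Group.fg_iff.1 (PG_G2aLATTICE_fg_Gamma0 N)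
  -- the `ℤ`-span of the values on generators
  set W : Submodule ℤ ℂ := Submodule.span ℤ ((fun s : Gamma0 N => ψ (Additive.ofMul s)) '' S)
    with hW
  haveI : Module.Finite ℤ W := Module.Finite.span_of_finite ℤ (hSfin.image _)
  haveI : Module.Free ℤ W := inferInstance
  have hval : ∀ γ : Gamma0 N, ψ (Additive.ofMul γ) ∈ W := by
    intro γ
    refine PG_G2aLATTICE_mem_of_generators S hS W.toAddSubgroup ψ (fun s hs => ?_) γ
    exact Submodule.subset_span ⟨s, hs, rfl⟩
  have hval' : ∀ γ : Additive (Gamma0 N), ψ γ ∈ W := fun γ => hval (Additive.toMul γ)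
  let ψW : Additive (Gamma0 N) →+ W := ψ.codRestrict W hval'
  let b := Module.Free.chooseBasis ℤ W
  haveI : Fintype (Module.Free.ChooseBasisIndex ℤ W) := inferInstance
  -- the coordinate homomorphisms
  let c : Module.Free.ChooseBasisIndex ℤ W → (Additive (Gamma0 N) →+ ℤ) := fun i =>
    ((b.coord i : W →ₗ[ℤ] ℤ).toAddMonoidHom).comp ψW
  have hc : ∀ i, c i ∈ PG_M N := by
    intro i γ hγ
    show b.coord i (ψW (Additive.ofMul γ)) = 0
    have h0 : ψW (Additive.ofMul γ) = 0 := by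
      apply Subtype.ext
      exact hψ γ hγ
    rw [h0, map_zero]
  refine ⟨∑ i, ((b i : W) : ℂ) ⊗ₜ[ℤ] (⟨c i, hc i⟩ : PG_M N), ?_⟩
  refine DFunLike.ext _ _ fun γ => ?_
  rw [map_sum]
  rw [AddMonoidHom.finsetSum_apply]
  have h1 : ∀ i, PG_latticeMap N (((b i : W) : ℂ) ⊗ₜ[ℤ] (⟨c i, hc i⟩ : PG_M N)) γ =
      (((b.repr (ψW γ) i • b i : W)) : ℂ) := by
    intro i
    rw [PG_G2aLATTICE_latticeMap_tmul]
    show ((b i : W) : ℂ) * ((b.coord i (ψW γ) : ℤ) : ℂ) = _
    rw [Submodule.coe_smul, zsmul_eq_mul, mul_comm]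
    rfl
  rw [Finset.sum_congr rfl (fun i _ => h1 i)]
  have h2 := congrArg (fun w : W => (w : ℂ)) (b.sum_repr (ψW γ))
  simp only [Submodule.coe_sum] at h2
  rw [h2]
  rfl

theorem PG_lattice (N : ℕ) [NeZero N] :
    Module.Finite ℤ (PG_M N) ∧ Module.Free ℤ (PG_M N) ∧
      Function.Injective (PG_latticeMap N) ∧
      LinearMap.range (PG_latticeMap N) =
        ModularCurve.Period.parabolicHoms ℂ (Gamma0 N) ℂ :=
  ⟨PG_G2aLATTICE_finite N, PG_G2aLATTICE_free N, PG_G2aLATTICE_injective N,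
    le_antisymm (PG_G2aLATTICE_range_le N) (PG_G2aLATTICE_le_range N)⟩

end Fermat.Agent.G_helper3_G2aLATTICE
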