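import Fermat.Agent.G_helper6_Contracts
import Fermat.Agent.G_helper29_WDefs
import Fermat.Agent.G_helper3_G1aHECKEHOM
import Fermat.Agent.G_helper18_REDUCE
import Fermat.Agent.G_helper3_G2aLATTICE
import Fermat.Agent.G_helper23_G1b
import Fermat.Agent.S21
import Fermat.Prelude.Def_ModularForm_HeckeOperatorForms

/-!
# Project G, piece GE2-FINAL

From `Θ₀ : M → J₀(N)(ℚ̄)` (contract `PG_E2`) to the contract `PG_E2_statement` of the wiring:
a nonzero class in `k ⊗ J₀(N)[p]` with Hecke eigenvalues `φ (a_ℓ g)`.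
The pieces G1b (`PG_period_hecke`, `PG_eigen_of_normalized`), G1c (`PG_heckeHom_comm`) and
G2a (`PG_lattice`) enter as hypotheses.
-/

set_option autoImplicit false

open UpperHalfPlane ModularForm CongruenceSubgroup AlgebraicCurve
open scoped MatrixGroups ModularForm Manifold TensorProduct
open Fermat.Agent.G_helper6_Defs Fermat.Agent.G_helper29_WDefs
open Fermat.Agent.G_helper3_G1aHECKEHOM

noncomputable section

namespace Fermat.Agent.G_helper6_E2FINAL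

/-! ### The Hecke operator on the lattice -/

theorem PG_E2F_heckeHom_zero (N ℓ : ℕ) [NeZero N] [NeZero ℓ] {A : Type*} [AddCommGroup A] :
    PG_heckeHom N ℓ (0 : Additive (Gamma0 N) →+ A) = 0 := by
  have h := PG_heckeHom_add N ℓ (0 : Additive (Gamma0 N) →+ A) 0
  rw [add_zero] at h
  exact left_eq_add.mp h

/-- `T_ℓ` on `M`, as an additive map. -/
def PG_E2F_TMadd (N ℓ : ℕ) [NeZero N] [NeZero ℓ] : PG_M N →+ PG_M N where
  toFun c := ⟨PG_heckeHom N ℓ (c : Additive (Gamma0 N) →+ ℤ),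
    PG_heckeHom_parabolic N ℓ _ c.2⟩
  map_zero' := Subtype.ext (PG_E2F_heckeHom_zero N ℓ)
  map_add' c c' := Subtype.ext (PG_heckeHom_add N ℓ _ _)

/-- `T_ℓ` on `M`, as a `ℤ`-linear endomorphism. -/
def PG_E2F_TM (N ℓ : ℕ) [NeZero N] [NeZero ℓ] : Module.End ℤ (PG_M N) :=
  (PG_E2F_TMadd N ℓ).toIntLinearMap

theorem PG_E2F_TM_coe (N ℓ : ℕ) [NeZero N] [NeZero ℓ] (c : PG_M N) :
    ((PG_E2F_TM N ℓ c : PG_M N) : Additive (Gamma0 N) →+ ℤ) =
      PG_heckeHom N ℓ (c : Additive (Gamma0 N) →+ ℤ) := rfl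

theorem PG_E2F_heckeHom_smul (N ℓ : ℕ) [NeZero N] [NeZero ℓ] (z : ℂ)
    (ψ : Additive (Gamma0 N) →+ ℂ) :
    PG_heckeHom N ℓ (z • ψ) = z • PG_heckeHom N ℓ ψ := by
  have h := PG_heckeHom_comp N ℓ (AddMonoidHom.mulLeft z) ψ
  have e1 : (AddMonoidHom.mulLeft z).comp ψ = z • ψ := by
    ext γ
    rfl
  have e2 : (AddMonoidHom.mulLeft z).comp (PG_heckeHom N ℓ ψ) = z • PG_heckeHom N ℓ ψ := by
    ext γ
    rfl
  rw [e1, e2] at h
  exact h

theorem PG_E2F_heckeHom_cast (N ℓ : ℕ) [NeZero N] [NeZero ℓ]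
    (c : Additive (Gamma0 N) →+ ℤ) :
    PG_heckeHom N ℓ (PG_castHom N c) = PG_castHom N (PG_heckeHom N ℓ c) :=
  PG_heckeHom_comp N ℓ (Int.castAddHom ℂ) c

theorem PG_E2F_latticeMap_tmul (N : ℕ) (z : ℂ) (c : PG_M N) :
    PG_latticeMap N (z ⊗ₜ[ℤ] c) = z • PG_castHom N (c : Additive (Gamma0 N) →+ ℤ) := by
  rw [PG_latticeMap, LinearMap.liftBaseChange_tmul]
  rfl

/-- The comparison map intertwines the Hecke operators. -/
theorem PG_E2F_latticeMap_hecke (N ℓ : ℕ) [NeZero N] [NeZero ℓ] (w : ℂ ⊗[ℤ] (PG_M N)) :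
    PG_latticeMap N ((PG_E2F_TM N ℓ).baseChange ℂ w) = PG_heckeHom N ℓ (PG_latticeMap N w) := by
  induction w using TensorProduct.induction_on with
  | zero => rw [map_zero, map_zero, PG_E2F_heckeHom_zero]
  | tmul z c =>
    rw [LinearMap.baseChange_tmul, PG_E2F_latticeMap_tmul, PG_E2F_latticeMap_tmul,
      PG_E2F_heckeHom_smul, PG_E2F_heckeHom_cast, PG_E2F_TM_coe]
  | add x y hx hy => rw [map_add, map_add, map_add, PG_heckeHom_add, hx, hy]


/-! ### The period of a normalized eigenform -/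

theorem PG_E2F_ne_zero {N : ℕ} {g : CuspForm (Gamma0 N) 2} (hg : g.IsNormalizedEigenform) :
    g ≠ 0 := by
  intro h0
  have h1 := hg.qCoeff_one
  rw [h0, ModularFormClass.qCoeff] at h1
  have h2 : ((⇑(0 : CuspForm (Gamma0 N) 2)) : ℍ → ℂ) = 0 := rfl
  rw [h2, qExpansion_zero] at h1
  simp at h1

theorem PG_E2F_period (N : ℕ) [NeZero N] {g : CuspForm (Gamma0 N) 2}
    (hg : g.IsNormalizedEigenform) :
    ∃ pml : CuspForm (Gamma0 N) 2 →ₗ[ℂ] (Additive (Gamma0 N) →+ ℂ),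
      (∀ f, pml f = ModularCurve.periodMap N f) ∧ pml g ≠ 0 ∧
        pml g ∈ ModularCurve.Period.parabolicHoms ℂ (Gamma0 N) ℂ := by
  obtain ⟨hinj, hrange⟩ := Fermat.Agent.S21.result N
  have hg0 : g ≠ 0 := PG_E2F_ne_zero hg
  have hE : ModularCurve.ExistsPeriodMapLinear N := by
    by_contra hE
    have h0 : ModularCurve.periodHomPair N = 0 := by
      unfold ModularCurve.periodHomPair
      rw [dif_neg hE]
    have h1 : ((g, 0) : CuspForm (Gamma0 N) 2 × CuspForm (Gamma0 N) 2) = 0 := by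
      apply hinj
      rw [h0]
      rfl
    exact hg0 (congrArg Prod.fst h1)
  obtain ⟨pml, hpml, hdef⟩ := ModularCurve.periodHomPair_def N hE
  have hval : ModularCurve.periodHomPair N (g, g) = (2 : ℂ) • pml g := by
    rw [hdef]
    simp only [LinearMap.coprod_apply, LinearMap.comp_apply, LinearMap.add_apply,
      LinearMap.sub_apply, LinearMap.id_apply]
    rw [two_smul]
    abel
  refine ⟨pml, hpml, ?_, ?_⟩
  · intro h0
    rw [h0, smul_zero] at hval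
    have h1 : ((g, g) : CuspForm (Gamma0 N) 2 × CuspForm (Gamma0 N) 2) = 0 := by
      apply hinj
      rw [hval, map_zero]
    exact hg0 (congrArg Prod.fst h1)
  · rw [← hrange]
    refine ⟨(2 : ℂ)⁻¹ • (g, g), ?_⟩
    rw [map_smul, hval, smul_smul]
    norm_num


/-! ### The eigenvector in `ℂ ⊗ M` -/

theorem PG_E2F_eigen_complex (N : ℕ) [NeZero N] {g : CuspForm (Gamma0 N) 2}
    (hg : g.IsNormalizedEigenform) :
    ∃ v : ℂ ⊗[ℤ] (PG_M N), v ≠ 0 ∧
      ∀ (ℓ : ℕ) (hℓ : ℓ.Prime), ¬ ℓ ∣ N → ∀ [NeZero ℓ],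
        (PG_E2F_TM N ℓ).baseChange ℂ v = ModularFormClass.qCoeff g ℓ • v := by
  obtain ⟨pml, hpml, hne, hmem⟩ := PG_E2F_period N hg
  obtain ⟨-, -, hinj, hrange⟩ := Fermat.Agent.G_helper3_G2aLATTICE.PG_lattice N
  rw [← hrange] at hmem
  obtain ⟨v, hv⟩ := hmem
  refine ⟨v, ?_, ?_⟩
  · intro h0
    rw [h0, map_zero] at hv
    exact hne hv.symm
  · intro ℓ hℓ hℓN _
    apply hinj
    rw [PG_E2F_latticeMap_hecke, map_smul, hv, hpml]
    have h1 := Fermat.Agent.G_helper23_G1b.PG_period_hecke N ℓ hℓ hℓN g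
    have h2 := Fermat.Agent.G_helper23_G1b.PG_eigen_of_normalized hg hℓ hℓN
    rw [h2, ← hpml, ← hpml, map_smul] at h1
    rw [← hpml]
    exact h1.symm


/-! ### From `k ⊗ M` to `k ⊗ J₀(N)[p]` -/

/-- `Θ₀` with values in the `p`-torsion. -/
def PG_E2F_theta (N p : ℕ) [NeZero N] (Θ₀ : PG_M N →+ ModularCurve.JZero N)
    (h : ∀ c : PG_M N, (p : ℤ) • Θ₀ c = 0) : PG_M N →+ PG_Jp N p where
  toFun c := ⟨Θ₀ c, by rw [PG_mem_Jp, ← natCast_zsmul]; exact h c⟩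
  map_zero' := Subtype.ext (map_zero Θ₀)
  map_add' c c' := Subtype.ext (map_add Θ₀ c c')

theorem PG_E2F_theta_coe (N p : ℕ) [NeZero N] (Θ₀ : PG_M N →+ ModularCurve.JZero N)
    (h : ∀ c : PG_M N, (p : ℤ) • Θ₀ c = 0) (c : PG_M N) :
    ((PG_E2F_theta N p Θ₀ h c : PG_Jp N p) : ModularCurve.JZero N) = Θ₀ c := rfl

section Push

variable (N p : ℕ) [NeZero N] [Fact p.Prime] (k : Type) [Field k] [Algebra (ZMod p) k]
variable (θ : PG_M N →+ PG_Jp N p)

/-- The `k`-linear map `k ⊗ M → k ⊗ J₀(N)[p]` induced by `θ`. -/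
def PG_E2F_push : k ⊗[ℤ] (PG_M N) →ₗ[k] k ⊗[ZMod p] (PG_Jp N p) :=
  LinearMap.liftBaseChange k
    (((TensorProduct.mk (ZMod p) k (PG_Jp N p) 1).toAddMonoidHom.comp θ).toIntLinearMap)

theorem PG_E2F_push_tmul (a : k) (c : PG_M N) :
    PG_E2F_push N p k θ (a ⊗ₜ[ℤ] c) = a ⊗ₜ[ZMod p] θ c := by
  rw [PG_E2F_push, LinearMap.liftBaseChange_tmul]
  show a • ((1 : k) ⊗ₜ[ZMod p] θ c) = a ⊗ₜ[ZMod p] θ c
  rw [TensorProduct.smul_tmul', smul_eq_mul, mul_one]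


theorem PG_E2F_linearIndependent [Module.Finite ℤ (PG_M N)] [Module.Free ℤ (PG_M N)]
    (hθ : ∀ c : PG_M N, θ c = 0 → ∃ c' : PG_M N, c = (p : ℤ) • c') :
    LinearIndependent (ZMod p)
      (fun i : Module.Free.ChooseBasisIndex ℤ (PG_M N) =>
        θ (Module.Free.chooseBasis ℤ (PG_M N) i)) := by
  classical
  set bM := Module.Free.chooseBasis ℤ (PG_M N) with hbM
  rw [Fintype.linearIndependent_iff]
  intro g hg i
  have h1 : θ (∑ j, ((g j).val : ℤ) • bM j) = ∑ j, g j • θ (bM j) := by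
    rw [map_sum]
    refine Finset.sum_congr rfl fun j _ => ?_
    rw [map_zsmul, ← Int.cast_smul_eq_zsmul (ZMod p)]
    congr 1
    rw [Int.cast_natCast, ZMod.natCast_zmod_val]
  obtain ⟨c', hc'⟩ := hθ _ (h1.trans hg)
  have h2 := congrArg (fun c => bM.repr c i) hc'
  simp only [map_sum, map_zsmul, Finsupp.coe_finsetSum, Finsupp.coe_smul, Finset.sum_apply,
    Pi.smul_apply, Module.Basis.repr_self, smul_eq_mul] at h2
  rw [Finset.sum_eq_single i (fun j _ hj => by rw [Finsupp.single_eq_of_ne hj.symm, mul_zero])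
    (fun h => absurd (Finset.mem_univ i) h), Finsupp.single_eq_same, mul_one] at h2
  have h3 : ((((g i).val : ℕ) : ℤ) : ZMod p) = (((p : ℤ) * bM.repr c' i : ℤ) : ZMod p) := by
    rw [h2]
  rw [Int.cast_natCast, ZMod.natCast_zmod_val, Int.cast_mul, Int.cast_natCast,
    ZMod.natCast_self, zero_mul] at h3
  exact h3

theorem PG_E2F_push_basis [Module.Finite ℤ (PG_M N)] [Module.Free ℤ (PG_M N)]
    (i : Module.Free.ChooseBasisIndex ℤ (PG_M N)) :
    PG_E2F_push N p k θ (Algebra.TensorProduct.basis k (Module.Free.chooseBasis ℤ (PG_M N)) i) =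
      (1 : k) ⊗ₜ[ZMod p] θ (Module.Free.chooseBasis ℤ (PG_M N) i) := by
  rw [Algebra.TensorProduct.basis_apply]
  exact PG_E2F_push_tmul N p k θ 1 _

theorem PG_E2F_push_injective [Module.Finite ℤ (PG_M N)] [Module.Free ℤ (PG_M N)]
    (hθ : ∀ c : PG_M N, θ c = 0 → ∃ c' : PG_M N, c = (p : ℤ) • c') :
    Function.Injective (PG_E2F_push N p k θ) := by
  classical
  have hli := PG_E2F_linearIndependent N p θ hθ
  have hlik : LinearIndependent k
      (fun i : Module.Free.ChooseBasisIndex ℤ (PG_M N) =>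
        (1 : k) ⊗ₜ[ZMod p] θ (Module.Free.chooseBasis ℤ (PG_M N) i)) :=
    Module.Flat.linearIndependent_one_tmul hli
  have hlik' : LinearIndependent k
      (fun i : Module.Free.ChooseBasisIndex ℤ (PG_M N) =>
        PG_E2F_push N p k θ
          (Algebra.TensorProduct.basis k (Module.Free.chooseBasis ℤ (PG_M N)) i)) := by
    have e : (fun i : Module.Free.ChooseBasisIndex ℤ (PG_M N) =>
        PG_E2F_push N p k θ
          (Algebra.TensorProduct.basis k (Module.Free.chooseBasis ℤ (PG_M N)) i)) =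
        (fun i : Module.Free.ChooseBasisIndex ℤ (PG_M N) =>
        (1 : k) ⊗ₜ[ZMod p] θ (Module.Free.chooseBasis ℤ (PG_M N) i)) :=
      funext fun i => PG_E2F_push_basis N p k θ i
    rw [e]
    exact hlik
  rw [injective_iff_map_eq_zero]
  intro x hx
  have h1 : PG_E2F_push N p k θ x =
      Finsupp.linearCombination k
        (fun i : Module.Free.ChooseBasisIndex ℤ (PG_M N) =>
          PG_E2F_push N p k θ
            (Algebra.TensorProduct.basis k (Module.Free.chooseBasis ℤ (PG_M N)) i))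
        ((Algebra.TensorProduct.basis k (Module.Free.chooseBasis ℤ (PG_M N))).repr x) := by
    conv_lhs =>
      rw [← (Algebra.TensorProduct.basis k
        (Module.Free.chooseBasis ℤ (PG_M N))).linearCombination_repr x]
    rw [LinearMap.map_finsupp_linearCombination]
    rfl
  rw [hx] at h1
  have h2 : (Algebra.TensorProduct.basis k (Module.Free.chooseBasis ℤ (PG_M N))).repr x = 0 := by
    have h3 := hlik'
    rw [linearIndependent_iff] at h3
    exact h3 _ h1.symm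
  exact (LinearEquiv.map_eq_zero_iff _).1 h2


end Push

/-! ### The final statement -/

set_option maxHeartbeats 800000 in
theorem PG_E2F_push_hecke (N p : ℕ) [NeZero N] [Fact p.Prime] (k : Type) [Field k]
    [Algebra (ZMod p) k] (Θ₀ : PG_M N →+ ModularCurve.JZero N) (hΘ₀ : PG_E2 N p Θ₀)
    (ℓ : Nat.Primes) (hℓN : ¬ (ℓ : ℕ) ∣ N) [NeZero (ℓ : ℕ)] (w : k ⊗[ℤ] (PG_M N)) :
    PG_E2F_push N p k (PG_E2F_theta N p Θ₀ hΘ₀.tors) ((PG_E2F_TM N (ℓ : ℕ)).baseChange k w) =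
      (PG_Tp N p ℓ).baseChange k (PG_E2F_push N p k (PG_E2F_theta N p Θ₀ hΘ₀.tors) w) := by
  induction w using TensorProduct.induction_on with
  | zero => rw [map_zero, map_zero, map_zero]
  | tmul a c =>
    have e1 : (PG_E2F_TM N (ℓ : ℕ)).baseChange k (a ⊗ₜ[ℤ] c) =
        a ⊗ₜ[ℤ] (PG_E2F_TM N (ℓ : ℕ) c) := LinearMap.baseChange_tmul _ _ _
    have e2 : (PG_Tp N p ℓ).baseChange k (a ⊗ₜ[ZMod p] (PG_E2F_theta N p Θ₀ hΘ₀.tors c)) =
        a ⊗ₜ[ZMod p] (PG_Tp N p ℓ (PG_E2F_theta N p Θ₀ hΘ₀.tors c)) :=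
      LinearMap.baseChange_tmul _ _ _
    have e3 : PG_E2F_theta N p Θ₀ hΘ₀.tors (PG_E2F_TM N (ℓ : ℕ) c) =
        PG_Tp N p ℓ (PG_E2F_theta N p Θ₀ hΘ₀.tors c) := by
      apply Subtype.ext
      rw [PG_coe_Tp_apply, PG_E2F_theta_coe, PG_E2F_theta_coe]
      exact (hΘ₀.hecke ℓ c (PG_E2F_TM N (ℓ : ℕ) c) hℓN rfl).symm
    rw [e1, PG_E2F_push_tmul, PG_E2F_push_tmul, e2, e3]
  | add x y hx hy => rw [map_add, map_add, map_add, map_add, hx, hy]

/-- **GE2-FINAL.** From `Θ₀` to the contract of the wiring.  The commutativity of the Hecke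
operators on parabolic homomorphisms (piece G1c) is a hypothesis. -/
theorem PG_E2_of_theta (N : ℕ) [NeZero N] {g : CuspForm (Gamma0 N) 2}
    (hg : g.IsNormalizedEigenform) {p : ℕ} (hp : p.Prime) {k : Type} [Field k]
    [Algebra (ZMod p) k] (φ : integralClosure ℤ ℂ →+* k)
    (Θ₀ : PG_M N →+ ModularCurve.JZero N) (hΘ₀ : PG_E2 N p Θ₀)
    (hcomm : ∀ (ℓ ℓ' : ℕ) [NeZero ℓ] [NeZero ℓ'], ℓ.Prime → ℓ'.Prime → ¬ ℓ ∣ N → ¬ ℓ' ∣ N →
      ∀ c : Additive (Gamma0 N) →+ ℤ, ModularCurve.Period.IsParabolicHom (Gamma0 N) c →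
        PG_heckeHom N ℓ (PG_heckeHom N ℓ' c) = PG_heckeHom N ℓ' (PG_heckeHom N ℓ c)) :
    PG_E2_statement N g p k φ := by
  classical
  haveI : Fact p.Prime := ⟨hp⟩
  haveI : CharP k p := charP_of_injective_algebraMap (algebraMap (ZMod p) k).injective p
  obtain ⟨hfin, hfree, -, -⟩ := Fermat.Agent.G_helper3_G2aLATTICE.PG_lattice N
  haveI := hfin
  haveI := hfree
  obtain ⟨v, hv, hav⟩ := PG_E2F_eigen_complex N hg
  let T : {ℓ : Nat.Primes // ¬ (ℓ : ℕ) ∣ N * p} → Module.End ℤ (PG_M N) := fun i =>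
    haveI : NeZero ((i.1 : Nat.Primes) : ℕ) := ⟨i.1.2.ne_zero⟩
    PG_E2F_TM N ((i.1 : Nat.Primes) : ℕ)
  have hN : ∀ i : {ℓ : Nat.Primes // ¬ (ℓ : ℕ) ∣ N * p}, ¬ ((i.1 : Nat.Primes) : ℕ) ∣ N :=
    fun i h => i.2 (Dvd.dvd.mul_right h p)
  have hT : ∀ i j, Commute (T i) (T j) := by
    intro i j
    haveI : NeZero ((i.1 : Nat.Primes) : ℕ) := ⟨i.1.2.ne_zero⟩
    haveI : NeZero ((j.1 : Nat.Primes) : ℕ) := ⟨j.1.2.ne_zero⟩
    apply LinearMap.ext
    intro c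
    apply Subtype.ext
    exact hcomm _ _ i.1.2 j.1.2 (hN i) (hN j) _ c.2
  have hav' : ∀ i, (T i).baseChange ℂ v =
      (fun i : {ℓ : Nat.Primes // ¬ (ℓ : ℕ) ∣ N * p} =>
        ModularFormClass.qCoeff g ((i.1 : Nat.Primes) : ℕ)) i • v := by
    intro i
    haveI : NeZero ((i.1 : Nat.Primes) : ℕ) := ⟨i.1.2.ne_zero⟩
    exact hav _ i.1.2 (hN i)
  obtain ⟨b, x, hb, hx, hbx⟩ :=
    Fermat.Agent.G_helper18_REDUCE.PG_reduce_eigen T hT v hv _ hav' hp φ
  refine ⟨PG_E2F_push N p k (PG_E2F_theta N p Θ₀ hΘ₀.tors) x, ?_, ?_⟩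
  · intro h0
    apply hx
    apply PG_E2F_push_injective N p k (PG_E2F_theta N p Θ₀ hΘ₀.tors) ?_
    · rw [h0, map_zero]
    · intro c hc
      apply hΘ₀.inj c
      have := congrArg Subtype.val hc
      exact this
  · intro ℓ hℓ
    haveI : NeZero ((ℓ : Nat.Primes) : ℕ) := ⟨ℓ.2.ne_zero⟩
    refine ⟨b ⟨ℓ, hℓ⟩, hb ⟨ℓ, hℓ⟩, ?_⟩
    have h1 := PG_E2F_push_hecke N p k Θ₀ hΘ₀ ℓ (hN ⟨ℓ, hℓ⟩) x
    rw [← h1]
    have h2 := hbx ⟨ℓ, hℓ⟩
    show PG_E2F_push N p k (PG_E2F_theta N p Θ₀ hΘ₀.tors) ((T ⟨ℓ, hℓ⟩).baseChange k x) = _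
    rw [h2, map_smul]

end Fermat.Agent.G_helper6_E2FINAL
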