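import Fermat.Agent.G_helper6_E2GEN
import Fermat.Agent.G_helper6_E2FINAL
import Fermat.Agent.G_helper26_G8
import Fermat.Agent.G_helper24_G1cCOMM2
import Fermat.Agent.G_helper29_S29W

/-!
# Project G: the input (E2), unconditionally

* `PG_E2PLUG_family` : for every level `N` a compatible family of Hecke-equivariant maps
  `Θ₀ m : M → J₀(N)(ℚ̄)[m]` (all moduli `m ≥ 1`), injective modulo `m`, with finite
  `J₀(N)(ℚ̄)[m]`;
* `PG_E2PLUG_adic`   : the same for the powers of `p` (the input of S30 and S31);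
* `PG_E2_all`        : the input (E2) of the wiring of S29 and S42.
-/

set_option autoImplicit false
set_option linter.style.haveILetI false
set_option linter.unusedVariables false

open UpperHalfPlane ModularForm CongruenceSubgroup AlgebraicCurve
open scoped MatrixGroups ModularForm Manifold TensorProduct
open Fermat.Agent.G_helper6_Defs

noncomputable section

namespace Fermat.Agent.G_helper6_E2PLUG

/-- **Project G for all moduli.** -/
theorem PG_E2PLUG_family (N : ℕ) [NeZero N] :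
    ∃ Θ₀ : ℕ → PG_M N →+ ModularCurve.JZero N,
      (∀ m, 0 < m → PG_E2 N m (Θ₀ m)) ∧
      ∀ (m m' : ℕ) (c : PG_M N), 0 < m → 0 < m' → (m' : ℤ) • Θ₀ (m * m') c = Θ₀ m c :=
  Fermat.Agent.G_helper6_E2GEN.PG_E2GEN_main N (Fermat.Agent.G_helper26_G8.PG8_b_injective ℂ N)

/-- **Project G for the powers of `p`.** -/
theorem PG_E2PLUG_adic (N p : ℕ) [NeZero N] (hp : 0 < p) :
    ∃ Θ : ℕ → PG_M N →+ ModularCurve.JZero N,
      (∀ n, PG_E2 N (p ^ n) (Θ n)) ∧ ∀ (n : ℕ) (c : PG_M N), (p : ℤ) • Θ (n + 1) c = Θ n c :=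
  Fermat.Agent.G_helper6_E2GEN.PG_E2GEN_adic N p hp
    (Fermat.Agent.G_helper26_G8.PG8_b_injective ℂ N)

/-- **Project G for one modulus.** -/
theorem PG_E2PLUG_exists (N m : ℕ) [NeZero N] (hm : 0 < m) :
    ∃ Θ₀ : PG_M N →+ ModularCurve.JZero N, PG_E2 N m Θ₀ := by
  obtain ⟨Θ₀, h, -⟩ := PG_E2PLUG_family N
  exact ⟨Θ₀ m, h m hm⟩

/-- **(E2) for all levels, eigenforms, primes and coefficient fields.** -/
theorem PG_E2_all : Fermat.Agent.G_helper29_S29W.PGS_E2_all := by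
  intro N _ g hg p hp k _ _ φ
  obtain ⟨Θ₀, hΘ₀⟩ := PG_E2PLUG_exists N p hp.pos
  exact Fermat.Agent.G_helper6_E2FINAL.PG_E2_of_theta N hg hp φ Θ₀ hΘ₀
    (fun ℓ ℓ' _ _ hℓ hℓ' hℓN hℓ'N c hc =>
      Fermat.Agent.G_helper24_G1cCOMM2.PG_heckeHom_comm N ℓ ℓ' hℓ hℓ' hℓN hℓ'N c hc)

end Fermat.Agent.G_helper6_E2PLUG
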