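import Mathlib

set_option autoImplicit false
set_option linter.unusedSectionVars false
set_option linter.unusedVariables false

/-! # Project G, piece G9a (helper9): the Euler product of the Dedekind zeta function as a sieve
inequality.

For a number field `M`, `s > 1` and `g(I) = N(I)^{-s}` (summable over the ideals of `𝓞 M`),
with `Z = ∑ g(I)`:

* `PG9a_sieve_prod` : `∑_{I prime to F} g(I) = Z * ∏_{P ∈ F} (1 - g(P))` for a finite set `F` of
  nonzero primes;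
* `PG9a_S1_le_log` : `∑_P g(P) ≤ log Z`;
* `PG9a_log_le` : `log Z ≤ ∑_P g(P) + 2 ∑_P g(P)^2`

(sums over the nonzero prime ideals, written as indicator sums over all ideals).
-/


open NumberField

namespace Fermat.Agent.G_helper9_FDEULER

variable (M : Type*) [Field M] [NumberField M]

/-- `g_s(I) = N(I)^{-s}` -/
noncomputable def PG9a_g (s : ℝ) (I : Ideal (𝓞 M)) : ℝ := ((Ideal.absNorm I : ℕ) : ℝ) ^ (-s)

variable {M}

theorem PG9a_g_nonneg (s : ℝ) (I : Ideal (𝓞 M)) : 0 ≤ PG9a_g M s I :=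
  Real.rpow_nonneg (Nat.cast_nonneg _) _

theorem PG9a_g_mul (s : ℝ) (I J : Ideal (𝓞 M)) :
    PG9a_g M s (I * J) = PG9a_g M s I * PG9a_g M s J := by
  unfold PG9a_g
  rw [map_mul, Nat.cast_mul, Real.mul_rpow (Nat.cast_nonneg _) (Nat.cast_nonneg _)]

theorem PG9a_g_top (s : ℝ) : PG9a_g M s ⊤ = 1 := by
  unfold PG9a_g
  simp

theorem PG9a_g_bot {s : ℝ} (hs : 0 < s) : PG9a_g M s ⊥ = 0 := by
  unfold PG9a_g
  simp [Real.zero_rpow (neg_ne_zero.mpr hs.ne')]

theorem PG9a_g_le_one {s : ℝ} (hs : 0 < s) (I : Ideal (𝓞 M)) : PG9a_g M s I ≤ 1 := by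
  unfold PG9a_g
  rcases Nat.eq_zero_or_pos (Ideal.absNorm I) with h | h
  · rw [h]; simp [Real.zero_rpow (neg_ne_zero.mpr hs.ne')]
  · apply Real.rpow_le_one_of_one_le_of_nonpos
    · exact_mod_cast h
    · linarith

theorem PG9a_two_le_absNorm {P : Ideal (𝓞 M)} (hP : P.IsPrime) (hP0 : P ≠ ⊥) :
    2 ≤ Ideal.absNorm P := by
  have h0 : Ideal.absNorm P ≠ 0 := by
    rw [Ne, Ideal.absNorm_eq_zero_iff]; exact hP0
  have h1 : Ideal.absNorm P ≠ 1 := by
    rw [Ne, Ideal.absNorm_eq_one_iff]; exact hP.ne_top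
  omega

theorem PG9a_g_le_half {s : ℝ} (hs : 1 < s) {P : Ideal (𝓞 M)} (hP : P.IsPrime) (hP0 : P ≠ ⊥) :
    PG9a_g M s P ≤ 1 / 2 := by
  unfold PG9a_g
  have h2 : (2 : ℝ) ≤ (Ideal.absNorm P : ℝ) := by exact_mod_cast PG9a_two_le_absNorm hP hP0
  calc ((Ideal.absNorm P : ℕ) : ℝ) ^ (-s) ≤ (2 : ℝ) ^ (-s) :=
        Real.rpow_le_rpow_of_nonpos (by norm_num) h2 (by linarith)
    _ ≤ (2 : ℝ) ^ (-1 : ℝ) := Real.rpow_le_rpow_of_exponent_le (by norm_num) (by linarith)
    _ = 1 / 2 := by rw [Real.rpow_neg_one]; norm_num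

/-- ideals prime to all members of `F` -/
def PG9a_C (F : Finset (Ideal (𝓞 M))) : Set (Ideal (𝓞 M)) := {I | ∀ P ∈ F, ¬ I ≤ P}

theorem PG9a_mul_mem_C_iff {F : Finset (Ideal (𝓞 M))} (hF : ∀ P ∈ F, P.IsPrime ∧ P ≠ ⊥)
    {Q : Ideal (𝓞 M)} (hQ : Q.IsPrime) (hQ0 : Q ≠ ⊥) (hQF : Q ∉ F) (J : Ideal (𝓞 M)) :
    Q * J ∈ PG9a_C F ↔ J ∈ PG9a_C F := by
  unfold PG9a_C
  simp only [Set.mem_ofPred_eq]
  constructor
  · intro h P hP hJP
    exact h P hP (le_trans Ideal.mul_le_right hJP)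
  · intro h P hP hQJ
    have hPp := (hF P hP).1
    rcases hPp.mul_le.mp hQJ with h1 | h1
    · have hQm : Q.IsMaximal := hQ.isMaximal hQ0
      have := hQm.eq_of_le hPp.ne_top h1
      exact hQF (this ▸ hP)
    · exact h P hP h1

theorem PG9a_sieve_step {s : ℝ}
    (hsum : Summable (PG9a_g M s)) {F : Finset (Ideal (𝓞 M))}
    (hF : ∀ P ∈ F, P.IsPrime ∧ P ≠ ⊥)
    {Q : Ideal (𝓞 M)} (hQ : Q.IsPrime) (hQ0 : Q ≠ ⊥) (hQF : Q ∉ F) :
    ∑' I, (PG9a_C (insert Q F)).indicator (PG9a_g M s) I =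
      (1 - PG9a_g M s Q) * ∑' I, (PG9a_C F).indicator (PG9a_g M s) I := by
  classical
  have hsF : Summable ((PG9a_C F).indicator (PG9a_g M s)) := hsum.indicator _
  have hsQF : Summable ((PG9a_C (insert Q F)).indicator (PG9a_g M s)) := hsum.indicator _
  -- the third family
  set D : Set (Ideal (𝓞 M)) := {I | I ∈ PG9a_C F ∧ I ≤ Q} with hD
  have hsD : Summable (D.indicator (PG9a_g M s)) := hsum.indicator _
  have hsplit : ∀ I, (PG9a_C F).indicator (PG9a_g M s) I =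
      (PG9a_C (insert Q F)).indicator (PG9a_g M s) I + D.indicator (PG9a_g M s) I := by
    intro I
    by_cases h1 : I ∈ PG9a_C F
    · by_cases h2 : I ≤ Q
      · have h3 : I ∉ PG9a_C (insert Q F) := fun h => h Q (Finset.mem_insert_self _ _) h2
        have h4 : I ∈ D := ⟨h1, h2⟩
        simp [h1, h3, h4]
      · have h3 : I ∈ PG9a_C (insert Q F) := by
          intro P hP
          rcases Finset.mem_insert.mp hP with rfl | hP
          · exact h2
          · exact h1 P hP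
        have h4 : I ∉ D := fun h => h2 h.2
        simp [h1, h3, h4]
    · have h3 : I ∉ PG9a_C (insert Q F) := fun h => h1 (fun P hP => h P (Finset.mem_insert_of_mem hP))
      have h4 : I ∉ D := fun h => h1 h.1
      simp [h1, h3, h4]
  have hinj : Function.Injective (fun J : Ideal (𝓞 M) => Q * J) := by
    intro J J' h
    exact mul_left_cancel₀ hQ0 h
  have hsupp : Function.support (D.indicator (PG9a_g M s)) ⊆
      Set.range (fun J : Ideal (𝓞 M) => Q * J) := by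
    intro I hI
    have hID : I ∈ D := by
      by_contra h
      exact hI (Set.indicator_of_notMem h _)
    obtain ⟨J, rfl⟩ := Ideal.dvd_iff_le.mpr hID.2
    exact ⟨J, rfl⟩
  have hD_eq : ∑' I, D.indicator (PG9a_g M s) I =
      PG9a_g M s Q * ∑' I, (PG9a_C F).indicator (PG9a_g M s) I := by
    rw [← hinj.tsum_eq hsupp, ← tsum_mul_left]
    congr 1
    funext J
    by_cases h1 : J ∈ PG9a_C F
    · have h2 : Q * J ∈ D := ⟨(PG9a_mul_mem_C_iff hF hQ hQ0 hQF J).mpr h1, Ideal.mul_le_left⟩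
      simp only [Set.indicator_of_mem h2, Set.indicator_of_mem h1, PG9a_g_mul]
    · have h2 : Q * J ∉ D := fun h => h1 ((PG9a_mul_mem_C_iff hF hQ hQ0 hQF J).mp h.1)
      simp only [Set.indicator_of_notMem h2, Set.indicator_of_notMem h1, mul_zero]
  have h := (hsQF.tsum_add hsD)
  have h' : ∑' I, (PG9a_C F).indicator (PG9a_g M s) I =
      ∑' I, (PG9a_C (insert Q F)).indicator (PG9a_g M s) I + ∑' I, D.indicator (PG9a_g M s) I := by
    rw [← h]; exact tsum_congr hsplit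
  rw [hD_eq] at h'
  linarith



theorem PG9a_C_empty : PG9a_C (∅ : Finset (Ideal (𝓞 M))) = Set.univ := by
  ext I; simp [PG9a_C]

theorem PG9a_sieve_prod {s : ℝ} (hsum : Summable (PG9a_g M s)) (F : Finset (Ideal (𝓞 M)))
    (hF : ∀ P ∈ F, P.IsPrime ∧ P ≠ ⊥) :
    ∑' I, (PG9a_C F).indicator (PG9a_g M s) I =
      (∑' I, PG9a_g M s I) * ∏ P ∈ F, (1 - PG9a_g M s P) := by
  classical
  induction F using Finset.induction_on with
  | empty => simp [PG9a_C_empty]
  | insert Q F hQF ih =>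
    have hF' : ∀ P ∈ F, P.IsPrime ∧ P ≠ ⊥ := fun P hP => hF P (Finset.mem_insert_of_mem hP)
    have hQ := hF Q (Finset.mem_insert_self _ _)
    rw [PG9a_sieve_step hsum hF' hQ.1 hQ.2 hQF, ih hF', Finset.prod_insert hQF]
    ring

theorem PG9a_top_mem_C {F : Finset (Ideal (𝓞 M))} (hF : ∀ P ∈ F, P.IsPrime ∧ P ≠ ⊥) :
    (⊤ : Ideal (𝓞 M)) ∈ PG9a_C F := by
  intro P hP h
  exact (hF P hP).1.ne_top (top_le_iff.mp h)

theorem PG9a_one_le_sieve {s : ℝ} (hsum : Summable (PG9a_g M s)) (F : Finset (Ideal (𝓞 M)))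
    (hF : ∀ P ∈ F, P.IsPrime ∧ P ≠ ⊥) :
    1 ≤ ∑' I, (PG9a_C F).indicator (PG9a_g M s) I := by
  have hsF : Summable ((PG9a_C F).indicator (PG9a_g M s)) := hsum.indicator _
  have h := hsF.le_tsum (⊤ : Ideal (𝓞 M))
    (fun J _ => Set.indicator_nonneg (fun I _ => PG9a_g_nonneg s I) J)
  rwa [Set.indicator_of_mem (PG9a_top_mem_C hF), PG9a_g_top] at h

theorem PG9a_one_le_Z {s : ℝ} (hsum : Summable (PG9a_g M s)) : 1 ≤ ∑' I, PG9a_g M s I := by
  have h := hsum.le_tsum (⊤ : Ideal (𝓞 M)) (fun J _ => PG9a_g_nonneg s J)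
  rwa [PG9a_g_top] at h

/-- finite lower bound -/
theorem PG9a_sum_le_log {s : ℝ} (hs : 1 < s) (hsum : Summable (PG9a_g M s))
    (F : Finset (Ideal (𝓞 M))) (hF : ∀ P ∈ F, P.IsPrime ∧ P ≠ ⊥) :
    ∑ P ∈ F, PG9a_g M s P ≤ Real.log (∑' I, PG9a_g M s I) := by
  have hZ := PG9a_one_le_Z hsum
  have h1 := PG9a_one_le_sieve hsum F hF
  rw [PG9a_sieve_prod hsum F hF] at h1
  have hprod : ∏ P ∈ F, (1 - PG9a_g M s P) ≤ Real.exp (- ∑ P ∈ F, PG9a_g M s P) := by
    rw [← Finset.sum_neg_distrib, Real.exp_sum]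
    apply Finset.prod_le_prod
    · intro P hP
      have := PG9a_g_le_half hs (hF P hP).1 (hF P hP).2
      linarith
    · intro P hP
      have := Real.add_one_le_exp (-(PG9a_g M s P))
      linarith
  have h2 : 1 ≤ (∑' I, PG9a_g M s I) * Real.exp (- ∑ P ∈ F, PG9a_g M s P) :=
    le_trans h1 (mul_le_mul_of_nonneg_left hprod (by linarith))
  have h3 : Real.exp (∑ P ∈ F, PG9a_g M s P) ≤ ∑' I, PG9a_g M s I := by
    have hpos := Real.exp_pos (∑ P ∈ F, PG9a_g M s P)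
    have := mul_le_mul_of_nonneg_left h2 hpos.le
    rw [mul_one, mul_comm, mul_assoc, ← Real.exp_add] at this
    simpa using this
  calc ∑ P ∈ F, PG9a_g M s P = Real.log (Real.exp (∑ P ∈ F, PG9a_g M s P)) := (Real.log_exp _).symm
    _ ≤ Real.log (∑' I, PG9a_g M s I) := Real.log_le_log (Real.exp_pos _) h3

/-- the set of nonzero prime ideals -/
def PG9a_P (M : Type*) [Field M] [NumberField M] : Set (Ideal (𝓞 M)) := {P | P.IsPrime ∧ P ≠ ⊥}

theorem PG9a_S1_le_log {s : ℝ} (hs : 1 < s) (hsum : Summable (PG9a_g M s)) :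
    ∑' I, (PG9a_P M).indicator (PG9a_g M s) I ≤ Real.log (∑' I, PG9a_g M s I) := by
  classical
  apply (hsum.indicator _).tsum_le_of_sum_le
  intro T
  have : ∑ I ∈ T, (PG9a_P M).indicator (PG9a_g M s) I =
      ∑ I ∈ T.filter (· ∈ PG9a_P M), PG9a_g M s I := by
    rw [Finset.sum_filter]
    apply Finset.sum_congr rfl
    intro I _
    by_cases h : I ∈ PG9a_P M <;> simp [h]
  rw [this]
  apply PG9a_sum_le_log hs hsum
  intro P hP
  exact (Finset.mem_filter.mp hP).2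

theorem PG9a_neg_log_le {x : ℝ} (h1 : x ≤ 1 / 2) :
    - Real.log (1 - x) ≤ x + 2 * x ^ 2 := by
  have hpos : 0 < 1 - x := by linarith
  have h := Real.one_sub_inv_le_log_of_pos hpos
  have h2 : (1 - x)⁻¹ ≤ 1 + x + 2 * x ^ 2 := by
    rw [inv_le_iff_one_le_mul₀ hpos]
    nlinarith
  linarith



/-- a prime above a proper ideal (junk value for `⊤`) -/
noncomputable def PG9a_pr (I : Ideal (𝓞 M)) : Ideal (𝓞 M) :=
  if h : I = ⊤ then ⊤ else Classical.choose (Ideal.exists_le_maximal I h)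

theorem PG9a_pr_spec {I : Ideal (𝓞 M)} (h : I ≠ ⊤) :
    (PG9a_pr I).IsMaximal ∧ I ≤ PG9a_pr I := by
  unfold PG9a_pr
  rw [dif_neg h]
  exact Classical.choose_spec (Ideal.exists_le_maximal I h)

theorem PG9a_sq_le {s : ℝ} (hs : 0 < s) (I : Ideal (𝓞 M)) :
    PG9a_g M s I ^ 2 ≤ PG9a_g M s I := by
  have h0 := PG9a_g_nonneg s I
  have h1 := PG9a_g_le_one hs I
  nlinarith

theorem PG9a_summable_sq {s : ℝ} (hs : 0 < s) (hsum : Summable (PG9a_g M s)) :
    Summable (fun I => PG9a_g M s I ^ 2) :=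
  Summable.of_nonneg_of_le (fun I => sq_nonneg _) (PG9a_sq_le hs) hsum

theorem PG9a_log_le_eps {s : ℝ} (hs : 1 < s) (hsum : Summable (PG9a_g M s)) {ε : ℝ} (hε : 0 < ε) :
    Real.log (∑' I, PG9a_g M s I) ≤
      ε + (∑' I, (PG9a_P M).indicator (PG9a_g M s) I +
        2 * ∑' I, (PG9a_P M).indicator (fun I => PG9a_g M s I ^ 2) I) := by
  classical
  have hs0 : (0 : ℝ) < s := by linarith
  have hZ := PG9a_one_le_Z hsum
  -- choose `T`
  obtain ⟨T, hT⟩ : ∃ T : Finset (Ideal (𝓞 M)), ∑' a : {x // x ∉ T}, PG9a_g M s a < ε :=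
    ((tendsto_order.1 (tendsto_tsum_compl_atTop_zero (PG9a_g M s))).2 ε hε).exists
  set F : Finset (Ideal (𝓞 M)) := (T.filter (fun I => I ≠ ⊤ ∧ I ≠ ⊥)).image PG9a_pr with hFdef
  have hF : ∀ P ∈ F, P.IsPrime ∧ P ≠ ⊥ := by
    intro P hP
    obtain ⟨I, hI, rfl⟩ := Finset.mem_image.mp hP
    have hI' := (Finset.mem_filter.mp hI).2
    have hsp := PG9a_pr_spec hI'.1
    refine ⟨hsp.1.isPrime, ?_⟩
    intro h
    rw [h, le_bot_iff] at hsp
    exact hI'.2 hsp.2
  have hcov : ∀ I ∈ T, I ≠ ⊤ → I ≠ ⊥ → I ∉ PG9a_C F := by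
    intro I hI h1 h2 hC
    have hmem : PG9a_pr I ∈ F :=
      Finset.mem_image.mpr ⟨I, Finset.mem_filter.mpr ⟨hI, h1, h2⟩, rfl⟩
    exact hC _ hmem (PG9a_pr_spec h1).2
  -- pointwise bound
  have hpt : ∀ I, (PG9a_C F).indicator (PG9a_g M s) I ≤
      ({⊤} : Set (Ideal (𝓞 M))).indicator (PG9a_g M s) I +
        ((T : Set (Ideal (𝓞 M)))ᶜ).indicator (PG9a_g M s) I := by
    intro I
    have hn1 : 0 ≤ ({⊤} : Set (Ideal (𝓞 M))).indicator (PG9a_g M s) I :=
      Set.indicator_nonneg (fun I _ => PG9a_g_nonneg s I) I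
    have hn2 : 0 ≤ ((T : Set (Ideal (𝓞 M)))ᶜ).indicator (PG9a_g M s) I :=
      Set.indicator_nonneg (fun I _ => PG9a_g_nonneg s I) I
    by_cases hIC : I ∈ PG9a_C F
    · rw [Set.indicator_of_mem hIC]
      by_cases hItop : I = ⊤
      · rw [Set.indicator_of_mem (by simp [hItop] : I ∈ ({⊤} : Set (Ideal (𝓞 M))))]
        linarith
      · by_cases hIbot : I = ⊥
        · rw [hIbot] at hn1 hn2 ⊢
          rw [PG9a_g_bot hs0]; linarith
        · have hIT : I ∈ ((T : Set (Ideal (𝓞 M)))ᶜ) := by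
            intro hIT
            exact hcov I (Finset.mem_coe.mp hIT) hItop hIbot hIC
          rw [Set.indicator_of_mem hIT]
          linarith
    · rw [Set.indicator_of_notMem hIC]; linarith
  have hs1 : Summable (({⊤} : Set (Ideal (𝓞 M))).indicator (PG9a_g M s)) := hsum.indicator _
  have hs2 : Summable (((T : Set (Ideal (𝓞 M)))ᶜ).indicator (PG9a_g M s)) := hsum.indicator _
  have hsC : Summable ((PG9a_C F).indicator (PG9a_g M s)) := hsum.indicator _
  have hle : ∑' I, (PG9a_C F).indicator (PG9a_g M s) I ≤ 1 + ε := by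
    calc ∑' I, (PG9a_C F).indicator (PG9a_g M s) I
        ≤ ∑' I, (({⊤} : Set (Ideal (𝓞 M))).indicator (PG9a_g M s) I +
            ((T : Set (Ideal (𝓞 M)))ᶜ).indicator (PG9a_g M s) I) :=
          hsC.tsum_le_tsum hpt (hs1.add hs2)
      _ = ∑' I, ({⊤} : Set (Ideal (𝓞 M))).indicator (PG9a_g M s) I +
            ∑' I, ((T : Set (Ideal (𝓞 M)))ᶜ).indicator (PG9a_g M s) I := hs1.tsum_add hs2
      _ ≤ 1 + ε := by
          have e1 : ∑' I, ({⊤} : Set (Ideal (𝓞 M))).indicator (PG9a_g M s) I = 1 := by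
            rw [← tsum_subtype, tsum_singleton, PG9a_g_top]
          have e2 : ∑' I, ((T : Set (Ideal (𝓞 M)))ᶜ).indicator (PG9a_g M s) I =
              ∑' a : {x // x ∉ T}, PG9a_g M s a := by
            rw [← tsum_subtype]
            rfl
          rw [e1, e2]
          linarith
  rw [PG9a_sieve_prod hsum F hF] at hle
  -- take logs
  have hfac : ∀ P ∈ F, 0 < 1 - PG9a_g M s P := by
    intro P hP
    have := PG9a_g_le_half hs (hF P hP).1 (hF P hP).2
    linarith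
  have hprodpos : 0 < ∏ P ∈ F, (1 - PG9a_g M s P) := Finset.prod_pos hfac
  have hZpos : 0 < ∑' I, PG9a_g M s I := by linarith
  have hlog : Real.log ((∑' I, PG9a_g M s I) * ∏ P ∈ F, (1 - PG9a_g M s P)) ≤ Real.log (1 + ε) :=
    Real.log_le_log (mul_pos hZpos hprodpos) hle
  rw [Real.log_mul hZpos.ne' hprodpos.ne', Real.log_prod (fun P hP => (hfac P hP).ne')] at hlog
  have hlog1 : Real.log (1 + ε) ≤ ε := by
    have := Real.log_le_sub_one_of_pos (by linarith : (0 : ℝ) < 1 + ε)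
    linarith
  have hterm : ∀ P ∈ F, - Real.log (1 - PG9a_g M s P) ≤
      PG9a_g M s P + 2 * PG9a_g M s P ^ 2 := fun P hP =>
    PG9a_neg_log_le (PG9a_g_le_half hs (hF P hP).1 (hF P hP).2)
  have hsumF : - ∑ P ∈ F, Real.log (1 - PG9a_g M s P) ≤
      ∑ P ∈ F, (PG9a_g M s P + 2 * PG9a_g M s P ^ 2) := by
    rw [← Finset.sum_neg_distrib]
    exact Finset.sum_le_sum hterm
  -- compare with the infinite sums
  have hS1 : Summable ((PG9a_P M).indicator (PG9a_g M s)) := hsum.indicator _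
  have hS2 : Summable ((PG9a_P M).indicator (fun I => PG9a_g M s I ^ 2)) :=
    (PG9a_summable_sq hs0 hsum).indicator _
  have hF1 : ∑ P ∈ F, PG9a_g M s P ≤ ∑' I, (PG9a_P M).indicator (PG9a_g M s) I := by
    have h := hS1.sum_le_tsum F (fun I _ => Set.indicator_nonneg (fun I _ => PG9a_g_nonneg s I) I)
    refine le_trans (le_of_eq ?_) h
    apply Finset.sum_congr rfl
    intro P hP
    have hPm : P ∈ PG9a_P M := hF P hP
    rw [Set.indicator_of_mem hPm]
  have hF2 : ∑ P ∈ F, PG9a_g M s P ^ 2 ≤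
      ∑' I, (PG9a_P M).indicator (fun I => PG9a_g M s I ^ 2) I := by
    have h := hS2.sum_le_tsum F (fun I _ => Set.indicator_nonneg (fun I _ => sq_nonneg _) I)
    refine le_trans (le_of_eq ?_) h
    apply Finset.sum_congr rfl
    intro P hP
    have hPm : P ∈ PG9a_P M := hF P hP
    rw [Set.indicator_of_mem hPm]
  have hsplit : ∑ P ∈ F, (PG9a_g M s P + 2 * PG9a_g M s P ^ 2) =
      ∑ P ∈ F, PG9a_g M s P + 2 * ∑ P ∈ F, PG9a_g M s P ^ 2 := by
    rw [Finset.sum_add_distrib, Finset.mul_sum]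
  linarith

theorem PG9a_log_le {s : ℝ} (hs : 1 < s) (hsum : Summable (PG9a_g M s)) :
    Real.log (∑' I, PG9a_g M s I) ≤
      ∑' I, (PG9a_P M).indicator (PG9a_g M s) I +
        2 * ∑' I, (PG9a_P M).indicator (fun I => PG9a_g M s I ^ 2) I := by
  apply le_of_forall_pos_le_add
  intro ε hε
  have := PG9a_log_le_eps hs hsum hε
  linarith

end Fermat.Agent.G_helper9_FDEULER
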