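import Mathlib
import Fermat.Agent.G_helper9_FDDefs
import Fermat.Agent.G_helper9_FDEULER

set_option autoImplicit false
set_option linter.unusedSectionVars false
set_option linter.unusedVariables false
set_option linter.deprecated false
set_option linter.style.haveILetI false

/-! # Project G, piece G9a (helper9): degree-one primes

* `PG9a_primeSum_eq` : `PG_primeSum M s = ∑_{N(I) prime} N(I)^{-s}`;
* `PG9a_deg2` : the nonzero primes whose norm is not a prime number contribute at most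
  `[M:ℚ] * ∑_p p^{-2}`.
-/

open NumberField

namespace Fermat.Agent.G_helper9_FDPRIME

open Fermat.Agent.G_helper9_FDDefs Fermat.Agent.G_helper9_FDEULER

variable {M : Type*} [Field M] [NumberField M]

/-- ideals of prime norm -/
def PG9a_P1 (M : Type*) [Field M] [NumberField M] : Set (Ideal (𝓞 M)) :=
  {I | (Ideal.absNorm I).Prime}

/-- nonzero primes whose norm is not a prime number -/
def PG9a_P2 (M : Type*) [Field M] [NumberField M] : Set (Ideal (𝓞 M)) :=
  {P | (P.IsPrime ∧ P ≠ ⊥) ∧ ¬ (Ideal.absNorm P).Prime}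

theorem PG9a_P1_subset : PG9a_P1 M ⊆ PG9a_P M := by
  intro I hI
  have hI' : (Ideal.absNorm I).Prime := hI
  refine ⟨Ideal.isPrime_of_irreducible_absNorm hI'.prime.irreducible, ?_⟩
  intro h
  rw [h, Ideal.absNorm_bot] at hI'
  exact Nat.not_prime_zero hI'

theorem PG9a_indicator_P_eq (f : Ideal (𝓞 M) → ℝ) (I : Ideal (𝓞 M)) :
    (PG9a_P M).indicator f I = (PG9a_P1 M).indicator f I + (PG9a_P2 M).indicator f I := by
  classical
  by_cases h1 : I ∈ PG9a_P1 M
  · have h2 : I ∉ PG9a_P2 M := fun h => h.2 h1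
    rw [Set.indicator_of_mem h1, Set.indicator_of_mem (PG9a_P1_subset h1),
      Set.indicator_of_notMem h2, add_zero]
  · by_cases h3 : I ∈ PG9a_P M
    · have h2 : I ∈ PG9a_P2 M := ⟨h3, h1⟩
      rw [Set.indicator_of_mem h3, Set.indicator_of_mem h2, Set.indicator_of_notMem h1, zero_add]
    · have h2 : I ∉ PG9a_P2 M := fun h => h3 h.1
      rw [Set.indicator_of_notMem h3, Set.indicator_of_notMem h2, Set.indicator_of_notMem h1,
        zero_add]

/-- fibrewise form of the indicator sum over the ideals of prime norm -/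
theorem PG9a_fiber_sum (s : ℝ) (n : ℕ) :
    ∑' I : {I : Ideal (𝓞 M) // Ideal.absNorm I = n}, (PG9a_P1 M).indicator (PG9a_g M s) I.1 =
      {n : ℕ | n.Prime}.indicator (fun n => (PG_idealCount M n : ℝ) * (n : ℝ) ^ (-s)) n := by
  classical
  have h : ∀ I : {I : Ideal (𝓞 M) // Ideal.absNorm I = n},
      (PG9a_P1 M).indicator (PG9a_g M s) I.1 =
        {n : ℕ | n.Prime}.indicator (fun n => (n : ℝ) ^ (-s)) n := by
    rintro ⟨I, hI⟩
    by_cases hn : n.Prime
    · have h1 : I ∈ PG9a_P1 M := by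
        show (Ideal.absNorm I).Prime
        rw [hI]; exact hn
      have h2 : n ∈ {n : ℕ | n.Prime} := hn
      rw [Set.indicator_of_mem h1, Set.indicator_of_mem h2]
      show ((Ideal.absNorm I : ℕ) : ℝ) ^ (-s) = _
      rw [hI]
    · have h1 : I ∉ PG9a_P1 M := by
        intro h
        have h' : (Ideal.absNorm I).Prime := h
        rw [hI] at h'
        exact hn h'
      have h2 : n ∉ {n : ℕ | n.Prime} := hn
      rw [Set.indicator_of_notMem h1, Set.indicator_of_notMem h2]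
  rw [tsum_congr h, tsum_const]
  by_cases hn : n.Prime
  · have h2 : n ∈ {n : ℕ | n.Prime} := hn
    rw [Set.indicator_of_mem h2, Set.indicator_of_mem h2, nsmul_eq_mul]
    rfl
  · have h2 : n ∉ {n : ℕ | n.Prime} := hn
    rw [Set.indicator_of_notMem h2, Set.indicator_of_notMem h2, smul_zero]

theorem PG9a_summable_sigma {s : ℝ} (hsum : Summable (PG9a_g M s)) :
    Summable (fun x : Σ n : ℕ, {I : Ideal (𝓞 M) // Ideal.absNorm I = n} =>
      (PG9a_P1 M).indicator (PG9a_g M s) x.2.1) := by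
  have h := (Equiv.sigmaFiberEquiv (fun I : Ideal (𝓞 M) => Ideal.absNorm I)).summable_iff.mpr
    (hsum.indicator (PG9a_P1 M))
  exact h

theorem PG9a_summable_nat {s : ℝ} (hsum : Summable (PG9a_g M s)) :
    Summable ({n : ℕ | n.Prime}.indicator
      (fun n => (PG_idealCount M n : ℝ) * (n : ℝ) ^ (-s))) := by
  have h := (PG9a_summable_sigma hsum).sigma
  refine h.congr ?_
  intro n
  exact PG9a_fiber_sum (M := M) s n

/-- summability of the prime sum (from summability over the ideals) -/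
theorem PG9a_summable_primes {s : ℝ} (hsum : Summable (PG9a_g M s)) :
    Summable (fun p : Nat.Primes => (PG_idealCount M p : ℝ) * ((p : ℕ) : ℝ) ^ (-s)) := by
  have h := PG9a_summable_nat hsum
  have h2 := h.subtype {n : ℕ | n.Prime}
  refine h2.congr ?_
  rintro ⟨p, hp⟩
  have hp' : p ∈ {n : ℕ | n.Prime} := hp
  simp only [Function.comp_apply, Set.indicator_of_mem hp']

theorem PG9a_primeSum_eq {s : ℝ} (hsum : Summable (PG9a_g M s)) :
    PG_primeSum M s = ∑' I, (PG9a_P1 M).indicator (PG9a_g M s) I := by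
  have e1 : ∑' I, (PG9a_P1 M).indicator (PG9a_g M s) I =
      ∑' x : Σ n : ℕ, {I : Ideal (𝓞 M) // Ideal.absNorm I = n},
        (PG9a_P1 M).indicator (PG9a_g M s) x.2.1 :=
    ((Equiv.sigmaFiberEquiv (fun I : Ideal (𝓞 M) => Ideal.absNorm I)).tsum_eq
      ((PG9a_P1 M).indicator (PG9a_g M s))).symm
  have hfib : ∀ n : ℕ, Summable (fun I : {I : Ideal (𝓞 M) // Ideal.absNorm I = n} =>
      (PG9a_P1 M).indicator (PG9a_g M s) I.1) := by
    intro n
    exact (hsum.indicator (PG9a_P1 M)).subtype _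
  rw [e1, (PG9a_summable_sigma hsum).tsum_sigma' hfib]
  rw [tsum_congr (PG9a_fiber_sum (M := M) s), PG_primeSum_def]
  exact (tsum_subtype {n : ℕ | n.Prime} (fun n => (PG_idealCount M n : ℝ) * (n : ℝ) ^ (-s)))



/-- the rational prime below an ideal -/
noncomputable def PG9a_q (I : Ideal (𝓞 M)) : ℕ := Ideal.absNorm (Ideal.under ℤ I)

theorem PG9a_P2_facts {P : Ideal (𝓞 M)} (hP : P ∈ PG9a_P2 M) :
    (PG9a_q P).Prime ∧
      P ∈ IsDedekindDomain.primesOverFinset (Ideal.span {((PG9a_q P : ℕ) : ℤ)}) (𝓞 M) ∧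
      (PG9a_q P) ^ 2 ≤ Ideal.absNorm P := by
  haveI hPp : P.IsPrime := hP.1.1
  haveI : NeZero P := ⟨hP.1.2⟩
  have hq : (PG9a_q P).Prime := Nat.absNorm_under_prime P
  haveI hlo : P.LiesOver (Ideal.span {((PG9a_q P : ℕ) : ℤ)}) := Int.liesOver_span_absNorm P
  haveI : Fact (PG9a_q P).Prime := ⟨hq⟩
  haveI hmax : (Ideal.span {((PG9a_q P : ℕ) : ℤ)}).IsMaximal :=
    Int.ideal_span_isMaximal_of_prime (PG9a_q P)
  have hp0 : (Ideal.span {((PG9a_q P : ℕ) : ℤ)}) ≠ ⊥ := by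
    simpa using hq.ne_zero
  refine ⟨hq, ?_, ?_⟩
  · exact (IsDedekindDomain.mem_primesOverFinset_iff hp0 (𝓞 M)).mpr ⟨hPp, hlo⟩
  · have hpow := Ideal.absNorm_eq_pow_inertiaDeg' P hq
    set f := (Ideal.span {((PG9a_q P : ℕ) : ℤ)}).inertiaDeg' P with hf
    have h2 := PG9a_two_le_absNorm hP.1.1 hP.1.2
    have hf0 : f ≠ 0 := by
      intro h
      rw [h, pow_zero] at hpow
      omega
    have hf1 : f ≠ 1 := by
      intro h
      rw [h, pow_one] at hpow
      exact hP.2 (hpow ▸ hq)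
    rw [hpow]
    exact Nat.pow_le_pow_right hq.pos (by omega)

theorem PG9a_g_le_of_P2 {s : ℝ} (hs : 1 < s) {P : Ideal (𝓞 M)} (hP : P ∈ PG9a_P2 M) :
    PG9a_g M s P ≤ ((PG9a_q P : ℕ) : ℝ) ^ (-(2 : ℝ)) := by
  obtain ⟨hq, -, hle⟩ := PG9a_P2_facts hP
  have hqpos : (0 : ℝ) < (PG9a_q P : ℝ) := by exact_mod_cast hq.pos
  have hq1 : (1 : ℝ) ≤ (PG9a_q P : ℝ) := by exact_mod_cast hq.one_lt.le
  have hle' : ((PG9a_q P : ℕ) : ℝ) ^ (2 : ℝ) ≤ (Ideal.absNorm P : ℝ) := by
    rw [Real.rpow_two]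
    exact_mod_cast hle
  unfold PG9a_g
  calc ((Ideal.absNorm P : ℕ) : ℝ) ^ (-s)
      ≤ (((PG9a_q P : ℕ) : ℝ) ^ (2 : ℝ)) ^ (-s) :=
        Real.rpow_le_rpow_of_nonpos (Real.rpow_pos_of_pos hqpos _) hle' (by linarith)
    _ = ((PG9a_q P : ℕ) : ℝ) ^ (-(2 * s)) := by
        rw [← Real.rpow_mul hqpos.le]; congr 1; ring
    _ ≤ ((PG9a_q P : ℕ) : ℝ) ^ (-(2 : ℝ)) :=
        Real.rpow_le_rpow_of_exponent_le hq1 (by linarith)

theorem PG9a_summable_primes_two : Summable (fun p : Nat.Primes => ((p : ℕ) : ℝ) ^ (-(2 : ℝ))) :=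
  Nat.Primes.summable_rpow.mpr (by norm_num)

theorem PG9a_deg2 {s : ℝ} (hs : 1 < s) (hsum : Summable (PG9a_g M s)) :
    ∑' I, (PG9a_P2 M).indicator (PG9a_g M s) I ≤
      (Module.finrank ℚ M : ℝ) * ∑' p : Nat.Primes, ((p : ℕ) : ℝ) ^ (-(2 : ℝ)) := by
  classical
  apply (hsum.indicator _).tsum_le_of_sum_le
  intro T
  set T' : Finset (Ideal (𝓞 M)) := T.filter (· ∈ PG9a_P2 M) with hT'
  have e1 : ∑ I ∈ T, (PG9a_P2 M).indicator (PG9a_g M s) I = ∑ I ∈ T', PG9a_g M s I := by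
    rw [hT', Finset.sum_filter]
    apply Finset.sum_congr rfl
    intro I _
    by_cases h : I ∈ PG9a_P2 M <;> simp [h]
  rw [e1]
  have hT'mem : ∀ I ∈ T', I ∈ PG9a_P2 M := fun I hI => (Finset.mem_filter.mp hI).2
  set t : Finset ℕ := T'.image PG9a_q with ht
  have hmaps : ∀ I ∈ T', PG9a_q I ∈ t := fun I hI => Finset.mem_image_of_mem _ hI
  rw [← Finset.sum_fiberwise_of_maps_to hmaps]
  have htprime : ∀ p ∈ t, p.Prime := by
    intro p hp
    obtain ⟨I, hI, rfl⟩ := Finset.mem_image.mp hp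
    exact (PG9a_P2_facts (hT'mem I hI)).1
  -- bound each fibre
  have hfib : ∀ p ∈ t, ∑ I ∈ T' with PG9a_q I = p, PG9a_g M s I ≤
      (Module.finrank ℚ M : ℝ) * (p : ℝ) ^ (-(2 : ℝ)) := by
    intro p hp
    have hpp := htprime p hp
    haveI : Fact p.Prime := ⟨hpp⟩
    haveI hmax : (Ideal.span {((p : ℕ) : ℤ)}).IsMaximal := Int.ideal_span_isMaximal_of_prime p
    have hp0 : (Ideal.span {((p : ℕ) : ℤ)}) ≠ ⊥ := by simpa using hpp.ne_zero
    have hsub : (T'.filter (fun I => PG9a_q I = p)) ⊆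
        IsDedekindDomain.primesOverFinset (Ideal.span {((p : ℕ) : ℤ)}) (𝓞 M) := by
      intro I hI
      obtain ⟨hI1, hI2⟩ := Finset.mem_filter.mp hI
      have := (PG9a_P2_facts (hT'mem I hI1)).2.1
      rwa [hI2] at this
    have hcard : (T'.filter (fun I => PG9a_q I = p)).card ≤ Module.finrank ℚ M :=
      le_trans (Finset.card_le_card hsub)
        (Ideal.card_primesOverFinset_le_finrank (𝓞 M) ℚ M hp0)
    have hterm : ∀ I ∈ T'.filter (fun I => PG9a_q I = p),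
        PG9a_g M s I ≤ (p : ℝ) ^ (-(2 : ℝ)) := by
      intro I hI
      obtain ⟨hI1, hI2⟩ := Finset.mem_filter.mp hI
      have := PG9a_g_le_of_P2 hs (hT'mem I hI1)
      rwa [hI2] at this
    have h1 := Finset.sum_le_card_nsmul _ _ _ hterm
    rw [nsmul_eq_mul] at h1
    refine le_trans h1 ?_
    apply mul_le_mul_of_nonneg_right
    · exact_mod_cast hcard
    · exact Real.rpow_nonneg (Nat.cast_nonneg _) _
  refine le_trans (Finset.sum_le_sum hfib) ?_
  rw [← Finset.mul_sum]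
  apply mul_le_mul_of_nonneg_left _ (Nat.cast_nonneg _)
  -- finite sum over primes ≤ tsum
  have e2 : ∑ p ∈ t, (p : ℝ) ^ (-(2 : ℝ)) =
      ∑ p ∈ t.subtype Nat.Prime, ((p : ℕ) : ℝ) ^ (-(2 : ℝ)) :=
    (Finset.sum_subtype_of_mem (fun p : ℕ => (p : ℝ) ^ (-(2 : ℝ))) htprime).symm
  rw [e2]
  have key : ∀ u : Finset Nat.Primes, ∑ p ∈ u, ((p : ℕ) : ℝ) ^ (-(2 : ℝ)) ≤
      ∑' p : Nat.Primes, ((p : ℕ) : ℝ) ^ (-(2 : ℝ)) := fun u =>
    PG9a_summable_primes_two.sum_le_tsum u (fun p _ => Real.rpow_nonneg (Nat.cast_nonneg _) _)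
  exact key (t.subtype Nat.Prime)

end Fermat.Agent.G_helper9_FDPRIME
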