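import Mathlib
import Fermat.Agent.G_helper9_FDDefs
import Fermat.Agent.G_helper9_FDEULER

set_option autoImplicit false
set_option linter.unusedSectionVars false
set_option linter.unusedVariables false
set_option linter.deprecated false
set_option linter.style.haveILetI false

/-! # Project G, piece G9a (helper9): the Dedekind zeta function on the real half-line `s > 1`

* `PG9a_summable_nat` : `∑_n a_M(n) n^{-s}` converges for `s > 1`;
* `PG9a_logZeta_asymp` : `log (∑_n a_M(n) n^{-s}) = log (1/(s-1)) + O(1)` as `s → 1⁺`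
  (from Mathlib's class number formula `tendsto_sub_one_mul_dedekindZeta_nhdsGT`);
* `PG9a_summable_ideal`, `PG9a_tsum_ideal_eq` : the same series indexed by the ideals.
-/

open NumberField Filter Topology

namespace Fermat.Agent.G_helper9_FDZETA

open Fermat.Agent.G_helper9_FDDefs Fermat.Agent.G_helper9_FDEULER

/-- the ℕ-indexed real Dirichlet series term -/
noncomputable def PG9a_f (M : Type*) [Field M] [NumberField M] (s : ℝ) (n : ℕ) : ℝ :=
  (PG_idealCount M n : ℝ) * (n : ℝ) ^ (-s)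

theorem PG9a_f_nonneg (M : Type*) [Field M] [NumberField M] (s : ℝ) (n : ℕ) :
    0 ≤ PG9a_f M s n :=
  mul_nonneg (Nat.cast_nonneg _) (Real.rpow_nonneg (Nat.cast_nonneg _) _)

theorem PG9a_tendsto_avg (M : Type*) [Field M] [NumberField M] :
    Tendsto (fun n : ℕ ↦ (∑ k ∈ Finset.Icc 1 n, (PG_idealCount M k : ℝ)) / (n : ℝ)) atTop
      (𝓝 (dedekindZeta_residue M)) := by
  refine ((Ideal.tendsto_norm_le_div_atTop₀ M).comp tendsto_natCast_atTop_atTop).congr fun n ↦ ?_
  simp only [Function.comp_apply, Nat.cast_le, ← Nat.cast_sum]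
  congr
  rw [← add_left_inj 1, ← Ideal.card_norm_le_eq_card_norm_le_add_one,
    show Finset.Icc 1 n = Finset.Ioc 0 n from Finset.Icc_succ_left_eq_Ioc _ _,
    show 1 = Nat.card {I : Ideal (𝓞 M) // Ideal.absNorm I = 0} by
      simp [Ideal.absNorm_eq_zero_iff]]
  unfold PG_idealCount
  rw [Finset.sum_Ioc_add_eq_sum_Icc (n.zero_le),
    ← Finset.card_preimage_eq_sum_card_image_eq
      (fun k _ ↦ Ideal.finite_setOfPred_absNorm_eq k)]
  simp [Set.coe_eq_subtype]

theorem PG9a_lseriesSummable (M : Type*) [Field M] [NumberField M] {s : ℝ} (hs : 1 < s) :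
    LSeriesSummable (fun n ↦ ((PG_idealCount M n : ℝ) : ℂ)) (s : ℂ) := by
  refine LSeriesSummable_of_sum_norm_bigO_and_nonneg (f := fun n => (PG_idealCount M n : ℝ))
    ?_ (fun n => Nat.cast_nonneg _) zero_le_one (by simpa using hs)
  exact Asymptotics.isBigO_atTop_natCast_rpow_of_tendsto_div_rpow
    (a := dedekindZeta_residue M) (by simpa using PG9a_tendsto_avg M)

theorem PG9a_term_eq (M : Type*) [Field M] [NumberField M] {s : ℝ} (hs : 0 < s) (n : ℕ) :
    LSeries.term (fun n ↦ ((PG_idealCount M n : ℝ) : ℂ)) (s : ℂ) n = ((PG9a_f M s n : ℝ) : ℂ) := by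
  unfold PG9a_f
  rcases Nat.eq_zero_or_pos n with h | h
  · subst h
    simp [Real.zero_rpow (neg_ne_zero.mpr hs.ne')]
  · rw [LSeries.term_of_ne_zero h.ne']
    have hn : (0 : ℝ) ≤ (n : ℝ) := Nat.cast_nonneg _
    rw [Real.rpow_neg hn, Complex.ofReal_mul, Complex.ofReal_inv,
      Complex.ofReal_cpow hn, div_eq_mul_inv]
    simp

theorem PG9a_summable_nat (M : Type*) [Field M] [NumberField M] {s : ℝ} (hs : 1 < s) :
    Summable (fun n : ℕ => (PG_idealCount M n : ℝ) * (n : ℝ) ^ (-s)) := by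
  have h := PG9a_lseriesSummable M hs
  unfold LSeriesSummable at h
  have h2 : Summable (fun n : ℕ => ((PG9a_f M s n : ℝ) : ℂ)) :=
    h.congr (fun n => PG9a_term_eq M (by linarith) n)
  exact Complex.summable_ofReal.mp h2

theorem PG9a_dedekindZeta_eq (M : Type*) [Field M] [NumberField M] {s : ℝ} (hs : 1 < s) :
    dedekindZeta M (s : ℂ) = ((∑' n : ℕ, PG9a_f M s n : ℝ) : ℂ) := by
  rw [Complex.ofReal_tsum]
  show LSeries (fun n ↦ ((Nat.card {I : Ideal (𝓞 M) // Ideal.absNorm I = n} : ℕ) : ℂ)) (s : ℂ) = _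
  unfold LSeries
  apply tsum_congr
  intro n
  have := PG9a_term_eq M (s := s) (by linarith) n
  simpa [PG_idealCount] using this

theorem PG9a_tendsto_real (M : Type*) [Field M] [NumberField M] :
    Tendsto (fun s : ℝ ↦ (s - 1) * ∑' n : ℕ, PG9a_f M s n) (𝓝[>] 1)
      (𝓝 (dedekindZeta_residue M)) := by
  have h := tendsto_sub_one_mul_dedekindZeta_nhdsGT M
  rw [← Filter.tendsto_ofReal_iff]
  refine h.congr' ?_
  filter_upwards [self_mem_nhdsWithin] with s hs
  rw [PG9a_dedekindZeta_eq M hs]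
  push_cast
  rfl

theorem PG9a_one_le_Znat (M : Type*) [Field M] [NumberField M] {s : ℝ} (hs : 1 < s) :
    1 ≤ ∑' n : ℕ, PG9a_f M s n := by
  have h := (PG9a_summable_nat M hs).le_tsum 1 (fun n _ => PG9a_f_nonneg M s n)
  have h1 : PG9a_f M s 1 = 1 := by
    unfold PG9a_f PG_idealCount
    have : Nat.card {I : Ideal (𝓞 M) // Ideal.absNorm I = 1} = 1 := by
      simp [Ideal.absNorm_eq_one_iff]
    rw [this]; simp
  have h' : PG9a_f M s 1 ≤ ∑' n : ℕ, PG9a_f M s n := h
  rwa [h1] at h'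

theorem PG9a_logZeta_asymp (M : Type*) [Field M] [NumberField M] :
    ∃ C : ℝ, ∀ᶠ s in 𝓝[>] (1:ℝ),
      |Real.log (∑' n : ℕ, (PG_idealCount M n : ℝ) * (n : ℝ) ^ (-s)) - Real.log (1 / (s - 1))|
        ≤ C := by
  set ρ := dedekindZeta_residue M with hρ
  have hρpos : 0 < ρ := dedekindZeta_residue_pos M
  have ht := PG9a_tendsto_real M
  have hev : ∀ᶠ s in 𝓝[>] (1:ℝ), (s - 1) * ∑' n : ℕ, PG9a_f M s n ∈ Set.Ioo (ρ / 2) (2 * ρ) :=
    ht.eventually (Ioo_mem_nhds (by linarith) (by linarith))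
  refine ⟨max |Real.log (ρ / 2)| |Real.log (2 * ρ)|, ?_⟩
  filter_upwards [hev, self_mem_nhdsWithin] with s hs1 hs2
  have hs2' : (1 : ℝ) < s := hs2
  have hs0 : 0 < s - 1 := by linarith
  have hZ : 1 ≤ ∑' n : ℕ, PG9a_f M s n := PG9a_one_le_Znat M hs2'
  have hZpos : 0 < ∑' n : ℕ, PG9a_f M s n := by linarith
  have e : Real.log (∑' n : ℕ, (PG_idealCount M n : ℝ) * (n : ℝ) ^ (-s)) -
      Real.log (1 / (s - 1)) = Real.log ((s - 1) * ∑' n : ℕ, PG9a_f M s n) := by
    rw [Real.log_mul hs0.ne' hZpos.ne', one_div, Real.log_inv]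
    unfold PG9a_f
    ring
  rw [e]
  obtain ⟨h1, h2⟩ := hs1
  have hpos : 0 < (s - 1) * ∑' n : ℕ, PG9a_f M s n := by linarith
  have hl1 : Real.log (ρ / 2) ≤ Real.log ((s - 1) * ∑' n : ℕ, PG9a_f M s n) :=
    Real.log_le_log (by linarith) h1.le
  have hl2 : Real.log ((s - 1) * ∑' n : ℕ, PG9a_f M s n) ≤ Real.log (2 * ρ) :=
    Real.log_le_log hpos h2.le
  rw [abs_le]
  constructor
  · have := neg_abs_le (Real.log (ρ / 2))
    have := le_max_left |Real.log (ρ / 2)| |Real.log (2 * ρ)|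
    linarith
  · have := le_abs_self (Real.log (2 * ρ))
    have := le_max_right |Real.log (ρ / 2)| |Real.log (2 * ρ)|
    linarith



theorem PG9a_fiber_tsum (M : Type*) [Field M] [NumberField M] (s : ℝ) (n : ℕ) :
    ∑' I : {I : Ideal (𝓞 M) // Ideal.absNorm I = n}, PG9a_g M s I.1 = PG9a_f M s n := by
  have h : ∀ I : {I : Ideal (𝓞 M) // Ideal.absNorm I = n},
      PG9a_g M s I.1 = (n : ℝ) ^ (-s) := by
    rintro ⟨I, hI⟩
    show ((Ideal.absNorm I : ℕ) : ℝ) ^ (-s) = _
    rw [hI]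
  rw [tsum_congr h, tsum_const, nsmul_eq_mul]
  rfl

theorem PG9a_fiber_finite (M : Type*) [Field M] [NumberField M] (n : ℕ) :
    Finite {I : Ideal (𝓞 M) // Ideal.absNorm I = n} :=
  (Ideal.finite_setOfPred_absNorm_eq (S := 𝓞 M) n).to_subtype

theorem PG9a_summable_ideal (M : Type*) [Field M] [NumberField M] {s : ℝ} (hs : 1 < s) :
    Summable (PG9a_g M s) := by
  rw [← (Equiv.sigmaFiberEquiv (fun I : Ideal (𝓞 M) => Ideal.absNorm I)).summable_iff]
  have key : Summable (fun x : Σ n : ℕ, {I : Ideal (𝓞 M) // Ideal.absNorm I = n} =>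
      PG9a_g M s x.2.1) := by
    rw [summable_sigma_of_nonneg (fun x => PG9a_g_nonneg s _)]
    constructor
    · intro n
      haveI := PG9a_fiber_finite M n
      exact Summable.of_finite
    · refine (PG9a_summable_nat M hs).congr ?_
      intro n
      exact (PG9a_fiber_tsum M s n).symm
  exact key

theorem PG9a_tsum_ideal_eq (M : Type*) [Field M] [NumberField M] {s : ℝ} (hs : 1 < s) :
    ∑' I, PG9a_g M s I = ∑' n : ℕ, (PG_idealCount M n : ℝ) * (n : ℝ) ^ (-s) := by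
  have hsum := PG9a_summable_ideal M hs
  have hsig : Summable (fun x : Σ n : ℕ, {I : Ideal (𝓞 M) // Ideal.absNorm I = n} =>
      PG9a_g M s x.2.1) :=
    (Equiv.sigmaFiberEquiv (fun I : Ideal (𝓞 M) => Ideal.absNorm I)).summable_iff.mpr hsum
  have e1 : ∑' I, PG9a_g M s I =
      ∑' x : Σ n : ℕ, {I : Ideal (𝓞 M) // Ideal.absNorm I = n}, PG9a_g M s x.2.1 :=
    ((Equiv.sigmaFiberEquiv (fun I : Ideal (𝓞 M) => Ideal.absNorm I)).tsum_eq
      (PG9a_g M s)).symm
  have hfib : ∀ n : ℕ, Summable (fun I : {I : Ideal (𝓞 M) // Ideal.absNorm I = n} =>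
      PG9a_g M s I.1) := by
    intro n
    exact hsum.subtype _
  rw [e1, hsig.tsum_sigma' hfib]
  exact tsum_congr (PG9a_fiber_tsum M s)

end Fermat.Agent.G_helper9_FDZETA
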