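import Mathlib
import Fermat.Agent.G_helper9_FDDefs
import Fermat.Agent.G_helper9_FDEULER
import Fermat.Agent.G_helper9_FDPRIME
import Fermat.Agent.G_helper9_FDZETA

set_option autoImplicit false
set_option linter.unusedSectionVars false
set_option linter.unusedVariables false
set_option linter.deprecated false
set_option linter.style.haveILetI false

/-! # Project G, piece G9a-ANALYTIC (helper9): the prime zeta sum of a number field

`PG9a_primeSum_asymp` : `∑_p a_M(p) p^{-s} = log (1/(s-1)) + O(1)` as `s → 1⁺`, where `a_M(p)` is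
the number of degree-one primes of `M` above `p`.
-/

open NumberField Filter Topology

namespace Fermat.Agent.G_helper9_FDANA

open Fermat.Agent.G_helper9_FDDefs Fermat.Agent.G_helper9_FDEULER
  Fermat.Agent.G_helper9_FDPRIME Fermat.Agent.G_helper9_FDZETA

theorem PG9a_summable (M : Type*) [Field M] [NumberField M] {s : ℝ} (hs : 1 < s) :
    Summable (fun p : Nat.Primes => (PG_idealCount M p : ℝ) * ((p : ℕ) : ℝ) ^ (-s)) :=
  PG9a_summable_primes (PG9a_summable_ideal M hs)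

/-- `(g_s)^2 ≤ g_2` for `s ≥ 1` -/
theorem PG9a_sq_le_two (M : Type*) [Field M] [NumberField M] {s : ℝ} (hs : 1 < s)
    (I : Ideal (𝓞 M)) : PG9a_g M s I ^ 2 ≤ PG9a_g M 2 I := by
  unfold PG9a_g
  rcases Nat.eq_zero_or_pos (Ideal.absNorm I) with h | h
  · rw [h]
    simp [Real.zero_rpow (neg_ne_zero.mpr (by linarith : s ≠ 0))]
  · have h1 : (1 : ℝ) ≤ (Ideal.absNorm I : ℝ) := by exact_mod_cast h
    have h0 : (0 : ℝ) ≤ (Ideal.absNorm I : ℝ) := by linarith
    rw [← Real.rpow_natCast, ← Real.rpow_mul h0]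
    exact Real.rpow_le_rpow_of_exponent_le h1 (by push_cast; linarith)

/-- the constant bounding `|log ζ_M(s) - primeSum M s|` -/
noncomputable def PG9a_B (M : Type*) [Field M] [NumberField M] : ℝ :=
  (Module.finrank ℚ M : ℝ) * ∑' p : Nat.Primes, ((p : ℕ) : ℝ) ^ (-(2 : ℝ)) +
    2 * ∑' I, PG9a_g M 2 I

theorem PG9a_euler_log (M : Type*) [Field M] [NumberField M] {s : ℝ} (hs : 1 < s) :
    |Real.log (∑' I, PG9a_g M s I) - PG_primeSum M s| ≤ PG9a_B M := by
  have hsum := PG9a_summable_ideal M hs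
  have hsum2 := PG9a_summable_ideal M (s := 2) (by norm_num)
  have hs0 : (0 : ℝ) < s := by linarith
  have hlow := PG9a_S1_le_log hs hsum
  have hupp := PG9a_log_le hs hsum
  have hsplit : ∑' I, (PG9a_P M).indicator (PG9a_g M s) I =
      ∑' I, (PG9a_P1 M).indicator (PG9a_g M s) I +
        ∑' I, (PG9a_P2 M).indicator (PG9a_g M s) I := by
    rw [← (hsum.indicator _).tsum_add (hsum.indicator _)]
    exact tsum_congr (PG9a_indicator_P_eq (PG9a_g M s))
  rw [← PG9a_primeSum_eq hsum] at hsplit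
  have hD0 : 0 ≤ ∑' I, (PG9a_P2 M).indicator (PG9a_g M s) I :=
    tsum_nonneg (fun I => Set.indicator_nonneg (fun I _ => PG9a_g_nonneg s I) I)
  have hD := PG9a_deg2 hs hsum
  have hS2 : ∑' I, (PG9a_P M).indicator (fun I => PG9a_g M s I ^ 2) I ≤ ∑' I, PG9a_g M 2 I := by
    refine ((PG9a_summable_sq hs0 hsum).indicator _).tsum_le_tsum ?_ hsum2
    intro I
    by_cases h : I ∈ PG9a_P M
    · rw [Set.indicator_of_mem h]; exact PG9a_sq_le_two M hs I
    · rw [Set.indicator_of_notMem h]; exact PG9a_g_nonneg 2 I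
  have hB0 : 0 ≤ PG9a_B M := by
    unfold PG9a_B
    have h1 : 0 ≤ ∑' p : Nat.Primes, ((p : ℕ) : ℝ) ^ (-(2 : ℝ)) :=
      tsum_nonneg (fun p => Real.rpow_nonneg (Nat.cast_nonneg _) _)
    have h2 : 0 ≤ ∑' I, PG9a_g M 2 I := tsum_nonneg (fun I => PG9a_g_nonneg 2 I)
    have h3 : (0 : ℝ) ≤ (Module.finrank ℚ M : ℝ) := Nat.cast_nonneg _
    positivity
  unfold PG9a_B
  unfold PG9a_B at hB0
  rw [abs_le]
  constructor <;> linarith

theorem PG9a_primeSum_asymp (M : Type*) [Field M] [NumberField M] :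
    ∃ C : ℝ, ∀ᶠ s in 𝓝[>] (1 : ℝ), |PG_primeSum M s - Real.log (1 / (s - 1))| ≤ C := by
  obtain ⟨C, hC⟩ := PG9a_logZeta_asymp M
  refine ⟨C + PG9a_B M, ?_⟩
  filter_upwards [hC, self_mem_nhdsWithin] with s h1 hs
  have hs' : (1 : ℝ) < s := hs
  have h2 := PG9a_euler_log M hs'
  rw [PG9a_tsum_ideal_eq M hs'] at h2
  have e : PG_primeSum M s - Real.log (1 / (s - 1)) =
      (Real.log (∑' n : ℕ, (PG_idealCount M n : ℝ) * (n : ℝ) ^ (-s)) - Real.log (1 / (s - 1))) -
        (Real.log (∑' n : ℕ, (PG_idealCount M n : ℝ) * (n : ℝ) ^ (-s)) - PG_primeSum M s) := by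
    ring
  rw [e]
  calc |(Real.log (∑' n : ℕ, (PG_idealCount M n : ℝ) * (n : ℝ) ^ (-s)) - Real.log (1 / (s - 1))) -
        (Real.log (∑' n : ℕ, (PG_idealCount M n : ℝ) * (n : ℝ) ^ (-s)) - PG_primeSum M s)|
      ≤ |Real.log (∑' n : ℕ, (PG_idealCount M n : ℝ) * (n : ℝ) ^ (-s)) - Real.log (1 / (s - 1))| +
        |Real.log (∑' n : ℕ, (PG_idealCount M n : ℝ) * (n : ℝ) ^ (-s)) - PG_primeSum M s| :=
        abs_sub _ _
    _ ≤ C + PG9a_B M := add_le_add h1 h2

end Fermat.Agent.G_helper9_FDANA
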