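import Mathlib
import Fermat.Agent.G_helper9_FDDefs
import Fermat.Agent.G_helper9_FDANA
import Fermat.Agent.G_helper10_G9bCOUNT
import Fermat.Agent.G_helper17_MOEBIUS
import Fermat.Agent.G_helper18_UNRAM

set_option autoImplicit false
set_option linter.unusedSectionVars false
set_option linter.unusedVariables false
set_option linter.deprecated false
set_option linter.style.haveILetI false

/-! # Project G, piece G9c-CYCLIC (helper9): primes whose Frobenius generates a given cyclic group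

`PG9c_exists_prime` : in a finite Galois extension `L/ℚ`, for every `s ∈ Gal(L/ℚ)` and every finite
set `S` of primes there is a prime `ℓ ∉ S`, unramified in `L`, with a Frobenius element `φ` at a
prime above `ℓ` such that `⟨φ⟩ = ⟨s⟩`.

Proof: Möbius inversion over the subgroups `⟨s^d⟩` (helper17), the count of degree-one primes of the
fixed fields `L^{⟨s^d⟩}` (helper10), and the logarithmic divergence of the prime zeta sums of these
fields (`PG9a_primeSum_asymp`).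
-/

open NumberField Filter Topology
open scoped Pointwise

namespace Fermat.Agent.G_helper9_FDCYC

open Fermat.Agent.G_helper9_FDDefs Fermat.Agent.G_helper9_FDANA
  Fermat.Agent.G_helper10_G9bCOUNT Fermat.Agent.G_helper17_MOEBIUS Fermat.Agent.G_helper18_UNRAM

/-- the Möbius weights `μ(d) (n/d)` -/
noncomputable def PG9c_c (n d : ℕ) : ℝ :=
  (ArithmeticFunction.moebius d : ℝ) * ((n / d : ℕ) : ℝ)

variable (L : Type*) [Field L] [NumberField L] [IsGalois ℚ L]

/-- number of degree-one primes over `p` of the fixed field of `⟨s^d⟩` -/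
noncomputable def PG9c_a (s : Gal(L/ℚ)) (d p : ℕ) : ℕ :=
  PG_idealCount (IntermediateField.fixedField (Subgroup.zpowers (s ^ d))) p

/-- the combined weight of the prime `p` -/
noncomputable def PG9c_w (s : Gal(L/ℚ)) (p : ℕ) : ℝ :=
  ∑ d ∈ (orderOf s).divisors, PG9c_c (orderOf s) d * (PG9c_a L s d p : ℝ)

theorem PG9c_w_eq_zero (s : Gal(L/ℚ)) (ℓ : ℕ) (hℓ : ℓ.Prime) (P : Ideal (𝓞 L)) [P.IsPrime]
    (hP : (ℓ : 𝓞 L) ∈ P)
    (hunr : ∀ g : Gal(L/ℚ), (∀ x : 𝓞 L, g • x - x ∈ P) → g = 1)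
    (φ : Gal(L/ℚ)) (hφ : ∀ x : 𝓞 L, φ • x - x ^ ℓ ∈ P)
    (hne : ∀ g : Gal(L/ℚ), Subgroup.zpowers (g⁻¹ * φ * g) ≠ Subgroup.zpowers s) :
    PG9c_w L s ℓ = 0 := by
  classical
  have hm := PG9c_moebius s φ
  haveI : IsEmpty {g : Gal(L/ℚ) // Subgroup.zpowers (g⁻¹ * φ * g) = Subgroup.zpowers s} :=
    ⟨fun g => hne g.1 g.2⟩
  rw [Nat.card_of_isEmpty, Nat.cast_zero] at hm
  have hterm : ∀ d ∈ (orderOf s).divisors,
      (ArithmeticFunction.moebius d : ℤ) *
        (Nat.card {g : Gal(L/ℚ) // g⁻¹ * φ * g ∈ Subgroup.zpowers (s ^ d)} : ℤ) =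
      (ArithmeticFunction.moebius d : ℤ) *
        ((((orderOf s / d : ℕ) * PG9c_a L s d ℓ : ℕ)) : ℤ) := by
    intro d hd
    have hdn : d ∣ orderOf s := Nat.dvd_of_mem_divisors hd
    have hdpos : 0 < d := Nat.pos_of_mem_divisors hd
    have hc := PG9c_card_zpowers_pow s d hdn
    have hcard : Nat.card (Subgroup.zpowers (s ^ d)) = orderOf s / d :=
      (Nat.div_eq_of_eq_mul_left hdpos hc.symm).symm
    have hcount := PG9b_count L (Subgroup.zpowers (s ^ d)) ℓ hℓ P hP hunr φ hφ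
    rw [← hcount, hcard]
    rfl
  rw [Finset.sum_congr rfl hterm] at hm
  have hR : (0 : ℝ) = ∑ d ∈ (orderOf s).divisors, (ArithmeticFunction.moebius d : ℝ) *
      ((((orderOf s / d : ℕ) * PG9c_a L s d ℓ : ℕ)) : ℝ) := by
    have h := congrArg (Int.cast : ℤ → ℝ) hm
    push_cast at h
    push_cast
    exact h
  unfold PG9c_w PG9c_c
  rw [hR]
  apply Finset.sum_congr rfl
  intro d _
  push_cast
  ring

theorem PG9c_F_eq (s : Gal(L/ℚ)) {t : ℝ} (ht : 1 < t) :
    ∑ d ∈ (orderOf s).divisors, PG9c_c (orderOf s) d *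
        PG_primeSum (IntermediateField.fixedField (Subgroup.zpowers (s ^ d))) t =
      ∑' p : Nat.Primes, PG9c_w L s p * ((p : ℕ) : ℝ) ^ (-t) := by
  have hsum : ∀ d ∈ (orderOf s).divisors, Summable (fun p : Nat.Primes =>
      PG9c_c (orderOf s) d * ((PG9c_a L s d p : ℝ) * ((p : ℕ) : ℝ) ^ (-t))) := by
    intro d _
    exact (PG9a_summable (IntermediateField.fixedField (Subgroup.zpowers (s ^ d))) ht).mul_left _
  have e1 : ∀ d ∈ (orderOf s).divisors, PG9c_c (orderOf s) d *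
        PG_primeSum (IntermediateField.fixedField (Subgroup.zpowers (s ^ d))) t =
      ∑' p : Nat.Primes, PG9c_c (orderOf s) d * ((PG9c_a L s d p : ℝ) * ((p : ℕ) : ℝ) ^ (-t)) := by
    intro d _
    rw [PG_primeSum_def, ← tsum_mul_left]
    rfl
  rw [Finset.sum_congr rfl e1, ← Summable.tsum_finsetSum hsum]
  apply tsum_congr
  intro p
  unfold PG9c_w
  rw [Finset.sum_mul]
  apply Finset.sum_congr rfl
  intro d _
  ring

theorem PG9c_F_bounded (s : Gal(L/ℚ)) (U : Finset ℕ)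
    (hU : ∀ p : ℕ, p.Prime → p ∉ U → PG9c_w L s p = 0) {t : ℝ} (ht : 0 < t) :
    |∑' p : Nat.Primes, PG9c_w L s p * ((p : ℕ) : ℝ) ^ (-t)| ≤
      ∑ p ∈ U.subtype Nat.Prime, |PG9c_w L s p| := by
  have h0 : ∀ p : Nat.Primes, p ∉ (U.subtype Nat.Prime : Finset Nat.Primes) →
      PG9c_w L s p * ((p : ℕ) : ℝ) ^ (-t) = 0 := by
    intro p hp
    have : (p : ℕ) ∉ U := fun h => hp (Finset.mem_subtype.mpr h)
    rw [hU p p.2 this, zero_mul]
  have key : ∑' p : Nat.Primes, PG9c_w L s p * ((p : ℕ) : ℝ) ^ (-t) =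
      ∑ p ∈ (U.subtype Nat.Prime : Finset Nat.Primes), PG9c_w L s p * ((p : ℕ) : ℝ) ^ (-t) :=
    tsum_eq_sum h0
  rw [key]
  refine le_trans (Finset.abs_sum_le_sum_abs _ _) ?_
  apply Finset.sum_le_sum
  intro p _
  rw [abs_mul]
  have hp1 : (1 : ℝ) ≤ ((p : ℕ) : ℝ) := by exact_mod_cast p.2.one_lt.le
  have h1 : |((p : ℕ) : ℝ) ^ (-t)| ≤ 1 := by
    rw [abs_of_nonneg (Real.rpow_nonneg (by linarith) _)]
    exact Real.rpow_le_one_of_one_le_of_nonpos hp1 (by linarith)
  calc |PG9c_w L s p| * |((p : ℕ) : ℝ) ^ (-t)| ≤ |PG9c_w L s p| * 1 :=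
        mul_le_mul_of_nonneg_left h1 (abs_nonneg _)
    _ = |PG9c_w L s p| := mul_one _

theorem PG9c_sum_c (n : ℕ) (hn : 0 < n) :
    ∑ d ∈ n.divisors, PG9c_c n d = (Nat.totient n : ℝ) := by
  have h := congrArg (Int.cast : ℤ → ℝ) (PG9c_sum_moebius_div n hn)
  unfold PG9c_c
  push_cast at h
  exact h

theorem PG9c_tendsto_log : Tendsto (fun t : ℝ => Real.log (1 / (t - 1))) (𝓝[>] (1 : ℝ)) atTop := by
  have h1 : Tendsto (fun t : ℝ => t - 1) (𝓝[>] (1 : ℝ)) (𝓝[>] (0 : ℝ)) := by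
    rw [tendsto_nhdsWithin_iff]
    constructor
    · have : Tendsto (fun t : ℝ => t - 1) (𝓝 (1 : ℝ)) (𝓝 (1 - 1)) :=
        (continuous_id.sub continuous_const).tendsto 1
      rw [sub_self] at this
      exact this.mono_left nhdsWithin_le_nhds
    · filter_upwards [self_mem_nhdsWithin] with t ht
      have : (1 : ℝ) < t := ht
      show (0 : ℝ) < t - 1
      linarith
  have h2 : Tendsto (fun t : ℝ => (t - 1)⁻¹) (𝓝[>] (1 : ℝ)) atTop :=
    tendsto_inv_nhdsGT_zero.comp h1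
  have h3 := Real.tendsto_log_atTop.comp h2
  refine h3.congr ?_
  intro t
  simp [one_div]

/-- **G9c**: a prime outside `S` whose Frobenius generates `⟨s⟩`. -/
theorem PG9c_exists_prime (L : Type*) [Field L] [NumberField L] [IsGalois ℚ L]
    (s : Gal(L/ℚ)) (S : Finset ℕ) :
    ∃ ℓ : ℕ, ℓ.Prime ∧ ℓ ∉ S ∧ ∃ (P : Ideal (𝓞 L)) (_ : P.IsPrime) (φ : Gal(L/ℚ)),
      (ℓ : 𝓞 L) ∈ P ∧ (∀ g : Gal(L/ℚ), (∀ x : 𝓞 L, g • x - x ∈ P) → g = 1) ∧
      (∀ x : 𝓞 L, φ • x - x ^ ℓ ∈ P) ∧ Subgroup.zpowers φ = Subgroup.zpowers s := by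
  classical
  by_contra hcon
  push Not at hcon
  obtain ⟨T, hT⟩ := PG9e_unramified L
  -- the weights vanish outside `S ∪ T`
  have hU : ∀ p : ℕ, p.Prime → p ∉ S ∪ T → PG9c_w L s p = 0 := by
    intro p hp hpU
    have hpS : p ∉ S := fun h => hpU (Finset.mem_union_left _ h)
    have hpT : p ∉ T := fun h => hpU (Finset.mem_union_right _ h)
    obtain ⟨P, hPp, φ, hP, hφ⟩ := PG9e_exists_frob L p hp
    haveI := hPp
    have hunr := hT p hp hpT P hP
    apply PG9c_w_eq_zero L s p hp P hP hunr φ hφ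
    intro g
    haveI : (g⁻¹ • P).IsPrime := inferInstance
    exact hcon p hp hpS (g⁻¹ • P) inferInstance (g⁻¹ * φ * g) (PG9b_natCast_mem_smul p P hP g)
      (PG9b_unr_smul P hunr g) (PG9b_frob_smul p P φ hφ g)
  -- asymptotics
  have hn : 0 < orderOf s := orderOf_pos s
  have hasym : ∀ d : ℕ, ∃ C : ℝ, ∀ᶠ t in 𝓝[>] (1 : ℝ),
      |PG_primeSum (IntermediateField.fixedField (Subgroup.zpowers (s ^ d))) t -
        Real.log (1 / (t - 1))| ≤ C := fun d =>
    PG9a_primeSum_asymp (IntermediateField.fixedField (Subgroup.zpowers (s ^ d)))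
  choose C hC using hasym
  have hall : ∀ᶠ t in 𝓝[>] (1 : ℝ), ∀ d ∈ (orderOf s).divisors,
      |PG_primeSum (IntermediateField.fixedField (Subgroup.zpowers (s ^ d))) t -
        Real.log (1 / (t - 1))| ≤ C d :=
    (Filter.eventually_all_finset _).mpr (fun d _ => hC d)
  set W : ℝ := ∑ p ∈ (S ∪ T).subtype Nat.Prime, |PG9c_w L s p| with hW
  set K : ℝ := ∑ d ∈ (orderOf s).divisors, |PG9c_c (orderOf s) d| * C d with hK
  have hbig : ∀ᶠ t in 𝓝[>] (1 : ℝ), W + K < Real.log (1 / (t - 1)) :=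
    PG9c_tendsto_log.eventually_gt_atTop (W + K)
  obtain ⟨t, ⟨ht1, ht2⟩, ht3⟩ := ((hall.and hbig).and self_mem_nhdsWithin).exists
  have ht : (1 : ℝ) < t := ht3
  have hF := PG9c_F_eq L s ht
  have hB := PG9c_F_bounded L s (S ∪ T) hU (by linarith : (0 : ℝ) < t)
  rw [← hF] at hB
  -- the main term
  have hmain : ∑ d ∈ (orderOf s).divisors, PG9c_c (orderOf s) d *
        PG_primeSum (IntermediateField.fixedField (Subgroup.zpowers (s ^ d))) t =
      (Nat.totient (orderOf s) : ℝ) * Real.log (1 / (t - 1)) +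
        ∑ d ∈ (orderOf s).divisors, PG9c_c (orderOf s) d *
          (PG_primeSum (IntermediateField.fixedField (Subgroup.zpowers (s ^ d))) t -
            Real.log (1 / (t - 1))) := by
    rw [← PG9c_sum_c (orderOf s) hn, Finset.sum_mul, ← Finset.sum_add_distrib]
    apply Finset.sum_congr rfl
    intro d _
    ring
  have herr : |∑ d ∈ (orderOf s).divisors, PG9c_c (orderOf s) d *
          (PG_primeSum (IntermediateField.fixedField (Subgroup.zpowers (s ^ d))) t -
            Real.log (1 / (t - 1)))| ≤ K := by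
    refine le_trans (Finset.abs_sum_le_sum_abs _ _) ?_
    apply Finset.sum_le_sum
    intro d hd
    rw [abs_mul]
    exact mul_le_mul_of_nonneg_left (ht1 d hd) (abs_nonneg _)
  have htot : (1 : ℝ) ≤ (Nat.totient (orderOf s) : ℝ) := by
    exact_mod_cast Nat.totient_pos.mpr hn
  have hlogpos : 0 ≤ Real.log (1 / (t - 1)) := by
    have hW0 : 0 ≤ W := Finset.sum_nonneg (fun p _ => abs_nonneg _)
    have hK0 : 0 ≤ K := le_trans (abs_nonneg _) herr
    linarith
  rw [hmain] at hB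
  have h1 := (abs_le.mp hB).2
  have h2 := (abs_le.mp herr).1
  nlinarith

end Fermat.Agent.G_helper9_FDCYC
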