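import Mathlib
import Fermat.Prelude.Def_EllipticCurve_FrobeniusTrace
import Fermat.Prelude.Def_FLTPrelim_Ramification
import Fermat.Agent.G_helper9_FDCYC
import Fermat.Agent.G_helper1_FDLIFT

set_option autoImplicit false
set_option linter.unusedSectionVars false
set_option linter.unusedVariables false
set_option linter.deprecated false
set_option linter.style.haveILetI false

/-! # Project G, piece G9 (helper9): Frobenius density, final form

`PG_frobenius_density` : for every finite subextension `L` of `ℚ̄/ℚ`, every `g ∈ Gal(ℚ̄/ℚ)` and every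
finite set `S` of primes there are a prime `ℓ ∉ S`, a valuation subring `A` of `ℚ̄` over `ℓ` and a
Frobenius element `σ` at `A` such that `g` agrees on `L` with a power of `σ`.

Inputs: `PG9c_exists_prime` (helper9; uses helper10's count, helper17's Möbius inversion,
helper18's unramifiedness, and the analytic piece G9a) and `PG9d_lift` (helper1).
-/

open NumberField

namespace Fermat.Agent.G_helper9_FROBDENS

open Fermat.Agent.G_helper9_FDCYC Fermat.Agent.G_helper1_FDLIFT

/-- powers of a lift restrict to powers -/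
theorem PG_FROBDENS_pow_restrict (L : IntermediateField ℚ (AlgebraicClosure ℚ))
    (σ : AlgebraicClosure ℚ ≃ₐ[ℚ] AlgebraicClosure ℚ) (φ : Gal(L/ℚ))
    (h : ∀ x : L, σ (x : AlgebraicClosure ℚ) = ((φ x : L) : AlgebraicClosure ℚ)) (b : ℕ) :
    ∀ x : L, (σ ^ b) (x : AlgebraicClosure ℚ) = (((φ ^ b) x : L) : AlgebraicClosure ℚ) := by
  induction b with
  | zero => intro x; simp
  | succ b ih =>
    intro x
    rw [pow_succ, pow_succ, AlgEquiv.mul_apply, AlgEquiv.mul_apply, h x, ih (φ x)]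

theorem PG_frobenius_density (L : IntermediateField ℚ (AlgebraicClosure ℚ))
    [FiniteDimensional ℚ L]
    (g : AlgebraicClosure ℚ ≃ₐ[ℚ] AlgebraicClosure ℚ) (S : Finset ℕ) :
    ∃ (ℓ : ℕ) (A : ValuationSubring (AlgebraicClosure ℚ))
      (σ : AlgebraicClosure ℚ ≃ₐ[ℚ] AlgebraicClosure ℚ) (b : ℕ),
      ℓ.Prime ∧ ℓ ∉ S ∧ A.LiesOverPrime ℓ ∧ A.IsFrobeniusAt σ ℓ ∧
        ∀ x ∈ L, g x = (σ ^ b) x := by
  -- the normal closure
  haveI halg : Algebra.IsAlgebraic ℚ (AlgebraicClosure ℚ) := AlgebraicClosure.isAlgebraic ℚ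
  haveI hac : IsAlgClosure ℚ (AlgebraicClosure ℚ) := ⟨inferInstance, inferInstance⟩
  haveI hnQ : Normal ℚ (AlgebraicClosure ℚ) := IsAlgClosure.normal ℚ (AlgebraicClosure ℚ)
  haveI hfd0 : FiniteDimensional ℚ
      (IntermediateField.normalClosure ℚ L (AlgebraicClosure ℚ)) := inferInstance
  haveI hnorm0 : Normal ℚ (IntermediateField.normalClosure ℚ L (AlgebraicClosure ℚ)) :=
    normalClosure.normal ℚ L (AlgebraicClosure ℚ)
  obtain ⟨L', hLL', hfd, hnorm⟩ : ∃ L' : IntermediateField ℚ (AlgebraicClosure ℚ),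
      L ≤ L' ∧ FiniteDimensional ℚ L' ∧ Normal ℚ L' :=
    ⟨_, IntermediateField.le_normalClosure L, hfd0, hnorm0⟩
  haveI := hfd
  haveI := hnorm
  haveI hgal : IsGalois ℚ L' := ⟨⟩
  haveI hnf : NumberField L' := { to_charZero := inferInstance, to_finiteDimensional := hfd }
  -- the restriction of `g`
  set s : Gal(L'/ℚ) := g.restrictNormal L' with hs
  have hs_apply : ∀ x : L', ((s x : L') : AlgebraicClosure ℚ) = g (x : AlgebraicClosure ℚ) :=
    fun x => AlgEquiv.restrictNormal_commutes g L' x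
  obtain ⟨ℓ, hℓ, hℓS, P, hPp, φ, hP, hunr, hφ, hzp⟩ := PG9c_exists_prime L' s S
  haveI := hPp
  -- `s` is a natural power of `φ`
  have hmem : s ∈ Subgroup.zpowers φ := by
    rw [hzp]; exact Subgroup.mem_zpowers s
  obtain ⟨b, hb⟩ := (mem_powers_iff_mem_zpowers.mpr hmem)
  have hb' : φ ^ b = s := hb
  obtain ⟨A, hA, σ, hσ, hres⟩ := PG9d_lift L' ℓ hℓ P hP hunr φ hφ
  refine ⟨ℓ, A, σ, b, hℓ, hℓS, hA, hσ, ?_⟩
  intro x hx
  have hx' : x ∈ L' := hLL' hx
  have h1 := PG_FROBDENS_pow_restrict L' σ φ hres b ⟨x, hx'⟩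
  have h2 := hs_apply ⟨x, hx'⟩
  rw [hb'] at h1
  simp only at h1 h2
  rw [h1, ← h2]

end Fermat.Agent.G_helper9_FROBDENS
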