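import Fermat.Agent.S18_helper13_GAUSS
import Fermat.Prelude.Def_ModularCurve_X0ModL

/-!
# S18, abstract piece P13, part 2: the Gauss valuation as a valuation subring

* `GaussData.fracField`: the fractions of `O((q))` as a subfield of `K((q))`;
* `GaussData.valSubringOf`: for a subfield `F` of `K((q))` contained in `fracField`, the ring
  `V ∩ F` as a `ValuationSubring F`; it is a discrete valuation ring with uniformiser `π`
  as soon as `π ∈ F`;
* `modularFunctionFieldFullC K N ≤ fracField` when `K` is the fraction field of `O`.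
-/

set_option autoImplicit false

noncomputable section

namespace Fermat.Agent.S18_helper13_GAUSS

open ModularCurve

variable {O K κ : Type*} [CommRing O] [IsDomain O] [Field K] [Field κ] (D : GaussData O K κ)

namespace GaussData

/-! ### The field of fractions of `O((q))` inside `K((q))` -/

/-- The fractions of `O((q))`, as a subfield of `K((q))`. -/
def fracField : Subfield (LaurentSeries K) where
  carrier := {x | ∃ a b : LaurentSeries O, b ≠ 0 ∧ D.incS b * x = D.incS a}
  mul_mem' := by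
    rintro x y ⟨a, b, hb, h⟩ ⟨a', b', hb', h'⟩
    refine ⟨a * a', b * b', mul_ne_zero hb hb', ?_⟩
    rw [map_mul, map_mul, ← h, ← h']; ring
  one_mem' := ⟨1, 1, one_ne_zero, by simp⟩
  add_mem' := by
    rintro x y ⟨a, b, hb, h⟩ ⟨a', b', hb', h'⟩
    refine ⟨a * b' + a' * b, b * b', mul_ne_zero hb hb', ?_⟩
    rw [map_mul, map_add, map_mul, map_mul, ← h, ← h']; ring
  zero_mem' := ⟨0, 1, one_ne_zero, by simp⟩
  neg_mem' := by
    rintro x ⟨a, b, hb, h⟩
    exact ⟨-a, b, hb, by rw [map_neg, ← h]; ring⟩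
  inv_mem' := by
    rintro x ⟨a, b, hb, h⟩
    rcases eq_or_ne x 0 with rfl | hx
    · exact ⟨0, 1, one_ne_zero, by simp⟩
    · have ha : a ≠ 0 := by
        rintro rfl
        rw [map_zero] at h
        rcases mul_eq_zero.mp h with h1 | h1
        · exact D.incS_ne_zero hb h1
        · exact hx h1
      refine ⟨b, a, ha, ?_⟩
      rw [← h]
      field_simp

theorem mem_fracField_iff {x : LaurentSeries K} :
    x ∈ D.fracField ↔ ∃ a b : LaurentSeries O, b ≠ 0 ∧ D.incS b * x = D.incS a :=
  Iff.rfl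

theorem incS_mem_fracField (a : LaurentSeries O) : D.incS a ∈ D.fracField :=
  ⟨a, 1, one_ne_zero, by simp⟩

theorem mem_fracField_of_mem_Vring {x : LaurentSeries K} (hx : x ∈ D.Vring) :
    x ∈ D.fracField := by
  obtain ⟨a, b, hb, h⟩ := hx
  exact ⟨a, b, D.ne_zero_of_redS_ne_zero hb, h⟩

theorem πK_mem_fracField : D.πK ∈ D.fracField := D.mem_fracField_of_mem_Vring D.πK_mem_Vring

/-- constants belong to `fracField` when `K` consists of fractions of `O` -/
theorem C_mem_fracField (hK : ∀ c : K, ∃ a b : O, b ≠ 0 ∧ D.inc b * c = D.inc a) (c : K) :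
    (HahnSeries.C c : LaurentSeries K) ∈ D.fracField := by
  obtain ⟨a, b, hb, h⟩ := hK c
  refine ⟨HahnSeries.C a, HahnSeries.C b, ?_, ?_⟩
  · rw [HahnSeries.C_apply]
    exact HahnSeries.single_ne_zero hb
  · rw [incS, HahnSeries.C_apply, HahnSeries.C_apply, HahnSeries.C_apply, coeffMap_single,
      coeffMap_single, ← HahnSeries.C_apply, ← HahnSeries.C_apply, ← HahnSeries.C_apply,
      ← map_mul, h]

theorem algebraMap_mem_fracField (hK : ∀ c : K, ∃ a b : O, b ≠ 0 ∧ D.inc b * c = D.inc a)
    (c : K) : algebraMap K (LaurentSeries K) c ∈ D.fracField := by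
  rw [algebraMap_laurentSeries_eq_single, ← HahnSeries.C_apply]
  exact D.C_mem_fracField hK c

/-- an intermediate field generated by elements of `fracField` is contained in `fracField` -/
theorem adjoin_le_fracField (hK : ∀ c : K, ∃ a b : O, b ≠ 0 ∧ D.inc b * c = D.inc a)
    (S : Set (LaurentSeries K)) (hS : ∀ x ∈ S, x ∈ D.fracField) :
    ∀ x ∈ IntermediateField.adjoin K S, x ∈ D.fracField := by
  intro x hx
  have h : (IntermediateField.adjoin K S).toSubfield ≤ D.fracField := by
    rw [IntermediateField.adjoin_toSubfield, Subfield.closure_le]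
    rintro y (⟨c, rfl⟩ | hy)
    · exact D.algebraMap_mem_fracField hK c
    · exact hS y hy
  exact h hx

/-! ### The modular function fields are contained in `fracField` -/

theorem jqNModC_eq_incS (d : ℕ) [NeZero d] : jqNModC K d = D.incS (jqNModC O d) := by
  rw [incS, coeffMap_jqNModC]

theorem jqNModC_mem_Vring (d : ℕ) [NeZero d] : jqNModC K d ∈ D.Vring := by
  rw [D.jqNModC_eq_incS]
  exact D.incS_mem_Vring _

theorem redFun_jqNModC (d : ℕ) [NeZero d] : D.redFun (jqNModC K d) = jqNModC κ d := by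
  rw [D.jqNModC_eq_incS, redFun_incS, redS, coeffMap_jqNModC]

theorem jqModC_mem_Vring : jqModC K ∈ D.Vring := by
  rw [← jqNModC_one]
  exact D.jqNModC_mem_Vring 1

theorem redFun_jqModC : D.redFun (jqModC K) = jqModC κ := by
  rw [← jqNModC_one, D.redFun_jqNModC 1, jqNModC_one]

theorem modularFunctionFieldFullC_le_fracField
    (hK : ∀ c : K, ∃ a b : O, b ≠ 0 ∧ D.inc b * c = D.inc a) (N : ℕ) :
    ∀ x ∈ modularFunctionFieldFullC K N, x ∈ D.fracField := by
  refine D.adjoin_le_fracField hK _ ?_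
  rintro x ⟨d, hd, -, rfl⟩
  have := hd
  exact D.mem_fracField_of_mem_Vring (D.jqNModC_mem_Vring d)

/-! ### The valuation subring of a subfield -/

variable {S : Type*} [SetLike S (LaurentSeries K)] [SubfieldClass S (LaurentSeries K)]

/-- For a subfield `F` of `K((q))` consisting of fractions of `O((q))`, the ring `V ∩ F` as a
valuation subring of `F`. -/
def valSubringOf (F : S) (hF : ∀ x ∈ F, x ∈ D.fracField) : ValuationSubring F where
  carrier := {x | (x : LaurentSeries K) ∈ D.Vring}
  mul_mem' := fun hx hy => D.Vring.mul_mem hx hy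
  one_mem' := D.Vring.one_mem
  add_mem' := fun hx hy => D.Vring.add_mem hx hy
  zero_mem' := D.Vring.zero_mem
  neg_mem' := fun hx => D.Vring.neg_mem hx
  mem_or_inv_mem' := fun x => D.mem_or_inv_mem (hF x x.2)

theorem mem_valSubringOf {F : S} {hF : ∀ x ∈ F, x ∈ D.fracField} {x : F} :
    x ∈ D.valSubringOf F hF ↔ (x : LaurentSeries K) ∈ D.Vring :=
  Iff.rfl

/-- the reduction map on `V ∩ F` -/
def redOf (F : S) (hF : ∀ x ∈ F, x ∈ D.fracField) :
    D.valSubringOf F hF →+* LaurentSeries κ where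
  toFun x := D.redFun ((x : F) : LaurentSeries K)
  map_one' := D.redFun_one
  map_mul' := fun x y => D.redFun_mul x.2 y.2
  map_zero' := D.redFun_zero
  map_add' := fun x y => D.redFun_add x.2 y.2

theorem redOf_apply {F : S} {hF : ∀ x ∈ F, x ∈ D.fracField} (x : D.valSubringOf F hF) :
    D.redOf F hF x = D.redFun ((x : F) : LaurentSeries K) := rfl

/-- the uniformiser as an element of `V ∩ F` -/
def πOf (F : S) (hF : ∀ x ∈ F, x ∈ D.fracField) (hπ : D.πK ∈ F) : D.valSubringOf F hF :=
  ⟨⟨D.πK, hπ⟩, D.πK_mem_Vring⟩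

theorem πOf_ne_zero (F : S) (hF : ∀ x ∈ F, x ∈ D.fracField) (hπ : D.πK ∈ F) :
    D.πOf F hF hπ ≠ 0 := by
  intro h
  have := congrArg (fun x : D.valSubringOf F hF => ((x : F) : LaurentSeries K)) h
  exact D.πK_ne_zero this

/-- the kernel of the reduction map on `V ∩ F` is generated by `π` -/
theorem ker_redOf (F : S) (hF : ∀ x ∈ F, x ∈ D.fracField) (hπ : D.πK ∈ F) :
    RingHom.ker (D.redOf F hF) = Ideal.span {D.πOf F hF hπ} := by
  ext x
  rw [RingHom.mem_ker, Ideal.mem_span_singleton', redOf_apply, D.redFun_eq_zero_iff x.2]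
  constructor
  · rintro ⟨y, hy, hxy⟩
    have hyF : y ∈ F := by
      have : y = (D.πK)⁻¹ * ((x : F) : LaurentSeries K) := by
        rw [hxy, ← mul_assoc, inv_mul_cancel₀ D.πK_ne_zero, one_mul]
      rw [this]
      exact mul_mem (inv_mem hπ) (x : F).2
    refine ⟨⟨⟨y, hyF⟩, hy⟩, ?_⟩
    apply Subtype.ext
    apply Subtype.ext
    show y * D.πK = _
    rw [hxy, mul_comm]
  · rintro ⟨y, rfl⟩
    exact ⟨((y : F) : LaurentSeries K), y.2, mul_comm _ _⟩

theorem prime_πOf (F : S) (hF : ∀ x ∈ F, x ∈ D.fracField) (hπ : D.πK ∈ F) :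
    Prime (D.πOf F hF hπ) := by
  rw [← Ideal.span_singleton_prime (D.πOf_ne_zero F hF hπ), ← D.ker_redOf F hF hπ]
  exact RingHom.ker_isPrime _

/-- every nonzero element of `V ∩ F` is a unit times a power of `π` -/
theorem exists_associated_pow (F : S) (hF : ∀ x ∈ F, x ∈ D.fracField) (hπ : D.πK ∈ F)
    {x : D.valSubringOf F hF} (hx : x ≠ 0) :
    ∃ n : ℕ, Associated (D.πOf F hF hπ ^ n) x := by
  have hx0 : ((x : F) : LaurentSeries K) ≠ 0 := by
    intro h
    apply hx
    apply Subtype.ext
    apply Subtype.ext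
    exact h
  obtain ⟨z, u, hu, hu0, hxu⟩ := D.exists_zpow_mul hx0 (hF _ (x : F).2)
  -- `z ≥ 0`
  have hz : 0 ≤ z := by
    by_contra hneg
    obtain ⟨n, hn⟩ := Int.eq_ofNat_of_zero_le (show 0 ≤ -z by omega)
    have hn0 : n ≠ 0 := by
      rintro rfl
      simp at hn
      omega
    have h1 : u = D.πK ^ n * ((x : F) : LaurentSeries K) := by
      rw [hxu, ← mul_assoc, ← zpow_natCast, ← hn, ← zpow_add₀ D.πK_ne_zero]
      simp
    apply hu0
    rw [h1, D.redFun_mul (D.Vring.pow_mem D.πK_mem_Vring n) x.2, D.redFun_pow D.πK_mem_Vring,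
      ← incS_πO, redFun_incS, redS_πO, zero_pow hn0, zero_mul]
  obtain ⟨n, rfl⟩ := Int.eq_ofNat_of_zero_le hz
  rw [zpow_natCast] at hxu
  have huF : u ∈ F := by
    have : u = (D.πK ^ n)⁻¹ * ((x : F) : LaurentSeries K) := by
      rw [hxu, ← mul_assoc, inv_mul_cancel₀ (pow_ne_zero _ D.πK_ne_zero), one_mul]
    rw [this]
    exact mul_mem (inv_mem (pow_mem hπ n)) (x : F).2
  have hu1 : u ≠ 0 := by
    rintro rfl
    exact hu0 D.redFun_zero
  refine ⟨n, ?_⟩
  let uu : (D.valSubringOf F hF)ˣ :=
    { val := ⟨⟨u, huF⟩, hu⟩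
      inv := ⟨⟨u⁻¹, inv_mem huF⟩, D.inv_mem_Vring hu hu0⟩
      val_inv := by
        apply Subtype.ext
        apply Subtype.ext
        show u * u⁻¹ = 1
        exact mul_inv_cancel₀ hu1
      inv_val := by
        apply Subtype.ext
        apply Subtype.ext
        show u⁻¹ * u = 1
        exact inv_mul_cancel₀ hu1 }
  refine ⟨uu, ?_⟩
  apply Subtype.ext
  apply Subtype.ext
  show D.πK ^ n * u = _
  exact hxu.symm

/-- `V ∩ F` is a discrete valuation ring as soon as `π ∈ F`. -/
theorem isDiscreteValuationRing_valSubringOf (F : S) (hF : ∀ x ∈ F, x ∈ D.fracField)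
    (hπ : D.πK ∈ F) : IsDiscreteValuationRing (D.valSubringOf F hF) :=
  IsDiscreteValuationRing.ofHasUnitMulPowIrreducibleFactorization
    ⟨D.πOf F hF hπ, (D.prime_πOf F hF hπ).irreducible,
      fun {_} hx => D.exists_associated_pow F hF hπ hx⟩

theorem irreducible_πOf (F : S) (hF : ∀ x ∈ F, x ∈ D.fracField) (hπ : D.πK ∈ F) :
    Irreducible (D.πOf F hF hπ) := (D.prime_πOf F hF hπ).irreducible

/-- units of `V ∩ F` are the elements with nonzero reduction -/
theorem isUnit_iff_redOf_ne_zero (F : S) (hF : ∀ x ∈ F, x ∈ D.fracField)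
    (x : D.valSubringOf F hF) : IsUnit x ↔ D.redOf F hF x ≠ 0 := by
  constructor
  · rintro ⟨u, rfl⟩ h
    have h1 : D.redOf F hF (u * u⁻¹ : (D.valSubringOf F hF)ˣ) = 1 := by
      rw [mul_inv_cancel, Units.val_one, map_one]
    rw [Units.val_mul, map_mul, h, zero_mul] at h1
    exact zero_ne_one h1
  · intro h
    have hx0 : ((x : F) : LaurentSeries K) ≠ 0 := by
      intro h0
      apply h
      rw [redOf_apply, h0, D.redFun_zero]
    refine ⟨⟨x, ⟨⟨((x : F) : LaurentSeries K)⁻¹, inv_mem (x : F).2⟩, D.inv_mem_Vring x.2 h⟩,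
      ?_, ?_⟩, rfl⟩
    · apply Subtype.ext
      apply Subtype.ext
      show ((x : F) : LaurentSeries K) * ((x : F) : LaurentSeries K)⁻¹ = 1
      exact mul_inv_cancel₀ hx0
    · apply Subtype.ext
      apply Subtype.ext
      show ((x : F) : LaurentSeries K)⁻¹ * ((x : F) : LaurentSeries K) = 1
      exact inv_mul_cancel₀ hx0

/-- for the Gauss data of a discrete valuation ring with its fraction field, the constants are
fractions -/
theorem ofDVR_isFraction (O K : Type*) [CommRing O] [IsDomain O] [IsDiscreteValuationRing O]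
    [Field K] [Algebra O K] [IsFractionRing O K] (c : K) :
    ∃ a b : O, b ≠ 0 ∧ (ofDVR O K).inc b * c = (ofDVR O K).inc a := by
  obtain ⟨a, b, hb, h⟩ := IsFractionRing.div_surjective (A := O) c
  refine ⟨a, b, nonZeroDivisors.ne_zero hb, ?_⟩
  have hb0 : algebraMap O K b ≠ 0 :=
    (map_ne_zero_iff _ (IsFractionRing.injective O K)).mpr (nonZeroDivisors.ne_zero hb)
  show algebraMap O K b * c = algebraMap O K a
  rw [← h]
  field_simp

end GaussData

/-! ### Linear disjointness, module form -/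

/-- Linear disjointness of `K₁((q))` and `K` over `K₁` inside `K((q))`, in module form:
a `K₁`-linearly independent family of constants of `K` is linearly independent over
`K₁((q))` (acting on `K((q))` through `coeffMap`). -/
theorem linearIndependent_C {K₁ K : Type*} [Field K₁] [Field K] [Algebra K₁ K]
    {ι : Type*} {c : ι → K} (hc : LinearIndependent K₁ c) :
    letI := (coeffMap (algebraMap K₁ K)).toAlgebra
    LinearIndependent (LaurentSeries K₁) (fun i => (HahnSeries.C (c i) : LaurentSeries K)) := by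
  letI := (coeffMap (algebraMap K₁ K)).toAlgebra
  rw [linearIndependent_iff']
  intro s g hg i hi
  refine eq_zero_of_sum_C_mul_eq_zero hc s g ?_ i hi
  rw [← hg]
  refine Finset.sum_congr rfl fun j _ => ?_
  rw [Algebra.smul_def, mul_comm]
  rfl

end Fermat.Agent.S18_helper13_GAUSS
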