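import Mathlib
import Fermat.Agent.S18_helper13_GAUSS2
import Fermat.Agent.S18_helper9_CDefs

/-!
# S18, CORE glue: the hypothesis `RedPow` of block C from the reduction hypothesis

Carrier-neutral, over an arbitrary `GaussData D` (helper13 GAUSS) with surjective residue map.

* `S18RP_exists_lift` : every element `g` of the function field
  `modularFunctionFieldFullC κ N` over the residue field is the reduction of an element of the
  Gauss valuation ring of `F1 = modularFunctionFieldFullC K N`;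
* `S18RP_redPow_of_lift` : if `f, G ∈ V = D.Vring ⊓ F1`, `redFun G ≠ 0` and
  `redFun f = (redFun G) ^ p` then `RedPow πK V p f G`;
* `S18RP_redPow` : the reduction hypothesis of `CoreStatement` (after descent of `y₁, y₂` to
  `O((q))`) gives `RedPow` for `f = y₁ / y₂`.
-/

set_option autoImplicit false

open ModularCurve Fermat.Agent.S18_helper13_GAUSS Fermat.Agent.S18_helper9_CDefs

namespace Fermat.Agent.S18_helper13_REDPOW

variable {O K κ : Type*} [CommRing O] [IsDomain O] [Field K] [Field κ] (D : GaussData O K κ)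

/-- the Gauss valuation ring of the function field `F1` -/
noncomputable def S18RP_V (N : ℕ) : Subring (LaurentSeries K) :=
  D.Vring ⊓ (modularFunctionFieldFullC K N).toSubfield.toSubring

theorem S18RP_mem_V {N : ℕ} {x : LaurentSeries K} :
    x ∈ S18RP_V D N ↔ x ∈ D.Vring ∧ x ∈ modularFunctionFieldFullC K N := Iff.rfl

/-- constants of `O` are in the function field -/
theorem S18RP_C_mem_full (N : ℕ) (c : K) :
    (HahnSeries.C c : LaurentSeries K) ∈ modularFunctionFieldFullC K N := by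
  have h := (modularFunctionFieldFullC K N).algebraMap_mem c
  rwa [algebraMap_laurentSeries_eq_single, ← HahnSeries.C_apply] at h

theorem S18RP_πK_mem_full (N : ℕ) : D.πK ∈ modularFunctionFieldFullC K N :=
  S18RP_C_mem_full N _

theorem S18RP_πK_mem_V (N : ℕ) : D.πK ∈ S18RP_V D N :=
  ⟨D.πK_mem_Vring, S18RP_πK_mem_full D N⟩

/-- **LIFT.** The reduction map of the Gauss valuation ring of `F1` is onto the function field
over the residue field. -/
theorem S18RP_exists_lift (hres : Function.Surjective D.res) (N : ℕ) (g : LaurentSeries κ)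
    (hg : g ∈ modularFunctionFieldFullC κ N) :
    ∃ G ∈ D.Vring, G ∈ modularFunctionFieldFullC K N ∧ D.redFun G = g := by
  induction hg using IntermediateField.adjoin_induction with
  | mem y hy =>
    obtain ⟨d, hd0, hd, rfl⟩ := hy
    have := hd0
    refine ⟨jqNModC K d, D.jqNModC_mem_Vring d, jqModCd_mem_full K N hd, ?_⟩
    rw [D.redFun_jqNModC d]
    rfl
  | algebraMap c =>
    obtain ⟨a, rfl⟩ := hres c
    refine ⟨D.incS (HahnSeries.C a), D.incS_mem_Vring _, ?_, ?_⟩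
    · have h : D.incS (HahnSeries.C a) = HahnSeries.C (D.inc a) := by
        rw [GaussData.incS, HahnSeries.C_apply, coeffMap_single, HahnSeries.C_apply]
      rw [h]
      exact S18RP_C_mem_full N _
    · rw [D.redFun_incS, GaussData.redS, HahnSeries.C_apply, coeffMap_single,
        algebraMap_laurentSeries_eq_single]
  | add x y _ _ h1 h2 =>
    obtain ⟨G1, hG1, hG1', rfl⟩ := h1
    obtain ⟨G2, hG2, hG2', rfl⟩ := h2
    exact ⟨G1 + G2, add_mem hG1 hG2, add_mem hG1' hG2', D.redFun_add hG1 hG2⟩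
  | inv x _ h1 =>
    obtain ⟨G1, hG1, hG1', rfl⟩ := h1
    by_cases h0 : D.redFun G1 = 0
    · refine ⟨0, zero_mem _, zero_mem _, ?_⟩
      rw [h0, inv_zero, D.redFun_zero]
    · exact ⟨G1⁻¹, D.inv_mem_Vring hG1 h0, inv_mem hG1', D.redFun_inv hG1 h0⟩
  | mul x y _ _ h1 h2 =>
    obtain ⟨G1, hG1, hG1', rfl⟩ := h1
    obtain ⟨G2, hG2, hG2', rfl⟩ := h2
    exact ⟨G1 * G2, mul_mem hG1 hG2, mul_mem hG1' hG2', D.redFun_mul hG1 hG2⟩

/-- **LIFT**, in terms of `V`. -/
theorem S18RP_exists_lift_V (hres : Function.Surjective D.res) (N : ℕ) (g : LaurentSeries κ)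
    (hg : g ∈ modularFunctionFieldFullC κ N) :
    ∃ G ∈ S18RP_V D N, D.redFun G = g := by
  obtain ⟨G, h1, h2, h3⟩ := S18RP_exists_lift D hres N g hg
  exact ⟨G, ⟨h1, h2⟩, h3⟩

/-- a unit of `V` whose reduction is `1` is of the form `1 + π c` -/
theorem S18RP_exists_eq_one_add (N : ℕ) {u : LaurentSeries K} (hu : u ∈ S18RP_V D N)
    (h1 : D.redFun u = 1) : ∃ c ∈ S18RP_V D N, u = 1 + D.πK * c := by
  have hu1 : u - 1 ∈ D.Vring := sub_mem hu.1 (one_mem _)
  have h0 : D.redFun (u - 1) = 0 := by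
    rw [D.redFun_sub hu.1 (one_mem _), h1, D.redFun_one, sub_self]
  obtain ⟨c, hc, hc'⟩ := D.exists_eq_mul_of_redFun_eq_zero hu1 h0
  refine ⟨c, ⟨hc, ?_⟩, ?_⟩
  · have h2 : c = D.πK⁻¹ * (u - 1) := by
      rw [hc', ← mul_assoc, inv_mul_cancel₀ D.πK_ne_zero, one_mul]
    rw [h2]
    show D.πK⁻¹ * (u - 1) ∈ modularFunctionFieldFullC K N
    exact mul_mem (inv_mem (S18RP_πK_mem_full D N))
      (sub_mem (show u ∈ modularFunctionFieldFullC K N from hu.2) (one_mem _))
  · rw [← hc']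
    ring

/-- **REDPOW from a lift.** -/
theorem S18RP_redPow_of_lift (N : ℕ) (p : ℕ) {f G : LaurentSeries K} (hf : f ∈ S18RP_V D N)
    (hG : G ∈ S18RP_V D N) (hG0 : D.redFun G ≠ 0) (hfG : D.redFun f = D.redFun G ^ p) :
    RedPow D.πK (S18RP_V D N) p f G := by
  have hGi : G⁻¹ ∈ S18RP_V D N :=
    ⟨D.inv_mem_Vring hG.1 hG0,
      (inv_mem (show G ∈ modularFunctionFieldFullC K N from hG.2) :
        G⁻¹ ∈ modularFunctionFieldFullC K N)⟩
  have hGne : G ≠ 0 := by
    rintro rfl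
    exact hG0 D.redFun_zero
  have hu : f * G⁻¹ ^ p ∈ S18RP_V D N := mul_mem hf (pow_mem hGi p)
  have hu1 : D.redFun (f * G⁻¹ ^ p) = 1 := by
    rw [D.redFun_mul hf.1 (pow_mem hGi.1 p), D.redFun_pow hGi.1, D.redFun_inv hG.1 hG0, hfG,
      ← mul_pow, mul_inv_cancel₀ hG0, one_pow]
  obtain ⟨c, hc, hcu⟩ := S18RP_exists_eq_one_add D N hu hu1
  refine ⟨hG, hGi, c, hc, ?_⟩
  rw [← hcu, inv_pow, mul_comm f, ← mul_assoc, mul_inv_cancel₀ (pow_ne_zero p hGne), one_mul]

/-- the quotient of two integral series with nonzero reduction of the denominator lies in the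
Gauss ring, with the expected reduction -/
theorem S18RP_div_mem_Vring {y₁ y₂ : LaurentSeries O} (hy₂ : D.redS y₂ ≠ 0) :
    D.incS y₁ / D.incS y₂ ∈ D.Vring ∧
      D.redFun (D.incS y₁ / D.incS y₂) = D.redS y₁ / D.redS y₂ := by
  have h0 : D.incS y₂ ≠ 0 := D.incS_ne_zero (D.ne_zero_of_redS_ne_zero hy₂)
  have hab : D.incS y₂ * (D.incS y₁ / D.incS y₂) = D.incS y₁ := by
    field_simp
  exact ⟨⟨y₁, y₂, hy₂, hab⟩, D.redFun_eq hy₂ hab⟩

/-- **REDPOW.** The reduction hypothesis of `CoreStatement`, for `y₁, y₂ ∈ O((q))`, gives the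
hypothesis `RedPow` of block C for `f = y₁ / y₂` (with `G` any lift of `g`). -/
theorem S18RP_redPow (hres : Function.Surjective D.res) (N : ℕ) (p : ℕ)
    (y₁ y₂ : LaurentSeries O)
    (h₁ : D.incS y₁ ∈ modularFunctionFieldFullC K N)
    (h₂ : D.incS y₂ ∈ modularFunctionFieldFullC K N)
    (g : LaurentSeries κ) (hg : g ∈ modularFunctionFieldFullC κ N) (hg0 : g ≠ 0)
    (hy₂ : D.redS y₂ ≠ 0) (hred : D.redS y₁ = g ^ p * D.redS y₂) :
    D.incS y₁ / D.incS y₂ ∈ modularFunctionFieldFullC K N ∧ D.incS y₁ / D.incS y₂ ≠ 0 ∧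
      ∃ G, D.redFun G = g ∧ RedPow D.πK (S18RP_V D N) p (D.incS y₁ / D.incS y₂) G := by
  obtain ⟨hfV, hfred⟩ := S18RP_div_mem_Vring D (y₁ := y₁) hy₂
  have hfF : D.incS y₁ / D.incS y₂ ∈ modularFunctionFieldFullC K N := div_mem h₁ h₂
  have hfg : D.redFun (D.incS y₁ / D.incS y₂) = g ^ p := by
    rw [hfred, hred, mul_div_assoc, div_self hy₂, mul_one]
  obtain ⟨G, hG, hGg⟩ := S18RP_exists_lift_V D hres N g hg
  refine ⟨hfF, ?_, G, hGg, ?_⟩
  · intro h0
    rw [h0, D.redFun_zero] at hfg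
    exact pow_ne_zero p hg0 hfg.symm
  · exact S18RP_redPow_of_lift D N p ⟨hfV, hfF⟩ hG (by rw [hGg]; exact hg0) (by rw [hfg, hGg])

end Fermat.Agent.S18_helper13_REDPOW
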