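import Mathlib
import Fermat.Prelude.Def_ModularCurve_ReductionModL
import Fermat.Agent.S18_helper13_GAUSS2
import Fermat.Agent.S18_helper9_CDefs

/-!
# S18: concrete carriers for the final assembly of `core`

Fix a valuation subring `A` of `ℚ̄` and an intermediate field `K1` of `ℚ̄ / ℚ` such that
`O1 := A ∩ K1` is a discrete valuation ring.  Everything lives in the ambient field
`L := LaurentSeries K1`:

* `S18K_O1 A K1 : ValuationSubring K1`, the ring `A ∩ K1`;
* `S18K_res A K1 : O1 →+* ResidueField A`, the residue map (target: the residue field of `A`);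
* `S18K_D A K1 : GaussData O1 K1 (ResidueField A)` (helper13), with uniformiser `(S18K_D A K1).π`;
* `S18K_O A K1 : Subring L`, the constants of `O1`;
* `S18K_π A K1 : L`, the uniformiser as a constant series;
* `S18K_j K1 : L`, the series `j`;
* `S18K_F1 K1 N : Subfield L`, the function field `K1(j(q^d) : d ∣ N)`;
* `S18K_V A K1 N : Subring L`, the Gauss valuation ring of `F1`;
* `S18K_A0 A K1 N`, `S18K_Ainf A K1 N : Subring L`, the integral closures of `O[j]`, `O[j⁻¹]` in `F1`.

`S18K_BlocksAB N ℓ A` is the contract for blocks A and B: for every admissible `K1` the block C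
structures `Setup` and `IG` hold for these carriers.
-/

set_option autoImplicit false

open HahnSeries IntermediateField ModularCurve
open Fermat.Agent.S18_helper13_GAUSS Fermat.Agent.S18_helper9_CDefs

noncomputable section

namespace Fermat.Agent.S18_helper25_COREDefs

variable (A : ValuationSubring (AlgebraicClosure ℚ))
  (K1 : IntermediateField ℚ (AlgebraicClosure ℚ))

/-- `O1 = A ∩ K1` -/
def S18K_O1 : ValuationSubring K1 := A.comap (algebraMap K1 (AlgebraicClosure ℚ))

theorem S18K_mem_O1 (x : K1) : x ∈ S18K_O1 A K1 ↔ (x : AlgebraicClosure ℚ) ∈ A := Iff.rfl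

/-- the inclusion `O1 → A` -/
def S18K_incl : S18K_O1 A K1 →+* A where
  toFun x := ⟨((x : K1) : AlgebraicClosure ℚ), x.2⟩
  map_one' := rfl
  map_mul' _ _ := rfl
  map_zero' := rfl
  map_add' _ _ := rfl

@[simp] theorem S18K_incl_coe (x : S18K_O1 A K1) :
    ((S18K_incl A K1 x : A) : AlgebraicClosure ℚ) = ((x : K1) : AlgebraicClosure ℚ) := rfl

/-- the residue map `O1 → A → A / m_A` -/
def S18K_res : S18K_O1 A K1 →+* IsLocalRing.ResidueField A :=
  (IsLocalRing.residue A).comp (S18K_incl A K1)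

/-- the kernel of the residue map is the maximal ideal of `O1` -/
theorem S18K_res_eq_zero_iff (x : S18K_O1 A K1) :
    S18K_res A K1 x = 0 ↔ x ∈ IsLocalRing.maximalIdeal (S18K_O1 A K1) := by
  rw [S18K_res, RingHom.comp_apply, IsLocalRing.residue_eq_zero_iff,
    IsLocalRing.mem_maximalIdeal, IsLocalRing.mem_maximalIdeal, mem_nonunits_iff,
    mem_nonunits_iff, not_iff_not]
  constructor
  · intro h
    obtain ⟨u, hu⟩ := h
    have hx0 : ((x : K1) : AlgebraicClosure ℚ) ≠ 0 := by
      intro h0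
      have : (u : A) = 0 := by
        rw [hu]; exact Subtype.ext (by rw [S18K_incl_coe, h0]; rfl)
      exact u.ne_zero this
    have hinv : (((x : K1)⁻¹ : K1) : AlgebraicClosure ℚ) ∈ A := by
      have h1 : (((u⁻¹ : Aˣ) : A) : AlgebraicClosure ℚ) = (((x : K1) : AlgebraicClosure ℚ))⁻¹ := by
        have h2 : ((u : A) : AlgebraicClosure ℚ) * (((u⁻¹ : Aˣ) : A) : AlgebraicClosure ℚ) = 1 := by
          have h3 : ((u : A) * ((u⁻¹ : Aˣ) : A) : A) = 1 := u.mul_inv
          have := congrArg (fun a : A => (a : AlgebraicClosure ℚ)) h3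
          exact this
        rw [hu, S18K_incl_coe] at h2
        exact eq_inv_of_mul_eq_one_right h2
      have h3 : (((x : K1)⁻¹ : K1) : AlgebraicClosure ℚ) = (((x : K1) : AlgebraicClosure ℚ))⁻¹ := by
        simp
      rw [h3, ← h1]
      exact ((u⁻¹ : Aˣ) : A).2
    refine IsUnit.of_mul_eq_one (⟨(x : K1)⁻¹, hinv⟩ : S18K_O1 A K1) ?_
    apply Subtype.ext
    have hx0' : (x : K1) ≠ 0 := fun h0 => hx0 (by rw [h0]; rfl)
    show (x : K1) * (x : K1)⁻¹ = 1
    exact mul_inv_cancel₀ hx0'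
  · intro h
    exact h.map (S18K_incl A K1)

section Carriers

/-- the constants of `O1`, as a subring of `L = K1((q))` -/
def S18K_O : Subring (LaurentSeries K1) :=
  (S18K_O1 A K1).toSubring.map (HahnSeries.C : K1 →+* LaurentSeries K1)

theorem S18K_mem_O (x : LaurentSeries K1) :
    x ∈ S18K_O A K1 ↔ ∃ c : K1, (c : AlgebraicClosure ℚ) ∈ A ∧ HahnSeries.C c = x := by
  simp only [S18K_O, Subring.mem_map]
  constructor
  · rintro ⟨c, hc, rfl⟩
    exact ⟨c, hc, rfl⟩
  · rintro ⟨c, hc, rfl⟩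
    exact ⟨c, hc, rfl⟩

/-- the coordinate `j` -/
def S18K_j : LaurentSeries K1 := jqModC K1

/-- the function field `F1 = K1(j(q^d) : d ∣ N)` as a subfield of `L` -/
def S18K_F1 (N : ℕ) : Subfield (LaurentSeries K1) :=
  (modularFunctionFieldFullC K1 N).toSubfield

theorem S18K_mem_F1 (N : ℕ) (x : LaurentSeries K1) :
    x ∈ S18K_F1 K1 N ↔ x ∈ modularFunctionFieldFullC K1 N := Iff.rfl

variable [IsDiscreteValuationRing (S18K_O1 A K1)]

/-- the Gauss data of `O1 ⊆ K1` with residue map to the residue field of `A` -/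
def S18K_D : GaussData (S18K_O1 A K1) K1 (IsLocalRing.ResidueField A) :=
  GaussData.ofDVR' (S18K_O1 A K1) K1 (IsLocalRing.ResidueField A)
    (S18K_O1 A K1).subtype Subtype.val_injective (S18K_res A K1) (S18K_res_eq_zero_iff A K1)

/-- the uniformiser of `O1`, as a constant series -/
def S18K_π : LaurentSeries K1 := (S18K_D A K1).πK

/-- the Gauss valuation ring of `F1` -/
def S18K_V (N : ℕ) : Subring (LaurentSeries K1) :=
  (S18K_D A K1).Vring ⊓ (S18K_F1 K1 N).toSubring

theorem S18K_mem_V (N : ℕ) (x : LaurentSeries K1) :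
    x ∈ S18K_V A K1 N ↔ x ∈ (S18K_D A K1).Vring ∧ x ∈ modularFunctionFieldFullC K1 N := Iff.rfl

/-- the chart at `j ≠ ∞`: the integral closure of `O[j]` in `F1` -/
def S18K_A0 (N : ℕ) : Subring (LaurentSeries K1) :=
  icl (adj (S18K_O A K1) (S18K_j K1)) (S18K_F1 K1 N)

/-- the chart at `j ≠ 0`: the integral closure of `O[j⁻¹]` in `F1` -/
def S18K_Ainf (N : ℕ) : Subring (LaurentSeries K1) :=
  icl (adj (S18K_O A K1) (S18K_j K1)⁻¹) (S18K_F1 K1 N)

end Carriers

/-- `K1` is **admissible** for `(A, ℓ)`: `O1 = A ∩ K1` is a discrete valuation ring, `K1` contains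
all roots of unity of order prime to `ℓ`, and `O1` and `A` have the same residue field.
(Output of X-A1, for every finite set `S ⊆ K1`.) -/
structure S18K_Admissible (ℓ : ℕ) : Prop where
  dvr : IsDiscreteValuationRing (S18K_O1 A K1)
  roots : ∀ n : ℕ, ¬ ℓ ∣ n → ∀ ζ : AlgebraicClosure ℚ, ζ ^ n = 1 → ζ ∈ K1
  res_surj : Function.Surjective (S18K_res A K1)

/-- **Contract for blocks A and B**: for every admissible `K1`, the data of block C. -/
def S18K_BlocksAB (N : ℕ) [NeZero N] (ℓ : ℕ) : Prop :=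
  ∀ (K1 : IntermediateField ℚ (AlgebraicClosure ℚ)) (h : S18K_Admissible A K1 ℓ),
    letI := h.dvr
    Setup (S18K_O A K1) (S18K_π A K1) (S18K_j K1) (S18K_F1 K1 N) (S18K_V A K1 N)
        (S18K_A0 A K1 N) (S18K_Ainf A K1 N) ∧
      IG (S18K_π A K1) (S18K_A0 A K1 N) ∧ IG (S18K_π A K1) (S18K_Ainf A K1 N)

/-- **Contract of block C** (= `main` of X-C-MAIN, for the concrete carriers). -/
def S18K_BlockC (N : ℕ) [NeZero N] (ℓ : ℕ) : Prop :=
  ∀ (K1 : IntermediateField ℚ (AlgebraicClosure ℚ)) (h : S18K_Admissible A K1 ℓ),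
    letI := h.dvr
    Setup (S18K_O A K1) (S18K_π A K1) (S18K_j K1) (S18K_F1 K1 N) (S18K_V A K1 N)
        (S18K_A0 A K1 N) (S18K_Ainf A K1 N) →
    IG (S18K_π A K1) (S18K_A0 A K1 N) → IG (S18K_π A K1) (S18K_Ainf A K1 N) →
    ∀ (p : ℕ), p.Prime → ((p : LaurentSeries K1))⁻¹ ∈ S18K_O A K1 →
    ∀ (f h' G : LaurentSeries K1), f ∈ S18K_F1 K1 N → f ≠ 0 → h' ^ p = f →
      PowDiv (S18K_O A K1) (S18K_π A K1) (S18K_F1 K1 N) p f →
      RedPow (S18K_π A K1) (S18K_V A K1 N) p f G → h' ∈ S18K_F1 K1 N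

end Fermat.Agent.S18_helper25_COREDefs
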