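import Mathlib
import Fermat.Agent.S18_helper3_P5

/-!
# S18 / X-C-UFD: local shape in a unique factorisation domain

If `p` divides `ord_q a - ord_q b` for every prime `q` not associated to `π`, and `π` divides
neither `a` nor `b`, then `a / b = u * (g1 / g2) ^ p` with `u` a unit and `π ∤ g1, g2`
(stated without division: `a * g2 ^ p = u * b * g1 ^ p`).
-/

set_option autoImplicit false

namespace Fermat.Agent.S18_helper3_CUFD

variable {R : Type*} [CommRing R] [IsDomain R] [UniqueFactorizationMonoid R]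

/-- All prime multiplicities of `a * b ^ (p - 1)` are divisible by `p`. -/
theorem dvd_multiplicity_mul_pow (π : R) (p : ℕ) (hp : 0 < p) (a b : R)
    (ha : ¬ π ∣ a) (hb : ¬ π ∣ b)
    (hq : ∀ q : R, Prime q → ¬ Associated q π →
      (p : ℤ) ∣ (multiplicity q a : ℤ) - (multiplicity q b : ℤ))
    (q : R) (hqp : Prime q) :
    p ∣ multiplicity q (a * b ^ (p - 1)) := by
  have ha0 : a ≠ 0 := by rintro rfl; exact ha (dvd_zero _)
  have hb0 : b ≠ 0 := by rintro rfl; exact hb (dvd_zero _)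
  have hab0 : a * b ^ (p - 1) ≠ 0 := mul_ne_zero ha0 (pow_ne_zero _ hb0)
  have hmul : multiplicity q (a * b ^ (p - 1)) =
      multiplicity q a + (p - 1) * multiplicity q b := by
    rw [multiplicity_mul hqp (FiniteMultiplicity.of_prime_left hqp hab0),
      FiniteMultiplicity.multiplicity_pow hqp (FiniteMultiplicity.of_prime_left hqp hb0)]
  by_cases hass : Associated q π
  · have h1 : multiplicity q a = 0 := multiplicity_eq_zero.2 fun h => ha (hass.symm.dvd.trans h)
    have h2 : multiplicity q b = 0 := multiplicity_eq_zero.2 fun h => hb (hass.symm.dvd.trans h)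
    rw [hmul, h1, h2]
    simp
  · have hord := hq q hqp hass
    rw [hmul]
    have hcast : (p : ℤ) ∣ ((multiplicity q a + (p - 1) * multiplicity q b : ℕ) : ℤ) := by
      have h1 : ((multiplicity q a + (p - 1) * multiplicity q b : ℕ) : ℤ) =
          ((multiplicity q a : ℤ) - (multiplicity q b : ℤ)) + (p : ℤ) * multiplicity q b := by
        push_cast [Nat.cast_sub hp]
        ring
      rw [h1]
      exact dvd_add hord (dvd_mul_right _ _)
    exact Int.natCast_dvd_natCast.1 hcast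

/-- **X-C-UFD.** -/
theorem ufd_shape (π : R) (hπ : Prime π) (p : ℕ) (hp : p.Prime) (a b : R) (ha0 : a ≠ 0)
    (hb0 : b ≠ 0) (ha : ¬ π ∣ a) (hb : ¬ π ∣ b)
    (hq : ∀ q : R, Prime q → ¬ Associated q π →
      (p : ℤ) ∣ (multiplicity q a : ℤ) - (multiplicity q b : ℤ)) :
    ∃ (u : Rˣ) (g1 g2 : R), g1 ≠ 0 ∧ g2 ≠ 0 ∧ ¬ π ∣ g1 ∧ ¬ π ∣ g2 ∧
      a * g2 ^ p = u * b * g1 ^ p := by
  have hab0 : a * b ^ (p - 1) ≠ 0 := mul_ne_zero ha0 (pow_ne_zero _ hb0)
  obtain ⟨u, g, hug⟩ :=
    Fermat.Agent.S18_helper3_P5.exists_eq_unit_mul_pow_of_forall_dvd_multiplicity p hab0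
      (fun q hqp => dvd_multiplicity_mul_pow π p hp.pos a b ha hb hq q hqp)
  have hg : ¬ π ∣ g := by
    intro hdvd
    have h1 : π ∣ a * b ^ (p - 1) := by
      rw [hug]
      exact Dvd.dvd.mul_left (dvd_pow hdvd hp.ne_zero) _
    rcases hπ.dvd_or_dvd h1 with h2 | h2
    · exact ha h2
    · exact hb (hπ.dvd_of_dvd_pow h2)
  have hg0 : g ≠ 0 := by rintro rfl; exact hg (dvd_zero _)
  refine ⟨u, g, b, hg0, hb0, hg, hb, ?_⟩
  have hpow : b ^ p = b ^ (p - 1) * b := by
    rw [← pow_succ, Nat.sub_add_cancel hp.pos]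
  rw [hpow]
  linear_combination b * hug

end Fermat.Agent.S18_helper3_CUFD
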