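import Mathlib
import Fermat.Agent.S18_helper9_CDefs
import Fermat.Agent.S18_helper3_P5
import Fermat.Agent.S18_helper3_CUFD

/-!
# S18 / X-C-LOCRING: the local ring of a chart at a maximal ideal containing `π`

Everything is elementwise inside one ambient field `L` (carriers = `Subring L`), as in
`S18_helper9_CDefs`.
-/

set_option autoImplicit false
set_option linter.unusedSectionVars false
set_option linter.style.haveILetI false

namespace Fermat.Agent.S18_helper3_LOCRING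

open Fermat.Agent.S18_helper9_CDefs

variable {L : Type*} [Field L]

section LocRing

/-- The localisation of the subring `A` of `L` at the prime ideal `m`, as a subring of `L`. -/
def locRing (A : Subring L) (m : Ideal A) [hm : m.IsPrime] : Subring L where
  carrier := {y | ∃ a c : A, c ∉ m ∧ y * (c : L) = a}
  mul_mem' := by
    rintro x y ⟨a, c, hc, h⟩ ⟨a', c', hc', h'⟩
    refine ⟨a * a', c * c', fun hmem => ?_, ?_⟩
    · rcases hm.mem_or_mem hmem with h1 | h1
      exacts [hc h1, hc' h1]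
    · push_cast
      rw [← h, ← h']; ring
  one_mem' := ⟨1, 1, fun h1 => hm.ne_top ((Ideal.eq_top_iff_one m).2 h1), by simp⟩
  add_mem' := by
    rintro x y ⟨a, c, hc, h⟩ ⟨a', c', hc', h'⟩
    refine ⟨a * c' + a' * c, c * c', fun hmem => ?_, ?_⟩
    · rcases hm.mem_or_mem hmem with h1 | h1
      exacts [hc h1, hc' h1]
    · push_cast
      rw [← h, ← h']; ring
  zero_mem' := ⟨0, 1, fun h1 => hm.ne_top ((Ideal.eq_top_iff_one m).2 h1), by simp⟩
  neg_mem' := by
    rintro x ⟨a, c, hc, h⟩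
    exact ⟨-a, c, hc, by push_cast; rw [← h]; ring⟩

variable (A : Subring L) (m : Ideal A) [hm : m.IsPrime]

theorem mem_locRing_iff {y : L} :
    y ∈ locRing A m ↔ ∃ a c : A, c ∉ m ∧ y * (c : L) = a := Iff.rfl

theorem le_locRing : A ≤ locRing A m := fun a ha =>
  ⟨⟨a, ha⟩, 1, fun h1 => hm.ne_top ((Ideal.eq_top_iff_one m).2 h1), by simp⟩

theorem coe_ne_zero_of_notMem {c : A} (hc : c ∉ m) : (c : L) ≠ 0 := by
  intro h
  apply hc
  have : c = 0 := Subtype.ext h
  rw [this]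
  exact m.zero_mem

theorem inv_mem_locRing {c : A} (hc : c ∉ m) : ((c : L))⁻¹ ∈ locRing A m :=
  ⟨1, c, hc, by rw [inv_mul_cancel₀ (coe_ne_zero_of_notMem A m hc)]; simp⟩

theorem div_mem_locRing (a : A) {c : A} (hc : c ∉ m) : (a : L) / (c : L) ∈ locRing A m :=
  ⟨a, c, hc, div_mul_cancel₀ _ (coe_ne_zero_of_notMem A m hc)⟩

/-- `y = a / c` with `a ∉ m` is a unit of the local ring. -/
theorem inv_mem_locRing_of_notMem {y : L} {a c : A} (ha : a ∉ m) (hc : c ∉ m)
    (h : y * (c : L) = a) : y⁻¹ ∈ locRing A m := by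
  refine ⟨c, a, ha, ?_⟩
  have hc0 := coe_ne_zero_of_notMem A m hc
  have ha0 := coe_ne_zero_of_notMem A m ha
  have hy0 : y ≠ 0 := by
    rintro rfl
    rw [zero_mul] at h
    exact ha0 h.symm
  rw [← h]
  field_simp

/-- The inclusion `A → locRing A m`. -/
def incl : A →+* locRing A m := Subring.inclusion (le_locRing A m)

@[simp] theorem coe_incl (a : A) : ((incl A m a : locRing A m) : L) = (a : L) := rfl

theorem incl_injective : Function.Injective (incl A m) := fun a b h => by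
  apply Subtype.ext
  have := congrArg (fun z : locRing A m => (z : L)) h
  simpa using this

/-- The ideal of non-units of `locRing A m`. -/
theorem isUnit_iff (y : locRing A m) :
    IsUnit y ↔ ∀ a c : A, c ∉ m → (y : L) * (c : L) = a → a ∉ m := by
  constructor
  · rintro hy a c hc h ha
    obtain ⟨z, hz⟩ := hy.exists_right_inv
    obtain ⟨a', c', hc', h'⟩ := z.2
    have h1 : (y : L) * (z : L) = 1 := congrArg Subtype.val hz
    -- a * a' = c * c'
    have h2 : ((a * a' : A) : L) = ((c * c' : A) : L) := by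
      push_cast
      rw [← h, ← h']
      linear_combination ((c : L) * (c' : L)) * h1
    have h3 : a * a' = c * c' := Subtype.ext h2
    have h4 : c * c' ∈ m := h3 ▸ m.mul_mem_right _ ha
    rcases hm.mem_or_mem h4 with h5 | h5
    exacts [hc h5, hc' h5]
  · intro h
    obtain ⟨a, c, hc, hac⟩ := y.2
    have ha := h a c hc hac
    refine IsUnit.of_mul_eq_one (⟨(y : L)⁻¹, inv_mem_locRing_of_notMem A m ha hc hac⟩) ?_
    apply Subtype.ext
    have hy0 : (y : L) ≠ 0 := by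
      intro h0
      rw [h0, zero_mul] at hac
      exact coe_ne_zero_of_notMem A m ha hac.symm
    show (y : L) * (y : L)⁻¹ = 1
    exact mul_inv_cancel₀ hy0

theorem not_isUnit_iff (y : locRing A m) :
    ¬ IsUnit y ↔ ∃ a c : A, a ∈ m ∧ c ∉ m ∧ (y : L) * (c : L) = a := by
  rw [isUnit_iff]
  constructor
  · intro h
    push Not at h
    obtain ⟨a, c, hc, hac, ha⟩ := h
    exact ⟨a, c, ha, hc, hac⟩
  · rintro ⟨a, c, ha, hc, hac⟩ h
    exact h a c hc hac ha

instance isLocalRing_locRing : IsLocalRing (locRing A m) := by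
  refine IsLocalRing.of_nonunits_add ?_
  intro x y hx hy
  rw [mem_nonunits_iff, not_isUnit_iff] at hx hy ⊢
  obtain ⟨a, c, ha, hc, h⟩ := hx
  obtain ⟨a', c', ha', hc', h'⟩ := hy
  refine ⟨a * c' + a' * c, c * c', ?_, fun hmem => ?_, ?_⟩
  · exact m.add_mem (m.mul_mem_right _ ha) (m.mul_mem_right _ ha')
  · rcases hm.mem_or_mem hmem with h1 | h1
    exacts [hc h1, hc' h1]
  · push_cast
    rw [← h, ← h']; ring

theorem mem_maximalIdeal_iff (y : locRing A m) :
    y ∈ IsLocalRing.maximalIdeal (locRing A m) ↔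
      ∃ a c : A, a ∈ m ∧ c ∉ m ∧ (y : L) * (c : L) = a := by
  rw [IsLocalRing.mem_maximalIdeal, mem_nonunits_iff, not_isUnit_iff]

theorem incl_mem_maximalIdeal {a : A} (ha : a ∈ m) :
    incl A m a ∈ IsLocalRing.maximalIdeal (locRing A m) :=
  (mem_maximalIdeal_iff A m _).2 ⟨a, 1, ha,
    fun h1 => hm.ne_top ((Ideal.eq_top_iff_one m).2 h1), by simp⟩

/-- Ideals of the local ring are extended from `A`; hence it is noetherian if `A` is. -/
theorem isNoetherianRing_locRing [IsNoetherianRing A] : IsNoetherianRing (locRing A m) := by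
  classical
  rw [isNoetherianRing_iff_ideal_fg]
  intro I
  obtain ⟨s, hs⟩ := (isNoetherianRing_iff_ideal_fg A).1 inferInstance (I.comap (incl A m))
  refine ⟨s.image (incl A m), le_antisymm ?_ ?_⟩
  · rw [Ideal.span_le]
    intro z hz
    rw [Finset.coe_image] at hz
    obtain ⟨a, ha, rfl⟩ := hz
    have : a ∈ I.comap (incl A m) := hs ▸ Ideal.subset_span ha
    exact this
  · intro y hy
    obtain ⟨a, c, hc, hac⟩ := y.2
    have hya : incl A m a = y * incl A m c := by
      apply Subtype.ext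
      simp [hac]
    have ha : a ∈ I.comap (incl A m) := by
      show incl A m a ∈ I
      rw [hya]
      exact I.mul_mem_right _ hy
    rw [← hs] at ha
    have h1 : incl A m a ∈ Ideal.span ((s.image (incl A m) : Finset (locRing A m)) :
        Set (locRing A m)) := by
      rw [Finset.coe_image, ← Ideal.map_span]
      exact Ideal.mem_map_of_mem _ ha
    have hcu : IsUnit (incl A m c) := by
      rw [isUnit_iff]
      intro a' c' hc' h' ha'
      have h2 : ((c * c' : A) : L) = (a' : L) := by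
        push_cast
        exact h'
      have h3 : c * c' = a' := Subtype.ext h2
      rcases hm.mem_or_mem (h3 ▸ ha') with h5 | h5
      exacts [hc h5, hc' h5]
    obtain ⟨u, hu⟩ := hcu
    have hy' : y = incl A m a * (u⁻¹ : (locRing A m)ˣ) := by
      rw [hya, ← hu, mul_assoc, Units.mul_inv, mul_one]
    rw [hy']
    exact Ideal.mul_mem_right _ _ h1

end LocRing

section Residue

variable (π : L) (V A : Subring L) (m : Ideal A) [hm : m.IsPrime]

/-- The local hypotheses on `(π, V, A, m)` used below (all consequences of `Setup`/`Chart`). -/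
structure LocHyp : Prop where
  π_mem : π ∈ A
  π_mem_m : ∀ hπ : π ∈ A, (⟨π, hπ⟩ : A) ∈ m
  le_V : A ≤ V
  sat : ∀ v ∈ V, π * v ∈ A → v ∈ A
  V_unif : ∀ x ∈ V, x⁻¹ ∉ V → ∃ v ∈ V, x = π * v
  π_nonunit : π⁻¹ ∉ V
  loc : ∀ v ∈ V, ∃ b ∈ A, b ≠ 0 ∧ b⁻¹ ∈ V ∧ v * b ∈ A

variable {π V A m}

theorem LocHyp.π_ne_zero (H : LocHyp π V A m) : π ≠ 0 := by
  rintro rfl
  exact H.π_nonunit (by rw [inv_zero]; exact V.zero_mem)

theorem LocHyp.inv_mem_V_of_notMem (H : LocHyp π V A m) {c : A} (hc : c ∉ m) :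
    ((c : L))⁻¹ ∈ V := by
  by_contra hcon
  obtain ⟨v, hv, hcv⟩ := H.V_unif c (H.le_V c.2) hcon
  have hvA : v ∈ A := H.sat v hv (hcv ▸ c.2)
  apply hc
  have : c = ⟨π, H.π_mem⟩ * ⟨v, hvA⟩ := Subtype.ext hcv
  rw [this]
  exact m.mul_mem_right _ (H.π_mem_m H.π_mem)

theorem LocHyp.locRing_le_V (H : LocHyp π V A m) : locRing A m ≤ V := by
  rintro y ⟨a, c, hc, h⟩
  have hc0 := coe_ne_zero_of_notMem A m hc
  have : y = (a : L) * ((c : L))⁻¹ := by
    rw [← h]; field_simp
  rw [this]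
  exact V.mul_mem (H.le_V a.2) (H.inv_mem_V_of_notMem hc)

theorem LocHyp.sat_locRing (H : LocHyp π V A m) {v : L} (hv : v ∈ V)
    (hπv : π * v ∈ locRing A m) : v ∈ locRing A m := by
  obtain ⟨a, c, hc, h⟩ := hπv
  have hc0 := coe_ne_zero_of_notMem A m hc
  have hvc : v * (c : L) ∈ A := by
    refine H.sat _ (V.mul_mem hv (H.le_V c.2)) ?_
    have : π * (v * (c : L)) = (a : L) := by rw [← h]; ring
    rw [this]
    exact a.2
  exact ⟨⟨v * (c : L), hvc⟩, c, hc, rfl⟩

/-- `π` as an element of the local ring. -/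
def LocHyp.ϖ (H : LocHyp π V A m) : locRing A m := ⟨π, le_locRing A m H.π_mem⟩

@[simp] theorem LocHyp.coe_ϖ (H : LocHyp π V A m) : ((H.ϖ : locRing A m) : L) = π := rfl

theorem LocHyp.ϖ_dvd_iff (H : LocHyp π V A m) (y : locRing A m) :
    H.ϖ ∣ y ↔ ∃ v ∈ V, (y : L) = π * v := by
  constructor
  · rintro ⟨z, rfl⟩
    exact ⟨z, H.locRing_le_V z.2, rfl⟩
  · rintro ⟨v, hv, hy⟩
    exact ⟨⟨v, H.sat_locRing hv (hy ▸ y.2)⟩, Subtype.ext hy⟩

theorem LocHyp.inv_mem_V_of_not_dvd (H : LocHyp π V A m) {y : locRing A m}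
    (hy : ¬ H.ϖ ∣ y) : ((y : L))⁻¹ ∈ V := by
  by_contra hcon
  obtain ⟨v, hv, hyv⟩ := H.V_unif y (H.locRing_le_V y.2) hcon
  exact hy ((H.ϖ_dvd_iff y).2 ⟨v, hv, hyv⟩)

theorem LocHyp.not_dvd_of_inv_mem_V (H : LocHyp π V A m) {y : locRing A m}
    (hy0 : (y : L) ≠ 0) (hy : ((y : L))⁻¹ ∈ V) : ¬ H.ϖ ∣ y := by
  intro hdvd
  obtain ⟨v, hv, hyv⟩ := (H.ϖ_dvd_iff y).1 hdvd
  apply H.π_nonunit
  have hπ0 := H.π_ne_zero
  have : π⁻¹ = v * ((y : L))⁻¹ := by
    rw [hyv] at hy0 ⊢
    have hv0 : v ≠ 0 := right_ne_zero_of_mul hy0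
    field_simp
  rw [this]
  exact V.mul_mem hv hy

theorem LocHyp.ϖ_mem_maximalIdeal (H : LocHyp π V A m) :
    H.ϖ ∈ IsLocalRing.maximalIdeal (locRing A m) :=
  incl_mem_maximalIdeal A m (H.π_mem_m H.π_mem)

theorem LocHyp.prime_ϖ (H : LocHyp π V A m) : Prime H.ϖ := by
  refine ⟨fun h0 => H.π_ne_zero (congrArg Subtype.val h0), ?_, ?_⟩
  · exact (IsLocalRing.mem_maximalIdeal _).1 H.ϖ_mem_maximalIdeal
  · intro y z hyz
    by_contra hcon
    push Not at hcon
    have hy := H.inv_mem_V_of_not_dvd hcon.1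
    have hz := H.inv_mem_V_of_not_dvd hcon.2
    have hy0 : (y : L) ≠ 0 := by
      intro h0
      exact hcon.1 ((H.ϖ_dvd_iff y).2 ⟨0, V.zero_mem, by rw [h0, mul_zero]⟩)
    have hz0 : (z : L) ≠ 0 := by
      intro h0
      exact hcon.2 ((H.ϖ_dvd_iff z).2 ⟨0, V.zero_mem, by rw [h0, mul_zero]⟩)
    have hyz0 : ((y * z : locRing A m) : L) ≠ 0 := by
      push_cast
      exact mul_ne_zero hy0 hz0
    refine H.not_dvd_of_inv_mem_V hyz0 ?_ hyz
    push_cast
    rw [mul_inv]
    exact V.mul_mem hy hz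

end Residue

section Quot

variable {π : L} {V A : Subring L} {m : Ideal A} [hm : m.IsPrime]

/-- The elementwise form of `[IG]` at the maximal ideal `m`. -/
def IGAt (π : L) (A : Subring L) (m : Ideal A) : Prop :=
  ∀ hπ : π ∈ A, ∃ y ∈ m, ∀ x ∈ m, ∃ c : A, c ∉ m ∧ ∃ a b : A, c * x = a * ⟨π, hπ⟩ + b * y

theorem LocHyp.isPrime_span (H : LocHyp π V A m) : (Ideal.span {H.ϖ}).IsPrime :=
  (Ideal.span_singleton_prime H.prime_ϖ.ne_zero).2 H.prime_ϖ

theorem LocHyp.isDomain_quot (H : LocHyp π V A m) :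
    IsDomain (locRing A m ⧸ Ideal.span {H.ϖ}) := by
  haveI := H.isPrime_span
  exact Ideal.Quotient.isDomain _

theorem LocHyp.isLocalRing_quot (H : LocHyp π V A m) :
    IsLocalRing (locRing A m ⧸ Ideal.span {H.ϖ}) := by
  haveI := H.isDomain_quot
  exact IsLocalRing.of_surjective' (Ideal.Quotient.mk (Ideal.span {H.ϖ}))
    Ideal.Quotient.mk_surjective

/-- The maximal ideal of `R ⧸ π` is principal. -/
theorem LocHyp.isPrincipal_maximalIdeal_quot (H : LocHyp π V A m) (hIG : IGAt π A m) :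
    haveI := H.isLocalRing_quot
    (IsLocalRing.maximalIdeal (locRing A m ⧸ Ideal.span {H.ϖ})).IsPrincipal := by
  haveI := H.isLocalRing_quot
  obtain ⟨y₀, hy₀, hgen⟩ := hIG H.π_mem
  set mk := Ideal.Quotient.mk (Ideal.span {H.ϖ}) with hmk
  refine ⟨mk (incl A m y₀), le_antisymm ?_ ?_⟩
  · intro s hs
    obtain ⟨r, rfl⟩ := Ideal.Quotient.mk_surjective s
    have hr : ¬ IsUnit r := fun hu =>
      (IsLocalRing.mem_maximalIdeal _).1 hs (hu.map (Ideal.Quotient.mk (Ideal.span {H.ϖ})))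
    obtain ⟨a, c, ha, hc, hac⟩ := (not_isUnit_iff A m r).1 hr
    obtain ⟨c', hc', a', b', hrel⟩ := hgen a ha
    have hcc' : c * c' ∉ m := fun hmem => (hm.mem_or_mem hmem).elim hc hc'
    have hc0 := coe_ne_zero_of_notMem A m hc
    have hc'0 := coe_ne_zero_of_notMem A m hc'
    -- r = π * (a' / (c c')) + y₀ * (b' / (c c'))
    have hrelL : (c' : L) * (a : L) = (a' : L) * π + (b' : L) * (y₀ : L) := by
      have := congrArg (fun z : A => (z : L)) hrel
      simpa using this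
    have hreq : r = H.ϖ * ⟨(a' : L) / ((c * c' : A) : L), div_mem_locRing A m a' hcc'⟩ +
        incl A m y₀ * ⟨(b' : L) / ((c * c' : A) : L), div_mem_locRing A m b' hcc'⟩ := by
      apply Subtype.ext
      have : (r : L) = (a : L) / (c : L) := by rw [← hac]; field_simp
      show (r : L) = π * ((a' : L) / ((c * c' : A) : L)) +
        (y₀ : L) * ((b' : L) / ((c * c' : A) : L))
      rw [this]
      push_cast
      field_simp
      linear_combination hrelL
    rw [Submodule.mem_span_singleton]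
    refine ⟨mk ⟨(b' : L) / ((c * c' : A) : L), div_mem_locRing A m b' hcc'⟩, ?_⟩
    rw [smul_eq_mul, hreq, map_add, map_mul, map_mul]
    have : mk H.ϖ = 0 := Ideal.Quotient.eq_zero_iff_mem.2 (Ideal.mem_span_singleton_self _)
    rw [this, zero_mul, zero_add, mul_comm]
  · rw [Ideal.span_le, Set.singleton_subset_iff]
    show mk (incl A m y₀) ∈ IsLocalRing.maximalIdeal _
    rw [IsLocalRing.mem_maximalIdeal, mem_nonunits_iff]
    intro hu
    obtain ⟨z, hz⟩ := hu.exists_right_inv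
    obtain ⟨z', rfl⟩ := Ideal.Quotient.mk_surjective z
    rw [← map_mul, ← map_one mk, hmk, Ideal.Quotient.eq, Ideal.mem_span_singleton] at hz
    have h1 : incl A m y₀ * z' ∈ IsLocalRing.maximalIdeal (locRing A m) :=
      Ideal.mul_mem_right _ _ (incl_mem_maximalIdeal A m hy₀)
    have h2 : incl A m y₀ * z' - 1 ∈ IsLocalRing.maximalIdeal (locRing A m) := by
      obtain ⟨t, ht⟩ := hz
      rw [ht]
      exact Ideal.mul_mem_right _ _ H.ϖ_mem_maximalIdeal
    have h3 : (1 : locRing A m) ∈ IsLocalRing.maximalIdeal (locRing A m) := by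
      have := Ideal.sub_mem _ h1 h2
      simp at this
    exact (IsLocalRing.mem_maximalIdeal _).1 h3 isUnit_one

theorem LocHyp.isPrincipalIdealRing_quot [IsNoetherianRing A] (H : LocHyp π V A m)
    (hIG : IGAt π A m) : IsPrincipalIdealRing (locRing A m ⧸ Ideal.span {H.ϖ}) := by
  haveI := H.isLocalRing_quot
  haveI := H.isDomain_quot
  haveI : IsNoetherianRing (locRing A m) := isNoetherianRing_locRing A m
  exact ((tfae_of_isNoetherianRing_of_isLocalRing_of_isDomain
    (R := locRing A m ⧸ Ideal.span {H.ϖ})).out 4 0).1 (H.isPrincipal_maximalIdeal_quot hIG)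

theorem LocHyp.isIntegrallyClosed_quot [IsNoetherianRing A] (H : LocHyp π V A m)
    (hIG : IGAt π A m) : IsIntegrallyClosed (locRing A m ⧸ Ideal.span {H.ϖ}) := by
  haveI := H.isLocalRing_quot
  haveI := H.isDomain_quot
  haveI : IsNoetherianRing (locRing A m) := isNoetherianRing_locRing A m
  haveI := H.isPrincipalIdealRing_quot hIG
  infer_instance

/-- The local ring is factorial. -/
theorem LocHyp.ufd [IsNoetherianRing A] (H : LocHyp π V A m) (hIG : IGAt π A m) :
    UniqueFactorizationMonoid (locRing A m) := by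
  haveI := H.isDomain_quot
  haveI : IsNoetherianRing (locRing A m) := isNoetherianRing_locRing A m
  haveI := H.isPrincipalIdealRing_quot hIG
  exact Fermat.Agent.S18_helper3_P5.uniqueFactorizationMonoid_of_isLocalRing
    H.ϖ_mem_maximalIdeal H.prime_ϖ.ne_zero

end Quot

section PrimeLoc

variable {R : Type*} [CommRing R] [IsDomain R] (ι : R →+* L) (hι : Function.Injective ι)

/-- The localisation `R_(q)` at a prime element `q`, as a subring of `L` (via `ι : R → L`). -/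
def primeLoc (q : R) (hq : Prime q) : Subring L where
  carrier := {x | ∃ r s : R, ¬ q ∣ s ∧ x * ι s = ι r}
  mul_mem' := by
    rintro x y ⟨r, s, hs, h⟩ ⟨r', s', hs', h'⟩
    refine ⟨r * r', s * s', fun hdvd => ?_, ?_⟩
    · rcases hq.dvd_or_dvd hdvd with h1 | h1
      exacts [hs h1, hs' h1]
    · rw [map_mul, map_mul, ← h, ← h']; ring
  one_mem' := ⟨1, 1, hq.not_dvd_one, by simp⟩
  add_mem' := by
    rintro x y ⟨r, s, hs, h⟩ ⟨r', s', hs', h'⟩
    refine ⟨r * s' + r' * s, s * s', fun hdvd => ?_, ?_⟩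
    · rcases hq.dvd_or_dvd hdvd with h1 | h1
      exacts [hs h1, hs' h1]
    · rw [map_mul, map_add, map_mul, map_mul, ← h, ← h']; ring
  zero_mem' := ⟨0, 1, hq.not_dvd_one, by simp⟩
  neg_mem' := by
    rintro x ⟨r, s, hs, h⟩
    exact ⟨-r, s, hs, by rw [map_neg, ← h]; ring⟩

variable {ι}

theorem ne_zero_of_not_dvd' {q s : R} (hs : ¬ q ∣ s) : s ≠ 0 := by
  rintro rfl
  exact hs (dvd_zero q)

theorem ι_mem_primeLoc (q : R) (hq : Prime q) (r : R) : ι r ∈ primeLoc ι q hq :=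
  ⟨r, 1, hq.not_dvd_one, by simp⟩

/-- The element `q` of `R_(q)`. -/
def punif (ι : R →+* L) (q : R) (hq : Prime q) : primeLoc ι q hq :=
  ⟨ι q, ι_mem_primeLoc q hq q⟩

include hι

theorem ι_ne_zero {s : R} (hs0 : s ≠ 0) : ι s ≠ 0 := fun h =>
  hs0 (hι (by rw [h, map_zero]))

theorem div_mem_primeLoc (q : R) (hq : Prime q) (r : R) {s : R} (hs : ¬ q ∣ s) :
    ι r / ι s ∈ primeLoc ι q hq :=
  ⟨r, s, hs, div_mul_cancel₀ _ (ι_ne_zero hι (ne_zero_of_not_dvd' hs))⟩

theorem inv_ι_notMem_primeLoc (q : R) (hq : Prime q) : (ι q)⁻¹ ∉ primeLoc ι q hq := by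
  rintro ⟨r, s, hs, h⟩
  apply hs
  have hq0 : ι q ≠ 0 := ι_ne_zero hι hq.ne_zero
  have h2 : ι s = ι (q * r) := by
    rw [map_mul, ← h]
    field_simp
  exact ⟨r, hι h2⟩

/-- `r / s` with `q ∤ r` and `q ∤ s` is a unit of `R_(q)`. -/
theorem isUnit_primeLoc_of_not_dvd {q : R} {hq : Prime q} (x : primeLoc ι q hq) {r s : R}
    (hr : ¬ q ∣ r) (_hs : ¬ q ∣ s) (h : (x : L) * ι s = ι r) : IsUnit x := by
  have hR : ι r ≠ 0 := ι_ne_zero hι (ne_zero_of_not_dvd' hr)
  refine IsUnit.of_mul_eq_one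
    (⟨ι s / ι r, div_mem_primeLoc hι q hq s hr⟩ : primeLoc ι q hq) ?_
  apply Subtype.ext
  show (x : L) * (ι s / ι r) = 1
  rw [← mul_div_assoc, h, div_self hR]

theorem not_isUnit_punif (q : R) (hq : Prime q) : ¬ IsUnit (punif ι q hq) := by
  intro h
  obtain ⟨y, hy⟩ := h.exists_right_inv
  have hy' : ι q * (y : L) = 1 := congrArg Subtype.val hy
  have : (y : L) = (ι q)⁻¹ := eq_inv_of_mul_eq_one_right hy'
  exact inv_ι_notMem_primeLoc hι q hq (this ▸ y.2)

variable [WfDvdMonoid R]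

theorem exists_associated_punif_pow (q : R) (hq : Prime q) {x : primeLoc ι q hq}
    (hx : x ≠ 0) : ∃ n : ℕ, Associated (punif ι q hq ^ n) x := by
  obtain ⟨r, s, hs, h⟩ := x.2
  have hS : ι s ≠ 0 := ι_ne_zero hι (ne_zero_of_not_dvd' hs)
  have hr0 : r ≠ 0 := by
    rintro rfl
    rw [map_zero] at h
    rcases mul_eq_zero.1 h with h1 | h1
    · exact hx (Subtype.ext h1)
    · exact hS h1
  obtain ⟨n, r', hr', rfl⟩ := WfDvdMonoid.max_power_factor hr0 hq.irreducible
  let u : primeLoc ι q hq := ⟨ι r' / ι s, div_mem_primeLoc hι q hq r' hs⟩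
  have hu : IsUnit u := isUnit_primeLoc_of_not_dvd hι u hr' hs (div_mul_cancel₀ _ hS)
  refine ⟨n, hu.unit, ?_⟩
  apply Subtype.ext
  show (ι q) ^ n * (ι r' / ι s) = (x : L)
  rw [map_mul, map_pow] at h
  rw [← mul_div_assoc, ← h, mul_div_assoc, div_self hS, mul_one]

theorem punif_dvd_of_not_isUnit (q : R) (hq : Prime q) {x : primeLoc ι q hq}
    (hx : ¬ IsUnit x) : punif ι q hq ∣ x := by
  obtain ⟨r, s, hs, h⟩ := x.2
  have hS : ι s ≠ 0 := ι_ne_zero hι (ne_zero_of_not_dvd' hs)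
  by_cases hr : q ∣ r
  · obtain ⟨r', rfl⟩ := hr
    refine ⟨⟨ι r' / ι s, div_mem_primeLoc hι q hq r' hs⟩, ?_⟩
    apply Subtype.ext
    show (x : L) = ι q * (ι r' / ι s)
    rw [map_mul] at h
    rw [← mul_div_assoc, ← h, mul_div_assoc, div_self hS, mul_one]
  · exact absurd (isUnit_primeLoc_of_not_dvd hι x hr hs h) hx

theorem irreducible_punif (q : R) (hq : Prime q) : Irreducible (punif ι q hq) := by
  refine ⟨not_isUnit_punif hι q hq, fun a b hab => ?_⟩
  by_contra hcon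
  push Not at hcon
  obtain ⟨a', rfl⟩ := punif_dvd_of_not_isUnit hι q hq hcon.1
  obtain ⟨b', rfl⟩ := punif_dvd_of_not_isUnit hι q hq hcon.2
  have hq0 : punif ι q hq ≠ 0 := by
    intro h0
    exact ι_ne_zero hι hq.ne_zero (congrArg Subtype.val h0)
  have h1 : punif ι q hq * 1 = punif ι q hq * (punif ι q hq * (a' * b')) := by
    rw [mul_one]
    calc punif ι q hq = punif ι q hq * a' * (punif ι q hq * b') := hab
      _ = _ := by ring
  have h2 := mul_left_cancel₀ hq0 h1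
  exact not_isUnit_punif hι q hq (IsUnit.of_mul_eq_one _ h2.symm)

theorem isDiscreteValuationRing_primeLoc (q : R) (hq : Prime q) :
    IsDiscreteValuationRing (primeLoc ι q hq) :=
  IsDiscreteValuationRing.ofHasUnitMulPowIrreducibleFactorization
    ⟨punif ι q hq, irreducible_punif hι q hq, fun hx => exists_associated_punif_pow hι q hq hx⟩

/-- Fractions of elements of `R` lie in `R_(q)` or their inverses do. -/
theorem div_mem_or_inv_mem_primeLoc (q : R) (hq : Prime q) (a b : R) (hb0 : b ≠ 0) :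
    ι a / ι b ∈ primeLoc ι q hq ∨ (ι a / ι b)⁻¹ ∈ primeLoc ι q hq := by
  by_cases ha : a = 0
  · left
    rw [ha, map_zero, zero_div]
    exact (primeLoc ι q hq).zero_mem
  obtain ⟨α, a', ha', rfl⟩ := WfDvdMonoid.max_power_factor ha hq.irreducible
  obtain ⟨β, b', hb', rfl⟩ := WfDvdMonoid.max_power_factor hb0 hq.irreducible
  have hQ : ι q ≠ 0 := ι_ne_zero hι hq.ne_zero
  have hA : ι a' ≠ 0 := ι_ne_zero hι (ne_zero_of_not_dvd' ha')
  have hB : ι b' ≠ 0 := ι_ne_zero hι (ne_zero_of_not_dvd' hb')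
  rcases le_total β α with h | h
  · left
    obtain ⟨k, rfl⟩ := Nat.exists_eq_add_of_le h
    refine ⟨q ^ k * a', b', hb', ?_⟩
    simp only [map_mul, map_pow]
    field_simp
    ring
  · right
    obtain ⟨k, rfl⟩ := Nat.exists_eq_add_of_le h
    refine ⟨q ^ k * b', a', ha', ?_⟩
    simp only [map_mul, map_pow]
    field_simp
    ring

/-- If `a / b = ε * g ^ p` with `ε` a unit of `R_(q)` and `g` a fraction of elements of `R`,
then `p` divides `ord_q a - ord_q b`. -/
theorem dvd_multiplicity_sub_of_eq (q : R) (hq : Prime q) (p : ℕ) (hp : 0 < p) (a b : R)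
    (ha : a ≠ 0)
    (hb : b ≠ 0) (ε g : L) (hε : ε ∈ primeLoc ι q hq) (hε' : ε⁻¹ ∈ primeLoc ι q hq)
    (gn gd : R) (hgd : gd ≠ 0) (hg : g * ι gd = ι gn) (hf : ι a = ι b * (ε * g ^ p)) :
    (p : ℤ) ∣ (multiplicity q a : ℤ) - (multiplicity q b : ℤ) := by
  obtain ⟨en, ed, hed, he⟩ := hε
  obtain ⟨en', ed', hed', he'⟩ := hε'
  have hA : ι a ≠ 0 := ι_ne_zero hι ha
  have hε0 : ε ≠ 0 := by
    rintro rfl
    rw [zero_mul, mul_zero] at hf
    exact hA hf
  have hen : ¬ q ∣ en := by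
    intro hdvd
    have h1 : ι (en * en') = ι (ed * ed') := by
      rw [map_mul, map_mul, ← he, ← he']
      field_simp
    have h2 : en * en' = ed * ed' := hι h1
    have h3 : q ∣ ed * ed' := h2 ▸ Dvd.dvd.mul_right hdvd _
    rcases hq.dvd_or_dvd h3 with h4 | h4
    exacts [hed h4, hed' h4]
  have hed0 : ed ≠ 0 := ne_zero_of_not_dvd' hed
  have hen0 : en ≠ 0 := ne_zero_of_not_dvd' hen
  -- a * ed * gd ^ p = b * en * gn ^ p
  have hrel : a * ed * gd ^ p = b * en * gn ^ p := by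
    apply hι
    simp only [map_mul, map_pow]
    rw [hf, ← he, ← hg]
    ring
  have hgn0 : gn ≠ 0 := by
    rintro rfl
    have : a * ed * gd ^ p ≠ 0 := mul_ne_zero (mul_ne_zero ha hed0) (pow_ne_zero _ hgd)
    rw [hrel] at this
    exact this (by rw [zero_pow hp.ne', mul_zero])
  have hfin : ∀ x : R, x ≠ 0 → FiniteMultiplicity q x := fun x hx =>
    FiniteMultiplicity.of_not_isUnit hq.not_isUnit hx
  have hL : multiplicity q (a * ed * gd ^ p) = multiplicity q a + p * multiplicity q gd := by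
    rw [multiplicity_mul hq (hfin _ (mul_ne_zero (mul_ne_zero ha hed0) (pow_ne_zero _ hgd))),
      multiplicity_mul hq (hfin _ (mul_ne_zero ha hed0)),
      FiniteMultiplicity.multiplicity_pow hq (hfin _ hgd), multiplicity_eq_zero.2 hed, add_zero]
  have hR : multiplicity q (b * en * gn ^ p) = multiplicity q b + p * multiplicity q gn := by
    rw [multiplicity_mul hq (hfin _ (mul_ne_zero (mul_ne_zero hb hen0) (pow_ne_zero _ hgn0))),
      multiplicity_mul hq (hfin _ (mul_ne_zero hb hen0)),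
      FiniteMultiplicity.multiplicity_pow hq (hfin _ hgn0), multiplicity_eq_zero.2 hen, add_zero]
  have hmain : multiplicity q a + p * multiplicity q gd =
      multiplicity q b + p * multiplicity q gn := by
    rw [← hL, ← hR, hrel]
  refine ⟨(multiplicity q gn : ℤ) - (multiplicity q gd : ℤ), ?_⟩
  have := congrArg (fun n : ℕ => (n : ℤ)) hmain
  push_cast at this
  linear_combination this

end PrimeLoc

section Main

variable {π : L} {V A : Subring L} {m : Ideal A} [hm : m.IsPrime]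

/-- `1 + π c` is a unit of `V`. -/
theorem LocHyp.inv_one_add_mem (H : LocHyp π V A m) {c : L} (hc : c ∈ V) :
    (1 + π * c)⁻¹ ∈ V := by
  by_contra hcon
  have hπV : π ∈ V := H.le_V H.π_mem
  obtain ⟨v, hv, h⟩ := H.V_unif (1 + π * c) (V.add_mem V.one_mem (V.mul_mem hπV hc)) hcon
  apply H.π_nonunit
  have hπ0 := H.π_ne_zero
  have : π⁻¹ = v - c := by
    have h1 : π * (v - c) = 1 := by linear_combination -h
    exact (eq_inv_of_mul_eq_one_right h1).symm
  rw [this]
  exact V.sub_mem hv hc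

/-- Units of `V` are fractions of elements of `A` prime to `π`. -/
theorem LocHyp.exists_frac_of_unit (H : LocHyp π V A m) {v : L} (hv : v ∈ V) (hv' : v⁻¹ ∈ V)
    (hv0 : v ≠ 0) :
    ∃ a b : locRing A m, ¬ H.ϖ ∣ a ∧ ¬ H.ϖ ∣ b ∧ (b : L) ≠ 0 ∧ (b : L)⁻¹ ∈ V ∧
      v * (b : L) = a := by
  obtain ⟨b, hbA, hb0, hb', hvb⟩ := H.loc v hv
  refine ⟨⟨v * b, le_locRing A m hvb⟩, ⟨b, le_locRing A m hbA⟩, ?_, ?_, hb0, hb', rfl⟩
  · refine H.not_dvd_of_inv_mem_V (mul_ne_zero hv0 hb0) ?_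
    show (v * b)⁻¹ ∈ V
    rw [mul_inv]
    exact V.mul_mem hv' hb'
  · exact H.not_dvd_of_inv_mem_V hb0 hb'

/-- Elements of `F1` are fractions of elements of the local ring. -/
theorem LocHyp.exists_frac (H : LocHyp π V A m) (F1 : Subfield L)
    (hVal : ∀ x ∈ F1, x ∈ V ∨ x⁻¹ ∈ V) {x : L} (hx : x ∈ F1) :
    ∃ a b : locRing A m, b ≠ 0 ∧ x * (b : L) = a := by
  rcases eq_or_ne x 0 with rfl | hx0
  · exact ⟨0, 1, one_ne_zero, by simp⟩
  rcases hVal x hx with h | h
  · obtain ⟨b, hbA, hb0, -, hvb⟩ := H.loc x h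
    exact ⟨⟨x * b, le_locRing A m hvb⟩, ⟨b, le_locRing A m hbA⟩,
      fun h0 => hb0 (congrArg Subtype.val h0), rfl⟩
  · obtain ⟨b, hbA, hb0, -, hvb⟩ := H.loc x⁻¹ h
    refine ⟨⟨b, le_locRing A m hbA⟩, ⟨x⁻¹ * b, le_locRing A m hvb⟩, fun h0 => ?_, ?_⟩
    · have : x⁻¹ * b = 0 := congrArg Subtype.val h0
      rcases mul_eq_zero.1 this with h1 | h1
      · exact hx0 (inv_eq_zero.1 h1)
      · exact hb0 h1
    · show x * (x⁻¹ * b) = b
      rw [← mul_assoc, mul_inv_cancel₀ hx0, one_mul]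

/-- **PowDiv at the horizontal primes.**  For a prime element `q` of the (factorial) local ring,
not associated to `π`, the hypothesis `PowDiv` applied to the discrete valuation ring `R_(q)`
gives `p ∣ ord_q a - ord_q b` whenever `f = a / b`. -/
theorem LocHyp.dvd_multiplicity_sub [WfDvdMonoid (locRing A m)] (H : LocHyp π V A m)
    (O : Subring L) (F1 : Subfield L) (hOA : O ≤ A) (hVF : ∀ x ∈ V, x ∈ F1)
    (hVal : ∀ x ∈ F1, x ∈ V ∨ x⁻¹ ∈ V) (p : ℕ) (hp : 0 < p) (f : L) (hf0 : f ≠ 0)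
    (hdiv : PowDiv O π F1 p f) (a b : locRing A m) (ha : a ≠ 0) (hb : b ≠ 0)
    (hfab : f * (b : L) = a) (q : locRing A m) (hq : Prime q) (hqπ : ¬ Associated q H.ϖ) :
    (p : ℤ) ∣ (multiplicity q a : ℤ) - (multiplicity q b : ℤ) := by
  have hι : Function.Injective (locRing A m).subtype := Subtype.val_injective
  have hRF : ∀ x ∈ locRing A m, x ∈ F1 := fun x hx => hVF x (H.locRing_le_V hx)
  have hqϖ : ¬ q ∣ H.ϖ := fun hdvd => hqπ (hq.associated_of_dvd H.prime_ϖ hdvd)
  obtain ⟨ε, g, hε, hε', hgF, hfεg⟩ := hdiv (primeLoc (locRing A m).subtype q hq) (by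
      rintro x ⟨r, s, hs, h⟩
      have hs0 : ((s : locRing A m) : L) ≠ 0 := fun h0 =>
        ne_zero_of_not_dvd' hs (Subtype.ext h0)
      have hx : x = (r : L) * ((s : L))⁻¹ := by
        have h' : x * (s : L) = (r : L) := h
        rw [← h']; field_simp
      show x ∈ F1
      rw [hx]
      exact F1.mul_mem (hRF _ r.2) (F1.inv_mem (hRF _ s.2)))
    (fun x hx => ι_mem_primeLoc (ι := (locRing A m).subtype) q hq
      ⟨x, le_locRing A m (hOA hx)⟩)
    (by
      have := div_mem_primeLoc (ι := (locRing A m).subtype) hι q hq 1 hqϖ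
      simpa using this)
    (by
      intro x hx
      obtain ⟨c, d, hd0, hcd⟩ := H.exists_frac F1 hVal hx
      have hd0' : ((d : locRing A m) : L) ≠ 0 := fun h0 => hd0 (Subtype.ext h0)
      have hxeq : x = (locRing A m).subtype c / (locRing A m).subtype d := by
        show x = (c : L) / (d : L)
        rw [← hcd]; field_simp
      rw [hxeq]
      exact div_mem_or_inv_mem_primeLoc hι q hq c d hd0)
    (isDiscreteValuationRing_primeLoc hι q hq)
  have hg0 : g ≠ 0 := by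
    rintro rfl
    rw [zero_pow hp.ne', mul_zero] at hfεg
    exact hf0 hfεg
  obtain ⟨gn, gd, hgd0, hgnd⟩ := H.exists_frac F1 hVal hgF
  refine dvd_multiplicity_sub_of_eq hι q hq p hp a b ha hb ε g hε hε' gn gd hgd0 hgnd ?_
  show (a : L) = (b : L) * (ε * g ^ p)
  rw [← hfab, hfεg]; ring

/-- **Residue root.**  If `ω ∈ V` and `ω ^ p * (1 + π c) = u` with `u` a unit of the local ring
`R` and `c ∈ V`, then `ω = w * (1 + π c')` with `w` a unit of `R` and `c' ∈ V`. -/
theorem LocHyp.residue_root [IsNoetherianRing A] (H : LocHyp π V A m) (hIG : IGAt π A m)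
    (p : ℕ) (hp : 0 < p) (ω c : L) (hω : ω ∈ V) (hω' : ω⁻¹ ∈ V) (hω0 : ω ≠ 0) (hc : c ∈ V)
    (u : (locRing A m)ˣ) (hu : ω ^ p * (1 + π * c) = ((u : locRing A m) : L)) :
    ∃ w : (locRing A m)ˣ, ∃ c' ∈ V, ω = ((w : locRing A m) : L) * (1 + π * c') := by
  haveI := H.isDomain_quot
  haveI := H.isLocalRing_quot
  haveI := H.isIntegrallyClosed_quot hIG
  have hπV : π ∈ V := H.le_V H.π_mem
  obtain ⟨α, β, hα, hβ, hβ0, hβ', hωβ⟩ := H.exists_frac_of_unit hω hω' hω0
  set S := locRing A m ⧸ Ideal.span {H.ϖ} with hS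
  set mk : locRing A m →+* S := Ideal.Quotient.mk (Ideal.span {H.ϖ}) with hmk
  have hmk0 : ∀ y : locRing A m, mk y = 0 ↔ H.ϖ ∣ y := fun y => by
    rw [hmk, Ideal.Quotient.eq_zero_iff_mem, Ideal.mem_span_singleton]
  have hmkβ : mk β ≠ 0 := fun h => hβ ((hmk0 β).1 h)
  -- `α ^ p = u β ^ p` modulo `π`
  have hrel : mk α ^ p = mk u * mk β ^ p := by
    rw [← map_pow, ← map_pow, ← map_mul, ← sub_eq_zero, ← map_sub, hmk0, H.ϖ_dvd_iff]
    refine ⟨-((α : L) ^ p * c), V.neg_mem (V.mul_mem (V.pow_mem (H.locRing_le_V α.2) p) hc), ?_⟩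
    push_cast
    rw [← hu, ← hωβ]
    ring
  -- the fraction `α / β` in the fraction field of `S` is integral
  set x : FractionRing S := algebraMap S (FractionRing S) (mk α) /
    algebraMap S (FractionRing S) (mk β) with hx
  have hβF : algebraMap S (FractionRing S) (mk β) ≠ 0 := by
    intro h
    exact hmkβ ((IsFractionRing.injective S (FractionRing S)) (by rw [h, map_zero]))
  have hxp : x ^ p = algebraMap S (FractionRing S) (mk u) := by
    have h1 : algebraMap S (FractionRing S) (mk α) ^ p =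
        algebraMap S (FractionRing S) (mk u) * algebraMap S (FractionRing S) (mk β) ^ p := by
      rw [← map_pow (algebraMap S (FractionRing S)) (mk α) p, hrel, map_mul, map_pow]
    rw [hx, div_pow, h1]
    exact mul_div_cancel_right₀ _ (pow_ne_zero p hβF)
  have hxint : IsIntegral S x := by
    refine ⟨Polynomial.X ^ p - Polynomial.C (mk u),
      Polynomial.monic_X_pow_sub_C _ hp.ne', ?_⟩
    rw [Polynomial.eval₂_sub, Polynomial.eval₂_pow, Polynomial.eval₂_X, Polynomial.eval₂_C, hxp,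
      sub_self]
  obtain ⟨wbar, hwbar⟩ := IsIntegrallyClosed.isIntegral_iff.1 hxint
  obtain ⟨w, rfl⟩ := Ideal.Quotient.mk_surjective wbar
  have hwβ : mk w * mk β = mk α := by
    apply IsFractionRing.injective S (FractionRing S)
    rw [map_mul, hwbar, hx, div_mul_cancel₀ _ hβF]
  -- `w` is a unit
  have hwu : IsUnit w := by
    by_contra hcon
    have hwm : w ∈ IsLocalRing.maximalIdeal (locRing A m) :=
      (IsLocalRing.mem_maximalIdeal _).2 hcon
    have h1 : mk w ^ p = mk u := by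
      have h2 : mk w ^ p * mk β ^ p = mk u * mk β ^ p := by
        rw [← mul_pow, hwβ, hrel]
      exact mul_right_cancel₀ (pow_ne_zero p hmkβ) h2
    rw [← map_pow, ← sub_eq_zero, ← map_sub, hmk0] at h1
    have h3 : w ^ p - u ∈ IsLocalRing.maximalIdeal (locRing A m) := by
      obtain ⟨t, ht⟩ := h1
      rw [ht]
      exact Ideal.mul_mem_right _ _ H.ϖ_mem_maximalIdeal
    have h4 : (u : locRing A m) ∈ IsLocalRing.maximalIdeal (locRing A m) := by
      have h5 : w ^ p ∈ IsLocalRing.maximalIdeal (locRing A m) :=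
        Ideal.pow_mem_of_mem _ hwm p hp
      have h6 := Ideal.sub_mem _ h5 h3
      rwa [sub_sub_cancel] at h6
    exact (IsLocalRing.mem_maximalIdeal _).1 h4 u.isUnit
  -- `α - w β = π v`
  have hdiff : H.ϖ ∣ α - w * β := by
    rw [← hmk0, map_sub, map_mul, hwβ, sub_self]
  obtain ⟨v, hv⟩ := hdiff
  have hvL : (α : L) - (w : L) * (β : L) = π * (v : L) := by
    have := congrArg (fun z : locRing A m => (z : L)) hv
    simpa using this
  have hw0 : (w : L) ≠ 0 := by
    intro h0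
    exact hwu.ne_zero (Subtype.ext h0)
  have hwinv : ((w : L))⁻¹ ∈ V := by
    obtain ⟨z, hz⟩ := hwu.exists_right_inv
    have hz' : (w : L) * (z : L) = 1 := congrArg Subtype.val hz
    rw [← eq_inv_of_mul_eq_one_right hz']
    exact H.locRing_le_V z.2
  refine ⟨hwu.unit, (v : L) * (β : L)⁻¹ * ((w : L))⁻¹,
    V.mul_mem (V.mul_mem (H.locRing_le_V v.2) hβ') hwinv, ?_⟩
  show ω = (w : L) * (1 + π * ((v : L) * (β : L)⁻¹ * ((w : L))⁻¹))
  have hω_eq : ω = (α : L) * ((β : L))⁻¹ := by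
    rw [← hωβ]; field_simp
  rw [hω_eq]
  field_simp
  linear_combination hvL

end Main

section Assembly

variable {π : L} {V A : Subring L} {m : Ideal A} [hm : m.IsPrime]

/-- **X-C-LOCRING, core form.**  In the local ring `R = A_m` at a prime `m ∋ π` of the chart `A`:
`f = u * g ^ p` with `u` a unit of `R` and `g` a unit of `V`, and `G = g * w * (1 + π c)` with
`w` a unit of `R`. -/
theorem LocHyp.locring_core [IsNoetherianRing A] (H : LocHyp π V A m) (hIG : IGAt π A m)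
    (O : Subring L) (F1 : Subfield L) (hOA : O ≤ A) (hVF : ∀ x ∈ V, x ∈ F1)
    (hVal : ∀ x ∈ F1, x ∈ V ∨ x⁻¹ ∈ V) (p : ℕ) (hp : p.Prime) (f G : L) (hf0 : f ≠ 0)
    (hdiv : PowDiv O π F1 p f) (hred : RedPow π V p f G) :
    ∃ (u w : (locRing A m)ˣ) (g : L), g ∈ F1 ∧ g ∈ V ∧ g⁻¹ ∈ V ∧ g ≠ 0 ∧
      f = ((u : locRing A m) : L) * g ^ p ∧
      ∃ c ∈ V, G = g * ((w : locRing A m) : L) * (1 + π * c) := by
  obtain ⟨hG, hG', c, hc, hfG⟩ := hred
  have hπV : π ∈ V := H.le_V H.π_mem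
  have h1c : 1 + π * c ∈ V := V.add_mem V.one_mem (V.mul_mem hπV hc)
  have h1c' : (1 + π * c)⁻¹ ∈ V := H.inv_one_add_mem hc
  have hfV : f ∈ V := by
    rw [hfG]; exact V.mul_mem (V.pow_mem hG p) h1c
  have hfV' : f⁻¹ ∈ V := by
    rw [hfG, mul_inv, ← inv_pow]; exact V.mul_mem (V.pow_mem hG' p) h1c'
  have hG0 : G ≠ 0 := by
    rintro rfl
    rw [zero_pow hp.ne_zero, zero_mul] at hfG
    exact hf0 hfG
  have h1c0 : 1 + π * c ≠ 0 := by
    intro h0
    rw [h0, mul_zero] at hfG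
    exact hf0 hfG
  obtain ⟨a, b, ha, hb, hb0, hb', hfab⟩ := H.exists_frac_of_unit hfV hfV' hf0
  haveI : UniqueFactorizationMonoid (locRing A m) := H.ufd hIG
  have ha0 : a ≠ 0 := by
    intro h0
    have : (a : L) = 0 := by rw [h0]; rfl
    rw [← hfab] at this
    exact mul_ne_zero hf0 hb0 this
  have hb0' : b ≠ 0 := fun h0 => hb0 (by rw [h0]; rfl)
  obtain ⟨u, g1, g2, hg1, hg2, hπg1, hπg2, hag⟩ :=
    Fermat.Agent.S18_helper3_CUFD.ufd_shape H.ϖ H.prime_ϖ p hp a b ha0 hb0' ha hb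
      (fun q hq hqπ => H.dvd_multiplicity_sub O F1 hOA hVF hVal p hp.pos f hf0 hdiv a b ha0 hb0'
        hfab q hq hqπ)
  have hg1L : (g1 : L) ≠ 0 := fun h0 => hg1 (Subtype.ext h0)
  have hg2L : (g2 : L) ≠ 0 := fun h0 => hg2 (Subtype.ext h0)
  have hg1V : (g1 : L) ∈ V := H.locRing_le_V g1.2
  have hg2V : (g2 : L) ∈ V := H.locRing_le_V g2.2
  have hg1V' : ((g1 : L))⁻¹ ∈ V := H.inv_mem_V_of_not_dvd hπg1
  have hg2V' : ((g2 : L))⁻¹ ∈ V := H.inv_mem_V_of_not_dvd hπg2
  have hagL : (a : L) * (g2 : L) ^ p = ((u : locRing A m) : L) * (b : L) * (g1 : L) ^ p := by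
    have := congrArg (fun z : locRing A m => (z : L)) hag
    simpa using this
  set g : L := (g1 : L) * ((g2 : L))⁻¹ with hg
  have hgV : g ∈ V := V.mul_mem hg1V hg2V'
  have hgV' : g⁻¹ ∈ V := by
    rw [hg, mul_inv, inv_inv]; exact V.mul_mem hg1V' hg2V
  have hg0 : g ≠ 0 := mul_ne_zero hg1L (inv_ne_zero hg2L)
  have hfug : f = ((u : locRing A m) : L) * g ^ p := by
    have h1 : f * (b : L) * (g2 : L) ^ p = ((u : locRing A m) : L) * (b : L) * (g1 : L) ^ p := by
      rw [hfab]; exact hagL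
    have h2 : f * (g2 : L) ^ p = ((u : locRing A m) : L) * (g1 : L) ^ p := by
      apply mul_left_cancel₀ hb0
      linear_combination h1
    rw [hg, mul_pow, inv_pow]
    field_simp
    exact h2
  -- the root
  set ω : L := G * g⁻¹ with hω
  have hωV : ω ∈ V := V.mul_mem hG hgV'
  have hωV' : ω⁻¹ ∈ V := by
    rw [hω, mul_inv, inv_inv]; exact V.mul_mem hG' hgV
  have hω0 : ω ≠ 0 := mul_ne_zero hG0 (inv_ne_zero hg0)
  have hu : ω ^ p * (1 + π * c) = ((u : locRing A m) : L) := by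
    have h1 : G ^ p * (1 + π * c) = ((u : locRing A m) : L) * g ^ p := by rw [← hfG, hfug]
    rw [hω, mul_pow, inv_pow]
    field_simp
    linear_combination h1
  obtain ⟨w, c', hc', hωw⟩ := H.residue_root hIG p hp.pos ω c hωV hωV' hω0 hc u hu
  refine ⟨u, w, g, hVF g hgV, hgV, hgV', hg0, hfug, c', hc', ?_⟩
  have hGω : G = ω * g := by
    rw [hω]; field_simp
  rw [hGω, hωw]; ring

/-- Units of the local ring, elementwise. -/
theorem unit_mem_locRing (u : (locRing A m)ˣ) :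
    (∃ a c : A, c ∉ m ∧ ((u : locRing A m) : L) * (c : L) = a) ∧
      (∃ a c : A, c ∉ m ∧ (((u : locRing A m) : L))⁻¹ * (c : L) = a) := by
  refine ⟨(u : locRing A m).2, ?_⟩
  have h1 : ((u : locRing A m) : L) * (((u⁻¹ : (locRing A m)ˣ) : locRing A m) : L) = 1 := by
    have h2 : (u : locRing A m) * ((u⁻¹ : (locRing A m)ˣ) : locRing A m) = 1 := Units.mul_inv u
    have h3 := congrArg (fun z : locRing A m => (z : L)) h2
    exact h3
  rw [← eq_inv_of_mul_eq_one_right h1]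
  exact ((u⁻¹ : (locRing A m)ˣ) : locRing A m).2

end Assembly

section Wrapper

variable {O : Subring L} {π j : L} {F1 : Subfield L} {V A0 Ainf : Subring L}

/-- `O ≤ A` for a chart. -/
theorem Chart_O_le (S : Setup O π j F1 V A0 Ainf) {x : L} {A : Subring L}
    (hC : Chart O π x F1 V A) : O ≤ A := by
  intro y hy
  refine (hC.mem_iff y).2 ⟨?_, S.O_le hy⟩
  have hmem : y ∈ adj O x := Subring.subset_closure (Or.inl hy)
  exact isIntegral_algebraMap (R := adj O x) (A := L) (x := ⟨y, hmem⟩)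

/-- The local hypotheses hold for every chart of a `Setup` and every maximal ideal containing
`π`. -/
theorem LocHyp_of_chart (S : Setup O π j F1 V A0 Ainf) {x : L} {A : Subring L}
    (hC : Chart O π x F1 V A) (m : Ideal A) [m.IsPrime]
    (hπm : ∀ hπ : π ∈ A, (⟨π, hπ⟩ : A) ∈ m) : LocHyp π V A m where
  π_mem := Chart_O_le S hC S.π_mem
  π_mem_m := hπm
  le_V := hC.le_V
  sat := hC.sat
  V_unif := S.V_unif
  π_nonunit := S.π_nonunit
  loc := hC.loc

/-- **X-C-LOCRING** (pieces 260), with the membership in `locAt A m` unfolded and the extra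
hypothesis that `A` is noetherian (from X-C-FIN). -/
theorem locring (S : Setup O π j F1 V A0 Ainf) {p : ℕ} (hp : p.Prime)
    (x : L) (A : Subring L) (hC : Chart O π x F1 V A) (hIG : IG π A)
    (hN : IsNoetherianRing A)
    (f G : L) (hf0 : f ≠ 0) (hdiv : PowDiv O π F1 p f) (hred : RedPow π V p f G)
    (hπ : π ∈ A) (m : Ideal A) (hm : m.IsMaximal) (hπm : (⟨π, hπ⟩ : A) ∈ m) :
    ∃ u g w : L, (∃ a c : A, c ∉ m ∧ u * (c : L) = a) ∧ (∃ a c : A, c ∉ m ∧ u⁻¹ * (c : L) = a) ∧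
      g ∈ F1 ∧ g ∈ V ∧ g⁻¹ ∈ V ∧ f = u * g ^ p ∧
      (∃ a c : A, c ∉ m ∧ w * (c : L) = a) ∧ (∃ a c : A, c ∉ m ∧ w⁻¹ * (c : L) = a) ∧
      ∃ c ∈ V, G = g * w * (1 + π * c) := by
  haveI := hN
  haveI : m.IsPrime := hm.isPrime
  have H : LocHyp π V A m := LocHyp_of_chart S hC m (fun _ => hπm)
  have hIGm : IGAt π A m := fun hπ' => hIG hπ' m hm hπm
  obtain ⟨u, w, g, hgF, hgV, hgV', -, hfug, c, hc, hG⟩ :=
    H.locring_core hIGm O F1 (Chart_O_le S hC) S.V_le S.V_val p hp f G hf0 hdiv hred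
  exact ⟨u, g, w, (unit_mem_locRing u).1, (unit_mem_locRing u).2, hgF, hgV, hgV', hfug,
    (unit_mem_locRing w).1, (unit_mem_locRing w).2, c, hc, hG⟩

end Wrapper

end Fermat.Agent.S18_helper3_LOCRING
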