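import Mathlib
import Fermat.Agent.S18_helper9_CDefs
import Fermat.Agent.S18_helper3_LOCRING
import Fermat.Prelude.Def_AlgebraicCurve_DivisorClassGroup

set_option autoImplicit false
set_option linter.unusedSectionVars false
set_option linter.style.haveILetI false

open Fermat.Agent.S18_helper9_CDefs Fermat.Agent.S18_helper3_LOCRING

namespace Fermat.Agent.S37_helper2_SPFIB

/-! ### Abstract special-fibre dictionary -/

section Abstract

variable {L : Type*} [Field L] {E : Type*} [Field E]
  {π : L} {V A : Subring L} {m : Ideal A} [hmp : m.IsPrime]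

/-- The data of a reduction map on `V` with kernel `π V`, and a valuation subring `W` of the
target whose centre on `A` is `m`. -/
structure SpData (π : L) (V A : Subring L) (m : Ideal A) (red : V →+* E)
    (W : ValuationSubring E) : Prop where
  le_V : A ≤ V
  ker : ∀ v : V, red v = 0 ↔ ∃ w ∈ V, (v : L) = π * w
  mem_W : ∀ a : A, red ⟨a, le_V a.2⟩ ∈ W
  centre : ∀ a : A, a ∈ m ↔ red ⟨a, le_V a.2⟩ ∈ W.nonunits
  frac : ∀ x : E, ∃ a b : A, red ⟨b, le_V b.2⟩ ≠ 0 ∧ x * red ⟨b, le_V b.2⟩ = red ⟨a, le_V a.2⟩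

variable {red : V →+* E} {W : ValuationSubring E}

/-- `red` of an element of `A`. -/
abbrev redA (red : V →+* E) (hle : A ≤ V) (a : A) : E := red ⟨a, hle a.2⟩

theorem redA_mul (hle : A ≤ V) (a b : A) :
    redA red hle (a * b) = redA red hle a * redA red hle b := by
  rw [redA, redA, redA, ← map_mul]
  rfl

theorem redA_add (hle : A ≤ V) (a b : A) :
    redA red hle (a + b) = redA red hle a + redA red hle b := by
  rw [redA, redA, redA, ← map_add]
  rfl

theorem SpData.isUnit_of_notMem (D : SpData π V A m red W) {s : A} (hs : s ∉ m) :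
    W.valuation (redA red D.le_V s) = 1 := by
  have h1 : redA red D.le_V s ∈ W := D.mem_W s
  have h2 : redA red D.le_V s ∉ W.nonunits := fun h => hs ((D.centre s).2 h)
  rw [ValuationSubring.mem_nonunits_iff, not_lt] at h2
  exact le_antisymm ((W.valuation_le_one_iff _).2 h1) h2

theorem SpData.ne_zero_of_notMem (D : SpData π V A m red W) {s : A} (hs : s ∉ m) :
    redA red D.le_V s ≠ 0 := by
  intro h0
  have := D.isUnit_of_notMem hs
  rw [h0, map_zero] at this
  exact zero_ne_one this

/-- elements of the local ring reduce into `W`. -/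
theorem SpData.mem_W_of_frac (D : SpData π V A m red W) {x : E} {a s : A} (hs : s ∉ m)
    (h : x * redA red D.le_V s = redA red D.le_V a) : x ∈ W := by
  rw [← W.valuation_le_one_iff]
  have h1 := congrArg W.valuation h
  rw [map_mul, D.isUnit_of_notMem hs, mul_one] at h1
  rw [h1]
  exact (W.valuation_le_one_iff _).2 (D.mem_W a)

/-- elements of the local ring at `m`, as elements of `V`. -/
theorem SpData.red_locRing (D : SpData π V A m red W) (H : LocHyp π V A m)
    {y : L} (hy : y ∈ locRing A m) {a s : A} (_hs : s ∉ m) (h : y * (s : L) = a) :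
    red ⟨y, H.locRing_le_V hy⟩ * redA red D.le_V s = redA red D.le_V a := by
  rw [redA, redA, ← map_mul]
  congr 1
  exact Subtype.ext h

theorem SpData.red_locRing_mem (D : SpData π V A m red W) (H : LocHyp π V A m)
    {y : L} (hy : y ∈ locRing A m) : red ⟨y, H.locRing_le_V hy⟩ ∈ W := by
  obtain ⟨a, s, hs, h⟩ := hy
  exact D.mem_W_of_frac hs (D.red_locRing H ⟨a, s, hs, h⟩ hs h)

theorem red_mul_locRing (H : LocHyp π V A m) (y z : locRing A m) :
    red ⟨((y * z : locRing A m) : L), H.locRing_le_V (y * z).2⟩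
      = red ⟨y, H.locRing_le_V y.2⟩ * red ⟨z, H.locRing_le_V z.2⟩ := by
  rw [← map_mul]
  rfl

/-- `red` kills `π R`. -/
theorem SpData.red_eq_of_sub_mem_span (D : SpData π V A m red W) (H : LocHyp π V A m)
    {y z : locRing A m} (h : y - z ∈ Ideal.span {H.ϖ}) :
    red ⟨y, H.locRing_le_V y.2⟩ = red ⟨z, H.locRing_le_V z.2⟩ := by
  rw [Ideal.mem_span_singleton] at h
  obtain ⟨w, hw⟩ := h
  have h1 : red (⟨y, H.locRing_le_V y.2⟩ - ⟨z, H.locRing_le_V z.2⟩) = 0 := by
    rw [D.ker]
    refine ⟨w, H.locRing_le_V w.2, ?_⟩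
    have := congrArg (fun t : locRing A m => (t : L)) hw
    simpa using this
  rw [map_sub, sub_eq_zero] at h1
  exact h1

/-- **(2)** `W` is the image of the local ring `A_m`: every element of `W` is `red a / red s`
with `s ∉ m`. -/
theorem SpData.exists_frac_of_mem [IsNoetherianRing A] (D : SpData π V A m red W)
    (H : LocHyp π V A m) (hIG : IGAt π A m) {x : E} (hx : x ∈ W) :
    ∃ a s : A, s ∉ m ∧ x * redA red D.le_V s = redA red D.le_V a := by
  haveI := H.isDomain_quot
  haveI := H.isLocalRing_quot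
  haveI := H.isPrincipalIdealRing_quot hIG
  obtain ⟨a, b, hb, hab⟩ := D.frac x
  set mk := Ideal.Quotient.mk (Ideal.span {H.ϖ}) with hmk
  obtain ⟨c', hc'⟩ := ValuationRing.cond (mk (incl A m a)) (mk (incl A m b))
  obtain ⟨c, rfl⟩ := Ideal.Quotient.mk_surjective c'
  rcases hc' with h | h
  · -- `a * c ≡ b`, so `x * red c = 1` (or `x = 0`)
    rw [← map_mul, hmk, Ideal.Quotient.eq] at h
    have h1 := D.red_eq_of_sub_mem_span H h
    have h2 : redA red D.le_V a * red ⟨c, H.locRing_le_V c.2⟩ = redA red D.le_V b := by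
      rw [red_mul_locRing H] at h1
      exact h1
    by_cases ha0 : redA red D.le_V a = 0
    · -- then `red b = 0`, contradiction
      rw [ha0, zero_mul] at h2
      exact absurd h2.symm hb
    have hxc : x * red ⟨c, H.locRing_le_V c.2⟩ = 1 := by
      have h3 : x * red ⟨c, H.locRing_le_V c.2⟩ * redA red D.le_V a = 1 * redA red D.le_V a := by
        rw [one_mul]
        calc x * red ⟨c, H.locRing_le_V c.2⟩ * redA red D.le_V a
            = x * (redA red D.le_V a * red ⟨c, H.locRing_le_V c.2⟩) := by ring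
          _ = x * redA red D.le_V b := by rw [h2]
          _ = redA red D.le_V a := hab
      exact mul_right_cancel₀ ha0 h3
    -- `red c` is a unit of `W`
    have hcW : red ⟨c, H.locRing_le_V c.2⟩ ∈ W := D.red_locRing_mem H c.2
    have hval : W.valuation (red ⟨c, H.locRing_le_V c.2⟩) = 1 := by
      have hv := congrArg W.valuation hxc
      rw [map_mul, map_one] at hv
      have h4 : W.valuation x ≤ 1 := (W.valuation_le_one_iff _).2 hx
      have h5 : W.valuation (red ⟨c, H.locRing_le_V c.2⟩) ≤ 1 := (W.valuation_le_one_iff _).2 hcW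
      refine le_antisymm h5 ?_
      by_contra hlt
      rw [not_le] at hlt
      have : W.valuation x * W.valuation (red ⟨c, H.locRing_le_V c.2⟩) < 1 :=
        lt_of_le_of_lt (mul_le_of_le_one_left' h4) hlt
      rw [hv] at this
      exact lt_irrefl _ this
    obtain ⟨a', s', hs', hcs⟩ := c.2
    have h6 := D.red_locRing H c.2 hs' hcs
    have ha' : a' ∉ m := by
      intro hmem
      have h7 := (D.centre a').1 hmem
      rw [ValuationSubring.mem_nonunits_iff] at h7
      have h8 := congrArg W.valuation h6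
      rw [map_mul, hval, one_mul, D.isUnit_of_notMem hs'] at h8
      rw [← h8] at h7
      exact lt_irrefl _ h7
    refine ⟨s', a', ha', ?_⟩
    -- `x = red s' / red a'`
    have hc0 : red ⟨c, H.locRing_le_V c.2⟩ ≠ 0 := by
      intro h0
      rw [h0, mul_zero] at hxc
      exact zero_ne_one hxc
    have : x * redA red D.le_V a' * red ⟨c, H.locRing_le_V c.2⟩
        = redA red D.le_V s' * red ⟨c, H.locRing_le_V c.2⟩ := by
      calc x * redA red D.le_V a' * red ⟨c, H.locRing_le_V c.2⟩
          = (x * red ⟨c, H.locRing_le_V c.2⟩) * redA red D.le_V a' := by ring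
        _ = redA red D.le_V a' := by rw [hxc, one_mul]
        _ = red ⟨c, H.locRing_le_V c.2⟩ * redA red D.le_V s' := h6.symm
        _ = redA red D.le_V s' * red ⟨c, H.locRing_le_V c.2⟩ := mul_comm _ _
    exact mul_right_cancel₀ hc0 this
  · -- `b * c ≡ a`, so `x = red c`
    rw [← map_mul, hmk, Ideal.Quotient.eq] at h
    have h1 := D.red_eq_of_sub_mem_span H h
    have h2 : redA red D.le_V b * red ⟨c, H.locRing_le_V c.2⟩ = redA red D.le_V a := by
      rw [red_mul_locRing H] at h1
      exact h1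
    have hxc : x = red ⟨c, H.locRing_le_V c.2⟩ := by
      have : x * redA red D.le_V b = red ⟨c, H.locRing_le_V c.2⟩ * redA red D.le_V b := by
        rw [mul_comm (red ⟨c, H.locRing_le_V c.2⟩), h2]
        exact hab
      exact mul_right_cancel₀ hb this
    obtain ⟨a', s', hs', hcs⟩ := c.2
    exact ⟨a', s', hs', by rw [hxc]; exact D.red_locRing H c.2 hs' hcs⟩

/-- **(2)**, iff form. -/
theorem SpData.mem_iff [IsNoetherianRing A] (D : SpData π V A m red W)
    (H : LocHyp π V A m) (hIG : IGAt π A m) (x : E) :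
    x ∈ W ↔ ∃ a s : A, s ∉ m ∧ x * redA red D.le_V s = redA red D.le_V a :=
  ⟨fun hx => D.exists_frac_of_mem H hIG hx, fun ⟨_, _, hs, h⟩ => D.mem_W_of_frac hs h⟩

/-- **(d) Uniqueness**: a valuation subring is determined by its centre. -/
theorem SpData.unique [IsNoetherianRing A] {W' : ValuationSubring E}
    (D : SpData π V A m red W) (D' : SpData π V A m red W')
    (H : LocHyp π V A m) (hIG : IGAt π A m) : W = W' := by
  ext x
  rw [D.mem_iff H hIG, D'.mem_iff H hIG]

/-- **(3)** an `[IG]`-generator `τ` of `m` reduces to a generator of the maximal ideal of `W`. -/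
theorem SpData.exists_mul_of_mem_nonunits [IsNoetherianRing A] (D : SpData π V A m red W)
    (H : LocHyp π V A m) (hIG : IGAt π A m) (τ : A)
    (hτ : ∀ x ∈ m, ∃ c : A, c ∉ m ∧ ∃ a b : A, c * x = a * ⟨π, H.π_mem⟩ + b * τ)
    {x : E} (hx : x ∈ W.nonunits) : ∃ w ∈ W, x = redA red D.le_V τ * w := by
  have hxW : x ∈ W := ValuationSubring.nonunits_subset hx
  obtain ⟨a, s, hs, has⟩ := D.exists_frac_of_mem H hIG hxW
  have ham : a ∈ m := by
    rw [D.centre, ValuationSubring.mem_nonunits_iff]
    have := congrArg W.valuation has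
    rw [map_mul, D.isUnit_of_notMem hs, mul_one] at this
    rw [← this]
    exact (ValuationSubring.mem_nonunits_iff _).1 hx
  obtain ⟨c, hc, a', b', hrel⟩ := hτ a ham
  have hπ0 : redA red D.le_V ⟨π, H.π_mem⟩ = 0 := by
    rw [redA, D.ker]
    exact ⟨1, V.one_mem, by simp⟩
  have h1 : redA red D.le_V c * redA red D.le_V a = redA red D.le_V b' * redA red D.le_V τ := by
    rw [← redA_mul, hrel, redA_add, redA_mul, redA_mul, hπ0, mul_zero, zero_add]
  have hc0 := D.ne_zero_of_notMem hc
  have hs0 := D.ne_zero_of_notMem hs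
  refine ⟨redA red D.le_V b' * (redA red D.le_V c)⁻¹ * (redA red D.le_V s)⁻¹, ?_, ?_⟩
  · rw [← W.valuation_le_one_iff, map_mul, map_mul, map_inv₀, map_inv₀,
      D.isUnit_of_notMem hc, D.isUnit_of_notMem hs, inv_one, mul_one, mul_one]
    exact (W.valuation_le_one_iff _).2 (D.mem_W b')
  · have : x = redA red D.le_V a * (redA red D.le_V s)⁻¹ := by
      rw [← has]; field_simp
    rw [this]
    have h2 : redA red D.le_V a = redA red D.le_V b' * redA red D.le_V τ * (redA red D.le_V c)⁻¹ := by
      rw [← h1]; field_simp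
    rw [h2]
    ring


/-! ### The reduction of the local ring -/

/-- the reduction map on the local ring `A_m ⊆ V`. -/
def redLoc (red : V →+* E) (H : LocHyp π V A m) : locRing A m →+* E :=
  red.comp (Subring.inclusion H.locRing_le_V)

theorem redLoc_apply (H : LocHyp π V A m) (y : locRing A m) :
    redLoc red H y = red ⟨y, H.locRing_le_V y.2⟩ := rfl

theorem redLoc_incl (D : SpData π V A m red W) (H : LocHyp π V A m) (a : A) :
    redLoc red H (incl A m a) = redA red D.le_V a := rfl

theorem SpData.redLoc_mem (D : SpData π V A m red W) (H : LocHyp π V A m) (y : locRing A m) :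
    redLoc red H y ∈ W := D.red_locRing_mem H y.2

/-- the kernel of the reduction on the local ring is `(π)`. -/
theorem SpData.redLoc_eq_zero_iff (D : SpData π V A m red W) (H : LocHyp π V A m)
    (y : locRing A m) : redLoc red H y = 0 ↔ H.ϖ ∣ y := by
  rw [redLoc_apply, D.ker, H.ϖ_dvd_iff]

theorem SpData.redLoc_ϖ (D : SpData π V A m red W) (H : LocHyp π V A m) :
    redLoc red H H.ϖ = 0 := (D.redLoc_eq_zero_iff H _).2 dvd_rfl

/-- the maximal ideal of the local ring is the preimage of the maximal ideal of `W`. -/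
theorem SpData.redLoc_mem_nonunits_iff (D : SpData π V A m red W) (H : LocHyp π V A m)
    (y : locRing A m) :
    redLoc red H y ∈ W.nonunits ↔ y ∈ IsLocalRing.maximalIdeal (locRing A m) := by
  obtain ⟨a, s, hs, has⟩ := y.2
  have h1 : redLoc red H y * redA red D.le_V s = redA red D.le_V a := D.red_locRing H y.2 hs has
  have h2 : W.valuation (redLoc red H y) = W.valuation (redA red D.le_V a) := by
    have := congrArg W.valuation h1
    rwa [map_mul, D.isUnit_of_notMem hs, mul_one] at this
  rw [ValuationSubring.mem_nonunits_iff, h2, ← ValuationSubring.mem_nonunits_iff, ← D.centre,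
    mem_maximalIdeal_iff]
  constructor
  · intro ha
    exact ⟨a, s, ha, hs, has⟩
  · rintro ⟨a', s', ha', hs', has'⟩
    -- `a s' = a' s`
    have hy0 : (s : L) ≠ 0 := coe_ne_zero_of_notMem A m hs
    have h3 : a * s' = a' * s := by
      apply Subtype.ext
      push_cast
      rw [← has, ← has']
      ring
    have h4 : a * s' ∈ m := by
      rw [h3]
      exact Ideal.mul_mem_right _ _ ha'
    rcases hmp.mem_or_mem h4 with h | h
    · exact h
    · exact absurd h hs'

/-- units of the local ring reduce to units of `W`. -/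
theorem SpData.valuation_redLoc_unit (D : SpData π V A m red W) (H : LocHyp π V A m)
    (u : (locRing A m)ˣ) : W.valuation (redLoc red H (u : locRing A m)) = 1 := by
  have h1 : redLoc red H (u : locRing A m) ∈ W := D.redLoc_mem H _
  have h2 : redLoc red H (u : locRing A m) ∉ W.nonunits := by
    rw [D.redLoc_mem_nonunits_iff H]
    intro h
    exact (IsLocalRing.mem_maximalIdeal _).1 h u.isUnit
  rw [ValuationSubring.mem_nonunits_iff, not_lt] at h2
  exact le_antisymm ((W.valuation_le_one_iff _).2 h1) h2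

/-- **(2)** `W` is exactly the image of the local ring. -/
theorem SpData.exists_redLoc_eq [IsNoetherianRing A] (D : SpData π V A m red W)
    (H : LocHyp π V A m) (hIG : IGAt π A m) {x : E} (hx : x ∈ W) :
    ∃ y : locRing A m, redLoc red H y = x := by
  obtain ⟨a, s, hs, has⟩ := D.exists_frac_of_mem H hIG hx
  have hs0 : (s : L) ≠ 0 := coe_ne_zero_of_notMem A m hs
  refine ⟨⟨(a : L) / (s : L), div_mem_locRing A m a hs⟩, ?_⟩
  have h1 := D.red_locRing H (div_mem_locRing A m a hs) hs
    (show (a : L) / (s : L) * (s : L) = a by field_simp)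
  have hs' := D.ne_zero_of_notMem hs
  rw [redLoc_apply]
  exact mul_right_cancel₀ hs' (h1.trans has.symm)

theorem SpData.mem_iff_exists_redLoc [IsNoetherianRing A] (D : SpData π V A m red W)
    (H : LocHyp π V A m) (hIG : IGAt π A m) (x : E) :
    x ∈ W ↔ ∃ y : locRing A m, redLoc red H y = x :=
  ⟨fun hx => D.exists_redLoc_eq H hIG hx, fun ⟨y, hy⟩ => hy ▸ D.redLoc_mem H y⟩

/-- **(3)** if `(ϖ, τ)` is the maximal ideal of the local ring, then `red τ` generates the
maximal ideal of `W`. -/
theorem SpData.exists_redLoc_mul [IsNoetherianRing A] (D : SpData π V A m red W)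
    (H : LocHyp π V A m) (hIG : IGAt π A m) (τ : locRing A m)
    (hτ : IsLocalRing.maximalIdeal (locRing A m) = Ideal.span {H.ϖ, τ})
    {x : E} (hx : x ∈ W.nonunits) : ∃ w ∈ W, x = redLoc red H τ * w := by
  obtain ⟨y, rfl⟩ := D.exists_redLoc_eq H hIG (ValuationSubring.nonunits_subset hx)
  rw [D.redLoc_mem_nonunits_iff H, hτ, Ideal.mem_span_pair] at hx
  obtain ⟨a, b, hab⟩ := hx
  refine ⟨redLoc red H b, D.redLoc_mem H b, ?_⟩
  rw [← hab, map_add, map_mul, map_mul, D.redLoc_ϖ H, mul_zero, zero_add, mul_comm]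

/-- an `[IG]`-generator `τ ∈ m` gives `maximalIdeal (A_m) = (ϖ, τ)`. -/
theorem maximalIdeal_locRing_eq (H : LocHyp π V A m) (τ : A) (hτm : τ ∈ m)
    (hτ : ∀ x ∈ m, ∃ c : A, c ∉ m ∧ ∃ a b : A, c * x = a * ⟨π, H.π_mem⟩ + b * τ) :
    IsLocalRing.maximalIdeal (locRing A m) = Ideal.span {H.ϖ, incl A m τ} := by
  apply le_antisymm
  · intro y hy
    rw [mem_maximalIdeal_iff] at hy
    obtain ⟨a, s, ha, hs, has⟩ := hy
    obtain ⟨c, hc, a', b', hrel⟩ := hτ a ha
    rw [Ideal.mem_span_pair]
    have hcs : c * s ∉ m := fun h => (hmp.mem_or_mem h).elim hc hs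
    have hcs0 : ((c * s : A) : L) ≠ 0 := coe_ne_zero_of_notMem A m hcs
    refine ⟨⟨(a' : L) / ((c * s : A) : L), div_mem_locRing A m a' hcs⟩,
      ⟨(b' : L) / ((c * s : A) : L), div_mem_locRing A m b' hcs⟩, ?_⟩
    apply Subtype.ext
    have h1 : (c : L) * (a : L) = (a' : L) * π + (b' : L) * (τ : L) := by
      have := congrArg (fun t : A => (t : L)) hrel
      simpa using this
    have hc0 : (c : L) ≠ 0 := coe_ne_zero_of_notMem A m hc
    have hs0 : (s : L) ≠ 0 := coe_ne_zero_of_notMem A m hs
    show (a' : L) / ((c * s : A) : L) * π + (b' : L) / ((c * s : A) : L) * (τ : L) = (y : L)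
    push_cast
    field_simp
    rw [← h1, ← has]
    ring
  · rw [Ideal.span_le]
    rintro y (rfl | rfl)
    · exact H.ϖ_mem_maximalIdeal
    · exact incl_mem_maximalIdeal A m hτm

/-- `[IG]` at `m` gives a second generator `τ` of the maximal ideal of the local ring. -/
theorem exists_maximalIdeal_eq (H : LocHyp π V A m) (hIG : IGAt π A m) :
    ∃ τ : A, τ ∈ m ∧ IsLocalRing.maximalIdeal (locRing A m) = Ideal.span {H.ϖ, incl A m τ} := by
  obtain ⟨τ, hτm, hτ⟩ := hIG H.π_mem
  exact ⟨τ, hτm, maximalIdeal_locRing_eq H τ hτm hτ⟩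

end Abstract

/-! ### The centre of a valuation subring on a chart -/

section Centre

variable {L : Type*} [Field L] {E : Type*} [Field E]
  {π : L} {V A : Subring L} (red : V →+* E) (W : ValuationSubring E)

/-- the restriction of `red` to `A`, with values in `W`. -/
def redAW (hle : A ≤ V) (hW : ∀ a : A, red ⟨a, hle a.2⟩ ∈ W) : A →+* W :=
  RingHom.codRestrict (red.comp (Subring.inclusion hle)) W hW

/-- the centre of `W` on `A`. -/
def centre (hle : A ≤ V) (hW : ∀ a : A, red ⟨a, hle a.2⟩ ∈ W) : Ideal A :=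
  Ideal.comap (redAW red W hle hW) (IsLocalRing.maximalIdeal W)

instance centre_isPrime (hle : A ≤ V) (hW : ∀ a : A, red ⟨a, hle a.2⟩ ∈ W) :
    (centre red W hle hW).IsPrime :=
  Ideal.comap_isPrime _ _

variable {red W}

theorem mem_centre_iff (hle : A ≤ V) (hW : ∀ a : A, red ⟨a, hle a.2⟩ ∈ W) (a : A) :
    a ∈ centre red W hle hW ↔ red ⟨a, hle a.2⟩ ∈ W.nonunits := by
  rw [centre, Ideal.mem_comap, ValuationSubring.mem_nonunits_iff_exists_mem_maximalIdeal]
  constructor
  · intro h
    exact ⟨hW a, h⟩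
  · rintro ⟨_, h⟩
    exact h

/-- the special-fibre data at the centre. -/
theorem spData_centre (hle : A ≤ V) (hW : ∀ a : A, red ⟨a, hle a.2⟩ ∈ W)
    (hker : ∀ v : V, red v = 0 ↔ ∃ w ∈ V, (v : L) = π * w)
    (hfrac : ∀ x : E, ∃ a b : A, red ⟨b, hle b.2⟩ ≠ 0 ∧ x * red ⟨b, hle b.2⟩ = red ⟨a, hle a.2⟩) :
    SpData π V A (centre red W hle hW) red W where
  le_V := hle
  ker := hker
  mem_W := hW
  centre := mem_centre_iff hle hW
  frac := hfrac

/-- the centre is maximal as soon as every element is congruent to `0` or to a unit. -/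
theorem centre_isMaximal (hle : A ≤ V) (hW : ∀ a : A, red ⟨a, hle a.2⟩ ∈ W)
    (hconst : ∀ a : A, ∃ c : A, a - c ∈ centre red W hle hW ∧ (c = 0 ∨ IsUnit c)) :
    (centre red W hle hW).IsMaximal := by
  rw [Ideal.isMaximal_iff]
  refine ⟨fun h => (centre_isPrime red W hle hW).ne_top ((Ideal.eq_top_iff_one _).2 h), ?_⟩
  intro J x hJ hx hxJ
  obtain ⟨c, hc, hc'⟩ := hconst x
  rcases hc' with rfl | hu
  · rw [sub_zero] at hc
    exact absurd hc hx
  · have hcJ : c ∈ J := by
      have : c = x - (x - c) := by ring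
      rw [this]
      exact J.sub_mem hxJ (hJ hc)
    exact (Ideal.eq_top_iff_one _).1 (Ideal.eq_top_of_isUnit_mem _ hcJ hu)

/-- a maximal ideal mapped into the nonunits of `W` is the centre. -/
theorem eq_centre_of_isMaximal (hle : A ≤ V) (hW : ∀ a : A, red ⟨a, hle a.2⟩ ∈ W)
    (M : Ideal A) (hM : M.IsMaximal) (hMW : ∀ a ∈ M, red ⟨a, hle a.2⟩ ∈ W.nonunits) :
    M = centre red W hle hW :=
  hM.eq_of_le (centre_isPrime red W hle hW).ne_top
    (fun a ha => (mem_centre_iff hle hW a).2 (hMW a ha))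

/-- integrality transport: if `red` maps the subring `B ⊆ V` into `W`, it maps every element of
`V` integral over `B` into `W`. -/
theorem mem_W_of_isIntegral {B : Subring L} (hBV : B ≤ V)
    (hB : ∀ b : B, red ⟨b, hBV b.2⟩ ∈ W) {a : L} (haV : a ∈ V) (ha : IsIntegral B a) :
    red ⟨a, haV⟩ ∈ W := by
  obtain ⟨p, hp, hpa⟩ := ha
  let φ : B →+* W := RingHom.codRestrict (red.comp (Subring.inclusion hBV)) W hB
  have hint : IsIntegral W (red ⟨a, haV⟩) := by
    refine ⟨p.map φ, hp.map φ, ?_⟩
    rw [Polynomial.eval₂_map]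
    have h1 : (algebraMap W E).comp φ = red.comp (Subring.inclusion hBV) := rfl
    rw [h1, ← Polynomial.hom_eval₂]
    have h2 : Polynomial.eval₂ (Subring.inclusion hBV) (⟨a, haV⟩ : V) p = 0 := by
      apply Subtype.ext
      have h3 := Polynomial.hom_eval₂ p (Subring.inclusion hBV) V.subtype (⟨a, haV⟩ : V)
      rw [show ((Polynomial.eval₂ (Subring.inclusion hBV) (⟨a, haV⟩ : V) p : V) : L)
        = V.subtype (Polynomial.eval₂ (Subring.inclusion hBV) (⟨a, haV⟩ : V) p) from rfl, h3]
      exact hpa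
    rw [h2, map_zero]
  obtain ⟨y, hy⟩ := IsIntegrallyClosed.isIntegral_iff.1 hint
  rw [← hy]
  exact y.2

/-- `red` maps `O[x]` into `W` as soon as it maps `O` and `x` into `W`. -/
theorem red_adj_mem {O : Subring L} {x : L} (hOV : O ≤ V) (hxV : x ∈ V)
    (hO : ∀ c : O, red ⟨c, hOV c.2⟩ ∈ W) (hx : red ⟨x, hxV⟩ ∈ W) :
    ∃ hle : adj O x ≤ V, ∀ b : adj O x, red ⟨b, hle b.2⟩ ∈ W := by
  have hT : adj O x ≤ (W.toSubring.comap red).map V.subtype := by
    rw [adj, Subring.closure_le]
    rintro y (hy | hy)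
    · exact ⟨⟨y, hOV hy⟩, hO ⟨y, hy⟩, rfl⟩
    · rw [Set.mem_singleton_iff] at hy
      subst hy
      exact ⟨⟨y, hxV⟩, hx, rfl⟩
  have hle : adj O x ≤ V := fun y hy => by
    obtain ⟨v, _, rfl⟩ := hT hy
    exact v.2
  refine ⟨hle, fun b => ?_⟩
  obtain ⟨v, hv, hvb⟩ := hT b.2
  have : v = ⟨b, hle b.2⟩ := Subtype.ext hvb
  rw [← this]
  exact hv

end Centre

/-! ### Places -/

section PlaceAbstract

open AlgebraicCurve

variable {L : Type*} [Field L] {k E : Type*} [Field k] [Field E] [Algebra k E]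
  {π : L} {V A : Subring L} {m : Ideal A} [hmp : m.IsPrime] {red : V →+* E}

/-- in a discrete valuation subring, an element generating the maximal ideal is irreducible. -/
theorem irreducible_of_generates (Q : Place k E) (t : E)
    (ht : t ∈ Q.toValuationSubring.nonunits)
    (hgen : ∀ x ∈ Q.toValuationSubring.nonunits, ∃ w ∈ Q.toValuationSubring, x = t * w) :
    Irreducible (⟨t, ValuationSubring.nonunits_subset ht⟩ : Q.toValuationSubring) := by
  rw [IsDiscreteValuationRing.irreducible_iff_uniformizer]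
  apply le_antisymm
  · intro x hx
    have hx' : (x : E) ∈ Q.toValuationSubring.nonunits :=
      ValuationSubring.mem_nonunits_iff_exists_mem_maximalIdeal.2 ⟨x.2, hx⟩
    obtain ⟨w, hw, hxw⟩ := hgen _ hx'
    rw [Ideal.mem_span_singleton]
    exact ⟨⟨w, hw⟩, Subtype.ext hxw⟩
  · rw [Ideal.span_le]
    rintro x rfl
    obtain ⟨_, h⟩ := ValuationSubring.mem_nonunits_iff_exists_mem_maximalIdeal.1 ht
    exact h

theorem ord_nonneg_of_mem (Q : Place k E) {x : E} (hx : x ∈ Q.toValuationSubring) :
    0 ≤ Q.ord x := by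
  by_cases hx0 : x = 0
  · rw [hx0, Place.ord_zero]
  obtain ⟨ϖ, hϖ⟩ := IsDiscreteValuationRing.exists_irreducible Q.toValuationSubring
  have hx0' : (⟨x, hx⟩ : Q.toValuationSubring) ≠ 0 := fun h => hx0 (congrArg Subtype.val h)
  obtain ⟨n, u, hu⟩ := IsDiscreteValuationRing.eq_unit_mul_pow_irreducible hx0' hϖ
  have hxe : x = ((u : Q.toValuationSubring) : E) * ((ϖ : E) ^ (n : ℤ)) := by
    have := congrArg Subtype.val hu
    simpa using this
  rw [hxe, Q.ord_unit_smul_zpow u hϖ]
  exact Int.natCast_nonneg n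

/-- **(3)** `ord_Q (red τ) = 1` for a local generator `τ` of the maximal ideal modulo `π`. -/
theorem SpData.ord_redLoc_eq_one [IsNoetherianRing A] (Q : Place k E)
    (D : SpData π V A m red Q.toValuationSubring)
    (H : LocHyp π V A m) (hIG : IGAt π A m) (τ : locRing A m)
    (hτ : IsLocalRing.maximalIdeal (locRing A m) = Ideal.span {H.ϖ, τ}) :
    Q.ord (redLoc red H τ) = 1 := by
  have hτm : τ ∈ IsLocalRing.maximalIdeal (locRing A m) := by
    rw [hτ]; exact Ideal.subset_span (by simp)
  have ht : redLoc red H τ ∈ Q.toValuationSubring.nonunits :=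
    (D.redLoc_mem_nonunits_iff H τ).2 hτm
  have hirr := irreducible_of_generates Q (redLoc red H τ) ht
    (fun x hx => D.exists_redLoc_mul H hIG τ hτ hx)
  exact Q.ord_coe_irreducible hirr

/-- **(3')** the same for `τ - c` with `π ∣ c`. -/
theorem SpData.ord_redLoc_sub_eq_one [IsNoetherianRing A] (Q : Place k E)
    (D : SpData π V A m red Q.toValuationSubring)
    (H : LocHyp π V A m) (hIG : IGAt π A m) (τ : locRing A m)
    (hτ : IsLocalRing.maximalIdeal (locRing A m) = Ideal.span {H.ϖ, τ})
    (c : locRing A m) (hc : H.ϖ ∣ c) :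
    Q.ord (redLoc red H (τ - c)) = 1 := by
  rw [map_sub, (D.redLoc_eq_zero_iff H c).2 hc, sub_zero]
  exact D.ord_redLoc_eq_one Q H hIG τ hτ

/-- `0 ≤ ord_Q` on the image of the local ring. -/
theorem SpData.ord_redLoc_nonneg (Q : Place k E)
    (D : SpData π V A m red Q.toValuationSubring) (H : LocHyp π V A m) (y : locRing A m) :
    0 ≤ Q.ord (redLoc red H y) := ord_nonneg_of_mem Q (D.redLoc_mem H y)

/-- units have order `0`. -/
theorem SpData.ord_redLoc_unit (Q : Place k E)
    (D : SpData π V A m red Q.toValuationSubring) (H : LocHyp π V A m) (u : (locRing A m)ˣ) :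
    Q.ord (redLoc red H (u : locRing A m)) = 0 := by
  have h1 := ord_nonneg_of_mem Q (D.redLoc_mem H (u : locRing A m))
  have h2 := ord_nonneg_of_mem Q (D.redLoc_mem H ((u⁻¹ : (locRing A m)ˣ) : locRing A m))
  have h3 : redLoc red H (u : locRing A m) * redLoc red H ((u⁻¹ : (locRing A m)ˣ) : locRing A m)
      = 1 := by rw [← map_mul, Units.mul_inv, map_one]
  have hu0 : redLoc red H (u : locRing A m) ≠ 0 := left_ne_zero_of_mul_eq_one h3
  have hu0' : redLoc red H ((u⁻¹ : (locRing A m)ˣ) : locRing A m) ≠ 0 :=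
    right_ne_zero_of_mul_eq_one h3
  have h4 := Q.ord_mul hu0 hu0'
  rw [h3, Place.ord_one] at h4
  omega

/-- **(4) Uniqueness**: two places with the same centre are equal. -/
theorem SpData.place_unique [IsNoetherianRing A] (Q Q' : Place k E)
    (D : SpData π V A m red Q.toValuationSubring) (D' : SpData π V A m red Q'.toValuationSubring)
    (H : LocHyp π V A m) (hIG : IGAt π A m) : Q = Q' :=
  Place.ext (D.unique D' H hIG)

end PlaceAbstract

end Fermat.Agent.S37_helper2_SPFIB
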