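import Mathlib
import Fermat.Agent.S37_helper2_SPFIBA
import Fermat.Agent.S18_helper25_COREDefs
import Fermat.Agent.S18_helper13_REDPOW
import Fermat.Agent.S18_helper27_CNOETH
import Fermat.Agent.S24_helper15_A1
import Fermat.Agent.S18_helper26_CONST
import Fermat.Agent.S18_helper27_RESALGCL

set_option autoImplicit false
set_option linter.unusedSectionVars false
set_option linter.style.haveILetI false

open HahnSeries ModularCurve AlgebraicCurve
open Fermat.Agent.S18_helper9_CDefs Fermat.Agent.S18_helper3_LOCRING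
open Fermat.Agent.S18_helper25_COREDefs Fermat.Agent.S18_helper13_GAUSS
open Fermat.Agent.S18_helper13_REDPOW

noncomputable section

namespace Fermat.Agent.S37_helper2_SPFIB

/-! ### Generic Gauss data -/

section Generic

variable {O K κ : Type*} [CommRing O] [IsDomain O] [Field K] [Field κ] (D : GaussData O K κ)
  (N : ℕ) [NeZero N]

/-- the reduction map `V → F_κ` (needs KAPPA to land in `F_κ`). -/
def gred (hκ : ∀ y ∈ S18RP_V D N, D.redFun y ∈ modularFunctionFieldFullC κ N) :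
    ↥(S18RP_V D N) →+* ↥(modularFunctionFieldFullC κ N) :=
  RingHom.codRestrict ((D.red).comp (Subring.inclusion inf_le_left))
    (modularFunctionFieldFullC κ N) (fun v => hκ v v.2)

variable {D N}
variable (hκ : ∀ y ∈ S18RP_V D N, D.redFun y ∈ modularFunctionFieldFullC κ N)

@[simp] theorem gred_coe (v : S18RP_V D N) :
    ((gred D N hκ v : modularFunctionFieldFullC κ N) : LaurentSeries κ)
      = D.redFun (v : LaurentSeries K) := rfl

/-- the kernel of the reduction is `π V`. -/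
theorem gred_ker (v : S18RP_V D N) :
    gred D N hκ v = 0 ↔ ∃ w ∈ S18RP_V D N, (v : LaurentSeries K) = D.πK * w := by
  constructor
  · intro h
    have h1 : D.redFun (v : LaurentSeries K) = 0 := by
      rw [← gred_coe hκ v, h]; rfl
    obtain ⟨w, hw, hvw⟩ := D.exists_eq_mul_of_redFun_eq_zero v.2.1 h1
    refine ⟨w, ⟨hw, ?_⟩, hvw⟩
    have : w = (D.πK)⁻¹ * (v : LaurentSeries K) := by
      rw [hvw, ← mul_assoc, inv_mul_cancel₀ D.πK_ne_zero, one_mul]
    rw [this]
    exact (modularFunctionFieldFullC K N).mul_mem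
      ((modularFunctionFieldFullC K N).inv_mem (S18RP_πK_mem_full D N)) v.2.2
  · rintro ⟨w, hw, hvw⟩
    apply Subtype.ext
    rw [gred_coe, hvw]
    exact D.redFun_πK_mul hw.1

/-- every element of `F_κ` is a quotient of reductions of elements of the chart. -/
theorem gred_frac (hres : Function.Surjective D.res)
    {Os : Subring (LaurentSeries K)} {x : LaurentSeries K} {X : Subring (LaurentSeries K)}
    (hC : Chart Os D.πK x (modularFunctionFieldFullC K N).toSubfield (S18RP_V D N) X)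
    (g : modularFunctionFieldFullC κ N) :
    ∃ a b : X, gred D N hκ ⟨b, hC.le_V b.2⟩ ≠ 0 ∧
      g * gred D N hκ ⟨b, hC.le_V b.2⟩ = gred D N hκ ⟨a, hC.le_V a.2⟩ := by
  obtain ⟨G, hG1, hG2, hG3⟩ := S18RP_exists_lift D hres N g g.2
  have hGV : G ∈ S18RP_V D N := ⟨hG1, hG2⟩
  obtain ⟨b, hbX, hb0, hbinv, hGb⟩ := hC.loc G hGV
  have hb1 : gred D N hκ ⟨b, hC.le_V hbX⟩ * gred D N hκ ⟨b⁻¹, hbinv⟩ = 1 := by
    rw [← map_mul]
    have : (⟨b, hC.le_V hbX⟩ : S18RP_V D N) * ⟨b⁻¹, hbinv⟩ = 1 :=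
      Subtype.ext (mul_inv_cancel₀ hb0)
    rw [this, map_one]
  refine ⟨⟨G * b, hGb⟩, ⟨b, hbX⟩, left_ne_zero_of_mul_eq_one hb1, ?_⟩
  have hg : g = gred D N hκ ⟨G, hGV⟩ := Subtype.ext (by rw [gred_coe]; exact hG3.symm)
  rw [hg, ← map_mul]
  rfl

theorem incS_C (a : O) : D.incS (HahnSeries.C a) = HahnSeries.C (D.inc a) := by
  rw [GaussData.incS, HahnSeries.C_apply, coeffMap_single, HahnSeries.C_apply]

theorem redS_C (a : O) : D.redS (HahnSeries.C a) = HahnSeries.C (D.res a) := by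
  rw [GaussData.redS, HahnSeries.C_apply, coeffMap_single, HahnSeries.C_apply]

/-- constants of `O` reduce to constants of `κ`. -/
theorem gred_const (a : O) (ha : D.incS (HahnSeries.C a) ∈ S18RP_V D N) :
    gred D N hκ ⟨D.incS (HahnSeries.C a), ha⟩
      = algebraMap κ (modularFunctionFieldFullC κ N) (D.res a) := by
  apply Subtype.ext
  rw [gred_coe]
  show D.redFun (D.incS (HahnSeries.C a)) = algebraMap κ (LaurentSeries κ) (D.res a)
  rw [GaussData.redFun_incS, redS_C, algebraMap_laurentSeries_eq_single, HahnSeries.C_apply]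


section Chart

variable {Os : Subring (LaurentSeries K)} {x : LaurentSeries K} {X : Subring (LaurentSeries K)}
  (hC : Chart Os D.πK x (modularFunctionFieldFullC K N).toSubfield (S18RP_V D N) X)
  (hOs : ∀ c ∈ Os, ∃ a : O, D.incS (HahnSeries.C a) = c)
  (hxF : x ∈ modularFunctionFieldFullC K N)
  (Q : Place κ (modularFunctionFieldFullC κ N))

theorem Os_le_F (hOs : ∀ c ∈ Os, ∃ a : O, D.incS (HahnSeries.C a) = c) :
    ∀ c ∈ Os, c ∈ modularFunctionFieldFullC K N := by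
  intro c hc
  obtain ⟨a, rfl⟩ := hOs c hc
  rw [incS_C]
  exact S18RP_C_mem_full N _

include hC hOs hxF in
theorem adj_le_chart : adj Os x ≤ X := by
  intro y hy
  refine (hC.mem_iff y).2 ⟨isIntegral_algebraMap (R := adj Os x) (A := LaurentSeries K)
    (x := ⟨y, hy⟩), ?_⟩
  have hle : adj Os x ≤ (modularFunctionFieldFullC K N).toSubfield.toSubring := by
    rw [adj, Subring.closure_le]
    rintro z (hz | hz)
    · exact Os_le_F hOs z hz
    · rw [Set.mem_singleton_iff] at hz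
      subst hz
      exact hxF
  exact hle hy

include hC hOs hxF in
theorem Os_le_chart : Os ≤ X := fun _ hy =>
  adj_le_chart hC hOs hxF (Subring.subset_closure (Or.inl hy))

include hC hOs hxF in
theorem x_mem_chart : x ∈ X :=
  adj_le_chart hC hOs hxF (Subring.subset_closure (Or.inr rfl))

include hOs in
/-- `red` maps the constants into any place. -/
theorem gred_Os_mem (hOV : Os ≤ S18RP_V D N) (c : Os) :
    gred D N hκ ⟨c, hOV c.2⟩ ∈ Q.toValuationSubring := by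
  obtain ⟨c, hc⟩ := c
  obtain ⟨a, rfl⟩ := hOs c hc
  rw [gred_const hκ a (hOV hc)]
  exact Q.algebraMap_mem' _

/-- **(1a)** if `red x ∈ O_Q` then `red` maps the whole chart into `O_Q`. -/
theorem gred_chart_mem
    (hxQ : gred D N hκ ⟨x, hC.le_V (x_mem_chart hC hOs hxF)⟩ ∈ Q.toValuationSubring)
    (a : X) : gred D N hκ ⟨a, hC.le_V a.2⟩ ∈ Q.toValuationSubring := by
  have hOV : Os ≤ S18RP_V D N := (Os_le_chart hC hOs hxF).trans hC.le_V
  obtain ⟨hle, hB⟩ := red_adj_mem (red := gred D N hκ) (W := Q.toValuationSubring) hOV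
    (hC.le_V (x_mem_chart hC hOs hxF)) (gred_Os_mem hκ hOs Q hOV) hxQ
  exact mem_W_of_isIntegral hle hB (hC.le_V a.2) ((hC.mem_iff a).1 a.2).1

/-- the centre of the place `Q` on the chart `X`. -/
def gcentre
    (hxQ : gred D N hκ ⟨x, hC.le_V (x_mem_chart hC hOs hxF)⟩ ∈ Q.toValuationSubring) :
    Ideal X :=
  centre (gred D N hκ) Q.toValuationSubring hC.le_V (gred_chart_mem hκ hC hOs hxF Q hxQ)

instance gcentre_isPrime
    (hxQ : gred D N hκ ⟨x, hC.le_V (x_mem_chart hC hOs hxF)⟩ ∈ Q.toValuationSubring) :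
    (gcentre hκ hC hOs hxF Q hxQ).IsPrime :=
  centre_isPrime _ _ _ _

theorem mem_gcentre_iff
    (hxQ : gred D N hκ ⟨x, hC.le_V (x_mem_chart hC hOs hxF)⟩ ∈ Q.toValuationSubring) (a : X) :
    a ∈ gcentre hκ hC hOs hxF Q hxQ ↔
      gred D N hκ ⟨a, hC.le_V a.2⟩ ∈ Q.toValuationSubring.nonunits :=
  mem_centre_iff _ _ a

/-- the special-fibre data at the centre of `Q`. -/
theorem gspData (hres : Function.Surjective D.res)
    (hxQ : gred D N hκ ⟨x, hC.le_V (x_mem_chart hC hOs hxF)⟩ ∈ Q.toValuationSubring) :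
    SpData D.πK (S18RP_V D N) X (gcentre hκ hC hOs hxF Q hxQ) (gred D N hκ)
      Q.toValuationSubring :=
  spData_centre hC.le_V (gred_chart_mem hκ hC hOs hxF Q hxQ) (gred_ker hκ)
    (gred_frac hκ hres hC)

/-- `π` lies in the centre. -/
theorem π_mem_gcentre
    (hxQ : gred D N hκ ⟨x, hC.le_V (x_mem_chart hC hOs hxF)⟩ ∈ Q.toValuationSubring)
    (hπ : D.πK ∈ X) : (⟨D.πK, hπ⟩ : X) ∈ gcentre hκ hC hOs hxF Q hxQ := by
  rw [mem_gcentre_iff]
  have : gred D N hκ ⟨D.πK, hC.le_V hπ⟩ = 0 := by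
    rw [gred_ker]
    exact ⟨1, (S18RP_V D N).one_mem, (mul_one _).symm⟩
  rw [this]
  rw [ValuationSubring.mem_nonunits_iff, map_zero]
  exact zero_lt_one

/-- **(1b)** the centre is a maximal ideal. -/
theorem gcentre_isMaximal [IsAlgClosed κ] (hres : Function.Surjective D.res)
    (hOs' : ∀ a : O, D.incS (HahnSeries.C a) ∈ Os)
    (hOu : ∀ a : O, D.res a ≠ 0 → (D.incS (HahnSeries.C a))⁻¹ ∈ Os)
    (hxQ : gred D N hκ ⟨x, hC.le_V (x_mem_chart hC hOs hxF)⟩ ∈ Q.toValuationSubring) :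
    (gcentre hκ hC hOs hxF Q hxQ).IsMaximal := by
  haveI := Fermat.Agent.S18_helper26_CONST.S18P15_finiteDimensional κ N
  have halg : Algebra.IsAlgebraic (IntermediateField.adjoin κ {Fermat.Agent.S18_helper26_CONST.S18P15_jbar κ N})
      (modularFunctionFieldFullC κ N) := Algebra.IsAlgebraic.of_finite _ _
  have hOX : Os ≤ X := Os_le_chart hC hOs hxF
  apply centre_isMaximal
  intro a
  have haQ := gred_chart_mem hκ hC hOs hxF Q hxQ a
  obtain ⟨c, hc⟩ := Fermat.Agent.S24_helper15_A1.exists_const_sub_mem (Fermat.Agent.S18_helper26_CONST.S18P15_jbar κ N) halg Q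
    (gred D N hκ ⟨a, hC.le_V a.2⟩) haQ
  -- `red a - c` is a nonunit of `O_Q`
  have hnon : gred D N hκ ⟨a, hC.le_V a.2⟩ - algebraMap κ (modularFunctionFieldFullC κ N) c
      ∈ Q.toValuationSubring.nonunits := by
    rcases hc with hc | hc
    · have hmem : gred D N hκ ⟨a, hC.le_V a.2⟩ - algebraMap κ (modularFunctionFieldFullC κ N) c
          ∈ Q.toValuationSubring := sub_mem haQ (Q.algebraMap_mem' c)
      exact ValuationSubring.mem_nonunits_iff_exists_mem_maximalIdeal.2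
        ⟨hmem, Fermat.Agent.S24_helper15_A1.mem_maximalIdeal_of_ord_pos Q hmem hc⟩
    · rw [hc, sub_self, ValuationSubring.mem_nonunits_iff, map_zero]
      exact zero_lt_one
  by_cases hc0 : c = 0
  · refine ⟨0, ?_, Or.inl rfl⟩
    rw [sub_zero]
    rw [hc0, map_zero, sub_zero] at hnon
    exact (mem_centre_iff _ _ a).2 hnon
  · obtain ⟨a1, ha1⟩ := hres c
    have hu : D.incS (HahnSeries.C a1) ∈ X := hOX (hOs' a1)
    have hu' : (D.incS (HahnSeries.C a1))⁻¹ ∈ X := hOX (hOu a1 (by rw [ha1]; exact hc0))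
    have hu0 : D.incS (HahnSeries.C a1) ≠ 0 := by
      intro h0
      rw [GaussData.incS_eq_zero_iff] at h0
      have : D.res a1 = 0 := by
        have h1 := congrArg D.redS h0
        rw [redS_C, map_zero] at h1
        exact HahnSeries.C_injective (by rw [h1, map_zero])
      exact hc0 (by rw [← ha1, this])
    refine ⟨⟨_, hu⟩, ?_, Or.inr ?_⟩
    · rw [mem_centre_iff]
      have h1 : (⟨((a - ⟨_, hu⟩ : X) : LaurentSeries K), hC.le_V (a - ⟨_, hu⟩ : X).2⟩ :
          S18RP_V D N) = ⟨a, hC.le_V a.2⟩ - ⟨D.incS (HahnSeries.C a1), hC.le_V hu⟩ := rfl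
      rw [h1, map_sub, gred_const hκ a1 (hC.le_V hu), ha1]
      exact hnon
    · exact IsUnit.of_mul_eq_one (⟨_, hu'⟩ : X) (Subtype.ext (mul_inv_cancel₀ hu0))

end Chart


section GMain

variable {Os : Subring (LaurentSeries K)} {j : LaurentSeries K}
  {A0 Ainf : Subring (LaurentSeries K)}
  {x : LaurentSeries K} {X : Subring (LaurentSeries K)}

omit [NeZero N] in
theorem gx_mem_F
    (S : Setup Os D.πK j (modularFunctionFieldFullC K N).toSubfield (S18RP_V D N) A0 Ainf)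
    (hx : x = j ∨ x = j⁻¹) : x ∈ modularFunctionFieldFullC K N := by
  rcases hx with rfl | rfl
  · exact S.j_mem
  · exact (modularFunctionFieldFullC K N).inv_mem S.j_mem

/-- the charts are noetherian (helper27). -/
theorem gisNoetherianRing [CharZero K]
    (S : Setup Os D.πK j (modularFunctionFieldFullC K N).toSubfield (S18RP_V D N) A0 Ainf)
    (hC : Chart Os D.πK x (modularFunctionFieldFullC K N).toSubfield (S18RP_V D N) X)
    (hx : x = j ∨ x = j⁻¹) : IsNoetherianRing X := by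
  haveI : CharZero (LaurentSeries K) :=
    charZero_of_injective_ringHom (HahnSeries.C : K →+* LaurentSeries K).injective
  exact Fermat.Agent.S18_helper27_CNOETH.S18CNOETH_chart_noetherian S x hx X hC

/-- **existence of the centre** (generic Gauss data). -/
theorem gexists_centre [IsAlgClosed κ]
    (S : Setup Os D.πK j (modularFunctionFieldFullC K N).toSubfield (S18RP_V D N) A0 Ainf)
    (hres : Function.Surjective D.res)
    (hOs : ∀ c ∈ Os, ∃ a : O, D.incS (HahnSeries.C a) = c)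
    (hOs' : ∀ a : O, D.incS (HahnSeries.C a) ∈ Os)
    (hOu : ∀ a : O, D.res a ≠ 0 → (D.incS (HahnSeries.C a))⁻¹ ∈ Os)
    (hC : Chart Os D.πK x (modularFunctionFieldFullC K N).toSubfield (S18RP_V D N) X)
    (hx : x = j ∨ x = j⁻¹)
    (Q : Place κ (modularFunctionFieldFullC κ N)) (hxV : x ∈ S18RP_V D N)
    (hxQ : gred D N hκ ⟨x, hxV⟩ ∈ Q.toValuationSubring) :
    ∃ M : Ideal X, M.IsMaximal ∧ (∀ hπ : D.πK ∈ X, (⟨D.πK, hπ⟩ : X) ∈ M) ∧
      SpData D.πK (S18RP_V D N) X M (gred D N hκ) Q.toValuationSubring := by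
  have hxF := gx_mem_F S hx
  exact ⟨gcentre hκ hC hOs hxF Q hxQ,
    gcentre_isMaximal hκ hC hOs hxF Q hres hOs' hOu hxQ,
    fun hπ => π_mem_gcentre hκ hC hOs hxF Q hxQ hπ,
    gspData hκ hC hOs hxF Q hres hxQ⟩

/-- a maximal ideal of the chart mapped into `m_Q` (with `red X ⊆ O_Q`) carries the special-fibre
data of `Q`. -/
theorem gspData_of_isMaximal (hres : Function.Surjective D.res)
    (hC : Chart Os D.πK x (modularFunctionFieldFullC K N).toSubfield (S18RP_V D N) X)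
    (Q : Place κ (modularFunctionFieldFullC κ N))
    (M : Ideal X) (hM : M.IsMaximal)
    (hXQ : ∀ a : X, gred D N hκ ⟨a, hC.le_V a.2⟩ ∈ Q.toValuationSubring)
    (hMQ : ∀ a ∈ M, gred D N hκ ⟨a, hC.le_V a.2⟩ ∈ Q.toValuationSubring.nonunits) :
    SpData D.πK (S18RP_V D N) X M (gred D N hκ) Q.toValuationSubring := by
  have h1 := eq_centre_of_isMaximal (red := gred D N hκ) (W := Q.toValuationSubring)
    hC.le_V hXQ M hM hMQ
  rw [h1]
  exact spData_centre hC.le_V hXQ (gred_ker hκ) (gred_frac hκ hres hC)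

/-- **uniqueness** (generic Gauss data). -/
theorem gunique [CharZero K]
    (S : Setup Os D.πK j (modularFunctionFieldFullC K N).toSubfield (S18RP_V D N) A0 Ainf)
    (hres : Function.Surjective D.res)
    (hC : Chart Os D.πK x (modularFunctionFieldFullC K N).toSubfield (S18RP_V D N) X)
    (hx : x = j ∨ x = j⁻¹) (hIG : IG D.πK X)
    (Q Q' : Place κ (modularFunctionFieldFullC κ N))
    (M : Ideal X) (hM : M.IsMaximal)
    (hπM : ∀ hπ : D.πK ∈ X, (⟨D.πK, hπ⟩ : X) ∈ M)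
    (hXQ : ∀ a : X, gred D N hκ ⟨a, hC.le_V a.2⟩ ∈ Q.toValuationSubring)
    (hMQ : ∀ a ∈ M, gred D N hκ ⟨a, hC.le_V a.2⟩ ∈ Q.toValuationSubring.nonunits)
    (hXQ' : ∀ a : X, gred D N hκ ⟨a, hC.le_V a.2⟩ ∈ Q'.toValuationSubring)
    (hMQ' : ∀ a ∈ M, gred D N hκ ⟨a, hC.le_V a.2⟩ ∈ Q'.toValuationSubring.nonunits) :
    Q = Q' := by
  haveI := hM.isPrime
  haveI := gisNoetherianRing S hC hx
  exact SpData.place_unique Q Q' (gspData_of_isMaximal hκ hres hC Q M hM hXQ hMQ)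
    (gspData_of_isMaximal hκ hres hC Q' M hM hXQ' hMQ')
    (LocHyp_of_chart S hC M hπM) (fun hπ => hIG hπ M hM (hπM hπ))

/-- **the special-fibre package** (generic Gauss data). -/
theorem gpackage [IsAlgClosed κ] [CharZero K]
    (S : Setup Os D.πK j (modularFunctionFieldFullC K N).toSubfield (S18RP_V D N) A0 Ainf)
    (hres : Function.Surjective D.res)
    (hOs : ∀ c ∈ Os, ∃ a : O, D.incS (HahnSeries.C a) = c)
    (hOs' : ∀ a : O, D.incS (HahnSeries.C a) ∈ Os)
    (hOu : ∀ a : O, D.res a ≠ 0 → (D.incS (HahnSeries.C a))⁻¹ ∈ Os)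
    (hC : Chart Os D.πK x (modularFunctionFieldFullC K N).toSubfield (S18RP_V D N) X)
    (hx : x = j ∨ x = j⁻¹) (hIG : IG D.πK X)
    (Q : Place κ (modularFunctionFieldFullC κ N)) (hxV : x ∈ S18RP_V D N)
    (hxQ : gred D N hκ ⟨x, hxV⟩ ∈ Q.toValuationSubring) :
    ∃ (M : Ideal X) (hM : M.IsMaximal),
      haveI := hM.isPrime
      ∃ (H : LocHyp D.πK (S18RP_V D N) X M)
        (ρ : locRing X M →+* modularFunctionFieldFullC κ N),
        (∀ a : X, a ∈ M ↔ gred D N hκ ⟨a, hC.le_V a.2⟩ ∈ Q.toValuationSubring.nonunits) ∧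
        (∀ y : locRing X M, ((ρ y : modularFunctionFieldFullC κ N) : LaurentSeries κ)
          = D.redFun (y : LaurentSeries K)) ∧
        (∀ y : locRing X M, ρ y = 0 ↔ H.ϖ ∣ y) ∧
        (∀ g : modularFunctionFieldFullC κ N,
          g ∈ Q.toValuationSubring ↔ ∃ y : locRing X M, ρ y = g) ∧
        (∀ y : locRing X M, ρ y ∈ Q.toValuationSubring.nonunits ↔
          y ∈ IsLocalRing.maximalIdeal (locRing X M)) ∧
        (∀ y : locRing X M, 0 ≤ Q.ord (ρ y)) ∧
        (∀ u : (locRing X M)ˣ, Q.ord (ρ (u : locRing X M)) = 0) ∧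
        UniqueFactorizationMonoid (locRing X M) ∧
        (∃ τ : X, τ ∈ M ∧
          IsLocalRing.maximalIdeal (locRing X M) = Ideal.span {H.ϖ, incl X M τ}) ∧
        (∀ τ : locRing X M, IsLocalRing.maximalIdeal (locRing X M) = Ideal.span {H.ϖ, τ} →
          ∀ c : locRing X M, H.ϖ ∣ c → Q.ord (ρ (τ - c)) = 1) := by
  obtain ⟨M, hM, hπM, Dsp⟩ := gexists_centre hκ S hres hOs hOs' hOu hC hx Q hxV hxQ
  refine ⟨M, hM, ?_⟩
  haveI := hM.isPrime
  haveI := gisNoetherianRing S hC hx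
  have H : LocHyp D.πK (S18RP_V D N) X M := LocHyp_of_chart S hC M hπM
  have hIGat : IGAt D.πK X M := fun hπ => hIG hπ M hM (hπM hπ)
  exact ⟨H, redLoc (gred D N hκ) H, Dsp.centre, fun _ => rfl,
    Dsp.redLoc_eq_zero_iff H, Dsp.mem_iff_exists_redLoc H hIGat,
    Dsp.redLoc_mem_nonunits_iff H, Dsp.ord_redLoc_nonneg Q H, Dsp.ord_redLoc_unit Q H,
    H.ufd hIGat, exists_maximalIdeal_eq H hIGat,
    fun τ hτ c hc => Dsp.ord_redLoc_sub_eq_one Q H hIGat τ hτ c hc⟩

/-- `red j = j̄`. -/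
theorem gred_j (hj : jqModC K ∈ S18RP_V D N) :
    gred D N hκ ⟨jqModC K, hj⟩ = Fermat.Agent.S18_helper26_CONST.S18P15_jbar κ N := by
  apply Subtype.ext
  rw [gred_coe]
  exact D.redFun_jqModC

/-- `red (1/j) = 1/j̄`. -/
theorem gred_j_inv (hj : jqModC K ∈ S18RP_V D N) (hj' : (jqModC K)⁻¹ ∈ S18RP_V D N) :
    gred D N hκ ⟨(jqModC K)⁻¹, hj'⟩
      = (Fermat.Agent.S18_helper26_CONST.S18P15_jbar κ N)⁻¹ := by
  rw [← gred_j hκ hj]
  apply eq_inv_of_mul_eq_one_left
  rw [← map_mul]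
  have hj0 : jqModC K ≠ 0 := by
    intro h0
    have h1 := gred_j hκ hj
    have h2 : (⟨jqModC K, hj⟩ : S18RP_V D N) = 0 := Subtype.ext h0
    rw [h2, map_zero] at h1
    exact (Fermat.Agent.S18_helper26_CONST.S18P15_transcendental_jbar κ N)
      (h1 ▸ isAlgebraic_zero)
  have : (⟨(jqModC K)⁻¹, hj'⟩ : S18RP_V D N) * ⟨jqModC K, hj⟩ = 1 :=
    Subtype.ext (inv_mul_cancel₀ hj0)
  rw [this, map_one]

end GMain

end Generic

/-! ### The concrete carriers `S18K_*` -/

section Concrete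

open IsLocalRing

local notation "Qb" => AlgebraicClosure ℚ

set_option synthInstance.maxHeartbeats 400000
set_option maxHeartbeats 1600000

variable (N : ℕ) [NeZero N] (A : ValuationSubring Qb) (K1 : IntermediateField ℚ Qb)
  [IsDiscreteValuationRing (S18K_O1 A K1)]

/-- the reduction map `V → F_k`, `k` the residue field of `A` (needs KAPPA at level `K1`). -/
def S37SPF_red
    (hκ : ∀ y ∈ S18K_V A K1 N, (S18K_D A K1).redFun y ∈
      modularFunctionFieldFullC (ResidueField A) N) :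
    ↥(S18K_V A K1 N) →+* ↥(modularFunctionFieldFullC (ResidueField A) N) :=
  gred (S18K_D A K1) N hκ

variable {N A K1}
variable (hκ : ∀ y ∈ S18K_V A K1 N, (S18K_D A K1).redFun y ∈
      modularFunctionFieldFullC (ResidueField A) N)

@[simp] theorem S37SPF_red_coe (v : S18K_V A K1 N) :
    ((S37SPF_red N A K1 hκ v : modularFunctionFieldFullC (ResidueField A) N) :
      LaurentSeries (ResidueField A)) = (S18K_D A K1).redFun (v : LaurentSeries K1) := rfl

omit [NeZero N] in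
theorem S37SPF_hOs : ∀ c ∈ S18K_O A K1,
    ∃ a : S18K_O1 A K1, (S18K_D A K1).incS (HahnSeries.C a) = c := by
  intro c hc
  obtain ⟨c1, hc1, rfl⟩ := hc
  exact ⟨⟨c1, hc1⟩, incS_C _⟩

theorem S37SPF_hOs' : ∀ a : S18K_O1 A K1,
    (S18K_D A K1).incS (HahnSeries.C a) ∈ S18K_O A K1 := by
  intro a
  rw [incS_C]
  exact ⟨(a : K1), a.2, rfl⟩

theorem S37SPF_hOu : ∀ a : S18K_O1 A K1, (S18K_D A K1).res a ≠ 0 →
    ((S18K_D A K1).incS (HahnSeries.C a))⁻¹ ∈ S18K_O A K1 := by
  intro a ha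
  rw [incS_C]
  have h1 : a ∉ IsLocalRing.maximalIdeal (S18K_O1 A K1) := fun h =>
    ha ((S18K_res_eq_zero_iff A K1 a).2 h)
  rw [IsLocalRing.mem_maximalIdeal, mem_nonunits_iff, not_not] at h1
  obtain ⟨u, hu⟩ := h1
  refine ⟨((u⁻¹ : (S18K_O1 A K1)ˣ) : S18K_O1 A K1), (u⁻¹ : (S18K_O1 A K1)ˣ).1.2, ?_⟩
  have h2 : ((u : S18K_O1 A K1) : K1) * (((u⁻¹ : (S18K_O1 A K1)ˣ) : S18K_O1 A K1) : K1) = 1 := by
    have h := congrArg (fun t : S18K_O1 A K1 => (t : K1)) u.mul_inv
    exact h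
  rw [hu] at h2
  have h3 : (((u⁻¹ : (S18K_O1 A K1)ˣ) : S18K_O1 A K1) : K1) = ((S18K_D A K1).inc a)⁻¹ :=
    eq_inv_of_mul_eq_one_right h2
  show (HahnSeries.C : K1 →+* LaurentSeries K1) _ = _
  rw [h3, map_inv₀]

section Main

variable
  (S : Setup (S18K_O A K1) (S18K_π A K1) (S18K_j K1) (S18K_F1 K1 N) (S18K_V A K1 N)
      (S18K_A0 A K1 N) (S18K_Ainf A K1 N))
  (hres : Function.Surjective (S18K_res A K1))
  {x : LaurentSeries K1} {X : Subring (LaurentSeries K1)}
  (hC : Chart (S18K_O A K1) (S18K_π A K1) x (S18K_F1 K1 N) (S18K_V A K1 N) X)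
  (hx : x = S18K_j K1 ∨ x = (S18K_j K1)⁻¹)
  (Q : Place (ResidueField A) (modularFunctionFieldFullC (ResidueField A) N))

include S hC hx in
/-- the coordinate of a chart lies in `V`. -/
theorem S37SPF_x_mem_V : x ∈ S18K_V A K1 N :=
  hC.le_V (x_mem_chart (D := S18K_D A K1) (N := N) hC S37SPF_hOs
    (gx_mem_F (D := S18K_D A K1) (N := N) S hx))

include S hC hx in
/-- the charts are noetherian (helper27). -/
theorem S37SPF_isNoetherianRing : IsNoetherianRing X :=
  gisNoetherianRing (D := S18K_D A K1) (N := N) S hC hx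

include hres in
/-- **(1) Existence of the centre.**  For a place `Q` of `F_k` at which the coordinate `x` of the
chart `X` is regular, there is a maximal ideal `M ∋ π` of `X` (the centre of `Q`) with the
special-fibre data `SpData`: `red X ⊆ O_Q` and `a ∈ M ↔ red a ∈ m_Q`. -/
theorem S37SPF_exists_centre
    (hxQ : S37SPF_red N A K1 hκ ⟨x, S37SPF_x_mem_V S hC hx⟩ ∈ Q.toValuationSubring) :
    ∃ M : Ideal X, M.IsMaximal ∧ (∀ hπ : S18K_π A K1 ∈ X, (⟨S18K_π A K1, hπ⟩ : X) ∈ M) ∧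
      SpData (S18K_π A K1) (S18K_V A K1 N) X M (S37SPF_red N A K1 hκ) Q.toValuationSubring := by
  haveI := Fermat.Agent.S18_helper27_RESALGCL.S18RES_isAlgClosed_residueField_Qbar A
  exact gexists_centre (D := S18K_D A K1) (N := N) hκ S hres S37SPF_hOs S37SPF_hOs' S37SPF_hOu
    hC hx Q (S37SPF_x_mem_V S hC hx) hxQ

include hres in
/-- a maximal ideal of the chart mapped into `m_Q` (with `red X ⊆ O_Q`) carries the special-fibre
data of `Q`. -/
theorem S37SPF_spData_of_isMaximal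
    (M : Ideal X) (hM : M.IsMaximal)
    (hXQ : ∀ a : X, S37SPF_red N A K1 hκ ⟨a, hC.le_V a.2⟩ ∈ Q.toValuationSubring)
    (hMQ : ∀ a ∈ M, S37SPF_red N A K1 hκ ⟨a, hC.le_V a.2⟩ ∈ Q.toValuationSubring.nonunits) :
    SpData (S18K_π A K1) (S18K_V A K1 N) X M (S37SPF_red N A K1 hκ) Q.toValuationSubring :=
  gspData_of_isMaximal (D := S18K_D A K1) (N := N) hκ hres hC Q M hM hXQ hMQ

include S hx hres in
/-- **(4) Uniqueness.**  Two places of `F_k` with the same centre `M` on a chart are equal. -/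
theorem S37SPF_unique (hIG : IG (S18K_π A K1) X)
    (Q' : Place (ResidueField A) (modularFunctionFieldFullC (ResidueField A) N))
    (M : Ideal X) (hM : M.IsMaximal)
    (hπM : ∀ hπ : S18K_π A K1 ∈ X, (⟨S18K_π A K1, hπ⟩ : X) ∈ M)
    (hXQ : ∀ a : X, S37SPF_red N A K1 hκ ⟨a, hC.le_V a.2⟩ ∈ Q.toValuationSubring)
    (hMQ : ∀ a ∈ M, S37SPF_red N A K1 hκ ⟨a, hC.le_V a.2⟩ ∈ Q.toValuationSubring.nonunits)
    (hXQ' : ∀ a : X, S37SPF_red N A K1 hκ ⟨a, hC.le_V a.2⟩ ∈ Q'.toValuationSubring)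
    (hMQ' : ∀ a ∈ M, S37SPF_red N A K1 hκ ⟨a, hC.le_V a.2⟩ ∈ Q'.toValuationSubring.nonunits) :
    Q = Q' :=
  gunique (D := S18K_D A K1) (N := N) hκ S hres hC hx hIG Q Q' M hM hπM hXQ hMQ hXQ' hMQ'

include hres in
/-- **The special-fibre package at `Q`** (all of (1)–(3) in one statement).  For a chart `X` with
`[IG]` and a place `Q` of `F_k` at which the coordinate of the chart is regular there are: a
maximal ideal `M ∋ π` of `X`, and a ring homomorphism `ρ` from the local ring `R = X_M`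
(helper3's `locRing`) to `F_k`, given by the Gauss reduction, such that
* `ker ρ = (π)`; `ρ R = O_Q`; `ρ⁻¹ m_Q = m_R`;
* `R` is factorial and `m_R = (π, τ)` for some `τ ∈ M`;
* `ord_Q (ρ (τ - c)) = 1` for every such `τ` and every `c ∈ π R`; `ord_Q (ρ u) = 0` for units. -/
theorem S37SPF_package (hIG : IG (S18K_π A K1) X)
    (hxQ : S37SPF_red N A K1 hκ ⟨x, S37SPF_x_mem_V S hC hx⟩ ∈ Q.toValuationSubring) :
    ∃ (M : Ideal X) (hM : M.IsMaximal),
      haveI := hM.isPrime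
      ∃ (H : LocHyp (S18K_π A K1) (S18K_V A K1 N) X M)
        (ρ : locRing X M →+* modularFunctionFieldFullC (ResidueField A) N),
        (∀ a : X, a ∈ M ↔
          S37SPF_red N A K1 hκ ⟨a, hC.le_V a.2⟩ ∈ Q.toValuationSubring.nonunits) ∧
        (∀ y : locRing X M, ((ρ y : modularFunctionFieldFullC (ResidueField A) N) :
          LaurentSeries (ResidueField A)) = (S18K_D A K1).redFun (y : LaurentSeries K1)) ∧
        (∀ y : locRing X M, ρ y = 0 ↔ H.ϖ ∣ y) ∧
        (∀ g : modularFunctionFieldFullC (ResidueField A) N,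
          g ∈ Q.toValuationSubring ↔ ∃ y : locRing X M, ρ y = g) ∧
        (∀ y : locRing X M, ρ y ∈ Q.toValuationSubring.nonunits ↔
          y ∈ IsLocalRing.maximalIdeal (locRing X M)) ∧
        (∀ y : locRing X M, 0 ≤ Q.ord (ρ y)) ∧
        (∀ u : (locRing X M)ˣ, Q.ord (ρ (u : locRing X M)) = 0) ∧
        UniqueFactorizationMonoid (locRing X M) ∧
        (∃ τ : X, τ ∈ M ∧
          IsLocalRing.maximalIdeal (locRing X M) = Ideal.span {H.ϖ, incl X M τ}) ∧
        (∀ τ : locRing X M, IsLocalRing.maximalIdeal (locRing X M) = Ideal.span {H.ϖ, τ} →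
          ∀ c : locRing X M, H.ϖ ∣ c → Q.ord (ρ (τ - c)) = 1) := by
  haveI := Fermat.Agent.S18_helper27_RESALGCL.S18RES_isAlgClosed_residueField_Qbar A
  exact gpackage (D := S18K_D A K1) (N := N) hκ S hres S37SPF_hOs S37SPF_hOs' S37SPF_hOu
    hC hx hIG Q (S37SPF_x_mem_V S hC hx) hxQ

end Main

/-! #### The two charts -/

omit [NeZero N] in
theorem S37SPF_j_mem_V
    (S : Setup (S18K_O A K1) (S18K_π A K1) (S18K_j K1) (S18K_F1 K1 N) (S18K_V A K1 N)
      (S18K_A0 A K1 N) (S18K_Ainf A K1 N)) : S18K_j K1 ∈ S18K_V A K1 N :=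
  ⟨(S18K_D A K1).jqModC_mem_Vring, S.j_mem⟩

/-- `red j = j̄`. -/
theorem S37SPF_red_j (hj : S18K_j K1 ∈ S18K_V A K1 N) :
    S37SPF_red N A K1 hκ ⟨S18K_j K1, hj⟩
      = Fermat.Agent.S18_helper26_CONST.S18P15_jbar (ResidueField A) N :=
  gred_j (D := S18K_D A K1) (N := N) hκ hj

/-- `red (1/j) = 1/j̄`. -/
theorem S37SPF_red_j_inv (hj : S18K_j K1 ∈ S18K_V A K1 N)
    (hj' : (S18K_j K1)⁻¹ ∈ S18K_V A K1 N) :
    S37SPF_red N A K1 hκ ⟨(S18K_j K1)⁻¹, hj'⟩
      = (Fermat.Agent.S18_helper26_CONST.S18P15_jbar (ResidueField A) N)⁻¹ :=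
  gred_j_inv (D := S18K_D A K1) (N := N) hκ hj hj'

/-- every place of `F_k` lies in one of the two charts. -/
theorem S37SPF_chart_cases
    (Q : Place (ResidueField A) (modularFunctionFieldFullC (ResidueField A) N)) :
    Fermat.Agent.S18_helper26_CONST.S18P15_jbar (ResidueField A) N ∈ Q.toValuationSubring ∨
    (Fermat.Agent.S18_helper26_CONST.S18P15_jbar (ResidueField A) N)⁻¹ ∈ Q.toValuationSubring :=
  Q.toValuationSubring.mem_or_inv_mem _

/-- **centre on the chart `j ≠ ∞`.** -/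
theorem S37SPF_exists_centre0
    (S : Setup (S18K_O A K1) (S18K_π A K1) (S18K_j K1) (S18K_F1 K1 N) (S18K_V A K1 N)
      (S18K_A0 A K1 N) (S18K_Ainf A K1 N))
    (hres : Function.Surjective (S18K_res A K1))
    (Q : Place (ResidueField A) (modularFunctionFieldFullC (ResidueField A) N))
    (hjQ : Fermat.Agent.S18_helper26_CONST.S18P15_jbar (ResidueField A) N
      ∈ Q.toValuationSubring) :
    ∃ M : Ideal (S18K_A0 A K1 N), M.IsMaximal ∧
      (∀ hπ : S18K_π A K1 ∈ S18K_A0 A K1 N, (⟨S18K_π A K1, hπ⟩ : S18K_A0 A K1 N) ∈ M) ∧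
      SpData (S18K_π A K1) (S18K_V A K1 N) (S18K_A0 A K1 N) M (S37SPF_red N A K1 hκ)
        Q.toValuationSubring := by
  refine S37SPF_exists_centre hκ S hres S.chart0 (Or.inl rfl) Q ?_
  rw [S37SPF_red_j]
  exact hjQ

/-- **centre on the chart `j ≠ 0`.** -/
theorem S37SPF_exists_centreInf
    (S : Setup (S18K_O A K1) (S18K_π A K1) (S18K_j K1) (S18K_F1 K1 N) (S18K_V A K1 N)
      (S18K_A0 A K1 N) (S18K_Ainf A K1 N))
    (hres : Function.Surjective (S18K_res A K1))
    (Q : Place (ResidueField A) (modularFunctionFieldFullC (ResidueField A) N))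
    (hjQ : (Fermat.Agent.S18_helper26_CONST.S18P15_jbar (ResidueField A) N)⁻¹
      ∈ Q.toValuationSubring) :
    ∃ M : Ideal (S18K_Ainf A K1 N), M.IsMaximal ∧
      (∀ hπ : S18K_π A K1 ∈ S18K_Ainf A K1 N, (⟨S18K_π A K1, hπ⟩ : S18K_Ainf A K1 N) ∈ M) ∧
      SpData (S18K_π A K1) (S18K_V A K1 N) (S18K_Ainf A K1 N) M (S37SPF_red N A K1 hκ)
        Q.toValuationSubring := by
  refine S37SPF_exists_centre hκ S hres S.chartInf (Or.inr rfl) Q ?_
  rw [S37SPF_red_j_inv hκ (S37SPF_j_mem_V S)]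
  exact hjQ

end Concrete

end Fermat.Agent.S37_helper2_SPFIB
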