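import Mathlib
import Fermat.Prelude.Def_AlgebraicCurve_DivisorClassGroup
import Fermat.Agent.S24_helper6_A2

/-!
# S18, piece X-A3-PLACEEXT: places and constant field extensions

* `S18A3_exists_place_of_ne_top`: in a function field `F/K` of characteristic `0`
  (`F` finite over `K(j)`, `j` transcendental), every valuation subring `V ≠ ⊤` of `F`
  containing `K` is (the ring of) a place, i.e. is discrete.
* `S18A3_exists_place_extension`: a place `P1` of `F1/K1` extends to a place `P` of `F/K`
  along `ι : F1 →+* F` (`K` integral over `K1`), with `P.ord (ι x) = e * P1.ord x`, `0 < e`.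
* `S18A3_dvd_ord_descent`: descent of `p`-divisibility of orders from `F/K` to `F1/K1`.
-/

set_option autoImplicit false
set_option linter.unusedSectionVars false

open IsDedekindDomain IsDedekindDomain.HeightOneSpectrum WithZero AlgebraicCurve

namespace Fermat.Agent.S18_helper19_PLACEEXT

open Fermat.Agent.S24_helper6_A2

/-! ### Valuation subrings: integrality -/

section Basic

variable {F : Type*} [Field F]

/-- An element of `F` which is a root of a monic polynomial with coefficients in `V`
(given through a ring hom `φ : R →+* F` with values in `V`) lies in `V`. -/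
theorem S18A3_mem_of_isIntegralElem {R : Type*} [CommRing R] (V : ValuationSubring F)
    (φ : R →+* F) (hφ : ∀ r, φ r ∈ V) {y : F} (hy : φ.IsIntegralElem y) : y ∈ V := by
  obtain ⟨P, hP, hPy⟩ := hy
  let ψ : R →+* V := φ.codRestrict V.toSubring hφ
  have hint : IsIntegral V y := by
    refine ⟨P.map ψ, hP.map ψ, ?_⟩
    rw [Polynomial.eval₂_map]
    exact hPy
  obtain ⟨z, hz⟩ := (IsIntegrallyClosed.isIntegral_iff (R := V) (K := F)).1 hint
  rw [← hz]
  exact z.2

/-- If `x ∈ V` and `x⁻¹ ∈ V` then... (helper) a nonzero element of `V` whose inverse is not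
in `V` is not a unit of `V`. -/
theorem S18A3_inv_mem_of_isUnit (V : ValuationSubring F) {x : F} (hx : x ∈ V)
    (hu : IsUnit (⟨x, hx⟩ : V)) : x⁻¹ ∈ V := by
  obtain ⟨u', hu'⟩ := isUnit_iff_exists_inv.1 hu
  have h1 : x * (u' : F) = 1 := by
    have := congrArg (Subtype.val) hu'
    simpa using this
  have h2 : x⁻¹ = (u' : F) := (eq_inv_of_mul_eq_one_right h1).symm
  rw [h2]
  exact u'.2

end Basic

/-! ### The generic situation: every valuation ring over `K` in which `X` is a non-unit is
a place -/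

section Generic

open Polynomial

variable {K F : Type*} [Field K] [Field F] [Algebra K F]
  [Algebra K[X] F] [Algebra (RatFunc K) F] [IsScalarTower K[X] (RatFunc K) F]
  [IsScalarTower K K[X] F] [FiniteDimensional (RatFunc K) F] [Algebra.IsSeparable (RatFunc K) F]

local notation "𝔅" => FunctionField.ringOfIntegers K F

theorem S18A3_poly_mem (V : ValuationSubring F) (hK : ∀ a : K, algebraMap K F a ∈ V)
    (hx : algebraMap K[X] F X ∈ V) (p : K[X]) : algebraMap K[X] F p ∈ V := by
  induction p using Polynomial.induction_on with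
  | C a =>
    have : algebraMap K[X] F (C a) = algebraMap K F a := by
      rw [← Polynomial.algebraMap_eq, ← IsScalarTower.algebraMap_apply]
    rw [this]
    exact hK a
  | add p q hp hq =>
    rw [map_add]
    exact V.add_mem _ _ hp hq
  | monomial n a h =>
    rw [pow_succ, ← mul_assoc, map_mul]
    exact V.mul_mem _ _ h hx

theorem S18A3_ringOfIntegers_mem (V : ValuationSubring F) (hK : ∀ a : K, algebraMap K F a ∈ V)
    (hx : algebraMap K[X] F X ∈ V) (b : 𝔅) : algebraMap 𝔅 F b ∈ V := by
  have hb : IsIntegral K[X] (algebraMap 𝔅 F b) := b.2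
  exact S18A3_mem_of_isIntegralElem V (algebraMap K[X] F) (S18A3_poly_mem V hK hx) hb

theorem S18A3_exists_place_generic (V : ValuationSubring F)
    (hK : ∀ a : K, algebraMap K F a ∈ V)
    (hx : algebraMap K[X] F X ∈ V) (hxn : (algebraMap K[X] F X)⁻¹ ∉ V) :
    ∃ P : Place K F, P.toValuationSubring = V := by
  have hB := S18A3_ringOfIntegers_mem V hK hx
  let φ : 𝔅 →+* V := (algebraMap 𝔅 F).codRestrict V.toSubring hB
  have hφ : ∀ b : 𝔅, ((φ b : V) : F) = algebraMap 𝔅 F b := fun _ => rfl
  -- the centre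
  let 𝔓 : Ideal 𝔅 := (IsLocalRing.maximalIdeal V).comap φ
  have hmem : ∀ b : 𝔅, b ∈ 𝔓 ↔ ¬ IsUnit (φ b) := by
    intro b
    show b ∈ (IsLocalRing.maximalIdeal V).comap φ ↔ _
    rw [Ideal.mem_comap, IsLocalRing.mem_maximalIdeal, mem_nonunits_iff]
  have hXmem : algebraMap K[X] 𝔅 X ∈ 𝔓 := by
    rw [hmem]
    intro hu
    apply hxn
    have h1 : ((φ (algebraMap K[X] 𝔅 X) : V) : F) = algebraMap K[X] F X := by
      rw [hφ, algebraMap_B_X]
    have h2 := S18A3_inv_mem_of_isUnit V (φ (algebraMap K[X] 𝔅 X)).2 hu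
    rwa [h1] at h2
  have hne : 𝔓 ≠ ⊥ := by
    intro hbot
    rw [hbot, Ideal.mem_bot] at hXmem
    exact xB_ne_zero hXmem
  let w : HeightOneSpectrum 𝔅 := ⟨𝔓, Ideal.comap_isPrime _ _, hne⟩
  refine ⟨Place.ofHeightOneSpectrum (K := K) (F := F) w, ?_⟩
  have hVtop : V ≠ ⊤ := by
    intro h
    apply hxn
    rw [h]
    exact ValuationSubring.mem_top _
  rw [Place.ofHeightOneSpectrum_toValuationSubring,
    ← valuationSubringAtPrime_eq_valuationSubring]
  refine ValuationSubring.eq_of_le_of_ne_top _ ?_ hVtop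
  intro f hf
  rw [valuationSubringAtPrime_eq_valuationSubring, Valuation.mem_valuationSubring_iff] at hf
  obtain ⟨n, d, hnd⟩ := exists_primeCompl_mul_eq_of_integer w f hf
  have hd : IsUnit (φ (d : 𝔅)) := by
    by_contra hd
    exact d.2 ((hmem _).2 hd)
  have h1 := S18A3_inv_mem_of_isUnit V (φ (d : 𝔅)).2 hd
  rw [hφ] at h1
  have hd0 : algebraMap 𝔅 F (d : 𝔅) ≠ 0 := by
    intro h0
    have : φ (d : 𝔅) = 0 := Subtype.ext (by rw [hφ, h0]; rfl)
    rw [this] at hd
    exact absurd hd not_isUnit_zero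
  have h2 : f = algebraMap 𝔅 F n * (algebraMap 𝔅 F (d : 𝔅))⁻¹ := by
    rw [← hnd, mul_assoc, mul_inv_cancel₀ hd0, mul_one]
  rw [h2]
  exact V.mul_mem _ _ (hB n) h1

end Generic

/-! ### Function fields of characteristic zero -/

section FunctionField

open Polynomial IntermediateField

variable {K F : Type*} [Field K] [Field F] [Algebra K F]

/-- An element of `F` algebraic over `K` lies in every valuation subring containing `K`. -/
theorem S18A3_mem_of_isAlgebraic (V : ValuationSubring F) (hK : ∀ a : K, algebraMap K F a ∈ V)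
    {y : F} (hy : IsAlgebraic K y) : y ∈ V :=
  S18A3_mem_of_isIntegralElem V (algebraMap K F) hK hy.isIntegral

/-- If `x⁻¹ ∉ V` for a valuation subring `V ⊇ K`, then `x` is transcendental over `K`. -/
theorem S18A3_transcendental_of_inv_notMem (V : ValuationSubring F)
    (hK : ∀ a : K, algebraMap K F a ∈ V) {x : F} (hxn : x⁻¹ ∉ V) : Transcendental K x := by
  intro halg
  exact hxn (S18A3_mem_of_isAlgebraic V hK halg.inv)

/-- A valuation subring `V ⊇ K` of a function field `F/K` (char. 0) in which the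
transcendental element `x` is a non-unit is the ring of a place. -/
theorem S18A3_exists_place_of_nonunit [CharZero K] (x : F) (hx : Transcendental K x)
    [FiniteDimensional K⟮x⟯ F] (V : ValuationSubring F)
    (hK : ∀ a : K, algebraMap K F a ∈ V) (hxV : x ∈ V) (hxn : x⁻¹ ∉ V) :
    ∃ P : Place K F, P.toValuationSubring = V := by
  obtain ⟨a1, a2, t1, t2, f2, sep, hX, -⟩ := exists_instances x hx
  exact S18A3_exists_place_generic V hK (by rw [hX]; exact hxV) (by rw [hX]; exact hxn)

/-- **Discreteness.** In a function field `F/K` of characteristic `0` (finite over `K(j)`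
for a transcendental `j`), every valuation subring `V ≠ ⊤` containing `K` is the ring of a
place of `F/K`. -/
theorem S18A3_exists_place_of_ne_top [CharZero K] (j : F) (hj : Transcendental K j)
    [FiniteDimensional K⟮j⟯ F] (V : ValuationSubring F)
    (hK : ∀ a : K, algebraMap K F a ∈ V) (hV : V ≠ ⊤) :
    ∃ P : Place K F, P.toValuationSubring = V := by
  have hne : ∃ f : F, f ∉ V := by
    by_contra h
    rw [not_exists] at h
    exact hV (SetLike.ext fun f =>
      ⟨fun _ => ValuationSubring.mem_top f, fun _ => not_not.1 (h f)⟩)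
  obtain ⟨f, hf⟩ := hne
  have hxV : f⁻¹ ∈ V := (V.mem_or_inv_mem f).resolve_left hf
  have hxn : (f⁻¹)⁻¹ ∉ V := by rwa [inv_inv]
  have hx : Transcendental K f⁻¹ := S18A3_transcendental_of_inv_notMem V hK hxn
  have : FiniteDimensional K⟮f⁻¹⟯ F := finiteDimensional_adjoin_of_transcendental j hj f⁻¹ hx
  exact S18A3_exists_place_of_nonunit f⁻¹ hx V hK hxV hxn

end FunctionField

/-! ### Extension of places along a constant field extension -/

section Extension

open Polynomial IntermediateField

variable {K1 K F1 F : Type*} [Field K1] [Field K] [Field F1] [Field F]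
  [Algebra K1 F1] [Algebra K F]

/-- `P.ord f = 0` as soon as `f` and `f⁻¹` lie in the ring of `P`. -/
theorem S18A3_ord_eq_zero_of_mem (P : Place K F) {f : F} (hf : f ∈ P.toValuationSubring)
    (hf' : f⁻¹ ∈ P.toValuationSubring) : P.ord f = 0 := by
  have h1 := ord_nonneg_of_mem P hf
  have h2 := ord_nonneg_of_mem P hf'
  rw [Place.ord_inv] at h2
  omega

/-- **Comparison of orders.** If the ring of the place `P` of `F/K` contains the image of the
ring of the place `P1` of `F1/K1` under `ι : F1 →+* F`, and the image of some non-unit of `P1`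
is a non-unit, then `P.ord ∘ ι = e * P1.ord` with `e = P.ord (ι π) > 0`. -/
theorem S18A3_ord_comp_eq (ι : F1 →+* F) (P1 : Place K1 F1) (P : Place K F)
    (hle : ∀ y : F1, y ∈ P1.toValuationSubring → ι y ∈ P.toValuationSubring)
    (hloc : ∀ y : F1, y ∈ P1.toValuationSubring → y⁻¹ ∉ P1.toValuationSubring →
      (ι y)⁻¹ ∉ P.toValuationSubring) :
    ∃ e : ℕ, 0 < e ∧ ∀ x : F1, P.ord (ι x) = e * P1.ord x := by
  obtain ⟨π, hπ⟩ := IsDiscreteValuationRing.exists_irreducible P1.toValuationSubring
  have hπ0 : (π : F1) ≠ 0 := by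
    simpa [ne_eq, ZeroMemClass.coe_eq_zero] using hπ.ne_zero
  have hιπ0 : ι (π : F1) ≠ 0 := (map_ne_zero ι).2 hπ0
  -- `π⁻¹ ∉ O_{P1}`
  have hπinv : (π : F1)⁻¹ ∉ P1.toValuationSubring := by
    intro h
    have h1 := ord_nonneg_of_mem P1 h
    rw [Place.ord_inv, P1.ord_coe_irreducible hπ] at h1
    omega
  have hιπ : ι (π : F1) ∈ P.toValuationSubring := hle _ π.2
  have hιπinv : (ι (π : F1))⁻¹ ∉ P.toValuationSubring := hloc _ π.2 hπinv
  have hpos : 0 < P.ord (ι (π : F1)) := by
    have h1 := ord_nonneg_of_mem P hιπ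
    rcases h1.lt_or_eq with h | h
    · exact h
    · exfalso
      apply hιπinv
      apply mem_of_ord_nonneg P
      rw [Place.ord_inv, ← h]
      simp
  refine ⟨(P.ord (ι (π : F1))).toNat, by omega, ?_⟩
  intro x
  rcases eq_or_ne x 0 with rfl | hx
  · simp
  obtain ⟨u, hu⟩ := P1.exists_unit_mul_zpow hx hπ
  have hu0 : ((u : P1.toValuationSubring) : F1) ≠ 0 := by
    simp [ne_eq, ZeroMemClass.coe_eq_zero]
  have hιu0 : ι ((u : P1.toValuationSubring) : F1) ≠ 0 := (map_ne_zero ι).2 hu0
  have hu1 : ι ((u : P1.toValuationSubring) : F1) ∈ P.toValuationSubring := hle _ (u : P1.toValuationSubring).2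
  have hu2 : (ι ((u : P1.toValuationSubring) : F1))⁻¹ ∈ P.toValuationSubring := by
    have h3 : (((u : P1.toValuationSubring) : F1))⁻¹ = (((u⁻¹ : P1.toValuationSubringˣ) : P1.toValuationSubring) : F1) := by
      have h4 : ((u : P1.toValuationSubring) : F1) * (((u⁻¹ : P1.toValuationSubringˣ) : P1.toValuationSubring) : F1) = 1 := by
        have h5 : (u : P1.toValuationSubring) * ((u⁻¹ : P1.toValuationSubringˣ) : P1.toValuationSubring) = 1 :=
          Units.mul_inv u
        have h6 := congrArg (Subtype.val) h5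
        exact h6
      exact (eq_inv_of_mul_eq_one_right h4).symm
    rw [← map_inv₀, h3]
    exact hle _ ((u⁻¹ : P1.toValuationSubringˣ) : P1.toValuationSubring).2
  have hordu : P.ord (ι ((u : P1.toValuationSubring) : F1)) = 0 :=
    S18A3_ord_eq_zero_of_mem P hu1 hu2
  have hx' : ι x = ι ((u : P1.toValuationSubring) : F1) * (ι (π : F1)) ^ (P1.ord x) := by
    conv_lhs => rw [hu]
    rw [map_mul, map_zpow₀]
  rw [hx', P.ord_mul hιu0 (zpow_ne_zero _ hιπ0), hordu, zero_add, P.ord_zpow]
  have : ((P.ord (ι (π : F1))).toNat : ℤ) = P.ord (ι (π : F1)) := Int.toNat_of_nonneg hpos.le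
  rw [this]
  ring

/-- **Extension of places.** `K` integral (= algebraic) over `K1` via `σ`, `ι : F1 →+* F`
compatible with `σ`, `F/K` a function field of characteristic `0`. Every place `P1` of
`F1/K1` extends to a place `P` of `F/K`: the ring of `P` contains the image of the ring of
`P1`, and `P.ord ∘ ι = e * P1.ord` for some `e > 0`. -/
theorem S18A3_exists_place_extension [CharZero K]
    (σ : K1 →+* K) (hσ : σ.IsIntegral)
    (ι : F1 →+* F) (hι : ∀ a : K1, ι (algebraMap K1 F1 a) = algebraMap K F (σ a))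
    (j : F) (hj : Transcendental K j) [FiniteDimensional K⟮j⟯ F]
    (P1 : Place K1 F1) :
    ∃ (P : Place K F) (e : ℕ), 0 < e ∧
      (∀ y : F1, y ∈ P1.toValuationSubring → ι y ∈ P.toValuationSubring) ∧
      ∀ x : F1, P.ord (ι x) = e * P1.ord x := by
  -- a valuation subring of `F` dominating the image of `O_{P1}`
  let f : P1.toValuationSubring →+* F := ι.comp P1.toValuationSubring.subtype
  obtain ⟨V, hV, hloc⟩ := IsLocalRing.exists_factor_valuationRing f
  have hle : ∀ y : F1, y ∈ P1.toValuationSubring → ι y ∈ V := fun y hy => hV ⟨y, hy⟩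
  have hnonunit : ∀ y : F1, y ∈ P1.toValuationSubring → y⁻¹ ∉ P1.toValuationSubring →
      (ι y)⁻¹ ∉ V := by
    intro y hy hyinv hmem
    rcases eq_or_ne y 0 with rfl | hy0
    · exact hyinv (by simp)
    have hιy0 : ι y ≠ 0 := (map_ne_zero ι).2 hy0
    -- `ι y` is a unit of `V`, hence `y` is a unit of `O_{P1}`
    have hunit : IsUnit ((f.codRestrict V.toSubring hV) ⟨y, hy⟩) := by
      refine isUnit_iff_exists_inv.2 ⟨⟨(ι y)⁻¹, hmem⟩, ?_⟩
      apply Subtype.ext
      show ι y * (ι y)⁻¹ = 1
      exact mul_inv_cancel₀ hιy0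
    have hunit' : IsUnit (⟨y, hy⟩ : P1.toValuationSubring) := hloc.map_nonunit _ hunit
    exact hyinv (S18A3_inv_mem_of_isUnit _ hy hunit')
  -- `V` contains `K`
  have hK1 : ∀ a : K1, (algebraMap K F).comp σ a ∈ V := by
    intro a
    show algebraMap K F (σ a) ∈ V
    rw [← hι]
    exact hle _ (P1.algebraMap_mem' a)
  have hK : ∀ a : K, algebraMap K F a ∈ V := by
    intro a
    apply S18A3_mem_of_isIntegralElem V ((algebraMap K F).comp σ) hK1
    obtain ⟨p, hp, hpa⟩ := hσ a
    refine ⟨p, hp, ?_⟩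
    rw [← Polynomial.hom_eval₂, hpa, map_zero]
  -- `V ≠ ⊤`
  obtain ⟨π, hπ⟩ := IsDiscreteValuationRing.exists_irreducible P1.toValuationSubring
  have hπinv : (π : F1)⁻¹ ∉ P1.toValuationSubring := by
    intro h
    have h1 := ord_nonneg_of_mem P1 h
    rw [Place.ord_inv, P1.ord_coe_irreducible hπ] at h1
    omega
  have hVtop : V ≠ ⊤ := by
    intro h
    apply hnonunit _ π.2 hπinv
    rw [h]
    exact ValuationSubring.mem_top _
  obtain ⟨P, hP⟩ := S18A3_exists_place_of_ne_top j hj V hK hVtop
  obtain ⟨e, he, hord⟩ := S18A3_ord_comp_eq ι P1 P (by rw [hP]; exact hle)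
    (by rw [hP]; exact hnonunit)
  exact ⟨P, e, he, by rw [hP]; exact hle, hord⟩

/-- **Descent of divisibility of orders** (route #713, A3). If `p ∣ ord_P (ι f)` for every
place `P` of `F/K`, and every place `P` of `F/K` in the support of `ι f` has a uniformiser
in the image of `F1`, then `p ∣ ord_{P1} f` for every place `P1` of `F1/K1`. -/
theorem S18A3_dvd_ord_descent [CharZero K]
    (σ : K1 →+* K) (hσ : σ.IsIntegral)
    (ι : F1 →+* F) (hι : ∀ a : K1, ι (algebraMap K1 F1 a) = algebraMap K F (σ a))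
    (j : F) (hj : Transcendental K j) [FiniteDimensional K⟮j⟯ F]
    (p : ℕ) (f : F1)
    (hdiv : ∀ P : Place K F, (p : ℤ) ∣ P.ord (ι f))
    (hunif : ∀ P : Place K F, P.ord (ι f) ≠ 0 → ∃ t : F1, P.ord (ι t) = 1)
    (P1 : Place K1 F1) : (p : ℤ) ∣ P1.ord f := by
  obtain ⟨P, e, he, -, hord⟩ := S18A3_exists_place_extension σ hσ ι hι j hj P1
  by_cases h0 : P.ord (ι f) = 0
  · rw [hord] at h0
    have : P1.ord f = 0 := by
      rcases mul_eq_zero.1 h0 with h | h
      · omega
      · exact h
    rw [this]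
    exact dvd_zero _
  · obtain ⟨t, ht⟩ := hunif P h0
    rw [hord] at ht
    have he1 : (e : ℤ) = 1 := by
      have h1 : (e : ℤ) ∣ 1 := ⟨P1.ord t, ht.symm⟩
      have h2 := Int.eq_one_or_neg_one_of_mul_eq_one' ht
      rcases h2 with ⟨h, -⟩ | ⟨h, -⟩
      · exact h
      · omega
    have := hdiv P
    rwa [hord, he1, one_mul] at this

end Extension

end Fermat.Agent.S18_helper19_PLACEEXT
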