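import Mathlib
import Fermat.Prelude.Def_AlgebraicCurve_DivisorClassGroup
import Fermat.Agent.S24_helper6_A2
import Fermat.Agent.S18_helper19_PLACEEXT

/-!
# S18, piece X-A3-PLACEUNR: constant field extensions are unramified (characteristic 0)

Upgrade of `S18_helper19_PLACEEXT`: the extension `P` of a place `P1` of `F1/K1` to
`F = K · ι(F1)` (`K/K1` algebraic, characteristic `0`) satisfies `P.ord ∘ ι = P1.ord`.
-/

set_option autoImplicit false
set_option linter.unusedSectionVars false
set_option linter.style.haveILetI false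

open AlgebraicCurve Polynomial

namespace Fermat.Agent.S18_helper19_PLACEUNR

open Fermat.Agent.S24_helper6_A2 Fermat.Agent.S18_helper19_PLACEEXT

/-! ### Reducedness of `O[α]/π` when the minimal polynomial is separable modulo `π` -/

section Reduced

variable {O F : Type*} [CommRing O] [IsDomain O] [IsDiscreteValuationRing O]
  [Field F] [Algebra O F] [Module.IsTorsionFree O F]

/-- `O[α] / π O[α]` is reduced: squares. -/
theorem S18A3_reduced_sq (π : O) (hπ : Irreducible π) (α : F) (g : O[X]) (hg : g.Monic)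
    (hgα : aeval α g = 0) (hsep : (g.map (IsLocalRing.residue O)).Separable)
    (q c : O[X]) (h : aeval α q ^ 2 = algebraMap O F π * aeval α c) :
    ∃ c' : O[X], aeval α q = algebraMap O F π * aeval α c' := by
  have hint : IsIntegral O α := ⟨g, hg, hgα⟩
  have h1 : minpoly O α ∣ g := minpoly.isIntegrallyClosed_dvd hint hgα
  have h2 : minpoly O α ∣ q ^ 2 - C π * c := by
    apply minpoly.isIntegrallyClosed_dvd hint
    rw [map_sub, map_pow, map_mul, aeval_C, h, sub_self]
  -- reduce modulo `π`
  have hπres : IsLocalRing.residue O π = 0 := by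
    rw [IsLocalRing.residue_eq_zero_iff]
    rw [hπ.maximalIdeal_eq]
    exact Ideal.mem_span_singleton_self π
  have h3 : (minpoly O α).map (IsLocalRing.residue O) ∣ (q.map (IsLocalRing.residue O)) ^ 2 := by
    have := Polynomial.map_dvd (IsLocalRing.residue O) h2
    simpa [Polynomial.map_sub, Polynomial.map_pow, Polynomial.map_mul, hπres] using this
  have h4 : Squarefree ((minpoly O α).map (IsLocalRing.residue O)) :=
    Squarefree.squarefree_of_dvd (Polynomial.map_dvd _ h1) hsep.squarefree
  have h5 : (minpoly O α).map (IsLocalRing.residue O) ∣ q.map (IsLocalRing.residue O) :=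
    (h4.dvd_pow_iff_dvd (by norm_num)).1 h3
  obtain ⟨sbar, hs⟩ := h5
  obtain ⟨s, rfl⟩ := Polynomial.map_surjective (IsLocalRing.residue O)
    IsLocalRing.residue_surjective sbar
  have h6 : (q - minpoly O α * s).map (IsLocalRing.residue O) = 0 := by
    rw [Polynomial.map_sub, Polynomial.map_mul, hs, sub_self]
  have h7 : C π ∣ q - minpoly O α * s := by
    rw [Polynomial.C_dvd_iff_dvd_coeff]
    intro i
    have := congrArg (fun p => p.coeff i) h6
    simp only [Polynomial.coeff_map, Polynomial.coeff_zero] at this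
    rw [IsLocalRing.residue_eq_zero_iff, hπ.maximalIdeal_eq, Ideal.mem_span_singleton] at this
    exact this
  obtain ⟨c', hc'⟩ := h7
  refine ⟨c', ?_⟩
  have h8 : aeval α (q - minpoly O α * s) = aeval α (C π * c') := by rw [hc']
  rw [map_sub, map_mul, minpoly.aeval, zero_mul, sub_zero, map_mul, aeval_C] at h8
  exact h8

end Reduced

/-! ### Units and non-units of the ring of a place -/

section Units

variable {K F : Type*} [Field K] [Field F] [Algebra K F] (P : Place K F)

/-- `z` is a unit of the ring of `P`. -/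
def S18A3_IsU (z : F) : Prop :=
  z ∈ P.toValuationSubring ∧ z⁻¹ ∈ P.toValuationSubring ∧ z ≠ 0

/-- `z` is a non-unit of the ring of `P`. -/
def S18A3_IsN (z : F) : Prop :=
  z ∈ P.toValuationSubring ∧ (z = 0 ∨ z⁻¹ ∉ P.toValuationSubring)

theorem S18A3_isU_iff {z : F} (hz : z ∈ P.toValuationSubring) :
    S18A3_IsU P z ↔ IsUnit (⟨z, hz⟩ : P.toValuationSubring) := by
  constructor
  · rintro ⟨-, h2, h3⟩
    refine isUnit_iff_exists_inv.2 ⟨⟨z⁻¹, h2⟩, ?_⟩
    apply Subtype.ext
    show z * z⁻¹ = 1
    exact mul_inv_cancel₀ h3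
  · intro hu
    refine ⟨hz, S18A3_inv_mem_of_isUnit _ hz hu, ?_⟩
    rintro rfl
    have : (⟨0, hz⟩ : P.toValuationSubring) = 0 := rfl
    rw [this] at hu
    exact not_isUnit_zero hu

theorem S18A3_isN_iff {z : F} (hz : z ∈ P.toValuationSubring) :
    S18A3_IsN P z ↔ (⟨z, hz⟩ : P.toValuationSubring) ∈
      IsLocalRing.maximalIdeal P.toValuationSubring := by
  rw [IsLocalRing.mem_maximalIdeal, mem_nonunits_iff, ← S18A3_isU_iff P hz]
  constructor
  · rintro ⟨-, h | h⟩ ⟨-, h2, h3⟩
    · exact h3 h
    · exact h h2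
  · intro h
    refine ⟨hz, ?_⟩
    by_contra hcon
    rw [not_or, not_not] at hcon
    exact h ⟨hz, hcon.2, hcon.1⟩

theorem S18A3_isU_or_isN {z : F} (hz : z ∈ P.toValuationSubring) :
    S18A3_IsU P z ∨ S18A3_IsN P z := by
  by_cases h0 : z = 0
  · exact Or.inr ⟨hz, Or.inl h0⟩
  by_cases h1 : z⁻¹ ∈ P.toValuationSubring
  · exact Or.inl ⟨hz, h1, h0⟩
  · exact Or.inr ⟨hz, Or.inr h1⟩

theorem S18A3_not_isU_of_isN {z : F} (h : S18A3_IsN P z) : ¬ S18A3_IsU P z := by
  rintro ⟨-, h2, h3⟩
  rcases h.2 with h | h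
  · exact h3 h
  · exact h h2

theorem S18A3_isN_add {a b : F} (ha : S18A3_IsN P a) (hb : S18A3_IsN P b) :
    S18A3_IsN P (a + b) := by
  have h1 := (S18A3_isN_iff P ha.1).1 ha
  have h2 := (S18A3_isN_iff P hb.1).1 hb
  have h3 := Ideal.add_mem _ h1 h2
  exact (S18A3_isN_iff P (P.toValuationSubring.add_mem _ _ ha.1 hb.1)).2 h3

theorem S18A3_isN_mul {a b : F} (ha : a ∈ P.toValuationSubring) (hb : S18A3_IsN P b) :
    S18A3_IsN P (a * b) := by
  have h2 := (S18A3_isN_iff P hb.1).1 hb
  have h3 := Ideal.mul_mem_left _ (⟨a, ha⟩ : P.toValuationSubring) h2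
  exact (S18A3_isN_iff P (P.toValuationSubring.mul_mem _ _ ha hb.1)).2 h3

theorem S18A3_isN_neg {a : F} (ha : S18A3_IsN P a) : S18A3_IsN P (-a) := by
  have := S18A3_isN_mul P (P.toValuationSubring.neg_mem _ P.toValuationSubring.one_mem) ha
  simpa using this

theorem S18A3_ord_of_isU {z : F} (h : S18A3_IsU P z) : P.ord z = 0 :=
  S18A3_ord_eq_zero_of_mem P h.1 h.2.1

theorem S18A3_isN_of_ord_pos {z : F} (h : 0 < P.ord z) : S18A3_IsN P z := by
  have hz : z ∈ P.toValuationSubring := mem_of_ord_nonneg P h.le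
  rcases S18A3_isU_or_isN P hz with hu | hn
  · have := S18A3_ord_of_isU P hu
    omega
  · exact hn

theorem S18A3_ord_pos_of_isN {z : F} (h : S18A3_IsN P z) (h0 : z ≠ 0) : 0 < P.ord z := by
  have h1 := ord_nonneg_of_mem P h.1
  rcases h1.lt_or_eq with h2 | h2
  · exact h2
  · exfalso
    rcases h.2 with h3 | h3
    · exact h0 h3
    · apply h3
      apply mem_of_ord_nonneg P
      rw [Place.ord_inv, ← h2]
      simp

end Units

/-! ### The key step: adjoining one separable constant -/

section Step

variable {K F : Type*} [Field K] [Field F] [Algebra K F] (P : Place K F)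
variable {O : Type*} [CommRing O] [IsDomain O] [IsDiscreteValuationRing O]
  [Algebra O F] [Module.IsTorsionFree O F]

/-- Elements of `O[α]` lie in the ring of `P`. -/
theorem S18A3_adjoin_mem (hO : ∀ c : O, algebraMap O F c ∈ P.toValuationSubring)
    (α : F) (hint : IsIntegral O α) {y : F} (hy : y ∈ Algebra.adjoin O {α}) :
    y ∈ P.toValuationSubring :=
  S18A3_mem_of_isIntegralElem P.toValuationSubring (algebraMap O F) hO
    (adjoin_le_integralClosure hint hy)

/-- `O[α] / π O[α]` is reduced (subalgebra form, squares). -/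
theorem S18A3_reduced_sq' (π : O) (hπ : Irreducible π) (α : F) (g : O[X]) (hg : g.Monic)
    (hgα : aeval α g = 0) (hsep : (g.map (IsLocalRing.residue O)).Separable)
    {z c : F} (hz : z ∈ Algebra.adjoin O {α}) (hc : c ∈ Algebra.adjoin O {α})
    (h : z ^ 2 = algebraMap O F π * c) :
    ∃ c' ∈ Algebra.adjoin O {α}, z = algebraMap O F π * c' := by
  rw [Algebra.adjoin_singleton_eq_range_aeval] at hz hc
  obtain ⟨q, rfl⟩ := hz
  obtain ⟨c0, rfl⟩ := hc
  obtain ⟨c', hc'⟩ := S18A3_reduced_sq π hπ α g hg hgα hsep q c0 h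
  refine ⟨aeval α c', ?_, hc'⟩
  rw [Algebra.adjoin_singleton_eq_range_aeval]
  exact ⟨c', rfl⟩

/-- `O[α] / π O[α]` is reduced (subalgebra form, arbitrary powers). -/
theorem S18A3_reduced_pow (π : O) (hπ : Irreducible π) (α : F) (g : O[X]) (hg : g.Monic)
    (hgα : aeval α g = 0) (hsep : (g.map (IsLocalRing.residue O)).Separable)
    (k : ℕ) (hk : 1 ≤ k) {z c : F} (hz : z ∈ Algebra.adjoin O {α})
    (hc : c ∈ Algebra.adjoin O {α}) (h : z ^ k = algebraMap O F π * c) :
    ∃ c' ∈ Algebra.adjoin O {α}, z = algebraMap O F π * c' := by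
  induction k using Nat.strong_induction_on generalizing c with
  | _ k ih =>
    rcases Nat.lt_or_ge k 2 with hk2 | hk2
    · have hk1 : k = 1 := by omega
      subst hk1
      exact ⟨c, hc, by simpa using h⟩
    · -- `m = (k + 1) / 2`
      have hm1 : 1 ≤ (k + 1) / 2 := by omega
      have hm2 : (k + 1) / 2 < k := by omega
      have hm3 : k ≤ 2 * ((k + 1) / 2) := by omega
      have h2 : (z ^ ((k + 1) / 2)) ^ 2
          = algebraMap O F π * (c * z ^ (2 * ((k + 1) / 2) - k)) := by
        rw [← pow_mul, mul_comm ((k + 1) / 2) 2]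
        conv_lhs => rw [← Nat.add_sub_cancel' hm3]
        rw [pow_add, h]
        ring
      obtain ⟨c1, hc1, hc1'⟩ := S18A3_reduced_sq' π hπ α g hg hgα hsep
        (Subalgebra.pow_mem _ hz _) (Subalgebra.mul_mem _ hc (Subalgebra.pow_mem _ hz _)) h2
      exact ih _ hm2 hm1 hc1 hc1'

/-- Auxiliary induction for `S18A3_exists_eps`. -/
theorem S18A3_exists_eps_aux (hO : ∀ c : O, algebraMap O F c ∈ P.toValuationSubring)
    (π : O) (hπ : Irreducible π) (hπN : S18A3_IsN P (algebraMap O F π))
    (α : F) (g : O[X]) (hg : g.Monic)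
    (hgα : aeval α g = 0) (hsep : (g.map (IsLocalRing.residue O)).Separable)
    {y : F} (hy : y ∈ Algebra.adjoin O {α}) (hyN : S18A3_IsN P y) (n : ℕ) :
    ∀ μ : O[X], μ.natDegree = n → (∃ i, IsUnit (μ.coeff i)) →
      ∀ j : ℕ, (∃ c ∈ Algebra.adjoin O {α}, aeval y μ * y ^ j = algebraMap O F π * c) →
      ∃ ε ∈ Algebra.adjoin O {α}, ∃ y' ∈ Algebra.adjoin O {α},
        S18A3_IsU P ε ∧ ε * y = algebraMap O F π * y' := by
  have hint : IsIntegral O α := ⟨g, hg, hgα⟩
  induction n using Nat.strong_induction_on with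
  | _ n ih =>
    intro μ hμn hμu j hj
    have hμy : aeval y μ ∈ Algebra.adjoin O {α} :=
      Algebra.adjoin_le (Set.singleton_subset_iff.2 hy)
        (Polynomial.aeval_mem_adjoin_singleton O y)
    have hdivy : aeval y μ.divX ∈ Algebra.adjoin O {α} :=
      Algebra.adjoin_le (Set.singleton_subset_iff.2 hy)
        (Polynomial.aeval_mem_adjoin_singleton O y)
    have hsplit : aeval y μ = aeval y μ.divX * y + algebraMap O F (μ.coeff 0) := by
      conv_lhs => rw [← Polynomial.divX_mul_X_add μ]
      rw [map_add, map_mul, aeval_X, aeval_C]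
    by_cases hu : IsUnit (μ.coeff 0)
    · -- `ε := μ(y)` is a unit of the ring of `P`
      have hεmem : aeval y μ ∈ P.toValuationSubring := S18A3_adjoin_mem P hO α hint hμy
      have hU0 : S18A3_IsU P (algebraMap O F (μ.coeff 0)) := by
        obtain ⟨w, hw⟩ := hu
        refine ⟨hO _, ?_, ?_⟩
        · have h1 : algebraMap O F (μ.coeff 0) * algebraMap O F ((w⁻¹ : Oˣ) : O) = 1 := by
            rw [← map_mul, ← hw, Units.mul_inv, map_one]
          rw [eq_inv_of_mul_eq_one_right h1 |>.symm]
          exact hO _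
        · intro h0
          have h1 : algebraMap O F (μ.coeff 0) * algebraMap O F ((w⁻¹ : Oˣ) : O) = 1 := by
            rw [← map_mul, ← hw, Units.mul_inv, map_one]
          rw [h0, zero_mul] at h1
          exact zero_ne_one h1
      have hεU : S18A3_IsU P (aeval y μ) := by
        rcases S18A3_isU_or_isN P hεmem with h | h
        · exact h
        · exfalso
          have h1 : S18A3_IsN P (aeval y μ.divX * y) :=
            S18A3_isN_mul P (S18A3_adjoin_mem P hO α hint hdivy) hyN
          have h2 : S18A3_IsN P (aeval y μ + -(aeval y μ.divX * y)) :=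
            S18A3_isN_add P h (S18A3_isN_neg P h1)
          have h3 : aeval y μ + -(aeval y μ.divX * y) = algebraMap O F (μ.coeff 0) := by
            rw [hsplit]; ring
          rw [h3] at h2
          exact S18A3_not_isU_of_isN P h2 hU0
      obtain ⟨c, hc, hcj⟩ := hj
      rcases Nat.eq_zero_or_pos j with hj0 | hjpos
      · -- `j = 0`: impossible
        exfalso
        subst hj0
        rw [pow_zero, mul_one] at hcj
        have : S18A3_IsN P (aeval y μ) := by
          rw [hcj, mul_comm]
          exact S18A3_isN_mul P (S18A3_adjoin_mem P hO α hint hc) hπN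
        exact S18A3_not_isU_of_isN P this hεU
      · have h1 : (aeval y μ * y) ^ j
            = algebraMap O F π * (c * aeval y μ ^ (j - 1)) := by
          have : aeval y μ ^ j = aeval y μ * aeval y μ ^ (j - 1) := by
            rw [← pow_succ', Nat.sub_add_cancel hjpos]
          rw [mul_pow, this]
          linear_combination (aeval y μ ^ (j - 1)) * hcj
        obtain ⟨y', hy', hy''⟩ := S18A3_reduced_pow π hπ α g hg hgα hsep j hjpos
          (Subalgebra.mul_mem _ hμy hy)
          (Subalgebra.mul_mem _ hc (Subalgebra.pow_mem _ hμy _)) h1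
        exact ⟨aeval y μ, hμy, y', hy', hεU, hy''⟩
    · -- the constant coefficient is divisible by `π`
      have hπdvd : π ∣ μ.coeff 0 := by
        have : μ.coeff 0 ∈ IsLocalRing.maximalIdeal O := by
          rw [IsLocalRing.mem_maximalIdeal, mem_nonunits_iff]
          exact hu
        rwa [hπ.maximalIdeal_eq, Ideal.mem_span_singleton] at this
      obtain ⟨b, hb⟩ := hπdvd
      obtain ⟨i, hi⟩ := hμu
      have hi0 : i ≠ 0 := by
        rintro rfl
        exact hu hi
      have hnpos : 0 < n := by
        rw [← hμn]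
        by_contra hcon
        rw [not_lt, Nat.le_zero] at hcon
        have : μ.coeff i = 0 := Polynomial.coeff_eq_zero_of_natDegree_lt (by omega)
        rw [this] at hi
        exact not_isUnit_zero hi
      have hdeg : μ.divX.natDegree < n := by
        rw [Polynomial.natDegree_divX_eq_natDegree_tsub_one, hμn]
        omega
      have hunit' : ∃ i', IsUnit (μ.divX.coeff i') := by
        refine ⟨i - 1, ?_⟩
        rw [Polynomial.coeff_divX]
        have : i - 1 + 1 = i := by omega
        rw [this]
        exact hi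
      obtain ⟨c, hc, hcj⟩ := hj
      refine ih _ hdeg μ.divX rfl hunit' (j + 1) ⟨c - algebraMap O F b * y ^ j, ?_, ?_⟩
      · exact Subalgebra.sub_mem _ hc
          (Subalgebra.mul_mem _ (Subalgebra.algebraMap_mem _ b) (Subalgebra.pow_mem _ hy _))
      · have hb' : algebraMap O F (μ.coeff 0) = algebraMap O F π * algebraMap O F b := by
          rw [hb, map_mul]
        rw [hsplit, hb'] at hcj
        rw [pow_succ]
        linear_combination hcj

/-- **Key lemma.** A non-unit `y ∈ O[α]` (at `P`) becomes divisible by `π` in `O[α]` after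
multiplication by an element of `O[α]` which is a unit at `P`. -/
theorem S18A3_exists_eps (hO : ∀ c : O, algebraMap O F c ∈ P.toValuationSubring)
    (π : O) (hπ : Irreducible π) (hπN : S18A3_IsN P (algebraMap O F π))
    (α : F) (g : O[X]) (hg : g.Monic)
    (hgα : aeval α g = 0) (hsep : (g.map (IsLocalRing.residue O)).Separable)
    {y : F} (hy : y ∈ Algebra.adjoin O {α}) (hyN : S18A3_IsN P y) :
    ∃ ε ∈ Algebra.adjoin O {α}, ∃ y' ∈ Algebra.adjoin O {α},
      S18A3_IsU P ε ∧ ε * y = algebraMap O F π * y' := by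
  have hint : IsIntegral O α := ⟨g, hg, hgα⟩
  have hyint : IsIntegral O y := adjoin_le_integralClosure hint hy
  obtain ⟨μ, hμ, hμy⟩ := hyint
  refine S18A3_exists_eps_aux P hO π hπ hπN α g hg hgα hsep hy hyN μ.natDegree μ rfl
    ⟨μ.natDegree, ?_⟩ 0 ⟨0, Subalgebra.zero_mem _, ?_⟩
  · rw [Polynomial.coeff_natDegree, hμ.leadingCoeff]
    exact isUnit_one
  · rw [pow_zero, mul_one, mul_zero]
    exact hμy

/-- **Divisibility of orders on `O[α]`.** -/
theorem S18A3_dvd_ord_adjoin (hO : ∀ c : O, algebraMap O F c ∈ P.toValuationSubring)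
    (π : O) (hπ : Irreducible π) (e : ℕ) (he : 0 < e)
    (hπe : P.ord (algebraMap O F π) = e)
    (α : F) (g : O[X]) (hg : g.Monic)
    (hgα : aeval α g = 0) (hsep : (g.map (IsLocalRing.residue O)).Separable) (n : ℕ) :
    ∀ y ∈ Algebra.adjoin O {α}, y ≠ 0 → P.ord y = n → (e : ℤ) ∣ n := by
  have hint : IsIntegral O α := ⟨g, hg, hgα⟩
  have hπN : S18A3_IsN P (algebraMap O F π) :=
    S18A3_isN_of_ord_pos P (by rw [hπe]; exact_mod_cast he)
  have hπ0 : algebraMap O F π ≠ 0 := by
    intro h0
    rw [h0, Place.ord_zero] at hπe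
    have : (e : ℤ) = 0 := hπe.symm
    omega
  induction n using Nat.strong_induction_on with
  | _ n ih =>
    intro y hy hy0 hyn
    have hyW : y ∈ P.toValuationSubring := S18A3_adjoin_mem P hO α hint hy
    rcases S18A3_isU_or_isN P hyW with hU | hN
    · have := S18A3_ord_of_isU P hU
      rw [hyn] at this
      rw [this]
      exact dvd_zero _
    · obtain ⟨ε, hε, y', hy', hεU, hεy⟩ :=
        S18A3_exists_eps P hO π hπ hπN α g hg hgα hsep hy hN
      have hε0 : ε ≠ 0 := hεU.2.2
      have hy'0 : y' ≠ 0 := by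
        rintro rfl
        rw [mul_zero] at hεy
        rcases mul_eq_zero.1 hεy with h | h
        · exact hε0 h
        · exact hy0 h
      have h1 : P.ord (ε * y) = n := by
        rw [P.ord_mul hε0 hy0, S18A3_ord_of_isU P hεU, zero_add, hyn]
      have h2 : P.ord (algebraMap O F π * y') = e + P.ord y' := by
        rw [P.ord_mul hπ0 hy'0, hπe]
      rw [hεy, h2] at h1
      have h3 : 0 ≤ P.ord y' := ord_nonneg_of_mem P (S18A3_adjoin_mem P hO α hint hy')
      obtain ⟨m, hm⟩ := Int.eq_ofNat_of_zero_le h3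
      have hmn : m < n := by omega
      have h4 := ih m hmn y' hy' hy'0 hm
      have h5 : (n : ℤ) = e + m := by omega
      rw [h5]
      exact dvd_add (dvd_refl _) h4

/-- Divisibility of orders on the fraction field of `O[α]`. -/
theorem S18A3_dvd_ord_of_mul_mem (hO : ∀ c : O, algebraMap O F c ∈ P.toValuationSubring)
    (π : O) (hπ : Irreducible π) (e : ℕ) (he : 0 < e)
    (hπe : P.ord (algebraMap O F π) = e)
    (α : F) (g : O[X]) (hg : g.Monic)
    (hgα : aeval α g = 0) (hsep : (g.map (IsLocalRing.residue O)).Separable)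
    {z : F} {s : O} (hs : s ≠ 0) (hzs : z * algebraMap O F s ∈ Algebra.adjoin O {α}) :
    (e : ℤ) ∣ P.ord z := by
  have hint : IsIntegral O α := ⟨g, hg, hgα⟩
  rcases eq_or_ne z 0 with rfl | hz0
  · simp
  have hs0 : algebraMap O F s ≠ 0 := by
    intro h0
    apply hs
    have hinj : Function.Injective (algebraMap O F) :=
      Module.isTorsionFree_iff_algebraMap_injective.1 inferInstance
    exact hinj (h0.trans (map_zero _).symm)
  have hsC : algebraMap O F s ∈ Algebra.adjoin O {α} := Subalgebra.algebraMap_mem _ s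
  have h1 : 0 ≤ P.ord (algebraMap O F s) := ord_nonneg_of_mem P (hO s)
  obtain ⟨m1, hm1⟩ := Int.eq_ofNat_of_zero_le h1
  have h2 : 0 ≤ P.ord (z * algebraMap O F s) :=
    ord_nonneg_of_mem P (S18A3_adjoin_mem P hO α hint hzs)
  obtain ⟨m2, hm2⟩ := Int.eq_ofNat_of_zero_le h2
  have d1 := S18A3_dvd_ord_adjoin P hO π hπ e he hπe α g hg hgα hsep m1 _ hsC hs0 hm1
  have d2 := S18A3_dvd_ord_adjoin P hO π hπ e he hπe α g hg hgα hsep m2 _ hzs
    (mul_ne_zero hz0 hs0) hm2
  have h3 : P.ord z = m2 - m1 := by
    rw [P.ord_mul hz0 hs0] at hm2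
    omega
  rw [h3]
  exact dvd_sub d2 d1

end Step

/-! ### Generation: every element of `F = K · ι(F1)` lies in `ι(F1)[a]` for one constant `a` -/

section Gen

open IntermediateField

variable {K1 K F1 F : Type*} [Field K1] [Field K] [Field F1] [Field F]
  [Algebra K1 F1] [Algebra K F]

/-- Primitive elements: two constants are polynomials in a third one. -/
theorem S18A3_exists_primitive [CharZero K] (σ : K1 →+* K) (hσ : σ.IsIntegral) (a1 a2 : K) :
    ∃ (γ : K) (r1 r2 : K1[X]), a1 = eval₂ σ γ r1 ∧ a2 = eval₂ σ γ r2 := by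
  letI : Algebra K1 K := σ.toAlgebra
  haveI : CharZero K1 := σ.charZero
  haveI : Algebra.IsIntegral K1 K := ⟨hσ⟩
  let E : IntermediateField K1 K := IntermediateField.adjoin K1 ({a1, a2} : Set K)
  haveI : FiniteDimensional K1 E :=
    IntermediateField.finiteDimensional_adjoin (fun x _ => Algebra.IsIntegral.isIntegral x)
  obtain ⟨γ, hγ⟩ := Field.exists_primitive_element K1 E
  have hγint : IsAlgebraic K1 γ := Algebra.IsAlgebraic.isAlgebraic γ
  have key : ∀ a : K, a ∈ E → ∃ r : K1[X], a = eval₂ σ (γ : K) r := by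
    intro a ha
    have h1 : (⟨a, ha⟩ : E) ∈ K1⟮γ⟯ := by rw [hγ]; trivial
    rw [← IntermediateField.mem_toSubalgebra,
      IntermediateField.adjoin_simple_toSubalgebra_of_isAlgebraic hγint,
      Algebra.adjoin_singleton_eq_range_aeval] at h1
    obtain ⟨r, hr⟩ := h1
    refine ⟨r, ?_⟩
    have h2 := congrArg (fun x : E => (x : K)) hr
    simp only at h2
    rw [← h2]
    show ((aeval γ r : E) : K) = aeval (γ : K) r
    exact (Polynomial.aeval_algebraMap_apply K γ r).symm ▸ rfl
  obtain ⟨r1, hr1⟩ := key a1 (IntermediateField.subset_adjoin K1 _ (by simp))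
  obtain ⟨r2, hr2⟩ := key a2 (IntermediateField.subset_adjoin K1 _ (by simp))
  exact ⟨γ, r1, r2, hr1, hr2⟩

/-- Change of the constant. -/
theorem S18A3_eval₂_change (σ : K1 →+* K) (ι : F1 →+* F)
    (hι : ∀ a : K1, ι (algebraMap K1 F1 a) = algebraMap K F (σ a)) (γ : K) (r : K1[X])
    (q : F1[X]) :
    eval₂ ι (algebraMap K F (eval₂ σ γ r)) q
      = eval₂ ι (algebraMap K F γ) (q.comp (r.map (algebraMap K1 F1))) := by
  rw [Polynomial.eval₂_comp, Polynomial.eval₂_map, Polynomial.hom_eval₂]
  have : (algebraMap K F).comp σ = ι.comp (algebraMap K1 F1) := by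
    ext a
    exact (hι a).symm
  rw [this]

/-- Every element of `F = K · ι(F1)` is a polynomial in one constant with coefficients in
`ι(F1)`. -/
theorem S18A3_exists_eval₂ [CharZero K] (σ : K1 →+* K) (hσ : σ.IsIntegral) (ι : F1 →+* F)
    (hι : ∀ a : K1, ι (algebraMap K1 F1 a) = algebraMap K F (σ a))
    (hgen : Subfield.closure (Set.range (algebraMap K F) ∪ Set.range ι) = ⊤) (z : F) :
    ∃ (a : K) (q : F1[X]), z = eval₂ ι (algebraMap K F a) q := by
  -- the subfield of all such elements
  have hadd : ∀ z1 z2 : F, (∃ (a : K) (q : F1[X]), z1 = eval₂ ι (algebraMap K F a) q) →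
      (∃ (a : K) (q : F1[X]), z2 = eval₂ ι (algebraMap K F a) q) →
      ∃ (a : K) (q1 q2 : F1[X]), z1 = eval₂ ι (algebraMap K F a) q1 ∧
        z2 = eval₂ ι (algebraMap K F a) q2 := by
    rintro z1 z2 ⟨a1, q1, rfl⟩ ⟨a2, q2, rfl⟩
    obtain ⟨γ, r1, r2, rfl, rfl⟩ := S18A3_exists_primitive σ hσ a1 a2
    exact ⟨γ, _, _, S18A3_eval₂_change σ ι hι γ r1 q1, S18A3_eval₂_change σ ι hι γ r2 q2⟩
  let G : Subfield F :=
    { carrier := {z | ∃ (a : K) (q : F1[X]), z = eval₂ ι (algebraMap K F a) q}
      mul_mem' := by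
        intro z1 z2 h1 h2
        obtain ⟨a, q1, q2, rfl, rfl⟩ := hadd z1 z2 h1 h2
        exact ⟨a, q1 * q2, (Polynomial.eval₂_mul _ _).symm⟩
      one_mem' := ⟨0, 1, (Polynomial.eval₂_one _ _).symm⟩
      add_mem' := by
        intro z1 z2 h1 h2
        obtain ⟨a, q1, q2, rfl, rfl⟩ := hadd z1 z2 h1 h2
        exact ⟨a, q1 + q2, (Polynomial.eval₂_add _ _).symm⟩
      zero_mem' := ⟨0, 0, (Polynomial.eval₂_zero _ _).symm⟩
      neg_mem' := by
        rintro z ⟨a, q, rfl⟩
        exact ⟨a, -q, (Polynomial.eval₂_neg _).symm⟩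
      inv_mem' := by
        rintro z ⟨a, q, rfl⟩
        letI : Algebra F1 F := ι.toAlgebra
        have halg : IsAlgebraic F1 (algebraMap K F a) := by
          obtain ⟨m, hm, hma⟩ := hσ a
          refine ⟨m.map (algebraMap K1 F1), (Polynomial.map_ne_zero hm.ne_zero), ?_⟩
          rw [Polynomial.aeval_def, Polynomial.eval₂_map]
          have : (algebraMap F1 F).comp (algebraMap K1 F1) = (algebraMap K F).comp σ := by
            ext c
            exact hι c
          rw [this, ← Polynomial.hom_eval₂, hma, map_zero]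
        have h1 : eval₂ ι (algebraMap K F a) q ∈ F1⟮algebraMap K F a⟯ := by
          rw [← IntermediateField.mem_toSubalgebra,
            IntermediateField.adjoin_simple_toSubalgebra_of_isAlgebraic halg,
            Algebra.adjoin_singleton_eq_range_aeval]
          exact ⟨q, rfl⟩
        have h2 := F1⟮algebraMap K F a⟯.inv_mem h1
        rw [← IntermediateField.mem_toSubalgebra,
          IntermediateField.adjoin_simple_toSubalgebra_of_isAlgebraic halg,
          Algebra.adjoin_singleton_eq_range_aeval] at h2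
        obtain ⟨q', hq'⟩ := h2
        exact ⟨a, q', hq'.symm⟩ }
  have hle : Subfield.closure (Set.range (algebraMap K F) ∪ Set.range ι) ≤ G := by
    rw [Subfield.closure_le]
    rintro z (⟨a, rfl⟩ | ⟨c, rfl⟩)
    · exact ⟨a, X, (Polynomial.eval₂_X _ _).symm⟩
    · exact ⟨0, C c, (Polynomial.eval₂_C _ _).symm⟩
  have : z ∈ G := hle (by rw [hgen]; trivial)
  exact this

end Gen

/-! ### The main theorems -/

section Main

open IntermediateField

variable {K1 K F1 F : Type*} [Field K1] [Field K] [Field F1] [Field F]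
  [Algebra K1 F1] [Algebra K F]

/-- **Constant field extensions are unramified.** If the place `P` of `F/K` lies over the
place `P1` of `F1/K1` with ramification index `e`, `K` is integral over `K1`, the
characteristic is `0` and `F = K · ι(F1)`, then `e = 1`. -/
theorem S18A3_ramification_eq_one [CharZero K] (σ : K1 →+* K) (hσ : σ.IsIntegral)
    (ι : F1 →+* F) (hι : ∀ a : K1, ι (algebraMap K1 F1 a) = algebraMap K F (σ a))
    (hgen : Subfield.closure (Set.range (algebraMap K F) ∪ Set.range ι) = ⊤)
    (P1 : Place K1 F1) (P : Place K F) (e : ℕ) (he : 0 < e)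
    (hle : ∀ y : F1, y ∈ P1.toValuationSubring → ι y ∈ P.toValuationSubring)
    (hord : ∀ x : F1, P.ord (ι x) = e * P1.ord x) : e = 1 := by
  letI : Algebra P1.toValuationSubring F := (ι.comp P1.toValuationSubring.subtype).toAlgebra
  have halg : ∀ c : P1.toValuationSubring,
      algebraMap P1.toValuationSubring F c = ι (c : F1) := fun _ => rfl
  haveI : Module.IsTorsionFree P1.toValuationSubring F := by
    rw [Module.isTorsionFree_iff_algebraMap_injective]
    intro c d hcd
    rw [halg, halg] at hcd
    exact Subtype.ext (ι.injective hcd)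
  obtain ⟨π, hπ⟩ := IsDiscreteValuationRing.exists_irreducible P1.toValuationSubring
  have hO : ∀ c : P1.toValuationSubring,
      algebraMap P1.toValuationSubring F c ∈ P.toValuationSubring := fun c => by
    rw [halg]
    exact hle _ c.2
  have hπe : P.ord (algebraMap P1.toValuationSubring F π) = e := by
    rw [halg, hord, P1.ord_coe_irreducible hπ, mul_one]
  -- a uniformiser of `P`
  obtain ⟨τ, hτ⟩ := IsDiscreteValuationRing.exists_irreducible P.toValuationSubring
  have hτ1 : P.ord (τ : F) = 1 := P.ord_coe_irreducible hτ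
  obtain ⟨a, q, hq⟩ := S18A3_exists_eval₂ σ hσ ι hι hgen (τ : F)
  -- clear denominators
  obtain ⟨b, hbM, hb⟩ := IsLocalization.integerNormalization_spec
    (nonZeroDivisors P1.toValuationSubring) q
  have hb0 : b ≠ 0 := nonZeroDivisors.ne_zero hbM
  -- the minimal polynomial of `a` over `K1`
  letI : Algebra K1 K := σ.toAlgebra
  haveI : CharZero K1 := σ.charZero
  have haint : IsIntegral K1 a := hσ a
  let g : (P1.toValuationSubring)[X] :=
    (minpoly K1 a).map (algebraMap K1 P1.toValuationSubring)
  have hg : g.Monic := (minpoly.monic haint).map _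
  have hcomp : (algebraMap P1.toValuationSubring F).comp
      (algebraMap K1 P1.toValuationSubring) = (algebraMap K F).comp (algebraMap K1 K) := by
    ext c
    show ι (algebraMap K1 F1 c) = algebraMap K F (σ c)
    exact hι c
  have hgα : aeval (algebraMap K F a) g = 0 := by
    show aeval (algebraMap K F a) ((minpoly K1 a).map (algebraMap K1 P1.toValuationSubring)) = 0
    rw [Polynomial.aeval_def, Polynomial.eval₂_map, hcomp, ← Polynomial.hom_eval₂,
      ← Polynomial.aeval_def, minpoly.aeval, map_zero]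
  have hsep : (g.map (IsLocalRing.residue P1.toValuationSubring)).Separable := by
    show (((minpoly K1 a).map (algebraMap K1 P1.toValuationSubring)).map
      (IsLocalRing.residue P1.toValuationSubring)).Separable
    rw [Polynomial.map_map]
    exact Polynomial.Separable.map (minpoly.irreducible haint).separable
  have hmem : (τ : F) * algebraMap P1.toValuationSubring F b
      ∈ Algebra.adjoin P1.toValuationSubring {algebraMap K F a} := by
    rw [Algebra.adjoin_singleton_eq_range_aeval]
    refine ⟨IsLocalization.integerNormalization (nonZeroDivisors P1.toValuationSubring) q, ?_⟩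
    show aeval (algebraMap K F a)
      (IsLocalization.integerNormalization (nonZeroDivisors P1.toValuationSubring) q) = _
    have h1 : aeval (algebraMap K F a)
        (IsLocalization.integerNormalization (nonZeroDivisors P1.toValuationSubring) q)
        = eval₂ ι (algebraMap K F a)
          ((IsLocalization.integerNormalization (nonZeroDivisors P1.toValuationSubring) q).map
            (algebraMap P1.toValuationSubring F1)) := by
      rw [Polynomial.aeval_def, Polynomial.eval₂_map]
      rfl
    rw [h1, hb, Algebra.smul_def, Polynomial.eval₂_mul, ← hq]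
    rw [Polynomial.algebraMap_apply, Polynomial.eval₂_C, halg, mul_comm]
    rfl
  have hdvd := S18A3_dvd_ord_of_mul_mem P hO π hπ e he hπe (algebraMap K F a) g hg hgα hsep
    hb0 hmem
  rw [hτ1] at hdvd
  have h1 : (e : ℤ) = 1 := by
    have h2 : (0 : ℤ) ≤ e := by positivity
    exact Int.eq_one_of_dvd_one h2 hdvd
  exact_mod_cast h1

/-- **Extension of places, unramified form.** -/
theorem S18A3_exists_place_extension_unramified [CharZero K]
    (σ : K1 →+* K) (hσ : σ.IsIntegral)
    (ι : F1 →+* F) (hι : ∀ a : K1, ι (algebraMap K1 F1 a) = algebraMap K F (σ a))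
    (hgen : Subfield.closure (Set.range (algebraMap K F) ∪ Set.range ι) = ⊤)
    (j : F) (hj : Transcendental K j) [FiniteDimensional K⟮j⟯ F]
    (P1 : Place K1 F1) :
    ∃ P : Place K F,
      (∀ y : F1, y ∈ P1.toValuationSubring → ι y ∈ P.toValuationSubring) ∧
      ∀ x : F1, P.ord (ι x) = P1.ord x := by
  obtain ⟨P, e, he, hle, hord⟩ := S18A3_exists_place_extension σ hσ ι hι j hj P1
  have he1 := S18A3_ramification_eq_one σ hσ ι hι hgen P1 P e he hle hord
  refine ⟨P, hle, fun x => ?_⟩
  rw [hord, he1]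
  simp

/-- **Descent of divisibility of orders, without any uniformiser hypothesis.** -/
theorem S18A3_dvd_ord_descent_unramified [CharZero K]
    (σ : K1 →+* K) (hσ : σ.IsIntegral)
    (ι : F1 →+* F) (hι : ∀ a : K1, ι (algebraMap K1 F1 a) = algebraMap K F (σ a))
    (hgen : Subfield.closure (Set.range (algebraMap K F) ∪ Set.range ι) = ⊤)
    (j : F) (hj : Transcendental K j) [FiniteDimensional K⟮j⟯ F]
    (p : ℕ) (f : F1) (hdiv : ∀ P : Place K F, (p : ℤ) ∣ P.ord (ι f))
    (P1 : Place K1 F1) : (p : ℤ) ∣ P1.ord f := by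
  obtain ⟨P, -, hord⟩ := S18A3_exists_place_extension_unramified σ hσ ι hι hgen j hj P1
  have := hdiv P
  rwa [hord] at this

/-- The generation hypothesis in `IntermediateField` form. -/
theorem S18A3_hgen_of_adjoin (ι : F1 →+* F)
    (h : IntermediateField.adjoin K (Set.range ι) = ⊤) :
    Subfield.closure (Set.range (algebraMap K F) ∪ Set.range ι) = ⊤ := by
  have h1 : (IntermediateField.adjoin K (Set.range ι)).toSubfield = ⊤ := by
    rw [h]
    rfl
  rw [← h1]
  rfl

end Main

end Fermat.Agent.S18_helper19_PLACEUNR
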