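import Mathlib
import Fermat.Prelude.Def_ModularCurve_ReductionModL
import Fermat.Agent.S24_helper23_GEN
import Fermat.Agent.S24_helper28_DEGle
import Fermat.Agent.S18_helper25_GLUE
import Fermat.Agent.S18_helper19_PLACEUNR

/-!
# S18, piece X-A3-PLACEMOD: places of the modular function fields over `K1` and over `ℚ̄`

Instantiation of `S18_helper19_PLACEUNR` at `F1 = modularFunctionFieldFullC K1 N` and
`F = modularFunctionFieldBar N`, for any field `K1` with an embedding `φ : K1 →+* ℚ̄`.
-/

set_option autoImplicit false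
set_option linter.unusedSectionVars false
set_option linter.style.haveILetI false

open AlgebraicCurve ModularCurve HahnSeries IntermediateField

namespace Fermat.Agent.S18_helper19_PLACEMOD

open Fermat.Agent.S24 Fermat.Agent.S18_helper25_GLUE Fermat.Agent.S18_helper19_PLACEUNR

variable (N : ℕ) [NeZero N] {K1 : Type*} [Field K1]

/-- The canonical map `K1(j(q^d)) → ℚ̄(j(q^d))` induced by `φ : K1 →+* ℚ̄` on coefficients. -/
noncomputable def S18A3C_inc (φ : K1 →+* Kbar) :
    modularFunctionFieldFullC K1 N →+* modularFunctionFieldBar N :=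
  ((coeffMap φ).comp (algebraMap (modularFunctionFieldFullC K1 N) (LaurentSeries K1))).codRestrict
    (modularFunctionFieldBar N)
    (fun x => by
      rw [S18G_bar_eq]
      exact S18G_coeffMap_mem φ N x.2)

theorem S18A3C_inc_coe (φ : K1 →+* Kbar) (x : modularFunctionFieldFullC K1 N) :
    ((S18A3C_inc N φ x : modularFunctionFieldBar N) : LaurentSeries Kbar)
      = coeffMap φ (x : LaurentSeries K1) := rfl

/-- `ℚ̄` is integral over `K1` via any `φ : K1 →+* ℚ̄`. -/
theorem S18A3C_isIntegral (φ : K1 →+* Kbar) : φ.IsIntegral := by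
  intro a
  haveI : CharZero K1 := φ.charZero
  have ha : IsIntegral ℚ a := (AlgebraicClosure.isAlgebraic ℚ).isIntegral.isIntegral a
  obtain ⟨m, hm, hma⟩ := ha
  refine ⟨m.map (algebraMap ℚ K1), hm.map _, ?_⟩
  rw [Polynomial.eval₂_map]
  have : φ.comp (algebraMap ℚ K1) = algebraMap ℚ Kbar := Subsingleton.elim _ _
  rw [this]
  exact hma

section

variable (φ : K1 →+* Kbar)
  (ι : modularFunctionFieldFullC K1 N →+* modularFunctionFieldBar N)
  (hι : ∀ x, ((ι x : modularFunctionFieldBar N) : LaurentSeries Kbar)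
    = coeffMap φ (x : LaurentSeries K1))

include hι

theorem S18A3C_const (a : K1) :
    ι (algebraMap K1 (modularFunctionFieldFullC K1 N) a)
      = algebraMap Kbar (modularFunctionFieldBar N) (φ a) := by
  apply Subtype.ext
  rw [hι]
  exact S18G_coeffMap_algebraMap φ a

theorem S18A3C_mem_adjoin :
    ∀ x ∈ modularFunctionFieldFullC Kbar N, ∀ hx : x ∈ modularFunctionFieldBar N,
      (⟨x, hx⟩ : modularFunctionFieldBar N) ∈ IntermediateField.adjoin Kbar (Set.range ι) := by
  intro x hx
  unfold modularFunctionFieldFullC at hx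
  induction hx using IntermediateField.adjoin_induction with
  | mem y hy =>
    intro hy'
    obtain ⟨d, hd0, hd, rfl⟩ := hy
    apply IntermediateField.subset_adjoin
    refine ⟨⟨qExpand K1 d (jqModC K1), jqModCd_mem_full K1 N hd⟩, ?_⟩
    apply Subtype.ext
    rw [hι]
    exact S18G_coeffMap_gen φ d
  | algebraMap c =>
    intro hc'
    have : (⟨algebraMap Kbar (LaurentSeries Kbar) c, hc'⟩ : modularFunctionFieldBar N)
        = algebraMap Kbar (modularFunctionFieldBar N) c := rfl
    rw [this]
    exact IntermediateField.algebraMap_mem _ _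
  | add x y hx hy h1 h2 =>
    intro hxy
    have hx' : x ∈ modularFunctionFieldBar N := by
      rw [S18G_bar_eq]; exact hx
    have hy' : y ∈ modularFunctionFieldBar N := by
      rw [S18G_bar_eq]; exact hy
    have : (⟨x + y, hxy⟩ : modularFunctionFieldBar N) = ⟨x, hx'⟩ + ⟨y, hy'⟩ := rfl
    rw [this]
    exact add_mem (h1 hx') (h2 hy')
  | inv x hx h =>
    intro hxi
    have hx' : x ∈ modularFunctionFieldBar N := by
      rw [S18G_bar_eq]; exact hx
    have : (⟨x⁻¹, hxi⟩ : modularFunctionFieldBar N) = (⟨x, hx'⟩)⁻¹ := rfl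
    rw [this]
    exact inv_mem (h hx')
  | mul x y hx hy h1 h2 =>
    intro hxy
    have hx' : x ∈ modularFunctionFieldBar N := by
      rw [S18G_bar_eq]; exact hx
    have hy' : y ∈ modularFunctionFieldBar N := by
      rw [S18G_bar_eq]; exact hy
    have : (⟨x * y, hxy⟩ : modularFunctionFieldBar N) = ⟨x, hx'⟩ * ⟨y, hy'⟩ := rfl
    rw [this]
    exact mul_mem (h1 hx') (h2 hy')

/-- `ℚ̄(j(q^d))` is generated by `ℚ̄` and the image of `K1(j(q^d))`. -/
theorem S18A3C_hgen :
    Subfield.closure (Set.range (algebraMap Kbar (modularFunctionFieldBar N)) ∪ Set.range ι)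
      = ⊤ := by
  apply S18A3_hgen_of_adjoin
  rw [eq_top_iff]
  rintro ⟨x, hx⟩ -
  exact S18A3C_mem_adjoin N φ ι hι x (by rw [← S18G_bar_eq]; exact hx) hx

/-- **Extension of places** from `K1(j(q^d))` to `ℚ̄(j(q^d))`, preserving orders. -/
theorem S18A3C_exists_place_extension
    (P1 : Place K1 (modularFunctionFieldFullC K1 N)) :
    ∃ P : Place Kbar (modularFunctionFieldBar N),
      (∀ y : modularFunctionFieldFullC K1 N, y ∈ P1.toValuationSubring →
        ι y ∈ P.toValuationSubring) ∧
      ∀ x : modularFunctionFieldFullC K1 N, P.ord (ι x) = P1.ord x := by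
  haveI : FiniteDimensional Kbar⟮jElt N⟯ (modularFunctionFieldBar N) :=
    (Fermat.Agent.S24_helper28_DEGle.DEG_le N).1
  exact S18A3_exists_place_extension_unramified φ (S18A3C_isIntegral φ) ι
    (S18A3C_const N φ ι hι) (S18A3C_hgen N φ ι hι) (jElt N)
    (Fermat.Agent.S24_helper23_GEN.TR N) P1

/-- **Descent of `p`-divisibility of orders** from the places of `ℚ̄(j(q^d))` to the places
of `K1(j(q^d))`. -/
theorem S18A3C_dvd_ord_descent (p : ℕ) (f : modularFunctionFieldFullC K1 N)
    (hdiv : ∀ P : Place Kbar (modularFunctionFieldBar N), (p : ℤ) ∣ P.ord (ι f))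
    (P1 : Place K1 (modularFunctionFieldFullC K1 N)) : (p : ℤ) ∣ P1.ord f := by
  obtain ⟨P, -, hord⟩ := S18A3C_exists_place_extension N φ ι hι P1
  have := hdiv P
  rwa [hord] at this

end

end Fermat.Agent.S18_helper19_PLACEMOD
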