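import Mathlib
import Fermat.Prelude.Def_ModularCurve_ReductionModL
import Fermat.Agent.S18_helper25_COREDefs
import Fermat.Agent.S18_helper19_PLACEMOD

/-!
# S37, block B1: interface definitions for (r2)

* `S37B1_ordP N K1 P x` : the order at the place `P` of `F = ℚ̄(X₀(N))` of (the image in `F` of)
  a Laurent series `x` over `K1` (junk value `0` outside `F1 = K1(X₀(N))`);
* `S37B1_ordQ N Q w`    : the order at the place `Q` of `F_k` of a Laurent series `w` over `k`
  (junk value `0` outside `F_k`);
* `S37B1_Centred N A K1 As P Q` : the place `P` of the generic fibre is *centred at* the place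
  `Q` of the special fibre on the chart `As ⊆ K1((q))`: every `a ∈ As` is regular at `P`, and if
  `a` vanishes at `P` then its Gauss reduction vanishes at `Q`.
-/

set_option autoImplicit false

open AlgebraicCurve ModularCurve HahnSeries IntermediateField

noncomputable section

namespace Fermat.Agent.S37_helper4_B1Defs

open Fermat.Agent.S18_helper25_COREDefs Fermat.Agent.S18_helper19_PLACEMOD
  Fermat.Agent.S18_helper13_GAUSS

/-- order at `P` of a series over `K1` (via `K1((q)) → ℚ̄((q))`) -/
def S37B1_ordP (N : ℕ) [NeZero N] (K1 : IntermediateField ℚ (AlgebraicClosure ℚ))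
    (P : Place (AlgebraicClosure ℚ) (modularFunctionFieldBar N)) (x : LaurentSeries K1) : ℤ :=
  open Classical in
  if h : x ∈ modularFunctionFieldFullC K1 N then
    P.ord (S18A3C_inc N (algebraMap K1 (AlgebraicClosure ℚ)) ⟨x, h⟩)
  else 0

theorem S37B1_ordP_eq (N : ℕ) [NeZero N] (K1 : IntermediateField ℚ (AlgebraicClosure ℚ))
    (P : Place (AlgebraicClosure ℚ) (modularFunctionFieldBar N))
    (x : modularFunctionFieldFullC K1 N) :
    S37B1_ordP N K1 P (x : LaurentSeries K1) =
      P.ord (S18A3C_inc N (algebraMap K1 (AlgebraicClosure ℚ)) x) := by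
  rw [S37B1_ordP, dif_pos x.2]

/-- order at `Q` of a series over `k` -/
def S37B1_ordQ (N : ℕ) {k : Type*} [Field k] (Q : Place k (modularFunctionFieldFullC k N))
    (w : LaurentSeries k) : ℤ :=
  open Classical in
  if h : w ∈ modularFunctionFieldFullC k N then Q.ord ⟨w, h⟩ else 0

theorem S37B1_ordQ_eq (N : ℕ) {k : Type*} [Field k] (Q : Place k (modularFunctionFieldFullC k N))
    (w : modularFunctionFieldFullC k N) :
    S37B1_ordQ N Q (w : LaurentSeries k) = Q.ord w := by
  rw [S37B1_ordQ, dif_pos w.2]

/-- `P` is centred at `Q` on the chart `As`. -/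
def S37B1_Centred (N : ℕ) [NeZero N] (A : ValuationSubring (AlgebraicClosure ℚ))
    (K1 : IntermediateField ℚ (AlgebraicClosure ℚ)) [IsDiscreteValuationRing (S18K_O1 A K1)]
    (As : Subring (LaurentSeries K1))
    (P : Place (AlgebraicClosure ℚ) (modularFunctionFieldBar N))
    (Q : Place (IsLocalRing.ResidueField A)
      (modularFunctionFieldFullC (IsLocalRing.ResidueField A) N)) : Prop :=
  ∀ a ∈ As, a ≠ 0 → 0 ≤ S37B1_ordP N K1 P a ∧
    (0 < S37B1_ordP N K1 P a →
      (S18K_D A K1).redFun a = 0 ∨ 0 < S37B1_ordQ N Q ((S18K_D A K1).redFun a))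

/-- `Q` lies in the chart `As`: the reductions of the elements of `As` are regular at `Q`. -/
def S37B1_InChart (N : ℕ) (A : ValuationSubring (AlgebraicClosure ℚ))
    (K1 : IntermediateField ℚ (AlgebraicClosure ℚ)) [IsDiscreteValuationRing (S18K_O1 A K1)]
    (As : Subring (LaurentSeries K1))
    (Q : Place (IsLocalRing.ResidueField A)
      (modularFunctionFieldFullC (IsLocalRing.ResidueField A) N)) : Prop :=
  ∀ a ∈ As, ∀ h : (S18K_D A K1).redFun a ∈
      modularFunctionFieldFullC (IsLocalRing.ResidueField A) N,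
    (⟨(S18K_D A K1).redFun a, h⟩ :
      modularFunctionFieldFullC (IsLocalRing.ResidueField A) N) ∈ Q.toValuationSubring

/-- **DEF-KEY** (interface between B1-DEF and B1-R2): on the places which are rational at an
admissible level `K1`, the reduction map `r` is characterised by centres, on the chart
`j ≠ ∞` for the `Q` with `j̄` regular at `Q`, on the chart `j ≠ 0` for the others. -/
def S37B1_DefKey (N : ℕ) [NeZero N] (ℓ : ℕ) (A : ValuationSubring (AlgebraicClosure ℚ))
    (Rat : IntermediateField ℚ (AlgebraicClosure ℚ) →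
      Place (AlgebraicClosure ℚ) (modularFunctionFieldBar N) → Prop)
    (r : Place (AlgebraicClosure ℚ) (modularFunctionFieldBar N) →
      Place (IsLocalRing.ResidueField A)
        (modularFunctionFieldFullC (IsLocalRing.ResidueField A) N)) : Prop :=
  ∀ (K1 : IntermediateField ℚ (AlgebraicClosure ℚ)) (h : S18K_Admissible A K1 ℓ)
    (P : Place (AlgebraicClosure ℚ) (modularFunctionFieldBar N)), Rat K1 P →
    ∀ Q : Place (IsLocalRing.ResidueField A)
      (modularFunctionFieldFullC (IsLocalRing.ResidueField A) N),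
    letI := h.dvr
    ((0 ≤ S37B1_ordQ N Q (jqModC (IsLocalRing.ResidueField A)) →
        (r P = Q ↔ S37B1_Centred N A K1 (S18K_A0 A K1 N) P Q)) ∧
      (¬ 0 ≤ S37B1_ordQ N Q (jqModC (IsLocalRing.ResidueField A)) →
        (r P = Q ↔ S37B1_Centred N A K1 (S18K_Ainf A K1 N) P Q)))

end Fermat.Agent.S37_helper4_B1Defs
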