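import Mathlib
import Fermat.Prelude.Def_FLTPrelim_Ramification
import Fermat.Agent.S18_helper5_BASE
import Fermat.Agent.S18_helper25_COREDefs

/-!
# S18, X-A1: the base discrete valuation ring is admissible for the concrete carriers

`S18K_Admissible A K1 ℓ` (helper25's `COREDefs`) for `K1 := S18A1_K1 ℓ S`.
-/

set_option autoImplicit false

namespace Fermat.Agent.S18_helper5_BASE

open Fermat.Agent.S18_helper25_COREDefs

local notation "Qb" => AlgebraicClosure ℚ

theorem S18A1_O1_eq_S18K_O1 (A : ValuationSubring Qb) (ℓ : ℕ) (S : Finset Qb) :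
    S18A1_O1 A ℓ S = S18K_O1 A (S18A1_K1 ℓ S) := rfl

theorem S18A1_res_eq_S18K_res (A : ValuationSubring Qb) (ℓ : ℕ) (S : Finset Qb) :
    S18A1_res A ℓ S = S18K_res A (S18A1_K1 ℓ S) := rfl

/-- `K1 = ℚ(S, roots of unity of order prime to ℓ)` is admissible for `(A, ℓ)`. -/
theorem S18A1_admissible {ℓ : ℕ} (hℓ : ℓ.Prime) (A : ValuationSubring Qb)
    (hA : A.LiesOverPrime ℓ) (S : Finset Qb) :
    S18K_Admissible A (S18A1_K1 ℓ S) ℓ where
  dvr := S18A1_isDVR A hℓ hA S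
  roots := fun _ hn _ hζ => S18A1_root_mem_K1 ℓ S hn hζ
  res_surj := S18A1_res_surjective A hℓ hA S

/-- **X-A1 in the shape requested by the core glue.** -/
theorem exists_admissible {ℓ : ℕ} (hℓ : ℓ.Prime) (A : ValuationSubring Qb)
    (hA : A.LiesOverPrime ℓ) (S : Finset Qb) :
    ∃ K1 : IntermediateField ℚ Qb, (∀ s ∈ S, s ∈ K1) ∧ S18K_Admissible A K1 ℓ :=
  ⟨S18A1_K1 ℓ S, fun _ hs => S18A1_mem_K1_of_mem ℓ S hs, S18A1_admissible hℓ A hA S⟩

end Fermat.Agent.S18_helper5_BASE
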