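import Mathlib
import Fermat.Prelude.Def_ModularCurve_ReductionModL
import Fermat.Agent.S18_helper5_BASE3
import Fermat.Agent.S18_helper25_GLUE
import Fermat.Agent.S18_helper26_PLACE
import Fermat.Agent.S37_helper21_B2
import Fermat.Agent.S24_helper15_A1
import Fermat.Agent.S18_helper19_PLACEUNR

/-!
# S37, brick B1-LEVEL: choice of the level `K1` making finitely many places rational
-/

set_option autoImplicit false
set_option linter.style.haveILetI false
set_option linter.unusedSectionVars false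

open AlgebraicCurve IntermediateField ModularCurve HahnSeries

noncomputable section

namespace Fermat.Agent.S37_helper5_LEVEL

open Fermat.Agent.S24 Fermat.Agent.S18_helper25_COREDefs Fermat.Agent.S18_helper5_BASE

local notation "Qb" => AlgebraicClosure ℚ

/-! ### Degree of an effective divisor -/

section Degree

variable {K F : Type*} [Field K] [Field F] [Algebra K F]

theorem S37LEVEL_degree_eq_sum (hdeg : ∀ v : Place K F, v.deg = 1) (D : Divisor K F) :
    Divisor.degree D = ∑ v ∈ D.support, D v := by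
  unfold Divisor.degree
  rw [Finsupp.liftAddHom_apply, Finsupp.sum]
  refine Finset.sum_congr rfl fun v _ => ?_
  simp [hdeg v]

theorem S37LEVEL_one_le_degree (hdeg : ∀ v : Place K F, v.deg = 1) (D : Divisor K F)
    (h0 : ∀ v, 0 ≤ D v) (P₀ : Place K F) (h1 : 1 ≤ D P₀) : 1 ≤ Divisor.degree D := by
  rw [S37LEVEL_degree_eq_sum hdeg]
  have hmem : P₀ ∈ D.support := by
    rw [Finsupp.mem_support_iff]
    omega
  calc (1 : ℤ) ≤ D P₀ := h1
    _ ≤ ∑ v ∈ D.support, D v :=
      Finset.single_le_sum (f := fun v => D v) (fun v _ => h0 v) hmem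

end Degree

/-! ### A function with a single pole -/

section Pole

variable (N : ℕ) [NeZero N]

/-- There are at least two places. -/
theorem S37LEVEL_exists_ne (P : Place Qb (modularFunctionFieldBar N)) :
    ∃ P₀ : Place Qb (modularFunctionFieldBar N), P₀ ≠ P := by
  haveI := (Fermat.Agent.S24_helper23_DEG.DEG N).1
  have hTR := Fermat.Agent.S24_helper23_GEN.TR N
  obtain ⟨Pz, hPz⟩ := Fermat.Agent.S18_helper26_PLACE.S18P15_exists_place_ord_pos _ hTR
  haveI := Fermat.Agent.S24_helper6_A2.finiteDimensional_adjoin_inv (K := Kbar) (jElt N)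
  obtain ⟨Pp, hPp⟩ := Fermat.Agent.S18_helper26_PLACE.S18P15_exists_place_ord_pos _
    (Fermat.Agent.S24_helper6_A2.transcendental_inv (jElt N) hTR)
  rw [Place.ord_inv] at hPp
  by_cases h : Pz = P
  · refine ⟨Pp, ?_⟩
    rintro rfl
    rw [h] at hPz
    omega
  · exact ⟨Pz, h⟩

/-- For every place `P` there is a function whose only pole is `P`. -/
theorem S37LEVEL_exists_unique_pole (P : Place Qb (modularFunctionFieldBar N)) :
    ∃ f : modularFunctionFieldBar N, f ≠ 0 ∧ P.ord f < 0 ∧
      ∀ Q : Place Qb (modularFunctionFieldBar N), Q.ord f < 0 → Q = P := by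
  classical
  haveI := Fermat.Agent.S37_helper21_B0c.S37B0_hasPrincipalDivisors N
  have hdeg := Fermat.Agent.S37_helper21_B2.S37B2_deg_eq_one N
  obtain ⟨c, hc⟩ := Fermat.Agent.S37_helper21_B2.S37B2_exists_effective N
  obtain ⟨P₀, hP₀⟩ := S37LEVEL_exists_ne N P
  set D : Divisor Qb (modularFunctionFieldBar N) :=
    Finsupp.single P ((c : ℤ) + 1) - Finsupp.single P₀ 1 with hD
  have hDdeg : (c : ℤ) ≤ Divisor.degree D := by
    rw [hD, map_sub, Divisor.degree_single, Divisor.degree_single, hdeg, hdeg]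
    simp
  obtain ⟨f, hf0, hf⟩ := hc D hDdeg
  have hDP : D P = (c : ℤ) + 1 := by
    rw [hD, Finsupp.sub_apply, Finsupp.single_eq_same, Finsupp.single_eq_of_ne hP₀.symm]
    simp
  have hDP₀ : D P₀ = -1 := by
    rw [hD, Finsupp.sub_apply, Finsupp.single_eq_same, Finsupp.single_eq_of_ne hP₀]
    simp
  have hDQ : ∀ Q, Q ≠ P → Q ≠ P₀ → D Q = 0 := by
    intro Q h1 h2
    rw [hD, Finsupp.sub_apply, Finsupp.single_eq_of_ne h1, Finsupp.single_eq_of_ne h2]
    simp
  have hother : ∀ Q, Q ≠ P → 0 ≤ Q.ord f := by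
    intro Q hQ
    by_cases h2 : Q = P₀
    · have := hf P₀
      rw [hDP₀] at this
      rw [h2]
      omega
    · have := hf Q
      rw [hDQ Q hQ h2] at this
      omega
  refine ⟨f, hf0, ?_, ?_⟩
  · by_contra hcon
    push Not at hcon
    obtain ⟨Df, hDf, hDfdeg⟩ := HasPrincipalDivisors.exists_divisor (K := Qb) f hf0
    have h0 : ∀ v, 0 ≤ Df v := by
      intro v
      rw [hDf]
      by_cases hv : v = P
      · rw [hv]; exact hcon
      · exact hother v hv
    have h1 : 1 ≤ Df P₀ := by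
      rw [hDf]
      have := hf P₀
      rw [hDP₀] at this
      omega
    have := S37LEVEL_one_le_degree hdeg Df h0 P₀ h1
    omega
  · intro Q hQ
    by_contra hne
    have := hother Q hne
    omega

end Pole

/-! ### The Galois action fixes the functions defined over `K1` -/

section Galois

variable (N : ℕ) [NeZero N] (K1 : IntermediateField ℚ Qb)

/-- The semilinear automorphism of `F` attached to `σ ∈ Gal(ℚ̄/K1)`. -/
def S37LEVEL_gal (σ : Qb ≃ₐ[K1] Qb) : SemilinearAut Qb (modularFunctionFieldBar N) :=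
  arithmeticGalois (modularFunctionFieldFull N) (σ.restrictScalars ℚ)

theorem S37LEVEL_coe_gal_smul (σ : Qb ≃ₐ[K1] Qb) (z : modularFunctionFieldBar N) :
    ((S37LEVEL_gal N K1 σ • z : modularFunctionFieldBar N) : LaurentSeries Qb) =
      coeffMap ((σ.restrictScalars ℚ : Qb ≃ₐ[ℚ] Qb) : Qb →+* Qb) (z : LaurentSeries Qb) :=
  rfl

theorem S37LEVEL_coeffMap_fixed (σ : Qb ≃ₐ[K1] Qb) (x : LaurentSeries K1) :
    coeffMap ((σ.restrictScalars ℚ : Qb ≃ₐ[ℚ] Qb) : Qb →+* Qb)
      (coeffMap (algebraMap K1 Qb) x) = coeffMap (algebraMap K1 Qb) x := by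
  rw [coeffMap_coeffMap]
  refine coeffMap_congr (RingHom.ext fun a => ?_) x
  exact σ.commutes a

theorem S37LEVEL_coeffMap_C (τ : Qb →+* Qb) (c : Qb) :
    coeffMap τ (HahnSeries.C c : LaurentSeries Qb) = HahnSeries.C (τ c) := by
  rw [HahnSeries.C_apply, coeffMap_single, HahnSeries.C_apply]

/-- Action on `ι x - c`. -/
theorem S37LEVEL_coe_gal_smul_sub (σ : Qb ≃ₐ[K1] Qb) (x : LaurentSeries K1) (c : Qb)
    (z : modularFunctionFieldBar N)
    (hz : (z : LaurentSeries Qb) = coeffMap (algebraMap K1 Qb) x - HahnSeries.C c) :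
    ((S37LEVEL_gal N K1 σ • z : modularFunctionFieldBar N) : LaurentSeries Qb) =
      coeffMap (algebraMap K1 Qb) x - HahnSeries.C (σ c) := by
  rw [S37LEVEL_coe_gal_smul, hz, map_sub, S37LEVEL_coeffMap_fixed, S37LEVEL_coeffMap_C]
  rfl

/-- Functions defined over `K1` are fixed. -/
theorem S37LEVEL_gal_smul_eq (σ : Qb ≃ₐ[K1] Qb) (x : LaurentSeries K1)
    (z : modularFunctionFieldBar N)
    (hz : (z : LaurentSeries Qb) = coeffMap (algebraMap K1 Qb) x) :
    S37LEVEL_gal N K1 σ • z = z := by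
  apply Subtype.ext
  rw [S37LEVEL_coe_gal_smul, hz, S37LEVEL_coeffMap_fixed]

/-- A place which is the only pole of a function defined over `K1` is fixed by
`Gal(ℚ̄/K1)`. -/
theorem S37LEVEL_gal_smul_place (σ : Qb ≃ₐ[K1] Qb) (P : Place Qb (modularFunctionFieldBar N))
    (f : modularFunctionFieldBar N) (hfP : P.ord f < 0)
    (huniq : ∀ Q : Place Qb (modularFunctionFieldBar N), Q.ord f < 0 → Q = P)
    (w : LaurentSeries K1) (hw : (f : LaurentSeries Qb) = coeffMap (algebraMap K1 Qb) w) :
    S37LEVEL_gal N K1 σ • P = P := by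
  apply huniq
  have h := SemilinearAut.ord_smul (S37LEVEL_gal N K1 σ) P f
  rw [S37LEVEL_gal_smul_eq N K1 σ w f hw] at h
  rw [h]
  exact hfP

end Galois

/-! ### Rationality -/

section Rational

variable (N : ℕ) [NeZero N]

/-- The place `P` of `F / ℚ̄` is `K1`-rational: the value at `P` of every function defined over
`K1` (and regular at `P`) lies in `K1`. -/
def S37LEVEL_IsRational (K1 : IntermediateField ℚ Qb)
    (P : Place Qb (modularFunctionFieldBar N)) : Prop :=
  ∀ (x : LaurentSeries K1), x ∈ modularFunctionFieldFullC K1 N →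
    ∀ (z : modularFunctionFieldBar N) (c : Qb),
      (z : LaurentSeries Qb) = coeffMap (algebraMap K1 Qb) x - HahnSeries.C c →
      (0 < P.ord z ∨ z = 0) → c ∈ K1

/-- An element of `ℚ̄` fixed by `Gal(ℚ̄/K1)` lies in `K1`. -/
theorem S37LEVEL_mem_of_fixed (K1 : IntermediateField ℚ Qb) (c : Qb)
    (h : ∀ σ : Qb ≃ₐ[K1] Qb, σ c = c) : c ∈ K1 := by
  haveI : IsAlgClosure ℚ Qb := ⟨inferInstance, AlgebraicClosure.isAlgebraic ℚ⟩
  haveI : IsGalois ℚ Qb := IsAlgClosure.isGalois ℚ Qb
  haveI : IsGalois K1 Qb := IsGalois.tower_top_of_isGalois ℚ K1 Qb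
  have := (InfiniteGalois.mem_bot_iff_fixed (k := K1) (K := Qb) c).2 h
  obtain ⟨a, ha⟩ := IntermediateField.mem_bot.1 this
  rw [← ha]
  exact a.2

/-- A place fixed by `Gal(ℚ̄/K1)` is `K1`-rational. -/
theorem S37LEVEL_isRational_of_fixed (K1 : IntermediateField ℚ Qb)
    (P : Place Qb (modularFunctionFieldBar N))
    (hfix : ∀ σ : Qb ≃ₐ[K1] Qb, S37LEVEL_gal N K1 σ • P = P) :
    S37LEVEL_IsRational N K1 P := by
  intro x _ z c hz hzP
  apply S37LEVEL_mem_of_fixed K1 c
  intro σ
  set g := S37LEVEL_gal N K1 σ with hg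
  have hz' := S37LEVEL_coe_gal_smul_sub N K1 σ x c z hz
  -- the difference is a constant
  have hdiff : g • z - z = algebraMap Qb (modularFunctionFieldBar N) (c - σ c) := by
    apply Subtype.ext
    have h1 : ((g • z - z : modularFunctionFieldBar N) : LaurentSeries Qb) =
        ((g • z : modularFunctionFieldBar N) : LaurentSeries Qb) - (z : LaurentSeries Qb) := rfl
    rw [h1, hz', hz]
    have h2 : ((algebraMap Qb (modularFunctionFieldBar N) (c - σ c) :
        modularFunctionFieldBar N) : LaurentSeries Qb) =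
        algebraMap Qb (LaurentSeries Qb) (c - σ c) := rfl
    rw [h2, Fermat.Agent.S18_helper26_CONST.S18P15_C_eq_algebraMap]
    simp only [map_sub]
    ring
  by_contra hne
  have hc0 : c - σ c ≠ 0 := fun h => hne (sub_eq_zero.1 h).symm
  have hord0 : P.ord (g • z - z) = 0 := by
    rw [hdiff]
    exact Fermat.Agent.S24_helper6_A2.ord_algebraMap_eq_zero P _
  have hne0 : g • z - z ≠ 0 := by
    rw [hdiff]
    exact (map_ne_zero _).2 hc0
  rcases hzP with hpos | h0
  · have hpos' : 0 < P.ord (g • z) := by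
      have h := SemilinearAut.ord_smul g P z
      rw [hfix σ] at h
      rw [h]
      exact hpos
    have hN1 := Fermat.Agent.S18_helper19_PLACEUNR.S18A3_isN_of_ord_pos P hpos
    have hN2 := Fermat.Agent.S18_helper19_PLACEUNR.S18A3_isN_of_ord_pos P hpos'
    have hN3 := Fermat.Agent.S18_helper19_PLACEUNR.S18A3_isN_add P hN2
      (Fermat.Agent.S18_helper19_PLACEUNR.S18A3_isN_neg P hN1)
    rw [← sub_eq_add_neg] at hN3
    have := Fermat.Agent.S18_helper19_PLACEUNR.S18A3_ord_pos_of_isN P hN3 hne0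
    omega
  · apply hne0
    rw [h0, smul_zero, sub_zero]

/-- **B1-LEVEL.** For every finite set `S ⊆ ℚ̄` and every finite set `Ps` of places of `F / ℚ̄`
there is an admissible level `K1 ⊇ S` over which all places of `Ps` are rational. -/
theorem S37LEVEL_exists {ℓ : ℕ} (hℓ : ℓ.Prime) (A : ValuationSubring Qb)
    (hA : A.LiesOverPrime ℓ) (S : Finset Qb)
    (Ps : Finset (Place Qb (modularFunctionFieldBar N))) :
    ∃ K1 : IntermediateField ℚ Qb, (∀ s ∈ S, s ∈ K1) ∧ S18K_Admissible A K1 ℓ ∧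
      ∀ P ∈ Ps, S37LEVEL_IsRational N K1 P := by
  classical
  -- functions with a single pole, and their fields of definition
  have hex : ∀ P : Place Qb (modularFunctionFieldBar N),
      ∃ (f : modularFunctionFieldBar N) (T : Finset Qb), P.ord f < 0 ∧
        (∀ Q : Place Qb (modularFunctionFieldBar N), Q.ord f < 0 → Q = P) ∧
        ∀ K1 : IntermediateField ℚ Qb, (∀ s ∈ T, s ∈ K1) →
          ∃ w ∈ modularFunctionFieldFullC K1 N,
            coeffMap (algebraMap K1 Qb) w = (f : LaurentSeries Qb) := by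
    intro P
    obtain ⟨f, -, hfP, huniq⟩ := S37LEVEL_exists_unique_pole N P
    have hfmem : (f : LaurentSeries Qb) ∈ modularFunctionFieldFullC Qb N := by
      rw [← Fermat.Agent.S18_helper25_GLUE.S18G_bar_eq N]
      exact f.2
    obtain ⟨T, hT⟩ := Fermat.Agent.S18_helper25_GLUE.S18G_exists_finset (k₀ := ℚ) N hfmem
    exact ⟨f, T, hfP, huniq, hT⟩
  choose f T hfP huniq hT using hex
  obtain ⟨K1, hK1S, hadm⟩ := exists_admissible hℓ A hA (S ∪ Ps.biUnion T)
  refine ⟨K1, fun s hs => hK1S s (Finset.mem_union_left _ hs), hadm, ?_⟩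
  intro P hP
  apply S37LEVEL_isRational_of_fixed N K1 P
  intro σ
  obtain ⟨w, -, hw⟩ := hT P K1 (fun s hs => hK1S s
    (Finset.mem_union_right _ (Finset.mem_biUnion.2 ⟨P, hP, hs⟩)))
  exact S37LEVEL_gal_smul_place N K1 σ P (f P) (hfP P) (huniq P) w hw.symm

/-- Existence form of rationality: a function defined over `K1` and regular at a rational
place `P` is congruent modulo `P` to a constant of `K1`. -/
theorem S37LEVEL_exists_const {K1 : IntermediateField ℚ Qb}
    {P : Place Qb (modularFunctionFieldBar N)} (hP : S37LEVEL_IsRational N K1 P)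
    (x : LaurentSeries K1) (hx : x ∈ modularFunctionFieldFullC K1 N)
    (z : modularFunctionFieldBar N)
    (hz : (z : LaurentSeries Qb) = coeffMap (algebraMap K1 Qb) x)
    (hzP : z ∈ P.toValuationSubring) :
    ∃ c : K1, 0 < P.ord (z - algebraMap Qb (modularFunctionFieldBar N) (c : Qb)) ∨
      z = algebraMap Qb (modularFunctionFieldBar N) (c : Qb) := by
  haveI := (Fermat.Agent.S24_helper23_DEG.DEG N).1
  have halg : Algebra.IsAlgebraic Qb⟮jElt N⟯ (modularFunctionFieldBar N) :=
    Algebra.IsAlgebraic.of_finite _ _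
  obtain ⟨c, hc⟩ := Fermat.Agent.S24_helper15_A1.exists_const_sub_mem (jElt N) halg P z hzP
  have hcK : c ∈ K1 := by
    refine hP x hx (z - algebraMap Qb (modularFunctionFieldBar N) c) c ?_ ?_
    · have h1 : ((z - algebraMap Qb (modularFunctionFieldBar N) c :
          modularFunctionFieldBar N) : LaurentSeries Qb) =
          (z : LaurentSeries Qb) - algebraMap Qb (LaurentSeries Qb) c := rfl
      rw [h1, hz, Fermat.Agent.S18_helper26_CONST.S18P15_C_eq_algebraMap]
    · rcases hc with h | h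
      · exact Or.inl h
      · exact Or.inr (sub_eq_zero.2 h)
  exact ⟨⟨c, hcK⟩, hc⟩

/-- **B1-LEVEL with descent.** As `S37LEVEL_exists`, together with the descent to level `K1` of
a given integral series `y` of the function field: `y` comes from a series `y1` with
coefficients in `O1 = A ∩ K1` whose image in `K1((q))` lies in `F1`. -/
theorem S37LEVEL_exists_descent {ℓ : ℕ} (hℓ : ℓ.Prime) (A : ValuationSubring Qb)
    (hA : A.LiesOverPrime ℓ) (S : Finset Qb)
    (Ps : Finset (Place Qb (modularFunctionFieldBar N)))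
    (y : LaurentSeries A) (hy : coeffMap A.subtype y ∈ modularFunctionFieldBar N) :
    ∃ K1 : IntermediateField ℚ Qb, (∀ s ∈ S, s ∈ K1) ∧ S18K_Admissible A K1 ℓ ∧
      (∀ P ∈ Ps, S37LEVEL_IsRational N K1 P) ∧
      ∃ y1 : LaurentSeries (S18K_O1 A K1),
        coeffMap (S18K_O1 A K1).subtype y1 ∈ modularFunctionFieldFullC K1 N ∧
        coeffMap (algebraMap K1 Qb) (coeffMap (S18K_O1 A K1).subtype y1) =
          coeffMap A.subtype y := by
  classical
  have hymem : coeffMap A.subtype y ∈ modularFunctionFieldFullC Qb N := by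
    rw [← Fermat.Agent.S18_helper25_GLUE.S18G_bar_eq N]
    exact hy
  obtain ⟨T, hT⟩ := Fermat.Agent.S18_helper25_GLUE.S18G_exists_finset (k₀ := ℚ) N hymem
  obtain ⟨K1, hK1S, hadm, hrat⟩ := S37LEVEL_exists N hℓ A hA (S ∪ T) Ps
  refine ⟨K1, fun s hs => hK1S s (Finset.mem_union_left _ hs), hadm, hrat, ?_⟩
  obtain ⟨w, hw, hwy⟩ := hT K1 (fun s hs => hK1S s (Finset.mem_union_right _ hs))
  have hcoeff : ∀ n, ∃ r : S18K_O1 A K1, (S18K_O1 A K1).subtype r = w.coeff n := by
    intro n
    have h1 : ((w.coeff n : K1) : Qb) = ((y.coeff n : A) : Qb) := by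
      have := congrArg (fun u : LaurentSeries Qb => u.coeff n) hwy
      simpa [coeffMap_coeff] using this
    have h2 : w.coeff n ∈ S18K_O1 A K1 := by
      rw [S18K_mem_O1, h1]
      exact (y.coeff n).2
    exact ⟨⟨w.coeff n, h2⟩, rfl⟩
  obtain ⟨y1, hy1⟩ := Fermat.Agent.S18_helper25_GLUE.S18G_exists_coeffMap_eq
    (S18K_O1 A K1).subtype w hcoeff
  refine ⟨y1, ?_, ?_⟩
  · rw [hy1]; exact hw
  · rw [hy1]; exact hwy

end Rational

end Fermat.Agent.S37_helper5_LEVEL
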