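import Mathlib
import Fermat.Agent.S37_helper4_B1Defs
import Fermat.Agent.S37_helper5_LEVEL

/-!
# S37, block B1: the interface facts (F1)-(F5) of (r2) as propositions

Each `S37B1_Fi` is a `Prop`; the assembly `S37_helper4_B1R2CHART` takes them as hypotheses.
-/

set_option autoImplicit false

open AlgebraicCurve ModularCurve HahnSeries IntermediateField

noncomputable section

namespace Fermat.Agent.S37_helper4_B1Defs

open Fermat.Agent.S18_helper25_COREDefs Fermat.Agent.S18_helper19_PLACEMOD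
  Fermat.Agent.S18_helper13_GAUSS Fermat.Agent.S37_helper5_LEVEL

variable (N : ℕ) [NeZero N] (K1 : IntermediateField ℚ (AlgebraicClosure ℚ))

/-- **(F1) value map.** A `K1`-rational place which is nonnegative on a subring `R` of `F1` has a
value map `ψ : R →+* K1`, the identity on constants, whose kernel is the set of elements of
positive order. -/
def S37B1_F1 : Prop :=
  ∀ P : Place (AlgebraicClosure ℚ) (modularFunctionFieldBar N), S37LEVEL_IsRational N K1 P →
    ∀ R : Subring (LaurentSeries K1), (∀ x ∈ R, x ∈ modularFunctionFieldFullC K1 N) →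
      (∀ x ∈ R, x ≠ 0 → 0 ≤ S37B1_ordP N K1 P x) →
      ∃ ψ : R →+* K1, (∀ (c : K1) (hc : (HahnSeries.C c : LaurentSeries K1) ∈ R),
          ψ ⟨HahnSeries.C c, hc⟩ = c) ∧
        ∀ x : R, (x : LaurentSeries K1) ≠ 0 → (ψ x = 0 ↔ 0 < S37B1_ordP N K1 P x)

/-- **(F2) uniformisers at level `K1`.** -/
def S37B1_F2 : Prop :=
  ∀ P : Place (AlgebraicClosure ℚ) (modularFunctionFieldBar N),
    ∃ t : LaurentSeries K1, t ∈ modularFunctionFieldFullC K1 N ∧ S37B1_ordP N K1 P t = 1

/-- **(F3) horizontal primes are places.** -/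
def S37B1_F3 : Prop :=
  ∀ (R : Subring (LaurentSeries K1)), UniqueFactorizationMonoid R →
    (∀ x ∈ R, x ∈ modularFunctionFieldFullC K1 N) →
    (∀ x ∈ modularFunctionFieldFullC K1 N, ∃ a b : R, b ≠ 0 ∧ x * (b : LaurentSeries K1) = a) →
    ∀ p : R, Prime p →
      (∀ c : K1, ∃ s a : R, ¬ p ∣ s ∧
        (HahnSeries.C c : LaurentSeries K1) * (s : LaurentSeries K1) = a) →
      ∃ P' : Place (AlgebraicClosure ℚ) (modularFunctionFieldBar N),
        ∀ x : R, (x : LaurentSeries K1) ≠ 0 →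
          0 ≤ S37B1_ordP N K1 P' x ∧ (0 < S37B1_ordP N K1 P' x ↔ p ∣ x)

/-- **(F4) a rational place is determined by its positive elements.** -/
def S37B1_F4 : Prop :=
  ∀ (R : Subring (LaurentSeries K1)),
    (∀ x ∈ R, x ∈ modularFunctionFieldFullC K1 N) →
    (∀ x ∈ modularFunctionFieldFullC K1 N, ∃ a b : R, b ≠ 0 ∧ x * (b : LaurentSeries K1) = a) →
    ∀ P P' : Place (AlgebraicClosure ℚ) (modularFunctionFieldBar N),
      S37LEVEL_IsRational N K1 P →
      (∀ x ∈ R, x ≠ 0 → 0 ≤ S37B1_ordP N K1 P x) →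
      (∀ x ∈ R, x ≠ 0 → 0 ≤ S37B1_ordP N K1 P' x) →
      (∀ x ∈ R, x ≠ 0 → (0 < S37B1_ordP N K1 P x ↔ 0 < S37B1_ordP N K1 P' x)) →
      P = P'

variable (A : ValuationSubring (AlgebraicClosure ℚ)) [IsDiscreteValuationRing (S18K_O1 A K1)]

/-- the characterisation of the centre `M` of `Q` on the chart `As` -/
def S37B1_IsCentre (As : Subring (LaurentSeries K1))
    (Q : Place (IsLocalRing.ResidueField A)
      (modularFunctionFieldFullC (IsLocalRing.ResidueField A) N)) (M : Ideal As) : Prop :=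
  ∀ a : As, a ∈ M ↔ ((S18K_D A K1).redFun (a : LaurentSeries K1) = 0 ∨
    0 < S37B1_ordQ N Q ((S18K_D A K1).redFun (a : LaurentSeries K1)))

/-- **(F5a) the centre of `Q` on a chart containing it is a maximal ideal.** -/
def S37B1_F5a (As : Subring (LaurentSeries K1)) : Prop :=
  ∀ Q : Place (IsLocalRing.ResidueField A)
      (modularFunctionFieldFullC (IsLocalRing.ResidueField A) N),
    S37B1_InChart N A K1 As Q → ∃ M : Ideal As, M.IsMaximal ∧ S37B1_IsCentre N K1 A As Q M

/-- **(F5d) the second generator of the centre reduces to a uniformiser at `Q`.** -/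
def S37B1_F5d (As : Subring (LaurentSeries K1)) : Prop :=
  ∀ Q : Place (IsLocalRing.ResidueField A)
      (modularFunctionFieldFullC (IsLocalRing.ResidueField A) N),
    S37B1_InChart N A K1 As Q → ∀ M : Ideal As, M.IsMaximal → S37B1_IsCentre N K1 A As Q M →
      ∀ (hπ : S18K_π A K1 ∈ As) (τ : As), τ ∈ M →
        (∀ x ∈ M, ∃ c : As, c ∉ M ∧ ∃ a b : As, c * x = a * ⟨S18K_π A K1, hπ⟩ + b * τ) →
        S37B1_ordQ N Q ((S18K_D A K1).redFun (τ : LaurentSeries K1)) = 1

/-- **(F5e) every `Q` lies in one of the two charts.** -/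
def S37B1_F5e : Prop :=
  ∀ Q : Place (IsLocalRing.ResidueField A)
      (modularFunctionFieldFullC (IsLocalRing.ResidueField A) N),
    (0 ≤ S37B1_ordQ N Q (jqModC (IsLocalRing.ResidueField A)) →
        S37B1_InChart N A K1 (S18K_A0 A K1 N) Q) ∧
      (¬ 0 ≤ S37B1_ordQ N Q (jqModC (IsLocalRing.ResidueField A)) →
        S37B1_InChart N A K1 (S18K_Ainf A K1 N) Q)

end Fermat.Agent.S37_helper4_B1Defs
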