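import Mathlib
import Fermat.Agent.S37_helper2_SPFIB
import Fermat.Agent.S37_helper4_B1Defs2

/-!
# S37, block B1: the interface facts (F5a) and (F5d)

Verbatim proofs of helper4's `S37B1_F5a` and `S37B1_F5d` for every chart, from the special-fibre
dictionary `S37_helper2_SPFIB`.
-/

set_option autoImplicit false
set_option linter.unusedSectionVars false
set_option linter.style.haveILetI false

open HahnSeries ModularCurve AlgebraicCurve IsLocalRing
open Fermat.Agent.S18_helper9_CDefs Fermat.Agent.S18_helper3_LOCRING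
open Fermat.Agent.S18_helper25_COREDefs Fermat.Agent.S18_helper13_GAUSS
open Fermat.Agent.S37_helper4_B1Defs

noncomputable section

namespace Fermat.Agent.S37_helper2_SPFIB

/-- nonunits of the valuation ring of a place: zero or positive order. -/
theorem mem_nonunits_iff_ord {k E : Type*} [Field k] [Field E] [Algebra k E] (Q : Place k E)
    {g : E} (hg : g ∈ Q.toValuationSubring) :
    g ∈ Q.toValuationSubring.nonunits ↔ (g = 0 ∨ 0 < Q.ord g) := by
  constructor
  · intro h
    by_cases h0 : g = 0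
    · exact Or.inl h0
    · refine Or.inr (Fermat.Agent.S24_helper15_A1.ord_pos_of_not_isUnit Q hg h0 ?_)
      obtain ⟨_, hm⟩ := ValuationSubring.mem_nonunits_iff_exists_mem_maximalIdeal.1 h
      exact (IsLocalRing.mem_maximalIdeal _).1 hm
  · rintro (h | h)
    · rw [h, ValuationSubring.mem_nonunits_iff, map_zero]
      exact zero_lt_one
    · exact ValuationSubring.mem_nonunits_iff_exists_mem_maximalIdeal.2
        ⟨hg, Fermat.Agent.S24_helper15_A1.mem_maximalIdeal_of_ord_pos Q hg h⟩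

section Concrete

local notation "Qb" => AlgebraicClosure ℚ

set_option synthInstance.maxHeartbeats 400000
set_option maxHeartbeats 1600000

variable {N : ℕ} [NeZero N] {A : ValuationSubring Qb} {K1 : IntermediateField ℚ Qb}
  [IsDiscreteValuationRing (S18K_O1 A K1)]
  (hκ : ∀ y ∈ S18K_V A K1 N, (S18K_D A K1).redFun y ∈
      modularFunctionFieldFullC (ResidueField A) N)

/-- `InChart` in terms of `S37SPF_red`. -/
theorem S37SPF_mem_of_inChart {As : Subring (LaurentSeries K1)}
    (hle : As ≤ S18K_V A K1 N)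
    (Q : Place (ResidueField A) (modularFunctionFieldFullC (ResidueField A) N))
    (hQ : S37B1_InChart N A K1 As Q) (a : As) :
    S37SPF_red N A K1 hκ ⟨a, hle a.2⟩ ∈ Q.toValuationSubring :=
  hQ a a.2 (hκ a (hle a.2))

/-- the centre condition of `SpData` in helper4's shape `S37B1_IsCentre`. -/
theorem S37SPF_nonunits_iff {As : Subring (LaurentSeries K1)}
    (hle : As ≤ S18K_V A K1 N)
    (Q : Place (ResidueField A) (modularFunctionFieldFullC (ResidueField A) N))
    (hQ : S37B1_InChart N A K1 As Q) (a : As) :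
    S37SPF_red N A K1 hκ ⟨a, hle a.2⟩ ∈ Q.toValuationSubring.nonunits ↔
      ((S18K_D A K1).redFun (a : LaurentSeries K1) = 0 ∨
        0 < S37B1_ordQ N Q ((S18K_D A K1).redFun (a : LaurentSeries K1))) := by
  rw [mem_nonunits_iff_ord Q (S37SPF_mem_of_inChart hκ hle Q hQ a)]
  have h1 : S37B1_ordQ N Q ((S18K_D A K1).redFun (a : LaurentSeries K1))
      = Q.ord (S37SPF_red N A K1 hκ ⟨a, hle a.2⟩) :=
    S37B1_ordQ_eq N Q (S37SPF_red N A K1 hκ ⟨a, hle a.2⟩)
  rw [h1]
  constructor
  · rintro (h | h)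
    · left
      have := congrArg Subtype.val h
      exact this
    · exact Or.inr h
  · rintro (h | h)
    · left
      exact Subtype.ext h
    · exact Or.inr h

variable
  (S : Setup (S18K_O A K1) (S18K_π A K1) (S18K_j K1) (S18K_F1 K1 N) (S18K_V A K1 N)
      (S18K_A0 A K1 N) (S18K_Ainf A K1 N))
  (hres : Function.Surjective (S18K_res A K1))
  {x : LaurentSeries K1} {As : Subring (LaurentSeries K1)}
  (hC : Chart (S18K_O A K1) (S18K_π A K1) x (S18K_F1 K1 N) (S18K_V A K1 N) As)
  (hx : x = S18K_j K1 ∨ x = (S18K_j K1)⁻¹)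

include hκ S hres hC hx in
/-- **(F5a)**, verbatim. -/
theorem S37SPF_F5a : S37B1_F5a N K1 A As := by
  intro Q hQ
  have hxQ : S37SPF_red N A K1 hκ ⟨x, S37SPF_x_mem_V S hC hx⟩ ∈ Q.toValuationSubring :=
    hQ x (x_mem_chart (D := S18K_D A K1) (N := N) hC S37SPF_hOs
      (gx_mem_F (D := S18K_D A K1) (N := N) S hx)) (hκ x (S37SPF_x_mem_V S hC hx))
  obtain ⟨M, hM, _, Dsp⟩ := S37SPF_exists_centre hκ S hres hC hx Q hxQ
  refine ⟨M, hM, fun a => ?_⟩
  rw [Dsp.centre a]
  exact S37SPF_nonunits_iff hκ hC.le_V Q hQ a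

include hκ S hres hC hx in
/-- **(F5d)**, verbatim. -/
theorem S37SPF_F5d : S37B1_F5d N K1 A As := by
  intro Q hQ M hM hMc hπ τ hτM hτ
  have hXQ := S37SPF_mem_of_inChart hκ hC.le_V Q hQ
  have hMQ : ∀ a ∈ M, S37SPF_red N A K1 hκ ⟨a, hC.le_V a.2⟩ ∈ Q.toValuationSubring.nonunits :=
    fun a ha => (S37SPF_nonunits_iff hκ hC.le_V Q hQ a).2 ((hMc a).1 ha)
  have Dsp := S37SPF_spData_of_isMaximal hκ hres hC Q M hM hXQ hMQ
  have hredπ0 : (S18K_D A K1).redFun (S18K_π A K1) = 0 := by
    have := (S18K_D A K1).redFun_πK_mul ((S18K_D A K1).Vring.one_mem)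
    rwa [mul_one] at this
  have hπM : ∀ hπ' : S18K_π A K1 ∈ As, (⟨S18K_π A K1, hπ'⟩ : As) ∈ M :=
    fun hπ' => (hMc _).2 (Or.inl hredπ0)
  haveI := hM.isPrime
  haveI := S37SPF_isNoetherianRing S hC hx
  have H : LocHyp (S18K_π A K1) (S18K_V A K1 N) As M := LocHyp_of_chart S hC M hπM
  have hIGat : IGAt (S18K_π A K1) As M := fun _ => ⟨τ, hτM, hτ⟩
  have hmax := maximalIdeal_locRing_eq H τ hτM hτ
  have h1 := Dsp.ord_redLoc_eq_one Q H hIGat (incl As M τ) hmax
  rw [← h1]
  exact S37B1_ordQ_eq N Q (redLoc (S37SPF_red N A K1 hκ) H (incl As M τ))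

include hκ S hres hC hx in
/-- **(4)(U) in helper4's shapes**: two places in the chart with the same centre are equal. -/
theorem S37SPF_eq_of_isCentre (hIG : IG (S18K_π A K1) As)
    (Q Q' : Place (ResidueField A) (modularFunctionFieldFullC (ResidueField A) N))
    (hQ : S37B1_InChart N A K1 As Q) (hQ' : S37B1_InChart N A K1 As Q')
    (M : Ideal As) (hM : M.IsMaximal)
    (hMc : S37B1_IsCentre N K1 A As Q M) (hMc' : S37B1_IsCentre N K1 A As Q' M) : Q = Q' := by
  have hredπ0 : (S18K_D A K1).redFun (S18K_π A K1) = 0 := by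
    have := (S18K_D A K1).redFun_πK_mul ((S18K_D A K1).Vring.one_mem)
    rwa [mul_one] at this
  exact S37SPF_unique hκ S hres hC hx Q hIG Q' M hM (fun hπ' => (hMc _).2 (Or.inl hredπ0))
    (S37SPF_mem_of_inChart hκ hC.le_V Q hQ)
    (fun a ha => (S37SPF_nonunits_iff hκ hC.le_V Q hQ a).2 ((hMc a).1 ha))
    (S37SPF_mem_of_inChart hκ hC.le_V Q' hQ')
    (fun a ha => (S37SPF_nonunits_iff hκ hC.le_V Q' hQ' a).2 ((hMc' a).1 ha))

end Concrete

end Fermat.Agent.S37_helper2_SPFIB
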