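import Fermat.Agent.S37_helper11_B1DEFK
import Fermat.Agent.S37_helper2_F5

/-!
# S37, block B1-DEF (part 7): DEF-KEY, final export

`S37DEF_defKey`: there is a map `r` from the places of `ℚ̄(X₀(N))` to the places of
`k(X₀(N))` (`k` the residue field of `A`), preserving degrees, which at every admissible level
`K1` and every `K1`-rational place `P` is characterised by centres on the two charts.
-/

set_option autoImplicit false
set_option linter.unusedSectionVars false
set_option linter.unusedVariables false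
set_option linter.style.haveILetI false
set_option synthInstance.maxHeartbeats 400000
set_option maxHeartbeats 1600000

noncomputable section

open AlgebraicCurve IntermediateField ModularCurve ModularCurve.IgusaScheme
open Fermat.Agent.S28_helper14_Res Fermat.Agent.S28_helper14_Val
open Fermat.Agent.S18_helper18_TENSORO Fermat.Agent.S18_helper25_COREDefs
open Fermat.Agent.S18_helper19_PLACEMOD Fermat.Agent.S37_helper4_B1Defs
open Fermat.Agent.S37_helper5_LEVEL Fermat.Agent.S18_helper13_GAUSS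
open Fermat.Agent.S18_helper9_CDefs Fermat.Agent.S37_helper2_SPFIB

namespace Fermat.Agent.S37_helper11_B1DEF

local notation "Qb" => AlgebraicClosure ℚ

section Final

variable {N : ℕ} [NeZero N] {ℓ : ℕ} [Fact ℓ.Prime] {A : ValuationSubring Qb}
  {K1 : IntermediateField ℚ Qb} [IsDiscreteValuationRing (S18K_O1 A K1)]

/-- For a rational place centred at `Q`, the values at `P` reduce to the values at `Q`. -/
theorem S37DEF_near_of_centred (As : Subring (LaurentSeries K1))
    (hAsF : ∀ a ∈ As, a ∈ modularFunctionFieldFullC K1 N)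
    (hAsV : ∀ a ∈ As, a ∈ VringO ↥K1 (S18K_res A K1))
    (hcst : ∀ o : S18K_O1 A K1, cstO ↥K1 o ∈ As)
    {P : Place Qb ↥(modularFunctionFieldBar N)} (hP : S37LEVEL_IsRational N K1 P)
    {Q : Place (IsLocalRing.ResidueField A) ↥(modularFunctionFieldFullC
      (IsLocalRing.ResidueField A) N)}
    (hC : S37B1_Centred N A K1 As P Q)
    {a : LaurentSeries K1} (ha : a ∈ As) {c : A}
    (hc : S37DEF_Near P (coeffMap (algebraMap K1 Qb) a) (c : Qb)) :
    S37DEF_Near Q ((S18K_D A K1).redFun a) (IsLocalRing.residue A c) := by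
  have hcK : (c : Qb) ∈ K1 := S37DEF_rational_mem hP (hAsF a ha) hc
  set o := S37DEF_mkO1 (A := A) (c : Qb) hcK c.2 with ho
  have hnear : S37DEF_Near P (coeffMap (algebraMap K1 Qb) (a - cstO ↥K1 o)) 0 := by
    rw [map_sub, ho, S37DEF_coeffMap_cstO_mk]
    have h1 := hc.sub (S37DEF_near_const (P := P) (c : Qb))
    rwa [sub_self] at h1
  have h2 := S37DEF_centred_near_zero As hAsF hC (Subring.sub_mem _ ha (hcst o)) hnear
  rw [S37DEF_redFun_sub_cst o (hAsV a ha)] at h2
  have h3 := h2.add (S37DEF_near_const (P := Q) (S18K_res A K1 o))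
  rw [sub_add_cancel, zero_add, ← S37DEF_redFun_eq] at h3
  exact h3

/-- **Uniqueness of the place with given values on a chart** (from helper2's SPFIB). -/
theorem S37DEF_eq_of_near
    (hκ1 : ∀ y ∈ S18K_V A K1 N, (S18K_D A K1).redFun y ∈
      modularFunctionFieldFullC (IsLocalRing.ResidueField A) N)
    (S : Setup (S18K_O A K1) (S18K_π A K1) (S18K_j K1) (S18K_F1 K1 N) (S18K_V A K1 N)
      (S18K_A0 A K1 N) (S18K_Ainf A K1 N))
    (hres : Function.Surjective (S18K_res A K1))
    {x : LaurentSeries K1} {As : Subring (LaurentSeries K1)}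
    (hC : Chart (S18K_O A K1) (S18K_π A K1) x (S18K_F1 K1 N) (S18K_V A K1 N) As)
    (hx : x = S18K_j K1 ∨ x = (S18K_j K1)⁻¹) (hIG : IG (S18K_π A K1) As)
    (Q Q' : Place (IsLocalRing.ResidueField A) ↥(modularFunctionFieldFullC
      (IsLocalRing.ResidueField A) N))
    (h : ∀ a ∈ As, ∃ c : IsLocalRing.ResidueField A,
      S37DEF_Near Q ((S18K_D A K1).redFun a) c ∧ S37DEF_Near Q' ((S18K_D A K1).redFun a) c) :
    Q = Q' := by
  have hQ : S37B1_InChart N A K1 As Q := fun a ha hmem => by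
    obtain ⟨c, hc, -⟩ := h a ha
    exact hc.mem_valuationSubring
  have hQ' : S37B1_InChart N A K1 As Q' := fun a ha hmem => by
    obtain ⟨c, -, hc⟩ := h a ha
    exact hc.mem_valuationSubring
  obtain ⟨M, hM, hMc⟩ := S37SPF_F5a hκ1 S hres hC hx Q hQ
  refine S37SPF_eq_of_isCentre hκ1 S hres hC hx hIG Q Q' hQ hQ' M hM hMc ?_
  intro a
  rw [hMc a]
  obtain ⟨c, hc, hc'⟩ := h a a.2
  rw [← S37DEF_near_zero_iff_ordQ Q, ← S37DEF_near_zero_iff_ordQ Q']
  constructor
  · intro h0
    have hc0 : c = 0 := hc.unique h0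
    rw [hc0] at hc'
    exact hc'
  · intro h0
    have hc0 : c = 0 := hc'.unique h0
    rw [hc0] at hc
    exact hc

theorem S37DEF_ordQ_inv {k : Type} [Field k] (Q : Place k ↥(modularFunctionFieldFullC k N))
    {w : LaurentSeries k} (hw : w ∈ modularFunctionFieldFullC k N) :
    S37B1_ordQ N Q w⁻¹ = - S37B1_ordQ N Q w := by
  rw [S37DEF_ordQ_of_mem Q hw, S37DEF_ordQ_of_mem Q (inv_mem hw), ← Place.ord_inv]
  congr 1


theorem S37DEF_A0_le_VringO (S : Setup (S18K_O A K1) (S18K_π A K1) (S18K_j K1) (S18K_F1 K1 N)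
      (S18K_V A K1 N) (S18K_A0 A K1 N) (S18K_Ainf A K1 N)) :
    ∀ a ∈ S18K_A0 A K1 N, a ∈ VringO ↥K1 (S18K_res A K1) := fun a ha =>
  (Fermat.Agent.S18_helper18_CHARTV.mem_Vring_iff_mem_VringO (S18K_D A K1) rfl).1
    (S.chart0.le_V ha).1

theorem S37DEF_Ainf_le_VringO (S : Setup (S18K_O A K1) (S18K_π A K1) (S18K_j K1) (S18K_F1 K1 N)
      (S18K_V A K1 N) (S18K_A0 A K1 N) (S18K_Ainf A K1 N)) :
    ∀ a ∈ S18K_Ainf A K1 N, a ∈ VringO ↥K1 (S18K_res A K1) := fun a ha =>
  (Fermat.Agent.S18_helper18_CHARTV.mem_Vring_iff_mem_VringO (S18K_D A K1) rfl).1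
    (S.chartInf.le_V ha).1

end Final

section Key

variable (N : ℕ) [NeZero N] {ℓ : ℕ} [Fact ℓ.Prime]

/-- every place has degree one, on both sides -/
theorem S37DEF_deg_eq (A : ValuationSubring Qb)
    (P : Place Qb ↥(modularFunctionFieldBar N))
    (Q : Place (IsLocalRing.ResidueField A) ↥(modularFunctionFieldFullC
      (IsLocalRing.ResidueField A) N)) : Q.deg = P.deg := by
  haveI : IsAlgClosed (IsLocalRing.ResidueField A) :=
    Fermat.Agent.S18_helper27_RESALGCL.S18RES_isAlgClosed_residueField_Qbar A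
  have h1 : P.deg = 1 := by
    haveI := (Fermat.Agent.S24_helper23_DEG.DEG N).1
    have halg : Algebra.IsAlgebraic Qb⟮Fermat.Agent.S24.jElt N⟯ (modularFunctionFieldBar N) :=
      Algebra.IsAlgebraic.of_finite _ _
    exact Fermat.Agent.S24_helper15_A1.deg_eq_one (Fermat.Agent.S24.jElt N) halg P
  have h2 : Q.deg = 1 := by
    haveI := Fermat.Agent.S18_helper26_CONST.S18P15_finiteDimensional
      (IsLocalRing.ResidueField A) N
    have halg : Algebra.IsAlgebraic
        (IsLocalRing.ResidueField A)⟮Fermat.Agent.S18_helper26_CONST.S18P15_jbar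
          (IsLocalRing.ResidueField A) N⟯
        (modularFunctionFieldFullC (IsLocalRing.ResidueField A) N) :=
      Algebra.IsAlgebraic.of_finite _ _
    exact Fermat.Agent.S24_helper15_A1.deg_eq_one
      (Fermat.Agent.S18_helper26_CONST.S18P15_jbar (IsLocalRing.ResidueField A) N) halg Q
  rw [h1, h2]

/-- **DEF-KEY.** -/
theorem S37DEF_defKey (hℓN : ¬ ℓ ∣ N) (A : ValuationSubring Qb) (hA : A.LiesOverPrime ℓ)
    (hAB : S18K_BlocksAB A N ℓ)
    (hκ : ∀ x ∈ chartAlgFin N ℓ,
      redFun ℓ ((x : ↥(modularFunctionFieldFull N)) : LaurentSeries ℚ) ∈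
        modularFunctionFieldFullC (ZMod ℓ) N) :
    ∃ r : Place Qb (modularFunctionFieldBar N) →
        Place (IsLocalRing.ResidueField A)
          (modularFunctionFieldFullC (IsLocalRing.ResidueField A) N),
      (∀ P, (r P).deg = P.deg) ∧ S37B1_DefKey N ℓ A (S37LEVEL_IsRational N) r := by
  haveI : CharP (IsLocalRing.ResidueField A) ℓ :=
    Fermat.Agent.S18_helper5_BASE.S18A1_charP_residue A (Fact.out : ℓ.Prime) hA
  have hres : ∀ x : A, IsLocalRing.residue A x = 0 ↔ x ∈ IsLocalRing.maximalIdeal A :=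
    fun x => IsLocalRing.residue_eq_zero_iff x
  obtain ⟨r, hr⟩ := S37DEF_exists_r (IsLocalRing.residue A) hA hℓN hres hκ
  refine ⟨r, fun P => S37DEF_deg_eq N A P (r P), ?_⟩
  intro K1 h P hP Q
  letI := h.dvr
  obtain ⟨S, hIG0, hIGinf⟩ := hAB K1 h
  have hκ1 := Fermat.Agent.S37_helper20_KAPPABC.S37KBC_kappaK N A hA hℓN hκ K1
  have hjk : jqModC (IsLocalRing.ResidueField A) ∈
      modularFunctionFieldFullC (IsLocalRing.ResidueField A) N := jqModC_mem_full _ N
  have hjk0 : jqModC (IsLocalRing.ResidueField A) ≠ 0 := jqModC_ne_zero_of_nontrivial _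
  -- centredness at `r P` on the chart of `P`
  have hfwd0 : S37DEF_InChart0 N A P → S37B1_Centred N A K1 (S18K_A0 A K1 N) P (r P) :=
    fun hin => S37DEF_centred_of_near (S18K_A0 A K1 N) (fun a ha => S37DEF_A0_le_F1 ha) P (r P)
      (fun a ha => S37DEF_near_A0 hA hℓN P (r P) ((hr P).1 hin) ha)
  have hfwdInf : ¬ S37DEF_InChart0 N A P →
      S37B1_Centred N A K1 (S18K_Ainf A K1 N) P (r P) :=
    fun hin => S37DEF_centred_of_near (S18K_Ainf A K1 N) (fun a ha => S37DEF_Ainf_le_F1 ha) P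
      (r P) (fun a ha => S37DEF_near_Ainf hA hℓN P (r P) ((hr P).2 hin) ha)
  -- the chart of `P` from the behaviour of `j̄` at `r P`
  have hin_of : 0 ≤ S37B1_ordQ N (r P) (jqModC (IsLocalRing.ResidueField A)) →
      S37DEF_InChart0 N A P := by
    intro hj
    by_contra hnot
    have h1 := S37DEF_jbar_inv_near_of_inf (IsLocalRing.residue A) hres hnot ((hr P).2 hnot)
    rcases (S37DEF_near_zero_iff_ordQ (r P)).1 h1 with h0 | hpos
    · exact inv_ne_zero hjk0 h0
    · rw [S37DEF_ordQ_inv (r P) hjk] at hpos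
      omega
  have hnot_of : ¬ 0 ≤ S37B1_ordQ N (r P) (jqModC (IsLocalRing.ResidueField A)) →
      ¬ S37DEF_InChart0 N A P := by
    intro hj hin
    obtain ⟨c, -, hc⟩ := S37DEF_jbar_near_of_fin (IsLocalRing.residue A) ((hr P).1 hin)
    exact hj (S37DEF_ordQ_nonneg_of_near (r P) hc)
  refine ⟨fun hj => ⟨?_, ?_⟩, fun hj => ⟨?_, ?_⟩⟩
  · rintro rfl
    exact hfwd0 (hin_of hj)
  · intro hC
    have hin := S37DEF_inChart0_of_centred hA hℓN hP hC
    refine S37DEF_eq_of_near hκ1 S h.res_surj S.chart0 (Or.inl rfl) hIG0 (r P) Q ?_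
    intro a ha
    obtain ⟨c, hc1, hc2⟩ := S37DEF_near_A0 hA hℓN P (r P) ((hr P).1 hin) ha
    exact ⟨IsLocalRing.residue A c, hc2,
      S37DEF_near_of_centred (S18K_A0 A K1 N) (fun a ha => S37DEF_A0_le_F1 ha)
        (S37DEF_A0_le_VringO S) (fun o => S37DEF_cst_mem_A0 hA hℓN o) hP hC ha hc1⟩
  · rintro rfl
    exact hfwdInf (hnot_of hj)
  · intro hC
    have hin := S37DEF_not_inChart0_of_centred hA hℓN hP hC hj
    refine S37DEF_eq_of_near hκ1 S h.res_surj S.chartInf (Or.inr rfl) hIGinf (r P) Q ?_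
    intro a ha
    obtain ⟨c, hc1, hc2⟩ := S37DEF_near_Ainf hA hℓN P (r P) ((hr P).2 hin) ha
    exact ⟨IsLocalRing.residue A c, hc2,
      S37DEF_near_of_centred (S18K_Ainf A K1 N) (fun a ha => S37DEF_Ainf_le_F1 ha)
        (S37DEF_Ainf_le_VringO S) (fun o => S37DEF_cst_mem_Ainf hA hℓN o) hP hC ha hc1⟩

end Key

end Fermat.Agent.S37_helper11_B1DEF
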