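import Fermat.Agent.S28_helper7_UNITDATA_Core
import Fermat.Agent.S28_helper5_GCONJ
import Fermat.Agent.S28_helper25_HD
import Fermat.Agent.S28_helper17_RELF

set_option autoImplicit false

open Fermat.Agent.S28_helper14_Defs

namespace Fermat.Agent.S28_helper14_UD

/-- The formal data of the modular unit exist (wrapper of `exists_unitData_of`). -/
theorem exists_unitData_h14 (N : ℕ) [NeZero N] : Nonempty (UnitData N) :=
  Fermat.Agent.S28_UNITDATA.exists_unitData_of N (Fermat.Agent.S28_GCONJ.isMF_GN N)
    (fun d _ hd => ⟨Fermat.Agent.S28_HD.isMF_Hd N d hd, Fermat.Agent.S28_HD.qExpansion_Hd N d hd⟩)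
    (Fermat.Agent.S28_RELF.exists_rel N)

end Fermat.Agent.S28_helper14_UD
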