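import Fermat.Agent.S28_helper14_Val

/-!
# S28, piece TENSOR (helper18)

For an `ℤ_(ℓ)`-subalgebra `A` of the modular function field whose elements have `ℓ`-integral
`q`-expansions (they lie in `Vring ℓ`) and which is `ℓ`-saturated (`hkey`), the base change
`A ⊗ K` to any field `K` of characteristic `ℓ` is a domain: it embeds into `K((q))` by
`x ⊗ c ↦ c • (reduction of x mod ℓ)`.
-/

set_option autoImplicit false
set_option linter.unusedSectionVars false

noncomputable section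

open ModularCurve ModularCurve.IgusaScheme Fermat.Agent.S28_helper14_Defs
  Fermat.Agent.S28_helper14_Res Fermat.Agent.S28_helper14_Val
open TensorProduct

namespace Fermat.Agent.S28_TENSOR

theorem algebraMap_eq_resR (ℓ : ℕ) [Fact ℓ.Prime] (K : Type) [Field K] [CharP K ℓ]
    [Algebra (Rl ℓ) K] (r : Rl ℓ) :
    algebraMap (Rl ℓ) K r = ZMod.castHom (dvd_refl ℓ) K (resR ℓ r) := by
  have hden : (((r : ℚ).den : ℕ) : K) ≠ 0 := by
    intro h
    rw [CharP.cast_eq_zero_iff K ℓ] at h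
    exact not_dvd_den ℓ r h
  have key : (((r : ℚ).den : ℕ) : Rl ℓ) * r = (((r : ℚ).num : ℤ) : Rl ℓ) := by
    apply Subtype.ext
    push_cast
    exact Rat.den_mul_eq_num r.1
  have h1 := congrArg (algebraMap (Rl ℓ) K) key
  have h2 := congrArg ((ZMod.castHom (dvd_refl ℓ) K).comp (resR ℓ)) key
  simp only [map_mul, map_natCast, map_intCast, RingHom.comp_apply] at h1 h2
  exact mul_left_cancel₀ hden (h1.trans h2.symm)

/-- A basis of `K` over `𝔽_ℓ`, phrased without module structures. -/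
theorem exists_family (ℓ : ℕ) [Fact ℓ.Prime] (K : Type) [Field K] [CharP K ℓ] :
    ∃ (ι : Type) (b : ι → K),
      (∀ c : K, ∃ (s : Finset ι) (a : ι → ZMod ℓ),
        c = ∑ i ∈ s, ZMod.castHom (dvd_refl ℓ) K (a i) * b i) ∧
      (∀ (s : Finset ι) (a : ι → ZMod ℓ),
        ∑ i ∈ s, ZMod.castHom (dvd_refl ℓ) K (a i) * b i = 0 → ∀ i ∈ s, a i = 0) := by
  let _ := ZMod.algebra K ℓ
  let b := Module.Basis.ofVectorSpace (ZMod ℓ) K
  refine ⟨_, b, fun c => ⟨(b.repr c).support, fun i => b.repr c i, ?_⟩, fun s a h => ?_⟩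
  · conv_lhs => rw [← b.linearCombination_repr c]
    rw [Finsupp.linearCombination_apply, Finsupp.sum]
    refine Finset.sum_congr rfl fun i _ => ?_
    rw [Algebra.smul_def]
    rfl
  · have hli := b.linearIndependent
    rw [linearIndependent_iff'] at hli
    refine hli s a ?_
    rw [← h]
    refine Finset.sum_congr rfl fun i _ => ?_
    rw [Algebra.smul_def]
    rfl

section

variable (N : ℕ) [NeZero N] (ℓ : ℕ) [Fact ℓ.Prime]
  (K : Type) [Field K] [CharP K ℓ] [Algebra (Rl ℓ) K]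
  (A : Subalgebra (Rl ℓ) ↥(modularFunctionFieldFull N))
  (hA : ∀ x ∈ A, ((x : ↥(modularFunctionFieldFull N)) : LaurentSeries ℚ) ∈ Vring ℓ)

/-- The inclusion of `A` into the valuation ring. -/
def toV : A →+* Vring ℓ where
  toFun x := ⟨((x : ↥(modularFunctionFieldFull N)) : LaurentSeries ℚ), hA x x.2⟩
  map_one' := rfl
  map_mul' _ _ := rfl
  map_zero' := rfl
  map_add' _ _ := rfl

/-- Reduction of an element of `A`, with coefficients in `K`. -/
def rho : A →+* LaurentSeries K :=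
  (coeffMap (ZMod.castHom (dvd_refl ℓ) K)).comp ((red ℓ).comp (toV N ℓ A hA))

theorem rho_apply (x : A) :
    rho N ℓ K A hA x = coeffMap (ZMod.castHom (dvd_refl ℓ) K)
      (redFun ℓ ((x : ↥(modularFunctionFieldFull N)) : LaurentSeries ℚ)) := rfl

theorem rho_coeff (x : A) (n : ℤ) :
    (rho N ℓ K A hA x).coeff n =
      ZMod.castHom (dvd_refl ℓ) K
        ((redFun ℓ ((x : ↥(modularFunctionFieldFull N)) : LaurentSeries ℚ)).coeff n) := rfl

theorem coe_algebraMap (r : Rl ℓ) :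
    ((algebraMap (Rl ℓ) ↥(modularFunctionFieldFull N) r : ↥(modularFunctionFieldFull N)) :
      LaurentSeries ℚ) = incL ℓ (HahnSeries.single 0 r) := by
  have h1 : algebraMap (Rl ℓ) ↥(modularFunctionFieldFull N) r =
      algebraMap ℚ ↥(modularFunctionFieldFull N) (r : ℚ) := rfl
  have h2 : ((modularFunctionFieldFull N).val : ↥(modularFunctionFieldFull N) →+*
      LaurentSeries ℚ).comp (algebraMap ℚ ↥(modularFunctionFieldFull N)) =
      (HahnSeries.C : ℚ →+* LaurentSeries ℚ) := Subsingleton.elim _ _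
  have h3 := congrArg (fun f : ℚ →+* LaurentSeries ℚ => f (r : ℚ)) h2
  simp only [RingHom.comp_apply, HahnSeries.C_apply] at h3
  rw [h1]
  refine Eq.trans ?_ (h3.trans ?_)
  · rfl
  · simp [incL]

section LocalInst

attribute [local instance 10000] HahnSeries.instAlgebra

theorem rho_algebraMap (r : Rl ℓ) :
    rho N ℓ K A hA (algebraMap (Rl ℓ) A r) = algebraMap (Rl ℓ) (LaurentSeries K) r := by
  rw [rho_apply]
  have h1 : ((algebraMap (Rl ℓ) A r : A) : ↥(modularFunctionFieldFull N)) =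
      algebraMap (Rl ℓ) ↥(modularFunctionFieldFull N) r := rfl
  rw [h1, coe_algebraMap, redFun_incL, redL, coeffMap_single, coeffMap_single,
    ← algebraMap_eq_resR]
  rfl

/-- `rho` as an algebra homomorphism. -/
def rhoAlg : A →ₐ[Rl ℓ] LaurentSeries K :=
  { rho N ℓ K A hA with
    commutes' := rho_algebraMap N ℓ K A hA }

/-- The comparison map `A ⊗ K → K((q))`. -/
def Phi : A ⊗[Rl ℓ] K →+* LaurentSeries K :=
  (Algebra.TensorProduct.lift (rhoAlg N ℓ K A hA)
    (IsScalarTower.toAlgHom (Rl ℓ) K (LaurentSeries K))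
    (fun _ _ => Commute.all _ _)).toRingHom

theorem Phi_tmul (x : A) (c : K) :
    Phi N ℓ K A hA (x ⊗ₜ c) = rho N ℓ K A hA x * HahnSeries.single 0 c := by
  show (Algebra.TensorProduct.lift (rhoAlg N ℓ K A hA)
    (IsScalarTower.toAlgHom (Rl ℓ) K (LaurentSeries K))
    (fun _ _ => Commute.all _ _)) (x ⊗ₜ c) = _
  rw [Algebra.TensorProduct.lift_tmul]
  rfl

end LocalInst

theorem Phi_tmul_coeff (x : A) (c : K) (n : ℤ) :
    (Phi N ℓ K A hA (x ⊗ₜ c)).coeff n =
      ZMod.castHom (dvd_refl ℓ) K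
        ((redFun ℓ ((x : ↥(modularFunctionFieldFull N)) : LaurentSeries ℚ)).coeff n) * c := by
  rw [Phi_tmul, HahnSeries.coeff_mul_single_zero, rho_coeff]

theorem Phi_injective
    (hkey : ∀ x ∈ A, redFun ℓ ((x : ↥(modularFunctionFieldFull N)) : LaurentSeries ℚ) = 0 →
      ∃ y ∈ A, x = (ℓ : ↥(modularFunctionFieldFull N)) * y) :
    Function.Injective (Phi N ℓ K A hA) := by
  classical
  obtain ⟨ι, b, hspan, hind⟩ := exists_family ℓ K
  choose g hg using resR_surjective ℓ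
  let Ψ : (ι →₀ A) →+ A ⊗[Rl ℓ] K :=
    Finsupp.liftAddHom (fun i => ((TensorProduct.mk (Rl ℓ) A K).flip (b i)).toAddMonoidHom)
  have hΨ_single : ∀ i a, Ψ (Finsupp.single i a) = a ⊗ₜ[Rl ℓ] b i := by
    intro i a
    simp [Ψ]
  have hΨ : ∀ y, Ψ y = y.sum (fun i a => a ⊗ₜ[Rl ℓ] b i) := by
    intro y
    rw [Finsupp.liftAddHom_apply]
    rfl
  have hsmul : ∀ (r : Rl ℓ) (c : K), r • c = ZMod.castHom (dvd_refl ℓ) K (resR ℓ r) * c := by
    intro r c
    rw [Algebra.smul_def, algebraMap_eq_resR]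
  have hsurj : ∀ z : A ⊗[Rl ℓ] K, ∃ y, Ψ y = z := by
    intro z
    induction z using TensorProduct.induction_on with
    | zero => exact ⟨0, map_zero _⟩
    | tmul x c =>
      obtain ⟨s, a, hc⟩ := hspan c
      refine ⟨∑ i ∈ s, Finsupp.single i (g (a i) • x), ?_⟩
      rw [map_sum]
      simp only [hΨ_single]
      conv_rhs => rw [hc]
      rw [tmul_sum]
      refine Finset.sum_congr rfl fun i _ => ?_
      rw [TensorProduct.smul_tmul (R := Rl ℓ) (R' := Rl ℓ) (g (a i)) x (b i), hsmul, hg]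
    | add z w hz hw =>
      obtain ⟨y1, rfl⟩ := hz
      obtain ⟨y2, rfl⟩ := hw
      exact ⟨y1 + y2, map_add _ _ _⟩
  have hPhi_sum : ∀ (s : Finset ι) (f : ι → A ⊗[Rl ℓ] K),
      Phi N ℓ K A hA (∑ i ∈ s, f i) = ∑ i ∈ s, Phi N ℓ K A hA (f i) := by
    intro s f
    induction s using Finset.induction_on with
    | empty => simp only [Finset.sum_empty]; exact RingHom.map_zero _
    | insert i s hi ih => rw [Finset.sum_insert hi, Finset.sum_insert hi, RingHom.map_add, ih]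
  suffices h0 : ∀ z, Phi N ℓ K A hA z = 0 → z = 0 by
    intro z w hzw
    have h1 : Phi N ℓ K A hA (z - w) = Phi N ℓ K A hA z - Phi N ℓ K A hA w :=
      RingHom.map_sub _ z w
    have : Phi N ℓ K A hA (z - w) = 0 := by rw [h1, hzw, sub_self]
    exact sub_eq_zero.mp (h0 _ this)
  intro z hz
  obtain ⟨y, rfl⟩ := hsurj z
  rw [hΨ] at hz ⊢
  rw [Finsupp.sum, hPhi_sum] at hz
  have hzero : ∀ i ∈ y.support,
      redFun ℓ (((y i : A) : ↥(modularFunctionFieldFull N)) : LaurentSeries ℚ) = 0 := by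
    intro i hi
    ext n
    have hn := congrArg (fun s : LaurentSeries K => s.coeff n) hz
    simp only [HahnSeries.coeff_sum, Phi_tmul_coeff, HahnSeries.coeff_zero] at hn
    exact hind y.support
      (fun j => (redFun ℓ (((y j : A) : ↥(modularFunctionFieldFull N)) : LaurentSeries ℚ)).coeff n)
      hn i hi
  rw [Finsupp.sum]
  refine Finset.sum_eq_zero fun i hi => ?_
  obtain ⟨y', hy'A, hy'⟩ := hkey (y i) (y i).2 (hzero i hi)
  have h1 : y i = (ℓ : Rl ℓ) • (⟨y', hy'A⟩ : A) := by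
    apply Subtype.ext
    rw [hy']
    show _ = (ℓ : Rl ℓ) • y'
    rw [Algebra.smul_def, map_natCast]
  have h2 : (ℓ : Rl ℓ) • b i = 0 := by
    rw [Algebra.smul_def, map_natCast, CharP.cast_eq_zero, zero_mul]
  rw [h1, TensorProduct.smul_tmul (R := Rl ℓ) (R' := Rl ℓ) (ℓ : Rl ℓ) (⟨y', hy'A⟩ : A) (b i),
    h2, tmul_zero]

end

theorem isDomain_tensor (N : ℕ) [NeZero N] (ℓ : ℕ) [Fact ℓ.Prime]
    (K : Type) [Field K] [CharP K ℓ] [Algebra (Rl ℓ) K]
    (A : Subalgebra (Rl ℓ) ↥(modularFunctionFieldFull N))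
    (hA : ∀ x ∈ A, ((x : ↥(modularFunctionFieldFull N)) : LaurentSeries ℚ) ∈ Vring ℓ)
    (hkey : ∀ x ∈ A, redFun ℓ ((x : ↥(modularFunctionFieldFull N)) : LaurentSeries ℚ) = 0 →
      ∃ y ∈ A, x = (ℓ : ↥(modularFunctionFieldFull N)) * y) :
    IsDomain (TensorProduct (Rl ℓ) A K) :=
  Function.Injective.isDomain (Phi N ℓ K A hA) (Phi_injective N ℓ K A hA hkey)

theorem nontrivial_tensor (N : ℕ) [NeZero N] (ℓ : ℕ) [Fact ℓ.Prime]
    (K : Type) [Field K] [CharP K ℓ] [Algebra (Rl ℓ) K]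
    (A : Subalgebra (Rl ℓ) ↥(modularFunctionFieldFull N))
    (hA : ∀ x ∈ A, ((x : ↥(modularFunctionFieldFull N)) : LaurentSeries ℚ) ∈ Vring ℓ) :
    Nontrivial (TensorProduct (Rl ℓ) A K) :=
  (Phi N ℓ K A hA).domain_nontrivial

end Fermat.Agent.S28_TENSOR
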