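import Fermat.Agent.S28_helper14_Key
import Fermat.Agent.S28_helper14_UD
import Fermat.Agent.S28_helper18_TENSOR

/-!
# S18, block A, piece X-A2p-TENSOR (helper18)

Transport of the landed S28 interface (chart algebra inside the Gauss valuation ring,
saturation) from the base `ℤ_(ℓ)` to an arbitrary base ring `O` with a residue map
`res : O →+* k1` into a field of characteristic `ℓ`.

* Part 1: the Gauss ring `VringO K1 res` of `K1((q))` and the reduction `redFunO`.
* Part 2: the ring `chartO C0 = O · C0` generated inside `K1((q))` by the constants of `O` and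
  the `q`-expansions of a `ℤ_(ℓ)`-subalgebra `C0` of the modular function field; it lies in the
  Gauss ring, and it is saturated: an element with zero reduction is a multiple of `π`.
* Part 3: the two charts `chartAlgFin`, `chartAlgInf`.
-/

set_option autoImplicit false
set_option linter.unusedSectionVars false
set_option linter.unusedVariables false

noncomputable section

open ModularCurve ModularCurve.IgusaScheme Fermat.Agent.S28_helper14_Defs
  Fermat.Agent.S28_helper14_Res Fermat.Agent.S28_helper14_Val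

namespace Fermat.Agent.S18_helper18_TENSORO

/-! ## Part 1: the Gauss ring over a general base -/

section Gauss

variable {O : Type} (K1 : Type) {k1 : Type} [CommRing O] [Field K1] [Algebra O K1] [Field k1]
  (res : O →+* k1)

/-- The coefficientwise map `O((q)) → K1((q))`. -/
def incO : LaurentSeries O →+* LaurentSeries K1 := coeffMap (algebraMap O K1)

/-- The coefficientwise reduction `O((q)) → k1((q))`. -/
def redO : LaurentSeries O →+* LaurentSeries k1 := coeffMap res

/-- Constants of `O` inside `K1((q))`. -/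
def cstO : O →+* LaurentSeries K1 := (HahnSeries.C : K1 →+* LaurentSeries K1).comp (algebraMap O K1)

@[simp] theorem incO_coeff (a : LaurentSeries O) (n : ℤ) :
    (incO K1 a).coeff n = algebraMap O K1 (a.coeff n) := rfl

@[simp] theorem redO_coeff (a : LaurentSeries O) (n : ℤ) :
    (redO res a).coeff n = res (a.coeff n) := rfl

theorem cstO_apply (c : O) : cstO K1 c = HahnSeries.single 0 (algebraMap O K1 c) := rfl

theorem cstO_eq_incO (c : O) : cstO K1 c = incO K1 (HahnSeries.single 0 c) := by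
  rw [cstO_apply, incO, coeffMap_single]

theorem redO_single (c : O) : redO res (HahnSeries.single 0 c) = HahnSeries.single 0 (res c) := by
  rw [redO, coeffMap_single]

theorem incO_injective (hinj : Function.Injective (algebraMap O K1)) :
    Function.Injective (incO (O := O) K1) := by
  intro a b h
  ext n
  have := congrArg (fun x => x.coeff n) h
  exact hinj (by simpa using this)

/-- The valuation ring of the Gauss valuation attached to `res`, as a subring of `K1((q))`:
quotients `a / b` of series over `O` with `b` of nonzero reduction. -/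
def VringO : Subring (LaurentSeries K1) where
  carrier := {x | ∃ a b : LaurentSeries O, redO res b ≠ 0 ∧ incO K1 b * x = incO K1 a}
  mul_mem' := by
    rintro x y ⟨a, b, hb, h⟩ ⟨a', b', hb', h'⟩
    refine ⟨a * a', b * b', ?_, ?_⟩
    · rw [map_mul]; exact mul_ne_zero hb hb'
    · rw [map_mul, map_mul, ← h, ← h']; ring
  one_mem' := ⟨1, 1, by rw [map_one]; exact one_ne_zero, by simp⟩
  add_mem' := by
    rintro x y ⟨a, b, hb, h⟩ ⟨a', b', hb', h'⟩
    refine ⟨a * b' + a' * b, b * b', ?_, ?_⟩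
    · rw [map_mul]; exact mul_ne_zero hb hb'
    · rw [map_mul, map_add, map_mul, map_mul, ← h, ← h']; ring
  zero_mem' := ⟨0, 1, by rw [map_one]; exact one_ne_zero, by simp⟩
  neg_mem' := by
    rintro x ⟨a, b, hb, h⟩
    exact ⟨-a, b, hb, by rw [map_neg, ← h]; ring⟩

theorem mem_VringO_iff {x : LaurentSeries K1} :
    x ∈ VringO K1 res ↔
      ∃ a b : LaurentSeries O, redO res b ≠ 0 ∧ incO K1 b * x = incO K1 a :=
  Iff.rfl

theorem incO_mem_VringO (a : LaurentSeries O) : incO K1 a ∈ VringO K1 res :=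
  ⟨a, 1, by rw [map_one]; exact one_ne_zero, by simp⟩

theorem cstO_mem_VringO (c : O) : cstO K1 c ∈ VringO K1 res := by
  rw [cstO_eq_incO]
  exact incO_mem_VringO K1 res _

open Classical in
/-- Reduction of an element of the Gauss ring (junk value `0` outside). -/
def redFunO (x : LaurentSeries K1) : LaurentSeries k1 :=
  if h : x ∈ VringO K1 res then redO res h.choose / redO res h.choose_spec.choose else 0

variable {K1}

theorem redFunO_eq (hinj : Function.Injective (algebraMap O K1))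
    {x : LaurentSeries K1} {a b : LaurentSeries O} (hb : redO res b ≠ 0)
    (h : incO K1 b * x = incO K1 a) : redFunO K1 res x = redO res a / redO res b := by
  have hx : x ∈ VringO K1 res := ⟨a, b, hb, h⟩
  rw [redFunO, dif_pos hx]
  obtain ⟨hb', h'⟩ := hx.choose_spec.choose_spec
  set a' := hx.choose
  set b' := hx.choose_spec.choose
  rw [div_eq_div_iff hb' hb, ← map_mul, ← map_mul]
  congr 1
  apply incO_injective K1 hinj
  rw [map_mul, map_mul, ← h, ← h']
  ring

/-- The characterising property of the reduction. -/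
theorem redFunO_mul_eq (hinj : Function.Injective (algebraMap O K1))
    {x : LaurentSeries K1} {a b : LaurentSeries O} (hb : redO res b ≠ 0)
    (h : incO K1 b * x = incO K1 a) : redFunO K1 res x * redO res b = redO res a := by
  rw [redFunO_eq res hinj hb h, div_mul_cancel₀ _ hb]

theorem redFunO_of_not_mem {x : LaurentSeries K1} (hx : x ∉ VringO K1 res) :
    redFunO K1 res x = 0 := by
  rw [redFunO, dif_neg hx]

theorem redFunO_mul (hinj : Function.Injective (algebraMap O K1))
    {x y : LaurentSeries K1} (hx : x ∈ VringO K1 res) (hy : y ∈ VringO K1 res) :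
    redFunO K1 res (x * y) = redFunO K1 res x * redFunO K1 res y := by
  obtain ⟨a, b, hb, h⟩ := hx
  obtain ⟨a', b', hb', h'⟩ := hy
  rw [redFunO_eq res hinj hb h, redFunO_eq res hinj hb' h',
    redFunO_eq res hinj (a := a * a') (b := b * b') (by rw [map_mul]; exact mul_ne_zero hb hb')
      (by rw [map_mul, map_mul, ← h, ← h']; ring), map_mul, map_mul]
  field_simp

theorem redFunO_add (hinj : Function.Injective (algebraMap O K1))
    {x y : LaurentSeries K1} (hx : x ∈ VringO K1 res) (hy : y ∈ VringO K1 res) :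
    redFunO K1 res (x + y) = redFunO K1 res x + redFunO K1 res y := by
  obtain ⟨a, b, hb, h⟩ := hx
  obtain ⟨a', b', hb', h'⟩ := hy
  rw [redFunO_eq res hinj hb h, redFunO_eq res hinj hb' h',
    redFunO_eq res hinj (a := a * b' + a' * b) (b := b * b')
      (by rw [map_mul]; exact mul_ne_zero hb hb')
      (by rw [map_mul, map_add, map_mul, map_mul, ← h, ← h']; ring), map_mul, map_add, map_mul,
    map_mul]
  field_simp

theorem redFunO_incO (hinj : Function.Injective (algebraMap O K1)) (a : LaurentSeries O) :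
    redFunO K1 res (incO K1 a) = redO res a := by
  rw [redFunO_eq res hinj (a := a) (b := 1) (by rw [map_one]; exact one_ne_zero) (by simp)]
  simp

theorem redFunO_cstO (hinj : Function.Injective (algebraMap O K1)) (c : O) :
    redFunO K1 res (cstO K1 c) = HahnSeries.single 0 (res c) := by
  rw [cstO_eq_incO, redFunO_incO res hinj, redO_single]

theorem redFunO_zero (hinj : Function.Injective (algebraMap O K1)) :
    redFunO K1 res (0 : LaurentSeries K1) = 0 := by
  have := redFunO_incO res hinj (0 : LaurentSeries O)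
  simpa using this

theorem redFunO_one (hinj : Function.Injective (algebraMap O K1)) :
    redFunO K1 res (1 : LaurentSeries K1) = 1 := by
  have := redFunO_incO res hinj (1 : LaurentSeries O)
  simpa using this

theorem redFunO_neg (hinj : Function.Injective (algebraMap O K1))
    {x : LaurentSeries K1} (hx : x ∈ VringO K1 res) :
    redFunO K1 res (-x) = -redFunO K1 res x := by
  have h1 := redFunO_add res hinj hx (neg_mem hx)
  rw [add_neg_cancel, redFunO_zero res hinj] at h1
  exact (neg_eq_of_add_eq_zero_right h1.symm).symm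

theorem redFunO_sum (hinj : Function.Injective (algebraMap O K1)) {ι : Type*}
    (s : Finset ι) (f : ι → LaurentSeries K1) (hf : ∀ i ∈ s, f i ∈ VringO K1 res) :
    redFunO K1 res (∑ i ∈ s, f i) = ∑ i ∈ s, redFunO K1 res (f i) := by
  classical
  induction s using Finset.induction_on with
  | empty => simpa using redFunO_zero res hinj
  | insert i s hi ih =>
    rw [Finset.sum_insert hi, Finset.sum_insert hi,
      redFunO_add res hinj (hf i (Finset.mem_insert_self i s))
        (Subring.sum_mem _ fun j hj => hf j (Finset.mem_insert_of_mem hj)),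
      ih fun j hj => hf j (Finset.mem_insert_of_mem hj)]

/-- Reduction as a ring homomorphism on the Gauss ring. -/
def redVO (hinj : Function.Injective (algebraMap O K1)) :
    VringO K1 res →+* LaurentSeries k1 where
  toFun x := redFunO K1 res (x : LaurentSeries K1)
  map_one' := redFunO_one res hinj
  map_mul' x y := redFunO_mul res hinj x.2 y.2
  map_zero' := redFunO_zero res hinj
  map_add' x y := redFunO_add res hinj x.2 y.2

theorem redVO_apply (hinj : Function.Injective (algebraMap O K1)) (x : VringO K1 res) :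
    redVO res hinj x = redFunO K1 res (x : LaurentSeries K1) := rfl

/-- An element of the Gauss ring with nonzero reduction is a unit of the Gauss ring. -/
theorem inv_mem_VringO (hinj : Function.Injective (algebraMap O K1))
    {x : LaurentSeries K1} (hx : x ∈ VringO K1 res) (h0 : redFunO K1 res x ≠ 0) :
    x⁻¹ ∈ VringO K1 res := by
  obtain ⟨a, b, hb, h⟩ := hx
  have ha : redO res a ≠ 0 := by
    intro ha
    apply h0
    rw [redFunO_eq res hinj hb h, ha, zero_div]
  have hb0 : incO K1 b ≠ 0 := by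
    intro hb0
    apply hb
    have : b = 0 := incO_injective K1 hinj (by rw [hb0, map_zero])
    rw [this, map_zero]
  have ha0 : incO K1 a ≠ 0 := by
    intro ha0
    apply ha
    have : a = 0 := incO_injective K1 hinj (by rw [ha0, map_zero])
    rw [this, map_zero]
  have hx0 : x ≠ 0 := by
    rintro rfl
    rw [mul_zero] at h
    exact ha0 h.symm
  refine ⟨b, a, ha, ?_⟩
  rw [← h]
  field_simp

end Gauss

/-! ## Part 2: the chart ring `O · C0` -/

section Chart

variable (N : ℕ) [NeZero N] (ℓ : ℕ) [Fact ℓ.Prime]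
  (C0 : Subalgebra (Rl ℓ) ↥(modularFunctionFieldFull N))
  (O : Type) (K1 : Type) {k1 : Type} [CommRing O] [Field K1] [CharZero K1] [Algebra O K1]
  [Field k1] [CharP k1 ℓ] (res : O →+* k1)

/-- Coefficientwise extension of scalars `ℚ((q)) → K1((q))`. -/
def embQ : LaurentSeries ℚ →+* LaurentSeries K1 := coeffMap (algebraMap ℚ K1)

@[simp] theorem embQ_coeff (x : LaurentSeries ℚ) (n : ℤ) :
    (embQ K1 x).coeff n = algebraMap ℚ K1 (x.coeff n) := rfl

/-- The `q`-expansion with coefficients in `K1` of an element of `C0`. -/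
def embC : C0 →+* LaurentSeries K1 where
  toFun x := embQ K1 ((x : ↥(modularFunctionFieldFull N)) : LaurentSeries ℚ)
  map_one' := by simp
  map_mul' x y := by simp
  map_zero' := by simp
  map_add' x y := by simp

theorem embC_apply (x : C0) :
    embC N ℓ C0 K1 x = embQ K1 ((x : ↥(modularFunctionFieldFull N)) : LaurentSeries ℚ) := rfl

/-- The products `c · x` (`c ∈ O`, `x ∈ C0`) form a submonoid of `K1((q))`. -/
def prodO : Submonoid (LaurentSeries K1) where
  carrier := {z | ∃ (c : O) (x : C0), z = cstO K1 c * embC N ℓ C0 K1 x}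
  mul_mem' := by
    rintro _ _ ⟨c, x, rfl⟩ ⟨c', x', rfl⟩
    exact ⟨c * c', x * x', by rw [map_mul, map_mul]; ring⟩
  one_mem' := ⟨1, 1, by simp⟩

/-- The chart ring `O · C0`: the subring of `K1((q))` generated by the constants of `O` and the
`q`-expansions of the elements of `C0` (the image of `C0 ⊗ O`). -/
def chartO : Subring (LaurentSeries K1) :=
  Subring.closure (prodO N ℓ C0 O K1 : Set (LaurentSeries K1))

variable {O K1}

theorem prod_mem_chartO (c : O) (x : C0) :
    cstO K1 c * embC N ℓ C0 K1 x ∈ chartO N ℓ C0 O K1 :=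
  Subring.subset_closure ⟨c, x, rfl⟩

theorem cstO_mem_chartO (c : O) : cstO K1 c ∈ chartO N ℓ C0 O K1 := by
  have := prod_mem_chartO N ℓ C0 (O := O) (K1 := K1) c (1 : C0)
  simpa using this

theorem embC_mem_chartO (x : C0) : embC N ℓ C0 K1 x ∈ chartO N ℓ C0 O K1 := by
  have := prod_mem_chartO N ℓ C0 (O := O) (K1 := K1) (1 : O) x
  simpa using this

theorem embQ_mem_chartO {x : ↥(modularFunctionFieldFull N)} (hx : x ∈ C0) :
    embQ K1 (x : LaurentSeries ℚ) ∈ chartO N ℓ C0 O K1 :=
  embC_mem_chartO N ℓ C0 (⟨x, hx⟩ : C0)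

/-- Induction principle: `O · C0` is additively generated by the products. -/
theorem chartO_induction {P : LaurentSeries K1 → Prop} (h0 : P 0)
    (hprod : ∀ (c : O) (x : C0), P (cstO K1 c * embC N ℓ C0 K1 x))
    (hadd : ∀ x y, P x → P y → P (x + y)) (hneg : ∀ x, P x → P (-x))
    {z : LaurentSeries K1} (hz : z ∈ chartO N ℓ C0 O K1) : P z := by
  rw [chartO, Subring.mem_closure_iff, Submonoid.closure_eq] at hz
  induction hz using AddSubgroup.closure_induction with
  | mem x hx =>
    obtain ⟨c, x, rfl⟩ := hx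
    exact hprod c x
  | zero => exact h0
  | add x y _ _ hx hy => exact hadd x y hx hy
  | neg x _ hx => exact hneg x hx

/-- Every element of `O · C0` is a finite sum of products. -/
theorem mem_chartO_iff {z : LaurentSeries K1} :
    z ∈ chartO N ℓ C0 O K1 ↔
      ∃ (n : ℕ) (c : Fin n → O) (x : Fin n → C0),
        z = ∑ i, cstO K1 (c i) * embC N ℓ C0 K1 (x i) := by
  constructor
  · intro hz
    refine chartO_induction N ℓ C0
      (P := fun z => ∃ (n : ℕ) (c : Fin n → O) (x : Fin n → C0),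
        z = ∑ i, cstO K1 (c i) * embC N ℓ C0 K1 (x i)) ?_ ?_ ?_ ?_ hz
    · exact ⟨0, Fin.elim0, Fin.elim0, by simp⟩
    · intro c x
      exact ⟨1, fun _ => c, fun _ => x, by simp⟩
    · rintro _ _ ⟨n, c, u, rfl⟩ ⟨m, d, v, rfl⟩
      refine ⟨n + m, Fin.append c d, Fin.append u v, ?_⟩
      rw [Fin.sum_univ_add]
      simp
    · rintro _ ⟨n, c, u, rfl⟩
      refine ⟨n, fun i => -c i, u, ?_⟩
      simp
  · rintro ⟨n, c, x, rfl⟩
    exact Subring.sum_mem _ fun i _ => prod_mem_chartO N ℓ C0 (c i) (x i)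

/-! ### The structure map `ℤ_(ℓ) → O` -/

/-- If the integers prime to `ℓ` are units of `O`, then `ℤ_(ℓ)` maps to `O`. -/
theorem exists_phi (hinj : Function.Injective (algebraMap O K1))
    (hunit : ∀ n : ℕ, ¬ ℓ ∣ n → IsUnit (n : O)) :
    ∃ φ : Rl ℓ →+* O, ∀ r : Rl ℓ, algebraMap O K1 (φ r) = algebraMap ℚ K1 (r : ℚ) := by
  have key : ∀ r : Rl ℓ, ∃ c : O, algebraMap O K1 c = algebraMap ℚ K1 (r : ℚ) := by
    intro r
    obtain ⟨u, hu⟩ := (hunit _ (not_dvd_den ℓ r)).exists_right_inv
    refine ⟨((r : ℚ).num : O) * u, ?_⟩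
    have h1 : (((r : ℚ).den : ℕ) : K1) * algebraMap O K1 u = 1 := by
      have := congrArg (algebraMap O K1) hu
      simpa using this
    have hden : (((r : ℚ).den : ℕ) : K1) ≠ 0 := Nat.cast_ne_zero.mpr (r : ℚ).den_ne_zero
    rw [map_mul, map_intCast, eq_ratCast, Rat.cast_def, eq_div_iff hden, mul_assoc,
      mul_comm (algebraMap O K1 u), h1, mul_one]
  choose f hf using key
  refine ⟨{ toFun := f, map_one' := ?_, map_mul' := ?_, map_zero' := ?_, map_add' := ?_ }, hf⟩
  · apply hinj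
    rw [hf]
    simp
  · intro a b
    apply hinj
    rw [map_mul, hf, hf, hf]
    simp
  · apply hinj
    rw [hf]
    simp
  · intro a b
    apply hinj
    rw [map_add, hf, hf, hf]
    simp

/-- A local version of the hypothesis: `res` detects units. -/
theorem isUnit_natCast_of_local (hloc : ∀ c : O, res c ≠ 0 → IsUnit c) (n : ℕ) (hn : ¬ ℓ ∣ n) :
    IsUnit (n : O) := by
  apply hloc
  rw [map_natCast]
  intro h
  exact hn ((CharP.cast_eq_zero_iff k1 ℓ n).mp h)

theorem res_comp_phi (φ : Rl ℓ →+* O) (r : Rl ℓ) :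
    res (φ r) = ZMod.castHom (dvd_refl ℓ) k1 (resR ℓ r) := by
  let _ : Algebra (Rl ℓ) k1 := (res.comp φ).toAlgebra
  exact Fermat.Agent.S28_TENSOR.algebraMap_eq_resR ℓ k1 r

theorem redO_coeffMap_phi (φ : Rl ℓ →+* O) (a : LaurentSeries (Rl ℓ)) :
    redO res (coeffMap φ a) = coeffMap (ZMod.castHom (dvd_refl ℓ) k1) (redL ℓ a) := by
  ext n
  simp only [redO_coeff, coeffMap_coeff, redL_coeff]
  exact res_comp_phi ℓ res φ _

theorem incO_coeffMap_phi (φ : Rl ℓ →+* O)
    (hφ : ∀ r : Rl ℓ, algebraMap O K1 (φ r) = algebraMap ℚ K1 (r : ℚ))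
    (a : LaurentSeries (Rl ℓ)) :
    incO K1 (coeffMap φ a) = embQ K1 (incL ℓ a) := by
  ext n
  simp only [incO_coeff, coeffMap_coeff, embQ_coeff, incL_coeff]
  exact hφ _

theorem coeffMap_castHom_injective :
    Function.Injective (coeffMap (ZMod.castHom (dvd_refl ℓ) k1)) := by
  intro a b h
  ext n
  have := congrArg (fun x => x.coeff n) h
  exact (ZMod.castHom (dvd_refl ℓ) k1).injective (by simpa using this)

/-! ### `O · C0` lies in the Gauss ring -/

section Mem

variable (hA : ∀ x ∈ C0, ((x : ↥(modularFunctionFieldFull N)) : LaurentSeries ℚ) ∈ Vring ℓ)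
  (hinj : Function.Injective (algebraMap O K1))
  (hunit : ∀ n : ℕ, ¬ ℓ ∣ n → IsUnit (n : O))

include hA hinj hunit

omit hA in
/-- Transport of a fraction representation from `ℤ_(ℓ)((q))` to `O((q))`. -/
theorem embQ_frac {x : LaurentSeries ℚ} (hx : x ∈ Vring ℓ) :
    ∃ a b : LaurentSeries O, redO res b ≠ 0 ∧ incO K1 b * embQ K1 x = incO K1 a ∧
      redO res a = coeffMap (ZMod.castHom (dvd_refl ℓ) k1) (redFun ℓ x) * redO res b := by
  obtain ⟨φ, hφ⟩ := exists_phi ℓ hinj hunit
  obtain ⟨a, b, hb, h⟩ := hx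
  refine ⟨coeffMap φ a, coeffMap φ b, ?_, ?_, ?_⟩
  · rw [redO_coeffMap_phi]
    intro h0
    apply hb
    apply coeffMap_castHom_injective ℓ (k1 := k1)
    rw [h0, map_zero]
  · rw [incO_coeffMap_phi ℓ φ hφ, incO_coeffMap_phi ℓ φ hφ, ← map_mul, h]
  · rw [redO_coeffMap_phi, redO_coeffMap_phi, redFun_eq ℓ hb h, ← map_mul,
      div_mul_cancel₀ _ hb]

omit hA in
theorem embQ_mem_VringO {x : LaurentSeries ℚ} (hx : x ∈ Vring ℓ) :
    embQ K1 x ∈ VringO K1 res := by
  obtain ⟨a, b, hb, h, -⟩ := embQ_frac ℓ res hinj hunit hx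
  exact ⟨a, b, hb, h⟩

omit hA in
theorem redFunO_embQ {x : LaurentSeries ℚ} (hx : x ∈ Vring ℓ) :
    redFunO K1 res (embQ K1 x) = coeffMap (ZMod.castHom (dvd_refl ℓ) k1) (redFun ℓ x) := by
  obtain ⟨a, b, hb, h, hab⟩ := embQ_frac ℓ res hinj hunit hx
  rw [redFunO_eq res hinj hb h, hab, mul_div_cancel_right₀ _ hb]

theorem embC_mem_VringO (x : C0) : embC N ℓ C0 K1 x ∈ VringO K1 res :=
  embQ_mem_VringO ℓ res hinj hunit (hA x x.2)

theorem redFunO_embC (x : C0) :
    redFunO K1 res (embC N ℓ C0 K1 x) =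
      coeffMap (ZMod.castHom (dvd_refl ℓ) k1)
        (redFun ℓ ((x : ↥(modularFunctionFieldFull N)) : LaurentSeries ℚ)) :=
  redFunO_embQ ℓ res hinj hunit (hA x x.2)

/-- `O · C0` is contained in the Gauss ring. -/
theorem chartO_le_VringO : chartO N ℓ C0 O K1 ≤ VringO K1 res := by
  rw [chartO, Subring.closure_le]
  rintro _ ⟨c, x, rfl⟩
  exact mul_mem (cstO_mem_VringO K1 res c) (embC_mem_VringO N ℓ C0 res hA hinj hunit x)

/-- Elementwise form: every element of `O · C0` is a fraction `a / b` of series over `O` with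
`b` of nonzero reduction. -/
theorem chartO_frac {z : LaurentSeries K1} (hz : z ∈ chartO N ℓ C0 O K1) :
    ∃ a b : LaurentSeries O, redO res b ≠ 0 ∧ incO K1 b * z = incO K1 a :=
  chartO_le_VringO N ℓ C0 res hA hinj hunit hz

/-- The reduction homomorphism of the chart ring. -/
def redChart : chartO N ℓ C0 O K1 →+* LaurentSeries k1 :=
  (redVO res hinj).comp (Subring.inclusion (chartO_le_VringO N ℓ C0 res hA hinj hunit))

theorem redChart_apply (z : chartO N ℓ C0 O K1) :
    redChart N ℓ C0 res hA hinj hunit z = redFunO K1 res (z : LaurentSeries K1) := rfl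

theorem redChart_spec (z : chartO N ℓ C0 O K1) {a b : LaurentSeries O} (hb : redO res b ≠ 0)
    (h : incO K1 b * (z : LaurentSeries K1) = incO K1 a) :
    redChart N ℓ C0 res hA hinj hunit z * redO res b = redO res a := by
  rw [redChart_apply]
  exact redFunO_mul_eq res hinj hb h

end Mem

/-! ### Saturation -/

theorem embC_smul (φ : Rl ℓ →+* O)
    (hφ : ∀ r : Rl ℓ, algebraMap O K1 (φ r) = algebraMap ℚ K1 (r : ℚ)) (r : Rl ℓ) (x : C0) :
    embC N ℓ C0 K1 (r • x) = cstO K1 (φ r) * embC N ℓ C0 K1 x := by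
  have h1 : (((r • x : C0) : ↥(modularFunctionFieldFull N)) : LaurentSeries ℚ) =
      incL ℓ (HahnSeries.single 0 r) * ((x : ↥(modularFunctionFieldFull N)) : LaurentSeries ℚ) := by
    rw [← Fermat.Agent.S28_TENSOR.coe_algebraMap N ℓ r]
    have h2 : ((r • x : C0) : ↥(modularFunctionFieldFull N)) =
        algebraMap (Rl ℓ) ↥(modularFunctionFieldFull N) r * (x : ↥(modularFunctionFieldFull N)) := by
      rw [Subalgebra.coe_smul, Algebra.smul_def]
    rw [h2]
    rfl
  rw [embC_apply, h1, map_mul, embC_apply, ← incO_coeffMap_phi ℓ φ hφ, coeffMap_single,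
    cstO_eq_incO]

/-- A family of elements of `O` whose residues form a basis of the `𝔽_ℓ`-span of the image of
`res`. -/
theorem exists_familyO (φ : Rl ℓ →+* O) (π : O)
    (hπ : ∀ c : O, res c = 0 → ∃ c' : O, c = π * c') :
    ∃ (ι : Type) (β : ι → O),
      (∀ c : O, ∃ (s : Finset ι) (r : ι → Rl ℓ) (d : O),
        c = ∑ i ∈ s, φ (r i) * β i + π * d) ∧
      (∀ (s : Finset ι) (a : ι → ZMod ℓ),
        ∑ i ∈ s, ZMod.castHom (dvd_refl ℓ) k1 (a i) * res (β i) = 0 → ∀ i ∈ s, a i = 0) := by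
  classical
  let _ := ZMod.algebra k1 ℓ
  obtain ⟨b, hbt, hspan, hli⟩ := exists_linearIndependent (ZMod ℓ) (Set.range res)
  have hlift : ∀ i : b, ∃ β : O, res β = (i : k1) := fun i => hbt i.2
  choose β hβ using hlift
  choose g hg using resR_surjective ℓ
  refine ⟨b, β, ?_, ?_⟩
  · intro c
    have hc : res c ∈ Submodule.span (ZMod ℓ) b := by
      rw [hspan]
      exact Submodule.subset_span ⟨c, rfl⟩
    rw [← Subtype.range_coe (s := b), Finsupp.mem_span_range_iff_exists_finsupp] at hc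
    obtain ⟨a, ha⟩ := hc
    have h0 : res (c - ∑ i ∈ a.support, φ (g (a i)) * β i) = 0 := by
      rw [map_sub, map_sum, ← ha, Finsupp.sum, sub_eq_zero]
      refine Finset.sum_congr rfl fun i _ => ?_
      rw [map_mul, hβ, res_comp_phi ℓ res φ, hg, Algebra.smul_def]
      rfl
    obtain ⟨d, hd⟩ := hπ _ h0
    exact ⟨a.support, fun i => g (a i), d, by rw [← hd]; ring⟩
  · intro s a h
    rw [linearIndependent_iff'] at hli
    refine hli s a ?_
    rw [← h]
    refine Finset.sum_congr rfl fun i _ => ?_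
    rw [Algebra.smul_def, hβ]
    rfl

/-- The uniformiser is not zero. -/
theorem pi_ne_zero (hinj : Function.Injective (algebraMap O K1)) (π : O)
    (hπ : ∀ c : O, res c = 0 → ∃ c' : O, c = π * c') (hℓ : res (ℓ : O) = 0) :
    algebraMap O K1 π ≠ 0 := by
  intro h
  have hπ' : π = 0 := hinj (by rw [h, map_zero])
  obtain ⟨u, hu⟩ := hπ _ hℓ
  rw [hπ', zero_mul] at hu
  have h2 := congrArg (algebraMap O K1) hu
  rw [map_natCast, map_zero] at h2
  exact (Fact.out : ℓ.Prime).ne_zero (Nat.cast_eq_zero.mp h2)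

section Sat

variable (hA : ∀ x ∈ C0, ((x : ↥(modularFunctionFieldFull N)) : LaurentSeries ℚ) ∈ Vring ℓ)
  (hkey : ∀ x ∈ C0, redFun ℓ ((x : ↥(modularFunctionFieldFull N)) : LaurentSeries ℚ) = 0 →
    ∃ y ∈ C0, x = (ℓ : ↥(modularFunctionFieldFull N)) * y)
  (hinj : Function.Injective (algebraMap O K1))
  (hunit : ∀ n : ℕ, ¬ ℓ ∣ n → IsUnit (n : O))
  (π : O) (hπ0 : res π = 0) (hπ : ∀ c : O, res c = 0 → ∃ c' : O, c = π * c')

include hA hkey hinj hunit hπ0 hπ

/-- **Saturation of `O · C0`**: an element of the chart ring whose reduction vanishes is `π` times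
an element of the chart ring. -/
theorem chartO_saturated {z : LaurentSeries K1} (hz : z ∈ chartO N ℓ C0 O K1)
    (h0 : redFunO K1 res z = 0) : ∃ w ∈ chartO N ℓ C0 O K1, z = cstO K1 π * w := by
  classical
  obtain ⟨φ, hφ⟩ := exists_phi ℓ hinj hunit
  obtain ⟨ι, β, hspan, hind⟩ := exists_familyO ℓ res φ π hπ
  let Ψ : (ι →₀ C0) →+ LaurentSeries K1 :=
    Finsupp.liftAddHom (fun i =>
      (AddMonoidHom.mulLeft (cstO K1 (β i))).comp (embC N ℓ C0 K1).toAddMonoidHom)
  have hΨ_single : ∀ i a, Ψ (Finsupp.single i a) = cstO K1 (β i) * embC N ℓ C0 K1 a := by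
    intro i a
    simp [Ψ]
  have hΨ : ∀ y, Ψ y = ∑ i ∈ y.support, cstO K1 (β i) * embC N ℓ C0 K1 (y i) := by
    intro y
    rw [Finsupp.liftAddHom_apply]
    rfl
  have hdec : ∃ (y : ι →₀ C0) (z' : LaurentSeries K1),
      z' ∈ chartO N ℓ C0 O K1 ∧ z = Ψ y + cstO K1 π * z' := by
    refine chartO_induction N ℓ C0
      (P := fun z => ∃ (y : ι →₀ C0) (z' : LaurentSeries K1),
        z' ∈ chartO N ℓ C0 O K1 ∧ z = Ψ y + cstO K1 π * z') ?_ ?_ ?_ ?_ hz
    · exact ⟨0, 0, zero_mem _, by simp⟩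
    · intro c x
      obtain ⟨s, r, d, hc⟩ := hspan c
      refine ⟨∑ i ∈ s, Finsupp.single i (r i • x), cstO K1 d * embC N ℓ C0 K1 x,
        prod_mem_chartO N ℓ C0 d x, ?_⟩
      rw [map_sum]
      simp only [hΨ_single]
      conv_lhs => rw [hc]
      rw [map_add, map_sum, add_mul, Finset.sum_mul, map_mul]
      congr 1
      · refine Finset.sum_congr rfl fun i _ => ?_
        rw [embC_smul N ℓ C0 φ hφ, map_mul]
        ring
      · ring
    · rintro _ _ ⟨y, z', hz', rfl⟩ ⟨y2, z2, hz2, rfl⟩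
      exact ⟨y + y2, z' + z2, add_mem hz' hz2, by rw [map_add]; ring⟩
    · rintro _ ⟨y, z', hz', rfl⟩
      exact ⟨-y, -z', neg_mem hz', by rw [map_neg Ψ y]; ring⟩
  obtain ⟨y, z', hz', rfl⟩ := hdec
  have hV := chartO_le_VringO N ℓ C0 res hA hinj hunit
  have hterm : ∀ i, cstO K1 (β i) * embC N ℓ C0 K1 (y i) ∈ VringO K1 res :=
    fun i => hV (prod_mem_chartO N ℓ C0 (β i) (y i))
  have hΨy_mem : Ψ y ∈ VringO K1 res := by
    rw [hΨ]
    exact Subring.sum_mem _ fun i _ => hterm i
  have hπz' : cstO K1 π * z' ∈ VringO K1 res := mul_mem (cstO_mem_VringO K1 res π) (hV hz')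
  have hred : ∑ i ∈ y.support, HahnSeries.single 0 (res (β i)) *
      coeffMap (ZMod.castHom (dvd_refl ℓ) k1)
        (redFun ℓ (((y i : C0) : ↥(modularFunctionFieldFull N)) : LaurentSeries ℚ)) = 0 := by
    have h1 : redFunO K1 res (Ψ y) = 0 := by
      have h2 := redFunO_add res hinj hΨy_mem hπz'
      rw [h0, redFunO_mul res hinj (cstO_mem_VringO K1 res π) (hV hz'), redFunO_cstO res hinj,
        hπ0, HahnSeries.single_eq_zero, zero_mul, add_zero] at h2
      exact h2.symm
    rw [hΨ, redFunO_sum res hinj _ _ (fun i _ => hterm i)] at h1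
    rw [← h1]
    refine Finset.sum_congr rfl fun i _ => ?_
    rw [redFunO_mul res hinj (cstO_mem_VringO K1 res _)
      (embC_mem_VringO N ℓ C0 res hA hinj hunit _), redFunO_cstO res hinj,
      redFunO_embC N ℓ C0 res hA hinj hunit]
  have hzero : ∀ i ∈ y.support,
      redFun ℓ (((y i : C0) : ↥(modularFunctionFieldFull N)) : LaurentSeries ℚ) = 0 := by
    intro i hi
    ext n
    have hn := congrArg (fun s : LaurentSeries k1 => s.coeff n) hred
    simp only [HahnSeries.coeff_sum, HahnSeries.coeff_single_zero_mul, coeffMap_coeff,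
      HahnSeries.coeff_zero] at hn
    refine hind y.support
      (fun j => (redFun ℓ (((y j : C0) : ↥(modularFunctionFieldFull N)) :
        LaurentSeries ℚ)).coeff n) ?_ i hi
    rw [← hn]
    exact Finset.sum_congr rfl fun j _ => mul_comm _ _
  obtain ⟨u, hu⟩ : ∃ u : O, (ℓ : O) = π * u := by
    apply hπ
    rw [map_natCast, CharP.cast_eq_zero]
  have hw : ∀ i, ∃ w ∈ chartO N ℓ C0 O K1,
      i ∈ y.support → cstO K1 (β i) * embC N ℓ C0 K1 (y i) = cstO K1 π * w := by
    intro i
    by_cases hi : i ∈ y.support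
    · obtain ⟨y', hy'C, hy'⟩ := hkey (y i) (y i).2 (hzero i hi)
      refine ⟨cstO K1 (u * β i) * embC N ℓ C0 K1 ⟨y', hy'C⟩,
        prod_mem_chartO N ℓ C0 _ _, fun _ => ?_⟩
      have h1 : embC N ℓ C0 K1 (y i) = cstO K1 (ℓ : O) * embC N ℓ C0 K1 ⟨y', hy'C⟩ := by
        rw [embC_apply, hy', embC_apply]
        simp
      rw [h1, hu, map_mul, map_mul]
      ring
    · exact ⟨0, zero_mem _, fun h => absurd h hi⟩
  choose w hwC hw' using hw
  refine ⟨∑ i ∈ y.support, w i + z', add_mem (Subring.sum_mem _ fun i _ => hwC i) hz', ?_⟩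
  rw [hΨ, mul_add, Finset.mul_sum]
  congr 1
  exact Finset.sum_congr rfl fun i hi => hw' i hi

/-- `O · C0 ∩ π V = π (O · C0)`, where `V` is the Gauss ring. -/
theorem chartO_inter_pi {z v : LaurentSeries K1} (hz : z ∈ chartO N ℓ C0 O K1)
    (hv : v ∈ VringO K1 res) (hzv : z = cstO K1 π * v) :
    ∃ w ∈ chartO N ℓ C0 O K1, z = cstO K1 π * w := by
  refine chartO_saturated N ℓ C0 res hA hkey hinj hunit π hπ0 hπ hz ?_
  rw [hzv, redFunO_mul res hinj (cstO_mem_VringO K1 res π) hv, redFunO_cstO res hinj, hπ0,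
    HahnSeries.single_eq_zero, zero_mul]

/-- The kernel of the reduction of the chart ring is generated by `π`. -/
theorem redChart_eq_zero_iff (z : chartO N ℓ C0 O K1) :
    redChart N ℓ C0 res hA hinj hunit z = 0 ↔
      ∃ w : chartO N ℓ C0 O K1, z = ⟨cstO K1 π, cstO_mem_chartO N ℓ C0 π⟩ * w := by
  constructor
  · intro h
    obtain ⟨w, hw, hzw⟩ := chartO_saturated N ℓ C0 res hA hkey hinj hunit π hπ0 hπ z.2 h
    exact ⟨⟨w, hw⟩, Subtype.ext hzw⟩
  · rintro ⟨w, rfl⟩
    rw [map_mul]
    have : redChart N ℓ C0 res hA hinj hunit ⟨cstO K1 π, cstO_mem_chartO N ℓ C0 π⟩ = 0 := by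
      rw [redChart_apply]
      show redFunO K1 res (cstO K1 π) = 0
      rw [redFunO_cstO res hinj, hπ0, HahnSeries.single_eq_zero]
    rw [this, zero_mul]

theorem redChart_ker :
    RingHom.ker (redChart N ℓ C0 res hA hinj hunit) =
      Ideal.span {(⟨cstO K1 π, cstO_mem_chartO N ℓ C0 π⟩ : chartO N ℓ C0 O K1)} := by
  ext z
  rw [RingHom.mem_ker, Ideal.mem_span_singleton',
    redChart_eq_zero_iff N ℓ C0 res hA hkey hinj hunit π hπ0 hπ]
  constructor
  · rintro ⟨w, rfl⟩
    exact ⟨w, mul_comm _ _⟩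
  · rintro ⟨w, rfl⟩
    exact ⟨w, mul_comm _ _⟩

/-- `π` is a prime element of the chart ring. -/
theorem prime_pi_chartO :
    Prime (⟨cstO K1 π, cstO_mem_chartO N ℓ C0 π⟩ : chartO N ℓ C0 O K1) := by
  rw [← Ideal.span_singleton_prime]
  · rw [← redChart_ker N ℓ C0 res hA hkey hinj hunit π hπ0 hπ]
    exact RingHom.ker_isPrime _
  · intro h
    have h1 := congrArg Subtype.val h
    have h2 : cstO K1 π = 0 := h1
    rw [cstO_apply, HahnSeries.single_eq_zero_iff] at h2
    exact pi_ne_zero ℓ res hinj π hπ (by rw [map_natCast, CharP.cast_eq_zero]) h2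

end Sat

end Chart

/-! ## Part 3: the two charts of the Igusa model -/

section Applied

variable (N : ℕ) [NeZero N] (ℓ : ℕ) [Fact ℓ.Prime]

theorem hA_fin : ∀ x ∈ chartAlgFin N ℓ,
    ((x : ↥(modularFunctionFieldFull N)) : LaurentSeries ℚ) ∈ Vring ℓ :=
  fun x hx => Fermat.Agent.S28_VAL2.chartAlg_le_Vring N ℓ _ (by simp) x hx

theorem hA_inf : ∀ x ∈ chartAlgInf N ℓ,
    ((x : ↥(modularFunctionFieldFull N)) : LaurentSeries ℚ) ∈ Vring ℓ :=
  fun x hx => Fermat.Agent.S28_VAL2.chartAlg_le_Vring N ℓ _ (by simp) x hx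

theorem hA_mid : ∀ x ∈ chartAlgMid N ℓ,
    ((x : ↥(modularFunctionFieldFull N)) : LaurentSeries ℚ) ∈ Vring ℓ :=
  fun x hx => Fermat.Agent.S28_VAL2.chartAlg_le_Vring N ℓ _ (by simp) x hx

theorem hkey_fin (hℓN : ¬ ℓ ∣ N) : ∀ x ∈ chartAlgFin N ℓ,
    redFun ℓ ((x : ↥(modularFunctionFieldFull N)) : LaurentSeries ℚ) = 0 →
      ∃ y ∈ chartAlgFin N ℓ, x = (ℓ : ↥(modularFunctionFieldFull N)) * y := by
  obtain ⟨D⟩ := Fermat.Agent.S28_helper14_UD.exists_unitData_h14 N
  exact fun x hx h => Fermat.Agent.S28_helper14_Key.key_fin N ℓ hℓN D x hx h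

theorem hkey_inf (hℓN : ¬ ℓ ∣ N) : ∀ x ∈ chartAlgInf N ℓ,
    redFun ℓ ((x : ↥(modularFunctionFieldFull N)) : LaurentSeries ℚ) = 0 →
      ∃ y ∈ chartAlgInf N ℓ, x = (ℓ : ↥(modularFunctionFieldFull N)) * y := by
  obtain ⟨D⟩ := Fermat.Agent.S28_helper14_UD.exists_unitData_h14 N
  exact fun x hx h => Fermat.Agent.S28_helper14_Key.key_inf N ℓ hℓN D x hx h

variable (O : Type) (K1 : Type) {k1 : Type} [CommRing O] [Field K1] [CharZero K1] [Algebra O K1]
  [Field k1] [CharP k1 ℓ] (res : O →+* k1)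

/-- The finite chart `A_0 = O · chartAlgFin` inside `K1((q))`. -/
abbrev chartFinO : Subring (LaurentSeries K1) := chartO N ℓ (chartAlgFin N ℓ) O K1

/-- The chart at infinity `A_∞ = O · chartAlgInf` inside `K1((q))`. -/
abbrev chartInfO : Subring (LaurentSeries K1) := chartO N ℓ (chartAlgInf N ℓ) O K1

/-- The overlap `A_mid = O · chartAlgMid` inside `K1((q))`. -/
abbrev chartMidO : Subring (LaurentSeries K1) := chartO N ℓ (chartAlgMid N ℓ) O K1

variable {O K1}

theorem embQ_jq : embQ K1 jq = jqModC K1 := by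
  rw [← jqModC_rat, embQ, coeffMap_jqModC]

theorem jq_mem_chartFinO : jqModC K1 ∈ chartFinO N ℓ O K1 := by
  rw [← embQ_jq]
  exact embC_mem_chartO N ℓ (chartAlgFin N ℓ) (jChartFin N ℓ)

theorem jq_inv_mem_chartInfO : (jqModC K1)⁻¹ ∈ chartInfO N ℓ O K1 := by
  have h := embC_mem_chartO N ℓ (chartAlgInf N ℓ) (O := O) (K1 := K1) (jInvChartInf N ℓ)
  have h2 : embC N ℓ (chartAlgInf N ℓ) K1 (jInvChartInf N ℓ) = (jqModC K1)⁻¹ := by
    rw [embC_apply, ← embQ_jq]
    show embQ K1 (((jFull N)⁻¹ : ↥(modularFunctionFieldFull N)) : LaurentSeries ℚ) = _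
    rw [IntermediateField.coe_inv, coe_jFull, map_inv₀]
  rwa [h2] at h

theorem chartO_mono {C0 C0' : Subalgebra (Rl ℓ) ↥(modularFunctionFieldFull N)} (h : C0 ≤ C0') :
    chartO N ℓ C0 O K1 ≤ chartO N ℓ C0' O K1 := by
  rw [chartO, Subring.closure_le]
  rintro _ ⟨c, x, rfl⟩
  exact prod_mem_chartO N ℓ C0' c ⟨x, h x.2⟩

theorem chartFinO_le_mid : chartFinO N ℓ O K1 ≤ chartMidO N ℓ O K1 :=
  chartO_mono N ℓ (chartAlg_mono N ℓ (sFin_subset N))

theorem chartInfO_le_mid : chartInfO N ℓ O K1 ≤ chartMidO N ℓ O K1 :=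
  chartO_mono N ℓ (chartAlg_mono N ℓ (sInf_subset N))

section

variable (hℓN : ¬ ℓ ∣ N) (hinj : Function.Injective (algebraMap O K1))
  (hunit : ∀ n : ℕ, ¬ ℓ ∣ n → IsUnit (n : O))
  (π : O) (hπ0 : res π = 0) (hπ : ∀ c : O, res c = 0 → ∃ c' : O, c = π * c')

include hinj hunit in
theorem chartFinO_le_VringO : chartFinO N ℓ O K1 ≤ VringO K1 res :=
  chartO_le_VringO N ℓ _ res (hA_fin N ℓ) hinj hunit

include hinj hunit in
theorem chartInfO_le_VringO : chartInfO N ℓ O K1 ≤ VringO K1 res :=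
  chartO_le_VringO N ℓ _ res (hA_inf N ℓ) hinj hunit

include hinj hunit in
theorem chartMidO_le_VringO : chartMidO N ℓ O K1 ≤ VringO K1 res :=
  chartO_le_VringO N ℓ _ res (hA_mid N ℓ) hinj hunit

include hℓN hinj hunit hπ0 hπ

/-- Saturation of the finite chart: `A_0 ∩ π V = π A_0`. -/
theorem chartFinO_saturated {z : LaurentSeries K1} (hz : z ∈ chartFinO N ℓ O K1)
    (h0 : redFunO K1 res z = 0) : ∃ w ∈ chartFinO N ℓ O K1, z = cstO K1 π * w :=
  chartO_saturated N ℓ _ res (hA_fin N ℓ) (hkey_fin N ℓ hℓN) hinj hunit π hπ0 hπ hz h0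

/-- Saturation of the chart at infinity: `A_∞ ∩ π V = π A_∞`. -/
theorem chartInfO_saturated {z : LaurentSeries K1} (hz : z ∈ chartInfO N ℓ O K1)
    (h0 : redFunO K1 res z = 0) : ∃ w ∈ chartInfO N ℓ O K1, z = cstO K1 π * w :=
  chartO_saturated N ℓ _ res (hA_inf N ℓ) (hkey_inf N ℓ hℓN) hinj hunit π hπ0 hπ hz h0

theorem prime_pi_chartFinO :
    Prime (⟨cstO K1 π, cstO_mem_chartO N ℓ _ π⟩ : chartFinO N ℓ O K1) :=
  prime_pi_chartO N ℓ _ res (hA_fin N ℓ) (hkey_fin N ℓ hℓN) hinj hunit π hπ0 hπ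

theorem prime_pi_chartInfO :
    Prime (⟨cstO K1 π, cstO_mem_chartO N ℓ _ π⟩ : chartInfO N ℓ O K1) :=
  prime_pi_chartO N ℓ _ res (hA_inf N ℓ) (hkey_inf N ℓ hℓN) hinj hunit π hπ0 hπ

end

end Applied

end Fermat.Agent.S18_helper18_TENSORO
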