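import Fermat.Agent.S18_helper20_P10

/-!
# S18, block A support: abstract bricks for "the chart ring is integrally closed"

* `S18NORM_mem_of_pow_mul_mem` (N1): a `π`-saturated subring `A` of a ring `V` contains every
  `x ∈ V` with `π ^ n * x ∈ A`.
* `S18NORM_ambient` (N2): the ambient form of P10 - inside a ring `L` receiving `E0 ⊗[K0] K1`
  injectively, an element integral over the image of `R0 ⊗[K0] K1` is a sum of products
  `(image of b) * (constant c)` with `b ∈ E0` integral over `R0`.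
* `S18NORM_exists_pow_mul_isIntegral` (N3): clearing denominators of the constants.
-/

set_option autoImplicit false

open scoped TensorProduct
open Polynomial

namespace Fermat.Agent.S18_helper20_NORMAL

open Fermat.Agent.S18_helper20_P10

/-- **(N1)** saturation implies closedness under division by powers of `π`. -/
theorem S18NORM_mem_of_pow_mul_mem {L : Type*} [CommRing L] [IsDomain L] (A V : Subring L)
    (π : L) (hπ0 : π ≠ 0) (hπV : π ∈ V)
    (hsat : ∀ a ∈ A, (∃ v ∈ V, a = π * v) → ∃ a' ∈ A, a = π * a')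
    {x : L} (hx : x ∈ V) (n : ℕ) (hn : π ^ n * x ∈ A) : x ∈ A := by
  induction n with
  | zero => simpa using hn
  | succ n ih =>
    have h1 : π ^ (n + 1) * x = π * (π ^ n * x) := by ring
    obtain ⟨a', ha', hEq⟩ := hsat _ hn ⟨π ^ n * x, V.mul_mem (V.pow_mem hπV n) hx, h1⟩
    have h2 : π ^ n * x = a' := by
      apply mul_left_cancel₀ hπ0
      rw [← h1, hEq]
    exact ih (h2 ▸ ha')

section Ambient

variable {K0 K1 R0 E0 L : Type*} [Field K0] [Field K1] [Algebra K0 K1]
  [CommRing R0] [Algebra K0 R0] [CommRing E0] [Algebra K0 E0] [Algebra R0 E0]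
  [IsScalarTower K0 R0 E0] [CommRing L]

/-- **(N2)**, tensor form: an element `z` of `E0 ⊗[K0] K1` whose image under an injective ring
hom `m` is integral over the image of `R0 ⊗[K0] K1` lies in `(integralClosure R0 E0) ⊗ K1`. -/
theorem S18NORM_ambient_mem_range [CharZero K0] [Algebra.IsAlgebraic K0 K1]
    (m : E0 ⊗[K0] K1 →+* L) (hm : Function.Injective m) (z : E0 ⊗[K0] K1)
    (hz : (m.comp (S18P10_bc K0 K1 R0 E0).toRingHom).IsIntegralElem (m z)) :
    z ∈ (Algebra.TensorProduct.map ((integralClosure R0 E0).val) (AlgHom.id K0 K1)).range := by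
  obtain ⟨P, hP, hPz⟩ := hz
  refine S18P10_mem_range_of_isAlgebraic z ⟨P, hP, ?_⟩
  apply hm
  rw [map_zero, hom_eval₂]
  exact hPz

/-- **(N2)**, elementwise form. -/
theorem S18NORM_ambient [CharZero K0] [Algebra.IsAlgebraic K0 K1]
    (m : E0 ⊗[K0] K1 →+* L) (hm : Function.Injective m) (z : E0 ⊗[K0] K1)
    (hz : (m.comp (S18P10_bc K0 K1 R0 E0).toRingHom).IsIntegralElem (m z)) :
    m z ∈ AddSubmonoid.closure
      {y : L | ∃ (b : E0) (c : K1), IsIntegral R0 b ∧ y = m (b ⊗ₜ[K0] c)} := by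
  obtain ⟨w, hw⟩ := S18NORM_ambient_mem_range m hm z hz
  rw [← hw]
  clear hw hz
  induction w using TensorProduct.induction_on with
  | zero =>
    have : (Algebra.TensorProduct.map ((integralClosure R0 E0).val) (AlgHom.id K0 K1)).toRingHom
        0 = 0 := map_zero _
    rw [this, map_zero]
    exact AddSubmonoid.zero_mem _
  | tmul b c => exact AddSubmonoid.subset_closure ⟨(b : E0), c, b.2, rfl⟩
  | add v w hv hw =>
    have : (Algebra.TensorProduct.map ((integralClosure R0 E0).val) (AlgHom.id K0 K1)).toRingHom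
        (v + w) = (Algebra.TensorProduct.map ((integralClosure R0 E0).val)
          (AlgHom.id K0 K1)).toRingHom v + (Algebra.TensorProduct.map
          ((integralClosure R0 E0).val) (AlgHom.id K0 K1)).toRingHom w := map_add _ _ _
    rw [this, map_add]
    exact AddSubmonoid.add_mem _ hv hw

end Ambient

section Clear

variable {Z K0 E0 : Type*} [CommRing Z] [Field K0] [Algebra Z K0] [CommRing E0] [Algebra Z E0]
  [Algebra K0 E0] [IsScalarTower Z K0 E0]

/-- Elements of `K0[S]` become elements of `Z[S]` after multiplication by a power of `ℓ`, when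
`K0 = Z[1/ℓ]`. -/
theorem S18NORM_exists_pow_mul_mem_adjoin (ℓ : Z)
    (hℓ : ∀ c : K0, ∃ (n : ℕ) (a : Z), algebraMap Z K0 ℓ ^ n * c = algebraMap Z K0 a)
    (S : Set E0) {y : E0} (hy : y ∈ Algebra.adjoin K0 S) :
    ∃ n : ℕ, algebraMap Z E0 ℓ ^ n * y ∈ Algebra.adjoin Z S := by
  have hℓA : algebraMap Z E0 ℓ ∈ Algebra.adjoin Z S := Subalgebra.algebraMap_mem _ ℓ
  induction hy using Algebra.adjoin_induction with
  | mem y hy => exact ⟨0, by rw [pow_zero, one_mul]; exact Algebra.subset_adjoin hy⟩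
  | algebraMap c =>
    obtain ⟨n, a, hna⟩ := hℓ c
    refine ⟨n, ?_⟩
    have h1 : algebraMap Z E0 ℓ ^ n * algebraMap K0 E0 c = algebraMap Z E0 a := by
      rw [IsScalarTower.algebraMap_apply Z K0 E0, IsScalarTower.algebraMap_apply Z K0 E0 a,
        ← map_pow, ← map_mul, hna]
    rw [h1]
    exact Subalgebra.algebraMap_mem _ a
  | add y z _ _ hy hz =>
    obtain ⟨m, hm⟩ := hy
    obtain ⟨n, hn⟩ := hz
    refine ⟨m + n, ?_⟩
    have : algebraMap Z E0 ℓ ^ (m + n) * (y + z) =
        algebraMap Z E0 ℓ ^ n * (algebraMap Z E0 ℓ ^ m * y) +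
          algebraMap Z E0 ℓ ^ m * (algebraMap Z E0 ℓ ^ n * z) := by ring
    rw [this]
    exact add_mem (mul_mem (pow_mem hℓA n) hm) (mul_mem (pow_mem hℓA m) hn)
  | mul y z _ _ hy hz =>
    obtain ⟨m, hm⟩ := hy
    obtain ⟨n, hn⟩ := hz
    refine ⟨m + n, ?_⟩
    have : algebraMap Z E0 ℓ ^ (m + n) * (y * z) =
        (algebraMap Z E0 ℓ ^ m * y) * (algebraMap Z E0 ℓ ^ n * z) := by ring
    rw [this]
    exact mul_mem hm hn

/-- **(N3)** clearing denominators: if `b` is integral over `K0[S]` and `K0 = Z[1/ℓ]`, then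
`ℓ ^ n * b` is integral over `Z[S]` for some `n`. -/
theorem S18NORM_exists_pow_mul_isIntegral [Nontrivial E0] (ℓ : Z)
    (hℓ : ∀ c : K0, ∃ (n : ℕ) (a : Z), algebraMap Z K0 ℓ ^ n * c = algebraMap Z K0 a)
    (S : Set E0) {b : E0} (hb : IsIntegral (Algebra.adjoin K0 S) b) :
    ∃ n : ℕ, IsIntegral (Algebra.adjoin Z S) (algebraMap Z E0 ℓ ^ n * b) := by
  classical
  obtain ⟨p, hmonic, hroot⟩ := hb
  set s : E0 := algebraMap Z E0 ℓ with hs
  have hsA : s ∈ Algebra.adjoin Z S := Subalgebra.algebraMap_mem _ ℓ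
  have hcoeff : ∀ i, ∃ n : ℕ, s ^ n * (p.coeff i : E0) ∈ Algebra.adjoin Z S :=
    fun i => S18NORM_exists_pow_mul_mem_adjoin ℓ hℓ S (p.coeff i).2
  choose n hn using hcoeff
  set M : ℕ := ∑ i ∈ Finset.range (p.natDegree + 1), n i with hM
  have hnM : ∀ i ≤ p.natDegree, n i ≤ M := fun i hi =>
    Finset.single_le_sum (f := n) (fun _ _ => Nat.zero_le _)
      (Finset.mem_range.mpr (Nat.lt_succ_of_le hi))
  set q : E0[X] := (p.map (algebraMap (Algebra.adjoin K0 S) E0)).scaleRoots (s ^ M) with hq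
  have hqmonic : q.Monic := (Polynomial.monic_scaleRoots_iff _).mpr (hmonic.map _)
  have hqroot : q.eval (s ^ M * b) = 0 := by
    rw [hq, Polynomial.scaleRoots_eval_mul, Polynomial.eval_map, hroot, mul_zero]
  have hqcoeff : ∀ i, q.coeff i ∈ Algebra.adjoin Z S := by
    intro i
    rw [hq, Polynomial.coeff_scaleRoots, Polynomial.coeff_map, hmonic.natDegree_map]
    by_cases hi : i < p.natDegree
    · have hle : n i ≤ M * (p.natDegree - i) := by
        calc n i ≤ M := hnM i hi.le
          _ = M * 1 := (mul_one M).symm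
          _ ≤ M * (p.natDegree - i) :=
            Nat.mul_le_mul_left M (Nat.one_le_iff_ne_zero.mpr (by omega))
      obtain ⟨k, hk⟩ := Nat.exists_eq_add_of_le hle
      have : (s ^ M) ^ (p.natDegree - i) = s ^ k * s ^ n i := by
        rw [← pow_mul, hk, pow_add, mul_comm]
      rw [this, Subalgebra.algebraMap_def, Algebra.algebraMap_self_apply,
        show (p.coeff i : E0) * (s ^ k * s ^ n i) = s ^ k * (s ^ n i * (p.coeff i : E0)) by ring]
      exact mul_mem (pow_mem hsA k) (hn i)
    · rcases (not_lt.mp hi).lt_or_eq with hlt | heq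
      · rw [Polynomial.coeff_eq_zero_of_natDegree_lt hlt, map_zero, zero_mul]
        exact zero_mem _
      · rw [← heq, hmonic.coeff_natDegree, map_one, one_mul, Nat.sub_self, pow_zero]
        exact one_mem _
  have hlifts : q ∈ Polynomial.lifts (algebraMap (Algebra.adjoin Z S) E0) :=
    (Polynomial.lifts_iff_coeff_lifts q).mpr fun i => ⟨⟨q.coeff i, hqcoeff i⟩, rfl⟩
  obtain ⟨q', hq'q, -, hq'monic⟩ := Polynomial.lifts_and_natDegree_eq_and_monic hlifts hqmonic
  refine ⟨M, q', hq'monic, ?_⟩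
  rw [Polynomial.eval₂_eq_eval_map, hq'q, hqroot]

end Clear

end Fermat.Agent.S18_helper20_NORMAL
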