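import Fermat.Agent.S18_helper14_ADefs
import Fermat.Agent.S18_helper18_TENSORO
import Fermat.Agent.S18_helper20_NORMAL
import Fermat.Agent.S18_helper20_CSAT

/-!
# S18, block A, piece X-A-SAT (helper20): the charts are saturated

Carriers as in `S18_helper14_ADefs`: `A0L = icl (adj OL j) F1L`, `AinfL = icl (adj OL j⁻¹) F1L`,
`VL = Vring ⊓ F1L`, inside `K1((q))`.

* `A0L_eq_chartFinO`, `AinfL_eq_chartInfO`: the integral closure of `O[j]` (resp. `O[j⁻¹]`) in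
  `F1` is the chart ring `O · chartAlgFin` (resp. `O · chartAlgInf`) of `S18_helper18_TENSORO`.
  The easy inclusion is functoriality of integrality; the other one goes through the generic
  fibre (`F_ℚ ⊗_ℚ K1 → K1((q))` is injective with image `F1`, P10 / N2), clearing of
  denominators (N3) and the saturation of the chart ring (N1).
* `A0L_sat`, `AinfL_sat`: the two charts are `π`-saturated in the Gauss valuation ring.

The base field `K1` is assumed algebraic over `ℚ`.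
-/

set_option autoImplicit false
set_option linter.unusedSectionVars false
set_option linter.unusedVariables false
set_option linter.style.haveILetI false

noncomputable section

open scoped TensorProduct
open ModularCurve ModularCurve.IgusaScheme Fermat.Agent.S28_helper14_Res
  Fermat.Agent.S18_helper18_TENSORO Fermat.Agent.S18_helper13_GAUSS
  Fermat.Agent.S18_helper9_CDefs Fermat.Agent.S18A Fermat.Agent.S18_helper20_NORMAL
  Fermat.Agent.S18_helper20_P10 Fermat.Agent.S18_helper20_CSAT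

namespace Fermat.Agent.S18_helper20_ASAT

section Basic

variable (N : ℕ) [NeZero N] (ℓ : ℕ) [Fact ℓ.Prime]
  {O K1 k : Type} [CommRing O] [IsDomain O] [IsDiscreteValuationRing O] [Field K1] [CharZero K1]
  [Algebra O K1] [IsFractionRing O K1] [Field k] [CharP k ℓ]
  (ρ : O →+* k) (hρ : ∀ x : O, ρ x = 0 ↔ x ∈ IsLocalRing.maximalIdeal O)

theorem S18ASAT_Vring_eq : (gd O K1 ρ hρ).Vring = VringO K1 ρ := rfl

theorem S18ASAT_redFun_eq : (gd O K1 ρ hρ).redFun = redFunO K1 ρ := rfl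

theorem S18ASAT_πL_eq : πL O K1 ρ hρ = cstO K1 (gd O K1 ρ hρ).π := rfl

theorem S18ASAT_OL_eq : OL O K1 = (cstO (O := O) K1).range := rfl

theorem S18ASAT_cstO_mem_OL (c : O) : cstO K1 c ∈ OL O K1 := ⟨c, rfl⟩

include hρ in
theorem S18ASAT_isUnit_of_res_ne_zero (c : O) (hc : ρ c ≠ 0) : IsUnit c := by
  by_contra h
  exact hc ((hρ c).mpr ((IsLocalRing.mem_maximalIdeal c).mpr h))

include hρ in
theorem S18ASAT_hunit (n : ℕ) (hn : ¬ ℓ ∣ n) : IsUnit (n : O) :=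
  isUnit_natCast_of_local ℓ ρ (S18ASAT_isUnit_of_res_ne_zero ρ hρ) n hn

theorem S18ASAT_hinj : Function.Injective (algebraMap O K1) := IsFractionRing.injective O K1

/-- the constants of `K1` are fractions with denominator a power of the uniformiser -/
theorem S18ASAT_exists_pow_mul (c : K1) :
    ∃ (n : ℕ) (a : O), algebraMap O K1 ((gd O K1 ρ hρ).π ^ n) * c = algebraMap O K1 a := by
  obtain ⟨a, b, hb, rfl⟩ := IsFractionRing.div_surjective (A := O) c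
  have hb0 : b ≠ 0 := nonZeroDivisors.ne_zero hb
  obtain ⟨n, u, hbu, hu⟩ := (gd O K1 ρ hρ).exists_normalize b hb0
  obtain ⟨u', hu'⟩ := (S18ASAT_isUnit_of_res_ne_zero ρ hρ u hu).exists_right_inv
  refine ⟨n, a * u', ?_⟩
  have hbK : algebraMap O K1 b ≠ 0 := (map_ne_zero_iff _ (S18ASAT_hinj (O := O) (K1 := K1))).mpr hb0
  have h1 : algebraMap O K1 b * algebraMap O K1 u' = algebraMap O K1 ((gd O K1 ρ hρ).π ^ n) := by
    rw [← map_mul, hbu, mul_assoc, hu', mul_one]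
  rw [← h1, map_mul]
  field_simp

/-- `ℓ` divides a power of the uniformiser: `π ^ e = ℓ * u'` -/
theorem S18ASAT_exists_pow_eq :
    ∃ (e : ℕ) (u' : O), (gd O K1 ρ hρ).π ^ e = (ℓ : O) * u' := by
  have hℓ0 : (ℓ : O) ≠ 0 := by
    intro h
    have h2 := congrArg (algebraMap O K1) h
    rw [map_natCast, map_zero] at h2
    exact (Fact.out : ℓ.Prime).ne_zero (Nat.cast_eq_zero.mp h2)
  obtain ⟨n, u, hbu, hu⟩ := (gd O K1 ρ hρ).exists_normalize (ℓ : O) hℓ0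
  obtain ⟨u', hu'⟩ := (S18ASAT_isUnit_of_res_ne_zero ρ hρ u hu).exists_right_inv
  exact ⟨n, u', by rw [hbu, mul_assoc, hu', mul_one]⟩

/-! ### the rational function field inside `F1` -/

omit [IsDomain O] [IsDiscreteValuationRing O] [Algebra O K1] [IsFractionRing O K1] in
theorem S18ASAT_embQ_algebraMap (c : ℚ) :
    embQ K1 (algebraMap ℚ (LaurentSeries ℚ) c) =
      algebraMap K1 (LaurentSeries K1) (algebraMap ℚ K1 c) := by
  rw [algebraMap_laurentSeries_eq_single, algebraMap_laurentSeries_eq_single, embQ,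
    coeffMap_single]

omit [IsDomain O] [IsDiscreteValuationRing O] [Algebra O K1] [IsFractionRing O K1] in
theorem S18ASAT_embQ_mem_F1L {x : LaurentSeries ℚ} (hx : x ∈ modularFunctionFieldFull N) :
    embQ K1 x ∈ F1L K1 N := by
  have h : (modularFunctionFieldFull N).toSubfield ≤ (F1L K1 N).comap (embQ K1) := by
    rw [modularFunctionFieldFull, IntermediateField.adjoin_toSubfield, Subfield.closure_le]
    rintro y (⟨c, rfl⟩ | ⟨d, hd, hdN, rfl⟩)
    · show embQ K1 (algebraMap ℚ (LaurentSeries ℚ) c) ∈ F1L K1 N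
      rw [S18ASAT_embQ_algebraMap]
      exact (modularFunctionFieldFullC K1 N).algebraMap_mem _
    · show embQ K1 (qExpand ℚ d jq) ∈ F1L K1 N
      haveI := hd
      have h1 : embQ K1 (qExpand ℚ d jq) = qExpand K1 d (jqModC K1) := by
        have := coeffMap_jqNModC (R := ℚ) (algebraMap ℚ K1) d
        exact this
      rw [h1]
      exact jqModCd_mem_full K1 N hdN
  exact h hx

theorem S18ASAT_cstO_eq_algebraMap (c : O) :
    cstO K1 c = algebraMap K1 (LaurentSeries K1) (algebraMap O K1 c) := by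
  rw [algebraMap_laurentSeries_eq_single]
  rfl

theorem S18ASAT_OL_le_F1L : OL O K1 ≤ (F1L K1 N).toSubring := by
  rintro _ ⟨c, rfl⟩
  show cstO K1 c ∈ F1L K1 N
  rw [S18ASAT_cstO_eq_algebraMap]
  exact (modularFunctionFieldFullC K1 N).algebraMap_mem _

/-- the ring homomorphism `F_ℚ → K1((q))` -/
def S18ASAT_f : ↥(modularFunctionFieldFull N) →+* LaurentSeries K1 :=
  (embQ K1).comp (modularFunctionFieldFull N).toSubring.subtype

omit [IsDomain O] [IsDiscreteValuationRing O] [Algebra O K1] [IsFractionRing O K1] in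
theorem S18ASAT_f_apply (x : ↥(modularFunctionFieldFull N)) :
    S18ASAT_f (K1 := K1) N x = embQ K1 (x : LaurentSeries ℚ) := rfl

include hρ in
/-- `ℤ_(ℓ)` maps into `O` -/
theorem S18ASAT_f_algebraMap (r : Rl ℓ) :
    ∃ c : O, S18ASAT_f (K1 := K1) N (algebraMap (Rl ℓ) ↥(modularFunctionFieldFull N) r) =
      cstO K1 c := by
  obtain ⟨φ, hφ⟩ := exists_phi (O := O) (K1 := K1) ℓ (S18ASAT_hinj (O := O) (K1 := K1))
    (S18ASAT_hunit ℓ ρ hρ)
  refine ⟨φ r, ?_⟩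
  have h2 : (S18ASAT_f (K1 := K1) N).comp (algebraMap ℚ ↥(modularFunctionFieldFull N)) =
      (HahnSeries.C : K1 →+* LaurentSeries K1).comp (algebraMap ℚ K1) := Subsingleton.elim _ _
  have h3 := congrArg (fun g : ℚ →+* LaurentSeries K1 => g (r : ℚ)) h2
  simp only [RingHom.comp_apply] at h3
  have h1 : algebraMap (Rl ℓ) ↥(modularFunctionFieldFull N) r =
      algebraMap ℚ ↥(modularFunctionFieldFull N) (r : ℚ) := rfl
  rw [h1, h3, ← hφ]
  rfl

include hρ in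
/-- the image of `ℤ_(ℓ)[S0]` lies in every subring containing `O` and the image of `S0` -/
theorem S18ASAT_f_adjoin_mem (S0 : Set ↥(modularFunctionFieldFull N))
    (R : Subring (LaurentSeries K1)) (hO : OL O K1 ≤ R)
    (hS : ∀ s ∈ S0, S18ASAT_f (K1 := K1) N s ∈ R)
    {r : ↥(modularFunctionFieldFull N)} (hr : r ∈ Algebra.adjoin (Rl ℓ) S0) :
    S18ASAT_f (K1 := K1) N r ∈ R := by
  induction hr using Algebra.adjoin_induction with
  | mem y hy => exact hS y hy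
  | algebraMap a =>
    obtain ⟨c, hc⟩ := S18ASAT_f_algebraMap (K1 := K1) N ℓ ρ hρ a
    rw [hc]
    exact hO (S18ASAT_cstO_mem_OL c)
  | add y z _ _ hy hz => rw [map_add]; exact R.add_mem hy hz
  | mul y z _ _ hy hz => rw [map_mul]; exact R.mul_mem hy hz

include hρ in
/-- **easy inclusion**: the chart ring `O · C0` consists of elements of `F1` integral over `R` -/
theorem S18ASAT_chartO_le_icl (S0 : Set ↥(modularFunctionFieldFull N))
    (R : Subring (LaurentSeries K1)) (hO : OL O K1 ≤ R)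
    (hS : ∀ s ∈ S0, S18ASAT_f (K1 := K1) N s ∈ R) :
    chartO N ℓ (chartAlg N ℓ S0) O K1 ≤ icl R (F1L K1 N) := by
  rw [chartO, Subring.closure_le]
  rintro _ ⟨c, x, rfl⟩
  refine Subring.mul_mem _ ?_ ?_
  · refine mem_icl.mpr ⟨?_, S18ASAT_OL_le_F1L N (S18ASAT_cstO_mem_OL c)⟩
    exact isIntegral_algebraMap (x := (⟨cstO K1 c, hO (S18ASAT_cstO_mem_OL c)⟩ : R))
  · refine mem_icl.mpr ⟨?_, S18ASAT_embQ_mem_F1L N (x : ↥(modularFunctionFieldFull N)).2⟩
    have hx : IsIntegral (Algebra.adjoin (Rl ℓ) S0) (x : ↥(modularFunctionFieldFull N)) := x.2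
    let φ : ↥(Algebra.adjoin (Rl ℓ) S0) →+* R :=
      ((S18ASAT_f (K1 := K1) N).comp (Algebra.adjoin (Rl ℓ) S0).toSubring.subtype).codRestrict R
        (fun r => S18ASAT_f_adjoin_mem N ℓ ρ hρ S0 R hO hS r.2)
    have hcomp : (algebraMap R (LaurentSeries K1)).comp φ =
        (S18ASAT_f (K1 := K1) N).comp
          (algebraMap (Algebra.adjoin (Rl ℓ) S0) ↥(modularFunctionFieldFull N)) := by
      ext r
      rfl
    exact hx.map_of_comp_eq φ (S18ASAT_f (K1 := K1) N) hcomp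

/-! ### integral elements lie in the Gauss ring -/

theorem S18ASAT_isFraction (c : K1) :
    ∃ a b : O, b ≠ 0 ∧ (gd O K1 ρ hρ).inc b * c = (gd O K1 ρ hρ).inc a := by
  obtain ⟨a, b, hb, h⟩ := IsFractionRing.div_surjective (A := O) c
  refine ⟨a, b, nonZeroDivisors.ne_zero hb, ?_⟩
  have hb0 : algebraMap O K1 b ≠ 0 :=
    (map_ne_zero_iff _ (IsFractionRing.injective O K1)).mpr (nonZeroDivisors.ne_zero hb)
  show algebraMap O K1 b * c = algebraMap O K1 a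
  rw [← h]
  field_simp

theorem S18ASAT_icl_le_Vring (x0 : LaurentSeries K1) (hx0 : x0 ∈ (gd O K1 ρ hρ).Vring) :
    icl (adj (OL O K1) x0) (F1L K1 N) ≤ (gd O K1 ρ hρ).Vring := by
  intro y hy
  have hadj : adj (OL O K1) x0 ≤ (gd O K1 ρ hρ).Vring := by
    refine Subring.closure_le.mpr ?_
    rintro z (hz | hz)
    · obtain ⟨c, rfl⟩ := hz
      exact cstO_mem_VringO K1 ρ c
    · rw [Set.mem_singleton_iff] at hz
      subst hz
      exact hx0
  have hint : IsIntegral (gd O K1 ρ hρ).Vring y := CSAT_isIntegral_mono hadj hy.1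
  refine (gd O K1 ρ hρ).mem_Vring_of_isIntegral ?_ hint
  exact (gd O K1 ρ hρ).modularFunctionFieldFullC_le_fracField (S18ASAT_isFraction ρ hρ) N y hy.2

theorem S18ASAT_j_mem_Vring : jqModC K1 ∈ (gd O K1 ρ hρ).Vring :=
  (gd O K1 ρ hρ).jqModC_mem_Vring

theorem S18ASAT_j_inv_mem_Vring : (jqModC K1)⁻¹ ∈ (gd O K1 ρ hρ).Vring := by
  refine (gd O K1 ρ hρ).inv_mem_Vring (gd O K1 ρ hρ).jqModC_mem_Vring ?_
  rw [(gd O K1 ρ hρ).redFun_jqModC]
  exact jqModC_ne_zero_of_nontrivial k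

end Basic

/-! ### the multiplication map `F_ℚ ⊗_ℚ K1 → K1((q))` -/

section Tensor

variable (N : ℕ) [NeZero N] (K1 : Type) [Field K1] [CharZero K1]

/-- the multiplication map `F_ℚ ⊗_ℚ K1 → K1((q))` -/
def S18ASAT_m : ↥(modularFunctionFieldFull N) ⊗[ℚ] K1 →ₐ[ℚ] LaurentSeries K1 :=
  Algebra.TensorProduct.productMap (S18ASAT_f (K1 := K1) N).toRatAlgHom
    (HahnSeries.C : K1 →+* LaurentSeries K1).toRatAlgHom

theorem S18ASAT_m_tmul (e : ↥(modularFunctionFieldFull N)) (c : K1) :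
    S18ASAT_m N K1 (e ⊗ₜ[ℚ] c) = embQ K1 (e : LaurentSeries ℚ) * HahnSeries.C c := by
  rw [S18ASAT_m, Algebra.TensorProduct.productMap_apply_tmul]
  rfl

theorem S18ASAT_m_injective : Function.Injective (S18ASAT_m N K1) := by
  classical
  rw [injective_iff_map_eq_zero]
  intro z hz
  set 𝒞 := Module.Free.chooseBasis ℚ K1 with h𝒞
  obtain ⟨b, rfl⟩ := TensorProduct.eq_repr_basis_right 𝒞 z
  rw [Finsupp.sum, map_sum] at hz
  have h1 : ∑ i ∈ b.support, HahnSeries.C (𝒞 i) *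
      coeffMap (algebraMap ℚ K1) ((b i : ↥(modularFunctionFieldFull N)) : LaurentSeries ℚ) = 0 := by
    rw [← hz]
    refine Finset.sum_congr rfl fun i _ => ?_
    rw [S18ASAT_m_tmul, mul_comm]
    rfl
  have h2 := eq_zero_of_sum_C_mul_eq_zero 𝒞.linearIndependent b.support
    (fun i => ((b i : ↥(modularFunctionFieldFull N)) : LaurentSeries ℚ)) h1
  have h3 : b = 0 := by
    refine Finsupp.ext fun i => ?_
    by_cases hi : i ∈ b.support
    · have := h2 i hi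
      simpa using this
    · simpa using hi
  rw [h3]
  simp

theorem S18ASAT_isIntegral_C [Algebra.IsAlgebraic ℚ K1] (c : K1) :
    letI : Algebra ↥(modularFunctionFieldFull N) (LaurentSeries K1) :=
      (S18ASAT_f (K1 := K1) N).toAlgebra
    IsIntegral ↥(modularFunctionFieldFull N) (HahnSeries.C c : LaurentSeries K1) := by
  letI : Algebra ↥(modularFunctionFieldFull N) (LaurentSeries K1) :=
    (S18ASAT_f (K1 := K1) N).toAlgebra
  have hc : IsIntegral ℚ c := (Algebra.IsAlgebraic.isAlgebraic (R := ℚ) c).isIntegral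
  exact hc.map_of_comp_eq (algebraMap ℚ ↥(modularFunctionFieldFull N))
    (HahnSeries.C : K1 →+* LaurentSeries K1) (Subsingleton.elim _ _)

theorem S18ASAT_isIntegral_m [Algebra.IsAlgebraic ℚ K1]
    (z : ↥(modularFunctionFieldFull N) ⊗[ℚ] K1) :
    letI : Algebra ↥(modularFunctionFieldFull N) (LaurentSeries K1) :=
      (S18ASAT_f (K1 := K1) N).toAlgebra
    IsIntegral ↥(modularFunctionFieldFull N) (S18ASAT_m N K1 z) := by
  letI : Algebra ↥(modularFunctionFieldFull N) (LaurentSeries K1) :=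
    (S18ASAT_f (K1 := K1) N).toAlgebra
  induction z using TensorProduct.induction_on with
  | zero => rw [map_zero]; exact isIntegral_zero
  | tmul e c =>
    rw [S18ASAT_m_tmul]
    refine IsIntegral.mul ?_ (S18ASAT_isIntegral_C N K1 c)
    exact isIntegral_algebraMap (x := e)
  | add v w hv hw => rw [map_add]; exact hv.add hw

/-- the image of `m` as a subfield of `K1((q))` -/
theorem S18ASAT_inv_mem_range [Algebra.IsAlgebraic ℚ K1] {x : LaurentSeries K1}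
    (hx : x ∈ (S18ASAT_m N K1).toRingHom.range) : x⁻¹ ∈ (S18ASAT_m N K1).toRingHom.range := by
  letI : Algebra ↥(modularFunctionFieldFull N) (LaurentSeries K1) :=
    (S18ASAT_f (K1 := K1) N).toAlgebra
  let T : Subalgebra ↥(modularFunctionFieldFull N) (LaurentSeries K1) :=
    { (S18ASAT_m N K1).toRingHom.range with
      algebraMap_mem' := fun e => ⟨e ⊗ₜ[ℚ] 1, by
        show S18ASAT_m N K1 (e ⊗ₜ[ℚ] 1) = _
        rw [S18ASAT_m_tmul, map_one, mul_one]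
        rfl⟩ }
  have hxT : x ∈ T := hx
  obtain ⟨z, rfl⟩ := hx
  have halg : IsAlgebraic ↥(modularFunctionFieldFull N) (((⟨_, hxT⟩ : T) : LaurentSeries K1)) :=
    (S18ASAT_isIntegral_m N K1 z).isAlgebraic
  exact Subalgebra.inv_mem_of_algebraic (A := T) (x := ⟨_, hxT⟩) halg

theorem S18ASAT_m_range [Algebra.IsAlgebraic ℚ K1] {y : LaurentSeries K1}
    (hy : y ∈ F1L K1 N) : ∃ z, S18ASAT_m N K1 z = y := by
  let T : Subfield (LaurentSeries K1) :=
    { (S18ASAT_m N K1).toRingHom.range with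
      inv_mem' := fun x hx => S18ASAT_inv_mem_range N K1 hx }
  have h : F1L K1 N ≤ T := by
    rw [F1L, modularFunctionFieldFullC, IntermediateField.adjoin_toSubfield, Subfield.closure_le]
    rintro y (⟨c, rfl⟩ | ⟨d, hd, hdN, rfl⟩)
    · refine ⟨1 ⊗ₜ[ℚ] c, ?_⟩
      show S18ASAT_m N K1 (1 ⊗ₜ[ℚ] c) = _
      rw [S18ASAT_m_tmul, algebraMap_laurentSeries_eq_single]
      simp
    · haveI := hd
      refine ⟨(⟨qExpand ℚ d jq, jqd_mem_full N hdN⟩ : ↥(modularFunctionFieldFull N)) ⊗ₜ[ℚ] 1, ?_⟩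
      show S18ASAT_m N K1 _ = _
      rw [S18ASAT_m_tmul, map_one, mul_one]
      exact coeffMap_jqNModC (R := ℚ) (algebraMap ℚ K1) d
  exact h hy

end Tensor

/-! ### the hard inclusion -/

section Lift

/-- an element integral over a subring contained in the range of `g` is `g`-integral -/
theorem S18ASAT_isIntegralElem_of_le {A B : Type*} [CommRing A] [CommRing B] (g : A →+* B)
    (R : Subring B) (hR : R ≤ g.range) {y : B} (hy : IsIntegral R y) : g.IsIntegralElem y := by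
  obtain ⟨p, hp, hpy⟩ := hy
  have hlifts : p.map (algebraMap R B) ∈ Polynomial.lifts g := by
    rw [Polynomial.lifts_iff_coeff_lifts]
    intro n
    rw [Polynomial.coeff_map]
    exact hR (p.coeff n).2
  obtain ⟨q, hq, -, hqm⟩ := Polynomial.lifts_and_natDegree_eq_and_monic hlifts (hp.map _)
  refine ⟨q, hqm, ?_⟩
  rw [Polynomial.eval₂_eq_eval_map, hq, Polynomial.eval_map]
  exact hpy

variable (ℓ : ℕ) [Fact ℓ.Prime]

/-- `ℚ = ℤ_(ℓ)[1/ℓ]` -/
theorem S18ASAT_rat_denom (c : ℚ) :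
    ∃ (n : ℕ) (a : Rl ℓ), algebraMap (Rl ℓ) ℚ (ℓ : Rl ℓ) ^ n * c = algebraMap (Rl ℓ) ℚ a := by
  obtain ⟨e, d', hd', hden⟩ :=
    Nat.exists_eq_pow_mul_and_not_dvd c.den_ne_zero ℓ (Fact.out : ℓ.Prime).ne_one
  have hd0 : (d' : ℚ) ≠ 0 := by
    intro h
    have : d' = 0 := by exact_mod_cast h
    rw [this, mul_zero] at hden
    exact c.den_ne_zero hden
  have hmem : ((c.num : ℚ) / (d' : ℚ)) ∈ GaloisRep.ratLocalizedAt ℓ := by
    apply mem_ratLocalizedAt_of_not_dvd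
    intro hd
    have h1 : ((((c.num : ℚ) / (d' : ℚ)).den : ℕ) : ℤ) ∣ ((d' : ℕ) : ℤ) := by
      have := Rat.den_dvd c.num (d' : ℤ)
      rwa [Rat.divInt_eq_div] at this
    exact hd' (hd.trans (Int.natCast_dvd_natCast.mp h1))
  refine ⟨e, ⟨_, hmem⟩, ?_⟩
  show ((ℓ : Rl ℓ) : ℚ) ^ e * c = (c.num : ℚ) / (d' : ℚ)
  have hℓ0 : (ℓ : ℚ) ≠ 0 := by exact_mod_cast (Fact.out : ℓ.Prime).ne_zero
  have hc : c = (c.num : ℚ) / (c.den : ℚ) := (Rat.num_div_den c).symm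
  conv_lhs => rw [hc, hden]
  push_cast
  field_simp

end Lift

section Main

variable (N : ℕ) [NeZero N] (ℓ : ℕ) [Fact ℓ.Prime]
  {O K1 k : Type} [CommRing O] [IsDomain O] [IsDiscreteValuationRing O] [Field K1] [CharZero K1]
  [Algebra O K1] [IsFractionRing O K1] [Field k] [CharP k ℓ]
  (ρ : O →+* k) (hρ : ∀ x : O, ρ x = 0 ↔ x ∈ IsLocalRing.maximalIdeal O)

omit [IsDomain O] [IsDiscreteValuationRing O] [IsFractionRing O K1] in
theorem S18ASAT_cstO_natCast (n : ℕ) : cstO K1 (n : O) = (n : LaurentSeries K1) := map_natCast _ n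

/-- generators: for `b ∈ F_ℚ` integral over `ℚ[S0]` and a constant `c ∈ K1`, a power of `π` moves
`b · c` into the chart ring `O · C0`. -/
theorem S18ASAT_gen (S0 : Set ↥(modularFunctionFieldFull N)) (b : ↥(modularFunctionFieldFull N))
    (hb : IsIntegral (Algebra.adjoin ℚ S0) b) (c : K1) :
    ∃ n : ℕ, πL O K1 ρ hρ ^ n * (embQ K1 (b : LaurentSeries ℚ) * HahnSeries.C c) ∈
      chartO N ℓ (chartAlg N ℓ S0) O K1 := by
  obtain ⟨n1, hn1⟩ := S18NORM_exists_pow_mul_isIntegral (Z := Rl ℓ) (K0 := ℚ)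
    (E0 := ↥(modularFunctionFieldFull N)) (ℓ : Rl ℓ) (S18ASAT_rat_denom ℓ) S0 hb
  obtain ⟨e, u', hu'⟩ := S18ASAT_exists_pow_eq (K1 := K1) ℓ ρ hρ
  obtain ⟨n2, a, ha⟩ := S18ASAT_exists_pow_mul (K1 := K1) ρ hρ c
  refine ⟨e * n1 + n2, ?_⟩
  have h1 : embC N ℓ (chartAlg N ℓ S0) K1 ⟨_, hn1⟩ ∈ chartO N ℓ (chartAlg N ℓ S0) O K1 :=
    embC_mem_chartO N ℓ (chartAlg N ℓ S0) _
  have h2 : embC N ℓ (chartAlg N ℓ S0) K1 ⟨_, hn1⟩ =
      (ℓ : LaurentSeries K1) ^ n1 * embQ K1 (b : LaurentSeries ℚ) := by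
    rw [embC_apply]
    show S18ASAT_f (K1 := K1) N
      (algebraMap (Rl ℓ) ↥(modularFunctionFieldFull N) (ℓ : Rl ℓ) ^ n1 * b) = _
    rw [map_mul, map_pow, map_natCast, map_natCast]
    rfl
  have h3 : πL O K1 ρ hρ ^ (e * n1) =
      (ℓ : LaurentSeries K1) ^ n1 * cstO K1 u' ^ n1 := by
    rw [S18ASAT_πL_eq, pow_mul, ← map_pow, hu', map_mul, mul_pow, S18ASAT_cstO_natCast]
  have h4 : πL O K1 ρ hρ ^ n2 * HahnSeries.C c = cstO K1 a := by
    rw [S18ASAT_πL_eq, ← map_pow]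
    show HahnSeries.C (algebraMap O K1 ((gd O K1 ρ hρ).π ^ n2)) * HahnSeries.C c =
      HahnSeries.C (algebraMap O K1 a)
    rw [← map_mul, ha]
  have h5 : πL O K1 ρ hρ ^ (e * n1 + n2) * (embQ K1 (b : LaurentSeries ℚ) * HahnSeries.C c) =
      cstO K1 u' ^ n1 * cstO K1 a *
        ((ℓ : LaurentSeries K1) ^ n1 * embQ K1 (b : LaurentSeries ℚ)) := by
    rw [pow_add, h3, ← h4]
    ring
  rw [h5, ← h2]
  exact Subring.mul_mem _ (Subring.mul_mem _
    (Subring.pow_mem _ (cstO_mem_chartO N ℓ _ u') n1) (cstO_mem_chartO N ℓ _ a)) h1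

theorem S18ASAT_πL_mem_chartO (C0 : Subalgebra (Rl ℓ) ↥(modularFunctionFieldFull N)) :
    πL O K1 ρ hρ ∈ chartO N ℓ C0 O K1 := by
  rw [S18ASAT_πL_eq]
  exact cstO_mem_chartO N ℓ C0 _

/-- every element of `F1` integral over `O[x0]` is moved into `O · C0` by a power of `π` -/
theorem S18ASAT_exists_pow_mul_mem [Algebra.IsAlgebraic ℚ K1]
    (s0 : ↥(modularFunctionFieldFull N)) {y : LaurentSeries K1}
    (hy : y ∈ icl (adj (OL O K1) (S18ASAT_f (K1 := K1) N s0)) (F1L K1 N)) :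
    ∃ n : ℕ, πL O K1 ρ hρ ^ n * y ∈ chartO N ℓ (chartAlg N ℓ {s0}) O K1 := by
  obtain ⟨z, rfl⟩ := S18ASAT_m_range N K1 hy.2
  set R0 : Subalgebra ℚ ↥(modularFunctionFieldFull N) := Algebra.adjoin ℚ {s0} with hR0
  set g : ↥R0 ⊗[ℚ] K1 →+* LaurentSeries K1 :=
    (S18ASAT_m N K1).toRingHom.comp
      (S18P10_bc ℚ K1 ↥R0 ↥(modularFunctionFieldFull N)).toRingHom with hg
  have hle : adj (OL O K1) (S18ASAT_f (K1 := K1) N s0) ≤ g.range := by
    refine Subring.closure_le.mpr ?_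
    rintro x (⟨c, rfl⟩ | hx)
    · refine ⟨(1 : ↥R0) ⊗ₜ[ℚ] algebraMap O K1 c, ?_⟩
      show S18ASAT_m N K1 (S18P10_bc ℚ K1 ↥R0 ↥(modularFunctionFieldFull N)
        ((1 : ↥R0) ⊗ₜ[ℚ] algebraMap O K1 c)) = _
      rw [S18P10_bc_tmul, S18ASAT_m_tmul, map_one]
      simp
    · rw [Set.mem_singleton_iff] at hx
      subst hx
      refine ⟨(⟨s0, Algebra.subset_adjoin rfl⟩ : ↥R0) ⊗ₜ[ℚ] 1, ?_⟩
      show S18ASAT_m N K1 (S18P10_bc ℚ K1 ↥R0 ↥(modularFunctionFieldFull N)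
        ((⟨s0, Algebra.subset_adjoin rfl⟩ : ↥R0) ⊗ₜ[ℚ] 1)) = _
      rw [S18P10_bc_tmul, S18ASAT_m_tmul, map_one, mul_one]
      rfl
  have hz : g.IsIntegralElem (S18ASAT_m N K1 z) := S18ASAT_isIntegralElem_of_le g _ hle hy.1
  have hcl := S18NORM_ambient (K0 := ℚ) (K1 := K1) (R0 := ↥R0)
    (E0 := ↥(modularFunctionFieldFull N)) (S18ASAT_m N K1).toRingHom
    (S18ASAT_m_injective N K1) z hz
  refine AddSubmonoid.closure_induction
    (motive := fun y _ => ∃ n : ℕ, πL O K1 ρ hρ ^ n * y ∈ chartO N ℓ (chartAlg N ℓ {s0}) O K1)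
    ?_ ?_ ?_ hcl
  · rintro _ ⟨b, c, hb, rfl⟩
    show ∃ n : ℕ, πL O K1 ρ hρ ^ n * S18ASAT_m N K1 (b ⊗ₜ[ℚ] c) ∈ _
    rw [S18ASAT_m_tmul]
    exact S18ASAT_gen N ℓ ρ hρ {s0} b hb c
  · exact ⟨0, by rw [mul_zero]; exact Subring.zero_mem _⟩
  · rintro y1 y2 - - ⟨n1, h1⟩ ⟨n2, h2⟩
    refine ⟨n1 + n2, ?_⟩
    have : πL O K1 ρ hρ ^ (n1 + n2) * (y1 + y2) =
        πL O K1 ρ hρ ^ n2 * (πL O K1 ρ hρ ^ n1 * y1) +
          πL O K1 ρ hρ ^ n1 * (πL O K1 ρ hρ ^ n2 * y2) := by ring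
    rw [this]
    exact Subring.add_mem _
      (Subring.mul_mem _ (Subring.pow_mem _ (S18ASAT_πL_mem_chartO N ℓ ρ hρ _) n2) h1)
      (Subring.mul_mem _ (Subring.pow_mem _ (S18ASAT_πL_mem_chartO N ℓ ρ hρ _) n1) h2)

end Main

/-! ### the identification `chart ring = integral closure` and the saturation -/

section Final

open Fermat.Agent.S28_helper14_Val

variable (N : ℕ) [NeZero N] (ℓ : ℕ) [Fact ℓ.Prime]
  {O K1 k : Type} [CommRing O] [IsDomain O] [IsDiscreteValuationRing O] [Field K1] [CharZero K1]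
  [Algebra O K1] [IsFractionRing O K1] [Algebra.IsAlgebraic ℚ K1] [Field k] [CharP k ℓ]
  (ρ : O →+* k) (hρ : ∀ x : O, ρ x = 0 ↔ x ∈ IsLocalRing.maximalIdeal O)

/-- saturation of the chart ring in the Gauss ring, in the shape used below -/
theorem S18ASAT_chartO_sat (C0 : Subalgebra (Rl ℓ) ↥(modularFunctionFieldFull N))
    (hA : ∀ x ∈ C0, ((x : ↥(modularFunctionFieldFull N)) : LaurentSeries ℚ) ∈ Vring ℓ)
    (hkey : ∀ x ∈ C0, redFun ℓ ((x : ↥(modularFunctionFieldFull N)) : LaurentSeries ℚ) = 0 →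
      ∃ y ∈ C0, x = (ℓ : ↥(modularFunctionFieldFull N)) * y)
    {a : LaurentSeries K1} (ha : a ∈ chartO N ℓ C0 O K1)
    (hv : ∃ v ∈ (gd O K1 ρ hρ).Vring, a = πL O K1 ρ hρ * v) :
    ∃ a' ∈ chartO N ℓ C0 O K1, a = πL O K1 ρ hρ * a' := by
  obtain ⟨v, hv, hav⟩ := hv
  exact chartO_inter_pi N ℓ C0 ρ hA hkey (S18ASAT_hinj (O := O) (K1 := K1))
    (S18ASAT_hunit ℓ ρ hρ) (gd O K1 ρ hρ).π (gd O K1 ρ hρ).res_π
    (fun c hc => ((gd O K1 ρ hρ).res_eq_zero_iff c).mp hc) ha hv hav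

/-- **the chart ring is the integral closure** (general one-generator form) -/
theorem S18ASAT_icl_eq_chartO (s0 : ↥(modularFunctionFieldFull N))
    (hs0 : S18ASAT_f (K1 := K1) N s0 ∈ (gd O K1 ρ hρ).Vring)
    (hA : ∀ x ∈ chartAlg N ℓ {s0},
      ((x : ↥(modularFunctionFieldFull N)) : LaurentSeries ℚ) ∈ Vring ℓ)
    (hkey : ∀ x ∈ chartAlg N ℓ {s0},
      redFun ℓ ((x : ↥(modularFunctionFieldFull N)) : LaurentSeries ℚ) = 0 →
        ∃ y ∈ chartAlg N ℓ {s0}, x = (ℓ : ↥(modularFunctionFieldFull N)) * y) :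
    icl (adj (OL O K1) (S18ASAT_f (K1 := K1) N s0)) (F1L K1 N) =
      chartO N ℓ (chartAlg N ℓ {s0}) O K1 := by
  apply le_antisymm
  · intro y hy
    obtain ⟨n, hn⟩ := S18ASAT_exists_pow_mul_mem N ℓ ρ hρ s0 hy
    have hyV : y ∈ (gd O K1 ρ hρ).Vring := S18ASAT_icl_le_Vring N ρ hρ _ hs0 hy
    exact S18NORM_mem_of_pow_mul_mem (chartO N ℓ (chartAlg N ℓ {s0}) O K1)
      (gd O K1 ρ hρ).Vring (πL O K1 ρ hρ) (gd O K1 ρ hρ).πK_ne_zero
      (gd O K1 ρ hρ).πK_mem_Vring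
      (fun a ha hv => S18ASAT_chartO_sat N ℓ ρ hρ _ hA hkey ha hv) hyV n hn
  · refine S18ASAT_chartO_le_icl N ℓ ρ hρ {s0} _ (CSAT_O_le_adj _ _) ?_
    intro s hs
    rw [Set.mem_singleton_iff] at hs
    subst hs
    exact CSAT_mem_adj _ _

omit [IsDomain O] [IsDiscreteValuationRing O] [Algebra O K1] [IsFractionRing O K1]
  [Algebra.IsAlgebraic ℚ K1] in
theorem S18ASAT_f_jFull : S18ASAT_f (K1 := K1) N (jFull N) = jqModC K1 := by
  rw [S18ASAT_f_apply, coe_jFull, embQ_jq]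

omit [IsDomain O] [IsDiscreteValuationRing O] [Algebra O K1] [IsFractionRing O K1]
  [Algebra.IsAlgebraic ℚ K1] in
theorem S18ASAT_f_jFull_inv : S18ASAT_f (K1 := K1) N (jFull N)⁻¹ = (jqModC K1)⁻¹ := by
  rw [map_inv₀, S18ASAT_f_jFull]

include ρ hρ in
/-- **`A_0` is the chart ring `O · chartAlgFin`.** -/
theorem A0L_eq_chartFinO (hℓN : ¬ ℓ ∣ N) : A0L O K1 N = chartFinO N ℓ O K1 := by
  have h := S18ASAT_icl_eq_chartO (K1 := K1) N ℓ ρ hρ (jFull N)
    (by rw [S18ASAT_f_jFull]; exact S18ASAT_j_mem_Vring ρ hρ) (hA_fin N ℓ) (hkey_fin N ℓ hℓN)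
  rw [S18ASAT_f_jFull (K1 := K1) N] at h
  exact h

include ρ hρ in
/-- **`A_∞` is the chart ring `O · chartAlgInf`.** -/
theorem AinfL_eq_chartInfO (hℓN : ¬ ℓ ∣ N) : AinfL O K1 N = chartInfO N ℓ O K1 := by
  have h := S18ASAT_icl_eq_chartO (K1 := K1) N ℓ ρ hρ (jFull N)⁻¹
    (by rw [S18ASAT_f_jFull_inv]; exact S18ASAT_j_inv_mem_Vring ρ hρ) (hA_inf N ℓ)
    (hkey_inf N ℓ hℓN)
  rw [S18ASAT_f_jFull_inv (K1 := K1) N] at h
  exact h

/-- **X-A-SAT**, finite chart: `A_0 ∩ π V = π A_0`. -/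
theorem A0L_sat (hℓN : ¬ ℓ ∣ N) :
    ∀ v ∈ VL O K1 ρ hρ N, πL O K1 ρ hρ * v ∈ A0L O K1 N → v ∈ A0L O K1 N := by
  intro v hv hπv
  rw [A0L_eq_chartFinO N ℓ ρ hρ hℓN] at hπv ⊢
  obtain ⟨w, hw, hEq⟩ := S18ASAT_chartO_sat N ℓ ρ hρ _ (hA_fin N ℓ) (hkey_fin N ℓ hℓN) hπv
    ⟨v, hv.1, rfl⟩
  have hvw : v = w := mul_left_cancel₀ (gd O K1 ρ hρ).πK_ne_zero hEq
  rw [hvw]
  exact hw

/-- **X-A-SAT**, chart at infinity: `A_∞ ∩ π V = π A_∞`. -/
theorem AinfL_sat (hℓN : ¬ ℓ ∣ N) :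
    ∀ v ∈ VL O K1 ρ hρ N, πL O K1 ρ hρ * v ∈ AinfL O K1 N → v ∈ AinfL O K1 N := by
  intro v hv hπv
  rw [AinfL_eq_chartInfO N ℓ ρ hρ hℓN] at hπv ⊢
  obtain ⟨w, hw, hEq⟩ := S18ASAT_chartO_sat N ℓ ρ hρ _ (hA_inf N ℓ) (hkey_inf N ℓ hℓN) hπv
    ⟨v, hv.1, rfl⟩
  have hvw : v = w := mul_left_cancel₀ (gd O K1 ρ hρ).πK_ne_zero hEq
  rw [hvw]
  exact hw

end Final

end Fermat.Agent.S18_helper20_ASAT
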