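import Fermat.Agent.S18_helper14_SETUP
import Fermat.Agent.S18_helper20_ASAT
import Fermat.Agent.S18_helper25_GLUE

/-!
# S37, B1-KAPPA-BC (helper20): base change of KAPPA

KAPPA says that the residue field of the Gauss valuation of the level-`N` function field is the
level-`N` function field over the residue field: the reduction of `V ∩ F1` lies in
`modularFunctionFieldFullC k N`.  This file reduces KAPPA for an arbitrary base `(O, K1, k)` to
KAPPA on the chart `chartAlgFin N ℓ` over `ℤ_(ℓ)` (hypothesis `hκ`), using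
`A_0 = O · chartAlgFin` (`S18_helper20_ASAT`) and `V ∩ F1 = (A_0)_(π)` (`Chart.loc`).
-/

set_option autoImplicit false
set_option linter.unusedSectionVars false
set_option linter.unusedVariables false
set_option linter.style.haveILetI false

noncomputable section

open ModularCurve ModularCurve.IgusaScheme Fermat.Agent.S28_helper14_Res
  Fermat.Agent.S28_helper14_Val
  Fermat.Agent.S18_helper18_TENSORO Fermat.Agent.S18_helper13_GAUSS
  Fermat.Agent.S18_helper9_CDefs Fermat.Agent.S18A Fermat.Agent.S18_helper20_ASAT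
  Fermat.Agent.S18_helper25_COREDefs

namespace Fermat.Agent.S37_helper20_KAPPABC

section Abstract

variable (N : ℕ) [NeZero N] (ℓ : ℕ) [Fact ℓ.Prime]
  {O K1 k : Type} [CommRing O] [IsDomain O] [IsDiscreteValuationRing O] [Field K1] [CharZero K1]
  [Algebra O K1] [IsFractionRing O K1] [Field k] [CharP k ℓ]
  (ρ : O →+* k) (hρ : ∀ x : O, ρ x = 0 ↔ x ∈ IsLocalRing.maximalIdeal O)

/-- the constants belong to the function field -/
theorem S37KBC_single_mem (c : k) :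
    (HahnSeries.single 0 c : LaurentSeries k) ∈ modularFunctionFieldFullC k N := by
  rw [← algebraMap_laurentSeries_eq_single]
  exact (modularFunctionFieldFullC k N).algebraMap_mem c

/-- base change `𝔽_ℓ → k` of KAPPA on a chart -/
theorem S37KBC_castHom_mem {x : LaurentSeries (ZMod ℓ)}
    (hx : x ∈ modularFunctionFieldFullC (ZMod ℓ) N) :
    coeffMap (ZMod.castHom (dvd_refl ℓ) k) x ∈ modularFunctionFieldFullC k N :=
  Fermat.Agent.S18_helper25_GLUE.S18G_coeffMap_mem (ZMod.castHom (dvd_refl ℓ) k) N hx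

include hρ in
/-- **reduction of the chart ring** `O · C0`: it lies in the function field over `k` as soon as
the reduction of `C0` lies in the function field over `𝔽_ℓ`. -/
theorem S37KBC_redFun_chartO (C0 : Subalgebra (Rl ℓ) ↥(modularFunctionFieldFull N))
    (hA : ∀ x ∈ C0, ((x : ↥(modularFunctionFieldFull N)) : LaurentSeries ℚ) ∈ Vring ℓ)
    (hκ : ∀ x ∈ C0, redFun ℓ ((x : ↥(modularFunctionFieldFull N)) : LaurentSeries ℚ) ∈
      modularFunctionFieldFullC (ZMod ℓ) N)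
    {a : LaurentSeries K1} (ha : a ∈ chartO N ℓ C0 O K1) :
    redFunO K1 ρ a ∈ modularFunctionFieldFullC k N := by
  have hinj := S18ASAT_hinj (O := O) (K1 := K1)
  have hunit := S18ASAT_hunit (O := O) ℓ ρ hρ
  have key : a ∈ VringO K1 ρ ∧ redFunO K1 ρ a ∈ modularFunctionFieldFullC k N := by
    refine chartO_induction N ℓ C0
      (P := fun z => z ∈ VringO K1 ρ ∧ redFunO K1 ρ z ∈ modularFunctionFieldFullC k N)
      ?_ ?_ ?_ ?_ ha
    · refine ⟨zero_mem _, ?_⟩
      rw [redFunO_zero ρ hinj]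
      exact zero_mem _
    · intro c x
      have h1 := cstO_mem_VringO K1 ρ c
      have h2 := embC_mem_VringO N ℓ C0 ρ hA hinj hunit x
      refine ⟨mul_mem h1 h2, ?_⟩
      rw [redFunO_mul ρ hinj h1 h2, redFunO_cstO ρ hinj, redFunO_embC N ℓ C0 ρ hA hinj hunit]
      exact mul_mem (S37KBC_single_mem N _) (S37KBC_castHom_mem N ℓ (hκ x x.2))
    · rintro x y ⟨hx, hx'⟩ ⟨hy, hy'⟩
      refine ⟨add_mem hx hy, ?_⟩
      rw [redFunO_add ρ hinj hx hy]
      exact add_mem hx' hy'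
    · rintro x ⟨hx, hx'⟩
      refine ⟨neg_mem hx, ?_⟩
      rw [redFunO_neg ρ hinj hx]
      exact neg_mem hx'
  exact key.2

variable [Algebra.IsAlgebraic ℚ K1]

/-- **KAPPA for an arbitrary base, from KAPPA on the chart over `ℤ_(ℓ)`.** -/
theorem S37KBC_kappa (hℓN : ¬ ℓ ∣ N)
    (hκ : ∀ x ∈ chartAlgFin N ℓ,
      redFun ℓ ((x : ↥(modularFunctionFieldFull N)) : LaurentSeries ℚ) ∈
        modularFunctionFieldFullC (ZMod ℓ) N) :
    ∀ y ∈ VL O K1 ρ hρ N, (gd O K1 ρ hρ).redFun y ∈ modularFunctionFieldFullC k N := by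
  intro y hy
  have S := setup (K1 := K1) N ℓ ρ hρ hℓN
  obtain ⟨b, hbA, hb0, hbinv, hyb⟩ := S.chart0.loc y hy
  have hchart : ∀ a ∈ A0L O K1 N, (gd O K1 ρ hρ).redFun a ∈ modularFunctionFieldFullC k N := by
    intro a ha
    rw [A0L_eq_chartFinO N ℓ ρ hρ hℓN] at ha
    exact S37KBC_redFun_chartO N ℓ ρ hρ _ (hA_fin N ℓ) hκ ha
  have hbV : b ∈ (gd O K1 ρ hρ).Vring := (S.chart0.le_V hbA).1
  have h1 : (gd O K1 ρ hρ).redFun b * (gd O K1 ρ hρ).redFun b⁻¹ = 1 := by
    rw [← (gd O K1 ρ hρ).redFun_mul hbV hbinv.1, mul_inv_cancel₀ hb0, (gd O K1 ρ hρ).redFun_one]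
  have h2 : (gd O K1 ρ hρ).redFun b⁻¹ = ((gd O K1 ρ hρ).redFun b)⁻¹ :=
    eq_inv_of_mul_eq_one_right h1
  have h3 : y = y * b * b⁻¹ := by
    rw [mul_assoc, mul_inv_cancel₀ hb0, mul_one]
  rw [h3, (gd O K1 ρ hρ).redFun_mul (S.chart0.le_V hyb).1 hbinv.1, h2]
  exact mul_mem (hchart _ hyb) (inv_mem (hchart _ hbA))

end Abstract

/-! ### the other charts over `ℤ_(ℓ)` -/

section Charts

variable (N : ℕ) [NeZero N] (ℓ : ℕ) [Fact ℓ.Prime]

theorem S37KBC_redFun_mul {x y : LaurentSeries ℚ} (hx : x ∈ Vring ℓ) (hy : y ∈ Vring ℓ) :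
    redFun ℓ (x * y) = redFun ℓ x * redFun ℓ y := by
  have h := map_mul (red ℓ) (⟨x, hx⟩ : Vring ℓ) (⟨y, hy⟩ : Vring ℓ)
  rw [red_apply, red_apply, red_apply] at h
  exact h

theorem S37KBC_redFun_pow {x : LaurentSeries ℚ} (hx : x ∈ Vring ℓ) (n : ℕ) :
    redFun ℓ (x ^ n) = redFun ℓ x ^ n := by
  have h := map_pow (red ℓ) (⟨x, hx⟩ : Vring ℓ) n
  rw [red_apply, red_apply] at h
  exact h

theorem S37KBC_jq_mem_Vring : jq ∈ Vring ℓ := by
  rw [Fermat.Agent.S28_VAL2.jq_eq_incL ℓ]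
  exact incL_mem_Vring ℓ _

/-- KAPPA on the middle chart `ℤ_(ℓ)[j, j⁻¹]`-closure follows from KAPPA on the finite chart. -/
theorem S37KBC_kappa_mid
    (hκ : ∀ x ∈ chartAlgFin N ℓ,
      redFun ℓ ((x : ↥(modularFunctionFieldFull N)) : LaurentSeries ℚ) ∈
        modularFunctionFieldFullC (ZMod ℓ) N) :
    ∀ x ∈ chartAlgMid N ℓ,
      redFun ℓ ((x : ↥(modularFunctionFieldFull N)) : LaurentSeries ℚ) ∈
        modularFunctionFieldFullC (ZMod ℓ) N := by
  intro x hx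
  have hx' : x ∈ chartAlg N ℓ (insert (jFull N)⁻¹ {jFull N}) := by
    rw [Set.pair_comm]
    exact hx
  obtain ⟨n, hn⟩ := exists_pow_mul_mem_chartAlg (N := N) (ℓ := ℓ) (S := {jFull N})
    (s := jFull N) rfl (jFull_ne_zero N) hx'
  have h1 := hκ _ hn
  have hxV : ((x : ↥(modularFunctionFieldFull N)) : LaurentSeries ℚ) ∈ Vring ℓ :=
    hA_mid N ℓ x hx
  have h2 : ((jFull N ^ n * x : ↥(modularFunctionFieldFull N)) : LaurentSeries ℚ) =
      jq ^ n * ((x : ↥(modularFunctionFieldFull N)) : LaurentSeries ℚ) := rfl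
  rw [h2, S37KBC_redFun_mul ℓ (Subring.pow_mem _ (S37KBC_jq_mem_Vring ℓ) n) hxV,
    S37KBC_redFun_pow ℓ (S37KBC_jq_mem_Vring ℓ), Fermat.Agent.S28_VAL2.redFun_jq] at h1
  have hj : jqModC (ZMod ℓ) ∈ modularFunctionFieldFullC (ZMod ℓ) N := jqModC_mem_full _ N
  have hj0 : jqModC (ZMod ℓ) ≠ 0 := jqModC_ne_zero_of_nontrivial _
  have h3 : redFun ℓ ((x : ↥(modularFunctionFieldFull N)) : LaurentSeries ℚ) =
      (jqModC (ZMod ℓ) ^ n)⁻¹ * (jqModC (ZMod ℓ) ^ n *
        redFun ℓ ((x : ↥(modularFunctionFieldFull N)) : LaurentSeries ℚ)) := by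
    rw [← mul_assoc, inv_mul_cancel₀ (pow_ne_zero n hj0), one_mul]
  rw [h3]
  exact mul_mem (inv_mem (pow_mem hj n)) h1

/-- KAPPA on the chart at infinity follows from KAPPA on the finite chart. -/
theorem S37KBC_kappa_inf
    (hκ : ∀ x ∈ chartAlgFin N ℓ,
      redFun ℓ ((x : ↥(modularFunctionFieldFull N)) : LaurentSeries ℚ) ∈
        modularFunctionFieldFullC (ZMod ℓ) N) :
    ∀ x ∈ chartAlgInf N ℓ,
      redFun ℓ ((x : ↥(modularFunctionFieldFull N)) : LaurentSeries ℚ) ∈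
        modularFunctionFieldFullC (ZMod ℓ) N :=
  fun x hx => S37KBC_kappa_mid N ℓ hκ x (chartAlg_mono N ℓ (sInf_subset N) hx)

/-- KAPPA on a chart, with coefficients in any field `k` of characteristic `ℓ`, in terms of the
reduction `rho` of `S28_TENSOR`. -/
theorem S37KBC_rho_mem (k : Type) [Field k] [CharP k ℓ] [Algebra (Rl ℓ) k]
    (C0 : Subalgebra (Rl ℓ) ↥(modularFunctionFieldFull N))
    (hA : ∀ x ∈ C0, ((x : ↥(modularFunctionFieldFull N)) : LaurentSeries ℚ) ∈ Vring ℓ)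
    (hκ : ∀ x ∈ C0, redFun ℓ ((x : ↥(modularFunctionFieldFull N)) : LaurentSeries ℚ) ∈
      modularFunctionFieldFullC (ZMod ℓ) N) (x : C0) :
    Fermat.Agent.S28_TENSOR.rho N ℓ k C0 hA x ∈ modularFunctionFieldFullC k N := by
  rw [Fermat.Agent.S28_TENSOR.rho_apply]
  exact S37KBC_castHom_mem N ℓ (hκ x x.2)

end Charts

/-! ### the integrator's carriers -/

section Concrete

variable (N : ℕ) [NeZero N] {ℓ : ℕ} [Fact ℓ.Prime]

/-- **KAPPA for the carriers `S18K_*`, from KAPPA on the chart over `ℤ_(ℓ)`.** -/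
theorem S37KBC_kappaK (A : ValuationSubring (AlgebraicClosure ℚ)) (hA : A.LiesOverPrime ℓ)
    (hℓN : ¬ ℓ ∣ N)
    (hκ : ∀ x ∈ chartAlgFin N ℓ,
      redFun ℓ ((x : ↥(modularFunctionFieldFull N)) : LaurentSeries ℚ) ∈
        modularFunctionFieldFullC (ZMod ℓ) N)
    (K1 : IntermediateField ℚ (AlgebraicClosure ℚ))
    [IsDiscreteValuationRing (S18K_O1 A K1)] :
    ∀ y ∈ S18K_V A K1 N,
      (S18K_D A K1).redFun y ∈ modularFunctionFieldFullC (IsLocalRing.ResidueField A) N := by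
  haveI : CharP (IsLocalRing.ResidueField A) ℓ :=
    Fermat.Agent.S18_helper5_BASE.S18A1_charP_residue A (Fact.out : ℓ.Prime) hA
  haveI : Algebra.IsAlgebraic ℚ ↥K1 :=
    Fermat.Agent.S18_helper5_BASE.S18A1_isAlgebraic_of_embedding ↥K1
      (algebraMap ↥K1 (AlgebraicClosure ℚ))
  exact S37KBC_kappa N ℓ (S18K_res A K1) (S18K_res_eq_zero_iff A K1) hℓN hκ

/-- the same in the binder shape of the contract `S18K_BlocksAB` -/
theorem S37KBC_kappaK_admissible (A : ValuationSubring (AlgebraicClosure ℚ))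
    (hA : A.LiesOverPrime ℓ) (hℓN : ¬ ℓ ∣ N)
    (hκ : ∀ x ∈ chartAlgFin N ℓ,
      redFun ℓ ((x : ↥(modularFunctionFieldFull N)) : LaurentSeries ℚ) ∈
        modularFunctionFieldFullC (ZMod ℓ) N)
    (K1 : IntermediateField ℚ (AlgebraicClosure ℚ)) (h : S18K_Admissible A K1 ℓ) :
    letI := h.dvr
    ∀ y ∈ S18K_V A K1 N,
      (S18K_D A K1).redFun y ∈ modularFunctionFieldFullC (IsLocalRing.ResidueField A) N :=
  letI := h.dvr
  S37KBC_kappaK N A hA hℓN hκ K1

end Concrete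

end Fermat.Agent.S37_helper20_KAPPABC
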