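import Mathlib
import Fermat.Prelude.Def_ModularCurve_X0ModL

/-!
# S37 / B1-KAPPA, piece KTHETA: the formal derivation `θ = q d/dq` on Laurent series

`S37K_theta R : LaurentSeries R →+ LaurentSeries R` multiplies the coefficient of `q ^ n` by `n`.
It satisfies the Leibniz rule, kills constants, commutes with coefficient maps and satisfies
`θ (f (q ^ d)) = d • (θ f) (q ^ d)`.

`S37K_DeltaS R` is the `q`-expansion of the discriminant `Δ = q ∏ (1 - q ^ n) ^ 24` with
coefficients in `R`.
-/

set_option autoImplicit false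

open HahnSeries ModularCurve

noncomputable section

namespace Fermat.Agent.S37_helper27_KTHETA

variable {R : Type*} [CommRing R]

/-- The series `θ x = ∑ n x_n q ^ n`. -/
def S37K_thetaFun (x : LaurentSeries R) : LaurentSeries R where
  coeff n := (n : R) * x.coeff n
  isPWO_support' := x.isPWO_support.mono fun n hn => by
    simp only [Function.mem_support, ne_eq] at hn
    rw [HahnSeries.mem_support]
    intro h
    exact hn (by rw [h, mul_zero])

@[simp] theorem S37K_thetaFun_coeff (x : LaurentSeries R) (n : ℤ) :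
    (S37K_thetaFun x).coeff n = (n : R) * x.coeff n := rfl

variable (R) in
/-- The derivation `θ = q d/dq` as an additive map. -/
def S37K_theta : LaurentSeries R →+ LaurentSeries R where
  toFun := S37K_thetaFun
  map_zero' := by
    ext n
    simp
  map_add' x y := by
    ext n
    simp [mul_add]

@[simp] theorem S37K_theta_coeff (x : LaurentSeries R) (n : ℤ) :
    (S37K_theta R x).coeff n = (n : R) * x.coeff n := rfl

theorem S37K_support_theta_subset (x : LaurentSeries R) :
    (S37K_theta R x).support ⊆ x.support := fun n hn => by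
  rw [HahnSeries.mem_support] at hn ⊢
  intro h
  exact hn (by rw [S37K_theta_coeff, h, mul_zero])

/-- **Leibniz rule.** -/
theorem S37K_theta_mul (x y : LaurentSeries R) :
    S37K_theta R (x * y) = S37K_theta R x * y + x * S37K_theta R y := by
  ext n
  rw [S37K_theta_coeff, HahnSeries.coeff_add, HahnSeries.coeff_mul,
    HahnSeries.coeff_mul_left' x.isPWO_support (S37K_support_theta_subset x),
    HahnSeries.coeff_mul_right' y.isPWO_support (S37K_support_theta_subset y),
    Finset.mul_sum, ← Finset.sum_add_distrib]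
  refine Finset.sum_congr rfl fun ij hij => ?_
  have h := (Finset.mem_antidiagonal.mp hij).2.2
  rw [S37K_theta_coeff, S37K_theta_coeff, ← h]
  push_cast
  ring

theorem S37K_theta_single (n : ℤ) (r : R) :
    S37K_theta R (HahnSeries.single n r) = HahnSeries.single n ((n : R) * r) := by
  ext m
  rw [S37K_theta_coeff]
  by_cases h : m = n
  · subst h
    rw [HahnSeries.coeff_single_same, HahnSeries.coeff_single_same]
  · rw [HahnSeries.coeff_single_of_ne h, HahnSeries.coeff_single_of_ne h, mul_zero]

@[simp] theorem S37K_theta_C (r : R) : S37K_theta R (HahnSeries.C r) = 0 := by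
  ext m
  rw [S37K_theta_coeff, HahnSeries.coeff_zero]
  by_cases h : m = 0
  · subst h
    simp
  · rw [HahnSeries.C_apply, HahnSeries.coeff_single_of_ne h, mul_zero]

@[simp] theorem S37K_theta_one : S37K_theta R (1 : LaurentSeries R) = 0 := by
  rw [← map_one (HahnSeries.C : R →+* LaurentSeries R), S37K_theta_C]

theorem S37K_theta_C_mul (r : R) (x : LaurentSeries R) :
    S37K_theta R (HahnSeries.C r * x) = HahnSeries.C r * S37K_theta R x := by
  rw [S37K_theta_mul, S37K_theta_C, zero_mul, zero_add]

theorem S37K_theta_natCast (n : ℕ) : S37K_theta R ((n : ℕ) : LaurentSeries R) = 0 := by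
  rw [← map_natCast (HahnSeries.C : R →+* LaurentSeries R), S37K_theta_C]

theorem S37K_theta_pow (x : LaurentSeries R) (n : ℕ) :
    S37K_theta R (x ^ (n + 1)) = ((n + 1 : ℕ) : LaurentSeries R) * x ^ n * S37K_theta R x := by
  induction n with
  | zero => simp
  | succ n ih =>
    rw [pow_succ, S37K_theta_mul, ih]
    push_cast
    ring

/-- `θ` commutes with coefficient maps. -/
theorem S37K_theta_coeffMap {S : Type*} [CommRing S] (f : R →+* S) (x : LaurentSeries R) :
    S37K_theta S (coeffMap f x) = coeffMap f (S37K_theta R x) := by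
  ext n
  rw [S37K_theta_coeff, coeffMap_coeff, coeffMap_coeff, S37K_theta_coeff, map_mul, map_intCast]

/-- `θ (f (q ^ d)) = d (θ f) (q ^ d)`. -/
theorem S37K_theta_qExpand (d : ℕ) [NeZero d] (x : LaurentSeries R) :
    S37K_theta R (qExpand R d x) = HahnSeries.C (d : R) * qExpand R d (S37K_theta R x) := by
  ext n
  rw [S37K_theta_coeff, HahnSeries.C_mul_eq_smul, HahnSeries.coeff_smul, smul_eq_mul]
  by_cases h : (d : ℤ) ∣ n
  · obtain ⟨m, rfl⟩ := h
    rw [qExpand_coeff_mul, qExpand_coeff_mul, S37K_theta_coeff]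
    push_cast
    ring
  · rw [qExpand_coeff_of_not_dvd d x h, qExpand_coeff_of_not_dvd d _ h, mul_zero, mul_zero]

section Field

variable {k : Type*} [Field k]

theorem S37K_theta_inv (x : LaurentSeries k) (hx : x ≠ 0) :
    S37K_theta k x⁻¹ = -(S37K_theta k x) * (x⁻¹) ^ 2 := by
  have h : S37K_theta k (x * x⁻¹) = 0 := by
    rw [mul_inv_cancel₀ hx, S37K_theta_one]
  rw [S37K_theta_mul] at h
  have h2 : x * S37K_theta k x⁻¹ = -(S37K_theta k x * x⁻¹) := by
    rw [eq_neg_iff_add_eq_zero, add_comm]
    exact h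
  calc S37K_theta k x⁻¹ = x⁻¹ * (x * S37K_theta k x⁻¹) := by
        rw [← mul_assoc, inv_mul_cancel₀ hx, one_mul]
    _ = -(S37K_theta k x) * (x⁻¹) ^ 2 := by
        rw [h2]
        ring

end Field

/-! ### The discriminant series -/

variable (R) in
/-- The `q`-expansion of `Δ` with coefficients in `R`. -/
def S37K_DeltaS : LaurentSeries R :=
  HahnSeries.single (1 : ℤ) (1 : R) *
    HahnSeries.ofPowerSeries ℤ R (dedekindEtaUnit.map (Int.castRingHom R))

variable (R) in
/-- The inverse of the `q`-expansion of `Δ`. -/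
def S37K_DeltaInvS : LaurentSeries R :=
  HahnSeries.single (-1 : ℤ) (1 : R) *
    HahnSeries.ofPowerSeries ℤ R (dedekindEtaUnitInv.map (Int.castRingHom R))

theorem S37K_DeltaS_mul_inv : S37K_DeltaS R * S37K_DeltaInvS R = 1 := by
  unfold S37K_DeltaS S37K_DeltaInvS
  have h2 : dedekindEtaUnit.map (Int.castRingHom R) * dedekindEtaUnitInv.map (Int.castRingHom R)
      = 1 := by
    rw [← map_mul, dedekindEtaUnit_mul_inv, map_one]
  have h3 : (HahnSeries.single (1 : ℤ) (1 : R)) * HahnSeries.single (-1 : ℤ) (1 : R) = 1 := by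
    rw [HahnSeries.single_mul_single]
    simp
  calc HahnSeries.single (1 : ℤ) (1 : R) *
        HahnSeries.ofPowerSeries ℤ R (dedekindEtaUnit.map (Int.castRingHom R)) *
      (HahnSeries.single (-1 : ℤ) (1 : R) *
        HahnSeries.ofPowerSeries ℤ R (dedekindEtaUnitInv.map (Int.castRingHom R)))
      = (HahnSeries.single (1 : ℤ) (1 : R) * HahnSeries.single (-1 : ℤ) (1 : R)) *
        (HahnSeries.ofPowerSeries ℤ R (dedekindEtaUnit.map (Int.castRingHom R)) *
          HahnSeries.ofPowerSeries ℤ R (dedekindEtaUnitInv.map (Int.castRingHom R))) := by ring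
    _ = 1 := by rw [h3, ← map_mul, h2, map_one, one_mul]

theorem S37K_coeffMap_DeltaS {S : Type*} [CommRing S] (f : R →+* S) :
    coeffMap f (S37K_DeltaS R) = S37K_DeltaS S := by
  unfold S37K_DeltaS
  rw [map_mul, coeffMap_single, map_one, coeffMap_ofPowerSeries,
    ← RingHom.comp_apply (PowerSeries.map f) (PowerSeries.map (Int.castRingHom R)),
    ← PowerSeries.map_comp, RingHom.ext_int (f.comp (Int.castRingHom R)) (Int.castRingHom S)]

theorem S37K_coeffMap_DeltaInvS {S : Type*} [CommRing S] (f : R →+* S) :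
    coeffMap f (S37K_DeltaInvS R) = S37K_DeltaInvS S := by
  unfold S37K_DeltaInvS
  rw [map_mul, coeffMap_single, map_one, coeffMap_ofPowerSeries,
    ← RingHom.comp_apply (PowerSeries.map f) (PowerSeries.map (Int.castRingHom R)),
    ← PowerSeries.map_comp, RingHom.ext_int (f.comp (Int.castRingHom R)) (Int.castRingHom S)]

theorem S37K_DeltaS_ne_zero [Nontrivial R] : S37K_DeltaS R ≠ 0 := by
  intro h
  have := S37K_DeltaS_mul_inv (R := R)
  rw [h, zero_mul] at this
  exact zero_ne_one this

theorem S37K_jqModC_mul_DeltaS :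
    jqModC R * S37K_DeltaS R =
      (HahnSeries.ofPowerSeries ℤ R (eisenstein4.map (Int.castRingHom R))) ^ 3 := by
  have h1 : jqModC R = (HahnSeries.ofPowerSeries ℤ R (eisenstein4.map (Int.castRingHom R))) ^ 3 *
      S37K_DeltaInvS R := by
    unfold jqModC S37K_DeltaInvS
    rw [jNum, map_mul, map_pow, map_mul, map_pow]
    ring
  rw [h1, mul_assoc, mul_comm (S37K_DeltaInvS R), S37K_DeltaS_mul_inv, mul_one]

end Fermat.Agent.S37_helper27_KTHETA
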