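import Mathlib
import Fermat.Agent.S37_helper27_KTHETA
import Fermat.Agent.S24_helper24_JD
import Fermat.Agent.S28_helper25_HD

/-!
# S37 / B1-KAPPA, piece KRAM: the identity `(θ j)⁶ = j⁴ (j - 1728)³ Δ`

* analytic bridge: `qExpansion 1 (D f) = θ (qExpansion 1 f)` for `f` holomorphic, `1`-periodic and
  bounded at `i∞` (`D = (2πi)⁻¹ d/dz`, `θ = q d/dq`);
* `D J₀ - J₀ = -E₄² E₆ (q/Δ)` for `J₀ = q j` (Ramanujan);
* the identity of power series `(θ J - J)⁶ = J⁴ (J - 1728 X)³ η²⁴` over `ℤ` (`J = jNum`);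
* the identity of Laurent series `(θ j)⁶ = j⁴ (j - 1728)³ Δ` over `ℤ` and over every
  commutative ring.
-/

set_option autoImplicit false

open UpperHalfPlane ModularForm CongruenceSubgroup
open scoped MatrixGroups ModularForm Manifold Real
open Fermat.Agent.S20 Fermat.Agent.S24
open Fermat.Agent.S28_helper14_ADefs
open Fermat.Agent.S37_helper27_KTHETA ModularCurve
open Derivative EisensteinSeries Filter Topology

namespace Fermat.Agent.S37_helper5_KRAM

noncomputable section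

/-! ### The analytic bridge -/

theorem S37KRAM_cuspFunction_D_of_ne {f : ℍ → ℂ} (hf : Nice 1 f) {q : ℂ} (hq : ‖q‖ < 1)
    (hq0 : q ≠ 0) :
    cuspFunction 1 (D f) q = q * deriv (cuspFunction 1 f) q := by
  have h1 := Function.Periodic.im_invQParam_pos_of_norm_lt_one one_pos hq hq0
  have h2 := Function.Periodic.cuspFunction_eq_of_nonzero 1 (D f ∘ ofComplex) hq0
  have h3 : cuspFunction 1 (D f) q = D f ⟨Function.Periodic.invQParam 1 q, h1⟩ := by
    change Function.Periodic.cuspFunction 1 (D f ∘ ofComplex) q = _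
    simpa [UpperHalfPlane.ofComplex_apply_of_im_pos h1] using h2
  rw [h3, Fermat.Agent.S20_helper13_B2.D_eq_qParam_mul hf.per hf.holo hf.bdd]
  have h4 : Function.Periodic.qParam 1
      ((⟨Function.Periodic.invQParam 1 q, h1⟩ : ℍ) : ℂ) = q :=
    Function.Periodic.qParam_right_inv one_ne_zero hq0
  rw [h4]

theorem S37KRAM_tendsto_mul_deriv {f : ℍ → ℂ} (hf : Nice 1 f) :
    Tendsto (fun q : ℂ => q * deriv (cuspFunction 1 f) q) (𝓝 0) (𝓝 0) := by
  have han := Fermat.Agent.S24_helper24_JD.nice_analyticAt one_pos hf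
  have hd : ContinuousAt (deriv (cuspFunction 1 f)) 0 := han.deriv.continuousAt
  have h : ContinuousAt (fun q : ℂ => q * deriv (cuspFunction 1 f) q) 0 :=
    (continuousAt_id (x := (0 : ℂ))).mul hd
  have h2 := h.tendsto
  simpa using h2

theorem S37KRAM_cuspFunction_D_zero {f : ℍ → ℂ} (hf : Nice 1 f) :
    cuspFunction 1 (D f) 0 = 0 := by
  have h1 : cuspFunction 1 (D f) 0
      = limUnder (𝓝[≠] (0 : ℂ)) (cuspFunction 1 (D f)) :=
    Function.Periodic.cuspFunction_zero_eq_limUnder_nhds_ne 1 (D f ∘ ofComplex)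
  rw [h1]
  refine Tendsto.limUnder_eq ?_
  have h2 : Tendsto (fun q : ℂ => q * deriv (cuspFunction 1 f) q) (𝓝[≠] (0 : ℂ)) (𝓝 0) :=
    (S37KRAM_tendsto_mul_deriv hf).mono_left nhdsWithin_le_nhds
  refine h2.congr' ?_
  have hball : Metric.ball (0 : ℂ) 1 ∈ 𝓝 (0 : ℂ) := Metric.ball_mem_nhds 0 one_pos
  filter_upwards [nhdsWithin_le_nhds hball, self_mem_nhdsWithin] with q hq hq0
  have hq' : ‖q‖ < 1 := by simpa using hq
  exact (S37KRAM_cuspFunction_D_of_ne hf hq' hq0).symm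

theorem S37KRAM_cuspFunction_D_eventuallyEq {f : ℍ → ℂ} (hf : Nice 1 f) :
    cuspFunction 1 (D f) =ᶠ[𝓝 0] fun q : ℂ => q * deriv (cuspFunction 1 f) q := by
  have hball : Metric.ball (0 : ℂ) 1 ∈ 𝓝 (0 : ℂ) := Metric.ball_mem_nhds 0 one_pos
  filter_upwards [hball] with q hq
  have hq' : ‖q‖ < 1 := by simpa using hq
  rcases eq_or_ne q 0 with rfl | hq0
  · rw [S37KRAM_cuspFunction_D_zero hf, zero_mul]
  · exact S37KRAM_cuspFunction_D_of_ne hf hq' hq0

theorem S37KRAM_analyticAt_D {f : ℍ → ℂ} (hf : Nice 1 f) :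
    AnalyticAt ℂ (cuspFunction 1 (D f)) 0 := by
  have han := Fermat.Agent.S24_helper24_JD.nice_analyticAt one_pos hf
  have h : AnalyticAt ℂ (fun q : ℂ => q * deriv (cuspFunction 1 f) q) 0 :=
    analyticAt_id.mul han.deriv
  exact h.congr (S37KRAM_cuspFunction_D_eventuallyEq hf).symm

/-- **Analytic bridge**: the `q`-expansion of `D f` is `θ` of the `q`-expansion of `f`. -/
theorem S37KRAM_qExpansion_D_coeff {f : ℍ → ℂ} (hf : Nice 1 f) (n : ℕ) :
    (qExpansion 1 (D f)).coeff n = (n : ℂ) * (qExpansion 1 f).coeff n := by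
  have han := Fermat.Agent.S24_helper24_JD.nice_analyticAt one_pos hf
  rw [qExpansion_coeff, qExpansion_coeff,
    (S37KRAM_cuspFunction_D_eventuallyEq hf).iteratedDeriv_eq n]
  have hid : ContDiffAt ℂ n (id : ℂ → ℂ) 0 := contDiffAt_id
  have hder : ContDiffAt ℂ n (deriv (cuspFunction 1 f)) 0 := han.deriv.contDiffAt
  have hmul : (fun q : ℂ => q * deriv (cuspFunction 1 f) q)
      = (id : ℂ → ℂ) * deriv (cuspFunction 1 f) := rfl
  rw [hmul, iteratedDeriv_mul hid hder]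
  rcases n with _ | n
  · simp [iteratedDeriv_id]
  · rw [Finset.sum_eq_single 1]
    · rw [iteratedDeriv_id]
      simp only [one_ne_zero, if_false, if_true, Nat.choose_one_right, mul_one,
        Nat.add_sub_cancel]
      rw [← iteratedDeriv_succ']
      ring
    · intro i _ hi1
      rw [iteratedDeriv_id]
      rcases i with _ | i
      · simp
      · have : i ≠ 0 := fun h => hi1 (by rw [h])
        simp [this]
    · intro h
      exact absurd (Finset.mem_range.mpr (by omega)) h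


theorem S37KRAM_nice_D {f : ℍ → ℂ} (hf : Nice 1 f) : Nice 1 (D f) where
  per := by
    intro w
    by_cases hw : 0 < w.im
    · have hw1 : 0 < (w + ((1 : ℝ) : ℂ)).im := by simpa using hw
      simp only [Function.comp_apply]
      rw [ofComplex_apply_of_im_pos hw1, ofComplex_apply_of_im_pos hw,
        Fermat.Agent.S20_helper13_B2.D_eq_qParam_mul hf.per hf.holo hf.bdd,
        Fermat.Agent.S20_helper13_B2.D_eq_qParam_mul hf.per hf.holo hf.bdd]
      have hq : Function.Periodic.qParam 1 (w + ((1 : ℝ) : ℂ)) = Function.Periodic.qParam 1 w := by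
        simp only [Function.Periodic.qParam, Complex.ofReal_one, div_one, mul_add, mul_one]
        exact Complex.exp_periodic _
      change Function.Periodic.qParam 1 (w + ((1 : ℝ) : ℂ)) *
          deriv (cuspFunction 1 f) (Function.Periodic.qParam 1 (w + ((1 : ℝ) : ℂ))) =
        Function.Periodic.qParam 1 w * deriv (cuspFunction 1 f) (Function.Periodic.qParam 1 w)
      rw [hq]
    · have hw' : w.im ≤ 0 := not_lt.mp hw
      have hw1 : (w + ((1 : ℝ) : ℂ)).im ≤ 0 := by simpa using hw'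
      simp only [Function.comp_apply]
      rw [ofComplex_apply_eq_of_im_nonpos hw1 hw']
  holo := normalizedDerivOfComplex_mdifferentiable hf.holo
  bdd := ZeroAtFilter.boundedAtFilter
    (Fermat.Agent.S20_helper13_B2.tendsto_D_zero hf.per hf.holo hf.bdd)

theorem S37KRAM_nice_sub {f g : ℍ → ℂ} (hf : Nice 1 f) (hg : Nice 1 g) : Nice 1 (f - g) where
  per := by
    intro w
    have h1 := hf.per w
    have h2 := hg.per w
    simp only [Function.comp_apply, Pi.sub_apply] at h1 h2 ⊢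
    rw [h1, h2]
  holo := hf.holo.sub hg.holo
  bdd := hf.bdd.sub hg.bdd

/-! ### The functions -/

/-- the function `q = exp (2 π i z)` on `ℍ` -/
def S37KRAM_qfun : ℍ → ℂ := fun z => Function.Periodic.qParam 1 (z : ℂ)

theorem S37KRAM_mdiff_qfun : MDiff S37KRAM_qfun := by
  rw [UpperHalfPlane.mdifferentiable_iff]
  have h2 : DifferentiableOn ℂ (fun z : ℂ => Function.Periodic.qParam 1 z) {z | 0 < z.im} :=
    (Function.Periodic.differentiable_qParam (h := 1)).differentiableOn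
  refine h2.congr fun z hz => ?_
  simp only [Function.comp_apply, S37KRAM_qfun]
  rw [ofComplex_apply_of_im_pos hz]

theorem S37KRAM_D_qfun (z : ℍ) : D S37KRAM_qfun z = S37KRAM_qfun z := by
  have hev : (S37KRAM_qfun ∘ ofComplex) =ᶠ[𝓝 (z : ℂ)] Function.Periodic.qParam 1 := by
    filter_upwards [isOpen_upperHalfPlaneSet.mem_nhds z.im_pos] with w hw
    simp only [Function.comp_apply, S37KRAM_qfun, ofComplex_apply_of_im_pos hw]
  rw [normalizedDerivOfComplex, hev.deriv_eq,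
    (Fermat.Agent.S20_helper13_B2.hasDerivAt_qParam_one z).deriv]
  have hpi : (2 * (Real.pi : ℂ) * Complex.I) ≠ 0 := Complex.two_pi_I_ne_zero
  simp only [S37KRAM_qfun]
  field_simp

theorem S37KRAM_D_discriminant (z : ℍ) :
    D (discriminant : ℍ → ℂ) z = E2 z * discriminant z := by
  have hE4 : MDiff (⇑E₄) := E₄.holo'
  have hE6 : MDiff (⇑E₆) := E₆.holo'
  have hE43 : MDiff ((⇑E₄ : ℍ → ℂ) ^ 3) := hE4.pow 3
  have hE62 : MDiff ((⇑E₆ : ℍ → ℂ) ^ 2) := hE6.pow 2
  have hfun : (discriminant : ℍ → ℂ) =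
      (1728 : ℂ)⁻¹ • ((⇑E₄ : ℍ → ℂ) ^ 3 - (⇑E₆ : ℍ → ℂ) ^ 2) := by
    funext w
    rw [discriminant_eq_E₄_cube_sub_E₆_sq w]
    simp only [Pi.smul_apply, Pi.sub_apply, Pi.pow_apply, smul_eq_mul]
    ring
  have h1 : D (discriminant : ℍ → ℂ) z =
      (1728 : ℂ)⁻¹ * (3 * E₄ z ^ 2 * D (⇑E₄) z - 2 * E₆ z * D (⇑E₆) z) := by
    rw [hfun, normalizedDerivOfComplex_smul _ _ (hE43.sub hE62),
      normalizedDerivOfComplex_sub _ _ hE43 hE62,
      normalizedDerivOfComplex_pow _ _ hE4, normalizedDerivOfComplex_pow _ _ hE6]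
    simp
  rw [h1, Fermat.Agent.S20_helper13_B2.ramanujan_E₄, Fermat.Agent.S20_helper13_B2.ramanujan_E₆,
    discriminant_eq_E₄_cube_sub_E₆_sq z]
  ring

open Fermat.Agent.S24_helper24_JD in
theorem S37KRAM_J0_mul_disc (z : ℍ) :
    J0 z * discriminant z = E₄ z ^ 3 * S37KRAM_qfun z := by
  have h1 := Fermat.Agent.S28_DT.discriminant_eq_q_mul_Dt z
  have h2 := Fermat.Agent.S28_DT.Dt_ne_zero z
  simp only [J0, DtInv, Pi.mul_apply, Pi.pow_apply, S37KRAM_qfun]
  rw [h1]
  field_simp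

open Fermat.Agent.S24_helper24_JD in
theorem S37KRAM_D_J0 (z : ℍ) :
    D J0 z - J0 z = -(E₄ z ^ 2 * E₆ z) * DtInv z := by
  have hE4 : MDiff (⇑E₄) := E₄.holo'
  have hE43 : MDiff ((⇑E₄ : ℍ → ℂ) ^ 3) := hE4.pow 3
  have hJ : MDiff J0 := nice_J0.holo
  have hΔ : MDiff (discriminant : ℍ → ℂ) := Fermat.Agent.S28_HD.nice_disc.holo
  have hq : MDiff S37KRAM_qfun := S37KRAM_mdiff_qfun
  have hfun : J0 * (discriminant : ℍ → ℂ) = (⇑E₄ : ℍ → ℂ) ^ 3 * S37KRAM_qfun := by
    funext w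
    simp only [Pi.mul_apply, Pi.pow_apply]
    exact S37KRAM_J0_mul_disc w
  have h1 : D (J0 * (discriminant : ℍ → ℂ)) z = D ((⇑E₄ : ℍ → ℂ) ^ 3 * S37KRAM_qfun) z := by
    rw [hfun]
  rw [normalizedDerivOfComplex_mul _ _ hJ hΔ, normalizedDerivOfComplex_mul _ _ hE43 hq,
    normalizedDerivOfComplex_pow _ _ hE4] at h1
  simp only [Pi.add_apply, Pi.mul_apply, Pi.pow_apply, Pi.natCast_apply] at h1
  rw [S37KRAM_D_discriminant, S37KRAM_D_qfun, Fermat.Agent.S20_helper13_B2.ramanujan_E₄] at h1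
  have h2 := S37KRAM_J0_mul_disc z
  have hΔ0 : discriminant z ≠ 0 := discriminant_ne_zero z
  have hq0 : S37KRAM_qfun z ≠ 0 := Function.Periodic.qParam_ne_zero _
  have h3 : DtInv z = S37KRAM_qfun z / discriminant z := by
    simp only [DtInv, Dt, S37KRAM_qfun]
    rw [inv_div]
  have h4 : (D J0 z - J0 z) * discriminant z = -(E₄ z ^ 2 * E₆ z) * S37KRAM_qfun z := by
    push_cast at h1
    linear_combination h1 - (1 + E2 z) * h2
  rw [h3, eq_div_iff hΔ0] at *
  rw [← mul_div_assoc, eq_div_iff hΔ0]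
  exact h4


open Fermat.Agent.S24_helper24_JD in
/-- The identity `(D J₀ - J₀)⁶ = J₀⁴ (J₀ - 1728 q)³ (Δ/q)` of functions on `ℍ`
(`q` written as `Δ · (q/Δ)`). -/
theorem S37KRAM_fun_identity :
    (D J0 - J0) ^ 6 =
      J0 ^ 4 * (J0 - (1728 : ℂ) • ((discriminant : ℍ → ℂ) * DtInv)) ^ 3 * Dt := by
  funext z
  simp only [Pi.pow_apply, Pi.sub_apply, Pi.mul_apply, Pi.smul_apply, smul_eq_mul]
  rw [S37KRAM_D_J0 z]
  have hJ : J0 z = E₄ z ^ 3 * DtInv z := by
    simp only [J0, Pi.mul_apply, Pi.pow_apply]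
  have htu : Dt z * DtInv z = 1 := by
    simp only [DtInv]
    exact mul_inv_cancel₀ (Fermat.Agent.S28_DT.Dt_ne_zero z)
  rw [hJ, discriminant_eq_E₄_cube_sub_E₆_sq z]
  linear_combination (-(E₄ z ^ 12 * E₆ z ^ 6 * DtInv z ^ 6)) * htu

/-! ### Power series -/

/-- `θ = X d/dX` on power series. -/
def S37KRAM_thetaPS {R : Type*} [CommRing R] (P : PowerSeries R) : PowerSeries R :=
  PowerSeries.mk fun n => (n : R) * P.coeff n

@[simp] theorem S37KRAM_thetaPS_coeff {R : Type*} [CommRing R] (P : PowerSeries R) (n : ℕ) :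
    (S37KRAM_thetaPS P).coeff n = (n : R) * P.coeff n := by
  simp [S37KRAM_thetaPS]

theorem S37KRAM_thetaPS_map {R S : Type*} [CommRing R] [CommRing S] (f : R →+* S)
    (P : PowerSeries R) :
    S37KRAM_thetaPS (P.map f) = (S37KRAM_thetaPS P).map f := by
  ext n
  simp

theorem S37KRAM_qExpansion_D {f : ℍ → ℂ} (hf : Nice 1 f) :
    qExpansion 1 (D f) = S37KRAM_thetaPS (qExpansion 1 f) := by
  ext n
  rw [S37KRAM_qExpansion_D_coeff hf, S37KRAM_thetaPS_coeff]

open Fermat.Agent.S24_helper24_JD in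
/-- The identity over `ℂ`. -/
theorem S37KRAM_ps_identity_complex :
    (S37KRAM_thetaPS (jNum.map (Int.castRingHom ℂ)) - jNum.map (Int.castRingHom ℂ)) ^ 6 =
      (jNum.map (Int.castRingHom ℂ)) ^ 4 *
        (jNum.map (Int.castRingHom ℂ) - (1728 : ℂ) • PowerSeries.X) ^ 3 *
        dedekindEtaUnit.map (Int.castRingHom ℂ) := by
  have hJ : Nice 1 J0 := nice_J0
  have hDJ : Nice 1 (D J0) := S37KRAM_nice_D hJ
  have hsub : Nice 1 (D J0 - J0) := S37KRAM_nice_sub hDJ hJ
  have hΔ : Nice 1 (discriminant : ℍ → ℂ) := Fermat.Agent.S28_HD.nice_disc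
  have hDtInv : Nice 1 DtInv := Fermat.Agent.S28_DT.nice_DtInv
  have hDt : Nice 1 Dt := Fermat.Agent.S28_DT.nice_Dt
  have hq : Nice 1 ((discriminant : ℍ → ℂ) * DtInv) := nice_mul hΔ hDtInv
  have hq' : Nice 1 ((1728 : ℂ) • ((discriminant : ℍ → ℂ) * DtInv)) := nice_smul hq _
  have hB : Nice 1 (J0 - (1728 : ℂ) • ((discriminant : ℍ → ℂ) * DtInv)) :=
    S37KRAM_nice_sub hJ hq'
  have an : ∀ {f : ℍ → ℂ}, Nice 1 f → AnalyticAt ℂ (cuspFunction 1 f) 0 :=
    fun hf => nice_analyticAt one_pos hf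
  have hL : qExpansion 1 ((D J0 - J0) ^ 6) =
      (S37KRAM_thetaPS (jNum.map (Int.castRingHom ℂ)) - jNum.map (Int.castRingHom ℂ)) ^ 6 := by
    rw [(Fermat.Agent.S28_HD.qExpansion_pow hsub 6).2, qExpansion_sub (an hDJ) (an hJ),
      S37KRAM_qExpansion_D hJ, qExpansion_J0]
  have hqX : qExpansion 1 ((discriminant : ℍ → ℂ) * DtInv) = PowerSeries.X := by
    rw [qExpansion_mul (an hΔ) (an hDtInv), Fermat.Agent.S28_QDELTA.qExpansion_discriminant,
      Fermat.Agent.S28_DT.qExpansion_DtInv, ← map_mul, mul_assoc, dedekindEtaUnit_mul_inv,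
      mul_one, PowerSeries.map_X]
  have hR : qExpansion 1
      (J0 ^ 4 * (J0 - (1728 : ℂ) • ((discriminant : ℍ → ℂ) * DtInv)) ^ 3 * Dt) =
      (jNum.map (Int.castRingHom ℂ)) ^ 4 *
        (jNum.map (Int.castRingHom ℂ) - (1728 : ℂ) • PowerSeries.X) ^ 3 *
        dedekindEtaUnit.map (Int.castRingHom ℂ) := by
    have h4 := Fermat.Agent.S28_HD.qExpansion_pow hJ 4
    have h3 := Fermat.Agent.S28_HD.qExpansion_pow hB 3
    rw [qExpansion_mul (an (nice_mul h4.1 h3.1)) (an hDt), qExpansion_mul (an h4.1) (an h3.1),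
      h4.2, h3.2, qExpansion_sub (an hJ) (an hq'), qExpansion_smul (an hq), hqX, qExpansion_J0,
      Fermat.Agent.S28_DT.qExpansion_Dt]
  rw [← hL, ← hR, S37KRAM_fun_identity]

theorem S37KRAM_smul_X : (1728 : ℂ) • (PowerSeries.X : PowerSeries ℂ) = 1728 * PowerSeries.X := by
  rw [Algebra.smul_def, map_ofNat]

/-- The identity `(θ J - J)⁶ = J⁴ (J - 1728 X)³ η²⁴` of power series over `ℤ`, `J = q j`. -/
theorem S37KRAM_ps_identity_int :
    (S37KRAM_thetaPS jNum - jNum) ^ 6 =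
      jNum ^ 4 * (jNum - 1728 * PowerSeries.X) ^ 3 * dedekindEtaUnit := by
  have hinj : Function.Injective (PowerSeries.map (Int.castRingHom ℂ)) :=
    PowerSeries.map_injective _ (RingHom.injective_int _)
  have h := S37KRAM_ps_identity_complex
  rw [S37KRAM_smul_X] at h
  have key : PowerSeries.map (Int.castRingHom ℂ) ((S37KRAM_thetaPS jNum - jNum) ^ 6) =
      PowerSeries.map (Int.castRingHom ℂ)
        (jNum ^ 4 * (jNum - 1728 * PowerSeries.X) ^ 3 * dedekindEtaUnit) := by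
    rw [map_pow, map_sub, map_mul, map_mul, map_pow, map_pow, map_sub, map_mul,
      PowerSeries.map_X, ← S37KRAM_thetaPS_map, map_ofNat]
    exact h
  exact hinj key


/-! ### Laurent series -/

section Laurent

variable (R : Type*) [CommRing R]

/-- The identity `(θ J - J)⁶ = J⁴ (J - 1728 X)³ η²⁴` of power series over any commutative ring. -/
theorem S37KRAM_ps_identity :
    (S37KRAM_thetaPS (jNum.map (Int.castRingHom R)) - jNum.map (Int.castRingHom R)) ^ 6 =
      (jNum.map (Int.castRingHom R)) ^ 4 *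
        (jNum.map (Int.castRingHom R) - 1728 * PowerSeries.X) ^ 3 *
        dedekindEtaUnit.map (Int.castRingHom R) := by
  have h := congrArg (PowerSeries.map (Int.castRingHom R)) S37KRAM_ps_identity_int
  rw [map_pow, map_sub, map_mul, map_mul, map_pow, map_pow, map_sub, map_mul,
    PowerSeries.map_X, ← S37KRAM_thetaPS_map, map_ofNat] at h
  exact h

variable {R} in
theorem S37KRAM_theta_ofPowerSeries (P : PowerSeries R) :
    S37K_theta R (HahnSeries.ofPowerSeries ℤ R P) =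
      HahnSeries.ofPowerSeries ℤ R (S37KRAM_thetaPS P) := by
  ext n
  rw [S37K_theta_coeff]
  rcases le_or_gt 0 n with hn | hn
  · lift n to ℕ using hn
    rw [HahnSeries.ofPowerSeries_apply_coeff, HahnSeries.ofPowerSeries_apply_coeff,
      S37KRAM_thetaPS_coeff]
    simp
  · rw [ofPowerSeries_coeff_of_neg _ hn, ofPowerSeries_coeff_of_neg _ hn, mul_zero]

/-- `θ j = q⁻¹ (θ J - J)` for `j = q⁻¹ J`. -/
theorem S37KRAM_theta_jqModC :
    S37K_theta R (jqModC R) = HahnSeries.single (-1 : ℤ) (1 : R) *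
      HahnSeries.ofPowerSeries ℤ R
        (S37KRAM_thetaPS (jNum.map (Int.castRingHom R)) - jNum.map (Int.castRingHom R)) := by
  rw [jqModC, S37K_theta_mul, S37K_theta_single, S37KRAM_theta_ofPowerSeries, map_sub]
  have h : HahnSeries.single (-1 : ℤ) ((((-1 : ℤ)) : R) * 1) =
      -HahnSeries.single (-1 : ℤ) (1 : R) := by
    rw [mul_one, Int.cast_neg, Int.cast_one, HahnSeries.single_neg]
  rw [h]
  ring

/-- `j - 1728 = q⁻¹ (J - 1728 q)`. -/
theorem S37KRAM_jqModC_sub :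
    jqModC R - 1728 = HahnSeries.single (-1 : ℤ) (1 : R) *
      HahnSeries.ofPowerSeries ℤ R (jNum.map (Int.castRingHom R) - 1728 * PowerSeries.X) := by
  have hss : HahnSeries.single (-1 : ℤ) (1 : R) * HahnSeries.single (1 : ℤ) (1 : R) = 1 := by
    rw [HahnSeries.single_mul_single]
    simp
  rw [jqModC, map_sub, map_mul, HahnSeries.ofPowerSeries_X, map_ofNat]
  linear_combination (1728 : LaurentSeries R) * hss

/-- **KRAM**: `(θ j)⁶ = j⁴ (j - 1728)³ Δ` as Laurent series over any commutative ring. -/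
theorem S37KRAM_theta_jq_pow_six_ring :
    (S37K_theta R (jqModC R)) ^ 6 = (jqModC R) ^ 4 * (jqModC R - 1728) ^ 3 * S37K_DeltaS R := by
  have hss : HahnSeries.single (-1 : ℤ) (1 : R) * HahnSeries.single (1 : ℤ) (1 : R) = 1 := by
    rw [HahnSeries.single_mul_single]
    simp
  have hPS := congrArg (HahnSeries.ofPowerSeries ℤ R) (S37KRAM_ps_identity R)
  rw [map_pow, map_mul, map_mul, map_pow, map_pow] at hPS
  rw [S37KRAM_theta_jqModC, S37KRAM_jqModC_sub, S37K_DeltaS]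
  rw [show jqModC R = HahnSeries.single (-1 : ℤ) (1 : R) *
    HahnSeries.ofPowerSeries ℤ R (jNum.map (Int.castRingHom R)) from rfl]
  generalize HahnSeries.single (-1 : ℤ) (1 : R) = s at *
  generalize HahnSeries.single (1 : ℤ) (1 : R) = s' at *
  generalize HahnSeries.ofPowerSeries ℤ R
    (S37KRAM_thetaPS (jNum.map (Int.castRingHom R)) - jNum.map (Int.castRingHom R)) = P at *
  generalize HahnSeries.ofPowerSeries ℤ R (jNum.map (Int.castRingHom R)) = A at *
  generalize HahnSeries.ofPowerSeries ℤ R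
    (jNum.map (Int.castRingHom R) - 1728 * PowerSeries.X) = B at *
  generalize HahnSeries.ofPowerSeries ℤ R (dedekindEtaUnit.map (Int.castRingHom R)) = H at *
  linear_combination s ^ 6 * hPS - s ^ 6 * A ^ 4 * B ^ 3 * H * hss

end Laurent

/-- **KRAM** over `ℤ`: `(θ j)⁶ = j⁴ (j - 1728)³ Δ`. -/
theorem S37KRAM_theta_jq_pow_six :
    (S37K_theta ℤ (jqModC ℤ)) ^ 6 = (jqModC ℤ) ^ 4 * (jqModC ℤ - 1728) ^ 3 * S37K_DeltaS ℤ :=
  S37KRAM_theta_jq_pow_six_ring ℤ

/-- The same over `ℂ`. -/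
theorem S37KRAM_theta_jq_pow_six_complex :
    (S37K_theta ℂ (jqModC ℂ)) ^ 6 = (jqModC ℂ) ^ 4 * (jqModC ℂ - 1728) ^ 3 * S37K_DeltaS ℂ :=
  S37KRAM_theta_jq_pow_six_ring ℂ

end

end Fermat.Agent.S37_helper5_KRAM
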