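import Fermat.Agent.S37_helper27_KAPPA0
import Fermat.Agent.S37_helper5_KRAM
import Fermat.Agent.S37_helper20_KAPPABC

/-!
# S37 / B1-KAPPA: the residue field of the Gauss valuation on the modular function field

`κ = F_k`: the reduction of every element of the Gauss valuation ring of
`F1 = K1(j(q^d) : d ∣ N)` lies in `F_k = k(j(q^d) : d ∣ N)` (`ℓ ∤ N`).

* `S37KAPPA_Vring`: over `ℤ_(ℓ) ⊆ ℚ`, residue field `𝔽_ℓ`;
* `S37KAPPA_chart`: on the chart `chartAlgFin N ℓ` of the Igusa model (helper20's `hκ`);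
* `S37KAPPA_redFun_mem`, `S37KAPPA_hkappa`: for the carriers `S18K_*` (the consumers' `hkappa`).

Route: S28 `key_rep` reduces to `V̄ ∈ F_k` for the modular unit `V = ∏ (Δ(q^(N/s))/Δ)^(e_s)`
(KUNIT); `Δ(q^d)/Δ ∈ F_k` follows from `(θ j)^6 = j^4 (j - 1728)^3 Δ` (KRAM, helper5) and from
`θ j(q^d) / θ j ∈ F_k`, which holds because `j(q^d)` is separable over `k(j)` (KSEP).
The base change to a general base is helper20's KAPPABC.
-/

set_option autoImplicit false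

open ModularCurve ModularCurve.IgusaScheme
open Fermat.Agent.S28_helper14_Val Fermat.Agent.S18_helper13_GAUSS
  Fermat.Agent.S18_helper25_COREDefs

noncomputable section

namespace Fermat.Agent.S37_helper27_KAPPA

variable (N : ℕ) [NeZero N]

/-- **KAPPA over `ℤ_(ℓ)`**: reductions of `ℓ`-integral modular functions of level `N` are
rational functions in the `j(q^d)`, `d ∣ N`, over `𝔽_ℓ`. -/
theorem S37KAPPA_Vring (ℓ : ℕ) [Fact ℓ.Prime] (hℓN : ¬ ℓ ∣ N)
    (y : LaurentSeries ℚ) (hy : y ∈ modularFunctionFieldFull N) (hyV : y ∈ Vring ℓ) :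
    redFun ℓ y ∈ modularFunctionFieldFullC (ZMod ℓ) N :=
  Fermat.Agent.S37_helper27_KAPPA0.S37KAPPA0_redFun_mem N ℓ hℓN
    Fermat.Agent.S37_helper5_KRAM.S37KRAM_theta_jq_pow_six y hy hyV

/-- **KAPPA on the chart `chartAlgFin N ℓ`** (the hypothesis `hκ` of helper20's KAPPABC). -/
theorem S37KAPPA_chart (ℓ : ℕ) [Fact ℓ.Prime] (hℓN : ¬ ℓ ∣ N) :
    ∀ x ∈ chartAlgFin N ℓ,
      redFun ℓ ((x : ↥(modularFunctionFieldFull N)) : LaurentSeries ℚ) ∈
        modularFunctionFieldFullC (ZMod ℓ) N :=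
  Fermat.Agent.S37_helper27_KAPPA0.S37KAPPA0_chart N ℓ hℓN
    Fermat.Agent.S37_helper5_KRAM.S37KRAM_theta_jq_pow_six

/-- **KAPPA for the carriers `S18K_*`.** -/
theorem S37KAPPA_redFun_mem {ℓ : ℕ} [Fact ℓ.Prime] (hℓN : ¬ ℓ ∣ N)
    (A : ValuationSubring (AlgebraicClosure ℚ)) (hA : A.LiesOverPrime ℓ)
    (K1 : IntermediateField ℚ (AlgebraicClosure ℚ))
    [IsDiscreteValuationRing (S18K_O1 A K1)] :
    ∀ y ∈ S18K_V A K1 N,
      (S18K_D A K1).redFun y ∈ modularFunctionFieldFullC (IsLocalRing.ResidueField A) N :=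
  Fermat.Agent.S37_helper20_KAPPABC.S37KBC_kappaK N A hA hℓN (S37KAPPA_chart N ℓ hℓN) K1

/-- **KAPPA in the binder shape of the consumers** (`hkappa`). -/
theorem S37KAPPA_hkappa {ℓ : ℕ} [Fact ℓ.Prime] (hℓN : ¬ ℓ ∣ N)
    (A : ValuationSubring (AlgebraicClosure ℚ)) (hA : A.LiesOverPrime ℓ) :
    ∀ (K1 : IntermediateField ℚ (AlgebraicClosure ℚ)) (h : S18K_Admissible A K1 ℓ),
      letI := h.dvr
      ∀ y ∈ S18K_V A K1 N,
        (S18K_D A K1).redFun y ∈ modularFunctionFieldFullC (IsLocalRing.ResidueField A) N :=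
  fun K1 h =>
    Fermat.Agent.S37_helper20_KAPPABC.S37KBC_kappaK_admissible N A hA hℓN
      (S37KAPPA_chart N ℓ hℓN) K1 h

end Fermat.Agent.S37_helper27_KAPPA
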