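import Mathlib
import Fermat.Prelude.Def_AlgebraicCurve_DivisorClassGroup
import Fermat.Agent.S18_helper9_CDefs

/-!
# S18, glue piece X-C-POWDIV: `PowDiv` from the places of the function field

A discrete valuation subring `P` of the ambient field `L`, contained in `F1 = range ι`, with the
valuation property on `F1` and containing the constants, pulls back along `ι : F →+* L` to a
place of `F / K` (`S18PD_place`).  If `p` divides `ord_Q f0` at every place `Q` of `F / K`, then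
`ι f0` is, at every such `P`, a unit times a `p`-th power (`powDiv_of_place`).
-/

set_option autoImplicit false

open AlgebraicCurve Fermat.Agent.S18_helper9_CDefs

namespace Fermat.Agent.S18_helper26_POWDIV

variable {L : Type*} [Field L] {K F : Type*} [Field K] [Field F] [Algebra K F]

/-- The pullback of a valuation ring of `F1` along `ι : F →+* L` with `range ι ⊆ F1`. -/
def S18PD_comap (P : Subring L) (F1 : Subfield L) (ι : F →+* L) (hι : ∀ x : F, ι x ∈ F1)
    (hval : ∀ x ∈ F1, x ∈ P ∨ x⁻¹ ∈ P) : ValuationSubring F where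
  toSubring := P.comap ι
  mem_or_inv_mem' x := by
    rcases hval (ι x) (hι x) with h | h
    · exact Or.inl h
    · right
      show ι x⁻¹ ∈ P
      rw [map_inv₀]
      exact h

theorem S18PD_mem_comap (P : Subring L) (F1 : Subfield L) (ι : F →+* L) (hι : ∀ x : F, ι x ∈ F1)
    (hval : ∀ x ∈ F1, x ∈ P ∨ x⁻¹ ∈ P) (x : F) :
    x ∈ S18PD_comap P F1 ι hι hval ↔ ι x ∈ P := Iff.rfl

/-- The restriction of `ι` to the pullback. -/
def S18PD_toP (P : Subring L) (F1 : Subfield L) (ι : F →+* L) (hι : ∀ x : F, ι x ∈ F1)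
    (hval : ∀ x ∈ F1, x ∈ P ∨ x⁻¹ ∈ P) : S18PD_comap P F1 ι hι hval →+* P where
  toFun x := ⟨ι x, x.2⟩
  map_one' := Subtype.ext (map_one ι)
  map_mul' x y := Subtype.ext (map_mul ι (x : F) (y : F))
  map_zero' := Subtype.ext (map_zero ι)
  map_add' x y := Subtype.ext (map_add ι (x : F) (y : F))

theorem S18PD_toP_bijective (P : Subring L) (F1 : Subfield L) (ι : F →+* L)
    (hι : ∀ x : F, ι x ∈ F1) (hval : ∀ x ∈ F1, x ∈ P ∨ x⁻¹ ∈ P)
    (hsurj : ∀ y ∈ F1, ∃ x : F, ι x = y) (hP : (P : Set L) ⊆ F1) :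
    Function.Bijective (S18PD_toP P F1 ι hι hval) := by
  constructor
  · intro x y h
    apply Subtype.ext
    apply ι.injective
    exact congrArg Subtype.val h
  · rintro ⟨y, hy⟩
    obtain ⟨x, hx⟩ := hsurj y (hP hy)
    exact ⟨⟨x, by rw [S18PD_mem_comap, hx]; exact hy⟩, Subtype.ext hx⟩

/-- **Converter**: a discrete valuation subring `P ⊆ F1 = range ι` of `L` with the valuation
property on `F1`, containing the image of `K`, gives a place of `F / K`. -/
noncomputable def S18PD_place (P : Subring L) (F1 : Subfield L) (ι : F →+* L)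
    (hι : ∀ x : F, ι x ∈ F1) (hval : ∀ x ∈ F1, x ∈ P ∨ x⁻¹ ∈ P)
    (hsurj : ∀ y ∈ F1, ∃ x : F, ι x = y) (hP : (P : Set L) ⊆ F1)
    (hK : ∀ c : K, ι (algebraMap K F c) ∈ P) [hdvr : IsDiscreteValuationRing P] : Place K F where
  toValuationSubring := S18PD_comap P F1 ι hι hval
  algebraMap_mem' := hK
  ne_top' := by
    intro htop
    have hall : ∀ x : F, ι x ∈ P := fun x => by
      rw [← S18PD_mem_comap P F1 ι hι hval, htop]
      exact ValuationSubring.mem_top x
    apply IsDiscreteValuationRing.not_isField P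
    refine ⟨⟨0, 1, zero_ne_one⟩, mul_comm, ?_⟩
    intro a ha
    have ha0 : (a : L) ≠ 0 := fun h => ha (Subtype.ext h)
    obtain ⟨x, hx⟩ := hsurj _ (F1.inv_mem (hP a.2))
    refine ⟨⟨(a : L)⁻¹, hx ▸ hall x⟩, Subtype.ext ?_⟩
    show (a : L) * (a : L)⁻¹ = 1
    exact mul_inv_cancel₀ ha0
  isPrincipalIdealRing' := by
    let e := RingEquiv.ofBijective (S18PD_toP P F1 ι hι hval)
      (S18PD_toP_bijective P F1 ι hι hval hsurj hP)
    exact IsPrincipalIdealRing.of_surjective e.symm.toRingHom e.symm.surjective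

theorem S18PD_place_mem (P : Subring L) (F1 : Subfield L) (ι : F →+* L)
    (hι : ∀ x : F, ι x ∈ F1) (hval : ∀ x ∈ F1, x ∈ P ∨ x⁻¹ ∈ P)
    (hsurj : ∀ y ∈ F1, ∃ x : F, ι x = y) (hP : (P : Set L) ⊆ F1)
    (hK : ∀ c : K, ι (algebraMap K F c) ∈ P) [IsDiscreteValuationRing P] (x : F) :
    x ∈ (S18PD_place (K := K) P F1 ι hι hval hsurj hP hK).toValuationSubring ↔ ι x ∈ P :=
  Iff.rfl

/-- At a place `Q`, an element whose order is divisible by `p` is a unit times a `p`-th power. -/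
theorem S18PD_eq_unit_mul_pow (Q : Place K F) (p : ℕ) (f0 : F) (hf0 : f0 ≠ 0)
    (hdiv : (p : ℤ) ∣ Q.ord f0) :
    ∃ u g : F, u ∈ Q.toValuationSubring ∧ u⁻¹ ∈ Q.toValuationSubring ∧ f0 = u * g ^ p := by
  obtain ⟨k, hk⟩ := hdiv
  obtain ⟨t, ht⟩ := IsDiscreteValuationRing.exists_irreducible Q.toValuationSubring
  obtain ⟨u, hu⟩ := Q.exists_unit_mul_zpow hf0 ht
  refine ⟨((u : Q.toValuationSubring) : F), (t : F) ^ k, (u : Q.toValuationSubring).2, ?_, ?_⟩
  · have h1 : (((u⁻¹ : Q.toValuationSubringˣ) : Q.toValuationSubring) : F) =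
        (((u : Q.toValuationSubring) : F))⁻¹ := by
      have h2 : ((u : Q.toValuationSubring) : F) *
          (((u⁻¹ : Q.toValuationSubringˣ) : Q.toValuationSubring) : F) = 1 := by
        have h3 : ((u : Q.toValuationSubring) * ((u⁻¹ : Q.toValuationSubringˣ) :
            Q.toValuationSubring) : Q.toValuationSubring) = 1 := u.mul_inv
        exact congrArg (fun a : Q.toValuationSubring => (a : F)) h3
      exact eq_inv_of_mul_eq_one_right h2
    rw [← h1]
    exact ((u⁻¹ : Q.toValuationSubringˣ) : Q.toValuationSubring).2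
  · conv_lhs => rw [hu, hk]
    rw [mul_comm (p : ℤ) k, zpow_mul, zpow_natCast]

/-- **helper9 #828 (5)**: `PowDiv` from divisibility of the orders at all places. -/
theorem powDiv_of_place (O : Subring L) (π : L) (hπ0 : π ≠ 0) (F1 : Subfield L) (ι : F →+* L)
    (hι : ∀ y : L, y ∈ F1 ↔ ∃ x : F, ι x = y)
    (hK : ∀ c : K, ∃ o ∈ O, ∃ n : ℕ, ι (algebraMap K F c) * π ^ n = o)
    (p : ℕ) (f0 : F) (hf0 : f0 ≠ 0)
    (hdiv : ∀ P : AlgebraicCurve.Place K F, (p : ℤ) ∣ P.ord f0) :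
    PowDiv O π F1 p (ι f0) := by
  intro P hPF hOP hπP hval hdvr
  have hι' : ∀ x : F, ι x ∈ F1 := fun x => (hι _).2 ⟨x, rfl⟩
  have hsurj : ∀ y ∈ F1, ∃ x : F, ι x = y := fun y hy => (hι y).1 hy
  have hKP : ∀ c : K, ι (algebraMap K F c) ∈ P := by
    intro c
    obtain ⟨o, ho, n, hn⟩ := hK c
    have h1 : ι (algebraMap K F c) = o * (π⁻¹) ^ n := by
      rw [← hn, mul_assoc, ← mul_pow, mul_inv_cancel₀ hπ0, one_pow, mul_one]
    rw [h1]
    exact P.mul_mem (hOP ho) (P.pow_mem hπP n)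
  have := hdvr
  let Q : Place K F := S18PD_place (K := K) P F1 ι hι' hval hsurj hPF hKP
  obtain ⟨u, g, hu, hu', hf⟩ := S18PD_eq_unit_mul_pow Q p f0 hf0 (hdiv Q)
  refine ⟨ι u, ι g, hu, ?_, hι' g, ?_⟩
  · rw [← map_inv₀]
    exact hu'
  · rw [hf, map_mul, map_pow]

end Fermat.Agent.S18_helper26_POWDIV
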