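import Mathlib
import Fermat.Prelude.Def_ModularCurve_ReductionModL
import Fermat.Agent.S18_helper19_PLACEMOD
import Fermat.Agent.S18_helper26_CONST

/-!
# S37, piece B1-PLACERES: places of `F = K · ι(F1)` versus places of `F1`

Constant field extension `K/K1` (algebraic, characteristic `0`), `F = K · ι(F1)`.

* `S37U_restrict`: the restriction of a place of `F/K` to `F1/K1`, with
  `S37U_ord_restrict : P.ord (ι x) = (restrict P).ord x`;
* `S37U_place_unique`: over a `K1`-rational place of `F1` there is at most one place of `F`;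
* `S37U_eq_or_eq_top`: a ring between a discrete valuation ring and its fraction field is one
  of the two.
-/

set_option autoImplicit false
set_option linter.unusedSectionVars false
set_option linter.style.haveILetI false

open AlgebraicCurve Polynomial IntermediateField

namespace Fermat.Agent.S37_helper19_PLACERES

open Fermat.Agent.S24_helper6_A2 Fermat.Agent.S18_helper19_PLACEEXT
  Fermat.Agent.S18_helper19_PLACEUNR

/-! ### Restriction of places -/

section Restrict

variable {K1 K F1 F : Type*} [Field K1] [Field K] [Field F1] [Field F]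
  [Algebra K1 F1] [Algebra K F]

/-- The image of `F1` is not contained in the ring of a place of `F = K · ι(F1)`. -/
theorem S37U_exists_notMem [CharZero K] (σ : K1 →+* K) (hσ : σ.IsIntegral)
    (ι : F1 →+* F) (hι : ∀ a : K1, ι (algebraMap K1 F1 a) = algebraMap K F (σ a))
    (hgen : Subfield.closure (Set.range (algebraMap K F) ∪ Set.range ι) = ⊤)
    (P : Place K F) : ∃ y : F1, ι y ∉ P.toValuationSubring := by
  by_contra h
  push Not at h
  apply P.ne_top'
  refine SetLike.ext fun z => ⟨fun _ => ValuationSubring.mem_top z, fun _ => ?_⟩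
  obtain ⟨a, q, rfl⟩ := S18A3_exists_eval₂ σ hσ ι hι hgen z
  rw [Polynomial.eval₂_eq_sum_range]
  exact sum_mem (fun i _ => mul_mem (h _) (pow_mem (P.algebraMap_mem' a) _))

/-- A place `P` of `F` whose ring contains the image of the ring of `P1` lies over `P1`:
images of non-units are non-units. -/
theorem S37U_hloc_of_hle [CharZero K] (σ : K1 →+* K) (hσ : σ.IsIntegral)
    (ι : F1 →+* F) (hι : ∀ a : K1, ι (algebraMap K1 F1 a) = algebraMap K F (σ a))
    (hgen : Subfield.closure (Set.range (algebraMap K F) ∪ Set.range ι) = ⊤)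
    (P1 : Place K1 F1) (P : Place K F)
    (hle : ∀ y : F1, y ∈ P1.toValuationSubring → ι y ∈ P.toValuationSubring) :
    ∀ y : F1, y ∈ P1.toValuationSubring → y⁻¹ ∉ P1.toValuationSubring →
      (ι y)⁻¹ ∉ P.toValuationSubring := by
  intro y hy hyinv hmem
  have hy0 : y ≠ 0 := by
    rintro rfl
    exact hyinv (by simp)
  have hordy : 0 < P1.ord y := by
    have h1 := ord_nonneg_of_mem P1 hy
    rcases h1.lt_or_eq with h | h
    · exact h
    · exfalso
      apply hyinv
      apply mem_of_ord_nonneg P1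
      rw [Place.ord_inv, ← h]
      simp
  obtain ⟨x, hx⟩ := S37U_exists_notMem σ hσ ι hι hgen P
  apply hx
  have hx0 : x ≠ 0 := by
    rintro rfl
    exact hx (by simp)
  -- `x * y ^ n ∈ O_{P1}` for `n` large
  set n : ℕ := (-(P1.ord x)).toNat with hn
  have h1 : x * y ^ n ∈ P1.toValuationSubring := by
    apply mem_of_ord_nonneg P1
    rw [P1.ord_mul hx0 (pow_ne_zero _ hy0)]
    have h2 : P1.ord (y ^ n) = n * P1.ord y := by
      have := P1.ord_zpow y (n : ℤ)
      rwa [zpow_natCast] at this
    rw [h2]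
    have h3 : (-(P1.ord x)) ≤ (n : ℤ) := Int.self_le_toNat _
    have h4 : (0 : ℤ) ≤ n := Int.natCast_nonneg _
    nlinarith
  have h2 : ι x = ι (x * y ^ n) * ((ι y)⁻¹) ^ n := by
    rw [map_mul, map_pow, mul_assoc, ← mul_pow, mul_inv_cancel₀ ((map_ne_zero ι).2 hy0),
      one_pow, mul_one]
  rw [h2]
  exact mul_mem (hle _ h1) (pow_mem hmem _)

/-- The valuation subring `ι⁻¹(O_P)` of `F1` is the ring of a place of `F1/K1`. -/
theorem S37U_exists_restrict [CharZero K] (σ : K1 →+* K) (hσ : σ.IsIntegral)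
    (ι : F1 →+* F) (hι : ∀ a : K1, ι (algebraMap K1 F1 a) = algebraMap K F (σ a))
    (hgen : Subfield.closure (Set.range (algebraMap K F) ∪ Set.range ι) = ⊤)
    (j1 : F1) (hj1 : Transcendental K1 j1) [FiniteDimensional K1⟮j1⟯ F1]
    (P : Place K F) :
    ∃ P1 : Place K1 F1, P1.toValuationSubring = P.toValuationSubring.comap ι := by
  haveI : CharZero K1 := σ.charZero
  apply S18A3_exists_place_of_ne_top j1 hj1
  · intro a
    rw [ValuationSubring.mem_comap, hι]
    exact P.algebraMap_mem' _
  · intro h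
    obtain ⟨y, hy⟩ := S37U_exists_notMem σ hσ ι hι hgen P
    apply hy
    rw [← ValuationSubring.mem_comap, h]
    exact ValuationSubring.mem_top _

/-- **Restriction of places** along a constant field extension. -/
noncomputable def S37U_restrict [CharZero K] (σ : K1 →+* K) (hσ : σ.IsIntegral)
    (ι : F1 →+* F) (hι : ∀ a : K1, ι (algebraMap K1 F1 a) = algebraMap K F (σ a))
    (hgen : Subfield.closure (Set.range (algebraMap K F) ∪ Set.range ι) = ⊤)
    (j1 : F1) (hj1 : Transcendental K1 j1) [FiniteDimensional K1⟮j1⟯ F1]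
    (P : Place K F) : Place K1 F1 where
  toValuationSubring := P.toValuationSubring.comap ι
  algebraMap_mem' := fun a => by
    rw [ValuationSubring.mem_comap, hι]
    exact P.algebraMap_mem' _
  ne_top' := by
    obtain ⟨P1, h⟩ := S37U_exists_restrict σ hσ ι hι hgen j1 hj1 P
    rw [← h]
    exact P1.ne_top'
  isPrincipalIdealRing' := by
    obtain ⟨P1, h⟩ := S37U_exists_restrict σ hσ ι hι hgen j1 hj1 P
    rw [← h]
    exact P1.isPrincipalIdealRing'

theorem S37U_mem_restrict [CharZero K] (σ : K1 →+* K) (hσ : σ.IsIntegral)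
    (ι : F1 →+* F) (hι : ∀ a : K1, ι (algebraMap K1 F1 a) = algebraMap K F (σ a))
    (hgen : Subfield.closure (Set.range (algebraMap K F) ∪ Set.range ι) = ⊤)
    (j1 : F1) (hj1 : Transcendental K1 j1) [FiniteDimensional K1⟮j1⟯ F1]
    (P : Place K F) (y : F1) :
    y ∈ (S37U_restrict σ hσ ι hι hgen j1 hj1 P).toValuationSubring ↔
      ι y ∈ P.toValuationSubring := Iff.rfl

/-- **Every extension is unramified**: if the ring of `P` contains the image of the ring of
`P1`, then `P.ord ∘ ι = P1.ord`. -/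
theorem S37U_ord_eq_of_hle [CharZero K] (σ : K1 →+* K) (hσ : σ.IsIntegral)
    (ι : F1 →+* F) (hι : ∀ a : K1, ι (algebraMap K1 F1 a) = algebraMap K F (σ a))
    (hgen : Subfield.closure (Set.range (algebraMap K F) ∪ Set.range ι) = ⊤)
    (P1 : Place K1 F1) (P : Place K F)
    (hle : ∀ y : F1, y ∈ P1.toValuationSubring → ι y ∈ P.toValuationSubring) (x : F1) :
    P.ord (ι x) = P1.ord x := by
  obtain ⟨e, he, hord⟩ := S18A3_ord_comp_eq ι P1 P hle
    (S37U_hloc_of_hle σ hσ ι hι hgen P1 P hle)
  have he1 := S18A3_ramification_eq_one σ hσ ι hι hgen P1 P e he hle hord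
  rw [hord, he1]
  simp

theorem S37U_ord_restrict [CharZero K] (σ : K1 →+* K) (hσ : σ.IsIntegral)
    (ι : F1 →+* F) (hι : ∀ a : K1, ι (algebraMap K1 F1 a) = algebraMap K F (σ a))
    (hgen : Subfield.closure (Set.range (algebraMap K F) ∪ Set.range ι) = ⊤)
    (j1 : F1) (hj1 : Transcendental K1 j1) [FiniteDimensional K1⟮j1⟯ F1]
    (P : Place K F) (x : F1) :
    P.ord (ι x) = (S37U_restrict σ hσ ι hι hgen j1 hj1 P).ord x :=
  S37U_ord_eq_of_hle σ hσ ι hι hgen _ P (fun _ hy => hy) x

/-- A place of `F1` with the same ring as the restriction is the restriction. -/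
theorem S37U_restrict_eq_of_hle [CharZero K] (σ : K1 →+* K) (hσ : σ.IsIntegral)
    (ι : F1 →+* F) (hι : ∀ a : K1, ι (algebraMap K1 F1 a) = algebraMap K F (σ a))
    (hgen : Subfield.closure (Set.range (algebraMap K F) ∪ Set.range ι) = ⊤)
    (j1 : F1) (hj1 : Transcendental K1 j1) [FiniteDimensional K1⟮j1⟯ F1]
    (P1 : Place K1 F1) (P : Place K F)
    (hle : ∀ y : F1, y ∈ P1.toValuationSubring → ι y ∈ P.toValuationSubring) :
    S37U_restrict σ hσ ι hι hgen j1 hj1 P = P1 := by
  apply Place.ext
  refine SetLike.ext fun y => ?_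
  rw [S37U_mem_restrict]
  constructor
  · intro hy
    apply mem_of_ord_nonneg P1
    rw [← S37U_ord_eq_of_hle σ hσ ι hι hgen P1 P hle y]
    exact ord_nonneg_of_mem P hy
  · exact hle y

end Restrict

/-! ### Uniqueness of the place above a rational place -/

section Unique

variable {K1 K F1 F : Type*} [Field K1] [Field K] [Field F1] [Field F]
  [Algebra K1 F1] [Algebra K F]

/-- The place `P1` of `F1/K1` is `K1`-rational: every element of its ring is congruent to a
constant modulo the maximal ideal. -/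
def S37U_IsRational (P1 : Place K1 F1) : Prop :=
  ∀ y : F1, y ∈ P1.toValuationSubring → ∃ a : K1, S18A3_IsN P1 (y - algebraMap K1 F1 a)

/-- Every element of `F = K · ι(F1)` is a combination `∑_{i<d} ι(c_i) a^i` of powers of one
constant `a`, where `1, a, …, a^{d-1}` are linearly independent over `K1`. -/
theorem S37U_exists_sum [CharZero K] (σ : K1 →+* K) (hσ : σ.IsIntegral)
    (ι : F1 →+* F) (hι : ∀ a : K1, ι (algebraMap K1 F1 a) = algebraMap K F (σ a))
    (hgen : Subfield.closure (Set.range (algebraMap K F) ∪ Set.range ι) = ⊤) (z : F) :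
    ∃ (a : K) (d : ℕ) (c : ℕ → F1),
      (∀ α : ℕ → K1, (∃ i ∈ Finset.range d, α i ≠ 0) →
        ∑ i ∈ Finset.range d, σ (α i) * a ^ i ≠ 0) ∧
      z = ∑ i ∈ Finset.range d, ι (c i) * (algebraMap K F a) ^ i := by
  obtain ⟨a, q, rfl⟩ := S18A3_exists_eval₂ σ hσ ι hι hgen z
  letI : Algebra K1 K := σ.toAlgebra
  have haint : IsIntegral K1 a := hσ a
  set m : K1[X] := minpoly K1 a with hm
  have hmm : m.Monic := minpoly.monic haint
  set M : F1[X] := m.map (algebraMap K1 F1) with hM
  have hMm : M.Monic := hmm.map _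
  have hMdeg : M.natDegree = m.natDegree := hmm.natDegree_map _
  have hM1 : M ≠ 1 := by
    intro h
    have h1 : m.natDegree = 0 := by rw [← hMdeg, h]; simp
    have h2 : 0 < m.natDegree := minpoly.natDegree_pos haint
    omega
  have hcomp : ι.comp (algebraMap K1 F1) = (algebraMap K F).comp σ := by
    ext c
    exact hι c
  have hMa : eval₂ ι (algebraMap K F a) M = 0 := by
    rw [hM, Polynomial.eval₂_map, hcomp, ← Polynomial.hom_eval₂]
    have : eval₂ σ a m = 0 := minpoly.aeval K1 a
    rw [this, map_zero]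
  have hq : eval₂ ι (algebraMap K F a) q = eval₂ ι (algebraMap K F a) (q %ₘ M) := by
    conv_lhs => rw [← Polynomial.modByMonic_add_div q M]
    rw [Polynomial.eval₂_add, Polynomial.eval₂_mul, hMa, zero_mul, add_zero]
  have hdeg : (q %ₘ M).natDegree < m.natDegree := by
    rw [← hMdeg]
    exact Polynomial.natDegree_modByMonic_lt q hMm hM1
  refine ⟨a, m.natDegree, fun i => (q %ₘ M).coeff i, ?_, ?_⟩
  · rintro α ⟨i0, hi0, hα0⟩ hsum
    rw [Finset.mem_range] at hi0
    set p : K1[X] := ∑ i ∈ Finset.range m.natDegree, C (α i) * X ^ i with hp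
    have hpc : p.coeff i0 = α i0 := by
      rw [hp, Polynomial.finset_sum_coeff]
      simp only [Polynomial.coeff_C_mul_X_pow]
      rw [Finset.sum_eq_single i0]
      · simp
      · intro b _ hb
        rw [if_neg (fun h => hb h.symm)]
      · intro h
        exact absurd (Finset.mem_range.2 hi0) h
    have hp0 : p ≠ 0 := by
      intro h
      rw [h, Polynomial.coeff_zero] at hpc
      exact hα0 hpc.symm
    have hpdeg : p.degree < m.natDegree := by
      rw [hp, Finset.sum_range]
      exact Polynomial.degree_sum_fin_lt _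
    have hpa : Polynomial.aeval a p = 0 := by
      rw [hp, map_sum]
      rw [← hsum]
      apply Finset.sum_congr rfl
      intro i _
      rw [map_mul, Polynomial.aeval_C, map_pow, Polynomial.aeval_X]
      rfl
    have h1 := minpoly.degree_le_of_ne_zero K1 a hp0 hpa
    have h2 : m.degree = m.natDegree := Polynomial.degree_eq_natDegree hmm.ne_zero
    rw [← hm, h2] at h1
    exact absurd (lt_of_lt_of_le hpdeg h1) (lt_irrefl _)
  · rw [hq]
    exact Polynomial.eval₂_eq_sum_range' ι hdeg _

/-- **Normal form** of an element of `F` at a rational place `P1` of `F1` with uniformiser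
`t`: `z = ι(t)^n (c + ι(t) w)` with a nonzero constant `c` and `w` in the ring of every
place above `P1`. -/
theorem S37U_normal_form [CharZero K] (σ : K1 →+* K) (hσ : σ.IsIntegral)
    (ι : F1 →+* F) (hι : ∀ a : K1, ι (algebraMap K1 F1 a) = algebraMap K F (σ a))
    (hgen : Subfield.closure (Set.range (algebraMap K F) ∪ Set.range ι) = ⊤)
    (P1 : Place K1 F1) (hrat : S37U_IsRational P1) (t : F1) (ht : P1.ord t = 1)
    (z : F) (hz : z ≠ 0) :
    ∃ (n : ℤ) (c : K) (w : F), c ≠ 0 ∧
      (∀ P : Place K F, (∀ y : F1, y ∈ P1.toValuationSubring → ι y ∈ P.toValuationSubring) →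
        w ∈ P.toValuationSubring) ∧
      z = ι t ^ n * (algebraMap K F c + ι t * w) := by
  classical
  obtain ⟨a, d, c, hlin, hzsum⟩ := S37U_exists_sum σ hσ ι hι hgen z
  have ht0 : t ≠ 0 := by
    rintro rfl
    rw [Place.ord_zero] at ht
    exact zero_ne_one ht
  -- the minimal order of a coefficient
  set S : Finset ℕ := (Finset.range d).filter (fun i => c i ≠ 0) with hS
  have hSne : S.Nonempty := by
    by_contra h
    rw [Finset.not_nonempty_iff_eq_empty] at h
    apply hz
    rw [hzsum]
    apply Finset.sum_eq_zero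
    intro i hi
    have : c i = 0 := by
      by_contra hci
      have : i ∈ S := Finset.mem_filter.2 ⟨hi, hci⟩
      rw [h] at this
      exact absurd this (Finset.notMem_empty _)
    rw [this, map_zero, zero_mul]
  obtain ⟨i0, hi0S, hmin⟩ := Finset.exists_min_image S (fun i => P1.ord (c i)) hSne
  have hi0 : i0 ∈ Finset.range d := (Finset.mem_filter.1 hi0S).1
  have hci0 : c i0 ≠ 0 := (Finset.mem_filter.1 hi0S).2
  set n : ℤ := P1.ord (c i0) with hn
  have htn0 : t ^ (-n) ≠ 0 := zpow_ne_zero _ ht0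
  have hordtn : P1.ord (t ^ (-n)) = -n := by
    rw [P1.ord_zpow, ht, mul_one]
  -- normalised coefficients
  have hq'ord : ∀ i, c i ≠ 0 → P1.ord (c i * t ^ (-n)) = P1.ord (c i) - n := by
    intro i hci
    rw [P1.ord_mul hci htn0, hordtn]
    ring
  have hq' : ∀ i ∈ Finset.range d, c i * t ^ (-n) ∈ P1.toValuationSubring := by
    intro i hi
    by_cases hci : c i = 0
    · rw [hci, zero_mul]
      exact zero_mem _
    · apply mem_of_ord_nonneg P1
      rw [hq'ord i hci]
      have := hmin i (Finset.mem_filter.2 ⟨hi, hci⟩)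
      omega
  have hex : ∀ i, ∃ α : K1, i ∈ Finset.range d →
      S18A3_IsN P1 (c i * t ^ (-n) - algebraMap K1 F1 α) := by
    intro i
    by_cases hi : i ∈ Finset.range d
    · obtain ⟨α, hα⟩ := hrat _ (hq' i hi)
      exact ⟨α, fun _ => hα⟩
    · exact ⟨0, fun h => absurd h hi⟩
  choose α hα using hex
  -- `α i0 ≠ 0`
  have hαi0 : α i0 ≠ 0 := by
    intro h0
    have h1 := hα i0 hi0
    rw [h0, map_zero, sub_zero] at h1
    have h2 := S18A3_ord_pos_of_isN P1 h1 (mul_ne_zero hci0 htn0)
    rw [hq'ord i0 hci0] at h2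
    omega
  -- the quotients
  have hq'' : ∀ i ∈ Finset.range d,
      (c i * t ^ (-n) - algebraMap K1 F1 (α i)) * t⁻¹ ∈ P1.toValuationSubring := by
    intro i hi
    by_cases h0 : c i * t ^ (-n) - algebraMap K1 F1 (α i) = 0
    · rw [h0, zero_mul]
      exact zero_mem _
    · apply mem_of_ord_nonneg P1
      rw [P1.ord_mul h0 (inv_ne_zero ht0), Place.ord_inv, ht]
      have := S18A3_ord_pos_of_isN P1 (hα i hi) h0
      omega
  have hid : ∀ i, c i = t ^ n * (algebraMap K1 F1 (α i)
      + t * ((c i * t ^ (-n) - algebraMap K1 F1 (α i)) * t⁻¹)) := by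
    intro i
    have h1 : t * ((c i * t ^ (-n) - algebraMap K1 F1 (α i)) * t⁻¹)
        = c i * t ^ (-n) - algebraMap K1 F1 (α i) := by
      field_simp
    rw [h1, add_sub_cancel, mul_comm, mul_assoc, ← zpow_add₀ ht0]
    simp
  refine ⟨n, ∑ i ∈ Finset.range d, σ (α i) * a ^ i,
    ∑ i ∈ Finset.range d, ι ((c i * t ^ (-n) - algebraMap K1 F1 (α i)) * t⁻¹)
      * (algebraMap K F a) ^ i, hlin α ⟨i0, hi0, hαi0⟩, ?_, ?_⟩
  · intro P hle
    exact sum_mem (fun i hi => mul_mem (hle _ (hq'' i hi)) (pow_mem (P.algebraMap_mem' a) _))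
  · rw [hzsum, map_sum, Finset.mul_sum, ← Finset.sum_add_distrib, Finset.mul_sum]
    apply Finset.sum_congr rfl
    intro i _
    conv_lhs => rw [hid i]
    simp only [map_mul, map_add, map_pow, map_zpow₀, hι]
    ring

/-- At a rational place `P1`, the order at a place `P` above `P1` does not depend on `P`. -/
theorem S37U_ord_eq_of_rational [CharZero K] (σ : K1 →+* K) (hσ : σ.IsIntegral)
    (ι : F1 →+* F) (hι : ∀ a : K1, ι (algebraMap K1 F1 a) = algebraMap K F (σ a))
    (hgen : Subfield.closure (Set.range (algebraMap K F) ∪ Set.range ι) = ⊤)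
    (P1 : Place K1 F1) (hrat : S37U_IsRational P1) (P P' : Place K F)
    (hle : ∀ y : F1, y ∈ P1.toValuationSubring → ι y ∈ P.toValuationSubring)
    (hle' : ∀ y : F1, y ∈ P1.toValuationSubring → ι y ∈ P'.toValuationSubring) (z : F) :
    P.ord z = P'.ord z := by
  rcases eq_or_ne z 0 with rfl | hz
  · rw [Place.ord_zero, Place.ord_zero]
  obtain ⟨π, hπ⟩ := IsDiscreteValuationRing.exists_irreducible P1.toValuationSubring
  have ht : P1.ord (π : F1) = 1 := P1.ord_coe_irreducible hπ
  obtain ⟨n, c, w, hc, hw, hzeq⟩ :=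
    S37U_normal_form σ hσ ι hι hgen P1 hrat (π : F1) ht z hz
  have key : ∀ Q : Place K F,
      (∀ y : F1, y ∈ P1.toValuationSubring → ι y ∈ Q.toValuationSubring) → Q.ord z = n := by
    intro Q hQ
    have hιt : Q.ord (ι (π : F1)) = 1 := by
      rw [S37U_ord_eq_of_hle σ hσ ι hι hgen P1 Q hQ, ht]
    have hιt0 : ι (π : F1) ≠ 0 := by
      intro h
      rw [h, Place.ord_zero] at hιt
      exact zero_ne_one hιt
    have hU : S18A3_IsU Q (algebraMap K F c) := by
      refine ⟨Q.algebraMap_mem' c, ?_, (_root_.map_ne_zero _).2 hc⟩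
      rw [← map_inv₀]
      exact Q.algebraMap_mem' _
    have hN : S18A3_IsN Q (ι (π : F1) * w) := by
      rw [mul_comm]
      exact S18A3_isN_mul Q (hw Q hQ) (S18A3_isN_of_ord_pos Q (by rw [hιt]; exact one_pos))
    have hsum : S18A3_IsU Q (algebraMap K F c + ι (π : F1) * w) := by
      rcases S18A3_isU_or_isN Q (add_mem hU.1 hN.1) with h | h
      · exact h
      · exfalso
        have h1 := S18A3_isN_add Q h (S18A3_isN_neg Q hN)
        rw [add_neg_cancel_right] at h1
        exact S18A3_not_isU_of_isN Q h1 hU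
    rw [hzeq, Q.ord_mul (zpow_ne_zero _ hιt0) hsum.2.2, Q.ord_zpow, hιt,
      S18A3_ord_of_isU Q hsum]
    ring
  rw [key P hle, key P' hle']

/-- **Uniqueness of the place above a rational place.** -/
theorem S37U_place_unique [CharZero K] (σ : K1 →+* K) (hσ : σ.IsIntegral)
    (ι : F1 →+* F) (hι : ∀ a : K1, ι (algebraMap K1 F1 a) = algebraMap K F (σ a))
    (hgen : Subfield.closure (Set.range (algebraMap K F) ∪ Set.range ι) = ⊤)
    (P1 : Place K1 F1) (hrat : S37U_IsRational P1) (P P' : Place K F)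
    (hle : ∀ y : F1, y ∈ P1.toValuationSubring → ι y ∈ P.toValuationSubring)
    (hle' : ∀ y : F1, y ∈ P1.toValuationSubring → ι y ∈ P'.toValuationSubring) :
    P = P' := by
  apply Place.ext
  refine SetLike.ext fun z => ⟨fun h => ?_, fun h => ?_⟩
  · apply mem_of_ord_nonneg P'
    rw [← S37U_ord_eq_of_rational σ hσ ι hι hgen P1 hrat P P' hle hle' z]
    exact ord_nonneg_of_mem P h
  · apply mem_of_ord_nonneg P
    rw [S37U_ord_eq_of_rational σ hσ ι hι hgen P1 hrat P P' hle hle' z]
    exact ord_nonneg_of_mem P' h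

end Unique

/-! ### Criteria for rationality -/

section Rational

variable {K1 K F1 F : Type*} [Field K1] [Field K] [Field F1] [Field F]
  [Algebra K1 F1] [Algebra K F]

/-- The subring of the elements of the ring of `P1` which are congruent to a constant modulo
the maximal ideal. -/
def S37U_ratSubring (P1 : Place K1 F1) : Subring F1 where
  carrier := {y | ∃ a : K1, S18A3_IsN P1 (y - algebraMap K1 F1 a)}
  zero_mem' := ⟨0, by rw [map_zero, sub_zero]; exact ⟨zero_mem _, Or.inl rfl⟩⟩
  one_mem' := ⟨1, by rw [map_one, sub_self]; exact ⟨zero_mem _, Or.inl rfl⟩⟩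
  add_mem' := by
    rintro x y ⟨a, ha⟩ ⟨b, hb⟩
    refine ⟨a + b, ?_⟩
    have := S18A3_isN_add P1 ha hb
    rw [map_add]
    convert this using 1
    ring
  neg_mem' := by
    rintro x ⟨a, ha⟩
    refine ⟨-a, ?_⟩
    have := S18A3_isN_neg P1 ha
    rw [map_neg]
    convert this using 1
    ring
  mul_mem' := by
    rintro x y ⟨a, ha⟩ ⟨b, hb⟩
    refine ⟨a * b, ?_⟩
    have hx : x ∈ P1.toValuationSubring := by
      have := add_mem ha.1 (P1.algebraMap_mem' a)
      rwa [sub_add_cancel] at this
    have h1 := S18A3_isN_mul P1 hx hb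
    have h2 := S18A3_isN_mul P1 (P1.algebraMap_mem' b) ha
    have := S18A3_isN_add P1 h1 h2
    rw [map_mul]
    convert this using 1
    ring

theorem S37U_mem_ratSubring (P1 : Place K1 F1) (y : F1) :
    y ∈ S37U_ratSubring P1 ↔ ∃ a : K1, S18A3_IsN P1 (y - algebraMap K1 F1 a) := Iff.rfl

theorem S37U_ratSubring_le (P1 : Place K1 F1) {y : F1} (hy : y ∈ S37U_ratSubring P1) :
    y ∈ P1.toValuationSubring := by
  obtain ⟨a, ha⟩ := hy
  have := add_mem ha.1 (P1.algebraMap_mem' a)
  rwa [sub_add_cancel] at this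

theorem S37U_algebraMap_mem_ratSubring (P1 : Place K1 F1) (a : K1) :
    algebraMap K1 F1 a ∈ S37U_ratSubring P1 :=
  ⟨a, by rw [sub_self]; exact ⟨zero_mem _, Or.inl rfl⟩⟩

/-- `ratSubring` is closed under division by units of the ring of `P1`. -/
theorem S37U_div_mem_ratSubring (P1 : Place K1 F1) {y b s : F1}
    (hb : b ∈ S37U_ratSubring P1) (hs : s ∈ S37U_ratSubring P1) (hsU : S18A3_IsU P1 s)
    (hy : y * s = b) : y ∈ S37U_ratSubring P1 := by
  obtain ⟨β, hβ⟩ := hb
  obtain ⟨γ, hγ⟩ := hs
  have hγ0 : γ ≠ 0 := by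
    rintro rfl
    rw [map_zero, sub_zero] at hγ
    exact S18A3_not_isU_of_isN P1 hγ hsU
  have hs0 : s ≠ 0 := hsU.2.2
  have hγ' : algebraMap K1 F1 γ ≠ 0 := (_root_.map_ne_zero _).2 hγ0
  refine ⟨β / γ, ?_⟩
  have h1 : y - algebraMap K1 F1 (β / γ)
      = s⁻¹ * ((b - algebraMap K1 F1 β)
        + algebraMap K1 F1 (-(β / γ)) * (s - algebraMap K1 F1 γ)) := by
    rw [← hy, map_neg, map_div₀]
    field_simp
    ring
  rw [h1]
  exact S18A3_isN_mul P1 hsU.2.1
    (S18A3_isN_add P1 hβ (S18A3_isN_mul P1 (P1.algebraMap_mem' _) hγ))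

theorem S37U_isRational_iff (P1 : Place K1 F1) :
    S37U_IsRational P1 ↔ ∀ y : F1, y ∈ P1.toValuationSubring → y ∈ S37U_ratSubring P1 :=
  Iff.rfl

/-- **Criterion for rationality**: the ring of `P1` consists of fractions `b / s` of
elements of a subring `B` on which the residue map takes values in `K1`. -/
theorem S37U_isRational_of_subring (P1 : Place K1 F1) (B : Subring F1)
    (hB : ∀ y : F1, y ∈ P1.toValuationSubring → ∃ b ∈ B, ∃ s ∈ B, S18A3_IsU P1 s ∧ y * s = b)
    (hval : ∀ b ∈ B, ∃ a : K1, S18A3_IsN P1 (b - algebraMap K1 F1 a)) :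
    S37U_IsRational P1 := by
  intro y hy
  obtain ⟨b, hb, s, hs, hsU, hys⟩ := hB y hy
  exact S37U_div_mem_ratSubring P1 (hval b hb) (hval s hs) hsU hys

/-- The same criterion with `B` generated by `K1` and a set `G`. -/
theorem S37U_isRational_of_generators (P1 : Place K1 F1) (G : Set F1)
    (hB : ∀ y : F1, y ∈ P1.toValuationSubring →
      ∃ b ∈ Subring.closure (Set.range (algebraMap K1 F1) ∪ G),
      ∃ s ∈ Subring.closure (Set.range (algebraMap K1 F1) ∪ G), S18A3_IsU P1 s ∧ y * s = b)
    (hval : ∀ g ∈ G, ∃ a : K1, S18A3_IsN P1 (g - algebraMap K1 F1 a)) :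
    S37U_IsRational P1 := by
  apply S37U_isRational_of_subring P1 _ hB
  have hle : Subring.closure (Set.range (algebraMap K1 F1) ∪ G) ≤ S37U_ratSubring P1 := by
    rw [Subring.closure_le]
    rintro x (⟨a, rfl⟩ | hx)
    · exact S37U_algebraMap_mem_ratSubring P1 a
    · exact hval x hx
  exact fun b hb => hle hb

/-- Units and non-units are detected above: `ι x` is a non-unit at `P` iff `x` is a
non-unit at `P1`. -/
theorem S37U_isN_iff_of_hle [CharZero K] (σ : K1 →+* K) (hσ : σ.IsIntegral)
    (ι : F1 →+* F) (hι : ∀ a : K1, ι (algebraMap K1 F1 a) = algebraMap K F (σ a))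
    (hgen : Subfield.closure (Set.range (algebraMap K F) ∪ Set.range ι) = ⊤)
    (P1 : Place K1 F1) (P : Place K F)
    (hle : ∀ y : F1, y ∈ P1.toValuationSubring → ι y ∈ P.toValuationSubring) (x : F1) :
    S18A3_IsN P (ι x) ↔ S18A3_IsN P1 x := by
  have hord := S37U_ord_eq_of_hle σ hσ ι hι hgen P1 P hle
  rcases eq_or_ne x 0 with rfl | hx
  · rw [map_zero]
    exact ⟨fun _ => ⟨zero_mem _, Or.inl rfl⟩, fun _ => ⟨zero_mem _, Or.inl rfl⟩⟩
  have hιx : ι x ≠ 0 := (_root_.map_ne_zero ι).2 hx
  constructor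
  · intro h
    apply S18A3_isN_of_ord_pos
    rw [← hord]
    exact S18A3_ord_pos_of_isN P h hιx
  · intro h
    apply S18A3_isN_of_ord_pos
    rw [hord]
    exact S18A3_ord_pos_of_isN P1 h hx

/-- **Rationality read off above**: if the residue map of a place `P` above `P1` takes values
in `σ(K1)` on the image of the ring of `P1`, then `P1` is rational. -/
theorem S37U_isRational_of_above [CharZero K] (σ : K1 →+* K) (hσ : σ.IsIntegral)
    (ι : F1 →+* F) (hι : ∀ a : K1, ι (algebraMap K1 F1 a) = algebraMap K F (σ a))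
    (hgen : Subfield.closure (Set.range (algebraMap K F) ∪ Set.range ι) = ⊤)
    (P1 : Place K1 F1) (P : Place K F)
    (hle : ∀ y : F1, y ∈ P1.toValuationSubring → ι y ∈ P.toValuationSubring)
    (hval : ∀ y : F1, y ∈ P1.toValuationSubring →
      ∃ a : K1, S18A3_IsN P (ι y - algebraMap K F (σ a))) :
    S37U_IsRational P1 := by
  intro y hy
  obtain ⟨a, ha⟩ := hval y hy
  refine ⟨a, ?_⟩
  rw [← S37U_isN_iff_of_hle σ hσ ι hι hgen P1 P hle, map_sub, hι]
  exact ha

/-- A place of degree one is rational. -/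
theorem S37U_isRational_of_deg (P1 : Place K1 F1) (hdeg : P1.deg = 1) :
    S37U_IsRational P1 := by
  intro y hy
  have h1 : Module.finrank K1 P1.ResidueField = 1 := hdeg
  have h2 : Function.Surjective (algebraMap K1 P1.ResidueField) := by
    rw [Algebra.surjective_algebraMap_iff]
    exact (Subalgebra.bot_eq_top_of_finrank_eq_one h1).symm
  obtain ⟨a, ha⟩ := h2 (IsLocalRing.residue P1.toValuationSubring ⟨y, hy⟩)
  refine ⟨a, ?_⟩
  have hmem : y - algebraMap K1 F1 a ∈ P1.toValuationSubring :=
    sub_mem hy (P1.algebraMap_mem' a)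
  rw [S18A3_isN_iff P1 hmem, ← IsLocalRing.residue_eq_zero_iff]
  have h3 : (⟨y - algebraMap K1 F1 a, hmem⟩ : P1.toValuationSubring)
      = ⟨y, hy⟩ - algebraMap K1 P1.toValuationSubring a := rfl
  rw [h3, map_sub, sub_eq_zero, ← ha]
  rfl

end Rational

/-! ### A ring between a discrete valuation ring and its fraction field -/

section Between

/-- A subring of the fraction field of a discrete valuation ring `O` which contains `O` is
either `O` or the whole field. -/
theorem S37U_eq_or_eq_top {O K1 : Type*} [CommRing O] [IsDomain O]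
    [IsDiscreteValuationRing O] [Field K1] [Algebra O K1] [IsFractionRing O K1]
    (D : Subring K1) (hD : ∀ c : O, algebraMap O K1 c ∈ D) :
    (∀ x ∈ D, ∃ c : O, algebraMap O K1 c = x) ∨ D = ⊤ := by
  by_cases h : ∀ x ∈ D, ∃ c : O, algebraMap O K1 c = x
  · exact Or.inl h
  right
  push Not at h
  obtain ⟨x, hxD, hx⟩ := h
  obtain ⟨π, hπ⟩ := IsDiscreteValuationRing.exists_irreducible O
  have hinj : Function.Injective (algebraMap O K1) := IsFractionRing.injective O K1
  have hπ0 : algebraMap O K1 π ≠ 0 := by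
    rw [Ne, map_eq_zero_iff _ hinj]
    exact hπ.ne_zero
  have hunit : ∀ u : Oˣ, (algebraMap O K1 u)⁻¹ ∈ D := by
    intro u
    have : (algebraMap O K1 u)⁻¹ = algebraMap O K1 ((u⁻¹ : Oˣ) : O) := by
      symm
      apply eq_inv_of_mul_eq_one_left
      rw [← map_mul]
      simp
    rw [this]
    exact hD _
  -- `π⁻¹ ∈ D`
  have hπinv : (algebraMap O K1 π)⁻¹ ∈ D := by
    obtain ⟨a, b, hb, hab⟩ := IsFractionRing.div_surjective (A := O) x
    have hb0 : b ≠ 0 := nonZeroDivisors.ne_zero hb
    have ha0 : a ≠ 0 := by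
      rintro rfl
      apply hx 0
      rw [← hab]
      simp
    obtain ⟨m, u, hu⟩ := IsDiscreteValuationRing.eq_unit_mul_pow_irreducible ha0 hπ
    obtain ⟨k, v, hv⟩ := IsDiscreteValuationRing.eq_unit_mul_pow_irreducible hb0 hπ
    have hv0 : algebraMap O K1 v ≠ 0 := by
      rw [Ne, map_eq_zero_iff _ hinj]
      exact v.ne_zero
    have hu0 : algebraMap O K1 u ≠ 0 := by
      rw [Ne, map_eq_zero_iff _ hinj]
      exact u.ne_zero
    have hxeq : x * (algebraMap O K1 v * algebraMap O K1 π ^ k)
        = algebraMap O K1 u * algebraMap O K1 π ^ m := by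
      rw [← hab, hu, hv]
      simp only [map_mul, map_pow]
      field_simp
    have hmk : m < k := by
      by_contra hcon
      rw [not_lt] at hcon
      apply hx (((v⁻¹ : Oˣ) : O) * u * π ^ (m - k))
      have h1 : algebraMap O K1 π ^ m = algebraMap O K1 π ^ (m - k) * algebraMap O K1 π ^ k := by
        rw [← pow_add, Nat.sub_add_cancel hcon]
      have h2 : algebraMap O K1 ((v⁻¹ : Oˣ) : O) * algebraMap O K1 v = 1 := by
        rw [← map_mul]
        simp
      have h3 : x * algebraMap O K1 v = algebraMap O K1 u * algebraMap O K1 π ^ (m - k) := by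
        have h4 := hxeq
        rw [h1, ← mul_assoc, ← mul_assoc] at h4
        exact mul_right_cancel₀ (pow_ne_zero k hπ0) h4
      simp only [map_mul, map_pow]
      calc algebraMap O K1 ((v⁻¹ : Oˣ) : O) * algebraMap O K1 u * algebraMap O K1 π ^ (m - k)
          = algebraMap O K1 ((v⁻¹ : Oˣ) : O) * (x * algebraMap O K1 v) := by rw [h3]; ring
        _ = x * (algebraMap O K1 ((v⁻¹ : Oˣ) : O) * algebraMap O K1 v) := by ring
        _ = x := by rw [h2, mul_one]
    -- `π^{-(k-m)} ∈ D`
    have h5 : (algebraMap O K1 π)⁻¹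
        = x * algebraMap O K1 v * (algebraMap O K1 u)⁻¹ * algebraMap O K1 π ^ (k - m - 1) := by
      have h1 : algebraMap O K1 π ^ k
          = algebraMap O K1 π ^ m * algebraMap O K1 π ^ (k - m - 1) * algebraMap O K1 π := by
        rw [← pow_add, ← pow_succ]
        congr 1
        omega
      have h6 : x * algebraMap O K1 v * (algebraMap O K1 π ^ (k - m - 1) * algebraMap O K1 π)
          = algebraMap O K1 u := by
        have h4 := hxeq
        rw [h1] at h4
        have h7 : x * algebraMap O K1 v * (algebraMap O K1 π ^ (k - m - 1) * algebraMap O K1 π)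
            * algebraMap O K1 π ^ m = algebraMap O K1 u * algebraMap O K1 π ^ m := by
          rw [← h4]
          ring
        exact mul_right_cancel₀ (pow_ne_zero m hπ0) h7
      field_simp
      rw [← h6]
      ring
    rw [h5]
    exact mul_mem (mul_mem (mul_mem hxD (hD _)) (hunit u)) (pow_mem (hD _) _)
  rw [eq_top_iff]
  intro y _
  obtain ⟨a, b, hb, hab⟩ := IsFractionRing.div_surjective (A := O) y
  have hb0 : b ≠ 0 := nonZeroDivisors.ne_zero hb
  obtain ⟨k, v, hv⟩ := IsDiscreteValuationRing.eq_unit_mul_pow_irreducible hb0 hπ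
  have hyeq : y = algebraMap O K1 a * (algebraMap O K1 v)⁻¹ * ((algebraMap O K1 π)⁻¹) ^ k := by
    rw [← hab, hv]
    simp only [map_mul, map_pow]
    rw [div_eq_mul_inv, mul_inv, inv_pow]
    ring
  rw [hyeq]
  exact mul_mem (mul_mem (hD _) (hunit v)) (pow_mem hπinv _)

end Between

/-! ### The modular function fields -/

section Concrete

open Fermat.Agent.S24 Fermat.Agent.S18_helper19_PLACEMOD Fermat.Agent.S18_helper26_CONST
  ModularCurve HahnSeries

variable (N : ℕ) [NeZero N] {K1 : Type*} [Field K1] (φ : K1 →+* Kbar)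
  (ι : modularFunctionFieldFullC K1 N →+* modularFunctionFieldBar N)
  (hι : ∀ x, ((ι x : modularFunctionFieldBar N) : LaurentSeries Kbar)
    = coeffMap φ (x : LaurentSeries K1))

/-- **Restriction of places** from `ℚ̄(j(q^d))` to `K1(j(q^d))`. -/
noncomputable def S37UC_restrict (P : Place Kbar (modularFunctionFieldBar N)) :
    Place K1 (modularFunctionFieldFullC K1 N) :=
  haveI := S18P15_finiteDimensional K1 N
  S37U_restrict φ (S18A3C_isIntegral φ) ι (S18A3C_const N φ ι hι) (S18A3C_hgen N φ ι hι)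
    (S18P15_jbar K1 N) (S18P15_transcendental_jbar K1 N) P

theorem S37UC_mem_restrict (P : Place Kbar (modularFunctionFieldBar N))
    (y : modularFunctionFieldFullC K1 N) :
    y ∈ (S37UC_restrict N φ ι hι P).toValuationSubring ↔ ι y ∈ P.toValuationSubring :=
  Iff.rfl

include hι

theorem S37UC_ord_eq_of_hle (P1 : Place K1 (modularFunctionFieldFullC K1 N))
    (P : Place Kbar (modularFunctionFieldBar N))
    (hle : ∀ y : modularFunctionFieldFullC K1 N, y ∈ P1.toValuationSubring →
      ι y ∈ P.toValuationSubring) (x : modularFunctionFieldFullC K1 N) :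
    P.ord (ι x) = P1.ord x :=
  S37U_ord_eq_of_hle φ (S18A3C_isIntegral φ) ι (S18A3C_const N φ ι hι) (S18A3C_hgen N φ ι hι)
    P1 P hle x

theorem S37UC_ord_restrict (P : Place Kbar (modularFunctionFieldBar N))
    (x : modularFunctionFieldFullC K1 N) :
    P.ord (ι x) = (S37UC_restrict N φ ι hι P).ord x :=
  S37UC_ord_eq_of_hle N φ ι hι _ P (fun _ hy => hy) x

theorem S37UC_restrict_eq_of_hle (P1 : Place K1 (modularFunctionFieldFullC K1 N))
    (P : Place Kbar (modularFunctionFieldBar N))
    (hle : ∀ y : modularFunctionFieldFullC K1 N, y ∈ P1.toValuationSubring →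
      ι y ∈ P.toValuationSubring) :
    S37UC_restrict N φ ι hι P = P1 :=
  haveI := S18P15_finiteDimensional K1 N
  S37U_restrict_eq_of_hle φ (S18A3C_isIntegral φ) ι (S18A3C_const N φ ι hι)
    (S18A3C_hgen N φ ι hι) (S18P15_jbar K1 N) (S18P15_transcendental_jbar K1 N) P1 P hle

/-- Every place of `K1(j(q^d))` is the restriction of a place of `ℚ̄(j(q^d))`. -/
theorem S37UC_restrict_surjective :
    Function.Surjective (S37UC_restrict N φ ι hι) := by
  intro P1
  obtain ⟨P, hle, -⟩ := S18A3C_exists_place_extension N φ ι hι P1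
  exact ⟨P, S37UC_restrict_eq_of_hle N φ ι hι P1 P hle⟩

theorem S37UC_isN_iff (P : Place Kbar (modularFunctionFieldBar N))
    (x : modularFunctionFieldFullC K1 N) :
    S18A3_IsN P (ι x) ↔ S18A3_IsN (S37UC_restrict N φ ι hι P) x :=
  S37U_isN_iff_of_hle φ (S18A3C_isIntegral φ) ι (S18A3C_const N φ ι hι)
    (S18A3C_hgen N φ ι hι) _ P (fun _ hy => hy) x

/-- **Uniqueness above a rational place**, restriction form. -/
theorem S37UC_restrict_injOn (P P' : Place Kbar (modularFunctionFieldBar N))
    (hrat : S37U_IsRational (S37UC_restrict N φ ι hι P))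
    (h : S37UC_restrict N φ ι hι P' = S37UC_restrict N φ ι hι P) : P' = P := by
  apply S37U_place_unique φ (S18A3C_isIntegral φ) ι (S18A3C_const N φ ι hι)
    (S18A3C_hgen N φ ι hι) (S37UC_restrict N φ ι hι P) hrat P' P
  · intro y hy
    rw [← h] at hy
    exact hy
  · exact fun _ hy => hy

/-- **Uniqueness above a rational place.** -/
theorem S37UC_place_unique (P1 : Place K1 (modularFunctionFieldFullC K1 N))
    (hrat : S37U_IsRational P1) (P P' : Place Kbar (modularFunctionFieldBar N))
    (hle : ∀ y : modularFunctionFieldFullC K1 N, y ∈ P1.toValuationSubring →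
      ι y ∈ P.toValuationSubring)
    (hle' : ∀ y : modularFunctionFieldFullC K1 N, y ∈ P1.toValuationSubring →
      ι y ∈ P'.toValuationSubring) : P = P' :=
  S37U_place_unique φ (S18A3C_isIntegral φ) ι (S18A3C_const N φ ι hι) (S18A3C_hgen N φ ι hι)
    P1 hrat P P' hle hle'

/-- Above a rational place of `K1(j(q^d))` there is exactly one place of `ℚ̄(j(q^d))`. -/
theorem S37UC_existsUnique (P1 : Place K1 (modularFunctionFieldFullC K1 N))
    (hrat : S37U_IsRational P1) :
    ∃! P : Place Kbar (modularFunctionFieldBar N), S37UC_restrict N φ ι hι P = P1 := by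
  obtain ⟨P, hP⟩ := S37UC_restrict_surjective N φ ι hι P1
  refine ⟨P, hP, fun P' hP' => ?_⟩
  apply S37UC_restrict_injOn N φ ι hι P P' (by rw [hP]; exact hrat)
  rw [hP, hP']

/-- **Rationality read off above**: if the residue map of `P` takes values in `φ(K1)` on the
image of the ring of the restriction `P1`, then `P1` is rational. -/
theorem S37UC_isRational_restrict (P : Place Kbar (modularFunctionFieldBar N))
    (hval : ∀ y : modularFunctionFieldFullC K1 N, ι y ∈ P.toValuationSubring →
      ∃ a : K1, S18A3_IsN P (ι y - algebraMap Kbar (modularFunctionFieldBar N) (φ a))) :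
    S37U_IsRational (S37UC_restrict N φ ι hι P) :=
  S37U_isRational_of_above φ (S18A3C_isIntegral φ) ι (S18A3C_const N φ ι hι)
    (S18A3C_hgen N φ ι hι) _ P (fun _ hy => hy) hval

end Concrete

end Fermat.Agent.S37_helper19_PLACERES
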