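import Mathlib
import Fermat.Agent.S18_helper4_B6

/-!
# S18, block B, support for X-B7-NORM: the discrete valuation ring attached to `hloc`

`B` a noetherian commutative ring, `π τ ∈ M`, `M` a maximal ideal of `B`, such that
* (`h1`) `M` is generated by `π, τ` locally at `M` : `∀ x ∈ M, ∃ s ∉ M, ∃ a b, s x = a π + b τ`,
* (`h2`) `τ` is not nilpotent modulo `π` locally at `M` : `∀ n, ∀ s ∉ M, ¬ π ∣ s τⁿ`.

Then `D := (B/π)_{M/π}` is a discrete valuation ring with uniformiser the image of `τ`, and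
membership in the powers of its maximal ideal can be read off in `B`.
-/

set_option autoImplicit false

namespace Fermat.Agent.S18_helper4_DLOC

open IsLocalRing Fermat.Agent.S18_helper4_B6

section Generic

/-- A noetherian local ring whose maximal ideal is generated by a non-nilpotent element is a
domain. -/
theorem S18DLOC_isDomain_of_principal {L : Type*} [CommRing L] [IsLocalRing L]
    [IsNoetherianRing L] (p : L) (hp : maximalIdeal L = Ideal.span {p})
    (hnil : ∀ n : ℕ, p ^ n ≠ 0) : IsDomain L := by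
  have : NoZeroDivisors L := by
    refine ⟨fun {a c} hac => ?_⟩
    by_contra hne
    rw [not_or] at hne
    obtain ⟨n, u, hu⟩ := S18B6_exists_unit_mul_pow p hp a hne.1
    obtain ⟨m, v, hv⟩ := S18B6_exists_unit_mul_pow p hp c hne.2
    have h1 : p ^ (n + m) * ((u * v : Lˣ) : L) = 0 := by
      rw [← hac, hu, hv, pow_add, Units.val_mul]
      ring
    have h2 : p ^ (n + m) = 0 := by
      have := congrArg (fun z => z * (((u * v)⁻¹ : Lˣ) : L)) h1
      simpa [mul_assoc] using this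
    exact hnil _ h2
  exact NoZeroDivisors.to_isDomain L

/-- ... and a discrete valuation ring. -/
theorem S18DLOC_isDVR_of_principal {L : Type*} [CommRing L] [IsLocalRing L]
    [IsNoetherianRing L] [IsDomain L] (p : L) (hp : maximalIdeal L = Ideal.span {p})
    (hnil : ∀ n : ℕ, p ^ n ≠ 0) : IsDiscreteValuationRing L :=
  S18B6_isDVR_of_principal p hp (by simpa using hnil 1)

end Generic

section Main

variable {B : Type*} [CommRing B] (π τ : B) (M : Ideal B)

/-- The image of `M` in `B ⧸ (π)`. -/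
abbrev S18DLOC_Mbar : Ideal (B ⧸ Ideal.span {π}) :=
  M.map (Ideal.Quotient.mk (Ideal.span {π}))

variable {π M}

theorem S18DLOC_comap_Mbar (hπ : π ∈ M) :
    (S18DLOC_Mbar π M).comap (Ideal.Quotient.mk (Ideal.span {π})) = M := by
  rw [Ideal.comap_map_of_surjective _ Ideal.Quotient.mk_surjective]
  have : Ideal.comap (Ideal.Quotient.mk (Ideal.span {π})) ⊥ ≤ M := by
    intro x hx
    rw [Ideal.mem_comap, Submodule.mem_bot, Ideal.Quotient.eq_zero_iff_mem,
      Ideal.mem_span_singleton] at hx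
    obtain ⟨c, rfl⟩ := hx
    exact M.mul_mem_right c hπ
  exact sup_eq_left.2 this

theorem S18DLOC_mk_mem_Mbar_iff (hπ : π ∈ M) (x : B) :
    Ideal.Quotient.mk (Ideal.span {π}) x ∈ S18DLOC_Mbar π M ↔ x ∈ M := by
  rw [← Ideal.mem_comap, S18DLOC_comap_Mbar hπ]

theorem S18DLOC_Mbar_isMaximal [hM : M.IsMaximal] (hπ : π ∈ M) :
    (S18DLOC_Mbar π M).IsMaximal := by
  rcases Ideal.map_eq_top_or_isMaximal_of_surjective (Ideal.Quotient.mk (Ideal.span {π}))
    Ideal.Quotient.mk_surjective hM with h | h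
  · exfalso
    have h1 : (1 : B) ∈ M := by
      rw [← S18DLOC_mk_mem_Mbar_iff hπ, S18DLOC_Mbar, h]
      exact Submodule.mem_top
    exact hM.ne_top ((Ideal.eq_top_iff_one M).2 h1)
  · exact h

variable [hMbar : (S18DLOC_Mbar π M).IsPrime]

/-- The canonical map `B → D = (B/π)_{M/π}`. -/
noncomputable abbrev S18DLOC_toD (π : B) (M : Ideal B) [(S18DLOC_Mbar π M).IsPrime] :
    B →+* Localization.AtPrime (S18DLOC_Mbar π M) :=
  (algebraMap (B ⧸ Ideal.span {π}) (Localization.AtPrime (S18DLOC_Mbar π M))).comp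
    (Ideal.Quotient.mk (Ideal.span {π}))

theorem S18DLOC_toD_pi : S18DLOC_toD π M π = 0 := by
  have : Ideal.Quotient.mk (Ideal.span {π}) π = 0 :=
    Ideal.Quotient.eq_zero_iff_mem.2 (Ideal.mem_span_singleton_self π)
  rw [S18DLOC_toD, RingHom.comp_apply, this, map_zero]

theorem S18DLOC_isUnit_toD (hπ : π ∈ M) (s : B) (hs : s ∉ M) : IsUnit (S18DLOC_toD π M s) := by
  have h1 : Ideal.Quotient.mk (Ideal.span {π}) s ∈ (S18DLOC_Mbar π M).primeCompl := by
    intro h
    exact hs ((S18DLOC_mk_mem_Mbar_iff hπ s).1 h)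
  exact IsLocalization.map_units (Localization.AtPrime (S18DLOC_Mbar π M))
    (⟨_, h1⟩ : (S18DLOC_Mbar π M).primeCompl)

/-- `toD x = 0` iff `s x ∈ (π)` for some `s ∉ M`. -/
theorem S18DLOC_toD_eq_zero_iff (hπ : π ∈ M) (x : B) :
    S18DLOC_toD π M x = 0 ↔ ∃ s, s ∉ M ∧ π ∣ s * x := by
  rw [S18DLOC_toD, RingHom.comp_apply,
    IsLocalization.map_eq_zero_iff (S18DLOC_Mbar π M).primeCompl]
  constructor
  · rintro ⟨⟨c, hc⟩, hcx⟩
    obtain ⟨s, rfl⟩ := Ideal.Quotient.mk_surjective c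
    refine ⟨s, fun hs => hc ((S18DLOC_mk_mem_Mbar_iff hπ s).2 hs), ?_⟩
    have : Ideal.Quotient.mk (Ideal.span {π}) (s * x) = 0 := by rw [map_mul]; exact hcx
    rwa [Ideal.Quotient.eq_zero_iff_mem, Ideal.mem_span_singleton] at this
  · rintro ⟨s, hs, hdvd⟩
    refine ⟨⟨Ideal.Quotient.mk _ s, fun h => hs ((S18DLOC_mk_mem_Mbar_iff hπ s).1 h)⟩, ?_⟩
    show Ideal.Quotient.mk _ s * Ideal.Quotient.mk _ x = 0
    rw [← map_mul, Ideal.Quotient.eq_zero_iff_mem, Ideal.mem_span_singleton]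
    exact hdvd

/-- Every element of `D` is `toD b / toD s` with `s ∉ M`. -/
theorem S18DLOC_exists_eq (hπ : π ∈ M) (d : Localization.AtPrime (S18DLOC_Mbar π M)) :
    ∃ b s : B, s ∉ M ∧ d * S18DLOC_toD π M s = S18DLOC_toD π M b := by
  obtain ⟨ybar, ⟨c, hc⟩, rfl⟩ := IsLocalization.exists_mk'_eq (S18DLOC_Mbar π M).primeCompl d
  obtain ⟨b, rfl⟩ := Ideal.Quotient.mk_surjective ybar
  obtain ⟨s, rfl⟩ := Ideal.Quotient.mk_surjective c
  refine ⟨b, s, fun hs => hc ((S18DLOC_mk_mem_Mbar_iff hπ s).2 hs), ?_⟩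
  exact IsLocalization.mk'_spec _ _ _

variable (hπ : π ∈ M) (hτ : τ ∈ M)
  (h1 : ∀ x ∈ M, ∃ s, s ∉ M ∧ ∃ a b : B, s * x = a * π + b * τ)
  (h2 : ∀ (n : ℕ) (s : B), s ∉ M → ¬ π ∣ s * τ ^ n)

include hπ hτ h1 in
/-- The maximal ideal of `D` is generated by the image of `τ`. -/
theorem S18DLOC_maximalIdeal_eq :
    maximalIdeal (Localization.AtPrime (S18DLOC_Mbar π M)) =
      Ideal.span {S18DLOC_toD π M τ} := by
  rw [← IsLocalization.AtPrime.map_eq_maximalIdeal (S18DLOC_Mbar π M)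
    (Localization.AtPrime (S18DLOC_Mbar π M))]
  apply le_antisymm
  · rw [Ideal.map_le_iff_le_comap]
    intro ybar hy
    obtain ⟨x, rfl⟩ := Ideal.Quotient.mk_surjective ybar
    have hx : x ∈ M := (S18DLOC_mk_mem_Mbar_iff hπ x).1 hy
    obtain ⟨s, hs, a, b, hab⟩ := h1 x hx
    obtain ⟨u, hu⟩ := S18DLOC_isUnit_toD hπ s hs
    rw [Ideal.mem_comap, Ideal.mem_span_singleton']
    refine ⟨↑u⁻¹ * S18DLOC_toD π M b, ?_⟩
    have h3 := congrArg (S18DLOC_toD π M) hab
    rw [map_mul, map_add, map_mul, map_mul, S18DLOC_toD_pi, mul_zero, zero_add, ← hu] at h3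
    show ↑u⁻¹ * S18DLOC_toD π M b * S18DLOC_toD π M τ = S18DLOC_toD π M x
    rw [mul_assoc, ← h3, ← mul_assoc, Units.inv_mul, one_mul]
  · rw [Ideal.span_singleton_le_iff_mem]
    exact Ideal.mem_map_of_mem _ ((S18DLOC_mk_mem_Mbar_iff hπ τ).2 hτ)

include hπ h2 in
/-- The image of `τ` is not nilpotent in `D`. -/
theorem S18DLOC_pow_ne_zero (n : ℕ) : S18DLOC_toD π M τ ^ n ≠ 0 := by
  intro h
  rw [← map_pow, S18DLOC_toD_eq_zero_iff hπ] at h
  obtain ⟨s, hs, hdvd⟩ := h
  exact h2 n s hs hdvd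

variable [IsNoetherianRing B]

include hπ hτ h1 h2 in
/-- `D` is a domain. -/
theorem S18DLOC_isDomain : IsDomain (Localization.AtPrime (S18DLOC_Mbar π M)) := by
  have hL : IsNoetherianRing (Localization.AtPrime (S18DLOC_Mbar π M)) :=
    IsLocalization.isNoetherianRing (S18DLOC_Mbar π M).primeCompl _ inferInstance
  exact S18DLOC_isDomain_of_principal _ (S18DLOC_maximalIdeal_eq τ hπ hτ h1)
    (S18DLOC_pow_ne_zero τ hπ h2)

include hπ hτ h1 h2 in
/-- `D` is a discrete valuation ring. -/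
theorem S18DLOC_isDVR [IsDomain (Localization.AtPrime (S18DLOC_Mbar π M))] :
    IsDiscreteValuationRing (Localization.AtPrime (S18DLOC_Mbar π M)) := by
  have hL : IsNoetherianRing (Localization.AtPrime (S18DLOC_Mbar π M)) :=
    IsLocalization.isNoetherianRing (S18DLOC_Mbar π M).primeCompl _ inferInstance
  exact S18DLOC_isDVR_of_principal _ (S18DLOC_maximalIdeal_eq τ hπ hτ h1)
    (S18DLOC_pow_ne_zero τ hπ h2)

omit [IsNoetherianRing B] in
include hπ hτ h1 in
/-- Dictionary: membership in `𝔪_D ^ n`, read off in `B`. -/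
theorem S18DLOC_mem_pow_iff (x : B) (n : ℕ) :
    S18DLOC_toD π M x ∈ maximalIdeal (Localization.AtPrime (S18DLOC_Mbar π M)) ^ n ↔
      ∃ s, s ∉ M ∧ ∃ a b : B, s * x = a * π + b * τ ^ n := by
  rw [S18DLOC_maximalIdeal_eq τ hπ hτ h1, Ideal.span_singleton_pow, Ideal.mem_span_singleton']
  constructor
  · rintro ⟨d, hd⟩
    obtain ⟨b, s, hs, hbs⟩ := S18DLOC_exists_eq hπ d
    have h3 : S18DLOC_toD π M (s * x - b * τ ^ n) = 0 := by
      rw [map_sub, map_mul, map_mul, map_pow, ← hd, ← hbs]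
      ring
    rw [S18DLOC_toD_eq_zero_iff hπ] at h3
    obtain ⟨s', hs', c, hc⟩ := h3
    refine ⟨s' * s, ?_, c, s' * b, ?_⟩
    · intro h
      have hMp : M.IsPrime := by
        rw [← S18DLOC_comap_Mbar hπ]
        exact Ideal.comap_isPrime _ _
      rcases hMp.mem_or_mem h with h | h
      · exact hs' h
      · exact hs h
    · have : s' * s * x = s' * (s * x - b * τ ^ n) + s' * b * τ ^ n := by ring
      rw [this, hc]
      ring
  · rintro ⟨s, hs, a, b, hab⟩
    obtain ⟨u, hu⟩ := S18DLOC_isUnit_toD hπ s hs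
    refine ⟨↑u⁻¹ * S18DLOC_toD π M b, ?_⟩
    have h3 := congrArg (S18DLOC_toD π M) hab
    rw [map_mul, map_add, map_mul, map_mul, S18DLOC_toD_pi, mul_zero, zero_add, ← hu,
      map_pow] at h3
    rw [mul_assoc, ← h3, ← mul_assoc, Units.inv_mul, one_mul]

end Main

end Fermat.Agent.S18_helper4_DLOC
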