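import Mathlib
import Fermat.Agent.S18_helper4_DLOC

set_option autoImplicit false

/-!
# S37, block B1: abstract local algebra for the reduction of places

* `S37B1_range_le` / `S37B1_exists_retraction`: a ring hom `ψ : R → K1 = Frac O1` from a local
  `O1`-algebra `R` in which `π` is a non-unit takes its values in `O1` ("a ring between a DVR and
  its fraction field").
* `S37B1_ker_retraction`: the kernel of a retraction `φ : R → O1` of a noetherian local ring `R`
  with maximal ideal `(π, τ)` is generated by `τ - φ τ`, and `φ τ ∈ (π)`.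
* `S37B1_mem_of_forall_prime`: an element of the fraction field of a UFD which is integral at
  every prime element lies in the ring.
-/

namespace Fermat.Agent.S37_helper4_B1LOCAL

open IsLocalRing Fermat.Agent.S18_helper4_DLOC

section RingBetween

variable {R O1 K1 : Type*} [CommRing R] [IsLocalRing R] [CommRing O1] [IsDomain O1]
  [IsDiscreteValuationRing O1] [Field K1] [Algebra O1 K1] [IsFractionRing O1 K1] [Algebra O1 R]

/-- A ring hom `ψ : R → K1` extending `O1 → K1`, with `R` local and `π` a non-unit of `R`,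
has values in `O1`. -/
theorem S37B1_range_le (π : O1) (hπ : Irreducible π)
    (hπM : algebraMap O1 R π ∈ maximalIdeal R) (ψ : R →+* K1)
    (hψ : ∀ c : O1, ψ (algebraMap O1 R c) = algebraMap O1 K1 c) (x : R) :
    ∃ c : O1, ψ x = algebraMap O1 K1 c := by
  by_cases hx0 : ψ x = 0
  · exact ⟨0, by rw [hx0, map_zero]⟩
  obtain ⟨n, u, hu⟩ :=
    IsDiscreteValuationRing.exists_units_eq_smul_zpow_of_irreducible (K := K1) hπ hx0
  rw [Units.smul_def, Algebra.smul_def] at hu
  have hπK : algebraMap O1 K1 π ≠ 0 := by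
    intro h
    exact hπ.ne_zero ((IsFractionRing.injective O1 K1) (by rw [h, map_zero]))
  rcases le_or_gt 0 n with hn | hn
  · obtain ⟨m, rfl⟩ := Int.eq_ofNat_of_zero_le hn
    refine ⟨(u : O1) * π ^ m, ?_⟩
    rw [hu, zpow_natCast, map_mul, map_pow]
  · exfalso
    -- `π⁻¹` lies in the image of `ψ`
    obtain ⟨m, hm⟩ : ∃ m : ℕ, n = -((m : ℤ) + 1) := ⟨(-n - 1).toNat, by omega⟩
    have h1 : ψ (x * algebraMap O1 R (((u⁻¹ : O1ˣ) : O1) * π ^ m) * algebraMap O1 R π) = 1 := by
      rw [map_mul, map_mul, hψ, hψ, hu, hm, map_mul, map_pow]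
      have hu1 : algebraMap O1 K1 (u : O1) * algebraMap O1 K1 ((u⁻¹ : O1ˣ) : O1) = 1 := by
        rw [← map_mul, Units.mul_inv, map_one]
      have hp : (algebraMap O1 K1 π) ^ (-((m : ℤ) + 1)) * (algebraMap O1 K1 π) ^ m *
          algebraMap O1 K1 π = 1 := by
        have hcast : ((m : ℤ) + 1) = ((m + 1 : ℕ) : ℤ) := by push_cast; ring
        rw [zpow_neg, hcast, zpow_natCast, pow_succ, mul_assoc, inv_mul_cancel₀]
        exact mul_ne_zero (pow_ne_zero _ hπK) hπK
      calc algebraMap O1 K1 (u : O1) * (algebraMap O1 K1 π) ^ (-((m : ℤ) + 1)) *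
            (algebraMap O1 K1 ((u⁻¹ : O1ˣ) : O1) * algebraMap O1 K1 π ^ m) * algebraMap O1 K1 π
          = (algebraMap O1 K1 (u : O1) * algebraMap O1 K1 ((u⁻¹ : O1ˣ) : O1)) *
              ((algebraMap O1 K1 π) ^ (-((m : ℤ) + 1)) * (algebraMap O1 K1 π) ^ m *
                algebraMap O1 K1 π) := by ring
        _ = 1 := by rw [hu1, hp, one_mul]
    -- the element is in the maximal ideal, its image is `1`: contradiction
    set z : R := x * algebraMap O1 R (((u⁻¹ : O1ˣ) : O1) * π ^ m) * algebraMap O1 R π with hz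
    have hzM : z ∈ maximalIdeal R := Ideal.mul_mem_left _ _ hπM
    have h2 : IsUnit (1 - z) := by
      by_contra hnu
      have h3 : 1 - z ∈ maximalIdeal R := (IsLocalRing.mem_maximalIdeal _).mpr hnu
      have h4 : (1 : R) ∈ maximalIdeal R := by
        have : (1 : R) = (1 - z) + z := by ring
        rw [this]
        exact Ideal.add_mem _ h3 hzM
      exact (Ideal.ne_top_iff_one _).mp (IsLocalRing.maximalIdeal.isMaximal R).ne_top h4
    have h5 : ψ (1 - z) = 0 := by rw [map_sub, map_one, h1, sub_self]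
    exact (h2.map ψ).ne_zero h5

/-- The retraction `R → O1` induced by a ring hom `ψ : R → K1` extending `O1 → K1`. -/
theorem S37B1_exists_retraction (π : O1) (hπ : Irreducible π)
    (hπM : algebraMap O1 R π ∈ maximalIdeal R) (ψ : R →+* K1)
    (hψ : ∀ c : O1, ψ (algebraMap O1 R c) = algebraMap O1 K1 c) :
    ∃ φ : R →+* O1, (∀ x, algebraMap O1 K1 (φ x) = ψ x) ∧ ∀ c, φ (algebraMap O1 R c) = c := by
  have hinj : Function.Injective (algebraMap O1 K1) := IsFractionRing.injective O1 K1
  choose f hf using S37B1_range_le π hπ hπM ψ hψ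
  refine ⟨{ toFun := f
            map_one' := hinj (by rw [← hf, map_one, map_one])
            map_mul' := fun a b => hinj (by rw [← hf, map_mul, map_mul, hf, hf])
            map_zero' := hinj (by rw [← hf, map_zero, map_zero])
            map_add' := fun a b => hinj (by rw [← hf, map_add, map_add, hf, hf]) },
    fun x => (hf x).symm, fun c => hinj ?_⟩
  change algebraMap O1 K1 (f (algebraMap O1 R c)) = _
  rw [← hf, hψ]

end RingBetween

section Retraction

variable {R O1 : Type*} [CommRing R] [IsLocalRing R] [CommRing O1] [IsLocalRing O1]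
  [Algebra O1 R]

/-- A retraction `φ : R → O1` of local rings is a local homomorphism. -/
theorem S37B1_retraction_mem (φ : R →+* O1) (hφ : ∀ c, φ (algebraMap O1 R c) = c) (x : R)
    (hx : x ∈ maximalIdeal R) : φ x ∈ maximalIdeal O1 := by
  rw [IsLocalRing.mem_maximalIdeal, mem_nonunits_iff]
  intro hu
  have h1 : IsUnit (algebraMap O1 R (φ x)) := hu.map (algebraMap O1 R)
  have h2 : IsUnit (algebraMap O1 R (φ x) - x) := by
    by_contra hnu
    have h3 : algebraMap O1 R (φ x) - x ∈ maximalIdeal R :=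
      (IsLocalRing.mem_maximalIdeal _).mpr hnu
    have h4 : algebraMap O1 R (φ x) ∈ maximalIdeal R := by
      have : algebraMap O1 R (φ x) = (algebraMap O1 R (φ x) - x) + x := by ring
      rw [this]
      exact Ideal.add_mem _ h3 hx
    exact (IsLocalRing.mem_maximalIdeal _).mp h4 h1
  have h5 : φ (algebraMap O1 R (φ x) - x) = 0 := by rw [map_sub, hφ, sub_self]
  exact (h2.map φ).ne_zero h5

/-- In Lemma A, `φ τ` is divisible by `π`. -/
theorem S37B1_retraction_tau_dvd (π : O1) (hπ : maximalIdeal O1 = Ideal.span {π})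
    (τ : R) (hτM : τ ∈ maximalIdeal R)
    (φ : R →+* O1) (hφ : ∀ c, φ (algebraMap O1 R c) = c) : π ∣ φ τ := by
  have hc : φ τ ∈ maximalIdeal O1 := S37B1_retraction_mem φ hφ τ hτM
  rw [hπ, Ideal.mem_span_singleton] at hc
  exact hc

end Retraction

section LemmaA

variable {R O1 : Type*} [CommRing R] [IsLocalRing R] [IsNoetherianRing R] [CommRing O1]
  [IsDomain O1] [IsDiscreteValuationRing O1] [Algebra O1 R]

/-- **Lemma A.** `R` noetherian local with maximal ideal `(π, τ)`, `φ : R → O1` a retraction onto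
the discrete valuation ring `O1` with uniformiser `π`: then `ker φ = (τ - φ τ)`. -/
theorem S37B1_ker_retraction (π : O1) (hπ : maximalIdeal O1 = Ideal.span {π})
    (τ : R) (hM : maximalIdeal R = Ideal.span {algebraMap O1 R π, τ})
    (φ : R →+* O1) (hφ : ∀ c, φ (algebraMap O1 R c) = c) :
    RingHom.ker φ = Ideal.span {τ - algebraMap O1 R (φ τ)} := by
  have hτM : τ ∈ maximalIdeal R := by
    rw [hM]; exact Ideal.subset_span (by simp)
  have hc : φ τ ∈ maximalIdeal O1 := S37B1_retraction_mem φ hφ τ hτM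
  rw [hπ, Ideal.mem_span_singleton] at hc
  obtain ⟨c', hc'⟩ := hc
  set τ' : R := τ - algebraMap O1 R (φ τ) with hτ'
  have hτ'ker : τ' ∈ RingHom.ker φ := by
    rw [RingHom.mem_ker, hτ', map_sub, hφ, sub_self]
  have hle : Ideal.span {τ'} ≤ RingHom.ker φ := by
    rw [Ideal.span_le, Set.singleton_subset_iff]; exact hτ'ker
  have hπ0 : π ≠ 0 := by
    intro h
    have hbot : maximalIdeal O1 = ⊥ := by rw [hπ, h, Ideal.span_singleton_eq_bot]
    exact IsDiscreteValuationRing.not_a_field O1 hbot
  refine le_antisymm ?_ hle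
  -- the quotient `R' = R / (τ')`
  have hne : Ideal.span {τ'} ≠ ⊤ := fun h =>
    (RingHom.ker_ne_top φ) (top_le_iff.mp (h ▸ hle))
  have hnt : Nontrivial (R ⧸ Ideal.span {τ'}) := Ideal.Quotient.nontrivial_iff.mpr hne
  have hloc : IsLocalRing (R ⧸ Ideal.span {τ'}) :=
    IsLocalRing.of_surjective' (Ideal.Quotient.mk _) Ideal.Quotient.mk_surjective
  let φbar : R ⧸ Ideal.span {τ'} →+* O1 := Ideal.Quotient.lift _ φ (fun a ha => hle ha)
  have hφbar : ∀ a, φbar (Ideal.Quotient.mk _ a) = φ a := fun a => rfl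
  let p : R ⧸ Ideal.span {τ'} := Ideal.Quotient.mk _ (algebraMap O1 R π)
  have hp : maximalIdeal (R ⧸ Ideal.span {τ'}) = Ideal.span {p} := by
    apply le_antisymm
    · intro z hz
      obtain ⟨x, rfl⟩ := Ideal.Quotient.mk_surjective z
      have hxM : x ∈ maximalIdeal R := by
        rw [IsLocalRing.mem_maximalIdeal, mem_nonunits_iff]
        intro hu
        exact (IsLocalRing.mem_maximalIdeal _).mp hz (hu.map _)
      rw [hM, Ideal.mem_span_pair] at hxM
      obtain ⟨a, b, hab⟩ := hxM
      rw [Ideal.mem_span_singleton]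
      refine ⟨Ideal.Quotient.mk _ (a + b * algebraMap O1 R c'), ?_⟩
      rw [← map_mul, Ideal.Quotient.eq, Ideal.mem_span_singleton]
      refine ⟨b, ?_⟩
      rw [← hab, hτ', hc', map_mul]
      ring
    · rw [Ideal.span_le, Set.singleton_subset_iff, SetLike.mem_coe,
        IsLocalRing.mem_maximalIdeal, mem_nonunits_iff]
      intro hu
      have h1 : IsUnit (φbar p) := hu.map φbar
      rw [hφbar, hφ] at h1
      have h2 : π ∈ maximalIdeal O1 := by rw [hπ]; exact Ideal.mem_span_singleton_self π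
      exact (IsLocalRing.mem_maximalIdeal _).mp h2 h1
  have hnil : ∀ n : ℕ, p ^ n ≠ 0 := by
    intro n h
    have h1 : φbar (p ^ n) = π ^ n := by rw [map_pow, hφbar, hφ]
    rw [h, map_zero] at h1
    exact pow_ne_zero n hπ0 h1.symm
  have hnoeth : IsNoetherianRing (R ⧸ Ideal.span {τ'}) := inferInstance
  have hdom : IsDomain (R ⧸ Ideal.span {τ'}) := S18DLOC_isDomain_of_principal p hp hnil
  have hdvr : IsDiscreteValuationRing (R ⧸ Ideal.span {τ'}) :=
    S18DLOC_isDVR_of_principal p hp hnil
  have hker : RingHom.ker φbar = ⊥ := by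
    by_contra hnb
    have hprime : (RingHom.ker φbar).IsPrime := RingHom.ker_isPrime φbar
    have hmax : (RingHom.ker φbar).IsMaximal := hprime.isMaximal hnb
    have heq : RingHom.ker φbar = maximalIdeal _ := IsLocalRing.eq_maximalIdeal hmax
    have hpk : p ∈ RingHom.ker φbar := by
      rw [heq, hp]; exact Ideal.mem_span_singleton_self p
    rw [RingHom.mem_ker, hφbar, hφ] at hpk
    exact hπ0 hpk
  intro x hx
  have h1 : φbar (Ideal.Quotient.mk _ x) = 0 := by rw [hφbar]; exact hx
  have h2 : Ideal.Quotient.mk (Ideal.span {τ'}) x ∈ RingHom.ker φbar := h1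
  rw [hker, Ideal.mem_bot] at h2
  exact Ideal.Quotient.eq_zero_iff_mem.mp h2

end LemmaA

section UFD

variable {R K : Type*} [CommRing R] [IsDomain R] [UniqueFactorizationMonoid R]
  [Field K] [Algebra R K] [IsFractionRing R K]

/-- An element of the fraction field of a UFD which is integral at every prime element
(`y * s ∈ R` for some `s` prime to `g`) lies in `R`. -/
theorem S37B1_mem_of_forall_prime (y : K)
    (h : ∀ g : R, Prime g → ∃ s r : R, ¬ g ∣ s ∧ y * algebraMap R K s = algebraMap R K r) :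
    ∃ r : R, algebraMap R K r = y := by
  obtain ⟨a, b, hrel, hab⟩ := IsFractionRing.exists_reduced_fraction (A := R) y
  have hb0 : (b : R) ≠ 0 := nonZeroDivisors.ne_zero b.2
  by_cases hbu : IsUnit (b : R)
  · obtain ⟨u, hu⟩ := hbu
    refine ⟨a * ((u⁻¹ : Rˣ) : R), ?_⟩
    rw [← hab, IsLocalization.eq_mk'_iff_mul_eq, ← map_mul, mul_assoc, ← hu, Units.inv_mul,
      mul_one]
  · exfalso
    obtain ⟨g, hg, hgb⟩ := WfDvdMonoid.exists_irreducible_factor hbu hb0
    have hgp : Prime g := UniqueFactorizationMonoid.irreducible_iff_prime.mp hg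
    obtain ⟨s, r, hs, hsr⟩ := h g hgp
    have h1 : y * algebraMap R K (b : R) = algebraMap R K a := by
      rw [← hab]; exact IsLocalization.mk'_spec K a b
    have h2 : algebraMap R K (a * s) = algebraMap R K (r * b) := by
      rw [map_mul, map_mul, ← h1, ← hsr]; ring
    have h3 : a * s = r * b := IsFractionRing.injective R K h2
    have h4 : g ∣ a * s := h3 ▸ Dvd.dvd.mul_left hgb r
    have h5 : g ∣ a := (hgp.dvd_or_dvd h4).resolve_right hs
    exact hg.not_isUnit (hrel h5 hgb)

/-- Unit version: integral and invertible at every prime element ⟹ unit of `R`. -/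
theorem S37B1_isUnit_of_forall_prime (y : K) (hy : y ≠ 0)
    (h : ∀ g : R, Prime g → ∃ s r : R, ¬ g ∣ s ∧ ¬ g ∣ r ∧
      y * algebraMap R K s = algebraMap R K r) :
    ∃ u : Rˣ, algebraMap R K (u : R) = y := by
  obtain ⟨a, ha⟩ := S37B1_mem_of_forall_prime y (fun g hg => by
    obtain ⟨s, r, hs, -, hsr⟩ := h g hg
    exact ⟨s, r, hs, hsr⟩)
  obtain ⟨b, hb⟩ := S37B1_mem_of_forall_prime y⁻¹ (fun g hg => by
    obtain ⟨s, r, hs, hr, hsr⟩ := h g hg
    refine ⟨r, s, hr, ?_⟩
    rw [← hsr]
    field_simp)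
  have hab : a * b = 1 := by
    apply IsFractionRing.injective R K
    rw [map_mul, ha, hb, map_one, mul_inv_cancel₀ hy]
  exact ⟨⟨a, b, hab, by rw [mul_comm]; exact hab⟩, ha⟩

end UFD

end Fermat.Agent.S37_helper4_B1LOCAL
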