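import Mathlib
import Fermat.Agent.S18_helper3_LOCRING
import Fermat.Agent.S18_helper26_POWDIV
import Fermat.Agent.S37_helper4_B1LOCAL
import Fermat.Agent.S37_helper19_PLACERES
import Fermat.Agent.S37_helper5_LEVEL
import Fermat.Agent.S18_helper26_CONST

/-!
# S37, block B1, piece B1-HEX (helper15): horizontal primes of the local ring and places

Abstract setting (all at the finite level `K1`): `O1` a discrete valuation ring with fraction
field `K1`, `F1 / K1` a field extension, `R` a factorial domain with fraction field `F1`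
which is an `O1`-algebra (compatibly).  In the application `R = (A_s)_M` is the local ring of a
chart at a closed point of the special fibre.

* `S37HEX_exists_place` (HEX-1): every prime element `p` of `R` not dividing `π` is the
  centre of a place `P1` of `F1 / K1`: the ring of `P1` is `R_(p)`, `ord_{P1} p = 1`, and an
  element of `R` is a non-unit at `P1` iff `p` divides it.
* `S37HEX_exists_value_map`, `S37HEX_hval` (HEX-2 = interface fact (F1) of `S37B1_R2mid`): the
  value map `R → K1` of a `K1`-rational place which is nonnegative on `R`.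
* `S37HEX_exists_place_bar`, `S37HEX_hprime` (interface fact (F3) of `S37B1_R2mid`): HEX-1
  transported to the places of the function field over the algebraic closure.
* `S37HEX_place_unique` (HEX-3): two places whose rings contain `R` and with the same prime
  element of `R` cutting out the non-units are equal.
-/

set_option autoImplicit false
set_option linter.unusedSectionVars false
set_option linter.unusedVariables false

open AlgebraicCurve IsLocalRing
open Fermat.Agent.S24_helper6_A2 Fermat.Agent.S18_helper19_PLACEEXT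
  Fermat.Agent.S18_helper19_PLACEUNR Fermat.Agent.S37_helper19_PLACERES
  Fermat.Agent.S18_helper3_LOCRING Fermat.Agent.S18_helper26_POWDIV
  Fermat.Agent.S37_helper4_B1LOCAL

namespace Fermat.Agent.S37_helper15_HEX

noncomputable section

section Abstract

variable {O1 K1 F1 R : Type*} [CommRing O1] [IsDomain O1] [IsDiscreteValuationRing O1]
  [Field K1] [Algebra O1 K1] [IsFractionRing O1 K1] [Field F1] [Algebra K1 F1]
  [CommRing R] [IsDomain R] [UniqueFactorizationMonoid R] [Algebra R F1] [IsFractionRing R F1]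
  [Algebra O1 R]

theorem S37HEX_inj : Function.Injective (algebraMap R F1) := IsFractionRing.injective R F1

/-- a nonzero element of `O1` maps to an element of `R` prime to `p`. -/
theorem S37HEX_not_dvd_of_ne_zero (π : O1) (hπ : Irreducible π) (p : R) (hp : Prime p)
    (hpπ : ¬ p ∣ algebraMap O1 R π) {s : O1} (hs : s ≠ 0) : ¬ p ∣ algebraMap O1 R s := by
  obtain ⟨n, u, hu⟩ := IsDiscreteValuationRing.associated_pow_irreducible hs hπ
  intro hdvd
  have h1 : p ∣ algebraMap O1 R (π ^ n) := by
    rw [← hu, map_mul]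
    exact Dvd.dvd.mul_right hdvd _
  rw [map_pow] at h1
  exact hpπ (hp.dvd_of_dvd_pow h1)

/-- constants lie in `R_(p)`. -/
theorem S37HEX_const_mem
    (hO : ∀ c : O1, algebraMap R F1 (algebraMap O1 R c) = algebraMap K1 F1 (algebraMap O1 K1 c))
    (π : O1) (hπ : Irreducible π) (p : R) (hp : Prime p)
    (hpπ : ¬ p ∣ algebraMap O1 R π) (c : K1) :
    algebraMap K1 F1 c ∈ primeLoc (algebraMap R F1) p hp := by
  obtain ⟨o, s, hs, rfl⟩ := IsFractionRing.div_surjective (A := O1) c
  have hs0 : s ≠ 0 := nonZeroDivisors.ne_zero hs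
  have hsK : algebraMap O1 K1 s ≠ 0 := by
    intro h
    exact hs0 ((IsFractionRing.injective O1 K1) (by rw [h, map_zero]))
  refine ⟨algebraMap O1 R o, algebraMap O1 R s,
    S37HEX_not_dvd_of_ne_zero π hπ p hp hpπ hs0, ?_⟩
  rw [hO, hO, ← map_mul, div_mul_cancel₀ _ hsK]

/-- the valuation property of `R_(p)`. -/
theorem S37HEX_mem_or_inv_mem (p : R) (hp : Prime p) (x : F1) :
    x ∈ primeLoc (algebraMap R F1) p hp ∨ x⁻¹ ∈ primeLoc (algebraMap R F1) p hp := by
  obtain ⟨a, b, hb, rfl⟩ := IsFractionRing.div_surjective (A := R) x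
  exact div_mem_or_inv_mem_primeLoc S37HEX_inj p hp a b (nonZeroDivisors.ne_zero hb)

/-- **The place cut out by a horizontal prime element.** -/
def S37HEX_place
    (hO : ∀ c : O1, algebraMap R F1 (algebraMap O1 R c) = algebraMap K1 F1 (algebraMap O1 K1 c))
    (π : O1) (hπ : Irreducible π) (p : R) (hp : Prime p)
    (hpπ : ¬ p ∣ algebraMap O1 R π) : Place K1 F1 :=
  haveI := isDiscreteValuationRing_primeLoc (ι := algebraMap R F1) S37HEX_inj p hp
  S18PD_place (K := K1) (primeLoc (algebraMap R F1) p hp) (⊤ : Subfield F1) (RingHom.id F1)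
    (fun _ => Subfield.mem_top _) (fun x _ => S37HEX_mem_or_inv_mem p hp x)
    (fun y _ => ⟨y, rfl⟩) (fun _ _ => Subfield.mem_top _)
    (fun c => S37HEX_const_mem hO π hπ p hp hpπ c)

theorem S37HEX_mem_place
    (hO : ∀ c : O1, algebraMap R F1 (algebraMap O1 R c) = algebraMap K1 F1 (algebraMap O1 K1 c))
    (π : O1) (hπ : Irreducible π) (p : R) (hp : Prime p)
    (hpπ : ¬ p ∣ algebraMap O1 R π) (x : F1) :
    x ∈ (S37HEX_place hO π hπ p hp hpπ).toValuationSubring ↔
      ∃ r s : R, ¬ p ∣ s ∧ x * algebraMap R F1 s = algebraMap R F1 r := Iff.rfl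

section PlaceFacts

variable
    (hO : ∀ c : O1, algebraMap R F1 (algebraMap O1 R c) = algebraMap K1 F1 (algebraMap O1 K1 c))
    (π : O1) (hπ : Irreducible π) (p : R) (hp : Prime p)
    (hpπ : ¬ p ∣ algebraMap O1 R π)

/-- `R` lies in the ring of the place. -/
theorem S37HEX_R_mem (x : R) :
    algebraMap R F1 x ∈ (S37HEX_place hO π hπ p hp hpπ).toValuationSubring :=
  ⟨x, 1, hp.not_dvd_one, by rw [map_one, mul_one]; rfl⟩

/-- fractions with denominator prime to `p` lie in the ring of the place. -/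
theorem S37HEX_div_mem (r : R) {s : R} (hs : ¬ p ∣ s) :
    algebraMap R F1 r / algebraMap R F1 s ∈
      (S37HEX_place hO π hπ p hp hpπ).toValuationSubring :=
  div_mem_primeLoc S37HEX_inj p hp r hs

/-- an element of `R` is a non-unit at the place iff `p` divides it. -/
theorem S37HEX_isN_iff (x : R) :
    S18A3_IsN (S37HEX_place hO π hπ p hp hpπ) (algebraMap R F1 x) ↔ p ∣ x := by
  constructor
  · rintro ⟨-, h⟩
    by_contra hx
    have hx0 : x ≠ 0 := by
      rintro rfl
      exact hx (dvd_zero p)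
    rcases h with h | h
    · exact hx0 (S37HEX_inj (by rw [h, map_zero]))
    · apply h
      have h1 := S37HEX_div_mem hO π hπ p hp hpπ 1 hx
      rwa [map_one, one_div] at h1
  · intro hdvd
    refine ⟨S37HEX_R_mem hO π hπ p hp hpπ x, ?_⟩
    by_cases hx0 : x = 0
    · left
      rw [hx0, map_zero]
    right
    rintro ⟨r, s, hs, h⟩
    apply hs
    have hX : algebraMap R F1 x ≠ 0 := fun h0 => hx0 (S37HEX_inj (by rw [h0, map_zero]))
    have h2 : algebraMap R F1 s = algebraMap R F1 (x * r) := by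
      have h3 : (algebraMap R F1 x)⁻¹ * algebraMap R F1 s = (RingHom.id F1) _ := h
      rw [map_mul]
      have h4 : algebraMap R F1 s = algebraMap R F1 x * ((algebraMap R F1 x)⁻¹ *
          algebraMap R F1 s) := by
        rw [← mul_assoc, mul_inv_cancel₀ hX, one_mul]
      rw [h4, h3]
      rfl
    have h5 : s = x * r := S37HEX_inj h2
    rw [h5]
    exact Dvd.dvd.mul_right hdvd r

theorem S37HEX_ord_nonneg (x : R) :
    0 ≤ (S37HEX_place hO π hπ p hp hpπ).ord (algebraMap R F1 x) :=
  ord_nonneg_of_mem _ (S37HEX_R_mem hO π hπ p hp hpπ x)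

theorem S37HEX_ord_pos_iff {x : R} (hx : x ≠ 0) :
    0 < (S37HEX_place hO π hπ p hp hpπ).ord (algebraMap R F1 x) ↔ p ∣ x := by
  have hX : algebraMap R F1 x ≠ 0 := fun h0 => hx (S37HEX_inj (by rw [h0, map_zero]))
  rw [← S37HEX_isN_iff hO π hπ p hp hpπ x]
  exact ⟨fun h => S18A3_isN_of_ord_pos _ h, fun h => S18A3_ord_pos_of_isN _ h hX⟩

/-- A criterion for `ord = 1`: `g` is a non-unit of the ring of `P1` dividing every non-unit. -/
theorem S37HEX_ord_eq_one_of_dvd (P1 : Place K1 F1) (g : F1) (hg : S18A3_IsN P1 g)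
    (hg0 : g ≠ 0)
    (hdvd : ∀ y : F1, S18A3_IsN P1 y → ∃ w ∈ P1.toValuationSubring, y = g * w) :
    P1.ord g = 1 := by
  have hmax : maximalIdeal P1.toValuationSubring =
      Ideal.span {(⟨g, hg.1⟩ : P1.toValuationSubring)} := by
    apply le_antisymm
    · intro y hy
      have hyN : S18A3_IsN P1 (y : F1) := (S18A3_isN_iff P1 y.2).2 hy
      obtain ⟨w, hw, hyw⟩ := hdvd _ hyN
      rw [Ideal.mem_span_singleton]
      exact ⟨⟨w, hw⟩, Subtype.ext hyw⟩
    · rw [Ideal.span_singleton_le_iff_mem]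
      exact (S18A3_isN_iff P1 hg.1).1 hg
  have hirr : Irreducible (⟨g, hg.1⟩ : P1.toValuationSubring) :=
    (IsDiscreteValuationRing.irreducible_iff_uniformizer _).2 hmax
  exact P1.ord_coe_irreducible hirr

/-- `ord_p p = 1`. -/
theorem S37HEX_ord_p :
    (S37HEX_place hO π hπ p hp hpπ).ord (algebraMap R F1 p) = 1 := by
  have hP : algebraMap R F1 p ≠ 0 := fun h0 => hp.ne_zero (S37HEX_inj (by rw [h0, map_zero]))
  apply S37HEX_ord_eq_one_of_dvd _ _
    ((S37HEX_isN_iff hO π hπ p hp hpπ p).2 dvd_rfl) hP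
  rintro y ⟨⟨r, s, hs, h⟩, hy⟩
  have hS : algebraMap R F1 s ≠ 0 := fun h0 =>
    (ne_zero_of_not_dvd' hs) (S37HEX_inj (by rw [h0, map_zero]))
  have h' : y * algebraMap R F1 s = algebraMap R F1 r := h
  have hpr : p ∣ r := by
    by_contra hr
    have hr0 : r ≠ 0 := ne_zero_of_not_dvd' hr
    have hR : algebraMap R F1 r ≠ 0 := fun h0 => hr0 (S37HEX_inj (by rw [h0, map_zero]))
    have hy0 : y ≠ 0 := by
      rintro rfl
      rw [zero_mul] at h'
      exact hR h'.symm
    rcases hy with hy | hy
    · exact hy0 hy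
    · apply hy
      have h1 := S37HEX_div_mem hO π hπ p hp hpπ s hr
      have h2 : algebraMap R F1 s / algebraMap R F1 r = y⁻¹ := by
        rw [← h']
        field_simp
      rwa [h2] at h1
  obtain ⟨r', rfl⟩ := hpr
  refine ⟨algebraMap R F1 r' / algebraMap R F1 s, S37HEX_div_mem hO π hπ p hp hpπ r' hs, ?_⟩
  rw [map_mul] at h'
  rw [← mul_div_assoc, ← h', mul_div_assoc, div_self hS, mul_one]

end PlaceFacts

/-- **HEX-1**: every prime element `p` of `R` not dividing `π` is cut out by a place of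
`F1 / K1`. -/
theorem S37HEX_exists_place
    (hO : ∀ c : O1, algebraMap R F1 (algebraMap O1 R c) = algebraMap K1 F1 (algebraMap O1 K1 c))
    (π : O1) (hπ : Irreducible π) (p : R) (hp : Prime p)
    (hpπ : ¬ p ∣ algebraMap O1 R π) :
    ∃ P1 : Place K1 F1,
      (∀ y : F1, y ∈ P1.toValuationSubring ↔
        ∃ r s : R, ¬ p ∣ s ∧ y * algebraMap R F1 s = algebraMap R F1 r) ∧
      (∀ x : R, algebraMap R F1 x ∈ P1.toValuationSubring) ∧
      (∀ x : R, S18A3_IsN P1 (algebraMap R F1 x) ↔ p ∣ x) ∧
      (∀ x : R, 0 ≤ P1.ord (algebraMap R F1 x)) ∧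
      (∀ x : R, x ≠ 0 → (0 < P1.ord (algebraMap R F1 x) ↔ p ∣ x)) ∧
      P1.ord (algebraMap R F1 p) = 1 :=
  ⟨S37HEX_place hO π hπ p hp hpπ, fun y => S37HEX_mem_place hO π hπ p hp hpπ y,
    S37HEX_R_mem hO π hπ p hp hpπ, S37HEX_isN_iff hO π hπ p hp hpπ,
    S37HEX_ord_nonneg hO π hπ p hp hpπ, fun x hx => S37HEX_ord_pos_iff hO π hπ p hp hpπ hx,
    S37HEX_ord_p hO π hπ p hp hpπ⟩

/-! ### Places containing `R` -/

section Over

variable (P1 : Place K1 F1)

/-- a constant which is a non-unit at a place is zero. -/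
theorem S37HEX_const_eq_zero_of_isN {c : K1} (h : S18A3_IsN P1 (algebraMap K1 F1 c)) : c = 0 := by
  by_contra hc
  rcases h.2 with h0 | h0
  · exact hc ((algebraMap K1 F1).injective (by rw [h0, map_zero]))
  · apply h0
    rw [← map_inv₀]
    exact P1.algebraMap_mem' _

theorem S37HEX_isN_sub {a b : F1} (ha : S18A3_IsN P1 a) (hb : S18A3_IsN P1 b) :
    S18A3_IsN P1 (a - b) := by
  have := S18A3_isN_add P1 ha (S18A3_isN_neg P1 hb)
  rwa [← sub_eq_add_neg] at this

/-- an element of the ring which is not a non-unit has its inverse in the ring. -/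
theorem S37HEX_inv_mem_of_not_isN {z : F1} (hz : z ∈ P1.toValuationSubring)
    (h : ¬ S18A3_IsN P1 z) : z⁻¹ ∈ P1.toValuationSubring := by
  rcases S18A3_isU_or_isN P1 hz with hu | hn
  · exact hu.2.1
  · exact absurd hn h

/-- If the non-units of `P1` in `R` are the multiples of the prime element `g`, then the
non-units of `P1` are multiples of `g` in the ring of `P1`, and the ring of `P1` is `R_(g)`. -/
theorem S37HEX_exists_eq_mul (hR : ∀ x : R, algebraMap R F1 x ∈ P1.toValuationSubring)
    (g : R) (hg : Prime g) (h : ∀ x : R, S18A3_IsN P1 (algebraMap R F1 x) ↔ g ∣ x)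
    (y : F1) (hy : y ∈ P1.toValuationSubring) :
    ∃ r s : R, ¬ g ∣ s ∧ y * algebraMap R F1 s = algebraMap R F1 r ∧
      (S18A3_IsN P1 y → g ∣ r) := by
  obtain ⟨a, b, hrel, hab⟩ := IsFractionRing.exists_reduced_fraction (A := R) y
  have hb0 : (b : R) ≠ 0 := nonZeroDivisors.ne_zero b.2
  have h1 : y * algebraMap R F1 (b : R) = algebraMap R F1 a := by
    rw [← hab]; exact IsLocalization.mk'_spec F1 a b
  have haN : S18A3_IsN P1 (algebraMap R F1 (b : R)) → S18A3_IsN P1 (algebraMap R F1 a) := by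
    intro hbN
    rw [← h1]
    exact S18A3_isN_mul P1 hy hbN
  have hgb : ¬ g ∣ (b : R) := by
    intro hdvd
    have h2 : g ∣ a := (h a).1 (haN ((h _).2 hdvd))
    exact hg.not_isUnit (hrel h2 hdvd)
  refine ⟨a, b, hgb, h1, fun hyN => (h a).1 ?_⟩
  rw [← h1, mul_comm]
  exact S18A3_isN_mul P1 (hR _) hyN

theorem S37HEX_mem_iff_of_isN_iff (hR : ∀ x : R, algebraMap R F1 x ∈ P1.toValuationSubring)
    (g : R) (hg : Prime g) (h : ∀ x : R, S18A3_IsN P1 (algebraMap R F1 x) ↔ g ∣ x)
    (y : F1) :
    y ∈ P1.toValuationSubring ↔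
      ∃ r s : R, ¬ g ∣ s ∧ y * algebraMap R F1 s = algebraMap R F1 r := by
  constructor
  · intro hy
    obtain ⟨r, s, hs, hrs, -⟩ := S37HEX_exists_eq_mul P1 hR g hg h y hy
    exact ⟨r, s, hs, hrs⟩
  · rintro ⟨r, s, hs, hrs⟩
    have hs0 : s ≠ 0 := ne_zero_of_not_dvd' hs
    have hS : algebraMap R F1 s ≠ 0 := fun h0 => hs0 (S37HEX_inj (by rw [h0, map_zero]))
    have hsinv : (algebraMap R F1 s)⁻¹ ∈ P1.toValuationSubring :=
      S37HEX_inv_mem_of_not_isN P1 (hR s) (fun hN => hs ((h s).1 hN))
    have : y = algebraMap R F1 r * (algebraMap R F1 s)⁻¹ := by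
      rw [← hrs, mul_assoc, mul_inv_cancel₀ hS, mul_one]
    rw [this]
    exact P1.toValuationSubring.mul_mem _ _ (hR r) hsinv

/-- **HEX-3**: a place whose ring contains `R` is determined by the prime element of `R`
cutting out its non-units. -/
theorem S37HEX_place_unique (P1' : Place K1 F1)
    (hR : ∀ x : R, algebraMap R F1 x ∈ P1.toValuationSubring)
    (hR' : ∀ x : R, algebraMap R F1 x ∈ P1'.toValuationSubring)
    (g : R) (hg : Prime g) (h : ∀ x : R, S18A3_IsN P1 (algebraMap R F1 x) ↔ g ∣ x)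
    (g' : R) (h' : ∀ x : R, S18A3_IsN P1' (algebraMap R F1 x) ↔ g' ∣ x)
    (hgg' : Associated g g') : P1 = P1' := by
  have h'' : ∀ x : R, S18A3_IsN P1' (algebraMap R F1 x) ↔ g ∣ x := fun x => by
    rw [h' x]
    exact hgg'.symm.dvd_iff_dvd_left
  apply Place.ext
  refine SetLike.ext fun y => ?_
  rw [S37HEX_mem_iff_of_isN_iff P1 hR g hg h y, S37HEX_mem_iff_of_isN_iff P1' hR' g hg h'' y]

/-- `ord_{P1} g = 1` when the non-units of `P1` in `R` are the multiples of the prime `g`. -/
theorem S37HEX_ord_eq_one (hR : ∀ x : R, algebraMap R F1 x ∈ P1.toValuationSubring)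
    (g : R) (hg : Prime g) (h : ∀ x : R, S18A3_IsN P1 (algebraMap R F1 x) ↔ g ∣ x) :
    P1.ord (algebraMap R F1 g) = 1 := by
  have hG : algebraMap R F1 g ≠ 0 := fun h0 => hg.ne_zero (S37HEX_inj (by rw [h0, map_zero]))
  apply S37HEX_ord_eq_one_of_dvd P1 _ ((h g).2 dvd_rfl) hG
  intro y hyN
  obtain ⟨r, s, hs, hrs, hr⟩ := S37HEX_exists_eq_mul P1 hR g hg h y hyN.1
  obtain ⟨r', rfl⟩ := hr hyN
  have hs0 : s ≠ 0 := ne_zero_of_not_dvd' hs
  have hS : algebraMap R F1 s ≠ 0 := fun h0 => hs0 (S37HEX_inj (by rw [h0, map_zero]))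
  have hsinv : (algebraMap R F1 s)⁻¹ ∈ P1.toValuationSubring :=
    S37HEX_inv_mem_of_not_isN P1 (hR s) (fun hN => hs ((h s).1 hN))
  refine ⟨algebraMap R F1 r' * (algebraMap R F1 s)⁻¹,
    P1.toValuationSubring.mul_mem _ _ (hR r') hsinv, ?_⟩
  rw [map_mul] at hrs
  rw [← mul_assoc, ← hrs, mul_assoc, mul_inv_cancel₀ hS, mul_one]

/-- there is a nonzero element of `R` which is a non-unit at `P1`. -/
theorem S37HEX_exists_isN (hR : ∀ x : R, algebraMap R F1 x ∈ P1.toValuationSubring) :
    ∃ b : R, b ≠ 0 ∧ S18A3_IsN P1 (algebraMap R F1 b) := by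
  have hne : ∃ z : F1, z ∉ P1.toValuationSubring := by
    by_contra hall
    push Not at hall
    exact P1.ne_top' (SetLike.ext fun z => ⟨fun _ => ValuationSubring.mem_top z, fun _ => hall z⟩)
  obtain ⟨z, hz⟩ := hne
  obtain ⟨a, b, hb, rfl⟩ := IsFractionRing.div_surjective (A := R) z
  have hb0 : b ≠ 0 := nonZeroDivisors.ne_zero hb
  have hB : algebraMap R F1 b ≠ 0 := fun h0 => hb0 (S37HEX_inj (by rw [h0, map_zero]))
  refine ⟨b, hb0, hR b, Or.inr fun hinv => hz ?_⟩
  rw [div_eq_mul_inv]
  exact P1.toValuationSubring.mul_mem _ _ (hR a) hinv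

end Over

end Abstract

/-! ### The value map of a place with residues in a subfield -/

section Value

variable {K F K1 R O1 : Type*} [Field K] [Field F] [Algebra K F] [Field K1] [CommRing R]
  [CommRing O1] [Algebra O1 K1] [Algebra O1 R]

/-- **Value map.**  `P` a place of `F / K`, `σ : K1 → K` a subfield, `f : R → F` a ring
homomorphism with values in the ring of `P` and with residues in `K1`.  Then the residue map is
a ring homomorphism `ψ : R → K1`, which is the identity on the constants, and whose kernel is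
the set of elements which are non-units at `P`. -/
theorem S37HEX_exists_value_map (P : Place K F) (σ : K1 →+* K) (f : R →+* F)
    (hval : ∀ x : R, ∃ a : K1, S18A3_IsN P (f x - algebraMap K F (σ a)))
    (hO : ∀ c : O1, f (algebraMap O1 R c) = algebraMap K F (σ (algebraMap O1 K1 c))) :
    ∃ ψ : R →+* K1, (∀ c : O1, ψ (algebraMap O1 R c) = algebraMap O1 K1 c) ∧
      (∀ x : R, S18A3_IsN P (f x - algebraMap K F (σ (ψ x)))) ∧
      ∀ x : R, (ψ x = 0 ↔ S18A3_IsN P (f x)) := by
  classical
  have hcmem : ∀ a : K1, algebraMap K F (σ a) ∈ P.toValuationSubring :=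
    fun a => P.algebraMap_mem' _
  have hfmem : ∀ x : R, f x ∈ P.toValuationSubring := by
    intro x
    obtain ⟨a, ha⟩ := hval x
    have := P.toValuationSubring.add_mem _ _ ha.1 (hcmem a)
    rwa [sub_add_cancel] at this
  -- uniqueness of the value
  have huniq : ∀ (x : R) (a b : K1), S18A3_IsN P (f x - algebraMap K F (σ a)) →
      S18A3_IsN P (f x - algebraMap K F (σ b)) → a = b := by
    intro x a b ha hb
    have h1 := S37HEX_isN_sub P hb ha
    have h2 : f x - algebraMap K F (σ b) - (f x - algebraMap K F (σ a)) =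
        algebraMap K F (σ (a - b)) := by
      rw [map_sub, map_sub]; ring
    rw [h2] at h1
    have h3 := S37HEX_const_eq_zero_of_isN P h1
    have h4 : a - b = 0 := σ.injective (by rw [h3, map_zero])
    exact sub_eq_zero.1 h4
  choose v hv using hval
  have hveq : ∀ (x : R) (a : K1), S18A3_IsN P (f x - algebraMap K F (σ a)) → v x = a :=
    fun x a ha => huniq x _ _ (hv x) ha
  have hzeroN : S18A3_IsN P (0 : F) := ⟨P.toValuationSubring.zero_mem, Or.inl rfl⟩
  have h1 : v 1 = 1 := by
    apply hveq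
    rw [map_one, map_one, map_one, sub_self]
    exact hzeroN
  have h0 : v 0 = 0 := by
    apply hveq
    rw [map_zero, map_zero, map_zero, sub_self]
    exact hzeroN
  have hmul : ∀ x y : R, v (x * y) = v x * v y := by
    intro x y
    apply hveq
    have h2 : f (x * y) - algebraMap K F (σ (v x * v y)) =
        f y * (f x - algebraMap K F (σ (v x))) +
          algebraMap K F (σ (v x)) * (f y - algebraMap K F (σ (v y))) := by
      rw [map_mul, map_mul, map_mul]; ring
    rw [h2]
    exact S18A3_isN_add P (S18A3_isN_mul P (hfmem y) (hv x))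
      (S18A3_isN_mul P (hcmem _) (hv y))
  have hadd : ∀ x y : R, v (x + y) = v x + v y := by
    intro x y
    apply hveq
    have h2 : f (x + y) - algebraMap K F (σ (v x + v y)) =
        (f x - algebraMap K F (σ (v x))) + (f y - algebraMap K F (σ (v y))) := by
      rw [map_add, map_add, map_add]; ring
    rw [h2]
    exact S18A3_isN_add P (hv x) (hv y)
  refine ⟨{ toFun := v, map_one' := h1, map_mul' := hmul, map_zero' := h0, map_add' := hadd },
    ?_, hv, ?_⟩
  · intro c
    change v (algebraMap O1 R c) = algebraMap O1 K1 c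
    apply hveq
    rw [hO, sub_self]
    exact hzeroN
  · intro x
    change v x = 0 ↔ _
    constructor
    · intro hx
      have := hv x
      rwa [hx, map_zero, map_zero, sub_zero] at this
    · intro hx
      apply hveq
      rwa [map_zero, map_zero, sub_zero]

end Value

/-! ### The modular function fields: the interface facts (F1) and (F3) of `S37B1_R2mid` -/

section Concrete

open Fermat.Agent.S24 Fermat.Agent.S18_helper19_PLACEMOD Fermat.Agent.S37_helper5_LEVEL
  ModularCurve HahnSeries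

variable (N : ℕ) [NeZero N]

/-- the compatibility of the constants, from its form on Laurent series. -/
theorem S37HEX_hO_of_coe {K1 : Type*} [Field K1]
    {O1 R : Type*} [CommRing O1] [CommRing R] [Algebra O1 K1]
    [Algebra R (modularFunctionFieldFullC K1 N)] [Algebra O1 R]
    (hOL : ∀ c : O1, ((algebraMap R (modularFunctionFieldFullC K1 N) (algebraMap O1 R c) :
      modularFunctionFieldFullC K1 N) : LaurentSeries K1) = HahnSeries.C (algebraMap O1 K1 c))
    (c : O1) : algebraMap R (modularFunctionFieldFullC K1 N) (algebraMap O1 R c) =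
      algebraMap K1 (modularFunctionFieldFullC K1 N) (algebraMap O1 K1 c) := by
  apply Subtype.ext
  rw [hOL c, Fermat.Agent.S18_helper26_CONST.S18P15_C_eq_algebraMap]
  rfl

/-- **(F3), general form**: every prime element `p` of `R` not dividing `π` is cut out by a
place of `ℚ̄(X₀(N))`. -/
theorem S37HEX_exists_place_bar {K1 : Type*} [Field K1] (φ : K1 →+* Kbar)
    {O1 R : Type*} [CommRing O1] [IsDomain O1] [IsDiscreteValuationRing O1]
    [Algebra O1 K1] [IsFractionRing O1 K1]
    [CommRing R] [IsDomain R] [UniqueFactorizationMonoid R]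
    [Algebra R (modularFunctionFieldFullC K1 N)]
    [IsFractionRing R (modularFunctionFieldFullC K1 N)] [Algebra O1 R]
    (hOL : ∀ c : O1, ((algebraMap R (modularFunctionFieldFullC K1 N) (algebraMap O1 R c) :
      modularFunctionFieldFullC K1 N) : LaurentSeries K1) = HahnSeries.C (algebraMap O1 K1 c))
    (π : O1) (hπ : Irreducible π) (p : R) (hp : Prime p) (hpπ : ¬ p ∣ algebraMap O1 R π) :
    ∃ P' : Place Kbar (modularFunctionFieldBar N),
      (∀ x : R, S18A3C_inc N φ (algebraMap R (modularFunctionFieldFullC K1 N) x) ∈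
        P'.toValuationSubring) ∧
      (∀ x : R, 0 ≤ P'.ord (S18A3C_inc N φ (algebraMap R (modularFunctionFieldFullC K1 N) x))) ∧
      (∀ x : R, x ≠ 0 →
        (0 < P'.ord (S18A3C_inc N φ (algebraMap R (modularFunctionFieldFullC K1 N) x)) ↔
          p ∣ x)) ∧
      P'.ord (S18A3C_inc N φ (algebraMap R (modularFunctionFieldFullC K1 N) p)) = 1 := by
  obtain ⟨P1, -, hR, -, hnn, hpos, hone⟩ :=
    S37HEX_exists_place (S37HEX_hO_of_coe N hOL) π hπ p hp hpπ
  obtain ⟨P', hle, hord⟩ :=
    S18A3C_exists_place_extension N φ (S18A3C_inc N φ) (S18A3C_inc_coe N φ) P1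
  refine ⟨P', fun x => hle _ (hR x), fun x => ?_, fun x hx => ?_, ?_⟩
  · rw [hord]; exact hnn x
  · rw [hord]; exact hpos x hx
  · rw [hord]; exact hone

/-- **(F1), general form**: the value map of a place which is nonnegative on `R` and has
residues in `K1` on `R`. -/
theorem S37HEX_exists_value_map_bar {K1 : Type*} [Field K1] (φ : K1 →+* Kbar)
    {O1 R : Type*} [CommRing O1] [CommRing R] [Algebra O1 K1]
    [Algebra R (modularFunctionFieldFullC K1 N)] [Algebra O1 R]
    (hinj : Function.Injective (algebraMap R (modularFunctionFieldFullC K1 N)))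
    (hOL : ∀ c : O1, ((algebraMap R (modularFunctionFieldFullC K1 N) (algebraMap O1 R c) :
      modularFunctionFieldFullC K1 N) : LaurentSeries K1) = HahnSeries.C (algebraMap O1 K1 c))
    (P : Place Kbar (modularFunctionFieldBar N))
    (hrat : ∀ x : R, S18A3C_inc N φ (algebraMap R (modularFunctionFieldFullC K1 N) x) ∈
        P.toValuationSubring → ∃ a : K1, S18A3_IsN P
      (S18A3C_inc N φ (algebraMap R (modularFunctionFieldFullC K1 N) x) -
        algebraMap Kbar (modularFunctionFieldBar N) (φ a)))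
    (hnn : ∀ x : R, x ≠ 0 →
      0 ≤ P.ord (S18A3C_inc N φ (algebraMap R (modularFunctionFieldFullC K1 N) x))) :
    ∃ ψ : R →+* K1, (∀ c : O1, ψ (algebraMap O1 R c) = algebraMap O1 K1 c) ∧
      (∀ x : R, S18A3_IsN P
        (S18A3C_inc N φ (algebraMap R (modularFunctionFieldFullC K1 N) x) -
          algebraMap Kbar (modularFunctionFieldBar N) (φ (ψ x)))) ∧
      ∀ x : R, x ≠ 0 → (ψ x = 0 ↔
        0 < P.ord (S18A3C_inc N φ (algebraMap R (modularFunctionFieldFullC K1 N) x))) := by
  set ι := S18A3C_inc N φ with hι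
  set f : R →+* modularFunctionFieldBar N :=
    ι.comp (algebraMap R (modularFunctionFieldFullC K1 N)) with hf
  have hfmem : ∀ x : R, f x ∈ P.toValuationSubring := by
    intro x
    by_cases hx : x = 0
    · rw [hx, map_zero]; exact P.toValuationSubring.zero_mem
    · exact mem_of_ord_nonneg P (hnn x hx)
  have hval : ∀ x : R, ∃ a : K1, S18A3_IsN P
      (f x - algebraMap Kbar (modularFunctionFieldBar N) (φ a)) :=
    fun x => hrat x (hfmem x)
  have hO' : ∀ c : O1, f (algebraMap O1 R c) =
      algebraMap Kbar (modularFunctionFieldBar N) (φ (algebraMap O1 K1 c)) := by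
    intro c
    rw [hf, RingHom.comp_apply, S37HEX_hO_of_coe N hOL c]
    exact S18A3C_const N φ ι (S18A3C_inc_coe N φ) _
  obtain ⟨ψ, hψ, hψv, hψ0⟩ := S37HEX_exists_value_map P φ f hval hO'
  refine ⟨ψ, hψ, hψv, fun x hx => ?_⟩
  have hfx : f x ≠ 0 := by
    intro h0
    apply hx
    apply hinj
    rw [map_zero]
    exact ι.injective (by rw [map_zero]; exact h0)
  rw [hψ0 x]
  exact ⟨fun h => S18A3_ord_pos_of_isN P h hfx, fun h => S18A3_isN_of_ord_pos P h⟩

local notation "Qb" => AlgebraicClosure ℚ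

/-- **(F3) = `hprime` of `S37B1_R2mid`.** -/
theorem S37HEX_hprime (K1 : IntermediateField ℚ Qb)
    {O1 R : Type*} [CommRing O1] [IsDomain O1] [IsDiscreteValuationRing O1]
    [Algebra O1 K1] [IsFractionRing O1 K1]
    [CommRing R] [IsDomain R] [UniqueFactorizationMonoid R]
    [Algebra R (modularFunctionFieldFullC K1 N)]
    [IsFractionRing R (modularFunctionFieldFullC K1 N)] [Algebra O1 R]
    (hOL : ∀ c : O1, ((algebraMap R (modularFunctionFieldFullC K1 N) (algebraMap O1 R c) :
      modularFunctionFieldFullC K1 N) : LaurentSeries K1) = HahnSeries.C (algebraMap O1 K1 c))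
    (π : O1) (hπ : Irreducible π) (hϖ : Prime (algebraMap O1 R π)) :
    ∀ p : R, Prime p → ¬ Associated p (algebraMap O1 R π) →
      ∃ P' : Place Qb (modularFunctionFieldBar N),
        (∀ x : R, x ≠ 0 → 0 ≤ P'.ord (S18A3C_inc N (algebraMap K1 Qb)
          (algebraMap R (modularFunctionFieldFullC K1 N) x))) ∧
        (∀ x : R, x ≠ 0 → (0 < P'.ord (S18A3C_inc N (algebraMap K1 Qb)
          (algebraMap R (modularFunctionFieldFullC K1 N) x)) ↔ p ∣ x)) := by
  intro p hp hpπ
  have hndvd : ¬ p ∣ algebraMap O1 R π := fun h => hpπ (hp.associated_of_dvd hϖ h)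
  obtain ⟨P', -, hnn, hpos, -⟩ :=
    S37HEX_exists_place_bar N (algebraMap K1 Qb) hOL π hπ p hp hndvd
  exact ⟨P', fun x _ => hnn x, hpos⟩

/-- **(F1) = `hval` of `S37B1_R2mid`**: the value map of a `K1`-rational place which is
nonnegative on `R`. -/
theorem S37HEX_hval (K1 : IntermediateField ℚ Qb)
    {O1 R : Type*} [CommRing O1] [CommRing R] [Algebra O1 K1]
    [Algebra R (modularFunctionFieldFullC K1 N)] [Algebra O1 R]
    (hinj : Function.Injective (algebraMap R (modularFunctionFieldFullC K1 N)))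
    (hOL : ∀ c : O1, ((algebraMap R (modularFunctionFieldFullC K1 N) (algebraMap O1 R c) :
      modularFunctionFieldFullC K1 N) : LaurentSeries K1) = HahnSeries.C (algebraMap O1 K1 c)) :
    ∀ P : Place Qb (modularFunctionFieldBar N), S37LEVEL_IsRational N K1 P →
      (∀ x : R, x ≠ 0 → 0 ≤ P.ord (S18A3C_inc N (algebraMap K1 Qb)
        (algebraMap R (modularFunctionFieldFullC K1 N) x))) →
      ∃ ψ : R →+* K1, (∀ c : O1, ψ (algebraMap O1 R c) = algebraMap O1 K1 c) ∧
        ∀ x : R, x ≠ 0 → (ψ x = 0 ↔ 0 < P.ord (S18A3C_inc N (algebraMap K1 Qb)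
          (algebraMap R (modularFunctionFieldFullC K1 N) x))) := by
  intro P hrat hnn
  have hzeroN : S18A3_IsN P (0 : modularFunctionFieldBar N) :=
    ⟨P.toValuationSubring.zero_mem, Or.inl rfl⟩
  have hval : ∀ x : R, S18A3C_inc N (algebraMap K1 Qb)
        (algebraMap R (modularFunctionFieldFullC K1 N) x) ∈ P.toValuationSubring →
      ∃ a : K1, S18A3_IsN P
        (S18A3C_inc N (algebraMap K1 Qb) (algebraMap R (modularFunctionFieldFullC K1 N) x) -
          algebraMap Qb (modularFunctionFieldBar N) (algebraMap K1 Qb a)) := by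
    intro x hx
    obtain ⟨c, hc⟩ := S37LEVEL_exists_const N hrat
      ((algebraMap R (modularFunctionFieldFullC K1 N) x : modularFunctionFieldFullC K1 N) :
        LaurentSeries K1)
      (algebraMap R (modularFunctionFieldFullC K1 N) x).2 _
      (S18A3C_inc_coe N (algebraMap K1 Qb) _) hx
    refine ⟨c, ?_⟩
    rcases hc with hc | hc
    · exact S18A3_isN_of_ord_pos P hc
    · have h0 : S18A3C_inc N (algebraMap K1 Qb)
          (algebraMap R (modularFunctionFieldFullC K1 N) x) -
          algebraMap Qb (modularFunctionFieldBar N) (algebraMap K1 Qb c) = 0 :=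
        sub_eq_zero.2 hc
      rw [h0]
      exact hzeroN
  obtain ⟨ψ, hψ, -, hψ0⟩ :=
    S37HEX_exists_value_map_bar N (algebraMap K1 Qb) hinj hOL P hval hnn
  exact ⟨ψ, hψ, hψ0⟩

end Concrete

end

end Fermat.Agent.S37_helper15_HEX
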