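import Mathlib
import Fermat.Agent.S37_helper15_HEX
import Fermat.Agent.S37_helper4_B1Defs2

/-!
# S37, block B1: the interface facts (F1) and (F3) of (r2), verbatim (helper15)

* `S37HEXF_F1 : S37B1_F1 N K1` : the value map of a rational place on a subring of `F1`;
* `S37HEXF_F3 : S37B1_F3 N K1` : a prime element `p` of a factorial subring `R` of `F1` with
  `Frac R = F1` and `K1 ⊆ R_(p)` is cut out by a place.
-/

set_option autoImplicit false
set_option linter.unusedSectionVars false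
set_option linter.unusedVariables false
set_option linter.style.haveILetI false

open AlgebraicCurve IsLocalRing
open Fermat.Agent.S24_helper6_A2 Fermat.Agent.S18_helper19_PLACEEXT
  Fermat.Agent.S18_helper19_PLACEUNR Fermat.Agent.S37_helper19_PLACERES
  Fermat.Agent.S18_helper3_LOCRING Fermat.Agent.S18_helper26_POWDIV
  Fermat.Agent.S37_helper15_HEX

namespace Fermat.Agent.S37_helper15_HEXF

noncomputable section

/-! ### The place cut out by a prime element `p` with `K1 ⊆ R_(p)` -/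

section Abstract

variable {K1 F1 R : Type*} [Field K1] [Field F1] [Algebra K1 F1]
  [CommRing R] [IsDomain R] [UniqueFactorizationMonoid R] [Algebra R F1] [IsFractionRing R F1]

/-- the place with ring `R_(p)`. -/
def S37HEXF_place (p : R) (hp : Prime p)
    (hconst : ∀ c : K1, algebraMap K1 F1 c ∈ primeLoc (algebraMap R F1) p hp) : Place K1 F1 :=
  haveI := isDiscreteValuationRing_primeLoc (ι := algebraMap R F1) S37HEX_inj p hp
  S18PD_place (K := K1) (primeLoc (algebraMap R F1) p hp) (⊤ : Subfield F1) (RingHom.id F1)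
    (fun _ => Subfield.mem_top _) (fun x _ => S37HEX_mem_or_inv_mem p hp x)
    (fun y _ => ⟨y, rfl⟩) (fun _ _ => Subfield.mem_top _) hconst

theorem S37HEXF_mem_place (p : R) (hp : Prime p)
    (hconst : ∀ c : K1, algebraMap K1 F1 c ∈ primeLoc (algebraMap R F1) p hp) (x : F1) :
    x ∈ (S37HEXF_place p hp hconst).toValuationSubring ↔
      ∃ r s : R, ¬ p ∣ s ∧ x * algebraMap R F1 s = algebraMap R F1 r := Iff.rfl

theorem S37HEXF_R_mem (p : R) (hp : Prime p)
    (hconst : ∀ c : K1, algebraMap K1 F1 c ∈ primeLoc (algebraMap R F1) p hp) (x : R) :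
    algebraMap R F1 x ∈ (S37HEXF_place p hp hconst).toValuationSubring :=
  ⟨x, 1, hp.not_dvd_one, by rw [map_one, mul_one]; rfl⟩

theorem S37HEXF_div_mem (p : R) (hp : Prime p)
    (hconst : ∀ c : K1, algebraMap K1 F1 c ∈ primeLoc (algebraMap R F1) p hp)
    (r : R) {s : R} (hs : ¬ p ∣ s) :
    algebraMap R F1 r / algebraMap R F1 s ∈ (S37HEXF_place p hp hconst).toValuationSubring :=
  div_mem_primeLoc S37HEX_inj p hp r hs

/-- an element of `R` is a non-unit at the place iff `p` divides it. -/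
theorem S37HEXF_isN_iff (p : R) (hp : Prime p)
    (hconst : ∀ c : K1, algebraMap K1 F1 c ∈ primeLoc (algebraMap R F1) p hp) (x : R) :
    S18A3_IsN (S37HEXF_place p hp hconst) (algebraMap R F1 x) ↔ p ∣ x := by
  constructor
  · rintro ⟨-, h⟩
    by_contra hx
    have hx0 : x ≠ 0 := by
      rintro rfl
      exact hx (dvd_zero p)
    rcases h with h | h
    · exact hx0 (S37HEX_inj (by rw [h, map_zero]))
    · apply h
      have h1 := S37HEXF_div_mem p hp hconst 1 hx
      rwa [map_one, one_div] at h1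
  · intro hdvd
    refine ⟨S37HEXF_R_mem p hp hconst x, ?_⟩
    by_cases hx0 : x = 0
    · left
      rw [hx0, map_zero]
    right
    rintro ⟨r, s, hs, h⟩
    apply hs
    have hX : algebraMap R F1 x ≠ 0 := fun h0 => hx0 (S37HEX_inj (by rw [h0, map_zero]))
    have h2 : algebraMap R F1 s = algebraMap R F1 (x * r) := by
      have h3 : (algebraMap R F1 x)⁻¹ * algebraMap R F1 s = (RingHom.id F1) _ := h
      rw [map_mul]
      have h4 : algebraMap R F1 s = algebraMap R F1 x * ((algebraMap R F1 x)⁻¹ *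
          algebraMap R F1 s) := by
        rw [← mul_assoc, mul_inv_cancel₀ hX, one_mul]
      rw [h4, h3]
      rfl
    have h5 : s = x * r := S37HEX_inj h2
    rw [h5]
    exact Dvd.dvd.mul_right hdvd r

/-- **HEX-1, general form**: a prime element `p` of `R` with `K1 ⊆ R_(p)` is cut out by a place
of `F1 / K1`. -/
theorem S37HEXF_exists_place (p : R) (hp : Prime p)
    (hconst : ∀ c : K1, ∃ r s : R, ¬ p ∣ s ∧
      algebraMap K1 F1 c * algebraMap R F1 s = algebraMap R F1 r) :
    ∃ P1 : Place K1 F1,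
      (∀ y : F1, y ∈ P1.toValuationSubring ↔
        ∃ r s : R, ¬ p ∣ s ∧ y * algebraMap R F1 s = algebraMap R F1 r) ∧
      (∀ x : R, algebraMap R F1 x ∈ P1.toValuationSubring) ∧
      (∀ x : R, S18A3_IsN P1 (algebraMap R F1 x) ↔ p ∣ x) ∧
      (∀ x : R, 0 ≤ P1.ord (algebraMap R F1 x)) ∧
      (∀ x : R, x ≠ 0 → (0 < P1.ord (algebraMap R F1 x) ↔ p ∣ x)) ∧
      P1.ord (algebraMap R F1 p) = 1 := by
  have hconst' : ∀ c : K1, algebraMap K1 F1 c ∈ primeLoc (algebraMap R F1) p hp := hconst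
  refine ⟨S37HEXF_place p hp hconst', fun y => S37HEXF_mem_place p hp hconst' y,
    S37HEXF_R_mem p hp hconst', S37HEXF_isN_iff p hp hconst',
    fun x => ord_nonneg_of_mem _ (S37HEXF_R_mem p hp hconst' x), fun x hx => ?_,
    S37HEX_ord_eq_one _ (S37HEXF_R_mem p hp hconst') p hp (S37HEXF_isN_iff p hp hconst')⟩
  have hX : algebraMap R F1 x ≠ 0 := fun h0 => hx (S37HEX_inj (by rw [h0, map_zero]))
  rw [← S37HEXF_isN_iff p hp hconst' x]
  exact ⟨fun h => S18A3_isN_of_ord_pos _ h, fun h => S18A3_ord_pos_of_isN _ h hX⟩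

end Abstract

/-! ### The modular function fields -/

section Concrete

open Fermat.Agent.S24 Fermat.Agent.S18_helper19_PLACEMOD Fermat.Agent.S37_helper5_LEVEL
  Fermat.Agent.S37_helper4_B1Defs ModularCurve HahnSeries

variable (N : ℕ) [NeZero N]

section Gen

variable {K1 : Type*} [Field K1] (φ : K1 →+* Kbar)

/-- the inclusion of a subring of `F1` into `F1`. -/
def S37HEXF_incl (R : Subring (LaurentSeries K1))
    (hRF : ∀ x ∈ R, x ∈ modularFunctionFieldFullC K1 N) :
    R →+* modularFunctionFieldFullC K1 N where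
  toFun x := ⟨x.1, hRF x.1 x.2⟩
  map_one' := rfl
  map_mul' _ _ := rfl
  map_zero' := rfl
  map_add' _ _ := rfl

theorem S37HEXF_incl_coe (R : Subring (LaurentSeries K1))
    (hRF : ∀ x ∈ R, x ∈ modularFunctionFieldFullC K1 N) (x : R) :
    ((S37HEXF_incl N R hRF x : modularFunctionFieldFullC K1 N) : LaurentSeries K1) = x := rfl

theorem S37HEXF_incl_injective (R : Subring (LaurentSeries K1))
    (hRF : ∀ x ∈ R, x ∈ modularFunctionFieldFullC K1 N) :
    Function.Injective (S37HEXF_incl N R hRF) := by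
  intro x y h
  apply Subtype.ext
  exact congrArg (fun z : modularFunctionFieldFullC K1 N => (z : LaurentSeries K1)) h

/-- the image of a constant series. -/
theorem S37HEXF_inc_C (c : K1)
    (h : (HahnSeries.C c : LaurentSeries K1) ∈ modularFunctionFieldFullC K1 N) :
    S18A3C_inc N φ ⟨HahnSeries.C c, h⟩ = algebraMap Kbar (modularFunctionFieldBar N) (φ c) := by
  have h1 : (⟨HahnSeries.C c, h⟩ : modularFunctionFieldFullC K1 N) =
      algebraMap K1 (modularFunctionFieldFullC K1 N) c := by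
    apply Subtype.ext
    show (HahnSeries.C c : LaurentSeries K1) = algebraMap K1 (LaurentSeries K1) c
    rw [Fermat.Agent.S18_helper26_CONST.S18P15_C_eq_algebraMap]
  rw [h1]
  exact S18A3C_const N φ (S18A3C_inc N φ) (S18A3C_inc_coe N φ) c

/-- **(F3), general form.** -/
theorem S37HEXF_F3_gen (R : Subring (LaurentSeries K1)) (hUFM : UniqueFactorizationMonoid R)
    (hRF : ∀ x ∈ R, x ∈ modularFunctionFieldFullC K1 N)
    (hfrac : ∀ x ∈ modularFunctionFieldFullC K1 N,
      ∃ a b : R, b ≠ 0 ∧ x * (b : LaurentSeries K1) = a)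
    (p : R) (hp : Prime p)
    (hconst : ∀ c : K1, ∃ s a : R, ¬ p ∣ s ∧
      (HahnSeries.C c : LaurentSeries K1) * (s : LaurentSeries K1) = a) :
    ∃ P' : Place Kbar (modularFunctionFieldBar N),
      (∀ x : R, 0 ≤ P'.ord (S18A3C_inc N φ (S37HEXF_incl N R hRF x))) ∧
      (∀ x : R, (x : LaurentSeries K1) ≠ 0 →
        (0 < P'.ord (S18A3C_inc N φ (S37HEXF_incl N R hRF x)) ↔ p ∣ x)) ∧
      P'.ord (S18A3C_inc N φ (S37HEXF_incl N R hRF p)) = 1 := by
  haveI := hUFM
  letI : Algebra R (modularFunctionFieldFullC K1 N) := (S37HEXF_incl N R hRF).toAlgebra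
  have hinj : Function.Injective (algebraMap R (modularFunctionFieldFullC K1 N)) :=
    S37HEXF_incl_injective N R hRF
  haveI : FaithfulSMul R (modularFunctionFieldFullC K1 N) :=
    (faithfulSMul_iff_algebraMap_injective R _).2 hinj
  haveI : IsFractionRing R (modularFunctionFieldFullC K1 N) := by
    apply IsFractionRing.of_field
    intro z
    obtain ⟨a, b, hb, hab⟩ := hfrac z.1 z.2
    refine ⟨a, b, ?_⟩
    have hb' : algebraMap R (modularFunctionFieldFullC K1 N) b ≠ 0 := by
      intro h0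
      exact hb (hinj (by rw [h0, map_zero]))
    rw [eq_div_iff hb']
    apply Subtype.ext
    exact hab
  have hconst' : ∀ c : K1, ∃ r s : R, ¬ p ∣ s ∧
      algebraMap K1 (modularFunctionFieldFullC K1 N) c *
        algebraMap R (modularFunctionFieldFullC K1 N) s =
      algebraMap R (modularFunctionFieldFullC K1 N) r := by
    intro c
    obtain ⟨s, a, hs, hsa⟩ := hconst c
    refine ⟨a, s, hs, ?_⟩
    apply Subtype.ext
    show algebraMap K1 (LaurentSeries K1) c * (s : LaurentSeries K1) = a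
    rw [← Fermat.Agent.S18_helper26_CONST.S18P15_C_eq_algebraMap]
    exact hsa
  obtain ⟨P1, -, hR, -, hnn, hpos, hone⟩ := S37HEXF_exists_place (K1 := K1) p hp hconst'
  obtain ⟨P', hle, hord⟩ :=
    S18A3C_exists_place_extension N φ (S18A3C_inc N φ) (S18A3C_inc_coe N φ) P1
  refine ⟨P', fun x => ?_, fun x hx => ?_, ?_⟩
  · rw [hord]; exact hnn x
  · rw [hord]
    exact hpos x (fun h0 => hx (by rw [h0]; rfl))
  · rw [hord]; exact hone

/-- **(F1), general form.** -/
theorem S37HEXF_F1_gen (R : Subring (LaurentSeries K1))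
    (hRF : ∀ x ∈ R, x ∈ modularFunctionFieldFullC K1 N)
    (P : Place Kbar (modularFunctionFieldBar N))
    (hrat : ∀ x : R, S18A3C_inc N φ (S37HEXF_incl N R hRF x) ∈ P.toValuationSubring →
      ∃ a : K1, S18A3_IsN P (S18A3C_inc N φ (S37HEXF_incl N R hRF x) -
        algebraMap Kbar (modularFunctionFieldBar N) (φ a)))
    (hnn : ∀ x : R, (x : LaurentSeries K1) ≠ 0 →
      0 ≤ P.ord (S18A3C_inc N φ (S37HEXF_incl N R hRF x))) :
    ∃ ψ : R →+* K1,
      (∀ (c : K1) (hc : (HahnSeries.C c : LaurentSeries K1) ∈ R), ψ ⟨HahnSeries.C c, hc⟩ = c) ∧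
      ∀ x : R, (x : LaurentSeries K1) ≠ 0 →
        (ψ x = 0 ↔ 0 < P.ord (S18A3C_inc N φ (S37HEXF_incl N R hRF x))) := by
  set f : R →+* modularFunctionFieldBar N :=
    (S18A3C_inc N φ).comp (S37HEXF_incl N R hRF) with hf
  have hfmem : ∀ x : R, f x ∈ P.toValuationSubring := by
    intro x
    by_cases hx : (x : LaurentSeries K1) = 0
    · have hx0 : x = 0 := Subtype.ext hx
      rw [hx0, map_zero]; exact P.toValuationSubring.zero_mem
    · exact mem_of_ord_nonneg P (hnn x hx)
  have hval : ∀ x : R, ∃ a : K1, S18A3_IsN P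
      (f x - algebraMap Kbar (modularFunctionFieldBar N) (φ a)) :=
    fun x => hrat x (hfmem x)
  have hO : ∀ c : ℤ, f (algebraMap ℤ R c) =
      algebraMap Kbar (modularFunctionFieldBar N) (φ (algebraMap ℤ K1 c)) := by
    intro c
    simp
  obtain ⟨ψ, -, hψv, hψ0⟩ := S37HEX_exists_value_map (O1 := ℤ) P φ f hval hO
  refine ⟨ψ, fun c hc => ?_, fun x hx => ?_⟩
  · have h1 := hψv ⟨HahnSeries.C c, hc⟩
    have h2 : f ⟨HahnSeries.C c, hc⟩ =
        algebraMap Kbar (modularFunctionFieldBar N) (φ c) :=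
      S37HEXF_inc_C N φ c (hRF _ hc)
    rw [h2, ← map_sub, ← map_sub] at h1
    have h3 := S37HEX_const_eq_zero_of_isN P h1
    have h4 : c - ψ ⟨HahnSeries.C c, hc⟩ = 0 := φ.injective (by rw [h3, map_zero])
    exact (sub_eq_zero.1 h4).symm
  · have hfx : f x ≠ 0 := by
      intro h0
      apply hx
      have h1 : S37HEXF_incl N R hRF x = 0 :=
        (S18A3C_inc N φ).injective (by rw [map_zero]; exact h0)
      have h2 := congrArg (fun z : modularFunctionFieldFullC K1 N => (z : LaurentSeries K1)) h1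
      exact h2
    rw [hψ0 x]
    exact ⟨fun h => S18A3_ord_pos_of_isN P h hfx, fun h => S18A3_isN_of_ord_pos P h⟩

end Gen

local notation "Qb" => AlgebraicClosure ℚ

variable (K1 : IntermediateField ℚ Qb)

theorem S37HEXF_ordP_eq (P : Place Qb (modularFunctionFieldBar N))
    (R : Subring (LaurentSeries K1)) (hRF : ∀ x ∈ R, x ∈ modularFunctionFieldFullC K1 N)
    (x : R) :
    S37B1_ordP N K1 P (x : LaurentSeries K1) =
      P.ord (S18A3C_inc N (algebraMap K1 Qb) (S37HEXF_incl N R hRF x)) :=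
  S37B1_ordP_eq N K1 P (S37HEXF_incl N R hRF x)

/-- **(F3)**, verbatim. -/
theorem S37HEXF_F3 : S37B1_F3 N K1 := by
  intro R hUFM hRF hfrac p hp hconst
  obtain ⟨P', hnn, hpos, -⟩ :=
    S37HEXF_F3_gen N (algebraMap K1 Qb) R hUFM hRF hfrac p hp hconst
  refine ⟨P', fun x hx => ?_⟩
  rw [S37HEXF_ordP_eq N K1 P' R hRF x]
  exact ⟨hnn x, hpos x hx⟩

/-- **(F1)**, verbatim. -/
theorem S37HEXF_F1 : S37B1_F1 N K1 := by
  intro P hrat R hRF hnn
  have hzeroN : S18A3_IsN P (0 : modularFunctionFieldBar N) :=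
    ⟨P.toValuationSubring.zero_mem, Or.inl rfl⟩
  have hval : ∀ x : R, S18A3C_inc N (algebraMap K1 Qb) (S37HEXF_incl N R hRF x) ∈
        P.toValuationSubring →
      ∃ a : K1, S18A3_IsN P (S18A3C_inc N (algebraMap K1 Qb) (S37HEXF_incl N R hRF x) -
        algebraMap Qb (modularFunctionFieldBar N) (algebraMap K1 Qb a)) := by
    intro x hx
    obtain ⟨c, hc⟩ := S37LEVEL_exists_const N hrat (x : LaurentSeries K1) (hRF x.1 x.2) _
      (S18A3C_inc_coe N (algebraMap K1 Qb) (S37HEXF_incl N R hRF x)) hx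
    refine ⟨c, ?_⟩
    rcases hc with hc | hc
    · exact S18A3_isN_of_ord_pos P hc
    · have h0 : S18A3C_inc N (algebraMap K1 Qb) (S37HEXF_incl N R hRF x) -
          algebraMap Qb (modularFunctionFieldBar N) (algebraMap K1 Qb c) = 0 :=
        sub_eq_zero.2 hc
      rw [h0]
      exact hzeroN
  have hnn' : ∀ x : R, (x : LaurentSeries K1) ≠ 0 →
      0 ≤ P.ord (S18A3C_inc N (algebraMap K1 Qb) (S37HEXF_incl N R hRF x)) := by
    intro x hx
    rw [← S37HEXF_ordP_eq N K1 P R hRF x]
    exact hnn x.1 x.2 hx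
  obtain ⟨ψ, hψ, hψ0⟩ := S37HEXF_F1_gen N (algebraMap K1 Qb) R hRF P hval hnn'
  refine ⟨ψ, hψ, fun x hx => ?_⟩
  rw [S37HEXF_ordP_eq N K1 P R hRF x]
  exact hψ0 x hx

end Concrete

end

end Fermat.Agent.S37_helper15_HEXF
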