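import Mathlib
import Fermat.Prelude.Def_ModularCurve_ReductionModL
import Fermat.Agent.S18_helper13_GAUSS2
import Fermat.Agent.S18_helper25_COREDefs
import Fermat.Agent.S18_helper25_GLUE
import Fermat.Agent.S18_helper5_BASE3
import Fermat.Agent.S24_helper6_A2Shapes
import Fermat.Agent.S24_helper23_DEG
import Fermat.Agent.S24_helper23_GEN

/-!
# S37, block B1, piece GEN: principal divisors are generated by integral principal divisors

`S37B1_hgen_of_kappa` : `PrincipalGeneratedByIntegral A (residue A) N` from the hypothesis KAPPA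
(the reduction of an integral series lying in the function field over `K1` lies in the function
field over the residue field), for every valuation subring `A` of `ℚ̄` over a prime `ℓ`.

Route: every `f ≠ 0` of the function field `F = ℚ̄(j(q^d) : d ∣ N)` descends to an admissible
finite level `K1`; there it is a quotient `a / b` of two series with coefficients in
`O1 = A ∩ K1`, both lying in the function field `F1` (induction on the field closure: the
generators `j(q^d)` have integral coefficients and `K1 = Frac O1`); dividing by powers of the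
uniformiser, `f = π ^ z * a' / b'` with `a'`, `b'` of nonzero reduction; constants have trivial
divisor, hence `div f = div a' - div b'`.
-/

set_option autoImplicit false
set_option linter.style.haveILetI false

open HahnSeries IntermediateField ModularCurve AlgebraicCurve
open Fermat.Agent.S18_helper13_GAUSS

noncomputable section

namespace Fermat.Agent.S37_helper23_B1GEN

/-! ### Part 1: fractions of integral series inside the function field (abstract Gauss data) -/

section Abstract

variable {O K κ : Type*} [CommRing O] [IsDomain O] [Field K] [Field κ] (D : GaussData O K κ)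

theorem S37G_incS_C (a : O) :
    D.incS (HahnSeries.C a) = algebraMap K (LaurentSeries K) (D.inc a) := by
  rw [algebraMap_laurentSeries_eq_single, GaussData.incS, HahnSeries.C_apply, coeffMap_single]

theorem S37G_πK_mem (N : ℕ) : D.πK ∈ modularFunctionFieldFullC K N := by
  have h : D.πK = algebraMap K (LaurentSeries K) (D.inc D.π) := by
    rw [GaussData.πK, HahnSeries.C_apply, algebraMap_laurentSeries_eq_single]
  rw [h]
  exact IntermediateField.algebraMap_mem _ _

/-- every element of the function field is a quotient of two integral series lying in the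
function field -/
theorem S37G_exists_frac (hK : ∀ c : K, ∃ a b : O, b ≠ 0 ∧ D.inc b * c = D.inc a) (N : ℕ)
    {x : LaurentSeries K} (hx : x ∈ modularFunctionFieldFullC K N) :
    ∃ a b : LaurentSeries O, b ≠ 0 ∧ D.incS a ∈ modularFunctionFieldFullC K N ∧
      D.incS b ∈ modularFunctionFieldFullC K N ∧ D.incS b * x = D.incS a := by
  unfold modularFunctionFieldFullC at hx
  induction hx using IntermediateField.adjoin_induction with
  | mem y hy =>
    obtain ⟨d, hd0, hd, rfl⟩ := hy
    haveI := hd0
    have e : qExpand K d (jqModC K) = D.incS (jqNModC O d) := D.jqNModC_eq_incS d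
    refine ⟨jqNModC O d, 1, one_ne_zero, ?_, ?_, ?_⟩
    · rw [← e]; exact jqModCd_mem_full K N hd
    · rw [map_one]; exact one_mem _
    · rw [map_one, one_mul, e]
  | algebraMap c =>
    obtain ⟨a, b, hb, hab⟩ := hK c
    refine ⟨HahnSeries.C a, HahnSeries.C b, ?_, ?_, ?_, ?_⟩
    · intro h
      apply hb
      have := congrArg (fun s => s.coeff 0) h
      simpa using this
    · rw [S37G_incS_C]; exact IntermediateField.algebraMap_mem _ _
    · rw [S37G_incS_C]; exact IntermediateField.algebraMap_mem _ _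
    · rw [S37G_incS_C, S37G_incS_C, ← map_mul, hab]
  | add x y _ _ h1 h2 =>
    obtain ⟨a, b, hb, haF, hbF, h⟩ := h1
    obtain ⟨a', b', hb', haF', hbF', h'⟩ := h2
    refine ⟨a * b' + a' * b, b * b', mul_ne_zero hb hb', ?_, ?_, ?_⟩
    · rw [map_add, map_mul, map_mul]
      exact add_mem (mul_mem haF hbF') (mul_mem haF' hbF)
    · rw [map_mul]; exact mul_mem hbF hbF'
    · rw [map_mul, map_add, map_mul, map_mul, ← h, ← h']; ring
  | inv x _ h =>
    obtain ⟨a, b, hb, haF, hbF, h⟩ := h
    by_cases ha : a = 0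
    · refine ⟨0, 1, one_ne_zero, ?_, ?_, ?_⟩
      · rw [map_zero]; exact zero_mem _
      · rw [map_one]; exact one_mem _
      · have hx0 : x = 0 := by
          rw [ha, map_zero] at h
          rcases mul_eq_zero.mp h with h0 | h0
          · exact absurd h0 (D.incS_ne_zero hb)
          · exact h0
        rw [hx0, inv_zero, mul_zero, map_zero]
    · refine ⟨b, a, ha, hbF, haF, ?_⟩
      have ha0 : D.incS a ≠ 0 := D.incS_ne_zero ha
      have hb0 : D.incS b ≠ 0 := D.incS_ne_zero hb
      have hx0 : x ≠ 0 := by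
        rintro rfl
        rw [mul_zero] at h
        exact ha0 h.symm
      rw [← h]
      field_simp
  | mul x y _ _ h1 h2 =>
    obtain ⟨a, b, hb, haF, hbF, h⟩ := h1
    obtain ⟨a', b', hb', haF', hbF', h'⟩ := h2
    refine ⟨a * a', b * b', mul_ne_zero hb hb', ?_, ?_, ?_⟩
    · rw [map_mul]; exact mul_mem haF haF'
    · rw [map_mul]; exact mul_mem hbF hbF'
    · rw [map_mul, map_mul, ← h, ← h']; ring

/-- dividing an integral series of the function field by the exact power of the uniformiser -/
theorem S37G_exists_normal_series (N : ℕ) (a : LaurentSeries O) (ha : a ≠ 0)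
    (haF : D.incS a ∈ modularFunctionFieldFullC K N) :
    ∃ (n : ℕ) (a' : LaurentSeries O), D.redS a' ≠ 0 ∧
      D.incS a' ∈ modularFunctionFieldFullC K N ∧ D.incS a = D.πK ^ n * D.incS a' := by
  obtain ⟨n, a', rfl, ha'⟩ := D.exists_normalize_series a ha
  have hπ := D.πK_ne_zero
  have e : D.incS (D.πO ^ n * a') = D.πK ^ n * D.incS a' := by
    rw [map_mul, map_pow, D.incS_πO]
  refine ⟨n, a', ha', ?_, e⟩
  have h2 : D.incS a' = (D.πK ^ n)⁻¹ * D.incS (D.πO ^ n * a') := by
    rw [e, ← mul_assoc, inv_mul_cancel₀ (pow_ne_zero n hπ), one_mul]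
  rw [h2]
  exact mul_mem (inv_mem (pow_mem (S37G_πK_mem D N) n)) haF

/-- **normal form**: every nonzero element of the function field is a power of the uniformiser
times a quotient of two integral series of the function field with nonzero reductions -/
theorem S37G_exists_normal (hK : ∀ c : K, ∃ a b : O, b ≠ 0 ∧ D.inc b * c = D.inc a) (N : ℕ)
    {x : LaurentSeries K} (hx : x ∈ modularFunctionFieldFullC K N) (hx0 : x ≠ 0) :
    ∃ (z : ℤ) (a b : LaurentSeries O), D.redS a ≠ 0 ∧ D.redS b ≠ 0 ∧
      D.incS a ∈ modularFunctionFieldFullC K N ∧ D.incS b ∈ modularFunctionFieldFullC K N ∧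
      x * D.incS b = D.πK ^ z * D.incS a := by
  obtain ⟨a, b, hb, haF, hbF, h⟩ := S37G_exists_frac D hK N hx
  have ha : a ≠ 0 := by
    rintro rfl
    rw [map_zero] at h
    rcases mul_eq_zero.mp h with h0 | h0
    · exact D.incS_ne_zero hb h0
    · exact hx0 h0
  obtain ⟨n, a', ha', haF', ea⟩ := S37G_exists_normal_series D N a ha haF
  obtain ⟨m, b', hb', hbF', eb⟩ := S37G_exists_normal_series D N b hb hbF
  have hπ := D.πK_ne_zero
  refine ⟨(n : ℤ) - m, a', b', ha', hb', haF', hbF', ?_⟩
  rw [ea, eb] at h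
  rw [zpow_sub₀ hπ, zpow_natCast, zpow_natCast]
  field_simp
  linear_combination h

/-- the same normal form without division -/
theorem S37G_exists_normal' (hK : ∀ c : K, ∃ a b : O, b ≠ 0 ∧ D.inc b * c = D.inc a) (N : ℕ)
    {x : LaurentSeries K} (hx : x ∈ modularFunctionFieldFullC K N) (hx0 : x ≠ 0) :
    ∃ (n m : ℕ) (a b : LaurentSeries O), D.redS a ≠ 0 ∧ D.redS b ≠ 0 ∧
      D.incS a ∈ modularFunctionFieldFullC K N ∧ D.incS b ∈ modularFunctionFieldFullC K N ∧
      D.πK ^ m * D.incS b * x = D.πK ^ n * D.incS a := by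
  obtain ⟨a, b, hb, haF, hbF, h⟩ := S37G_exists_frac D hK N hx
  have ha : a ≠ 0 := by
    rintro rfl
    rw [map_zero] at h
    rcases mul_eq_zero.mp h with h0 | h0
    · exact D.incS_ne_zero hb h0
    · exact hx0 h0
  obtain ⟨n, a', ha', haF', ea⟩ := S37G_exists_normal_series D N a ha haF
  obtain ⟨m, b', hb', hbF', eb⟩ := S37G_exists_normal_series D N b hb hbF
  exact ⟨n, m, a', b', ha', hb', haF', hbF', by rw [← ea, ← eb, h]⟩

end Abstract

/-! ### Part 2: the concrete carriers -/

section Concrete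

open Fermat.Agent.S18_helper25_COREDefs Fermat.Agent.S18_helper25_GLUE

local notation "Qb" => AlgebraicClosure ℚ

variable (A : ValuationSubring Qb) (K1 : IntermediateField ℚ Qb)

/-- `K1` is the fraction field of `O1 = A ∩ K1` -/
theorem S37G_hK [IsDiscreteValuationRing (S18K_O1 A K1)] (c : K1) :
    ∃ a b : S18K_O1 A K1, b ≠ 0 ∧ (S18K_D A K1).inc b * c = (S18K_D A K1).inc a := by
  rcases A.mem_or_inv_mem (c : Qb) with h | h
  · exact ⟨⟨c, h⟩, 1, one_ne_zero, by rw [map_one, one_mul]; rfl⟩
  · have hc : (((c⁻¹ : K1) : K1) : Qb) ∈ A := by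
      have : (((c⁻¹ : K1) : K1) : Qb) = ((c : K1) : Qb)⁻¹ := by simp
      rw [this]; exact h
    by_cases hc0 : c = 0
    · exact ⟨0, 1, one_ne_zero, by rw [hc0, mul_zero, map_zero]⟩
    · refine ⟨1, ⟨c⁻¹, hc⟩, ?_, ?_⟩
      · intro h0
        have := congrArg Subtype.val h0
        exact inv_ne_zero hc0 this
      · rw [map_one]
        show c⁻¹ * c = 1
        exact inv_mul_cancel₀ hc0

theorem S37G_coeffMap_subtype [IsDiscreteValuationRing (S18K_O1 A K1)]
    (a : LaurentSeries (S18K_O1 A K1)) :
    coeffMap A.subtype (coeffMap (S18K_incl A K1) a)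
      = coeffMap (algebraMap K1 Qb) ((S18K_D A K1).incS a) := by
  ext n
  rfl

theorem S37G_coeffMap_residue [IsDiscreteValuationRing (S18K_O1 A K1)]
    (a : LaurentSeries (S18K_O1 A K1)) :
    coeffMap (IsLocalRing.residue A) (coeffMap (S18K_incl A K1) a) = (S18K_D A K1).redS a := by
  ext n
  rfl

theorem S37G_coeffMap_πK [IsDiscreteValuationRing (S18K_O1 A K1)] :
    coeffMap (algebraMap K1 Qb) (S18K_D A K1).πK
      = algebraMap Qb (LaurentSeries Qb)
          (algebraMap K1 Qb ((S18K_D A K1).inc (S18K_D A K1).π)) := by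
  rw [GaussData.πK, HahnSeries.C_apply, coeffMap_single, algebraMap_laurentSeries_eq_single]

theorem S37G_hasPrincipalDivisors (N : ℕ) [NeZero N] :
    HasPrincipalDivisors Qb (modularFunctionFieldBar N) := by
  haveI := (Fermat.Agent.S24_helper23_DEG.DEG N).1
  exact Fermat.Agent.S24_helper6_A2Shapes.hasPrincipalDivisors' (Fermat.Agent.S24.jElt N)
    (Fermat.Agent.S24_helper23_GEN.TR N)

/-- **hgen from KAPPA** (weak form of KAPPA: only for integral series). -/
theorem S37B1_hgen_of_kappa (N : ℕ) [NeZero N] {ℓ : ℕ} (hℓ : ℓ.Prime)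
    (A : ValuationSubring Qb) (hA : A.LiesOverPrime ℓ)
    (hkappa : ∀ (K1 : IntermediateField ℚ Qb) (h : S18K_Admissible A K1 ℓ),
      letI := h.dvr
      ∀ a : LaurentSeries (S18K_O1 A K1),
        (S18K_D A K1).incS a ∈ modularFunctionFieldFullC K1 N →
        (S18K_D A K1).redS a ≠ 0 →
        (S18K_D A K1).redS a ∈ modularFunctionFieldFullC (IsLocalRing.ResidueField A) N) :
    PrincipalGeneratedByIntegral A (IsLocalRing.residue A) N := by
  intro D hD
  obtain ⟨f, hf0, hDf⟩ := hD
  have hfC : (f : LaurentSeries Qb) ∈ modularFunctionFieldFullC Qb N := S18G_bar_le N f.2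
  obtain ⟨S, hS⟩ := S18G_exists_finset (k₀ := ℚ) N hfC
  obtain ⟨K1, hK1S, hadm⟩ := Fermat.Agent.S18_helper5_BASE.exists_admissible hℓ A hA S
  letI := hadm.dvr
  obtain ⟨w, hw, hwf⟩ := hS K1 hK1S
  have hw0 : w ≠ 0 := by
    rintro rfl
    rw [map_zero] at hwf
    exact hf0 (Subtype.ext hwf.symm)
  obtain ⟨n, m, a, b, ha, hb, haF, hbF, hrel⟩ :=
    S37G_exists_normal' (S18K_D A K1) (S37G_hK A K1) N hw hw0
  -- the two integral series over `A`
  have hya : coeffMap A.subtype (coeffMap (S18K_incl A K1) a) ∈ modularFunctionFieldBar N := by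
    rw [S37G_coeffMap_subtype]
    exact S18G_le_bar N (S18G_coeffMap_mem _ N haF)
  have hyb : coeffMap A.subtype (coeffMap (S18K_incl A K1) b) ∈ modularFunctionFieldBar N := by
    rw [S37G_coeffMap_subtype]
    exact S18G_le_bar N (S18G_coeffMap_mem _ N hbF)
  have hyak : coeffMap (IsLocalRing.residue A) (coeffMap (S18K_incl A K1) a) ∈
      modularFunctionFieldFullC (IsLocalRing.ResidueField A) N := by
    rw [S37G_coeffMap_residue]
    exact hkappa K1 hadm a haF ha
  have hybk : coeffMap (IsLocalRing.residue A) (coeffMap (S18K_incl A K1) b) ∈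
      modularFunctionFieldFullC (IsLocalRing.ResidueField A) N := by
    rw [S37G_coeffMap_residue]
    exact hkappa K1 hadm b hbF hb
  have hya0 : coeffMap (IsLocalRing.residue A) (coeffMap (S18K_incl A K1) a) ≠ 0 := by
    rw [S37G_coeffMap_residue]; exact ha
  have hyb0 : coeffMap (IsLocalRing.residue A) (coeffMap (S18K_incl A K1) b) ≠ 0 := by
    rw [S37G_coeffMap_residue]; exact hb
  -- the relation over `ℚ̄`
  set c : Qb := algebraMap K1 Qb ((S18K_D A K1).inc (S18K_D A K1).π) with hc
  have hc0 : c ≠ 0 := by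
    rw [hc]
    intro h
    have h1 : (S18K_D A K1).inc (S18K_D A K1).π = 0 :=
      (map_eq_zero_iff _ (algebraMap K1 Qb).injective).mp h
    exact (S18K_D A K1).π_ne_zero ((S18K_D A K1).inc_injective (by rw [h1, map_zero]))
  have hrel' := congrArg (coeffMap (algebraMap K1 Qb)) hrel
  rw [map_mul, map_mul, map_mul, map_pow, map_pow, S37G_coeffMap_πK, hwf,
    ← S37G_coeffMap_subtype, ← S37G_coeffMap_subtype, ← hc,
    ← map_pow (algebraMap Qb (LaurentSeries Qb)) c m,
    ← map_pow (algebraMap Qb (LaurentSeries Qb)) c n] at hrel'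
  -- elements of the function field
  set F := modularFunctionFieldBar N with hF
  set Ya : F := ⟨_, hya⟩ with hYa
  set Yb : F := ⟨_, hyb⟩ with hYb
  have hYa0 : Ya ≠ 0 := by
    intro h
    have h1 : coeffMap A.subtype (coeffMap (S18K_incl A K1) a) = 0 := congrArg Subtype.val h
    have h2 : coeffMap (S18K_incl A K1) a = 0 := by
      ext k
      have h3 : (((coeffMap (S18K_incl A K1) a).coeff k : A) : Qb) = 0 :=
        congrArg (fun s => s.coeff k) h1
      rw [HahnSeries.coeff_zero]
      exact h3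
    exact hya0 (by rw [h2, map_zero])
  have hYb0 : Yb ≠ 0 := by
    intro h
    have h1 : coeffMap A.subtype (coeffMap (S18K_incl A K1) b) = 0 := congrArg Subtype.val h
    have h2 : coeffMap (S18K_incl A K1) b = 0 := by
      ext k
      have h3 : (((coeffMap (S18K_incl A K1) b).coeff k : A) : Qb) = 0 :=
        congrArg (fun s => s.coeff k) h1
      rw [HahnSeries.coeff_zero]
      exact h3
    exact hyb0 (by rw [h2, map_zero])
  have hrelF : algebraMap Qb F (c ^ m) * Yb * f = algebraMap Qb F (c ^ n) * Ya :=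
    Subtype.ext hrel'
  have hord : ∀ v : Place Qb F, v.ord f = v.ord Ya - v.ord Yb := by
    intro v
    have hcm : algebraMap Qb F (c ^ m) ≠ 0 :=
      (map_ne_zero_iff _ (algebraMap Qb F).injective).mpr (pow_ne_zero m hc0)
    have hcn : algebraMap Qb F (c ^ n) ≠ 0 :=
      (map_ne_zero_iff _ (algebraMap Qb F).injective).mpr (pow_ne_zero n hc0)
    have h1 := congrArg v.ord hrelF
    rw [v.ord_mul (mul_ne_zero hcm hYb0) hf0, v.ord_mul hcm hYb0, v.ord_mul hcn hYa0,
      Fermat.Agent.S24_helper6_A2.ord_algebraMap_eq_zero,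
      Fermat.Agent.S24_helper6_A2.ord_algebraMap_eq_zero] at h1
    linarith
  haveI := S37G_hasPrincipalDivisors N
  obtain ⟨Da, hDa, -⟩ := HasPrincipalDivisors.exists_divisor (K := Qb) Ya hYa0
  obtain ⟨Db, hDb, -⟩ := HasPrincipalDivisors.exists_divisor (K := Qb) Yb hYb0
  have hDeq : D = Da - Db := by
    ext v
    rw [Finsupp.sub_apply, hDf v, hDa v, hDb v, hord v]
  rw [hDeq]
  exact AddSubgroup.sub_mem _
    (AddSubgroup.subset_closure ⟨_, hya, hyak, hya0, hDa⟩)
    (AddSubgroup.subset_closure ⟨_, hyb, hybk, hyb0, hDb⟩)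

/-- **hgen from KAPPA**, KAPPA in the carrier form `red (V ∩ F1) ⊆ F_k`. -/
theorem S37B1_hgen_of_kappaV (N : ℕ) [NeZero N] {ℓ : ℕ} (hℓ : ℓ.Prime)
    (A : ValuationSubring Qb) (hA : A.LiesOverPrime ℓ)
    (hkappa : ∀ (K1 : IntermediateField ℚ Qb) (h : S18K_Admissible A K1 ℓ),
      letI := h.dvr
      ∀ y ∈ S18K_V A K1 N,
        (S18K_D A K1).redFun y ∈ modularFunctionFieldFullC (IsLocalRing.ResidueField A) N) :
    PrincipalGeneratedByIntegral A (IsLocalRing.residue A) N := by
  refine S37B1_hgen_of_kappa N hℓ A hA ?_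
  intro K1 h
  letI := h.dvr
  intro a haF _
  have h1 := hkappa K1 h ((S18K_D A K1).incS a) ⟨(S18K_D A K1).incS_mem_Vring a, haF⟩
  rwa [(S18K_D A K1).redFun_incS] at h1

/-- **B1-GEN**, in the shape of the `pieces` row (the hypotheses `hℓN`, `hAB` are not used). -/
theorem S37B1_hgen (N : ℕ) [NeZero N] {ℓ : ℕ} [Fact ℓ.Prime] (_hℓN : ¬ ℓ ∣ N)
    (A : ValuationSubring Qb) (hA : A.LiesOverPrime ℓ) (_hAB : S18K_BlocksAB A N ℓ)
    (hkappa : ∀ (K1 : IntermediateField ℚ Qb) (h : S18K_Admissible A K1 ℓ),
      letI := h.dvr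
      ∀ y ∈ S18K_V A K1 N,
        (S18K_D A K1).redFun y ∈ modularFunctionFieldFullC (IsLocalRing.ResidueField A) N) :
    PrincipalGeneratedByIntegral A (IsLocalRing.residue A) N :=
  S37B1_hgen_of_kappaV N (Fact.out : ℓ.Prime) A hA hkappa

end Concrete

end Fermat.Agent.S37_helper23_B1GEN
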