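import Fermat.Agent.S37_helper20_KAPPAE
import Fermat.Agent.S37_helper23_B1GEN

/-!
# S37, B1: `hgen` unconditionally (helper20)

`PrincipalGeneratedByIntegral A (residue A) N` for every valuation subring `A` of `ℚ̄` over a
prime `ℓ ∤ N`: helper23's `S37B1_hgen_of_kappaV` fed with KAPPA (`S37KEA_kappa`, route (E)).
-/

set_option autoImplicit false

noncomputable section

open Fermat.Agent.S18_helper25_COREDefs

namespace Fermat.Agent.S37_helper20_HGEN

/-- **B1-GEN, unconditional.** -/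
theorem S37HGEN_hgen (N : ℕ) [NeZero N] {ℓ : ℕ} (hℓ : ℓ.Prime) (hℓN : ¬ ℓ ∣ N)
    (A : ValuationSubring (AlgebraicClosure ℚ)) (hA : A.LiesOverPrime ℓ) :
    ModularCurve.PrincipalGeneratedByIntegral A (IsLocalRing.residue A) N :=
  Fermat.Agent.S37_helper23_B1GEN.S37B1_hgen_of_kappaV N hℓ A hA
    (fun K1 h => Fermat.Agent.S37_helper20_KAPPAE.S37KEA_kappa A K1 N hℓ hℓN hA h)

/-- KAPPA in the consumers' shape (all admissible levels at once). -/
theorem S37HGEN_hkappa (N : ℕ) [NeZero N] {ℓ : ℕ} (hℓ : ℓ.Prime) (hℓN : ¬ ℓ ∣ N)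
    (A : ValuationSubring (AlgebraicClosure ℚ)) (hA : A.LiesOverPrime ℓ) :
    ∀ (K1 : IntermediateField ℚ (AlgebraicClosure ℚ)) (h : S18K_Admissible A K1 ℓ),
      letI := h.dvr
      ∀ y ∈ S18K_V A K1 N,
        (S18K_D A K1).redFun y ∈ ModularCurve.modularFunctionFieldFullC
          (IsLocalRing.ResidueField A) N :=
  fun K1 h => Fermat.Agent.S37_helper20_KAPPAE.S37KEA_kappa A K1 N hℓ hℓN hA h

end Fermat.Agent.S37_helper20_HGEN
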