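import Mathlib
import Fermat.Agent.S37_helper4_B1Defs2
import Fermat.Agent.S24_helper6_A2

/-!
# S37, block B1, interface fact (F5e): every place of the special fibre lies in a chart

`S37F5e_result : S37B1_F5e N K1 A`: for a place `Q` of `F_k`, if `j̄` is regular at `Q` then the
reductions of the elements of the chart `A0` (integral closure of `O[j]`) are regular at `Q`;
otherwise the same holds for the chart `Ainf` (integral closure of `O[j⁻¹]`).

Proof: reduce an integral equation; the valuation ring of `Q` is integrally closed.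
-/

set_option autoImplicit false
set_option linter.style.haveILetI false
set_option linter.unusedSectionVars false
set_option synthInstance.maxHeartbeats 400000

open AlgebraicCurve ModularCurve HahnSeries IntermediateField

noncomputable section

namespace Fermat.Agent.S37_helper21_F5e

open Fermat.Agent.S18_helper25_COREDefs Fermat.Agent.S18_helper19_PLACEMOD
  Fermat.Agent.S18_helper13_GAUSS Fermat.Agent.S18_helper9_CDefs
  Fermat.Agent.S37_helper4_B1Defs

section Abstract

variable {O K κ : Type*} [CommRing O] [IsDomain O] [Field K] [Field κ] (D : GaussData O K κ)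

/-- **Reduction of integral equations.** -/
theorem S37F5e_isIntegral_redFun (R : Subring (LaurentSeries K)) (hRV : R ≤ D.Vring)
    (B : Subring (LaurentSeries κ)) (hRB : ∀ x ∈ R, D.redFun x ∈ B)
    (a : LaurentSeries K) (ha : a ∈ D.Vring) (hint : IsIntegral R a) :
    IsIntegral B (D.redFun a) := by
  obtain ⟨p, hp, hpa⟩ := hint
  let φ : R →+* B := (D.red.comp (Subring.inclusion hRV)).codRestrict B (fun x => hRB x x.2)
  refine ⟨p.map φ, hp.map φ, ?_⟩
  rw [Polynomial.eval₂_map]
  have h1 : (algebraMap B (LaurentSeries κ)).comp φ = D.red.comp (Subring.inclusion hRV) :=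
    RingHom.ext fun _ => rfl
  have h2 : D.redFun a = D.red ⟨a, ha⟩ := rfl
  rw [h1, h2, ← Polynomial.hom_eval₂]
  have h3 : Polynomial.eval₂ (Subring.inclusion hRV) (⟨a, ha⟩ : D.Vring) p = 0 := by
    apply Subtype.ext
    have h4 := Polynomial.hom_eval₂ p (Subring.inclusion hRV) D.Vring.subtype ⟨a, ha⟩
    rw [show ((Polynomial.eval₂ (Subring.inclusion hRV) (⟨a, ha⟩ : D.Vring) p : D.Vring) :
      LaurentSeries K) = D.Vring.subtype (Polynomial.eval₂ (Subring.inclusion hRV)
        (⟨a, ha⟩ : D.Vring) p) from rfl, h4]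
    exact hpa
  rw [h3, map_zero]

end Abstract

section Closed

variable {E Ω : Type*} [Field E] [Field Ω]

/-- A valuation subring is integrally closed, seen through an embedding. -/
theorem S37F5e_mem_of_isIntegral (ι : E →+* Ω) (Vs : ValuationSubring E) (w : E)
    (hint : IsIntegral (Vs.toSubring.map ι) (ι w)) : w ∈ Vs := by
  obtain ⟨p, hp, hpw⟩ := hint
  let e : Vs.toSubring ≃+* Vs.toSubring.map ι := Vs.toSubring.equivMapOfInjective ι ι.injective
  have hint' : IsIntegral Vs w := by
    refine ⟨p.map (e.symm : Vs.toSubring.map ι →+* Vs.toSubring), hp.map _, ?_⟩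
    apply ι.injective
    rw [map_zero, Polynomial.hom_eval₂, Polynomial.eval₂_map]
    have h1 : (ι.comp (algebraMap Vs E)).comp (e.symm : Vs.toSubring.map ι →+* Vs.toSubring) =
        algebraMap (Vs.toSubring.map ι) Ω := by
      ext z
      have h2 : (e (e.symm z) : Ω) = ι ((e.symm z : Vs.toSubring) : E) :=
        Subring.coe_equivMapOfInjective_apply _ _ _ _
      rw [RingEquiv.apply_symm_apply] at h2
      exact h2.symm
    rw [h1]
    exact hpw
  obtain ⟨y, hy⟩ := IsIntegrallyClosed.isIntegral_iff.mp hint'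
  rw [← hy]
  exact y.2

end Closed

section Concrete

variable (N : ℕ) [NeZero N] (K1 : IntermediateField ℚ (AlgebraicClosure ℚ))
  (A : ValuationSubring (AlgebraicClosure ℚ)) [IsDiscreteValuationRing (S18K_O1 A K1)]

/-- The valuation ring of `Q`, as a subring of `k((q))`. -/
def S37F5e_B (Q : Place (IsLocalRing.ResidueField A)
    (modularFunctionFieldFullC (IsLocalRing.ResidueField A) N)) :
    Subring (LaurentSeries (IsLocalRing.ResidueField A)) :=
  Q.toValuationSubring.toSubring.map
    (algebraMap (modularFunctionFieldFullC (IsLocalRing.ResidueField A) N)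
      (LaurentSeries (IsLocalRing.ResidueField A)))

theorem S37F5e_mem_B (Q : Place (IsLocalRing.ResidueField A)
    (modularFunctionFieldFullC (IsLocalRing.ResidueField A) N))
    (w : LaurentSeries (IsLocalRing.ResidueField A)) :
    w ∈ S37F5e_B N A Q ↔
      ∃ h : w ∈ modularFunctionFieldFullC (IsLocalRing.ResidueField A) N,
        (⟨w, h⟩ : modularFunctionFieldFullC (IsLocalRing.ResidueField A) N) ∈
          Q.toValuationSubring := by
  constructor
  · rintro ⟨y, hy, rfl⟩
    exact ⟨y.2, hy⟩
  · rintro ⟨h, hw⟩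
    exact ⟨⟨w, h⟩, hw, rfl⟩

/-- The constants of `O` are Gauss-integral. -/
theorem S37F5e_O_le_Vring : S18K_O A K1 ≤ (S18K_D A K1).Vring := by
  rintro _ ⟨c, hc, rfl⟩
  have h : (HahnSeries.C : K1 →+* LaurentSeries K1) c =
      (S18K_D A K1).incS (HahnSeries.C (⟨c, hc⟩ : S18K_O1 A K1)) := by
    rw [GaussData.incS, HahnSeries.C_apply, HahnSeries.C_apply, coeffMap_single]
    rfl
  rw [h]
  exact (S18K_D A K1).incS_mem_Vring _

/-- The constants of `O` reduce to constants. -/
theorem S37F5e_redFun_O (Q : Place (IsLocalRing.ResidueField A)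
    (modularFunctionFieldFullC (IsLocalRing.ResidueField A) N))
    {c : LaurentSeries K1} (hc : c ∈ S18K_O A K1) :
    (S18K_D A K1).redFun c ∈ S37F5e_B N A Q := by
  obtain ⟨c, hc, rfl⟩ := hc
  have h : (HahnSeries.C : K1 →+* LaurentSeries K1) c =
      (S18K_D A K1).incS (HahnSeries.C (⟨c, hc⟩ : S18K_O1 A K1)) := by
    rw [GaussData.incS, HahnSeries.C_apply, HahnSeries.C_apply, coeffMap_single]
    rfl
  rw [h, GaussData.redFun_incS, GaussData.redS, HahnSeries.C_apply, coeffMap_single,
    ← algebraMap_laurentSeries_eq_single]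
  rw [S37F5e_mem_B]
  exact ⟨IntermediateField.algebraMap_mem _ _, Q.algebraMap_mem' _⟩

/-- **Chart criterion.** If the reduction of `x` is regular at `Q`, then the reductions of all
elements integral over `O[x]` are regular at `Q`. -/
theorem S37F5e_inChart_of (x : LaurentSeries K1) (hx : x ∈ (S18K_D A K1).Vring)
    (Q : Place (IsLocalRing.ResidueField A)
      (modularFunctionFieldFullC (IsLocalRing.ResidueField A) N))
    (hxQ : (S18K_D A K1).redFun x ∈ S37F5e_B N A Q)
    (As : Subring (LaurentSeries K1))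
    (hAs : ∀ a ∈ As, IsIntegral (adj (S18K_O A K1) x) a) :
    S37B1_InChart N A K1 As Q := by
  intro a ha h
  by_cases haV : a ∈ (S18K_D A K1).Vring
  swap
  · have h0 : (⟨(S18K_D A K1).redFun a, h⟩ :
        modularFunctionFieldFullC (IsLocalRing.ResidueField A) N) = 0 :=
      Subtype.ext ((S18K_D A K1).redFun_of_not_mem haV)
    rw [h0]
    exact Q.toValuationSubring.zero_mem
  -- the subring of elements of `V` whose reduction is regular at `Q`
  have hS : adj (S18K_O A K1) x ≤
      ((S37F5e_B N A Q).comap (S18K_D A K1).red).map (S18K_D A K1).Vring.subtype := by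
    rw [adj, Subring.closure_le]
    rintro y (hy | hy)
    · exact ⟨⟨y, S37F5e_O_le_Vring K1 A hy⟩, S37F5e_redFun_O N K1 A Q hy, rfl⟩
    · rw [Set.mem_singleton_iff] at hy
      subst hy
      exact ⟨⟨y, hx⟩, hxQ, rfl⟩
  have hRV : adj (S18K_O A K1) x ≤ (S18K_D A K1).Vring := by
    intro y hy
    obtain ⟨v, -, rfl⟩ := hS hy
    exact v.2
  have hRB : ∀ y ∈ adj (S18K_O A K1) x, (S18K_D A K1).redFun y ∈ S37F5e_B N A Q := by
    intro y hy
    obtain ⟨v, hv, rfl⟩ := hS hy
    exact hv
  have hint := S37F5e_isIntegral_redFun (S18K_D A K1) _ hRV _ hRB a haV (hAs a ha)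
  exact S37F5e_mem_of_isIntegral
    (algebraMap (modularFunctionFieldFullC (IsLocalRing.ResidueField A) N)
      (LaurentSeries (IsLocalRing.ResidueField A))) Q.toValuationSubring
    ⟨(S18K_D A K1).redFun a, h⟩ hint

/-- **(F5e)** every place `Q` of the special fibre lies in one of the two charts. -/
theorem S37F5e_result : S37B1_F5e N K1 A := by
  intro Q
  have hjV : jqModC K1 ∈ (S18K_D A K1).Vring := (S18K_D A K1).jqModC_mem_Vring
  have hjred : (S18K_D A K1).redFun (jqModC K1) = jqModC (IsLocalRing.ResidueField A) :=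
    (S18K_D A K1).redFun_jqModC
  have hjF : jqModC (IsLocalRing.ResidueField A) ∈
      modularFunctionFieldFullC (IsLocalRing.ResidueField A) N := jqModC_mem_full _ N
  have hord : S37B1_ordQ N Q (jqModC (IsLocalRing.ResidueField A)) =
      Q.ord ⟨jqModC (IsLocalRing.ResidueField A), hjF⟩ := S37B1_ordQ_eq N Q ⟨_, hjF⟩
  rw [hord]
  constructor
  · intro h0
    refine S37F5e_inChart_of N K1 A (S18K_j K1) hjV Q ?_ _ (fun a ha => ha.1)
    rw [S18K_j, hjred, S37F5e_mem_B]
    exact ⟨hjF, Fermat.Agent.S24_helper6_A2.mem_of_ord_nonneg Q h0⟩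
  · intro h0
    have hj0 : jqModC (IsLocalRing.ResidueField A) ≠ 0 := by
      intro h
      apply h0
      have : (⟨jqModC (IsLocalRing.ResidueField A), hjF⟩ :
          modularFunctionFieldFullC (IsLocalRing.ResidueField A) N) = 0 := Subtype.ext h
      rw [this, Place.ord_zero]
    have hjr0 : (S18K_D A K1).redFun (jqModC K1) ≠ 0 := by rw [hjred]; exact hj0
    refine S37F5e_inChart_of N K1 A (S18K_j K1)⁻¹ ((S18K_D A K1).inv_mem_Vring hjV hjr0) Q ?_ _
      (fun a ha => ha.1)
    rw [S18K_j, (S18K_D A K1).redFun_inv hjV hjr0, hjred, S37F5e_mem_B]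
    refine ⟨inv_mem hjF, ?_⟩
    have h1 : (⟨(jqModC (IsLocalRing.ResidueField A))⁻¹, inv_mem hjF⟩ :
        modularFunctionFieldFullC (IsLocalRing.ResidueField A) N) =
        (⟨jqModC (IsLocalRing.ResidueField A), hjF⟩ :
          modularFunctionFieldFullC (IsLocalRing.ResidueField A) N)⁻¹ := rfl
    rw [h1]
    apply Fermat.Agent.S24_helper6_A2.mem_of_ord_nonneg
    rw [Place.ord_inv]
    omega

end Concrete

end Fermat.Agent.S37_helper21_F5e
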