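import Mathlib
import Fermat.Agent.S37_helper4_B1LOCAL

set_option autoImplicit false

/-!
# S37, block B1: the abstract core of (r2)

`R` a UFD with fraction field `K`, `ϖ` a prime element, `ord : Pl → K → ℤ` a family of
"order functions" (additive on nonzero elements).  `T` is a finite set of indices, each `P ∈ T`
being "the place cut out by the prime element `g P`".  If every prime element `p` of `R` not
associated to `ϖ` is seen by some index `P'` (which lies in `T` as soon as `ord P' y ≠ 0`), and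
`y` is a unit at `ϖ`, then `y = u * ∏_{P ∈ T} (g P) ^ (ord P y)` with `u` a unit of `R`.
-/

namespace Fermat.Agent.S37_helper4_B1R2CORE

open Fermat.Agent.S37_helper4_B1LOCAL

section Ord

variable {K Pl : Type*} [Field K] (ord : Pl → K → ℤ)
  (hmul : ∀ P (x x' : K), x ≠ 0 → x' ≠ 0 → ord P (x * x') = ord P x + ord P x')

include hmul

theorem S37B1_ord_one (P : Pl) : ord P 1 = 0 := by
  have h := hmul P 1 1 one_ne_zero one_ne_zero
  rw [mul_one] at h
  omega

theorem S37B1_ord_inv (P : Pl) (x : K) (hx : x ≠ 0) : ord P x⁻¹ = - ord P x := by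
  have h := hmul P x x⁻¹ hx (inv_ne_zero hx)
  rw [mul_inv_cancel₀ hx, S37B1_ord_one ord hmul] at h
  omega

theorem S37B1_ord_pow (P : Pl) (x : K) (hx : x ≠ 0) (n : ℕ) :
    ord P (x ^ n) = n * ord P x := by
  induction n with
  | zero => simp [S37B1_ord_one ord hmul]
  | succ n ih =>
    rw [pow_succ, hmul P _ _ (pow_ne_zero n hx) hx, ih]
    push_cast
    ring

theorem S37B1_ord_zpow (P : Pl) (x : K) (hx : x ≠ 0) (n : ℤ) :
    ord P (x ^ n) = n * ord P x := by
  rcases Int.eq_nat_or_neg n with ⟨m, rfl | rfl⟩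
  · rw [zpow_natCast, S37B1_ord_pow ord hmul P x hx]
  · rw [zpow_neg, zpow_natCast, S37B1_ord_inv ord hmul P _ (pow_ne_zero m hx),
      S37B1_ord_pow ord hmul P x hx]
    ring

theorem S37B1_ord_prod {ι : Type*} (P : Pl) (s : Finset ι) (f : ι → K) (hf : ∀ i ∈ s, f i ≠ 0) :
    ord P (∏ i ∈ s, f i) = ∑ i ∈ s, ord P (f i) := by
  classical
  induction s using Finset.induction_on with
  | empty => simp [S37B1_ord_one ord hmul]
  | insert a s ha ih =>
    rw [Finset.prod_insert ha, Finset.sum_insert ha,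
      hmul P _ _ (hf a (Finset.mem_insert_self a s))
        (Finset.prod_ne_zero_iff.mpr fun i hi => hf i (Finset.mem_insert_of_mem hi)),
      ih fun i hi => hf i (Finset.mem_insert_of_mem hi)]

end Ord

section Core

variable {R K : Type*} [CommRing R] [IsDomain R] [UniqueFactorizationMonoid R]
  [Field K] [Algebra R K] [IsFractionRing R K]

/-- If `ord y = 0` for an order function which is nonnegative on `R` and positive exactly on
the multiples of the prime element `p`, then `y` is a quotient of two elements prime to `p`. -/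
theorem S37B1_unit_at_of_ord_eq_zero {Pl : Type*} (ord : Pl → K → ℤ)
    (hmul : ∀ P (x x' : K), x ≠ 0 → x' ≠ 0 → ord P (x * x') = ord P x + ord P x')
    (P : Pl) (p : R) (hp : Prime p)
    (hpos : ∀ x : R, 0 < ord P (algebraMap R K x) ↔ p ∣ x)
    (y : K) (hy : y ≠ 0) (h0 : ord P y = 0) :
    ∃ s r : R, ¬ p ∣ s ∧ ¬ p ∣ r ∧ y * algebraMap R K s = algebraMap R K r := by
  obtain ⟨a, b, hrel, hab⟩ := IsFractionRing.exists_reduced_fraction (A := R) y
  have hb0 : (b : R) ≠ 0 := nonZeroDivisors.ne_zero b.2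
  have hbK : algebraMap R K (b : R) ≠ 0 := by
    intro h
    exact hb0 ((IsFractionRing.injective R K) (by rw [h, map_zero]))
  have h1 : y * algebraMap R K (b : R) = algebraMap R K a := by
    rw [← hab]; exact IsLocalization.mk'_spec K a b
  have h2 : ord P (algebraMap R K a) = ord P (algebraMap R K (b : R)) := by
    rw [← h1, hmul P _ _ hy hbK, h0, zero_add]
  have hpb : ¬ p ∣ (b : R) := by
    intro hdvd
    have h3 : 0 < ord P (algebraMap R K (b : R)) := (hpos _).mpr hdvd
    rw [← h2] at h3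
    exact hp.not_isUnit (hrel ((hpos _).mp h3) hdvd)
  have hpa : ¬ p ∣ a := by
    intro hdvd
    have h3 : 0 < ord P (algebraMap R K a) := (hpos _).mpr hdvd
    rw [h2] at h3
    exact hpb ((hpos _).mp h3)
  exact ⟨b, a, hpb, hpa, h1⟩

/-- **Abstract core of (r2).** -/
theorem S37B1_R2core {Pl : Type*} (ord : Pl → K → ℤ)
    (hmul : ∀ P (x x' : K), x ≠ 0 → x' ≠ 0 → ord P (x * x') = ord P x + ord P x')
    (ϖ : R) (hϖ : Prime ϖ)
    (T : Finset Pl) (g : Pl → R) (hg : ∀ P ∈ T, Prime (g P)) (hgϖ : ∀ P ∈ T, ¬ ϖ ∣ g P)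
    (hTone : ∀ P ∈ T, ord P (algebraMap R K (g P)) = 1)
    (y : K) (hy : y ≠ 0)
    (hyϖ : ∃ s r : R, ¬ ϖ ∣ s ∧ ¬ ϖ ∣ r ∧ y * algebraMap R K s = algebraMap R K r)
    (hex : ∀ p : R, Prime p → ¬ Associated p ϖ → ∃ P' : Pl,
      (∀ x : R, 0 ≤ ord P' (algebraMap R K x)) ∧
      (∀ x : R, 0 < ord P' (algebraMap R K x) ↔ p ∣ x) ∧
      (ord P' y ≠ 0 → P' ∈ T) ∧ (∀ P ∈ T, Associated (g P) p → P = P')) :
    ∃ u : Rˣ, y = algebraMap R K (u : R) * ∏ P ∈ T, (algebraMap R K (g P)) ^ (ord P y) := by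
  classical
  have hinj : Function.Injective (algebraMap R K) := IsFractionRing.injective R K
  have hgK : ∀ P ∈ T, algebraMap R K (g P) ≠ 0 := fun P hP h =>
    (hg P hP).ne_zero (hinj (by rw [h, map_zero]))
  set Pr : K := ∏ P ∈ T, (algebraMap R K (g P)) ^ (ord P y) with hPr
  have hPr0 : Pr ≠ 0 := Finset.prod_ne_zero_iff.mpr fun P hP => zpow_ne_zero _ (hgK P hP)
  set y' : K := y * Pr⁻¹ with hy'
  have hy'0 : y' ≠ 0 := mul_ne_zero hy (inv_ne_zero hPr0)
  -- `ord` of `y'` at an index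
  have hordy' : ∀ P', ord P' y' = ord P' y -
      ∑ P ∈ T, ord P y * ord P' (algebraMap R K (g P)) := by
    intro P'
    rw [hy', hmul P' _ _ hy (inv_ne_zero hPr0), S37B1_ord_inv ord hmul P' _ hPr0, hPr,
      S37B1_ord_prod ord hmul P' T _ (fun P hP => zpow_ne_zero _ (hgK P hP))]
    rw [Finset.sum_congr rfl (fun P hP => S37B1_ord_zpow ord hmul P' _ (hgK P hP) _)]
    ring
  suffices h : ∀ p : R, Prime p → ∃ s r : R, ¬ p ∣ s ∧ ¬ p ∣ r ∧
      y' * algebraMap R K s = algebraMap R K r by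
    obtain ⟨u, hu⟩ := S37B1_isUnit_of_forall_prime y' hy'0 h
    refine ⟨u, ?_⟩
    rw [hu, hy', mul_assoc, inv_mul_cancel₀ hPr0, mul_one]
  intro p hp
  by_cases hpϖ : Associated p ϖ
  · -- the prime `ϖ`
    have hdvd_iff : ∀ x : R, p ∣ x ↔ ϖ ∣ x := fun x => hpϖ.dvd_iff_dvd_left
    obtain ⟨s0, r0, hs0, hr0, hsr0⟩ := hyϖ
    -- split the product into positive and negative exponents
    set Np : R := ∏ P ∈ T, (g P) ^ (ord P y).toNat with hNp
    set Nn : R := ∏ P ∈ T, (g P) ^ (- ord P y).toNat with hNn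
    have hNp_ndvd : ¬ ϖ ∣ Np := by
      rw [hNp]
      intro hdvd
      obtain ⟨P, hP, hPd⟩ := (Prime.dvd_finsetProd_iff hϖ _).mp hdvd
      exact hgϖ P hP (hϖ.dvd_of_dvd_pow hPd)
    have hNn_ndvd : ¬ ϖ ∣ Nn := by
      rw [hNn]
      intro hdvd
      obtain ⟨P, hP, hPd⟩ := (Prime.dvd_finsetProd_iff hϖ _).mp hdvd
      exact hgϖ P hP (hϖ.dvd_of_dvd_pow hPd)
    have hPreq : Pr * algebraMap R K Nn = algebraMap R K Np := by
      rw [hPr, hNn, hNp, map_prod, map_prod, ← Finset.prod_mul_distrib]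
      refine Finset.prod_congr rfl fun P hP => ?_
      rw [map_pow, map_pow]
      have hne := hgK P hP
      rcases le_or_gt 0 (ord P y) with hn | hn
      · have h1 : (- ord P y).toNat = 0 := by omega
        rw [h1, pow_zero, mul_one, ← zpow_natCast, Int.toNat_of_nonneg hn]
      · have h1 : (ord P y).toNat = 0 := by omega
        rw [h1, pow_zero, ← zpow_natCast, Int.toNat_of_nonneg (by omega : 0 ≤ - ord P y),
          ← zpow_add₀ hne]
        simp
    refine ⟨s0 * Np, r0 * Nn, ?_, ?_, ?_⟩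
    · rw [hdvd_iff]
      intro hdvd
      rcases hϖ.dvd_or_dvd hdvd with h | h
      exacts [hs0 h, hNp_ndvd h]
    · rw [hdvd_iff]
      intro hdvd
      rcases hϖ.dvd_or_dvd hdvd with h | h
      exacts [hr0 h, hNn_ndvd h]
    · rw [map_mul, map_mul, ← hsr0, ← hPreq, hy']
      field_simp
  · -- a prime not associated to `ϖ`
    obtain ⟨P', hnonneg, hpos, hT, huniq⟩ := hex p hp hpϖ
    refine S37B1_unit_at_of_ord_eq_zero ord hmul P' p hp hpos y' hy'0 ?_
    rw [hordy']
    -- the only possible contribution is from `P = P'`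
    have hzero : ∀ P ∈ T, P ≠ P' → ord P' (algebraMap R K (g P)) = 0 := by
      intro P hP hne
      by_contra h0
      have h1 : 0 < ord P' (algebraMap R K (g P)) := lt_of_le_of_ne (hnonneg _) (Ne.symm h0)
      have h2 : p ∣ g P := (hpos _).mp h1
      have h3 : Associated (g P) p :=
        (hp.irreducible.associated_of_dvd (hg P hP).irreducible h2).symm
      exact hne (huniq P hP h3)
    by_cases hP'T : P' ∈ T
    · rw [Finset.sum_eq_single_of_mem P' hP'T (fun P hP hne => by rw [hzero P hP hne, mul_zero]),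
        hTone P' hP'T]
      ring
    · have hD : ord P' y = 0 := by
        by_contra h0
        exact hP'T (hT h0)
      rw [hD, Finset.sum_eq_zero (fun P hP => by
        rw [hzero P hP (fun h => hP'T (h ▸ hP)), mul_zero])]
      ring

end Core

end Fermat.Agent.S37_helper4_B1R2CORE
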