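import Mathlib
import Fermat.Agent.S37_helper4_B1R2CORE

set_option autoImplicit false

/-!
# S37, block B1: the abstract core of (r2), reduced modulo `ϖ`

`R` a UFD with fraction field `K`, `ϖ` a prime element, `red : R →+* Fk` a ring homomorphism to
a field whose kernel is contained in `(ϖ)`.  Elements of `K` which are units at `ϖ` have a
well-defined reduction in `Fk` (`S37B1_IsRed`).  If `y = u * ∏ (g P) ^ (n P)` and every
`red (g P)` has order `1` at `Q`, then the reduction of `y` has order `∑ n P` at `Q`.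
-/

namespace Fermat.Agent.S37_helper4_B1R2SUM

open Fermat.Agent.S37_helper4_B1LOCAL Fermat.Agent.S37_helper4_B1R2CORE

section Red

variable {R K Fk : Type*} [CommRing R] [IsDomain R] [Field K] [Algebra R K] [IsFractionRing R K]
  [Field Fk] (ϖ : R) (red : R →+* Fk)

/-- `zb` is the reduction of `z ∈ K`: `z = r / s` with `s` prime to `ϖ` and
`zb = red r / red s`. -/
def S37B1_IsRed (z : K) (zb : Fk) : Prop :=
  ∃ s r : R, ¬ ϖ ∣ s ∧ z * algebraMap R K s = algebraMap R K r ∧ zb * red s = red r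

variable {ϖ red}

theorem S37B1_isRed_algebraMap (x : R) (hϖ : ¬ ϖ ∣ (1 : R)) :
    S37B1_IsRed ϖ red (algebraMap R K x) (red x) :=
  ⟨1, x, hϖ, by rw [map_one, mul_one], by rw [map_one, mul_one]⟩

theorem S37B1_isRed_mul (hϖ : Prime ϖ) {z w : K} {zb wb : Fk}
    (hz : S37B1_IsRed ϖ red z zb) (hw : S37B1_IsRed ϖ red w wb) :
    S37B1_IsRed ϖ red (z * w) (zb * wb) := by
  obtain ⟨s, r, hs, hsr, hred⟩ := hz
  obtain ⟨s', r', hs', hsr', hred'⟩ := hw
  refine ⟨s * s', r * r', fun h => ?_, ?_, ?_⟩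
  · rcases hϖ.dvd_or_dvd h with h | h
    · exact hs h
    · exact hs' h
  · rw [map_mul, map_mul, ← hsr, ← hsr']; ring
  · rw [map_mul, map_mul, ← hred, ← hred']; ring

theorem S37B1_isRed_inv (hker : ∀ x : R, red x = 0 → ϖ ∣ x) {x : R} (hx : ¬ ϖ ∣ x) :
    S37B1_IsRed ϖ red (algebraMap R K x)⁻¹ (red x)⁻¹ := by
  have hx0 : x ≠ 0 := fun h => hx (h ▸ dvd_zero ϖ)
  have hxK : algebraMap R K x ≠ 0 := fun h =>
    hx0 ((IsFractionRing.injective R K) (by rw [h, map_zero]))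
  have hxr : red x ≠ 0 := fun h => hx (hker x h)
  exact ⟨x, 1, hx, by rw [inv_mul_cancel₀ hxK, map_one], by rw [inv_mul_cancel₀ hxr, map_one]⟩

theorem S37B1_isRed_one (hϖ : Prime ϖ) : S37B1_IsRed ϖ red (1 : K) (1 : Fk) :=
  ⟨1, 1, fun h => hϖ.not_isUnit (isUnit_of_dvd_one h), by simp, by simp⟩

theorem S37B1_isRed_pow (hϖ : Prime ϖ) {z : K} {zb : Fk} (hz : S37B1_IsRed ϖ red z zb) (n : ℕ) :
    S37B1_IsRed ϖ red (z ^ n) (zb ^ n) := by
  induction n with
  | zero => simpa using S37B1_isRed_one (K := K) (red := red) hϖ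
  | succ n ih => rw [pow_succ, pow_succ]; exact S37B1_isRed_mul hϖ ih hz

theorem S37B1_isRed_zpow (hϖ : Prime ϖ) (hker : ∀ x : R, red x = 0 → ϖ ∣ x) {x : R}
    (hx : ¬ ϖ ∣ x) (n : ℤ) :
    S37B1_IsRed ϖ red ((algebraMap R K x) ^ n) ((red x) ^ n) := by
  have h1 : S37B1_IsRed ϖ red (algebraMap R K x) (red x) :=
    S37B1_isRed_algebraMap x (fun h => hϖ.not_isUnit (isUnit_of_dvd_one h))
  rcases Int.eq_nat_or_neg n with ⟨m, rfl | rfl⟩
  · rw [zpow_natCast, zpow_natCast]; exact S37B1_isRed_pow hϖ h1 m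
  · rw [zpow_neg, zpow_natCast, zpow_neg, zpow_natCast, ← inv_pow, ← inv_pow]
    exact S37B1_isRed_pow hϖ (S37B1_isRed_inv hker hx) m

theorem S37B1_isRed_prod (hϖ : Prime ϖ) {ι : Type*} (s : Finset ι) (f : ι → K) (fb : ι → Fk)
    (h : ∀ i ∈ s, S37B1_IsRed ϖ red (f i) (fb i)) :
    S37B1_IsRed ϖ red (∏ i ∈ s, f i) (∏ i ∈ s, fb i) := by
  classical
  induction s using Finset.induction_on with
  | empty => simpa using S37B1_isRed_one (K := K) (red := red) hϖ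
  | insert a s ha ih =>
    rw [Finset.prod_insert ha, Finset.prod_insert ha]
    exact S37B1_isRed_mul hϖ (h a (Finset.mem_insert_self a s))
      (ih fun i hi => h i (Finset.mem_insert_of_mem hi))

/-- the reduction is unique -/
theorem S37B1_isRed_unique (hker : ∀ x : R, red x = 0 → ϖ ∣ x) {z : K} {zb zb' : Fk}
    (h : S37B1_IsRed ϖ red z zb) (h' : S37B1_IsRed ϖ red z zb') : zb = zb' := by
  obtain ⟨s, r, hs, hsr, hred⟩ := h
  obtain ⟨s', r', hs', hsr', hred'⟩ := h'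
  have hsr0 : red s ≠ 0 := fun h => hs (hker s h)
  have hsr0' : red s' ≠ 0 := fun h => hs' (hker s' h)
  have h1 : r * s' = r' * s := by
    apply IsFractionRing.injective R K
    rw [map_mul, map_mul, ← hsr, ← hsr']; ring
  have h2 : red r * red s' = red r' * red s := by rw [← map_mul, h1, map_mul]
  rw [← hred, ← hred'] at h2
  have h3 : (zb - zb') * (red s * red s') = 0 := by linear_combination h2
  rcases mul_eq_zero.mp h3 with h4 | h4
  · exact sub_eq_zero.mp h4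
  · exact absurd h4 (mul_ne_zero hsr0 hsr0')

end Red

section Sum

variable {R K Fk : Type*} [CommRing R] [IsDomain R] [UniqueFactorizationMonoid R]
  [Field K] [Algebra R K] [IsFractionRing R K] [Field Fk]

/-- **Abstract (r2), local form.**  In addition to the hypotheses of `S37B1_R2core`: a
reduction map `red : R →+* Fk` with kernel inside `(ϖ)` and an order function `ordQ` on `Fk`,
nonnegative on the image of `red`, with `ordQ (red (g P)) = 1` for `P ∈ T`.  Then the reduction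
`yb` of `y` has order `∑_{P ∈ T} ord P y` at `Q`. -/
theorem S37B1_R2sum {Pl : Type*} (ord : Pl → K → ℤ)
    (hmul : ∀ P (x x' : K), x ≠ 0 → x' ≠ 0 → ord P (x * x') = ord P x + ord P x')
    (ϖ : R) (hϖ : Prime ϖ)
    (T : Finset Pl) (g : Pl → R) (hg : ∀ P ∈ T, Prime (g P)) (hgϖ : ∀ P ∈ T, ¬ ϖ ∣ g P)
    (hTone : ∀ P ∈ T, ord P (algebraMap R K (g P)) = 1)
    (y : K) (hy : y ≠ 0)
    (hex : ∀ p : R, Prime p → ¬ Associated p ϖ → ∃ P' : Pl,
      (∀ x : R, 0 ≤ ord P' (algebraMap R K x)) ∧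
      (∀ x : R, 0 < ord P' (algebraMap R K x) ↔ p ∣ x) ∧
      (ord P' y ≠ 0 → P' ∈ T) ∧ (∀ P ∈ T, Associated (g P) p → P = P'))
    (red : R →+* Fk) (hker : ∀ x : R, red x = 0 → ϖ ∣ x)
    (ordQ : Fk → ℤ)
    (hmulQ : ∀ (x x' : Fk), x ≠ 0 → x' ≠ 0 → ordQ (x * x') = ordQ x + ordQ x')
    (hQ0 : ∀ x : R, red x ≠ 0 → 0 ≤ ordQ (red x))
    (hg1 : ∀ P ∈ T, ordQ (red (g P)) = 1)
    (yb : Fk)
    (hyred : ∃ s r : R, ¬ ϖ ∣ s ∧ ¬ ϖ ∣ r ∧ y * algebraMap R K s = algebraMap R K r ∧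
      yb * red s = red r) :
    ordQ yb = ∑ P ∈ T, ord P y := by
  classical
  obtain ⟨s0, r0, hs0, hr0, hsr0, hred0⟩ := hyred
  obtain ⟨u, hu⟩ := S37B1_R2core ord hmul ϖ hϖ T g hg hgϖ hTone y hy ⟨s0, r0, hs0, hr0, hsr0⟩ hex
  have h1ϖ : ¬ ϖ ∣ (1 : R) := fun h => hϖ.not_isUnit (isUnit_of_dvd_one h)
  have huϖ : ¬ ϖ ∣ (u : R) := fun h => hϖ.not_isUnit (isUnit_of_dvd_unit h u.isUnit)
  have huinvϖ : ¬ ϖ ∣ ((u⁻¹ : Rˣ) : R) := fun h =>
    hϖ.not_isUnit (isUnit_of_dvd_unit h (u⁻¹).isUnit)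
  -- the two reductions of `y`
  have hA : S37B1_IsRed ϖ red y yb := ⟨s0, r0, hs0, hsr0, hred0⟩
  have hB : S37B1_IsRed ϖ red y (red (u : R) * ∏ P ∈ T, (red (g P)) ^ (ord P y)) := by
    rw [hu]
    refine S37B1_isRed_mul hϖ (S37B1_isRed_algebraMap _ h1ϖ) ?_
    have := S37B1_isRed_prod (K := K) (red := red) hϖ T
      (fun P => (algebraMap R K (g P)) ^ (ord P (algebraMap R K (u : R) *
        ∏ P ∈ T, (algebraMap R K (g P)) ^ (ord P y))))
      (fun P => (red (g P)) ^ (ord P (algebraMap R K (u : R) *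
        ∏ P ∈ T, (algebraMap R K (g P)) ^ (ord P y))))
      (fun P hP => S37B1_isRed_zpow hϖ hker (hgϖ P hP) _)
    rw [← hu] at this ⊢
    exact this
  have hyb : yb = red (u : R) * ∏ P ∈ T, (red (g P)) ^ (ord P y) :=
    S37B1_isRed_unique hker hA hB
  -- orders
  have hru0 : red (u : R) ≠ 0 := fun h => huϖ (hker _ h)
  have hruinv0 : red ((u⁻¹ : Rˣ) : R) ≠ 0 := fun h => huinvϖ (hker _ h)
  have hgr0 : ∀ P ∈ T, red (g P) ≠ 0 := fun P hP h => hgϖ P hP (hker _ h)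
  have hordu : ordQ (red (u : R)) = 0 := by
    have h1 : red (u : R) * red ((u⁻¹ : Rˣ) : R) = 1 := by
      rw [← map_mul, Units.mul_inv, map_one]
    have h2 := hmulQ _ _ hru0 hruinv0
    have h3 : ordQ (1 : Fk) = 0 := by
      have := hmulQ 1 1 one_ne_zero one_ne_zero
      rw [mul_one] at this
      omega
    rw [h1, h3] at h2
    have h4 := hQ0 _ hru0
    have h5 := hQ0 _ hruinv0
    omega
  let ordQ' : Unit → Fk → ℤ := fun _ => ordQ
  have hmulQ' : ∀ (P : Unit) (x x' : Fk), x ≠ 0 → x' ≠ 0 →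
      ordQ' P (x * x') = ordQ' P x + ordQ' P x' := fun _ => hmulQ
  rw [hyb, hmulQ _ _ hru0 (Finset.prod_ne_zero_iff.mpr fun P hP => zpow_ne_zero _ (hgr0 P hP)),
    hordu, zero_add]
  have h6 := S37B1_ord_prod ordQ' hmulQ' () T (fun P => (red (g P)) ^ (ord P y))
    (fun P hP => zpow_ne_zero _ (hgr0 P hP))
  rw [show ordQ (∏ P ∈ T, (red (g P)) ^ (ord P y)) = ordQ' () (∏ P ∈ T, (red (g P)) ^ (ord P y))
    from rfl, h6]
  refine Finset.sum_congr rfl fun P hP => ?_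
  rw [S37B1_ord_zpow ordQ' hmulQ' () _ (hgr0 P hP)]
  show ord P y * ordQ (red (g P)) = ord P y
  rw [hg1 P hP, mul_one]

end Sum

end Fermat.Agent.S37_helper4_B1R2SUM
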