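import Mathlib
import Fermat.Agent.S37_helper4_B1R2SUM

set_option autoImplicit false

/-!
# S37, block B1: the abstract middle layer of (r2)

`R` is the local ring of the arithmetic surface at the closed point `Q` of the special fibre:
a noetherian local UFD with maximal ideal `(ϖ, τ)`, `ϖ` the image of a uniformiser `π` of the
discrete valuation ring `O1`.  `Pl` is the set of places of the generic fibre, `ord` their order
functions on `K = Frac R`.  The interface facts are

* `hval`  : a rational place which is nonnegative on `R` has a value map `ψ : R →+* K1`;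
* `hunif` : every place has an element of order `1`;
* `hprime`: every prime element of `R` not associated to `ϖ` is cut out by a place;
* `huniq` : a rational place is determined by its positive elements on `R`.

Conclusion: the reduction of `y` has order `∑_{P ∈ T} ord P y` at `Q`, where `T` is the set of
(rational) places which are nonnegative on `R` and contains every such place in the support
of `y`.
-/

namespace Fermat.Agent.S37_helper4_B1R2MID

open IsLocalRing
open Fermat.Agent.S37_helper4_B1LOCAL Fermat.Agent.S37_helper4_B1R2CORE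
  Fermat.Agent.S37_helper4_B1R2SUM

section OrdOne

variable {R K : Type*} [CommRing R] [IsDomain R] [UniqueFactorizationMonoid R]
  [Field K] [Algebra R K] [IsFractionRing R K]

/-- an order function which is nonnegative on `R`, positive exactly on the multiples of the prime
element `g`, and takes the value `1`, takes the value `1` at `g`. -/
theorem S37B1_ord_prime_eq_one (ord : K → ℤ)
    (hmul : ∀ (x x' : K), x ≠ 0 → x' ≠ 0 → ord (x * x') = ord x + ord x')
    (h0 : ∀ x : R, x ≠ 0 → 0 ≤ ord (algebraMap R K x))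
    (g : R) (hg : Prime g)
    (hpos : ∀ x : R, x ≠ 0 → (0 < ord (algebraMap R K x) ↔ g ∣ x))
    (t : K) (ht0 : t ≠ 0) (ht : ord t = 1) : ord (algebraMap R K g) = 1 := by
  have hinj : Function.Injective (algebraMap R K) := IsFractionRing.injective R K
  obtain ⟨a, b, hrel, hab⟩ := IsFractionRing.exists_reduced_fraction (A := R) t
  have hb0 : (b : R) ≠ 0 := nonZeroDivisors.ne_zero b.2
  have hbK : algebraMap R K (b : R) ≠ 0 := fun h => hb0 (hinj (by rw [h, map_zero]))
  have h1 : t * algebraMap R K (b : R) = algebraMap R K a := by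
    rw [← hab]; exact IsLocalization.mk'_spec K a b
  have ha0 : a ≠ 0 := by
    rintro rfl
    rw [map_zero] at h1
    rcases mul_eq_zero.mp h1 with h | h
    · exact ht0 h
    · exact hbK h
  have h2 : ord (algebraMap R K a) = 1 + ord (algebraMap R K (b : R)) := by
    rw [← h1, hmul _ _ ht0 hbK, ht]
  have hb' := h0 _ hb0
  have hga : g ∣ a := (hpos a ha0).mp (by omega)
  have hgb : ¬ g ∣ (b : R) := fun hgb => hg.not_isUnit (hrel hga hgb)
  have hb1 : ¬ 0 < ord (algebraMap R K (b : R)) := fun h => hgb ((hpos _ hb0).mp h)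
  obtain ⟨a', rfl⟩ := hga
  have ha'0 : a' ≠ 0 := right_ne_zero_of_mul ha0
  have hgK : algebraMap R K g ≠ 0 := fun h => hg.ne_zero (hinj (by rw [h, map_zero]))
  have ha'K : algebraMap R K a' ≠ 0 := fun h => ha'0 (hinj (by rw [h, map_zero]))
  have h3 : ord (algebraMap R K (g * a')) = ord (algebraMap R K g) + ord (algebraMap R K a') := by
    rw [map_mul, hmul _ _ hgK ha'K]
  have h4 : 0 < ord (algebraMap R K g) := (hpos g hg.ne_zero).mpr dvd_rfl
  have h5 := h0 a' ha'0
  omega

end OrdOne

section Mid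

variable {O1 K1 R K Fk : Type*} [CommRing O1] [IsDomain O1] [IsDiscreteValuationRing O1]
  [Field K1] [Algebra O1 K1] [IsFractionRing O1 K1]
  [CommRing R] [IsDomain R] [IsLocalRing R] [IsNoetherianRing R] [UniqueFactorizationMonoid R]
  [Algebra O1 R] [Field K] [Algebra R K] [IsFractionRing R K] [Field Fk]

/-- **Abstract (r2), middle layer.** -/
theorem S37B1_R2mid {Pl : Type*} (ord : Pl → K → ℤ)
    (hmul : ∀ P (x x' : K), x ≠ 0 → x' ≠ 0 → ord P (x * x') = ord P x + ord P x')
    (π : O1) (hπ : Irreducible π) (hϖ : Prime (algebraMap O1 R π))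
    (τ : R) (hM : maximalIdeal R = Ideal.span {algebraMap O1 R π, τ})
    (Rat : Pl → Prop)
    (hval : ∀ P, Rat P → (∀ x : R, x ≠ 0 → 0 ≤ ord P (algebraMap R K x)) →
      ∃ ψ : R →+* K1, (∀ c : O1, ψ (algebraMap O1 R c) = algebraMap O1 K1 c) ∧
        ∀ x : R, x ≠ 0 → (ψ x = 0 ↔ 0 < ord P (algebraMap R K x)))
    (hunif : ∀ P, ∃ t : K, t ≠ 0 ∧ ord P t = 1)
    (hprime : ∀ p : R, Prime p → ¬ Associated p (algebraMap O1 R π) → ∃ P' : Pl,
      (∀ x : R, x ≠ 0 → 0 ≤ ord P' (algebraMap R K x)) ∧
      (∀ x : R, x ≠ 0 → (0 < ord P' (algebraMap R K x) ↔ p ∣ x)))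
    (huniq : ∀ P P' : Pl, Rat P →
      (∀ x : R, x ≠ 0 → 0 ≤ ord P (algebraMap R K x)) →
      (∀ x : R, x ≠ 0 → 0 ≤ ord P' (algebraMap R K x)) →
      (∀ x : R, x ≠ 0 → (0 < ord P (algebraMap R K x) ↔ 0 < ord P' (algebraMap R K x))) →
      P = P')
    (T : Finset Pl)
    (hT1 : ∀ P ∈ T, Rat P ∧ ∀ x : R, x ≠ 0 → 0 ≤ ord P (algebraMap R K x))
    (y : K) (hy : y ≠ 0)
    (hT2 : ∀ P', ord P' y ≠ 0 → (∀ x : R, x ≠ 0 → 0 ≤ ord P' (algebraMap R K x)) → P' ∈ T)
    (red : R →+* Fk) (hker : ∀ x : R, red x = 0 → algebraMap O1 R π ∣ x)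
    (hredπ : red (algebraMap O1 R π) = 0)
    (ordQ : Fk → ℤ)
    (hmulQ : ∀ (x x' : Fk), x ≠ 0 → x' ≠ 0 → ordQ (x * x') = ordQ x + ordQ x')
    (hQ0 : ∀ x : R, red x ≠ 0 → 0 ≤ ordQ (red x))
    (hQτ : ordQ (red τ) = 1)
    (yb : Fk)
    (hyred : ∃ s r : R, ¬ algebraMap O1 R π ∣ s ∧ ¬ algebraMap O1 R π ∣ r ∧
      y * algebraMap R K s = algebraMap R K r ∧ yb * red s = red r) :
    ordQ yb = ∑ P ∈ T, ord P y := by
  classical
  have hinj : Function.Injective (algebraMap R K) := IsFractionRing.injective R K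
  have hinj1 : Function.Injective (algebraMap O1 K1) := IsFractionRing.injective O1 K1
  set ϖ : R := algebraMap O1 R π with hϖdef
  have hπM : ϖ ∈ maximalIdeal R := by
    rw [hM]; exact Ideal.subset_span (by simp)
  have hπspan : maximalIdeal O1 = Ideal.span {π} := hπ.maximalIdeal_eq
  -- the data attached to a place in `T`
  have key : ∀ P ∈ T, ∃ g : R, Prime g ∧ ¬ ϖ ∣ g ∧ red g = red τ ∧
      ∀ x : R, x ≠ 0 → (0 < ord P (algebraMap R K x) ↔ g ∣ x) := by
    intro P hP
    obtain ⟨hrat, hnn⟩ := hT1 P hP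
    obtain ⟨ψ, hψ, hψ0⟩ := hval P hrat hnn
    obtain ⟨φ, hφψ, hφ⟩ := S37B1_exists_retraction π hπ hπM ψ hψ
    have hkerφ := S37B1_ker_retraction π hπspan τ hM φ hφ
    have hτM : τ ∈ maximalIdeal R := by
      rw [hM]; exact Ideal.subset_span (by simp)
    obtain ⟨c', hc'⟩ := S37B1_retraction_tau_dvd π hπspan τ hτM φ hφ
    set g : R := τ - algebraMap O1 R (φ τ) with hgdef
    have hφ0 : ∀ x : R, φ x = 0 ↔ ψ x = 0 := by
      intro x
      rw [← hφψ]
      constructor
      · intro h; rw [h, map_zero]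
      · intro h; exact hinj1 (by rw [h, map_zero])
    have hdvd : ∀ x : R, x ≠ 0 → (0 < ord P (algebraMap R K x) ↔ g ∣ x) := by
      intro x hx
      rw [← hψ0 x hx, ← hφ0, ← RingHom.mem_ker, hkerφ, Ideal.mem_span_singleton]
    -- `g ≠ 0`
    obtain ⟨t, ht0, ht⟩ := hunif P
    have hg0 : g ≠ 0 := by
      intro hg0
      -- then no nonzero element of `R` has positive order, so `ord P` vanishes on `Kˣ`
      have hzero : ∀ x : R, x ≠ 0 → ord P (algebraMap R K x) = 0 := by
        intro x hx
        have h1 := hnn x hx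
        have h2 : ¬ 0 < ord P (algebraMap R K x) := by
          rw [hdvd x hx, hg0, zero_dvd_iff]
          exact hx
        omega
      obtain ⟨a, b, hbmem, hab⟩ := IsFractionRing.div_surjective (A := R) t
      have hb0 : (b : R) ≠ 0 := nonZeroDivisors.ne_zero hbmem
      have hbK : algebraMap R K (b : R) ≠ 0 := fun h => hb0 (hinj (by rw [h, map_zero]))
      have h1 : t * algebraMap R K (b : R) = algebraMap R K a := by
        rw [← hab]; field_simp
      have ha0 : a ≠ 0 := by
        rintro rfl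
        rw [map_zero] at h1
        rcases mul_eq_zero.mp h1 with h | h
        · exact ht0 h
        · exact hbK h
      have h2 := hmul P _ _ ht0 hbK
      rw [h1, hzero a ha0, hzero _ hb0, ht] at h2
      omega
    have hgker : (RingHom.ker φ).IsPrime := RingHom.ker_isPrime φ
    have hgp : Prime g := by
      rw [hkerφ] at hgker
      exact (Ideal.span_singleton_prime hg0).mp hgker
    have hφϖ : φ ϖ = π := hφ π
    have hϖg : ¬ ϖ ∣ g := by
      intro hdiv
      obtain ⟨w, hw⟩ := hdiv
      have hirr : Irreducible g := hgp.irreducible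
      rcases hirr.isUnit_or_isUnit hw with h | h
      · exact hϖ.not_isUnit h
      · -- `g ~ ϖ`, so `φ ϖ = 0`
        have h1 : g ∣ ϖ := by
          obtain ⟨u, hu⟩ := h
          exact ⟨((u⁻¹ : Rˣ) : R), by rw [hw, mul_assoc, ← hu, Units.mul_inv, mul_one]⟩
        have h2 : ϖ ∈ RingHom.ker φ := by
          rw [hkerφ, Ideal.mem_span_singleton]; exact h1
        rw [RingHom.mem_ker, hφϖ] at h2
        exact hπ.ne_zero h2
    refine ⟨g, hgp, hϖg, ?_, hdvd⟩
    rw [hgdef, map_sub, hc', map_mul, map_mul, hredπ, zero_mul, sub_zero]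
  choose! g hgP hgϖ hgred hgdvd using key
  -- the modified order function (positive at `0`)
  let ord' : Pl → K → ℤ := fun P x => if x = 0 then 1 else ord P x
  have hord' : ∀ P (x : K), x ≠ 0 → ord' P x = ord P x := fun P x hx => if_neg hx
  have hord'R : ∀ P (x : R), x ≠ 0 → ord' P (algebraMap R K x) = ord P (algebraMap R K x) :=
    fun P x hx => hord' P _ (fun h => hx (hinj (by rw [h, map_zero])))
  have hmul' : ∀ P (x x' : K), x ≠ 0 → x' ≠ 0 → ord' P (x * x') = ord' P x + ord' P x' := by
    intro P x x' hx hx'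
    rw [hord' P _ (mul_ne_zero hx hx'), hord' P _ hx, hord' P _ hx', hmul P x x' hx hx']
  have hnn' : ∀ P, (∀ x : R, x ≠ 0 → 0 ≤ ord P (algebraMap R K x)) →
      ∀ x : R, 0 ≤ ord' P (algebraMap R K x) := by
    intro P h x
    by_cases hx : x = 0
    · have : ord' P (algebraMap R K x) = 1 := if_pos (by rw [hx, map_zero])
      omega
    · rw [hord'R P x hx]; exact h x hx
  have hpos' : ∀ P (p : R), (∀ x : R, x ≠ 0 → (0 < ord P (algebraMap R K x) ↔ p ∣ x)) →
      ∀ x : R, (0 < ord' P (algebraMap R K x) ↔ p ∣ x) := by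
    intro P p h x
    by_cases hx : x = 0
    · have : ord' P (algebraMap R K x) = 1 := if_pos (by rw [hx, map_zero])
      rw [this, hx]
      simp
    · rw [hord'R P x hx]; exact h x hx
  have hsum : ordQ yb = ∑ P ∈ T, ord' P y := by
    refine S37B1_R2sum ord' hmul' ϖ hϖ T g hgP hgϖ ?_ y hy ?_ red hker ordQ hmulQ hQ0 ?_ yb hyred
    · -- `hTone`
      intro P hP
      obtain ⟨t, ht0, ht⟩ := hunif P
      rw [hord'R P _ (hgP P hP).ne_zero]
      exact S37B1_ord_prime_eq_one (ord P) (hmul P) (hT1 P hP).2 (g P) (hgP P hP)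
        (hgdvd P hP) t ht0 ht
    · -- `hex`
      intro p hp hpϖ
      obtain ⟨P', hnn, hpos⟩ := hprime p hp hpϖ
      refine ⟨P', hnn' P' hnn, hpos' P' p hpos, ?_, ?_⟩
      · intro h
        rw [hord' P' y hy] at h
        exact hT2 P' h hnn
      · intro P hP hass
        refine huniq P P' (hT1 P hP).1 (hT1 P hP).2 hnn ?_
        intro x hx
        rw [hgdvd P hP x hx, hpos x hx]
        exact hass.dvd_iff_dvd_left
    · intro P hP
      rw [hgred P hP, hQτ]
  rw [hsum]
  exact Finset.sum_congr rfl fun P _ => hord' P y hy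

end Mid

end Fermat.Agent.S37_helper4_B1R2MID
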