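import Mathlib
import Fermat.Agent.S37_helper4_B1Defs2
import Fermat.Agent.S37_helper19_PLACERES
import Fermat.Agent.S37_helper15_HEX
import Fermat.Agent.S37_helper4_B1LOCAL

/-!
# S37, block B1: the interface facts (F2) and (F4)

* `S37F24_F2 : S37B1_F2 N K1` : every place of `ℚ̄(X₀(N))` has a uniformiser defined over `K1`.
* `S37F24_F4` : a `K1`-rational place `P`, nonnegative on a subring `R` of `F1` with
  `Frac R = F1`, whose positive elements in `R` are the multiples of `g ∈ R`, is the only place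
  with these properties.  (The statement `S37B1_F4` without `g` is false: for two distinct
  rational places `P ≠ P'` take `R = K1 + (𝔪_P ∩ 𝔪_P' ∩ F1)`.)
-/

set_option autoImplicit false
set_option linter.unusedSectionVars false
set_option linter.style.haveILetI false
set_option synthInstance.maxHeartbeats 400000
set_option maxHeartbeats 1000000

open AlgebraicCurve ModularCurve HahnSeries IntermediateField

noncomputable section

namespace Fermat.Agent.S37_helper5_F2F4

open Fermat.Agent.S18_helper25_COREDefs Fermat.Agent.S18_helper19_PLACEMOD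
  Fermat.Agent.S18_helper19_PLACEUNR Fermat.Agent.S37_helper19_PLACERES
  Fermat.Agent.S37_helper5_LEVEL Fermat.Agent.S37_helper4_B1Defs

variable (N : ℕ) [NeZero N] (K1 : IntermediateField ℚ (AlgebraicClosure ℚ))

/-- The restriction of a place of `ℚ̄(X₀(N))` to `K1(X₀(N))`. -/
def S37F24_res (P : Place (AlgebraicClosure ℚ) (modularFunctionFieldBar N)) :
    Place K1 (modularFunctionFieldFullC K1 N) :=
  S37UC_restrict N (algebraMap K1 (AlgebraicClosure ℚ))
    (S18A3C_inc N (algebraMap K1 (AlgebraicClosure ℚ)))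
    (S18A3C_inc_coe N (algebraMap K1 (AlgebraicClosure ℚ))) P

theorem S37F24_ordP_eq (P : Place (AlgebraicClosure ℚ) (modularFunctionFieldBar N))
    (x : modularFunctionFieldFullC K1 N) :
    S37B1_ordP N K1 P (x : LaurentSeries K1) = (S37F24_res N K1 P).ord x := by
  rw [S37B1_ordP_eq]
  exact S37UC_ord_restrict N (algebraMap K1 (AlgebraicClosure ℚ))
    (S18A3C_inc N (algebraMap K1 (AlgebraicClosure ℚ)))
    (S18A3C_inc_coe N (algebraMap K1 (AlgebraicClosure ℚ))) P x

theorem S37F24_ordP_mul (P : Place (AlgebraicClosure ℚ) (modularFunctionFieldBar N))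
    {x y : LaurentSeries K1} (hx : x ∈ modularFunctionFieldFullC K1 N)
    (hy : y ∈ modularFunctionFieldFullC K1 N) (hx0 : x ≠ 0) (hy0 : y ≠ 0) :
    S37B1_ordP N K1 P (x * y) = S37B1_ordP N K1 P x + S37B1_ordP N K1 P y := by
  have h := S37F24_ordP_eq N K1 P (⟨x, hx⟩ * ⟨y, hy⟩)
  have h1 := S37F24_ordP_eq N K1 P ⟨x, hx⟩
  have h2 := S37F24_ordP_eq N K1 P ⟨y, hy⟩
  have hx0' : (⟨x, hx⟩ : modularFunctionFieldFullC K1 N) ≠ 0 :=
    fun h => hx0 (congrArg Subtype.val h)
  have hy0' : (⟨y, hy⟩ : modularFunctionFieldFullC K1 N) ≠ 0 :=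
    fun h => hy0 (congrArg Subtype.val h)
  have h3 := (S37F24_res N K1 P).ord_mul hx0' hy0'
  rw [h3] at h
  change S37B1_ordP N K1 P (x * y) = _ at h
  rw [h, ← h1, ← h2]

/-- **(F2)** every place has a uniformiser defined over `K1`. -/
theorem S37F24_F2 : S37B1_F2 N K1 := by
  intro P
  obtain ⟨π, hπ⟩ := IsDiscreteValuationRing.exists_irreducible
    (S37F24_res N K1 P).toValuationSubring
  refine ⟨(((π : (S37F24_res N K1 P).toValuationSubring) :
    modularFunctionFieldFullC K1 N) : LaurentSeries K1), Subtype.property _, ?_⟩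
  rw [S37F24_ordP_eq N K1 P]
  exact (S37F24_res N K1 P).ord_coe_irreducible hπ

/-- A `K1`-rational place restricts to a rational place of `K1(X₀(N))`. -/
theorem S37F24_isRational_res {P : Place (AlgebraicClosure ℚ) (modularFunctionFieldBar N)}
    (hrat : S37LEVEL_IsRational N K1 P) : S37U_IsRational (S37F24_res N K1 P) := by
  refine S37UC_isRational_restrict N (algebraMap K1 (AlgebraicClosure ℚ))
    (S18A3C_inc N (algebraMap K1 (AlgebraicClosure ℚ)))
    (S18A3C_inc_coe N (algebraMap K1 (AlgebraicClosure ℚ))) P ?_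
  intro y hy
  obtain ⟨c, hc⟩ := S37LEVEL_exists_const N hrat (y : LaurentSeries K1) y.2
    (S18A3C_inc N (algebraMap K1 (AlgebraicClosure ℚ)) y)
    (S18A3C_inc_coe N (algebraMap K1 (AlgebraicClosure ℚ)) y) hy
  refine ⟨c, ?_⟩
  rcases hc with hc | hc
  · exact S18A3_isN_of_ord_pos P hc
  · have h0 : S18A3C_inc N (algebraMap K1 (AlgebraicClosure ℚ)) y -
        algebraMap (AlgebraicClosure ℚ) (modularFunctionFieldBar N)
          (algebraMap K1 (AlgebraicClosure ℚ) c) = 0 := by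
      rw [hc]
      exact sub_self _
    rw [h0]
    exact ⟨P.toValuationSubring.zero_mem, Or.inl rfl⟩


/-! ### (F4) -/

section F4

variable {N K1}
variable (R : Subring (LaurentSeries K1))
  (hR : ∀ x ∈ R, x ∈ modularFunctionFieldFullC K1 N)

include hR

/-- `g`-adic decomposition of an element of `R` with respect to the place `P`. -/
theorem S37F24_exists_decomp (P : Place (AlgebraicClosure ℚ) (modularFunctionFieldBar N))
    (hnn : ∀ x ∈ R, x ≠ 0 → 0 ≤ S37B1_ordP N K1 P x)
    (g : R) (hg0 : g ≠ 0)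
    (hg : ∀ x : R, (x : LaurentSeries K1) ≠ 0 → (0 < S37B1_ordP N K1 P x ↔ g ∣ x))
    (n : ℕ) : ∀ a : R, a ≠ 0 → S37B1_ordP N K1 P (a : LaurentSeries K1) = n →
      ∃ (m : ℕ) (a' : R), a = g ^ m * a' ∧ a' ≠ 0 ∧ ¬ g ∣ a' := by
  have hg0' : (g : LaurentSeries K1) ≠ 0 := fun h => hg0 (Subtype.ext h)
  have hgpos : 0 < S37B1_ordP N K1 P (g : LaurentSeries K1) := (hg g hg0').mpr dvd_rfl
  induction n using Nat.strong_induction_on with
  | _ n ih =>
    intro a ha han
    have ha' : (a : LaurentSeries K1) ≠ 0 := fun h => ha (Subtype.ext h)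
    by_cases hdiv : g ∣ a
    · obtain ⟨a1, rfl⟩ := hdiv
      have ha1 : a1 ≠ 0 := right_ne_zero_of_mul ha
      have ha1' : (a1 : LaurentSeries K1) ≠ 0 := fun h => ha1 (Subtype.ext h)
      have hmul := S37F24_ordP_mul N K1 P (hR _ g.2) (hR _ a1.2) hg0' ha1'
      have hcoe : ((g * a1 : R) : LaurentSeries K1) = (g : LaurentSeries K1) * a1 := rfl
      rw [hcoe, hmul] at han
      have h1 := hnn _ a1.2 ha1'
      obtain ⟨k, hk⟩ := Int.eq_ofNat_of_zero_le h1
      have hkn : k < n := by omega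
      obtain ⟨m, a', h2, h3, h4⟩ := ih k hkn a1 ha1 hk
      refine ⟨m + 1, a', ?_, h3, h4⟩
      rw [h2, pow_succ]
      ring
    · exact ⟨0, a, by simp, ha, hdiv⟩

omit hR in
theorem S37F24_ordP_pow_mul (P : Place (AlgebraicClosure ℚ) (modularFunctionFieldBar N))
    {g a : LaurentSeries K1} (hgF : g ∈ modularFunctionFieldFullC K1 N)
    (haF : a ∈ modularFunctionFieldFullC K1 N) (hg0 : g ≠ 0) (ha0 : a ≠ 0) (m : ℕ) :
    S37B1_ordP N K1 P (g ^ m * a) = m * S37B1_ordP N K1 P g + S37B1_ordP N K1 P a := by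
  induction m with
  | zero => simp
  | succ m ih =>
    have h1 : g ^ (m + 1) * a = g * (g ^ m * a) := by ring
    have h2 : g ^ m * a ∈ modularFunctionFieldFullC K1 N := mul_mem (pow_mem hgF m) haF
    have h3 : g ^ m * a ≠ 0 := mul_ne_zero (pow_ne_zero m hg0) ha0
    rw [h1, S37F24_ordP_mul N K1 P hgF h2 hg0 h3, ih]
    push_cast
    ring

/-- **(F4)**, corrected form: a `K1`-rational place `P` which is nonnegative on `R`
(`Frac R = F1`) and whose positive elements in `R` are the multiples of `g` is the only place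
nonnegative on `R` with positive elements the multiples of `g`. -/
theorem S37F24_F4
    (hfrac : ∀ x ∈ modularFunctionFieldFullC K1 N,
      ∃ a b : R, b ≠ 0 ∧ x * (b : LaurentSeries K1) = a)
    (P P' : Place (AlgebraicClosure ℚ) (modularFunctionFieldBar N))
    (hrat : S37LEVEL_IsRational N K1 P)
    (hnn : ∀ x ∈ R, x ≠ 0 → 0 ≤ S37B1_ordP N K1 P x)
    (hnn' : ∀ x ∈ R, x ≠ 0 → 0 ≤ S37B1_ordP N K1 P' x)
    (g : R)
    (hg : ∀ x : R, (x : LaurentSeries K1) ≠ 0 → (0 < S37B1_ordP N K1 P x ↔ g ∣ x))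
    (hg' : ∀ x : R, (x : LaurentSeries K1) ≠ 0 → (0 < S37B1_ordP N K1 P' x ↔ g ∣ x)) :
    P = P' := by
  -- it suffices to show `O_{P|F1} ⊆ O_{P'|F1}`
  refine S37UC_place_unique N (algebraMap K1 (AlgebraicClosure ℚ))
    (S18A3C_inc N (algebraMap K1 (AlgebraicClosure ℚ)))
    (S18A3C_inc_coe N (algebraMap K1 (AlgebraicClosure ℚ)))
    (S37F24_res N K1 P) (S37F24_isRational_res N K1 hrat) P P' (fun _ hy => hy) ?_
  intro y hy
  change y ∈ (S37F24_res N K1 P').toValuationSubring
  rcases eq_or_ne y 0 with rfl | hy0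
  · exact (S37F24_res N K1 P').toValuationSubring.zero_mem
  have hyord : 0 ≤ (S37F24_res N K1 P).ord y :=
    Fermat.Agent.S24_helper6_A2.ord_nonneg_of_mem _ hy
  apply Fermat.Agent.S24_helper6_A2.mem_of_ord_nonneg
  obtain ⟨a, b, hb, hab⟩ := hfrac (y : LaurentSeries K1) y.2
  have hb' : (b : LaurentSeries K1) ≠ 0 := fun h => hb (Subtype.ext h)
  have hy0' : (y : LaurentSeries K1) ≠ 0 := fun h => hy0 (Subtype.ext h)
  have ha' : (a : LaurentSeries K1) ≠ 0 := by
    rw [← hab]
    exact mul_ne_zero hy0' hb'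
  have ha : a ≠ 0 := fun h => ha' (by rw [h]; rfl)
  -- the two orders of `y`
  have hordy : ∀ Pl : Place (AlgebraicClosure ℚ) (modularFunctionFieldBar N),
      (S37F24_res N K1 Pl).ord y =
        S37B1_ordP N K1 Pl (a : LaurentSeries K1) - S37B1_ordP N K1 Pl (b : LaurentSeries K1) := by
    intro Pl
    have h1 := S37F24_ordP_mul N K1 Pl y.2 (hR _ b.2) hy0' hb'
    rw [hab, S37F24_ordP_eq N K1 Pl y] at h1
    omega
  rw [hordy P] at hyord
  rw [hordy P']
  by_cases hg0 : g = 0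
  · -- no element of positive order: all orders vanish
    have hz : ∀ Pl : Place (AlgebraicClosure ℚ) (modularFunctionFieldBar N),
        (∀ x ∈ R, x ≠ 0 → 0 ≤ S37B1_ordP N K1 Pl x) →
        (∀ x : R, (x : LaurentSeries K1) ≠ 0 → (0 < S37B1_ordP N K1 Pl x ↔ g ∣ x)) →
        ∀ x : R, (x : LaurentSeries K1) ≠ 0 → S37B1_ordP N K1 Pl (x : LaurentSeries K1) = 0 := by
      intro Pl h1 h2 x hx
      have h3 := h1 _ x.2 hx
      have h4 : ¬ 0 < S37B1_ordP N K1 Pl (x : LaurentSeries K1) := by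
        rw [h2 x hx, hg0, zero_dvd_iff]
        exact fun h => hx (by rw [h]; rfl)
      omega
    rw [hz P' hnn' hg' a ha', hz P' hnn' hg' b hb']
    norm_num
  · have hg0' : (g : LaurentSeries K1) ≠ 0 := fun h => hg0 (Subtype.ext h)
    obtain ⟨ma, a1, ha1, ha10, ha1g⟩ :=
      S37F24_exists_decomp R hR P hnn g hg0 hg _ a ha
        (Int.toNat_of_nonneg (hnn _ a.2 ha')).symm
    obtain ⟨mb, b1, hb1, hb10, hb1g⟩ :=
      S37F24_exists_decomp R hR P hnn g hg0 hg _ b hb
        (Int.toNat_of_nonneg (hnn _ b.2 hb')).symm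
    have ha10' : (a1 : LaurentSeries K1) ≠ 0 := fun h => ha10 (Subtype.ext h)
    have hb10' : (b1 : LaurentSeries K1) ≠ 0 := fun h => hb10 (Subtype.ext h)
    have hzero : ∀ Pl : Place (AlgebraicClosure ℚ) (modularFunctionFieldBar N),
        (∀ x ∈ R, x ≠ 0 → 0 ≤ S37B1_ordP N K1 Pl x) →
        (∀ x : R, (x : LaurentSeries K1) ≠ 0 → (0 < S37B1_ordP N K1 Pl x ↔ g ∣ x)) →
        ∀ x : R, (x : LaurentSeries K1) ≠ 0 → ¬ g ∣ x →
          S37B1_ordP N K1 Pl (x : LaurentSeries K1) = 0 := by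
      intro Pl h1 h2 x hx hgx
      have h3 := h1 _ x.2 hx
      have h4 : ¬ 0 < S37B1_ordP N K1 Pl (x : LaurentSeries K1) := by
        rw [h2 x hx]
        exact hgx
      omega
    have hform : ∀ Pl : Place (AlgebraicClosure ℚ) (modularFunctionFieldBar N),
        (∀ x ∈ R, x ≠ 0 → 0 ≤ S37B1_ordP N K1 Pl x) →
        (∀ x : R, (x : LaurentSeries K1) ≠ 0 → (0 < S37B1_ordP N K1 Pl x ↔ g ∣ x)) →
        S37B1_ordP N K1 Pl (a : LaurentSeries K1) - S37B1_ordP N K1 Pl (b : LaurentSeries K1) =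
          ((ma : ℤ) - mb) * S37B1_ordP N K1 Pl (g : LaurentSeries K1) := by
      intro Pl h1 h2
      have e1 : (a : LaurentSeries K1) = (g : LaurentSeries K1) ^ ma * a1 := by
        rw [ha1]; rfl
      have e2 : (b : LaurentSeries K1) = (g : LaurentSeries K1) ^ mb * b1 := by
        rw [hb1]; rfl
      rw [e1, e2, S37F24_ordP_pow_mul Pl (hR _ g.2) (hR _ a1.2) hg0' ha10',
        S37F24_ordP_pow_mul Pl (hR _ g.2) (hR _ b1.2) hg0' hb10',
        hzero Pl h1 h2 a1 ha10' ha1g, hzero Pl h1 h2 b1 hb10' hb1g]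
      ring
    rw [hform P hnn hg] at hyord
    rw [hform P' hnn' hg']
    have he : 0 < S37B1_ordP N K1 P (g : LaurentSeries K1) := (hg g hg0').mpr dvd_rfl
    have he' : 0 ≤ S37B1_ordP N K1 P' (g : LaurentSeries K1) := hnn' _ g.2 hg0'
    have hm : (0 : ℤ) ≤ (ma : ℤ) - mb := by
      by_contra hneg
      have hneg' : (ma : ℤ) - mb < 0 := not_le.mp hneg
      have := mul_neg_of_neg_of_pos hneg' he
      omega
    exact mul_nonneg hm he'

end F4


/-! ### The plug shapes for `S37B1_R2mid` (generic `R` with `Algebra R F1`) -/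

section Core

variable {K0 F0 R : Type*} [Field K0] [Field F0] [Algebra K0 F0] [CommRing R] [IsDomain R]
  [Algebra R F0]

/-- `g`-adic decomposition in `R` with respect to a place of `Frac R`. -/
theorem S37F24_core_decomp (hinj : Function.Injective (algebraMap R F0)) (v : Place K0 F0)
    (hnn : ∀ x : R, x ≠ 0 → 0 ≤ v.ord (algebraMap R F0 x))
    (g : R) (hg0 : g ≠ 0)
    (hg : ∀ x : R, x ≠ 0 → (0 < v.ord (algebraMap R F0 x) ↔ g ∣ x))
    (n : ℕ) : ∀ a : R, a ≠ 0 → v.ord (algebraMap R F0 a) = n →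
      ∃ (m : ℕ) (a' : R), a = g ^ m * a' ∧ a' ≠ 0 ∧ ¬ g ∣ a' := by
  have hne : ∀ x : R, x ≠ 0 → algebraMap R F0 x ≠ 0 :=
    fun x hx h => hx (hinj (by rw [h, map_zero]))
  have hgpos : 0 < v.ord (algebraMap R F0 g) := (hg g hg0).mpr dvd_rfl
  induction n using Nat.strong_induction_on with
  | _ n ih =>
    intro a ha han
    by_cases hdiv : g ∣ a
    · obtain ⟨a1, rfl⟩ := hdiv
      have ha1 : a1 ≠ 0 := right_ne_zero_of_mul ha
      rw [map_mul, v.ord_mul (hne g hg0) (hne a1 ha1)] at han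
      have h1 := hnn a1 ha1
      obtain ⟨k, hk⟩ := Int.eq_ofNat_of_zero_le h1
      have hkn : k < n := by omega
      obtain ⟨m, a', h2, h3, h4⟩ := ih k hkn a1 ha1 hk
      refine ⟨m + 1, a', ?_, h3, h4⟩
      rw [h2, pow_succ]
      ring
    · exact ⟨0, a, by simp, ha, hdiv⟩

theorem S37F24_core_ord_pow_mul (v : Place K0 F0) {g a : F0} (hg0 : g ≠ 0) (ha0 : a ≠ 0)
    (m : ℕ) : v.ord (g ^ m * a) = m * v.ord g + v.ord a := by
  rw [v.ord_mul (pow_ne_zero m hg0) ha0, ← zpow_natCast, v.ord_zpow]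

/-- Two places of `Frac R` which are nonnegative on `R` and have the multiples of `g` as
elements of positive order: the ring of the first is contained in the ring of the second. -/
theorem S37F24_core_le (hinj : Function.Injective (algebraMap R F0))
    (hfrac : ∀ y : F0, ∃ a b : R, b ≠ 0 ∧ y * algebraMap R F0 b = algebraMap R F0 a)
    (v v' : Place K0 F0)
    (hnn : ∀ x : R, x ≠ 0 → 0 ≤ v.ord (algebraMap R F0 x))
    (hnn' : ∀ x : R, x ≠ 0 → 0 ≤ v'.ord (algebraMap R F0 x))
    (g : R)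
    (hg : ∀ x : R, x ≠ 0 → (0 < v.ord (algebraMap R F0 x) ↔ g ∣ x))
    (hg' : ∀ x : R, x ≠ 0 → (0 < v'.ord (algebraMap R F0 x) ↔ g ∣ x))
    (y : F0) (hy : y ∈ v.toValuationSubring) : y ∈ v'.toValuationSubring := by
  have hne : ∀ x : R, x ≠ 0 → algebraMap R F0 x ≠ 0 :=
    fun x hx h => hx (hinj (by rw [h, map_zero]))
  rcases eq_or_ne y 0 with rfl | hy0
  · exact v'.toValuationSubring.zero_mem
  have hyord : 0 ≤ v.ord y := Fermat.Agent.S24_helper6_A2.ord_nonneg_of_mem _ hy
  apply Fermat.Agent.S24_helper6_A2.mem_of_ord_nonneg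
  obtain ⟨a, b, hb, hab⟩ := hfrac y
  have ha : a ≠ 0 := by
    rintro rfl
    rw [map_zero] at hab
    rcases mul_eq_zero.mp hab with h | h
    · exact hy0 h
    · exact hne b hb h
  have hordy : ∀ w : Place K0 F0,
      w.ord y = w.ord (algebraMap R F0 a) - w.ord (algebraMap R F0 b) := by
    intro w
    have h1 := w.ord_mul hy0 (hne b hb)
    rw [hab] at h1
    omega
  rw [hordy v] at hyord
  rw [hordy v']
  by_cases hg0 : g = 0
  · have hz : ∀ x : R, x ≠ 0 → v'.ord (algebraMap R F0 x) = 0 := by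
      intro x hx
      have h3 := hnn' x hx
      have h4 : ¬ 0 < v'.ord (algebraMap R F0 x) := by
        rw [hg' x hx, hg0, zero_dvd_iff]
        exact hx
      omega
    rw [hz a ha, hz b hb]
    norm_num
  · obtain ⟨ma, a1, ha1, ha10, ha1g⟩ :=
      S37F24_core_decomp hinj v hnn g hg0 hg _ a ha (Int.toNat_of_nonneg (hnn a ha)).symm
    obtain ⟨mb, b1, hb1, hb10, hb1g⟩ :=
      S37F24_core_decomp hinj v hnn g hg0 hg _ b hb (Int.toNat_of_nonneg (hnn b hb)).symm
    have hzero : ∀ w : Place K0 F0, (∀ x : R, x ≠ 0 → 0 ≤ w.ord (algebraMap R F0 x)) →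
        (∀ x : R, x ≠ 0 → (0 < w.ord (algebraMap R F0 x) ↔ g ∣ x)) →
        ∀ x : R, x ≠ 0 → ¬ g ∣ x → w.ord (algebraMap R F0 x) = 0 := by
      intro w h1 h2 x hx hgx
      have h3 := h1 x hx
      have h4 : ¬ 0 < w.ord (algebraMap R F0 x) := by
        rw [h2 x hx]
        exact hgx
      omega
    have hform : ∀ w : Place K0 F0, (∀ x : R, x ≠ 0 → 0 ≤ w.ord (algebraMap R F0 x)) →
        (∀ x : R, x ≠ 0 → (0 < w.ord (algebraMap R F0 x) ↔ g ∣ x)) →
        w.ord (algebraMap R F0 a) - w.ord (algebraMap R F0 b) =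
          ((ma : ℤ) - mb) * w.ord (algebraMap R F0 g) := by
      intro w h1 h2
      rw [ha1, hb1, map_mul, map_mul, map_pow, map_pow,
        S37F24_core_ord_pow_mul w (hne g hg0) (hne a1 ha10),
        S37F24_core_ord_pow_mul w (hne g hg0) (hne b1 hb10),
        hzero w h1 h2 a1 ha10 ha1g, hzero w h1 h2 b1 hb10 hb1g]
      ring
    rw [hform v hnn hg] at hyord
    rw [hform v' hnn' hg']
    have he : 0 < v.ord (algebraMap R F0 g) := (hg g hg0).mpr dvd_rfl
    have he' : 0 ≤ v'.ord (algebraMap R F0 g) := hnn' g hg0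
    have hm : (0 : ℤ) ≤ (ma : ℤ) - mb := by
      by_contra hneg
      have hneg' : (ma : ℤ) - mb < 0 := not_le.mp hneg
      have := mul_neg_of_neg_of_pos hneg' he
      omega
    exact mul_nonneg hm he'

end Core

section Plug

variable {N K1}

/-- **`hunif` of `S37B1_R2mid`**, plug shape. -/
theorem S37F24_hunif (P : Place (AlgebraicClosure ℚ) (modularFunctionFieldBar N)) :
    ∃ t : modularFunctionFieldFullC K1 N, t ≠ 0 ∧
      P.ord (S18A3C_inc N (algebraMap K1 (AlgebraicClosure ℚ)) t) = 1 := by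
  obtain ⟨π, hπ⟩ := IsDiscreteValuationRing.exists_irreducible
    (S37F24_res N K1 P).toValuationSubring
  have h1 : (S37F24_res N K1 P).ord (π : modularFunctionFieldFullC K1 N) = 1 :=
    (S37F24_res N K1 P).ord_coe_irreducible hπ
  refine ⟨(π : modularFunctionFieldFullC K1 N), ?_, ?_⟩
  · intro h0
    rw [h0, Place.ord_zero] at h1
    exact zero_ne_one h1
  · rw [← h1]
    exact S37UC_ord_restrict N (algebraMap K1 (AlgebraicClosure ℚ))
      (S18A3C_inc N (algebraMap K1 (AlgebraicClosure ℚ)))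
      (S18A3C_inc_coe N (algebraMap K1 (AlgebraicClosure ℚ))) P _

variable {R : Type*} [CommRing R] [IsDomain R] [Algebra R (modularFunctionFieldFullC K1 N)]
  [IsFractionRing R (modularFunctionFieldFullC K1 N)]

/-- **`huniq` with the generator `g`**, plug shape: generic `R` with `Frac R = F1`. -/
theorem S37F24_huniq_g
    (P P' : Place (AlgebraicClosure ℚ) (modularFunctionFieldBar N))
    (hrat : S37LEVEL_IsRational N K1 P)
    (hnn : ∀ x : R, x ≠ 0 → 0 ≤ P.ord (S18A3C_inc N (algebraMap K1 (AlgebraicClosure ℚ))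
      (algebraMap R (modularFunctionFieldFullC K1 N) x)))
    (hnn' : ∀ x : R, x ≠ 0 → 0 ≤ P'.ord (S18A3C_inc N (algebraMap K1 (AlgebraicClosure ℚ))
      (algebraMap R (modularFunctionFieldFullC K1 N) x)))
    (g : R)
    (hg : ∀ x : R, x ≠ 0 → (0 < P.ord (S18A3C_inc N (algebraMap K1 (AlgebraicClosure ℚ))
      (algebraMap R (modularFunctionFieldFullC K1 N) x)) ↔ g ∣ x))
    (hg' : ∀ x : R, x ≠ 0 → (0 < P'.ord (S18A3C_inc N (algebraMap K1 (AlgebraicClosure ℚ))
      (algebraMap R (modularFunctionFieldFullC K1 N) x)) ↔ g ∣ x)) :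
    P = P' := by
  have hord : ∀ (Pl : Place (AlgebraicClosure ℚ) (modularFunctionFieldBar N))
      (x : modularFunctionFieldFullC K1 N),
      Pl.ord (S18A3C_inc N (algebraMap K1 (AlgebraicClosure ℚ)) x) =
        (S37F24_res N K1 Pl).ord x := fun Pl x =>
    S37UC_ord_restrict N (algebraMap K1 (AlgebraicClosure ℚ))
      (S18A3C_inc N (algebraMap K1 (AlgebraicClosure ℚ)))
      (S18A3C_inc_coe N (algebraMap K1 (AlgebraicClosure ℚ))) Pl x
  simp only [hord] at hnn hnn' hg hg'
  refine S37UC_place_unique N (algebraMap K1 (AlgebraicClosure ℚ))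
    (S18A3C_inc N (algebraMap K1 (AlgebraicClosure ℚ)))
    (S18A3C_inc_coe N (algebraMap K1 (AlgebraicClosure ℚ)))
    (S37F24_res N K1 P) (S37F24_isRational_res N K1 hrat) P P' (fun _ hy => hy) ?_
  intro y hy
  change y ∈ (S37F24_res N K1 P').toValuationSubring
  refine S37F24_core_le (IsFractionRing.injective R _) ?_ (S37F24_res N K1 P)
    (S37F24_res N K1 P') hnn hnn' g hg hg' y hy
  intro y
  obtain ⟨a, b, hb, hab⟩ := IsFractionRing.div_surjective (A := R) y
  have hb0 : (b : R) ≠ 0 := nonZeroDivisors.ne_zero hb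
  have hbK : algebraMap R (modularFunctionFieldFullC K1 N) b ≠ 0 := fun h =>
    hb0 (IsFractionRing.injective R _ (by rw [h, map_zero]))
  refine ⟨a, b, hb0, ?_⟩
  rw [← hab]
  field_simp


/-- **`huniq` of `S37B1_R2mid`, VERBATIM shape** (no generator in the statement): for `R` local
noetherian with maximal ideal `(π, τ)`, the generator `g = τ - c` of the positive elements of
a rational place is produced by the value map (`S37HEX_hval`) and Lemma A. -/
theorem S37F24_huniq {O1 : Type*} [CommRing O1] [IsDomain O1] [IsDiscreteValuationRing O1]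
    [Algebra O1 K1] [IsFractionRing O1 K1] [IsLocalRing R] [IsNoetherianRing R] [Algebra O1 R]
    (hOL : ∀ c : O1, ((algebraMap R (modularFunctionFieldFullC K1 N) (algebraMap O1 R c) :
      modularFunctionFieldFullC K1 N) : LaurentSeries K1) = HahnSeries.C (algebraMap O1 K1 c))
    (π : O1) (hπ : Irreducible π) (τ : R)
    (hM : IsLocalRing.maximalIdeal R = Ideal.span {algebraMap O1 R π, τ}) :
    ∀ P P' : Place (AlgebraicClosure ℚ) (modularFunctionFieldBar N),
      S37LEVEL_IsRational N K1 P →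
      (∀ x : R, x ≠ 0 → 0 ≤ P.ord (S18A3C_inc N (algebraMap K1 (AlgebraicClosure ℚ))
        (algebraMap R (modularFunctionFieldFullC K1 N) x))) →
      (∀ x : R, x ≠ 0 → 0 ≤ P'.ord (S18A3C_inc N (algebraMap K1 (AlgebraicClosure ℚ))
        (algebraMap R (modularFunctionFieldFullC K1 N) x))) →
      (∀ x : R, x ≠ 0 →
        (0 < P.ord (S18A3C_inc N (algebraMap K1 (AlgebraicClosure ℚ))
          (algebraMap R (modularFunctionFieldFullC K1 N) x)) ↔
        0 < P'.ord (S18A3C_inc N (algebraMap K1 (AlgebraicClosure ℚ))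
          (algebraMap R (modularFunctionFieldFullC K1 N) x)))) →
      P = P' := by
  intro P P' hrat hnn hnn' hsame
  have hinj1 : Function.Injective (algebraMap O1 K1) := IsFractionRing.injective O1 K1
  obtain ⟨ψ, hψ, hψ0⟩ := Fermat.Agent.S37_helper15_HEX.S37HEX_hval N K1
    (IsFractionRing.injective R (modularFunctionFieldFullC K1 N)) hOL P hrat hnn
  have hπM : algebraMap O1 R π ∈ IsLocalRing.maximalIdeal R := by
    rw [hM]
    exact Ideal.subset_span (by simp)
  obtain ⟨φ, hφψ, hφ⟩ :=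
    Fermat.Agent.S37_helper4_B1LOCAL.S37B1_exists_retraction π hπ hπM ψ hψ
  have hkerφ := Fermat.Agent.S37_helper4_B1LOCAL.S37B1_ker_retraction π hπ.maximalIdeal_eq τ hM
    φ hφ
  have hφ0 : ∀ x : R, φ x = 0 ↔ ψ x = 0 := by
    intro x
    rw [← hφψ]
    constructor
    · intro h
      rw [h, map_zero]
    · intro h
      exact hinj1 (by rw [h, map_zero])
  have hdvd : ∀ x : R, x ≠ 0 →
      (0 < P.ord (S18A3C_inc N (algebraMap K1 (AlgebraicClosure ℚ))
        (algebraMap R (modularFunctionFieldFullC K1 N) x)) ↔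
        (τ - algebraMap O1 R (φ τ)) ∣ x) := by
    intro x hx
    rw [← hψ0 x hx, ← hφ0, ← RingHom.mem_ker, hkerφ, Ideal.mem_span_singleton]
  exact S37F24_huniq_g P P' hrat hnn hnn' (τ - algebraMap O1 R (φ τ)) hdvd
    (fun x hx => (hsame x hx).symm.trans (hdvd x hx))

end Plug

end Fermat.Agent.S37_helper5_F2F4
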