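import Mathlib
import Fermat.Agent.S37_helper4_B1R2MID
import Fermat.Agent.S37_helper4_B1Defs2
import Fermat.Agent.S18_helper3_LOCRING
import Fermat.Agent.S18_helper27_CNOETH
import Fermat.Agent.S24_helper6_A2
import Fermat.Agent.S37_helper5_F2F4

/-!
# S37, block B1: (r2) on one chart, from the interface facts (F1)-(F3), (F5)

(The Prop `S37B1_F4` is false for a general subring `R` (helper19: nodal cubic); uniqueness is
taken from helper5's `S37F24_huniq`, which uses that the maximal ideal of `R` is `(π, τ)`.)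
-/

set_option autoImplicit false
set_option linter.unusedSectionVars false

open AlgebraicCurve ModularCurve HahnSeries IntermediateField

noncomputable section

namespace Fermat.Agent.S37_helper4_B1R2CHART

open Fermat.Agent.S18_helper25_COREDefs Fermat.Agent.S18_helper19_PLACEMOD
  Fermat.Agent.S18_helper13_GAUSS Fermat.Agent.S37_helper5_LEVEL
  Fermat.Agent.S18_helper9_CDefs Fermat.Agent.S18_helper3_LOCRING
  Fermat.Agent.S37_helper4_B1Defs Fermat.Agent.S37_helper4_B1R2MID

section Generic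

variable {L : Type*} [Field L] {π : L} {V A : Subring L} {m : Ideal A} [hm : m.IsPrime]

/-- `[IG]` at `m`, elementwise, gives two generators of the maximal ideal of the local ring. -/
theorem S37B1_maximalIdeal_eq_span (H : LocHyp π V A m) (hπ : π ∈ A) (τ0 : A) (hτ0 : τ0 ∈ m)
    (hgen : ∀ x ∈ m, ∃ c : A, c ∉ m ∧ ∃ a b : A, c * x = a * ⟨π, hπ⟩ + b * τ0) :
    IsLocalRing.maximalIdeal (locRing A m) = Ideal.span {H.ϖ, incl A m τ0} := by
  apply le_antisymm
  · intro y hy
    obtain ⟨a, c, ha, hc, hyc⟩ := (mem_maximalIdeal_iff A m y).1 hy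
    obtain ⟨c', hc', a', b', hrel⟩ := hgen a ha
    have hcc' : c * c' ∉ m := fun h => (hm.mem_or_mem h).elim hc hc'
    have hcc0 : ((c * c' : A) : L) ≠ 0 := coe_ne_zero_of_notMem A m hcc'
    rw [Ideal.mem_span_pair]
    refine ⟨⟨(a' : L) / ((c * c' : A) : L), div_mem_locRing A m a' hcc'⟩,
      ⟨(b' : L) / ((c * c' : A) : L), div_mem_locRing A m b' hcc'⟩, ?_⟩
    apply Subtype.ext
    have hrel' : (c' : L) * (a : L) = (a' : L) * π + (b' : L) * (τ0 : L) := by
      have := congrArg (fun z : A => (z : L)) hrel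
      simpa using this
    show (a' : L) / ((c * c' : A) : L) * π + (b' : L) / ((c * c' : A) : L) * (τ0 : L) = (y : L)
    have h1 : (y : L) * ((c * c' : A) : L) = (a' : L) * π + (b' : L) * (τ0 : L) := by
      rw [← hrel', ← hyc]; push_cast; ring
    field_simp
    rw [← h1, mul_comm]
  · rw [Ideal.span_le]
    rintro z (rfl | hz)
    · exact H.ϖ_mem_maximalIdeal
    · rw [Set.mem_singleton_iff] at hz
      rw [hz]
      exact incl_mem_maximalIdeal A m hτ0

end Generic

section Chart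

variable (N : ℕ) [NeZero N] (A : ValuationSubring (AlgebraicClosure ℚ))
  (K1 : IntermediateField ℚ (AlgebraicClosure ℚ)) [IsDiscreteValuationRing (S18K_O1 A K1)]

local notation "Qb" => AlgebraicClosure ℚ
local notation "kA" => IsLocalRing.ResidueField A

/-- the uniformiser of the Gauss data is irreducible -/
theorem S37B1_irreducible_π : Irreducible (S18K_D A K1).π :=
  (IsDiscreteValuationRing.exists_irreducible (S18K_O1 A K1)).choose_spec

theorem S37B1_π_eq : S18K_π A K1 = HahnSeries.C (((S18K_D A K1).π : S18K_O1 A K1) : K1) := rfl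

/-- every element of `K1` is a quotient of an element of `O1` by a power of the uniformiser -/
theorem S37B1_exists_pow_mul_mem (c : K1) :
    ∃ (n : ℕ) (a : S18K_O1 A K1), c * (((S18K_D A K1).π : S18K_O1 A K1) : K1) ^ n = a := by
  have hπ := S37B1_irreducible_π A K1
  by_cases hc : c ∈ S18K_O1 A K1
  · exact ⟨0, ⟨c, hc⟩, by simp⟩
  · have hc0 : c ≠ 0 := fun h => hc (h ▸ (S18K_O1 A K1).zero_mem)
    have hci : c⁻¹ ∈ S18K_O1 A K1 := ((S18K_O1 A K1).mem_or_inv_mem c).resolve_left hc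
    have hci0 : (⟨c⁻¹, hci⟩ : S18K_O1 A K1) ≠ 0 := fun h =>
      inv_ne_zero hc0 (congrArg Subtype.val h)
    obtain ⟨n, u, hu⟩ := IsDiscreteValuationRing.eq_unit_mul_pow_irreducible hci0 hπ
    refine ⟨n, ((u⁻¹ : (S18K_O1 A K1)ˣ) : S18K_O1 A K1), ?_⟩
    have h1 : c⁻¹ = ((u : S18K_O1 A K1) : K1) * (((S18K_D A K1).π : S18K_O1 A K1) : K1) ^ n := by
      have := congrArg (fun z : S18K_O1 A K1 => (z : K1)) hu
      simpa using this
    have h2 : ((u : S18K_O1 A K1) : K1) * (((u⁻¹ : (S18K_O1 A K1)ˣ) : S18K_O1 A K1) : K1) = 1 := by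
      have h := congrArg (fun z : S18K_O1 A K1 => (z : K1)) u.mul_inv
      exact h
    have hu0 : ((u : S18K_O1 A K1) : K1) ≠ 0 := left_ne_zero_of_mul_eq_one h2
    have hπ0 : (((S18K_D A K1).π : S18K_O1 A K1) : K1) ^ n ≠ 0 := by
      intro h0
      rw [h0, mul_zero] at h1
      exact inv_ne_zero hc0 h1
    have h3 : c * (((u : S18K_O1 A K1) : K1) * (((S18K_D A K1).π : S18K_O1 A K1) : K1) ^ n) = 1 := by
      rw [← h1, mul_inv_cancel₀ hc0]
    have h4 : (((u⁻¹ : (S18K_O1 A K1)ˣ) : S18K_O1 A K1) : K1) = ((u : S18K_O1 A K1) : K1)⁻¹ :=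
      eq_inv_of_mul_eq_one_right h2
    rw [h4]
    field_simp
    linear_combination h3

/-- **(r2) on one chart**, from the interface facts. -/
theorem S37B1_r2_chart
    (S : Setup (S18K_O A K1) (S18K_π A K1) (S18K_j K1) (S18K_F1 K1 N) (S18K_V A K1 N)
      (S18K_A0 A K1 N) (S18K_Ainf A K1 N))
    (x : LaurentSeries K1) (hx : x = S18K_j K1 ∨ x = (S18K_j K1)⁻¹)
    (As : Subring (LaurentSeries K1))
    (hC : Chart (S18K_O A K1) (S18K_π A K1) x (S18K_F1 K1 N) (S18K_V A K1 N) As)
    (hIG : IG (S18K_π A K1) As)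
    (hκ : ∀ y ∈ S18K_V A K1 N, (S18K_D A K1).redFun y ∈ modularFunctionFieldFullC kA N)
    (hF1 : S37B1_F1 N K1) (hF2 : S37B1_F2 N K1) (hF3 : S37B1_F3 N K1)
    (hF5a : S37B1_F5a N K1 A As) (hF5d : S37B1_F5d N K1 A As)
    (Q : Place kA (modularFunctionFieldFullC kA N)) (hQ : S37B1_InChart N A K1 As Q)
    (T : Finset (Place Qb (modularFunctionFieldBar N)))
    (hT1 : ∀ P ∈ T, S37LEVEL_IsRational N K1 P ∧ S37B1_Centred N A K1 As P Q)
    (y1 : LaurentSeries K1) (hy1 : y1 ∈ S18K_V A K1 N) (hy1r : (S18K_D A K1).redFun y1 ≠ 0)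
    (hT2 : ∀ P', S37B1_ordP N K1 P' y1 ≠ 0 → S37B1_Centred N A K1 As P' Q → P' ∈ T) :
    S37B1_ordQ N Q ((S18K_D A K1).redFun y1) = ∑ P ∈ T, S37B1_ordP N K1 P y1 := by
  classical
  obtain ⟨M, hMmax, hMc⟩ := hF5a Q hQ
  haveI hMp : M.IsPrime := hMmax.isPrime
  have hOA : S18K_O A K1 ≤ As := Chart_O_le S hC
  have hπAs : S18K_π A K1 ∈ As := hOA S.π_mem
  have hredπ0 : (S18K_D A K1).redFun (S18K_π A K1) = 0 := by
    have := (S18K_D A K1).redFun_πK_mul ((S18K_D A K1).Vring.one_mem)
    rwa [mul_one] at this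
  have hπM : (⟨S18K_π A K1, hπAs⟩ : As) ∈ M := (hMc _).2 (Or.inl hredπ0)
  have H : LocHyp (S18K_π A K1) (S18K_V A K1 N) As M := LocHyp_of_chart S hC M (fun _ => hπM)
  haveI hcz : CharZero (LaurentSeries K1) :=
    charZero_of_injective_ringHom (HahnSeries.C : K1 →+* LaurentSeries K1).injective
  haveI hNoeth : IsNoetherianRing As := Fermat.Agent.S18_helper27_CNOETH.S18CNOETH_chart_noetherian S x hx As hC
  have hIGm : IGAt (S18K_π A K1) As M := fun hπ' => hIG hπ' M hMmax hπM
  haveI : IsNoetherianRing (locRing As M) := isNoetherianRing_locRing As M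
  haveI : UniqueFactorizationMonoid (locRing As M) := H.ufd hIGm
  obtain ⟨τ0, hτ0M, hτ0gen⟩ := hIGm hπAs
  have hmaxeq := S37B1_maximalIdeal_eq_span H hπAs τ0 hτ0M hτ0gen
  -- inclusions
  have hRV : ∀ z ∈ locRing As M, z ∈ S18K_V A K1 N := fun z hz => H.locRing_le_V hz
  have hRVr : ∀ z ∈ locRing As M, z ∈ (S18K_D A K1).Vring := fun z hz => (hRV z hz).1
  have hRF : ∀ z ∈ locRing As M, z ∈ modularFunctionFieldFullC K1 N := fun z hz => (hRV z hz).2
  have hfrac : ∀ z ∈ modularFunctionFieldFullC K1 N,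
      ∃ a b : locRing As M, b ≠ 0 ∧ z * (b : LaurentSeries K1) = a := fun z hz =>
    H.exists_frac (S18K_F1 K1 N) S.V_val hz
  have hCR : ∀ c : S18K_O1 A K1, (HahnSeries.C (c : K1) : LaurentSeries K1) ∈ locRing As M :=
    fun c => le_locRing As M (hOA ((S18K_mem_O A K1 _).2 ⟨c, c.2, rfl⟩))
  -- the algebra structures
  let cR : S18K_O1 A K1 →+* locRing As M :=
    ((HahnSeries.C : K1 →+* LaurentSeries K1).comp (S18K_O1 A K1).subtype).codRestrict
      (locRing As M) hCR
  letI algOR : Algebra (S18K_O1 A K1) (locRing As M) := cR.toAlgebra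
  let iK : locRing As M →+* modularFunctionFieldFullC K1 N :=
    (locRing As M).subtype.codRestrict (modularFunctionFieldFullC K1 N) (fun z => hRF z z.2)
  letI algRK : Algebra (locRing As M) (modularFunctionFieldFullC K1 N) := iK.toAlgebra
  have hiK : ∀ z : locRing As M,
      ((algebraMap (locRing As M) (modularFunctionFieldFullC K1 N) z :
        modularFunctionFieldFullC K1 N) : LaurentSeries K1) = (z : LaurentSeries K1) :=
    fun z => rfl
  have hiKinj : Function.Injective
      (algebraMap (locRing As M) (modularFunctionFieldFullC K1 N)) := by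
    intro a b hab
    apply Subtype.ext
    rw [← hiK a, ← hiK b, hab]
  haveI : FaithfulSMul (locRing As M) (modularFunctionFieldFullC K1 N) :=
    (faithfulSMul_iff_algebraMap_injective _ _).2 hiKinj
  haveI : IsFractionRing (locRing As M) (modularFunctionFieldFullC K1 N) := by
    refine IsFractionRing.of_field _ _ fun z => ?_
    obtain ⟨a, b, hb0, hab⟩ := hfrac (z : LaurentSeries K1) z.2
    have hbK : algebraMap (locRing As M) (modularFunctionFieldFullC K1 N) b ≠ 0 := fun h =>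
      hb0 (hiKinj (by rw [h, map_zero]))
    refine ⟨a, b, ?_⟩
    rw [eq_div_iff hbK]
    apply Subtype.ext
    exact hab
  -- the uniformiser and the second generator
  have hπirr := S37B1_irreducible_π A K1
  have hϖeq : algebraMap (S18K_O1 A K1) (locRing As M) (S18K_D A K1).π = H.ϖ := Subtype.ext rfl
  have hϖp : Prime (algebraMap (S18K_O1 A K1) (locRing As M) (S18K_D A K1).π) := by
    rw [hϖeq]; exact H.prime_ϖ
  have hM : IsLocalRing.maximalIdeal (locRing As M) =
      Ideal.span {algebraMap (S18K_O1 A K1) (locRing As M) (S18K_D A K1).π, incl As M τ0} := by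
    rw [hϖeq]; exact hmaxeq
  -- the order functions
  let inc : modularFunctionFieldFullC K1 N →+* modularFunctionFieldBar N :=
    S18A3C_inc N (algebraMap K1 Qb)
  let ord : Place Qb (modularFunctionFieldBar N) → modularFunctionFieldFullC K1 N → ℤ :=
    fun P z => P.ord (inc z)
  have hord : ∀ P (z : modularFunctionFieldFullC K1 N),
      S37B1_ordP N K1 P (z : LaurentSeries K1) = ord P z := fun P z => S37B1_ordP_eq N K1 P z
  have hordR : ∀ P (z : locRing As M), S37B1_ordP N K1 P (z : LaurentSeries K1) =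
      ord P (algebraMap (locRing As M) (modularFunctionFieldFullC K1 N) z) := fun P z =>
    hord P (algebraMap (locRing As M) (modularFunctionFieldFullC K1 N) z)
  have hmul : ∀ P (z z' : modularFunctionFieldFullC K1 N), z ≠ 0 → z' ≠ 0 →
      ord P (z * z') = ord P z + ord P z' := by
    intro P z z' hz hz'
    show P.ord (inc (z * z')) = P.ord (inc z) + P.ord (inc z')
    rw [map_mul]
    exact P.ord_mul ((map_ne_zero inc).2 hz) ((map_ne_zero inc).2 hz')
  have hne : ∀ z : locRing As M, z ≠ 0 ↔ (z : LaurentSeries K1) ≠ 0 := fun z =>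
    not_congr Subtype.ext_iff
  -- nonnegativity on `R` in the two forms
  have hnnconv : ∀ P, (∀ z : locRing As M, z ≠ 0 →
        0 ≤ ord P (algebraMap (locRing As M) (modularFunctionFieldFullC K1 N) z)) →
      ∀ z ∈ locRing As M, z ≠ 0 → 0 ≤ S37B1_ordP N K1 P z := by
    intro P h z hz hz0
    have := h ⟨z, hz⟩ ((hne _).2 hz0)
    rwa [← hordR] at this
  -- the reduction map
  let Fk := modularFunctionFieldFullC kA N
  let red : locRing As M →+* Fk :=
    (((S18K_D A K1).red).comp (Subring.inclusion (fun z hz => hRVr z hz))).codRestrict Fk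
      (fun z => hκ z (hRV z z.2))
  have hredcoe : ∀ z : locRing As M, ((red z : Fk) : LaurentSeries kA) =
      (S18K_D A K1).redFun (z : LaurentSeries K1) := fun z => rfl
  have hredne : ∀ z : locRing As M, red z ≠ 0 ↔
      (S18K_D A K1).redFun (z : LaurentSeries K1) ≠ 0 := by
    intro z
    rw [← hredcoe]
    exact not_congr Subtype.ext_iff
  have hordQ : ∀ z : locRing As M, S37B1_ordQ N Q ((S18K_D A K1).redFun (z : LaurentSeries K1)) =
      Q.ord (red z) := fun z => S37B1_ordQ_eq N Q (red z)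
  have hInCh : ∀ a : As, red (incl As M a) ∈ Q.toValuationSubring := fun a =>
    hQ a a.2 (hκ a (hC.le_V a.2))
  -- elements of `As` outside `M` reduce to units at `Q`
  have hunitQ : ∀ c : As, c ∉ M → red (incl As M c) ≠ 0 ∧ Q.ord (red (incl As M c)) = 0 := by
    intro c hc
    have h1 := (not_congr (hMc c)).1 hc
    push Not at h1
    have h2 : red (incl As M c) ≠ 0 := (hredne _).2 h1.1
    have h3 : ¬ 0 < Q.ord (red (incl As M c)) := by
      rw [← hordQ]; exact not_lt.2 h1.2
    have h4 := Fermat.Agent.S24_helper6_A2.ord_nonneg_of_mem Q (hInCh c)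
    exact ⟨h2, by omega⟩
  -- elements of `R` as fractions
  have hfracR : ∀ z : locRing As M, ∃ a c : As, c ∉ M ∧ z * incl As M c = incl As M a := by
    intro z
    obtain ⟨a, c, hc, hac⟩ := z.2
    exact ⟨a, c, hc, Subtype.ext hac⟩
  -- the element `y`
  have hy1F : y1 ∈ modularFunctionFieldFullC K1 N := hy1.2
  have hy10 : y1 ≠ 0 := by
    rintro rfl
    exact hy1r (S18K_D A K1).redFun_zero
  have hy1inv : y1⁻¹ ∈ S18K_V A K1 N :=
    ⟨(S18K_D A K1).inv_mem_Vring hy1.1 hy1r, (S18K_F1 K1 N).inv_mem hy1.2⟩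
  let y : modularFunctionFieldFullC K1 N := ⟨y1, hy1F⟩
  have hy0 : y ≠ 0 := fun h => hy10 (congrArg Subtype.val h)
  let yb : Fk := ⟨(S18K_D A K1).redFun y1, hκ y1 hy1⟩
  have key := S37B1_R2mid (O1 := S18K_O1 A K1) (K1 := K1) (R := locRing As M)
    (K := modularFunctionFieldFullC K1 N) (Fk := Fk) ord hmul (S18K_D A K1).π hπirr hϖp
    (incl As M τ0) hM (S37LEVEL_IsRational N K1)
    (hval := ?_) (hunif := ?_) (hprime := ?_) (huniq := ?_) T (hT1 := ?_) y hy0 (hT2 := ?_)
    red (hker := ?_) (hredπ := ?_) (fun w => Q.ord w) (fun w w' hw hw' => Q.ord_mul hw hw')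
    (hQ0 := ?_) (hQτ := ?_) yb (hyred := ?_)
  · rw [show S37B1_ordQ N Q ((S18K_D A K1).redFun y1) = Q.ord yb from S37B1_ordQ_eq N Q yb, key]
    exact Finset.sum_congr rfl fun P _ => (hord P y).symm
  · -- hval
    intro P hrat hnn
    obtain ⟨ψ, hψ, hψ0⟩ := hF1 P hrat (locRing As M) hRF (hnnconv P hnn)
    refine ⟨ψ, fun c => hψ (c : K1) (hCR c), fun z hz => ?_⟩
    rw [hψ0 z ((hne z).1 hz), hordR]
  · -- hunif
    intro P
    obtain ⟨t, ht, ht1⟩ := hF2 P
    refine ⟨⟨t, ht⟩, ?_, ?_⟩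
    · rintro h
      have : t = 0 := congrArg Subtype.val h
      subst this
      have h0 : S37B1_ordP N K1 P (0 : LaurentSeries K1) = 0 := by
        rw [show (0 : LaurentSeries K1) = ((0 : modularFunctionFieldFullC K1 N) :
          LaurentSeries K1) from rfl, S37B1_ordP_eq, map_zero, Place.ord_zero]
      omega
    · rw [← hord]; exact ht1
  · -- hprime
    intro p hp hpϖ
    have hpϖ' : ¬ p ∣ H.ϖ := by
      intro hdvd
      apply hpϖ
      rw [hϖeq]
      exact hp.irreducible.associated_of_dvd H.prime_ϖ.irreducible hdvd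
    have hK1 : ∀ c : K1, ∃ s a : locRing As M, ¬ p ∣ s ∧
        (HahnSeries.C c : LaurentSeries K1) * (s : LaurentSeries K1) = a := by
      intro c
      obtain ⟨n, a, hna⟩ := S37B1_exists_pow_mul_mem A K1 c
      refine ⟨H.ϖ ^ n, ⟨HahnSeries.C (a : K1), hCR a⟩, fun hdvd => hpϖ' (hp.dvd_of_dvd_pow hdvd), ?_⟩
      show (HahnSeries.C c : LaurentSeries K1) * ((H.ϖ ^ n : locRing As M) : LaurentSeries K1) =
        HahnSeries.C (a : K1)
      rw [← hna, map_mul, map_pow]
      rfl
    obtain ⟨P', hP'⟩ := hF3 (locRing As M) inferInstance hRF hfrac p hp hK1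
    refine ⟨P', fun z hz => ?_, fun z hz => ?_⟩
    · rw [← hordR]; exact (hP' z ((hne z).1 hz)).1
    · rw [← hordR]; exact (hP' z ((hne z).1 hz)).2
  · -- huniq (helper5: the centre of a rational place is principal, so `R_(g)` is its ring)
    exact Fermat.Agent.S37_helper5_F2F4.S37F24_huniq (N := N) (K1 := K1) (fun c => rfl)
      (S18K_D A K1).π hπirr (incl As M τ0) hM
  · -- hT1
    intro P hP
    obtain ⟨hrat, hcen⟩ := hT1 P hP
    refine ⟨hrat, fun z hz => ?_⟩
    obtain ⟨a, c, hc, hac⟩ := hfracR z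
    have hc0 : (c : LaurentSeries K1) ≠ 0 := coe_ne_zero_of_notMem As M hc
    have ha0 : (a : LaurentSeries K1) ≠ 0 := by
      intro h0
      have h1 : z * incl As M c = 0 := by rw [hac]; exact Subtype.ext h0
      rcases mul_eq_zero.1 h1 with h | h
      · exact hz h
      · exact hc0 (congrArg Subtype.val h)
    have hca := hcen a a.2 ha0
    have hcc := hcen c c.2 hc0
    have hcc0 : S37B1_ordP N K1 P (c : LaurentSeries K1) = 0 := by
      have h1 : ¬ 0 < S37B1_ordP N K1 P (c : LaurentSeries K1) := fun h =>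
        hc ((hMc c).2 (hcc.2 h))
      have h2 := hcc.1
      omega
    have hcR0 : incl As M c ≠ 0 := (hne _).2 hc0
    have h3 := hmul P _ _ ((map_ne_zero_iff _ hiKinj).2 hz) ((map_ne_zero_iff _ hiKinj).2 hcR0)
    rw [← map_mul, hac, ← hordR, ← hordR, ← hordR] at h3
    have h4 : S37B1_ordP N K1 P ((incl As M c : locRing As M) : LaurentSeries K1) = 0 := hcc0
    have h5 : 0 ≤ S37B1_ordP N K1 P ((incl As M a : locRing As M) : LaurentSeries K1) := hca.1
    rw [← hordR]
    omega
  · -- hT2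
    intro P' hP'y hnn
    refine hT2 P' (by rw [hord P' y]; exact hP'y) ?_
    intro a ha ha0
    have h1 : 0 ≤ S37B1_ordP N K1 P' a := hnnconv P' hnn a (le_locRing As M ha) ha0
    refine ⟨h1, fun hpos => ?_⟩
    refine (hMc ⟨a, ha⟩).1 ?_
    by_contra haM
    have hinv : a⁻¹ ∈ locRing As M := inv_mem_locRing As M (c := ⟨a, ha⟩) haM
    have h2 := hnnconv P' hnn a⁻¹ hinv (inv_ne_zero ha0)
    have haF : a ∈ modularFunctionFieldFullC K1 N := hRF a (le_locRing As M ha)
    have h3 : S37B1_ordP N K1 P' a⁻¹ = - S37B1_ordP N K1 P' a := by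
      have e1 := S37B1_ordP_eq N K1 P' (⟨a, haF⟩ : modularFunctionFieldFullC K1 N)⁻¹
      have e2 := S37B1_ordP_eq N K1 P' (⟨a, haF⟩ : modularFunctionFieldFullC K1 N)
      rw [map_inv₀, Place.ord_inv] at e1
      exact e1.trans (congrArg Neg.neg e2.symm)
    omega
  · -- hker
    intro z hz
    rw [hϖeq, H.ϖ_dvd_iff]
    have hz' : (S18K_D A K1).redFun (z : LaurentSeries K1) = 0 := by
      rw [← hredcoe, hz]; rfl
    obtain ⟨v, hv, hzv⟩ := ((S18K_D A K1).redFun_eq_zero_iff (hRVr z z.2)).1 hz'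
    refine ⟨v, ⟨hv, ?_⟩, hzv⟩
    have hπ0 : (S18K_D A K1).πK ≠ 0 := (S18K_D A K1).πK_ne_zero
    have hv' : v = (z : LaurentSeries K1) * ((S18K_D A K1).πK)⁻¹ := by
      rw [hzv]; field_simp
    rw [hv']
    exact (S18K_F1 K1 N).mul_mem (hRF z z.2) ((S18K_F1 K1 N).inv_mem (S.O_le S.π_mem))
  · -- hredπ
    rw [hϖeq]
    apply Subtype.ext
    exact hredπ0
  · -- hQ0
    intro z hz
    obtain ⟨a, c, hc, hac⟩ := hfracR z
    obtain ⟨hc1, hc2⟩ := hunitQ c hc
    have h1 : red z * red (incl As M c) = red (incl As M a) := by rw [← map_mul, hac]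
    have h2 := Q.ord_mul hz hc1
    rw [h1, hc2] at h2
    have h3 := Fermat.Agent.S24_helper6_A2.ord_nonneg_of_mem Q (hInCh a)
    show 0 ≤ Q.ord (red z)
    omega
  · -- hQτ
    have := hF5d Q hQ M hMmax hMc hπAs τ0 hτ0M hτ0gen
    show Q.ord (red (incl As M τ0)) = 1
    rw [← hordQ]
    exact this
  · -- hyred
    obtain ⟨a, b, ha, hb, hb0, hbinv, hab⟩ := H.exists_frac_of_unit hy1 hy1inv hy10
    refine ⟨b, a, by rw [hϖeq]; exact hb, by rw [hϖeq]; exact ha, Subtype.ext hab, ?_⟩
    apply Subtype.ext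
    show (S18K_D A K1).redFun y1 * (S18K_D A K1).redFun (b : LaurentSeries K1) =
      (S18K_D A K1).redFun (a : LaurentSeries K1)
    rw [← (S18K_D A K1).redFun_mul hy1.1 (hRVr b b.2), hab]

end Chart

end Fermat.Agent.S37_helper4_B1R2CHART
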