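import Mathlib
import Fermat.Agent.S37_helper4_B1R2CHART

/-!
# S37, block B1: `IsPlaceReductionModL` from the interface facts

`S37B1_isPlaceReduction`: a map `r` on places which preserves degrees and satisfies the
characterisation by centres `S37B1_DefKey` is a place reduction along `A`, given blocks A + B of
S18 (`S18K_BlocksAB`), KAPPA and the interface facts (F1)-(F5).
-/

set_option autoImplicit false
set_option linter.unusedSectionVars false

open AlgebraicCurve ModularCurve HahnSeries IntermediateField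

noncomputable section

namespace Fermat.Agent.S37_helper4_B1TOP

open Fermat.Agent.S18_helper25_COREDefs Fermat.Agent.S18_helper19_PLACEMOD
  Fermat.Agent.S18_helper13_GAUSS Fermat.Agent.S37_helper5_LEVEL
  Fermat.Agent.S18_helper9_CDefs Fermat.Agent.S37_helper4_B1Defs
  Fermat.Agent.S37_helper4_B1R2CHART

local notation "Qb" => AlgebraicClosure ℚ

/-- the interface facts at all admissible levels -/
structure S37B1_Facts (N : ℕ) [NeZero N] (ℓ : ℕ) (A : ValuationSubring Qb) : Prop where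
  f1 : ∀ K1 : IntermediateField ℚ Qb, S18K_Admissible A K1 ℓ → S37B1_F1 N K1
  f2 : ∀ K1 : IntermediateField ℚ Qb, S18K_Admissible A K1 ℓ → S37B1_F2 N K1
  f3 : ∀ K1 : IntermediateField ℚ Qb, S18K_Admissible A K1 ℓ → S37B1_F3 N K1
  f5a0 : ∀ (K1 : IntermediateField ℚ Qb) (h : S18K_Admissible A K1 ℓ),
    letI := h.dvr
    S37B1_F5a N K1 A (S18K_A0 A K1 N)
  f5ainf : ∀ (K1 : IntermediateField ℚ Qb) (h : S18K_Admissible A K1 ℓ),
    letI := h.dvr
    S37B1_F5a N K1 A (S18K_Ainf A K1 N)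
  f5d0 : ∀ (K1 : IntermediateField ℚ Qb) (h : S18K_Admissible A K1 ℓ),
    letI := h.dvr
    S37B1_F5d N K1 A (S18K_A0 A K1 N)
  f5dinf : ∀ (K1 : IntermediateField ℚ Qb) (h : S18K_Admissible A K1 ℓ),
    letI := h.dvr
    S37B1_F5d N K1 A (S18K_Ainf A K1 N)
  f5e : ∀ (K1 : IntermediateField ℚ Qb) (h : S18K_Admissible A K1 ℓ),
    letI := h.dvr
    S37B1_F5e N K1 A

variable (N : ℕ) [NeZero N] {ℓ : ℕ} (A : ValuationSubring Qb)

/-- coefficientwise comparison of the two reductions of `y` -/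
theorem S37B1_coeffMap_res_eq (K1 : IntermediateField ℚ Qb) (y : LaurentSeries A)
    (y1 : LaurentSeries (S18K_O1 A K1))
    (h : coeffMap (algebraMap K1 Qb) (coeffMap (S18K_O1 A K1).subtype y1) =
      coeffMap A.subtype y) :
    coeffMap (S18K_res A K1) y1 = coeffMap (IsLocalRing.residue A) y := by
  ext n
  rw [coeffMap_coeff, coeffMap_coeff]
  have h1 := congrArg (fun z : LaurentSeries Qb => z.coeff n) h
  simp only [coeffMap_coeff] at h1
  have h2 : S18K_incl A K1 (y1.coeff n) = y.coeff n := Subtype.ext h1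
  rw [S18K_res, RingHom.comp_apply, h2]

/-- `Finsupp.mapDomain` evaluated at a point, as a sum over a fibre. -/
theorem S37B1_mapDomain_apply {α β : Type*} [DecidableEq β] (r : α → β) (D : α →₀ ℤ) (Q : β) :
    Finsupp.mapDomain r D Q = ∑ P ∈ D.support.filter (fun P => r P = Q), D P := by
  classical
  rw [Finsupp.mapDomain, Finsupp.sum_apply, Finsupp.sum, Finset.sum_filter]
  refine Finset.sum_congr rfl fun P _ => ?_
  rw [Finsupp.single_apply]

/-- **B1, (r1) + (r2).** -/
theorem S37B1_isPlaceReduction (hℓ : ℓ.Prime) (hA : A.LiesOverPrime ℓ)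
    (hAB : S18K_BlocksAB A N ℓ)
    (hκ : ∀ (K1 : IntermediateField ℚ Qb) (h : S18K_Admissible A K1 ℓ),
      letI := h.dvr
      ∀ y ∈ S18K_V A K1 N, (S18K_D A K1).redFun y ∈
        modularFunctionFieldFullC (IsLocalRing.ResidueField A) N)
    (hF : S37B1_Facts N ℓ A)
    (r : Place Qb (modularFunctionFieldBar N) →
      Place (IsLocalRing.ResidueField A)
        (modularFunctionFieldFullC (IsLocalRing.ResidueField A) N))
    (hdeg : ∀ P, (r P).deg = P.deg)
    (hkey : S37B1_DefKey N ℓ A (S37LEVEL_IsRational N) r) :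
    IsPlaceReductionModL A N r := by
  classical
  refine ⟨hdeg, ?_⟩
  intro y hy hyk hne D hD Q
  obtain ⟨K1, -, hadm, hrat, y1, hy1F, hy1y⟩ :=
    S37LEVEL_exists_descent N hℓ A hA ∅ D.support y hy
  letI := hadm.dvr
  obtain ⟨S, hIG0, hIGinf⟩ := hAB K1 hadm
  -- the descended element
  set z1 : LaurentSeries K1 := coeffMap (S18K_O1 A K1).subtype y1 with hz1
  have hz1V : z1 ∈ S18K_V A K1 N := ⟨(S18K_D A K1).incS_mem_Vring y1, hy1F⟩
  have hz1red : (S18K_D A K1).redFun z1 = coeffMap (IsLocalRing.residue A) y := by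
    rw [← S37B1_coeffMap_res_eq A K1 y y1 hy1y]
    exact (S18K_D A K1).redFun_incS y1
  have hz1r : (S18K_D A K1).redFun z1 ≠ 0 := by rw [hz1red]; exact hne
  -- orders of `y` at the places of the generic fibre
  have hordD : ∀ P : Place Qb (modularFunctionFieldBar N), S37B1_ordP N K1 P z1 = D P := by
    intro P
    rw [hD P, show z1 = ((⟨z1, hy1F⟩ : modularFunctionFieldFullC K1 N) : LaurentSeries K1) from rfl,
      S37B1_ordP_eq]
    congr 1
    apply Subtype.ext
    exact hy1y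
  have hordQ : S37B1_ordQ N Q ((S18K_D A K1).redFun z1) =
      Q.ord (⟨coeffMap (IsLocalRing.residue A) y, hyk⟩ :
        modularFunctionFieldFullC (IsLocalRing.ResidueField A) N) := by
    rw [show (S18K_D A K1).redFun z1 =
      ((⟨coeffMap (IsLocalRing.residue A) y, hyk⟩ :
        modularFunctionFieldFullC (IsLocalRing.ResidueField A) N) :
          LaurentSeries (IsLocalRing.ResidueField A)) from hz1red, S37B1_ordQ_eq]
  set T : Finset (Place Qb (modularFunctionFieldBar N)) :=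
    D.support.filter (fun P => r P = Q) with hT
  have hmap : Finsupp.mapDomain r D Q = ∑ P ∈ T, S37B1_ordP N K1 P z1 := by
    rw [S37B1_mapDomain_apply]
    exact Finset.sum_congr rfl fun P _ => (hordD P).symm
  rw [hmap, ← hordQ]
  symm
  have hkeyQ := fun P hP => hkey K1 hadm P hP Q
  by_cases hj : 0 ≤ S37B1_ordQ N Q (jqModC (IsLocalRing.ResidueField A))
  · -- the chart `j ≠ ∞`
    refine S37B1_r2_chart N A K1 S (S18K_j K1) (Or.inl rfl) (S18K_A0 A K1 N) S.chart0 hIG0
      (hκ K1 hadm) (hF.f1 K1 hadm) (hF.f2 K1 hadm) (hF.f3 K1 hadm)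
      (hF.f5a0 K1 hadm) (hF.f5d0 K1 hadm) Q ((hF.f5e K1 hadm Q).1 hj) T ?_ z1 hz1V hz1r ?_
    · intro P hP
      rw [hT, Finset.mem_filter] at hP
      exact ⟨hrat P hP.1, ((hkeyQ P (hrat P hP.1)).1 hj).1 hP.2⟩
    · intro P' hP' hcen
      rw [hordD] at hP'
      have hsupp : P' ∈ D.support := Finsupp.mem_support_iff.2 hP'
      rw [hT, Finset.mem_filter]
      exact ⟨hsupp, ((hkeyQ P' (hrat P' hsupp)).1 hj).2 hcen⟩
  · -- the chart `j ≠ 0`
    refine S37B1_r2_chart N A K1 S (S18K_j K1)⁻¹ (Or.inr rfl) (S18K_Ainf A K1 N) S.chartInf hIGinf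
      (hκ K1 hadm) (hF.f1 K1 hadm) (hF.f2 K1 hadm) (hF.f3 K1 hadm)
      (hF.f5ainf K1 hadm) (hF.f5dinf K1 hadm) Q ((hF.f5e K1 hadm Q).2 hj) T ?_ z1 hz1V hz1r ?_
    · intro P hP
      rw [hT, Finset.mem_filter] at hP
      exact ⟨hrat P hP.1, ((hkeyQ P (hrat P hP.1)).2 hj).1 hP.2⟩
    · intro P' hP' hcen
      rw [hordD] at hP'
      have hsupp : P' ∈ D.support := Finsupp.mem_support_iff.2 hP'
      rw [hT, Finset.mem_filter]
      exact ⟨hsupp, ((hkeyQ P' (hrat P' hsupp)).2 hj).2 hcen⟩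

end Fermat.Agent.S37_helper4_B1TOP
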