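import Mathlib
import Fermat.Agent.S37_helper4_B1TOP
import Fermat.Agent.S37_helper20_HGEN
import Fermat.Agent.S18_helper12_TOP
import Fermat.Agent.S37_helper15_HEXF
import Fermat.Agent.S37_helper21_F5e

/-!
# S37, block B1: `ReductionInputsModL` from the interface facts and DEF-KEY

Blocks A + B of S18 and KAPPA are on main, so the only hypotheses left are the interface facts
(F1)-(F5) (`S37B1_Facts`) and the existence of `r` with `S37B1_DefKey`.
-/

set_option autoImplicit false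

open AlgebraicCurve ModularCurve

noncomputable section

namespace Fermat.Agent.S37_helper4_B1FINAL

open Fermat.Agent.S18_helper25_COREDefs Fermat.Agent.S37_helper5_LEVEL
  Fermat.Agent.S37_helper4_B1Defs Fermat.Agent.S37_helper4_B1TOP

/-- **B1.** -/
theorem S37B1_reductionInputs_of_facts (N : ℕ) [NeZero N] {ℓ : ℕ} (hℓ : ℓ.Prime) (hℓN : ¬ ℓ ∣ N)
    (A : ValuationSubring (AlgebraicClosure ℚ)) (hA : A.LiesOverPrime ℓ)
    (hF : S37B1_Facts N ℓ A)
    (hdef : ∃ r : Place (AlgebraicClosure ℚ) (modularFunctionFieldBar N) →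
        Place (IsLocalRing.ResidueField A)
          (modularFunctionFieldFullC (IsLocalRing.ResidueField A) N),
      (∀ P, (r P).deg = P.deg) ∧ S37B1_DefKey N ℓ A (S37LEVEL_IsRational N) r) :
    ReductionInputsModL A N := by
  haveI : Fact ℓ.Prime := ⟨hℓ⟩
  obtain ⟨r, hdeg, hkey⟩ := hdef
  have hAB : S18K_BlocksAB A N ℓ :=
    Fermat.Agent.S18_helper25_FINAL.S18K_blocksAB_of_blockB N hℓN A hA
      (Fermat.Agent.S18_helper12_TOP.S18TOP_blockB N hℓN A hA)
  exact ⟨r, S37B1_isPlaceReduction N A hℓ hA hAB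
      (Fermat.Agent.S37_helper20_HGEN.S37HGEN_hkappa N hℓ hℓN A hA) hF r hdeg hkey,
    Fermat.Agent.S37_helper20_HGEN.S37HGEN_hgen N hℓ hℓN A hA⟩

/-- the interface facts, from (F5a) and (F5d) at the two charts: (F1), (F3) are helper15's
`S37HEXF_F1/F3`, (F2) is helper5's `S37F24_F2`, (F5e) is helper21's `S37F5e_result`. -/
theorem S37B1_facts_of_F5 (N : ℕ) [NeZero N] {ℓ : ℕ}
    (A : ValuationSubring (AlgebraicClosure ℚ))
    (h5a0 : ∀ (K1 : IntermediateField ℚ (AlgebraicClosure ℚ)) (h : S18K_Admissible A K1 ℓ),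
      letI := h.dvr
      S37B1_F5a N K1 A (S18K_A0 A K1 N))
    (h5ainf : ∀ (K1 : IntermediateField ℚ (AlgebraicClosure ℚ)) (h : S18K_Admissible A K1 ℓ),
      letI := h.dvr
      S37B1_F5a N K1 A (S18K_Ainf A K1 N))
    (h5d0 : ∀ (K1 : IntermediateField ℚ (AlgebraicClosure ℚ)) (h : S18K_Admissible A K1 ℓ),
      letI := h.dvr
      S37B1_F5d N K1 A (S18K_A0 A K1 N))
    (h5dinf : ∀ (K1 : IntermediateField ℚ (AlgebraicClosure ℚ)) (h : S18K_Admissible A K1 ℓ),
      letI := h.dvr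
      S37B1_F5d N K1 A (S18K_Ainf A K1 N)) :
    S37B1_Facts N ℓ A where
  f1 := fun K1 _ => Fermat.Agent.S37_helper15_HEXF.S37HEXF_F1 N K1
  f2 := fun K1 _ => Fermat.Agent.S37_helper5_F2F4.S37F24_F2 N K1
  f3 := fun K1 _ => Fermat.Agent.S37_helper15_HEXF.S37HEXF_F3 N K1
  f5a0 := h5a0
  f5ainf := h5ainf
  f5d0 := h5d0
  f5dinf := h5dinf
  f5e := fun K1 h => by
    letI := h.dvr
    exact Fermat.Agent.S37_helper21_F5e.S37F5e_result N K1 A

end Fermat.Agent.S37_helper4_B1FINAL
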