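import Mathlib
import Fermat.Agent.S37_helper4_B1FINAL
import Fermat.Agent.S37_helper2_F5

/-!
# S37, block B1: the interface facts are all on main

`S37B1_facts : S37B1_Facts N ℓ A` (unconditional for `ℓ ∤ N`, `A` over `ℓ`), hence
`S37B1_reductionInputs_of_defKey`: B1 follows from DEF-KEY alone.
-/

set_option autoImplicit false
set_option synthInstance.maxHeartbeats 400000
set_option maxHeartbeats 1600000

open AlgebraicCurve ModularCurve

noncomputable section

namespace Fermat.Agent.S37_helper4_B1FACTS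

open Fermat.Agent.S18_helper25_COREDefs Fermat.Agent.S37_helper5_LEVEL
  Fermat.Agent.S37_helper4_B1Defs Fermat.Agent.S37_helper4_B1TOP
  Fermat.Agent.S37_helper4_B1FINAL Fermat.Agent.S37_helper2_SPFIB

/-- **The interface facts (F1)-(F3), (F5).** -/
theorem S37B1_facts (N : ℕ) [NeZero N] {ℓ : ℕ} (hℓ : ℓ.Prime) (hℓN : ¬ ℓ ∣ N)
    (A : ValuationSubring (AlgebraicClosure ℚ)) (hA : A.LiesOverPrime ℓ) :
    S37B1_Facts N ℓ A := by
  haveI : Fact ℓ.Prime := ⟨hℓ⟩
  have hAB : S18K_BlocksAB A N ℓ :=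
    Fermat.Agent.S18_helper25_FINAL.S18K_blocksAB_of_blockB N hℓN A hA
      (Fermat.Agent.S18_helper12_TOP.S18TOP_blockB N hℓN A hA)
  have hκ := Fermat.Agent.S37_helper20_HGEN.S37HGEN_hkappa N hℓ hℓN A hA
  refine S37B1_facts_of_F5 N A ?_ ?_ ?_ ?_
  · intro K1 h
    letI := h.dvr
    obtain ⟨S, -, -⟩ := hAB K1 h
    exact S37SPF_F5a (hκ K1 h) S h.res_surj S.chart0 (Or.inl rfl)
  · intro K1 h
    letI := h.dvr
    obtain ⟨S, -, -⟩ := hAB K1 h
    exact S37SPF_F5a (hκ K1 h) S h.res_surj S.chartInf (Or.inr rfl)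
  · intro K1 h
    letI := h.dvr
    obtain ⟨S, -, -⟩ := hAB K1 h
    exact S37SPF_F5d (hκ K1 h) S h.res_surj S.chart0 (Or.inl rfl)
  · intro K1 h
    letI := h.dvr
    obtain ⟨S, -, -⟩ := hAB K1 h
    exact S37SPF_F5d (hκ K1 h) S h.res_surj S.chartInf (Or.inr rfl)

/-- **B1 from DEF-KEY.** -/
theorem S37B1_reductionInputs_of_defKey (N : ℕ) [NeZero N] {ℓ : ℕ} (hℓ : ℓ.Prime)
    (hℓN : ¬ ℓ ∣ N) (A : ValuationSubring (AlgebraicClosure ℚ)) (hA : A.LiesOverPrime ℓ)
    (hdef : ∃ r : Place (AlgebraicClosure ℚ) (modularFunctionFieldBar N) →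
        Place (IsLocalRing.ResidueField A)
          (modularFunctionFieldFullC (IsLocalRing.ResidueField A) N),
      (∀ P, (r P).deg = P.deg) ∧ S37B1_DefKey N ℓ A (S37LEVEL_IsRational N) r) :
    ReductionInputsModL A N :=
  S37B1_reductionInputs_of_facts N hℓ hℓN A hA (S37B1_facts N hℓ hℓN A hA) hdef

end Fermat.Agent.S37_helper4_B1FACTS
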