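import Mathlib
import Fermat.Agent.S37_helper4_B1FACTS
import Fermat.Agent.S37_helper11_B1DEFM
import Fermat.Agent.S37_helper27_KAPPA

/-!
# S37, block B1: `ReductionInputsModL A N` for every `A` over a prime `ℓ ∤ N`

Final plug of block B1: the map `r` of helper11 (`S37DEF_defKey`), the interface facts
(`S37B1_facts`), blocks A + B of S18, KAPPA and `hgen`.
-/

set_option autoImplicit false
set_option synthInstance.maxHeartbeats 400000
set_option maxHeartbeats 1600000

open AlgebraicCurve ModularCurve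

noncomputable section

namespace Fermat.Agent.S37_helper4_B1

/-- **Block B1 of S37.** -/
theorem S37B1_reductionInputs (N : ℕ) [NeZero N] {ℓ : ℕ} (hℓ : ℓ.Prime) (hℓN : ¬ ℓ ∣ N)
    (A : ValuationSubring (AlgebraicClosure ℚ)) (hA : A.LiesOverPrime ℓ) :
    ReductionInputsModL A N := by
  haveI : Fact ℓ.Prime := ⟨hℓ⟩
  have hAB : Fermat.Agent.S18_helper25_COREDefs.S18K_BlocksAB A N ℓ :=
    Fermat.Agent.S18_helper25_FINAL.S18K_blocksAB_of_blockB N hℓN A hA
      (Fermat.Agent.S18_helper12_TOP.S18TOP_blockB N hℓN A hA)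
  exact Fermat.Agent.S37_helper4_B1FACTS.S37B1_reductionInputs_of_defKey N hℓ hℓN A hA
    (Fermat.Agent.S37_helper11_B1DEF.S37DEF_defKey N hℓN A hA hAB
      (Fermat.Agent.S37_helper27_KAPPA.S37KAPPA_chart (N := N) ℓ hℓN))

end Fermat.Agent.S37_helper4_B1
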