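import Fermat.Agent.G_helper29_S29W
import Fermat.Agent.G_helper29_S42W
import Fermat.Agent.G_helper29_E1
import Fermat.Agent.G_helper9_FROBDENS
import Fermat.Agent.G_helper6_E2PLUG
import Fermat.Agent.S37_helper4_B1

/-!
# Project G: the three inputs of the wiring, unconditionally (helper29)

* `PGF_FD` : Frobenius density (helper9, `PG_frobenius_density`);
* `PGF_E1` : the Eichler-Shimura relations on `J₀(N)[p]` (S18 + S37 endgame + block B1);
* `PGF_E2` : EigenformSupport (helper6, `PG_E2_all`).

Consequently `PGF_S29` and `PGF_S42` hold without hypotheses.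
-/

set_option autoImplicit false

open Polynomial

namespace Fermat.Agent.G_helper29_FINAL

/-- Frobenius density. -/
theorem PGF_FD : Fermat.Agent.G_helper29_WIRE.PG_FD_statement :=
  fun L _ g S => Fermat.Agent.G_helper9_FROBDENS.PG_frobenius_density L g S

/-- (E1) for all levels and primes. -/
theorem PGF_E1 : Fermat.Agent.G_helper29_S29W.PGS_E1_all :=
  fun N p _ _ => Fermat.Agent.G_helper29_E1.PGE1_of_RI N p
    (fun _ hℓ hℓN A hA => Fermat.Agent.S37_helper4_B1.S37B1_reductionInputs N hℓ hℓN A hA)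

/-- (E2) for all levels, eigenforms, primes and coefficient fields. -/
theorem PGF_E2 : Fermat.Agent.G_helper29_S29W.PGS_E2_all :=
  Fermat.Agent.G_helper6_E2PLUG.PG_E2_all

/-- **The mod `p` Galois representation attached to a normalised eigenform.** -/
theorem PGF_S29 {N : ℕ} {g : CuspForm (CongruenceSubgroup.Gamma0 N) 2}
    (hg : g.IsNormalizedEigenform) {p : ℕ} (hp : p.Prime) {k : Type} [Field k] [CharP k p]
    (φ : integralClosure ℤ ℂ →+* k) :
    ∃ ρ : ResidualGaloisRep k, ρ.IsAttachedTo g φ ∧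
      ∀ ℓ : ℕ, ℓ.Prime → ¬ ℓ ∣ N * p → ρ.IsUnramifiedAt ℓ :=
  Fermat.Agent.G_helper29_S29W.PG_S29_of_inputs PGF_FD PGF_E1 PGF_E2 hg hp φ

/-- **The residual attachment property for every Frey package and level.** -/
theorem PGF_S42 (P : FreyPackage) : ∀ M : ℕ, 0 < M → P.EigenformResidualAttachmentAt M :=
  Fermat.Agent.G_helper29_S42W.PG_S42_of_inputs PGF_FD PGF_E1 PGF_E2 P

end Fermat.Agent.G_helper29_FINAL
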