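import Mathlib
import Fermat.Prelude.Def_AlgebraicCurve_CanonicalDivisor
import Fermat.Agent.S24_helper15_A1

set_option autoImplicit false

open AlgebraicCurve IntermediateField KaehlerDifferential

namespace Fermat.Agent.S24_helper9_A0fin

/-- `F` is finite over `K(t)` as soon as it is algebraic over `K(t)` and finite over some
`K(x)`. -/
theorem A0fin_of_isAlgebraic {K F : Type*} [Field K] [Field F] [Algebra K F] (x : F)
    [FiniteDimensional K⟮x⟯ F] (t : F) (halg : Algebra.IsAlgebraic K⟮t⟯ F) :
    FiniteDimensional K⟮t⟯ F := by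
  set b := Module.finBasis K⟮x⟯ F with hb
  set S : Set F := insert x (Set.range b) with hS
  have hSfin : S.Finite := (Set.finite_range b).insert x
  have : Finite S := hSfin.to_subtype
  have hLfin : FiniteDimensional K⟮t⟯ (IntermediateField.adjoin K⟮t⟯ S) :=
    IntermediateField.finiteDimensional_adjoin (fun z _ => (halg.isAlgebraic z).isIntegral)
  have hxL : x ∈ IntermediateField.adjoin K⟮t⟯ S :=
    IntermediateField.subset_adjoin _ _ (Set.mem_insert _ _)
  have hK : ∀ c : K, algebraMap K F c ∈ IntermediateField.adjoin K⟮t⟯ S := by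
    intro c
    rw [IsScalarTower.algebraMap_apply K K⟮t⟯ F]
    exact IntermediateField.algebraMap_mem _ _
  have hpoly : ∀ p : Polynomial K, Polynomial.aeval x p ∈ IntermediateField.adjoin K⟮t⟯ S := by
    intro p
    rw [Polynomial.aeval_eq_sum_range]
    refine sum_mem fun i _ => ?_
    rw [Algebra.smul_def]
    exact mul_mem (hK _) (pow_mem hxL _)
  have hKx : ∀ y : K⟮x⟯, (y : F) ∈ IntermediateField.adjoin K⟮t⟯ S := by
    rintro ⟨y, hy⟩
    obtain ⟨r, s, rfl⟩ := (IntermediateField.mem_adjoin_simple_iff K y).mp hy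
    exact div_mem (hpoly r) (hpoly s)
  have hLtop : IntermediateField.adjoin K⟮t⟯ S = ⊤ := by
    rw [eq_top_iff]
    intro f _
    rw [← b.sum_repr f]
    refine sum_mem fun i _ => ?_
    rw [Algebra.smul_def]
    exact mul_mem (hKx _)
      (IntermediateField.subset_adjoin _ _ (Set.mem_insert_of_mem _ (Set.mem_range_self i)))
  rw [hLtop] at hLfin
  exact Module.Finite.equiv (IntermediateField.topEquiv (F := K⟮t⟯) (E := F)).toLinearEquiv

theorem A0fin {K F : Type*} [Field K] [Field F] [Algebra K F] (x : F) (hx : Transcendental K x)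
    [FiniteDimensional K⟮x⟯ F] (t : F) (ht : Transcendental K t) : FiniteDimensional K⟮t⟯ F :=
  have _ := hx
  A0fin_of_isAlgebraic x t
    (Fermat.Agent.S24_helper15_A1.isAlgebraic_adjoin_of_transcendental x
      (inferInstance : Algebra.IsAlgebraic K⟮x⟯ F) ht)

theorem SHIFT {K F : Type*} [Field K] [Field F] [Algebra K F] (x : F) (c : K) :
    K⟮x - algebraMap K F c⟯ = K⟮x⟯ ∧ K⟮x⁻¹⟯ = K⟮x⟯ := by
  refine ⟨le_antisymm ?_ ?_, le_antisymm ?_ ?_⟩
  · rw [IntermediateField.adjoin_simple_le_iff]
    exact sub_mem (IntermediateField.mem_adjoin_simple_self K x)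
      (IntermediateField.algebraMap_mem _ c)
  · rw [IntermediateField.adjoin_simple_le_iff]
    have h : x = (x - algebraMap K F c) + algebraMap K F c := by ring
    have h2 : (x - algebraMap K F c) + algebraMap K F c ∈ K⟮x - algebraMap K F c⟯ :=
      add_mem (IntermediateField.mem_adjoin_simple_self K _)
        (IntermediateField.algebraMap_mem _ c)
    rwa [← h] at h2
  · rw [IntermediateField.adjoin_simple_le_iff]
    exact inv_mem (IntermediateField.mem_adjoin_simple_self K x)
  · rw [IntermediateField.adjoin_simple_le_iff]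
    have h2 : (x⁻¹)⁻¹ ∈ K⟮x⁻¹⟯ := inv_mem (IntermediateField.mem_adjoin_simple_self K _)
    rwa [inv_inv] at h2

end Fermat.Agent.S24_helper9_A0fin
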