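import Mathlib
import Fermat.Agent.G_helper6_Contracts
import Fermat.Agent.G_helper21_B0L
import Fermat.Agent.S24_helper9_A0fin
import Fermat.Agent.S24_helper6_A2
import Fermat.Agent.S24_helper15_A1

/-!
# Project G, contract (AN5): a function without zeros and poles is constant

Direct consequence of the fundamental identity `∑_{v ∣ x} ord_v x = [F : K(x)]` (S24 A2) and of
the finiteness of `F_ℂ` over `ℂ(j)` (helper21's B0L).
-/

set_option autoImplicit false
set_option linter.style.haveILetI false

open UpperHalfPlane ModularForm CongruenceSubgroup AlgebraicCurve IntermediateField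
open scoped MatrixGroups ModularForm Manifold TensorProduct
open Fermat.Agent.G_helper6_Defs

namespace Fermat.Agent.G_helper3_AN5

/-- Abstract form: in a function field `F` over an algebraically closed field `K` of
characteristic `0`, finite over `K(j)` for a transcendental `j`, every non-constant element has
a zero. -/
theorem PG_AN5_exists_zero {K F : Type*} [Field K] [Field F] [Algebra K F] [IsAlgClosed K]
    [CharZero K] (j : F) (hj : Transcendental K j) [FiniteDimensional K⟮j⟯ F] (x : F)
    (hx : ¬ ∃ c : K, x = algebraMap K F c) : ∃ v : Place K F, 0 < v.ord x := by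
  have hxt : Transcendental K x := fun halg =>
    hx (Fermat.Agent.S24_helper15_A1.exists_eq_algebraMap_of_isAlgebraic halg)
  haveI : FiniteDimensional K⟮x⟯ F := Fermat.Agent.S24_helper9_A0fin.A0fin j hj x hxt
  have h := Fermat.Agent.S24_helper6_A2.sum_ord_zeros x hxt
  by_contra hno
  have hempty : (Fermat.Agent.S24_helper6_A2.zeros_finite x hxt).toFinset = ∅ := by
    apply Finset.eq_empty_of_forall_notMem
    intro v hv
    rw [Set.Finite.mem_toFinset] at hv
    exact hno ⟨v, hv⟩
  rw [hempty, Finset.sum_empty] at h
  have hpos : 0 < Module.finrank K⟮x⟯ F := Module.finrank_pos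
  omega

/-- Abstract form of (AN5). -/
theorem PG_AN5_const_of_ord_eq_zero {K F : Type*} [Field K] [Field F] [Algebra K F]
    [IsAlgClosed K] [CharZero K] (j : F) (hj : Transcendental K j) [FiniteDimensional K⟮j⟯ F]
    (x : F) (hord : ∀ v : Place K F, v.ord x = 0) : ∃ c : K, x = algebraMap K F c := by
  by_contra hx
  obtain ⟨v, hv⟩ := PG_AN5_exists_zero j hj x hx
  rw [hord v] at hv
  exact lt_irrefl _ hv

theorem PG_G5_an5 (N : ℕ) [NeZero N] : PG_AN5 N := by
  intro x _ hord
  haveI := Fermat.Agent.G_helper21_B0L.PG_B0L_finiteDimensional ℂ N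
  exact PG_AN5_const_of_ord_eq_zero (Fermat.Agent.G_helper21_B0L.PG_B0L_jElt ℂ N)
    (Fermat.Agent.G_helper21_B0L.PG_B0L_transcendental ℂ N) x hord

end Fermat.Agent.G_helper3_AN5
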