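import Mathlib

/-!
# Project G, piece G3: twisted weight-4 Eisenstein series (Mathlib only)

For a character `χ` of `Γ₀(N)` of finite order which is trivial on the elements of trace `±2`
we construct the series `E(z) = 1/2 * ∑ w(v) (v 0 * z + v 1)^(-4)`, the sum running over the
bottom rows `v` of the elements of `Γ₀(N)`, with `w(v) = χ(γ)⁻¹` for any `γ` with bottom row `v`.
-/

open UpperHalfPlane ModularForm CongruenceSubgroup EisensteinSeries Matrix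
open scoped MatrixGroups ModularForm Manifold Topology

namespace Fermat.Agent.G_helper7_EIS

noncomputable section

/-- The bottom row of an element of `SL(2, ℤ)`. -/
def PG_EIS_row (γ : SL(2, ℤ)) : Fin 2 → ℤ := (γ : Matrix (Fin 2) (Fin 2) ℤ) 1

theorem PG_EIS_row_mul (γ δ : SL(2, ℤ)) :
    PG_EIS_row (γ * δ) = PG_EIS_row γ ᵥ* (δ : Matrix (Fin 2) (Fin 2) ℤ) := rfl

theorem PG_EIS_row_one : PG_EIS_row (1 : SL(2, ℤ)) = ![0, 1] := by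
  ext i
  fin_cases i <;> simp [PG_EIS_row]

theorem PG_EIS_vecMul_mul_inv (γ : SL(2, ℤ)) (v : Fin 2 → ℤ) :
    (v ᵥ* (γ : Matrix (Fin 2) (Fin 2) ℤ)) ᵥ* ((γ⁻¹ : SL(2, ℤ)) : Matrix (Fin 2) (Fin 2) ℤ) = v := by
  rw [vecMul_vecMul]
  have : (γ : Matrix (Fin 2) (Fin 2) ℤ) * ((γ⁻¹ : SL(2, ℤ)) : Matrix (Fin 2) (Fin 2) ℤ) = 1 := by
    have h := congrArg (fun A : SL(2, ℤ) => (A : Matrix (Fin 2) (Fin 2) ℤ)) (mul_inv_cancel γ)
    exact h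
  rw [this, vecMul_one]

theorem PG_EIS_vecMul_inv_mul (γ : SL(2, ℤ)) (v : Fin 2 → ℤ) :
    (v ᵥ* ((γ⁻¹ : SL(2, ℤ)) : Matrix (Fin 2) (Fin 2) ℤ)) ᵥ* (γ : Matrix (Fin 2) (Fin 2) ℤ) = v := by
  have := PG_EIS_vecMul_mul_inv γ⁻¹ v
  rwa [inv_inv] at this

/-- Right multiplication by an element of `SL(2, ℤ)` as a permutation of `ℤ²`. -/
def PG_EIS_vecMulEquiv (γ : SL(2, ℤ)) : (Fin 2 → ℤ) ≃ (Fin 2 → ℤ) where
  toFun v := v ᵥ* (γ : Matrix (Fin 2) (Fin 2) ℤ)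
  invFun v := v ᵥ* ((γ⁻¹ : SL(2, ℤ)) : Matrix (Fin 2) (Fin 2) ℤ)
  left_inv v := PG_EIS_vecMul_mul_inv γ v
  right_inv v := PG_EIS_vecMul_inv_mul γ v

@[simp]
theorem PG_EIS_vecMulEquiv_apply (γ : SL(2, ℤ)) (v : Fin 2 → ℤ) :
    PG_EIS_vecMulEquiv γ v = v ᵥ* (γ : Matrix (Fin 2) (Fin 2) ℤ) := rfl

@[simp]
theorem PG_EIS_vecMulEquiv_symm_apply (γ : SL(2, ℤ)) (v : Fin 2 → ℤ) :
    (PG_EIS_vecMulEquiv γ).symm v = v ᵥ* ((γ⁻¹ : SL(2, ℤ)) : Matrix (Fin 2) (Fin 2) ℤ) := rfl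

/-- An element of `SL(2, ℤ)` whose lower left entry vanishes has trace `±2`. -/
theorem PG_EIS_trace_sq_of_row_zero (γ : SL(2, ℤ)) (h : PG_EIS_row γ 0 = 0) :
    ((γ : Matrix (Fin 2) (Fin 2) ℤ)).trace ^ 2 = 4 := by
  have hdet := γ.det_coe
  rw [Matrix.det_fin_two] at hdet
  have hc : (γ : Matrix (Fin 2) (Fin 2) ℤ) 1 0 = 0 := h
  rw [hc, mul_zero, sub_zero] at hdet
  rw [Matrix.trace_fin_two]
  rcases Int.eq_one_or_neg_one_of_mul_eq_one hdet with h1 | h1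
  · have h2 : (γ : Matrix (Fin 2) (Fin 2) ℤ) 1 1 = 1 := by rw [h1, one_mul] at hdet; exact hdet
    rw [h1, h2]; norm_num
  · have h2 : (γ : Matrix (Fin 2) (Fin 2) ℤ) 1 1 = -1 := by
      rw [h1] at hdet; linarith
    rw [h1, h2]; norm_num

variable (N : ℕ) (χ : Gamma0 N →* ℂˣ)

open Classical in
/-- The weight attached to a vector of `ℤ²`: `χ(γ)⁻¹` if `v` is the bottom row of `γ ∈ Γ₀(N)`,
and `0` if `v` is not such a bottom row. -/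
def PG_EIS_w (v : Fin 2 → ℤ) : ℂ :=
  if h : ∃ γ : Gamma0 N, PG_EIS_row (γ : SL(2, ℤ)) = v then (((χ h.choose)⁻¹ : ℂˣ) : ℂ) else 0

variable {N χ}

theorem PG_EIS_w_row
    (hpar : ∀ γ : Gamma0 N,
      ((γ : SL(2, ℤ)) : Matrix (Fin 2) (Fin 2) ℤ).trace ^ 2 = 4 → χ γ = 1)
    (γ : Gamma0 N) : PG_EIS_w N χ (PG_EIS_row (γ : SL(2, ℤ))) = (((χ γ)⁻¹ : ℂˣ) : ℂ) := by
  have hex : ∃ γ' : Gamma0 N, PG_EIS_row (γ' : SL(2, ℤ)) = PG_EIS_row (γ : SL(2, ℤ)) := ⟨γ, rfl⟩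
  rw [PG_EIS_w, dif_pos hex]
  have hrow := hex.choose_spec
  set γ' := hex.choose with hγ'
  have h1 : PG_EIS_row (((γ' * γ⁻¹ : Gamma0 N) : SL(2, ℤ))) = ![0, 1] := by
    have : ((γ' * γ⁻¹ : Gamma0 N) : SL(2, ℤ)) = (γ' : SL(2, ℤ)) * ((γ : SL(2, ℤ)))⁻¹ := rfl
    rw [this, PG_EIS_row_mul, hrow, ← PG_EIS_row_mul, mul_inv_cancel, PG_EIS_row_one]
  have h2 : χ (γ' * γ⁻¹) = 1 :=
    hpar _ (PG_EIS_trace_sq_of_row_zero _ (by rw [h1]; rfl))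
  rw [map_mul, map_inv, mul_inv_eq_one] at h2
  rw [h2]

theorem PG_EIS_w_of_not {v : Fin 2 → ℤ}
    (h : ¬ ∃ γ : Gamma0 N, PG_EIS_row (γ : SL(2, ℤ)) = v) : PG_EIS_w N χ v = 0 := by
  rw [PG_EIS_w, dif_neg h]

theorem PG_EIS_w_vecMul
    (hpar : ∀ γ : Gamma0 N,
      ((γ : SL(2, ℤ)) : Matrix (Fin 2) (Fin 2) ℤ).trace ^ 2 = 4 → χ γ = 1)
    (γ : Gamma0 N) (v : Fin 2 → ℤ) :
    PG_EIS_w N χ (v ᵥ* ((γ : SL(2, ℤ)) : Matrix (Fin 2) (Fin 2) ℤ)) =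
      PG_EIS_w N χ v * (((χ γ)⁻¹ : ℂˣ) : ℂ) := by
  by_cases h : ∃ γ₀ : Gamma0 N, PG_EIS_row (γ₀ : SL(2, ℤ)) = v
  · obtain ⟨γ₀, rfl⟩ := h
    have : PG_EIS_row (γ₀ : SL(2, ℤ)) ᵥ* ((γ : SL(2, ℤ)) : Matrix (Fin 2) (Fin 2) ℤ) =
        PG_EIS_row (((γ₀ * γ : Gamma0 N) : SL(2, ℤ))) := by
      rw [← PG_EIS_row_mul]; rfl
    rw [this, PG_EIS_w_row hpar, PG_EIS_w_row hpar, map_mul, mul_inv, Units.val_mul]
  · have h' : ¬ ∃ γ₁ : Gamma0 N, PG_EIS_row (γ₁ : SL(2, ℤ)) =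
        v ᵥ* ((γ : SL(2, ℤ)) : Matrix (Fin 2) (Fin 2) ℤ) := by
      rintro ⟨γ₁, hγ₁⟩
      apply h
      refine ⟨γ₁ * γ⁻¹, ?_⟩
      have : ((γ₁ * γ⁻¹ : Gamma0 N) : SL(2, ℤ)) = (γ₁ : SL(2, ℤ)) * ((γ : SL(2, ℤ)))⁻¹ := rfl
      rw [this, PG_EIS_row_mul, hγ₁]
      exact (PG_EIS_vecMulEquiv (γ : SL(2, ℤ))).left_inv v
    rw [PG_EIS_w_of_not h, PG_EIS_w_of_not h', zero_mul]

theorem PG_EIS_norm_chi
    (hfin : ∃ n : ℕ, 0 < n ∧ ∀ γ : Gamma0 N, χ γ ^ n = 1) (γ : Gamma0 N) :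
    ‖((χ γ : ℂˣ) : ℂ)‖ = 1 := by
  obtain ⟨n, hn, h⟩ := hfin
  have h1 : ((χ γ : ℂˣ) : ℂ) ^ n = 1 := by
    have := congrArg (fun u : ℂˣ => (u : ℂ)) (h γ)
    simpa using this
  have h2 : ‖((χ γ : ℂˣ) : ℂ)‖ ^ n = 1 := by rw [← norm_pow, h1, norm_one]
  exact (pow_eq_one_iff_of_nonneg (norm_nonneg _) hn.ne').mp h2

theorem PG_EIS_norm_w_le
    (hfin : ∃ n : ℕ, 0 < n ∧ ∀ γ : Gamma0 N, χ γ ^ n = 1) (v : Fin 2 → ℤ) :
    ‖PG_EIS_w N χ v‖ ≤ 1 := by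
  unfold PG_EIS_w
  split_ifs with h
  · rw [Units.val_inv_eq_inv_val, norm_inv, PG_EIS_norm_chi hfin, inv_one]
  · simp

variable (N χ)

/-- The twisted Eisenstein series of weight 4. -/
def PG_EIS_E (z : ℍ) : ℂ := (1 / 2 : ℂ) * ∑' v : Fin 2 → ℤ, PG_EIS_w N χ v * eisSummand 4 v z

variable {N χ}

theorem PG_EIS_norm_term_le
    (hfin : ∃ n : ℕ, 0 < n ∧ ∀ γ : Gamma0 N, χ γ ^ n = 1) (v : Fin 2 → ℤ) (z : ℍ) :
    ‖PG_EIS_w N χ v * eisSummand 4 v z‖ ≤ ‖eisSummand 4 v z‖ := by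
  rw [norm_mul]
  exact mul_le_of_le_one_left (norm_nonneg _) (PG_EIS_norm_w_le hfin v)

theorem PG_EIS_summable
    (hfin : ∃ n : ℕ, 0 < n ∧ ∀ γ : Gamma0 N, χ γ ^ n = 1) (z : ℍ) :
    Summable fun v : Fin 2 → ℤ => PG_EIS_w N χ v * eisSummand 4 v z :=
  Summable.of_norm_bounded (summable_norm_eisSummand (by norm_num) z)
    (fun v => PG_EIS_norm_term_le hfin v z)

/-- Automorphy of the twisted Eisenstein series. -/
theorem PG_EIS_smul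
    (hpar : ∀ γ : Gamma0 N,
      ((γ : SL(2, ℤ)) : Matrix (Fin 2) (Fin 2) ℤ).trace ^ 2 = 4 → χ γ = 1)
    (γ : Gamma0 N) (z : ℍ) :
    PG_EIS_E N χ ((γ : SL(2, ℤ)) • z) =
      (χ γ : ℂ) * denom ((γ : SL(2, ℤ)) : GL (Fin 2) ℝ) z ^ 4 * PG_EIS_E N χ z := by
  unfold PG_EIS_E
  have key : ∀ v : Fin 2 → ℤ,
      PG_EIS_w N χ v * eisSummand 4 v ((γ : SL(2, ℤ)) • z) =
        ((χ γ : ℂ) * denom ((γ : SL(2, ℤ)) : GL (Fin 2) ℝ) z ^ 4) *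
          (PG_EIS_w N χ (PG_EIS_vecMulEquiv (γ : SL(2, ℤ)) v) *
            eisSummand 4 (PG_EIS_vecMulEquiv (γ : SL(2, ℤ)) v) z) := by
    intro v
    rw [eisSummand_SL2_apply, PG_EIS_vecMulEquiv_apply, PG_EIS_w_vecMul hpar]
    have hχ : ((χ γ : ℂˣ) : ℂ) * (((χ γ)⁻¹ : ℂˣ) : ℂ) = 1 := by
      rw [← Units.val_mul, mul_inv_cancel, Units.val_one]
    have hz : denom ((γ : SL(2, ℤ)) : GL (Fin 2) ℝ) z ^ (4 : ℤ) =
        denom ((γ : SL(2, ℤ)) : GL (Fin 2) ℝ) z ^ (4 : ℕ) := by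
      norm_cast
    rw [← hz]
    linear_combination (-(PG_EIS_w N χ v * denom ((γ : SL(2, ℤ)) : GL (Fin 2) ℝ) z ^ (4 : ℤ) *
      eisSummand 4 (v ᵥ* ((γ : SL(2, ℤ)) : Matrix (Fin 2) (Fin 2) ℤ)) z)) * hχ
  simp_rw [key]
  rw [tsum_mul_left, (PG_EIS_vecMulEquiv (γ : SL(2, ℤ))).tsum_eq
    (fun u => PG_EIS_w N χ u * eisSummand 4 u z)]
  ring



theorem PG_EIS_norm_eisSummand_le_strip (u : Fin 2 → ℤ) {A B : ℝ} (hB : 0 < B) {z : ℍ}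
    (hz : z ∈ verticalStrip A B) :
    ‖eisSummand 4 u z‖ ≤ r ⟨⟨A, B⟩, hB⟩ ^ (-4 : ℝ) * ‖u‖ ^ (-4 : ℝ) := by
  have h := summand_bound_of_mem_verticalStrip (k := 4) (by norm_num) u hB hz
  simp only [eisSummand, norm_zpow]
  have e : ‖(u 0 : ℂ) * (z : ℂ) + (u 1 : ℂ)‖ ^ (-4 : ℤ) =
      ‖(u 0 : ℂ) * (z : ℂ) + (u 1 : ℂ)‖ ^ (-4 : ℝ) := by
    rw [← Real.rpow_intCast]; norm_num
  rw [e]
  exact h

theorem PG_EIS_summable_norm_rpow_four :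
    Summable fun u : Fin 2 → ℤ => ‖u‖ ^ (-4 : ℝ) :=
  summable_one_div_norm_rpow (k := 4) (by norm_num)

theorem PG_EIS_summable_norm_rpow_three :
    Summable fun u : Fin 2 → ℤ => ‖u‖ ^ (-3 : ℝ) :=
  summable_one_div_norm_rpow (k := 3) (by norm_num)

/-- Locally uniform convergence of the series. -/
theorem PG_EIS_tendstoLocallyUniformly
    (hfin : ∃ n : ℕ, 0 < n ∧ ∀ γ : Gamma0 N, χ γ ^ n = 1) :
    TendstoLocallyUniformly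
      (fun (s : Finset (Fin 2 → ℤ)) ↦ (∑ x ∈ s, PG_EIS_w N χ x * eisSummand 4 x ·))
      (fun z => ∑' x : Fin 2 → ℤ, PG_EIS_w N χ x * eisSummand 4 x z) Filter.atTop := by
  simp only [tendstoLocallyUniformly_iff_forall_isCompact]
  intro K hK
  obtain ⟨A, B, hB, HABK⟩ := subset_verticalStrip_of_isCompact hK
  refine (tendstoUniformlyOn_tsum
    (hu := PG_EIS_summable_norm_rpow_four.mul_left <| r ⟨⟨A, B⟩, hB⟩ ^ (-4 : ℝ))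
    (fun p z hz ↦ ?_)).mono HABK
  exact (PG_EIS_norm_term_le hfin p z).trans (PG_EIS_norm_eisSummand_le_strip p hB hz)

theorem PG_EIS_tendstoLocallyUniformlyOn
    (hfin : ∃ n : ℕ, 0 < n ∧ ∀ γ : Gamma0 N, χ γ ^ n = 1) :
    TendstoLocallyUniformlyOn
      (fun (s : Finset (Fin 2 → ℤ)) ↦
        ↑ₕ(fun (z : ℍ) ↦ ∑ x ∈ s, PG_EIS_w N χ x * eisSummand 4 x z))
      (↑ₕ(fun z : ℍ => ∑' x : Fin 2 → ℤ, PG_EIS_w N χ x * eisSummand 4 x z))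
      Filter.atTop {z : ℂ | 0 < z.im} := by
  rw [← upperHalfPlaneSet, ← range_coe, ← Set.image_univ]
  apply TendstoLocallyUniformlyOn.comp (s := ⊤) _ _ _ (OpenPartialHomeomorph.continuousOn_symm _)
  · simp only [Set.top_eq_univ, tendstoLocallyUniformlyOn_univ]
    exact PG_EIS_tendstoLocallyUniformly hfin
  · exact fun _ _ => Set.mem_univ _

theorem PG_EIS_mdifferentiable
    (hfin : ∃ n : ℕ, 0 < n ∧ ∀ γ : Gamma0 N, χ γ ^ n = 1) :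
    MDifferentiable 𝓘(ℂ) 𝓘(ℂ) (PG_EIS_E N χ) := by
  rw [UpperHalfPlane.mdifferentiable_iff]
  have h1 : DifferentiableOn ℂ
      (↑ₕ(fun z : ℍ => ∑' x : Fin 2 → ℤ, PG_EIS_w N χ x * eisSummand 4 x z))
      {z : ℂ | 0 < z.im} := by
    refine (PG_EIS_tendstoLocallyUniformlyOn hfin).differentiableOn
      (Filter.Eventually.of_forall fun s ↦ ?_) isOpen_upperHalfPlaneSet
    have : (↑ₕ(fun (z : ℍ) ↦ ∑ x ∈ s, PG_EIS_w N χ x * eisSummand 4 x z)) =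
        fun z : ℂ => ∑ x ∈ s, PG_EIS_w N χ x * (↑ₕ(eisSummand 4 x)) z := by
      funext z
      simp [Function.comp]
    rw [this]
    exact DifferentiableOn.fun_sum fun x _ =>
      (eisSummand_extension_differentiableOn 4 x).const_mul _
  have h2 : (PG_EIS_E N χ ∘ ofComplex) = fun z : ℂ => (1 / 2 : ℂ) *
      (↑ₕ(fun z : ℍ => ∑' x : Fin 2 → ℤ, PG_EIS_w N χ x * eisSummand 4 x z)) z := by
    funext z
    simp [Function.comp, PG_EIS_E]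
  rw [h2]
  exact h1.const_mul _



/-- Translation of rows: `(c, d) ↦ (c, c n + d)`. -/
def PG_EIS_shift (n : ℤ) : (Fin 2 → ℤ) ≃ (Fin 2 → ℤ) where
  toFun u := ![u 0, u 0 * n + u 1]
  invFun u := ![u 0, u 1 - u 0 * n]
  left_inv u := by ext i; fin_cases i <;> simp
  right_inv u := by ext i; fin_cases i <;> simp

@[simp]
theorem PG_EIS_shift_apply_zero (n : ℤ) (u : Fin 2 → ℤ) : PG_EIS_shift n u 0 = u 0 := rfl

@[simp]
theorem PG_EIS_shift_apply_one (n : ℤ) (u : Fin 2 → ℤ) :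
    PG_EIS_shift n u 1 = u 0 * n + u 1 := rfl

theorem PG_EIS_eisSummand_T_zpow (k : ℤ) (u : Fin 2 → ℤ) (n : ℤ) (z : ℍ) :
    eisSummand k u (ModularGroup.T ^ n • z) = eisSummand k (PG_EIS_shift n u) z := by
  simp only [eisSummand, ModularGroup.coe_T_zpow_smul_eq, PG_EIS_shift_apply_zero,
    PG_EIS_shift_apply_one]
  congr 1
  push_cast
  ring

/-- The sum of the absolute values of all Eisenstein summands of weight 4. -/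
def PG_EIS_F (z : ℍ) : ℝ := ∑' u : Fin 2 → ℤ, ‖eisSummand 4 u z‖

theorem PG_EIS_F_T_zpow (n : ℤ) (z : ℍ) :
    PG_EIS_F (ModularGroup.T ^ n • z) = PG_EIS_F z := by
  unfold PG_EIS_F
  simp_rw [PG_EIS_eisSummand_T_zpow]
  exact (PG_EIS_shift n).tsum_eq (fun u => ‖eisSummand 4 u z‖)

theorem PG_EIS_exists_strip (z : ℍ) :
    ∃ n : ℤ, ModularGroup.T ^ n • z ∈ verticalStrip 1 z.im := by
  obtain ⟨n, hn⟩ := ModularGroup_T_zpow_mem_verticalStrip z (N := 1) one_pos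
  refine ⟨n, ?_⟩
  simpa using hn

theorem PG_EIS_F_le (z : ℍ) (hz : 2 ≤ z.im) :
    PG_EIS_F z ≤ ∑' u : Fin 2 → ℤ, r ⟨⟨1, 2⟩, two_pos⟩ ^ (-4 : ℝ) * ‖u‖ ^ (-4 : ℝ) := by
  obtain ⟨n, hn⟩ := PG_EIS_exists_strip z
  rw [← PG_EIS_F_T_zpow n z]
  unfold PG_EIS_F
  refine (summable_norm_eisSummand (by norm_num) _).tsum_le_tsum (fun u => ?_)
    (PG_EIS_summable_norm_rpow_four.mul_left _)
  exact PG_EIS_norm_eisSummand_le_strip u two_pos (verticalStrip_anti_right 1 hz hn)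

theorem PG_EIS_slash_apply
    (σ : SL(2, ℤ)) (z : ℍ) :
    (PG_EIS_E N χ ∣[(4 : ℤ)] σ) z =
      (1 / 2 : ℂ) * ∑' v : Fin 2 → ℤ,
        PG_EIS_w N χ v * eisSummand 4 (PG_EIS_vecMulEquiv σ v) z := by
  rw [SL_slash_apply, PG_EIS_E]
  simp_rw [eisSummand_SL2_apply, PG_EIS_vecMulEquiv_apply]
  have hd : denom (σ : GL (Fin 2) ℝ) z ≠ 0 := denom_ne_zero _ z
  have key : ∀ v : Fin 2 → ℤ, PG_EIS_w N χ v *
      (denom (σ : GL (Fin 2) ℝ) z ^ (4 : ℤ) *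
        eisSummand 4 (v ᵥ* (σ : Matrix (Fin 2) (Fin 2) ℤ)) z) =
      denom (σ : GL (Fin 2) ℝ) z ^ (4 : ℤ) *
        (PG_EIS_w N χ v * eisSummand 4 (v ᵥ* (σ : Matrix (Fin 2) (Fin 2) ℤ)) z) := by
    intro v; ring
  simp_rw [key]
  rw [tsum_mul_left]
  have h4 : denom (σ : GL (Fin 2) ℝ) z ^ (4 : ℤ) * denom (σ : GL (Fin 2) ℝ) z ^ (-(4 : ℤ)) = 1 := by
    rw [← zpow_add₀ hd]; simp
  linear_combination ((1 / 2 : ℂ) *
    ∑' v : Fin 2 → ℤ, PG_EIS_w N χ v * eisSummand 4 (v ᵥ* (σ : Matrix (Fin 2) (Fin 2) ℤ)) z) * h4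

theorem PG_EIS_norm_w_mul_le
    (hfin : ∃ n : ℕ, 0 < n ∧ ∀ γ : Gamma0 N, χ γ ^ n = 1) (v : Fin 2 → ℤ) (x : ℂ) :
    ‖PG_EIS_w N χ v * x‖ ≤ ‖x‖ := by
  rw [norm_mul]
  exact mul_le_of_le_one_left (norm_nonneg _) (PG_EIS_norm_w_le hfin v)

theorem PG_EIS_norm_slash_le
    (hfin : ∃ n : ℕ, 0 < n ∧ ∀ γ : Gamma0 N, χ γ ^ n = 1) (σ : SL(2, ℤ)) (z : ℍ) :
    ‖(PG_EIS_E N χ ∣[(4 : ℤ)] σ) z‖ ≤ 1 / 2 * PG_EIS_F z := by
  rw [PG_EIS_slash_apply, norm_mul]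
  have h2 : ‖(1 / 2 : ℂ)‖ = 1 / 2 := by norm_num
  rw [h2]
  refine mul_le_mul_of_nonneg_left ?_ (by norm_num)
  have hs : Summable fun v : Fin 2 → ℤ => ‖eisSummand 4 (PG_EIS_vecMulEquiv σ v) z‖ :=
    (PG_EIS_vecMulEquiv σ).summable_iff.mpr (summable_norm_eisSummand (by norm_num) z)
  have hs' : Summable fun v : Fin 2 → ℤ =>
      ‖PG_EIS_w N χ v * eisSummand 4 (PG_EIS_vecMulEquiv σ v) z‖ :=
    Summable.of_nonneg_of_le (fun _ => norm_nonneg _)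
      (fun v => PG_EIS_norm_w_mul_le hfin v _) hs
  calc ‖∑' v : Fin 2 → ℤ, PG_EIS_w N χ v * eisSummand 4 (PG_EIS_vecMulEquiv σ v) z‖
      ≤ ∑' v : Fin 2 → ℤ, ‖PG_EIS_w N χ v * eisSummand 4 (PG_EIS_vecMulEquiv σ v) z‖ :=
        norm_tsum_le_tsum_norm hs'
    _ ≤ ∑' v : Fin 2 → ℤ, ‖eisSummand 4 (PG_EIS_vecMulEquiv σ v) z‖ :=
        hs'.tsum_le_tsum (fun v => PG_EIS_norm_w_mul_le hfin v _) hs
    _ = PG_EIS_F z := (PG_EIS_vecMulEquiv σ).tsum_eq (fun u => ‖eisSummand 4 u z‖)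

theorem PG_EIS_isBoundedAtImInfty
    (hfin : ∃ n : ℕ, 0 < n ∧ ∀ γ : Gamma0 N, χ γ ^ n = 1) (σ : SL(2, ℤ)) :
    IsBoundedAtImInfty (PG_EIS_E N χ ∣[(4 : ℤ)] σ) := by
  rw [UpperHalfPlane.isBoundedAtImInfty_iff]
  refine ⟨1 / 2 * ∑' u : Fin 2 → ℤ, r ⟨⟨1, 2⟩, two_pos⟩ ^ (-4 : ℝ) * ‖u‖ ^ (-4 : ℝ), 2,
    fun z hz => ?_⟩
  exact (PG_EIS_norm_slash_le hfin σ z).trans
    (mul_le_mul_of_nonneg_left (PG_EIS_F_le z hz) (by norm_num))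

/-- The absolute value of an Eisenstein summand with `c ≠ 0` (and `0` if `c = 0`). -/
def PG_EIS_g (u : Fin 2 → ℤ) (z : ℍ) : ℝ := if u 0 = 0 then 0 else ‖eisSummand 4 u z‖

theorem PG_EIS_g_nonneg (u : Fin 2 → ℤ) (z : ℍ) : 0 ≤ PG_EIS_g u z := by
  unfold PG_EIS_g
  split_ifs
  · exact le_rfl
  · exact norm_nonneg _

theorem PG_EIS_g_le (u : Fin 2 → ℤ) (z : ℍ) : PG_EIS_g u z ≤ ‖eisSummand 4 u z‖ := by
  unfold PG_EIS_g
  split_ifs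
  · exact norm_nonneg _
  · exact le_rfl

theorem PG_EIS_summable_g (z : ℍ) : Summable fun u : Fin 2 → ℤ => PG_EIS_g u z :=
  Summable.of_nonneg_of_le (fun u => PG_EIS_g_nonneg u z) (fun u => PG_EIS_g_le u z)
    (summable_norm_eisSummand (by norm_num) z)

/-- The sum of the absolute values of the Eisenstein summands with `c ≠ 0`. -/
def PG_EIS_G (z : ℍ) : ℝ := ∑' u : Fin 2 → ℤ, PG_EIS_g u z

theorem PG_EIS_g_T_zpow (u : Fin 2 → ℤ) (n : ℤ) (z : ℍ) :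
    PG_EIS_g u (ModularGroup.T ^ n • z) = PG_EIS_g (PG_EIS_shift n u) z := by
  unfold PG_EIS_g
  rw [PG_EIS_eisSummand_T_zpow, PG_EIS_shift_apply_zero]

theorem PG_EIS_G_T_zpow (n : ℤ) (z : ℍ) :
    PG_EIS_G (ModularGroup.T ^ n • z) = PG_EIS_G z := by
  unfold PG_EIS_G
  simp_rw [PG_EIS_g_T_zpow]
  exact (PG_EIS_shift n).tsum_eq (fun u => PG_EIS_g u z)

theorem PG_EIS_g_le_strip (u : Fin 2 → ℤ) {z : ℍ} (hz : z ∈ verticalStrip 1 1) :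
    PG_EIS_g u z ≤ (z.im)⁻¹ * (r ⟨⟨1, 1⟩, one_pos⟩ ^ (-3 : ℝ) * ‖u‖ ^ (-3 : ℝ)) := by
  have him : 0 < z.im := z.im_pos
  have hr : 0 < r ⟨⟨1, 1⟩, one_pos⟩ := r_pos _
  unfold PG_EIS_g
  split_ifs with h0
  · positivity
  · have h3 := summand_bound_of_mem_verticalStrip (k := 3) (by norm_num) u one_pos hz
    set t := ‖(u 0 : ℂ) * (z : ℂ) + (u 1 : ℂ)‖ with ht
    have hu0 : (1 : ℝ) ≤ |(u 0 : ℝ)| := by
      have : (1 : ℤ) ≤ |u 0| := Int.one_le_abs h0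
      exact_mod_cast this
    have htim : z.im ≤ t := by
      have h1 : |((u 0 : ℂ) * (z : ℂ) + (u 1 : ℂ)).im| ≤ t := Complex.abs_im_le_norm _
      have h2 : ((u 0 : ℂ) * (z : ℂ) + (u 1 : ℂ)).im = (u 0 : ℝ) * z.im := by
        simp
      rw [h2, abs_mul, abs_of_pos him] at h1
      calc z.im = 1 * z.im := (one_mul _).symm
        _ ≤ |(u 0 : ℝ)| * z.im := mul_le_mul_of_nonneg_right hu0 him.le
        _ ≤ t := h1
    have htpos : 0 < t := lt_of_lt_of_le him htim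
    have e : ‖eisSummand 4 u z‖ = t⁻¹ * t ^ (-3 : ℝ) := by
      simp only [eisSummand, norm_zpow]
      rw [← ht]
      have e3 : t ^ (-3 : ℝ) = t ^ (-3 : ℤ) := by
        rw [← Real.rpow_intCast]; norm_num
      rw [e3, ← _root_.zpow_neg_one, ← zpow_add₀ htpos.ne']
      norm_num
    rw [e]
    have hinv : t⁻¹ ≤ (z.im)⁻¹ := inv_anti₀ him htim
    exact mul_le_mul hinv h3 (by positivity) (by positivity)

theorem PG_EIS_G_le (z : ℍ) (hz : 1 ≤ z.im) :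
    PG_EIS_G z ≤ (z.im)⁻¹ *
      ∑' u : Fin 2 → ℤ, r ⟨⟨1, 1⟩, one_pos⟩ ^ (-3 : ℝ) * ‖u‖ ^ (-3 : ℝ) := by
  obtain ⟨n, hn⟩ := PG_EIS_exists_strip z
  have hn' : ModularGroup.T ^ n • z ∈ verticalStrip 1 1 := verticalStrip_anti_right 1 hz hn
  have him : (ModularGroup.T ^ n • z).im = z.im := ModularGroup.im_T_zpow_smul z n
  rw [← PG_EIS_G_T_zpow n z, ← tsum_mul_left, ← him]
  unfold PG_EIS_G
  exact (PG_EIS_summable_g _).tsum_le_tsum (fun u => PG_EIS_g_le_strip u hn')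
    ((PG_EIS_summable_norm_rpow_three.mul_left _).mul_left _)

theorem PG_EIS_w_zero_one
    (hpar : ∀ γ : Gamma0 N,
      ((γ : SL(2, ℤ)) : Matrix (Fin 2) (Fin 2) ℤ).trace ^ 2 = 4 → χ γ = 1) :
    PG_EIS_w N χ ![0, 1] = 1 := by
  have h := PG_EIS_w_row hpar (1 : Gamma0 N)
  have h1 : PG_EIS_row (((1 : Gamma0 N) : SL(2, ℤ))) = ![0, 1] := PG_EIS_row_one
  rw [h1] at h
  rw [h, map_one, inv_one, Units.val_one]

theorem PG_EIS_neg_one_mem : (-1 : SL(2, ℤ)) ∈ Gamma0 N := by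
  rw [Gamma0_mem]
  simp

theorem PG_EIS_row_neg_one : PG_EIS_row (-1 : SL(2, ℤ)) = ![0, -1] := by
  ext i
  fin_cases i <;> simp [PG_EIS_row]

theorem PG_EIS_w_zero_neg_one
    (hpar : ∀ γ : Gamma0 N,
      ((γ : SL(2, ℤ)) : Matrix (Fin 2) (Fin 2) ℤ).trace ^ 2 = 4 → χ γ = 1) :
    PG_EIS_w N χ ![0, -1] = 1 := by
  have h := PG_EIS_w_row hpar (⟨-1, PG_EIS_neg_one_mem⟩ : Gamma0 N)
  have h1 : PG_EIS_row (((⟨-1, PG_EIS_neg_one_mem⟩ : Gamma0 N) : SL(2, ℤ))) = ![0, -1] :=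
    PG_EIS_row_neg_one
  rw [h1] at h
  have h2 : χ (⟨-1, PG_EIS_neg_one_mem⟩ : Gamma0 N) = 1 := by
    apply hpar
    apply PG_EIS_trace_sq_of_row_zero
    show PG_EIS_row (-1 : SL(2, ℤ)) 0 = 0
    rw [PG_EIS_row_neg_one]; rfl
  rw [h, h2, inv_one, Units.val_one]

theorem PG_EIS_w_eq_zero_of_zero (v : Fin 2 → ℤ) (h0 : v 0 = 0) (h1 : v ≠ ![0, 1])
    (h2 : v ≠ ![0, -1]) : PG_EIS_w N χ v = 0 := by
  apply PG_EIS_w_of_not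
  rintro ⟨γ, rfl⟩
  have hdet := (γ : SL(2, ℤ)).det_coe
  rw [Matrix.det_fin_two] at hdet
  have hc : ((γ : SL(2, ℤ)) : Matrix (Fin 2) (Fin 2) ℤ) 1 0 = 0 := h0
  rw [hc, mul_zero, sub_zero] at hdet
  rcases Int.eq_one_or_neg_one_of_mul_eq_one' hdet with ⟨-, hd⟩ | ⟨-, hd⟩
  · apply h1
    ext i
    fin_cases i
    · exact hc
    · exact hd
  · apply h2
    ext i
    fin_cases i
    · exact hc
    · exact hd

theorem PG_EIS_eisSummand_zero_one (z : ℍ) : eisSummand 4 ![0, 1] z = 1 := by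
  simp [eisSummand]

theorem PG_EIS_eisSummand_zero_neg_one (z : ℍ) : eisSummand 4 ![0, -1] z = 1 := by
  simp [eisSummand]
  norm_num

theorem PG_EIS_norm_sub_one_le
    (hfin : ∃ n : ℕ, 0 < n ∧ ∀ γ : Gamma0 N, χ γ ^ n = 1)
    (hpar : ∀ γ : Gamma0 N,
      ((γ : SL(2, ℤ)) : Matrix (Fin 2) (Fin 2) ℤ).trace ^ 2 = 4 → χ γ = 1) (z : ℍ) :
    ‖PG_EIS_E N χ z - 1‖ ≤ 1 / 2 * PG_EIS_G z := by
  classical
  set e₁ : Fin 2 → ℤ := ![0, 1] with he₁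
  set e₂ : Fin 2 → ℤ := ![0, -1] with he₂
  have hne : e₁ ≠ e₂ := by
    intro h
    have := congrFun h 1
    simp [he₁, he₂] at this
  set f : (Fin 2 → ℤ) → ℂ := fun v => PG_EIS_w N χ v * eisSummand 4 v z with hf
  set d₁ : (Fin 2 → ℤ) → ℂ := fun v => if v = e₁ then 1 else 0 with hd₁
  set d₂ : (Fin 2 → ℤ) → ℂ := fun v => if v = e₂ then 1 else 0 with hd₂
  have hsf : Summable f := PG_EIS_summable hfin z
  have hs1 : Summable d₁ := (hasSum_ite_eq e₁ (1 : ℂ)).summable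
  have hs2 : Summable d₂ := (hasSum_ite_eq e₂ (1 : ℂ)).summable
  have ht1 : ∑' v, d₁ v = 1 := tsum_ite_eq e₁ (fun _ => (1 : ℂ))
  have ht2 : ∑' v, d₂ v = 1 := tsum_ite_eq e₂ (fun _ => (1 : ℂ))
  have hsum : ∑' v, (f v - d₁ v - d₂ v) = ∑' v, f v - 1 - 1 := by
    rw [(hsf.sub hs1).tsum_sub hs2, hsf.tsum_sub hs1, ht1, ht2]
  have hE : PG_EIS_E N χ z - 1 = (1 / 2 : ℂ) * ∑' v, (f v - d₁ v - d₂ v) := by
    rw [hsum, PG_EIS_E]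
    ring
  have hbound : ∀ v, ‖f v - d₁ v - d₂ v‖ ≤ PG_EIS_g v z := by
    intro v
    by_cases h1 : v = e₁
    · have : f v - d₁ v - d₂ v = 0 := by
        simp only [hf, hd₁, hd₂, h1, if_pos, if_neg hne]
        rw [he₁, PG_EIS_w_zero_one hpar, PG_EIS_eisSummand_zero_one]
        simp
      rw [this, norm_zero]
      exact PG_EIS_g_nonneg v z
    · by_cases h2 : v = e₂
      · have : f v - d₁ v - d₂ v = 0 := by
          simp only [hf, hd₁, hd₂, h2, if_pos, if_neg hne.symm]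
          rw [he₂, PG_EIS_w_zero_neg_one hpar, PG_EIS_eisSummand_zero_neg_one]
          simp
        rw [this, norm_zero]
        exact PG_EIS_g_nonneg v z
      · have : f v - d₁ v - d₂ v = f v := by
          simp only [hd₁, hd₂, if_neg h1, if_neg h2, sub_zero]
        rw [this]
        by_cases h0 : v 0 = 0
        · have hw : PG_EIS_w N χ v = 0 := PG_EIS_w_eq_zero_of_zero v h0 h1 h2
          simp only [hf, hw, zero_mul, norm_zero]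
          exact PG_EIS_g_nonneg v z
        · have : PG_EIS_g v z = ‖eisSummand 4 v z‖ := by
            unfold PG_EIS_g; rw [if_neg h0]
          rw [this]
          exact PG_EIS_norm_w_mul_le hfin v _
  have hsn : Summable fun v => ‖f v - d₁ v - d₂ v‖ :=
    Summable.of_nonneg_of_le (fun _ => norm_nonneg _) hbound (PG_EIS_summable_g z)
  rw [hE, norm_mul]
  have h2 : ‖(1 / 2 : ℂ)‖ = 1 / 2 := by norm_num
  rw [h2]
  refine mul_le_mul_of_nonneg_left ?_ (by norm_num)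
  calc ‖∑' v, (f v - d₁ v - d₂ v)‖ ≤ ∑' v, ‖f v - d₁ v - d₂ v‖ := norm_tsum_le_tsum_norm hsn
    _ ≤ ∑' v, PG_EIS_g v z := hsn.tsum_le_tsum hbound (PG_EIS_summable_g z)

theorem PG_EIS_tendsto
    (hfin : ∃ n : ℕ, 0 < n ∧ ∀ γ : Gamma0 N, χ γ ^ n = 1)
    (hpar : ∀ γ : Gamma0 N,
      ((γ : SL(2, ℤ)) : Matrix (Fin 2) (Fin 2) ℤ).trace ^ 2 = 4 → χ γ = 1) :
    Filter.Tendsto (PG_EIS_E N χ) atImInfty (nhds 1) := by
  set C : ℝ := ∑' u : Fin 2 → ℤ, r ⟨⟨1, 1⟩, one_pos⟩ ^ (-3 : ℝ) * ‖u‖ ^ (-3 : ℝ) with hC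
  have hC0 : 0 ≤ C := tsum_nonneg fun u => by
    have := r_pos ⟨⟨1, 1⟩, one_pos⟩
    positivity
  rw [Metric.tendsto_nhds]
  intro ε hε
  rw [Filter.Eventually, atImInfty_mem]
  refine ⟨max 1 (C / ε + 1), fun z hz => ?_⟩
  have hz1 : 1 ≤ z.im := le_trans (le_max_left _ _) hz
  have hz2 : C / ε + 1 ≤ z.im := le_trans (le_max_right _ _) hz
  have him : 0 < z.im := z.im_pos
  show dist (PG_EIS_E N χ z) 1 < ε
  rw [dist_eq_norm]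
  have h1 := PG_EIS_norm_sub_one_le hfin hpar z
  have h2 := PG_EIS_G_le z hz1
  have h3 : (z.im)⁻¹ * C < ε := by
    rw [inv_mul_lt_iff₀ him]
    have : C / ε < z.im := by linarith
    rw [div_lt_iff₀ hε] at this
    linarith
  have hG : 0 ≤ PG_EIS_G z := tsum_nonneg fun u => PG_EIS_g_nonneg u z
  calc ‖PG_EIS_E N χ z - 1‖ ≤ 1 / 2 * PG_EIS_G z := h1
    _ ≤ PG_EIS_G z := by linarith
    _ ≤ (z.im)⁻¹ * C := h2
    _ < ε := h3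


/-- **G3 (twisted Eisenstein series).** For a character `χ` of `Γ₀(N)` of finite order which is
trivial on the elements of trace `±2` there is a holomorphic function `E` on the upper half plane
with `E(γ z) = χ(γ) (c z + d)^4 E(z)` for `γ ∈ Γ₀(N)`, `E → 1` at `i∞`, and all of whose
slashes of weight 4 by elements of `SL(2, ℤ)` are bounded at `i∞`. -/
theorem PG_exists_twisted_eisenstein (N : ℕ) [NeZero N] (χ : Gamma0 N →* ℂˣ)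
    (hfin : ∃ n : ℕ, 0 < n ∧ ∀ γ : Gamma0 N, χ γ ^ n = 1)
    (hpar : ∀ γ : Gamma0 N,
      ((γ : SL(2, ℤ)) : Matrix (Fin 2) (Fin 2) ℤ).trace ^ 2 = 4 → χ γ = 1) :
    ∃ E : ℍ → ℂ, MDifferentiable 𝓘(ℂ) 𝓘(ℂ) E ∧
      (∀ (γ : Gamma0 N) (z : ℍ),
        E ((γ : SL(2, ℤ)) • z) = (χ γ : ℂ) * denom ((γ : SL(2, ℤ)) : GL (Fin 2) ℝ) z ^ 4 * E z) ∧
      Filter.Tendsto E atImInfty (nhds 1) ∧
      (∀ σ : SL(2, ℤ), IsBoundedAtImInfty (E ∣[(4 : ℤ)] σ)) :=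
  ⟨PG_EIS_E N χ, PG_EIS_mdifferentiable hfin, PG_EIS_smul hpar, PG_EIS_tendsto hfin hpar,
    PG_EIS_isBoundedAtImInfty hfin⟩

end

end Fermat.Agent.G_helper7_EIS
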