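import Fermat.Agent.G_helper6_Contracts
import Fermat.Agent.G_helper7_EIS

/-!
# Project G, piece G3w: the twisted Eisenstein series in the contract shape `PG_EIS`
-/

set_option autoImplicit false

open UpperHalfPlane ModularForm CongruenceSubgroup AlgebraicCurve
open scoped MatrixGroups ModularForm Manifold TensorProduct
open Fermat.Agent.G_helper6_Defs

namespace Fermat.Agent.G_helper7_EISWRAP

open Fermat.Agent.G_helper7_EIS

/-- The explicit twisted Eisenstein series is a form of weight 4 with character `χ`. -/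
theorem PG_EISWRAP_isForm (N : ℕ) (χ : Gamma0 N →* ℂˣ) (hχ : PG_IsGoodChar N χ) :
    PG_IsForm N 4 χ (PG_EIS_E N χ) where
  holo := PG_EIS_mdifferentiable hχ.fin
  aut γ z := by
    rw [PG_EIS_smul hχ.par γ z]
    norm_cast
  bdd := PG_EIS_isBoundedAtImInfty hχ.fin

theorem PG_EISWRAP_tendsto (N : ℕ) (χ : Gamma0 N →* ℂˣ) (hχ : PG_IsGoodChar N χ) :
    Filter.Tendsto (PG_EIS_E N χ) atImInfty (nhds 1) :=
  PG_EIS_tendsto hχ.fin hχ.par

/-- **G3 in contract form.** -/
theorem PG_G3 (N : ℕ) [NeZero N] : PG_EIS N :=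
  fun χ hχ => ⟨PG_EIS_E N χ, PG_EISWRAP_isForm N χ hχ, PG_EISWRAP_tendsto N χ hχ⟩

end Fermat.Agent.G_helper7_EISWRAP
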