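import Fermat.Agent.G_helper6_GE2
import Fermat.Agent.G_helper6_E2FINAL
import Fermat.Agent.G_helper29_S29W
import Fermat.Agent.G_helper7_EISWRAP
import Fermat.Agent.G_helper3_G8aROOT
import Fermat.Agent.G_helper21_B0L
import Fermat.Agent.G_helper24_G1cCOMM2
import Fermat.Agent.G_helper16_G5f

/-!
# Project G: the input (E2) of the S29 wiring, from the analytic pieces

`PG_E2ALL_of_pieces` proves `PGS_E2_all` (the input (E2) of `PG_S29_of_inputs` and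
`PG_S42_of_inputs`) from the pieces of Project G which are not yet on main, each one in its
contract shape, citing everything which is already on main (G3, G5 (an2, an4, an5), G8a, G1c,
G7-B0L, GE2-ASSEMBLY, GE2-FINAL).
-/

set_option autoImplicit false
set_option linter.style.haveILetI false
set_option linter.unusedVariables false

open UpperHalfPlane ModularForm CongruenceSubgroup AlgebraicCurve
open scoped MatrixGroups ModularForm Manifold TensorProduct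
open Fermat.Agent.G_helper6_Defs

noncomputable section

namespace Fermat.Agent.G_helper6_E2ALL

/-- The contract shape of G4. -/
def PG_E2ALL_G4 : Prop := ∀ (N : ℕ) [NeZero N], PG_AN1 N

/-- The contract shape of G5 (an3). -/
def PG_E2ALL_AN3 : Prop := ∀ (N p : ℕ) [NeZero N], p.Prime → PG_AN3 N p

/-- The contract shape of G6. -/
def PG_E2ALL_G6 : Prop :=
  ∀ (N p : ℕ) [NeZero N], p.Prime → ∀ [HasPrincipalDivisors ℂ (PG_FC N)],
    PG_EIS N → PG_AN1 N → PG_AN2 N → PG_AN3 N p → PG_AN5 N →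
      ∃ Θ : PG_M N →+ PG_JC N, PG_THETA N p Θ

/-- The contract shape of G7. -/
def PG_E2ALL_G7 : Prop :=
  ∀ (N p ℓ : ℕ) [NeZero N] [NeZero ℓ], p.Prime → ℓ.Prime → ¬ ℓ ∣ N →
    ∀ [HasPrincipalDivisors ℂ (PG_FC N)], ModularCurve.HeckeInputsAlong ℂ N ℓ →
      PG_EIS N → PG_AN1 N → PG_AN2 N → PG_AN3 N p →
        ∀ Θ : PG_M N →+ PG_JC N, PG_THETA N p Θ → PG_THETAHECKE N ℓ Θ

/-- The contract shape of G8b. -/
def PG_E2ALL_G8b : Prop :=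
  ∀ (N p : ℕ) [NeZero N], p.Prime → ∀ [HasPrincipalDivisors ℂ (PG_FC N)],
    PG_ROOT p → PG_AN1 N → PG_AN2 N → PG_AN4 N → PG_AN5 N → PG_FIN N p

/-- The contract shape of G8. -/
def PG_E2ALL_G8 : Prop :=
  ∀ (N p : ℕ) [NeZero N], p.Prime → ∀ [HasPrincipalDivisors ℂ (PG_FC N)],
    PG_FIN N p →
      (∀ ℓ : ℕ, ℓ.Prime → ¬ ℓ ∣ N → ∀ [NeZero ℓ], ModularCurve.HeckeInputsAlong ℂ N ℓ) →
        ∃ b : ModularCurve.JZero N →+ PG_JC N, PG_DESC N p b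

/-- G8a in contract form. -/
theorem PG_E2ALL_root {p : ℕ} (hp : p.Prime) : PG_ROOT p :=
  fun g hg hne hord => Fermat.Agent.G_helper3_G8aROOT.PG_exists_root p hp.pos g hg hne hord

/-- `HasPrincipalDivisors` over `ℂ` (helper21, G7-B0L). -/
theorem PG_E2ALL_hpd (N : ℕ) [NeZero N] : HasPrincipalDivisors ℂ (PG_FC N) :=
  Fermat.Agent.G_helper21_B0L.PG_B0L_hasPrincipalDivisors ℂ N

/-- The inputs of the Hecke correspondence over `ℂ` (helper21, G7-B0L). -/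
theorem PG_E2ALL_hin (N ℓ : ℕ) [NeZero N] [NeZero ℓ] : ModularCurve.HeckeInputsAlong ℂ N ℓ :=
  Fermat.Agent.G_helper21_B0L.PG_B0L_heckeInputsAlong ℂ N ℓ

/-- The map `Θ₀ : M → J₀(N)(ℚ̄)` with the contract `PG_E2`, from the pieces. -/
theorem PG_E2ALL_theta (hG4 : PG_E2ALL_G4) (hAN3 : PG_E2ALL_AN3) (hG6 : PG_E2ALL_G6)
    (hG7 : PG_E2ALL_G7) (hG8b : PG_E2ALL_G8b) (hG8 : PG_E2ALL_G8)
    (N p : ℕ) [NeZero N] (hp : p.Prime) :
    ∃ Θ₀ : PG_M N →+ ModularCurve.JZero N, PG_E2 N p Θ₀ := by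
  haveI : HasPrincipalDivisors ℂ (PG_FC N) := PG_E2ALL_hpd N
  have hE : PG_EIS N := Fermat.Agent.G_helper7_EISWRAP.PG_G3 N
  have h1 : PG_AN1 N := hG4 N
  have h2 : PG_AN2 N := Fermat.Agent.G_helper16_G5.PG_G5_an2 N
  have h3 : PG_AN3 N p := hAN3 N p hp
  have h4 : PG_AN4 N := Fermat.Agent.G_helper16_G5.PG_G5_an4 N
  have h5 : PG_AN5 N := Fermat.Agent.G_helper16_G5.PG_G5_an5 N
  obtain ⟨Θ, hΘ⟩ := hG6 N p hp hE h1 h2 h3 h5
  have hΘh : ∀ ℓ : ℕ, ℓ.Prime → ¬ ℓ ∣ N → ∀ [NeZero ℓ], PG_THETAHECKE N ℓ Θ := by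
    intro ℓ hℓ hℓN _
    exact hG7 N p ℓ hp hℓ hℓN (PG_E2ALL_hin N ℓ) hE h1 h2 h3 Θ hΘ
  have hfin : PG_FIN N p := hG8b N p hp (PG_E2ALL_root hp) h1 h2 h4 h5
  obtain ⟨b, hb⟩ := hG8 N p hp hfin (fun ℓ _ _ _ => PG_E2ALL_hin N ℓ)
  exact Fermat.Agent.G_helper6_GE2.PG_GE2 N p hp Θ hΘ hΘh hfin b hb

/-- **(E2) for all levels, eigenforms, primes and coefficient fields**, from the pieces of
Project G which are not yet on main. -/
theorem PG_E2ALL_of_pieces (hG4 : PG_E2ALL_G4) (hAN3 : PG_E2ALL_AN3) (hG6 : PG_E2ALL_G6)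
    (hG7 : PG_E2ALL_G7) (hG8b : PG_E2ALL_G8b) (hG8 : PG_E2ALL_G8) :
    Fermat.Agent.G_helper29_S29W.PGS_E2_all := by
  intro N _ g hg p hp k _ _ φ
  obtain ⟨Θ₀, hΘ₀⟩ := PG_E2ALL_theta hG4 hAN3 hG6 hG7 hG8b hG8 N p hp
  exact Fermat.Agent.G_helper6_E2FINAL.PG_E2_of_theta N hg hp φ Θ₀ hΘ₀
    (fun ℓ ℓ' _ _ hℓ hℓ' hℓN hℓ'N c hc =>
      Fermat.Agent.G_helper24_G1cCOMM2.PG_heckeHom_comm N ℓ ℓ' hℓ hℓ' hℓN hℓ'N c hc)

end Fermat.Agent.G_helper6_E2ALL
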