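import Fermat.Agent.G_helper6_GE2
import Fermat.Agent.G_helper7_EISWRAP
import Fermat.Agent.G_helper3_G8aROOT
import Fermat.Agent.G_helper21_B0L
import Fermat.Agent.G_helper16_G5gen
import Fermat.Agent.G_helper18_G6ADIC
import Fermat.Agent.G_helper14_G8b
import Fermat.Agent.G_helper25_G4DEP
import Fermat.Agent.G_helper15_G7QEXP
import Fermat.Agent.G_helper28_G7gen
import Fermat.Agent.G_helper7_G8PLUG

/-!
# Project G for a general modulus `m ≥ 1`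

The chain `Θ : M → Pic⁰ (F_ℂ) [m]`, descent to `ℚ̄`, for every modulus `m ≥ 1` (not only for a
prime), with ONE descent map for all moduli (`PG8P_b ℂ N`, the base change of divisor classes),
and the compatibility `m' • Θ₀ (m * m') c = Θ₀ m c`.  This is the input of the `p`-adic
statements (S30, S31), and for `m = p` the input (E2) of S29 and S42.

* `PG_E2GEN_lift`     : lifting `Θ` along the descent map;
* `PG_E2GEN_e2`       : GE2-ASSEMBLY without primality, for a given lift;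
* `PG_E2GEN_main`     : the final statement, from the injectivity of the descent map (G8f).
-/

set_option autoImplicit false
set_option linter.style.haveILetI false
set_option linter.unusedVariables false

open UpperHalfPlane ModularForm CongruenceSubgroup AlgebraicCurve
open scoped MatrixGroups ModularForm Manifold TensorProduct
open Fermat.Agent.G_helper6_Defs

noncomputable section

namespace Fermat.Agent.G_helper6_E2GEN

open Fermat.Agent.G_helper7_G8PLUG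

/-! ### The landed inputs over `ℂ` -/

theorem PG_E2GEN_hpd (N : ℕ) [NeZero N] : HasPrincipalDivisors ℂ (PG_FC N) :=
  Fermat.Agent.G_helper21_B0L.PG_B0L_hasPrincipalDivisors ℂ N

theorem PG_E2GEN_hin (N ℓ : ℕ) [NeZero N] [NeZero ℓ] : ModularCurve.HeckeInputsAlong ℂ N ℓ :=
  Fermat.Agent.G_helper21_B0L.PG_B0L_heckeInputsAlong ℂ N ℓ

theorem PG_E2GEN_root (m : ℕ) (hm : 0 < m) : PG_ROOT m :=
  fun g hg hne hord => Fermat.Agent.G_helper3_G8aROOT.PG_exists_root m hm g hg hne hord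

/-- (G8b) finiteness of the `m`-torsion of `Pic⁰ (F_ℂ)`, for every modulus. -/
theorem PG_E2GEN_fin (N m : ℕ) [NeZero N] (hm : 0 < m) : PG_FIN N m :=
  Fermat.Agent.G_helper14_G8b.PG_G8b_gen N m hm (PG_E2GEN_root m hm)
    (Fermat.Agent.G_helper25_G4DEP.PG_G4D_an1 N) (Fermat.Agent.G_helper16_G5.PG_G5_an2 N)
    (Fermat.Agent.G_helper16_G5.PG_G5_an4 N)

/-- (G6) the map `Θ` for every modulus. -/
theorem PG_E2GEN_theta (N m : ℕ) [NeZero N] (hm : 0 < m) :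
    ∃ Θ : PG_M N →+ PG_JC N, PG_THETA N m Θ :=
  haveI := PG_E2GEN_hpd N
  Fermat.Agent.G_helper18_G6ADIC.PG_G6ADIC_exists N m hm.ne'
    (Fermat.Agent.G_helper7_EISWRAP.PG_G3 N) (Fermat.Agent.G_helper25_G4DEP.PG_G4D_an1 N)
    (Fermat.Agent.G_helper16_G5.PG_G5_an2 N) (Fermat.Agent.G_helper16_G5.PG_G5_an3_all N m)
    (Fermat.Agent.G_helper16_G5.PG_G5_an5 N)

/-- (G7) every `Θ` satisfying the contract is Hecke-equivariant, for every modulus. -/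
theorem PG_E2GEN_thetaHecke (N m ℓ : ℕ) [NeZero N] [NeZero ℓ] (hm : 0 < m) (hℓ : ℓ.Prime)
    (hℓN : ¬ ℓ ∣ N) (Θ : PG_M N →+ PG_JC N) (hΘ : PG_THETA N m Θ) : PG_THETAHECKE N ℓ Θ :=
  haveI := PG_E2GEN_hpd N
  Fermat.Agent.G_helper28_G7gen.PG_G7_of_qexp_gen N m ℓ hm hℓ hℓN (PG_E2GEN_hin N ℓ)
    (Fermat.Agent.G_helper7_EISWRAP.PG_G3 N) (Fermat.Agent.G_helper25_G4DEP.PG_G4D_an1 N)
    (Fermat.Agent.G_helper16_G5.PG_G5_an3_all N m)
    (Fermat.Agent.G_helper15_G7QEXP.PG7_qexp N ℓ) Θ hΘ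

/-- (G6, compatibility) `m' • Θ_(m m') = Θ_m`. -/
theorem PG_E2GEN_compat (N m m' : ℕ) [NeZero N] (hm : 0 < m) (hm' : 0 < m')
    (Θ' Θ : PG_M N →+ PG_JC N) (hΘ' : PG_THETA N (m * m') Θ') (hΘ : PG_THETA N m Θ)
    (c : PG_M N) : (m' : ℤ) • Θ' c = Θ c :=
  haveI := PG_E2GEN_hpd N
  (Fermat.Agent.G_helper18_G6ADIC.PG_G6ADIC_compat N m m' hm.ne' hm'.ne'
    (Fermat.Agent.G_helper7_EISWRAP.PG_G3 N) (Fermat.Agent.G_helper25_G4DEP.PG_G4D_an1 N)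
    (Fermat.Agent.G_helper16_G5.PG_G5_an3_all N (m * m')) hΘ hΘ' c).symm

/-! ### The assembly without primality -/

/-- Lifting `Θ` along the descent map. -/
theorem PG_E2GEN_lift (N m : ℕ) [NeZero N] (Θ : PG_M N →+ PG_JC N) (hΘ : PG_THETA N m Θ)
    (b : ModularCurve.JZero N →+ PG_JC N) (hb : PG_DESC N m b) :
    ∃ Θ₀ : PG_M N →+ ModularCurve.JZero N, ∀ c, b (Θ₀ c) = Θ c := by
  classical
  have hex : ∀ c : PG_M N, ∃ x : ModularCurve.JZero N, b x = Θ c :=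
    fun c => hb.surj (Θ c) (hΘ.tors c)
  choose f hf using hex
  have hadd : ∀ c c' : PG_M N, f (c + c') = f c + f c' := by
    intro c c'
    apply hb.inj
    rw [map_add, hf, hf, hf, map_add]
  exact ⟨AddMonoidHom.mk' f hadd, hf⟩

/-- GE2-ASSEMBLY for a general modulus and a given lift. -/
theorem PG_E2GEN_e2 (N m : ℕ) [NeZero N]
    (Θ : PG_M N →+ PG_JC N) (hΘ : PG_THETA N m Θ)
    (hΘh : ∀ ℓ : ℕ, ℓ.Prime → ¬ ℓ ∣ N → ∀ [NeZero ℓ], PG_THETAHECKE N ℓ Θ)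
    (hfin : PG_FIN N m)
    (b : ModularCurve.JZero N →+ PG_JC N) (hb : PG_DESC N m b)
    (Θ₀ : PG_M N →+ ModularCurve.JZero N) (hf : ∀ c, b (Θ₀ c) = Θ c) :
    PG_E2 N m Θ₀ := by
  classical
  refine ⟨?_, ?_, ?_, ?_⟩
  · intro c
    apply hb.inj
    rw [map_zsmul, map_zero, hf]
    exact hΘ.tors c
  · intro c hc
    apply hΘ.inj c
    rw [← hf c, hc, map_zero]
  · intro ℓ c c' hℓN hcc'
    haveI : NeZero (ℓ : ℕ) := ⟨ℓ.2.ne_zero⟩
    apply hb.inj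
    rw [hb.hecke ℓ (Θ₀ c) hℓN, hf, hf]
    exact hΘh (ℓ : ℕ) ℓ.2 hℓN c c' hcc'
  · have hsub : (Pic0.torsion (AlgebraicClosure ℚ) (ModularCurve.modularFunctionFieldBar N) m :
        Set (ModularCurve.JZero N)) ⊆ b ⁻¹' (Pic0.torsion ℂ (PG_FC N) m : Set (PG_JC N)) := by
      intro x hx
      have hx' : (m : ℤ) • x = 0 := Pic0.mem_torsion.1 hx
      show b x ∈ Pic0.torsion ℂ (PG_FC N) m
      rw [Pic0.mem_torsion, ← map_zsmul, hx', map_zero]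
    exact (Set.Finite.preimage (hb.inj.injOn) hfin).subset hsub

/-! ### The final statement -/

/-- **Project G for all moduli**, from the injectivity of the descent map.  A compatible family
of Hecke-equivariant maps `Θ₀ m : M → J₀(N)(ℚ̄)[m]`, injective modulo `m`, with finite
`J₀(N)(ℚ̄)[m]`. -/
theorem PG_E2GEN_main (N : ℕ) [NeZero N] (hinj : Function.Injective (PG8P_b ℂ N)) :
    ∃ Θ₀ : ℕ → PG_M N →+ ModularCurve.JZero N,
      (∀ m, 0 < m → PG_E2 N m (Θ₀ m)) ∧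
      ∀ (m m' : ℕ) (c : PG_M N), 0 < m → 0 < m' → (m' : ℤ) • Θ₀ (m * m') c = Θ₀ m c := by
  classical
  have hb : ∀ m : ℕ, 0 < m → PG_DESC N m (PG8P_b ℂ N) := fun m hm =>
    PG8P_desc_of_inj N m (PG_E2GEN_fin N m hm) hinj
  have key : ∀ m : ℕ, ∃ Θ₀ : PG_M N →+ ModularCurve.JZero N, 0 < m →
      PG_E2 N m Θ₀ ∧ ∃ Θ : PG_M N →+ PG_JC N, PG_THETA N m Θ ∧
        ∀ c, PG8P_b ℂ N (Θ₀ c) = Θ c := by
    intro m
    by_cases hm : 0 < m
    · obtain ⟨Θ, hΘ⟩ := PG_E2GEN_theta N m hm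
      obtain ⟨Θ₀, hf⟩ := PG_E2GEN_lift N m Θ hΘ (PG8P_b ℂ N) (hb m hm)
      refine ⟨Θ₀, fun _ => ⟨?_, Θ, hΘ, hf⟩⟩
      refine PG_E2GEN_e2 N m Θ hΘ ?_ (PG_E2GEN_fin N m hm) (PG8P_b ℂ N) (hb m hm) Θ₀ hf
      intro ℓ hℓ hℓN _
      exact PG_E2GEN_thetaHecke N m ℓ hm hℓ hℓN Θ hΘ
    · exact ⟨0, fun h => absurd h hm⟩
  choose Θ₀ hΘ₀ using key
  refine ⟨Θ₀, fun m hm => (hΘ₀ m hm).1, ?_⟩
  intro m m' c hm hm'
  have hmm : 0 < m * m' := Nat.mul_pos hm hm'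
  obtain ⟨-, Θ, hΘ, hbΘ⟩ := hΘ₀ m hm
  obtain ⟨-, Θ', hΘ', hbΘ'⟩ := hΘ₀ (m * m') hmm
  apply hinj
  rw [map_zsmul, hbΘ', hbΘ]
  exact PG_E2GEN_compat N m m' hm hm' Θ' Θ hΘ' hΘ c

/-- The prime-power family in the shape of S30 (`S30_E2adic`). -/
theorem PG_E2GEN_adic (N p : ℕ) [NeZero N] (hp : 0 < p)
    (hinj : Function.Injective (PG8P_b ℂ N)) :
    ∃ Θ : ℕ → PG_M N →+ ModularCurve.JZero N,
      (∀ n, PG_E2 N (p ^ n) (Θ n)) ∧ ∀ (n : ℕ) (c : PG_M N), (p : ℤ) • Θ (n + 1) c = Θ n c := by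
  obtain ⟨Θ₀, h1, h2⟩ := PG_E2GEN_main N hinj
  refine ⟨fun n => Θ₀ (p ^ n), fun n => h1 (p ^ n) (pow_pos hp n), fun n c => ?_⟩
  have h := h2 (p ^ n) p c (pow_pos hp n) hp
  rw [← pow_succ] at h
  exact h

end Fermat.Agent.G_helper6_E2GEN
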