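import Fermat.Agent.G_helper6_Contracts

/-!
# Project G, piece GE2-ASSEMBLY

From `Θ : M → Pic⁰ (F_ℂ)` (contracts `PG_THETA`, `PG_THETAHECKE`), the finiteness `PG_FIN` and
the descent map `b` (contract `PG_DESC`) to `Θ₀ : M → J₀(N)(ℚ̄)` with the contract `PG_E2`.
-/

set_option autoImplicit false

open UpperHalfPlane ModularForm CongruenceSubgroup AlgebraicCurve
open scoped MatrixGroups ModularForm Manifold TensorProduct
open Fermat.Agent.G_helper6_Defs

noncomputable section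

namespace Fermat.Agent.G_helper6_GE2

theorem PG_GE2 (N p : ℕ) [NeZero N] (hp : p.Prime)
    (Θ : PG_M N →+ PG_JC N) (hΘ : PG_THETA N p Θ)
    (hΘh : ∀ ℓ : ℕ, ℓ.Prime → ¬ ℓ ∣ N → ∀ [NeZero ℓ], PG_THETAHECKE N ℓ Θ)
    (hfin : PG_FIN N p)
    (b : ModularCurve.JZero N →+ PG_JC N) (hb : PG_DESC N p b) :
    ∃ Θ₀ : PG_M N →+ ModularCurve.JZero N, PG_E2 N p Θ₀ := by
  classical
  have hex : ∀ c : PG_M N, ∃ x : ModularCurve.JZero N, b x = Θ c :=
    fun c => hb.surj (Θ c) (hΘ.tors c)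
  choose f hf using hex
  have hadd : ∀ c c' : PG_M N, f (c + c') = f c + f c' := by
    intro c c'
    apply hb.inj
    rw [map_add, hf, hf, hf, map_add]
  refine ⟨AddMonoidHom.mk' f hadd, ?_, ?_, ?_, ?_⟩
  · intro c
    apply hb.inj
    rw [map_zsmul, map_zero]
    show (p : ℤ) • b (f c) = 0
    rw [hf]
    exact hΘ.tors c
  · intro c hc
    apply hΘ.inj c
    have h0 : f c = 0 := hc
    rw [← hf c, h0, map_zero]
  · intro ℓ c c' hℓN hcc'
    haveI : NeZero (ℓ : ℕ) := ⟨ℓ.2.ne_zero⟩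
    apply hb.inj
    show b (ModularCurve.heckeOperatorBar N ℓ (f c)) = b (f c')
    rw [hb.hecke ℓ (f c) hℓN, hf, hf]
    exact hΘh (ℓ : ℕ) ℓ.2 hℓN c c' hcc'
  · have hsub : (Pic0.torsion (AlgebraicClosure ℚ) (ModularCurve.modularFunctionFieldBar N) p :
        Set (ModularCurve.JZero N)) ⊆ b ⁻¹' (Pic0.torsion ℂ (PG_FC N) p : Set (PG_JC N)) := by
      intro x hx
      have hx' : (p : ℤ) • x = 0 := Pic0.mem_torsion.1 hx
      show b x ∈ Pic0.torsion ℂ (PG_FC N) p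
      rw [Pic0.mem_torsion, ← map_zsmul, hx', map_zero]
    exact (Set.Finite.preimage (hb.inj.injOn) hfin).subset hsub

end Fermat.Agent.G_helper6_GE2
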