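import Mathlib
import Fermat.Agent.G_helper26_G8MOD

/-!
# Project G, piece G8-FIX: functions fixed by `Aut (L / ℚ̄)` are defined over `ℚ̄`

The `(Fix)` hypothesis of the abstract injectivity statement G8f, in the modular model.
-/

set_option autoImplicit false
set_option linter.unusedSectionVars false
set_option linter.style.haveILetI false

noncomputable section

universe u

open AlgebraicCurve IntermediateField ModularCurve

namespace Fermat.Agent.G_helper7_G8FIX

open Fermat.Agent.S24 Fermat.Agent.G_helper21_B0L Fermat.Agent.G_helper26_G8e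
  Fermat.Agent.G_helper26_G8c Fermat.Agent.G_helper26_G8MOD

variable (L : Type u) [Field L] [Algebra ℚ L] [IsAlgClosed L] (N : ℕ) [NeZero N]

/-- **(Fix)**: a function of `F_L` fixed by all of `Aut (L / ℚ̄)` comes from `F_{ℚ̄}`. -/
theorem PG8P_fix (z : PG_B0L_F L N)
    (hz : ∀ σ : @AlgEquiv Kbar L L _ _ _ (PG8M_algebra L) (PG8M_algebra L),
      PG8M_gal L N σ • z = z) :
    ∃ x : modularFunctionFieldBar N, PG_B0L_bc L N x = z := by
  letI := PG8M_algebra L
  have hfix : ∀ σ : L ≃ₐ[Kbar] L,
      coeffMap (σ : L →+* L) (z : LaurentSeries L) = (z : LaurentSeries L) := by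
    intro σ
    have h := congrArg (fun w : PG_B0L_F L N => (w : LaurentSeries L)) (hz σ)
    simp only [PG8M_coe_gal_smul] at h
    exact h
  obtain ⟨g, hg⟩ := PG8c_coeffMap_fixed_all (K := Kbar) (z : LaurentSeries L) hfix
  have hg' : coeffMap (PG_B0L_emb L : Kbar →+* L) g = (z : LaurentSeries L) := hg
  have hgmem : g ∈ modularFunctionFieldBar N := by
    apply PG8M_mem_of_coeffMap_mem L N g
    rw [hg']
    exact z.2
  exact ⟨⟨g, hgmem⟩, Subtype.ext hg⟩

/-- the finite-index version -/
theorem PG8P_fix_of_finiteIndex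
    (H : Subgroup (@AlgEquiv Kbar L L _ _ _ (PG8M_algebra L) (PG8M_algebra L)))
    [H.FiniteIndex] (z : PG_B0L_F L N) (hz : ∀ σ ∈ H, PG8M_gal L N σ • z = z) :
    ∃ x : modularFunctionFieldBar N, PG_B0L_bc L N x = z := by
  letI := PG8M_algebra L
  have hfix : ∀ σ ∈ H,
      coeffMap ((σ : L ≃ₐ[Kbar] L) : L →+* L) (z : LaurentSeries L) = (z : LaurentSeries L) := by
    intro σ hσ
    have h := congrArg (fun w : PG_B0L_F L N => (w : LaurentSeries L)) (hz σ hσ)
    simp only [PG8M_coe_gal_smul] at h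
    exact h
  obtain ⟨g, hg⟩ := PG8c_coeffMap_fixed (K := Kbar) H (z : LaurentSeries L) hfix
  have hg' : coeffMap (PG_B0L_emb L : Kbar →+* L) g = (z : LaurentSeries L) := hg
  have hgmem : g ∈ modularFunctionFieldBar N := by
    apply PG8M_mem_of_coeffMap_mem L N g
    rw [hg']
    exact z.2
  exact ⟨⟨g, hgmem⟩, Subtype.ext hg⟩

end Fermat.Agent.G_helper7_G8FIX
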