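import Mathlib
import Fermat.Agent.G_helper26_G8MOD2
import Fermat.Agent.G_helper26_G8f
import Fermat.Agent.G_helper7_G8PLUG
import Fermat.Agent.G_helper7_G8FIX

/-!
# Project G, piece G8gMOD: Hecke compatibility of `PG8M_pic0` (helper26's shape), and the
descent contract `PG_DESC` for `b := PG8M_pic0 ℂ N`.
-/

set_option autoImplicit false
set_option linter.unusedSectionVars false
set_option linter.unusedVariables false
set_option linter.style.haveILetI false

noncomputable section

universe u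

open AlgebraicCurve IntermediateField ModularCurve

namespace Fermat.Agent.G_helper7_G8gMOD

open Fermat.Agent.S24 Fermat.Agent.G_helper21_B0L Fermat.Agent.G_helper26_G8e
  Fermat.Agent.G_helper26_G8MOD Fermat.Agent.G_helper7_G8PLUG Fermat.Agent.G_helper6_Defs

theorem PG8gM_b_eq (L : Type u) [Field L] [Algebra ℚ L] [IsAlgClosed L] (N : ℕ) [NeZero N] :
    PG8P_b L N = PG8M_pic0 L N := rfl

/-- **G8gMOD**, generic `L`, no hypotheses. -/
theorem PG8gM_hecke_gen (L : Type u) [Field L] [Algebra ℚ L] [IsAlgClosed L] (N ℓ : ℕ)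
    [NeZero N] [NeZero ℓ] (x : ModularCurve.JZero N) :
    ModularCurve.heckeOperatorAlong L N ℓ (PG8M_pic0 L N x) =
      PG8M_pic0 L N (ModularCurve.heckeOperatorAlong Kbar N ℓ x) :=
  (PG8P_hecke L N ℓ x).symm

/-- **G8gMOD** (helper26's target, verbatim; the two hypotheses are not used). -/
theorem PG8gM_hecke (N ℓ : ℕ) [NeZero N] [NeZero ℓ]
    (hinK : ModularCurve.HeckeInputsAlong Kbar N ℓ)
    (hinC : ModularCurve.HeckeInputsAlong ℂ N ℓ) (x : ModularCurve.JZero N) :
    ModularCurve.heckeOperatorAlong ℂ N ℓ (PG8M_pic0 ℂ N x) =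
      PG8M_pic0 ℂ N (ModularCurve.heckeOperatorAlong Kbar N ℓ x) :=
  PG8gM_hecke_gen ℂ N ℓ x

/-- surjectivity onto the torsion, in helper26's shape -/
theorem PG8gM_surj (L : Type u) [Field L] [Algebra ℚ L] [IsAlgClosed L] (N : ℕ) [NeZero N]
    (p : ℕ) (hfin : (Pic0.torsion L (PG_B0L_F L N) p : Set (Pic0 L (PG_B0L_F L N))).Finite)
    (y : Pic0 L (PG_B0L_F L N)) (hy : (p : ℤ) • y = 0) :
    ∃ x : ModularCurve.JZero N, PG8M_pic0 L N x = y :=
  PG8P_surj L N p hfin y hy

end Fermat.Agent.G_helper7_G8gMOD
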