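import Fermat.Statements.S02

set_option autoImplicit false
open FreyPackage

namespace Fermat.Agent.S02

lemma coprime_reduction (a b c : ℤ) (ha : a ≠ 0) (hb : b ≠ 0) (hc : c ≠ 0) (p : ℕ)
    (hp : p ≠ 0) (H : a ^ p + b ^ p = c ^ p) :
    ∃ a' b' c' : ℤ, a' ≠ 0 ∧ b' ≠ 0 ∧ c' ≠ 0 ∧ Int.gcd a' b' = 1 ∧
      a' ^ p + b' ^ p = c' ^ p := by
  set d : ℤ := (Int.gcd a b : ℤ) with hd
  have hd0 : d ≠ 0 := by
    rw [hd]
    exact_mod_cast (Int.gcd_pos_of_ne_zero_left b ha).ne'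
  obtain ⟨a', ha'⟩ : d ∣ a := Int.gcd_dvd_left a b
  obtain ⟨b', hb'⟩ : d ∣ b := Int.gcd_dvd_right a b
  have hdc : d ∣ c := by
    rw [← Int.pow_dvd_pow_iff hp, ← H]
    exact dvd_add (pow_dvd_pow_of_dvd ⟨a', ha'⟩ p) (pow_dvd_pow_of_dvd ⟨b', hb'⟩ p)
  obtain ⟨c', hc'⟩ := hdc
  have ha'0 : a' ≠ 0 := by rintro rfl; exact ha (by simpa using ha')
  have hb'0 : b' ≠ 0 := by rintro rfl; exact hb (by simpa using hb')
  have hc'0 : c' ≠ 0 := by rintro rfl; exact hc (by simpa using hc')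
  refine ⟨a', b', c', ha'0, hb'0, hc'0, ?_, ?_⟩
  · have h1 : Int.gcd a b = Int.gcd a b * Int.gcd a' b' := by
      conv_lhs => rw [ha', hb', Int.gcd_mul_left]
      simp [hd]
    have hpos : 0 < Int.gcd a b := Int.gcd_pos_of_ne_zero_left b ha
    have := Nat.eq_of_mul_eq_mul_left hpos (by rw [mul_one]; exact h1 : Int.gcd a b * 1 = Int.gcd a b * Int.gcd a' b')
    exact this.symm
  · have hdp : d ^ p ≠ 0 := pow_ne_zero p hd0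
    apply mul_left_cancel₀ hdp
    rw [mul_add, ← mul_pow, ← mul_pow, ← mul_pow, ← ha', ← hb', ← hc']
    exact H

lemma make_even (a b c : ℤ) (ha : a ≠ 0) (hb : b ≠ 0) (hc : c ≠ 0) (p : ℕ)
    (hp : Odd p) (hab : Int.gcd a b = 1) (H : a ^ p + b ^ p = c ^ p) :
    ∃ a' b' c' : ℤ, a' ≠ 0 ∧ b' ≠ 0 ∧ c' ≠ 0 ∧ Int.gcd a' b' = 1 ∧ (2 : ℤ) ∣ b' ∧
      a' ^ p + b' ^ p = c' ^ p := by
  have hp0 : p ≠ 0 := by rintro rfl; simp at hp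
  by_cases hb2 : (2 : ℤ) ∣ b
  · exact ⟨a, b, c, ha, hb, hc, hab, hb2, H⟩
  by_cases ha2 : (2 : ℤ) ∣ a
  · exact ⟨b, a, c, hb, ha, hc, by rw [Int.gcd_comm]; exact hab, ha2, by rw [add_comm]; exact H⟩
  -- both odd, so c is even
  have hao : Odd a := by rwa [← Int.not_even_iff_odd, even_iff_two_dvd]
  have hbo : Odd b := by rwa [← Int.not_even_iff_odd, even_iff_two_dvd]
  have hce : Even (c ^ p) := by
    rw [← H]
    exact (hao.pow).add_odd (hbo.pow)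
  have hc2 : (2 : ℤ) ∣ c := by
    rw [← even_iff_two_dvd]
    exact (Int.even_pow.1 hce).1
  have hgac : Int.gcd a c = 1 := by
    have h1 := FreyPackage.gcdab_eq_gcdac (Nat.pos_of_ne_zero hp0) H
    have h2 : ((Int.gcd a b : ℕ) : ℤ) = ((Int.gcd a c : ℕ) : ℤ) := h1
    have h3 : Int.gcd a b = Int.gcd a c := by exact_mod_cast h2
    rw [← h3]; exact hab
  refine ⟨a, -c, -b, ha, neg_ne_zero.2 hc, neg_ne_zero.2 hb, ?_, ?_, ?_⟩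
  · rw [Int.gcd_neg]; exact hgac
  · exact (dvd_neg).2 hc2
  · rw [hp.neg_pow, hp.neg_pow]
    linarith

lemma make_three_mod_four (a b c : ℤ) (ha : a ≠ 0) (hb : b ≠ 0) (hc : c ≠ 0) (p : ℕ)
    (hp : Odd p) (hab : Int.gcd a b = 1) (hb2 : (2 : ℤ) ∣ b) (H : a ^ p + b ^ p = c ^ p) :
    ∃ a' b' c' : ℤ, a' ≠ 0 ∧ b' ≠ 0 ∧ c' ≠ 0 ∧ Int.gcd a' b' = 1 ∧ (2 : ℤ) ∣ b' ∧
      a' % 4 = 3 ∧ a' ^ p + b' ^ p = c' ^ p := by
  have ha2 : ¬ (2 : ℤ) ∣ a := by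
    intro h
    have : (2 : ℤ) ∣ (Int.gcd a b : ℤ) := Int.dvd_coe_gcd h hb2
    rw [hab] at this
    norm_num at this
  have h4 : a % 4 = 1 ∨ a % 4 = 3 := by
    have : ¬ a % 2 = 0 := fun h => ha2 (Int.dvd_of_emod_eq_zero h)
    omega
  rcases h4 with h4 | h4
  · refine ⟨-a, -b, -c, neg_ne_zero.2 ha, neg_ne_zero.2 hb, neg_ne_zero.2 hc, ?_, ?_, ?_, ?_⟩
    · rw [Int.gcd_neg, Int.neg_gcd]; exact hab
    · exact (dvd_neg).2 hb2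
    · omega
    · rw [hp.neg_pow, hp.neg_pow, hp.neg_pow]
      linarith
  · exact ⟨a, b, c, ha, hb, hc, hab, hb2, h4, H⟩

theorem result (a b c : ℤ) (ha : a ≠ 0) (hb : b ≠ 0) (hc : c ≠ 0) (p : ℕ) (pp : p.Prime) (hp5 : 5 ≤ p) (H : a ^ p + b ^ p = c ^ p) : Nonempty FreyPackage := by
  have hodd : Odd p := pp.odd_of_ne_two (by omega)
  have hp0 : p ≠ 0 := by omega
  obtain ⟨a1, b1, c1, ha1, hb1, hc1, hab1, H1⟩ := coprime_reduction a b c ha hb hc p hp0 H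
  obtain ⟨a2, b2, c2, ha2, hb2, hc2, hab2, h2b2, H2⟩ :=
    make_even a1 b1 c1 ha1 hb1 hc1 p hodd hab1 H1
  obtain ⟨a3, b3, c3, ha3, hb3, hc3, hab3, h2b3, h4a3, H3⟩ :=
    make_three_mod_four a2 b2 c2 ha2 hb2 hc2 p hodd hab2 h2b2 H2
  refine ⟨{ a := a3, b := b3, c := c3, ha0 := ha3, hb0 := hb3, hc0 := hc3, p := p, pp := pp,
            hp5 := hp5, hFLT := H3, hgcdab := ?_, ha4 := ?_, hb2 := ?_ }⟩
  · have : ((Int.gcd a3 b3 : ℕ) : ℤ) = 1 := by exact_mod_cast hab3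
    exact this
  · have h : ((a3 : ℤ) : ZMod 4) = ((3 : ℤ) : ZMod 4) := by
      rw [ZMod.intCast_eq_intCast_iff_dvd_sub]
      omega
    simpa using h
  · exact (ZMod.intCast_zmod_eq_zero_iff_dvd b3 2).2 h2b3

end Fermat.Agent.S02
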