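import Mathlib

set_option autoImplicit false

namespace Fermat.Agent.S05_helper1_Defs

/-- A collinear triple `(X₁,Y₁), (X₂,Y₂), (X₃,Y₃)` on the short model
`Y ^ 2 = X ^ 3 + a X ^ 2 + b X`, lying on the line `Y = Λ X + N`, together with the
three Vieta relations (so that multiplicities are accounted for). -/
structure Collinear {K : Type*} [Field K] (a b X₁ Y₁ X₂ Y₂ X₃ Y₃ Λ N : K) : Prop where
  e₁ : Y₁ ^ 2 = X₁ ^ 3 + a * X₁ ^ 2 + b * X₁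
  e₂ : Y₂ ^ 2 = X₂ ^ 3 + a * X₂ ^ 2 + b * X₂
  e₃ : Y₃ ^ 2 = X₃ ^ 3 + a * X₃ ^ 2 + b * X₃
  l₁ : Y₁ = Λ * X₁ + N
  l₂ : Y₂ = Λ * X₂ + N
  l₃ : Y₃ = Λ * X₃ + N
  v₁ : X₁ + X₂ + X₃ = Λ ^ 2 - a
  v₂ : X₁ * X₂ + X₁ * X₃ + X₂ * X₃ = b - 2 * Λ * N
  v₃ : X₁ * X₂ * X₃ = N ^ 2

/-- `W` has `a₁ = 1`, `a₃ = 0`, `a₆ = 0` and, in the coordinates `X = 4 x - s`, `Y = 8 y + 4 x`,
is the short model `Y ^ 2 = X ^ 3 + a X ^ 2 + b X`. -/
structure ShortModel {K : Type*} [Field K] (W : WeierstrassCurve.Affine K) (s a b : K) :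
    Prop where
  a₁ : W.a₁ = 1
  a₃ : W.a₃ = 0
  a₆ : W.a₆ = 0
  ha : a = 3 * s + (4 * W.a₂ + 1)
  hb : b = 3 * s ^ 2 + 2 * (4 * W.a₂ + 1) * s + 16 * W.a₄
  hs : s ^ 3 + (4 * W.a₂ + 1) * s ^ 2 + 16 * W.a₄ * s = 0

/-- The canonical representative of the component of the point `(X, Y)` of the short model
with nodal reduction (`v a = 1`, `v b = β < 1`, `γ ^ 2 = a`). -/
noncomputable def phiT {K : Type*} [Field K] {Γ₀ : Type*} [LinearOrderedCommGroupWithZero Γ₀]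
    (v : Valuation K Γ₀) (β : Γ₀) (γ X Y : K) : Γ₀ :=
  open Classical in
  if 1 ≤ v X then 1
  else if v X ≤ β then β
  else if v (Y - γ * X) < v X then v X else (v X)⁻¹

end Fermat.Agent.S05_helper1_Defs
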