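import Mathlib
import Fermat.Agent.S05_helper1_Defs

set_option autoImplicit false

namespace Fermat.Agent.S05_helper1_Component

open Fermat.Agent.S05_helper1_Defs

variable {K : Type*} [Field K] {Γ₀ : Type*} [LinearOrderedCommGroupWithZero Γ₀]
  (v : Valuation K Γ₀)

section Symmetry

variable {a b X₁ Y₁ X₂ Y₂ X₃ Y₃ Λ N : K}

lemma collinear_swap12 (h : Collinear a b X₁ Y₁ X₂ Y₂ X₃ Y₃ Λ N) :
    Collinear a b X₂ Y₂ X₁ Y₁ X₃ Y₃ Λ N where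
  e₁ := h.e₂
  e₂ := h.e₁
  e₃ := h.e₃
  l₁ := h.l₂
  l₂ := h.l₁
  l₃ := h.l₃
  v₁ := by linear_combination h.v₁
  v₂ := by linear_combination h.v₂
  v₃ := by linear_combination h.v₃

lemma collinear_swap23 (h : Collinear a b X₁ Y₁ X₂ Y₂ X₃ Y₃ Λ N) :
    Collinear a b X₁ Y₁ X₃ Y₃ X₂ Y₂ Λ N where
  e₁ := h.e₁
  e₂ := h.e₃
  e₃ := h.e₂
  l₁ := h.l₁
  l₂ := h.l₃
  l₃ := h.l₂
  v₁ := by linear_combination h.v₁
  v₂ := by linear_combination h.v₂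
  v₃ := by linear_combination h.v₃

lemma collinear_swap13 (h : Collinear a b X₁ Y₁ X₂ Y₂ X₃ Y₃ Λ N) :
    Collinear a b X₃ Y₃ X₂ Y₂ X₁ Y₁ Λ N where
  e₁ := h.e₃
  e₂ := h.e₂
  e₃ := h.e₁
  l₁ := h.l₃
  l₂ := h.l₂
  l₃ := h.l₁
  v₁ := by linear_combination h.v₁
  v₂ := by linear_combination h.v₂
  v₃ := by linear_combination h.v₃

/-- secant/tangent identity -/
lemma collinear_I1 (h : Collinear a b X₁ Y₁ X₂ Y₂ X₃ Y₃ Λ N) :
    Λ * (Y₁ + Y₂) = X₁ ^ 2 + X₁ * X₂ + X₂ ^ 2 + a * (X₁ + X₂) + b := by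
  have h1 := h.l₁
  have h2 := h.l₂
  have h3 := h.v₁
  have h4 := h.v₂
  linear_combination Λ * h1 + Λ * h2 - (X₁ + X₂) * h3 + h4

lemma collinear_I3 (h : Collinear a b X₁ Y₁ X₂ Y₂ X₃ Y₃ Λ N) :
    Λ * (X₁ - X₂) = Y₁ - Y₂ := by
  linear_combination h.l₂ - h.l₁

end Symmetry

section Cases

variable {a b γ X₁ Y₁ X₂ Y₂ X₃ Y₃ Λ N : K}

/-- Case 1: the points with `1 ≤ v X` are closed under the chord construction. -/
lemma case1 (hc : Collinear a b X₁ Y₁ X₂ Y₂ X₃ Y₃ Λ N) (h2 : v 2 = 1) (ha : v a ≤ 1)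
    (hb : v b < 1) (h₁ : 1 ≤ v X₁) (h₂ : 1 ≤ v X₂) : 1 ≤ v X₃ := by
  by_contra h₃
  rw [not_le] at h₃
  have hX₁ : 0 < v X₁ := lt_of_lt_of_le zero_lt_one h₁
  have hX₂ : 0 < v X₂ := lt_of_lt_of_le zero_lt_one h₂
  have h12 : 1 ≤ v X₁ * v X₂ := one_le_mul_of_one_le_of_one_le h₁ h₂
  have e : 2 * Λ * N = -(X₁ * X₂) + (b - X₁ * X₃ - X₂ * X₃) := by linear_combination hc.v₂
  have hsmall : v (b - X₁ * X₃ - X₂ * X₃) < v (-(X₁ * X₂)) := by
    rw [v.map_neg, v.map_mul]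
    refine v.map_sub_lt (v.map_sub_lt (lt_of_lt_of_le hb h12) ?_) ?_
    · rw [v.map_mul]
      exact mul_lt_mul_of_pos_left (lt_of_lt_of_le h₃ h₂) hX₁
    · rw [v.map_mul, mul_comm (v X₁)]
      exact mul_lt_mul_of_pos_left (lt_of_lt_of_le h₃ h₁) hX₂
  have key : v Λ * v N = v X₁ * v X₂ := by
    have := v.map_add_eq_of_lt_left hsmall
    rw [← e, v.map_neg, v.map_mul, v.map_mul, v.map_mul, h2, one_mul] at this
    exact this
  have hN : v N ^ 2 = v X₁ * v X₂ * v X₃ := by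
    rw [← v.map_pow, ← hc.v₃, v.map_mul, v.map_mul]
  have hΛ : v Λ ^ 2 * v X₃ = v X₁ * v X₂ := by
    have h12' : v X₁ * v X₂ ≠ 0 := (mul_pos hX₁ hX₂).ne'
    apply mul_right_cancel₀ h12'
    calc v Λ ^ 2 * v X₃ * (v X₁ * v X₂) = v (Λ ^ 2 * X₃ * (X₁ * X₂)) := by
          simp only [map_mul, map_pow]
      _ = v ((Λ * N) ^ 2) := by
          congr 1
          linear_combination Λ ^ 2 * hc.v₃
      _ = (v Λ * v N) ^ 2 := by simp only [map_mul, map_pow]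
      _ = v X₁ * v X₂ * (v X₁ * v X₂) := by rw [key, sq]
  have hΛpos : 0 < v Λ ^ 2 := by
    rcases eq_or_ne (v Λ ^ 2) 0 with h0 | h0
    · rw [h0, zero_mul] at hΛ
      exact absurd hΛ.symm (mul_pos hX₁ hX₂).ne'
    · exact lt_of_le_of_ne zero_le (Ne.symm h0)
  have hΛle : v Λ ^ 2 ≤ v X₁ * v X₂ := by
    have e2 : Λ ^ 2 = a + X₁ + X₂ + X₃ := by linear_combination -hc.v₁
    rw [← v.map_pow, e2]
    refine v.map_add_le (v.map_add_le (v.map_add_le (le_trans ha h12) ?_) ?_) ?_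
    · exact le_mul_of_one_le_right zero_le h₂
    · exact le_mul_of_one_le_left zero_le h₁
    · exact le_trans h₃.le h12
  have : v Λ ^ 2 * v X₃ < v Λ ^ 2 := mul_lt_of_lt_one_right hΛpos h₃
  rw [hΛ] at this
  exact absurd hΛle (not_le.2 this)


/-- Case 2, first half: a type `C` point cannot have strictly larger `v X` than its partner. -/
lemma case2_val_eq (hc : Collinear a b X₁ Y₁ X₂ Y₂ X₃ Y₃ Λ N) (h2 : v 2 = 1) (ha : v a = 1)
    (hb1 : v b < v X₁) (h₁ : v X₁ < 1) (h₂ : v X₂ < 1) (h₃ : 1 ≤ v X₃) : ¬ (v X₂ < v X₁) := by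
  intro hlt
  have hX₁ : 0 < v X₁ := lt_of_le_of_lt zero_le hb1
  have hX₃ : 0 < v X₃ := lt_of_lt_of_le zero_lt_one h₃
  have hX₁sq : 0 < v X₁ ^ 2 := pow_pos hX₁ 2
  have e : (X₁ + X₂ + X₃) * X₁ ^ 2 = X₁ * (X₁ ^ 2 + b) - N * (2 * Λ * X₁) - N ^ 2 := by
    linear_combination X₁ ^ 2 * hc.v₁ - (Y₁ + Λ * X₁ + N) * hc.l₁ + hc.e₁
  have hsum : v (X₁ + X₂ + X₃) = v X₃ := by
    apply v.map_add_eq_of_lt_right
    exact lt_of_lt_of_le (v.map_add_lt h₁ h₂) h₃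
  have hL : v (Λ ^ 2) ≤ v X₃ := by
    have e2 : Λ ^ 2 = a + (X₁ + X₂ + X₃) := by linear_combination -hc.v₁
    rw [e2]
    exact v.map_add_le (ha.le.trans h₃) hsum.le
  have hN : v (N ^ 2) = v X₁ * v X₂ * v X₃ := by
    rw [← hc.v₃, v.map_mul, v.map_mul]
  have hNlt : v (N ^ 2) < v X₃ * v X₁ ^ 2 := by
    rw [hN, sq, mul_comm (v X₃)]
    exact mul_lt_mul_of_pos_right (mul_lt_mul_of_pos_left hlt hX₁) hX₃
  have hLHS : v ((X₁ + X₂ + X₃) * X₁ ^ 2) = v X₃ * v X₁ ^ 2 := by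
    rw [v.map_mul, hsum, v.map_pow]
  have ht1 : v (X₁ * (X₁ ^ 2 + b)) < v X₃ * v X₁ ^ 2 := by
    have h1 : v (X₁ ^ 2 + b) < v X₁ := by
      apply v.map_add_lt _ hb1
      rw [v.map_pow, sq]
      exact mul_lt_of_lt_one_left hX₁ h₁
    have h2' : v (X₁ * (X₁ ^ 2 + b)) < v X₁ ^ 2 := by
      rw [v.map_mul, pow_two (v X₁)]
      exact mul_lt_mul_of_pos_left h1 hX₁
    exact lt_of_lt_of_le h2' (le_mul_of_one_le_left zero_le h₃)
  have ht2 : v (N * (2 * Λ * X₁)) < v X₃ * v X₁ ^ 2 := by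
    apply lt_of_pow_lt_pow_left₀ 2 zero_le
    have e3 : (N * (2 * Λ * X₁)) ^ 2 = N ^ 2 * (4 * (Λ ^ 2 * X₁ ^ 2)) := by ring
    have h4 : v (4 : K) = 1 := by
      have : (4 : K) = 2 * 2 := by norm_num
      rw [this, v.map_mul, h2, one_mul]
    rw [← v.map_pow, e3, v.map_mul, v.map_mul, h4, one_mul, v.map_mul, v.map_pow X₁, sq (v X₃ * v X₁ ^ 2)]
    calc v (N ^ 2) * (v (Λ ^ 2) * v X₁ ^ 2) < (v X₃ * v X₁ ^ 2) * (v (Λ ^ 2) * v X₁ ^ 2) := by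
          apply mul_lt_mul_of_pos_right hNlt
          rcases eq_or_ne (v (Λ ^ 2) * v X₁ ^ 2) 0 with h0 | h0
          · exfalso
            -- then Λ = 0 so N(2ΛX₁) = 0, fine: but need positivity; handle separately
            have hΛ0 : v (Λ ^ 2) = 0 := by
              rcases mul_eq_zero.1 h0 with h | h
              · exact h
              · exact absurd h hX₁sq.ne'
            have hΛ : Λ = 0 := by
              have := (v.zero_iff).1 hΛ0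
              exact pow_eq_zero_iff (by norm_num) |>.1 this
            -- contradiction from e
            have e' : (X₁ + X₂ + X₃) * X₁ ^ 2 = X₁ * (X₁ ^ 2 + b) - N ^ 2 := by
              rw [e, hΛ]; ring
            have : v ((X₁ + X₂ + X₃) * X₁ ^ 2) < v X₃ * v X₁ ^ 2 := by
              rw [e']
              exact v.map_sub_lt ht1 hNlt
            rw [hLHS] at this
            exact lt_irrefl _ this
          · exact lt_of_le_of_ne zero_le (Ne.symm h0)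
      _ ≤ (v X₃ * v X₁ ^ 2) * (v X₃ * v X₁ ^ 2) := by
          exact mul_le_mul' le_rfl (mul_le_mul' hL le_rfl)
  have : v ((X₁ + X₂ + X₃) * X₁ ^ 2) < v X₃ * v X₁ ^ 2 := by
    rw [e]
    exact v.map_sub_lt (v.map_sub_lt ht1 ht2) hNlt
  rw [hLHS] at this
  exact lt_irrefl _ this

/-- Case 2, second half: two type `C` partners cannot be on the same branch. -/
lemma case2_sign (hc : Collinear a b X₁ Y₁ X₂ Y₂ X₃ Y₃ Λ N) (h2 : v 2 = 1) (ha : v a = 1)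
    (hγ : γ ^ 2 = a) (h12 : v X₁ = v X₂) (h₀ : 0 < v X₁) (h₁ : v X₁ < 1) (h₃ : 1 ≤ v X₃) :
    ¬ (v (Y₁ - γ * X₁) < v X₁ ∧ v (Y₂ - γ * X₂) < v X₂) := by
  rintro ⟨hd₁, hd₂⟩
  set m := v X₁ with hm
  have hm2 : v X₂ = m := h12.symm
  rw [hm2] at hd₂
  have hγ1 : v γ = 1 := by
    have : v γ ^ 2 = 1 := by rw [← v.map_pow, hγ, ha]
    exact (pow_eq_one_iff.1 this).resolve_right (by norm_num)
  have hX₃ : 0 < v X₃ := lt_of_lt_of_le zero_lt_one h₃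
  -- N has valuation n with n² = m² v X₃ ≥ m²
  have hN : v (N ^ 2) = m * m * v X₃ := by
    rw [← hc.v₃, v.map_mul, v.map_mul, hm2]
  have hNm : m ≤ v N := by
    apply le_of_pow_le_pow_left₀ (n := 2) (by norm_num) zero_le
    rw [← v.map_pow N, hN, sq]
    exact le_mul_of_one_le_right zero_le h₃
  -- (Λ - γ) X₁ = δ₁ - N
  have e₁ : (Λ - γ) * X₁ = (Y₁ - γ * X₁) - N := by linear_combination -hc.l₁
  have hLX : v ((Λ - γ) * X₁) = v N := by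
    rw [e₁]
    exact v.map_sub_eq_of_lt_right (lt_of_lt_of_le hd₁ hNm)
  set L := v (Λ - γ) with hL
  have hLm : L * m = v N := by rw [← hLX, v.map_mul]
  have hL1 : 1 ≤ L := by
    by_contra h
    rw [not_le] at h
    have : L * m < m := mul_lt_of_lt_one_left h₀ h
    rw [hLm] at this
    exact absurd hNm (not_le.2 this)
  have hLpos : 0 < L := lt_of_lt_of_le zero_lt_one hL1
  -- V3 rewritten
  have e₃ : X₁ * X₂ * (X₃ - (Λ - γ) ^ 2) =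
      (Y₁ - γ * X₁) * (Y₂ - γ * X₂) - (Y₁ - γ * X₁) * ((Λ - γ) * X₂)
        - (Y₂ - γ * X₂) * ((Λ - γ) * X₁) := by
    linear_combination hc.v₃ - (Y₂ - Λ * X₂) * hc.l₁ - N * hc.l₂
  have hR : v (X₁ * X₂ * (X₃ - (Λ - γ) ^ 2)) < m * m * L := by
    rw [e₃]
    have hLmm : m * m ≤ m * m * L := le_mul_of_one_le_right zero_le hL1
    refine v.map_sub_lt (v.map_sub_lt ?_ ?_) ?_
    · rw [v.map_mul]
      exact lt_of_lt_of_le (mul_lt_mul'' hd₁ hd₂ zero_le zero_le) hLmm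
    · rw [v.map_mul, v.map_mul, hm2, ← hL, mul_comm L m, ← mul_assoc]
      exact mul_lt_mul_of_pos_right (mul_lt_mul_of_pos_right hd₁ h₀) hLpos
    · rw [v.map_mul, v.map_mul, ← hm, ← hL, mul_comm L m, ← mul_assoc]
      exact mul_lt_mul_of_pos_right (mul_lt_mul_of_pos_right hd₂ h₀) hLpos
  have hR' : v (X₃ - (Λ - γ) ^ 2) < L := by
    rw [v.map_mul, v.map_mul, ← hm, hm2] at hR
    exact lt_of_mul_lt_mul_left hR zero_le
  have hV1 : v (Λ ^ 2 - a - X₃) < L := by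
    have : Λ ^ 2 - a - X₃ = X₁ + X₂ := by linear_combination -hc.v₁
    rw [this]
    refine lt_of_lt_of_le (v.map_add_lt h₁ ?_) hL1
    rw [hm2]; exact h₁
  have hfin : v (2 * γ * (Λ - γ)) < L := by
    have : 2 * γ * (Λ - γ) = (Λ ^ 2 - a - X₃) + (X₃ - (Λ - γ) ^ 2) := by
      linear_combination -hγ
    rw [this]
    exact v.map_add_lt hV1 hR'
  rw [v.map_mul, v.map_mul, h2, hγ1, one_mul, one_mul] at hfin
  exact lt_irrefl _ hfin


end Cases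

section PhiT

variable {β : Γ₀} {γ X Y : K}

lemma phiT_of_one_le (h : 1 ≤ v X) : phiT v β γ X Y = 1 := by
  simp [phiT, h]

lemma phiT_of_le (h1 : v X < 1) (h : v X ≤ β) : phiT v β γ X Y = β := by
  simp [phiT, not_le.2 h1, h]

lemma phiT_of_pos (h1 : v X < 1) (h : β < v X) (hs : v (Y - γ * X) < v X) :
    phiT v β γ X Y = v X := by
  simp [phiT, not_le.2 h1, not_le.2 h, hs]

lemma phiT_of_neg (h1 : v X < 1) (h : β < v X) (hs : ¬ v (Y - γ * X) < v X) :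
    phiT v β γ X Y = (v X)⁻¹ := by
  simp [phiT, not_le.2 h1, not_le.2 h, hs]

lemma phiT_ne_zero (hβ : β ≠ 0) : phiT v β γ X Y ≠ 0 := by
  by_cases h1 : 1 ≤ v X
  · rw [phiT_of_one_le v h1]; exact one_ne_zero
  rw [not_le] at h1
  by_cases h : v X ≤ β
  · rw [phiT_of_le v h1 h]; exact hβ
  rw [not_le] at h
  have hX : v X ≠ 0 := (lt_of_le_of_lt zero_le h).ne'
  by_cases hs : v (Y - γ * X) < v X
  · rw [phiT_of_pos v h1 h hs]; exact hX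
  · rw [phiT_of_neg v h1 h hs]; exact inv_ne_zero hX

end PhiT

section TypeC

variable {a b γ X Y : K}

lemma gamma_val (ha : v a = 1) (hγ : γ ^ 2 = a) : v γ = 1 := by
  have : v γ ^ 2 = 1 := by rw [← v.map_pow, hγ, ha]
  exact (pow_eq_one_iff.1 this).resolve_right (by norm_num)

lemma typeC_dichotomy (e : Y ^ 2 = X ^ 3 + a * X ^ 2 + b * X) (h2 : v 2 = 1) (ha : v a = 1)
    (hγ : γ ^ 2 = a) (hb : v b < v X) (h1 : v X < 1) :
    (v (Y - γ * X) < v X) ↔ ¬ (v (Y + γ * X) < v X) := by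
  have hX : 0 < v X := lt_of_le_of_lt zero_le hb
  have hγ1 := gamma_val v ha hγ
  have hprod : (Y - γ * X) * (Y + γ * X) = X * (X ^ 2 + b) := by
    linear_combination e - X ^ 2 * hγ
  have hdiff : (Y + γ * X) - (Y - γ * X) = 2 * γ * X := by ring
  have hsmall : v (X * (X ^ 2 + b)) < v X * v X := by
    rw [v.map_mul]
    apply mul_lt_mul_of_pos_left _ hX
    apply v.map_add_lt _ hb
    rw [v.map_pow, sq]
    exact mul_lt_of_lt_one_left hX h1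
  constructor
  · intro hm hp
    have := v.map_sub_lt hp hm
    rw [hdiff, v.map_mul, v.map_mul, h2, hγ1, one_mul, one_mul] at this
    exact lt_irrefl _ this
  · intro hp
    by_contra hm
    rw [not_lt] at hp hm
    have := mul_le_mul' hm hp
    rw [← v.map_mul (Y - γ * X), hprod] at this
    exact absurd this (not_le.2 hsmall)

/-- Changing `γ` to `-γ` inverts the component, up to `β ^ 2`. -/
lemma phiT_neg_gamma (e : Y ^ 2 = X ^ 3 + a * X ^ 2 + b * X) (h2 : v 2 = 1) (ha : v a = 1)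
    (hγ : γ ^ 2 = a) (hb0 : b ≠ 0) :
    ∃ k : ℤ, phiT v (v b) (-γ) X Y * phiT v (v b) γ X Y = v b ^ (2 * k) := by
  by_cases h1 : 1 ≤ v X
  · refine ⟨0, ?_⟩
    rw [phiT_of_one_le v h1, phiT_of_one_le v h1]; simp
  rw [not_le] at h1
  by_cases h : v X ≤ v b
  · refine ⟨1, ?_⟩
    rw [phiT_of_le v h1 h, phiT_of_le v h1 h]
    simp [zpow_ofNat, sq]
  rw [not_le] at h
  have hX : v X ≠ 0 := (lt_of_le_of_lt zero_le h).ne'
  have hd := typeC_dichotomy v e h2 ha hγ h h1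
  refine ⟨0, ?_⟩
  have e' : ∀ t : K, Y - -γ * X = Y + γ * X := fun _ => by ring
  by_cases hs : v (Y - γ * X) < v X
  · have hs' : ¬ v (Y - -γ * X) < v X := by rw [e' 0]; exact hd.1 hs
    rw [phiT_of_pos v h1 h hs, phiT_of_neg v h1 h hs']
    simp [hX]
  · have hs' : v (Y - -γ * X) < v X := by
      rw [e' 0]
      by_contra hc
      exact hs (hd.2 hc)
    rw [phiT_of_neg v h1 h hs, phiT_of_pos v h1 h hs']
    simp [hX]

end TypeC

section Cases3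

variable {a b γ X₁ Y₁ X₂ Y₂ X₃ Y₃ Λ N : K}

/-- Case 3 (all three points reduce to the node), sorted, with `Λ ≡ γ`. -/
lemma case3 (hc : Collinear a b X₁ Y₁ X₂ Y₂ X₃ Y₃ Λ N) (h2 : v 2 = 1) (ha : v a = 1)
    (hγ : γ ^ 2 = a) (hb : v b < 1) (hb0 : b ≠ 0)
    (h₁ : v X₁ < 1) (h₂ : v X₂ < 1) (h₃ : v X₃ < 1) (hΛ : v (Λ - γ) < 1)
    (h21 : v X₂ ≤ v X₁) (h32 : v X₃ ≤ v X₂) :
    ∃ j : ℤ, phiT v (v b) γ X₁ Y₁ * phiT v (v b) γ X₂ Y₂ * phiT v (v b) γ X₃ Y₃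
      = v b ^ (2 * j) := by
  have hγ1 := gamma_val v ha hγ
  have hΛ1 : v Λ = 1 := by
    have : Λ = γ + (Λ - γ) := by ring
    rw [this, v.map_add_eq_of_lt_left (by rw [hγ1]; exact hΛ), hγ1]
  have hX₂0 : X₂ ≠ 0 := by
    rintro rfl
    have h30 : X₃ = 0 := by
      have : v X₃ ≤ 0 := by simpa using h32
      exact v.zero_iff.1 (le_antisymm this zero_le)
    subst h30
    have hN0 : N = 0 := by
      have h' : N ^ 2 = 0 := by rw [← hc.v₃]; ring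
      exact pow_eq_zero_iff (by norm_num) |>.1 h'
    have := hc.v₂
    rw [hN0] at this
    apply hb0
    linear_combination -this
  have hx₂ : 0 < v X₂ := v.pos_iff.2 hX₂0
  have hx₁ : 0 < v X₁ := lt_of_lt_of_le hx₂ h21
  have h12pos : 0 < v X₁ * v X₂ := mul_pos hx₁ hx₂
  have hN : v N ^ 2 = v X₁ * v X₂ * v X₃ := by
    rw [← v.map_pow, ← hc.v₃, v.map_mul, v.map_mul]
  have h2ΛN : v (2 * Λ * N) = v N := by
    rw [v.map_mul, v.map_mul, h2, hΛ1, one_mul, one_mul]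
  have eb : b = (X₁ * X₂ + X₁ * X₃ + X₂ * X₃) + 2 * Λ * N := by linear_combination -hc.v₂
  have h13 : v (X₁ * X₃) ≤ v X₁ * v X₂ := by
    rw [v.map_mul]; exact mul_le_mul' le_rfl h32
  have h23 : v (X₂ * X₃) ≤ v X₁ * v X₂ := by
    rw [v.map_mul, mul_comm (v X₁)]
    exact mul_le_mul' le_rfl (h32.trans h21)
  have hsum_le : v (X₁ * X₂ + X₁ * X₃ + X₂ * X₃) ≤ v X₁ * v X₂ :=
    v.map_add_le (v.map_add_le (by rw [v.map_mul]) h13) h23
  -- the sign lemma: if `v N < v X` then the point is on the `+` branch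
  have hplus : ∀ X Y : K, Y = Λ * X + N → v N < v X → v (Y - γ * X) < v X := by
    intro X Y hl hlt
    have : Y - γ * X = (Λ - γ) * X + N := by rw [hl]; ring
    rw [this]
    apply v.map_add_lt _ hlt
    rw [v.map_mul]
    exact mul_lt_of_lt_one_left (lt_of_le_of_lt zero_le hlt) hΛ
  have hx12_1 : v X₁ * v X₂ < v X₁ := mul_lt_of_lt_one_right hx₁ h₂
  have hx12_2 : v X₁ * v X₂ < v X₂ := mul_lt_of_lt_one_left hx₂ h₁
  rcases lt_trichotomy (v X₃) (v X₁ * v X₂) with hlt | heq | hgt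
  · -- (iii)
    have hnlt : v N < v X₁ * v X₂ := by
      apply lt_of_pow_lt_pow_left₀ 2 zero_le
      rw [hN, sq]
      exact mul_lt_mul_of_pos_left hlt h12pos
    have h13' : v (X₁ * X₃) < v X₁ * v X₂ := by
      rw [v.map_mul]
      exact mul_lt_mul_of_pos_left (lt_of_lt_of_le hlt (mul_le_of_le_one_left' h₁.le)) hx₁
    have h23' : v (X₂ * X₃) < v X₁ * v X₂ := by
      rw [v.map_mul, mul_comm (v X₁)]
      exact mul_lt_mul_of_pos_left (lt_of_lt_of_le hlt (mul_le_of_le_one_right' h₂.le)) hx₂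
    have hβ : v b = v X₁ * v X₂ := by
      rw [eb]
      have h1 : v (X₁ * X₂ + X₁ * X₃ + X₂ * X₃) = v X₁ * v X₂ := by
        rw [add_assoc, v.map_add_eq_of_lt_left, v.map_mul]
        rw [v.map_mul]
        exact v.map_add_lt h13' h23'
      rw [v.map_add_eq_of_lt_left, h1]
      rw [h1, h2ΛN]; exact hnlt
    refine ⟨1, ?_⟩
    have p1 : phiT v (v b) γ X₁ Y₁ = v X₁ :=
      phiT_of_pos v h₁ (by rw [hβ]; exact hx12_1) (hplus X₁ Y₁ hc.l₁ (hnlt.trans hx12_1))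
    have p2 : phiT v (v b) γ X₂ Y₂ = v X₂ :=
      phiT_of_pos v h₂ (by rw [hβ]; exact hx12_2) (hplus X₂ Y₂ hc.l₂ (hnlt.trans hx12_2))
    have p3 : phiT v (v b) γ X₃ Y₃ = v b :=
      phiT_of_le v h₃ (by rw [hβ]; exact hlt.le)
    rw [p1, p2, p3, ← hβ]
    simp [zpow_ofNat, sq]
  · -- (ii)
    have hx₃ : 0 < v X₃ := by rw [heq]; exact h12pos
    have hn : v N = v X₃ := by
      apply (pow_left_inj₀ zero_le zero_le (by norm_num : (2 : ℕ) ≠ 0)).1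
      rw [hN, ← heq, sq]
    have hβle : v b ≤ v X₃ := by
      rw [eb]
      exact v.map_add_le (by rw [heq]; exact hsum_le) (by rw [h2ΛN, hn])
    have p1 : phiT v (v b) γ X₁ Y₁ = v X₁ :=
      phiT_of_pos v h₁ (lt_of_le_of_lt hβle (by rw [heq]; exact hx12_1))
        (hplus X₁ Y₁ hc.l₁ (by rw [hn, heq]; exact hx12_1))
    have p2 : phiT v (v b) γ X₂ Y₂ = v X₂ :=
      phiT_of_pos v h₂ (lt_of_le_of_lt hβle (by rw [heq]; exact hx12_2))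
        (hplus X₂ Y₂ hc.l₂ (by rw [hn, heq]; exact hx12_2))
    by_cases h3b : v X₃ ≤ v b
    · refine ⟨1, ?_⟩
      have p3 : phiT v (v b) γ X₃ Y₃ = v b := phiT_of_le v h₃ h3b
      have : v X₃ = v b := le_antisymm h3b hβle
      rw [p1, p2, p3, ← heq, this]
      simp [zpow_ofNat, sq]
    · rw [not_le] at h3b
      refine ⟨0, ?_⟩
      have hs : ¬ v (Y₃ - γ * X₃) < v X₃ := by
        have : Y₃ - γ * X₃ = N + (Λ - γ) * X₃ := by rw [hc.l₃]; ring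
        rw [this, v.map_add_eq_of_lt_left, hn]
        · exact lt_irrefl _
        · rw [hn, v.map_mul]
          exact mul_lt_of_lt_one_left hx₃ hΛ
      have p3 : phiT v (v b) γ X₃ Y₃ = (v X₃)⁻¹ := phiT_of_neg v h₃ h3b hs
      rw [p1, p2, p3, ← heq]
      simp [hx₃.ne']
  · -- (i)
    have hx₃ : 0 < v X₃ := lt_trans h12pos hgt
    have hngt : v X₁ * v X₂ < v N := by
      apply lt_of_pow_lt_pow_left₀ 2 zero_le
      rw [hN, sq]
      exact mul_lt_mul_of_pos_left hgt h12pos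
    have hβ : v b = v N := by
      rw [eb, v.map_add_eq_of_lt_right, h2ΛN]
      rw [h2ΛN]
      exact lt_of_le_of_lt hsum_le hngt
    have hn3 : v N < v X₃ := by
      apply lt_of_pow_lt_pow_left₀ 2 zero_le
      rw [hN, sq]
      exact mul_lt_mul_of_pos_right hgt hx₃
    have hn2 : v N < v X₂ := lt_of_lt_of_le hn3 h32
    have hn1 : v N < v X₁ := lt_of_lt_of_le hn2 h21
    refine ⟨1, ?_⟩
    have p1 : phiT v (v b) γ X₁ Y₁ = v X₁ :=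
      phiT_of_pos v h₁ (by rw [hβ]; exact hn1) (hplus X₁ Y₁ hc.l₁ hn1)
    have p2 : phiT v (v b) γ X₂ Y₂ = v X₂ :=
      phiT_of_pos v h₂ (by rw [hβ]; exact hn2) (hplus X₂ Y₂ hc.l₂ hn2)
    have p3 : phiT v (v b) γ X₃ Y₃ = v X₃ :=
      phiT_of_pos v h₃ (by rw [hβ]; exact hn3) (hplus X₃ Y₃ hc.l₃ hn3)
    rw [p1, p2, p3, ← hN, hβ]
    simp [zpow_ofNat]

end Cases3

section Combine

variable {a b γ X₁ Y₁ X₂ Y₂ X₃ Y₃ Λ N : K}

lemma case2_aux (hc : Collinear a b X₁ Y₁ X₂ Y₂ X₃ Y₃ Λ N) (h2 : v 2 = 1) (ha : v a = 1)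
    (hγ : γ ^ 2 = a) (h₁ : v X₁ < 1) (h₂ : v X₂ < 1) (h₃ : 1 ≤ v X₃)
    (h21 : v X₂ ≤ v X₁) :
    ∃ j : ℤ, phiT v (v b) γ X₁ Y₁ * phiT v (v b) γ X₂ Y₂ = v b ^ (2 * j) := by
  by_cases h : v X₁ ≤ v b
  · refine ⟨1, ?_⟩
    rw [phiT_of_le v h₁ h, phiT_of_le v h₂ (h21.trans h)]
    simp [zpow_ofNat, sq]
  rw [not_le] at h
  have heq : v X₂ = v X₁ := le_antisymm h21 (not_lt.1 (case2_val_eq v hc h2 ha h h₁ h₂ h₃))
  have hb2 : v b < v X₂ := by rw [heq]; exact h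
  have hpos : 0 < v X₁ := lt_of_le_of_lt zero_le h
  have hX₂ : v X₂ ≠ 0 := by rw [heq]; exact hpos.ne'
  have n1 := case2_sign v hc h2 ha hγ heq.symm hpos h₁ h₃
  have n2 := case2_sign v hc h2 ha (γ := -γ) (by rw [neg_sq, hγ]) heq.symm hpos h₁ h₃
  have d1 := typeC_dichotomy v hc.e₁ h2 ha hγ h h₁
  have d2 := typeC_dichotomy v hc.e₂ h2 ha hγ hb2 h₂
  have e' : ∀ X Y : K, Y - -γ * X = Y + γ * X := fun _ _ => by ring
  rw [e', e'] at n2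
  refine ⟨0, ?_⟩
  by_cases s₁ : v (Y₁ - γ * X₁) < v X₁
  · have s₂ : ¬ v (Y₂ - γ * X₂) < v X₂ := fun s₂ => n1 ⟨s₁, s₂⟩
    rw [phiT_of_pos v h₁ h s₁, phiT_of_neg v h₂ hb2 s₂, heq]
    simp [hpos.ne']
  · have s₂ : v (Y₂ - γ * X₂) < v X₂ := by
      by_contra s₂
      apply n2
      constructor
      · by_contra hc1
        exact s₁ (d1.2 hc1)
      · by_contra hc2
        exact s₂ (d2.2 hc2)
    rw [phiT_of_neg v h₁ h s₁, phiT_of_pos v h₂ hb2 s₂, heq]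
    simp [hpos.ne']

lemma case2 (hc : Collinear a b X₁ Y₁ X₂ Y₂ X₃ Y₃ Λ N) (h2 : v 2 = 1) (ha : v a = 1)
    (hγ : γ ^ 2 = a) (h₁ : v X₁ < 1) (h₂ : v X₂ < 1) (h₃ : 1 ≤ v X₃) :
    ∃ j : ℤ, phiT v (v b) γ X₁ Y₁ * phiT v (v b) γ X₂ Y₂ = v b ^ (2 * j) := by
  rcases le_total (v X₂) (v X₁) with h | h
  · exact case2_aux v hc h2 ha hγ h₁ h₂ h₃ h
  · obtain ⟨j, hj⟩ := case2_aux v (collinear_swap12 hc) h2 ha hγ h₂ h₁ h₃ h
    exact ⟨j, by rw [mul_comm]; exact hj⟩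

lemma case3_sorted (hc : Collinear a b X₁ Y₁ X₂ Y₂ X₃ Y₃ Λ N) (h2 : v 2 = 1) (ha : v a = 1)
    (hγ : γ ^ 2 = a) (hb : v b < 1) (hb0 : b ≠ 0)
    (h₁ : v X₁ < 1) (h₂ : v X₂ < 1) (h₃ : v X₃ < 1) (hΛ : v (Λ - γ) < 1) :
    ∃ j : ℤ, phiT v (v b) γ X₁ Y₁ * phiT v (v b) γ X₂ Y₂ * phiT v (v b) γ X₃ Y₃
      = v b ^ (2 * j) := by
  rcases le_total (v X₂) (v X₁) with h21 | h12
  · rcases le_total (v X₃) (v X₂) with h32 | h23
    · exact case3 v hc h2 ha hγ hb hb0 h₁ h₂ h₃ hΛ h21 h32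
    · rcases le_total (v X₃) (v X₁) with h31 | h13
      · -- x₂ ≤ x₃ ≤ x₁ : order (1,3,2)
        obtain ⟨j, hj⟩ := case3 v (collinear_swap23 hc) h2 ha hγ hb hb0 h₁ h₃ h₂ hΛ h31 h23
        exact ⟨j, by rw [← hj]; simp only [mul_assoc, mul_comm, mul_left_comm]⟩
      · -- x₂ ≤ x₁ ≤ x₃ : order (3,1,2)
        obtain ⟨j, hj⟩ := case3 v (collinear_swap23 (collinear_swap13 hc)) h2 ha hγ hb hb0
          h₃ h₁ h₂ hΛ h13 h21
        exact ⟨j, by rw [← hj]; simp only [mul_assoc, mul_comm, mul_left_comm]⟩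
  · rcases le_total (v X₃) (v X₁) with h31 | h13
    · -- x₃ ≤ x₁ ≤ x₂ : order (2,1,3)
      obtain ⟨j, hj⟩ := case3 v (collinear_swap12 hc) h2 ha hγ hb hb0 h₂ h₁ h₃ hΛ h12 h31
      exact ⟨j, by rw [← hj]; simp only [mul_assoc, mul_comm, mul_left_comm]⟩
    · rcases le_total (v X₃) (v X₂) with h32 | h23
      · -- x₁ ≤ x₃ ≤ x₂ : order (2,3,1)
        obtain ⟨j, hj⟩ := case3 v (collinear_swap23 (collinear_swap12 hc)) h2 ha hγ hb hb0
          h₂ h₃ h₁ hΛ h32 h13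
        exact ⟨j, by rw [← hj]; simp only [mul_assoc, mul_comm, mul_left_comm]⟩
      · -- x₁ ≤ x₂ ≤ x₃ : order (3,2,1)
        obtain ⟨j, hj⟩ := case3 v (collinear_swap13 hc) h2 ha hγ hb hb0 h₃ h₂ h₁ hΛ h23 h12
        exact ⟨j, by rw [← hj]; simp only [mul_assoc, mul_comm, mul_left_comm]⟩

lemma case3_all (hc : Collinear a b X₁ Y₁ X₂ Y₂ X₃ Y₃ Λ N) (h2 : v 2 = 1) (ha : v a = 1)
    (hγ : γ ^ 2 = a) (hb : v b < 1) (hb0 : b ≠ 0)
    (h₁ : v X₁ < 1) (h₂ : v X₂ < 1) (h₃ : v X₃ < 1) :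
    ∃ j : ℤ, phiT v (v b) γ X₁ Y₁ * phiT v (v b) γ X₂ Y₂ * phiT v (v b) γ X₃ Y₃
      = v b ^ (2 * j) := by
  have hβ : v b ≠ 0 := (v.ne_zero_iff).2 hb0
  have hsign : v (Λ - γ) < 1 ∨ v (Λ + γ) < 1 := by
    have e : (Λ - γ) * (Λ + γ) = X₁ + X₂ + X₃ := by
      linear_combination -hc.v₁ - hγ
    have hlt : v ((Λ - γ) * (Λ + γ)) < 1 := by
      rw [e]
      exact v.map_add_lt (v.map_add_lt h₁ h₂) h₃
    rw [v.map_mul] at hlt
    by_contra hcon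
    rw [not_or, not_lt, not_lt] at hcon
    exact absurd (one_le_mul_of_one_le_of_one_le hcon.1 hcon.2) (not_le.2 hlt)
  rcases hsign with hΛ | hΛ
  · exact case3_sorted v hc h2 ha hγ hb hb0 h₁ h₂ h₃ hΛ
  · have hΛ' : v (Λ - -γ) < 1 := by rw [sub_neg_eq_add]; exact hΛ
    obtain ⟨j, hj⟩ := case3_sorted v hc h2 ha (γ := -γ) (by rw [neg_sq, hγ]) hb hb0 h₁ h₂ h₃ hΛ'
    obtain ⟨k₁, hk₁⟩ := phiT_neg_gamma v hc.e₁ h2 ha hγ hb0
    obtain ⟨k₂, hk₂⟩ := phiT_neg_gamma v hc.e₂ h2 ha hγ hb0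
    obtain ⟨k₃, hk₃⟩ := phiT_neg_gamma v hc.e₃ h2 ha hγ hb0
    refine ⟨k₁ + k₂ + k₃ - j, ?_⟩
    have hne : phiT v (v b) (-γ) X₁ Y₁ * phiT v (v b) (-γ) X₂ Y₂ * phiT v (v b) (-γ) X₃ Y₃ ≠ 0 :=
      mul_ne_zero (mul_ne_zero (phiT_ne_zero v hβ) (phiT_ne_zero v hβ)) (phiT_ne_zero v hβ)
    apply mul_left_cancel₀ hne
    calc phiT v (v b) (-γ) X₁ Y₁ * phiT v (v b) (-γ) X₂ Y₂ * phiT v (v b) (-γ) X₃ Y₃ *
          (phiT v (v b) γ X₁ Y₁ * phiT v (v b) γ X₂ Y₂ * phiT v (v b) γ X₃ Y₃)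
        = (phiT v (v b) (-γ) X₁ Y₁ * phiT v (v b) γ X₁ Y₁) *
          (phiT v (v b) (-γ) X₂ Y₂ * phiT v (v b) γ X₂ Y₂) *
          (phiT v (v b) (-γ) X₃ Y₃ * phiT v (v b) γ X₃ Y₃) := by
          simp only [mul_assoc, mul_comm, mul_left_comm]
      _ = v b ^ (2 * k₁) * v b ^ (2 * k₂) * v b ^ (2 * k₃) := by rw [hk₁, hk₂, hk₃]
      _ = v b ^ (2 * j) * v b ^ (2 * (k₁ + k₂ + k₃ - j)) := by
          rw [← zpow_add₀ hβ, ← zpow_add₀ hβ, ← zpow_add₀ hβ]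
          congr 1
          ring
      _ = _ := by rw [hj]

/-- (P4) The component map is additive on collinear triples, up to `v b ^ 2`. -/
theorem component_collinear (hc : Collinear a b X₁ Y₁ X₂ Y₂ X₃ Y₃ Λ N)
    (h2 : v 2 = 1) (ha : v a = 1) (hb : v b < 1) (hb0 : b ≠ 0) (hγ : γ ^ 2 = a) :
    ∃ j : ℤ, phiT v (v b) γ X₁ Y₁ * phiT v (v b) γ X₂ Y₂ * phiT v (v b) γ X₃ Y₃
      = v b ^ (2 * j) := by
  by_cases h₁ : v X₁ < 1 <;> by_cases h₂ : v X₂ < 1 <;> by_cases h₃ : v X₃ < 1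
  · exact case3_all v hc h2 ha hγ hb hb0 h₁ h₂ h₃
  · rw [not_lt] at h₃
    obtain ⟨j, hj⟩ := case2 v hc h2 ha hγ h₁ h₂ h₃
    exact ⟨j, by rw [phiT_of_one_le v h₃, mul_one, hj]⟩
  · rw [not_lt] at h₂
    obtain ⟨j, hj⟩ := case2 v (collinear_swap23 hc) h2 ha hγ h₁ h₃ h₂
    exact ⟨j, by rw [phiT_of_one_le v h₂, mul_one, hj]⟩
  · rw [not_lt] at h₂ h₃
    exact absurd (case1 v (collinear_swap13 hc) h2 ha.le hb h₃ h₂) (not_le.2 h₁)
  · rw [not_lt] at h₁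
    obtain ⟨j, hj⟩ := case2 v (collinear_swap13 hc) h2 ha hγ h₃ h₂ h₁
    refine ⟨j, ?_⟩
    rw [phiT_of_one_le v h₁, one_mul, mul_comm, hj]
  · rw [not_lt] at h₁ h₃
    exact absurd (case1 v (collinear_swap23 hc) h2 ha.le hb h₁ h₃) (not_le.2 h₂)
  · rw [not_lt] at h₁ h₂
    exact absurd (case1 v hc h2 ha.le hb h₁ h₂) (not_le.2 h₃)
  · rw [not_lt] at h₁ h₂ h₃
    refine ⟨0, ?_⟩
    rw [phiT_of_one_le v h₁, phiT_of_one_le v h₂, phiT_of_one_le v h₃]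
    simp

end Combine

end Fermat.Agent.S05_helper1_Component
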