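import Mathlib
import Fermat.Agent.S05_helper1_Defs

set_option autoImplicit false

namespace Fermat.Agent.S05_helper25_Bridge

open WeierstrassCurve WeierstrassCurve.Affine Fermat.Agent.S05_helper1_Defs Polynomial

variable {K : Type*} [Field K] [DecidableEq K] {W : WeierstrassCurve.Affine K}

/-- Vieta relations for the chord/tangent line through two points (all cases). -/
theorem vieta {x₁ y₁ x₂ y₂ : K} (h₁ : W.Equation x₁ y₁) (h₂ : W.Equation x₂ y₂)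
    (hxy : ¬(x₁ = x₂ ∧ y₁ = W.negY x₂ y₂)) :
    x₁ + x₂ + W.addX x₁ x₂ (W.slope x₁ x₂ y₁ y₂) =
        (W.slope x₁ x₂ y₁ y₂) ^ 2 + W.a₁ * (W.slope x₁ x₂ y₁ y₂) - W.a₂ ∧
      x₁ * x₂ + x₁ * W.addX x₁ x₂ (W.slope x₁ x₂ y₁ y₂) +
          x₂ * W.addX x₁ x₂ (W.slope x₁ x₂ y₁ y₂) =
        2 * x₁ * (W.slope x₁ x₂ y₁ y₂) ^ 2 +
          (W.a₁ * x₁ - 2 * y₁ - W.a₃) * (W.slope x₁ x₂ y₁ y₂) + (-W.a₁ * y₁ + W.a₄) ∧
      x₁ * x₂ * W.addX x₁ x₂ (W.slope x₁ x₂ y₁ y₂) =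
        x₁ ^ 2 * (W.slope x₁ x₂ y₁ y₂) ^ 2 -
          (2 * x₁ * y₁ + W.a₃ * x₁) * (W.slope x₁ x₂ y₁ y₂) + (y₁ ^ 2 + W.a₃ * y₁ - W.a₆) := by
  have h := addPolynomial_slope h₁ h₂ hxy
  rw [addPolynomial_eq, neg_inj, Cubic.prod_X_sub_C_eq, Cubic.toPoly_injective] at h
  have hb := congrArg Cubic.b h
  have hc := congrArg Cubic.c h
  have hd := congrArg Cubic.d h
  simp only at hb hc hd
  refine ⟨?_, ?_, ?_⟩
  · linear_combination hb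
  · linear_combination -hc
  · linear_combination hd

/-- The second point lies on the line through the first point with the Mathlib slope. -/
theorem line_through {x₁ y₁ x₂ y₂ : K} (h₁ : W.Equation x₁ y₁) (h₂ : W.Equation x₂ y₂)
    (hxy : ¬(x₁ = x₂ ∧ y₁ = W.negY x₂ y₂)) :
    y₂ = W.slope x₁ x₂ y₁ y₂ * (x₂ - x₁) + y₁ := by
  by_cases hx : x₁ = x₂
  · have hy : y₁ ≠ W.negY x₂ y₂ := fun h => hxy ⟨hx, h⟩
    have := Y_eq_of_Y_ne h₁ h₂ hx hy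
    subst hx
    rw [this]
    ring
  · rw [slope_of_X_ne hx]
    have hx' : x₁ - x₂ ≠ 0 := sub_ne_zero.mpr hx
    field_simp
    ring

omit [DecidableEq K] in
/-- The short equation in the coordinates `X = 4 x - s`, `Y = 8 y + 4 x`. -/
theorem short_equation {s a b : K} (hW : ShortModel W s a b) {x y : K} (h : W.Equation x y) :
    (8 * y + 4 * x) ^ 2 = (4 * x - s) ^ 3 + a * (4 * x - s) ^ 2 + b * (4 * x - s) := by
  rw [equation_iff, hW.a₁, hW.a₃, hW.a₆] at h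
  rw [hW.ha, hW.hb]
  linear_combination 64 * h + hW.hs

theorem bridge {s a b : K} (hW : ShortModel W s a b)
    {x₁ y₁ x₂ y₂ x₃ y₃ : K} (h₁ : W.Nonsingular x₁ y₁) (h₂ : W.Nonsingular x₂ y₂)
    (h₃ : W.Nonsingular x₃ y₃)
    (hsum : Point.some x₁ y₁ h₁ + Point.some x₂ y₂ h₂ + Point.some x₃ y₃ h₃ = 0) :
    ∃ Λ N : K, Collinear a b (4 * x₁ - s) (8 * y₁ + 4 * x₁) (4 * x₂ - s) (8 * y₂ + 4 * x₂)
      (4 * x₃ - s) (8 * y₃ + 4 * x₃) Λ N := by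
  have hneg : Point.some x₁ y₁ h₁ + Point.some x₂ y₂ h₂ = -Point.some x₃ y₃ h₃ :=
    eq_neg_of_add_eq_zero_left hsum
  have hxy : ¬(x₁ = x₂ ∧ y₁ = W.negY x₂ y₂) := by
    rintro ⟨hx, hy⟩
    rw [Point.add_of_Y_eq hx hy] at hneg
    rw [Point.neg_some] at hneg
    exact Point.some_ne_zero _ hneg.symm
  rw [Point.add_some hxy, Point.neg_some, Point.some.injEq] at hneg
  obtain ⟨hx₃, hy₃⟩ := hneg
  have hy₃' : y₃ = W.negAddY x₁ x₂ y₁ (W.slope x₁ x₂ y₁ y₂) := by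
    have := congrArg (W.negY x₃) hy₃
    rw [negY_negY] at this
    rw [← this, addY, ← hx₃, negY_negY]
  obtain ⟨v₁, v₂, v₃⟩ := vieta h₁.1 h₂.1 hxy
  have hl₂ := line_through h₁.1 h₂.1 hxy
  rw [hx₃] at v₁ v₂ v₃
  simp only [negAddY] at hy₃'
  rw [hx₃] at hy₃'
  set l := W.slope x₁ x₂ y₁ y₂ with hl
  rw [hW.a₁, hW.a₃] at v₂
  rw [hW.a₃, hW.a₆] at v₃
  rw [hW.a₁] at v₁
  refine ⟨2 * l + 1, (2 * l + 1) * s + 8 * (y₁ - l * x₁), ?_⟩
  refine ⟨short_equation hW h₁.1, short_equation hW h₂.1, short_equation hW h₃.1,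
    ?_, ?_, ?_, ?_, ?_, ?_⟩
  · ring
  · linear_combination 8 * hl₂
  · linear_combination 8 * hy₃'
  · rw [hW.ha]
    linear_combination 4 * v₁
  · rw [hW.hb]
    linear_combination 16 * v₂ - 8 * s * v₁
  · linear_combination 64 * v₃ - 16 * s * v₂ + 4 * s ^ 2 * v₁ - hW.hs

end Fermat.Agent.S05_helper25_Bridge
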