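import Mathlib
import Fermat.Agent.S05_helper1_Defs
import Fermat.Agent.S05_helper1_Component
import Fermat.Agent.S05_helper25_Bridge

set_option autoImplicit false

namespace Fermat.Agent.S05_helper1_Chord

open WeierstrassCurve WeierstrassCurve.Affine Fermat.Agent.S05_helper1_Defs
open Fermat.Agent.S05_helper1_Component Fermat.Agent.S05_helper25_Bridge

variable {K : Type*} [Field K] {Γ₀ : Type*} [LinearOrderedCommGroupWithZero Γ₀]
  (v : Valuation K Γ₀)

section Algebra

variable {a b X Y : K}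

lemma val_four (h2 : v 2 = 1) : v (4 : K) = 1 := by
  have : (4 : K) = 2 * 2 := by norm_num
  rw [this, v.map_mul, h2, one_mul]

lemma val_eight (h2 : v 2 = 1) : v (8 : K) = 1 := by
  have : (8 : K) = 2 * 2 * 2 := by norm_num
  rw [this, v.map_mul, v.map_mul, h2, one_mul, one_mul]

/-- If `Y` is a non-unit at a point of the short model (good or nodal reduction, the point not
reducing to the node), then the derivative of the cubic is a unit there. -/
lemma fprime_unit (e : Y ^ 2 = X ^ 3 + a * X ^ 2 + b * X) (h2 : v 2 = 1) (ha : v a ≤ 1)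
    (hb : v b ≤ 1) (hdisc : v (a ^ 2 - 4 * b) = 1) (hX : v X ≤ 1)
    (hcase : v X = 1 ∨ v b = 1) (hY : v Y < 1) :
    v (3 * X ^ 2 + 2 * a * X + b) = 1 := by
  have h3 : v (3 : K) ≤ 1 := by
    have : (3 : K) = 2 + 1 := by norm_num
    rw [this]
    exact v.map_add_le h2.le (by rw [v.map_one])
  rcases lt_or_eq_of_le hX with hlt | heq
  · have hb1 : v b = 1 := hcase.resolve_left hlt.ne
    have e1 : 3 * X ^ 2 + 2 * a * X + b = b + X * (3 * X + 2 * a) := by ring
    rw [e1, v.map_add_eq_of_lt_left, hb1]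
    rw [hb1, v.map_mul]
    have : v (3 * X + 2 * a) ≤ 1 := by
      apply v.map_add_le
      · rw [v.map_mul]; exact mul_le_one' h3 hX
      · rw [v.map_mul, h2, one_mul]; exact ha
    calc v X * v (3 * X + 2 * a) ≤ v X * 1 := mul_le_mul' le_rfl this
      _ = v X := mul_one _
      _ < 1 := hlt
  · have hq : v (X ^ 2 + a * X + b) < 1 := by
      have e2 : Y ^ 2 = X * (X ^ 2 + a * X + b) := by rw [e]; ring
      have : v (Y ^ 2) < 1 := by
        rw [v.map_pow]
        exact pow_lt_one₀ zero_le hY (by norm_num)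
      rw [e2, v.map_mul, heq, one_mul] at this
      exact this
    have h2Xa : v (2 * X + a) = 1 := by
      have e3 : (2 * X + a) ^ 2 = (a ^ 2 - 4 * b) + 4 * (X ^ 2 + a * X + b) := by ring
      have : v ((2 * X + a) ^ 2) = 1 := by
        rw [e3, v.map_add_eq_of_lt_left, hdisc]
        rw [hdisc, v.map_mul, val_four v h2, one_mul]
        exact hq
      rw [v.map_pow] at this
      exact (pow_eq_one_iff.1 this).resolve_right (by norm_num)
    have e4 : 3 * X ^ 2 + 2 * a * X + b = X * (2 * X + a) + (X ^ 2 + a * X + b) := by ring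
    rw [e4, v.map_add_eq_of_lt_left, v.map_mul, heq, h2Xa, one_mul]
    rw [v.map_mul, heq, h2Xa, one_mul]
    exact hq

/-- For a point of type `C`, `v Y = v X`. -/
lemma typeC_vY (e : Y ^ 2 = X ^ 3 + a * X ^ 2 + b * X) (ha : v a = 1)
    (hb : v b < v X) (h1 : v X < 1) : v Y = v X := by
  have hX : 0 < v X := lt_of_le_of_lt zero_le hb
  have e1 : Y ^ 2 = a * X ^ 2 + X * (X ^ 2 + b) := by rw [e]; ring
  have hsmall : v (X * (X ^ 2 + b)) < v (a * X ^ 2) := by
    rw [v.map_mul, v.map_mul, ha, one_mul, v.map_pow, pow_two (v X)]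
    apply mul_lt_mul_of_pos_left _ hX
    apply v.map_add_lt _ hb
    rw [v.map_pow, sq]
    exact mul_lt_of_lt_one_left hX h1
  have : v (Y ^ 2) = v X ^ 2 := by
    rw [e1, v.map_add_eq_of_lt_left hsmall, v.map_mul, ha, one_mul, v.map_pow]
  rw [v.map_pow] at this
  exact (pow_left_inj₀ zero_le zero_le (by norm_num : (2 : ℕ) ≠ 0)).1 this

end Algebra

section Group

variable [DecidableEq K] {W : WeierstrassCurve.Affine K} {s a b : K}

omit [DecidableEq K] in
lemma sY_neg (hW : ShortModel W s a b) (x y : K) :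
    8 * W.negY x y + 4 * x = -(8 * y + 4 * x) := by
  simp only [negY, hW.a₁, hW.a₃]
  ring

omit [DecidableEq K] in
lemma val_x_of_val_sX (h2 : v 2 = 1) (hs : v s ≤ 1) {x : K} (hx : 1 < v (4 * x - s)) :
    1 < v x := by
  have e : 4 * x = (4 * x - s) + s := by ring
  have : v (4 * x) = v (4 * x - s) := by
    calc v (4 * x) = v ((4 * x - s) + s) := by rw [← e]
      _ = v (4 * x - s) := v.map_add_eq_of_lt_left (lt_of_le_of_lt hs hx)
  rw [v.map_mul, val_four v h2, one_mul] at this
  rw [this]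
  exact hx

/-- The chord argument: a torsion point whose conjugate is congruent to it is fixed. -/
theorem chord_fixed (hW : ShortModel W s a b) (h2 : v 2 = 1) (hs : v s ≤ 1) (ha : v a ≤ 1)
    (n : ℕ)
    (hker : ∀ {x y : K} (h : W.Nonsingular x y), 1 < v x → n • Point.some x y h ≠ 0)
    {x y x' y' : K} (h : W.Nonsingular x y) (h' : W.Nonsingular x' y')
    (hP : n • Point.some x y h = 0) (hP' : n • Point.some x' y' h' = 0)
    (hx : v x ≤ 1) (hY : v (8 * y + 4 * x) ≤ 1)
    (hdx : v (x' - x) < v (8 * y + 4 * x)) (hdy : v (y' - y) < v (8 * y + 4 * x)) :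
    Point.some x' y' h' = Point.some x y h := by
  by_contra hne
  have hR : Point.some x y h - Point.some x' y' h' ≠ 0 := sub_ne_zero.2 (Ne.symm hne)
  have hnR : n • (Point.some x y h - Point.some x' y' h') = 0 := by
    rw [smul_sub, hP, hP', sub_zero]
  rcases hQ : Point.some x y h - Point.some x' y' h' with _ | ⟨x₃, y₃, h₃⟩
  · exact hR hQ
  rw [hQ] at hnR
  have hsum : Point.some x' y' h' + (-Point.some x y h) + Point.some x₃ y₃ h₃ = 0 := by
    rw [← hQ]; abel
  rw [Point.neg_some] at hsum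
  obtain ⟨Λ, N, hc⟩ := bridge hW h' ((nonsingular_neg ..).mpr h) h₃ hsum
  rw [sY_neg hW] at hc
  have h4 := val_four v h2
  have h8 := val_eight v h2
  have hx' : v x' ≤ 1 := by
    have : x' = x + (x' - x) := by ring
    rw [this]
    exact v.map_add_le hx (hdx.le.trans hY)
  have hsX : v (4 * x - s) ≤ 1 := by
    apply v.map_sub_le _ hs
    rw [v.map_mul, h4, one_mul]; exact hx
  have hsX' : v (4 * x' - s) ≤ 1 := by
    apply v.map_sub_le _ hs
    rw [v.map_mul, h4, one_mul]; exact hx'
  -- slope is non-integral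
  have hI3 := collinear_I3 hc
  have e1 : Λ * (4 * (x' - x)) = 2 * (8 * y + 4 * x) + (8 * (y' - y) + 4 * (x' - x)) := by
    linear_combination hI3
  have hrhs : v (2 * (8 * y + 4 * x) + (8 * (y' - y) + 4 * (x' - x))) = v (8 * y + 4 * x) := by
    rw [v.map_add_eq_of_lt_left, v.map_mul, h2, one_mul]
    rw [v.map_mul, h2, one_mul]
    apply v.map_add_lt
    · rw [v.map_mul, h8, one_mul]; exact hdy
    · rw [v.map_mul, h4, one_mul]; exact hdx
  have hΛ : 1 < v Λ := by
    by_contra hle
    rw [not_lt] at hle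
    have := congrArg v e1
    rw [hrhs, v.map_mul, v.map_mul, h4, one_mul] at this
    have h1 : v Λ * v (x' - x) ≤ v (x' - x) := mul_le_of_le_one_left' hle
    rw [this] at h1
    exact absurd h1 (not_le.2 hdx)
  have hΛ2 : 1 < v (Λ ^ 2) := by
    rw [v.map_pow]
    exact one_lt_pow₀ hΛ (by norm_num)
  have e2 : 4 * x₃ - s = Λ ^ 2 + (-a - (4 * x' - s) - (4 * x - s)) := by
    linear_combination hc.v₁
  have hx₃ : 1 < v (4 * x₃ - s) := by
    rw [e2, v.map_add_eq_of_lt_left]
    · exact hΛ2
    · refine lt_of_le_of_lt ?_ hΛ2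
      refine v.map_sub_le (v.map_sub_le ?_ hsX') hsX
      rw [v.map_neg]; exact ha
  exact hker h₃ (val_x_of_val_sX v h2 hs hx₃) hnR

/-- The duplication argument: the `Y`-coordinate of an odd torsion point is a unit as soon as
the derivative of the cubic is. -/
theorem y_unit_of_torsion (hW : ShortModel W s a b) (h2 : v 2 = 1) (hs : v s ≤ 1)
    (ha : v a ≤ 1) (n : ℕ) (hodd : Odd n)
    (hker : ∀ {x y : K} (h : W.Nonsingular x y), 1 < v x → n • Point.some x y h ≠ 0)
    {x y : K} (h : W.Nonsingular x y) (hP : n • Point.some x y h = 0) (hx : v x ≤ 1)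
    (hf : v (8 * y + 4 * x) < 1 →
      v (3 * (4 * x - s) ^ 2 + 2 * a * (4 * x - s) + b) = 1) :
    ¬ v (8 * y + 4 * x) < 1 := by
  intro hlt
  have hf' := hf hlt
  have h4 := val_four v h2
  have h2P : Point.some x y h + Point.some x y h ≠ 0 := by
    intro h0
    obtain ⟨k, hk⟩ := hodd
    have : n • Point.some x y h = Point.some x y h := by
      rw [hk, add_smul, mul_comm, mul_smul, two_smul, h0, smul_zero, zero_add, one_smul]
    rw [hP] at this
    exact Point.some_ne_zero _ this.symm
  have hn2 : n • (Point.some x y h + Point.some x y h) = 0 := by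
    rw [smul_add, hP, add_zero]
  rcases hQ : Point.some x y h + Point.some x y h with _ | ⟨x₃, y₃, h₃⟩
  · exact h2P hQ
  rw [hQ] at hn2
  have hsum : Point.some x y h + Point.some x y h + (-Point.some x₃ y₃ h₃) = 0 := by
    rw [← hQ]; abel
  rw [Point.neg_some] at hsum
  obtain ⟨Λ, N, hc⟩ := bridge hW h h ((nonsingular_neg ..).mpr h₃) hsum
  have hI1 := collinear_I1 hc
  have e1 : Λ * (2 * (8 * y + 4 * x)) = 3 * (4 * x - s) ^ 2 + 2 * a * (4 * x - s) + b := by
    linear_combination hI1
  have hΛ : 1 < v Λ := by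
    by_contra hle
    rw [not_lt] at hle
    have := congrArg v e1
    rw [hf', v.map_mul, v.map_mul, h2, one_mul] at this
    have h1 : v Λ * v (8 * y + 4 * x) ≤ v (8 * y + 4 * x) := mul_le_of_le_one_left' hle
    rw [this] at h1
    exact absurd h1 (not_le.2 hlt)
  have hΛ2 : 1 < v (Λ ^ 2) := by
    rw [v.map_pow]
    exact one_lt_pow₀ hΛ (by norm_num)
  have hsX : v (4 * x - s) ≤ 1 := by
    apply v.map_sub_le _ hs
    rw [v.map_mul, h4, one_mul]; exact hx
  have e2 : 4 * x₃ - s = Λ ^ 2 + (-a - (4 * x - s) - (4 * x - s)) := by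
    linear_combination hc.v₁
  have hx₃ : 1 < v (4 * x₃ - s) := by
    rw [e2, v.map_add_eq_of_lt_left]
    · exact hΛ2
    · refine lt_of_le_of_lt ?_ hΛ2
      refine v.map_sub_le (v.map_sub_le ?_ hsX) hsX
      rw [v.map_neg]; exact ha
  exact hker h₃ (val_x_of_val_sX v h2 hs hx₃) hn2

end Group

end Fermat.Agent.S05_helper1_Chord
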