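import Mathlib
import Fermat.Agent.S05_helper1_Defs
import Fermat.Agent.S05_helper1_Component
import Fermat.Agent.S05_helper25_Bridge

set_option autoImplicit false

namespace Fermat.Agent.S05_helper25_CompTorsion

open WeierstrassCurve WeierstrassCurve.Affine Fermat.Agent.S05_helper1_Defs
open Fermat.Agent.S05_helper1_Component Fermat.Agent.S05_helper25_Bridge

variable {K : Type*} [Field K] [DecidableEq K] {Γ₀ : Type*}
  [LinearOrderedCommGroupWithZero Γ₀] (v : Valuation K Γ₀)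
  {W : WeierstrassCurve.Affine K} {s a b γ : K}

/-- The component map on points. -/
noncomputable def phiP (W : WeierstrassCurve.Affine K) (s : K) (β : Γ₀) (γ : K) :
    W.Point → Γ₀
  | .zero => 1
  | .some x y _ => phiT v β γ (4 * x - s) (8 * y + 4 * x)

omit [DecidableEq K] in
@[simp] lemma phiP_zero (β : Γ₀) : phiP v W s β γ (0 : W.Point) = 1 := rfl

omit [DecidableEq K] in
@[simp] lemma phiP_some (β : Γ₀) {x y : K} (h : W.Nonsingular x y) :
    phiP v W s β γ (Point.some x y h) = phiT v β γ (4 * x - s) (8 * y + 4 * x) := rfl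

omit [DecidableEq K] in
lemma phiP_ne_zero {β : Γ₀} (hβ : β ≠ 0) (P : W.Point) : phiP v W s β γ P ≠ 0 := by
  cases P with
  | zero => exact one_ne_zero
  | some x y h => rw [phiP_some]; exact phiT_ne_zero v hβ

omit [DecidableEq K] in
lemma phiT_neg_Y (β : Γ₀) (γ X Y : K) : phiT v β γ X (-Y) = phiT v β (-γ) X Y := by
  unfold phiT
  have : v (-Y - γ * X) = v (Y - -γ * X) := by
    rw [show -Y - γ * X = -(Y - -γ * X) by ring, Valuation.map_neg]
  rw [this]

omit [DecidableEq K] in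
/-- NEG: the component of `-P` is inverse to that of `P`, up to `v b ^ 2`. -/
lemma phiP_neg (hW : ShortModel W s a b) (h2 : v 2 = 1) (ha : v a = 1) (hb0 : b ≠ 0)
    (hγ : γ ^ 2 = a) {x y : K} (h : W.Nonsingular x y) :
    ∃ k : ℤ, phiP v W s (v b) γ (-Point.some x y h) * phiP v W s (v b) γ (Point.some x y h) =
      v b ^ (2 * k) := by
  rw [Point.neg_some, phiP_some, phiP_some]
  have hneg : 8 * W.negY x y + 4 * x = -(8 * y + 4 * x) := by
    rw [negY, hW.a₁, hW.a₃]; ring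
  rw [hneg, phiT_neg_Y]
  exact phiT_neg_gamma v (short_equation hW h.1) h2 ha hγ hb0

/-- ADD: the component map is additive up to `v b ^ 2`. -/
lemma phiP_add (hW : ShortModel W s a b) (h2 : v 2 = 1) (ha : v a = 1) (hb : v b < 1)
    (hb0 : b ≠ 0) (hγ : γ ^ 2 = a) (P Q : W.Point) :
    ∃ j : ℤ, phiP v W s (v b) γ (P + Q) =
      phiP v W s (v b) γ P * phiP v W s (v b) γ Q * v b ^ (2 * j) := by
  have hβ : v b ≠ 0 := (Valuation.ne_zero_iff v).2 hb0
  cases P with
  | zero =>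
    refine ⟨0, ?_⟩
    show phiP v W s (v b) γ (0 + Q) = phiP v W s (v b) γ 0 * _ * _
    simp
  | some x₁ y₁ h₁ =>
    cases Q with
    | zero =>
      refine ⟨0, ?_⟩
      show phiP v W s (v b) γ (Point.some x₁ y₁ h₁ + 0) = _ * phiP v W s (v b) γ 0 * _
      simp
    | some x₂ y₂ h₂ =>
      rcases hR : Point.some x₁ y₁ h₁ + Point.some x₂ y₂ h₂ with _ | ⟨x₃, y₃, h₃⟩
      · -- P + Q = 0
        have hQ : Point.some x₂ y₂ h₂ = -Point.some x₁ y₁ h₁ :=
          eq_neg_of_add_eq_zero_right hR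
        obtain ⟨k, hk⟩ := phiP_neg v hW h2 ha hb0 hγ h₁
        refine ⟨-k, ?_⟩
        rw [hQ, mul_comm (phiP v W s (v b) γ (Point.some x₁ y₁ h₁)), hk, ← zpow_add₀ hβ]
        show (1 : Γ₀) = _
        rw [show 2 * k + 2 * -k = 0 by ring, zpow_zero]
      · -- P + Q = R affine
        have hsum : Point.some x₁ y₁ h₁ + Point.some x₂ y₂ h₂ +
            Point.some x₃ (W.negY x₃ y₃) ((nonsingular_neg x₃ y₃).2 h₃) = 0 := by
          rw [hR, ← Point.neg_some h₃]
          exact add_neg_cancel _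
        obtain ⟨Λ, N, hc⟩ := bridge hW h₁ h₂ ((nonsingular_neg x₃ y₃).2 h₃) hsum
        obtain ⟨j, hj⟩ := component_collinear v (γ := γ) hc h2 ha hb hb0 hγ
        obtain ⟨k, hk⟩ := phiP_neg v hW h2 ha hb0 hγ h₃
        rw [Point.neg_some, phiP_some, phiP_some] at hk
        refine ⟨k - j, ?_⟩
        rw [phiP_some, phiP_some, phiP_some]
        set A := phiT v (v b) γ (4 * x₁ - s) (8 * y₁ + 4 * x₁)
        set B := phiT v (v b) γ (4 * x₂ - s) (8 * y₂ + 4 * x₂)
        set C := phiT v (v b) γ (4 * x₃ - s) (8 * W.negY x₃ y₃ + 4 * x₃)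
        set R := phiT v (v b) γ (4 * x₃ - s) (8 * y₃ + 4 * x₃)
        have hC : C ≠ 0 := phiT_ne_zero v hβ
        have hj' : v b ^ (2 * j) ≠ 0 := zpow_ne_zero _ hβ
        -- R = (C * R) * (A * B * C)⁻¹ * (A * B)
        have : R * v b ^ (2 * j) = A * B * v b ^ (2 * k) := by
          rw [← hj, ← hk]
          simp only [mul_assoc, mul_comm, mul_left_comm]
        have h3 : v b ^ (2 * (k - j)) = v b ^ (2 * k) * (v b ^ (2 * j))⁻¹ := by
          rw [show 2 * (k - j) = 2 * k + -(2 * j) by ring, zpow_add₀ hβ, zpow_neg]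
        rw [h3, ← mul_assoc, ← this, mul_assoc, mul_inv_cancel₀ hj', mul_one]

lemma phiP_nsmul (hW : ShortModel W s a b) (h2 : v 2 = 1) (ha : v a = 1) (hb : v b < 1)
    (hb0 : b ≠ 0) (hγ : γ ^ 2 = a) (P : W.Point) (n : ℕ) :
    ∃ j : ℤ, phiP v W s (v b) γ (n • P) = phiP v W s (v b) γ P ^ n * v b ^ (2 * j) := by
  have hβ : v b ≠ 0 := (Valuation.ne_zero_iff v).2 hb0
  induction n with
  | zero => exact ⟨0, by simp⟩
  | succ n ih =>
    obtain ⟨j, hj⟩ := ih
    obtain ⟨k, hk⟩ := phiP_add v hW h2 ha hb hb0 hγ (n • P) P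
    refine ⟨j + k, ?_⟩
    rw [succ_nsmul, hk, hj, pow_succ, show 2 * (j + k) = 2 * j + 2 * k by ring, zpow_add₀ hβ]
    simp only [mul_assoc, mul_comm, mul_left_comm]

theorem component_torsion {K : Type*} [Field K] [DecidableEq K] {Γ₀ : Type*}
    [LinearOrderedCommGroupWithZero Γ₀] (v : Valuation K Γ₀)
    {W : WeierstrassCurve.Affine K} {s a b γ : K} (hW : ShortModel W s a b)
    (h2 : v 2 = 1) (ha : v a = 1) (hb : v b < 1) (hb0 : b ≠ 0) (hγ : γ ^ 2 = a)
    (n : ℕ) {x y : K} (h : W.Nonsingular x y) (hn : n • Point.some x y h = 0) :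
    ∃ j : ℤ, phiT v (v b) γ (4 * x - s) (8 * y + 4 * x) ^ n = v b ^ (2 * j) := by
  have hβ : v b ≠ 0 := (Valuation.ne_zero_iff v).2 hb0
  obtain ⟨j, hj⟩ := phiP_nsmul v hW h2 ha hb hb0 hγ (Point.some x y h) n
  rw [hn, phiP_zero, phiP_some] at hj
  refine ⟨-j, ?_⟩
  have hj' : v b ^ (2 * j) ≠ 0 := zpow_ne_zero _ hβ
  rw [show 2 * -j = -(2 * j) by ring, zpow_neg]
  exact eq_inv_of_mul_eq_one_left hj.symm

end Fermat.Agent.S05_helper25_CompTorsion
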