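import Mathlib
import Fermat.Statements.S05
import Fermat.Agent.S05_helper1_Defs

set_option autoImplicit false

namespace Fermat.Agent.S05_helper5_Frey

open WeierstrassCurve WeierstrassCurve.Affine Fermat.Agent.S05_helper1_Defs

attribute [local instance 100000] AlgebraicClosure.instAlgebra

section val

variable {L : Type*} [Field L] (A : ValuationSubring L)

theorem val_intCast_le_one (t : ℤ) : A.valuation (t : L) ≤ 1 :=
  (A.valuation_le_one_iff _).2 (intCast_mem A t)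

theorem val_natCast_le_one (n : ℕ) : A.valuation (n : L) ≤ 1 :=
  (A.valuation_le_one_iff _).2 (natCast_mem A n)

theorem val_intCast_lt_one_of_dvd {q : ℕ} (hqA : A.LiesOverPrime q) {t : ℤ} (h : (q : ℤ) ∣ t) :
    A.valuation (t : L) < 1 := by
  obtain ⟨m, rfl⟩ := h
  have hq : A.valuation (q : L) < 1 := (ValuationSubring.mem_nonunits_iff A).1 hqA
  have hm : A.valuation (m : L) ≤ 1 := val_intCast_le_one A m
  push_cast
  rw [map_mul]
  calc A.valuation (q : L) * A.valuation (m : L) ≤ A.valuation (q : L) * 1 := by gcongr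
    _ = A.valuation (q : L) := mul_one _
    _ < 1 := hq

theorem val_intCast_eq_one_of_not_dvd {q : ℕ} (hq : q.Prime) (hqA : A.LiesOverPrime q) {t : ℤ}
    (h : ¬ (q : ℤ) ∣ t) : A.valuation (t : L) = 1 := by
  refine le_antisymm (val_intCast_le_one A t) ?_
  by_contra hlt
  rw [not_le] at hlt
  have hcop : IsCoprime (q : ℤ) t := by
    rw [Int.isCoprime_iff_gcd_eq_one]
    have := (Nat.Prime.coprime_iff_not_dvd hq).2 (fun hd => h (Int.natCast_dvd.2 hd))
    simpa [Int.gcd] using this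
  obtain ⟨u, w, huw⟩ := hcop
  have h1 : ((u : L) * (q : L) + (w : L) * (t : L)) = 1 := by
    have := congrArg (fun z : ℤ => (z : L)) huw
    simpa using this
  have hqv : A.valuation (q : L) < 1 := (ValuationSubring.mem_nonunits_iff A).1 hqA
  have hu : A.valuation ((u : L) * (q : L)) < 1 := by
    rw [map_mul]
    calc A.valuation (u : L) * A.valuation (q : L) ≤ 1 * A.valuation (q : L) := by
          gcongr; exact val_intCast_le_one A u
      _ = A.valuation (q : L) := one_mul _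
      _ < 1 := hqv
  have hw : A.valuation ((w : L) * (t : L)) < 1 := by
    rw [map_mul]
    calc A.valuation (w : L) * A.valuation (t : L) ≤ 1 * A.valuation (t : L) := by
          gcongr; exact val_intCast_le_one A w
      _ = A.valuation (t : L) := one_mul _
      _ < 1 := hlt
  have : A.valuation (1 : L) < 1 := by
    rw [← h1]
    exact lt_of_le_of_lt (A.valuation.map_add _ _) (max_lt hu hw)
  simp at this

theorem val_natCast_eq_one_of_not_dvd {q : ℕ} (hq : q.Prime) (hqA : A.LiesOverPrime q) {n : ℕ}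
    (h : ¬ q ∣ n) : A.valuation (n : L) = 1 := by
  have := val_intCast_eq_one_of_not_dvd A hq hqA (t := (n : ℤ))
    (fun hd => h (Int.natCast_dvd_natCast.1 hd))
  simpa using this

theorem val_intCast_pow_eq_one_of_not_dvd {q : ℕ} (hq : q.Prime) (hqA : A.LiesOverPrime q)
    {t : ℤ} (h : ¬ (q : ℤ) ∣ t) (n : ℕ) : A.valuation ((t : L) ^ n) = 1 := by
  rw [map_pow, val_intCast_eq_one_of_not_dvd A hq hqA h, one_pow]

end val

section frey

local notation "Qb" => AlgebraicClosure ℚ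

theorem not_dvd_of_gcd_eq_one {q : ℕ} (hq : q.Prime) {x y : ℤ} (h : gcd x y = 1)
    (hx : (q : ℤ) ∣ x) : ¬ (q : ℤ) ∣ y := by
  intro hy
  have h1 : (q : ℤ) ∣ 1 := by rw [← h]; exact dvd_gcd hx hy
  have h2 : (q : ℤ) = 1 := Int.eq_one_of_dvd_one (by positivity) h1
  have h3 : q = 1 := by exact_mod_cast h2
  exact hq.one_lt.ne' h3

theorem frey_a₁ (P : FreyPackage) : (P.freyCurve⁄Qb).a₁ = 1 := by
  simp [FreyPackage.freyCurve]

theorem frey_a₃ (P : FreyPackage) : (P.freyCurve⁄Qb).a₃ = 0 := by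
  simp [FreyPackage.freyCurve]

theorem frey_a₆ (P : FreyPackage) : (P.freyCurve⁄Qb).a₆ = 0 := by
  simp [FreyPackage.freyCurve]

theorem frey_a₂ (P : FreyPackage) :
    4 * (P.freyCurve⁄Qb).a₂ + 1 = ((P.b : Qb)) ^ P.p - ((P.a : Qb)) ^ P.p := by
  simp [FreyPackage.freyCurve]
  ring

theorem frey_a₄ (P : FreyPackage) :
    16 * (P.freyCurve⁄Qb).a₄ = -(((P.a : Qb)) ^ P.p * ((P.b : Qb)) ^ P.p) := by
  simp [FreyPackage.freyCurve]
  ring

theorem frey_flt (P : FreyPackage) :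
    ((P.a : Qb)) ^ P.p + ((P.b : Qb)) ^ P.p = ((P.c : Qb)) ^ P.p := by
  have := congrArg (fun z : ℤ => (z : Qb)) P.hFLT
  simpa using this

theorem val_pow_lt_one {A : ValuationSubring Qb} {x : Qb} (h : A.valuation x < 1) {n : ℕ}
    (hn : n ≠ 0) : A.valuation (x ^ n) < 1 := by
  rw [map_pow]
  exact pow_lt_one₀ zero_le h hn

theorem frey_models (P : FreyPackage) (A : ValuationSubring (AlgebraicClosure ℚ)) {q : ℕ}
    (hq : q.Prime) (hq2 : q ≠ 2) (hqA : A.LiesOverPrime q) :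
    A.valuation (2 : AlgebraicClosure ℚ) = 1 ∧
    (∀ n : ℕ, ¬ q ∣ n → A.valuation (n : AlgebraicClosure ℚ) = 1) ∧
    ∃ s a b : AlgebraicClosure ℚ,
      ShortModel (P.freyCurve⁄(AlgebraicClosure ℚ)) s a b ∧
      (∃ s₀ : ℤ, s = (s₀ : AlgebraicClosure ℚ)) ∧
      A.valuation s ≤ 1 ∧ A.valuation a ≤ 1 ∧ A.valuation b ≤ 1 ∧ b ≠ 0 ∧
      A.valuation (a ^ 2 - 4 * b) = 1 ∧
      (A.valuation b = 1 ∨
        (A.valuation a = 1 ∧ A.valuation b < 1 ∧
          ∃ t : ℤ, t ≠ 0 ∧ A.valuation b = A.valuation (t : AlgebraicClosure ℚ) ^ P.p)) := by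
  have hnat : ∀ n : ℕ, ¬ q ∣ n → A.valuation (n : Qb) = 1 :=
    fun n hn => val_natCast_eq_one_of_not_dvd A hq hqA hn
  have h2 : A.valuation (2 : Qb) = 1 := by
    have := hnat 2 (fun h => hq2 ((Nat.prime_dvd_prime_iff_eq hq Nat.prime_two).1 h))
    simpa using this
  refine ⟨h2, hnat, ?_⟩
  have hflt := frey_flt P
  have ha2 := frey_a₂ P
  have ha4 := frey_a₄ P
  have hp0 : P.p ≠ 0 := P.hp0
  have hle : ∀ t : ℤ, A.valuation ((t : Qb) ^ P.p) ≤ 1 := fun t => by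
    rw [map_pow]; exact pow_le_one₀ zero_le (val_intCast_le_one A t)
  have hone : ∀ t : ℤ, ¬ (q : ℤ) ∣ t → A.valuation ((t : Qb) ^ P.p) = 1 := fun t ht =>
    val_intCast_pow_eq_one_of_not_dvd A hq hqA ht _
  have hlt : ∀ t : ℤ, (q : ℤ) ∣ t → A.valuation ((t : Qb) ^ P.p) < 1 := fun t ht =>
    val_pow_lt_one (val_intCast_lt_one_of_dvd A hqA ht) hp0
  have hne : ∀ t : ℤ, t ≠ 0 → ((t : Qb) ^ P.p) ≠ 0 := fun t ht =>
    pow_ne_zero _ (Int.cast_ne_zero.2 ht)
  by_cases hc : (q : ℤ) ∣ P.c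
  · -- q ∣ c
    have hna : ¬ (q : ℤ) ∣ P.a := fun h => not_dvd_of_gcd_eq_one hq P.hgcdac h hc
    have hnb : ¬ (q : ℤ) ∣ P.b := fun h => not_dvd_of_gcd_eq_one hq P.hgcdbc h hc
    refine ⟨(P.a : Qb) ^ P.p, (P.a : Qb) ^ P.p + (P.c : Qb) ^ P.p,
      (P.a : Qb) ^ P.p * (P.c : Qb) ^ P.p, ?_, ⟨P.a ^ P.p, by push_cast; rfl⟩, hle _, ?_, ?_, ?_, ?_,
      Or.inr ⟨?_, ?_, ?_⟩⟩
    · refine ⟨frey_a₁ P, frey_a₃ P, frey_a₆ P, ?_, ?_, ?_⟩
      · rw [ha2]; linear_combination -hflt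
      · rw [ha2]; linear_combination -ha4 - ((P.a : Qb) ^ P.p) * hflt
      · rw [ha2]; linear_combination (exp := 1) ((P.a : Qb) ^ P.p) * ha4
    · exact le_trans (A.valuation.map_add _ _) (max_le (hle _) (hle _))
    · rw [map_mul]; exact mul_le_one₀ (hle _) zero_le (hle _)
    · exact mul_ne_zero (hne _ P.ha0) (hne _ P.hc0)
    · have : ((P.a : Qb) ^ P.p + (P.c : Qb) ^ P.p) ^ 2 - 4 * ((P.a : Qb) ^ P.p * (P.c : Qb) ^ P.p)
          = ((P.b : Qb) ^ P.p) ^ 2 := by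
        linear_combination
          (-((P.c : Qb) ^ P.p - (P.a : Qb) ^ P.p + (P.b : Qb) ^ P.p)) * hflt
      rw [this, map_pow, hone _ hnb, one_pow]
    · rw [A.valuation.map_add_eq_of_lt_left (by rw [hone _ hna]; exact hlt _ hc), hone _ hna]
    · rw [map_mul, hone _ hna, one_mul]; exact hlt _ hc
    · refine ⟨P.c, P.hc0, ?_⟩
      rw [map_mul, hone _ hna, one_mul, map_pow]
  · -- q ∤ c
    have hsq : ((P.b : Qb) ^ P.p - (P.a : Qb) ^ P.p) ^ 2
        - 4 * (-((P.a : Qb) ^ P.p * (P.b : Qb) ^ P.p)) = ((P.c : Qb) ^ P.p) ^ 2 := by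
      rw [← hflt]; ring
    have hcommon : ShortModel (P.freyCurve⁄Qb) 0 ((P.b : Qb) ^ P.p - (P.a : Qb) ^ P.p)
        (-((P.a : Qb) ^ P.p * (P.b : Qb) ^ P.p)) := by
      refine ⟨frey_a₁ P, frey_a₃ P, frey_a₆ P, ?_, ?_, ?_⟩
      · rw [ha2]; ring
      · rw [ha2]; linear_combination -ha4
      · ring
    refine ⟨0, (P.b : Qb) ^ P.p - (P.a : Qb) ^ P.p, -((P.a : Qb) ^ P.p * (P.b : Qb) ^ P.p),
      hcommon, ⟨0, by simp⟩, by simp, ?_, ?_, ?_, ?_, ?_⟩
    · exact le_trans (A.valuation.map_sub _ _) (max_le (hle _) (hle _))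
    · rw [Valuation.map_neg, map_mul]; exact mul_le_one₀ (hle _) zero_le (hle _)
    · exact neg_ne_zero.2 (mul_ne_zero (hne _ P.ha0) (hne _ P.hb0))
    · rw [hsq, map_pow, hone _ hc, one_pow]
    · by_cases ha : (q : ℤ) ∣ P.a
      · have hnb : ¬ (q : ℤ) ∣ P.b := not_dvd_of_gcd_eq_one hq P.hgcdab ha
        refine Or.inr ⟨?_, ?_, P.a, P.ha0, ?_⟩
        · rw [A.valuation.map_sub_eq_of_lt_left (by rw [hone _ hnb]; exact hlt _ ha), hone _ hnb]
        · rw [Valuation.map_neg, map_mul, hone _ hnb, mul_one]; exact hlt _ ha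
        · rw [Valuation.map_neg, map_mul, hone _ hnb, mul_one, map_pow]
      · by_cases hb : (q : ℤ) ∣ P.b
        · refine Or.inr ⟨?_, ?_, P.b, P.hb0, ?_⟩
          · rw [A.valuation.map_sub_eq_of_lt_right (by rw [hone _ ha]; exact hlt _ hb), hone _ ha]
          · rw [Valuation.map_neg, map_mul, hone _ ha, one_mul]; exact hlt _ hb
          · rw [Valuation.map_neg, map_mul, hone _ ha, one_mul, map_pow]
        · left
          rw [Valuation.map_neg, map_mul, hone _ ha, hone _ hb, one_mul]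

end frey

end Fermat.Agent.S05_helper5_Frey
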