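import Mathlib

set_option autoImplicit false

namespace Fermat.Agent.S05_helper6_Kernel

open WeierstrassCurve WeierstrassCurve.Affine

variable {K : Type*} [Field K] {Γ₀ : Type*} [LinearOrderedCommGroupWithZero Γ₀]

/-! ### Valuation calculus -/

section Calc

variable (v : Valuation K Γ₀)

lemma vle_mul_int {a b : K} {g : Γ₀} (ha : v a ≤ 1) (hb : v b ≤ g) : v (a * b) ≤ g := by
  rw [map_mul]
  calc v a * v b ≤ 1 * g := by gcongr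
    _ = g := one_mul g

lemma vle_mul {a b : K} {g h : Γ₀} (ha : v a ≤ g) (hb : v b ≤ h) : v (a * b) ≤ g * h := by
  rw [map_mul]
  gcongr

lemma vle_pow {a : K} {g : Γ₀} (ha : v a ≤ g) (n : ℕ) : v (a ^ n) ≤ g ^ n := by
  rw [map_pow]
  gcongr

lemma vlt_mul_int {a b : K} (ha : v a ≤ 1) (hb : v b < 1) : v (a * b) < 1 := by
  rw [map_mul]
  exact lt_of_le_of_lt (by calc v a * v b ≤ 1 * v b := by gcongr
    _ = v b := one_mul _) hb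

lemma v_two_le : v (2 : K) ≤ 1 := by
  have : (2 : K) = 1 + 1 := by norm_num
  rw [this]
  exact v.map_add_le (by simp) (by simp)

lemma v_three_le : v (3 : K) ≤ 1 := by
  have : (3 : K) = 2 + 1 := by norm_num
  rw [this]
  exact v.map_add_le (v_two_le v) (by simp)

lemma v_natCast_le (n : ℕ) : v (n : K) ≤ 1 := by
  induction n with
  | zero => simp
  | succ k ih =>
    rw [Nat.cast_succ]
    exact v.map_add_le ih (by simp)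

lemma pow_le_of_le_one {r : Γ₀} (hr : r ≤ 1) {m n : ℕ} (h : m ≤ n) : r ^ n ≤ r ^ m :=
  pow_le_pow_of_le_one zero_le hr h

end Calc

/-! ### The `(z,w)`-chart -/

/-- The `(z,w)`-curve equation, `z = -x/y`, `w = -1/y`. -/
def ZW (W : WeierstrassCurve.Affine K) (z w : K) : Prop :=
  w = z ^ 3 + W.a₁ * z * w + W.a₂ * z ^ 2 * w + W.a₃ * w ^ 2 + W.a₄ * z * w ^ 2 + W.a₆ * w ^ 3

lemma zw_of_equation {W : WeierstrassCurve.Affine K} {x y : K} (h : W.Equation x y) (hy : y ≠ 0) :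
    ZW W (-x / y) (-1 / y) := by
  rw [WeierstrassCurve.Affine.equation_iff] at h
  unfold ZW
  field_simp
  linear_combination (-1 : K) * h

/-- The denominator of the difference quotient. -/
def UU (W : WeierstrassCurve.Affine K) (_z₁ w₁ z₂ w₂ : K) : K :=
  1 - (W.a₁ * z₂ + W.a₂ * z₂ ^ 2 + W.a₃ * (w₁ + w₂) + W.a₄ * z₂ * (w₁ + w₂)
    + W.a₆ * (w₁ ^ 2 + w₁ * w₂ + w₂ ^ 2))

/-- The numerator of the difference quotient. -/
def VV (W : WeierstrassCurve.Affine K) (z₁ w₁ z₂ _w₂ : K) : K :=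
  z₁ ^ 2 + z₁ * z₂ + z₂ ^ 2 + W.a₁ * w₁ + W.a₂ * (z₁ + z₂) * w₁ + W.a₄ * w₁ ^ 2

lemma diff_quot {W : WeierstrassCurve.Affine K} {z₁ w₁ z₂ w₂ : K} (e₁ : ZW W z₁ w₁)
    (e₂ : ZW W z₂ w₂) : (w₂ - w₁) * UU W z₁ w₁ z₂ w₂ = (z₂ - z₁) * VV W z₁ w₁ z₂ w₂ := by
  unfold ZW at e₁ e₂
  unfold UU VV
  linear_combination e₂ - e₁

section Val

variable (v : Valuation K Γ₀) {W : WeierstrassCurve.Affine K}
  (h₁ : v W.a₁ ≤ 1) (h₂ : v W.a₂ ≤ 1) (h₃ : v W.a₃ ≤ 1) (h₄ : v W.a₄ ≤ 1) (h₆ : v W.a₆ ≤ 1)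

include h₁ h₂ h₃ h₄ h₆

lemma val_y_gt {x y : K} (h : W.Equation x y) (hx : 1 < v x) : v x < v y := by
  by_contra hcon
  rw [not_lt] at hcon
  rw [WeierstrassCurve.Affine.equation_iff] at h
  have hx1 : (1 : Γ₀) ≤ v x := hx.le
  have hx2 : v x ≤ v x ^ 2 := by
    calc v x = v x * 1 := (mul_one _).symm
      _ ≤ v x * v x := by gcongr
      _ = v x ^ 2 := (sq _).symm
  have key : x ^ 3 = y ^ 2 + W.a₁ * x * y + W.a₃ * y - W.a₂ * x ^ 2 - W.a₄ * x - W.a₆ := by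
    linear_combination (-1 : K) * h
  have hb : v (x ^ 3) ≤ v x ^ 2 := by
    rw [key]
    refine v.map_sub_le (v.map_sub_le (v.map_sub_le (v.map_add_le (v.map_add_le ?_ ?_) ?_) ?_) ?_) ?_
    · rw [map_pow]; gcongr
    · rw [mul_assoc]
      refine vle_mul_int v h₁ ?_
      rw [map_mul, sq]; gcongr
    · exact (vle_mul_int v h₃ hcon).trans hx2
    · refine vle_mul_int v h₂ ?_
      rw [map_pow]
    · exact (vle_mul_int v h₄ le_rfl).trans hx2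
    · exact h₆.trans (hx1.trans hx2)
  rw [map_pow] at hb
  exact absurd hb (not_le.mpr (pow_lt_pow_right₀ hx (by norm_num)))

lemma val_unit_factor {z w : K} (hz : v z < 1) (hw : v w < 1) :
    v (1 - (W.a₁ * z + W.a₂ * z ^ 2 + W.a₃ * w + W.a₄ * z * w + W.a₆ * w ^ 2)) = 1 := by
  have hz2 : v (z ^ 2) < 1 := by
    rw [map_pow]; exact pow_lt_one₀ zero_le hz (by norm_num)
  have hw2 : v (w ^ 2) < 1 := by
    rw [map_pow]; exact pow_lt_one₀ zero_le hw (by norm_num)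
  have hzw : v (z * w) < 1 := by
    rw [map_mul]; exact mul_lt_one_of_nonneg_of_lt_one_left zero_le hz hw.le
  have : v (W.a₁ * z + W.a₂ * z ^ 2 + W.a₃ * w + W.a₄ * z * w + W.a₆ * w ^ 2) < 1 := by
    refine v.map_add_lt (v.map_add_lt (v.map_add_lt (v.map_add_lt ?_ ?_) ?_) ?_) ?_
    · exact vlt_mul_int v h₁ hz
    · exact vlt_mul_int v h₂ hz2
    · exact vlt_mul_int v h₃ hw
    · rw [mul_assoc]; exact vlt_mul_int v h₄ hzw
    · exact vlt_mul_int v h₆ hw2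
  rw [sub_eq_add_neg]
  exact v.map_one_add_of_lt (by rwa [Valuation.map_neg])

lemma val_w_eq {z w : K} (e : ZW W z w) (hz : v z < 1) (hw : v w < 1) : v w = v z ^ 3 := by
  have hu := val_unit_factor v h₁ h₂ h₃ h₄ h₆ hz hw
  have key : w * (1 - (W.a₁ * z + W.a₂ * z ^ 2 + W.a₃ * w + W.a₄ * z * w + W.a₆ * w ^ 2))
      = z ^ 3 := by
    unfold ZW at e
    linear_combination e
  have := congrArg v key
  rwa [map_mul, hu, mul_one, map_pow] at this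

end Val



/-! ### Linking the two charts -/

lemma chord_link {x₁ y₁ x₂ y₂ lam nu : K} (hy₁ : y₁ ≠ 0) (hy₂ : y₂ ≠ 0) (hx : x₁ ≠ x₂)
    (hlam : lam * ((-x₂ / y₂) - (-x₁ / y₁)) = (-1 / y₂) - (-1 / y₁))
    (hnu : nu = (-1 / y₁) - lam * (-x₁ / y₁)) :
    nu ≠ 0 ∧ (y₁ - y₂) / (x₁ - x₂) = lam / nu := by
  have hl : lam * (x₁ * y₂ - x₂ * y₁) = y₂ - y₁ := by
    field_simp at hlam
    linear_combination hlam
  have hn : nu * y₁ = -1 + lam * x₁ := by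
    rw [hnu]; field_simp; ring
  have hnu0 : nu ≠ 0 := by
    intro h0
    rw [h0, zero_mul] at hn
    have h1 : lam * x₂ * y₁ = y₁ := by linear_combination (-1 : K) * hl - y₂ * hn
    have h2 : lam * x₂ = 1 := by
      have := mul_right_cancel₀ hy₁ (h1.trans (one_mul y₁).symm)
      exact this
    have h3 : lam * (x₁ - x₂) = 0 := by linear_combination (-1 : K) * hn - h2
    rcases mul_eq_zero.mp h3 with h4 | h4
    · rw [h4, zero_mul] at h2; exact zero_ne_one h2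
    · exact hx (sub_eq_zero.mp h4)
  refine ⟨hnu0, ?_⟩
  have hx' : x₁ - x₂ ≠ 0 := sub_ne_zero.mpr hx
  rw [div_eq_div_iff hx' hnu0]
  have : (y₁ - y₂) * (nu * y₁) = lam * (x₁ - x₂) * y₁ := by
    rw [hn]; linear_combination (-1 : K) * hl
  have h5 : ((y₁ - y₂) * nu) * y₁ = (lam * (x₁ - x₂)) * y₁ := by linear_combination this
  exact mul_right_cancel₀ hy₁ h5

lemma tangent_link {W : WeierstrassCurve.Affine K} {x y lam nu : K} (hy : y ≠ 0)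
    (h : W.Equation x y) (hne : y ≠ W.negY x y)
    (hlam : lam * UU W (-x / y) (-1 / y) (-x / y) (-1 / y)
      = VV W (-x / y) (-1 / y) (-x / y) (-1 / y))
    (hnu : nu = (-1 / y) - lam * (-x / y)) :
    nu ≠ 0 ∧ (3 * x ^ 2 + 2 * W.a₂ * x + W.a₄ - W.a₁ * y) / (y - W.negY x y) = lam / nu := by
  have hd : y - W.negY x y ≠ 0 := sub_ne_zero.mpr hne
  have hd' : y - W.negY x y = 2 * y + W.a₁ * x + W.a₃ := by
    simp only [WeierstrassCurve.Affine.negY]; ring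
  have e := zw_of_equation h hy
  set z := -x / y with hz
  set w := -1 / y with hw
  set U := UU W z w z w with hUdef
  set V := VV W z w z w with hVdef
  have hV : V * y ^ 2 = 3 * x ^ 2 + 2 * W.a₂ * x + W.a₄ - W.a₁ * y := by
    rw [hVdef, hz, hw]; unfold VV; field_simp; ring
  have hnuU : nu * U * y ^ 2 = y - W.negY x y := by
    have h1 : nu * U = w * U - z * V := by rw [hnu, ← hlam]; ring
    have h2 : w * U - z * V = -w * (2 - W.a₁ * z - W.a₃ * w) := by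
      unfold ZW at e
      rw [hUdef, hVdef]; unfold UU VV
      linear_combination (3 : K) * e
    rw [h1, h2, hd', hz, hw]; field_simp; ring
  have hy2 : y ^ 2 ≠ 0 := pow_ne_zero 2 hy
  have hnu0 : nu ≠ 0 := by
    intro h0
    rw [h0, zero_mul, zero_mul] at hnuU
    exact hd hnuU.symm
  refine ⟨hnu0, ?_⟩
  rw [div_eq_div_iff hd hnu0, ← hV, ← hnuU, ← hlam]
  ring

lemma intercept_eq {x₁ y₁ lam nu : K} (hy₁ : y₁ ≠ 0) (hnu0 : nu ≠ 0)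
    (hnu : nu = (-1 / y₁) - lam * (-x₁ / y₁)) : y₁ - lam / nu * x₁ = -1 / nu := by
  have hn : nu * y₁ = -1 + lam * x₁ := by
    rw [hnu]; field_simp; ring
  field_simp
  linear_combination hn



/-! ### Vieta relations from Mathlib's addition polynomial -/

lemma vieta [DecidableEq K] {W : WeierstrassCurve.Affine K} {x₁ x₂ y₁ y₂ : K}
    (h₁ : W.Equation x₁ y₁) (h₂ : W.Equation x₂ y₂)
    (hxy : ¬(x₁ = x₂ ∧ y₁ = W.negY x₂ y₂)) :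
    x₁ * x₂ + x₁ * W.addX x₁ x₂ (W.slope x₁ x₂ y₁ y₂) + x₂ * W.addX x₁ x₂ (W.slope x₁ x₂ y₁ y₂)
        = 2 * x₁ * (W.slope x₁ x₂ y₁ y₂) ^ 2 + (W.a₁ * x₁ - 2 * y₁ - W.a₃) * (W.slope x₁ x₂ y₁ y₂)
          + (-W.a₁ * y₁ + W.a₄)
      ∧ x₁ * x₂ * W.addX x₁ x₂ (W.slope x₁ x₂ y₁ y₂)
        = x₁ ^ 2 * (W.slope x₁ x₂ y₁ y₂) ^ 2 - (2 * x₁ * y₁ + W.a₃ * x₁) * (W.slope x₁ x₂ y₁ y₂)
          + (y₁ ^ 2 + W.a₃ * y₁ - W.a₆) := by
  have key := WeierstrassCurve.Affine.addPolynomial_slope h₁ h₂ hxy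
  rw [WeierstrassCurve.Affine.addPolynomial_eq, neg_inj, Cubic.prod_X_sub_C_eq,
    Cubic.toPoly_injective] at key
  have hc := congrArg Cubic.c key
  have hd := congrArg Cubic.d key
  simp only at hc hd
  constructor
  · rw [← hc]
  · linear_combination hd

lemma line_second [DecidableEq K] {W : WeierstrassCurve.Affine K} {x₁ x₂ y₁ y₂ : K}
    (h₁ : W.Equation x₁ y₁) (h₂ : W.Equation x₂ y₂)
    (hxy : ¬(x₁ = x₂ ∧ y₁ = W.negY x₂ y₂)) :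
    y₂ = W.slope x₁ x₂ y₁ y₂ * (x₂ - x₁) + y₁ := by
  by_cases hx : x₁ = x₂
  · have hy : y₁ ≠ W.negY x₂ y₂ := fun h => hxy ⟨hx, h⟩
    have := WeierstrassCurve.Affine.Y_eq_of_Y_ne h₁ h₂ hx hy
    rw [hx, this]; ring
  · rw [WeierstrassCurve.Affine.slope_of_X_ne hx]
    have hx' : x₁ - x₂ ≠ 0 := sub_ne_zero.mpr hx
    field_simp
    ring

/-- Pure algebra: the third intersection point in the `(z,w)`-chart. -/
lemma third_point {a₁ a₂ a₃ a₄ a₆ x₁ y₁ x₂ y₂ x₃ y₃ ℓ c lam nu : K}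
    (hnu : nu ≠ 0) (hℓ : ℓ = lam / nu) (hc : c = -1 / nu)
    (hy₁ : y₁ = ℓ * x₁ + c) (hy₂ : y₂ = ℓ * x₂ + c) (hy₃ : y₃ = ℓ * x₃ + c)
    (e₁ : x₁ + x₂ + x₃ = ℓ ^ 2 + a₁ * ℓ - a₂)
    (e₂ : x₁ * x₂ + x₁ * x₃ + x₂ * x₃ = -2 * c * ℓ - a₃ * ℓ - a₁ * c + a₄)
    (e₃ : x₁ * x₂ * x₃ = c ^ 2 + a₃ * c - a₆)
    (hy₁0 : y₁ ≠ 0) (hy₂0 : y₂ ≠ 0)
    (hDn : 1 + a₂ * lam + a₄ * lam ^ 2 + a₆ * lam ^ 3 ≠ 0) :
    y₃ ≠ 0 ∧
    -x₃ / y₃ = -(-x₁ / y₁) - (-x₂ / y₂)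
      - (a₁ * lam + a₂ * nu + a₃ * lam ^ 2 + 2 * a₄ * lam * nu + 3 * a₆ * lam ^ 2 * nu)
        / (1 + a₂ * lam + a₄ * lam ^ 2 + a₆ * lam ^ 3) ∧
    -1 / y₃ = lam * (-x₃ / y₃) + nu := by
  have hD : y₁ * y₂ * y₃ = c ^ 3 - a₂ * ℓ * c ^ 2 + a₄ * ℓ ^ 2 * c - a₆ * ℓ ^ 3 := by
    rw [hy₁, hy₂, hy₃]
    linear_combination ℓ ^ 3 * e₃ + ℓ ^ 2 * c * e₂ + ℓ * c ^ 2 * e₁
  have hN : x₁ * y₂ * y₃ + x₂ * y₁ * y₃ + x₃ * y₁ * y₂
      = -a₁ * ℓ * c ^ 2 - a₂ * c ^ 2 + a₃ * ℓ ^ 2 * c + 2 * a₄ * ℓ * c - 3 * a₆ * ℓ ^ 2 := by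
    rw [hy₁, hy₂, hy₃]
    linear_combination 3 * ℓ ^ 2 * e₃ + 2 * ℓ * c * e₂ + c ^ 2 * e₁
  have hD' : y₁ * y₂ * y₃ * nu ^ 3 = -(1 + a₂ * lam + a₄ * lam ^ 2 + a₆ * lam ^ 3) := by
    rw [hD, hℓ, hc]; field_simp; ring
  have hN' : (x₁ * y₂ * y₃ + x₂ * y₁ * y₃ + x₃ * y₁ * y₂) * nu ^ 3
      = -(a₁ * lam + a₂ * nu + a₃ * lam ^ 2 + 2 * a₄ * lam * nu + 3 * a₆ * lam ^ 2 * nu) := by
    rw [hN, hℓ, hc]; field_simp; ring
  have hy₃0 : y₃ ≠ 0 := by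
    intro h0
    rw [h0, mul_zero, zero_mul] at hD'
    exact hDn (neg_eq_zero.mp hD'.symm)
  refine ⟨hy₃0, ?_, ?_⟩
  · have hnu3 : nu ^ 3 ≠ 0 := pow_ne_zero 3 hnu
    have h3 : (a₁ * lam + a₂ * nu + a₃ * lam ^ 2 + 2 * a₄ * lam * nu + 3 * a₆ * lam ^ 2 * nu)
        / (1 + a₂ * lam + a₄ * lam ^ 2 + a₆ * lam ^ 3)
        = (x₁ * y₂ * y₃ + x₂ * y₁ * y₃ + x₃ * y₁ * y₂) / (y₁ * y₂ * y₃) := by
      rw [div_eq_div_iff hDn (mul_ne_zero (mul_ne_zero hy₁0 hy₂0) hy₃0)]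
      linear_combination (y₁ * y₂ * y₃) * hN'
        - (x₁ * y₂ * y₃ + x₂ * y₁ * y₃ + x₃ * y₁ * y₂) * hD'
    rw [h3]
    field_simp
    ring
  · have : nu * y₃ = lam * x₃ - 1 := by
      rw [hy₃, hℓ, hc]; field_simp; ring
    field_simp
    linear_combination (-1 : K) * this



/-! ### Valuations of kernel points -/

section Val2

variable (v : Valuation K Γ₀) {W : WeierstrassCurve.Affine K}
  (h₁ : v W.a₁ ≤ 1) (h₂ : v W.a₂ ≤ 1) (h₃ : v W.a₃ ≤ 1) (h₄ : v W.a₄ ≤ 1) (h₆ : v W.a₆ ≤ 1)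

include h₁ h₂ h₃ h₄ h₆

/-- Basic facts about a point in the kernel of reduction. -/
lemma kernel_point {x y : K} (h : W.Equation x y) (hx : 1 < v x) :
    y ≠ 0 ∧ v (-x / y) < 1 ∧ v (-1 / y) < 1 ∧ v (-1 / y) = v (-x / y) ^ 3
      ∧ v (-x / y) ≠ 0 := by
  have hy := val_y_gt v h₁ h₂ h₃ h₄ h₆ h hx
  have hy1 : 1 < v y := hx.trans hy
  have hy0 : y ≠ 0 := by
    rintro rfl
    simp at hy1
  have hvy0 : v y ≠ 0 := (v.ne_zero_iff).mpr hy0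
  have hx0 : x ≠ 0 := by
    rintro rfl
    simp at hx
  have hz : v (-x / y) < 1 := by
    rw [map_div₀, Valuation.map_neg]
    exact (div_lt_one₀ (zero_lt_iff.mpr hvy0)).mpr hy
  have hw : v (-1 / y) < 1 := by
    rw [map_div₀, Valuation.map_neg, map_one]
    exact (div_lt_one₀ (zero_lt_iff.mpr hvy0)).mpr hy1
  refine ⟨hy0, hz, hw, val_w_eq v h₁ h₂ h₃ h₄ h₆ (zw_of_equation h hy0) hz hw, ?_⟩
  rw [v.ne_zero_iff]
  exact div_ne_zero (neg_ne_zero.mpr hx0) hy0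

/-- Conversely, a nonzero point of the `(z,w)`-chart near the origin has large `x`. -/
lemma val_x_gt_of_zw {x y : K} (hy0 : y ≠ 0) (h : W.Equation x y) (hz : v (-x / y) < 1)
    (hw : v (-1 / y) < 1) : 1 < v x := by
  have e := zw_of_equation h hy0
  have hw3 := val_w_eq v h₁ h₂ h₃ h₄ h₆ e hz hw
  have hw0 : v (-1 / y) ≠ 0 := by
    rw [v.ne_zero_iff]; exact div_ne_zero (by simp) hy0
  have hz0 : v (-x / y) ≠ 0 := by
    intro h0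
    rw [h0] at hw3
    simp at hw3
    exact hy0 hw3
  have hxzw : x * (-1 / y) = -x / y := by field_simp
  have h1 := congrArg v hxzw
  rw [map_mul, hw3] at h1
  have h2 : v x * v (-x / y) ^ 2 = 1 := by
    have h3 : (v x * v (-x / y) ^ 2) * v (-x / y) = 1 * v (-x / y) := by
      rw [one_mul, mul_assoc, ← pow_succ]; exact h1
    exact mul_right_cancel₀ hz0 h3
  by_contra hcon
  rw [not_lt] at hcon
  have hz2 : v (-x / y) ^ 2 < 1 := pow_lt_one₀ zero_le hz (by norm_num)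
  have : v x * v (-x / y) ^ 2 < 1 := by
    calc v x * v (-x / y) ^ 2 ≤ 1 * v (-x / y) ^ 2 := by gcongr
      _ = v (-x / y) ^ 2 := one_mul _
      _ < 1 := hz2
  rw [h2] at this
  exact lt_irrefl _ this

/-- Negation in the `z`-coordinate. -/
lemma neg_z {x y : K} (h : W.Equation x y) (hx : 1 < v x) :
    v (-x / W.negY x y) = v (-x / y) ∧
      v (-x / W.negY x y + -x / y) ≤ v (-x / y) ^ 2 := by
  obtain ⟨hy0, hz, hw, hw3, hz0⟩ := kernel_point v h₁ h₂ h₃ h₄ h₆ h hx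
  have h' : W.Equation x (W.negY x y) := (WeierstrassCurve.Affine.equation_neg x y).mpr h
  obtain ⟨hy0', hz', hw', hw3', hz0'⟩ := kernel_point v h₁ h₂ h₃ h₄ h₆ h' hx
  have hx0 : x ≠ 0 := by
    rintro rfl
    simp at hx
  have hvx0 : v x ≠ 0 := (v.ne_zero_iff).mpr hx0
  have hy := val_y_gt v h₁ h₂ h₃ h₄ h₆ h hx
  -- v (negY) = v y
  have hny : v (W.negY x y) = v y := by
    have e : W.negY x y = -y + -(W.a₁ * x + W.a₃) := by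
      simp only [WeierstrassCurve.Affine.negY]; ring
    rw [e]
    have hlt : v (-(W.a₁ * x + W.a₃)) < v (-y) := by
      rw [Valuation.map_neg, Valuation.map_neg]
      refine lt_of_le_of_lt (v.map_add_le (vle_mul_int v h₁ le_rfl) (h₃.trans hx.le)) hy
    rw [v.map_add_eq_of_lt_left hlt, Valuation.map_neg]
  have hzeq : v (-x / W.negY x y) = v (-x / y) := by
    rw [map_div₀, map_div₀, hny]
  refine ⟨hzeq, ?_⟩
  have key : -x / W.negY x y + -x / y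
      = (-x / W.negY x y) * (-x / y) * (W.a₁ + W.a₃ * x⁻¹) := by
    have e : W.negY x y = -y - W.a₁ * x - W.a₃ := by
      simp only [WeierstrassCurve.Affine.negY]
    generalize W.negY x y = y' at e hy0'
    field_simp
    linear_combination (-1 : K) * e
  rw [key, map_mul, map_mul, hzeq, sq]
  have hc : v (W.a₁ + W.a₃ * x⁻¹) ≤ 1 := by
    refine v.map_add_le h₁ ?_
    refine vle_mul_int v h₃ ?_
    rw [map_inv₀]
    exact inv_le_one_of_one_le₀ hx.le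
  calc v (-x / y) * v (-x / y) * v (W.a₁ + W.a₃ * x⁻¹)
      ≤ v (-x / y) * v (-x / y) * 1 := by gcongr
    _ = v (-x / y) * v (-x / y) := mul_one _

end Val2



section Val3

variable (v : Valuation K Γ₀) {W : WeierstrassCurve.Affine K}
  (h₁ : v W.a₁ ≤ 1) (h₂ : v W.a₂ ≤ 1) (h₃ : v W.a₃ ≤ 1) (h₄ : v W.a₄ ≤ 1) (h₆ : v W.a₆ ≤ 1)

include h₁ h₂ h₃ h₄ h₆

omit h₁ h₂ h₃ h₄ h₆ in
lemma vlt_mul {a b : K} (ha : v a < 1) (hb : v b ≤ 1) : v (a * b) < 1 := by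
  rw [mul_comm]; exact vlt_mul_int v hb ha

lemma val_UU {z₁ w₁ z₂ w₂ : K} (hz₂ : v z₂ < 1) (hw₁ : v w₁ < 1) (hw₂ : v w₂ < 1) :
    v (UU W z₁ w₁ z₂ w₂) = 1 := by
  unfold UU
  have hw12 : v (w₁ + w₂) < 1 := v.map_add_lt hw₁ hw₂
  have hq : v (w₁ ^ 2 + w₁ * w₂ + w₂ ^ 2) < 1 := by
    refine v.map_add_lt (v.map_add_lt ?_ ?_) ?_
    · rw [map_pow]; exact pow_lt_one₀ zero_le hw₁ (by norm_num)
    · exact vlt_mul v hw₁ hw₂.le
    · rw [map_pow]; exact pow_lt_one₀ zero_le hw₂ (by norm_num)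
  have : v (W.a₁ * z₂ + W.a₂ * z₂ ^ 2 + W.a₃ * (w₁ + w₂) + W.a₄ * z₂ * (w₁ + w₂)
      + W.a₆ * (w₁ ^ 2 + w₁ * w₂ + w₂ ^ 2)) < 1 := by
    refine v.map_add_lt (v.map_add_lt (v.map_add_lt (v.map_add_lt ?_ ?_) ?_) ?_) ?_
    · exact vlt_mul_int v h₁ hz₂
    · refine vlt_mul_int v h₂ ?_
      rw [map_pow]; exact pow_lt_one₀ zero_le hz₂ (by norm_num)
    · exact vlt_mul_int v h₃ hw12
    · rw [mul_assoc]; exact vlt_mul_int v h₄ (vlt_mul v hz₂ hw12.le)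
    · exact vlt_mul_int v h₆ hq
  rw [sub_eq_add_neg]
  exact v.map_one_add_of_lt (by rwa [Valuation.map_neg])

omit h₃ h₆ in
lemma val_VV {z₁ w₁ z₂ w₂ : K} {r : Γ₀} (hr : r ≤ 1) (hz₁ : v z₁ ≤ r) (hz₂ : v z₂ ≤ r)
    (hw₁ : v w₁ ≤ r ^ 2) : v (VV W z₁ w₁ z₂ w₂) ≤ r ^ 2 := by
  unfold VV
  have hr2 : r ^ 2 ≤ 1 := pow_le_one₀ zero_le hr
  refine v.map_add_le (v.map_add_le (v.map_add_le (v.map_add_le (v.map_add_le ?_ ?_) ?_) ?_) ?_) ?_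
  · exact vle_pow v hz₁ 2
  · rw [sq]; exact vle_mul v hz₁ hz₂
  · exact vle_pow v hz₂ 2
  · exact vle_mul_int v h₁ hw₁
  · rw [mul_assoc]
    refine vle_mul_int v h₂ ?_
    refine vle_mul_int v ?_ hw₁
    exact v.map_add_le (hz₁.trans hr) (hz₂.trans hr)
  · refine vle_mul_int v h₄ ?_
    rw [sq]
    exact vle_mul_int v (hw₁.trans hr2) hw₁

omit h₃ h₆ in
lemma val_S {lam nu : K} {g : Γ₀} (hg : g ≤ 1) (hl : v lam ≤ g) (hn : v nu ≤ g)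
    (h₃' : v W.a₃ ≤ 1) (h₆' : v W.a₆ ≤ 1) :
    v (W.a₁ * lam + W.a₂ * nu + W.a₃ * lam ^ 2 + 2 * W.a₄ * lam * nu
      + 3 * W.a₆ * lam ^ 2 * nu) ≤ g := by
  have hl1 : v lam ≤ 1 := hl.trans hg
  refine v.map_add_le (v.map_add_le (v.map_add_le (v.map_add_le ?_ ?_) ?_) ?_) ?_
  · exact vle_mul_int v h₁ hl
  · exact vle_mul_int v h₂ hn
  · refine vle_mul_int v h₃' ?_
    rw [sq]; exact vle_mul_int v hl1 hl
  · rw [mul_assoc, mul_assoc]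
    refine vle_mul_int v (v_two_le v) (vle_mul_int v h₄ (vle_mul_int v hl1 hn))
  · rw [mul_assoc, mul_assoc]
    refine vle_mul_int v (v_three_le v) (vle_mul_int v h₆' ?_)
    refine vle_mul_int v ?_ hn
    rw [map_pow]; exact pow_le_one₀ zero_le hl1

omit h₁ h₃ in
lemma val_Dn {lam : K} (hl : v lam < 1) :
    v (1 + W.a₂ * lam + W.a₄ * lam ^ 2 + W.a₆ * lam ^ 3) = 1 := by
  have : v (W.a₂ * lam + W.a₄ * lam ^ 2 + W.a₆ * lam ^ 3) < 1 := by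
    refine v.map_add_lt (v.map_add_lt ?_ ?_) ?_
    · exact vlt_mul_int v h₂ hl
    · refine vlt_mul_int v h₄ ?_
      rw [map_pow]; exact pow_lt_one₀ zero_le hl (by norm_num)
    · refine vlt_mul_int v h₆ ?_
      rw [map_pow]; exact pow_lt_one₀ zero_le hl (by norm_num)
  have e : 1 + W.a₂ * lam + W.a₄ * lam ^ 2 + W.a₆ * lam ^ 3
      = 1 + (W.a₂ * lam + W.a₄ * lam ^ 2 + W.a₆ * lam ^ 3) := by ring
  rw [e]
  exact v.map_one_add_of_lt this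

end Val3



section Main

variable [DecidableEq K] (v : Valuation K Γ₀) {W : WeierstrassCurve.Affine K}
  (h₁ : v W.a₁ ≤ 1) (h₂ : v W.a₂ ≤ 1) (h₃ : v W.a₃ ≤ 1) (h₄ : v W.a₄ ≤ 1) (h₆ : v W.a₆ ≤ 1)

include h₁ h₂ h₃ h₄ h₆

/-- The key estimate: the sum of two kernel points (not opposite) is a kernel point, and the
`z`-coordinate is additive modulo `r ^ 2`. -/
lemma add_kernel {x₁ y₁ x₂ y₂ : K} (e₁ : W.Equation x₁ y₁) (e₂ : W.Equation x₂ y₂)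
    (hx₁ : 1 < v x₁) (hx₂ : 1 < v x₂) (hxy : ¬(x₁ = x₂ ∧ y₁ = W.negY x₂ y₂))
    {r : Γ₀} (hr : r < 1) (hz₁ : v (-x₁ / y₁) ≤ r) (hz₂ : v (-x₂ / y₂) ≤ r) :
    1 < v (W.addX x₁ x₂ (W.slope x₁ x₂ y₁ y₂)) ∧
    v (-(W.addX x₁ x₂ (W.slope x₁ x₂ y₁ y₂)) / W.addY x₁ x₂ y₁ (W.slope x₁ x₂ y₁ y₂)) ≤ r ∧
    v (-(W.addX x₁ x₂ (W.slope x₁ x₂ y₁ y₂)) / W.addY x₁ x₂ y₁ (W.slope x₁ x₂ y₁ y₂)
        - (-x₁ / y₁) - (-x₂ / y₂)) ≤ r ^ 2 := by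
  obtain ⟨hy₁0, hz₁lt, hw₁lt, hw₁3, hz₁0⟩ := kernel_point v h₁ h₂ h₃ h₄ h₆ e₁ hx₁
  obtain ⟨hy₂0, hz₂lt, hw₂lt, hw₂3, hz₂0⟩ := kernel_point v h₁ h₂ h₃ h₄ h₆ e₂ hx₂
  have hr1 : r ≤ 1 := hr.le
  have hr32 : r ^ 3 ≤ r ^ 2 := pow_le_of_le_one hr1 (by norm_num)
  have hr21 : r ^ 2 ≤ r := by simpa using pow_le_of_le_one hr1 (show 1 ≤ 2 by norm_num)
  have hr2lt : r ^ 2 < 1 := lt_of_le_of_lt hr21 hr
  have hw₁r : v (-1 / y₁) ≤ r ^ 3 := by rw [hw₁3]; gcongr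
  have hw₂r : v (-1 / y₂) ≤ r ^ 3 := by rw [hw₂3]; gcongr
  have ez₁ := zw_of_equation e₁ hy₁0
  have ez₂ := zw_of_equation e₂ hy₂0
  -- U, V, lam, nu
  have hU := val_UU v h₁ h₂ h₃ h₄ h₆ (z₁ := -x₁ / y₁) hz₂lt hw₁lt hw₂lt
  have hU0 : UU W (-x₁ / y₁) (-1 / y₁) (-x₂ / y₂) (-1 / y₂) ≠ 0 := by
    rw [← v.ne_zero_iff, hU]; exact one_ne_zero
  have hV := val_VV v h₁ h₂ h₄ (W := W) (w₂ := -1 / y₂) hr1 hz₁ hz₂ (hw₁r.trans hr32)
  obtain ⟨lam, hlamdef⟩ : ∃ lam, lam = VV W (-x₁ / y₁) (-1 / y₁) (-x₂ / y₂) (-1 / y₂)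
      / UU W (-x₁ / y₁) (-1 / y₁) (-x₂ / y₂) (-1 / y₂) := ⟨_, rfl⟩
  have hlamU : lam * UU W (-x₁ / y₁) (-1 / y₁) (-x₂ / y₂) (-1 / y₂)
      = VV W (-x₁ / y₁) (-1 / y₁) (-x₂ / y₂) (-1 / y₂) := by
    rw [hlamdef]; exact div_mul_cancel₀ _ hU0
  have hvlam : v lam ≤ r ^ 2 := by
    rw [hlamdef, map_div₀, hU, div_one]; exact hV
  obtain ⟨nu, hnudef⟩ : ∃ nu, nu = (-1 / y₁) - lam * (-x₁ / y₁) := ⟨_, rfl⟩
  have hvnu : v nu ≤ r ^ 3 := by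
    rw [hnudef]
    refine v.map_sub_le hw₁r ?_
    calc v (lam * (-x₁ / y₁)) ≤ r ^ 2 * r := vle_mul v hvlam hz₁
      _ = r ^ 3 := by rw [← pow_succ]
  have hlam : lam * ((-x₂ / y₂) - (-x₁ / y₁)) = (-1 / y₂) - (-1 / y₁) := by
    have hdq := diff_quot ez₁ ez₂
    have h5 : (lam * ((-x₂ / y₂) - (-x₁ / y₁))) * UU W (-x₁ / y₁) (-1 / y₁) (-x₂ / y₂) (-1 / y₂)
        = ((-1 / y₂) - (-1 / y₁)) * UU W (-x₁ / y₁) (-1 / y₁) (-x₂ / y₂) (-1 / y₂) := by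
      rw [hdq, ← hlamU]; ring
    exact mul_right_cancel₀ hU0 h5
  -- link with Mathlib's slope
  have hlink : nu ≠ 0 ∧ W.slope x₁ x₂ y₁ y₂ = lam / nu := by
    by_cases hx : x₁ = x₂
    · have hy : y₁ ≠ W.negY x₂ y₂ := fun h => hxy ⟨hx, h⟩
      have hyy := WeierstrassCurve.Affine.Y_eq_of_Y_ne e₁ e₂ hx hy
      subst hx; subst hyy
      rw [WeierstrassCurve.Affine.slope_of_Y_ne rfl hy]
      exact tangent_link hy₁0 e₁ hy hlamU hnudef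
    · rw [WeierstrassCurve.Affine.slope_of_X_ne hx]
      exact chord_link hy₁0 hy₂0 hx hlam hnudef
  obtain ⟨hnu0, hℓ⟩ := hlink
  -- name the Mathlib quantities
  obtain ⟨ℓ, hℓdef⟩ : ∃ ℓ, ℓ = W.slope x₁ x₂ y₁ y₂ := ⟨_, rfl⟩
  have hvi := vieta e₁ e₂ hxy
  have hls := line_second e₁ e₂ hxy
  have hE₃ := WeierstrassCurve.Affine.equation_negAdd e₁ e₂ hxy
  rw [← hℓdef] at hvi hls hE₃ hℓ ⊢
  obtain ⟨x₃, hx₃def⟩ : ∃ x₃, x₃ = W.addX x₁ x₂ ℓ := ⟨_, rfl⟩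
  obtain ⟨c, hcdef⟩ : ∃ c, c = y₁ - ℓ * x₁ := ⟨_, rfl⟩
  have hc : c = -1 / nu := by
    rw [hcdef, hℓ]; exact intercept_eq hy₁0 hnu0 hnudef
  obtain ⟨y₃, hy₃def⟩ : ∃ y₃, y₃ = W.negAddY x₁ x₂ y₁ ℓ := ⟨_, rfl⟩
  have hY : W.addY x₁ x₂ y₁ ℓ = W.negY x₃ y₃ := by
    rw [hx₃def, hy₃def]; rfl
  rw [hY, ← hx₃def]
  rw [← hx₃def, ← hy₃def] at hE₃
  rw [← hx₃def] at hvi
  have hl₁ : y₁ = ℓ * x₁ + c := by rw [hcdef]; ring
  have hl₂ : y₂ = ℓ * x₂ + c := by rw [hcdef]; linear_combination hls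
  have hl₃ : y₃ = ℓ * x₃ + c := by
    rw [hy₃def, hcdef, hx₃def]; simp only [WeierstrassCurve.Affine.negAddY]; ring
  have hv₁ : x₁ + x₂ + x₃ = ℓ ^ 2 + W.a₁ * ℓ - W.a₂ := by
    rw [hx₃def]; simp only [WeierstrassCurve.Affine.addX]; ring
  have hv₂ : x₁ * x₂ + x₁ * x₃ + x₂ * x₃ = -2 * c * ℓ - W.a₃ * ℓ - W.a₁ * c + W.a₄ := by
    rw [hvi.1, hcdef]; ring
  have hv₃ : x₁ * x₂ * x₃ = c ^ 2 + W.a₃ * c - W.a₆ := by
    rw [hvi.2, hcdef]; ring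
  have hlam1 : v lam < 1 := lt_of_le_of_lt hvlam hr2lt
  have hDn := val_Dn v h₂ h₄ h₆ (W := W) hlam1
  have hDn0 : 1 + W.a₂ * lam + W.a₄ * lam ^ 2 + W.a₆ * lam ^ 3 ≠ 0 := by
    rw [← v.ne_zero_iff, hDn]; exact one_ne_zero
  obtain ⟨hy₃0, hz₃, hw₃⟩ := third_point hnu0 hℓ hc hl₁ hl₂ hl₃ hv₁ hv₂ hv₃ hy₁0 hy₂0 hDn0
  -- valuations of the third point
  have hS := val_S v h₁ h₂ h₄ (W := W) (pow_le_one₀ zero_le hr1 : r ^ 2 ≤ 1) hvlam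
    (hvnu.trans hr32) h₃ h₆
  have hsum : v (-x₃ / y₃ + (-x₁ / y₁) + (-x₂ / y₂)) ≤ r ^ 2 := by
    have : -x₃ / y₃ + (-x₁ / y₁) + (-x₂ / y₂)
        = -((W.a₁ * lam + W.a₂ * nu + W.a₃ * lam ^ 2 + 2 * W.a₄ * lam * nu
            + 3 * W.a₆ * lam ^ 2 * nu)
          / (1 + W.a₂ * lam + W.a₄ * lam ^ 2 + W.a₆ * lam ^ 3)) := by
      rw [hz₃]; ring
    rw [this, Valuation.map_neg, map_div₀, hDn, div_one]
    exact hS
  have hz₃r : v (-x₃ / y₃) ≤ r := by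
    have : -x₃ / y₃ = (-x₃ / y₃ + (-x₁ / y₁) + (-x₂ / y₂)) - (-x₁ / y₁) - (-x₂ / y₂) := by ring
    rw [this]
    exact v.map_sub_le (v.map_sub_le (hsum.trans hr21) hz₁) hz₂
  have hw₃r : v (-1 / y₃) ≤ r ^ 3 := by
    rw [hw₃]
    refine v.map_add_le ?_ hvnu
    calc v (lam * (-x₃ / y₃)) ≤ r ^ 2 * r := vle_mul v hvlam hz₃r
      _ = r ^ 3 := by rw [← pow_succ]
  have hz₃lt : v (-x₃ / y₃) < 1 := lt_of_le_of_lt hz₃r hr
  have hw₃lt : v (-1 / y₃) < 1 := lt_of_le_of_lt (hw₃r.trans (hr32.trans hr21)) hr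
  have hx₃ : 1 < v x₃ := val_x_gt_of_zw v h₁ h₂ h₃ h₄ h₆ hy₃0 hE₃ hz₃lt hw₃lt
  obtain ⟨hn1, hn2⟩ := neg_z v h₁ h₂ h₃ h₄ h₆ hE₃ hx₃
  refine ⟨hx₃, hn1 ▸ hz₃r, ?_⟩
  have : -x₃ / W.negY x₃ y₃ - (-x₁ / y₁) - (-x₂ / y₂)
      = (-x₃ / W.negY x₃ y₃ + -x₃ / y₃) - (-x₃ / y₃ + (-x₁ / y₁) + (-x₂ / y₂)) := by ring
  rw [this]
  refine v.map_sub_le (hn2.trans ?_) hsum
  exact pow_le_pow_left₀ zero_le hz₃r 2

end Main



/-! ### Point-level statements -/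

section Points

variable (v : Valuation K Γ₀) {W : WeierstrassCurve.Affine K}

/-- The `z`-coordinate `-x/y` of a point, with value `0` at infinity. -/
def zOf : W.Point → K
  | .zero => 0
  | .some x y _ => -x / y

/-- `P` lies in the kernel of reduction and `v (z P) ≤ r`. -/
def InKer (r : Γ₀) : W.Point → Prop
  | .zero => True
  | .some x y _ => 1 < v x ∧ v (-x / y) ≤ r

@[simp] lemma zOf_zero : zOf (0 : W.Point) = 0 := rfl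

@[simp] lemma zOf_some {x y : K} (h : W.Nonsingular x y) : zOf (Point.some x y h) = -x / y := rfl

@[simp] lemma inKer_zero (r : Γ₀) : InKer v r (0 : W.Point) := trivial

@[simp] lemma inKer_some (r : Γ₀) {x y : K} (h : W.Nonsingular x y) :
    InKer v r (Point.some x y h) ↔ 1 < v x ∧ v (-x / y) ≤ r := Iff.rfl

variable [DecidableEq K] (h₁ : v W.a₁ ≤ 1) (h₂ : v W.a₂ ≤ 1) (h₃ : v W.a₃ ≤ 1)
  (h₄ : v W.a₄ ≤ 1) (h₆ : v W.a₆ ≤ 1)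

include h₁ h₂ h₃ h₄ h₆

/-- The kernel of reduction (with `z`-valuation at most `r < 1`) is closed under addition and
the `z`-coordinate is additive modulo valuation `r ^ 2`. -/
theorem inKer_add {r : Γ₀} (hr : r < 1) {P Q : W.Point} (hP : InKer v r P) (hQ : InKer v r Q) :
    InKer v r (P + Q) ∧ v (zOf (P + Q) - zOf P - zOf Q) ≤ r ^ 2 := by
  rcases P with _ | ⟨x₁, y₁, hn₁⟩
  · change InKer v r (0 + Q) ∧ v (zOf (0 + Q) - zOf (0 : W.Point) - zOf Q) ≤ r ^ 2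
    rw [zero_add]
    refine ⟨hQ, ?_⟩
    simp
  rcases Q with _ | ⟨x₂, y₂, hn₂⟩
  · change InKer v r (Point.some x₁ y₁ hn₁ + 0)
      ∧ v (zOf (Point.some x₁ y₁ hn₁ + 0) - zOf (Point.some x₁ y₁ hn₁) - zOf (0 : W.Point)) ≤ r ^ 2
    rw [add_zero]
    refine ⟨hP, ?_⟩
    simp
  obtain ⟨hx₁, hz₁⟩ := hP
  obtain ⟨hx₂, hz₂⟩ := hQ
  by_cases hxy : x₁ = x₂ ∧ y₁ = W.negY x₂ y₂
  · rw [Point.add_of_Y_eq hxy.1 hxy.2]
    refine ⟨trivial, ?_⟩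
    obtain ⟨hn1, hn2⟩ := neg_z v h₁ h₂ h₃ h₄ h₆ hn₂.1 hx₂
    simp only [zOf_zero, zOf_some, zero_sub]
    rw [hxy.1, hxy.2]
    have : -(-x₂ / W.negY x₂ y₂) - -x₂ / y₂ = -(-x₂ / W.negY x₂ y₂ + -x₂ / y₂) := by ring
    rw [this, Valuation.map_neg]
    exact hn2.trans (pow_le_pow_left₀ zero_le hz₂ 2)
  · rw [Point.add_some hxy]
    obtain ⟨a, b, c⟩ := add_kernel v h₁ h₂ h₃ h₄ h₆ hn₁.1 hn₂.1 hx₁ hx₂ hxy hr hz₁ hz₂
    exact ⟨⟨a, b⟩, c⟩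

/-- Multiples of a kernel point stay in the kernel, and `z (k • P) ≡ k * z P` modulo `r ^ 2`. -/
theorem inKer_nsmul {r : Γ₀} (hr : r < 1) {P : W.Point} (hP : InKer v r P) (k : ℕ) :
    InKer v r (k • P) ∧ v (zOf (k • P) - k * zOf P) ≤ r ^ 2 := by
  induction k with
  | zero => simp
  | succ k ih =>
    obtain ⟨ih1, ih2⟩ := ih
    rw [succ_nsmul]
    obtain ⟨a, b⟩ := inKer_add v h₁ h₂ h₃ h₄ h₆ hr ih1 hP
    refine ⟨a, ?_⟩
    have : zOf (k • P + P) - ((k + 1 : ℕ) : K) * zOf P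
        = (zOf (k • P + P) - zOf (k • P) - zOf P) + (zOf (k • P) - k * zOf P) := by
      push_cast; ring
    rw [this]
    exact v.map_add_le b ih2

/-- General valuation version: the kernel of reduction has no `n`-torsion for `v n = 1`. -/
theorem nsmul_ne_zero_of_val {n : ℕ} (hn : v (n : K) = 1) {x y : K} (h : W.Nonsingular x y)
    (hx : 1 < v x) : n • (Point.some x y h) ≠ 0 ∧ InKer v (v (-x / y)) (n • (Point.some x y h)) := by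
  obtain ⟨hy0, hz, hw, hw3, hz0⟩ := kernel_point v h₁ h₂ h₃ h₄ h₆ h.1 hx
  have hP : InKer v (v (-x / y)) (Point.some x y h) := ⟨hx, le_rfl⟩
  obtain ⟨a, b⟩ := inKer_nsmul v h₁ h₂ h₃ h₄ h₆ hz hP n
  refine ⟨?_, a⟩
  intro h0
  rw [h0] at b
  simp only [zOf_zero, zOf_some, zero_sub, Valuation.map_neg, map_mul, hn, one_mul] at b
  have hlt : v (-x / y) ^ 2 < v (-x / y) := by
    calc v (-x / y) ^ 2 = v (-x / y) * v (-x / y) := sq _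
      _ < 1 * v (-x / y) := by
        exact mul_lt_mul_of_pos_right hz (zero_lt_iff.mpr hz0)
      _ = v (-x / y) := one_mul _
  exact absurd b (not_le.mpr hlt)

end Points

/-- **Kernel of reduction is torsion-free** (for `n` a unit of the valuation ring). -/
theorem kernel_torsion_free {K : Type*} [Field K] [DecidableEq K] (A : ValuationSubring K)
    (W : WeierstrassCurve.Affine K)
    (h₁ : W.a₁ ∈ A) (h₂ : W.a₂ ∈ A) (h₃ : W.a₃ ∈ A) (h₄ : W.a₄ ∈ A) (h₆ : W.a₆ ∈ A)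
    (n : ℕ) (hn : A.valuation (n : K) = 1)
    {x y : K} (h : W.Nonsingular x y) (hx : x ∉ A) :
    n • (WeierstrassCurve.Affine.Point.some x y h) ≠ 0 := by
  have hx' : 1 < A.valuation x := by
    rw [← not_le, A.valuation_le_one_iff]; exact hx
  exact (nsmul_ne_zero_of_val A.valuation
    ((A.valuation_le_one_iff _).mpr h₁) ((A.valuation_le_one_iff _).mpr h₂)
    ((A.valuation_le_one_iff _).mpr h₃) ((A.valuation_le_one_iff _).mpr h₄)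
    ((A.valuation_le_one_iff _).mpr h₆) hn h hx').1

end Fermat.Agent.S05_helper6_Kernel
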