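import Fermat.Statements.S05
import Fermat.Agent.S05_helper1_Defs
import Fermat.Agent.S05_helper1_Component
import Fermat.Agent.S05_helper1_Chord
import Fermat.Agent.S05_helper25_Bridge
import Fermat.Agent.S05_helper5_Inertia
import Fermat.Agent.S05_helper5_Frey
import Fermat.Agent.S05_helper6_Kernel
import Fermat.Agent.S05_helper25_CompTorsion

set_option autoImplicit false
open WeierstrassCurve WeierstrassCurve.Affine WeierstrassCurve.Affine.Point
open CuspForm ModularFormClass UpperHalfPlane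
open FreyPackage

namespace Fermat.Agent.S05

open Fermat.Agent.S05_helper1_Defs Fermat.Agent.S05_helper1_Component
  Fermat.Agent.S05_helper1_Chord Fermat.Agent.S05_helper25_Bridge
  Fermat.Agent.S05_helper5_Inertia Fermat.Agent.S05_helper5_Frey
  Fermat.Agent.S05_helper6_Kernel Fermat.Agent.S05_helper25_CompTorsion

attribute [local instance 100000] AlgebraicClosure.instAlgebra

local notation "Qb" => AlgebraicClosure ℚ

/-- An element whose valuation is that of a `σ`-fixed element moves by less than itself. -/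
lemma inertia_rel (A : ValuationSubring Qb) (σ : Qb ≃ₐ[ℚ] Qb) (hσ : σ ∈ A.inertiaSubgroupIn ℚ)
    {z c : Qb} (hc : σ c = c) (hc0 : c ≠ 0) (hz : A.valuation z = A.valuation c) :
    A.valuation (σ z - z) < A.valuation z := by
  have hcv : 0 < A.valuation c := (A.valuation.pos_iff).2 hc0
  have hu : A.valuation (z / c) = 1 := by
    rw [map_div₀, hz, div_self hcv.ne']
  have huA : z / c ∈ A := (A.valuation_le_one_iff _).1 hu.le
  have h := (inertia_spec_gen A σ hσ (z / c) huA).2
  rw [ValuationSubring.mem_nonunits_iff] at h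
  have e : σ z - z = c * (σ (z / c) - z / c) := by
    rw [map_div₀, hc]
    field_simp
  rw [e, map_mul, hz]
  exact mul_lt_of_lt_one_right hcv h

lemma inertia_int (A : ValuationSubring Qb) (σ : Qb ≃ₐ[ℚ] Qb) (hσ : σ ∈ A.inertiaSubgroupIn ℚ)
    {z : Qb} (hz : A.valuation z ≤ 1) : A.valuation (σ z - z) < 1 := by
  have h := (inertia_spec_gen A σ hσ z ((A.valuation_le_one_iff _).1 hz)).2
  rwa [ValuationSubring.mem_nonunits_iff] at h

/-- Main statement on points. -/
theorem main (P : FreyPackage) {q : ℕ} (hq : q.Prime) (hq2 : q ≠ 2) (hqp : q ≠ P.p)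
    (A : ValuationSubring Qb) (hA : A.LiesOverPrime q) (σ : Qb ≃ₐ[ℚ] Qb)
    (hσ : σ ∈ A.inertiaSubgroupIn ℚ) (Pt : (P.freyCurve⁄Qb).Point) (hPt' : P.p • Pt = 0) :
    Point.map (W' := P.freyCurve) σ.toAlgHom Pt = Pt := by
  obtain ⟨h2, hnat, s, a, b, hW, ⟨s₀, hs₀⟩, hs, ha, hb, hb0, hdisc, hcase⟩ :=
    frey_models P A hq hq2 hA
  have hp : A.valuation ((P.p : ℕ) : Qb) = 1 :=
    hnat P.p (fun hd => hqp ((Nat.prime_dvd_prime_iff_eq hq P.pp).1 hd))
  have h4 := val_four A.valuation h2
  have h8 := val_eight A.valuation h2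
  -- coefficients are integral
  have ha₂ : (P.freyCurve⁄Qb).a₂ ∈ A := by
    rw [← A.valuation_le_one_iff]
    have e : 4 * (P.freyCurve⁄Qb).a₂ = a - 3 * s - 1 := by rw [hW.ha]; ring
    have h3 : A.valuation (3 : Qb) ≤ 1 := by
      have : (3 : Qb) = 2 + 1 := by norm_num
      rw [this]
      exact A.valuation.map_add_le h2.le (by rw [map_one])
    have : A.valuation (4 * (P.freyCurve⁄Qb).a₂) ≤ 1 := by
      rw [e]
      refine A.valuation.map_sub_le (A.valuation.map_sub_le ha ?_) (by rw [map_one])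
      rw [map_mul]; exact mul_le_one' h3 hs
    rwa [map_mul, h4, one_mul] at this
  have ha₄ : (P.freyCurve⁄Qb).a₄ ∈ A := by
    rw [← A.valuation_le_one_iff]
    have e : 16 * (P.freyCurve⁄Qb).a₄ = b - s * (2 * a - 3 * s) := by rw [hW.hb, hW.ha]; ring
    have h3 : A.valuation (3 : Qb) ≤ 1 := by
      have : (3 : Qb) = 2 + 1 := by norm_num
      rw [this]
      exact A.valuation.map_add_le h2.le (by rw [map_one])
    have h16 : A.valuation (16 : Qb) = 1 := by
      have : (16 : Qb) = 4 * 4 := by norm_num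
      rw [this, map_mul, h4, one_mul]
    have : A.valuation (16 * (P.freyCurve⁄Qb).a₄) ≤ 1 := by
      rw [e]
      refine A.valuation.map_sub_le hb ?_
      rw [map_mul]
      refine mul_le_one' hs (A.valuation.map_sub_le ?_ ?_)
      · rw [map_mul, h2, one_mul]; exact ha
      · rw [map_mul]; exact mul_le_one' h3 hs
    rwa [map_mul, h16, one_mul] at this
  have hker : ∀ {x y : Qb} (h : (P.freyCurve⁄Qb).Nonsingular x y), 1 < A.valuation x →
      P.p • Point.some x y h ≠ 0 := by
    intro x y h hx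
    apply kernel_torsion_free A (P.freyCurve⁄Qb) _ ha₂ _ ha₄ _ P.p hp h
    · rw [← A.valuation_le_one_iff]; exact not_le.2 hx
    · rw [hW.a₁]; exact A.one_mem
    · rw [hW.a₃]; exact A.zero_mem
    · rw [hW.a₆]; exact A.zero_mem
  rcases Pt with _ | ⟨x₀, y₀, h₀⟩
  · rfl
  have hσP : P.p • Point.map (W' := P.freyCurve) σ.toAlgHom (Point.some x₀ y₀ h₀) = 0 := by
    rw [← map_nsmul, hPt', _root_.map_zero]
  rw [Point.map_some] at hσP ⊢
  generalize_proofs h₀' at hσP ⊢
  -- integrality of the coordinates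
  have hx₀ : A.valuation x₀ ≤ 1 := by
    by_contra hcon
    exact hker h₀ (not_le.1 hcon) hPt'
  have hX : A.valuation (4 * x₀ - s) ≤ 1 := by
    refine A.valuation.map_sub_le ?_ hs
    rw [map_mul, h4, one_mul]; exact hx₀
  have hsh := short_equation hW h₀.1
  have hY : A.valuation (8 * y₀ + 4 * x₀) ≤ 1 := by
    have : A.valuation ((8 * y₀ + 4 * x₀) ^ 2) ≤ 1 := by
      rw [hsh]
      refine A.valuation.map_add_le (A.valuation.map_add_le ?_ ?_) ?_
      · rw [map_pow]; exact pow_le_one₀ zero_le hX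
      · rw [map_mul, map_pow]; exact mul_le_one' ha (pow_le_one₀ zero_le hX)
      · rw [map_mul]; exact mul_le_one' hb hX
    rw [map_pow] at this
    by_contra hcon
    rw [not_le] at hcon
    exact absurd this (not_le.2 (one_lt_pow₀ hcon (by norm_num)))
  have hy₀ : A.valuation y₀ ≤ 1 := by
    have e : 8 * y₀ = (8 * y₀ + 4 * x₀) - 4 * x₀ := by ring
    have : A.valuation (8 * y₀) ≤ 1 := by
      rw [e]
      refine A.valuation.map_sub_le hY ?_
      rw [map_mul, h4, one_mul]; exact hx₀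
    rwa [map_mul, h8, one_mul] at this
  have hσs : σ s = s := by rw [hs₀]; exact map_intCast σ s₀
  -- the unit case
  have unit_case : (A.valuation (4 * x₀ - s) = 1 ∨ A.valuation b = 1) →
      Point.some (σ.toAlgHom x₀) (σ.toAlgHom y₀) h₀' = Point.some x₀ y₀ h₀ := by
    intro hcase'
    have hYu : A.valuation (8 * y₀ + 4 * x₀) = 1 := by
      refine le_antisymm hY (not_lt.1 ?_)
      refine y_unit_of_torsion A.valuation hW h2 hs ha P.p P.hp_odd hker h₀ hPt' hx₀ ?_
      intro hlt
      exact fprime_unit A.valuation hsh h2 ha hb hdisc hX hcase' hlt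
    refine chord_fixed A.valuation hW h2 hs ha P.p hker h₀ _ hPt' hσP hx₀ hY ?_ ?_
    · rw [hYu]; exact inertia_int A σ hσ hx₀
    · rw [hYu]; exact inertia_int A σ hσ hy₀
  rcases hcase with hb1 | ⟨ha1, hblt, t, ht0, hbt⟩
  · exact unit_case (Or.inr hb1)
  rcases lt_or_eq_of_le hX with hXlt | hXeq
  swap
  · exact unit_case (Or.inl hXeq)
  -- the component case
  obtain ⟨γ, hγ⟩ : ∃ γ : Qb, γ ^ 2 = a := IsAlgClosed.exists_pow_nat_eq a (by norm_num)
  obtain ⟨j, hj⟩ := component_torsion A.valuation hW h2 ha1 hblt hb0 hγ P.p h₀ hPt'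
  have hβ0 : 0 < A.valuation b := (A.valuation.pos_iff).2 hb0
  have ht0' : (t : Qb) ≠ 0 := Int.cast_ne_zero.2 ht0
  have hg0 : 0 < A.valuation (t : Qb) := (A.valuation.pos_iff).2 ht0'
  have hp0 : P.p ≠ 0 := P.hp0
  -- the valuation of `X` is the valuation of a rational number
  have hk : ∃ k : ℤ, A.valuation (4 * x₀ - s) = A.valuation (t : Qb) ^ k := by
    have hpow : ∀ (x : A.ValueGroup) (i : ℤ), x ^ P.p = (A.valuation b) ^ i →
        x = A.valuation (t : Qb) ^ i := by
      intro x i h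
      rw [hbt] at h
      have : (A.valuation (t : Qb) ^ P.p) ^ i = (A.valuation (t : Qb) ^ i) ^ P.p := by
        rw [← zpow_natCast, ← zpow_mul, mul_comm, zpow_mul, zpow_natCast]
      rw [this] at h
      exact (pow_left_inj₀ zero_le zero_le hp0).1 h
    by_cases hle : A.valuation (4 * x₀ - s) ≤ A.valuation b
    · exfalso
      rw [phiT_of_le A.valuation hXlt hle, ← zpow_natCast] at hj
      have := (zpow_right_strictAnti₀ hβ0 hblt).injective hj
      have hodd : Odd (P.p : ℤ) := by exact_mod_cast P.hp_odd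
      rw [this] at hodd
      exact (Int.not_odd_iff_even.2 (even_two_mul j)) hodd
    · rw [not_le] at hle
      by_cases hsgn : A.valuation ((8 * y₀ + 4 * x₀) - γ * (4 * x₀ - s)) < A.valuation (4 * x₀ - s)
      · rw [phiT_of_pos A.valuation hXlt hle hsgn] at hj
        exact ⟨2 * j, hpow _ _ hj⟩
      · rw [phiT_of_neg A.valuation hXlt hle hsgn] at hj
        refine ⟨-(2 * j), ?_⟩
        have := hpow _ _ hj
        rw [zpow_neg, ← this, inv_inv]
  obtain ⟨k, hk⟩ := hk
  have hble : A.valuation b < A.valuation (4 * x₀ - s) := by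
    by_contra hle
    rw [not_lt] at hle
    rw [phiT_of_le A.valuation hXlt hle, ← zpow_natCast] at hj
    have := (zpow_right_strictAnti₀ hβ0 hblt).injective hj
    have hodd : Odd (P.p : ℤ) := by exact_mod_cast P.hp_odd
    rw [this] at hodd
    exact (Int.not_odd_iff_even.2 (even_two_mul j)) hodd
  have hc0 : ((t : Qb) ^ k) ≠ 0 := zpow_ne_zero k ht0'
  have hσc : σ ((t : Qb) ^ k) = (t : Qb) ^ k := by
    rw [map_zpow₀, map_intCast]
  have hvc : A.valuation ((t : Qb) ^ k) = A.valuation (t : Qb) ^ k := map_zpow₀ _ _ _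
  have hdX : A.valuation (σ (4 * x₀ - s) - (4 * x₀ - s)) < A.valuation (4 * x₀ - s) :=
    inertia_rel A σ hσ hσc hc0 (by rw [hk, hvc])
  have hvY : A.valuation (8 * y₀ + 4 * x₀) = A.valuation (4 * x₀ - s) :=
    typeC_vY A.valuation hsh ha1 hble hXlt
  have hdY : A.valuation (σ (8 * y₀ + 4 * x₀) - (8 * y₀ + 4 * x₀)) <
      A.valuation (8 * y₀ + 4 * x₀) :=
    inertia_rel A σ hσ hσc hc0 (by rw [hvY, hk, hvc])
  have hdx : A.valuation (σ x₀ - x₀) < A.valuation (8 * y₀ + 4 * x₀) := by
    have e : σ (4 * x₀ - s) - (4 * x₀ - s) = 4 * (σ x₀ - x₀) := by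
      rw [map_sub, map_mul, hσs, map_ofNat]; ring
    rw [e, map_mul, h4, one_mul] at hdX
    rw [hvY]; exact hdX
  have hdy : A.valuation (σ y₀ - y₀) < A.valuation (8 * y₀ + 4 * x₀) := by
    have e : 8 * (σ y₀ - y₀) = (σ (8 * y₀ + 4 * x₀) - (8 * y₀ + 4 * x₀)) - 4 * (σ x₀ - x₀) := by
      rw [map_add, map_mul, map_mul, map_ofNat, map_ofNat]; ring
    have : A.valuation (8 * (σ y₀ - y₀)) < A.valuation (8 * y₀ + 4 * x₀) := by
      rw [e]
      refine A.valuation.map_sub_lt hdY ?_
      rw [map_mul, h4, one_mul]; exact hdx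
    rwa [map_mul, h8, one_mul] at this
  exact chord_fixed A.valuation hW h2 hs ha P.p hker h₀ _ hPt' hσP hx₀ hY hdx hdy

theorem result (P : FreyPackage) {q : ℕ} (hq : q.Prime) (hq2 : q ≠ 2) (hqp : q ≠ P.p) : P.GaloisRepUnramifiedAt q := by
  intro A hA σ hσ x
  have hPt' : P.p • (x : (P.freyCurve⁄Qb).Point) = 0 := by
    have := (Submodule.mem_torsionBy_iff _ _).1 x.2
    rwa [natCast_zsmul] at this
  apply Subtype.ext
  exact main P hq hq2 hqp A hA σ hσ x hPt'

end Fermat.Agent.S05
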