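import Mathlib

set_option autoImplicit false
set_option linter.style.haveILetI false

open NumberField Polynomial InfinitePlace Nat Real cyclotomic Module Ideal

namespace Fermat.Agent.S10_helper17_PID7

/-- The Minkowski bound of the 7-th cyclotomic field is `< 7`. -/
theorem minkowski7 (K : Type*) [Field K] [NumberField K] [IsCyclotomicExtension {7} ℚ K] :
    (4 / π) ^ nrComplexPlaces K *
      ((finrank ℚ K)! / (finrank ℚ K) ^ (finrank ℚ K) * √|discr K|) < 7 := by
  have : Fact (Nat.Prime 7) := ⟨by norm_num⟩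
  rw [IsCyclotomicExtension.Rat.discr_prime 7 K, IsCyclotomicExtension.finrank (n := 7) K
    (irreducible_rat (by simp)), IsCyclotomicExtension.Rat.nrComplexPlaces_eq_totient_div_two 7,
    totient_prime (by norm_num : Nat.Prime 7)]
  have h6 : (6 : ℕ)! = 720 := by decide
  have hd : |(((-1 : ℤ) ^ ((7 - 1) / 2) * ((7 : ℕ) : ℤ) ^ (7 - 2) : ℤ) : ℝ)| = 16807 := by
    norm_num
  have hs : √(16807 : ℝ) < 130 := by
    rw [Real.sqrt_lt' (by norm_num)]
    norm_num
  have hpi : (4 : ℝ) / π < 4 / 3 := by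
    apply div_lt_div_of_pos_left (by norm_num) (by norm_num) pi_gt_three
  have hpos : (0 : ℝ) < 4 / π := by positivity
  have h3 : ((4 : ℝ) / π) ^ 3 < (4 / 3) ^ 3 := by gcongr
  simp only [show (7 - 1) / 2 = 3 by norm_num, show 7 - 1 = 6 by norm_num, h6]
  rw [show |(((-1 : ℤ) ^ 3 * ((7 : ℕ) : ℤ) ^ (7 - 2) : ℤ) : ℝ)| = 16807 by norm_num]
  have hs0 : (0 : ℝ) ≤ √(16807 : ℝ) := Real.sqrt_nonneg _
  calc (4 / π) ^ 3 * (((720 : ℕ) : ℝ) / ((6 : ℕ) : ℝ) ^ 6 * √16807)
      ≤ (4 / 3) ^ 3 * (((720 : ℕ) : ℝ) / ((6 : ℕ) : ℝ) ^ 6 * 130) := by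
        gcongr
    _ < 7 := by norm_num

theorem orderOf_two_zmod7 : orderOf ((2 : ℕ) : ZMod 7) = 3 := by
  rw [orderOf_eq_iff (by norm_num)]
  decide

theorem orderOf_three_zmod7 : orderOf ((3 : ℕ) : ZMod 7) = 6 := by
  rw [orderOf_eq_iff (by norm_num)]
  decide

theorem orderOf_five_zmod7 : orderOf ((5 : ℕ) : ZMod 7) = 6 := by
  rw [orderOf_eq_iff (by norm_num)]
  decide

theorem pid7 (K : Type*) [Field K] [NumberField K] [IsCyclotomicExtension {7} ℚ K] :
    IsPrincipalIdealRing (𝓞 K) := by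
  have : Fact (Nat.Prime 7) := ⟨by norm_num⟩
  have hM := minkowski7 K
  have hfloor : ⌊(4 / π) ^ nrComplexPlaces K *
      ((finrank ℚ K)! / (finrank ℚ K) ^ (finrank ℚ K) * √|discr K|)⌋₊ < 7 := by
    rw [Nat.floor_lt (by positivity)]
    exact_mod_cast hM
  apply RingOfIntegers.isPrincipalIdealRing_of_isPrincipal_of_pow_le_of_mem_primesOver_of_mem_Icc
  intro p hp hpprime P hP hple
  exfalso
  have hp7 : p < 7 := lt_of_le_of_lt (Finset.mem_Icc.mp hp).2 hfloor
  have hpow : p ^ P.inertiaDeg ℤ < 7 := lt_of_le_of_lt hple hfloor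
  haveI : Fact p.Prime := ⟨hpprime⟩
  haveI : P.IsPrime := hP.1
  haveI : P.LiesOver (span {(p : ℤ)}) := hP.2
  have hnd : ¬ p ∣ 7 := by
    intro h
    have := (Nat.prime_dvd_prime_iff_eq hpprime (by norm_num : Nat.Prime 7)).mp h
    omega
  have hf := IsCyclotomicExtension.Rat.inertiaDeg_eq_of_not_dvd (m := 7) p K P hnd
  rw [hf] at hpow
  have hp2 : 2 ≤ p := hpprime.two_le
  interval_cases p
  · rw [orderOf_two_zmod7] at hpow
    norm_num at hpow
  · rw [orderOf_three_zmod7] at hpow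
    norm_num at hpow
  · exact absurd hpprime (by norm_num)
  · rw [orderOf_five_zmod7] at hpow
    norm_num at hpow
  · exact absurd hpprime (by norm_num)

end Fermat.Agent.S10_helper17_PID7
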