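import Mathlib

set_option linter.style.haveILetI false

/-!
# Case I of Fermat's Last Theorem for `p ∈ {5, 7, 11, 13}` (Sophie Germain's theorem)

Elementary proof (no cyclotomic fields): for an odd prime `p` and an auxiliary prime `q` with
* (i)  `u ^ p + v ^ p + w ^ p = 0` in `ZMod q` forces `u = 0 ∨ v = 0 ∨ w = 0`,
* (ii) `p` is not a `p`-th power in `ZMod q`,
the equation `a ^ p + b ^ p = c ^ p` has no solution in coprime integers with `p ∤ a * b * c`.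
Auxiliary primes used: `11` for `5`, `29` for `7`, `23` for `11`, `53` for `13`.
-/

namespace Fermat.Agent.S10_helper15_CaseI

open Finset

/-- The cofactor `(u ^ p + v ^ p) / (u + v)` (for odd `p`), written as a geometric sum. -/
def sgPhi {R : Type*} [CommRing R] (p : ℕ) (u v : R) : R :=
  ∑ i ∈ range p, u ^ i * (-v) ^ (p - 1 - i)

lemma sgPhi_mul {R : Type*} [CommRing R] {p : ℕ} (hp : Odd p) (u v : R) :
    sgPhi p u v * (u + v) = u ^ p + v ^ p := by
  have h₁ := geom_sum₂_mul u (-v) p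
  rw [Odd.neg_pow hp v, sub_neg_eq_add, sub_neg_eq_add] at h₁
  exact h₁

lemma map_sgPhi {R S : Type*} [CommRing R] [CommRing S] (f : R →+* S) (p : ℕ) (u v : R) :
    f (sgPhi p u v) = sgPhi p (f u) (f v) := by
  simp [sgPhi, map_sum, map_mul, map_pow, map_neg]

lemma sgPhi_of_add_eq_zero {R : Type*} [CommRing R] (p : ℕ) {u v : R} (h : u + v = 0) :
    sgPhi p u v = p * u ^ (p - 1) := by
  have hv : -v = u := by rw [neg_eq_iff_add_eq_zero, add_comm]; exact h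
  rw [sgPhi, hv, geom_sum₂_self]

lemma sgPhi_zero_left {R : Type*} [CommRing R] {p : ℕ} (hp : Odd p) (v : R) :
    sgPhi p 0 v = v ^ (p - 1) := by
  have hpos : 0 < p := hp.pos
  have heven : Even (p - 1) := by
    obtain ⟨k, rfl⟩ := hp
    simp
  rw [sgPhi, Finset.sum_eq_single 0]
  · simp [heven.neg_pow]
  · intro i _ hi
    simp [hi]
  · intro h0
    exact absurd (Finset.mem_range.mpr hpos) h0

lemma coprime_add_sgPhi {p : ℕ} (hp : p.Prime) (hodd : Odd p) {u v w : ℤ}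
    (h : u ^ p + v ^ p + w ^ p = 0) (huv : IsCoprime u v) (hw : ¬ (p : ℤ) ∣ w) :
    IsCoprime (u + v) (sgPhi p u v) := by
  have hpZ : Prime (p : ℤ) := Nat.prime_iff_prime_int.mp hp
  have hpw : ∀ d : ℤ, d ∣ u + v → d ∣ w ^ p := by
    intro d hd
    have h1 : d ∣ u ^ p + v ^ p := hd.trans (Odd.add_dvd_pow_add_pow u v hodd)
    have h2 : w ^ p = -(u ^ p + v ^ p) := by linarith
    rw [h2]
    exact (dvd_neg).mpr h1
  refine isCoprime_of_prime_dvd ?_ ?_
  · rintro ⟨h1, -⟩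
    apply hw
    have : (p : ℤ) ∣ w ^ p := hpw _ (h1 ▸ dvd_zero _)
    exact hpZ.dvd_of_dvd_pow this
  · intro r hr hr1 hr2
    have h3 : r ∣ (p : ℤ) * (-v) ^ (p - 1) :=
      (dvd_geom_sum₂_iff_of_dvd_sub (x := u) (y := -v) (n := p) (by simpa using hr1)).mp hr2
    rcases hr.dvd_or_dvd h3 with h4 | h4
    · have hassoc : Associated r (p : ℤ) := (hr.dvd_prime_iff_associated hpZ).mp h4
      have h5 : (p : ℤ) ∣ u + v := hassoc.dvd_iff_dvd_left.mp hr1
      exact hw (hpZ.dvd_of_dvd_pow (hpw _ h5))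
    · have h5 : r ∣ v := by
        have := hr.dvd_of_dvd_pow h4
        exact (dvd_neg).mp this
      have h6 : r ∣ u := by
        have := dvd_sub hr1 h5
        simpa using this
      exact hr.not_isUnit (huv.isUnit_of_dvd' h6 h5)

lemma exists_pow_eq {p : ℕ} (hp : p.Prime) (hodd : Odd p) {u v w : ℤ}
    (h : u ^ p + v ^ p + w ^ p = 0) (huv : IsCoprime u v) (hw : ¬ (p : ℤ) ∣ w) :
    (∃ a : ℤ, u + v = a ^ p) ∧ (∃ α : ℤ, sgPhi p u v = α ^ p) := by
  have hcop := coprime_add_sgPhi hp hodd h huv hw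
  have hmul : (u + v) * sgPhi p u v = (-w) ^ p := by
    rw [mul_comm, sgPhi_mul hodd, Odd.neg_pow hodd]; linarith
  exact ⟨Int.eq_pow_of_mul_eq_pow_odd_left hcop hodd hmul,
    Int.eq_pow_of_mul_eq_pow_odd_right hcop hodd hmul⟩

/-- Core of Sophie Germain's argument: the auxiliary prime `q` cannot divide `x`. -/
theorem sg_core {p q : ℕ} (hp : p.Prime) (hodd : Odd p) [hq : Fact q.Prime]
    (H1 : ∀ u v w : ZMod q, u ^ p + v ^ p + w ^ p = 0 → u = 0 ∨ v = 0 ∨ w = 0)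
    (H2 : ∀ t : ZMod q, t ^ p ≠ (p : ZMod q))
    {x y z : ℤ} (h : x ^ p + y ^ p + z ^ p = 0)
    (hxy : IsCoprime x y) (hyz : IsCoprime y z) (hzx : IsCoprime z x)
    (hpx : ¬ (p : ℤ) ∣ x) (hpy : ¬ (p : ℤ) ∣ y) (hpz : ¬ (p : ℤ) ∣ z)
    (hqx : (x : ZMod q) = 0) : False := by
  have hqZ : Prime (q : ℤ) := Nat.prime_iff_prime_int.mp hq.out
  obtain ⟨⟨a, ha⟩, ⟨α, hα⟩⟩ :=
    exists_pow_eq hp hodd (u := y) (v := z) (w := x) (by linarith) hyz hpx
  obtain ⟨⟨b, hb⟩, -⟩ :=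
    exists_pow_eq hp hodd (u := z) (v := x) (w := y) (by linarith) hzx hpy
  obtain ⟨⟨c, hc⟩, ⟨γ, hγ⟩⟩ :=
    exists_pow_eq hp hodd (u := x) (v := y) (w := z) h hxy hpz
  have ha' : (y : ZMod q) + z = (a : ZMod q) ^ p := by
    have := congrArg (Int.cast : ℤ → ZMod q) ha
    push_cast at this
    exact this
  have hb' : (z : ZMod q) + x = (b : ZMod q) ^ p := by
    have := congrArg (Int.cast : ℤ → ZMod q) hb
    push_cast at this
    exact this
  have hc' : (x : ZMod q) + y = (c : ZMod q) ^ p := by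
    have := congrArg (Int.cast : ℤ → ZMod q) hc
    push_cast at this
    exact this
  have hα' : sgPhi p (y : ZMod q) (z : ZMod q) = (α : ZMod q) ^ p := by
    have := congrArg (Int.castRingHom (ZMod q)) hα
    rw [map_sgPhi, map_pow] at this
    simpa using this
  have hγ' : sgPhi p (x : ZMod q) (y : ZMod q) = (γ : ZMod q) ^ p := by
    have := congrArg (Int.castRingHom (ZMod q)) hγ
    rw [map_sgPhi, map_pow] at this
    simpa using this
  have hy0 : (y : ZMod q) ≠ 0 := by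
    intro hy
    have h1 : (q : ℤ) ∣ x := (ZMod.intCast_zmod_eq_zero_iff_dvd x q).mp hqx
    have h2 : (q : ℤ) ∣ y := (ZMod.intCast_zmod_eq_zero_iff_dvd y q).mp hy
    exact hqZ.not_isUnit (hxy.isUnit_of_dvd' h1 h2)
  have hz0 : (z : ZMod q) ≠ 0 := by
    intro hz
    have h1 : (q : ℤ) ∣ x := (ZMod.intCast_zmod_eq_zero_iff_dvd x q).mp hqx
    have h2 : (q : ℤ) ∣ z := (ZMod.intCast_zmod_eq_zero_iff_dvd z q).mp hz
    exact hqZ.not_isUnit (hzx.isUnit_of_dvd' h2 h1)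
  have key : (b : ZMod q) ^ p + (c : ZMod q) ^ p + (-(a : ZMod q)) ^ p = 0 := by
    rw [Odd.neg_pow hodd, ← ha', ← hb', ← hc', hqx]; ring
  rcases H1 _ _ _ key with hb0 | hc0 | ha0
  · apply hz0
    rw [hb0, zero_pow hp.ne_zero, hqx, add_zero] at hb'
    exact hb'
  · apply hy0
    rw [hc0, zero_pow hp.ne_zero, hqx, zero_add] at hc'
    exact hc'
  · have hyz0 : (y : ZMod q) + z = 0 := by
      rw [ha', neg_eq_zero.mp ha0, zero_pow hp.ne_zero]
    have e1 : (α : ZMod q) ^ p = p * (y : ZMod q) ^ (p - 1) := by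
      rw [← hα', sgPhi_of_add_eq_zero p hyz0]
    have e2 : (γ : ZMod q) ^ p = (y : ZMod q) ^ (p - 1) := by
      rw [← hγ', hqx, sgPhi_zero_left hodd]
    have hy1 : (y : ZMod q) ^ (p - 1) ≠ 0 := pow_ne_zero _ hy0
    apply H2 ((α : ZMod q) / γ)
    rw [div_pow, e1, e2, mul_div_assoc, div_self hy1, mul_one]

/-- **Sophie Germain's theorem**, abstract form. -/
theorem sophie_germain {p q : ℕ} (hp : p.Prime) (hodd : Odd p) [hq : Fact q.Prime]
    (H1 : ∀ u v w : ZMod q, u ^ p + v ^ p + w ^ p = 0 → u = 0 ∨ v = 0 ∨ w = 0)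
    (H2 : ∀ t : ZMod q, t ^ p ≠ (p : ZMod q))
    {a b c : ℤ} (hgcd : ({a, b, c} : Finset ℤ).gcd id = 1)
    (hcase : ¬ (p : ℤ) ∣ a * b * c) : a ^ p + b ^ p ≠ c ^ p := by
  intro h
  have h0 : a ^ p + b ^ p + (-c) ^ p = 0 := by rw [Odd.neg_pow hodd, h]; ring
  have hgcd1 : ({a, b, -c} : Finset ℤ).gcd id = 1 := by
    rw [← hgcd]
    simp only [Finset.gcd_insert, Finset.gcd_singleton, id_eq, ← Int.abs_eq_normalize, abs_neg]
  have hgcd2 : ({b, -c, a} : Finset ℤ).gcd id = 1 := by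
    rw [← hgcd1]
    congr 1
    ext t
    simp only [Finset.mem_insert, Finset.mem_singleton]
    tauto
  have hgcd3 : ({-c, a, b} : Finset ℤ).gcd id = 1 := by
    rw [← hgcd1]
    congr 1
    ext t
    simp only [Finset.mem_insert, Finset.mem_singleton]
    tauto
  have hab : IsCoprime a b := isCoprime_of_gcd_eq_one_of_FLT hgcd1 h0
  have hbc : IsCoprime b (-c) :=
    isCoprime_of_gcd_eq_one_of_FLT (n := p) hgcd2 (by linarith)
  have hca : IsCoprime (-c) a :=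
    isCoprime_of_gcd_eq_one_of_FLT (n := p) hgcd3 (by linarith)
  have hpa : ¬ (p : ℤ) ∣ a := fun hd => hcase ((hd.mul_right b).mul_right c)
  have hpb : ¬ (p : ℤ) ∣ b := fun hd => hcase ((hd.mul_left a).mul_right c)
  have hpc : ¬ (p : ℤ) ∣ -c := fun hd => hcase ((dvd_neg.mp hd).mul_left (a * b))
  have hmod : (a : ZMod q) ^ p + (b : ZMod q) ^ p + ((-c : ℤ) : ZMod q) ^ p = 0 := by
    have := congrArg (Int.cast : ℤ → ZMod q) h0
    push_cast at this
    push_cast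
    exact this
  rcases H1 _ _ _ hmod with ha0 | hb0 | hc0
  · exact sg_core hp hodd H1 H2 h0 hab hbc hca hpa hpb hpc ha0
  · exact sg_core hp hodd H1 H2 (x := b) (y := -c) (z := a) (by linarith) hbc hca hab
      hpb hpc hpa hb0
  · exact sg_core hp hodd H1 H2 (x := -c) (y := a) (z := b) (by linarith) hca hab hbc
      hpc hpa hpb hc0

/-! ### Numerical verification of the two hypotheses for the four auxiliary primes -/

set_option maxRecDepth 100000 in
lemma pow5_mod11 : ∀ u : ZMod 11, u ^ 5 = 0 ∨ u ^ 5 = 1 ∨ u ^ 5 = -1 := by decide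

set_option maxRecDepth 100000 in
lemma pow7_mod29 :
    ∀ u : ZMod 29, u ^ 7 = 0 ∨ u ^ 7 = 1 ∨ u ^ 7 = -1 ∨ u ^ 7 = 12 ∨ u ^ 7 = -12 := by
  decide

set_option maxRecDepth 100000 in
lemma pow11_mod23 : ∀ u : ZMod 23, u ^ 11 = 0 ∨ u ^ 11 = 1 ∨ u ^ 11 = -1 := by decide

set_option maxRecDepth 100000 in
lemma pow13_mod53 :
    ∀ u : ZMod 53, u ^ 13 = 0 ∨ u ^ 13 = 1 ∨ u ^ 13 = -1 ∨ u ^ 13 = 23 ∨ u ^ 13 = -23 := by
  decide

lemma fact_prime_11 : Fact (Nat.Prime 11) := ⟨by norm_num⟩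
lemma fact_prime_29 : Fact (Nat.Prime 29) := ⟨by norm_num⟩
lemma fact_prime_23 : Fact (Nat.Prime 23) := ⟨by norm_num⟩
lemma fact_prime_53 : Fact (Nat.Prime 53) := ⟨by norm_num⟩

lemma sum3_mod11 : ∀ s t r : ZMod 11, (s = 1 ∨ s = -1) → (t = 1 ∨ t = -1) → (r = 1 ∨ r = -1) →
    s + t + r ≠ 0 := by
  rintro s t r (rfl | rfl) (rfl | rfl) (rfl | rfl) <;> decide

lemma sum3_mod23 : ∀ s t r : ZMod 23, (s = 1 ∨ s = -1) → (t = 1 ∨ t = -1) → (r = 1 ∨ r = -1) →
    s + t + r ≠ 0 := by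
  rintro s t r (rfl | rfl) (rfl | rfl) (rfl | rfl) <;> decide

lemma sum3_mod29 : ∀ s t r : ZMod 29, (s = 1 ∨ s = -1 ∨ s = 12 ∨ s = -12) →
    (t = 1 ∨ t = -1 ∨ t = 12 ∨ t = -12) → (r = 1 ∨ r = -1 ∨ r = 12 ∨ r = -12) →
    s + t + r ≠ 0 := by
  rintro s t r (rfl | rfl | rfl | rfl) (rfl | rfl | rfl | rfl) (rfl | rfl | rfl | rfl) <;> decide

lemma sum3_mod53 : ∀ s t r : ZMod 53, (s = 1 ∨ s = -1 ∨ s = 23 ∨ s = -23) →
    (t = 1 ∨ t = -1 ∨ t = 23 ∨ t = -23) → (r = 1 ∨ r = -1 ∨ r = 23 ∨ r = -23) →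
    s + t + r ≠ 0 := by
  rintro s t r (rfl | rfl | rfl | rfl) (rfl | rfl | rfl | rfl) (rfl | rfl | rfl | rfl) <;> decide

lemma H1_5 : ∀ u v w : ZMod 11, u ^ 5 + v ^ 5 + w ^ 5 = 0 → u = 0 ∨ v = 0 ∨ w = 0 := by
  intro u v w h
  haveI := fact_prime_11
  by_contra hne
  simp only [not_or] at hne
  obtain ⟨hu, hv, hw⟩ := hne
  have hu' := (pow5_mod11 u).resolve_left (pow_ne_zero _ hu)
  have hv' := (pow5_mod11 v).resolve_left (pow_ne_zero _ hv)
  have hw' := (pow5_mod11 w).resolve_left (pow_ne_zero _ hw)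
  exact sum3_mod11 _ _ _ hu' hv' hw' h

lemma H1_7 : ∀ u v w : ZMod 29, u ^ 7 + v ^ 7 + w ^ 7 = 0 → u = 0 ∨ v = 0 ∨ w = 0 := by
  intro u v w h
  haveI := fact_prime_29
  by_contra hne
  simp only [not_or] at hne
  obtain ⟨hu, hv, hw⟩ := hne
  have hu' := (pow7_mod29 u).resolve_left (pow_ne_zero _ hu)
  have hv' := (pow7_mod29 v).resolve_left (pow_ne_zero _ hv)
  have hw' := (pow7_mod29 w).resolve_left (pow_ne_zero _ hw)
  exact sum3_mod29 _ _ _ hu' hv' hw' h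

lemma H1_11 : ∀ u v w : ZMod 23, u ^ 11 + v ^ 11 + w ^ 11 = 0 → u = 0 ∨ v = 0 ∨ w = 0 := by
  intro u v w h
  haveI := fact_prime_23
  by_contra hne
  simp only [not_or] at hne
  obtain ⟨hu, hv, hw⟩ := hne
  have hu' := (pow11_mod23 u).resolve_left (pow_ne_zero _ hu)
  have hv' := (pow11_mod23 v).resolve_left (pow_ne_zero _ hv)
  have hw' := (pow11_mod23 w).resolve_left (pow_ne_zero _ hw)
  exact sum3_mod23 _ _ _ hu' hv' hw' h

lemma H1_13 : ∀ u v w : ZMod 53, u ^ 13 + v ^ 13 + w ^ 13 = 0 → u = 0 ∨ v = 0 ∨ w = 0 := by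
  intro u v w h
  haveI := fact_prime_53
  by_contra hne
  simp only [not_or] at hne
  obtain ⟨hu, hv, hw⟩ := hne
  have hu' := (pow13_mod53 u).resolve_left (pow_ne_zero _ hu)
  have hv' := (pow13_mod53 v).resolve_left (pow_ne_zero _ hv)
  have hw' := (pow13_mod53 w).resolve_left (pow_ne_zero _ hw)
  exact sum3_mod53 _ _ _ hu' hv' hw' h

lemma H2_5 : ∀ t : ZMod 11, t ^ 5 ≠ ((5 : ℕ) : ZMod 11) := by
  intro t ht
  rcases pow5_mod11 t with h | h | h <;> rw [h] at ht <;> revert ht <;> decide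

lemma H2_7 : ∀ t : ZMod 29, t ^ 7 ≠ ((7 : ℕ) : ZMod 29) := by
  intro t ht
  rcases pow7_mod29 t with h | h | h | h | h <;> rw [h] at ht <;> revert ht <;> decide

lemma H2_11 : ∀ t : ZMod 23, t ^ 11 ≠ ((11 : ℕ) : ZMod 23) := by
  intro t ht
  rcases pow11_mod23 t with h | h | h <;> rw [h] at ht <;> revert ht <;> decide

lemma H2_13 : ∀ t : ZMod 53, t ^ 13 ≠ ((13 : ℕ) : ZMod 53) := by
  intro t ht
  rcases pow13_mod53 t with h | h | h | h | h <;> rw [h] at ht <;> revert ht <;> decide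

/-- **Case I of Fermat's Last Theorem** for the exponents `5, 7, 11, 13`. -/
theorem caseI {p : ℕ} (hp : p = 5 ∨ p = 7 ∨ p = 11 ∨ p = 13) {a b c : ℤ}
    (hgcd : ({a, b, c} : Finset ℤ).gcd id = 1) (hcase : ¬ (p : ℤ) ∣ a * b * c) :
    a ^ p + b ^ p ≠ c ^ p := by
  rcases hp with rfl | rfl | rfl | rfl
  · haveI := fact_prime_11
    exact sophie_germain (q := 11) (by norm_num) (by decide) H1_5 H2_5 hgcd hcase
  · haveI := fact_prime_29
    exact sophie_germain (q := 29) (by norm_num) (by decide) H1_7 H2_7 hgcd hcase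
  · haveI := fact_prime_23
    exact sophie_germain (q := 23) (by norm_num) (by decide) H1_11 H2_11 hgcd hcase
  · haveI := fact_prime_53
    exact sophie_germain (q := 53) (by norm_num) (by decide) H1_13 H2_13 hgcd hcase

end Fermat.Agent.S10_helper15_CaseI
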