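import Mathlib

set_option autoImplicit false

namespace Fermat.Agent.S10_helper24_Cyclo

open NumberField IsCyclotomicExtension.Rat Polynomial Finset

variable {p : ℕ} [hp : Fact p.Prime] {K : Type*} [Field K] [NumberField K]
  [hcyc : IsCyclotomicExtension {p} ℚ K]
variable {ζ : K} (hζ : IsPrimitiveRoot ζ p)

include hζ

set_option linter.unusedSectionVars false

theorem adjoin_toInteger_eq_top : Algebra.adjoin ℤ {hζ.toInteger} = ⊤ := by
  have := (hζ.integralPowerBasis).adjoin_gen_eq_top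
  rwa [hζ.integralPowerBasis_gen] at this

theorem toInteger_pow_prime : hζ.toInteger ^ p = 1 :=
  hζ.toInteger_isPrimitiveRoot.pow_eq_one

/-- every `p`-th power is congruent to a rational integer modulo `p` -/
theorem exists_int_sub_pow_prime_dvd (x : 𝓞 K) : ∃ m : ℤ, (p : 𝓞 K) ∣ x ^ p - m := by
  have hx : x ∈ Algebra.adjoin ℤ {hζ.toInteger} := by
    rw [adjoin_toInteger_eq_top hζ]
    exact Algebra.mem_top
  induction hx using Algebra.adjoin_induction with
  | mem y hy =>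
    rw [Set.mem_singleton_iff] at hy
    subst hy
    exact ⟨1, by rw [toInteger_pow_prime hζ]; simp⟩
  | algebraMap r =>
    refine ⟨r ^ p, ?_⟩
    simp
  | add y z _ _ hy hz =>
    obtain ⟨m, hm⟩ := hy
    obtain ⟨n, hn⟩ := hz
    obtain ⟨r, hr⟩ := exists_add_pow_prime_eq hp.out y z
    refine ⟨m + n, ?_⟩
    rw [hr]
    have : y ^ p + z ^ p + (p : 𝓞 K) * y * z * r - ((m + n : ℤ) : 𝓞 K) =
        (y ^ p - m) + (z ^ p - n) + (p : 𝓞 K) * (y * z * r) := by
      push_cast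
      ring
    rw [this]
    exact dvd_add (dvd_add hm hn) (dvd_mul_right _ _)
  | mul y z _ _ hy hz =>
    obtain ⟨m, hm⟩ := hy
    obtain ⟨n, hn⟩ := hz
    refine ⟨m * n, ?_⟩
    have : (y * z) ^ p - ((m * n : ℤ) : 𝓞 K) = (y ^ p - m) * z ^ p + m * (z ^ p - n) := by
      push_cast
      ring
    rw [this]
    exact dvd_add (dvd_mul_of_dvd_left hm _) (dvd_mul_of_dvd_right hn _)

/-- every element is congruent to a rational integer modulo `ζ - 1` -/
theorem exists_int_sub_dvd (x : 𝓞 K) : ∃ m : ℤ, (hζ.toInteger - 1) ∣ x - m := by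
  have hx : x ∈ Algebra.adjoin ℤ {hζ.toInteger} := by
    rw [adjoin_toInteger_eq_top hζ]
    exact Algebra.mem_top
  induction hx using Algebra.adjoin_induction with
  | mem y hy =>
    rw [Set.mem_singleton_iff] at hy
    subst hy
    exact ⟨1, by simp⟩
  | algebraMap r =>
    refine ⟨r, ?_⟩
    simp
  | add y z _ _ hy hz =>
    obtain ⟨m, hm⟩ := hy
    obtain ⟨n, hn⟩ := hz
    refine ⟨m + n, ?_⟩
    have : y + z - ((m + n : ℤ) : 𝓞 K) = (y - m) + (z - n) := by
      push_cast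
      ring
    rw [this]
    exact dvd_add hm hn
  | mul y z _ _ hy hz =>
    obtain ⟨m, hm⟩ := hy
    obtain ⟨n, hn⟩ := hz
    refine ⟨m * n, ?_⟩
    have : y * z - ((m * n : ℤ) : 𝓞 K) = (y - m) * z + m * (z - n) := by
      push_cast
      ring
    rw [this]
    exact dvd_add (dvd_mul_of_dvd_left hm _) (dvd_mul_of_dvd_right hn _)

theorem lambda_dvd_p : (hζ.toInteger - 1) ∣ (p : 𝓞 K) :=
  hζ.toInteger_sub_one_dvd_prime'

theorem p_dvd_lambda_pow {k : ℕ} (hk : p - 1 ≤ k) : (p : 𝓞 K) ∣ (hζ.toInteger - 1) ^ k := by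
  have h := (associated_zeta_sub_one_pow_prime p hζ).symm.dvd
  exact h.trans (pow_dvd_pow _ hk)

theorem lambda_prime : Prime (hζ.toInteger - 1) := hζ.zeta_sub_one_prime'

theorem lambda_ne_zero : hζ.toInteger - 1 ≠ 0 := (lambda_prime hζ).ne_zero

theorem lambda_dvd_intCast_iff {n : ℤ} : hζ.toInteger - 1 ∣ (n : 𝓞 K) ↔ (p : ℤ) ∣ n :=
  zeta_sub_one_dvd_intCast_iff' p hζ

/-- A solution of the generalised Fermat equation `a ^ p + b ^ p = u * (λ ^ n * c) ^ p`
in `𝓞 K` (`λ = ζ - 1`, `u` a unit, `a`, `b` coprime, `λ ∤ c`): the objects of Kummer's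
descent in case II. -/
def Sol (n : ℕ) : Prop :=
  ∃ (a b c : 𝓞 K) (u : (𝓞 K)ˣ), IsCoprime a b ∧ ¬ (hζ.toInteger - 1) ∣ c ∧
    a ^ p + b ^ p = u * ((hζ.toInteger - 1) ^ n * c) ^ p

end Fermat.Agent.S10_helper24_Cyclo
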