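import Mathlib
import Fermat.Agent.S10_helper24_Cyclo

/-!
# Case II of Fermat's Last Theorem: reduction from `ℤ` to Kummer's descent statement

If the generalised equation `a ^ p + b ^ p = u * (λ ^ n * c) ^ p` (`λ = ζ - 1`) has no solution
in `𝓞 K` for any `n ≥ 1` (`Sol hζ n` of `S10_helper24_Cyclo`), then `a ^ p + b ^ p = c ^ p` has
no solution in nonzero coprime rational integers with `p ∣ a * b * c`.
-/

set_option autoImplicit false

namespace Fermat.Agent.S10_helper15_CaseIIInt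

open NumberField Fermat.Agent.S10_helper24_Cyclo

/-- The basic step: `x ^ p + y ^ p + z ^ p = 0` with `x, y` coprime, `z ≠ 0` and `p ∣ z`
gives a solution of the generalised equation in `𝓞 K`. -/
theorem sol_of_int {p : ℕ} [Fact p.Prime] (hp2 : p ≠ 2) {K : Type*} [Field K] [NumberField K]
    [IsCyclotomicExtension {p} ℚ K] {ζ : K} (hζ : IsPrimitiveRoot ζ p)
    {x y z : ℤ} (hz : z ≠ 0) (hxy : IsCoprime x y) (hpz : (p : ℤ) ∣ z)
    (h : x ^ p + y ^ p + z ^ p = 0) : ∃ n, 1 ≤ n ∧ Sol hζ n := by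
  have hodd : Odd p := (Fact.out : p.Prime).odd_of_ne_two hp2
  have hlam : Prime (hζ.toInteger - 1) := lambda_prime hζ
  have hz' : ((-z : ℤ) : 𝓞 K) ≠ 0 := by
    rw [Ne, Int.cast_eq_zero]
    exact neg_ne_zero.mpr hz
  have hfin : FiniteMultiplicity (hζ.toInteger - 1) ((-z : ℤ) : 𝓞 K) :=
    FiniteMultiplicity.of_prime_left hlam hz'
  obtain ⟨c₀, hc₀, hndvd⟩ := hfin.exists_eq_pow_mul_and_not_dvd
  set n := multiplicity (hζ.toInteger - 1) ((-z : ℤ) : 𝓞 K) with hn
  have hn1 : 1 ≤ n := by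
    by_contra hlt
    have hn0 : n = 0 := by omega
    rw [hn0, pow_zero, one_mul] at hc₀
    apply hndvd
    rw [← hc₀]
    exact (lambda_dvd_intCast_iff hζ).mpr ((dvd_neg).mpr hpz)
  refine ⟨n, hn1, (x : 𝓞 K), (y : 𝓞 K), c₀, 1, ?_, hndvd, ?_⟩
  · exact hxy.intCast
  · rw [Units.val_one, one_mul, ← hc₀]
    have h' : x ^ p + y ^ p = (-z) ^ p := by
      rw [Odd.neg_pow hodd]
      linarith
    have := congrArg (Int.cast : ℤ → 𝓞 K) h'
    push_cast at this
    push_cast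
    exact this

theorem caseII_of_descent {p : ℕ} [Fact p.Prime] (hp2 : p ≠ 2) {K : Type*} [Field K]
    [NumberField K] [IsCyclotomicExtension {p} ℚ K] {ζ : K} (hζ : IsPrimitiveRoot ζ p)
    (hdesc : ∀ n, 1 ≤ n → ¬ Fermat.Agent.S10_helper24_Cyclo.Sol hζ n)
    {a b c : ℤ} (ha : a ≠ 0) (hb : b ≠ 0) (hc : c ≠ 0)
    (hgcd : ({a, b, c} : Finset ℤ).gcd id = 1) (hcase : (p : ℤ) ∣ a * b * c) :
    a ^ p + b ^ p ≠ c ^ p := by
  intro h
  have hodd : Odd p := (Fact.out : p.Prime).odd_of_ne_two hp2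
  have hpZ : Prime (p : ℤ) := Nat.prime_iff_prime_int.mp Fact.out
  have h0 : a ^ p + b ^ p + (-c) ^ p = 0 := by rw [Odd.neg_pow hodd, h]; ring
  have hgcd1 : ({a, b, -c} : Finset ℤ).gcd id = 1 := by
    rw [← hgcd]
    simp only [Finset.gcd_insert, Finset.gcd_singleton, id_eq, ← Int.abs_eq_normalize, abs_neg]
  have hgcd2 : ({b, -c, a} : Finset ℤ).gcd id = 1 := by
    rw [← hgcd1]
    congr 1
    ext t
    simp only [Finset.mem_insert, Finset.mem_singleton]
    tauto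
  have hgcd3 : ({-c, a, b} : Finset ℤ).gcd id = 1 := by
    rw [← hgcd1]
    congr 1
    ext t
    simp only [Finset.mem_insert, Finset.mem_singleton]
    tauto
  have hab : IsCoprime a b := isCoprime_of_gcd_eq_one_of_FLT hgcd1 h0
  have hbc : IsCoprime b (-c) :=
    isCoprime_of_gcd_eq_one_of_FLT (n := p) hgcd2 (by linarith)
  have hca : IsCoprime (-c) a :=
    isCoprime_of_gcd_eq_one_of_FLT (n := p) hgcd3 (by linarith)
  have hnc : -c ≠ 0 := neg_ne_zero.mpr hc
  rcases hpZ.dvd_or_dvd hcase with hpab | hpc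
  · rcases hpZ.dvd_or_dvd hpab with hpa | hpb
    · -- `p ∣ a`
      obtain ⟨n, hn1, hsol⟩ := sol_of_int hp2 hζ (x := b) (y := -c) (z := a) ha hbc hpa
        (by linarith)
      exact hdesc n hn1 hsol
    · -- `p ∣ b`
      obtain ⟨n, hn1, hsol⟩ := sol_of_int hp2 hζ (x := -c) (y := a) (z := b) hb hca hpb
        (by linarith)
      exact hdesc n hn1 hsol
  · -- `p ∣ c`
    obtain ⟨n, hn1, hsol⟩ := sol_of_int hp2 hζ (x := a) (y := b) (z := -c) hnc hab
      ((dvd_neg).mpr hpc) h0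
    exact hdesc n hn1 hsol

end Fermat.Agent.S10_helper15_CaseIIInt
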