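import Mathlib

set_option autoImplicit false
set_option linter.unusedSectionVars false

namespace Fermat.Agent.S10_helper24_Descent

open Polynomial Finset

variable {R : Type*} [CommRing R] [IsDomain R]

/-- The hypotheses on the ring `R` (to be `𝓞 K`), the prime `p` and the root of unity `ζ`
used in Kummer's descent. -/
structure Hyp (p : ℕ) (ζ : R) : Prop where
  prime : p.Prime
  odd : p ≠ 2
  prim : IsPrimitiveRoot ζ p
  lam_prime : Prime (ζ - 1)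
  p_dvd : (p : R) ∣ (ζ - 1) ^ (p - 1)
  int_pow : ∀ x : R, ∃ m : ℤ, (p : R) ∣ x ^ p - m
  lam_int : ∀ n : ℤ, (ζ - 1) ∣ (n : R) → (p : ℤ) ∣ n
  sq_step : ∀ a b : R, ¬ (ζ - 1) ∣ b → (ζ - 1) ∣ a + b → ∃ i : ℕ, (ζ - 1) ^ 2 ∣ a + ζ ^ i * b
  KL : ∀ u : Rˣ, (∃ n : ℤ, (p : R) ∣ (u : R) - n) → ∃ v : Rˣ, u = v ^ p

/-- abstract version of `Sol` -/
def SolR (p : ℕ) (ζ : R) (n : ℕ) : Prop :=
  ∃ (a b c : R) (u : Rˣ), IsCoprime a b ∧ ¬ (ζ - 1) ∣ c ∧
    a ^ p + b ^ p = u * ((ζ - 1) ^ n * c) ^ p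

variable {p : ℕ} {ζ : R}

theorem Hyp.one_mem (H : Hyp p ζ) : (1 : R) ∈ nthRootsFinset p (1 : R) := by
  rw [mem_nthRootsFinset H.prime.pos]; simp

theorem Hyp.zeta_mem (H : Hyp p ζ) : ζ ∈ nthRootsFinset p (1 : R) := by
  rw [mem_nthRootsFinset H.prime.pos]; exact H.prim.pow_eq_one

theorem Hyp.zeta_sq_mem (H : Hyp p ζ) : ζ ^ 2 ∈ nthRootsFinset p (1 : R) := by
  rw [mem_nthRootsFinset H.prime.pos, ← pow_mul, mul_comm, pow_mul, H.prim.pow_eq_one, one_pow]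

theorem Hyp.three_le (H : Hyp p ζ) : 3 ≤ p := by
  have := H.prime.two_le
  have := H.odd
  omega

theorem Hyp.zeta_ne_one (H : Hyp p ζ) : ζ ≠ 1 := H.prim.ne_one H.prime.one_lt

theorem Hyp.zeta_sq_ne_one (H : Hyp p ζ) : ζ ^ 2 ≠ 1 := by
  intro h
  have := H.prim.dvd_of_pow_eq_one 2 h
  have := Nat.le_of_dvd (by norm_num) this
  have := H.three_le
  omega

theorem Hyp.zeta_ne_zeta_sq (H : Hyp p ζ) : ζ ≠ ζ ^ 2 := by
  intro h
  have h0 : ζ ≠ 0 := H.prim.ne_zero H.prime.ne_zero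
  have : ζ * 1 = ζ * ζ := by rw [mul_one, ← sq]; exact h
  exact H.zeta_ne_one (mul_left_cancel₀ h0 this).symm

theorem Hyp.lam_ne_zero (H : Hyp p ζ) : ζ - 1 ≠ 0 := H.lam_prime.ne_zero

theorem Hyp.lam_dvd_p (H : Hyp p ζ) : (ζ - 1) ∣ (p : R) :=
  H.prim.sub_one_dvd_natCast H.prime.one_lt

theorem Hyp.isUnit_zeta (H : Hyp p ζ) : IsUnit ζ := H.prim.isUnit H.prime.ne_zero

theorem Hyp.isUnit_zeta_add_one (H : Hyp p ζ) : IsUnit (ζ + 1) := by
  have hcop : Nat.Coprime 2 p := by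
    rw [Nat.coprime_comm, Nat.Prime.coprime_iff_not_dvd H.prime]
    intro h
    have := (Nat.prime_dvd_prime_iff_eq H.prime Nat.prime_two).1 h
    exact H.odd this
  have := H.prim.geom_sum_isUnit H.prime.two_le hcop
  simpa [Finset.sum_range_succ, add_comm] using this

/-- all the factors `a + η b` are divisible by `λ` as soon as one is -/
theorem Hyp.lam_dvd_factor (H : Hyp p ζ) {a b : R} {η η' : R}
    (hη : η ∈ nthRootsFinset p (1 : R)) (hη' : η' ∈ nthRootsFinset p (1 : R))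
    (h : (ζ - 1) ∣ a + η * b) : (ζ - 1) ∣ a + η' * b := by
  have h1 : (ζ - 1) ∣ η' - η := H.prim.sub_one_dvd_sub H.prime hη' hη
  have : a + η' * b = (a + η * b) + (η' - η) * b := by ring
  rw [this]
  exact dvd_add h (dvd_mul_of_dvd_left h1 _)

/-- pairwise coprimality of the cofactors -/
theorem Hyp.cofactor_coprime (H : Hyp p ζ) {a b : R} (hab : IsCoprime a b) {η η' z z' : R}
    (hη : η ∈ nthRootsFinset p (1 : R)) (hη' : η' ∈ nthRootsFinset p (1 : R)) (hne : η ≠ η')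
    (hz : a + η * b = (ζ - 1) * z) (hz' : a + η' * b = (ζ - 1) * z') : IsCoprime z z' := by
  obtain ⟨ε, hε⟩ := H.prim.nthRootsFinset_pairwise_associated_sub_one_sub_of_prime H.prime
    hη hη' hne
  have h1 : z - z' = ε * b := by
    apply mul_left_cancel₀ H.lam_ne_zero
    linear_combination hz' - hz - b * hε
  have h2 : η' * z - η * z' = - ε * a := by
    apply mul_left_cancel₀ H.lam_ne_zero
    linear_combination η * hz' - η' * hz + a * hε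
  obtain ⟨r, s, hrs⟩ := hab
  have hεi : (ε : R) * ((ε⁻¹ : Rˣ) : R) = 1 := by simp
  refine ⟨-r * ((ε⁻¹ : Rˣ) : R) * η' + s * ((ε⁻¹ : Rˣ) : R),
    r * ((ε⁻¹ : Rˣ) : R) * η - s * ((ε⁻¹ : Rˣ) : R), ?_⟩
  linear_combination (-r * ((ε⁻¹ : Rˣ) : R)) * h2 + (s * ((ε⁻¹ : Rˣ) : R)) * h1
    + (r * a + s * b) * hεi + hrs

/-- extraction of `p`-th powers: if `∏ z = u * X ^ k` with the `z i` pairwise coprime, each `z i`
is associated to a `k`-th power -/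
theorem exists_pow_of_prod [IsPrincipalIdealRing R] {ι : Type*} [DecidableEq ι] (s : Finset ι)
    (z : ι → R) (k : ℕ) (X : R) (u : Rˣ) (hprod : ∏ i ∈ s, z i = u * X ^ k)
    (hcop : ∀ i ∈ s, ∀ j ∈ s, i ≠ j → IsCoprime (z i) (z j)) (i : ι) (hi : i ∈ s) :
    ∃ ρ : R, Associated (ρ ^ k) (z i) := by
  have h1 : z i * ∏ j ∈ s.erase i, z j = ∏ j ∈ s, z j := Finset.mul_prod_erase s z hi
  have h2 : IsCoprime (z i) (∏ j ∈ s.erase i, z j) :=
    IsCoprime.prod_right (fun j hj => hcop i hi j (Finset.mem_of_mem_erase hj)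
      (Finset.ne_of_mem_erase hj).symm)
  refine exists_associated_pow_of_associated_pow_mul h2 (c := X) ?_
  rw [h1, hprod]
  exact ⟨u, by ring⟩

theorem Hyp.descent_core [IsPrincipalIdealRing R] (H : Hyp p ζ) {n : ℕ} (hn : 1 ≤ n)
    {a b c : R} {u : Rˣ} (hab : IsCoprime a b) (hc : ¬ (ζ - 1) ∣ c)
    (heq : a ^ p + b ^ p = u * ((ζ - 1) ^ n * c) ^ p)
    (hsq : (ζ - 1) ^ 2 ∣ a + b) : 2 ≤ n ∧ SolR p ζ (n - 1) := by
  classical
  have hodd : Odd p := H.prime.odd_of_ne_two H.odd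
  have hl0 := H.lam_ne_zero
  have hlp := H.lam_prime
  -- all factors divisible by λ
  have h1b : (ζ - 1) ∣ a + 1 * b := by
    rw [one_mul]; exact (dvd_pow_self _ two_ne_zero).trans hsq
  have hdiv : ∀ η ∈ nthRootsFinset p (1 : R), ∃ z, a + η * b = (ζ - 1) * z := fun η hη =>
    H.lam_dvd_factor H.one_mem hη h1b
  choose! z hz using hdiv
  -- product
  have hprod : ∏ η ∈ nthRootsFinset p (1 : R), z η = u * ((ζ - 1) ^ (n - 1) * c) ^ p := by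
    apply mul_left_cancel₀ (pow_ne_zero p hl0)
    have : ∏ η ∈ nthRootsFinset p (1 : R), (a + η * b) =
        (ζ - 1) ^ p * ∏ η ∈ nthRootsFinset p (1 : R), z η := by
      rw [Finset.prod_congr rfl hz, Finset.prod_mul_distrib, Finset.prod_const,
        H.prim.card_nthRootsFinset]
    rw [← this, ← H.prim.pow_add_pow_eq_prod_add_mul a b hodd, heq]
    obtain ⟨m, rfl⟩ : ∃ m, n = m + 1 := ⟨n - 1, by omega⟩
    simp only [Nat.add_sub_cancel]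
    have key : ∀ L : R, (u : R) * (L ^ (m + 1) * c) ^ p = L ^ p * (u * (L ^ m * c) ^ p) := by
      intro L; ring
    exact key _
  have hcop : ∀ η ∈ nthRootsFinset p (1 : R), ∀ η' ∈ nthRootsFinset p (1 : R), η ≠ η' →
      IsCoprime (z η) (z η') :=
    fun η hη η' hη' hne => H.cofactor_coprime hab hη hη' hne (hz η hη) (hz η' hη')
  -- λ ∣ z 1
  have hz1 : (ζ - 1) ∣ z 1 := by
    have : (ζ - 1) ^ 2 ∣ (ζ - 1) * z 1 := by rw [← hz 1 H.one_mem, one_mul]; exact hsq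
    rw [sq] at this
    exact (mul_dvd_mul_iff_left hl0).1 this
  -- λ ∤ z η for η ≠ 1
  have hzη : ∀ η ∈ nthRootsFinset p (1 : R), η ≠ 1 → ¬ (ζ - 1) ∣ z η := by
    intro η hη hne hdvd
    have := hcop 1 H.one_mem η hη hne.symm
    exact hlp.not_isUnit (this.isUnit_of_dvd' hz1 hdvd)
  set P := ∏ η ∈ (nthRootsFinset p (1 : R)).erase 1, z η with hP
  have hzP : z 1 * P = u * ((ζ - 1) ^ (n - 1) * c) ^ p := by
    rw [hP, Finset.mul_prod_erase _ z H.one_mem, hprod]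
  have hPl : ¬ (ζ - 1) ∣ P := by
    intro h
    obtain ⟨η, hη, hd⟩ := (hlp.dvd_finsetProd_iff _).1 h
    exact hzη η (Finset.mem_of_mem_erase hη) (Finset.ne_of_mem_erase hη) hd
  have hcopP : IsCoprime (z 1) P :=
    IsCoprime.prod_right (fun η hη => hcop 1 H.one_mem η (Finset.mem_of_mem_erase hη)
      (Finset.ne_of_mem_erase hη).symm)
  -- z 1 = λ^((n-1)p) * w
  have hpow : (ζ - 1) ^ ((n - 1) * p) ∣ z 1 := by
    apply hlp.pow_dvd_of_dvd_mul_right _ hPl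
    rw [hzP, mul_pow, ← pow_mul]
    exact dvd_mul_of_dvd_right (dvd_mul_right _ _) _
  obtain ⟨w, hw⟩ := hpow
  have hwP : w * P = u * c ^ p := by
    apply mul_left_cancel₀ (pow_ne_zero ((n - 1) * p) hl0)
    rw [← mul_assoc, ← hw, hzP, mul_pow, ← pow_mul]
    ring
  have hwl : ¬ (ζ - 1) ∣ w := by
    intro h
    have : (ζ - 1) ∣ (u : R) * c ^ p := by rw [← hwP]; exact dvd_mul_of_dvd_left h _
    rcases hlp.dvd_or_dvd this with h' | h'
    · exact hlp.not_isUnit (isUnit_of_dvd_unit h' u.isUnit)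
    · exact hc (hlp.dvd_of_dvd_pow h')
  have hn2 : 2 ≤ n := by
    by_contra hlt
    have hn1 : n = 1 := by omega
    subst hn1
    simp only [Nat.sub_self, zero_mul, pow_zero, one_mul] at hw
    exact hwl (hw ▸ hz1)
  have hcopw : IsCoprime w P := by
    rw [hw] at hcopP
    exact hcopP.of_mul_left_right
  obtain ⟨ρ₀, e₀, he₀⟩ := exists_associated_pow_of_associated_pow_mul hcopw (c := c) (k := p)
    (by rw [hwP]; exact ⟨u, by ring⟩)
  obtain ⟨ρ₁, e₁, he₁⟩ := exists_pow_of_prod _ z p _ u hprod hcop ζ H.zeta_mem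
  obtain ⟨ρ₂, e₂, he₂⟩ := exists_pow_of_prod _ z p _ u hprod hcop (ζ ^ 2) H.zeta_sq_mem
  -- linear relation
  have hrel : (ζ + 1) * z ζ - z (ζ ^ 2) = ζ * z 1 := by
    apply mul_left_cancel₀ hl0
    linear_combination (-(ζ + 1)) * hz ζ H.zeta_mem + hz (ζ ^ 2) H.zeta_sq_mem
      + ζ * hz 1 H.one_mem
  obtain ⟨s, hs⟩ := H.isUnit_zeta_add_one
  obtain ⟨t, ht⟩ := H.isUnit_zeta
  obtain ⟨E, hE⟩ : ∃ E : Rˣ, (s : R) * e₁ * E = 1 := ⟨(s * e₁)⁻¹, by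
    rw [← Units.val_mul, ← Units.val_mul]; simp⟩
  obtain ⟨η₁, hη₁⟩ : ∃ η₁ : Rˣ, (η₁ : R) = - (e₂ * E) := ⟨-(e₂ * E), by simp⟩
  obtain ⟨η₂, hη₂⟩ : ∃ η₂ : Rˣ, (η₂ : R) = t * e₀ * E := ⟨t * e₀ * E, by simp⟩
  have hpw : ((ζ - 1) ^ (n - 1) * ρ₀) ^ p = (ζ - 1) ^ ((n - 1) * p) * ρ₀ ^ p := by
    rw [mul_pow, ← pow_mul]
  have hmain : ρ₁ ^ p + η₁ * ρ₂ ^ p = η₂ * ((ζ - 1) ^ (n - 1) * ρ₀) ^ p := by
    rw [hpw, hη₁, hη₂]
    linear_combination (E : R) * hrel + (E : R) * (ζ + 1) * he₁ - (E : R) * he₂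
      + (E : R) * ζ * hw - (E : R) * ζ * (ζ - 1) ^ ((n - 1) * p) * he₀
      + (E : R) * e₁ * ρ₁ ^ p * hs - (E : R) * (ζ - 1) ^ ((n - 1) * p) * ρ₀ ^ p * e₀ * ht
      - ρ₁ ^ p * hE
  -- p ∣ RHS
  have hpL : (p : R) ∣ ((ζ - 1) ^ (n - 1) * ρ₀) ^ p := by
    rw [hpw]
    apply dvd_mul_of_dvd_left
    refine H.p_dvd.trans (pow_dvd_pow _ ?_)
    calc p - 1 ≤ p := Nat.sub_le _ _
      _ = 1 * p := (one_mul p).symm
      _ ≤ (n - 1) * p := Nat.mul_le_mul_right p (by omega)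
  obtain ⟨m₁, hm₁⟩ := H.int_pow ρ₁
  obtain ⟨m₂, hm₂⟩ := H.int_pow ρ₂
  have hsum : (p : R) ∣ (m₁ : R) + η₁ * m₂ := by
    have : (m₁ : R) + η₁ * m₂ =
        (η₂ * ((ζ - 1) ^ (n - 1) * ρ₀) ^ p) - (ρ₁ ^ p - m₁) - η₁ * (ρ₂ ^ p - m₂) := by
      rw [← hmain]; ring
    rw [this]
    exact dvd_sub (dvd_sub (dvd_mul_of_dvd_right hpL _) hm₁) (dvd_mul_of_dvd_right hm₂ _)
  -- λ ∤ ρ₂
  have hr2l : ¬ (ζ - 1) ∣ ρ₂ := by
    intro h
    apply hzη (ζ ^ 2) H.zeta_sq_mem H.zeta_sq_ne_one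
    rw [← he₂]
    exact dvd_mul_of_dvd_left (dvd_pow h H.prime.ne_zero) _
  have hpm₂ : ¬ (p : ℤ) ∣ m₂ := by
    intro h
    apply hr2l
    apply hlp.dvd_of_dvd_pow (n := p)
    have h1 : (ζ - 1) ∣ ρ₂ ^ p - m₂ := H.lam_dvd_p.trans hm₂
    have h2 : (ζ - 1) ∣ (m₂ : R) := by
      obtain ⟨k, rfl⟩ := h
      push_cast
      exact dvd_mul_of_dvd_left H.lam_dvd_p _
    have := dvd_add h1 h2
    simpa using this
  -- Bezout in ℤ
  have hcopZ : IsCoprime (p : ℤ) m₂ :=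
    (Nat.prime_iff_prime_int.1 H.prime).coprime_iff_not_dvd.2 hpm₂
  obtain ⟨x, y, hxy⟩ := hcopZ
  have hxyR : (x : R) * p + y * m₂ = 1 := by exact_mod_cast congrArg (Int.cast : ℤ → R) hxy
  obtain ⟨v, hv⟩ := H.KL η₁ ⟨- (y * m₁), by
    have : (η₁ : R) - ((-(y * m₁) : ℤ) : R) = p * (η₁ * x) + y * (m₁ + η₁ * m₂) := by
      push_cast
      linear_combination (-(η₁ : R)) * hxyR
    rw [this]
    exact dvd_add (dvd_mul_right _ _) (dvd_mul_of_dvd_right hsum _)⟩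
  refine ⟨hn2, ρ₁, v * ρ₂, ρ₀, η₂, ?_, ?_, ?_⟩
  · -- coprime
    have h12 : IsCoprime (z ζ) (z (ζ ^ 2)) :=
      hcop ζ H.zeta_mem _ H.zeta_sq_mem H.zeta_ne_zeta_sq
    rw [← he₁, ← he₂] at h12
    have h12' : IsCoprime (ρ₁ ^ p) (ρ₂ ^ p) := by
      have := (isCoprime_mul_unit_right_left e₁.isUnit _ _).1 h12
      exact (isCoprime_mul_unit_right_right e₂.isUnit _ _).1 this
    have h12'' : IsCoprime ρ₁ ρ₂ := (IsCoprime.pow_iff H.prime.pos H.prime.pos).1 h12'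
    exact (isCoprime_mul_unit_left_right v.isUnit _ _).2 h12''
  · -- λ ∤ ρ₀
    intro h
    apply hwl
    rw [← he₀]
    exact dvd_mul_of_dvd_left (dvd_pow h H.prime.ne_zero) _
  · rw [← hmain, hv, mul_pow, Units.val_pow_eq_pow_val]

theorem Hyp.descent_step [IsPrincipalIdealRing R] (H : Hyp p ζ) {n : ℕ} (hn : 1 ≤ n)
    (hS : SolR p ζ n) : 2 ≤ n ∧ SolR p ζ (n - 1) := by
  obtain ⟨a, b, c, u, hab, hc, heq⟩ := hS
  have hodd : Odd p := H.prime.odd_of_ne_two H.odd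
  have hlp := H.lam_prime
  -- λ ∣ a ^ p + b ^ p
  have h1 : (ζ - 1) ∣ a ^ p + b ^ p := by
    rw [heq, mul_pow, ← pow_mul]
    have hnp : n * p ≠ 0 := Nat.mul_ne_zero (by omega) H.prime.ne_zero
    exact dvd_mul_of_dvd_right (dvd_mul_of_dvd_left (dvd_pow_self _ hnp) _) _
  rw [H.prim.pow_add_pow_eq_prod_add_mul a b hodd] at h1
  obtain ⟨η, hη, hd⟩ := (hlp.dvd_finsetProd_iff _).1 h1
  have hab1 : (ζ - 1) ∣ a + b := by
    have := H.lam_dvd_factor hη H.one_mem hd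
    rwa [one_mul] at this
  have hb : ¬ (ζ - 1) ∣ b := by
    intro h
    have ha : (ζ - 1) ∣ a := (dvd_add_left h).1 hab1
    exact hlp.not_isUnit (hab.isUnit_of_dvd' ha h)
  obtain ⟨i, hi⟩ := H.sq_step a b hb hab1
  have hunit : IsUnit (ζ ^ i) := H.isUnit_zeta.pow i
  refine H.descent_core hn (a := a) (b := ζ ^ i * b) (c := c) (u := u) ?_ hc ?_ hi
  · exact (isCoprime_mul_unit_left_right hunit _ _).2 hab
  · rw [mul_pow, ← pow_mul, mul_comm i p, pow_mul, H.prim.pow_eq_one, one_pow, one_mul, heq]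

theorem Hyp.no_sol [IsPrincipalIdealRing R] (H : Hyp p ζ) : ∀ n, 1 ≤ n → ¬ SolR p ζ n := by
  intro n
  induction n with
  | zero => intro h; omega
  | succ n ih =>
    intro _ hS
    obtain ⟨h2, hS'⟩ := H.descent_step (by omega) hS
    simp only [Nat.add_sub_cancel] at hS'
    exact ih (by omega) hS'

end Fermat.Agent.S10_helper24_Descent
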