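import Fermat.Agent.S10_helper24_Cyclo

set_option autoImplicit false
set_option linter.unusedSectionVars false

namespace Fermat.Agent.S10_helper24_SqDvd

open NumberField Fermat.Agent.S10_helper24_Cyclo

variable {p : ℕ} [hp : Fact p.Prime] {K : Type*} [Field K] [NumberField K]
  [hcyc : IsCyclotomicExtension {p} ℚ K]

/-- the `λ²` step of Kummer's descent: some `a + ζ ^ i * b` is divisible by `λ ^ 2` -/
theorem exists_sq_dvd {ζ : K} (hζ : IsPrimitiveRoot ζ p) {a b : 𝓞 K}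
    (hb : ¬ (hζ.toInteger - 1) ∣ b) (h : (hζ.toInteger - 1) ∣ a + b) :
    ∃ i : ℕ, (hζ.toInteger - 1) ^ 2 ∣ a + hζ.toInteger ^ i * b := by
  obtain ⟨t, ht⟩ := h
  obtain ⟨nt, hnt⟩ := exists_int_sub_dvd hζ t
  obtain ⟨nb, hnb⟩ := exists_int_sub_dvd hζ b
  have hpnb : ¬ (p : ℤ) ∣ nb := by
    intro hd
    apply hb
    have h1 : (hζ.toInteger - 1) ∣ (nb : 𝓞 K) := (lambda_dvd_intCast_iff hζ).2 hd
    have := dvd_add hnb h1
    simpa using this
  have hnb0 : ((nb : ZMod p)) ≠ 0 := by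
    rwa [Ne, ZMod.intCast_zmod_eq_zero_iff_dvd]
  obtain ⟨i, hi⟩ : ∃ i : ℕ, (i : ZMod p) = -(nt : ZMod p) * (nb : ZMod p)⁻¹ :=
    ⟨(-(nt : ZMod p) * (nb : ZMod p)⁻¹).val, ZMod.natCast_zmod_val _⟩
  have hi0 : ((nt + i * nb : ℤ) : ZMod p) = 0 := by
    push_cast
    rw [hi]
    field_simp
    ring
  have hpd : (p : ℤ) ∣ nt + i * nb := (ZMod.intCast_zmod_eq_zero_iff_dvd _ _).1 hi0
  have hld : (hζ.toInteger - 1) ∣ t + i * b := by
    have h1 : (hζ.toInteger - 1) ∣ ((nt + i * nb : ℤ) : 𝓞 K) :=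
      (lambda_dvd_intCast_iff hζ).2 hpd
    have : t + i * b = (t - nt) + i * (b - nb) + ((nt + i * nb : ℤ) : 𝓞 K) := by
      push_cast; ring
    rw [this]
    exact dvd_add (dvd_add hnt (dvd_mul_of_dvd_right hnb _)) h1
  refine ⟨i, ?_⟩
  obtain ⟨w, hw⟩ := sq_dvd_add_pow_sub_sub (hζ.toInteger - 1) 1 i
  obtain ⟨s, hs⟩ := hld
  simp only [one_pow, one_mul, add_sub_cancel] at hw
  refine ⟨s + w * b, ?_⟩
  linear_combination ht + b * hw + (hζ.toInteger - 1) * hs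

end Fermat.Agent.S10_helper24_SqDvd
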