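import Fermat.Agent.S10_helper24_Cyclo
import Fermat.Agent.S10_helper24_SqDvd
import Fermat.Agent.S10_helper24_Descent
import Fermat.Agent.S10_helper15_CaseIIInt

set_option autoImplicit false

namespace Fermat.Agent.S10_helper24_CaseII

open NumberField Fermat.Agent.S10_helper24_Cyclo Fermat.Agent.S10_helper24_Descent

/-- the hypotheses of the abstract descent hold in `𝓞 K`, `K = ℚ(ζ_p)`, when `𝓞 K` satisfies
Kummer's lemma -/
theorem hyp_of_kummer {p : ℕ} [Fact p.Prime] (hp2 : p ≠ 2) {K : Type*} [Field K] [NumberField K]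
    [IsCyclotomicExtension {p} ℚ K]
    (hKL : ∀ u : (𝓞 K)ˣ, (∃ n : ℤ, (p : 𝓞 K) ∣ (u : 𝓞 K) - n) → ∃ v : (𝓞 K)ˣ, u = v ^ p)
    {ζ : K} (hζ : IsPrimitiveRoot ζ p) : Hyp p hζ.toInteger where
  prime := Fact.out
  odd := hp2
  prim := hζ.toInteger_isPrimitiveRoot
  lam_prime := lambda_prime hζ
  p_dvd := p_dvd_lambda_pow hζ le_rfl
  int_pow := exists_int_sub_pow_prime_dvd hζ
  lam_int := fun _ h => (lambda_dvd_intCast_iff hζ).1 h
  sq_step := fun _ _ hb h => Fermat.Agent.S10_helper24_SqDvd.exists_sq_dvd hζ hb h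
  KL := hKL

/-- **Kummer's descent**: there is no solution of `a ^ p + b ^ p = u * (λ ^ n * c) ^ p`, `n ≥ 1`,
in `𝓞 K` when `𝓞 K` is a PID satisfying Kummer's lemma. -/
theorem descent {p : ℕ} [Fact p.Prime] (hp2 : p ≠ 2) {K : Type*} [Field K] [NumberField K]
    [IsCyclotomicExtension {p} ℚ K] [IsPrincipalIdealRing (𝓞 K)]
    (hKL : ∀ u : (𝓞 K)ˣ, (∃ n : ℤ, (p : 𝓞 K) ∣ (u : 𝓞 K) - n) → ∃ v : (𝓞 K)ˣ, u = v ^ p)
    {ζ : K} (hζ : IsPrimitiveRoot ζ p) : ∀ n, 1 ≤ n → ¬ Sol hζ n :=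
  fun n hn hS => (hyp_of_kummer hp2 hKL hζ).no_sol n hn hS

/-- **Fermat's Last Theorem, case II**, for a prime `p` such that `ℤ[ζ_p]` is a PID satisfying
Kummer's lemma. -/
theorem caseII {p : ℕ} [Fact p.Prime] (hp2 : p ≠ 2) {K : Type*} [Field K] [NumberField K]
    [IsCyclotomicExtension {p} ℚ K] [IsPrincipalIdealRing (𝓞 K)]
    (hKL : ∀ u : (𝓞 K)ˣ, (∃ n : ℤ, (p : 𝓞 K) ∣ (u : 𝓞 K) - n) → ∃ v : (𝓞 K)ˣ, u = v ^ p)
    {a b c : ℤ} (ha : a ≠ 0) (hb : b ≠ 0) (hc : c ≠ 0)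
    (hgcd : ({a, b, c} : Finset ℤ).gcd id = 1)
    (hcase : (p : ℤ) ∣ a * b * c) : a ^ p + b ^ p ≠ c ^ p :=
  Fermat.Agent.S10_helper15_CaseIIInt.caseII_of_descent hp2
    (IsCyclotomicExtension.zeta_spec p ℚ K) (descent hp2 hKL _) ha hb hc hgcd hcase

end Fermat.Agent.S10_helper24_CaseII
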