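import Mathlib

set_option autoImplicit false

namespace Fermat.Agent.S10_helper25_KAbstract

open Module

section abstract

variable {E : Type*} [CommGroup E] (p : ℕ)

/-- The quotient map `E → E / E^p` written additively. -/
noncomputable def quotMap : Additive E →+ ModN (Additive E) p := ModN.mkQ p

lemma quotMap_eq_zero_iff (x : E) :
    quotMap p (Additive.ofMul x) = 0 ↔ ∃ w : E, x = w ^ p := by
  change (Submodule.Quotient.mk (Additive.ofMul x) : ModN (Additive E) p) = 0 ↔ _
  rw [Submodule.Quotient.mk_eq_zero, LinearMap.mem_range]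
  constructor
  · rintro ⟨y, hy⟩
    refine ⟨Additive.toMul y, ?_⟩
    have : Additive.ofMul x = p • y := by
      rw [← hy]; simp
    apply Additive.ofMul.injective
    rw [this]
    simp
  · rintro ⟨w, rfl⟩
    exact ⟨Additive.ofMul w, by simp⟩

lemma zmod_smul_eq {M : Type*} [AddCommGroup M] [Module (ZMod p) M] [NeZero p]
    (a : ZMod p) (x : M) : a • x = a.val • x := by
  conv_lhs => rw [← ZMod.natCast_zmod_val a]
  rw [Nat.cast_smul_eq_nsmul]

lemma quotMap_prod {m : ℕ} (c : Fin m → E) (e : Fin m → ℕ) :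
    quotMap p (Additive.ofMul (∏ i, c i ^ e i)) =
      ∑ i, e i • quotMap p (Additive.ofMul (c i)) := by
  rw [ofMul_prod, map_sum]
  refine Finset.sum_congr rfl fun i _ => ?_
  rw [ofMul_pow, map_nsmul]

theorem kummer_abstract [Fact p.Prime] (m : ℕ)
    (H : Subgroup E) (hH : ∀ x : E, x ^ p ∈ H)
    (g : Fin m → E) (hg : Subgroup.closure (Set.range g) = ⊤)
    (c : Fin m → E)
    (hc : ∀ e : Fin m → ℤ, (∏ i, c i ^ e i) ∈ H → ∀ i, (p : ℤ) ∣ e i) :
    ∀ h ∈ H, ∃ w : E, h = w ^ p := by
  have : NeZero p := ⟨(Fact.out : p.Prime).ne_zero⟩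
  set Q := ModN (Additive E) p
  set π := quotMap (E := E) p
  -- natural-number exponent version of `hc`
  have hc' : ∀ e : Fin m → ℕ, (∏ i, c i ^ e i) ∈ H → ∀ i, p ∣ e i := by
    intro e he i
    have := hc (fun i => (e i : ℤ)) (by simpa using he) i
    exact_mod_cast this
  -- generators span
  have hspan : Submodule.span (ZMod p) (Set.range fun i => π (Additive.ofMul (g i))) = ⊤ := by
    rw [eq_top_iff]
    rintro x -
    obtain ⟨a, rfl⟩ : ∃ a, π a = x := by
      obtain ⟨a, ha⟩ := Submodule.mkQ_surjective _ x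
      exact ⟨a, ha⟩
    have ha : Additive.toMul a ∈ Subgroup.closure (Set.range g) := by rw [hg]; trivial
    have key : ∀ y ∈ Subgroup.closure (Set.range g),
        π (Additive.ofMul y) ∈
          Submodule.span (ZMod p) (Set.range fun i => π (Additive.ofMul (g i))) := by
      intro y hy
      induction hy using Subgroup.closure_induction with
      | mem y hy =>
        obtain ⟨i, rfl⟩ := hy
        exact Submodule.subset_span ⟨i, rfl⟩
      | one => simp
      | mul y z _ _ hy hz =>
        rw [ofMul_mul, map_add]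
        exact add_mem hy hz
      | inv y _ hy =>
        rw [ofMul_inv, map_neg]
        exact neg_mem hy
    exact key _ ha
  -- linear independence of the `c i`
  have hli : LinearIndependent (ZMod p) fun i => π (Additive.ofMul (c i)) := by
    rw [Fintype.linearIndependent_iff]
    intro a ha i
    have h1 : π (Additive.ofMul (∏ i, c i ^ (a i).val)) = 0 := by
      rw [quotMap_prod, ← ha]
      exact Finset.sum_congr rfl fun i _ => (zmod_smul_eq p _ _).symm
    obtain ⟨w, hw⟩ := (quotMap_eq_zero_iff p _).1 h1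
    have h2 : (∏ i, c i ^ (a i).val) ∈ H := hw ▸ hH w
    have h3 := hc' _ h2 i
    rw [← ZMod.natCast_zmod_val (a i)]
    exact (ZMod.natCast_eq_zero_iff _ _).2 h3
  have : Module.Finite (ZMod p) Q :=
    Module.Finite.of_fg_top <| by
      rw [← hspan]; exact Submodule.fg_span (Set.finite_range _)
  have hle : finrank (ZMod p) Q ≤ m := by
    simpa using finrank_le_of_span_eq_top hspan
  have hge : m ≤ finrank (ZMod p) Q := by
    simpa using hli.fintype_card_le_finrank
  have hcspan : Submodule.span (ZMod p) (Set.range fun i => π (Additive.ofMul (c i))) = ⊤ :=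
    hli.span_eq_top_of_card_eq_finrank' (by simpa using le_antisymm hge hle)
  intro h hh
  have hmem : π (Additive.ofMul h) ∈
      Submodule.span (ZMod p) (Set.range fun i => π (Additive.ofMul (c i))) := by
    rw [hcspan]; trivial
  obtain ⟨a, ha⟩ := (Submodule.mem_span_range_iff_exists_fun _).1 hmem
  have h1 : π (Additive.ofMul (h / ∏ i, c i ^ (a i).val)) = 0 := by
    rw [ofMul_div, map_sub, quotMap_prod, ← ha, sub_eq_zero]
    exact Finset.sum_congr rfl fun i _ => (zmod_smul_eq p _ _)
  obtain ⟨w, hw⟩ := (quotMap_eq_zero_iff p _).1 h1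
  have h2 : (∏ i, c i ^ (a i).val) ∈ H := by
    have : (∏ i, c i ^ (a i).val) = h * (w⁻¹) ^ p := by
      rw [inv_pow, ← hw]; simp
    rw [this]
    exact H.mul_mem hh (hH _)
  have h3 : ∀ i, (a i).val = 0 := fun i =>
    Nat.eq_zero_of_dvd_of_lt (hc' _ h2 i) (ZMod.val_lt _)
  refine ⟨w, ?_⟩
  rw [← hw]
  simp [h3]

end abstract

end Fermat.Agent.S10_helper25_KAbstract
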