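import Mathlib
import Fermat.Agent.S10_helper25_KAbstract

set_option autoImplicit false

namespace Fermat.Agent.S10_helper25_KUnits

open NumberField NumberField.Units NumberField.InfinitePlace Polynomial
open Fermat.Agent.S10_helper25_KAbstract

variable {p : ℕ} [hpf : Fact p.Prime] {K : Type*} [Field K] [NumberField K]
  [IsCyclotomicExtension {p} ℚ K]

/-- Dirichlet: the unit rank of `ℚ(ζ_p)` plus one is `(p - 1) / 2`. -/
theorem rank_add_one (hp : 2 < p) : rank K + 1 = (p - 1) / 2 := by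
  have : NeZero p := ⟨hpf.out.ne_zero⟩
  have h1 : Fintype.card (InfinitePlace K) = (p - 1) / 2 := by
    rw [card_eq_nrRealPlaces_add_nrComplexPlaces,
      IsCyclotomicExtension.Rat.nrRealPlaces_eq_zero K hp,
      IsCyclotomicExtension.Rat.nrComplexPlaces_eq_totient_div_two p K, zero_add,
      Nat.totient_prime hpf.out]
  have h2 : 0 < Fintype.card (InfinitePlace K) := Fintype.card_pos
  unfold rank
  omega

/-- Dirichlet: the units of `ℚ(ζ_p)` are generated by `(p - 1) / 2` elements. -/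
theorem units_generated (hp : 2 < p) :
    ∃ g : Fin ((p - 1) / 2) → (𝓞 K)ˣ, Subgroup.closure (Set.range g) = ⊤ := by
  obtain ⟨t, ht⟩ := IsCyclic.exists_zpow_surjective (G := torsion K)
  rw [← rank_add_one (K := K) hp]
  refine ⟨Fin.snoc (fundSystem K) (t : (𝓞 K)ˣ), ?_⟩
  rw [eq_top_iff, ← closure_fundSystem_sup_torsion_eq_top K, sup_le_iff]
  constructor
  · apply Subgroup.closure_mono
    rw [Set.range_subset_iff]
    intro i
    exact Set.mem_range.2 ⟨i.castSucc, by simp⟩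
  · intro x hx
    obtain ⟨n, hn⟩ := ht ⟨x, hx⟩
    have hx' : x = (t : (𝓞 K)ˣ) ^ n := by
      have := congrArg (Subtype.val) hn
      simpa using this.symm
    rw [hx']
    refine Subgroup.zpow_mem _ (Subgroup.subset_closure (Set.mem_range.2 ⟨Fin.last _, by simp⟩)) _

/-- Every `p`-th power in `𝓞 K` is congruent to a rational integer modulo `p`. -/
theorem exists_int_sub_pow_prime_dvd (x : 𝓞 K) : ∃ m : ℤ, (p : 𝓞 K) ∣ x ^ p - m := by
  have : NeZero p := ⟨hpf.out.ne_zero⟩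
  have hζ := IsCyclotomicExtension.zeta_spec p ℚ K
  have hx : x ∈ Algebra.adjoin ℤ {hζ.toInteger} := by
    rw [IsCyclotomicExtension.Rat.adjoin_singleton_eq_top hζ]
    exact Algebra.mem_top
  induction hx using Algebra.adjoin_induction with
  | mem y hy =>
    rw [Set.mem_singleton_iff] at hy
    refine ⟨1, ?_⟩
    rw [hy, hζ.toInteger_isPrimitiveRoot.pow_eq_one]
    simp
  | algebraMap r =>
    refine ⟨r ^ p, ?_⟩
    simp
  | add y z _ _ hy hz =>
    obtain ⟨a, ha⟩ := hy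
    obtain ⟨b, hb⟩ := hz
    refine ⟨a + b, ?_⟩
    have h := add_pow_prime_eq hpf.out y z
    obtain ⟨c, hc⟩ : (p : 𝓞 K) ∣ (y + z) ^ p - (y ^ p + z ^ p) := by
      rw [h]
      exact ⟨y * z * ∑ k ∈ Finset.Ioo 0 p, y ^ (k - 1) * z ^ (p - k - 1) * ↑((p.choose k / p : ℕ)),
        by ring⟩
    obtain ⟨a', ha'⟩ := ha
    obtain ⟨b', hb'⟩ := hb
    refine ⟨c + a' + b', ?_⟩
    push_cast
    linear_combination hc + ha' + hb'
  | mul y z _ _ hy hz =>
    obtain ⟨a, a', ha'⟩ := hy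
    obtain ⟨b, b', hb'⟩ := hz
    refine ⟨a * b, a' * z ^ p + a * b', ?_⟩
    push_cast
    linear_combination z ^ p * ha' + a * hb'

/-- The subgroup of units congruent to a rational integer modulo `p`. -/
def intModSubgroup (p : ℕ) [Fact p.Prime] (K : Type*) [Field K] [NumberField K]
    [IsCyclotomicExtension {p} ℚ K] : Subgroup (𝓞 K)ˣ where
  carrier := {u | ∃ n : ℤ, (p : 𝓞 K) ∣ (u : 𝓞 K) - n}
  one_mem' := ⟨1, by simp⟩
  mul_mem' := by
    rintro u v ⟨a, a', ha⟩ ⟨b, b', hb⟩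
    refine ⟨a * b, a' * v + a * b', ?_⟩
    push_cast
    linear_combination (v : 𝓞 K) * ha + (a : 𝓞 K) * hb
  inv_mem' := by
    rintro u ⟨a, a', ha⟩
    -- `a` is invertible mod `p`
    have hcop : IsCoprime (a : ℤ) (p : ℤ) := by
      rw [Int.isCoprime_iff_gcd_eq_one]
      by_contra hne
      have hdvd : (p : ℤ) ∣ a := by
        have hp' : Prime (p : ℤ) := Nat.prime_iff_prime_int.1 (Fact.out : p.Prime)
        by_contra hnd
        exact hne (Int.isCoprime_iff_gcd_eq_one.1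
          ((hp'.coprime_iff_not_dvd.2 hnd).symm))
      obtain ⟨k, hk⟩ := hdvd
      have hu : (p : 𝓞 K) ∣ (u : 𝓞 K) := ⟨a' + k, by
        have : (u : 𝓞 K) = p * a' + a := by linear_combination ha
        rw [this, hk]; push_cast; ring⟩
      have hunit : IsUnit (p : 𝓞 K) := isUnit_of_dvd_unit hu u.isUnit
      have hζ := IsCyclotomicExtension.zeta_spec p ℚ K
      have : NeZero p := ⟨(Fact.out : p.Prime).ne_zero⟩
      have hpr := hζ.zeta_sub_one_prime'
      have hdvd' : hζ.toInteger - 1 ∣ (p : 𝓞 K) := by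
        exact_mod_cast IsPrimitiveRoot.toInteger_sub_one_dvd_prime' hζ
      exact hpr.not_isUnit (isUnit_of_dvd_unit hdvd' hunit)
    obtain ⟨r, s, hrs⟩ := hcop
    -- r * a + s * p = 1
    refine ⟨r, (((u⁻¹ : (𝓞 K)ˣ) : 𝓞 K)) * (s - r * a'), ?_⟩
    have h1 : ((u⁻¹ : (𝓞 K)ˣ) : 𝓞 K) * (u : 𝓞 K) = 1 := by simp
    have hrs' : (r : 𝓞 K) * a + s * p = 1 := by exact_mod_cast congrArg (Int.cast : ℤ → 𝓞 K) hrs
    linear_combination (r : 𝓞 K) * h1 -
      ((u⁻¹ : (𝓞 K)ˣ) : 𝓞 K) * hrs' - ((u⁻¹ : (𝓞 K)ˣ) : 𝓞 K) * (r : 𝓞 K) * ha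

lemma mem_intModSubgroup (u : (𝓞 K)ˣ) :
    u ∈ intModSubgroup p K ↔ ∃ n : ℤ, (p : 𝓞 K) ∣ (u : 𝓞 K) - n := Iff.rfl

/-- Kummer's lemma, reduced to the independence of a family of `(p - 1) / 2` units modulo
`p`-th powers and integers. -/
theorem kummer_of_indep (hp : 2 < p) (c : Fin ((p - 1) / 2) → (𝓞 K)ˣ)
    (hc : ∀ e : Fin ((p - 1) / 2) → ℤ,
      (∃ n : ℤ, (p : 𝓞 K) ∣ ((∏ i, c i ^ e i : (𝓞 K)ˣ) : 𝓞 K) - n) → ∀ i, (p : ℤ) ∣ e i)
    (u : (𝓞 K)ˣ) (hu : ∃ n : ℤ, (p : 𝓞 K) ∣ (u : 𝓞 K) - n) : ∃ v : (𝓞 K)ˣ, u = v ^ p := by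
  obtain ⟨g, hg⟩ := units_generated (K := K) hp
  refine kummer_abstract p ((p - 1) / 2) (intModSubgroup p K) ?_ g hg c hc u hu
  intro x
  obtain ⟨m, hm⟩ := exists_int_sub_pow_prime_dvd (p := p) (x : 𝓞 K)
  exact ⟨m, by simpa using hm⟩

end Fermat.Agent.S10_helper25_KUnits
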