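import Mathlib

set_option autoImplicit false

open NumberField Polynomial

namespace Fermat.Agent.S10_helper5_Defs

/-- Kummer's lemma for the prime `p` (in `ℚ(ζ_p)`): a unit congruent to a rational integer
modulo `p` is a `p`-th power of a unit. -/
def KummerLemma (p : ℕ) [NeZero p] : Prop :=
  ∀ u : (𝓞 (CyclotomicField p ℚ))ˣ,
    (∃ n : ℤ, (p : 𝓞 (CyclotomicField p ℚ)) ∣
      (u : 𝓞 (CyclotomicField p ℚ)) - (n : 𝓞 (CyclotomicField p ℚ))) →
    ∃ v : (𝓞 (CyclotomicField p ℚ))ˣ, u = v ^ p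

/-- First case of Fermat's last theorem for the exponent `p`. -/
def CaseI (p : ℕ) : Prop :=
  ∀ a b c : ℤ, IsCoprime a b → ¬ (p : ℤ) ∣ a * b * c → a ^ p + b ^ p ≠ c ^ p

/-- Second case of Fermat's last theorem for the exponent `p` (normalised: `p ∣ c`). -/
def CaseII (p : ℕ) : Prop :=
  ∀ a b c : ℤ, IsCoprime a b → c ≠ 0 → (p : ℤ) ∣ c → a ^ p + b ^ p ≠ c ^ p

/-- The image of the `i`-th cyclotomic unit under `ζ ↦ 1 + X`:
`unitPoly p 0 = 1 + X` (image of `ζ`), and for `i ≥ 1`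
`unitPoly p i = ∑ j ∈ range (i + 1), (1 + X) ^ j` (image of `1 + ζ + ⋯ + ζ ^ i`). -/
noncomputable def unitPoly (p : ℕ) (i : ℕ) : (ZMod p)[X] :=
  if i = 0 then 1 + X else ∑ j ∈ Finset.range (i + 1), (1 + X) ^ j

/-- The logarithmic-derivative certificate for `p`: the logarithmic derivatives of
`ζ, 1 + ζ, …, 1 + ζ + ⋯ + ζ ^ ((p - 3) / 2)` are linearly independent modulo `(p, (ζ - 1) ^ (p - 2))`.
(Cleared of denominators.) -/
def DlogCert (p : ℕ) : Prop :=
  ∀ e : ℕ → ZMod p,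
    (X ^ (p - 2) : (ZMod p)[X]) ∣
      ∑ i ∈ Finset.range ((p - 1) / 2),
        C (e i) * (derivative (unitPoly p i) *
          ∏ j ∈ (Finset.range ((p - 1) / 2)).erase i, unitPoly p j) →
    ∀ i < (p - 1) / 2, e i = 0

end Fermat.Agent.S10_helper5_Defs
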