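import Mathlib
import Fermat.Agent.S10_helper5_Defs
import Fermat.Agent.S10_helper25_KUnits

set_option autoImplicit false

namespace Fermat.Agent.S10_helper25_KDlog

open NumberField Polynomial
open Fermat.Agent.S10_helper5_Defs Fermat.Agent.S10_helper25_KUnits

section taylor

variable (p : ℕ)

/-- The truncated polynomial ring `(ZMod p)[X] / (X ^ (p - 2))`. -/
abbrev Trunc : Type := (ZMod p)[X] ⧸ Ideal.span {(X : (ZMod p)[X]) ^ (p - 2)}

/-- The quotient map to the truncated polynomial ring. -/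
noncomputable abbrev trunc : (ZMod p)[X] →+* Trunc p := Ideal.Quotient.mk _

lemma trunc_eq_zero_iff (f : (ZMod p)[X]) : trunc p f = 0 ↔ X ^ (p - 2) ∣ f := by
  rw [Ideal.Quotient.eq_zero_iff_mem, Ideal.mem_span_singleton]

/-- First-order Taylor expansion `f ↦ f + f' ε` with values in the dual numbers over the
truncated polynomial ring. -/
noncomputable def taylor1 : (ZMod p)[X] →+* TrivSqZeroExt (Trunc p) (Trunc p) where
  toFun f := TrivSqZeroExt.inl (trunc p f) + TrivSqZeroExt.inr (trunc p (derivative f))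
  map_one' := by
    apply TrivSqZeroExt.ext <;> simp
  map_mul' f g := by
    apply TrivSqZeroExt.ext
    · simp
    · simp [derivative_mul]
      ring
  map_zero' := by
    apply TrivSqZeroExt.ext <;> simp
  map_add' f g := by
    apply TrivSqZeroExt.ext
    · simp
    · simp

@[simp] lemma fst_taylor1 (f : (ZMod p)[X]) : (taylor1 p f).fst = trunc p f := by
  simp [taylor1]

@[simp] lemma snd_taylor1 (f : (ZMod p)[X]) : (taylor1 p f).snd = trunc p (derivative f) := by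
  simp [taylor1]

variable [hpf : Fact p.Prime]

/-- In characteristic `p`, `∑_{i<p} (1 + X) ^ i = X ^ (p - 1)`. -/
lemma geom_sum_one_add_X :
    ∑ i ∈ Finset.range p, ((1 : (ZMod p)[X]) + X) ^ i = X ^ (p - 1) := by
  have hX : (X : (ZMod p)[X]) ≠ 0 := X_ne_zero
  apply mul_left_cancel₀ hX
  have h1 : (X : (ZMod p)[X]) * ∑ i ∈ Finset.range p, ((1 : (ZMod p)[X]) + X) ^ i
      = (1 + X) ^ p - 1 := by
    have := mul_geom_sum ((1 : (ZMod p)[X]) + X) p
    rw [← this]; ring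
  rw [h1, add_pow_char, one_pow, add_sub_cancel_left, ← pow_succ']
  congr 1
  have := hpf.out.pos
  omega

lemma taylor1_geom_sum :
    taylor1 p (∑ i ∈ Finset.range p, ((1 : (ZMod p)[X]) + X) ^ i) = 0 := by
  have h2 := hpf.out.two_le
  rw [geom_sum_one_add_X]
  apply TrivSqZeroExt.ext
  · rw [fst_taylor1, TrivSqZeroExt.fst_zero, trunc_eq_zero_iff]
    exact pow_dvd_pow _ (by omega)
  · rw [snd_taylor1, TrivSqZeroExt.snd_zero, trunc_eq_zero_iff, derivative_X_pow]
    have : p - 1 - 1 = p - 2 := by omega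
    rw [this]
    exact Dvd.intro_left _ rfl

lemma taylor1_natCast_self : ((p : ℕ) : TrivSqZeroExt (Trunc p) (Trunc p)) = 0 := by
  have : ((p : ℕ) : (ZMod p)[X]) = 0 := CharP.cast_eq_zero _ p
  have h := congrArg (taylor1 p) this
  rw [map_natCast, map_zero] at h
  exact h

end taylor

section hom

variable {p : ℕ} [hpf : Fact p.Prime] {K : Type*} [Field K] [NumberField K]
  [IsCyclotomicExtension {p} ℚ K] {ζ : K} (hζ : IsPrimitiveRoot ζ p)

/-- The ring homomorphism `𝓞 K → (ZMod p)[X]/(X^(p-2)) [ε]` sending `ζ` to `1 + X + ε`. -/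
theorem exists_psi :
    ∃ Ψ : 𝓞 K →+* TrivSqZeroExt (Trunc p) (Trunc p), Ψ hζ.toInteger = taylor1 p (1 + X) := by
  have : NeZero p := ⟨hpf.out.ne_zero⟩
  let pb : PowerBasis ℤ (𝓞 K) := PowerBasis.ofAdjoinEqTop' (RingOfIntegers.isIntegral hζ.toInteger)
    (IsCyclotomicExtension.Rat.adjoin_singleton_eq_top hζ)
  have hgen : pb.gen = hζ.toInteger := PowerBasis.ofAdjoinEqTop'_gen _ _
  have hmin : minpoly ℤ hζ.toInteger = cyclotomic p ℤ := by
    rw [cyclotomic_eq_minpoly hζ hpf.out.pos]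
    exact (RingOfIntegers.minpoly_coe hζ.toInteger).symm
  have h0 : aeval (taylor1 p (1 + X)) (minpoly ℤ pb.gen) = 0 := by
    rw [hgen, hmin, cyclotomic_prime, map_sum]
    simp only [map_pow, aeval_X]
    rw [← taylor1_geom_sum p, map_sum]
    simp only [map_pow]
  refine ⟨(pb.lift _ h0).toRingHom, ?_⟩
  have := pb.lift_gen _ h0
  rw [hgen] at this
  exact this

end hom

section dlog

variable {A : Type*} [CommRing A]

lemma fst_mul_fst_inv (t : (TrivSqZeroExt A A)ˣ) :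
    (t : TrivSqZeroExt A A).fst * ((t⁻¹ : (TrivSqZeroExt A A)ˣ) : TrivSqZeroExt A A).fst = 1 := by
  rw [← TrivSqZeroExt.fst_mul, Units.mul_inv, TrivSqZeroExt.fst_one]

/-- The logarithmic derivative on units of the dual numbers: `a + b ε ↦ b / a`. -/
def dlogT : (TrivSqZeroExt A A)ˣ →* Multiplicative A :=
  MonoidHom.mk' (fun t => Multiplicative.ofAdd
    ((t : TrivSqZeroExt A A).snd * ((t⁻¹ : (TrivSqZeroExt A A)ˣ) : TrivSqZeroExt A A).fst))
    (by
      intro t t'
      rw [← ofAdd_add]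
      congr 1
      have h1 := fst_mul_fst_inv t
      have h2 := fst_mul_fst_inv t'
      rw [show (t * t')⁻¹ = t⁻¹ * t'⁻¹ from mul_inv t t']
      simp only [Units.val_mul, TrivSqZeroExt.snd_mul, TrivSqZeroExt.fst_mul,
        smul_eq_mul, MulOpposite.smul_eq_mul_unop, MulOpposite.unop_op]
      linear_combination
        ((t' : TrivSqZeroExt A A).snd * ((t'⁻¹ : (TrivSqZeroExt A A)ˣ) : TrivSqZeroExt A A).fst) * h1
        + ((t : TrivSqZeroExt A A).snd * ((t⁻¹ : (TrivSqZeroExt A A)ˣ) : TrivSqZeroExt A A).fst) * h2)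

lemma toAdd_dlogT (t : (TrivSqZeroExt A A)ˣ) :
    Multiplicative.toAdd (dlogT t) =
      (t : TrivSqZeroExt A A).snd * ((t⁻¹ : (TrivSqZeroExt A A)ˣ) : TrivSqZeroExt A A).fst := rfl

lemma toAdd_dlogT_mul_fst (t : (TrivSqZeroExt A A)ˣ) :
    Multiplicative.toAdd (dlogT t) * (t : TrivSqZeroExt A A).fst =
      (t : TrivSqZeroExt A A).snd := by
  rw [toAdd_dlogT, mul_assoc, mul_comm _ (t : TrivSqZeroExt A A).fst, fst_mul_fst_inv, mul_one]

end dlog

section main

variable {p : ℕ} [hpf : Fact p.Prime] {K : Type*} [Field K] [NumberField K]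
  [IsCyclotomicExtension {p} ℚ K]

/-- The logarithmic derivative of a unit of `𝓞 K` along a ring hom to the dual numbers. -/
noncomputable def dlogU (Ψ : 𝓞 K →+* TrivSqZeroExt (Trunc p) (Trunc p)) :
    (𝓞 K)ˣ →* Multiplicative (Trunc p) :=
  dlogT.comp (Units.map Ψ.toMonoidHom)

omit [NumberField K] [IsCyclotomicExtension {p} ℚ K] in
lemma toAdd_dlogU_mul (Ψ : 𝓞 K →+* TrivSqZeroExt (Trunc p) (Trunc p)) (c : (𝓞 K)ˣ)
    (U : (ZMod p)[X]) (hU : Ψ (c : 𝓞 K) = taylor1 p U) :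
    Multiplicative.toAdd (dlogU Ψ c) * trunc p U = trunc p (derivative U) := by
  have h := toAdd_dlogT_mul_fst (Units.map Ψ.toMonoidHom c)
  have hval : ((Units.map Ψ.toMonoidHom c : (TrivSqZeroExt (Trunc p) (Trunc p))ˣ) :
      TrivSqZeroExt (Trunc p) (Trunc p)) = taylor1 p U := by
    rw [← hU]; rfl
  rw [hval, fst_taylor1, snd_taylor1] at h
  exact h

omit [NumberField K] [IsCyclotomicExtension {p} ℚ K] in
lemma dlogU_eq_one (Ψ : 𝓞 K →+* TrivSqZeroExt (Trunc p) (Trunc p)) (u : (𝓞 K)ˣ)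
    (hu : ∃ n : ℤ, (p : 𝓞 K) ∣ (u : 𝓞 K) - n) : dlogU Ψ u = 1 := by
  obtain ⟨n, k, hk⟩ := hu
  have hval : Ψ (u : 𝓞 K) = (n : TrivSqZeroExt (Trunc p) (Trunc p)) := by
    have : (u : 𝓞 K) = n + p * k := by linear_combination hk
    rw [this, map_add, map_mul, map_intCast, map_natCast, taylor1_natCast_self, zero_mul,
      add_zero]
  have hsnd : (Ψ (u : 𝓞 K)).snd = 0 := by rw [hval, TrivSqZeroExt.snd_intCast]
  have h0 : Multiplicative.toAdd (dlogU Ψ u) = 0 := by
    show (Ψ (u : 𝓞 K)).snd * _ = 0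
    rw [hsnd, zero_mul]
  exact toAdd_eq_zero.1 h0

omit [NumberField K] [IsCyclotomicExtension {p} ℚ K] in
/-- Independence of a family of units from a `DlogCert`: abstract version. -/
theorem indep_of_dlogCert (hcert : DlogCert p)
    (Ψ : 𝓞 K →+* TrivSqZeroExt (Trunc p) (Trunc p))
    (c : ℕ → (𝓞 K)ˣ)
    (hc : ∀ i < (p - 1) / 2, Ψ (c i : 𝓞 K) = taylor1 p (unitPoly p i))
    (e : Fin ((p - 1) / 2) → ℤ)
    (he : ∃ n : ℤ, (p : 𝓞 K) ∣ ((∏ i : Fin ((p - 1) / 2), c i ^ e i : (𝓞 K)ˣ) : 𝓞 K) - n) :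
    ∀ i, (p : ℤ) ∣ e i := by
  -- extend `e` to `ℕ`
  let e' : ℕ → ZMod p := fun i => if h : i < ((p - 1) / 2) then ((e ⟨i, h⟩ : ℤ) : ZMod p) else 0
  have he' : ∀ i : Fin ((p - 1) / 2), e' i = ((e i : ℤ) : ZMod p) := by
    intro i
    simp only [e', i.2, dif_pos, Fin.eta]
  have h0 := dlogU_eq_one Ψ _ he
  rw [map_prod] at h0
  have h1 : ∑ i : Fin ((p - 1) / 2), e i • Multiplicative.toAdd (dlogU Ψ (c i)) = 0 := by
    have := congrArg Multiplicative.toAdd h0
    rw [toAdd_prod] at this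
    simpa [map_zpow, toAdd_zpow] using this
  -- multiply by the product of all `unitPoly`
  have h2 : ∑ i : Fin ((p - 1) / 2), e i • (trunc p (derivative (unitPoly p i)) *
      ∏ j ∈ (Finset.range ((p - 1) / 2)).erase i, trunc p (unitPoly p j)) = 0 := by
    have h := congrArg (fun x => x * ∏ j ∈ Finset.range ((p - 1) / 2), trunc p (unitPoly p j)) h1
    simp only [zero_mul, Finset.sum_mul] at h
    rw [← h]
    refine Finset.sum_congr rfl fun i _ => ?_
    rw [smul_mul_assoc]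
    congr 1
    rw [← Finset.mul_prod_erase (Finset.range ((p - 1) / 2)) _ (Finset.mem_range.2 i.2), ← mul_assoc,
      toAdd_dlogU_mul Ψ (c i) _ (hc i i.2)]
  have h3 : trunc p (∑ i ∈ Finset.range ((p - 1) / 2), C (e' i) * (derivative (unitPoly p i) *
      ∏ j ∈ (Finset.range ((p - 1) / 2)).erase i, unitPoly p j)) = 0 := by
    rw [← h2, Finset.sum_range, map_sum]
    refine Finset.sum_congr rfl fun i _ => ?_
    rw [map_mul, map_mul, map_prod, he', zsmul_eq_mul]
    congr 1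
  rw [trunc_eq_zero_iff] at h3
  intro i
  have := hcert e' h3 i i.2
  rw [he'] at this
  exact (ZMod.intCast_zmod_eq_zero_iff_dvd _ _).1 this

omit [NumberField K] [IsCyclotomicExtension {p} ℚ K] in
/-- The cyclotomic units `ζ, 1 + ζ, 1 + ζ + ζ², …`. -/
theorem exists_cycUnits (hp : 2 < p) (Ψ : 𝓞 K →+* TrivSqZeroExt (Trunc p) (Trunc p))
    {ζ : K} (hζ : IsPrimitiveRoot ζ p) (hΨ : Ψ hζ.toInteger = taylor1 p (1 + X)) :
    ∃ c : ℕ → (𝓞 K)ˣ, ∀ i < (p - 1) / 2, Ψ (c i : 𝓞 K) = taylor1 p (unitPoly p i) := by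
  have : NeZero p := ⟨hpf.out.ne_zero⟩
  have hζ' := hζ.toInteger_isPrimitiveRoot
  have hunit : ∀ i : ℕ, i < (p - 1) / 2 →
      IsUnit (∑ k ∈ Finset.range (i + 1), hζ.toInteger ^ k) := by
    intro i hi
    apply hζ'.geom_sum_isUnit hpf.out.two_le
    apply Nat.Coprime.symm
    rw [Nat.Prime.coprime_iff_not_dvd hpf.out]
    apply Nat.not_dvd_of_pos_of_lt (Nat.succ_pos _)
    omega
  have hζu : IsUnit hζ.toInteger := hζ'.isUnit hpf.out.ne_zero
  refine ⟨fun i => if h0 : i = 0 then hζu.unit else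
    if h : i < (p - 1) / 2 then (hunit i h).unit else 1, ?_⟩
  intro i hi
  by_cases h0 : i = 0
  · simp only [h0, dif_pos, IsUnit.unit_spec, unitPoly, if_true]
    exact hΨ
  · simp only [h0, hi, dif_neg, dif_pos, not_false_eq_true, IsUnit.unit_spec, unitPoly, if_false]
    rw [map_sum, map_sum]
    refine Finset.sum_congr rfl fun k _ => ?_
    rw [map_pow, map_pow, hΨ]

/-- **Kummer's lemma** for `p`, given the logarithmic derivative certificate `DlogCert p`. -/
theorem kummer_of_dlogCert (hp : 2 < p) (hcert : DlogCert p) (u : (𝓞 K)ˣ)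
    (hu : ∃ n : ℤ, (p : 𝓞 K) ∣ (u : 𝓞 K) - n) : ∃ v : (𝓞 K)ˣ, u = v ^ p := by
  have : NeZero p := ⟨hpf.out.ne_zero⟩
  have hζ := IsCyclotomicExtension.zeta_spec p ℚ K
  obtain ⟨Ψ, hΨ⟩ := exists_psi hζ
  obtain ⟨c, hc⟩ := exists_cycUnits hp Ψ hζ hΨ
  exact kummer_of_indep hp (fun i => c i)
    (fun e he => indep_of_dlogCert hcert Ψ c hc e he) u hu

end main

end Fermat.Agent.S10_helper25_KDlog
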