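import Mathlib
import Fermat.Agent.S10_helper5_Defs
import Fermat.Agent.S10_helper15_CaseI
import Fermat.Agent.S10_helper24_CaseII
import Fermat.Agent.S10_helper25_KDlog

/-!
# Project KUMMER: assembly

Fermat's Last Theorem for an exponent `p ∈ {5, 7, 11, 13}`, given that the ring of integers of
the `p`-th cyclotomic field is a principal ideal domain and given the logarithmic-derivative
certificate `DlogCert p` (which yields Kummer's lemma):

* Case I (`p ∤ abc`) is Sophie Germain's theorem (`S10_helper15_CaseI`);
* Case II (`p ∣ abc`) is Kummer's descent (`S10_helper24_CaseII`), which uses Kummer's lemma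
  (`S10_helper25_KDlog`).
-/

set_option autoImplicit false

namespace Fermat.Agent.S10_helper21_Assembly

open NumberField

/-- With the canonical `ℚ`-algebra structure, `CyclotomicField p ℚ` is a `p`-th cyclotomic
extension of `ℚ` (the Mathlib instance is stated for `CyclotomicField.algebra`). -/
theorem isCyclotomicExtension_cyclotomicField (p : ℕ) :
    IsCyclotomicExtension {p} ℚ (CyclotomicField p ℚ) := by
  have h1 : @IsCyclotomicExtension {p} ℚ (CyclotomicField p ℚ) _ _
      (CyclotomicField.algebra p ℚ) := inferInstance
  have h2 : (CyclotomicField.algebra p ℚ) =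
      (DivisionRing.toRatAlgebra : Algebra ℚ (CyclotomicField p ℚ)) := Subsingleton.elim _ _
  exact h2 ▸ h1

/-- Fermat's Last Theorem for the exponent `p ∈ {5, 7, 11, 13}`, assuming that the rings of
integers of `p`-th cyclotomic fields are principal and the certificate `DlogCert p`. -/
theorem flt_of {p : ℕ} [Fact p.Prime] (hp : p = 5 ∨ p = 7 ∨ p = 11 ∨ p = 13)
    (hpid : ∀ (K : Type) [Field K] [NumberField K] [IsCyclotomicExtension {p} ℚ K],
      IsPrincipalIdealRing (𝓞 K))
    (hcert : Fermat.Agent.S10_helper5_Defs.DlogCert p)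
    (a b c : ℤ) (ha : a ≠ 0) (hb : b ≠ 0) (hc : c ≠ 0) : a ^ p + b ^ p ≠ c ^ p := by
  have hp2 : 2 < p := by rcases hp with rfl | rfl | rfl | rfl <;> norm_num
  have hcyc := isCyclotomicExtension_cyclotomicField p
  have hpid' := hpid (CyclotomicField p ℚ)
  have key : FermatLastTheoremWith ℤ p := by
    apply fermatLastTheoremWith_of_fermatLastTheoremWith_coprime
    intro a b c ha hb hc hgcd
    by_cases hcase : (p : ℤ) ∣ a * b * c
    · exact Fermat.Agent.S10_helper24_CaseII.caseII (K := CyclotomicField p ℚ) (by omega)
        (fun u hu => Fermat.Agent.S10_helper25_KDlog.kummer_of_dlogCert hp2 hcert u hu)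
        ha hb hc hgcd hcase
    · exact Fermat.Agent.S10_helper15_CaseI.caseI hp hgcd hcase
  exact key a b c ha hb hc

end Fermat.Agent.S10_helper21_Assembly
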