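import Mathlib

set_option autoImplicit false
set_option linter.unusedSectionVars false
set_option linter.unusedSimpArgs false
set_option linter.style.longLine false

open NumberField Polynomial InfinitePlace Nat Real cyclotomic Module Ideal

namespace Fermat.Agent.S10_helper3_PID13

theorem minkowski13 (K : Type*) [Field K] [NumberField K] [IsCyclotomicExtension {13} ℚ K] :
    (4 / π) ^ nrComplexPlaces K *
      ((finrank ℚ K)! / (finrank ℚ K) ^ (finrank ℚ K) * √|discr K|) < 307 := by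
  have : Fact (Nat.Prime 13) := ⟨by norm_num⟩
  rw [IsCyclotomicExtension.Rat.discr_prime 13 K, IsCyclotomicExtension.finrank (n := 13) K
    (irreducible_rat (by simp)), IsCyclotomicExtension.Rat.nrComplexPlaces_eq_totient_div_two 13,
    totient_prime (by norm_num : Nat.Prime 13)]
  have h12 : (12 : ℕ)! = 479001600 := by decide
  have hs : √(1792160394037 : ℝ) < 1338735 := by
    rw [Real.sqrt_lt' (by norm_num)]
    norm_num
  have hpi : (4 : ℝ) / π < 4 / 3.1415 := by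
    apply div_lt_div_of_pos_left (by norm_num) (by norm_num) pi_gt_d4
  have hpos : (0 : ℝ) < 4 / π := by positivity
  have h3 : ((4 : ℝ) / π) ^ 6 < (4 / 3.1415) ^ 6 := by gcongr
  simp only [show (13 - 1) / 2 = 6 by norm_num, show 13 - 1 = 12 by norm_num, h12]
  rw [show |(((-1 : ℤ) ^ 6 * ((13 : ℕ) : ℤ) ^ (13 - 2) : ℤ) : ℝ)| = 1792160394037 by norm_num]
  have hs0 : (0 : ℝ) ≤ √(1792160394037 : ℝ) := Real.sqrt_nonneg _
  calc (4 / π) ^ 6 * (((479001600 : ℕ) : ℝ) / ((12 : ℕ) : ℝ) ^ 12 * √1792160394037)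
      ≤ (4 / 3.1415) ^ 6 * (((479001600 : ℕ) : ℝ) / ((12 : ℕ) : ℝ) ^ 12 * 1338735) := by
        gcongr
    _ < 307 := by norm_num

/-- the cubic `X^3 - X - 1` over `ZMod 3` -/
noncomputable def cubic3 : (ZMod 3)[X] := X ^ 3 - X - 1

theorem cubic3_monic : cubic3.Monic := by
  unfold cubic3
  monicity!

theorem cubic3_natDegree : cubic3.natDegree = 3 := by
  unfold cubic3
  compute_degree!

theorem cubic3_irreducible : Irreducible cubic3 := by
  have h2 : 2 ≤ cubic3.natDegree := by rw [cubic3_natDegree]; norm_num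
  have h3 : cubic3.natDegree ≤ 3 := by rw [cubic3_natDegree]
  rw [Polynomial.Monic.irreducible_iff_roots_eq_zero_of_degree_le_three cubic3_monic h2 h3]
  rw [Multiset.eq_zero_iff_forall_notMem]
  intro x hx
  rw [mem_roots cubic3_monic.ne_zero, IsRoot.def] at hx
  simp only [cubic3, eval_sub, eval_pow, eval_X, eval_one] at hx
  revert hx
  revert x
  decide

instance fact_cubic3 : Fact (Irreducible cubic3) := ⟨cubic3_irreducible⟩

/-- the field with 27 elements -/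
abbrev F27 : Type := AdjoinRoot cubic3

theorem F27_root_cube : (AdjoinRoot.root cubic3) ^ 3 = AdjoinRoot.root cubic3 + 1 := by
  have h : AdjoinRoot.mk cubic3 (X ^ 3 - X - 1) = 0 := AdjoinRoot.mk_self
  simp only [map_sub, map_pow, AdjoinRoot.mk_X, map_one] at h
  linear_combination h

theorem F27_three : (3 : F27) = 0 := by
  have h1 : (3 : F27) = algebraMap (ZMod 3) F27 (3 : ZMod 3) := by
    rw [map_ofNat]
  have h3 : (3 : ZMod 3) = 0 := by decide
  rw [h1, h3, map_zero]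

theorem F27_sum : ∑ i ∈ Finset.range 13, (AdjoinRoot.root cubic3) ^ i = 0 := by
  simp only [Finset.sum_range_succ, Finset.sum_range_zero, zero_add, pow_zero, pow_one]
  have hθ := F27_root_cube
  have h3 := F27_three
  generalize AdjoinRoot.root cubic3 = θ at hθ
  linear_combination (20 + 15 * θ + 11 * θ ^ 2 + 8 * θ ^ 3 + 6 * θ ^ 4 + 4 * θ ^ 5 + 3 * θ ^ 6 +
    2 * θ ^ 7 + θ ^ 8 + θ ^ 9) * hθ + (7 + 12 * θ + 9 * θ ^ 2) * h3

theorem F27_eq_zero (a b c : ℤ)
    (h : (a : F27) + b * AdjoinRoot.root cubic3 + c * (AdjoinRoot.root cubic3) ^ 2 = 0) :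
    (3 : ℤ) ∣ a ∧ (3 : ℤ) ∣ b ∧ (3 : ℤ) ∣ c := by
  have hmk : AdjoinRoot.mk cubic3 (C (a : ZMod 3) + C (b : ZMod 3) * X + C (c : ZMod 3) * X ^ 2)
      = 0 := by
    rw [← h]
    simp only [map_add, map_mul, map_pow, AdjoinRoot.mk_X, AdjoinRoot.mk_C]
    simp
  rw [AdjoinRoot.mk_eq_zero] at hmk
  have hdeg : (C (a : ZMod 3) + C (b : ZMod 3) * X + C (c : ZMod 3) * X ^ 2).natDegree <
      cubic3.natDegree := by
    rw [cubic3_natDegree]
    have : (C (a : ZMod 3) + C (b : ZMod 3) * X + C (c : ZMod 3) * X ^ 2).natDegree ≤ 2 := by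
      compute_degree
    omega
  have hzero := Polynomial.eq_zero_of_dvd_of_natDegree_lt hmk hdeg
  have h0 := congrArg (fun f => f.coeff 0) hzero
  have h1 := congrArg (fun f => f.coeff 1) hzero
  have h2 := congrArg (fun f => f.coeff 2) hzero
  simp only [coeff_add, coeff_C_mul, coeff_C_zero, coeff_X_zero, coeff_X_pow, coeff_zero,
    coeff_C_succ, coeff_X_one, coeff_C, coeff_X] at h0 h1 h2
  norm_num at h0 h1 h2
  refine ⟨?_, ?_, ?_⟩
  · exact (ZMod.intCast_zmod_eq_zero_iff_dvd a 3).mp h0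
  · exact (ZMod.intCast_zmod_eq_zero_iff_dvd b 3).mp h1
  · exact (ZMod.intCast_zmod_eq_zero_iff_dvd c 3).mp h2

instance fact13 : Fact (Nat.Prime 13) := ⟨by norm_num⟩

section
variable {K : Type*} [Field K] [NumberField K] [IsCyclotomicExtension {13} ℚ K]
  {ζ : K} (hζ : IsPrimitiveRoot ζ 13)

theorem minpoly_toInteger : minpoly ℤ hζ.toInteger = cyclotomic 13 ℤ := by
  rw [cyclotomic_eq_minpoly hζ (by norm_num)]
  exact (RingOfIntegers.minpoly_coe hζ.toInteger).symm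

theorem sum_toInteger : ∑ i ∈ Finset.range 13, hζ.toInteger ^ i = 0 := by
  have h := minpoly.aeval ℤ hζ.toInteger
  rw [minpoly_toInteger hζ, cyclotomic_prime] at h
  simpa using h

/-- ring hom to a ring `F` sending `ζ` to a root of the 13-th cyclotomic polynomial -/
noncomputable def phi {F : Type*} [CommRing F] (θ : F) (hθ : ∑ i ∈ Finset.range 13, θ ^ i = 0) :
    𝓞 K →+* F :=
  (hζ.integralPowerBasis.lift θ (by
    rw [hζ.integralPowerBasis_gen, minpoly_toInteger hζ, cyclotomic_prime]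
    simpa using hθ) : 𝓞 K →ₐ[ℤ] F).toRingHom

theorem phi_zeta {F : Type*} [CommRing F] (θ : F) (hθ : ∑ i ∈ Finset.range 13, θ ^ i = 0) :
    phi hζ θ hθ hζ.toInteger = θ := by
  have := hζ.integralPowerBasis.lift_gen θ (by
    rw [hζ.integralPowerBasis_gen, minpoly_toInteger hζ, cyclotomic_prime]
    simpa using hθ)
  have h2 : hζ.toInteger = hζ.integralPowerBasis.gen := hζ.integralPowerBasis_gen.symm
  unfold phi
  conv_lhs => rw [h2]
  exact this

/-- covering: every element is congruent to an integer modulo `α` as soon as `ζ` is. -/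
theorem exists_int_sub_mem (α : 𝓞 K) (r : ℤ) (h2 : hζ.toInteger - r ∈ span {α}) (x : 𝓞 K) :
    ∃ m : ℤ, x - m ∈ span {α} := by
  have hx : x ∈ Algebra.adjoin ℤ {hζ.toInteger} := by
    rw [IsCyclotomicExtension.Rat.adjoin_singleton_eq_top hζ]
    exact Algebra.mem_top
  induction hx using Algebra.adjoin_induction with
  | mem y hy =>
    rw [Set.mem_singleton_iff] at hy
    subst hy
    exact ⟨r, h2⟩
  | algebraMap m =>
    exact ⟨m, by simp⟩
  | add y z _ _ hy hz =>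
    obtain ⟨a, ha⟩ := hy
    obtain ⟨b, hb⟩ := hz
    refine ⟨a + b, ?_⟩
    have : y + z - ((a + b : ℤ) : 𝓞 K) = (y - a) + (z - b) := by push_cast; ring
    rw [this]
    exact Ideal.add_mem _ ha hb
  | mul y z _ _ hy hz =>
    obtain ⟨a, ha⟩ := hy
    obtain ⟨b, hb⟩ := hz
    refine ⟨a * b, ?_⟩
    have : y * z - ((a * b : ℤ) : 𝓞 K) = (y - a) * z + a * (z - b) := by push_cast; ring
    rw [this]
    exact Ideal.add_mem _ (Ideal.mul_mem_right _ _ ha) (Ideal.mul_mem_left _ _ hb)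

/-- Lemma A: a principal prime of degree one. -/
theorem mem_primesOver_of_data (q : ℕ) [Fact q.Prime] (r : ℤ)
    (hr : ∑ i ∈ Finset.range 13, ((r : ℤ) : ZMod q) ^ i = 0)
    (α : 𝓞 K) (h1 : (q : 𝓞 K) ∈ span {α}) (h2 : hζ.toInteger - r ∈ span {α})
    (h3 : phi hζ ((r : ℤ) : ZMod q) hr α = 0) :
    span {α} ∈ primesOver (span {(q : ℤ)}) (𝓞 K) := by
  have hker : RingHom.ker (phi hζ ((r : ℤ) : ZMod q) hr) = span {α} := by
    apply le_antisymm
    · intro x hx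
      obtain ⟨m, hm⟩ := exists_int_sub_mem hζ α r h2 x
      have hxm : phi hζ ((r : ℤ) : ZMod q) hr (x - m) = 0 := by
        have hle : span {α} ≤ RingHom.ker (phi hζ ((r : ℤ) : ZMod q) hr) := by
          rw [Ideal.span_singleton_le_iff_mem]
          exact h3
        exact hle hm
      rw [map_sub, RingHom.mem_ker.mp hx, zero_sub, neg_eq_zero, map_intCast] at hxm
      rw [ZMod.intCast_zmod_eq_zero_iff_dvd] at hxm
      obtain ⟨m', rfl⟩ := hxm
      have : x = (x - ((q * m' : ℤ) : 𝓞 K)) + (q : 𝓞 K) * (m' : 𝓞 K) := by push_cast; ring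
      rw [this]
      exact Ideal.add_mem _ hm (Ideal.mul_mem_right _ _ h1)
    · rw [Ideal.span_singleton_le_iff_mem]
      exact h3
  refine ⟨?_, ?_⟩
  · rw [← hker]
    exact RingHom.ker_isPrime _
  · constructor
    rw [← hker]
    ext m
    simp only [Ideal.mem_span_singleton, Ideal.under, Ideal.mem_comap, RingHom.mem_ker,
      algebraMap_int_eq, eq_intCast, map_intCast]
    rw [ZMod.intCast_zmod_eq_zero_iff_dvd]

theorem sum_explicit : 1 + hζ.toInteger + hζ.toInteger ^ 2 + hζ.toInteger ^ 3 +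
    hζ.toInteger ^ 4 + hζ.toInteger ^ 5 + hζ.toInteger ^ 6 + hζ.toInteger ^ 7 +
    hζ.toInteger ^ 8 + hζ.toInteger ^ 9 + hζ.toInteger ^ 10 + hζ.toInteger ^ 11 +
    hζ.toInteger ^ 12 = 0 := by
  have h := sum_toInteger hζ
  simp only [Finset.sum_range_succ, Finset.sum_range_zero, zero_add, pow_zero, pow_one] at h
  exact h

theorem sum_r13 : ∑ i ∈ Finset.range 13, ((1 : ℤ) : ZMod 13) ^ i = 0 := by
  decide

theorem alpha_r13 : (-1 + ((1 : ℤ) : ZMod 13)) = 0 := by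
  decide

theorem mem_primesOver_13 :
    span {(-1 + hζ.toInteger : 𝓞 K)} ∈ primesOver (span {((13 : ℕ) : ℤ)}) (𝓞 K) := by
  have : Fact (Nat.Prime 13) := ⟨by norm_num⟩
  have hs := sum_explicit hζ
  refine mem_primesOver_of_data hζ 13 1 sum_r13 _ ?_ ?_ ?_
  · rw [Ideal.mem_span_singleton]
    refine ⟨-12 - 11 * hζ.toInteger - 10 * hζ.toInteger ^ 2 - 9 * hζ.toInteger ^ 3 - 8 * hζ.toInteger ^ 4 - 7 * hζ.toInteger ^ 5 - 6 * hζ.toInteger ^ 6 - 5 * hζ.toInteger ^ 7 - 4 * hζ.toInteger ^ 8 - 3 * hζ.toInteger ^ 9 - 2 * hζ.toInteger ^ 10 - hζ.toInteger ^ 11, ?_⟩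
    push_cast
    linear_combination (-(-1)) * hs
  · rw [Ideal.mem_span_singleton]
    refine ⟨1, ?_⟩
    push_cast
    linear_combination (-(0)) * hs
  · simp only [map_add, map_sub, map_neg, map_pow, map_one, phi_zeta]
    exact alpha_r13

theorem sum_r53 : ∑ i ∈ Finset.range 13, ((36 : ℤ) : ZMod 53) ^ i = 0 := by
  decide

theorem alpha_r53 : (1 + ((36 : ℤ) : ZMod 53) + ((36 : ℤ) : ZMod 53) ^ 3) = 0 := by
  decide

theorem mem_primesOver_53 :
    span {(1 + hζ.toInteger + hζ.toInteger ^ 3 : 𝓞 K)} ∈ primesOver (span {((53 : ℕ) : ℤ)}) (𝓞 K) := by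
  have : Fact (Nat.Prime 53) := ⟨by norm_num⟩
  have hs := sum_explicit hζ
  refine mem_primesOver_of_data hζ 53 36 sum_r53 _ ?_ ?_ ?_
  · rw [Ideal.mem_span_singleton]
    refine ⟨1 - 24 * hζ.toInteger - 35 * hζ.toInteger ^ 2 - 25 * hζ.toInteger ^ 3 - 10 * hζ.toInteger ^ 4 - 14 * hζ.toInteger ^ 5 - 20 * hζ.toInteger ^ 6 - 29 * hζ.toInteger ^ 7 - 16 * hζ.toInteger ^ 8 - 23 * hζ.toInteger ^ 9 - 7 * hζ.toInteger ^ 10 - 36 * hζ.toInteger ^ 11, ?_⟩
    push_cast
    linear_combination (-(-52 + 29 * hζ.toInteger - 36 * hζ.toInteger ^ 2)) * hs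
  · rw [Ideal.mem_span_singleton]
    refine ⟨17 * hζ.toInteger + 24 * hζ.toInteger ^ 2 + 17 * hζ.toInteger ^ 3 + 7 * hζ.toInteger ^ 4 + 10 * hζ.toInteger ^ 5 + 14 * hζ.toInteger ^ 6 + 20 * hζ.toInteger ^ 7 + 11 * hζ.toInteger ^ 8 + 16 * hζ.toInteger ^ 9 + 5 * hζ.toInteger ^ 10 + 25 * hζ.toInteger ^ 11, ?_⟩
    push_cast
    linear_combination (-(36 - 20 * hζ.toInteger + 25 * hζ.toInteger ^ 2)) * hs
  · simp only [map_add, map_sub, map_neg, map_pow, map_one, phi_zeta]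
    exact alpha_r53

theorem sum_r79 : ∑ i ∈ Finset.range 13, ((64 : ℤ) : ZMod 79) ^ i = 0 := by
  decide

theorem alpha_r79 : (1 + ((64 : ℤ) : ZMod 79) - ((64 : ℤ) : ZMod 79) ^ 4) = 0 := by
  decide

theorem mem_primesOver_79 :
    span {(1 + hζ.toInteger - hζ.toInteger ^ 4 : 𝓞 K)} ∈ primesOver (span {((79 : ℕ) : ℤ)}) (𝓞 K) := by
  have : Fact (Nat.Prime 79) := ⟨by norm_num⟩
  have hs := sum_explicit hζ
  refine mem_primesOver_of_data hζ 79 64 sum_r79 _ ?_ ?_ ?_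
  · rw [Ideal.mem_span_singleton]
    refine ⟨24 - 25 * hζ.toInteger - 27 * hζ.toInteger ^ 2 + 10 * hζ.toInteger ^ 3 - 3 * hζ.toInteger ^ 4 - 39 * hζ.toInteger ^ 5 - 5 * hζ.toInteger ^ 6 - 2 * hζ.toInteger ^ 7 - 18 * hζ.toInteger ^ 8 - 38 * hζ.toInteger ^ 9 + 16 * hζ.toInteger ^ 10 - 35 * hζ.toInteger ^ 11, ?_⟩
    push_cast
    linear_combination (-(-55 + 54 * hζ.toInteger - 51 * hζ.toInteger ^ 2 + 35 * hζ.toInteger ^ 3)) * hs
  · rw [Ideal.mem_span_singleton]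
    refine ⟨-19 + 21 * hζ.toInteger + 22 * hζ.toInteger ^ 2 - 8 * hζ.toInteger ^ 3 + 3 * hζ.toInteger ^ 4 + 32 * hζ.toInteger ^ 5 + 4 * hζ.toInteger ^ 6 + 2 * hζ.toInteger ^ 7 + 15 * hζ.toInteger ^ 8 + 31 * hζ.toInteger ^ 9 - 13 * hζ.toInteger ^ 10 + 29 * hζ.toInteger ^ 11, ?_⟩
    push_cast
    linear_combination (-(45 - 44 * hζ.toInteger + 42 * hζ.toInteger ^ 2 - 29 * hζ.toInteger ^ 3)) * hs
  · simp only [map_add, map_sub, map_neg, map_pow, map_one, phi_zeta]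
    exact alpha_r79

theorem sum_r131 : ∑ i ∈ Finset.range 13, ((80 : ℤ) : ZMod 131) ^ i = 0 := by
  decide

theorem alpha_r131 : (1 - ((80 : ℤ) : ZMod 131) - ((80 : ℤ) : ZMod 131) ^ 3) = 0 := by
  decide

theorem mem_primesOver_131 :
    span {(1 - hζ.toInteger - hζ.toInteger ^ 3 : 𝓞 K)} ∈ primesOver (span {((131 : ℕ) : ℤ)}) (𝓞 K) := by
  have : Fact (Nat.Prime 131) := ⟨by norm_num⟩
  have hs := sum_explicit hζ
  refine mem_primesOver_of_data hζ 131 80 sum_r131 _ ?_ ?_ ?_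
  · rw [Ideal.mem_span_singleton]
    refine ⟨111 + 78 * hζ.toInteger + 17 * hζ.toInteger ^ 2 + 67 * hζ.toInteger ^ 3 + 84 * hζ.toInteger ^ 4 + 40 * hζ.toInteger ^ 5 + 46 * hζ.toInteger ^ 6 + 69 * hζ.toInteger ^ 7 + 48 * hζ.toInteger ^ 8 + 33 * hζ.toInteger ^ 9 + 41 * hζ.toInteger ^ 10 + 28 * hζ.toInteger ^ 11, ?_⟩
    push_cast
    linear_combination (-(-20 - 13 * hζ.toInteger - 28 * hζ.toInteger ^ 2)) * hs
  · rw [Ideal.mem_span_singleton]
    refine ⟨-68 - 47 * hζ.toInteger - 10 * hζ.toInteger ^ 2 - 41 * hζ.toInteger ^ 3 - 51 * hζ.toInteger ^ 4 - 24 * hζ.toInteger ^ 5 - 28 * hζ.toInteger ^ 6 - 42 * hζ.toInteger ^ 7 - 29 * hζ.toInteger ^ 8 - 20 * hζ.toInteger ^ 9 - 25 * hζ.toInteger ^ 10 - 17 * hζ.toInteger ^ 11, ?_⟩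
    push_cast
    linear_combination (-(12 + 8 * hζ.toInteger + 17 * hζ.toInteger ^ 2)) * hs
  · simp only [map_add, map_sub, map_neg, map_pow, map_one, phi_zeta]
    exact alpha_r131

theorem sum_r157 : ∑ i ∈ Finset.range 13, ((75 : ℤ) : ZMod 157) ^ i = 0 := by
  decide

theorem alpha_r157 : (1 - ((75 : ℤ) : ZMod 157) + ((75 : ℤ) : ZMod 157) ^ 2 + ((75 : ℤ) : ZMod 157) ^ 4) = 0 := by
  decide

theorem mem_primesOver_157 :
    span {(1 - hζ.toInteger + hζ.toInteger ^ 2 + hζ.toInteger ^ 4 : 𝓞 K)} ∈ primesOver (span {((157 : ℕ) : ℤ)}) (𝓞 K) := by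
  have : Fact (Nat.Prime 157) := ⟨by norm_num⟩
  have hs := sum_explicit hζ
  refine mem_primesOver_of_data hζ 157 75 sum_r157 _ ?_ ?_ ?_
  · rw [Ideal.mem_span_singleton]
    refine ⟨89 + 86 * hζ.toInteger + 42 * hζ.toInteger ^ 2 + 77 * hζ.toInteger ^ 3 + 67 * hζ.toInteger ^ 4 + 25 * hζ.toInteger ^ 5 + 37 * hζ.toInteger ^ 6 + 56 * hζ.toInteger ^ 7 + 73 * hζ.toInteger ^ 8 + 113 * hζ.toInteger ^ 9 + 124 * hζ.toInteger ^ 10 + 76 * hζ.toInteger ^ 11, ?_⟩
    push_cast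
    linear_combination (-(-68 + 65 * hζ.toInteger + 48 * hζ.toInteger ^ 2 + 76 * hζ.toInteger ^ 3)) * hs
  · rw [Ideal.mem_span_singleton]
    refine ⟨-43 - 41 * hζ.toInteger - 20 * hζ.toInteger ^ 2 - 37 * hζ.toInteger ^ 3 - 32 * hζ.toInteger ^ 4 - 12 * hζ.toInteger ^ 5 - 18 * hζ.toInteger ^ 6 - 27 * hζ.toInteger ^ 7 - 35 * hζ.toInteger ^ 8 - 54 * hζ.toInteger ^ 9 - 59 * hζ.toInteger ^ 10 - 36 * hζ.toInteger ^ 11, ?_⟩
    push_cast
    linear_combination (-(32 - 31 * hζ.toInteger - 23 * hζ.toInteger ^ 2 - 36 * hζ.toInteger ^ 3)) * hs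
  · simp only [map_add, map_sub, map_neg, map_pow, map_one, phi_zeta]
    exact alpha_r157

/-- covering for the prime above 3 -/
theorem exists_three_sub_mem (x : 𝓞 K) :
    ∃ a b c : ℤ, x - (a + b * hζ.toInteger + c * hζ.toInteger ^ 2) ∈
      span {(1 + hζ.toInteger - hζ.toInteger ^ 3 : 𝓞 K)} := by
  have hx : x ∈ Algebra.adjoin ℤ {hζ.toInteger} := by
    rw [IsCyclotomicExtension.Rat.adjoin_singleton_eq_top hζ]
    exact Algebra.mem_top
  induction hx using Algebra.adjoin_induction with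
  | mem y hy =>
    rw [Set.mem_singleton_iff] at hy
    subst hy
    exact ⟨0, 1, 0, by simp⟩
  | algebraMap m =>
    exact ⟨m, 0, 0, by simp⟩
  | add y z _ _ hy hz =>
    obtain ⟨a, b, c, ha⟩ := hy
    obtain ⟨a', b', c', hb⟩ := hz
    refine ⟨a + a', b + b', c + c', ?_⟩
    have : y + z - (((a + a' : ℤ) : 𝓞 K) + ((b + b' : ℤ) : 𝓞 K) * hζ.toInteger +
        ((c + c' : ℤ) : 𝓞 K) * hζ.toInteger ^ 2) =
        (y - (a + b * hζ.toInteger + c * hζ.toInteger ^ 2)) +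
        (z - (a' + b' * hζ.toInteger + c' * hζ.toInteger ^ 2)) := by push_cast; ring
    rw [this]
    exact Ideal.add_mem _ ha hb
  | mul y z _ _ hy hz =>
    obtain ⟨a, b, c, ha⟩ := hy
    obtain ⟨a', b', c', hb⟩ := hz
    refine ⟨a * a' + (b * c' + c * b'), a * b' + b * a' + (b * c' + c * b') + c * c',
      a * c' + b * b' + c * a' + c * c', ?_⟩
    have : y * z - (((a * a' + (b * c' + c * b') : ℤ) : 𝓞 K) +
        ((a * b' + b * a' + (b * c' + c * b') + c * c' : ℤ) : 𝓞 K) * hζ.toInteger +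
        ((a * c' + b * b' + c * a' + c * c' : ℤ) : 𝓞 K) * hζ.toInteger ^ 2) =
        (y - (a + b * hζ.toInteger + c * hζ.toInteger ^ 2)) * z +
        (a + b * hζ.toInteger + c * hζ.toInteger ^ 2) *
          (z - (a' + b' * hζ.toInteger + c' * hζ.toInteger ^ 2)) +
        (-(((b * c' + c * b' : ℤ) : 𝓞 K) + ((c * c' : ℤ) : 𝓞 K) * hζ.toInteger)) *
          (1 + hζ.toInteger - hζ.toInteger ^ 3) := by push_cast; ring
    rw [this]
    exact Ideal.add_mem _ (Ideal.add_mem _ (Ideal.mul_mem_right _ _ ha)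
      (Ideal.mul_mem_left _ _ hb)) (Ideal.mul_mem_left _ _ (Ideal.mem_span_singleton_self _))

theorem three_mem : (3 : 𝓞 K) ∈ span {(1 + hζ.toInteger - hζ.toInteger ^ 3 : 𝓞 K)} := by
  have hs := sum_explicit hζ
  rw [Ideal.mem_span_singleton]
  refine ⟨-1 - hζ.toInteger ^ 2 - hζ.toInteger ^ 3 - 2 * hζ.toInteger ^ 5 - hζ.toInteger ^ 7 -
    2 * hζ.toInteger ^ 8 + hζ.toInteger ^ 9 - 3 * hζ.toInteger ^ 10, ?_⟩
  linear_combination (-(-4 + 3 * hζ.toInteger)) * hs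

theorem mem_primesOver_3 :
    span {(1 + hζ.toInteger - hζ.toInteger ^ 3 : 𝓞 K)} ∈
      primesOver (span {((3 : ℕ) : ℤ)}) (𝓞 K) := by
  have h3 : phi hζ (AdjoinRoot.root cubic3) F27_sum
      (1 + hζ.toInteger - hζ.toInteger ^ 3 : 𝓞 K) = 0 := by
    simp only [map_add, map_sub, map_pow, map_one, phi_zeta]
    linear_combination -F27_root_cube
  have hle : span {(1 + hζ.toInteger - hζ.toInteger ^ 3 : 𝓞 K)} ≤
      RingHom.ker (phi hζ (AdjoinRoot.root cubic3) F27_sum) := by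
    rw [Ideal.span_singleton_le_iff_mem]
    exact h3
  have hker : RingHom.ker (phi hζ (AdjoinRoot.root cubic3) F27_sum) =
      span {(1 + hζ.toInteger - hζ.toInteger ^ 3 : 𝓞 K)} := by
    apply le_antisymm _ hle
    intro x hx
    obtain ⟨a, b, c, hm⟩ := exists_three_sub_mem hζ x
    have hxm := hle hm
    rw [RingHom.mem_ker, map_sub, RingHom.mem_ker.mp hx, zero_sub, neg_eq_zero] at hxm
    simp only [map_add, map_mul, map_pow, map_intCast, phi_zeta] at hxm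
    obtain ⟨⟨a', rfl⟩, ⟨b', rfl⟩, ⟨c', rfl⟩⟩ := F27_eq_zero a b c hxm
    have : x = (x - (((3 * a' : ℤ) : 𝓞 K) + ((3 * b' : ℤ) : 𝓞 K) * hζ.toInteger +
        ((3 * c' : ℤ) : 𝓞 K) * hζ.toInteger ^ 2)) +
        (3 : 𝓞 K) * ((a' : 𝓞 K) + b' * hζ.toInteger + c' * hζ.toInteger ^ 2) := by
      push_cast; ring
    rw [this]
    exact Ideal.add_mem _ hm (Ideal.mul_mem_right _ _ (three_mem hζ))
  refine ⟨?_, ?_⟩
  · rw [← hker]
    exact RingHom.ker_isPrime _
  · constructor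
    rw [← hker]
    ext m
    simp only [Ideal.mem_span_singleton, Ideal.under, Ideal.mem_comap, RingHom.mem_ker,
      algebraMap_int_eq, eq_intCast, map_intCast]
    constructor
    · rintro ⟨m', rfl⟩
      push_cast
      rw [F27_three, zero_mul]
    · intro h
      have := (F27_eq_zero m 0 0 (by simpa using h)).1
      simpa using this

end

theorem orderOf_ne_zero_zmod13 (p : ℕ) (hp : ¬ 13 ∣ p) : orderOf ((p : ℕ) : ZMod 13) ≠ 0 := by
  have hne : ((p : ℕ) : ZMod 13) ≠ 0 := by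
    rwa [Ne, ZMod.natCast_eq_zero_iff]
  have h12 : ((p : ℕ) : ZMod 13) ^ 12 = 1 := ZMod.pow_card_sub_one_eq_one hne
  have hdvd := orderOf_dvd_of_pow_eq_one h12
  intro h0
  rw [h0] at hdvd
  simp at hdvd

theorem orderOf_two_zmod13 : orderOf ((2 : ℕ) : ZMod 13) = 12 := by
  rw [orderOf_eq_iff (by norm_num)]
  decide

theorem orderOf_five_zmod13 : orderOf ((5 : ℕ) : ZMod 13) = 4 := by
  rw [orderOf_eq_iff (by norm_num)]
  decide

theorem orderOf_seven_zmod13 : orderOf ((7 : ℕ) : ZMod 13) = 12 := by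
  rw [orderOf_eq_iff (by norm_num)]
  decide

theorem orderOf_eleven_zmod13 : orderOf ((11 : ℕ) : ZMod 13) = 12 := by
  rw [orderOf_eq_iff (by norm_num)]
  decide

theorem orderOf_seventeen_zmod13 : orderOf ((17 : ℕ) : ZMod 13) = 6 := by
  rw [orderOf_eq_iff (by norm_num)]
  decide

/-- the non special primes have large norm -/
theorem lt_pow_orderOf (p : ℕ) (hp : p.Prime) (hp306 : p ≤ 306)
    (hS : ¬ (p = 3 ∨ p = 13 ∨ p = 53 ∨ p = 79 ∨ p = 131 ∨ p = 157)) :
    306 < p ^ orderOf ((p : ℕ) : ZMod 13) := by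
  have h13 : ¬ 13 ∣ p := by
    intro h
    have := (Nat.prime_dvd_prime_iff_eq (by norm_num : Nat.Prime 13) hp).mp h
    exact hS (Or.inr (Or.inl this.symm))
  have hf0 := orderOf_ne_zero_zmod13 p h13
  by_cases hbig : 18 ≤ p
  · by_cases hmod : p % 13 = 1
    · exfalso
      obtain ⟨k, hk⟩ : ∃ k, p = 13 * k + 1 := ⟨p / 13, by omega⟩
      have hk23 : k ≤ 23 := by omega
      subst hk
      interval_cases k
      all_goals first
        | omega
        | (revert hp; norm_num)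
    · have hf1 : orderOf ((p : ℕ) : ZMod 13) ≠ 1 := by
        rw [Ne, orderOf_eq_one_iff]
        intro h1
        have h2 : ((p : ℕ) : ZMod 13) = ((1 : ℕ) : ZMod 13) := by simpa using h1
        rw [ZMod.natCast_eq_natCast_iff'] at h2
        omega
      have hf2 : 2 ≤ orderOf ((p : ℕ) : ZMod 13) := by omega
      calc 306 < 18 ^ 2 := by norm_num
        _ ≤ p ^ 2 := Nat.pow_le_pow_left hbig 2
        _ ≤ p ^ orderOf ((p : ℕ) : ZMod 13) := Nat.pow_le_pow_right hp.pos hf2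
  · have hp2 := hp.two_le
    have hlt : p < 18 := by omega
    interval_cases p
    · rw [orderOf_two_zmod13]; norm_num
    · exact absurd (Or.inl rfl) hS
    · exact absurd hp (by norm_num)
    · rw [orderOf_five_zmod13]; norm_num
    · exact absurd hp (by norm_num)
    · rw [orderOf_seven_zmod13]; norm_num
    · exact absurd hp (by norm_num)
    · exact absurd hp (by norm_num)
    · exact absurd hp (by norm_num)
    · rw [orderOf_eleven_zmod13]; norm_num
    · exact absurd hp (by norm_num)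
    · exact absurd (Or.inr (Or.inl rfl)) hS
    · exact absurd hp (by norm_num)
    · exact absurd hp (by norm_num)
    · exact absurd hp (by norm_num)
    · rw [orderOf_seventeen_zmod13]; norm_num

/-- The ring of integers of the 13-th cyclotomic field is a PID. -/
theorem pid13 (K : Type*) [Field K] [NumberField K] [IsCyclotomicExtension {13} ℚ K] :
    IsPrincipalIdealRing (𝓞 K) := by
  have hM := minkowski13 K
  have hfloor : ⌊(4 / π) ^ nrComplexPlaces K *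
      ((finrank ℚ K)! / (finrank ℚ K) ^ (finrank ℚ K) * √|discr K|)⌋₊ ≤ 306 := by
    rw [← Nat.lt_succ_iff, Nat.floor_lt (by positivity)]
    exact_mod_cast hM
  have hgal : IsGalois ℚ K := IsCyclotomicExtension.isGalois {13} ℚ K
  have hζ := IsCyclotomicExtension.zeta_spec 13 ℚ K
  apply RingOfIntegers.isPrincipalIdealRing_of_isPrincipal_of_lt_or_isPrincipal_of_mem_primesOver_of_mem_Icc
  intro p hp hpprime
  have hp306 : p ≤ 306 := le_trans (Finset.mem_Icc.mp hp).2 hfloor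
  by_cases hS : p = 3 ∨ p = 13 ∨ p = 53 ∨ p = 79 ∨ p = 131 ∨ p = 157
  · rcases hS with rfl | rfl | rfl | rfl | rfl | rfl
    · exact ⟨_, mem_primesOver_3 hζ, Or.inr ⟨_, rfl⟩⟩
    · exact ⟨_, mem_primesOver_13 hζ, Or.inr ⟨_, rfl⟩⟩
    · exact ⟨_, mem_primesOver_53 hζ, Or.inr ⟨_, rfl⟩⟩
    · exact ⟨_, mem_primesOver_79 hζ, Or.inr ⟨_, rfl⟩⟩
    · exact ⟨_, mem_primesOver_131 hζ, Or.inr ⟨_, rfl⟩⟩
    · exact ⟨_, mem_primesOver_157 hζ, Or.inr ⟨_, rfl⟩⟩
  · have : Fact p.Prime := ⟨hpprime⟩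
    obtain ⟨⟨P, hP1, hP2⟩⟩ := (span {(p : ℤ)}).nonempty_primesOver (S := 𝓞 K)
    refine ⟨P, ⟨hP1, hP2⟩, Or.inl ?_⟩
    have h13 : ¬ p ∣ 13 := by
      intro h
      have := (Nat.prime_dvd_prime_iff_eq hpprime (by norm_num : Nat.Prime 13)).mp h
      exact hS (Or.inr (Or.inl this))
    rw [IsCyclotomicExtension.Rat.inertiaDeg_eq_of_not_dvd (m := 13) p K P h13]
    exact lt_of_le_of_lt hfloor (lt_pow_orderOf p hpprime hp306 hS)

end Fermat.Agent.S10_helper3_PID13
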