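import Mathlib
import Fermat.Agent.S10_helper5_Defs

/-!
# Logarithmic-derivative certificates for Kummer's lemma, `p ∈ {5, 7, 11, 13}`

`dlogCert_five`, `dlogCert_seven`, `dlogCert_eleven`, `dlogCert_thirteen` :
`Fermat.Agent.S10_helper5_Defs.DlogCert p`.

(Machine-generated explicit polynomial identities, checked by `ring`/`linear_combination`.)
-/

set_option autoImplicit false
set_option linter.unusedSimpArgs false
set_option linter.unreachableTactic false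
set_option linter.unusedTactic false
set_option linter.unnecessarySeqFocus false

open Polynomial Fermat.Agent.S10_helper5_Defs

namespace Fermat.Agent.S10_helper5_Cert

theorem dlogCert_five : DlogCert 5 := by
  intro e h
  have hr : (5 - 1) / 2 = 2 := by norm_num
  rw [hr] at h ⊢
  simp only [show (5 - 2 : ℕ) = 3 by norm_num] at h
  have hp : (5 : ZMod 5) = 0 := by decide
  have hpX : (5 : (ZMod 5)[X]) = 0 := by
    rw [← map_ofNat (C : ZMod 5 →+* (ZMod 5)[X]) 5, hp, map_zero]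
  have hP0 : unitPoly 5 0 = 1 + X := by simp [unitPoly]
  have hP1 : unitPoly 5 1 = 2 + X := by
    rw [unitPoly, if_neg (by norm_num)]
    simp only [Finset.sum_range_succ, Finset.sum_range_zero]
    ring
  have hD0 : derivative (unitPoly 5 0) = 1 := by
    rw [hP0]
    simp [C_ofNat] <;> ring
  have hD1 : derivative (unitPoly 5 1) = 1 := by
    rw [hP1]
    simp [C_ofNat] <;> ring
  have hE0 : (Finset.range 2).erase 0 = {1} := by decide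
  have hE1 : (Finset.range 2).erase 1 = {0} := by decide
  have hQ0 : (1 : (ZMod 5)[X]) * (2 + X) =
      (2 + X) + X ^ 3 * (0) := by
    linear_combination (0) * hpX
  have hQ1 : (1 : (ZMod 5)[X]) * (1 + X) =
      (1 + X) + X ^ 3 * (0) := by
    linear_combination (0) * hpX
  have hsum : ∑ i ∈ Finset.range 2,
        C (e i) * (derivative (unitPoly 5 i) *
          ∏ j ∈ (Finset.range 2).erase i, unitPoly 5 j) =
      (C (e 0) * (2 + X) + C (e 1) * (1 + X)) +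
        X ^ 3 * (C (e 0) * (0) + C (e 1) * (0)) := by
    simp only [Finset.sum_range_succ, Finset.sum_range_zero, hE0, hE1]
    simp only [Finset.prod_insert, Finset.prod_singleton, Finset.mem_insert, Finset.mem_singleton,
      not_false_eq_true, OfNat.ofNat_ne_zero, OfNat.zero_ne_ofNat, OfNat.ofNat_ne_one, OfNat.one_ne_ofNat,
      zero_ne_one, one_ne_zero, Nat.reduceEqDiff, or_self, or_false]
    rw [hD0, hD1, hP0, hP1]
    linear_combination C (e 0) * hQ0 + C (e 1) * hQ1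
  rw [hsum] at h
  have h' := Polynomial.X_pow_dvd_iff.mp ((dvd_add_left (dvd_mul_right _ _)).mp h)
  have c0 := h' 0 (by norm_num)
  have c1 := h' 1 (by norm_num)
  simp only [coeff_add, coeff_C_mul, coeff_ofNat_mul, coeff_X_pow, coeff_X, coeff_one,
    coeff_ofNat_zero, coeff_ofNat_succ] at c0 c1
  norm_num at c0 c1
  have e0 : e 0 = 0 := by
    linear_combination (1) * c0 + (-1) * c1
  have e1 : e 1 = 0 := by
    linear_combination (-1) * c0 + (2) * c1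
  intro i hi
  interval_cases i
  exacts [e0, e1]

theorem dlogCert_seven : DlogCert 7 := by
  intro e h
  have hr : (7 - 1) / 2 = 3 := by norm_num
  rw [hr] at h ⊢
  simp only [show (7 - 2 : ℕ) = 5 by norm_num] at h
  have hp : (7 : ZMod 7) = 0 := by decide
  have hpX : (7 : (ZMod 7)[X]) = 0 := by
    rw [← map_ofNat (C : ZMod 7 →+* (ZMod 7)[X]) 7, hp, map_zero]
  have hP0 : unitPoly 7 0 = 1 + X := by simp [unitPoly]
  have hP1 : unitPoly 7 1 = 2 + X := by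
    rw [unitPoly, if_neg (by norm_num)]
    simp only [Finset.sum_range_succ, Finset.sum_range_zero]
    ring
  have hP2 : unitPoly 7 2 = 3 + 3 * X + X ^ 2 := by
    rw [unitPoly, if_neg (by norm_num)]
    simp only [Finset.sum_range_succ, Finset.sum_range_zero]
    ring
  have hD0 : derivative (unitPoly 7 0) = 1 := by
    rw [hP0]
    simp [C_ofNat] <;> ring
  have hD1 : derivative (unitPoly 7 1) = 1 := by
    rw [hP1]
    simp [C_ofNat] <;> ring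
  have hD2 : derivative (unitPoly 7 2) = 3 + 2 * X := by
    rw [hP2]
    simp [C_ofNat] <;> ring
  have hE0 : (Finset.range 3).erase 0 = {1, 2} := by decide
  have hE1 : (Finset.range 3).erase 1 = {0, 2} := by decide
  have hE2 : (Finset.range 3).erase 2 = {0, 1} := by decide
  have hQ0 : (1 : (ZMod 7)[X]) * ((2 + X) * (3 + 3 * X + X ^ 2)) =
      (6 + 2 * X + 5 * X ^ 2 + X ^ 3) + X ^ 5 * (0) := by
    linear_combination (X) * hpX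
  have hQ1 : (1 : (ZMod 7)[X]) * ((1 + X) * (3 + 3 * X + X ^ 2)) =
      (3 + 6 * X + 4 * X ^ 2 + X ^ 3) + X ^ 5 * (0) := by
    linear_combination (0) * hpX
  have hQ2 : (3 + 2 * X : (ZMod 7)[X]) * ((1 + X) * (2 + X)) =
      (6 + 6 * X + 2 * X ^ 2 + 2 * X ^ 3) + X ^ 5 * (0) := by
    linear_combination (X + X ^ 2) * hpX
  have hsum : ∑ i ∈ Finset.range 3,
        C (e i) * (derivative (unitPoly 7 i) *
          ∏ j ∈ (Finset.range 3).erase i, unitPoly 7 j) =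
      (C (e 0) * (6 + 2 * X + 5 * X ^ 2 + X ^ 3) + C (e 1) * (3 + 6 * X + 4 * X ^ 2 + X ^ 3) + C (e 2) * (6 + 6 * X + 2 * X ^ 2 + 2 * X ^ 3)) +
        X ^ 5 * (C (e 0) * (0) + C (e 1) * (0) + C (e 2) * (0)) := by
    simp only [Finset.sum_range_succ, Finset.sum_range_zero, hE0, hE1, hE2]
    simp only [Finset.prod_insert, Finset.prod_singleton, Finset.mem_insert, Finset.mem_singleton,
      not_false_eq_true, OfNat.ofNat_ne_zero, OfNat.zero_ne_ofNat, OfNat.ofNat_ne_one, OfNat.one_ne_ofNat,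
      zero_ne_one, one_ne_zero, Nat.reduceEqDiff, or_self, or_false]
    rw [hD0, hD1, hD2, hP0, hP1, hP2]
    linear_combination C (e 0) * hQ0 + C (e 1) * hQ1 + C (e 2) * hQ2
  rw [hsum] at h
  have h' := Polynomial.X_pow_dvd_iff.mp ((dvd_add_left (dvd_mul_right _ _)).mp h)
  have c0 := h' 0 (by norm_num)
  have c1 := h' 1 (by norm_num)
  have c3 := h' 3 (by norm_num)
  simp only [coeff_add, coeff_C_mul, coeff_ofNat_mul, coeff_X_pow, coeff_X, coeff_one,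
    coeff_ofNat_zero, coeff_ofNat_succ] at c0 c1 c3
  norm_num at c0 c1 c3
  have e0 : e 0 = 0 := by
    linear_combination (-2) * c0 + (-1) * c3 - ((-2) * e 0 + (-1) * e 1 + (-2) * e 2) * hp
  have e1 : e 1 = 0 := by
    linear_combination (-3) * c0 + (-2) * c1 + (1) * c3 - ((-3) * e 0 + (-3) * e 1 + (-4) * e 2) * hp
  have e2 : e 2 = 0 := by
    linear_combination (-1) * c0 + (1) * c1 + (-3) * c3 - ((-1) * e 0 + (-1) * e 2) * hp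
  intro i hi
  interval_cases i
  exacts [e0, e1, e2]

set_option maxHeartbeats 4000000 in
theorem dlogCert_eleven : DlogCert 11 := by
  intro e h
  have hr : (11 - 1) / 2 = 5 := by norm_num
  rw [hr] at h ⊢
  simp only [show (11 - 2 : ℕ) = 9 by norm_num] at h
  have hp : (11 : ZMod 11) = 0 := by decide
  have hpX : (11 : (ZMod 11)[X]) = 0 := by
    rw [← map_ofNat (C : ZMod 11 →+* (ZMod 11)[X]) 11, hp, map_zero]
  have hP0 : unitPoly 11 0 = 1 + X := by simp [unitPoly]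
  have hP1 : unitPoly 11 1 = 2 + X := by
    rw [unitPoly, if_neg (by norm_num)]
    simp only [Finset.sum_range_succ, Finset.sum_range_zero]
    ring
  have hP2 : unitPoly 11 2 = 3 + 3 * X + X ^ 2 := by
    rw [unitPoly, if_neg (by norm_num)]
    simp only [Finset.sum_range_succ, Finset.sum_range_zero]
    ring
  have hP3 : unitPoly 11 3 = 4 + 6 * X + 4 * X ^ 2 + X ^ 3 := by
    rw [unitPoly, if_neg (by norm_num)]
    simp only [Finset.sum_range_succ, Finset.sum_range_zero]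
    ring
  have hP4 : unitPoly 11 4 = 5 + 10 * X + 10 * X ^ 2 + 5 * X ^ 3 + X ^ 4 := by
    rw [unitPoly, if_neg (by norm_num)]
    simp only [Finset.sum_range_succ, Finset.sum_range_zero]
    ring
  have hD0 : derivative (unitPoly 11 0) = 1 := by
    rw [hP0]
    simp [C_ofNat] <;> ring
  have hD1 : derivative (unitPoly 11 1) = 1 := by
    rw [hP1]
    simp [C_ofNat] <;> ring
  have hD2 : derivative (unitPoly 11 2) = 3 + 2 * X := by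
    rw [hP2]
    simp [C_ofNat] <;> ring
  have hD3 : derivative (unitPoly 11 3) = 6 + 8 * X + 3 * X ^ 2 := by
    rw [hP3]
    simp [C_ofNat] <;> ring
  have hD4 : derivative (unitPoly 11 4) = 10 + 20 * X + 15 * X ^ 2 + 4 * X ^ 3 := by
    rw [hP4]
    simp [C_ofNat] <;> ring
  have hE0 : (Finset.range 5).erase 0 = {1, 2, 3, 4} := by decide
  have hE1 : (Finset.range 5).erase 1 = {0, 2, 3, 4} := by decide
  have hE2 : (Finset.range 5).erase 2 = {0, 1, 3, 4} := by decide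
  have hE3 : (Finset.range 5).erase 3 = {0, 1, 2, 4} := by decide
  have hE4 : (Finset.range 5).erase 4 = {0, 1, 2, 3} := by decide
  have hQ0 : (1 : (ZMod 11)[X]) * ((2 + X) * ((3 + 3 * X + X ^ 2) * ((4 + 6 * X + 4 * X ^ 2 + X ^ 3) * (5 + 10 * X + 10 * X ^ 2 + 5 * X ^ 3 + X ^ 4)))) =
      (10 + 6 * X + 9 * X ^ 2 + X ^ 5 + 10 * X ^ 6 + 10 * X ^ 7 + 2 * X ^ 8) + X ^ 9 * (3 + X) := by
    linear_combination (10 + 54 * X + 131 * X ^ 2 + 200 * X ^ 3 + 209 * X ^ 4 + 156 * X ^ 5 + 83 * X ^ 6 + 31 * X ^ 7 + 8 * X ^ 8 + X ^ 9) * hpX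
  have hQ1 : (1 : (ZMod 11)[X]) * ((1 + X) * ((3 + 3 * X + X ^ 2) * ((4 + 6 * X + 4 * X ^ 2 + X ^ 3) * (5 + 10 * X + 10 * X ^ 2 + 5 * X ^ 3 + X ^ 4)))) =
      (5 + 2 * X ^ 2 + 9 * X ^ 3 + X ^ 4 + 10 * X ^ 7 + X ^ 8) + X ^ 9 * (2 + X) := by
    linear_combination (5 + 30 * X + 78 * X ^ 2 + 126 * X ^ 3 + 141 * X ^ 4 + 112 * X ^ 5 + 64 * X ^ 6 + 25 * X ^ 7 + 7 * X ^ 8 + X ^ 9) * hpX
  have hQ2 : (3 + 2 * X : (ZMod 11)[X]) * ((1 + X) * ((2 + X) * ((4 + 6 * X + 4 * X ^ 2 + X ^ 3) * (5 + 10 * X + 10 * X ^ 2 + 5 * X ^ 3 + X ^ 4)))) =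
      (10 + 9 * X + 6 * X ^ 2 + 10 * X ^ 3 + 5 * X ^ 4 + 10 * X ^ 6 + 10 * X ^ 7 + X ^ 8) + X ^ 9 * (5 + 2 * X) := by
    linear_combination (10 + 61 * X + 164 * X ^ 2 + 270 * X ^ 3 + 304 * X ^ 4 + 243 * X ^ 5 + 138 * X ^ 6 + 55 * X ^ 7 + 15 * X ^ 8 + 2 * X ^ 9) * hpX
  have hQ3 : (6 + 8 * X + 3 * X ^ 2 : (ZMod 11)[X]) * ((1 + X) * ((2 + X) * ((3 + 3 * X + X ^ 2) * (5 + 10 * X + 10 * X ^ 2 + 5 * X ^ 3 + X ^ 4)))) =
      (4 + 5 * X + X ^ 2 + 4 * X ^ 3 + 10 * X ^ 4 + 2 * X ^ 6 + 6 * X ^ 7 + 3 * X ^ 8) + X ^ 9 * (8 + 3 * X) := by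
    linear_combination (16 + 95 * X + 259 * X ^ 2 + 431 * X ^ 3 + 486 * X ^ 4 + 388 * X ^ 5 + 220 * X ^ 6 + 87 * X ^ 7 + 23 * X ^ 8 + 3 * X ^ 9) * hpX
  have hQ4 : (10 + 20 * X + 15 * X ^ 2 + 4 * X ^ 3 : (ZMod 11)[X]) * ((1 + X) * ((2 + X) * ((3 + 3 * X + X ^ 2) * (4 + 6 * X + 4 * X ^ 2 + X ^ 3)))) =
      (9 + 10 * X + 9 * X ^ 2 + 10 * X ^ 3 + 10 * X ^ 5 + 8 * X ^ 6 + 5 * X ^ 7 + 5 * X ^ 8) + X ^ 9 * (4 * X) := by
    linear_combination (21 + 130 * X + 361 * X ^ 2 + 606 * X ^ 3 + 684 * X ^ 4 + 540 * X ^ 5 + 303 * X ^ 6 + 119 * X ^ 7 + 31 * X ^ 8 + 5 * X ^ 9) * hpX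
  have hsum : ∑ i ∈ Finset.range 5,
        C (e i) * (derivative (unitPoly 11 i) *
          ∏ j ∈ (Finset.range 5).erase i, unitPoly 11 j) =
      (C (e 0) * (10 + 6 * X + 9 * X ^ 2 + X ^ 5 + 10 * X ^ 6 + 10 * X ^ 7 + 2 * X ^ 8) + C (e 1) * (5 + 2 * X ^ 2 + 9 * X ^ 3 + X ^ 4 + 10 * X ^ 7 + X ^ 8) + C (e 2) * (10 + 9 * X + 6 * X ^ 2 + 10 * X ^ 3 + 5 * X ^ 4 + 10 * X ^ 6 + 10 * X ^ 7 + X ^ 8) + C (e 3) * (4 + 5 * X + X ^ 2 + 4 * X ^ 3 + 10 * X ^ 4 + 2 * X ^ 6 + 6 * X ^ 7 + 3 * X ^ 8) + C (e 4) * (9 + 10 * X + 9 * X ^ 2 + 10 * X ^ 3 + 10 * X ^ 5 + 8 * X ^ 6 + 5 * X ^ 7 + 5 * X ^ 8)) +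
        X ^ 9 * (C (e 0) * (3 + X) + C (e 1) * (2 + X) + C (e 2) * (5 + 2 * X) + C (e 3) * (8 + 3 * X) + C (e 4) * (4 * X)) := by
    simp only [Finset.sum_range_succ, Finset.sum_range_zero, hE0, hE1, hE2, hE3, hE4]
    simp only [Finset.prod_insert, Finset.prod_singleton, Finset.mem_insert, Finset.mem_singleton,
      not_false_eq_true, OfNat.ofNat_ne_zero, OfNat.zero_ne_ofNat, OfNat.ofNat_ne_one, OfNat.one_ne_ofNat,
      zero_ne_one, one_ne_zero, Nat.reduceEqDiff, or_self, or_false]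
    rw [hD0, hD1, hD2, hD3, hD4, hP0, hP1, hP2, hP3, hP4]
    linear_combination C (e 0) * hQ0 + C (e 1) * hQ1 + C (e 2) * hQ2 + C (e 3) * hQ3 + C (e 4) * hQ4
  rw [hsum] at h
  have h' := Polynomial.X_pow_dvd_iff.mp ((dvd_add_left (dvd_mul_right _ _)).mp h)
  have c0 := h' 0 (by norm_num)
  have c1 := h' 1 (by norm_num)
  have c3 := h' 3 (by norm_num)
  have c5 := h' 5 (by norm_num)
  have c7 := h' 7 (by norm_num)
  simp only [coeff_add, coeff_C_mul, coeff_ofNat_mul, coeff_X_pow, coeff_X, coeff_one,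
    coeff_ofNat_zero, coeff_ofNat_succ] at c0 c1 c3 c5 c7
  norm_num at c0 c1 c3 c5 c7
  have e0 : e 0 = 0 := by
    linear_combination (5) * c1 + (-1) * c3 + (-5) * c5 + (2) * c7 - ((4) * e 0 + (1) * e 1 + (5) * e 2 + (3) * e 3) * hp
  have e1 : e 1 = 0 := by
    linear_combination (-3) * c0 + (3) * c1 + (-2) * c3 + (-1) * c7 - ((-2) * e 0 + (-4) * e 1 + (-3) * e 2 + (-1) * e 3 + (-2) * e 4) * hp
  have e2 : e 2 = 0 := by
    linear_combination (1) * c0 + (-1) * c1 + (5) * c3 + (2) * c5 + (-5) * c7 - ((-4) * e 0 + (-1) * e 3 + (4) * e 4) * hp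
  have e3 : e 3 = 0 := by
    linear_combination (-4) * c0 + (-3) * c1 + (3) * c3 + (-1) * c5 + (-4) * c7 - ((-9) * e 0 + (-3) * e 1 + (-7) * e 2 + (-4) * e 3 + (-6) * e 4) * hp
  have e4 : e 4 = 0 := by
    linear_combination (5) * c1 + (-1) * c3 + (5) * c5 + (2) * c7 - ((5) * e 0 + (1) * e 1 + (5) * e 2 + (3) * e 3 + (9) * e 4) * hp
  intro i hi
  interval_cases i
  exacts [e0, e1, e2, e3, e4]

set_option maxHeartbeats 4000000 in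
theorem dlogCert_thirteen : DlogCert 13 := by
  intro e h
  have hr : (13 - 1) / 2 = 6 := by norm_num
  rw [hr] at h ⊢
  simp only [show (13 - 2 : ℕ) = 11 by norm_num] at h
  have hp : (13 : ZMod 13) = 0 := by decide
  have hpX : (13 : (ZMod 13)[X]) = 0 := by
    rw [← map_ofNat (C : ZMod 13 →+* (ZMod 13)[X]) 13, hp, map_zero]
  have hP0 : unitPoly 13 0 = 1 + X := by simp [unitPoly]
  have hP1 : unitPoly 13 1 = 2 + X := by
    rw [unitPoly, if_neg (by norm_num)]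
    simp only [Finset.sum_range_succ, Finset.sum_range_zero]
    ring
  have hP2 : unitPoly 13 2 = 3 + 3 * X + X ^ 2 := by
    rw [unitPoly, if_neg (by norm_num)]
    simp only [Finset.sum_range_succ, Finset.sum_range_zero]
    ring
  have hP3 : unitPoly 13 3 = 4 + 6 * X + 4 * X ^ 2 + X ^ 3 := by
    rw [unitPoly, if_neg (by norm_num)]
    simp only [Finset.sum_range_succ, Finset.sum_range_zero]
    ring
  have hP4 : unitPoly 13 4 = 5 + 10 * X + 10 * X ^ 2 + 5 * X ^ 3 + X ^ 4 := by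
    rw [unitPoly, if_neg (by norm_num)]
    simp only [Finset.sum_range_succ, Finset.sum_range_zero]
    ring
  have hP5 : unitPoly 13 5 = 6 + 15 * X + 20 * X ^ 2 + 15 * X ^ 3 + 6 * X ^ 4 + X ^ 5 := by
    rw [unitPoly, if_neg (by norm_num)]
    simp only [Finset.sum_range_succ, Finset.sum_range_zero]
    ring
  have hD0 : derivative (unitPoly 13 0) = 1 := by
    rw [hP0]
    simp [C_ofNat] <;> ring
  have hD1 : derivative (unitPoly 13 1) = 1 := by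
    rw [hP1]
    simp [C_ofNat] <;> ring
  have hD2 : derivative (unitPoly 13 2) = 3 + 2 * X := by
    rw [hP2]
    simp [C_ofNat] <;> ring
  have hD3 : derivative (unitPoly 13 3) = 6 + 8 * X + 3 * X ^ 2 := by
    rw [hP3]
    simp [C_ofNat] <;> ring
  have hD4 : derivative (unitPoly 13 4) = 10 + 20 * X + 15 * X ^ 2 + 4 * X ^ 3 := by
    rw [hP4]
    simp [C_ofNat] <;> ring
  have hD5 : derivative (unitPoly 13 5) = 15 + 40 * X + 45 * X ^ 2 + 24 * X ^ 3 + 5 * X ^ 4 := by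
    rw [hP5]
    simp [C_ofNat] <;> ring
  have hE0 : (Finset.range 6).erase 0 = {1, 2, 3, 4, 5} := by decide
  have hE1 : (Finset.range 6).erase 1 = {0, 2, 3, 4, 5} := by decide
  have hE2 : (Finset.range 6).erase 2 = {0, 1, 3, 4, 5} := by decide
  have hE3 : (Finset.range 6).erase 3 = {0, 1, 2, 4, 5} := by decide
  have hE4 : (Finset.range 6).erase 4 = {0, 1, 2, 3, 5} := by decide
  have hE5 : (Finset.range 6).erase 5 = {0, 1, 2, 3, 4} := by decide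
  have hQ0 : (1 : (ZMod 13)[X]) * ((2 + X) * ((3 + 3 * X + X ^ 2) * ((4 + 6 * X + 4 * X ^ 2 + X ^ 3) * ((5 + 10 * X + 10 * X ^ 2 + 5 * X ^ 3 + X ^ 4) * (6 + 15 * X + 20 * X ^ 2 + 15 * X ^ 3 + 6 * X ^ 4 + X ^ 5))))) =
      (5 + 5 * X + 2 * X ^ 2 + 12 * X ^ 6 + 2 * X ^ 7 + 8 * X ^ 9 + 2 * X ^ 10) + X ^ 11 * (7 + 3 * X + 7 * X ^ 2 + 7 * X ^ 3 + X ^ 4) := by
    linear_combination (55 + 415 * X + 1546 * X ^ 2 + 3750 * X ^ 3 + 6578 * X ^ 4 + 8789 * X ^ 5 + 9197 * X ^ 6 + 7648 * X ^ 7 + 5078 * X ^ 8 + 2684 * X ^ 9 + 1118 * X ^ 10 + 359 * X ^ 11 + 86 * X ^ 12 + 14 * X ^ 13 + X ^ 14) * hpX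
  have hQ1 : (1 : (ZMod 13)[X]) * ((1 + X) * ((3 + 3 * X + X ^ 2) * ((4 + 6 * X + 4 * X ^ 2 + X ^ 3) * ((5 + 10 * X + 10 * X ^ 2 + 5 * X ^ 3 + X ^ 4) * (6 + 15 * X + 20 * X ^ 2 + 15 * X ^ 3 + 6 * X ^ 4 + X ^ 5))))) =
      (9 + 7 * X + X ^ 3 + 6 * X ^ 4 + 10 * X ^ 5 + X ^ 6 + X ^ 8 + 10 * X ^ 9) + X ^ 11 * (11 + 6 * X + 2 * X ^ 2 + 6 * X ^ 3 + X ^ 4) := by
    linear_combination (27 + 221 * X + 870 * X ^ 2 + 2213 * X ^ 3 + 4057 * X ^ 4 + 5654 * X ^ 5 + 6166 * X ^ 6 + 5340 * X ^ 7 + 3693 * X ^ 8 + 2034 * X ^ 9 + 884 * X ^ 10 + 296 * X ^ 11 + 74 * X ^ 12 + 13 * X ^ 13 + X ^ 14) * hpX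
  have hQ2 : (3 + 2 * X : (ZMod 13)[X]) * ((1 + X) * ((2 + X) * ((4 + 6 * X + 4 * X ^ 2 + X ^ 3) * ((5 + 10 * X + 10 * X ^ 2 + 5 * X ^ 3 + X ^ 4) * (6 + 15 * X + 20 * X ^ 2 + 15 * X ^ 3 + 6 * X ^ 4 + X ^ 5))))) =
      (5 + 4 * X + 8 * X ^ 2 + 6 * X ^ 3 + 10 * X ^ 4 + X ^ 5 + 12 * X ^ 6 + X ^ 7 + 2 * X ^ 8 + 7 * X ^ 9 + 12 * X ^ 10) + X ^ 11 * (10 + 2 * X + 7 * X ^ 2 + 2 * X ^ 4) := by
    linear_combination (55 + 452 * X + 1804 * X ^ 2 + 4648 * X ^ 3 + 8608 * X ^ 4 + 12094 * X ^ 5 + 13267 * X ^ 6 + 11538 * X ^ 7 + 7996 * X ^ 8 + 4404 * X ^ 9 + 1907 * X ^ 10 + 636 * X ^ 11 + 158 * X ^ 12 + 27 * X ^ 13 + 3 * X ^ 14) * hpX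
  have hQ3 : (6 + 8 * X + 3 * X ^ 2 : (ZMod 13)[X]) * ((1 + X) * ((2 + X) * ((3 + 3 * X + X ^ 2) * ((5 + 10 * X + 10 * X ^ 2 + 5 * X ^ 3 + X ^ 4) * (6 + 15 * X + 20 * X ^ 2 + 15 * X ^ 3 + 6 * X ^ 4 + X ^ 5))))) =
      (1 + 4 * X + 11 * X ^ 2 + 7 * X ^ 3 + 3 * X ^ 4 + 10 * X ^ 5 + 8 * X ^ 6 + 6 * X ^ 7 + X ^ 8 + 4 * X ^ 9 + 11 * X ^ 10) + X ^ 11 * (9 + 2 * X + X ^ 2 + 7 * X ^ 3 + 3 * X ^ 4) := by
    linear_combination (83 + 692 * X + 2803 * X ^ 2 + 7301 * X ^ 3 + 13626 * X ^ 4 + 19236 * X ^ 5 + 21153 * X ^ 6 + 18394 * X ^ 7 + 12717 * X ^ 8 + 6972 * X ^ 9 + 2999 * X ^ 10 + 992 * X ^ 11 + 244 * X ^ 12 + 42 * X ^ 13 + 4 * X ^ 14) * hpX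
  have hQ4 : (10 + 20 * X + 15 * X ^ 2 + 4 * X ^ 3 : (ZMod 13)[X]) * ((1 + X) * ((2 + X) * ((3 + 3 * X + X ^ 2) * ((4 + 6 * X + 4 * X ^ 2 + X ^ 3) * (6 + 15 * X + 20 * X ^ 2 + 15 * X ^ 3 + 6 * X ^ 4 + X ^ 5))))) =
      (10 + 7 * X + 9 * X ^ 2 + 11 * X ^ 3 + X ^ 4 + 11 * X ^ 5 + 7 * X ^ 6 + 3 * X ^ 7 + 5 * X ^ 8 + X ^ 9 + 6 * X ^ 10) + X ^ 11 * (12 + 5 * X + 8 * X ^ 2 + X ^ 3 + 4 * X ^ 4) := by
    linear_combination (110 + 941 * X + 3867 * X ^ 2 + 10165 * X ^ 3 + 19071 * X ^ 4 + 26973 * X ^ 5 + 29633 * X ^ 6 + 25684 * X ^ 7 + 17667 * X ^ 8 + 9626 * X ^ 9 + 4113 * X ^ 10 + 1351 * X ^ 11 + 330 * X ^ 12 + 56 * X ^ 13 + 6 * X ^ 14) * hpX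
  have hQ5 : (15 + 40 * X + 45 * X ^ 2 + 24 * X ^ 3 + 5 * X ^ 4 : (ZMod 13)[X]) * ((1 + X) * ((2 + X) * ((3 + 3 * X + X ^ 2) * ((4 + 6 * X + 4 * X ^ 2 + X ^ 3) * (5 + 10 * X + 10 * X ^ 2 + 5 * X ^ 3 + X ^ 4))))) =
      (6 + 2 * X ^ 2 + X ^ 3 + 6 * X ^ 4 + X ^ 5 + 6 * X ^ 6 + 4 * X ^ 7 + 11 * X ^ 8 + 5 * X ^ 9 + 3 * X ^ 10) + X ^ 11 * (6 + 8 * X + 2 * X ^ 2 + 8 * X ^ 3 + 5 * X ^ 4) := by
    linear_combination (138 + 1200 * X + 4996 * X ^ 2 + 13233 * X ^ 3 + 24893 * X ^ 4 + 35173 * X ^ 5 + 38503 * X ^ 6 + 33204 * X ^ 7 + 22711 * X ^ 8 + 12305 * X ^ 9 + 5231 * X ^ 10 + 1711 * X ^ 11 + 416 * X ^ 12 + 71 * X ^ 13 + 7 * X ^ 14) * hpX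
  have hsum : ∑ i ∈ Finset.range 6,
        C (e i) * (derivative (unitPoly 13 i) *
          ∏ j ∈ (Finset.range 6).erase i, unitPoly 13 j) =
      (C (e 0) * (5 + 5 * X + 2 * X ^ 2 + 12 * X ^ 6 + 2 * X ^ 7 + 8 * X ^ 9 + 2 * X ^ 10) + C (e 1) * (9 + 7 * X + X ^ 3 + 6 * X ^ 4 + 10 * X ^ 5 + X ^ 6 + X ^ 8 + 10 * X ^ 9) + C (e 2) * (5 + 4 * X + 8 * X ^ 2 + 6 * X ^ 3 + 10 * X ^ 4 + X ^ 5 + 12 * X ^ 6 + X ^ 7 + 2 * X ^ 8 + 7 * X ^ 9 + 12 * X ^ 10) + C (e 3) * (1 + 4 * X + 11 * X ^ 2 + 7 * X ^ 3 + 3 * X ^ 4 + 10 * X ^ 5 + 8 * X ^ 6 + 6 * X ^ 7 + X ^ 8 + 4 * X ^ 9 + 11 * X ^ 10) + C (e 4) * (10 + 7 * X + 9 * X ^ 2 + 11 * X ^ 3 + X ^ 4 + 11 * X ^ 5 + 7 * X ^ 6 + 3 * X ^ 7 + 5 * X ^ 8 + X ^ 9 + 6 * X ^ 10) + C (e 5) * (6 + 2 * X ^ 2 + X ^ 3 + 6 * X ^ 4 + X ^ 5 + 6 * X ^ 6 + 4 * X ^ 7 + 11 * X ^ 8 + 5 * X ^ 9 + 3 * X ^ 10)) +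
        X ^ 11 * (C (e 0) * (7 + 3 * X + 7 * X ^ 2 + 7 * X ^ 3 + X ^ 4) + C (e 1) * (11 + 6 * X + 2 * X ^ 2 + 6 * X ^ 3 + X ^ 4) + C (e 2) * (10 + 2 * X + 7 * X ^ 2 + 2 * X ^ 4) + C (e 3) * (9 + 2 * X + X ^ 2 + 7 * X ^ 3 + 3 * X ^ 4) + C (e 4) * (12 + 5 * X + 8 * X ^ 2 + X ^ 3 + 4 * X ^ 4) + C (e 5) * (6 + 8 * X + 2 * X ^ 2 + 8 * X ^ 3 + 5 * X ^ 4)) := by
    simp only [Finset.sum_range_succ, Finset.sum_range_zero, hE0, hE1, hE2, hE3, hE4, hE5]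
    simp only [Finset.prod_insert, Finset.prod_singleton, Finset.mem_insert, Finset.mem_singleton,
      not_false_eq_true, OfNat.ofNat_ne_zero, OfNat.zero_ne_ofNat, OfNat.ofNat_ne_one, OfNat.one_ne_ofNat,
      zero_ne_one, one_ne_zero, Nat.reduceEqDiff, or_self, or_false]
    rw [hD0, hD1, hD2, hD3, hD4, hD5, hP0, hP1, hP2, hP3, hP4, hP5]
    linear_combination C (e 0) * hQ0 + C (e 1) * hQ1 + C (e 2) * hQ2 + C (e 3) * hQ3 + C (e 4) * hQ4 + C (e 5) * hQ5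
  rw [hsum] at h
  have h' := Polynomial.X_pow_dvd_iff.mp ((dvd_add_left (dvd_mul_right _ _)).mp h)
  have c0 := h' 0 (by norm_num)
  have c1 := h' 1 (by norm_num)
  have c3 := h' 3 (by norm_num)
  have c5 := h' 5 (by norm_num)
  have c7 := h' 7 (by norm_num)
  have c9 := h' 9 (by norm_num)
  simp only [coeff_add, coeff_C_mul, coeff_ofNat_mul, coeff_X_pow, coeff_X, coeff_one,
    coeff_ofNat_zero, coeff_ofNat_succ] at c0 c1 c3 c5 c7 c9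
  norm_num at c0 c1 c3 c5 c7 c9
  have e0 : e 0 = 0 := by
    linear_combination (-3) * c0 + (6) * c1 + (-3) * c3 + (-2) * c5 + (-5) * c7 + (6) * c9 - ((4) * e 0 + (4) * e 1 + (2) * e 2 + (-2) * e 3 + (-4) * e 4 + (-1) * e 5) * hp
  have e1 : e 1 = 0 := by
    linear_combination (-1) * c0 + (1) * c1 + (5) * c3 + (-4) * c5 + (3) * c7 + (-4) * c9 - ((-2) * e 0 + (-6) * e 1 + (1) * e 4 + (-1) * e 5) * hp
  have e2 : e 2 = 0 := by
    linear_combination (-1) * c0 + (-3) * c1 + (5) * c3 + (5) * c5 + (-6) * c7 + (4) * c9 - ((5) * e 1 + (3) * e 2 + (4) * e 3 + (5) * e 4) * hp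
  have e3 : e 3 = 0 := by
    linear_combination (-3) * c0 + (5) * c1 + (6) * c3 + (-1) * c5 + (-6) * c7 + (-3) * c9 - ((-2) * e 0 + (-2) * e 1 + (1) * e 2 + (3) * e 4 + (-4) * e 5) * hp
  have e4 : e 4 = 0 := by
    linear_combination (-2) * c0 + (3) * c1 + (2) * c3 + (5) * c5 + (1) * c9 - ((1) * e 0 + (5) * e 1 + (2) * e 2 + (6) * e 3 + (6) * e 4) * hp
  have e5 : e 5 = 0 := by
    linear_combination (-2) * c0 + (1) * c1 + (6) * c3 + (4) * c5 + (-3) * c7 + (3) * c9 - ((1) * e 0 + (5) * e 1 + (4) * e 2 + (6) * e 3 + (7) * e 4) * hp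
  intro i hi
  interval_cases i
  exacts [e0, e1, e2, e3, e4, e5]

end Fermat.Agent.S10_helper5_Cert

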