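import Fermat.Statements.S10
import Fermat.Agent.S10_helper21_Assembly
import Fermat.Agent.S10_helper5_Cert
import Fermat.Agent.S10_helper17_PID7
import Fermat.Agent.S10_helper3_PID13

set_option autoImplicit false
open WeierstrassCurve WeierstrassCurve.Affine WeierstrassCurve.Affine.Point
open CuspForm ModularFormClass UpperHalfPlane
open FreyPackage

namespace Fermat.Agent.S10

/-- Fermat's Last Theorem for the exponents `5`, `7` and `13` (Kummer). -/
theorem flt_five_seven_thirteen (p : ℕ) (hp : p = 5 ∨ p = 7 ∨ p = 13) (a b c : ℤ)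
    (ha : a ≠ 0) (hb : b ≠ 0) (hc : c ≠ 0) : a ^ p + b ^ p ≠ c ^ p := by
  rcases hp with rfl | rfl | rfl
  · have : Fact (Nat.Prime 5) := ⟨by norm_num⟩
    exact Fermat.Agent.S10_helper21_Assembly.flt_of (by norm_num)
      (fun K _ _ _ => IsCyclotomicExtension.Rat.five_pid K)
      Fermat.Agent.S10_helper5_Cert.dlogCert_five a b c ha hb hc
  · have : Fact (Nat.Prime 7) := ⟨by norm_num⟩
    exact Fermat.Agent.S10_helper21_Assembly.flt_of (by norm_num)
      (fun K _ _ _ => Fermat.Agent.S10_helper17_PID7.pid7 K)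
      Fermat.Agent.S10_helper5_Cert.dlogCert_seven a b c ha hb hc
  · have : Fact (Nat.Prime 13) := ⟨by norm_num⟩
    exact Fermat.Agent.S10_helper21_Assembly.flt_of (by norm_num)
      (fun K _ _ _ => Fermat.Agent.S10_helper3_PID13.pid13 K)
      Fermat.Agent.S10_helper5_Cert.dlogCert_thirteen a b c ha hb hc

theorem result (P : FreyPackage) (hp : P.p = 5 ∨ P.p = 7 ∨ P.p = 13) : ¬ HasGaloisStableCofixedLine (K := AlgebraicClosure ℚ) ℚ P.freyCurve P.p := by
  exact absurd P.hFLT (flt_five_seven_thirteen P.p hp P.a P.b P.c P.ha0 P.hb0 P.hc0)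

end Fermat.Agent.S10
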