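import Mathlib

set_option autoImplicit false
set_option linter.style.haveILetI false

open NumberField Polynomial Ideal

namespace Fermat.Agent.S10_helper17_CycPrime

section general

variable {p : ℕ} [hp : Fact p.Prime] {K : Type*} [Field K] [NumberField K]
  [IsCyclotomicExtension {p} ℚ K] {ζ : K} (hζ : IsPrimitiveRoot ζ p)

theorem minpoly_toInteger : minpoly ℤ hζ.toInteger = cyclotomic p ℤ := by
  rw [cyclotomic_eq_minpoly hζ hp.out.pos]
  exact (RingOfIntegers.minpoly_coe hζ.toInteger).symm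

/-- A degree one prime: ring hom `𝓞 K → ZMod q` sending `ζ` to a root `r` of `Φ_p` mod `q`. -/
theorem exists_ringHom (q : ℕ) (r : ZMod q) (hr : (cyclotomic p (ZMod q)).eval r = 0) :
    ∃ φ : 𝓞 K →+* ZMod q, φ hζ.toInteger = r := by
  let pb : PowerBasis ℤ (𝓞 K) := PowerBasis.ofAdjoinEqTop' (RingOfIntegers.isIntegral hζ.toInteger)
    (IsCyclotomicExtension.Rat.adjoin_singleton_eq_top hζ)
  have hgen : pb.gen = hζ.toInteger := PowerBasis.ofAdjoinEqTop'_gen _ _
  have h0 : aeval r (minpoly ℤ pb.gen) = 0 := by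
    rw [hgen, minpoly_toInteger hζ, aeval_def, eval₂_eq_eval_map, map_cyclotomic]
    exact hr
  refine ⟨(pb.lift r h0).toRingHom, ?_⟩
  have := pb.lift_gen r h0
  rw [hgen] at this
  exact this

theorem ker_mem_primesOver (q : ℕ) [Fact q.Prime] (φ : 𝓞 K →+* ZMod q) :
    RingHom.ker φ ∈ primesOver (span {(q : ℤ)}) (𝓞 K) := by
  refine ⟨RingHom.ker_isPrime φ, ⟨?_⟩⟩
  rw [Ideal.under, RingHom.comap_ker, ← ZMod.ker_intCastRingHom q]
  congr 1
  exact RingHom.ext_int _ _

theorem ker_eq_span (q : ℕ) (φ : 𝓞 K →+* ZMod q) (r : ℤ) (hφ : φ hζ.toInteger = (r : ZMod q))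
    (α : 𝓞 K) (hα : φ α = 0) (hq : (q : 𝓞 K) ∈ span {α})
    (hr : hζ.toInteger - (r : 𝓞 K) ∈ span {α}) :
    RingHom.ker φ = span {α} := by
  apply le_antisymm
  · intro x hx
    rw [RingHom.mem_ker] at hx
    have hx' : x ∈ Algebra.adjoin ℤ {hζ.toInteger} := by
      rw [IsCyclotomicExtension.Rat.adjoin_singleton_eq_top hζ]
      exact Algebra.mem_top
    rw [Algebra.adjoin_singleton_eq_range_aeval] at hx'
    obtain ⟨g, rfl⟩ := hx'
    set G : (𝓞 K)[X] := g.map (algebraMap ℤ (𝓞 K)) with hG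
    have e1 : aeval hζ.toInteger g = G.eval hζ.toInteger := by
      rw [hG, aeval_def, eval₂_eq_eval_map]
    have e2 : G.eval (r : 𝓞 K) = ((g.eval r : ℤ) : 𝓞 K) := by
      rw [hG]
      have := Polynomial.eval_map_apply (algebraMap ℤ (𝓞 K)) (p := g) r
      simp
    have hdvd : hζ.toInteger - (r : 𝓞 K) ∣ G.eval hζ.toInteger - G.eval (r : 𝓞 K) :=
      sub_dvd_eval_sub _ _ _
    obtain ⟨c, hc⟩ := hdvd
    have e3 : (aeval hζ.toInteger) g = (hζ.toInteger - (r : 𝓞 K)) * c + ((g.eval r : ℤ) : 𝓞 K) := by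
      rw [e1, ← e2, ← hc]
      ring
    have hφr : φ (hζ.toInteger - (r : 𝓞 K)) = 0 := by
      rw [map_sub, hφ, map_intCast, sub_self]
    have hz : ((g.eval r : ℤ) : ZMod q) = 0 := by
      have h := hx
      rw [AlgHom.toRingHom_eq_coe, RingHom.coe_coe, e3, map_add, map_mul, hφr, zero_mul, zero_add,
        map_intCast] at h
      exact h
    rw [ZMod.intCast_zmod_eq_zero_iff_dvd] at hz
    obtain ⟨k, hk⟩ := hz
    rw [AlgHom.toRingHom_eq_coe, RingHom.coe_coe, e3, hk]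
    refine Ideal.add_mem _ (Ideal.mul_mem_right _ _ hr) ?_
    push_cast
    exact Ideal.mul_mem_right _ _ hq
  · rw [Ideal.span_le, Set.singleton_subset_iff]
    exact hα

end general

end Fermat.Agent.S10_helper17_CycPrime
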