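import Mathlib
import Fermat.Agent.S10_helper17_CycPrime

set_option autoImplicit false
set_option linter.style.haveILetI false

namespace Fermat.Agent.S10_helper17_PID11

open Fermat.Agent.S10_helper17_CycPrime

section bound

open NumberField Polynomial InfinitePlace Nat Real cyclotomic Module Ideal

/-- The Minkowski bound of the 11-th cyclotomic field is `< 60`. -/
theorem minkowski11 (K : Type*) [Field K] [NumberField K] [IsCyclotomicExtension {11} ℚ K] :
    (4 / π) ^ nrComplexPlaces K *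
      ((finrank ℚ K)! / (finrank ℚ K) ^ (finrank ℚ K) * √|discr K|) < 60 := by
  have : Fact (Nat.Prime 11) := ⟨by norm_num⟩
  rw [IsCyclotomicExtension.Rat.discr_prime 11 K, IsCyclotomicExtension.finrank (n := 11) K
    (irreducible_rat (by simp)), IsCyclotomicExtension.Rat.nrComplexPlaces_eq_totient_div_two 11,
    totient_prime (by norm_num : Nat.Prime 11)]
  have h10 : (10 : ℕ)! = 3628800 := by decide
  have hs : √(2357947691 : ℝ) < 48559 := by
    rw [Real.sqrt_lt' (by norm_num)]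
    norm_num
  have hpi : (4 : ℝ) / π < 4 / 3.14 := by
    apply div_lt_div_of_pos_left (by norm_num) (by norm_num) pi_gt_d2
  have hpos : (0 : ℝ) < 4 / π := by positivity
  simp only [show (11 - 1) / 2 = 5 by norm_num, show 11 - 1 = 10 by norm_num, h10]
  rw [show |(((-1 : ℤ) ^ 5 * ((11 : ℕ) : ℤ) ^ (11 - 2) : ℤ) : ℝ)| = 2357947691 by norm_num]
  have hs0 : (0 : ℝ) ≤ √(2357947691 : ℝ) := Real.sqrt_nonneg _
  calc (4 / π) ^ 5 * (((3628800 : ℕ) : ℝ) / ((10 : ℕ) : ℝ) ^ 10 * √2357947691)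
      ≤ (4 / 3.14) ^ 5 * (((3628800 : ℕ) : ℝ) / ((10 : ℕ) : ℝ) ^ 10 * 48559) := by
        gcongr
    _ < 60 := by norm_num

end bound

set_option maxRecDepth 100000 in
theorem pow_aux : ∀ p' ∈ Finset.range 60, ∀ f ∈ Finset.range 6, 1 ≤ f → 2 ≤ p' →
    p' ^ f % 11 = 1 → p' ^ f < 60 → (p' = 12 ∨ p' = 23 ∨ p' = 34 ∨ p' = 45 ∨ p' = 56) := by
  decide

theorem alpha_zero : (1 + 4 + 4 ^ 3 : ZMod 23) = 0 := by decide

section prime23

open NumberField Polynomial Ideal

theorem eval_cyclotomic_four : (cyclotomic 11 (ZMod 23)).eval (4 : ZMod 23) = 0 := by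
  haveI : Fact (Nat.Prime 11) := ⟨by norm_num⟩
  rw [cyclotomic_prime, eval_geom_sum]
  decide

theorem principal23 (K : Type*) [Field K] [NumberField K] [IsCyclotomicExtension {11} ℚ K] :
    ∃ P ∈ primesOver (span {((23 : ℕ) : ℤ)}) (𝓞 K), Submodule.IsPrincipal P := by
  haveI : Fact (Nat.Prime 11) := ⟨by norm_num⟩
  haveI : Fact (Nat.Prime 23) := ⟨by norm_num⟩
  have hζ := IsCyclotomicExtension.zeta_spec 11 ℚ K
  obtain ⟨g, hg⟩ := exists_ringHom hζ 23 (4 : ZMod 23) eval_cyclotomic_four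
  refine ⟨RingHom.ker g, ker_mem_primesOver 23 g, ?_⟩
  set z : 𝓞 K := hζ.toInteger with hz
  have hcyc : 1 + z + z ^ 2 + z ^ 3 + z ^ 4 + z ^ 5 + z ^ 6 + z ^ 7 + z ^ 8 + z ^ 9 + z ^ 10 = 0 := by
    have h1 : aeval z (cyclotomic 11 ℤ) = 0 := by
      rw [← minpoly_toInteger hζ]
      exact minpoly.aeval ℤ z
    rw [cyclotomic_prime, map_sum] at h1
    simp only [Finset.sum_range_succ, Finset.sum_range_zero, map_pow, aeval_X] at h1
    rw [← h1]
    ring
  have key := ker_eq_span hζ 23 g 4 (by simpa using hg) (1 + z + z ^ 3)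
    (by
      rw [map_add, map_add, map_one, map_pow, hg]
      exact alpha_zero)
    (by
      rw [Ideal.mem_span_singleton]
      refine ⟨(-2) + (-14) * z + (-17) * z ^ 2 + (-12) * z ^ 3 + (-5) * z ^ 4 + (-9) * z ^ 5
        + (-10) * z ^ 6 + (-16) * z ^ 7 + (-6) * z ^ 8 + (-15) * z ^ 9, ?_⟩
      push_cast
      linear_combination (-((-25) + 9 * z + (-15) * z ^ 2)) * hcyc)
    (by
      rw [Ideal.mem_span_singleton]
      refine ⟨1 + 3 * z + 3 * z ^ 2 + 2 * z ^ 3 + 1 * z ^ 4 + 2 * z ^ 5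
        + 2 * z ^ 6 + 3 * z ^ 7 + 1 * z ^ 8 + 3 * z ^ 9, ?_⟩
      push_cast
      linear_combination (-(5 + (-2) * z + 3 * z ^ 2)) * hcyc)
  rw [key]
  exact ⟨⟨_, rfl⟩⟩

end prime23

section main

open NumberField Polynomial InfinitePlace Real Module Ideal

theorem pid11 (K : Type*) [Field K] [NumberField K] [IsCyclotomicExtension {11} ℚ K] :
    IsPrincipalIdealRing (𝓞 K) := by
  haveI : Fact (Nat.Prime 11) := ⟨by norm_num⟩
  haveI : IsGalois ℚ K := IsCyclotomicExtension.isGalois {11} ℚ K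
  have hM := minkowski11 K
  have hfloor : ⌊(4 / π) ^ nrComplexPlaces K *
      ((finrank ℚ K).factorial / (finrank ℚ K) ^ (finrank ℚ K) * √|discr K|)⌋₊ < 60 := by
    rw [Nat.floor_lt (by positivity)]
    exact_mod_cast hM
  apply RingOfIntegers.isPrincipalIdealRing_of_isPrincipal_of_lt_or_isPrincipal_of_mem_primesOver_of_mem_Icc
  intro p hp hpprime
  have hp60 : p < 60 := lt_of_le_of_lt (Finset.mem_Icc.mp hp).2 hfloor
  haveI : Fact p.Prime := ⟨hpprime⟩
  by_cases h11 : p = 11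
  · subst h11
    have hζ := IsCyclotomicExtension.zeta_spec 11 ℚ K
    haveI : IsCyclotomicExtension {11 ^ (0 + 1)} ℚ K := by
      rw [zero_add, pow_one]; infer_instance
    have hζ' : IsPrimitiveRoot (IsCyclotomicExtension.zeta 11 ℚ K) (11 ^ (0 + 1)) := by
      rw [zero_add, pow_one]; exact hζ
    refine ⟨span {hζ'.toInteger - 1},
      ⟨IsCyclotomicExtension.Rat.isPrime_span_zeta_sub_one 11 0 hζ',
        IsCyclotomicExtension.Rat.liesOver_span_zeta_sub_one 11 0 hζ'⟩, Or.inr ⟨⟨_, rfl⟩⟩⟩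
  by_cases h23 : p = 23
  · subst h23
    obtain ⟨P, hP, hprin⟩ := principal23 K
    exact ⟨P, hP, Or.inr hprin⟩
  · obtain ⟨⟨P, hP1, hP2⟩⟩ := (span {(p : ℤ)}).nonempty_primesOver (S := 𝓞 K)
    refine ⟨P, ⟨hP1, hP2⟩, Or.inl ?_⟩
    have hnd : ¬ p ∣ 11 := by
      intro h
      exact h11 ((Nat.prime_dvd_prime_iff_eq hpprime (by norm_num : Nat.Prime 11)).mp h)
    have hf := IsCyclotomicExtension.Rat.inertiaDeg_eq_of_not_dvd (m := 11) p K P hnd
    have hfpos : 0 < P.inertiaDeg ℤ := by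
      have hmax : (span {(p : ℤ)}).IsMaximal :=
        (Ideal.isPrime_of_prime (Ideal.prime_span_singleton_iff.mpr
          (Nat.prime_iff_prime_int.mp hpprime))).isMaximal (by simp [hpprime.ne_zero])
      have : P.LiesOver (span {(p : ℤ)}) := hP2
      exact Ideal.inertiaDeg_pos ..
    have hone : (p : ZMod 11) ^ (P.inertiaDeg ℤ) = 1 := by
      rw [hf]; exact pow_orderOf_eq_one _
    have hmod : p ^ (P.inertiaDeg ℤ) % 11 = 1 := by
      have h1 : ((p ^ (P.inertiaDeg ℤ) : ℕ) : ZMod 11) = ((1 : ℕ) : ZMod 11) := by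
        push_cast; exact hone
      have := (ZMod.natCast_eq_natCast_iff' _ _ _).mp h1
      simpa using this
    by_contra hlt
    have hlt' : p ^ (P.inertiaDeg ℤ) < 60 := lt_of_le_of_lt (not_lt.mp hlt) hfloor
    have hf6 : P.inertiaDeg ℤ < 6 := by
      by_contra h6
      have h6' : 6 ≤ P.inertiaDeg ℤ := not_lt.mp h6
      have : 2 ^ 6 ≤ p ^ (P.inertiaDeg ℤ) :=
        (Nat.pow_le_pow_left hpprime.two_le 6).trans (Nat.pow_le_pow_right hpprime.pos h6')
      omega
    have hcases := pow_aux p (Finset.mem_range.mpr hp60) (P.inertiaDeg ℤ)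
      (Finset.mem_range.mpr hf6) hfpos hpprime.two_le hmod hlt'
    rcases hcases with h | h | h | h | h
    · subst h; exact absurd hpprime (by norm_num)
    · exact h23 h
    · subst h; exact absurd hpprime (by norm_num)
    · subst h; exact absurd hpprime (by norm_num)
    · subst h; exact absurd hpprime (by norm_num)

end main

end Fermat.Agent.S10_helper17_PID11
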