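import Mathlib
import Fermat.Agent.S10_helper17_CycPrime

set_option autoImplicit false
set_option linter.style.haveILetI false
set_option linter.unusedSimpArgs false

/-!
# Degree one primes of `ℚ(ζ₁₃)` below the Minkowski bound are principal

The primes `53, 79, 131, 157` split completely in `ℚ(ζ₁₃)`; for each of them we exhibit a
prime above it generated by one element.
-/

namespace Fermat.Agent.S10_helper17_PID13deg1

open Fermat.Agent.S10_helper17_CycPrime

open NumberField Polynomial Ideal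

theorem hcyc13 (K : Type*) [Field K] [NumberField K] [IsCyclotomicExtension {13} ℚ K]
    (z : 𝓞 K) (hz : z = (IsCyclotomicExtension.zeta_spec 13 ℚ K).toInteger) :
    1 + z + z ^ 2 + z ^ 3 + z ^ 4 + z ^ 5 + z ^ 6 + z ^ 7 + z ^ 8 + z ^ 9 + z ^ 10 + z ^ 11 + z ^ 12 = 0 := by
  haveI : Fact (Nat.Prime 13) := ⟨by norm_num⟩
  have hζ := IsCyclotomicExtension.zeta_spec 13 ℚ K
  have h1 : aeval z (cyclotomic 13 ℤ) = 0 := by
    rw [hz, ← minpoly_toInteger hζ]
    exact minpoly.aeval ℤ _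
  rw [cyclotomic_prime, map_sum] at h1
  simp only [Finset.sum_range_succ, Finset.sum_range_zero, map_pow, aeval_X] at h1
  rw [← h1]
  ring

theorem alpha_zero53 : (1 + 36 + 36 ^ 3 : ZMod 53) = 0 := by decide

theorem eval_cyclotomic53 : (cyclotomic 13 (ZMod 53)).eval (36 : ZMod 53) = 0 := by
  haveI : Fact (Nat.Prime 13) := ⟨by norm_num⟩
  rw [cyclotomic_prime, eval_geom_sum]
  decide

theorem principal53 (K : Type*) [Field K] [NumberField K] [IsCyclotomicExtension {13} ℚ K] :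
    ∃ P ∈ primesOver (span {((53 : ℕ) : ℤ)}) (𝓞 K), Submodule.IsPrincipal P := by
  haveI : Fact (Nat.Prime 13) := ⟨by norm_num⟩
  haveI : Fact (Nat.Prime 53) := ⟨by norm_num⟩
  have hζ := IsCyclotomicExtension.zeta_spec 13 ℚ K
  obtain ⟨g, hg⟩ := exists_ringHom hζ 53 (36 : ZMod 53) eval_cyclotomic53
  refine ⟨RingHom.ker g, ker_mem_primesOver 53 g, ?_⟩
  set z : 𝓞 K := hζ.toInteger with hz
  have hcyc := hcyc13 K z hz
  have key := ker_eq_span hζ 53 g 36 (by simpa using hg) (1 + z + z ^ 3)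
    (by
      simp only [map_add, map_sub, map_one, map_pow, hg]
      exact alpha_zero53)
    (by
      rw [Ideal.mem_span_singleton]
      refine ⟨(1) + (-24) * z + (-35) * z ^ 2 + (-25) * z ^ 3 + (-10) * z ^ 4 + (-14) * z ^ 5 + (-20) * z ^ 6 + (-29) * z ^ 7 + (-16) * z ^ 8 + (-23) * z ^ 9 + (-7) * z ^ 10 + (-36) * z ^ 11, ?_⟩
      push_cast
      linear_combination (-((-52) + (29) * z + (-36) * z ^ 2)) * hcyc)
    (by
      rw [Ideal.mem_span_singleton]
      refine ⟨(17) * z + (24) * z ^ 2 + (17) * z ^ 3 + (7) * z ^ 4 + (10) * z ^ 5 + (14) * z ^ 6 + (20) * z ^ 7 + (11) * z ^ 8 + (16) * z ^ 9 + (5) * z ^ 10 + (25) * z ^ 11, ?_⟩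
      push_cast
      linear_combination (-((36) + (-20) * z + (25) * z ^ 2)) * hcyc)
  rw [key]
  exact ⟨⟨_, rfl⟩⟩

theorem alpha_zero79 : (1 + 64 - 64 ^ 4 : ZMod 79) = 0 := by decide

theorem eval_cyclotomic79 : (cyclotomic 13 (ZMod 79)).eval (64 : ZMod 79) = 0 := by
  haveI : Fact (Nat.Prime 13) := ⟨by norm_num⟩
  rw [cyclotomic_prime, eval_geom_sum]
  decide

theorem principal79 (K : Type*) [Field K] [NumberField K] [IsCyclotomicExtension {13} ℚ K] :
    ∃ P ∈ primesOver (span {((79 : ℕ) : ℤ)}) (𝓞 K), Submodule.IsPrincipal P := by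
  haveI : Fact (Nat.Prime 13) := ⟨by norm_num⟩
  haveI : Fact (Nat.Prime 79) := ⟨by norm_num⟩
  have hζ := IsCyclotomicExtension.zeta_spec 13 ℚ K
  obtain ⟨g, hg⟩ := exists_ringHom hζ 79 (64 : ZMod 79) eval_cyclotomic79
  refine ⟨RingHom.ker g, ker_mem_primesOver 79 g, ?_⟩
  set z : 𝓞 K := hζ.toInteger with hz
  have hcyc := hcyc13 K z hz
  have key := ker_eq_span hζ 79 g 64 (by simpa using hg) (1 + z - z ^ 4)
    (by
      simp only [map_add, map_sub, map_one, map_pow, hg]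
      exact alpha_zero79)
    (by
      rw [Ideal.mem_span_singleton]
      refine ⟨(24) + (-25) * z + (-27) * z ^ 2 + (10) * z ^ 3 + (-3) * z ^ 4 + (-39) * z ^ 5 + (-5) * z ^ 6 + (-2) * z ^ 7 + (-18) * z ^ 8 + (-38) * z ^ 9 + (16) * z ^ 10 + (-35) * z ^ 11, ?_⟩
      push_cast
      linear_combination (-((-55) + (54) * z + (-51) * z ^ 2 + (35) * z ^ 3)) * hcyc)
    (by
      rw [Ideal.mem_span_singleton]
      refine ⟨(-19) + (21) * z + (22) * z ^ 2 + (-8) * z ^ 3 + (3) * z ^ 4 + (32) * z ^ 5 + (4) * z ^ 6 + (2) * z ^ 7 + (15) * z ^ 8 + (31) * z ^ 9 + (-13) * z ^ 10 + (29) * z ^ 11, ?_⟩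
      push_cast
      linear_combination (-((45) + (-44) * z + (42) * z ^ 2 + (-29) * z ^ 3)) * hcyc)
  rw [key]
  exact ⟨⟨_, rfl⟩⟩

theorem alpha_zero131 : (1 - 80 - 80 ^ 3 : ZMod 131) = 0 := by decide

theorem eval_cyclotomic131 : (cyclotomic 13 (ZMod 131)).eval (80 : ZMod 131) = 0 := by
  haveI : Fact (Nat.Prime 13) := ⟨by norm_num⟩
  rw [cyclotomic_prime, eval_geom_sum]
  decide

theorem principal131 (K : Type*) [Field K] [NumberField K] [IsCyclotomicExtension {13} ℚ K] :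
    ∃ P ∈ primesOver (span {((131 : ℕ) : ℤ)}) (𝓞 K), Submodule.IsPrincipal P := by
  haveI : Fact (Nat.Prime 13) := ⟨by norm_num⟩
  haveI : Fact (Nat.Prime 131) := ⟨by norm_num⟩
  have hζ := IsCyclotomicExtension.zeta_spec 13 ℚ K
  obtain ⟨g, hg⟩ := exists_ringHom hζ 131 (80 : ZMod 131) eval_cyclotomic131
  refine ⟨RingHom.ker g, ker_mem_primesOver 131 g, ?_⟩
  set z : 𝓞 K := hζ.toInteger with hz
  have hcyc := hcyc13 K z hz
  have key := ker_eq_span hζ 131 g 80 (by simpa using hg) (1 - z - z ^ 3)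
    (by
      simp only [map_add, map_sub, map_one, map_pow, hg]
      exact alpha_zero131)
    (by
      rw [Ideal.mem_span_singleton]
      refine ⟨(111) + (78) * z + (17) * z ^ 2 + (67) * z ^ 3 + (84) * z ^ 4 + (40) * z ^ 5 + (46) * z ^ 6 + (69) * z ^ 7 + (48) * z ^ 8 + (33) * z ^ 9 + (41) * z ^ 10 + (28) * z ^ 11, ?_⟩
      push_cast
      linear_combination (-((-20) + (-13) * z + (-28) * z ^ 2)) * hcyc)
    (by
      rw [Ideal.mem_span_singleton]
      refine ⟨(-68) + (-47) * z + (-10) * z ^ 2 + (-41) * z ^ 3 + (-51) * z ^ 4 + (-24) * z ^ 5 + (-28) * z ^ 6 + (-42) * z ^ 7 + (-29) * z ^ 8 + (-20) * z ^ 9 + (-25) * z ^ 10 + (-17) * z ^ 11, ?_⟩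
      push_cast
      linear_combination (-((12) + (8) * z + (17) * z ^ 2)) * hcyc)
  rw [key]
  exact ⟨⟨_, rfl⟩⟩

theorem alpha_zero157 : (1 - 75 + 75 ^ 2 + 75 ^ 4 : ZMod 157) = 0 := by decide

theorem eval_cyclotomic157 : (cyclotomic 13 (ZMod 157)).eval (75 : ZMod 157) = 0 := by
  haveI : Fact (Nat.Prime 13) := ⟨by norm_num⟩
  rw [cyclotomic_prime, eval_geom_sum]
  decide

theorem principal157 (K : Type*) [Field K] [NumberField K] [IsCyclotomicExtension {13} ℚ K] :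
    ∃ P ∈ primesOver (span {((157 : ℕ) : ℤ)}) (𝓞 K), Submodule.IsPrincipal P := by
  haveI : Fact (Nat.Prime 13) := ⟨by norm_num⟩
  haveI : Fact (Nat.Prime 157) := ⟨by norm_num⟩
  have hζ := IsCyclotomicExtension.zeta_spec 13 ℚ K
  obtain ⟨g, hg⟩ := exists_ringHom hζ 157 (75 : ZMod 157) eval_cyclotomic157
  refine ⟨RingHom.ker g, ker_mem_primesOver 157 g, ?_⟩
  set z : 𝓞 K := hζ.toInteger with hz
  have hcyc := hcyc13 K z hz
  have key := ker_eq_span hζ 157 g 75 (by simpa using hg) (1 - z + z ^ 2 + z ^ 4)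
    (by
      simp only [map_add, map_sub, map_one, map_pow, hg]
      exact alpha_zero157)
    (by
      rw [Ideal.mem_span_singleton]
      refine ⟨(89) + (86) * z + (42) * z ^ 2 + (77) * z ^ 3 + (67) * z ^ 4 + (25) * z ^ 5 + (37) * z ^ 6 + (56) * z ^ 7 + (73) * z ^ 8 + (113) * z ^ 9 + (124) * z ^ 10 + (76) * z ^ 11, ?_⟩
      push_cast
      linear_combination (-((-68) + (65) * z + (48) * z ^ 2 + (76) * z ^ 3)) * hcyc)
    (by
      rw [Ideal.mem_span_singleton]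
      refine ⟨(-43) + (-41) * z + (-20) * z ^ 2 + (-37) * z ^ 3 + (-32) * z ^ 4 + (-12) * z ^ 5 + (-18) * z ^ 6 + (-27) * z ^ 7 + (-35) * z ^ 8 + (-54) * z ^ 9 + (-59) * z ^ 10 + (-36) * z ^ 11, ?_⟩
      push_cast
      linear_combination (-((32) + (-31) * z + (-23) * z ^ 2 + (-36) * z ^ 3)) * hcyc)
  rw [key]
  exact ⟨⟨_, rfl⟩⟩

end Fermat.Agent.S10_helper17_PID13deg1
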