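import Mathlib
import Fermat.Agent.S10_helper5_Defs
import Fermat.Agent.S10_helper25_KUnits

set_option autoImplicit false

open NumberField Polynomial

namespace Fermat.Agent.S10_helper6_KummerLemma

open Fermat.Agent.S10_helper5_Defs

/-- The truncated polynomial ring `𝔽_p[X] / (X ^ (p - 2))`. -/
abbrev TB (p : ℕ) : Type := (ZMod p)[X] ⧸ Ideal.span {(X : (ZMod p)[X]) ^ (p - 2)}

/-- The quotient map. -/
noncomputable def mkB (p : ℕ) : (ZMod p)[X] →+* TB p := Ideal.Quotient.mk _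

theorem mkB_eq_zero_iff (p : ℕ) (f : (ZMod p)[X]) :
    mkB p f = 0 ↔ (X : (ZMod p)[X]) ^ (p - 2) ∣ f := by
  unfold mkB
  rw [Ideal.Quotient.eq_zero_iff_mem, Ideal.mem_span_singleton]

/-- The ring homomorphism `f ↦ f + f' ε` into the dual numbers over `TB p`. -/
noncomputable def theta (p : ℕ) : (ZMod p)[X] →+* DualNumber (TB p) where
  toFun f := TrivSqZeroExt.inl (mkB p f) + TrivSqZeroExt.inr (mkB p (derivative f))
  map_one' := by
    ext
    · simp
    · simp
  map_mul' f g := by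
    ext
    · simp
    · simp [derivative_mul]
      ring
  map_zero' := by
    ext
    · simp
    · simp
  map_add' f g := by
    ext
    · simp
    · simp

@[simp] theorem fst_theta (p : ℕ) (f : (ZMod p)[X]) : (theta p f).fst = mkB p f := by
  simp [theta]

@[simp] theorem snd_theta (p : ℕ) (f : (ZMod p)[X]) :
    (theta p f).snd = mkB p (derivative f) := by
  simp [theta]

theorem theta_X_pow (p : ℕ) (hp : 2 ≤ p) : theta p (X ^ (p - 1)) = 0 := by
  ext
  · rw [fst_theta, TrivSqZeroExt.fst_zero, mkB_eq_zero_iff]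
    exact pow_dvd_pow _ (by omega)
  · rw [snd_theta, TrivSqZeroExt.snd_zero, mkB_eq_zero_iff, derivative_X_pow]
    have : p - 1 - 1 = p - 2 := by omega
    rw [this]
    exact Dvd.intro_left _ rfl

theorem aeval_cyclotomic (p : ℕ) [Fact p.Prime] :
    aeval (1 + X : (ZMod p)[X]) (cyclotomic p ℤ) = X ^ (p - 1) := by
  have hp : p.Prime := Fact.out
  have h1 : cyclotomic p (ZMod p)[X] = (X - 1) ^ (p - 1) := by
    have := cyclotomic_mul_prime_pow_eq (ZMod p)[X] (p := p) (m := 1)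
      (by simpa using hp.ne_one) (k := 1) one_pos
    simpa using this
  rw [aeval_def, eval₂_eq_eval_map, map_cyclotomic, h1]
  simp

theorem aeval_theta_cyclotomic (p : ℕ) [Fact p.Prime] :
    aeval (theta p (1 + X)) (cyclotomic p ℤ) = 0 := by
  have h := Polynomial.aeval_algHom_apply (theta p).toIntAlgHom (1 + X : (ZMod p)[X])
    (cyclotomic p ℤ)
  refine h.trans ?_
  rw [aeval_cyclotomic]
  exact theta_X_pow p (Nat.Prime.two_le Fact.out)


section NF

variable {p : ℕ} [Fact p.Prime] {K : Type*} [Field K] [NumberField K]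
  [IsCyclotomicExtension {p} ℚ K]

variable (p K) in
/-- The chosen primitive root, as an algebraic integer. -/
noncomputable def zetaInt : 𝓞 K := (IsCyclotomicExtension.zeta_spec p ℚ K).toInteger

theorem zetaInt_isPrimitiveRoot : IsPrimitiveRoot (zetaInt p K) p :=
  (IsCyclotomicExtension.zeta_spec p ℚ K).toInteger_isPrimitiveRoot

theorem minpoly_gen :
    minpoly ℤ (IsCyclotomicExtension.zeta_spec p ℚ K).integralPowerBasis.gen
      = cyclotomic p ℤ := by
  rw [IsPrimitiveRoot.integralPowerBasis_gen,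
    cyclotomic_eq_minpoly (IsCyclotomicExtension.zeta_spec p ℚ K) (NeZero.pos _)]
  exact (RingOfIntegers.minpoly_coe _).symm

variable (p K) in
/-- The ring homomorphism `𝓞 K → 𝔽_p[X]/(X^(p-2))[ε]`, `ζ ↦ 1 + X + ε`. -/
noncomputable def Psi : 𝓞 K →ₐ[ℤ] DualNumber (TB p) :=
  (IsCyclotomicExtension.zeta_spec p ℚ K).integralPowerBasis.lift (theta p (1 + X))
    (by rw [minpoly_gen]; exact aeval_theta_cyclotomic p)

theorem Psi_zeta : Psi p K (zetaInt p K) = theta p (1 + X) := by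
  have h := PowerBasis.lift_gen (IsCyclotomicExtension.zeta_spec p ℚ K).integralPowerBasis
    (theta p (1 + X)) (by rw [minpoly_gen]; exact aeval_theta_cyclotomic p)
  have h2 : zetaInt p K = (IsCyclotomicExtension.zeta_spec p ℚ K).integralPowerBasis.gen :=
    (IsPrimitiveRoot.integralPowerBasis_gen _).symm
  rw [h2]
  exact h

theorem Psi_p : Psi p K (p : 𝓞 K) = 0 := by
  rw [map_natCast]
  have : ((p : ℕ) : (ZMod p)[X]) = 0 := by
    rw [← map_natCast (C : ZMod p →+* (ZMod p)[X])]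
    simp
  rw [← map_natCast (theta p), this, map_zero]

theorem Psi_of_dvd (u : 𝓞 K) (n : ℤ) (h : (p : 𝓞 K) ∣ u - n) :
    (Psi p K u).snd = 0 := by
  obtain ⟨w, hw⟩ := h
  have : u = n + p * w := by rw [← hw]; ring
  rw [this, map_add, map_mul, Psi_p, zero_mul, add_zero, map_intCast]
  simp


variable (p K) in
/-- The logarithmic derivative `u ↦ d(u)/u`, a group homomorphism into the additive group
of `𝔽_p[X]/(X^(p-2))`. -/
noncomputable def dlog : (𝓞 K)ˣ →* Multiplicative (TB p) where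
  toFun u := Multiplicative.ofAdd ((Psi p K (↑(u⁻¹) : 𝓞 K)).fst * (Psi p K (u : 𝓞 K)).snd)
  map_one' := by
    simp
  map_mul' u v := by
    rw [← ofAdd_add]
    congr 1
    have h1 : (Psi p K (u : 𝓞 K)).fst * (Psi p K (↑(u⁻¹) : 𝓞 K)).fst = 1 := by
      rw [← TrivSqZeroExt.fst_mul, ← map_mul, Units.mul_inv, map_one, TrivSqZeroExt.fst_one]
    have h2 : (Psi p K (v : 𝓞 K)).fst * (Psi p K (↑(v⁻¹) : 𝓞 K)).fst = 1 := by
      rw [← TrivSqZeroExt.fst_mul, ← map_mul, Units.mul_inv, map_one, TrivSqZeroExt.fst_one]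
    rw [mul_inv, Units.val_mul, Units.val_mul, map_mul, map_mul, TrivSqZeroExt.fst_mul,
      DualNumber.snd_mul]
    linear_combination ((Psi p K (↑(v⁻¹) : 𝓞 K)).fst * (Psi p K (v : 𝓞 K)).snd) * h1
      + ((Psi p K (↑(u⁻¹) : 𝓞 K)).fst * (Psi p K (u : 𝓞 K)).snd) * h2

theorem dlog_apply (u : (𝓞 K)ˣ) :
    Multiplicative.toAdd (dlog p K u)
      = (Psi p K (↑(u⁻¹) : 𝓞 K)).fst * (Psi p K (u : 𝓞 K)).snd := rfl

theorem fst_mul_dlog (u : (𝓞 K)ˣ) :
    (Psi p K (u : 𝓞 K)).fst * Multiplicative.toAdd (dlog p K u) = (Psi p K (u : 𝓞 K)).snd := by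
  have h1 : (Psi p K (u : 𝓞 K)).fst * (Psi p K (↑(u⁻¹) : 𝓞 K)).fst = 1 := by
    rw [← TrivSqZeroExt.fst_mul, ← map_mul, Units.mul_inv, map_one, TrivSqZeroExt.fst_one]
  rw [dlog_apply, ← mul_assoc, h1, one_mul]

theorem dlog_eq_one_of_dvd (u : (𝓞 K)ˣ) (n : ℤ) (h : (p : 𝓞 K) ∣ (u : 𝓞 K) - n) :
    dlog p K u = 1 := by
  have : Multiplicative.toAdd (dlog p K u) = 0 := by
    rw [dlog_apply, Psi_of_dvd _ n h, mul_zero]
  exact this

theorem dlog_pow_p (v : (𝓞 K)ˣ) : dlog p K (v ^ p) = 1 := by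
  rw [map_pow]
  have : Multiplicative.toAdd ((dlog p K v) ^ p) = 0 := by
    rw [toAdd_pow]
    have h0 : ((p : ℕ) : TB p) = 0 := by
      rw [← map_natCast (mkB p), ← map_natCast (C : ZMod p →+* (ZMod p)[X])]
      simp
    rw [nsmul_eq_mul, h0, zero_mul]
  exact this

variable (p K) in
/-- The elements `ζ` (for `i = 0`) and `1 + ζ + ⋯ + ζ ^ i` (for `i ≥ 1`). -/
noncomputable def cycElt (i : ℕ) : 𝓞 K :=
  if i = 0 then zetaInt p K else ∑ j ∈ Finset.range (i + 1), zetaInt p K ^ j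

theorem Psi_cycElt (i : ℕ) : Psi p K (cycElt p K i) = theta p (unitPoly p i) := by
  unfold cycElt unitPoly
  split_ifs with h
  · exact Psi_zeta
  · rw [map_sum, map_sum]
    refine Finset.sum_congr rfl fun j _ => ?_
    rw [map_pow, map_pow, Psi_zeta]

theorem isUnit_cycElt (i : ℕ) (hi : i + 1 < p) : IsUnit (cycElt p K i) := by
  have hp : p.Prime := Fact.out
  unfold cycElt
  split_ifs with h
  · exact (zetaInt_isPrimitiveRoot (p := p) (K := K)).isUnit hp.ne_zero
  · refine (zetaInt_isPrimitiveRoot (p := p) (K := K)).geom_sum_isUnit hp.two_le ?_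
    exact (Nat.coprime_of_lt_prime (Nat.succ_ne_zero i) hi hp).symm


open Classical in
variable (p K) in
/-- The cyclotomic units `ζ` (for `i = 0`) and `1 + ζ + ⋯ + ζ ^ i` (for `1 ≤ i`, `i + 1 < p`). -/
noncomputable def cycUnit (i : ℕ) : (𝓞 K)ˣ :=
  if h : IsUnit (cycElt p K i) then h.unit else 1

theorem cycUnit_val (i : ℕ) (hi : i + 1 < p) : (cycUnit p K i : 𝓞 K) = cycElt p K i := by
  unfold cycUnit
  rw [dif_pos (isUnit_cycElt i hi)]
  rfl

theorem Psi_cycUnit (i : ℕ) (hi : i + 1 < p) :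
    Psi p K (cycUnit p K i : 𝓞 K) = theta p (unitPoly p i) := by
  rw [cycUnit_val i hi, Psi_cycElt]

/-- Independence of the cyclotomic units modulo the kernel of `dlog`, from the certificate. -/
theorem indep_of_cert (hcert : DlogCert p) (e : ℕ → ℤ)
    (h : (∏ i ∈ Finset.range ((p - 1) / 2), cycUnit p K i ^ e i) ∈ (dlog p K).ker) :
    ∀ i < (p - 1) / 2, (p : ℤ) ∣ e i := by
  have hp : p.Prime := Fact.out
  have hlt : ∀ i ∈ Finset.range ((p - 1) / 2), i + 1 < p := by
    intro i hi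
    have := Finset.mem_range.1 hi
    have h2 : 2 ≤ p := hp.two_le
    omega
  rw [MonoidHom.mem_ker, map_prod] at h
  have h0 : ∑ i ∈ Finset.range ((p - 1) / 2),
      e i • Multiplicative.toAdd (dlog p K (cycUnit p K i)) = 0 := by
    have := congrArg Multiplicative.toAdd h
    rw [toAdd_prod] at this
    simpa [map_zpow] using this
  -- multiply by the product of the `unitPoly`
  have h1 : mkB p (∑ i ∈ Finset.range ((p - 1) / 2),
      C ((e i : ℤ) : ZMod p) * (derivative (unitPoly p i) *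
          ∏ j ∈ (Finset.range ((p - 1) / 2)).erase i, unitPoly p j)) = 0 := by
    have h2 : (∏ j ∈ Finset.range ((p - 1) / 2), mkB p (unitPoly p j)) *
        ∑ i ∈ Finset.range ((p - 1) / 2),
          e i • Multiplicative.toAdd (dlog p K (cycUnit p K i)) = 0 := by
      rw [h0, mul_zero]
    rw [← h2, map_sum, Finset.mul_sum]
    refine Finset.sum_congr rfl fun i hi => ?_
    rw [← Finset.mul_prod_erase _ _ hi, map_mul, map_mul, map_prod]
    have h3 := fst_mul_dlog (p := p) (K := K) (cycUnit p K i)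
    rw [Psi_cycUnit i (hlt i hi), fst_theta, snd_theta] at h3
    have h4 : mkB p (C ((e i : ℤ) : ZMod p)) = ((e i : ℤ) : TB p) := by
      rw [map_intCast (C : ZMod p →+* (ZMod p)[X]), map_intCast]
    rw [h4, zsmul_eq_mul, ← h3]
    ring
  rw [mkB_eq_zero_iff] at h1
  intro i hi
  have := hcert (fun i => ((e i : ℤ) : ZMod p)) h1 i hi
  exact (ZMod.intCast_zmod_eq_zero_iff_dvd _ _).1 this


/-- **Kummer's lemma** for a prime `p` satisfying the logarithmic-derivative certificate: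
a unit of `ℤ[ζ_p]` congruent to a rational integer modulo `p` is a `p`-th power. -/
theorem kummer_lemma_of_cert (hodd : p ≠ 2) (hcert : DlogCert p)
    (u : (𝓞 K)ˣ) (h : ∃ n : ℤ, (p : 𝓞 K) ∣ (u : 𝓞 K) - n) : ∃ v : (𝓞 K)ˣ, u = v ^ p := by
  have hp : p.Prime := Fact.out
  have hp2 : 2 < p := lt_of_le_of_ne hp.two_le (Ne.symm hodd)
  refine Fermat.Agent.S10_helper25_KUnits.kummer_of_indep hp2
    (fun i => cycUnit p K (i : ℕ)) ?_ u h
  rintro e ⟨n, hn⟩ i
  have key := indep_of_cert (p := p) (K := K) hcert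
    (fun j => if hj : j < (p - 1) / 2 then e ⟨j, hj⟩ else 0) ?_ i i.2
  · simpa using key
  · rw [MonoidHom.mem_ker]
    refine dlog_eq_one_of_dvd _ n ?_
    have heq : (∏ j ∈ Finset.range ((p - 1) / 2),
        cycUnit p K j ^ (if hj : j < (p - 1) / 2 then e ⟨j, hj⟩ else 0))
        = ∏ i : Fin ((p - 1) / 2), cycUnit p K (i : ℕ) ^ e i := by
      rw [Finset.prod_range]
      refine Finset.prod_congr rfl fun j _ => ?_
      rw [dif_pos j.2]
    rw [heq]
    exact hn

end NF

end Fermat.Agent.S10_helper6_KummerLemma
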