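import Mathlib

set_option autoImplicit false

open NumberField Polynomial

namespace Fermat.Agent.S10_helper9_Units

variable {p : ℕ} [hp : Fact p.Prime] {K : Type*} [Field K] [NumberField K]
  [IsCyclotomicExtension {p} ℚ K] {ζ : K} (hζ : IsPrimitiveRoot ζ p)

/-- Every element of `𝓞 K` is a polynomial in `ζ` with integer coefficients. -/
theorem exists_aeval_eq (x : 𝓞 K) : ∃ f : ℤ[X], x = aeval hζ.toInteger f := by
  obtain ⟨f, -, hf⟩ := (hζ.integralPowerBasis).exists_eq_aeval x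
  refine ⟨f, ?_⟩
  rw [hf, hζ.integralPowerBasis_gen]

/-- (U3) Every element of `𝓞 K` is congruent to a rational integer modulo `ζ - 1`. -/
theorem exists_int_sub_dvd (x : 𝓞 K) : ∃ m : ℤ, hζ.toInteger - 1 ∣ x - m := by
  obtain ⟨f, rfl⟩ := exists_aeval_eq hζ x
  refine ⟨f.eval 1, ?_⟩
  have h := Polynomial.sub_dvd_eval_sub hζ.toInteger 1 (f.map (algebraMap ℤ (𝓞 K)))
  simpa [Polynomial.eval_map, Polynomial.aeval_def, Polynomial.eval₂_at_one] using h

/-- In a commutative ring, the set of `x` such that `x ^ p` is congruent to an integer mod `p`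
is closed under addition. -/
theorem pow_add_aux {R : Type*} [CommRing R] {x y : R} {m n : ℤ}
    (hx : (p : R) ∣ x ^ p - m) (hy : (p : R) ∣ y ^ p - n) :
    (p : R) ∣ (x + y) ^ p - ((m + n : ℤ) : R) := by
  rw [add_pow_prime_eq hp.out]
  have : x ^ p + y ^ p + (p : R) * x * y * ∑ k ∈ Finset.Ioo 0 p,
      x ^ (k - 1) * y ^ (p - k - 1) * ((p.choose k / p : ℕ) : R) - ((m + n : ℤ) : R)
      = (x ^ p - m) + (y ^ p - n) + (p : R) * (x * y * ∑ k ∈ Finset.Ioo 0 p,
      x ^ (k - 1) * y ^ (p - k - 1) * ((p.choose k / p : ℕ) : R)) := by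
    push_cast; ring
  rw [this]
  exact dvd_add (dvd_add hx hy) (dvd_mul_right _ _)

/-- (U2) The `p`-th power of every element of `𝓞 K` is congruent to a rational integer
modulo `p`. -/
theorem exists_int_sub_pow_prime_dvd (x : 𝓞 K) : ∃ m : ℤ, (p : 𝓞 K) ∣ x ^ p - m := by
  obtain ⟨ζ, hζ⟩ := IsCyclotomicExtension.exists_isPrimitiveRoot ℚ K (Set.mem_singleton p)
    (NeZero.ne p)
  obtain ⟨f, rfl⟩ := exists_aeval_eq hζ x
  induction f using Polynomial.induction_on' with
  | add f g hf hg =>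
    obtain ⟨m, hm⟩ := hf
    obtain ⟨n, hn⟩ := hg
    exact ⟨m + n, by rw [map_add]; exact pow_add_aux hm hn⟩
  | monomial n a =>
    refine ⟨a ^ p, ?_⟩
    have h1 : (hζ.toInteger : 𝓞 K) ^ p = 1 := hζ.toInteger_isPrimitiveRoot.pow_eq_one
    have : (aeval hζ.toInteger (monomial n a) : 𝓞 K) ^ p = ((a ^ p : ℤ) : 𝓞 K) := by
      rw [aeval_monomial, mul_pow, ← pow_mul, mul_comm n p, pow_mul, h1, one_pow, mul_one]
      simp
    rw [this, sub_self]
    exact dvd_zero _

end Fermat.Agent.S10_helper9_Units
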