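import Fermat.Statements.S11
import Fermat.Agent.S10_helper21_Assembly
import Fermat.Agent.S10_helper5_Cert
import Fermat.Agent.S10_helper17_PID11

set_option autoImplicit false
open WeierstrassCurve WeierstrassCurve.Affine WeierstrassCurve.Affine.Point
open CuspForm ModularFormClass UpperHalfPlane
open FreyPackage

namespace Fermat.Agent.S11

/-- Fermat's Last Theorem for the exponent `11` (Kummer). -/
theorem flt_eleven (a b c : ℤ) (ha : a ≠ 0) (hb : b ≠ 0) (hc : c ≠ 0) :
    a ^ 11 + b ^ 11 ≠ c ^ 11 := by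
  have : Fact (Nat.Prime 11) := ⟨by norm_num⟩
  exact Fermat.Agent.S10_helper21_Assembly.flt_of (by norm_num)
    (fun K _ _ _ => Fermat.Agent.S10_helper17_PID11.pid11 K)
    Fermat.Agent.S10_helper5_Cert.dlogCert_eleven a b c ha hb hc

theorem result (P : FreyPackage) (hp : P.p = 11) : ¬ HasGaloisStableCofixedLine (K := AlgebraicClosure ℚ) ℚ P.freyCurve P.p := by
  exact absurd (hp ▸ P.hFLT) (flt_eleven P.a P.b P.c P.ha0 P.hb0 P.hc0)

end Fermat.Agent.S11
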