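import Mathlib
import Fermat.Statements.S13
import Fermat.Agent.S05_helper1_Defs
import Fermat.Agent.S05_helper5_Frey
import Fermat.Agent.S05_helper6_Kernel

/-!
# S13, piece AT2-2D (core): no Galois-fixed `p`-torsion on the Frey curve

The `2`-adic trichotomy for a rational point of order `p` on the Frey curve, with the
component-function statement and the duplication / triplication formulas taken as explicit
hypotheses (`frey_no_fixed_torsion_of`).
-/

set_option autoImplicit false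

namespace Fermat.Agent.S13_helper13_AT2D_Core

open WeierstrassCurve WeierstrassCurve.Affine WeierstrassCurve.Affine.Point
open Fermat.Agent.S05_helper5_Frey Fermat.Agent.S05_helper1_Defs
open Fermat.Agent.S05_helper6_Kernel

attribute [local instance 100000] AlgebraicClosure.instAlgebra

section val2

variable {L : Type*} [Field L] (A : ValuationSubring L)

/-- The valuation of `2` at a valuation subring over `2`. -/
theorem val_two_lt_one (hA : A.LiesOverPrime 2) : A.valuation (2 : L) < 1 := by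
  have h := (ValuationSubring.mem_nonunits_iff A).1 hA
  simpa using h

theorem val_two_ne_zero [CharZero L] : A.valuation (2 : L) ≠ 0 :=
  (Valuation.ne_zero_iff _).2 two_ne_zero

theorem val_two_pos [CharZero L] : 0 < A.valuation (2 : L) :=
  zero_lt_iff.2 (val_two_ne_zero A)

theorem val_odd_int (hA : A.LiesOverPrime 2) {t : ℤ} (ht : ¬ (2 : ℤ) ∣ t) :
    A.valuation (t : L) = 1 :=
  val_intCast_eq_one_of_not_dvd A Nat.prime_two hA (by simpa using ht)

theorem val_even_int (hA : A.LiesOverPrime 2) {t : ℤ} (ht : (2 : ℤ) ∣ t) :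
    A.valuation (t : L) < 1 :=
  val_intCast_lt_one_of_dvd A hA (by simpa using ht)

/-- The valuation of a nonzero natural number is a power of the valuation of `2`. -/
theorem val_nat_eq_pow (hA : A.LiesOverPrime 2) {n : ℕ} (hn : n ≠ 0) :
    ∃ k : ℕ, A.valuation (n : L) = A.valuation (2 : L) ^ k ∧
      ∃ m : ℕ, Odd m ∧ n = 2 ^ k * m := by
  obtain ⟨k, m, hm, hnm⟩ := Nat.exists_eq_two_pow_mul_odd hn
  refine ⟨k, ?_, m, hm, hnm⟩
  have hm1 : A.valuation (m : L) = 1 := by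
    have := val_odd_int A hA (t := (m : ℤ)) (by
      intro h
      have h2 : (2 : ℕ) ∣ m := by exact_mod_cast h
      exact (Nat.not_even_iff_odd.2 hm) (even_iff_two_dvd.2 h2))
    simpa using this
  rw [hnm]
  push_cast
  rw [map_mul, map_pow, hm1, mul_one]

theorem val_int_eq_pow (hA : A.LiesOverPrime 2) {n : ℤ} (hn : n ≠ 0) :
    ∃ k : ℕ, A.valuation (n : L) = A.valuation (2 : L) ^ k := by
  obtain ⟨k, hk, -⟩ := val_nat_eq_pow A hA (n := n.natAbs) (Int.natAbs_ne_zero.2 hn)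
  refine ⟨k, ?_⟩
  rcases Int.natAbs_eq n with h | h
  · rw [← hk, h]; simp
  · rw [← hk, h]; simp

/-- The valuation of a nonzero rational number is an integral power of the valuation of `2`. -/
theorem val_rat_zpow_two [CharZero L] (hA : A.LiesOverPrime 2) {x : ℚ} (hx : x ≠ 0) :
    ∃ k : ℤ, A.valuation (x : L) = A.valuation (2 : L) ^ k := by
  obtain ⟨k₁, hk₁⟩ := val_int_eq_pow A hA (n := x.num) (Rat.num_ne_zero.2 hx)
  obtain ⟨k₂, hk₂⟩ := val_int_eq_pow A hA (n := (x.den : ℤ)) (by exact_mod_cast x.den_nz)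
  refine ⟨(k₁ : ℤ) - k₂, ?_⟩
  have hx' : (x : L) = (x.num : L) / ((x.den : ℤ) : L) := by
    rw [Int.cast_natCast]
    exact Rat.cast_def x
  rw [hx', map_div₀, hk₁, hk₂, zpow_sub₀ (val_two_ne_zero A), zpow_natCast, zpow_natCast]

/-- A rational `2`-adic unit is congruent to `1` modulo `2`. -/
theorem val_rat_sub_one [CharZero L] (hA : A.LiesOverPrime 2) {x : ℚ}
    (hx : A.valuation (x : L) = 1) : A.valuation ((x : L) - 1) < 1 := by
  have hx' : (x : L) = (x.num : L) / ((x.den : ℤ) : L) := by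
    rw [Int.cast_natCast]
    exact Rat.cast_def x
  have hd0 : ((x.den : ℤ) : L) ≠ 0 := by
    rw [Int.cast_natCast]; exact_mod_cast x.den_nz
  have hvd0 : A.valuation ((x.den : ℤ) : L) ≠ 0 := (Valuation.ne_zero_iff _).2 hd0
  have heq : A.valuation (x.num : L) = A.valuation ((x.den : ℤ) : L) := by
    rw [hx', map_div₀] at hx
    exact (div_eq_one_iff_eq hvd0).1 hx
  have hcop : IsCoprime x.num (x.den : ℤ) := by
    rw [Int.isCoprime_iff_gcd_eq_one]
    simpa [Int.gcd] using x.reduced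
  -- the denominator is odd
  have hdodd : ¬ (2 : ℤ) ∣ (x.den : ℤ) := by
    intro hd
    have hn : ¬ (2 : ℤ) ∣ x.num := by
      intro hn
      have h2 : IsUnit (2 : ℤ) := hcop.isUnit_of_dvd' hn hd
      rw [Int.isUnit_iff] at h2
      omega
    have h1 := val_odd_int A hA hn
    have h2 := val_even_int A hA hd
    rw [heq] at h1
    rw [h1] at h2
    exact lt_irrefl _ h2
  have hd1 : A.valuation ((x.den : ℤ) : L) = 1 := val_odd_int A hA hdodd
  have hnodd : ¬ (2 : ℤ) ∣ x.num := by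
    intro hn
    have h2 := val_even_int A hA hn
    rw [heq, hd1] at h2
    exact lt_irrefl _ h2
  have hsub : (2 : ℤ) ∣ x.num - (x.den : ℤ) := by omega
  have hv := val_even_int (L := L) A hA hsub
  have e : (x : L) - 1 = ((x.num - (x.den : ℤ) : ℤ) : L) / ((x.den : ℤ) : L) := by
    rw [hx']
    push_cast
    field_simp
  rw [e, map_div₀, hd1, div_one]
  exact hv

end val2

section frey

local notation "Qb" => AlgebraicClosure ℚ

theorem frey_a_odd (P : FreyPackage) : ¬ (2 : ℤ) ∣ P.a := by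
  intro h
  have h4 := P.ha4
  obtain ⟨k, hk⟩ := h
  rw [hk] at h4
  push_cast at h4
  have : ∀ z : ZMod 4, 2 * z ≠ 3 := by decide
  exact this _ h4

theorem frey_b_even (P : FreyPackage) : (2 : ℤ) ∣ P.b :=
  (ZMod.intCast_zmod_eq_zero_iff_dvd P.b 2).1 P.hb2

theorem frey_four_dvd (P : FreyPackage) : (4 : ℤ) ∣ P.b ^ P.p - 1 - P.a ^ P.p := by
  have hp := P.hp5
  refine (ZMod.intCast_zmod_eq_zero_iff_dvd _ 4).1 ?_
  push_cast
  rw [P.ha4]
  have h3 : (3 : ZMod 4) = -1 := by decide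
  rw [h3, P.hp_odd.neg_one_pow]
  have hb : ((P.b : ZMod 4)) ^ P.p = 0 := by
    obtain ⟨k, hk⟩ := frey_b_even P
    have : P.p = 2 + (P.p - 2) := by omega
    rw [this, pow_add, hk]
    push_cast
    have : ((2 : ZMod 4) * (k : ZMod 4)) ^ 2 = 0 := by
      rw [mul_pow]
      have : (2 : ZMod 4) ^ 2 = 0 := by decide
      rw [this, zero_mul]
    rw [this, zero_mul]
  rw [hb]
  ring

theorem frey_a₂_int (P : FreyPackage) : ∃ n : ℤ, (P.freyCurve⁄Qb).a₂ = (n : Qb) := by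
  obtain ⟨n, hn⟩ := frey_four_dvd P
  refine ⟨n, ?_⟩
  have h := frey_a₂ P
  have hn' : ((P.b : Qb)) ^ P.p - 1 - ((P.a : Qb)) ^ P.p = 4 * (n : Qb) := by
    have := congrArg (fun z : ℤ => (z : Qb)) hn
    simpa using this
  have h4 : (4 : Qb) ≠ 0 := by norm_num
  apply mul_left_cancel₀ h4
  linear_combination h + hn'

theorem frey_val_a₂ (P : FreyPackage) (A : ValuationSubring Qb) :
    A.valuation (P.freyCurve⁄Qb).a₂ ≤ 1 := by
  obtain ⟨n, hn⟩ := frey_a₂_int P
  rw [hn]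
  exact val_intCast_le_one A n

theorem frey_val_a₄ (P : FreyPackage) (A : ValuationSubring Qb) (hA : A.LiesOverPrime 2) :
    ∃ m : ℕ, 0 < m ∧ ¬ (P.p ∣ m) ∧
      A.valuation (P.freyCurve⁄Qb).a₄ = A.valuation (2 : Qb) ^ m := by
  have hp := P.hp5
  have h2ne : A.valuation (2 : Qb) ≠ 0 := val_two_ne_zero A
  obtain ⟨k, hk, m, hm, hkm⟩ := val_nat_eq_pow (L := Qb) A hA (n := P.b.natAbs)
    (Int.natAbs_ne_zero.2 P.hb0)
  have hk1 : 1 ≤ k := by
    rcases Nat.eq_zero_or_pos k with h0 | h0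
    · exfalso
      rw [h0, pow_zero, one_mul] at hkm
      have hbe := frey_b_even P
      have : (2 : ℕ) ∣ P.b.natAbs := by
        have := Int.natAbs_dvd_natAbs.2 hbe
        simpa using this
      rw [hkm] at this
      exact (Nat.not_even_iff_odd.2 hm) (even_iff_two_dvd.2 this)
    · exact h0
  have hvb : A.valuation (P.b : Qb) = A.valuation (2 : Qb) ^ k := by
    rw [← hk]
    rcases Int.natAbs_eq P.b with h | h
    · conv_lhs => rw [h]
      simp
    · conv_lhs => rw [h]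
      simp
  have hva : A.valuation (P.a : Qb) = 1 := val_odd_int A hA (frey_a_odd P)
  have h16 : A.valuation (16 : Qb) = A.valuation (2 : Qb) ^ 4 := by
    rw [← map_pow]; norm_num
  have h := frey_a₄ P
  have hv : A.valuation (16 * (P.freyCurve⁄Qb).a₄) = A.valuation (2 : Qb) ^ (k * P.p) := by
    rw [h, Valuation.map_neg, map_mul, map_pow, map_pow, hva, one_pow, one_mul, hvb, ← pow_mul]
  have hkp : 5 ≤ k * P.p := by nlinarith
  refine ⟨k * P.p - 4, by omega, ?_, ?_⟩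
  · intro hd
    have h1 : P.p ∣ k * P.p := dvd_mul_left _ _
    have h4 : P.p ∣ 4 := by
      have := (Nat.dvd_sub h1 hd)
      have e : k * P.p - (k * P.p - 4) = 4 := by omega
      rwa [e] at this
    have := Nat.le_of_dvd (by norm_num) h4
    omega
  · rw [map_mul, h16] at hv
    have e : A.valuation (2 : Qb) ^ (k * P.p)
        = A.valuation (2 : Qb) ^ 4 * A.valuation (2 : Qb) ^ (k * P.p - 4) := by
      rw [← pow_add]; congr 1; omega
    rw [e] at hv
    exact mul_left_cancel₀ (pow_ne_zero _ h2ne) hv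

theorem frey_val_disc (P : FreyPackage) (A : ValuationSubring Qb) (hA : A.LiesOverPrime 2) :
    A.valuation (4 * (P.freyCurve⁄Qb).a₂ + 1) = 1 := by
  rw [frey_a₂ P]
  have hva : A.valuation ((P.a : Qb) ^ P.p) = 1 := by
    rw [map_pow, val_odd_int A hA (frey_a_odd P), one_pow]
  have hvb : A.valuation ((P.b : Qb) ^ P.p) < 1 :=
    val_pow_lt_one (val_even_int A hA (frey_b_even P)) P.hp0
  rw [A.valuation.map_sub_eq_of_lt_right (by rw [hva]; exact hvb), hva]

end frey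

section poly

variable {K : Type*} [Field K] {Γ₀ : Type*} [LinearOrderedCommGroupWithZero Γ₀]
  (v : Valuation K Γ₀) {W : WeierstrassCurve.Affine K}

/-- A Weierstrass model `y² + x y = x³ + a₂ x² + a₄ x` with `a₂` integral, `a₄` and `2`
in the maximal ideal. -/
structure TwoModel (v : Valuation K Γ₀) (W : WeierstrassCurve.Affine K) : Prop where
  a₁ : W.a₁ = 1
  a₃ : W.a₃ = 0
  a₆ : W.a₆ = 0
  h₂ : v W.a₂ ≤ 1
  h₄ : v W.a₄ < 1
  two : v 2 < 1

variable {v}

lemma three_terms_lt {t c₁ s c₂ u c₃ : K} (ht : v t < 1) (h₁ : v c₁ ≤ 1) (hs : v s < 1)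
    (h₂ : v c₂ ≤ 1) (hu : v u < 1) (h₃ : v c₃ ≤ 1) : v (t * c₁ + s * c₂ + u * c₃) < 1 := by
  have a1 : v (t * c₁) < 1 := by
    rw [map_mul]; exact mul_lt_one_of_nonneg_of_lt_one_left zero_le ht h₁
  have a2 : v (s * c₂) < 1 := by
    rw [map_mul]; exact mul_lt_one_of_nonneg_of_lt_one_left zero_le hs h₂
  have a3 : v (u * c₃) < 1 := by
    rw [map_mul]; exact mul_lt_one_of_nonneg_of_lt_one_left zero_le hu h₃
  exact v.map_add_lt (v.map_add_lt a1 a2) a3

lemma TwoModel.b₂ (hW : TwoModel v W) : W.b₂ = 1 + 4 * W.a₂ := by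
  rw [WeierstrassCurve.b₂, hW.a₁]; ring

lemma TwoModel.b₄ (hW : TwoModel v W) : W.b₄ = 2 * W.a₄ := by
  rw [WeierstrassCurve.b₄, hW.a₃]; ring

lemma TwoModel.b₆ (hW : TwoModel v W) : W.b₆ = 0 := by
  rw [WeierstrassCurve.b₆, hW.a₃, hW.a₆]; ring

lemma TwoModel.b₈ (hW : TwoModel v W) : W.b₈ = -W.a₄ ^ 2 := by
  rw [WeierstrassCurve.b₈, hW.a₃, hW.a₆]; ring

lemma TwoModel.Ψ₃_eval (hW : TwoModel v W) (x : K) :
    W.Ψ₃.eval x = (x - 1) * (3 * x ^ 3) + 2 * (2 * x ^ 3 + 2 * W.a₂ * x ^ 3 + 3 * W.a₄ * x ^ 2)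
      + W.a₄ * (-W.a₄) := by
  simp only [WeierstrassCurve.Ψ₃, hW.b₂, hW.b₄, hW.b₆, hW.b₈, Polynomial.eval_add,
    Polynomial.eval_mul, Polynomial.eval_pow, Polynomial.eval_X, Polynomial.eval_C,
    Polynomial.eval_ofNat]
  ring

lemma TwoModel.Ψ₂Sq_eval (hW : TwoModel v W) (x : K) :
    W.Ψ₂Sq.eval x = x ^ 2 + 2 * (2 * x ^ 3 + 2 * W.a₂ * x ^ 2 + 2 * W.a₄ * x) := by
  simp only [WeierstrassCurve.Ψ₂Sq, hW.b₂, hW.b₄, hW.b₆, Polynomial.eval_add,
    Polynomial.eval_mul, Polynomial.eval_pow, Polynomial.eval_X, Polynomial.eval_C]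
  ring

lemma TwoModel.preΨ₄_eval (hW : TwoModel v W) (x : K) :
    W.preΨ₄.eval x = x ^ 5 + (2 * (x ^ 6 + 2 * W.a₂ * x ^ 5 + 5 * W.a₄ * x ^ 4)
      + W.a₄ * (-10 * W.a₄ * x ^ 2 - (1 + 4 * W.a₂) * W.a₄ * x - 2 * W.a₄ ^ 2)) := by
  simp only [WeierstrassCurve.preΨ₄, hW.b₂, hW.b₄, hW.b₆, hW.b₈, Polynomial.eval_add,
    Polynomial.eval_mul, Polynomial.eval_pow, Polynomial.eval_X, Polynomial.eval_C,
    Polynomial.eval_ofNat]
  ring

lemma TwoModel.mem_a₂ (hW : TwoModel v W) : W.a₂ ∈ v.integer := hW.h₂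

lemma TwoModel.mem_a₄ (hW : TwoModel v W) : W.a₄ ∈ v.integer := hW.h₄.le

lemma TwoModel.val_Ψ₃ (hW : TwoModel v W) {x : K} (hx : v x ≤ 1) (hx1 : v (x - 1) < 1) :
    v (W.Ψ₃.eval x) < 1 := by
  have hxm : x ∈ v.integer := hx
  have h2 := hW.mem_a₂
  have h4 := hW.mem_a₄
  rw [hW.Ψ₃_eval]
  refine three_terms_lt hx1 ?_ hW.two ?_ hW.h₄ ?_
  · change 3 * x ^ 3 ∈ v.integer
    aesop
  · change 2 * x ^ 3 + 2 * W.a₂ * x ^ 3 + 3 * W.a₄ * x ^ 2 ∈ v.integer
    aesop
  · change -W.a₄ ∈ v.integer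
    aesop

lemma TwoModel.val_Ψ₂Sq (hW : TwoModel v W) {x : K} (hx : v x = 1) :
    v (W.Ψ₂Sq.eval x) = 1 := by
  have hxm : x ∈ v.integer := hx.le
  have h2 := hW.mem_a₂
  have h4 := hW.mem_a₄
  rw [hW.Ψ₂Sq_eval]
  have h1 : v (x ^ 2) = 1 := by rw [map_pow, hx, one_pow]
  have h3 : v (2 * (2 * x ^ 3 + 2 * W.a₂ * x ^ 2 + 2 * W.a₄ * x)) < 1 := by
    rw [map_mul]
    refine mul_lt_one_of_nonneg_of_lt_one_left zero_le hW.two ?_
    change 2 * x ^ 3 + 2 * W.a₂ * x ^ 2 + 2 * W.a₄ * x ∈ v.integer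
    aesop
  rw [v.map_add_eq_of_lt_left (by rw [h1]; exact h3), h1]

lemma TwoModel.val_preΨ₄ (hW : TwoModel v W) {x : K} (hx : v x = 1) :
    v (W.preΨ₄.eval x) = 1 := by
  have hxm : x ∈ v.integer := hx.le
  have h2 := hW.mem_a₂
  have h4 := hW.mem_a₄
  rw [hW.preΨ₄_eval]
  have h1 : v (x ^ 5) = 1 := by rw [map_pow, hx, one_pow]
  have h3 : v (2 * (x ^ 6 + 2 * W.a₂ * x ^ 5 + 5 * W.a₄ * x ^ 4)
      + W.a₄ * (-10 * W.a₄ * x ^ 2 - (1 + 4 * W.a₂) * W.a₄ * x - 2 * W.a₄ ^ 2)) < 1 := by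
    refine v.map_add_lt ?_ ?_
    · rw [map_mul]
      refine mul_lt_one_of_nonneg_of_lt_one_left zero_le hW.two ?_
      change x ^ 6 + 2 * W.a₂ * x ^ 5 + 5 * W.a₄ * x ^ 4 ∈ v.integer
      aesop
    · rw [map_mul]
      refine mul_lt_one_of_nonneg_of_lt_one_left zero_le hW.h₄ ?_
      change -10 * W.a₄ * x ^ 2 - (1 + 4 * W.a₂) * W.a₄ * x - 2 * W.a₄ ^ 2 ∈ v.integer
      aesop
  rw [v.map_add_eq_of_lt_left (by rw [h1]; exact h3), h1]

end poly

section points

variable {K : Type*} [Field K] {W : WeierstrassCurve.Affine K}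

lemma Ψ₂Sq_eval_of_equation {x y : K} (h : W.Equation x y) :
    W.Ψ₂Sq.eval x = (y - W.negY x y) ^ 2 := by
  rw [equation_iff] at h
  simp only [WeierstrassCurve.Ψ₂Sq, WeierstrassCurve.b₂, WeierstrassCurve.b₄,
    WeierstrassCurve.b₆, negY, Polynomial.eval_add,
    Polynomial.eval_mul, Polynomial.eval_pow, Polynomial.eval_X, Polynomial.eval_C]
  linear_combination (-4 : K) * h

lemma Φ_two_eval_eq (x : K) :
    (W.Φ 2).eval x = x * W.Ψ₂Sq.eval x - W.Ψ₃.eval x := by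
  rw [WeierstrassCurve.Φ_two]
  simp only [WeierstrassCurve.Ψ₂Sq, WeierstrassCurve.Ψ₃, Polynomial.eval_add, Polynomial.eval_sub,
    Polynomial.eval_mul, Polynomial.eval_pow, Polynomial.eval_X, Polynomial.eval_C,
    Polynomial.eval_ofNat]
  ring

lemma some_eq_or_neg {x y y' : K} (h : W.Nonsingular x y) (h' : W.Nonsingular x y') :
    Point.some x y' h' = Point.some x y h ∨ Point.some x y' h' = -Point.some x y h := by
  rcases Y_eq_of_X_eq h'.1 h.1 rfl with e | e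
  · left; subst e; rfl
  · right
    rw [neg_some]
    subst e; rfl

lemma eq_zero_of_nsmul_of_coprime {G : Type*} [AddCommGroup G] {P : G} {m n : ℕ}
    (hmn : Nat.Coprime m n) (hm : m • P = 0) (hn : n • P = 0) : P = 0 := by
  have h1 := addOrderOf_dvd_of_nsmul_eq_zero hm
  have h2 := addOrderOf_dvd_of_nsmul_eq_zero hn
  have h3 : addOrderOf P ∣ 1 := by
    have := Nat.dvd_gcd h1 h2
    rwa [hmn.gcd_eq_one] at this
  exact AddMonoid.addOrderOf_eq_one_iff.1 (Nat.dvd_one.1 h3)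

end points

section main

variable {K : Type*} [Field K] [DecidableEq K] {Γ₀ : Type*} [LinearOrderedCommGroupWithZero Γ₀]
  {v : Valuation K Γ₀} {W : WeierstrassCurve.Affine K}

/-- Points of the kernel of reduction have no `p`-torsion when `v p = 1`. -/
lemma TwoModel.ker_free (hW : TwoModel v W) {p : ℕ} (hvp : v (p : K) = 1) {x y : K}
    (h : W.Nonsingular x y) (hx : 1 < v x) : p • Point.some x y h ≠ 0 :=
  (nsmul_ne_zero_of_val v (by rw [hW.a₁, map_one]) hW.h₂ (by rw [hW.a₃, _root_.map_zero]; exact zero_le)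
    hW.h₄.le (by rw [hW.a₆, _root_.map_zero]; exact zero_le) hvp h hx).1

/-- Case (b): a torsion point with `v x = 1` and `x ≡ 1`. -/
theorem TwoModel.unit_case (hW : TwoModel v W) {p : ℕ} (hp3 : Nat.Coprime 3 p)
    (hvp : v (p : K) = 1)
    (h2 : ∀ {x y : K} (h : W.Nonsingular x y), y ≠ W.negY x y → W.Ψ₂Sq.eval x ≠ 0 ∧
      ∃ (y' : K) (hy' : W.Nonsingular ((W.Φ 2).eval x / W.Ψ₂Sq.eval x) y'),
        (2 : ℕ) • Point.some x y h = Point.some ((W.Φ 2).eval x / W.Ψ₂Sq.eval x) y' hy')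
    (h3 : ∀ {x y : K} (h : W.Nonsingular x y), y ≠ W.negY x y → W.Ψ₃.eval x ≠ 0 →
      ∃ (y' : K) (hy' : W.Nonsingular
          (x - W.Ψ₂Sq.eval x * W.preΨ₄.eval x / W.Ψ₃.eval x ^ 2) y'),
        (3 : ℕ) • Point.some x y h =
          Point.some (x - W.Ψ₂Sq.eval x * W.preΨ₄.eval x / W.Ψ₃.eval x ^ 2) y' hy')
    {x y : K} (h : W.Nonsingular x y) (hx : v x = 1) (hx1 : v (x - 1) < 1) :
    p • Point.some x y h ≠ 0 := by
  intro hP
  have hΨ2 := hW.val_Ψ₂Sq hx
  have hΨ4 := hW.val_preΨ₄ hx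
  have hΨ3 := hW.val_Ψ₃ hx.le hx1
  have hΨ2ne : W.Ψ₂Sq.eval x ≠ 0 := by
    intro h0; rw [h0, _root_.map_zero] at hΨ2; exact zero_ne_one hΨ2
  have hy : y ≠ W.negY x y := by
    intro e
    apply hΨ2ne
    rw [Ψ₂Sq_eval_of_equation h.1, ← e, sub_self]
    ring
  have hPne : Point.some x y h ≠ 0 := some_ne_zero h
  by_cases h30 : W.Ψ₃.eval x = 0
  · -- then `2 P = ± P`
    obtain ⟨-, y', hy', e2⟩ := h2 h hy
    have hx2 : (W.Φ 2).eval x / W.Ψ₂Sq.eval x = x := by
      rw [Φ_two_eval_eq, h30, sub_zero, mul_div_assoc, div_self hΨ2ne, mul_one]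
    have key : (2 : ℕ) • Point.some x y h = Point.some x y h ∨
        (2 : ℕ) • Point.some x y h = -Point.some x y h := by
      rw [e2]
      generalize (W.Φ 2).eval x / W.Ψ₂Sq.eval x = x' at hx2 hy'
      subst hx2
      exact some_eq_or_neg h hy'
    rcases key with e | e
    · apply hPne
      have : (2 : ℕ) • Point.some x y h - Point.some x y h = 0 := by rw [e, sub_self]
      rw [two_nsmul, add_sub_cancel_right] at this
      exact this
    · apply hPne
      have h3P : (3 : ℕ) • Point.some x y h = 0 := by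
        rw [show (3 : ℕ) = 2 + 1 from rfl, add_nsmul, one_nsmul, e, neg_add_cancel]
      exact eq_zero_of_nsmul_of_coprime hp3 h3P hP
  · obtain ⟨y', hy', e3⟩ := h3 h hy h30
    have hΨ3pos : 0 < v (W.Ψ₃.eval x) := zero_lt_iff.2 ((Valuation.ne_zero_iff v).2 h30)
    have hbig : 1 < v (W.Ψ₂Sq.eval x * W.preΨ₄.eval x / W.Ψ₃.eval x ^ 2) := by
      rw [map_div₀, map_mul, hΨ2, hΨ4, one_mul, map_pow, one_div]
      rw [one_lt_inv₀ (pow_pos hΨ3pos 2)]
      exact pow_lt_one₀ zero_le hΨ3 two_ne_zero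
    have hx3 : 1 < v (x - W.Ψ₂Sq.eval x * W.preΨ₄.eval x / W.Ψ₃.eval x ^ 2) := by
      rw [v.map_sub_eq_of_lt_right (by rw [hx]; exact hbig)]
      exact hbig
    have := hW.ker_free hvp hy' hx3
    apply this
    rw [← e3, ← mul_nsmul, mul_comm, mul_nsmul, hP, smul_zero]

end main

section node

variable {K : Type*} [Field K] {Γ₀ : Type*} [LinearOrderedCommGroupWithZero Γ₀]
  {v : Valuation K Γ₀}

/-- No even power of `β < 1` lies strictly between `β` and `1`. -/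
lemma not_between {β : Γ₀} (hβ0 : 0 < β) (hβ1 : β < 1) {i : ℤ} (h1 : β < β ^ (2 * i))
    (h2 : β ^ (2 * i) < 1) : False := by
  have hanti := zpow_right_strictAnti₀ hβ0 hβ1
  have hpos : 0 < 2 * i := by
    by_contra hcon
    rw [not_lt] at hcon
    have := hanti.antitone hcon
    simp only [zpow_zero] at this
    exact absurd h2 (not_lt.2 this)
  have h3 : (1 : ℤ) < 2 * i := by omega
  have := hanti h3
  simp only [zpow_one] at this
  exact lt_irrefl _ (h1.trans this)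

/-- Case (c): the component function of a point with `v x < 1` whose `x`-coordinate has
valuation in `(v 2) ^ ℤ` is not `p`-torsion modulo `v a₄ ^ (2ℤ)`. -/
theorem node_case {p : ℕ} (hp : p.Prime) (hodd : Odd p) {m : ℕ} (hpm : ¬ p ∣ m)
    {β : Γ₀} (hβ : β = v (2 : K) ^ m) (hβ1 : β < 1) (h20 : v (2 : K) ≠ 0) (h21 : v (2 : K) < 1)
    (γ : K) {x y : K} (hx : v x < 1) (hR2 : x ≠ 0 → ∃ k : ℤ, v x = v (2 : K) ^ k) (j : ℤ)
    (hj : phiT v β γ x y ^ p = β ^ (2 * j)) : False := by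
  have ht0 : 0 < v (2 : K) := zero_lt_iff.2 h20
  have hβ0 : 0 < β := by rw [hβ]; exact pow_pos ht0 m
  have hantiβ := zpow_right_strictAnti₀ hβ0 hβ1
  have hantit := zpow_right_strictAnti₀ ht0 h21
  have hpodd : Odd (p : ℤ) := by exact_mod_cast hodd
  by_cases hle : v x ≤ β
  · have hphi : phiT v β γ x y = β := by
      unfold phiT
      rw [if_neg (not_le.2 hx), if_pos hle]
    rw [hphi, ← zpow_natCast] at hj
    have := hantiβ.injective hj
    rw [this] at hpodd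
    exact (Int.not_odd_iff_even.2 (even_two_mul j)) hpodd
  · rw [not_le] at hle
    have hx0 : x ≠ 0 := by
      intro h0
      rw [h0, _root_.map_zero] at hle
      exact absurd hle (not_lt.2 zero_le)
    obtain ⟨k, hk⟩ := hR2 hx0
    -- `phiT = t ^ e` with `e = ± k`
    have hphi : ∃ e : ℤ, (e = k ∨ e = -k) ∧ phiT v β γ x y = v (2 : K) ^ e := by
      unfold phiT
      rw [if_neg (not_le.2 hx), if_neg (not_le.2 hle)]
      split_ifs
      · exact ⟨k, Or.inl rfl, hk⟩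
      · exact ⟨-k, Or.inr rfl, by rw [hk, zpow_neg]⟩
    obtain ⟨e, hek, hphi⟩ := hphi
    rw [hphi, hβ, ← zpow_natCast, ← zpow_mul, ← zpow_natCast, ← zpow_mul] at hj
    have hej : e * (p : ℤ) = (m : ℤ) * (2 * j) := hantit.injective hj
    -- `p ∣ j`
    have hpZ : Prime (p : ℤ) := Nat.prime_iff_prime_int.1 hp
    have hdvd : (p : ℤ) ∣ (m : ℤ) * (2 * j) := ⟨e, by rw [← hej]; ring⟩
    have hpj : (p : ℤ) ∣ j := by
      rcases hpZ.dvd_or_dvd hdvd with h | h
      · exact absurd (Int.natCast_dvd_natCast.1 h) hpm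
      · rcases hpZ.dvd_or_dvd h with h' | h'
        · exfalso
          have : (p : ℤ) ∣ 2 := h'
          have h2 : p ∣ 2 := by exact_mod_cast this
          have := (Nat.prime_dvd_prime_iff_eq hp Nat.prime_two).1 h2
          rw [this] at hodd
          exact absurd hodd (by decide)
        · exact h'
    obtain ⟨j', hj'⟩ := hpj
    have hp0 : (p : ℤ) ≠ 0 := by exact_mod_cast hp.ne_zero
    have he : e = (m : ℤ) * (2 * j') := by
      apply mul_right_cancel₀ hp0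
      rw [hej, hj']; ring
    -- `v x = β ^ (2 i)`
    have hvx : ∃ i : ℤ, v x = β ^ (2 * i) := by
      rcases hek with h | h
      · refine ⟨j', ?_⟩
        rw [hk, ← h, he, hβ, ← zpow_natCast, ← zpow_mul]
      · refine ⟨-j', ?_⟩
        have hk' : k = -e := by rw [h]; ring
        rw [hk, hk', he, hβ, ← zpow_natCast, ← zpow_mul]
        congr 1; ring
    obtain ⟨i, hi⟩ := hvx
    rw [hi] at hle hx
    exact not_between hβ0 hβ1 hle hx

end node

section final

local notation "Qb" => AlgebraicClosure ℚ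

theorem frey_twoModel (P : FreyPackage) (A : ValuationSubring Qb) (hA : A.LiesOverPrime 2) :
    TwoModel A.valuation (P.freyCurve⁄Qb) := by
  obtain ⟨m, hm, -, hβ⟩ := frey_val_a₄ P A hA
  refine ⟨frey_a₁ P, frey_a₃ P, frey_a₆ P, frey_val_a₂ P A, ?_, val_two_lt_one A hA⟩
  rw [hβ]
  exact pow_lt_one₀ zero_le (val_two_lt_one A hA) hm.ne'

theorem rat_of_fixed (z : Qb) (h : ∀ σ : Qb ≃ₐ[ℚ] Qb, σ z = z) : ∃ q : ℚ, z = (q : Qb) := by
  obtain ⟨q, hq⟩ := (InfiniteGalois.mem_range_algebraMap_iff_fixed (k := ℚ) (K := Qb) z).2 h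
  exact ⟨q, by rw [← hq, eq_ratCast]⟩

/-- **Step (2d)** with the component function and the duplication / triplication formulas as
explicit hypotheses. -/
theorem frey_no_fixed_torsion_of (P : FreyPackage) (A : ValuationSubring Qb)
    (hA : A.LiesOverPrime 2) (γ : Qb)
    (hCP : ∀ {x y : Qb} (h : (P.freyCurve⁄Qb).Nonsingular x y), P.p • Point.some x y h = 0 →
      ∃ j : ℤ, phiT A.valuation (A.valuation (P.freyCurve⁄Qb).a₄) γ x y ^ P.p
        = A.valuation (P.freyCurve⁄Qb).a₄ ^ (2 * j))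
    (h2 : ∀ {x y : Qb} (h : (P.freyCurve⁄Qb).Nonsingular x y), y ≠ (P.freyCurve⁄Qb).negY x y →
      (P.freyCurve⁄Qb).Ψ₂Sq.eval x ≠ 0 ∧
      ∃ (y' : Qb) (hy' : (P.freyCurve⁄Qb).Nonsingular
          (((P.freyCurve⁄Qb).Φ 2).eval x / (P.freyCurve⁄Qb).Ψ₂Sq.eval x) y'),
        (2 : ℕ) • Point.some x y h
          = Point.some (((P.freyCurve⁄Qb).Φ 2).eval x / (P.freyCurve⁄Qb).Ψ₂Sq.eval x) y' hy')
    (h3 : ∀ {x y : Qb} (h : (P.freyCurve⁄Qb).Nonsingular x y), y ≠ (P.freyCurve⁄Qb).negY x y →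
      (P.freyCurve⁄Qb).Ψ₃.eval x ≠ 0 →
      ∃ (y' : Qb) (hy' : (P.freyCurve⁄Qb).Nonsingular
          (x - (P.freyCurve⁄Qb).Ψ₂Sq.eval x * (P.freyCurve⁄Qb).preΨ₄.eval x
            / (P.freyCurve⁄Qb).Ψ₃.eval x ^ 2) y'),
        (3 : ℕ) • Point.some x y h =
          Point.some (x - (P.freyCurve⁄Qb).Ψ₂Sq.eval x * (P.freyCurve⁄Qb).preΨ₄.eval x
            / (P.freyCurve⁄Qb).Ψ₃.eval x ^ 2) y' hy')
    (Pt : (P.freyCurve⁄Qb).Point) (hPt : P.p • Pt = 0)
    (hfix : ∀ σ : Qb ≃ₐ[ℚ] Qb, σ • Pt = Pt) : Pt = 0 := by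
  rcases Pt with _ | ⟨x, y, h⟩
  · rfl
  exfalso
  have hp5 := P.hp5
  have hW := frey_twoModel P A hA
  have hvp : A.valuation ((P.p : ℕ) : Qb) = 1 :=
    val_natCast_eq_one_of_not_dvd A Nat.prime_two hA (fun hd => by
      have := (Nat.prime_dvd_prime_iff_eq Nat.prime_two P.pp).1 hd
      omega)
  -- rationality of `x`
  have hxfix : ∀ σ : Qb ≃ₐ[ℚ] Qb, σ x = x := by
    intro σ
    have := hfix σ
    rw [algEquiv_smul_def, Point.map_some] at this
    simp only [Point.some.injEq] at this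
    exact this.1
  obtain ⟨q, hq⟩ := rat_of_fixed x hxfix
  rcases lt_trichotomy (A.valuation x) 1 with hlt | heq | hgt
  · -- reduction to the node
    obtain ⟨j, hj⟩ := hCP h hPt
    obtain ⟨m, hm, hpm, hβ⟩ := frey_val_a₄ P A hA
    refine node_case P.pp P.hp_odd hpm hβ hW.h₄ (val_two_ne_zero A) (val_two_lt_one A hA) γ hlt
      ?_ j hj
    intro hx0
    have hq0 : q ≠ 0 := by
      rintro rfl
      apply hx0
      rw [hq]; simp
    rw [hq]
    exact val_rat_zpow_two A hA hq0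
  · -- unit case
    have hp3 : Nat.Coprime 3 P.p := by
      rw [Nat.coprime_primes Nat.prime_three P.pp]
      omega
    refine hW.unit_case hp3 hvp h2 h3 h heq ?_ hPt
    rw [hq] at heq ⊢
    exact val_rat_sub_one A hA heq
  · exact hW.ker_free hvp h hgt hPt

end final

end Fermat.Agent.S13_helper13_AT2D_Core
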