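import Mathlib

set_option autoImplicit false

/-!
# S13, piece CP (core): component function for a nodal Weierstrass model, any residue characteristic

Normalised form: `u * (u + δ * x) = x * (x ^ 2 + c)` with `v δ = 1`, `v c < 1`, `c ≠ 0`.
A collinear triple lies on the line `u = l * x + n`.
-/

namespace Fermat.Agent.S13_helper25_CPcore

variable {K : Type*} [Field K] {Γ₀ : Type*} [LinearOrderedCommGroupWithZero Γ₀]
  (v : Valuation K Γ₀)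

/-- A collinear triple on the normalised nodal model `u (u + δ x) = x (x² + c)`, lying on the
line `u = l x + n`, together with the three Vieta relations. -/
structure NColl (δ c x₁ u₁ x₂ u₂ x₃ u₃ l n : K) : Prop where
  e₁ : u₁ * (u₁ + δ * x₁) = x₁ * (x₁ ^ 2 + c)
  e₂ : u₂ * (u₂ + δ * x₂) = x₂ * (x₂ ^ 2 + c)
  e₃ : u₃ * (u₃ + δ * x₃) = x₃ * (x₃ ^ 2 + c)
  l₁ : u₁ = l * x₁ + n
  l₂ : u₂ = l * x₂ + n
  l₃ : u₃ = l * x₃ + n
  v₁ : x₁ + x₂ + x₃ = l * (l + δ)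
  v₂ : x₁ * x₂ + x₁ * x₃ + x₂ * x₃ = c - (2 * l + δ) * n
  v₃ : x₁ * x₂ * x₃ = n ^ 2

/-- The canonical representative of the component of the point `(x, u)`. -/
noncomputable def phiZ (β : Γ₀) (x u : K) : Γ₀ :=
  open Classical in
  if 1 ≤ v x then 1
  else if v x ≤ β then β
  else if v u < v x then v x else (v x)⁻¹

section Symmetry

variable {δ c x₁ u₁ x₂ u₂ x₃ u₃ l n : K}

lemma ncoll_swap12 (h : NColl δ c x₁ u₁ x₂ u₂ x₃ u₃ l n) :
    NColl δ c x₂ u₂ x₁ u₁ x₃ u₃ l n where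
  e₁ := h.e₂
  e₂ := h.e₁
  e₃ := h.e₃
  l₁ := h.l₂
  l₂ := h.l₁
  l₃ := h.l₃
  v₁ := by linear_combination h.v₁
  v₂ := by linear_combination h.v₂
  v₃ := by linear_combination h.v₃

lemma ncoll_swap23 (h : NColl δ c x₁ u₁ x₂ u₂ x₃ u₃ l n) :
    NColl δ c x₁ u₁ x₃ u₃ x₂ u₂ l n where
  e₁ := h.e₁
  e₂ := h.e₃
  e₃ := h.e₂
  l₁ := h.l₁
  l₂ := h.l₃
  l₃ := h.l₂
  v₁ := by linear_combination h.v₁
  v₂ := by linear_combination h.v₂
  v₃ := by linear_combination h.v₃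

lemma ncoll_swap13 (h : NColl δ c x₁ u₁ x₂ u₂ x₃ u₃ l n) :
    NColl δ c x₃ u₃ x₂ u₂ x₁ u₁ l n where
  e₁ := h.e₃
  e₂ := h.e₂
  e₃ := h.e₁
  l₁ := h.l₃
  l₂ := h.l₂
  l₃ := h.l₁
  v₁ := by linear_combination h.v₁
  v₂ := by linear_combination h.v₂
  v₃ := by linear_combination h.v₃

/-- The dual triple: exchange the two tangent directions at the node. -/
lemma ncoll_dual (h : NColl δ c x₁ u₁ x₂ u₂ x₃ u₃ l n) :
    NColl (-δ) c x₁ (u₁ + δ * x₁) x₂ (u₂ + δ * x₂) x₃ (u₃ + δ * x₃) (l + δ) n where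
  e₁ := by linear_combination h.e₁
  e₂ := by linear_combination h.e₂
  e₃ := by linear_combination h.e₃
  l₁ := by linear_combination h.l₁
  l₂ := by linear_combination h.l₂
  l₃ := by linear_combination h.l₃
  v₁ := by linear_combination h.v₁
  v₂ := by linear_combination h.v₂
  v₃ := h.v₃

end Symmetry

section Small

lemma val_two_le_one : v (2 : K) ≤ 1 := by
  have : (2 : K) = 1 + 1 := by norm_num
  rw [this]
  exact v.map_add_le (by rw [map_one]) (by rw [map_one])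

lemma val_four_le_one : v (4 : K) ≤ 1 := by
  have : (4 : K) = 2 * 2 := by norm_num
  rw [this, map_mul]
  exact mul_le_one' (val_two_le_one v) (val_two_le_one v)

end Small

section PhiZ

variable {β : Γ₀} {x u : K}

lemma phiZ_of_one_le (h : 1 ≤ v x) : phiZ v β x u = 1 := by
  simp [phiZ, h]

lemma phiZ_of_le (h1 : v x < 1) (h : v x ≤ β) : phiZ v β x u = β := by
  simp [phiZ, not_le.2 h1, h]

lemma phiZ_of_pos (h1 : v x < 1) (h : β < v x) (hs : v u < v x) :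
    phiZ v β x u = v x := by
  simp [phiZ, not_le.2 h1, not_le.2 h, hs]

lemma phiZ_of_neg (h1 : v x < 1) (h : β < v x) (hs : ¬ v u < v x) :
    phiZ v β x u = (v x)⁻¹ := by
  simp [phiZ, not_le.2 h1, not_le.2 h, hs]

lemma phiZ_ne_zero (hβ : β ≠ 0) : phiZ v β x u ≠ 0 := by
  by_cases h1 : 1 ≤ v x
  · rw [phiZ_of_one_le v h1]; exact one_ne_zero
  rw [not_le] at h1
  by_cases h : v x ≤ β
  · rw [phiZ_of_le v h1 h]; exact hβ
  rw [not_le] at h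
  have hX : v x ≠ 0 := (lt_of_le_of_lt zero_le h).ne'
  by_cases hs : v u < v x
  · rw [phiZ_of_pos v h1 h hs]; exact hX
  · rw [phiZ_of_neg v h1 h hs]; exact inv_ne_zero hX

end PhiZ

section TypeC

variable {δ c x u : K}

/-- For a point of type `C` exactly one of `u`, `u + δ x` is smaller than `x`. -/
lemma typeC_dichotomy (e : u * (u + δ * x) = x * (x ^ 2 + c)) (hδ : v δ = 1)
    (hb : v c < v x) (h1 : v x < 1) :
    (v u < v x) ↔ ¬ (v (u + δ * x) < v x) := by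
  have hX : 0 < v x := lt_of_le_of_lt zero_le hb
  have hdiff : (u + δ * x) - u = δ * x := by ring
  have hsmall : v (x * (x ^ 2 + c)) < v x * v x := by
    rw [v.map_mul]
    apply mul_lt_mul_of_pos_left _ hX
    apply v.map_add_lt _ hb
    rw [v.map_pow, sq]
    exact mul_lt_of_lt_one_left hX h1
  constructor
  · intro hm hp
    have := v.map_sub_lt hp hm
    rw [hdiff, v.map_mul, hδ, one_mul] at this
    exact lt_irrefl _ this
  · intro hp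
    by_contra hm
    rw [not_lt] at hp hm
    have := mul_le_mul' hm hp
    rw [← v.map_mul u, e] at this
    exact absurd this (not_le.2 hsmall)

/-- Exchanging the two tangent directions inverts the component, up to `β ^ 2`. -/
lemma phiZ_dual (e : u * (u + δ * x) = x * (x ^ 2 + c)) (hδ : v δ = 1) :
    ∃ k : ℤ, phiZ v (v c) x (u + δ * x) * phiZ v (v c) x u = v c ^ (2 * k) := by
  by_cases h1 : 1 ≤ v x
  · refine ⟨0, ?_⟩
    rw [phiZ_of_one_le v h1, phiZ_of_one_le v h1]; simp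
  rw [not_le] at h1
  by_cases h : v x ≤ v c
  · refine ⟨1, ?_⟩
    rw [phiZ_of_le v h1 h, phiZ_of_le v h1 h]
    simp [zpow_ofNat, sq]
  rw [not_le] at h
  have hX : v x ≠ 0 := (lt_of_le_of_lt zero_le h).ne'
  have hd := typeC_dichotomy v e hδ h h1
  refine ⟨0, ?_⟩
  by_cases hs : v u < v x
  · have hs' : ¬ v (u + δ * x) < v x := hd.1 hs
    rw [phiZ_of_pos v h1 h hs, phiZ_of_neg v h1 h hs']
    simp [hX]
  · have hs' : v (u + δ * x) < v x := by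
      by_contra hc
      exact hs (hd.2 hc)
    rw [phiZ_of_neg v h1 h hs, phiZ_of_pos v h1 h hs']
    simp [hX]

end TypeC

section Cases

variable {δ c x₁ u₁ x₂ u₂ x₃ u₃ l n : K}

/-- `(2 l + δ) ^ 2 = δ ^ 2 + 4 (x₁ + x₂ + x₃)`. -/
lemma ncoll_mu_sq (hc : NColl δ c x₁ u₁ x₂ u₂ x₃ u₃ l n) :
    (2 * l + δ) ^ 2 = δ ^ 2 + 4 * (x₁ + x₂ + x₃) := by
  linear_combination -4 * hc.v₁

/-- Case 1: the points with `1 ≤ v x` are closed under the chord construction. -/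
lemma ncase1 (hc : NColl δ c x₁ u₁ x₂ u₂ x₃ u₃ l n) (hδ : v δ ≤ 1)
    (hb : v c < 1) (h₁ : 1 ≤ v x₁) (h₂ : 1 ≤ v x₂) : 1 ≤ v x₃ := by
  by_contra h₃
  rw [not_le] at h₃
  have hX₁ : 0 < v x₁ := lt_of_lt_of_le zero_lt_one h₁
  have hX₂ : 0 < v x₂ := lt_of_lt_of_le zero_lt_one h₂
  have h12 : 1 ≤ v x₁ * v x₂ := one_le_mul_of_one_le_of_one_le h₁ h₂
  have e : (2 * l + δ) * n = -(x₁ * x₂) + (c - x₁ * x₃ - x₂ * x₃) := by
    linear_combination hc.v₂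
  have hsmall : v (c - x₁ * x₃ - x₂ * x₃) < v (-(x₁ * x₂)) := by
    rw [v.map_neg, v.map_mul]
    refine v.map_sub_lt (v.map_sub_lt (lt_of_lt_of_le hb h12) ?_) ?_
    · rw [v.map_mul]
      exact mul_lt_mul_of_pos_left (lt_of_lt_of_le h₃ h₂) hX₁
    · rw [v.map_mul, mul_comm (v x₁)]
      exact mul_lt_mul_of_pos_left (lt_of_lt_of_le h₃ h₁) hX₂
  have key : v (2 * l + δ) * v n = v x₁ * v x₂ := by
    have := v.map_add_eq_of_lt_left hsmall
    rw [← e, v.map_neg, v.map_mul, v.map_mul] at this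
    exact this
  have hΛ : v (2 * l + δ) ^ 2 * v x₃ = v x₁ * v x₂ := by
    have h12' : v x₁ * v x₂ ≠ 0 := (mul_pos hX₁ hX₂).ne'
    apply mul_right_cancel₀ h12'
    calc v (2 * l + δ) ^ 2 * v x₃ * (v x₁ * v x₂)
        = v ((2 * l + δ) ^ 2 * x₃ * (x₁ * x₂)) := by
          simp only [map_mul, map_pow]
      _ = v (((2 * l + δ) * n) ^ 2) := by
          congr 1
          linear_combination (2 * l + δ) ^ 2 * hc.v₃
      _ = (v (2 * l + δ) * v n) ^ 2 := by simp only [map_mul, map_pow]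
      _ = v x₁ * v x₂ * (v x₁ * v x₂) := by rw [key, sq]
  have hΛpos : 0 < v (2 * l + δ) ^ 2 := by
    rcases eq_or_ne (v (2 * l + δ) ^ 2) 0 with h0 | h0
    · rw [h0, zero_mul] at hΛ
      exact absurd hΛ.symm (mul_pos hX₁ hX₂).ne'
    · exact lt_of_le_of_ne zero_le (Ne.symm h0)
  have hΛle : v (2 * l + δ) ^ 2 ≤ v x₁ * v x₂ := by
    rw [← v.map_pow, ncoll_mu_sq hc]
    refine v.map_add_le ?_ ?_
    · rw [v.map_pow]
      exact (pow_le_one₀ zero_le hδ).trans h12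
    · rw [v.map_mul]
      refine (mul_le_of_le_one_left' (val_four_le_one v)).trans ?_
      refine v.map_add_le (v.map_add_le ?_ ?_) ?_
      · exact le_mul_of_one_le_right zero_le h₂
      · exact le_mul_of_one_le_left zero_le h₁
      · exact le_trans h₃.le h12
  have : v (2 * l + δ) ^ 2 * v x₃ < v (2 * l + δ) ^ 2 := mul_lt_of_lt_one_right hΛpos h₃
  rw [hΛ] at this
  exact absurd hΛle (not_le.2 this)

/-- Case 2, first half: a type `C` point cannot have strictly larger `v x` than its partner. -/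
lemma ncase2_val_eq (hc : NColl δ c x₁ u₁ x₂ u₂ x₃ u₃ l n) (hδ : v δ ≤ 1)
    (hb1 : v c < v x₁) (h₁ : v x₁ < 1) (h₂ : v x₂ < 1) (h₃ : 1 ≤ v x₃) : ¬ (v x₂ < v x₁) := by
  intro hlt
  have hX₁ : 0 < v x₁ := lt_of_le_of_lt zero_le hb1
  have hX₃ : 0 < v x₃ := lt_of_lt_of_le zero_lt_one h₃
  have hX₁sq : 0 < v x₁ ^ 2 := pow_pos hX₁ 2
  have hT : 0 < v x₃ * v x₁ ^ 2 := mul_pos hX₃ hX₁sq
  have e : (x₁ + x₂ + x₃) * x₁ ^ 2 = x₁ * (x₁ ^ 2 + c) - n * ((2 * l + δ) * x₁) - n ^ 2 := by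
    have h1 := hc.e₁
    rw [hc.l₁] at h1
    linear_combination x₁ ^ 2 * hc.v₁ + h1
  have hsum : v (x₁ + x₂ + x₃) = v x₃ := by
    apply v.map_add_eq_of_lt_right
    exact lt_of_lt_of_le (v.map_add_lt h₁ h₂) h₃
  have hL : v ((2 * l + δ) ^ 2) ≤ v x₃ := by
    rw [ncoll_mu_sq hc]
    refine v.map_add_le ?_ ?_
    · rw [v.map_pow]
      exact (pow_le_one₀ zero_le hδ).trans h₃
    · rw [v.map_mul, hsum]
      exact mul_le_of_le_one_left' (val_four_le_one v)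
  have hN : v (n ^ 2) = v x₁ * v x₂ * v x₃ := by
    rw [← hc.v₃, v.map_mul, v.map_mul]
  have hNlt : v (n ^ 2) < v x₃ * v x₁ ^ 2 := by
    rw [hN, sq, mul_comm (v x₃)]
    exact mul_lt_mul_of_pos_right (mul_lt_mul_of_pos_left hlt hX₁) hX₃
  have hLHS : v ((x₁ + x₂ + x₃) * x₁ ^ 2) = v x₃ * v x₁ ^ 2 := by
    rw [v.map_mul, hsum, v.map_pow]
  have ht1 : v (x₁ * (x₁ ^ 2 + c)) < v x₃ * v x₁ ^ 2 := by
    have h1 : v (x₁ ^ 2 + c) < v x₁ := by
      apply v.map_add_lt _ hb1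
      rw [v.map_pow, sq]
      exact mul_lt_of_lt_one_left hX₁ h₁
    have h2' : v (x₁ * (x₁ ^ 2 + c)) < v x₁ ^ 2 := by
      rw [v.map_mul, pow_two (v x₁)]
      exact mul_lt_mul_of_pos_left h1 hX₁
    exact lt_of_lt_of_le h2' (le_mul_of_one_le_left zero_le h₃)
  have ht2 : v (n * ((2 * l + δ) * x₁)) < v x₃ * v x₁ ^ 2 := by
    apply lt_of_pow_lt_pow_left₀ 2 zero_le
    have e3 : (n * ((2 * l + δ) * x₁)) ^ 2 = n ^ 2 * ((2 * l + δ) ^ 2 * x₁ ^ 2) := by ring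
    rw [← v.map_pow, e3, v.map_mul, v.map_mul, v.map_pow x₁, sq (v x₃ * v x₁ ^ 2)]
    rcases eq_or_ne (v ((2 * l + δ) ^ 2) * v x₁ ^ 2) 0 with h0 | h0
    · rw [h0, mul_zero]
      exact mul_pos hT hT
    · have hpos : 0 < v ((2 * l + δ) ^ 2) * v x₁ ^ 2 := lt_of_le_of_ne zero_le (Ne.symm h0)
      calc v (n ^ 2) * (v ((2 * l + δ) ^ 2) * v x₁ ^ 2)
          < (v x₃ * v x₁ ^ 2) * (v ((2 * l + δ) ^ 2) * v x₁ ^ 2) :=
            mul_lt_mul_of_pos_right hNlt hpos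
        _ ≤ (v x₃ * v x₁ ^ 2) * (v x₃ * v x₁ ^ 2) :=
            mul_le_mul' le_rfl (mul_le_mul' hL le_rfl)
  have : v ((x₁ + x₂ + x₃) * x₁ ^ 2) < v x₃ * v x₁ ^ 2 := by
    rw [e]
    exact v.map_sub_lt (v.map_sub_lt ht1 ht2) hNlt
  rw [hLHS] at this
  exact lt_irrefl _ this

/-- Case 2, second half: two type `C` partners cannot be on the same branch. -/
lemma ncase2_sign (hc : NColl δ c x₁ u₁ x₂ u₂ x₃ u₃ l n) (hδ : v δ = 1)
    (h12 : v x₁ = v x₂) (h₀ : 0 < v x₁) (h₁ : v x₁ < 1) (h₃ : 1 ≤ v x₃) :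
    ¬ (v u₁ < v x₁ ∧ v u₂ < v x₂) := by
  rintro ⟨hd₁, hd₂⟩
  set m := v x₁ with hm
  have hm2 : v x₂ = m := h12.symm
  rw [hm2] at hd₂
  have hX₃ : 0 < v x₃ := lt_of_lt_of_le zero_lt_one h₃
  have hN : v (n ^ 2) = m * m * v x₃ := by
    rw [← hc.v₃, v.map_mul, v.map_mul, hm2]
  have hNm : m ≤ v n := by
    apply le_of_pow_le_pow_left₀ (n := 2) (by norm_num) zero_le
    rw [← v.map_pow n, hN, sq]
    exact le_mul_of_one_le_right zero_le h₃
  have e₁ : l * x₁ = u₁ - n := by linear_combination -hc.l₁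
  have hLX : v (l * x₁) = v n := by
    rw [e₁]
    exact v.map_sub_eq_of_lt_right (lt_of_lt_of_le hd₁ hNm)
  set L := v l with hL
  have hLm : L * m = v n := by rw [← hLX, v.map_mul]
  have hL1 : 1 ≤ L := by
    by_contra h
    rw [not_le] at h
    have : L * m < m := mul_lt_of_lt_one_left h₀ h
    rw [hLm] at this
    exact absurd hNm (not_le.2 this)
  have hLpos : 0 < L := lt_of_lt_of_le zero_lt_one hL1
  have e₃ : x₁ * x₂ * (x₃ - l ^ 2) = u₁ * u₂ - u₁ * (l * x₂) - u₂ * (l * x₁) := by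
    linear_combination hc.v₃ - (u₂ - l * x₂) * hc.l₁ - n * hc.l₂
  have hR : v (x₁ * x₂ * (x₃ - l ^ 2)) < m * m * L := by
    rw [e₃]
    have hLmm : m * m ≤ m * m * L := le_mul_of_one_le_right zero_le hL1
    refine v.map_sub_lt (v.map_sub_lt ?_ ?_) ?_
    · rw [v.map_mul]
      exact lt_of_lt_of_le (mul_lt_mul'' hd₁ hd₂ zero_le zero_le) hLmm
    · rw [v.map_mul, v.map_mul, hm2, ← hL, mul_comm L m, ← mul_assoc]
      exact mul_lt_mul_of_pos_right (mul_lt_mul_of_pos_right hd₁ h₀) hLpos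
    · rw [v.map_mul, v.map_mul, ← hm, ← hL, mul_comm L m, ← mul_assoc]
      exact mul_lt_mul_of_pos_right (mul_lt_mul_of_pos_right hd₂ h₀) hLpos
  have hR' : v (x₃ - l ^ 2) < L := by
    rw [v.map_mul, v.map_mul, ← hm, hm2] at hR
    exact lt_of_mul_lt_mul_left hR zero_le
  have hV1 : v (l * (l + δ) - x₃) < L := by
    have : l * (l + δ) - x₃ = x₁ + x₂ := by linear_combination -hc.v₁
    rw [this]
    refine lt_of_lt_of_le (v.map_add_lt h₁ ?_) hL1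
    rw [hm2]; exact h₁
  have hfin : v (δ * l) < L := by
    have : δ * l = (l * (l + δ) - x₃) + (x₃ - l ^ 2) := by ring
    rw [this]
    exact v.map_add_lt hV1 hR'
  rw [v.map_mul, hδ, one_mul] at hfin
  exact lt_irrefl _ hfin

end Cases

section Cases3

variable {δ c x₁ u₁ x₂ u₂ x₃ u₃ l n : K}

/-- Case 3 (all three points reduce to the node), sorted, with `l ≡ 0`. -/
lemma ncase3 (hc : NColl δ c x₁ u₁ x₂ u₂ x₃ u₃ l n) (hδ : v δ = 1) (hc0 : c ≠ 0)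
    (h₁ : v x₁ < 1) (h₂ : v x₂ < 1) (h₃ : v x₃ < 1) (hl : v l < 1)
    (h21 : v x₂ ≤ v x₁) (h32 : v x₃ ≤ v x₂) :
    ∃ j : ℤ, phiZ v (v c) x₁ u₁ * phiZ v (v c) x₂ u₂ * phiZ v (v c) x₃ u₃
      = v c ^ (2 * j) := by
  have hμ1 : v (2 * l + δ) = 1 := by
    have h2l : v (2 * l) < v δ := by
      rw [hδ, v.map_mul]
      exact lt_of_le_of_lt (mul_le_of_le_one_left' (val_two_le_one v)) hl
    rw [v.map_add_eq_of_lt_right h2l, hδ]
  have hX₂0 : x₂ ≠ 0 := by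
    rintro rfl
    have h30 : x₃ = 0 := by
      have : v x₃ ≤ 0 := by simpa using h32
      exact v.zero_iff.1 (le_antisymm this zero_le)
    subst h30
    have hN0 : n = 0 := by
      have h' : n ^ 2 = 0 := by rw [← hc.v₃]; ring
      exact pow_eq_zero_iff (by norm_num) |>.1 h'
    have := hc.v₂
    rw [hN0] at this
    apply hc0
    linear_combination -this
  have hx₂ : 0 < v x₂ := v.pos_iff.2 hX₂0
  have hx₁ : 0 < v x₁ := lt_of_lt_of_le hx₂ h21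
  have h12pos : 0 < v x₁ * v x₂ := mul_pos hx₁ hx₂
  have hN : v n ^ 2 = v x₁ * v x₂ * v x₃ := by
    rw [← v.map_pow, ← hc.v₃, v.map_mul, v.map_mul]
  have h2ΛN : v ((2 * l + δ) * n) = v n := by
    rw [v.map_mul, hμ1, one_mul]
  have eb : c = (x₁ * x₂ + x₁ * x₃ + x₂ * x₃) + (2 * l + δ) * n := by
    linear_combination -hc.v₂
  have h13 : v (x₁ * x₃) ≤ v x₁ * v x₂ := by
    rw [v.map_mul]; exact mul_le_mul' le_rfl h32
  have h23 : v (x₂ * x₃) ≤ v x₁ * v x₂ := by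
    rw [v.map_mul, mul_comm (v x₁)]
    exact mul_le_mul' le_rfl (h32.trans h21)
  have hsum_le : v (x₁ * x₂ + x₁ * x₃ + x₂ * x₃) ≤ v x₁ * v x₂ :=
    v.map_add_le (v.map_add_le (by rw [v.map_mul]) h13) h23
  -- the sign lemma: if `v n < v x` then the point is on the `+` branch
  have hplus : ∀ x u : K, u = l * x + n → v n < v x → v u < v x := by
    intro x u hu hlt
    rw [hu]
    apply v.map_add_lt _ hlt
    rw [v.map_mul]
    exact mul_lt_of_lt_one_left (lt_of_le_of_lt zero_le hlt) hl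
  have hx12_1 : v x₁ * v x₂ < v x₁ := mul_lt_of_lt_one_right hx₁ h₂
  have hx12_2 : v x₁ * v x₂ < v x₂ := mul_lt_of_lt_one_left hx₂ h₁
  rcases lt_trichotomy (v x₃) (v x₁ * v x₂) with hlt | heq | hgt
  · -- (iii)
    have hnlt : v n < v x₁ * v x₂ := by
      apply lt_of_pow_lt_pow_left₀ 2 zero_le
      rw [hN, sq]
      exact mul_lt_mul_of_pos_left hlt h12pos
    have h13' : v (x₁ * x₃) < v x₁ * v x₂ := by
      rw [v.map_mul]
      exact mul_lt_mul_of_pos_left (lt_of_lt_of_le hlt (mul_le_of_le_one_left' h₁.le)) hx₁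
    have h23' : v (x₂ * x₃) < v x₁ * v x₂ := by
      rw [v.map_mul, mul_comm (v x₁)]
      exact mul_lt_mul_of_pos_left (lt_of_lt_of_le hlt (mul_le_of_le_one_right' h₂.le)) hx₂
    have hβ : v c = v x₁ * v x₂ := by
      have h1 : v (x₁ * x₂ + x₁ * x₃ + x₂ * x₃) = v x₁ * v x₂ := by
        rw [add_assoc, v.map_add_eq_of_lt_left, v.map_mul]
        rw [v.map_mul]
        exact v.map_add_lt h13' h23'
      have h2 : v ((x₁ * x₂ + x₁ * x₃ + x₂ * x₃) + (2 * l + δ) * n) = v x₁ * v x₂ := by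
        rw [v.map_add_eq_of_lt_left, h1]
        rw [h1, h2ΛN]; exact hnlt
      rw [← h2, ← eb]
    refine ⟨1, ?_⟩
    have p1 : phiZ v (v c) x₁ u₁ = v x₁ :=
      phiZ_of_pos v h₁ (by rw [hβ]; exact hx12_1) (hplus x₁ u₁ hc.l₁ (hnlt.trans hx12_1))
    have p2 : phiZ v (v c) x₂ u₂ = v x₂ :=
      phiZ_of_pos v h₂ (by rw [hβ]; exact hx12_2) (hplus x₂ u₂ hc.l₂ (hnlt.trans hx12_2))
    have p3 : phiZ v (v c) x₃ u₃ = v c :=
      phiZ_of_le v h₃ (by rw [hβ]; exact hlt.le)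
    rw [p1, p2, p3, ← hβ]
    simp [zpow_ofNat, sq]
  · -- (ii)
    have hx₃ : 0 < v x₃ := by rw [heq]; exact h12pos
    have hn : v n = v x₃ := by
      apply (pow_left_inj₀ zero_le zero_le (by norm_num : (2 : ℕ) ≠ 0)).1
      rw [hN, ← heq, sq]
    have hβle : v c ≤ v x₃ := by
      have : v ((x₁ * x₂ + x₁ * x₃ + x₂ * x₃) + (2 * l + δ) * n) ≤ v x₃ :=
        v.map_add_le (by rw [heq]; exact hsum_le) (by rw [h2ΛN, hn])
      rwa [← eb] at this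
    have p1 : phiZ v (v c) x₁ u₁ = v x₁ :=
      phiZ_of_pos v h₁ (lt_of_le_of_lt hβle (by rw [heq]; exact hx12_1))
        (hplus x₁ u₁ hc.l₁ (by rw [hn, heq]; exact hx12_1))
    have p2 : phiZ v (v c) x₂ u₂ = v x₂ :=
      phiZ_of_pos v h₂ (lt_of_le_of_lt hβle (by rw [heq]; exact hx12_2))
        (hplus x₂ u₂ hc.l₂ (by rw [hn, heq]; exact hx12_2))
    by_cases h3b : v x₃ ≤ v c
    · refine ⟨1, ?_⟩
      have p3 : phiZ v (v c) x₃ u₃ = v c := phiZ_of_le v h₃ h3b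
      have : v x₃ = v c := le_antisymm h3b hβle
      rw [p1, p2, p3, ← heq, this]
      simp [zpow_ofNat, sq]
    · rw [not_le] at h3b
      refine ⟨0, ?_⟩
      have hs : ¬ v u₃ < v x₃ := by
        have : u₃ = n + l * x₃ := by rw [hc.l₃]; ring
        rw [this, v.map_add_eq_of_lt_left, hn]
        · exact lt_irrefl _
        · rw [hn, v.map_mul]
          exact mul_lt_of_lt_one_left hx₃ hl
      have p3 : phiZ v (v c) x₃ u₃ = (v x₃)⁻¹ := phiZ_of_neg v h₃ h3b hs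
      rw [p1, p2, p3, ← heq]
      simp [hx₃.ne']
  · -- (i)
    have hx₃ : 0 < v x₃ := lt_trans h12pos hgt
    have hngt : v x₁ * v x₂ < v n := by
      apply lt_of_pow_lt_pow_left₀ 2 zero_le
      rw [hN, sq]
      exact mul_lt_mul_of_pos_left hgt h12pos
    have hβ : v c = v n := by
      have h2 : v ((x₁ * x₂ + x₁ * x₃ + x₂ * x₃) + (2 * l + δ) * n) = v n := by
        rw [v.map_add_eq_of_lt_right, h2ΛN]
        rw [h2ΛN]
        exact lt_of_le_of_lt hsum_le hngt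
      rw [← h2, ← eb]
    have hn3 : v n < v x₃ := by
      apply lt_of_pow_lt_pow_left₀ 2 zero_le
      rw [hN, sq]
      exact mul_lt_mul_of_pos_right hgt hx₃
    have hn2 : v n < v x₂ := lt_of_lt_of_le hn3 h32
    have hn1 : v n < v x₁ := lt_of_lt_of_le hn2 h21
    refine ⟨1, ?_⟩
    have p1 : phiZ v (v c) x₁ u₁ = v x₁ :=
      phiZ_of_pos v h₁ (by rw [hβ]; exact hn1) (hplus x₁ u₁ hc.l₁ hn1)
    have p2 : phiZ v (v c) x₂ u₂ = v x₂ :=
      phiZ_of_pos v h₂ (by rw [hβ]; exact hn2) (hplus x₂ u₂ hc.l₂ hn2)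
    have p3 : phiZ v (v c) x₃ u₃ = v x₃ :=
      phiZ_of_pos v h₃ (by rw [hβ]; exact hn3) (hplus x₃ u₃ hc.l₃ hn3)
    rw [p1, p2, p3, ← hN, hβ]
    simp [zpow_ofNat]

end Cases3

section Combine

variable {δ c x₁ u₁ x₂ u₂ x₃ u₃ l n : K}

lemma ncase2_aux (hc : NColl δ c x₁ u₁ x₂ u₂ x₃ u₃ l n) (hδ : v δ = 1)
    (h₁ : v x₁ < 1) (h₂ : v x₂ < 1) (h₃ : 1 ≤ v x₃) (h21 : v x₂ ≤ v x₁) :
    ∃ j : ℤ, phiZ v (v c) x₁ u₁ * phiZ v (v c) x₂ u₂ = v c ^ (2 * j) := by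
  by_cases h : v x₁ ≤ v c
  · refine ⟨1, ?_⟩
    rw [phiZ_of_le v h₁ h, phiZ_of_le v h₂ (h21.trans h)]
    simp [zpow_ofNat, sq]
  rw [not_le] at h
  have heq : v x₂ = v x₁ :=
    le_antisymm h21 (not_lt.1 (ncase2_val_eq v hc hδ.le h h₁ h₂ h₃))
  have hb2 : v c < v x₂ := by rw [heq]; exact h
  have hpos : 0 < v x₁ := lt_of_le_of_lt zero_le h
  have hX₂ : v x₂ ≠ 0 := by rw [heq]; exact hpos.ne'
  have hδ' : v (-δ) = 1 := by rw [v.map_neg, hδ]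
  have n1 := ncase2_sign v hc hδ heq.symm hpos h₁ h₃
  have n2 := ncase2_sign v (ncoll_dual hc) hδ' heq.symm hpos h₁ h₃
  have d1 := typeC_dichotomy v hc.e₁ hδ h h₁
  have d2 := typeC_dichotomy v hc.e₂ hδ hb2 h₂
  refine ⟨0, ?_⟩
  by_cases s₁ : v u₁ < v x₁
  · have s₂ : ¬ v u₂ < v x₂ := fun s₂ => n1 ⟨s₁, s₂⟩
    rw [phiZ_of_pos v h₁ h s₁, phiZ_of_neg v h₂ hb2 s₂, heq]
    simp [hpos.ne']
  · have s₂ : v u₂ < v x₂ := by
      by_contra s₂
      apply n2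
      constructor
      · by_contra hc1
        exact s₁ (d1.2 hc1)
      · by_contra hc2
        exact s₂ (d2.2 hc2)
    rw [phiZ_of_neg v h₁ h s₁, phiZ_of_pos v h₂ hb2 s₂, heq]
    simp [hpos.ne']

lemma ncase2 (hc : NColl δ c x₁ u₁ x₂ u₂ x₃ u₃ l n) (hδ : v δ = 1)
    (h₁ : v x₁ < 1) (h₂ : v x₂ < 1) (h₃ : 1 ≤ v x₃) :
    ∃ j : ℤ, phiZ v (v c) x₁ u₁ * phiZ v (v c) x₂ u₂ = v c ^ (2 * j) := by
  rcases le_total (v x₂) (v x₁) with h | h
  · exact ncase2_aux v hc hδ h₁ h₂ h₃ h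
  · obtain ⟨j, hj⟩ := ncase2_aux v (ncoll_swap12 hc) hδ h₂ h₁ h₃ h
    exact ⟨j, by rw [mul_comm]; exact hj⟩

lemma ncase3_sorted (hc : NColl δ c x₁ u₁ x₂ u₂ x₃ u₃ l n) (hδ : v δ = 1) (hc0 : c ≠ 0)
    (h₁ : v x₁ < 1) (h₂ : v x₂ < 1) (h₃ : v x₃ < 1) (hl : v l < 1) :
    ∃ j : ℤ, phiZ v (v c) x₁ u₁ * phiZ v (v c) x₂ u₂ * phiZ v (v c) x₃ u₃
      = v c ^ (2 * j) := by
  rcases le_total (v x₂) (v x₁) with h21 | h12
  · rcases le_total (v x₃) (v x₂) with h32 | h23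
    · exact ncase3 v hc hδ hc0 h₁ h₂ h₃ hl h21 h32
    · rcases le_total (v x₃) (v x₁) with h31 | h13
      · obtain ⟨j, hj⟩ := ncase3 v (ncoll_swap23 hc) hδ hc0 h₁ h₃ h₂ hl h31 h23
        exact ⟨j, by rw [← hj]; simp only [mul_assoc, mul_comm, mul_left_comm]⟩
      · obtain ⟨j, hj⟩ := ncase3 v (ncoll_swap23 (ncoll_swap13 hc)) hδ hc0
          h₃ h₁ h₂ hl h13 h21
        exact ⟨j, by rw [← hj]; simp only [mul_assoc, mul_comm, mul_left_comm]⟩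
  · rcases le_total (v x₃) (v x₁) with h31 | h13
    · obtain ⟨j, hj⟩ := ncase3 v (ncoll_swap12 hc) hδ hc0 h₂ h₁ h₃ hl h12 h31
      exact ⟨j, by rw [← hj]; simp only [mul_assoc, mul_comm, mul_left_comm]⟩
    · rcases le_total (v x₃) (v x₂) with h32 | h23
      · obtain ⟨j, hj⟩ := ncase3 v (ncoll_swap23 (ncoll_swap12 hc)) hδ hc0
          h₂ h₃ h₁ hl h32 h13
        exact ⟨j, by rw [← hj]; simp only [mul_assoc, mul_comm, mul_left_comm]⟩
      · obtain ⟨j, hj⟩ := ncase3 v (ncoll_swap13 hc) hδ hc0 h₃ h₂ h₁ hl h23 h12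
        exact ⟨j, by rw [← hj]; simp only [mul_assoc, mul_comm, mul_left_comm]⟩

lemma ncase3_all (hc : NColl δ c x₁ u₁ x₂ u₂ x₃ u₃ l n) (hδ : v δ = 1) (hc0 : c ≠ 0)
    (h₁ : v x₁ < 1) (h₂ : v x₂ < 1) (h₃ : v x₃ < 1) :
    ∃ j : ℤ, phiZ v (v c) x₁ u₁ * phiZ v (v c) x₂ u₂ * phiZ v (v c) x₃ u₃
      = v c ^ (2 * j) := by
  have hβ : v c ≠ 0 := (v.ne_zero_iff).2 hc0
  have hsign : v l < 1 ∨ v (l + δ) < 1 := by
    have hlt : v (l * (l + δ)) < 1 := by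
      rw [← hc.v₁]
      exact v.map_add_lt (v.map_add_lt h₁ h₂) h₃
    rw [v.map_mul] at hlt
    by_contra hcon
    rw [not_or, not_lt, not_lt] at hcon
    exact absurd (one_le_mul_of_one_le_of_one_le hcon.1 hcon.2) (not_le.2 hlt)
  rcases hsign with hl | hl
  · exact ncase3_sorted v hc hδ hc0 h₁ h₂ h₃ hl
  · have hδ' : v (-δ) = 1 := by rw [v.map_neg, hδ]
    obtain ⟨j, hj⟩ := ncase3_sorted v (ncoll_dual hc) hδ' hc0 h₁ h₂ h₃ hl
    obtain ⟨k₁, hk₁⟩ := phiZ_dual v hc.e₁ hδ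
    obtain ⟨k₂, hk₂⟩ := phiZ_dual v hc.e₂ hδ
    obtain ⟨k₃, hk₃⟩ := phiZ_dual v hc.e₃ hδ
    refine ⟨k₁ + k₂ + k₃ - j, ?_⟩
    have hne : phiZ v (v c) x₁ (u₁ + δ * x₁) * phiZ v (v c) x₂ (u₂ + δ * x₂) *
        phiZ v (v c) x₃ (u₃ + δ * x₃) ≠ 0 :=
      mul_ne_zero (mul_ne_zero (phiZ_ne_zero v hβ) (phiZ_ne_zero v hβ)) (phiZ_ne_zero v hβ)
    apply mul_left_cancel₀ hne
    calc phiZ v (v c) x₁ (u₁ + δ * x₁) * phiZ v (v c) x₂ (u₂ + δ * x₂) *
          phiZ v (v c) x₃ (u₃ + δ * x₃) *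
          (phiZ v (v c) x₁ u₁ * phiZ v (v c) x₂ u₂ * phiZ v (v c) x₃ u₃)
        = (phiZ v (v c) x₁ (u₁ + δ * x₁) * phiZ v (v c) x₁ u₁) *
          (phiZ v (v c) x₂ (u₂ + δ * x₂) * phiZ v (v c) x₂ u₂) *
          (phiZ v (v c) x₃ (u₃ + δ * x₃) * phiZ v (v c) x₃ u₃) := by
          simp only [mul_assoc, mul_comm, mul_left_comm]
      _ = v c ^ (2 * k₁) * v c ^ (2 * k₂) * v c ^ (2 * k₃) := by rw [hk₁, hk₂, hk₃]
      _ = v c ^ (2 * j) * v c ^ (2 * (k₁ + k₂ + k₃ - j)) := by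
          rw [← zpow_add₀ hβ, ← zpow_add₀ hβ, ← zpow_add₀ hβ]
          congr 1
          ring
      _ = _ := by rw [hj]

/-- The component map is additive on collinear triples of the normalised model,
up to `v c ^ 2`. -/
theorem ncomponent (hc : NColl δ c x₁ u₁ x₂ u₂ x₃ u₃ l n)
    (hδ : v δ = 1) (hb : v c < 1) (hc0 : c ≠ 0) :
    ∃ j : ℤ, phiZ v (v c) x₁ u₁ * phiZ v (v c) x₂ u₂ * phiZ v (v c) x₃ u₃
      = v c ^ (2 * j) := by
  by_cases h₁ : v x₁ < 1 <;> by_cases h₂ : v x₂ < 1 <;> by_cases h₃ : v x₃ < 1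
  · exact ncase3_all v hc hδ hc0 h₁ h₂ h₃
  · rw [not_lt] at h₃
    obtain ⟨j, hj⟩ := ncase2 v hc hδ h₁ h₂ h₃
    exact ⟨j, by rw [phiZ_of_one_le v h₃, mul_one, hj]⟩
  · rw [not_lt] at h₂
    obtain ⟨j, hj⟩ := ncase2 v (ncoll_swap23 hc) hδ h₁ h₃ h₂
    exact ⟨j, by rw [phiZ_of_one_le v h₂, mul_one, hj]⟩
  · rw [not_lt] at h₂ h₃
    exact absurd (ncase1 v (ncoll_swap13 hc) hδ.le hb h₃ h₂) (not_le.2 h₁)
  · rw [not_lt] at h₁
    obtain ⟨j, hj⟩ := ncase2 v (ncoll_swap13 hc) hδ h₃ h₂ h₁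
    refine ⟨j, ?_⟩
    rw [phiZ_of_one_le v h₁, one_mul, mul_comm, hj]
  · rw [not_lt] at h₁ h₃
    exact absurd (ncase1 v (ncoll_swap23 hc) hδ.le hb h₁ h₃) (not_le.2 h₂)
  · rw [not_lt] at h₁ h₂
    exact absurd (ncase1 v hc hδ.le hb h₁ h₂) (not_le.2 h₃)
  · rw [not_lt] at h₁ h₂ h₃
    refine ⟨0, ?_⟩
    rw [phiZ_of_one_le v h₁, phiZ_of_one_le v h₂, phiZ_of_one_le v h₃]
    simp

end Combine

end Fermat.Agent.S13_helper25_CPcore
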