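import Mathlib
import Fermat.Agent.S05_helper1_Defs
import Fermat.Agent.S05_helper25_Bridge
import Fermat.Agent.S13_helper25_CPcore

set_option autoImplicit false

/-!
# S13, piece CP: the component function of a nodal Weierstrass model

General form `y² + a₁ x y = x³ + a₂ x² + a₄ x` (`a₃ = a₆ = 0`), `v a₄ < 1`, `a₄ ≠ 0`,
`γ` a root of `T² + a₁ T - a₂` with `v (2 γ + a₁) = 1` (i.e. `b₂` is a unit).
No hypothesis on the residue characteristic.
-/

namespace Fermat.Agent.S13_helper25_CP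

open WeierstrassCurve WeierstrassCurve.Affine
open Fermat.Agent.S13_helper25_CPcore

variable {K : Type*} [Field K] {Γ₀ : Type*} [LinearOrderedCommGroupWithZero Γ₀]
  (v : Valuation K Γ₀)

/-- A nodal model: `a₃ = a₆ = 0`, `0 < v a₄ < 1`, and `γ` is a root of `T² + a₁ T - a₂` such that
the difference `2 γ + a₁` of the two roots is a unit. -/
structure NodalModel (W : WeierstrassCurve.Affine K) (γ : K) : Prop where
  a₃ : W.a₃ = 0
  a₆ : W.a₆ = 0
  h₄ : v W.a₄ < 1
  h₄0 : W.a₄ ≠ 0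
  hγ : γ ^ 2 + W.a₁ * γ - W.a₂ = 0
  hδ : v (2 * γ + W.a₁) = 1

/-- The component map on points (a representative in the value group). -/
noncomputable def phiN (W : WeierstrassCurve.Affine K) (γ : K) : W.Point → Γ₀
  | .zero => 1
  | .some x y _ => phiZ v (v W.a₄) x (y - γ * x)

/-- The points with nonsingular reduction (identity component). -/
def InE0 {W : WeierstrassCurve.Affine K} : W.Point → Prop
  | .zero => True
  | .some x _ _ => 1 ≤ v x

variable {W : WeierstrassCurve.Affine K} {γ : K}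

@[simp] lemma phiN_zero : phiN v W γ (0 : W.Point) = 1 := rfl

@[simp] lemma phiN_some {x y : K} (h : W.Nonsingular x y) :
    phiN v W γ (Point.some x y h) = phiZ v (v W.a₄) x (y - γ * x) := rfl

lemma phiN_eq_phiT {x y : K} (h : W.Nonsingular x y) :
    phiN v W γ (Point.some x y h) = Fermat.Agent.S05_helper1_Defs.phiT v (v W.a₄) γ x y := rfl

@[simp] lemma inE0_zero : InE0 v (0 : W.Point) := trivial

@[simp] lemma inE0_some {x y : K} (h : W.Nonsingular x y) :
    InE0 v (Point.some x y h) ↔ 1 ≤ v x := Iff.rfl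

lemma NodalModel.pos (hW : NodalModel v W γ) : 0 < v W.a₄ := (v.pos_iff).2 hW.h₄0

lemma NodalModel.ne_zero (hW : NodalModel v W γ) : v W.a₄ ≠ 0 := (v.ne_zero_iff).2 hW.h₄0

/-- The other root `-a₁ - γ` also gives a nodal model. -/
lemma NodalModel.dual (hW : NodalModel v W γ) : NodalModel v W (-W.a₁ - γ) where
  a₃ := hW.a₃
  a₆ := hW.a₆
  h₄ := hW.h₄
  h₄0 := hW.h₄0
  hγ := by linear_combination hW.hγ
  hδ := by
    have : 2 * (-W.a₁ - γ) + W.a₁ = -(2 * γ + W.a₁) := by ring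
    rw [this, v.map_neg, hW.hδ]

lemma phiN_ne_zero (hW : NodalModel v W γ) (P : W.Point) : phiN v W γ P ≠ 0 := by
  cases P with
  | zero => exact one_ne_zero
  | some x y h => rw [phiN_some]; exact phiZ_ne_zero v hW.ne_zero

/-- The normalised equation satisfied by `(x, y - γ x)`. -/
lemma nodal_equation (hW : NodalModel v W γ) {x y : K} (h : W.Equation x y) :
    (y - γ * x) * ((y - γ * x) + (2 * γ + W.a₁) * x) = x * (x ^ 2 + W.a₄) := by
  rw [equation_iff, hW.a₃, hW.a₆] at h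
  linear_combination h - x ^ 2 * hW.hγ

lemma phiZ_neg_u (β : Γ₀) (x u : K) : phiZ v β x (-u) = phiZ v β x u := by
  unfold phiZ
  rw [v.map_neg]

/-- NEG: the component of `-P` is inverse to that of `P`, up to `v a₄ ^ 2`. -/
lemma phiN_neg_some (hW : NodalModel v W γ) {x y : K} (h : W.Nonsingular x y) :
    ∃ k : ℤ, phiN v W γ (-Point.some x y h) * phiN v W γ (Point.some x y h) =
      v W.a₄ ^ (2 * k) := by
  rw [Point.neg_some, phiN_some, phiN_some]
  have hneg : W.negY x y - γ * x = -((y - γ * x) + (2 * γ + W.a₁) * x) := by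
    rw [negY, hW.a₃]; ring
  rw [hneg, phiZ_neg_u]
  exact phiZ_dual v (nodal_equation v hW h.1) hW.hδ

theorem phiN_neg (hW : NodalModel v W γ) (P : W.Point) :
    ∃ k : ℤ, phiN v W γ (-P) * phiN v W γ P = v W.a₄ ^ (2 * k) := by
  cases P with
  | zero =>
    refine ⟨0, ?_⟩
    show (1 : Γ₀) * 1 = _
    simp
  | some x y h => exact phiN_neg_some v hW h

section Bridge

variable [DecidableEq K]

/-- Three affine points with sum zero form a normalised collinear triple. -/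
theorem nbridge (hW : NodalModel v W γ)
    {x₁ y₁ x₂ y₂ x₃ y₃ : K} (h₁ : W.Nonsingular x₁ y₁) (h₂ : W.Nonsingular x₂ y₂)
    (h₃ : W.Nonsingular x₃ y₃)
    (hsum : Point.some x₁ y₁ h₁ + Point.some x₂ y₂ h₂ + Point.some x₃ y₃ h₃ = 0) :
    ∃ l n : K, NColl (2 * γ + W.a₁) W.a₄ x₁ (y₁ - γ * x₁) x₂ (y₂ - γ * x₂)
      x₃ (y₃ - γ * x₃) l n := by
  have hneg : Point.some x₁ y₁ h₁ + Point.some x₂ y₂ h₂ = -Point.some x₃ y₃ h₃ :=
    eq_neg_of_add_eq_zero_left hsum
  have hxy : ¬(x₁ = x₂ ∧ y₁ = W.negY x₂ y₂) := by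
    rintro ⟨hx, hy⟩
    rw [Point.add_of_Y_eq hx hy] at hneg
    rw [Point.neg_some] at hneg
    exact Point.some_ne_zero _ hneg.symm
  rw [Point.add_some hxy, Point.neg_some, Point.some.injEq] at hneg
  obtain ⟨hx₃, hy₃⟩ := hneg
  have hy₃' : y₃ = W.negAddY x₁ x₂ y₁ (W.slope x₁ x₂ y₁ y₂) := by
    have := congrArg (W.negY x₃) hy₃
    rw [negY_negY] at this
    rw [← this, addY, ← hx₃, negY_negY]
  obtain ⟨v₁, v₂, v₃⟩ := Fermat.Agent.S05_helper25_Bridge.vieta h₁.1 h₂.1 hxy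
  have hl₂ := Fermat.Agent.S05_helper25_Bridge.line_through h₁.1 h₂.1 hxy
  rw [hx₃] at v₁ v₂ v₃
  simp only [negAddY] at hy₃'
  rw [hx₃] at hy₃'
  set s := W.slope x₁ x₂ y₁ y₂ with hs
  rw [hW.a₃] at v₂
  rw [hW.a₃, hW.a₆] at v₃
  refine ⟨s - γ, y₁ - s * x₁, ?_⟩
  refine ⟨nodal_equation v hW h₁.1, nodal_equation v hW h₂.1, nodal_equation v hW h₃.1,
    ?_, ?_, ?_, ?_, ?_, ?_⟩
  · ring
  · linear_combination hl₂
  · linear_combination hy₃'
  · linear_combination v₁ + hW.hγ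
  · linear_combination v₂
  · linear_combination v₃

/-- ADD: the component map is additive up to `v a₄ ^ 2`. -/
theorem phiN_add (hW : NodalModel v W γ) (P Q : W.Point) :
    ∃ j : ℤ, phiN v W γ (P + Q) = phiN v W γ P * phiN v W γ Q * v W.a₄ ^ (2 * j) := by
  have hβ : v W.a₄ ≠ 0 := hW.ne_zero
  cases P with
  | zero =>
    refine ⟨0, ?_⟩
    show phiN v W γ (0 + Q) = phiN v W γ 0 * _ * _
    simp
  | some x₁ y₁ h₁ =>
    cases Q with
    | zero =>
      refine ⟨0, ?_⟩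
      show phiN v W γ (Point.some x₁ y₁ h₁ + 0) = _ * phiN v W γ 0 * _
      simp
    | some x₂ y₂ h₂ =>
      rcases hR : Point.some x₁ y₁ h₁ + Point.some x₂ y₂ h₂ with _ | ⟨x₃, y₃, h₃⟩
      · -- P + Q = 0
        have hQ : Point.some x₂ y₂ h₂ = -Point.some x₁ y₁ h₁ :=
          eq_neg_of_add_eq_zero_right hR
        obtain ⟨k, hk⟩ := phiN_neg_some v hW h₁
        refine ⟨-k, ?_⟩
        rw [hQ, mul_comm (phiN v W γ (Point.some x₁ y₁ h₁)), hk, ← zpow_add₀ hβ]
        show (1 : Γ₀) = _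
        rw [show 2 * k + 2 * -k = 0 by ring, zpow_zero]
      · -- P + Q = R affine
        have hsum : Point.some x₁ y₁ h₁ + Point.some x₂ y₂ h₂ +
            Point.some x₃ (W.negY x₃ y₃) ((nonsingular_neg x₃ y₃).2 h₃) = 0 := by
          rw [hR, ← Point.neg_some h₃]
          exact add_neg_cancel _
        obtain ⟨l, n, hc⟩ := nbridge v hW h₁ h₂ ((nonsingular_neg x₃ y₃).2 h₃) hsum
        obtain ⟨j, hj⟩ := ncomponent v hc hW.hδ hW.h₄ hW.h₄0
        obtain ⟨k, hk⟩ := phiN_neg_some v hW h₃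
        rw [Point.neg_some, phiN_some, phiN_some] at hk
        refine ⟨k - j, ?_⟩
        rw [phiN_some, phiN_some, phiN_some]
        set A := phiZ v (v W.a₄) x₁ (y₁ - γ * x₁)
        set B := phiZ v (v W.a₄) x₂ (y₂ - γ * x₂)
        set C := phiZ v (v W.a₄) x₃ (W.negY x₃ y₃ - γ * x₃)
        set R := phiZ v (v W.a₄) x₃ (y₃ - γ * x₃)
        have hC : C ≠ 0 := phiZ_ne_zero v hβ
        have hj' : v W.a₄ ^ (2 * j) ≠ 0 := zpow_ne_zero _ hβ
        have : R * v W.a₄ ^ (2 * j) = A * B * v W.a₄ ^ (2 * k) := by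
          rw [← hj, ← hk]
          simp only [mul_assoc, mul_comm, mul_left_comm]
        have h3 : v W.a₄ ^ (2 * (k - j)) = v W.a₄ ^ (2 * k) * (v W.a₄ ^ (2 * j))⁻¹ := by
          rw [show 2 * (k - j) = 2 * k + -(2 * j) by ring, zpow_add₀ hβ, zpow_neg]
        rw [h3, ← mul_assoc, ← this, mul_assoc, mul_inv_cancel₀ hj', mul_one]

theorem phiN_nsmul (hW : NodalModel v W γ) (P : W.Point) (n : ℕ) :
    ∃ j : ℤ, phiN v W γ (n • P) = phiN v W γ P ^ n * v W.a₄ ^ (2 * j) := by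
  have hβ : v W.a₄ ≠ 0 := hW.ne_zero
  induction n with
  | zero => exact ⟨0, by simp⟩
  | succ n ih =>
    obtain ⟨j, hj⟩ := ih
    obtain ⟨k, hk⟩ := phiN_add v hW (n • P) P
    refine ⟨j + k, ?_⟩
    rw [succ_nsmul, hk, hj, pow_succ, show 2 * (j + k) = 2 * j + 2 * k by ring, zpow_add₀ hβ]
    simp only [mul_assoc, mul_comm, mul_left_comm]

/-- SUB: the component map of a difference. -/
theorem phiN_sub (hW : NodalModel v W γ) (P Q : W.Point) :
    ∃ j : ℤ, phiN v W γ (P - Q) * phiN v W γ Q = phiN v W γ P * v W.a₄ ^ (2 * j) := by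
  obtain ⟨j, hj⟩ := phiN_add v hW (P - Q) Q
  rw [sub_add_cancel] at hj
  refine ⟨-j, ?_⟩
  have hβ : v W.a₄ ≠ 0 := hW.ne_zero
  have hj' : v W.a₄ ^ (2 * j) ≠ 0 := zpow_ne_zero _ hβ
  rw [hj, show 2 * -j = -(2 * j) by ring, zpow_neg, mul_assoc, mul_inv_cancel₀ hj', mul_one]

/-- Torsion points have torsion components. -/
theorem phiN_torsion (hW : NodalModel v W γ) (n : ℕ) {P : W.Point} (hn : n • P = 0) :
    ∃ j : ℤ, phiN v W γ P ^ n = v W.a₄ ^ (2 * j) := by
  have hβ : v W.a₄ ≠ 0 := hW.ne_zero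
  obtain ⟨j, hj⟩ := phiN_nsmul v hW P n
  rw [hn, phiN_zero] at hj
  refine ⟨-j, ?_⟩
  have hj' : v W.a₄ ^ (2 * j) ≠ 0 := zpow_ne_zero _ hβ
  rw [show 2 * -j = -(2 * j) by ring, zpow_neg]
  exact eq_inv_of_mul_eq_one_left hj.symm

end Bridge

section Kernel

/-- The kernel of the component map is the identity component. -/
theorem inE0_iff (hW : NodalModel v W γ) (P : W.Point) :
    InE0 v P ↔ ∃ j : ℤ, phiN v W γ P = v W.a₄ ^ (2 * j) := by
  have hβ0 : 0 < v W.a₄ := hW.pos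
  have hβ1 : v W.a₄ < 1 := hW.h₄
  have hanti := zpow_right_strictAnti₀ hβ0 hβ1
  cases P with
  | zero =>
    refine ⟨fun _ => ⟨0, ?_⟩, fun _ => trivial⟩
    show (1 : Γ₀) = _
    simp
  | some x y h =>
    rw [inE0_some, phiN_some]
    constructor
    · intro hx
      exact ⟨0, by rw [phiZ_of_one_le v hx]; simp⟩
    · rintro ⟨j, hj⟩
      by_contra hx
      rw [not_le] at hx
      by_cases hle : v x ≤ v W.a₄
      · rw [phiZ_of_le v hx hle] at hj
        have h1 : v W.a₄ ^ (1 : ℤ) = v W.a₄ ^ (2 * j) := by rw [zpow_one]; exact hj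
        have := hanti.injective h1
        omega
      rw [not_le] at hle
      have hx0 : v x ≠ 0 := (lt_of_le_of_lt zero_le hle).ne'
      -- `v x = v a₄ ^ m` with `m` even: impossible for `v a₄ < v x < 1`
      have key : ∀ m : ℤ, v x ≠ v W.a₄ ^ (2 * m) := by
        intro m hm
        have h0 : v W.a₄ ^ (2 * m) < v W.a₄ ^ (0 : ℤ) := by rw [zpow_zero, ← hm]; exact hx
        have h1 : v W.a₄ ^ (1 : ℤ) < v W.a₄ ^ (2 * m) := by rw [zpow_one, ← hm]; exact hle
        have a := (StrictAnti.lt_iff_gt hanti).1 h0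
        have b := (StrictAnti.lt_iff_gt hanti).1 h1
        omega
      by_cases hs : v (y - γ * x) < v x
      · rw [phiZ_of_pos v hx hle hs] at hj
        exact key j hj
      · rw [phiZ_of_neg v hx hle hs] at hj
        apply key (-j)
        rw [show 2 * -j = -(2 * j) by ring, zpow_neg, ← hj, inv_inv]

theorem inE0_neg {P : W.Point} (hP : InE0 v P) : InE0 v (-P) := by
  cases P with
  | zero => exact hP
  | some x y h => rw [Point.neg_some]; exact hP

variable [DecidableEq K]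

theorem inE0_add (hW : NodalModel v W γ) {P Q : W.Point} (hP : InE0 v P) (hQ : InE0 v Q) :
    InE0 v (P + Q) := by
  have hβ : v W.a₄ ≠ 0 := hW.ne_zero
  obtain ⟨a, ha⟩ := (inE0_iff v hW P).1 hP
  obtain ⟨b, hb⟩ := (inE0_iff v hW Q).1 hQ
  obtain ⟨j, hj⟩ := phiN_add v hW P Q
  refine (inE0_iff v hW (P + Q)).2 ⟨a + b + j, ?_⟩
  rw [hj, ha, hb, ← zpow_add₀ hβ, ← zpow_add₀ hβ]
  congr 1
  ring

/-- Two points with the same component differ by a point of the identity component. -/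
theorem inE0_sub_of_phiN_eq (hW : NodalModel v W γ) {P Q : W.Point}
    (h : phiN v W γ P = phiN v W γ Q) : InE0 v (P - Q) := by
  have hβ : v W.a₄ ≠ 0 := hW.ne_zero
  obtain ⟨j, hj⟩ := phiN_sub v hW P Q
  refine (inE0_iff v hW (P - Q)).2 ⟨j, ?_⟩
  rw [h] at hj
  have hQ : phiN v W γ Q ≠ 0 := phiN_ne_zero v hW Q
  apply mul_right_cancel₀ hQ
  rw [hj, mul_comm]

/-- The identity component as a subgroup. -/
def E0 (hW : NodalModel v W γ) : AddSubgroup W.Point where
  carrier := {P | InE0 v P}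
  zero_mem' := trivial
  add_mem' := fun hP hQ => inE0_add v hW hP hQ
  neg_mem' := fun hP => inE0_neg v hP

@[simp] lemma mem_E0 (hW : NodalModel v W γ) (P : W.Point) : P ∈ E0 v hW ↔ InE0 v P := Iff.rfl

end Kernel

section Galois

variable {F : Type*} [Field F] [Algebra F K] {W₀ : WeierstrassCurve.Affine F} {γ : K}
  [DecidableEq K]

/-- The component map is invariant under valuation-preserving automorphisms fixing `γ`. -/
theorem phiN_map (σ : K →ₐ[F] K) (hv : ∀ z, v (σ z) = v z) (hγ : σ γ = γ)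
    (P : (W₀⁄K).Point) :
    phiN v (W₀⁄K) γ (Point.map (W' := W₀) σ P) = phiN v (W₀⁄K) γ P := by
  cases P with
  | zero => rfl
  | some x y h =>
    rw [Point.map_some, phiN_some, phiN_some]
    have e : σ y - γ * σ x = σ (y - γ * x) := by rw [map_sub, map_mul, hγ]
    unfold phiZ
    rw [e, hv, hv]

/-- `σ P - P` lies in the identity component. -/
theorem inE0_map_sub (hW : NodalModel v (W₀⁄K) γ) (σ : K →ₐ[F] K)
    (hv : ∀ z, v (σ z) = v z) (hγ : σ γ = γ) (P : (W₀⁄K).Point) :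
    InE0 v (Point.map (W' := W₀) σ P - P) :=
  inE0_sub_of_phiN_eq v hW (phiN_map v σ hv hγ P)

end Galois

end Fermat.Agent.S13_helper25_CP
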