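import Mathlib

/-!
# S13 piece DP-BIQ + DP-INIT (helper29)

The addition biquadratic on `x`-coordinates of a Weierstrass curve over a field.
For affine points `P₁ = (x₁, y₁)`, `P₂ = (x₂, y₂)` with `x₁ ≠ x₂` the `x`-coordinates `u` of
`P₁ + P₂` and `u'` of `P₁ - P₂` satisfy `u + u' = S / (x₁ - x₂)²`, `u u' = T / (x₁ - x₂)²`, so both
are roots of `F(x₁, x₂, C) = (x₁ - x₂)² C² - S C + T`, which is symmetric in its three arguments.
Also the duplication and triplication formulae in terms of `Ψ₂Sq`, `Ψ₃`, `preΨ₄`, `Φ 2`.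
-/

namespace Fermat.Agent.S13_helper29_BIQ

open Polynomial WeierstrassCurve WeierstrassCurve.Affine

variable {K : Type*} [Field K] (W : WeierstrassCurve.Affine K)

/-- Numerator of `x(P₁ + P₂) + x(P₁ - P₂)`. -/
def biqS (A B : K) : K :=
  2 * (A + B) * (A * B) + W.b₂ * (A * B) + W.b₄ * (A + B) + W.b₆

/-- Numerator of `x(P₁ + P₂) * x(P₁ - P₂)`. -/
def biqT (A B : K) : K :=
  (A * B) ^ 2 - W.b₄ * (A * B) - W.b₆ * (A + B) - W.b₈

/-- The addition biquadratic. -/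
def biqF (A B C : K) : K :=
  (A - B) ^ 2 * C ^ 2 - biqS W A B * C + biqT W A B

theorem biqF_comm (A B C : K) : biqF W A B C = biqF W B A C := by
  simp only [biqF, biqS, biqT]; ring

theorem biqF_rot (A B C : K) : biqF W A B C = biqF W B C A := by
  simp only [biqF, biqS, biqT]; ring

theorem biqF_swap₂₃ (A B C : K) : biqF W A B C = biqF W A C B := by
  simp only [biqF, biqS, biqT]; ring

theorem biqF_swap₁₃ (A B C : K) : biqF W A B C = biqF W C B A := by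
  simp only [biqF, biqS, biqT]; ring

theorem biqF_eq (A B C : K) : biqF W A B C =
    A ^ 2 * B ^ 2 + B ^ 2 * C ^ 2 + C ^ 2 * A ^ 2 - 2 * A * B * C * (A + B + C)
      - W.b₂ * (A * B * C) - W.b₄ * (A * B + B * C + C * A) - W.b₆ * (A + B + C) - W.b₈ := by
  simp only [biqF, biqS, biqT]; ring

theorem Ψ₂Sq_eval_eq (x : K) :
    W.Ψ₂Sq.eval x = 4 * x ^ 3 + W.b₂ * x ^ 2 + 2 * W.b₄ * x + W.b₆ := by
  simp [WeierstrassCurve.Ψ₂Sq]

theorem Ψ₃_eval_eq (x : K) :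
    W.Ψ₃.eval x = 3 * x ^ 4 + W.b₂ * x ^ 3 + 3 * W.b₄ * x ^ 2 + 3 * W.b₆ * x + W.b₈ := by
  simp [WeierstrassCurve.Ψ₃]

theorem preΨ₄_eval_eq (x : K) :
    W.preΨ₄.eval x = 2 * x ^ 6 + W.b₂ * x ^ 5 + 5 * W.b₄ * x ^ 4 + 10 * W.b₆ * x ^ 3
      + 10 * W.b₈ * x ^ 2 + (W.b₂ * W.b₈ - W.b₄ * W.b₆) * x + (W.b₄ * W.b₈ - W.b₆ ^ 2) := by
  simp [WeierstrassCurve.preΨ₄]

theorem Φ_two_eval_eq (x : K) :
    (W.Φ 2).eval x = x ^ 4 - W.b₄ * x ^ 2 - 2 * W.b₆ * x - W.b₈ := by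
  simp [WeierstrassCurve.Φ_two]

theorem Φ_two_eval (x : K) : (W.Φ 2).eval x = x * W.Ψ₂Sq.eval x - W.Ψ₃.eval x := by
  rw [Φ_two_eval_eq, Ψ₂Sq_eval_eq, Ψ₃_eval_eq]; ring

theorem biqF_diag (A B : K) : biqF W A B B = -(W.Ψ₂Sq.eval B) * A + (W.Φ 2).eval B := by
  rw [Φ_two_eval_eq, Ψ₂Sq_eval_eq]
  simp only [biqF, biqS, biqT]; ring

theorem addX_add_addX_neg [DecidableEq K] {x₁ y₁ x₂ y₂ : K} (h₁ : W.Equation x₁ y₁)
    (h₂ : W.Equation x₂ y₂) (hx : x₁ ≠ x₂) :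
    W.addX x₁ x₂ (W.slope x₁ x₂ y₁ y₂) + W.addX x₁ x₂ (W.slope x₁ x₂ y₁ (W.negY x₂ y₂))
      = biqS W x₁ x₂ / (x₁ - x₂) ^ 2 := by
  have hd : x₁ - x₂ ≠ 0 := sub_ne_zero.mpr hx
  rw [slope_of_X_ne hx, slope_of_X_ne hx]
  rw [equation_iff] at h₁ h₂
  simp only [addX, negY, biqS, WeierstrassCurve.b₂, WeierstrassCurve.b₄, WeierstrassCurve.b₆]
  field_simp
  linear_combination (2 : K) * h₁ + (2 : K) * h₂

theorem addX_mul_addX_neg [DecidableEq K] {x₁ y₁ x₂ y₂ : K} (h₁ : W.Equation x₁ y₁)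
    (h₂ : W.Equation x₂ y₂) (hx : x₁ ≠ x₂) :
    W.addX x₁ x₂ (W.slope x₁ x₂ y₁ y₂) * W.addX x₁ x₂ (W.slope x₁ x₂ y₁ (W.negY x₂ y₂))
      = biqT W x₁ x₂ / (x₁ - x₂) ^ 2 := by
  have hd : x₁ - x₂ ≠ 0 := sub_ne_zero.mpr hx
  rw [slope_of_X_ne hx, slope_of_X_ne hx]
  rw [equation_iff] at h₁ h₂
  obtain ⟨a₁, a₂, a₃, a₄, a₆⟩ := W
  simp only [addX, negY, biqT, WeierstrassCurve.b₄, WeierstrassCurve.b₆,
    WeierstrassCurve.b₈] at h₁ h₂ ⊢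
  have ha₆ : a₆ = y₁ ^ 2 + a₁ * x₁ * y₁ + a₃ * y₁ - (x₁ ^ 3 + a₂ * x₁ ^ 2 + a₄ * x₁) := by
    linear_combination -h₁
  subst ha₆
  have ha₄ : a₄ = ((y₁ ^ 2 + a₁ * x₁ * y₁ + a₃ * y₁ - (x₁ ^ 3 + a₂ * x₁ ^ 2))
      - (y₂ ^ 2 + a₁ * x₂ * y₂ + a₃ * y₂ - (x₂ ^ 3 + a₂ * x₂ ^ 2))) / (x₁ - x₂) := by
    field_simp
    linear_combination h₂
  subst ha₄
  field_simp
  ring

/-- A root of the monic quadratic `C² - (S/d²) C + T/d²`, `d = A - B`, is a root of `biqF`. -/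
theorem biqF_eq_zero_of_sum_prod {A B u u' : K} (hAB : A ≠ B)
    (hs : u + u' = biqS W A B / (A - B) ^ 2) (hp : u * u' = biqT W A B / (A - B) ^ 2) :
    biqF W A B u = 0 := by
  have hd : (A - B) ^ 2 ≠ 0 := pow_ne_zero 2 (sub_ne_zero.mpr hAB)
  have hS : biqS W A B = (u + u') * (A - B) ^ 2 := by rw [hs]; field_simp
  have hT : biqT W A B = (u * u') * (A - B) ^ 2 := by rw [hp]; field_simp
  rw [biqF, hS, hT]; ring

theorem biqF_addX [DecidableEq K] {x₁ y₁ x₂ y₂ : K} (h₁ : W.Equation x₁ y₁)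
    (h₂ : W.Equation x₂ y₂) (hx : x₁ ≠ x₂) :
    biqF W x₁ x₂ (W.addX x₁ x₂ (W.slope x₁ x₂ y₁ y₂)) = 0 :=
  biqF_eq_zero_of_sum_prod W hx (addX_add_addX_neg W h₁ h₂ hx) (addX_mul_addX_neg W h₁ h₂ hx)

theorem biqF_addX_neg [DecidableEq K] {x₁ y₁ x₂ y₂ : K} (h₁ : W.Equation x₁ y₁)
    (h₂ : W.Equation x₂ y₂) (hx : x₁ ≠ x₂) :
    biqF W x₁ x₂ (W.addX x₁ x₂ (W.slope x₁ x₂ y₁ (W.negY x₂ y₂))) = 0 :=
  biqF_eq_zero_of_sum_prod W hx
    ((add_comm _ _).trans (addX_add_addX_neg W h₁ h₂ hx))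
    ((mul_comm _ _).trans (addX_mul_addX_neg W h₁ h₂ hx))

theorem exists_add_sub [DecidableEq K] {x₁ y₁ x₂ y₂ : K} (h₁ : W.Nonsingular x₁ y₁)
    (h₂ : W.Nonsingular x₂ y₂) (hx : x₁ ≠ x₂) :
    ∃ (u v u' v' : K) (hu : W.Nonsingular u v) (hu' : W.Nonsingular u' v'),
      Point.some _ _ h₁ + Point.some _ _ h₂ = Point.some _ _ hu ∧
      Point.some _ _ h₁ - Point.some _ _ h₂ = Point.some _ _ hu' ∧
      u + u' = biqS W x₁ x₂ / (x₁ - x₂) ^ 2 ∧ u * u' = biqT W x₁ x₂ / (x₁ - x₂) ^ 2 ∧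
      biqF W x₁ x₂ u = 0 ∧ biqF W x₁ x₂ u' = 0 := by
  have h₂' : W.Nonsingular x₂ (W.negY x₂ y₂) := (nonsingular_neg ..).mpr h₂
  refine ⟨_, _, _, _, nonsingular_add h₁ h₂ fun hxy => hx hxy.left,
    nonsingular_add h₁ h₂' fun hxy => hx hxy.left, Point.add_of_X_ne hx, ?_,
    addX_add_addX_neg W h₁.1 h₂.1 hx, addX_mul_addX_neg W h₁.1 h₂.1 hx,
    biqF_addX W h₁.1 h₂.1 hx, biqF_addX_neg W h₁.1 h₂.1 hx⟩
  rw [sub_eq_add_neg, Point.neg_some, Point.add_of_X_ne hx]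


theorem Ψ₂Sq_eval {x y : K} (h : W.Equation x y) :
    W.Ψ₂Sq.eval x = (y - W.negY x y) ^ 2 := by
  rw [Ψ₂Sq_eval_eq]
  rw [equation_iff] at h
  simp only [negY, WeierstrassCurve.b₂, WeierstrassCurve.b₄, WeierstrassCurve.b₆]
  linear_combination (-4 : K) * h

theorem Ψ₂Sq_eval_ne_zero {x y : K} (h : W.Equation x y) (hy : y ≠ W.negY x y) :
    W.Ψ₂Sq.eval x ≠ 0 := by
  rw [Ψ₂Sq_eval W h]
  exact pow_ne_zero 2 (sub_ne_zero.mpr hy)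

theorem Ψ₂Sq_eval_eq_zero_iff {x y : K} (h : W.Equation x y) :
    W.Ψ₂Sq.eval x = 0 ↔ y = W.negY x y := by
  rw [Ψ₂Sq_eval W h, sq_eq_zero_iff, sub_eq_zero]

/-- Duplication formula on `x`-coordinates (coordinate level). -/
theorem addX_slope_self [DecidableEq K] {x y : K} (h : W.Equation x y) (hy : y ≠ W.negY x y) :
    W.addX x x (W.slope x x y y) = (W.Φ 2).eval x / W.Ψ₂Sq.eval x := by
  have hd : y - W.negY x y ≠ 0 := sub_ne_zero.mpr hy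
  rw [Ψ₂Sq_eval W h, slope_of_Y_ne rfl hy, Φ_two_eval_eq]
  generalize hd_def : y - W.negY x y = d at hd ⊢
  rw [equation_iff] at h
  obtain ⟨a₁, a₂, a₃, a₄, a₆⟩ := W
  simp only [addX, negY, WeierstrassCurve.b₄, WeierstrassCurve.b₆,
    WeierstrassCurve.b₈] at h hd_def ⊢
  have ha₆ : a₆ = y ^ 2 + a₁ * x * y + a₃ * y - (x ^ 3 + a₂ * x ^ 2 + a₄ * x) := by
    linear_combination -h
  subst ha₆
  field_simp
  rw [← hd_def]
  ring

theorem exists_two_nsmul [DecidableEq K] {x y : K} (h : W.Nonsingular x y)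
    (hy : y ≠ W.negY x y) :
    W.Ψ₂Sq.eval x ≠ 0 ∧ ∃ (v : K) (hv : W.Nonsingular ((W.Φ 2).eval x / W.Ψ₂Sq.eval x) v),
      (2 : ℕ) • Point.some _ _ h = Point.some _ _ hv := by
  refine ⟨Ψ₂Sq_eval_ne_zero W h.1 hy, ?_⟩
  have key := addX_slope_self W h.1 hy
  have hns := nonsingular_add h h fun hxy => hy hxy.right
  rw [two_nsmul, Point.add_self_of_Y_ne hy]
  rw [key] at hns
  refine ⟨_, hns, ?_⟩
  congr 1
  


/-- The polynomial identity behind the triplication formula. -/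
theorem biqS_two_mul (x : K) :
    (2 * ((W.Φ 2).eval x + x * W.Ψ₂Sq.eval x) * ((W.Φ 2).eval x * x)
      + W.b₂ * ((W.Φ 2).eval x * x) * W.Ψ₂Sq.eval x
      + W.b₄ * ((W.Φ 2).eval x + x * W.Ψ₂Sq.eval x) * W.Ψ₂Sq.eval x
      + W.b₆ * W.Ψ₂Sq.eval x ^ 2)
      = 2 * x * W.Ψ₃.eval x ^ 2 - W.Ψ₂Sq.eval x * W.preΨ₄.eval x := by
  rw [Φ_two_eval_eq, Ψ₂Sq_eval_eq, Ψ₃_eval_eq, preΨ₄_eval_eq]
  simp only [WeierstrassCurve.b₂, WeierstrassCurve.b₄, WeierstrassCurve.b₆, WeierstrassCurve.b₈]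
  ring

theorem exists_three_nsmul [DecidableEq K] {x y : K} (h : W.Nonsingular x y)
    (hy : y ≠ W.negY x y) (h3 : W.Ψ₃.eval x ≠ 0) :
    ∃ (v : K) (hv : W.Nonsingular
        (x - W.Ψ₂Sq.eval x * W.preΨ₄.eval x / W.Ψ₃.eval x ^ 2) v),
      (3 : ℕ) • Point.some _ _ h = Point.some _ _ hv := by
  obtain ⟨hD, v₂, hv₂, h2⟩ := exists_two_nsmul W h hy
  have hx₂ : (W.Φ 2).eval x / W.Ψ₂Sq.eval x ≠ x := by
    intro e
    apply h3
    have : (W.Φ 2).eval x = x * W.Ψ₂Sq.eval x := by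
      field_simp at e; linear_combination e
    rw [Φ_two_eval] at this
    linear_combination -this
  obtain ⟨u, v, u', v', hu, hu', hadd, hsub, hs, -, -, -⟩ := exists_add_sub W hv₂ h hx₂
  have h3P : (3 : ℕ) • Point.some _ _ h = Point.some _ _ hu := by
    rw [succ_nsmul, h2, hadd]
  have hP : Point.some _ _ h = Point.some _ _ hu' := by
    rw [← hsub, ← h2, two_nsmul, add_sub_cancel_right]
  have hu'x : u' = x := by
    injection hP with e₁ e₂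
    exact e₁.symm
  have hux : u = x - W.Ψ₂Sq.eval x * W.preΨ₄.eval x / W.Ψ₃.eval x ^ 2 := by
    have key := biqS_two_mul W x
    rw [hu'x] at hs
    have hdiff : (W.Φ 2).eval x / W.Ψ₂Sq.eval x - x = - W.Ψ₃.eval x / W.Ψ₂Sq.eval x := by
      rw [Φ_two_eval]; field_simp; ring
    rw [hdiff] at hs
    simp only [biqS] at hs
    have hu_eq : u = (2 * ((W.Φ 2).eval x / W.Ψ₂Sq.eval x + x) * ((W.Φ 2).eval x / W.Ψ₂Sq.eval x * x)
        + W.b₂ * ((W.Φ 2).eval x / W.Ψ₂Sq.eval x * x)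
        + W.b₄ * ((W.Φ 2).eval x / W.Ψ₂Sq.eval x + x) + W.b₆)
          / (-W.Ψ₃.eval x / W.Ψ₂Sq.eval x) ^ 2 - x := by
      linear_combination hs
    rw [hu_eq]
    field_simp
    linear_combination key
  subst hux
  exact ⟨v, hu, h3P⟩


theorem two_nsmul_eq_zero_iff [DecidableEq K] {x y : K} (h : W.Nonsingular x y) :
    (2 : ℕ) • Point.some _ _ h = 0 ↔ y = W.negY x y := by
  constructor
  · intro h0
    by_contra hy
    obtain ⟨-, v, hv, h2⟩ := exists_two_nsmul W h hy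
    rw [h2] at h0
    exact Point.some_ne_zero hv h0
  · intro hy
    rw [two_nsmul]
    exact Point.add_self_of_Y_eq hy

theorem two_nsmul_eq_zero_iff' [DecidableEq K] {x y : K} (h : W.Nonsingular x y) :
    (2 : ℕ) • Point.some _ _ h = 0 ↔ W.Ψ₂Sq.eval x = 0 := by
  rw [two_nsmul_eq_zero_iff, Ψ₂Sq_eval_eq_zero_iff W h.1]

/-- `x(2P) = x - Ψ₃(x)/Ψ₂Sq(x)`. -/
theorem exists_two_nsmul' [DecidableEq K] {x y : K} (h : W.Nonsingular x y)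
    (hy : y ≠ W.negY x y) :
    ∃ (v : K) (hv : W.Nonsingular (x - W.Ψ₃.eval x / W.Ψ₂Sq.eval x) v),
      (2 : ℕ) • Point.some _ _ h = Point.some _ _ hv := by
  obtain ⟨hD, v, hv, h2⟩ := exists_two_nsmul W h hy
  have e : (W.Φ 2).eval x / W.Ψ₂Sq.eval x = x - W.Ψ₃.eval x / W.Ψ₂Sq.eval x := by
    rw [Φ_two_eval]; field_simp
  rw [e] at hv
  refine ⟨v, hv, ?_⟩
  rw [h2]
  congr 1

theorem three_nsmul_eq_zero_iff [DecidableEq K] {x y : K} (h : W.Nonsingular x y)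
    (hy : y ≠ W.negY x y) :
    (3 : ℕ) • Point.some _ _ h = 0 ↔ W.Ψ₃.eval x = 0 := by
  constructor
  · intro h0
    by_contra h3
    obtain ⟨v, hv, h3P⟩ := exists_three_nsmul W h hy h3
    rw [h3P] at h0
    exact Point.some_ne_zero hv h0
  · intro h3
    obtain ⟨v, hv, h2⟩ := exists_two_nsmul' W h hy
    have hx : x - W.Ψ₃.eval x / W.Ψ₂Sq.eval x = x := by rw [h3]; simp
    rcases (Point.X_eq_iff (h₁ := hv) (h₂ := h)).mp hx with e | e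
    · exfalso
      rw [← h2, two_nsmul] at e
      exact Point.some_ne_zero h (add_eq_left.mp e)
    · rw [← h2] at e
      rw [succ_nsmul, e, neg_add_cancel]

end Fermat.Agent.S13_helper29_BIQ
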