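import Mathlib
import Fermat.Statements.S13
import Fermat.Agent.S13_helper13_AT2D_Core
import Fermat.Agent.S13_helper25_CP
import Fermat.Agent.S13_helper29_BIQ
import Fermat.Agent.S54_Frob

/-!
# S13, piece AT2-2D: the Frey curve has no nonzero Galois-fixed point of order `p`

Step (2d) of the plan for S13: a point of `E[p]` fixed by all of `Gal(ℚ̄/ℚ)` is rational, and a
rational point of order `p` is excluded `2`-adically (kernel of reduction / nonsingular
reduction / reduction to the node).
-/

set_option autoImplicit false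

namespace Fermat.Agent.S13_helper13_AT2D

open WeierstrassCurve WeierstrassCurve.Affine WeierstrassCurve.Affine.Point
open Fermat.Agent.S13_helper13_AT2D_Core Fermat.Agent.S13_helper25_CP

attribute [local instance 100000] AlgebraicClosure.instAlgebra

local notation "Qb" => AlgebraicClosure ℚ

/-- The Frey curve is a nodal model at every valuation subring over `2`. -/
theorem frey_nodal_at_two (P : FreyPackage) (A : ValuationSubring Qb) (hA : A.LiesOverPrime 2) :
    ∃ γ : Qb, NodalModel A.valuation (P.freyCurve⁄Qb) γ := by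
  have hW := frey_twoModel P A hA
  obtain ⟨m, hm, -, hβ⟩ := frey_val_a₄ P A hA
  obtain ⟨s, hs⟩ := IsAlgClosed.exists_pow_nat_eq (4 * (P.freyCurve⁄Qb).a₂ + 1)
    (n := 2) (by norm_num)
  have hvs : A.valuation s = 1 := by
    have h1 : A.valuation s ^ 2 = 1 := by
      rw [← map_pow, hs]
      exact frey_val_disc P A hA
    exact (pow_eq_one_iff_of_nonneg zero_le two_ne_zero).1 h1
  refine ⟨(s - 1) / 2, hW.a₃, hW.a₆, hW.h₄, ?_, ?_, ?_⟩
  · intro h0
    rw [h0, _root_.map_zero] at hβ
    exact (pow_ne_zero m (val_two_ne_zero A)) hβ.symm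
  · rw [hW.a₁]
    have h2 : (2 : Qb) ≠ 0 := two_ne_zero
    field_simp
    linear_combination hs
  · rw [hW.a₁]
    have h2 : (2 : Qb) ≠ 0 := two_ne_zero
    have : 2 * ((s - 1) / 2) + 1 = s := by field_simp; ring
    rw [this, hvs]

/-- **Step (2d)**, relative to a valuation subring over `2`. -/
theorem frey_no_fixed_torsion_at (P : FreyPackage) (A : ValuationSubring Qb)
    (hA : A.LiesOverPrime 2) (Pt : (P.freyCurve⁄Qb).Point) (hPt : P.p • Pt = 0)
    (hfix : ∀ σ : Qb ≃ₐ[ℚ] Qb, σ • Pt = Pt) : Pt = 0 := by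
  obtain ⟨γ, hγ⟩ := frey_nodal_at_two P A hA
  refine frey_no_fixed_torsion_of P A hA γ ?_ ?_ ?_ Pt hPt hfix
  · intro x y h hn
    exact phiN_torsion A.valuation hγ P.p hn
  · intro x y h hy
    exact Fermat.Agent.S13_helper29_BIQ.exists_two_nsmul _ h hy
  · intro x y h hy h3
    exact Fermat.Agent.S13_helper29_BIQ.exists_three_nsmul _ h hy h3

/-- **Step (2d)**: the Frey curve has no nonzero Galois-fixed point of order `p`. -/
theorem frey_no_fixed_torsion (P : FreyPackage) (Pt : (P.freyCurve⁄Qb).Point)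
    (hPt : P.p • Pt = 0) (hfix : ∀ σ : Qb ≃ₐ[ℚ] Qb, σ • Pt = Pt) : Pt = 0 := by
  obtain ⟨A, hA, -⟩ := Fermat.Agent.S54Frob.exists_frobenius 2 Nat.prime_two
  exact frey_no_fixed_torsion_at P A hA Pt hPt hfix

/-- **Step (2d)**, in terms of the `p`-torsion module. -/
theorem frey_no_fixed_torsion' (P : FreyPackage)
    (x : Submodule.torsionBy ℤ (P.freyCurve⁄Qb).Point P.p)
    (hfix : ∀ σ : Qb ≃ₐ[ℚ] Qb, σ • x = x) : x = 0 := by
  have hPt : P.p • (x : (P.freyCurve⁄Qb).Point) = 0 := by
    have := (Submodule.mem_torsionBy_iff _ _).1 x.2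
    rwa [natCast_zsmul] at this
  apply Subtype.ext
  refine frey_no_fixed_torsion P x hPt ?_
  intro σ
  have := congrArg Subtype.val (hfix σ)
  exact this

end Fermat.Agent.S13_helper13_AT2D
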