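import Mathlib
import Fermat.Prelude.Def_FLTPrelim_Ramification
import Fermat.Agent.S54_Frob

set_option autoImplicit false
set_option linter.style.haveILetI false
set_option linter.unusedVariables false

open scoped Pointwise

namespace Fermat.Agent.S13_helper26_MKLIFT

open Fermat.Agent.S54Frob

attribute [local instance] isAlgQb isAlgClosureQb normalQb actZb smulComm_Zb topZb discrete_Zb
  contSMul_Zb isInvariant_Zb

/-- Algebraic integers lie in every valuation subring of `ℚ̄`. -/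
theorem mklift_int_mem (A : ValuationSubring Qb) (x : Qb) (hx : IsIntegral ℤ x) : x ∈ A := by
  have h1 : IsIntegral A x := hx.tower_top
  obtain ⟨y, rfl⟩ := IsIntegrallyClosed.isIntegral_iff.mp h1
  exact y.2

theorem mklift_val_le (A : ValuationSubring Qb) (b : Zb) : A.valuation (b : Qb) ≤ 1 :=
  (A.valuation_le_one_iff _).2 (mklift_int_mem A _ b.2)

/-- The prime of `ℤ̄` cut out by the maximal ideal of `A`. -/
def mkliftPrime (A : ValuationSubring Qb) : Ideal Zb where
  carrier := {b | A.valuation (b : Qb) < 1}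
  add_mem' := by
    intro a b ha hb
    change A.valuation ((a : Zb) : Qb) < 1 at ha; change A.valuation ((b : Zb) : Qb) < 1 at hb; change A.valuation ((a + b : Zb) : Qb) < 1
    push_cast
    exact lt_of_le_of_lt (A.valuation.map_add _ _) (max_lt ha hb)
  zero_mem' := by
    simp
  smul_mem' := by
    intro c b hb
    change A.valuation ((b : Zb) : Qb) < 1 at hb; change A.valuation ((c * b : Zb) : Qb) < 1
    push_cast
    rw [map_mul]
    exact mul_lt_one_of_nonneg_of_lt_one_right (mklift_val_le A c) zero_le hb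

theorem mem_mkliftPrime (A : ValuationSubring Qb) (b : Zb) :
    b ∈ mkliftPrime A ↔ A.valuation (b : Qb) < 1 := Iff.rfl

theorem mem_mkliftPrime' (A : ValuationSubring Qb) (b : Zb) :
    b ∈ mkliftPrime A ↔ (b : Qb) ∈ A.nonunits := by
  rw [mem_mkliftPrime, ValuationSubring.mem_nonunits_iff]

theorem mkliftPrime_isPrime (A : ValuationSubring Qb) : (mkliftPrime A).IsPrime := by
  refine ⟨?_, ?_⟩
  · intro h
    have : (1 : Zb) ∈ mkliftPrime A := by rw [h]; trivial
    rw [mem_mkliftPrime] at this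
    simp at this
  · intro a b hab
    rw [mem_mkliftPrime] at hab
    push_cast at hab
    rw [map_mul] at hab
    by_contra hcon
    push Not at hcon
    rw [mem_mkliftPrime, mem_mkliftPrime] at hcon
    have ha : A.valuation (a : Qb) = 1 := le_antisymm (mklift_val_le A a) (not_lt.mp hcon.1)
    have hb : A.valuation (b : Qb) = 1 := le_antisymm (mklift_val_le A b) (not_lt.mp hcon.2)
    rw [ha, hb, one_mul] at hab
    exact lt_irrefl _ hab


/-- Integers in the prime are divisible by `q`. -/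
theorem mkliftPrime_int (A : ValuationSubring Qb) (q : ℕ) (hq : q.Prime)
    (hA : A.LiesOverPrime q) (n : ℤ) (hn : (n : Zb) ∈ mkliftPrime A) : (q : ℤ) ∣ n := by
  by_contra hdvd
  have hcop : IsCoprime (q : ℤ) n := by
    rw [Int.isCoprime_iff_gcd_eq_one]
    have := (Nat.Prime.coprime_iff_not_dvd hq).2 (fun h => hdvd (by
      rw [Int.natCast_dvd]; exact h))
    simpa [Int.gcd] using this
  obtain ⟨a, b, hab⟩ := hcop
  have hq' : A.valuation ((q : ℤ) : Qb) < 1 := by
    have : (q : Qb) ∈ A.nonunits := hA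
    rw [ValuationSubring.mem_nonunits_iff] at this
    simpa using this
  have hn' : A.valuation ((n : ℤ) : Qb) < 1 := by
    rw [mem_mkliftPrime] at hn
    simpa using hn
  have hai : A.valuation ((a : ℤ) : Qb) ≤ 1 :=
    (A.valuation_le_one_iff _).2 (mklift_int_mem A _ (isIntegral_algebraMap (R := ℤ) (x := a) |>.map (Int.castRingHom Qb).toIntAlgHom |> fun h => by simpa using h))
  have hbi : A.valuation ((b : ℤ) : Qb) ≤ 1 :=
    (A.valuation_le_one_iff _).2 (mklift_int_mem A _ (isIntegral_algebraMap (R := ℤ) (x := b) |>.map (Int.castRingHom Qb).toIntAlgHom |> fun h => by simpa using h))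
  have h1 : A.valuation (((a * q + b * n : ℤ)) : Qb) < 1 := by
    push_cast
    refine lt_of_le_of_lt (A.valuation.map_add _ _) (max_lt ?_ ?_)
    · rw [map_mul]
      exact mul_lt_one_of_nonneg_of_lt_one_right hai zero_le hq'
    · rw [map_mul]
      exact mul_lt_one_of_nonneg_of_lt_one_right hbi zero_le hn'
  rw [hab] at h1
  simp at h1

/-- Every element of `A` is a fraction of algebraic integers with denominator outside the
prime. -/
theorem mklift_frac (A : ValuationSubring Qb) (q : ℕ) (hq : q.Prime)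
    (hA : A.LiesOverPrime q) (x : Qb) (hx : x ∈ A) :
    ∃ s b : Zb, s ∉ mkliftPrime A ∧ x * (s : Qb) = (b : Qb) := by
  haveI := mkliftPrime_isPrime A
  rcases mem_locSet_or_inv q hq (mkliftPrime A) (mkliftPrime_int A q hq hA) x with h | h
  · exact h
  · obtain ⟨s, b, hs, hsb⟩ := h
    by_cases hx0 : x = 0
    · refine ⟨1, 0, ?_, by simp [hx0]⟩
      rw [mem_mkliftPrime]; simp
    have hsx : (s : Qb) = (b : Qb) * x := by
      rw [← hsb]; field_simp
    by_cases hb : b ∈ mkliftPrime A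
    · exfalso
      apply hs
      rw [mem_mkliftPrime] at hb ⊢
      rw [hsx, map_mul]
      exact mul_lt_one_of_nonneg_of_lt_one_left zero_le hb ((A.valuation_le_one_iff _).2 hx)
    · exact ⟨b, s, hb, by rw [hsx]; ring⟩


theorem mklift_val_eq_one (A : ValuationSubring Qb) (s : Zb) (hs : s ∉ mkliftPrime A) :
    A.valuation (s : Qb) = 1 := by
  rw [mem_mkliftPrime] at hs
  exact le_antisymm (mklift_val_le A s) (not_lt.mp hs)

/-- An automorphism stabilising the prime maps `A` into itself. -/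
theorem mklift_map_mem (A : ValuationSubring Qb) (q : ℕ) (hq : q.Prime)
    (hA : A.LiesOverPrime q) (σ : GQ)
    (hstab : ∀ b : Zb, b ∈ mkliftPrime A ↔ σ • b ∈ mkliftPrime A)
    (x : Qb) (hx : x ∈ A) : σ x ∈ A := by
  obtain ⟨s, b, hs, hsb⟩ := mklift_frac A q hq hA x hx
  have hσs : A.valuation ((σ • s : Zb) : Qb) = 1 :=
    mklift_val_eq_one A _ (fun h => hs ((hstab s).2 h))
  have e : σ x * ((σ • s : Zb) : Qb) = ((σ • b : Zb) : Qb) := by
    rw [actZb_coe, actZb_coe, ← map_mul, hsb]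
  rw [← A.valuation_le_one_iff]
  have := congrArg A.valuation e
  rw [map_mul, hσs, mul_one] at this
  rw [this]
  exact mklift_val_le A _

/-- An automorphism stabilising the prime and acting trivially on the residue ring acts
trivially on `A` modulo its maximal ideal. -/
theorem mklift_map_sub (A : ValuationSubring Qb) (q : ℕ) (hq : q.Prime)
    (hA : A.LiesOverPrime q) (σ : GQ)
    (hstab : ∀ b : Zb, b ∈ mkliftPrime A ↔ σ • b ∈ mkliftPrime A)
    (htriv : ∀ b : Zb, σ • b - b ∈ mkliftPrime A)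
    (x : Qb) (hx : x ∈ A) : σ x - x ∈ A.nonunits := by
  obtain ⟨s, b, hs, hsb⟩ := mklift_frac A q hq hA x hx
  have hσs : A.valuation ((σ • s : Zb) : Qb) = 1 :=
    mklift_val_eq_one A _ (fun h => hs ((hstab s).2 h))
  have hs1 : A.valuation (s : Qb) = 1 := mklift_val_eq_one A _ hs
  have e : σ x * ((σ • s : Zb) : Qb) = ((σ • b : Zb) : Qb) := by
    rw [actZb_coe, actZb_coe, ← map_mul, hsb]
  have e2 : (σ x - x) * ((s : Qb) * ((σ • s : Zb) : Qb)) =
      (((σ • b - b) * s - b * (σ • s - s) : Zb) : Qb) := by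
    push_cast
    rw [← e, ← hsb]
    ring
  have hmem : (σ • b - b) * s - b * (σ • s - s) ∈ mkliftPrime A :=
    (mkliftPrime A).sub_mem ((mkliftPrime A).mul_mem_right _ (htriv b))
      ((mkliftPrime A).mul_mem_left _ (htriv s))
  rw [mem_mkliftPrime, ← e2, map_mul, map_mul, hs1, hσs, mul_one, mul_one] at hmem
  rw [ValuationSubring.mem_nonunits_iff]
  exact hmem

theorem mklift_mem_inertia (A : ValuationSubring Qb) (q : ℕ) (hq : q.Prime)
    (hA : A.LiesOverPrime q) (σ : GQ)
    (hstab : ∀ b : Zb, b ∈ mkliftPrime A ↔ σ • b ∈ mkliftPrime A)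
    (htriv : ∀ b : Zb, σ • b - b ∈ mkliftPrime A) :
    σ ∈ A.inertiaSubgroupIn ℚ := by
  have hstab' : ∀ b : Zb, b ∈ mkliftPrime A ↔ σ⁻¹ • b ∈ mkliftPrime A := by
    intro b
    have := hstab (σ⁻¹ • b)
    rw [smul_inv_smul] at this
    exact this.symm
  have hdec : σ ∈ A.decompositionSubgroup ℚ := by
    rw [MulAction.mem_stabilizer_iff]
    apply SetLike.ext
    intro x
    rw [ValuationSubring.mem_pointwise_smul_iff_inv_smul_mem]
    constructor
    · intro hx
      have := mklift_map_mem A q hq hA σ hstab _ hx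
      simpa using this
    · intro hx
      exact mklift_map_mem A q hq hA σ⁻¹ hstab' _ hx
  refine ⟨⟨σ, hdec⟩, ?_, rfl⟩
  change (⟨σ, hdec⟩ : A.decompositionSubgroup ℚ) ∈
    (MulSemiringAction.toRingAut (A.decompositionSubgroup ℚ) (IsLocalRing.ResidueField A)).ker
  rw [MonoidHom.mem_ker]
  ext r
  obtain ⟨a, rfl⟩ := IsLocalRing.residue_surjective r
  change (⟨σ, hdec⟩ : A.decompositionSubgroup ℚ) • IsLocalRing.residue A a = IsLocalRing.residue A a
  rw [← IsLocalRing.ResidueField.residue_smul]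
  refine Ideal.Quotient.eq.mpr ?_
  obtain ⟨a, ha⟩ := a
  have hnon := mklift_map_sub A q hq hA σ hstab htriv a ha
  obtain ⟨ha', hmem⟩ := ValuationSubring.mem_nonunits_iff_exists_mem_maximalIdeal.mp hnon
  exact hmem


theorem MK_lift (U : Subgroup (AlgebraicClosure ℚ ≃ₐ[ℚ] AlgebraicClosure ℚ))
    (hU : IsOpen (U : Set (AlgebraicClosure ℚ ≃ₐ[ℚ] AlgebraicClosure ℚ))) (hN : U.Normal)
    (A : ValuationSubring (AlgebraicClosure ℚ)) (q : ℕ) (hq : q.Prime)
    (hA : A.LiesOverPrime q) (σ₀ : AlgebraicClosure ℚ ≃ₐ[ℚ] AlgebraicClosure ℚ)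
    (h : ∀ x : AlgebraicClosure ℚ, IsIntegral ℤ x → (∀ u ∈ U, u x = x) →
      σ₀ x - x ∈ A.nonunits) :
    ∃ σ ∈ A.inertiaSubgroupIn ℚ, σ₀⁻¹ * σ ∈ U := by
  haveI hQ := mkliftPrime_isPrime A
  haveI : CompactSpace U :=
    isCompact_iff_compactSpace.mp (Subgroup.isClosed_of_isOpen U hU).isCompact
  haveI : Algebra.IsInvariant (FixedPoints.subalgebra ℤ Zb U) Zb U :=
    ⟨fun b hb => ⟨⟨b, hb⟩, rfl⟩⟩
  -- `h` in terms of `Zb`
  have h' : ∀ a : FixedPoints.subalgebra ℤ Zb U, σ₀ • (a : Zb) - (a : Zb) ∈ mkliftPrime A := by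
    intro a
    rw [mem_mkliftPrime']
    push_cast
    rw [actZb_coe]
    refine h _ (a : Zb).2 ?_
    intro u hu
    have := a.2 ⟨u, hu⟩
    exact congrArg Subtype.val this
  have hunder : (mkliftPrime A).under (FixedPoints.subalgebra ℤ Zb U) =
      (σ₀⁻¹ • mkliftPrime A).under (FixedPoints.subalgebra ℤ Zb U) := by
    ext a
    rw [Ideal.mem_comap, Ideal.mem_comap, Ideal.mem_pointwise_smul_iff_inv_smul_mem, inv_inv]
    have := h' a
    constructor
    · intro ha
      have := (mkliftPrime A).add_mem this ha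
      simpa using this
    · intro ha
      have := (mkliftPrime A).sub_mem ha this
      simpa using this
  obtain ⟨g, hg⟩ := Algebra.IsInvariant.exists_smul_of_under_eq_of_profinite
    (A := FixedPoints.subalgebra ℤ Zb U) (G := U) (mkliftPrime A) (σ₀⁻¹ • mkliftPrime A) hunder
  -- `σ₁ := σ₀ g` stabilises the prime
  have hstab₁ : ∀ b : Zb, b ∈ mkliftPrime A ↔ (σ₀ * (g : GQ)) • b ∈ mkliftPrime A := by
    intro b
    have h1 : (σ₀ * (g : GQ)) • b ∈ mkliftPrime A ↔ g • b ∈ σ₀⁻¹ • mkliftPrime A := by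
      rw [Ideal.mem_pointwise_smul_iff_inv_smul_mem, inv_inv, mul_smul]
      rfl
    rw [h1, hg, Ideal.smul_mem_pointwise_smul_iff]
  have htriv₁ : ∀ a : FixedPoints.subalgebra ℤ Zb U,
      (σ₀ * (g : GQ)) • (a : Zb) - (a : Zb) ∈ mkliftPrime A := by
    intro a
    have e : (g : GQ) • (a : Zb) = (a : Zb) := a.2 g
    rw [mul_smul, e]
    exact h' a
  have hσ₁mem : (σ₀ * (g : GQ)) ∈ MulAction.stabilizer GQ (mkliftPrime A) := by
    rw [MulAction.mem_stabilizer_iff]
    ext b
    rw [Ideal.mem_pointwise_smul_iff_inv_smul_mem]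
    have := hstab₁ ((σ₀ * (g : GQ))⁻¹ • b)
    rw [smul_inv_smul] at this
    exact this
  -- the induced automorphism of the residue ring is linear over the fixed ring
  let φ₀ := Ideal.Quotient.stabilizerHom (mkliftPrime A) ((mkliftPrime A).under ℤ) GQ
    ⟨σ₀ * (g : GQ), hσ₁mem⟩
  have hφ₀ : ∀ b : Zb, φ₀ (Ideal.Quotient.mk (mkliftPrime A) b) =
      Ideal.Quotient.mk (mkliftPrime A) ((σ₀ * (g : GQ)) • b) := fun b => rfl
  let φ₁ : (Zb ⧸ mkliftPrime A) ≃ₐ[FixedPoints.subalgebra ℤ Zb U ⧸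
      (mkliftPrime A).under (FixedPoints.subalgebra ℤ Zb U)] (Zb ⧸ mkliftPrime A) :=
    AlgEquiv.ofRingEquiv (f := φ₀.toRingEquiv) (by
      intro r
      obtain ⟨a, rfl⟩ := Ideal.Quotient.mk_surjective r
      change φ₀ (Ideal.Quotient.mk (mkliftPrime A) (a : Zb)) =
        Ideal.Quotient.mk (mkliftPrime A) (a : Zb)
      rw [hφ₀]
      exact Ideal.Quotient.eq.mpr (htriv₁ a))
  have hφ₁ : ∀ b : Zb, φ₁ (Ideal.Quotient.mk (mkliftPrime A) b) =
      Ideal.Quotient.mk (mkliftPrime A) ((σ₀ * (g : GQ)) • b) := fun b => rfl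
  obtain ⟨⟨k, hk⟩, hkφ⟩ := Ideal.Quotient.stabilizerHom_surjective_of_profinite (G := U)
    ((mkliftPrime A).under (FixedPoints.subalgebra ℤ Zb U)) (mkliftPrime A) φ₁
  have hkstab : ∀ b : Zb, b ∈ mkliftPrime A ↔ (k : GQ)⁻¹ • b ∈ mkliftPrime A := by
    intro b
    rw [MulAction.mem_stabilizer_iff] at hk
    conv_lhs => rw [← hk]
    rw [Ideal.mem_pointwise_smul_iff_inv_smul_mem]
    rfl
  refine ⟨σ₀ * (g : GQ) * (k : GQ)⁻¹, ?_, ?_⟩
  · refine mklift_mem_inertia A q hq hA _ ?_ ?_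
    · intro b
      rw [mul_smul, ← hstab₁, ← hkstab]
    · intro b
      have h1 := DFunLike.congr_fun hkφ (Ideal.Quotient.mk (mkliftPrime A) ((k : GQ)⁻¹ • b))
      rw [hφ₁, Ideal.Quotient.stabilizerHom_apply] at h1
      have h2 : Ideal.Quotient.mk (mkliftPrime A) ((k : GQ) • ((k : GQ)⁻¹ • b)) =
          Ideal.Quotient.mk (mkliftPrime A) ((σ₀ * (g : GQ)) • (k : GQ)⁻¹ • b) := h1
      rw [smul_inv_smul] at h2
      rw [mul_smul]
      exact Ideal.Quotient.eq.mp h2.symm
  · have : σ₀⁻¹ * (σ₀ * (g : GQ) * (k : GQ)⁻¹) = (g : GQ) * (k : GQ)⁻¹ := by group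
    rw [this]
    exact U.mul_mem g.2 (U.inv_mem k.2)

end Fermat.Agent.S13_helper26_MKLIFT
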