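import Mathlib
import Fermat.Prelude.Def_FLTPrelim_Ramification

set_option autoImplicit false

open scoped NumberField

namespace Fermat.Agent.S13_helper28_MKRAM

/-- The absolute Galois group of `ℚ`. -/
abbrev GQ : Type := AlgebraicClosure ℚ ≃ₐ[ℚ] AlgebraicClosure ℚ

theorem isAlgQb : Algebra.IsAlgebraic ℚ (AlgebraicClosure ℚ) := AlgebraicClosure.isAlgebraic ℚ
attribute [local instance] isAlgQb
theorem isAlgClosureQb : IsAlgClosure ℚ (AlgebraicClosure ℚ) := ⟨inferInstance, inferInstance⟩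
attribute [local instance] isAlgClosureQb
theorem normalQb : Normal ℚ (AlgebraicClosure ℚ) := IsAlgClosure.normal ℚ (AlgebraicClosure ℚ)
attribute [local instance] normalQb
theorem isGaloisQb : IsGalois ℚ (AlgebraicClosure ℚ) :=
  IsAlgClosure.isGalois ℚ (AlgebraicClosure ℚ)
attribute [local instance] isGaloisQb

theorem step1 (U : Subgroup GQ) (hU : IsOpen (U : Set GQ)) (hN : U.Normal) (hne : U ≠ ⊤) :
    (IntermediateField.fixedField U).fixingSubgroup = U ∧
      FiniteDimensional ℚ (IntermediateField.fixedField U) ∧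
      IsGalois ℚ (IntermediateField.fixedField U) ∧
      1 < Module.finrank ℚ (IntermediateField.fixedField U) := by
  set F := IntermediateField.fixedField U with hF
  have hcl : IsClosed (U : Set GQ) := Subgroup.isClosed_of_isOpen U hU
  have hfix : F.fixingSubgroup = U :=
    InfiniteGalois.fixingSubgroup_fixedField (k := ℚ) (K := AlgebraicClosure ℚ) ⟨U, hcl⟩
  have hfin : FiniteDimensional ℚ F := by
    rw [← InfiniteGalois.isOpen_iff_finite, hfix]
    exact hU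
  have hgal : @IsGalois ℚ _ F _ (IntermediateField.algebra' F) := by
    rw [← InfiniteGalois.normal_iff_isGalois, hfix]
    exact hN
  have hgal' : IsGalois ℚ F := by
    convert hgal
    exact Subsingleton.elim _ _
  refine ⟨hfix, hfin, hgal', ?_⟩
  have hpos : 0 < Module.finrank ℚ F := Module.finrank_pos
  have hne1 : Module.finrank ℚ F ≠ 1 := by
    intro h1
    have hbot : F = ⊥ := IntermediateField.finrank_eq_one_iff.mp h1
    apply hne
    rw [← hfix, hbot]
    exact IntermediateField.fixingSubgroup_bot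
  omega

/-- In a Galois number field `K ≠ ℚ` there is a rational prime `q` all of whose primes in `K`
have a nontrivial inertia element. -/
theorem exists_inertia_ne_one (K : Type) [Field K] [NumberField K] [IsGalois ℚ K]
    (H : 1 < Module.finrank ℚ K) :
    ∃ q : ℕ, q.Prime ∧ ∀ (P : Ideal (𝓞 K)), P.IsPrime → (q : 𝓞 K) ∈ P →
      ∃ τ : Gal(K/ℚ), τ ≠ 1 ∧ ∀ x : 𝓞 K, ∃ y ∈ P, (y : K) = τ (x : K) - (x : K) := by
  obtain ⟨q, hq, hram⟩ :=
    NumberField.exists_not_isUnramifiedAt_int_of_isGalois (K := K) (𝒪 := 𝓞 K) H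
  refine ⟨q, hq, fun P hP hqP => ?_⟩
  have hnot := hram P hP hqP
  let _ : MulSemiringAction Gal(K/ℚ) (𝓞 K) := IsIntegralClosure.MulSemiringAction ℤ ℚ K (𝓞 K)
  have hGG := IsGaloisGroup.of_isFractionRing Gal(K/ℚ) ℤ (𝓞 K) ℚ K
  have hone : P.ramificationIdx ℤ ≠ 1 := by
    intro h1
    exact hnot (Ideal.ramificationIdx_eq_one_iff.mp h1)
  have hcard : Nat.card (P.inertia Gal(K/ℚ)) = P.ramificationIdx ℤ := by
    rw [Ideal.card_inertia_eq_ramificationIdxIn (G := Gal(K/ℚ)) (P.under ℤ) P,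
      Ideal.ramificationIdxIn_eq_ramificationIdx (P.under ℤ) P Gal(K/ℚ)]
  have hnebot : P.inertia Gal(K/ℚ) ≠ ⊥ := by
    intro hbot
    apply hone
    rw [← hcard, hbot]
    simp
  obtain ⟨⟨τ, hτ⟩, hτ1⟩ := (Subgroup.ne_bot_iff_exists_ne_one).mp hnebot
  refine ⟨τ, fun h => hτ1 (Subtype.ext h), fun x => ?_⟩
  refine ⟨τ • x - x, hτ x, ?_⟩
  have h1 : algebraMap (𝓞 K) K (τ • x) = τ (algebraMap (𝓞 K) K x) :=
    algebraMap_galRestrict_apply ℤ τ x
  change algebraMap (𝓞 K) K (τ • x - x) = τ (algebraMap (𝓞 K) K x) - algebraMap (𝓞 K) K x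
  rw [map_sub, h1]

/-- Integral elements lie in every valuation subring. -/
theorem mem_valuationSubring_of_isIntegral {L : Type} [Field L] (A : ValuationSubring L)
    (x : L) (hx : IsIntegral ℤ x) : x ∈ A := by
  have hxA : IsIntegral A x := hx.tower_top
  obtain ⟨a, ha⟩ := IsIntegrallyClosed.algebraMap_eq_of_integral hxA
  rw [← ha]
  exact a.2

/-- The core statement, for an abstract finite Galois subextension `F` of `ℚ̄`. -/
theorem core (F : IntermediateField ℚ (AlgebraicClosure ℚ)) [FiniteDimensional ℚ F]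
    [IsGalois ℚ F] (hlt : 1 < Module.finrank ℚ F) :
    ∃ q : ℕ, q.Prime ∧ ∀ A : ValuationSubring (AlgebraicClosure ℚ), A.LiesOverPrime q →
      ∃ σ₀ : GQ, σ₀ ∉ F.fixingSubgroup ∧
        ∀ x : AlgebraicClosure ℚ, IsIntegral ℤ x → x ∈ F → σ₀ x - x ∈ A.nonunits := by
  have : NumberField F := { to_charZero := inferInstance, to_finiteDimensional := inferInstance }
  obtain ⟨q, hq, hP⟩ := exists_inertia_ne_one F hlt
  refine ⟨q, hq, fun A hA => ?_⟩
  have hint : ∀ b : 𝓞 F,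
      ((algebraMap F (AlgebraicClosure ℚ)).comp (algebraMap (𝓞 F) F)) b ∈ A := fun b =>
    mem_valuationSubring_of_isIntegral A _
      (map_isIntegral_int (algebraMap F (AlgebraicClosure ℚ))
        (NumberField.RingOfIntegers.isIntegral_coe b))
  let φ : 𝓞 F →+* A :=
    ((algebraMap F (AlgebraicClosure ℚ)).comp (algebraMap (𝓞 F) F)).codRestrict A hint
  let P' : Ideal (𝓞 F) := (IsLocalRing.maximalIdeal A).comap φ
  have hP'prime : P'.IsPrime := Ideal.comap_isPrime φ _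
  have hmem : ∀ b : 𝓞 F, b ∈ P' ↔ (((b : F) : AlgebraicClosure ℚ)) ∈ A.nonunits := by
    intro b
    rw [Ideal.mem_comap, ← ValuationSubring.coe_mem_nonunits_iff]
    rfl
  have hqP' : (q : 𝓞 F) ∈ P' := by
    rw [hmem]
    have : (((q : 𝓞 F) : F) : AlgebraicClosure ℚ) = (q : AlgebraicClosure ℚ) := by
      simp
    rw [this]
    exact hA
  obtain ⟨τ, hτ1, hτ⟩ := hP P' hP'prime hqP'
  obtain ⟨σ₀, hσ₀⟩ := AlgEquiv.restrictNormalHom_surjective (F := ℚ) (K₁ := F)
    (AlgebraicClosure ℚ) τ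
  have hcomm : ∀ y : F, σ₀ (y : AlgebraicClosure ℚ) = ((τ y : F) : AlgebraicClosure ℚ) := by
    intro y
    rw [← hσ₀]
    exact (AlgEquiv.restrictNormal_commutes σ₀ F y).symm
  refine ⟨σ₀, ?_, ?_⟩
  · intro hmemU
    apply hτ1
    ext y
    have h1 := hcomm y
    have h2 : σ₀ (y : AlgebraicClosure ℚ) = y := hmemU y
    rw [h2] at h1
    rw [AlgEquiv.one_apply]
    exact h1.symm
  · intro x hx hxF
    have hxint : IsIntegral ℤ (⟨x, hxF⟩ : F) := by
      rw [← isIntegral_algebraMap_iff (FaithfulSMul.algebraMap_injective F (AlgebraicClosure ℚ))]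
      exact hx
    have hb : ∀ b : 𝓞 F, (b : F) = (⟨x, hxF⟩ : F) →
        ∃ y ∈ P', (((y : F) : AlgebraicClosure ℚ)) = σ₀ x - x := by
      intro b hb
      obtain ⟨y, hyP, hy⟩ := hτ b
      refine ⟨y, hyP, ?_⟩
      rw [hy, hb]
      have h3 := hcomm ⟨x, hxF⟩
      rw [AddSubgroupClass.coe_sub, ← h3]
    obtain ⟨y, hyP, hy'⟩ := hb ⟨⟨x, hxF⟩, hxint⟩ rfl
    rw [← hy']
    exact (hmem y).mp hyP

theorem MK_ramified (U : Subgroup (AlgebraicClosure ℚ ≃ₐ[ℚ] AlgebraicClosure ℚ))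
    (hU : IsOpen (U : Set (AlgebraicClosure ℚ ≃ₐ[ℚ] AlgebraicClosure ℚ))) (hN : U.Normal)
    (hne : U ≠ ⊤) :
    ∃ q : ℕ, q.Prime ∧ ∀ A : ValuationSubring (AlgebraicClosure ℚ), A.LiesOverPrime q →
      ∃ σ₀ : AlgebraicClosure ℚ ≃ₐ[ℚ] AlgebraicClosure ℚ, σ₀ ∉ U ∧
        ∀ x : AlgebraicClosure ℚ, IsIntegral ℤ x → (∀ u ∈ U, u x = x) →
          σ₀ x - x ∈ A.nonunits := by
  obtain ⟨hfix, hfin, hgal, hlt⟩ := step1 U hU hN hne
  have := hfin
  have := hgal
  obtain ⟨q, hq, h⟩ := core (IntermediateField.fixedField U) hlt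
  refine ⟨q, hq, fun A hA => ?_⟩
  obtain ⟨σ₀, hσ₀, hx⟩ := h A hA
  rw [hfix] at hσ₀
  refine ⟨σ₀, hσ₀, fun x hxint hxU => hx x hxint ?_⟩
  intro u
  exact hxU u.1 u.2

end Fermat.Agent.S13_helper28_MKRAM
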