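import Mathlib
import Fermat.Statements.S13
import Fermat.Agent.S05_helper5_Inertia
import Fermat.Agent.S05_helper5_Frey

set_option autoImplicit false

namespace Fermat.Agent.S13_helper5_ATPa

open scoped Pointwise

attribute [local instance 100000] AlgebraicClosure.instAlgebra

local notation "Qb" => AlgebraicClosure ℚ

open Fermat.Agent.S05_helper5_Inertia Fermat.Agent.S05_helper5_Frey

section General

variable {K L : Type*} [Field K] [Field L] [Algebra K L]

/-- An inertia element maps the valuation ring into itself. -/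
theorem inertia_mem (A : ValuationSubring L) (σ : L ≃ₐ[K] L) (hσ : σ ∈ A.inertiaSubgroupIn K)
    {x : L} (hx : x ∈ A) : σ x ∈ A :=
  (inertia_spec_gen A σ hσ x hx).1

theorem inertia_mem_iff (A : ValuationSubring L) (σ : L ≃ₐ[K] L) (hσ : σ ∈ A.inertiaSubgroupIn K)
    (x : L) : σ x ∈ A ↔ x ∈ A := by
  refine ⟨fun h => ?_, fun h => inertia_mem A σ hσ h⟩
  have h' := inertia_mem A σ⁻¹ (inv_mem hσ) h
  rwa [show σ⁻¹ (σ x) = x from σ.symm_apply_apply x] at h'

theorem inertia_val_le_one_iff (A : ValuationSubring L) (σ : L ≃ₐ[K] L)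
    (hσ : σ ∈ A.inertiaSubgroupIn K) (x : L) :
    A.valuation (σ x) ≤ 1 ↔ A.valuation x ≤ 1 := by
  rw [A.valuation_le_one_iff, A.valuation_le_one_iff]
  exact inertia_mem_iff A σ hσ x

theorem inertia_val_lt_one_iff (A : ValuationSubring L) (σ : L ≃ₐ[K] L)
    (hσ : σ ∈ A.inertiaSubgroupIn K) (x : L) :
    A.valuation (σ x) < 1 ↔ A.valuation x < 1 := by
  rcases eq_or_ne x 0 with rfl | hx
  · simp
  have hσx : σ x ≠ 0 := (map_ne_zero σ).2 hx
  have h1 : A.valuation (σ x) < 1 ↔ ¬ A.valuation (σ x⁻¹) ≤ 1 := by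
    rw [map_inv₀, map_inv₀, not_le, one_lt_inv₀ ((A.valuation.pos_iff).2 hσx)]
  have h2 : A.valuation x < 1 ↔ ¬ A.valuation (x⁻¹) ≤ 1 := by
    rw [map_inv₀, not_le, one_lt_inv₀ ((A.valuation.pos_iff).2 hx)]
  rw [h1, h2, inertia_val_le_one_iff A σ hσ]

theorem inertia_pow_mem (A : ValuationSubring L) (σ : L ≃ₐ[K] L)
    (hσ : σ ∈ A.inertiaSubgroupIn K) (n : ℕ) : σ ^ n ∈ A.inertiaSubgroupIn K :=
  pow_mem hσ n

/-- If `σ ^ n` fixes `z` for some `n ≥ 1`, an inertia element `σ` cannot lower the valuation. -/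
theorem inertia_val_not_lt (A : ValuationSubring L) (σ : L ≃ₐ[K] L)
    (hσ : σ ∈ A.inertiaSubgroupIn K) {z : L} {n : ℕ} (hn : (σ ^ (n + 1)) z = z) :
    ¬ A.valuation (σ z) < A.valuation z := by
  intro hlt
  have hz : z ≠ 0 := by
    rintro rfl
    simp at hlt
  have hz0 : 0 < A.valuation z := (A.valuation.pos_iff).2 hz
  -- `u = σ z / z` is a nonunit
  have hu : A.valuation (σ z / z) < 1 := by
    rw [map_div₀, div_lt_one₀ hz0]; exact hlt
  have key : ∀ k : ℕ, A.valuation ((σ ^ (k + 1)) z) < A.valuation z := by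
    intro k
    induction k with
    | zero => simpa using hlt
    | succ k ih =>
      have hk : A.valuation ((σ ^ (k + 1)) (σ z / z)) < 1 :=
        (inertia_val_lt_one_iff A _ (pow_mem hσ (k + 1)) _).2 hu
      have e : (σ ^ (k + 1)) (σ z / z) = (σ ^ (k + 1 + 1)) z / (σ ^ (k + 1)) z := by
        rw [map_div₀]
        congr 1
      rw [e, map_div₀] at hk
      have hpos : 0 < A.valuation ((σ ^ (k + 1)) z) :=
        (A.valuation.pos_iff).2 ((map_ne_zero _).2 hz)
      rw [div_lt_one₀ hpos] at hk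
      exact hk.trans ih
  have := key n
  rw [hn] at this
  exact lt_irrefl _ this

/-- Powers of an automorphism have a fixed point on any algebraic element. -/
theorem exists_pow_fixed [Algebra.IsAlgebraic K L] (σ : L ≃ₐ[K] L) (z : L) :
    ∃ n : ℕ, (σ ^ (n + 1)) z = z := by
  classical
  have hz : IsIntegral K z := (Algebra.IsAlgebraic.isAlgebraic z).isIntegral
  have hfin : ((minpoly K z).rootSet L).Finite := Polynomial.rootSet_finite _ _
  have hmem : ∀ k : ℕ, (σ ^ k) z ∈ (minpoly K z).rootSet L := by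
    intro k
    rw [Polynomial.mem_rootSet]
    refine ⟨minpoly.ne_zero hz, ?_⟩
    rw [Polynomial.aeval_algEquiv, AlgHom.comp_apply]
    simp [minpoly.aeval]
  have : Finite ((minpoly K z).rootSet L) := hfin
  obtain ⟨i, j, hij, h⟩ := Finite.exists_ne_map_eq_of_infinite
    (fun k : ℕ => (⟨(σ ^ k) z, hmem k⟩ : (minpoly K z).rootSet L))
  have h' : (σ ^ i) z = (σ ^ j) z := congrArg Subtype.val h
  wlog hlt : i < j generalizing i j
  · exact this j i hij.symm h.symm h'.symm (lt_of_le_of_ne (not_lt.1 hlt) hij.symm)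
  obtain ⟨d, rfl⟩ : ∃ d, j = i + (d + 1) := ⟨j - i - 1, by omega⟩
  refine ⟨d, ?_⟩
  rw [pow_add] at h'
  exact ((σ ^ i).injective h').symm

/-- Inertia elements preserve the valuation. -/
theorem inertia_val_eq [Algebra.IsAlgebraic K L] (A : ValuationSubring L) (σ : L ≃ₐ[K] L)
    (hσ : σ ∈ A.inertiaSubgroupIn K) (z : L) : A.valuation (σ z) = A.valuation z := by
  refine le_antisymm ?_ ?_
  · -- apply `inertia_val_not_lt` to `σ⁻¹` and `σ z`
    by_contra hcon
    rw [not_le] at hcon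
    obtain ⟨n, hn⟩ := exists_pow_fixed (σ⁻¹) (σ z)
    have := inertia_val_not_lt A σ⁻¹ (inv_mem hσ) hn
    rw [show σ⁻¹ (σ z) = z from σ.symm_apply_apply z] at this
    exact this hcon
  · by_contra hcon
    rw [not_le] at hcon
    obtain ⟨n, hn⟩ := exists_pow_fixed σ z
    exact inertia_val_not_lt A σ hσ hn hcon

end General

section Rat

/-- An element of `Qb` fixed by the whole Galois group is rational. -/
theorem rational_of_fixed (z : Qb) (hz : ∀ σ : Qb ≃ₐ[ℚ] Qb, σ z = z) :
    ∃ r : ℚ, algebraMap ℚ Qb r = z :=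
  (InfiniteGalois.mem_range_algebraMap_iff_fixed z).2 hz

/-- A rational number of valuation `> 1` over `p` has valuation at least `(v p)⁻¹`. -/
theorem val_rat_ge (A : ValuationSubring Qb) {p : ℕ} (hp : p.Prime) (hA : A.LiesOverPrime p)
    (r : ℚ) (hr : 1 < A.valuation (algebraMap ℚ Qb r)) :
    (A.valuation (p : Qb))⁻¹ ≤ A.valuation (algebraMap ℚ Qb r) := by
  have hden : (r.den : ℚ) ≠ 0 := Nat.cast_ne_zero.2 r.den_ne_zero
  have e : algebraMap ℚ Qb r = (r.num : Qb) / (r.den : Qb) := by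
    conv_lhs => rw [← Rat.num_div_den r]
    rw [map_div₀, map_intCast, map_natCast]
  have hden' : (r.den : Qb) ≠ 0 := Nat.cast_ne_zero.2 r.den_ne_zero
  have hd0 : 0 < A.valuation (r.den : Qb) := (A.valuation.pos_iff).2 hden'
  have hpd : p ∣ r.den := by
    by_contra hnd
    have h1 : A.valuation (r.den : Qb) = 1 := val_natCast_eq_one_of_not_dvd A hp hA hnd
    rw [e, map_div₀, h1, div_one] at hr
    exact absurd (val_intCast_le_one A r.num) (not_le.2 hr)
  have hpn : ¬ (p : ℤ) ∣ r.num := by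
    intro h
    have h1 : p ∣ r.num.natAbs := Int.natCast_dvd.1 h
    have h2 : p ∣ Nat.gcd r.num.natAbs r.den := Nat.dvd_gcd h1 hpd
    rw [r.reduced] at h2
    exact hp.one_lt.ne' (Nat.dvd_one.1 h2)
  have hnum : A.valuation (r.num : Qb) = 1 := val_intCast_eq_one_of_not_dvd A hp hA hpn
  obtain ⟨m, hm⟩ := hpd
  have hdle : A.valuation (r.den : Qb) ≤ A.valuation (p : Qb) := by
    rw [hm]
    push_cast
    rw [map_mul]
    exact mul_le_of_le_one_right' (val_natCast_le_one A m)
  rw [e, map_div₀, hnum, one_div]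
  exact inv_anti₀ hd0 hdle

end Rat

end Fermat.Agent.S13_helper5_ATPa
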