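import Mathlib
import Fermat.Agent.S05_helper6_Kernel

/-!
# S13, pieces K1 + RD (helper9)

* `InE1 v P` : the point `P` lies in the kernel of reduction `E₁` (it is `0` or `1 < v x`).
* `inE1_neg`, `inE1_add`, `inE1_sub`, `inE1_nsmul`, `inE1_zsmul` : `E₁` is a subgroup.
* `inE1_torsion_free` : `E₁` has no `n`-torsion when `v n = 1`.
* `RD` : two integral points with the same *nonsingular* reduction differ by a point of `E₁`
  (general Weierstrass form, any residue characteristic).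
* `RD_map` : application to an automorphism acting trivially on the residue field.
-/

set_option autoImplicit false
set_option linter.unusedSectionVars false

namespace Fermat.Agent.S13_helper9_RD

open WeierstrassCurve WeierstrassCurve.Affine
open Fermat.Agent.S05_helper6_Kernel

variable {K : Type*} [Field K] {Γ₀ : Type*} [LinearOrderedCommGroupWithZero Γ₀]

section Defs

variable (v : Valuation K Γ₀) {W : WeierstrassCurve.Affine K}

/-- `P` lies in the kernel of reduction: `P = 0` or `1 < v (x P)`. -/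
def InE1 : W.Point → Prop
  | .zero => True
  | .some x _ _ => 1 < v x

@[simp] lemma inE1_zero : InE1 v (0 : W.Point) := trivial

@[simp] lemma inE1_some {x y : K} (h : W.Nonsingular x y) :
    InE1 v (Point.some x y h) ↔ 1 < v x := Iff.rfl

lemma inE1_of_inKer {r : Γ₀} {P : W.Point} (h : InKer v r P) : InE1 v P := by
  rcases P with _ | ⟨x, y, hxy⟩
  · trivial
  · exact h.1

lemma inKer_mono {r s : Γ₀} (hrs : r ≤ s) {P : W.Point} (h : InKer v r P) : InKer v s P := by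
  rcases P with _ | ⟨x, y, hxy⟩
  · trivial
  · exact ⟨h.1, h.2.trans hrs⟩

end Defs

section K1

variable [DecidableEq K] (v : Valuation K Γ₀) {W : WeierstrassCurve.Affine K}
  (h₁ : v W.a₁ ≤ 1) (h₂ : v W.a₂ ≤ 1) (h₃ : v W.a₃ ≤ 1) (h₄ : v W.a₄ ≤ 1) (h₆ : v W.a₆ ≤ 1)

include h₁ h₂ h₃ h₄ h₆

/-- A point of `E₁` lies in some `InKer v r` with `r < 1`. -/
lemma exists_inKer_of_inE1 {P : W.Point} (hP : InE1 v P) : ∃ r : Γ₀, r < 1 ∧ InKer v r P := by
  rcases P with _ | ⟨x, y, hxy⟩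
  · exact ⟨0, zero_lt_one, trivial⟩
  · obtain ⟨-, hz, -, -, -⟩ := kernel_point v h₁ h₂ h₃ h₄ h₆ hxy.1 hP
    exact ⟨v (-x / y), hz, hP, le_rfl⟩

/-- `E₁` is stable under negation. -/
theorem inE1_neg {P : W.Point} (hP : InE1 v P) : InE1 v (-P) := by
  rcases P with _ | ⟨x, y, hxy⟩
  · exact hP
  · rw [Point.neg_some]
    exact hP

/-- `E₁` is stable under addition. -/
theorem inE1_add {P Q : W.Point} (hP : InE1 v P) (hQ : InE1 v Q) : InE1 v (P + Q) := by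
  obtain ⟨r, hr, hPr⟩ := exists_inKer_of_inE1 v h₁ h₂ h₃ h₄ h₆ hP
  obtain ⟨s, hs, hQs⟩ := exists_inKer_of_inE1 v h₁ h₂ h₃ h₄ h₆ hQ
  have hm : max r s < 1 := max_lt hr hs
  exact inE1_of_inKer v (inKer_add v h₁ h₂ h₃ h₄ h₆ hm
    (inKer_mono v (le_max_left r s) hPr) (inKer_mono v (le_max_right r s) hQs)).1

/-- `E₁` is stable under subtraction. -/
theorem inE1_sub {P Q : W.Point} (hP : InE1 v P) (hQ : InE1 v Q) : InE1 v (P - Q) := by
  rw [sub_eq_add_neg]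
  exact inE1_add v h₁ h₂ h₃ h₄ h₆ hP (inE1_neg v h₁ h₂ h₃ h₄ h₆ hQ)

/-- `E₁` is stable under multiplication by natural numbers. -/
theorem inE1_nsmul {P : W.Point} (hP : InE1 v P) (k : ℕ) : InE1 v (k • P) := by
  induction k with
  | zero => rw [zero_nsmul]; trivial
  | succ k ih => rw [succ_nsmul]; exact inE1_add v h₁ h₂ h₃ h₄ h₆ ih hP

/-- `E₁` is stable under multiplication by integers. -/
theorem inE1_zsmul {P : W.Point} (hP : InE1 v P) (k : ℤ) : InE1 v (k • P) := by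
  rcases Int.eq_nat_or_neg k with ⟨n, rfl | rfl⟩
  · rw [natCast_zsmul]; exact inE1_nsmul v h₁ h₂ h₃ h₄ h₆ hP n
  · rw [neg_smul, natCast_zsmul]
    exact inE1_neg v h₁ h₂ h₃ h₄ h₆ (inE1_nsmul v h₁ h₂ h₃ h₄ h₆ hP n)

/-- `E₁` has no `n`-torsion when `n` is a unit for `v`. -/
theorem inE1_torsion_free {n : ℕ} (hn : v (n : K) = 1) {P : W.Point} (hP : InE1 v P)
    (h0 : n • P = 0) : P = 0 := by
  rcases P with _ | ⟨x, y, hxy⟩
  · rfl
  · exact absurd h0 (nsmul_ne_zero_of_val v h₁ h₂ h₃ h₄ h₆ hn hxy hP).1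

/-- If `P - Q ∈ E₁` and `Q ∈ E₁` then `P ∈ E₁`. -/
theorem inE1_of_sub {P Q : W.Point} (hPQ : InE1 v (P - Q)) (hQ : InE1 v Q) : InE1 v P := by
  have := inE1_add v h₁ h₂ h₃ h₄ h₆ hPQ hQ
  rwa [sub_add_cancel] at this

end K1

/-! ### The reduction-difference lemma -/

section RDsec

variable [DecidableEq K] (v : Valuation K Γ₀) {W : WeierstrassCurve.Affine K}
  (h₁ : v W.a₁ ≤ 1) (h₂ : v W.a₂ ≤ 1) (h₃ : v W.a₃ ≤ 1) (h₄ : v W.a₄ ≤ 1) (h₆ : v W.a₆ ≤ 1)

/-- A slope of valuation `> 1` gives a sum in the kernel of reduction. -/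
lemma addX_val_gt (h₁ : v W.a₁ ≤ 1) (h₂ : v W.a₂ ≤ 1) {x₁ x₂ ℓ : K} (hx₁ : v x₁ ≤ 1)
    (hx₂ : v x₂ ≤ 1) (hℓ : 1 < v ℓ) : 1 < v (W.addX x₁ x₂ ℓ) := by
  have hℓ2 : v ℓ < v (ℓ ^ 2) := by
    rw [map_pow, sq]
    calc v ℓ = 1 * v ℓ := (one_mul _).symm
      _ < v ℓ * v ℓ := mul_lt_mul_of_pos_right hℓ (lt_trans zero_lt_one hℓ)
  have hrest : v (W.a₁ * ℓ - W.a₂ - x₁ - x₂) < v (ℓ ^ 2) := by
    refine lt_of_le_of_lt ?_ hℓ2
    refine v.map_sub_le (v.map_sub_le (v.map_sub_le ?_ ?_) ?_) ?_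
    · exact vle_mul_int v h₁ le_rfl
    · exact h₂.trans hℓ.le
    · exact hx₁.trans hℓ.le
    · exact hx₂.trans hℓ.le
  have e : W.addX x₁ x₂ ℓ = ℓ ^ 2 + (W.a₁ * ℓ - W.a₂ - x₁ - x₂) := by
    simp only [WeierstrassCurve.Affine.addX]; ring
  rw [e, v.map_add_eq_of_lt_left hrest]
  exact lt_trans hℓ hℓ2

/-- The valuation of a quotient `n / d` with `v n = 1` and `v d < 1`, `d ≠ 0`. -/
lemma val_div_gt {n d : K} (hn : v n = 1) (hd : v d < 1) (hd0 : d ≠ 0) : 1 < v (n / d) := by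
  have hvd0 : v d ≠ 0 := (v.ne_zero_iff).mpr hd0
  rw [map_div₀, hn]
  exact (one_lt_div₀ (zero_lt_iff.mpr hvd0)).mpr hd

include h₁ h₂ h₃ h₄ h₆

/-- **Reduction-difference lemma.**  Two integral points with the same nonsingular reduction
differ by a point of the kernel of reduction. -/
theorem RD {x₁ y₁ x₂ y₂ : K} (hP : W.Nonsingular x₁ y₁) (hQ : W.Nonsingular x₂ y₂)
    (hx₁ : v x₁ ≤ 1) (hy₁ : v y₁ ≤ 1) (hx : v (x₁ - x₂) < 1) (hy : v (y₁ - y₂) < 1)
    (hns : v (W.polynomialX.evalEval x₁ y₁) = 1 ∨ v (W.polynomialY.evalEval x₁ y₁) = 1) :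
    InE1 v (Point.some x₁ y₁ hP - Point.some x₂ y₂ hQ) := by
  -- integrality of the second point
  have hx₂ : v x₂ ≤ 1 := by
    have : x₂ = x₁ - (x₁ - x₂) := by ring
    rw [this]; exact v.map_sub_le hx₁ hx.le
  have hy₂ : v y₂ ≤ 1 := by
    have : y₂ = y₁ - (y₁ - y₂) := by ring
    rw [this]; exact v.map_sub_le hy₁ hy.le
  have hPX : W.polynomialX.evalEval x₁ y₁ = W.a₁ * y₁ - (3 * x₁ ^ 2 + 2 * W.a₂ * x₁ + W.a₄) :=
    WeierstrassCurve.Affine.evalEval_polynomialX x₁ y₁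
  have hPY : W.polynomialY.evalEval x₁ y₁ = 2 * y₁ + W.a₁ * x₁ + W.a₃ :=
    WeierstrassCurve.Affine.evalEval_polynomialY x₁ y₁
  rw [hPX, hPY] at hns
  have hPYle : v (2 * y₁ + W.a₁ * x₁ + W.a₃) ≤ 1 :=
    v.map_add_le (v.map_add_le (vle_mul_int v (v_two_le v) hy₁) (vle_mul_int v h₁ hx₁)) h₃
  have e₁ := (WeierstrassCurve.Affine.equation_iff x₁ y₁).mp hP.1
  have e₂ := (WeierstrassCurve.Affine.equation_iff x₂ y₂).mp hQ.1
  rw [sub_eq_add_neg, Point.neg_some]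
  by_cases hxy : x₁ = x₂ ∧ y₁ = W.negY x₂ (W.negY x₂ y₂)
  · rw [Point.add_of_Y_eq hxy.1 hxy.2]
    trivial
  · rw [Point.add_some hxy, inE1_some]
    refine addX_val_gt v h₁ h₂ hx₁ hx₂ ?_
    rw [WeierstrassCurve.Affine.negY_negY] at hxy
    by_cases hxx : x₁ = x₂
    · -- tangent case: `P = -Q`
      have hyy : y₁ ≠ y₂ := fun h => hxy ⟨hxx, h⟩
      have hyneg : y₁ ≠ W.negY x₂ (W.negY x₂ y₂) := by
        rw [WeierstrassCurve.Affine.negY_negY]; exact hyy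
      have hy₁eq : y₁ = W.negY x₂ y₂ :=
        (WeierstrassCurve.Affine.Y_eq_of_X_eq hP.1 hQ.1 hxx).resolve_left hyy
      rw [WeierstrassCurve.Affine.slope_of_Y_ne hxx hyneg]
      have hden : y₁ - W.negY x₁ y₁ = y₁ - y₂ := by
        rw [hy₁eq, hxx, WeierstrassCurve.Affine.negY_negY]
      have hden' : y₁ - y₂ = 2 * y₁ + W.a₁ * x₁ + W.a₃ := by
        rw [← hden]; simp only [WeierstrassCurve.Affine.negY]; ring
      rw [hden]
      have hY : v (2 * y₁ + W.a₁ * x₁ + W.a₃) < 1 := by rw [← hden']; exact hy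
      have hX : v (W.a₁ * y₁ - (3 * x₁ ^ 2 + 2 * W.a₂ * x₁ + W.a₄)) = 1 :=
        hns.resolve_right (ne_of_lt hY)
      have hnum : v (3 * x₁ ^ 2 + 2 * W.a₂ * x₁ + W.a₄ - W.a₁ * y₁) = 1 := by
        have : 3 * x₁ ^ 2 + 2 * W.a₂ * x₁ + W.a₄ - W.a₁ * y₁
            = -(W.a₁ * y₁ - (3 * x₁ ^ 2 + 2 * W.a₂ * x₁ + W.a₄)) := by ring
        rw [this, Valuation.map_neg]; exact hX
      exact val_div_gt v hnum hy (sub_ne_zero.mpr hyy)
    · -- chord case
      rw [WeierstrassCurve.Affine.slope_of_X_ne hxx]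
      have hxx' : x₁ - x₂ ≠ 0 := sub_ne_zero.mpr hxx
      have hn : y₁ - W.negY x₂ y₂ = y₁ + y₂ + W.a₁ * x₂ + W.a₃ := by
        simp only [WeierstrassCurve.Affine.negY]; ring
      rw [hn]
      -- the numerator is congruent to `polynomialY`
      have hndiff : v ((y₁ + y₂ + W.a₁ * x₂ + W.a₃) - (2 * y₁ + W.a₁ * x₁ + W.a₃)) < 1 := by
        have : (y₁ + y₂ + W.a₁ * x₂ + W.a₃) - (2 * y₁ + W.a₁ * x₁ + W.a₃)
            = -(y₁ - y₂) - W.a₁ * (x₁ - x₂) := by ring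
        rw [this]
        exact v.map_sub_lt (by rwa [Valuation.map_neg]) (vlt_mul_int v h₁ hx)
      by_cases hYu : v (2 * y₁ + W.a₁ * x₁ + W.a₃) = 1
      · have hnu : v (y₁ + y₂ + W.a₁ * x₂ + W.a₃) = 1 := by
          have : y₁ + y₂ + W.a₁ * x₂ + W.a₃
              = (2 * y₁ + W.a₁ * x₁ + W.a₃)
                + ((y₁ + y₂ + W.a₁ * x₂ + W.a₃) - (2 * y₁ + W.a₁ * x₁ + W.a₃)) := by ring
          rw [this, v.map_add_eq_of_lt_left (by rw [hYu]; exact hndiff), hYu]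
        exact val_div_gt v hnu hx hxx'
      · have hX : v (W.a₁ * y₁ - (3 * x₁ ^ 2 + 2 * W.a₂ * x₁ + W.a₄)) = 1 :=
          hns.resolve_right hYu
        -- `m` is congruent to `-polynomialX`
        obtain ⟨m, hm⟩ : ∃ m, m = x₁ ^ 2 + x₁ * x₂ + x₂ ^ 2 + W.a₂ * (x₁ + x₂) + W.a₄
            - W.a₁ * y₁ := ⟨_, rfl⟩
        have hmdiff : v (m + (W.a₁ * y₁ - (3 * x₁ ^ 2 + 2 * W.a₂ * x₁ + W.a₄))) < 1 := by
          have : m + (W.a₁ * y₁ - (3 * x₁ ^ 2 + 2 * W.a₂ * x₁ + W.a₄))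
              = (x₂ + 2 * x₁ + W.a₂) * (-(x₁ - x₂)) := by rw [hm]; ring
          rw [this]
          refine vlt_mul_int v ?_ (by rwa [Valuation.map_neg])
          exact v.map_add_le (v.map_add_le hx₂ (vle_mul_int v (v_two_le v) hx₁)) h₂
        have hmu : v m = 1 := by
          have : m = -(W.a₁ * y₁ - (3 * x₁ ^ 2 + 2 * W.a₂ * x₁ + W.a₄))
              + (m + (W.a₁ * y₁ - (3 * x₁ ^ 2 + 2 * W.a₂ * x₁ + W.a₄))) := by ring
          rw [this, v.map_add_eq_of_lt_left (by rw [Valuation.map_neg, hX]; exact hmdiff),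
            Valuation.map_neg, hX]
        have hm0 : m ≠ 0 := by
          intro h0; rw [h0, map_zero] at hmu; exact zero_ne_one hmu
        have key : (y₁ - y₂) * (y₁ + y₂ + W.a₁ * x₂ + W.a₃) = (x₁ - x₂) * m := by
          rw [hm]; linear_combination e₁ - e₂
        have hyy : y₁ - y₂ ≠ 0 := by
          intro h0
          rw [h0, zero_mul] at key
          exact (mul_ne_zero hxx' hm0) key.symm
        have hslope : (y₁ + y₂ + W.a₁ * x₂ + W.a₃) / (x₁ - x₂) = m / (y₁ - y₂) := by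
          rw [div_eq_div_iff hxx' hyy]
          linear_combination key
        rw [hslope]
        exact val_div_gt v hmu hy hyy

end RDsec

/-! ### Application: automorphisms acting trivially on the residue field -/

section Map

variable [DecidableEq K] {R : Type*} {S : Type*} [CommRing R] [CommRing S] [Algebra R S]
  [Algebra R K] [Algebra S K] [IsScalarTower R S K] {W' : WeierstrassCurve.Affine R}
  (v : Valuation K Γ₀)
  (h₁ : v (W'⁄K).a₁ ≤ 1) (h₂ : v (W'⁄K).a₂ ≤ 1) (h₃ : v (W'⁄K).a₃ ≤ 1)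
  (h₄ : v (W'⁄K).a₄ ≤ 1) (h₆ : v (W'⁄K).a₆ ≤ 1)

include h₁ h₂ h₃ h₄ h₆

/-- If `σ` moves every integral element by a non-unit, then `σ P - P ∈ E₁` for every integral
point `P` with nonsingular reduction. -/
theorem RD_map (σ : K →ₐ[S] K) (hσ : ∀ z : K, v z ≤ 1 → v (σ z - z) < 1)
    {x y : K} (h : (W'⁄K).Nonsingular x y) (hx : v x ≤ 1) (hy : v y ≤ 1)
    (hns : v ((W'⁄K).polynomialX.evalEval x y) = 1 ∨ v ((W'⁄K).polynomialY.evalEval x y) = 1) :
    InE1 v (Point.map σ (Point.some x y h) - Point.some x y h) := by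
  rw [Point.map_some]
  have hx' : v (x - σ x) < 1 := by rw [Valuation.map_sub_swap]; exact hσ x hx
  have hy' : v (y - σ y) < 1 := by rw [Valuation.map_sub_swap]; exact hσ y hy
  have key := RD v h₁ h₂ h₃ h₄ h₆ h ((W'.baseChange_nonsingular σ.injective ..).mpr h)
    hx hy hx' hy' hns
  have := inE1_neg v h₁ h₂ h₃ h₄ h₆ key
  rwa [neg_sub] at this

end Map

end Fermat.Agent.S13_helper9_RD
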