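import Mathlib
import Fermat.Agent.S05_helper1_Defs
import Fermat.Agent.S05_helper1_Component
import Fermat.Agent.S05_helper1_Chord
import Fermat.Agent.S05_helper25_Bridge
import Fermat.Agent.S05_helper25_CompTorsion
import Fermat.Agent.S05_helper6_Kernel
import Fermat.Agent.S13_helper9_RD

set_option autoImplicit false

namespace Fermat.Agent.S13_helper5_ATPb

open WeierstrassCurve WeierstrassCurve.Affine Fermat.Agent.S05_helper1_Defs
open Fermat.Agent.S05_helper1_Component Fermat.Agent.S05_helper1_Chord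
  Fermat.Agent.S05_helper25_Bridge Fermat.Agent.S05_helper25_CompTorsion
  Fermat.Agent.S05_helper6_Kernel Fermat.Agent.S13_helper9_RD

variable {K : Type*} [Field K] {Γ₀ : Type*}
  [LinearOrderedCommGroupWithZero Γ₀] (v : Valuation K Γ₀)
  {W : WeierstrassCurve.Affine K} {s a b γ : K}

section Integrality

lemma val_three_le (h2 : v 2 = 1) : v (3 : K) ≤ 1 := by
  have : (3 : K) = 2 + 1 := by norm_num
  rw [this]
  exact v.map_add_le h2.le (by rw [v.map_one])

lemma val_sixteen (h2 : v 2 = 1) : v (16 : K) = 1 := by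
  have : (16 : K) = 4 * 4 := by norm_num
  rw [this, v.map_mul, val_four v h2, one_mul]

/-- Integrality of `a₂` from the short model. -/
lemma short_a₂ (hW : ShortModel W s a b) (h2 : v 2 = 1) (hs : v s ≤ 1) (ha : v a ≤ 1) :
    v W.a₂ ≤ 1 := by
  have e : 4 * W.a₂ = a - 3 * s - 1 := by rw [hW.ha]; ring
  have : v (4 * W.a₂) ≤ 1 := by
    rw [e]
    refine v.map_sub_le (v.map_sub_le ha ?_) (by rw [v.map_one])
    rw [v.map_mul]; exact mul_le_one' (val_three_le v h2) hs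
  rwa [v.map_mul, val_four v h2, one_mul] at this

/-- Integrality of `a₄` from the short model. -/
lemma short_a₄ (hW : ShortModel W s a b) (h2 : v 2 = 1) (hs : v s ≤ 1) (ha : v a ≤ 1)
    (hb : v b ≤ 1) : v W.a₄ ≤ 1 := by
  have e : 16 * W.a₄ = b - s * (2 * a - 3 * s) := by rw [hW.hb, hW.ha]; ring
  have : v (16 * W.a₄) ≤ 1 := by
    rw [e]
    refine v.map_sub_le hb ?_
    rw [v.map_mul]
    refine mul_le_one' hs (v.map_sub_le ?_ ?_)
    · rw [v.map_mul, h2, one_mul]; exact ha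
    · rw [v.map_mul]; exact mul_le_one' (val_three_le v h2) hs
  rwa [v.map_mul, val_sixteen v h2, one_mul] at this

/-- Integrality of the short coordinates and of `y` for an integral `x`. -/
lemma short_int (hW : ShortModel W s a b) (h2 : v 2 = 1) (hs : v s ≤ 1) (ha : v a ≤ 1)
    (hb : v b ≤ 1) {x y : K} (h : W.Equation x y) (hx : v x ≤ 1) :
    v (4 * x - s) ≤ 1 ∧ v (8 * y + 4 * x) ≤ 1 ∧ v y ≤ 1 := by
  have h4 := val_four v h2
  have h8 := val_eight v h2
  have hX : v (4 * x - s) ≤ 1 := by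
    refine v.map_sub_le ?_ hs
    rw [v.map_mul, h4, one_mul]; exact hx
  have hsh := short_equation hW h
  have hY : v (8 * y + 4 * x) ≤ 1 := by
    have : v ((8 * y + 4 * x) ^ 2) ≤ 1 := by
      rw [hsh]
      refine v.map_add_le (v.map_add_le ?_ ?_) ?_
      · rw [v.map_pow]; exact pow_le_one₀ zero_le hX
      · rw [v.map_mul, v.map_pow]; exact mul_le_one' ha (pow_le_one₀ zero_le hX)
      · rw [v.map_mul]; exact mul_le_one' hb hX
    rw [v.map_pow] at this
    by_contra hcon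
    rw [not_le] at hcon
    exact absurd this (not_le.2 (one_lt_pow₀ hcon (by norm_num)))
  refine ⟨hX, hY, ?_⟩
  have e : 8 * y = (8 * y + 4 * x) - 4 * x := by ring
  have : v (8 * y) ≤ 1 := by
    rw [e]
    refine v.map_sub_le hY ?_
    rw [v.map_mul, h4, one_mul]; exact hx
  rwa [v.map_mul, h8, one_mul] at this

/-- An integral point of the short model which does not reduce to the node has nonsingular
reduction. -/
lemma short_nonsing (hW : ShortModel W s a b) (h2 : v 2 = 1) (hs : v s ≤ 1) (ha : v a ≤ 1)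
    (hb : v b ≤ 1) (hdisc : v (a ^ 2 - 4 * b) = 1) {x y : K} (h : W.Equation x y)
    (hx : v x ≤ 1) (hcase : v (4 * x - s) = 1 ∨ v b = 1) :
    v (W.polynomialX.evalEval x y) = 1 ∨ v (W.polynomialY.evalEval x y) = 1 := by
  obtain ⟨hX, hY, hy⟩ := short_int v hW h2 hs ha hb h hx
  have h4 := val_four v h2
  have h16 := val_sixteen v h2
  rw [evalEval_polynomialX, evalEval_polynomialY, hW.a₁, hW.a₃]
  have eY : 4 * (2 * y + 1 * x + 0) = 8 * y + 4 * x := by ring
  rcases lt_or_eq_of_le hY with hlt | heq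
  · left
    have hf := fprime_unit v (short_equation hW h) h2 ha hb hdisc hX hcase hlt
    have eX : 16 * (1 * y - (3 * x ^ 2 + 2 * W.a₂ * x + W.a₄)) =
        2 * (8 * y + 4 * x) - (3 * (4 * x - s) ^ 2 + 2 * a * (4 * x - s) + b) := by
      rw [hW.ha, hW.hb]; ring
    have : v (16 * (1 * y - (3 * x ^ 2 + 2 * W.a₂ * x + W.a₄))) = 1 := by
      rw [eX, v.map_sub_eq_of_lt_right, hf]
      rw [hf, v.map_mul, h2, one_mul]; exact hlt
    rwa [v.map_mul, h16, one_mul] at this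
  · right
    have : v (4 * (2 * y + 1 * x + 0)) = 1 := by rw [eY, heq]
    rwa [v.map_mul, h4, one_mul] at this

end Integrality

section Move

variable [DecidableEq K]

/-- If `(x', y')` is congruent to `(x, y)` (as for a conjugate under inertia) and `(x, y)` does
not reduce to the node, then the difference lies in the kernel of reduction. -/
theorem sub_inE1 (hW : ShortModel W s a b) (h2 : v 2 = 1) (hs : v s ≤ 1) (ha : v a ≤ 1)
    (hb : v b ≤ 1) (hdisc : v (a ^ 2 - 4 * b) = 1) {x y x' y' : K} (h : W.Nonsingular x y)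
    (h' : W.Nonsingular x' y') (hvx : 1 < v x → 1 < v x')
    (hdx : v x ≤ 1 → v (x' - x) < 1) (hdy : v y ≤ 1 → v (y' - y) < 1)
    (hE0 : v b = 1 ∨ 1 ≤ v (4 * x - s)) :
    InE1 v (Point.some x' y' h' - Point.some x y h) := by
  have h₁ : v W.a₁ ≤ 1 := by rw [hW.a₁, v.map_one]
  have h₂ : v W.a₂ ≤ 1 := short_a₂ v hW h2 hs ha
  have h₃ : v W.a₃ ≤ 1 := by rw [hW.a₃, v.map_zero]; exact zero_le_one
  have h₄ : v W.a₄ ≤ 1 := short_a₄ v hW h2 hs ha hb
  have h₆ : v W.a₆ ≤ 1 := by rw [hW.a₆, v.map_zero]; exact zero_le_one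
  by_cases hx : 1 < v x
  · exact inE1_sub v h₁ h₂ h₃ h₄ h₆ (P := Point.some x' y' h') (Q := Point.some x y h)
      (hvx hx) hx
  · rw [not_lt] at hx
    obtain ⟨hX, hY, hy⟩ := short_int v hW h2 hs ha hb h.1 hx
    have hcase : v (4 * x - s) = 1 ∨ v b = 1 := by
      rcases hE0 with hb1 | hX1
      · exact Or.inr hb1
      · exact Or.inl (le_antisymm hX hX1)
    have hns := short_nonsing v hW h2 hs ha hb hdisc h.1 hx hcase
    have hdx' : v (x - x') < 1 := by
      rw [← v.map_neg, neg_sub]; exact hdx hx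
    have hdy' : v (y - y') < 1 := by
      rw [← v.map_neg, neg_sub]; exact hdy hy
    have := RD v h₁ h₂ h₃ h₄ h₆ h h' hx hy hdx' hdy' hns
    have h2' := inE1_neg v h₁ h₂ h₃ h₄ h₆ this
    rwa [neg_sub] at h2'

end Move

section Nodal

/-- The points which do not reduce to the node of the short model. -/
def InE0 (s : K) : W.Point → Prop
  | .zero => True
  | .some x _ _ => 1 ≤ v (4 * x - s)

@[simp] lemma inE0_zero : InE0 v s (0 : W.Point) := trivial

@[simp] lemma inE0_some {x y : K} (h : W.Nonsingular x y) :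
    InE0 v s (Point.some x y h) ↔ 1 ≤ v (4 * x - s) := Iff.rfl

lemma zpow_two_mul_not_mem {β t : Γ₀} (hβ0 : β ≠ 0) (hβ : β < 1) (j : ℤ)
    (h : t = β ^ (2 * j)) : ¬ (β ≤ t ∧ t < 1) := by
  rintro ⟨h1, h2⟩
  have hpos : 0 < β := zero_lt_iff.2 hβ0
  have hanti : StrictAnti (fun n : ℤ => β ^ n) := zpow_right_strictAnti₀ hpos hβ
  rw [h] at h1 h2
  have a1 : (0 : ℤ) < 2 * j := by
    have : β ^ (2 * j) < β ^ (0 : ℤ) := by rwa [zpow_zero]
    exact (StrictAnti.lt_iff_gt hanti).1 this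
  have a2 : 2 * j ≤ 1 := by
    have : β ^ (1 : ℤ) ≤ β ^ (2 * j) := by rwa [zpow_one]
    exact (StrictAnti.le_iff_ge hanti).1 this
  omega

lemma zpow_two_mul_not_mem' {β t : Γ₀} (hβ0 : β ≠ 0) (hβ : β < 1) (j : ℤ)
    (h : t = β ^ (2 * j)) : ¬ (1 < t ∧ t < β⁻¹) := by
  rintro ⟨h1, h2⟩
  have hpos : 0 < β := zero_lt_iff.2 hβ0
  have hanti : StrictAnti (fun n : ℤ => β ^ n) := zpow_right_strictAnti₀ hpos hβ
  rw [h] at h1 h2
  have a1 : 2 * j < 0 := by
    have : β ^ (0 : ℤ) < β ^ (2 * j) := by rwa [zpow_zero]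
    exact (StrictAnti.lt_iff_gt hanti).1 this
  have a2 : -1 < 2 * j := by
    have : β ^ (2 * j) < β ^ (-1 : ℤ) := by rwa [zpow_neg_one]
    exact (StrictAnti.lt_iff_gt hanti).1 this
  omega

/-- The kernel of the component map is `E0`. -/
lemma phiT_mem_iff {β : Γ₀} (hβ0 : β ≠ 0) (hβ : β < 1) (γ X Y : K) :
    (∃ j : ℤ, phiT v β γ X Y = β ^ (2 * j)) ↔ 1 ≤ v X := by
  constructor
  · rintro ⟨j, hj⟩
    by_contra hX
    rw [not_le] at hX
    by_cases hle : v X ≤ β
    · rw [phiT_of_le v hX hle] at hj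
      exact zpow_two_mul_not_mem hβ0 hβ j hj ⟨le_rfl, hβ⟩
    · rw [not_le] at hle
      by_cases hsgn : v (Y - γ * X) < v X
      · rw [phiT_of_pos v hX hle hsgn] at hj
        exact zpow_two_mul_not_mem hβ0 hβ j hj ⟨hle.le, hX⟩
      · rw [phiT_of_neg v hX hle hsgn] at hj
        have hXpos : 0 < v X := lt_of_le_of_lt zero_le hle
        refine zpow_two_mul_not_mem' hβ0 hβ j hj ⟨?_, ?_⟩
        · exact (one_lt_inv₀ hXpos).2 hX
        · exact (inv_lt_inv₀ hXpos (zero_lt_iff.2 hβ0)).2 hle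
  · intro h
    exact ⟨0, by rw [phiT_of_one_le v h]; simp⟩

lemma inE0_iff (hb0 : b ≠ 0) (hb : v b < 1) (P : W.Point) :
    InE0 v s P ↔ ∃ j : ℤ, phiP v W s (v b) γ P = v b ^ (2 * j) := by
  have hβ0 : v b ≠ 0 := (Valuation.ne_zero_iff v).2 hb0
  cases P with
  | zero => exact ⟨fun _ => ⟨0, by rw [mul_zero, zpow_zero]; rfl⟩, fun _ => trivial⟩
  | some x y h =>
    rw [inE0_some, phiP_some]
    exact (phiT_mem_iff v hβ0 hb γ _ _).symm

variable [DecidableEq K]

/-- Two points with the same component differ by an element of `E0`. -/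
theorem sub_inE0 (hW : ShortModel W s a b) (h2 : v 2 = 1) (ha : v a = 1) (hb : v b < 1)
    (hb0 : b ≠ 0) (hγ : γ ^ 2 = a) {P Q : W.Point}
    (h : phiP v W s (v b) γ P = phiP v W s (v b) γ Q) : InE0 v s (P - Q) := by
  have hβ0 : v b ≠ 0 := (Valuation.ne_zero_iff v).2 hb0
  rw [inE0_iff v (γ := γ) hb0 hb]
  obtain ⟨j, hj⟩ := phiP_add v hW h2 ha hb hb0 hγ P (-Q)
  rw [sub_eq_add_neg, hj, h]
  cases Q with
  | zero =>
    refine ⟨j, ?_⟩
    show phiP v W s (v b) γ 0 * phiP v W s (v b) γ (-0) * _ = _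
    simp
  | some x y hxy =>
    obtain ⟨k, hk⟩ := phiP_neg v hW h2 ha hb0 hγ hxy
    refine ⟨k + j, ?_⟩
    rw [mul_comm (phiP v W s (v b) γ (Point.some x y hxy)), hk, ← zpow_add₀ hβ0]
    congr 1
    ring

theorem inE0_add (hW : ShortModel W s a b) (h2 : v 2 = 1) (ha : v a = 1) (hb : v b < 1)
    (hb0 : b ≠ 0) (hγ : γ ^ 2 = a) {P Q : W.Point} (hP : InE0 v s P) (hQ : InE0 v s Q) :
    InE0 v s (P + Q) := by
  have hβ0 : v b ≠ 0 := (Valuation.ne_zero_iff v).2 hb0
  rw [inE0_iff v (γ := γ) hb0 hb] at hP hQ ⊢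
  obtain ⟨i, hi⟩ := hP
  obtain ⟨k, hk⟩ := hQ
  obtain ⟨j, hj⟩ := phiP_add v hW h2 ha hb hb0 hγ P Q
  refine ⟨i + k + j, ?_⟩
  rw [hj, hi, hk, ← zpow_add₀ hβ0, ← zpow_add₀ hβ0]
  congr 1
  ring

omit [DecidableEq K] in
theorem inE0_neg {P : W.Point} (hP : InE0 v s P) : InE0 v s (-P) := by
  cases P with
  | zero => exact trivial
  | some x y h => rw [Point.neg_some]; exact hP

end Nodal

end Fermat.Agent.S13_helper5_ATPb
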