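import Mathlib

/-!
# S13 piece NP: a Newton polygon lemma

If `f` has integral coefficients (with respect to a valuation `v`) and `R` is a finite set of
roots of `f` of valuation `> 1`, then `v (leadingCoeff f) * ∏ r ∈ R, v r ≤ 1`.
-/

set_option autoImplicit false

open Polynomial

namespace Fermat.Agent.S13_helper5_NP

variable {K : Type*} [Field K] {Γ₀ : Type*} [LinearOrderedCommGroupWithZero Γ₀]

/-- Peeling off a root of valuation `> 1`: if `(X - C r) * g` has integral coefficients and
`1 < v r`, then `C r * g` has integral coefficients. -/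
theorem coeff_C_mul_le (v : Valuation K Γ₀) (g : K[X]) (r : K) (hr : 1 < v r)
    (hf : ∀ i, v (((X - C r) * g).coeff i) ≤ 1) (i : ℕ) : v ((C r * g).coeff i) ≤ 1 := by
  have hr0 : v r ≠ 0 := (lt_trans zero_lt_one hr).ne'
  induction i with
  | zero =>
    have h0 := hf 0
    rw [Polynomial.mul_coeff_zero] at h0
    simp only [coeff_sub, coeff_X_zero, coeff_C_zero, zero_sub, neg_mul, Valuation.map_neg] at h0
    rw [coeff_C_mul]
    exact h0
  | succ i ih =>
    have h1 := hf (i + 1)
    have e : ((X - C r) * g).coeff (i + 1) = g.coeff i - r * g.coeff (i + 1) := by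
      rw [sub_mul, coeff_sub, coeff_X_mul, coeff_C_mul]
    rw [e] at h1
    rw [coeff_C_mul] at ih ⊢
    have hgi : v (g.coeff i) ≤ 1 := by
      rw [map_mul] at ih
      by_contra hcon
      replace hcon := not_le.mp hcon
      have : 1 < v r * v (g.coeff i) := by
        calc (1 : Γ₀) = 1 * 1 := (one_mul 1).symm
          _ < v r * v (g.coeff i) := mul_lt_mul'' hr hcon zero_le_one zero_le_one
      exact absurd ih (not_le.mpr this)
    have e2 : r * g.coeff (i + 1) = g.coeff i - (g.coeff i - r * g.coeff (i + 1)) := by ring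
    rw [e2]
    exact (v.map_sub _ _).trans (max_le hgi h1)

theorem NP (v : Valuation K Γ₀) (f : K[X]) (hf0 : f ≠ 0) (hf : ∀ i, v (f.coeff i) ≤ 1)
    (R : Finset K) (hR : ∀ r ∈ R, f.IsRoot r ∧ 1 < v r) :
    v f.leadingCoeff * ∏ r ∈ R, v r ≤ 1 := by
  classical
  induction R using Finset.induction_on generalizing f with
  | empty =>
    simp only [Finset.prod_empty, mul_one]
    exact hf _
  | insert r R hrR ih =>
    obtain ⟨hroot, hr⟩ := hR r (Finset.mem_insert_self r R)
    obtain ⟨g, hg⟩ := Polynomial.dvd_iff_isRoot.mpr hroot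
    have hg0 : g ≠ 0 := by
      rintro rfl
      exact hf0 (by rw [hg, mul_zero])
    have hr0 : r ≠ 0 := by
      rintro rfl
      rw [map_zero] at hr
      exact absurd hr (not_lt.mpr zero_le_one)
    have hf'0 : C r * g ≠ 0 := mul_ne_zero (by simpa using hr0) hg0
    have hf' : ∀ i, v ((C r * g).coeff i) ≤ 1 := by
      intro i
      apply coeff_C_mul_le v g r hr
      intro j
      rw [← hg]
      exact hf j
    have hR' : ∀ r' ∈ R, (C r * g).IsRoot r' ∧ 1 < v r' := by
      intro r' hr'
      obtain ⟨h1, h2⟩ := hR r' (Finset.mem_insert_of_mem hr')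
      refine ⟨?_, h2⟩
      have hne : r' ≠ r := fun h => hrR (h ▸ hr')
      rw [hg] at h1
      simp only [IsRoot.def, eval_mul, eval_sub, eval_X, eval_C] at h1 ⊢
      rcases mul_eq_zero.mp h1 with h | h
      · exact absurd (sub_eq_zero.mp h) hne
      · rw [h, mul_zero]
    have key := ih (C r * g) hf'0 hf' hR'
    have hlc : (C r * g).leadingCoeff = r * f.leadingCoeff := by
      rw [leadingCoeff_mul, leadingCoeff_C, hg, leadingCoeff_mul, leadingCoeff_X_sub_C, one_mul]
    rw [hlc, map_mul] at key
    rw [Finset.prod_insert hrR]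
    calc v f.leadingCoeff * (v r * ∏ r ∈ R, v r)
        = v r * v f.leadingCoeff * ∏ r ∈ R, v r := by rw [mul_left_comm, mul_assoc]
      _ ≤ 1 := key

end Fermat.Agent.S13_helper5_NP
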