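import Mathlib
import Fermat.Statements.S13
import Fermat.Agent.S05_helper5_Frey
import Fermat.Agent.S13_helper5_NP
import Fermat.Agent.S13_helper5_ATPa
import Fermat.Agent.S13_helper9_RD
import Fermat.Agent.S13_helper20_DPCARD

set_option autoImplicit false

namespace Fermat.Agent.S13_helper5_ATPc

open WeierstrassCurve WeierstrassCurve.Affine WeierstrassCurve.Affine.Point Polynomial
open Fermat.Agent.S05_helper5_Frey Fermat.Agent.S13_helper5_ATPa Fermat.Agent.S13_helper9_RD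
  Fermat.Agent.S13_helper20_DPCARD

attribute [local instance 100000] AlgebraicClosure.instAlgebra

local notation "Qb" => AlgebraicClosure ℚ

section Prod

variable {Γ₀ : Type*} [LinearOrderedCommGroupWithZero Γ₀] {ι : Type*}

lemma one_le_prod_of_one_lt (S : Finset ι) (g : ι → Γ₀) (h : ∀ i ∈ S, 1 < g i) :
    1 ≤ ∏ i ∈ S, g i := by
  classical
  induction S using Finset.induction_on with
  | empty => simp
  | insert a S ha ih =>
    rw [Finset.prod_insert ha]
    have h1 : 1 < g a := h a (Finset.mem_insert_self a S)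
    have h2 : 1 ≤ ∏ i ∈ S, g i := ih (fun i hi => h i (Finset.mem_insert_of_mem hi))
    calc (1 : Γ₀) = 1 * 1 := (one_mul 1).symm
      _ ≤ g a * ∏ i ∈ S, g i := mul_le_mul' h1.le h2

lemma one_lt_prod_of_one_lt (S : Finset ι) (hS : S.Nonempty) (g : ι → Γ₀)
    (h : ∀ i ∈ S, 1 < g i) : 1 < ∏ i ∈ S, g i := by
  classical
  obtain ⟨a, ha⟩ := hS
  rw [← Finset.mul_prod_erase S g ha]
  have h1 : 1 < g a := h a ha
  have h2 : 1 ≤ ∏ i ∈ S.erase a, g i :=
    one_le_prod_of_one_lt _ g (fun i hi => h i (Finset.mem_of_mem_erase hi))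
  calc (1 : Γ₀) < g a := h1
    _ = g a * 1 := (mul_one _).symm
    _ ≤ g a * ∏ i ∈ S.erase a, g i := mul_le_mul' le_rfl h2

lemma prod_lt_prod_of_ssubset {S T : Finset ι} (hST : S ⊂ T) (g : ι → Γ₀)
    (h : ∀ i ∈ T, 1 < g i) : ∏ i ∈ S, g i < ∏ i ∈ T, g i := by
  classical
  have hsub : S ⊆ T := hST.1
  rw [← Finset.prod_sdiff hsub]
  have hne : (T \ S).Nonempty := by
    rw [Finset.sdiff_nonempty]
    exact hST.2
  have h1 : 1 < ∏ i ∈ T \ S, g i :=
    one_lt_prod_of_one_lt _ hne g (fun i hi => h i (Finset.mem_sdiff.1 hi).1)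
  have h2 : 0 < ∏ i ∈ S, g i :=
    lt_of_lt_of_le zero_lt_one (one_le_prod_of_one_lt _ g (fun i hi => h i (hsub hi)))
  calc ∏ i ∈ S, g i = 1 * ∏ i ∈ S, g i := (one_mul _).symm
    _ < (∏ i ∈ T \ S, g i) * ∏ i ∈ S, g i := mul_lt_mul_of_pos_right h1 h2

end Prod

section NPArg

variable (W' : Affine ℚ) (p : ℕ)

/-- The `x`-coordinates of the nonzero points of a set of `p`-torsion points. -/
noncomputable def xSet (N : Submodule (ZMod p) (Submodule.torsionBy ℤ (W'⁄Qb).Point p)) :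
    Finset Qb :=
  open Classical in
  (((W'⁄Qb).preΨ (p : ℤ)).roots.toFinset).filter
    (fun r => ∃ x : Submodule.torsionBy ℤ (W'⁄Qb).Point p, x ∈ N ∧
      ∃ (y : Qb) (h : (W'⁄Qb).Nonsingular r y), (x : (W'⁄Qb).Point) = Point.some r y h)

variable {W' p}

lemma preΨ_ne_zero' (hp0 : p ≠ 0) : (W'⁄Qb).preΨ (p : ℤ) ≠ 0 := by
  apply WeierstrassCurve.preΨ_ne_zero
  simpa using hp0

lemma mem_xSet (hp0 : p ≠ 0) (hF : ForwardDP (W'⁄Qb) p)
    (N : Submodule (ZMod p) (Submodule.torsionBy ℤ (W'⁄Qb).Point p)) (r : Qb) :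
    r ∈ xSet W' p N ↔ ∃ x : Submodule.torsionBy ℤ (W'⁄Qb).Point p, x ∈ N ∧
      ∃ (y : Qb) (h : (W'⁄Qb).Nonsingular r y), (x : (W'⁄Qb).Point) = Point.some r y h := by
  classical
  unfold xSet
  rw [Finset.mem_filter, Multiset.mem_toFinset, mem_roots (preΨ_ne_zero' hp0)]
  constructor
  · exact fun h => h.2
  · rintro ⟨x, hx, y, h, hxy⟩
    refine ⟨?_, x, hx, y, h, hxy⟩
    apply hF r y h
    rw [← hxy]
    exact (Submodule.mem_torsionBy_iff _ _).1 x.2

lemma xSet_isRoot (N : Submodule (ZMod p) (Submodule.torsionBy ℤ (W'⁄Qb).Point p)) {r : Qb}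
    (hr : r ∈ xSet W' p N) : ((W'⁄Qb).preΨ (p : ℤ)).IsRoot r := by
  classical
  unfold xSet at hr
  rw [Finset.mem_filter, Multiset.mem_toFinset] at hr
  exact isRoot_of_mem_roots hr.1

lemma xSet_mono (hp0 : p ≠ 0) (hF : ForwardDP (W'⁄Qb) p)
    {N N' : Submodule (ZMod p) (Submodule.torsionBy ℤ (W'⁄Qb).Point p)} (h : N ≤ N') :
    xSet W' p N ⊆ xSet W' p N' := by
  intro r hr
  rw [mem_xSet hp0 hF] at hr ⊢
  obtain ⟨x, hx, rest⟩ := hr
  exact ⟨x, h hx, rest⟩

/-- The `x`-coordinates of a Galois stable submodule are permuted by Galois. -/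
lemma xSet_stable (hp0 : p ≠ 0) (hF : ForwardDP (W'⁄Qb) p)
    (N : Submodule (ZMod p) (Submodule.torsionBy ℤ (W'⁄Qb).Point p))
    (hst : IsGaloisStable ℚ N) (σ : Qb ≃ₐ[ℚ] Qb) {r : Qb} (hr : r ∈ xSet W' p N) :
    σ r ∈ xSet W' p N := by
  rw [mem_xSet hp0 hF] at hr ⊢
  obtain ⟨x, hx, y, h, hxy⟩ := hr
  refine ⟨σ • x, hst σ x hx, σ y, ?_, ?_⟩
  · exact (W'.baseChange_nonsingular (f := σ.toAlgHom) σ.toAlgHom.injective r y).2 h
  · show Point.map σ.toAlgHom (x : (W'⁄Qb).Point) = _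
    rw [hxy]
    rfl

lemma xSet_prod_fixed (hp0 : p ≠ 0) (hF : ForwardDP (W'⁄Qb) p)
    (N : Submodule (ZMod p) (Submodule.torsionBy ℤ (W'⁄Qb).Point p))
    (hst : IsGaloisStable ℚ N) (σ : Qb ≃ₐ[ℚ] Qb) :
    σ (∏ r ∈ xSet W' p N, r) = ∏ r ∈ xSet W' p N, r := by
  classical
  rw [map_prod]
  have himg : (xSet W' p N).image σ = xSet W' p N := by
    apply Finset.eq_of_subset_of_card_le
    · intro r hr
      rw [Finset.mem_image] at hr
      obtain ⟨r', hr', rfl⟩ := hr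
      exact xSet_stable hp0 hF N hst σ hr'
    · rw [Finset.card_image_of_injective _ σ.injective]
  conv_rhs => rw [← himg]
  rw [Finset.prod_image (fun a _ b _ hab => σ.injective hab)]

/-- **Newton polygon argument.**  In the presence of a Galois stable proper nonzero submodule of
`E[p]`, not all `p`-torsion points lie in the kernel of reduction at `A` over `p`. -/
theorem exists_not_inE1 (hp : p.Prime) (hodd : Odd p) (A : ValuationSubring Qb)
    (hA : A.LiesOverPrime p)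
    (hint : ∀ i, A.valuation (((W'⁄Qb).preΨ (p : ℤ)).coeff i) ≤ 1)
    (hF : ForwardDP (W'⁄Qb) p)
    (N : Submodule (ZMod p) (Submodule.torsionBy ℤ (W'⁄Qb).Point p))
    (hst : IsGaloisStable ℚ N) (hbot : N ≠ ⊥) (htop : N ≠ ⊤) :
    ∃ x : Submodule.torsionBy ℤ (W'⁄Qb).Point p, ¬ InE1 A.valuation (x : (W'⁄Qb).Point) := by
  classical
  by_contra hall
  push Not at hall
  have hp0 : p ≠ 0 := hp.ne_zero
  set f := (W'⁄Qb).preΨ (p : ℤ) with hf
  have hf0 : f ≠ 0 := preΨ_ne_zero' hp0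
  -- all `x`-coordinates have valuation `> 1`
  have hR : ∀ r ∈ xSet W' p ⊤, f.IsRoot r ∧ 1 < A.valuation r := by
    intro r hr
    refine ⟨xSet_isRoot _ hr, ?_⟩
    rw [mem_xSet hp0 hF] at hr
    obtain ⟨x, -, y, h, hxy⟩ := hr
    have := hall x
    rw [hxy] at this
    exact this
  -- `xSet N` is nonempty
  have hne : (xSet W' p N).Nonempty := by
    obtain ⟨x, hx, hx0⟩ := Submodule.exists_mem_ne_zero_of_ne_bot hbot
    rcases hx1 : (x : (W'⁄Qb).Point) with _ | ⟨r, y, h⟩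
    · exfalso
      apply hx0
      exact Subtype.ext hx1
    · exact ⟨r, (mem_xSet hp0 hF N r).2 ⟨x, hx, y, h, hx1⟩⟩
  -- `xSet N` is strictly smaller than `xSet ⊤`
  have hss : xSet W' p N ⊂ xSet W' p ⊤ := by
    refine ⟨xSet_mono hp0 hF le_top, ?_⟩
    intro hsub
    obtain ⟨x, hx⟩ : ∃ x, x ∉ N := by
      by_contra hcon
      push Not at hcon
      exact htop (eq_top_iff.2 fun x _ => hcon x)
    rcases hx1 : (x : (W'⁄Qb).Point) with _ | ⟨r, y, h⟩
    · apply hx
      have : x = 0 := Subtype.ext hx1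
      rw [this]
      exact N.zero_mem
    · have hr : r ∈ xSet W' p ⊤ := (mem_xSet hp0 hF ⊤ r).2 ⟨x, Submodule.mem_top, y, h, hx1⟩
      have hr' := hsub hr
      rw [mem_xSet hp0 hF] at hr'
      obtain ⟨x', hx'N, y', h', hx'⟩ := hr'
      rcases Y_eq_of_X_eq h'.1 h.1 rfl with hy | hy
      · apply hx
        have : x = x' := by
          apply Subtype.ext
          rw [hx1, hx']
          congr 1
          exact hy.symm
        rw [this]; exact hx'N
      · apply hx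
        have : x = -x' := by
          apply Subtype.ext
          rw [Submodule.coe_neg, hx1, hx', Point.neg_some]
          congr 1
          rw [hy, negY_negY]
        rw [this]; exact N.neg_mem hx'N
  -- Newton polygon
  have hNP := Fermat.Agent.S13_helper5_NP.NP A.valuation f hf0 hint (xSet W' p ⊤) hR
  have hlc : f.leadingCoeff = (p : Qb) := by
    rw [hf, (W'⁄Qb).leadingCoeff_preΨ (n := (p : ℤ)) (by simpa using hp0)]
    have : ¬ Even (p : ℤ) := by
      rw [Int.not_even_iff_odd]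
      exact_mod_cast hodd
    rw [if_neg this]
    simp
  rw [hlc] at hNP
  have hpv0 : 0 < A.valuation (p : Qb) :=
    (A.valuation.pos_iff).2 (Nat.cast_ne_zero.2 hp0)
  -- the product over `xSet N` is rational
  obtain ⟨ρ, hρ⟩ := rational_of_fixed (∏ r ∈ xSet W' p N, r)
    (fun σ => xSet_prod_fixed hp0 hF N hst σ)
  have hgt : ∀ r ∈ xSet W' p N, 1 < A.valuation r := fun r hr => (hR r (hss.1 hr)).2
  have hvρ : A.valuation (algebraMap ℚ Qb ρ) = ∏ r ∈ xSet W' p N, A.valuation r := by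
    rw [hρ, map_prod]
  have h1 : 1 < A.valuation (algebraMap ℚ Qb ρ) := by
    rw [hvρ]
    exact one_lt_prod_of_one_lt _ hne _ hgt
  have h2 := val_rat_ge A hp hA ρ h1
  have h3 : A.valuation (algebraMap ℚ Qb ρ) < ∏ r ∈ xSet W' p ⊤, A.valuation r := by
    rw [hvρ]
    exact prod_lt_prod_of_ssubset hss _ (fun r hr => (hR r hr).2)
  have h4 : ∏ r ∈ xSet W' p ⊤, A.valuation r ≤ (A.valuation (p : Qb))⁻¹ := by
    have : ∏ r ∈ xSet W' p ⊤, A.valuation r ≤ 1 * (A.valuation (p : Qb))⁻¹ := by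
      rw [le_mul_inv_iff₀ hpv0, mul_comm]
      exact hNP
    rwa [one_mul] at this
  exact lt_irrefl _ (lt_of_lt_of_le h3 (h4.trans h2))

end NPArg

end Fermat.Agent.S13_helper5_ATPc
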