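import Mathlib
import Fermat.Statements.S13
import Fermat.Agent.S05_helper1_Defs
import Fermat.Agent.S05_helper25_CompTorsion
import Fermat.Agent.S05_helper5_Inertia
import Fermat.Agent.S05_helper5_Frey
import Fermat.Agent.S13_helper9_RD
import Fermat.Agent.S13_helper20_DPCARD
import Fermat.Agent.S13_helper5_ATPa
import Fermat.Agent.S13_helper5_ATPb
import Fermat.Agent.S13_helper5_ATPc

/-!
# S13 piece ATP (helper5): local analysis of `E[p]` at `p` for the Frey curve

For a valuation subring `A` of `Qbar` over `p` and a Galois stable line `N` of `V = E[p]`: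
the inertia group `I_A` either fixes `N` pointwise or acts trivially on `V / N`.
-/

set_option autoImplicit false

namespace Fermat.Agent.S13_helper5_ATP

open WeierstrassCurve WeierstrassCurve.Affine WeierstrassCurve.Affine.Point Polynomial
open Fermat.Agent.S05_helper1_Defs Fermat.Agent.S05_helper25_CompTorsion
  Fermat.Agent.S05_helper5_Inertia Fermat.Agent.S05_helper5_Frey
  Fermat.Agent.S13_helper9_RD Fermat.Agent.S13_helper20_DPCARD
  Fermat.Agent.S13_helper5_ATPa Fermat.Agent.S13_helper5_ATPb Fermat.Agent.S13_helper5_ATPc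

attribute [local instance 100000] AlgebraicClosure.instAlgebra

local notation "Qb" => AlgebraicClosure ℚ

section Integral

variable {L : Type*} [Field L]

/-- The division polynomials of an integral model have integral coefficients. -/
theorem preΨ_coeff_integral (A : ValuationSubring L) (W : WeierstrassCurve L)
    (h₁ : W.a₁ ∈ A) (h₂ : W.a₂ ∈ A) (h₃ : W.a₃ ∈ A) (h₄ : W.a₄ ∈ A) (h₆ : W.a₆ ∈ A)
    (n : ℤ) (i : ℕ) : A.valuation ((W.preΨ n).coeff i) ≤ 1 := by
  let WA : WeierstrassCurve A := ⟨⟨W.a₁, h₁⟩, ⟨W.a₂, h₂⟩, ⟨W.a₃, h₃⟩, ⟨W.a₄, h₄⟩, ⟨W.a₆, h₆⟩⟩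
  have hW : W = WA.map A.subtype := by
    ext <;> rfl
  rw [hW, WeierstrassCurve.map_preΨ, coeff_map, A.valuation_le_one_iff]
  exact (((WA.preΨ n).coeff i) : A).2

end Integral

section Sub

variable {K : Type*} [Field K] [DecidableEq K] {W : WeierstrassCurve.Affine K} (p : ℕ)

/-- The submodule of `E[p]` cut out by a subgroup-like predicate on points. -/
def subOfPred (Q : W.Point → Prop) (h0 : Q 0) (hadd : ∀ P P', Q P → Q P' → Q (P + P'))
    (hneg : ∀ P, Q P → Q (-P)) :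
    AddSubgroup (Submodule.torsionBy ℤ W.Point (p : ℤ)) where
  carrier := {x | Q (x : W.Point)}
  add_mem' := fun {a b} ha hb => hadd _ _ ha hb
  zero_mem' := h0
  neg_mem' := fun {a} ha => hneg _ ha

end Sub

section Inertia

variable (A : ValuationSubring Qb) (σ : Qb ≃ₐ[ℚ] Qb)

lemma inertia_lt_one (hσ : σ ∈ A.inertiaSubgroupIn ℚ) {z : Qb} (hz : A.valuation z ≤ 1) :
    A.valuation (σ z - z) < 1 := by
  have h := (inertia_spec_gen A σ hσ z ((A.valuation_le_one_iff _).1 hz)).2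
  rwa [ValuationSubring.mem_nonunits_iff] at h

/-- An inertia element fixes the square roots of a fixed unit (odd residue characteristic). -/
lemma inertia_fixes_sqrt (hσ : σ ∈ A.inertiaSubgroupIn ℚ) (h2 : A.valuation (2 : Qb) = 1)
    {a γ : Qb} (ha : A.valuation a = 1) (hσa : σ a = a) (hγ : γ ^ 2 = a) : σ γ = γ := by
  have hγ1 : A.valuation γ = 1 := by
    have : A.valuation γ ^ 2 = 1 := by rw [← map_pow, hγ, ha]
    exact (pow_eq_one_iff.1 this).resolve_right (by norm_num)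
  have hsq : (σ γ) ^ 2 = γ ^ 2 := by rw [← map_pow, hγ, hσa]
  rcases sq_eq_sq_iff_eq_or_eq_neg.1 hsq with h | h
  · exact h
  · exfalso
    have hlt := inertia_lt_one A σ hσ hγ1.le
    rw [h] at hlt
    have e : -γ - γ = -(2 * γ) := by ring
    rw [e, Valuation.map_neg, map_mul, h2, hγ1, one_mul] at hlt
    exact lt_irrefl _ hlt

/-- The component of a point is invariant under inertia. -/
lemma phiT_inertia (hσ : σ ∈ A.inertiaSubgroupIn ℚ) (β : A.ValueGroup) {γ : Qb}
    (hγ : σ γ = γ) (X Y : Qb) :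
    phiT A.valuation β γ (σ X) (σ Y) = phiT A.valuation β γ X Y := by
  have h1 : A.valuation (σ X) = A.valuation X := inertia_val_eq A σ hσ X
  have h2 : A.valuation (σ Y - γ * σ X) = A.valuation (Y - γ * X) := by
    have e : σ Y - γ * σ X = σ (Y - γ * X) := by rw [map_sub, map_mul, hγ]
    rw [e, inertia_val_eq A σ hσ]
  unfold phiT
  rw [h1, h2]

end Inertia

section Main

/-- **ATP**, step (2b): for `A` over `p` and a Galois stable line `N` of `V = E[p]` of the Frey
curve, the inertia group `I_A` fixes `N` pointwise or acts trivially on `V / N`. -/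
theorem ATP (P : FreyPackage) (A : ValuationSubring Qb) (hA : A.LiesOverPrime P.p)
    (hF : ForwardDP (P.freyCurve⁄Qb) P.p)
    (N : Submodule (ZMod P.p) (Submodule.torsionBy ℤ (P.freyCurve⁄Qb).Point P.p))
    (hst : IsGaloisStable ℚ N) (hbot : N ≠ ⊥) (htop : N ≠ ⊤) :
    (∀ σ ∈ A.inertiaSubgroupIn ℚ, ∀ x ∈ N, σ • x = x) ∨
    (∀ σ ∈ A.inertiaSubgroupIn ℚ,
      ∀ x : Submodule.torsionBy ℤ (P.freyCurve⁄Qb).Point P.p, σ • x - x ∈ N) := by
  classical
  have hp2 : P.p ≠ 2 := by have := P.hp5; omega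
  obtain ⟨h2, -, s, a, b, hW, ⟨s₀, hs₀⟩, hs, ha, hb, hb0, hdisc, hcase⟩ :=
    frey_models P A P.pp hp2 hA
  have h₁ : A.valuation (P.freyCurve⁄Qb).a₁ ≤ 1 := by rw [hW.a₁, map_one]
  have h₂ : A.valuation (P.freyCurve⁄Qb).a₂ ≤ 1 := short_a₂ A.valuation hW h2 hs ha
  have h₃ : A.valuation (P.freyCurve⁄Qb).a₃ ≤ 1 := by
    rw [hW.a₃, _root_.map_zero]; exact zero_le_one
  have h₄ : A.valuation (P.freyCurve⁄Qb).a₄ ≤ 1 := short_a₄ A.valuation hW h2 hs ha hb
  have h₆ : A.valuation (P.freyCurve⁄Qb).a₆ ≤ 1 := by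
    rw [hW.a₆, _root_.map_zero]; exact zero_le_one
  have : Fact P.p.Prime := ⟨P.pp⟩
  have hpK : ((P.p : ℕ) : Qb) ≠ 0 := Nat.cast_ne_zero.2 P.hp0
  have : Finite (Submodule.torsionBy ℤ (P.freyCurve⁄Qb).Point (P.p : ℤ)) :=
    finite_torsion (P.freyCurve⁄Qb) P.p hpK hF
  have hcard := card_torsion_le (P.freyCurve⁄Qb) P.p P.hp_odd hpK hF
  have hint : ∀ i, A.valuation (((P.freyCurve⁄Qb).preΨ (P.p : ℤ)).coeff i) ≤ 1 := fun i =>
    preΨ_coeff_integral A (P.freyCurve⁄Qb) ((A.valuation_le_one_iff _).1 h₁)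
      ((A.valuation_le_one_iff _).1 h₂) ((A.valuation_le_one_iff _).1 h₃)
      ((A.valuation_le_one_iff _).1 h₄) ((A.valuation_le_one_iff _).1 h₆) _ i
  -- the kernel of reduction
  let L1 : Submodule (ZMod P.p) (Submodule.torsionBy ℤ (P.freyCurve⁄Qb).Point P.p) :=
    AddSubgroup.toZModSubmodule P.p (subOfPred P.p (InE1 A.valuation) trivial
      (fun _ _ hP hQ => inE1_add A.valuation h₁ h₂ h₃ h₄ h₆ hP hQ)
      (fun _ hP => inE1_neg A.valuation h₁ h₂ h₃ h₄ h₆ hP))
  have hL1 : ∀ x, x ∈ L1 ↔ InE1 A.valuation (x : (P.freyCurve⁄Qb).Point) := fun x => Iff.rfl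
  have hL1top : L1 ≠ ⊤ := by
    intro htop1
    obtain ⟨x, hx⟩ := exists_not_inE1 P.pp P.hp_odd A hA hint hF N hst hbot htop
    apply hx
    rw [← hL1, htop1]
    exact Submodule.mem_top
  -- the action of inertia as additive maps
  let I : Set ((Submodule.torsionBy ℤ (P.freyCurve⁄Qb).Point (P.p : ℤ)) →+
      (Submodule.torsionBy ℤ (P.freyCurve⁄Qb).Point (P.p : ℤ))) :=
    {f | ∃ σ ∈ A.inertiaSubgroupIn ℚ, ∀ x, f x = σ • x}
  have hIN : ∀ f ∈ I, ∀ x ∈ N, f x ∈ N := by
    rintro f ⟨σ, -, hf⟩ x hx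
    rw [hf]
    exact hst σ x hx
  -- conclusion from the abstract statement
  have concl : ((∀ f ∈ I, ∀ x ∈ N, f x = x) ∨ ∀ f ∈ I, ∀ x, f x - x ∈ N) →
      (∀ σ ∈ A.inertiaSubgroupIn ℚ, ∀ x ∈ N, σ • x = x) ∨
      (∀ σ ∈ A.inertiaSubgroupIn ℚ,
        ∀ x : Submodule.torsionBy ℤ (P.freyCurve⁄Qb).Point P.p, σ • x - x ∈ N) := by
    rintro (h | h)
    · left
      intro σ hσ x hx
      exact h (DistribSMul.toAddMonoidHom _ σ) ⟨σ, hσ, fun _ => rfl⟩ x hx
    · right
      intro σ hσ x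
      exact h (DistribSMul.toAddMonoidHom _ σ) ⟨σ, hσ, fun _ => rfl⟩ x
  -- points not reducing to the node move inside the kernel of reduction
  have key1 : ∀ σ ∈ A.inertiaSubgroupIn ℚ,
      ∀ x : Submodule.torsionBy ℤ (P.freyCurve⁄Qb).Point P.p,
      (A.valuation b = 1 ∨ InE0 A.valuation s (x : (P.freyCurve⁄Qb).Point)) →
      σ • x - x ∈ L1 := by
    intro σ hσ x hx0
    rw [hL1]
    have hcoe : ((σ • x - x : Submodule.torsionBy ℤ (P.freyCurve⁄Qb).Point P.p) :
        (P.freyCurve⁄Qb).Point) =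
        Point.map (W' := P.freyCurve) σ.toAlgHom (x : (P.freyCurve⁄Qb).Point) -
          (x : (P.freyCurve⁄Qb).Point) := rfl
    rw [hcoe]
    rcases hx1 : (x : (P.freyCurve⁄Qb).Point) with _ | ⟨x₀, y₀, h₀⟩
    · show InE1 A.valuation (Point.map (W' := P.freyCurve) σ.toAlgHom 0 - 0)
      rw [Point.map_zero, sub_zero]
      trivial
    · rw [hx1] at hx0
      rw [Point.map_some]
      refine sub_inE1 A.valuation hW h2 hs ha hb hdisc h₀ _ ?_ ?_ ?_ ?_
      · intro h
        show 1 < A.valuation (σ x₀)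
        rw [inertia_val_eq A σ hσ]; exact h
      · intro h
        exact inertia_lt_one A σ hσ h
      · intro h
        exact inertia_lt_one A σ hσ h
      · exact hx0
  rcases hcase with hb1 | ⟨ha1, hblt, -⟩
  · -- good reduction
    apply concl
    exact fix_or_cofix hcard N L1 htop hL1top I hIN
      (by
        rintro f ⟨σ, hσ, hf⟩ x
        rw [hf]
        exact key1 σ hσ x (Or.inl hb1))
  · -- nodal reduction
    obtain ⟨γ, hγ⟩ : ∃ γ : Qb, γ ^ 2 = a := IsAlgClosed.exists_pow_nat_eq a (by norm_num)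
    let L0 : Submodule (ZMod P.p) (Submodule.torsionBy ℤ (P.freyCurve⁄Qb).Point P.p) :=
      AddSubgroup.toZModSubmodule P.p (subOfPred P.p (InE0 A.valuation s) trivial
        (fun _ _ hP hQ => inE0_add A.valuation hW h2 ha1 hblt hb0 hγ hP hQ)
        (fun _ hP => inE0_neg A.valuation hP))
    have hL0 : ∀ x, x ∈ L0 ↔ InE0 A.valuation s (x : (P.freyCurve⁄Qb).Point) :=
      fun x => Iff.rfl
    have key0 : ∀ σ ∈ A.inertiaSubgroupIn ℚ,
        ∀ x : Submodule.torsionBy ℤ (P.freyCurve⁄Qb).Point P.p, σ • x - x ∈ L0 := by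
      intro σ hσ x
      rw [hL0]
      have hcoe : ((σ • x - x : Submodule.torsionBy ℤ (P.freyCurve⁄Qb).Point P.p) :
          (P.freyCurve⁄Qb).Point) =
          Point.map (W' := P.freyCurve) σ.toAlgHom (x : (P.freyCurve⁄Qb).Point) -
            (x : (P.freyCurve⁄Qb).Point) := rfl
      rw [hcoe]
      apply sub_inE0 A.valuation hW h2 ha1 hblt hb0 hγ
      rcases hx1 : (x : (P.freyCurve⁄Qb).Point) with _ | ⟨x₀, y₀, h₀⟩
      · rfl
      · rw [Point.map_some, phiP_some, phiP_some]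
        have hσs : σ s = s := by rw [hs₀]; exact map_intCast σ s₀
        have hσa₂ : σ (P.freyCurve⁄Qb).a₂ = (P.freyCurve⁄Qb).a₂ := σ.commutes _
        have hσa : σ a = a := by
          rw [hW.ha, map_add, map_mul, map_add, map_mul, hσs]
          erw [hσa₂]
          rw [map_ofNat, map_ofNat, map_one]
        have hσγ : σ γ = γ := inertia_fixes_sqrt A σ hσ h2 ha1 hσa hγ
        have e1 : 4 * σ.toAlgHom x₀ - s = σ (4 * x₀ - s) := by
          rw [map_sub, map_mul, hσs, map_ofNat]; rfl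
        have e2 : 8 * σ.toAlgHom y₀ + 4 * σ.toAlgHom x₀ = σ (8 * y₀ + 4 * x₀) := by
          rw [map_add, map_mul, map_mul, map_ofNat, map_ofNat]; rfl
        rw [e1, e2]
        exact phiT_inertia A σ hσ _ hσγ _ _
    apply concl
    exact fix_or_cofix_two_step hcard N L0 L1 htop hL1top I hIN
      (by
        rintro f ⟨σ, hσ, hf⟩ x
        rw [hf]
        exact key0 σ hσ x)
      (by
        rintro f ⟨σ, hσ, hf⟩ x hx
        rw [hf]
        exact key1 σ hσ x (Or.inr ((hL0 x).1 hx)))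

end Main

end Fermat.Agent.S13_helper5_ATP
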