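import Mathlib
import Fermat.Statements.S13
import Fermat.Agent.S05_helper5_Inertia
import Fermat.Agent.S05_helper5_Frey
import Fermat.Agent.S05_helper6_Kernel

/-!
# S13, piece AT2-2A (core): inertia at `2` acts unipotently on the `p`-torsion of the Frey curve

This file contains everything that does not need the component function of piece CP:

* the Frey model at `2` (`a₁ = 1`, `a₃ = a₆ = 0`, `a₂` integral, `v a₄ < 1`, `a₄ ≠ 0`,
  a root `γ` of `T ^ 2 + T - a₂` with `v (2 γ + 1) = 1`);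
* `val_map_eq`: elements of the decomposition group preserve the valuation;
* `inertia_fix_gamma`: inertia fixes `γ`;
* `fix_of_unit_x`: inertia fixes every `p`-torsion point whose `x`-coordinate is integral and
  a unit (points of `E₀`);
* `sq_of_E0`: if `σ Pt - Pt` always lies in `E₀`, then `(σ - 1) ^ 2 = 0` on `E[p]`;
* the linear algebra corollaries for a Galois-stable line.
-/

set_option autoImplicit false

open WeierstrassCurve WeierstrassCurve.Affine WeierstrassCurve.Affine.Point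

namespace Fermat.Agent.S13_helper8_AT2A

open Fermat.Agent.S05_helper5_Inertia Fermat.Agent.S05_helper5_Frey
  Fermat.Agent.S05_helper6_Kernel

attribute [local instance 100000] AlgebraicClosure.instAlgebra

local notation "Qb" => AlgebraicClosure ℚ

/-! ### General chord lemma (any residue characteristic, long Weierstrass form) -/

section Chord

variable {K : Type*} [Field K] [DecidableEq K] {Γ₀ : Type*} [LinearOrderedCommGroupWithZero Γ₀]
  (v : Valuation K Γ₀)

/-- Two `n`-torsion points which are congruent modulo the maximal ideal, the first one being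
integral with `y - negY x y` a unit (nonsingular reduction, not `2`-torsion), are equal as soon
as the kernel of reduction has no `n`-torsion. -/
theorem chord_fixed_gen {W : WeierstrassCurve.Affine K} (h₁ : v W.a₁ ≤ 1) (h₂ : v W.a₂ ≤ 1)
    (n : ℕ)
    (hker : ∀ {x y : K} (h : W.Nonsingular x y), 1 < v x → n • Point.some x y h ≠ 0)
    {x y x' y' : K} (h : W.Nonsingular x y) (h' : W.Nonsingular x' y')
    (hP : n • Point.some x y h = 0) (hP' : n • Point.some x' y' h' = 0)
    (hx : v x ≤ 1) (hu : v (y - W.negY x y) = 1)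
    (hdx : v (x' - x) < 1) (hdy : v (y' - y) < 1) :
    Point.some x' y' h' = Point.some x y h := by
  by_contra hne
  have hnR : n • (Point.some x' y' h' - Point.some x y h) = 0 := by
    rw [smul_sub, hP, hP', sub_zero]
  rw [sub_eq_add_neg, Point.neg_some] at hnR
  by_cases hxx : x' = x
  · -- same `x`-coordinate
    subst hxx
    rcases Y_eq_of_X_eq h'.1 h.1 rfl with hy | hy
    · subst hy
      exact hne rfl
    · have : v (y' - y) = 1 := by
        rw [hy, ← Valuation.map_neg, neg_sub]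
        exact hu
      rw [this] at hdy
      exact lt_irrefl _ hdy
  · have hxy : ¬ (x' = x ∧ y' = W.negY x (W.negY x y)) := fun hc => hxx hc.1
    rw [Point.add_some hxy] at hnR
    refine hker _ ?_ hnR
    -- the slope is non-integral
    rw [slope_of_X_ne hxx]
    have hnum : v (y' - W.negY x y) = 1 := by
      have e : y' - W.negY x y = (y - W.negY x y) + (y' - y) := by ring
      rw [e, v.map_add_eq_of_lt_left (by rw [hu]; exact hdy), hu]
    have hden0 : x' - x ≠ 0 := sub_ne_zero.2 hxx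
    have hden : 0 < v (x' - x) := (v.pos_iff).2 hden0
    set ℓ := (y' - W.negY x y) / (x' - x) with hℓ
    have hvℓ : 1 < v ℓ := by
      rw [hℓ, map_div₀, hnum, one_div]
      exact (one_lt_inv₀ hden).2 hdx
    have hx' : v x' ≤ 1 := by
      have : x' = x + (x' - x) := by ring
      rw [this]
      exact v.map_add_le hx hdx.le
    have hℓ0 : 0 < v ℓ := lt_trans zero_lt_one hvℓ
    have hℓ2 : v ℓ < v (ℓ ^ 2) := by
      rw [map_pow, sq]
      exact lt_mul_of_one_lt_left hℓ0 hvℓ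
    have e : W.addX x' x ℓ = ℓ ^ 2 + (W.a₁ * ℓ - W.a₂ - x' - x) := by
      simp only [addX]; ring
    rw [e, v.map_add_eq_of_lt_left]
    · exact lt_trans hvℓ hℓ2
    · refine lt_of_le_of_lt ?_ hℓ2
      refine v.map_sub_le (v.map_sub_le (v.map_sub_le ?_ ?_) ?_) ?_
      · rw [map_mul]; exact mul_le_of_le_one_left' h₁
      · exact h₂.trans hvℓ.le
      · exact hx'.trans hvℓ.le
      · exact hx.trans hvℓ.le

end Chord

/-! ### Inertia and the valuation -/

section Inertia

variable (A : ValuationSubring Qb)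

lemma inertia_int' (σ : Qb ≃ₐ[ℚ] Qb) (hσ : σ ∈ A.inertiaSubgroupIn ℚ)
    {z : Qb} (hz : A.valuation z ≤ 1) : A.valuation (σ z - z) < 1 := by
  have h := (inertia_spec_gen A σ hσ z ((A.valuation_le_one_iff _).1 hz)).2
  rwa [ValuationSubring.mem_nonunits_iff] at h

lemma inertia_lt_one (σ : Qb ≃ₐ[ℚ] Qb) (hσ : σ ∈ A.inertiaSubgroupIn ℚ)
    {z : Qb} (hz : A.valuation z < 1) : A.valuation (σ z) < 1 := by
  have h := inertia_int' A σ hσ hz.le
  have e : σ z = (σ z - z) + z := by ring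
  rw [e]
  exact A.valuation.map_add_lt h hz

lemma inertia_lt (σ : Qb ≃ₐ[ℚ] Qb) (hσ : σ ∈ A.inertiaSubgroupIn ℚ)
    {a b : Qb} (hab : A.valuation a < A.valuation b) :
    A.valuation (σ a) < A.valuation (σ b) := by
  have hb0 : b ≠ 0 := by
    rintro rfl
    rw [_root_.map_zero] at hab
    exact not_lt_zero hab
  have hσb0 : σ b ≠ 0 := fun h => hb0 ((map_eq_zero_iff σ σ.injective).1 h)
  have hb : 0 < A.valuation b := (A.valuation.pos_iff).2 hb0
  have hσb : 0 < A.valuation (σ b) := (A.valuation.pos_iff).2 hσb0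
  have h1 : A.valuation (a / b) < 1 := by
    rw [map_div₀]
    exact (div_lt_one₀ hb).2 hab
  have h2 := inertia_lt_one A σ hσ h1
  rw [map_div₀, map_div₀] at h2
  exact (div_lt_one₀ hσb).1 h2

/-- Every element of `Qb` has a finite orbit under a given automorphism. -/
lemma exists_pow_fix (τ : Qb ≃ₐ[ℚ] Qb) (z : Qb) : ∃ n : ℕ, 0 < n ∧ (τ ^ n) z = z := by
  have hint : IsIntegral ℚ z := Algebra.IsIntegral.isIntegral z
  have hS : ((minpoly ℚ z).rootSet Qb).Finite := Polynomial.rootSet_finite _ _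
  have hmem : ∀ k : ℕ, (τ ^ k) z ∈ (minpoly ℚ z).rootSet Qb := by
    intro k
    rw [Polynomial.mem_rootSet]
    refine ⟨minpoly.ne_zero hint, ?_⟩
    have e := Polynomial.aeval_algHom_apply ((τ ^ k : Qb ≃ₐ[ℚ] Qb) : Qb →ₐ[ℚ] Qb) z
      (minpoly ℚ z)
    rw [minpoly.aeval, _root_.map_zero] at e
    exact e
  have : Finite ((minpoly ℚ z).rootSet Qb) := hS
  obtain ⟨i, j, hij, h⟩ := Finite.exists_ne_map_eq_of_infinite
    (fun k : ℕ => (⟨(τ ^ k) z, hmem k⟩ : (minpoly ℚ z).rootSet Qb))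
  have h' : (τ ^ i) z = (τ ^ j) z := congrArg Subtype.val h
  -- wlog i < j
  have key : ∀ i j : ℕ, i < j → (τ ^ i) z = (τ ^ j) z → ∃ n : ℕ, 0 < n ∧ (τ ^ n) z = z := by
    intro i j hlt he
    refine ⟨j - i, Nat.sub_pos_of_lt hlt, ?_⟩
    have hj : j = i + (j - i) := by omega
    rw [hj, pow_add, AlgEquiv.mul_apply] at he
    exact ((τ ^ i).injective he).symm
  rcases lt_or_gt_of_ne hij with hlt | hgt
  · exact key i j hlt h'
  · exact key j i hgt h'.symm

/-- Elements of the inertia group preserve the valuation. -/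
theorem val_map_eq (σ : Qb ≃ₐ[ℚ] Qb) (hσ : σ ∈ A.inertiaSubgroupIn ℚ) (z : Qb) :
    A.valuation (σ z) = A.valuation z := by
  have claim : ∀ τ : Qb ≃ₐ[ℚ] Qb, τ ∈ A.inertiaSubgroupIn ℚ → ∀ w : Qb,
      ¬ A.valuation (τ w) < A.valuation w := by
    intro τ hτ w hlt
    have hstep : ∀ n : ℕ, A.valuation ((τ ^ (n + 1)) w) < A.valuation w := by
      intro n
      induction n with
      | zero => simpa using hlt
      | succ n ih =>
        have h1 := inertia_lt A τ hτ ih
        have e : τ ((τ ^ (n + 1)) w) = (τ ^ (n + 1 + 1)) w := by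
          rw [pow_succ' τ (n + 1), AlgEquiv.mul_apply]
        rw [e] at h1
        exact lt_trans h1 hlt
    obtain ⟨n, hn, hfix⟩ := exists_pow_fix τ w
    obtain ⟨m, rfl⟩ : ∃ m, n = m + 1 := ⟨n - 1, by omega⟩
    have := hstep m
    rw [hfix] at this
    exact lt_irrefl _ this
  refine le_antisymm (not_lt.1 ?_) (not_lt.1 (claim σ hσ z))
  intro hlt
  have hinv : σ⁻¹ ∈ A.inertiaSubgroupIn ℚ := inv_mem hσ
  refine claim σ⁻¹ hinv (σ z) ?_
  have e : σ⁻¹ (σ z) = z := by
    change σ.symm (σ z) = z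
    exact σ.symm_apply_apply z
  rw [e]
  exact hlt

end Inertia

/-! ### The Frey model at `2` -/

section FreyTwo

/-- Integer facts: `4 ∣ b ^ p - a ^ p - 1`, `b ^ p - a ^ p` is odd, `32 ∣ b ^ p`. -/
lemma frey_int_facts (P : FreyPackage) :
    (∃ m : ℤ, P.b ^ P.p - P.a ^ P.p = 4 * m + 1) ∧ (∃ c : ℤ, P.b ^ P.p = 32 * c) := by
  have hb : (2 : ℤ) ∣ P.b := (ZMod.intCast_zmod_eq_zero_iff_dvd P.b 2).1 P.hb2
  obtain ⟨k, hk⟩ := hb
  have hp5 := P.hp5
  obtain ⟨r, hr⟩ : ∃ r, P.p = 5 + r := ⟨P.p - 5, by omega⟩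
  have hB : P.b ^ P.p = 32 * (2 ^ r * k ^ P.p) := by
    rw [hk, mul_pow]
    have : (2 : ℤ) ^ P.p = 32 * 2 ^ r := by rw [hr, pow_add]; norm_num
    rw [this]
    ring
  refine ⟨?_, ⟨_, hB⟩⟩
  -- `a ^ p ≡ 3 mod 4`
  have ha : ((P.a ^ P.p : ℤ) : ZMod 4) = 3 := by
    push_cast
    rw [P.ha4]
    obtain ⟨t, ht⟩ := P.hp_odd
    rw [ht, pow_succ, pow_mul]
    have : (3 : ZMod 4) ^ 2 = 1 := by decide
    rw [this, one_pow, one_mul]
  have h4 : ((P.b ^ P.p - P.a ^ P.p - 1 : ℤ) : ZMod 4) = 0 := by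
    have hB4 : ((P.b ^ P.p : ℤ) : ZMod 4) = 0 := by
      rw [hB]
      push_cast
      have : (32 : ZMod 4) = 0 := by decide
      rw [this, zero_mul]
    rw [Int.cast_sub, Int.cast_sub, hB4, ha]
    decide
  obtain ⟨m, hm⟩ := (ZMod.intCast_zmod_eq_zero_iff_dvd _ 4).1 h4
  exact ⟨m, by push_cast at hm; linarith⟩

variable (P : FreyPackage) (A : ValuationSubring Qb)

/-- The Frey model at `2`. -/
theorem frey_two_model (hA : A.LiesOverPrime 2) :
    A.valuation ((P.freyCurve⁄Qb).a₂) ≤ 1 ∧ A.valuation ((P.freyCurve⁄Qb).a₄) < 1 ∧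
      (P.freyCurve⁄Qb).a₄ ≠ 0 ∧ A.valuation (4 * (P.freyCurve⁄Qb).a₂ + 1) = 1 ∧
      (∃ m : ℤ, (P.freyCurve⁄Qb).a₂ = (m : Qb)) := by
  obtain ⟨⟨m, hm⟩, ⟨c, hc⟩⟩ := frey_int_facts P
  have ha2 := frey_a₂ P
  have ha4 := frey_a₄ P
  have hmQ : ((P.b : Qb)) ^ P.p - ((P.a : Qb)) ^ P.p = 4 * (m : Qb) + 1 := by
    have := congrArg (fun z : ℤ => (z : Qb)) hm
    simpa using this
  have hcQ : ((P.b : Qb)) ^ P.p = 32 * (c : Qb) := by
    have := congrArg (fun z : ℤ => (z : Qb)) hc
    simpa using this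
  have e2 : (P.freyCurve⁄Qb).a₂ = (m : Qb) := by
    have : 4 * (P.freyCurve⁄Qb).a₂ = 4 * (m : Qb) := by
      linear_combination ha2 + hmQ
    exact mul_left_cancel₀ (by norm_num) this
  have e4 : (P.freyCurve⁄Qb).a₄ = ((2 * (-(P.a ^ P.p) * c) : ℤ) : Qb) := by
    have : 16 * (P.freyCurve⁄Qb).a₄ = 16 * ((2 * (-(P.a ^ P.p) * c) : ℤ) : Qb) := by
      rw [ha4, hcQ]
      push_cast
      ring
    exact mul_left_cancel₀ (by norm_num) this
  refine ⟨?_, ?_, ?_, ?_, ⟨m, e2⟩⟩
  · rw [e2]; exact val_intCast_le_one A m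
  · rw [e4]
    exact val_intCast_lt_one_of_dvd A hA (by
      refine ⟨-(P.a ^ P.p) * c, ?_⟩
      push_cast
      ring)
  · intro h0
    rw [h0, mul_zero] at ha4
    have hne : ((P.a : Qb)) ^ P.p * ((P.b : Qb)) ^ P.p ≠ 0 :=
      mul_ne_zero (pow_ne_zero _ (Int.cast_ne_zero.2 P.ha0))
        (pow_ne_zero _ (Int.cast_ne_zero.2 P.hb0))
    exact hne (neg_eq_zero.1 ha4.symm)
  · rw [ha2, hmQ]
    have : (4 * (m : Qb) + 1) = ((4 * m + 1 : ℤ) : Qb) := by push_cast; ring
    rw [this]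
    refine val_intCast_eq_one_of_not_dvd A Nat.prime_two hA ?_
    intro hd
    have : ((2 : ℕ) : ℤ) ∣ 1 := by
      have h2 : ((2 : ℕ) : ℤ) ∣ 4 * m := ⟨2 * m, by push_cast; ring⟩
      exact (Int.dvd_add_right h2).1 hd
    norm_num at this

/-- Valuation of the odd prime `p` at a place over `2`. -/
lemma val_p_two (hA : A.LiesOverPrime 2) : A.valuation ((P.p : ℕ) : Qb) = 1 := by
  refine val_natCast_eq_one_of_not_dvd A Nat.prime_two hA ?_
  intro h
  have := P.hp_odd
  rw [← Nat.not_even_iff_odd] at this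
  exact this (even_iff_two_dvd.2 h)

lemma val_two_lt (hA : A.LiesOverPrime 2) : A.valuation (2 : Qb) < 1 := by
  have := (ValuationSubring.mem_nonunits_iff A).1 hA
  simpa using this

/-- A root `γ` of `T ^ 2 + T - a₂` with `2 γ + 1` a unit. -/
theorem frey_two_gamma (hA : A.LiesOverPrime 2) :
    ∃ γ : Qb, γ ^ 2 + (P.freyCurve⁄Qb).a₁ * γ - (P.freyCurve⁄Qb).a₂ = 0 ∧
      A.valuation (2 * γ + (P.freyCurve⁄Qb).a₁) = 1 ∧ A.valuation γ ≤ 1 := by
  obtain ⟨h2, -, -, hu, -⟩ := frey_two_model P A hA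
  obtain ⟨δ, hδ⟩ : ∃ δ : Qb, δ ^ 2 = 4 * (P.freyCurve⁄Qb).a₂ + 1 :=
    IsAlgClosed.exists_pow_nat_eq _ (by norm_num)
  have hvδ : A.valuation δ = 1 := by
    have : A.valuation (δ ^ 2) = 1 := by rw [hδ]; exact hu
    rw [map_pow] at this
    exact (pow_eq_one_iff.1 this).resolve_right (by norm_num)
  have hγ : ((δ - 1) / 2) ^ 2 + (P.freyCurve⁄Qb).a₁ * ((δ - 1) / 2) - (P.freyCurve⁄Qb).a₂ = 0 := by
    rw [frey_a₁]
    field_simp
    linear_combination hδ
  refine ⟨(δ - 1) / 2, hγ, ?_, ?_⟩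
  · rw [frey_a₁]
    have : 2 * ((δ - 1) / 2) + 1 = δ := by ring
    rw [this, hvδ]
  · -- integrality of `γ`
    by_contra hcon
    rw [not_le] at hcon
    set γ := (δ - 1) / 2 with hγdef
    rw [frey_a₁, one_mul] at hγ
    have e : (P.freyCurve⁄Qb).a₂ = γ ^ 2 + γ := by linear_combination -hγ
    have h0 : 0 < A.valuation γ := lt_trans zero_lt_one hcon
    have hlt : A.valuation γ < A.valuation (γ ^ 2) := by
      rw [map_pow, sq]
      exact lt_mul_of_one_lt_left h0 hcon
    have : A.valuation (γ ^ 2 + γ) = A.valuation (γ ^ 2) := A.valuation.map_add_eq_of_lt_left hlt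
    rw [e, this] at h2
    exact absurd (lt_trans hcon hlt) (not_lt.2 h2)

/-- Inertia at `2` fixes `γ`. -/
theorem inertia_fix_gamma (σ : Qb ≃ₐ[ℚ] Qb) (hσ : σ ∈ A.inertiaSubgroupIn ℚ)
    {γ : Qb} (hγ : γ ^ 2 + (P.freyCurve⁄Qb).a₁ * γ - (P.freyCurve⁄Qb).a₂ = 0)
    (hu : A.valuation (2 * γ + (P.freyCurve⁄Qb).a₁) = 1) (hint : A.valuation γ ≤ 1)
    (hm : ∃ m : ℤ, (P.freyCurve⁄Qb).a₂ = (m : Qb)) : σ γ = γ := by
  rw [frey_a₁] at hγ hu
  obtain ⟨m, hm⟩ := hm
  have hσγ : (σ γ) ^ 2 + 1 * (σ γ) - (P.freyCurve⁄Qb).a₂ = 0 := by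
    have := congrArg σ hγ
    rw [hm] at this ⊢
    simpa using this
  have hprod : (σ γ - γ) * (σ γ + γ + 1) = 0 := by linear_combination hσγ - hγ
  rcases mul_eq_zero.1 hprod with h | h
  · exact sub_eq_zero.1 h
  · exfalso
    have h1 := inertia_int' A σ hσ hint
    have e : σ γ - γ = -(2 * γ + 1) := by linear_combination h
    rw [e, Valuation.map_neg, hu] at h1
    exact lt_irrefl _ h1

end FreyTwo

/-! ### Torsion points of `E₀` are fixed by inertia -/

section Points

variable (P : FreyPackage) (A : ValuationSubring Qb)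

lemma ker_two (hA : A.LiesOverPrime 2) {x y : Qb} (h : (P.freyCurve⁄Qb).Nonsingular x y)
    (hx : 1 < A.valuation x) : P.p • Point.some x y h ≠ 0 := by
  obtain ⟨h2, h4, -, -, -⟩ := frey_two_model P A hA
  refine kernel_torsion_free A (P.freyCurve⁄Qb) (by rw [frey_a₁]; exact A.one_mem)
    ((A.valuation_le_one_iff _).1 h2) (by rw [frey_a₃]; exact A.zero_mem)
    ((A.valuation_le_one_iff _).1 h4.le) (by rw [frey_a₆]; exact A.zero_mem)
    P.p (val_p_two P A hA) h ?_
  intro hxA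
  exact absurd ((A.valuation_le_one_iff _).2 hxA) (not_le.2 hx)

/-- `p`-torsion points have integral `x`-coordinate at places over `2`. -/
lemma torsion_x_int (hA : A.LiesOverPrime 2) {x y : Qb} (h : (P.freyCurve⁄Qb).Nonsingular x y)
    (hQ : P.p • Point.some x y h = 0) : A.valuation x ≤ 1 := by
  by_contra hcon
  exact ker_two P A hA h (not_le.1 hcon) hQ

/-- On the Frey curve, `y` is integral as soon as `x` is (at a place over `2`). -/
lemma y_int_of_x_int (hA : A.LiesOverPrime 2) {x y : Qb} (h : (P.freyCurve⁄Qb).Equation x y)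
    (hx : A.valuation x ≤ 1) : A.valuation y ≤ 1 := by
  obtain ⟨h2, h4, -, -, -⟩ := frey_two_model P A hA
  rw [equation_iff, frey_a₁, frey_a₃, frey_a₆] at h
  by_contra hcon
  rw [not_le] at hcon
  have h0 : 0 < A.valuation y := lt_trans zero_lt_one hcon
  have hlt : A.valuation (x * y) < A.valuation (y ^ 2) := by
    rw [map_mul, map_pow, sq]
    exact lt_of_le_of_lt (mul_le_of_le_one_left' hx) (lt_mul_of_one_lt_left h0 hcon)
  have e : y ^ 2 + x * y = x ^ 3 + (P.freyCurve⁄Qb).a₂ * x ^ 2 + (P.freyCurve⁄Qb).a₄ * x := by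
    linear_combination h
  have h1 : A.valuation (y ^ 2 + x * y) = A.valuation (y ^ 2) :=
    A.valuation.map_add_eq_of_lt_left hlt
  have h3 : A.valuation (x ^ 3 + (P.freyCurve⁄Qb).a₂ * x ^ 2 + (P.freyCurve⁄Qb).a₄ * x) ≤ 1 := by
    refine A.valuation.map_add_le (A.valuation.map_add_le ?_ ?_) ?_
    · rw [map_pow]; exact pow_le_one₀ zero_le hx
    · rw [map_mul, map_pow]; exact mul_le_one' h2 (pow_le_one₀ zero_le hx)
    · rw [map_mul]; exact mul_le_one' h4.le hx
  rw [← e, h1, map_pow] at h3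
  exact absurd (one_lt_pow₀ hcon (by norm_num)) (not_lt.2 h3)

/-- Inertia at `2` fixes the `p`-torsion points with unit `x`-coordinate. -/
theorem fix_of_E0 (hA : A.LiesOverPrime 2) (σ : Qb ≃ₐ[ℚ] Qb) (hσ : σ ∈ A.inertiaSubgroupIn ℚ)
    {x y : Qb} (h : (P.freyCurve⁄Qb).Nonsingular x y) (hQ : P.p • Point.some x y h = 0)
    (hx : 1 ≤ A.valuation x) :
    Point.map (W' := P.freyCurve) σ.toAlgHom (Point.some x y h) = Point.some x y h := by
  obtain ⟨h2, h4, -, -, -⟩ := frey_two_model P A hA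
  have hx1 : A.valuation x = 1 := le_antisymm (torsion_x_int P A hA h hQ) hx
  have hy : A.valuation y ≤ 1 := y_int_of_x_int P A hA h.1 hx1.le
  have hu : A.valuation (y - (P.freyCurve⁄Qb).negY x y) = 1 := by
    have e : y - (P.freyCurve⁄Qb).negY x y = x + 2 * y := by
      simp only [negY, frey_a₁, frey_a₃]; ring
    rw [e, A.valuation.map_add_eq_of_lt_left, hx1]
    rw [hx1, map_mul]
    exact lt_of_le_of_lt (mul_le_of_le_one_right' hy) (val_two_lt A hA)
  have hσP : P.p • Point.map (W' := P.freyCurve) σ.toAlgHom (Point.some x y h) = 0 := by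
    rw [← map_nsmul, hQ, _root_.map_zero]
  rw [Point.map_some] at hσP ⊢
  generalize_proofs h' at hσP ⊢
  refine chord_fixed_gen A.valuation (by rw [frey_a₁, map_one]) h2 P.p
    (fun hh hlt => ker_two P A hA hh hlt) h h' hQ hσP hx1.le hu ?_ ?_
  · exact inertia_int' A σ hσ hx1.le
  · exact inertia_int' A σ hσ hy

/-- If `σ Pt - Pt` always lies in `E₀`, then `(σ - 1) ^ 2 = 0` on `E[p]`. -/
theorem sq_of_E0 (hA : A.LiesOverPrime 2) (σ : Qb ≃ₐ[ℚ] Qb) (hσ : σ ∈ A.inertiaSubgroupIn ℚ)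
    (hE0 : ∀ Pt : (P.freyCurve⁄Qb).Point, P.p • Pt = 0 →
      ∀ {x y : Qb} (h : (P.freyCurve⁄Qb).Nonsingular x y),
        σ • Pt - Pt = Point.some x y h → 1 ≤ A.valuation x)
    (Pt : (P.freyCurve⁄Qb).Point) (hPt : P.p • Pt = 0) :
    σ • (σ • Pt - Pt) = σ • Pt - Pt := by
  have hσPt : P.p • (σ • Pt) = 0 := by
    rw [algEquiv_smul_def, ← map_nsmul, hPt, _root_.map_zero]
  have hQ : P.p • (σ • Pt - Pt) = 0 := by rw [nsmul_sub, hσPt, hPt, sub_zero]
  rcases hR : σ • Pt - Pt with _ | ⟨x, y, h⟩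
  · rfl
  · rw [hR] at hQ
    rw [algEquiv_smul_def]
    exact fix_of_E0 P A hA σ hσ h hQ (hE0 Pt hPt h hR)

end Points

/-! ### Linear algebra over `ZMod p` (group form) -/

section LinAlg

variable {p : ℕ} [Fact p.Prime] {V : Type*} [AddCommGroup V]

/-- A square-zero endomorphism preserving a subgroup of prime order kills it. -/
theorem line_killed_of_sq (T : V →+ V) (hT : ∀ x, T (T x) = 0) (N : AddSubgroup V)
    (hN : ∀ x ∈ N, T x ∈ N) (hcard : Nat.card N = p) : ∀ x ∈ N, T x = 0 := by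
  have hp : Fact (Nat.card N).Prime := ⟨by rw [hcard]; exact Fact.out⟩
  let TN : N →+ N := (T.comp N.subtype).codRestrict N (fun x => hN x x.2)
  have hTN : ∀ x : N, ((TN x : N) : V) = T x := fun x => rfl
  rcases AddSubgroup.eq_bot_or_eq_top_of_prime_card TN.ker with hbot | htop
  · exfalso
    have hinj : Function.Injective TN := (AddMonoidHom.ker_eq_bot_iff TN).1 hbot
    have hall : ∀ x : N, x = 0 := by
      intro x
      apply hinj
      apply hinj
      rw [_root_.map_zero, _root_.map_zero]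
      apply Subtype.ext
      rw [hTN, hTN]
      exact hT x
    have : Subsingleton N := ⟨fun a b => by rw [hall a, hall b]⟩
    have h1 : Nat.card N = 1 := Nat.card_unique
    rw [hcard] at h1
    exact (Fact.out : p.Prime).one_lt.ne' h1
  · intro x hx
    have : (⟨x, hx⟩ : N) ∈ TN.ker := by rw [htop]; trivial
    have h0 : TN ⟨x, hx⟩ = 0 := this
    have := congrArg Subtype.val h0
    rwa [hTN] at this

/-- A square-zero endomorphism of a group of order `p ^ 2` killing a subgroup `N` of order `p`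
has its image in `N`. -/
theorem range_le_of_sq (T : V →+ V) (hT : ∀ x, T (T x) = 0) (N : AddSubgroup V)
    (hN0 : ∀ x ∈ N, T x = 0) (hcardN : Nat.card N = p) (hcardV : Nat.card V = p ^ 2) :
    ∀ x, T x ∈ N := by
  have hpp : p.Prime := Fact.out
  have hfin : Finite V := Nat.finite_of_card_ne_zero (by rw [hcardV]; exact pow_ne_zero 2 hpp.ne_zero)
  have hNK : N ≤ T.ker := fun x hx => hN0 x hx
  have hIK : T.range ≤ T.ker := by
    rintro _ ⟨x, rfl⟩
    exact hT x
  have hmul : Nat.card T.ker * Nat.card T.range = p ^ 2 := by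
    rw [← AddSubgroup.index_ker, AddSubgroup.card_mul_index, hcardV]
  have hdvd : p ∣ Nat.card T.ker := by
    rw [← hcardN]
    exact AddSubgroup.card_dvd_of_le hNK
  have hKdvd : Nat.card T.ker ∣ p ^ 2 := Dvd.intro _ hmul
  obtain ⟨i, hi, hKi⟩ := (Nat.dvd_prime_pow hpp).1 hKdvd
  have hi1 : i = 1 ∨ i = 2 := by
    rcases i with _ | _ | _ | i
    · exfalso
      rw [hKi, pow_zero] at hdvd
      exact hpp.one_lt.ne' (Nat.dvd_one.1 hdvd)
    · exact Or.inl rfl
    · exact Or.inr rfl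
    · omega
  rcases hi1 with rfl | rfl
  · -- `card ker = p`: `N = ker = range`
    rw [pow_one] at hKi
    have hNeq : N = T.ker :=
      AddSubgroup.eq_of_le_of_card_ge hNK (by rw [hKi, hcardN])
    have hI : Nat.card T.range = p := by
      rw [hKi] at hmul
      have : p * Nat.card T.range = p * p := by rw [hmul, sq]
      exact Nat.eq_of_mul_eq_mul_left hpp.pos this
    have hIeq : T.range = T.ker :=
      AddSubgroup.eq_of_le_of_card_ge hIK (by rw [hKi, hI])
    intro x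
    rw [hNeq, ← hIeq]
    exact ⟨x, rfl⟩
  · -- `card ker = p ^ 2`: `T = 0`
    have hK : T.ker = ⊤ := by
      apply AddSubgroup.eq_top_of_card_eq
      rw [hKi, hcardV]
    intro x
    have : x ∈ T.ker := by rw [hK]; trivial
    rw [AddMonoidHom.mem_ker] at this
    rw [this]
    exact N.zero_mem

end LinAlg

end Fermat.Agent.S13_helper8_AT2A
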