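import Mathlib
import Fermat.Statements.S13
import Fermat.Agent.S13_helper8_AT2A_Core
import Fermat.Agent.S13_helper25_CP

/-!
# S13, piece AT2-2A: inertia at `2` acts unipotently on the `p`-torsion of the Frey curve

* `frey_nodal_two`: the Frey curve is a nodal model (in the sense of piece CP) at every place
  over `2`;
* `frey_inertia_two_sq`: `(σ - 1) ^ 2 = 0` on `E[p]` for `σ` in an inertia group at `2`;
* `frey_inertia_two_sq_Vp`: the same statement on the torsion submodule (the form used by the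
  assembly of S13);
* `frey_inertia_two_line`, `frey_inertia_two_quot`: inertia at `2` acts trivially on a stable line
  and on the quotient by it.
-/

set_option autoImplicit false

open WeierstrassCurve WeierstrassCurve.Affine WeierstrassCurve.Affine.Point

namespace Fermat.Agent.S13_helper8_AT2A

open Fermat.Agent.S05_helper5_Frey

attribute [local instance 100000] AlgebraicClosure.instAlgebra

local notation "Qb" => AlgebraicClosure ℚ

variable (P : FreyPackage) (A : ValuationSubring Qb)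

/-- The Frey curve is a nodal model at every place over `2`, with an integral `γ`. -/
theorem frey_nodal_two' (hA : A.LiesOverPrime 2) :
    ∃ γ : Qb, Fermat.Agent.S13_helper25_CP.NodalModel A.valuation (P.freyCurve⁄Qb) γ ∧
      A.valuation γ ≤ 1 := by
  obtain ⟨-, h4, h40, -, -⟩ := frey_two_model P A hA
  obtain ⟨γ, hγ, hu, hint⟩ := frey_two_gamma P A hA
  exact ⟨γ, ⟨frey_a₃ P, frey_a₆ P, h4, h40, hγ, hu⟩, hint⟩

/-- The Frey curve is a nodal model at every place over `2`. -/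
theorem frey_nodal_two (hA : A.LiesOverPrime 2) :
    ∃ γ : Qb, Fermat.Agent.S13_helper25_CP.NodalModel A.valuation (P.freyCurve⁄Qb) γ := by
  obtain ⟨γ, h, -⟩ := frey_nodal_two' P A hA
  exact ⟨γ, h⟩

/-- `σ Pt - Pt` lies in the identity component at `2` for `σ` in inertia. -/
theorem frey_inertia_two_E0 (hA : A.LiesOverPrime 2) (σ : Qb ≃ₐ[ℚ] Qb)
    (hσ : σ ∈ A.inertiaSubgroupIn ℚ) (Pt : (P.freyCurve⁄Qb).Point) :
    Fermat.Agent.S13_helper25_CP.InE0 A.valuation (σ • Pt - Pt) := by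
  obtain ⟨-, -, -, -, hm⟩ := frey_two_model P A hA
  obtain ⟨γ, hW, hint⟩ := frey_nodal_two' P A hA
  have hfix : σ γ = γ := inertia_fix_gamma P A σ hσ hW.hγ hW.hδ hint hm
  exact Fermat.Agent.S13_helper25_CP.inE0_map_sub A.valuation hW σ.toAlgHom
    (fun z => val_map_eq A σ hσ z) hfix Pt

/-- **AT2-2A.** For `σ` in an inertia group at `2`, `(σ - 1) ^ 2 = 0` on the `p`-torsion of the
Frey curve. -/
theorem frey_inertia_two_sq (hA : A.LiesOverPrime 2) (σ : Qb ≃ₐ[ℚ] Qb)
    (hσ : σ ∈ A.inertiaSubgroupIn ℚ) (Pt : (P.freyCurve⁄Qb).Point) (hPt : P.p • Pt = 0) :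
    σ • (σ • Pt - Pt) = σ • Pt - Pt := by
  refine sq_of_E0 P A hA σ hσ ?_ Pt hPt
  intro Q _ x y h hR
  have := frey_inertia_two_E0 P A hA σ hσ Q
  rw [hR] at this
  exact this

/-- **AT2-2A**, on the torsion submodule (the form used by the assembly of S13). -/
theorem frey_inertia_two_sq_Vp (hA : A.LiesOverPrime 2) (σ : Qb ≃ₐ[ℚ] Qb)
    (hσ : σ ∈ A.inertiaSubgroupIn ℚ)
    (x : Submodule.torsionBy ℤ (P.freyCurve⁄Qb).Point P.p) :
    σ • (σ • x - x) = σ • x - x := by
  have hx : P.p • (x : (P.freyCurve⁄Qb).Point) = 0 := by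
    have := x.2
    rw [Submodule.mem_torsionBy_iff, natCast_zsmul] at this
    exact this
  apply Subtype.ext
  exact frey_inertia_two_sq P A hA σ hσ x.1 hx

/-- The additive endomorphism `σ - 1` of the `p`-torsion. -/
noncomputable def sigmaSubOne (σ : Qb ≃ₐ[ℚ] Qb) :
    Submodule.torsionBy ℤ (P.freyCurve⁄Qb).Point P.p →+
      Submodule.torsionBy ℤ (P.freyCurve⁄Qb).Point P.p where
  toFun x := σ • x - x
  map_zero' := by rw [smul_zero, sub_zero]
  map_add' x y := by rw [smul_add]; abel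

lemma sigmaSubOne_apply (σ : Qb ≃ₐ[ℚ] Qb)
    (x : Submodule.torsionBy ℤ (P.freyCurve⁄Qb).Point P.p) :
    sigmaSubOne P σ x = σ • x - x := rfl

lemma sigmaSubOne_sq (hA : A.LiesOverPrime 2) (σ : Qb ≃ₐ[ℚ] Qb)
    (hσ : σ ∈ A.inertiaSubgroupIn ℚ)
    (x : Submodule.torsionBy ℤ (P.freyCurve⁄Qb).Point P.p) :
    sigmaSubOne P σ (sigmaSubOne P σ x) = 0 := by
  rw [sigmaSubOne_apply, sigmaSubOne_apply, frey_inertia_two_sq_Vp P A hA σ hσ x, sub_self]

/-- Inertia at `2` acts trivially on a Galois-stable line of `E[p]`. -/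
theorem frey_inertia_two_line (hA : A.LiesOverPrime 2) (σ : Qb ≃ₐ[ℚ] Qb)
    (hσ : σ ∈ A.inertiaSubgroupIn ℚ)
    (N : Submodule (ZMod P.p) (Submodule.torsionBy ℤ (P.freyCurve⁄Qb).Point P.p))
    (hN : IsGaloisStable ℚ N) (hcard : Nat.card N = P.p) : ∀ x ∈ N, σ • x = x := by
  have : Fact P.p.Prime := ⟨P.pp⟩
  intro x hx
  have := line_killed_of_sq (p := P.p) (sigmaSubOne P σ) (sigmaSubOne_sq P A hA σ hσ)
    N.toAddSubgroup (fun y hy => N.sub_mem (hN σ y hy) hy) hcard x hx
  rw [sigmaSubOne_apply] at this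
  exact sub_eq_zero.1 this

/-- Inertia at `2` acts trivially on the quotient of `E[p]` by a Galois-stable line. -/
theorem frey_inertia_two_quot (hA : A.LiesOverPrime 2) (σ : Qb ≃ₐ[ℚ] Qb)
    (hσ : σ ∈ A.inertiaSubgroupIn ℚ)
    (N : Submodule (ZMod P.p) (Submodule.torsionBy ℤ (P.freyCurve⁄Qb).Point P.p))
    (hN : IsGaloisStable ℚ N) (hcardN : Nat.card N = P.p)
    (hcardV : Nat.card (Submodule.torsionBy ℤ (P.freyCurve⁄Qb).Point P.p) = P.p ^ 2) :
    ∀ x : Submodule.torsionBy ℤ (P.freyCurve⁄Qb).Point P.p, σ • x - x ∈ N := by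
  have : Fact P.p.Prime := ⟨P.pp⟩
  have h0 : ∀ x ∈ N.toAddSubgroup, sigmaSubOne P σ x = 0 := by
    intro x hx
    rw [sigmaSubOne_apply, frey_inertia_two_line P A hA σ hσ N hN hcardN x hx, sub_self]
  exact range_le_of_sq (p := P.p) (sigmaSubOne P σ) (sigmaSubOne_sq P A hA σ hσ)
    N.toAddSubgroup h0 hcardN hcardV

end Fermat.Agent.S13_helper8_AT2A
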