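import Mathlib
import Fermat.Prelude.Def_FLTPrelim_GaloisRep

/-!
# S13, assembly piece ASM-OPEN

For a Galois-stable submodule `N` of `V = E[n]` (points over an algebraic extension `K / S`),
the pointwise fixer `fixerSub N` of `N` and the cofixer `cofixerSub N` (those `σ` with
`σ • x - x ∈ N` for all `x : V`) are open normal subgroups of `Gal(K/S)` (Krull topology),
as soon as `N`, resp. `V`, is finite.
-/

set_option autoImplicit false

namespace Fermat.Agent.S13_helper16_OPEN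

open WeierstrassCurve WeierstrassCurve.Affine WeierstrassCurve.Affine.Point

variable {R : Type*} {S : Type*} {K : Type*} [CommRing R] [Field S] [Field K]
  [DecidableEq K] [Algebra R S] [Algebra R K] [Algebra S K] [IsScalarTower R S K]
  {W' : Affine R} {n : ℕ}

/-- The subgroup of Galois elements fixing the point `P`. -/
def pointFixer (P : (W'⁄K).Point) : Subgroup (K ≃ₐ[S] K) where
  carrier := {σ | σ • P = P}
  one_mem' := one_smul _ P
  mul_mem' := fun {σ τ} hσ hτ => by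
    change (σ * τ) • P = P
    have hσ' : σ • P = P := hσ
    have hτ' : τ • P = P := hτ
    rw [mul_smul, hτ', hσ']
  inv_mem' := fun {σ} hσ => by
    change σ⁻¹ • P = P
    have hσ' : σ • P = P := hσ
    calc σ⁻¹ • P = σ⁻¹ • (σ • P) := by rw [hσ']
      _ = P := inv_smul_smul σ P

theorem mem_pointFixer {P : (W'⁄K).Point} {σ : K ≃ₐ[S] K} :
    σ ∈ pointFixer (S := S) P ↔ σ • P = P := Iff.rfl

theorem pointFixer_isOpen [Algebra.IsIntegral S K] (P : (W'⁄K).Point) :
    IsOpen (pointFixer (S := S) P : Set (K ≃ₐ[S] K)) := by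
  cases P with
  | zero =>
    have : pointFixer (S := S) (Point.zero : (W'⁄K).Point) = ⊤ := by
      ext σ
      simp only [Subgroup.mem_top, iff_true]
      exact smul_zero (A := (W'⁄K).Point) σ
    rw [this]
    exact isOpen_univ
  | some x y h =>
    have hx := stabilizer_isOpen_of_isIntegral (K := S) (L := K) x
    have hy := stabilizer_isOpen_of_isIntegral (K := S) (L := K) y
    have hxy : IsOpen ((MulAction.stabilizer (K ≃ₐ[S] K) x ⊓
        MulAction.stabilizer (K ≃ₐ[S] K) y : Subgroup (K ≃ₐ[S] K)) : Set (K ≃ₐ[S] K)) := by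
      rw [Subgroup.coe_inf]
      exact hx.inter hy
    refine Subgroup.isOpen_mono (H₁ := MulAction.stabilizer (K ≃ₐ[S] K) x ⊓
        MulAction.stabilizer (K ≃ₐ[S] K) y) ?_ hxy
    intro σ hσ
    rw [Subgroup.mem_inf, MulAction.mem_stabilizer_iff, MulAction.mem_stabilizer_iff] at hσ
    rw [mem_pointFixer, algEquiv_smul_def]
    have h1 : σ x = x := hσ.1
    have h2 : σ y = y := hσ.2
    simp only [Point.map_some]
    congr 1

/-- Finite intersections of open subgroups are open (set-indexed form). -/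
theorem isOpen_iInf_pointFixer [Algebra.IsIntegral S K] (T : Set (W'⁄K).Point) (hT : T.Finite) :
    IsOpen ((⨅ P ∈ T, pointFixer (S := S) P : Subgroup (K ≃ₐ[S] K)) : Set (K ≃ₐ[S] K)) := by
  have : ((⨅ P ∈ T, pointFixer (S := S) P : Subgroup (K ≃ₐ[S] K)) : Set (K ≃ₐ[S] K)) =
      ⋂ P ∈ T, (pointFixer (S := S) P : Set (K ≃ₐ[S] K)) := by
    ext σ
    simp
  rw [this]
  exact hT.isOpen_biInter (fun P _ => pointFixer_isOpen P)

variable (S) in
/-- `U₁`: the Galois elements fixing `N` pointwise. -/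
def fixerSub (N : Submodule (ZMod n) (Submodule.torsionBy ℤ (W'⁄K).Point n)) :
    Subgroup (K ≃ₐ[S] K) where
  carrier := {σ | ∀ x ∈ N, σ • x = x}
  one_mem' := fun x _ => one_smul _ x
  mul_mem' := fun {σ τ} hσ hτ x hx => by
    rw [mul_smul, hτ x hx, hσ x hx]
  inv_mem' := fun {σ} hσ x hx => by
    calc σ⁻¹ • x = σ⁻¹ • (σ • x) := by rw [hσ x hx]
      _ = x := inv_smul_smul σ x

theorem mem_fixerSub {N : Submodule (ZMod n) (Submodule.torsionBy ℤ (W'⁄K).Point n)}
    {σ : K ≃ₐ[S] K} : σ ∈ fixerSub S N ↔ ∀ x ∈ N, σ • x = x := Iff.rfl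

variable (S) in
/-- `U₂`: the Galois elements acting trivially on `V ⧸ N`. -/
def cofixerSub (N : Submodule (ZMod n) (Submodule.torsionBy ℤ (W'⁄K).Point n))
    (hN : IsGaloisStable S N) : Subgroup (K ≃ₐ[S] K) where
  carrier := {σ | ∀ x : Submodule.torsionBy ℤ (W'⁄K).Point n, σ • x - x ∈ N}
  one_mem' := fun x => by
    rw [one_smul, sub_self]; exact N.zero_mem
  mul_mem' := fun {σ τ} hσ hτ x => by
    have h1 : (σ * τ) • x - x = σ • (τ • x - x) + (σ • x - x) := by
      rw [mul_smul, smul_sub]; abel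
    rw [h1]
    exact N.add_mem (hN σ _ (hτ x)) (hσ x)
  inv_mem' := fun {σ} hσ x => by
    have h1 : σ⁻¹ • x - x = -(σ⁻¹ • (σ • x - x)) := by
      rw [smul_sub, inv_smul_smul]; abel
    rw [h1]
    exact N.neg_mem (hN σ⁻¹ _ (hσ x))

theorem mem_cofixerSub {N : Submodule (ZMod n) (Submodule.torsionBy ℤ (W'⁄K).Point n)}
    {hN : IsGaloisStable S N} {σ : K ≃ₐ[S] K} :
    σ ∈ cofixerSub S N hN ↔ ∀ x : Submodule.torsionBy ℤ (W'⁄K).Point n, σ • x - x ∈ N :=
  Iff.rfl

theorem fixerSub_normal (N : Submodule (ZMod n) (Submodule.torsionBy ℤ (W'⁄K).Point n))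
    (hN : IsGaloisStable S N) : (fixerSub S N).Normal := by
  refine ⟨fun σ hσ τ x hx => ?_⟩
  have h1 : τ⁻¹ • x ∈ N := hN τ⁻¹ x hx
  rw [mul_smul, mul_smul, hσ _ h1, smul_inv_smul]

theorem cofixerSub_normal (N : Submodule (ZMod n) (Submodule.torsionBy ℤ (W'⁄K).Point n))
    (hN : IsGaloisStable S N) : (cofixerSub S N hN).Normal := by
  refine ⟨fun σ hσ τ x => ?_⟩
  have h1 : (τ * σ * τ⁻¹) • x - x = τ • (σ • (τ⁻¹ • x) - τ⁻¹ • x) := by
    rw [mul_smul, mul_smul, smul_sub, smul_inv_smul]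
  rw [h1]
  exact hN τ _ (hσ _)

/-- The common fixer of all points of `V` is contained in both `U₁` and `U₂`. -/
theorem iInf_pointFixer_le_fixerSub
    (N : Submodule (ZMod n) (Submodule.torsionBy ℤ (W'⁄K).Point n)) :
    (⨅ P ∈ (Submodule.torsionBy ℤ (W'⁄K).Point n : Set (W'⁄K).Point),
      pointFixer (S := S) P) ≤ fixerSub S N := by
  intro σ hσ x _
  simp only [Subgroup.mem_iInf] at hσ
  apply Subtype.ext
  exact hσ x.1 x.2

theorem iInf_pointFixer_le_cofixerSub
    (N : Submodule (ZMod n) (Submodule.torsionBy ℤ (W'⁄K).Point n))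
    (hN : IsGaloisStable S N) :
    (⨅ P ∈ (Submodule.torsionBy ℤ (W'⁄K).Point n : Set (W'⁄K).Point),
      pointFixer (S := S) P) ≤ cofixerSub S N hN := by
  intro σ hσ x
  simp only [Subgroup.mem_iInf] at hσ
  have : σ • x = x := Subtype.ext (hσ x.1 x.2)
  rw [this, sub_self]
  exact N.zero_mem

theorem finite_torsion_set (hfin : Finite (Submodule.torsionBy ℤ (W'⁄K).Point n)) :
    (Submodule.torsionBy ℤ (W'⁄K).Point n : Set (W'⁄K).Point).Finite :=
  Set.toFinite _

/-- `U₁` is open when `V = E[n]` is finite. -/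
theorem fixerSub_isOpen [Algebra.IsIntegral S K]
    (hfin : Finite (Submodule.torsionBy ℤ (W'⁄K).Point n))
    (N : Submodule (ZMod n) (Submodule.torsionBy ℤ (W'⁄K).Point n)) :
    IsOpen (fixerSub S N : Set (K ≃ₐ[S] K)) :=
  Subgroup.isOpen_mono (iInf_pointFixer_le_fixerSub N)
    (isOpen_iInf_pointFixer _ (finite_torsion_set hfin))

/-- `U₂` is open when `V = E[n]` is finite. -/
theorem cofixerSub_isOpen [Algebra.IsIntegral S K]
    (hfin : Finite (Submodule.torsionBy ℤ (W'⁄K).Point n))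
    (N : Submodule (ZMod n) (Submodule.torsionBy ℤ (W'⁄K).Point n))
    (hN : IsGaloisStable S N) :
    IsOpen (cofixerSub S N hN : Set (K ≃ₐ[S] K)) :=
  Subgroup.isOpen_mono (iInf_pointFixer_le_cofixerSub N hN)
    (isOpen_iInf_pointFixer _ (finite_torsion_set hfin))

/-- The shape used by the S13 assembly: Frey-type setting over `ℚ` and `AlgebraicClosure ℚ`. -/
theorem fixerSub_isOpen_rat (W : Affine ℚ) (n : ℕ)
    (hfin : Finite (Submodule.torsionBy ℤ (W⁄(AlgebraicClosure ℚ)).Point n))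
    (N : Submodule (ZMod n) (Submodule.torsionBy ℤ (W⁄(AlgebraicClosure ℚ)).Point n)) :
    IsOpen (fixerSub ℚ N : Set (AlgebraicClosure ℚ ≃ₐ[ℚ] AlgebraicClosure ℚ)) :=
  haveI : Algebra.IsIntegral ℚ (AlgebraicClosure ℚ) :=
    (AlgebraicClosure.isAlgebraic ℚ).isIntegral
  fixerSub_isOpen hfin N

theorem cofixerSub_isOpen_rat (W : Affine ℚ) (n : ℕ)
    (hfin : Finite (Submodule.torsionBy ℤ (W⁄(AlgebraicClosure ℚ)).Point n))
    (N : Submodule (ZMod n) (Submodule.torsionBy ℤ (W⁄(AlgebraicClosure ℚ)).Point n))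
    (hN : IsGaloisStable ℚ N) :
    IsOpen (cofixerSub ℚ N hN : Set (AlgebraicClosure ℚ ≃ₐ[ℚ] AlgebraicClosure ℚ)) :=
  haveI : Algebra.IsIntegral ℚ (AlgebraicClosure ℚ) :=
    (AlgebraicClosure.isAlgebraic ℚ).isIntegral
  cofixerSub_isOpen hfin N hN

end Fermat.Agent.S13_helper16_OPEN
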