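import Fermat.Statements.S13
import Fermat.Agent.S05
import Fermat.Agent.S54_Frob
import Fermat.Agent.S13_helper16_OPEN
import Fermat.Agent.S13_helper20_DPCARD

/-!
# S13: abstract assembly (helper9)

`asm_of_pieces` deduces the frozen S13 conclusion from the outputs of the pieces of the plan,
stated as hypotheses:

* `hne`   : `E[p]` is nontrivial (DP-EXIST);
* `hfin`, `hcard` : `E[p]` is finite with at most `p ^ 2` elements (DP-CARD);
* `h2`    : step (2a) at `q = 2` (unipotence of inertia);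
* `hp`    : step (2b) at `q = p`;
* `hMK`   : step (2c) (Minkowski);
* `h2d`   : step (2d) (no rational point of order `p`).

Step (2a) at the odd primes `q ≠ p` is `Fermat.Agent.S05.result`.
-/

set_option autoImplicit false

namespace Fermat.Agent.S13_helper9_ASM

open WeierstrassCurve WeierstrassCurve.Affine WeierstrassCurve.Affine.Point
open Fermat.Agent.S13_helper16_OPEN

local notation "Qb" => AlgebraicClosure ℚ

/-- The abstract assembly of S13 from its pieces. -/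
theorem asm_of_pieces (P : FreyPackage)
    (hne : Nontrivial (Submodule.torsionBy ℤ (P.freyCurve⁄Qb).Point P.p))
    (hfin : Finite (Submodule.torsionBy ℤ (P.freyCurve⁄Qb).Point P.p))
    (hcard : Nat.card (Submodule.torsionBy ℤ (P.freyCurve⁄Qb).Point P.p) ≤ P.p ^ 2)
    (h2 : ∀ N1 : Submodule (ZMod P.p) (Submodule.torsionBy ℤ (P.freyCurve⁄Qb).Point P.p),
      IsGaloisStable ℚ N1 → Nat.card N1 = P.p →
      Nat.card (Submodule.torsionBy ℤ (P.freyCurve⁄Qb).Point P.p) = P.p ^ 2 →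
      ∃ A : ValuationSubring Qb, A.LiesOverPrime 2 ∧
        (∀ σ ∈ A.inertiaSubgroupIn ℚ, ∀ x ∈ N1, σ • x = x) ∧
        (∀ σ ∈ A.inertiaSubgroupIn ℚ,
          ∀ x : Submodule.torsionBy ℤ (P.freyCurve⁄Qb).Point P.p, σ • x - x ∈ N1))
    (hp : ∀ N1 : Submodule (ZMod P.p) (Submodule.torsionBy ℤ (P.freyCurve⁄Qb).Point P.p),
      IsGaloisStable ℚ N1 → N1 ≠ ⊥ → N1 ≠ ⊤ →
      ∃ A : ValuationSubring Qb, A.LiesOverPrime P.p ∧
        ((∀ σ ∈ A.inertiaSubgroupIn ℚ, ∀ x ∈ N1, σ • x = x) ∨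
        (∀ σ ∈ A.inertiaSubgroupIn ℚ,
          ∀ x : Submodule.torsionBy ℤ (P.freyCurve⁄Qb).Point P.p, σ • x - x ∈ N1)))
    (hMK : ∀ U : Subgroup (Qb ≃ₐ[ℚ] Qb), IsOpen (U : Set (Qb ≃ₐ[ℚ] Qb)) → U.Normal →
      (∀ q : ℕ, q.Prime → ∃ A : ValuationSubring Qb,
        A.LiesOverPrime q ∧ A.inertiaSubgroupIn ℚ ≤ U) → U = ⊤)
    (h2d : ∀ x : Submodule.torsionBy ℤ (P.freyCurve⁄Qb).Point P.p,
      (∀ σ : Qb ≃ₐ[ℚ] Qb, σ • x = x) → x = 0)
    (hred : ¬ GaloisRepIsIrreducible (K := Qb) ℚ P.freyCurve P.p) :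
    HasGaloisStableCofixedLine (K := Qb) ℚ P.freyCurve P.p := by
  have : Fact P.p.Prime := ⟨P.pp⟩
  -- a Galois-stable line
  obtain ⟨N1, hst, hbot, htop⟩ : ∃ N1 : Submodule (ZMod P.p)
      (Submodule.torsionBy ℤ (P.freyCurve⁄Qb).Point P.p),
      IsGaloisStable ℚ N1 ∧ N1 ≠ ⊥ ∧ N1 ≠ ⊤ := by
    by_contra hcon
    apply hred
    refine ⟨hne, fun N hN => ?_⟩
    by_contra h
    rw [not_or] at h
    exact hcon ⟨N, hN, h.1, h.2⟩
  obtain ⟨hcN, hcV, -⟩ :=
    Fermat.Agent.S13_helper20_DPCARD.card_of_ne_bot_ne_top hcard N1 hbot htop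
  obtain ⟨A2, hA2, hA2fix, hA2cofix⟩ := h2 N1 hst hcN hcV
  obtain ⟨Ap, hAp, hApcase⟩ := hp N1 hst hbot htop
  have hp2 : (2 : ℕ) ≠ P.p := by
    have := P.hp5
    omega
  -- inertia at the primes `q ≠ 2, p`
  have hunr : ∀ q : ℕ, q.Prime → q ≠ 2 → q ≠ P.p → ∃ A : ValuationSubring Qb,
      A.LiesOverPrime q ∧ ∀ σ ∈ A.inertiaSubgroupIn ℚ,
        ∀ x : Submodule.torsionBy ℤ (P.freyCurve⁄Qb).Point P.p, σ • x = x := by
    intro q hq hq2 hqp
    obtain ⟨A, hA, -⟩ := Fermat.Agent.S54Frob.exists_frobenius q hq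
    exact ⟨A, hA, fun σ hσ x => Fermat.Agent.S05.result P hq hq2 hqp A hA σ hσ x⟩
  -- the two open normal subgroups
  have hU1 : Fermat.Agent.S13_helper16_OPEN.fixerSub ℚ N1 ≠ ⊤ := by
    intro htopU
    obtain ⟨x, hx, hx0⟩ := (Submodule.ne_bot_iff N1).mp hbot
    apply hx0
    refine h2d x (fun σ => ?_)
    have : σ ∈ Fermat.Agent.S13_helper16_OPEN.fixerSub ℚ N1 := by
      rw [htopU]; exact Subgroup.mem_top σ
    exact this x hx
  have hcofix : ∀ σ ∈ Ap.inertiaSubgroupIn ℚ,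
      ∀ x : Submodule.torsionBy ℤ (P.freyCurve⁄Qb).Point P.p, σ • x - x ∈ N1 := by
    rcases hApcase with hfix | hcofix
    · exfalso
      apply hU1
      refine hMK _ (fixerSub_isOpen_rat P.freyCurve P.p hfin N1) (fixerSub_normal N1 hst) ?_
      intro q hq
      by_cases hq2 : q = 2
      · subst hq2
        exact ⟨A2, hA2, fun σ hσ => hA2fix σ hσ⟩
      by_cases hqp : q = P.p
      · subst hqp
        exact ⟨Ap, hAp, fun σ hσ => hfix σ hσ⟩
      obtain ⟨A, hA, hAfix⟩ := hunr q hq hq2 hqp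
      exact ⟨A, hA, fun σ hσ x _ => hAfix σ hσ x⟩
    · exact hcofix
  have hU2 : Fermat.Agent.S13_helper16_OPEN.cofixerSub ℚ N1 hst = ⊤ := by
    refine hMK _ (cofixerSub_isOpen_rat P.freyCurve P.p hfin N1 hst)
      (cofixerSub_normal N1 hst) ?_
    intro q hq
    by_cases hq2 : q = 2
    · subst hq2
      exact ⟨A2, hA2, fun σ hσ => hA2cofix σ hσ⟩
    by_cases hqp : q = P.p
    · subst hqp
      exact ⟨Ap, hAp, fun σ hσ => hcofix σ hσ⟩
    obtain ⟨A, hA, hAfix⟩ := hunr q hq hq2 hqp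
    refine ⟨A, hA, fun σ hσ x => ?_⟩
    rw [hAfix σ hσ x, sub_self]
    exact N1.zero_mem
  refine ⟨N1, hst, hbot, htop, fun σ x => ?_⟩
  have : σ ∈ Fermat.Agent.S13_helper16_OPEN.cofixerSub ℚ N1 hst := by
    rw [hU2]; exact Subgroup.mem_top σ
  exact this x

end Fermat.Agent.S13_helper9_ASM
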