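import Fermat.Statements.S13
import Fermat.Agent.S05
import Fermat.Agent.S54_Frob
import Fermat.Agent.S13_helper19_DPEXIST
import Fermat.Agent.S13_helper20_DPCARD

/-!
# S13: glue lemmas for the assembly (helper9)

* `frey_Δ`, `frey_Δ_ne_zero`, `frey_Δ_ne_zero_Qb` : the discriminant of the Frey curve;
* `frey_p_ne_zero` : `(P.p : Qb) ≠ 0`;
* `mem_torsionBy_nat`, `torsion_nsmul`, `torsion_mk` : `torsionBy`-subtype versus points;
* `forwardDP_of_nsmul`, `glue_hfin`, `glue_hcard` : finiteness and cardinality of `E[p]` from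
  the forward division polynomial statement in `ℕ`-scalar form (`hroot`);
* `glue_hexist`, `glue_hne` : existence of a nonzero `p`-torsion point from the generic
  multiplication formula (`hX`);
* `glue_hA`, `glue_hodd` : existence of valuation subrings over `q`, inertia at `q ≠ 2, p`;
* `glue_htwo`, `glue_hrat` : point forms to subtype forms.
-/

set_option autoImplicit false

namespace Fermat.Agent.S13_helper9_GLUE

open WeierstrassCurve WeierstrassCurve.Affine WeierstrassCurve.Affine.Point Polynomial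

local notation "Qb" => AlgebraicClosure ℚ

/-! ### The discriminant of the Frey curve -/

theorem frey_Δ (P : FreyPackage) :
    P.freyCurve.Δ = ((P.a : ℚ) ^ P.p * (P.b : ℚ) ^ P.p * (P.c : ℚ) ^ P.p) ^ 2 / 256 := by
  have hF : (P.a : ℚ) ^ P.p + (P.b : ℚ) ^ P.p = (P.c : ℚ) ^ P.p := by
    exact_mod_cast P.hFLT
  simp only [WeierstrassCurve.Δ, WeierstrassCurve.b₂, WeierstrassCurve.b₄,
    WeierstrassCurve.b₆, WeierstrassCurve.b₈, FreyPackage.freyCurve]
  rw [← hF]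
  ring

theorem frey_Δ_ne_zero (P : FreyPackage) : P.freyCurve.Δ ≠ 0 := by
  rw [frey_Δ]
  have ha : (P.a : ℚ) ≠ 0 := Int.cast_ne_zero.mpr P.ha0
  have hb : (P.b : ℚ) ≠ 0 := Int.cast_ne_zero.mpr P.hb0
  have hc : (P.c : ℚ) ≠ 0 := Int.cast_ne_zero.mpr P.hc0
  positivity

theorem frey_Δ_ne_zero_Qb (P : FreyPackage) : (P.freyCurve⁄Qb).Δ ≠ 0 := by
  change (P.freyCurve.map (algebraMap ℚ Qb)).Δ ≠ 0
  rw [WeierstrassCurve.map_Δ]
  exact (map_ne_zero (algebraMap ℚ Qb)).mpr (frey_Δ_ne_zero P)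

theorem frey_p_ne_zero (P : FreyPackage) : ((P.p : ℕ) : Qb) ≠ 0 :=
  Nat.cast_ne_zero.mpr P.hp0

/-! ### `torsionBy` versus points -/

section Torsion

variable {K : Type*} [Field K] [DecidableEq K] {W : WeierstrassCurve.Affine K}

theorem mem_torsionBy_nat {n : ℕ} {Pt : W.Point} :
    Pt ∈ Submodule.torsionBy ℤ W.Point (n : ℤ) ↔ n • Pt = 0 := by
  rw [Submodule.mem_torsionBy_iff, natCast_zsmul]

theorem torsion_nsmul {n : ℕ} (x : Submodule.torsionBy ℤ W.Point (n : ℤ)) :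
    n • (x : W.Point) = 0 :=
  mem_torsionBy_nat.mp x.2

/-- The forward division polynomial statement in `ℕ`-scalar form gives `ForwardDP`. -/
theorem forwardDP_of_nsmul (p : ℕ)
    (hroot : ∀ (x y : K) (h : W.Nonsingular x y),
      p • (Point.some (W' := W) x y h) = 0 → (W.preΨ (p : ℤ)).eval x = 0) :
    Fermat.Agent.S13_helper20_DPCARD.ForwardDP W p := by
  intro x y h h0
  rw [natCast_zsmul] at h0
  exact hroot x y h h0

end Torsion

/-! ### Inputs of the assembly -/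

theorem glue_hfin (P : FreyPackage)
    (hroot : ∀ (x y : Qb) (h : (P.freyCurve⁄Qb).Nonsingular x y),
      P.p • (Point.some (W' := (P.freyCurve⁄Qb)) x y h) = 0 →
        ((P.freyCurve⁄Qb).preΨ (P.p : ℤ)).eval x = 0) :
    Finite (Submodule.torsionBy ℤ (P.freyCurve⁄Qb).Point P.p) :=
  Fermat.Agent.S13_helper20_DPCARD.finite_torsion (P.freyCurve⁄Qb) P.p (frey_p_ne_zero P)
    (forwardDP_of_nsmul P.p hroot)

theorem glue_hcard (P : FreyPackage)
    (hroot : ∀ (x y : Qb) (h : (P.freyCurve⁄Qb).Nonsingular x y),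
      P.p • (Point.some (W' := (P.freyCurve⁄Qb)) x y h) = 0 →
        ((P.freyCurve⁄Qb).preΨ (P.p : ℤ)).eval x = 0) :
    Nat.card (Submodule.torsionBy ℤ (P.freyCurve⁄Qb).Point P.p) ≤ P.p ^ 2 :=
  Fermat.Agent.S13_helper20_DPCARD.card_torsion_le (P.freyCurve⁄Qb) P.p P.hp_odd
    (frey_p_ne_zero P) (forwardDP_of_nsmul P.p hroot)

theorem glue_hexist (P : FreyPackage)
    (hX : ∃ B : Qb[X], B ≠ 0 ∧ ∀ (x y : Qb) (h : (P.freyCurve⁄Qb).Nonsingular x y),
      B.eval x ≠ 0 → ∃ (x' y' : Qb) (h' : (P.freyCurve⁄Qb).Nonsingular x' y'),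
        P.p • (Point.some (W' := (P.freyCurve⁄Qb)) x y h)
          = Point.some (W' := (P.freyCurve⁄Qb)) x' y' h' ∧
          x' * ((P.freyCurve⁄Qb).ΨSq (P.p : ℤ)).eval x
            = ((P.freyCurve⁄Qb).Φ (P.p : ℤ)).eval x) :
    ∃ Q : (P.freyCurve⁄Qb).Point, Q ≠ 0 ∧ P.p • Q = 0 :=
  Fermat.Agent.S13_helper19_DPEXIST.DP_EXIST (P.freyCurve⁄Qb) (frey_Δ_ne_zero_Qb P) P.p P.pp
    (by have := P.hp5; omega) hX

theorem glue_hne (P : FreyPackage)
    (hexist : ∃ Q : (P.freyCurve⁄Qb).Point, Q ≠ 0 ∧ P.p • Q = 0) :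
    Nontrivial (Submodule.torsionBy ℤ (P.freyCurve⁄Qb).Point P.p) := by
  obtain ⟨Q, hQ0, hQ⟩ := hexist
  refine ⟨⟨⟨Q, mem_torsionBy_nat.mpr hQ⟩, 0, ?_⟩⟩
  intro h
  exact hQ0 (congrArg Subtype.val h)

theorem glue_hA (q : ℕ) (hq : q.Prime) : ∃ A : ValuationSubring Qb, A.LiesOverPrime q := by
  obtain ⟨A, hA, -⟩ := Fermat.Agent.S54Frob.exists_frobenius q hq
  exact ⟨A, hA⟩

theorem glue_hodd (P : FreyPackage) (q : ℕ) (hq : q.Prime) (hq2 : q ≠ 2) (hqp : q ≠ P.p)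
    (A : ValuationSubring Qb) (hA : A.LiesOverPrime q) (σ : Qb ≃ₐ[ℚ] Qb)
    (hσ : σ ∈ A.inertiaSubgroupIn ℚ)
    (x : Submodule.torsionBy ℤ (P.freyCurve⁄Qb).Point P.p) : σ • x = x :=
  Fermat.Agent.S05.result P hq hq2 hqp A hA σ hσ x

/-- Point form to subtype form for the unipotence statement at `2`. -/
theorem glue_htwo (P : FreyPackage)
    (h : ∀ (A : ValuationSubring Qb), A.LiesOverPrime 2 → ∀ (σ : Qb ≃ₐ[ℚ] Qb),
      σ ∈ A.inertiaSubgroupIn ℚ → ∀ Pt : (P.freyCurve⁄Qb).Point, P.p • Pt = 0 →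
        σ • (σ • Pt - Pt) = σ • Pt - Pt) :
    ∀ A : ValuationSubring Qb, A.LiesOverPrime 2 → ∀ σ ∈ A.inertiaSubgroupIn ℚ,
      ∀ x : Submodule.torsionBy ℤ (P.freyCurve⁄Qb).Point P.p,
        σ • (σ • x - x) = σ • x - x := by
  intro A hA σ hσ x
  apply Subtype.ext
  exact h A hA σ hσ (x : (P.freyCurve⁄Qb).Point) (torsion_nsmul x)

/-- Point form to subtype form for the absence of rational `p`-torsion. -/
theorem glue_hrat (P : FreyPackage)
    (h : ∀ Pt : (P.freyCurve⁄Qb).Point, P.p • Pt = 0 →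
      (∀ σ : Qb ≃ₐ[ℚ] Qb, σ • Pt = Pt) → Pt = 0) :
    ∀ x : Submodule.torsionBy ℤ (P.freyCurve⁄Qb).Point P.p,
      (∀ σ : Qb ≃ₐ[ℚ] Qb, σ • x = x) → x = 0 := by
  intro x hx
  apply Subtype.ext
  exact h (x : (P.freyCurve⁄Qb).Point) (torsion_nsmul x)
    (fun σ => congrArg Subtype.val (hx σ))

/-- `Submodule` form to `AddSubgroup` form for the local statement at `p`. -/
theorem glue_hp (P : FreyPackage)
    (h : ∀ (A : ValuationSubring Qb), A.LiesOverPrime P.p →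
      ∀ N1 : Submodule (ZMod P.p) (Submodule.torsionBy ℤ (P.freyCurve⁄Qb).Point P.p),
        IsGaloisStable ℚ N1 → N1 ≠ ⊥ → N1 ≠ ⊤ →
        ∃ L : Submodule (ZMod P.p) (Submodule.torsionBy ℤ (P.freyCurve⁄Qb).Point P.p),
          L ≠ ⊤ ∧ ∀ σ ∈ A.inertiaSubgroupIn ℚ,
            ∀ x : Submodule.torsionBy ℤ (P.freyCurve⁄Qb).Point P.p, σ • x - x ∈ L) :
    ∀ A : ValuationSubring Qb, A.LiesOverPrime P.p →
      ∀ N : AddSubgroup (Submodule.torsionBy ℤ (P.freyCurve⁄Qb).Point P.p), N ≠ ⊥ → N ≠ ⊤ →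
        (∀ σ : Qb ≃ₐ[ℚ] Qb, ∀ x ∈ N, σ • x ∈ N) →
        ∃ L : AddSubgroup (Submodule.torsionBy ℤ (P.freyCurve⁄Qb).Point P.p), L ≠ ⊤ ∧
          ∀ σ ∈ A.inertiaSubgroupIn ℚ,
            ∀ x : Submodule.torsionBy ℤ (P.freyCurve⁄Qb).Point P.p, σ • x - x ∈ L := by
  intro A hA N hN0 hN1 hst
  obtain ⟨L, hL, hσ⟩ := h A hA (AddSubgroup.toZModSubmodule P.p N)
    (fun σ x hx => hst σ x hx)
    (fun h0 => hN0 (by
      have := congrArg Submodule.toAddSubgroup h0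
      simpa using this))
    (fun h1 => hN1 (by
      have := congrArg Submodule.toAddSubgroup h1
      simpa using this))
  refine ⟨L.toAddSubgroup, fun hcon => hL ?_, fun σ hσ' x => hσ σ hσ' x⟩
  apply Submodule.toAddSubgroup_injective
  rw [hcon]
  rfl

end Fermat.Agent.S13_helper9_GLUE
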