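import Fermat.Statements.S13
import Fermat.Agent.S54_Frob
import Fermat.Agent.S13_helper9_ASM
import Fermat.Agent.S13_helper9_GLUE
import Fermat.Agent.S13_helper27_DPTorsion
import Fermat.Agent.S13_helper28_MKRAM
import Fermat.Agent.S13_helper26_MKLIFT
import Fermat.Agent.S13_helper8_AT2A
import Fermat.Agent.S13_helper5_ATP
import Fermat.Agent.S13_helper13_AT2D

set_option autoImplicit false
open WeierstrassCurve WeierstrassCurve.Affine WeierstrassCurve.Affine.Point
open CuspForm ModularFormClass UpperHalfPlane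
open FreyPackage

namespace Fermat.Agent.S13

attribute [local instance 100000] AlgebraicClosure.instAlgebra

/-- Minkowski, group form: an open normal subgroup of the absolute Galois group of `ℚ`
containing an inertia group at every prime is everything. -/
theorem minkowski_final
    (U : Subgroup (AlgebraicClosure ℚ ≃ₐ[ℚ] AlgebraicClosure ℚ))
    (hU : IsOpen (U : Set (AlgebraicClosure ℚ ≃ₐ[ℚ] AlgebraicClosure ℚ))) (hN : U.Normal)
    (h : ∀ q : ℕ, q.Prime → ∃ A : ValuationSubring (AlgebraicClosure ℚ),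
      A.LiesOverPrime q ∧ A.inertiaSubgroupIn ℚ ≤ U) : U = ⊤ := by
  by_contra hne
  obtain ⟨q, hq, hram⟩ := Fermat.Agent.S13_helper28_MKRAM.MK_ramified U hU hN hne
  obtain ⟨A, hA, hIA⟩ := h q hq
  obtain ⟨σ₀, hσ₀, hx⟩ := hram A hA
  obtain ⟨σ, hσ, hmem⟩ := Fermat.Agent.S13_helper26_MKLIFT.MK_lift U hU hN A q hq hA σ₀ hx
  apply hσ₀
  have h1 : σ ∈ U := hIA hσ
  have h2 : σ₀⁻¹ ∈ U := (Subgroup.mul_mem_cancel_right U h1).1 hmem
  exact (Subgroup.inv_mem_iff U).1 h2

theorem result (P : FreyPackage) (hred : ¬ GaloisRepIsIrreducible (K := AlgebraicClosure ℚ) ℚ P.freyCurve P.p) : HasGaloisStableCofixedLine (K := AlgebraicClosure ℚ) ℚ P.freyCurve P.p := by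
  have hp2 : P.p ≠ 2 := by have := P.hp5; omega
  have hΔ := Fermat.Agent.S13_helper9_GLUE.frey_Δ_ne_zero_Qb P
  have hpK := Fermat.Agent.S13_helper9_GLUE.frey_p_ne_zero P
  have hF := Fermat.Agent.S13_helper27_DPTorsion.forwardDP
    (P.freyCurve⁄(AlgebraicClosure ℚ)) P.pp hp2
  refine Fermat.Agent.S13_helper9_ASM.asm_of_pieces P
    (Fermat.Agent.S13_helper27_DPTorsion.nontrivial_torsion _ hΔ P.pp hp2)
    (Fermat.Agent.S13_helper27_DPTorsion.finite_torsion _ P.pp hp2 hpK)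
    (Fermat.Agent.S13_helper27_DPTorsion.card_torsion_le_sq _ P.pp hp2 hpK)
    ?_ ?_ minkowski_final (Fermat.Agent.S13_helper13_AT2D.frey_no_fixed_torsion' P) hred
  · intro N1 hst hcardN hcardV
    obtain ⟨A, hA, -⟩ := Fermat.Agent.S54Frob.exists_frobenius 2 Nat.prime_two
    exact ⟨A, hA,
      fun σ hσ => Fermat.Agent.S13_helper8_AT2A.frey_inertia_two_line P A hA σ hσ N1 hst hcardN,
      fun σ hσ => Fermat.Agent.S13_helper8_AT2A.frey_inertia_two_quot P A hA σ hσ N1 hst
        hcardN hcardV⟩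
  · intro N1 hst hbot htop
    obtain ⟨A, hA, -⟩ := Fermat.Agent.S54Frob.exists_frobenius P.p P.pp
    exact ⟨A, hA, Fermat.Agent.S13_helper5_ATP.ATP P A hA hF N1 hst hbot htop⟩

end Fermat.Agent.S13
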