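import Fermat.Statements.S13

set_option autoImplicit false
set_option linter.style.haveILetI false
set_option linter.unusedVariables false

namespace Fermat.Agent.S13_helper1_ASM

section abstract

variable {p : ℕ} [hp : Fact p.Prime] {G : Type*} [Group G] {V : Type*} [AddCommGroup V]
  [Module (ZMod p) V] [DistribMulAction G V]

lemma zmod_smul_eq_nsmul (c : ZMod p) (x : V) : c • x = c.val • x := by
  conv_lhs => rw [← ZMod.natCast_zmod_val c]
  exact Nat.cast_smul_eq_nsmul (ZMod p) c.val x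

lemma act_zmod_smul (σ : G) (c : ZMod p) (x : V) : σ • (c • x) = c • (σ • x) := by
  rw [zmod_smul_eq_nsmul, zmod_smul_eq_nsmul, smul_comm σ]

/-- elements acting trivially on `N` -/
def fixSub (G : Type*) [Group G] [DistribMulAction G V] (N : Submodule (ZMod p) V) :
    Subgroup G where
  carrier := {σ | ∀ x ∈ N, σ • x = x}
  one_mem' := fun x _ => one_smul G x
  mul_mem' := by
    intro a b ha hb x hx
    rw [mul_smul, hb x hx, ha x hx]
  inv_mem' := by
    intro a ha x hx
    have := ha x hx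
    calc a⁻¹ • x = a⁻¹ • (a • x) := by rw [this]
      _ = x := inv_smul_smul a x

/-- elements acting trivially on `V / N` -/
def cofixSub (G : Type*) [Group G] [DistribMulAction G V] (N : Submodule (ZMod p) V) :
    Subgroup G where
  carrier := {σ | ∀ x : V, σ • x - x ∈ N}
  one_mem' := fun x => by simp
  mul_mem' := by
    intro a b ha hb x
    have h1 := ha (b • x)
    have h2 := hb x
    have : (a * b) • x - x = (a • (b • x) - b • x) + (b • x - x) := by
      rw [mul_smul]; abel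
    rw [this]
    exact N.add_mem h1 h2
  inv_mem' := by
    intro a ha x
    have h1 := ha (a⁻¹ • x)
    rw [smul_inv_smul] at h1
    have : a⁻¹ • x - x = -(x - a⁻¹ • x) := by abel
    rw [this]
    exact N.neg_mem h1

lemma mem_fixSub {N : Submodule (ZMod p) V} {σ : G} :
    σ ∈ fixSub G N ↔ ∀ x ∈ N, σ • x = x := Iff.rfl

lemma mem_cofixSub {N : Submodule (ZMod p) V} {σ : G} :
    σ ∈ cofixSub G N ↔ ∀ x : V, σ • x - x ∈ N := Iff.rfl

lemma fixSub_normal (N : Submodule (ZMod p) V) (hN : ∀ σ : G, ∀ x ∈ N, σ • x ∈ N) :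
    (fixSub G N).Normal := by
  constructor
  intro n hn g x hx
  have h1 : g⁻¹ • x ∈ N := hN _ _ hx
  have h2 := hn _ h1
  rw [mul_smul, mul_smul, h2, smul_inv_smul]

lemma cofixSub_normal (N : Submodule (ZMod p) V) (hN : ∀ σ : G, ∀ x ∈ N, σ • x ∈ N) :
    (cofixSub G N).Normal := by
  constructor
  intro n hn g x
  have h2 := hn (g⁻¹ • x)
  have h3 := hN g _ h2
  rw [smul_sub, smul_inv_smul] at h3
  rw [mul_smul, mul_smul]
  exact h3

/-- dimension count: a proper nonzero submodule of a module with at most `p ^ 2` elements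
is a line and the ambient module is a plane. -/
lemma finrank_of_ne_bot_ne_top [Finite V] (hcard : Nat.card V ≤ p ^ 2)
    (N : Submodule (ZMod p) V) (h0 : N ≠ ⊥) (h1 : N ≠ ⊤) :
    Module.finrank (ZMod p) N = 1 ∧ Module.finrank (ZMod p) V = 2 := by
  have hV : Nat.card V = p ^ Module.finrank (ZMod p) V := by
    rw [Module.natCard_eq_pow_finrank (K := ZMod p) (V := V), Nat.card_zmod]
  have hle : Module.finrank (ZMod p) V ≤ 2 := by
    rw [hV] at hcard
    exact (Nat.pow_le_pow_iff_right hp.out.one_lt).1 hcard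
  have hlt : Module.finrank (ZMod p) N < Module.finrank (ZMod p) V :=
    Submodule.finrank_lt h1
  have hpos : 0 < Module.finrank (ZMod p) N := by
    rw [Module.finrank_pos_iff]
    exact (Submodule.nontrivial_iff_ne_bot).2 h0
  omega

/-- the linear map `σ - 1`. -/
def Tmap (σ : G) : V →ₗ[ZMod p] V where
  toFun x := σ • x - x
  map_add' x y := by rw [smul_add]; abel
  map_smul' c x := by
    simp only [RingHom.id_apply]
    rw [act_zmod_smul, smul_sub]

lemma Tmap_apply (σ : G) (x : V) : Tmap (p := p) σ x = σ • x - x := rfl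

/-- a submodule of a plane strictly containing a line is everything -/
lemma eq_top_of_lt [Finite V] {N K : Submodule (ZMod p) V}
    (hN : Module.finrank (ZMod p) N = 1) (hV : Module.finrank (ZMod p) V = 2)
    (hlt : N < K) : K = ⊤ := by
  apply Submodule.eq_top_of_finrank_eq
  have h1 := Submodule.finrank_lt_finrank_of_lt hlt
  have h2 := Submodule.finrank_le K
  omega

/-- a submodule of a line is zero or the line -/
lemma eq_bot_or_eq_of_le [Finite V] {N K : Submodule (ZMod p) V}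
    (hN : Module.finrank (ZMod p) N = 1) (hle : K ≤ N) : K = ⊥ ∨ K = N := by
  by_cases h : K = ⊥
  · exact Or.inl h
  right
  apply Submodule.eq_of_le_of_finrank_le hle
  have hpos : 0 < Module.finrank (ZMod p) K := by
    rw [Module.finrank_pos_iff]
    exact (Submodule.nontrivial_iff_ne_bot).2 h
  omega

lemma unipotent_mem [Finite V] (N : Submodule (ZMod p) V)
    (hN : ∀ σ : G, ∀ x ∈ N, σ • x ∈ N)
    (hN1 : Module.finrank (ZMod p) N = 1) (hV : Module.finrank (ZMod p) V = 2)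
    (σ : G) (hu : ∀ x : V, σ • (σ • x - x) = σ • x - x) :
    σ ∈ fixSub G N ∧ σ ∈ cofixSub G N := by
  have hT2 : ∀ x : V, Tmap (p := p) σ (Tmap (p := p) σ x) = 0 := by
    intro x
    rw [Tmap_apply, Tmap_apply, hu, sub_self]
  have hTN : ∀ x ∈ N, Tmap (p := p) σ x ∈ N := fun x hx => N.sub_mem (hN σ x hx) hx
  -- `T` vanishes on `N`
  have hfix : ∀ x ∈ N, Tmap (p := p) σ x = 0 := by
    obtain ⟨n₀, hn₀, hspan⟩ := (finrank_eq_one_iff' (K := ZMod p) (V := N)).1 hN1
    have hn₀' : (n₀ : V) ≠ 0 := fun h => hn₀ (Subtype.ext h)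
    obtain ⟨c, hc⟩ := hspan ⟨Tmap (p := p) σ (n₀ : V), hTN _ n₀.2⟩
    have hc' : c • (n₀ : V) = Tmap (p := p) σ (n₀ : V) := congrArg Subtype.val hc
    have h2 := hT2 (n₀ : V)
    rw [← hc', map_smul, ← hc', smul_smul] at h2
    have hc0 : c = 0 := by
      rcases smul_eq_zero.1 h2 with h | h
      · exact mul_self_eq_zero.1 h
      · exact absurd h hn₀'
    have hTn₀ : Tmap (p := p) σ (n₀ : V) = 0 := by rw [← hc', hc0, zero_smul]
    intro x hx
    obtain ⟨a, ha⟩ := hspan ⟨x, hx⟩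
    have ha' : a • (n₀ : V) = x := congrArg Subtype.val ha
    rw [← ha', map_smul, hTn₀, smul_zero]
  refine ⟨fun x hx => sub_eq_zero.1 (hfix x hx), ?_⟩
  intro x
  change Tmap (p := p) σ x ∈ N
  by_contra hx
  have hle : N ≤ LinearMap.ker (Tmap (p := p) σ) := fun y hy => LinearMap.mem_ker.2 (hfix y hy)
  have hlt : N < LinearMap.ker (Tmap (p := p) σ) := by
    refine lt_of_le_of_ne hle ?_
    intro h
    apply hx
    rw [h]
    exact LinearMap.mem_ker.2 (hT2 x)
  have htop := eq_top_of_lt hN1 hV hlt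
  have : x ∈ LinearMap.ker (Tmap (p := p) σ) := by rw [htop]; trivial
  rw [LinearMap.mem_ker] at this
  rw [this] at hx
  exact hx N.zero_mem

lemma le_fix_or_le_cofix [Finite V] (N : Submodule (ZMod p) V)
    (hN : ∀ σ : G, ∀ x ∈ N, σ • x ∈ N)
    (hN1 : Module.finrank (ZMod p) N = 1) (hV : Module.finrank (ZMod p) V = 2)
    (H : Subgroup G) (L : AddSubgroup V) (hL : L ≠ ⊤)
    (h : ∀ σ ∈ H, ∀ x : V, σ • x - x ∈ L) :
    H ≤ fixSub G N ∨ H ≤ cofixSub G N := by
  set L' : Submodule (ZMod p) V := AddSubgroup.toZModSubmodule p L with hL'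
  have hmem : ∀ x : V, x ∈ L' ↔ x ∈ L := fun x => Iff.rfl
  have hL'top : L' ≠ ⊤ := by
    intro htop
    apply hL
    rw [eq_top_iff]
    intro x _
    rw [← hmem, htop]; trivial
  rcases eq_bot_or_eq_of_le hN1 (inf_le_left : N ⊓ L' ≤ N) with hbot | heq
  · left
    intro σ hσ x hx
    have h1 : σ • x - x ∈ N ⊓ L' := ⟨N.sub_mem (hN σ x hx) hx, (hmem _).2 (h σ hσ x)⟩
    rw [hbot, Submodule.mem_bot] at h1
    exact sub_eq_zero.1 h1
  · right
    have hNL : N ≤ L' := by rw [← heq]; exact inf_le_right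
    have hNL' : N = L' := by
      by_contra hne
      exact hL'top (eq_top_of_lt hN1 hV (lt_of_le_of_ne hNL hne))
    intro σ hσ x
    exact hNL'.ge ((hmem _).2 (h σ hσ x))

end abstract


section frey

open WeierstrassCurve WeierstrassCurve.Affine WeierstrassCurve.Affine.Point

attribute [local instance 100000] AlgebraicClosure.instAlgebra

local notation "Qb" => AlgebraicClosure ℚ
local notation "GQ" => (AlgebraicClosure ℚ ≃ₐ[ℚ] AlgebraicClosure ℚ)

/-- the `p`-torsion of the Frey curve over `Qb` -/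
abbrev Vp (P : FreyPackage) : Type := Submodule.torsionBy ℤ (P.freyCurve⁄Qb).Point P.p

/-- the stabiliser of a point of the curve is open -/
lemma stabilizer_isOpen (P : FreyPackage) (x : Vp P) :
    IsOpen ((MulAction.stabilizer GQ x : Subgroup GQ) : Set GQ) := by
  obtain ⟨Q, hQ⟩ := x
  rcases Q with _ | ⟨a, b, h⟩
  · have : MulAction.stabilizer GQ (⟨Point.zero, hQ⟩ : Vp P) = ⊤ := by
      rw [eq_top_iff]
      intro σ _
      rw [MulAction.mem_stabilizer_iff]
      exact Subtype.ext rfl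
    rw [this]
    exact isOpen_univ
  · have halg : ∀ z ∈ ({a, b} : Set Qb), IsIntegral ℚ z := fun z _ =>
      (AlgebraicClosure.isAlgebraic ℚ).isIntegral.isIntegral z
    haveI : FiniteDimensional ℚ (IntermediateField.adjoin ℚ ({a, b} : Set Qb)) :=
      IntermediateField.finiteDimensional_adjoin halg
    refine Subgroup.isOpen_mono ?_
      (IntermediateField.fixingSubgroup_isOpen (IntermediateField.adjoin ℚ ({a, b} : Set Qb)))
    intro σ hσ
    rw [MulAction.mem_stabilizer_iff]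
    have ha : σ a = a := hσ ⟨a, IntermediateField.subset_adjoin ℚ _ (by simp)⟩
    have hb : σ b = b := hσ ⟨b, IntermediateField.subset_adjoin ℚ _ (by simp)⟩
    apply Subtype.ext
    change Point.map (W' := P.freyCurve) σ.toAlgHom (Point.some a b h) = Point.some a b h
    rw [Point.map_some]
    have ha' : σ.toAlgHom a = a := ha
    have hb' : σ.toAlgHom b = b := hb
    rw [Point.some.injEq]
    exact ⟨ha', hb'⟩


/-- the pointwise stabiliser of the (finite) `p`-torsion is open, hence so is every subgroup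
containing it. -/
lemma isOpen_of_fix (P : FreyPackage) [Finite (Vp P)] (U : Subgroup GQ)
    (hU : ∀ σ : GQ, (∀ x : Vp P, σ • x = x) → σ ∈ U) : IsOpen (U : Set GQ) := by
  have h1 : IsOpen (((⨅ x : Vp P, MulAction.stabilizer GQ x : Subgroup GQ)) : Set GQ) := by
    rw [Subgroup.coe_iInf]
    exact isOpen_iInter_of_finite (fun x => stabilizer_isOpen P x)
  refine Subgroup.isOpen_mono ?_ h1
  intro σ hσ
  apply hU
  intro x
  rw [Subgroup.mem_iInf] at hσ
  exact MulAction.mem_stabilizer_iff.1 (hσ x)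

/-- **Assembly of S13** from its local and global inputs. -/
theorem assembly (P : FreyPackage)
    (hexist : ∃ Q : (P.freyCurve⁄Qb).Point, Q ≠ 0 ∧ P.p • Q = 0)
    (hfin : Finite (Vp P)) (hcard : Nat.card (Vp P) ≤ P.p ^ 2)
    (hMK : ∀ U : Subgroup GQ, IsOpen (U : Set GQ) → U.Normal →
      (∀ q : ℕ, q.Prime → ∃ A : ValuationSubring Qb,
        A.LiesOverPrime q ∧ A.inertiaSubgroupIn ℚ ≤ U) → U = ⊤)
    (hA : ∀ q : ℕ, q.Prime → ∃ A : ValuationSubring Qb, A.LiesOverPrime q)
    (hodd : ∀ q : ℕ, q.Prime → q ≠ 2 → q ≠ P.p → ∀ A : ValuationSubring Qb,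
      A.LiesOverPrime q → ∀ σ ∈ A.inertiaSubgroupIn ℚ, ∀ x : Vp P, σ • x = x)
    (htwo : ∀ A : ValuationSubring Qb, A.LiesOverPrime 2 → ∀ σ ∈ A.inertiaSubgroupIn ℚ,
      ∀ x : Vp P, σ • (σ • x - x) = σ • x - x)
    (hp : ∀ A : ValuationSubring Qb, A.LiesOverPrime P.p →
      ∀ N : AddSubgroup (Vp P), N ≠ ⊥ → N ≠ ⊤ → (∀ σ : GQ, ∀ x ∈ N, σ • x ∈ N) →
        ∃ L : AddSubgroup (Vp P), L ≠ ⊤ ∧
          ∀ σ ∈ A.inertiaSubgroupIn ℚ, ∀ x : Vp P, σ • x - x ∈ L)
    (hrat : ∀ x : Vp P, (∀ σ : GQ, σ • x = x) → x = 0)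
    (hred : ¬ GaloisRepIsIrreducible (K := AlgebraicClosure ℚ) ℚ P.freyCurve P.p) :
    HasGaloisStableCofixedLine (K := AlgebraicClosure ℚ) ℚ P.freyCurve P.p := by
  haveI : Fact P.p.Prime := ⟨P.pp⟩
  haveI := hfin
  -- `V` is nontrivial
  have hnt : Nontrivial (Vp P) := by
    obtain ⟨Q, hQ0, hQ⟩ := hexist
    have hmem : Q ∈ Submodule.torsionBy ℤ (P.freyCurve⁄Qb).Point P.p := by
      rw [Submodule.mem_torsionBy_iff, natCast_zsmul]; exact hQ
    refine ⟨⟨⟨Q, hmem⟩, 0, ?_⟩⟩
    intro h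
    exact hQ0 (congrArg Subtype.val h)
  -- a stable line
  obtain ⟨N, hNst, hN0, hN1⟩ : ∃ N : Submodule (ZMod P.p) (Vp P),
      IsGaloisStable ℚ N ∧ N ≠ ⊥ ∧ N ≠ ⊤ := by
    by_contra hcon
    apply hred
    refine ⟨hnt, fun N hN => ?_⟩
    by_contra h
    rw [not_or] at h
    exact hcon ⟨N, hN, h.1, h.2⟩
  have hNst' : ∀ σ : GQ, ∀ x ∈ N, σ • x ∈ N := hNst
  obtain ⟨hrk1, hrk2⟩ := finrank_of_ne_bot_ne_top hcard N hN0 hN1
  -- the two subgroups
  have hU1n : (fixSub GQ N).Normal := fixSub_normal N hNst'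
  have hU2n : (cofixSub GQ N).Normal := cofixSub_normal N hNst'
  have hU1o : IsOpen ((fixSub GQ N : Subgroup GQ) : Set GQ) :=
    isOpen_of_fix P _ (fun σ hσ x _ => hσ x)
  have hU2o : IsOpen ((cofixSub GQ N : Subgroup GQ) : Set GQ) :=
    isOpen_of_fix P _ (fun σ hσ x => by rw [hσ x, sub_self]; exact N.zero_mem)
  -- inertia at primes different from `p`
  have hne : ∀ q : ℕ, q.Prime → q ≠ P.p → ∀ A : ValuationSubring Qb, A.LiesOverPrime q →
      A.inertiaSubgroupIn ℚ ≤ fixSub GQ N ⊓ cofixSub GQ N := by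
    intro q hq hqp A hAq σ hσ
    by_cases hq2 : q = 2
    · subst hq2
      exact unipotent_mem N hNst' hrk1 hrk2 σ (htwo A hAq σ hσ)
    · have h := hodd q hq hq2 hqp A hAq σ hσ
      exact ⟨fun x _ => h x, fun x => by rw [h x, sub_self]; exact N.zero_mem⟩
  -- inertia at `p`
  obtain ⟨A₀, hA₀⟩ := hA P.p P.pp
  obtain ⟨L, hL, hLσ⟩ := hp A₀ hA₀ N.toAddSubgroup
    (fun h => hN0 (by
      rw [eq_bot_iff]
      intro x hx
      have : x ∈ N.toAddSubgroup := hx
      rw [h] at this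
      exact (Submodule.mem_bot _).2 (AddSubgroup.mem_bot.1 this)))
    (fun h => hN1 (by
      rw [eq_top_iff]
      intro x _
      have : x ∈ N.toAddSubgroup := by rw [h]; trivial
      exact this))
    hNst'
  have key : ∀ U : Subgroup GQ, IsOpen (U : Set GQ) → U.Normal →
      fixSub GQ N ⊓ cofixSub GQ N ≤ U → A₀.inertiaSubgroupIn ℚ ≤ U → U = ⊤ := by
    intro U hUo hUn hle hA₀U
    apply hMK U hUo hUn
    intro q hq
    by_cases hqp : q = P.p
    · subst hqp
      exact ⟨A₀, hA₀, hA₀U⟩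
    · obtain ⟨A, hAq⟩ := hA q hq
      exact ⟨A, hAq, (hne q hq hqp A hAq).trans hle⟩
  rcases le_fix_or_le_cofix N hNst' hrk1 hrk2 (A₀.inertiaSubgroupIn ℚ) L hL hLσ with h1 | h2
  · exfalso
    have htop := key _ hU1o hU1n inf_le_left h1
    apply hN0
    rw [eq_bot_iff]
    intro x hx
    rw [Submodule.mem_bot]
    apply hrat
    intro σ
    have : σ ∈ fixSub GQ N := by rw [htop]; trivial
    exact this x hx
  · have htop := key _ hU2o hU2n inf_le_right h2
    refine ⟨N, hNst, hN0, hN1, fun σ x => ?_⟩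
    have : σ ∈ cofixSub GQ N := by rw [htop]; trivial
    exact this x

end frey

end Fermat.Agent.S13_helper1_ASM
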