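import Mathlib
import Fermat.Prelude.Def_FLTPrelim_Ramification
import Fermat.Agent.S05_helper5_Inertia
import Fermat.Agent.S13_helper25_CP

set_option autoImplicit false

/-!
# S13, piece CP (Galois part): inertia preserves the valuation and fixes `γ`
-/

namespace Fermat.Agent.S13_helper25_CPgal

open WeierstrassCurve WeierstrassCurve.Affine
open Fermat.Agent.S13_helper25_CPcore Fermat.Agent.S13_helper25_CP
open Fermat.Agent.S05_helper5_Inertia

variable {K L : Type*} [Field K] [Field L] [Algebra K L]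

/-- Every element of an algebraic extension has a finite orbit under an automorphism. -/
lemma exists_pow_fix [Algebra.IsAlgebraic K L] (σ : L ≃ₐ[K] L) (z : L) :
    ∃ m : ℕ, 0 < m ∧ (σ ^ m) z = z := by
  have hint : IsIntegral K z := Algebra.IsIntegral.isIntegral z
  have hfin : ((minpoly K z).rootSet L).Finite := Polynomial.rootSet_finite _ _
  have hmem : ∀ k : ℕ, (σ ^ k) z ∈ (minpoly K z).rootSet L := by
    intro k
    rw [Polynomial.mem_rootSet]
    refine ⟨minpoly.ne_zero hint, ?_⟩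
    have := Polynomial.aeval_algHom_apply ((σ ^ k : L ≃ₐ[K] L) : L →ₐ[K] L) z (minpoly K z)
    rw [minpoly.aeval, map_zero] at this
    exact this
  by_contra hcon
  have hcon' : ∀ m : ℕ, 0 < m → (σ ^ m) z ≠ z := fun m hm h => hcon ⟨m, hm, h⟩
  have hinj : Function.Injective (fun k : ℕ => (σ ^ k) z) := by
    have key : ∀ i j : ℕ, i < j → (σ ^ i) z ≠ (σ ^ j) z := by
      intro i j hij h
      have hj : j = i + (j - i) := by omega
      rw [hj, pow_add, AlgEquiv.mul_apply] at h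
      have := (σ ^ i).injective h
      exact hcon' (j - i) (by omega) this.symm
    intro i j hij
    by_contra hne
    rcases Nat.lt_or_gt_of_ne hne with h | h
    · exact key i j h hij
    · exact key j i h hij.symm
  exact Set.infinite_of_injective_forall_mem hinj hmem hfin

variable (A : ValuationSubring L)

lemma inertia_mem_iff {σ : L ≃ₐ[K] L} (hσ : σ ∈ A.inertiaSubgroupIn K) (x : L) :
    σ x ∈ A ↔ x ∈ A := by
  constructor
  · intro h
    have := (inertia_spec_gen A σ⁻¹ (inv_mem hσ) (σ x) h).1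
    rwa [AlgEquiv.aut_inv, AlgEquiv.symm_apply_apply] at this
  · exact fun h => (inertia_spec_gen A σ hσ x h).1

lemma inertia_val_lt_one_iff {σ : L ≃ₐ[K] L} (hσ : σ ∈ A.inertiaSubgroupIn K) (x : L) :
    A.valuation (σ x) < 1 ↔ A.valuation x < 1 := by
  rcases eq_or_ne x 0 with rfl | hx
  · simp
  have hσx : σ x ≠ 0 := (map_ne_zero_iff σ σ.injective).2 hx
  have h1 : ∀ y : L, y ≠ 0 → (A.valuation y < 1 ↔ y⁻¹ ∉ A) := by
    intro y hy
    rw [← A.valuation_le_one_iff, map_inv₀, not_le]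
    have hy0 : 0 < A.valuation y := (A.valuation.pos_iff).2 hy
    rw [one_lt_inv₀ hy0]
  rw [h1 _ hσx, h1 _ hx, ← map_inv₀, inertia_mem_iff A hσ]

lemma inertia_val_lt_iff {σ : L ≃ₐ[K] L} (hσ : σ ∈ A.inertiaSubgroupIn K) (a b : L) :
    A.valuation (σ a) < A.valuation (σ b) ↔ A.valuation a < A.valuation b := by
  rcases eq_or_ne b 0 with rfl | hb
  · simp
  have hσb : σ b ≠ 0 := (map_ne_zero_iff σ σ.injective).2 hb
  have hb0 : 0 < A.valuation b := (A.valuation.pos_iff).2 hb
  have hσb0 : 0 < A.valuation (σ b) := (A.valuation.pos_iff).2 hσb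
  have e1 : A.valuation a < A.valuation b ↔ A.valuation (a / b) < 1 := by
    rw [map_div₀, div_lt_one₀ hb0]
  have e2 : A.valuation (σ a) < A.valuation (σ b) ↔ A.valuation (σ (a / b)) < 1 := by
    rw [map_div₀, map_div₀, div_lt_one₀ hσb0]
  rw [e1, e2, inertia_val_lt_one_iff A hσ]

lemma inertia_val_pow_lt {σ : L ≃ₐ[K] L} (hσ : σ ∈ A.inertiaSubgroupIn K) {z : L}
    (h : A.valuation (σ z) < A.valuation z) (m : ℕ) (hm : 0 < m) :
    A.valuation ((σ ^ m) z) < A.valuation z := by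
  induction m with
  | zero => exact absurd hm (lt_irrefl _)
  | succ m ih =>
    rcases Nat.eq_zero_or_pos m with rfl | hm'
    · simpa using h
    · have h1 := ih hm'
      have h2 : A.valuation (σ ((σ ^ m) z)) < A.valuation (σ z) :=
        (inertia_val_lt_iff A hσ _ _).2 h1
      have e : (σ ^ (m + 1)) z = σ ((σ ^ m) z) := by
        rw [pow_succ', AlgEquiv.mul_apply]
      rw [e]
      exact h2.trans h

/-- **Inertia preserves the valuation** (for an algebraic extension). -/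
theorem inertia_val_eq [Algebra.IsAlgebraic K L] {σ : L ≃ₐ[K] L}
    (hσ : σ ∈ A.inertiaSubgroupIn K) (z : L) : A.valuation (σ z) = A.valuation z := by
  rcases lt_trichotomy (A.valuation (σ z)) (A.valuation z) with h | h | h
  · exfalso
    obtain ⟨m, hm, hfix⟩ := exists_pow_fix (K := K) σ z
    have := inertia_val_pow_lt A hσ h m hm
    rw [hfix] at this
    exact lt_irrefl _ this
  · exact h
  · exfalso
    have hσ' : σ⁻¹ ∈ A.inertiaSubgroupIn K := inv_mem hσ
    have h' : A.valuation (σ⁻¹ (σ z)) < A.valuation (σ z) := by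
      rw [AlgEquiv.aut_inv, AlgEquiv.symm_apply_apply]
      exact h
    obtain ⟨m, hm, hfix⟩ := exists_pow_fix (K := K) σ⁻¹ (σ z)
    have := inertia_val_pow_lt A hσ' h' m hm
    rw [hfix] at this
    exact lt_irrefl _ this

/-- A root of a monic quadratic with integral coefficients is integral. -/
lemma gamma_integral {a₁ a₂ γ : L} (h₁ : A.valuation a₁ ≤ 1) (h₂ : A.valuation a₂ ≤ 1)
    (hγ : γ ^ 2 + a₁ * γ - a₂ = 0) : A.valuation γ ≤ 1 := by
  by_contra hcon
  rw [not_le] at hcon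
  have hpos : 0 < A.valuation γ := lt_trans zero_lt_one hcon
  have e : γ ^ 2 = a₂ - a₁ * γ := by linear_combination hγ
  have hlt : A.valuation (a₂ - a₁ * γ) < A.valuation (γ ^ 2) := by
    rw [map_pow, sq]
    refine A.valuation.map_sub_lt ?_ ?_
    · exact lt_of_le_of_lt h₂ (lt_trans hcon (lt_mul_of_one_lt_left hpos hcon))
    · rw [map_mul]
      exact lt_of_le_of_lt (mul_le_of_le_one_left' h₁) (lt_mul_of_one_lt_left hpos hcon)
  rw [← e] at hlt
  exact lt_irrefl _ hlt

/-- **Inertia fixes `γ`**: the two roots of `T² + a₁ T - a₂` are distinct modulo the maximal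
ideal, and the coefficients are fixed by `σ`. -/
theorem inertia_fixes_gamma {σ : L ≃ₐ[K] L} (hσ : σ ∈ A.inertiaSubgroupIn K)
    {a₁ a₂ γ : L} (hσ₁ : σ a₁ = a₁) (hσ₂ : σ a₂ = a₂)
    (h₁ : A.valuation a₁ ≤ 1) (h₂ : A.valuation a₂ ≤ 1)
    (hγ : γ ^ 2 + a₁ * γ - a₂ = 0) (hδ : A.valuation (2 * γ + a₁) = 1) : σ γ = γ := by
  have hγA : γ ∈ A := (A.valuation_le_one_iff _).1 (gamma_integral A h₁ h₂ hγ)
  have hsmall := (inertia_spec_gen A σ hσ γ hγA).2
  rw [ValuationSubring.mem_nonunits_iff] at hsmall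
  have hσγ : (σ γ) ^ 2 + a₁ * σ γ - a₂ = 0 := by
    have := congrArg σ hγ
    rwa [map_sub, map_add, map_pow, map_mul, hσ₁, hσ₂, map_zero] at this
  have hprod : (σ γ - γ) * (σ γ + γ + a₁) = 0 := by
    linear_combination hσγ - hγ
  rcases mul_eq_zero.1 hprod with h | h
  · exact sub_eq_zero.1 h
  · exfalso
    have e : σ γ - γ = -(2 * γ + a₁) := by linear_combination h
    rw [e, Valuation.map_neg, hδ] at hsmall
    exact lt_irrefl _ hsmall

section Curve

variable [DecidableEq L] [Algebra.IsAlgebraic K L] {W₀ : WeierstrassCurve.Affine K} {γ : L}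

/-- The component map is invariant under inertia. -/
theorem phiN_inertia (hW : NodalModel A.valuation (W₀⁄L) γ)
    (h₁ : A.valuation (W₀⁄L).a₁ ≤ 1) (h₂ : A.valuation (W₀⁄L).a₂ ≤ 1)
    {σ : L ≃ₐ[K] L} (hσ : σ ∈ A.inertiaSubgroupIn K) (P : (W₀⁄L).Point) :
    phiN A.valuation (W₀⁄L) γ (Point.map (W' := W₀) σ.toAlgHom P) =
      phiN A.valuation (W₀⁄L) γ P := by
  have hσ₁ : σ (W₀⁄L).a₁ = (W₀⁄L).a₁ := by
    show σ (algebraMap K L W₀.a₁) = algebraMap K L W₀.a₁
    exact σ.commutes _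
  have hσ₂ : σ (W₀⁄L).a₂ = (W₀⁄L).a₂ := by
    show σ (algebraMap K L W₀.a₂) = algebraMap K L W₀.a₂
    exact σ.commutes _
  exact phiN_map A.valuation σ.toAlgHom (fun z => inertia_val_eq A hσ z)
    (inertia_fixes_gamma A hσ hσ₁ hσ₂ h₁ h₂ hW.hγ hW.hδ) P

/-- For `σ` in the inertia group, `σ P - P` lies in the identity component. -/
theorem inE0_inertia_sub (hW : NodalModel A.valuation (W₀⁄L) γ)
    (h₁ : A.valuation (W₀⁄L).a₁ ≤ 1) (h₂ : A.valuation (W₀⁄L).a₂ ≤ 1)
    {σ : L ≃ₐ[K] L} (hσ : σ ∈ A.inertiaSubgroupIn K) (P : (W₀⁄L).Point) :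
    InE0 A.valuation (Point.map (W' := W₀) σ.toAlgHom P - P) :=
  inE0_sub_of_phiN_eq A.valuation hW (phiN_inertia A hW h₁ h₂ hσ P)

end Curve

end Fermat.Agent.S13_helper25_CPgal
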