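import Mathlib
import Fermat.Prelude.Def_FLTPrelim_Ramification
import Fermat.Agent.S05_helper1_Defs
import Fermat.Agent.S05_helper1_Component
import Fermat.Agent.S05_helper25_Bridge
import Fermat.Agent.S05_helper25_CompTorsion
import Fermat.Agent.S05_helper5_Inertia
import Fermat.Agent.S13_helper25_CPgal

set_option autoImplicit false

/-!
# S13, piece CP (short-model form): kernel and inertia invariance of the S05 component map

For the S05 `ShortModel W s a b` (odd residue characteristic, `v 2 = 1`, `v a = 1`, `v b < 1`,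
`γ ^ 2 = a`) and the S05 component map `phiP v W s (v b) γ`.
-/

namespace Fermat.Agent.S13_helper25_CPshort

open WeierstrassCurve WeierstrassCurve.Affine
open Fermat.Agent.S05_helper1_Defs Fermat.Agent.S05_helper1_Component
open Fermat.Agent.S05_helper25_CompTorsion Fermat.Agent.S05_helper5_Inertia
open Fermat.Agent.S13_helper25_CPgal

variable {K : Type*} [Field K] {Γ₀ : Type*} [LinearOrderedCommGroupWithZero Γ₀]
  (v : Valuation K Γ₀)

/-- The points with nonsingular reduction, in the coordinates of the short model. -/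
def InE0s {W : WeierstrassCurve.Affine K} (s : K) : W.Point → Prop
  | .zero => True
  | .some x _ _ => 1 ≤ v (4 * x - s)

variable {W : WeierstrassCurve.Affine K} {s a b γ : K}

@[simp] lemma inE0s_zero : InE0s v s (0 : W.Point) := trivial

@[simp] lemma inE0s_some {x y : K} (h : W.Nonsingular x y) :
    InE0s v s (Point.some x y h) ↔ 1 ≤ v (4 * x - s) := Iff.rfl

/-- The kernel of the component map is the identity component. -/
theorem inE0s_iff [DecidableEq K] (hb : v b < 1) (hb0 : b ≠ 0) (P : W.Point) :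
    InE0s v s P ↔ ∃ j : ℤ, phiP v W s (v b) γ P = v b ^ (2 * j) := by
  have hβ0 : 0 < v b := (v.pos_iff).2 hb0
  have hanti := zpow_right_strictAnti₀ hβ0 hb
  cases P with
  | zero =>
    refine ⟨fun _ => ⟨0, ?_⟩, fun _ => trivial⟩
    show (1 : Γ₀) = _
    simp
  | some x y h =>
    rw [inE0s_some, phiP_some]
    constructor
    · intro hx
      exact ⟨0, by rw [phiT_of_one_le v hx]; simp⟩
    · rintro ⟨j, hj⟩
      by_contra hx
      rw [not_le] at hx
      by_cases hle : v (4 * x - s) ≤ v b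
      · rw [phiT_of_le v hx hle] at hj
        have h1 : v b ^ (1 : ℤ) = v b ^ (2 * j) := by rw [zpow_one]; exact hj
        have := hanti.injective h1
        omega
      rw [not_le] at hle
      have hx0 : v (4 * x - s) ≠ 0 := (lt_of_le_of_lt zero_le hle).ne'
      have key : ∀ m : ℤ, v (4 * x - s) ≠ v b ^ (2 * m) := by
        intro m hm
        have h0 : v b ^ (2 * m) < v b ^ (0 : ℤ) := by rw [zpow_zero, ← hm]; exact hx
        have h1 : v b ^ (1 : ℤ) < v b ^ (2 * m) := by rw [zpow_one, ← hm]; exact hle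
        have a := (StrictAnti.lt_iff_gt hanti).1 h0
        have b := (StrictAnti.lt_iff_gt hanti).1 h1
        omega
      by_cases hs : v ((8 * y + 4 * x) - γ * (4 * x - s)) < v (4 * x - s)
      · rw [phiT_of_pos v hx hle hs] at hj
        exact key j hj
      · rw [phiT_of_neg v hx hle hs] at hj
        apply key (-j)
        rw [show 2 * -j = -(2 * j) by ring, zpow_neg, ← hj, inv_inv]

theorem inE0s_neg {P : W.Point} (hP : InE0s v s P) : InE0s v s (-P) := by
  cases P with
  | zero => exact hP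
  | some x y h => rw [Point.neg_some]; exact hP

variable [DecidableEq K]

/-- SUB: the component map of a difference. -/
theorem phiP_sub (hW : ShortModel W s a b) (h2 : v 2 = 1) (ha : v a = 1) (hb : v b < 1)
    (hb0 : b ≠ 0) (hγ : γ ^ 2 = a) (P Q : W.Point) :
    ∃ j : ℤ, phiP v W s (v b) γ (P - Q) * phiP v W s (v b) γ Q =
      phiP v W s (v b) γ P * v b ^ (2 * j) := by
  obtain ⟨j, hj⟩ := phiP_add v hW h2 ha hb hb0 hγ (P - Q) Q
  rw [sub_add_cancel] at hj
  refine ⟨-j, ?_⟩
  have hβ : v b ≠ 0 := (v.ne_zero_iff).2 hb0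
  have hj' : v b ^ (2 * j) ≠ 0 := zpow_ne_zero _ hβ
  rw [hj, show 2 * -j = -(2 * j) by ring, zpow_neg, mul_assoc, mul_inv_cancel₀ hj', mul_one]

theorem inE0s_add (hW : ShortModel W s a b) (h2 : v 2 = 1) (ha : v a = 1) (hb : v b < 1)
    (hb0 : b ≠ 0) (hγ : γ ^ 2 = a) {P Q : W.Point} (hP : InE0s v s P) (hQ : InE0s v s Q) :
    InE0s v s (P + Q) := by
  have hβ : v b ≠ 0 := (v.ne_zero_iff).2 hb0
  obtain ⟨i, hi⟩ := (inE0s_iff v (γ := γ) hb hb0 P).1 hP
  obtain ⟨k, hk⟩ := (inE0s_iff v (γ := γ) hb hb0 Q).1 hQ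
  obtain ⟨j, hj⟩ := phiP_add v hW h2 ha hb hb0 hγ P Q
  refine (inE0s_iff v (γ := γ) hb hb0 (P + Q)).2 ⟨i + k + j, ?_⟩
  rw [hj, hi, hk, ← zpow_add₀ hβ, ← zpow_add₀ hβ]
  congr 1
  ring

/-- Two points with the same component differ by a point of the identity component. -/
theorem inE0s_sub_of_phiP_eq (hW : ShortModel W s a b) (h2 : v 2 = 1) (ha : v a = 1)
    (hb : v b < 1) (hb0 : b ≠ 0) (hγ : γ ^ 2 = a) {P Q : W.Point}
    (h : phiP v W s (v b) γ P = phiP v W s (v b) γ Q) : InE0s v s (P - Q) := by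
  have hβ : v b ≠ 0 := (v.ne_zero_iff).2 hb0
  obtain ⟨j, hj⟩ := phiP_sub v hW h2 ha hb hb0 hγ P Q
  refine (inE0s_iff v (γ := γ) hb hb0 (P - Q)).2 ⟨j, ?_⟩
  rw [h] at hj
  have hQ : phiP v W s (v b) γ Q ≠ 0 := phiP_ne_zero v hβ Q
  apply mul_right_cancel₀ hQ
  rw [hj, mul_comm]

/-- The identity component as a subgroup. -/
def E0s (hW : ShortModel W s a b) (h2 : v 2 = 1) (ha : v a = 1) (hb : v b < 1)
    (hb0 : b ≠ 0) (hγ : γ ^ 2 = a) : AddSubgroup W.Point where
  carrier := {P | InE0s v s P}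
  zero_mem' := trivial
  add_mem' := fun hP hQ => inE0s_add v hW h2 ha hb hb0 hγ hP hQ
  neg_mem' := fun hP => inE0s_neg v hP

section Galois

variable {F : Type*} [Field F] [Algebra F K] {W₀ : WeierstrassCurve.Affine F}

/-- The component map is invariant under valuation-preserving automorphisms fixing `γ`, `s`. -/
theorem phiP_map (β : Γ₀) (σ : K →ₐ[F] K) (hv : ∀ z, v (σ z) = v z) (hγ : σ γ = γ)
    (hs : σ s = s) (P : (W₀⁄K).Point) :
    phiP v (W₀⁄K) s β γ (Point.map (W' := W₀) σ P) = phiP v (W₀⁄K) s β γ P := by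
  cases P with
  | zero => rfl
  | some x y h =>
    rw [Point.map_some, phiP_some, phiP_some]
    have e1 : 4 * σ x - s = σ (4 * x - s) := by
      rw [map_sub, map_mul, hs, map_ofNat]
    have e2 : (8 * σ y + 4 * σ x) - γ * (4 * σ x - s) =
        σ ((8 * y + 4 * x) - γ * (4 * x - s)) := by
      simp only [map_sub, map_add, map_mul, hs, hγ, map_ofNat]
    unfold phiT
    rw [e2, e1, hv, hv]

/-- `σ P - P` lies in the identity component. -/
theorem inE0s_map_sub (hW : ShortModel (W₀⁄K) s a b) (h2 : v 2 = 1) (ha : v a = 1)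
    (hb : v b < 1) (hb0 : b ≠ 0) (hγ : γ ^ 2 = a) (σ : K →ₐ[F] K)
    (hv : ∀ z, v (σ z) = v z) (hσγ : σ γ = γ) (hs : σ s = s) (P : (W₀⁄K).Point) :
    InE0s v s (Point.map (W' := W₀) σ P - P) :=
  inE0s_sub_of_phiP_eq v hW h2 ha hb hb0 hγ (phiP_map v (v b) σ hv hσγ hs P)

end Galois

section Inertia

variable {F L : Type*} [Field F] [Field L] [Algebra F L] (A : ValuationSubring L)

/-- Inertia fixes a square root of a fixed unit (odd residue characteristic). -/
theorem inertia_fixes_sqrt {σ : L ≃ₐ[F] L} (hσ : σ ∈ A.inertiaSubgroupIn F)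
    {a γ : L} (hσa : σ a = a) (h2 : A.valuation (2 : L) = 1) (ha : A.valuation a = 1)
    (hγ : γ ^ 2 = a) : σ γ = γ := by
  have h0 : A.valuation (0 : L) ≤ 1 := by simp
  have e : γ ^ 2 + 0 * γ - a = 0 := by rw [hγ]; ring
  have hγ1 : A.valuation γ = 1 := gamma_val A.valuation ha hγ
  have hδ : A.valuation (2 * γ + 0) = 1 := by
    rw [add_zero, map_mul, h2, hγ1, one_mul]
  exact inertia_fixes_gamma A hσ (map_zero σ) hσa h0 ha.le e hδ

variable [DecidableEq L] [Algebra.IsAlgebraic F L] {W₀ : WeierstrassCurve.Affine F}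
  {s a b γ : L}

/-- The S05 component map is invariant under inertia. -/
theorem phiP_inertia (h2 : A.valuation (2 : L) = 1) (ha : A.valuation a = 1)
    (hγ : γ ^ 2 = a) {σ : L ≃ₐ[F] L} (hσ : σ ∈ A.inertiaSubgroupIn F)
    (hσs : σ s = s) (hσa : σ a = a) (β : A.ValueGroup) (P : (W₀⁄L).Point) :
    phiP A.valuation (W₀⁄L) s β γ (Point.map (W' := W₀) σ.toAlgHom P) =
      phiP A.valuation (W₀⁄L) s β γ P :=
  phiP_map A.valuation β σ.toAlgHom (fun z => inertia_val_eq A hσ z)
    (inertia_fixes_sqrt A hσ hσa h2 ha hγ) hσs P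

/-- For `σ` in the inertia group, `σ P - P` lies in the identity component. -/
theorem inE0s_inertia_sub (hW : ShortModel (W₀⁄L) s a b) (h2 : A.valuation (2 : L) = 1)
    (ha : A.valuation a = 1) (hb : A.valuation b < 1) (hb0 : b ≠ 0) (hγ : γ ^ 2 = a)
    {σ : L ≃ₐ[F] L} (hσ : σ ∈ A.inertiaSubgroupIn F) (hσs : σ s = s)
    (P : (W₀⁄L).Point) :
    InE0s A.valuation s (Point.map (W' := W₀) σ.toAlgHom P - P) := by
  have hσa : σ a = a := by
    have e : a = 3 * s + (4 * (W₀⁄L).a₂ + 1) := hW.ha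
    have h2' : σ (W₀⁄L).a₂ = (W₀⁄L).a₂ := by
      show σ (algebraMap F L W₀.a₂) = algebraMap F L W₀.a₂
      exact σ.commutes _
    rw [e]
    simp only [map_add, map_mul, map_ofNat, map_one, hσs, h2']
  exact inE0s_sub_of_phiP_eq A.valuation hW h2 ha hb hb0 hγ
    (phiP_inertia A h2 ha hγ hσ hσs hσa (A.valuation b) P)

end Inertia

end Fermat.Agent.S13_helper25_CPshort
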