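import Mathlib
import Fermat.Statements.S13
import Fermat.Agent.S05_helper5_Frey
import Fermat.Agent.S05_helper6_Kernel
import Fermat.Agent.S54_Frob
import Fermat.Agent.S13_helper19_DPEXIST

set_option autoImplicit false
set_option linter.style.haveILetI false
set_option linter.unusedVariables false

open Polynomial WeierstrassCurve WeierstrassCurve.Affine

namespace Fermat.Agent.S13_helper26_EXVAL

local notation "Qb" => AlgebraicClosure ℚ

section General

variable {K : Type*} [Field K] {Γ₀ : Type*} [LinearOrderedCommGroupWithZero Γ₀]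
  (v : Valuation K Γ₀) (W : WeierstrassCurve K)

/-- At a root `e` of `Ψ₂Sq` where `Ψ₃` is a unit, every odd division polynomial is a unit. -/
theorem val_preΨ'_odd {e : K} (he : W.Ψ₂Sq.eval e = 0) (h3 : v (W.Ψ₃.eval e) = 1) :
    ∀ n : ℕ, Odd n → v ((W.preΨ' n).eval e) = 1 := by
  intro n
  induction n using Nat.strong_induction_on with
  | _ n ih =>
    intro hn
    obtain ⟨k, rfl⟩ := hn
    match k with
    | 0 => simp
    | 1 =>
      show v ((W.preΨ' 3).eval e) = 1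
      rw [preΨ'_three]
      exact h3
    | m + 2 =>
      rw [preΨ'_odd]
      by_cases hm : Even m
      · rw [if_pos hm, if_pos hm]
        simp only [eval_sub, eval_mul, eval_pow, he, mul_one]
        have h1 := ih (m + 1) (by omega) (Even.add_one hm)
        have h2' := ih (m + 3) (by omega) (by
          have : m + 3 = (m + 2) + 1 := rfl
          rw [this]; exact Even.add_one (by simpa [Nat.even_add] using hm))
        simp only [ne_eq, OfNat.ofNat_ne_zero, not_false_eq_true, zero_pow, mul_zero, zero_sub,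
          Valuation.map_neg, map_mul, map_pow, h1, h2', one_pow, mul_one]
      · rw [if_neg hm, if_neg hm]
        simp only [eval_sub, eval_mul, eval_pow, he, mul_one]
        have hodd : Odd m := Nat.not_even_iff_odd.mp hm
        have h1 := ih (m + 4) (by omega) (by
          obtain ⟨j, rfl⟩ := hodd; exact ⟨j + 2, by ring⟩)
        have h2' := ih (m + 2) (by omega) (by
          obtain ⟨j, rfl⟩ := hodd; exact ⟨j + 1, by ring⟩)
        simp only [ne_eq, OfNat.ofNat_ne_zero, not_false_eq_true, zero_pow, mul_zero, sub_zero,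
          map_mul, map_pow, h1, h2', one_pow, mul_one]

/-- A split polynomial whose value at `e` is a unit but whose leading coefficient is not has a
root `r` with `v (e - r) > 1`. -/
theorem exists_root_val_gt [IsAlgClosed K] (f : K[X]) (e : K) (hlc : v f.leadingCoeff < 1)
    (hfe : v (f.eval e) = 1) : ∃ r : K, f.IsRoot r ∧ 1 < v (e - r) := by
  by_contra hcon
  push Not at hcon
  have hf0 : f ≠ 0 := by
    rintro rfl
    simp at hfe
  have hsplit := IsAlgClosed.splits f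
  have hprod := hsplit.eq_prod_roots
  have hev : f.eval e = f.leadingCoeff * (f.roots.map (fun r => e - r)).prod := by
    conv_lhs => rw [hprod]
    rw [eval_mul, eval_C, eval_multiset_prod, Multiset.map_map]
    congr 2
    apply Multiset.map_congr rfl
    intro r _
    simp
  have hle : v (f.roots.map (fun r => e - r)).prod ≤ 1 := by
    rw [map_multiset_prod, Multiset.map_map]
    have := Multiset.prod_le_pow_card (Multiset.map (⇑v ∘ fun r => e - r) f.roots) 1 (by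
      intro x hx
      obtain ⟨r, hr, rfl⟩ := Multiset.mem_map.mp hx
      exact hcon r ((mem_roots hf0).mp hr))
    simpa using this
  have : v (f.eval e) < 1 := by
    rw [hev, map_mul]
    exact mul_lt_one_of_nonneg_of_lt_one_left zero_le hlc hle
  rw [hfe] at this
  exact lt_irrefl _ this

end General


section Frey

open Fermat.Agent.S05_helper5_Frey Fermat.Agent.S05_helper6_Kernel

attribute [local instance 100000] AlgebraicClosure.instAlgebra

variable (P : FreyPackage)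

theorem frey_a₂_eq : (P.freyCurve⁄Qb).a₂ = ((P.b : Qb) ^ P.p - (P.a : Qb) ^ P.p - 1) / 4 := by
  linear_combination (1 / 4 : Qb) * frey_a₂ P

theorem frey_a₄_eq : (P.freyCurve⁄Qb).a₄ = -((P.a : Qb) ^ P.p * (P.b : Qb) ^ P.p) / 16 := by
  linear_combination (1 / 16 : Qb) * frey_a₄ P

theorem frey_Ψ₂Sq_eval (e : Qb) :
    4 * (P.freyCurve⁄Qb).Ψ₂Sq.eval e =
      e * (4 * e - (P.a : Qb) ^ P.p) * (4 * e + (P.b : Qb) ^ P.p) := by
  rw [Fermat.Agent.S13_helper19_DPEXIST.Ψ₂Sq_eval]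
  simp only [WeierstrassCurve.b₂, WeierstrassCurve.b₄, WeierstrassCurve.b₆, frey_a₁, frey_a₃,
    frey_a₆, frey_a₂_eq, frey_a₄_eq]
  ring

theorem frey_Ψ₃_eval (e : Qb) :
    256 * (P.freyCurve⁄Qb).Ψ₃.eval e =
      768 * e ^ 4 + 256 * ((P.b : Qb) ^ P.p - (P.a : Qb) ^ P.p) * e ^ 3
        - 96 * ((P.a : Qb) ^ P.p * (P.b : Qb) ^ P.p) * e ^ 2
        - ((P.a : Qb) ^ P.p * (P.b : Qb) ^ P.p) ^ 2 := by
  rw [Fermat.Agent.S13_helper19_DPEXIST.Ψ₃_eval]
  simp only [WeierstrassCurve.b₂, WeierstrassCurve.b₄, WeierstrassCurve.b₆, WeierstrassCurve.b₈,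
    frey_a₁, frey_a₃, frey_a₆, frey_a₂_eq, frey_a₄_eq]
  ring

theorem frey_Δ : 256 * (P.freyCurve⁄Qb).Δ =
    ((P.a : Qb) ^ P.p * (P.b : Qb) ^ P.p * (P.c : Qb) ^ P.p) ^ 2 := by
  rw [← frey_flt P]
  simp only [WeierstrassCurve.Δ, WeierstrassCurve.b₂, WeierstrassCurve.b₄, WeierstrassCurve.b₆,
    WeierstrassCurve.b₈, frey_a₁, frey_a₃, frey_a₆, frey_a₂_eq, frey_a₄_eq]
  ring

theorem frey_Δ_ne_zero : (P.freyCurve⁄Qb).Δ ≠ 0 := by
  intro h
  have h1 := frey_Δ P
  rw [h, mul_zero] at h1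
  have ha : (P.a : Qb) ≠ 0 := by exact_mod_cast P.ha0
  have hb : (P.b : Qb) ≠ 0 := by exact_mod_cast P.hb0
  have hc : (P.c : Qb) ≠ 0 := by exact_mod_cast P.hc0
  have : ((P.a : Qb) ^ P.p * (P.b : Qb) ^ P.p * (P.c : Qb) ^ P.p) ^ 2 ≠ 0 := by positivity
  exact this h1.symm


theorem frey_val_four (A : ValuationSubring Qb) (hA : A.LiesOverPrime P.p) :
    A.valuation (4 : Qb) = 1 := by
  have h : ¬ P.p ∣ 4 := by
    intro hd
    have h2 : P.p ∣ 2 ^ 2 := by simpa using hd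
    have := (Nat.prime_dvd_prime_iff_eq P.pp Nat.prime_two).1 (P.pp.dvd_of_dvd_pow h2)
    have := P.hp5
    omega
  have := val_natCast_eq_one_of_not_dvd A P.pp hA h
  simpa using this

theorem frey_val_sixteen (A : ValuationSubring Qb) (hA : A.LiesOverPrime P.p) :
    A.valuation (16 : Qb) = 1 := by
  have : (16 : Qb) = 4 * 4 := by norm_num
  rw [this, map_mul, frey_val_four P A hA, one_mul]

theorem frey_val_256 (A : ValuationSubring Qb) (hA : A.LiesOverPrime P.p) :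
    A.valuation (256 : Qb) = 1 := by
  have : (256 : Qb) = 16 * 16 := by norm_num
  rw [this, map_mul, frey_val_sixteen P A hA, one_mul]

theorem frey_a₂_mem (A : ValuationSubring Qb) (hA : A.LiesOverPrime P.p) :
    (P.freyCurve⁄Qb).a₂ ∈ A := by
  rw [← A.valuation_le_one_iff, frey_a₂_eq, map_div₀, frey_val_four P A hA, div_one]
  have := val_intCast_le_one A (P.b ^ P.p - P.a ^ P.p - 1)
  simpa using this

theorem frey_a₄_mem (A : ValuationSubring Qb) (hA : A.LiesOverPrime P.p) :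
    (P.freyCurve⁄Qb).a₄ ∈ A := by
  rw [← A.valuation_le_one_iff, frey_a₄_eq, map_div₀, frey_val_sixteen P A hA, div_one]
  have := val_intCast_le_one A (-(P.a ^ P.p * P.b ^ P.p))
  simpa using this

theorem frey_core [DecidableEq Qb] (A : ValuationSubring Qb) (hA : A.LiesOverPrime P.p)
    (e : Qb) (he : (P.freyCurve⁄Qb).Ψ₂Sq.eval e = 0) (hve : A.valuation e ≤ 1)
    (h3 : A.valuation ((P.freyCurve⁄Qb).Ψ₃.eval e) = 1)
    (hfirst : ∀ (x y : Qb) (h : (P.freyCurve⁄Qb).Nonsingular x y),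
      ((P.freyCurve⁄Qb).preΨ (P.p : ℤ)).eval x = 0 →
        ∃ m : ℕ, 2 ≤ m ∧ m ≤ P.p ∧ m • Point.some (W' := (P.freyCurve⁄Qb)) x y h = 0) :
    ∃ Q : (P.freyCurve⁄Qb).Point, Q ≠ 0 ∧ P.p • Q = 0 := by
  have hp0 : ((P.p : ℕ) : Qb) ≠ 0 := by exact_mod_cast P.hp0
  have hodd := P.hp_odd
  have hnev : ¬ Even P.p := Nat.not_even_iff_odd.mpr hodd
  have hfe : A.valuation (((P.freyCurve⁄Qb).preΨ' P.p).eval e) = 1 :=
    val_preΨ'_odd A.valuation (P.freyCurve⁄Qb) he h3 P.p hodd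
  have hlc : ((P.freyCurve⁄Qb).preΨ' P.p).leadingCoeff = (P.p : Qb) := by
    rw [leadingCoeff_preΨ' (P.freyCurve⁄Qb) hp0, if_neg hnev]
  have hvp : A.valuation (P.p : Qb) < 1 := (ValuationSubring.mem_nonunits_iff A).1 hA
  obtain ⟨r, hr, hvr⟩ := exists_root_val_gt A.valuation ((P.freyCurve⁄Qb).preΨ' P.p) e
    (by rw [hlc]; exact hvp) hfe
  have hr1 : 1 < A.valuation r := by
    by_contra hcon
    push Not at hcon
    have := A.valuation.map_sub_le hve hcon
    exact absurd hvr (not_lt.mpr this)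
  obtain ⟨y, hy⟩ := Fermat.Agent.S13_helper19_DPEXIST.exists_point_of_X (P.freyCurve⁄Qb)
    (frey_Δ_ne_zero P) r
  obtain ⟨m, hm2, hmp, hm0⟩ := hfirst r y hy (by
    rw [(P.freyCurve⁄Qb).preΨ_ofNat]; exact hr)
  have hmeq : m = P.p := by
    by_contra hne
    have hlt : m < P.p := lt_of_le_of_ne hmp hne
    have hndvd : ¬ P.p ∣ m := fun hd => absurd (Nat.le_of_dvd (by omega) hd) (by omega)
    have hvm : A.valuation (m : Qb) = 1 := val_natCast_eq_one_of_not_dvd A P.pp hA hndvd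
    refine kernel_torsion_free A (P.freyCurve⁄Qb) ?_ (frey_a₂_mem P A hA) ?_ (frey_a₄_mem P A hA) ?_
      m hvm hy ?_ hm0
    · rw [frey_a₁]; exact A.one_mem
    · rw [frey_a₃]; exact A.zero_mem
    · rw [frey_a₆]; exact A.zero_mem
    · rw [← A.valuation_le_one_iff]; exact not_le.mpr hr1
  refine ⟨Point.some r y hy, Point.some_ne_zero hy, ?_⟩
  rw [← hmeq]; exact hm0

theorem frey_torsion_exists_aux [DecidableEq Qb]
    (hfirst : ∀ (x y : Qb) (h : (P.freyCurve⁄Qb).Nonsingular x y),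
      ((P.freyCurve⁄Qb).preΨ (P.p : ℤ)).eval x = 0 →
        ∃ m : ℕ, 2 ≤ m ∧ m ≤ P.p ∧ m • Point.some (W' := (P.freyCurve⁄Qb)) x y h = 0) :
    ∃ Q : (P.freyCurve⁄Qb).Point, Q ≠ 0 ∧ P.p • Q = 0 := by
  obtain ⟨A, hA, -⟩ := Fermat.Agent.S54Frob.exists_frobenius P.p P.pp
  have h256 := frey_val_256 P A hA
  have h4 := frey_val_four P A hA
  have key : ∀ e X Y : Qb, 256 * (P.freyCurve⁄Qb).Ψ₃.eval e = -(X * Y) ^ 2 →
      A.valuation X = 1 → A.valuation Y = 1 →
      A.valuation ((P.freyCurve⁄Qb).Ψ₃.eval e) = 1 := by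
    intro e X Y h hX hY
    have := congrArg A.valuation h
    rw [map_mul, h256, one_mul, Valuation.map_neg, map_pow, map_mul, hX, hY] at this
    simpa using this
  have hA' : ∀ t : ℤ, ¬ (P.p : ℤ) ∣ t → A.valuation ((t : Qb) ^ P.p) = 1 :=
    fun t ht => val_intCast_pow_eq_one_of_not_dvd A P.pp hA ht P.p
  have h40 : (4 : Qb) ≠ 0 := by norm_num
  by_cases hpa : (P.p : ℤ) ∣ P.a
  · -- `p ∣ a`: take `e = -b^p/4`
    have hb : ¬ (P.p : ℤ) ∣ P.b := not_dvd_of_gcd_eq_one P.pp P.hgcdab hpa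
    have hc : ¬ (P.p : ℤ) ∣ P.c := not_dvd_of_gcd_eq_one P.pp P.hgcdac hpa
    refine frey_core P A hA (-(P.b : Qb) ^ P.p / 4) ?_ ?_ ?_ hfirst
    · have := frey_Ψ₂Sq_eval P (-(P.b : Qb) ^ P.p / 4)
      have h0 : 4 * (-(P.b : Qb) ^ P.p / 4) + (P.b : Qb) ^ P.p = 0 := by ring
      rw [h0, mul_zero] at this
      exact (mul_eq_zero.mp this).resolve_left h40
    · rw [map_div₀, h4, div_one, Valuation.map_neg, hA' _ hb]
    · refine key _ ((P.b : Qb) ^ P.p) ((P.c : Qb) ^ P.p) ?_ (hA' _ hb) (hA' _ hc)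
      rw [frey_Ψ₃_eval, ← frey_flt P]
      ring
  · by_cases hpb : (P.p : ℤ) ∣ P.b
    · -- `p ∣ b`: take `e = a^p/4`
      have hc : ¬ (P.p : ℤ) ∣ P.c := not_dvd_of_gcd_eq_one P.pp P.hgcdbc hpb
      refine frey_core P A hA ((P.a : Qb) ^ P.p / 4) ?_ ?_ ?_ hfirst
      · have := frey_Ψ₂Sq_eval P ((P.a : Qb) ^ P.p / 4)
        have h0 : 4 * ((P.a : Qb) ^ P.p / 4) - (P.a : Qb) ^ P.p = 0 := by ring
        rw [h0, mul_zero, zero_mul] at this
        exact (mul_eq_zero.mp this).resolve_left h40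
      · rw [map_div₀, h4, div_one, hA' _ hpa]
      · refine key _ ((P.a : Qb) ^ P.p) ((P.c : Qb) ^ P.p) ?_ (hA' _ hpa) (hA' _ hc)
        rw [frey_Ψ₃_eval, ← frey_flt P]
        ring
    · -- `p ∤ ab`: take `e = 0`
      refine frey_core P A hA 0 ?_ ?_ ?_ hfirst
      · have := frey_Ψ₂Sq_eval P 0
        rw [zero_mul, zero_mul] at this
        exact (mul_eq_zero.mp this).resolve_left h40
      · simp
      · refine key _ ((P.a : Qb) ^ P.p) ((P.b : Qb) ^ P.p) ?_ (hA' _ hpa) (hA' _ hpb)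
        rw [frey_Ψ₃_eval]
        ring

end Frey

/-- **DP-EXIST-VAL**: the Frey curve has a nonzero `p`-torsion point over `ℚ̄`, given the
first-zero lemma for the `p`-th division polynomial. -/
theorem frey_torsion_exists (P : FreyPackage)
    (hfirst : ∀ (x y : Qb) (h : (P.freyCurve⁄Qb).Nonsingular x y),
      ((P.freyCurve⁄Qb).preΨ (P.p : ℤ)).eval x = 0 →
        ∃ m : ℕ, 2 ≤ m ∧ m ≤ P.p ∧ m • Point.some x y h = 0) :
    ∃ Q : (P.freyCurve⁄Qb).Point, Q ≠ 0 ∧ P.p • Q = 0 :=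
  frey_torsion_exists_aux P hfirst

end Fermat.Agent.S13_helper26_EXVAL
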