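import Mathlib
import Fermat.Prelude.Def_FLTPrelim_Ramification
import Fermat.Agent.S13_helper26_MKLIFT
import Fermat.Agent.S13_helper28_MKRAM

set_option autoImplicit false
set_option linter.unusedVariables false

namespace Fermat.Agent.S13_helper26_MK

/-- MK-final (step (2c) of the S13 plan): an open normal subgroup `U` of `G_ℚ` which contains,
for every prime `q`, the inertia group of SOME valuation subring of `ℚ̄` over `q`, is the whole
group (Minkowski: `ℚ` has no nontrivial extension unramified everywhere). -/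
theorem MK_final (U : Subgroup (AlgebraicClosure ℚ ≃ₐ[ℚ] AlgebraicClosure ℚ))
    (hU : IsOpen (U : Set (AlgebraicClosure ℚ ≃ₐ[ℚ] AlgebraicClosure ℚ))) (hN : U.Normal)
    (h : ∀ q : ℕ, q.Prime → ∃ A : ValuationSubring (AlgebraicClosure ℚ),
      A.LiesOverPrime q ∧ A.inertiaSubgroupIn ℚ ≤ U) : U = ⊤ := by
  by_contra hne
  obtain ⟨q, hq, hram⟩ := Fermat.Agent.S13_helper28_MKRAM.MK_ramified U hU hN hne
  obtain ⟨A, hA, hIA⟩ := h q hq
  obtain ⟨σ₀, hσ₀, hσ₀'⟩ := hram A hA
  obtain ⟨σ, hσ, hσU⟩ := Fermat.Agent.S13_helper26_MKLIFT.MK_lift U hU hN A q hq hA σ₀ hσ₀'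
  apply hσ₀
  have h1 : σ ∈ U := hIA hσ
  have h2 : σ₀⁻¹ ∈ U := by
    have := U.mul_mem hσU (U.inv_mem h1)
    simpa using this
  simpa using U.inv_mem h2

end Fermat.Agent.S13_helper26_MK
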