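import Mathlib
import Fermat.Agent.S13_helper29_BIQ

/-!
# S13 pieces DP-G + DP-FIRST + DP-X (helper27): the EDS induction

For a nonsingular affine point `P = (x, y)` on a Weierstrass curve over a field and the values
`aₖ := ψₖ(x, y)` of Mathlib's division polynomials we prove, for `N` such that `k • P ≠ 0` for
`1 ≤ k ≤ N`:

* `aₖ ≠ 0` for `1 ≤ k ≤ N`;
* `(x(k • P) - x) aₖ² = - aₖ₊₁ aₖ₋₁`, i.e. `x(k • P) = Φₖ(x) / ΨSqₖ(x)`, for `1 ≤ k ≤ N`;
* `a_{N+1} = 0 ↔ (N + 1) • P = 0`.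

The proof is the induction on the symmetric addition biquadratic: the sequence `b` defined by
`b₁ = 1`, `b₂ = ψ₂(P)`, `bₖ₊₁ = (x(P) - x(k • P)) bₖ² / bₖ₋₁` satisfies
`x(m • P) - x(n • P) = - b_{m+n} b_{m-n} / (b_m b_n)²`, hence the recursions defining `normEDS`.
-/

namespace Fermat.Agent.S13_helper27_DPG

open Polynomial WeierstrassCurve WeierstrassCurve.Affine
open Fermat.Agent.S13_helper29_BIQ

variable {K : Type*} [Field K]

/-! ### Algebraic cores -/

/-- Algebraic core of the induction step `G(m,n-1), G(m,n) ⟹ G(m,n+1)`. -/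
theorem step_alg
    (Xm Xn X1 Xs Xd Xn1 Xn' : K)
    (bm bn bs bd bs1 bs' bd1 bd' bn1 bn' : K)
    (hbm : bm ≠ 0) (hbn : bn ≠ 0) (hbs : bs ≠ 0) (hbd : bd ≠ 0)
    (hbn' : bn' ≠ 0) (hbs' : bs' ≠ 0) (hbd1 : bd1 ≠ 0) (_hbn1 : bn1 ≠ 0)
    (E1 : (Xm - Xn) * (bm * bn) ^ 2 = -(bs * bd))
    (E2 : (Xs - X1) * bs ^ 2 = -(bs1 * bs'))
    (E3 : (Xd - X1) * bd ^ 2 = -(bd1 * bd'))
    (E4 : (Xn - X1) * bn ^ 2 = -(bn1 * bn'))
    (E5 : (Xm - Xn') * (bm * bn') ^ 2 = -(bs' * bd1))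
    (E6 : (Xm - Xn) ^ 2 * (X1 - Xs) * (X1 - Xd)
        = (Xn - X1) ^ 2 * (Xm - Xn1) * (Xm - Xn')) :
    (Xm - Xn1) * (bm * bn1) ^ 2 = -(bs1 * bd') := by
  have h1 : Xm - Xn = -(bs * bd) / (bm * bn) ^ 2 := by
    rw [eq_div_iff (by positivity)]; exact E1
  have h2 : X1 - Xs = (bs1 * bs') / bs ^ 2 := by
    rw [eq_div_iff (by positivity)]; linear_combination -E2
  have h3 : X1 - Xd = (bd1 * bd') / bd ^ 2 := by
    rw [eq_div_iff (by positivity)]; linear_combination -E3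
  have h4 : Xn - X1 = -(bn1 * bn') / bn ^ 2 := by
    rw [eq_div_iff (by positivity)]; exact E4
  have h5 : Xm - Xn' = -(bs' * bd1) / (bm * bn') ^ 2 := by
    rw [eq_div_iff (by positivity)]; exact E5
  rw [h1, h2, h3, h4, h5] at E6
  field_simp at E6
  linear_combination E6

/-- Algebraic core of the base case `G(m,2)` (from the degenerate biquadratic). -/
theorem base_alg
    (Xm X1 X2 Xm1 Xm' : K)
    (bm b2 bm1 bm' bm2 bm'' : K)
    (hbm : bm ≠ 0) (hbm1 : bm1 ≠ 0) (hbm' : bm' ≠ 0)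
    (E1 : (Xm - X1) * bm ^ 2 = -(bm1 * bm'))
    (E2 : (Xm1 - X1) * bm1 ^ 2 = -(bm2 * bm))
    (E3 : (Xm' - X1) * bm' ^ 2 = -(bm * bm''))
    (E6 : (Xm - X1) ^ 2 * (X1 - Xm1) * (X1 - Xm') = -(b2 ^ 2 * (Xm - X2))) :
    (Xm - X2) * (bm * b2) ^ 2 = -(bm2 * bm'') := by
  have h1 : Xm - X1 = -(bm1 * bm') / bm ^ 2 := by
    rw [eq_div_iff (by positivity)]; exact E1
  have h2 : X1 - Xm1 = (bm2 * bm) / bm1 ^ 2 := by
    rw [eq_div_iff (by positivity)]; linear_combination -E2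
  have h3 : X1 - Xm' = (bm * bm'') / bm' ^ 2 := by
    rw [eq_div_iff (by positivity)]; linear_combination -E3
  rw [h1, h2, h3] at E6
  field_simp at E6
  linear_combination E6

/-! ### The abstract induction -/

/-- Abstract geometric data for the EDS induction: `X k` plays the role of `x(k • P)` and
`b k` of the `k`-th division polynomial evaluated at `P`, for indices up to `N`. -/
structure GeomData (N : ℕ) (X b : ℕ → K) : Prop where
  b1 : b 1 = 1
  bne : ∀ k, 1 ≤ k → k ≤ N → b k ≠ 0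
  G1 : ∀ m, 2 ≤ m → m ≤ N → (X m - X 1) * b m ^ 2 = -(b (m + 1) * b (m - 1))
  three : ∀ m n, 2 ≤ n → n + 2 ≤ m → m + n ≤ N →
      (X m - X n) ^ 2 * (X 1 - X (m + n)) * (X 1 - X (m - n))
        = (X n - X 1) ^ 2 * (X m - X (n + 1)) * (X m - X (n - 1))
  diag : ∀ m, 3 ≤ m → m + 1 ≤ N →
      (X m - X 1) ^ 2 * (X 1 - X (m + 1)) * (X 1 - X (m - 1)) = -(b 2 ^ 2 * (X m - X 2))

/-- The relation `G(m,n)`: `x(mP) - x(nP) = - b_{m+n} b_{m-n} / (b_m b_n)²`. -/
theorem GeomData.G {N : ℕ} {X b : ℕ → K} (D : GeomData N X b) :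
    ∀ n m, 1 ≤ n → n < m → m + n ≤ N + 1 →
      (X m - X n) * (b m * b n) ^ 2 = -(b (m + n) * b (m - n)) := by
  intro n
  induction n using Nat.strong_induction_on with
  | _ n ih =>
    intro m hn hnm hmn
    rcases Nat.lt_or_ge n 2 with h2 | h2
    · -- n = 1
      obtain rfl : n = 1 := by omega
      have := D.G1 m (by omega) (by omega)
      rw [D.b1, mul_one]
      exact this
    rcases Nat.lt_or_ge n 3 with h3 | h3
    · -- n = 2
      obtain rfl : n = 2 := by omega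
      have E1 := D.G1 m (by omega) (by omega)
      have E2 := D.G1 (m + 1) (by omega) (by omega)
      have E3 := D.G1 (m - 1) (by omega) (by omega)
      have E6 := D.diag m (by omega) (by omega)
      have e1 : m + 1 - 1 = m := by omega
      have e2 : m - 1 + 1 = m := by omega
      have e3 : m - 1 - 1 = m - 2 := by omega
      have e4 : m + 1 + 1 = m + 2 := by omega
      rw [e1, e4] at E2
      rw [e2, e3] at E3
      exact base_alg (X m) (X 1) (X 2) (X (m + 1)) (X (m - 1)) (b m) (b 2) (b (m + 1)) (b (m - 1))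
        (b (m + 2)) (b (m - 2)) (D.bne m (by omega) (by omega)) (D.bne _ (by omega) (by omega))
        (D.bne _ (by omega) (by omega)) E1 E2 E3 E6
    · -- n ≥ 3: write n = n' + 1 with n' ≥ 2
      obtain ⟨n', rfl⟩ : ∃ n', n = n' + 1 := ⟨n - 1, by omega⟩
      have E1 := ih n' (by omega) m (by omega) (by omega) (by omega)
      have E5 := ih (n' - 1) (by omega) m (by omega) (by omega) (by omega)
      have E2 := D.G1 (m + n') (by omega) (by omega)
      have E3 := D.G1 (m - n') (by omega) (by omega)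
      have E4 := D.G1 n' (by omega) (by omega)
      have E6 := D.three m n' (by omega) (by omega) (by omega)
      have e5a : m + (n' - 1) = m + n' - 1 := by omega
      have e5b : m - (n' - 1) = m - n' + 1 := by omega
      have e3b : m - n' - 1 = m - (n' + 1) := by omega
      have e2a : m + n' + 1 = m + (n' + 1) := by omega
      rw [e5a, e5b] at E5
      rw [e3b] at E3
      rw [e2a] at E2
      exact step_alg (X m) (X n') (X 1) (X (m + n')) (X (m - n')) (X (n' + 1)) (X (n' - 1))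
        (b m) (b n') (b (m + n')) (b (m - n')) (b (m + (n' + 1))) (b (m + n' - 1))
        (b (m - n' + 1)) (b (m - (n' + 1))) (b (n' + 1)) (b (n' - 1))
        (D.bne _ (by omega) (by omega)) (D.bne _ (by omega) (by omega))
        (D.bne _ (by omega) (by omega)) (D.bne _ (by omega) (by omega))
        (D.bne _ (by omega) (by omega)) (D.bne _ (by omega) (by omega))
        (D.bne _ (by omega) (by omega)) (D.bne _ (by omega) (by omega)) E1 E2 E3 E4 E5 E6

/-- Odd EDS recursion for the geometric sequence. -/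
theorem GeomData.odd_rec {N : ℕ} {X b : ℕ → K} (D : GeomData N X b) (m : ℕ) (hm : 2 ≤ m)
    (hmN : 2 * m ≤ N) :
    b (2 * m + 1) = b (m + 2) * b m ^ 3 - b (m - 1) * b (m + 1) ^ 3 := by
  have E := D.G m (m + 1) (by omega) (by omega) (by omega)
  have E1 := D.G1 m hm (by omega)
  have E2 := D.G1 (m + 1) (by omega) (by omega)
  have e1 : m + 1 + m = 2 * m + 1 := by omega
  have e2 : m + 1 - m = 1 := by omega
  have e3 : m + 1 + 1 = m + 2 := by omega
  have e4 : m + 1 - 1 = m := by omega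
  rw [e1, e2, D.b1, mul_one] at E
  rw [e3, e4] at E2
  have hbm := D.bne m (by omega) (by omega)
  have hbm1 := D.bne (m + 1) (by omega) (by omega)
  have h1 : X m - X 1 = -(b (m + 1) * b (m - 1)) / b m ^ 2 := by
    rw [eq_div_iff (by positivity)]; exact E1
  have h2 : X (m + 1) - X 1 = -(b (m + 2) * b m) / b (m + 1) ^ 2 := by
    rw [eq_div_iff (by positivity)]; exact E2
  have h3 : X (m + 1) - X m = (X (m + 1) - X 1) - (X m - X 1) := by ring
  rw [h3, h1, h2] at E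
  field_simp at E
  linear_combination E

/-- Even EDS recursion for the geometric sequence. -/
theorem GeomData.even_rec {N : ℕ} {X b : ℕ → K} (D : GeomData N X b) (m : ℕ) (hm : 3 ≤ m)
    (hmN : 2 * m ≤ N + 1) :
    b (2 * m) * b 2 =
      b (m - 1) ^ 2 * b m * b (m + 2) - b (m - 2) * b m * b (m + 1) ^ 2 := by
  have E := D.G (m - 1) (m + 1) (by omega) (by omega) (by omega)
  have E1 := D.G1 (m - 1) (by omega) (by omega)
  have E2 := D.G1 (m + 1) (by omega) (by omega)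
  have e1 : m + 1 + (m - 1) = 2 * m := by omega
  have e2 : m + 1 - (m - 1) = 2 := by omega
  have e3 : m + 1 + 1 = m + 2 := by omega
  have e4 : m + 1 - 1 = m := by omega
  have e5 : m - 1 + 1 = m := by omega
  have e6 : m - 1 - 1 = m - 2 := by omega
  rw [e1, e2] at E
  rw [e3, e4] at E2
  rw [e5, e6] at E1
  have hbm := D.bne (m - 1) (by omega) (by omega)
  have hbm1 := D.bne (m + 1) (by omega) (by omega)
  have h1 : X (m - 1) - X 1 = -(b m * b (m - 2)) / b (m - 1) ^ 2 := by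
    rw [eq_div_iff (by positivity)]; exact E1
  have h2 : X (m + 1) - X 1 = -(b (m + 2) * b m) / b (m + 1) ^ 2 := by
    rw [eq_div_iff (by positivity)]; exact E2
  have h3 : X (m + 1) - X (m - 1) = (X (m + 1) - X 1) - (X (m - 1) - X 1) := by ring
  rw [h3, h1, h2] at E
  field_simp at E
  linear_combination E

/-- A sequence satisfying the normalised EDS recursions up to index `M` (with `b 2 ≠ 0`
if `M ≥ 6`) coincides with `normEDS` up to `M`. -/
theorem eq_normEDS_of_rec (M : ℕ) (b : ℕ → K) (β c d : K)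
    (h0 : b 0 = 0) (h1 : b 1 = 1) (h2 : 2 ≤ M → b 2 = β) (h3 : 3 ≤ M → b 3 = c)
    (h4 : 4 ≤ M → b 4 = d * β) (hβ : 6 ≤ M → β ≠ 0)
    (hodd : ∀ m, 2 ≤ m → 2 * m + 1 ≤ M →
      b (2 * m + 1) = b (m + 2) * b m ^ 3 - b (m - 1) * b (m + 1) ^ 3)
    (heven : ∀ m, 3 ≤ m → 2 * m ≤ M →
      b (2 * m) * b 2 = b (m - 1) ^ 2 * b m * b (m + 2) - b (m - 2) * b m * b (m + 1) ^ 2) :
    ∀ k, k ≤ M → b k = normEDS β c d (k : ℤ) := by
  intro k
  induction k using Nat.strong_induction_on with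
  | _ k ih =>
    intro hk
    rcases Nat.lt_or_ge k 5 with h5 | h5
    · interval_cases k
      · simp [h0]
      · simp [h1]
      · simp [h2 hk]
      · simp [h3 hk]
      · simp [h4 hk]
    rcases Nat.even_or_odd' k with ⟨m, rfl | rfl⟩
    · -- k = 2m, m ≥ 3
      have hm : 3 ≤ m := by omega
      have hβ' : β ≠ 0 := hβ (by omega)
      have key := heven m hm hk
      rw [ih (m - 1) (by omega) (by omega), ih m (by omega) (by omega),
        ih (m + 2) (by omega) (by omega), ih (m - 2) (by omega) (by omega),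
        ih (m + 1) (by omega) (by omega), ih 2 (by omega) (by omega)] at key
      have hE := normEDS_even β c d (m : ℤ)
      have c1 : ((m - 1 : ℕ) : ℤ) = (m : ℤ) - 1 := by omega
      have c2 : ((m - 2 : ℕ) : ℤ) = (m : ℤ) - 2 := by omega
      have c3 : ((m + 2 : ℕ) : ℤ) = (m : ℤ) + 2 := by omega
      have c4 : ((m + 1 : ℕ) : ℤ) = (m : ℤ) + 1 := by omega
      have c5 : ((2 * m : ℕ) : ℤ) = 2 * (m : ℤ) := by omega
      rw [c1, c2, c3, c4] at key
      rw [c5]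
      have : ((2 : ℕ) : ℤ) = 2 := rfl
      rw [this, normEDS_two] at key
      apply mul_right_cancel₀ hβ'
      rw [key, hE]
    · -- k = 2m+1, m ≥ 2
      have hm : 2 ≤ m := by omega
      have key := hodd m hm hk
      rw [ih (m - 1) (by omega) (by omega), ih m (by omega) (by omega),
        ih (m + 2) (by omega) (by omega),
        ih (m + 1) (by omega) (by omega)] at key
      have hE := normEDS_odd β c d (m : ℤ)
      have c1 : ((m - 1 : ℕ) : ℤ) = (m : ℤ) - 1 := by omega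
      have c3 : ((m + 2 : ℕ) : ℤ) = (m : ℤ) + 2 := by omega
      have c4 : ((m + 1 : ℕ) : ℤ) = (m : ℤ) + 1 := by omega
      have c5 : ((2 * m + 1 : ℕ) : ℤ) = 2 * (m : ℤ) + 1 := by omega
      rw [c1, c3, c4] at key
      rw [c5, key, hE]

/-! ### The geometric sequence -/

/-- The geometric sequence: `b 1 = 1`, `b 2 = β`, `b (k+1) = (X 1 - X k) b k ^ 2 / b (k-1)`. -/
def bseq (X : ℕ → K) (β : K) : ℕ → K
  | 0 => 0
  | 1 => 1
  | 2 => β
  | (k + 3) => (X 1 - X (k + 2)) * bseq X β (k + 2) ^ 2 / bseq X β (k + 1)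

@[simp] theorem bseq_zero (X : ℕ → K) (β : K) : bseq X β 0 = 0 := by rw [bseq]
@[simp] theorem bseq_one (X : ℕ → K) (β : K) : bseq X β 1 = 1 := by rw [bseq]
@[simp] theorem bseq_two (X : ℕ → K) (β : K) : bseq X β 2 = β := by rw [bseq]

theorem bseq_add_three (X : ℕ → K) (β : K) (k : ℕ) :
    bseq X β (k + 3) = (X 1 - X (k + 2)) * bseq X β (k + 2) ^ 2 / bseq X β (k + 1) := by
  rw [bseq]

theorem bseq_succ (X : ℕ → K) (β : K) (m : ℕ) (hm : 2 ≤ m) :
    bseq X β (m + 1) = (X 1 - X m) * bseq X β m ^ 2 / bseq X β (m - 1) := by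
  obtain ⟨k, rfl⟩ : ∃ k, m = k + 2 := ⟨m - 2, by omega⟩
  exact bseq_add_three X β k

theorem bseq_ne_zero (X : ℕ → K) (β : K) (N : ℕ) (hβ : 2 ≤ N → β ≠ 0)
    (hX : ∀ m, 2 ≤ m → m + 1 ≤ N → X 1 ≠ X m) :
    ∀ k, 1 ≤ k → k ≤ N → bseq X β k ≠ 0 := by
  intro k
  induction k using Nat.strong_induction_on with
  | _ k ih =>
    intro hk hkN
    rcases Nat.lt_or_ge k 3 with h3 | h3
    · interval_cases k
      · simp
      · simpa using hβ hkN
    · obtain ⟨m, rfl⟩ : ∃ m, k = m + 1 := ⟨k - 1, by omega⟩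
      rw [bseq_succ X β m (by omega)]
      have h1 := ih m (by omega) (by omega) (by omega)
      have h2 := ih (m - 1) (by omega) (by omega) (by omega)
      have h3 := sub_ne_zero.mpr (hX m (by omega) (by omega))
      positivity

theorem bseq_G1 (X : ℕ → K) (β : K) (m : ℕ) (hm : 2 ≤ m) (hb : bseq X β (m - 1) ≠ 0) :
    (X m - X 1) * bseq X β m ^ 2 = -(bseq X β (m + 1) * bseq X β (m - 1)) := by
  rw [bseq_succ X β m hm]
  field_simp
  ring

/-! ### `x`-coordinates of points -/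

section Geometric

variable (W : WeierstrassCurve.Affine K)

/-- The `x`-coordinate of a point (junk value `0` at infinity). -/
def xc : W.Point → K
  | .zero => 0
  | .some x _ _ => x

@[simp] theorem xc_some {x y : K} (h : W.Nonsingular x y) : xc W (Point.some x y h) = x := rfl

theorem exists_some_of_ne_zero {P : W.Point} (hP : P ≠ 0) :
    ∃ (x y : K) (h : W.Nonsingular x y), P = Point.some x y h := by
  cases P with
  | zero => exact absurd rfl hP
  | some x y h => exact ⟨x, y, h, rfl⟩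

/-- A nonzero point is the affine point with `x`-coordinate `xc W P`. -/
theorem exists_eq_some_xc {P : W.Point} (hP : P ≠ 0) :
    ∃ (v : K) (hv : W.Nonsingular (xc W P) v), P = Point.some (xc W P) v hv := by
  obtain ⟨x, y, h, rfl⟩ := exists_some_of_ne_zero W hP
  exact ⟨y, h, rfl⟩

theorem xc_neg (P : W.Point) : xc W (-P) = xc W P := by
  cases P with
  | zero => rfl
  | some x y h => rfl

/-- Two affine points with the same `x`-coordinate are equal or opposite. -/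
theorem eq_or_eq_neg_of_xc_eq {P Q : W.Point} (hP : P ≠ 0) (hQ : Q ≠ 0)
    (h : xc W P = xc W Q) : P = Q ∨ P = -Q := by
  obtain ⟨x₁, y₁, h₁, rfl⟩ := exists_some_of_ne_zero W hP
  obtain ⟨x₂, y₂, h₂, rfl⟩ := exists_some_of_ne_zero W hQ
  exact Point.X_eq_iff.mp h

variable [DecidableEq K]

theorem xc_ne_of_add_sub_ne_zero {P Q : W.Point} (hP : P ≠ 0) (hQ : Q ≠ 0)
    (h1 : P + Q ≠ 0) (h2 : P - Q ≠ 0) : xc W P ≠ xc W Q := by
  intro h
  rcases eq_or_eq_neg_of_xc_eq W hP hQ h with e | e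
  · exact h2 (by rw [e, sub_self])
  · exact h1 (by rw [e, neg_add_cancel])

/-- The biquadratic factorises over the `x`-coordinates of the sum and the difference. -/
theorem biqF_factor {P Q : W.Point} (hP : P ≠ 0) (hQ : Q ≠ 0) (hx : xc W P ≠ xc W Q) (C : K) :
    biqF W (xc W P) (xc W Q) C
      = (xc W P - xc W Q) ^ 2 * (C - xc W (P + Q)) * (C - xc W (P - Q)) := by
  obtain ⟨x₁, y₁, h₁, rfl⟩ := exists_some_of_ne_zero W hP
  obtain ⟨x₂, y₂, h₂, rfl⟩ := exists_some_of_ne_zero W hQ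
  simp only [xc_some] at hx ⊢
  obtain ⟨u, v, u', v', hu, hu', hadd, hsub, hs, hp, -, -⟩ := exists_add_sub W h₁ h₂ hx
  rw [hadd, hsub, xc_some, xc_some]
  have hd : (x₁ - x₂) ^ 2 ≠ 0 := pow_ne_zero 2 (sub_ne_zero.mpr hx)
  have hS : biqS W x₁ x₂ = (u + u') * (x₁ - x₂) ^ 2 := by rw [hs]; field_simp
  have hT : biqT W x₁ x₂ = (u * u') * (x₁ - x₂) ^ 2 := by rw [hp]; field_simp
  rw [biqF, hS, hT]; ring

/-- `x`-coordinates of the multiples of a point. -/
def Xseq (P : W.Point) (k : ℕ) : K := xc W (k • P)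

theorem Xseq_one (P : W.Point) : Xseq W P 1 = xc W P := by
  rw [Xseq, one_nsmul]

section Multiples

variable {W}
variable {P : W.Point} {N : ℕ} (hN : ∀ k, 1 ≤ k → k ≤ N → k • P ≠ 0)
include hN

theorem nsmul_sub_nsmul_ne_zero (m n : ℕ) (hn : n < m) (hm : m ≤ N) :
    m • P - n • P ≠ 0 := by
  have : m • P - n • P = (m - n) • P := by
    rw [sub_nsmul P hn.le, sub_eq_add_neg]
  rw [this]
  exact hN _ (by omega) (by omega)

theorem nsmul_add_nsmul_ne_zero (m n : ℕ) (hm : 1 ≤ m) (hmn : m + n ≤ N) :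
    m • P + n • P ≠ 0 := by
  rw [← add_nsmul]
  exact hN _ (by omega) (by omega)

theorem Xseq_ne (m n : ℕ) (hn : 1 ≤ n) (hnm : n < m) (hmn : m + n ≤ N) :
    Xseq W P m ≠ Xseq W P n :=
  xc_ne_of_add_sub_ne_zero W (hN m (by omega) (by omega)) (hN n hn (by omega))
    (nsmul_add_nsmul_ne_zero hN m n (by omega) hmn)
    (nsmul_sub_nsmul_ne_zero hN m n hnm (by omega))

theorem Xseq_factor (m n : ℕ) (hn : 1 ≤ n) (hnm : n < m) (hmn : m + n ≤ N) (C : K) :
    biqF W (Xseq W P m) (Xseq W P n) C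
      = (Xseq W P m - Xseq W P n) ^ 2 * (C - Xseq W P (m + n)) * (C - Xseq W P (m - n)) := by
  have := biqF_factor W (hN m (by omega) (by omega)) (hN n hn (by omega))
    (Xseq_ne hN m n hn hnm hmn) C
  rw [← add_nsmul, show m • P - n • P = (m - n) • P by
    rw [sub_nsmul P hnm.le, sub_eq_add_neg]] at this
  exact this

theorem Xseq_three (m n : ℕ) (hn : 2 ≤ n) (hnm : n + 2 ≤ m) (hmn : m + n ≤ N) :
    (Xseq W P m - Xseq W P n) ^ 2 * (Xseq W P 1 - Xseq W P (m + n))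
        * (Xseq W P 1 - Xseq W P (m - n))
      = (Xseq W P n - Xseq W P 1) ^ 2 * (Xseq W P m - Xseq W P (n + 1))
        * (Xseq W P m - Xseq W P (n - 1)) := by
  rw [← Xseq_factor hN m n (by omega) (by omega) hmn (Xseq W P 1),
    ← Xseq_factor hN n 1 (by omega) (by omega) (by omega) (Xseq W P m)]
  exact biqF_rot W _ _ _

end Multiples

section Main

variable {W}
variable {x y : K} (h : W.Nonsingular x y) {N : ℕ}
  (hN : ∀ k, 1 ≤ k → k ≤ N → k • Point.some x y h ≠ 0)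
include hN

theorem beta_ne_zero (h2 : 2 ≤ N) : y - W.negY x y ≠ 0 := by
  intro e
  exact hN 2 (by omega) h2 ((two_nsmul_eq_zero_iff W h).mpr (sub_eq_zero.mp e))

theorem Xseq_two_mul (h2 : 2 ≤ N) :
    Xseq W (Point.some x y h) 2 * W.Ψ₂Sq.eval x = (W.Φ 2).eval x := by
  have hy : y ≠ W.negY x y := sub_ne_zero.mp (beta_ne_zero h hN h2)
  obtain ⟨hD, v, hv, e⟩ := exists_two_nsmul W h hy
  rw [Xseq, e, xc_some]
  field_simp

theorem Xseq_diag (m : ℕ) (hm : 3 ≤ m) (hmN : m + 1 ≤ N) :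
    (Xseq W (Point.some x y h) m - Xseq W (Point.some x y h) 1) ^ 2
        * (Xseq W (Point.some x y h) 1 - Xseq W (Point.some x y h) (m + 1))
        * (Xseq W (Point.some x y h) 1 - Xseq W (Point.some x y h) (m - 1))
      = -((y - W.negY x y) ^ 2
        * (Xseq W (Point.some x y h) m - Xseq W (Point.some x y h) 2)) := by
  rw [← Xseq_factor hN m 1 (by omega) (by omega) (by omega) (Xseq W (Point.some x y h) 1)]
  rw [Xseq_one, xc_some, biqF_diag, ← Ψ₂Sq_eval W h.1, ← Xseq_two_mul h hN (by omega)]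
  ring

/-- The multiples of a point of order `> N` give geometric data. -/
theorem geomData :
    GeomData N (Xseq W (Point.some x y h))
      (bseq (Xseq W (Point.some x y h)) (y - W.negY x y)) where
  b1 := bseq_one _ _
  bne := bseq_ne_zero _ _ N (beta_ne_zero h hN)
    (fun m hm hmN => (Xseq_ne hN m 1 (by omega) (by omega) (by omega)).symm)
  G1 := fun m hm hmN => bseq_G1 _ _ m hm
    (bseq_ne_zero _ _ N (beta_ne_zero h hN)
      (fun m hm hmN => (Xseq_ne hN m 1 (by omega) (by omega) (by omega)).symm)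
      (m - 1) (by omega) (by omega))
  three := fun m n hn hnm hmn => Xseq_three hN m n hn hnm hmn
  diag := fun m hm hmN => by
    rw [bseq_two]
    exact Xseq_diag h hN m hm hmN

theorem bseq_three (h2 : 2 ≤ N) :
    bseq (Xseq W (Point.some x y h)) (y - W.negY x y) 3 = W.Ψ₃.eval x := by
  have e := Xseq_two_mul h hN h2
  have hβ := beta_ne_zero h hN h2
  have hΨ : W.Ψ₂Sq.eval x ≠ 0 := by rw [Ψ₂Sq_eval W h.1]; positivity
  have e2 : Xseq W (Point.some x y h) 2 = (W.Φ 2).eval x / W.Ψ₂Sq.eval x := by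
    rw [eq_div_iff hΨ]; exact e
  rw [bseq_succ _ _ 2 le_rfl, bseq_two, show 2 - 1 = 1 from rfl, bseq_one, Xseq_one, xc_some,
    e2, Φ_two_eval, ← Ψ₂Sq_eval W h.1]
  field_simp
  ring

theorem bseq_four (h3 : 3 ≤ N) :
    bseq (Xseq W (Point.some x y h)) (y - W.negY x y) 4
      = W.preΨ₄.eval x * (y - W.negY x y) := by
  have hβ := beta_ne_zero h hN (by omega)
  have hy : y ≠ W.negY x y := sub_ne_zero.mp hβ
  have h3' : W.Ψ₃.eval x ≠ 0 := fun e =>
    hN 3 (by omega) h3 ((three_nsmul_eq_zero_iff W h hy).mpr e)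
  obtain ⟨v, hv, e⟩ := exists_three_nsmul W h hy h3'
  have e3 : Xseq W (Point.some x y h) 3
      = x - W.Ψ₂Sq.eval x * W.preΨ₄.eval x / W.Ψ₃.eval x ^ 2 := by
    rw [Xseq, e, xc_some]
  rw [bseq_succ _ _ 3 (by omega), bseq_three h hN (by omega), show 3 - 1 = 2 from rfl, bseq_two,
    Xseq_one, xc_some, e3, Ψ₂Sq_eval W h.1]
  field_simp
  ring

/-- The geometric sequence is the normalised EDS, up to index `N + 1`. -/
theorem bseq_eq_normEDS (k : ℕ) (hk : k ≤ N + 1) :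
    bseq (Xseq W (Point.some x y h)) (y - W.negY x y) k
      = normEDS (y - W.negY x y) (W.Ψ₃.eval x) (W.preΨ₄.eval x) (k : ℤ) := by
  have D := geomData h hN
  exact eq_normEDS_of_rec (N + 1) _ _ _ _ (bseq_zero _ _) (bseq_one _ _)
    (fun _ => bseq_two _ _) (fun h3 => bseq_three h hN (by omega))
    (fun h4 => bseq_four h hN (by omega)) (fun h6 => beta_ne_zero h hN (by omega))
    (fun m hm hmN => D.odd_rec m hm (by omega))
    (fun m hm hmN => D.even_rec m hm hmN) k hk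

end Main

end Geometric

/-! ### Values of division polynomials at points -/

section Eval

variable (W : WeierstrassCurve.Affine K)

/-- Value of the bivariate division polynomial `ψₙ` at a pair `(x, y)`. -/
theorem evalEval_ψ (x y : K) (n : ℤ) :
    (W.ψ n).evalEval x y
      = normEDS (y - W.negY x y) (W.Ψ₃.eval x) (W.preΨ₄.eval x) n := by
  have h1 : (W.ψ₂).evalEval x y = y - W.negY x y := by
    rw [WeierstrassCurve.ψ₂, evalEval_polynomialY, negY]; ring
  rw [WeierstrassCurve.ψ, ← coe_evalEvalRingHom, map_normEDS, coe_evalEvalRingHom, h1,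
    evalEval_C, evalEval_C]

/-- On the curve, `ψₙ(x, y) = preΨₙ(x) * (ψ₂(x, y) if n is even)`. -/
theorem evalEval_ψ_eq_preΨ {x y : K} (h : W.Equation x y) (n : ℤ) :
    (W.ψ n).evalEval x y
      = (W.preΨ n).eval x * (if Even n then y - W.negY x y else 1) := by
  rw [evalEval_ψ, normEDS, WeierstrassCurve.preΨ]
  congr 1
  rw [← coe_evalRingHom, map_preNormEDS, coe_evalRingHom, eval_pow, Ψ₂Sq_eval W h]
  congr 1
  ring

theorem evalEval_ψ_sq {x y : K} (h : W.Equation x y) (n : ℤ) :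
    (W.ψ n).evalEval x y ^ 2 = (W.ΨSq n).eval x := by
  rw [evalEval_ψ_eq_preΨ W h, WeierstrassCurve.ΨSq, mul_pow, eval_mul, eval_pow]
  congr 1
  split_ifs
  · rw [Ψ₂Sq_eval W h]
  · simp

theorem evalEval_ψ_mul {x y : K} (h : W.Equation x y) (n : ℤ) :
    (W.ψ (n + 1)).evalEval x y * (W.ψ (n - 1)).evalEval x y
      = (W.preΨ (n + 1)).eval x * (W.preΨ (n - 1)).eval x
        * (if Even n then 1 else W.Ψ₂Sq.eval x) := by
  rw [evalEval_ψ_eq_preΨ W h, evalEval_ψ_eq_preΨ W h, Ψ₂Sq_eval W h]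
  by_cases hn : Even n
  · have h1 : ¬ Even (n + 1) := by rw [Int.even_add_one]; exact not_not.mpr hn
    have h2 : ¬ Even (n - 1) := by rw [Int.even_sub_one]; exact not_not.mpr hn
    rw [if_neg h1, if_neg h2, if_pos hn]
    ring
  · have h1 : Even (n + 1) := by rw [Int.even_add_one]; exact hn
    have h2 : Even (n - 1) := by rw [Int.even_sub_one]; exact hn
    rw [if_pos h1, if_pos h2, if_neg hn]
    ring

/-- `Φₙ(x) = x ψₙ² - ψₙ₊₁ ψₙ₋₁` on the curve. -/
theorem eval_Φ {x y : K} (h : W.Equation x y) (n : ℤ) :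
    (W.Φ n).eval x = x * (W.ψ n).evalEval x y ^ 2
      - (W.ψ (n + 1)).evalEval x y * (W.ψ (n - 1)).evalEval x y := by
  rw [evalEval_ψ_sq W h, evalEval_ψ_mul W h, WeierstrassCurve.Φ]
  simp only [eval_sub, eval_mul, eval_X]
  congr 2
  split_ifs <;> simp

/-- For odd `n`, `ψₙ(x, y) = preΨₙ(x)` on the curve. -/
theorem evalEval_ψ_of_odd {x y : K} (h : W.Equation x y) {n : ℤ} (hn : Odd n) :
    (W.ψ n).evalEval x y = (W.preΨ n).eval x := by
  rw [evalEval_ψ_eq_preΨ W h, if_neg (Int.not_even_iff_odd.mpr hn), mul_one]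

end Eval

section Final

variable {W : WeierstrassCurve.Affine K} [DecidableEq K] {x y : K} (h : W.Nonsingular x y)

/-- **DP-G (1)**: if `k • P ≠ 0` for `1 ≤ k ≤ N` then `ψₖ(P) ≠ 0` for `1 ≤ k ≤ N`. -/
theorem psi_ne_zero_of_nsmul_ne_zero {N : ℕ}
    (hN : ∀ k, 1 ≤ k → k ≤ N → k • Point.some x y h ≠ 0) (k : ℕ) (hk1 : 1 ≤ k) (hkN : k ≤ N) :
    (W.ψ (k : ℤ)).evalEval x y ≠ 0 := by
  rw [evalEval_ψ, ← bseq_eq_normEDS h hN k (by omega)]
  exact (geomData h hN).bne k hk1 hkN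

/-- **DP-G (2)**: if `k • P ≠ 0` for `1 ≤ k ≤ N` then
`(x(k • P) - x) ψₖ(P)² = - ψₖ₊₁(P) ψₖ₋₁(P)` for `1 ≤ k ≤ N`. -/
theorem xc_nsmul_sub_mul {N : ℕ}
    (hN : ∀ k, 1 ≤ k → k ≤ N → k • Point.some x y h ≠ 0) (k : ℕ) (hk1 : 1 ≤ k) (hkN : k ≤ N) :
    (xc W (k • Point.some x y h) - x) * (W.ψ (k : ℤ)).evalEval x y ^ 2
      = -((W.ψ ((k : ℤ) + 1)).evalEval x y * (W.ψ ((k : ℤ) - 1)).evalEval x y) := by
  rcases Nat.lt_or_ge k 2 with h2 | h2
  · obtain rfl : k = 1 := by omega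
    simp
  · have G := (geomData h hN).G1 k h2 hkN
    rw [bseq_eq_normEDS h hN k (by omega), bseq_eq_normEDS h hN (k + 1) (by omega),
      bseq_eq_normEDS h hN (k - 1) (by omega), Xseq_one, xc_some] at G
    rw [evalEval_ψ, evalEval_ψ, evalEval_ψ]
    have c1 : ((k + 1 : ℕ) : ℤ) = (k : ℤ) + 1 := by omega
    have c2 : ((k - 1 : ℕ) : ℤ) = (k : ℤ) - 1 := by omega
    rw [c1, c2] at G
    exact G

/-- **DP-G (2')**: the general relation
`(x(m • P) - x(n • P)) (ψ_m ψ_n)² = - ψ_{m+n} ψ_{m-n}`. -/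
theorem xc_nsmul_sub_xc_nsmul_mul {N : ℕ}
    (hN : ∀ k, 1 ≤ k → k ≤ N → k • Point.some x y h ≠ 0) (m n : ℕ) (hn : 1 ≤ n) (hnm : n < m)
    (hmn : m + n ≤ N + 1) :
    (xc W (m • Point.some x y h) - xc W (n • Point.some x y h))
        * ((W.ψ (m : ℤ)).evalEval x y * (W.ψ (n : ℤ)).evalEval x y) ^ 2
      = -((W.ψ ((m : ℤ) + n)).evalEval x y * (W.ψ ((m : ℤ) - n)).evalEval x y) := by
  have G := (geomData h hN).G n m hn hnm hmn
  rw [bseq_eq_normEDS h hN m (by omega), bseq_eq_normEDS h hN n (by omega),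
    bseq_eq_normEDS h hN (m + n) (by omega), bseq_eq_normEDS h hN (m - n) (by omega)] at G
  rw [evalEval_ψ, evalEval_ψ, evalEval_ψ, evalEval_ψ]
  have c1 : ((m + n : ℕ) : ℤ) = (m : ℤ) + n := by omega
  have c2 : ((m - n : ℕ) : ℤ) = (m : ℤ) - n := by omega
  rw [c1, c2] at G
  exact G

/-- **DP-X** (pointwise): `x(k • P) ΨSqₖ(x) = Φₖ(x)`. -/
theorem xc_nsmul_mul_ΨSq {N : ℕ}
    (hN : ∀ k, 1 ≤ k → k ≤ N → k • Point.some x y h ≠ 0) (k : ℕ) (hk1 : 1 ≤ k) (hkN : k ≤ N) :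
    xc W (k • Point.some x y h) * (W.ΨSq (k : ℤ)).eval x = (W.Φ (k : ℤ)).eval x := by
  have e := xc_nsmul_sub_mul h hN k hk1 hkN
  rw [eval_Φ W h.1, ← evalEval_ψ_sq W h.1]
  linear_combination e

/-- **DP-FIRST (a)**: if `k • P ≠ 0` for `1 ≤ k ≤ N` then `ψ_{N+1}(P) = 0 ↔ (N+1) • P = 0`. -/
theorem psi_succ_eq_zero_iff {N : ℕ}
    (hN : ∀ k, 1 ≤ k → k ≤ N → k • Point.some x y h ≠ 0) :
    (W.ψ ((N : ℤ) + 1)).evalEval x y = 0 ↔ (N + 1) • Point.some x y h = 0 := by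
  have c1 : ((N : ℤ) + 1) = ((N + 1 : ℕ) : ℤ) := by omega
  rw [c1, evalEval_ψ, ← bseq_eq_normEDS h hN (N + 1) le_rfl]
  rcases Nat.lt_or_ge N 2 with h2 | h2
  · interval_cases N
    · simp [Point.some_ne_zero]
    · rw [bseq_two, sub_eq_zero, ← two_nsmul_eq_zero_iff W h]
  · have D := geomData h hN
    rw [bseq_succ _ _ N h2, div_eq_zero_iff, mul_eq_zero, sub_eq_zero, Xseq_one]
    have hb1 := D.bne N (by omega) le_rfl
    have hb2 := D.bne (N - 1) (by omega) (by omega)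
    have hP : Point.some x y h ≠ 0 := Point.some_ne_zero h
    constructor
    · rintro ((e | e) | e)
      · rcases eq_or_eq_neg_of_xc_eq W hP (hN N (by omega) le_rfl) e with e' | e'
        · exfalso
          apply hN (N - 1) (by omega) (by omega)
          rw [sub_nsmul _ (by omega : 1 ≤ N), one_nsmul, ← e', add_neg_cancel]
        · have e'' : N • Point.some x y h = -Point.some x y h := by
            rw [eq_neg_iff_add_eq_zero, add_comm, ← eq_neg_iff_add_eq_zero]; exact e'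
          rw [succ_nsmul, e'', neg_add_cancel]
      · exact absurd (pow_eq_zero_iff (two_ne_zero) |>.mp e) hb1
      · exact absurd e hb2
    · intro e
      left; left
      rw [succ_nsmul] at e
      rw [Xseq, eq_neg_of_add_eq_zero_left e, xc_neg]

/-- **DP-FIRST (b)**: a point of exact order `n` is a zero of `ψₙ`. -/
theorem psi_eq_zero_of_exact_order {n : ℕ} (hn : 1 ≤ n) (hP : n • Point.some x y h = 0)
    (hmin : ∀ k, 1 ≤ k → k < n → k • Point.some x y h ≠ 0) :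
    (W.ψ (n : ℤ)).evalEval x y = 0 := by
  obtain ⟨N, rfl⟩ : ∃ N, n = N + 1 := ⟨n - 1, by omega⟩
  have := (psi_succ_eq_zero_iff h (N := N) (fun k hk1 hkN => hmin k hk1 (by omega))).mpr hP
  have c1 : ((N : ℤ) + 1) = ((N + 1 : ℕ) : ℤ) := by omega
  rwa [c1] at this

/-- If `ψₖ(P) ≠ 0` for `1 ≤ k ≤ N` then `k • P ≠ 0` for `1 ≤ k ≤ N`. -/
theorem nsmul_ne_zero_of_psi_ne_zero {N : ℕ}
    (hne : ∀ k : ℕ, 1 ≤ k → k ≤ N → (W.ψ (k : ℤ)).evalEval x y ≠ 0) :
    ∀ k, 1 ≤ k → k ≤ N → k • Point.some x y h ≠ 0 := by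
  intro k
  induction k using Nat.strong_induction_on with
  | _ k ih =>
    intro hk1 hkN e
    exact hne k hk1 hkN
      (psi_eq_zero_of_exact_order h hk1 e (fun j hj1 hjk => ih j hjk hj1 (by omega)))

/-- **DP-FIRST (c)**: the first zero of `k ↦ ψₖ(P)` is the exact order of `P`. -/
theorem nsmul_eq_zero_of_first_zero {m : ℕ} (hm : 1 ≤ m)
    (hne : ∀ k : ℕ, 1 ≤ k → k < m → (W.ψ (k : ℤ)).evalEval x y ≠ 0)
    (h0 : (W.ψ (m : ℤ)).evalEval x y = 0) :
    m • Point.some x y h = 0 ∧ ∀ k, 1 ≤ k → k < m → k • Point.some x y h ≠ 0 := by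
  obtain ⟨N, rfl⟩ : ∃ N, m = N + 1 := ⟨m - 1, by omega⟩
  have hN := nsmul_ne_zero_of_psi_ne_zero h (N := N) (fun k hk1 hkN => hne k hk1 (by omega))
  refine ⟨(psi_succ_eq_zero_iff h hN).mp ?_, fun k hk1 hkm => hN k hk1 (by omega)⟩
  have c1 : ((N : ℤ) + 1) = ((N + 1 : ℕ) : ℤ) := by omega
  rwa [c1]

/-- `n • P = 0 ↔ ψₙ(P) = 0` as long as the earlier `ψₖ(P)` do not vanish. -/
theorem nsmul_eq_zero_iff_of_psi_ne_zero {n : ℕ} (hn : 1 ≤ n)
    (hne : ∀ k : ℕ, 1 ≤ k → k < n → (W.ψ (k : ℤ)).evalEval x y ≠ 0) :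
    n • Point.some x y h = 0 ↔ (W.ψ (n : ℤ)).evalEval x y = 0 := by
  constructor
  · intro e
    have hN := nsmul_ne_zero_of_psi_ne_zero h (N := n - 1)
      (fun k hk1 hkN => hne k hk1 (by omega))
    exact psi_eq_zero_of_exact_order h hn e (fun k hk1 hkn => hN k hk1 (by omega))
  · intro e
    exact (nsmul_eq_zero_of_first_zero h hn hne e).1

/-- For a prime `p`: `p • P = 0` (with `P` affine) implies `ψ_p(P) = 0`. -/
theorem psi_eq_zero_of_prime_nsmul {p : ℕ} (hp : p.Prime) (hP : p • Point.some x y h = 0) :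
    (W.ψ (p : ℤ)).evalEval x y = 0 := by
  apply psi_eq_zero_of_exact_order h hp.one_le hP
  intro k hk1 hkp e
  have h1 : addOrderOf (Point.some x y h) ∣ p := addOrderOf_dvd_iff_nsmul_eq_zero.mpr hP
  have h2 : addOrderOf (Point.some x y h) ∣ k := addOrderOf_dvd_iff_nsmul_eq_zero.mpr e
  rcases (Nat.dvd_prime hp).mp h1 with h3 | h3
  · exact Point.some_ne_zero h (AddMonoid.addOrderOf_eq_one_iff.mp h3)
  · rw [h3] at h2
    exact absurd (Nat.le_of_dvd (by omega) h2) (by omega)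

/-- For an odd prime `p`: `p • P = 0` (with `P = (x, y)` affine) implies `preΨ_p(x) = 0`. -/
theorem preΨ_eval_eq_zero_of_prime_nsmul {p : ℕ} (hp : p.Prime) (hp2 : p ≠ 2)
    (hP : p • Point.some x y h = 0) : (W.preΨ (p : ℤ)).eval x = 0 := by
  have hodd : Odd (p : ℤ) := by
    have := hp.odd_of_ne_two hp2
    exact_mod_cast this
  rw [← evalEval_ψ_of_odd W h.1 hodd]
  exact psi_eq_zero_of_prime_nsmul h hp hP

end Final

/-! ### DP-X -/

section DPXpoint

variable {W : WeierstrassCurve.Affine K} [DecidableEq K] {x y : K} (h : W.Nonsingular x y)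

/-- **DP-X** (pointwise, in terms of `ΨSq`): if `ΨSqₖ(x) ≠ 0` for `1 ≤ k ≤ n` then `n • P` is
affine and its `x`-coordinate `x'` satisfies `x' ΨSqₙ(x) = Φₙ(x)`. -/
theorem exists_nsmul_eq_some {n : ℕ} (hn : 1 ≤ n)
    (hne : ∀ k : ℕ, 1 ≤ k → k ≤ n → (W.ΨSq (k : ℤ)).eval x ≠ 0) :
    ∃ (x' y' : K) (h' : W.Nonsingular x' y'),
      n • Point.some x y h = Point.some x' y' h' ∧
        x' * (W.ΨSq (n : ℤ)).eval x = (W.Φ (n : ℤ)).eval x := by
  have hψ : ∀ k : ℕ, 1 ≤ k → k ≤ n → (W.ψ (k : ℤ)).evalEval x y ≠ 0 := by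
    intro k hk1 hkn e
    apply hne k hk1 hkn
    rw [← evalEval_ψ_sq W h.1, e]
    simp
  have hN := nsmul_ne_zero_of_psi_ne_zero h hψ
  obtain ⟨v, hv, e⟩ := exists_eq_some_xc W (hN n hn le_rfl)
  exact ⟨_, v, hv, e, xc_nsmul_mul_ΨSq h hN n hn le_rfl⟩

end DPXpoint

section DPX

variable (W : WeierstrassCurve.Affine K)

/-- The polynomial whose non-vanishing at `x` guarantees `k • (x, y) ≠ 0` for `1 ≤ k ≤ n`. -/
noncomputable def badPoly (n : ℕ) : K[X] := ∏ k ∈ Finset.Icc 1 n, W.ΨSq (k : ℤ)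

theorem badPoly_ne_zero (n : ℕ) (hchar : ∀ k : ℕ, 1 ≤ k → k ≤ n → (k : K) ≠ 0) :
    badPoly W n ≠ 0 := by
  rw [badPoly, Finset.prod_ne_zero_iff]
  intro k hk
  rw [Finset.mem_Icc] at hk
  apply W.ΨSq_ne_zero
  have := hchar k hk.1 hk.2
  exact_mod_cast this

theorem ΨSq_eval_ne_zero_of_badPoly {n : ℕ} {x : K} (hx : (badPoly W n).eval x ≠ 0) (k : ℕ)
    (hk1 : 1 ≤ k) (hkn : k ≤ n) : (W.ΨSq (k : ℤ)).eval x ≠ 0 := by
  rw [badPoly, eval_prod, Finset.prod_ne_zero_iff] at hx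
  exact hx k (Finset.mem_Icc.mpr ⟨hk1, hkn⟩)

variable [DecidableEq K]

/-- **DP-X** in the shape of the hypothesis `hX` of `S13_helper19_DPEXIST.DP_EXIST`. -/
theorem DP_X (n : ℕ) (hn : 1 ≤ n) (hchar : ∀ k : ℕ, 1 ≤ k → k ≤ n → (k : K) ≠ 0) :
    ∃ B : K[X], B ≠ 0 ∧ ∀ (x y : K) (h : W.Nonsingular x y), B.eval x ≠ 0 →
      ∃ (x' y' : K) (h' : W.Nonsingular x' y'),
        n • (Point.some (W' := W) x y h) = Point.some (W' := W) x' y' h' ∧
          x' * (W.ΨSq (n : ℤ)).eval x = (W.Φ (n : ℤ)).eval x :=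
  ⟨badPoly W n, badPoly_ne_zero W n hchar, fun _ _ h hB =>
    exists_nsmul_eq_some h hn (ΨSq_eval_ne_zero_of_badPoly W hB)⟩

/-- **DP-X** in characteristic zero. -/
theorem DP_X_charZero [CharZero K] (n : ℕ) (hn : 1 ≤ n) :
    ∃ B : K[X], B ≠ 0 ∧ ∀ (x y : K) (h : W.Nonsingular x y), B.eval x ≠ 0 →
      ∃ (x' y' : K) (h' : W.Nonsingular x' y'),
        n • (Point.some (W' := W) x y h) = Point.some (W' := W) x' y' h' ∧
          x' * (W.ΨSq (n : ℤ)).eval x = (W.Φ (n : ℤ)).eval x :=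
  DP_X W n hn (fun k hk1 _ => Nat.cast_ne_zero.mpr (by omega))

end DPX

end Fermat.Agent.S13_helper27_DPG
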