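import Mathlib
import Fermat.Agent.S13_helper29_BIQ

/-!
# S13 bridge file (helper29): division polynomials evaluated at a point of the curve

For a Weierstrass curve `W` over a commutative ring `R` and `(x, y)` on the curve, the values
`(W.ψ k).evalEval x y` form the normalised elliptic divisibility sequence with parameters
`ψ₂(x, y)`, `Ψ₃(x)`, `preΨ₄(x)`; they are expressed through `preΨ`, `ΨSq`, `Φ` evaluated at `x`.
-/

namespace Fermat.Agent.S13_helper29_EVAL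

open Polynomial WeierstrassCurve WeierstrassCurve.Affine

variable {R : Type*} [CommRing R] (W : WeierstrassCurve.Affine R)

theorem evalEval_ψ₂ (x y : R) : W.ψ₂.evalEval x y = y - W.negY x y := by
  rw [WeierstrassCurve.ψ₂, evalEval_polynomialY, negY]; ring

theorem evalEval_ψ₂' (x y : R) : W.ψ₂.evalEval x y = 2 * y + W.a₁ * x + W.a₃ := by
  rw [WeierstrassCurve.ψ₂, evalEval_polynomialY]

/-- `ψ₂(x, y)² = Ψ₂Sq(x)` on the curve. -/
theorem evalEval_ψ₂_sq {x y : R} (h : W.Equation x y) :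
    W.ψ₂.evalEval x y ^ 2 = W.Ψ₂Sq.eval x := by
  have h1 := congrArg (Polynomial.evalEval x y) (WeierstrassCurve.ψ₂_sq W)
  rw [evalEval_pow, evalEval_add, evalEval_C, evalEval_mul] at h1
  have h2 : (W.toAffine.polynomial).evalEval x y = 0 := h
  rw [h1, h2, mul_zero, add_zero]

/-- The values of the division polynomials at a point form a normalised EDS. -/
theorem evalEval_ψ (x y : R) (k : ℤ) :
    (W.ψ k).evalEval x y =
      normEDS (W.ψ₂.evalEval x y) (W.Ψ₃.eval x) (W.preΨ₄.eval x) k := by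
  rw [WeierstrassCurve.ψ, ← coe_evalEvalRingHom, map_normEDS]
  simp only [coe_evalEvalRingHom, evalEval_C]

theorem eval_preΨ (x : R) (k : ℤ) :
    (W.preΨ k).eval x =
      preNormEDS (W.Ψ₂Sq.eval x ^ 2) (W.Ψ₃.eval x) (W.preΨ₄.eval x) k := by
  rw [WeierstrassCurve.preΨ, ← coe_evalRingHom, map_preNormEDS]
  simp only [coe_evalRingHom, eval_pow]

/-- (E2) `ψ_k(x, y) = preΨ_k(x) * (ψ₂(x, y) if k even else 1)` on the curve. -/
theorem evalEval_ψ_eq_preΨ {x y : R} (h : W.Equation x y) (k : ℤ) :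
    (W.ψ k).evalEval x y =
      (W.preΨ k).eval x * (if Even k then W.ψ₂.evalEval x y else 1) := by
  rw [evalEval_ψ, eval_preΨ, normEDS, ← evalEval_ψ₂_sq W h, ← pow_mul]

theorem evalEval_ψ_of_odd {x y : R} (h : W.Equation x y) {k : ℤ} (hk : Odd k) :
    (W.ψ k).evalEval x y = (W.preΨ k).eval x := by
  rw [evalEval_ψ_eq_preΨ W h, if_neg (Int.not_even_iff_odd.mpr hk), mul_one]

theorem evalEval_ψ_of_even {x y : R} (h : W.Equation x y) {k : ℤ} (hk : Even k) :
    (W.ψ k).evalEval x y = (W.preΨ k).eval x * W.ψ₂.evalEval x y := by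
  rw [evalEval_ψ_eq_preΨ W h, if_pos hk]

/-- (E3) `ψ_k(x, y)² = ΨSq_k(x)` on the curve. -/
theorem evalEval_ψ_sq {x y : R} (h : W.Equation x y) (k : ℤ) :
    (W.ψ k).evalEval x y ^ 2 = (W.ΨSq k).eval x := by
  rw [evalEval_ψ_eq_preΨ W h, WeierstrassCurve.ΨSq, mul_pow, eval_mul, eval_pow]
  split_ifs
  · rw [evalEval_ψ₂_sq W h]
  · simp

/-- (E4) `x ψ_k² - ψ_{k+1} ψ_{k-1} = Φ_k(x)` on the curve. -/
theorem evalEval_ψ_Φ {x y : R} (h : W.Equation x y) (k : ℤ) :
    x * (W.ψ k).evalEval x y ^ 2 - (W.ψ (k + 1)).evalEval x y * (W.ψ (k - 1)).evalEval x y =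
      (W.Φ k).eval x := by
  rw [evalEval_ψ_sq W h, evalEval_ψ_eq_preΨ W h (k + 1), evalEval_ψ_eq_preΨ W h (k - 1),
    WeierstrassCurve.Φ, eval_sub, eval_mul, eval_X, eval_mul, eval_mul]
  by_cases hk : Even k
  · have h1 : ¬ Even (k + 1) := by
      rw [Int.not_even_iff_odd]; exact hk.add_one
    have h2 : ¬ Even (k - 1) := by
      rw [Int.not_even_iff_odd]; exact hk.sub_odd odd_one
    rw [if_neg h1, if_neg h2, if_pos hk]
    simp
  · have hk' : Odd k := Int.not_even_iff_odd.mp hk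
    have h1 : Even (k + 1) := hk'.add_one
    have h2 : Even (k - 1) := hk'.sub_odd odd_one
    rw [if_pos h1, if_pos h2, if_neg hk, ← evalEval_ψ₂_sq W h]
    ring

theorem evalEval_φ {x y : R} (h : W.Equation x y) (k : ℤ) :
    (W.φ k).evalEval x y = (W.Φ k).eval x := by
  rw [← evalEval_ψ_Φ W h, WeierstrassCurve.φ, evalEval_sub, evalEval_mul, evalEval_mul,
    evalEval_pow, evalEval_C, eval_X]

/-! ### (E5) initial values and recursions -/

theorem evalEval_ψ_zero (x y : R) : (W.ψ 0).evalEval x y = 0 := by simp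

theorem evalEval_ψ_one (x y : R) : (W.ψ 1).evalEval x y = 1 := by simp

theorem evalEval_ψ_two (x y : R) : (W.ψ 2).evalEval x y = y - W.negY x y := by
  rw [WeierstrassCurve.ψ_two, evalEval_ψ₂]

theorem evalEval_ψ_three (x y : R) : (W.ψ 3).evalEval x y = W.Ψ₃.eval x := by
  rw [WeierstrassCurve.ψ_three, evalEval_C]

theorem evalEval_ψ_four (x y : R) :
    (W.ψ 4).evalEval x y = W.preΨ₄.eval x * (y - W.negY x y) := by
  rw [WeierstrassCurve.ψ_four, evalEval_mul, evalEval_C, evalEval_ψ₂]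

theorem evalEval_ψ_neg (x y : R) (k : ℤ) :
    (W.ψ (-k)).evalEval x y = -(W.ψ k).evalEval x y := by
  rw [WeierstrassCurve.ψ_neg, evalEval_neg]

theorem evalEval_ψ_odd_rec (x y : R) (m : ℤ) :
    (W.ψ (2 * m + 1)).evalEval x y =
      (W.ψ (m + 2)).evalEval x y * (W.ψ m).evalEval x y ^ 3 -
        (W.ψ (m - 1)).evalEval x y * (W.ψ (m + 1)).evalEval x y ^ 3 := by
  rw [WeierstrassCurve.ψ_odd, evalEval_sub, evalEval_mul, evalEval_mul, evalEval_pow,
    evalEval_pow]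

theorem evalEval_ψ_even_rec (x y : R) (m : ℤ) :
    (W.ψ (2 * m)).evalEval x y * (W.ψ 2).evalEval x y =
      (W.ψ (m - 1)).evalEval x y ^ 2 * (W.ψ m).evalEval x y * (W.ψ (m + 2)).evalEval x y -
        (W.ψ (m - 2)).evalEval x y * (W.ψ m).evalEval x y * (W.ψ (m + 1)).evalEval x y ^ 2 := by
  rw [WeierstrassCurve.ψ_two, ← evalEval_mul, WeierstrassCurve.ψ_even, evalEval_sub,
    evalEval_mul, evalEval_mul, evalEval_mul, evalEval_mul, evalEval_pow, evalEval_pow]

/-! ### (E6) vanishing criteria and the quotient form of the `x`-coordinate -/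

theorem evalEval_ψ_eq_zero_iff_ΨSq [IsReduced R] {x y : R} (h : W.Equation x y) (k : ℤ) :
    (W.ψ k).evalEval x y = 0 ↔ (W.ΨSq k).eval x = 0 := by
  rw [← evalEval_ψ_sq W h, sq_eq_zero_iff]

theorem evalEval_ψ_eq_zero_iff_of_odd {x y : R} (h : W.Equation x y) {k : ℤ} (hk : Odd k) :
    (W.ψ k).evalEval x y = 0 ↔ (W.preΨ k).eval x = 0 := by
  rw [evalEval_ψ_of_odd W h hk]

theorem evalEval_ψ_eq_zero_iff_of_even [IsDomain R] {x y : R} (h : W.Equation x y) {k : ℤ}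
    (hk : Even k) (hy : y ≠ W.negY x y) :
    (W.ψ k).evalEval x y = 0 ↔ (W.preΨ k).eval x = 0 := by
  rw [evalEval_ψ_of_even W h hk, mul_eq_zero, evalEval_ψ₂, sub_eq_zero]
  exact or_iff_left hy

theorem evalEval_ψ_eq_zero_iff [IsDomain R] {x y : R} (h : W.Equation x y) (k : ℤ)
    (hy : y ≠ W.negY x y) :
    (W.ψ k).evalEval x y = 0 ↔ (W.preΨ k).eval x = 0 := by
  rcases Int.even_or_odd k with hk | hk
  · exact evalEval_ψ_eq_zero_iff_of_even W h hk hy
  · exact evalEval_ψ_eq_zero_iff_of_odd W h hk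

/-- Natural number index version, for an odd prime `p` this is the shape `ForwardDP` wants. -/
theorem evalEval_ψ_natCast_eq_zero_iff_of_odd {x y : R} (h : W.Equation x y) {n : ℕ}
    (hn : Odd n) :
    (W.ψ (n : ℤ)).evalEval x y = 0 ↔ (W.preΨ (n : ℤ)).eval x = 0 :=
  evalEval_ψ_eq_zero_iff_of_odd W h (by exact_mod_cast hn)

section Field

variable {K : Type*} [Field K] (E : WeierstrassCurve.Affine K)

/-- `x - ψ_{k+1} ψ_{k-1} / ψ_k² = Φ_k(x) / ΨSq_k(x)` on the curve, when `ψ_k(x, y) ≠ 0`. -/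
theorem sub_div_eq_Φ_div_ΨSq {x y : K} (h : E.Equation x y) (k : ℤ)
    (hk : (E.ψ k).evalEval x y ≠ 0) :
    x - (E.ψ (k + 1)).evalEval x y * (E.ψ (k - 1)).evalEval x y / (E.ψ k).evalEval x y ^ 2
      = (E.Φ k).eval x / (E.ΨSq k).eval x := by
  rw [← evalEval_ψ_Φ E h, ← evalEval_ψ_sq E h]
  field_simp

/-- The shape used by DP-EXIST: `x' * ΨSq_k(x) = Φ_k(x)`. -/
theorem mul_ΨSq_eq_Φ {x y x' : K} (h : E.Equation x y) (k : ℤ)
    (hk : (E.ψ k).evalEval x y ≠ 0)
    (hx' : x' = x - (E.ψ (k + 1)).evalEval x y * (E.ψ (k - 1)).evalEval x y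
      / (E.ψ k).evalEval x y ^ 2) :
    x' * (E.ΨSq k).eval x = (E.Φ k).eval x := by
  rw [hx', sub_div_eq_Φ_div_ΨSq E h k hk]
  have : (E.ΨSq k).eval x ≠ 0 := by
    rw [← evalEval_ψ_sq E h]; exact pow_ne_zero 2 hk
  field_simp

theorem ΨSq_eval_ne_zero_iff {x y : K} (h : E.Equation x y) (k : ℤ) :
    (E.ΨSq k).eval x ≠ 0 ↔ (E.ψ k).evalEval x y ≠ 0 := by
  rw [Ne, Ne, evalEval_ψ_eq_zero_iff_ΨSq E h]

end Field

end Fermat.Agent.S13_helper29_EVAL
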