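import Mathlib

/-!
# S13, piece NP: the Newton polygon lemma

For a valuation `v` on a field `K` and a split polynomial `f` with integral coefficients
(`v (f.coeff n) ≤ 1`), the leading coefficient times the product of the roots of valuation `> 1`
has valuation `≤ 1`.
-/

set_option autoImplicit false

noncomputable section

namespace Fermat.Agent.S13_NP

open Polynomial

variable {K Γ : Type*} [Field K] [LinearOrderedCommGroupWithZero Γ] (v : Valuation K Γ)

/-- Product of `X - r` over roots of valuation `≤ 1`: integral coefficients. -/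
theorem coeff_prod_le_one (S : Multiset K) (hS : ∀ r ∈ S, v r ≤ 1) (n : ℕ) :
    v ((S.map (fun r => X - C r)).prod.coeff n) ≤ 1 := by
  induction S using Multiset.induction_on generalizing n with
  | empty =>
    simp only [Multiset.map_zero, Multiset.prod_zero, coeff_one]
    split_ifs
    · simp
    · simp
  | cons a S ih =>
    have hS' : ∀ r ∈ S, v r ≤ 1 := fun r hr => hS r (Multiset.mem_cons_of_mem hr)
    have ha : v a ≤ 1 := hS a (Multiset.mem_cons_self a S)
    rw [Multiset.map_cons, Multiset.prod_cons]
    set h := (S.map (fun r => X - C r)).prod with hh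
    have e : ((X - C a) * h).coeff n = (X * h).coeff n - a * h.coeff n := by
      rw [sub_mul, coeff_sub, coeff_C_mul]
    rw [e]
    refine v.map_sub_le ?_ ?_
    · cases n with
      | zero => simp
      | succ m => rw [coeff_X_mul]; exact ih hS' m
    · rw [map_mul]
      exact mul_le_one' ha (ih hS' n)

/-- Product of `X - r` over roots of valuation `> 1`: the constant coefficient dominates. -/
theorem coeff_prod_gt_one (S : Multiset K) (hS : ∀ r ∈ S, 1 < v r) :
    (S.map v).prod ≠ 0 ∧
    v ((S.map (fun r => X - C r)).prod.coeff 0) = (S.map v).prod ∧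
    ∀ n, v ((S.map (fun r => X - C r)).prod.coeff (n + 1)) < (S.map v).prod := by
  induction S using Multiset.induction_on with
  | empty =>
    refine ⟨by simp, by simp, fun n => ?_⟩
    simp only [Multiset.map_zero, Multiset.prod_zero, coeff_one]
    rw [if_neg (Nat.succ_ne_zero n)]
    simp
  | cons a S ih =>
    have hS' : ∀ r ∈ S, 1 < v r := fun r hr => hS r (Multiset.mem_cons_of_mem hr)
    have ha : 1 < v a := hS a (Multiset.mem_cons_self a S)
    have ha0 : v a ≠ 0 := (lt_trans zero_lt_one ha).ne'
    obtain ⟨hM, h0, hn⟩ := ih hS'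
    rw [Multiset.map_cons, Multiset.prod_cons, Multiset.map_cons, Multiset.prod_cons]
    set g := (S.map (fun r => X - C r)).prod with hg
    set M := (S.map v).prod with hMdef
    have hMpos : 0 < M := zero_lt_iff.mpr hM
    have hapos : 0 < v a := zero_lt_iff.mpr ha0
    have e : ∀ n, ((X - C a) * g).coeff n = (X * g).coeff n - a * g.coeff n := by
      intro n
      rw [sub_mul, coeff_sub, coeff_C_mul]
    refine ⟨mul_ne_zero ha0 hM, ?_, fun n => ?_⟩
    · rw [e 0]
      simp only [mul_coeff_zero, coeff_X_zero, zero_mul, zero_sub, Valuation.map_neg, map_mul, h0]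
    · rw [e (n + 1), coeff_X_mul]
      have h1 : v (g.coeff n) < v a * M := by
        have h2 : v (g.coeff n) ≤ M := by
          cases n with
          | zero => exact h0.le
          | succ m => exact (hn m).le
        calc v (g.coeff n) ≤ M := h2
          _ = 1 * M := (one_mul M).symm
          _ < v a * M := by
            exact mul_lt_mul_of_pos_right ha hMpos
      have h3 : v (a * g.coeff (n + 1)) < v a * M := by
        rw [map_mul]
        exact mul_lt_mul_of_pos_left (hn n) hapos
      rw [sub_eq_add_neg]
      exact v.map_add_lt h1 (by rw [Valuation.map_neg]; exact h3)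

/-- Combination: `g` with dominant constant coefficient, `h` monic with integral coefficients. -/
theorem coeff_mul_eq (g h : K[X]) (M : Γ) (hM : M ≠ 0) (h0 : v (g.coeff 0) = M)
    (hn : ∀ n, v (g.coeff (n + 1)) < M) (hmonic : h.Monic) (hint : ∀ n, v (h.coeff n) ≤ 1) :
    v ((g * h).coeff h.natDegree) = M := by
  classical
  set m := h.natDegree with hm
  rw [coeff_mul]
  have hmem : (0, m) ∈ Finset.HasAntidiagonal.antidiagonal m := by simp
  rw [← Finset.add_sum_erase _ _ hmem]
  have hlead : h.coeff m = 1 := hmonic.coeff_natDegree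
  have hfirst : v (g.coeff (0, m).1 * h.coeff (0, m).2) = M := by
    simp only [hlead, mul_one, h0]
  have hrest : v (∑ x ∈ (Finset.HasAntidiagonal.antidiagonal m).erase (0, m),
      g.coeff x.1 * h.coeff x.2) < M := by
    refine v.map_sum_lt hM fun x hx => ?_
    rw [Finset.mem_erase, Finset.HasAntidiagonal.mem_antidiagonal] at hx
    obtain ⟨hne, hsum⟩ := hx
    have hx1 : x.1 ≠ 0 := by
      intro h1
      apply hne
      ext
      · exact h1
      · simp only; omega
    obtain ⟨k, hk⟩ := Nat.exists_eq_succ_of_ne_zero hx1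
    rw [map_mul, hk]
    calc v (g.coeff (k + 1)) * v (h.coeff x.2) ≤ v (g.coeff (k + 1)) * 1 :=
          mul_le_mul' le_rfl (hint x.2)
      _ = v (g.coeff (k + 1)) := mul_one _
      _ < M := hn k
  rw [v.map_add_eq_of_lt_left (by rw [hfirst]; exact hrest), hfirst]

/-- **Newton polygon lemma.** -/
theorem newton_roots_gt_one (f : K[X]) (hsplit : f.Splits) (hint : ∀ n, v (f.coeff n) ≤ 1) :
    v f.leadingCoeff * ((f.roots.filter (fun r => 1 < v r)).map v).prod ≤ 1 := by
  classical
  set Rp := f.roots.filter (fun r => 1 < v r) with hRp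
  set Rm := f.roots.filter (fun r => ¬ 1 < v r) with hRm
  have hsum : Rp + Rm = f.roots := Multiset.filter_add_not _ _
  set g := (Rp.map (fun r => X - C r)).prod with hg
  set h := (Rm.map (fun r => X - C r)).prod with hh
  have hfac : f = C f.leadingCoeff * (g * h) := by
    conv_lhs => rw [hsplit.eq_prod_roots]
    rw [← hsum, Multiset.map_add, Multiset.prod_add]
  have hRp1 : ∀ r ∈ Rp, 1 < v r := fun r hr => (Multiset.mem_filter.mp hr).2
  have hRm1 : ∀ r ∈ Rm, v r ≤ 1 := fun r hr => not_lt.mp (Multiset.mem_filter.mp hr).2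
  obtain ⟨hM, h0, hn⟩ := coeff_prod_gt_one v Rp hRp1
  have hmonic : h.Monic := monic_multiset_prod_of_monic _ _ fun r _ => monic_X_sub_C r
  have hc := coeff_mul_eq v g h _ hM h0 hn hmonic (coeff_prod_le_one v Rm hRm1)
  have hcoef : f.coeff h.natDegree = f.leadingCoeff * (g * h).coeff h.natDegree := by
    conv_lhs => rw [hfac]
    rw [coeff_C_mul]
  have := hint h.natDegree
  rw [hcoef, map_mul, hc] at this
  exact this

/-- Variant for a sub-multiset of the roots. -/
theorem newton_submultiset (f : K[X]) (hsplit : f.Splits) (hint : ∀ n, v (f.coeff n) ≤ 1)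
    (T : Multiset K) (hT : T ≤ f.roots) (hT1 : ∀ r ∈ T, 1 < v r) :
    v f.leadingCoeff * (T.map v).prod ≤ 1 := by
  classical
  refine le_trans ?_ (newton_roots_gt_one v f hsplit hint)
  refine mul_le_mul' le_rfl ?_
  have hle : T ≤ f.roots.filter (fun r => 1 < v r) := by
    rw [Multiset.le_filter]
    exact ⟨hT, hT1⟩
  obtain ⟨U, hU⟩ := Multiset.le_iff_exists_add.mp hle
  rw [hU, Multiset.map_add, Multiset.prod_add]
  have hU1 : 1 ≤ (U.map v).prod := by
    refine Multiset.one_le_prod_of_one_le ?_
    intro x hx
    obtain ⟨r, hr, rfl⟩ := Multiset.mem_map.mp hx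
    have : r ∈ f.roots.filter (fun r => 1 < v r) := by
      rw [hU]; exact Multiset.mem_add.mpr (Or.inr hr)
    exact (Multiset.mem_filter.mp this).2.le
  exact le_mul_of_one_le_right' hU1

/-- Variant for a finite set of (distinct) roots. -/
theorem newton_finset (f : K[X]) (hf : f ≠ 0) (hsplit : f.Splits)
    (hint : ∀ n, v (f.coeff n) ≤ 1)
    (T : Finset K) (hT : ∀ r ∈ T, f.IsRoot r) (hT1 : ∀ r ∈ T, 1 < v r) :
    v f.leadingCoeff * ∏ r ∈ T, v r ≤ 1 := by
  classical
  have hle : T.val ≤ f.roots := by
    rw [Multiset.le_iff_subset T.nodup]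
    intro r hr
    exact (mem_roots hf).mpr (hT r hr)
  have := newton_submultiset v f hsplit hint T.val hle (fun r hr => hT1 r hr)
  exact this

/-- Integers have valuation `≤ 1`. -/
theorem valuation_natCast_le_one (n : ℕ) : v (n : K) ≤ 1 := by
  induction n with
  | zero => simp
  | succ k ih =>
    rw [Nat.cast_succ]
    exact v.map_add_le ih (by rw [map_one])

/-- Integers have valuation `≤ 1`. -/
theorem valuation_intCast_le_one (n : ℤ) : v (n : K) ≤ 1 := by
  cases n with
  | ofNat k => simpa using valuation_natCast_le_one v k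
  | negSucc k =>
    rw [Int.cast_negSucc, Valuation.map_neg]
    exact valuation_natCast_le_one v (k + 1)

/-- Variant for an integer polynomial, over a field in which it splits. -/
theorem newton_finset_int (f : ℤ[X]) (hf : f ≠ 0) [CharZero K]
    (hsplit : (f.map (Int.castRingHom K)).Splits)
    (T : Finset K) (hT : ∀ r ∈ T, (f.map (Int.castRingHom K)).IsRoot r)
    (hT1 : ∀ r ∈ T, 1 < v r) :
    v (f.leadingCoeff : K) * ∏ r ∈ T, v r ≤ 1 := by
  have hinj : Function.Injective (Int.castRingHom K) := Int.cast_injective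
  have hf' : f.map (Int.castRingHom K) ≠ 0 := (Polynomial.map_ne_zero_iff hinj).mpr hf
  have hlc : (f.map (Int.castRingHom K)).leadingCoeff = (f.leadingCoeff : K) := by
    rw [leadingCoeff_map_of_injective hinj]
    rfl
  have hint : ∀ n, v ((f.map (Int.castRingHom K)).coeff n) ≤ 1 := by
    intro n
    rw [coeff_map]
    exact valuation_intCast_le_one v _
  have := newton_finset v _ hf' hsplit hint T hT hT1
  rwa [hlc] at this

/-- Variant for an integer polynomial, over an algebraically closed field. -/
theorem newton_finset_int_of_isAlgClosed (f : ℤ[X]) (hf : f ≠ 0) [CharZero K] [IsAlgClosed K]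
    (T : Finset K) (hT : ∀ r ∈ T, (f.map (Int.castRingHom K)).IsRoot r)
    (hT1 : ∀ r ∈ T, 1 < v r) :
    v (f.leadingCoeff : K) * ∏ r ∈ T, v r ≤ 1 :=
  newton_finset_int v f hf (IsAlgClosed.splits _) T hT hT1

end Fermat.Agent.S13_NP
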