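import Mathlib
import Fermat.Statements.S13
import Fermat.Agent.S13_helper5_ATP

/-!
# S13 piece ATP (helper5), structural form `ATP_L`

For a valuation subring `A` of `Qbar` over `p` and a Galois stable line of `V = E[p]` (Frey
curve): there is a PROPER submodule `L` of `V` such that `(σ - 1) V ≤ L` for all `σ ∈ I_A`.
-/

set_option autoImplicit false

namespace Fermat.Agent.S13_helper5_ATPL

open WeierstrassCurve WeierstrassCurve.Affine WeierstrassCurve.Affine.Point Polynomial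
open Fermat.Agent.S05_helper1_Defs Fermat.Agent.S05_helper25_CompTorsion
  Fermat.Agent.S05_helper5_Inertia Fermat.Agent.S05_helper5_Frey
  Fermat.Agent.S13_helper9_RD Fermat.Agent.S13_helper20_DPCARD
  Fermat.Agent.S13_helper5_ATPa Fermat.Agent.S13_helper5_ATPb Fermat.Agent.S13_helper5_ATPc
  Fermat.Agent.S13_helper5_ATP

attribute [local instance 100000] AlgebraicClosure.instAlgebra

local notation "Qb" => AlgebraicClosure ℚ

/-- Two-step filtration at `p`: `(σ - 1) V ≤ L0`, `(σ - 1) L0 ≤ L1`, `L1 ≠ ⊤`. -/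
theorem ATP_two_step (P : FreyPackage) (A : ValuationSubring Qb) (hA : A.LiesOverPrime P.p)
    (hF : ForwardDP (P.freyCurve⁄Qb) P.p)
    (N : Submodule (ZMod P.p) (Submodule.torsionBy ℤ (P.freyCurve⁄Qb).Point P.p))
    (hst : IsGaloisStable ℚ N) (hbot : N ≠ ⊥) (htop : N ≠ ⊤) :
    ∃ L0 L1 : Submodule (ZMod P.p) (Submodule.torsionBy ℤ (P.freyCurve⁄Qb).Point P.p),
      L1 ≠ ⊤ ∧
      (∀ σ ∈ A.inertiaSubgroupIn ℚ,
        ∀ x : Submodule.torsionBy ℤ (P.freyCurve⁄Qb).Point P.p, σ • x - x ∈ L0) ∧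
      (∀ σ ∈ A.inertiaSubgroupIn ℚ, ∀ x ∈ L0, σ • x - x ∈ L1) := by
  classical
  have hp2 : P.p ≠ 2 := by have := P.hp5; omega
  obtain ⟨h2, -, s, a, b, hW, ⟨s₀, hs₀⟩, hs, ha, hb, hb0, hdisc, hcase⟩ :=
    frey_models P A P.pp hp2 hA
  have h₁ : A.valuation (P.freyCurve⁄Qb).a₁ ≤ 1 := by rw [hW.a₁, map_one]
  have h₂ : A.valuation (P.freyCurve⁄Qb).a₂ ≤ 1 := short_a₂ A.valuation hW h2 hs ha
  have h₃ : A.valuation (P.freyCurve⁄Qb).a₃ ≤ 1 := by
    rw [hW.a₃, _root_.map_zero]; exact zero_le_one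
  have h₄ : A.valuation (P.freyCurve⁄Qb).a₄ ≤ 1 := short_a₄ A.valuation hW h2 hs ha hb
  have h₆ : A.valuation (P.freyCurve⁄Qb).a₆ ≤ 1 := by
    rw [hW.a₆, _root_.map_zero]; exact zero_le_one
  have hint : ∀ i, A.valuation (((P.freyCurve⁄Qb).preΨ (P.p : ℤ)).coeff i) ≤ 1 := fun i =>
    preΨ_coeff_integral A (P.freyCurve⁄Qb) ((A.valuation_le_one_iff _).1 h₁)
      ((A.valuation_le_one_iff _).1 h₂) ((A.valuation_le_one_iff _).1 h₃)
      ((A.valuation_le_one_iff _).1 h₄) ((A.valuation_le_one_iff _).1 h₆) _ i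
  -- the kernel of reduction
  let L1 : Submodule (ZMod P.p) (Submodule.torsionBy ℤ (P.freyCurve⁄Qb).Point P.p) :=
    AddSubgroup.toZModSubmodule P.p (subOfPred P.p (InE1 A.valuation) trivial
      (fun _ _ hP hQ => inE1_add A.valuation h₁ h₂ h₃ h₄ h₆ hP hQ)
      (fun _ hP => inE1_neg A.valuation h₁ h₂ h₃ h₄ h₆ hP))
  have hL1 : ∀ x, x ∈ L1 ↔ InE1 A.valuation (x : (P.freyCurve⁄Qb).Point) := fun x => Iff.rfl
  have hL1top : L1 ≠ ⊤ := by
    intro htop1
    obtain ⟨x, hx⟩ := exists_not_inE1 P.pp P.hp_odd A hA hint hF N hst hbot htop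
    apply hx
    rw [← hL1, htop1]
    exact Submodule.mem_top
  -- points not reducing to the node move inside the kernel of reduction
  have key1 : ∀ σ ∈ A.inertiaSubgroupIn ℚ,
      ∀ x : Submodule.torsionBy ℤ (P.freyCurve⁄Qb).Point P.p,
      (A.valuation b = 1 ∨ InE0 A.valuation s (x : (P.freyCurve⁄Qb).Point)) →
      σ • x - x ∈ L1 := by
    intro σ hσ x hx0
    rw [hL1]
    have hcoe : ((σ • x - x : Submodule.torsionBy ℤ (P.freyCurve⁄Qb).Point P.p) :
        (P.freyCurve⁄Qb).Point) =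
        Point.map (W' := P.freyCurve) σ.toAlgHom (x : (P.freyCurve⁄Qb).Point) -
          (x : (P.freyCurve⁄Qb).Point) := rfl
    rw [hcoe]
    rcases hx1 : (x : (P.freyCurve⁄Qb).Point) with _ | ⟨x₀, y₀, h₀⟩
    · show InE1 A.valuation (Point.map (W' := P.freyCurve) σ.toAlgHom 0 - 0)
      rw [Point.map_zero, sub_zero]
      trivial
    · rw [hx1] at hx0
      rw [Point.map_some]
      refine sub_inE1 A.valuation hW h2 hs ha hb hdisc h₀ _ ?_ ?_ ?_ ?_
      · intro h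
        show 1 < A.valuation (σ x₀)
        rw [inertia_val_eq A σ hσ]; exact h
      · intro h
        exact inertia_lt_one A σ hσ h
      · intro h
        exact inertia_lt_one A σ hσ h
      · exact hx0
  rcases hcase with hb1 | ⟨ha1, hblt, -⟩
  · -- good reduction
    exact ⟨⊤, L1, hL1top, fun _ _ _ => Submodule.mem_top,
      fun σ hσ x _ => key1 σ hσ x (Or.inl hb1)⟩
  · -- nodal reduction
    obtain ⟨γ, hγ⟩ : ∃ γ : Qb, γ ^ 2 = a := IsAlgClosed.exists_pow_nat_eq a (by norm_num)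
    let L0 : Submodule (ZMod P.p) (Submodule.torsionBy ℤ (P.freyCurve⁄Qb).Point P.p) :=
      AddSubgroup.toZModSubmodule P.p (subOfPred P.p (InE0 A.valuation s) trivial
        (fun _ _ hP hQ => inE0_add A.valuation hW h2 ha1 hblt hb0 hγ hP hQ)
        (fun _ hP => inE0_neg A.valuation hP))
    have hL0 : ∀ x, x ∈ L0 ↔ InE0 A.valuation s (x : (P.freyCurve⁄Qb).Point) :=
      fun x => Iff.rfl
    have key0 : ∀ σ ∈ A.inertiaSubgroupIn ℚ,
        ∀ x : Submodule.torsionBy ℤ (P.freyCurve⁄Qb).Point P.p, σ • x - x ∈ L0 := by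
      intro σ hσ x
      rw [hL0]
      have hcoe : ((σ • x - x : Submodule.torsionBy ℤ (P.freyCurve⁄Qb).Point P.p) :
          (P.freyCurve⁄Qb).Point) =
          Point.map (W' := P.freyCurve) σ.toAlgHom (x : (P.freyCurve⁄Qb).Point) -
            (x : (P.freyCurve⁄Qb).Point) := rfl
      rw [hcoe]
      apply sub_inE0 A.valuation hW h2 ha1 hblt hb0 hγ
      rcases hx1 : (x : (P.freyCurve⁄Qb).Point) with _ | ⟨x₀, y₀, h₀⟩
      · rfl
      · rw [Point.map_some, phiP_some, phiP_some]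
        have hσs : σ s = s := by rw [hs₀]; exact map_intCast σ s₀
        have hσa₂ : σ (P.freyCurve⁄Qb).a₂ = (P.freyCurve⁄Qb).a₂ := σ.commutes _
        have hσa : σ a = a := by
          rw [hW.ha, map_add, map_mul, map_add, map_mul, hσs]
          erw [hσa₂]
          rw [map_ofNat, map_ofNat, map_one]
        have hσγ : σ γ = γ := inertia_fixes_sqrt A σ hσ h2 ha1 hσa hγ
        have e1 : 4 * σ.toAlgHom x₀ - s = σ (4 * x₀ - s) := by
          rw [map_sub, map_mul, hσs, map_ofNat]; rfl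
        have e2 : 8 * σ.toAlgHom y₀ + 4 * σ.toAlgHom x₀ = σ (8 * y₀ + 4 * x₀) := by
          rw [map_add, map_mul, map_mul, map_ofNat, map_ofNat]; rfl
        rw [e1, e2]
        exact phiT_inertia A σ hσ _ hσγ _ _
    exact ⟨L0, L1, hL1top, key0, fun σ hσ x hx => key1 σ hσ x (Or.inr ((hL0 x).1 hx))⟩

/-- `ATP_L` with helper20's `ForwardDP` as input. -/
theorem ATP_L' (P : FreyPackage) (A : ValuationSubring Qb) (hA : A.LiesOverPrime P.p)
    (hF : ForwardDP (P.freyCurve⁄Qb) P.p)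
    (N : Submodule (ZMod P.p) (Submodule.torsionBy ℤ (P.freyCurve⁄Qb).Point P.p))
    (hst : IsGaloisStable ℚ N) (hbot : N ≠ ⊥) (htop : N ≠ ⊤) :
    ∃ L : Submodule (ZMod P.p) (Submodule.torsionBy ℤ (P.freyCurve⁄Qb).Point P.p), L ≠ ⊤ ∧
      ∀ σ ∈ A.inertiaSubgroupIn ℚ,
        ∀ x : Submodule.torsionBy ℤ (P.freyCurve⁄Qb).Point P.p, σ • x - x ∈ L := by
  obtain ⟨L0, L1, h1, h01, h11⟩ := ATP_two_step P A hA hF N hst hbot htop
  by_cases hL0 : L0 = ⊤
  · exact ⟨L1, h1, fun σ hσ x => h11 σ hσ x (hL0 ▸ Submodule.mem_top)⟩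
  · exact ⟨L0, hL0, h01⟩

/-- **ATP_L**, exactly as posted in `pieces` (input `hroot` in `ℕ`-smul form). -/
theorem ATP_L (P : FreyPackage) (A : ValuationSubring Qb) (hA : A.LiesOverPrime P.p)
    (hroot : ∀ (x y : Qb) (h : (P.freyCurve⁄Qb).Nonsingular x y),
      P.p • Point.some x y h = 0 → ((P.freyCurve⁄Qb).preΨ (P.p : ℤ)).eval x = 0)
    (N1 : Submodule (ZMod P.p) (Submodule.torsionBy ℤ (P.freyCurve⁄Qb).Point P.p))
    (hst : IsGaloisStable ℚ N1) (hbot : N1 ≠ ⊥) (htop : N1 ≠ ⊤) :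
    ∃ L : Submodule (ZMod P.p) (Submodule.torsionBy ℤ (P.freyCurve⁄Qb).Point P.p), L ≠ ⊤ ∧
      ∀ σ ∈ A.inertiaSubgroupIn ℚ,
        ∀ x : Submodule.torsionBy ℤ (P.freyCurve⁄Qb).Point P.p, σ • x - x ∈ L := by
  refine ATP_L' P A hA ?_ N1 hst hbot htop
  intro x y h hz
  apply hroot x y h
  rwa [natCast_zsmul] at hz

end Fermat.Agent.S13_helper5_ATPL
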