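import Mathlib
import Fermat.Agent.S13_helper9_RD
import Fermat.Agent.S05_helper5_Inertia

/-!
# S13, piece RD, inertia form (helper9)

For a valuation subring `A` of `K`, an integral Weierstrass model and `σ` in the inertia group
of `A`:

* `inertia_val_sub_lt` : `A.valuation (σ z - z) < 1` for integral `z`;
* `RD_inertia` : `σ • P - P ∈ E₁` for an integral point `P` with nonsingular reduction;
* `RD_inertia_fixed` : if moreover `n • P = 0` with `n` a unit of `A`, then `σ • P = P`.
-/

set_option autoImplicit false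
set_option linter.unusedSectionVars false

namespace Fermat.Agent.S13_helper9_RDI

open WeierstrassCurve WeierstrassCurve.Affine
open Fermat.Agent.S13_helper9_RD

variable {F : Type*} {K : Type*} [Field F] [Field K] [Algebra F K]

/-- An element of the inertia group moves integral elements by non-units. -/
theorem inertia_val_sub_lt (A : ValuationSubring K) (σ : K ≃ₐ[F] K)
    (hσ : σ ∈ A.inertiaSubgroupIn F) (z : K) (hz : A.valuation z ≤ 1) :
    A.valuation (σ z - z) < 1 := by
  have hzA : z ∈ A := (A.valuation_le_one_iff z).mp hz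
  have := (Fermat.Agent.S05_helper5_Inertia.inertia_spec_gen A σ hσ z hzA).2
  exact this

section Pts

variable [DecidableEq K] {R : Type*} [CommRing R] [Algebra R F] [Algebra R K]
  [IsScalarTower R F K] {W' : WeierstrassCurve.Affine R} (A : ValuationSubring K)
  (h₁ : A.valuation (W'⁄K).a₁ ≤ 1) (h₂ : A.valuation (W'⁄K).a₂ ≤ 1)
  (h₃ : A.valuation (W'⁄K).a₃ ≤ 1) (h₄ : A.valuation (W'⁄K).a₄ ≤ 1)
  (h₆ : A.valuation (W'⁄K).a₆ ≤ 1)

include h₁ h₂ h₃ h₄ h₆

/-- Inertia moves an integral point with nonsingular reduction inside the kernel of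
reduction. -/
theorem RD_inertia (σ : K ≃ₐ[F] K) (hσ : σ ∈ A.inertiaSubgroupIn F)
    {x y : K} (h : (W'⁄K).Nonsingular x y) (hx : A.valuation x ≤ 1) (hy : A.valuation y ≤ 1)
    (hns : A.valuation ((W'⁄K).polynomialX.evalEval x y) = 1
      ∨ A.valuation ((W'⁄K).polynomialY.evalEval x y) = 1) :
    InE1 A.valuation (σ • Point.some x y h - Point.some x y h) :=
  RD_map A.valuation h₁ h₂ h₃ h₄ h₆ σ.toAlgHom
    (fun z hz => inertia_val_sub_lt A σ hσ z hz) h hx hy hns

/-- If `σ • P - P` lies in the kernel of reduction and `P` is killed by a unit `n`, then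
`σ` fixes `P`. -/
theorem fixed_of_inE1_sub (σ : K ≃ₐ[F] K) {n : ℕ} (hn : A.valuation (n : K) = 1)
    {P : (W'⁄K).Point} (hP : n • P = 0) (hE : InE1 A.valuation (σ • P - P)) : σ • P = P := by
  have h0 : n • (σ • P - P) = 0 := by
    have hσP : n • (σ • P) = 0 := by
      have := Point.algEquiv_smul_zsmul σ (n : ℤ) P
      rw [natCast_zsmul, natCast_zsmul, hP] at this
      rw [← this]; exact smul_zero σ
    rw [smul_sub, hσP, hP, sub_zero]
  exact sub_eq_zero.mp (inE1_torsion_free A.valuation h₁ h₂ h₃ h₄ h₆ hn hE h0)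

/-- Inertia fixes every integral point with nonsingular reduction which is killed by a unit. -/
theorem RD_inertia_fixed (σ : K ≃ₐ[F] K) (hσ : σ ∈ A.inertiaSubgroupIn F)
    {n : ℕ} (hn : A.valuation (n : K) = 1)
    {x y : K} (h : (W'⁄K).Nonsingular x y) (hx : A.valuation x ≤ 1) (hy : A.valuation y ≤ 1)
    (hns : A.valuation ((W'⁄K).polynomialX.evalEval x y) = 1
      ∨ A.valuation ((W'⁄K).polynomialY.evalEval x y) = 1)
    (hP : n • Point.some x y h = 0) : σ • Point.some x y h = Point.some x y h :=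
  fixed_of_inE1_sub A h₁ h₂ h₃ h₄ h₆ σ hn hP
    (RD_inertia A h₁ h₂ h₃ h₄ h₆ σ hσ h hx hy hns)

end Pts

end Fermat.Agent.S13_helper9_RDI
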