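import Fermat.Agent.S16_helper10_REDperf

set_option autoImplicit false
set_option linter.unusedSectionVars false

/-!
# S16, piece RED: formal reduction of the Eisenstein ideal index to congruences

`T` is the Hecke algebra acting on the integral lattice `L ⊆ S₂(Γ₀(p))`, `Φ : HeckeAlg → T`
the evaluation map of the frozen statement, `ε : HeckeAlg → ℤ` the Eisenstein character and
`I = ker ε` the Eisenstein ideal.  Then `T ⧸ Φ(I) ≃ ℤ ⧸ ε(ker Φ)`, and for `k ≥ 1` we have
`ε(ker Φ) ⊆ kℤ` iff there is `f ∈ L` with `aₙ(f) ≡ sigmaP p n (mod k)` for all `n ≥ 1`.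
-/

namespace Fermat.Agent.S16_helper10_RED

open CongruenceSubgroup CuspForm ModularCurve

noncomputable section

variable (p : ℕ) [Fact p.Prime]

/-- the ideal of the frozen statement -/
def redJ : Ideal ↥(heckeLatticeAlgebra p ∅) := Ideal.map (redPhi p) (eisensteinIdeal p)

theorem sub_C_mem_eisensteinIdeal (s : HeckeAlg) :
    s - MvPolynomial.C (redEps p s) ∈ eisensteinIdeal p := by
  unfold eisensteinIdeal
  rw [mem_eigenIdeal_iff]
  have : MvPolynomial.aeval (eisensteinSystem p) (s - MvPolynomial.C (redEps p s)) =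
      redEps p (s - MvPolynomial.C (redEps p s)) := rfl
  rw [this, map_sub (redEps p), redEps_C, sub_self]

theorem mem_eisensteinIdeal_iff (s : HeckeAlg) : s ∈ eisensteinIdeal p ↔ redEps p s = 0 := by
  unfold eisensteinIdeal
  rw [mem_eigenIdeal_iff]
  rfl

/-- `c • 1 ∈ Φ(I)` iff `c ∈ ε(ker Φ)`. -/
theorem smul_one_mem_redJ_iff (c : ℤ) :
    c • (1 : ↥(heckeLatticeAlgebra p ∅)) ∈ redJ p ↔
      ∃ s : HeckeAlg, redPhi p s = 0 ∧ redEps p s = c := by
  unfold redJ
  rw [Ideal.mem_map_iff_of_surjective (redPhi p) (redPhi_surjective p)]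
  constructor
  · rintro ⟨s, hs, hsc⟩
    refine ⟨MvPolynomial.C c - s, ?_, ?_⟩
    · rw [map_sub (redPhi p), redPhi_C, hsc, sub_self]
    · rw [map_sub (redEps p), redEps_C, (mem_eisensteinIdeal_iff p s).mp hs, sub_zero]
  · rintro ⟨s, hs, hsc⟩
    refine ⟨MvPolynomial.C c - s, ?_, ?_⟩
    · rw [mem_eisensteinIdeal_iff, map_sub (redEps p), redEps_C, hsc, sub_self]
    · rw [map_sub (redPhi p), redPhi_C, hs, sub_zero]

/-- Every element of `T` is congruent to an integer modulo `Φ(I)`. -/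
theorem exists_int_sub_mem_redJ (t : ↥(heckeLatticeAlgebra p ∅)) :
    ∃ c : ℤ, t - c • (1 : ↥(heckeLatticeAlgebra p ∅)) ∈ redJ p := by
  obtain ⟨s, rfl⟩ := redPhi_surjective p t
  refine ⟨redEps p s, ?_⟩
  have := Ideal.mem_map_of_mem (redPhi p) (sub_C_mem_eisensteinIdeal p s)
  rw [map_sub (redPhi p), redPhi_C] at this
  exact this

/-- the canonical map `ℤ → T ⧸ Φ(I)` -/
def redPi : ℤ →+* (↥(heckeLatticeAlgebra p ∅) ⧸ redJ p) :=
  (Ideal.Quotient.mk (redJ p)).comp (algebraMap ℤ ↥(heckeLatticeAlgebra p ∅))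

theorem redPi_apply (c : ℤ) :
    redPi p c = Ideal.Quotient.mk (redJ p) (c • (1 : ↥(heckeLatticeAlgebra p ∅))) := by
  unfold redPi
  rw [RingHom.comp_apply, Algebra.algebraMap_eq_smul_one]

theorem redPi_surjective : Function.Surjective (redPi p) := by
  intro x
  obtain ⟨t, rfl⟩ := Ideal.Quotient.mk_surjective x
  obtain ⟨c, hc⟩ := exists_int_sub_mem_redJ p t
  refine ⟨c, ?_⟩
  rw [redPi_apply]
  exact (Ideal.Quotient.eq.mpr hc).symm

theorem mem_ker_redPi_iff (c : ℤ) :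
    c ∈ RingHom.ker (redPi p) ↔ ∃ s : HeckeAlg, redPhi p s = 0 ∧ redEps p s = c := by
  rw [RingHom.mem_ker, redPi_apply, Ideal.Quotient.eq_zero_iff_mem, smul_one_mem_redJ_iff]

/-- The index of `Φ(I)` is the nonnegative generator of `ε(ker Φ)`. -/
theorem exists_card_eq :
    ∃ m : ℕ, Nat.card (↥(heckeLatticeAlgebra p ∅) ⧸ redJ p) = m ∧
      ∀ c : ℤ, (m : ℤ) ∣ c ↔ ∃ s : HeckeAlg, redPhi p s = 0 ∧ redEps p s = c := by
  obtain ⟨g, hg⟩ : ∃ g : ℤ, RingHom.ker (redPi p) = Ideal.span {g} :=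
    ⟨_, (Submodule.IsPrincipal.span_singleton_generator (RingHom.ker (redPi p))).symm⟩
  have hg' : RingHom.ker (redPi p) = Ideal.span {(g.natAbs : ℤ)} := by
    rw [hg, Int.span_natAbs]
  refine ⟨g.natAbs, ?_, fun c => ?_⟩
  · have e1 := RingHom.quotientKerEquivOfSurjective (redPi_surjective p)
    have e2 : (ℤ ⧸ RingHom.ker (redPi p)) ≃+* (ℤ ⧸ Ideal.span {(g.natAbs : ℤ)}) :=
      Ideal.quotEquivOfEq hg'
    have e3 := Int.quotientSpanNatEquivZMod g.natAbs
    rw [← Nat.card_congr e1.toEquiv, Nat.card_congr e2.toEquiv, Nat.card_congr e3.toEquiv,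
      Nat.card_zmod]
  · rw [← mem_ker_redPi_iff, hg', Ideal.mem_span_singleton]

theorem eisensteinNumerator_pos : 0 < eisensteinNumerator p := by
  have hp : p.Prime := Fact.out
  unfold eisensteinNumerator
  have h1 : 0 < p - 1 := by have := hp.two_le; omega
  exact Nat.div_pos (Nat.le_of_dvd h1 (Nat.gcd_dvd_left _ _)) (Nat.gcd_pos_of_pos_left _ h1)

/-- The reduction, in terms of `redPhi`, `redEps`. -/
theorem card_eq_of_bounds
    (hU : ∀ k : ℕ, 1 ≤ k → (∃ f ∈ intLattice p 2, EisCong p k f) → k ∣ eisensteinNumerator p)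
    (hL : ∀ s : HeckeAlg, redPhi p s = 0 → ((eisensteinNumerator p : ℕ) : ℤ) ∣ redEps p s) :
    Nat.card (↥(heckeLatticeAlgebra p ∅) ⧸ redJ p) = eisensteinNumerator p := by
  obtain ⟨m, hm, hmc⟩ := exists_card_eq p
  rw [hm]
  have hn := eisensteinNumerator_pos p
  -- `n ∣ m`
  have h1 : eisensteinNumerator p ∣ m := by
    obtain ⟨s, hs, hsc⟩ := (hmc m).mp dvd_rfl
    have := hL s hs
    rw [hsc] at this
    exact_mod_cast this
  -- `ε(ker Φ) ⊆ mℤ`
  have h2 : ∀ s : HeckeAlg, redPhi p s = 0 → (m : ℤ) ∣ redEps p s :=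
    fun s hs => (hmc _).mpr ⟨s, hs, rfl⟩
  rcases Nat.eq_zero_or_pos m with h0 | h0
  · -- `m = 0` is impossible
    exfalso
    have h3 : ∀ s : HeckeAlg, redPhi p s = 0 →
        ((eisensteinNumerator p + 1 : ℕ) : ℤ) ∣ redEps p s := by
      intro s hs
      have := h2 s hs
      rw [h0, Nat.cast_zero, zero_dvd_iff] at this
      rw [this]
      exact dvd_zero _
    have h4 := hU _ (Nat.le_add_left 1 _) (exists_eisCong_of_dvd_redEps p _ h3)
    have := Nat.le_of_dvd hn h4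
    omega
  · exact Nat.dvd_antisymm (hU m h0 (exists_eisCong_of_dvd_redEps p m h2)) h1

end

/-- **S16, piece RED', lower bound in kernel form.** -/
theorem S16_RED' (p : ℕ) [Fact p.Prime]
    (hU : ∀ k : ℕ, 1 ≤ k → (∃ f ∈ CuspForm.intLattice p 2, EisCong p k f) →
      k ∣ ModularCurve.eisensteinNumerator p)
    (hL' : ∀ t : ModularCurve.HeckeAlg,
      (CuspForm.latticeRestrictHom p ∅).toRingHom.comp (CuspForm.heckeEvalForms p 2) t = 0 →
        ((ModularCurve.eisensteinNumerator p : ℕ) : ℤ) ∣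
          MvPolynomial.aeval (ModularCurve.eisensteinSystem p) t) :
    Nat.card (↥(CuspForm.heckeLatticeAlgebra p ∅) ⧸
        Ideal.map ((CuspForm.latticeRestrictHom p ∅).toRingHom.comp (CuspForm.heckeEvalForms p 2))
          (ModularCurve.eisensteinIdeal p)) = ModularCurve.eisensteinNumerator p :=
  card_eq_of_bounds p hU hL'

/-- **S16, piece RED.** -/
theorem S16_RED (p : ℕ) [Fact p.Prime]
    (hU : ∀ k : ℕ, 1 ≤ k → (∃ f ∈ CuspForm.intLattice p 2, EisCong p k f) →
      k ∣ ModularCurve.eisensteinNumerator p)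
    (hL : ∃ f ∈ CuspForm.intLattice p 2, EisCong p (ModularCurve.eisensteinNumerator p) f) :
    Nat.card (↥(CuspForm.heckeLatticeAlgebra p ∅) ⧸
        Ideal.map ((CuspForm.latticeRestrictHom p ∅).toRingHom.comp (CuspForm.heckeEvalForms p 2))
          (ModularCurve.eisensteinIdeal p)) = ModularCurve.eisensteinNumerator p := by
  obtain ⟨f, hf, hfk⟩ := hL
  exact card_eq_of_bounds p hU (fun s hs => dvd_redEps_of_eisCong p _ f hf hfk s hs)

end Fermat.Agent.S16_helper10_RED
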