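import Mathlib

/-!
# S16, upper bound: the pure algebra of the weight-4 trace identities

`A = ∑ aₙ Xⁿ` is the (integer) q-expansion of a weight-2 form `G` on `Γ₀(p)`, `B = U_p A` the
q-expansion of `U_p G`.  The analytic input is packaged in `TraceData`:
`U_p B = A` and `p A² + U_p(B²) = u² (p+1) E₄ = p B² + U_p(A²)` where `u = a₀`.
From this we derive all the "trace-only" no-congruence statements.
-/

set_option autoImplicit false

namespace Fermat.Agent.S16_helper18_TRALG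

open PowerSeries

/-- the operator `U_p` on integer power series -/
noncomputable def upSer (p : ℕ) (f : PowerSeries ℤ) : PowerSeries ℤ :=
  PowerSeries.mk fun n => PowerSeries.coeff (p * n) f

@[simp] theorem coeff_upSer (p n : ℕ) (f : PowerSeries ℤ) :
    coeff n (upSer p f) = coeff (p * n) f := coeff_mk _ _

theorem upSer_add (p : ℕ) (f g : PowerSeries ℤ) :
    upSer p (f + g) = upSer p f + upSer p g := by
  ext n; simp

theorem upSer_C_mul (p : ℕ) (c : ℤ) (f : PowerSeries ℤ) :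
    upSer p (C c * f) = C c * upSer p f := by
  ext n
  rw [coeff_upSer, coeff_C_mul, coeff_C_mul, coeff_upSer]

theorem upSer_C {p : ℕ} (hp : p ≠ 0) (c : ℤ) : upSer p (C c) = C c := by
  ext n
  rw [coeff_upSer, coeff_C, coeff_C]
  rcases Nat.eq_zero_or_pos n with rfl | hn
  · rw [mul_zero]
  · rw [if_neg (Nat.mul_ne_zero hp hn.ne'), if_neg hn.ne']

/-- `∑_{n ≥ 1} σ₃(n) Xⁿ` -/
noncomputable def s3Ser : PowerSeries ℤ :=
  PowerSeries.mk fun n => if n = 0 then 0 else ((ArithmeticFunction.sigma 3 n : ℕ) : ℤ)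

/-- the q-expansion of `E₄` -/
noncomputable def e4Ser : PowerSeries ℤ :=
  PowerSeries.mk fun n => if n = 0 then 1 else 240 * ((ArithmeticFunction.sigma 3 n : ℕ) : ℤ)

theorem coeff_s3Ser (n : ℕ) :
    coeff n s3Ser = if n = 0 then 0 else ((ArithmeticFunction.sigma 3 n : ℕ) : ℤ) := coeff_mk _ _

theorem coeff_e4Ser (n : ℕ) :
    coeff n e4Ser = if n = 0 then 1 else 240 * ((ArithmeticFunction.sigma 3 n : ℕ) : ℤ) :=
  coeff_mk _ _

theorem e4Ser_eq : e4Ser = 1 + C 240 * s3Ser := by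
  ext n
  rw [coeff_e4Ser, map_add, coeff_C_mul, coeff_s3Ser, coeff_one]
  split_ifs <;> simp

theorem sigma_three_one : ((ArithmeticFunction.sigma 3 1 : ℕ) : ℤ) = 1 := by
  simp [ArithmeticFunction.sigma_apply]

theorem sigma_three_prime {p : ℕ} (hp : p.Prime) :
    ((ArithmeticFunction.sigma 3 p : ℕ) : ℤ) = 1 + (p : ℤ) ^ 3 := by
  rw [ArithmeticFunction.sigma_apply, hp.divisors]
  simp [Finset.sum_pair hp.one_lt.ne]

/-- the analytic input -/
structure TraceData (p : ℕ) (u : ℤ) (A B : PowerSeries ℤ) : Prop where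
  hA0 : PowerSeries.coeff 0 A = u
  hB : B = upSer p A
  hAB : A = upSer p B
  hT1 : (p : ℤ) • A ^ 2 + upSer p (B ^ 2) = (u ^ 2 * ((p : ℤ) + 1)) • e4Ser
  hT2 : (p : ℤ) • B ^ 2 + upSer p (A ^ 2) = (u ^ 2 * ((p : ℤ) + 1)) • e4Ser

theorem TraceData.symm {p : ℕ} {u : ℤ} {A B : PowerSeries ℤ} (h : TraceData p u A B) :
    TraceData p u B A where
  hA0 := by rw [h.hB, coeff_upSer, mul_zero, h.hA0]
  hB := h.hAB
  hAB := h.hB
  hT1 := h.hT2
  hT2 := h.hT1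

theorem TraceData.dvd_coeff_B {p : ℕ} (hp : p ≠ 0) {u : ℤ} {A B : PowerSeries ℤ}
    (h : TraceData p u A B) {M : ℤ} (hM : ∀ n, 1 ≤ n → M ∣ coeff n A) :
    ∀ n, 1 ≤ n → M ∣ coeff n B := by
  intro n hn
  rw [h.hB, coeff_upSer]
  exact hM _ (Nat.one_le_iff_ne_zero.mpr (Nat.mul_ne_zero hp (Nat.one_le_iff_ne_zero.mp hn)))

/-- the tail of `A` divided by `M` -/
noncomputable def tailDiv (M : ℤ) (A : PowerSeries ℤ) : PowerSeries ℤ :=
  PowerSeries.mk fun n => if n = 0 then 0 else coeff n A / M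

theorem coeff_tailDiv (M : ℤ) (A : PowerSeries ℤ) (n : ℕ) :
    coeff n (tailDiv M A) = if n = 0 then 0 else coeff n A / M := coeff_mk _ _

theorem eq_C_add_tailDiv {M u : ℤ} {A : PowerSeries ℤ} (hA0 : coeff 0 A = u)
    (hM : ∀ n, 1 ≤ n → M ∣ coeff n A) : A = C u + C M * tailDiv M A := by
  ext n
  rw [map_add, coeff_C_mul, coeff_tailDiv, coeff_C]
  rcases Nat.eq_zero_or_pos n with rfl | hn
  · simp [hA0]
  · rw [if_neg hn.ne', if_neg hn.ne', zero_add, Int.mul_ediv_cancel' (hM n hn)]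

theorem tailDiv_upSer {p : ℕ} (hp : p ≠ 0) (M : ℤ) (A : PowerSeries ℤ) :
    tailDiv M (upSer p A) = upSer p (tailDiv M A) := by
  ext n
  rw [coeff_tailDiv, coeff_upSer, coeff_upSer, coeff_tailDiv]
  rcases Nat.eq_zero_or_pos n with rfl | hn
  · simp
  · rw [if_neg hn.ne', if_neg (Nat.mul_ne_zero hp hn.ne')]

/-- the basic identity obtained from the first trace identity -/
theorem key_identity {p : ℕ} (hp : p ≠ 0) {u : ℤ} {A B : PowerSeries ℤ} (h : TraceData p u A B)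
    {M : ℤ} (hM0 : M ≠ 0) (hM : ∀ n, 1 ≤ n → M ∣ coeff n A) :
    C (2 * u * M * ((p : ℤ) + 1)) * tailDiv M A +
      C (M ^ 2) * (C (p : ℤ) * tailDiv M A ^ 2 + upSer p (upSer p (tailDiv M A) ^ 2)) =
      C (240 * u ^ 2 * ((p : ℤ) + 1)) * s3Ser := by
  set g := tailDiv M A with hg
  set g' := upSer p g with hg'
  have hA : A = C u + C M * g := eq_C_add_tailDiv h.hA0 hM
  have hB : B = C u + C M * g' := by
    have := eq_C_add_tailDiv h.symm.hA0 (h.dvd_coeff_B hp hM)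
    rw [this]
    congr 2
    rw [h.hB, tailDiv_upSer hp]
  -- `U_p g' = g`
  have hgg : upSer p g' = g := by
    have h1 : upSer p B = C u + C M * upSer p g' := by
      rw [hB, upSer_add, upSer_C hp, upSer_C_mul]
    have h2 : C M * upSer p g' = C M * g := by
      have := h.hAB
      rw [h1] at this
      have h3 : C u + C M * g = C u + C M * upSer p g' := hA.symm.trans this
      exact (add_left_cancel h3).symm
    ext n
    have := congrArg (coeff n) h2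
    rw [coeff_C_mul, coeff_C_mul] at this
    exact mul_left_cancel₀ hM0 this
  have hB2 : upSer p (B ^ 2) =
      C (u ^ 2) + C (2 * u * M) * g + C (M ^ 2) * upSer p (g' ^ 2) := by
    have e : B ^ 2 = C (u ^ 2) + (C (2 * u * M) * g' + C (M ^ 2) * g' ^ 2) := by
      rw [hB]
      simp only [map_mul, map_pow, map_ofNat]
      ring
    rw [e, upSer_add, upSer_add, upSer_C hp, upSer_C_mul, upSer_C_mul, hgg]
    ring
  have hT := h.hT1
  rw [hB2, e4Ser_eq, hA] at hT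
  have hC : ∀ c : ℤ, (C c : PowerSeries ℤ) = ((c : ℤ) : PowerSeries ℤ) := fun c => by
    rw [← map_intCast (C (R := ℤ)) c, Int.cast_id]
  simp only [hC, zsmul_eq_mul] at hT ⊢
  push_cast at hT ⊢
  linear_combination hT

/-- Frobenius in characteristic 2 for power series, coefficientwise -/
theorem coeff_sq_zmod_two (f : PowerSeries (ZMod 2)) (n : ℕ) :
    coeff n (f ^ 2) = if 2 ∣ n then coeff (n / 2) f else 0 := by
  have h1 : coeff n (f ^ 2) = (trunc (n + 1) f ^ 2).coeff n := by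
    rw [pow_two, coeff_mul_eq_coeff_trunc_mul_trunc f f (Nat.lt_succ_self n),
      ← Polynomial.coe_mul, Polynomial.coeff_coe, pow_two]
  rw [h1, ← ZMod.expand_card, Polynomial.coeff_expand (by norm_num)]
  split_ifs with h
  · rw [coeff_trunc, if_pos]
    have := Nat.div_le_self n 2
    omega
  · rfl

theorem coeff_sq_int_mod_two (f : PowerSeries ℤ) (n : ℕ) :
    ((coeff n (f ^ 2) : ℤ) : ZMod 2) =
      if 2 ∣ n then ((coeff (n / 2) f : ℤ) : ZMod 2) else 0 := by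
  have := coeff_sq_zmod_two (PowerSeries.map (Int.castRingHom (ZMod 2)) f) n
  rw [← map_pow, coeff_map, coeff_map] at this
  simpa using this

theorem two_dvd_Q {p : ℕ} (hp2 : Odd p) (g : PowerSeries ℤ)
    (hg : upSer p (upSer p g) = g) (n : ℕ) :
    (2 : ℤ) ∣ (p : ℤ) * coeff n (g ^ 2) + coeff (p * n) (upSer p g ^ 2) := by
  have h2 : ((2 : ℕ) : ℤ) = 2 := rfl
  rw [← h2, ← ZMod.intCast_zmod_eq_zero_iff_dvd]
  push_cast
  rw [coeff_sq_int_mod_two, coeff_sq_int_mod_two]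
  have hp1 : ((p : ℕ) : ZMod 2) = 1 := by
    rw [← Nat.cast_one, ZMod.natCast_eq_natCast_iff']
    rcases hp2 with ⟨k, rfl⟩
    omega
  by_cases hn : 2 ∣ n
  · obtain ⟨m, rfl⟩ := hn
    have e1 : 2 * m / 2 = m := by omega
    have e2 : p * (2 * m) / 2 = p * m := by
      rw [show p * (2 * m) = 2 * (p * m) by ring]; omega
    rw [if_pos (dvd_mul_right 2 m), if_pos (Dvd.intro (p * m) (by ring)), e1, e2,
      ← coeff_upSer, hg, hp1]
    have : (1 : ZMod 2) + 1 = 0 := by decide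
    linear_combination ((coeff m g : ℤ) : ZMod 2) * this
  · have hpn : ¬ 2 ∣ p * n := by
      intro h
      rcases (Nat.Prime.dvd_mul Nat.prime_two).mp h with h | h
      · rcases hp2 with ⟨k, rfl⟩; omega
      · exact hn h
    rw [if_neg hn, if_neg hpn]
    simp

theorem upSer_upSer_tailDiv {p : ℕ} (hp : p ≠ 0) {u : ℤ} {A B : PowerSeries ℤ}
    (h : TraceData p u A B) (M : ℤ) : upSer p (upSer p (tailDiv M A)) = tailDiv M A := by
  rw [← tailDiv_upSer hp, ← tailDiv_upSer hp, ← h.hB, ← h.hAB]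

theorem tailDiv_B {p : ℕ} (hp : p ≠ 0) {u : ℤ} {A B : PowerSeries ℤ}
    (h : TraceData p u A B) (M : ℤ) : tailDiv M B = upSer p (tailDiv M A) := by
  rw [h.hB, tailDiv_upSer hp]

/-- the quadratic term -/
noncomputable def quadT (p : ℕ) (g : PowerSeries ℤ) (n : ℕ) : ℤ :=
  (p : ℤ) * coeff n (g ^ 2) + coeff (p * n) (upSer p g ^ 2)

theorem coeff_key {p : ℕ} (hp : p ≠ 0) {u : ℤ} {A B : PowerSeries ℤ} (h : TraceData p u A B)
    {M : ℤ} (hM0 : M ≠ 0) (hM : ∀ n, 1 ≤ n → M ∣ coeff n A) (n : ℕ) :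
    2 * u * M * ((p : ℤ) + 1) * coeff n (tailDiv M A) + M ^ 2 * quadT p (tailDiv M A) n =
      240 * u ^ 2 * ((p : ℤ) + 1) * coeff n s3Ser := by
  have := congrArg (coeff n) (key_identity hp h hM0 hM)
  rw [map_add, coeff_C_mul, coeff_C_mul, map_add, coeff_C_mul, coeff_upSer, coeff_C_mul] at this
  exact this

theorem coeff_key' {p : ℕ} (hp : p ≠ 0) {u : ℤ} {A B : PowerSeries ℤ} (h : TraceData p u A B)
    {M : ℤ} (hM0 : M ≠ 0) (hM : ∀ n, 1 ≤ n → M ∣ coeff n A) (n : ℕ) :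
    2 * u * M * ((p : ℤ) + 1) * coeff (p * n) (tailDiv M A) +
        M ^ 2 * quadT p (upSer p (tailDiv M A)) n =
      240 * u ^ 2 * ((p : ℤ) + 1) * coeff n s3Ser := by
  have := coeff_key hp h.symm hM0 (h.dvd_coeff_B hp hM) n
  rw [tailDiv_B hp h, coeff_upSer] at this
  exact this

theorem K0 {p : ℕ} (hp : p ≠ 0) {u : ℤ} {A B : PowerSeries ℤ} (h : TraceData p u A B)
    {M : ℤ} (hM0 : M ≠ 0) (hM : ∀ n, 1 ≤ n → M ∣ coeff n A) :
    M ∣ 240 * u ^ 2 * ((p : ℤ) + 1) := by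
  have hA := coeff_key hp h hM0 hM 1
  rw [coeff_s3Ser, if_neg one_ne_zero, sigma_three_one] at hA
  exact ⟨2 * u * ((p : ℤ) + 1) * coeff 1 (tailDiv M A) + M * quadT p (tailDiv M A) 1,
    by linear_combination -hA⟩

theorem K1 {p : ℕ} (hp : p.Prime) {u : ℤ} {A B : PowerSeries ℤ} (h : TraceData p u A B)
    {M : ℤ} (hM0 : M ≠ 0) (hM : ∀ n, 1 ≤ n → M ∣ coeff n A) :
    M ^ 2 * (quadT p (tailDiv M A) p - quadT p (upSer p (tailDiv M A)) 1) =
      240 * u ^ 2 * ((p : ℤ) + 1) * (p : ℤ) ^ 3 := by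
  have hA := coeff_key hp.ne_zero h hM0 hM p
  have hB := coeff_key' hp.ne_zero h hM0 hM 1
  rw [coeff_s3Ser, if_neg hp.ne_zero, sigma_three_prime hp] at hA
  rw [coeff_s3Ser, if_neg one_ne_zero, sigma_three_one, mul_one] at hB
  linear_combination hA - hB

theorem K1_dvd {p : ℕ} (hp : p.Prime) {u : ℤ} {A B : PowerSeries ℤ} (h : TraceData p u A B)
    {M : ℤ} (hM0 : M ≠ 0) (hM : ∀ n, 1 ≤ n → M ∣ coeff n A) :
    M ^ 2 ∣ 240 * u ^ 2 * ((p : ℤ) + 1) * (p : ℤ) ^ 3 :=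
  ⟨_, (K1 hp h hM0 hM).symm⟩

theorem K1_dvd_two {p : ℕ} (hp : p.Prime) (hp2 : Odd p) {u : ℤ} {A B : PowerSeries ℤ}
    (h : TraceData p u A B)
    {M : ℤ} (hM0 : M ≠ 0) (hM : ∀ n, 1 ≤ n → M ∣ coeff n A) :
    2 * M ^ 2 ∣ 240 * u ^ 2 * ((p : ℤ) + 1) * (p : ℤ) ^ 3 := by
  have hg := upSer_upSer_tailDiv hp.ne_zero h M
  have h1 : (2 : ℤ) ∣ quadT p (tailDiv M A) p := two_dvd_Q hp2 _ hg p
  have h2 : (2 : ℤ) ∣ quadT p (upSer p (tailDiv M A)) 1 :=
    two_dvd_Q hp2 _ (by rw [hg]) 1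
  obtain ⟨c, hc⟩ := dvd_sub h1 h2
  exact ⟨c, by rw [← K1 hp h hM0 hM, hc]; ring⟩

/-! ### the six no-congruence statements -/

theorem int_prime_of_nat {r : ℕ} (hr : r.Prime) : Prime (r : ℤ) := Nat.prime_iff_prime_int.mp hr

/-- `r ≥ 7` prime, `r ∤ p + 1`, `r ∤ u`: the higher coefficients cannot all be divisible by `r`
(`r = p` allowed; `p` need not be prime here) -/
theorem ncr_alg' {p r : ℕ} (hp : p ≠ 0) (hr : r.Prime) (hr7 : 7 ≤ r) (hpr : ¬ r ∣ p + 1) {u : ℤ}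
    (hu : ¬ (r : ℤ) ∣ u) {A B : PowerSeries ℤ} (h : TraceData p u A B)
    (hA : ∀ n, 1 ≤ n → (r : ℤ) ∣ coeff n A) : False := by
  have hr0 : (r : ℤ) ≠ 0 := by exact_mod_cast hr.ne_zero
  have hP := int_prime_of_nat hr
  have h0 := K0 hp h hr0 hA
  rcases hP.dvd_mul.mp h0 with h1 | h1
  · rcases hP.dvd_mul.mp h1 with h2 | h2
    · have h3 : r ∣ 240 := by exact_mod_cast h2
      have h4 : r ∣ 2 ^ 4 * 3 * 5 := by simpa using h3
      rcases (Nat.Prime.dvd_mul hr).mp h4 with h5 | h5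
      · rcases (Nat.Prime.dvd_mul hr).mp h5 with h6 | h6
        · have := Nat.le_of_dvd (by norm_num) (hr.dvd_of_dvd_pow h6); omega
        · have := Nat.le_of_dvd (by norm_num) h6; omega
      · have := Nat.le_of_dvd (by norm_num) h5; omega
    · exact hu (hP.dvd_of_dvd_pow h2)
  · exact hpr (by exact_mod_cast h1)

/-- `r = 5 ≠ p`, `5 ∤ p + 1`, `5 ∤ u` -/
theorem nc5_alg {p : ℕ} (hp : p.Prime) (hp5 : p ≠ 5) (hpr : ¬ 5 ∣ p + 1) {u : ℤ}
    (hu : ¬ (5 : ℤ) ∣ u) {A B : PowerSeries ℤ} (h : TraceData p u A B)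
    (hA : ∀ n, 1 ≤ n → (5 : ℤ) ∣ coeff n A) : False := by
  have hP : Prime (5 : ℤ) := int_prime_of_nat (r := 5) (by norm_num)
  have h1 := K1_dvd hp h (by norm_num) hA
  have h2 : (5 : ℤ) * 5 ∣ 5 * (48 * u ^ 2 * ((p : ℤ) + 1) * (p : ℤ) ^ 3) := by
    convert h1 using 1 <;> ring
  have h3 : (5 : ℤ) ∣ 48 * u ^ 2 * ((p : ℤ) + 1) * (p : ℤ) ^ 3 :=
    (mul_dvd_mul_iff_left (by norm_num)).mp h2
  rcases hP.dvd_mul.mp h3 with h4 | h4
  · rcases hP.dvd_mul.mp h4 with h5 | h5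
    · rcases hP.dvd_mul.mp h5 with h6 | h6
      · norm_num at h6
      · exact hu (hP.dvd_of_dvd_pow h6)
    · exact hpr (by exact_mod_cast h5)
  · have h5 : (5 : ℤ) ∣ (p : ℤ) := hP.dvd_of_dvd_pow h4
    have h6 : 5 ∣ p := by exact_mod_cast h5
    exact hp5 ((Nat.prime_dvd_prime_iff_eq (by norm_num) hp).mp h6).symm

theorem nc3a_alg {p : ℕ} (hp : p.Prime) (hp3 : p % 3 = 1) {u : ℤ} (hu : ¬ (3 : ℤ) ∣ u)
    {A B : PowerSeries ℤ} (h : TraceData p u A B)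
    (hA : ∀ n, 1 ≤ n → (3 : ℤ) ∣ coeff n A) : False := by
  have hP : Prime (3 : ℤ) := int_prime_of_nat (r := 3) (by norm_num)
  have h1 := K1_dvd hp h (by norm_num) hA
  have h2 : (3 : ℤ) * 3 ∣ 3 * (80 * u ^ 2 * ((p : ℤ) + 1) * (p : ℤ) ^ 3) := by
    convert h1 using 1 <;> ring
  have h3 : (3 : ℤ) ∣ 80 * u ^ 2 * ((p : ℤ) + 1) * (p : ℤ) ^ 3 :=
    (mul_dvd_mul_iff_left (by norm_num)).mp h2
  rcases hP.dvd_mul.mp h3 with h4 | h4
  · rcases hP.dvd_mul.mp h4 with h5 | h5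
    · rcases hP.dvd_mul.mp h5 with h6 | h6
      · norm_num at h6
      · exact hu (hP.dvd_of_dvd_pow h6)
    · have : 3 ∣ p + 1 := by exact_mod_cast h5
      omega
  · have h5 : (3 : ℤ) ∣ (p : ℤ) := hP.dvd_of_dvd_pow h4
    have h6 : 3 ∣ p := by exact_mod_cast h5
    omega

theorem nc3b_alg {p : ℕ} (hp : p.Prime) (hp9 : p % 9 = 2 ∨ p % 9 = 5) {u : ℤ}
    (hu : ¬ (3 : ℤ) ∣ u) {A B : PowerSeries ℤ} (h : TraceData p u A B)
    (hA : ∀ n, 1 ≤ n → (9 : ℤ) ∣ coeff n A) : False := by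
  have hP : Prime (3 : ℤ) := int_prime_of_nat (r := 3) (by norm_num)
  have h1 := K1_dvd hp h (by norm_num) hA
  obtain ⟨t, ht, ht3⟩ : ∃ t : ℕ, p + 1 = 3 * t ∧ ¬ 3 ∣ t := by
    refine ⟨(p + 1) / 3, by omega, by omega⟩
  have htz : ((p : ℤ) + 1) = 3 * (t : ℤ) := by exact_mod_cast ht
  have h2 : (9 : ℤ) * 9 ∣ 9 * (80 * u ^ 2 * (t : ℤ) * (p : ℤ) ^ 3) := by
    rw [htz] at h1
    convert h1 using 1 <;> ring
  have h3 : (3 : ℤ) ∣ 80 * u ^ 2 * (t : ℤ) * (p : ℤ) ^ 3 :=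
    dvd_trans (by norm_num) ((mul_dvd_mul_iff_left (by norm_num)).mp h2)
  rcases hP.dvd_mul.mp h3 with h4 | h4
  · rcases hP.dvd_mul.mp h4 with h5 | h5
    · rcases hP.dvd_mul.mp h5 with h6 | h6
      · norm_num at h6
      · exact hu (hP.dvd_of_dvd_pow h6)
    · exact ht3 (by exact_mod_cast h5)
  · have h5 : (3 : ℤ) ∣ (p : ℤ) := hP.dvd_of_dvd_pow h4
    have h6 : 3 ∣ p := by exact_mod_cast h5
    omega

theorem coeff_eq_mul_tailDiv {M : ℤ} {A : PowerSeries ℤ}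
    (hM : ∀ n, 1 ≤ n → M ∣ coeff n A) {n : ℕ} (hn : 1 ≤ n) :
    coeff n A = M * coeff n (tailDiv M A) := by
  rw [coeff_tailDiv, if_neg (Nat.one_le_iff_ne_zero.mp hn), Int.mul_ediv_cancel' (hM n hn)]

/-- parity bookkeeping: `2 ∣ 15 u² t p³` is impossible for odd `u, t, p` -/
theorem not_two_dvd_odd {u t q : ℤ} (hu : Odd u) (ht : Odd t) (hq : Odd q) :
    ¬ (2 : ℤ) ∣ 15 * u ^ 2 * t * q ^ 3 := by
  rw [← even_iff_two_dvd, Int.not_even_iff_odd]
  exact (((show Odd (15 : ℤ) by decide).mul hu.pow).mul ht).mul hq.pow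

theorem nc2b3_alg {p : ℕ} (hp : p.Prime) (hp8 : p % 8 = 3) {u : ℤ} (hu : Odd u)
    {A B : PowerSeries ℤ} (h : TraceData p u A B)
    (h8 : ∀ n, 1 ≤ n → (8 : ℤ) ∣ coeff n A) : False := by
  have hp2 : Odd p := Nat.odd_iff.mpr (by omega)
  have h1 := K1_dvd_two hp hp2 h (by norm_num) h8
  obtain ⟨t, ht, ht2⟩ : ∃ t : ℕ, p + 1 = 4 * t ∧ Odd t := by
    refine ⟨(p + 1) / 4, by omega, Nat.odd_iff.mpr (by omega)⟩
  have htz : ((p : ℤ) + 1) = 4 * (t : ℤ) := by exact_mod_cast ht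
  have h2 : (64 : ℤ) * 2 ∣ 64 * (15 * u ^ 2 * (t : ℤ) * (p : ℤ) ^ 3) := by
    rw [htz] at h1
    convert h1 using 1 <;> ring
  have h3 : (2 : ℤ) ∣ 15 * u ^ 2 * (t : ℤ) * (p : ℤ) ^ 3 :=
    (mul_dvd_mul_iff_left (by norm_num)).mp h2
  exact not_two_dvd_odd hu (by exact_mod_cast ht2) (by exact_mod_cast hp2) h3

theorem nc2a_alg {p : ℕ} (hp : p.Prime) (hp4 : p % 4 = 1) {u : ℤ} (hu : Odd u)
    {A B : PowerSeries ℤ} (h : TraceData p u A B)
    (h4 : ∀ n, 1 ≤ n → (4 : ℤ) ∣ coeff n A) : False := by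
  have hp2 : Odd p := Nat.odd_iff.mpr (by omega)
  obtain ⟨t, ht, ht2⟩ : ∃ t : ℕ, p + 1 = 2 * t ∧ Odd t := by
    refine ⟨(p + 1) / 2, by omega, Nat.odd_iff.mpr (by omega)⟩
  have htz : ((p : ℤ) + 1) = 2 * (t : ℤ) := by exact_mod_cast ht
  have htz2 : Odd (t : ℤ) := by exact_mod_cast ht2
  -- step 1: all `a_n / 4` are even
  have h8 : ∀ n, 1 ≤ n → (8 : ℤ) ∣ coeff n A := by
    intro n hn
    have hk := coeff_key hp.ne_zero h (M := 4) (by norm_num) h4 n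
    obtain ⟨c, hc⟩ : (2 : ℤ) ∣ quadT p (tailDiv 4 A) n :=
      two_dvd_Q hp2 _ (upSer_upSer_tailDiv hp.ne_zero h 4) n
    rw [htz, hc] at hk
    have hev : Even (u * (t : ℤ) * coeff n (tailDiv 4 A)) := by
      refine ⟨15 * u ^ 2 * t * coeff n s3Ser - c, ?_⟩
      have h16 : (16 : ℤ) * (u * (t : ℤ) * coeff n (tailDiv 4 A)) =
          16 * (15 * u ^ 2 * t * coeff n s3Ser - c + (15 * u ^ 2 * t * coeff n s3Ser - c)) := by
        linear_combination hk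
      exact mul_left_cancel₀ (by norm_num) h16
    rw [Int.even_mul, Int.even_mul] at hev
    rcases hev with (hev | hev) | hev
    · exact absurd hev (Int.not_even_iff_odd.mpr hu)
    · exact absurd hev (Int.not_even_iff_odd.mpr htz2)
    · obtain ⟨d, hd⟩ := hev
      rw [coeff_eq_mul_tailDiv h4 hn, hd]
      exact ⟨d, by ring⟩
  -- step 2
  have h1 := K1_dvd hp h (by norm_num) h8
  have h2 : (32 : ℤ) * 2 ∣ 32 * (15 * u ^ 2 * (t : ℤ) * (p : ℤ) ^ 3) := by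
    rw [htz] at h1
    convert h1 using 1 <;> ring
  have h3 : (2 : ℤ) ∣ 15 * u ^ 2 * (t : ℤ) * (p : ℤ) ^ 3 :=
    (mul_dvd_mul_iff_left (by norm_num)).mp h2
  exact not_two_dvd_odd hu htz2 (by exact_mod_cast hp2) h3

/-- `ncr_alg'` with the signature announced on the board -/
theorem ncr_alg {p r : ℕ} (hp : p.Prime) (hr : r.Prime) (hr7 : 7 ≤ r) (hpr : ¬ r ∣ p + 1)
    {u : ℤ} (hu : ¬ (r : ℤ) ∣ u) {A B : PowerSeries ℤ} (h : TraceData p u A B)
    (hA : ∀ n, 1 ≤ n → (r : ℤ) ∣ coeff n A) : False :=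
  ncr_alg' hp.ne_zero hr hr7 hpr hu h hA

/-- all primes `r ≥ 5` at once (excluding only `r = p = 5`) -/
theorem ncge5_alg {p r : ℕ} (hp : p.Prime) (hr : r.Prime) (hr5 : 5 ≤ r)
    (h55 : r = 5 → p ≠ 5) (hpr : ¬ r ∣ p + 1)
    {u : ℤ} (hu : ¬ (r : ℤ) ∣ u) {A B : PowerSeries ℤ} (h : TraceData p u A B)
    (hA : ∀ n, 1 ≤ n → (r : ℤ) ∣ coeff n A) : False := by
  rcases Nat.lt_or_ge r 7 with h7 | h7
  · have h5 : r = 5 := by
      interval_cases r
      · rfl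
      · exact absurd hr (by decide)
    subst h5
    exact nc5_alg hp (h55 rfl) hpr (by exact_mod_cast hu) h (by exact_mod_cast hA)
  · exact ncr_alg hp hr h7 hpr hu h hA

end Fermat.Agent.S16_helper18_TRALG
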