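import Fermat.Agent.S20_Basic
import Fermat.Prelude.Def_ModularForm_HeckeOperatorForms

set_option autoImplicit false

open UpperHalfPlane ModularForm CongruenceSubgroup Matrix.SpecialLinearGroup
open scoped MatrixGroups ModularForm Manifold

namespace Fermat.Agent.S16_helper6_WTRICK

open Fermat.Agent.S20

noncomputable section

/-- The Fricke matrix `[[0, -1], [p, 0]]`. -/
def frickeGL (p : ℕ) [NeZero p] : GL (Fin 2) ℝ :=
  Matrix.GeneralLinearGroup.mkOfDetNeZero !![0, -1; (p : ℝ), 0]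
    (by
      rw [Matrix.det_fin_two_of]
      have : (p : ℝ) ≠ 0 := Nat.cast_ne_zero.mpr (NeZero.ne p)
      simpa using this)

@[simp] theorem val_frickeGL (p : ℕ) [NeZero p] :
    ((frickeGL p : GL (Fin 2) ℝ) : Matrix (Fin 2) (Fin 2) ℝ) = !![0, -1; (p : ℝ), 0] := rfl

theorem det_frickeGL (p : ℕ) [NeZero p] : ((frickeGL p).det : ℝ) = p := by
  rw [Matrix.GeneralLinearGroup.val_det_apply, val_frickeGL, Matrix.det_fin_two_of]
  ring

/-- The scalar matrix `c • 1`. -/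
def scalarGL (c : ℝ) (hc : c ≠ 0) : GL (Fin 2) ℝ :=
  Matrix.GeneralLinearGroup.mkOfDetNeZero !![c, 0; 0, c]
    (by rw [Matrix.det_fin_two_of]; simp [hc])

@[simp] theorem val_scalarGL (c : ℝ) (hc : c ≠ 0) :
    ((scalarGL c hc : GL (Fin 2) ℝ) : Matrix (Fin 2) (Fin 2) ℝ) = !![c, 0; 0, c] := rfl

/-- Slashing by a scalar matrix is trivial in weight `2`. -/
theorem slash_scalarGL (c : ℝ) (hc : c ≠ 0) (f : ℍ → ℂ) :
    f ∣[(2 : ℤ)] scalarGL c hc = f := by
  funext z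
  have hdet : ((scalarGL c hc).det : ℝ) = c * c := by
    rw [Matrix.GeneralLinearGroup.val_det_apply, val_scalarGL, Matrix.det_fin_two_of]
    ring
  have hpos : 0 < ((scalarGL c hc).det : ℝ) := by
    rw [hdet]; exact mul_self_pos.mpr hc
  have hσ : UpperHalfPlane.σ (scalarGL c hc) = .refl ℝ ℂ := by
    rw [UpperHalfPlane.σ, if_pos hpos]
  have hden : UpperHalfPlane.denom (scalarGL c hc) z = c := by
    simp [UpperHalfPlane.denom]
  have hc' : (c : ℂ) ≠ 0 := by exact_mod_cast hc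
  have hsm : scalarGL c hc • z = z := by
    apply UpperHalfPlane.ext
    rw [UpperHalfPlane.coe_smul_of_det_pos hpos]
    simp only [UpperHalfPlane.num, UpperHalfPlane.denom, val_scalarGL, Matrix.of_apply,
      Matrix.cons_val', Matrix.cons_val_zero, Matrix.cons_val_fin_one, Matrix.cons_val_one,
      Complex.ofReal_zero, zero_mul, add_zero, zero_add]
    field_simp
  rw [ModularForm.slash_apply, hσ, hdet, hden, hsm]
  simp only [ContinuousAlgEquiv.refl_apply]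
  rw [abs_of_pos (mul_self_pos.mpr hc)]
  push_cast
  field_simp


theorem mapGL_val (g : SL(2, ℤ)) :
    ((mapGL ℝ g : GL (Fin 2) ℝ) : Matrix (Fin 2) (Fin 2) ℝ) =
      (g : Matrix (Fin 2) (Fin 2) ℤ).map (fun x : ℤ => (x : ℝ)) := by
  rw [mapGL_coe_matrix, map_apply_coe, RingHom.mapMatrix_apply]
  rfl

theorem STj_entries (j : ℤ) :
    ((ModularGroup.S * ModularGroup.T ^ j : SL(2, ℤ)) : Matrix (Fin 2) (Fin 2) ℤ) =
      !![0, -1; 1, j] := by
  rw [Matrix.SpecialLinearGroup.coe_mul, ModularGroup.coe_S, ModularGroup.coe_T_zpow]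
  ext a b
  fin_cases a <;> fin_cases b <;> simp [Matrix.mul_apply, Fin.sum_univ_two]

theorem fricke_mul_heckeMatrix (p : ℕ) [NeZero p] (j : ℕ) :
    frickeGL p * heckeMatrix p j =
      scalarGL (p : ℝ) (Nat.cast_ne_zero.mpr (NeZero.ne p)) *
        mapGL ℝ (ModularGroup.S * ModularGroup.T ^ (j : ℤ)) := by
  apply Matrix.GeneralLinearGroup.ext
  intro a b
  rw [Matrix.GeneralLinearGroup.coe_mul, Matrix.GeneralLinearGroup.coe_mul, val_frickeGL,
    val_heckeMatrix (NeZero.ne p), val_scalarGL, mapGL_val, STj_entries]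
  fin_cases a <;> fin_cases b <;> simp [Matrix.mul_apply, Fin.sum_univ_two]

theorem fricke_mul_fricke (p : ℕ) [NeZero p] :
    frickeGL p * frickeGL p =
      scalarGL (-(p : ℝ)) (neg_ne_zero.mpr (Nat.cast_ne_zero.mpr (NeZero.ne p))) := by
  apply Matrix.GeneralLinearGroup.ext
  intro a b
  rw [Matrix.GeneralLinearGroup.coe_mul, val_frickeGL, val_scalarGL]
  fin_cases a <;> fin_cases b <;> simp [Matrix.mul_apply, Fin.sum_univ_two]

/-- The Fricke matrix normalises `Γ₀(p)`. -/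
theorem fricke_normalizes (p : ℕ) [NeZero p] (γ : SL(2, ℤ)) (hγ : γ ∈ Gamma0 p) :
    ∃ γ' : SL(2, ℤ), γ' ∈ Gamma0 p ∧ frickeGL p * mapGL ℝ γ = mapGL ℝ γ' * frickeGL p := by
  rw [Gamma0_mem] at hγ
  obtain ⟨c, hc⟩ : (p : ℤ) ∣ γ 1 0 := (ZMod.intCast_zmod_eq_zero_iff_dvd _ _).mp hγ
  have hdet : γ 0 0 * γ 1 1 - γ 0 1 * γ 1 0 = 1 := by
    have := γ.det_coe
    rwa [Matrix.det_fin_two] at this
  have hdet' : Matrix.det !![γ 1 1, -c; -(p : ℤ) * γ 0 1, γ 0 0] = 1 := by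
    rw [Matrix.det_fin_two_of]
    rw [hc] at hdet
    linear_combination hdet
  obtain ⟨γ', hγ'⟩ : ∃ γ' : SL(2, ℤ), (γ' : Matrix (Fin 2) (Fin 2) ℤ) =
      !![γ 1 1, -c; -(p : ℤ) * γ 0 1, γ 0 0] := ⟨⟨_, hdet'⟩, rfl⟩
  refine ⟨γ', ?_, ?_⟩
  · rw [Gamma0_mem, hγ']
    simp
  · apply Matrix.GeneralLinearGroup.ext
    intro a b
    rw [Matrix.GeneralLinearGroup.coe_mul, Matrix.GeneralLinearGroup.coe_mul, val_frickeGL,
      mapGL_val, mapGL_val, hγ']
    have hc' : ((γ 1 0 : ℤ) : ℝ) = (p : ℝ) * (c : ℝ) := by rw [hc]; push_cast; ring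
    fin_cases a <;> fin_cases b <;>
      simp [Matrix.mul_apply, Fin.sum_univ_two, hc'] <;> ring


open ConjAct Pointwise in
theorem Gamma0_le_conj (p : ℕ) [NeZero p] :
    (Gamma0 p : Subgroup (GL (Fin 2) ℝ)) ≤
      toConjAct (frickeGL p)⁻¹ • (Gamma0 p : Subgroup (GL (Fin 2) ℝ)) := by
  rintro x ⟨γ, hγ, rfl⟩
  rw [map_inv, Subgroup.mem_inv_pointwise_smul_iff, toConjAct_smul]
  obtain ⟨γ', hγ', h⟩ := fricke_normalizes p γ hγ
  rw [h, mul_inv_cancel_right]
  exact ⟨γ', hγ', rfl⟩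

/-- The Fricke involution preserves modular forms on `Γ₀(p)`. -/
theorem isMF_fricke {p : ℕ} [NeZero p] {k : ℤ} {f : ℍ → ℂ} (hf : IsMF p k f) :
    IsMF p k (f ∣[k] frickeGL p) := by
  obtain ⟨F, rfl⟩ := hf
  refine isMF_iff.mpr ⟨(ModularFormClass.holo F).slash k _, fun γ hγ => ?_, fun γ => ?_⟩
  · obtain ⟨γ', hγ', h⟩ := fricke_normalizes p γ hγ
    have e : ((⇑F) ∣[k] frickeGL p) ∣[k] γ = ((⇑F) ∣[k] frickeGL p) ∣[k] (mapGL ℝ γ) := rfl
    rw [e, ← SlashAction.slash_mul, h, SlashAction.slash_mul]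
    congr 1
    exact SlashInvariantFormClass.slash_action_eq F _ (Subgroup.mem_map_of_mem _ hγ')
  · have hc : IsCusp (mapGL ℝ γ • OnePoint.infty) (Gamma0 p : Subgroup (GL (Fin 2) ℝ)) := by
      rw [Subgroup.IsArithmetic.isCusp_iff_isCusp_SL2Z]
      exact isCusp_SL2Z_iff'.mpr ⟨γ, rfl⟩
    have hc' := hc.mono (Gamma0_le_conj p)
    have := (ModularForm.translate F (frickeGL p)).bdd_at_cusps' hc'
    rw [OnePoint.isBoundedAt_iff (g := mapGL ℝ γ) rfl] at this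
    exact this


/-- The trace to level one of a weight two form vanishes. -/
theorem sum_cj_eq_zero {p : ℕ} [NeZero p] {f : ℍ → ℂ} (hf : IsMF p 2 f) :
    ∑ q : Q p, cj p 2 f q = 0 := by
  obtain ⟨F, hF⟩ := isMF1_sum_cj hf
  have h0 : F = 0 := rank_zero_iff_forall_zero.mp ModularForm.levelOne_weight_two_rank_zero F
  rw [← hF, h0]
  rfl

theorem STj_inv_entries (j : ℤ) :
    (((ModularGroup.S * ModularGroup.T ^ j)⁻¹ : SL(2, ℤ)) : Matrix (Fin 2) (Fin 2) ℤ) =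
      !![j, 1; -1, 0] := by
  rw [Matrix.SpecialLinearGroup.coe_inv, STj_entries, Matrix.adjugate_fin_two_of]
  simp

/-- The representatives of the cosets. -/
def rep (p : ℕ) : Option (Fin p) → SL(2, ℤ)
  | none => 1
  | some j => (ModularGroup.S * ModularGroup.T ^ ((j : ℕ) : ℤ))⁻¹

theorem rep_injective (p : ℕ) [Fact p.Prime] :
    Function.Injective (fun o : Option (Fin p) => ((rep p o : SL(2, ℤ)) : Q p)) := by
  have hp := (Fact.out : p.Prime)
  have h1 : ∀ j : Fin p, ((rep p none : SL(2, ℤ)) : Q p) ≠ ((rep p (some j) : SL(2, ℤ)) : Q p) := by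
    intro j h
    rw [QuotientGroup.eq] at h
    simp only [rep, inv_one, one_mul] at h
    have h2 := inv_mem h
    rw [inv_inv, Gamma0_mem, STj_entries] at h2
    have : Fact (1 < p) := ⟨hp.one_lt⟩
    simp at h2
  rintro (_ | i) (_ | j) h
  · rfl
  · exact absurd h (h1 j)
  · exact absurd h.symm (h1 i)
  · simp only at h
    rw [QuotientGroup.eq] at h
    simp only [rep, inv_inv] at h
    rw [Gamma0_mem, Matrix.SpecialLinearGroup.coe_mul, STj_entries, STj_inv_entries] at h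
    simp [Matrix.mul_apply, Fin.sum_univ_two] at h
    have h3 : ((i : ℕ) : ZMod p) = ((j : ℕ) : ZMod p) := by
      have : (((j : ℕ) : ℤ) : ZMod p) - (((i : ℕ) : ℤ) : ZMod p) = 0 := by
        push_cast at h ⊢
        linear_combination h
      have := sub_eq_zero.mp this
      exact_mod_cast this.symm
    rw [ZMod.natCast_eq_natCast_iff'] at h3
    rw [Nat.mod_eq_of_lt i.2, Nat.mod_eq_of_lt j.2] at h3
    exact congrArg some (Fin.ext h3)

theorem rep_surjective (p : ℕ) [Fact p.Prime] :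
    Function.Surjective (fun o : Option (Fin p) => ((rep p o : SL(2, ℤ)) : Q p)) := by
  have hp := (Fact.out : p.Prime)
  intro q
  induction q using QuotientGroup.induction_on with
  | H h =>
    by_cases hc : (((h⁻¹ : SL(2, ℤ)) 1 0 : ℤ) : ZMod p) = 0
    · refine ⟨none, ?_⟩
      show ((rep p none : SL(2, ℤ)) : Q p) = (h : Q p)
      rw [QuotientGroup.eq]
      simp only [rep, inv_one, one_mul]
      have : h⁻¹ ∈ Gamma0 p := by rw [Gamma0_mem]; exact hc
      simpa using inv_mem this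
    · have hp0 : NeZero p := ⟨hp.ne_zero⟩
      have key : ∀ g : SL(2, ℤ), ((g 1 0 : ℤ) : ZMod p) ≠ 0 →
          ∃ j : Fin p, g * (ModularGroup.S * ModularGroup.T ^ ((j : ℕ) : ℤ))⁻¹ ∈ Gamma0 p := by
        intro g hg
        set c : ZMod p := ((g 1 0 : ℤ) : ZMod p) with hcdef
        set d : ZMod p := ((g 1 1 : ℤ) : ZMod p) with hddef
        refine ⟨⟨(d * c⁻¹).val, ZMod.val_lt _⟩, ?_⟩
        rw [Gamma0_mem, Matrix.SpecialLinearGroup.coe_mul, STj_inv_entries]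
        simp only [Matrix.mul_apply, Fin.sum_univ_two, Matrix.of_apply, Matrix.cons_val',
          Matrix.cons_val_zero, Matrix.cons_val_fin_one, Matrix.cons_val_one]
        push_cast
        rw [ZMod.natCast_val, ZMod.cast_id', id_eq, ← hcdef, ← hddef]
        field_simp
        ring
      obtain ⟨j, hj⟩ := key h⁻¹ hc
      refine ⟨some j, ?_⟩
      show ((rep p (some j) : SL(2, ℤ)) : Q p) = (h : Q p)
      rw [eq_comm, QuotientGroup.eq]
      exact hj

theorem rep_bijective (p : ℕ) [Fact p.Prime] :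
    Function.Bijective (fun o : Option (Fin p) => ((rep p o : SL(2, ℤ)) : Q p)) :=
  ⟨rep_injective p, rep_surjective p⟩


theorem sum_Q_eq (p : ℕ) [Fact p.Prime] [NeZero p] {M : Type*} [AddCommMonoid M]
    (g : Q p → M) :
    ∑ q : Q p, g q = g ((1 : SL(2, ℤ)) : Q p) +
      ∑ j ∈ Finset.range p,
        g (((ModularGroup.S * ModularGroup.T ^ (j : ℤ))⁻¹ : SL(2, ℤ)) : Q p) := by
  rw [← Fintype.sum_bijective _ (rep_bijective p) (fun o => g ((rep p o : SL(2, ℤ)) : Q p)) g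
    (fun _ => rfl), Fintype.sum_option]
  congr 1
  rw [← Fin.sum_univ_eq_sum_range
    (fun j => g (((ModularGroup.S * ModularGroup.T ^ (j : ℤ))⁻¹ : SL(2, ℤ)) : Q p))]
  rfl

theorem prod_Q_eq (p : ℕ) [Fact p.Prime] [NeZero p] {M : Type*} [CommMonoid M]
    (g : Q p → M) :
    ∏ q : Q p, g q = g ((1 : SL(2, ℤ)) : Q p) *
      ∏ j ∈ Finset.range p,
        g (((ModularGroup.S * ModularGroup.T ^ (j : ℤ))⁻¹ : SL(2, ℤ)) : Q p) := by
  rw [← Fintype.prod_bijective _ (rep_bijective p) (fun o => g ((rep p o : SL(2, ℤ)) : Q p)) g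
    (fun _ => rfl), Fintype.prod_option]
  congr 1
  rw [← Fin.prod_univ_eq_prod_range
    (fun j => g (((ModularGroup.S * ModularGroup.T ^ (j : ℤ))⁻¹ : SL(2, ℤ)) : Q p))]
  rfl

variable {p : ℕ} [Fact p.Prime] [NeZero p]

/-- Coset enumeration for the sum of the conjugates (any weight). -/
theorem sum_cj_eq (k : ℤ) {F : ℍ → ℂ} (hF : IsMF p k F) :
    ∑ q : Q p, cj p k F q =
      F + ∑ j ∈ Finset.range p, F ∣[k] (ModularGroup.S * ModularGroup.T ^ (j : ℤ)) := by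
  rw [sum_Q_eq p (cj p k F), cj_one hF]
  congr 1
  refine Finset.sum_congr rfl fun j _ => ?_
  rw [cj_eq hF, inv_inv]

/-- Coset enumeration for the product of the conjugates (any weight). -/
theorem prod_cj_eq (k : ℤ) {F : ℍ → ℂ} (hF : IsMF p k F) :
    ∏ q : Q p, cj p k F q =
      F * ∏ j ∈ Finset.range p, F ∣[k] (ModularGroup.S * ModularGroup.T ^ (j : ℤ)) := by
  rw [prod_Q_eq p (cj p k F), cj_one hF]
  congr 1
  refine Finset.prod_congr rfl fun j _ => ?_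
  rw [cj_eq hF, inv_inv]

omit [Fact p.Prime] in
/-- slashing first by the Fricke matrix and then by a Hecke matrix -/
theorem fricke_slash_heckeMatrix (f : ℍ → ℂ) (j : ℕ) :
    (f ∣[(2 : ℤ)] frickeGL p) ∣[(2 : ℤ)] heckeMatrix p j =
      f ∣[(2 : ℤ)] (ModularGroup.S * ModularGroup.T ^ (j : ℤ)) := by
  have e : f ∣[(2 : ℤ)] (ModularGroup.S * ModularGroup.T ^ (j : ℤ)) =
      f ∣[(2 : ℤ)] (mapGL ℝ (ModularGroup.S * ModularGroup.T ^ (j : ℤ))) := rfl
  rw [← SlashAction.slash_mul, fricke_mul_heckeMatrix, SlashAction.slash_mul, slash_scalarGL, e]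

omit [Fact p.Prime] in
theorem fricke_slash_fricke (f : ℍ → ℂ) :
    (f ∣[(2 : ℤ)] frickeGL p) ∣[(2 : ℤ)] frickeGL p = f := by
  rw [← SlashAction.slash_mul, fricke_mul_fricke, slash_scalarGL]

/-- `U_p (f | W) = -f` on `M₂(Γ₀(p))`. -/
theorem heckeU_fricke {f : ℍ → ℂ} (hf : IsMF p 2 f) :
    heckeU 2 p (f ∣[(2 : ℤ)] frickeGL p) = -f := by
  have h1 := sum_cj_eq_zero hf
  rw [sum_cj_eq 2 hf] at h1
  rw [heckeU_def]
  simp only [fricke_slash_heckeMatrix]
  exact eq_neg_of_add_eq_zero_right h1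

/-- `U_p f = -(f | W)` on `M₂(Γ₀(p))`. -/
theorem heckeU_eq_neg_fricke {f : ℍ → ℂ} (hf : IsMF p 2 f) :
    heckeU 2 p f = -(f ∣[(2 : ℤ)] frickeGL p) := by
  have := heckeU_fricke (isMF_fricke hf)
  rwa [fricke_slash_fricke] at this

/-- `U_p` is an involution on `M₂(Γ₀(p))`. -/
theorem heckeU_heckeU {f : ℍ → ℂ} (hf : IsMF p 2 f) : heckeU 2 p (heckeU 2 p f) = f := by
  rw [heckeU_eq_neg_fricke hf, heckeU_neg, heckeU_fricke hf, neg_neg]

theorem isMF_heckeU {f : ℍ → ℂ} (hf : IsMF p 2 f) : IsMF p 2 (heckeU 2 p f) := by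
  rw [heckeU_eq_neg_fricke hf]
  exact (isMF_fricke hf).neg

/-- The conjugates of a weight two form `f` on `Γ₀(p)` in terms of `U_p f`. -/
theorem slash_ST_eq_slash {f : ℍ → ℂ} (hf : IsMF p 2 f) (j : ℕ) :
    f ∣[(2 : ℤ)] (ModularGroup.S * ModularGroup.T ^ (j : ℤ)) =
      -(heckeU 2 p f ∣[(2 : ℤ)] heckeMatrix p j) := by
  rw [← fricke_slash_heckeMatrix (p := p), heckeU_eq_neg_fricke hf, SlashAction.neg_slash, neg_neg]

theorem slash_ST_eq {f : ℍ → ℂ} (hf : IsMF p 2 f) (j : ℕ) (z : ℍ) :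
    (f ∣[(2 : ℤ)] (ModularGroup.S * ModularGroup.T ^ (j : ℤ))) z =
      -(p : ℂ)⁻¹ * heckeU 2 p f (heckeMatrix p j • z) := by
  rw [slash_ST_eq_slash hf, Pi.neg_apply, slash_heckeMatrix_apply 2 (NeZero.ne p)]
  ring

theorem slash_ST_eq' {f : ℍ → ℂ} (hf : IsMF p 2 f) (j : ℕ) (z : ℍ) :
    (f ∣[(2 : ℤ)] (ModularGroup.S * ModularGroup.T ^ (j : ℤ))) z =
      -(p : ℂ)⁻¹ * heckeU 2 p f (ofComplex (((z : ℂ) + j) / p)) := by
  rw [slash_ST_eq hf, ← coe_heckeMatrix_smul (NeZero.ne p) j z, UpperHalfPlane.ofComplex_apply]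

end

end Fermat.Agent.S16_helper6_WTRICK
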