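import Fermat.Agent.S28_helper25_HD
import Fermat.Prelude.Thm_UpperHalfPlane_qCoeff_heckeU
import Fermat.Prelude.Thm_ModularForm_isBoundedAtImInfty_heckeU
import Fermat.Prelude.Thm_ModularForm_mdifferentiable_heckeU
import Fermat.Prelude.Thm_ModularForm_periodic_heckeU_comp_ofComplex
import Fermat.Agent.S16_helper6_WTRICK
import Fermat.Agent.S16_helper18_TRALG

/-!
# S16, upper bound tool (Tb): the weight-4 trace identity

For `G ∈ M₂(Γ₀(p))` with `q`-expansion `A`, `H = U_p G` with `q`-expansion `B = U_p A`: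
`p A² + U_p (B²) = a₀² (p + 1) E₄` (as `q`-expansions), and the same with `A`, `B` exchanged.
-/

set_option autoImplicit false

open UpperHalfPlane ModularForm CongruenceSubgroup
open scoped MatrixGroups ModularForm Manifold
open Fermat.Agent.S20 Fermat.Agent.S28_helper14_ADefs

namespace Fermat.Agent.S16_helper16_TB

/-- `U_p` on complex power series. -/
noncomputable def upSerC (p : ℕ) (f : PowerSeries ℂ) : PowerSeries ℂ :=
  PowerSeries.mk fun n => PowerSeries.coeff (p * n) f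

@[simp] theorem coeff_upSerC (p : ℕ) (f : PowerSeries ℂ) (n : ℕ) :
    PowerSeries.coeff n (upSerC p f) = PowerSeries.coeff (p * n) f := by
  simp [upSerC]

theorem upSerC_smul (p : ℕ) (c : ℂ) (f : PowerSeries ℂ) :
    upSerC p (c • f) = c • upSerC p f := by
  ext n; simp

theorem upSerC_add (p : ℕ) (f g : PowerSeries ℂ) :
    upSerC p (f + g) = upSerC p f + upSerC p g := by
  ext n; simp

/-- `q`-expansion of `U_p f` for a nice function `f`. -/
theorem qExpansion_heckeU_of_nice {f : ℍ → ℂ} (hf : Nice 1 f) (k : ℤ) {p : ℕ} (hp : p ≠ 0) :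
    qExpansion 1 (heckeU k p f) = upSerC p (qExpansion 1 f) := by
  ext n
  have hper : Function.Periodic (f ∘ UpperHalfPlane.ofComplex) 1 := by
    have := hf.per
    simpa using this
  have := UpperHalfPlane.qCoeff_heckeU hper hf.holo hf.bdd k hp n
  simp only [ModularFormClass.qCoeff, coeffHeckeU] at this
  rw [coeff_upSerC, mul_comm]
  exact this

/-- `U_p` preserves niceness. -/
theorem nice_heckeU {f : ℍ → ℂ} (hf : Nice 1 f) (k : ℤ) (p : ℕ) : Nice 1 (heckeU k p f) := by
  have hper : Function.Periodic (f ∘ UpperHalfPlane.ofComplex) 1 := by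
    have := hf.per
    simpa using this
  refine ⟨?_, ModularForm.mdifferentiable_heckeU hf.holo k p,
    ModularForm.isBoundedAtImInfty_heckeU hf.bdd k p⟩
  have := ModularForm.periodic_heckeU_comp_ofComplex hper k p
  simpa using this

theorem nice_smul' {f : ℍ → ℂ} (hf : Nice 1 f) (c : ℂ) : Nice 1 (c • f) := by
  refine ⟨?_, hf.holo.const_smul c, hf.bdd.const_smul_left c⟩
  intro w
  have e1 := hf.per w
  simp only [Function.comp_apply, Pi.smul_apply] at e1 ⊢
  rw [e1]

/-- `U_p` does not depend on the weight. -/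
theorem heckeU_weight (k k' : ℤ) (p : ℕ) (f : ℍ → ℂ) : heckeU k p f = heckeU k' p f := by
  rcases eq_or_ne p 0 with rfl | hp
  · simp
  · funext z
    rw [heckeU_apply k hp, heckeU_apply k' hp]

/-- A level-one form of weight 4 is a multiple of `E₄`. -/
theorem isMF1_four_eq_smul {a : ℍ → ℂ} (ha : IsMF1 4 a) : ∃ c : ℂ, a = c • (⇑E₄ : ℍ → ℂ) := by
  obtain ⟨F, rfl⟩ := ha
  have hrank : Module.finrank ℂ (ModularForm 𝒮ℒ 4) = 1 := by
    have := levelOne_weight_four_rank_one
    exact Module.finrank_eq_of_rank_eq this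
  have hE : (E₄ : ModularForm 𝒮ℒ 4) ≠ 0 := by
    intro h
    have h1 := E₄_qExpansion_coeff_one
    rw [h] at h1
    have h0 : qExpansion 1 (⇑(0 : ModularForm 𝒮ℒ 4) : ℍ → ℂ) = 0 := by
      have : (⇑(0 : ModularForm 𝒮ℒ 4) : ℍ → ℂ) = 0 := rfl
      rw [this, qExpansion_zero]
    rw [h0] at h1
    simp at h1
  obtain ⟨c, hc⟩ := exists_smul_eq_of_finrank_eq_one hrank hE F
  refine ⟨c, ?_⟩
  rw [← hc]
  rfl

theorem ofComplex_eq_heckeMatrix_smul {p : ℕ} (hp : p ≠ 0) (j : ℕ) (z : ℍ) :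
    UpperHalfPlane.ofComplex (((z : ℂ) + j) / p) = heckeMatrix p j • z := by
  rw [← coe_heckeMatrix_smul hp j z]
  exact UpperHalfPlane.ofComplex_apply _

variable {p : ℕ} [Fact p.Prime] {f : ℍ → ℂ}

/-- The weight-4 trace of `f²`, as a function. -/
theorem sum_cj_sq (hf : IsMF p 2 f) :
    ∑ q : Q p, cj p 4 (f * f) q =
      f * f + (p : ℂ)⁻¹ • heckeU 2 p (heckeU 2 p f * heckeU 2 p f) := by
  have hp0 : p ≠ 0 := (Fact.out : p.Prime).ne_zero
  have hpC : (p : ℂ) ≠ 0 := by exact_mod_cast hp0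
  have hff : IsMF p 4 (f * f) := (hf.mul hf).cast (by norm_num)
  rw [S16_helper6_WTRICK.sum_cj_eq 4 hff]
  congr 1
  funext z
  rw [Finset.sum_apply, Pi.smul_apply, heckeU_apply 2 hp0, smul_eq_mul, Finset.mul_sum,
    Finset.mul_sum]
  refine Finset.sum_congr rfl fun j _ => ?_
  have h4 : (4 : ℤ) = 2 + 2 := by norm_num
  rw [h4, ModularForm.mul_slash_SL2, Pi.mul_apply, S16_helper6_WTRICK.slash_ST_eq hf j z,
    Pi.mul_apply]
  ring

theorem nice_mul' {g₁ g₂ : ℍ → ℂ} (h₁ : Nice 1 g₁) (h₂ : Nice 1 g₂) : Nice 1 (g₁ * g₂) := by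
  refine ⟨?_, h₁.holo.mul h₂.holo, h₁.bdd.mul h₂.bdd⟩
  intro w
  have e1 := h₁.per w
  have e2 := h₂.per w
  simp only [Function.comp_apply, Pi.mul_apply] at e1 e2 ⊢
  rw [e1, e2]

theorem qExpansion_mul_nice {g₁ g₂ : ℍ → ℂ} (h₁ : Nice 1 g₁) (h₂ : Nice 1 g₂) :
    qExpansion 1 (g₁ * g₂) = qExpansion 1 g₁ * qExpansion 1 g₂ :=
  qExpansion_mul (S28_HD.nice_analyticAt h₁) (S28_HD.nice_analyticAt h₂)

/-- `q`-expansion of `U_p f` for `f ∈ M₂(Γ₀(p))`. -/
theorem qExpansion_heckeU (hf : IsMF p 2 f) :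
    qExpansion 1 (heckeU 2 p f) = upSerC p (qExpansion 1 f) :=
  qExpansion_heckeU_of_nice (S28_HD.nice_of_isMF hf) 2 (Fact.out : p.Prime).ne_zero

/-- **Weight-4 trace identity** in `q`-expansion form. -/
theorem trace_four (hf : IsMF p 2 f) :
    (p : ℂ) • (qExpansion 1 f) ^ 2 + upSerC p ((upSerC p (qExpansion 1 f)) ^ 2) =
      (((qExpansion 1 f).coeff 0) ^ 2 * ((p : ℂ) + 1)) • qExpansion 1 (⇑E₄ : ℍ → ℂ) := by
  have hp0 : p ≠ 0 := (Fact.out : p.Prime).ne_zero
  have hpC : (p : ℂ) ≠ 0 := by exact_mod_cast hp0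
  have hh : IsMF p 2 (heckeU 2 p f) := S16_helper6_WTRICK.isMF_heckeU hf
  have hnf : Nice 1 f := S28_HD.nice_of_isMF hf
  have hnh : Nice 1 (heckeU 2 p f) := S28_HD.nice_of_isMF hh
  have hff : IsMF p 4 (f * f) := (hf.mul hf).cast (by norm_num)
  have hhh : IsMF p 4 (heckeU 2 p f * heckeU 2 p f) := (hh.mul hh).cast (by norm_num)
  have hnhh : Nice 1 (heckeU 2 p f * heckeU 2 p f) := nice_mul' hnh hnh
  have hnU : Nice 1 (heckeU 2 p (heckeU 2 p f * heckeU 2 p f)) := nice_heckeU hnhh 2 p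
  -- the trace is a multiple of `E₄`
  obtain ⟨c, hc⟩ := isMF1_four_eq_smul (isMF1_sum_cj hff)
  rw [sum_cj_sq hf] at hc
  -- pass to `q`-expansions
  have hq := congrArg (qExpansion 1) hc
  rw [qExpansion_add (S28_HD.nice_analyticAt (nice_mul' hnf hnf))
      (S28_HD.nice_analyticAt (nice_smul' hnU _)),
    qExpansion_mul_nice hnf hnf, qExpansion_smul (S28_HD.nice_analyticAt hnU),
    qExpansion_heckeU_of_nice hnhh 2 hp0, qExpansion_mul_nice hnh hnh, qExpansion_heckeU hf,
    qExpansion_smul (S28_HD.nice_analyticAt S28_HD.nice_E4)] at hq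
  -- constant term
  have h0 := congrArg (PowerSeries.coeff 0) hq
  have hE0 : PowerSeries.coeff 0 (qExpansion 1 (⇑E₄ : ℍ → ℂ)) = 1 := by
    rw [Fermat.Agent.S28_QE4.qExpansion_E4_coeff]; simp
  simp only [map_add, PowerSeries.coeff_smul, coeff_upSerC, mul_zero, hE0, mul_one,
    smul_eq_mul] at h0
  have hc' : c = ((qExpansion 1 f).coeff 0) ^ 2 * (1 + (p : ℂ)⁻¹) := by
    rw [← h0]
    simp only [← pow_two, PowerSeries.coeff_zero_eq_constantCoeff, map_pow]
    simp only [← PowerSeries.coeff_zero_eq_constantCoeff, coeff_upSerC, mul_zero]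
    ring
  have hq2 := congrArg (fun P => (p : ℂ) • P) hq
  simp only [smul_add, smul_smul] at hq2
  rw [mul_inv_cancel₀ hpC, one_smul, ← pow_two, ← pow_two] at hq2
  rw [hq2, hc']
  congr 1
  field_simp

/-! ### Integer form -/

open S16_helper18_TRALG

theorem map_upSer (p : ℕ) (X : PowerSeries ℤ) :
    (upSer p X).map (Int.castRingHom ℂ) = upSerC p (X.map (Int.castRingHom ℂ)) := by
  ext n
  simp [upSer]

theorem map_e4Ser : e4Ser.map (Int.castRingHom ℂ) = qExpansion 1 (⇑E₄ : ℍ → ℂ) := by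
  ext n
  rw [Fermat.Agent.S28_QE4.qExpansion_E4_coeff, PowerSeries.coeff_map, e4Ser,
    PowerSeries.coeff_mk]
  by_cases hn : n = 0
  · simp [hn]
  · simp only [hn, if_false, ArithmeticFunction.sigma_apply]
    push_cast
    simp

theorem map_injective_int :
    Function.Injective (PowerSeries.map (Int.castRingHom ℂ)) := by
  intro X Y h
  ext n
  have := congrArg (PowerSeries.coeff n) h
  simpa using this

/-- Descent of a linear identity from `ℂ⟦X⟧` to `ℤ⟦X⟧`. -/
theorem descend_identity (X Y E : PowerSeries ℤ) (u v : ℤ)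
    (h : (u : ℂ) • X.map (Int.castRingHom ℂ) + Y.map (Int.castRingHom ℂ) =
      (v : ℂ) • E.map (Int.castRingHom ℂ)) :
    u • X + Y = v • E := by
  ext n
  have := congrArg (PowerSeries.coeff n) h
  simp only [map_add, PowerSeries.coeff_smul, PowerSeries.coeff_map, smul_eq_mul,
    eq_intCast] at this ⊢
  exact_mod_cast this

/-- The analytic input of all trace-only no-congruence lemmas. -/
theorem trace_data (p : ℕ) [Fact p.Prime] (G : ModularForm (CongruenceSubgroup.Gamma0 p) 2)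
    (a : ℕ → ℤ) (ha : ∀ n, (qExpansion 1 G).coeff n = (a n : ℂ)) :
    TraceData p (a 0) (PowerSeries.mk a) (upSer p (PowerSeries.mk a)) := by
  have hf : IsMF p 2 (⇑G) := ⟨G, rfl⟩
  have hh : IsMF p 2 (heckeU 2 p ⇑G) := S16_helper6_WTRICK.isMF_heckeU hf
  have hA : (PowerSeries.mk a).map (Int.castRingHom ℂ) = qExpansion 1 G := by
    ext n
    rw [ha n]
    simp
  have hB : (upSer p (PowerSeries.mk a)).map (Int.castRingHom ℂ) =
      qExpansion 1 (heckeU 2 p ⇑G) := by
    rw [map_upSer, hA, qExpansion_heckeU hf]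
  have hUU : upSerC p (qExpansion 1 (heckeU 2 p ⇑G)) = qExpansion 1 G := by
    rw [← qExpansion_heckeU hh, S16_helper6_WTRICK.heckeU_heckeU hf]
  have hAB : PowerSeries.mk a = upSer p (upSer p (PowerSeries.mk a)) := by
    apply map_injective_int
    rw [map_upSer, hB, hUU, hA]
  refine ⟨by simp, rfl, hAB, ?_, ?_⟩
  · apply descend_identity
    have := trace_four hf
    rw [map_pow, map_upSer, map_pow, hB, hA, map_e4Ser, qExpansion_heckeU hf]
    rw [ha 0] at this
    push_cast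
    exact this
  · apply descend_identity
    have := trace_four hh
    rw [hUU, qExpansion_heckeU hf, coeff_upSerC, mul_zero, ha 0, ← qExpansion_heckeU hf] at this
    rw [map_pow, hB, map_upSer, map_pow, hA, map_e4Ser]
    push_cast
    exact this

end Fermat.Agent.S16_helper16_TB
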