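import Fermat.Agent.S16_helper24_CONJDefs
import Fermat.Agent.S16_helper6_WTRICK
import Fermat.Agent.S16_helper16_TB
import Fermat.Agent.S28_helper24_SUBST
import Fermat.Agent.S28_helper5_GCONJ
import Fermat.Agent.S28_helper25_HD

/-!
# S16, upper bound, tool CONJ-A: the expansions of the conjugates of a weight two form

For `G ∈ M₂(Γ₀(p))` with `q`-expansion `g = ∑ aₙ qⁿ` the conjugate `G ∣[2] (S T^j)` has expansion
`-(1/p) ∑ a_{pm} ζ^{jm} x^m` in `x = q^(1/p)`, i.e. `HasConj p 2 G g (conjSer p g)`.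
-/

set_option autoImplicit false

open UpperHalfPlane ModularForm CongruenceSubgroup Matrix.SpecialLinearGroup
open scoped MatrixGroups ModularForm Manifold Real
open Fermat.Agent.S20 Fermat.Agent.S28_helper14_Defs Fermat.Agent.S28_helper14_ADefs
open Fermat.Agent.S16_helper24_CONJ

noncomputable section

namespace Fermat.Agent.S16_helper14_CONJ

/-- `ζ_p ^ p = 1` -/
theorem zetaP_pow (p : ℕ) [NeZero p] : zetaP p ^ p = 1 := by
  have hp : (p : ℂ) ≠ 0 := Nat.cast_ne_zero.mpr (NeZero.ne p)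
  rw [zetaP, ← Complex.exp_nat_mul]
  have : (p : ℂ) * (2 * (π : ℂ) * Complex.I / (p : ℂ)) = 2 * π * Complex.I := by
    field_simp
  rw [this, Complex.exp_two_pi_mul_I]

theorem zetaP_ne_zero (p : ℕ) : zetaP p ≠ 0 := Complex.exp_ne_zero _

/-- `ζ_p` is an algebraic integer -/
theorem isIntegral_zetaP (p : ℕ) [NeZero p] : IsIntegral ℤ (zetaP p) :=
  IsIntegral.of_pow (Nat.pos_of_ne_zero (NeZero.ne p)) (by rw [zetaP_pow]; exact isIntegral_one)

/-- powers of `ζ_p` as exponentials -/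
theorem zetaP_pow_eq (p : ℕ) (n : ℕ) :
    zetaP p ^ n = Complex.exp (2 * (π : ℂ) * Complex.I * (n : ℂ) / (p : ℂ)) := by
  rw [zetaP, ← Complex.exp_nat_mul]
  congr 1
  ring

variable {p : ℕ} [Fact p.Prime]

/-- the conjugate `G ∣[2] (S T^j)` as a function -/
theorem slash_ST_eq_tri [NeZero p] {G : ℍ → ℂ} (hG : IsMF p 2 G) (j : ℕ) :
    G ∣[(2 : ℤ)] (ModularGroup.S * ModularGroup.T ^ (j : ℤ)) =
      fun z => (-((p : ℂ)⁻¹)) * tri 1 p (j : ℤ) (heckeU 2 p G) z := by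
  funext z
  rw [Fermat.Agent.S16_helper6_WTRICK.slash_ST_eq' hG j z]
  unfold tri
  congr 3
  push_cast
  ring

omit [Fact p.Prime] in
/-- the `x`-expansion of `tri 1 p j f` for a `1`-periodic `f` -/
theorem qExpansion_tri_one_p {f : ℍ → ℂ} (hf : Nice 1 f) (hp : 0 < p) (j : ℕ) (m : ℕ) :
    (qExpansion (p : ℝ) (tri 1 p (j : ℤ) f)).coeff m =
      (qExpansion 1 f).coeff m * zetaP p ^ (j * m) := by
  rw [Fermat.Agent.S28_SUBST.qExpansion_tri_coeff hf one_pos hp hp dvd_rfl (j : ℤ) m]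
  have h1 : 1 * (p / p) = 1 := by rw [Nat.div_self hp]
  rw [h1, if_pos (one_dvd m), Nat.div_one, zetaP_pow_eq]
  congr 2
  push_cast
  ring

/-- **CONJ-A**: the expansions of all conjugates of a weight two form of level `p`. -/
theorem hasConj_two {G : ℍ → ℂ} (hG : IsMF p 2 G) :
    HasConj p 2 G (qExpansion 1 G) (conjSer p (qExpansion 1 G)) := by
  have : NeZero p := ⟨(Fact.out : p.Prime).ne_zero⟩
  have hp : 0 < p := (Fact.out : p.Prime).pos
  have hpR : (0 : ℝ) < (p : ℝ) := by exact_mod_cast hp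
  refine ⟨hG, rfl, fun j => ?_⟩
  have hU : IsMF p 2 (heckeU 2 p G) := Fermat.Agent.S16_helper6_WTRICK.isMF_heckeU hG
  have hUn : Nice 1 (heckeU 2 p G) := Fermat.Agent.S28_HD.nice_of_isMF hU
  have htri : Nice (p : ℝ) (tri 1 p (j : ℤ) (heckeU 2 p G)) :=
    Fermat.Agent.S28_SUBST.nice_tri hUn one_pos hp hp dvd_rfl (j : ℤ)
  rw [slash_ST_eq_tri hG j, Fermat.Agent.S28_GCONJ.qExpansion_const_mul' hpR htri]
  ext m
  rw [PowerSeries.coeff_C_mul, qExpansion_tri_one_p hUn hp j m,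
    Fermat.Agent.S16_helper16_TB.qExpansion_heckeU hG, Fermat.Agent.S16_helper16_TB.coeff_upSerC,
    coeff_conjSer]
  ring

/-- coefficientwise form of `hasConj_two` -/
theorem qExpansion_slash_ST_coeff {G : ℍ → ℂ} (hG : IsMF p 2 G) (j m : ℕ) :
    (qExpansion (p : ℝ) (G ∣[(2 : ℤ)] (ModularGroup.S * ModularGroup.T ^ (j : ℤ)))).coeff m =
      -((p : ℂ)⁻¹) * (qExpansion 1 G).coeff (p * m) * zetaP p ^ (j * m) := by
  rw [(hasConj_two hG).conj j, coeff_conjSer]

/-- the version for a bundled modular form -/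
theorem hasConj_two' (G : ModularForm (Gamma0 p) 2) :
    HasConj p 2 (⇑G) (qExpansion 1 G) (conjSer p (qExpansion 1 G)) :=
  hasConj_two ⟨G, rfl⟩

end Fermat.Agent.S16_helper14_CONJ
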