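import Fermat.Prelude.Def_CuspForm_HeckeLocal
import Fermat.Prelude.Def_CuspForm_HeckeEvalForms
import Fermat.Prelude.Def_HeckeGalois_EichlerShimura
import Fermat.Prelude.Def_ModularCurve_ModularUnit
import Fermat.Prelude.Thm_CongruenceSubgroup_one_mem_strictPeriods_Gamma0
import Mathlib.NumberTheory.ModularForms.CuspFormSubmodule

/-!
# S16, piece UB-GLUE (item R5 of the lead plan): the six no-congruence lemmas imply the upper bound

For `k ≥ 1` and `f` in the integral lattice of `S_2(Γ₀(p))` congruent to `δ = Σ σ'(n) qⁿ` modulo `k`,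
we get `k ∣ (p - 1) / gcd (p - 1, 12)`.  The no-congruence lemmas enter as hypotheses.
-/

set_option autoImplicit false

open UpperHalfPlane ModularFormClass CongruenceSubgroup

namespace Fermat.Agent.S16_helper4_UBGLUE

/-- sum of the divisors of `n` prime to `p` -/
def sigP (p n : ℕ) : ℤ := ∑ d ∈ n.divisors.filter (fun d => ¬ p ∣ d), (d : ℤ)

/-- `NoCong p r e`: there is no `G ∈ M_2(Γ₀(p))` with integer `q`-expansion `a`,
`r ∤ a 0` and `r ^ e ∣ a n` for all `n ≥ 1`. -/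
def NoCong (p r e : ℕ) : Prop :=
  ∀ (G : ModularForm (Gamma0 p) 2) (a : ℕ → ℤ),
    (∀ n, (qExpansion 1 G).coeff n = (a n : ℂ)) → ¬ (r : ℤ) ∣ a 0 →
    (∀ n, 1 ≤ n → ((r : ℤ) ^ e) ∣ a n) → False

/-- pure arithmetic: from the `r`-adic valuation of `m` to divisibility of the numerator -/
theorem pow_dvd_numer {r : ℕ} (hr : r.Prime) {m b : ℕ} (hm : m ≠ 0)
    (h : b + padicValNat r 12 ≤ padicValNat r m) : r ^ b ∣ m / Nat.gcd m 12 := by
  have : Fact r.Prime := ⟨hr⟩
  have hg : Nat.gcd m 12 ∣ m := Nat.gcd_dvd_left _ _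
  have hg12 : Nat.gcd m 12 ∣ 12 := Nat.gcd_dvd_right _ _
  have hg0 : Nat.gcd m 12 ≠ 0 := fun h0 => by
    rw [h0] at hg12; exact absurd (Nat.eq_zero_of_zero_dvd hg12) (by norm_num)
  have hmul : m / Nat.gcd m 12 * Nat.gcd m 12 = m := Nat.div_mul_cancel hg
  have hn0 : m / Nat.gcd m 12 ≠ 0 := fun h0 => by
    rw [h0, zero_mul] at hmul; exact hm hmul.symm
  have hv : padicValNat r m =
      padicValNat r (m / Nat.gcd m 12) + padicValNat r (Nat.gcd m 12) := by
    conv_lhs => rw [← hmul]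
    exact padicValNat.mul hn0 hg0
  have hle : padicValNat r (Nat.gcd m 12) ≤ padicValNat r 12 :=
    (padicValNat_dvd_iff_le (by norm_num : (12 : ℕ) ≠ 0)).1
      (dvd_trans pow_padicValNat_dvd hg12)
  exact (padicValNat_dvd_iff_le hn0).2 (by omega)

/-- the modular form `d⁻¹ (24 E - 24 f)` with its integer `q`-expansion -/
theorem exists_form (p : ℕ) [Fact p.Prime] (F : ModularForm (Gamma0 p) 2)
    (hF0 : (qExpansion 1 F).coeff 0 = ((p : ℂ) - 1) / 24)
    (hF : ∀ n : ℕ, 1 ≤ n → (qExpansion 1 F).coeff n = ((sigP p n : ℤ) : ℂ))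
    (f : CuspForm (Gamma0 p) 2) (c : ℕ → ℤ)
    (hc : ∀ n : ℕ, 1 ≤ n → ModularFormClass.qCoeff f n = (c n : ℂ))
    (d : ℤ) (hd : d ≠ 0) (a : ℕ → ℤ) (ha0 : a 0 * d = (p : ℤ) - 1)
    (ha : ∀ n : ℕ, 1 ≤ n → a n * d = 24 * (sigP p n - c n)) :
    ∃ G : ModularForm (Gamma0 p) 2, ∀ n, (qExpansion 1 G).coeff n = (a n : ℂ) := by
  have hΓ := CongruenceSubgroup.one_mem_strictPeriods_Gamma0 p
  have hdC : (d : ℂ) ≠ 0 := by exact_mod_cast hd
  refine ⟨((d : ℂ)⁻¹) • ((24 : ℂ) • F - (24 : ℂ) • CuspForm.toModularFormₗ f), fun n => ?_⟩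
  have e1 : qExpansion 1 (⇑(((d : ℂ)⁻¹) • ((24 : ℂ) • F - (24 : ℂ) • CuspForm.toModularFormₗ f)))
      = (d : ℂ)⁻¹ • ((24 : ℂ) • qExpansion 1 F - (24 : ℂ) • qExpansion 1 f) := by
    have h1 := ModularForm.qExpansion_smul one_pos hΓ ((d : ℂ)⁻¹)
      ((24 : ℂ) • F - (24 : ℂ) • CuspForm.toModularFormₗ f)
    have h2 := ModularForm.qExpansion_sub one_pos hΓ ((24 : ℂ) • F)
      ((24 : ℂ) • CuspForm.toModularFormₗ f)
    have h3 := ModularForm.qExpansion_smul one_pos hΓ (24 : ℂ) F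
    have h4 := ModularForm.qExpansion_smul one_pos hΓ (24 : ℂ) (CuspForm.toModularFormₗ f)
    have h5 : (⇑(CuspForm.toModularFormₗ f) : ℍ → ℂ) = ⇑f := rfl
    rw [h5] at h4
    have c1 : (⇑(((d : ℂ)⁻¹) • ((24 : ℂ) • F - (24 : ℂ) • CuspForm.toModularFormₗ f)) : ℍ → ℂ)
        = (d : ℂ)⁻¹ • ⇑((24 : ℂ) • F - (24 : ℂ) • CuspForm.toModularFormₗ f) := rfl
    have c2 : (⇑((24 : ℂ) • F - (24 : ℂ) • CuspForm.toModularFormₗ f) : ℍ → ℂ)
        = ⇑((24 : ℂ) • F) - ⇑((24 : ℂ) • CuspForm.toModularFormₗ f) := rfl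
    have c3 : (⇑((24 : ℂ) • F) : ℍ → ℂ) = (24 : ℂ) • ⇑F := rfl
    have c4 : (⇑((24 : ℂ) • CuspForm.toModularFormₗ f) : ℍ → ℂ) = (24 : ℂ) • ⇑f := rfl
    rw [c1, h1, c2, h2, c3, h3, c4, h4]
  rw [e1]
  simp only [map_smul, map_sub, smul_eq_mul]
  rcases Nat.eq_zero_or_pos n with hn | hn
  · subst hn
    have hf0 : (qExpansion 1 f).coeff 0 = 0 := CuspFormClass.qExpansion_coeff_zero f one_pos hΓ
    rw [hF0, hf0]
    have : (a 0 : ℂ) * (d : ℂ) = (p : ℂ) - 1 := by exact_mod_cast ha0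
    field_simp
    linear_combination -this
  · have hfn : (qExpansion 1 f).coeff n = (c n : ℂ) := hc n hn
    rw [hF n hn, hfn]
    have : (a n : ℂ) * (d : ℂ) = 24 * ((sigP p n : ℂ) - (c n : ℂ)) := by exact_mod_cast ha n hn
    field_simp
    linear_combination -this

/-- the key step: a congruence modulo `r ^ b` together with `NoCong p r e` bounds the exponent -/
theorem key_bound_prime (p : ℕ) [Fact p.Prime]
    (hEis : ∃ F : ModularForm (Gamma0 p) 2, (qExpansion 1 F).coeff 0 = ((p : ℂ) - 1) / 24 ∧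
      ∀ n : ℕ, 1 ≤ n → (qExpansion 1 F).coeff n = ((sigP p n : ℤ) : ℂ))
    {r : ℕ} (hr : r.Prime) {e w : ℕ} (hw : r ^ w ∣ 24) (hNC : NoCong p r e) {b : ℕ}
    (f : CuspForm (Gamma0 p) 2)
    (hcong : ∀ n : ℕ, 1 ≤ n →
      ∃ c : ℤ, ModularFormClass.qCoeff f n = (c : ℂ) ∧ ((r : ℤ) ^ b) ∣ c - sigP p n) :
    b + w < padicValNat r (p - 1) + e := by
  have : Fact r.Prime := ⟨hr⟩
  by_contra hcon
  rw [not_lt] at hcon
  have hm : p - 1 ≠ 0 := by
    have := (Fact.out : p.Prime).two_le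
    omega
  have hv : r ^ padicValNat r (p - 1) ∣ p - 1 := pow_padicValNat_dvd
  have hv' : ¬ r ^ (padicValNat r (p - 1) + 1) ∣ p - 1 := pow_succ_padicValNat_not_dvd hm
  generalize padicValNat r (p - 1) = v at hcon hv hv'
  obtain ⟨F, hF0, hF⟩ := hEis
  choose! c hc using hcong
  obtain ⟨u, hu⟩ := hv
  have hrz : (r : ℤ) ≠ 0 := by exact_mod_cast hr.ne_zero
  have hdiv : ∀ n : ℕ, 1 ≤ n → ((r : ℤ) ^ (v + e)) ∣ 24 * (sigP p n - c n) := by
    intro n hn
    have h1 : ((r : ℤ) ^ b) ∣ sigP p n - c n := by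
      have := (hc n hn).2
      rw [← neg_sub] 
      exact (dvd_neg).2 this
    have h2 : ((r : ℤ) ^ w) ∣ (24 : ℤ) := by exact_mod_cast hw
    have h3 : ((r : ℤ) ^ (w + b)) ∣ 24 * (sigP p n - c n) := by
      rw [pow_add]; exact mul_dvd_mul h2 h1
    exact dvd_trans (pow_dvd_pow _ (by omega)) h3
  choose! a' ha' using hdiv
  have hpu : (p : ℤ) - 1 = (r : ℤ) ^ v * (u : ℤ) := by
    have h1 : ((p - 1 : ℕ) : ℤ) = (p : ℤ) - 1 := by
      have : 1 ≤ p := (Fact.out : p.Prime).one_lt.le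
      push_cast [Nat.cast_sub this]; ring
    rw [← h1, hu]; push_cast; ring
  obtain ⟨G, hG⟩ := exists_form p F hF0 hF f c (fun n hn => (hc n hn).1) ((r : ℤ) ^ v)
    (pow_ne_zero _ hrz) (fun n => if n = 0 then (u : ℤ) else (r : ℤ) ^ e * a' n)
    (by simp only [if_true]; rw [hpu]; ring)
    (fun n hn => by
      have hn0 : n ≠ 0 := by omega
      simp only [hn0, if_false]
      rw [ha' n hn, pow_add]; ring)
  refine hNC G _ hG ?_ ?_
  · simp only [if_true]
    intro hru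
    apply hv'
    have : (r : ℤ) ^ (v + 1) ∣ ((p - 1 : ℕ) : ℤ) := by
      rw [hu]; push_cast; rw [pow_succ]; exact mul_dvd_mul_left _ hru
    exact_mod_cast this
  · intro n hn
    have hn0 : n ≠ 0 := by omega
    simp only [hn0, if_false]
    exact dvd_mul_right _ _

theorem key_bound (p : ℕ) [Fact p.Prime] (_hp5 : 5 ≤ p)
    (hEis : ∃ F : ModularForm (Gamma0 p) 2, (qExpansion 1 F).coeff 0 = ((p : ℂ) - 1) / 24 ∧
      ∀ n : ℕ, 1 ≤ n → (qExpansion 1 F).coeff n = ((sigP p n : ℤ) : ℂ))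
    {r : ℕ} (hr : r.Prime) {e w : ℕ} (hw : r ^ w ∣ 24) (hNC : NoCong p r e) {b : ℕ}
    (f : CuspForm (Gamma0 p) 2)
    (hcong : ∀ n : ℕ, 1 ≤ n →
      ∃ c : ℤ, ModularFormClass.qCoeff f n = (c : ℂ) ∧ ((r : ℤ) ^ b) ∣ c - sigP p n) :
    b + w < padicValNat r (p - 1) + e :=
  key_bound_prime p hEis hr hw hNC f hcong

theorem padicValNat_two_twelve : padicValNat 2 12 = 2 := by
  have : Fact (Nat.Prime 2) := ⟨Nat.prime_two⟩
  have h1 : 2 ≤ padicValNat 2 12 :=
    (padicValNat_dvd_iff_le (by norm_num : (12 : ℕ) ≠ 0)).1 (by norm_num)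
  have h2 : ¬ 3 ≤ padicValNat 2 12 := fun h =>
    absurd ((padicValNat_dvd_iff_le (by norm_num : (12 : ℕ) ≠ 0)).2 h) (by norm_num)
  omega

theorem padicValNat_three_twelve : padicValNat 3 12 = 1 := by
  have : Fact (Nat.Prime 3) := ⟨Nat.prime_three⟩
  have h1 : 1 ≤ padicValNat 3 12 :=
    (padicValNat_dvd_iff_le (by norm_num : (12 : ℕ) ≠ 0)).1 (by norm_num)
  have h2 : ¬ 2 ≤ padicValNat 3 12 := fun h =>
    absurd ((padicValNat_dvd_iff_le (by norm_num : (12 : ℕ) ≠ 0)).2 h) (by norm_num)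
  omega

theorem padicValNat_big_twelve {r : ℕ} (hr : r.Prime) (h5 : 5 ≤ r) : padicValNat r 12 = 0 := by
  have : Fact r.Prime := ⟨hr⟩
  by_contra h
  have h1 : 1 ≤ padicValNat r 12 := Nat.one_le_iff_ne_zero.2 h
  have h2 : r ^ 1 ∣ 12 := (padicValNat_dvd_iff_le (by norm_num : (12 : ℕ) ≠ 0)).2 h1
  rw [pow_one] at h2
  have h3 : r ≤ 12 := Nat.le_of_dvd (by norm_num) h2
  interval_cases r <;> simp_all (config := {decide := true})

theorem ub_glue (p : ℕ) [Fact p.Prime]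
    (hEis : ∃ F : ModularForm (Gamma0 p) 2, (qExpansion 1 F).coeff 0 = ((p : ℂ) - 1) / 24 ∧
      ∀ n : ℕ, 1 ≤ n → (qExpansion 1 F).coeff n = ((sigP p n : ℤ) : ℂ))
    (hsmall : p < 5 → ∀ f : CuspForm (Gamma0 p) 2, f = 0)
    (hbig : ∀ r : ℕ, r.Prime → 5 ≤ r → r ≠ p → 5 ≤ p → NoCong p r 1)
    (hpp : 5 ≤ p → NoCong p p 1)
    (h3a : p % 3 = 1 → NoCong p 3 1)
    (h3b : p % 3 = 2 → 5 ≤ p → NoCong p 3 2)
    (h2a : p % 4 = 1 → NoCong p 2 2)
    (h2b : p % 4 = 3 → 5 ≤ p → NoCong p 2 3) :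
    ∀ k : ℕ, 1 ≤ k →
      (∃ f ∈ CuspForm.intLattice p 2, ∀ n : ℕ, 1 ≤ n →
        ∃ c : ℤ, ModularFormClass.qCoeff f n = (c : ℂ) ∧ (k : ℤ) ∣ c - sigP p n) →
      k ∣ ModularCurve.eisensteinNumerator p := by
  rintro k hk ⟨f, -, hcong⟩
  have hpprime : p.Prime := Fact.out
  by_cases hp5 : 5 ≤ p
  swap
  · have hf0 : f = 0 := hsmall (by omega) f
    obtain ⟨c, hc1, hc2⟩ := hcong 1 le_rfl
    have hq : ModularFormClass.qCoeff (⇑f) 1 = 0 := by
      rw [hf0]
      show (qExpansion 1 (⇑(0 : CuspForm (Gamma0 p) 2))).coeff 1 = 0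
      have : (⇑(0 : CuspForm (Gamma0 p) 2) : ℍ → ℂ) = 0 := rfl
      rw [this, qExpansion_zero]; simp
    have hc0 : c = 0 := by
      have : (c : ℂ) = 0 := by rw [← hc1, hq]
      exact_mod_cast this
    have hs1 : sigP p 1 = 1 := by
      unfold sigP
      have : (Nat.divisors 1).filter (fun d => ¬ p ∣ d) = {1} := by
        rw [Nat.divisors_one]
        ext d
        simp only [Finset.mem_filter, Finset.mem_singleton]
        constructor
        · exact fun h => h.1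
        · rintro rfl
          exact ⟨rfl, fun h => hpprime.one_lt.ne' (Nat.dvd_one.1 h)⟩
      rw [this]; simp
    rw [hc0, hs1] at hc2
    have hk1 : (k : ℤ) ∣ 1 := by
      have := (dvd_neg).1 (by simpa using hc2 : (k : ℤ) ∣ -1)
      exact this
    have : k ∣ 1 := by exact_mod_cast hk1
    exact dvd_trans this (one_dvd _)
  · rw [Nat.dvd_iff_prime_pow_dvd_dvd]
    intro r b hr hrb
    rcases Nat.eq_zero_or_pos b with hb | hb
    · simp [hb]
    have : Fact r.Prime := ⟨hr⟩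
    have hcong' : ∀ n : ℕ, 1 ≤ n →
        ∃ c : ℤ, ModularFormClass.qCoeff f n = (c : ℂ) ∧ ((r : ℤ) ^ b) ∣ c - sigP p n := by
      intro n hn
      obtain ⟨c, h1, h2⟩ := hcong n hn
      refine ⟨c, h1, dvd_trans ?_ h2⟩
      exact_mod_cast hrb
    have hm : p - 1 ≠ 0 := by omega
    unfold ModularCurve.eisensteinNumerator
    apply pow_dvd_numer hr hm
    have hdvd_of_le : ∀ j : ℕ, j ≤ padicValNat r (p - 1) → r ^ j ∣ p - 1 := fun j hj =>
      (padicValNat_dvd_iff_le hm).2 hj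
    by_cases hrp : r = p
    · exfalso
      subst hrp
      have h := key_bound r hp5 hEis hr (e := 1) (w := 0) (by simp) (hpp hp5) f hcong'
      have h1 : r ^ 1 ∣ r - 1 := hdvd_of_le 1 (by omega)
      rw [pow_one] at h1
      have := Nat.le_of_dvd (by omega) h1
      omega
    have hp2 : p % 2 = 1 := by
      rcases hpprime.eq_two_or_odd with h | h
      · omega
      · exact h
    rcases hr.eq_two_or_odd with h2 | hodd
    · subst h2
      rw [padicValNat_two_twelve]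
      have h4 : p % 4 = 1 ∨ p % 4 = 3 := by omega
      rcases h4 with h4 | h4
      · have h := key_bound p hp5 hEis hr (e := 2) (w := 3) (by norm_num) (h2a h4) f hcong'
        omega
      · exfalso
        have h := key_bound p hp5 hEis hr (e := 3) (w := 3) (by norm_num) (h2b h4 hp5) f hcong'
        have h1 : 2 ^ 2 ∣ p - 1 := hdvd_of_le 2 (by omega)
        omega
    · by_cases h3 : r = 3
      · subst h3
        rw [padicValNat_three_twelve]
        have hp3 : p % 3 = 1 ∨ p % 3 = 2 := by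
          have : ¬ 3 ∣ p := fun h => hrp ((Nat.prime_dvd_prime_iff_eq hr hpprime).1 h)
          omega
        rcases hp3 with hp3 | hp3
        · have h := key_bound p hp5 hEis hr (e := 1) (w := 1) (by norm_num) (h3a hp3) f hcong'
          omega
        · exfalso
          have h := key_bound p hp5 hEis hr (e := 2) (w := 1) (by norm_num) (h3b hp3 hp5) f hcong'
          have h1 : 3 ^ 1 ∣ p - 1 := hdvd_of_le 1 (by omega)
          omega
      · have hr5 : 5 ≤ r := by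
          have h2 := hr.two_le
          have h4 : r ≠ 4 := fun h => by rw [h] at hr; exact absurd hr (by norm_num)
          omega
        rw [padicValNat_big_twelve hr hr5]
        have h := key_bound p hp5 hEis hr (e := 1) (w := 0) (by simp) (hbig r hr hr5 hrp hp5) f hcong'
        omega

/-- sum of divisors prime to `p` at `n = 1` -/
theorem sigP_one (p : ℕ) (hp : p.Prime) : sigP p 1 = 1 := by
  unfold sigP
  have : (Nat.divisors 1).filter (fun d => ¬ p ∣ d) = {1} := by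
    rw [Nat.divisors_one]
    ext d
    simp only [Finset.mem_filter, Finset.mem_singleton]
    constructor
    · exact fun h => h.1
    · rintro rfl
      exact ⟨rfl, fun h => hp.one_lt.ne' (Nat.dvd_one.1 h)⟩
  rw [this]; simp

/-- General-threshold form of `ub_glue`: below `P0` one uses `S_2(Γ₀(p)) = 0`, from `P0` on the
no-congruence lemmas (each of which may assume `P0 ≤ p`).  Typical use: `P0 = 7` or `P0 = 11`. -/
theorem ub_glue_ge (P0 : ℕ) (p : ℕ) [Fact p.Prime]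
    (hEis : ∃ F : ModularForm (Gamma0 p) 2, (qExpansion 1 F).coeff 0 = ((p : ℂ) - 1) / 24 ∧
      ∀ n : ℕ, 1 ≤ n → (qExpansion 1 F).coeff n = ((sigP p n : ℤ) : ℂ))
    (hsmall : p < P0 → ∀ f : CuspForm (Gamma0 p) 2, f = 0)
    (hbig : ∀ r : ℕ, r.Prime → 5 ≤ r → r ≠ p → P0 ≤ p → NoCong p r 1)
    (hpp : P0 ≤ p → NoCong p p 1)
    (h3a : p % 3 = 1 → P0 ≤ p → NoCong p 3 1)
    (h3b : p % 3 = 2 → P0 ≤ p → NoCong p 3 2)
    (h2a : p % 4 = 1 → P0 ≤ p → NoCong p 2 2)
    (h2b : p % 4 = 3 → P0 ≤ p → NoCong p 2 3) :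
    ∀ k : ℕ, 1 ≤ k →
      (∃ f ∈ CuspForm.intLattice p 2, ∀ n : ℕ, 1 ≤ n →
        ∃ c : ℤ, ModularFormClass.qCoeff f n = (c : ℂ) ∧ (k : ℤ) ∣ c - sigP p n) →
      k ∣ ModularCurve.eisensteinNumerator p := by
  rintro k hk ⟨f, -, hcong⟩
  have hpprime : p.Prime := Fact.out
  by_cases hp5 : P0 ≤ p
  swap
  · have hf0 : f = 0 := hsmall (by omega) f
    obtain ⟨c, hc1, hc2⟩ := hcong 1 le_rfl
    have hq : ModularFormClass.qCoeff (⇑f) 1 = 0 := by
      rw [hf0]
      show (qExpansion 1 (⇑(0 : CuspForm (Gamma0 p) 2))).coeff 1 = 0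
      have : (⇑(0 : CuspForm (Gamma0 p) 2) : ℍ → ℂ) = 0 := rfl
      rw [this, qExpansion_zero]; simp
    have hc0 : c = 0 := by
      have : (c : ℂ) = 0 := by rw [← hc1, hq]
      exact_mod_cast this
    rw [hc0, sigP_one p hpprime] at hc2
    have hk1 : (k : ℤ) ∣ 1 := (dvd_neg).1 (by simpa using hc2 : (k : ℤ) ∣ -1)
    have : k ∣ 1 := by exact_mod_cast hk1
    exact dvd_trans this (one_dvd _)
  · rw [Nat.dvd_iff_prime_pow_dvd_dvd]
    intro r b hr hrb
    rcases Nat.eq_zero_or_pos b with hb | hb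
    · simp [hb]
    have : Fact r.Prime := ⟨hr⟩
    have hcong' : ∀ n : ℕ, 1 ≤ n →
        ∃ c : ℤ, ModularFormClass.qCoeff f n = (c : ℂ) ∧ ((r : ℤ) ^ b) ∣ c - sigP p n := by
      intro n hn
      obtain ⟨c, h1, h2⟩ := hcong n hn
      refine ⟨c, h1, dvd_trans ?_ h2⟩
      exact_mod_cast hrb
    have hp2le := hpprime.two_le
    have hm : p - 1 ≠ 0 := by omega
    unfold ModularCurve.eisensteinNumerator
    apply pow_dvd_numer hr hm
    have hdvd_of_le : ∀ j : ℕ, j ≤ padicValNat r (p - 1) → r ^ j ∣ p - 1 := fun j hj =>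
      (padicValNat_dvd_iff_le hm).2 hj
    by_cases hrp : r = p
    · exfalso
      subst hrp
      have h := key_bound_prime r hEis hr (e := 1) (w := 0) (by simp) (hpp hp5) f hcong'
      have h1 : r ^ 1 ∣ r - 1 := hdvd_of_le 1 (by omega)
      rw [pow_one] at h1
      have := Nat.le_of_dvd (by omega) h1
      omega
    rcases hr.eq_two_or_odd with h2 | hodd
    · subst h2
      have hp2 : p % 2 = 1 := by
        rcases hpprime.eq_two_or_odd with h | h
        · exact absurd h.symm hrp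
        · exact h
      rw [padicValNat_two_twelve]
      have h4 : p % 4 = 1 ∨ p % 4 = 3 := by omega
      rcases h4 with h4 | h4
      · have h := key_bound_prime p hEis hr (e := 2) (w := 3) (by norm_num) (h2a h4 hp5) f hcong'
        omega
      · exfalso
        have h := key_bound_prime p hEis hr (e := 3) (w := 3) (by norm_num) (h2b h4 hp5) f hcong'
        have h1 : 2 ^ 2 ∣ p - 1 := hdvd_of_le 2 (by omega)
        omega
    · by_cases h3 : r = 3
      · subst h3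
        rw [padicValNat_three_twelve]
        have hp3 : p % 3 = 1 ∨ p % 3 = 2 := by
          have : ¬ 3 ∣ p := fun h => hrp ((Nat.prime_dvd_prime_iff_eq hr hpprime).1 h)
          omega
        rcases hp3 with hp3 | hp3
        · have h := key_bound_prime p hEis hr (e := 1) (w := 1) (by norm_num) (h3a hp3 hp5) f hcong'
          omega
        · exfalso
          have h := key_bound_prime p hEis hr (e := 2) (w := 1) (by norm_num) (h3b hp3 hp5) f hcong'
          have h1 : 3 ^ 1 ∣ p - 1 := hdvd_of_le 1 (by omega)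
          omega
      · have hr5 : 5 ≤ r := by
          have h2 := hr.two_le
          have h4 : r ≠ 4 := fun h => by rw [h] at hr; exact absurd hr (by norm_num)
          omega
        rw [padicValNat_big_twelve hr hr5]
        have h := key_bound_prime p hEis hr (e := 1) (w := 0) (by simp)
          (hbig r hr hr5 hrp hp5) f hcong'
        omega

end Fermat.Agent.S16_helper4_UBGLUE
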