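import Fermat.Agent.S16_helper16_TB
import Fermat.Agent.S16_helper4_UBGLUE

/-!
# S16, upper bound, piece NC-2a

For a prime `p ≡ 1 mod 4` there is no `G ∈ M₂(Γ₀(p))` with integer `q`-expansion, odd constant
term and all higher coefficients divisible by `4`.  Proof: the weight-4 trace identities
(`S16_helper16_TB.trace_data`) and the power-series algebra of `S16_helper18_TRALG`.
-/

set_option autoImplicit false

open UpperHalfPlane ModularFormClass CongruenceSubgroup

namespace Fermat.Agent.S16_helper18_NC2A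

/-- NC-2a: for `p ≡ 1 mod 4` there is no `G ∈ M₂(Γ₀(p))` with integer `q`-expansion, odd constant
term and all higher coefficients divisible by `4`. -/
theorem NC2a (p : ℕ) [Fact p.Prime] (hp4 : p % 4 = 1) (G : ModularForm (Gamma0 p) 2)
    (a : ℕ → ℤ) (ha : ∀ n, (qExpansion 1 G).coeff n = (a n : ℂ)) (h0 : Odd (a 0))
    (h4 : ∀ n, 1 ≤ n → (4 : ℤ) ∣ a n) : False :=
  S16_helper18_TRALG.nc2a_alg (Fact.out : p.Prime) hp4 h0
    (S16_helper16_TB.trace_data p G a ha)
    (fun n hn => by rw [PowerSeries.coeff_mk]; exact h4 n hn)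

/-- the same in the shape consumed by `ub_glue` -/
theorem NC2a_noCong (p : ℕ) [Fact p.Prime] (hp4 : p % 4 = 1) :
    S16_helper4_UBGLUE.NoCong p 2 2 := by
  intro G a ha h0 h4
  refine NC2a p hp4 G a ha (Int.not_even_iff_odd.mp fun h => h0 ?_) (fun n hn => ?_)
  · exact_mod_cast even_iff_two_dvd.mp h
  · have := h4 n hn
    norm_num at this
    exact this

/-- the case `p ≡ 3 mod 8` of NC-2b, by the same trace argument -/
theorem NC2b3_noCong (p : ℕ) [Fact p.Prime] (hp8 : p % 8 = 3) :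
    S16_helper4_UBGLUE.NoCong p 2 3 := by
  intro G a ha h0 h8
  refine S16_helper18_TRALG.nc2b3_alg (Fact.out : p.Prime) hp8
    (Int.not_even_iff_odd.mp fun h => h0 ?_)
    (S16_helper16_TB.trace_data p G a ha) (fun n hn => ?_)
  · exact_mod_cast even_iff_two_dvd.mp h
  · rw [PowerSeries.coeff_mk]
    have := h8 n hn
    norm_num at this
    exact this

/-- NC-3a (`p ≡ 1 mod 3`) by the trace argument -/
theorem NC3a_noCong (p : ℕ) [Fact p.Prime] (hp3 : p % 3 = 1) :
    S16_helper4_UBGLUE.NoCong p 3 1 := by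
  intro G a ha h0 h3
  refine S16_helper18_TRALG.nc3a_alg (Fact.out : p.Prime) hp3 (by exact_mod_cast h0)
    (S16_helper16_TB.trace_data p G a ha) (fun n hn => ?_)
  rw [PowerSeries.coeff_mk]
  have := h3 n hn
  norm_num at this
  exact this

/-- the cases `p ≡ 2, 5 mod 9` of NC-3b by the trace argument -/
theorem NC3b25_noCong (p : ℕ) [Fact p.Prime] (hp9 : p % 9 = 2 ∨ p % 9 = 5) :
    S16_helper4_UBGLUE.NoCong p 3 2 := by
  intro G a ha h0 h9
  refine S16_helper18_TRALG.nc3b_alg (Fact.out : p.Prime) hp9 (by exact_mod_cast h0)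
    (S16_helper16_TB.trace_data p G a ha) (fun n hn => ?_)
  rw [PowerSeries.coeff_mk]
  have := h9 n hn
  norm_num at this
  exact this

/-- NC-p for `p ≥ 7` and NC-big for `r ∤ p + 1` by the trace argument -/
theorem NCge5_noCong (p : ℕ) [Fact p.Prime] (r : ℕ) (hr : r.Prime) (hr5 : 5 ≤ r)
    (h55 : r = 5 → p ≠ 5) (hpr : ¬ r ∣ p + 1) :
    S16_helper4_UBGLUE.NoCong p r 1 := by
  intro G a ha h0 h1
  refine S16_helper18_TRALG.ncge5_alg (Fact.out : p.Prime) hr hr5 h55 hpr h0
    (S16_helper16_TB.trace_data p G a ha) (fun n hn => ?_)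
  rw [PowerSeries.coeff_mk]
  have := h1 n hn
  rwa [pow_one] at this

end Fermat.Agent.S16_helper18_NC2A
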