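import Fermat.Agent.S28_helper14_ADefs
import Fermat.Agent.S28_helper17_NINT
import Fermat.Agent.S28_helper27_ESYMM
import Fermat.Agent.S28_helper28_ORDER
import Fermat.Prelude.Thm_UpperHalfPlane_qExpansion_coeff_nat_mul
import Fermat.Prelude.Thm_UpperHalfPlane_qExpansion_prod
import Fermat.Prelude.Thm_CongruenceSubgroup_one_mem_strictPeriods_Gamma0

set_option autoImplicit false

open UpperHalfPlane ModularForm CongruenceSubgroup Matrix.SpecialLinearGroup
open scoped MatrixGroups ModularForm Manifold Real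
open Fermat.Agent.S20 Fermat.Agent.S28_helper14_Defs Fermat.Agent.S28_helper14_ADefs ModularCurve
open Fermat.Agent.S28_NINT Fermat.Agent.S28_ESYMM Fermat.Agent.S28_ORDER

/-!
# S28 piece EINT (core): integrality of the elementary symmetric functions of the conjugates
of the eta quotient `GN N`, assuming the facts about the conjugates provided by piece GCONJ
(bundled in `GConjFacts`).
-/

namespace Fermat.Agent.S28_EINT

/-- The facts on the conjugates of `GN N` (piece GCONJ) used below. -/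
structure GConjFacts (N : ℕ) [NeZero N] : Prop where
  ne_zero : ∀ z : ℍ, GN N z ≠ 0
  isMF : IsMF N (12 * (k0 N : ℤ)) (GN N)
  qexp : ∃ U : PowerSeries ℤ, PowerSeries.constantCoeff U = 1 ∧
    qExpansion 1 (GN N) = (PowerSeries.X ^ (ordG N).toNat * U).map (Int.castRingHom ℂ)
  nice : ∀ γ : SL(2, ℤ), Nice (N : ℝ) (GN N ∣[12 * (k0 N : ℤ)] γ)
  int : ∀ γ : SL(2, ℤ), IsNIntSeries N (qExpansion (N : ℝ) (GN N ∣[12 * (k0 N : ℤ)] γ))
  unit : ∀ γ : SL(2, ℤ), ¬ (N : ℤ) ∣ γ 1 0 →
    (qExpansion (N : ℝ) (GN N ∣[12 * (k0 N : ℤ)] γ)).coeff 0 ≠ 0 ∧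
      IsNInt N ((qExpansion (N : ℝ) (GN N ∣[12 * (k0 N : ℤ)] γ)).coeff 0)⁻¹

/-! ### Closure properties of `Nice` -/

theorem nice_analytic {h : ℝ} (hh : 0 < h) {f : ℍ → ℂ} (hf : Nice h f) :
    AnalyticAt ℂ (cuspFunction h f) 0 :=
  analyticAt_cuspFunction_zero hh hf.per hf.holo hf.bdd

theorem nice_one (h : ℝ) : Nice h (1 : ℍ → ℂ) where
  per := fun _ => rfl
  holo := mdifferentiable_const
  bdd := Filter.const_boundedAtFilter _ 1

theorem nice_zero (h : ℝ) : Nice h (0 : ℍ → ℂ) where
  per := fun _ => rfl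
  holo := mdifferentiable_const
  bdd := Filter.const_boundedAtFilter _ 0

theorem nice_mul {h : ℝ} {f g : ℍ → ℂ} (hf : Nice h f) (hg : Nice h g) : Nice h (f * g) where
  per := by
    intro x
    have h1 := hf.per x
    have h2 := hg.per x
    simp only [Function.comp_apply, Pi.mul_apply] at h1 h2 ⊢
    rw [h1, h2]
  holo := hf.holo.mul hg.holo
  bdd := hf.bdd.mul hg.bdd

theorem nice_add {h : ℝ} {f g : ℍ → ℂ} (hf : Nice h f) (hg : Nice h g) : Nice h (f + g) where
  per := by
    intro x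
    have h1 := hf.per x
    have h2 := hg.per x
    simp only [Function.comp_apply, Pi.add_apply] at h1 h2 ⊢
    rw [h1, h2]
  holo := hf.holo.add hg.holo
  bdd := hf.bdd.add hg.bdd

theorem nice_prod {h : ℝ} {ι : Type*} (s : Finset ι) (F : ι → ℍ → ℂ)
    (hF : ∀ i ∈ s, Nice h (F i)) : Nice h (∏ i ∈ s, F i) := by
  classical
  induction s using Finset.induction_on with
  | empty => simpa using nice_one h
  | insert a s ha ih =>
    rw [Finset.prod_insert ha]
    exact nice_mul (hF a (Finset.mem_insert_self a s))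
      (ih fun i hi => hF i (Finset.mem_insert_of_mem hi))

theorem nice_sum {h : ℝ} {ι : Type*} (s : Finset ι) (F : ι → ℍ → ℂ)
    (hF : ∀ i ∈ s, Nice h (F i)) : Nice h (∑ i ∈ s, F i) := by
  classical
  induction s using Finset.induction_on with
  | empty => simpa using nice_zero h
  | insert a s ha ih =>
    rw [Finset.sum_insert ha]
    exact nice_add (hF a (Finset.mem_insert_self a s))
      (ih fun i hi => hF i (Finset.mem_insert_of_mem hi))

theorem nice_of_isMF1 {k : ℤ} {f : ℍ → ℂ} (hf : IsMF1 k f) : Nice 1 f := by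
  obtain ⟨F, rfl⟩ := hf
  exact ⟨SlashInvariantFormClass.periodic_comp_ofComplex F _root_.one_mem_strictPeriods_SL,
    F.holo', (isMF1_iff.mp ⟨F, rfl⟩).2.2⟩

/-! ### `q`-expansions of sums and products -/

theorem qExpansion_nice_prod {h : ℝ} (hh : 0 < h) {ι : Type*} (s : Finset ι) (F : ι → ℍ → ℂ)
    (hF : ∀ i ∈ s, Nice h (F i)) :
    qExpansion h (∏ i ∈ s, F i) = ∏ i ∈ s, qExpansion h (F i) :=
  UpperHalfPlane.qExpansion_prod s fun i hi => nice_analytic hh (hF i hi)

theorem qExpansion_nice_sum {h : ℝ} (hh : 0 < h) {ι : Type*} (s : Finset ι) (F : ι → ℍ → ℂ)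
    (hF : ∀ i ∈ s, Nice h (F i)) :
    qExpansion h (∑ i ∈ s, F i) = ∑ i ∈ s, qExpansion h (F i) := by
  classical
  induction s using Finset.induction_on with
  | empty => simpa using qExpansion_zero h
  | insert a s ha ih =>
    rw [Finset.sum_insert ha, Finset.sum_insert ha,
      qExpansion_add (nice_analytic hh (hF a (Finset.mem_insert_self a s)))
        (nice_analytic hh (nice_sum s F fun i hi => hF i (Finset.mem_insert_of_mem hi))),
      ih fun i hi => hF i (Finset.mem_insert_of_mem hi)]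

/-! ### Closure properties of `IsNIntSeries` -/

theorem isNIntSeries_one (N : ℕ) : IsNIntSeries N 1 := by
  intro m
  rw [PowerSeries.coeff_one]
  split_ifs
  · exact isNInt_one
  · exact isNInt_zero

theorem isNIntSeries_zero (N : ℕ) : IsNIntSeries N 0 := by
  intro m
  simpa using isNInt_zero

theorem isNIntSeries_mul {N : ℕ} {P R : PowerSeries ℂ} (hP : IsNIntSeries N P)
    (hR : IsNIntSeries N R) : IsNIntSeries N (P * R) := by
  intro m
  rw [PowerSeries.coeff_mul]
  exact isNInt_sum _ _ fun x _ => isNInt_mul (hP _) (hR _)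

theorem isNIntSeries_add {N : ℕ} {P R : PowerSeries ℂ} (hP : IsNIntSeries N P)
    (hR : IsNIntSeries N R) : IsNIntSeries N (P + R) := by
  intro m
  rw [map_add]
  exact isNInt_add (hP _) (hR _)

theorem isNIntSeries_prod {N : ℕ} {ι : Type*} (s : Finset ι) (P : ι → PowerSeries ℂ)
    (hP : ∀ i ∈ s, IsNIntSeries N (P i)) : IsNIntSeries N (∏ i ∈ s, P i) := by
  classical
  induction s using Finset.induction_on with
  | empty => simpa using isNIntSeries_one N
  | insert a s ha ih =>
    rw [Finset.prod_insert ha]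
    exact isNIntSeries_mul (hP a (Finset.mem_insert_self a s))
      (ih fun i hi => hP i (Finset.mem_insert_of_mem hi))

theorem isNIntSeries_sum {N : ℕ} {ι : Type*} (s : Finset ι) (P : ι → PowerSeries ℂ)
    (hP : ∀ i ∈ s, IsNIntSeries N (P i)) : IsNIntSeries N (∑ i ∈ s, P i) := by
  classical
  induction s using Finset.induction_on with
  | empty => simpa using isNIntSeries_zero N
  | insert a s ha ih =>
    rw [Finset.sum_insert ha]
    exact isNIntSeries_add (hP a (Finset.mem_insert_self a s))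
      (ih fun i hi => hP i (Finset.mem_insert_of_mem hi))

/-! ### The conjugates of `GN` -/

theorem cj_GN_nice {N : ℕ} [NeZero N] (H : GConjFacts N) (q : Q N) :
    Nice (N : ℝ) (cj N (12 * (k0 N : ℤ)) (GN N) q) :=
  H.nice _

theorem cj_GN_int {N : ℕ} [NeZero N] (H : GConjFacts N) (q : Q N) :
    IsNIntSeries N (qExpansion (N : ℝ) (cj N (12 * (k0 N : ℤ)) (GN N) q)) :=
  H.int _

theorem natCast_pos_real (N : ℕ) [NeZero N] : (0 : ℝ) < (N : ℝ) :=
  Nat.cast_pos.mpr (Nat.pos_of_ne_zero (NeZero.ne N))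

theorem Esym_GN_nice {N : ℕ} [NeZero N] (H : GConjFacts N) (i : ℕ) :
    Nice (N : ℝ) (Esym N (12 * (k0 N : ℤ)) (GN N) i) :=
  nice_sum _ _ fun _ _ => nice_prod _ _ fun q _ => cj_GN_nice H q

theorem Esym_GN_intN {N : ℕ} [NeZero N] (H : GConjFacts N) (i : ℕ) :
    IsNIntSeries N (qExpansion (N : ℝ) (Esym N (12 * (k0 N : ℤ)) (GN N) i)) := by
  unfold Esym
  rw [qExpansion_nice_sum (natCast_pos_real N) _ _
    fun _ _ => nice_prod _ _ fun q _ => cj_GN_nice H q]
  refine isNIntSeries_sum _ _ fun _ _ => ?_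
  rw [qExpansion_nice_prod (natCast_pos_real N) _ _ fun q _ => cj_GN_nice H q]
  exact isNIntSeries_prod _ _ fun q _ => cj_GN_int H q

/-- Coefficients of the `q`-expansion at period `1` from those at period `N`. -/
theorem qExpansion_one_coeff {N : ℕ} [NeZero N] {f : ℍ → ℂ} (hf : Nice 1 f) (m : ℕ) :
    (qExpansion 1 f).coeff m = (qExpansion (N : ℝ) f).coeff (N * m) := by
  have hN : 0 < N := Nat.pos_of_ne_zero (NeZero.ne N)
  have := UpperHalfPlane.qExpansion_coeff_nat_mul one_pos hf.per hf.holo hf.bdd hN (N * m)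
  rw [mul_one, if_pos (dvd_mul_right N m), Nat.mul_div_cancel_left m hN] at this
  exact this.symm

theorem Esym_GN_int_of {N : ℕ} [NeZero N] (H : GConjFacts N) (i : ℕ) :
    IsNIntSeries N (qExpansion 1 (Esym N (12 * (k0 N : ℤ)) (GN N) i)) := by
  intro m
  rw [qExpansion_one_coeff (N := N) (nice_of_isMF1 (isMF1_Esym H.isMF i))]
  exact Esym_GN_intN H i _

/-! ### Level one forms without zeros -/

theorem tendsto_of_nice {h : ℝ} (hh : 0 < h) {f : ℍ → ℂ} (hf : Nice h f) :
    Filter.Tendsto f atImInfty (nhds ((qExpansion h f).coeff 0)) := by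
  have ha := nice_analytic hh hf
  have h1 : (cuspFunction h f ∘ fun τ : ℍ ↦ Function.Periodic.qParam h τ) = f := by
    funext τ
    simpa using eq_cuspFunction τ hh.ne' hf.per
  have h0 : (qExpansion h f).coeff 0 = cuspFunction h f 0 := by
    simp [qExpansion_coeff]
  rw [h0]
  have h2 := ha.continuousAt.tendsto.comp (qParam_tendsto_atImInfty hh)
  rwa [h1] at h2

theorem eq_const_of_isMF1_zero {f : ℍ → ℂ} (hf : IsMF1 0 f) (z : ℍ) :
    f z = (qExpansion 1 f).coeff 0 := by
  have hn := nice_of_isMF1 hf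
  obtain ⟨F, rfl⟩ := hf
  obtain ⟨c, hc⟩ := ModularFormClass.levelOne_weight_zero_const F
  have h1 := tendsto_of_nice one_pos hn
  have h2 : Filter.Tendsto (⇑F) atImInfty (nhds c) := by
    rw [hc]
    exact tendsto_const_nhds
  rw [tendsto_nhds_unique h1 h2, hc]
  rfl

theorem exists_zero_of_pos_weight {k : ℤ} (hk : 0 < k) {f : ℍ → ℂ} (hf : IsMF1 k f)
    (h0 : (qExpansion 1 f).coeff 0 ≠ 0) : ∃ z, f z = 0 := by
  by_contra hcon'
  have hcon : ∀ z, f z ≠ 0 := fun z hz => hcon' ⟨z, hz⟩
  have hn := nice_of_isMF1 hf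
  have hg : IsMF1 (0 - k) ((1 : ℍ → ℂ) / f) := by
    refine isMF1_iff.mpr ⟨?_, fun γ => ?_, ?_⟩
    · exact (mdifferentiable_const (c := (1 : ℂ))).div hf.holo hcon
    · rw [div_slash_SL2, is_invariant_one, hf.slash_eq]
    · have h1 := (tendsto_of_nice one_pos hn).inv₀ h0
      have h2 : ((1 : ℍ → ℂ) / f) = fun z => (f z)⁻¹ := by
        funext z
        simp
      rw [h2]
      exact h1.isBigO_one ℝ
  obtain ⟨G, hG⟩ := hg
  have h3 := ModularFormClass.levelOne_neg_weight_eq_zero (by omega : 0 - k < 0) G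
  rw [hG] at h3
  have h4 := congrFun h3 UpperHalfPlane.I
  simp only [Pi.div_apply, Pi.one_apply, Pi.zero_apply, one_div, inv_eq_zero] at h4
  exact hcon _ h4

theorem eq_smul_discriminant_pow (e : ℕ) : ∀ (m : ℕ) (f : ℍ → ℂ) (P : PowerSeries ℂ),
    IsMF1 (12 * (m : ℤ)) f → (∀ z, f z ≠ 0) → qExpansion 1 f = PowerSeries.X ^ e * P →
    P.coeff 0 ≠ 0 → e = m ∧ f = P.coeff 0 • (discriminant ^ m : ℍ → ℂ) := by
  induction e with
  | zero =>
    intro m f P hf hnz hq hu
    rw [pow_zero, one_mul] at hq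
    rcases Nat.eq_zero_or_pos m with rfl | hm
    · refine ⟨rfl, ?_⟩
      funext z
      rw [eq_const_of_isMF1_zero (hf.cast (by simp)) z, hq]
      simp
    · exfalso
      obtain ⟨z, hz⟩ := exists_zero_of_pos_weight (k := 12 * (m : ℤ)) (by positivity) hf
        (by rw [hq]; exact hu)
      exact hnz z hz
  | succ e ih =>
    intro m f P hf hnz hq hu
    have hc0 : (qExpansion 1 f).coeff 0 = 0 := by
      rw [hq, pow_succ, mul_assoc, PowerSeries.coeff_zero_eq_constantCoeff, map_mul, map_mul]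
      simp
    rcases Nat.eq_zero_or_pos m with rfl | hm
    · exfalso
      have := eq_const_of_isMF1_zero (hf.cast (by simp)) UpperHalfPlane.I
      rw [hc0] at this
      exact hnz _ this
    · obtain ⟨m', rfl⟩ : ∃ m', m = m' + 1 := ⟨m - 1, by omega⟩
      obtain ⟨F, rfl⟩ := hf
      have hcusp : (qExpansion 1 F).coeff 0 = 0 := hc0
      set G := CuspForm.discriminantEquiv (ModularForm.toCuspForm F hcusp) with hGdef
      have hFG : ∀ z, F z = discriminant z * G z := fun z =>
        (ModularForm.discriminant_mul_discriminantEquiv_apply (ModularForm.toCuspForm F hcusp) z).symm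
      have hGq := ModularForm.qExpansion_eq_qExpansion_discriminant_mul F hcusp
      have hGnz : ∀ z, G z ≠ 0 := by
        intro z hz
        apply hnz z
        rw [hFG z, hz, mul_zero]
      have hGmf : IsMF1 (12 * (m' : ℤ)) (⇑G) := IsMF1.cast ⟨G, rfl⟩ (by push_cast; ring)
      -- the `q`-expansion of `Δ`
      set D : PowerSeries ℂ := PowerSeries.mk fun p => (qExpansion 1 discriminant).coeff (p + 1)
        with hD
      have hΔ : qExpansion 1 discriminant = PowerSeries.X * D := by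
        have h1 := PowerSeries.eq_X_mul_shift_add_const (qExpansion 1 discriminant)
        have h2 : PowerSeries.constantCoeff (qExpansion 1 discriminant) = 0 := by
          rw [← PowerSeries.coeff_zero_eq_constantCoeff]
          exact CuspFormClass.qExpansion_coeff_zero CuspForm.discriminant one_pos
            one_mem_strictPeriods_SL
        rw [h2, map_zero, add_zero] at h1
        exact h1
      have hD0 : PowerSeries.constantCoeff D = 1 := by
        rw [← PowerSeries.coeff_zero_eq_constantCoeff, hD, PowerSeries.coeff_mk]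
        exact discriminant_qExpansion_coeff_one
      have hDne : PowerSeries.constantCoeff D ≠ 0 := by rw [hD0]; exact one_ne_zero
      have h3 : PowerSeries.X ^ e * P = D * qExpansion 1 G := by
        have h4 : PowerSeries.X * (PowerSeries.X ^ e * P) =
            PowerSeries.X * (D * qExpansion 1 G) := by
          rw [← mul_assoc, ← pow_succ', ← hq, hGq, hΔ, mul_assoc]
        exact mul_left_cancel₀ PowerSeries.X_ne_zero h4
      have h5 : qExpansion 1 G = PowerSeries.X ^ e * (D⁻¹ * P) := by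
        calc qExpansion 1 G = D⁻¹ * (D * qExpansion 1 G) := by
              rw [← mul_assoc, PowerSeries.inv_mul_cancel _ hDne, one_mul]
          _ = PowerSeries.X ^ e * (D⁻¹ * P) := by rw [← h3]; ring
      have h6 : (D⁻¹ * P).coeff 0 = P.coeff 0 := by
        rw [PowerSeries.coeff_zero_eq_constantCoeff, map_mul, PowerSeries.constantCoeff_inv, hD0]
        simp
      obtain ⟨he, hG'⟩ := ih m' (⇑G) (D⁻¹ * P) hGmf hGnz h5 (by rw [h6]; exact hu)
      refine ⟨by omega, ?_⟩
      funext z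
      rw [hFG z, hG', h6]
      simp only [Pi.smul_apply, Pi.pow_apply, smul_eq_mul]
      ring

/-! ### The top elementary symmetric function -/

theorem cj_GN_ne_zero {N : ℕ} [NeZero N] (H : GConjFacts N) (q : Q N) (z : ℍ) :
    cj N (12 * (k0 N : ℤ)) (GN N) q z ≠ 0 := by
  unfold cj
  rw [SL_slash_apply]
  exact mul_ne_zero (H.ne_zero _) (zpow_ne_zero _ (denom_ne_zero _ z))

theorem not_dvd_of_ne_one (N : ℕ) [NeZero N] (q : Q N) (hq : q ≠ ((1 : SL(2, ℤ)) : Q N)) :
    ¬ (N : ℤ) ∣ (q.out⁻¹ : SL(2, ℤ)) 1 0 := by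
  intro hd
  apply hq
  have h1 : (q.out⁻¹ : SL(2, ℤ)) ∈ Gamma0 N := by
    rw [Gamma0_mem]
    exact (ZMod.intCast_zmod_eq_zero_iff_dvd _ N).mpr hd
  rw [← QuotientGroup.out_eq' q, QuotientGroup.eq]
  simpa using h1

theorem nice_one_GN {N : ℕ} [NeZero N] (H : GConjFacts N) : Nice 1 (GN N) := by
  have hmf := H.isMF
  refine ⟨?_, hmf.holo, ?_⟩
  · obtain ⟨F, hF⟩ := hmf
    rw [← hF]
    exact SlashInvariantFormClass.periodic_comp_ofComplex F
      (CongruenceSubgroup.one_mem_strictPeriods_Gamma0 N)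
  · have := hmf.bdd 1
    rwa [SlashAction.slash_one] at this

theorem Esym_GN_top_of {N : ℕ} [NeZero N] (H : GConjFacts N) :
    ordG N = (k0 N : ℤ) * (Fintype.card (Q N) : ℤ) ∧
    ∃ u : ℂ, u ≠ 0 ∧ IsNInt N u ∧ IsNInt N u⁻¹ ∧
      Esym N (12 * (k0 N : ℤ)) (GN N) (Fintype.card (Q N)) =
        u • (discriminant ^ (k0 N * Fintype.card (Q N)) : ℍ → ℂ) := by
  classical
  set n := Fintype.card (Q N) with hn
  set q₁ : Q N := ((1 : SL(2, ℤ)) : Q N) with hq₁
  set E := Esym N (12 * (k0 N : ℤ)) (GN N) n with hE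
  set R : ℍ → ℂ := ∏ q ∈ (Finset.univ : Finset (Q N)).erase q₁, cj N (12 * (k0 N : ℤ)) (GN N) q with hR
  have hNpos := natCast_pos_real N
  have hEprod : E = GN N * R := by
    rw [hE, Esym_card, hR, ← Finset.mul_prod_erase Finset.univ _ (Finset.mem_univ q₁),
      cj_one H.isMF]
  have hEmf : IsMF1 (12 * ((k0 N * n : ℕ) : ℤ)) E :=
    (isMF1_Esym H.isMF n).cast (by push_cast; ring)
  have hEnice : Nice 1 E := nice_of_isMF1 hEmf
  have hGnice := nice_one_GN H
  have hRniceN : Nice (N : ℝ) R := nice_prod _ _ fun q _ => cj_GN_nice H q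
  have hRE : ∀ z, R z = E z / GN N z := by
    intro z
    rw [hEprod, Pi.mul_apply, mul_div_cancel_left₀ _ (H.ne_zero z)]
  have hRnice : Nice 1 R := by
    refine ⟨?_, hRniceN.holo, hRniceN.bdd⟩
    intro x
    have h1 := hEnice.per x
    have h2 := hGnice.per x
    simp only [Function.comp_apply] at h1 h2 ⊢
    rw [hRE, hRE, h1, h2]
  have hqE : qExpansion 1 E = qExpansion 1 (GN N) * qExpansion 1 R := by
    rw [hEprod]
    exact qExpansion_mul (nice_analytic one_pos hGnice) (nice_analytic one_pos hRnice)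
  set u : ℂ := ∏ q ∈ (Finset.univ : Finset (Q N)).erase q₁,
    (qExpansion (N : ℝ) (cj N (12 * (k0 N : ℤ)) (GN N) q)).coeff 0 with hu
  have hR0 : (qExpansion 1 R).coeff 0 = u := by
    rw [qExpansion_one_coeff (N := N) hRnice, mul_zero, hR,
      qExpansion_nice_prod hNpos _ _ (fun q _ => cj_GN_nice H q),
      PowerSeries.coeff_zero_eq_constantCoeff, map_prod, hu]
    simp only [PowerSeries.coeff_zero_eq_constantCoeff]
  have hunit : ∀ q ∈ (Finset.univ : Finset (Q N)).erase q₁,
      (qExpansion (N : ℝ) (cj N (12 * (k0 N : ℤ)) (GN N) q)).coeff 0 ≠ 0 ∧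
        IsNInt N ((qExpansion (N : ℝ) (cj N (12 * (k0 N : ℤ)) (GN N) q)).coeff 0)⁻¹ := by
    intro q hq
    exact H.unit _ (not_dvd_of_ne_one N q (Finset.ne_of_mem_erase hq))
  have hu0 : u ≠ 0 := Finset.prod_ne_zero_iff.mpr fun q hq => (hunit q hq).1
  have huint : IsNInt N u := isNInt_prod _ _ fun q _ => cj_GN_int H q 0
  have huinv : IsNInt N u⁻¹ := by
    rw [hu, ← Finset.prod_inv_distrib]
    exact isNInt_prod _ _ fun q hq => (hunit q hq).2
  obtain ⟨U, hU1, hU⟩ := H.qexp
  set P : PowerSeries ℂ := U.map (Int.castRingHom ℂ) * qExpansion 1 R with hP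
  have hqE' : qExpansion 1 E = PowerSeries.X ^ (ordG N).toNat * P := by
    rw [hqE, hU, map_mul, map_pow, PowerSeries.map_X, mul_assoc]
  have hP0 : P.coeff 0 = u := by
    rw [hP, PowerSeries.coeff_zero_eq_constantCoeff, map_mul,
      ← PowerSeries.coeff_zero_eq_constantCoeff_apply (qExpansion 1 R), hR0]
    rw [← PowerSeries.coeff_zero_eq_constantCoeff_apply, PowerSeries.coeff_map,
      PowerSeries.coeff_zero_eq_constantCoeff_apply, hU1, map_one, one_mul]
  have hEnz : ∀ z, E z ≠ 0 := by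
    intro z
    rw [hE, Esym_card, Finset.prod_apply]
    exact Finset.prod_ne_zero_iff.mpr fun q _ => cj_GN_ne_zero H q z
  obtain ⟨he, hfin⟩ := eq_smul_discriminant_pow _ (k0 N * n) E P hEmf hEnz hqE'
    (by rw [hP0]; exact hu0)
  refine ⟨?_, u, hu0, huint, huinv, ?_⟩
  · have h0 := ordG_nonneg N (Nat.pos_of_ne_zero (NeZero.ne N))
    have h1 : ((ordG N).toNat : ℤ) = ordG N := Int.toNat_of_nonneg h0
    rw [← h1, he]
    push_cast
    ring
  · rw [hfin, hP0]

end Fermat.Agent.S28_EINT
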