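import Fermat.Agent.S16_helper24_CONJDefs
import Fermat.Agent.S16_helper6_WTRICK
import Fermat.Agent.S28_helper13_EINT_Core
import Fermat.Prelude.Thm_CongruenceSubgroup_one_mem_strictPeriods_Gamma0

/-!
# S16, upper bound: closure properties of `HasConj`, norm and trace to level one
-/

set_option autoImplicit false

open UpperHalfPlane ModularForm CongruenceSubgroup Matrix.SpecialLinearGroup
open scoped MatrixGroups ModularForm Manifold Real
open Fermat.Agent.S20 Fermat.Agent.S28_helper14_ADefs Fermat.Agent.S28_EINT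

namespace Fermat.Agent.S16_helper24_CONJ

/-! ### Every `SL(2,ℤ)`-translate of a form of level `N` is `Nice N` -/

theorem intCast_mem_strictPeriods_Gamma (N : ℕ) (m : ℤ) (hm : (N : ℤ) ∣ m) :
    ((m : ℝ)) ∈ (Subgroup.map (mapGL ℝ) (Gamma N)).strictPeriods := by
  simp only [Subgroup.mem_strictPeriods_iff, Subgroup.mem_map, Units.ext_iff, mapGL_coe_matrix,
    map_apply_coe]
  refine ⟨ModularGroup.T ^ m, ModularGroup_T_pow_mem_Gamma N m hm, ?_⟩
  ext i j
  fin_cases i <;> fin_cases j <;> simp [ModularGroup.coe_T_zpow]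

theorem natCast_mem_strictPeriods_Gamma (N : ℕ) :
    ((N : ℝ)) ∈ (Subgroup.map (mapGL ℝ) (Gamma N)).strictPeriods := by
  exact_mod_cast intCast_mem_strictPeriods_Gamma N N dvd_rfl

theorem slash_slash_Gamma {N : ℕ} [NeZero N] {w : ℤ} {F : ℍ → ℂ} (hF : IsMF N w F)
    (γ δ : SL(2, ℤ)) (hδ : δ ∈ Gamma N) : (F ∣[w] γ) ∣[w] δ = F ∣[w] γ := by
  have h1 : γ * δ * γ⁻¹ ∈ Gamma0 N :=
    (Gamma1_in_Gamma0 N) ((Gamma1_mem N _).mpr (by
      have := (Gamma_mem (N := N)).mp ((Gamma_normal (N := N)).conj_mem δ hδ γ)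
      exact ⟨this.1, this.2.2.2, this.2.2.1⟩))
  have h2 : γ * δ = (γ * δ * γ⁻¹) * γ := by group
  rw [← SlashAction.slash_mul, h2, SlashAction.slash_mul, hF.slash_eq h1]

theorem nice_slash {N : ℕ} [NeZero N] {w : ℤ} {F : ℍ → ℂ} (hF : IsMF N w F) (γ : SL(2, ℤ)) :
    Nice (N : ℝ) (F ∣[w] γ) where
  per := by
    let G : SlashInvariantForm (Subgroup.map (mapGL ℝ) (Gamma N)) w :=
      { toFun := F ∣[w] γ
        slash_action_eq' := by
          rintro δ ⟨δ', hδ', rfl⟩
          exact slash_slash_Gamma hF γ δ' hδ' }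
    exact SlashInvariantFormClass.periodic_comp_ofComplex G (natCast_mem_strictPeriods_Gamma N)
  holo := by
    rw [ModularForm.SL_slash]
    exact hF.holo.slash w _
  bdd := hF.bdd γ


theorem nice_one_of_isMF {N : ℕ} [NeZero N] {w : ℤ} {F : ℍ → ℂ} (hF : IsMF N w F) : Nice 1 F := by
  obtain ⟨G, rfl⟩ := hF
  exact ⟨SlashInvariantFormClass.periodic_comp_ofComplex G
      (CongruenceSubgroup.one_mem_strictPeriods_Gamma0 N),
    G.holo', (isMF_iff.mp ⟨G, rfl⟩).1 |> fun _ => by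
      simpa using (IsMF.bdd (N := N) (k := w) ⟨G, rfl⟩ 1)⟩

theorem natCast_pos' (N : ℕ) [NeZero N] : (0 : ℝ) < (N : ℝ) :=
  Nat.cast_pos.mpr (Nat.pos_of_ne_zero (NeZero.ne N))

/-- The expansion in `x = q^(1/N)` of a function of period one. -/
theorem qExpansion_width {N : ℕ} [NeZero N] {f : ℍ → ℂ} (hf : Nice 1 f) :
    qExpansion (N : ℝ) f = infSer N (qExpansion 1 f) := by
  ext n
  have := UpperHalfPlane.qExpansion_coeff_nat_mul one_pos hf.per hf.holo hf.bdd
    (Nat.pos_of_ne_zero (NeZero.ne N)) n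
  rw [mul_one] at this
  rw [this, coeff_infSer]

/-! ### Closure properties -/

section closure

variable {p : ℕ} [NeZero p] {w w' w₁ w₂ : ℤ} {F F₁ F₂ : ℍ → ℂ} {s s₁ s₂ : PowerSeries ℂ}
  {t t₁ t₂ : ℕ → PowerSeries ℂ}

theorem HasConj.nice (h : HasConj p w F s t) (j : ℕ) :
    Nice (p : ℝ) (F ∣[w] (ModularGroup.S * ModularGroup.T ^ (j : ℤ))) :=
  nice_slash h.isMF _

theorem HasConj.analytic (h : HasConj p w F s t) (j : ℕ) :
    AnalyticAt ℂ (cuspFunction (p : ℝ) (F ∣[w] (ModularGroup.S * ModularGroup.T ^ (j : ℤ)))) 0 :=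
  nice_analytic (natCast_pos' p) (h.nice j)

theorem HasConj.cast (h : HasConj p w F s t) (hw : w = w') : HasConj p w' F s t := hw ▸ h

theorem HasConj.congr (h : HasConj p w F s t) {s' : PowerSeries ℂ} {t' : ℕ → PowerSeries ℂ}
    (hs : s = s') (ht : ∀ j, t j = t' j) : HasConj p w F s' t' :=
  ⟨h.isMF, h.inf.trans hs, fun j => (h.conj j).trans (ht j)⟩

theorem HasConj.of_isMF1 {f : ℍ → ℂ} (hf : IsMF1 w f) :
    HasConj p w f (qExpansion 1 f) (fun _ => infSer p (qExpansion 1 f)) where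
  isMF := hf.isMF
  inf := rfl
  conj := fun j => by
    rw [hf.slash_eq]
    exact qExpansion_width (nice_of_isMF1 hf)

theorem HasConj.analytic_inf (h : HasConj p w F s t) : AnalyticAt ℂ (cuspFunction 1 F) 0 :=
  nice_analytic one_pos (nice_one_of_isMF h.isMF)

theorem HasConj.add (h₁ : HasConj p w F₁ s₁ t₁) (h₂ : HasConj p w F₂ s₂ t₂) :
    HasConj p w (F₁ + F₂) (s₁ + s₂) (fun j => t₁ j + t₂ j) where
  isMF := h₁.isMF.add h₂.isMF
  inf := by rw [qExpansion_add h₁.analytic_inf h₂.analytic_inf, h₁.inf, h₂.inf]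
  conj := fun j => by
    rw [SlashAction.add_slash, qExpansion_add (h₁.analytic j) (h₂.analytic j), h₁.conj, h₂.conj]

theorem HasConj.neg (h : HasConj p w F s t) : HasConj p w (-F) (-s) (fun j => -t j) where
  isMF := h.isMF.neg
  inf := by rw [qExpansion_neg h.analytic_inf, h.inf]
  conj := fun j => by
    rw [SlashAction.neg_slash, qExpansion_neg (h.analytic j), h.conj]

theorem HasConj.sub (h₁ : HasConj p w F₁ s₁ t₁) (h₂ : HasConj p w F₂ s₂ t₂) :
    HasConj p w (F₁ - F₂) (s₁ - s₂) (fun j => t₁ j - t₂ j) := by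
  have h := h₁.add h₂.neg
  rw [← sub_eq_add_neg, ← sub_eq_add_neg] at h
  exact h.congr rfl (fun j => (sub_eq_add_neg _ _).symm)

theorem HasConj.smul (c : ℂ) (h : HasConj p w F s t) :
    HasConj p w (c • F) (c • s) (fun j => c • t j) where
  isMF := h.isMF.smul c
  inf := by rw [qExpansion_smul h.analytic_inf, h.inf]
  conj := fun j => by
    rw [ModularForm.SL_smul_slash, qExpansion_smul (h.analytic j), h.conj]

theorem HasConj.mul (h₁ : HasConj p w₁ F₁ s₁ t₁) (h₂ : HasConj p w₂ F₂ s₂ t₂) :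
    HasConj p (w₁ + w₂) (F₁ * F₂) (s₁ * s₂) (fun j => t₁ j * t₂ j) where
  isMF := h₁.isMF.mul h₂.isMF
  inf := by rw [qExpansion_mul h₁.analytic_inf h₂.analytic_inf, h₁.inf, h₂.inf]
  conj := fun j => by
    rw [ModularForm.mul_slash_SL2, qExpansion_mul (h₁.analytic j) (h₂.analytic j), h₁.conj,
      h₂.conj]

theorem HasConj.one : HasConj p 0 (1 : ℍ → ℂ) 1 (fun _ => 1) :=
  (HasConj.of_isMF1 (p := p) IsMF1.one).congr (qExpansion_one 1) fun _ => by
    rw [qExpansion_one]
    ext n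
    rw [coeff_infSer]
    rcases Nat.eq_zero_or_pos n with rfl | hn
    · simp
    · have h1 : n ≠ 0 := hn.ne'
      have h2 : p ∣ n → n / p ≠ 0 := fun hd =>
        (Nat.div_pos (Nat.le_of_dvd hn hd) (Nat.pos_of_ne_zero (NeZero.ne p))).ne'
      by_cases hd : p ∣ n
      · simp [PowerSeries.coeff_one, hd, h1, h2 hd]
      · simp [PowerSeries.coeff_one, hd, h1]

theorem HasConj.pow (h : HasConj p w F s t) (n : ℕ) :
    HasConj p (n * w) (F ^ n) (s ^ n) (fun j => t j ^ n) := by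
  induction n with
  | zero =>
    simpa using (HasConj.one (p := p))
  | succ n ih =>
    have h1 : ((n + 1 : ℕ) : ℤ) * w = n * w + w := by push_cast; ring
    rw [h1]
    simpa [pow_succ] using ih.mul h

end closure

/-! ### Norm and trace to level one -/

section normtrace

open Fermat.Agent.S16_helper6_WTRICK Fermat.Agent.S28_ESYMM

variable {p : ℕ} [Fact p.Prime] {w : ℤ} {F : ℍ → ℂ} {s : PowerSeries ℂ}
  {t : ℕ → PowerSeries ℂ}

theorem card_Q_prime (p : ℕ) [Fact p.Prime] :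
    haveI : NeZero p := ⟨(Fact.out : p.Prime).ne_zero⟩
    Fintype.card (Q p) = p + 1 := by
  have : NeZero p := ⟨(Fact.out : p.Prime).ne_zero⟩
  rw [← Fintype.card_of_bijective (rep_bijective p)]
  simp

theorem nice_self {N : ℕ} [NeZero N] {w : ℤ} {F : ℍ → ℂ} (hF : IsMF N w F) :
    Nice (N : ℝ) F := by
  simpa using nice_slash hF 1

/-- The norm to level one. -/
theorem HasConj.norm (h : HasConj p w F s t) :
    ∃ f : ℍ → ℂ, IsMF1 (((p : ℤ) + 1) * w) f ∧
      infSer p (qExpansion 1 f) = infSer p s * ∏ j ∈ Finset.range p, t j := by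
  have : NeZero p := ⟨(Fact.out : p.Prime).ne_zero⟩
  have hp : (0 : ℝ) < (p : ℝ) := natCast_pos' p
  refine ⟨∏ q : Q p, cj p w F q, ?_, ?_⟩
  · have h1 := isMF1_Esym h.isMF (Fintype.card (Q p))
    rw [Esym_card, card_Q_prime p] at h1
    exact h1.cast (by push_cast; ring)
  · have h1 : IsMF1 (((Fintype.card (Q p) : ℕ) : ℤ) * w) (∏ q : Q p, cj p w F q) := by
      have := isMF1_Esym h.isMF (Fintype.card (Q p))
      rwa [Esym_card] at this
    rw [← qExpansion_width (N := p) (nice_of_isMF1 h1), prod_cj_eq w h.isMF,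
      qExpansion_mul (nice_analytic hp (nice_self h.isMF))
        (nice_analytic hp (nice_prod _ _ fun j _ => h.nice j)),
      qExpansion_nice_prod hp _ _ (fun j _ => h.nice j),
      qExpansion_width (nice_one_of_isMF h.isMF), h.inf]
    exact congrArg _ (Finset.prod_congr rfl fun j _ => h.conj j)

/-- The trace to level one. -/
theorem HasConj.trace (h : HasConj p w F s t) :
    ∃ f : ℍ → ℂ, IsMF1 w f ∧
      infSer p (qExpansion 1 f) = infSer p s + ∑ j ∈ Finset.range p, t j := by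
  have : NeZero p := ⟨(Fact.out : p.Prime).ne_zero⟩
  have hp : (0 : ℝ) < (p : ℝ) := natCast_pos' p
  have h1 : IsMF1 w (∑ q : Q p, cj p w F q) := isMF1_sum_cj h.isMF
  refine ⟨∑ q : Q p, cj p w F q, h1, ?_⟩
  rw [← qExpansion_width (N := p) (nice_of_isMF1 h1), sum_cj_eq w h.isMF,
    qExpansion_add (nice_analytic hp (nice_self h.isMF))
      (nice_analytic hp (nice_sum _ _ fun j _ => h.nice j)),
    qExpansion_nice_sum hp _ _ (fun j _ => h.nice j),
    qExpansion_width (nice_one_of_isMF h.isMF), h.inf]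
  exact congrArg _ (Finset.sum_congr rfl fun j _ => h.conj j)

end normtrace

end Fermat.Agent.S16_helper24_CONJ
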