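import Fermat.Agent.S20_Basic

/-!
# S16, upper bound: bookkeeping of the expansions of all conjugates (definitions)

`p` is the level, `x = q^(1/p)`.  `HasConj p w F s t` records the `q`-expansion `s` of `F` at
infinity together with the `x`-expansions `t j` of the conjugates `F ∣[w] (S T^j)`.
-/

set_option autoImplicit false

open UpperHalfPlane ModularForm CongruenceSubgroup Matrix.SpecialLinearGroup
open scoped MatrixGroups ModularForm Manifold Real
open Fermat.Agent.S20

noncomputable section

namespace Fermat.Agent.S16_helper24_CONJ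

/-- The primitive `p`-th root of unity `exp (2 π i / p)`. -/
def zetaP (p : ℕ) : ℂ := Complex.exp (2 * (π : ℂ) * Complex.I / (p : ℂ))

/-- `g(x^p)`: the expansion in `x = q^(1/p)` of a function with `q`-expansion `g`. -/
def infSer (p : ℕ) (g : PowerSeries ℂ) : PowerSeries ℂ :=
  PowerSeries.mk fun n => if p ∣ n then g.coeff (n / p) else 0

/-- The expansion in `x = q^(1/p)` of the conjugate `G ∣[2] (S T^j)` of a weight two form
of level `p` with `q`-expansion `g = ∑ a_n q^n`:  `-(1/p) ∑ a_{pm} ζ^{jm} x^m`. -/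
def conjSer (p : ℕ) (g : PowerSeries ℂ) (j : ℕ) : PowerSeries ℂ :=
  PowerSeries.mk fun m => -((p : ℂ)⁻¹) * g.coeff (p * m) * zetaP p ^ (j * m)

/-- `F` is a modular form of weight `w` on `Γ₀(p)` with `q`-expansion `s` at infinity, and
for every `j` the conjugate `F ∣[w] (S T^j)` has expansion `t j` in `x = q^(1/p)`. -/
structure HasConj (p : ℕ) (w : ℤ) (F : ℍ → ℂ) (s : PowerSeries ℂ) (t : ℕ → PowerSeries ℂ) :
    Prop where
  isMF : IsMF p w F
  inf : qExpansion 1 F = s
  conj : ∀ j : ℕ,
    qExpansion (p : ℝ) (F ∣[w] (ModularGroup.S * ModularGroup.T ^ (j : ℤ))) = t j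

@[simp] theorem coeff_infSer (p : ℕ) (g : PowerSeries ℂ) (n : ℕ) :
    (infSer p g).coeff n = if p ∣ n then g.coeff (n / p) else 0 := by
  simp [infSer]

@[simp] theorem coeff_conjSer (p : ℕ) (g : PowerSeries ℂ) (j m : ℕ) :
    (conjSer p g j).coeff m = -((p : ℂ)⁻¹) * g.coeff (p * m) * zetaP p ^ (j * m) := by
  simp [conjSer]

end Fermat.Agent.S16_helper24_CONJ
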