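import Fermat.Agent.S16_helper28_TE
import Fermat.Agent.S16_helper24_CONJDefs

/-!
# S16, upper bound, tool (Te), part 2: ready-to-use shapes

* `infSer_eq_expand`: helper24's `infSer p` is Mathlib's `PowerSeries.expand p`, hence a ring
  homomorphism;
* `qExpansion_width_infSer`: a nice `1`-periodic function expanded in `x = q^(1/N)`;
* the expansions of `E₄`, `E₆`, `Δ` in the shape `1 + 240 s`, `1 - 504 (s + 8 w)`,
  `1728 Δ = E₄³ - E₆²`, at width `1` and at width `p`.
-/

set_option autoImplicit false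

noncomputable section

namespace Fermat.Agent.S16_helper28_TE2

open UpperHalfPlane ModularForm
open Fermat.Agent.S20 Fermat.Agent.S28_helper14_ADefs
open Fermat.Agent.S16_helper18_TRALG Fermat.Agent.S16_helper28_TE
open Fermat.Agent.S16_helper24_CONJ
open PowerSeries

/-! ### `infSer` is `PowerSeries.expand` -/

theorem infSer_eq_expand {p : ℕ} (hp : p ≠ 0) (g : PowerSeries ℂ) :
    infSer p g = PowerSeries.expand p hp g := by
  ext n
  rw [coeff_infSer, PowerSeries.coeff_expand]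

theorem infSer_add {p : ℕ} (hp : p ≠ 0) (g h : PowerSeries ℂ) :
    infSer p (g + h) = infSer p g + infSer p h := by
  simp only [infSer_eq_expand hp, map_add]

theorem infSer_sub {p : ℕ} (hp : p ≠ 0) (g h : PowerSeries ℂ) :
    infSer p (g - h) = infSer p g - infSer p h := by
  simp only [infSer_eq_expand hp, map_sub]

theorem infSer_neg {p : ℕ} (hp : p ≠ 0) (g : PowerSeries ℂ) :
    infSer p (-g) = -infSer p g := by
  simp only [infSer_eq_expand hp, map_neg]

theorem infSer_mul {p : ℕ} (hp : p ≠ 0) (g h : PowerSeries ℂ) :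
    infSer p (g * h) = infSer p g * infSer p h := by
  simp only [infSer_eq_expand hp, map_mul]

theorem infSer_pow {p : ℕ} (hp : p ≠ 0) (g : PowerSeries ℂ) (n : ℕ) :
    infSer p (g ^ n) = infSer p g ^ n := by
  simp only [infSer_eq_expand hp, map_pow]

theorem infSer_one {p : ℕ} (hp : p ≠ 0) : infSer p 1 = 1 := by
  simp only [infSer_eq_expand hp, map_one]

theorem infSer_zero {p : ℕ} (hp : p ≠ 0) : infSer p 0 = 0 := by
  simp only [infSer_eq_expand hp, map_zero]

theorem infSer_C {p : ℕ} (hp : p ≠ 0) (c : ℂ) : infSer p (C c) = C c := by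
  rw [infSer_eq_expand hp, PowerSeries.expand_C]

theorem infSer_natCast {p : ℕ} (hp : p ≠ 0) (n : ℕ) :
    infSer p (n : PowerSeries ℂ) = (n : PowerSeries ℂ) := by
  simp only [infSer_eq_expand hp, map_natCast]

theorem infSer_intCast {p : ℕ} (hp : p ≠ 0) (n : ℤ) :
    infSer p (n : PowerSeries ℂ) = (n : PowerSeries ℂ) := by
  simp only [infSer_eq_expand hp, map_intCast]

theorem infSer_ofNat {p : ℕ} (hp : p ≠ 0) (n : ℕ) [n.AtLeastTwo] :
    infSer p (OfNat.ofNat n : PowerSeries ℂ) = (OfNat.ofNat n : PowerSeries ℂ) := by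
  simp only [infSer_eq_expand hp, map_ofNat]

theorem infSer_smul {p : ℕ} (hp : p ≠ 0) (c : ℂ) (g : PowerSeries ℂ) :
    infSer p (c • g) = c • infSer p g := by
  simp only [infSer_eq_expand hp, PowerSeries.expand_smul]

theorem infSer_map_int {p : ℕ} (hp : p ≠ 0) (V : PowerSeries ℤ) :
    infSer p (V.map (Int.castRingHom ℂ)) =
      (PowerSeries.expand p hp V).map (Int.castRingHom ℂ) := by
  rw [infSer_eq_expand hp, PowerSeries.map_expand]

/-- Coefficients of `infSer p` of an integral series are integers. -/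
theorem coeff_infSer_map_int (p : ℕ) (V : PowerSeries ℤ) (n : ℕ) :
    ∃ c : ℤ, (infSer p (V.map (Int.castRingHom ℂ))).coeff n = (c : ℂ) := by
  rw [coeff_infSer]
  split_ifs
  · exact ⟨V.coeff (n / p), by simp⟩
  · exact ⟨0, by simp⟩

theorem coeff_infSer_map_int_mem (O : Subring ℂ) (p : ℕ) (V : PowerSeries ℤ) (n : ℕ) :
    (infSer p (V.map (Int.castRingHom ℂ))).coeff n ∈ O := by
  obtain ⟨c, hc⟩ := coeff_infSer_map_int p V n
  rw [hc]
  exact intCast_mem O c

theorem coeff_map_int_mem (O : Subring ℂ) (V : PowerSeries ℤ) (n : ℕ) :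
    (V.map (Int.castRingHom ℂ)).coeff n ∈ O := by
  rw [PowerSeries.coeff_map]
  exact intCast_mem O _

/-! ### Change of width -/

theorem qExpansion_width_infSer {f : ℍ → ℂ} (hf : Nice 1 f) {N : ℕ} (hN : 0 < N) :
    qExpansion (N : ℝ) f = infSer N (qExpansion 1 f) := by
  ext m
  rw [qExpansion_width hf hN, coeff_infSer]

theorem qExpansion_width_of_isMF1 {k : ℤ} {f : ℍ → ℂ} (hf : IsMF1 k f) {N : ℕ} (hN : 0 < N) :
    qExpansion (N : ℝ) f = infSer N (qExpansion 1 f) :=
  qExpansion_width_infSer (Fermat.Agent.S28_EINT.nice_of_isMF1 hf) hN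

/-! ### The basic series over `ℂ` -/

/-- `∑ σ₃(n) qⁿ` over `ℂ`. -/
def sC : PowerSeries ℂ := s3Ser.map (Int.castRingHom ℂ)

/-- `∑ (σ₅(n) - σ₃(n))/8 qⁿ` over `ℂ`. -/
def wC : PowerSeries ℂ := (C 3 * s53Ser).map (Int.castRingHom ℂ)

/-- `Δ` over `ℂ`. -/
def dC : PowerSeries ℂ := deltaSer.map (Int.castRingHom ℂ)

theorem coeff_sC_mem (O : Subring ℂ) (n : ℕ) : sC.coeff n ∈ O := coeff_map_int_mem O _ n

theorem coeff_wC_mem (O : Subring ℂ) (n : ℕ) : wC.coeff n ∈ O := coeff_map_int_mem O _ n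

theorem coeff_dC_mem (O : Subring ℂ) (n : ℕ) : dC.coeff n ∈ O := coeff_map_int_mem O _ n

theorem coeff_zero_dC : dC.coeff 0 = 0 := by
  rw [dC, PowerSeries.coeff_map, coeff_zero_deltaSer, map_zero]

theorem coeff_one_dC : dC.coeff 1 = 1 := by
  rw [dC, PowerSeries.coeff_map, coeff_one_deltaSer, map_one]

theorem e4_int_shape : e4Ser = 1 + 240 * s3Ser := by
  rw [e4Ser_eq]
  congr 2

theorem e6_int_shape : e6Ser = 1 - 504 * (s3Ser + 8 * (C 3 * s53Ser)) := by
  rw [e6Ser_eq, s5Ser_eq]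
  have h1 : (C (504 : ℤ) : PowerSeries ℤ) = 504 := map_ofNat _ _
  have h2 : (C (24 : ℤ) : PowerSeries ℤ) = 24 := map_ofNat _ _
  have h3 : (C (3 : ℤ) : PowerSeries ℤ) = 3 := map_ofNat _ _
  rw [h1, h2, h3]
  ring

/-- helper13's shape (a). -/
theorem exists_E4_E6 : ∃ s w : PowerSeries ℤ,
    qExpansion 1 (⇑E₄ : ℍ → ℂ) = (1 + 240 * s).map (Int.castRingHom ℂ) ∧
      qExpansion 1 (⇑E₆ : ℍ → ℂ) = (1 - 504 * (s + 8 * w)).map (Int.castRingHom ℂ) :=
  ⟨s3Ser, C 3 * s53Ser, by rw [← e4_int_shape, qExpansion_E4'],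
    by rw [← e6_int_shape, qExpansion_E6]⟩

theorem qExpansion_E4_shape : qExpansion 1 (⇑E₄ : ℍ → ℂ) = 1 + 240 * sC := by
  rw [qExpansion_E4', e4_int_shape, sC]
  simp only [map_add, map_mul, map_one, map_ofNat]

theorem qExpansion_E6_shape : qExpansion 1 (⇑E₆ : ℍ → ℂ) = 1 - 504 * (sC + 8 * wC) := by
  rw [qExpansion_E6, e6_int_shape, sC, wC]
  simp only [map_add, map_sub, map_mul, map_one, map_ofNat]

theorem qExpansion_discriminant_shape : qExpansion 1 ModularForm.discriminant = dC :=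
  qExpansion_discriminant'

/-- helper13's shape (b). -/
theorem delta_shape :
    1728 * qExpansion 1 ModularForm.discriminant =
      qExpansion 1 (⇑E₄ : ℍ → ℂ) ^ 3 - qExpansion 1 (⇑E₆ : ℍ → ℂ) ^ 2 := by
  rw [← qExpansion_delta_identity]
  ext n
  rw [PowerSeries.coeff_smul, smul_eq_mul]
  have : (1728 : PowerSeries ℂ) = C (1728 : ℂ) := (map_ofNat _ _).symm
  rw [this, PowerSeries.coeff_C_mul]

theorem delta_shape' : 1728 * dC = (1 + 240 * sC) ^ 3 - (1 - 504 * (sC + 8 * wC)) ^ 2 := by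
  rw [← qExpansion_E4_shape, ← qExpansion_E6_shape, ← qExpansion_discriminant_shape, delta_shape]

/-! ### The same at width `p` (expansions in `x = q^(1/p)`) -/

theorem qExpansion_E4_width {p : ℕ} (hp : 0 < p) :
    qExpansion (p : ℝ) (⇑E₄ : ℍ → ℂ) = 1 + 240 * infSer p sC := by
  rw [qExpansion_width_infSer nice_E4 hp, qExpansion_E4_shape, infSer_add hp.ne',
    infSer_mul hp.ne', infSer_one hp.ne', infSer_ofNat hp.ne']

theorem qExpansion_E6_width {p : ℕ} (hp : 0 < p) :
    qExpansion (p : ℝ) (⇑E₆ : ℍ → ℂ) = 1 - 504 * (infSer p sC + 8 * infSer p wC) := by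
  rw [qExpansion_width_infSer nice_E6 hp, qExpansion_E6_shape, infSer_sub hp.ne',
    infSer_mul hp.ne', infSer_add hp.ne', infSer_mul hp.ne', infSer_one hp.ne',
    infSer_ofNat hp.ne', infSer_ofNat hp.ne']

theorem qExpansion_discriminant_width {p : ℕ} (hp : 0 < p) :
    qExpansion (p : ℝ) ModularForm.discriminant = infSer p dC := by
  rw [qExpansion_width_infSer nice_discriminant hp, qExpansion_discriminant_shape]

theorem delta_shape_width {p : ℕ} (hp : 0 < p) :
    1728 * qExpansion (p : ℝ) ModularForm.discriminant =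
      qExpansion (p : ℝ) (⇑E₄ : ℍ → ℂ) ^ 3 - qExpansion (p : ℝ) (⇑E₆ : ℍ → ℂ) ^ 2 := by
  rw [qExpansion_width_infSer nice_discriminant hp, qExpansion_width_infSer nice_E4 hp,
    qExpansion_width_infSer nice_E6 hp, ← infSer_pow hp.ne', ← infSer_pow hp.ne',
    ← infSer_sub hp.ne', ← delta_shape, infSer_mul hp.ne', infSer_ofNat hp.ne']

theorem delta_shape_width' {p : ℕ} (hp : 0 < p) :
    1728 * infSer p dC =
      (1 + 240 * infSer p sC) ^ 3 - (1 - 504 * (infSer p sC + 8 * infSer p wC)) ^ 2 := by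
  rw [← qExpansion_E4_width hp, ← qExpansion_E6_width hp, ← qExpansion_discriminant_width hp,
    delta_shape_width hp]

theorem coeff_infSer_sC_mem (O : Subring ℂ) (p n : ℕ) : (infSer p sC).coeff n ∈ O :=
  coeff_infSer_map_int_mem O p _ n

theorem coeff_infSer_wC_mem (O : Subring ℂ) (p n : ℕ) : (infSer p wC).coeff n ∈ O :=
  coeff_infSer_map_int_mem O p _ n

theorem coeff_infSer_dC_mem (O : Subring ℂ) (p n : ℕ) : (infSer p dC).coeff n ∈ O :=
  coeff_infSer_map_int_mem O p _ n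

/-- `Δ(x^p)` has `x`-order `p` … -/
theorem coeff_infSer_dC_of_lt {p m : ℕ} (hm : m < p) : (infSer p dC).coeff m = 0 := by
  rw [coeff_infSer]
  split_ifs with h
  · obtain ⟨c, rfl⟩ := h
    rcases Nat.eq_zero_or_pos c with rfl | hc
    · simp [coeff_zero_dC]
    · exfalso
      have : p * 1 ≤ p * c := Nat.mul_le_mul_left p hc
      omega
  · rfl

/-- … with leading coefficient `1`. -/
theorem coeff_infSer_dC_self {p : ℕ} (hp : 0 < p) : (infSer p dC).coeff p = 1 := by
  rw [coeff_infSer, if_pos (dvd_refl p), Nat.div_self hp, coeff_one_dC]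

end Fermat.Agent.S16_helper28_TE2
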