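import Fermat.Agent.S16_helper2_STURM
import Fermat.Agent.S28_helper27_ESYMM
import Fermat.Agent.S28_helper13_EINT_Core
import Fermat.Agent.S28_helper17_NINT
import Fermat.Agent.S16_helper6_WTRICK
import Fermat.Agent.S16_helper24_CONJDefs

/-!
# S16, tools (Tc)+(Td): the generic NORM-STURM lemma

`norm_sturm_core`: let `F` be a modular form of weight `k < 12` on `Γ₀(p)`, `O ⊆ ℂ` a subring and
`r ∈ O`.  If the `q`-expansion of `F` at infinity is `≡ c q + ... mod r O` and the expansions (in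
`q^(1/p)`) of the `p` conjugates `F ∣ S T^j` are `≡ c' q + ... mod r O` (all with coefficients in
`O`), then `(c c'^p)^12 ∈ r O`.
-/

set_option autoImplicit false

open UpperHalfPlane ModularForm CongruenceSubgroup Matrix.SpecialLinearGroup
open scoped MatrixGroups ModularForm Manifold Real
open Fermat.Agent.S20 Fermat.Agent.S28_helper14_Defs Fermat.Agent.S28_helper14_ADefs ModularCurve
open Fermat.Agent.S28_LEVEL1 Fermat.Agent.S16_helper2_STURM Fermat.Agent.S28_NINT

namespace Fermat.Agent.S16_helper2_NS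


/-- `P ≡ c X^n + (higher order terms)  mod r O`, with coefficients in `O`. -/
structure LowAt (O : Subring ℂ) (r : ℂ) (P : PowerSeries ℂ) (n : ℕ) (c : ℂ) : Prop where
  mem : P ∈ coeffSubring O
  low : ∀ m, m < n → RD O r (P.coeff m)
  lead : RD O r (P.coeff n - c)

theorem LowAt.one (O : Subring ℂ) (r : ℂ) : LowAt O r (1 : PowerSeries ℂ) 0 1 where
  mem := (coeffSubring O).one_mem
  low := fun m hm => absurd hm (Nat.not_lt_zero m)
  lead := by simpa using RD_zero O r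

theorem LowAt.mul {O : Subring ℂ} {r : ℂ} {P Q : PowerSeries ℂ} {a b : ℕ} {c d : ℂ}
    (hd : d ∈ O) (hP : LowAt O r P a c) (hQ : LowAt O r Q b d) :
    LowAt O r (P * Q) (a + b) (c * d) where
  mem := (coeffSubring O).mul_mem hP.mem hQ.mem
  low := by
    intro m hm
    rw [PowerSeries.coeff_mul]
    refine RD_sum _ _ fun x hx => ?_
    have hx' := Finset.HasAntidiagonal.mem_antidiagonal.mp hx
    by_cases h1 : x.1 < a
    · exact RD_mul_right (hP.low _ h1) (hQ.mem _)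
    · exact RD_mul_left (hP.mem _) (hQ.low _ (by omega))
  lead := by
    classical
    rw [PowerSeries.coeff_mul]
    have hmem : (a, b) ∈ Finset.HasAntidiagonal.antidiagonal (a + b) :=
      Finset.HasAntidiagonal.mem_antidiagonal.mpr rfl
    rw [← Finset.add_sum_erase _ _ hmem]
    have h1 : RD O r (P.coeff a * Q.coeff b - c * d) := by
      have : P.coeff a * Q.coeff b - c * d =
          P.coeff a * (Q.coeff b - d) + (P.coeff a - c) * d := by ring
      rw [this]
      exact RD_add (RD_mul_left (hP.mem _) hQ.lead) (RD_mul_right hP.lead hd)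
    have h2 : RD O r (∑ x ∈ (Finset.HasAntidiagonal.antidiagonal (a + b)).erase (a, b),
        P.coeff x.1 * Q.coeff x.2) := by
      refine RD_sum _ _ fun x hx => ?_
      have hx1 := Finset.mem_erase.mp hx
      have hx' := Finset.HasAntidiagonal.mem_antidiagonal.mp hx1.2
      by_cases h1 : x.1 < a
      · exact RD_mul_right (hP.low _ h1) (hQ.mem _)
      · refine RD_mul_left (hP.mem _) (hQ.low _ ?_)
        by_contra h2
        apply hx1.1
        ext
        · show x.1 = a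
          omega
        · show x.2 = b
          omega
    have : P.coeff a * Q.coeff b + ∑ x ∈ (Finset.HasAntidiagonal.antidiagonal (a + b)).erase (a, b),
        P.coeff x.1 * Q.coeff x.2 - c * d = (P.coeff a * Q.coeff b - c * d) +
        ∑ x ∈ (Finset.HasAntidiagonal.antidiagonal (a + b)).erase (a, b),
        P.coeff x.1 * Q.coeff x.2 := by ring
    rw [this]
    exact RD_add h1 h2

theorem LowAt.pow {O : Subring ℂ} {r : ℂ} {P : PowerSeries ℂ} {a : ℕ} {c : ℂ}
    (hc : c ∈ O) (hP : LowAt O r P a c) (n : ℕ) : LowAt O r (P ^ n) (n * a) (c ^ n) := by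
  induction n with
  | zero => simpa using LowAt.one O r
  | succ n ih =>
    rw [pow_succ, pow_succ, Nat.succ_mul]
    exact LowAt.mul hc ih hP

theorem LowAt.prod {O : Subring ℂ} {r : ℂ} {ι : Type*} (s : Finset ι)
    (P : ι → PowerSeries ℂ) (a : ι → ℕ) (c : ι → ℂ) (hc : ∀ i ∈ s, c i ∈ O)
    (hP : ∀ i ∈ s, LowAt O r (P i) (a i) (c i)) :
    LowAt O r (∏ i ∈ s, P i) (∑ i ∈ s, a i) (∏ i ∈ s, c i) := by
  classical
  induction s using Finset.induction_on with
  | empty => simpa using LowAt.one O r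
  | insert x s hx ih =>
    rw [Finset.prod_insert hx, Finset.sum_insert hx, Finset.prod_insert hx]
    refine LowAt.mul ?_ (hP x (Finset.mem_insert_self x s))
      (ih (fun i hi => hc i (Finset.mem_insert_of_mem hi))
        (fun i hi => hP i (Finset.mem_insert_of_mem hi)))
    exact O.prod_mem fun i hi => hc i (Finset.mem_insert_of_mem hi)



theorem NS_conj_T_pow_mem (N : ℕ) (δ : SL(2, ℤ)) :
    δ * ModularGroup.T ^ (N : ℤ) * δ⁻¹ ∈ Gamma0 N := by
  have h1 : ModularGroup.T ^ (N : ℤ) ∈ Gamma N := by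
    have := ModularGroup_T_pow_mem_Gamma (N : ℤ) (N : ℤ) dvd_rfl
    simpa using this
  have h2 : δ * ModularGroup.T ^ (N : ℤ) * δ⁻¹ ∈ Gamma N :=
    (Gamma_normal N).conj_mem _ h1 δ
  have h3 : Gamma N ≤ Gamma1 N := by
    intro γ hγ
    rw [Gamma_mem] at hγ
    rw [Gamma1_mem]
    exact ⟨hγ.1, hγ.2.2.2, hγ.2.2.1⟩
  exact Gamma1_in_Gamma0 N (h3 h2)

/-- slashing by `T ^ n` is translation -/
theorem NS_slash_T_zpow (k : ℤ) (f : ℍ → ℂ) (n : ℤ) (z : ℍ) :
    (f ∣[k] (ModularGroup.T ^ n)) z = f ((n : ℝ) +ᵥ z) := by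
  rw [ModularForm.SL_slash_apply, UpperHalfPlane.modular_T_zpow_smul]
  have : denom (((ModularGroup.T ^ n : SL(2, ℤ)) : GL (Fin 2) ℝ)) z = 1 := by
    rw [ModularGroup.denom_apply]
    simp [ModularGroup.coe_T_zpow, -map_zpow]
  rw [this]
  simp

/-- every conjugate of a form on `Γ₀(N)` is `N`-periodic, holomorphic and bounded -/
theorem nice_slash {N : ℕ} [NeZero N] {k : ℤ} {F : ℍ → ℂ} (hF : IsMF N k F) (γ : SL(2, ℤ)) :
    Nice (N : ℝ) (F ∣[k] γ) where
  per := by
    intro w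
    by_cases hw : 0 < w.im
    · have hw' : 0 < (w + ((N : ℝ) : ℂ)).im := by simpa using hw
      simp only [Function.comp_apply, ofComplex_apply_of_im_pos hw',
        ofComplex_apply_of_im_pos hw]
      have h1 : (⟨w + ((N : ℝ) : ℂ), hw'⟩ : ℍ) = (((N : ℤ) : ℝ)) +ᵥ (⟨w, hw⟩ : ℍ) := by
        ext
        simp [add_comm]
      have h2 : (F ∣[k] γ) ∣[k] (ModularGroup.T ^ (N : ℤ)) = F ∣[k] γ := by
        rw [← SlashAction.slash_mul]
        have : γ * ModularGroup.T ^ (N : ℤ) = (γ * ModularGroup.T ^ (N : ℤ) * γ⁻¹) * γ := by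
          group
        rw [this, SlashAction.slash_mul, hF.slash_eq (NS_conj_T_pow_mem N γ)]
      rw [h1, ← NS_slash_T_zpow k (F ∣[k] γ) (N : ℤ), h2]
    · have hw0 : w.im ≤ 0 := not_lt.mp hw
      have hw' : (w + ((N : ℝ) : ℂ)).im ≤ 0 := by simpa using hw0
      simp only [Function.comp_apply]
      rw [ofComplex_apply_of_im_nonpos hw', ofComplex_apply_of_im_nonpos hw0]
  holo := by
    rw [ModularForm.SL_slash]
    exact hF.holo.slash k _
  bdd := hF.bdd γ


/-- the expansion at period `p` of a `1`-periodic function -/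
theorem LowAt.expand {O : Subring ℂ} {r : ℂ} {p : ℕ} (hp : 0 < p) {f : ℍ → ℂ} (hf : Nice 1 f)
    {n : ℕ} {c : ℂ} (h : LowAt O r (qExpansion 1 f) n c) :
    LowAt O r (qExpansion (p : ℝ) f) (p * n) c := by
  have key : ∀ m, (qExpansion (p : ℝ) f).coeff m =
      if p ∣ m then (qExpansion 1 f).coeff (m / p) else 0 := by
    intro m
    have := UpperHalfPlane.qExpansion_coeff_nat_mul one_pos hf.per hf.holo hf.bdd hp m
    rwa [mul_one] at this
  refine ⟨fun m => ?_, fun m hm => ?_, ?_⟩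
  · rw [key]
    split_ifs
    · exact h.mem _
    · exact O.zero_mem
  · rw [key]
    split_ifs with hd
    · refine h.low _ ?_
      obtain ⟨t, rfl⟩ := hd
      rw [Nat.mul_div_cancel_left _ hp]
      exact lt_of_mul_lt_mul_left hm (Nat.zero_le p)
    · exact RD_zero O r
  · rw [key, if_pos (dvd_mul_right p n), Nat.mul_div_cancel_left _ hp]
    exact h.lead

/-- the expansion at period `1` from the expansion at period `p` -/
theorem LowAt.contract {O : Subring ℂ} {r : ℂ} {p : ℕ} [NeZero p] {f : ℍ → ℂ} (hf : Nice 1 f)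
    {n : ℕ} {c : ℂ} (h : LowAt O r (qExpansion (p : ℝ) f) (p * n) c) :
    LowAt O r (qExpansion 1 f) n c := by
  have hp : 0 < p := Nat.pos_of_ne_zero (NeZero.ne p)
  have key : ∀ m, (qExpansion 1 f).coeff m = (qExpansion (p : ℝ) f).coeff (p * m) :=
    fun m => Fermat.Agent.S28_EINT.qExpansion_one_coeff (N := p) hf m
  refine ⟨fun m => ?_, fun m hm => ?_, ?_⟩
  · rw [key]
    exact h.mem _
  · rw [key]
    exact h.low _ (Nat.mul_lt_mul_of_pos_left hm hp)
  · rw [key]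
    exact h.lead

theorem norm_sturm_core (O : Subring ℂ) (r : ℂ) (p : ℕ) [NeZero p] (k : ℕ) (hk : k < 12)
    {F : ℍ → ℂ} (hF : IsMF p k F)
    (hcard : Fintype.card (Q p) = p + 1)
    (hprod : ∏ q : Q p, cj p k F q =
      F * ∏ j ∈ Finset.range p, F ∣[(k : ℤ)] (ModularGroup.S * ModularGroup.T ^ (j : ℤ)))
    (c c' : ℂ) (hc : c ∈ O) (hc' : c' ∈ O)
    (hA : LowAt O r (qExpansion 1 F) 1 c)
    (hB : ∀ j, j < p → LowAt O r
      (qExpansion (p : ℝ) (F ∣[(k : ℤ)] (ModularGroup.S * ModularGroup.T ^ (j : ℤ)))) p c') :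
    RD O r ((c * c' ^ p) ^ 12) := by
  have hp : 0 < p := Nat.pos_of_ne_zero (NeZero.ne p)
  have hp' : (0 : ℝ) < (p : ℝ) := by exact_mod_cast hp
  set Nf : ℍ → ℂ := ∏ q : Q p, cj p k F q with hNf
  -- `Nf` is a level one form
  have hN1 : IsMF1 (((p + 1 : ℕ) : ℤ) * (k : ℤ)) Nf := by
    have h1 := Fermat.Agent.S28_ESYMM.isMF1_Esym hF (Fintype.card (Q p))
    rw [Fermat.Agent.S28_ESYMM.Esym_card, hcard] at h1
    exact h1
  have hN12 : IsMF1 (12 * (((p + 1) * k : ℕ) : ℤ)) (Nf ^ 12) := by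
    have h1 := hN1.pow 12
    refine h1.cast ?_
    push_cast
    ring
  have hNnice : Nice 1 Nf := Fermat.Agent.S28_EINT.nice_of_isMF1 hN1
  have hFnice1 : Nice 1 F := by
    have hb := hF.bdd 1
    rw [SlashAction.slash_one] at hb
    obtain ⟨F', rfl⟩ := hF
    exact ⟨SlashInvariantFormClass.periodic_comp_ofComplex F'
      (CongruenceSubgroup.one_mem_strictPeriods_Gamma0 p), ModularFormClass.holo F', hb⟩
  have hFniceP : Nice (p : ℝ) F := by
    have := nice_slash hF 1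
    rwa [SlashAction.slash_one] at this
  -- expansion of `Nf` at period `p`
  have hcj : ∀ j ∈ Finset.range p,
      Nice (p : ℝ) (F ∣[(k : ℤ)] (ModularGroup.S * ModularGroup.T ^ (j : ℤ))) :=
    fun j _ => nice_slash hF _
  have hqN : qExpansion (p : ℝ) Nf = qExpansion (p : ℝ) F *
      ∏ j ∈ Finset.range p,
        qExpansion (p : ℝ) (F ∣[(k : ℤ)] (ModularGroup.S * ModularGroup.T ^ (j : ℤ))) := by
    rw [hprod, qExpansion_mul (Fermat.Agent.S28_EINT.nice_analytic hp' hFniceP)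
      (Fermat.Agent.S28_EINT.nice_analytic hp'
        (Fermat.Agent.S28_EINT.nice_prod _ _ hcj)),
      Fermat.Agent.S28_EINT.qExpansion_nice_prod hp' _ _ hcj]
  have hLP : LowAt O r (qExpansion (p : ℝ) Nf) (p * (p + 1)) (c * c' ^ p) := by
    rw [hqN]
    have h1 : LowAt O r (qExpansion (p : ℝ) F) (p * 1) c := LowAt.expand hp hFnice1 hA
    have h2 := LowAt.prod (O := O) (r := r) (Finset.range p)
      (fun j => qExpansion (p : ℝ) (F ∣[(k : ℤ)] (ModularGroup.S * ModularGroup.T ^ (j : ℤ))))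
      (fun _ => p) (fun _ => c') (fun _ _ => hc') (fun j hj => hB j (Finset.mem_range.mp hj))
    rw [Finset.sum_const, Finset.prod_const, Finset.card_range, smul_eq_mul] at h2
    have h3 := LowAt.mul (O.pow_mem hc' p) h1 h2
    have e : p * 1 + p * p = p * (p + 1) := by ring
    rwa [e] at h3
  have hL1 : LowAt O r (qExpansion 1 Nf) (p + 1) (c * c' ^ p) := LowAt.contract hNnice hLP
  have hcc : c * c' ^ p ∈ O := O.mul_mem hc (O.pow_mem hc' p)
  have hL12 : LowAt O r (qExpansion 1 (Nf ^ 12)) (12 * (p + 1)) ((c * c' ^ p) ^ 12) := by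
    have h12 := Fermat.Agent.S28_EINT.qExpansion_nice_prod one_pos (Finset.range 12)
      (fun _ => Nf) (fun _ _ => hNnice)
    rw [Finset.prod_const, Finset.prod_const, Finset.card_range] at h12
    rw [h12]
    exact LowAt.pow hcc hL1 12
  have hall := sturm_mod O r ((p + 1) * k) (Nf ^ 12) hN12 hL12.mem
    (fun n hn => hL12.low n (by
      have : (p + 1) * k < 12 * (p + 1) := by nlinarith
      omega)) (12 * (p + 1))
  have := RD_sub hall hL12.lead
  rwa [sub_sub_cancel] at this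



/-- A prime `r ≠ p` is not a unit in `nIntSubring p`, and more precisely an integer prime to `r`
is not divisible by `r` there. -/
theorem not_RD_intCast {p r : ℕ} (hp : p.Prime) (hr : r.Prime) (hpr : p ≠ r) {c : ℤ}
    (hc : ¬ (r : ℤ) ∣ c) : ¬ RD (nIntSubring p) (r : ℂ) (c : ℂ) := by
  rintro ⟨y, ⟨e, he⟩, hy⟩
  have hr0 : (r : ℂ) ≠ 0 := by exact_mod_cast hr.ne_zero
  have hw : (p : ℂ) ^ e * y = algebraMap ℚ ℂ (((p : ℚ) ^ e * (c : ℚ)) / (r : ℚ)) := by
    have : y = (c : ℂ) / (r : ℂ) := by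
      rw [hy]
      field_simp
    rw [this, map_div₀, map_mul, map_pow, map_natCast, map_natCast, map_intCast]
    ring
  rw [hw] at he
  rw [isIntegral_algebraMap_iff (algebraMap ℚ ℂ).injective] at he
  obtain ⟨m, hm⟩ := (IsIntegrallyClosed.isIntegral_iff (R := ℤ) (K := ℚ)).mp he
  have hr0' : (r : ℚ) ≠ 0 := by exact_mod_cast hr.ne_zero
  have h1 : ((r : ℤ) * m : ℤ) = (p : ℤ) ^ e * c := by
    have h2 : ((m : ℤ) : ℚ) = ((p : ℚ) ^ e * (c : ℚ)) / (r : ℚ) := hm
    have h3 : (r : ℚ) * (m : ℚ) = (p : ℚ) ^ e * (c : ℚ) := by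
      rw [h2]
      field_simp
    exact_mod_cast h3
  have h4 : (r : ℤ) ∣ (p : ℤ) ^ e * c := ⟨m, h1.symm⟩
  have hrp : Prime (r : ℤ) := Nat.prime_iff_prime_int.mp hr
  rcases hrp.dvd_or_dvd h4 with h5 | h5
  · have h6 := hrp.dvd_of_dvd_pow h5
    have h7 : r ∣ p := by exact_mod_cast h6
    exact hpr ((Nat.prime_dvd_prime_iff_eq hr hp).mp h7).symm
  · exact hc h5

theorem natCast_mem_nIntSubring (p n : ℕ) : (n : ℂ) ∈ nIntSubring p := isNInt_natCast n

theorem intCast_mem_nIntSubring (p : ℕ) (n : ℤ) : (n : ℂ) ∈ nIntSubring p := isNInt_intCast n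


/-- the index of `Γ₀(p)` -/
theorem card_Q_prime (p : ℕ) [Fact p.Prime] [NeZero p] : Fintype.card (Q p) = p + 1 := by
  have := Fintype.card_of_bijective (Fermat.Agent.S16_helper6_WTRICK.rep_bijective p)
  rw [← this, Fintype.card_option, Fintype.card_fin]

/-- **NORM-STURM**, general coefficient ring.  `F` of weight `k < 12` on `Γ₀(p)`, expansion at
infinity `≡ c q + ...`, expansions of the conjugates `F ∣ S T^j` (in `x = q^(1/p)`)
`≡ c' x^p + ...` modulo `r O`: then `(c c'^p)^12 ∈ r O`. -/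
theorem norm_sturm_RD (O : Subring ℂ) (r : ℂ) (p : ℕ) [Fact p.Prime] [NeZero p] (k : ℕ)
    (hk : k < 12) {F : ℍ → ℂ} (hF : IsMF p k F) (c c' : ℂ) (hc : c ∈ O) (hc' : c' ∈ O)
    (hA : LowAt O r (qExpansion 1 F) 1 c)
    (hB : ∀ j, j < p → LowAt O r
      (qExpansion (p : ℝ) (F ∣[(k : ℤ)] (ModularGroup.S * ModularGroup.T ^ (j : ℤ)))) p c') :
    RD O r ((c * c' ^ p) ^ 12) :=
  norm_sturm_core O r p k hk hF (card_Q_prime p)
    (Fermat.Agent.S16_helper6_WTRICK.prod_cj_eq (k : ℤ) hF) c c' hc hc' hA hB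

/-- **NORM-STURM** over `O = nIntSubring p` (algebraic numbers integral over `ℤ[1/p]`), for a
prime `r ≠ p` and integers `c, c'` prime to `r`: contradiction. -/
theorem norm_sturm (p r : ℕ) [Fact p.Prime] [NeZero p] (hr : r.Prime) (hpr : p ≠ r) (k : ℕ)
    (hk : k < 12) {F : ℍ → ℂ} (hF : IsMF p k F) (c c' : ℤ) (hc : ¬ (r : ℤ) ∣ c)
    (hc' : ¬ (r : ℤ) ∣ c')
    (hA : LowAt (nIntSubring p) (r : ℂ) (qExpansion 1 F) 1 (c : ℂ))
    (hB : ∀ j, j < p → LowAt (nIntSubring p) (r : ℂ)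
      (qExpansion (p : ℝ) (F ∣[(k : ℤ)] (ModularGroup.S * ModularGroup.T ^ (j : ℤ)))) p
      (c' : ℂ)) : False := by
  have h := norm_sturm_RD (nIntSubring p) (r : ℂ) p k hk hF (c : ℂ) (c' : ℂ)
    (intCast_mem_nIntSubring p c) (intCast_mem_nIntSubring p c') hA hB
  have hrp : Prime (r : ℤ) := Nat.prime_iff_prime_int.mp hr
  have hcc : ¬ (r : ℤ) ∣ (c * c' ^ p) ^ 12 := by
    intro hd
    rcases hrp.dvd_or_dvd (hrp.dvd_of_dvd_pow hd) with h1 | h1
    · exact hc h1
    · exact hc' (hrp.dvd_of_dvd_pow h1)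
  refine not_RD_intCast (Fact.out : p.Prime) hr hpr hcc ?_
  have e : (((c * c' ^ p) ^ 12 : ℤ) : ℂ) = ((c : ℂ) * (c' : ℂ) ^ p) ^ 12 := by push_cast; ring
  rw [e]
  exact h

/-- **NORM-STURM** in terms of `HasConj`. -/
theorem norm_sturm_hasConj (p r : ℕ) [Fact p.Prime] [NeZero p] (hr : r.Prime) (hpr : p ≠ r)
    (k : ℕ) (hk : k < 12) {F : ℍ → ℂ} {s : PowerSeries ℂ} {t : ℕ → PowerSeries ℂ}
    (h : Fermat.Agent.S16_helper24_CONJ.HasConj p (k : ℤ) F s t) (c c' : ℤ)
    (hc : ¬ (r : ℤ) ∣ c) (hc' : ¬ (r : ℤ) ∣ c')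
    (hA : LowAt (nIntSubring p) (r : ℂ) s 1 (c : ℂ))
    (hB : ∀ j, j < p → LowAt (nIntSubring p) (r : ℂ) (t j) p (c' : ℂ)) : False := by
  refine norm_sturm p r hr hpr k hk h.isMF c c' hc hc' ?_ ?_
  · rw [h.inf]
    exact hA
  · intro j hj
    rw [h.conj j]
    exact hB j hj

/-- unbundled form of the hypotheses -/
theorem LowAt.of_forall {O : Subring ℂ} {r : ℂ} {P : PowerSeries ℂ} {n : ℕ} {c : ℂ}
    (h1 : ∀ m, P.coeff m ∈ O) (h2 : ∀ m, m < n → ∃ y ∈ O, P.coeff m = r * y)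
    (h3 : ∃ y ∈ O, P.coeff n - c = r * y) : LowAt O r P n c :=
  ⟨h1, h2, h3⟩

end Fermat.Agent.S16_helper2_NS
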