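import Fermat.Agent.S16_helper13_NC2B_Alg
import Fermat.Agent.S16_helper2_NS
import Fermat.Agent.S16_helper28_TE2
import Fermat.Agent.S16_helper18_NC2A
import Fermat.Agent.S16_helper14_CONJ
import Fermat.Agent.S16_helper24_CONJB

/-!
# S16, upper bound, piece NC-2b

For a prime `p ≡ 3 mod 4` there is no `G ∈ M₂(Γ₀(p))` with integer `q`-expansion, odd constant
term `u` and all higher coefficients divisible by `8`.

* `p ≡ 3 mod 8`: the weight-4 trace identities (`S16_helper16_TB.trace_data`) and the power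
  series algebra of `S16_helper18_TRALG`.
* `p ≡ 7 mod 8`: the weight-8 form `B8 = (G B6 - 3 B4²)/4`, `B4 = (G² - u² E₄)/8`,
  `B6 = (u³ E₆ - G³ + 12 G B4)/8`, is congruent to `Δ` modulo `2` at infinity and at all
  conjugates (`S16_helper13_NC2B_Alg.beta8_congr`), which contradicts the norm bound
  `S16_helper2_NS.norm_sturm_hasConj`.
-/

set_option autoImplicit false

open UpperHalfPlane ModularForm CongruenceSubgroup Matrix.SpecialLinearGroup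
open scoped MatrixGroups ModularForm Manifold Real
open Fermat.Agent.S20 Fermat.Agent.S28_helper14_ADefs Fermat.Agent.S28_helper14_Defs
open Fermat.Agent.S28_NINT
open Fermat.Agent.S16_helper24_CONJ
open PowerSeries

noncomputable section

namespace Fermat.Agent.S16_helper13_NC2B

/-! ### The weight 4, 6, 8 combinations, as functions and as power series -/

/-- `(φ² - u² E₄)/8` -/
def B4 (u : ℤ) (g : ℍ → ℂ) : ℍ → ℂ :=
  (8⁻¹ : ℂ) • (g ^ 2 - ((u : ℂ) ^ 2) • (⇑E₄ : ℍ → ℂ))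

/-- `(u³ E₆ - φ³ + 12 φ B₄)/8` -/
def B6 (u : ℤ) (g : ℍ → ℂ) : ℍ → ℂ :=
  (8⁻¹ : ℂ) • (((u : ℂ) ^ 3) • (⇑E₆ : ℍ → ℂ) - g ^ 3 + (12 : ℂ) • (g * B4 u g))

/-- `(φ B₆ - 3 B₄²)/4` -/
def B8 (u : ℤ) (g : ℍ → ℂ) : ℍ → ℂ :=
  (4⁻¹ : ℂ) • (g * B6 u g - (3 : ℂ) • (B4 u g) ^ 2)

/-- series analogue of `B4` -/
def S4 (u : ℤ) (A e4 : PowerSeries ℂ) : PowerSeries ℂ :=
  (8⁻¹ : ℂ) • (A ^ 2 - ((u : ℂ) ^ 2) • e4)

/-- series analogue of `B6` -/
def S6 (u : ℤ) (A e4 e6 : PowerSeries ℂ) : PowerSeries ℂ :=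
  (8⁻¹ : ℂ) • (((u : ℂ) ^ 3) • e6 - A ^ 3 + (12 : ℂ) • (A * S4 u A e4))

/-- series analogue of `B8` -/
def S8 (u : ℤ) (A e4 e6 : PowerSeries ℂ) : PowerSeries ℂ :=
  (4⁻¹ : ℂ) • (A * S6 u A e4 e6 - (3 : ℂ) • (S4 u A e4) ^ 2)

theorem intCast_eq_C (u : ℤ) : (u : PowerSeries ℂ) = C (u : ℂ) :=
  (map_intCast (C : ℂ →+* PowerSeries ℂ) u).symm

theorem ofNat_eq_C (n : ℕ) [n.AtLeastTwo] :
    (OfNat.ofNat n : PowerSeries ℂ) = C (OfNat.ofNat n : ℂ) :=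
  (map_ofNat (C : ℂ →+* PowerSeries ℂ) n).symm

theorem S4_eq (u : ℤ) (A e4 : PowerSeries ℂ) :
    8 * S4 u A e4 = A ^ 2 - (u : PowerSeries ℂ) ^ 2 * e4 := by
  rw [S4, intCast_eq_C, ofNat_eq_C, smul_eq_C_mul, smul_eq_C_mul, ← mul_assoc, ← map_mul,
    ← map_pow]
  norm_num

theorem S6_eq (u : ℤ) (A e4 e6 : PowerSeries ℂ) :
    8 * S6 u A e4 e6 = (u : PowerSeries ℂ) ^ 3 * e6 - A ^ 3 + 12 * A * S4 u A e4 := by
  rw [S6, intCast_eq_C, ofNat_eq_C, ofNat_eq_C, smul_eq_C_mul, smul_eq_C_mul, smul_eq_C_mul,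
    ← mul_assoc, ← map_mul, ← map_pow, mul_assoc]
  norm_num

theorem S8_eq (u : ℤ) (A e4 e6 : PowerSeries ℂ) :
    4 * S8 u A e4 e6 = A * S6 u A e4 e6 - 3 * S4 u A e4 ^ 2 := by
  rw [S8, ofNat_eq_C, ofNat_eq_C, smul_eq_C_mul, smul_eq_C_mul, ← mul_assoc, ← map_mul]
  norm_num


/-! ### All conjugate expansions of `B8` -/

theorem hasConj_B4 {p : ℕ} [Fact p.Prime] (u : ℤ) {g : ℍ → ℂ} (hg : IsMF p 2 g) :
    HasConj p 4 (B4 u g) (S4 u (qExpansion 1 g) (qExpansion 1 (⇑E₄ : ℍ → ℂ)))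
      (fun j => S4 u (conjSer p (qExpansion 1 g) j) (infSer p (qExpansion 1 (⇑E₄ : ℍ → ℂ)))) := by
  have hG := S16_helper14_CONJ.hasConj_two hg
  have hE4 : HasConj p 4 (⇑E₄ : ℍ → ℂ) _ _ := HasConj.of_isMF1 isMF1_E₄
  exact (((hG.pow 2).cast (by norm_num)).sub (hE4.smul ((u : ℂ) ^ 2))).smul 8⁻¹

theorem hasConj_B6 {p : ℕ} [Fact p.Prime] (u : ℤ) {g : ℍ → ℂ} (hg : IsMF p 2 g) :
    HasConj p 6 (B6 u g)
      (S6 u (qExpansion 1 g) (qExpansion 1 (⇑E₄ : ℍ → ℂ)) (qExpansion 1 (⇑E₆ : ℍ → ℂ)))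
      (fun j => S6 u (conjSer p (qExpansion 1 g) j) (infSer p (qExpansion 1 (⇑E₄ : ℍ → ℂ)))
        (infSer p (qExpansion 1 (⇑E₆ : ℍ → ℂ)))) := by
  have hG := S16_helper14_CONJ.hasConj_two hg
  have hE6 : HasConj p 6 (⇑E₆ : ℍ → ℂ) _ _ := HasConj.of_isMF1 isMF1_E₆
  have h4 := hasConj_B4 u hg
  exact ((((hE6.smul ((u : ℂ) ^ 3)).sub ((hG.pow 3).cast (by norm_num))).add
    (((hG.mul h4).cast (by norm_num)).smul 12))).smul 8⁻¹

theorem hasConj_B8 {p : ℕ} [Fact p.Prime] (u : ℤ) {g : ℍ → ℂ} (hg : IsMF p 2 g) :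
    HasConj p 8 (B8 u g)
      (S8 u (qExpansion 1 g) (qExpansion 1 (⇑E₄ : ℍ → ℂ)) (qExpansion 1 (⇑E₆ : ℍ → ℂ)))
      (fun j => S8 u (conjSer p (qExpansion 1 g) j) (infSer p (qExpansion 1 (⇑E₄ : ℍ → ℂ)))
        (infSer p (qExpansion 1 (⇑E₆ : ℍ → ℂ)))) := by
  have hG := S16_helper14_CONJ.hasConj_two hg
  have h4 := hasConj_B4 u hg
  have h6 := hasConj_B6 u hg
  exact (((hG.mul h6).cast (by norm_num)).sub (((h4.pow 2).cast (by norm_num)).smul 3)).smul 4⁻¹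


/-! ### From a congruence modulo `2` to `LowAt` -/

theorem lowAt_of_congr {O : Subring ℂ} {P D : PowerSeries ℂ} {n : ℕ}
    (hP : P ∈ S16_helper13_NC2B_Alg.coeffSubring O)
    (hX : ∃ X ∈ S16_helper13_NC2B_Alg.coeffSubring O, P - D = 2 * X)
    (hlow : ∀ m, m < n → D.coeff m = 0) (hlead : D.coeff n = 1) :
    S16_helper2_NS.LowAt O ((2 : ℕ) : ℂ) P n ((1 : ℤ) : ℂ) := by
  obtain ⟨X, hXm, hX⟩ := hX
  have hc : ∀ m, P.coeff m = D.coeff m + 2 * X.coeff m := by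
    intro m
    have := congrArg (PowerSeries.coeff m) hX
    rw [map_sub, ofNat_eq_C, coeff_C_mul] at this
    linear_combination this
  refine ⟨fun m => S16_helper13_NC2B_Alg.mem_coeffSubring.1 hP m, fun m hm => ?_, ?_⟩
  · exact ⟨X.coeff m, S16_helper13_NC2B_Alg.mem_coeffSubring.1 hXm m, by
      rw [hc, hlow m hm]; push_cast; ring⟩
  · exact ⟨X.coeff n, S16_helper13_NC2B_Alg.mem_coeffSubring.1 hXm n, by
      rw [hc, hlead]; push_cast; ring⟩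

/-! ### The decompositions `A = u + 8 h` -/

/-- the series `h` with `A = u + 8 h` at infinity -/
def hInf (a : ℕ → ℤ) : PowerSeries ℂ :=
  PowerSeries.mk fun n => if n = 0 then 0 else ((a n / 8 : ℤ) : ℂ)

theorem hInf_mem (O : Subring ℂ) (a : ℕ → ℤ) :
    hInf a ∈ S16_helper13_NC2B_Alg.coeffSubring O := by
  refine S16_helper13_NC2B_Alg.mem_coeffSubring.2 fun n => ?_
  rw [hInf, coeff_mk]
  split_ifs
  · exact O.zero_mem
  · exact intCast_mem O _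

theorem eq_add_hInf {A : PowerSeries ℂ} (a : ℕ → ℤ) (ha : ∀ n, A.coeff n = (a n : ℂ))
    (h8 : ∀ n, 1 ≤ n → (8 : ℤ) ∣ a n) :
    A = ((a 0 : ℤ) : PowerSeries ℂ) + 8 * hInf a := by
  ext n
  rw [ha, map_add, intCast_eq_C, ofNat_eq_C, coeff_C_mul, coeff_C, hInf, coeff_mk]
  rcases Nat.eq_zero_or_pos n with rfl | hn
  · simp
  · rw [if_neg hn.ne', if_neg hn.ne']
    obtain ⟨c, hc⟩ := h8 n hn
    rw [hc, Int.mul_ediv_cancel_left _ (by norm_num : (8 : ℤ) ≠ 0)]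
    push_cast
    ring

/-- `-1/p = 1 + 8 τ` for `p ≡ 7 mod 8` -/
def tau (p : ℕ) : ℂ := -(((p + 1) / 8 : ℕ) : ℂ) * (p : ℂ)⁻¹

theorem tau_spec {p : ℕ} (hp0 : p ≠ 0) (hp8 : p % 8 = 7) :
    -((p : ℂ)⁻¹) = 1 + 8 * tau p := by
  have h : 8 * ((p + 1) / 8) = p + 1 := Nat.mul_div_cancel' (by omega)
  have hc : (8 : ℂ) * (((p + 1) / 8 : ℕ) : ℂ) = (p : ℂ) + 1 := by exact_mod_cast h
  have hpc : (p : ℂ) ≠ 0 := Nat.cast_ne_zero.mpr hp0
  rw [tau]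
  field_simp
  linear_combination hc

/-- the series `h` with `A_j = u + 8 h` at the conjugates -/
def hConj (p : ℕ) (a : ℕ → ℤ) (j : ℕ) : PowerSeries ℂ :=
  PowerSeries.mk fun m => if m = 0 then tau p * (a 0 : ℂ)
    else -((p : ℂ)⁻¹) * ((a (p * m) / 8 : ℤ) : ℂ) * zetaP p ^ (j * m)

theorem inv_mem_nInt {p : ℕ} (hp0 : p ≠ 0) : ((p : ℂ)⁻¹) ∈ nIntSubring p :=
  isNInt_inv_of_dvd hp0 (dvd_refl p)

theorem zetaP_mem_nInt (p : ℕ) [NeZero p] : zetaP p ∈ nIntSubring p :=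
  isNInt_of_isIntegral (S16_helper14_CONJ.isIntegral_zetaP p)

theorem hConj_mem (p : ℕ) [NeZero p] (a : ℕ → ℤ) (j : ℕ) :
    hConj p a j ∈ S16_helper13_NC2B_Alg.coeffSubring (nIntSubring p) := by
  have hp0 : p ≠ 0 := NeZero.ne p
  refine S16_helper13_NC2B_Alg.mem_coeffSubring.2 fun n => ?_
  rw [hConj, coeff_mk]
  split_ifs
  · rw [tau]
    exact Subring.mul_mem _ (Subring.mul_mem _ (Subring.neg_mem _ (natCast_mem _ _))
      (inv_mem_nInt hp0)) (intCast_mem _ _)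
  · exact Subring.mul_mem _ (Subring.mul_mem _ (Subring.neg_mem _ (inv_mem_nInt hp0))
      (intCast_mem _ _)) (Subring.pow_mem _ (zetaP_mem_nInt p) _)

theorem conjSer_eq_add_hConj {p : ℕ} (hp0 : p ≠ 0) (hp8 : p % 8 = 7) {A : PowerSeries ℂ}
    (a : ℕ → ℤ) (ha : ∀ n, A.coeff n = (a n : ℂ)) (h8 : ∀ n, 1 ≤ n → (8 : ℤ) ∣ a n) (j : ℕ) :
    conjSer p A j = ((a 0 : ℤ) : PowerSeries ℂ) + 8 * hConj p a j := by
  ext n
  rw [coeff_conjSer, ha, map_add, intCast_eq_C, ofNat_eq_C, coeff_C_mul, coeff_C, hConj, coeff_mk]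
  rcases Nat.eq_zero_or_pos n with rfl | hn
  · rw [if_pos rfl, if_pos rfl, Nat.mul_zero, Nat.mul_zero, pow_zero, mul_one, tau_spec hp0 hp8]
    ring
  · rw [if_neg hn.ne', if_neg hn.ne']
    obtain ⟨c, hc⟩ := h8 (p * n) (Nat.mul_pos (Nat.pos_of_ne_zero hp0) hn)
    rw [hc, Int.mul_ediv_cancel_left _ (by norm_num : (8 : ℤ) ≠ 0)]
    push_cast
    ring


/-! ### The two `LowAt` facts -/

open Fermat.Agent.S16_helper28_TE2 Fermat.Agent.S16_helper28_TE in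
theorem lowAt_inf (O : Subring ℂ) (a : ℕ → ℤ) {A : PowerSeries ℂ}
    (ha : ∀ n, A.coeff n = (a n : ℂ)) (hu : Odd (a 0)) (h8 : ∀ n, 1 ≤ n → (8 : ℤ) ∣ a n) :
    S16_helper2_NS.LowAt O ((2 : ℕ) : ℂ)
      (S8 (a 0) A (qExpansion 1 (⇑E₄ : ℍ → ℂ)) (qExpansion 1 (⇑E₆ : ℍ → ℂ))) 1
      ((1 : ℤ) : ℂ) := by
  have hΔ : 1728 * dC = qExpansion 1 (⇑E₄ : ℍ → ℂ) ^ 3 - qExpansion 1 (⇑E₆ : ℍ → ℂ) ^ 2 := by
    rw [← qExpansion_discriminant_shape]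
    exact delta_shape
  have key := S16_helper13_NC2B_Alg.beta8_congr O hu (hInf_mem O a)
    (S16_helper13_NC2B_Alg.mem_coeffSubring.2 (coeff_sC_mem O))
    (S16_helper13_NC2B_Alg.mem_coeffSubring.2 (coeff_wC_mem O))
    (S16_helper13_NC2B_Alg.mem_coeffSubring.2 (coeff_dC_mem O))
    (eq_add_hInf a ha h8) qExpansion_E4_shape qExpansion_E6_shape hΔ
    (S4_eq _ _ _) (S6_eq _ _ _ _) (S8_eq _ _ _ _)
  refine lowAt_of_congr key.1 key.2 (fun m hm => ?_) coeff_one_dC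
  obtain rfl : m = 0 := by omega
  exact coeff_zero_dC

open Fermat.Agent.S16_helper28_TE2 Fermat.Agent.S16_helper28_TE in
theorem lowAt_conj (p : ℕ) [NeZero p] (hp8 : p % 8 = 7) (a : ℕ → ℤ) {A : PowerSeries ℂ}
    (ha : ∀ n, A.coeff n = (a n : ℂ)) (hu : Odd (a 0)) (h8 : ∀ n, 1 ≤ n → (8 : ℤ) ∣ a n)
    (j : ℕ) :
    S16_helper2_NS.LowAt (nIntSubring p) ((2 : ℕ) : ℂ)
      (S8 (a 0) (conjSer p A j) (infSer p (qExpansion 1 (⇑E₄ : ℍ → ℂ)))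
        (infSer p (qExpansion 1 (⇑E₆ : ℍ → ℂ)))) p ((1 : ℤ) : ℂ) := by
  have hp0 : p ≠ 0 := NeZero.ne p
  have hp : 0 < p := Nat.pos_of_ne_zero hp0
  have hE4 : infSer p (qExpansion 1 (⇑E₄ : ℍ → ℂ)) = 1 + 240 * infSer p sC := by
    rw [← qExpansion_width_infSer nice_E4 hp]
    exact qExpansion_E4_width hp
  have hE6 : infSer p (qExpansion 1 (⇑E₆ : ℍ → ℂ)) =
      1 - 504 * (infSer p sC + 8 * infSer p wC) := by
    rw [← qExpansion_width_infSer nice_E6 hp]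
    exact qExpansion_E6_width hp
  have hΔ : 1728 * infSer p dC = infSer p (qExpansion 1 (⇑E₄ : ℍ → ℂ)) ^ 3 -
      infSer p (qExpansion 1 (⇑E₆ : ℍ → ℂ)) ^ 2 := by
    rw [hE4, hE6]
    exact delta_shape_width' hp
  have key := S16_helper13_NC2B_Alg.beta8_congr (nIntSubring p) hu (hConj_mem p a j)
    (S16_helper13_NC2B_Alg.mem_coeffSubring.2 (coeff_infSer_sC_mem _ p))
    (S16_helper13_NC2B_Alg.mem_coeffSubring.2 (coeff_infSer_wC_mem _ p))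
    (S16_helper13_NC2B_Alg.mem_coeffSubring.2 (coeff_infSer_dC_mem _ p))
    (conjSer_eq_add_hConj hp0 hp8 a ha h8 j) hE4 hE6 hΔ
    (S4_eq _ _ _) (S6_eq _ _ _ _) (S8_eq _ _ _ _)
  exact lowAt_of_congr key.1 key.2 (fun m hm => coeff_infSer_dC_of_lt hm)
    (coeff_infSer_dC_self hp)

/-! ### NC-2b -/

/-- NC-2b, the case `p ≡ 7 mod 8` (norm argument with the weight-8 form `B8`). -/
theorem NC2b7 (p : ℕ) [Fact p.Prime] (hp8 : p % 8 = 7) (G : ModularForm (Gamma0 p) 2)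
    (a : ℕ → ℤ) (ha : ∀ n, (qExpansion 1 G).coeff n = (a n : ℂ)) (h0 : Odd (a 0))
    (h8 : ∀ n, 1 ≤ n → (8 : ℤ) ∣ a n) : False := by
  have : NeZero p := ⟨(Fact.out : p.Prime).ne_zero⟩
  have hp2 : p ≠ 2 := by
    rintro rfl
    omega
  have hg : IsMF p 2 (⇑G : ℍ → ℂ) := ⟨G, rfl⟩
  have hC := (hasConj_B8 (p := p) (a 0) hg).cast (w' := ((8 : ℕ) : ℤ)) (by norm_num)
  exact S16_helper2_NS.norm_sturm_hasConj p 2 Nat.prime_two hp2 8 (by norm_num) hC 1 1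
    (by norm_num) (by norm_num) (lowAt_inf _ a ha h0 h8)
    (fun j _ => lowAt_conj p hp8 a ha h0 h8 j)

/-- **NC-2b**: for a prime `p ≡ 3 mod 4` there is no `G ∈ M₂(Γ₀(p))` with integer
`q`-expansion, odd constant term and all higher coefficients divisible by `8`. -/
theorem NC2b (p : ℕ) [Fact p.Prime] (hp4 : p % 4 = 3) (G : ModularForm (Gamma0 p) 2)
    (a : ℕ → ℤ) (ha : ∀ n, (qExpansion 1 G).coeff n = (a n : ℂ)) (h0 : ¬ (2 : ℤ) ∣ a 0)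
    (h8 : ∀ n, 1 ≤ n → ((2 : ℤ) ^ 3) ∣ a n) : False := by
  have hodd : Odd (a 0) := Int.not_even_iff_odd.mp fun h => h0 (even_iff_two_dvd.mp h)
  have h8' : ∀ n, 1 ≤ n → (8 : ℤ) ∣ a n := fun n hn => by
    have := h8 n hn
    norm_num at this
    exact this
  have h : p % 8 = 3 ∨ p % 8 = 7 := by omega
  rcases h with h | h
  · exact S16_helper18_TRALG.nc2b3_alg (Fact.out : p.Prime) h hodd
      (S16_helper16_TB.trace_data p G a ha)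
      (fun n hn => by rw [PowerSeries.coeff_mk]; exact h8' n hn)
  · exact NC2b7 p h G a ha hodd h8'

/-- the same in the shape consumed by `ub_glue` -/
theorem NC2b_noCong (p : ℕ) [Fact p.Prime] (hp4 : p % 4 = 3) :
    S16_helper4_UBGLUE.NoCong p 2 3 := by
  intro G a ha h0 h8
  refine NC2b p hp4 G a ha (fun h => h0 ?_) (fun n hn => ?_)
  · exact_mod_cast h
  · have := h8 n hn
    norm_num at this
    norm_num
    exact this

end Fermat.Agent.S16_helper13_NC2B
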