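import Mathlib

set_option autoImplicit false

/-!
# S16 piece UB-NORMORD, part B: power series with a unit leading term modulo `r O`

Pure algebra: for a subring `O ⊆ ℂ` and `r ∈ O`, a power series `P` with coefficients in `O`
"leads at `m` with `u`" if its coefficients below `m` are in `r O` and its `m`-th coefficient is
`≡ u` modulo `r O`.  This is multiplicative.
-/

namespace Fermat.Agent.S16_helper23_NORMORD

/-- `x ∈ r O`. -/
def InROf (O : Subring ℂ) (r x : ℂ) : Prop := ∃ c ∈ O, x = r * c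

variable {O : Subring ℂ} {r : ℂ}

theorem InROf.zero (O : Subring ℂ) (r : ℂ) : InROf O r 0 := ⟨0, O.zero_mem, by simp⟩

theorem InROf.self (O : Subring ℂ) (r : ℂ) : InROf O r r := ⟨1, O.one_mem, by simp⟩

theorem InROf.add {x y : ℂ} (hx : InROf O r x) (hy : InROf O r y) : InROf O r (x + y) := by
  obtain ⟨c, hc, rfl⟩ := hx
  obtain ⟨d, hd, rfl⟩ := hy
  exact ⟨c + d, O.add_mem hc hd, by ring⟩

theorem InROf.neg {x : ℂ} (hx : InROf O r x) : InROf O r (-x) := by
  obtain ⟨c, hc, rfl⟩ := hx
  exact ⟨-c, O.neg_mem hc, by ring⟩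

theorem InROf.sub {x y : ℂ} (hx : InROf O r x) (hy : InROf O r y) : InROf O r (x - y) := by
  rw [sub_eq_add_neg]
  exact hx.add hy.neg

theorem InROf.mul_left {x y : ℂ} (hy : y ∈ O) (hx : InROf O r x) : InROf O r (y * x) := by
  obtain ⟨c, hc, rfl⟩ := hx
  exact ⟨y * c, O.mul_mem hy hc, by ring⟩

theorem InROf.mul_right {x y : ℂ} (hx : InROf O r x) (hy : y ∈ O) : InROf O r (x * y) := by
  rw [mul_comm]
  exact hx.mul_left hy

theorem InROf.mem (hr : r ∈ O) {x : ℂ} (hx : InROf O r x) : x ∈ O := by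
  obtain ⟨c, hc, rfl⟩ := hx
  exact O.mul_mem hr hc

theorem InROf.sum {ι : Type*} (s : Finset ι) (f : ι → ℂ) (h : ∀ i ∈ s, InROf O r (f i)) :
    InROf O r (∑ i ∈ s, f i) := by
  classical
  induction s using Finset.induction_on with
  | empty => simpa using InROf.zero O r
  | insert a s ha ih =>
    rw [Finset.sum_insert ha]
    exact (h a (Finset.mem_insert_self a s)).add
      (ih fun i hi => h i (Finset.mem_insert_of_mem hi))

/-- If `x ≡ u` modulo `r O` and `x ∈ r O` then `u ∈ r O`. -/
theorem InROf.of_sub {x u : ℂ} (hx : InROf O r x) (hxu : InROf O r (x - u)) : InROf O r u := by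
  have := hx.sub hxu
  simpa using this

/-- A unit of `O` is not in `r O` when `r` is not a unit of `O`. -/
theorem not_inROf_of_unit (hr' : r⁻¹ ∉ O) {u : ℂ} (hu : u⁻¹ ∈ O) (hu0 : u ≠ 0) :
    ¬ InROf O r u := by
  rintro ⟨c, hc, hcu⟩
  have hr0 : r ≠ 0 := by
    rintro rfl
    exact hu0 (by simpa using hcu)
  apply hr'
  have : r⁻¹ = c * u⁻¹ := by
    rw [hcu]
    have hc0 : c ≠ 0 := by
      rintro rfl
      exact hu0 (by simpa using hcu)
    field_simp
  rw [this]
  exact O.mul_mem hc hu

/-- `P` has coefficients in `O`, its coefficients below `m` are in `r O` and its `m`-th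
coefficient is `≡ u` modulo `r O`. -/
structure LeadsAt (O : Subring ℂ) (r : ℂ) (P : PowerSeries ℂ) (m : ℕ) (u : ℂ) : Prop where
  int : ∀ n, P.coeff n ∈ O
  low : ∀ n, n < m → InROf O r (P.coeff n)
  lead : InROf O r (P.coeff m - u)

theorem LeadsAt.one (O : Subring ℂ) (r : ℂ) : LeadsAt O r 1 0 1 where
  int := fun n => by
    rw [PowerSeries.coeff_one]
    split_ifs
    · exact O.one_mem
    · exact O.zero_mem
  low := fun n hn => absurd hn (Nat.not_lt_zero n)
  lead := by simpa using InROf.zero O r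

theorem LeadsAt.mul {P Q : PowerSeries ℂ} {a b : ℕ} {u v : ℂ} (hu : u ∈ O)
    (hP : LeadsAt O r P a u) (hQ : LeadsAt O r Q b v) :
    LeadsAt O r (P * Q) (a + b) (u * v) where
  int := fun n => by
    rw [PowerSeries.coeff_mul]
    exact Subring.sum_mem _ fun x _ => O.mul_mem (hP.int _) (hQ.int _)
  low := fun n hn => by
    rw [PowerSeries.coeff_mul]
    refine InROf.sum _ _ fun x hx => ?_
    rw [Finset.HasAntidiagonal.mem_antidiagonal] at hx
    by_cases h1 : x.1 < a
    · exact (hP.low _ h1).mul_right (hQ.int _)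
    · have h2 : x.2 < b := by omega
      exact (hQ.low _ h2).mul_left (hP.int _)
  lead := by
    classical
    rw [PowerSeries.coeff_mul]
    have hmem : (a, b) ∈ Finset.HasAntidiagonal.antidiagonal (a + b) := by
      rw [Finset.HasAntidiagonal.mem_antidiagonal]
    rw [← Finset.add_sum_erase _ _ hmem]
    have h1 : InROf O r (P.coeff a * Q.coeff b - u * v) := by
      have e : P.coeff a * Q.coeff b - u * v =
          (P.coeff a - u) * Q.coeff b + u * (Q.coeff b - v) := by ring
      rw [e]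
      exact (hP.lead.mul_right (hQ.int _)).add (hQ.lead.mul_left hu)
    have h2 : InROf O r (∑ x ∈ (Finset.HasAntidiagonal.antidiagonal (a + b)).erase (a, b),
        P.coeff x.1 * Q.coeff x.2) := by
      refine InROf.sum _ _ fun x hx => ?_
      rw [Finset.mem_erase, Finset.HasAntidiagonal.mem_antidiagonal] at hx
      obtain ⟨hne, hx⟩ := hx
      by_cases h1 : x.1 < a
      · exact (hP.low _ h1).mul_right (hQ.int _)
      · have h2 : x.2 < b := by
          by_contra h2
          apply hne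
          ext <;> simp only <;> omega
        exact (hQ.low _ h2).mul_left (hP.int _)
    have e : P.coeff a * Q.coeff b + ∑ x ∈ (Finset.HasAntidiagonal.antidiagonal (a + b)).erase (a, b),
        P.coeff x.1 * Q.coeff x.2 - u * v =
        (P.coeff a * Q.coeff b - u * v) + ∑ x ∈ (Finset.HasAntidiagonal.antidiagonal (a + b)).erase (a, b),
        P.coeff x.1 * Q.coeff x.2 := by ring
    rw [e]
    exact h1.add h2

theorem LeadsAt.prod {ι : Type*} (s : Finset ι) (P : ι → PowerSeries ℂ) (m : ι → ℕ)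
    (u : ι → ℂ) (hu : ∀ i ∈ s, u i ∈ O) (h : ∀ i ∈ s, LeadsAt O r (P i) (m i) (u i)) :
    LeadsAt O r (∏ i ∈ s, P i) (∑ i ∈ s, m i) (∏ i ∈ s, u i) := by
  classical
  induction s using Finset.induction_on with
  | empty => simpa using LeadsAt.one O r
  | insert a s ha ih =>
    rw [Finset.prod_insert ha, Finset.sum_insert ha, Finset.prod_insert ha]
    exact LeadsAt.mul (hu a (Finset.mem_insert_self a s)) (h a (Finset.mem_insert_self a s))
      (ih (fun i hi => hu i (Finset.mem_insert_of_mem hi))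
        fun i hi => h i (Finset.mem_insert_of_mem hi))

theorem LeadsAt.pow {P : PowerSeries ℂ} {m : ℕ} {u : ℂ} (hu : u ∈ O)
    (h : LeadsAt O r P m u) (n : ℕ) : LeadsAt O r (P ^ n) (n * m) (u ^ n) := by
  induction n with
  | zero => simpa using LeadsAt.one O r
  | succ n ih =>
    rw [pow_succ, pow_succ, Nat.succ_mul]
    exact LeadsAt.mul (O.pow_mem hu n) ih h

/-- The leading coefficient of a series leading with a unit is not in `r O`. -/
theorem LeadsAt.not_inROf {P : PowerSeries ℂ} {m : ℕ} {u : ℂ} (h : LeadsAt O r P m u)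
    (hr' : r⁻¹ ∉ O) (hu : u⁻¹ ∈ O) (hu0 : u ≠ 0) : ¬ InROf O r (P.coeff m) :=
  fun hc => not_inROf_of_unit hr' hu hu0 (hc.of_sub h.lead)

/-- Multiplying a series with coefficients in `r O` by one with coefficients in `O`. -/
theorem inROf_coeff_mul {P Q : PowerSeries ℂ} (B : ℕ) (hP : ∀ n, P.coeff n ∈ O)
    (hQ : ∀ n, n ≤ B → InROf O r (Q.coeff n)) : ∀ n, n ≤ B → InROf O r ((P * Q).coeff n) := by
  intro n hn
  rw [PowerSeries.coeff_mul]
  refine InROf.sum _ _ fun x hx => ?_
  rw [Finset.HasAntidiagonal.mem_antidiagonal] at hx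
  exact (hQ _ (by omega)).mul_left (hP _)

theorem inROf_coeff_mul_all {P Q : PowerSeries ℂ} (hP : ∀ n, P.coeff n ∈ O)
    (hQ : ∀ n, InROf O r (Q.coeff n)) : ∀ n, InROf O r ((P * Q).coeff n) :=
  fun n => inROf_coeff_mul n hP (fun m _ => hQ m) n le_rfl

end Fermat.Agent.S16_helper23_NORMORD
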