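import Fermat.Agent.S28_helper1_LEVEL1
import Fermat.Agent.S16_helper23_NORMORD_B

set_option autoImplicit false

open UpperHalfPlane ModularForm CongruenceSubgroup Matrix.SpecialLinearGroup
open scoped MatrixGroups ModularForm Manifold Real
open Fermat.Agent.S20 Fermat.Agent.S28_helper14_ADefs ModularCurve
open Fermat.Agent.S28_LEVEL1

/-!
# S16 piece UB-NORMORD, part C: the level one Sturm bound modulo `r O`, in every weight
-/

namespace Fermat.Agent.S16_helper23_NORMORD

/-- Coefficientwise form of the `q`-expansion of `E₆`. -/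
theorem qExpansion_E6_coeff (m : ℕ) :
    (qExpansion 1 (⇑E₆ : ℍ → ℂ)).coeff m =
      if m = 0 then 1 else -504 * ∑ d ∈ m.divisors, (d : ℂ) ^ 5 := by
  rw [EisensteinSeries.E_qExpansion_coeff (by norm_num : 3 ≤ 6) ⟨3, rfl⟩ m]
  by_cases hm : m = 0
  · simp [hm]
  · simp only [hm, if_false]
    rw [show (bernoulli 6 : ℚ) = 1 / 42 by decide +kernel, ArithmeticFunction.sigma_apply]
    push_cast
    ring

theorem qExpansion_E6_mem (O : Subring ℂ) : qExpansion 1 (⇑E₆ : ℍ → ℂ) ∈ coeffSubring O := by
  intro m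
  rw [qExpansion_E6_coeff]
  split_ifs
  · exact O.one_mem
  · refine O.mul_mem (O.neg_mem (by exact_mod_cast natCast_mem O 504)) ?_
    refine Subring.sum_mem _ fun d _ => O.pow_mem (natCast_mem O d) 5

theorem qExpansion_E4_mem (O : Subring ℂ) : qExpansion 1 (⇑E₄ : ℍ → ℂ) ∈ coeffSubring O := by
  have := qExpansion_E4_pow_mem qE4Hyp O 1
  simpa using this

/-- For even `k ≥ 0`, `k ≠ 2`, there is a level one form of weight `k` with integral
`q`-expansion and constant term `1`. -/
theorem exists_unit_form (k : ℤ) (hk0 : 0 ≤ k) (hk2 : Even k) (hk : k ≠ 2) :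
    ∃ E : ModularForm 𝒮ℒ k, (qExpansion 1 E).coeff 0 = 1 ∧
      ∀ O : Subring ℂ, qExpansion 1 E ∈ coeffSubring O := by
  obtain ⟨a, b, hab⟩ : ∃ a b : ℕ, (a : ℤ) * 4 + (b : ℤ) * 6 = k := by
    obtain ⟨c, hc⟩ := hk2
    rcases Int.even_or_odd c with ⟨d, hd⟩ | ⟨d, hd⟩
    · refine ⟨d.toNat, 0, ?_⟩
      have : 0 ≤ d := by omega
      rw [Int.toNat_of_nonneg this]
      omega
    · refine ⟨(d - 1).toNat, 1, ?_⟩
      have : 0 ≤ d - 1 := by omega
      rw [Int.toNat_of_nonneg this]
      push_cast
      omega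
  let E : ModularForm 𝒮ℒ k := ModularForm.mcast hab ((E₄.pow a).mul (E₆.pow b))
  have hPE : qExpansion 1 E = (qExpansion 1 (⇑E₄ : ℍ → ℂ)) ^ a *
      (qExpansion 1 (⇑E₆ : ℍ → ℂ)) ^ b := by
    show qExpansion 1 (ModularForm.mcast _ ((E₄.pow a).mul (E₆.pow b))) = _
    rw [ModularForm.qExpansion_mcast, ModularForm.qExpansion_mul one_pos one_mem_strictPeriods_SL,
      ModularForm.qExpansion_pow one_pos one_mem_strictPeriods_SL,
      ModularForm.qExpansion_pow one_pos one_mem_strictPeriods_SL]
  refine ⟨E, ?_, fun O => ?_⟩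
  · rw [hPE, PowerSeries.coeff_zero_eq_constantCoeff, map_mul, map_pow, map_pow,
      ← PowerSeries.coeff_zero_eq_constantCoeff,
      qExpansion_E6_coeff, Fermat.Agent.S28_QE4.qExpansion_E4_coeff]
    simp
  · rw [hPE]
    exact (coeffSubring O).mul_mem ((coeffSubring O).pow_mem (qExpansion_E4_mem O) a)
      ((coeffSubring O).pow_mem (qExpansion_E6_mem O) b)

theorem qExpansion_eq_zero_of_eq_zero {k : ℤ} {f : ModularForm 𝒮ℒ k} (hf : f = 0) (j : ℕ) :
    (qExpansion 1 f).coeff j = 0 := by
  rw [hf, FunLike.coe_zero, qExpansion_zero, map_zero]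

theorem sturm_mod_aux (O : Subring ℂ) (r : ℂ) :
    ∀ (n : ℕ) (k : ℤ), k < 12 * (n : ℤ) → ∀ f : ModularForm 𝒮ℒ k,
      qExpansion 1 f ∈ coeffSubring O →
      (∀ j : ℕ, (12 : ℤ) * j ≤ k → InROf O r ((qExpansion 1 f).coeff j)) →
      ∀ j, InROf O r ((qExpansion 1 f).coeff j) := by
  intro n
  induction n with
  | zero =>
    intro k hk f _ _ j
    have hk' : k < 0 := by simpa using hk
    have hf0 : f = 0 := rank_zero_iff_forall_zero.mp (levelOne_neg_weight_rank_zero hk') f
    rw [qExpansion_eq_zero_of_eq_zero hf0]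
    exact InROf.zero O r
  | succ n ih =>
    intro k hk f hf hlow j
    -- trivial cases
    by_cases hkneg : k < 0
    · have hf0 : f = 0 := rank_zero_iff_forall_zero.mp (levelOne_neg_weight_rank_zero hkneg) f
      rw [qExpansion_eq_zero_of_eq_zero hf0]
      exact InROf.zero O r
    have hk0 : 0 ≤ k := not_lt.mp hkneg
    rcases Int.even_or_odd k with hk2 | hkodd
    swap
    · have hf0 : f = 0 := ModularForm.levelOne_odd_weight_eq_zero hkodd f
      rw [qExpansion_eq_zero_of_eq_zero hf0]
      exact InROf.zero O r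
    by_cases hktwo : k = 2
    · subst hktwo
      have hf0 : f = 0 := rank_zero_iff_forall_zero.mp levelOne_weight_two_rank_zero f
      rw [qExpansion_eq_zero_of_eq_zero hf0]
      exact InROf.zero O r
    -- the main case
    obtain ⟨E, hE0, hEO⟩ := exists_unit_form k hk0 hk2 hktwo
    set a₀ : ℂ := (qExpansion 1 f).coeff 0 with ha₀
    have ha₀r : InROf O r a₀ := hlow 0 (by simpa using hk0)
    have hPg : qExpansion 1 (⇑(f - a₀ • E) : ℍ → ℂ) =
        qExpansion 1 f - a₀ • qExpansion 1 E := by
      have h1 := ModularForm.qExpansion_sub one_pos one_mem_strictPeriods_SL f (a₀ • E)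
      have h2 := ModularForm.qExpansion_smul one_pos one_mem_strictPeriods_SL a₀ E
      have h3 : qExpansion 1 (⇑(a₀ • E) : ℍ → ℂ) = a₀ • qExpansion 1 E := h2
      rw [← h3]
      exact h1
    set g : ModularForm 𝒮ℒ k := f - a₀ • E with hg
    have hg0 : (qExpansion 1 g).coeff 0 = 0 := by
      rw [hPg, map_sub, PowerSeries.coeff_smul, hE0, ← ha₀]
      simp
    have hgO : qExpansion 1 g ∈ coeffSubring O := by
      rw [hPg]
      exact (coeffSubring O).sub_mem hf (smul_mem_coeffSubring O (hf 0) (hEO O))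
    have hglow : ∀ j : ℕ, (12 : ℤ) * j ≤ k → InROf O r ((qExpansion 1 g).coeff j) := by
      intro j hj
      rw [hPg, map_sub, PowerSeries.coeff_smul]
      exact (hlow j hj).sub (ha₀r.mul_right (hEO O j))
    set h : ModularForm 𝒮ℒ (k - 12) := CuspForm.discriminantEquiv (toCuspForm g hg0) with hh
    have hgh : qExpansion 1 g = qExpansion 1 discriminant * qExpansion 1 h :=
      ModularForm.qExpansion_eq_qExpansion_discriminant_mul g hg0
    have hΔ' := qDeltaHyp
    unfold QDeltaHyp at hΔ'
    have h1 : PowerSeries.X * qExpansion 1 h =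
        dedekindEtaUnitInv.map (Int.castRingHom ℂ) * qExpansion 1 g := by
      rw [hgh, hΔ', map_mul, PowerSeries.map_X]
      have h2 : dedekindEtaUnit.map (Int.castRingHom ℂ) *
          dedekindEtaUnitInv.map (Int.castRingHom ℂ) = 1 := by
        rw [← map_mul, dedekindEtaUnit_mul_inv, map_one]
      calc PowerSeries.X * qExpansion 1 h
          = (dedekindEtaUnit.map (Int.castRingHom ℂ) *
              dedekindEtaUnitInv.map (Int.castRingHom ℂ)) *
              (PowerSeries.X * qExpansion 1 h) := by rw [h2, one_mul]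
        _ = _ := by ring
    -- coefficients of `h`
    have hhO : qExpansion 1 h ∈ coeffSubring O := by
      apply mem_coeffSubring_of_X_mul
      rw [h1]
      exact (coeffSubring O).mul_mem (map_int_mem_coeffSubring O _) hgO
    have hhlow : ∀ j : ℕ, (12 : ℤ) * j ≤ k - 12 → InROf O r ((qExpansion 1 h).coeff j) := by
      intro j hj
      have h3 : (qExpansion 1 h).coeff j =
          (dedekindEtaUnitInv.map (Int.castRingHom ℂ) * qExpansion 1 g).coeff (j + 1) := by
        rw [← h1, PowerSeries.coeff_succ_X_mul]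
      rw [h3]
      refine inROf_coeff_mul (j + 1) (map_int_mem_coeffSubring O _) (fun i hi => ?_) (j + 1) le_rfl
      refine hglow i ?_
      have : (i : ℤ) ≤ j + 1 := by exact_mod_cast hi
      omega
    have hhall := ih (k - 12) (by push_cast at hk; omega) h hhO hhlow
    have hgall : ∀ j, InROf O r ((qExpansion 1 g).coeff j) := by
      rw [hgh]
      refine inROf_coeff_mul_all (fun i => ?_) hhall
      rw [hΔ']
      exact map_int_mem_coeffSubring O _ i
    have hfg : qExpansion 1 f = qExpansion 1 g + a₀ • qExpansion 1 E := by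
      rw [hPg]
      abel
    rw [hfg, map_add, PowerSeries.coeff_smul]
    exact (hgall j).add (ha₀r.mul_right (hEO O j))

/-- **Sturm bound modulo `r O`, level one, every weight.**  If a level one form of weight `K`
has `q`-expansion coefficients in the subring `O` and its coefficients `a_n` with
`12 n ≤ K` are in `r O`, then all its coefficients are in `r O`. -/
theorem sturm_mod (O : Subring ℂ) (r : ℂ) (K : ℤ) (f : ℍ → ℂ) (hf : IsMF1 K f)
    (hint : ∀ n, (qExpansion 1 f).coeff n ∈ O)
    (hlow : ∀ n : ℕ, (12 : ℤ) * n ≤ K → InROf O r ((qExpansion 1 f).coeff n)) :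
    ∀ n, InROf O r ((qExpansion 1 f).coeff n) := by
  obtain ⟨F, rfl⟩ := hf
  refine sturm_mod_aux O r (K.toNat + 1) K ?_ F hint hlow
  have := Int.self_le_toNat K
  push_cast
  omega

end Fermat.Agent.S16_helper23_NORMORD
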