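import Fermat.Agent.S16_helper23_NORMORD_A
import Fermat.Agent.S16_helper23_NORMORD_C

set_option autoImplicit false

open UpperHalfPlane ModularForm CongruenceSubgroup Matrix.SpecialLinearGroup
open scoped MatrixGroups ModularForm Manifold Real
open Fermat.Agent.S20 Fermat.Agent.S28_helper14_ADefs
open Fermat.Agent.S28_EINT Fermat.Agent.S28_ESYMM

/-!
# S16 piece UB-NORMORD: the norm-order criterion

If every (rescaled) conjugate of a level `N` form `F` of weight `k` has an `x`-expansion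
(`x = q^(1/N)`) with coefficients in a subring `O ⊆ ℂ` which is `≡ unit * x^(m_q) + higher`
modulo `r O`, where `r` is a non-unit of `O`, then `∑ m_q / N ≤ k * [SL₂(ℤ) : Γ₀(N)] / 12`.
-/

namespace Fermat.Agent.S16_helper23_NORMORD

variable {N : ℕ} [NeZero N] {k : ℤ} {F : ℍ → ℂ}

/-- The norm of a level `N` form is a level one form. -/
theorem isMF1_norm (hF : IsMF N k F) :
    IsMF1 ((Fintype.card (Q N) : ℤ) * k) (∏ q : Q N, cj N k F q) := by
  rw [← Esym_card]
  exact isMF1_Esym hF _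

/-- The `x`-expansion of the norm is the product of the `x`-expansions of the conjugates. -/
theorem qExpansion_norm (hF : IsMF N k F) :
    qExpansion (N : ℝ) (∏ q : Q N, cj N k F q) =
      ∏ q : Q N, qExpansion (N : ℝ) (cj N k F q) :=
  qExpansion_nice_prod (natCast_pos_real N) _ _ fun q _ => nice_cj hF q

/-- The `x`-expansion of the rescaled norm. -/
theorem qExpansion_smul_norm (hF : IsMF N k F) (lam : Q N → ℂ) :
    qExpansion (N : ℝ) ((∏ q : Q N, lam q) • ∏ q : Q N, cj N k F q) =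
      ∏ q : Q N, (PowerSeries.C (lam q) * qExpansion (N : ℝ) (cj N k F q)) := by
  rw [qExpansion_smul (nice_analytic (natCast_pos_real N)
    (nice_prod _ _ fun q _ => nice_cj hF q)), qExpansion_norm hF, Finset.prod_mul_distrib,
    ← map_prod, PowerSeries.smul_eq_C_mul]

/-- The `q`-expansion coefficients of a level one form from its `x`-expansion. -/
theorem coeff_one_eq_coeff_N {K : ℤ} {P : ℍ → ℂ} (hP : IsMF1 K P) (n : ℕ) :
    (qExpansion 1 P).coeff n = (qExpansion (N : ℝ) P).coeff (N * n) :=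
  qExpansion_one_coeff (N := N) (nice_of_isMF1 hP) n

/-- The `x`-expansion of a level one form is supported on the multiples of `N`. -/
theorem coeff_N_eq_zero {K : ℤ} {P : ℍ → ℂ} (hP : IsMF1 K P) (j : ℕ) (hj : ¬ N ∣ j) :
    (qExpansion (N : ℝ) P).coeff j = 0 := by
  have hN : 0 < N := Nat.pos_of_ne_zero (NeZero.ne N)
  have hn := nice_of_isMF1 hP
  have := UpperHalfPlane.qExpansion_coeff_nat_mul one_pos hn.per hn.holo hn.bdd hN j
  rw [mul_one, if_neg hj] at this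
  exact this

/-- **The norm-order criterion.** -/
theorem norm_order (hF : IsMF N k F)
    (O : Subring ℂ) (r : ℂ) (hr : r ∈ O) (hr' : r⁻¹ ∉ O)
    (lam : Q N → ℂ) (hlam : ∀ q, lam q ≠ 0) (m : Q N → ℕ)
    (hint : ∀ q n, lam q * (qExpansion (N : ℝ) (cj N k F q)).coeff n ∈ O)
    (hlow : ∀ q n, n < m q →
      InROf O r (lam q * (qExpansion (N : ℝ) (cj N k F q)).coeff n))
    (hlead : ∀ q, ∃ u ∈ O, u⁻¹ ∈ O ∧ u ≠ 0 ∧
      InROf O r (lam q * (qExpansion (N : ℝ) (cj N k F q)).coeff (m q) - u)) :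
    (12 : ℤ) * ∑ q, (m q : ℤ) ≤ (N : ℤ) * (k * (Fintype.card (Q N) : ℤ)) := by
  classical
  have _ := hlam
  have _ := hr
  have hN : 0 < N := Nat.pos_of_ne_zero (NeZero.ne N)
  choose u hu huinv hu0 hulead using hlead
  set P : ℍ → ℂ := (∏ q : Q N, lam q) • ∏ q : Q N, cj N k F q with hP
  have hP1 : IsMF1 ((Fintype.card (Q N) : ℤ) * k) P := (isMF1_norm hF).smul _
  have hPx : qExpansion (N : ℝ) P =
      ∏ q : Q N, (PowerSeries.C (lam q) * qExpansion (N : ℝ) (cj N k F q)) :=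
    qExpansion_smul_norm hF lam
  have hL : LeadsAt O r (qExpansion (N : ℝ) P) (∑ q, m q) (∏ q, u q) := by
    rw [hPx]
    refine LeadsAt.prod _ _ _ _ (fun q _ => hu q) fun q _ => ⟨fun n => ?_, fun n hn => ?_, ?_⟩
    · rw [PowerSeries.coeff_C_mul]
      exact hint q n
    · rw [PowerSeries.coeff_C_mul]
      exact hlow q n hn
    · rw [PowerSeries.coeff_C_mul]
      exact hulead q
  have hUinv : (∏ q, u q)⁻¹ ∈ O := by
    rw [← Finset.prod_inv_distrib]
    exact Subring.prod_mem _ fun q _ => huinv q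
  have hU0 : (∏ q, u q) ≠ 0 := Finset.prod_ne_zero_iff.mpr fun q _ => hu0 q
  have hnot : ¬ InROf O r ((qExpansion (N : ℝ) P).coeff (∑ q, m q)) :=
    hL.not_inROf hr' hUinv hU0
  -- `N` divides the order
  have hdvd : N ∣ ∑ q, m q := by
    by_contra hnd
    apply hnot
    rw [coeff_N_eq_zero hP1 _ hnd]
    exact InROf.zero O r
  obtain ⟨M', hM'⟩ := hdvd
  by_contra hcon
  rw [not_le] at hcon
  have hsum : ((∑ q, m q : ℕ) : ℤ) = ∑ q, (m q : ℤ) := by push_cast; rfl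
  rw [← hsum, hM'] at hcon
  push_cast at hcon
  have hall := sturm_mod O r _ P hP1
    (fun n => by rw [coeff_one_eq_coeff_N (N := N) hP1]; exact hL.int _)
    (fun n hn => by
      rw [coeff_one_eq_coeff_N (N := N) hP1]
      refine hL.low _ ?_
      rw [hM']
      refine Nat.mul_lt_mul_of_pos_left ?_ hN
      have hN' : (0 : ℤ) < (N : ℤ) := by exact_mod_cast hN
      have h1 : (N : ℤ) * (12 * (n : ℤ)) < (N : ℤ) * (12 * (M' : ℤ)) := by
        calc (N : ℤ) * (12 * (n : ℤ)) ≤ (N : ℤ) * ((Fintype.card (Q N) : ℤ) * k) :=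
              mul_le_mul_of_nonneg_left hn hN'.le
          _ = (N : ℤ) * (k * (Fintype.card (Q N) : ℤ)) := by ring
          _ < 12 * ((N : ℤ) * (M' : ℤ)) := hcon
          _ = (N : ℤ) * (12 * (M' : ℤ)) := by ring
      have h2 := lt_of_mul_lt_mul_left h1 hN'.le
      have h3 : (n : ℤ) < (M' : ℤ) := by omega
      exact_mod_cast h3)
  apply hnot
  rw [hM', ← coeff_one_eq_coeff_N (N := N) hP1]
  exact hall M'

/-! ### The ring of elements of `ℂ` integral over `ℤ_(r)` -/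

/-- The elements `x` of `ℂ` such that `m x` is an algebraic integer for some `m` prime to `r`. -/
def rLocSubring (r : ℕ) : Subring ℂ where
  carrier := {x | ∃ m : ℕ, Nat.Coprime m r ∧ IsIntegral ℤ ((m : ℂ) * x)}
  mul_mem' := by
    rintro x y ⟨m, hm, hx⟩ ⟨n, hn, hy⟩
    refine ⟨m * n, Nat.Coprime.mul_left hm hn, ?_⟩
    have e : ((m * n : ℕ) : ℂ) * (x * y) = ((m : ℂ) * x) * ((n : ℂ) * y) := by
      push_cast; ring
    rw [e]
    exact hx.mul hy
  one_mem' := ⟨1, Nat.coprime_one_left r, by simpa using isIntegral_one⟩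
  add_mem' := by
    rintro x y ⟨m, hm, hx⟩ ⟨n, hn, hy⟩
    refine ⟨m * n, Nat.Coprime.mul_left hm hn, ?_⟩
    have e : ((m * n : ℕ) : ℂ) * (x + y) =
        (n : ℂ) * ((m : ℂ) * x) + (m : ℂ) * ((n : ℂ) * y) := by
      push_cast; ring
    rw [e]
    have hn' : IsIntegral ℤ (n : ℂ) := by
      have := isIntegral_algebraMap (R := ℤ) (A := ℂ) (x := (n : ℤ))
      simpa using this
    have hm' : IsIntegral ℤ (m : ℂ) := by
      have := isIntegral_algebraMap (R := ℤ) (A := ℂ) (x := (m : ℤ))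
      simpa using this
    exact (hn'.mul hx).add (hm'.mul hy)
  zero_mem' := ⟨1, Nat.coprime_one_left r, by simpa using isIntegral_zero⟩
  neg_mem' := by
    rintro x ⟨m, hm, hx⟩
    refine ⟨m, hm, ?_⟩
    rw [mul_neg]
    exact hx.neg

theorem mem_rLocSubring {r : ℕ} {x : ℂ} :
    x ∈ rLocSubring r ↔ ∃ m : ℕ, Nat.Coprime m r ∧ IsIntegral ℤ ((m : ℂ) * x) := Iff.rfl

theorem mem_rLocSubring_of_prime {r : ℕ} (hr : r.Prime) {x : ℂ} :
    x ∈ rLocSubring r ↔ ∃ m : ℕ, ¬ r ∣ m ∧ IsIntegral ℤ ((m : ℂ) * x) := by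
  rw [mem_rLocSubring]
  constructor
  · rintro ⟨m, hm, hx⟩
    exact ⟨m, fun h => hr.one_lt.ne' (Nat.Coprime.eq_one_of_dvd hm.symm h), hx⟩
  · rintro ⟨m, hm, hx⟩
    exact ⟨m, ((Nat.Prime.coprime_iff_not_dvd hr).mpr hm).symm, hx⟩

theorem isIntegral_mem_rLocSubring (r : ℕ) {x : ℂ} (hx : IsIntegral ℤ x) : x ∈ rLocSubring r :=
  ⟨1, Nat.coprime_one_left r, by simpa using hx⟩

theorem natCast_inv_mem_rLocSubring {r n : ℕ} (hn : Nat.Coprime n r) :
    ((n : ℂ))⁻¹ ∈ rLocSubring r := by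
  by_cases h0 : n = 0
  · subst h0
    simp
  · refine ⟨n, hn, ?_⟩
    rw [mul_inv_cancel₀ (by exact_mod_cast h0)]
    exact isIntegral_one

theorem inv_notMem_rLocSubring {r : ℕ} (hr : r.Prime) : ((r : ℂ))⁻¹ ∉ rLocSubring r := by
  rintro ⟨m, hm, hx⟩
  -- `m / r` is a rational algebraic integer
  have h1 : IsIntegral ℤ ((algebraMap ℚ ℂ) ((m : ℚ) / (r : ℚ))) := by
    have e : (algebraMap ℚ ℂ) ((m : ℚ) / (r : ℚ)) = (m : ℂ) * ((r : ℂ))⁻¹ := by
      simp [div_eq_mul_inv]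
    rw [e]
    exact hx
  have h2 : IsIntegral ℤ ((m : ℚ) / (r : ℚ)) :=
    (isIntegral_algebraMap_iff (algebraMap ℚ ℂ).injective).mp h1
  obtain ⟨z, hz⟩ := IsIntegrallyClosed.isIntegral_iff.mp h2
  have hr0 : (r : ℚ) ≠ 0 := by exact_mod_cast hr.ne_zero
  have h3 : (m : ℚ) = (z : ℚ) * (r : ℚ) := by
    have : (algebraMap ℤ ℚ) z = (z : ℚ) := rfl
    rw [this] at hz
    rw [hz]
    field_simp
  have h4 : (m : ℤ) = z * (r : ℤ) := by exact_mod_cast h3
  have h5 : (r : ℤ) ∣ (m : ℤ) := ⟨z, by rw [h4]; ring⟩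
  have h6 : r ∣ m := by exact_mod_cast h5
  exact hr.one_lt.ne' (Nat.Coprime.eq_one_of_dvd hm.symm h6)

end Fermat.Agent.S16_helper23_NORMORD
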