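import Fermat.Agent.S28_helper13_GQEXP
import Fermat.Agent.S28_helper20_QE4
import Fermat.Agent.S28_helper26_QDELTA
import Fermat.Agent.S16_helper18_TRALG

/-!
# S16, upper bound, tool (Te): elementary `q`-expansion facts

* `qExpansion_E6_coeff`, `qExpansion_E6`: `E₆ = 1 - 504 ∑ σ₅(n) qⁿ`;
* `qExpansion_E4'`: `E₄` in terms of `TRALG.e4Ser`;
* `sigma_five_sub_three`: `24 ∣ σ₅(n) - σ₃(n)`;
* `delta_identity`: `1728 · X · ∏ (1 - Xⁿ)²⁴ = e4Ser³ - e6Ser²` in `ℤ⟦X⟧`;
* `qExpansion_width`: a `1`-periodic nice function expanded in `x = q^(1/N)`.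
-/

set_option autoImplicit false

noncomputable section

namespace Fermat.Agent.S16_helper28_TE

open UpperHalfPlane ModularForm
open Fermat.Agent.S20 Fermat.Agent.S28_helper14_ADefs
open Fermat.Agent.S16_helper18_TRALG
open PowerSeries

/-- The sixth Bernoulli number. -/
theorem bernoulli_six : bernoulli 6 = 1 / 42 := by
  have h5 : bernoulli' 5 = 0 := bernoulli'_eq_zero_of_odd (by decide) (by norm_num)
  rw [bernoulli_eq_bernoulli'_of_ne_one (by norm_num), bernoulli'_def]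
  norm_num [Finset.sum_range_succ, Nat.choose, h5]

/-- `∑_{n ≥ 1} σ₅(n) Xⁿ` -/
def s5Ser : PowerSeries ℤ :=
  PowerSeries.mk fun n => if n = 0 then 0 else ((ArithmeticFunction.sigma 5 n : ℕ) : ℤ)

/-- the `q`-expansion of `E₆` -/
def e6Ser : PowerSeries ℤ :=
  PowerSeries.mk fun n => if n = 0 then 1 else -504 * ((ArithmeticFunction.sigma 5 n : ℕ) : ℤ)

theorem coeff_s5Ser (n : ℕ) :
    coeff n s5Ser = if n = 0 then 0 else ((ArithmeticFunction.sigma 5 n : ℕ) : ℤ) := coeff_mk _ _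

theorem coeff_e6Ser (n : ℕ) :
    coeff n e6Ser = if n = 0 then 1 else -504 * ((ArithmeticFunction.sigma 5 n : ℕ) : ℤ) :=
  coeff_mk _ _

theorem e6Ser_eq : e6Ser = 1 - C 504 * s5Ser := by
  ext n
  rw [coeff_e6Ser, map_sub, coeff_C_mul, coeff_s5Ser, coeff_one]
  split_ifs <;> simp

/-- Coefficientwise `q`-expansion of `E₆`. -/
theorem qExpansion_E6_coeff (m : ℕ) :
    (qExpansion 1 (⇑E₆ : ℍ → ℂ)).coeff m =
      if m = 0 then 1 else -504 * ∑ d ∈ m.divisors, (d : ℂ) ^ 5 := by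
  rw [EisensteinSeries.E_qExpansion_coeff (by norm_num : 3 ≤ 6) ⟨3, rfl⟩ m]
  by_cases hm : m = 0
  · simp [hm]
  · simp only [hm, if_false]
    rw [bernoulli_six, ArithmeticFunction.sigma_apply]
    push_cast
    ring

theorem qExpansion_E6 :
    qExpansion 1 (⇑E₆ : ℍ → ℂ) = e6Ser.map (Int.castRingHom ℂ) := by
  ext m
  rw [qExpansion_E6_coeff, PowerSeries.coeff_map, coeff_e6Ser]
  by_cases hm : m = 0
  · simp [hm]
  · simp only [hm, if_false]
    rw [ArithmeticFunction.sigma_apply, eq_intCast]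
    push_cast
    rfl

theorem e4Ser_eq_eisenstein4 : e4Ser = ModularCurve.eisenstein4 := by
  ext n
  rw [coeff_e4Ser, ModularCurve.eisenstein4, coeff_mk]
  by_cases hn : n = 0
  · simp [hn]
  · simp only [hn, if_false]
    rw [ArithmeticFunction.sigma_apply]
    push_cast
    rfl

theorem qExpansion_E4' :
    qExpansion 1 (⇑E₄ : ℍ → ℂ) = e4Ser.map (Int.castRingHom ℂ) := by
  rw [Fermat.Agent.S28_QE4.qExpansion_E4, e4Ser_eq_eisenstein4]

/-! ### `σ₅ ≡ σ₃ mod 24` -/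

theorem pow_five_sub_pow_three (d : ℤ) : (24 : ℤ) ∣ d ^ 5 - d ^ 3 := by
  have h : ∀ x : ZMod 24, x ^ 5 - x ^ 3 = 0 := by decide
  have h1 := h (d : ZMod 24)
  have h2 := (ZMod.intCast_zmod_eq_zero_iff_dvd (d ^ 5 - d ^ 3) 24).mp (by push_cast; exact h1)
  exact_mod_cast h2

theorem sigma_five_sub_three (n : ℕ) :
    (24 : ℤ) ∣ ((ArithmeticFunction.sigma 5 n : ℕ) : ℤ) - ((ArithmeticFunction.sigma 3 n : ℕ) : ℤ) := by
  rw [ArithmeticFunction.sigma_apply, ArithmeticFunction.sigma_apply]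
  push_cast
  rw [← Finset.sum_sub_distrib]
  exact Finset.dvd_sum fun d _ => pow_five_sub_pow_three d

theorem sigma_five_sub_three' (n : ℕ) :
    (24 : ℤ) ∣ ∑ d ∈ n.divisors, (d : ℤ) ^ 5 - ∑ d ∈ n.divisors, (d : ℤ) ^ 3 := by
  rw [← Finset.sum_sub_distrib]
  exact Finset.dvd_sum fun d _ => pow_five_sub_pow_three d

theorem pow_three_sub_self (d : ℤ) : (6 : ℤ) ∣ d ^ 3 - d := by
  have h : ∀ x : ZMod 6, x ^ 3 - x = 0 := by decide
  have h1 := h (d : ZMod 6)
  have h2 := (ZMod.intCast_zmod_eq_zero_iff_dvd (d ^ 3 - d) 6).mp (by push_cast; exact h1)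
  exact_mod_cast h2

theorem pow_five_sub_self (d : ℤ) : (30 : ℤ) ∣ d ^ 5 - d := by
  have h : ∀ x : ZMod 30, x ^ 5 - x = 0 := by decide
  have h1 := h (d : ZMod 30)
  have h2 := (ZMod.intCast_zmod_eq_zero_iff_dvd (d ^ 5 - d) 30).mp (by push_cast; exact h1)
  exact_mod_cast h2

theorem sigma_three_sub_one (n : ℕ) :
    (6 : ℤ) ∣ ((ArithmeticFunction.sigma 3 n : ℕ) : ℤ) - ((ArithmeticFunction.sigma 1 n : ℕ) : ℤ) := by
  rw [ArithmeticFunction.sigma_apply, ArithmeticFunction.sigma_apply]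
  push_cast
  rw [← Finset.sum_sub_distrib]
  exact Finset.dvd_sum fun d _ => by simpa using pow_three_sub_self d

theorem sigma_five_sub_one (n : ℕ) :
    (30 : ℤ) ∣ ((ArithmeticFunction.sigma 5 n : ℕ) : ℤ) - ((ArithmeticFunction.sigma 1 n : ℕ) : ℤ) := by
  rw [ArithmeticFunction.sigma_apply, ArithmeticFunction.sigma_apply]
  push_cast
  rw [← Finset.sum_sub_distrib]
  exact Finset.dvd_sum fun d _ => by simpa using pow_five_sub_self d

/-- `(σ₅ - σ₃)/24` as a power series. -/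
def s53Ser : PowerSeries ℤ :=
  PowerSeries.mk fun n =>
    (((ArithmeticFunction.sigma 5 n : ℕ) : ℤ) - ((ArithmeticFunction.sigma 3 n : ℕ) : ℤ)) / 24

theorem s5Ser_eq : s5Ser = s3Ser + C 24 * s53Ser := by
  ext n
  rw [map_add, coeff_C_mul, coeff_s5Ser, coeff_s3Ser, s53Ser, coeff_mk,
    Int.mul_ediv_cancel' (sigma_five_sub_three n)]
  by_cases hn : n = 0
  · simp [hn]
  · simp only [hn, if_false]
    ring

theorem exists_s5Ser_eq : ∃ t : PowerSeries ℤ, s5Ser = s3Ser + C 24 * t := ⟨s53Ser, s5Ser_eq⟩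

/-! ### Niceness of the basic level-one forms -/

theorem nice_E4 : Nice 1 (⇑E₄ : ℍ → ℂ) := Fermat.Agent.S28_EINT.nice_of_isMF1 isMF1_E₄

theorem nice_E6 : Nice 1 (⇑E₆ : ℍ → ℂ) := Fermat.Agent.S28_EINT.nice_of_isMF1 isMF1_E₆

theorem nice_discriminant : Nice 1 ModularForm.discriminant :=
  Fermat.Agent.S28_EINT.nice_of_isMF1 isMF1_discriminant

/-! ### The identity `1728 Δ = E₄³ - E₆²` on integral power series -/

theorem qExpansion_delta_identity :
    (1728 : ℂ) • qExpansion 1 ModularForm.discriminant =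
      qExpansion 1 (⇑E₄ : ℍ → ℂ) ^ 3 - qExpansion 1 (⇑E₆ : ℍ → ℂ) ^ 2 := by
  have hfun : (1728 : ℂ) • ModularForm.discriminant = (⇑E₄ : ℍ → ℂ) ^ 3 - (⇑E₆ : ℍ → ℂ) ^ 2 := by
    funext z
    simp only [Pi.smul_apply, Pi.sub_apply, Pi.pow_apply, smul_eq_mul]
    rw [ModularForm.discriminant_eq_E₄_cube_sub_E₆_sq z]
    ring
  have h1 : (0 : ℝ) < 1 := one_pos
  rw [← qExpansion_smul (Fermat.Agent.S28_EINT.nice_analytic h1 nice_discriminant), hfun,
    qExpansion_sub
      (Fermat.Agent.S28_EINT.nice_analytic h1 (Fermat.Agent.S28_GQEXP.nice_pow nice_E4 3))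
      (Fermat.Agent.S28_EINT.nice_analytic h1 (Fermat.Agent.S28_GQEXP.nice_pow nice_E6 2)),
    Fermat.Agent.S28_GQEXP.qExpansion_nice_pow h1 nice_E4,
    Fermat.Agent.S28_GQEXP.qExpansion_nice_pow h1 nice_E6]

/-- The integral `q`-expansion of `Δ`. -/
def deltaSer : PowerSeries ℤ := PowerSeries.X * ModularCurve.dedekindEtaUnit

theorem qExpansion_discriminant' :
    qExpansion 1 ModularForm.discriminant = deltaSer.map (Int.castRingHom ℂ) :=
  Fermat.Agent.S28_QDELTA.qExpansion_discriminant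

theorem coeff_zero_deltaSer : coeff 0 deltaSer = 0 := by
  rw [deltaSer, coeff_zero_eq_constantCoeff_apply, map_mul, constantCoeff_X, zero_mul]

theorem coeff_one_deltaSer : coeff 1 deltaSer = 1 := by
  rw [deltaSer, coeff_succ_X_mul, coeff_zero_eq_constantCoeff_apply,
    ModularCurve.constantCoeff_dedekindEtaUnit]

theorem delta_identity : C 1728 * deltaSer = e4Ser ^ 3 - e6Ser ^ 2 := by
  have hinj : Function.Injective (PowerSeries.map (Int.castRingHom ℂ)) :=
    PowerSeries.map_injective _ (RingHom.injective_int (Int.castRingHom ℂ))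
  apply hinj
  rw [map_mul, map_sub, map_pow, map_pow, ← qExpansion_discriminant', ← qExpansion_E4',
    ← qExpansion_E6, ← qExpansion_delta_identity, PowerSeries.map_C]
  ext n
  rw [PowerSeries.coeff_C_mul, PowerSeries.coeff_smul, smul_eq_mul]
  simp

/-- `E₆ = E₄ - 24·(…)`-type congruence: `e6Ser = e4Ser - C 744 * s3Ser - C (504 * 24) * s53Ser`. -/
theorem e6Ser_eq_e4Ser : e6Ser = e4Ser - C 744 * s3Ser - C 12096 * s53Ser := by
  rw [e6Ser_eq, e4Ser_eq, s5Ser_eq]
  have h1 : (C (744 : ℤ) : PowerSeries ℤ) = C 240 + C 504 := by rw [← map_add]; norm_num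
  have h2 : (C (12096 : ℤ) : PowerSeries ℤ) = C 504 * C 24 := by rw [← map_mul]; norm_num
  rw [h1, h2]
  ring

/-! ### Change of width -/

theorem tri_one_one_zero (f : ℍ → ℂ) : tri 1 1 0 f = f := by
  funext z
  simp [tri]

theorem nice_width {f : ℍ → ℂ} (hf : Nice 1 f) {N : ℕ} (hN : 0 < N) : Nice (N : ℝ) f := by
  have := Fermat.Agent.S28_SUBST.nice_tri hf one_pos one_pos hN (one_dvd N) 0
  rwa [tri_one_one_zero] at this

/-- A nice `1`-periodic function expanded in the variable `x = q^(1/N)`. -/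
theorem qExpansion_width {f : ℍ → ℂ} (hf : Nice 1 f) {N : ℕ} (hN : 0 < N) (m : ℕ) :
    (qExpansion (N : ℝ) f).coeff m = if N ∣ m then (qExpansion 1 f).coeff (m / N) else 0 := by
  have := Fermat.Agent.S28_SUBST.qExpansion_tri_coeff hf one_pos one_pos hN (one_dvd N) 0 m
  rw [tri_one_one_zero] at this
  rw [this]
  simp

/-- Integral form of `qExpansion_width`, with `substPow` of `S28_GQEXP`. -/
theorem qExpansion_width_int {f : ℍ → ℂ} (hf : Nice 1 f) {N : ℕ} (hN : 0 < N)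
    (V : PowerSeries ℤ) (hV : qExpansion 1 f = V.map (Int.castRingHom ℂ)) :
    qExpansion (N : ℝ) f = (Fermat.Agent.S28_GQEXP.substPow N V).map (Int.castRingHom ℂ) := by
  ext m
  rw [qExpansion_width hf hN, PowerSeries.coeff_map, Fermat.Agent.S28_GQEXP.substPow,
    PowerSeries.coeff_mk, hV]
  split_ifs
  · rw [PowerSeries.coeff_map]
  · simp

end Fermat.Agent.S16_helper28_TE
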