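import Fermat.Agent.S16_helper21_NCFormal
import Fermat.Agent.S16_helper6_WTRICK
import Fermat.Agent.S16_helper16_TB
import Fermat.Agent.S16_helper23_NORMORD
import Fermat.Agent.S16_helper28_TE
import Fermat.Agent.S16_helper4_UBGLUE
import Fermat.Agent.S28_helper5_GCONJ
import Fermat.Agent.S28_helper25_HD

/-!
# S16, piece NC-big: no weight-2 form on `Γ₀(p)` is a unit constant modulo a prime `r ≥ 5`, `r ≠ p`

Norm-order argument: `F = p^κ G^κ - (-1)^κ a₀^κ E_{2κ}` has conjugates `≡ unit · S(q)` modulo `r`,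
so that the orders of the conjugates add up to at least `p²` in the variable `x = q^(1/p)`; this
contradicts the norm-order criterion of `S16_helper23_NORMORD` (weights `4` and `6`).
-/

set_option autoImplicit false
set_option linter.style.haveILetI false
set_option linter.unusedSectionVars false

open UpperHalfPlane ModularForm CongruenceSubgroup Matrix.SpecialLinearGroup
open scoped MatrixGroups ModularForm Manifold Real
open Fermat.Agent.S20 Fermat.Agent.S28_helper14_Defs Fermat.Agent.S28_helper14_ADefs ModularCurve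
open Fermat.Agent.S16_helper21_NCFormal Fermat.Agent.S16_helper6_WTRICK

namespace Fermat.Agent.S16_helper21_NCBIG

/-! ### width -/

theorem tri_one_one_zero (f : ℍ → ℂ) : tri 1 1 0 f = f := by
  funext z
  unfold tri
  have : (((1 : ℕ) : ℂ) * (z : ℂ) + ((0 : ℤ) : ℂ)) / ((1 : ℕ) : ℂ) = (z : ℂ) := by simp
  rw [this, ofComplex_apply]

theorem nice_width {f : ℍ → ℂ} (hf : Nice 1 f) {N : ℕ} (hN : 0 < N) : Nice (N : ℝ) f := by
  have := Fermat.Agent.S28_SUBST.nice_tri hf (a := 1) (d := 1) (N := N) one_pos one_pos hN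
    (one_dvd N) 0
  rwa [tri_one_one_zero] at this

theorem qExpansion_width {f : ℍ → ℂ} (hf : Nice 1 f) {N : ℕ} (hN : 0 < N) (m : ℕ) :
    (qExpansion (N : ℝ) f).coeff m = if N ∣ m then (qExpansion 1 f).coeff (m / N) else 0 := by
  have := Fermat.Agent.S28_SUBST.qExpansion_tri_coeff hf (a := 1) (d := 1) (N := N) one_pos one_pos
    hN (one_dvd N) 0 m
  rw [tri_one_one_zero] at this
  rw [this]
  simp

theorem qExpansion_conj {H : ℍ → ℂ} (hH : Nice 1 H) {p : ℕ} (hp : 0 < p) (j : ℕ) (m : ℕ) :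
    (qExpansion (p : ℝ) (tri 1 p j H)).coeff m =
      (qExpansion 1 H).coeff m *
        Complex.exp (2 * π * Complex.I * ((j : ℤ) : ℂ) * (m : ℂ) / (p : ℂ)) := by
  have := Fermat.Agent.S28_SUBST.qExpansion_tri_coeff hH (a := 1) (d := p) (N := p) one_pos hp
    hp (dvd_refl p) j m
  rw [this]
  simp [Nat.div_self hp]

/-! ### slash computations -/

theorem pow_slash_SL (k : ℤ) (f : ℍ → ℂ) (n : ℕ) (γ : SL(2, ℤ)) :
    (f ^ n) ∣[(n : ℤ) * k] γ = (f ∣[k] γ) ^ n := by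
  induction n with
  | zero =>
    simp only [Nat.cast_zero, zero_mul, pow_zero]
    exact ModularForm.is_invariant_one γ
  | succ n ih =>
    have h1 : ((n + 1 : ℕ) : ℤ) * k = n * k + k := by push_cast; ring
    rw [h1, pow_succ, ModularForm.mul_slash_SL2, ih, pow_succ]

/-- the auxiliary form `F = p^κ g^κ - (-1)^κ u^κ E` -/
noncomputable def auxF (p κ : ℕ) (u : ℂ) (g E : ℍ → ℂ) : ℍ → ℂ :=
  ((p : ℂ) ^ κ) • g ^ κ - ((-1 : ℂ) ^ κ * u ^ κ) • E

theorem isMF_auxF {p : ℕ} [NeZero p] {κ : ℕ} (u : ℂ) {g E : ℍ → ℂ} (hg : IsMF p 2 g)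
    (hE : IsMF1 ((κ : ℤ) * 2) E) : IsMF p ((κ : ℤ) * 2) (auxF p κ u g E) :=
  ((hg.pow κ).smul _).sub (hE.isMF.smul _)

theorem auxF_slash (p κ : ℕ) (u : ℂ) (g : ℍ → ℂ) {E : ℍ → ℂ} (hE : IsMF1 ((κ : ℤ) * 2) E)
    (γ : SL(2, ℤ)) :
    (auxF p κ u g E) ∣[(κ : ℤ) * 2] γ =
      ((p : ℂ) ^ κ) • (g ∣[(2 : ℤ)] γ) ^ κ - ((-1 : ℂ) ^ κ * u ^ κ) • E := by
  unfold auxF
  rw [sub_eq_add_neg, SlashAction.add_slash, SlashAction.neg_slash, ModularForm.SL_smul_slash,
    ModularForm.SL_smul_slash, pow_slash_SL, hE.slash_eq, ← sub_eq_add_neg]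

theorem auxF_slash_ST {p : ℕ} [Fact p.Prime] [NeZero p] (κ : ℕ) (u : ℂ) {g E : ℍ → ℂ}
    (hg : IsMF p 2 g) (hE : IsMF1 ((κ : ℤ) * 2) E) (j : ℕ) :
    (auxF p κ u g E) ∣[(κ : ℤ) * 2] (ModularGroup.S * ModularGroup.T ^ (j : ℤ)) =
      ((-1 : ℂ) ^ κ) • ((tri 1 p j (heckeU 2 p g)) ^ κ - (u ^ κ) • E) := by
  rw [auxF_slash p κ u g hE]
  have hp0 : (p : ℂ) ≠ 0 := by exact_mod_cast NeZero.ne p
  have h1 : g ∣[(2 : ℤ)] (ModularGroup.S * ModularGroup.T ^ (j : ℤ)) =
      (-(p : ℂ)⁻¹) • tri 1 p j (heckeU 2 p g) := by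
    funext z
    rw [slash_ST_eq' hg j z]
    simp only [Pi.smul_apply, smul_eq_mul, tri]
    congr 3
    push_cast
    ring
  rw [h1]
  funext z
  simp only [Pi.sub_apply, Pi.smul_apply, Pi.pow_apply, smul_eq_mul]
  rw [mul_pow, neg_pow, inv_pow]
  field_simp

/-! ### `q`-expansions in the variable `x = q^(1/p)` -/

section expansions

variable {p : ℕ}

theorem nice_p_of_nice {f : ℍ → ℂ} (hf : Nice 1 f) (hp : 0 < p) : Nice (p : ℝ) f := nice_width hf hp

theorem analytic_p {f : ℍ → ℂ} (hf : Nice (p : ℝ) f) (hp : 0 < p) :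
    AnalyticAt ℂ (cuspFunction (p : ℝ) f) 0 :=
  Fermat.Agent.S28_GCONJ.nice_analyticAt (by exact_mod_cast hp) hf

theorem nice_smul' {h : ℝ} {f : ℍ → ℂ} (c : ℂ) (hf : Nice h f) : Nice h (c • f) := by
  have := Fermat.Agent.S28_GCONJ.nice_const_mul c hf
  have e : (fun z => c * f z) = c • f := by funext z; simp
  rwa [e] at this

theorem nice_sub' {h : ℝ} {f g : ℍ → ℂ} (hf : Nice h f) (hg : Nice h g) : Nice h (f - g) := by
  have h1 : Nice h ((-1 : ℂ) • g) := nice_smul' _ hg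
  have h2 : f - g = f + (-1 : ℂ) • g := by funext z; simp [sub_eq_add_neg]
  rw [h2]
  exact ⟨hf.per.add h1.per, hf.holo.add h1.holo, hf.bdd.add h1.bdd⟩

theorem qExpansion_smul' {f : ℍ → ℂ} (hf : Nice (p : ℝ) f) (hp : 0 < p) (c : ℂ) :
    qExpansion (p : ℝ) (c • f) = PowerSeries.C c * qExpansion (p : ℝ) f := by
  rw [qExpansion_smul (analytic_p hf hp)]
  ext m
  simp

theorem qExpansion_sub' {f g : ℍ → ℂ} (hf : Nice (p : ℝ) f) (hg : Nice (p : ℝ) g) (hp : 0 < p) :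
    qExpansion (p : ℝ) (f - g) = qExpansion (p : ℝ) f - qExpansion (p : ℝ) g :=
  qExpansion_sub (analytic_p hf hp) (analytic_p hg hp)

theorem qExpansion_auxF {κ : ℕ} (u : ℂ) {g E : ℍ → ℂ} (hg : Nice (p : ℝ) g)
    (hE : Nice (p : ℝ) E) (hp : 0 < p) :
    qExpansion (p : ℝ) (auxF p κ u g E) =
      PowerSeries.C ((p : ℂ) ^ κ) * qExpansion (p : ℝ) g ^ κ -
        PowerSeries.C ((-1 : ℂ) ^ κ * u ^ κ) * qExpansion (p : ℝ) E := by
  have hp' : (0 : ℝ) < (p : ℝ) := by exact_mod_cast hp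
  unfold auxF
  rw [qExpansion_sub' (nice_smul' _ (Fermat.Agent.S28_GCONJ.nice_pow hg κ)) (nice_smul' _ hE) hp,
    qExpansion_smul' (Fermat.Agent.S28_GCONJ.nice_pow hg κ) hp, qExpansion_smul' hE hp,
    Fermat.Agent.S28_GCONJ.qExpansion_pow' hp' hg]

theorem nice_auxF {κ : ℕ} (u : ℂ) {g E : ℍ → ℂ} (hg : Nice (p : ℝ) g)
    (hE : Nice (p : ℝ) E) : Nice (p : ℝ) (auxF p κ u g E) :=
  nice_sub' (nice_smul' _ (Fermat.Agent.S28_GCONJ.nice_pow hg κ)) (nice_smul' _ hE)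

theorem nice_conjF {κ : ℕ} (u : ℂ) {Hj E : ℍ → ℂ} (hH : Nice (p : ℝ) Hj)
    (hE : Nice (p : ℝ) E) : Nice (p : ℝ) (((-1 : ℂ) ^ κ) • (Hj ^ κ - (u ^ κ) • E)) :=
  nice_smul' _ (nice_sub' (Fermat.Agent.S28_GCONJ.nice_pow hH κ) (nice_smul' _ hE))

theorem qExpansion_conjF {κ : ℕ} (u : ℂ) {Hj E : ℍ → ℂ} (hH : Nice (p : ℝ) Hj)
    (hE : Nice (p : ℝ) E) (hp : 0 < p) :
    qExpansion (p : ℝ) (((-1 : ℂ) ^ κ) • (Hj ^ κ - (u ^ κ) • E)) =
      PowerSeries.C ((-1 : ℂ) ^ κ) * (qExpansion (p : ℝ) Hj ^ κ -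
        PowerSeries.C (u ^ κ) * qExpansion (p : ℝ) E) := by
  have hp' : (0 : ℝ) < (p : ℝ) := by exact_mod_cast hp
  rw [qExpansion_smul' (nice_sub' (Fermat.Agent.S28_GCONJ.nice_pow hH κ) (nice_smul' _ hE)) hp,
    qExpansion_sub' (Fermat.Agent.S28_GCONJ.nice_pow hH κ) (nice_smul' _ hE) hp,
    qExpansion_smul' hE hp, Fermat.Agent.S28_GCONJ.qExpansion_pow' hp' hH]

end expansions

/-! ### lifts to `Obar⟦X⟧` and reductions -/

section lifts

open PowerSeries

variable (p : ℕ) [Fact p.Prime]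

/-- `P(x^p)` with coefficients in `Obar` -/
noncomputable def exO (P : PowerSeries ℤ) : PowerSeries Obar :=
  PowerSeries.mk fun n => if p ∣ n then ((P.coeff (n / p) : ℤ) : Obar) else 0

theorem coeff_exO (P : PowerSeries ℤ) (n : ℕ) :
    (exO p P).coeff n = if p ∣ n then ((P.coeff (n / p) : ℤ) : Obar) else 0 := coeff_mk _ _

/-- the root of unity `exp(2πi j m / p)` as an element of `Obar` -/
noncomputable def zetaO (j m : ℕ) : Obar :=
  ⟨Complex.exp (2 * π * Complex.I * ((j : ℤ) : ℂ) * (m : ℂ) / (p : ℂ)),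
    exp_mem_Obar j m p (Fact.out : p.Prime).pos⟩

theorem zetaO_zero (j : ℕ) : zetaO p j 0 = 1 := by
  apply Subtype.ext
  simp [zetaO]

/-- lift of the expansion of the conjugate `H((z + j)/p)`, `H = U_p G` -/
noncomputable def conjO (a : ℕ → ℤ) (j : ℕ) : PowerSeries Obar :=
  PowerSeries.mk fun m => ((a (m * p) : ℤ) : Obar) * zetaO p j m

theorem coeff_conjO (a : ℕ → ℤ) (j m : ℕ) :
    (conjO p a j).coeff m = ((a (m * p) : ℤ) : Obar) * zetaO p j m := coeff_mk _ _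

theorem map_exO {f : ℍ → ℂ} (hf : Nice 1 f) (P : PowerSeries ℤ)
    (hP : qExpansion 1 f = P.map (Int.castRingHom ℂ)) :
    (exO p P).map Obar.subtype = qExpansion (p : ℝ) f := by
  ext n
  rw [coeff_map, coeff_exO, qExpansion_width hf (Fact.out : p.Prime).pos, hP, coeff_map]
  split_ifs <;> simp

theorem map_conjO {H : ℍ → ℂ} (hH : Nice 1 H) (a : ℕ → ℤ)
    (ha : ∀ m, (qExpansion 1 H).coeff m = ((a (m * p) : ℤ) : ℂ)) (j : ℕ) :
    (conjO p a j).map Obar.subtype = qExpansion (p : ℝ) (tri 1 p j H) := by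
  ext m
  rw [coeff_map, coeff_conjO, qExpansion_conj hH (Fact.out : p.Prime).pos, ha]
  simp [zetaO]

variable {k : Type*} [CommRing k] (φ : Obar →+* k) {r : ℕ}

theorem map_exO_of_dvd (h0 : φ ((r : ℕ) : Obar) = 0) (a : ℕ → ℤ)
    (hn : ∀ n, 1 ≤ n → (r : ℤ) ∣ a n) :
    (exO p (PowerSeries.mk a)).map φ = C (φ ((a 0 : ℤ) : Obar)) := by
  have hp := (Fact.out : p.Prime)
  ext n
  rw [coeff_map, coeff_exO, coeff_C, coeff_mk]
  rcases Nat.eq_zero_or_pos n with rfl | hnpos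
  · simp
  · rw [if_neg hnpos.ne']
    split_ifs with hdvd
    · obtain ⟨d, rfl⟩ := hdvd
      have hd : 1 ≤ d := by
        rcases Nat.eq_zero_or_pos d with rfl | hd
        · simp at hnpos
        · exact hd
      rw [Nat.mul_div_cancel_left _ hp.pos]
      exact map_intCast_eq_zero φ h0 (hn d hd)
    · exact map_zero φ

theorem map_conjO_of_dvd (h0 : φ ((r : ℕ) : Obar) = 0) (a : ℕ → ℤ)
    (hn : ∀ n, 1 ≤ n → (r : ℤ) ∣ a n) (j : ℕ) :
    (conjO p a j).map φ = C (φ ((a 0 : ℤ) : Obar)) := by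
  have hp := (Fact.out : p.Prime)
  ext m
  rw [coeff_map, coeff_conjO, coeff_C, map_mul]
  rcases Nat.eq_zero_or_pos m with rfl | hm
  · rw [if_pos rfl, zetaO_zero, map_one, mul_one, zero_mul]
  · rw [if_neg hm.ne', map_intCast_eq_zero φ h0 (hn _ (Nat.mul_pos hm hp.pos)), zero_mul]


/-- the reduction of `E(x^p)` for `E = 1 + c S`, `S = q + ⋯` -/
theorem map_exO_eis (c : ℤ) (S : PowerSeries ℤ) (hS0 : S.coeff 0 = 0) :
    (exO p (1 + C c * S)).map φ = 1 + C (φ ((c : ℤ) : Obar)) * (exO p S).map φ := by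
  have hp := (Fact.out : p.Prime)
  ext n
  simp only [coeff_map, coeff_exO, map_add, coeff_one, coeff_C_mul]
  by_cases hdvd : p ∣ n
  · rw [if_pos hdvd, if_pos hdvd]
    obtain ⟨d, rfl⟩ := hdvd
    rw [Nat.mul_div_cancel_left _ hp.pos]
    by_cases hd : d = 0
    · subst hd
      simp [hS0]
    · have hpd : p * d ≠ 0 := Nat.mul_ne_zero hp.ne_zero hd
      simp [hd, hpd]
  · rw [if_neg hdvd, if_neg hdvd]
    have hn0 : n ≠ 0 := by
      rintro rfl
      exact hdvd (dvd_zero p)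
    simp [hn0]

/-- the reduction of `S(x^p)` for `S = q + ⋯` -/
theorem coeff_map_exO_lt (S : PowerSeries ℤ) (hS0 : S.coeff 0 = 0) {n : ℕ} (hn : n < p) :
    ((exO p S).map φ).coeff n = 0 := by
  rw [coeff_map, coeff_exO]
  split_ifs with hdvd
  · have : n = 0 := Nat.eq_zero_of_dvd_of_lt hdvd hn
    subst this
    simp [hS0]
  · exact map_zero φ

theorem coeff_map_exO_self (S : PowerSeries ℤ) (hS1 : S.coeff 1 = 1) :
    ((exO p S).map φ).coeff p = 1 := by
  have hp := (Fact.out : p.Prime)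
  rw [coeff_map, coeff_exO, if_pos (dvd_refl p), Nat.div_self hp.pos, hS1]
  simp

/-- lift of the expansion at infinity of `F = p^κ G^κ - (-1)^κ a₀^κ E` -/
noncomputable def FO (κ : ℕ) (a : ℕ → ℤ) (Es : PowerSeries ℤ) : PowerSeries Obar :=
  C (((p : ℤ) : Obar) ^ κ) * (exO p (PowerSeries.mk a)) ^ κ -
    C (((-1 : ℤ) : Obar) ^ κ * ((a 0 : ℤ) : Obar) ^ κ) * exO p Es

/-- lift of the expansion of the conjugate `F | S T^j` -/
noncomputable def PhiO (κ : ℕ) (a : ℕ → ℤ) (Es : PowerSeries ℤ) (j : ℕ) : PowerSeries Obar :=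
  C (((-1 : ℤ) : Obar) ^ κ) *
    ((conjO p a j) ^ κ - C (((a 0 : ℤ) : Obar) ^ κ) * exO p Es)

theorem map_FO (h0 : φ ((r : ℕ) : Obar) = 0) (κ : ℕ) (a : ℕ → ℤ)
    (hn : ∀ n, 1 ≤ n → (r : ℤ) ∣ a n) (c : ℤ) (S : PowerSeries ℤ) (hS0 : S.coeff 0 = 0) :
    (FO p κ a (1 + C c * S)).map φ =
      C (φ (((a 0 ^ κ * ((p : ℤ) ^ κ - (-1) ^ κ) : ℤ) : Obar))) -
        C (φ ((((-1) ^ κ * a 0 ^ κ * c : ℤ) : Obar))) * (exO p S).map φ := by
  have h1 := map_exO_of_dvd p φ h0 a hn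
  have h2 := map_exO_eis p φ c S hS0
  simp only [FO, map_sub, map_mul, map_pow, h1, h2, PowerSeries.map_C, Int.cast_mul,
    Int.cast_pow, Int.cast_sub, Int.cast_neg, Int.cast_one, Int.cast_natCast, map_neg, map_one]
  ring

theorem map_PhiO (h0 : φ ((r : ℕ) : Obar) = 0) (κ : ℕ) (a : ℕ → ℤ)
    (hn : ∀ n, 1 ≤ n → (r : ℤ) ∣ a n) (c : ℤ) (S : PowerSeries ℤ) (hS0 : S.coeff 0 = 0)
    (j : ℕ) :
    (PhiO p κ a (1 + C c * S) j).map φ =
      C (φ (((0 : ℤ) : Obar))) -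
        C (φ ((((-1) ^ κ * a 0 ^ κ * c : ℤ) : Obar))) * (exO p S).map φ := by
  have h1 := map_conjO_of_dvd p φ h0 a hn j
  have h2 := map_exO_eis p φ c S hS0
  simp only [PhiO, map_sub, map_mul, map_pow, h1, h2, PowerSeries.map_C, Int.cast_mul,
    Int.cast_pow, Int.cast_neg, Int.cast_one, map_neg, map_one, Int.cast_zero, map_zero]
  ring

/-- coefficients of `C α - C β * T` -/
theorem coeff_red_zero (S : PowerSeries ℤ) (hS0 : S.coeff 0 = 0) (α β : k) :
    (C α - C β * (exO p S).map φ).coeff 0 = α := by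
  have hp := (Fact.out : p.Prime)
  rw [map_sub, coeff_C_mul, coeff_map_exO_lt p φ S hS0 hp.pos]
  simp

theorem coeff_red_lt (S : PowerSeries ℤ) (hS0 : S.coeff 0 = 0) (α β : k) {n : ℕ} (hn0 : n ≠ 0)
    (hn : n < p) : (C α - C β * (exO p S).map φ).coeff n = 0 := by
  rw [map_sub, coeff_C_mul, coeff_map_exO_lt p φ S hS0 hn, coeff_C, if_neg hn0]
  simp

theorem coeff_red_self (S : PowerSeries ℤ) (hS1 : S.coeff 1 = 1) (α β : k) :
    (C α - C β * (exO p S).map φ).coeff p = -β := by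
  have hp := (Fact.out : p.Prime)
  rw [map_sub, coeff_C_mul, coeff_map_exO_self p φ S hS1, coeff_C, if_neg hp.ne_zero]
  simp

end lifts


/-! ### the lifts are lifts -/

section analytic

open PowerSeries

variable (p : ℕ) [Fact p.Prime]

theorem map_FO_subtype (κ : ℕ) {G E : ℍ → ℂ} (hG : Nice 1 G) (hE : Nice 1 E) (a : ℕ → ℤ)
    (ha : ∀ n, (qExpansion 1 G).coeff n = (a n : ℂ)) (Es : PowerSeries ℤ)
    (hEs : qExpansion 1 E = Es.map (Int.castRingHom ℂ)) :
    (FO p κ a Es).map Obar.subtype = qExpansion (p : ℝ) (auxF p κ (a 0) G E) := by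
  have hp := (Fact.out : p.Prime)
  have hGs : qExpansion 1 G = (PowerSeries.mk a).map (Int.castRingHom ℂ) := by
    ext n
    rw [ha]
    simp
  rw [qExpansion_auxF (a 0) (nice_width hG hp.pos) (nice_width hE hp.pos) hp.pos,
    ← map_exO p hG _ hGs, ← map_exO p hE _ hEs]
  simp only [FO, map_sub, map_mul, map_pow, PowerSeries.map_C]
  simp

theorem map_PhiO_subtype [NeZero p] (κ : ℕ) {G E : ℍ → ℂ} (hG : IsMF p 2 G)
    (hE : IsMF1 ((κ : ℤ) * 2) E) (a : ℕ → ℤ)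
    (ha : ∀ n, (qExpansion 1 G).coeff n = (a n : ℂ)) (Es : PowerSeries ℤ)
    (hEs : qExpansion 1 E = Es.map (Int.castRingHom ℂ)) (j : ℕ) :
    (PhiO p κ a Es j).map Obar.subtype =
      qExpansion (p : ℝ)
        ((auxF p κ (a 0) G E) ∣[(κ : ℤ) * 2] (ModularGroup.S * ModularGroup.T ^ (j : ℤ))) := by
  have hp := (Fact.out : p.Prime)
  have hH : Nice 1 (heckeU 2 p G) := Fermat.Agent.S28_HD.nice_of_isMF (isMF_heckeU hG)
  have hEn : Nice 1 E := Fermat.Agent.S28_EINT.nice_of_isMF1 hE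
  have hHc : ∀ m, (qExpansion 1 (heckeU 2 p G)).coeff m = ((a (m * p) : ℤ) : ℂ) := by
    intro m
    rw [Fermat.Agent.S16_helper16_TB.qExpansion_heckeU hG,
      Fermat.Agent.S16_helper16_TB.coeff_upSerC, ha, mul_comm]
  have hT : Nice (p : ℝ) (tri 1 p j (heckeU 2 p G)) :=
    Fermat.Agent.S28_SUBST.nice_tri hH one_pos hp.pos hp.pos (dvd_refl p) j
  rw [auxF_slash_ST κ (a 0) hG hE j,
    qExpansion_conjF (a 0) hT (nice_width hEn hp.pos) hp.pos,
    ← map_conjO p hH a hHc j, ← map_exO p hEn _ hEs]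
  simp only [PhiO, map_sub, map_mul, map_pow, PowerSeries.map_C]
  simp

end analytic

/-! ### reduction modulo `r` and the hypotheses of the norm-order criterion -/

section bridge

open PowerSeries Fermat.Agent.S16_helper23_NORMORD

/-- reduction modulo `r` on the algebraic integers -/
noncomputable def redR (r : ℕ) : Obar →+* (Obar ⧸ Ideal.span {((r : ℕ) : Obar)}) :=
  Ideal.Quotient.mk _

theorem redR_self (r : ℕ) : redR r ((r : ℕ) : Obar) = 0 :=
  Ideal.Quotient.eq_zero_iff_mem.mpr (Ideal.subset_span rfl)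

theorem Obar_le (r : ℕ) : Obar ≤ rLocSubring r := fun _ hx => isIntegral_mem_rLocSubring r hx

theorem inROf_of_redR_eq {r : ℕ} {x y : Obar} (h : redR r x = redR r y) :
    InROf (rLocSubring r) (r : ℂ) ((x : ℂ) - (y : ℂ)) := by
  have h1 : x - y ∈ Ideal.span {((r : ℕ) : Obar)} := Ideal.Quotient.eq.mp h
  obtain ⟨c, hc⟩ := Ideal.mem_span_singleton'.mp h1
  refine ⟨(c : ℂ), Obar_le r c.2, ?_⟩
  have h2 : (c : ℂ) * (r : ℂ) = (x : ℂ) - (y : ℂ) := by
    have := congrArg (fun z : Obar => (z : ℂ)) hc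
    simpa using this
  rw [← h2]
  ring

theorem inROf_of_redR_eq_zero {r : ℕ} {x : Obar} (h : redR r x = 0) :
    InROf (rLocSubring r) (r : ℂ) (x : ℂ) := by
  have := inROf_of_redR_eq (r := r) (x := x) (y := 0) (by rw [h, map_zero])
  simpa using this

theorem intCast_unit {r : ℕ} (hr : r.Prime) {v : ℤ} (hv : ¬ (r : ℤ) ∣ v) :
    (v : ℂ) ∈ rLocSubring r ∧ ((v : ℂ))⁻¹ ∈ rLocSubring r ∧ (v : ℂ) ≠ 0 := by
  have hv0 : v ≠ 0 := by
    rintro rfl
    exact hv (dvd_zero _)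
  have hcop : Nat.Coprime v.natAbs r := by
    rw [Nat.coprime_comm, Nat.Prime.coprime_iff_not_dvd hr]
    intro hd
    exact hv (Int.natCast_dvd.mpr hd)
  have h1 := natCast_inv_mem_rLocSubring hcop
  refine ⟨intCast_mem _ v, ?_, by exact_mod_cast hv0⟩
  rcases Int.natAbs_eq v with h | h
  · have : (v : ℂ) = (v.natAbs : ℂ) := by
      have := congrArg (Int.cast : ℤ → ℂ) h
      rwa [Int.cast_natCast] at this
    rw [this]
    exact h1
  · have : (v : ℂ) = -(v.natAbs : ℂ) := by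
      have := congrArg (Int.cast : ℤ → ℂ) h
      rwa [Int.cast_neg, Int.cast_natCast] at this
    rw [this, inv_neg]
    exact neg_mem h1

variable (p : ℕ) [Fact p.Prime]

/-- the data needed by the norm-order criterion, for a series with reduction `α - β S(x^p)` -/
theorem red_data {r : ℕ} (hr : r.Prime) (X : PowerSeries Obar) (α β : ℤ) (S : PowerSeries ℤ)
    (hS0 : S.coeff 0 = 0) (hS1 : S.coeff 1 = 1) (hβ : ¬ (r : ℤ) ∣ β)
    (hX : X.map (redR r) =
      C (redR r ((α : ℤ) : Obar)) - C (redR r ((β : ℤ) : Obar)) * (exO p S).map (redR r))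
    (m : ℕ) (hm : m = if (r : ℤ) ∣ α then p else 0) :
    (∀ n, (X.map Obar.subtype).coeff n ∈ rLocSubring r) ∧
    (∀ n, n < m → InROf (rLocSubring r) (r : ℂ) ((X.map Obar.subtype).coeff n)) ∧
    ∃ u ∈ rLocSubring r, u⁻¹ ∈ rLocSubring r ∧ u ≠ 0 ∧
      InROf (rLocSubring r) (r : ℂ) ((X.map Obar.subtype).coeff m - u) := by
  have hp := (Fact.out : p.Prime)
  have hc : ∀ n, (X.map Obar.subtype).coeff n = ((X.coeff n : Obar) : ℂ) := fun n => by
    rw [coeff_map]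
    rfl
  have hred : ∀ n, redR r (X.coeff n) =
      (C (redR r ((α : ℤ) : Obar)) -
        C (redR r ((β : ℤ) : Obar)) * (exO p S).map (redR r)).coeff n := fun n => by
    rw [← hX, coeff_map]
  refine ⟨fun n => ?_, ?_, ?_⟩
  · rw [hc]
    exact Obar_le r (X.coeff n).2
  · intro n hn
    by_cases hdvd : (r : ℤ) ∣ α
    · rw [hm, if_pos hdvd] at hn
      rw [hc]
      apply inROf_of_redR_eq_zero
      rw [hred]
      by_cases hn0 : n = 0
      · subst hn0
        rw [coeff_red_zero p (redR r) S hS0]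
        exact map_intCast_eq_zero (redR r) (redR_self r) hdvd
      · exact coeff_red_lt p (redR r) S hS0 _ _ hn0 hn
    · rw [hm, if_neg hdvd] at hn
      exact absurd hn (Nat.not_lt_zero n)
  · by_cases hdvd : (r : ℤ) ∣ α
    · obtain ⟨h1, h2, h3⟩ := intCast_unit hr (v := -β) (by rwa [dvd_neg])
      refine ⟨((-β : ℤ) : ℂ), h1, h2, h3, ?_⟩
      rw [hm, if_pos hdvd, hc]
      have := inROf_of_redR_eq (r := r) (x := X.coeff p) (y := ((-β : ℤ) : Obar)) (by
        rw [hred, coeff_red_self p (redR r) S hS1]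
        simp)
      simpa using this
    · obtain ⟨h1, h2, h3⟩ := intCast_unit hr (v := α) hdvd
      refine ⟨((α : ℤ) : ℂ), h1, h2, h3, ?_⟩
      rw [hm, if_neg hdvd, hc]
      have := inROf_of_redR_eq (r := r) (x := X.coeff 0) (y := ((α : ℤ) : Obar)) (by
        rw [hred, coeff_red_zero p (redR r) S hS0])
      simpa using this

end bridge

/-! ### the main argument -/

section main

open PowerSeries Fermat.Agent.S16_helper23_NORMORD

theorem card_Q_eq (p : ℕ) [Fact p.Prime] [NeZero p] : Fintype.card (Q p) = p + 1 := by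
  rw [← Fintype.card_of_bijective (rep_bijective p), Fintype.card_option, Fintype.card_fin]

/-- **Core of NC-big**, for an auxiliary level one form `E = 1 + c S`, `S = q + ⋯`, of weight
`2κ ≤ 6` with `r ∤ c`. -/
theorem NC_core (p : ℕ) [Fact p.Prime] (r : ℕ) (hr : r.Prime) (κ : ℕ) (hκ : κ ≤ 3)
    (E : ℍ → ℂ) (hE : IsMF1 ((κ : ℤ) * 2) E) (c : ℤ) (S : PowerSeries ℤ)
    (hEs : qExpansion 1 E = (1 + C c * S).map (Int.castRingHom ℂ)) (hS0 : S.coeff 0 = 0)
    (hS1 : S.coeff 1 = 1) (hc : ¬ (r : ℤ) ∣ c)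
    (G : ModularForm (Gamma0 p) 2) (a : ℕ → ℤ) (ha : ∀ n, (qExpansion 1 G).coeff n = (a n : ℂ))
    (h0 : ¬ (r : ℤ) ∣ a 0) (hn : ∀ n, 1 ≤ n → (r : ℤ) ∣ a n) : False := by
  classical
  have hp := (Fact.out : p.Prime)
  haveI : NeZero p := ⟨hp.ne_zero⟩
  have hG : IsMF p 2 (⇑G) := ⟨G, rfl⟩
  have hGn : Nice 1 (⇑G) := Fermat.Agent.S28_HD.nice_of_isMF hG
  have hEn : Nice 1 E := Fermat.Agent.S28_EINT.nice_of_isMF1 hE
  have hF : IsMF p ((κ : ℤ) * 2) (auxF p κ (a 0) G E) := isMF_auxF _ hG hE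
  have hrZ : Prime (r : ℤ) := Nat.prime_iff_prime_int.mp hr
  have hB : ¬ (r : ℤ) ∣ (-1) ^ κ * a 0 ^ κ * c := by
    intro h
    rcases hrZ.dvd_or_dvd h with h1 | h1
    · rcases hrZ.dvd_or_dvd h1 with h2 | h2
      · have h3 := hrZ.dvd_of_dvd_pow h2
        rw [dvd_neg] at h3
        exact hrZ.not_dvd_one h3
      · exact h0 (hrZ.dvd_of_dvd_pow h2)
    · exact hc h1
  -- the constant terms
  set A : ℤ := a 0 ^ κ * ((p : ℤ) ^ κ - (-1) ^ κ) with hA
  set B : ℤ := (-1) ^ κ * a 0 ^ κ * c with hBdef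
  let al : Q p → ℤ := fun q => if q = ((1 : SL(2, ℤ)) : Q p) then A else 0
  let m : Q p → ℕ := fun q => if (r : ℤ) ∣ al q then p else 0
  -- lifts of the expansions of the conjugates
  have key : ∀ q : Q p, ∃ X : PowerSeries Obar,
      X.map Obar.subtype = qExpansion (p : ℝ) (cj p ((κ : ℤ) * 2) (auxF p κ (a 0) G E) q) ∧
      X.map (redR r) = C (redR r ((al q : ℤ) : Obar)) -
        C (redR r ((B : ℤ) : Obar)) * (exO p S).map (redR r) := by
    intro q
    by_cases hq : q = ((1 : SL(2, ℤ)) : Q p)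
    · subst hq
      refine ⟨FO p κ a (1 + C c * S), ?_, ?_⟩
      · rw [cj_one hF]
        exact map_FO_subtype p κ hGn hEn a ha _ hEs
      · have hal : al ((1 : SL(2, ℤ)) : Q p) = A := if_pos rfl
        rw [hal]
        exact map_FO p (redR r) (redR_self r) κ a hn c S hS0
    · obtain ⟨o, rfl⟩ := (rep_bijective p).2 q
      cases o with
      | none => exact absurd rfl hq
      | some j =>
        refine ⟨PhiO p κ a (1 + C c * S) (j : ℕ), ?_, ?_⟩
        · have hcj : cj p ((κ : ℤ) * 2) (auxF p κ (a 0) G E)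
              ((rep p (some j) : SL(2, ℤ)) : Q p) =
              (auxF p κ (a 0) G E) ∣[(κ : ℤ) * 2]
                (ModularGroup.S * ModularGroup.T ^ (((j : ℕ)) : ℤ)) := by
            rw [cj_eq hF]
            simp only [rep, inv_inv]
          show _ = qExpansion (p : ℝ) (cj p ((κ : ℤ) * 2) (auxF p κ (a 0) G E)
              ((rep p (some j) : SL(2, ℤ)) : Q p))
          rw [hcj]
          exact map_PhiO_subtype p κ hG hE a ha _ hEs j
        · have hal : al ((rep p (some j) : SL(2, ℤ)) : Q p) = 0 := if_neg hq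
          show _ = C (redR r ((al ((rep p (some j) : SL(2, ℤ)) : Q p) : ℤ) : Obar)) - _
          rw [hal]
          exact map_PhiO p (redR r) (redR_self r) κ a hn c S hS0 j
  choose X hX1 hX2 using key
  have hdata := fun q => red_data p hr (X q) (al q) B S hS0 hS1 hB (hX2 q) (m q) rfl
  have hO : (r : ℂ) ∈ rLocSubring r := natCast_mem _ r
  have hineq := norm_order hF (rLocSubring r) (r : ℂ) hO (inv_notMem_rLocSubring hr)
    (fun _ => 1) (fun _ => one_ne_zero) m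
    (fun q n => by rw [one_mul, ← hX1 q]; exact (hdata q).1 n)
    (fun q n hn' => by rw [one_mul, ← hX1 q]; exact (hdata q).2.1 n hn')
    (fun q => by
      obtain ⟨u, h1, h2, h3, h4⟩ := (hdata q).2.2
      exact ⟨u, h1, h2, h3, by rw [one_mul, ← hX1 q]; exact h4⟩)
  -- the sum of the orders
  have hsum : (p : ℤ) * p ≤ ∑ q, (m q : ℤ) := by
    rw [sum_Q_eq p (fun q => (m q : ℤ))]
    have h1 : ∀ j ∈ Finset.range p,
        ((m (((ModularGroup.S * ModularGroup.T ^ (j : ℤ))⁻¹ : SL(2, ℤ)) : Q p) : ℕ) : ℤ) =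
          (p : ℤ) := by
      intro j hj
      have hne : (((ModularGroup.S * ModularGroup.T ^ (j : ℤ))⁻¹ : SL(2, ℤ)) : Q p) ≠
          ((1 : SL(2, ℤ)) : Q p) := by
        intro h
        have := (rep_bijective p).1 (a₁ := some ⟨j, Finset.mem_range.mp hj⟩) (a₂ := none) h
        exact Option.some_ne_none _ this
      simp only [m, al, if_neg hne, dvd_zero, if_true]
    rw [Finset.sum_congr rfl h1]
    simp only [Finset.sum_const, Finset.card_range, nsmul_eq_mul]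
    have : (0 : ℤ) ≤ (m ((1 : SL(2, ℤ)) : Q p) : ℤ) := Nat.cast_nonneg _
    linarith
  rw [card_Q_eq p] at hineq
  -- numerical contradiction
  have hp2 : (2 : ℤ) ≤ p := by exact_mod_cast hp.two_le
  have hκ' : (κ : ℤ) ≤ 3 := by exact_mod_cast hκ
  push_cast at hineq
  have h1 : (0 : ℤ) ≤ (3 - (κ : ℤ)) * ((p : ℤ) * ((p : ℤ) + 1)) :=
    mul_nonneg (sub_nonneg.mpr hκ') (by positivity)
  nlinarith [h1, hsum, hineq, mul_le_mul_of_nonneg_right hp2 (by positivity : (0 : ℤ) ≤ (p : ℤ))]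

end main

/-! ### the two instances: `E₄` for `r ≥ 7`, `E₆` for `r = 5` -/

section instances

open PowerSeries Fermat.Agent.S16_helper18_TRALG Fermat.Agent.S16_helper28_TE
  Fermat.Agent.S16_helper4_UBGLUE

theorem not_dvd_240 {r : ℕ} (hr : r.Prime) (hr7 : 7 ≤ r) : ¬ (r : ℤ) ∣ 240 := by
  intro h
  have h1 : r ∣ 240 := by exact_mod_cast h
  have h2 : r ∣ 2 ^ 4 * 3 * 5 := by
    have e : 2 ^ 4 * 3 * 5 = 240 := by norm_num
    rw [e]
    exact h1
  rcases (Nat.Prime.dvd_mul hr).mp h2 with h3 | h3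
  · rcases (Nat.Prime.dvd_mul hr).mp h3 with h4 | h4
    · have := Nat.le_of_dvd (by norm_num) (hr.dvd_of_dvd_pow h4)
      omega
    · have := Nat.le_of_dvd (by norm_num) h4
      omega
  · have := Nat.le_of_dvd (by norm_num) h3
    omega

/-- **NC-big**: for a prime `r ≥ 5` (equal to `p` or not) there is no weight two form on `Γ₀(p)`
with integral `q`-expansion whose constant term is prime to `r` and whose higher coefficients are
all divisible by `r`. -/
theorem NC_big (p : ℕ) [Fact p.Prime] (r : ℕ) (hr : r.Prime) (hr5 : 5 ≤ r)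
    (G : ModularForm (Gamma0 p) 2) (a : ℕ → ℤ) (ha : ∀ n, (qExpansion 1 G).coeff n = (a n : ℂ))
    (h0 : ¬ (r : ℤ) ∣ a 0) (hn : ∀ n, 1 ≤ n → (r : ℤ) ∣ a n) : False := by
  by_cases h5 : r = 5
  · subst h5
    have hw : (((3 : ℕ) : ℤ)) * 2 = 6 := by norm_num
    refine NC_core p 5 hr 3 le_rfl (⇑E₆) (by rw [hw]; exact isMF1_E₆) (-504) s5Ser ?_ ?_ ?_ ?_
      G a ha h0 hn
    · rw [qExpansion_E6, e6Ser_eq]
      congr 1
      rw [sub_eq_add_neg, map_neg, neg_mul]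
    · rw [coeff_s5Ser, if_pos rfl]
    · rw [coeff_s5Ser, if_neg one_ne_zero]
      simp
    · norm_num
  · have hr7 : 7 ≤ r := by
      rcases Nat.lt_or_ge r 7 with h | h
      · exfalso
        have h6 : r = 6 := by omega
        subst h6
        exact absurd hr (by norm_num)
      · exact h
    have hw : (((2 : ℕ) : ℤ)) * 2 = 4 := by norm_num
    refine NC_core p r hr 2 (by norm_num) (⇑E₄) (by rw [hw]; exact isMF1_E₄) 240 s3Ser
      ?_ ?_ ?_ ?_ G a ha h0 hn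
    · rw [qExpansion_E4', e4Ser_eq]
    · rw [coeff_s3Ser, if_pos rfl]
    · rw [coeff_s3Ser, if_neg one_ne_zero]
      simp
    · exact not_dvd_240 hr hr7

/-- NC-big in the shape of `NoCong` (for every prime `r ≥ 5`, including `r = p`). -/
theorem NC_big_noCong (p : ℕ) [Fact p.Prime] (r : ℕ) (hr : r.Prime) (hr5 : 5 ≤ r) :
    NoCong p r 1 := fun G a ha h0 hn =>
  NC_big p r hr hr5 G a ha h0 fun n h => by simpa using hn n h

/-- exactly the hypothesis `hbig` of `ub_glue_ge` (any threshold `P0`). -/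
theorem hbig (P0 : ℕ) (p : ℕ) [Fact p.Prime] :
    ∀ r, r.Prime → 5 ≤ r → r ≠ p → P0 ≤ p → NoCong p r 1 :=
  fun r hr hr5 _ _ => NC_big_noCong p r hr hr5

/-- also the hypothesis `hpp` of `ub_glue_ge` for every threshold `P0 ≥ 5`. -/
theorem hpp (P0 : ℕ) (hP0 : 5 ≤ P0) (p : ℕ) [Fact p.Prime] : P0 ≤ p → NoCong p p 1 :=
  fun h => NC_big_noCong p p (Fact.out : p.Prime) (le_trans hP0 h)

end instances

end Fermat.Agent.S16_helper21_NCBIG
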