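import Fermat.Agent.S16_helper2_NS
import Fermat.Agent.S16_helper16_TB
import Fermat.Agent.S16_helper4_UBGLUE
import Fermat.Agent.S16_helper14_CONJ
import Fermat.Agent.S16_helper24_CONJB
import Fermat.Agent.S16_helper28_TE

/-!
# S16, upper bound: the no-congruence lemmas at `3`

* `noCong_3a`: `p ≡ 1 mod 3`: no `G ∈ M₂(Γ₀(p))` with integer `q`-expansion, `3 ∤ a₀`,
  `3 ∣ aₙ` (`n ≥ 1`)  (weight-4 trace identity, helper18 + helper16);
* `noCong_3b`: `p ≡ 2 mod 3`: no such `G` with `9 ∣ aₙ` (`n ≥ 1`): for `p ≡ 2, 5 mod 9` by the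
  trace identity, for `p ≡ 8 mod 9` by the norm–Sturm criterion applied to
  `F = (G² - a₀² E₄)/3` (weight `4`), all of whose `p + 1` conjugates are
  `≡ -80 a₀² q + ... mod 3`.
-/

set_option autoImplicit false

open UpperHalfPlane ModularForm CongruenceSubgroup
open Fermat.Agent.S20 Fermat.Agent.S28_helper14_Defs Fermat.Agent.S28_helper14_ADefs
open Fermat.Agent.S28_LEVEL1 Fermat.Agent.S16_helper2_STURM Fermat.Agent.S28_NINT
open Fermat.Agent.S16_helper2_NS Fermat.Agent.S16_helper24_CONJ Fermat.Agent.S16_helper18_TRALG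

namespace Fermat.Agent.S16_helper2_NC3


/-- **NC-3a**: for a prime `p ≡ 1 mod 3` no weight-2 form on `Γ₀(p)` with integer `q`-expansion
is congruent modulo `3` to a constant prime to `3`. -/
theorem NC3a (p : ℕ) [Fact p.Prime] (hp3 : p % 3 = 1) (G : ModularForm (Gamma0 p) 2)
    (a : ℕ → ℤ) (ha : ∀ n, (qExpansion 1 G).coeff n = (a n : ℂ)) (h0 : ¬ (3 : ℤ) ∣ a 0)
    (h3 : ∀ n, 1 ≤ n → (3 : ℤ) ∣ a n) : False := by
  refine S16_helper18_TRALG.nc3a_alg (Fact.out : p.Prime) hp3 h0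
    (S16_helper16_TB.trace_data p G a ha) (fun n hn1 => ?_)
  simpa using h3 n hn1

/-- **NC-3b**, trace case: `p ≡ 2, 5 mod 9`. -/
theorem NC3b_trace (p : ℕ) [Fact p.Prime] (hp9 : p % 9 = 2 ∨ p % 9 = 5)
    (G : ModularForm (Gamma0 p) 2)
    (a : ℕ → ℤ) (ha : ∀ n, (qExpansion 1 G).coeff n = (a n : ℂ)) (h0 : ¬ (3 : ℤ) ∣ a 0)
    (h9 : ∀ n, 1 ≤ n → (9 : ℤ) ∣ a n) : False := by
  refine S16_helper18_TRALG.nc3b_alg (Fact.out : p.Prime) hp9 h0
    (S16_helper16_TB.trace_data p G a ha) (fun n hn1 => ?_)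
  simpa using h9 n hn1

theorem noCong_3a (p : ℕ) [Fact p.Prime] (hp3 : p % 3 = 1) : S16_helper4_UBGLUE.NoCong p 3 1 := by
  intro G a ha h0 hn
  refine NC3a p hp3 G a ha (by simpa using h0) (fun n hn1 => ?_)
  have := hn n hn1
  simpa using this



open PowerSeries

/-- `P = κ + r W + c S(x^n)` with `κ ∈ r O`, `S = x + ...`: then `P ≡ c x^n + ... mod r O`. -/
theorem lowAt_of_decomp {O : Subring ℂ} {r : ℂ} (hr : r ∈ O) {n : ℕ} (hn : 1 ≤ n) {κ c : ℂ}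
    (hκ : RD O r κ) (hc : c ∈ O) {W S P : PowerSeries ℂ} (hW : W ∈ coeffSubring O)
    (hS : S ∈ coeffSubring O) (hS0 : coeff 0 S = 0) (hS1 : coeff 1 S = 1)
    (hP : P = C κ + C r * W + C c * infSer n S) : LowAt O r P n c := by
  have key : ∀ m, coeff m P = (if m = 0 then κ else 0) + r * coeff m W +
      c * (if n ∣ m then coeff (m / n) S else 0) := by
    intro m
    rw [hP, map_add, map_add, coeff_C, coeff_C_mul, coeff_C_mul, coeff_infSer]
  refine ⟨fun m => ?_, fun m hm => ?_, ?_⟩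
  · rw [key]
    refine O.add_mem (O.add_mem ?_ (O.mul_mem hr (hW m))) (O.mul_mem hc ?_)
    · split_ifs
      · exact RD_mem hr hκ
      · exact O.zero_mem
    · split_ifs
      · exact hS _
      · exact O.zero_mem
  · rw [key]
    refine RD_add (RD_add ?_ (RD_self_mul r (hW m))) ?_
    · split_ifs
      · exact hκ
      · exact RD_zero O r
    · by_cases hd : n ∣ m
      · have hm0 : m = 0 := Nat.eq_zero_of_dvd_of_lt hd hm
        subst hm0
        rw [if_pos hd, Nat.zero_div, hS0, mul_zero]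
        exact RD_zero O r
      · rw [if_neg hd, mul_zero]
        exact RD_zero O r
  · rw [key, if_neg (by omega : ¬ n = 0), if_pos (dvd_refl n), Nat.div_self (by omega), hS1]
    have : (0 : ℂ) + r * coeff n W + c * 1 - c = r * coeff n W := by ring
    rw [this]
    exact RD_self_mul r (hW n)

theorem infSer_one (S : PowerSeries ℂ) : infSer 1 S = S := by
  ext m
  rw [coeff_infSer, if_pos (one_dvd m), Nat.div_one]

/-- `ζ_p` is integral -/
theorem zetaP_mem (p : ℕ) (hp : 0 < p) : zetaP p ∈ nIntSubring p := by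
  apply isNInt_of_isIntegral
  apply IsIntegral.of_pow hp
  have : zetaP p ^ p = 1 := by
    unfold zetaP
    rw [← Complex.exp_nat_mul]
    have hp0 : (p : ℂ) ≠ 0 := by exact_mod_cast hp.ne'
    have : (p : ℂ) * (2 * (Real.pi : ℂ) * Complex.I / (p : ℂ)) = 2 * Real.pi * Complex.I := by
      field_simp
    rw [this, Complex.exp_two_pi_mul_I]
  rw [this]
  exact isIntegral_one

theorem inv_natCast_mem (p : ℕ) (hp : p ≠ 0) : ((p : ℂ))⁻¹ ∈ nIntSubring p :=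
  isNInt_inv_of_dvd hp (dvd_refl p)


theorem C_mem_coeffSubring {O : Subring ℂ} {x : ℂ} (hx : x ∈ O) : C x ∈ coeffSubring O := by
  intro n
  rw [coeff_C]
  split_ifs
  · exact hx
  · exact O.zero_mem

section core

variable (a : ℕ → ℤ)

/-- the complex series `∑ aₙ qⁿ` -/
noncomputable def sC : PowerSeries ℂ := (PowerSeries.mk a).map (Int.castRingHom ℂ)

/-- the tail `∑_{n ≥ 1} (aₙ / 9) qⁿ` as a complex series -/
noncomputable def gC : PowerSeries ℂ := (tailDiv 9 (PowerSeries.mk a)).map (Int.castRingHom ℂ)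

/-- `∑ σ₃(n) qⁿ` as a complex series -/
noncomputable def s3C : PowerSeries ℂ := s3Ser.map (Int.castRingHom ℂ)

/-- `E₄` as a complex series -/
noncomputable def e4C : PowerSeries ℂ := e4Ser.map (Int.castRingHom ℂ)

theorem e4C_eq : e4C = 1 + C 240 * s3C := by
  unfold e4C s3C
  rw [e4Ser_eq, map_add, map_mul, map_one, PowerSeries.map_C]
  simp

theorem coeff_s3C_zero : coeff 0 s3C = 0 := by
  unfold s3C
  rw [PowerSeries.coeff_map, coeff_s3Ser]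
  simp

theorem coeff_s3C_one : coeff 1 s3C = 1 := by
  unfold s3C
  rw [PowerSeries.coeff_map, coeff_s3Ser, if_neg one_ne_zero, sigma_three_one]
  simp

theorem s3C_mem (O : Subring ℂ) : s3C ∈ coeffSubring O := map_int_mem_coeffSubring O _

theorem gC_mem (O : Subring ℂ) : gC a ∈ coeffSubring O := map_int_mem_coeffSubring O _

theorem coeff_gC_zero : coeff 0 (gC a) = 0 := by
  unfold gC
  rw [PowerSeries.coeff_map, coeff_tailDiv]
  simp

variable {a}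

theorem sC_eq (h9 : ∀ n, 1 ≤ n → (9 : ℤ) ∣ a n) : sC a = C (a 0 : ℂ) + C 9 * gC a := by
  unfold sC gC
  have h := eq_C_add_tailDiv (M := 9) (u := a 0) (A := PowerSeries.mk a) (by simp)
    (fun n hn => by simpa using h9 n hn)
  conv_lhs => rw [h]
  rw [map_add, map_mul, PowerSeries.map_C, PowerSeries.map_C]
  simp

/-- the expansion at infinity of `(G² - a₀² E₄)/3` -/
theorem lowAt_inf (O : Subring ℂ) (h3 : (3 : ℂ) ∈ O) (h9 : ∀ n, 1 ≤ n → (9 : ℤ) ∣ a n) :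
    LowAt O 3 (C ((3 : ℂ)⁻¹) * (sC a * sC a - C ((a 0 : ℂ) ^ 2) * e4C)) 1
      ((-80 * a 0 ^ 2 : ℤ) : ℂ) := by
  refine lowAt_of_decomp (κ := 0) (W := C (2 * (a 0 : ℂ)) * gC a + C 9 * (gC a * gC a))
    (S := s3C) h3 le_rfl (RD_zero O 3) (intCast_mem O _) ?_ (s3C_mem O) coeff_s3C_zero
    coeff_s3C_one ?_
  · exact (coeffSubring O).add_mem
      ((coeffSubring O).mul_mem (C_mem_coeffSubring (O.mul_mem (ofNat_mem O 2) (intCast_mem O _)))
        (gC_mem a O))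
      ((coeffSubring O).mul_mem (C_mem_coeffSubring (ofNat_mem O 9))
        ((coeffSubring O).mul_mem (gC_mem a O) (gC_mem a O)))
  · rw [infSer_one, sC_eq h9, e4C_eq]
    have hT : C ((3 : ℂ)⁻¹) * 3 = 1 := by
      rw [← map_ofNat (C (R := ℂ)) 3, ← map_mul]
      simp
    have e1 : C ((a 0 : ℂ) ^ 2) = (C (a 0 : ℂ)) ^ 2 := map_pow _ _ _
    have e2 : C (2 * (a 0 : ℂ)) = 2 * C (a 0 : ℂ) := by rw [map_mul, map_ofNat]
    have e3 : C (((-80 * a 0 ^ 2 : ℤ)) : ℂ) = -80 * (C (a 0 : ℂ)) ^ 2 := by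
      push_cast
      rw [map_mul, map_neg, map_pow, map_ofNat]
    have e4 : (C (9 : ℂ) : PowerSeries ℂ) = 9 := map_ofNat _ 9
    have e5 : (C (240 : ℂ) : PowerSeries ℂ) = 240 := map_ofNat _ 240
    have e6 : (C (3 : ℂ) : PowerSeries ℂ) = 3 := map_ofNat _ 3
    rw [e1, e2, e3, e4, e5, e6, map_zero]
    linear_combination (6 * C (a 0 : ℂ) * gC a + 27 * (gC a * gC a) -
      80 * C (a 0 : ℂ) ^ 2 * s3C) * hT

/-- the series `h_j = ∑ g_{pm} ζ^{jm} x^m` -/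
noncomputable def hC (p : ℕ) (a : ℕ → ℤ) (j : ℕ) : PowerSeries ℂ :=
  PowerSeries.mk fun m => coeff (p * m) (gC a) * zetaP p ^ (j * m)

theorem hC_mem (p : ℕ) (hp : 0 < p) (a : ℕ → ℤ) (j : ℕ) :
    hC p a j ∈ coeffSubring (nIntSubring p) := by
  intro m
  unfold hC
  rw [coeff_mk]
  exact (nIntSubring p).mul_mem (gC_mem a _ _) ((nIntSubring p).pow_mem (zetaP_mem p hp) _)

theorem conjSer_eq {p : ℕ} (hp : p ≠ 0) (h9 : ∀ n, 1 ≤ n → (9 : ℤ) ∣ a n) (j : ℕ) :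
    conjSer p (sC a) j = C (-((p : ℂ)⁻¹)) * (C (a 0 : ℂ) + C 9 * hC p a j) := by
  ext m
  rw [coeff_conjSer, sC_eq h9, coeff_C_mul, map_add, map_add, coeff_C_mul, coeff_C_mul, coeff_C,
    coeff_C]
  unfold hC
  rw [coeff_mk]
  rcases Nat.eq_zero_or_pos m with rfl | hm
  · simp
  · rw [if_neg (Nat.mul_ne_zero hp hm.ne'), if_neg hm.ne']
    ring

theorem infSer_e4C {p : ℕ} (hp : p ≠ 0) : infSer p e4C = 1 + C 240 * infSer p s3C := by
  ext m
  rw [coeff_infSer, e4C_eq, map_add (coeff m), coeff_C_mul, coeff_infSer, coeff_one]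
  by_cases hd : p ∣ m
  · rw [if_pos hd, if_pos hd, map_add, coeff_C_mul, coeff_one]
    congr 1
    have : m / p = 0 ↔ m = 0 := by
      constructor
      · intro h
        obtain ⟨t, rfl⟩ := hd
        rw [Nat.mul_div_cancel_left _ (Nat.pos_of_ne_zero hp)] at h
        rw [h, mul_zero]
      · rintro rfl
        simp
    simp only [this]
  · rw [if_neg hd, if_neg hd]
    have : m ≠ 0 := by
      rintro rfl
      exact hd (dvd_zero p)
    simp [this]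

/-- the expansion of the conjugates of `(G² - a₀² E₄)/3`, for `p ≡ -1 mod 9` -/
theorem lowAt_conj {p : ℕ} (hp : p ≠ 0) (hp9 : p % 9 = 8) (h9 : ∀ n, 1 ≤ n → (9 : ℤ) ∣ a n)
    (j : ℕ) :
    LowAt (nIntSubring p) 3
      (C ((3 : ℂ)⁻¹) * (conjSer p (sC a) j * conjSer p (sC a) j -
        C ((a 0 : ℂ) ^ 2) * infSer p e4C)) p ((-80 * a 0 ^ 2 : ℤ) : ℂ) := by
  have hp0 : (p : ℂ) ≠ 0 := by exact_mod_cast hp
  have hpos : 0 < p := Nat.pos_of_ne_zero hp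
  set O := nIntSubring p with hO
  have hpi : ((p : ℂ))⁻¹ ∈ O := inv_natCast_mem p hp
  refine lowAt_of_decomp (κ := (3 : ℂ)⁻¹ * (((p : ℂ)⁻¹) ^ 2 - 1) * (a 0 : ℂ) ^ 2)
    (W := C (((p : ℂ)⁻¹) ^ 2) * (C (2 * (a 0 : ℂ)) * hC p a j + C 9 * (hC p a j * hC p a j)))
    (S := s3C) (ofNat_mem O 3) (by omega) ?_ (intCast_mem O _) ?_ (s3C_mem O) coeff_s3C_zero
    coeff_s3C_one ?_
  · -- κ ∈ 3 O
    obtain ⟨t, ht⟩ : ∃ t : ℕ, p + 1 = 9 * t := ⟨(p + 1) / 9, by omega⟩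
    have htc : (p : ℂ) + 1 = 9 * (t : ℂ) := by exact_mod_cast ht
    refine ⟨(1 - (p : ℂ)) * (t : ℂ) * ((p : ℂ)⁻¹) ^ 2 * (a 0 : ℂ) ^ 2, ?_, ?_⟩
    · exact O.mul_mem (O.mul_mem (O.mul_mem (O.sub_mem O.one_mem (natCast_mem O p))
        (natCast_mem O t)) (O.pow_mem hpi 2)) (O.pow_mem (intCast_mem O _) 2)
    · have h1 : ((p : ℂ)⁻¹) ^ 2 - 1 = ((p : ℂ)⁻¹) ^ 2 * ((1 - (p : ℂ)) * ((p : ℂ) + 1)) := by
        field_simp
        ring
      rw [h1, htc]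
      ring
  · exact (coeffSubring O).mul_mem (C_mem_coeffSubring (O.pow_mem hpi 2))
      ((coeffSubring O).add_mem
        ((coeffSubring O).mul_mem
          (C_mem_coeffSubring (O.mul_mem (ofNat_mem O 2) (intCast_mem O _))) (hC_mem p hpos a j))
        ((coeffSubring O).mul_mem (C_mem_coeffSubring (ofNat_mem O 9))
          ((coeffSubring O).mul_mem (hC_mem p hpos a j) (hC_mem p hpos a j))))
  · rw [conjSer_eq hp h9, infSer_e4C hp]
    have hT : C ((3 : ℂ)⁻¹) * 3 = 1 := by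
      rw [← map_ofNat (C (R := ℂ)) 3, ← map_mul]
      simp
    have e1 : C ((a 0 : ℂ) ^ 2) = (C (a 0 : ℂ)) ^ 2 := map_pow _ _ _
    have e2 : C (2 * (a 0 : ℂ)) = 2 * C (a 0 : ℂ) := by rw [map_mul, map_ofNat]
    have e3 : C (((-80 * a 0 ^ 2 : ℤ)) : ℂ) = -80 * (C (a 0 : ℂ)) ^ 2 := by
      push_cast
      rw [map_mul, map_neg, map_pow, map_ofNat]
    have e4 : (C (9 : ℂ) : PowerSeries ℂ) = 9 := map_ofNat _ 9
    have e5 : (C (240 : ℂ) : PowerSeries ℂ) = 240 := map_ofNat _ 240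
    have e6 : (C (3 : ℂ) : PowerSeries ℂ) = 3 := map_ofNat _ 3
    have e7 : C (-((p : ℂ)⁻¹)) = -C ((p : ℂ)⁻¹) := map_neg _ _
    have e8 : C (((p : ℂ)⁻¹) ^ 2) = (C ((p : ℂ)⁻¹)) ^ 2 := map_pow _ _ _
    have e9 : C ((3 : ℂ)⁻¹ * (((p : ℂ)⁻¹) ^ 2 - 1) * (a 0 : ℂ) ^ 2) =
        C ((3 : ℂ)⁻¹) * ((C ((p : ℂ)⁻¹)) ^ 2 - 1) * (C (a 0 : ℂ)) ^ 2 := by
      rw [map_mul, map_mul, map_sub, map_pow, map_pow, map_one]
    rw [e1, e2, e3, e4, e5, e6, e7, e8, e9]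
    linear_combination (C ((p : ℂ)⁻¹) ^ 2 * (6 * C (a 0 : ℂ) * hC p a j +
      27 * (hC p a j * hC p a j)) - 80 * C (a 0 : ℂ) ^ 2 * infSer p s3C) * hT

end core


/-- **NC-3b**, norm case `p ≡ 8 mod 9`. -/
theorem NC3b_norm (p : ℕ) [Fact p.Prime] (hp9 : p % 9 = 8) (G : ModularForm (Gamma0 p) 2)
    (a : ℕ → ℤ) (ha : ∀ n, (qExpansion 1 G).coeff n = (a n : ℂ)) (h0 : ¬ (3 : ℤ) ∣ a 0)
    (h9 : ∀ n, 1 ≤ n → (9 : ℤ) ∣ a n) : False := by
  have hp : p.Prime := Fact.out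
  have : NeZero p := ⟨hp.ne_zero⟩
  have hp3 : p ≠ 3 := by
    rintro rfl
    omega
  have hG : IsMF p 2 (⇑G) := ⟨G, rfl⟩
  have hs : qExpansion 1 G = sC a := by
    ext n
    rw [ha n]
    simp [sC]
  have hE : qExpansion 1 (⇑E₄ : ℍ → ℂ) = e4C := Fermat.Agent.S16_helper28_TE.qExpansion_E4'
  have hG2 := Fermat.Agent.S16_helper14_CONJ.hasConj_two hG
  have hE4 : HasConj p 4 (⇑E₄ : ℍ → ℂ) (qExpansion 1 (⇑E₄ : ℍ → ℂ))
      (fun _ => infSer p (qExpansion 1 (⇑E₄ : ℍ → ℂ))) := HasConj.of_isMF1 isMF1_E₄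
  have hF := ((((hG2.mul hG2).cast (by norm_num : (2 : ℤ) + 2 = 4)).sub
    (hE4.smul ((a 0 : ℂ) ^ 2))).smul ((3 : ℂ)⁻¹)).cast (by norm_num : (4 : ℤ) = ((4 : ℕ) : ℤ))
  have hc : ¬ (3 : ℤ) ∣ -80 * a 0 ^ 2 := by
    intro hd
    have h3 : Prime (3 : ℤ) := Int.prime_three
    rcases h3.dvd_or_dvd hd with h1 | h1
    · norm_num at h1
    · exact h0 (h3.dvd_of_dvd_pow h1)
  refine norm_sturm_hasConj p 3 Nat.prime_three hp3 4 (by norm_num)
    (hF.congr (s' := C ((3 : ℂ)⁻¹) * (sC a * sC a - C ((a 0 : ℂ) ^ 2) * e4C))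
      (t' := fun j => C ((3 : ℂ)⁻¹) * (conjSer p (sC a) j * conjSer p (sC a) j -
        C ((a 0 : ℂ) ^ 2) * infSer p e4C)) ?_ ?_)
    (-80 * a 0 ^ 2) (-80 * a 0 ^ 2) hc hc ?_ ?_
  · rw [hs, hE, PowerSeries.smul_eq_C_mul, PowerSeries.smul_eq_C_mul]
  · intro j
    show (3 : ℂ)⁻¹ • (conjSer p (qExpansion 1 G) j * conjSer p (qExpansion 1 G) j -
      (a 0 : ℂ) ^ 2 • infSer p (qExpansion 1 (⇑E₄ : ℍ → ℂ))) = _
    rw [hs, hE, PowerSeries.smul_eq_C_mul, PowerSeries.smul_eq_C_mul]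
  · have := lowAt_inf (a := a) (nIntSubring p) (ofNat_mem _ 3) h9
    simpa using this
  · intro j _
    have := lowAt_conj (a := a) hp.ne_zero hp9 h9 j
    simpa using this

/-- **NC-3b**: for a prime `p ≡ 2 mod 3` no weight-2 form on `Γ₀(p)` with integer
`q`-expansion is congruent modulo `9` to a constant prime to `3`. -/
theorem NC3b (p : ℕ) [Fact p.Prime] (hp3 : p % 3 = 2) (G : ModularForm (Gamma0 p) 2)
    (a : ℕ → ℤ) (ha : ∀ n, (qExpansion 1 G).coeff n = (a n : ℂ)) (h0 : ¬ (3 : ℤ) ∣ a 0)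
    (h9 : ∀ n, 1 ≤ n → (9 : ℤ) ∣ a n) : False := by
  have h : p % 9 = 2 ∨ p % 9 = 5 ∨ p % 9 = 8 := by omega
  rcases h with h | h | h
  · exact NC3b_trace p (Or.inl h) G a ha h0 h9
  · exact NC3b_trace p (Or.inr h) G a ha h0 h9
  · exact NC3b_norm p h G a ha h0 h9

/-- **NC-3b** in the `NoCong` shape (`h3b` of `ub_glue`). -/
theorem noCong_3b (p : ℕ) [Fact p.Prime] (hp3 : p % 3 = 2) : S16_helper4_UBGLUE.NoCong p 3 2 := by
  intro G a ha h0 hn
  refine NC3b p hp3 G a ha (by simpa using h0) (fun n hn1 => ?_)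
  have := hn n hn1
  norm_num at this
  exact this

end Fermat.Agent.S16_helper2_NC3
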