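import Mathlib

set_option autoImplicit false

namespace Fermat.Agent.S22

noncomputable section

variable {V : Type*} [AddCommGroup V] [Module ℂ V]

theorem comp_mem_of_mem_adjoin (G : Set (Module.End ℂ V)) (Λ : Submodule ℤ (V →ₗ[ℂ] ℂ))
    (hstab : ∀ T ∈ G, ∀ φ ∈ Λ, φ ∘ₗ T ∈ Λ) {T : Module.End ℂ V}
    (hT : T ∈ Algebra.adjoin ℤ G) : ∀ φ ∈ Λ, φ ∘ₗ T ∈ Λ := by
  induction hT using Algebra.adjoin_induction with
  | mem T hT => exact hstab T hT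
  | algebraMap r =>
    intro φ hφ
    have : φ ∘ₗ (algebraMap ℤ (Module.End ℂ V) r) = r • φ := by
      ext f
      simp
    rw [this]
    exact Λ.smul_mem r hφ
  | add T₁ T₂ _ _ h₁ h₂ =>
    intro φ hφ
    rw [LinearMap.comp_add]
    exact Λ.add_mem (h₁ φ hφ) (h₂ φ hφ)
  | mul T₁ T₂ _ _ h₁ h₂ =>
    intro φ hφ
    have : φ ∘ₗ (T₁ * T₂) = (φ ∘ₗ T₁) ∘ₗ T₂ := rfl
    rw [this]
    exact h₂ _ (h₁ φ hφ)

/-- the transpose action on the lattice -/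
def transposeAct (G : Set (Module.End ℂ V)) (Λ : Submodule ℤ (V →ₗ[ℂ] ℂ))
    (hstab : ∀ T ∈ G, ∀ φ ∈ Λ, φ ∘ₗ T ∈ Λ) :
    ↥(Algebra.adjoin ℤ G) →ₗ[ℤ] (↥Λ →ₗ[ℤ] ↥Λ) where
  toFun T :=
    { toFun := fun φ => ⟨φ.1 ∘ₗ T.1, comp_mem_of_mem_adjoin G Λ hstab T.2 φ.1 φ.2⟩
      map_add' := fun φ ψ => Subtype.ext (by simp [LinearMap.add_comp])
      map_smul' := fun n φ => Subtype.ext (by
        ext f
        simp) }
  map_add' T₁ T₂ := by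
    ext φ f
    simp
  map_smul' n T := by
    ext φ f
    simp

theorem transposeAct_injective (G : Set (Module.End ℂ V)) (Λ : Submodule ℤ (V →ₗ[ℂ] ℂ))
    (hstab : ∀ T ∈ G, ∀ φ ∈ Λ, φ ∘ₗ T ∈ Λ)
    (hsep : ∀ f : V, (∀ φ ∈ Λ, φ f = 0) → f = 0) :
    Function.Injective (transposeAct G Λ hstab) := by
  rw [injective_iff_map_eq_zero]
  intro T hT
  apply Subtype.ext
  ext f
  apply hsep
  intro φ hφ
  have h1 := congrArg (fun F : ↥Λ →ₗ[ℤ] ↥Λ => (F ⟨φ, hφ⟩ : V →ₗ[ℂ] ℂ) f) hT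
  simpa [transposeAct] using h1

theorem isAddTorsionFree_dual : IsAddTorsionFree (V →ₗ[ℂ] ℂ) :=
  .of_isTorsionFree ℂ _

theorem moduleFinite_adjoin_of_lattice (G : Set (Module.End ℂ V)) (Λ : Submodule ℤ (V →ₗ[ℂ] ℂ))
    (hfg : Λ.FG) (hstab : ∀ T ∈ G, ∀ φ ∈ Λ, φ ∘ₗ T ∈ Λ)
    (hsep : ∀ f : V, (∀ φ ∈ Λ, φ f = 0) → f = 0) :
    Module.Finite ℤ ↥(Algebra.adjoin ℤ G) := by
  have : Module.Finite ℤ ↥Λ := Module.Finite.iff_fg.mpr hfg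
  have := isAddTorsionFree_dual (V := V)
  have : Module.Free ℤ ↥Λ := Module.free_of_finite_type_torsion_free'
  exact Module.Finite.of_injective (transposeAct G Λ hstab)
    (transposeAct_injective G Λ hstab hsep)

end

end Fermat.Agent.S22
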