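import Fermat.Agent.S23_helper12_Bridge
import Fermat.Agent.S22_Alg

set_option autoImplicit false

/-!
# S23: rank of the period lattice and finite-dimensionality

* `finiteDimensional_cuspForm`: `S₂(Γ₀(N))` is finite-dimensional (it embeds into `Hom_ℤ(Λ, ℂ)`).
* `finrank_Lam_le`: `rank_ℤ Λ ≤ dim_ℂ Hom_par(Γ₀(N), ℂ)`.
-/

namespace Fermat.Agent.S23_helper12_Rank

open Complex Filter Topology CongruenceSubgroup ModularCurve ModularCurve.Period
open UpperHalfPlane hiding I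
open scoped MatrixGroups ModularForm
open Fermat.Agent.S22 Fermat.Agent.S23_helper12_Bridge

noncomputable section

variable (N : ℕ) [NeZero N]

theorem Lam_finite : Module.Finite ℤ ↥(Lam N 2 0) :=
  Module.Finite.iff_fg.mpr (Lam_fg N 0 two_eq)

theorem Lam_free : Module.Free ℤ ↥(Lam N 2 0) := by
  have := Lam_finite N
  have := isAddTorsionFree_dual (V := CuspForm (Gamma0 N) 2)
  exact Module.free_of_finite_type_torsion_free'

theorem finrank_hom_Lam :
    Module.Finite ℂ (↥(Lam N 2 0) →ₗ[ℤ] ℂ) ∧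
      Module.finrank ℂ (↥(Lam N 2 0) →ₗ[ℤ] ℂ) = Module.finrank ℤ ↥(Lam N 2 0) := by
  have := Lam_finite N
  have := Lam_free N
  let b := Module.Free.chooseBasis ℤ ↥(Lam N 2 0)
  have e : (Module.Free.ChooseBasisIndex ℤ ↥(Lam N 2 0) → ℂ) ≃ₗ[ℂ] (↥(Lam N 2 0) →ₗ[ℤ] ℂ) :=
    b.constr ℂ
  refine ⟨Module.Finite.equiv e, ?_⟩
  rw [← e.finrank_eq, Module.finrank_fintype_fun_eq_card, Module.finrank_eq_card_chooseBasisIndex]

/-- evaluation of cusp forms on the period lattice -/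
def evalLam : CuspForm (Gamma0 N) 2 →ₗ[ℂ] (↥(Lam N 2 0) →ₗ[ℤ] ℂ) where
  toFun f :=
    { toFun := fun φ => φ.1 f
      map_add' := fun φ ψ => by simp
      map_smul' := fun n φ => by simp }
  map_add' f g := by
    ext φ
    simp
  map_smul' c f := by
    ext φ
    simp

theorem evalLam_injective : Function.Injective (evalLam N) := by
  rw [injective_iff_map_eq_zero]
  intro f hf
  refine eq_zero_of_forall_Lam 0 two_eq f fun φ hφ => ?_
  have := congrArg (fun F : ↥(Lam N 2 0) →ₗ[ℤ] ℂ => F ⟨φ, hφ⟩) hf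
  simpa [evalLam] using this

/-- `S₂(Γ₀(N))` is finite-dimensional. -/
theorem finiteDimensional_cuspForm : FiniteDimensional ℂ (CuspForm (Gamma0 N) 2) := by
  have := (finrank_hom_Lam N).1
  exact Module.Finite.of_injective (evalLam N) (evalLam_injective N)

/-- the period functional attached to `γ`, as an element of the period lattice -/
def perLam (γ : Gamma0 N) : ↥(Lam N 2 0) :=
  ⟨perLin 0 (Matrix.SpecialLinearGroup.mapGL ℝ (γ : SL(2, ℤ))) 0, perLin_mem_Lam' γ 0⟩

theorem perLam_apply (γ : Gamma0 N) (f : CuspForm (Gamma0 N) 2) :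
    (perLam N γ).1 f = periodMap N f (Additive.ofMul γ) :=
  perLin_apply_eq_periodMap f γ 0

/-- the period homomorphism `Γ₀(N) → Λ` -/
def perHom : Additive (Gamma0 N) →+ ↥(Lam N 2 0) where
  toFun γ := perLam N (Additive.toMul γ)
  map_zero' := by
    apply Subtype.ext
    ext f
    rw [perLam_apply]
    simp
  map_add' γ δ := by
    apply Subtype.ext
    ext f
    rw [Submodule.coe_add, LinearMap.add_apply, perLam_apply, perLam_apply, perLam_apply]
    exact map_add (periodMap N f) γ δ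

theorem perHom_apply (γ : Additive (Gamma0 N)) (f : CuspForm (Gamma0 N) 2) :
    (perHom N γ).1 f = periodMap N f γ :=
  perLam_apply N (Additive.toMul γ) f

theorem perHom_eq_zero_of_parabolic (γ : Gamma0 N)
    (h : ((γ : SL(2, ℤ)) : Matrix (Fin 2) (Fin 2) ℤ).trace ^ 2 = 4) :
    perHom N (Additive.ofMul γ) = 0 := by
  apply Subtype.ext
  ext f
  rw [perHom_apply]
  exact (mem_parabolicHoms_iff (R := ℂ)).mp (S21_helper29_P2.periodMap_mem_parabolicHoms N f) γ h

/-- A `ℤ`-linear functional on the period lattice vanishing on all periods vanishes. -/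
theorem eq_zero_of_comp_perHom (ξ : ↥(Lam N 2 0) →ₗ[ℤ] ℂ)
    (h : ∀ γ : Gamma0 N, ξ (perLam N γ) = 0) : ξ = 0 := by
  ext ⟨φ, hφ⟩
  simp only [LinearMap.zero_apply]
  induction hφ using Submodule.span_induction with
  | mem φ hφ =>
    obtain ⟨g, ⟨γ, hγ, rfl⟩, a, b, rfl⟩ := hφ
    have e : (⟨perLin 0 (Matrix.SpecialLinearGroup.mapGL ℝ γ) ((a : ℂ), (b : ℂ)),
        Submodule.subset_span ⟨_, ⟨γ, hγ, rfl⟩, a, b, rfl⟩⟩ : ↥(Lam N 2 0))
        = perLam N ⟨γ, hγ⟩ := by
      apply Subtype.ext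
      ext f
      rw [perLam_apply]
      exact perLin_apply_eq_periodMap f ⟨γ, hγ⟩ _
    rw [e]
    exact h _
  | zero => exact map_zero ξ
  | add φ ψ hφ hψ h1 h2 =>
    have : (⟨φ + ψ, Submodule.add_mem _ hφ hψ⟩ : ↥(Lam N 2 0)) = ⟨φ, hφ⟩ + ⟨ψ, hψ⟩ := rfl
    rw [this, map_add, h1, h2, add_zero]
  | smul n φ hφ h1 =>
    have : (⟨n • φ, Submodule.smul_mem _ n hφ⟩ : ↥(Lam N 2 0)) = n • ⟨φ, hφ⟩ := rfl
    rw [this, map_smul, h1, smul_zero]

/-- the restriction map `Hom_ℤ(Λ, ℂ) → Hom_par(Γ₀(N), ℂ)` -/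
def resPar : (↥(Lam N 2 0) →ₗ[ℤ] ℂ) →ₗ[ℂ] ↥(parabolicHoms ℂ (Gamma0 N) ℂ) where
  toFun ξ := ⟨ξ.toAddMonoidHom.comp (perHom N), by
    rw [mem_parabolicHoms_iff]
    intro γ hγ
    show ξ (perHom N (Additive.ofMul γ)) = 0
    rw [perHom_eq_zero_of_parabolic N γ hγ, map_zero]⟩
  map_add' ξ ξ' := by
    apply Subtype.ext
    ext γ
    rfl
  map_smul' c ξ := by
    apply Subtype.ext
    ext γ
    rfl

theorem resPar_injective : Function.Injective (resPar N) := by
  rw [injective_iff_map_eq_zero]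
  intro ξ hξ
  refine eq_zero_of_comp_perHom N ξ fun γ => ?_
  have h1 := congrArg (fun ψ : ↥(parabolicHoms ℂ (Gamma0 N) ℂ) => ψ.1 (Additive.ofMul γ)) hξ
  exact h1

/-- The rank of the period lattice is at most the dimension of the space of parabolic
homomorphisms. -/
theorem finrank_Lam_le (hfin : Module.Finite ℂ ↥(parabolicHoms ℂ (Gamma0 N) ℂ)) :
    Module.finrank ℤ ↥(Lam N 2 0)
      ≤ Module.finrank ℂ ↥(parabolicHoms ℂ (Gamma0 N) ℂ) := by
  rw [← (finrank_hom_Lam N).2]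
  exact LinearMap.finrank_le_finrank_of_injective (resPar_injective N)

end

end Fermat.Agent.S23_helper12_Rank
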