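import Fermat.Agent.S20
import Fermat.Agent.S23_helper12_Rank

/-!
# S16, reduction block: `S_2(Γ₀(p)) = 0` for the primes `p < 5`

From the dimension formula (S20) and the finite-dimensionality of `S_2(Γ₀(N))` (S23 rank file).
-/

set_option autoImplicit false

open CongruenceSubgroup

namespace Fermat.Agent.S16_helper4_SMALL

theorem nuTwo_two : ModularCurve.nuTwo 2 = 1 := by
  unfold ModularCurve.nuTwo
  rw [Nat.card_eq_fintype_card]
  decide

theorem nuThree_two : ModularCurve.nuThree 2 = 0 := by
  unfold ModularCurve.nuThree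
  rw [Nat.card_eq_fintype_card]
  decide

theorem nuTwo_three : ModularCurve.nuTwo 3 = 0 := by
  unfold ModularCurve.nuTwo
  rw [Nat.card_eq_fintype_card]
  decide

theorem nuThree_three : ModularCurve.nuThree 3 = 1 := by
  unfold ModularCurve.nuThree
  rw [Nat.card_eq_fintype_card]
  decide

theorem dedekindPsi_prime {p : ℕ} (hp : p.Prime) : ModularCurve.dedekindPsi p = p + 1 := by
  unfold ModularCurve.dedekindPsi
  rw [Nat.Prime.divisors hp]
  have h1 : ({1, p} : Finset ℕ).filter (fun d => Squarefree d) = {1, p} := by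
    ext d
    simp only [Finset.mem_filter, Finset.mem_insert, Finset.mem_singleton]
    constructor
    · exact fun h => h.1
    · rintro (rfl | rfl)
      · exact ⟨Or.inl rfl, squarefree_one⟩
      · exact ⟨Or.inr rfl, hp.squarefree⟩
  rw [h1, Finset.sum_pair hp.one_lt.ne]
  rw [Nat.div_one, Nat.div_self hp.pos]

theorem genusFormula_two : ModularCurve.genusFormula 2 = 0 := by
  unfold ModularCurve.genusFormula
  rw [nuTwo_two, nuThree_two]
  have h1 : ModularCurve.dedekindPsi 2 = 3 := dedekindPsi_prime Nat.prime_two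
  have h2 : ModularCurve.cuspCount 2 = 2 := by decide
  rw [h1, h2]; norm_num

theorem genusFormula_three : ModularCurve.genusFormula 3 = 0 := by
  unfold ModularCurve.genusFormula
  rw [nuTwo_three, nuThree_three]
  have h1 : ModularCurve.dedekindPsi 3 = 4 := dedekindPsi_prime Nat.prime_three
  have h2 : ModularCurve.cuspCount 3 = 2 := by decide
  rw [h1, h2]; norm_num

theorem cuspForm_eq_zero_of_genus_zero (N : ℕ) [NeZero N] (h : ModularCurve.genusFormula N = 0)
    (f : CuspForm (Gamma0 N) 2) : f = 0 := by
  have hfin : FiniteDimensional ℂ (CuspForm (Gamma0 N) 2) :=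
    Fermat.Agent.S23_helper12_Rank.finiteDimensional_cuspForm N
  have h0 : Module.finrank ℂ (CuspForm (Gamma0 N) 2) = 0 := by
    have := Fermat.Agent.S20.result N
    rw [h] at this
    exact_mod_cast this
  exact (finrank_zero_iff_forall_zero.1 h0) f

theorem cuspForm_eq_zero_of_lt_five (p : ℕ) [Fact p.Prime] (hp : p < 5)
    (f : CuspForm (Gamma0 p) 2) : f = 0 := by
  have hpp : p.Prime := Fact.out
  have h23 : p = 2 ∨ p = 3 := by
    have := hpp.two_le
    interval_cases p
    · exact Or.inl rfl
    · exact Or.inr rfl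
    · exact absurd hpp (by norm_num)
  rcases h23 with rfl | rfl
  · exact cuspForm_eq_zero_of_genus_zero 2 genusFormula_two f
  · exact cuspForm_eq_zero_of_genus_zero 3 genusFormula_three f

theorem cuspCount_prime {p : ℕ} (hp : p.Prime) : ModularCurve.cuspCount p = 2 := by
  unfold ModularCurve.cuspCount
  rw [Nat.Prime.divisors hp, Finset.sum_pair hp.one_lt.ne]
  simp [Nat.div_self hp.pos]

theorem genusFormula_five : ModularCurve.genusFormula 5 = 0 := by
  unfold ModularCurve.genusFormula
  have h1 : ModularCurve.dedekindPsi 5 = 6 := dedekindPsi_prime (by norm_num)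
  have h2 : ModularCurve.cuspCount 5 = 2 := cuspCount_prime (by norm_num)
  have h3 : ModularCurve.nuTwo 5 = 2 := by
    unfold ModularCurve.nuTwo
    rw [Nat.card_eq_fintype_card]
    decide
  have h4 : ModularCurve.nuThree 5 = 0 := by
    unfold ModularCurve.nuThree
    rw [Nat.card_eq_fintype_card]
    decide
  rw [h1, h2, h3, h4]; norm_num

theorem genusFormula_seven : ModularCurve.genusFormula 7 = 0 := by
  unfold ModularCurve.genusFormula
  have h1 : ModularCurve.dedekindPsi 7 = 8 := dedekindPsi_prime (by norm_num)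
  have h2 : ModularCurve.cuspCount 7 = 2 := cuspCount_prime (by norm_num)
  have h3 : ModularCurve.nuTwo 7 = 0 := by
    unfold ModularCurve.nuTwo
    rw [Nat.card_eq_fintype_card]
    decide
  have h4 : ModularCurve.nuThree 7 = 2 := by
    unfold ModularCurve.nuThree
    rw [Nat.card_eq_fintype_card]
    decide
  rw [h1, h2, h3, h4]; norm_num

theorem genusFormula_thirteen : ModularCurve.genusFormula 13 = 0 := by
  unfold ModularCurve.genusFormula
  have h1 : ModularCurve.dedekindPsi 13 = 14 := dedekindPsi_prime (by norm_num)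
  have h2 : ModularCurve.cuspCount 13 = 2 := cuspCount_prime (by norm_num)
  have h3 : ModularCurve.nuTwo 13 = 2 := by
    unfold ModularCurve.nuTwo
    rw [Nat.card_eq_fintype_card]
    decide
  have h4 : ModularCurve.nuThree 13 = 2 := by
    unfold ModularCurve.nuThree
    rw [Nat.card_eq_fintype_card]
    decide
  rw [h1, h2, h3, h4]; norm_num

/-- `S_2(Γ₀(p)) = 0` for the primes `p < 11` (i.e. `p = 2, 3, 5, 7`). -/
theorem cuspForm_eq_zero_of_lt_eleven (p : ℕ) [Fact p.Prime] (hp : p < 11)
    (f : CuspForm (Gamma0 p) 2) : f = 0 := by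
  have hpp : p.Prime := Fact.out
  have h : p = 2 ∨ p = 3 ∨ p = 5 ∨ p = 7 := by
    have := hpp.two_le
    interval_cases p <;> first | omega | exact absurd hpp (by norm_num)
  rcases h with rfl | rfl | rfl | rfl
  · exact cuspForm_eq_zero_of_genus_zero 2 genusFormula_two f
  · exact cuspForm_eq_zero_of_genus_zero 3 genusFormula_three f
  · exact cuspForm_eq_zero_of_genus_zero 5 genusFormula_five f
  · exact cuspForm_eq_zero_of_genus_zero 7 genusFormula_seven f

/-- `S_2(Γ₀(13)) = 0`. -/
theorem cuspForm_thirteen_eq_zero (f : CuspForm (Gamma0 13) 2) : f = 0 :=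
  cuspForm_eq_zero_of_genus_zero 13 genusFormula_thirteen f

end Fermat.Agent.S16_helper4_SMALL
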