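import Mathlib
import Fermat.Agent.S20_helper13_B2
import Fermat.Agent.S28_helper21_HERMITE
import Fermat.Agent.S28_helper25_HD
import Fermat.Prelude.Thm_CongruenceSubgroup_one_mem_strictPeriods_Gamma0

/-!
# S16, piece EIS: the weight two Eisenstein series of level `N`

`E_N = (N E₂(N z) - E₂(z)) / 24 = (N - 1) / 24 + ∑ σ'(n) qⁿ`, where `σ'(n)` is the sum of the
divisors of `n` not divisible by `N`, is a modular form of weight `2` on `Γ₀(N)`.
-/

set_option autoImplicit false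

open UpperHalfPlane ModularForm CongruenceSubgroup Matrix.SpecialLinearGroup EisensteinSeries
open scoped MatrixGroups ModularForm Manifold Real
open Fermat.Agent.S20 Fermat.Agent.S28_helper14_Defs Fermat.Agent.S28_helper14_ADefs

namespace Fermat.Agent.S16_helper7_EIS

/-- The non-holomorphic completion of `E₂`. -/
noncomputable def E2s : ℍ → ℂ := fun z => E2 z - 3 / ((π : ℂ) * (z.im : ℂ))

theorem E2s_slash (γ : SL(2, ℤ)) : E2s ∣[(2 : ℤ)] γ = E2s := by
  ext z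
  have h1 := congrFun (E2_slash_action γ) z
  rw [SL_slash_apply] at h1 ⊢
  simp only [Pi.sub_apply, Pi.smul_apply, smul_eq_mul, D2, riemannZeta_two] at h1
  unfold E2s
  have hden : denom γ z ≠ 0 := denom_ne_zero _ z
  have him : ((γ • z : ℍ).im : ℂ) = (z.im : ℂ) / (Complex.normSq (denom γ z) : ℂ) := by
    rw [ModularGroup.im_smul_eq_div_normSq]
    push_cast
    rfl
  have hD : denom γ z = ((γ 1 0 : ℤ) : ℂ) * (z : ℂ) + ((γ 1 1 : ℤ) : ℂ) := by
    rw [ModularGroup.denom_apply]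
  have hns : (Complex.normSq (denom γ z) : ℂ) = denom γ z * (starRingEnd ℂ) (denom γ z) :=
    (Complex.mul_conj _).symm
  have hconj : (starRingEnd ℂ) (denom γ z) =
      denom γ z - 2 * Complex.I * ((γ 1 0 : ℤ) : ℂ) * (z.im : ℂ) := by
    rw [hD]
    apply Complex.ext
    · simp
    · simp
      ring
  have hπ : (π : ℂ) ≠ 0 := by exact_mod_cast Real.pi_ne_zero
  have hz : (z.im : ℂ) ≠ 0 := by exact_mod_cast z.im_pos.ne'
  have hcd : (starRingEnd ℂ) (denom γ z) ≠ 0 := by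
    simp [hden]
  rw [sub_mul, h1, him, hns, hconj]
  rw [hconj] at hcd
  have e : (denom γ z) ^ (-2 : ℤ) = ((denom γ z) ^ 2)⁻¹ := by
    rw [zpow_neg]
    norm_cast
  rw [e]
  field_simp
  ring

lemma nice_E2 : Nice 1 E2 :=
  ⟨Fermat.Agent.S20_helper13_B2.periodic_E2, E2_mdifferentiable, isBoundedAtImInfty_E2⟩

/-- The Eisenstein series of weight `2` and level `N`, as a function. -/
noncomputable def eisFun (N : ℕ) : ℍ → ℂ := fun z => ((N : ℂ) * tri N 1 0 E2 z - E2 z) / 24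

lemma tri_E2s {a d : ℕ} (b : ℤ) (ha : 0 < a) (hd : 0 < d) (z : ℍ) :
    tri a d b E2s z =
      tri a d b E2 z - 3 * (d : ℂ) / ((π : ℂ) * ((a : ℂ) * (z.im : ℂ))) := by
  unfold tri E2s
  have h := Fermat.Agent.S28_HD.coe_ofComplex_tri b ha hd z
  have him : ((ofComplex (((a : ℂ) * (z : ℂ) + (b : ℂ)) / (d : ℂ)) : ℍ).im : ℂ) =
      (a : ℂ) * (z.im : ℂ) / (d : ℂ) := by
    rw [← UpperHalfPlane.coe_im, h, Fermat.Agent.S28_HD.im_tri_arg b ha hd z]
    push_cast
    rfl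
  rw [him]
  have hπ : (π : ℂ) ≠ 0 := by exact_mod_cast Real.pi_ne_zero
  have hz : (z.im : ℂ) ≠ 0 := by exact_mod_cast z.im_pos.ne'
  have ha' : (a : ℂ) ≠ 0 := by exact_mod_cast ha.ne'
  have hd' : (d : ℂ) ≠ 0 := by exact_mod_cast hd.ne'
  field_simp

lemma eisFun_eq {N : ℕ} (hN : 0 < N) (z : ℍ) :
    eisFun N z = ((N : ℂ) * tri N 1 0 E2s z - E2s z) / 24 := by
  rw [tri_E2s 0 hN one_pos z]
  unfold eisFun E2s
  have hπ : (π : ℂ) ≠ 0 := by exact_mod_cast Real.pi_ne_zero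
  have hz : (z.im : ℂ) ≠ 0 := by exact_mod_cast z.im_pos.ne'
  have hN' : (N : ℂ) ≠ 0 := by exact_mod_cast hN.ne'
  push_cast
  field_simp
  ring

/-- The conjugates of the Eisenstein series. -/
theorem eisFun_slash (N : ℕ) (hN : 0 < N) (γ : SL(2, ℤ)) :
    ∃ (a d : ℕ) (b : ℤ), 0 < a ∧ 0 < d ∧ a * d = N ∧ a = Int.gcd (N : ℤ) (γ 1 0) ∧
      (eisFun N) ∣[(2 : ℤ)] γ =
        fun z => ((a : ℂ) / (d : ℂ) * tri a d b E2 z - E2 z) / 24 := by
  obtain ⟨a, d, b, ha, hd, had, hgcd, hsl⟩ :=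
    Fermat.Agent.S28_HERMITE.slash_tri_eq (k := 2) (f := E2s) E2s_slash N hN γ
  refine ⟨a, d, b, ha, hd, had, hgcd, ?_⟩
  funext z
  have h1 := congrFun hsl z
  have h2 := congrFun (E2s_slash γ) z
  rw [SL_slash_apply] at h1 h2 ⊢
  rw [eisFun_eq hN, sub_div, sub_mul, mul_div_assoc, mul_assoc, div_mul_eq_mul_div, h1,
    div_mul_eq_mul_div, h2, tri_E2s b ha hd z]
  unfold E2s
  have hπ : (π : ℂ) ≠ 0 := by exact_mod_cast Real.pi_ne_zero
  have hz : (z.im : ℂ) ≠ 0 := by exact_mod_cast z.im_pos.ne'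
  have ha' : (a : ℂ) ≠ 0 := by exact_mod_cast ha.ne'
  have hd' : (d : ℂ) ≠ 0 := by exact_mod_cast hd.ne'
  have hNad : (N : ℂ) = (a : ℂ) * (d : ℂ) := by exact_mod_cast had.symm
  rw [hNad]
  have e : ((d : ℂ) ^ (2 : ℤ))⁻¹ = ((d : ℂ) ^ 2)⁻¹ := by norm_cast
  rw [e]
  field_simp
  ring

lemma tri_shift (a : ℕ) (b : ℤ) (z : ℍ) : tri a 1 b E2 z = tri a 1 0 E2 z := by
  have hper := nice_E2.per
  have h1 := (hper.int_mul b) (((a : ℂ) * (z : ℂ) + ((0 : ℤ) : ℂ)) / ((1 : ℕ) : ℂ))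
  simp only [Function.comp_apply] at h1
  simp only [tri]
  rw [← h1]
  simp

theorem eisFun_slash_Gamma0 (N : ℕ) [NeZero N] {γ : SL(2, ℤ)} (hγ : γ ∈ Gamma0 N) :
    (eisFun N) ∣[(2 : ℤ)] γ = eisFun N := by
  obtain ⟨a, d, b, ha, hd, had, hgcd, hsl⟩ := eisFun_slash N (NeZero.pos N) γ
  have hN : (N : ℤ) ∣ γ 1 0 := by
    rw [Gamma0_mem] at hγ
    exact (ZMod.intCast_zmod_eq_zero_iff_dvd _ _).1 hγ
  have hgd : Int.gcd (N : ℤ) (γ 1 0) = N := by
    apply Nat.dvd_antisymm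
    · exact Int.natCast_dvd_natCast.1 (Int.gcd_dvd_left _ _)
    · exact Int.natCast_dvd_natCast.1 (Int.dvd_coe_gcd dvd_rfl hN)
  have haN : a = N := by rw [hgcd, hgd]
  subst haN
  have hd1 : d = 1 := by
    have : a * d = a * 1 := by rw [had, mul_one]
    exact Nat.eq_of_mul_eq_mul_left ha this
  subst hd1
  rw [hsl]
  funext z
  rw [tri_shift]
  unfold eisFun
  simp

theorem eisFun_holo (N : ℕ) (hN : 0 < N) : MDifferentiable 𝓘(ℂ) 𝓘(ℂ) (eisFun N) := by
  have h1 : MDifferentiable 𝓘(ℂ) 𝓘(ℂ) (tri N 1 0 E2) :=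
    (Fermat.Agent.S28_HD.nice_tri_d nice_E2 hN).holo
  have h2 : MDifferentiable 𝓘(ℂ) 𝓘(ℂ) E2 := E2_mdifferentiable
  have e : eisFun N = fun z => (24 : ℂ)⁻¹ * ((N : ℂ) * tri N 1 0 E2 z - E2 z) := by
    funext z
    unfold eisFun
    ring
  rw [e]
  exact mdifferentiable_const.mul ((mdifferentiable_const.mul h1).sub h2)

theorem eisFun_slash_bdd (N : ℕ) (hN : 0 < N) (γ : SL(2, ℤ)) :
    IsBoundedAtImInfty ((eisFun N) ∣[(2 : ℤ)] γ) := by
  obtain ⟨a, d, b, ha, hd, had, hgcd, hsl⟩ := eisFun_slash N hN γ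
  rw [hsl]
  have h1 : IsBoundedAtImInfty (tri a d b E2) :=
    (Fermat.Agent.S28_SUBST.nice_tri nice_E2 ha hd hd (dvd_refl d) b).bdd
  have h2 : IsBoundedAtImInfty E2 := isBoundedAtImInfty_E2
  have e : (fun z => ((a : ℂ) / (d : ℂ) * tri a d b E2 z - E2 z) / 24) =
      (fun _ : ℍ => (24 : ℂ)⁻¹) * ((fun _ : ℍ => (a : ℂ) / (d : ℂ)) * tri a d b E2 - E2) := by
    funext z
    simp only [Pi.mul_apply, Pi.sub_apply]
    ring
  rw [e]
  exact (Filter.const_boundedAtFilter _ _).mul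
    (((Filter.const_boundedAtFilter _ _).mul h1).sub h2)

theorem isMF_eisFun (N : ℕ) [NeZero N] : IsMF N 2 (eisFun N) :=
  isMF_iff.mpr ⟨eisFun_holo N (NeZero.pos N), fun _ hγ => eisFun_slash_Gamma0 N hγ,
    fun γ => eisFun_slash_bdd N (NeZero.pos N) γ⟩

/-! ### The `q`-expansion -/

open ArithmeticFunction
open scoped ArithmeticFunction.sigma

theorem sum_filter_dvd (N n : ℕ) (hN : 0 < N) (hn : 0 < n) :
    ∑ d ∈ n.divisors.filter (fun d => N ∣ d), d = if N ∣ n then N * σ 1 (n / N) else 0 := by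
  split_ifs with h
  · obtain ⟨m, rfl⟩ := h
    have hm : 0 < m := Nat.pos_of_mul_pos_left hn |> fun _ => by
      rcases Nat.eq_zero_or_pos m with h0 | h0
      · simp [h0] at hn
      · exact h0
    rw [Nat.mul_div_cancel_left _ hN, sigma_one_apply, Finset.mul_sum]
    refine (Finset.sum_nbij' (fun e => N * e) (fun d => d / N) ?_ ?_ ?_ ?_ ?_).symm
    · intro e he
      rw [Nat.mem_divisors] at he
      simp only [Finset.mem_filter, Nat.mem_divisors]
      exact ⟨⟨Nat.mul_dvd_mul_left N he.1, hn.ne'⟩, dvd_mul_right N e⟩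
    · intro d hd
      simp only [Finset.mem_filter, Nat.mem_divisors] at hd
      obtain ⟨⟨hd1, _⟩, e, rfl⟩ := hd
      rw [Nat.mul_div_cancel_left _ hN, Nat.mem_divisors]
      exact ⟨(Nat.mul_dvd_mul_iff_left hN).1 hd1, hm.ne'⟩
    · intro e _
      exact Nat.mul_div_cancel_left _ hN
    · intro d hd
      simp only [Finset.mem_filter, Nat.mem_divisors] at hd
      exact Nat.mul_div_cancel' hd.2
    · intro e _
      rfl
  · apply Finset.sum_eq_zero
    intro d hd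
    simp only [Finset.mem_filter, Nat.mem_divisors] at hd
    exact absurd (hd.2.trans hd.1.1) h

theorem sigma_split (N n : ℕ) (hN : 0 < N) (hn : 0 < n) :
    σ 1 n = (∑ d ∈ n.divisors.filter (fun d => ¬ N ∣ d), d) +
      (if N ∣ n then N * σ 1 (n / N) else 0) := by
  rw [← sum_filter_dvd N n hN hn, sigma_one_apply, add_comm]
  exact (Finset.sum_filter_add_sum_filter_not _ _ _).symm

/-- The sum of the divisors of `n` that are not divisible by `N`. -/
def sigmaNot (N n : ℕ) : ℤ := ∑ d ∈ n.divisors.filter (fun d => ¬ N ∣ d), (d : ℤ)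

theorem sigmaNot_eq (N n : ℕ) (hN : 0 < N) (hn : 0 < n) :
    (sigmaNot N n : ℂ) = (σ 1 n : ℂ) - (if N ∣ n then (N : ℂ) * (σ 1 (n / N) : ℂ) else 0) := by
  have h := sigma_split N n hN hn
  have h' : (σ 1 n : ℂ) = ((∑ d ∈ n.divisors.filter (fun d => ¬ N ∣ d), d : ℕ) : ℂ) +
      ((if N ∣ n then N * σ 1 (n / N) else 0 : ℕ) : ℂ) := by
    rw [← Nat.cast_add, ← h]
  rw [h']
  unfold sigmaNot
  split_ifs <;> push_cast <;> ring

theorem qExpansion_E2_coeff (m : ℕ) :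
    (qExpansion 1 E2).coeff m = if m = 0 then 1 else -24 * (σ 1 m : ℂ) := by
  refine Fermat.Agent.S28_SUBST.coeff_unique' E2 E2_mdifferentiable.continuous
    (fun m : ℕ => (if m = 0 then 1 else -24 * (σ 1 m : ℂ))) 1 one_pos
    (Fermat.Agent.S28_HD.nice_analyticAt nice_E2) (fun τ => ?_) m
  simpa only [Function.Periodic.qParam, Complex.ofReal_one, div_one] using
    hasSum_qExpansion_E2 (z := τ)

theorem an_eisFun (N : ℕ) [NeZero N] : AnalyticAt ℂ (cuspFunction 1 (eisFun N)) 0 := by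
  obtain ⟨F, hF⟩ := isMF_eisFun N
  rw [← hF]
  exact ModularFormClass.analyticAt_cuspFunction_zero F one_pos
    (CongruenceSubgroup.one_mem_strictPeriods_Gamma0 N)

theorem qExpansion_eisFun_coeff (N : ℕ) (hN : 0 < N) (n : ℕ) :
    (qExpansion 1 (eisFun N)).coeff n =
      if n = 0 then ((N : ℂ) - 1) / 24 else (sigmaNot N n : ℂ) := by
  have an1 : AnalyticAt ℂ (cuspFunction 1 (tri N 1 0 E2)) 0 :=
    Fermat.Agent.S28_HD.nice_analyticAt (Fermat.Agent.S28_HD.nice_tri_d nice_E2 hN)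
  have an2 : AnalyticAt ℂ (cuspFunction 1 E2) 0 := Fermat.Agent.S28_HD.nice_analyticAt nice_E2
  have an3 : AnalyticAt ℂ (cuspFunction 1 ((N : ℂ) • tri N 1 0 E2)) 0 := by
    rw [cuspFunction_smul an1.continuousAt]
    exact AnalyticAt.const_smul an1
  have an4 : AnalyticAt ℂ (cuspFunction 1 ((N : ℂ) • tri N 1 0 E2 - E2)) 0 := by
    rw [cuspFunction_sub an3.continuousAt an2.continuousAt]
    exact an3.sub an2
  have e : eisFun N = (24⁻¹ : ℂ) • ((N : ℂ) • tri N 1 0 E2 - E2) := by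
    funext z
    simp only [eisFun, Pi.smul_apply, Pi.sub_apply, smul_eq_mul]
    ring
  rw [e, qExpansion_smul an4, qExpansion_sub an3 an2, qExpansion_smul an1]
  simp only [map_sub, PowerSeries.coeff_smul, smul_eq_mul]
  rw [Fermat.Agent.S28_HD.qExpansion_tri_d_coeff nice_E2 hN n, qExpansion_E2_coeff,
    qExpansion_E2_coeff]
  rcases Nat.eq_zero_or_pos n with rfl | hn
  · simp
    ring
  · rw [if_neg hn.ne', if_neg hn.ne', sigmaNot_eq N n hN hn]
    by_cases hd : N ∣ n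
    · have hq : n / N ≠ 0 := by
        obtain ⟨m, rfl⟩ := hd
        rw [Nat.mul_div_cancel_left _ hN]
        rintro rfl
        simp at hn
      rw [if_pos hd, if_pos hd, if_neg hq]
      ring
    · rw [if_neg hd, if_neg hd]
      ring

/-- The Eisenstein series of weight `2` and level `N`, as a modular form. -/
noncomputable def eisMF (N : ℕ) [NeZero N] : ModularForm (Gamma0 N) 2 := (isMF_eisFun N).choose

theorem coe_eisMF (N : ℕ) [NeZero N] : ⇑(eisMF N) = eisFun N := (isMF_eisFun N).choose_spec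

theorem qExpansion_eisMF_coeff (N : ℕ) [NeZero N] (n : ℕ) :
    (qExpansion 1 (eisMF N)).coeff n =
      if n = 0 then ((N : ℂ) - 1) / 24 else (sigmaNot N n : ℂ) := by
  rw [coe_eisMF]
  exact qExpansion_eisFun_coeff N (NeZero.pos N) n

/-- **EIS**: the Eisenstein series of weight `2` and prime level `p`. -/
theorem exists_eis (p : ℕ) [Fact p.Prime] :
    ∃ F : ModularForm (CongruenceSubgroup.Gamma0 p) 2,
      (qExpansion 1 F).coeff 0 = ((p : ℂ) - 1) / 24 ∧
      ∀ n : ℕ, 1 ≤ n → (qExpansion 1 F).coeff n =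
        ((∑ d ∈ n.divisors.filter (fun d => ¬ p ∣ d), (d : ℤ) : ℤ) : ℂ) := by
  have : NeZero p := ⟨(Fact.out : p.Prime).ne_zero⟩
  refine ⟨eisMF p, ?_, fun n hn => ?_⟩
  · rw [qExpansion_eisMF_coeff, if_pos rfl]
  · rw [qExpansion_eisMF_coeff, if_neg (Nat.one_le_iff_ne_zero.mp hn)]
    rfl

/-- A modular form of weight `2` on `Γ₀(N)` with constant `q`-expansion vanishes. -/
theorem eq_zero_of_const (N : ℕ) [NeZero N] (F : ModularForm (CongruenceSubgroup.Gamma0 N) 2)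
    (h : ∀ n : ℕ, 1 ≤ n → (qExpansion 1 F).coeff n = 0) : F = 0 := by
  have hval : ∀ τ : ℍ, F τ = (qExpansion 1 F).coeff 0 := by
    intro τ
    have hn := Fermat.Agent.S28_HD.nice_of_isMF (⟨F, rfl⟩ : IsMF N 2 ⇑F)
    have hs := UpperHalfPlane.hasSum_qExpansion one_pos hn.per hn.holo hn.bdd τ
    have h0 := hasSum_single (f := fun m : ℕ =>
      (qExpansion 1 F).coeff m • Function.Periodic.qParam 1 τ ^ m) 0 (fun m hm => by
        show (qExpansion 1 F).coeff m • Function.Periodic.qParam 1 τ ^ m = 0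
        rw [h m (Nat.one_le_iff_ne_zero.mpr hm), zero_smul])
    have := hs.unique h0
    simpa using this
  set c := (qExpansion 1 F).coeff 0 with hc
  have hinv := (isMF_iff.mp (⟨F, rfl⟩ : IsMF N 2 ⇑F)).2.1
  let γ : SL(2, ℤ) := ⟨!![1, 0; (N : ℤ), 1], by simp [Matrix.det_fin_two_of]⟩
  have hγ : γ ∈ Gamma0 N := by
    rw [Gamma0_mem]
    simp [γ]
  have h1 := congrFun (hinv γ hγ) UpperHalfPlane.I
  rw [SL_slash_apply, hval, hval] at h1
  have hD : denom γ UpperHalfPlane.I = (N : ℂ) * Complex.I + 1 := by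
    rw [ModularGroup.denom_apply]
    simp [γ]
  have hc0 : c = 0 := by
    by_contra hne
    have h2 : (denom γ UpperHalfPlane.I) ^ (-(2 : ℤ)) = 1 := by
      have := mul_left_cancel₀ hne (h1.trans (mul_one c).symm)
      exact this
    rw [zpow_neg, inv_eq_one, hD] at h2
    have h3 : (((N : ℂ) * Complex.I + 1) ^ (2 : ℤ)).im = (1 : ℂ).im := by rw [h2]
    have h4 : ((N : ℂ) * Complex.I + 1) ^ (2 : ℤ) =
        ((1 - (N : ℝ) ^ 2 : ℝ) : ℂ) + ((2 * (N : ℝ) : ℝ) : ℂ) * Complex.I := by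
      have : ((N : ℂ) * Complex.I + 1) ^ (2 : ℤ) = ((N : ℂ) * Complex.I + 1) ^ 2 := by norm_cast
      rw [this]
      push_cast
      ring_nf
      rw [Complex.I_sq]
      ring
    rw [h4, Complex.add_im, Complex.ofReal_im, Complex.mul_I_im, Complex.ofReal_re,
      Complex.one_im] at h3
    have h5 : (N : ℝ) = 0 := by linarith
    exact NeZero.ne N (by exact_mod_cast h5)
  ext τ
  rw [hval, hc0]
  rfl

end Fermat.Agent.S16_helper7_EIS
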