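-- S16 (row 15): the index of the Eisenstein ideal in the integral Hecke algebra of weight 2 and
-- prime level `p` is `(p - 1) / gcd (p - 1, 12)`.
-- Assembly: reduction (helper10 `S16_RED'`), lower bound (helper3 `LB`, Shimura character),
-- upper bound (helper4 `ub_glue_ge` from the no-congruence lemmas NC-2a helper18, NC-2b helper13,
-- NC-3 helper2, NC-big/NC-p helper21, Eisenstein series helper7, small primes helper4).
import Fermat.Statements.S16
import Fermat.Agent.S16_helper10_RED
import Fermat.Agent.S16_helper3_LB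
import Fermat.Agent.S16_helper4_UBGLUE
import Fermat.Agent.S16_helper4_SMALL
import Fermat.Agent.S16_helper7_EIS
import Fermat.Agent.S16_helper21_NCBIG
import Fermat.Agent.S16_helper18_NC2A
import Fermat.Agent.S16_helper2_NC3
import Fermat.Agent.S16_helper13_NC2B

set_option autoImplicit false
open ModularCurve CuspForm
open ModularCurve

namespace Fermat.Agent.S16

/-- **Upper bound**: a cusp form congruent to the Eisenstein series modulo `k` forces
`k ∣ (p - 1) / gcd (p - 1, 12)`. -/
theorem upper_bound (p : ℕ) [Fact p.Prime] : ∀ k : ℕ, 1 ≤ k →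
    (∃ f ∈ CuspForm.intLattice p 2, ∀ n : ℕ, 1 ≤ n →
      ∃ c : ℤ, ModularFormClass.qCoeff f n = (c : ℂ) ∧
        (k : ℤ) ∣ c - S16_helper4_UBGLUE.sigP p n) →
    k ∣ ModularCurve.eisensteinNumerator p :=
  S16_helper4_UBGLUE.ub_glue_ge 11 p (S16_helper7_EIS.exists_eis p)
    (fun h => S16_helper4_SMALL.cuspForm_eq_zero_of_lt_eleven p h)
    (S16_helper21_NCBIG.hbig 11 p)
    (S16_helper21_NCBIG.hpp 11 (by norm_num) p)
    (fun h _ => S16_helper2_NC3.noCong_3a p h)
    (fun h _ => S16_helper2_NC3.noCong_3b p h)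
    (fun h _ => S16_helper18_NC2A.NC2a_noCong p h)
    (fun h _ => S16_helper13_NC2B.NC2b_noCong p h)

theorem result
    (p : ℕ) [Fact p.Prime] :
    Nat.card (↥(heckeLatticeAlgebra p ∅) ⧸
        Ideal.map ((latticeRestrictHom p ∅).toRingHom.comp (heckeEvalForms p 2))
          (eisensteinIdeal p)) =
      eisensteinNumerator p :=
  S16_helper10_RED.S16_RED' p (fun k hk h => upper_bound p k hk h) (S16_helper3_LB.LB p)

end Fermat.Agent.S16
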