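import Fermat.Agent.S16_helper10_REDlat

set_option autoImplicit false
set_option linter.style.haveILetI false

/-!
# S16, piece RED (part 3): Hecke polynomials computing coefficients, the easy direction of the
congruence criterion, and the perfect pairing between the Hecke algebra and the lattice
-/

namespace Fermat.Agent.S16_helper10_RED

open CongruenceSubgroup CuspForm ModularCurve

noncomputable section

variable (p : ℕ) [Fact p.Prime]

/-- the Eisenstein character `HeckeAlg → ℤ` -/
def redEps : HeckeAlg →ₐ[ℤ] ℤ := MvPolynomial.aeval (eisensteinSystem p)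

theorem redEps_heckeGen (ℓ : Nat.Primes) : redEps p (heckeGen ℓ) = 1 + wtP p ℓ := by
  rw [one_add_wtP_eq (Fact.out : p.Prime)]
  exact MvPolynomial.aeval_X _ ℓ

omit [Fact p.Prime] in
theorem redEps_C (a : ℤ) : redEps p (MvPolynomial.C a) = a :=
  MvPolynomial.aeval_C _ a

/-- Coefficients of `T_ℓ f`, in terms of the weight `wtP`. -/
theorem cZ_redPhi_heckeGen_wtP (ℓ : Nat.Primes) (m : ℕ) (f : ↥(intLattice p 2)) :
    cZ p m (((redPhi p (heckeGen ℓ) : ↥(heckeLatticeAlgebra p ∅)) :
        Module.End ℤ ↥(intLattice p 2)) f) =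
      cZ p (m * ℓ) f + if (ℓ : ℕ) ∣ m then wtP p ℓ * cZ p (m / ℓ) f else 0 := by
  rw [cZ_redPhi_heckeGen]
  have hp : p.Prime := Fact.out
  by_cases h : (ℓ : ℕ) ∣ p
  · have : (ℓ : ℕ) = p := (Nat.prime_dvd_prime_iff_eq ℓ.2 hp).mp h
    rw [if_pos h, this, wtP_self]
    simp
  · have hne : (ℓ : ℕ) ≠ p := fun e => h (e ▸ dvd_rfl)
    rw [if_neg h, wtP_prime_ne hp ℓ.2 hne]

theorem redPhi_mul_apply (s t : HeckeAlg) (f : ↥(intLattice p 2)) :
    ((redPhi p (s * t) : ↥(heckeLatticeAlgebra p ∅)) : Module.End ℤ ↥(intLattice p 2)) f =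
      ((redPhi p s : ↥(heckeLatticeAlgebra p ∅)) : Module.End ℤ ↥(intLattice p 2))
        (((redPhi p t : ↥(heckeLatticeAlgebra p ∅)) : Module.End ℤ ↥(intLattice p 2)) f) := by
  rw [map_mul]
  rfl

theorem redPhi_add_apply (s t : HeckeAlg) (f : ↥(intLattice p 2)) :
    ((redPhi p (s + t) : ↥(heckeLatticeAlgebra p ∅)) : Module.End ℤ ↥(intLattice p 2)) f =
      ((redPhi p s : ↥(heckeLatticeAlgebra p ∅)) : Module.End ℤ ↥(intLattice p 2)) f +
        ((redPhi p t : ↥(heckeLatticeAlgebra p ∅)) : Module.End ℤ ↥(intLattice p 2)) f := by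
  rw [map_add]
  rfl

theorem redPhi_sub_apply (s t : HeckeAlg) (f : ↥(intLattice p 2)) :
    ((redPhi p (s - t) : ↥(heckeLatticeAlgebra p ∅)) : Module.End ℤ ↥(intLattice p 2)) f =
      ((redPhi p s : ↥(heckeLatticeAlgebra p ∅)) : Module.End ℤ ↥(intLattice p 2)) f -
        ((redPhi p t : ↥(heckeLatticeAlgebra p ∅)) : Module.End ℤ ↥(intLattice p 2)) f := by
  rw [map_sub]
  rfl

theorem redPhi_C_apply (a : ℤ) (f : ↥(intLattice p 2)) :
    ((redPhi p (MvPolynomial.C a) : ↥(heckeLatticeAlgebra p ∅)) :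
      Module.End ℤ ↥(intLattice p 2)) f = a • f := by
  have h : redPhi p (MvPolynomial.C a) = algebraMap ℤ ↥(heckeLatticeAlgebra p ∅) a := by
    unfold redPhi
    rw [RingHom.comp_apply, heckeEvalForms_C]
    exact (latticeRestrictHom p ∅).commutes a
  rw [h]
  simp

theorem redPhi_one_apply (f : ↥(intLattice p 2)) :
    ((redPhi p 1 : ↥(heckeLatticeAlgebra p ∅)) : Module.End ℤ ↥(intLattice p 2)) f = f := by
  rw [map_one]
  rfl

/-- For every `n ≥ 1` there is a Hecke polynomial `t` with `a₁(t f) = aₙ(f)` on the lattice,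
whose Eisenstein eigenvalue is `sigmaP p n`. -/
theorem exists_hecke_poly (n : ℕ) (hn : 1 ≤ n) :
    ∃ t : HeckeAlg, (∀ f : ↥(intLattice p 2),
        cZ p 1 (((redPhi p t : ↥(heckeLatticeAlgebra p ∅)) :
          Module.End ℤ ↥(intLattice p 2)) f) = cZ p n f) ∧
      redEps p t = sigmaP p n := by
  have hp : p.Prime := Fact.out
  induction n using Nat.strong_induction_on with
  | _ n ih =>
    rcases Nat.eq_or_lt_of_le hn with h1 | h1
    · refine ⟨1, fun f => ?_, ?_⟩
      · rw [redPhi_one_apply, ← h1]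
      · rw [← h1, sigmaP_one hp, map_one]
    · have hn1 : n ≠ 1 := by omega
      set ℓ := n.minFac with hℓ
      have hℓp : ℓ.Prime := Nat.minFac_prime hn1
      have hℓn : ℓ ∣ n := Nat.minFac_dvd n
      set m := n / ℓ with hm
      have hmℓ : m * ℓ = n := Nat.div_mul_cancel hℓn
      have hm1 : 1 ≤ m := by
        rcases Nat.eq_zero_or_pos m with h0 | h0
        · rw [h0, zero_mul] at hmℓ; omega
        · exact h0
      have hmn : m < n := by
        have h2 : 2 ≤ ℓ := hℓp.two_le
        nlinarith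
      obtain ⟨tm, htm, hεm⟩ := ih m hmn hm1
      have hrec := sigmaP_mul_prime_wtP hp m ℓ (by omega) hℓp
      rw [hmℓ] at hrec
      obtain ⟨L, hL⟩ : ∃ L : Nat.Primes, (L : ℕ) = ℓ := ⟨⟨ℓ, hℓp⟩, rfl⟩
      by_cases hℓm : ℓ ∣ m
      · set m' := m / ℓ with hm'
        have hm'ℓ : m' * ℓ = m := Nat.div_mul_cancel hℓm
        have hm'1 : 1 ≤ m' := by
          rcases Nat.eq_zero_or_pos m' with h0 | h0
          · rw [h0, zero_mul] at hm'ℓ; omega
          · exact h0
        have hm'n : m' < n := by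
          have h2 : 2 ≤ ℓ := hℓp.two_le
          nlinarith
        obtain ⟨tm', htm', hεm'⟩ := ih m' hm'n hm'1
        refine ⟨tm * heckeGen L - MvPolynomial.C (wtP p ℓ) * tm', fun f => ?_, ?_⟩
        · rw [redPhi_sub_apply, map_sub, redPhi_mul_apply, htm, redPhi_mul_apply,
            redPhi_C_apply, map_smul, htm', cZ_redPhi_heckeGen_wtP, hL,
            if_pos hℓm, hmℓ, smul_eq_mul]
          ring
        · rw [map_sub, map_mul, map_mul, hεm, hεm', redEps_heckeGen, redEps_C, hrec,
            if_pos hℓm, hL]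
          ring
      · refine ⟨tm * heckeGen L, fun f => ?_, ?_⟩
        · rw [redPhi_mul_apply, htm, cZ_redPhi_heckeGen_wtP, hL,
            if_neg hℓm, hmℓ, add_zero]
        · rw [map_mul, hεm, redEps_heckeGen, hrec, if_neg hℓm, hL]
          ring

/-- Easy direction of the congruence criterion, general form. -/
theorem cong_redPhi (k : ℤ) (t : HeckeAlg) :
    ∀ (f : ↥(intLattice p 2)) (c : ℤ),
      (∀ n : ℕ, 1 ≤ n → k ∣ cZ p n f - c * sigmaP p n) →
      ∀ n : ℕ, 1 ≤ n → k ∣ cZ p n (((redPhi p t : ↥(heckeLatticeAlgebra p ∅)) :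
          Module.End ℤ ↥(intLattice p 2)) f) - redEps p t * c * sigmaP p n := by
  have hp : p.Prime := Fact.out
  induction t using MvPolynomial.induction_on with
  | C a =>
    intro f c h n hn
    rw [redPhi_C_apply, map_smul, redEps_C, smul_eq_mul]
    have : a * cZ p n f - a * c * sigmaP p n = a * (cZ p n f - c * sigmaP p n) := by ring
    rw [this]
    exact Dvd.dvd.mul_left (h n hn) a
  | add s t ihs iht =>
    intro f c h n hn
    rw [redPhi_add_apply, map_add, map_add]
    have : cZ p n (((redPhi p s : ↥(heckeLatticeAlgebra p ∅)) :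
          Module.End ℤ ↥(intLattice p 2)) f) + cZ p n (((redPhi p t :
          ↥(heckeLatticeAlgebra p ∅)) : Module.End ℤ ↥(intLattice p 2)) f) -
        (redEps p s + redEps p t) * c * sigmaP p n =
        (cZ p n (((redPhi p s : ↥(heckeLatticeAlgebra p ∅)) :
          Module.End ℤ ↥(intLattice p 2)) f) - redEps p s * c * sigmaP p n) +
        (cZ p n (((redPhi p t : ↥(heckeLatticeAlgebra p ∅)) :
          Module.End ℤ ↥(intLattice p 2)) f) - redEps p t * c * sigmaP p n) := by ring
    rw [this]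
    exact dvd_add (ihs f c h n hn) (iht f c h n hn)
  | mul_X s ℓ ih =>
    intro f c h n hn
    rw [redPhi_mul_apply, map_mul]
    have key : ∀ m : ℕ, 1 ≤ m → k ∣ cZ p m (((redPhi p (MvPolynomial.X ℓ) :
          ↥(heckeLatticeAlgebra p ∅)) : Module.End ℤ ↥(intLattice p 2)) f) -
        (redEps p (MvPolynomial.X ℓ) * c) * sigmaP p m := by
      intro m hm
      have e1 := cZ_redPhi_heckeGen_wtP p ℓ m f
      have e2 := redEps_heckeGen p ℓ
      unfold heckeGen at e1 e2
      rw [e1, e2]
      have hrec := sigmaP_mul_prime_wtP hp m ℓ (by omega) ℓ.2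
      have h1 := h (m * ℓ) (Nat.mul_pos hm ℓ.2.pos)
      by_cases hℓm : (ℓ : ℕ) ∣ m
      · rw [if_pos hℓm] at hrec ⊢
        have hm' : 1 ≤ m / ℓ := by
          obtain ⟨m', rfl⟩ := hℓm
          rw [Nat.mul_div_cancel_left m' ℓ.2.pos]
          rcases Nat.eq_zero_or_pos m' with h0 | h0
          · rw [h0, mul_zero] at hm; omega
          · exact h0
        have h2 := h (m / ℓ) hm'
        have : cZ p (m * ℓ) f + wtP p ℓ * cZ p (m / ℓ) f -
            (1 + wtP p ℓ) * c * sigmaP p m =
            (cZ p (m * ℓ) f - c * sigmaP p (m * ℓ)) +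
              wtP p ℓ * (cZ p (m / ℓ) f - c * sigmaP p (m / ℓ)) := by
          rw [hrec]; ring
        rw [this]
        exact dvd_add h1 (Dvd.dvd.mul_left h2 _)
      · rw [if_neg hℓm] at hrec ⊢
        have : cZ p (m * ℓ) f + 0 - (1 + wtP p ℓ) * c * sigmaP p m =
            cZ p (m * ℓ) f - c * sigmaP p (m * ℓ) := by
          rw [hrec]; ring
        rw [this]
        exact h1
    have := ih _ _ key n hn
    have e : redEps p s * redEps p (MvPolynomial.X ℓ) * c * sigmaP p n =
        redEps p s * (redEps p (MvPolynomial.X ℓ) * c) * sigmaP p n := by ring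
    rw [e]
    exact this

/-- Easy direction of the congruence criterion: a form congruent to the Eisenstein series
modulo `k` forces the Eisenstein character to kill `ker redPhi` modulo `k`. -/
theorem dvd_redEps_of_eisCong (k : ℕ) (f : CuspForm (Gamma0 p) 2) (hf : f ∈ intLattice p 2)
    (hfk : EisCong p k f) (s : HeckeAlg) (hs : redPhi p s = 0) : (k : ℤ) ∣ redEps p s := by
  have hp : p.Prime := Fact.out
  have h1 : ∀ n : ℕ, 1 ≤ n → (k : ℤ) ∣ cZ p n ⟨f, hf⟩ - 1 * sigmaP p n := by
    intro n hn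
    obtain ⟨c, hc, hck⟩ := hfk n hn
    have : cZ p n ⟨f, hf⟩ = c := by
      apply Int.cast_injective (α := ℂ)
      rw [cZ_spec, ← hc]
    rw [this, one_mul]
    exact hck
  have h2 := cong_redPhi p k s ⟨f, hf⟩ 1 h1 1 le_rfl
  rw [hs, sigmaP_one hp] at h2
  simp only [ZeroMemClass.coe_zero, LinearMap.zero_apply, map_zero, mul_one, zero_sub,
    dvd_neg] at h2
  exact h2

/-- the pairing `(f, t) ↦ a₁(t f)` between the lattice and the Hecke algebra -/
def pairLT : ↥(intLattice p 2) →ₗ[ℤ] (↥(heckeLatticeAlgebra p ∅) →ₗ[ℤ] ℤ) :=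
  LinearMap.mk₂ ℤ (fun f t => cZ p 1 ((t : Module.End ℤ ↥(intLattice p 2)) f))
    (fun f g t => by simp only [map_add])
    (fun c f t => by simp only [map_smul])
    (fun f s t => by simp only [Subalgebra.coe_add, LinearMap.add_apply, map_add])
    (fun c f t => by simp only [Subalgebra.coe_smul, LinearMap.smul_apply, map_smul])

theorem pairLT_apply (f : ↥(intLattice p 2)) (t : ↥(heckeLatticeAlgebra p ∅)) :
    pairLT p f t = cZ p 1 ((t : Module.End ℤ ↥(intLattice p 2)) f) := rfl

/-- Hecke operators `tₙ` with `a₁(tₙ f) = aₙ(f)`. -/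
theorem exists_T_coeff (n : ℕ) (hn : 1 ≤ n) :
    ∃ t : ↥(heckeLatticeAlgebra p ∅), ∀ f : ↥(intLattice p 2), pairLT p f t = cZ p n f := by
  obtain ⟨t, ht, -⟩ := exists_hecke_poly p n hn
  exact ⟨redPhi p t, ht⟩

theorem pairLT_injective : Function.Injective (pairLT p) := by
  rw [injective_iff_map_eq_zero]
  intro f hf
  refine cZ_sep p f fun n hn => ?_
  obtain ⟨t, ht⟩ := exists_T_coeff p n hn
  rw [← ht f, hf, LinearMap.zero_apply]

theorem pairLT_flip_injective : Function.Injective (pairLT p).flip := by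
  rw [injective_iff_map_eq_zero]
  intro t ht
  have h0 : ∀ f : ↥(intLattice p 2), pairLT p f t = 0 := fun f => by
    have := LinearMap.congr_fun ht f
    simpa only [LinearMap.flip_apply, LinearMap.zero_apply] using this
  apply Subtype.ext
  refine LinearMap.ext fun f => ?_
  change (t : Module.End ℤ ↥(intLattice p 2)) f = 0
  refine cZ_sep p _ fun n hn => ?_
  obtain ⟨tn, htn⟩ := exists_T_coeff p n hn
  rw [← htn, pairLT_apply]
  have hcomm : (tn : Module.End ℤ ↥(intLattice p 2)) ((t : Module.End ℤ ↥(intLattice p 2)) f) =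
      (t : Module.End ℤ ↥(intLattice p 2)) ((tn : Module.End ℤ ↥(intLattice p 2)) f) := by
    have h1 : tn * t = t * tn := mul_comm tn t
    have h2 := congrArg (fun x : ↥(heckeLatticeAlgebra p ∅) =>
      (x : Module.End ℤ ↥(intLattice p 2)) f) h1
    simpa only [Subalgebra.coe_mul, Module.End.mul_apply] using h2
  rw [hcomm]
  exact h0 _

theorem finrank_lattice_eq_hecke :
    Module.finrank ℤ ↥(intLattice p 2) = Module.finrank ℤ ↥(heckeLatticeAlgebra p ∅) := by
  haveI := intLattice.moduleFinite p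
  haveI := intLattice.moduleFree p
  apply le_antisymm
  · have h := LinearMap.finrank_le_finrank_of_injective (pairLT_injective p)
    rwa [Module.finrank_linearMap_self] at h
  · have h := LinearMap.finrank_le_finrank_of_injective (pairLT_flip_injective p)
    rwa [Module.finrank_linearMap_self] at h

/-- A full-rank submodule of a finite free `ℤ`-module contains a positive multiple of every
element. -/
theorem exists_nsmul_mem_of_finrank_eq {M : Type*} [AddCommGroup M] [Module.Free ℤ M]
    [Module.Finite ℤ M] (R : Submodule ℤ M) (h : Module.finrank ℤ R = Module.finrank ℤ M)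
    (x : M) : ∃ d : ℕ, 0 < d ∧ d • x ∈ R := by
  haveI : Finite (M ⧸ R) := Submodule.finiteQuotientOfFreeOfRankEq R h
  refine ⟨addOrderOf (Submodule.Quotient.mk (p := R) x), addOrderOf_pos _, ?_⟩
  rw [← Submodule.Quotient.mk_eq_zero, Submodule.Quotient.mk_smul]
  exact addOrderOf_nsmul_eq_zero _

theorem finrank_range_pairLT :
    Module.finrank ℤ (LinearMap.range (pairLT p)) =
      Module.finrank ℤ (↥(heckeLatticeAlgebra p ∅) →ₗ[ℤ] ℤ) := by
  haveI := intLattice.moduleFinite p
  haveI := intLattice.moduleFree p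
  rw [LinearMap.finrank_range_of_inj (pairLT_injective p), Module.finrank_linearMap_self,
    finrank_lattice_eq_hecke]

end

end Fermat.Agent.S16_helper10_RED
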