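import Fermat.Agent.S22_Act
import Fermat.Prelude.Def_CuspForm_HeckeAlgebra
import Fermat.Prelude.Thm_CongruenceSubgroup_one_mem_strictPeriods_Gamma0
import Fermat.Prelude.Thm_ModularForm_sturm_bound_Gamma0

set_option autoImplicit false

namespace Fermat.Agent.S22

open Complex Filter Topology
open UpperHalfPlane hiding I
open scoped MatrixGroups ModularForm

noncomputable section

local notation "Γ₀(" N ")" => CongruenceSubgroup.Gamma0 N

variable {N : ℕ} {k : ℤ}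

/-- the `q`-expansion coefficients of a cusp form -/
def coeffs (f : CuspForm Γ₀(N) k) : ℕ → ℂ := fun n => ModularFormClass.qCoeff ⇑f n

theorem hΓ1 (N : ℕ) :
    (1 : ℝ) ∈ (Subgroup.map (Matrix.SpecialLinearGroup.mapGL ℝ) Γ₀(N)).strictPeriods :=
  CongruenceSubgroup.one_mem_strictPeriods_Gamma0 N

theorem coeffs_add (f g : CuspForm Γ₀(N) k) : coeffs (f + g) = coeffs f + coeffs g := by
  funext n
  simp only [coeffs, ModularFormClass.qCoeff, FunLike.coe_add, Pi.add_apply]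
  rw [ModularForm.qExpansion_add one_pos (hΓ1 N) f g, map_add]

theorem coeffs_smul (c : ℂ) (f : CuspForm Γ₀(N) k) : coeffs (c • f) = c • coeffs f := by
  funext n
  have h1 : ⇑(c • f) = c • ⇑f := by
    ext z
    simp
  simp only [coeffs, ModularFormClass.qCoeff, h1, Pi.smul_apply]
  rw [ModularForm.qExpansion_smul one_pos (hΓ1 N) c f]
  simp

theorem T_mem_Gamma0 (N : ℕ) : ModularGroup.T ∈ Γ₀(N) := by
  rw [CongruenceSubgroup.Gamma0_mem]
  simp [ModularGroup.T]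

theorem coeffs_zero_eq [NeZero N] (f : CuspForm Γ₀(N) k) : coeffs f 0 = 0 :=
  CuspFormClass.qExpansion_coeff_zero f one_pos (hΓ1 N)

theorem coeffs_polyGrowth [NeZero N] (f : CuspForm Γ₀(N) k) : PolyGrowth (coeffs f) := by
  refine ⟨coeffs_zero_eq f, ?_⟩
  have hbig := CuspFormClass.qExpansion_isBigO f
  rw [Subgroup.strictWidthInfty_eq_one_of_T_mem (T_mem_Gamma0 N)] at hbig
  obtain ⟨C, hC0, hC⟩ := Asymptotics.bound_of_isBigO_nat_atTop hbig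
  refine ⟨C, k.toNat, fun n => ?_⟩
  rcases Nat.eq_zero_or_pos n with rfl | hn
  · rw [coeffs_zero_eq f, norm_zero]
    positivity
  · have hn1 : (1 : ℝ) ≤ n := by exact_mod_cast hn
    have hn0 : (0 : ℝ) < n := by linarith
    have hne : (n : ℝ) ^ ((k : ℝ) / 2) ≠ 0 := (Real.rpow_pos_of_pos hn0 _).ne'
    have h1 := hC hne
    have h2 : ‖(n : ℝ) ^ ((k : ℝ) / 2)‖ ≤ (n : ℝ) ^ k.toNat := by
      rw [Real.norm_of_nonneg (Real.rpow_nonneg hn0.le _), ← Real.rpow_natCast]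
      apply Real.rpow_le_rpow_of_exponent_le hn1
      have h3 : (k : ℝ) ≤ (k.toNat : ℝ) := by exact_mod_cast Int.self_le_toNat k
      have h4 : (0 : ℝ) ≤ (k.toNat : ℝ) := by positivity
      rcases le_or_gt 0 (k : ℝ) with h5 | h5
      · linarith
      · linarith
    calc ‖coeffs f n‖ ≤ C * ‖(n : ℝ) ^ ((k : ℝ) / 2)‖ := h1
      _ ≤ C * (n : ℝ) ^ k.toNat := by gcongr

theorem eis_coeffs_zero [NeZero N] (f : CuspForm Γ₀(N) k) (τ : ℍ) :
    eis (coeffs f) 0 (τ : ℂ) = f τ := by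
  have : Fact (IsCusp OnePoint.infty (Subgroup.map (Matrix.SpecialLinearGroup.mapGL ℝ) Γ₀(N))) :=
    ⟨Subgroup.isCusp_of_mem_strictPeriods one_pos (hΓ1 N)⟩
  have h := τ.hasSum_qExpansion one_pos
    (SlashInvariantFormClass.periodic_comp_ofComplex f (hΓ1 N))
    (ModularFormClass.holo f) (ModularFormClass.bdd_at_infty f)
  unfold eis
  rw [← h.tsum_eq]
  refine tsum_congr fun n => ?_
  simp only [eterm, coeffs, ModularFormClass.qCoeff, pow_zero, inv_one, mul_one,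
    Function.Periodic.qParam, smul_eq_mul]
  rw [← Complex.exp_nat_mul]
  congr 2
  push_cast
  ring

/-- `Φ_f(τ; w)` -/
def PhiH (m : ℕ) (f : CuspForm Γ₀(N) k) (τ : ℍ) (w : ℂ × ℂ) : ℂ :=
  Phi (coeffs f) m (τ : ℂ) w.1 w.2

/-- `Φ_f(g τ; g w)` -/
def Xi (m : ℕ) (f : CuspForm Γ₀(N) k) (g : GL (Fin 2) ℝ) (τ : ℍ) (w : ℂ × ℂ) : ℂ :=
  PhiH m f (g • τ) (vact g w)

/-- the period of `f` along `g` -/
def per (m : ℕ) (f : CuspForm Γ₀(N) k) (g : GL (Fin 2) ℝ) (w : ℂ × ℂ) : ℂ :=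
  Xi m f g UpperHalfPlane.I w - PhiH m f UpperHalfPlane.I w

theorem Xi_mul (m : ℕ) (f : CuspForm Γ₀(N) k) (g h : GL (Fin 2) ℝ) (τ : ℍ) (w : ℂ × ℂ) :
    Xi m f (g * h) τ w = Xi m f g (h • τ) (vact h w) := by
  simp only [Xi, mul_smul, vact_mul]

theorem Xi_one (m : ℕ) (f : CuspForm Γ₀(N) k) (τ : ℍ) (w : ℂ × ℂ) :
    Xi m f 1 τ w = PhiH m f τ w := by
  simp only [Xi, one_smul, vact_one]

/-- complex-variable version of `Xi` -/
def XiC (m : ℕ) (f : CuspForm Γ₀(N) k) (g : GL (Fin 2) ℝ) (w : ℂ × ℂ) (z : ℂ) : ℂ :=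
  Phi (coeffs f) m (num g z / denom g z) (vact g w).1 (vact g w).2

theorem XiC_coe (m : ℕ) (f : CuspForm Γ₀(N) k) {g : GL (Fin 2) ℝ} (hg : 0 < g.det.val)
    (w : ℂ × ℂ) (τ : ℍ) : XiC m f g w (τ : ℂ) = Xi m f g τ w := by
  simp only [XiC, Xi, PhiH, coe_smul_of_det_pos hg]

theorem slash_apply_of_det_pos (f : ℍ → ℂ) {g : GL (Fin 2) ℝ} (hg : 0 < g.det.val) (m : ℕ)
    (hk : k = m + 2) (τ : ℍ) :
    (f ∣[k] g) τ = f (g • τ) * (g.det.val : ℂ) ^ (m + 1) * ((denom g τ) ^ (m + 2))⁻¹ := by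
  rw [ModularForm.slash_apply, UpperHalfPlane.σ, if_pos hg, abs_of_pos hg, hk]
  have h1 : ((m : ℤ) + 2 - 1) = ((m + 1 : ℕ) : ℤ) := by push_cast; ring
  have h2 : ((m : ℤ) + 2) = ((m + 2 : ℕ) : ℤ) := by push_cast; ring
  rw [h1, zpow_natCast, h2, zpow_neg, zpow_natCast]
  rfl

theorem hasDerivAt_XiC [NeZero N] (m : ℕ) (hk : k = m + 2) (f : CuspForm Γ₀(N) k)
    {g : GL (Fin 2) ℝ} (hg : 0 < g.det.val) (w : ℂ × ℂ) (τ : ℍ) :
    HasDerivAt (XiC m f g w) ((⇑f ∣[k] g) τ * (w.1 - τ * w.2) ^ m) (τ : ℂ) := by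
  have h := hasDerivAt_Phi_comp (coeffs_polyGrowth f) m g hg w τ.im_pos
  refine h.congr_deriv ?_
  rw [slash_apply_of_det_pos (⇑f) hg m hk τ, ← eis_coeffs_zero f (g • τ),
    coe_smul_of_det_pos hg]

theorem hasDerivAt_PhiC [NeZero N] (m : ℕ) (f : CuspForm Γ₀(N) k) (w : ℂ × ℂ) (τ : ℍ) :
    HasDerivAt (fun z : ℂ => Phi (coeffs f) m z w.1 w.2) (f τ * (w.1 - τ * w.2) ^ m) (τ : ℂ) := by
  have h := hasDerivAt_Phi (coeffs_polyGrowth f) m w.1 w.2 τ.im_pos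
  rwa [eis_coeffs_zero f τ] at h

theorem const_of_hasDerivAt_zero {D : ℂ → ℂ} (h : ∀ z : ℂ, 0 < z.im → HasDerivAt D 0 z)
    {z₁ z₂ : ℂ} (h₁ : 0 < z₁.im) (h₂ : 0 < z₂.im) : D z₁ = D z₂ := by
  have hopen : IsOpen {w : ℂ | 0 < w.im} := isOpen_lt continuous_const Complex.continuous_im
  have hconv : Convex ℝ {w : ℂ | 0 < w.im} := by
    simpa using convex_halfSpace_im_gt 0
  refine hopen.is_const_of_deriv_eq_zero hconv.isPreconnected
    (fun z hz => (h z hz).differentiableAt.differentiableWithinAt)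
    (fun z hz => (h z hz).deriv) h₁ h₂

theorem eq_zero_of_hasDerivAt_zero_of_tendsto {D : ℂ → ℂ}
    (h : ∀ z : ℂ, 0 < z.im → HasDerivAt D 0 z)
    (hlim : Tendsto (fun t : ℝ => D ((t : ℂ) * I)) atTop (𝓝 0)) {z : ℂ} (hz : 0 < z.im) :
    D z = 0 := by
  have hc : ∀ t : ℝ, 0 < t → D ((t : ℂ) * I) = D z := fun t ht =>
    const_of_hasDerivAt_zero h (by simpa using ht) hz
  have h2 : Tendsto (fun t : ℝ => D ((t : ℂ) * I)) atTop (𝓝 (D z)) := by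
    refine tendsto_const_nhds.congr' ?_
    filter_upwards [eventually_gt_atTop 0] with t ht using (hc t ht).symm
  exact tendsto_nhds_unique h2 hlim

theorem Xi_sub_PhiH_const [NeZero N] (m : ℕ) (hk : k = m + 2) (f : CuspForm Γ₀(N) k)
    {g : GL (Fin 2) ℝ} (hg : 0 < g.det.val) (hinv : ⇑f ∣[k] g = ⇑f) (w : ℂ × ℂ) (τ : ℍ) :
    Xi m f g τ w - PhiH m f τ w = per m f g w := by
  have hD : ∀ z : ℂ, 0 < z.im →
      HasDerivAt (fun z => XiC m f g w z - Phi (coeffs f) m z w.1 w.2) 0 z := by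
    intro z hz
    have h1 := hasDerivAt_XiC m hk f hg w ⟨z, hz⟩
    have h2 := hasDerivAt_PhiC m f w ⟨z, hz⟩
    have h3 := h1.sub h2
    rw [hinv, sub_self] at h3
    exact h3
  have h := const_of_hasDerivAt_zero hD τ.im_pos UpperHalfPlane.I.im_pos
  simp only [XiC_coe m f hg] at h
  exact h

theorem tendsto_XiC_vertical [NeZero N] (m : ℕ) (f : CuspForm Γ₀(N) k) {g : GL (Fin 2) ℝ}
    (h10 : g 1 0 = 0) (h00 : 0 < g 0 0) (h11 : 0 < g 1 1) (w : ℂ × ℂ) :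
    Tendsto (fun t : ℝ => XiC m f g w ((t : ℂ) * I)) atTop (𝓝 0) := by
  have hc : 0 < g 0 0 / g 1 1 := div_pos h00 h11
  have h1 := (tendsto_Phi_vertical (coeffs_polyGrowth f) m (vact g w).1 (vact g w).2
    (g 0 1 / g 1 1)).comp (tendsto_id.const_mul_atTop hc)
  refine h1.congr fun t => ?_
  simp only [Function.comp_apply, XiC, id_eq, num, denom, h10]
  congr 1
  have h11' : ((g 1 1 : ℝ) : ℂ) ≠ 0 := by exact_mod_cast h11.ne'
  push_cast
  simp only [zero_mul, zero_add]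
  field_simp
  ring

theorem PhiH_hecke [NeZero N] (m : ℕ) (hk : k = m + 2) {ι : Type} [Fintype ι]
    (α : ι → GL (Fin 2) ℝ) (h10 : ∀ x, (α x) 1 0 = 0) (h00 : ∀ x, 0 < (α x) 0 0)
    (h11 : ∀ x, 0 < (α x) 1 1) (f f' : CuspForm Γ₀(N) k)
    (hf' : ⇑f' = ∑ x, ⇑f ∣[k] α x) (τ : ℍ) (w : ℂ × ℂ) :
    PhiH m f' τ w = ∑ x, Xi m f (α x) τ w := by
  have hdet : ∀ x, 0 < (α x).det.val := by
    intro x
    rw [det_eq_entries, h10 x]
    have := mul_pos (h00 x) (h11 x)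
    linarith
  have hD : ∀ z : ℂ, 0 < z.im →
      HasDerivAt (fun z => Phi (coeffs f') m z w.1 w.2 - ∑ x, XiC m f (α x) w z) 0 z := by
    intro z hz
    have h1 := hasDerivAt_PhiC m f' w ⟨z, hz⟩
    have h2 : HasDerivAt (fun z => ∑ x, XiC m f (α x) w z)
        (∑ x, (⇑f ∣[k] α x) ⟨z, hz⟩ * (w.1 - z * w.2) ^ m) z :=
      HasDerivAt.fun_sum fun x _ => hasDerivAt_XiC m hk f (hdet x) w ⟨z, hz⟩
    have h3 := h1.sub h2
    refine h3.congr_deriv ?_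
    rw [hf', Finset.sum_apply, Finset.sum_mul]
    exact sub_self _
  have hlim : Tendsto (fun t : ℝ =>
      (fun z => Phi (coeffs f') m z w.1 w.2 - ∑ x, XiC m f (α x) w z) ((t : ℂ) * I))
      atTop (𝓝 0) := by
    have h1 : Tendsto (fun t : ℝ => Phi (coeffs f') m ((t : ℂ) * I) w.1 w.2) atTop (𝓝 0) := by
      have := tendsto_Phi_vertical (coeffs_polyGrowth f') m w.1 w.2 0
      simpa using this
    have h2 : Tendsto (fun t : ℝ => ∑ x, XiC m f (α x) w ((t : ℂ) * I)) atTop (𝓝 0) := by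
      rw [show (0 : ℂ) = ∑ _x : ι, (0 : ℂ) by simp]
      exact tendsto_finsetSum _ fun x _ => tendsto_XiC_vertical m f (h10 x) (h00 x) (h11 x) w
    simpa using h1.sub h2
  have h := eq_zero_of_hasDerivAt_zero_of_tendsto hD hlim τ.im_pos
  simp only [XiC_coe m f (hdet _)] at h
  exact sub_eq_zero.mp h

theorem slash_eq_of_mem (f : CuspForm Γ₀(N) k) {g : GL (Fin 2) ℝ}
    (hg : g ∈ Subgroup.map (Matrix.SpecialLinearGroup.mapGL ℝ) Γ₀(N)) : ⇑f ∣[k] g = ⇑f :=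
  SlashInvariantFormClass.slash_action_eq f g hg

theorem det_pos_of_mem {g : GL (Fin 2) ℝ}
    (hg : g ∈ Subgroup.map (Matrix.SpecialLinearGroup.mapGL ℝ) Γ₀(N)) : 0 < g.det.val := by
  obtain ⟨γ, -, rfl⟩ := hg
  simp

theorem per_one [NeZero N] (m : ℕ) (f : CuspForm Γ₀(N) k) (w : ℂ × ℂ) : per m f 1 w = 0 := by
  simp only [per, Xi_one, sub_self]

theorem per_mul [NeZero N] (m : ℕ) (hk : k = m + 2) (f : CuspForm Γ₀(N) k) {g h : GL (Fin 2) ℝ}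
    (hg : g ∈ Subgroup.map (Matrix.SpecialLinearGroup.mapGL ℝ) Γ₀(N)) (w : ℂ × ℂ) :
    per m f (g * h) w = per m f g (vact h w) + per m f h w := by
  have h1 := Xi_sub_PhiH_const m hk f (det_pos_of_mem hg) (slash_eq_of_mem f hg) (vact h w)
    (h • UpperHalfPlane.I)
  simp only [per, Xi_mul] at h1 ⊢
  have h2 : Xi m f h UpperHalfPlane.I w = PhiH m f (h • UpperHalfPlane.I) (vact h w) := rfl
  rw [h2]
  linear_combination h1

theorem per_hecke [NeZero N] (m : ℕ) (hk : k = m + 2) {ι : Type} [Fintype ι]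
    (α : ι → GL (Fin 2) ℝ) (h10 : ∀ x, (α x) 1 0 = 0) (h00 : ∀ x, 0 < (α x) 0 0)
    (h11 : ∀ x, 0 < (α x) 1 1) (f f' : CuspForm Γ₀(N) k)
    (hf' : ⇑f' = ∑ x, ⇑f ∣[k] α x) (G : GL (Fin 2) ℝ) (σ : ι ≃ ι) (γ' : ι → GL (Fin 2) ℝ)
    (hγ' : ∀ x, γ' x ∈ Subgroup.map (Matrix.SpecialLinearGroup.mapGL ℝ) Γ₀(N))
    (hmul : ∀ x, α x * G = γ' x * α (σ x)) (w : ℂ × ℂ) :
    per m f' G w = ∑ x, per m f (γ' x) (vact (α (σ x)) w) := by
  have e1 : Xi m f' G UpperHalfPlane.I w = ∑ x, Xi m f (α x * G) UpperHalfPlane.I w := by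
    rw [Xi, PhiH_hecke m hk α h10 h00 h11 f f' hf']
    exact Finset.sum_congr rfl fun x _ => (Xi_mul m f (α x) G _ w).symm
  have e2 : PhiH m f' UpperHalfPlane.I w = ∑ x, Xi m f (α (σ x)) UpperHalfPlane.I w := by
    rw [PhiH_hecke m hk α h10 h00 h11 f f' hf']
    exact (Equiv.sum_comp σ fun x => Xi m f (α x) UpperHalfPlane.I w).symm
  rw [per, e1, e2, ← Finset.sum_sub_distrib]
  refine Finset.sum_congr rfl fun x _ => ?_
  rw [hmul x, Xi_mul]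
  have h1 := Xi_sub_PhiH_const m hk f (det_pos_of_mem (hγ' x)) (slash_eq_of_mem f (hγ' x))
    (vact (α (σ x)) w) (α (σ x) • UpperHalfPlane.I)
  rw [← h1]
  rfl

end

end Fermat.Agent.S22
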