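import Mathlib
import Fermat.Prelude.Def_CuspForm_HeckeAlgebra
import Fermat.Prelude.Thm_ModularFormClass_qCoeff_heckeT
import Fermat.Prelude.Thm_ModularFormClass_qCoeff_heckeU
import Fermat.Prelude.Thm_CongruenceSubgroup_one_mem_strictPeriods_Gamma0

set_option autoImplicit false

/-!
# S23, piece HCOEF: every `q`-coefficient is the first coefficient of a Hecke translate
-/

open CongruenceSubgroup UpperHalfPlane
open scoped MatrixGroups ComplexConjugate

namespace Fermat.Agent.S23_helper28_HCOEF

variable {N : ℕ} {k : ℤ}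

theorem hΓ1 (N : ℕ) :
    (1 : ℝ) ∈ (Subgroup.map (Matrix.SpecialLinearGroup.mapGL ℝ) (Gamma0 N)).strictPeriods :=
  CongruenceSubgroup.one_mem_strictPeriods_Gamma0 N

theorem qCoeff_add (f g : CuspForm (Gamma0 N) k) (n : ℕ) :
    ModularFormClass.qCoeff ⇑(f + g) n =
      ModularFormClass.qCoeff ⇑f n + ModularFormClass.qCoeff ⇑g n := by
  simp only [ModularFormClass.qCoeff, FunLike.coe_add]
  rw [ModularForm.qExpansion_add one_pos (hΓ1 N) f g, map_add]

theorem qCoeff_smul (c : ℂ) (f : CuspForm (Gamma0 N) k) (n : ℕ) :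
    ModularFormClass.qCoeff ⇑(c • f) n = c * ModularFormClass.qCoeff ⇑f n := by
  have h1 : ⇑(c • f) = c • ⇑f := by
    ext z
    simp
  simp only [ModularFormClass.qCoeff, h1]
  rw [ModularForm.qExpansion_smul one_pos (hΓ1 N) c f]
  simp

/-- The `n`-th `q`-coefficient as a linear functional. -/
noncomputable def aLin (N : ℕ) (k : ℤ) (n : ℕ) : CuspForm (Gamma0 N) k →ₗ[ℂ] ℂ where
  toFun f := ModularFormClass.qCoeff ⇑f n
  map_add' f g := qCoeff_add f g n
  map_smul' c f := qCoeff_smul c f n

@[simp] theorem aLin_apply (n : ℕ) (f : CuspForm (Gamma0 N) k) :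
    aLin N k n f = ModularFormClass.qCoeff ⇑f n := rfl

theorem aLin_heckeU [NeZero N] {p : ℕ} (hp : p.Prime) (hpN : p ∣ N) (m : ℕ)
    (f : CuspForm (Gamma0 N) k) :
    aLin N k m (CuspForm.heckeULin k hpN f) = aLin N k (m * p) f := by
  simp only [aLin_apply, CuspForm.coe_heckeULin_apply]
  rw [ModularFormClass.qCoeff_heckeU f (hΓ1 N) hp.ne_zero, ModularForm.coeffHeckeU_apply]

theorem aLin_heckeT [NeZero N] {p : ℕ} (hp : p.Prime) (hpN : ¬ p ∣ N) (m : ℕ)
    (f : CuspForm (Gamma0 N) k) :
    aLin N k m (CuspForm.heckeTLin k hp hpN f) =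
      aLin N k (m * p) f + if p ∣ m then (p : ℂ) ^ (k - 1) * aLin N k (m / p) f else 0 := by
  simp only [aLin_apply, CuspForm.coe_heckeTLin_apply]
  rw [ModularFormClass.qCoeff_heckeT f (hΓ1 N) hp.ne_zero, ModularForm.coeffHeckeT_apply]

theorem exists_hecke_coeff (N : ℕ) [NeZero N] (k : ℤ) (hk : 1 ≤ k) (n : ℕ) (hn : 1 ≤ n) :
    ∃ t ∈ CuspForm.heckeAlgebra N k ∅, ∀ f : CuspForm (Gamma0 N) k,
      ModularFormClass.qCoeff (t f) 1 = ModularFormClass.qCoeff f n := by
  induction n using Nat.strong_induction_on with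
  | _ n ih =>
    rcases Nat.eq_or_lt_of_le hn with h1 | h1
    · refine ⟨1, Subalgebra.one_mem _, fun f => ?_⟩
      rw [← h1]
      rfl
    · -- `n > 1`
      have hn1 : n ≠ 1 := by omega
      set p := n.minFac with hp
      have hpp : p.Prime := Nat.minFac_prime hn1
      have hpn : p ∣ n := Nat.minFac_dvd n
      set m := n / p with hm
      have hmp : m * p = n := Nat.div_mul_cancel hpn
      have hm1 : 1 ≤ m := by
        rcases Nat.eq_zero_or_pos m with h0 | h0
        · rw [h0, zero_mul] at hmp; omega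
        · exact h0
      have hmn : m < n := by
        have h2 : 2 ≤ p := hpp.two_le
        nlinarith
      obtain ⟨tm, htm, hftm⟩ := ih m hmn hm1
      by_cases hpN : p ∣ N
      · -- `U_p`
        refine ⟨tm * CuspForm.heckeULin k hpN, Subalgebra.mul_mem _ htm
          (CuspForm.heckeULin_mem_heckeAlgebra hpp hpN (Set.notMem_empty _)), fun f => ?_⟩
        rw [Module.End.mul_apply, hftm]
        have := aLin_heckeU (k := k) hpp hpN m f
        simp only [aLin_apply] at this
        rw [this, hmp]
      · -- `T_p`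
        have hT := CuspForm.heckeTLin_mem_heckeAlgebra (N := N) (k := k) (S := ∅) hpp hpN
          (Set.notMem_empty _)
        by_cases hpm : p ∣ m
        · set m' := m / p with hm'
          have hm'p : m' * p = m := Nat.div_mul_cancel hpm
          have hm'1 : 1 ≤ m' := by
            rcases Nat.eq_zero_or_pos m' with h0 | h0
            · rw [h0, zero_mul] at hm'p; omega
            · exact h0
          have hm'n : m' < n := by
            have h2 : 2 ≤ p := hpp.two_le
            nlinarith
          obtain ⟨tm', htm', hftm'⟩ := ih m' hm'n hm'1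
          have hk1 : 0 ≤ k - 1 := by omega
          have hpow : (p : ℂ) ^ (k - 1) = (((p ^ (k - 1).toNat : ℕ) : ℤ) : ℂ) := by
            conv_lhs => rw [← Int.toNat_of_nonneg hk1]
            rw [zpow_natCast]
            push_cast
            rfl
          refine ⟨tm * CuspForm.heckeTLin k hpp hpN - ((p ^ (k - 1).toNat : ℕ) : ℤ) • tm',
            Subalgebra.sub_mem _ (Subalgebra.mul_mem _ htm hT)
              (Subalgebra.zsmul_mem _ htm' _), fun f => ?_⟩
          rw [LinearMap.sub_apply, Module.End.mul_apply, LinearMap.smul_apply]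
          have e1 := (aLin N k 1).map_sub (tm (CuspForm.heckeTLin k hpp hpN f))
            ((((p ^ (k - 1).toNat : ℕ) : ℤ)) • tm' f)
          simp only [aLin_apply] at e1
          rw [e1]
          have e2 : ModularFormClass.qCoeff (⇑((((p ^ (k - 1).toNat : ℕ) : ℤ)) • tm' f)) 1 =
              (p : ℂ) ^ (k - 1) * ModularFormClass.qCoeff (⇑f) m' := by
            have := map_zsmul (aLin N k 1) (((p ^ (k - 1).toNat : ℕ) : ℤ)) (tm' f)
            simp only [aLin_apply] at this
            rw [this, hftm', hpow, zsmul_eq_mul]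
          rw [e2, hftm]
          have e3 := aLin_heckeT (k := k) hpp hpN m f
          simp only [aLin_apply] at e3
          rw [e3, if_pos hpm, hmp]
          ring
        · refine ⟨tm * CuspForm.heckeTLin k hpp hpN, Subalgebra.mul_mem _ htm hT, fun f => ?_⟩
          rw [Module.End.mul_apply, hftm]
          have e3 := aLin_heckeT (k := k) hpp hpN m f
          simp only [aLin_apply] at e3
          rw [e3, if_neg hpm, hmp, add_zero]

end Fermat.Agent.S23_helper28_HCOEF
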