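import Fermat.Agent.S16_helper10_REDsig
import Fermat.Agent.S22_Period
import Fermat.Agent.S23_helper28_HCOEF
import Fermat.Prelude.Def_CuspForm_HeckeLocal
import Fermat.Prelude.Def_CuspForm_HeckeEvalForms
import Fermat.Prelude.Def_HeckeGalois_EichlerShimura
import Fermat.Prelude.Def_ModularCurve_ModularUnit

set_option autoImplicit false

/-!
# S16, piece RED (part 2): the integral lattice, its coefficient functionals, and the action
of the abstract Hecke algebra on it
-/

namespace Fermat.Agent.S16_helper10_RED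

open CongruenceSubgroup CuspForm ModularCurve
open Fermat.Agent.S23_helper28_HCOEF

noncomputable section

variable (N : ℕ) [NeZero N]

/-- A weight two cusp form is determined by its `q`-coefficients of positive index. -/
theorem red_eq_zero_of_qCoeff (f : CuspForm (Gamma0 N) 2)
    (h : ∀ n : ℕ, 1 ≤ n → ModularFormClass.qCoeff f n = 0) : f = 0 := by
  ext τ
  rw [← Fermat.Agent.S22.eis_coeffs_zero f τ]
  have : ∀ n, Fermat.Agent.S22.eterm (Fermat.Agent.S22.coeffs f) 0 n (τ : ℂ) = 0 := by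
    intro n
    rcases Nat.eq_zero_or_pos n with rfl | hn
    · simp [Fermat.Agent.S22.eterm, Fermat.Agent.S22.coeffs_zero_eq f]
    · simp [Fermat.Agent.S22.eterm, Fermat.Agent.S22.coeffs, h n hn]
  simp [Fermat.Agent.S22.eis, this]

theorem red_qCoeff_zero (f : CuspForm (Gamma0 N) 2) : ModularFormClass.qCoeff f 0 = 0 :=
  Fermat.Agent.S22.coeffs_zero_eq f

omit [NeZero N] in
theorem red_qCoeff_zsmul (c : ℤ) (f : CuspForm (Gamma0 N) 2) (n : ℕ) :
    ModularFormClass.qCoeff ⇑(c • f) n = (c : ℂ) * ModularFormClass.qCoeff ⇑f n := by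
  have := map_zsmul (aLin N 2 n) c f
  simpa only [aLin_apply, zsmul_eq_mul] using this

omit [NeZero N] in
theorem red_qCoeff_zero_form (n : ℕ) :
    ModularFormClass.qCoeff ⇑(0 : CuspForm (Gamma0 N) 2) n = 0 := by
  have := map_zero (aLin N 2 n)
  simpa only [aLin_apply] using this

omit [NeZero N] in
/-- Membership in the integral lattice: all `q`-coefficients are integers. -/
theorem red_mem_intLattice_iff (f : CuspForm (Gamma0 N) 2) :
    f ∈ intLattice N 2 ↔ ∀ n : ℕ, ∃ m : ℤ, ModularFormClass.qCoeff f n = (m : ℂ) := by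
  constructor
  · intro hf
    unfold intLattice at hf
    induction hf using Submodule.span_induction with
    | mem x hx => exact hx
    | zero => exact fun n => ⟨0, by rw [red_qCoeff_zero_form]; simp⟩
    | add x y _ _ hx hy =>
      intro n
      obtain ⟨a, ha⟩ := hx n
      obtain ⟨b, hb⟩ := hy n
      exact ⟨a + b, by rw [qCoeff_add, ha, hb]; push_cast; rfl⟩
    | smul c x _ hx =>
      intro n
      obtain ⟨a, ha⟩ := hx n
      exact ⟨c * a, by rw [red_qCoeff_zsmul, ha]; push_cast; rfl⟩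
  · intro h
    exact Submodule.subset_span h

/-- The integral `n`-th coefficient of an element of the lattice. -/
def cZfun (n : ℕ) (f : ↥(intLattice N 2)) : ℤ :=
  ((red_mem_intLattice_iff N f.1).mp f.2 n).choose

omit [NeZero N] in
theorem cZfun_spec (n : ℕ) (f : ↥(intLattice N 2)) :
    ((cZfun N n f : ℤ) : ℂ) = ModularFormClass.qCoeff (f : CuspForm (Gamma0 N) 2) n :=
  ((red_mem_intLattice_iff N f.1).mp f.2 n).choose_spec.symm

/-- The integral `n`-th coefficient as a `ℤ`-linear functional on the lattice. -/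
def cZ (n : ℕ) : ↥(intLattice N 2) →ₗ[ℤ] ℤ where
  toFun := cZfun N n
  map_add' f g := by
    apply Int.cast_injective (α := ℂ)
    rw [Int.cast_add, cZfun_spec, cZfun_spec, cZfun_spec]
    exact qCoeff_add _ _ n
  map_smul' c f := by
    apply Int.cast_injective (α := ℂ)
    rw [RingHom.id_apply, smul_eq_mul, Int.cast_mul, cZfun_spec, cZfun_spec]
    exact red_qCoeff_zsmul N c _ n

omit [NeZero N] in
theorem cZ_spec (n : ℕ) (f : ↥(intLattice N 2)) :
    ((cZ N n f : ℤ) : ℂ) = ModularFormClass.qCoeff (f : CuspForm (Gamma0 N) 2) n :=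
  cZfun_spec N n f

theorem cZ_zero (f : ↥(intLattice N 2)) : cZ N 0 f = 0 := by
  apply Int.cast_injective (α := ℂ)
  rw [cZ_spec, red_qCoeff_zero, Int.cast_zero]

/-- Separation: an element of the lattice with vanishing coefficients is zero. -/
theorem cZ_sep (f : ↥(intLattice N 2)) (h : ∀ n : ℕ, 1 ≤ n → cZ N n f = 0) : f = 0 := by
  apply Subtype.ext
  refine red_eq_zero_of_qCoeff N _ fun n hn => ?_
  rw [← cZ_spec, h n hn, Int.cast_zero]

/-- Saturation: an element of the lattice all of whose coefficients are divisible by `d` is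
`d` times an element of the lattice. -/
theorem cZ_sat (f : ↥(intLattice N 2)) (d : ℤ) (hd : d ≠ 0)
    (h : ∀ n : ℕ, 1 ≤ n → d ∣ cZ N n f) : ∃ g : ↥(intLattice N 2), f = d • g := by
  have hdC : (d : ℂ) ≠ 0 := Int.cast_ne_zero.mpr hd
  have hg : ((d : ℂ)⁻¹ • (f : CuspForm (Gamma0 N) 2)) ∈ intLattice N 2 := by
    rw [red_mem_intLattice_iff]
    intro n
    rcases Nat.eq_zero_or_pos n with rfl | hn
    · exact ⟨0, by rw [red_qCoeff_zero]; simp⟩
    · obtain ⟨c, hc⟩ := h n hn
      refine ⟨c, ?_⟩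
      rw [qCoeff_smul, ← cZ_spec, hc]
      push_cast
      field_simp
  refine ⟨⟨_, hg⟩, Subtype.ext ?_⟩
  rw [Submodule.coe_smul]
  change (f : CuspForm (Gamma0 N) 2) = d • ((d : ℂ)⁻¹ • (f : CuspForm (Gamma0 N) 2))
  rw [← Int.cast_smul_eq_zsmul ℂ d, smul_smul, mul_inv_cancel₀ hdC, one_smul]

/-- The composite `HeckeAlg → heckeAlgebra → heckeLatticeAlgebra` of the frozen statement. -/
def redPhi : HeckeAlg →+* ↥(heckeLatticeAlgebra N ∅) :=
  (latticeRestrictHom N ∅).toRingHom.comp (heckeEvalForms N 2)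

theorem red_heckeEvalForms_surjective : Function.Surjective (heckeEvalForms N 2) := by
  rintro ⟨t, ht⟩
  unfold heckeAlgebra at ht
  induction ht using Algebra.adjoin_induction with
  | mem x hx =>
    rcases hx with ⟨ℓ, hℓ, hℓN, -, rfl⟩ | ⟨q, hqN, hq, -, rfl⟩
    · exact ⟨heckeGen ⟨ℓ, hℓ⟩, heckeEvalForms_heckeGen_of_not_dvd (ℓ := ⟨ℓ, hℓ⟩) hℓN⟩
    · exact ⟨heckeGen ⟨q, hq⟩, heckeEvalForms_heckeGen_of_dvd (q := ⟨q, hq⟩) hqN⟩
  | algebraMap r => exact ⟨MvPolynomial.C r, by rw [heckeEvalForms_C]; rfl⟩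
  | add x y hx hy ihx ihy =>
    obtain ⟨a, ha⟩ := ihx
    obtain ⟨b, hb⟩ := ihy
    exact ⟨a + b, by rw [map_add, ha, hb]; rfl⟩
  | mul x y hx hy ihx ihy =>
    obtain ⟨a, ha⟩ := ihx
    obtain ⟨b, hb⟩ := ihy
    exact ⟨a * b, by rw [map_mul, ha, hb]; rfl⟩

theorem redPhi_surjective : Function.Surjective (redPhi N) :=
  (latticeRestrictHom_surjective N ∅).comp (red_heckeEvalForms_surjective N)

/-- The action of `redPhi t` on the lattice, through the `ℂ`-linear Hecke operator. -/
theorem redPhi_apply_coe (t : HeckeAlg) (f : ↥(intLattice N 2)) :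
    ((((redPhi N t : ↥(heckeLatticeAlgebra N ∅)) : Module.End ℤ ↥(intLattice N 2)) f :
        ↥(intLattice N 2)) : CuspForm (Gamma0 N) 2) =
      ((heckeEvalForms N 2 t : ↥(heckeAlgebra N 2 ∅)) :
        Module.End ℂ (CuspForm (Gamma0 N) 2)) (f : CuspForm (Gamma0 N) 2) := rfl

/-- The coefficients of `T_ℓ f` (resp. `U_ℓ f`). -/
theorem cZ_redPhi_heckeGen (ℓ : Nat.Primes) (m : ℕ) (f : ↥(intLattice N 2)) :
    cZ N m (((redPhi N (heckeGen ℓ) : ↥(heckeLatticeAlgebra N ∅)) :
        Module.End ℤ ↥(intLattice N 2)) f) =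
      cZ N (m * ℓ) f +
        if (ℓ : ℕ) ∣ N then 0 else if (ℓ : ℕ) ∣ m then (ℓ : ℤ) * cZ N (m / ℓ) f else 0 := by
  apply Int.cast_injective (α := ℂ)
  rw [cZ_spec, redPhi_apply_coe]
  by_cases h : (ℓ : ℕ) ∣ N
  · rw [if_pos h, add_zero, cZ_spec, heckeEvalForms_heckeGen_of_dvd h, heckeAlgebra.coe_U]
    have := aLin_heckeU (k := 2) ℓ.2 h m (f : CuspForm (Gamma0 N) 2)
    simpa only [aLin_apply] using this
  · rw [if_neg h, heckeEvalForms_heckeGen_of_not_dvd h, heckeAlgebra.coe_T]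
    have := aLin_heckeT (k := 2) ℓ.2 h m (f : CuspForm (Gamma0 N) 2)
    simp only [aLin_apply] at this
    rw [this]
    push_cast
    rw [cZ_spec]
    split_ifs with h2
    · rw [cZ_spec]
      norm_num
    · simp

end

end Fermat.Agent.S16_helper10_RED
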