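import Fermat.Agent.S16_helper10_REDdual

set_option autoImplicit false
set_option linter.style.haveILetI false

/-!
# S16, piece RED (part 4): perfectness of the pairing and the hard direction of the
congruence criterion
-/

namespace Fermat.Agent.S16_helper10_RED

open CongruenceSubgroup CuspForm ModularCurve

noncomputable section

variable (p : ℕ) [Fact p.Prime]

theorem pairLT_zsmul (c : ℤ) (g : ↥(intLattice p 2)) (t : ↥(heckeLatticeAlgebra p ∅)) :
    pairLT p (c • g) t = c * pairLT p g t := by
  rw [pairLT_apply, pairLT_apply, LinearMap.map_smul, LinearMap.map_smul, smul_eq_mul]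

set_option maxHeartbeats 2000000 in
/-- The pairing is perfect: every `ℤ`-linear functional on the Hecke algebra is
`t ↦ a₁(t f)` for some `f` in the lattice. -/
theorem pairLT_surjective : Function.Surjective (pairLT p) := by
  intro lam
  obtain ⟨d, hd, f, hf⟩ := exists_nsmul_mem_of_finrank_eq _ (finrank_range_pairLT p) lam
  have hft : ∀ t, pairLT p f t = (d : ℤ) * lam t := by
    intro t
    rw [hf, LinearMap.smul_apply, nsmul_eq_mul]
  have hdvd : ∀ n : ℕ, 1 ≤ n → (d : ℤ) ∣ cZ p n f := by
    intro n hn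
    obtain ⟨tn, htn⟩ := exists_T_coeff p n hn
    rw [← htn f, hft]
    exact ⟨lam tn, rfl⟩
  obtain ⟨g, hg⟩ := cZ_sat p f (d : ℤ) (by exact_mod_cast hd.ne') hdvd
  refine ⟨g, LinearMap.ext fun t => ?_⟩
  have h1 : pairLT p f t = (d : ℤ) * pairLT p g t := by
    rw [hg, pairLT_zsmul]
  have h3 : (d : ℤ) * pairLT p g t = (d : ℤ) * lam t := by rw [← h1, hft]
  exact mul_left_cancel₀ (by exact_mod_cast hd.ne') h3

theorem redPhi_C (a : ℤ) :
    redPhi p (MvPolynomial.C a) = a • (1 : ↥(heckeLatticeAlgebra p ∅)) := by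
  have h : redPhi p (MvPolynomial.C a) = algebraMap ℤ ↥(heckeLatticeAlgebra p ∅) a := by
    unfold redPhi
    rw [RingHom.comp_apply, heckeEvalForms_C]
    exact (latticeRestrictHom p ∅).commutes a
  rw [h, Algebra.algebraMap_eq_smul_one]

theorem redPhi_C_mul (a : ℤ) (t : HeckeAlg) :
    redPhi p (MvPolynomial.C a * t) = a • redPhi p t := by
  rw [(redPhi p).map_mul, redPhi_C, smul_mul_assoc, one_mul]

set_option maxHeartbeats 2000000 in
/-- Every element of `HeckeAlg` is, modulo `ker redPhi`, a `ℤ`-combination of lifts of a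
basis of the Hecke algebra; consequently a `ℤ`-linear functional `lam` on the Hecke algebra
with `lam (redPhi s) ≡ redEps s (mod k)` exists as soon as `redEps (ker redPhi) ⊆ kℤ`. -/
theorem exists_lam_of_dvd_redEps (k : ℕ)
    (h : ∀ s : HeckeAlg, redPhi p s = 0 → (k : ℤ) ∣ redEps p s) :
    ∃ lam : ↥(heckeLatticeAlgebra p ∅) →ₗ[ℤ] ℤ,
      ∀ s : HeckeAlg, (k : ℤ) ∣ redEps p s - lam (redPhi p s) := by
  classical
  let b := Module.Free.chooseBasis ℤ ↥(heckeLatticeAlgebra p ∅)
  have hlift : ∀ i, ∃ t : HeckeAlg, redPhi p t = b i := fun i => redPhi_surjective p (b i)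
  choose tt htt using hlift
  refine ⟨b.constr ℤ (fun i => redEps p (tt i)), fun s => ?_⟩
  have h1 : redPhi p (s - ∑ i, MvPolynomial.C (b.repr (redPhi p s) i) * tt i) = 0 := by
    rw [(redPhi p).map_sub, map_sum (redPhi p), sub_eq_zero]
    conv_lhs => rw [← b.sum_repr (redPhi p s)]
    refine Finset.sum_congr rfl fun i _ => ?_
    rw [redPhi_C_mul, htt]
  have h2 := h _ h1
  have h3 : b.constr ℤ (fun i => redEps p (tt i)) (redPhi p s) =
      ∑ i, b.repr (redPhi p s) i * redEps p (tt i) := by
    rw [Module.Basis.constr_apply_fintype]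
    rfl
  rw [map_sub (redEps p), map_sum (redEps p)] at h2
  rw [h3]
  have h4 : ∀ i, redEps p (MvPolynomial.C (b.repr (redPhi p s) i) * tt i) =
      b.repr (redPhi p s) i * redEps p (tt i) := fun i => by
    rw [map_mul (redEps p), redEps_C]
  simp only [h4] at h2
  exact h2

/-- Hard direction of the congruence criterion: if the Eisenstein character kills
`ker redPhi` modulo `k`, then there is a form in the lattice congruent to the Eisenstein series
modulo `k`. -/
theorem exists_eisCong_of_dvd_redEps (k : ℕ)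
    (h : ∀ s : HeckeAlg, redPhi p s = 0 → (k : ℤ) ∣ redEps p s) :
    ∃ f ∈ intLattice p 2, EisCong p k f := by
  obtain ⟨lam, hlam⟩ := exists_lam_of_dvd_redEps p k h
  obtain ⟨f, hf⟩ := pairLT_surjective p lam
  refine ⟨f.1, f.2, fun n hn => ⟨cZ p n f, (cZ_spec p n f).symm, ?_⟩⟩
  obtain ⟨t, ht, hε⟩ := exists_hecke_poly p n hn
  have := hlam t
  rw [hε, ← hf, pairLT_apply, ht] at this
  rw [← dvd_neg]
  simpa using this

end

end Fermat.Agent.S16_helper10_RED
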