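import Mathlib
import Fermat.Prelude.Def_HeckeGalois_EichlerShimura
import Fermat.Prelude.Def_FLTPrelim_Modularity

set_option autoImplicit false

/-!
# S16, piece RED (part 1): the arithmetic function `sigmaP`

`sigmaP p n` is the sum of the divisors of `n` that are prime to `p`.  We prove the Hecke
recursion `sigmaP p (m * ℓ) = ε_ℓ * sigmaP p m - [ℓ ≠ p, ℓ ∣ m] ℓ * sigmaP p (m / ℓ)` where
`ε_ℓ` is the Eisenstein eigenvalue system of level `p`.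
-/

namespace Fermat.Agent.S16_helper10_RED

/-- sum of the divisors of `n` prime to `p` -/
def sigmaP (p n : ℕ) : ℤ := ∑ d ∈ n.divisors.filter (fun d => ¬ p ∣ d), (d : ℤ)

/-- the completely multiplicative weight `d ↦ d` if `p ∤ d`, `0` otherwise -/
def wtP (p d : ℕ) : ℤ := if p ∣ d then 0 else (d : ℤ)

theorem sigmaP_eq_sum_wtP (p n : ℕ) : sigmaP p n = ∑ d ∈ n.divisors, wtP p d := by
  unfold sigmaP wtP
  rw [Finset.sum_filter]
  refine Finset.sum_congr rfl fun d _ => ?_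
  by_cases h : p ∣ d <;> simp [h]

theorem wtP_mul {p : ℕ} (hp : p.Prime) (a b : ℕ) : wtP p (a * b) = wtP p a * wtP p b := by
  unfold wtP
  by_cases ha : p ∣ a
  · simp [ha, Dvd.dvd.mul_right ha b]
  · by_cases hb : p ∣ b
    · simp [hb, Dvd.dvd.mul_left hb a]
    · have : ¬ p ∣ a * b := fun h => (hp.dvd_mul.mp h).elim ha hb
      simp [ha, hb, this]

theorem wtP_one {p : ℕ} (hp : p.Prime) : wtP p 1 = 1 := by
  unfold wtP
  have : ¬ p ∣ 1 := hp.one_lt.ne' ∘ Nat.dvd_one.mp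
  simp [this]

theorem sigmaP_one {p : ℕ} (hp : p.Prime) : sigmaP p 1 = 1 := by
  rw [sigmaP_eq_sum_wtP]
  simp [wtP_one hp]

theorem divisors_mul_prime_eq (m ℓ : ℕ) (hm : m ≠ 0) (hℓ : ℓ.Prime) :
    (m * ℓ).divisors = m.divisors ∪ m.divisors.image (fun d => ℓ * d) := by
  ext d
  simp only [Nat.mem_divisors, Finset.mem_union, Finset.mem_image]
  constructor
  · rintro ⟨hd, _⟩
    by_cases h : ℓ ∣ d
    · obtain ⟨d', rfl⟩ := h
      right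
      refine ⟨d', ⟨?_, hm⟩, rfl⟩
      rw [mul_comm m ℓ] at hd
      exact (Nat.mul_dvd_mul_iff_left hℓ.pos).mp hd
    · left
      exact ⟨(Nat.Coprime.dvd_of_dvd_mul_right
        ((Nat.Prime.coprime_iff_not_dvd hℓ).mpr h).symm hd), hm⟩
  · rintro (⟨hd, _⟩ | ⟨d', ⟨hd', _⟩, rfl⟩)
    · exact ⟨hd.mul_right ℓ, mul_ne_zero hm hℓ.ne_zero⟩
    · exact ⟨by rw [mul_comm m ℓ]; exact Nat.mul_dvd_mul_left ℓ hd', mul_ne_zero hm hℓ.ne_zero⟩

theorem divisors_inter_image (m ℓ : ℕ) (hm : m ≠ 0) (hℓ : ℓ.Prime) :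
    m.divisors ∩ m.divisors.image (fun d => ℓ * d) =
      if ℓ ∣ m then (m / ℓ).divisors.image (fun d => ℓ * d) else ∅ := by
  split_ifs with h
  · obtain ⟨m', rfl⟩ := h
    have hm' : m' ≠ 0 := fun h0 => hm (by rw [h0, mul_zero])
    rw [Nat.mul_div_cancel_left m' hℓ.pos]
    ext d
    simp only [Finset.mem_inter, Nat.mem_divisors, Finset.mem_image]
    constructor
    · rintro ⟨⟨hd, _⟩, d', ⟨_, _⟩, rfl⟩
      exact ⟨d', ⟨(Nat.mul_dvd_mul_iff_left hℓ.pos).mp hd, hm'⟩, rfl⟩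
    · rintro ⟨d', ⟨hd', _⟩, rfl⟩
      exact ⟨⟨Nat.mul_dvd_mul_left ℓ hd', hm⟩, d', ⟨hd'.mul_left ℓ, hm⟩, rfl⟩
  · ext d
    simp only [Finset.mem_inter, Nat.mem_divisors, Finset.mem_image, Finset.notMem_empty,
      iff_false, not_and]
    rintro ⟨hd, _⟩ ⟨d', _, rfl⟩
    exact h ((Dvd.intro d' rfl).trans hd)

theorem sum_image_mul_wtP {p : ℕ} (hp : p.Prime) (ℓ : ℕ) (hℓ : ℓ.Prime) (s : Finset ℕ) :
    ∑ d ∈ s.image (fun d => ℓ * d), wtP p d = wtP p ℓ * ∑ d ∈ s, wtP p d := by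
  rw [Finset.sum_image, Finset.mul_sum]
  · exact Finset.sum_congr rfl fun d _ => wtP_mul hp ℓ d
  · intro a _ b _ hab
    exact Nat.eq_of_mul_eq_mul_left hℓ.pos hab

/-- The Hecke recursion for `sigmaP`, in terms of the weight `wtP`. -/
theorem sigmaP_mul_prime_wtP {p : ℕ} (hp : p.Prime) (m ℓ : ℕ) (hm : m ≠ 0) (hℓ : ℓ.Prime) :
    sigmaP p (m * ℓ) =
      (1 + wtP p ℓ) * sigmaP p m - if ℓ ∣ m then wtP p ℓ * sigmaP p (m / ℓ) else 0 := by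
  simp only [sigmaP_eq_sum_wtP]
  have h1 := Finset.sum_union_inter (s₁ := m.divisors)
    (s₂ := m.divisors.image (fun d => ℓ * d)) (f := wtP p)
  rw [← divisors_mul_prime_eq m ℓ hm hℓ, divisors_inter_image m ℓ hm hℓ,
    sum_image_mul_wtP hp ℓ hℓ] at h1
  split_ifs with h
  · rw [if_pos h, sum_image_mul_wtP hp ℓ hℓ] at h1
    linarith
  · rw [if_neg h, Finset.sum_empty] at h1
    linarith

theorem wtP_self (p : ℕ) : wtP p p = 0 := by
  simp [wtP]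

theorem wtP_prime_ne {p ℓ : ℕ} (hp : p.Prime) (hℓ : ℓ.Prime) (h : ℓ ≠ p) : wtP p ℓ = ℓ := by
  have : ¬ p ∣ ℓ := fun hd => h ((Nat.prime_dvd_prime_iff_eq hp hℓ).mp hd).symm
  simp [wtP, this]

/-- `1 + wtP p ℓ` is the Eisenstein eigenvalue at `ℓ`. -/
theorem one_add_wtP_eq {p : ℕ} (hp : p.Prime) (ℓ : Nat.Primes) :
    1 + wtP p ℓ = ModularCurve.eisensteinSystem p ℓ := by
  by_cases h : (ℓ : ℕ) ∣ p
  · have : (ℓ : ℕ) = p := (Nat.prime_dvd_prime_iff_eq ℓ.2 hp).mp h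
    rw [ModularCurve.eisensteinSystem_of_dvd h, this, wtP_self, add_zero]
  · have hne : (ℓ : ℕ) ≠ p := fun e => h (e ▸ dvd_rfl)
    rw [ModularCurve.eisensteinSystem_of_not_dvd h, wtP_prime_ne hp ℓ.2 hne]

theorem sigmaP_mul_self {p : ℕ} (hp : p.Prime) (m : ℕ) (hm : m ≠ 0) :
    sigmaP p (m * p) = sigmaP p m := by
  rw [sigmaP_mul_prime_wtP hp m p hm hp, wtP_self]
  simp

theorem sigmaP_mul_prime {p : ℕ} (hp : p.Prime) (m ℓ : ℕ) (hm : m ≠ 0) (hℓ : ℓ.Prime)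
    (h : ℓ ≠ p) :
    sigmaP p (m * ℓ) =
      (1 + (ℓ : ℤ)) * sigmaP p m - if ℓ ∣ m then (ℓ : ℤ) * sigmaP p (m / ℓ) else 0 := by
  rw [sigmaP_mul_prime_wtP hp m ℓ hm hℓ, wtP_prime_ne hp hℓ h]

/-- `f` is congruent to the Eisenstein series modulo `k`: `aₙ(f) ≡ sigmaP p n (mod k)` for all
`n ≥ 1`. -/
def EisCong (p k : ℕ) (f : CuspForm (CongruenceSubgroup.Gamma0 p) 2) : Prop :=
  ∀ n : ℕ, 1 ≤ n → ∃ c : ℤ, ModularFormClass.qCoeff f n = (c : ℂ) ∧ (k : ℤ) ∣ c - sigmaP p n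

end Fermat.Agent.S16_helper10_RED
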