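import Fermat.Agent.S23_helper12_Rank
import Fermat.Prelude.Def_CuspForm_HeckeEvalForms

set_option autoImplicit false

/-!
# S16, lower bound, step L5: Eisenstein equivariance of `d`-characters of the period lattice

For a prime `p`, the character `γ ↦ d(γ) mod p` of `Γ₀(p)` is compatible with the transposed
Hecke action on the period lattice `Λ = Lam p 2 0` of S22: if an additive map `ξ : Λ → A`
satisfies `ξ (perLam γ) = ψ (d γ)` for a character `ψ` of `(ℤ/p)ˣ`, then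
`ξ (λ ∘ t) = ε(t) • ξ λ` where `ε` is the Eisenstein character (`eisensteinSystem p`).
-/

namespace Fermat.Agent.S16_helper11_L5

open Complex CongruenceSubgroup ModularCurve ModularCurve.Period
open UpperHalfPlane hiding I
open scoped MatrixGroups ModularForm
open Fermat.Agent.S22 Fermat.Agent.S23_helper12_Bridge Fermat.Agent.S23_helper12_Rank
open P2MW.S_ModularForm_heckeT_slash_eq_self_of_mem_Gamma0.ModularForm.HeckeSlashInvariance

noncomputable section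

section dUnit

variable (p : ℕ)

theorem cast_c_eq_zero (γ : Gamma0 p) : (((γ : SL(2, ℤ)) 1 0 : ℤ) : ZMod p) = 0 :=
  CongruenceSubgroup.Gamma0_mem.mp γ.2

theorem cast_a_mul_d (γ : Gamma0 p) :
    (((γ : SL(2, ℤ)) 0 0 : ℤ) : ZMod p) * (((γ : SL(2, ℤ)) 1 1 : ℤ) : ZMod p) = 1 :=
  unit_of_apply_one_zero_eq_zero (γ : SL(2, ℤ)) (cast_c_eq_zero p γ)

theorem cast_d_mul (γ δ : Gamma0 p) :
    ((((γ * δ : Gamma0 p) : SL(2, ℤ)) 1 1 : ℤ) : ZMod p)
      = (((γ : SL(2, ℤ)) 1 1 : ℤ) : ZMod p) * (((δ : SL(2, ℤ)) 1 1 : ℤ) : ZMod p) := by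
  have h : (((γ * δ : Gamma0 p) : SL(2, ℤ)) 1 1 : ℤ)
      = (γ : SL(2, ℤ)) 1 0 * (δ : SL(2, ℤ)) 0 1 + (γ : SL(2, ℤ)) 1 1 * (δ : SL(2, ℤ)) 1 1 := by
    simp [Matrix.mul_apply, Fin.sum_univ_two]
  rw [h]
  push_cast
  rw [cast_c_eq_zero p γ]
  ring

theorem cast_a_mul (γ δ : Gamma0 p) :
    ((((γ * δ : Gamma0 p) : SL(2, ℤ)) 0 0 : ℤ) : ZMod p)
      = (((γ : SL(2, ℤ)) 0 0 : ℤ) : ZMod p) * (((δ : SL(2, ℤ)) 0 0 : ℤ) : ZMod p) := by
  have h : (((γ * δ : Gamma0 p) : SL(2, ℤ)) 0 0 : ℤ)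
      = (γ : SL(2, ℤ)) 0 0 * (δ : SL(2, ℤ)) 0 0 + (γ : SL(2, ℤ)) 0 1 * (δ : SL(2, ℤ)) 1 0 := by
    simp [Matrix.mul_apply, Fin.sum_univ_two]
  rw [h]
  push_cast
  rw [cast_c_eq_zero p δ]
  ring

/-- The character `γ ↦ d(γ) mod p` of `Γ₀(p)`. -/
def dUnit : Gamma0 p →* (ZMod p)ˣ where
  toFun γ :=
    { val := (((γ : SL(2, ℤ)) 1 1 : ℤ) : ZMod p)
      inv := (((γ : SL(2, ℤ)) 0 0 : ℤ) : ZMod p)
      val_inv := by rw [mul_comm]; exact cast_a_mul_d p γ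
      inv_val := cast_a_mul_d p γ }
  map_one' := by
    apply Units.ext
    simp
  map_mul' γ δ := by
    apply Units.ext
    exact cast_d_mul p γ δ

@[simp] theorem val_dUnit (γ : Gamma0 p) :
    ((dUnit p γ : (ZMod p)ˣ) : ZMod p) = (((γ : SL(2, ℤ)) 1 1 : ℤ) : ZMod p) := rfl

theorem val_inv_dUnit (γ : Gamma0 p) :
    (((dUnit p γ)⁻¹ : (ZMod p)ˣ) : ZMod p) = (((γ : SL(2, ℤ)) 0 0 : ℤ) : ZMod p) := rfl

end dUnit


section entries

/-- comparing the `(1,1)` entries in `α * g = g' * β` for upper triangular `α`. -/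
theorem d_entry_of_mul {α β : GL (Fin 2) ℝ} {g g' : SL(2, ℤ)} {dα bβ dβ : ℤ}
    (h10 : α 1 0 = 0) (h11 : α 1 1 = dα) (hb : β 0 1 = bβ) (hd : β 1 1 = dβ)
    (hmul : α * Matrix.SpecialLinearGroup.mapGL ℝ g = Matrix.SpecialLinearGroup.mapGL ℝ g' * β) :
    dα * g 1 1 = g' 1 0 * bβ + g' 1 1 * dβ := by
  have h := congrArg (fun M : GL (Fin 2) ℝ => (M : Matrix (Fin 2) (Fin 2) ℝ) 1 1) hmul
  simp only [Matrix.GeneralLinearGroup.coe_mul, Matrix.mul_apply, Fin.sum_univ_two, h10, h11,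
    hb, hd, mapGL_apply, zero_mul, zero_add] at h
  exact_mod_cast h

/-- the lower right entry of the Hecke representatives -/
def repD (ℓ : ℕ) (x : OnePoint (ZMod ℓ)) : ℤ := x.elim 1 (fun _ => (ℓ : ℤ))

/-- the upper right entry of the Hecke representatives -/
def repB (ℓ : ℕ) (x : OnePoint (ZMod ℓ)) : ℤ := x.elim 0 (fun j => (j.val : ℤ))

theorem heckeRep_one_one {ℓ : ℕ} (hℓ : ℓ ≠ 0) (x : OnePoint (ZMod ℓ)) :
    (heckeRep ℓ x) 1 1 = (repD ℓ x : ℝ) := by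
  induction x using OnePoint.rec with
  | infty =>
    rw [heckeRep_infty, (heckeDiagMatrix_entries hℓ).2.2.2]
    simp [repD]
  | coe j =>
    rw [heckeRep_coe, (heckeMatrix_entries hℓ j.val).2.2.2]
    simp [repD]

theorem heckeRep_zero_one {ℓ : ℕ} (hℓ : ℓ ≠ 0) (x : OnePoint (ZMod ℓ)) :
    (heckeRep ℓ x) 0 1 = (repB ℓ x : ℝ) := by
  induction x using OnePoint.rec with
  | infty =>
    rw [heckeRep_infty, (heckeDiagMatrix_entries hℓ).2.1]
    simp [repB]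
  | coe j =>
    rw [heckeRep_coe, (heckeMatrix_entries hℓ j.val).2.1]
    simp [repB]

theorem repD_ne_zero (p : ℕ) [Fact p.Prime] {ℓ : ℕ} (hℓ : ℓ.Prime) (hℓp : ¬ ℓ ∣ p)
    (x : OnePoint (ZMod ℓ)) : ((repD ℓ x : ℤ) : ZMod p) ≠ 0 := by
  have hpl : ((ℓ : ℤ) : ZMod p) ≠ 0 := by
    rw [Int.cast_natCast, Ne, ZMod.natCast_eq_zero_iff]
    intro h
    have := (Nat.prime_dvd_prime_iff_eq (Fact.out : p.Prime) hℓ).mp h
    exact hℓp (this ▸ dvd_refl _)
  induction x using OnePoint.rec with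
  | infty => simp [repD]
  | coe j => simpa [repD] using hpl

end entries

section decomposition

variable (p : ℕ) [Fact p.Prime]

theorem perLam_coe_apply (γ : Gamma0 p) (f : CuspForm (Gamma0 p) 2) (w : ℂ × ℂ) :
    ((perLam p γ : ↥(Lam p 2 0)) : CuspForm (Gamma0 p) 2 →ₗ[ℂ] ℂ) f
      = per 0 f (Matrix.SpecialLinearGroup.mapGL ℝ (γ : SL(2, ℤ))) w := by
  rw [perLam_apply, per_eq_periodMap]

/-- **Decomposition for `T_ℓ`.** -/
theorem exists_heckeT_decomp {ℓ : ℕ} [hℓF : Fact ℓ.Prime] (hℓp : ¬ ℓ ∣ p) (γ : Gamma0 p) :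
    ∃ γ' : OnePoint (ZMod ℓ) → Gamma0 p,
      ((perLam p γ : ↥(Lam p 2 0)) : CuspForm (Gamma0 p) 2 →ₗ[ℂ] ℂ) ∘ₗ
          CuspForm.heckeTLin 2 hℓF.out hℓp
        = ∑ x, ((perLam p (γ' x) : ↥(Lam p 2 0)) : CuspForm (Gamma0 p) 2 →ₗ[ℂ] ℂ) ∧
      ∏ x, dUnit p (γ' x) = dUnit p γ ^ (ℓ + 1) := by
  have hℓ : ℓ.Prime := hℓF.out
  choose g' hg'N hg'mul using
    fun x => heckeRep_mul hℓp (γ : SL(2, ℤ)) (dvd_of_mem_Gamma0 γ.2) x
  have hmem : ∀ x, g' x ∈ Gamma0 p := fun x =>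
    CongruenceSubgroup.Gamma0_mem.mpr ((ZMod.intCast_zmod_eq_zero_iff_dvd _ _).mpr (hg'N x))
  refine ⟨fun x => ⟨g' x, hmem x⟩, ?_, ?_⟩
  · ext f
    rw [LinearMap.comp_apply, LinearMap.sum_apply, perLam_coe_apply p γ _ 0]
    rw [per_hecke 0 two_eq (heckeRep ℓ) (fun x => (heckeRep_upper hℓ.ne_zero x).1)
      (fun x => (heckeRep_upper hℓ.ne_zero x).2.1) (fun x => (heckeRep_upper hℓ.ne_zero x).2.2)
      f (CuspForm.heckeTLin 2 hℓF.out hℓp f)
      (by rw [CuspForm.coe_heckeTLin_apply, heckeT_eq_sum_onePoint])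
      _ (MulAction.toPerm (redMatrix ℓ (γ : SL(2, ℤ))))
      (fun x => Matrix.SpecialLinearGroup.mapGL ℝ (g' x)) (fun x => mapGL_mem_GG (hg'N x))
      (fun x => hg'mul x) 0]
    refine Finset.sum_congr rfl fun x _ => ?_
    rw [perLam_coe_apply p ⟨g' x, hmem x⟩ f]
  · -- the `d`-entries
    have key : ∀ x, ((repD ℓ x : ℤ) : ZMod p) * (((γ : SL(2, ℤ)) 1 1 : ℤ) : ZMod p)
        = (((g' x) 1 1 : ℤ) : ZMod p) *
          ((repD ℓ (MulAction.toPerm (redMatrix ℓ (γ : SL(2, ℤ))) x) : ℤ) : ZMod p) := by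
      intro x
      have h := d_entry_of_mul (heckeRep_upper hℓ.ne_zero x).1 (heckeRep_one_one hℓ.ne_zero x)
        (heckeRep_zero_one hℓ.ne_zero _) (heckeRep_one_one hℓ.ne_zero _) (hg'mul x)
      have h2 := congrArg (Int.cast : ℤ → ZMod p) h
      push_cast at h2
      rw [(ZMod.intCast_zmod_eq_zero_iff_dvd _ _).mpr (hg'N x)] at h2
      simpa using h2
    have hprod := Finset.prod_congr (rfl : (Finset.univ : Finset (OnePoint (ZMod ℓ))) = _)
      (fun x _ => key x)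
    rw [Finset.prod_mul_distrib, Finset.prod_mul_distrib, Finset.prod_const,
      Equiv.prod_comp (MulAction.toPerm (redMatrix ℓ (γ : SL(2, ℤ))))
        (fun x => ((repD ℓ x : ℤ) : ZMod p))] at hprod
    have hne : (∏ x : OnePoint (ZMod ℓ), ((repD ℓ x : ℤ) : ZMod p)) ≠ 0 :=
      Finset.prod_ne_zero_iff.mpr fun x _ => repD_ne_zero p hℓ hℓp x
    have hcard : (Finset.univ : Finset (OnePoint (ZMod ℓ))).card = ℓ + 1 := by
      rw [Finset.card_univ]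
      show Fintype.card (Option (ZMod ℓ)) = ℓ + 1
      rw [Fintype.card_option, ZMod.card]
    rw [hcard, mul_comm] at hprod
    have h3 := mul_right_cancel₀ hne hprod
    apply Units.ext
    rw [Units.coe_prod, Units.val_pow_eq_pow_val, val_dUnit]
    exact h3.symm

/-- **Decomposition for `U_p`.** -/
theorem exists_heckeU_decomp (γ : Gamma0 p) :
    ∃ γ' : ZMod p → Gamma0 p,
      ((perLam p γ : ↥(Lam p 2 0)) : CuspForm (Gamma0 p) 2 →ₗ[ℂ] ℂ) ∘ₗ
          CuspForm.heckeULin 2 (dvd_refl p)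
        = ∑ x, ((perLam p (γ' x) : ↥(Lam p 2 0)) : CuspForm (Gamma0 p) 2 →ₗ[ℂ] ℂ) ∧
      ∀ x, dUnit p (γ' x) = dUnit p γ := by
  have hp0 : p ≠ 0 := (Fact.out : p.Prime).ne_zero
  have hγN := dvd_of_mem_Gamma0 γ.2
  have hc0 : (((γ : SL(2, ℤ)) 1 0 : ℤ) : ZMod p) = 0 := cast_c_eq_zero p γ
  choose g' hg'eq hg'mul using fun x => heckeMatrix_mul_of_dvd (γ : SL(2, ℤ)) hγN x
  have hg'N : ∀ x, (p : ℤ) ∣ (g' x) 1 0 := fun x => by
    rw [hg'eq x]
    exact dvd_mul_of_dvd_right hγN _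
  have hmem : ∀ x, g' x ∈ Gamma0 p := fun x =>
    CongruenceSubgroup.Gamma0_mem.mpr ((ZMod.intCast_zmod_eq_zero_iff_dvd _ _).mpr (hg'N x))
  have hp' : (0 : ℝ) < p := by exact_mod_cast Nat.pos_of_ne_zero hp0
  refine ⟨fun x => ⟨g' x, hmem x⟩, ?_, ?_⟩
  · ext f
    rw [LinearMap.comp_apply, LinearMap.sum_apply, perLam_coe_apply p γ _ 0]
    rw [per_hecke 0 two_eq (fun x : ZMod p => ModularForm.heckeMatrix p x.val)
      (fun x => (heckeMatrix_entries hp0 x.val).2.2.1)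
      (fun x => by rw [(heckeMatrix_entries hp0 x.val).1]; exact one_pos)
      (fun x => by rw [(heckeMatrix_entries hp0 x.val).2.2.2]; exact hp')
      f (CuspForm.heckeULin 2 (dvd_refl p) f)
      (by rw [CuspForm.coe_heckeULin_apply, heckeU_eq_sum_zmod])
      _ (affinePerm (γ : SL(2, ℤ)) hc0)
      (fun x => Matrix.SpecialLinearGroup.mapGL ℝ (g' x)) (fun x => mapGL_mem_GG (hg'N x))
      (fun x => hg'mul x) 0]
    refine Finset.sum_congr rfl fun x _ => ?_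
    rw [perLam_coe_apply p ⟨g' x, hmem x⟩ f]
  · intro x
    have h := d_entry_of_mul (dα := (p : ℤ))
      (bβ := (((affinePerm (γ : SL(2, ℤ)) hc0 x).val : ℕ) : ℤ)) (dβ := (p : ℤ))
      (heckeMatrix_entries hp0 x.val).2.2.1
      (by rw [(heckeMatrix_entries hp0 x.val).2.2.2]; simp)
      (by rw [(heckeMatrix_entries hp0 _).2.1]; simp)
      (by rw [(heckeMatrix_entries hp0 _).2.2.2]; simp) (hg'mul x)
    rw [hg'eq x] at h
    have hpz : (p : ℤ) ≠ 0 := by exact_mod_cast hp0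
    have h2 : (γ : SL(2, ℤ)) 1 1
        = (γ : SL(2, ℤ)) 1 0 * (((affinePerm (γ : SL(2, ℤ)) hc0 x).val : ℕ) : ℤ) + (g' x) 1 1 := by
      apply mul_left_cancel₀ hpz
      linear_combination h
    apply Units.ext
    rw [val_dUnit, val_dUnit]
    show (((g' x) 1 1 : ℤ) : ZMod p) = _
    have h3 := congrArg (Int.cast : ℤ → ZMod p) h2
    push_cast at h3
    rw [hc0, zero_mul, zero_add] at h3
    exact h3.symm

end decomposition


section equivariance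

variable (p : ℕ) [Fact p.Prime]

/-- Every element of the period lattice is a period functional. -/
theorem exists_perLam_eq (lam : ↥(Lam p 2 0)) : ∃ γ : Gamma0 p, perLam p γ = lam := by
  obtain ⟨φ, hφ⟩ := lam
  induction hφ using Submodule.span_induction with
  | mem φ hφ =>
    obtain ⟨g, ⟨γ, hγ, rfl⟩, a, b, rfl⟩ := hφ
    refine ⟨⟨γ, hγ⟩, ?_⟩
    apply Subtype.ext
    ext f
    rw [perLam_apply]
    exact (perLin_apply_eq_periodMap f ⟨γ, hγ⟩ _).symm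
  | zero =>
    exact ⟨1, (map_zero (perHom p))⟩
  | add φ ψ hφ hψ h1 h2 =>
    obtain ⟨γ, hγ⟩ := h1
    obtain ⟨δ, hδ⟩ := h2
    refine ⟨γ * δ, ?_⟩
    have := map_add (perHom p) (Additive.ofMul γ) (Additive.ofMul δ)
    have e : (⟨φ + ψ, Submodule.add_mem _ hφ hψ⟩ : ↥(Lam p 2 0)) = ⟨φ, hφ⟩ + ⟨ψ, hψ⟩ := rfl
    rw [e, ← hγ, ← hδ]
    exact this
  | smul n φ hφ h1 =>
    obtain ⟨γ, hγ⟩ := h1
    refine ⟨γ ^ n, ?_⟩
    have := map_zsmul (perHom p) n (Additive.ofMul γ)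
    have e : (⟨n • φ, Submodule.smul_mem _ n hφ⟩ : ↥(Lam p 2 0)) = n • ⟨φ, hφ⟩ := rfl
    rw [e, ← hγ]
    exact this

theorem Lam_stable :
    ∀ T ∈ CuspForm.heckeGenerators p 2 ∅, ∀ φ ∈ Lam p 2 0, φ ∘ₗ T ∈ Lam p 2 0 :=
  fun _ hT _ hφ => comp_mem_Lam_of_mem_heckeGenerators 0 two_eq ∅ hT hφ

/-- The transposed action of the Hecke algebra on the period lattice: `λ ↦ λ ∘ t`. -/
def LamComp (t : ↥(CuspForm.heckeAlgebra p 2 ∅)) : ↥(Lam p 2 0) →ₗ[ℤ] ↥(Lam p 2 0) :=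
  transposeAct (CuspForm.heckeGenerators p 2 ∅) (Lam p 2 0) (Lam_stable p) t

@[simp] theorem LamComp_coe (t : ↥(CuspForm.heckeAlgebra p 2 ∅)) (lam : ↥(Lam p 2 0)) :
    ((LamComp p t lam : ↥(Lam p 2 0)) : CuspForm (Gamma0 p) 2 →ₗ[ℂ] ℂ)
      = (lam : CuspForm (Gamma0 p) 2 →ₗ[ℂ] ℂ) ∘ₗ
        (t : Module.End ℂ (CuspForm (Gamma0 p) 2)) := rfl

theorem LamComp_zero : LamComp p 0 = 0 := map_zero _

theorem LamComp_add (s t : ↥(CuspForm.heckeAlgebra p 2 ∅)) :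
    LamComp p (s + t) = LamComp p s + LamComp p t := map_add _ s t

theorem LamComp_mul (s t : ↥(CuspForm.heckeAlgebra p 2 ∅)) (lam : ↥(Lam p 2 0)) :
    LamComp p (s * t) lam = LamComp p t (LamComp p s lam) := rfl

theorem LamComp_algebraMap (a : ℤ) (lam : ↥(Lam p 2 0)) :
    LamComp p (algebraMap ℤ ↥(CuspForm.heckeAlgebra p 2 ∅) a) lam = a • lam := by
  apply Subtype.ext
  ext f
  simp

variable {A : Type*} [AddCommGroup A]

/-- generator case, `ℓ ≠ p` -/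
theorem xi_LamComp_T (ξ : ↥(Lam p 2 0) →+ A) (ψ : (ZMod p)ˣ →* Multiplicative A)
    (h : ∀ γ : Gamma0 p, ξ (perLam p γ) = Multiplicative.toAdd (ψ (dUnit p γ)))
    {ℓ : ℕ} (hℓ : ℓ.Prime) (hℓp : ¬ ℓ ∣ p) (lam : ↥(Lam p 2 0)) :
    ξ (LamComp p (CuspForm.heckeAlgebra.T hℓ hℓp (Set.notMem_empty _)) lam)
      = ((1 + ℓ : ℕ) : ℤ) • ξ lam := by
  have : Fact ℓ.Prime := ⟨hℓ⟩
  obtain ⟨γ, rfl⟩ := exists_perLam_eq p lam
  obtain ⟨γ', hsum, hprod⟩ := exists_heckeT_decomp p hℓp γ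
  have e : LamComp p (CuspForm.heckeAlgebra.T hℓ hℓp (Set.notMem_empty _)) (perLam p γ)
      = ∑ x, perLam p (γ' x) := by
    apply Subtype.ext
    rw [LamComp_coe, CuspForm.heckeAlgebra.coe_T, hsum]
    simp
  rw [e, map_sum]
  simp only [h]
  rw [← toAdd_prod, ← map_prod, hprod, map_pow, toAdd_pow, natCast_zsmul, add_comm 1 ℓ]

/-- generator case, `ℓ = p` -/
theorem xi_LamComp_U (ξ : ↥(Lam p 2 0) →+ A) (ψ : (ZMod p)ˣ →* Multiplicative A)
    (h : ∀ γ : Gamma0 p, ξ (perLam p γ) = Multiplicative.toAdd (ψ (dUnit p γ)))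
    {q : ℕ} (hq : q.Prime) (hqp : q ∣ p) (lam : ↥(Lam p 2 0)) :
    ξ (LamComp p (CuspForm.heckeAlgebra.U hq hqp (Set.notMem_empty _)) lam) = ξ lam := by
  obtain rfl : p = q := ((Nat.prime_dvd_prime_iff_eq hq (Fact.out : p.Prime)).mp hqp).symm
  obtain ⟨γ, rfl⟩ := exists_perLam_eq p lam
  obtain ⟨γ', hsum, hd⟩ := exists_heckeU_decomp p γ
  have e : LamComp p (CuspForm.heckeAlgebra.U hq hqp (Set.notMem_empty _)) (perLam p γ)
      = ∑ x, perLam p (γ' x) := by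
    apply Subtype.ext
    rw [LamComp_coe, CuspForm.heckeAlgebra.coe_U, hsum]
    simp
  rw [e, map_sum]
  simp only [h, hd]
  rw [Finset.sum_const, Finset.card_univ, ZMod.card, ← toAdd_pow, ← map_pow]
  congr 2
  have hcard : Fintype.card (ZMod p)ˣ = p - 1 := ZMod.card_units p
  have h1 : dUnit p γ ^ (p - 1) = 1 := by
    rw [← hcard]
    exact pow_card_eq_one
  have hp1 : 1 ≤ p := (Fact.out : p.Prime).one_lt.le
  calc dUnit p γ ^ p = dUnit p γ ^ (p - 1 + 1) := by rw [Nat.sub_add_cancel hp1]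
    _ = dUnit p γ := by rw [pow_succ, h1, one_mul]

/-- **Eisenstein equivariance.** If `ξ ∘ perLam` is a character of `d mod p`, then the transposed
Hecke action is carried by `ξ` to the Eisenstein character. -/
theorem eisenstein_equivariance (ξ : ↥(Lam p 2 0) →+ A) (ψ : (ZMod p)ˣ →* Multiplicative A)
    (h : ∀ γ : Gamma0 p, ξ (perLam p γ) = Multiplicative.toAdd (ψ (dUnit p γ)))
    (t : ModularCurve.HeckeAlg) (lam : ↥(Lam p 2 0)) :
    ξ (LamComp p (CuspForm.heckeEvalForms p 2 t) lam)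
      = (MvPolynomial.aeval (ModularCurve.eisensteinSystem p) t : ℤ) • ξ lam := by
  induction t using MvPolynomial.induction_on generalizing lam with
  | C a =>
    rw [CuspForm.heckeEvalForms_C, LamComp_algebraMap, map_zsmul, MvPolynomial.aeval_C]
    rfl
  | add s t hs ht =>
    rw [map_add, LamComp_add, LinearMap.add_apply, map_add, hs, ht, map_add, add_smul]
  | mul_X s ℓ hs =>
    rw [map_mul, LamComp_mul, map_mul, mul_comm, mul_smul, ← hs]
    have hX : CuspForm.heckeEvalForms p 2 (MvPolynomial.X ℓ) = CuspForm.heckeFormsGen p 2 ℓ :=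
      CuspForm.heckeEvalForms_heckeGen p 2 ℓ
    rw [hX, MvPolynomial.aeval_X]
    by_cases hdvd : (ℓ : ℕ) ∣ p
    · rw [CuspForm.heckeFormsGen_of_dvd hdvd, ModularCurve.eisensteinSystem_of_dvd hdvd, one_smul]
      exact xi_LamComp_U p ξ ψ h ℓ.2 hdvd _
    · rw [CuspForm.heckeFormsGen_of_not_dvd hdvd, ModularCurve.eisensteinSystem_of_not_dvd hdvd]
      rw [xi_LamComp_T p ξ ψ h ℓ.2 hdvd]
      push_cast
      rfl

/-- **Formal half of L6.** An element of the abstract Hecke algebra acting as zero on cusp forms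
has Eisenstein eigenvalue killing the values of `ξ`. -/
theorem eisenstein_smul_eq_zero (ξ : ↥(Lam p 2 0) →+ A) (ψ : (ZMod p)ˣ →* Multiplicative A)
    (h : ∀ γ : Gamma0 p, ξ (perLam p γ) = Multiplicative.toAdd (ψ (dUnit p γ)))
    {t : ModularCurve.HeckeAlg} (ht : CuspForm.heckeEvalForms p 2 t = 0) (lam : ↥(Lam p 2 0)) :
    (MvPolynomial.aeval (ModularCurve.eisensteinSystem p) t : ℤ) • ξ lam = 0 := by
  rw [← eisenstein_equivariance p ξ ψ h t lam, ht, LamComp_zero, LinearMap.zero_apply, map_zero]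

/-- If moreover some value of `ξ` has additive order `n`, then `n` divides the Eisenstein
eigenvalue of every `t` acting as zero on cusp forms. -/
theorem dvd_eisenstein_of_heckeEval_eq_zero (ξ : ↥(Lam p 2 0) →+ A)
    (ψ : (ZMod p)ˣ →* Multiplicative A)
    (h : ∀ γ : Gamma0 p, ξ (perLam p γ) = Multiplicative.toAdd (ψ (dUnit p γ)))
    {n : ℕ} (hn : ∃ lam, addOrderOf (ξ lam) = n)
    {t : ModularCurve.HeckeAlg} (ht : CuspForm.heckeEvalForms p 2 t = 0) :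
    (n : ℤ) ∣ (MvPolynomial.aeval (ModularCurve.eisensteinSystem p) t : ℤ) := by
  obtain ⟨lam, rfl⟩ := hn
  exact (addOrderOf_dvd_iff_zsmul_eq_zero).mpr (eisenstein_smul_eq_zero p ξ ψ h ht lam)

/-- The form used in the lower bound: `ξ` onto `ℤ/n`. -/
theorem dvd_eisenstein_of_surjective {n : ℕ} (ξ : ↥(Lam p 2 0) →+ ZMod n)
    (ψ : (ZMod p)ˣ →* Multiplicative (ZMod n))
    (h : ∀ γ : Gamma0 p, ξ (perLam p γ) = Multiplicative.toAdd (ψ (dUnit p γ)))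
    (hsurj : Function.Surjective ξ)
    {t : ModularCurve.HeckeAlg} (ht : CuspForm.heckeEvalForms p 2 t = 0) :
    (n : ℤ) ∣ (MvPolynomial.aeval (ModularCurve.eisensteinSystem p) t : ℤ) := by
  obtain ⟨lam, hlam⟩ := hsurj 1
  refine dvd_eisenstein_of_heckeEval_eq_zero p ξ ψ h ⟨lam, ?_⟩ ht
  rw [hlam, ZMod.addOrderOf_one]

/-- Variant with the hypothesis stated through `perHom`. -/
theorem dvd_eisenstein_of_surjective' {n : ℕ} (ξ : ↥(Lam p 2 0) →+ ZMod n)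
    (ψ : (ZMod p)ˣ →* Multiplicative (ZMod n))
    (h : ∀ γ : Gamma0 p, ξ (perHom p (Additive.ofMul γ)) = Multiplicative.toAdd (ψ (dUnit p γ)))
    (hsurj : Function.Surjective ξ)
    {t : ModularCurve.HeckeAlg} (ht : CuspForm.heckeEvalForms p 2 t = 0) :
    (n : ℤ) ∣ (MvPolynomial.aeval (ModularCurve.eisensteinSystem p) t : ℤ) :=
  dvd_eisenstein_of_surjective p ξ ψ (fun γ => h γ) hsurj ht

end equivariance

end

end Fermat.Agent.S16_helper11_L5
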