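import Mathlib

/-!
# S16, piece NC-2b: the power-series algebra

For a subring `O` of `ℂ` and power series `A = u + 8 h`, `E₄ = 1 + 240 s`,
`E₆ = 1 - 504 (s + 8 w)`, `1728 Δ = E₄³ - E₆²` with `h, s, w, Δ` having coefficients in `O` and
`u` an odd integer, the series `β₈` defined by
`8 β₄ = A² - u² E₄`, `8 β₆ = u³ E₆ - A³ + 12 A β₄`, `4 β₈ = A β₆ - 3 β₄²`
has coefficients in `O` and is congruent to `Δ` modulo `2`.
-/

set_option autoImplicit false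

namespace Fermat.Agent.S16_helper13_NC2B_Alg

open PowerSeries

/-- Power series with all coefficients in the subring `O`. -/
def coeffSubring (O : Subring ℂ) : Subring (PowerSeries ℂ) where
  carrier := {P | ∀ n, PowerSeries.coeff n P ∈ O}
  mul_mem' := by
    intro P Q hP hQ n
    rw [PowerSeries.coeff_mul]
    exact Subring.sum_mem _ (fun x _ => O.mul_mem (hP _) (hQ _))
  one_mem' := by
    intro n
    rw [PowerSeries.coeff_one]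
    split_ifs
    · exact O.one_mem
    · exact O.zero_mem
  add_mem' := by
    intro P Q hP hQ n
    rw [map_add]
    exact O.add_mem (hP _) (hQ _)
  zero_mem' := by
    intro n
    rw [map_zero]
    exact O.zero_mem
  neg_mem' := by
    intro P hP n
    rw [map_neg]
    exact O.neg_mem (hP _)

theorem mem_coeffSubring {O : Subring ℂ} {P : PowerSeries ℂ} :
    P ∈ coeffSubring O ↔ ∀ n, PowerSeries.coeff n P ∈ O := Iff.rfl

theorem intCast_mem_coeffSubring (O : Subring ℂ) (m : ℤ) :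
    (m : PowerSeries ℂ) ∈ coeffSubring O := intCast_mem _ m

theorem ofNat_ne_zero_ps (n : ℕ) (hn : n ≠ 0) : ((n : ℕ) : PowerSeries ℂ) ≠ 0 := by
  have : ((n : ℕ) : PowerSeries ℂ) = PowerSeries.C ((n : ℕ) : ℂ) := (map_natCast _ n).symm
  rw [this]
  exact (map_ne_zero_iff _ PowerSeries.C_injective).2 (by exact_mod_cast hn)

section core

variable {Λ : Subring (PowerSeries ℂ)}

private lemma mem_c4 {U h s : PowerSeries ℂ} (hU : U ∈ Λ) (hh : h ∈ Λ) (hs : s ∈ Λ) :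
    U * h + 4 * h ^ 2 - 15 * U ^ 2 * s ∈ Λ := by aesop

private lemma mem_c6 {U h s w : PowerSeries ℂ} (hU : U ∈ Λ) (hh : h ∈ Λ) (hs : s ∈ Λ)
    (hw : w ∈ Λ) :
    -27 * U ^ 3 * s - 126 * U ^ 3 * w + 3 * U * h ^ 2 + 8 * h ^ 3 - 90 * U ^ 2 * h * s ∈ Λ := by
  aesop

private lemma mem_b8 {A c4 c6 : PowerSeries ℂ} (hA : A ∈ Λ) (h4 : c4 ∈ Λ) (h6 : c6 ∈ Λ) :
    A * c6 - 3 * c4 ^ 2 ∈ Λ := by aesop

private lemma mem_X {A c4 c6 U h M₁ M₂ F D : PowerSeries ℂ} (hA : A ∈ Λ) (h4 : c4 ∈ Λ)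
    (h6 : c6 ∈ Λ) (hU : U ∈ Λ) (hh : h ∈ Λ) (h1 : M₁ ∈ Λ) (h2 : M₂ ∈ Λ) (hF : F ∈ Λ)
    (hD : D ∈ Λ) :
    -32 * c4 ^ 3 - 8 * c6 ^ 2 + 12 * A * c4 * c6 - (M₁ + 8 * U * h + 32 * h ^ 2) * F
      - M₂ * D ∈ Λ := by
  have t1 : -32 * c4 ^ 3 - 8 * c6 ^ 2 + 12 * A * c4 * c6 ∈ Λ := by aesop
  have t2 : (M₁ + 8 * U * h + 32 * h ^ 2) * F ∈ Λ := by aesop
  have t3 : M₂ * D ∈ Λ := Λ.mul_mem h2 hD
  exact Λ.sub_mem (Λ.sub_mem t1 t2) t3

end core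

/-- **The algebraic core of NC-2b.** -/
theorem beta8_congr (O : Subring ℂ) {u : ℤ} (hu : Odd u)
    {A E4s E6s Ds h s w f4 f6 F8 : PowerSeries ℂ}
    (hh : h ∈ coeffSubring O) (hs : s ∈ coeffSubring O) (hw : w ∈ coeffSubring O)
    (hD : Ds ∈ coeffSubring O)
    (hA : A = (u : PowerSeries ℂ) + 8 * h) (hE4 : E4s = 1 + 240 * s)
    (hE6 : E6s = 1 - 504 * (s + 8 * w))
    (hΔ : 1728 * Ds = E4s ^ 3 - E6s ^ 2)
    (h4 : 8 * f4 = A ^ 2 - (u : PowerSeries ℂ) ^ 2 * E4s)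
    (h6 : 8 * f6 = (u : PowerSeries ℂ) ^ 3 * E6s - A ^ 3 + 12 * A * f4)
    (h8 : 4 * F8 = A * f6 - 3 * f4 ^ 2) :
    F8 ∈ coeffSubring O ∧ ∃ X ∈ coeffSubring O, F8 - Ds = 2 * X := by
  have hU : (u : PowerSeries ℂ) ∈ coeffSubring O := intCast_mem_coeffSubring O u
  have hAm : A ∈ coeffSubring O := by
    rw [hA]
    exact Subring.add_mem _ hU (Subring.mul_mem _ (ofNat_mem _ 8) hh)
  -- the explicit witnesses
  obtain ⟨c4, hc4m, hc4⟩ : ∃ c4 ∈ coeffSubring O,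
      c4 = (u : PowerSeries ℂ) * h + 4 * h ^ 2 - 15 * (u : PowerSeries ℂ) ^ 2 * s :=
    ⟨_, mem_c4 hU hh hs, rfl⟩
  obtain ⟨c6, hc6m, hc6⟩ : ∃ c6 ∈ coeffSubring O,
      c6 = -27 * (u : PowerSeries ℂ) ^ 3 * s - 126 * (u : PowerSeries ℂ) ^ 3 * w
        + 3 * (u : PowerSeries ℂ) * h ^ 2 + 8 * h ^ 3 - 90 * (u : PowerSeries ℂ) ^ 2 * h * s :=
    ⟨_, mem_c6 hU hh hs hw, rfl⟩
  have h8ne : (8 : PowerSeries ℂ) ≠ 0 := by exact_mod_cast ofNat_ne_zero_ps 8 (by norm_num)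
  have h4ne : (4 : PowerSeries ℂ) ≠ 0 := by exact_mod_cast ofNat_ne_zero_ps 4 (by norm_num)
  have h64ne : (64 : PowerSeries ℂ) ≠ 0 := by exact_mod_cast ofNat_ne_zero_ps 64 (by norm_num)
  have e4 : f4 = 2 * c4 := by
    apply mul_left_cancel₀ h8ne
    rw [h4, hA, hE4, hc4]; ring
  have e6 : f6 = 4 * c6 := by
    apply mul_left_cancel₀ h8ne
    rw [h6, e4, hA, hE6, hc4, hc6]; ring
  have e8 : F8 = A * c6 - 3 * c4 ^ 2 := by
    apply mul_left_cancel₀ h4ne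
    rw [h8, e4, e6]; ring
  have hF8 : F8 ∈ coeffSubring O := by rw [e8]; exact mem_b8 hAm hc4m hc6m
  refine ⟨hF8, ?_⟩
  -- parity data
  obtain ⟨k, hk⟩ := hu
  obtain ⟨m₁, hm₁⟩ : ∃ m₁ : ℤ, u ^ 2 - 1 = 2 * m₁ := ⟨2 * k ^ 2 + 2 * k, by rw [hk]; ring⟩
  obtain ⟨m₂, hm₂⟩ : ∃ m₂ : ℤ, 27 * u ^ 6 + 1 = 2 * m₂ :=
    ⟨864 * k ^ 6 + 2592 * k ^ 5 + 3240 * k ^ 4 + 2160 * k ^ 3 + 810 * k ^ 2 + 162 * k + 14,
      by rw [hk]; ring⟩
  have hm₁' : (u : PowerSeries ℂ) ^ 2 - 1 = 2 * (m₁ : PowerSeries ℂ) := by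
    have := congrArg (fun z : ℤ => (z : PowerSeries ℂ)) hm₁
    simpa using this
  have hm₂' : 27 * (u : PowerSeries ℂ) ^ 6 + 1 = 2 * (m₂ : PowerSeries ℂ) := by
    have := congrArg (fun z : ℤ => (z : PowerSeries ℂ)) hm₂
    simpa using this
  have hM₁ : (m₁ : PowerSeries ℂ) ∈ coeffSubring O := intCast_mem_coeffSubring O m₁
  have hM₂ : (m₂ : PowerSeries ℂ) ∈ coeffSubring O := intCast_mem_coeffSubring O m₂
  refine ⟨-32 * c4 ^ 3 - 8 * c6 ^ 2 + 12 * A * c4 * c6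
      - ((m₁ : PowerSeries ℂ) + 8 * (u : PowerSeries ℂ) * h + 32 * h ^ 2) * F8
      - (m₂ : PowerSeries ℂ) * Ds, mem_X hAm hc4m hc6m hU hh hM₁ hM₂ hF8 hD, ?_⟩
  -- the discriminant identity
  have hAu : (u : PowerSeries ℂ) ^ 2 * E4s = A ^ 2 - 16 * c4 := by
    have h4' := h4
    rw [e4] at h4'
    linear_combination h4'
  have hAu6 : (u : PowerSeries ℂ) ^ 3 * E6s = A ^ 3 - 24 * A * c4 + 32 * c6 := by
    have h6' := h6
    rw [e4, e6] at h6'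
    linear_combination -h6'
  have e1 : (u : PowerSeries ℂ) ^ 6 * (E4s ^ 3 - E6s ^ 2)
      = (A ^ 2 - 16 * c4) ^ 3 - (A ^ 3 - 24 * A * c4 + 32 * c6) ^ 2 := by
    rw [← hAu, ← hAu6]; ring
  have key : A ^ 2 * F8 + 27 * (u : PowerSeries ℂ) ^ 6 * Ds
      = -64 * c4 ^ 3 - 16 * c6 ^ 2 + 24 * A * c4 * c6 := by
    apply mul_left_cancel₀ h64ne
    rw [e8]
    linear_combination (u : PowerSeries ℂ) ^ 6 * hΔ + e1
  have hA2 : A ^ 2 - 1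
      = 2 * ((m₁ : PowerSeries ℂ) + 8 * (u : PowerSeries ℂ) * h + 32 * h ^ 2) := by
    rw [hA]
    linear_combination hm₁'
  linear_combination key - F8 * hA2 - Ds * hm₂'

end Fermat.Agent.S16_helper13_NC2B_Alg
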