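import Mathlib

/-!
# S16, piece LB-L2 (combinatorial part)

Characteristic-free dimension bounds for the spaces of functions on a finite set `Q` which are
"anti-invariant" under a permutation of order `2` (resp. satisfy the norm relation for a
permutation of order `3`) and vanish at its fixed points.
-/

set_option autoImplicit false

open Module

namespace Fermat.Agent.S16_helper14_L2

variable (k : Type*) [Field k] {Q : Type*}

/-- functions `a` with `a q + a (s q) = 0` vanishing at the fixed points of `s` -/
def antiInv (s : Q → Q) : Submodule k (Q → k) where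
  carrier := {a | ∀ q, a q + a (s q) = 0 ∧ (s q = q → a q = 0)}
  zero_mem' := fun q => ⟨by simp, fun _ => rfl⟩
  add_mem' := by
    intro a b ha hb q
    refine ⟨?_, fun h => ?_⟩
    · have h1 := (ha q).1
      have h2 := (hb q).1
      simp only [Pi.add_apply]
      linear_combination h1 + h2
    · simp only [Pi.add_apply]
      rw [(ha q).2 h, (hb q).2 h, add_zero]
  smul_mem' := by
    intro c a ha q
    refine ⟨?_, fun h => ?_⟩
    · have h1 := (ha q).1
      simp only [Pi.smul_apply, smul_eq_mul]
      linear_combination c * h1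
    · simp only [Pi.smul_apply, smul_eq_mul]
      rw [(ha q).2 h, mul_zero]

/-- functions `b` with `b q + b (u q) + b (u (u q)) = 0` vanishing at the fixed points of `u` -/
def normInv (u : Q → Q) : Submodule k (Q → k) where
  carrier := {b | ∀ q, b q + b (u q) + b (u (u q)) = 0 ∧ (u q = q → b q = 0)}
  zero_mem' := fun q => ⟨by simp, fun _ => rfl⟩
  add_mem' := by
    intro a b ha hb q
    refine ⟨?_, fun h => ?_⟩
    · have h1 := (ha q).1
      have h2 := (hb q).1
      simp only [Pi.add_apply]
      linear_combination h1 + h2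
    · simp only [Pi.add_apply]
      rw [(ha q).2 h, (hb q).2 h, add_zero]
  smul_mem' := by
    intro c a ha q
    refine ⟨?_, fun h => ?_⟩
    · have h1 := (ha q).1
      simp only [Pi.smul_apply, smul_eq_mul]
      linear_combination c * h1
    · simp only [Pi.smul_apply, smul_eq_mul]
      rw [(ha q).2 h, mul_zero]

variable {k}

theorem mem_antiInv {s : Q → Q} {a : Q → k} :
    a ∈ antiInv k s ↔ ∀ q, a q + a (s q) = 0 ∧ (s q = q → a q = 0) := Iff.rfl

theorem mem_normInv {u : Q → Q} {b : Q → k} :
    b ∈ normInv k u ↔ ∀ q, b q + b (u q) + b (u (u q)) = 0 ∧ (u q = q → b q = 0) := Iff.rfl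

variable [Fintype Q] [DecidableEq Q]

/-- the dimension bound for an involution -/
theorem finrank_antiInv_le (s : Equiv.Perm Q) (hs : ∀ q, s (s q) = q) :
    Fintype.card {q : Q // s q = q} + 2 * finrank k (antiInv k (s : Q → Q)) ≤ Fintype.card Q := by
  classical
  obtain ⟨e, he⟩ : ∃ e : Q → ℕ, Function.Injective e :=
    ⟨fun q => (Fintype.equivFin Q q : ℕ), fun a b h =>
      (Fintype.equivFin Q).injective (Fin.ext h)⟩
  set R : Finset Q := Finset.univ.filter (fun q => e q < e (s q)) with hR
  -- the restriction map
  let ρ : antiInv k (s : Q → Q) →ₗ[k] (R → k) :=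
    { toFun := fun a r => a.1 r.1
      map_add' := fun _ _ => rfl
      map_smul' := fun _ _ => rfl }
  have hρ : Function.Injective ρ := by
    rw [← LinearMap.ker_eq_bot, LinearMap.ker_eq_bot']
    rintro ⟨a, ha⟩ h0
    have h0' : ∀ r ∈ R, a r = 0 := fun r hr => congrFun h0 ⟨r, hr⟩
    apply Subtype.ext
    funext q
    show a q = 0
    rcases lt_trichotomy (e q) (e (s q)) with h | h | h
    · exact h0' q (by rw [hR, Finset.mem_filter]; exact ⟨Finset.mem_univ _, h⟩)
    · exact (ha q).2 (he h).symm
    · have h1 : a (s q) = 0 :=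
        h0' (s q) (by rw [hR, Finset.mem_filter, hs]; exact ⟨Finset.mem_univ _, h⟩)
      have h2 := (ha q).1
      rw [h1, add_zero] at h2
      exact h2
  have h1 : finrank k (antiInv k (s : Q → Q)) ≤ R.card := by
    have := LinearMap.finrank_le_finrank_of_injective hρ
    rwa [Module.finrank_fintype_fun_eq_card, Fintype.card_coe] at this
  -- counting
  have hfix : Fintype.card {q : Q // s q = q} = ∑ q : Q, if s q = q then 1 else 0 := by
    rw [Fintype.card_subtype, Finset.card_filter]
  have hR1 : R.card = ∑ q : Q, if e q < e (s q) then 1 else 0 := by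
    rw [hR, Finset.card_filter]
  have hR2 : R.card = ∑ q : Q, if e (s q) < e q then 1 else 0 := by
    rw [hR1, ← Equiv.sum_comp s]
    simp only [hs]
  have hsum : (∑ q : Q, if s q = q then 1 else 0) + (∑ q : Q, if e q < e (s q) then 1 else 0) +
      (∑ q : Q, if e (s q) < e q then 1 else 0) ≤ Fintype.card Q := by
    rw [← Finset.sum_add_distrib, ← Finset.sum_add_distrib, ← Finset.card_univ,
      Finset.card_eq_sum_ones]
    apply Finset.sum_le_sum
    intro q _
    by_cases h1 : s q = q
    · simp [h1]
    · rcases lt_trichotomy (e q) (e (s q)) with h | h | h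
      · simp [h1, h, not_lt.mpr h.le]
      · exact absurd (he h).symm h1
      · simp [h1, h, not_lt.mpr h.le]
  omega

/-- the dimension bound for a permutation of order three -/
theorem finrank_normInv_le (u : Equiv.Perm Q) (hu : ∀ q, u (u (u q)) = q) :
    2 * Fintype.card {q : Q // u q = q} + 3 * finrank k (normInv k (u : Q → Q)) ≤
      2 * Fintype.card Q := by
  classical
  obtain ⟨e, he⟩ : ∃ e : Q → ℕ, Function.Injective e :=
    ⟨fun q => (Fintype.equivFin Q q : ℕ), fun a b h =>
      (Fintype.equivFin Q).injective (Fin.ext h)⟩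
  set R : Finset Q := Finset.univ.filter (fun q => e q < e (u q) ∧ e q < e (u (u q))) with hR
  have hfixu : ∀ q, u q = q → u (u q) = q := fun q h => by rw [h, h]
  have hne1 : ∀ q, u q ≠ q → u (u q) ≠ u q := fun q h h' => h (u.injective h')
  have hne2 : ∀ q, u q ≠ q → u (u q) ≠ q := fun q h h' => by
    have := hu q
    rw [h'] at this
    exact h this
  -- the restriction map
  let ρ : normInv k (u : Q → Q) →ₗ[k] (R → k) × (R → k) :=
    { toFun := fun b => (fun r => b.1 r.1, fun r => b.1 (u r.1))
      map_add' := fun _ _ => rfl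
      map_smul' := fun _ _ => rfl }
  have hρ : Function.Injective ρ := by
    rw [← LinearMap.ker_eq_bot, LinearMap.ker_eq_bot']
    rintro ⟨b, hb⟩ h0
    have h0a : ∀ r ∈ R, b r = 0 := fun r hr => congrFun (congrArg Prod.fst h0) ⟨r, hr⟩
    have h0b : ∀ r ∈ R, b (u r) = 0 := fun r hr => congrFun (congrArg Prod.snd h0) ⟨r, hr⟩
    have h0c : ∀ r ∈ R, b (u (u r)) = 0 := fun r hr => by
      have := (hb r).1
      rw [h0a r hr, h0b r hr, zero_add, zero_add] at this
      exact this
    apply Subtype.ext
    funext q
    show b q = 0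
    by_cases hq : u q = q
    · exact (hb q).2 hq
    · have d1 : e (u q) ≠ e q := fun h => hq (he h)
      have d2 : e (u (u q)) ≠ e (u q) := fun h => hne1 q hq (he h)
      have d3 : e (u (u q)) ≠ e q := fun h => hne2 q hq (he h)
      by_cases c1 : e q < e (u q) ∧ e q < e (u (u q))
      · exact h0a q (by rw [hR, Finset.mem_filter]; exact ⟨Finset.mem_univ _, c1⟩)
      · by_cases c2 : e (u q) < e (u (u q)) ∧ e (u q) < e q
        · have hm : u q ∈ R := by
            rw [hR, Finset.mem_filter]; simp only [hu]; exact ⟨Finset.mem_univ _, c2⟩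
          have := h0c (u q) hm
          rwa [hu] at this
        · have c3 : e (u (u q)) < e q ∧ e (u (u q)) < e (u q) := by
            have := lt_or_gt_of_ne d1
            have := lt_or_gt_of_ne d2
            have := lt_or_gt_of_ne d3
            rw [not_and_or, not_lt, not_lt] at c1 c2
            constructor
            · rcases c1 with c | c <;> rcases c2 with c' | c' <;> omega
            · rcases c1 with c | c <;> rcases c2 with c' | c' <;> omega
          have hm : u (u q) ∈ R := by
            rw [hR, Finset.mem_filter]; simp only [hu]; exact ⟨Finset.mem_univ _, c3⟩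
          have := h0b (u (u q)) hm
          rwa [hu] at this
  have h1 : finrank k (normInv k (u : Q → Q)) ≤ 2 * R.card := by
    have := LinearMap.finrank_le_finrank_of_injective hρ
    rw [Module.finrank_prod, Module.finrank_fintype_fun_eq_card, Fintype.card_coe] at this
    omega
  -- counting
  have hfix : Fintype.card {q : Q // u q = q} = ∑ q : Q, if u q = q then 1 else 0 := by
    rw [Fintype.card_subtype, Finset.card_filter]
  have hR1 : R.card = ∑ q : Q, if e q < e (u q) ∧ e q < e (u (u q)) then 1 else 0 := by
    rw [hR, Finset.card_filter]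
  have hR2 : R.card = ∑ q : Q, if e (u q) < e (u (u q)) ∧ e (u q) < e q then 1 else 0 := by
    rw [hR1, ← Equiv.sum_comp u]
    simp only [hu]
  have hR3 : R.card = ∑ q : Q, if e (u (u q)) < e q ∧ e (u (u q)) < e (u q) then 1 else 0 := by
    rw [hR2, ← Equiv.sum_comp u]
    simp only [hu]
  have hsum : (∑ q : Q, if u q = q then 1 else 0) +
      (∑ q : Q, if e q < e (u q) ∧ e q < e (u (u q)) then 1 else 0) +
      (∑ q : Q, if e (u q) < e (u (u q)) ∧ e (u q) < e q then 1 else 0) +
      (∑ q : Q, if e (u (u q)) < e q ∧ e (u (u q)) < e (u q) then 1 else 0) ≤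
        Fintype.card Q := by
    rw [← Finset.sum_add_distrib, ← Finset.sum_add_distrib, ← Finset.sum_add_distrib,
      ← Finset.card_univ, Finset.card_eq_sum_ones]
    apply Finset.sum_le_sum
    intro q _
    by_cases h1 : u q = q
    · have h2 : u (u q) = q := hfixu q h1
      simp [h1]
    · rw [if_neg h1, zero_add]
      by_cases c1 : e q < e (u q) ∧ e q < e (u (u q))
      · rw [if_pos c1, if_neg (fun c => by omega), if_neg (fun c => by omega)]
      · rw [if_neg c1, zero_add]
        by_cases c2 : e (u q) < e (u (u q)) ∧ e (u q) < e q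
        · rw [if_pos c2, if_neg (fun c => by omega)]
        · rw [if_neg c2, zero_add]
          split_ifs <;> omega
  omega

end Fermat.Agent.S16_helper14_L2
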