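import Fermat.Agent.S21_helper27_Cocycle

/-!
# Relations satisfied by the Shapiro cocycle
-/

set_option autoImplicit false

open CongruenceSubgroup ModularCurve.Period
open scoped MatrixGroups

namespace Fermat.Agent.S21_helper27

open Fermat.Agent.S20

variable (N : ℕ)

theorem S_mul_S : (ModularGroup.S * ModularGroup.S : SL(2, ℤ)) = -1 := by
  decide

theorem ST_cube : (ModularGroup.S * ModularGroup.T) * (ModularGroup.S * ModularGroup.T) *
    (ModularGroup.S * ModularGroup.T) = (-1 : SL(2, ℤ)) := by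
  decide

/-- `s ∘ s = 1` -/
theorem act_S_S (v : Q N → ℂ) : act N ModularGroup.S (act N ModularGroup.S v) = v := by
  rw [← act_mul_apply, S_mul_S, act_neg_one]; rfl

theorem act_cube_of (g : SL(2, ℤ)) (hg : g * g * g = -1) (v : Q N → ℂ) :
    act N g (act N g (act N g v)) = v := by
  rw [← act_mul_apply, ← act_mul_apply, hg, act_neg_one]; rfl

/-- `u ∘ u ∘ u = 1` -/
theorem act_U_cube (v : Q N → ℂ) :
    act N (ModularGroup.S * ModularGroup.T) (act N (ModularGroup.S * ModularGroup.T)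
      (act N (ModularGroup.S * ModularGroup.T) v)) = v :=
  act_cube_of N _ ST_cube v

/-- relation from `S ^ 2 = -1` -/
theorem coc_S_rel (ψ : Additive (Gamma0 N) →+ ℂ) :
    coc N ψ ModularGroup.S + act N ModularGroup.S (coc N ψ ModularGroup.S) = 0 := by
  rw [← coc_mul, S_mul_S, coc_neg_one]

theorem coc_cube_of (ψ : Additive (Gamma0 N) →+ ℂ) (g : SL(2, ℤ)) (hg : g * g * g = -1) :
    coc N ψ g + act N g (coc N ψ g) + act N g (act N g (coc N ψ g)) = 0 := by
  have h := coc_neg_one N ψ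
  rw [← hg, coc_mul, coc_mul, act_mul_apply] at h
  exact h

/-- relation from `(S T) ^ 3 = -1` -/
theorem coc_U_rel (ψ : Additive (Gamma0 N) →+ ℂ) :
    coc N ψ (ModularGroup.S * ModularGroup.T) +
      act N (ModularGroup.S * ModularGroup.T) (coc N ψ (ModularGroup.S * ModularGroup.T)) +
      act N (ModularGroup.S * ModularGroup.T) (act N (ModularGroup.S * ModularGroup.T)
        (coc N ψ (ModularGroup.S * ModularGroup.T))) = 0 :=
  coc_cube_of N ψ _ ST_cube

theorem coc_U (ψ : Additive (Gamma0 N) →+ ℂ) :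
    coc N ψ (ModularGroup.S * ModularGroup.T) =
      coc N ψ ModularGroup.S + act N ModularGroup.S (coc N ψ ModularGroup.T) :=
  coc_mul N ψ _ _

/-- powers -/
theorem coc_pow (ψ : Additive (Gamma0 N) →+ ℂ) (g : SL(2, ℤ)) (n : ℕ) :
    coc N ψ (g ^ n) = ∑ j ∈ Finset.range n, act N (g ^ j) (coc N ψ g) := by
  induction n with
  | zero => simp [coc_one]
  | succ n ih => rw [pow_succ, coc_mul, ih, Finset.sum_range_succ]

theorem act_pow (g : SL(2, ℤ)) (n : ℕ) : act N (g ^ n) = (act N g) ^ n := by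
  induction n with
  | zero => rw [pow_zero, pow_zero, act_one]; rfl
  | succ n ih => rw [pow_succ, pow_succ, act_mul, ih]; rfl

/-- conjugates of `T ^ N` lie in `Γ₀(N)` -/
theorem conj_T_pow_mem (h : SL(2, ℤ)) :
    h⁻¹ * ModularGroup.T ^ N * h ∈ Gamma0 N := by
  have h1 : (ModularGroup.T ^ N : SL(2, ℤ)) ∈ Gamma N := by
    have := ModularGroup_T_pow_mem_Gamma (N : ℤ) (N : ℤ) dvd_rfl
    simpa using this
  have h2 : h⁻¹ * ModularGroup.T ^ N * h ∈ Gamma N := by
    have := (Gamma_normal N).conj_mem _ h1 h⁻¹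
    simpa using this
  rw [Gamma_mem] at h2
  rw [Gamma0_mem]
  exact h2.2.2.1

theorem T_pow_smul_Q (q : Q N) : (ModularGroup.T ^ N : SL(2, ℤ)) • q = q := by
  induction q using QuotientGroup.induction_on with
  | H h =>
    show (((ModularGroup.T ^ N : SL(2, ℤ)) * h : SL(2, ℤ)) : Q N) = (h : Q N)
    rw [eq_comm, QuotientGroup.eq, ← mul_assoc]
    exact conj_T_pow_mem N h

theorem act_T_pow : (act N ModularGroup.T) ^ N = 1 := by
  rw [← act_pow]
  ext v q
  have : ((ModularGroup.T ^ N : SL(2, ℤ)))⁻¹ • q = q := by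
    rw [inv_smul_eq_iff, T_pow_smul_Q]
  simp [this]

theorem trace_conj (a b : SL(2, ℤ)) :
    ((a⁻¹ * b * a : SL(2, ℤ)) : Matrix (Fin 2) (Fin 2) ℤ).trace =
      (b : Matrix (Fin 2) (Fin 2) ℤ).trace := by
  rw [Matrix.SpecialLinearGroup.coe_mul, Matrix.trace_mul_comm,
    ← Matrix.SpecialLinearGroup.coe_mul, ← mul_assoc, mul_inv_cancel, one_mul]

theorem trace_T_pow (n : ℕ) :
    ((ModularGroup.T ^ n : SL(2, ℤ)) : Matrix (Fin 2) (Fin 2) ℤ).trace = 2 := by
  have := ModularGroup.coe_T_zpow (n : ℤ)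
  rw [zpow_natCast] at this
  have h2 : ((ModularGroup.T ^ n : SL(2, ℤ)) : Matrix (Fin 2) (Fin 2) ℤ) = !![1, (n : ℤ); 0, 1] :=
    this
  rw [h2, Matrix.trace_fin_two_of]
  norm_num

/-- the parabolic condition: the sum of the `T`-translates of `coc ψ T` vanishes -/
theorem coc_T_rel (ψ : Additive (Gamma0 N) →+ ℂ) (hψ : IsParabolicHom (Gamma0 N) ψ) :
    ∑ j ∈ Finset.range N, ((act N ModularGroup.T) ^ j) (coc N ψ ModularGroup.T) = 0 := by
  have h1 := coc_pow N ψ ModularGroup.T N
  simp only [act_pow] at h1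
  rw [← h1]
  funext q
  have hq : ((ModularGroup.T ^ N : SL(2, ℤ)))⁻¹ • q = q := by
    rw [inv_smul_eq_iff, T_pow_smul_Q]
  have hg : gam N (ModularGroup.T ^ N) q = (q.out)⁻¹ * ModularGroup.T ^ N * q.out := by
    unfold gam
    rw [hq]
  rw [coc_apply, hg, ext0_of_mem N ψ (conj_T_pow_mem N q.out)]
  refine hψ ⟨_, conj_T_pow_mem N q.out⟩ ?_
  show ((((q.out)⁻¹ * ModularGroup.T ^ N * q.out : SL(2, ℤ))) :
    Matrix (Fin 2) (Fin 2) ℤ).trace ^ 2 = 4
  rw [trace_conj, trace_T_pow]
  norm_num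

/-- the value of the cocycle at an element of `Γ₀(N)` on the trivial coset -/
theorem coc_apply_one (ψ : Additive (Gamma0 N) →+ ℂ) (γ : Gamma0 N) :
    coc N ψ (γ : SL(2, ℤ)) ((1 : SL(2, ℤ)) : Q N) = ψ (Additive.ofMul γ) := by
  set q₀ : Q N := ((1 : SL(2, ℤ)) : Q N) with hq₀
  have h0 : (q₀.out : SL(2, ℤ)) ∈ Gamma0 N := by
    have h1 : ((q₀.out : SL(2, ℤ)) : Q N) = ((1 : SL(2, ℤ)) : Q N) := QuotientGroup.out_eq' q₀
    rw [eq_comm, QuotientGroup.eq] at h1
    simpa using h1
  have hq : ((γ : SL(2, ℤ)))⁻¹ • q₀ = q₀ := by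
    show ((((γ : SL(2, ℤ)))⁻¹ * 1 : SL(2, ℤ)) : Q N) = ((1 : SL(2, ℤ)) : Q N)
    rw [eq_comm, QuotientGroup.eq]
    simpa using inv_mem γ.2
  have hg : gam N (γ : SL(2, ℤ)) q₀ = (q₀.out)⁻¹ * γ * q₀.out := by
    unfold gam
    rw [hq]
  rw [coc_apply, hg, ext0_conj N ψ γ.2 h0, ext0_of_mem N ψ γ.2]

/-- if the cocycle is a coboundary on `S` and `T` then `ψ = 0` -/
theorem eq_zero_of_coboundary (ψ : Additive (Gamma0 N) →+ ℂ) (v : Q N → ℂ)
    (hS : coc N ψ ModularGroup.S = act N ModularGroup.S v - v)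
    (hT : coc N ψ ModularGroup.T = act N ModularGroup.T v - v) : ψ = 0 := by
  -- the set of `g` where the cocycle is the coboundary of `v` is a subgroup
  let H : Subgroup SL(2, ℤ) :=
    { carrier := {g | coc N ψ g = act N g v - v}
      one_mem' := by
        show coc N ψ 1 = act N 1 v - v
        rw [coc_one, act_one, LinearMap.id_apply, sub_self]
      mul_mem' := by
        intro g h hg hh
        show coc N ψ (g * h) = act N (g * h) v - v
        have hg' : coc N ψ g = act N g v - v := hg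
        have hh' : coc N ψ h = act N h v - v := hh
        rw [coc_mul, hg', hh', map_sub, act_mul_apply]
        abel
      inv_mem' := by
        intro g hg
        show coc N ψ g⁻¹ = act N g⁻¹ v - v
        have hg' : coc N ψ g = act N g v - v := hg
        have h1 := coc_mul N ψ g⁻¹ g
        rw [inv_mul_cancel, coc_one, hg', map_sub, act_inv_apply] at h1
        have h2 : coc N ψ g⁻¹ = -(v - act N g⁻¹ v) := by
          rw [eq_neg_iff_add_eq_zero]
          exact h1.symm
        rw [h2]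
        abel }
  have hH : H = ⊤ := by
    rw [eq_top_iff, ← SpecialLinearGroup.SL2Z_generators, Subgroup.closure_le]
    rintro g (rfl | rfl)
    · exact hS
    · exact hT
  have hall : ∀ g : SL(2, ℤ), coc N ψ g = act N g v - v := fun g => by
    have : g ∈ H := by rw [hH]; exact Subgroup.mem_top g
    exact this
  refine AddMonoidHom.ext fun γ => ?_
  obtain ⟨γ, rfl⟩ : ∃ γ' : Gamma0 N, Additive.ofMul γ' = γ := ⟨Additive.toMul γ, rfl⟩
  rw [← coc_apply_one N ψ γ, hall]
  have hq : ((γ : SL(2, ℤ)))⁻¹ • (((1 : SL(2, ℤ)) : Q N)) = ((1 : SL(2, ℤ)) : Q N) := by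
    show ((((γ : SL(2, ℤ)))⁻¹ * 1 : SL(2, ℤ)) : Q N) = ((1 : SL(2, ℤ)) : Q N)
    rw [eq_comm, QuotientGroup.eq]
    simpa using inv_mem γ.2
  simp [hq]

/-- a function invariant under `S` and `T` is constant -/
theorem const_of_invariant (v : Q N → ℂ) (hS : act N ModularGroup.S v = v)
    (hT : act N ModularGroup.T v = v) (q q' : Q N) : v q = v q' := by
  let H : Subgroup SL(2, ℤ) :=
    { carrier := {g | act N g v = v}
      one_mem' := by
        show act N 1 v = v
        rw [act_one]; rfl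
      mul_mem' := by
        intro g h hg hh
        show act N (g * h) v = v
        have hg' : act N g v = v := hg
        have hh' : act N h v = v := hh
        rw [act_mul_apply, hh', hg']
      inv_mem' := by
        intro g hg
        show act N g⁻¹ v = v
        have hg' : act N g v = v := hg
        conv_lhs => rw [← hg']
        exact act_inv_apply N g v }
  have hH : H = ⊤ := by
    rw [eq_top_iff, ← SpecialLinearGroup.SL2Z_generators, Subgroup.closure_le]
    rintro g (rfl | rfl)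
    · exact hS
    · exact hT
  have hall : ∀ g : SL(2, ℤ), act N g v = v := fun g => by
    have : g ∈ H := by rw [hH]; exact Subgroup.mem_top g
    exact this
  obtain ⟨g, rfl⟩ := MulAction.exists_smul_eq SL(2, ℤ) q' q
  have := congrFun (hall g⁻¹) q'
  rw [act_apply, inv_inv] at this
  exact this

end Fermat.Agent.S21_helper27
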