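import Mathlib
import Fermat.Prelude.Def_ModularCurve_PeriodMap
import Fermat.Prelude.Def_ModularCurve_GenusNumerics
import Fermat.Agent.S20_Defs
import Fermat.Agent.S21_helper27_Relations
import Fermat.Agent.S20_helper29_A1
import Fermat.Agent.S20_helper22_A2
import Fermat.Agent.S20_helper22_A3
import Fermat.Agent.S16_helper14_L2Comb

/-!
# S16, piece LB-L2: the characteristic-free bound `dim_k X(k) ≤ 2 g`

`X(A) = ellParHoms R N A` is the module of homomorphisms `Γ₀(N) → A` killing every element of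
trace in `{0, ±1, ±2}`.  For a field `k` of ANY characteristic and a prime `p` we prove
`dim_k X(k) ≤ 2 * genusFormula p` by orbit counting on `Γ₀(p) \ SL₂(ℤ)`.
-/

set_option autoImplicit false
set_option linter.unusedSectionVars false

open CongruenceSubgroup ModularCurve.Period Module
open scoped MatrixGroups

namespace Fermat.Agent.S16_helper14_L2

open Fermat.Agent.S20 Fermat.Agent.S21_helper27

section Defs

variable (R : Type*) [Semiring R] (N : ℕ) (A : Type*) [AddCommGroup A] [Module R A]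

/-- `X(A)`: homomorphisms `Γ₀(N) → A` killing every element of trace in `{0, ±1, ±2}`
(so also `-1`, the parabolic elements and all elements of finite order). -/
def ellParHoms : Submodule R (Additive (Gamma0 N) →+ A) where
  carrier := {φ | ∀ γ : Gamma0 N,
    |((γ : SL(2, ℤ)) : Matrix (Fin 2) (Fin 2) ℤ).trace| ≤ 2 → φ (Additive.ofMul γ) = 0}
  zero_mem' := fun _ _ => rfl
  add_mem' := by
    intro φ ψ hφ hψ γ hγ
    show φ (Additive.ofMul γ) + ψ (Additive.ofMul γ) = 0
    rw [hφ γ hγ, hψ γ hγ, add_zero]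
  smul_mem' := by
    intro c φ hφ γ hγ
    show c • φ (Additive.ofMul γ) = 0
    rw [hφ γ hγ, smul_zero]

variable {R N A}

theorem mem_ellParHoms_iff {φ : Additive (Gamma0 N) →+ A} :
    φ ∈ ellParHoms R N A ↔ ∀ γ : Gamma0 N,
      |((γ : SL(2, ℤ)) : Matrix (Fin 2) (Fin 2) ℤ).trace| ≤ 2 → φ (Additive.ofMul γ) = 0 :=
  Iff.rfl

theorem ellParHoms_le_parabolicHoms : ellParHoms R N A ≤ parabolicHoms R (Gamma0 N) A := by
  intro φ hφ γ hγ
  refine hφ γ ?_
  rw [abs_le]
  constructor <;> nlinarith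

end Defs

/-! ### the Shapiro cocycle with general coefficients -/

section Cocycle

variable (N : ℕ) {A : Type*} [AddCommGroup A]

/-- the Shapiro cocycle of `ψ`, with values in an arbitrary abelian group -/
noncomputable def cocA (ψ : Additive (Gamma0 N) →+ A) (g : SL(2, ℤ)) (q : Q N) : A :=
  ψ (Additive.ofMul ⟨gam N g q, gam_mem N g q⟩)

theorem cocA_mul (ψ : Additive (Gamma0 N) →+ A) (g h : SL(2, ℤ)) (q : Q N) :
    cocA N ψ (g * h) q = cocA N ψ g q + cocA N ψ h (g⁻¹ • q) := by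
  unfold cocA
  rw [← map_add, ← ofMul_mul]
  congr 2
  exact Subtype.ext (gam_mul N g h q)

theorem cocA_one (ψ : Additive (Gamma0 N) →+ A) (q : Q N) : cocA N ψ 1 q = 0 := by
  have h := cocA_mul N ψ 1 1 q
  rw [mul_one, inv_one, one_smul] at h
  have h2 : cocA N ψ 1 q + cocA N ψ 1 q = cocA N ψ 1 q + 0 := by rw [add_zero]; exact h.symm
  exact add_left_cancel h2

theorem cocA_of_fixed (ψ : Additive (Gamma0 N) →+ A) (g : SL(2, ℤ)) (q : Q N)
    (hq : g⁻¹ • q = q) (hmem : (q.out)⁻¹ * g * q.out ∈ Gamma0 N) :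
    cocA N ψ g q = ψ (Additive.ofMul ⟨(q.out)⁻¹ * g * q.out, hmem⟩) := by
  unfold cocA
  congr 2
  apply Subtype.ext
  show gam N g q = (q.out)⁻¹ * g * q.out
  unfold gam
  rw [hq]

theorem conj_mem_of_fixed (g : SL(2, ℤ)) (q : Q N) (hq : g⁻¹ • q = q) :
    (q.out)⁻¹ * g * q.out ∈ Gamma0 N := by
  have h := gam_mem N g q
  unfold gam at h
  rwa [hq] at h

/-- the cocycle vanishes at a fixed coset when `|trace g| ≤ 2` -/
theorem cocA_eq_zero_of_fixed {R : Type*} [Semiring R] [Module R A]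
    (ψ : Additive (Gamma0 N) →+ A) (hψ : ψ ∈ ellParHoms R N A) (g : SL(2, ℤ))
    (hg : |(g : Matrix (Fin 2) (Fin 2) ℤ).trace| ≤ 2) (q : Q N) (hq : g⁻¹ • q = q) :
    cocA N ψ g q = 0 := by
  rw [cocA_of_fixed N ψ g q hq (conj_mem_of_fixed N g q hq)]
  refine hψ _ ?_
  show |((((q.out)⁻¹ * g * q.out : SL(2, ℤ))) : Matrix (Fin 2) (Fin 2) ℤ).trace| ≤ 2
  rw [trace_conj]
  exact hg

theorem neg_one_inv_smul (q : Q N) : ((-1 : SL(2, ℤ)))⁻¹ • q = q := by
  rw [inv_smul_eq_iff, neg_one_smul_Q]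

theorem trace_neg_one : ((-1 : SL(2, ℤ)) : Matrix (Fin 2) (Fin 2) ℤ).trace = -2 := by
  decide

theorem trace_S : ((ModularGroup.S : SL(2, ℤ)) : Matrix (Fin 2) (Fin 2) ℤ).trace = 0 := by
  decide

theorem trace_U : ((ModularGroup.S * ModularGroup.T : SL(2, ℤ)) :
    Matrix (Fin 2) (Fin 2) ℤ).trace = 1 := by
  decide

theorem trace_T : ((ModularGroup.T : SL(2, ℤ)) : Matrix (Fin 2) (Fin 2) ℤ).trace = 2 := by
  decide

theorem cocA_neg_one {R : Type*} [Semiring R] [Module R A]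
    (ψ : Additive (Gamma0 N) →+ A) (hψ : ψ ∈ ellParHoms R N A) (q : Q N) :
    cocA N ψ (-1) q = 0 :=
  cocA_eq_zero_of_fixed N ψ hψ (-1) (by rw [trace_neg_one]; norm_num) q (neg_one_inv_smul N q)

theorem cocA_cube_of {R : Type*} [Semiring R] [Module R A]
    (ψ : Additive (Gamma0 N) →+ A) (hψ : ψ ∈ ellParHoms R N A) (g : SL(2, ℤ))
    (hg : g * g * g = -1) (q : Q N) :
    cocA N ψ g q + cocA N ψ g (g⁻¹ • q) + cocA N ψ g (g⁻¹ • g⁻¹ • q) = 0 := by
  have h := cocA_neg_one N ψ hψ q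
  rw [← hg, cocA_mul, cocA_mul, mul_inv_rev, mul_smul] at h
  exact h

theorem cocA_sq_of {R : Type*} [Semiring R] [Module R A]
    (ψ : Additive (Gamma0 N) →+ A) (hψ : ψ ∈ ellParHoms R N A) (g : SL(2, ℤ))
    (hg : g * g = -1) (q : Q N) :
    cocA N ψ g q + cocA N ψ g (g⁻¹ • q) = 0 := by
  have h := cocA_neg_one N ψ hψ q
  rw [← hg, cocA_mul] at h
  exact h

/-- the value of the cocycle at an element of `Γ₀(N)` on the trivial coset -/
theorem cocA_apply_one (ψ : Additive (Gamma0 N) →+ A) (γ : Gamma0 N) :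
    cocA N ψ (γ : SL(2, ℤ)) ((1 : SL(2, ℤ)) : Q N) = ψ (Additive.ofMul γ) := by
  set q₀ : Q N := ((1 : SL(2, ℤ)) : Q N) with hq₀
  have h0 : (q₀.out : SL(2, ℤ)) ∈ Gamma0 N := by
    have h1 : ((q₀.out : SL(2, ℤ)) : Q N) = ((1 : SL(2, ℤ)) : Q N) := QuotientGroup.out_eq' q₀
    rw [eq_comm, QuotientGroup.eq] at h1
    simpa using h1
  have hq : ((γ : SL(2, ℤ)))⁻¹ • q₀ = q₀ := by
    show ((((γ : SL(2, ℤ)))⁻¹ * 1 : SL(2, ℤ)) : Q N) = ((1 : SL(2, ℤ)) : Q N)
    rw [eq_comm, QuotientGroup.eq]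
    simpa using inv_mem γ.2
  rw [cocA_of_fixed N ψ _ q₀ hq (conj_mem_of_fixed N _ q₀ hq)]
  have e : (⟨(q₀.out)⁻¹ * (γ : SL(2, ℤ)) * q₀.out, conj_mem_of_fixed N _ q₀ hq⟩ : Gamma0 N) =
      (⟨q₀.out, h0⟩ : Gamma0 N)⁻¹ * γ * ⟨q₀.out, h0⟩ := Subtype.ext rfl
  rw [e, ofMul_mul, ofMul_mul, ofMul_inv, map_add, map_add, map_neg]
  abel

/-- if the cocycle is the coboundary of `m` on `S` and `S * T`, then it is so everywhere -/
theorem cocA_eq_of_coboundary (ψ : Additive (Gamma0 N) →+ A) (m : Q N → A)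
    (hS : ∀ q, cocA N ψ ModularGroup.S q = m ((ModularGroup.S)⁻¹ • q) - m q)
    (hU : ∀ q, cocA N ψ (ModularGroup.S * ModularGroup.T) q =
      m ((ModularGroup.S * ModularGroup.T)⁻¹ • q) - m q) :
    ∀ (g : SL(2, ℤ)) (q : Q N), cocA N ψ g q = m (g⁻¹ • q) - m q := by
  let H : Subgroup SL(2, ℤ) :=
    { carrier := {g | ∀ q, cocA N ψ g q = m (g⁻¹ • q) - m q}
      one_mem' := by
        intro q
        rw [cocA_one, inv_one, one_smul, sub_self]
      mul_mem' := by
        intro g h hg hh q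
        have hg' := hg q
        have hh' := hh (g⁻¹ • q)
        rw [cocA_mul, hg', hh', mul_inv_rev, mul_smul]
        abel
      inv_mem' := by
        intro g hg q
        have h1 := cocA_mul N ψ g⁻¹ g q
        rw [inv_mul_cancel, cocA_one, inv_inv, hg (g • q), inv_smul_smul] at h1
        rw [inv_inv]
        have h2 : cocA N ψ g⁻¹ q = -(m q - m (g • q)) := by
          rw [eq_neg_iff_add_eq_zero]
          exact h1.symm
        rw [h2]
        abel }
  have hSH : ModularGroup.S ∈ H := hS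
  have hUH : ModularGroup.S * ModularGroup.T ∈ H := hU
  have hTH : ModularGroup.T ∈ H := by
    have := H.mul_mem (H.inv_mem hSH) hUH
    rwa [inv_mul_cancel_left] at this
  have hH : H = ⊤ := by
    rw [eq_top_iff, ← SpecialLinearGroup.SL2Z_generators, Subgroup.closure_le]
    rintro g (rfl | rfl)
    · exact hSH
    · exact hTH
  intro g
  have : g ∈ H := by rw [hH]; exact Subgroup.mem_top g
  exact this

theorem one_inv_smul_of_mem (γ : Gamma0 N) :
    ((γ : SL(2, ℤ)))⁻¹ • (((1 : SL(2, ℤ)) : Q N)) = ((1 : SL(2, ℤ)) : Q N) := by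
  show ((((γ : SL(2, ℤ)))⁻¹ * 1 : SL(2, ℤ)) : Q N) = ((1 : SL(2, ℤ)) : Q N)
  rw [eq_comm, QuotientGroup.eq]
  simpa using inv_mem γ.2

/-- if the cocycle is a coboundary on `S` and `S * T` then `ψ = 0` -/
theorem eq_zero_of_cocA_coboundary (ψ : Additive (Gamma0 N) →+ A) (m : Q N → A)
    (hS : ∀ q, cocA N ψ ModularGroup.S q = m ((ModularGroup.S)⁻¹ • q) - m q)
    (hU : ∀ q, cocA N ψ (ModularGroup.S * ModularGroup.T) q =
      m ((ModularGroup.S * ModularGroup.T)⁻¹ • q) - m q) : ψ = 0 := by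
  have hall := cocA_eq_of_coboundary N ψ m hS hU
  refine AddMonoidHom.ext fun γ => ?_
  obtain ⟨γ, rfl⟩ : ∃ γ' : Gamma0 N, Additive.ofMul γ' = γ := ⟨Additive.toMul γ, rfl⟩
  rw [← cocA_apply_one N ψ γ, hall, one_inv_smul_of_mem, sub_self]
  rfl

/-- a function invariant under `S` and `S * T` is constant -/
theorem const_of_inv (m : Q N → A)
    (hS : ∀ q, m ((ModularGroup.S)⁻¹ • q) = m q)
    (hU : ∀ q, m ((ModularGroup.S * ModularGroup.T)⁻¹ • q) = m q) (q q' : Q N) :
    m q = m q' := by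
  have hall := cocA_eq_of_coboundary N (0 : Additive (Gamma0 N) →+ A) m
    (fun q => by rw [hS, sub_self]; rfl) (fun q => by rw [hU, sub_self]; rfl)
  obtain ⟨g, rfl⟩ := MulAction.exists_smul_eq SL(2, ℤ) q' q
  have h := hall g⁻¹ q'
  rw [inv_inv] at h
  have h0 : cocA N (0 : Additive (Gamma0 N) →+ A) g⁻¹ q' = 0 := rfl
  rw [h0] at h
  exact (sub_eq_zero.mp h.symm)

end Cocycle

/-! ### the two permutations -/

section Perms

variable (N : ℕ)

/-- the permutation `q ↦ S⁻¹ • q` of the cosets -/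
noncomputable def sP : Equiv.Perm (Q N) := MulAction.toPerm ((ModularGroup.S)⁻¹ : SL(2, ℤ))

/-- the permutation `q ↦ (S T)⁻¹ • q` of the cosets -/
noncomputable def uP : Equiv.Perm (Q N) :=
  MulAction.toPerm ((ModularGroup.S * ModularGroup.T)⁻¹ : SL(2, ℤ))

theorem sP_apply (q : Q N) : sP N q = (ModularGroup.S)⁻¹ • q := rfl

theorem uP_apply (q : Q N) : uP N q = (ModularGroup.S * ModularGroup.T)⁻¹ • q := rfl

theorem sP_sP (q : Q N) : sP N (sP N q) = q := by
  rw [sP_apply, sP_apply, ← mul_smul, ← mul_inv_rev, S_mul_S, neg_one_inv_smul]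

theorem uP_uP_uP (q : Q N) : uP N (uP N (uP N q)) = q := by
  rw [uP_apply, uP_apply, uP_apply, ← mul_smul, ← mul_smul, ← mul_inv_rev, ← mul_inv_rev,
    ← mul_assoc, ST_cube, neg_one_inv_smul]

theorem card_fix_sP : Nat.card {q : Q N // sP N q = q} = nu2 N := by
  unfold nu2
  refine Nat.card_congr (Equiv.subtypeEquivRight fun q => ?_)
  rw [sP_apply, inv_smul_eq_iff, eq_comm]

theorem card_fix_uP : Nat.card {q : Q N // uP N q = q} = nu3 N := by
  unfold nu3
  refine Nat.card_congr (Equiv.subtypeEquivRight fun q => ?_)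
  rw [uP_apply, inv_smul_eq_iff, eq_comm]

end Perms

/-! ### the linear algebra -/

section Count

variable (k : Type*) [Field k] (N : ℕ)

/-- `ψ ↦ (c_S, c_U)` -/
noncomputable def ThetaA : (Additive (Gamma0 N) →+ k) →ₗ[k] (Q N → k) × (Q N → k) where
  toFun ψ := (cocA N ψ ModularGroup.S, cocA N ψ (ModularGroup.S * ModularGroup.T))
  map_add' _ _ := rfl
  map_smul' _ _ := rfl

/-- the coboundary map `m ↦ (S m - m, U m - m)` -/
noncomputable def deltaA : (Q N → k) →ₗ[k] (Q N → k) × (Q N → k) where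
  toFun m := (fun q => m (sP N q) - m q, fun q => m (uP N q) - m q)
  map_add' m m' := by
    refine Prod.ext ?_ ?_ <;> funext q <;> simp only [Pi.add_apply, Prod.mk_add_mk] <;> ring
  map_smul' c m := by
    refine Prod.ext ?_ ?_ <;> funext q <;>
      simp only [Pi.smul_apply, Prod.smul_mk, smul_eq_mul, RingHom.id_apply] <;> ring

/-- the coset of `S` -/
noncomputable def qS : Q N := ((ModularGroup.S : SL(2, ℤ)) : Q N)

/-- the trivial coset -/
noncomputable def qI : Q N := ((1 : SL(2, ℤ)) : Q N)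

theorem sP_qS : sP N (qS N) = qI N := by
  rw [sP_apply, inv_smul_eq_iff]
  show qS N = (((ModularGroup.S : SL(2, ℤ)) * 1 : SL(2, ℤ)) : Q N)
  rw [mul_one]
  rfl

theorem T_mem : (ModularGroup.T : SL(2, ℤ)) ∈ Gamma0 N := by
  rw [Gamma0_mem]
  simp [ModularGroup.T]

theorem T_inv_smul_qI : ((ModularGroup.T : SL(2, ℤ)))⁻¹ • qI N = qI N :=
  one_inv_smul_of_mem N ⟨ModularGroup.T, T_mem N⟩

theorem uP_qS : uP N (qS N) = qI N := by
  have h : (ModularGroup.S * ModularGroup.T : SL(2, ℤ))⁻¹ • qS N =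
      ((ModularGroup.T : SL(2, ℤ)))⁻¹ • ((ModularGroup.S : SL(2, ℤ)))⁻¹ • qS N := by
    rw [mul_inv_rev, mul_smul]
  rw [uP_apply, h, ← sP_apply, sP_qS, T_inv_smul_qI]

theorem qS_ne_qI (hN : 2 ≤ N) : qS N ≠ qI N := by
  intro h
  unfold qS qI at h
  rw [QuotientGroup.eq, mul_one, Gamma0_mem] at h
  have h1 : (((ModularGroup.S : SL(2, ℤ))⁻¹ : SL(2, ℤ)) 1 0 : ℤ) = -1 := by decide
  rw [h1] at h
  have h2 : ((1 : ℤ) : ZMod N) = 0 := by
    have := congrArg (fun x : ZMod N => -x) h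
    simpa using this
  rw [Int.cast_one] at h2
  have : Fact (1 < N) := ⟨by omega⟩
  exact one_ne_zero h2

/-- the parabolic functional at the cusp `∞` -/
noncomputable def lamA : (Q N → k) × (Q N → k) →ₗ[k] k where
  toFun w := w.2 (qS N) - w.1 (qS N)
  map_add' w w' := by simp only [Prod.fst_add, Prod.snd_add, Pi.add_apply]; ring
  map_smul' c w := by
    simp only [Prod.smul_fst, Prod.smul_snd, Pi.smul_apply, smul_eq_mul, RingHom.id_apply]; ring

variable {k N}

theorem ThetaA_fst_mem {ψ : Additive (Gamma0 N) →+ k} (hψ : ψ ∈ ellParHoms k N k) :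
    (ThetaA k N ψ).1 ∈ antiInv k (sP N : Q N → Q N) := by
  intro q
  refine ⟨?_, fun h => ?_⟩
  · exact cocA_sq_of N ψ hψ _ S_mul_S q
  · exact cocA_eq_zero_of_fixed N ψ hψ _ (by rw [trace_S]; norm_num) q h

theorem ThetaA_snd_mem {ψ : Additive (Gamma0 N) →+ k} (hψ : ψ ∈ ellParHoms k N k) :
    (ThetaA k N ψ).2 ∈ normInv k (uP N : Q N → Q N) := by
  intro q
  refine ⟨?_, fun h => ?_⟩
  · exact cocA_cube_of N ψ hψ _ ST_cube q
  · exact cocA_eq_zero_of_fixed N ψ hψ _ (by rw [trace_U]; norm_num) q h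

theorem lamA_ThetaA {ψ : Additive (Gamma0 N) →+ k} (hψ : ψ ∈ ellParHoms k N k) :
    lamA k N (ThetaA k N ψ) = 0 := by
  show cocA N ψ (ModularGroup.S * ModularGroup.T) (qS N) - cocA N ψ ModularGroup.S (qS N) = 0
  rw [cocA_mul, ← sP_apply, sP_qS, add_sub_cancel_left]
  exact cocA_eq_zero_of_fixed N ψ hψ _ (by rw [trace_T]; norm_num) _ (T_inv_smul_qI N)

theorem deltaA_fst_mem (m : Q N → k) : (deltaA k N m).1 ∈ antiInv k (sP N : Q N → Q N) := by
  intro q
  refine ⟨?_, fun h => ?_⟩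
  · show (m (sP N q) - m q) + (m (sP N (sP N q)) - m (sP N q)) = 0
    rw [sP_sP]
    ring
  · show m (sP N q) - m q = 0
    rw [h, sub_self]

theorem deltaA_snd_mem (m : Q N → k) : (deltaA k N m).2 ∈ normInv k (uP N : Q N → Q N) := by
  intro q
  refine ⟨?_, fun h => ?_⟩
  · show (m (uP N q) - m q) + (m (uP N (uP N q)) - m (uP N q)) +
      (m (uP N (uP N (uP N q))) - m (uP N (uP N q))) = 0
    rw [uP_uP_uP]
    ring
  · show m (uP N q) - m q = 0
    rw [h, sub_self]

theorem lamA_deltaA (m : Q N → k) : lamA k N (deltaA k N m) = 0 := by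
  show (m (uP N (qS N)) - m (qS N)) - (m (sP N (qS N)) - m (qS N)) = 0
  rw [uP_qS, sP_qS]
  ring

/-- injectivity of `(ψ, m) ↦ Θ ψ - δ m` on `X × {m | m q∞ = 0}` -/
theorem eq_zero_of_ThetaA_eq_deltaA (ψ : Additive (Gamma0 N) →+ k) (m : Q N → k)
    (hm : m (qI N) = 0) (h : ThetaA k N ψ = deltaA k N m) : ψ = 0 ∧ m = 0 := by
  have hS : ∀ q, cocA N ψ ModularGroup.S q = m ((ModularGroup.S)⁻¹ • q) - m q :=
    fun q => congrFun (congrArg Prod.fst h) q
  have hU : ∀ q, cocA N ψ (ModularGroup.S * ModularGroup.T) q =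
      m ((ModularGroup.S * ModularGroup.T)⁻¹ • q) - m q :=
    fun q => congrFun (congrArg Prod.snd h) q
  have hψ : ψ = 0 := eq_zero_of_cocA_coboundary N ψ m hS hU
  refine ⟨hψ, ?_⟩
  subst hψ
  have hS' : ∀ q, m ((ModularGroup.S)⁻¹ • q) = m q := fun q => by
    have := hS q
    have h0 : cocA N (0 : Additive (Gamma0 N) →+ k) ModularGroup.S q = 0 := rfl
    rw [h0] at this
    exact (sub_eq_zero.mp this.symm)
  have hU' : ∀ q, m ((ModularGroup.S * ModularGroup.T)⁻¹ • q) = m q := fun q => by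
    have := hU q
    have h0 : cocA N (0 : Additive (Gamma0 N) →+ k) (ModularGroup.S * ModularGroup.T) q = 0 := rfl
    rw [h0] at this
    exact (sub_eq_zero.mp this.symm)
  funext q
  rw [const_of_inv N m hS' hU' q (qI N), hm]
  rfl

end Count

/-! ### the count -/

section Final

variable (k : Type*) [Field k] (N : ℕ) [NeZero N]

theorem finrank_fun_Q : finrank k (Q N → k) = mu N := by
  classical
  letI : Fintype (Q N) := Fintype.ofFinite _
  rw [Module.finrank_fintype_fun_eq_card, mu, Nat.card_eq_fintype_card]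

/-- functions vanishing at the trivial coset -/
noncomputable def V0 : Submodule k (Q N → k) :=
  LinearMap.ker (LinearMap.proj (qI N) : (Q N → k) →ₗ[k] k)

theorem mem_V0 (m : Q N → k) : m ∈ V0 k N ↔ m (qI N) = 0 := by
  rw [V0, LinearMap.mem_ker]
  rfl

theorem finrank_V0 : finrank k (V0 k N) + 1 = mu N := by
  classical
  have h := LinearMap.finrank_range_add_finrank_ker
    (LinearMap.proj (qI N) : (Q N → k) →ₗ[k] k)
  have hr : LinearMap.range (LinearMap.proj (qI N) : (Q N → k) →ₗ[k] k) = ⊤ := by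
    rw [LinearMap.range_eq_top]
    intro c
    exact ⟨fun _ => c, rfl⟩
  rw [hr, finrank_top, Module.finrank_self, finrank_fun_Q] at h
  unfold V0
  omega

/-- the space `A_S × A_U` -/
abbrev WA : Type _ := ↥(antiInv k (sP N : Q N → Q N)) × ↥(normInv k (uP N : Q N → Q N))

/-- `(ψ, m) ↦ Θ ψ - δ m`, first component -/
noncomputable def GA1 : (↥(ellParHoms k N k) × ↥(V0 k N)) →ₗ[k] ↥(antiInv k (sP N : Q N → Q N)) :=
  LinearMap.codRestrict (antiInv k (sP N : Q N → Q N))
    ((LinearMap.fst k _ _).comp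
      (LinearMap.coprod ((ThetaA k N).comp (ellParHoms k N k).subtype)
        (-(deltaA k N).comp (V0 k N).subtype)))
    (fun x => by
      show (ThetaA k N x.1.1 + -(deltaA k N x.2.1)).1 ∈ antiInv k (sP N : Q N → Q N)
      rw [Prod.fst_add, Prod.fst_neg]
      exact Submodule.add_mem _ (ThetaA_fst_mem x.1.2)
        (Submodule.neg_mem _ (deltaA_fst_mem x.2.1)))

/-- `(ψ, m) ↦ Θ ψ - δ m`, second component -/
noncomputable def GA2 : (↥(ellParHoms k N k) × ↥(V0 k N)) →ₗ[k] ↥(normInv k (uP N : Q N → Q N)) :=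
  LinearMap.codRestrict (normInv k (uP N : Q N → Q N))
    ((LinearMap.snd k _ _).comp
      (LinearMap.coprod ((ThetaA k N).comp (ellParHoms k N k).subtype)
        (-(deltaA k N).comp (V0 k N).subtype)))
    (fun x => by
      show (ThetaA k N x.1.1 + -(deltaA k N x.2.1)).2 ∈ normInv k (uP N : Q N → Q N)
      rw [Prod.snd_add, Prod.snd_neg]
      exact Submodule.add_mem _ (ThetaA_snd_mem x.1.2)
        (Submodule.neg_mem _ (deltaA_snd_mem x.2.1)))

/-- `(ψ, m) ↦ Θ ψ - δ m` -/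
noncomputable def GA : (↥(ellParHoms k N k) × ↥(V0 k N)) →ₗ[k] WA k N :=
  LinearMap.prod (GA1 k N) (GA2 k N)

theorem GA_fst (x : ↥(ellParHoms k N k) × ↥(V0 k N)) :
    ((GA k N x).1 : Q N → k) = (ThetaA k N x.1.1).1 - (deltaA k N x.2.1).1 := by
  show (ThetaA k N x.1.1 + -(deltaA k N x.2.1)).1 = _
  rw [Prod.fst_add, Prod.fst_neg, sub_eq_add_neg]

theorem GA_snd (x : ↥(ellParHoms k N k) × ↥(V0 k N)) :
    ((GA k N x).2 : Q N → k) = (ThetaA k N x.1.1).2 - (deltaA k N x.2.1).2 := by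
  show (ThetaA k N x.1.1 + -(deltaA k N x.2.1)).2 = _
  rw [Prod.snd_add, Prod.snd_neg, sub_eq_add_neg]

/-- the parabolic functional on `A_S × A_U` -/
noncomputable def lamW : WA k N →ₗ[k] k where
  toFun w := (w.2 : Q N → k) (qS N) - (w.1 : Q N → k) (qS N)
  map_add' w w' := by
    simp only [Prod.fst_add, Prod.snd_add, Submodule.coe_add, Pi.add_apply]; ring
  map_smul' c w := by
    simp only [Prod.smul_fst, Prod.smul_snd, Submodule.coe_smul, Pi.smul_apply, smul_eq_mul,
      RingHom.id_apply]; ring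

theorem lamW_GA (x : ↥(ellParHoms k N k) × ↥(V0 k N)) : lamW k N (GA k N x) = 0 := by
  show ((GA k N x).2 : Q N → k) (qS N) - ((GA k N x).1 : Q N → k) (qS N) = 0
  rw [GA_fst, GA_snd]
  have h1 := lamA_ThetaA (k := k) (N := N) x.1.2
  have h2 := lamA_deltaA (k := k) (N := N) x.2.1
  have h1' : (ThetaA k N x.1.1).2 (qS N) - (ThetaA k N x.1.1).1 (qS N) = 0 := h1
  have h2' : (deltaA k N x.2.1).2 (qS N) - (deltaA k N x.2.1).1 (qS N) = 0 := h2
  simp only [Pi.sub_apply]
  linear_combination h1' - h2'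

theorem GA_injective : Function.Injective (GA k N) := by
  rw [← LinearMap.ker_eq_bot, LinearMap.ker_eq_bot']
  rintro ⟨⟨ψ, hψ⟩, ⟨m, hm⟩⟩ h0
  have h1 : ((GA k N ⟨⟨ψ, hψ⟩, ⟨m, hm⟩⟩).1 : Q N → k) = 0 := by rw [h0]; rfl
  have h2 : ((GA k N ⟨⟨ψ, hψ⟩, ⟨m, hm⟩⟩).2 : Q N → k) = 0 := by rw [h0]; rfl
  rw [GA_fst, sub_eq_zero] at h1
  rw [GA_snd, sub_eq_zero] at h2
  have h : ThetaA k N ψ = deltaA k N m := Prod.ext h1 h2
  obtain ⟨e1, e2⟩ := eq_zero_of_ThetaA_eq_deltaA ψ m ((mem_V0 k N m).mp hm) h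
  subst e1 e2
  rfl

theorem lamW_surjective (hN : 2 ≤ N) : Function.Surjective (lamW k N) := by
  classical
  -- a vector on which the functional is `-1`
  set e : Q N → k := Pi.single (qI N) 1 with he
  set w : WA k N := (⟨(deltaA k N e).1, deltaA_fst_mem e⟩, 0) with hw
  have hval : lamW k N w = -1 := by
    show (0 : Q N → k) (qS N) - (e (sP N (qS N)) - e (qS N)) = -1
    rw [sP_qS, he, Pi.single_eq_same, Pi.single_eq_of_ne (qS_ne_qI N hN)]
    simp
  intro c
  refine ⟨(-c) • w, ?_⟩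
  rw [map_smul, hval, smul_eq_mul]
  ring

theorem finrank_ker_lamW (hN : 2 ≤ N) :
    finrank k (LinearMap.ker (lamW k N)) + 1 =
      finrank k (antiInv k (sP N : Q N → Q N)) + finrank k (normInv k (uP N : Q N → Q N)) := by
  have h := LinearMap.finrank_range_add_finrank_ker (lamW k N)
  rw [LinearMap.range_eq_top.mpr (lamW_surjective k N hN), finrank_top, Module.finrank_self,
    Module.finrank_prod] at h
  omega

theorem finite_dom : Module.Finite k (↥(ellParHoms k N k) × ↥(V0 k N)) :=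
  Module.Finite.of_injective (GA k N) (GA_injective k N)

/-- finiteness of `X(k)` -/
theorem ellParHoms_finite_aux : Module.Finite k (ellParHoms k N k) := by
  haveI := finite_dom k N
  exact Module.Finite.of_injective (LinearMap.inl k ↥(ellParHoms k N k) ↥(V0 k N))
    LinearMap.inl_injective

/-- the combinatorial bound, valid in every characteristic -/
theorem ellParHoms_finrank_le_aux (hN : 2 ≤ N) :
    6 * finrank k (ellParHoms k N k) + 3 * nu2 N + 4 * nu3 N ≤ mu N := by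
  classical
  haveI := ellParHoms_finite_aux k N
  letI : Fintype (Q N) := Fintype.ofFinite _
  -- the map into the kernel of the parabolic functional
  let G' : (↥(ellParHoms k N k) × ↥(V0 k N)) →ₗ[k] ↥(LinearMap.ker (lamW k N)) :=
    LinearMap.codRestrict _ (GA k N) (fun x => LinearMap.mem_ker.mpr (lamW_GA k N x))
  have hG' : Function.Injective G' := fun x y h =>
    GA_injective k N (congrArg Subtype.val h)
  have h1 := LinearMap.finrank_le_finrank_of_injective hG'
  rw [Module.finrank_prod] at h1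
  have h2 := finrank_ker_lamW k N hN
  have h3 := finrank_V0 k N
  have h4 := finrank_antiInv_le (k := k) (sP N) (sP_sP N)
  have h5 := finrank_normInv_le (k := k) (uP N) (uP_uP_uP N)
  rw [← Nat.card_eq_fintype_card, ← Nat.card_eq_fintype_card, card_fix_sP] at h4
  rw [← Nat.card_eq_fintype_card, ← Nat.card_eq_fintype_card, card_fix_uP] at h5
  have h6 : Nat.card (Q N) = mu N := rfl
  rw [h6] at h4 h5
  omega

end Final

section Prime

variable (k : Type*) [Field k] (p : ℕ) [Fact p.Prime]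

theorem cuspCount_prime : ModularCurve.cuspCount p = 2 := by
  have hp : p.Prime := Fact.out
  rw [ModularCurve.cuspCount, Nat.Prime.divisors hp, Finset.sum_pair hp.one_lt.ne]
  simp [Nat.div_self hp.pos]

/-- finiteness of `X(k)` -/
theorem ellParHoms_finite : Module.Finite k (ellParHoms k p k) := by
  haveI : NeZero p := ⟨(Fact.out : p.Prime).ne_zero⟩
  exact ellParHoms_finite_aux k p

/-- **The key bound** `dim_k X(k) ≤ 2 g`, valid for every field `k`. -/
theorem ellParHoms_finrank_le :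
    (finrank k (ellParHoms k p k) : ℚ) ≤ 2 * ModularCurve.genusFormula p := by
  haveI : NeZero p := ⟨(Fact.out : p.Prime).ne_zero⟩
  have h := ellParHoms_finrank_le_aux k p (Fact.out : p.Prime).two_le
  rw [Fermat.Agent.S20_helper29_A1.A1, Fermat.Agent.S20_helper22_A2.A2,
    Fermat.Agent.S20_helper22_A3.A3] at h
  have h' : (6 * (finrank k (ellParHoms k p k) : ℚ) + 3 * (ModularCurve.nuTwo p : ℚ) +
      4 * (ModularCurve.nuThree p : ℚ)) ≤ (ModularCurve.dedekindPsi p : ℚ) := by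
    exact_mod_cast h
  unfold ModularCurve.genusFormula
  rw [cuspCount_prime]
  push_cast
  linarith

end Prime

end Fermat.Agent.S16_helper14_L2
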