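import Fermat.Agent.S23_helper12_Asm

/-!
# S16 lower bound, steps L3 + L4 (helper20)

* `finrank_Lam_eq` (L3): the period lattice `Λ = Lam N 2 0` has rank `2 dim S₂(Γ₀(N))`.
* `exists_factor` (L4): every homomorphism `ψ : Γ₀(N) → ℤ/n` killing all elements of trace in
  `{0, ±1, ±2}` factors through the period homomorphism `perHom : Γ₀(N) → Λ`, provided the
  bound `L2Bound N (ZMod r)` (`dim X(𝔽_r) ≤ 2 dim S₂`) holds for every prime `r ∣ n`.
-/

set_option autoImplicit false
set_option linter.style.haveILetI false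
set_option linter.unusedSectionVars false

namespace Fermat.Agent.S16_helper20_L4

open Complex CongruenceSubgroup ModularCurve ModularCurve.Period Module
open scoped MatrixGroups ModularForm
open Fermat.Agent.S22 Fermat.Agent.S23_helper12_Bridge Fermat.Agent.S23_helper12_Rank

noncomputable section

/-! ### arithmetic of `ZMod` -/

/-- the embedding `ℤ/r → ℤ/(r n')`, multiplication by `n'` -/
noncomputable def zmodEmb (r n' : ℕ) : ZMod r →+ ZMod (r * n') :=
  ZMod.lift r ⟨(Int.castAddHom (ZMod (r * n'))).comp (AddMonoidHom.mulLeft (n' : ℤ)), by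
    show ((n' : ℤ) * (r : ℤ) : ℤ) = (0 : ZMod (r * n'))
    have : ((n' : ℤ) * (r : ℤ) : ℤ) = ((r * n' : ℕ) : ℤ) := by push_cast; ring
    rw [this, Int.cast_natCast, ZMod.natCast_self]⟩

theorem zmodEmb_intCast (r n' : ℕ) (k : ℤ) :
    zmodEmb r n' (k : ZMod r) = ((n' * k : ℤ) : ZMod (r * n')) := by
  unfold zmodEmb
  rw [ZMod.lift_coe]
  rfl

theorem zmodEmb_injective (r n' : ℕ) (hn' : 0 < n') : Function.Injective (zmodEmb r n') := by
  rw [injective_iff_map_eq_zero]
  intro y hy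
  obtain ⟨k, rfl⟩ := ZMod.intCast_surjective y
  rw [zmodEmb_intCast, ZMod.intCast_zmod_eq_zero_iff_dvd] at hy
  rw [ZMod.intCast_zmod_eq_zero_iff_dvd]
  push_cast at hy
  have h0 : (n' : ℤ) ≠ 0 := by exact_mod_cast hn'.ne'
  rw [mul_comm (r : ℤ)] at hy
  exact (mul_dvd_mul_iff_left h0).mp hy

theorem mem_range_zmodEmb (r n' : ℕ) (x : ZMod (r * n'))
    (hx : ZMod.castHom (dvd_mul_left n' r) (ZMod n') x = 0) : x ∈ Set.range (zmodEmb r n') := by
  obtain ⟨k, rfl⟩ := ZMod.intCast_surjective x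
  rw [map_intCast, ZMod.intCast_zmod_eq_zero_iff_dvd] at hx
  obtain ⟨j, rfl⟩ := hx
  exact ⟨(j : ZMod r), zmodEmb_intCast r n' j⟩

/-- lifting a homomorphism through an injective homomorphism containing its range -/
theorem exists_lift_of_injective {G B A : Type*} [AddGroup G] [AddGroup B] [AddGroup A]
    (ι : B →+ A) (hι : Function.Injective ι) (φ : G →+ A) (h : ∀ g, φ g ∈ Set.range ι) :
    ∃ φ₀ : G →+ B, ∀ g, ι (φ₀ g) = φ g := by
  choose f hf using h
  refine ⟨⟨⟨f, ?_⟩, ?_⟩, hf⟩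
  · apply hι
    rw [hf, map_zero, map_zero]
  · intro a b
    apply hι
    rw [hf, map_add, map_add, hf, hf]


/-! ### elements of finite order -/

/-- Cayley–Hamilton for `2 × 2` integer matrices of determinant one. -/
theorem mul_self_eq_of_det_one (A : Matrix (Fin 2) (Fin 2) ℤ) (hdet : A.det = 1) (t : ℤ)
    (ht : A 0 0 + A 1 1 = t) :
    A * A = !![t * A 0 0 - 1, t * A 0 1; t * A 1 0, t * A 1 1 - 1] := by
  rw [Matrix.det_fin_two] at hdet
  ext i j
  fin_cases i <;> fin_cases j <;>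
    simp [Matrix.mul_apply, Fin.sum_univ_two]
  · linear_combination (-1) * hdet + A 0 0 * ht
  · linear_combination A 0 1 * ht
  · linear_combination A 1 0 * ht
  · linear_combination (-1) * hdet + A 1 1 * ht

/-- an element of `SL(2,ℤ)` with `|trace| ≤ 1` has order dividing `12` -/
theorem pow_twelve_eq_one_of_abs_trace_le_one (g : SL(2, ℤ))
    (h : |(g : Matrix (Fin 2) (Fin 2) ℤ).trace| ≤ 1) : g ^ 12 = 1 := by
  have hdet : (g : Matrix (Fin 2) (Fin 2) ℤ).det = 1 := g.2
  rw [Matrix.trace_fin_two, abs_le] at h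
  obtain ⟨h1, h2⟩ := h
  apply Subtype.ext
  rw [Matrix.SpecialLinearGroup.coe_pow, Matrix.SpecialLinearGroup.coe_one]
  set A := (g : Matrix (Fin 2) (Fin 2) ℤ) with hA
  have ht : A 0 0 + A 1 1 = -1 ∨ A 0 0 + A 1 1 = 0 ∨ A 0 0 + A 1 1 = 1 := by omega
  have hAeta : A = !![A 0 0, A 0 1; A 1 0, A 1 1] := Matrix.eta_fin_two A
  rcases ht with ht | ht | ht
  · have h2 := mul_self_eq_of_det_one A hdet (-1) ht
    have h2' : A * A = -A - 1 := by
      rw [h2]
      conv_rhs => rw [hAeta]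
      ext i j
      fin_cases i <;> fin_cases j <;> simp
    have h3 : A ^ 3 = 1 := by
      rw [pow_succ, pow_two, h2', sub_mul, neg_mul, h2']
      simp
    calc A ^ 12 = (A ^ 3) ^ 4 := by rw [← pow_mul]
      _ = 1 := by rw [h3, one_pow]
  · have h2 := mul_self_eq_of_det_one A hdet 0 ht
    have h3 : A ^ 2 = -1 := by
      rw [pow_two, h2]
      ext i j
      fin_cases i <;> fin_cases j <;> simp
    calc A ^ 12 = (A ^ 2) ^ 6 := by rw [← pow_mul]
      _ = 1 := by
        rw [h3]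
        simp [Even.neg_pow (by decide : Even 6)]
  · have h2 := mul_self_eq_of_det_one A hdet 1 ht
    have h2' : A * A = A - 1 := by
      rw [h2]
      conv_rhs => rw [hAeta]
      ext i j
      fin_cases i <;> fin_cases j <;> simp
    have h3 : A ^ 3 = -1 := by
      rw [pow_succ, pow_two, h2', sub_mul, h2']
      simp
    calc A ^ 12 = (A ^ 3) ^ 4 := by rw [← pow_mul]
      _ = 1 := by
        rw [h3]
        simp [Even.neg_pow (by decide : Even 4)]


variable (N : ℕ) [NeZero N]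

/-! ### L3: the rank of the period lattice -/

/-- the real-part evaluation map `S₂ → (ι → ℝ)` attached to a `ℤ`-basis of the period lattice -/
def reEval {ι : Type*} (b : Basis ι ℤ ↥(Lam N 2 0)) :
    CuspForm (Gamma0 N) 2 →ₗ[ℝ] (ι → ℝ) where
  toFun f := fun i => ((b i).1 f).re
  map_add' f g := by
    funext i
    simp
  map_smul' c f := by
    funext i
    simp

theorem reEval_injective {ι : Type*} [Fintype ι] (b : Basis ι ℤ ↥(Lam N 2 0)) :
    Function.Injective (reEval N b) := by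
  rw [injective_iff_map_eq_zero]
  intro f hf
  refine eq_zero_of_re_Lam f fun φ hφ => ?_
  have hrepr := b.sum_repr ⟨φ, hφ⟩
  have h1 : φ = ∑ i, (b.repr ⟨φ, hφ⟩ i) • ((b i : ↥(Lam N 2 0)) : CuspForm (Gamma0 N) 2 →ₗ[ℂ] ℂ) := by
    have := congrArg (fun x : ↥(Lam N 2 0) => (x : CuspForm (Gamma0 N) 2 →ₗ[ℂ] ℂ)) hrepr
    simp only [Submodule.coe_sum, Submodule.coe_smul] at this
    exact this.symm
  rw [h1, LinearMap.sum_apply, Complex.re_sum]
  refine Finset.sum_eq_zero fun i _ => ?_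
  have h2 : ((b i).1 f).re = 0 := congrFun hf i
  rw [LinearMap.smul_apply, zsmul_eq_mul]
  simp [h2]

/-- (L3, lower bound) the period lattice has rank at least `2 dim S₂`. -/
theorem two_mul_finrank_le_finrank_Lam :
    2 * finrank ℂ (CuspForm (Gamma0 N) 2) ≤ finrank ℤ ↥(Lam N 2 0) := by
  haveI := Lam_finite N
  haveI := Lam_free N
  haveI := finiteDimensional_cuspForm N
  let b := Module.Free.chooseBasis ℤ ↥(Lam N 2 0)
  have h := LinearMap.finrank_le_finrank_of_injective (reEval_injective N b)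
  rw [finrank_real_of_complex, Module.finrank_fintype_fun_eq_card,
    ← Module.finrank_eq_card_chooseBasisIndex] at h
  exact h

/-- (L3) the period lattice has rank `2 dim S₂`. -/
theorem finrank_Lam_eq :
    finrank ℤ ↥(Lam N 2 0) = 2 * finrank ℂ (CuspForm (Gamma0 N) 2) :=
  le_antisymm (Fermat.Agent.S23_helper12_Asm.finrank_Lam_le_two_mul N) (two_mul_finrank_le_finrank_Lam N)


/-! ### L4: factorisation through the period homomorphism -/

/-- `X(A)`: homomorphisms killing every element of trace in `{0, ±1, ±2}`. -/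
def IsEllParTrivial (N : ℕ) {A : Type*} [AddCommGroup A] (ψ : Additive (Gamma0 N) →+ A) : Prop :=
  ∀ γ : Gamma0 N, |((γ : SL(2, ℤ)) : Matrix (Fin 2) (Fin 2) ℤ).trace| ≤ 2 →
    ψ (Additive.ofMul γ) = 0

theorem perHom_eq_zero_of_abs_trace_le_two (γ : Gamma0 N)
    (h : |((γ : SL(2, ℤ)) : Matrix (Fin 2) (Fin 2) ℤ).trace| ≤ 2) :
    perHom N (Additive.ofMul γ) = 0 := by
  by_cases h2 : |((γ : SL(2, ℤ)) : Matrix (Fin 2) (Fin 2) ℤ).trace| = 2
  · refine perHom_eq_zero_of_parabolic N γ ?_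
    rw [← sq_abs, h2]; norm_num
  · have h1 : |((γ : SL(2, ℤ)) : Matrix (Fin 2) (Fin 2) ℤ).trace| ≤ 1 := by omega
    have h12 : γ ^ 12 = 1 := Subtype.ext (by
      rw [Subgroup.coe_pow, Subgroup.coe_one]
      exact pow_twelve_eq_one_of_abs_trace_le_one _ h1)
    have h3 : (12 : ℕ) • perHom N (Additive.ofMul γ) = 0 := by
      rw [← map_nsmul, ← ofMul_pow, h12, ofMul_one, map_zero]
    haveI := isAddTorsionFree_dual (V := CuspForm (Gamma0 N) 2)
    have h4 : (12 : ℕ) • ((perHom N (Additive.ofMul γ) : ↥(Lam N 2 0)) :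
        CuspForm (Gamma0 N) 2 →ₗ[ℂ] ℂ) = 0 := by
      have := congrArg (fun x : ↥(Lam N 2 0) => (x : CuspForm (Gamma0 N) 2 →ₗ[ℂ] ℂ)) h3
      simpa using this
    exact Subtype.ext ((nsmul_eq_zero_iff_right (by norm_num)).mp h4)

theorem perHom_surjective : Function.Surjective (perHom N) := by
  intro ⟨φ, hφ⟩
  induction hφ using Submodule.span_induction with
  | mem φ hφ =>
    obtain ⟨g, ⟨γ, hγ, rfl⟩, a, b, rfl⟩ := hφ
    refine ⟨Additive.ofMul ⟨γ, hγ⟩, ?_⟩
    apply Subtype.ext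
    ext f
    rw [perHom_apply]
    exact (perLin_apply_eq_periodMap f ⟨γ, hγ⟩ _).symm
  | zero => exact ⟨0, map_zero _⟩
  | add φ ψ hφ hψ h1 h2 =>
    obtain ⟨x, hx⟩ := h1
    obtain ⟨y, hy⟩ := h2
    refine ⟨x + y, ?_⟩
    rw [map_add, hx, hy]
    rfl
  | smul n φ hφ h1 =>
    obtain ⟨x, hx⟩ := h1
    refine ⟨n • x, ?_⟩
    rw [map_zsmul, hx]
    rfl

/-- the submodule `X(k)` -/
def XSub (k : Type*) [Field k] : Submodule k (Additive (Gamma0 N) →+ k) where
  carrier := {ψ | IsEllParTrivial N ψ}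
  add_mem' := by
    intro ψ ψ' h h' γ hγ
    show ψ _ + ψ' _ = 0
    rw [h γ hγ, h' γ hγ, add_zero]
  zero_mem' := fun γ _ => rfl
  smul_mem' := by
    intro c ψ h γ hγ
    show c • ψ _ = 0
    rw [h γ hγ, smul_zero]

theorem mem_XSub_iff {k : Type*} [Field k] (ψ : Additive (Gamma0 N) →+ k) :
    ψ ∈ XSub N k ↔ IsEllParTrivial N ψ := Iff.rfl

/-- restriction along `perHom` -/
def resX (k : Type*) [Field k] : (↥(Lam N 2 0) →ₗ[ℤ] k) →ₗ[k] (Additive (Gamma0 N) →+ k) where
  toFun ξ := ξ.toAddMonoidHom.comp (perHom N)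
  map_add' ξ ξ' := by
    ext γ
    rfl
  map_smul' c ξ := by
    ext γ
    rfl

theorem resX_apply {k : Type*} [Field k] (ξ : ↥(Lam N 2 0) →ₗ[ℤ] k) (γ : Additive (Gamma0 N)) :
    resX N k ξ γ = ξ (perHom N γ) := rfl

theorem resX_injective (k : Type*) [Field k] : Function.Injective (resX N k) := by
  rw [injective_iff_map_eq_zero]
  intro ξ hξ
  ext x
  obtain ⟨γ, rfl⟩ := perHom_surjective N x
  exact DFunLike.congr_fun hξ γ

theorem range_resX_le (k : Type*) [Field k] : LinearMap.range (resX N k) ≤ XSub N k := by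
  rintro _ ⟨ξ, rfl⟩ γ hγ
  rw [resX_apply, perHom_eq_zero_of_abs_trace_le_two N γ hγ, map_zero]

theorem finrank_hom_Lam' (k : Type*) [Field k] :
    Module.Finite k (↥(Lam N 2 0) →ₗ[ℤ] k) ∧
      Module.finrank k (↥(Lam N 2 0) →ₗ[ℤ] k) = Module.finrank ℤ ↥(Lam N 2 0) := by
  have := Lam_finite N
  have := Lam_free N
  let b := Module.Free.chooseBasis ℤ ↥(Lam N 2 0)
  have e : (Module.Free.ChooseBasisIndex ℤ ↥(Lam N 2 0) → k) ≃ₗ[k] (↥(Lam N 2 0) →ₗ[ℤ] k) :=
    b.constr k
  refine ⟨Module.Finite.equiv e, ?_⟩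
  rw [← e.finrank_eq, Module.finrank_fintype_fun_eq_card, Module.finrank_eq_card_chooseBasisIndex]

/-- the hypothesis `L2` for the field `k`: `dim_k X(k) ≤ 2 dim S₂` -/
def L2Bound (k : Type*) [Field k] : Prop :=
  Module.Finite k (XSub N k) ∧
    Module.finrank k (XSub N k) ≤ 2 * Module.finrank ℂ (CuspForm (Gamma0 N) 2)

/-- over a field satisfying `L2`, every element of `X(k)` factors through `perHom` -/
theorem range_resX_eq (k : Type*) [Field k] (h2 : L2Bound N k) :
    LinearMap.range (resX N k) = XSub N k := by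
  obtain ⟨hfin, hle⟩ := h2
  obtain ⟨hfin', heq⟩ := finrank_hom_Lam' N k
  refine Submodule.eq_of_le_of_finrank_le (range_resX_le N k) ?_
  rw [LinearMap.finrank_range_of_inj (resX_injective N k), heq]
  exact hle.trans (two_mul_finrank_le_finrank_Lam N)

theorem exists_factor_field (k : Type*) [Field k] (h2 : L2Bound N k)
    (ψ : Additive (Gamma0 N) →+ k) (hψ : IsEllParTrivial N ψ) :
    ∃ ξ : ↥(Lam N 2 0) →+ k, ∀ γ, ψ γ = ξ (perHom N γ) := by
  have h : ψ ∈ LinearMap.range (resX N k) := by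
    rw [range_resX_eq N k h2]
    exact hψ
  obtain ⟨ξ, rfl⟩ := h
  exact ⟨ξ.toAddMonoidHom, fun γ => rfl⟩


/-- lifting homomorphisms from the (free) period lattice along `ℤ/n → ℤ/n'` -/
theorem exists_lift_Lam {n n' : ℕ} (h : n' ∣ n) (ξ' : ↥(Lam N 2 0) →+ ZMod n') :
    ∃ ξ : ↥(Lam N 2 0) →+ ZMod n, ∀ x, ZMod.castHom h (ZMod n') (ξ x) = ξ' x := by
  haveI := Lam_free N
  obtain ⟨g, hg⟩ := Module.projective_lifting_property
    ((ZMod.castHom h (ZMod n')).toAddMonoidHom.toIntLinearMap)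
    (ξ'.toIntLinearMap) (ZMod.castHom_surjective h)
  exact ⟨g.toAddMonoidHom, fun x => LinearMap.congr_fun hg x⟩

/-- (L4) every `ψ ∈ X(ℤ/n)` factors through the period homomorphism, provided `L2` holds for
all primes dividing `n`. -/
theorem exists_factor (n : ℕ) (hn : 0 < n)
    (h2 : ∀ (r : ℕ) [Fact r.Prime], r ∣ n → L2Bound N (ZMod r))
    (ψ : Additive (Gamma0 N) →+ ZMod n) (hψ : IsEllParTrivial N ψ) :
    ∃ ξ : ↥(Lam N 2 0) →+ ZMod n, ∀ γ, ψ γ = ξ (perHom N γ) := by
  induction n using Nat.strong_induction_on with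
  | _ n ih =>
    rcases Nat.eq_or_lt_of_le (Nat.one_le_iff_ne_zero.mpr hn.ne') with h1 | h1
    · -- `n = 1`
      subst h1
      exact ⟨0, fun γ => Subsingleton.elim _ _⟩
    · -- `n > 1`
      obtain ⟨r, hr, hrn⟩ := Nat.exists_prime_and_dvd (by omega : n ≠ 1)
      obtain ⟨n', rfl⟩ := hrn
      haveI : Fact r.Prime := ⟨hr⟩
      have hn' : 0 < n' := Nat.pos_of_ne_zero (fun h0 => by rw [h0, mul_zero] at hn; exact lt_irrefl 0 hn)
      have hlt : n' < r * n' := by
        have := hr.one_lt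
        nlinarith
      set π := ZMod.castHom (dvd_mul_left n' r) (ZMod n') with hπ
      -- reduce modulo `n'`
      have hψ' : IsEllParTrivial N (π.toAddMonoidHom.comp ψ) := fun γ hγ => by
        show π (ψ _) = 0
        rw [hψ γ hγ, map_zero]
      obtain ⟨ξ', hξ'⟩ := ih n' hlt hn'
        (fun q _ hq => h2 q (dvd_mul_of_dvd_right hq r)) _ hψ'
      obtain ⟨ξt, hξt⟩ := exists_lift_Lam N (dvd_mul_left n' r) ξ'
      -- the difference has values in the kernel of `π`
      set φ : Additive (Gamma0 N) →+ ZMod (r * n') := ψ - ξt.comp (perHom N) with hφ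
      have hφr : ∀ γ, φ γ ∈ Set.range (zmodEmb r n') := by
        intro γ
        refine mem_range_zmodEmb r n' _ ?_
        have e1 : π (ψ γ) = ξ' (perHom N γ) := hξ' γ
        show π (ψ γ - ξt (perHom N γ)) = 0
        rw [map_sub, e1, hξt, sub_self]
      obtain ⟨φ₀, hφ₀⟩ := exists_lift_of_injective (zmodEmb r n') (zmodEmb_injective r n' hn')
        φ hφr
      have hφ₀X : IsEllParTrivial N φ₀ := by
        intro γ hγ
        apply zmodEmb_injective r n' hn'
        rw [hφ₀, map_zero]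
        show ψ _ - ξt (perHom N _) = 0
        rw [hψ γ hγ, perHom_eq_zero_of_abs_trace_le_two N γ hγ, map_zero, sub_zero]
      obtain ⟨ξ₀, hξ₀⟩ := exists_factor_field N (ZMod r) (h2 r (dvd_mul_right r n')) φ₀ hφ₀X
      refine ⟨ξt + (zmodEmb r n').comp ξ₀, fun γ => ?_⟩
      show ψ γ = ξt (perHom N γ) + zmodEmb r n' (ξ₀ (perHom N γ))
      rw [← hξ₀, hφ₀]
      show ψ γ = ξt (perHom N γ) + (ψ γ - ξt (perHom N γ))
      abel


/-- surjectivity is inherited by the factorisation -/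
theorem surjective_of_factor {A : Type*} [AddCommGroup A] (ψ : Additive (Gamma0 N) →+ A)
    (ξ : ↥(Lam N 2 0) →+ A) (h : ∀ γ, ψ γ = ξ (perHom N γ)) (hψ : Function.Surjective ψ) :
    Function.Surjective ξ := fun a => by
  obtain ⟨γ, rfl⟩ := hψ a
  exact ⟨perHom N γ, (h γ).symm⟩

end

end Fermat.Agent.S16_helper20_L4
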