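import Fermat.Agent.S16_helper14_L2
import Fermat.Agent.S16_helper20_L4
import Fermat.Agent.S20

/-!
# S16, piece LB-L2 (bridge): the bound `L2Bound p k` consumed by LB-L4

`L2Bound p k` (helper20's hypothesis in `exists_factor`) follows from
`ellParHoms_finrank_le` and the dimension formula `S20`.
-/

set_option autoImplicit false

open CongruenceSubgroup Module
open scoped MatrixGroups

namespace Fermat.Agent.S16_helper14_L2

theorem XSub_eq_ellParHoms (N : ℕ) [NeZero N] (k : Type*) [Field k] :
    Fermat.Agent.S16_helper20_L4.XSub N k = ellParHoms k N k :=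
  Submodule.ext fun _ => Iff.rfl

/-- **L2 in the shape consumed by L4**: `dim_k X(k) ≤ 2 dim S₂(Γ₀(p))` for every field `k`. -/
theorem l2Bound (p : ℕ) [Fact p.Prime] (k : Type*) [Field k] :
    Fermat.Agent.S16_helper20_L4.L2Bound p k := by
  have : NeZero p := ⟨(Fact.out : p.Prime).ne_zero⟩
  refine ⟨?_, ?_⟩
  · rw [XSub_eq_ellParHoms]
    exact ellParHoms_finite k p
  · rw [XSub_eq_ellParHoms]
    have h1 := ellParHoms_finrank_le k p
    have h2 := Fermat.Agent.S20.result p
    rw [← h2] at h1
    exact_mod_cast h1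

/-- the factorisation through `perHom`, with the `L2` hypothesis discharged -/
theorem exists_factor_perHom (p : ℕ) [Fact p.Prime] [NeZero p] (n : ℕ) (hn : 0 < n)
    (ψ : Additive (Gamma0 p) →+ ZMod n)
    (hψ : Fermat.Agent.S16_helper20_L4.IsEllParTrivial p ψ) :
    ∃ ξ : ↥(Fermat.Agent.S22.Lam p 2 0) →+ ZMod n,
      ∀ γ : Additive (Gamma0 p), ψ γ = ξ ((Fermat.Agent.S23_helper12_Rank.perHom p) γ) :=
  Fermat.Agent.S16_helper20_L4.exists_factor p n hn (fun r _ _ => l2Bound p (ZMod r)) ψ hψ

end Fermat.Agent.S16_helper14_L2
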