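import Fermat.Agent.S16_helper16_TB
import Fermat.Agent.S16_helper4_UBGLUE

/-!
# S16, upper bound, piece NC-p: no congruence `G ≡ a₀ mod p` at the level itself

For a prime `p ≥ 7` there is no `G ∈ M₂(Γ₀(p))` with integer `q`-expansion `a`, `p ∤ a 0` and
`p ∣ a n` for all `n ≥ 1`.  Proof: the weight-4 trace identity
`p A² + U_p(B²) = a₀² (p+1) E₄` (helper16, `trace_data`), read modulo `p` at `q¹`, gives
`p ∣ 240 a₀² (p+1)` (helper18, `ncr_alg` with `r = p`).
-/

set_option autoImplicit false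

open UpperHalfPlane CongruenceSubgroup

namespace Fermat.Agent.S16_helper17_NCP

/-- **NC-p** (unfolded shape): for a prime `p ≥ 7`, no weight-2 form on `Γ₀(p)` with integer
`q`-expansion is congruent modulo `p` to a constant prime to `p`. -/
theorem NC_p (p : ℕ) [Fact p.Prime] (hp7 : 7 ≤ p) (G : ModularForm (Gamma0 p) 2) (a : ℕ → ℤ)
    (ha : ∀ n, (qExpansion 1 G).coeff n = (a n : ℂ)) (h0 : ¬ (p : ℤ) ∣ a 0)
    (hn : ∀ n, 1 ≤ n → ((p : ℤ) ^ 1) ∣ a n) : False := by
  have hp : p.Prime := Fact.out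
  have hpr : ¬ p ∣ p + 1 := by
    intro h
    have h1 : p ∣ 1 := (Nat.dvd_add_right (dvd_refl p)).mp h
    exact hp.one_lt.ne' (Nat.dvd_one.mp h1)
  refine S16_helper18_TRALG.ncr_alg hp hp hp7 hpr h0
    (S16_helper16_TB.trace_data p G a ha) (fun n hn1 => ?_)
  have := hn n hn1
  rw [pow_one] at this
  simpa using this

/-- **NC-p** in the `NoCong` shape of `S16_helper4_UBGLUE.ub_glue_ge` (any threshold `≥ 7`). -/
theorem noCong_p (p : ℕ) [Fact p.Prime] (hp7 : 7 ≤ p) : S16_helper4_UBGLUE.NoCong p p 1 :=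
  fun G a ha h0 hn => NC_p p hp7 G a ha h0 hn

/-- the exact hypothesis `hpp` of `ub_glue_ge 11`. -/
theorem noCong_p_eleven (p : ℕ) [Fact p.Prime] (hp : 11 ≤ p) : S16_helper4_UBGLUE.NoCong p p 1 :=
  noCong_p p (by omega)

end Fermat.Agent.S16_helper17_NCP
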