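import Fermat.Agent.S16_helper20_L4
import Fermat.Agent.S16_helper14_L2
import Fermat.Agent.S20

/-!
# S16 lower bound: L4 with L2 plugged in (helper20)

`exists_factor_prime_level`: for a prime `p` and any `n ≥ 1`, every homomorphism
`ψ : Γ₀(p) → ℤ/n` killing all elements of trace in `{0, ±1, ±2}` factors through the period
homomorphism `perHom : Γ₀(p) → Λ`.
-/

set_option autoImplicit false
set_option linter.style.haveILetI false

namespace Fermat.Agent.S16_helper20_L4

open CongruenceSubgroup Module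
open scoped MatrixGroups
open Fermat.Agent.S22 Fermat.Agent.S23_helper12_Rank

theorem XSub_eq_ellParHoms (N : ℕ) (k : Type*) [Field k] :
    XSub N k = Fermat.Agent.S16_helper14_L2.ellParHoms k N k := by
  ext ψ
  rw [Fermat.Agent.S16_helper14_L2.mem_ellParHoms_iff]
  rfl

/-- `L2` holds at prime level, for every field (helper14's bound + the genus formula S20). -/
theorem L2Bound_prime (p : ℕ) [Fact p.Prime] (k : Type*) [Field k] : L2Bound p k := by
  unfold L2Bound
  rw [XSub_eq_ellParHoms]
  refine ⟨Fermat.Agent.S16_helper14_L2.ellParHoms_finite k p, ?_⟩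
  have h1 := Fermat.Agent.S16_helper14_L2.ellParHoms_finrank_le k p
  have h2 := Fermat.Agent.S20.result p
  rw [← h2] at h1
  exact_mod_cast h1

/-- (L4, unconditional at prime level) every `ψ ∈ X(ℤ/n)` factors through `perHom`. -/
theorem exists_factor_prime_level (p : ℕ) [Fact p.Prime] (n : ℕ) (hn : 0 < n)
    (ψ : Additive (Gamma0 p) →+ ZMod n) (hψ : IsEllParTrivial p ψ) :
    ∃ ξ : ↥(Lam p 2 0) →+ ZMod n, ∀ γ, ψ γ = ξ (perHom p γ) :=
  exists_factor p n hn (fun r _ _ => L2Bound_prime p (ZMod r)) ψ hψ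

/-- the same, in the shape consumed by the Eisenstein equivariance (helper11, L5):
`ξ (perLam γ) = ψ γ`, together with surjectivity. -/
theorem exists_factor_perLam (p : ℕ) [Fact p.Prime] (n : ℕ) (hn : 0 < n)
    (ψ : Additive (Gamma0 p) →+ ZMod n) (hψ : IsEllParTrivial p ψ)
    (hsurj : Function.Surjective ψ) :
    ∃ ξ : ↥(Lam p 2 0) →+ ZMod n, (∀ γ : Gamma0 p, ξ (perLam p γ) = ψ (Additive.ofMul γ)) ∧
      Function.Surjective ξ := by
  obtain ⟨ξ, hξ⟩ := exists_factor_prime_level p n hn ψ hψ
  exact ⟨ξ, fun γ => (hξ (Additive.ofMul γ)).symm, surjective_of_factor p ψ ξ hξ hsurj⟩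

end Fermat.Agent.S16_helper20_L4
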