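import Mathlib

/-!
# S16, NC-big: formal part

* `Obar` : the subring of algebraic integers of `ℂ`, a residue field `Obar → k` of
  characteristic `r`, non-vanishing of integers prime to `r`.
* the formal core of the norm-order argument in `k⟦X⟧`.
-/

set_option autoImplicit false
set_option linter.style.haveILetI false

namespace Fermat.Agent.S16_helper21_NCFormal

open PowerSeries

/-- the ring of algebraic integers in `ℂ` -/
def Obar : Subring ℂ := (integralClosure ℤ ℂ).toSubring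

theorem mem_Obar {x : ℂ} : x ∈ Obar ↔ IsIntegral ℤ x := Iff.rfl

theorem intCast_mem_Obar (n : ℤ) : (n : ℂ) ∈ Obar := intCast_mem Obar n

theorem natCast_mem_Obar (n : ℕ) : (n : ℂ) ∈ Obar := natCast_mem Obar n

theorem mem_Obar_of_pow_eq_one {ζ : ℂ} {n : ℕ} (hn : 0 < n) (h : ζ ^ n = 1) : ζ ∈ Obar := by
  rw [mem_Obar]
  exact IsIntegral.of_pow hn (by rw [h]; exact isIntegral_one)

theorem exp_mem_Obar (b : ℤ) (m d : ℕ) (hd : 0 < d) :
    Complex.exp (2 * Real.pi * Complex.I * (b : ℂ) * (m : ℂ) / (d : ℂ)) ∈ Obar := by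
  refine mem_Obar_of_pow_eq_one hd ?_
  rw [← Complex.exp_nat_mul]
  have hd' : (d : ℂ) ≠ 0 := by exact_mod_cast hd.ne'
  have : (d : ℂ) * (2 * Real.pi * Complex.I * (b : ℂ) * (m : ℂ) / (d : ℂ)) =
      ((b * m : ℤ) : ℂ) * (2 * Real.pi * Complex.I) := by
    push_cast
    field_simp
  rw [this]
  exact Complex.exp_int_mul_two_pi_mul_I _

theorem inv_natCast_notMem_Obar {r : ℕ} (hr : r.Prime) : ((r : ℂ))⁻¹ ∉ Obar := by
  intro h
  rw [mem_Obar] at h
  have h1 : IsIntegral ℤ ((r : ℚ)⁻¹) := by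
    have : ((r : ℂ))⁻¹ = algebraMap ℚ ℂ ((r : ℚ)⁻¹) := by simp
    rw [this] at h
    exact (isIntegral_algebraMap_iff (algebraMap ℚ ℂ).injective).mp h
  obtain ⟨n, hn⟩ := IsIntegrallyClosed.isIntegral_iff.mp h1
  have hr0 : (r : ℚ) ≠ 0 := by exact_mod_cast hr.ne_zero
  have h2 : ((r : ℤ) : ℚ) * (n : ℚ) = 1 := by
    have : (algebraMap ℤ ℚ) n = (n : ℚ) := rfl
    rw [this] at hn
    rw [hn]
    push_cast
    field_simp
  have h3 : (r : ℤ) * n = 1 := by exact_mod_cast h2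
  have h4 : (r : ℤ) ∣ 1 := ⟨n, h3.symm⟩
  have h5 : (r : ℤ) = 1 ∨ (r : ℤ) = -1 := Int.isUnit_iff.mp (isUnit_of_dvd_one h4)
  have := hr.two_le
  omega

/-- a residue field of `Obar` of characteristic `r` -/
theorem exists_residue {r : ℕ} (hr : r.Prime) :
    ∃ (k : Type) (_ : Field k) (φ : Obar →+* k), φ ((r : ℕ) : Obar) = 0 := by
  have hne : Ideal.span {((r : ℕ) : Obar)} ≠ ⊤ := by
    intro h
    rw [Ideal.span_singleton_eq_top] at h
    obtain ⟨u, hu⟩ := h
    have h1 : ((r : ℕ) : Obar) * (u⁻¹ : Obarˣ) = 1 := by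
      rw [← hu]
      exact u.mul_inv
    have h2 : ((r : ℂ)) * (((u⁻¹ : Obarˣ) : Obar) : ℂ) = 1 := by
      have := congrArg (Subtype.val) h1
      simpa using this
    have hr0 : (r : ℂ) ≠ 0 := by exact_mod_cast hr.ne_zero
    have h3 : (((u⁻¹ : Obarˣ) : Obar) : ℂ) = ((r : ℂ))⁻¹ := by
      field_simp
      rw [mul_comm]
      exact h2
    exact inv_natCast_notMem_Obar hr (h3 ▸ ((u⁻¹ : Obarˣ) : Obar).2)
  obtain ⟨M, hM, hle⟩ := Ideal.exists_le_maximal _ hne
  letI : Field (Obar ⧸ M) := Ideal.Quotient.field M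
  refine ⟨Obar ⧸ M, inferInstance, Ideal.Quotient.mk M, ?_⟩
  rw [Ideal.Quotient.eq_zero_iff_mem]
  exact hle (Ideal.subset_span rfl)

/-- integers prime to `r` stay nonzero in a ring of characteristic `r` in which `1 ≠ 0` -/
theorem map_intCast_ne_zero {R k : Type*} [CommRing R] [CommRing k] [Nontrivial k] (φ : R →+* k)
    {r : ℕ} (hr : r.Prime) (h0 : φ ((r : ℕ) : R) = 0) {c : ℤ} (hc : ¬ (r : ℤ) ∣ c) :
    φ (c : R) ≠ 0 := by
  intro h
  have hcop : IsCoprime (r : ℤ) c :=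
    (Int.isCoprime_iff_gcd_eq_one).mpr
      ((Nat.Prime.coprime_iff_not_dvd hr).mpr (by
        intro hd
        exact hc (Int.natCast_dvd.mpr hd)))
  obtain ⟨u, v, huv⟩ := hcop
  have := congrArg (fun x : ℤ => φ (x : R)) huv
  simp only [Int.cast_add, Int.cast_mul, Int.cast_natCast, map_add, map_mul, h0, h, mul_zero,
    add_zero, Int.cast_one, map_one] at this
  exact zero_ne_one this

theorem map_intCast_eq_zero {R k : Type*} [CommRing R] [CommRing k] (φ : R →+* k)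
    {r : ℕ} (h0 : φ ((r : ℕ) : R) = 0) {c : ℤ} (hc : (r : ℤ) ∣ c) : φ (c : R) = 0 := by
  obtain ⟨d, rfl⟩ := hc
  rw [Int.cast_mul, map_mul, Int.cast_natCast, h0, zero_mul]

end Fermat.Agent.S16_helper21_NCFormal
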