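import Fermat.Agent.S28_helper1_LEVEL1

/-!
# S16, tool (Td): level-one Sturm bound after reduction

A level-one modular form of weight `12 m` whose `q`-expansion has coefficients in a subring
`O ⊆ ℂ`, and whose first `m + 1` coefficients are killed by a ring homomorphism `φ : O →+* k`,
has all its coefficients killed by `φ`.
-/

set_option autoImplicit false

open UpperHalfPlane ModularForm CongruenceSubgroup Matrix.SpecialLinearGroup
open scoped MatrixGroups ModularForm Manifold Real
open Fermat.Agent.S20 Fermat.Agent.S28_helper14_Defs Fermat.Agent.S28_helper14_ADefs ModularCurve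

namespace Fermat.Agent.S16_helper21_STURM

open Fermat.Agent.S28_LEVEL1

/-- the integral triangular basis `E₄^(3a) Δ^(m-a) = q^(m-a) + ⋯` -/
noncomputable def triBasis (m a : ℕ) : PowerSeries ℤ :=
  eisenstein4 ^ (3 * a) * (PowerSeries.X * dedekindEtaUnit) ^ (m - a)

theorem triBasis_eq (m a : ℕ) :
    triBasis m a = PowerSeries.X ^ (m - a) * (eisenstein4 ^ (3 * a) * dedekindEtaUnit ^ (m - a)) := by
  unfold triBasis
  rw [mul_pow]
  ring

theorem constantCoeff_triUnit (m a : ℕ) :
    PowerSeries.constantCoeff (eisenstein4 ^ (3 * a) * dedekindEtaUnit ^ (m - a)) = 1 := by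
  rw [map_mul, map_pow, map_pow, constantCoeff_eisenstein4, constantCoeff_dedekindEtaUnit]
  simp

theorem coeff_triBasis_of_lt (m a n : ℕ) (h : n < m - a) : (triBasis m a).coeff n = 0 := by
  rw [triBasis_eq, PowerSeries.coeff_X_pow_mul']
  rw [if_neg (by omega)]

theorem coeff_triBasis_self (m a : ℕ) : (triBasis m a).coeff (m - a) = 1 := by
  rw [triBasis_eq, PowerSeries.coeff_X_pow_mul', if_pos le_rfl, Nat.sub_self,
    PowerSeries.coeff_zero_eq_constantCoeff]
  exact constantCoeff_triUnit m a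

/-- the structure theorem in power series form -/
theorem level1_expansion (O : Subring ℂ) (m : ℕ) (f : ℍ → ℂ) (hf : IsMF1 (12 * (m : ℤ)) f)
    (hO : ∀ n, (qExpansion 1 f).coeff n ∈ O) :
    ∃ c : ℕ → ℂ, (∀ a, c a ∈ O) ∧
      qExpansion 1 f = ∑ a ∈ Finset.range (m + 1),
        PowerSeries.C (c a) * (triBasis m a).map (Int.castRingHom ℂ) := by
  obtain ⟨c, hdeg, hc, hcf⟩ := level1_structure O m f hf hO
  refine ⟨fun a => c.coeff a, hc, ?_⟩
  apply HahnSeries.ofPowerSeries_injective (Γ := ℤ) (R := ℂ)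
  rw [hcf, Polynomial.aeval_eq_sum_range' (Nat.lt_succ_of_le hdeg), Finset.sum_mul, map_sum]
  refine Finset.sum_congr rfl fun a ha => ?_
  have ha' : a ≤ m := Nat.lt_succ_iff.mp (Finset.mem_range.mp ha)
  have hj := jqModC_mul_DeltaL
  have hΔ : DeltaL = HahnSeries.ofPowerSeries ℤ ℂ
      ((PowerSeries.X * dedekindEtaUnit).map (Int.castRingHom ℂ)) := by
    rw [DeltaL, qDeltaHyp]
  have hE : HahnSeries.ofPowerSeries ℤ ℂ (qExpansion 1 (⇑E₄ : ℍ → ℂ)) =
      HahnSeries.ofPowerSeries ℤ ℂ (eisenstein4.map (Int.castRingHom ℂ)) := by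
    rw [qE4Hyp]
  have h1 : jqModC ℂ ^ a * DeltaL ^ m =
      (jqModC ℂ * DeltaL) ^ a * DeltaL ^ (m - a) := by
    rw [mul_pow, mul_assoc, ← pow_add, Nat.add_sub_cancel' ha']
  have hC : (algebraMap ℂ (LaurentSeries ℂ)) (c.coeff a) =
      HahnSeries.ofPowerSeries ℤ ℂ (PowerSeries.C (c.coeff a)) := by
    rw [HahnSeries.ofPowerSeries_C]
    exact LaurentSeries.algebraMap_apply (K := ℂ) (c.coeff a)
  rw [Algebra.smul_def, mul_assoc, h1, hj, hE, hΔ, hC, triBasis]
  simp only [map_mul, map_pow]
  rw [← pow_mul]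

/-- coefficientwise form of the structure theorem -/
theorem level1_coeff (O : Subring ℂ) (m : ℕ) (f : ℍ → ℂ) (hf : IsMF1 (12 * (m : ℤ)) f)
    (hO : ∀ n, (qExpansion 1 f).coeff n ∈ O) :
    ∃ c : ℕ → O, ∀ n, (qExpansion 1 f).coeff n =
      ∑ a ∈ Finset.range (m + 1), ((c a : O) : ℂ) * (((triBasis m a).coeff n : ℤ) : ℂ) := by
  obtain ⟨c, hc, hcf⟩ := level1_expansion O m f hf hO
  refine ⟨fun a => ⟨c a, hc a⟩, fun n => ?_⟩
  rw [hcf, map_sum]
  refine Finset.sum_congr rfl fun a _ => ?_
  rw [PowerSeries.coeff_C_mul, PowerSeries.coeff_map]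
  rfl

/-- **Level-one Sturm bound after reduction.** -/
theorem level1_reduction_vanish (O : Subring ℂ) {k : Type*} [CommRing k] (φ : O →+* k) (m : ℕ)
    (f : ℍ → ℂ) (hf : IsMF1 (12 * (m : ℤ)) f) (hO : ∀ n, (qExpansion 1 f).coeff n ∈ O)
    (h : ∀ n ≤ m, φ ⟨(qExpansion 1 f).coeff n, hO n⟩ = 0) (n : ℕ) :
    φ ⟨(qExpansion 1 f).coeff n, hO n⟩ = 0 := by
  obtain ⟨c, hc⟩ := level1_coeff O m f hf hO
  have hφ : ∀ n, φ ⟨(qExpansion 1 f).coeff n, hO n⟩ =
      ∑ a ∈ Finset.range (m + 1), φ (c a) * (((triBasis m a).coeff n : ℤ) : k) := by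
    intro n
    have e : (⟨(qExpansion 1 f).coeff n, hO n⟩ : O) =
        ∑ a ∈ Finset.range (m + 1), c a * (((triBasis m a).coeff n : ℤ) : O) := by
      apply Subtype.ext
      show (qExpansion 1 f).coeff n = _
      rw [hc n]
      push_cast
      rfl
    rw [e, map_sum]
    refine Finset.sum_congr rfl fun a _ => ?_
    rw [map_mul, map_intCast]
  -- triangular elimination: `φ (c a) = 0` for all `a ≤ m`, by induction on `m - a`
  have hzero : ∀ d, ∀ a, a ≤ m → m - a ≤ d → φ (c a) = 0 := by
    intro d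
    induction d with
    | zero =>
      intro a ha hd
      have ham : a = m := by omega
      subst ham
      have h0 := h 0 (Nat.zero_le _)
      rw [hφ 0, Finset.sum_eq_single a] at h0
      · have := coeff_triBasis_self a a
        rw [Nat.sub_self] at this
        rwa [this, Int.cast_one, mul_one] at h0
      · intro b hb hba
        have hb' : b < a := by
          have := Finset.mem_range.mp hb
          omega
        rw [coeff_triBasis_of_lt a b 0 (by omega), Int.cast_zero, mul_zero]
      · intro hna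
        exact absurd (Finset.mem_range.mpr (Nat.lt_succ_self a)) hna
    | succ d ih =>
      intro a ha hd
      rcases Nat.lt_or_ge (m - a) (d + 1) with hlt | hge
      · exact ih a ha (by omega)
      have hma : m - a = d + 1 := by omega
      have h0 := h (m - a) (Nat.sub_le _ _)
      rw [hφ (m - a), Finset.sum_eq_single a] at h0
      · rwa [coeff_triBasis_self, Int.cast_one, mul_one] at h0
      · intro b hb hba
        have hb' := Nat.lt_succ_iff.mp (Finset.mem_range.mp hb)
        rcases Nat.lt_or_gt_of_ne hba with hlt | hgt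
        · rw [coeff_triBasis_of_lt m b (m - a) (by omega), Int.cast_zero, mul_zero]
        · rw [ih b hb' (by omega), zero_mul]
      · intro hna
        exact absurd (Finset.mem_range.mpr (Nat.lt_succ_of_le ha)) hna
  rw [hφ n]
  refine Finset.sum_eq_zero fun a ha => ?_
  rw [hzero m a (Nat.lt_succ_iff.mp (Finset.mem_range.mp ha)) (Nat.sub_le _ _), zero_mul]

/-- Power series form: if `A : PowerSeries O` lifts the `q`-expansion of a level-one form of
weight `12 m` and the first `m + 1` coefficients of `A` reduce to `0`, then `A` reduces to `0`. -/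
theorem level1_map_eq_zero (O : Subring ℂ) {k : Type*} [CommRing k] (φ : O →+* k) (m : ℕ)
    (f : ℍ → ℂ) (hf : IsMF1 (12 * (m : ℤ)) f) (A : PowerSeries O)
    (hA : A.map O.subtype = qExpansion 1 f)
    (h : ∀ n ≤ m, φ (A.coeff n) = 0) : A.map φ = 0 := by
  have hO : ∀ n, (qExpansion 1 f).coeff n ∈ O := by
    intro n
    rw [← hA, PowerSeries.coeff_map]
    exact (A.coeff n).2
  have hAn : ∀ n, (⟨(qExpansion 1 f).coeff n, hO n⟩ : O) = A.coeff n := by
    intro n
    apply Subtype.ext
    show (qExpansion 1 f).coeff n = O.subtype (A.coeff n)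
    rw [← PowerSeries.coeff_map, hA]
  ext n
  rw [PowerSeries.coeff_map, ← hAn n, map_zero]
  exact level1_reduction_vanish O φ m f hf hO (fun n hn => by rw [hAn n]; exact h n hn) n

end Fermat.Agent.S16_helper21_STURM
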