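import Fermat.Agent.S28_helper13_EINT_Core

set_option autoImplicit false

open UpperHalfPlane ModularForm CongruenceSubgroup Matrix.SpecialLinearGroup
open scoped MatrixGroups ModularForm Manifold Real
open Fermat.Agent.S20 Fermat.Agent.S28_helper14_ADefs

/-!
# S16 piece UB-NORMORD, part A: the conjugates of a level `N` form are `N`-periodic
-/

namespace Fermat.Agent.S16_helper23_NORMORD

/-- `Γ(N)` fixes every coset of `Γ₀(N)`. -/
theorem Gamma_smul_coset {N : ℕ} (γ : SL(2, ℤ)) (hγ : γ ∈ Gamma N) (q : Q N) :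
    γ • q = q := by
  induction q using QuotientGroup.induction_on with
  | H h =>
    have h1 : γ • (h : Q N) = ((γ * h : SL(2, ℤ)) : Q N) := rfl
    rw [h1]
    refine (QuotientGroup.eq.mpr ?_)
    have h2 : (γ * h)⁻¹ * h = h⁻¹ * γ⁻¹ * h := by group
    rw [h2]
    have h3 : h⁻¹ * γ⁻¹ * h ∈ Gamma N := by
      have := (Gamma_normal N).conj_mem γ⁻¹ (inv_mem hγ) h⁻¹
      simpa using this
    rw [Gamma_mem] at h3
    rw [Gamma0_mem]
    exact h3.2.2.1

/-- The conjugates of a level `N` form are invariant under `Γ(N)`. -/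
theorem cj_slash_Gamma {N : ℕ} [NeZero N] {k : ℤ} {F : ℍ → ℂ} (hF : IsMF N k F) (q : Q N)
    (γ : SL(2, ℤ)) (hγ : γ ∈ Gamma N) : (cj N k F q) ∣[k] γ = cj N k F q := by
  rw [cj_slash hF γ q, Gamma_smul_coset γ⁻¹ (inv_mem hγ) q]

/-- The conjugates of a level `N` form are holomorphic, `N`-periodic and bounded at infinity. -/
theorem nice_cj {N : ℕ} [NeZero N] {k : ℤ} {F : ℍ → ℂ} (hF : IsMF N k F) (q : Q N) :
    Nice (N : ℝ) (cj N k F q) := by
  refine ⟨?_, cj_holo hF.holo q, cj_bdd hF q⟩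
  let G : SlashInvariantForm (Gamma N : Subgroup (GL (Fin 2) ℝ)) k :=
    ⟨cj N k F q, by
      rintro γ ⟨γ', hγ', rfl⟩
      exact cj_slash_Gamma hF q γ' hγ'⟩
  have hper : (N : ℝ) ∈ (Gamma N : Subgroup (GL (Fin 2) ℝ)).strictPeriods := by
    rw [strictPeriods_Gamma]
    exact AddSubgroup.mem_zmultiples _
  exact SlashInvariantFormClass.periodic_comp_ofComplex G hper

end Fermat.Agent.S16_helper23_NORMORD
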