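import Fermat.Agent.S28_helper1_LEVEL1

/-!
# S16, tool (Td): level-one Sturm bound modulo `r O`

For a subring `O ⊆ ℂ` and `r : ℂ`, `RD O r x` means `x ∈ r O`.  A level-one modular form of weight
`12 m` whose `q`-expansion has coefficients in `O` and whose first `m + 1` coefficients lie in
`r O` has all its coefficients in `r O`.
-/

set_option autoImplicit false

open UpperHalfPlane ModularForm CongruenceSubgroup Matrix.SpecialLinearGroup
open scoped MatrixGroups ModularForm Manifold Real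
open Fermat.Agent.S20 Fermat.Agent.S28_helper14_Defs Fermat.Agent.S28_helper14_ADefs ModularCurve
open Fermat.Agent.S28_LEVEL1

namespace Fermat.Agent.S16_helper2_STURM

/-- `x ∈ r O`. -/
def RD (O : Subring ℂ) (r : ℂ) (x : ℂ) : Prop := ∃ y ∈ O, x = r * y

theorem RD_zero (O : Subring ℂ) (r : ℂ) : RD O r 0 := ⟨0, O.zero_mem, by simp⟩

theorem RD_add {O : Subring ℂ} {r x y : ℂ} (hx : RD O r x) (hy : RD O r y) : RD O r (x + y) := by
  obtain ⟨a, ha, rfl⟩ := hx
  obtain ⟨b, hb, rfl⟩ := hy
  exact ⟨a + b, O.add_mem ha hb, by ring⟩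

theorem RD_neg {O : Subring ℂ} {r x : ℂ} (hx : RD O r x) : RD O r (-x) := by
  obtain ⟨a, ha, rfl⟩ := hx
  exact ⟨-a, O.neg_mem ha, by ring⟩

theorem RD_sub {O : Subring ℂ} {r x y : ℂ} (hx : RD O r x) (hy : RD O r y) : RD O r (x - y) := by
  rw [sub_eq_add_neg]
  exact RD_add hx (RD_neg hy)

theorem RD_mul_left {O : Subring ℂ} {r a x : ℂ} (ha : a ∈ O) (hx : RD O r x) : RD O r (a * x) := by
  obtain ⟨b, hb, rfl⟩ := hx
  exact ⟨a * b, O.mul_mem ha hb, by ring⟩

theorem RD_mul_right {O : Subring ℂ} {r a x : ℂ} (hx : RD O r x) (ha : a ∈ O) : RD O r (x * a) := by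
  rw [mul_comm]
  exact RD_mul_left ha hx

theorem RD_self_mul {O : Subring ℂ} (r : ℂ) {a : ℂ} (ha : a ∈ O) : RD O r (r * a) := ⟨a, ha, rfl⟩

theorem RD_sum {O : Subring ℂ} {r : ℂ} {ι : Type*} (s : Finset ι) (f : ι → ℂ)
    (h : ∀ i ∈ s, RD O r (f i)) : RD O r (∑ i ∈ s, f i) := by
  classical
  induction s using Finset.induction_on with
  | empty => simpa using RD_zero O r
  | insert a s ha ih =>
    rw [Finset.sum_insert ha]
    exact RD_add (h a (Finset.mem_insert_self a s)) (ih fun i hi => h i (Finset.mem_insert_of_mem hi))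

theorem RD_mem {O : Subring ℂ} {r x : ℂ} (hr : r ∈ O) (hx : RD O r x) : x ∈ O := by
  obtain ⟨a, ha, rfl⟩ := hx
  exact O.mul_mem hr ha

/-- congruence transfers `RD` -/
theorem RD_congr {O : Subring ℂ} {r x y : ℂ} (hxy : RD O r (x - y)) (hy : RD O r y) : RD O r x := by
  have := RD_add hxy hy
  rwa [sub_add_cancel] at this

/-- low coefficients of a product -/
theorem RD_coeff_mul_low {O : Subring ℂ} {r : ℂ} {P Q : PowerSeries ℂ} (hP : P ∈ coeffSubring O)
    {m : ℕ} (hQ : ∀ n, n ≤ m → RD O r (Q.coeff n)) :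
    ∀ n, n ≤ m → RD O r ((P * Q).coeff n) := by
  intro n hn
  rw [PowerSeries.coeff_mul]
  refine RD_sum _ _ fun x hx => ?_
  refine RD_mul_left (hP _) (hQ _ ?_)
  have := Finset.HasAntidiagonal.mem_antidiagonal.mp hx
  omega

/-- all coefficients of a product -/
theorem RD_coeff_mul {O : Subring ℂ} {r : ℂ} {P Q : PowerSeries ℂ} (hP : P ∈ coeffSubring O)
    (hQ : ∀ n, RD O r (Q.coeff n)) : ∀ n, RD O r ((P * Q).coeff n) := by
  intro n
  exact RD_coeff_mul_low hP (m := n) (fun k _ => hQ k) n le_rfl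

theorem sturm_mod_aux (O : Subring ℂ) (r : ℂ) :
    ∀ (m : ℕ) (k : ℤ), k = 12 * (m : ℤ) → ∀ f : ModularForm 𝒮ℒ k,
      qExpansion 1 f ∈ coeffSubring O →
      (∀ n, n ≤ m → RD O r ((qExpansion 1 f).coeff n)) →
      ∀ n, RD O r ((qExpansion 1 f).coeff n) := by
  intro m
  induction m with
  | zero =>
    intro k hk f hf hlow n
    obtain ⟨g, hg0, -, hfg⟩ := exists_sub_E4_pow qE4Hyp O 0 k hk f hf
    have hk0 : k = 0 := by simpa using hk
    subst hk0
    have hg : g = 0 := by
      apply ModularForm.sturm_bound_levelOne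
      have h1 : ((1 : ℕ) : ℕ∞) ≤ (qExpansion 1 g).order := by
        apply PowerSeries.nat_le_order
        intro i hi
        have : i = 0 := by omega
        rw [this]
        exact hg0
      refine lt_of_lt_of_le ?_ h1
      simp
    rw [hg, FunLike.coe_zero, qExpansion_zero, zero_add, mul_zero, pow_zero] at hfg
    rw [hfg, PowerSeries.coeff_smul, PowerSeries.coeff_one]
    split_ifs with h0
    · rw [smul_eq_mul, mul_one]
      exact hlow 0 le_rfl
    · rw [smul_eq_mul, mul_zero]
      exact RD_zero O r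
  | succ m ih =>
    intro k hk f hf hlow
    obtain ⟨g, hg0, hgO, hfg⟩ := exists_sub_E4_pow qE4Hyp O (m + 1) k hk f hf
    set a₀ : ℂ := (qExpansion 1 f).coeff 0 with ha₀
    have ha₀r : RD O r a₀ := hlow 0 (Nat.zero_le _)
    have hE : ∀ n, RD O r ((a₀ • (qExpansion 1 (⇑E₄ : ℍ → ℂ)) ^ (3 * (m + 1))).coeff n) := by
      intro n
      rw [PowerSeries.coeff_smul]
      exact RD_mul_right ha₀r (qExpansion_E4_pow_mem qE4Hyp O _ n)
    have hglow : ∀ n, n ≤ m + 1 → RD O r ((qExpansion 1 g).coeff n) := by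
      intro n hn
      have h1 : (qExpansion 1 g).coeff n = (qExpansion 1 f).coeff n -
          (a₀ • (qExpansion 1 (⇑E₄ : ℍ → ℂ)) ^ (3 * (m + 1))).coeff n := by
        rw [hfg, map_add]
        ring
      rw [h1]
      exact RD_sub (hlow n hn) (hE n)
    set h : ModularForm 𝒮ℒ (k - 12) := CuspForm.discriminantEquiv (toCuspForm g hg0) with hh
    have hgh : qExpansion 1 g = qExpansion 1 discriminant * qExpansion 1 h :=
      ModularForm.qExpansion_eq_qExpansion_discriminant_mul g hg0
    have hΔ' := qDeltaHyp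
    unfold QDeltaHyp at hΔ'
    have h1 : PowerSeries.X * qExpansion 1 h =
        dedekindEtaUnitInv.map (Int.castRingHom ℂ) * qExpansion 1 g := by
      rw [hgh, hΔ', map_mul, PowerSeries.map_X]
      have h2 : dedekindEtaUnit.map (Int.castRingHom ℂ) *
          dedekindEtaUnitInv.map (Int.castRingHom ℂ) = 1 := by
        rw [← map_mul, dedekindEtaUnit_mul_inv, map_one]
      calc PowerSeries.X * qExpansion 1 h
          = (dedekindEtaUnit.map (Int.castRingHom ℂ) *
              dedekindEtaUnitInv.map (Int.castRingHom ℂ)) *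
              (PowerSeries.X * qExpansion 1 h) := by rw [h2, one_mul]
        _ = _ := by ring
    have hhO : qExpansion 1 h ∈ coeffSubring O := by
      apply mem_coeffSubring_of_X_mul
      rw [h1]
      exact (coeffSubring O).mul_mem (map_int_mem_coeffSubring O _) hgO
    have hhlow : ∀ n, n ≤ m → RD O r ((qExpansion 1 h).coeff n) := by
      intro n hn
      have h3 : (qExpansion 1 h).coeff n = (PowerSeries.X * qExpansion 1 h).coeff (n + 1) := by
        rw [PowerSeries.coeff_succ_X_mul]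
      rw [h3, h1]
      exact RD_coeff_mul_low (map_int_mem_coeffSubring O _) hglow (n + 1) (by omega)
    have hhall := ih (k - 12) (by rw [hk]; push_cast; ring) h hhO hhlow
    have hgall : ∀ n, RD O r ((qExpansion 1 g).coeff n) := by
      rw [hgh, hΔ']
      exact RD_coeff_mul (map_int_mem_coeffSubring O _) hhall
    intro n
    rw [hfg, map_add]
    exact RD_add (hgall n) (hE n)

/-- **Level-one Sturm bound modulo `r O`.** -/
theorem sturm_mod (O : Subring ℂ) (r : ℂ) (m : ℕ) (f : ℍ → ℂ) (hf : IsMF1 (12 * (m : ℤ)) f)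
    (hO : ∀ n, (qExpansion 1 f).coeff n ∈ O)
    (h : ∀ n, n ≤ m → RD O r ((qExpansion 1 f).coeff n)) :
    ∀ n, RD O r ((qExpansion 1 f).coeff n) := by
  obtain ⟨F, rfl⟩ := hf
  exact sturm_mod_aux O r m _ rfl F hO h

end Fermat.Agent.S16_helper2_STURM
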