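import Mathlib
import Fermat.Prelude.Def_ModularCurve_ModularUnit

/-!
# S16, lower bound, step L1: the Shimura character

* `exists_log`: a surjective homomorphism `(ℤ/p)ˣ → ℤ/n`, `n = (p-1)/gcd(p-1,12)`, which kills
  every `x` with `x ^ 12 = 1`.
* `pow_twelve_eq_one_of_trace`: for `γ ∈ Γ₀(p)` of trace `0, ±1, ±2` the lower right entry `d`
  satisfies `d ^ 12 = 1` modulo `p`.
* `exists_mem_Gamma0_entry`: every unit modulo `p` is the lower right entry of an element of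
  `Γ₀(p)`.
-/

set_option autoImplicit false

open CongruenceSubgroup
open scoped MatrixGroups

namespace Fermat.Agent.S16_helper3_CHI

theorem eisensteinNumerator_dvd_pred (p : ℕ) : ModularCurve.eisensteinNumerator p ∣ p - 1 :=
  Nat.div_dvd_of_dvd (Nat.gcd_dvd_left _ _)

theorem eisensteinNumerator_pos (p : ℕ) (hp : 2 ≤ p) : 0 < ModularCurve.eisensteinNumerator p := by
  unfold ModularCurve.eisensteinNumerator
  have h1 : 0 < p - 1 := by omega
  exact Nat.div_pos (Nat.le_of_dvd h1 (Nat.gcd_dvd_left _ _)) (Nat.gcd_pos_of_pos_left _ h1)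

/-- if `p - 1 ∣ 12 * k` then `n ∣ k` -/
theorem eisensteinNumerator_dvd_of_dvd_mul (p : ℕ) (hp : 2 ≤ p) (k : ℤ)
    (h : ((p - 1 : ℕ) : ℤ) ∣ 12 * k) : ((ModularCurve.eisensteinNumerator p : ℕ) : ℤ) ∣ k := by
  have h1 : 0 < p - 1 := by omega
  set d := Nat.gcd (p - 1) 12 with hd
  have hdpos : 0 < d := Nat.gcd_pos_of_pos_left _ h1
  have hcop : Nat.Coprime ((p - 1) / d) (12 / d) := Nat.coprime_div_gcd_div_gcd hdpos
  have e1 : p - 1 = d * ((p - 1) / d) := (Nat.mul_div_cancel' (Nat.gcd_dvd_left _ _)).symm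
  have e2 : 12 = d * (12 / d) := (Nat.mul_div_cancel' (Nat.gcd_dvd_right _ _)).symm
  have h2 : ((d * ((p - 1) / d) : ℕ) : ℤ) ∣ ((d * (12 / d) : ℕ) : ℤ) * k := by
    rw [← e1, ← e2]
    exact_mod_cast h
  have h3 : (((p - 1) / d : ℕ) : ℤ) ∣ ((12 / d : ℕ) : ℤ) * k := by
    push_cast at h2
    rw [mul_assoc] at h2
    exact (mul_dvd_mul_iff_left (by exact_mod_cast hdpos.ne')).mp h2
  have hcop' : IsCoprime (((p - 1) / d : ℕ) : ℤ) ((12 / d : ℕ) : ℤ) :=
    Nat.isCoprime_iff_coprime.mpr hcop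
  exact hcop'.dvd_of_dvd_mul_left h3

/-- **L1 (a)**: the logarithm `(ℤ/p)ˣ → ℤ/n` -/
theorem exists_log (p : ℕ) [Fact p.Prime] :
    ∃ L : (ZMod p)ˣ →* Multiplicative (ZMod (ModularCurve.eisensteinNumerator p)),
      Function.Surjective L ∧ ∀ x, x ^ 12 = 1 → L x = 1 := by
  have hp2 : 2 ≤ p := (Fact.out : p.Prime).two_le
  set n := ModularCurve.eisensteinNumerator p with hn
  have hnpos : 0 < n := eisensteinNumerator_pos p hp2
  have : NeZero n := ⟨hnpos.ne'⟩
  obtain ⟨g, hg⟩ := IsCyclic.exists_generator (α := (ZMod p)ˣ)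
  have hordg : orderOf g = p - 1 := by
    rw [orderOf_eq_card_of_forall_mem_zpowers hg, Nat.card_eq_fintype_card, ZMod.card_units]
  set g' : Multiplicative (ZMod n) := Multiplicative.ofAdd 1 with hg'
  have hordg' : orderOf g' = n := by
    rw [hg', orderOf_ofAdd_eq_addOrderOf, ZMod.addOrderOf_one]
  have hdvd : orderOf g' ∣ orderOf g := by
    rw [hordg, hordg']
    exact eisensteinNumerator_dvd_pred p
  refine ⟨monoidHomOfForallMemZpowers hg hdvd, ?_, ?_⟩
  · intro y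
    refine ⟨g ^ (Multiplicative.toAdd y).val, ?_⟩
    rw [map_pow, monoidHomOfForallMemZpowers_apply_gen, hg', ← ofAdd_nsmul]
    simp
  · intro x hx
    obtain ⟨k, rfl⟩ := Subgroup.mem_zpowers_iff.mp (hg x)
    rw [map_zpow, monoidHomOfForallMemZpowers_apply_gen]
    have h1 : g ^ (k * 12) = 1 := by
      rw [zpow_mul]
      exact_mod_cast hx
    have h2 : ((p - 1 : ℕ) : ℤ) ∣ 12 * k := by
      rw [← hordg, mul_comm]
      exact orderOf_dvd_iff_zpow_eq_one.mpr h1
    have h3 : ((n : ℕ) : ℤ) ∣ k := eisensteinNumerator_dvd_of_dvd_mul p hp2 k h2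
    rw [← hordg'] at h3
    exact orderOf_dvd_iff_zpow_eq_one.mp h3

/-- **L1 (b)**: elements of trace `0, ±1, ±2` have `d ^ 12 = 1` modulo `p` -/
theorem pow_twelve_eq_one_of_trace (p : ℕ) [Fact p.Prime] (γ : SL(2, ℤ)) (hc : (p : ℤ) ∣ γ 1 0)
    (ht : |(γ : Matrix (Fin 2) (Fin 2) ℤ).trace| ≤ 2) (u : (ZMod p)ˣ)
    (hu : (u : ZMod p) = ((γ 1 1 : ℤ) : ZMod p)) : u ^ 12 = 1 := by
  have hdet : γ 0 0 * γ 1 1 - γ 0 1 * γ 1 0 = 1 := by
    have h := γ.det_coe
    rwa [Matrix.det_fin_two] at h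
  have hc0 : ((γ 1 0 : ℤ) : ZMod p) = 0 := (ZMod.intCast_zmod_eq_zero_iff_dvd _ _).mpr hc
  have had : ((γ 0 0 : ℤ) : ZMod p) * ((γ 1 1 : ℤ) : ZMod p) = 1 := by
    have := congrArg (Int.cast : ℤ → ZMod p) hdet
    push_cast at this
    linear_combination this + ((γ 0 1 : ℤ) : ZMod p) * hc0
  have htr : (γ : Matrix (Fin 2) (Fin 2) ℤ).trace = γ 0 0 + γ 1 1 := by
    rw [Matrix.trace_fin_two]
  set t : ℤ := γ 0 0 + γ 1 1 with htdef
  rw [htr] at ht
  obtain ⟨ht1, ht2⟩ := abs_le.mp ht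
  set d : ZMod p := ((γ 1 1 : ℤ) : ZMod p) with hd
  have hrel : d ^ 2 - (t : ZMod p) * d + 1 = 0 := by
    rw [htdef]
    push_cast
    linear_combination -had
  have key : d ^ 12 = 1 := by
    have hcases : t = -2 ∨ t = -1 ∨ t = 0 ∨ t = 1 ∨ t = 2 := by omega
    rcases hcases with h | h | h | h | h
    · rw [h] at hrel
      have h1 : (d + 1) ^ 2 = 0 := by
        push_cast at hrel
        linear_combination hrel
      have h2 : d = -1 := by
        have := pow_eq_zero_iff (two_ne_zero) |>.mp h1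
        linear_combination this
      rw [h2]
      norm_num
    · rw [h] at hrel
      push_cast at hrel
      linear_combination ((d - 1) * (d ^ 3 + 1) * (d ^ 6 + 1)) * hrel
    · rw [h] at hrel
      push_cast at hrel
      linear_combination (d ^ 10 - d ^ 8 + d ^ 6 - d ^ 4 + d ^ 2 - 1) * hrel
    · rw [h] at hrel
      push_cast at hrel
      linear_combination ((d ^ 3 - 1) * (d + 1) * (d ^ 6 + 1)) * hrel
    · rw [h] at hrel
      have h1 : (d - 1) ^ 2 = 0 := by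
        push_cast at hrel
        linear_combination hrel
      have h2 : d = 1 := by
        have := pow_eq_zero_iff (two_ne_zero) |>.mp h1
        linear_combination this
      rw [h2]
      norm_num
  apply Units.ext
  rw [Units.val_pow_eq_pow_val, hu, Units.val_one]
  exact key

/-- **L1 (c)**: every unit modulo `p` is the lower right entry of an element of `Γ₀(p)` -/
theorem exists_mem_Gamma0_entry (p : ℕ) [Fact p.Prime] (u : (ZMod p)ˣ) :
    ∃ γ : Gamma0 p, (((γ : SL(2, ℤ)) 1 1 : ℤ) : ZMod p) = (u : ZMod p) := by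
  have hp : p.Prime := Fact.out
  set d₀ : ℕ := (u : ZMod p).val with hd₀
  have hd₀cast : ((d₀ : ℕ) : ZMod p) = (u : ZMod p) := ZMod.natCast_zmod_val _
  have hcop : Nat.Coprime d₀ p := by
    rw [Nat.coprime_comm, Nat.Prime.coprime_iff_not_dvd hp]
    intro hdvd
    have : ((d₀ : ℕ) : ZMod p) = 0 := (ZMod.natCast_eq_zero_iff _ _).mpr hdvd
    rw [hd₀cast] at this
    exact u.ne_zero this
  have hcopZ : IsCoprime (d₀ : ℤ) (p : ℤ) := Nat.isCoprime_iff_coprime.mpr hcop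
  obtain ⟨x, y, hxy⟩ := hcopZ
  have hdet : Matrix.det !![x, -y; (p : ℤ), (d₀ : ℤ)] = 1 := by
    rw [Matrix.det_fin_two_of]
    linear_combination hxy
  refine ⟨⟨⟨!![x, -y; (p : ℤ), (d₀ : ℤ)], hdet⟩, ?_⟩, ?_⟩
  · exact Gamma0_mem.mpr (by simp)
  · simp [hd₀cast]

end Fermat.Agent.S16_helper3_CHI
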