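import Fermat.Agent.S16_helper3_LBCore
import Fermat.Agent.S16_helper14_L2
import Fermat.Agent.S16_helper20_L4
import Fermat.Agent.S20

/-!
# S16: the lower bound `ε(ker(ℤ[X_ℓ] → 𝕋)) ⊆ n ℤ`

Assembly of L1 (`S16_helper3_CHI`), L2 (`S16_helper14_L2`), L3 + L4 (`S16_helper20_L4`),
L5 (`S16_helper11_L5`) and S23 (integral structure).
-/

set_option autoImplicit false

open CongruenceSubgroup ModularCurve CuspForm
open scoped MatrixGroups

namespace Fermat.Agent.S16_helper3_LB

open Fermat.Agent.S16_helper14_L2 Fermat.Agent.S16_helper20_L4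

theorem XSub_eq_ellParHoms (N : ℕ) [NeZero N] (k : Type*) [Field k] :
    XSub N k = ellParHoms k N k := by
  ext ψ
  rfl

/-- L2 (helper14) in the shape consumed by L4 (helper20) -/
theorem L2Bound_prime (p : ℕ) [Fact p.Prime] (k : Type*) [Field k] : L2Bound p k := by
  unfold L2Bound
  rw [XSub_eq_ellParHoms]
  refine ⟨ellParHoms_finite k p, ?_⟩
  have h1 := ellParHoms_finrank_le k p
  have h2 := Fermat.Agent.S20.result p
  rw [← h2] at h1
  exact_mod_cast h1

/-- **S16, lower bound.** -/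
theorem LB (p : ℕ) [Fact p.Prime] (t : HeckeAlg)
    (ht : ((latticeRestrictHom p ∅).toRingHom.comp (heckeEvalForms p 2)) t = 0) :
    ((eisensteinNumerator p : ℕ) : ℤ) ∣ MvPolynomial.aeval (eisensteinSystem p) t := by
  have hp2 : 2 ≤ p := (Fact.out : p.Prime).two_le
  refine Fermat.Agent.S16_helper3_LBCore.LB_of_factor p (fun ψ hψ => ?_) t ht
  exact exists_factor p (eisensteinNumerator p)
    (Fermat.Agent.S16_helper3_CHI.eisensteinNumerator_pos p hp2)
    (fun r _ _ => L2Bound_prime p (ZMod r)) ψ hψ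

end Fermat.Agent.S16_helper3_LB
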