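import Fermat.Agent.S22_Lattice
import Fermat.Prelude.Sol.S_ModularForm_heckeT_slash_eq_self_of_mem_Gamma0

set_option autoImplicit false

namespace Fermat.Agent.S22

open Complex Filter Topology
open UpperHalfPlane hiding I
open scoped MatrixGroups ModularForm Manifold Pointwise
open P2MW.S_ModularForm_heckeT_slash_eq_self_of_mem_Gamma0.ModularForm.HeckeSlashInvariance

noncomputable section

local notation "Γ₀(" N ")" => CongruenceSubgroup.Gamma0 N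

variable {N : ℕ} {k : ℤ}

theorem heckeMatrix_entries {p : ℕ} (hp : p ≠ 0) (j : ℕ) :
    (ModularForm.heckeMatrix p j) 0 0 = 1 ∧ (ModularForm.heckeMatrix p j) 0 1 = j ∧
    (ModularForm.heckeMatrix p j) 1 0 = 0 ∧ (ModularForm.heckeMatrix p j) 1 1 = p := by
  simp [ModularForm.val_heckeMatrix hp]

theorem heckeDiagMatrix_entries {p : ℕ} (hp : p ≠ 0) :
    (ModularForm.heckeDiagMatrix p) 0 0 = p ∧ (ModularForm.heckeDiagMatrix p) 0 1 = 0 ∧
    (ModularForm.heckeDiagMatrix p) 1 0 = 0 ∧ (ModularForm.heckeDiagMatrix p) 1 1 = 1 := by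
  simp [ModularForm.val_heckeDiagMatrix hp]

theorem vact_heckeMatrix_int {p : ℕ} (hp : p ≠ 0) (j : ℕ) (a b : ℤ) :
    ∃ a' b' : ℤ, vact (ModularForm.heckeMatrix p j) ((a : ℂ), (b : ℂ)) = ((a' : ℂ), (b' : ℂ)) := by
  obtain ⟨h00, h01, h10, h11⟩ := heckeMatrix_entries hp j
  refine ⟨a + j * b, p * b, ?_⟩
  simp [vact, h00, h01, h10, h11]

theorem vact_heckeDiagMatrix_int {p : ℕ} (hp : p ≠ 0) (a b : ℤ) :
    ∃ a' b' : ℤ, vact (ModularForm.heckeDiagMatrix p) ((a : ℂ), (b : ℂ))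
      = ((a' : ℂ), (b' : ℂ)) := by
  obtain ⟨h00, h01, h10, h11⟩ := heckeDiagMatrix_entries hp
  refine ⟨p * a, b, ?_⟩
  simp [vact, h00, h01, h10, h11]

theorem heckeRep_upper {p : ℕ} (hp : p ≠ 0) (x : OnePoint (ZMod p)) :
    (heckeRep p x) 1 0 = 0 ∧ 0 < (heckeRep p x) 0 0 ∧ 0 < (heckeRep p x) 1 1 := by
  have hp' : (0 : ℝ) < p := by exact_mod_cast Nat.pos_of_ne_zero hp
  induction x using OnePoint.rec with
  | infty =>
    obtain ⟨h00, h01, h10, h11⟩ := heckeDiagMatrix_entries hp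
    rw [heckeRep_infty, h00, h10, h11]
    exact ⟨rfl, hp', one_pos⟩
  | coe j =>
    obtain ⟨h00, h01, h10, h11⟩ := heckeMatrix_entries hp j.val
    rw [heckeRep_coe, h00, h10, h11]
    exact ⟨rfl, one_pos, hp'⟩

theorem vact_heckeRep_int {p : ℕ} (hp : p ≠ 0) (x : OnePoint (ZMod p)) (a b : ℤ) :
    ∃ a' b' : ℤ, vact (heckeRep p x) ((a : ℂ), (b : ℂ)) = ((a' : ℂ), (b' : ℂ)) := by
  induction x using OnePoint.rec with
  | infty => exact vact_heckeDiagMatrix_int hp a b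
  | coe j => exact vact_heckeMatrix_int hp j.val a b

theorem mapGL_mem_GG {γ : SL(2, ℤ)} (h : (N : ℤ) ∣ γ 1 0) :
    Matrix.SpecialLinearGroup.mapGL ℝ γ ∈ GG N :=
  Subgroup.mem_map_of_mem _
    (CongruenceSubgroup.Gamma0_mem.mpr ((ZMod.intCast_zmod_eq_zero_iff_dvd _ _).mpr h))

theorem dvd_of_mem_Gamma0 {γ : SL(2, ℤ)} (h : γ ∈ Γ₀(N)) : (N : ℤ) ∣ γ 1 0 :=
  (ZMod.intCast_zmod_eq_zero_iff_dvd _ _).mp (CongruenceSubgroup.Gamma0_mem.mp h)

theorem comp_heckeT_mem_Lam [NeZero N] (m : ℕ) (hk : k = m + 2) {ℓ : ℕ} (hℓ : ℓ.Prime)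
    (hℓN : ¬ ℓ ∣ N) {g : GL (Fin 2) ℝ} (hg : g ∈ GG N) (a b : ℤ) :
    (perLin m g ((a : ℂ), (b : ℂ)) : CuspForm Γ₀(N) k →ₗ[ℂ] ℂ) ∘ₗ CuspForm.heckeTLin k hℓ hℓN
      ∈ Lam N k m := by
  have : Fact ℓ.Prime := ⟨hℓ⟩
  have : NeZero ℓ := ⟨hℓ.ne_zero⟩
  obtain ⟨γ, hγ, rfl⟩ := hg
  have hγN := dvd_of_mem_Gamma0 hγ
  choose γ' hγ'N hγ'mul using fun x => heckeRep_mul hℓN γ hγN x
  have key : (perLin m (Matrix.SpecialLinearGroup.mapGL ℝ γ) ((a : ℂ), (b : ℂ)) :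
      CuspForm Γ₀(N) k →ₗ[ℂ] ℂ) ∘ₗ CuspForm.heckeTLin k hℓ hℓN
      = ∑ x : OnePoint (ZMod ℓ), perLin m (Matrix.SpecialLinearGroup.mapGL ℝ (γ' x))
          (vact (heckeRep ℓ ((MulAction.toPerm (redMatrix ℓ γ)) x)) ((a : ℂ), (b : ℂ))) := by
    ext f
    simp only [LinearMap.comp_apply, perLin_apply, LinearMap.sum_apply]
    refine per_hecke m hk (heckeRep ℓ) (fun x => (heckeRep_upper hℓ.ne_zero x).1)
      (fun x => (heckeRep_upper hℓ.ne_zero x).2.1) (fun x => (heckeRep_upper hℓ.ne_zero x).2.2)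
      f (CuspForm.heckeTLin k hℓ hℓN f) ?_ _ (MulAction.toPerm (redMatrix ℓ γ))
      (fun x => Matrix.SpecialLinearGroup.mapGL ℝ (γ' x)) (fun x => mapGL_mem_GG (hγ'N x))
      (fun x => hγ'mul x) _
    rw [CuspForm.coe_heckeTLin_apply, heckeT_eq_sum_onePoint]
  rw [key]
  refine Submodule.sum_mem _ fun x _ => ?_
  obtain ⟨a', b', hab⟩ := vact_heckeRep_int hℓ.ne_zero ((MulAction.toPerm (redMatrix ℓ γ)) x) a b
  rw [hab]
  exact perLin_mem_Lam m (mapGL_mem_GG (hγ'N x)) a' b'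

theorem comp_heckeU_mem_Lam [NeZero N] (m : ℕ) (hk : k = m + 2) {q : ℕ}
    (hqN : q ∣ N) {g : GL (Fin 2) ℝ} (hg : g ∈ GG N) (a b : ℤ) :
    (perLin m g ((a : ℂ), (b : ℂ)) : CuspForm Γ₀(N) k →ₗ[ℂ] ℂ) ∘ₗ CuspForm.heckeULin k hqN
      ∈ Lam N k m := by
  have hq0 : q ≠ 0 := fun h => NeZero.ne N (Nat.eq_zero_of_zero_dvd (h ▸ hqN))
  have : NeZero q := ⟨hq0⟩
  obtain ⟨γ, hγ, rfl⟩ := hg
  have hγN := dvd_of_mem_Gamma0 hγ
  have hc : (q : ℤ) ∣ γ 1 0 := (Int.natCast_dvd_natCast.mpr hqN).trans hγN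
  have hc0 : ((γ 1 0 : ℤ) : ZMod q) = 0 := (ZMod.intCast_zmod_eq_zero_iff_dvd _ _).mpr hc
  choose γ' hγ'eq hγ'mul using fun x => heckeMatrix_mul_of_dvd γ hc x
  have hγ'N : ∀ x, (N : ℤ) ∣ (γ' x) 1 0 := fun x => by
    rw [hγ'eq x]
    exact dvd_mul_of_dvd_right hγN _
  have hp' : (0 : ℝ) < q := by exact_mod_cast Nat.pos_of_ne_zero hq0
  have key : (perLin m (Matrix.SpecialLinearGroup.mapGL ℝ γ) ((a : ℂ), (b : ℂ)) :
      CuspForm Γ₀(N) k →ₗ[ℂ] ℂ) ∘ₗ CuspForm.heckeULin k hqN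
      = ∑ x : ZMod q, perLin m (Matrix.SpecialLinearGroup.mapGL ℝ (γ' x))
          (vact (ModularForm.heckeMatrix q ((affinePerm γ hc0) x).val) ((a : ℂ), (b : ℂ))) := by
    ext f
    simp only [LinearMap.comp_apply, perLin_apply, LinearMap.sum_apply]
    refine per_hecke m hk (fun x : ZMod q => ModularForm.heckeMatrix q x.val)
      (fun x => (heckeMatrix_entries hq0 x.val).2.2.1)
      (fun x => by rw [(heckeMatrix_entries hq0 x.val).1]; exact one_pos)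
      (fun x => by rw [(heckeMatrix_entries hq0 x.val).2.2.2]; exact hp')
      f (CuspForm.heckeULin k hqN f) ?_ _ (affinePerm γ hc0)
      (fun x => Matrix.SpecialLinearGroup.mapGL ℝ (γ' x)) (fun x => mapGL_mem_GG (hγ'N x))
      (fun x => hγ'mul x) _
    rw [CuspForm.coe_heckeULin_apply, heckeU_eq_sum_zmod]
  rw [key]
  refine Submodule.sum_mem _ fun x _ => ?_
  obtain ⟨a', b', hab⟩ := vact_heckeMatrix_int hq0 ((affinePerm γ hc0) x).val a b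
  rw [hab]
  exact perLin_mem_Lam m (mapGL_mem_GG (hγ'N x)) a' b'

/-- The period lattice is stable under transposes of the Hecke generators. -/
theorem comp_mem_Lam_of_mem_heckeGenerators [NeZero N] (m : ℕ) (hk : k = m + 2) (S : Set ℕ)
    {T : Module.End ℂ (CuspForm Γ₀(N) k)} (hT : T ∈ CuspForm.heckeGenerators N k S)
    {φ : CuspForm Γ₀(N) k →ₗ[ℂ] ℂ} (hφ : φ ∈ Lam N k m) : φ ∘ₗ T ∈ Lam N k m := by
  induction hφ using Submodule.span_induction with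
  | mem φ hφ =>
    obtain ⟨g, hg, a, b, rfl⟩ := hφ
    rcases hT with ⟨ℓ, hℓ, hℓN, -, rfl⟩ | ⟨q, hqN, -, -, rfl⟩
    · exact comp_heckeT_mem_Lam m hk hℓ hℓN hg a b
    · exact comp_heckeU_mem_Lam m hk hqN hg a b
  | zero =>
    rw [LinearMap.zero_comp]
    exact Submodule.zero_mem _
  | add φ ψ _ _ hφ hψ =>
    rw [LinearMap.add_comp]
    exact Submodule.add_mem _ hφ hψ
  | smul n φ _ hφ =>
    have : (n • φ) ∘ₗ T = n • (φ ∘ₗ T) := by
      ext f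
      simp
    rw [this]
    exact Submodule.smul_mem _ _ hφ

/-- The period lattice separates points. -/
theorem eq_zero_of_forall_Lam [NeZero N] (m : ℕ) (hk : k = m + 2) (f : CuspForm Γ₀(N) k)
    (h : ∀ φ ∈ Lam N k m, φ f = 0) : f = 0 := by
  refine eq_zero_of_per_eq_zero m hk f fun g hg n => ?_
  have := h _ (perLin_mem_Lam (k := k) m hg n 1)
  rw [perLin_apply] at this
  simpa using this

end

end Fermat.Agent.S22
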