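import Fermat.Statements.S22
import Fermat.Agent.S22_Stab
import Fermat.Agent.S22_Alg

set_option autoImplicit false
open CuspForm

namespace Fermat.Agent.S22

open scoped MatrixGroups ModularForm

theorem neg_one_mem_GG (N : ℕ) : (-1 : GL (Fin 2) ℝ) ∈ GG N := by
  refine ⟨-1, ?_, ?_⟩
  · rw [SetLike.mem_coe, CongruenceSubgroup.Gamma0_mem]
    simp
  · ext i j
    simp

theorem cuspForm_eq_zero_of_le_one (N : ℕ) [NeZero N] {k : ℤ} (hk : k ≤ 1)
    (f : CuspForm (CongruenceSubgroup.Gamma0 N) k) : f = 0 := by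
  have hmf : (ModularFormClass.modularForm f :
      ModularForm (CongruenceSubgroup.Gamma0 N) k) = 0 := by
    rcases eq_or_lt_of_le hk with h1 | h1
    · subst h1
      exact ModularForm.eq_zero_of_neg_one_mem (neg_one_mem_GG N) odd_one _
    · have hk0 : k ≤ 0 := by omega
      refine ModularForm.sturm_bound_Gamma0 N _ fun n hn => ?_
      have hnonpos : k * ((CongruenceSubgroup.Gamma0 N).index : ℤ) ≤ 0 :=
        mul_nonpos_of_nonpos_of_nonneg hk0 (Int.natCast_nonneg _)
      rw [Int.toNat_of_nonpos hnonpos] at hn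
      have hn0 : n = 0 := by simpa using hn
      subst hn0
      exact CuspFormClass.qExpansion_coeff_zero f one_pos (hΓ1 N)
  have hcoe : (⇑f : UpperHalfPlane → ℂ) = 0 := by
    have := congrArg (fun F : ModularForm (CongruenceSubgroup.Gamma0 N) k =>
      (⇑F : UpperHalfPlane → ℂ)) hmf
    simpa using this
  exact DFunLike.coe_injective hcoe

theorem result (N : ℕ) [NeZero N] (k : ℤ) (S : Set ℕ) :
    Module.Finite ℤ (CuspForm.heckeAlgebra N k S) := by
  by_cases hk : 2 ≤ k
  · obtain ⟨m, hm⟩ : ∃ m : ℕ, k = (m : ℤ) + 2 := ⟨(k - 2).toNat, by omega⟩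
    exact moduleFinite_adjoin_of_lattice (CuspForm.heckeGenerators N k S) (Lam N k m)
      (Lam_fg N m hm) (fun T hT φ hφ => comp_mem_Lam_of_mem_heckeGenerators m hm S hT hφ)
      (eq_zero_of_forall_Lam m hm)
  · have hk1 : k ≤ 1 := by omega
    have hsub : Subsingleton (CuspForm (CongruenceSubgroup.Gamma0 N) k) :=
      ⟨fun f g => by rw [cuspForm_eq_zero_of_le_one N hk1 f, cuspForm_eq_zero_of_le_one N hk1 g]⟩
    have hsub2 : Subsingleton (CuspForm.heckeAlgebra N k S) :=
      ⟨fun a b => Subtype.ext (LinearMap.ext fun f => Subsingleton.elim _ _)⟩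
    exact Module.Finite.of_surjective (0 : ℤ →ₗ[ℤ] CuspForm.heckeAlgebra N k S)
      fun y => ⟨0, Subsingleton.elim _ _⟩

end Fermat.Agent.S22
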