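import Mathlib
import Fermat.Prelude.Def_ModularCurve_PeriodHomPair
import Fermat.Prelude.Def_FLTPrelim_Modularity
import Fermat.Prelude.Thm_CongruenceSubgroup_one_mem_strictPeriods_Gamma0

/-!
# The reflected cusp form `f^c(z) = conj (f (-conj z))`

For a cusp form `f` of weight `k` on `Γ₀(N)` we construct the cusp form `reflect f` with
`reflect f z = conj (f (J • z))` and show that its `q`-expansion coefficients are the complex
conjugates of those of `f`.
-/

set_option autoImplicit false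

open UpperHalfPlane CongruenceSubgroup Filter Topology ModularCurve ModularCurve.Period
open scoped MatrixGroups ComplexConjugate ModularForm

namespace Fermat.Agent.S21_helper1_Reflect

theorem J_inv : (J : GL (Fin 2) ℝ)⁻¹ = J := by
  rw [inv_eq_iff_mul_eq_one, ← sq, J_sq]

theorem J_mul_mapGL_mul_J (γ : SL(2, ℤ)) :
    J * (Matrix.SpecialLinearGroup.mapGL ℝ γ) * J =
      Matrix.SpecialLinearGroup.mapGL ℝ (jConjSL γ) := by
  apply Units.ext
  ext i j
  fin_cases i <;> fin_cases j <;>
    simp [Matrix.mul_apply, Fin.sum_univ_two, jConjMat,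
      Matrix.SpecialLinearGroup.mapGL_coe_matrix, Matrix.vecMul, dotProduct]

open ConjAct Pointwise in
theorem conj_Gamma0 (N : ℕ) :
    toConjAct (J : GL (Fin 2) ℝ)⁻¹ • (Subgroup.map (Matrix.SpecialLinearGroup.mapGL ℝ) (Gamma0 N))
      = Subgroup.map (Matrix.SpecialLinearGroup.mapGL ℝ) (Gamma0 N) := by
  ext x
  rw [map_inv, Subgroup.mem_inv_pointwise_smul_iff, toConjAct_smul, J_inv]
  constructor
  · rintro ⟨γ, hγ, hx⟩
    refine ⟨jConjSL γ, jConjSL_mem_Gamma0 hγ, ?_⟩
    rw [← J_mul_mapGL_mul_J, hx]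
    have hJJ : (J : GL (Fin 2) ℝ) * J = 1 := by rw [← sq, J_sq]
    calc J * (J * x * J) * J = (J * J) * x * (J * J) := by group
      _ = x := by rw [hJJ, one_mul, mul_one]
  · rintro ⟨γ, hγ, rfl⟩
    exact ⟨jConjSL γ, jConjSL_mem_Gamma0 hγ, (J_mul_mapGL_mul_J γ).symm⟩

theorem slash_J_apply (k : ℤ) (f : ℍ → ℂ) (z : ℍ) :
    (f ∣[k] (J : GL (Fin 2) ℝ)) z = conj (f (J • z)) := by
  rw [ModularForm.slash_apply]
  simp

open ConjAct Pointwise in
/-- The reflected cusp form `z ↦ conj (f (J • z))`. -/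
noncomputable def reflect {N : ℕ} {k : ℤ} (f : CuspForm (Gamma0 N) k) :
    CuspForm (Gamma0 N) k where
  toFun := (⇑f) ∣[k] (J : GL (Fin 2) ℝ)
  slash_action_eq' := fun γ hγ =>
    (CuspForm.translate f J).slash_action_eq' γ (by rw [conj_Gamma0]; exact hγ)
  holo' := (CuspForm.translate f J).holo'
  zero_at_cusps' := fun {c} hc =>
    (CuspForm.translate f J).zero_at_cusps' (by rw [conj_Gamma0]; exact hc)

theorem reflect_apply {N : ℕ} {k : ℤ} (f : CuspForm (Gamma0 N) k) (z : ℍ) :
    reflect f z = conj (f (J • z)) :=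
  slash_J_apply k f z

theorem conj_qParam_J (τ : ℍ) :
    conj (Function.Periodic.qParam 1 ((J • τ : ℍ) : ℂ)) = Function.Periodic.qParam 1 (τ : ℂ) := by
  rw [coe_J_smul, Function.Periodic.qParam, Function.Periodic.qParam, ← Complex.exp_conj]
  congr 1
  simp only [map_div₀, map_mul, map_neg, Complex.conj_conj, Complex.conj_I, map_ofNat,
    Complex.conj_ofReal, map_one, Complex.ofReal_one]
  ring

theorem qCoeff_reflect {N : ℕ} {k : ℤ} (f : CuspForm (Gamma0 N) k) (n : ℕ) :
    ModularFormClass.qCoeff (reflect f) n = conj (ModularFormClass.qCoeff f n) := by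
  have hΓ := CongruenceSubgroup.one_mem_strictPeriods_Gamma0 N
  have : Fact (IsCusp OnePoint.infty
      (Subgroup.map (Matrix.SpecialLinearGroup.mapGL ℝ) (Gamma0 N))) :=
    ⟨Subgroup.isCusp_of_mem_strictPeriods one_pos hΓ⟩
  have key : ∀ τ : ℍ, HasSum
      (fun m => conj ((qExpansion 1 f).coeff m) • Function.Periodic.qParam 1 (τ : ℂ) ^ m)
      (reflect f τ) := by
    intro τ
    have h1 := ModularForm.hasSum_qExpansion f (h := 1) one_pos hΓ (J • τ)
    have h2 := (Complex.hasSum_conj' (f := fun m =>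
      (qExpansion 1 f).coeff m * Function.Periodic.qParam 1 ((J • τ : ℍ) : ℂ) ^ m)).mpr h1
    rw [reflect_apply]
    convert h2 using 2 with m
    rw [map_mul, map_pow, conj_qParam_J, smul_eq_mul]
  exact (ModularFormClass.qExpansion_coeff_unique (h := 1) one_pos hΓ (f := reflect f)
    key n).symm

end Fermat.Agent.S21_helper1_Reflect
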