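import Mathlib
import Fermat.Prelude.Def_FLTPrelim_Modularity
import Fermat.Agent.S21_helper1_Reflect

/-!
# S23, piece CONJ: the cusp form with complex conjugate `q`-coefficients
-/

set_option autoImplicit false

open CongruenceSubgroup UpperHalfPlane
open scoped MatrixGroups ComplexConjugate

namespace Fermat.Agent.S23_helper1_CONJ

theorem exists_conj_cuspForm (N : ℕ) [NeZero N] (k : ℤ) (f : CuspForm (Gamma0 N) k) :
    ∃ g : CuspForm (Gamma0 N) k,
      ∀ n : ℕ, ModularFormClass.qCoeff g n = conj (ModularFormClass.qCoeff f n) :=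
  ⟨Fermat.Agent.S21_helper1_Reflect.reflect f,
    Fermat.Agent.S21_helper1_Reflect.qCoeff_reflect f⟩

end Fermat.Agent.S23_helper1_CONJ
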