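import Mathlib

/-!
# S23, piece LINALG1

A `ℤ`-linearly independent family of endomorphisms `t i ∈ T` of a finite-dimensional complex
vector space `V` is `ℂ`-linearly independent, provided `T` preserves a finitely generated
`ℤ`-lattice `Λ ⊆ V*` of rank `≤ 2 dim V` which separates the points of `V` through real parts,
and commutes with a conjugate-linear involution `c` of `V`.
-/

set_option autoImplicit false

namespace Fermat.Agent.S23_helper21_LINALG1

open scoped ComplexConjugate TensorProduct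
open Module

/-- LA1: a `ℤ`-linearly independent family of integer vectors stays linearly independent over `ℂ`
after casting the coordinates. -/
theorem linearIndependent_intCast {κ : Type*} [Fintype κ] [DecidableEq κ] {n : ℕ} (m : Fin n → κ → ℤ)
    (hm : LinearIndependent ℤ m) :
    LinearIndependent ℂ (fun i => fun x => ((m i x : ℤ) : ℂ)) := by
  have h1 : LinearIndependent ℂ (fun i => (1 : ℂ) ⊗ₜ[ℤ] m i) :=
    Module.Flat.linearIndependent_one_tmul hm
  have h2 := h1.map' (TensorProduct.piScalarRight ℤ ℂ ℂ κ).toLinearMap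
    (LinearMap.ker_eq_bot.2 (TensorProduct.piScalarRight ℤ ℂ ℂ κ).injective)
  have h3 : (fun i => fun x => ((m i x : ℤ) : ℂ)) =
      (⇑(TensorProduct.piScalarRight ℤ ℂ ℂ κ).toLinearMap ∘ fun i => (1 : ℂ) ⊗ₜ[ℤ] m i) := by
    funext i x
    simp
  rw [h3]
  exact h2


section conjsec

variable {V : Type*} [AddCommGroup V] [Module ℂ V]
variable (c : V → V) (hc_add : ∀ f g, c (f + g) = c f + c g)
  (hc_smul : ∀ (a : ℂ) (f : V), c (a • f) = conj a • c f)

/-- The functional `conj ∘ φ ∘ c`, which is `ℂ`-linear when `c` is conjugate-linear. -/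
noncomputable def conjDual (φ : Module.Dual ℂ V) : Module.Dual ℂ V where
  toFun f := conj (φ (c f))
  map_add' f g := by simp [hc_add]
  map_smul' a f := by simp [hc_smul]

@[simp]
theorem conjDual_apply (φ : Module.Dual ℂ V) (f : V) :
    conjDual c hc_add hc_smul φ f = conj (φ (c f)) := rfl

theorem conjDual_add (φ ψ : Module.Dual ℂ V) :
    conjDual c hc_add hc_smul (φ + ψ) =
      conjDual c hc_add hc_smul φ + conjDual c hc_add hc_smul ψ := by
  ext f; simp

/-- The embedding `φ ↦ (φ, conj ∘ φ ∘ c)` as an additive map. -/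
noncomputable def iota : Module.Dual ℂ V →+ Module.Dual ℂ V × Module.Dual ℂ V where
  toFun φ := (φ, conjDual c hc_add hc_smul φ)
  map_zero' := by ext f <;> simp
  map_add' φ ψ := by rw [conjDual_add]; rfl

@[simp]
theorem iota_apply (φ : Module.Dual ℂ V) :
    iota c hc_add hc_smul φ = (φ, conjDual c hc_add hc_smul φ) := rfl

omit [Module ℂ V] in
include hc_add in
theorem c_zero : c 0 = 0 := by
  have := hc_add 0 0
  simpa using this

include hc_add hc_smul in
/-- The image of `Λ` under `iota` spans `V* × V*` over `ℂ`. -/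
theorem span_iota_eq_top [FiniteDimensional ℂ V] (Λ : Submodule ℤ (Module.Dual ℂ V))
    (hΛre : ∀ f : V, (∀ φ ∈ Λ, (φ f).re = 0) → f = 0) (hcc : ∀ f, c (c f) = f) :
    Submodule.span ℂ ((iota c hc_add hc_smul) '' (Λ : Set (Module.Dual ℂ V))) = ⊤ := by
  by_contra hne
  obtain ⟨F, hF0, hFker⟩ := Submodule.exists_le_ker_of_lt_top _ (lt_top_iff_ne_top.2 hne)
  apply hF0
  -- write `F (φ, ψ) = φ f + ψ h`
  set f : V := (Module.evalEquiv ℂ V).symm (F ∘ₗ LinearMap.inl ℂ _ _) with hf
  set h : V := (Module.evalEquiv ℂ V).symm (F ∘ₗ LinearMap.inr ℂ _ _) with hh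
  have hFform : ∀ φ ψ : Module.Dual ℂ V, F (φ, ψ) = φ f + ψ h := by
    intro φ ψ
    have e1 : φ f = F (φ, 0) := by
      rw [hf, Module.apply_evalEquiv_symm_apply]; simp
    have e2 : ψ h = F (0, ψ) := by
      rw [hh, Module.apply_evalEquiv_symm_apply]; simp
    rw [e1, e2, ← map_add]; simp
  have hkill : ∀ φ ∈ Λ, φ f + conj (φ (c h)) = 0 := by
    intro φ hφ
    have hmem : iota c hc_add hc_smul φ ∈
        Submodule.span ℂ ((iota c hc_add hc_smul) '' (Λ : Set (Module.Dual ℂ V))) :=
      Submodule.subset_span ⟨φ, hφ, rfl⟩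
    have := hFker hmem
    rw [LinearMap.mem_ker, iota_apply, hFform] at this
    simpa using this
  have h1 : f + c h = 0 := by
    apply hΛre
    intro φ hφ
    have := congrArg Complex.re (hkill φ hφ)
    simpa using this
  have h2 : Complex.I • (f - c h) = 0 := by
    apply hΛre
    intro φ hφ
    have := congrArg Complex.im (hkill φ hφ)
    simp at this
    simp
    linarith
  have h3 : f - c h = 0 := by
    rcases smul_eq_zero.1 h2 with h | h
    · exact absurd h Complex.I_ne_zero
    · exact h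
  have hf0 : f = 0 := by
    have : (2 : ℂ) • f = 0 := by
      have := congrArg₂ (· + ·) h1 h3
      simp only [add_zero] at this
      rw [two_smul]
      rw [← this]; abel
    rcases smul_eq_zero.1 this with h | h
    · exact absurd h two_ne_zero
    · exact h
  have hch0 : c h = 0 := by
    rw [hf0] at h1; simpa using h1
  have hh0 : h = 0 := by
    rw [← hcc h, hch0, c_zero c hc_add]
  refine LinearMap.ext fun w => ?_
  obtain ⟨φ, ψ⟩ := w
  rw [hFform, hf0, hh0]
  simp

end conjsec


theorem comp_sum' {V : Type*} [AddCommGroup V] [Module ℂ V] {ι : Type*} (s : Finset ι)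
    (φ : Module.Dual ℂ V) (x : ι → Module.End ℂ V) :
    φ ∘ₗ (∑ i ∈ s, x i) = ∑ i ∈ s, φ ∘ₗ x i := by
  ext f; simp

theorem sum_comp' {V : Type*} [AddCommGroup V] [Module ℂ V] {ι : Type*} (s : Finset ι)
    (φ : ι → Module.Dual ℂ V) (τ : Module.End ℂ V) :
    (∑ k ∈ s, φ k) ∘ₗ τ = ∑ k ∈ s, φ k ∘ₗ τ := by
  ext f; simp

/-- **LINALG1.** -/
theorem linearIndependent_complex_of_int
    {V : Type*} [AddCommGroup V] [Module ℂ V] [FiniteDimensional ℂ V]
    (T : Submodule ℤ (Module.End ℂ V))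
    (Λ : Submodule ℤ (Module.Dual ℂ V)) (hΛfg : Λ.FG)
    (hΛT : ∀ t ∈ T, ∀ φ ∈ Λ, φ ∘ₗ t ∈ Λ)
    (hΛrank : Module.finrank ℤ Λ ≤ 2 * Module.finrank ℂ V)
    (hΛre : ∀ f : V, (∀ φ ∈ Λ, (φ f).re = 0) → f = 0)
    (c : V → V) (hc_add : ∀ f g, c (f + g) = c f + c g)
    (hc_smul : ∀ (a : ℂ) (f : V), c (a • f) = conj a • c f)
    (hcc : ∀ f, c (c f) = f)
    (hcT : ∀ t ∈ T, ∀ f, c (t f) = t (c f))
    {n : ℕ} (t : Fin n → Module.End ℂ V) (ht : ∀ i, t i ∈ T)
    (hind : LinearIndependent ℤ t) : LinearIndependent ℂ t := by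
  classical
  -- `Λ` is free of finite rank
  have : Module.Finite ℤ Λ := Module.Finite.iff_fg.2 hΛfg
  set s := Module.finrank ℤ Λ with hs_def
  let b : Basis (Fin s) ℤ Λ := Module.finBasis ℤ Λ
  let ι := iota c hc_add hc_smul
  let B : Fin s → Module.Dual ℂ V × Module.Dual ℂ V := fun j => ι (b j : Module.Dual ℂ V)
  -- `ι` commutes with integer scalars
  have hι_zsmul : ∀ (z : ℤ) (φ : Module.Dual ℂ V), ι (z • φ) = (z : ℂ) • ι φ := by
    intro z φ
    rw [map_zsmul]
    exact (Int.cast_smul_eq_zsmul ℂ z (ι φ)).symm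
  -- expansion of `ι φ` for `φ ∈ Λ`
  have hι_expand : ∀ φ : Λ, ι (φ : Module.Dual ℂ V) = ∑ k, ((b.repr φ k : ℤ) : ℂ) • B k := by
    intro φ
    have h1 : (φ : Module.Dual ℂ V) = ∑ k, (b.repr φ k) • (b k : Module.Dual ℂ V) := by
      have := b.sum_repr φ
      have h2 := congrArg (fun x : Λ => (x : Module.Dual ℂ V)) this
      simp only [Submodule.coe_sum, Submodule.coe_smul] at h2
      exact h2.symm
    conv_lhs => rw [h1]
    rw [map_sum]
    exact Finset.sum_congr rfl fun k _ => hι_zsmul _ _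
  -- `B` spans
  have hBspan : Submodule.span ℂ (Set.range B) = ⊤ := by
    rw [eq_top_iff, ← span_iota_eq_top c hc_add hc_smul Λ hΛre hcc]
    refine Submodule.span_le.2 ?_
    rintro _ ⟨φ, hφ, rfl⟩
    have := hι_expand ⟨φ, hφ⟩
    change ι φ ∈ _
    rw [this]
    exact Submodule.sum_mem _ fun k _ =>
      Submodule.smul_mem _ _ (Submodule.subset_span ⟨k, rfl⟩)
  have hfrW : Module.finrank ℂ (Module.Dual ℂ V × Module.Dual ℂ V) = 2 * Module.finrank ℂ V := by
    rw [Module.finrank_prod, Subspace.dual_finrank_eq]; ring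
  have hcard : Fintype.card (Fin s) = Module.finrank ℂ (Module.Dual ℂ V × Module.Dual ℂ V) := by
    have h1 := finrank_le_of_span_eq_top hBspan
    rw [Fintype.card_fin] at h1 ⊢
    omega
  have hBind : LinearIndependent ℂ B :=
    linearIndependent_of_top_le_span_of_card_eq_finrank (le_of_eq hBspan.symm) hcard
  -- the integer matrices
  have hmem : ∀ (i : Fin n) (j : Fin s), (b j : Module.Dual ℂ V) ∘ₗ t i ∈ Λ :=
    fun i j => hΛT _ (ht i) _ (b j).2
  let m : Fin n → (Fin s × Fin s) → ℤ := fun i kj =>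
    b.repr ⟨(b kj.2 : Module.Dual ℂ V) ∘ₗ t i, hmem i kj.2⟩ kj.1
  have hm_expand : ∀ (i : Fin n) (j : Fin s),
      (b j : Module.Dual ℂ V) ∘ₗ t i = ∑ k, m i (k, j) • (b k : Module.Dual ℂ V) := by
    intro i j
    have := b.sum_repr ⟨(b j : Module.Dual ℂ V) ∘ₗ t i, hmem i j⟩
    have h2 := congrArg (fun x : Λ => (x : Module.Dual ℂ V)) this
    simp only [Submodule.coe_sum, Submodule.coe_smul] at h2
    exact h2.symm
  -- `m` is `ℤ`-linearly independent
  have hm : LinearIndependent ℤ m := by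
    rw [Fintype.linearIndependent_iff]
    intro z hz
    refine Fintype.linearIndependent_iff.1 hind z ?_
    -- `τ = ∑ z i • t i` is zero
    have hbτ : ∀ j : Fin s, (b j : Module.Dual ℂ V) ∘ₗ (∑ i, z i • t i) = 0 := by
      intro j
      rw [comp_sum']
      have : ∀ i, (b j : Module.Dual ℂ V) ∘ₗ (z i • t i)
          = ∑ k, (z i * m i (k, j)) • (b k : Module.Dual ℂ V) := by
        intro i
        rw [LinearMap.comp_smul, hm_expand, Finset.smul_sum]
        exact Finset.sum_congr rfl fun k _ => by rw [smul_smul]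
      simp_rw [this]
      rw [Finset.sum_comm]
      refine Finset.sum_eq_zero fun k _ => ?_
      rw [← Finset.sum_smul]
      have hzk := congrFun hz (k, j)
      simp only [Finset.sum_apply, Pi.smul_apply, smul_eq_mul, Pi.zero_apply] at hzk
      rw [hzk, zero_smul]
    have hφτ : ∀ φ ∈ Λ, φ ∘ₗ (∑ i, z i • t i) = 0 := by
      intro φ hφ
      have h1 : φ = ∑ k, (b.repr ⟨φ, hφ⟩ k) • (b k : Module.Dual ℂ V) := by
        have := b.sum_repr ⟨φ, hφ⟩
        have h2 := congrArg (fun x : Λ => (x : Module.Dual ℂ V)) this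
        simp only [Submodule.coe_sum, Submodule.coe_smul] at h2
        exact h2.symm
      rw [h1, sum_comp']
      refine Finset.sum_eq_zero fun k _ => ?_
      rw [LinearMap.smul_comp, hbτ, smul_zero]
    refine LinearMap.ext fun f => ?_
    rw [LinearMap.zero_apply]
    apply hΛre
    intro φ hφ
    have := congrArg (fun g : Module.Dual ℂ V => g f) (hφτ φ hφ)
    simp only [LinearMap.comp_apply, LinearMap.zero_apply] at this
    rw [this]; rfl
  have hmC := linearIndependent_intCast m hm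
  rw [Fintype.linearIndependent_iff] at hmC ⊢
  intro cc hcc0
  apply hmC cc
  funext kj
  obtain ⟨k, j⟩ := kj
  simp only [Finset.sum_apply, Pi.smul_apply, smul_eq_mul, Pi.zero_apply]
  -- the key computation
  have hιt : ∀ i, ι ((b j : Module.Dual ℂ V) ∘ₗ t i)
      = ((b j : Module.Dual ℂ V) ∘ₗ t i,
          (conjDual c hc_add hc_smul (b j : Module.Dual ℂ V)) ∘ₗ t i) := by
    intro i
    change (_, _) = _
    congr 1
    ext f
    simp [hcT _ (ht i)]
  have hzero : ∑ i, cc i • ι ((b j : Module.Dual ℂ V) ∘ₗ t i) = 0 := by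
    simp_rw [hιt]
    have h1 : ∑ i, cc i • ((b j : Module.Dual ℂ V) ∘ₗ t i) = 0 := by
      simp_rw [← LinearMap.comp_smul]
      rw [← comp_sum', hcc0, LinearMap.comp_zero]
    have h2 : ∑ i, cc i • ((conjDual c hc_add hc_smul (b j : Module.Dual ℂ V)) ∘ₗ t i) = 0 := by
      simp_rw [← LinearMap.comp_smul]
      rw [← comp_sum', hcc0, LinearMap.comp_zero]
    have : ∀ i, cc i • (((b j : Module.Dual ℂ V) ∘ₗ t i),
        ((conjDual c hc_add hc_smul (b j : Module.Dual ℂ V)) ∘ₗ t i))
        = (cc i • ((b j : Module.Dual ℂ V) ∘ₗ t i),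
            cc i • ((conjDual c hc_add hc_smul (b j : Module.Dual ℂ V)) ∘ₗ t i)) := fun i => rfl
    simp_rw [this]
    rw [Prod.ext_iff]
    simp only [Prod.fst_sum, Prod.snd_sum, Prod.fst_zero, Prod.snd_zero]
    exact ⟨h1, h2⟩
  have hexp : ∀ i, ι ((b j : Module.Dual ℂ V) ∘ₗ t i) = ∑ k, ((m i (k, j) : ℤ) : ℂ) • B k :=
    fun i => hι_expand ⟨_, hmem i j⟩
  simp_rw [hexp, Finset.smul_sum, smul_smul] at hzero
  rw [Finset.sum_comm] at hzero
  simp_rw [← Finset.sum_smul] at hzero
  exact Fintype.linearIndependent_iff.1 hBind _ hzero k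

end Fermat.Agent.S23_helper21_LINALG1
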