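import Mathlib
import Fermat.Prelude.Def_CuspForm_HeckeAlgebra
import Fermat.Prelude.Def_FLTPrelim_Modularity
import Fermat.Prelude.Thm_ModularFormClass_qCoeff_heckeT
import Fermat.Prelude.Thm_ModularFormClass_qCoeff_heckeU
import Fermat.Prelude.Thm_CongruenceSubgroup_one_mem_strictPeriods_Gamma0

/-!
# S23 piece HCONJ: the Hecke algebra commutes with conjugation of `q`-coefficients
-/

set_option autoImplicit false

open CongruenceSubgroup UpperHalfPlane ModularFormClass CuspForm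
open scoped MatrixGroups ComplexConjugate

namespace Fermat.Agent.S23_helper24_HCONJ

noncomputable section

variable {N : ℕ} {k : ℤ}

theorem hGam (N : ℕ) :
    (1 : ℝ) ∈ (Subgroup.map (Matrix.SpecialLinearGroup.mapGL ℝ) (Gamma0 N)).strictPeriods :=
  CongruenceSubgroup.one_mem_strictPeriods_Gamma0 N

theorem qc_add (f g : CuspForm (Gamma0 N) k) (n : ℕ) :
    qCoeff ⇑(f + g) n = qCoeff ⇑f n + qCoeff ⇑g n := by
  simp only [qCoeff, FunLike.coe_add]
  rw [ModularForm.qExpansion_add one_pos (hGam N) f g, map_add]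

theorem qc_smul (c : ℂ) (f : CuspForm (Gamma0 N) k) (n : ℕ) :
    qCoeff ⇑(c • f) n = c * qCoeff ⇑f n := by
  have h1 : ⇑(c • f) = c • ⇑f := by
    ext z
    simp
  simp only [qCoeff, h1]
  rw [ModularForm.qExpansion_smul one_pos (hGam N) c f]
  simp

theorem qc_zsmul (c : ℤ) (f : CuspForm (Gamma0 N) k) (n : ℕ) :
    qCoeff ⇑(c • f) n = c * qCoeff ⇑f n := by
  have : c • f = (c : ℂ) • f := by
    rw [Int.cast_smul_eq_zsmul]
  rw [this, qc_smul]

theorem qc_heckeT {p : ℕ} (hp : p.Prime) (hpN : ¬ p ∣ N) (f : CuspForm (Gamma0 N) k) (n : ℕ) :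
    qCoeff ⇑(heckeTLin k hp hpN f) n =
      qCoeff ⇑f (n * p) + if p ∣ n then (p : ℂ) ^ (k - 1) * qCoeff ⇑f (n / p) else 0 := by
  rw [CuspForm.coe_heckeTLin_apply, ModularFormClass.qCoeff_heckeT f (hGam N) hp.ne_zero,
    ModularForm.coeffHeckeT_apply]

theorem qc_heckeU [NeZero N] {p : ℕ} (hp : p.Prime) (hpN : p ∣ N) (f : CuspForm (Gamma0 N) k)
    (n : ℕ) : qCoeff ⇑(heckeULin k hpN f) n = qCoeff ⇑f (n * p) := by
  rw [CuspForm.coe_heckeULin_apply, ModularFormClass.qCoeff_heckeU f (hGam N) hp.ne_zero,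
    ModularForm.coeffHeckeU_apply]

theorem conj_hecke (N : ℕ) [NeZero N] (k : ℤ) (S : Set ℕ)
    {t : Module.End ℂ (CuspForm (Gamma0 N) k)} (ht : t ∈ CuspForm.heckeAlgebra N k S)
    {f g : CuspForm (Gamma0 N) k}
    (h : ∀ n : ℕ, ModularFormClass.qCoeff g n = conj (ModularFormClass.qCoeff f n)) :
    ∀ n : ℕ, ModularFormClass.qCoeff (t g) n = conj (ModularFormClass.qCoeff (t f) n) := by
  induction ht using Algebra.adjoin_induction generalizing f g with
  | mem t ht =>
    rcases ht with ⟨ℓ, hℓ, hℓN, -, rfl⟩ | ⟨q, hqN, hq, -, rfl⟩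
    · intro n
      rw [qc_heckeT, qc_heckeT, h, map_add]
      congr 1
      split_ifs
      · rw [h, map_mul, map_zpow₀, Complex.conj_natCast]
      · simp
    · intro n
      rw [qc_heckeU hq, qc_heckeU hq, h]
  | algebraMap r =>
    intro n
    have h1 : ∀ F : CuspForm (Gamma0 N) k,
        (algebraMap ℤ (Module.End ℂ (CuspForm (Gamma0 N) k)) r) F = r • F := by
      intro F
      rw [Algebra.algebraMap_eq_smul_one]
      simp
    rw [h1, h1, qc_zsmul, qc_zsmul, h, map_mul, map_intCast]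
  | add t₁ t₂ _ _ h₁ h₂ =>
    intro n
    rw [LinearMap.add_apply, LinearMap.add_apply, qc_add, qc_add, h₁ h n, h₂ h n, map_add]
  | mul t₁ t₂ _ _ h₁ h₂ =>
    intro n
    rw [Module.End.mul_apply, Module.End.mul_apply]
    exact h₁ (h₂ h) n

end

end Fermat.Agent.S23_helper24_HCONJ
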