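import Mathlib

set_option autoImplicit false

/-!
# S23, piece LINALG2: dual basis argument

Pure linear algebra: a commutative, finitely generated `ℤ`-algebra `T` of endomorphisms of a
finite-dimensional `ℂ`-vector space `V`, whose `ℤ`-independent families are `ℂ`-independent,
together with a functional `a₁` separating `V` through `T`, yields a `ℂ`-spanning set of
"integral" vectors.
-/

open Module

namespace Fermat.Agent.S23_helper28_LINALG2

/-- A complex vector space is torsion-free as a `ℤ`-module. -/
theorem isTorsionFree_int_of_complex (W : Type*) [AddCommGroup W] [Module ℂ W] :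
    Module.IsTorsionFree ℤ W where
  isSMulRegular r hr := by
    intro x y hxy
    have hr0 : (r : ℂ) ≠ 0 := by exact_mod_cast hr.ne_zero
    have h : (r : ℂ) • x = (r : ℂ) • y := by
      rw [Int.cast_smul_eq_zsmul, Int.cast_smul_eq_zsmul]
      exact hxy
    exact smul_right_injective W hr0 h

theorem span_integral_eq_top_of_indep
    {V : Type*} [AddCommGroup V] [Module ℂ V] [FiniteDimensional ℂ V]
    (T : Subalgebra ℤ (Module.End ℂ V)) (hTcomm : ∀ s ∈ T, ∀ t ∈ T, s * t = t * s)
    (hTfin : Module.Finite ℤ T)
    (hind : ∀ (n : ℕ) (t : Fin n → Module.End ℂ V), (∀ i, t i ∈ T) →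
      LinearIndependent ℤ t → LinearIndependent ℂ t)
    (a₁ : Module.Dual ℂ V) (ha : ∀ f : V, (∀ t ∈ T, a₁ (t f) = 0) → f = 0) :
    Submodule.span ℂ {f : V | ∀ t ∈ T, ∃ m : ℤ, a₁ (t f) = m} = ⊤ := by
  classical
  -- `T` is a free `ℤ`-module
  have hTF : Module.IsTorsionFree ℤ (Module.End ℂ V) := isTorsionFree_int_of_complex _
  have hTF' : Module.IsTorsionFree ℤ T :=
    Function.Injective.moduleIsTorsionFree (fun x : T => (x : Module.End ℂ V))
      Subtype.val_injective (fun _ _ => rfl)
  have hfree : Module.Free ℤ T := Module.free_of_finite_type_torsion_free'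
  set r := finrank ℤ T with hr
  let b : Basis (Fin r) ℤ T := Module.finBasis ℤ T
  let t : Fin r → Module.End ℂ V := fun i => (b i : Module.End ℂ V)
  have htT : ∀ i, t i ∈ T := fun i => (b i).2
  have htZ : LinearIndependent ℤ t := by
    have h1 : LinearIndependent ℤ (fun i => b i) := b.linearIndependent
    have h2 := h1.map' (Subalgebra.toSubmodule T).subtype (Submodule.ker_subtype _)
    exact h2
  have htC : LinearIndependent ℂ t := hind r t htT htZ
  -- every element of `T` is an integral combination of the `t i`
  have hrepr : ∀ s ∈ T, ∃ n : Fin r → ℤ, s = ∑ j, n j • t j := by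
    intro s hs
    refine ⟨fun j => b.repr ⟨s, hs⟩ j, ?_⟩
    have h1 := b.sum_repr ⟨s, hs⟩
    calc s = (Subalgebra.toSubmodule T).subtype ⟨s, hs⟩ := rfl
      _ = (Subalgebra.toSubmodule T).subtype (∑ i, (b.repr ⟨s, hs⟩) i • b i) := by rw [h1]
      _ = ∑ j, (b.repr ⟨s, hs⟩) j • t j := by
        rw [map_sum]
        refine Finset.sum_congr rfl fun j _ => ?_
        rw [map_zsmul]
        rfl
  -- the functionals
  let φ : Fin r → Module.Dual ℂ V := fun i => a₁ ∘ₗ t i
  have hφ : LinearIndependent ℂ φ := by
    rw [Fintype.linearIndependent_iff]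
    intro c hc
    have hX : ∑ i, c i • t i = 0 := by
      refine LinearMap.ext fun f => ?_
      rw [LinearMap.zero_apply]
      refine ha _ fun t' ht' => ?_
      have h1 : a₁ (t' ((∑ i, c i • t i) f)) = (∑ i, c i • φ i) (t' f) := by
        simp only [LinearMap.sum_apply, LinearMap.smul_apply, map_sum, map_smul, φ,
          LinearMap.comp_apply]
        refine Finset.sum_congr rfl fun i _ => ?_
        congr 2
        have := hTcomm t' ht' (t i) (htT i)
        exact congrArg (fun g : Module.End ℂ V => g f) this
      rw [h1, hc, LinearMap.zero_apply]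
    exact Fintype.linearIndependent_iff.mp htC c hX
  -- the evaluation map
  let E : V →ₗ[ℂ] (Fin r → ℂ) := LinearMap.pi φ
  have hEapply : ∀ f i, E f i = a₁ (t i f) := fun f i => rfl
  have hEinj : ∀ f, E f = 0 → f = 0 := by
    intro f hf
    refine ha f fun s hs => ?_
    obtain ⟨n, rfl⟩ := hrepr s hs
    simp only [LinearMap.sum_apply, LinearMap.smul_apply, map_sum, map_zsmul]
    refine Finset.sum_eq_zero fun j _ => ?_
    have := congrFun hf j
    rw [hEapply] at this
    rw [this]
    simp
  have hEsurj : Function.Surjective E := by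
    rw [← LinearMap.dualMap_injective_iff]
    intro u v huv
    -- functionals on `Fin r → ℂ` are determined by their values on the standard basis
    have hu : ∀ w : Module.Dual ℂ (Fin r → ℂ),
        E.dualMap w = ∑ i, w (fun j => if i = j then 1 else 0) • φ i := by
      intro w
      refine LinearMap.ext fun f => ?_
      rw [LinearMap.dualMap_apply, LinearMap.pi_apply_eq_sum_univ w (E f)]
      simp only [LinearMap.sum_apply, LinearMap.smul_apply, smul_eq_mul]
      refine Finset.sum_congr rfl fun i _ => ?_
      rw [mul_comm]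
      rfl
    have h1 : ∑ i, (u (fun j => if i = j then 1 else 0) -
        v (fun j => if i = j then 1 else 0)) • φ i = 0 := by
      simp only [sub_smul, Finset.sum_sub_distrib]
      rw [← hu, ← hu, huv, sub_self]
    have h2 := Fintype.linearIndependent_iff.mp hφ _ h1
    refine LinearMap.ext fun w => ?_
    rw [LinearMap.pi_apply_eq_sum_univ u w, LinearMap.pi_apply_eq_sum_univ v w]
    refine Finset.sum_congr rfl fun i _ => ?_
    rw [sub_eq_zero.mp (h2 i)]
  -- the dual basis
  choose F hF using fun i : Fin r => hEsurj (fun j => if i = j then 1 else 0)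
  have hFmem : ∀ i, F i ∈ {f : V | ∀ t ∈ T, ∃ m : ℤ, a₁ (t f) = m} := by
    intro i s hs
    obtain ⟨n, rfl⟩ := hrepr s hs
    refine ⟨n i, ?_⟩
    simp only [LinearMap.sum_apply, LinearMap.smul_apply, map_sum, map_zsmul]
    have h1 : ∀ j, a₁ (t j (F i)) = if i = j then 1 else 0 := by
      intro j
      rw [← hEapply, hF i]
    simp only [h1]
    simp
  rw [eq_top_iff]
  intro f _
  have hf : f = ∑ i, E f i • F i := by
    rw [← sub_eq_zero]
    apply hEinj
    rw [map_sub, map_sum]
    simp only [map_smul, hF]
    rw [sub_eq_zero]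
    exact pi_eq_sum_univ (E f)
  rw [hf]
  exact Submodule.sum_mem _ fun i _ => Submodule.smul_mem _ _ (Submodule.subset_span (hFmem i))

end Fermat.Agent.S23_helper28_LINALG2
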