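import Fermat.Agent.S23_helper12_Rank
import Fermat.Agent.S22
import Fermat.Agent.S20
import Fermat.Agent.S21_helper28_P5
import Fermat.Agent.S23_helper28_LINALG2
import Fermat.Agent.S23_helper28_HCOEF
import Fermat.Agent.S23_helper1_CONJ
import Fermat.Agent.S23_helper24_HCONJ
import Fermat.Agent.S23_helper21_LINALG1
import Fermat.Prelude.Def_CuspForm_IntegralStructure

set_option autoImplicit false

/-!
# S23: final assembly

`S₂(Γ₀(N))` has an integral structure.  Inputs: the period lattice of S22 (finitely generated,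
Hecke stable), its rank bound (S21 P5 + S20), the key lemma on real periods (S21 Prim + MM),
the conjugation of `q`-expansions (CONJ, HCONJ), the Hecke coefficient functionals (HCOEF) and
the two linear algebra pieces LINALG1, LINALG2.
-/

namespace Fermat.Agent.S23_helper12_Asm

open Complex CongruenceSubgroup ModularCurve ModularCurve.Period
open UpperHalfPlane hiding I
open scoped MatrixGroups ModularForm ComplexConjugate
open Fermat.Agent.S22 Fermat.Agent.S23_helper12_Bridge Fermat.Agent.S23_helper12_Rank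


noncomputable section

variable (N : ℕ) [NeZero N]

/-- A weight two cusp form is determined by its `q`-coefficients of positive index. -/
theorem eq_zero_of_qCoeff (f : CuspForm (Gamma0 N) 2)
    (h : ∀ n : ℕ, 1 ≤ n → ModularFormClass.qCoeff f n = 0) : f = 0 := by
  ext τ
  rw [← eis_coeffs_zero f τ]
  have : ∀ n, eterm (coeffs f) 0 n (τ : ℂ) = 0 := by
    intro n
    rcases Nat.eq_zero_or_pos n with rfl | hn
    · simp [eterm, coeffs_zero_eq f]
    · simp [eterm, coeffs, h n hn]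
  simp [eis, this]

theorem eq_of_qCoeff_eq (f g : CuspForm (Gamma0 N) 2)
    (h : ∀ n : ℕ, ModularFormClass.qCoeff f n = ModularFormClass.qCoeff g n) : f = g := by
  rw [← sub_eq_zero]
  refine eq_zero_of_qCoeff N _ fun n _ => ?_
  have h1 : coeffs (f - g) = coeffs f - coeffs g := by
    rw [sub_eq_add_neg, coeffs_add, show -g = (-1 : ℂ) • g by simp, coeffs_smul]
    ext n
    simp [sub_eq_add_neg]
  have h2 := congrFun h1 n
  simp only [coeffs, Pi.sub_apply] at h2
  rw [h2, h n, sub_self]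

/-- the first `q`-coefficient as a linear functional -/
def a1 : Module.Dual ℂ (CuspForm (Gamma0 N) 2) where
  toFun f := ModularFormClass.qCoeff f 1
  map_add' f g := congrFun (coeffs_add f g) 1
  map_smul' c f := congrFun (coeffs_smul c f) 1

/-- the conjugate cusp form -/
def cj (f : CuspForm (Gamma0 N) 2) : CuspForm (Gamma0 N) 2 :=
  (S23_helper1_CONJ.exists_conj_cuspForm N 2 f).choose

theorem qCoeff_cj (f : CuspForm (Gamma0 N) 2) (n : ℕ) :
    ModularFormClass.qCoeff (cj N f) n = conj (ModularFormClass.qCoeff f n) :=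
  (S23_helper1_CONJ.exists_conj_cuspForm N 2 f).choose_spec n

theorem cj_add (f g : CuspForm (Gamma0 N) 2) : cj N (f + g) = cj N f + cj N g := by
  refine eq_of_qCoeff_eq N _ _ fun n => ?_
  have h1 := congrFun (coeffs_add f g) n
  have h2 := congrFun (coeffs_add (cj N f) (cj N g)) n
  simp only [coeffs, Pi.add_apply] at h1 h2
  rw [qCoeff_cj, h2, qCoeff_cj, qCoeff_cj, h1, map_add]

theorem cj_smul (a : ℂ) (f : CuspForm (Gamma0 N) 2) : cj N (a • f) = conj a • cj N f := by
  refine eq_of_qCoeff_eq N _ _ fun n => ?_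
  have h1 := congrFun (coeffs_smul a f) n
  have h2 := congrFun (coeffs_smul (conj a) (cj N f)) n
  simp only [coeffs, Pi.smul_apply, smul_eq_mul] at h1 h2
  rw [qCoeff_cj, h2, qCoeff_cj, h1, map_mul]

theorem cj_cj (f : CuspForm (Gamma0 N) 2) : cj N (cj N f) = f := by
  refine eq_of_qCoeff_eq N _ _ fun n => ?_
  rw [qCoeff_cj, qCoeff_cj, Complex.conj_conj]

theorem cj_hecke {t : Module.End ℂ (CuspForm (Gamma0 N) 2)}
    (ht : t ∈ CuspForm.heckeAlgebra N 2 ∅) (f : CuspForm (Gamma0 N) 2) :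
    cj N (t f) = t (cj N f) := by
  refine eq_of_qCoeff_eq N _ _ fun n => ?_
  rw [qCoeff_cj, S23_helper24_HCONJ.conj_hecke N 2 ∅ ht (f := f) (g := cj N f) (qCoeff_cj N f) n]

theorem Lam_stable {t : Module.End ℂ (CuspForm (Gamma0 N) 2)}
    (ht : t ∈ CuspForm.heckeAlgebra N 2 ∅) {φ : CuspForm (Gamma0 N) 2 →ₗ[ℂ] ℂ}
    (hφ : φ ∈ Lam N 2 0) : φ ∘ₗ t ∈ Lam N 2 0 :=
  comp_mem_of_mem_adjoin (CuspForm.heckeGenerators N 2 ∅) (Lam N 2 0)
    (fun _ hT _ hφ => comp_mem_Lam_of_mem_heckeGenerators 0 two_eq ∅ hT hφ) ht φ hφ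

theorem finrank_Lam_le_two_mul :
    Module.finrank ℤ ↥(Lam N 2 0) ≤ 2 * Module.finrank ℂ (CuspForm (Gamma0 N) 2) := by
  obtain ⟨hfin, hle⟩ := S21_helper28_P5.P5 N
  have h1 := finrank_Lam_le N hfin
  have h2 := Fermat.Agent.S20.result N
  have h3 : (Module.finrank ℤ ↥(Lam N 2 0) : ℚ)
      ≤ 2 * (Module.finrank ℂ (CuspForm (Gamma0 N) 2) : ℚ) := by
    rw [h2]
    exact le_trans (by exact_mod_cast h1) hle
  exact_mod_cast h3

theorem a1_separates (f : CuspForm (Gamma0 N) 2)
    (h : ∀ t ∈ CuspForm.heckeAlgebra N 2 ∅, a1 N (t f) = 0) : f = 0 := by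
  refine eq_zero_of_qCoeff N f fun n hn => ?_
  obtain ⟨t, ht, htf⟩ := S23_helper28_HCOEF.exists_hecke_coeff N 2 (by norm_num) n hn
  rw [← htf f]
  exact h t ht

theorem mem_intLattice_of_a1 (f : CuspForm (Gamma0 N) 2)
    (h : ∀ t ∈ CuspForm.heckeAlgebra N 2 ∅, ∃ m : ℤ, a1 N (t f) = m) :
    f ∈ CuspForm.intLattice N 2 := by
  refine Submodule.subset_span fun n => ?_
  rcases Nat.eq_zero_or_pos n with rfl | hn
  · exact ⟨0, by simpa [coeffs] using coeffs_zero_eq f⟩
  · obtain ⟨t, ht, htf⟩ := S23_helper28_HCOEF.exists_hecke_coeff N 2 (by norm_num) n hn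
    obtain ⟨m, hm⟩ := h t ht
    exact ⟨m, by rw [← htf f]; exact hm⟩

theorem hasIntegralStructure : CuspForm.HasIntegralStructure N 2 := by
  have hfd := finiteDimensional_cuspForm N
  have hind : ∀ (n : ℕ) (t : Fin n → Module.End ℂ (CuspForm (Gamma0 N) 2)),
      (∀ i, t i ∈ CuspForm.heckeAlgebra N 2 ∅) →
      LinearIndependent ℤ t → LinearIndependent ℂ t := by
    intro n t ht hind
    exact S23_helper21_LINALG1.linearIndependent_complex_of_int
      (Subalgebra.toSubmodule (CuspForm.heckeAlgebra N 2 ∅)) (Lam N 2 0) (Lam_fg N 0 two_eq)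
      (fun t ht φ hφ => Lam_stable N ht hφ) (finrank_Lam_le_two_mul N)
      (fun f hf => eq_zero_of_re_Lam f hf) (cj N) (cj_add N) (cj_smul N) (cj_cj N)
      (fun t ht f => cj_hecke N ht f) t ht hind
  have hcomm : ∀ s ∈ CuspForm.heckeAlgebra N 2 ∅, ∀ t ∈ CuspForm.heckeAlgebra N 2 ∅,
      s * t = t * s := by
    intro s hs t ht
    have := mul_comm (⟨s, hs⟩ : CuspForm.heckeAlgebra N 2 ∅) ⟨t, ht⟩
    exact congrArg Subtype.val this
  have hspan := S23_helper28_LINALG2.span_integral_eq_top_of_indep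
    (CuspForm.heckeAlgebra N 2 ∅) hcomm (Fermat.Agent.S22.result N 2 ∅) hind (a1 N)
    (a1_separates N)
  unfold CuspForm.HasIntegralStructure
  rw [eq_top_iff, ← hspan]
  exact Submodule.span_mono fun f hf => mem_intLattice_of_a1 N f hf

end

end Fermat.Agent.S23_helper12_Asm
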