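import Fermat.Agent.S16_helper3_CHI
import Fermat.Agent.S16_helper11_L5
import Fermat.Agent.S23
import Fermat.Prelude.Def_CuspForm_HeckeLocal

/-!
# S16, lower bound: assembly modulo the factorisation step (L4)

`LB_of_factor`: if every homomorphism `Γ₀(p) → ℤ/n` killing the elements of trace `0, ±1, ±2`
factors through the period homomorphism `perHom : Γ₀(p) → Λ`, then the Eisenstein character
`ε : ℤ[X_ℓ] → ℤ` maps the kernel of `ℤ[X_ℓ] → 𝕋` into `n ℤ`, `n = (p-1)/gcd(p-1,12)`.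
-/

set_option autoImplicit false

open CongruenceSubgroup ModularCurve CuspForm
open scoped MatrixGroups
open Fermat.Agent.S22 Fermat.Agent.S23_helper12_Rank

namespace Fermat.Agent.S16_helper3_LBCore

open Fermat.Agent.S16_helper3_CHI Fermat.Agent.S16_helper11_L5

/-- the kernel of `ℤ[X_ℓ] → 𝕋` acts as zero on cusp forms -/
theorem heckeEvalForms_eq_zero (p : ℕ) [Fact p.Prime] (t : HeckeAlg)
    (ht : ((latticeRestrictHom p ∅).toRingHom.comp (heckeEvalForms p 2)) t = 0) :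
    heckeEvalForms p 2 t = 0 := by
  have hinj := (latticeRestrictHom_bijective p ∅ (Fermat.Agent.S23.result p)).1
  apply hinj
  rw [map_zero]
  exact ht

/-- the Shimura character attached to a logarithm `L` -/
noncomputable def shimura (p : ℕ) [Fact p.Prime] {n : ℕ}
    (L : (ZMod p)ˣ →* Multiplicative (ZMod n)) : Additive (Gamma0 p) →+ ZMod n :=
  MonoidHom.toAdditiveLeft (L.comp (dUnit p))

theorem shimura_apply (p : ℕ) [Fact p.Prime] {n : ℕ}
    (L : (ZMod p)ˣ →* Multiplicative (ZMod n)) (γ : Gamma0 p) :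
    shimura p L (Additive.ofMul γ) = Multiplicative.toAdd (L (dUnit p γ)) := rfl

theorem shimura_eq_zero_of_trace (p : ℕ) [Fact p.Prime] {n : ℕ}
    (L : (ZMod p)ˣ →* Multiplicative (ZMod n)) (hL : ∀ x, x ^ 12 = 1 → L x = 1)
    (γ : Gamma0 p) (hγ : |((γ : SL(2, ℤ)) : Matrix (Fin 2) (Fin 2) ℤ).trace| ≤ 2) :
    shimura p L (Additive.ofMul γ) = 0 := by
  have hc : (p : ℤ) ∣ (γ : SL(2, ℤ)) 1 0 :=
    (ZMod.intCast_zmod_eq_zero_iff_dvd _ _).mp (Gamma0_mem.mp γ.2)
  have h12 := pow_twelve_eq_one_of_trace p (γ : SL(2, ℤ)) hc hγ (dUnit p γ) (val_dUnit p γ)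
  rw [shimura_apply, hL _ h12]
  rfl

theorem dUnit_surjective (p : ℕ) [Fact p.Prime] : Function.Surjective (dUnit p) := by
  intro u
  obtain ⟨γ, hγ⟩ := exists_mem_Gamma0_entry p u
  exact ⟨γ, Units.ext (by rw [val_dUnit, hγ])⟩

/-- **Lower bound, modulo the factorisation step.** -/
theorem LB_of_factor (p : ℕ) [Fact p.Prime]
    (hfac : ∀ ψ : Additive (Gamma0 p) →+ ZMod (eisensteinNumerator p),
      (∀ γ : Gamma0 p, |((γ : SL(2, ℤ)) : Matrix (Fin 2) (Fin 2) ℤ).trace| ≤ 2 →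
        ψ (Additive.ofMul γ) = 0) →
      ∃ ξ : ↥(Lam p 2 0) →+ ZMod (eisensteinNumerator p), ∀ γ, ψ γ = ξ (perHom p γ))
    (t : HeckeAlg)
    (ht : ((latticeRestrictHom p ∅).toRingHom.comp (heckeEvalForms p 2)) t = 0) :
    ((eisensteinNumerator p : ℕ) : ℤ) ∣ MvPolynomial.aeval (eisensteinSystem p) t := by
  obtain ⟨L, hLsurj, hL12⟩ := exists_log p
  obtain ⟨ξ, hξ⟩ := hfac (shimura p L) (fun γ hγ => shimura_eq_zero_of_trace p L hL12 γ hγ)
  have h : ∀ γ : Gamma0 p,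
      ξ (perHom p (Additive.ofMul γ)) = Multiplicative.toAdd (L (dUnit p γ)) := fun γ => by
    rw [← hξ, shimura_apply]
  have hsurj : Function.Surjective ξ := by
    intro y
    obtain ⟨u, hu⟩ := hLsurj (Multiplicative.ofAdd y)
    obtain ⟨γ, rfl⟩ := dUnit_surjective p u
    refine ⟨perHom p (Additive.ofMul γ), ?_⟩
    rw [h γ, hu]
    rfl
  exact dvd_eisenstein_of_surjective' p ξ L h hsurj (heckeEvalForms_eq_zero p t ht)

end Fermat.Agent.S16_helper3_LBCore
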