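import Mathlib
import Fermat.Prelude.Def_CuspForm_HeckeLocal
import Fermat.Prelude.Def_CuspForm_HeckeEvalForms
import Fermat.Prelude.Def_HeckeGalois_EichlerShimura
import Fermat.Prelude.Def_ModularCurve_ModularUnit

/-!
# S16, reduction block: steps (A) and (F)

* (A) the structure map `ℤ[X_ℓ] → 𝕋` is surjective, the Eisenstein character `ε : ℤ[X_ℓ] → ℤ` is
  surjective with kernel the Eisenstein ideal;
* (F) `exists_ker_eq_of_bounds`: if `ε(ker π) ⊆ nℤ` and every `k ≥ 1` with `ε(ker π) ⊆ kℤ`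
  divides `n`, then `n ∈ ε(ker π)`.
-/

set_option autoImplicit false

open CongruenceSubgroup ModularCurve CuspForm

namespace Fermat.Agent.S16_helper3_REDA

/-! ### (A) surjectivity -/

theorem heckeGenerators_subset_range (N : ℕ) [NeZero N] (k : ℤ) :
    heckeGenerators N k ∅ ⊆
      Set.range (fun ℓ : Nat.Primes =>
        ((heckeFormsGen N k ℓ : heckeAlgebra N k ∅) :
          Module.End ℂ (CuspForm (Gamma0 N) k))) := by
  rintro T (⟨ℓ, hℓ, hℓN, -, rfl⟩ | ⟨q, hqN, hq, -, rfl⟩)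
  · refine ⟨⟨ℓ, hℓ⟩, ?_⟩
    show ((heckeFormsGen N k ⟨ℓ, hℓ⟩ : heckeAlgebra N k ∅) :
      Module.End ℂ (CuspForm (Gamma0 N) k)) = _
    rw [heckeFormsGen_of_not_dvd (show ¬ ((⟨ℓ, hℓ⟩ : Nat.Primes) : ℕ) ∣ N from hℓN)]
    rfl
  · refine ⟨⟨q, hq⟩, ?_⟩
    show ((heckeFormsGen N k ⟨q, hq⟩ : heckeAlgebra N k ∅) :
      Module.End ℂ (CuspForm (Gamma0 N) k)) = _
    rw [heckeFormsGen_of_dvd (show ((⟨q, hq⟩ : Nat.Primes) : ℕ) ∣ N from hqN)]
    rfl

theorem heckeEvalForms_surjective (N : ℕ) [NeZero N] (k : ℤ) :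
    Function.Surjective (heckeEvalForms N k) := by
  rintro ⟨T, hT⟩
  -- the set of `T` in the image of `val ∘ aeval`
  have key : ∀ T ∈ heckeAlgebra N k ∅, ∃ P : HeckeAlg,
      ((heckeEvalForms N k P : heckeAlgebra N k ∅) : Module.End ℂ (CuspForm (Gamma0 N) k)) = T := by
    intro T hT
    induction hT using Algebra.adjoin_induction with
    | mem x hx =>
      obtain ⟨ℓ, rfl⟩ := heckeGenerators_subset_range N k hx
      exact ⟨heckeGen ℓ, by rw [heckeEvalForms_heckeGen]⟩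
    | algebraMap r =>
      refine ⟨MvPolynomial.C r, ?_⟩
      rw [heckeEvalForms_C]
      rfl
    | add x y _ _ hx hy =>
      obtain ⟨P, rfl⟩ := hx
      obtain ⟨Q, rfl⟩ := hy
      exact ⟨P + Q, by rw [map_add]; rfl⟩
    | mul x y _ _ hx hy =>
      obtain ⟨P, rfl⟩ := hx
      obtain ⟨Q, rfl⟩ := hy
      exact ⟨P * Q, by rw [map_mul]; rfl⟩
  obtain ⟨P, hP⟩ := key T hT
  exact ⟨P, Subtype.ext hP⟩

/-- **(A)** the structure map `ℤ[X_ℓ] → 𝕋` of the statement of S16 is surjective -/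
theorem piHom_surjective (p : ℕ) [Fact p.Prime] :
    Function.Surjective ((latticeRestrictHom p ∅).toRingHom.comp (heckeEvalForms p 2)) := by
  intro x
  obtain ⟨t, rfl⟩ := latticeRestrictHom_surjective p ∅ x
  obtain ⟨P, rfl⟩ := heckeEvalForms_surjective p 2 t
  exact ⟨P, rfl⟩

theorem eps_surjective (a : Nat.Primes → ℤ) :
    Function.Surjective (MvPolynomial.aeval (R := ℤ) a) := fun z =>
  ⟨MvPolynomial.C z, by rw [MvPolynomial.aeval_C]; rfl⟩

theorem ker_eps (p : ℕ) :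
    RingHom.ker (MvPolynomial.aeval (R := ℤ) (eisensteinSystem p)) = eisensteinIdeal p := rfl

/-! ### (F) the generator argument -/

/-- **(F)** -/
theorem exists_ker_eq_of_bounds {A T : Type*} [CommRing A] [CommRing T] (π : A →+* T)
    (ε : A →+* ℤ) (hε : Function.Surjective ε) (n : ℕ) (hn : 0 < n)
    (hL : ∀ t, π t = 0 → (n : ℤ) ∣ ε t)
    (hU : ∀ k : ℕ, 1 ≤ k → (∀ t, π t = 0 → (k : ℤ) ∣ ε t) → k ∣ n) :
    ∃ t, π t = 0 ∧ ε t = n := by
  set J : Ideal ℤ := Ideal.map ε (RingHom.ker π) with hJ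
  have hmem : ∀ z : ℤ, z ∈ J ↔ ∃ t, π t = 0 ∧ ε t = z := by
    intro z
    rw [hJ, Ideal.mem_map_iff_of_surjective ε hε]
    constructor
    · rintro ⟨t, ht, rfl⟩
      exact ⟨t, RingHom.mem_ker.mp ht, rfl⟩
    · rintro ⟨t, ht, rfl⟩
      exact ⟨t, RingHom.mem_ker.mpr ht, rfl⟩
  set g : ℤ := Submodule.IsPrincipal.generator J with hg
  have hspan : J = Ideal.span {g} := (Ideal.span_singleton_generator J).symm
  have hgJ : g ∈ J := Submodule.IsPrincipal.generator_mem J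
  have hdvd : ∀ t, π t = 0 → g ∣ ε t := by
    intro t ht
    have : ε t ∈ J := (hmem _).mpr ⟨t, ht, rfl⟩
    rw [hspan, Ideal.mem_span_singleton] at this
    exact this
  -- `g ≠ 0`
  have hg0 : g ≠ 0 := by
    intro h0
    have h1 : ∀ t, π t = 0 → ((n + 1 : ℕ) : ℤ) ∣ ε t := by
      intro t ht
      have := hdvd t ht
      rw [h0, zero_dvd_iff] at this
      rw [this]
      exact dvd_zero _
    have h2 := hU (n + 1) (by omega) h1
    have h3 := Nat.le_of_dvd hn h2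
    omega
  -- `|g| ∣ n`
  have hgn : g.natAbs ∣ n := by
    refine hU g.natAbs (Nat.one_le_iff_ne_zero.mpr (Int.natAbs_ne_zero.mpr hg0)) ?_
    intro t ht
    exact Int.natAbs_dvd.mpr (hdvd t ht)
  -- `n ∣ |g|`
  obtain ⟨t₀, ht₀, hεt₀⟩ := (hmem g).mp hgJ
  have hng : n ∣ g.natAbs := by
    have := hL t₀ ht₀
    rw [hεt₀] at this
    exact Int.natCast_dvd.mp this
  have heq : g.natAbs = n := Nat.dvd_antisymm hgn hng
  rcases Int.natAbs_eq g with h | h
  · exact ⟨t₀, ht₀, by rw [hεt₀, h, heq]⟩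
  · refine ⟨-t₀, by rw [map_neg, ht₀, neg_zero], ?_⟩
    rw [map_neg, hεt₀, h, heq, neg_neg]

end Fermat.Agent.S16_helper3_REDA
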