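import Mathlib

/-!
# S16, reduction step: the pure algebra

`card_quot_map_eq` : for a surjective ring hom `pi : A → T` and a ring hom `eps : A → ℤ`
with `eps (ker pi) = nℤ`, `n > 0`, the quotient `T ⧸ pi (ker eps)` has exactly `n` elements.

`card_quot_map_eq_of_dvd` : the same with the hypothesis `n ∈ eps (ker pi)` replaced by
"every `k ≥ 1` dividing all of `eps (ker pi)` divides `n`".
-/

namespace Fermat.Agent.S16_helper4_REDALG

theorem card_quot_map_eq {A T : Type*} [CommRing A] [CommRing T]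
    (pi : A →+* T) (hpi : Function.Surjective pi)
    (eps : A →+* ℤ) (n : ℕ)
    (hL : ∀ t, pi t = 0 → (n : ℤ) ∣ eps t)
    (hU : ∃ t, pi t = 0 ∧ eps t = n) :
    Nat.card (T ⧸ Ideal.map pi (RingHom.ker eps)) = n := by
  have hker : RingHom.ker pi ≤ RingHom.ker ((Int.castRingHom (ZMod n)).comp eps) := by
    intro t ht
    rw [RingHom.mem_ker] at ht ⊢
    rw [RingHom.comp_apply, eq_intCast, ZMod.intCast_zmod_eq_zero_iff_dvd]
    exact hL t ht
  let φ : T →+* ZMod n :=
    RingHom.liftOfSurjective pi hpi ⟨(Int.castRingHom (ZMod n)).comp eps, hker⟩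
  have hφ : ∀ a, φ (pi a) = ((eps a : ℤ) : ZMod n) := by
    intro a
    have := RingHom.liftOfRightInverse_comp_apply pi (Function.surjInv hpi)
      (Function.rightInverse_surjInv hpi) ⟨(Int.castRingHom (ZMod n)).comp eps, hker⟩ a
    simpa using this
  have hφsurj : Function.Surjective φ := by
    intro z
    obtain ⟨m, rfl⟩ := ZMod.intCast_surjective z
    refine ⟨pi (m : A), ?_⟩
    rw [hφ, map_intCast, Int.cast_id]
  have hkerφ : RingHom.ker φ = Ideal.map pi (RingHom.ker eps) := by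
    apply le_antisymm
    · intro x hx
      rw [RingHom.mem_ker] at hx
      obtain ⟨a, rfl⟩ := hpi x
      rw [hφ, ZMod.intCast_zmod_eq_zero_iff_dvd] at hx
      obtain ⟨m, hm⟩ := hx
      obtain ⟨t0, ht0, ht0n⟩ := hU
      have h1 : pi (a - (m : A) * t0) = pi a := by
        rw [map_sub, map_mul, ht0, mul_zero, sub_zero]
      have h2 : eps (a - (m : A) * t0) = 0 := by
        rw [map_sub, map_mul, map_intCast, ht0n, hm]
        simp [mul_comm]
      rw [← h1]
      exact Ideal.mem_map_of_mem pi (by rw [RingHom.mem_ker]; exact h2)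
    · rw [Ideal.map_le_iff_le_comap]
      intro a ha
      rw [RingHom.mem_ker] at ha
      rw [Ideal.mem_comap, RingHom.mem_ker, hφ, ha, Int.cast_zero]
  have e : (T ⧸ RingHom.ker φ) ≃+* ZMod n := RingHom.quotientKerEquivOfSurjective hφsurj
  rw [← hkerφ, Nat.card_congr e.toEquiv, Nat.card_zmod]

/-- Variant: the upper-bound hypothesis is stated as a divisibility property of the common
divisors of `eps (ker pi)`. -/
theorem card_quot_map_eq_of_dvd {A T : Type*} [CommRing A] [CommRing T]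
    (pi : A →+* T) (hpi : Function.Surjective pi)
    (eps : A →+* ℤ) (n : ℕ) (hn : 0 < n)
    (hL : ∀ t, pi t = 0 → (n : ℤ) ∣ eps t)
    (hU : ∀ k : ℕ, 1 ≤ k → (∀ t, pi t = 0 → (k : ℤ) ∣ eps t) → k ∣ n) :
    Nat.card (T ⧸ Ideal.map pi (RingHom.ker eps)) = n := by
  refine card_quot_map_eq pi hpi eps n hL ?_
  -- the ideal `eps (ker pi)` of `ℤ`
  have hepsurj : Function.Surjective eps := fun z => ⟨(z : A), map_intCast eps z⟩
  set J : Ideal ℤ := Ideal.map eps (RingHom.ker pi) with hJ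
  have hJmem : ∀ z : ℤ, z ∈ J ↔ ∃ t, pi t = 0 ∧ eps t = z := by
    intro z
    rw [hJ, Ideal.mem_map_iff_of_surjective eps hepsurj]
    constructor
    · rintro ⟨t, ht, rfl⟩
      exact ⟨t, (RingHom.mem_ker).1 ht, rfl⟩
    · rintro ⟨t, ht, rfl⟩
      exact ⟨t, (RingHom.mem_ker).2 ht, rfl⟩
  obtain ⟨g, hg⟩ : ∃ g : ℤ, J = Ideal.span {g} :=
    ⟨_, (Ideal.span_singleton_generator J).symm⟩
  have hdvd : ∀ t, pi t = 0 → ((g.natAbs : ℕ) : ℤ) ∣ eps t := by
    intro t ht
    have : eps t ∈ J := (hJmem _).2 ⟨t, ht, rfl⟩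
    rw [hg, Ideal.mem_span_singleton] at this
    exact Int.natAbs_dvd.2 this
  have hgJ : ((g.natAbs : ℕ) : ℤ) ∈ J := by
    rw [hg, Ideal.mem_span_singleton]
    exact Int.dvd_natAbs.2 dvd_rfl
  by_cases hg0 : g.natAbs = 0
  · -- `eps (ker pi) = 0`: every `k` divides, contradiction with `k = n + 1`
    exfalso
    have h0 : ∀ t, pi t = 0 → eps t = 0 := by
      intro t ht
      have := hdvd t ht
      rw [hg0] at this
      simpa using this
    have := hU (n + 1) (by omega) (fun t ht => by rw [h0 t ht]; exact dvd_zero _)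
    have := Nat.le_of_dvd hn this
    omega
  · have h1 : g.natAbs ∣ n := hU g.natAbs (Nat.one_le_iff_ne_zero.2 hg0) hdvd
    obtain ⟨t, ht, hte⟩ := (hJmem _).1 hgJ
    have h2 : (n : ℤ) ∣ (g.natAbs : ℤ) := hte ▸ hL t ht
    have h3 : n ∣ g.natAbs := Int.natCast_dvd_natCast.1 h2
    have h4 : g.natAbs = n := Nat.dvd_antisymm h1 h3
    exact ⟨t, ht, by rw [hte, h4]⟩

end Fermat.Agent.S16_helper4_REDALG
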