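import Fermat.Prelude.Def_CuspForm_HeckeLocal
import Fermat.Prelude.Def_CuspForm_HeckeEvalForms
import Fermat.Prelude.Def_HeckeGalois_EichlerShimura
import Fermat.Prelude.Def_ModularCurve_ModularUnit
import Fermat.Agent.S16_helper4_REDALG

/-!
# S16, reduction step: surjectivity of `π` and the final shape

* `heckeEvalForms_surjective` : the abstract Hecke algebra `ℤ[T_ℓ]` surjects onto
  `heckeAlgebra N k ∅`.
* `pi_surjective` : `π = latticeRestrictHom ∘ heckeEvalForms` is surjective.
* `card_of_bounds` : the frozen S16 statement from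
  (LB) `∀ t ∈ ker π, n ∣ ε t` and (UB) `∀ k ≥ 1, (∀ t ∈ ker π, k ∣ ε t) → k ∣ n`.
-/

set_option autoImplicit false

open ModularCurve CuspForm

namespace Fermat.Agent.S16_helper4_REDPI

theorem heckeEvalForms_surjective (N : ℕ) [NeZero N] (k : ℤ) :
    Function.Surjective (heckeEvalForms N k) := by
  intro x
  have hx : (x : Module.End ℂ (CuspForm (CongruenceSubgroup.Gamma0 N) k)) ∈
      Algebra.adjoin ℤ (heckeGenerators N k ∅) := x.2
  have hle : Algebra.adjoin ℤ (heckeGenerators N k ∅) ≤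
      ((heckeAlgebra N k ∅).val.comp (MvPolynomial.aeval (heckeFormsGen N k))).range := by
    apply Algebra.adjoin_le
    rintro T (⟨ℓ, hℓ, hℓN, -, rfl⟩ | ⟨q, hqN, hq, -, rfl⟩)
    · exact ⟨heckeGen ⟨ℓ, hℓ⟩, congrArg Subtype.val
        (heckeEvalForms_heckeGen_of_not_dvd (N := N) (k := k) (ℓ := ⟨ℓ, hℓ⟩) hℓN)⟩
    · exact ⟨heckeGen ⟨q, hq⟩, congrArg Subtype.val
        (heckeEvalForms_heckeGen_of_dvd (N := N) (k := k) (q := ⟨q, hq⟩) hqN)⟩
  obtain ⟨t, ht⟩ := hle hx
  exact ⟨t, Subtype.ext ht⟩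

theorem pi_surjective (p : ℕ) [NeZero p] :
    Function.Surjective
      ((latticeRestrictHom p ∅).toRingHom.comp (heckeEvalForms p 2)) := by
  intro y
  obtain ⟨x, hx⟩ := latticeRestrictHom_surjective p ∅ y
  obtain ⟨t, ht⟩ := heckeEvalForms_surjective p 2 x
  exact ⟨t, by rw [RingHom.comp_apply, ht]; exact hx⟩

theorem eisensteinNumerator_pos' (p : ℕ) (hp : p.Prime) : 0 < eisensteinNumerator p := by
  unfold eisensteinNumerator
  have h1 : 0 < p - 1 := by have := hp.two_le; omega
  exact Nat.div_pos (Nat.le_of_dvd h1 (Nat.gcd_dvd_left _ _)) (Nat.gcd_pos_of_pos_left _ h1)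

/-- The frozen S16 statement from the lower bound and the (abstract) upper bound. -/
theorem card_of_bounds (p : ℕ) [Fact p.Prime]
    (hL : ∀ t : HeckeAlg,
      ((latticeRestrictHom p ∅).toRingHom.comp (heckeEvalForms p 2)) t = 0 →
        ((eisensteinNumerator p : ℕ) : ℤ) ∣ MvPolynomial.aeval (eisensteinSystem p) t)
    (hU : ∀ k : ℕ, 1 ≤ k →
      (∀ t : HeckeAlg,
        ((latticeRestrictHom p ∅).toRingHom.comp (heckeEvalForms p 2)) t = 0 →
          (k : ℤ) ∣ MvPolynomial.aeval (eisensteinSystem p) t) →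
      k ∣ eisensteinNumerator p) :
    Nat.card (↥(heckeLatticeAlgebra p ∅) ⧸
        Ideal.map ((latticeRestrictHom p ∅).toRingHom.comp (heckeEvalForms p 2))
          (eisensteinIdeal p)) =
      eisensteinNumerator p := by
  have : NeZero p := ⟨(Fact.out : p.Prime).ne_zero⟩
  have key := S16_helper4_REDALG.card_quot_map_eq_of_dvd
    ((latticeRestrictHom p ∅).toRingHom.comp (heckeEvalForms p 2)) (pi_surjective p)
    (MvPolynomial.aeval (R := ℤ) (eisensteinSystem p)).toRingHom
    (eisensteinNumerator p) (eisensteinNumerator_pos' p Fact.out) hL hU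
  exact key

end Fermat.Agent.S16_helper4_REDPI
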