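import Fermat.Agent.S16_helper4_UBGLUE
import Fermat.Agent.S16_helper4_SMALL
import Fermat.Agent.S16_helper7_EIS
import Fermat.Agent.S16_helper17_NCP
import Fermat.Agent.S16_helper2_NC3
import Fermat.Agent.S16_helper18_NC2A
import Fermat.Agent.S16_helper13_NC2B

/-!
# S16, upper bound: wiring of the no-congruence lemmas into `ub_glue_ge` (threshold `11`)

`upper_bound_of_big` : the upper bound `hU` of the reduction, given the single remaining input
NC-big in the case `r ∣ p + 1` (`r ≥ 5` prime, `r ≠ p`, `11 ≤ p`).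
-/

set_option autoImplicit false

namespace Fermat.Agent.S16_helper4_UB

open Fermat.Agent.S16_helper4_UBGLUE

theorem upper_bound_of_big (p : ℕ) [Fact p.Prime]
    (hbig : ∀ r : ℕ, r.Prime → 5 ≤ r → r ≠ p → 11 ≤ p → r ∣ p + 1 → NoCong p r 1) :
    ∀ k : ℕ, 1 ≤ k →
      (∃ f ∈ CuspForm.intLattice p 2, ∀ n : ℕ, 1 ≤ n →
        ∃ c : ℤ, ModularFormClass.qCoeff f n = (c : ℂ) ∧ (k : ℤ) ∣ c - sigP p n) →
      k ∣ ModularCurve.eisensteinNumerator p :=
  ub_glue_ge 11 p (S16_helper7_EIS.exists_eis p)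
    (fun h f => S16_helper4_SMALL.cuspForm_eq_zero_of_lt_eleven p h f)
    (fun r hr hr5 hrp hp11 => by
      by_cases hd : r ∣ p + 1
      · exact hbig r hr hr5 hrp hp11 hd
      · exact S16_helper18_NC2A.NCge5_noCong p r hr hr5 (fun _ => by omega) hd)
    (fun h => S16_helper17_NCP.noCong_p_eleven p h)
    (fun h _ => S16_helper2_NC3.noCong_3a p h)
    (fun h _ => S16_helper2_NC3.noCong_3b p h)
    (fun h _ => S16_helper18_NC2A.NC2a_noCong p h)
    (fun h _ => S16_helper13_NC2B.NC2b_noCong p h)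

end Fermat.Agent.S16_helper4_UB
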