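import Fermat.Agent.S16_helper2_NS
import Fermat.Agent.S16_helper24_CONJB
import Fermat.Agent.S16_helper28_TE
import Fermat.Agent.S16_helper4_UBGLUE
import Fermat.Agent.S16_helper18_NC2A
import Fermat.Agent.S16_helper14_CONJ

/-!
# S16, upper bound: the no-congruence lemma for primes `r ∣ p + 1`, `r ≥ 5` (norm argument)

For a prime `r ≥ 5` dividing `p + 1` there is no `G ∈ M_2(Γ₀(p))` with integer `q`-expansion `a`,
`r ∤ a 0` and `r ∣ a n` for all `n ≥ 1`.

Route: with `u = a 0`, `k = 3` (`r = 5`) or `k = 2` (`r ≥ 7`) and `E = E₆` resp. `E₄`, the form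
`F = p^k G^k - (-1)^k u^k E` of weight `2k < 12` has all its `p + 1` conjugate expansions
`≡ c x^p + ⋯ mod r` with the same `r`-unit `c`; this contradicts the norm-Sturm criterion.
-/

set_option autoImplicit false

open UpperHalfPlane ModularForm CongruenceSubgroup Matrix.SpecialLinearGroup
open scoped MatrixGroups ModularForm Manifold Real
open Fermat.Agent.S20 Fermat.Agent.S28_helper14_Defs Fermat.Agent.S28_helper14_ADefs
open Fermat.Agent.S28_LEVEL1 Fermat.Agent.S16_helper2_STURM Fermat.Agent.S28_NINT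
open Fermat.Agent.S16_helper2_NS Fermat.Agent.S16_helper24_CONJ

noncomputable section

namespace Fermat.Agent.S16_helper7_NCB

/-! ### Power series algebra -/

/-- `A = u + r h` implies `A ^ k = u ^ k + r h'`. -/
theorem ncb_pow_congr {O : Subring ℂ} {r u : ℂ} (hr : r ∈ O) (hu : u ∈ O) (k : ℕ)
    {A h : PowerSeries ℂ} (hh : h ∈ coeffSubring O)
    (hA : A = PowerSeries.C u + PowerSeries.C r * h) :
    ∃ h' ∈ coeffSubring O, A ^ k = PowerSeries.C (u ^ k) + PowerSeries.C r * h' := by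
  have hCu : (PowerSeries.C u : PowerSeries ℂ) ∈ coeffSubring O := by
    intro n
    rw [PowerSeries.coeff_C]
    split_ifs
    · exact hu
    · exact O.zero_mem
  have hCr : (PowerSeries.C r : PowerSeries ℂ) ∈ coeffSubring O := by
    intro n
    rw [PowerSeries.coeff_C]
    split_ifs
    · exact hr
    · exact O.zero_mem
  have hAm : A ∈ coeffSubring O := by
    rw [hA]
    exact (coeffSubring O).add_mem hCu ((coeffSubring O).mul_mem hCr hh)
  refine ⟨(∑ i ∈ Finset.range k, A ^ i * (PowerSeries.C u) ^ (k - 1 - i)) * h, ?_, ?_⟩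
  · refine (coeffSubring O).mul_mem ((coeffSubring O).sum_mem fun i _ => ?_) hh
    exact (coeffSubring O).mul_mem ((coeffSubring O).pow_mem hAm _)
      ((coeffSubring O).pow_mem hCu _)
  · have h1 := geom_sum₂_mul A (PowerSeries.C u) k
    have h2 : A - PowerSeries.C u = PowerSeries.C r * h := by rw [hA]; ring
    rw [h2] at h1
    rw [map_pow]
    linear_combination -h1

/-- The key congruence: `e A^k + d E ≡ d κ X^n + ⋯ mod r`. -/
theorem ncb_lowAt_core {O : Subring ℂ} {r u e d κ : ℂ} (hr : r ∈ O) (hu : u ∈ O) (he : e ∈ O)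
    (hd : d ∈ O) (k n : ℕ) (hn : 0 < n) {A h E : PowerSeries ℂ}
    (hh : h ∈ coeffSubring O) (hA : A = PowerSeries.C u + PowerSeries.C r * h)
    (hE : E ∈ coeffSubring O) (hE0 : E.coeff 0 = 1)
    (hElow : ∀ m, 0 < m → m < n → E.coeff m = 0) (hEn : E.coeff n = κ)
    (hed : RD O r (e * u ^ k + d)) :
    LowAt O r (PowerSeries.C e * A ^ k + PowerSeries.C d * E) n (d * κ) := by
  obtain ⟨h', hh', hpow⟩ := ncb_pow_congr hr hu k hh hA
  have hcoeff : ∀ m, (PowerSeries.C e * A ^ k + PowerSeries.C d * E).coeff m =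
      e * ((if m = 0 then u ^ k else 0) + r * h'.coeff m) + d * E.coeff m := by
    intro m
    rw [hpow, map_add, PowerSeries.coeff_C_mul, PowerSeries.coeff_C_mul, map_add,
      PowerSeries.coeff_C, PowerSeries.coeff_C_mul]
  refine ⟨?_, ?_, ?_⟩
  · intro m
    rw [hcoeff]
    refine O.add_mem (O.mul_mem he (O.add_mem ?_ (O.mul_mem hr (hh' m)))) (O.mul_mem hd (hE m))
    split_ifs
    · exact O.pow_mem hu k
    · exact O.zero_mem
  · intro m hm
    rw [hcoeff]
    rcases Nat.eq_zero_or_pos m with rfl | hm0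
    · rw [if_pos rfl, hE0]
      have : e * (u ^ k + r * h'.coeff 0) + d * 1 = (e * u ^ k + d) + r * (e * h'.coeff 0) := by
        ring
      rw [this]
      exact RD_add hed (RD_self_mul r (O.mul_mem he (hh' 0)))
    · rw [if_neg hm0.ne', hElow m hm0 hm]
      have : e * (0 + r * h'.coeff m) + d * 0 = r * (e * h'.coeff m) := by ring
      rw [this]
      exact RD_self_mul r (O.mul_mem he (hh' m))
  · rw [hcoeff, if_neg hn.ne', hEn]
    have : e * (0 + r * h'.coeff n) + d * κ - d * κ = r * (e * h'.coeff n) := by ring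
    rw [this]
    exact RD_self_mul r (O.mul_mem he (hh' n))

/-! ### Integrality of the root of unity -/

theorem ncb_zetaP_pow (p : ℕ) (hp : p ≠ 0) : zetaP p ^ p = 1 := by
  unfold zetaP
  rw [← Complex.exp_nat_mul]
  have hp' : (p : ℂ) ≠ 0 := Nat.cast_ne_zero.mpr hp
  have : (p : ℂ) * (2 * (π : ℂ) * Complex.I / (p : ℂ)) = 2 * (π : ℂ) * Complex.I := by
    field_simp
  rw [this, Complex.exp_two_pi_mul_I]

theorem ncb_zetaP_mem (p : ℕ) (hp : p ≠ 0) (m : ℕ) : zetaP p ^ m ∈ nIntSubring p := by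
  refine (nIntSubring p).pow_mem ?_ m
  refine isNInt_of_isIntegral ?_
  refine IsIntegral.of_pow (Nat.pos_of_ne_zero hp) ?_
  rw [ncb_zetaP_pow p hp]
  exact isIntegral_one

/-! ### The generic statement -/

/-- Generic norm argument: `E` a level one form of weight `2k < 12` with integral expansion
`1 + κ q + ⋯`, `κ` prime to `r`, `r ∣ p + 1`. -/
theorem ncb_generic (p r : ℕ) [Fact p.Prime] (hr : r.Prime) (hrp : r ∣ p + 1)
    (k : ℕ) (hk : 2 * k < 12) (E : ℍ → ℂ) (hE : IsMF1 ((2 * k : ℕ) : ℤ) E) (κ : ℤ)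
    (hκ : ¬ (r : ℤ) ∣ κ)
    (hEint : ∀ n, ∃ c : ℤ, (qExpansion 1 E).coeff n = (c : ℂ))
    (hE0 : (qExpansion 1 E).coeff 0 = 1) (hE1 : (qExpansion 1 E).coeff 1 = (κ : ℂ))
    (G : ModularForm (Gamma0 p) 2)
    (hconj : HasConj p 2 (⇑G) (qExpansion 1 (⇑G)) (conjSer p (qExpansion 1 (⇑G))))
    (a : ℕ → ℤ) (ha : ∀ n, (qExpansion 1 (⇑G)).coeff n = (a n : ℂ)) (h0 : ¬ (r : ℤ) ∣ a 0)
    (hn : ∀ n, 1 ≤ n → (r : ℤ) ∣ a n) : False := by
  have hpP : p.Prime := Fact.out
  have : NeZero p := ⟨hpP.ne_zero⟩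
  have hp0 : (p : ℂ) ≠ 0 := Nat.cast_ne_zero.mpr hpP.ne_zero
  have hpr : p ≠ r := by
    rintro rfl
    have h1 : p ∣ 1 := (Nat.dvd_add_right (dvd_refl p)).mp hrp
    exact hpP.one_lt.ne' (Nat.dvd_one.mp h1)
  set O := nIntSubring p with hO
  set g : PowerSeries ℂ := qExpansion 1 (⇑G) with hg
  set e : PowerSeries ℂ := qExpansion 1 E with he
  -- the quotients `a n / r`
  choose! b hb using hn
  set u : ℂ := (a 0 : ℂ) with hu
  set d : ℂ := (-1) ^ (k + 1) * u ^ k with hd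
  have hrO : (r : ℂ) ∈ O := natCast_mem_nIntSubring p r
  have huO : u ∈ O := intCast_mem_nIntSubring p (a 0)
  have hdO : d ∈ O := by
    have : d = (((-1) ^ (k + 1) * (a 0) ^ k : ℤ) : ℂ) := by rw [hd, hu]; push_cast; ring
    rw [this]
    exact intCast_mem_nIntSubring p _
  have heO : e ∈ coeffSubring O := by
    intro n
    obtain ⟨c, hc⟩ := hEint n
    rw [hc]
    exact intCast_mem_nIntSubring p c
  -- the form `F`
  have hw : (k : ℤ) * 2 = ((2 * k : ℕ) : ℤ) := by push_cast; ring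
  have hF := (((hconj.pow k).cast hw).smul ((p : ℂ) ^ k)).add
    ((HasConj.of_isMF1 (p := p) hE).smul d)
  -- expansion at infinity
  have hA : LowAt O (r : ℂ) (((p : ℂ) ^ k) • g ^ k + d • e) 1
      ((((-1) ^ (k + 1) * (a 0) ^ k * κ : ℤ)) : ℂ) := by
    have hc : ((((-1) ^ (k + 1) * (a 0) ^ k * κ : ℤ)) : ℂ) = d * (κ : ℂ) := by
      rw [hd, hu]; push_cast; ring
    rw [hc, PowerSeries.smul_eq_C_mul, PowerSeries.smul_eq_C_mul]
    refine ncb_lowAt_core (h := PowerSeries.mk fun n => if n = 0 then 0 else (b n : ℂ))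
      hrO huO ((nIntSubring p).pow_mem (natCast_mem_nIntSubring p p) k) hdO k 1 one_pos
      ?_ ?_ heO hE0 (fun m h1 h2 => absurd h2 (by omega)) hE1 ?_
    · intro n
      rw [PowerSeries.coeff_mk]
      split_ifs
      · exact O.zero_mem
      · exact intCast_mem_nIntSubring p _
    · ext n
      rw [map_add, PowerSeries.coeff_C, PowerSeries.coeff_C_mul, PowerSeries.coeff_mk, hg, ha n]
      rcases Nat.eq_zero_or_pos n with rfl | hn0
      · simp [hu]
      · rw [if_neg hn0.ne', if_neg hn0.ne', zero_add, hb n hn0]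
        push_cast
        ring
    · -- `r ∣ p ^ k - (-1) ^ k`
      have h1 : ((p : ℤ) - (-1)) ∣ (p : ℤ) ^ k - (-1) ^ k := sub_dvd_pow_sub_pow _ _ k
      have h2 : (r : ℤ) ∣ (p : ℤ) - (-1) := by
        have : ((p : ℤ) - (-1)) = ((p + 1 : ℕ) : ℤ) := by push_cast; ring
        rw [this]
        exact_mod_cast hrp
      obtain ⟨m, hm⟩ := h2.trans h1
      have h3 : (p : ℂ) ^ k * u ^ k + d = (r : ℂ) * ((m * (a 0) ^ k : ℤ) : ℂ) := by
        have h4 : ((p : ℂ) ^ k - (-1) ^ k) = (r : ℂ) * (m : ℂ) := by exact_mod_cast hm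
        rw [hd, hu]
        push_cast
        linear_combination (a 0 : ℂ) ^ k * h4
      rw [h3]
      exact RD_self_mul _ (intCast_mem_nIntSubring p _)
  -- expansions of the conjugates
  have hB : ∀ j, j < p → LowAt O (r : ℂ)
      (((p : ℂ) ^ k) • (conjSer p g j) ^ k + d • infSer p e) p
      ((((-1) ^ (k + 1) * (a 0) ^ k * κ : ℤ)) : ℂ) := by
    intro j _
    have hc : ((((-1) ^ (k + 1) * (a 0) ^ k * κ : ℤ)) : ℂ) = d * (κ : ℂ) := by
      rw [hd, hu]; push_cast; ring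
    set B : PowerSeries ℂ := PowerSeries.mk fun m => g.coeff (p * m) * zetaP p ^ (j * m) with hBdef
    have hcs : conjSer p g j = PowerSeries.C (-((p : ℂ)⁻¹)) * B := by
      ext m
      rw [coeff_conjSer, PowerSeries.coeff_C_mul, PowerSeries.coeff_mk]
      ring
    have hrw : ((p : ℂ) ^ k) • (conjSer p g j) ^ k + d • infSer p e =
        PowerSeries.C ((-1 : ℂ) ^ k) * B ^ k + PowerSeries.C d * infSer p e := by
      rw [PowerSeries.smul_eq_C_mul, PowerSeries.smul_eq_C_mul, hcs, mul_pow, ← map_pow,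
        ← mul_assoc, ← map_mul]
      congr 3
      rw [← mul_pow]
      congr 1
      field_simp
    rw [hc, hrw]
    refine ncb_lowAt_core
      (h := PowerSeries.mk fun m => if m = 0 then 0 else (b (p * m) : ℂ) * zetaP p ^ (j * m))
      hrO huO ((nIntSubring p).pow_mem ((nIntSubring p).neg_mem (nIntSubring p).one_mem) k) hdO
      k p hpP.pos ?_ ?_ ?_ ?_ ?_ ?_ ?_
    · intro m
      rw [PowerSeries.coeff_mk]
      split_ifs
      · exact O.zero_mem
      · exact O.mul_mem (intCast_mem_nIntSubring p _) (ncb_zetaP_mem p hpP.ne_zero _)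
    · ext m
      rw [map_add, PowerSeries.coeff_C, PowerSeries.coeff_C_mul, PowerSeries.coeff_mk,
        PowerSeries.coeff_mk, hg, ha (p * m)]
      rcases Nat.eq_zero_or_pos m with rfl | hm0
      · simp [hu]
      · have hpm : 1 ≤ p * m := Nat.mul_pos hpP.pos hm0
        rw [if_neg hm0.ne', if_neg hm0.ne', zero_add, hb (p * m) hpm]
        push_cast
        ring
    · intro m
      rw [coeff_infSer]
      split_ifs
      · exact heO _
      · exact O.zero_mem
    · rw [coeff_infSer, if_pos (dvd_zero p), Nat.zero_div, hE0]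
    · intro m hm0 hmp
      rw [coeff_infSer, if_neg (Nat.not_dvd_of_pos_of_lt hm0 hmp)]
    · rw [coeff_infSer, if_pos (dvd_refl p), Nat.div_self hpP.pos, hE1]
    · have : (-1 : ℂ) ^ k * u ^ k + d = 0 := by rw [hd]; ring
      rw [this]
      exact RD_zero _ _
  -- the integer `c` is prime to `r`
  have hrP : Prime (r : ℤ) := Nat.prime_iff_prime_int.mp hr
  have hcr : ¬ (r : ℤ) ∣ (-1) ^ (k + 1) * (a 0) ^ k * κ := by
    intro hdvd
    rcases hrP.dvd_or_dvd hdvd with h1 | h1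
    · rcases hrP.dvd_or_dvd h1 with h2 | h2
      · have h3 := hrP.dvd_of_dvd_pow h2
        have h4 : (r : ℤ) ∣ 1 := (dvd_neg (α := ℤ)).mp h3
        exact hrP.not_dvd_one h4
      · exact h0 (hrP.dvd_of_dvd_pow h2)
    · exact hκ h1
  exact norm_sturm_hasConj p r hr hpr (2 * k) hk hF _ _ hcr hcr hA hB

/-! ### The two instances `E₆` (`r = 5`) and `E₄` (`r ≥ 7`) -/

/-- The conjugate expansions of all weight two forms of level `p` (= CONJ-A). -/
def ConjTwo (p : ℕ) : Prop :=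
  ∀ G : ModularForm (Gamma0 p) 2,
    HasConj p 2 (⇑G) (qExpansion 1 (⇑G)) (conjSer p (qExpansion 1 (⇑G)))

theorem ncb_E6_int (n : ℕ) : ∃ c : ℤ, (qExpansion 1 (⇑E₆ : ℍ → ℂ)).coeff n = (c : ℂ) := by
  refine ⟨Fermat.Agent.S16_helper28_TE.e6Ser.coeff n, ?_⟩
  rw [Fermat.Agent.S16_helper28_TE.qExpansion_E6, PowerSeries.coeff_map, eq_intCast]

theorem ncb_E4_int (n : ℕ) : ∃ c : ℤ, (qExpansion 1 (⇑E₄ : ℍ → ℂ)).coeff n = (c : ℂ) := by
  refine ⟨Fermat.Agent.S16_helper18_TRALG.e4Ser.coeff n, ?_⟩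
  rw [Fermat.Agent.S16_helper28_TE.qExpansion_E4', PowerSeries.coeff_map, eq_intCast]

theorem ncb_E6_zero : (qExpansion 1 (⇑E₆ : ℍ → ℂ)).coeff 0 = 1 := by
  rw [Fermat.Agent.S16_helper28_TE.qExpansion_E6_coeff, if_pos rfl]

theorem ncb_E6_one : (qExpansion 1 (⇑E₆ : ℍ → ℂ)).coeff 1 = ((-504 : ℤ) : ℂ) := by
  rw [Fermat.Agent.S16_helper28_TE.qExpansion_E6_coeff, if_neg one_ne_zero]
  simp

theorem ncb_E4_zero : (qExpansion 1 (⇑E₄ : ℍ → ℂ)).coeff 0 = 1 := by
  rw [Fermat.Agent.S16_helper28_TE.qExpansion_E4', PowerSeries.coeff_map,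
    Fermat.Agent.S16_helper18_TRALG.coeff_e4Ser, if_pos rfl]
  simp

theorem ncb_E4_one : (qExpansion 1 (⇑E₄ : ℍ → ℂ)).coeff 1 = ((240 : ℤ) : ℂ) := by
  rw [Fermat.Agent.S16_helper28_TE.qExpansion_E4', PowerSeries.coeff_map,
    Fermat.Agent.S16_helper18_TRALG.coeff_e4Ser, if_neg one_ne_zero]
  simp [ArithmeticFunction.sigma_apply]

/-- a prime `r ≥ 7` does not divide `240` -/
theorem ncb_not_dvd_240 {r : ℕ} (hr : r.Prime) (hr7 : 7 ≤ r) : ¬ (r : ℤ) ∣ 240 := by
  intro h
  have h1 : r ∣ 240 := by exact_mod_cast h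
  have h2 : r ∣ 2 ^ 4 * 3 * 5 := by norm_num; exact h1
  rcases (Nat.Prime.dvd_mul hr).mp h2 with h3 | h3
  · rcases (Nat.Prime.dvd_mul hr).mp h3 with h4 | h4
    · have := (Nat.prime_dvd_prime_iff_eq hr Nat.prime_two).mp (hr.dvd_of_dvd_pow h4)
      omega
    · have := (Nat.prime_dvd_prime_iff_eq hr Nat.prime_three).mp h4
      omega
  · have := (Nat.prime_dvd_prime_iff_eq hr Nat.prime_five).mp h3
    omega

/-- **NC-big, case `r ∣ p + 1`** (given the conjugate expansions of weight two forms). -/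
theorem ncb_dvd_of (p r : ℕ) [Fact p.Prime] (hr : r.Prime) (hr5 : 5 ≤ r) (hrp : r ∣ p + 1)
    (hconj : ConjTwo p) : S16_helper4_UBGLUE.NoCong p r 1 := by
  intro G a ha h0 h1
  have hn : ∀ n, 1 ≤ n → (r : ℤ) ∣ a n := fun n hn => by
    have := h1 n hn
    rwa [pow_one] at this
  by_cases h5 : r = 5
  · subst h5
    refine ncb_generic p 5 hr hrp 3 (by norm_num) (⇑E₆) (isMF1_E₆.cast (by norm_num)) (-504)
      (by decide) ncb_E6_int ncb_E6_zero ncb_E6_one G (hconj G) a ha h0 hn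
  · have hr7 : 7 ≤ r := by
      rcases Nat.lt_or_ge r 7 with h | h
      · exfalso
        have h6 : r = 6 := by omega
        rw [h6] at hr
        exact absurd hr (by decide)
      · exact h
    refine ncb_generic p r hr hrp 2 (by norm_num) (⇑E₄) (isMF1_E₄.cast (by norm_num)) 240
      (ncb_not_dvd_240 hr hr7) ncb_E4_int ncb_E4_zero ncb_E4_one G (hconj G) a ha h0 hn

/-- **NC-big** (given the conjugate expansions of weight two forms): for every prime `r ≥ 5`,
`r ≠ p`, there is no `G ∈ M_2(Γ₀(p))` with integer `q`-expansion, constant term prime to `r` and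
all higher coefficients divisible by `r`. -/
theorem ncb_big_of (p : ℕ) [Fact p.Prime] (hconj : ConjTwo p) (r : ℕ) (hr : r.Prime)
    (hr5 : 5 ≤ r) (hrp : r ≠ p) : S16_helper4_UBGLUE.NoCong p r 1 := by
  by_cases hd : r ∣ p + 1
  · exact ncb_dvd_of p r hr hr5 hd hconj
  · exact Fermat.Agent.S16_helper18_NC2A.NCge5_noCong p r hr hr5 (fun h5 h => hrp (h5.trans h.symm))
      hd

/-! ### Unconditional statements -/

theorem ncb_conjTwo (p : ℕ) [Fact p.Prime] : ConjTwo p :=
  fun G => Fermat.Agent.S16_helper14_CONJ.hasConj_two' G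

/-- **NC-big, case `r ∣ p + 1`**: for a prime `r ≥ 5` dividing `p + 1` there is no
`G ∈ M_2(Γ₀(p))` with integer `q`-expansion `a`, `r ∤ a 0` and `r ∣ a n` for all `n ≥ 1`. -/
theorem noCong_dvd (p r : ℕ) [Fact p.Prime] (hr : r.Prime) (hr5 : 5 ≤ r) (hrp : r ∣ p + 1) :
    S16_helper4_UBGLUE.NoCong p r 1 :=
  ncb_dvd_of p r hr hr5 hrp (ncb_conjTwo p)

/-- the case `r = 5` -/
theorem noCong_five (p : ℕ) [Fact p.Prime] (h5 : 5 ∣ p + 1) :
    S16_helper4_UBGLUE.NoCong p 5 1 :=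
  noCong_dvd p 5 Nat.prime_five le_rfl h5

/-- **NC-big**: for every prime `r ≥ 5`, `r ≠ p`, there is no `G ∈ M_2(Γ₀(p))` with integer
`q`-expansion, constant term prime to `r` and all higher coefficients divisible by `r`. -/
theorem noCong_big (p : ℕ) [Fact p.Prime] (r : ℕ) (hr : r.Prime) (hr5 : 5 ≤ r) (hrp : r ≠ p) :
    S16_helper4_UBGLUE.NoCong p r 1 :=
  ncb_big_of p (ncb_conjTwo p) r hr hr5 hrp

end Fermat.Agent.S16_helper7_NCB
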