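import Mathlib

/-!
# S18, piece X-B5 (support): finiteness of a cover over `K(t)`

`F / K(j)` finite, `E = F(t)` and `j = An(t) / Bd(t)`: then `E / K(t)` is finite.
-/

set_option autoImplicit false
set_option linter.unusedSectionVars false
set_option linter.style.haveILetI false

open Polynomial IntermediateField

namespace Fermat.Agent.S18_helper10_COVFIN

section fin

variable {K F E : Type*} [Field K] [Field F] [Field E] [Algebra K F] [Algebra F E] [Algebra K E]
  [IsScalarTower K F E]

/-- polynomials in `t` lie in `K(t)` -/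
theorem S18XB5_aeval_mem (t : E) (p : K[X]) : aeval t p ∈ K⟮t⟯ :=
  IntermediateField.algebra_adjoin_le_adjoin K _ (Polynomial.aeval_mem_adjoin_singleton K t)

/-- `j = An(t) / Bd(t)` lies in `K(t)` -/
theorem S18XB5_j_mem (j : F) (t : E) (An Bd : K[X]) (hBt : aeval t Bd ≠ 0)
    (hrel : algebraMap F E j * aeval t Bd = aeval t An) : algebraMap F E j ∈ K⟮t⟯ := by
  have h : algebraMap F E j = aeval t An / aeval t Bd := by
    rw [← hrel, mul_div_assoc, div_self hBt, mul_one]
  rw [h]
  exact div_mem (S18XB5_aeval_mem t An) (S18XB5_aeval_mem t Bd)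

/-- `K(j) ⊆ K(t)` -/
theorem S18XB5_adjoin_j_le (j : F) (t : E) (hj : algebraMap F E j ∈ K⟮t⟯) (x : F)
    (hx : x ∈ K⟮j⟯) : algebraMap F E x ∈ K⟮t⟯ := by
  induction hx using IntermediateField.adjoin_induction with
  | mem y hy =>
    rw [Set.mem_singleton_iff] at hy
    subst hy
    exact hj
  | algebraMap a =>
    rw [← IsScalarTower.algebraMap_apply]
    exact IntermediateField.algebraMap_mem _ a
  | add x y _ _ h1 h2 => rw [map_add]; exact add_mem h1 h2
  | inv x _ h => rw [map_inv₀]; exact inv_mem h
  | mul x y _ _ h1 h2 => rw [map_mul]; exact mul_mem h1 h2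

/-- elements of `F` integral over `K(j)` are integral over `K(t)` -/
theorem S18XB5_isIntegral_of_rel (j : F) (t : E) (hj : algebraMap F E j ∈ K⟮t⟯) (x : F)
    (hx : IsIntegral K⟮j⟯ x) : IsIntegral K⟮t⟯ (algebraMap F E x) := by
  obtain ⟨p, hp, hpx⟩ := hx
  let σ : K⟮j⟯ →+* K⟮t⟯ :=
    ((algebraMap F E).comp (algebraMap K⟮j⟯ F)).codRestrict K⟮t⟯
      (fun c => S18XB5_adjoin_j_le j t hj (c : F) c.2)
  refine ⟨p.map σ, hp.map σ, ?_⟩
  rw [Polynomial.eval₂_map]
  have e : (algebraMap K⟮t⟯ E).comp σ = (algebraMap F E).comp (algebraMap K⟮j⟯ F) := by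
    ext c
    rfl
  rw [e, ← Polynomial.hom_eval₂, hpx, map_zero]

/-- **Finiteness of the cover over `K(t)`.** -/
theorem S18XB5_finiteDimensional_cover' (j : F) (t : E) [FiniteDimensional K⟮j⟯ F]
    (hgen : IntermediateField.adjoin F {t} = ⊤) (hj : algebraMap F E j ∈ K⟮t⟯) :
    FiniteDimensional K⟮t⟯ E := by
  classical
  obtain ⟨s, hs⟩ := Module.finite_def.mp (inferInstance : Module.Finite K⟮j⟯ F)
  let S : Set E := (algebraMap F E) '' (s : Set F)
  have hSfin : S.Finite := (Finset.finite_toSet s).image _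
  have hSint : ∀ y ∈ S, IsIntegral K⟮t⟯ y := by
    rintro _ ⟨x, -, rfl⟩
    exact S18XB5_isIntegral_of_rel j t hj x (Algebra.IsIntegral.isIntegral x)
  haveI : Finite S := hSfin
  have hfd : FiniteDimensional K⟮t⟯ (IntermediateField.adjoin K⟮t⟯ S) :=
    IntermediateField.finiteDimensional_adjoin hSint
  have htop : IntermediateField.adjoin K⟮t⟯ S = ⊤ := by
    rw [eq_top_iff]
    intro y hy0
    clear hy0
    have hy : y ∈ IntermediateField.adjoin F {t} := by
      rw [hgen]
      trivial
    induction hy using IntermediateField.adjoin_induction with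
    | mem z hz =>
      rw [Set.mem_singleton_iff] at hz
      subst hz
      exact IntermediateField.algebraMap_mem (IntermediateField.adjoin K⟮z⟯ S)
        (AdjoinSimple.gen K z)
    | algebraMap x =>
      have hx : x ∈ Submodule.span K⟮j⟯ (s : Set F) := by
        rw [hs]
        trivial
      induction hx using Submodule.span_induction with
      | mem x hx => exact IntermediateField.subset_adjoin _ _ ⟨x, hx, rfl⟩
      | zero => rw [map_zero]; exact zero_mem _
      | add x y _ _ h1 h2 => rw [map_add]; exact add_mem h1 h2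
      | smul c x _ h =>
        rw [Algebra.smul_def, map_mul]
        refine mul_mem ?_ h
        have hc := S18XB5_adjoin_j_le j t hj (c : F) c.2
        exact IntermediateField.algebraMap_mem (IntermediateField.adjoin K⟮t⟯ S)
          (⟨_, hc⟩ : K⟮t⟯)
    | add x y _ _ h1 h2 => exact add_mem h1 h2
    | inv x _ h => exact inv_mem h
    | mul x y _ _ h1 h2 => exact mul_mem h1 h2
  rw [htop] at hfd
  exact (IntermediateField.topEquiv (F := K⟮t⟯) (E := E)).toLinearEquiv.finiteDimensional

/-- **Finiteness of the cover over `K(t)`**, from the cover relation. -/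
theorem S18XB5_finiteDimensional_cover (j : F) (t : E) [FiniteDimensional K⟮j⟯ F]
    (hgen : IntermediateField.adjoin F {t} = ⊤) (An Bd : K[X]) (hBt : aeval t Bd ≠ 0)
    (hrel : algebraMap F E j * aeval t Bd = aeval t An) : FiniteDimensional K⟮t⟯ E :=
  S18XB5_finiteDimensional_cover' j t hgen (S18XB5_j_mem j t An Bd hBt hrel)

end fin

end Fermat.Agent.S18_helper10_COVFIN
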