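import Mathlib

set_option autoImplicit false
set_option linter.style.haveILetI false

/-!
# S18, piece X-B5a (abstract part): extension of embeddings to a cover and count

`F / K(j)` is a finite extension, `E = F(t)` with `j = An(t) / Bd(t)`, and we are given
`[F : K(j)]` pairwise distinct embeddings `ι i : F → Ω` agreeing on `K` and on `j`, together
with a point `T : Ω`, transcendental over `K`, with `J = An(T) / Bd(T)`.  Then exactly
`[E : K(t)]` of the `ι i` extend to embeddings `E → Ω` with `t ↦ T`.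
-/

open Polynomial IntermediateField

namespace Fermat.Agent.S18_helper10_EXTCNT

section base

variable {K Ω : Type*} [Field K] [Field Ω] (φ : K →+* Ω) (T : Ω)

/-- evaluation at `T` is injective on polynomials when `T` is transcendental -/
theorem S18XB5_eval_injective (hT : ∀ p : K[X], p ≠ 0 → (p.map φ).eval T ≠ 0) :
    Function.Injective (Polynomial.eval₂RingHom φ T) := by
  rw [injective_iff_map_eq_zero]
  intro p hp
  by_contra h
  exact hT p h (by rw [Polynomial.eval_map]; exact hp)

variable {E : Type*} [Field E] [Algebra K E] (t : E) (ht : Transcendental K t)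

/-- the embedding `K(t) → Ω`, `t ↦ T` -/
noncomputable def S18XB5_theta (hT : ∀ p : K[X], p ≠ 0 → (p.map φ).eval T ≠ 0) : K⟮t⟯ →+* Ω :=
  (RatFunc.liftRingHom (Polynomial.eval₂RingHom φ T)
    (nonZeroDivisors_le_comap_nonZeroDivisors_of_injective _
      (S18XB5_eval_injective φ T hT))).comp
    (RatFunc.algEquivOfTranscendental t ht).symm.toRingEquiv.toRingHom

theorem S18XB5_theta_gen (hT : ∀ p : K[X], p ≠ 0 → (p.map φ).eval T ≠ 0) :
    S18XB5_theta φ T t ht hT (AdjoinSimple.gen K t) = T := by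
  unfold S18XB5_theta
  rw [RingHom.comp_apply]
  have : (RatFunc.algEquivOfTranscendental t ht).symm.toRingEquiv.toRingHom
      (AdjoinSimple.gen K t) = (RatFunc.X : RatFunc K) :=
    RatFunc.algEquivOfTranscendental_symm_gen t ht
  rw [this, ← RatFunc.algebraMap_X, RatFunc.liftRingHom_algebraMap]
  simp

theorem S18XB5_theta_algebraMap (hT : ∀ p : K[X], p ≠ 0 → (p.map φ).eval T ≠ 0) (a : K) :
    S18XB5_theta φ T t ht hT (algebraMap K K⟮t⟯ a) = φ a := by
  unfold S18XB5_theta
  rw [RingHom.comp_apply]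
  have : (RatFunc.algEquivOfTranscendental t ht).symm.toRingEquiv.toRingHom
      (algebraMap K K⟮t⟯ a) = algebraMap K (RatFunc K) a :=
    (RatFunc.algEquivOfTranscendental t ht).symm.commutes a
  rw [this, RatFunc.algebraMap_eq_C, ← RatFunc.algebraMap_C, RatFunc.liftRingHom_algebraMap]
  simp

end base

section count

/-- Two ring homs out of `F` that agree on `K` and on `t` agree on `K⟮t⟯`. -/
theorem S18XB5_agree_on_adjoin {K F Ω : Type*} [Field K] [Field F] [Algebra K F] [Field Ω]
    (t : F) (f g : F →+* Ω) (hK : ∀ a, f (algebraMap K F a) = g (algebraMap K F a))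
    (ht : f t = g t) (x : F) (hx : x ∈ K⟮t⟯) : f x = g x := by
  induction hx using IntermediateField.adjoin_induction with
  | mem y hy =>
    rw [Set.mem_singleton_iff] at hy
    subst hy
    exact ht
  | algebraMap a => exact hK a
  | add x y hx hy h1 h2 => rw [map_add, map_add, h1, h2]
  | inv x hx h => rw [map_inv₀, map_inv₀, h]
  | mul x y hx hy h1 h2 => rw [map_mul, map_mul, h1, h2]

/-- The number of pairwise distinct embeddings `F → Ω` agreeing on `K` and on `t`
is at most `[F : K(t)]`. -/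
theorem S18XB5_card_le {K F Ω : Type*} [Field K] [Field F] [Algebra K F] [Field Ω] (t : F)
    [FiniteDimensional K⟮t⟯ F] {I : Type*} [Fintype I] (ι : I → F →+* Ω)
    (hinj : Function.Injective ι)
    (hK : ∀ i i' a, ι i (algebraMap K F a) = ι i' (algebraMap K F a))
    (ht : ∀ i i', ι i t = ι i' t) : Fintype.card I ≤ Module.finrank K⟮t⟯ F := by
  classical
  rcases isEmpty_or_nonempty I with hI | ⟨⟨i₀⟩⟩
  · simp
  letI algΩ : Algebra K⟮t⟯ Ω := ((ι i₀).comp (algebraMap K⟮t⟯ F)).toAlgebra
  have hagree : ∀ i (x : K⟮t⟯), ι i (x : F) = ι i₀ (x : F) := fun i x =>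
    S18XB5_agree_on_adjoin t (ι i) (ι i₀) (hK i i₀) (ht i i₀) x x.2
  let φ : I → (F →ₐ[K⟮t⟯] Ω) := fun i =>
    { ι i with commutes' := fun x => hagree i x }
  have hφ : Function.Injective φ := by
    intro i i' h
    apply hinj
    ext x
    have := congrArg (fun f : F →ₐ[K⟮t⟯] Ω => f x) h
    exact this
  calc Fintype.card I = Nat.card I := (Nat.card_eq_fintype_card).symm
    _ ≤ Nat.card (F →ₐ[K⟮t⟯] Ω) := Nat.card_le_card_of_injective φ hφ
    _ ≤ Module.finrank K⟮t⟯ F := card_algHom_le_finrank _ _ _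

/-- A ring hom with values in the range of an injective ring hom factors through it. -/
theorem S18XB5_exists_lift {E Ω Ωb : Type*} [Semiring E] [Semiring Ω] [Semiring Ωb]
    (f : Ω →+* Ωb) (hf : Function.Injective f) (Ψ : E →+* Ωb) (h : ∀ x, ∃ y, f y = Ψ x) :
    ∃ Φ : E →+* Ω, ∀ x, f (Φ x) = Ψ x := by
  choose g hg using h
  refine ⟨{ toFun := g, map_one' := ?_, map_mul' := ?_, map_zero' := ?_, map_add' := ?_ }, hg⟩
  · apply hf; rw [hg, map_one, map_one]
  · intro x y; apply hf; rw [hg, map_mul, map_mul, hg, hg]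
  · apply hf; rw [hg, map_zero, map_zero]
  · intro x y; apply hf; rw [hg, map_add, map_add, hg, hg]

variable {K F E Ω : Type*} [Field K] [Field F] [Field E] [Field Ω]
  [Algebra K F] [Algebra F E] [Algebra K E] [IsScalarTower K F E] [CharZero K]

/-- **Extension and count.**  Exactly `[E : K(t)]` of the embeddings `ι i` extend to `E = F(t)`
with `t ↦ T`. -/
theorem S18XB5_ext_count
    (φ : K →+* Ω) (j : F) (t : E) (ht : Transcendental K t)
    [FiniteDimensional K⟮j⟯ F] [FiniteDimensional K⟮t⟯ E]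
    (hgen : IntermediateField.adjoin F {t} = ⊤)
    (An Bd : K[X]) (hBd : Bd ≠ 0) (hrel : algebraMap F E j * aeval t Bd = aeval t An)
    {I : Type*} [Fintype I] (ι : I → F →+* Ω) (hι : Function.Injective ι)
    (hιK : ∀ i a, ι i (algebraMap K F a) = φ a) (J : Ω) (hιj : ∀ i, ι i j = J)
    (hcard : Fintype.card I = Module.finrank K⟮j⟯ F)
    (T : Ω) (hT : ∀ p : K[X], p ≠ 0 → (p.map φ).eval T ≠ 0)
    (hrelΩ : J * (Bd.map φ).eval T = (An.map φ).eval T) :
    ∃ (S : Finset I) (Φ : {i // i ∈ S} → E →+* Ω),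
      S.card = Module.finrank K⟮t⟯ E ∧
      (∀ i : {i // i ∈ S}, ∀ x : F, Φ i (algebraMap F E x) = ι i x) ∧
      (∀ i : {i // i ∈ S}, Φ i t = T) := by
  classical
  let alg : Ω →+* AlgebraicClosure Ω := algebraMap Ω (AlgebraicClosure Ω)
  have halg : Function.Injective alg := (algebraMap Ω (AlgebraicClosure Ω)).injective
  let θ : K⟮t⟯ →+* AlgebraicClosure Ω := alg.comp (S18XB5_theta φ T t ht hT)
  letI algθ : Algebra K⟮t⟯ (AlgebraicClosure Ω) := θ.toAlgebra
  haveI : CharZero K⟮t⟯ := charZero_of_injective_algebraMap (algebraMap K K⟮t⟯).injective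
  haveI : Algebra.IsSeparable K⟮t⟯ E := Algebra.IsAlgebraic.isSeparable_of_perfectField
  have hcardΨ : Fintype.card (E →ₐ[K⟮t⟯] AlgebraicClosure Ω) = Module.finrank K⟮t⟯ E :=
    AlgHom.card _ _ _
  -- basic properties of a `K(t)`-embedding
  have hΨK : ∀ (Ψ : E →ₐ[K⟮t⟯] AlgebraicClosure Ω) (a : K),
      Ψ (algebraMap K E a) = alg (φ a) := by
    intro Ψ a
    have h2 := Ψ.commutes (algebraMap K K⟮t⟯ a)
    have h3 : algebraMap K⟮t⟯ (AlgebraicClosure Ω) (algebraMap K K⟮t⟯ a) =
        alg (S18XB5_theta φ T t ht hT (algebraMap K K⟮t⟯ a)) := rfl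
    rw [h3, S18XB5_theta_algebraMap] at h2
    exact h2
  have hΨt : ∀ (Ψ : E →ₐ[K⟮t⟯] AlgebraicClosure Ω), Ψ t = alg T := by
    intro Ψ
    have h2 := Ψ.commutes (AdjoinSimple.gen K t)
    have h3 : algebraMap K⟮t⟯ (AlgebraicClosure Ω) (AdjoinSimple.gen K t) =
        alg (S18XB5_theta φ T t ht hT (AdjoinSimple.gen K t)) := rfl
    rw [h3, S18XB5_theta_gen] at h2
    exact h2
  have hΨp : ∀ (Ψ : E →ₐ[K⟮t⟯] AlgebraicClosure Ω) (p : K[X]),
      Ψ (aeval t p) = alg ((p.map φ).eval T) := by
    intro Ψ p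
    induction p using Polynomial.induction_on' with
    | add p q hp hq => rw [map_add, map_add, hp, hq, Polynomial.map_add, Polynomial.eval_add,
        map_add]
    | monomial n a =>
      rw [Polynomial.aeval_monomial, map_mul, map_pow, hΨt, hΨK, Polynomial.map_monomial,
        Polynomial.eval_monomial, map_mul, map_pow]
  have hΨj : ∀ (Ψ : E →ₐ[K⟮t⟯] AlgebraicClosure Ω), Ψ (algebraMap F E j) = alg J := by
    intro Ψ
    have h1 := congrArg Ψ hrel
    rw [map_mul, hΨp, hΨp, ← hrelΩ, map_mul] at h1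
    have h2 : alg ((Bd.map φ).eval T) ≠ 0 := by
      rw [Ne, map_eq_zero_iff alg halg]
      exact hT Bd hBd
    exact mul_right_cancel₀ h2 h1
  -- every `K(t)`-embedding restricts to one of the `ι i`
  have key : ∀ Ψ : E →ₐ[K⟮t⟯] AlgebraicClosure Ω,
      ∃ i, ∀ x : F, Ψ (algebraMap F E x) = alg (ι i x) := by
    intro Ψ
    by_contra hcon
    push Not at hcon
    let ψ : F →+* AlgebraicClosure Ω := (Ψ : E →+* AlgebraicClosure Ω).comp (algebraMap F E)
    let fam : Option I → F →+* AlgebraicClosure Ω := fun o =>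
      match o with
      | none => ψ
      | some i => alg.comp (ι i)
    have hfam : Function.Injective fam := by
      intro a b hab
      rcases a with _ | i <;> rcases b with _ | i'
      · rfl
      · exfalso
        obtain ⟨x, hx⟩ := hcon i'
        exact hx (RingHom.congr_fun hab x)
      · exfalso
        obtain ⟨x, hx⟩ := hcon i
        exact hx (RingHom.congr_fun hab x).symm
      · have : ι i = ι i' := by
          ext x
          exact halg (RingHom.congr_fun hab x)
        rw [hι this]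
    have hfK : ∀ o (a : K), fam o (algebraMap K F a) = alg (φ a) := by
      intro o a
      rcases o with _ | i
      · show Ψ (algebraMap F E (algebraMap K F a)) = _
        rw [← IsScalarTower.algebraMap_apply, hΨK]
      · show alg (ι i (algebraMap K F a)) = _
        rw [hιK]
    have hfj : ∀ o, fam o j = alg J := by
      intro o
      rcases o with _ | i
      · exact hΨj Ψ
      · show alg (ι i j) = _
        rw [hιj]
    have h1 := S18XB5_card_le (K := K) j fam hfam
      (fun o o' a => by rw [hfK, hfK]) (fun o o' => by rw [hfj, hfj])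
    rw [Fintype.card_option, hcard] at h1
    omega
  choose c hc using key
  -- the restriction determines the embedding
  have hagree : ∀ (Ψ Ψ' : E →ₐ[K⟮t⟯] AlgebraicClosure Ω), c Ψ = c Ψ' →
      ∀ x ∈ IntermediateField.adjoin F {t}, Ψ x = Ψ' x := by
    intro Ψ Ψ' h x hx
    induction hx using IntermediateField.adjoin_induction with
    | mem y hy =>
      rw [Set.mem_singleton_iff] at hy
      subst hy
      rw [hΨt, hΨt]
    | algebraMap a => rw [hc, hc, h]
    | add x y hx hy h1 h2 => rw [map_add, map_add, h1, h2]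
    | inv x hx h => rw [map_inv₀, map_inv₀, h]
    | mul x y hx hy h1 h2 => rw [map_mul, map_mul, h1, h2]
  have hcinj : Function.Injective c := by
    intro Ψ Ψ' h
    ext x
    exact hagree Ψ Ψ' h x (by rw [hgen]; trivial)
  -- the embeddings take values in `Ω`
  have hrange : ∀ (Ψ : E →ₐ[K⟮t⟯] AlgebraicClosure Ω),
      ∀ x ∈ IntermediateField.adjoin F {t}, ∃ y, alg y = Ψ x := by
    intro Ψ x hx
    induction hx using IntermediateField.adjoin_induction with
    | mem y hy =>
      rw [Set.mem_singleton_iff] at hy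
      subst hy
      exact ⟨T, (hΨt Ψ).symm⟩
    | algebraMap a => exact ⟨ι (c Ψ) a, (hc Ψ a).symm⟩
    | add x y hx hy h1 h2 =>
      obtain ⟨a, ha⟩ := h1
      obtain ⟨b, hb⟩ := h2
      exact ⟨a + b, by rw [map_add, map_add, ha, hb]⟩
    | inv x hx h =>
      obtain ⟨a, ha⟩ := h
      exact ⟨a⁻¹, by rw [map_inv₀, map_inv₀, ha]⟩
    | mul x y hx hy h1 h2 =>
      obtain ⟨a, ha⟩ := h1
      obtain ⟨b, hb⟩ := h2
      exact ⟨a * b, by rw [map_mul, map_mul, ha, hb]⟩
  have hlift : ∀ (Ψ : E →ₐ[K⟮t⟯] AlgebraicClosure Ω),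
      ∃ Φ : E →+* Ω, ∀ x, alg (Φ x) = Ψ x := fun Ψ =>
    S18XB5_exists_lift alg halg (Ψ : E →+* AlgebraicClosure Ω)
      (fun x => hrange Ψ x (by rw [hgen]; trivial))
  choose L hL using hlift
  have hS : ∀ i : {i // i ∈ Finset.univ.image c}, ∃ Ψ, c Ψ = i.1 := fun i => by
    obtain ⟨Ψ, -, hΨ⟩ := Finset.mem_image.mp i.2
    exact ⟨Ψ, hΨ⟩
  choose P hP using hS
  refine ⟨Finset.univ.image c, fun i => L (P i), ?_, ?_, ?_⟩
  · rw [Finset.card_image_of_injective _ hcinj, Finset.card_univ, hcardΨ]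
  · intro i x
    apply halg
    rw [hL, hc, hP]
  · intro i
    apply halg
    rw [hL, hΨt]

/-- **Extension and count, packaged.**  Same as `S18XB5_ext_count`, with the derived properties:
the extensions are pairwise distinct, restrict to `φ` on `K`, and send every polynomial in `t`
to the same polynomial in `T`. -/
theorem S18XB5_ext_count_full
    (φ : K →+* Ω) (j : F) (t : E) (ht : Transcendental K t)
    [FiniteDimensional K⟮j⟯ F] [FiniteDimensional K⟮t⟯ E]
    (hgen : IntermediateField.adjoin F {t} = ⊤)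
    (An Bd : K[X]) (hBd : Bd ≠ 0) (hrel : algebraMap F E j * aeval t Bd = aeval t An)
    {I : Type*} [Fintype I] (ι : I → F →+* Ω) (hι : Function.Injective ι)
    (hιK : ∀ i a, ι i (algebraMap K F a) = φ a) (J : Ω) (hιj : ∀ i, ι i j = J)
    (hcard : Fintype.card I = Module.finrank K⟮j⟯ F)
    (T : Ω) (hT : ∀ p : K[X], p ≠ 0 → (p.map φ).eval T ≠ 0)
    (hrelΩ : J * (Bd.map φ).eval T = (An.map φ).eval T) :
    ∃ (S : Finset I) (Φ : {i // i ∈ S} → E →+* Ω),
      Fintype.card {i // i ∈ S} = Module.finrank K⟮t⟯ E ∧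
      Function.Injective Φ ∧
      (∀ i : {i // i ∈ S}, ∀ x : F, Φ i (algebraMap F E x) = ι i x) ∧
      (∀ i : {i // i ∈ S}, ∀ a : K, Φ i (algebraMap K E a) = φ a) ∧
      (∀ i : {i // i ∈ S}, Φ i t = T) ∧
      (∀ i : {i // i ∈ S}, ∀ p : K[X], Φ i (aeval t p) = (p.map φ).eval T) := by
  classical
  obtain ⟨S, Φ, h1, h2, h3⟩ := S18XB5_ext_count φ j t ht hgen An Bd hBd hrel ι hι hιK J hιj
    hcard T hT hrelΩ
  have hK : ∀ i : {i // i ∈ S}, ∀ a : K, Φ i (algebraMap K E a) = φ a := by
    intro i a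
    rw [IsScalarTower.algebraMap_apply K F E, h2, hιK]
  refine ⟨S, Φ, ?_, ?_, h2, hK, h3, ?_⟩
  · rw [Fintype.card_coe, h1]
  · intro i i' h
    apply Subtype.ext
    apply hι
    ext x
    rw [← h2 i x, ← h2 i' x, h]
  · intro i p
    induction p using Polynomial.induction_on' with
    | add p q hp hq => rw [map_add, map_add, hp, hq, Polynomial.map_add, Polynomial.eval_add]
    | monomial n a =>
      rw [Polynomial.aeval_monomial, map_mul, map_pow, h3, hK, Polynomial.map_monomial,
        Polynomial.eval_monomial]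

end count

end Fermat.Agent.S18_helper10_EXTCNT
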