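import Fermat.Agent.S18_helper10_LOCX
import Fermat.Agent.S18_helper29_COVERS2

/-!
# S18, piece X-B5b-LOCDATA: the local analytic data of the three covers

For the covers `lam` (`j = lamNum(t) / lamDen(t)`), `mu` (`j = muNum(t) / muDen(t)`) and `tau`
(`j⁻¹ = t ^ N`) of the `j`-line, and a point `θ ∈ ℂ` of a horizontal prime, we produce the local
analytic data consumed by the abstract assembly of X-B5b-HOR: a power series `T(s)` with
`T(0) = θ`, `T'(0) ≠ 0`, and `[F₁ : K₁(j)]` pairwise distinct embeddings `ι q : F₁ → ℂ((s))`,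
constant on constants, with `ι q (x) * Bd(T) = An(T)`.

Everything is generic in a model `F₁ / K₁` of the modular function field (hypotheses `hinc`,
`hincj`, `hjF1`, `hdeg`).
-/

set_option autoImplicit false
set_option linter.unusedSectionVars false
set_option linter.style.haveILetI false

open IntermediateField
open Fermat.Agent.S20 Fermat.Agent.S24
open Fermat.Agent.S18_helper21_HENSEL Fermat.Agent.S18_helper10_EXTCNT
open Fermat.Agent.S18_helper10_LOCX Fermat.Agent.S18_helper29_COVERS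

namespace Fermat.Agent.S18_helper10_LOCDATA

/-! ### Auxiliary lemmas -/

/-- a complex number algebraic over (the image of) `ℚ̄` lies in the image of `ℚ̄` -/
theorem S18XB5_mem_range_phi0 (P : Polynomial Kbar) (hP : P ≠ 0) (θ : ℂ)
    (h : (P.map phi0).eval θ = 0) : ∃ θ' : Kbar, phi0 θ' = θ := by
  have hs := (IsAlgClosed.splits P).eq_prod_roots
  rw [hs, Polynomial.map_mul, Polynomial.map_C, Polynomial.eval_mul, Polynomial.eval_C,
    Polynomial.map_multiset_prod, Polynomial.eval_multiset_prod, Multiset.map_map,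
    Multiset.map_map] at h
  rcases mul_eq_zero.mp h with h1 | h1
  · exfalso
    rw [map_eq_zero_iff _ phi0.injective] at h1
    exact Polynomial.leadingCoeff_ne_zero.mpr hP h1
  · obtain ⟨r, -, hr⟩ := Multiset.mem_map.mp (Multiset.prod_eq_zero_iff.mp h1)
    refine ⟨r, ?_⟩
    have : θ - phi0 r = 0 := by
      simpa using hr
    exact (sub_eq_zero.mp this).symm

/-- conversion between the two ways of evaluating a polynomial at a power series -/
theorem S18XB5_aeval_map_map {O : Type*} [CommRing O] (σ : O →+* Kbar) (T : PowerSeries ℂ)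
    (p : Polynomial O) :
    Polynomial.aeval (HahnSeries.ofPowerSeries ℤ ℂ T) ((p.map σ).map phi0) =
      HahnSeries.ofPowerSeries ℤ ℂ
        (Polynomial.eval₂ ((PowerSeries.C : ℂ →+* PowerSeries ℂ).comp (phi0.comp σ)) T p) := by
  rw [S18P11_aeval_ofPowerSeries, Polynomial.aeval_def, Polynomial.eval₂_map,
    Polynomial.eval₂_map]
  rfl

/-- an element of `(π, X - t₀)` takes a value divisible by `π` at `t₀` -/
theorem S18XB5_dvd_eval_of_mem {O : Type*} [CommRing O] (π t₀ : O) (p : Polynomial O)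
    (hp : p ∈ (Ideal.span {Polynomial.C π, Polynomial.X - Polynomial.C t₀} :
      Ideal (Polynomial O))) : π ∣ p.eval t₀ := by
  obtain ⟨a, b, rfl⟩ := Ideal.mem_span_pair.mp hp
  simp only [Polynomial.eval_add, Polynomial.eval_mul, Polynomial.eval_C, Polynomial.eval_sub,
    Polynomial.eval_X, sub_self, mul_zero, add_zero]
  exact Dvd.intro_left _ rfl

/-! ### Generic local data -/

section generic

variable (N : ℕ) [NeZero N] {O K1 F1 : Type} [CommRing O] [Field K1] [Field F1] [Algebra O K1]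
  [Algebra K1 F1]

/-- **Local data above a finite point**, for a cover `j = An(t) / Bd(t)`. -/
theorem S18XB5_localData_fin
    (emb : K1 →+* Kbar) (inc : F1 →+* ModularCurve.modularFunctionFieldBar N)
    (hinc : ∀ a, inc (algebraMap K1 F1 a) = algebraMap Kbar _ (emb a))
    (hincj : ∀ (d : ℕ) [NeZero d] (hd : d ∣ N), ∃ x : F1, inc x = jF N d hd)
    (jF1 : F1) (hjF1 : inc jF1 = jElt N)
    (hdeg : Module.finrank K1⟮jF1⟯ F1 = Fintype.card (Q N))
    (An Bd : Polynomial O) (θ' j₀ : Kbar) (U : Polynomial Kbar)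
    (hfac : An.map (emb.comp (algebraMap O K1)) -
        Polynomial.C j₀ * Bd.map (emb.comp (algebraMap O K1)) =
      (Polynomial.X - Polynomial.C θ') ^ S18XB5_e0fin j₀ * U)
    (hU : U.eval θ' ≠ 0) (hB : (Bd.map (emb.comp (algebraMap O K1))).eval θ' ≠ 0) :
    ∃ (T : PowerSeries ℂ) (κ : Type) (_ : Fintype κ) (ι : κ → F1 →+* LaurentSeries ℂ),
      PowerSeries.constantCoeff T = phi0 θ' ∧ PowerSeries.coeff 1 T ≠ 0 ∧
      Function.Injective ι ∧
      (∀ q a, ι q (algebraMap K1 F1 a) = HahnSeries.C ((phi0.comp emb) a)) ∧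
      (∀ q, ι q jF1 * HahnSeries.ofPowerSeries ℤ ℂ (Polynomial.eval₂
          ((PowerSeries.C : ℂ →+* PowerSeries ℂ).comp
            ((phi0.comp emb).comp (algebraMap O K1))) T Bd) =
        HahnSeries.ofPowerSeries ℤ ℂ (Polynomial.eval₂
          ((PowerSeries.C : ℂ →+* PowerSeries ℂ).comp
            ((phi0.comp emb).comp (algebraMap O K1))) T An)) ∧
      Fintype.card κ = Module.finrank K1⟮jF1⟯ F1 := by
  obtain ⟨ι, J, hιK, hιinj, hιJ, hJ⟩ := S18XB5_LOC_fin_e0 N j₀
  have he0 : ((S18XB5_e0fin j₀ : ℕ) : ℂ) ≠ 0 :=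
    Nat.cast_ne_zero.mpr (S18XB5_e0fin_pos j₀).ne'
  have hroot : ∀ c : ℂ, ∃ y : ℂ, y ^ S18XB5_e0fin j₀ = c := fun c =>
    IsAlgClosed.exists_pow_nat_eq c (S18XB5_e0fin_pos j₀)
  have hfac' : (An.map (emb.comp (algebraMap O K1))).map phi0 -
      Polynomial.C (phi0 j₀) * (Bd.map (emb.comp (algebraMap O K1))).map phi0 =
      (Polynomial.X - Polynomial.C (phi0 θ')) ^ S18XB5_e0fin j₀ * U.map phi0 := by
    have := congrArg (Polynomial.map phi0) hfac
    simpa only [Polynomial.map_sub, Polynomial.map_mul, Polynomial.map_pow, Polynomial.map_C,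
      Polynomial.map_X] using this
  have hU' : (U.map phi0).eval (phi0 θ') ≠ 0 := by
    rw [Polynomial.eval_map, Polynomial.eval₂_at_apply, Ne, map_eq_zero_iff _ phi0.injective]
    exact hU
  have hB' : ((Bd.map (emb.comp (algebraMap O K1))).map phi0).eval (phi0 θ') ≠ 0 := by
    rw [Polynomial.eval_map, Polynomial.eval₂_at_apply, Ne, map_eq_zero_iff _ phi0.injective]
    exact hB
  obtain ⟨T, hT, hT0, hT1⟩ := S18P11_hensel_cover_laurent (S18XB5_e0fin j₀) he0 hroot
    ((An.map (emb.comp (algebraMap O K1))).map phi0)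
    ((Bd.map (emb.comp (algebraMap O K1))).map phi0) (U.map phi0) (phi0 θ') (phi0 j₀)
    hfac' hU' hB' J hJ
  refine ⟨T, Q N, inferInstance, fun q => (ι q).comp inc, hT0, hT1,
    S18XB5_restrict_injective N inc hincj ι hιK hιinj, ?_, ?_, hdeg.symm⟩
  · intro q a
    show ι q (inc (algebraMap K1 F1 a)) = _
    rw [hinc, hιK]
    rfl
  · intro q
    show ι q (inc jF1) * _ = _
    rw [hjF1, hιJ]
    have h1 := S18XB5_aeval_map_map (emb.comp (algebraMap O K1)) T An
    have h2 := S18XB5_aeval_map_map (emb.comp (algebraMap O K1)) T Bd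
    rw [h1, h2] at hT
    exact hT.symm

/-- `K(x⁻¹) = K(x)` -/
theorem S18XB5_adjoin_inv {K F : Type*} [Field K] [Field F] [Algebra K F] (x : F) :
    K⟮x⁻¹⟯ = K⟮x⟯ := by
  apply le_antisymm
  · rw [IntermediateField.adjoin_simple_le_iff]
    exact inv_mem (IntermediateField.mem_adjoin_simple_self K x)
  · rw [IntermediateField.adjoin_simple_le_iff]
    have := inv_mem (IntermediateField.mem_adjoin_simple_self K x⁻¹)
    rwa [inv_inv] at this

theorem S18XB5_finrank_adjoin_inv {K F : Type*} [Field K] [Field F] [Algebra K F] (x : F) :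
    Module.finrank K⟮x⁻¹⟯ F = Module.finrank K⟮x⟯ F := by
  rw [S18XB5_adjoin_inv]

theorem S18XB5_jElt_ne_zero : jElt N ≠ 0 := by
  intro h
  have ht := Fermat.Agent.S24_helper23_GEN.TR N
  rw [h] at ht
  exact ht (isAlgebraic_zero)

/-- **Local data above a finite point**, for a cover `j⁻¹ = An(t) / Bd(t)`. -/
theorem S18XB5_localData_fin_inv
    (emb : K1 →+* Kbar) (inc : F1 →+* ModularCurve.modularFunctionFieldBar N)
    (hinc : ∀ a, inc (algebraMap K1 F1 a) = algebraMap Kbar _ (emb a))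
    (hincj : ∀ (d : ℕ) [NeZero d] (hd : d ∣ N), ∃ x : F1, inc x = jF N d hd)
    (jF1 : F1) (hjF1 : inc jF1 = jElt N)
    (hdeg : Module.finrank K1⟮jF1⟯ F1 = Fintype.card (Q N))
    (An Bd : Polynomial O) (θ' j₀ : Kbar) (U : Polynomial Kbar)
    (hfac : Bd.map (emb.comp (algebraMap O K1)) -
        Polynomial.C j₀ * An.map (emb.comp (algebraMap O K1)) =
      (Polynomial.X - Polynomial.C θ') ^ S18XB5_e0fin j₀ * U)
    (hU : U.eval θ' ≠ 0) (hA : (An.map (emb.comp (algebraMap O K1))).eval θ' ≠ 0) :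
    ∃ (T : PowerSeries ℂ) (κ : Type) (_ : Fintype κ) (ι : κ → F1 →+* LaurentSeries ℂ),
      PowerSeries.constantCoeff T = phi0 θ' ∧ PowerSeries.coeff 1 T ≠ 0 ∧
      Function.Injective ι ∧
      (∀ q a, ι q (algebraMap K1 F1 a) = HahnSeries.C ((phi0.comp emb) a)) ∧
      (∀ q, ι q jF1⁻¹ * HahnSeries.ofPowerSeries ℤ ℂ (Polynomial.eval₂
          ((PowerSeries.C : ℂ →+* PowerSeries ℂ).comp
            ((phi0.comp emb).comp (algebraMap O K1))) T Bd) =
        HahnSeries.ofPowerSeries ℤ ℂ (Polynomial.eval₂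
          ((PowerSeries.C : ℂ →+* PowerSeries ℂ).comp
            ((phi0.comp emb).comp (algebraMap O K1))) T An)) ∧
      Fintype.card κ = Module.finrank K1⟮jF1⁻¹⟯ F1 := by
  obtain ⟨T, κ, hκ, ι, h1, h2, h3, h4, h5, h6⟩ := S18XB5_localData_fin N emb inc hinc hincj jF1
    hjF1 hdeg Bd An θ' j₀ U hfac hU hA
  refine ⟨T, κ, hκ, ι, h1, h2, h3, h4, ?_, ?_⟩
  · intro q
    have hj0 : jF1 ≠ 0 := by
      intro h
      have := hjF1
      rw [h, map_zero] at this
      exact S18XB5_jElt_ne_zero N this.symm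
    have hι0 : ι q jF1 ≠ 0 := by
      rw [Ne, map_eq_zero_iff _ (ι q).injective]
      exact hj0
    rw [← h5 q, map_inv₀, ← mul_assoc, inv_mul_cancel₀ hι0, one_mul]
  · rw [h6, S18XB5_finrank_adjoin_inv]

/-- **Local data above the cusp**, for the cover `j⁻¹ = t ^ N`. -/
theorem S18XB5_localData_cusp
    (emb : K1 →+* Kbar) (inc : F1 →+* ModularCurve.modularFunctionFieldBar N)
    (hinc : ∀ a, inc (algebraMap K1 F1 a) = algebraMap Kbar _ (emb a))
    (hincj : ∀ (d : ℕ) [NeZero d] (hd : d ∣ N), ∃ x : F1, inc x = jF N d hd)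
    (jF1 : F1) (hjF1 : inc jF1 = jElt N)
    (hdeg : Module.finrank K1⟮jF1⟯ F1 = Fintype.card (Q N)) :
    ∃ (T : PowerSeries ℂ) (κ : Type) (_ : Fintype κ) (ι : κ → F1 →+* LaurentSeries ℂ),
      PowerSeries.constantCoeff T = 0 ∧ PowerSeries.coeff 1 T ≠ 0 ∧
      Function.Injective ι ∧
      (∀ q a, ι q (algebraMap K1 F1 a) = HahnSeries.C ((phi0.comp emb) a)) ∧
      (∀ q, ι q jF1⁻¹ * HahnSeries.ofPowerSeries ℤ ℂ (Polynomial.eval₂
          ((PowerSeries.C : ℂ →+* PowerSeries ℂ).comp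
            ((phi0.comp emb).comp (algebraMap O K1))) T (1 : Polynomial O)) =
        HahnSeries.ofPowerSeries ℤ ℂ (Polynomial.eval₂
          ((PowerSeries.C : ℂ →+* PowerSeries ℂ).comp
            ((phi0.comp emb).comp (algebraMap O K1))) T (Polynomial.X ^ N : Polynomial O))) ∧
      Fintype.card κ = Module.finrank K1⟮jF1⁻¹⟯ F1 := by
  obtain ⟨ι, J, hιK, hιinj, hιJ, hJ⟩ := S18XB5_LOC_inf_e0 N
  have hN : ((N : ℕ) : ℂ) ≠ 0 := Nat.cast_ne_zero.mpr (NeZero.ne N)
  have hroot : ∀ c : ℂ, ∃ y : ℂ, y ^ N = c := fun c =>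
    IsAlgClosed.exists_pow_nat_eq c (Nat.pos_of_ne_zero (NeZero.ne N))
  obtain ⟨T, hT, hT0, hT1⟩ := S18P11_hensel_root N hN hroot J⁻¹ hJ
  refine ⟨T, Q N, inferInstance, fun q => (ι q).comp inc, hT0, hT1,
    S18XB5_restrict_injective N inc hincj ι hιK hιinj, ?_, ?_, ?_⟩
  · intro q a
    show ι q (inc (algebraMap K1 F1 a)) = _
    rw [hinc, hιK]
    rfl
  · intro q
    show ι q (inc jF1⁻¹) * _ = _
    rw [map_inv₀, hjF1, map_inv₀, hιJ, Polynomial.eval₂_one, map_one, mul_one,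
      Polynomial.eval₂_pow, Polynomial.eval₂_X, map_pow, hT]
  · rw [S18XB5_finrank_adjoin_inv, hdeg]

end generic

/-! ### The three covers -/

section covers

variable (N : ℕ) [NeZero N] {O K1 F1 : Type} [CommRing O] [Field K1] [Field F1] [Algebra O K1]
  [Algebra K1 F1]

/-- an algebraic point comes from `ℚ̄` -/
theorem S18XB5_theta_data (hOK : Function.Injective (algebraMap O K1)) (emb : K1 →+* Kbar)
    (θ : ℂ)
    (hθalg : ∃ p : Polynomial O, p ≠ 0 ∧
      Polynomial.eval₂ ((phi0.comp emb).comp (algebraMap O K1)) θ p = 0) :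
    ∃ θ' : Kbar, phi0 θ' = θ := by
  obtain ⟨p, hp0, hp⟩ := hθalg
  have hinj : Function.Injective (emb.comp (algebraMap O K1)) := by
    intro a b h
    exact hOK (emb.injective h)
  refine S18XB5_mem_range_phi0 (p.map (emb.comp (algebraMap O K1)))
    ((Polynomial.map_ne_zero_iff hinj).mpr hp0) θ ?_
  rw [Polynomial.eval_map, Polynomial.eval₂_map]
  exact hp

/-- evaluation at a point coming from `ℚ̄` -/
theorem S18XB5_eval₂_phi0 (emb : K1 →+* Kbar) (θ' : Kbar) (p : Polynomial O) :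
    Polynomial.eval₂ ((phi0.comp emb).comp (algebraMap O K1)) (phi0 θ') p =
      phi0 ((p.map (emb.comp (algebraMap O K1))).eval θ') := by
  rw [Polynomial.eval_map, Polynomial.hom_eval₂]
  rfl

theorem S18XB5_e0fin_zero : S18XB5_e0fin 0 = 3 := by
  simp [S18XB5_e0fin]

theorem S18XB5_e0fin_1728 : S18XB5_e0fin 1728 = 2 := by
  have h1728 : (1728 : Kbar) ≠ 0 := by norm_num
  simp [S18XB5_e0fin, h1728]

theorem S18XB5_e0fin_generic {j₀ : Kbar} (h0 : j₀ ≠ 0) (h1 : j₀ ≠ 1728) :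
    S18XB5_e0fin j₀ = 1 := by
  simp [S18XB5_e0fin, h0, h1]

/-- **hloc for the Legendre cover `lam`.** -/
theorem S18XB5_hloc_lam (hOK : Function.Injective (algebraMap O K1))
    (emb : K1 →+* Kbar) (inc : F1 →+* ModularCurve.modularFunctionFieldBar N)
    (hinc : ∀ a, inc (algebraMap K1 F1 a) = algebraMap Kbar _ (emb a))
    (hincj : ∀ (d : ℕ) [NeZero d] (hd : d ∣ N), ∃ x : F1, inc x = jF N d hd)
    (jF1 : F1) (hjF1 : inc jF1 = jElt N)
    (hdeg : Module.finrank K1⟮jF1⟯ F1 = Fintype.card (Q N))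
    (π t₀ : O) (hden : ¬ π ∣ (lamDen O).eval t₀) (θ : ℂ)
    (hθ : ∀ p : Polynomial O,
      p ∉ (Ideal.span {Polynomial.C π, Polynomial.X - Polynomial.C t₀} : Ideal (Polynomial O)) →
      Polynomial.eval₂ ((phi0.comp emb).comp (algebraMap O K1)) θ p ≠ 0)
    (hθalg : ∃ p : Polynomial O, p ≠ 0 ∧
      Polynomial.eval₂ ((phi0.comp emb).comp (algebraMap O K1)) θ p = 0) :
    ∃ (T : PowerSeries ℂ) (κ : Type) (_ : Fintype κ) (ι : κ → F1 →+* LaurentSeries ℂ),
      PowerSeries.constantCoeff T = θ ∧ PowerSeries.coeff 1 T ≠ 0 ∧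
      Function.Injective ι ∧
      (∀ q a, ι q (algebraMap K1 F1 a) = HahnSeries.C ((phi0.comp emb) a)) ∧
      (∀ q, ι q jF1 * HahnSeries.ofPowerSeries ℤ ℂ (Polynomial.eval₂
          ((PowerSeries.C : ℂ →+* PowerSeries ℂ).comp
            ((phi0.comp emb).comp (algebraMap O K1))) T (lamDen O)) =
        HahnSeries.ofPowerSeries ℤ ℂ (Polynomial.eval₂
          ((PowerSeries.C : ℂ →+* PowerSeries ℂ).comp
            ((phi0.comp emb).comp (algebraMap O K1))) T (lamNum O))) ∧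
      Fintype.card κ = Module.finrank K1⟮jF1⟯ F1 := by
  obtain ⟨θ', rfl⟩ := S18XB5_theta_data hOK emb θ hθalg
  have hmapN : (lamNum O).map (emb.comp (algebraMap O K1)) = lamNum Kbar := by
    simp [lamNum, lamA]
  have hmapD : (lamDen O).map (emb.comp (algebraMap O K1)) = lamDen Kbar := by
    simp [lamDen, lamB]
  have hD : (lamDen Kbar).eval θ' ≠ 0 := by
    have h1 := hθ (lamDen O) (fun hmem => hden (S18XB5_dvd_eval_of_mem π t₀ _ hmem))
    intro h0
    apply h1
    rw [S18XB5_eval₂_phi0, hmapD, h0, map_zero]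
  obtain ⟨U, hU1, hU2⟩ := lam_local_factor (L := Kbar) two_ne_zero three_ne_zero θ' hD
    (S18XB5_e0fin ((lamNum Kbar).eval θ' / (lamDen Kbar).eval θ'))
    (fun h => by rw [h, S18XB5_e0fin_zero]) (fun h => by rw [h, S18XB5_e0fin_1728])
    (fun h0 h1 => S18XB5_e0fin_generic h0 h1)
  exact S18XB5_localData_fin N emb inc hinc hincj jF1 hjF1 hdeg (lamNum O) (lamDen O) θ'
    ((lamNum Kbar).eval θ' / (lamDen Kbar).eval θ') U (by rw [hmapN, hmapD]; exact hU1) hU2
    (by rw [hmapD]; exact hD)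

/-- **hloc for the Hesse cover `mu`.** -/
theorem S18XB5_hloc_mu (hOK : Function.Injective (algebraMap O K1))
    (emb : K1 →+* Kbar) (inc : F1 →+* ModularCurve.modularFunctionFieldBar N)
    (hinc : ∀ a, inc (algebraMap K1 F1 a) = algebraMap Kbar _ (emb a))
    (hincj : ∀ (d : ℕ) [NeZero d] (hd : d ∣ N), ∃ x : F1, inc x = jF N d hd)
    (jF1 : F1) (hjF1 : inc jF1 = jElt N)
    (hdeg : Module.finrank K1⟮jF1⟯ F1 = Fintype.card (Q N))
    (π t₀ : O) (hden : ¬ π ∣ (muDen O).eval t₀) (θ : ℂ)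
    (hθ : ∀ p : Polynomial O,
      p ∉ (Ideal.span {Polynomial.C π, Polynomial.X - Polynomial.C t₀} : Ideal (Polynomial O)) →
      Polynomial.eval₂ ((phi0.comp emb).comp (algebraMap O K1)) θ p ≠ 0)
    (hθalg : ∃ p : Polynomial O, p ≠ 0 ∧
      Polynomial.eval₂ ((phi0.comp emb).comp (algebraMap O K1)) θ p = 0) :
    ∃ (T : PowerSeries ℂ) (κ : Type) (_ : Fintype κ) (ι : κ → F1 →+* LaurentSeries ℂ),
      PowerSeries.constantCoeff T = θ ∧ PowerSeries.coeff 1 T ≠ 0 ∧
      Function.Injective ι ∧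
      (∀ q a, ι q (algebraMap K1 F1 a) = HahnSeries.C ((phi0.comp emb) a)) ∧
      (∀ q, ι q jF1 * HahnSeries.ofPowerSeries ℤ ℂ (Polynomial.eval₂
          ((PowerSeries.C : ℂ →+* PowerSeries ℂ).comp
            ((phi0.comp emb).comp (algebraMap O K1))) T (muDen O)) =
        HahnSeries.ofPowerSeries ℤ ℂ (Polynomial.eval₂
          ((PowerSeries.C : ℂ →+* PowerSeries ℂ).comp
            ((phi0.comp emb).comp (algebraMap O K1))) T (muNum O))) ∧
      Fintype.card κ = Module.finrank K1⟮jF1⟯ F1 := by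
  obtain ⟨θ', rfl⟩ := S18XB5_theta_data hOK emb θ hθalg
  have hmapN : (muNum O).map (emb.comp (algebraMap O K1)) = muNum Kbar := by
    simp [muNum, muA]
  have hmapD : (muDen O).map (emb.comp (algebraMap O K1)) = muDen Kbar := by
    simp [muDen, muB]
  have hD : (muDen Kbar).eval θ' ≠ 0 := by
    have h1 := hθ (muDen O) (fun hmem => hden (S18XB5_dvd_eval_of_mem π t₀ _ hmem))
    intro h0
    apply h1
    rw [S18XB5_eval₂_phi0, hmapD, h0, map_zero]
  obtain ⟨U, hU1, hU2⟩ := mu_local_factor (L := Kbar) two_ne_zero three_ne_zero θ' hD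
    (S18XB5_e0fin ((muNum Kbar).eval θ' / (muDen Kbar).eval θ'))
    (fun h => by rw [h, S18XB5_e0fin_zero]) (fun h => by rw [h, S18XB5_e0fin_1728])
    (fun h0 h1 => S18XB5_e0fin_generic h0 h1)
  exact S18XB5_localData_fin N emb inc hinc hincj jF1 hjF1 hdeg (muNum O) (muDen O) θ'
    ((muNum Kbar).eval θ' / (muDen Kbar).eval θ') U (by rw [hmapN, hmapD]; exact hU1) hU2
    (by rw [hmapD]; exact hD)

/-- **hloc for the cusp cover `tau`** (`x = j⁻¹ = t ^ N`). -/
theorem S18XB5_hloc_tau (hOK : Function.Injective (algebraMap O K1))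
    (emb : K1 →+* Kbar) (inc : F1 →+* ModularCurve.modularFunctionFieldBar N)
    (hinc : ∀ a, inc (algebraMap K1 F1 a) = algebraMap Kbar _ (emb a))
    (hincj : ∀ (d : ℕ) [NeZero d] (hd : d ∣ N), ∃ x : F1, inc x = jF N d hd)
    (jF1 : F1) (hjF1 : inc jF1 = jElt N)
    (hdeg : Module.finrank K1⟮jF1⟯ F1 = Fintype.card (Q N))
    (π t₀ : O) (hπ : ¬ IsUnit π) (ht₀ : π ∣ t₀) (θ : ℂ)
    (hθ : ∀ p : Polynomial O,
      p ∉ (Ideal.span {Polynomial.C π, Polynomial.X - Polynomial.C t₀} : Ideal (Polynomial O)) →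
      Polynomial.eval₂ ((phi0.comp emb).comp (algebraMap O K1)) θ p ≠ 0)
    (hθalg : ∃ p : Polynomial O, p ≠ 0 ∧
      Polynomial.eval₂ ((phi0.comp emb).comp (algebraMap O K1)) θ p = 0) :
    ∃ (T : PowerSeries ℂ) (κ : Type) (_ : Fintype κ) (ι : κ → F1 →+* LaurentSeries ℂ),
      PowerSeries.constantCoeff T = θ ∧ PowerSeries.coeff 1 T ≠ 0 ∧
      Function.Injective ι ∧
      (∀ q a, ι q (algebraMap K1 F1 a) = HahnSeries.C ((phi0.comp emb) a)) ∧
      (∀ q, ι q jF1⁻¹ * HahnSeries.ofPowerSeries ℤ ℂ (Polynomial.eval₂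
          ((PowerSeries.C : ℂ →+* PowerSeries ℂ).comp
            ((phi0.comp emb).comp (algebraMap O K1))) T (1 : Polynomial O)) =
        HahnSeries.ofPowerSeries ℤ ℂ (Polynomial.eval₂
          ((PowerSeries.C : ℂ →+* PowerSeries ℂ).comp
            ((phi0.comp emb).comp (algebraMap O K1))) T (Polynomial.X ^ N : Polynomial O))) ∧
      Fintype.card κ = Module.finrank K1⟮jF1⁻¹⟯ F1 := by
  obtain ⟨θ', rfl⟩ := S18XB5_theta_data hOK emb θ hθalg
  by_cases h0 : θ' = 0
  · subst h0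
    rw [map_zero]
    exact S18XB5_localData_cusp N emb inc hinc hincj jF1 hjF1 hdeg
  · have hN0 : N ≠ 0 := NeZero.ne N
    have hNK : ((N : ℕ) : Kbar) ≠ 0 := Nat.cast_ne_zero.mpr hN0
    -- `1728 θ ^ N ≠ 1`
    have hp : (Polynomial.C (1728 : O) * Polynomial.X ^ N - 1 : Polynomial O) ∉
        (Ideal.span {Polynomial.C π, Polynomial.X - Polynomial.C t₀} :
          Ideal (Polynomial O)) := by
      intro hmem
      have h1 := S18XB5_dvd_eval_of_mem π t₀ _ hmem
      simp only [Polynomial.eval_sub, Polynomial.eval_mul, Polynomial.eval_C,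
        Polynomial.eval_pow, Polynomial.eval_X, Polynomial.eval_one] at h1
      have h2 : π ∣ 1728 * t₀ ^ N :=
        Dvd.dvd.mul_left (dvd_pow ht₀ hN0) _
      have h3 : π ∣ (1 : O) := by
        have := dvd_sub h2 h1
        simpa using this
      exact hπ (isUnit_of_dvd_one h3)
    have h1 := hθ _ hp
    rw [S18XB5_eval₂_phi0, Ne, map_eq_zero_iff _ phi0.injective] at h1
    have h1' : (1728 : Kbar) * θ' ^ N ≠ 1 := by
      intro h
      apply h1
      simp only [Polynomial.map_sub, Polynomial.map_mul, Polynomial.map_C, Polynomial.map_pow,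
        Polynomial.map_X, Polynomial.map_one, Polynomial.eval_sub, Polynomial.eval_mul,
        Polynomial.eval_C, Polynomial.eval_pow, Polynomial.eval_X, Polynomial.eval_one,
        RingHom.comp_apply]
      rw [map_ofNat, map_ofNat, h, sub_self]
    have hθN : θ' ^ N ≠ 0 := pow_ne_zero _ h0
    have hj0 : (θ' ^ N)⁻¹ ≠ 0 := inv_ne_zero hθN
    have hj1 : (θ' ^ N)⁻¹ ≠ 1728 := by
      intro h
      apply h1'
      rw [← h, inv_mul_cancel₀ hθN]
    obtain ⟨U₀, hU1, hU2⟩ := tau_local_factor (L := Kbar) (N := N) hNK θ' h0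
    have hmap1 : (1 : Polynomial O).map (emb.comp (algebraMap O K1)) = 1 := Polynomial.map_one _
    have hmapX : (Polynomial.X ^ N : Polynomial O).map (emb.comp (algebraMap O K1)) =
        Polynomial.X ^ N := by
      rw [Polynomial.map_pow, Polynomial.map_X]
    refine S18XB5_localData_fin_inv N emb inc hinc hincj jF1 hjF1 hdeg (Polynomial.X ^ N) 1 θ'
      (θ' ^ N)⁻¹ (- Polynomial.C (θ' ^ N)⁻¹ * U₀) ?_ ?_ ?_
    · rw [hmap1, hmapX, S18XB5_e0fin_generic hj0 hj1]
      have e : (1 : Polynomial Kbar) - Polynomial.C (θ' ^ N)⁻¹ * Polynomial.X ^ N =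
          - Polynomial.C (θ' ^ N)⁻¹ * (Polynomial.X ^ N - Polynomial.C (θ' ^ N)) := by
        have hc : Polynomial.C (θ' ^ N)⁻¹ * Polynomial.C (θ' ^ N) = (1 : Polynomial Kbar) := by
          rw [← Polynomial.C_mul, inv_mul_cancel₀ hθN, Polynomial.C_1]
        linear_combination (-1 : Polynomial Kbar) * hc
      rw [e, hU1]
      ring
    · rw [Polynomial.eval_mul, Polynomial.eval_neg, Polynomial.eval_C]
      exact mul_ne_zero (neg_ne_zero.mpr hj0) hU2
    · rw [hmapX, Polynomial.eval_pow, Polynomial.eval_X]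
      exact hθN

end covers

end Fermat.Agent.S18_helper10_LOCDATA
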