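import Mathlib

/-!
# S18, abstract piece P11: Hensel's lemma in `L⟦s⟧` for a cover `j = A(t) / B(t)`

* `S18P11_hensel_simple`: a simple root modulo `s` of a polynomial over `L⟦s⟧` lifts to a root
  (no monicity assumption);
* `S18P11_hensel_cover`: if `A - j₀ B = (T - t₀)^e₀ U` with `U(t₀) ≠ 0`, `B(t₀) ≠ 0`, and
  `J = j₀ + s^e₀ V` with `V(0) ≠ 0`, then there is `t ∈ L⟦s⟧` with `A(t) = J B(t)`,
  `t(0) = t₀` and `ord_s (t - t₀) = 1`;
* `S18P11_hensel_cover_laurent`: the same for a Laurent series `J` with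
  `ord (J - j₀) = e₀`.
-/

set_option autoImplicit false

open Polynomial

namespace Fermat.Agent.S18_helper21_HENSEL

variable {L : Type*} [Field L]

/-! ### Newton iteration -/

/-- the Newton map of a polynomial over `L⟦s⟧` -/
noncomputable def S18P11_newton (P : Polynomial (PowerSeries L)) (a : PowerSeries L) :
    PowerSeries L :=
  a - P.eval a * (P.derivative.eval a)⁻¹

theorem S18P11_constantCoeff_eval_eq (P : Polynomial (PowerSeries L)) {a b : PowerSeries L}
    (h : PowerSeries.constantCoeff a = PowerSeries.constantCoeff b) :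
    PowerSeries.constantCoeff (P.eval a) = PowerSeries.constantCoeff (P.eval b) := by
  have h1 : a - b ∣ P.eval a - P.eval b := Polynomial.sub_dvd_eval_sub a b P
  have h2 : PowerSeries.X ∣ a - b := by
    rw [PowerSeries.X_dvd_iff, map_sub, h, sub_self]
  have h3 := (PowerSeries.X_dvd_iff).mp (h2.trans h1)
  rw [map_sub, sub_eq_zero] at h3
  exact h3

/-- one Newton step -/
theorem S18P11_newton_step (P : Polynomial (PowerSeries L)) (y0 : L)
    (h1 : PowerSeries.constantCoeff (P.derivative.eval (PowerSeries.C y0)) ≠ 0)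
    (a : PowerSeries L) (n : ℕ) (ha0 : PowerSeries.constantCoeff a = y0)
    (ha : PowerSeries.X ^ (n + 1) ∣ P.eval a) :
    PowerSeries.constantCoeff (S18P11_newton P a) = y0 ∧
      PowerSeries.X ^ (n + 2) ∣ P.eval (S18P11_newton P a) ∧
      PowerSeries.X ^ (n + 1) ∣ S18P11_newton P a - a := by
  have hd : PowerSeries.constantCoeff (P.derivative.eval a) ≠ 0 := by
    rw [S18P11_constantCoeff_eval_eq P.derivative (b := PowerSeries.C y0)
      (by rw [ha0, PowerSeries.constantCoeff_C])]
    exact h1
  have hinv : P.derivative.eval a * (P.derivative.eval a)⁻¹ = 1 :=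
    PowerSeries.mul_inv_cancel _ hd
  have hX : PowerSeries.X ∣ P.eval a := (dvd_pow_self _ (Nat.succ_ne_zero n)).trans ha
  have hdiff : S18P11_newton P a - a = -(P.eval a * (P.derivative.eval a)⁻¹) := by
    unfold S18P11_newton
    ring
  refine ⟨?_, ?_, ?_⟩
  · unfold S18P11_newton
    rw [map_sub, map_mul, (PowerSeries.X_dvd_iff).mp hX, zero_mul, sub_zero, ha0]
  · obtain ⟨k, hk⟩ := Polynomial.binomExpansion P a (-(P.eval a * (P.derivative.eval a)⁻¹))
    have e : S18P11_newton P a = a + -(P.eval a * (P.derivative.eval a)⁻¹) := by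
      unfold S18P11_newton
      ring
    rw [e, hk]
    have e2 : P.eval a + P.derivative.eval a * -(P.eval a * (P.derivative.eval a)⁻¹) +
        k * (-(P.eval a * (P.derivative.eval a)⁻¹)) ^ 2 =
        P.eval a * (1 - P.derivative.eval a * (P.derivative.eval a)⁻¹) +
          (k * ((P.derivative.eval a)⁻¹) ^ 2) * (P.eval a) ^ 2 := by
      ring
    rw [e2, hinv, sub_self, mul_zero, zero_add]
    have h2 : PowerSeries.X ^ (n + 2) ∣ (P.eval a) ^ 2 := by
      have := pow_dvd_pow_of_dvd ha 2
      rw [← pow_mul] at this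
      exact (pow_dvd_pow _ (by omega)).trans this
    exact h2.mul_left _
  · rw [hdiff]
    exact (ha.mul_right _).neg_right

/-- **Hensel's lemma** over `L⟦s⟧` (no monicity assumption). -/
theorem S18P11_hensel_simple (P : Polynomial (PowerSeries L)) (y0 : L)
    (h0 : PowerSeries.constantCoeff (P.eval (PowerSeries.C y0)) = 0)
    (h1 : PowerSeries.constantCoeff (P.derivative.eval (PowerSeries.C y0)) ≠ 0) :
    ∃ y : PowerSeries L, P.eval y = 0 ∧ PowerSeries.constantCoeff y = y0 := by
  set a : ℕ → PowerSeries L := fun n => (S18P11_newton P)^[n] (PowerSeries.C y0) with ha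
  have hsucc : ∀ n, a (n + 1) = S18P11_newton P (a n) := fun n => by
    simp only [ha, Function.iterate_succ_apply']
  have hinv : ∀ n, PowerSeries.constantCoeff (a n) = y0 ∧
      PowerSeries.X ^ (n + 1) ∣ P.eval (a n) := by
    intro n
    induction n with
    | zero =>
      refine ⟨by simp [ha], ?_⟩
      rw [zero_add, pow_one, PowerSeries.X_dvd_iff]
      simpa [ha] using h0
    | succ n ih =>
      obtain ⟨h2, h3, -⟩ := S18P11_newton_step P y0 h1 (a n) n ih.1 ih.2
      rw [hsucc]
      exact ⟨h2, h3⟩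
  have hstep : ∀ n, PowerSeries.X ^ (n + 1) ∣ a (n + 1) - a n := by
    intro n
    rw [hsucc]
    exact (S18P11_newton_step P y0 h1 (a n) n (hinv n).1 (hinv n).2).2.2
  have hle : ∀ k n, k ≤ n → PowerSeries.X ^ (k + 1) ∣ a n - a k := by
    intro k n hkn
    induction n, hkn using Nat.le_induction with
    | base => simp
    | succ n hkn ih =>
      have e : a (n + 1) - a k = (a (n + 1) - a n) + (a n - a k) := by ring
      rw [e]
      exact dvd_add ((pow_dvd_pow _ (by omega)).trans (hstep n)) ih
  set y : PowerSeries L := PowerSeries.mk fun k => PowerSeries.coeff k (a k) with hy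
  have hyn : ∀ n, PowerSeries.X ^ (n + 1) ∣ y - a n := by
    intro n
    rw [PowerSeries.X_pow_dvd_iff]
    intro k hk
    rw [map_sub, hy, PowerSeries.coeff_mk, sub_eq_zero]
    have h2 := (PowerSeries.X_pow_dvd_iff).mp (hle k n (by omega)) k (by omega)
    rw [map_sub, sub_eq_zero] at h2
    exact h2.symm
  refine ⟨y, ?_, ?_⟩
  · ext n
    rw [map_zero]
    have h2 : PowerSeries.X ^ (n + 1) ∣ P.eval y := by
      have h3 : y - a n ∣ P.eval y - P.eval (a n) := Polynomial.sub_dvd_eval_sub y (a n) P
      have h4 := (hyn n).trans h3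
      have e : P.eval y = (P.eval y - P.eval (a n)) + P.eval (a n) := by ring
      rw [e]
      exact dvd_add h4 (hinv n).2
    exact (PowerSeries.X_pow_dvd_iff).mp h2 n (by omega)
  · have : PowerSeries.constantCoeff y = PowerSeries.coeff 0 y := by
      rw [PowerSeries.coeff_zero_eq_constantCoeff]
    rw [this, hy, PowerSeries.coeff_mk, PowerSeries.coeff_zero_eq_constantCoeff_apply]
    exact (hinv 0).1

/-! ### the cover lemma -/

/-- the polynomial `p(t₀ + s Y)` over `L⟦s⟧` -/
noncomputable def S18P11_shift (t0 : L) (p : Polynomial L) : Polynomial (PowerSeries L) :=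
  (p.map (algebraMap L (PowerSeries L))).comp
    (Polynomial.C (PowerSeries.C t0) + Polynomial.C PowerSeries.X * Polynomial.X)

theorem S18P11_eval_shift (t0 : L) (p : Polynomial L) (y : PowerSeries L) :
    (S18P11_shift t0 p).eval y = Polynomial.aeval (PowerSeries.C t0 + PowerSeries.X * y) p := by
  unfold S18P11_shift
  rw [Polynomial.eval_comp, Polynomial.eval_map, Polynomial.aeval_def]
  simp

theorem S18P11_constantCoeff_aeval (p : Polynomial L) (t : PowerSeries L) :
    PowerSeries.constantCoeff (Polynomial.aeval t p) = p.eval (PowerSeries.constantCoeff t) := by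
  rw [Polynomial.aeval_def, Polynomial.hom_eval₂]
  have : (PowerSeries.constantCoeff (R := L)).comp (algebraMap L (PowerSeries L)) =
      RingHom.id L := by
    ext x
    simp
  rw [this, Polynomial.eval₂_id]

theorem S18P11_constantCoeff_eval_shift (t0 : L) (p : Polynomial L) (y : PowerSeries L) :
    PowerSeries.constantCoeff ((S18P11_shift t0 p).eval y) = p.eval t0 := by
  rw [S18P11_eval_shift, S18P11_constantCoeff_aeval]
  simp

theorem S18P11_constantCoeff_eval_derivative_shift (t0 : L) (p : Polynomial L)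
    (y : PowerSeries L) :
    PowerSeries.constantCoeff ((S18P11_shift t0 p).derivative.eval y) = 0 := by
  unfold S18P11_shift
  rw [Polynomial.derivative_comp]
  simp

/-- **P11**: Hensel's lemma for a cover `j = A(t) / B(t)` in `L⟦s⟧`. -/
theorem S18P11_hensel_cover (e0 : ℕ) (he0 : (e0 : L) ≠ 0) (hroot : ∀ c : L, ∃ y : L, y ^ e0 = c)
    (A B U : Polynomial L) (t0 j0 : L)
    (hfac : A - Polynomial.C j0 * B = (Polynomial.X - Polynomial.C t0) ^ e0 * U)
    (hU : U.eval t0 ≠ 0) (hB : B.eval t0 ≠ 0) (J V : PowerSeries L)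
    (hJ : J - PowerSeries.C j0 = PowerSeries.X ^ e0 * V)
    (hV : PowerSeries.constantCoeff V ≠ 0) :
    ∃ t : PowerSeries L, Polynomial.aeval t A = J * Polynomial.aeval t B ∧
      PowerSeries.constantCoeff t = t0 ∧ PowerSeries.coeff 1 t ≠ 0 := by
  have he0' : e0 ≠ 0 := by
    rintro rfl
    simp at he0
  obtain ⟨y0, hy0⟩ := hroot (PowerSeries.constantCoeff V * B.eval t0 / U.eval t0)
  have hy0ne : y0 ≠ 0 := by
    rintro rfl
    rw [zero_pow he0'] at hy0
    exact (div_ne_zero (mul_ne_zero hV hB) hU) hy0.symm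
  set P : Polynomial (PowerSeries L) :=
    Polynomial.X ^ e0 * S18P11_shift t0 U - Polynomial.C V * S18P11_shift t0 B with hP
  have h0 : PowerSeries.constantCoeff (P.eval (PowerSeries.C y0)) = 0 := by
    rw [hP]
    simp only [Polynomial.eval_sub, Polynomial.eval_mul, Polynomial.eval_pow, Polynomial.eval_X,
      Polynomial.eval_C, map_sub, map_mul, map_pow, PowerSeries.constantCoeff_C,
      S18P11_constantCoeff_eval_shift]
    rw [hy0]
    field_simp
    ring
  have h1 : PowerSeries.constantCoeff (P.derivative.eval (PowerSeries.C y0)) ≠ 0 := by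
    have e : PowerSeries.constantCoeff (P.derivative.eval (PowerSeries.C y0)) =
        (e0 : L) * y0 ^ (e0 - 1) * U.eval t0 := by
      rw [hP]
      simp only [Polynomial.derivative_mul,
        Polynomial.derivative_X_pow, Polynomial.derivative_C, Polynomial.eval_sub,
        Polynomial.eval_add, Polynomial.eval_mul, Polynomial.eval_pow, Polynomial.eval_X,
        Polynomial.eval_C, map_sub, map_add, map_mul, map_pow, PowerSeries.constantCoeff_C,
        S18P11_constantCoeff_eval_shift, S18P11_constantCoeff_eval_derivative_shift,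
        Polynomial.eval_natCast, map_natCast, zero_mul, mul_zero, add_zero,
        Polynomial.eval_zero, map_zero, sub_zero]
    rw [e]
    exact mul_ne_zero (mul_ne_zero he0 (pow_ne_zero _ hy0ne)) hU
  obtain ⟨y, hy, hyc⟩ := S18P11_hensel_simple P y0 h0 h1
  set t : PowerSeries L := PowerSeries.C t0 + PowerSeries.X * y with ht
  have hyU : y ^ e0 * Polynomial.aeval t U = V * Polynomial.aeval t B := by
    have := hy
    rw [hP, Polynomial.eval_sub, Polynomial.eval_mul, Polynomial.eval_mul, Polynomial.eval_pow,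
      Polynomial.eval_X, Polynomial.eval_C, S18P11_eval_shift, S18P11_eval_shift,
      sub_eq_zero] at this
    exact this
  refine ⟨t, ?_, ?_, ?_⟩
  · have h2 := congrArg (Polynomial.aeval t) hfac
    simp only [map_sub, map_mul, map_pow, Polynomial.aeval_X, Polynomial.aeval_C] at h2
    have h3 : t - algebraMap L (PowerSeries L) t0 = PowerSeries.X * y := by
      rw [ht]
      simp
    rw [h3, mul_pow, mul_assoc, hyU] at h2
    have h4 : algebraMap L (PowerSeries L) j0 = PowerSeries.C j0 := rfl
    rw [h4] at h2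
    have h5 : J = PowerSeries.C j0 + PowerSeries.X ^ e0 * V := by
      rw [← hJ]
      ring
    rw [h5]
    linear_combination h2
  · rw [ht]
    simp
  · rw [ht, map_add, PowerSeries.coeff_C, if_neg one_ne_zero, zero_add]
    have : PowerSeries.coeff 1 (PowerSeries.X * y) = PowerSeries.coeff 0 y := by
      rw [show (1 : ℕ) = 0 + 1 from rfl, PowerSeries.coeff_succ_X_mul]
    rw [this, PowerSeries.coeff_zero_eq_constantCoeff_apply, hyc]
    exact hy0ne

/-! ### Laurent series form -/

theorem S18P11_aeval_ofPowerSeries (p : Polynomial L) (t : PowerSeries L) :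
    Polynomial.aeval (HahnSeries.ofPowerSeries ℤ L t) p =
      HahnSeries.ofPowerSeries ℤ L (Polynomial.aeval t p) := by
  rw [Polynomial.aeval_def, Polynomial.aeval_def, Polynomial.hom_eval₂]
  congr 1

/-- a Laurent series of order `e₀ ≥ 0` is `s^e₀` times a unit power series -/
theorem S18P11_exists_powerSeries_of_order (x : LaurentSeries L) (e0 : ℕ) (he0 : e0 ≠ 0)
    (hx : x.order = (e0 : ℤ)) :
    ∃ V : PowerSeries L, PowerSeries.constantCoeff V ≠ 0 ∧
      x = HahnSeries.ofPowerSeries ℤ L (PowerSeries.X ^ e0 * V) := by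
  have hx0 : x ≠ 0 := by
    rintro rfl
    rw [HahnSeries.order_zero] at hx
    exact he0 (by exact_mod_cast hx.symm)
  refine ⟨x.powerSeriesPart, ?_, ?_⟩
  · rw [← PowerSeries.coeff_zero_eq_constantCoeff_apply, LaurentSeries.powerSeriesPart_coeff]
    rw [Nat.cast_zero, add_zero]
    exact fun h => hx0 (HahnSeries.coeff_order_eq_zero.mp h)
  · have h1 := LaurentSeries.single_order_mul_powerSeriesPart x
    rw [map_mul, HahnSeries.ofPowerSeries_X_pow, ← hx]
    exact h1.symm

/-- **P11, Laurent series form**: `J` a Laurent series with `ord (J - j₀) = e₀`. -/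
theorem S18P11_hensel_cover_laurent (e0 : ℕ) (he0 : (e0 : L) ≠ 0)
    (hroot : ∀ c : L, ∃ y : L, y ^ e0 = c)
    (A B U : Polynomial L) (t0 j0 : L)
    (hfac : A - Polynomial.C j0 * B = (Polynomial.X - Polynomial.C t0) ^ e0 * U)
    (hU : U.eval t0 ≠ 0) (hB : B.eval t0 ≠ 0) (J : LaurentSeries L)
    (hJ : (J - HahnSeries.C j0).order = (e0 : ℤ)) :
    ∃ t : PowerSeries L,
      Polynomial.aeval (HahnSeries.ofPowerSeries ℤ L t) A =
        J * Polynomial.aeval (HahnSeries.ofPowerSeries ℤ L t) B ∧
      PowerSeries.constantCoeff t = t0 ∧ PowerSeries.coeff 1 t ≠ 0 := by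
  have he0' : e0 ≠ 0 := by
    rintro rfl
    simp at he0
  obtain ⟨V, hV, hxV⟩ := S18P11_exists_powerSeries_of_order _ e0 he0' hJ
  obtain ⟨t, ht, ht0, ht1⟩ := S18P11_hensel_cover e0 he0 hroot A B U t0 j0 hfac hU hB
    (PowerSeries.C j0 + PowerSeries.X ^ e0 * V) V (by ring) hV
  refine ⟨t, ?_, ht0, ht1⟩
  have hJ' : J = HahnSeries.ofPowerSeries ℤ L (PowerSeries.C j0 + PowerSeries.X ^ e0 * V) := by
    rw [map_add, ← hxV, HahnSeries.ofPowerSeries_C]
    ring
  rw [S18P11_aeval_ofPowerSeries, S18P11_aeval_ofPowerSeries, ht, map_mul, ← hJ']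

/-- **P11, cusp form**: an `N`-th root `t` of a Laurent series `J` of order `N` with
`ord t = 1` (the cover `t^N = 1/j`). -/
theorem S18P11_hensel_root (N : ℕ) (hN : (N : L) ≠ 0) (hroot : ∀ c : L, ∃ y : L, y ^ N = c)
    (J : LaurentSeries L) (hJ : J.order = (N : ℤ)) :
    ∃ t : PowerSeries L, (HahnSeries.ofPowerSeries ℤ L t) ^ N = J ∧
      PowerSeries.constantCoeff t = 0 ∧ PowerSeries.coeff 1 t ≠ 0 := by
  obtain ⟨t, ht, ht0, ht1⟩ := S18P11_hensel_cover_laurent N hN hroot (Polynomial.X ^ N) 1 1 0 0
    (by simp) (by simp) (by simp) J (by simpa using hJ)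
  refine ⟨t, ?_, ht0, ht1⟩
  simpa using ht

end Fermat.Agent.S18_helper21_HENSEL
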