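import Fermat.Agent.S24_helper10_LOCfin
import Fermat.Agent.S24_helper10_LOCinf
import Fermat.Agent.S24_helper23_DEG
import Fermat.Agent.S24_helper23_GEN
import Fermat.Agent.S18_helper21_HENSEL
import Fermat.Agent.S18_helper10_EXTCNT

/-!
# S18, piece X-B5a-LOCX: local embeddings of the covers of the modular function field

* `S18XB5_LOC_fin_e0`: the local embeddings `ι q : F → ℂ((s))` above a finite point `j₀`, with
  the EXPLICIT ramification index `e₀ = 3, 2, 1` (for `j₀ = 0`, `1728`, other).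
* `S18XB5_cover_embeddings_fin`: for a cover `E = F₁(t)`, `j = An(t) / Bd(t)` of a model
  `F₁ / K₁` of the modular function field and a point `θ` with the multiplicity matched to `e₀`,
  there are exactly `[E : K₁(t)]` pairwise distinct embeddings `E → ℂ((s))` with
  `t ↦ T(s)`, `T(0) = θ`, `T'(0) ≠ 0`, constants to constants.
* `S18XB5_cover_embeddings_cusp`: the same for the cover `t ^ N * j = 1` at `θ = 0`.
-/

set_option autoImplicit false
set_option linter.unusedSectionVars false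
set_option linter.style.haveILetI false

open UpperHalfPlane ModularForm CongruenceSubgroup IntermediateField
open scoped MatrixGroups ModularForm Manifold
open Fermat.Agent.S20 Fermat.Agent.S24 Fermat.Agent.S24_helper10_J
open Fermat.Agent.S24_helper10_LOCfin Fermat.Agent.S24_helper10_LOCinf
open Fermat.Agent.S18_helper21_HENSEL Fermat.Agent.S18_helper10_EXTCNT

namespace Fermat.Agent.S18_helper10_LOCX

/-- the ramification index of `j` at a point of the upper half plane with `j = j₀` -/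
noncomputable def S18XB5_e0fin (j₀ : Kbar) : ℕ :=
  if j₀ = 0 then 3 else if j₀ = 1728 then 2 else 1

theorem S18XB5_e0fin_pos (j₀ : Kbar) : 0 < S18XB5_e0fin j₀ := by
  unfold S18XB5_e0fin
  split_ifs <;> norm_num

/-- **LOC_fin with explicit `e₀`.** -/
theorem S18XB5_LOC_fin_e0 (N : ℕ) [NeZero N] (j₀ : Kbar) :
    ∃ (ι : Q N → ModularCurve.modularFunctionFieldBar N →+* LaurentSeries ℂ)
      (J : LaurentSeries ℂ),
      (∀ q a, ι q (algebraMap Kbar _ a) = HahnSeries.C (phi0 a)) ∧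
      Function.Injective ι ∧
      (∀ q, ι q (jElt N) = J) ∧
      (J - HahnSeries.C (phi0 j₀)).order = (S18XB5_e0fin j₀ : ℤ) := by
  have h1728 : (1728 : Kbar) ≠ 0 := by norm_num
  have key : ∀ (z₀ : ℍ) (e₀ : ℕ),
      (taylorAt z₀ (fun z => jfun z - phi0 j₀)).order = (e₀ : ℕ∞) →
      ∃ (ι : Q N → ModularCurve.modularFunctionFieldBar N →+* LaurentSeries ℂ)
        (J : LaurentSeries ℂ),
        (∀ q a, ι q (algebraMap Kbar _ a) = HahnSeries.C (phi0 a)) ∧
        Function.Injective ι ∧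
        (∀ q, ι q (jElt N) = J) ∧
        (J - HahnSeries.C (phi0 j₀)).order = (e₀ : ℤ) := by
    intro z₀ e₀ he
    obtain ⟨q₀⟩ : Nonempty (Q N) := ⟨QuotientGroup.mk 1⟩
    refine ⟨iotaFin N z₀, laurentAt z₀ jfun, iotaFin_const N z₀, iotaFin_injective N z₀,
      iotaFin_jElt N z₀, ?_⟩
    have h := iotaFin_order N z₀ q₀ j₀ e₀ he
    rw [map_sub, iotaFin_jElt, iotaFin_const] at h
    exact h
  by_cases h0 : j₀ = 0
  · subst h0
    have he : S18XB5_e0fin 0 = 3 := by simp [S18XB5_e0fin]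
    rw [he]
    apply key rho 3
    have : (fun z => jfun z - phi0 0) = jfun := by
      funext z
      simp
    rw [this]
    exact_mod_cast Fermat.Agent.S24_helper1_ORD.AN7_rho
  by_cases h17 : j₀ = 1728
  · subst h17
    have he : S18XB5_e0fin 1728 = 2 := by simp [S18XB5_e0fin, h1728]
    rw [he]
    apply key UpperHalfPlane.I 2
    have : (fun z => jfun z - phi0 1728) = fun z => jfun z - 1728 := by
      funext z
      rw [map_ofNat]
    rw [this]
    exact_mod_cast Fermat.Agent.S24_helper1_ORD.AN7_I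
  · have he : S18XB5_e0fin j₀ = 1 := by simp [S18XB5_e0fin, h0, h17]
    rw [he]
    obtain ⟨z₀, hz₀⟩ := jfun_surjective (phi0 j₀)
    have h4 : E₄ z₀ ≠ 0 := by
      intro h
      have := (jfun_eq_zero_iff z₀).mpr h
      rw [hz₀] at this
      exact h0 (phi0_injective (by rw [this, map_zero]))
    have h6 : E₆ z₀ ≠ 0 := by
      intro h
      have := (jfun_eq_1728_iff z₀).mpr h
      rw [hz₀] at this
      exact h17 (phi0_injective (by rw [this, map_ofNat]))
    apply key z₀ 1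
    rw [← hz₀]
    exact_mod_cast Fermat.Agent.S24_helper1_ORD.AN7_generic z₀ h4 h6

/-- **LOC_inf** in the same shape. -/
theorem S18XB5_LOC_inf_e0 (N : ℕ) [NeZero N] :
    ∃ (ι : Q N → ModularCurve.modularFunctionFieldBar N →+* LaurentSeries ℂ)
      (J : LaurentSeries ℂ),
      (∀ q a, ι q (algebraMap Kbar _ a) = HahnSeries.C (phi0 a)) ∧
      Function.Injective ι ∧
      (∀ q, ι q (jElt N) = J) ∧
      (J⁻¹).order = (N : ℤ) := by
  obtain ⟨q₀⟩ : Nonempty (Q N) := ⟨QuotientGroup.mk 1⟩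
  refine ⟨iotaInf N, iotaInf N q₀ (jElt N), iotaInf_const N, iotaInf_injective N, ?_, ?_⟩
  · intro q
    rw [iotaInf_jElt, iotaInf_jElt]
  · rw [← map_inv₀]
    exact iotaInf_order N q₀

/-! ### Auxiliary lemmas -/

/-- a power series with nonzero linear coefficient is transcendental over the constants -/
theorem S18XB5_aeval_powerSeries_ne_zero (T : PowerSeries ℂ) (hT : PowerSeries.coeff 1 T ≠ 0)
    (P : Polynomial ℂ) (hP : P ≠ 0) : Polynomial.aeval T P ≠ 0 := by
  have h := (IsAlgClosed.splits P).eq_prod_roots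
  rw [h, map_mul, Polynomial.aeval_C, map_multiset_prod, Multiset.map_map]
  apply mul_ne_zero
  · rw [Ne, map_eq_zero_iff _ (algebraMap ℂ (PowerSeries ℂ)).injective]
    exact Polynomial.leadingCoeff_ne_zero.mpr hP
  · apply Multiset.prod_ne_zero
    intro h0
    obtain ⟨r, -, hr⟩ := Multiset.mem_map.mp h0
    have hr' : T - PowerSeries.C r = 0 := by
      simpa using hr
    have := congrArg (PowerSeries.coeff 1) hr'
    rw [map_sub, PowerSeries.coeff_C, if_neg one_ne_zero, sub_zero, map_zero] at this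
    exact hT this

/-- evaluation of a polynomial with constant coefficients at a power series -/
theorem S18XB5_eval_map_C {K : Type*} [Field K] (ψ : K →+* ℂ) (p : Polynomial K)
    (T : PowerSeries ℂ) :
    (p.map ((HahnSeries.C : ℂ →+* LaurentSeries ℂ).comp ψ)).eval
        (HahnSeries.ofPowerSeries ℤ ℂ T) =
      HahnSeries.ofPowerSeries ℤ ℂ (Polynomial.aeval T (p.map ψ)) := by
  rw [← S18P11_aeval_ofPowerSeries, Polynomial.aeval_def, Polynomial.eval₂_map,
    Polynomial.eval_map]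
  congr 2
  ext c : 1
  rw [HahnSeries.algebraMap_apply', ← HahnSeries.ofPowerSeries_C (Γ := ℤ)]
  rfl

/-- the restrictions of pairwise distinct embeddings of the function field to a model
containing all the `j(q^d)` are pairwise distinct -/
theorem S18XB5_restrict_injective (N : ℕ) [NeZero N] {F1 : Type*} [Field F1]
    (inc : F1 →+* ModularCurve.modularFunctionFieldBar N)
    (hincj : ∀ (d : ℕ) [NeZero d] (hd : d ∣ N), ∃ x : F1, inc x = jF N d hd)
    (ι : Q N → ModularCurve.modularFunctionFieldBar N →+* LaurentSeries ℂ)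
    (hιK : ∀ q a, ι q (algebraMap Kbar _ a) = HahnSeries.C (phi0 a))
    (hιinj : Function.Injective ι) :
    Function.Injective (fun q => (ι q).comp inc) := by
  intro q q' h
  apply hιinj
  apply Fermat.Agent.S24_helper23_GEN.ringHom_ext_FN N
  · intro a
    rw [hιK, hιK]
  · intro d _ hd
    obtain ⟨x, hx⟩ := hincj d hd
    rw [← hx]
    exact RingHom.congr_fun h x

/-! ### The embeddings of a cover -/

section cover

variable (N : ℕ) [NeZero N]
  {K1 F1 E : Type*} [Field K1] [CharZero K1] [Field F1] [Field E]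
  [Algebra K1 F1] [Algebra F1 E] [Algebra K1 E] [IsScalarTower K1 F1 E]

/-- **Extension of the local embeddings to a cover, abstract in the local data.** -/
theorem S18XB5_cover_embeddings_of_local
    (emb : K1 →+* Kbar) (inc : F1 →+* ModularCurve.modularFunctionFieldBar N)
    (hinc : ∀ a, inc (algebraMap K1 F1 a) = algebraMap Kbar _ (emb a))
    (hincj : ∀ (d : ℕ) [NeZero d] (hd : d ∣ N), ∃ x : F1, inc x = jF N d hd)
    (jF1 : F1) (hjF1 : inc jF1 = jElt N)
    [FiniteDimensional K1⟮jF1⟯ F1]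
    (hdeg : Module.finrank K1⟮jF1⟯ F1 = Fintype.card (Q N))
    (t : E) (ht : Transcendental K1 t) [FiniteDimensional K1⟮t⟯ E]
    (hgen : IntermediateField.adjoin F1 {t} = ⊤)
    (An Bd : Polynomial K1) (hBd : Bd ≠ 0)
    (hrel : algebraMap F1 E jF1 * Polynomial.aeval t Bd = Polynomial.aeval t An)
    (ι : Q N → ModularCurve.modularFunctionFieldBar N →+* LaurentSeries ℂ)
    (J : LaurentSeries ℂ)
    (hιK : ∀ q a, ι q (algebraMap Kbar _ a) = HahnSeries.C (phi0 a))
    (hιinj : Function.Injective ι) (hιJ : ∀ q, ι q (jElt N) = J)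
    (T : PowerSeries ℂ) (hT1 : PowerSeries.coeff 1 T ≠ 0)
    (hTrel : Polynomial.aeval (HahnSeries.ofPowerSeries ℤ ℂ T) ((An.map emb).map phi0) =
      J * Polynomial.aeval (HahnSeries.ofPowerSeries ℤ ℂ T) ((Bd.map emb).map phi0)) :
    ∃ (S : Finset (Q N)) (Φ : {q // q ∈ S} → E →+* LaurentSeries ℂ),
      Fintype.card {q // q ∈ S} = Module.finrank K1⟮t⟯ E ∧ Function.Injective Φ ∧
      (∀ i a, Φ i (algebraMap K1 E a) = HahnSeries.C (phi0 (emb a))) ∧
      (∀ i, Φ i t = HahnSeries.ofPowerSeries ℤ ℂ T) ∧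
      (∀ (i : {q // q ∈ S}) (x : F1), Φ i (algebraMap F1 E x) = ι i (inc x)) := by
  classical
  have hψinj : Function.Injective (phi0.comp emb) :=
    (phi0.comp emb).injective
  have hT : ∀ p : Polynomial K1, p ≠ 0 →
      (p.map ((HahnSeries.C : ℂ →+* LaurentSeries ℂ).comp (phi0.comp emb))).eval
        (HahnSeries.ofPowerSeries ℤ ℂ T) ≠ 0 := by
    intro p hp
    rw [S18XB5_eval_map_C, Ne, map_eq_zero_iff _ HahnSeries.ofPowerSeries_injective]
    apply S18XB5_aeval_powerSeries_ne_zero T hT1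
    rwa [Ne, Polynomial.map_eq_zero_iff hψinj]
  have hrelΩ : J * ((Bd.map ((HahnSeries.C : ℂ →+* LaurentSeries ℂ).comp
      (phi0.comp emb))).eval (HahnSeries.ofPowerSeries ℤ ℂ T)) =
      (An.map ((HahnSeries.C : ℂ →+* LaurentSeries ℂ).comp (phi0.comp emb))).eval
        (HahnSeries.ofPowerSeries ℤ ℂ T) := by
    rw [S18XB5_eval_map_C, S18XB5_eval_map_C, ← S18P11_aeval_ofPowerSeries,
      ← S18P11_aeval_ofPowerSeries, ← Polynomial.map_map, ← Polynomial.map_map, hTrel]
  obtain ⟨S, Φ, h1, h2, h3, h4, h5, -⟩ := S18XB5_ext_count_full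
    ((HahnSeries.C : ℂ →+* LaurentSeries ℂ).comp (phi0.comp emb)) jF1 t ht hgen An Bd hBd hrel
    (fun q => (ι q).comp inc) (S18XB5_restrict_injective N inc hincj ι hιK hιinj)
    (fun q a => by
      show ι q (inc (algebraMap K1 F1 a)) = _
      rw [hinc, hιK]
      rfl)
    J (fun q => by
      show ι q (inc jF1) = _
      rw [hjF1, hιJ])
    hdeg.symm (HahnSeries.ofPowerSeries ℤ ℂ T) hT hrelΩ
  exact ⟨S, Φ, h1, h2, fun i a => h4 i a, h5, fun i x => h3 i x⟩

/-- **Embeddings of a cover `j = An(t) / Bd(t)` above a finite point `θ`.**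
`j₀ = An(θ) / Bd(θ)` and the multiplicity of `θ` as a root of `An - j₀ Bd` is the
ramification index `e₀(j₀) = 3, 2, 1` of `j` (so that the cover absorbs the ramification). -/
theorem S18XB5_cover_embeddings_fin
    (emb : K1 →+* Kbar) (inc : F1 →+* ModularCurve.modularFunctionFieldBar N)
    (hinc : ∀ a, inc (algebraMap K1 F1 a) = algebraMap Kbar _ (emb a))
    (hincj : ∀ (d : ℕ) [NeZero d] (hd : d ∣ N), ∃ x : F1, inc x = jF N d hd)
    (jF1 : F1) (hjF1 : inc jF1 = jElt N)
    [FiniteDimensional K1⟮jF1⟯ F1]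
    (hdeg : Module.finrank K1⟮jF1⟯ F1 = Fintype.card (Q N))
    (t : E) (ht : Transcendental K1 t) [FiniteDimensional K1⟮t⟯ E]
    (hgen : IntermediateField.adjoin F1 {t} = ⊤)
    (An Bd : Polynomial K1) (hBd : Bd ≠ 0)
    (hrel : algebraMap F1 E jF1 * Polynomial.aeval t Bd = Polynomial.aeval t An)
    (θ j₀ : Kbar) (U : Polynomial Kbar)
    (hfac : An.map emb - Polynomial.C j₀ * Bd.map emb =
      (Polynomial.X - Polynomial.C θ) ^ S18XB5_e0fin j₀ * U)
    (hU : U.eval θ ≠ 0) (hB : (Bd.map emb).eval θ ≠ 0) :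
    ∃ (T : PowerSeries ℂ) (S : Finset (Q N)) (Φ : {q // q ∈ S} → E →+* LaurentSeries ℂ),
      PowerSeries.constantCoeff T = phi0 θ ∧ PowerSeries.coeff 1 T ≠ 0 ∧
      Fintype.card {q // q ∈ S} = Module.finrank K1⟮t⟯ E ∧ Function.Injective Φ ∧
      (∀ i a, Φ i (algebraMap K1 E a) = HahnSeries.C (phi0 (emb a))) ∧
      (∀ i, Φ i t = HahnSeries.ofPowerSeries ℤ ℂ T) := by
  obtain ⟨ι, J, hιK, hιinj, hιJ, hJ⟩ := S18XB5_LOC_fin_e0 N j₀
  have he0 : ((S18XB5_e0fin j₀ : ℕ) : ℂ) ≠ 0 :=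
    Nat.cast_ne_zero.mpr (S18XB5_e0fin_pos j₀).ne'
  have hroot : ∀ c : ℂ, ∃ y : ℂ, y ^ S18XB5_e0fin j₀ = c := fun c =>
    IsAlgClosed.exists_pow_nat_eq c (S18XB5_e0fin_pos j₀)
  have hfac' : (An.map emb).map phi0 - Polynomial.C (phi0 j₀) * (Bd.map emb).map phi0 =
      (Polynomial.X - Polynomial.C (phi0 θ)) ^ S18XB5_e0fin j₀ * U.map phi0 := by
    have := congrArg (Polynomial.map phi0) hfac
    simpa only [Polynomial.map_sub, Polynomial.map_mul, Polynomial.map_pow, Polynomial.map_C,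
      Polynomial.map_X] using this
  have hU' : (U.map phi0).eval (phi0 θ) ≠ 0 := by
    rw [Polynomial.eval_map, Polynomial.eval₂_at_apply, Ne, map_eq_zero_iff _ phi0.injective]
    exact hU
  have hB' : ((Bd.map emb).map phi0).eval (phi0 θ) ≠ 0 := by
    rw [Polynomial.eval_map, Polynomial.eval₂_at_apply, Ne, map_eq_zero_iff _ phi0.injective]
    exact hB
  obtain ⟨T, hT, hT0, hT1⟩ := S18P11_hensel_cover_laurent (S18XB5_e0fin j₀) he0 hroot
    ((An.map emb).map phi0) ((Bd.map emb).map phi0) (U.map phi0) (phi0 θ) (phi0 j₀)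
    hfac' hU' hB' J hJ
  obtain ⟨S, Φ, h1, h2, h3, h4, -⟩ := S18XB5_cover_embeddings_of_local N emb inc hinc hincj jF1
    hjF1 hdeg t ht hgen An Bd hBd hrel ι J hιK hιinj hιJ T hT1 hT
  exact ⟨T, S, Φ, hT0, hT1, h1, h2, h3, h4⟩

/-- **Embeddings of the cover `t ^ N * j = 1` above the cusp `θ = 0`.** -/
theorem S18XB5_cover_embeddings_cusp
    (emb : K1 →+* Kbar) (inc : F1 →+* ModularCurve.modularFunctionFieldBar N)
    (hinc : ∀ a, inc (algebraMap K1 F1 a) = algebraMap Kbar _ (emb a))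
    (hincj : ∀ (d : ℕ) [NeZero d] (hd : d ∣ N), ∃ x : F1, inc x = jF N d hd)
    (jF1 : F1) (hjF1 : inc jF1 = jElt N)
    [FiniteDimensional K1⟮jF1⟯ F1]
    (hdeg : Module.finrank K1⟮jF1⟯ F1 = Fintype.card (Q N))
    (t : E) (ht : Transcendental K1 t) [FiniteDimensional K1⟮t⟯ E]
    (hgen : IntermediateField.adjoin F1 {t} = ⊤)
    (hrel : t ^ N * algebraMap F1 E jF1 = 1) :
    ∃ (T : PowerSeries ℂ) (S : Finset (Q N)) (Φ : {q // q ∈ S} → E →+* LaurentSeries ℂ),
      PowerSeries.constantCoeff T = 0 ∧ PowerSeries.coeff 1 T ≠ 0 ∧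
      Fintype.card {q // q ∈ S} = Module.finrank K1⟮t⟯ E ∧ Function.Injective Φ ∧
      (∀ i a, Φ i (algebraMap K1 E a) = HahnSeries.C (phi0 (emb a))) ∧
      (∀ i, Φ i t = HahnSeries.ofPowerSeries ℤ ℂ T) := by
  obtain ⟨ι, J, hιK, hιinj, hιJ, hJ⟩ := S18XB5_LOC_inf_e0 N
  have hN : ((N : ℕ) : ℂ) ≠ 0 := Nat.cast_ne_zero.mpr (NeZero.ne N)
  have hroot : ∀ c : ℂ, ∃ y : ℂ, y ^ N = c := fun c =>
    IsAlgClosed.exists_pow_nat_eq c (Nat.pos_of_ne_zero (NeZero.ne N))
  have hJ0 : J ≠ 0 := by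
    intro h
    rw [h, inv_zero, HahnSeries.order_zero] at hJ
    exact NeZero.ne N (by exact_mod_cast hJ.symm)
  obtain ⟨T, hT, hT0, hT1⟩ := S18P11_hensel_root N hN hroot J⁻¹ hJ
  have hrel' : algebraMap F1 E jF1 * Polynomial.aeval t (Polynomial.X ^ N : Polynomial K1) =
      Polynomial.aeval t (1 : Polynomial K1) := by
    rw [map_pow, Polynomial.aeval_X, map_one, mul_comm]
    exact hrel
  have hTrel : Polynomial.aeval (HahnSeries.ofPowerSeries ℤ ℂ T)
      (((1 : Polynomial K1).map emb).map phi0) =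
      J * Polynomial.aeval (HahnSeries.ofPowerSeries ℤ ℂ T)
        (((Polynomial.X ^ N : Polynomial K1).map emb).map phi0) := by
    rw [Polynomial.map_one, Polynomial.map_one, map_one, Polynomial.map_pow, Polynomial.map_pow,
      Polynomial.map_X, Polynomial.map_X, map_pow, Polynomial.aeval_X, hT,
      mul_inv_cancel₀ hJ0]
  obtain ⟨S, Φ, h1, h2, h3, h4, -⟩ := S18XB5_cover_embeddings_of_local N emb inc hinc hincj jF1
    hjF1 hdeg t ht hgen 1 (Polynomial.X ^ N) (pow_ne_zero _ Polynomial.X_ne_zero) hrel' ι J hιK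
    hιinj hιJ T hT1 hTrel
  exact ⟨T, S, Φ, hT0, hT1, h1, h2, h3, h4⟩

end cover

/-! ### The case `K₁ = ℚ̄` (sanity check of the hypotheses) -/

theorem S18XB5_card_Q (N : ℕ) [NeZero N] :
    Module.finrank Kbar⟮jElt N⟯ (ModularCurve.modularFunctionFieldBar N) =
      Fintype.card (Q N) := by
  rw [(Fermat.Agent.S24_helper23_DEG.DEG N).2]
  unfold mu
  exact Nat.card_eq_fintype_card

theorem S18XB5_cover_embeddings_fin_bar (N : ℕ) [NeZero N]
    {E : Type*} [Field E] [Algebra (ModularCurve.modularFunctionFieldBar N) E] [Algebra Kbar E]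
    [IsScalarTower Kbar (ModularCurve.modularFunctionFieldBar N) E]
    (t : E) (ht : Transcendental Kbar t) [FiniteDimensional Kbar⟮t⟯ E]
    (hgen : IntermediateField.adjoin (ModularCurve.modularFunctionFieldBar N) {t} = ⊤)
    (An Bd : Polynomial Kbar) (hBd : Bd ≠ 0)
    (hrel : algebraMap (ModularCurve.modularFunctionFieldBar N) E (jElt N) *
      Polynomial.aeval t Bd = Polynomial.aeval t An)
    (θ j₀ : Kbar) (U : Polynomial Kbar)
    (hfac : An - Polynomial.C j₀ * Bd =
      (Polynomial.X - Polynomial.C θ) ^ S18XB5_e0fin j₀ * U)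
    (hU : U.eval θ ≠ 0) (hB : Bd.eval θ ≠ 0) :
    ∃ (T : PowerSeries ℂ) (S : Finset (Q N)) (Φ : {q // q ∈ S} → E →+* LaurentSeries ℂ),
      PowerSeries.constantCoeff T = phi0 θ ∧ PowerSeries.coeff 1 T ≠ 0 ∧
      Fintype.card {q // q ∈ S} = Module.finrank Kbar⟮t⟯ E ∧ Function.Injective Φ ∧
      (∀ i a, Φ i (algebraMap Kbar E a) = HahnSeries.C (phi0 a)) ∧
      (∀ i, Φ i t = HahnSeries.ofPowerSeries ℤ ℂ T) := by
  haveI := (Fermat.Agent.S24_helper23_DEG.DEG N).1
  exact S18XB5_cover_embeddings_fin N (RingHom.id Kbar)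
    (RingHom.id (ModularCurve.modularFunctionFieldBar N)) (fun a => rfl)
    (fun d _ hd => ⟨jF N d hd, rfl⟩) (jElt N) rfl (S18XB5_card_Q N) t ht hgen An Bd hBd hrel
    θ j₀ U (by simpa using hfac) hU (by simpa using hB)

end Fermat.Agent.S18_helper10_LOCX
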