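import Mathlib
import Fermat.Agent.S18_helper12_ASM

/-!
# S18, block D for an arbitrary place reduction map

Same formal reduction as `S18_helper12_ASM.S18_of_core`, but for an arbitrary place map `r`
satisfying `IsPlaceReductionAlong` (requested for the S37 preparation).
-/

set_option autoImplicit false
set_option linter.unusedSectionVars false

open HahnSeries IntermediateField AlgebraicCurve ModularCurve

noncomputable section

namespace Fermat.Agent.S18_helper12_ASMalong

open Fermat.Agent.S18_helper12_ASM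

set_option synthInstance.maxHeartbeats 400000

section Main

variable (N : ℕ) [NeZero N] {ℓ : ℕ} (A : ValuationSubring (AlgebraicClosure ℚ))

set_option maxHeartbeats 3200000 in
/-- the prime order case. -/
theorem prime_case_along (hcore : CoreStatement N ℓ A)
    (hconst : ConstStatement (IsLocalRing.ResidueField A) N)
    (r : Place (AlgebraicClosure ℚ) (modularFunctionFieldBar N) →
      Place (IsLocalRing.ResidueField A)
        (modularFunctionFieldFullC (IsLocalRing.ResidueField A) N))
    (hr : IsPlaceReductionAlong A (IsLocalRing.residue A) N r)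
    (hgen : PrincipalGeneratedByIntegral A (IsLocalRing.residue A) N)
    (p : ℕ) (hp : p.Prime) (hpℓ : p ≠ ℓ)
    (z : ModularCurve.JZero N)
    (hpz : p • z = 0) (hz : reductionPic0Along r hr hgen z = 0) :
    z = 0 := by
  obtain ⟨D, rfl⟩ := Pic0.mk_surjective z
  -- `p • D` is principal
  have hpD : ((p • D : Divisor.degZero (K := AlgebraicClosure ℚ)
      (F := modularFunctionFieldBar N)) : Divisor (AlgebraicClosure ℚ)
        (modularFunctionFieldBar N)) ∈
      Divisor.principal (K := AlgebraicClosure ℚ) (F := modularFunctionFieldBar N) := by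
    have h1 : Pic0.mk (p • D) = 0 := by
      rw [← hpz]; rfl
    have h2 := (QuotientAddGroup.eq_zero_iff _).mp h1
    exact AddSubgroup.mem_addSubgroupOf.mp h2
  -- the reduction of `D` is principal
  have hrD : Finsupp.mapDomain r (D : Divisor (AlgebraicClosure ℚ)
      (modularFunctionFieldBar N)) ∈
      Divisor.principal (K := IsLocalRing.ResidueField A)
        (F := modularFunctionFieldFullC (IsLocalRing.ResidueField A) N) := by
    rw [reductionPic0Along_mk r hr hgen D] at hz
    have h2 := (QuotientAddGroup.eq_zero_iff _).mp hz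
    exact AddSubgroup.mem_addSubgroupOf.mp h2
  obtain ⟨g₀, hg₀, hg₀D⟩ := hrD
  -- write `p • D = div y₁ - div y₂`
  obtain ⟨y₁, y₂, hy₁, hy₂, hk₁, hk₂, E₁, E₂, hn₁, hn₂, hEE, hE₁, hE₂⟩ :=
    intPair_of_mem_closure (hgen hpD)
  have hcoe : ((p • D : Divisor.degZero (K := AlgebraicClosure ℚ)
      (F := modularFunctionFieldBar N)) : Divisor (AlgebraicClosure ℚ)
        (modularFunctionFieldBar N)) = p • (D : Divisor (AlgebraicClosure ℚ)
        (modularFunctionFieldBar N)) := AddSubgroup.coe_nsmul _ _ _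
  rw [hcoe] at hEE
  -- nonvanishing in the two function fields
  set b₁ : modularFunctionFieldBar N := ⟨_, hy₁⟩ with hb₁
  set b₂ : modularFunctionFieldBar N := ⟨_, hy₂⟩ with hb₂
  have hb₁0 : b₁ ≠ 0 := fun h0 => coeffMap_subtype_ne_zero hn₁ (congrArg Subtype.val h0)
  have hb₂0 : b₂ ≠ 0 := fun h0 => coeffMap_subtype_ne_zero hn₂ (congrArg Subtype.val h0)
  set a₁ : modularFunctionFieldFullC (IsLocalRing.ResidueField A) N := ⟨_, hk₁⟩ with ha₁
  set a₂ : modularFunctionFieldFullC (IsLocalRing.ResidueField A) N := ⟨_, hk₂⟩ with ha₂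
  have ha₁0 : a₁ ≠ 0 := fun h0 => hn₁ (congrArg Subtype.val h0)
  have ha₂0 : a₂ ≠ 0 := fun h0 => hn₂ (congrArg Subtype.val h0)
  -- reduction of the divisor of `y₁ / y₂`
  have hmap : ∀ Q : Place (IsLocalRing.ResidueField A)
      (modularFunctionFieldFullC (IsLocalRing.ResidueField A) N),
      (p : ℤ) * Q.ord g₀ = Q.ord a₁ - Q.ord a₂ := by
    intro Q
    have e1 : Finsupp.mapDomain r (p • (D : Divisor (AlgebraicClosure ℚ)
        (modularFunctionFieldBar N))) = p • Finsupp.mapDomain r (D : Divisor (AlgebraicClosure ℚ)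
        (modularFunctionFieldBar N)) := map_nsmul (Finsupp.mapDomain.addMonoidHom r) p _
    have e2 : Finsupp.mapDomain r (E₁ - E₂) = Finsupp.mapDomain r E₁ - Finsupp.mapDomain r E₂ :=
      map_sub (Finsupp.mapDomain.addMonoidHom r) E₁ E₂
    have e3 := congrArg (fun X => X Q) (e1.symm.trans ((congrArg (Finsupp.mapDomain r) hEE).trans e2))
    simp only [Finsupp.smul_apply, Finsupp.sub_apply, nsmul_eq_mul] at e3
    rw [hr.2 y₁ hy₁ hk₁ hn₁ E₁ hE₁ Q, hr.2 y₂ hy₂ hk₂ hn₂ E₂ hE₂ Q, hg₀D Q] at e3
    exact e3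
  -- the quotient has trivial divisor
  have hg₀p : g₀ ^ p ≠ 0 := pow_ne_zero _ hg₀
  set x : modularFunctionFieldFullC (IsLocalRing.ResidueField A) N := a₁ * a₂⁻¹ * (g₀ ^ p)⁻¹
    with hx
  have hx0 : x ≠ 0 := mul_ne_zero (mul_ne_zero ha₁0 (inv_ne_zero ha₂0)) (inv_ne_zero hg₀p)
  have hxord : ∀ Q : Place (IsLocalRing.ResidueField A)
      (modularFunctionFieldFullC (IsLocalRing.ResidueField A) N), Q.ord x = 0 := by
    intro Q
    have e : Q.ord (g₀ ^ p) = (p : ℤ) * Q.ord g₀ := by
      rw [← zpow_natCast, Q.ord_zpow]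
    rw [hx, Q.ord_mul (mul_ne_zero ha₁0 (inv_ne_zero ha₂0)) (inv_ne_zero hg₀p),
      Q.ord_mul ha₁0 (inv_ne_zero ha₂0), Q.ord_inv, Q.ord_inv, e, hmap Q]
    ring
  obtain ⟨c, hc⟩ := hconst x hx0 hxord
  obtain ⟨d, hd⟩ := exists_pow_eq_residueField A p hp.pos c
  -- the `p`-th root of the reduction
  set g : modularFunctionFieldFullC (IsLocalRing.ResidueField A) N :=
    algebraMap _ _ d * g₀ with hg
  have hg0 : g ≠ 0 := by
    refine mul_ne_zero ?_ hg₀
    intro h0
    apply hx0
    rw [hc, ← hd, map_pow, h0, zero_pow hp.ne_zero]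
  have hred' : a₁ = g ^ p * a₂ := by
    have h1 : a₁ = x * g₀ ^ p * a₂ := by
      rw [hx]; field_simp
    rw [h1, hc, ← hd, hg, map_pow, mul_pow]
  have hred : coeffMap (IsLocalRing.residue A) y₁ =
      (g : LaurentSeries (IsLocalRing.ResidueField A)) ^ p *
        coeffMap (IsLocalRing.residue A) y₂ := congrArg Subtype.val hred'
  have hgL0 : (g : LaurentSeries (IsLocalRing.ResidueField A)) ≠ 0 := fun h0 =>
    hg0 (Subtype.ext h0)
  -- divisibility of the divisor
  have hordf : ∀ P : Place (AlgebraicClosure ℚ) (modularFunctionFieldBar N),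
      P.ord (b₁ / b₂) = (p : ℤ) * (D : Divisor (AlgebraicClosure ℚ)
        (modularFunctionFieldBar N)) P := by
    intro P
    have e3 := congrArg (fun X => X P) hEE
    simp only [Finsupp.smul_apply, Finsupp.sub_apply, nsmul_eq_mul] at e3
    rw [div_eq_mul_inv, P.ord_mul hb₁0 (inv_ne_zero hb₂0), P.ord_inv, ← hE₁ P, ← hE₂ P, e3]
    ring
  obtain ⟨w, hw⟩ := hcore p hp hpℓ y₁ y₂ hy₁ hy₂ g g.2 hgL0 hn₂ hred
    (fun P => ⟨_, hordf P⟩)
  have hw0 : w ≠ 0 := by
    intro h0
    have : b₁ / b₂ = 0 := by rw [hw, h0, zero_pow hp.ne_zero]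
    exact div_ne_zero hb₁0 hb₂0 this
  have hDw : ∀ P : Place (AlgebraicClosure ℚ) (modularFunctionFieldBar N),
      (D : Divisor (AlgebraicClosure ℚ) (modularFunctionFieldBar N)) P = P.ord w := by
    intro P
    have e : P.ord (w ^ p) = (p : ℤ) * P.ord w := by
      rw [← zpow_natCast, P.ord_zpow]
    have h1 := hordf P
    rw [hw, e] at h1
    have hp0 : (p : ℤ) ≠ 0 := by exact_mod_cast hp.ne_zero
    exact (mul_left_cancel₀ hp0 h1).symm
  exact (QuotientAddGroup.eq_zero_iff _).mpr
    (AddSubgroup.mem_addSubgroupOf.mpr ⟨w, hw0, hDw⟩)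

/-- **Block D for an arbitrary place reduction map** (for reuse in S37). -/
theorem S18_of_core_along (hcore : CoreStatement N ℓ A)
    (hconst : ConstStatement (IsLocalRing.ResidueField A) N)
    (r : Place (AlgebraicClosure ℚ) (modularFunctionFieldBar N) →
      Place (IsLocalRing.ResidueField A)
        (modularFunctionFieldFullC (IsLocalRing.ResidueField A) N))
    (hr : IsPlaceReductionAlong A (IsLocalRing.residue A) N r)
    (hgen : PrincipalGeneratedByIntegral A (IsLocalRing.residue A) N)
    (m : ℕ) (hm : ¬ ℓ ∣ m)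
    (z : ModularCurve.JZero N)
    (hmz : m • z = 0) (hz : reductionPic0Along r hr hgen z = 0) :
    z = 0 := by
  induction m using Nat.strong_induction_on generalizing z with
  | _ m ih =>
    by_cases hm1 : m = 1
    · subst hm1
      simpa using hmz
    · obtain ⟨p, hp, hpm⟩ := Nat.exists_prime_and_dvd hm1
      have hpℓ : p ≠ ℓ := by
        rintro rfl
        exact hm hpm
      obtain ⟨m', rfl⟩ := hpm
      have hm'0 : m' ≠ 0 := by
        rintro rfl
        exact hm (by simp)
      have hz' : m' • z = 0 := by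
        refine prime_case_along N A hcore hconst r hr hgen p hp hpℓ (m' • z) ?_ ?_
        · rw [← mul_nsmul']
          exact hmz
        · rw [map_nsmul, hz, nsmul_zero]
      refine ih m' ?_ (fun hd => hm (Dvd.dvd.mul_left hd p)) z hz' hz
      calc m' = 1 * m' := (one_mul _).symm
        _ < p * m' := Nat.mul_lt_mul_of_pos_right hp.one_lt (Nat.pos_of_ne_zero hm'0)

end Main

end Fermat.Agent.S18_helper12_ASMalong
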