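import Mathlib
import Fermat.Prelude.Def_AlgebraicCurve_CanonicalDivisor
import Fermat.Agent.S24_helper15_A1

set_option autoImplicit false

/-!
# S24, piece B2: every place above `t = 0` comes from one of the embeddings

Route: (1) integrality: an element of non-negative order under all embeddings has a minimal
polynomial over `K(t)` with coefficients of non-negative order, hence lies in `O_v`;
(2) prime avoidance in the intersection of the valuation rings of the embeddings;
(3) a unit trick `1 / (1 + c g + g^2)`; (4) the valuation rings of the embeddings have rank one.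
-/

open AlgebraicCurve IntermediateField Polynomial

namespace Fermat.Agent.S24_helper3_B2

section PowerSeriesLemmas

variable {k : Type*} [Field k]

theorem coeff_ofPowerSeries_neg (P : PowerSeries k) (n : ℤ) (hn : n < 0) :
    (HahnSeries.ofPowerSeries ℤ k P).coeff n = 0 := by
  rw [HahnSeries.ofPowerSeries_apply]
  apply HahnSeries.embDomain_of_notMem_range
  simp only [Set.mem_range, not_exists]
  intro m hm
  have : ((m : ℕ) : ℤ) = n := hm
  omega

theorem le_orderTop_ofPowerSeries (P : PowerSeries k) :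
    (0 : WithTop ℤ) ≤ (HahnSeries.ofPowerSeries ℤ k P).orderTop := by
  rw [HahnSeries.le_orderTop_iff_forall]
  intro n hn
  apply coeff_ofPowerSeries_neg
  exact_mod_cast hn

theorem exists_ofPowerSeries_eq (f : LaurentSeries k) (hf : (0 : WithTop ℤ) ≤ f.orderTop) :
    ∃ P : PowerSeries k, HahnSeries.ofPowerSeries ℤ k P = f := by
  refine ⟨PowerSeries.mk fun n => f.coeff n, ?_⟩
  ext n
  rcases lt_or_ge n 0 with hn | hn
  · rw [coeff_ofPowerSeries_neg _ _ hn]
    symm
    apply HahnSeries.coeff_eq_zero_of_lt_orderTop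
    exact lt_of_lt_of_le (by exact_mod_cast hn) hf
  · obtain ⟨m, rfl⟩ := Int.eq_ofNat_of_zero_le hn
    rw [HahnSeries.ofPowerSeries_apply_coeff, PowerSeries.coeff_mk]

end PowerSeriesLemmas

section Order

variable {F L : Type*} [Field F] [Field L]

/-- The order function attached to a ring hom into Laurent series. -/
noncomputable def w (ι : F →+* LaurentSeries L) : AddValuation F (WithTop ℤ) :=
  (HahnSeries.addVal ℤ L).comap ι

theorem w_apply (ι : F →+* LaurentSeries L) (f : F) : w ι f = (ι f).orderTop := rfl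

theorem w_inv (ι : F →+* LaurentSeries L) (f : F) : w ι f⁻¹ = -(w ι f) :=
  AddValuation.map_inv _

theorem w_eq_top_iff (ι : F →+* LaurentSeries L) (f : F) : w ι f = ⊤ ↔ f = 0 := by
  rw [w_apply, HahnSeries.orderTop_eq_top, map_eq_zero]

/-- The valuation subring attached to a ring hom into Laurent series. -/
noncomputable def Oι (ι : F →+* LaurentSeries L) : ValuationSubring F where
  carrier := {f | 0 ≤ w ι f}
  mul_mem' := by
    intro a b ha hb
    show 0 ≤ w ι (a * b)
    rw [AddValuation.map_mul]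
    exact add_nonneg ha hb
  one_mem' := by
    show 0 ≤ w ι 1
    rw [AddValuation.map_one]
  add_mem' := by
    intro a b ha hb
    show 0 ≤ w ι (a + b)
    exact le_trans (le_min ha hb) (AddValuation.map_add _ a b)
  zero_mem' := by
    show 0 ≤ w ι 0
    rw [AddValuation.map_zero]
    exact le_top
  neg_mem' := by
    intro a ha
    show 0 ≤ w ι (-a)
    rw [AddValuation.map_neg]
    exact ha
  mem_or_inv_mem' := by
    intro a
    show 0 ≤ w ι a ∨ 0 ≤ w ι a⁻¹
    rw [w_inv]
    rcases le_total 0 (w ι a) with h | h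
    · exact Or.inl h
    · right
      generalize w ι a = x at h
      induction x using WithTop.recTopCoe with
      | top => simp
      | coe z =>
        have hz : z ≤ 0 := by exact_mod_cast h
        rw [← WithTop.LinearOrderedAddCommGroup.coe_neg]
        exact_mod_cast (neg_nonneg.mpr hz)

theorem mem_Oι (ι : F →+* LaurentSeries L) (f : F) : f ∈ Oι ι ↔ 0 ≤ (ι f).orderTop := Iff.rfl

end Order


section Compare

variable {K F : Type*} [Field K] [Field F] [Algebra K F]

theorem aeval_mem (W : ValuationSubring F) (hK : ∀ c : K, algebraMap K F c ∈ W) {t : F}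
    (ht : t ∈ W) (r : K[X]) : aeval t r ∈ W := by
  induction r using Polynomial.induction_on with
  | C a => rw [aeval_C]; exact hK a
  | add p q hp hq => rw [map_add]; exact W.add_mem _ _ hp hq
  | monomial n a h =>
    rw [map_mul, aeval_C, map_pow, aeval_X]
    exact W.mul_mem _ _ (hK a) (pow_mem ht _)

theorem valuation_algebraMap (W : ValuationSubring F) (hK : ∀ c : K, algebraMap K F c ∈ W)
    {c : K} (hc : c ≠ 0) : W.valuation (algebraMap K F c) = 1 := by
  apply le_antisymm
  · exact (W.valuation_le_one_iff _).mpr (hK c)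
  · have h1 : W.valuation (algebraMap K F c⁻¹) ≤ 1 := (W.valuation_le_one_iff _).mpr (hK c⁻¹)
    rw [map_inv₀, map_inv₀] at h1
    have hne : W.valuation (algebraMap K F c) ≠ 0 := by
      rw [Valuation.ne_zero_iff]
      exact (_root_.map_ne_zero _).mpr hc
    exact (inv_le_one₀ (zero_lt_iff.mpr hne)).mp h1

theorem valuation_aeval_eq_one (W : ValuationSubring F) (hK : ∀ c : K, algebraMap K F c ∈ W)
    {t : F} (ht : t ∈ W.nonunits) (r : K[X]) (hr : r.coeff 0 ≠ 0) :
    W.valuation (aeval t r) = 1 := by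
  have htW : t ∈ W := W.nonunits_subset ht
  have h1 : W.valuation t < 1 := (W.mem_nonunits_iff).mp ht
  have h2 : W.valuation (aeval t r.divX) ≤ 1 :=
    (W.valuation_le_one_iff _).mpr (aeval_mem W hK htW _)
  have h3 : W.valuation (algebraMap K F (r.coeff 0)) = 1 := valuation_algebraMap W hK hr
  have h4 : W.valuation (t * aeval t r.divX) < 1 := by
    rw [map_mul]
    calc W.valuation t * W.valuation (aeval t r.divX) ≤ W.valuation t * 1 :=
          mul_le_mul_right h2 _
      _ = W.valuation t := mul_one _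
      _ < 1 := h1
  have h5 : aeval t r = algebraMap K F (r.coeff 0) + t * aeval t r.divX := by
    conv_lhs => rw [← Polynomial.X_mul_divX_add r]
    rw [map_add, map_mul, aeval_X, aeval_C, add_comm]
  rw [h5, Valuation.map_add_eq_of_lt_left _ (by rw [h3]; exact h4), h3]

theorem exists_factor (r : K[X]) (hr : r ≠ 0) :
    ∃ (m : ℕ) (r₁ : K[X]), r = X ^ m * r₁ ∧ r₁.coeff 0 ≠ 0 := by
  obtain ⟨q, hq1, hq2⟩ := Polynomial.exists_eq_pow_rootMultiplicity_mul_and_not_dvd r hr 0
  rw [map_zero, sub_zero] at hq1 hq2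
  refine ⟨_, q, hq1, ?_⟩
  intro h0
  exact hq2 (Polynomial.X_dvd_iff.mpr h0)

/-- Membership of elements of `K(t)` in a valuation ring in which `t` is a non-unit only depends
on the element. -/
theorem mem_of_mem_adjoin (W₁ W₂ : ValuationSubring F)
    (hK₁ : ∀ c : K, algebraMap K F c ∈ W₁) (hK₂ : ∀ c : K, algebraMap K F c ∈ W₂)
    {t : F} (ht0 : t ≠ 0) (ht₁ : t ∈ W₁.nonunits) (ht₂ : t ∈ W₂.nonunits)
    {a : F} (ha : a ∈ K⟮t⟯) (h : a ∈ W₁) : a ∈ W₂ := by
  obtain ⟨r, s, rfl⟩ := (IntermediateField.mem_adjoin_simple_iff K a).mp ha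
  by_cases hr : r = 0
  · rw [hr, map_zero, zero_div]
    exact W₂.zero_mem
  by_cases hs : s = 0
  · rw [hs, map_zero, div_zero]
    exact W₂.zero_mem
  obtain ⟨m, r₁, hr1, hr2⟩ := exists_factor r hr
  obtain ⟨n, s₁, hs1, hs2⟩ := exists_factor s hs
  have key : ∀ W : ValuationSubring F, (∀ c : K, algebraMap K F c ∈ W) → t ∈ W.nonunits →
      (aeval t r / aeval t s ∈ W ↔ n ≤ m) := by
    intro W hK ht
    have e1 := valuation_aeval_eq_one W hK ht r₁ hr2
    have e2 := valuation_aeval_eq_one W hK ht s₁ hs2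
    have h1 : W.valuation t < 1 := (W.mem_nonunits_iff).mp ht
    have h0 : 0 < W.valuation t := by
      rw [zero_lt_iff, Valuation.ne_zero_iff]
      exact ht0
    rw [← W.valuation_le_one_iff, hr1, hs1, map_div₀]
    simp only [map_mul, map_pow, aeval_X, e1, e2, mul_one]
    rw [div_le_one₀ (pow_pos h0 n)]
    exact pow_le_pow_iff_right_of_lt_one₀ h0 h1
  exact (key W₂ hK₂ ht₂).mpr ((key W₁ hK₁ ht₁).mp h)

end Compare


section Embeddings

variable {K F : Type*} [Field K] [Field F] [Algebra K F] {L : Type*} [Field L]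

theorem eq_on_adjoin (φ₀ : K →+* L) (ι ι' : F →+* LaurentSeries L)
    (hK : ∀ a, ι (algebraMap K F a) = HahnSeries.C (φ₀ a))
    (hK' : ∀ a, ι' (algebraMap K F a) = HahnSeries.C (φ₀ a))
    {t : F} (ht : ι t = ι' t) {a : F} (ha : a ∈ K⟮t⟯) : ι a = ι' a := by
  obtain ⟨r, s, rfl⟩ := (IntermediateField.mem_adjoin_simple_iff K a).mp ha
  have key : ∀ r : K[X], ι (aeval t r) = ι' (aeval t r) := by
    intro r
    rw [aeval_def, Polynomial.hom_eval₂, Polynomial.hom_eval₂, ht]
    congr 1
    ext c
    simp only [RingHom.comp_apply, hK, hK']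
  rw [map_div₀, map_div₀, key, key]

theorem mem_nonunits_of (W : ValuationSubring F) {x : F} (hx : x ∈ W) (hx' : x⁻¹ ∉ W) :
    x ∈ W.nonunits := by
  rw [W.mem_nonunits_iff]
  refine lt_of_le_of_ne ((W.valuation_le_one_iff _).mpr hx) ?_
  intro h1
  apply hx'
  rw [← W.valuation_le_one_iff, map_inv₀, h1, inv_one]

theorem algebraMap_mem_Oι (φ₀ : K →+* L) (ι : F →+* LaurentSeries L)
    (hK : ∀ a, ι (algebraMap K F a) = HahnSeries.C (φ₀ a)) (c : K) :
    algebraMap K F c ∈ Oι ι := by
  rw [mem_Oι, hK]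
  exact_mod_cast HahnSeries.orderTop_single_le (Γ := ℤ) (a := (0 : ℤ)) (r := φ₀ c)

theorem orderTop_eq_coe_order {x : LaurentSeries L} (hx : x ≠ 0) :
    x.orderTop = ((x.order : ℤ) : WithTop ℤ) :=
  (HahnSeries.order_eq_orderTop_of_ne_zero hx).symm

theorem ne_zero_of_order_pos {x : LaurentSeries L} (h : 0 < x.order) : x ≠ 0 := by
  rintro rfl
  simp at h

theorem orderTop_pos_of_order_pos {x : LaurentSeries L} (h : 0 < x.order) :
    (0 : WithTop ℤ) < x.orderTop := by
  rw [orderTop_eq_coe_order (ne_zero_of_order_pos h)]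
  exact_mod_cast h

theorem mem_nonunits_Oι (ι : F →+* LaurentSeries L) {t : F} (h : 0 < (ι t).order) :
    t ∈ (Oι ι).nonunits := by
  have h1 := orderTop_pos_of_order_pos h
  apply mem_nonunits_of
  · exact h1.le
  · intro h2
    have h3 : 0 ≤ w ι t⁻¹ := h2
    rw [w_inv, w_apply, orderTop_eq_coe_order (ne_zero_of_order_pos h),
      ← WithTop.LinearOrderedAddCommGroup.coe_neg] at h3
    have hz' : 0 ≤ -(ι t).order := by exact_mod_cast h3
    omega

theorem mem_nonunits_place (v : Place K F) {t : F} (hv : 0 < v.ord t) :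
    t ∈ v.toValuationSubring.nonunits := by
  have htmem : t ∈ v.toValuationSubring := by
    rcases v.toValuationSubring.mem_or_inv_mem t with h | h
    · exact h
    · have := Fermat.Agent.S24_helper15_A1.inv_mem_of_ord_nonpos v h (by
        rw [v.ord_inv]
        omega)
      rwa [inv_inv] at this
  have := Fermat.Agent.S24_helper15_A1.mem_maximalIdeal_of_ord_pos v htmem hv
  rw [ValuationSubring.valuation_lt_one_iff] at this
  exact (v.toValuationSubring.mem_nonunits_iff).mpr this

end Embeddings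


section Integrality

variable {K F : Type*} [Field K] [Field F] [Algebra K F] {L : Type*} [Field L]

/-- If all coefficients of the minimal polynomial of `f` over `E` lie in a valuation ring,
then so does `f`. -/
theorem mem_of_minpoly_coeff_mem (E : IntermediateField K F) [FiniteDimensional E F]
    (W : ValuationSubring F) (f : F)
    (h : ∀ n, ((minpoly E f).coeff n : F) ∈ W) : f ∈ W := by
  have hint : IsIntegral E f := IsIntegral.of_finite E f
  have hm : (minpoly E f).Monic := minpoly.monic hint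
  have hlift : (minpoly E f).map (algebraMap E F) ∈ Polynomial.lifts (algebraMap W F) := by
    rw [Polynomial.lifts_iff_coeff_lifts]
    intro n
    rw [Polynomial.coeff_map]
    exact ⟨⟨_, h n⟩, rfl⟩
  obtain ⟨q, hq, -, hqm⟩ :=
    Polynomial.lifts_and_natDegree_eq_and_monic hlift (hm.map (algebraMap E F))
  have hroot : Polynomial.eval₂ (algebraMap W F) f q = 0 := by
    rw [← Polynomial.eval_map, hq, Polynomial.eval_map, ← Polynomial.aeval_def]
    exact minpoly.aeval E f
  have hintW : IsIntegral W f := ⟨q, hqm, hroot⟩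
  obtain ⟨y, hy⟩ := IsIntegrallyClosed.isIntegral_iff.mp hintW
  rw [← hy]
  exact y.2

theorem inter_le [CharZero K] (t : F) [FiniteDimensional K⟮t⟯ F]
    (φ₀ : K →+* L) {I : Type*} [Fintype I] (hI : Fintype.card I = Module.finrank K⟮t⟯ F)
    (ι : I → F →+* LaurentSeries L)
    (hιK : ∀ i a, ι i (algebraMap K F a) = HahnSeries.C (φ₀ a))
    (hιinj : Function.Injective ι)
    (hιt : ∀ i i', ι i t = ι i' t)
    (hord : ∀ i, 0 < (ι i t).order)
    (v : Place K F) (hv : 0 < v.ord t) (f : F) (hf : ∀ i, f ∈ Oι (ι i)) :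
    f ∈ v.toValuationSubring := by
  classical
  have hne : Nonempty I := by
    rw [← Fintype.card_pos_iff, hI]
    exact Module.finrank_pos
  obtain ⟨i₀⟩ := hne
  have ht0 : t ≠ 0 := by
    intro h0
    have := hord i₀
    rw [h0, map_zero] at this
    simp at this
  -- algebra structure on the algebraic closure of the Laurent series field
  let A := AlgebraicClosure (LaurentSeries L)
  let algEA : Algebra K⟮t⟯ A :=
    ((algebraMap (LaurentSeries L) A).comp ((ι i₀).comp (algebraMap K⟮t⟯ F))).toAlgebra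
  have halg : ∀ r : K⟮t⟯, algebraMap K⟮t⟯ A r =
      algebraMap (LaurentSeries L) A (ι i₀ (r : F)) := fun r => rfl
  let ψ : I → (F →ₐ[K⟮t⟯] A) := fun i =>
    { toRingHom := (algebraMap (LaurentSeries L) A).comp (ι i)
      commutes' := by
        intro r
        show algebraMap (LaurentSeries L) A (ι i (r : F)) = _
        rw [halg, eq_on_adjoin φ₀ (ι i) (ι i₀) (hιK i) (hιK i₀) (hιt i i₀) r.2] }
  have hψ : ∀ i x, ψ i x = algebraMap (LaurentSeries L) A (ι i x) := fun i x => rfl
  have hψinj : Function.Injective ψ := by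
    intro i j hij
    apply hιinj
    ext1 x
    have := congrArg (fun σ : F →ₐ[K⟮t⟯] A => σ x) hij
    simp only [hψ] at this
    exact (algebraMap (LaurentSeries L) A).injective this
  have hcard : Fintype.card (F →ₐ[K⟮t⟯] A) = Module.finrank K⟮t⟯ F := AlgHom.card K⟮t⟯ F A
  have hψbij : Function.Bijective ψ :=
    (Fintype.bijective_iff_injective_and_card ψ).mpr ⟨hψinj, by rw [hI, hcard]⟩
  -- the roots of the minimal polynomial are integral
  let g : PowerSeries L →+* A :=
    (algebraMap (LaurentSeries L) A).comp (HahnSeries.ofPowerSeries ℤ L)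
  have hint : IsIntegral K⟮t⟯ f := IsIntegral.of_finite K⟮t⟯ f
  have hm : (minpoly K⟮t⟯ f).Monic := minpoly.monic hint
  have hroots : ∀ r ∈ ((minpoly K⟮t⟯ f).map (algebraMap K⟮t⟯ A)).roots, r ∈ Set.range g := by
    intro r hr
    have hr' : r ∈ (minpoly K⟮t⟯ f).rootSet A := by
      rw [Polynomial.rootSet_def, Finset.mem_coe, Multiset.mem_toFinset]
      exact hr
    rw [← Algebra.IsAlgebraic.range_eval_eq_rootSet_minpoly A f] at hr'
    obtain ⟨σ, hσ⟩ := hr'
    obtain ⟨i, rfl⟩ := hψbij.2 σ
    obtain ⟨P, hP⟩ := exists_ofPowerSeries_eq (ι i f) (hf i)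
    refine ⟨P, ?_⟩
    show algebraMap (LaurentSeries L) A (HahnSeries.ofPowerSeries ℤ L P) = r
    rw [hP, ← hσ]
    exact (hψ i f).symm
  have hprod : (minpoly K⟮t⟯ f).map (algebraMap K⟮t⟯ A) ∈ Polynomial.lifts g := by
    rw [(IsAlgClosed.splits ((minpoly K⟮t⟯ f).map (algebraMap K⟮t⟯ A))).eq_prod_roots_of_monic
      (hm.map _)]
    apply Subsemiring.multiset_prod_mem
    intro c hc
    rw [Multiset.mem_map] at hc
    obtain ⟨r, hr, rfl⟩ := hc
    obtain ⟨P, rfl⟩ := hroots r hr
    rw [Polynomial.mem_lifts]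
    exact ⟨X - C P, by simp⟩
  have hcoeff : ∀ n, ((minpoly K⟮t⟯ f).coeff n : F) ∈ Oι (ι i₀) := by
    intro n
    rw [Polynomial.lifts_iff_coeff_lifts] at hprod
    obtain ⟨P, hP⟩ := hprod n
    rw [Polynomial.coeff_map, halg] at hP
    have hP' : HahnSeries.ofPowerSeries ℤ L P = ι i₀ ((minpoly K⟮t⟯ f).coeff n : F) :=
      (algebraMap (LaurentSeries L) A).injective hP
    rw [mem_Oι, ← hP']
    exact le_orderTop_ofPowerSeries P
  -- compare the two valuation rings on `K(t)`
  apply mem_of_minpoly_coeff_mem K⟮t⟯ v.toValuationSubring f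
  intro n
  exact mem_of_mem_adjoin (Oι (ι i₀)) v.toValuationSubring
    (algebraMap_mem_Oι φ₀ (ι i₀) (hιK i₀)) v.algebraMap_mem' ht0
    (mem_nonunits_Oι (ι i₀) (hord i₀)) (mem_nonunits_place v hv)
    ((minpoly K⟮t⟯ f).coeff n).2 (hcoeff n)

end Integrality


section Avoidance

variable {K F : Type*} [Field K] [Field F] [Algebra K F]

theorem valuation_inv_D_of_lt (W : ValuationSubring F) (hK : ∀ c : K, algebraMap K F c ∈ W)
    (c : K) {g : F} (hg : W.valuation g < 1) :
    W.valuation (1 + algebraMap K F c * g + g ^ 2)⁻¹ = 1 := by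
  have h1 : W.valuation (algebraMap K F c + g) ≤ 1 :=
    (W.valuation_le_one_iff _).mpr (W.add_mem _ _ (hK c) ((W.valuation_le_one_iff _).mp hg.le))
  have h2 : W.valuation (algebraMap K F c * g + g ^ 2) < 1 := by
    have : algebraMap K F c * g + g ^ 2 = g * (algebraMap K F c + g) := by ring
    rw [this, map_mul]
    calc W.valuation g * W.valuation (algebraMap K F c + g) ≤ W.valuation g * 1 :=
          mul_le_mul_right h1 _
      _ = W.valuation g := mul_one _
      _ < 1 := hg
  rw [map_inv₀, add_assoc, Valuation.map_one_add_of_lt _ h2, inv_one]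

theorem valuation_inv_D_of_gt (W : ValuationSubring F) (hK : ∀ c : K, algebraMap K F c ∈ W)
    (c : K) {g : F} (hg : 1 < W.valuation g) :
    W.valuation (1 + algebraMap K F c * g + g ^ 2)⁻¹ < 1 := by
  have hg0 : g ≠ 0 := by
    rintro rfl
    rw [map_zero] at hg
    exact not_lt.mpr zero_le_one hg
  have hgi : W.valuation g⁻¹ < 1 := by
    rw [map_inv₀]
    exact inv_lt_one_of_one_lt₀ hg
  have h1 := valuation_inv_D_of_lt W hK c hgi
  have e : (1 + algebraMap K F c * g + g ^ 2)⁻¹ =
      (g⁻¹) ^ 2 * (1 + algebraMap K F c * g⁻¹ + g⁻¹ ^ 2)⁻¹ := by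
    have hD : 1 + algebraMap K F c * g + g ^ 2 =
        g ^ 2 * (1 + algebraMap K F c * g⁻¹ + g⁻¹ ^ 2) := by
      field_simp
      ring
    rw [hD, mul_inv, inv_pow]
  rw [e, map_mul, h1, mul_one, map_pow]
  exact pow_lt_one₀ zero_le hgi (by norm_num)

theorem bad_subsingleton (W : ValuationSubring F) (hK : ∀ c : K, algebraMap K F c ∈ W)
    {g : F} (hg : W.valuation g = 1) {c c' : K}
    (hc : W.valuation (1 + algebraMap K F c * g + g ^ 2) < 1)
    (hc' : W.valuation (1 + algebraMap K F c' * g + g ^ 2) < 1) : c = c' := by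
  by_contra hne
  have hsub : c - c' ≠ 0 := sub_ne_zero.mpr hne
  have h1 : W.valuation (algebraMap K F (c - c') * g) = 1 := by
    rw [map_mul, valuation_algebraMap W hK hsub, hg, mul_one]
  have h2 : algebraMap K F (c - c') * g =
      (1 + algebraMap K F c * g + g ^ 2) - (1 + algebraMap K F c' * g + g ^ 2) := by
    rw [map_sub]
    ring
  rw [h2] at h1
  have h3 := Valuation.map_sub_lt _ hc hc'
  rw [h1] at h3
  exact lt_irrefl _ h3

theorem exists_le_of_iInf_le [Infinite K] {I : Type*} [Fintype I] [Nonempty I]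
    (W : I → ValuationSubring F) (V : ValuationSubring F)
    (hKW : ∀ i c, algebraMap K F c ∈ W i) (hKV : ∀ c : K, algebraMap K F c ∈ V)
    (hle : ∀ f, (∀ i, f ∈ W i) → f ∈ V) : ∃ i, W i ≤ V := by
  classical
  let R : Subring F := ⨅ i, (W i).toSubring
  have hR : ∀ x : F, x ∈ R ↔ ∀ i, x ∈ W i := by
    intro x
    simp only [R, Subring.mem_iInf]
    rfl
  have hRV : R ≤ V.toSubring := fun x hx => hle x ((hR x).mp hx)
  have hRW : ∀ i, R ≤ (W i).toSubring := fun i x hx => (hR x).mp hx i
  let P : Ideal R := Ideal.comap (Subring.inclusion hRV) (IsLocalRing.maximalIdeal V)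
  let Q : I → Ideal R := fun i =>
    Ideal.comap (Subring.inclusion (hRW i)) (IsLocalRing.maximalIdeal (W i))
  have hP : ∀ x : R, x ∈ P ↔ V.valuation (x : F) < 1 := by
    intro x
    show Subring.inclusion hRV x ∈ IsLocalRing.maximalIdeal V ↔ _
    rw [ValuationSubring.valuation_lt_one_iff]
    rfl
  have hQ : ∀ i, ∀ x : R, x ∈ Q i ↔ (W i).valuation (x : F) < 1 := by
    intro i x
    show Subring.inclusion (hRW i) x ∈ IsLocalRing.maximalIdeal (W i) ↔ _
    rw [ValuationSubring.valuation_lt_one_iff]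
    rfl
  have hQprime : ∀ i, (Q i).IsPrime := fun i => Ideal.comap_isPrime _ _
  have hsub : (P : Set R) ⊆ ⋃ i ∈ ((Finset.univ : Finset I) : Set I), (Q i : Set R) := by
    intro x hx
    by_contra hcon
    simp only [Set.mem_iUnion, Finset.coe_univ, Set.mem_univ, exists_true_left,
      SetLike.mem_coe, not_exists] at hcon
    have hx' : V.valuation (x : F) < 1 := (hP x).mp hx
    have hinv : ∀ i, (x : F)⁻¹ ∈ W i := by
      intro i
      have h1 : (W i).valuation (x : F) ≤ 1 := (ValuationSubring.valuation_le_one_iff _ _).mpr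
        ((hR x).mp x.2 i)
      have h2 : ¬ (W i).valuation (x : F) < 1 := fun h => hcon i ((hQ i x).mpr h)
      have h3 : (W i).valuation (x : F) = 1 := le_antisymm h1 (not_lt.mp h2)
      rw [← ValuationSubring.valuation_le_one_iff, map_inv₀, h3, inv_one]
    have hV : (x : F)⁻¹ ∈ V := hle _ hinv
    rw [← ValuationSubring.valuation_le_one_iff, map_inv₀] at hV
    have hx0 : V.valuation (x : F) ≠ 0 := by
      intro h0
      rw [h0, inv_zero] at hV
      have hx00 : (x : F) = 0 := (Valuation.zero_iff _).mp h0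
      have := hinv (Classical.arbitrary I)
      rw [hx00, inv_zero] at this
      have h1 := hcon (Classical.arbitrary I)
      apply h1
      rw [hQ, hx00, map_zero]
      exact zero_lt_one
    have := (inv_le_one₀ (zero_lt_iff.mpr hx0)).mp hV
    exact not_lt.mpr this hx'
  obtain ⟨i, -, hi⟩ := (Ideal.subset_union_prime (Classical.arbitrary I) (Classical.arbitrary I)
    (fun i _ _ _ => hQprime i)).mp hsub
  refine ⟨i, ?_⟩
  intro g hg
  by_contra hgV
  have hgV' : 1 < V.valuation g := by
    rw [← not_le, ValuationSubring.valuation_le_one_iff]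
    exact hgV
  -- choose a good constant
  let Bad : Set K := ⋃ i', {c : K | (W i').valuation g = 1 ∧
    (W i').valuation (1 + algebraMap K F c * g + g ^ 2) < 1}
  have hBad : Bad.Finite := by
    apply Set.finite_iUnion
    intro i'
    apply Set.Subsingleton.finite
    intro c hc c' hc'
    exact bad_subsingleton (W i') (hKW i') hc.1 hc.2 hc'.2
  obtain ⟨c, -, hc⟩ := Set.infinite_univ.exists_notMem_finite hBad
  have hgood : ∀ i', (W i').valuation g = 1 →
      (W i').valuation (1 + algebraMap K F c * g + g ^ 2) = 1 := by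
    intro i' h1
    have hD : (1 + algebraMap K F c * g + g ^ 2) ∈ W i' := by
      have hg' : g ∈ W i' := (ValuationSubring.valuation_le_one_iff _ _).mp h1.le
      exact (W i').add_mem _ _ ((W i').add_mem _ _ (W i').one_mem
        ((W i').mul_mem _ _ (hKW i' c) hg')) (pow_mem hg' 2)
    refine le_antisymm ((ValuationSubring.valuation_le_one_iff _ _).mpr hD) (not_lt.mp ?_)
    intro hlt
    apply hc
    simp only [Bad, Set.mem_iUnion]
    exact ⟨i', h1, hlt⟩
  set y : F := (1 + algebraMap K F c * g + g ^ 2)⁻¹ with hy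
  have hyW : ∀ i', (W i').valuation y ≤ 1 := by
    intro i'
    rcases lt_trichotomy ((W i').valuation g) 1 with h | h | h
    · exact (valuation_inv_D_of_lt (W i') (hKW i') c h).le
    · rw [hy, map_inv₀, hgood i' h, inv_one]
    · exact (valuation_inv_D_of_gt (W i') (hKW i') c h).le
  have hyR : y ∈ R := (hR y).mpr fun i' => (ValuationSubring.valuation_le_one_iff _ _).mp (hyW i')
  have hyP : (⟨y, hyR⟩ : R) ∈ P := (hP _).mpr (valuation_inv_D_of_gt V hKV c hgV')
  have hyQ : (W i).valuation y < 1 := (hQ i _).mp (hi hyP)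
  have hgi : (W i).valuation g ≤ 1 := (ValuationSubring.valuation_le_one_iff _ _).mpr hg
  rcases lt_or_eq_of_le hgi with h | h
  · rw [valuation_inv_D_of_lt (W i) (hKW i) c h] at hyQ
    exact lt_irrefl _ hyQ
  · rw [hy, map_inv₀, hgood i h, inv_one] at hyQ
    exact lt_irrefl _ hyQ

end Avoidance


section Main

variable {K F : Type*} [Field K] [Field F] [Algebra K F] {L : Type*} [Field L]

/-- A valuation ring containing `Oι ι` in which `t` (of positive order) is a non-unit is equal
to `Oι ι`. -/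
theorem le_Oι_of_Oι_le (ι : F →+* LaurentSeries L) (V : ValuationSubring F)
    (hle : Oι ι ≤ V) {t : F} (ht : 0 < (ι t).order) (htV : t ∈ V.nonunits) : V ≤ Oι ι := by
  intro f hf
  by_contra hfO
  have hfO' : ¬ (0 : WithTop ℤ) ≤ (ι f).orderTop := hfO
  have hx0 : ι f ≠ 0 := by
    intro h0
    apply hfO'
    rw [h0, HahnSeries.orderTop_zero]
    exact le_top
  have hτ0 : ι t ≠ 0 := ne_zero_of_order_pos ht
  have hxord : (ι f).order < 0 := by
    rw [orderTop_eq_coe_order hx0] at hfO'
    have : ¬ (0 : ℤ) ≤ (ι f).order := fun h => hfO' (by exact_mod_cast h)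
    omega
  set m : ℕ := (ι t).order.toNat with hm
  have hmτ : (m : ℤ) = (ι t).order := Int.toNat_of_nonneg ht.le
  set z : F := f ^ m * t with hz
  have hιz : ι z = (ι f) ^ m * ι t := by rw [hz, map_mul, map_pow]
  have hιz0 : ι z ≠ 0 := by
    rw [hιz]
    exact mul_ne_zero (pow_ne_zero _ hx0) hτ0
  have hzord : (ι z).order ≤ 0 := by
    rw [hιz, HahnSeries.order_mul (pow_ne_zero _ hx0) hτ0, HahnSeries.order_pow]
    have h1 : m • (ι f).order ≤ m • (-1 : ℤ) := by
      apply nsmul_le_nsmul_right
      omega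
    simp only [nsmul_eq_mul, mul_neg, mul_one] at h1
    simp only [nsmul_eq_mul]
    omega
  have hzinv : z⁻¹ ∈ Oι ι := by
    show 0 ≤ w ι z⁻¹
    rw [w_inv, w_apply, orderTop_eq_coe_order hιz0, ← WithTop.LinearOrderedAddCommGroup.coe_neg]
    exact_mod_cast (neg_nonneg.mpr hzord)
  have hzV : z⁻¹ ∈ V := hle hzinv
  have hzval : V.valuation z < 1 := by
    rw [hz, map_mul, map_pow]
    have h1 : V.valuation f ≤ 1 := (V.valuation_le_one_iff _).mpr hf
    have h2 : V.valuation t < 1 := (V.mem_nonunits_iff).mp htV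
    calc V.valuation f ^ m * V.valuation t ≤ 1 * V.valuation t :=
          mul_le_mul_left (pow_le_one₀ zero_le h1) _
      _ = V.valuation t := one_mul _
      _ < 1 := h2
  have hz0 : z ≠ 0 := by
    intro h0
    apply hιz0
    rw [h0, map_zero]
  rw [← V.valuation_le_one_iff, map_inv₀] at hzV
  have hpos : 0 < V.valuation z := by
    rw [zero_lt_iff, Valuation.ne_zero_iff]
    exact hz0
  have := (inv_le_one₀ hpos).mp hzV
  exact not_lt.mpr this hzval

set_option linter.unusedVariables false in
/-- Every place above `t = 0` is induced by one of the embeddings. -/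
theorem B2 {K F : Type*} [Field K] [IsAlgClosed K] [CharZero K] [Field F] [Algebra K F]
    (t : F) (ht : Transcendental K t) [FiniteDimensional K⟮t⟯ F]
    {L : Type*} [Field L] (φ₀ : K →+* L)
    {I : Type*} [Fintype I] (hI : Fintype.card I = Module.finrank K⟮t⟯ F)
    (ι : I → F →+* LaurentSeries L)
    (hιK : ∀ i a, ι i (algebraMap K F a) = HahnSeries.C (φ₀ a))
    (hιinj : Function.Injective ι)
    (hιt : ∀ i i', ι i t = ι i' t)
    (hord : ∀ i, 0 < (ι i t).order)
    (v : Place K F) (hv : 0 < v.ord t) :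
    ∃ i, ∀ f : F, f ∈ v.toValuationSubring ↔ 0 ≤ (ι i f).orderTop := by
  have hne : Nonempty I := by
    rw [← Fintype.card_pos_iff, hI]
    exact Module.finrank_pos
  obtain ⟨i, hi⟩ := exists_le_of_iInf_le (K := K) (fun i => Oι (ι i)) v.toValuationSubring
    (fun i c => algebraMap_mem_Oι φ₀ (ι i) (hιK i) c) v.algebraMap_mem'
    (fun f hf => inter_le t φ₀ hI ι hιK hιinj hιt hord v hv f hf)
  have hi' : v.toValuationSubring ≤ Oι (ι i) :=
    le_Oι_of_Oι_le (ι i) v.toValuationSubring hi (hord i) (mem_nonunits_place v hv)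
  refine ⟨i, fun f => ⟨fun hf => ?_, fun hf => ?_⟩⟩
  · exact (mem_Oι (ι i) f).mp (hi' hf)
  · exact hi ((mem_Oι (ι i) f).mpr hf)

end Main

end Fermat.Agent.S24_helper3_B2
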