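import Mathlib
import Fermat.Prelude.Def_AlgebraicCurve_DivisorClassGroup
import Fermat.Agent.S24_helper15_A1
import Fermat.Agent.S24_helper16_Scale
import Fermat.Agent.S24_helper3_B2
import Fermat.Agent.S24_helper6_A2

/-!
# S24 part (B): the embedding criterion

Places of a function field `F/K` above `t = 0` versus embeddings `F → C((s))` with `t ↦ s ^ e₀`.
-/

set_option autoImplicit false

open HahnSeries AlgebraicCurve IntermediateField

noncomputable section

namespace Fermat.Agent.S24_helper16_B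

variable {K F C : Type*} [Field K] [Field F] [Algebra K F] [Field C]

section Basic

variable (ι : F →+* LaurentSeries C)

theorem ι_ne_zero {f : F} (hf : f ≠ 0) : ι f ≠ 0 :=
  fun h => hf ((map_eq_zero_iff ι ι.injective).mp h)

/-- the `ℤ`-valued order of `ι f` (junk value `0` at `f = 0`). -/
def w (f : F) : ℤ := (ι f).order

theorem w_zero : w ι 0 = 0 := by simp [w]

theorem w_one : w ι 1 = 0 := by simp [w]

theorem w_mul {f g : F} (hf : f ≠ 0) (hg : g ≠ 0) : w ι (f * g) = w ι f + w ι g := by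
  simp only [w, map_mul]
  exact HahnSeries.order_mul (ι_ne_zero ι hf) (ι_ne_zero ι hg)

theorem w_inv (f : F) : w ι f⁻¹ = - w ι f := by
  by_cases hf : f = 0
  · subst hf; simp [w]
  have h := w_mul ι hf (inv_ne_zero hf)
  rw [mul_inv_cancel₀ hf, w_one] at h
  omega

theorem w_pow {f : F} (hf : f ≠ 0) (n : ℕ) : w ι (f ^ n) = n * w ι f := by
  induction n with
  | zero => simp [w_one]
  | succ n ih =>
    rw [pow_succ, w_mul ι (pow_ne_zero n hf) hf, ih]
    push_cast; ring

theorem w_zpow {f : F} (hf : f ≠ 0) (n : ℤ) : w ι (f ^ n) = n * w ι f := by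
  obtain ⟨k, rfl | rfl⟩ := n.eq_nat_or_neg
  · rw [zpow_natCast, w_pow ι hf]
  · rw [zpow_neg, zpow_natCast, w_inv, w_pow ι hf]; ring

theorem w_neg (f : F) : w ι (-f) = w ι f := by
  simp only [w, map_neg, HahnSeries.order_neg]

theorem w_add_ge {f g : F} (h : f + g ≠ 0) : min (w ι f) (w ι g) ≤ w ι (f + g) := by
  simp only [w, map_add]
  refine HahnSeries.min_order_le_order_add ?_
  rw [← map_add]
  exact ι_ne_zero ι h

/-- `ι` is compatible with `φ : K →+* C` on constants. -/
def IsConst (φ : K →+* C) (ι : F →+* LaurentSeries C) : Prop :=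
  ∀ a : K, ι (algebraMap K F a) = HahnSeries.C (φ a)

theorem w_algebraMap {φ : K →+* C} (hι : IsConst φ ι) (a : K) :
    w ι (algebraMap K F a) = 0 := by
  rw [w, hι a]
  exact HahnSeries.order_C

/-- the valuation subring of `F` induced by `ι`. -/
def vsub : ValuationSubring F where
  carrier := {f | 0 ≤ w ι f}
  mul_mem' := by
    intro a b ha hb
    simp only [Set.mem_ofPred_eq] at ha hb ⊢
    by_cases ha0 : a = 0
    · subst ha0; simp [w_zero]
    by_cases hb0 : b = 0
    · subst hb0; simp [w_zero]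
    rw [w_mul ι ha0 hb0]; omega
  one_mem' := by simp [w_one]
  add_mem' := by
    intro a b ha hb
    simp only [Set.mem_ofPred_eq] at ha hb ⊢
    by_cases h : a + b = 0
    · rw [h, w_zero]
    exact le_trans (le_min ha hb) (w_add_ge ι h)
  zero_mem' := by simp [w_zero]
  neg_mem' := by
    intro a ha
    simp only [Set.mem_ofPred_eq] at ha ⊢
    rwa [w_neg]
  mem_or_inv_mem' := by
    intro a
    simp only [Set.mem_ofPred_eq]
    rw [w_inv]
    omega

theorem mem_vsub {f : F} : f ∈ vsub ι ↔ 0 ≤ w ι f := Iff.rfl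

theorem algebraMap_mem_vsub {φ : K →+* C} (hι : IsConst φ ι) (a : K) :
    algebraMap K F a ∈ vsub ι := by
  rw [mem_vsub, w_algebraMap ι hι]

theorem isUnit_vsub_iff (a : vsub ι) (ha : a ≠ 0) : IsUnit a ↔ w ι (a : F) = 0 := by
  have ha' : (a : F) ≠ 0 := fun h => ha (Subtype.ext h)
  constructor
  · rintro ⟨u, rfl⟩
    have h1 : 0 ≤ w ι ((u : vsub ι) : F) := (u : vsub ι).2
    have h2 : 0 ≤ w ι (((u⁻¹ : (vsub ι)ˣ) : vsub ι) : F) := ((u⁻¹ : (vsub ι)ˣ) : vsub ι).2
    have h3 : ((u : vsub ι) : F) * (((u⁻¹ : (vsub ι)ˣ) : vsub ι) : F) = 1 := by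
      rw [← MulMemClass.coe_mul, ← Units.val_mul, mul_inv_cancel]; rfl
    have h4 := w_mul ι ha' (right_ne_zero_of_mul_eq_one h3)
    rw [h3, w_one] at h4
    omega
  · intro h
    have hinv : (a : F)⁻¹ ∈ vsub ι := by rw [mem_vsub, w_inv, h]; simp
    refine ⟨⟨a, ⟨_, hinv⟩, ?_, ?_⟩, rfl⟩
    · ext; simp [mul_inv_cancel₀ ha']
    · ext; simp [inv_mul_cancel₀ ha']

end Basic

section PlaceOf

variable (ι : F →+* LaurentSeries C)

theorem exists_w_pos (hne : ∃ f : F, w ι f ≠ 0) : ∃ m : ℕ, 0 < m ∧ ∃ f : F, w ι f = m := by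
  obtain ⟨f, hf⟩ := hne
  rcases lt_or_gt_of_ne hf with h | h
  · refine ⟨(- w ι f).toNat, by omega, f⁻¹, ?_⟩
    rw [w_inv]; omega
  · exact ⟨(w ι f).toNat, by omega, f, by omega⟩

theorem hasUnitMulPow (hne : ∃ f : F, w ι f ≠ 0) :
    IsDiscreteValuationRing.HasUnitMulPowIrreducibleFactorization (vsub ι) := by
  classical
  have hex := exists_w_pos ι hne
  set m := Nat.find hex with hm
  obtain ⟨hm0, π, hπ⟩ := Nat.find_spec hex
  have hmin : ∀ f : F, 0 < w ι f → (m : ℤ) ≤ w ι f := by
    intro f hf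
    have := Nat.find_min' hex (m := (w ι f).toNat) ⟨by omega, f, by omega⟩
    omega
  have hπ0 : π ≠ 0 := by
    rintro rfl
    rw [w_zero] at hπ
    omega
  have hπmem : π ∈ vsub ι := by rw [mem_vsub, hπ]; omega
  have hπ0' : (⟨π, hπmem⟩ : vsub ι) ≠ 0 := fun h => hπ0 (congrArg Subtype.val h)
  refine ⟨⟨π, hπmem⟩, ⟨?_, ?_⟩, ?_⟩
  · rw [isUnit_vsub_iff ι _ hπ0']
    show w ι π ≠ 0
    omega
  · intro a b hab
    have hab' : π = (a : F) * (b : F) := congrArg Subtype.val hab
    have ha0 : (a : F) ≠ 0 := fun h => hπ0 (by rw [hab', h, zero_mul])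
    have hb0 : (b : F) ≠ 0 := fun h => hπ0 (by rw [hab', h, mul_zero])
    have ha0' : a ≠ 0 := fun h => ha0 (by rw [h]; rfl)
    have hb0' : b ≠ 0 := fun h => hb0 (by rw [h]; rfl)
    have h1 := w_mul ι ha0 hb0
    rw [← hab', hπ] at h1
    have ha : 0 ≤ w ι (a : F) := a.2
    have hb : 0 ≤ w ι (b : F) := b.2
    rw [isUnit_vsub_iff ι a ha0', isUnit_vsub_iff ι b hb0']
    by_cases h : w ι (a : F) = 0
    · exact Or.inl h
    · right
      have := hmin (a : F) (by omega)
      omega
  · intro x hx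
    have hx0 : (x : F) ≠ 0 := fun h => hx (Subtype.ext h)
    have hxw : 0 ≤ w ι (x : F) := x.2
    set k := w ι (x : F) with hk
    set q := (k / m).toNat with hq
    have hq0 : (0 : ℤ) ≤ k / m := Int.ediv_nonneg hxw (by omega)
    have hdiv := Int.emod_add_mul_ediv k m
    have hmod0 := Int.emod_nonneg k (show (m : ℤ) ≠ 0 by omega)
    have hmodlt := Int.emod_lt_of_pos k (show (0 : ℤ) < m by omega)
    have hwy : w ι ((x : F) * (π ^ q)⁻¹) = k % m := by
      rw [w_mul ι hx0 (inv_ne_zero (pow_ne_zero q hπ0)), w_inv, w_pow ι hπ0, hπ, ← hk]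
      have : (q : ℤ) = k / m := by rw [hq]; exact Int.toNat_of_nonneg hq0
      rw [this]
      linarith [mul_comm (m : ℤ) (k / m)]
    have hr : k % m = 0 := by
      by_contra hr
      have := hmin _ (by rw [hwy]; omega)
      rw [hwy] at this
      omega
    have hymem : (x : F) * (π ^ q)⁻¹ ∈ vsub ι := by rw [mem_vsub, hwy, hr]
    have hy0 : (⟨_, hymem⟩ : vsub ι) ≠ 0 := by
      intro h
      have := congrArg Subtype.val h
      exact mul_ne_zero hx0 (inv_ne_zero (pow_ne_zero q hπ0)) this
    have hyu : IsUnit (⟨_, hymem⟩ : vsub ι) := by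
      rw [isUnit_vsub_iff ι _ hy0]
      show w ι ((x : F) * (π ^ q)⁻¹) = 0
      rw [hwy, hr]
    refine ⟨q, ?_⟩
    obtain ⟨u, hu⟩ := hyu
    refine ⟨u, ?_⟩
    apply Subtype.ext
    rw [MulMemClass.coe_mul, hu]
    show π ^ q * ((x : F) * (π ^ q)⁻¹) = x
    field_simp

theorem vsub_ne_top (hne : ∃ f : F, w ι f ≠ 0) : vsub ι ≠ ⊤ := by
  obtain ⟨m, hm, f, hf⟩ := exists_w_pos ι hne
  intro h
  have : f⁻¹ ∈ vsub ι := by rw [h]; exact ValuationSubring.mem_top _
  rw [mem_vsub, w_inv, hf] at this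
  omega

/-- B1: the place of `F/K` induced by an embedding into `C((s))`. -/
def placeOf {φ : K →+* C} (hι : IsConst φ ι) (hne : ∃ f : F, w ι f ≠ 0) : Place K F where
  toValuationSubring := vsub ι
  algebraMap_mem' := algebraMap_mem_vsub ι hι
  ne_top' := vsub_ne_top ι hne
  isPrincipalIdealRing' :=
    haveI := IsDiscreteValuationRing.ofHasUnitMulPowIrreducibleFactorization (hasUnitMulPow ι hne)
    inferInstance

@[simp] theorem placeOf_toValuationSubring {φ : K →+* C} (hι : IsConst φ ι)
    (hne : ∃ f : F, w ι f ≠ 0) : (placeOf ι hι hne).toValuationSubring = vsub ι := rfl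

theorem mem_placeOf {φ : K →+* C} (hι : IsConst φ ι) (hne : ∃ f : F, w ι f ≠ 0) (f : F) :
    f ∈ (placeOf ι hι hne).toValuationSubring ↔ 0 ≤ (ι f).order := Iff.rfl

/-- the order of `ι f` is a positive multiple of the order at the induced place. -/
theorem exists_w_eq_mul_ord {φ : K →+* C} (hι : IsConst φ ι) (hne : ∃ f : F, w ι f ≠ 0) :
    ∃ m : ℕ, 0 < m ∧ ∀ f : F, f ≠ 0 → (ι f).order = m * (placeOf ι hι hne).ord f := by
  set v := placeOf ι hι hne with hv
  obtain ⟨π, hπ⟩ := IsDiscreteValuationRing.exists_irreducible v.toValuationSubring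
  have hπ0 : (π : F) ≠ 0 := fun h => hπ.ne_zero (Subtype.ext h)
  have hπw : 0 < w ι (π : F) := by
    have h1 : 0 ≤ w ι (π : F) := π.2
    have h2 : w ι (π : F) ≠ 0 := fun h =>
      hπ.not_isUnit ((isUnit_vsub_iff ι π hπ.ne_zero).mpr h)
    omega
  refine ⟨(w ι (π : F)).toNat, by omega, fun f hf => ?_⟩
  obtain ⟨u, hu⟩ := v.exists_unit_mul_zpow hf hπ
  have hu0 : ((u : v.toValuationSubring) : F) ≠ 0 := by
    intro h
    exact u.ne_zero (Subtype.ext h)
  have huw : w ι ((u : v.toValuationSubring) : F) = 0 :=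
    (isUnit_vsub_iff ι (u : v.toValuationSubring) u.ne_zero).mp u.isUnit
  have h1 : w ι f = w ι (((u : v.toValuationSubring) : F) * (π : F) ^ v.ord f) := by rw [← hu]
  rw [w_mul ι hu0 (zpow_ne_zero _ hπ0), huw, zero_add, w_zpow ι hπ0] at h1
  show w ι f = _
  rw [h1, Int.toNat_of_nonneg hπw.le]
  ring

end PlaceOf

section HahnLemmas


/-- `x` has no coefficients below `a`. -/
def LB (x : LaurentSeries C) (a : ℤ) : Prop := ∀ i < a, x.coeff i = 0

theorem LB.mono {x : LaurentSeries C} {a b : ℤ} (h : LB x a) (hab : b ≤ a) : LB x b :=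
  fun i hi => h i (lt_of_lt_of_le hi hab)

theorem lb_order (x : LaurentSeries C) : LB x x.order :=
  fun _ hi => HahnSeries.coeff_eq_zero_of_lt_order hi

theorem lb_zero (a : ℤ) : LB (0 : LaurentSeries C) a := fun _ _ => rfl

theorem LB.add {x y : LaurentSeries C} {a : ℤ} (hx : LB x a) (hy : LB y a) : LB (x + y) a :=
  fun i hi => by rw [HahnSeries.coeff_add, hx i hi, hy i hi, add_zero]

theorem LB.sub {x y : LaurentSeries C} {a : ℤ} (hx : LB x a) (hy : LB y a) : LB (x - y) a :=
  fun i hi => by rw [HahnSeries.coeff_sub, hx i hi, hy i hi, sub_zero]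

theorem coeff_mul_of_lb {x y : LaurentSeries C} {a b : ℤ} (hx : LB x a) (hy : LB y b) :
    (x * y).coeff (a + b) = x.coeff a * y.coeff b := by
  rw [HahnSeries.coeff_mul]
  by_cases h : x.coeff a = 0 ∨ y.coeff b = 0
  · have hz : x.coeff a * y.coeff b = 0 := by
      rcases h with h | h
      · rw [h, zero_mul]
      · rw [h, mul_zero]
    rw [hz]
    refine Finset.sum_eq_zero fun ij hij => ?_
    obtain ⟨h1, h2, h3⟩ := Finset.mem_antidiagonal.mp hij
    have hi : a ≤ ij.1 := by
      by_contra hlt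
      exact h1 (hx _ (not_le.mp hlt))
    have hj : b ≤ ij.2 := by
      by_contra hlt
      exact h2 (hy _ (not_le.mp hlt))
    have hia : ij.1 = a := by omega
    have hjb : ij.2 = b := by omega
    rw [hia, hjb, hz]
  · rw [not_or] at h
    rw [Finset.sum_eq_single (a, b)]
    · intro ij hij hne
      obtain ⟨h1, h2, h3⟩ := Finset.mem_antidiagonal.mp hij
      have hi : a ≤ ij.1 := by
        by_contra hlt
        exact h1 (hx _ (not_le.mp hlt))
      have hj : b ≤ ij.2 := by
        by_contra hlt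
        exact h2 (hy _ (not_le.mp hlt))
      exfalso
      apply hne
      ext <;> simp <;> omega
    · intro hnot
      exfalso
      apply hnot
      rw [Finset.mem_antidiagonal]
      exact ⟨h.1, h.2, rfl⟩

theorem LB.mul {x y : LaurentSeries C} {a b : ℤ} (hx : LB x a) (hy : LB y b) :
    LB (x * y) (a + b) := by
  intro k hk
  rw [HahnSeries.coeff_mul]
  refine Finset.sum_eq_zero fun ij hij => ?_
  obtain ⟨h1, h2, h3⟩ := Finset.mem_antidiagonal.mp hij
  have hi : a ≤ ij.1 := by
    by_contra hlt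
    exact h1 (hx _ (not_le.mp hlt))
  have hj : b ≤ ij.2 := by
    by_contra hlt
    exact h2 (hy _ (not_le.mp hlt))
  omega

theorem eq_zero_of_forall_lb {x : LaurentSeries C} (h : ∀ a : ℤ, LB x a) : x = 0 := by
  ext i
  exact h (i + 1) i (by omega)

theorem coeff_order_ne_zero {x : LaurentSeries C} (hx : x ≠ 0) : x.coeff x.order ≠ 0 := by
  rw [← HahnSeries.leadingCoeff_eq]
  exact HahnSeries.leadingCoeff_ne_zero.mpr hx


end HahnLemmas

section Pattern

/-- induction principle: a property of nonzero elements of `F` which is multiplicative, stable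
under inverses, true for units of `O_v` and for a uniformizer holds everywhere. -/
theorem induction_unit_mul_zpow (v : Place K F) {π : v.toValuationSubring} (hπ : Irreducible π)
    (P : F → Prop)
    (hmul : ∀ f g : F, f ≠ 0 → g ≠ 0 → P f → P g → P (f * g))
    (hinv : ∀ f : F, f ≠ 0 → P f → P f⁻¹)
    (hunit : ∀ u : v.toValuationSubringˣ, P ((u : v.toValuationSubring) : F))
    (hπP : P (π : F)) : ∀ f : F, f ≠ 0 → P f := by
  have hπ0 : (π : F) ≠ 0 := fun h => hπ.ne_zero (Subtype.ext h)
  have hone : P 1 := by simpa using hunit 1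
  have hpow : ∀ n : ℕ, P ((π : F) ^ n) := by
    intro n
    induction n with
    | zero => simpa using hone
    | succ n ih => rw [pow_succ]; exact hmul _ _ (pow_ne_zero n hπ0) hπ0 ih hπP
  have hzpow : ∀ k : ℤ, P ((π : F) ^ k) := by
    intro k
    obtain ⟨n, rfl | rfl⟩ := k.eq_nat_or_neg
    · rw [zpow_natCast]; exact hpow n
    · rw [zpow_neg, zpow_natCast]; exact hinv _ (pow_ne_zero n hπ0) (hpow n)
  intro f hf
  obtain ⟨u, hu⟩ := v.exists_unit_mul_zpow hf hπ
  rw [hu]
  have hu0 : ((u : v.toValuationSubring) : F) ≠ 0 := fun h => u.ne_zero (Subtype.ext h)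
  exact hmul _ _ hu0 (zpow_ne_zero _ hπ0) (hunit u) (hzpow _)

end Pattern

section Rigidity

variable [IsAlgClosed K]
variable {φ : K →+* C} {ι ι' : F →+* LaurentSeries C}

/-- two embeddings with the same valuation ring which agree at an element of nonzero order have
the same order function. -/
theorem w_eq_of_vsub_eq (hι : IsConst φ ι) (hι' : IsConst φ ι') (hv : vsub ι = vsub ι')
    {t : F} (ht : ι t = ι' t) (hwt : w ι t ≠ 0) (f : F) : w ι f = w ι' f := by
  have hwt' : w ι' t ≠ 0 := by rw [w, ← ht]; exact hwt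
  have hne : ∃ f : F, w ι f ≠ 0 := ⟨t, hwt⟩
  have hne' : ∃ f : F, w ι' f ≠ 0 := ⟨t, hwt'⟩
  have hpl : placeOf ι hι hne = placeOf ι' hι' hne' := Place.ext hv
  obtain ⟨m, hm, hmw⟩ := exists_w_eq_mul_ord ι hι hne
  obtain ⟨m', hm', hmw'⟩ := exists_w_eq_mul_ord ι' hι' hne'
  have ht0 : t ≠ 0 := by
    rintro rfl
    exact hwt (w_zero ι)
  have h1 : (ι t).order = m * (placeOf ι hι hne).ord t := hmw t ht0
  have h2 : (ι' t).order = m' * (placeOf ι' hι' hne').ord t := hmw' t ht0
  rw [← ht, ← hpl] at h2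
  have hord : (placeOf ι hι hne).ord t ≠ 0 := by
    intro h0
    rw [h0, mul_zero] at h1
    exact hwt h1
  have hmm : (m : ℤ) = m' := by
    have : ((m : ℤ) - m') * (placeOf ι hι hne).ord t = 0 := by
      rw [sub_mul, ← h1, ← h2, sub_self]
    rcases mul_eq_zero.mp this with h | h
    · omega
    · exact absurd h hord
  by_cases hf : f = 0
  · subst hf; rw [w_zero, w_zero]
  show (ι f).order = (ι' f).order
  rw [hmw f hf, hmw' f hf, hmm, hpl]

/-- structure of units: a unit is a nonzero constant plus an element of positive order. -/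
theorem exists_const_of_w_eq_zero (hι : IsConst φ ι) (t : F)
    (halg : Algebra.IsAlgebraic K⟮t⟯ F) (hne : ∃ f : F, w ι f ≠ 0)
    {u : F} (hu0 : u ≠ 0) (hu : w ι u = 0) :
    ∃ c : K, c ≠ 0 ∧ (u = algebraMap K F c ∨ 0 < w ι (u - algebraMap K F c)) := by
  obtain ⟨m, hm, hmw⟩ := exists_w_eq_mul_ord ι hι hne
  have humem : u ∈ (placeOf ι hι hne).toValuationSubring := by
    show 0 ≤ w ι u
    rw [hu]
  obtain ⟨c, hc⟩ := Fermat.Agent.S24_helper15_A1.exists_const_sub_mem t halg
    (placeOf ι hι hne) u humem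
  have hpos : u = algebraMap K F c ∨ 0 < w ι (u - algebraMap K F c) := by
    rcases hc with hc | hc
    · right
      have hy0 : u - algebraMap K F c ≠ 0 := by
        intro h0
        rw [h0, Place.ord_zero] at hc
        exact lt_irrefl _ hc
      show 0 < (ι (u - algebraMap K F c)).order
      rw [hmw _ hy0]
      positivity
    · exact Or.inl hc
  refine ⟨c, ?_, hpos⟩
  rintro rfl
  rw [map_zero, sub_zero] at hpos
  rcases hpos with h | h
  · exact hu0 h
  · omega

theorem coeff_zero_of_unit (hι : IsConst φ ι) {u : F} {c : K}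
    (h : u = algebraMap K F c ∨ 0 < w ι (u - algebraMap K F c)) :
    (ι u).coeff 0 = φ c := by
  have h1 : ι u = HahnSeries.C (φ c) + ι (u - algebraMap K F c) := by
    rw [map_sub, hι c]; ring
  rw [h1, HahnSeries.coeff_add]
  have h2 : (ι (u - algebraMap K F c)).coeff 0 = 0 := by
    rcases h with h | h
    · rw [h, sub_self, map_zero]; rfl
    · exact HahnSeries.coeff_eq_zero_of_lt_order h
  rw [h2, add_zero]
  show (HahnSeries.single 0 (φ c)).coeff 0 = φ c
  exact HahnSeries.coeff_single_same 0 (φ c)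

/-- the difference of two embeddings -/
def Dd (ι ι' : F →+* LaurentSeries C) (f : F) : LaurentSeries C := ι' f - ι f

theorem Dd_mul (f g : F) : Dd ι ι' (f * g) = Dd ι ι' f * ι' g + ι f * Dd ι ι' g := by
  simp only [Dd, map_mul]; ring

theorem Dd_add (f g : F) : Dd ι ι' (f + g) = Dd ι ι' f + Dd ι ι' g := by
  simp only [Dd, map_add]; ring

theorem Dd_const (hι : IsConst φ ι) (hι' : IsConst φ ι') (c : K) :
    Dd ι ι' (algebraMap K F c) = 0 := by
  simp only [Dd, hι c, hι' c, sub_self]

theorem Dd_unit (hι : IsConst φ ι) (hι' : IsConst φ ι') (u : F) (c : K) :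
    Dd ι ι' u = Dd ι ι' (u - algebraMap K F c) := by
  have : u = (u - algebraMap K F c) + algebraMap K F c := by ring
  conv_lhs => rw [this]
  rw [Dd_add, Dd_const hι hι', add_zero]

/-- core rigidity: two embeddings inducing the same place, agreeing at `t` (of nonzero order) and
with the same leading coefficient at a uniformizer are equal. -/
theorem rigidity_core [CharZero C] (hι : IsConst φ ι) (hι' : IsConst φ ι')
    (t : F) (halg : Algebra.IsAlgebraic K⟮t⟯ F)
    (hv : vsub ι = vsub ι') (ht : ι t = ι' t) (hwt : w ι t ≠ 0)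
    (π : vsub ι) (hπ : Irreducible π)
    (hlc : (ι (π : F)).leadingCoeff = (ι' (π : F)).leadingCoeff) : ι = ι' := by
  have hne : ∃ f : F, w ι f ≠ 0 := ⟨t, hwt⟩
  have hw : ∀ f, w ι f = w ι' f := w_eq_of_vsub_eq hι hι' hv ht hwt
  have hne' : ∃ f : F, w ι' f ≠ 0 := ⟨t, by rw [← hw]; exact hwt⟩
  set v := placeOf ι hι hne with hvdef
  have hπ' : Irreducible (π : v.toValuationSubring) := hπ
  have ht0 : t ≠ 0 := by
    rintro rfl
    exact hwt (w_zero ι)
  have hπ0 : (π : F) ≠ 0 := fun h => hπ.ne_zero (Subtype.ext h)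
  -- units
  have hunit : ∀ u : v.toValuationSubringˣ, ∃ c : K, c ≠ 0 ∧
      (((u : v.toValuationSubring) : F) = algebraMap K F c ∨
        0 < w ι (((u : v.toValuationSubring) : F) - algebraMap K F c)) := by
    intro u
    have hu0 : ((u : v.toValuationSubring) : F) ≠ 0 := fun h => u.ne_zero (Subtype.ext h)
    have huw : w ι ((u : v.toValuationSubring) : F) = 0 :=
      (isUnit_vsub_iff ι (u : v.toValuationSubring) u.ne_zero).mp u.isUnit
    exact exists_const_of_w_eq_zero hι t halg hne hu0 huw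
  -- leading coefficients agree
  have hlcall : ∀ f : F, f ≠ 0 → (ι' f).leadingCoeff = (ι f).leadingCoeff := by
    refine induction_unit_mul_zpow v hπ' _ ?_ ?_ ?_ hlc.symm
    · intro f g _ _ hf hg
      rw [map_mul, map_mul, HahnSeries.leadingCoeff_mul, HahnSeries.leadingCoeff_mul, hf, hg]
    · intro f hf0 hf
      have h1 : (ι f).leadingCoeff * (ι f⁻¹).leadingCoeff = 1 := by
        rw [← HahnSeries.leadingCoeff_mul, ← map_mul, mul_inv_cancel₀ hf0, map_one]
        exact HahnSeries.leadingCoeff_one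
      have h2 : (ι' f).leadingCoeff * (ι' f⁻¹).leadingCoeff = 1 := by
        rw [← HahnSeries.leadingCoeff_mul, ← map_mul, mul_inv_cancel₀ hf0, map_one]
        exact HahnSeries.leadingCoeff_one
      rw [hf] at h2
      have h3 : (ι f).leadingCoeff ≠ 0 := left_ne_zero_of_mul_eq_one h1
      exact mul_left_cancel₀ h3 (h2.trans h1.symm)
    · intro u
      obtain ⟨c, hc0, hc⟩ := hunit u
      have huw : w ι ((u : v.toValuationSubring) : F) = 0 :=
        (isUnit_vsub_iff ι (u : v.toValuationSubring) u.ne_zero).mp u.isUnit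
      have huw' : w ι' ((u : v.toValuationSubring) : F) = 0 := by rw [← hw]; exact huw
      have hc' : ((u : v.toValuationSubring) : F) = algebraMap K F c ∨
          0 < w ι' (((u : v.toValuationSubring) : F) - algebraMap K F c) := by
        rw [← hw]; exact hc
      rw [HahnSeries.leadingCoeff_eq, HahnSeries.leadingCoeff_eq]
      show (ι' _).coeff (w ι' _) = (ι _).coeff (w ι _)
      rw [huw, huw', coeff_zero_of_unit hι hc, coeff_zero_of_unit hι' hc']
  -- the main induction
  have key : ∀ n : ℕ, ∀ f : F, f ≠ 0 → LB (Dd ι ι' f) (w ι f + (n + 1 : ℕ)) := by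
    intro n
    induction n with
    | zero =>
      intro f hf i hi
      simp only [Dd, HahnSeries.coeff_sub]
      have hi' : i ≤ w ι f := by
        have : i < w ι f + 1 := by simpa using hi
        omega
      rcases lt_or_eq_of_le hi' with h | h
      · rw [HahnSeries.coeff_eq_zero_of_lt_order (x := ι f) h,
          HahnSeries.coeff_eq_zero_of_lt_order (x := ι' f) (by rw [← w, ← hw]; exact h), sub_zero]
      · have h1 := hlcall f hf
        rw [HahnSeries.leadingCoeff_eq, HahnSeries.leadingCoeff_eq] at h1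
        rw [h]
        have h2 : (ι' f).order = w ι f := (hw f).symm
        rw [h2] at h1
        show (ι' f).coeff (w ι f) - (ι f).coeff (w ι f) = 0
        rw [h1]
        exact sub_self _
    | succ n ih =>
      -- `lam f = c_n(f) / lc(ι f)`
      set N : ℤ := ((n + 1 : ℕ) : ℤ) with hN
      have hNpos : 0 < N := by rw [hN]; positivity
      let lam : F → C := fun f => (Dd ι ι' f).coeff (w ι f + N) / (ι f).coeff (w ι f)
      have hlc0 : ∀ f : F, f ≠ 0 → (ι f).coeff (w ι f) ≠ 0 := fun f hf =>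
        coeff_order_ne_zero (ι_ne_zero ι hf)
      have hι'coeff : ∀ g : F, g ≠ 0 → (ι' g).coeff (w ι g) = (ι g).coeff (w ι g) := by
        intro g hg
        have h1 := ih g hg (w ι g) (by omega)
        simp only [Dd, HahnSeries.coeff_sub] at h1
        exact sub_eq_zero.mp h1
      have hlam_mul : ∀ f g : F, f ≠ 0 → g ≠ 0 → lam (f * g) = lam f + lam g := by
        intro f g hf hg
        have hfg : f * g ≠ 0 := mul_ne_zero hf hg
        have h1 : (Dd ι ι' f * ι' g).coeff ((w ι f + N) + w ι g) =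
            (Dd ι ι' f).coeff (w ι f + N) * (ι' g).coeff (w ι g) :=
          coeff_mul_of_lb (ih f hf) (by
            have := lb_order (ι' g)
            rwa [show (ι' g).order = w ι g from (hw g).symm] at this)
        have h2 : (ι f * Dd ι ι' g).coeff (w ι f + (w ι g + N)) =
            (ι f).coeff (w ι f) * (Dd ι ι' g).coeff (w ι g + N) :=
          coeff_mul_of_lb (lb_order (ι f)) (ih g hg)
        have h3 : (Dd ι ι' (f * g)).coeff (w ι (f * g) + N) =
            (Dd ι ι' f).coeff (w ι f + N) * (ι g).coeff (w ι g) +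
              (ι f).coeff (w ι f) * (Dd ι ι' g).coeff (w ι g + N) := by
          rw [Dd_mul, HahnSeries.coeff_add, w_mul ι hf hg,
            show w ι f + w ι g + N = (w ι f + N) + w ι g by ring, h1,
            show (w ι f + N) + w ι g = w ι f + (w ι g + N) by ring, h2, hι'coeff g hg]
        have h4 : (ι (f * g)).coeff (w ι (f * g)) =
            (ι f).coeff (w ι f) * (ι g).coeff (w ι g) := by
          rw [map_mul, w_mul ι hf hg]
          exact coeff_mul_of_lb (lb_order (ι f)) (lb_order (ι g))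
        show (Dd ι ι' (f * g)).coeff (w ι (f * g) + N) / (ι (f * g)).coeff (w ι (f * g)) =
          (Dd ι ι' f).coeff (w ι f + N) / (ι f).coeff (w ι f) +
            (Dd ι ι' g).coeff (w ι g + N) / (ι g).coeff (w ι g)
        rw [h3, h4]
        have := hlc0 f hf
        have := hlc0 g hg
        field_simp
      have hlam_unit : ∀ u : v.toValuationSubringˣ, lam ((u : v.toValuationSubring) : F) = 0 := by
        intro u
        obtain ⟨c, hc0, hc⟩ := hunit u
        have huw : w ι ((u : v.toValuationSubring) : F) = 0 :=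
          (isUnit_vsub_iff ι (u : v.toValuationSubring) u.ne_zero).mp u.isUnit
        show (Dd ι ι' _).coeff (w ι _ + N) / _ = 0
        rw [huw, zero_add, Dd_unit hι hι' _ c]
        rcases hc with hc | hc
        · rw [hc, sub_self]
          simp [Dd]
        · have hy0 : ((u : v.toValuationSubring) : F) - algebraMap K F c ≠ 0 := by
            intro h0
            rw [h0, w_zero] at hc
            exact lt_irrefl _ hc
          rw [ih _ hy0 N (by omega), zero_div]
      have hlam_one : lam 1 = 0 := by simpa using hlam_unit 1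
      have hlam_inv : ∀ f : F, f ≠ 0 → lam f⁻¹ = - lam f := by
        intro f hf
        have h := hlam_mul f f⁻¹ hf (inv_ne_zero hf)
        rw [mul_inv_cancel₀ hf, hlam_one] at h
        exact eq_neg_of_add_eq_zero_right h.symm
      have hlam_all : ∀ f : F, f ≠ 0 → lam f = (v.ord f : C) * lam (π : F) := by
        refine induction_unit_mul_zpow v hπ' _ ?_ ?_ ?_ ?_
        · intro f g hf hg h1 h2
          rw [hlam_mul f g hf hg, h1, h2, v.ord_mul hf hg]
          push_cast; ring
        · intro f hf h1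
          rw [hlam_inv f hf, h1, v.ord_inv]
          push_cast; ring
        · intro u
          rw [hlam_unit u, v.ord_coe_unit u]
          simp
        · rw [v.ord_coe_irreducible hπ']
          simp
      have hlam_t : lam t = 0 := by
        show (Dd ι ι' t).coeff _ / _ = 0
        rw [Dd, ← ht, sub_self]
        simp
      have hordt : v.ord t ≠ 0 := by
        obtain ⟨m, hm, hmw⟩ := exists_w_eq_mul_ord ι hι hne
        intro h0
        have := hmw t ht0
        rw [← hvdef, h0, mul_zero] at this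
        exact hwt this
      have hlamπ : lam (π : F) = 0 := by
        have h := hlam_all t ht0
        rw [hlam_t] at h
        rcases mul_eq_zero.mp h.symm with h1 | h1
        · exact absurd (Int.cast_eq_zero.mp h1) hordt
        · exact h1
      intro f hf i hi
      have hi' : i ≤ w ι f + N := by
        have : i < w ι f + ((n + 1 + 1 : ℕ) : ℤ) := hi
        rw [hN]; push_cast at this ⊢; omega
      rcases lt_or_eq_of_le hi' with h | h
      · exact ih f hf i h
      · rw [h]
        have h1 := hlam_all f hf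
        rw [hlamπ, mul_zero] at h1
        have h2 : (Dd ι ι' f).coeff (w ι f + N) / (ι f).coeff (w ι f) = 0 := h1
        rcases div_eq_zero_iff.mp h2 with h3 | h3
        · exact h3
        · exact absurd h3 (hlc0 f hf)
  apply RingHom.ext
  intro f
  by_cases hf : f = 0
  · subst hf; rw [map_zero, map_zero]
  have hD : Dd ι ι' f = 0 := by
    apply eq_zero_of_forall_lb
    intro a
    refine (key (a - w ι f).toNat f hf).mono ?_
    push_cast
    have := Int.self_le_toNat (a - w ι f)
    omega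
  exact (sub_eq_zero.mp hD).symm

end Rigidity

section Main

variable [IsAlgClosed K]
variable {φ : K →+* C}

theorem irreducible_of_ord_eq_one (v : Place K F) {π : F} (h : v.ord π = 1) :
    ∃ hmem : π ∈ v.toValuationSubring, Irreducible (⟨π, hmem⟩ : v.toValuationSubring) := by
  obtain ⟨π₀, hπ₀⟩ := IsDiscreteValuationRing.exists_irreducible v.toValuationSubring
  have hπ0 : π ≠ 0 := by
    rintro rfl
    rw [Place.ord_zero] at h
    exact zero_ne_one h
  obtain ⟨u, hu⟩ := v.exists_unit_mul_zpow hπ0 hπ₀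
  rw [h, zpow_one] at hu
  have hmem : π ∈ v.toValuationSubring := by
    rw [hu]
    exact v.toValuationSubring.mul_mem _ _ (u : v.toValuationSubring).2 π₀.2
  refine ⟨hmem, ?_⟩
  have : (⟨π, hmem⟩ : v.toValuationSubring) = (u : v.toValuationSubring) * π₀ :=
    Subtype.ext hu
  rw [this]
  exact (irreducible_units_mul u).mpr hπ₀

/-- rigidity with respect to a place `v` and an element `π` with `ord_v π = 1`. -/
theorem rigidity_place [CharZero C] {ι ι' : F →+* LaurentSeries C}
    (hι : IsConst φ ι) (hι' : IsConst φ ι')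
    (t : F) (halg : Algebra.IsAlgebraic K⟮t⟯ F)
    (v : Place K F) (hv : v.toValuationSubring = vsub ι) (hv' : v.toValuationSubring = vsub ι')
    (ht : ι t = ι' t) (hwt : w ι t ≠ 0) {π : F} (hπ : v.ord π = 1)
    (hlc : (ι π).leadingCoeff = (ι' π).leadingCoeff) : ι = ι' := by
  have hne : ∃ f : F, w ι f ≠ 0 := ⟨t, hwt⟩
  have hpl : placeOf ι hι hne = v := Place.ext hv.symm
  have hπ1 : (placeOf ι hι hne).ord π = 1 := by rw [hpl]; exact hπ
  obtain ⟨hmem, hirr⟩ := irreducible_of_ord_eq_one (placeOf ι hι hne) hπ1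
  exact rigidity_core hι hι' t halg (hv.symm.trans hv') ht hwt ⟨π, hmem⟩ hirr hlc

theorem isConst_lsScale_comp {ι : F →+* LaurentSeries C} (hι : IsConst φ ι) (z : Cˣ) :
    IsConst φ ((lsScale z).toRingHom.comp ι) := by
  intro a
  show lsScale z (ι (algebraMap K F a)) = _
  rw [hι a, lsScale_C]

theorem w_lsScale_comp (ι : F →+* LaurentSeries C) (z : Cˣ) (f : F) :
    w ((lsScale z).toRingHom.comp ι) f = w ι f := by
  show (lsScale z (ι f)).order = (ι f).order
  exact order_lsScale z (ι f)

/-- composing with `lsScale z` does not change the induced valuation ring. -/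
theorem vsub_lsScale_comp (ι : F →+* LaurentSeries C) (z : Cˣ) :
    vsub ((lsScale z).toRingHom.comp ι) = vsub ι := by
  ext f
  rw [mem_vsub, mem_vsub, w_lsScale_comp]

theorem w_of_map_eq_single {ι : F →+* LaurentSeries C} {t : F} {e₀ : ℕ}
    (ht : ι t = HahnSeries.single (e₀ : ℤ) 1) : w ι t = e₀ := by
  rw [w, ht]
  exact HahnSeries.order_single one_ne_zero

/-- leading coefficient of the image of `t = u π ^ e`. -/
theorem leadingCoeff_pow_eq (v : Place K F) {ι : F →+* LaurentSeries C} (hι : IsConst φ ι)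
    (hv : v.toValuationSubring = vsub ι) (t : F) (halg : Algebra.IsAlgebraic K⟮t⟯ F)
    (hwt : w ι t ≠ 0) {π : F} (hπ : v.ord π = 1) :
    ∃ c : K, c ≠ 0 ∧ ∀ (ι' : F →+* LaurentSeries C), IsConst φ ι' →
      v.toValuationSubring = vsub ι' → w ι' t ≠ 0 →
      (ι' t).leadingCoeff = φ c * (ι' π).leadingCoeff ^ (v.ord t) := by
  obtain ⟨hmem, hirr⟩ := irreducible_of_ord_eq_one v hπ
  have ht0 : t ≠ 0 := by
    rintro rfl
    exact hwt (w_zero ι)
  have hπ0 : π ≠ 0 := by
    rintro rfl
    rw [Place.ord_zero] at hπ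
    exact zero_ne_one hπ
  obtain ⟨u, hu⟩ := v.exists_unit_mul_zpow ht0 hirr
  have hne : ∃ f : F, w ι f ≠ 0 := ⟨t, hwt⟩
  have hpl : placeOf ι hι hne = v := Place.ext hv.symm
  have hu0 : ((u : v.toValuationSubring) : F) ≠ 0 := fun h => u.ne_zero (Subtype.ext h)
  obtain ⟨c, hc⟩ := Fermat.Agent.S24_helper15_A1.exists_const_sub_mem t halg v
    ((u : v.toValuationSubring) : F) (u : v.toValuationSubring).2
  have hc0 : c ≠ 0 := by
    rintro rfl
    rw [map_zero, sub_zero] at hc
    rcases hc with h | h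
    · rw [v.ord_coe_unit u] at h
      exact lt_irrefl _ h
    · exact hu0 h
  refine ⟨c, hc0, fun ι' hι' hv' hwt' => ?_⟩
  have hne' : ∃ f : F, w ι' f ≠ 0 := ⟨t, hwt'⟩
  have hpl' : placeOf ι' hι' hne' = v := Place.ext hv'.symm
  obtain ⟨m, hm, hmw⟩ := exists_w_eq_mul_ord ι' hι' hne'
  rw [hpl'] at hmw
  have huw : w ι' ((u : v.toValuationSubring) : F) = 0 := by
    show (ι' _).order = 0
    rw [hmw _ hu0, v.ord_coe_unit u, mul_zero]
  have hc' : ((u : v.toValuationSubring) : F) = algebraMap K F c ∨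
      0 < w ι' (((u : v.toValuationSubring) : F) - algebraMap K F c) := by
    rcases hc with h | h
    · right
      have hy0 : ((u : v.toValuationSubring) : F) - algebraMap K F c ≠ 0 := by
        intro h0
        rw [h0, Place.ord_zero] at h
        exact lt_irrefl _ h
      show 0 < (ι' _).order
      rw [hmw _ hy0]
      positivity
    · exact Or.inl h
  have hlcu : (ι' ((u : v.toValuationSubring) : F)).leadingCoeff = φ c := by
    rw [HahnSeries.leadingCoeff_eq]
    show (ι' _).coeff (w ι' _) = _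
    rw [huw, coeff_zero_of_unit hι' hc']
  have hzpow : ∀ k : ℤ, (ι' (π ^ k)).leadingCoeff = (ι' π).leadingCoeff ^ k := by
    have hpow : ∀ n : ℕ, (ι' (π ^ n)).leadingCoeff = (ι' π).leadingCoeff ^ n := by
      intro n
      induction n with
      | zero => simp
      | succ n ih => rw [pow_succ, map_mul, HahnSeries.leadingCoeff_mul, ih, pow_succ]
    intro k
    obtain ⟨n, rfl | rfl⟩ := k.eq_nat_or_neg
    · rw [zpow_natCast, zpow_natCast, hpow]
    · rw [zpow_neg, zpow_natCast, zpow_neg, zpow_natCast, ← hpow]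
      have h1 : (ι' (π ^ n)).leadingCoeff * (ι' (π ^ n)⁻¹).leadingCoeff = 1 := by
        rw [← HahnSeries.leadingCoeff_mul, ← map_mul, mul_inv_cancel₀ (pow_ne_zero n hπ0),
          map_one]
        exact HahnSeries.leadingCoeff_one
      exact eq_inv_of_mul_eq_one_right h1
  conv_lhs => rw [hu]
  rw [map_mul, HahnSeries.leadingCoeff_mul, hlcu, hzpow]

/-- B2: RIGIDITY. Two embeddings with `t ↦ s ^ e₀` inducing the same valuation ring differ by a
substitution `s ↦ z s` with `z ^ e₀ = 1`. -/
theorem rigidity [IsAlgClosed C] [CharZero C] {ι ι' : F →+* LaurentSeries C}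
    (hι : IsConst φ ι) (hι' : IsConst φ ι')
    (t : F) (halg : Algebra.IsAlgebraic K⟮t⟯ F) (e₀ : ℕ) (he₀ : 0 < e₀)
    (ht : ι t = HahnSeries.single (e₀ : ℤ) 1) (ht' : ι' t = HahnSeries.single (e₀ : ℤ) 1)
    (hv : vsub ι = vsub ι') :
    ∃ z : Cˣ, z ^ e₀ = 1 ∧ ∀ f : F, ι' f = lsScale z (ι f) := by
  have hwt : w ι t ≠ 0 := by rw [w_of_map_eq_single ht]; exact_mod_cast he₀.ne'
  have hwt' : w ι' t ≠ 0 := by rw [w_of_map_eq_single ht']; exact_mod_cast he₀.ne'
  have hne : ∃ f : F, w ι f ≠ 0 := ⟨t, hwt⟩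
  set v := placeOf ι hι hne with hvdef
  obtain ⟨π₀, hπ₀⟩ := IsDiscreteValuationRing.exists_irreducible v.toValuationSubring
  set π : F := (π₀ : F) with hπdef
  have hπ : v.ord π = 1 := v.ord_coe_irreducible hπ₀
  have hπ0 : π ≠ 0 := fun h => hπ₀.ne_zero (Subtype.ext h)
  obtain ⟨m, hm, hmw⟩ := exists_w_eq_mul_ord ι hι hne
  have hwπ : w ι π = m := by
    show (ι π).order = m
    rw [hmw π hπ0, ← hvdef, hπ, mul_one]
  have hw : ∀ f, w ι f = w ι' f := w_eq_of_vsub_eq hι hι' hv (ht.trans ht'.symm) hwt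
  have ht0 : t ≠ 0 := by
    rintro rfl
    exact hwt (w_zero ι)
  -- `e₀ = m * e`
  have he : (e₀ : ℤ) = m * v.ord t := by
    rw [← w_of_map_eq_single ht]
    exact hmw t ht0
  have hepos : 0 < v.ord t := by
    have h1 : (0 : ℤ) < m * v.ord t := by rw [← he]; exact_mod_cast he₀
    exact pos_of_mul_pos_left (by rwa [mul_comm] at h1) (by positivity)
  obtain ⟨c, hc0, hc⟩ := leadingCoeff_pow_eq v hι rfl t halg hwt hπ
  have h1 := hc ι hι rfl hwt
  have h2 := hc ι' hι' hv hwt'
  rw [ht, HahnSeries.leadingCoeff_of_single] at h1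
  rw [ht', HahnSeries.leadingCoeff_of_single] at h2
  set a := (ι π).leadingCoeff with ha
  set a' := (ι' π).leadingCoeff with ha'
  have ha0 : a ≠ 0 := HahnSeries.leadingCoeff_ne_zero.mpr (ι_ne_zero ι hπ0)
  have ha'0 : a' ≠ 0 := HahnSeries.leadingCoeff_ne_zero.mpr (ι_ne_zero ι' hπ0)
  have hφc : φ c ≠ 0 := (map_ne_zero φ).mpr hc0
  -- `(a'/a)^e = 1`
  have hratio : (a' / a) ^ (v.ord t) = 1 := by
    rw [div_zpow]
    have h3 : a ^ (v.ord t) = a' ^ (v.ord t) := by
      apply mul_left_cancel₀ hφc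
      rw [← h1, ← h2]
    rw [h3]
    exact div_self (zpow_ne_zero _ ha'0)
  obtain ⟨ζ, hζ⟩ := IsAlgClosed.exists_pow_nat_eq (a' / a) hm
  have hζ0 : ζ ≠ 0 := by
    rintro rfl
    rw [zero_pow hm.ne'] at hζ
    exact div_ne_zero ha'0 ha0 hζ.symm
  set z : Cˣ := Units.mk0 ζ hζ0 with hz
  have hze : z ^ e₀ = 1 := by
    apply Units.ext
    rw [Units.val_pow_eq_pow_val, Units.val_one]
    show ζ ^ e₀ = 1
    have h4 : ((ζ ^ m) ^ (v.ord t).toNat) = 1 := by
      rw [hζ]
      have := hratio
      rw [← Int.toNat_of_nonneg hepos.le, zpow_natCast] at this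
      exact this
    rw [← pow_mul] at h4
    have h5 : m * (v.ord t).toNat = e₀ := by
      have : ((m * (v.ord t).toNat : ℕ) : ℤ) = e₀ := by
        push_cast
        rw [Int.toNat_of_nonneg hepos.le, he]
      exact_mod_cast this
    rwa [h5] at h4
  refine ⟨z, hze, ?_⟩
  -- apply the core rigidity to `ι` and `lsScale z⁻¹ ∘ ι'`
  have hconst : IsConst φ ((lsScale z⁻¹).toRingHom.comp ι') := isConst_lsScale_comp hι' z⁻¹
  have hv2 : v.toValuationSubring = vsub ((lsScale z⁻¹).toRingHom.comp ι') := by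
    rw [vsub_lsScale_comp]; exact hv
  have ht2 : ι t = ((lsScale z⁻¹).toRingHom.comp ι') t := by
    show ι t = lsScale z⁻¹ (ι' t)
    rw [ht, ht', lsScale_single, mul_one]
    congr 1
    rw [zpow_natCast, inv_pow, hze, inv_one, Units.val_one]
  have hlc : (ι π).leadingCoeff = (((lsScale z⁻¹).toRingHom.comp ι') π).leadingCoeff := by
    show a = (lsScale z⁻¹ (ι' π)).leadingCoeff
    rw [leadingCoeff_lsScale, ← ha']
    have h6 : (ι' π).order = m := by
      have := hw π
      rw [hwπ] at this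
      exact this.symm
    rw [h6, zpow_natCast, inv_pow, Units.val_inv_eq_inv_val, Units.val_pow_eq_pow_val]
    show a = (ζ ^ m)⁻¹ * a'
    rw [hζ]
    field_simp
  have hcore := rigidity_place hι hconst t halg v rfl hv2 ht2 hwt hπ hlc
  intro f
  have h7 : ι f = lsScale z⁻¹ (ι' f) := by
    conv_lhs => rw [hcore]
    rfl
  rw [h7]
  show ι' f = lsScale z (lsScaleFun z⁻¹ (ι' f))
  show ι' f = lsScaleFun z (lsScaleFun z⁻¹ (ι' f))
  rw [lsScaleFun_lsScaleFun, mul_inv_cancel, lsScaleFun_one_left]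

end Main

section Count

variable [IsAlgClosed K]
variable {φ : K →+* C}

open scoped Classical in
/-- fibre bound: at most `ord_v t` of the embeddings induce the place `v`. -/
theorem card_fiber_le [CharZero C] {μ : ℕ} (ι : Fin μ → F →+* LaurentSeries C)
    (hι : ∀ i, IsConst φ (ι i)) (hinj : Function.Injective ι)
    (t : F) (halg : Algebra.IsAlgebraic K⟮t⟯ F) (e₀ : ℕ) (he₀ : 0 < e₀)
    (hιt : ∀ i, ι i t = HahnSeries.single (e₀ : ℤ) 1) (v : Place K F) (hvt : 0 < v.ord t) :
    ((Finset.univ.filter fun i => v.toValuationSubring = vsub (ι i)).card : ℤ) ≤ v.ord t := by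
  classical
  have hwt : ∀ i, w (ι i) t ≠ 0 := fun i => by
    rw [w_of_map_eq_single (hιt i)]; exact_mod_cast he₀.ne'
  rcases (Finset.univ.filter fun i => v.toValuationSubring = vsub (ι i)).eq_empty_or_nonempty
    with hemp | ⟨i₀, hi₀⟩
  · rw [hemp, Finset.card_empty]
    exact_mod_cast hvt.le
  have hv₀ : v.toValuationSubring = vsub (ι i₀) := (Finset.mem_filter.mp hi₀).2
  obtain ⟨π₀, hπ₀⟩ := IsDiscreteValuationRing.exists_irreducible v.toValuationSubring
  have hπ : v.ord (π₀ : F) = 1 := v.ord_coe_irreducible hπ₀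
  obtain ⟨c, hc0, hc⟩ := leadingCoeff_pow_eq v (hι i₀) hv₀ t halg (hwt i₀) hπ
  have hφc : φ c ≠ 0 := (map_ne_zero φ).mpr hc0
  set e : ℕ := (v.ord t).toNat with he
  have hee : (e : ℤ) = v.ord t := Int.toNat_of_nonneg hvt.le
  have hepos : 0 < e := by omega
  have hroot : ∀ j ∈ (Finset.univ.filter fun i => v.toValuationSubring = vsub (ι i)),
      (ι j (π₀ : F)).leadingCoeff ∈ (Polynomial.nthRoots e (φ c)⁻¹).toFinset := by
    intro j hj
    have hvj : v.toValuationSubring = vsub (ι j) := (Finset.mem_filter.mp hj).2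
    have h1 := hc (ι j) (hι j) hvj (hwt j)
    rw [hιt j, HahnSeries.leadingCoeff_of_single, ← hee, zpow_natCast] at h1
    rw [Multiset.mem_toFinset, Polynomial.mem_nthRoots hepos]
    field_simp
    rw [mul_comm]
    exact h1.symm
  have hinjOn : Set.InjOn (fun j => (ι j (π₀ : F)).leadingCoeff)
      (Finset.univ.filter fun i => v.toValuationSubring = vsub (ι i) : Finset (Fin μ)) := by
    intro j hj j' hj' hjj'
    have hvj : v.toValuationSubring = vsub (ι j) := (Finset.mem_filter.mp hj).2
    have hvj' : v.toValuationSubring = vsub (ι j') := (Finset.mem_filter.mp hj').2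
    exact hinj (rigidity_place (hι j) (hι j') t halg v hvj hvj'
      ((hιt j).trans (hιt j').symm) (hwt j) hπ hjj')
  have h1 := Finset.card_le_card_of_injOn _ hroot hinjOn
  have h2 : (Polynomial.nthRoots e (φ c)⁻¹).toFinset.card ≤ e :=
    (Multiset.toFinset_card_le _).trans (Polynomial.card_nthRoots e _)
  have h3 := h1.trans h2
  rw [← hee]
  exact_mod_cast h3

/-- B3: COUNT. Given `μ` pairwise distinct embeddings with `t ↦ s ^ e₀` and the fundamental
inequality, every place above `t = 0` is induced by one of the embeddings, and exactly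
`ord_v t` of the embeddings induce `v`. -/
theorem count [CharZero C] {μ : ℕ} (ι : Fin μ → F →+* LaurentSeries C)
    (hι : ∀ i, IsConst φ (ι i)) (hinj : Function.Injective ι)
    (t : F) (halg : Algebra.IsAlgebraic K⟮t⟯ F) (e₀ : ℕ) (he₀ : 0 < e₀)
    (hιt : ∀ i, ι i t = HahnSeries.single (e₀ : ℤ) 1)
    (hineq : ∀ S : Finset (Place K F), (∀ v ∈ S, 0 < v.ord t) → ∑ v ∈ S, v.ord t ≤ μ) :
    (∀ v : Place K F, 0 < v.ord t → ∃ i, v.toValuationSubring = vsub (ι i)) ∧
    (∀ v : Place K F, 0 < v.ord t →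
      (Nat.card {i // v.toValuationSubring = vsub (ι i)} : ℤ) = v.ord t) := by
  classical
  have hwt : ∀ i, w (ι i) t ≠ 0 := fun i => by
    rw [w_of_map_eq_single (hιt i)]; exact_mod_cast he₀.ne'
  let P : Fin μ → Place K F := fun i => placeOf (ι i) (hι i) ⟨t, hwt i⟩
  have hPiff : ∀ i (v : Place K F), P i = v ↔ v.toValuationSubring = vsub (ι i) := by
    intro i v
    constructor
    · rintro rfl; rfl
    · intro h; exact Place.ext h.symm
  have hPt : ∀ i, 0 < (P i).ord t := by
    intro i
    obtain ⟨m, hm, hmw⟩ := exists_w_eq_mul_ord (ι i) (hι i) ⟨t, hwt i⟩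
    have ht0 : t ≠ 0 := by
      rintro rfl
      exact hwt i (w_zero (ι i))
    have h1 := hmw t ht0
    have h2 : (ι i t).order = e₀ := w_of_map_eq_single (hιt i)
    rw [h2] at h1
    have h3 : (0 : ℤ) < m * (P i).ord t := by rw [← h1]; exact_mod_cast he₀
    exact pos_of_mul_pos_left (by rwa [mul_comm] at h3) (by positivity)
  set S : Finset (Place K F) := Finset.univ.image P with hS
  have hSt : ∀ v ∈ S, 0 < v.ord t := by
    intro v hv
    obtain ⟨i, -, rfl⟩ := Finset.mem_image.mp hv
    exact hPt i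
  have hfilter : ∀ v : Place K F, (Finset.univ.filter fun i => P i = v) =
      (Finset.univ.filter fun i => v.toValuationSubring = vsub (ι i)) := by
    intro v
    ext i
    simp only [Finset.mem_filter, Finset.mem_univ, true_and, hPiff]
  have hcard : (μ : ℤ) = ∑ v ∈ S,
      ((Finset.univ.filter fun i => v.toValuationSubring = vsub (ι i)).card : ℤ) := by
    have h1 := Finset.card_eq_sum_card_image P (Finset.univ : Finset (Fin μ))
    rw [Finset.card_univ, Fintype.card_fin] at h1
    have h2 : (μ : ℤ) = ((∑ v ∈ S, (Finset.univ.filter fun i => P i = v).card : ℕ) : ℤ) := by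
      exact_mod_cast h1
    rw [h2]
    push_cast
    refine Finset.sum_congr rfl fun v _ => ?_
    rw [hfilter]
  have hle : ∀ v ∈ S,
      ((Finset.univ.filter fun i => v.toValuationSubring = vsub (ι i)).card : ℤ) ≤ v.ord t :=
    fun v hv => card_fiber_le ι hι hinj t halg e₀ he₀ hιt v (hSt v hv)
  have hsum_le := hineq S hSt
  have hsum_eq : ∑ v ∈ S,
      ((Finset.univ.filter fun i => v.toValuationSubring = vsub (ι i)).card : ℤ) =
      ∑ v ∈ S, v.ord t := by
    apply le_antisymm (Finset.sum_le_sum hle)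
    rw [← hcard]
    exact hsum_le
  have hterm := (Finset.sum_eq_sum_iff_of_le hle).mp hsum_eq
  have hmemS : ∀ v : Place K F, 0 < v.ord t → v ∈ S := by
    intro v hv
    by_contra hvS
    have h1 := hineq (insert v S) (by
      intro v' hv'
      rcases Finset.mem_insert.mp hv' with rfl | h
      · exact hv
      · exact hSt v' h)
    rw [Finset.sum_insert hvS, ← hsum_eq, ← hcard] at h1
    omega
  refine ⟨fun v hv => ?_, fun v hv => ?_⟩
  · obtain ⟨i, -, hi⟩ := Finset.mem_image.mp (hmemS v hv)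
    exact ⟨i, (hPiff i v).mp hi⟩
  · rw [← hterm v (hmemS v hv)]
    rw [Nat.card_eq_fintype_card, Fintype.card_subtype]

end Count

section Orbits

variable [IsAlgClosed K]
variable {φ : K →+* C}

/-- B3 for an arbitrary finite index type. -/
theorem count_fintype [CharZero C] {Q : Type*} [Fintype Q] (ι : Q → F →+* LaurentSeries C)
    (hι : ∀ i, IsConst φ (ι i)) (hinj : Function.Injective ι)
    (t : F) (halg : Algebra.IsAlgebraic K⟮t⟯ F) (e₀ : ℕ) (he₀ : 0 < e₀)
    (hιt : ∀ i, ι i t = HahnSeries.single (e₀ : ℤ) 1)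
    (hineq : ∀ S : Finset (Place K F), (∀ v ∈ S, 0 < v.ord t) →
      ∑ v ∈ S, v.ord t ≤ Fintype.card Q) :
    (∀ v : Place K F, 0 < v.ord t → ∃ i, v.toValuationSubring = vsub (ι i)) ∧
    (∀ v : Place K F, 0 < v.ord t →
      (Nat.card {i // v.toValuationSubring = vsub (ι i)} : ℤ) = v.ord t) := by
  classical
  let e : Fin (Fintype.card Q) ≃ Q := (Fintype.equivFin Q).symm
  obtain ⟨h1, h2⟩ := count (fun i => ι (e i)) (fun i => hι (e i))
    (fun i j hij => e.injective (hinj hij)) t halg e₀ he₀ (fun i => hιt (e i)) hineq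
  refine ⟨fun v hv => ?_, fun v hv => ?_⟩
  · obtain ⟨i, hi⟩ := h1 v hv
    exact ⟨e i, hi⟩
  · rw [← h2 v hv]
    congr 1
    refine Nat.card_congr ?_
    exact
      { toFun := fun x => ⟨e.symm x.1, by simpa using x.2⟩
        invFun := fun x => ⟨e x.1, x.2⟩
        left_inv := fun x => by simp
        right_inv := fun x => by simp }

theorem lsScale_pow (z : Cˣ) (k : ℕ) (x : LaurentSeries C) :
    lsScale (z ^ k) x = (lsScale z)^[k] x := by
  induction k generalizing x with
  | zero =>
    show lsScaleFun (z ^ 0) x = x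
    rw [pow_zero, lsScaleFun_one_left]
  | succ k ih =>
    rw [Function.iterate_succ_apply, ← ih]
    show lsScaleFun (z ^ (k + 1)) x = lsScaleFun (z ^ k) (lsScaleFun z x)
    rw [lsScaleFun_lsScaleFun, pow_succ]

/-- B4: two of the embeddings induce the same place iff they are in the same cycle of the
permutation `σ` induced by the substitution `s ↦ z s` (`z` a primitive `e₀`-th root of unity). -/
theorem vsub_eq_iff_sameCycle [IsAlgClosed C] [CharZero C] {Q : Type*} [Finite Q]
    (ι : Q → F →+* LaurentSeries C)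
    (hι : ∀ i, IsConst φ (ι i)) (hinj : Function.Injective ι)
    (t : F) (halg : Algebra.IsAlgebraic K⟮t⟯ F) (e₀ : ℕ) (he₀ : 0 < e₀)
    (hιt : ∀ i, ι i t = HahnSeries.single (e₀ : ℤ) 1)
    (z : Cˣ) (hz : IsPrimitiveRoot z e₀) (σ : Equiv.Perm Q)
    (hσ : ∀ q f, lsScale z (ι q f) = ι (σ q) f) (q q' : Q) :
    vsub (ι q) = vsub (ι q') ↔ σ.SameCycle q q' := by
  have hstep : ∀ q, vsub (ι (σ q)) = vsub (ι q) := by
    intro q
    rw [← vsub_lsScale_comp (ι q) z]
    congr 1
    ext f : 1
    exact (hσ q f).symm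
  have hpow : ∀ (k : ℕ) q, vsub (ι ((σ ^ k) q)) = vsub (ι q) := by
    intro k
    induction k with
    | zero => intro q; simp
    | succ k ih =>
      intro q
      rw [pow_succ', Equiv.Perm.mul_apply, hstep, ih]
  have hσpow : ∀ (k : ℕ) q f, (lsScale z)^[k] (ι q f) = ι ((σ ^ k) q) f := by
    intro k
    induction k with
    | zero => intro q f; simp
    | succ k ih =>
      intro q f
      rw [Function.iterate_succ_apply', ih, hσ, pow_succ', Equiv.Perm.mul_apply]
  constructor
  · intro h
    obtain ⟨z', hz', hzf⟩ := rigidity (hι q) (hι q') t halg e₀ he₀ (hιt q) (hιt q') h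
    haveI : NeZero e₀ := ⟨he₀.ne'⟩
    obtain ⟨k, -, hk⟩ :=
      hz.eq_pow_of_mem_rootsOfUnity (ξ := z') ((mem_rootsOfUnity e₀ z').mpr hz')
    refine ⟨(k : ℤ), ?_⟩
    rw [zpow_natCast]
    apply hinj
    ext f : 1
    rw [← hσpow, ← lsScale_pow, hk]
    exact (hzf f).symm
  · intro h
    obtain ⟨k, hk⟩ := h.exists_nat_pow_eq
    rw [← hk, hpow]

/-- B5: the set of places above `t = 0` is finite, in bijection with the cycles of `σ`, and
the ramification indices add up to the number of embeddings. -/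
theorem exists_finset_places [IsAlgClosed C] [CharZero C] {Q : Type*} [Fintype Q]
    (ι : Q → F →+* LaurentSeries C)
    (hι : ∀ i, IsConst φ (ι i)) (hinj : Function.Injective ι)
    (t : F) (halg : Algebra.IsAlgebraic K⟮t⟯ F) (e₀ : ℕ) (he₀ : 0 < e₀)
    (hιt : ∀ i, ι i t = HahnSeries.single (e₀ : ℤ) 1)
    (hineq : ∀ S : Finset (Place K F), (∀ v ∈ S, 0 < v.ord t) →
      ∑ v ∈ S, v.ord t ≤ Fintype.card Q)
    (z : Cˣ) (hz : IsPrimitiveRoot z e₀) (σ : Equiv.Perm Q)
    (hσ : ∀ q f, lsScale z (ι q f) = ι (σ q) f) :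
    ∃ S : Finset (Place K F), (∀ v, v ∈ S ↔ 0 < v.ord t) ∧
      ∑ v ∈ S, v.ord t = Fintype.card Q ∧
      S.card = Nat.card (Quotient (Equiv.Perm.SameCycle.setoid σ)) := by
  classical
  have hwt : ∀ i, w (ι i) t ≠ 0 := fun i => by
    rw [w_of_map_eq_single (hιt i)]; exact_mod_cast he₀.ne'
  obtain ⟨hex, hcard⟩ := count_fintype ι hι hinj t halg e₀ he₀ hιt hineq
  let P : Q → Place K F := fun i => placeOf (ι i) (hι i) ⟨t, hwt i⟩
  have hPiff : ∀ i (v : Place K F), P i = v ↔ v.toValuationSubring = vsub (ι i) := by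
    intro i v
    constructor
    · rintro rfl; rfl
    · intro h; exact Place.ext h.symm
  have hPt : ∀ i, 0 < (P i).ord t := by
    intro i
    obtain ⟨m, hm, hmw⟩ := exists_w_eq_mul_ord (ι i) (hι i) ⟨t, hwt i⟩
    have ht0 : t ≠ 0 := by
      rintro rfl
      exact hwt i (w_zero (ι i))
    have h1 := hmw t ht0
    have h2 : (ι i t).order = e₀ := w_of_map_eq_single (hιt i)
    rw [h2] at h1
    have h3 : (0 : ℤ) < m * (P i).ord t := by rw [← h1]; exact_mod_cast he₀
    exact pos_of_mul_pos_left (by rwa [mul_comm] at h3) (by positivity)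
  set S : Finset (Place K F) := Finset.univ.image P with hS
  have hmem : ∀ v, v ∈ S ↔ 0 < v.ord t := by
    intro v
    constructor
    · intro hv
      obtain ⟨i, -, rfl⟩ := Finset.mem_image.mp hv
      exact hPt i
    · intro hv
      obtain ⟨i, hi⟩ := hex v hv
      exact Finset.mem_image.mpr ⟨i, Finset.mem_univ _, (hPiff i v).mpr hi⟩
  refine ⟨S, hmem, ?_, ?_⟩
  · -- sum of ramification indices
    have h1 := Finset.card_eq_sum_card_image P (Finset.univ : Finset Q)
    rw [Finset.card_univ] at h1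
    have h2 : ((Fintype.card Q : ℕ) : ℤ) =
        ((∑ v ∈ S, (Finset.univ.filter fun i => P i = v).card : ℕ) : ℤ) := by
      exact_mod_cast h1
    rw [h2]
    push_cast
    refine Finset.sum_congr rfl fun v hv => ?_
    rw [← hcard v ((hmem v).mp hv), Nat.card_eq_fintype_card, Fintype.card_subtype]
    congr 2
    ext i
    simp only [Finset.mem_filter, Finset.mem_univ, true_and, hPiff]
  · -- bijection with cycles
    have hsame : ∀ q q', P q = P q' ↔ σ.SameCycle q q' := by
      intro q q'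
      rw [← vsub_eq_iff_sameCycle ι hι hinj t halg e₀ he₀ hιt z hz σ hσ q q']
      constructor
      · intro h
        have := congrArg Place.toValuationSubring h
        exact this
      · intro h
        exact Place.ext h
    let g : Quotient (Equiv.Perm.SameCycle.setoid σ) → S :=
      Quotient.lift (fun q => (⟨P q, Finset.mem_image_of_mem P (Finset.mem_univ q)⟩ : S))
        (fun q q' (h : σ.SameCycle q q') => Subtype.ext ((hsame q q').mpr h))
    have hg : Function.Bijective g := by
      constructor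
      · intro a b
        induction a using Quotient.inductionOn with
        | _ q =>
        induction b using Quotient.inductionOn with
        | _ q' =>
        intro h
        have h1 : P q = P q' := congrArg Subtype.val h
        exact Quotient.sound ((hsame q q').mp h1)
      · rintro ⟨v, hv⟩
        obtain ⟨q, -, rfl⟩ := Finset.mem_image.mp hv
        exact ⟨Quotient.mk _ q, rfl⟩
    have h3 := Nat.card_congr (Equiv.ofBijective g hg)
    rw [h3, Nat.card_eq_fintype_card, Fintype.card_coe]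

end Orbits

section FinalB

theorem eq_lsScale_of_coeff {L : Type*} [Field L] (x y : LaurentSeries L) (ζ : L) (hζ : ζ ≠ 0)
    (h : ∀ n : ℤ, y.coeff n = ζ ^ n * x.coeff n) : y = lsScale (Units.mk0 ζ hζ) x := by
  ext n
  rw [h, coeff_lsScale]
  congr 1
  simp

theorem coeff_perm_pow {F L I : Type*} [Field F] [Field L] (ι : I → F →+* LaurentSeries L)
    (ζ : L) (π : Equiv.Perm I)
    (hπ : ∀ i f (n : ℤ), (ι (π i) f).coeff n = ζ ^ n * (ι i f).coeff n)
    (k : ℕ) (i : I) (f : F) (n : ℤ) :
    (ι ((π ^ k) i) f).coeff n = (ζ ^ n) ^ k * (ι i f).coeff n := by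
  induction k with
  | zero => simp
  | succ k ih =>
    rw [pow_succ', Equiv.Perm.mul_apply, hπ, ih, pow_succ]
    ring

/-- if `π ^ k` fixes `i` then the ramification index of the place of `ι i` divides `k`. -/
theorem ord_dvd_of_pow_apply_eq {K F : Type*} [Field K] [Field F] [Algebra K F]
    {L : Type*} [Field L] (φ₀ : K →+* L) {I : Type*} (t : F)
    (ι : I → F →+* LaurentSeries L)
    (hι : ∀ i, IsConst φ₀ (ι i))
    (e₀ : ℕ) (he₀ : 0 < e₀) (hord : ∀ i, (ι i t).order = (e₀ : ℤ))
    (ζ : L) (hζ : IsPrimitiveRoot ζ e₀)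
    (π : Equiv.Perm I)
    (hπ : ∀ i f (n : ℤ), (ι (π i) f).coeff n = ζ ^ n * (ι i f).coeff n)
    (i : I) (hne : ∃ f : F, w (ι i) f ≠ 0) (k : ℕ) (hk : (π ^ k) i = i) :
    (placeOf (ι i) (hι i) hne).ord t ∣ (k : ℤ) := by
  set v := placeOf (ι i) (hι i) hne with hv
  obtain ⟨m, hm, hmw⟩ := exists_w_eq_mul_ord (ι i) (hι i) hne
  obtain ⟨π₀, hπ₀⟩ := IsDiscreteValuationRing.exists_irreducible v.toValuationSubring
  have hπ1 : v.ord (π₀ : F) = 1 := v.ord_coe_irreducible hπ₀
  have hπ0 : (π₀ : F) ≠ 0 := fun h => hπ₀.ne_zero (Subtype.ext h)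
  have ht0 : t ≠ 0 := by
    rintro rfl
    have := hord i
    rw [map_zero, HahnSeries.order_zero] at this
    exact he₀.ne' (by exact_mod_cast this.symm)
  have h1 : (ι i (π₀ : F)).order = m := by rw [hmw _ hπ0, hπ1, mul_one]
  have h2 : (e₀ : ℤ) = m * v.ord t := by rw [← hord i, hmw t ht0]
  have hx : ι i (π₀ : F) ≠ 0 := ι_ne_zero (ι i) hπ0
  have h3 := coeff_order_ne_zero hx
  have h4 := coeff_perm_pow ι ζ π hπ k i (π₀ : F) (ι i (π₀ : F)).order
  rw [hk] at h4
  have h5 : (ζ ^ (ι i (π₀ : F)).order) ^ k = 1 := by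
    have h6 : ((ζ ^ (ι i (π₀ : F)).order) ^ k - 1) * (ι i (π₀ : F)).coeff (ι i (π₀ : F)).order = 0 := by
      rw [sub_mul, one_mul, ← h4, sub_self]
    rcases mul_eq_zero.mp h6 with h | h
    · exact sub_eq_zero.mp h
    · exact absurd h h3
  rw [h1, ← zpow_natCast, ← zpow_mul, hζ.zpow_eq_one_iff_dvd, h2] at h5
  have hm0 : (m : ℤ) ≠ 0 := by exact_mod_cast hm.ne'
  exact (mul_dvd_mul_iff_left hm0).mp h5

/-- **Piece B** (count of places above `t = 0` by orbits of the rescaling permutation). -/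
theorem B {K F : Type*} [Field K] [IsAlgClosed K] [CharZero K] [Field F] [Algebra K F]
    (t : F) (ht : Transcendental K t) [FiniteDimensional K⟮t⟯ F]
    {L : Type*} [Field L] (φ₀ : K →+* L)
    {I : Type*} [Fintype I] (hI : Fintype.card I = Module.finrank K⟮t⟯ F)
    (ι : I → F →+* LaurentSeries L)
    (hιK : ∀ i a, ι i (algebraMap K F a) = HahnSeries.C (φ₀ a))
    (hιinj : Function.Injective ι)
    (hιt : ∀ i i', ι i t = ι i' t)
    (e₀ : ℕ) (he₀ : 0 < e₀) (hord : ∀ i, (ι i t).order = (e₀ : ℤ))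
    (ζ : L) (hζ : IsPrimitiveRoot ζ e₀)
    (π : Equiv.Perm I)
    (hπ : ∀ i f (n : ℤ), (ι (π i) f).coeff n = ζ ^ n * (ι i f).coeff n) :
    ∃ (S : Finset (Place K F)) (o : S → MulAction.orbitRel.Quotient (Subgroup.zpowers π) I),
      (∀ v, v ∈ S ↔ 0 < v.ord t) ∧ Function.Bijective o := by
  classical
  have hζ0 : ζ ≠ 0 := hζ.ne_zero he₀.ne'
  have hι : ∀ i, IsConst φ₀ (ι i) := fun i a => hιK i a
  have hne : ∀ i, ∃ f : F, w (ι i) f ≠ 0 := fun i =>
    ⟨t, by show (ι i t).order ≠ 0; rw [hord]; exact_mod_cast he₀.ne'⟩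
  have ht0 : t ≠ 0 := by
    rintro rfl
    exact ht (isAlgebraic_zero)
  set P : I → Place K F := fun i => placeOf (ι i) (hι i) (hne i) with hP
  -- `P` is invariant under `π`
  have hPπ : ∀ i, P (π i) = P i := by
    intro i
    apply Place.ext
    ext f
    show 0 ≤ (ι (π i) f).order ↔ 0 ≤ (ι i f).order
    rw [eq_lsScale_of_coeff (ι i f) (ι (π i) f) ζ hζ0 (hπ i f), order_lsScale]
  let H : Subgroup (Equiv.Perm I) :=
    { carrier := {g | ∀ i, P (g i) = P i}
      one_mem' := fun i => rfl
      mul_mem' := fun {a b} ha hb i => by rw [Equiv.Perm.mul_apply, ha, hb]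
      inv_mem' := fun {a} ha i => by
        have := ha (a⁻¹ i)
        have h2 : a (a⁻¹ i) = i := by
          rw [← Equiv.Perm.mul_apply, mul_inv_cancel, Equiv.Perm.one_apply]
        rw [h2] at this
        exact this.symm }
  have hH : Subgroup.zpowers π ≤ H := (Subgroup.zpowers_le).mpr hPπ
  -- the places above `t = 0`
  set S : Finset (Place K F) := (S24_helper6_A2.zeros_finite t ht).toFinset with hSdef
  have hS : ∀ v, v ∈ S ↔ 0 < v.ord t := fun v => by
    rw [hSdef, Set.Finite.mem_toFinset]; rfl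
  have hsum : ∑ v ∈ S, v.ord t = (Fintype.card I : ℤ) := by
    rw [hI]; exact S24_helper6_A2.sum_ord_zeros t ht
  have hPpos : ∀ i, 0 < (P i).ord t := by
    intro i
    obtain ⟨m, hm, hmw⟩ := exists_w_eq_mul_ord (ι i) (hι i) (hne i)
    have h1 := hmw t ht0
    rw [hord i] at h1
    have h3 : (0 : ℤ) < m * (P i).ord t := by rw [← h1]; exact_mod_cast he₀
    exact pos_of_mul_pos_left (by rwa [mul_comm] at h3) (by positivity)
  have hPS : ∀ i, P i ∈ S := fun i => (hS _).mpr (hPpos i)
  have hsurj : ∀ v ∈ S, ∃ i, P i = v := by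
    intro v hv
    obtain ⟨i, hi⟩ := S24_helper3_B2.B2 t ht φ₀ hI ι hιK hιinj hιt
      (fun i => by rw [hord]; exact_mod_cast he₀) v ((hS v).mp hv)
    refine ⟨i, Place.ext ?_⟩
    ext f
    rw [hi f]
    show 0 ≤ (ι i f).order ↔ _
    by_cases hf : ι i f = 0
    · rw [hf]; simp
    · rw [← HahnSeries.order_eq_orderTop_of_ne_zero hf]
      exact_mod_cast Iff.rfl
  -- the quotient by orbits
  let Ω := MulAction.orbitRel.Quotient (Subgroup.zpowers π) I
  let _instΩ : Fintype Ω := Quotient.fintype _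
  let q : I → Ω := fun i => Quotient.mk'' i
  have hq : ∀ i i', q i = q i' ↔ ∃ g ∈ Subgroup.zpowers π, g i' = i := by
    intro i i'
    show (Quotient.mk'' i : Ω) = Quotient.mk'' i' ↔ _
    rw [Quotient.eq'', MulAction.orbitRel_apply, MulAction.mem_orbit_iff]
    constructor
    · rintro ⟨g, hg⟩
      exact ⟨g.1, g.2, hg⟩
    · rintro ⟨g, hg, hgi⟩
      exact ⟨⟨g, hg⟩, hgi⟩
  let ō : Ω → Place K F := Quotient.lift P (by
    intro a b hab
    have hab' : q a = q b := Quotient.sound hab
    obtain ⟨g, hg, hgi⟩ := (hq a b).mp hab'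
    rw [← hgi]
    exact hH hg b)
  have hōq : ∀ i, ō (q i) = P i := fun i => rfl
  have hōpos : ∀ ω, 0 < (ō ω).ord t := by
    intro ω
    induction ω using Quotient.inductionOn with
    | _ i => exact hPpos i
  -- sizes of orbits
  let sz : Ω → ℕ := fun ω => (Finset.univ.filter (fun i => q i = ω)).card
  have hszsum : ∑ ω, sz ω = Fintype.card I := by
    rw [← Finset.card_univ]
    exact (Finset.card_eq_sum_card_fiberwise (f := q) (s := Finset.univ) (t := Finset.univ)
      (fun _ _ => Finset.mem_univ _)).symm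
  have hle : ∀ ω, (ō ω).ord t ≤ sz ω := by
    intro ω
    induction ω using Quotient.inductionOn with
    | _ i =>
    show (P i).ord t ≤ ((Finset.univ.filter (fun i' => q i' = q i)).card : ℤ)
    set e : ℕ := ((P i).ord t).toNat with he
    have hee : ((P i).ord t) = e := (Int.toNat_of_nonneg (hPpos i).le).symm
    rw [hee]
    have hcard : (Finset.range e).card ≤ (Finset.univ.filter (fun i' => q i' = q i)).card := by
      refine Finset.card_le_card_of_injOn (fun j => (π ^ j) i) ?_ ?_
      · intro j _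
        simp only [Finset.coe_filter, Finset.mem_univ, true_and, Set.mem_ofPred_eq]
        exact (hq _ _).mpr ⟨π ^ j, Subgroup.pow_mem _ (Subgroup.mem_zpowers π) j, rfl⟩
      · -- injectivity
        have key : ∀ a b : ℕ, a < b → b < e → (π ^ a) i ≠ (π ^ b) i := by
          intro a b hab hbe h
          have h1 : (π ^ (b - a)) i = i := by
            have h2 : (π ^ b) i = (π ^ a) ((π ^ (b - a)) i) := by
              rw [← Equiv.Perm.mul_apply, ← _root_.pow_add]
              congr 2
              omega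
            rw [h2] at h
            exact ((π ^ a).injective h).symm
          have h3 := ord_dvd_of_pow_apply_eq φ₀ t ι hι e₀ he₀ hord ζ hζ π hπ i (hne i) (b - a) h1
          have h4 : ((P i).ord t) ≤ ((b - a : ℕ) : ℤ) :=
            Int.le_of_dvd (by exact_mod_cast Nat.sub_pos_of_lt hab) h3
          rw [hee] at h4
          have h5 : e ≤ b - a := by exact_mod_cast h4
          omega
        intro a ha b hb hab
        simp only [Finset.coe_range, Set.mem_Iio] at ha hb
        by_contra hne'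
        rcases lt_or_gt_of_ne hne' with h | h
        · exact key a b h hb hab
        · exact key b a h ha hab.symm
    rw [Finset.card_range] at hcard
    exact_mod_cast hcard
  -- injectivity of `ō`
  have hinj : Function.Injective ō := by
    intro ω₁ ω₂ h12
    by_contra hne12
    have hsub : S ⊆ (Finset.univ.erase ω₁).image ō := by
      intro v hv
      obtain ⟨i, rfl⟩ := hsurj v hv
      rw [Finset.mem_image]
      by_cases hi : q i = ω₁
      · refine ⟨ω₂, Finset.mem_erase.mpr ⟨fun h => hne12 h.symm, Finset.mem_univ _⟩, ?_⟩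
        rw [← h12, ← hi]
        exact hōq i
      · exact ⟨q i, Finset.mem_erase.mpr ⟨hi, Finset.mem_univ _⟩, rfl⟩
    have h1 : ∑ v ∈ S, v.ord t ≤ ∑ v ∈ (Finset.univ.erase ω₁).image ō, v.ord t := by
      refine Finset.sum_le_sum_of_subset_of_nonneg hsub ?_
      intro v hv _
      obtain ⟨ω, -, rfl⟩ := Finset.mem_image.mp hv
      exact (hōpos ω).le
    have h2 : ∑ v ∈ (Finset.univ.erase ω₁).image ō, v.ord t
        ≤ ∑ ω ∈ Finset.univ.erase ω₁, (ō ω).ord t := by
      refine Finset.sum_image_le_of_nonneg ?_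
      intro v hv
      obtain ⟨ω, -, rfl⟩ := Finset.mem_image.mp hv
      exact (hōpos ω).le
    have h3 : ∑ ω ∈ Finset.univ.erase ω₁, (ō ω).ord t + (ō ω₁).ord t = ∑ ω, (ō ω).ord t :=
      Finset.sum_erase_add _ _ (Finset.mem_univ _)
    have h4 : ∑ ω, (ō ω).ord t ≤ ∑ ω, (sz ω : ℤ) := Finset.sum_le_sum fun ω _ => hle ω
    have h5 : ∑ ω, (sz ω : ℤ) = (Fintype.card I : ℤ) := by exact_mod_cast hszsum
    have h6 := hōpos ω₁
    linarith
  -- conclusion
  let ō' : Ω → S := fun ω => ⟨ō ω, by
    induction ω using Quotient.inductionOn with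
    | _ i => exact hPS i⟩
  have hō' : Function.Bijective ō' := by
    constructor
    · intro a b hab
      exact hinj (congrArg Subtype.val hab)
    · rintro ⟨v, hv⟩
      obtain ⟨i, hi⟩ := hsurj v hv
      exact ⟨q i, Subtype.ext hi⟩
  exact ⟨S, (Equiv.ofBijective ō' hō').symm, hS, (Equiv.ofBijective ō' hō').symm.bijective⟩

end FinalB

end Fermat.Agent.S24_helper16_B

end
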