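import Mathlib
import Fermat.Prelude.Def_AlgebraicCurve_CanonicalDivisor

set_option autoImplicit false
set_option linter.style.haveILetI false
set_option linter.unusedSectionVars false

open KaehlerDifferential Polynomial IntermediateField TensorProduct
open scoped IntermediateField.algebraAdjoinAdjoin

namespace Fermat.Agent.S24_helper2_A3

variable {K F : Type*} [Field K] [Field F] [Algebra K F] [CharZero K]

/-- The ring hom `RatFunc K → F` attached to a transcendental element. -/
noncomputable def ratHom (x : F) (hx : Transcendental K x) : RatFunc K →+* F :=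
  (algebraMap K⟮x⟯ F).comp (RatFunc.algEquivOfTranscendental x hx : RatFunc K →+* K⟮x⟯)

theorem ratHom_algebraMap (x : F) (hx : Transcendental K x) (a : K) :
    ratHom x hx (algebraMap K (RatFunc K) a) = algebraMap K F a := by
  simp only [ratHom, RingHom.comp_apply, RingHom.coe_coe, AlgEquiv.commutes]
  rfl

theorem ratHom_poly (x : F) (hx : Transcendental K x) (p : K[X]) :
    ratHom x hx (algebraMap K[X] (RatFunc K) p) = aeval x p := by
  simp only [ratHom, RingHom.comp_apply, RingHom.coe_coe,
    RatFunc.algEquivOfTranscendental_algebraMap]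
  rw [← aeval_algebraMap_apply]
  simp

/-- **A3 (a)**: in a function field of one variable in characteristic zero, `dx` spans the
Kähler differentials and is nonzero, for every transcendental `x` over which `F` is algebraic. -/
theorem span_D_and_D_ne_zero (x : F) (hx : Transcendental K x)
    (halg : Algebra.IsAlgebraic K⟮x⟯ F) :
    Submodule.span F {D K F x} = ⊤ ∧ D K F x ≠ 0 := by
  letI algRF : Algebra (RatFunc K) F := (ratHom x hx).toAlgebra
  letI algPF : Algebra K[X] F := ((ratHom x hx).comp (algebraMap K[X] (RatFunc K))).toAlgebra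
  haveI t1 : IsScalarTower K[X] (RatFunc K) F := IsScalarTower.of_algebraMap_eq (fun _ => rfl)
  haveI t2 : IsScalarTower K (RatFunc K) F :=
    IsScalarTower.of_algebraMap_eq (fun a => (ratHom_algebraMap x hx a).symm)
  haveI t3 : IsScalarTower K K[X] F := by
    refine IsScalarTower.of_algebraMap_eq (fun a => ?_)
    show algebraMap K F a = ratHom x hx (algebraMap K[X] (RatFunc K) (algebraMap K K[X] a))
    rw [ratHom_poly]
    simp
  have hXalg : ∀ p : K[X], algebraMap K[X] F p = aeval x p := fun p => ratHom_poly x hx p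
  haveI : Algebra.IsAlgebraic (RatFunc K) F := by
    refine Algebra.IsAlgebraic.of_ringHom_of_comp_eq
      (f := (RatFunc.algEquivOfTranscendental x hx : RatFunc K →+* K⟮x⟯)) (g := RingHom.id F)
      (RatFunc.algEquivOfTranscendental x hx).surjective Function.injective_id ?_
    rfl
  haveI : CharZero (RatFunc K) :=
    charZero_of_injective_algebraMap (algebraMap K (RatFunc K)).injective
  haveI : Algebra.IsSeparable (RatFunc K) F := inferInstance
  haveI e1 : Algebra.FormallyEtale (RatFunc K) F := Algebra.FormallyEtale.of_isSeparable _ _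
  haveI e2 : Algebra.FormallyEtale K[X] (RatFunc K) :=
    Algebra.FormallyEtale.of_isLocalization (nonZeroDivisors K[X])
  haveI e3 : Algebra.FormallyEtale K[X] F := Algebra.FormallyEtale.comp K[X] (RatFunc K) F
  let e := tensorKaehlerEquivOfFormallyEtale K K[X] F
  have he : ∀ (f : F) (p : K[X]), e (f ⊗ₜ[K[X]] D K K[X] p) = f • D K F (aeval x p) := by
    intro f p
    rw [tensorKaehlerEquivOfFormallyEtale_apply, mapBaseChange_tmul, map_D, hXalg]
  have hDX : ∀ w : Ω[K[X]⁄K], w = (polynomialEquiv K w) • D K K[X] X := by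
    intro w
    have := (polynomialEquiv K).symm_apply_apply w
    rw [polynomialEquiv_symm] at this
    exact this.symm
  constructor
  · rw [eq_top_iff]
    rintro ω -
    obtain ⟨t, rfl⟩ := e.surjective ω
    induction t using TensorProduct.induction_on with
    | zero => simp
    | tmul f w =>
      have hw : f ⊗ₜ[K[X]] w = ((polynomialEquiv K w) • f) ⊗ₜ[K[X]] D K K[X] X := by
        conv_lhs => rw [hDX w]
        rw [TensorProduct.tmul_smul, TensorProduct.smul_tmul']
      rw [hw, he, aeval_X]
      exact Submodule.smul_mem _ _ (Submodule.mem_span_singleton_self _)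
    | add a b ha hb =>
      rw [map_add]
      exact Submodule.add_mem _ ha hb
  · intro h0
    let g : F ⊗[K[X]] Ω[K[X]⁄K] →ₗ[K[X]] F :=
      (TensorProduct.rid K[X] F).toLinearMap ∘ₗ
        (LinearMap.lTensor F (polynomialEquiv K).toLinearMap)
    have h1 : e ((1 : F) ⊗ₜ[K[X]] D K K[X] X) = 0 := by
      rw [he, aeval_X, h0, smul_zero]
    have h2 : ((1 : F) ⊗ₜ[K[X]] D K K[X] X) = 0 := by
      have := e.injective (h1.trans (map_zero e).symm)
      exact this
    have h3 : g ((1 : F) ⊗ₜ[K[X]] D K K[X] X) = 1 := by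
      simp [g, polynomialEquiv_D]
    rw [h2, map_zero] at h3
    exact zero_ne_one h3

theorem span_D_eq_top (x : F) (hx : Transcendental K x) (halg : Algebra.IsAlgebraic K⟮x⟯ F) :
    Submodule.span F {D K F x} = ⊤ :=
  (span_D_and_D_ne_zero x hx halg).1

theorem D_ne_zero (x : F) (hx : Transcendental K x) (halg : Algebra.IsAlgebraic K⟮x⟯ F) :
    D K F x ≠ 0 :=
  (span_D_and_D_ne_zero x hx halg).2

theorem nontrivial_kaehler (x : F) (hx : Transcendental K x)
    (halg : Algebra.IsAlgebraic K⟮x⟯ F) : Nontrivial Ω[F⁄K] :=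
  ⟨⟨D K F x, 0, D_ne_zero x hx halg⟩⟩

theorem finrank_kaehler (x : F) (hx : Transcendental K x)
    (halg : Algebra.IsAlgebraic K⟮x⟯ F) : Module.finrank F Ω[F⁄K] = 1 := by
  rw [finrank_eq_one_iff_of_nonzero' (D K F x) (D_ne_zero x hx halg)]
  intro w
  have hw : w ∈ Submodule.span F {D K F x} := by
    rw [span_D_eq_top x hx halg]; exact Submodule.mem_top
  exact Submodule.mem_span_singleton.1 hw

/-- Exchange: if `F` is algebraic over `K(x)` and `y` is transcendental over `K`, then `F` is
algebraic over `K(y)`. -/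
theorem isAlgebraic_adjoin_of_transcendental (x : F)
    (halg : Algebra.IsAlgebraic K⟮x⟯ F) (y : F) (hy : Transcendental K y) :
    Algebra.IsAlgebraic K⟮y⟯ F := by
  -- `F` is algebraic over the subalgebra `K[x]`
  haveI h1 : Algebra.IsAlgebraic (Algebra.adjoin K ({x} : Set F)) F :=
    Algebra.IsAlgebraic.trans (Algebra.adjoin K ({x} : Set F)) K⟮x⟯ F
  have h2 : Algebra.trdeg K F ≤ 1 := by
    have := Algebra.IsAlgebraic.trdeg_le_cardinalMk K ({x} : Set F)
    simpa using this
  have h3 : AlgebraicIndependent K (fun _ : PUnit => y) :=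
    algebraicIndependent_unique_type_iff.2 hy
  have h4 : IsTranscendenceBasis K (fun _ : PUnit => y) :=
    h3.isTranscendenceBasis_of_trdeg_le_of_finite (by simpa using h2)
  have h5 := h4.isAlgebraic_field
  have h6 : Set.range (fun _ : PUnit => y) = {y} := by
    ext z; simp [eq_comm]
  rwa [h6] at h5

/-- **A3 (b)**: the kernel of `d` is the set of elements algebraic over `K`. -/
theorem D_eq_zero_iff (x : F) (halg : Algebra.IsAlgebraic K⟮x⟯ F) (y : F) :
    D K F y = 0 ↔ IsAlgebraic K y := by
  constructor
  · intro h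
    by_contra hy
    exact D_ne_zero y hy (isAlgebraic_adjoin_of_transcendental x halg y hy) h
  · intro hy
    have hint : IsIntegral K y := hy.isIntegral
    have hsep : (minpoly K y).Separable := (minpoly.irreducible hint).separable
    have h0 : D K F (aeval y (minpoly K y)) = 0 := by rw [minpoly.aeval, map_zero]
    rw [Derivation.map_aeval] at h0
    have hne : aeval y (derivative (minpoly K y)) ≠ 0 := hsep.aeval_derivative_ne_zero (minpoly.aeval K y)
    exact (smul_eq_zero.1 h0).resolve_left hne

/-! ### Places -/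

open AlgebraicCurve

/-- The valuation ring of a place, as a `K`-subalgebra of `F`. -/
def placeSubalgebra (v : Place K F) : Subalgebra K F where
  __ := v.toValuationSubring.toSubring
  algebraMap_mem' := v.algebraMap_mem'

theorem mem_placeSubalgebra (v : Place K F) (y : F) :
    y ∈ placeSubalgebra v ↔ y ∈ v.toValuationSubring := Iff.rfl

/-- An element of the valuation ring of a place which is algebraic over `K` and nonzero
is a unit of the valuation ring. -/
theorem inv_mem_of_isAlgebraic (v : Place K F) {y : F} (hy : y ∈ v.toValuationSubring)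
    (halg : IsAlgebraic K y) : y⁻¹ ∈ v.toValuationSubring := by
  have := (placeSubalgebra v).inv_mem_of_algebraic (x := ⟨y, hy⟩) halg
  exact this

/-- A uniformizer of a place is transcendental over the constant field. -/
theorem transcendental_of_irreducible (v : Place K F) {π : v.toValuationSubring}
    (hπ : Irreducible π) : Transcendental K (π : F) := by
  intro halg
  have hinv := inv_mem_of_isAlgebraic v π.2 halg
  have hne : (π : F) ≠ 0 := fun h => hπ.ne_zero (Subtype.ext h)
  apply hπ.not_isUnit
  refine IsUnit.of_mul_eq_one ⟨(π : F)⁻¹, hinv⟩ ?_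
  apply Subtype.ext
  show (π : F) * (π : F)⁻¹ = 1
  exact mul_inv_cancel₀ hne

/-- The differential of *any* uniformizer spans `Ω[F⁄K]`. -/
theorem span_D_irreducible (x : F) (halg : Algebra.IsAlgebraic K⟮x⟯ F) (v : Place K F)
    {π : v.toValuationSubring} (hπ : Irreducible π) :
    Submodule.span F {D K F (π : F)} = ⊤ ∧ D K F (π : F) ≠ 0 :=
  span_D_and_D_ne_zero (π : F) (transcendental_of_irreducible v hπ)
    (isAlgebraic_adjoin_of_transcendental x halg (π : F) (transcendental_of_irreducible v hπ))

/-- The chosen local coordinate of the prelude is `D` of an irreducible element. -/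
theorem exists_dCoord_eq (v : Place K F) :
    ∃ π : v.toValuationSubring, Irreducible π ∧ v.dCoord = D K F (π : F) :=
  ⟨(IsDiscreteValuationRing.exists_irreducible v.toValuationSubring).choose,
    (IsDiscreteValuationRing.exists_irreducible v.toValuationSubring).choose_spec, rfl⟩

/-- **A3 (c)**: every place of a function field of one variable in characteristic zero has
`DCoordGenerates`. -/
theorem dCoordGenerates (x : F) (halg : Algebra.IsAlgebraic K⟮x⟯ F) (v : Place K F) :
    v.DCoordGenerates := by
  obtain ⟨π, hπ, h⟩ := exists_dCoord_eq v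
  exact ⟨by rw [h]; exact (span_D_irreducible x halg v hπ).1⟩

theorem dCoord_ne_zero (x : F) (halg : Algebra.IsAlgebraic K⟮x⟯ F) (v : Place K F) :
    v.dCoord ≠ 0 := by
  obtain ⟨π, hπ, h⟩ := exists_dCoord_eq v
  rw [h]; exact (span_D_irreducible x halg v hπ).2

theorem nontrivial_kaehler' (x : F) (halg : Algebra.IsAlgebraic K⟮x⟯ F) (v : Place K F) :
    Nontrivial Ω[F⁄K] :=
  ⟨⟨v.dCoord, 0, dCoord_ne_zero x halg v⟩⟩

/-- `ω = differentialCoeff ω • dCoord` for every differential. -/
theorem differentialCoeff_smul_dCoord (x : F) (halg : Algebra.IsAlgebraic K⟮x⟯ F)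
    (v : Place K F) (ω : Ω[F⁄K]) : v.differentialCoeff ω • v.dCoord = ω :=
  haveI := dCoordGenerates x halg v
  v.differentialCoeff_smul_dCoord ω

theorem differentialCoeff_ne_zero (x : F) (halg : Algebra.IsAlgebraic K⟮x⟯ F)
    (v : Place K F) {ω : Ω[F⁄K]} (hω : ω ≠ 0) : v.differentialCoeff ω ≠ 0 := by
  intro h
  apply hω
  rw [← differentialCoeff_smul_dCoord x halg v ω, h, zero_smul]

theorem differentialCoeff_eq (x : F) (halg : Algebra.IsAlgebraic K⟮x⟯ F)
    (v : Place K F) {ω : Ω[F⁄K]} {f : F} (hf : ω = f • v.dCoord) :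
    v.differentialCoeff ω = f :=
  haveI := dCoordGenerates x halg v
  haveI := nontrivial_kaehler' x halg v
  v.differentialCoeff_unique hf

/-- **A3 (d)**: `ord_v(c ω) = ord_v(c) + ord_v(ω)` for `c ≠ 0`, `ω ≠ 0`. -/
theorem ordDifferential_smul (x : F) (halg : Algebra.IsAlgebraic K⟮x⟯ F)
    (v : Place K F) {c : F} (hc : c ≠ 0) {ω : Ω[F⁄K]} (hω : ω ≠ 0) :
    v.ordDifferential (c • ω) = v.ord c + v.ordDifferential ω :=
  haveI := dCoordGenerates x halg v
  haveI := nontrivial_kaehler' x halg v
  v.ordDifferential_smul hc (differentialCoeff_ne_zero x halg v hω)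

/-- Any two nonzero differentials differ by a nonzero scalar. -/
theorem exists_smul_eq (x : F) (hx : Transcendental K x) (halg : Algebra.IsAlgebraic K⟮x⟯ F)
    {ω η : Ω[F⁄K]} (hω : ω ≠ 0) (hη : η ≠ 0) : ∃ c : F, c ≠ 0 ∧ η = c • ω := by
  have h1 : ∀ w : Ω[F⁄K], ∃ a : F, a • D K F x = w := fun w =>
    Submodule.mem_span_singleton.1 (by rw [span_D_eq_top x hx halg]; exact Submodule.mem_top)
  obtain ⟨a, ha⟩ := h1 ω
  obtain ⟨b, hb⟩ := h1 η
  have ha0 : a ≠ 0 := by rintro rfl; exact hω (by rw [← ha, zero_smul])
  have hb0 : b ≠ 0 := by rintro rfl; exact hη (by rw [← hb, zero_smul])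
  refine ⟨b / a, div_ne_zero hb0 ha0, ?_⟩
  rw [← ha, ← hb, smul_smul, div_mul_cancel₀ b ha0]

/-- Expressing the order of `D y` via the ratio with `D π` for an arbitrary uniformizer `π`:
`ord_v(D y) = ord_v(f)` whenever `D y = f • D π`. -/
theorem ordDifferential_eq_of_eq_smul (x : F) (halg : Algebra.IsAlgebraic K⟮x⟯ F)
    (v : Place K F) {ω : Ω[F⁄K]} {f : F} (hf : ω = f • v.dCoord) :
    v.ordDifferential ω = v.ord f := by
  rw [Place.ordDifferential, differentialCoeff_eq x halg v hf]

end Fermat.Agent.S24_helper2_A3
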