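import Mathlib
import Fermat.Prelude.Def_AlgebraicCurve_CanonicalDivisor
import Fermat.Agent.S24_helper15_A1
import Fermat.Agent.S24_helper2_A3

/-!
# S24, piece G (core): global Riemann–Hurwitz bookkeeping

`K` algebraically closed of characteristic `0`, `F / K(j)` finite.  Given the local data
(places above each `j₀`, places above `∞`, orders of `dj` there) and the global sum formulas
(sum of the ramification indices above a point is the degree, principal divisors have degree
`0`), the degree of the divisor of any nonzero differential is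
`(μ - n 0) + (μ - n 1728) - μ - n∞`.

The sum formulas are hypotheses here (`G_core`); they are supplied by piece A2.
-/

set_option autoImplicit false
set_option linter.style.haveILetI false
set_option linter.unusedSectionVars false

open AlgebraicCurve IntermediateField KaehlerDifferential

namespace Fermat.Agent.S24_helper20_GCore

variable {K F : Type*} [Field K] [Field F] [Algebra K F]

/-! ### Elementary facts on `ord` -/

theorem ord_nonneg_of_mem (v : Place K F) {f : F} (hf : f ∈ v.toValuationSubring) :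
    0 ≤ v.ord f := by
  rcases eq_or_ne f 0 with rfl | hf0
  · simp
  obtain ⟨π, hπ⟩ := IsDiscreteValuationRing.exists_irreducible v.toValuationSubring
  obtain ⟨n, u, hu⟩ :=
    IsDiscreteValuationRing.eq_unit_mul_pow_irreducible
      (x := (⟨f, hf⟩ : v.toValuationSubring)) (by simpa [Subtype.ext_iff] using hf0) hπ
  have hcoe : f = ((u : v.toValuationSubring) : F) * ((π : F) ^ (n : ℤ)) := by
    have h := congrArg (Subtype.val) hu
    push_cast at h
    rw [zpow_natCast]
    exact h
  rw [hcoe, v.ord_unit_smul_zpow u hπ (n : ℤ)]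
  exact Int.natCast_nonneg n

theorem mem_of_ord_nonneg (v : Place K F) {f : F} (hf : f ≠ 0) (h : 0 ≤ v.ord f) :
    f ∈ v.toValuationSubring := by
  obtain ⟨π, hπ⟩ := IsDiscreteValuationRing.exists_irreducible v.toValuationSubring
  obtain ⟨u, hu⟩ := v.exists_unit_mul_zpow hf hπ
  rw [hu, show v.ord f = (((v.ord f).toNat : ℕ) : ℤ) from (Int.toNat_of_nonneg h).symm,
    zpow_natCast]
  exact mul_mem (u : v.toValuationSubring).2 (pow_mem (π : v.toValuationSubring).2 _)

theorem ne_zero_of_ord_ne_zero (v : Place K F) {f : F} (h : v.ord f ≠ 0) : f ≠ 0 := by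
  rintro rfl
  exact h v.ord_zero

theorem mem_of_ord_pos (v : Place K F) {f : F} (h : 0 < v.ord f) :
    f ∈ v.toValuationSubring :=
  mem_of_ord_nonneg v (ne_zero_of_ord_ne_zero v h.ne') h.le

theorem not_mem_of_ord_neg (v : Place K F) {f : F} (h : v.ord f < 0) :
    f ∉ v.toValuationSubring := fun hf =>
  absurd (ord_nonneg_of_mem v hf) (not_le.mpr h)

/-- A nonzero constant is not in the maximal ideal. -/
theorem algebraMap_not_mem_maximalIdeal (v : Place K F) {a : K} (ha : a ≠ 0) :
    algebraMap K v.toValuationSubring a ∉ IsLocalRing.maximalIdeal v.toValuationSubring := by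
  intro h
  rw [IsLocalRing.mem_maximalIdeal, mem_nonunits_iff] at h
  exact h ((isUnit_iff_ne_zero.mpr ha).map (algebraMap K v.toValuationSubring))

/-- A place lies above at most one finite point. -/
theorem const_unique (v : Place K F) (j : F) {a b : K}
    (ha : 0 < v.ord (j - algebraMap K F a)) (hb : 0 < v.ord (j - algebraMap K F b)) :
    a = b := by
  by_contra hab
  have h1 := Fermat.Agent.S24_helper15_A1.mem_maximalIdeal_of_ord_pos v (mem_of_ord_pos v ha) ha
  have h2 := Fermat.Agent.S24_helper15_A1.mem_maximalIdeal_of_ord_pos v (mem_of_ord_pos v hb) hb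
  have h3 := Ideal.sub_mem _ h1 h2
  have h4 : (⟨j - algebraMap K F a, mem_of_ord_pos v ha⟩ : v.toValuationSubring) -
      ⟨j - algebraMap K F b, mem_of_ord_pos v hb⟩ =
      algebraMap K v.toValuationSubring (b - a) := by
    apply Subtype.ext
    show j - algebraMap K F a - (j - algebraMap K F b) = algebraMap K F (b - a)
    rw [map_sub]
    ring
  rw [h4] at h3
  exact algebraMap_not_mem_maximalIdeal v (sub_ne_zero.mpr (Ne.symm hab)) h3

/-- A place cannot lie above a finite point and above `∞`. -/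
theorem not_pos_of_neg (v : Place K F) (j : F) (a : K) (hj : v.ord j < 0) :
    ¬ 0 < v.ord (j - algebraMap K F a) := by
  intro h
  have h1 := mem_of_ord_pos v h
  have h2 : j ∈ v.toValuationSubring := by
    have := v.toValuationSubring.add_mem _ _ h1 (v.algebraMap_mem' a)
    simpa using this
  exact not_mem_of_ord_neg v hj h2

/-! ### The degree as a finite sum -/

theorem degree_eq_sum (D : Divisor K F) (hdeg : ∀ v : Place K F, v.deg = 1)
    (T : Finset (Place K F)) (hT : ∀ v, D v ≠ 0 → v ∈ T) :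
    Divisor.degree D = ∑ v ∈ T, D v := by
  have h1 : Divisor.degree D = ∑ v ∈ D.support, D v := by
    simp only [Divisor.degree, Finsupp.liftAddHom_apply, Finsupp.sum, AddMonoidHom.coe_mulRight,
      hdeg, Nat.cast_one, mul_one]
  rw [h1]
  refine Finset.sum_subset (fun v hv => hT v (Finsupp.mem_support_iff.mp hv)) ?_
  intro v _ hv
  simpa using hv

/-! ### The bookkeeping -/

/-- **Riemann–Hurwitz bookkeeping**, with the global sum formulas as hypotheses. -/
theorem G_core [IsAlgClosed K] [CharZero K]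
    [HasCanonicalDivisor (K := K) (F := F)]
    (j : F) (hj : Transcendental K j) [FiniteDimensional K⟮j⟯ F]
    (hprin : ∀ f : F, f ≠ 0 → ∃ D : Divisor K F,
      (∀ v : Place K F, D v = v.ord f) ∧ Divisor.degree D = 0)
    (hzeros : ∀ (j₀ : K) (S : Finset (Place K F)),
      (∀ v, v ∈ S ↔ 0 < v.ord (j - algebraMap K F j₀)) →
      ∑ v ∈ S, v.ord (j - algebraMap K F j₀) = (Module.finrank K⟮j⟯ F : ℤ))
    (hpoles : ∀ S : Finset (Place K F), (∀ v, v ∈ S ↔ v.ord j < 0) →
      ∑ v ∈ S, v.ord j = -(Module.finrank K⟮j⟯ F : ℤ))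
    (n : K → ℕ) (ninf : ℕ)
    (hfin : ∀ j₀ : K, ∃ S : Finset (Place K F),
      (∀ v, v ∈ S ↔ 0 < v.ord (j - algebraMap K F j₀)) ∧ S.card = n j₀ ∧
      ∀ v ∈ S, v.ordDifferential (D K F j) = v.ord (j - algebraMap K F j₀) - 1)
    (hinf : ∃ S : Finset (Place K F), (∀ v, v ∈ S ↔ v.ord j < 0) ∧ S.card = ninf ∧
      ∀ v ∈ S, v.ordDifferential (D K F j) = v.ord j - 1)
    (hn : ∀ j₀ : K, j₀ ≠ 0 → j₀ ≠ 1728 → n j₀ = Module.finrank K⟮j⟯ F)
    {ω : Ω[F⁄K]} (hω : ω ≠ 0) :
    Divisor.degree (canonicalDivisorOf hω) =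
      ((Module.finrank K⟮j⟯ F : ℤ) - n 0) + ((Module.finrank K⟮j⟯ F : ℤ) - n 1728)
        - (Module.finrank K⟮j⟯ F : ℤ) - ninf := by
  classical
  have halg : Algebra.IsAlgebraic K⟮j⟯ F := Algebra.IsAlgebraic.of_finite _ _
  have hdeg : ∀ v : Place K F, v.deg = 1 :=
    fun v => Fermat.Agent.S24_helper15_A1.deg_eq_one j halg v
  have hdj : D K F j ≠ 0 := Fermat.Agent.S24_helper2_A3.D_ne_zero j hj halg
  -- reduce to `ω = dj`
  obtain ⟨c, hc0, hc⟩ := Fermat.Agent.S24_helper2_A3.exists_smul_eq j hj halg hdj hω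
  obtain ⟨Dc, hDc, hDc0⟩ := hprin c hc0
  have hsplit : canonicalDivisorOf hω = Dc + canonicalDivisorOf hdj := by
    ext v
    rw [Finsupp.add_apply, canonicalDivisorOf_apply, canonicalDivisorOf_apply, hDc]
    conv_lhs => rw [hc]
    exact Fermat.Agent.S24_helper2_A3.ordDifferential_smul j halg v hc0 hdj
  rw [hsplit, map_add, hDc0, zero_add]
  -- the three special fibres
  obtain ⟨S0, hS0, hS0c, hS0d⟩ := hfin 0
  obtain ⟨S1, hS1, hS1c, hS1d⟩ := hfin 1728
  obtain ⟨Si, hSi, hSic, hSid⟩ := hinf
  have h1728 : (1728 : K) ≠ 0 := by norm_num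
  have hd01 : Disjoint S0 S1 := by
    rw [Finset.disjoint_left]
    intro v hv0 hv1
    exact h1728 (const_unique v j ((hS0 v).mp hv0) ((hS1 v).mp hv1)).symm
  have hd0i : Disjoint (S0 ∪ S1) Si := by
    rw [Finset.disjoint_left]
    intro v hv hvi
    rcases Finset.mem_union.mp hv with h | h
    · exact not_pos_of_neg v j 0 ((hSi v).mp hvi) ((hS0 v).mp h)
    · exact not_pos_of_neg v j 1728 ((hSi v).mp hvi) ((hS1 v).mp h)
  -- the support of `div(dj)` is contained in the special fibres
  have hsupp : ∀ v : Place K F, canonicalDivisorOf hdj v ≠ 0 → v ∈ (S0 ∪ S1) ∪ Si := by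
    intro v hv
    rw [canonicalDivisorOf_apply] at hv
    by_contra hmem
    simp only [Finset.mem_union, not_or] at hmem
    obtain ⟨⟨hm0, hm1⟩, hmi⟩ := hmem
    have hjv : 0 ≤ v.ord j := not_lt.mp (fun h => hmi ((hSi v).mpr h))
    have hj0 : j ≠ 0 := fun h => hj (h ▸ isAlgebraic_zero)
    have hjmem : j ∈ v.toValuationSubring := mem_of_ord_nonneg v hj0 hjv
    obtain ⟨a, ha | ha⟩ := Fermat.Agent.S24_helper15_A1.exists_const_sub_mem j halg v j hjmem
    · have ha0 : a ≠ 0 := by
        rintro rfl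
        exact hm0 ((hS0 v).mpr ha)
      have ha1 : a ≠ 1728 := by
        rintro rfl
        exact hm1 ((hS1 v).mpr ha)
      obtain ⟨S, hS, hSc, hSd⟩ := hfin a
      have hvS : v ∈ S := (hS v).mpr ha
      have hsum := hzeros a S hS
      have hcard : (S.card : ℤ) = (Module.finrank K⟮j⟯ F : ℤ) := by
        rw [hSc, hn a ha0 ha1]
      have hzero : ∑ w ∈ S, (w.ord (j - algebraMap K F a) - 1) = 0 := by
        rw [Finset.sum_sub_distrib, hsum, Finset.sum_const, ← hcard]
        simp
      have hnonneg : ∀ w ∈ S, 0 ≤ w.ord (j - algebraMap K F a) - 1 := by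
        intro w hw
        have := (hS w).mp hw
        omega
      have hall := (Finset.sum_eq_zero_iff_of_nonneg hnonneg).mp hzero v hvS
      apply hv
      rw [hSd v hvS, hall]
    · exact hj (ha ▸ isAlgebraic_algebraMap a)
  rw [degree_eq_sum _ hdeg _ hsupp, Finset.sum_union hd0i, Finset.sum_union hd01]
  have e0 : ∑ v ∈ S0, canonicalDivisorOf hdj v = (Module.finrank K⟮j⟯ F : ℤ) - n 0 := by
    rw [← hzeros 0 S0 hS0, ← hS0c]
    rw [Finset.sum_congr rfl (fun v hv => by rw [canonicalDivisorOf_apply, hS0d v hv]),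
      Finset.sum_sub_distrib, Finset.sum_const]
    simp
  have e1 : ∑ v ∈ S1, canonicalDivisorOf hdj v = (Module.finrank K⟮j⟯ F : ℤ) - n 1728 := by
    rw [← hzeros 1728 S1 hS1, ← hS1c]
    rw [Finset.sum_congr rfl (fun v hv => by rw [canonicalDivisorOf_apply, hS1d v hv]),
      Finset.sum_sub_distrib, Finset.sum_const]
    simp
  have ei : ∑ v ∈ Si, canonicalDivisorOf hdj v = -(Module.finrank K⟮j⟯ F : ℤ) - ninf := by
    rw [← hpoles Si hSi, ← hSic]
    rw [Finset.sum_congr rfl (fun v hv => by rw [canonicalDivisorOf_apply, hSid v hv]),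
      Finset.sum_sub_distrib, Finset.sum_const]
    simp
  rw [e0, e1, ei]
  ring

end Fermat.Agent.S24_helper20_GCore
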