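import Mathlib
import Fermat.Prelude.Def_AlgebraicCurve_CanonicalDivisor

/-!
# S24, piece B1: the place attached to an embedding into Laurent series

Given a ring homomorphism `ι : F →+* LaurentSeries L` which is constant on `K` and an element
`t` of positive order, the elements of non-negative order form a discrete valuation subring of
`F` containing `K`, i.e. a `Place K F`, and the order of `ι f` is a positive multiple `m` of the
normalised valuation.
-/

set_option autoImplicit false

noncomputable section

namespace Fermat.Agent.S24_helper21_B1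

open AlgebraicCurve IntermediateField KaehlerDifferential

variable {K F : Type*} [Field K] [Field F] [Algebra K F] {L : Type*} [Field L]

section order

variable (ι : F →+* LaurentSeries L)

theorem iota_ne_zero {f : F} (hf : f ≠ 0) : ι f ≠ 0 := by
  intro h
  exact hf ((map_eq_zero ι).1 h)

theorem orderTop_eq_order {f : F} (hf : f ≠ 0) : (ι f).orderTop = ((ι f).order : WithTop ℤ) :=
  (HahnSeries.order_eq_orderTop_of_ne_zero (iota_ne_zero ι hf)).symm

theorem nonneg_iff {f : F} (hf : f ≠ 0) : 0 ≤ (ι f).orderTop ↔ 0 ≤ (ι f).order := by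
  rw [orderTop_eq_order ι hf]
  exact_mod_cast Iff.rfl

theorem order_mul' {f g : F} (hf : f ≠ 0) (hg : g ≠ 0) :
    (ι (f * g)).order = (ι f).order + (ι g).order := by
  have h := HahnSeries.orderTop_mul (ι f) (ι g)
  rw [← map_mul, orderTop_eq_order ι hf, orderTop_eq_order ι hg,
    orderTop_eq_order ι (mul_ne_zero hf hg)] at h
  exact_mod_cast h

theorem order_one' : (ι 1).order = 0 := by
  rw [map_one]; exact HahnSeries.order_one

theorem order_inv' {f : F} (hf : f ≠ 0) : (ι f⁻¹).order = -(ι f).order := by
  have h := order_mul' ι hf (inv_ne_zero hf)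
  rw [mul_inv_cancel₀ hf, order_one'] at h
  omega

/-- The order as a group homomorphism on units. -/
def ordHom : Fˣ →* Multiplicative ℤ where
  toFun u := Multiplicative.ofAdd (ι (u : F)).order
  map_one' := by
    simp only [Units.val_one]
    rw [order_one']; rfl
  map_mul' u v := by
    simp only [Units.val_mul]
    rw [order_mul' ι u.ne_zero v.ne_zero]; rfl

theorem order_zpow' {f : F} (hf : f ≠ 0) (n : ℤ) : (ι (f ^ n)).order = n * (ι f).order := by
  have h := map_zpow (ordHom ι) (Units.mk0 f hf) n
  have h2 := congrArg Multiplicative.toAdd h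
  simp only [ordHom, MonoidHom.coe_mk, OneHom.coe_mk, Units.val_zpow_eq_zpow_val, Units.val_mk0,
    toAdd_ofAdd, toAdd_zpow, smul_eq_mul] at h2
  exact h2

/-- The valuation subring of elements of non-negative order. -/
def valSubring : ValuationSubring F where
  carrier := {f | 0 ≤ (ι f).orderTop}
  mul_mem' := by
    intro a b ha hb
    simp only [Set.mem_ofPred_eq] at ha hb ⊢
    rw [map_mul, HahnSeries.orderTop_mul]
    exact add_nonneg ha hb
  one_mem' := by
    simp only [Set.mem_ofPred_eq]
    rw [map_one, HahnSeries.orderTop_one]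
  add_mem' := by
    intro a b ha hb
    simp only [Set.mem_ofPred_eq] at ha hb ⊢
    rw [map_add]
    exact le_trans (le_min ha hb) HahnSeries.min_orderTop_le_orderTop_add
  zero_mem' := by
    simp only [Set.mem_ofPred_eq]
    rw [map_zero, HahnSeries.orderTop_zero]
    exact le_top
  neg_mem' := by
    intro a ha
    simp only [Set.mem_ofPred_eq] at ha ⊢
    rw [map_neg, HahnSeries.orderTop_neg]
    exact ha
  mem_or_inv_mem' := by
    intro a
    simp only [Set.mem_ofPred_eq]
    rcases eq_or_ne a 0 with rfl | ha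
    · left
      rw [map_zero, HahnSeries.orderTop_zero]
      exact le_top
    · rw [nonneg_iff ι ha, nonneg_iff ι (inv_ne_zero ha), order_inv' ι ha]
      omega

theorem mem_valSubring {f : F} : f ∈ valSubring ι ↔ 0 ≤ (ι f).orderTop := Iff.rfl

theorem mem_valSubring_of_ne {f : F} (hf : f ≠ 0) : f ∈ valSubring ι ↔ 0 ≤ (ι f).order :=
  nonneg_iff ι hf

/-- The valuation subring is a principal ideal ring. -/
theorem isPrincipalIdealRing_valSubring : IsPrincipalIdealRing (valSubring ι) := by
  classical
  refine ⟨fun I => ?_⟩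
  by_cases hI : I = ⊥
  · rw [hI]; exact bot_isPrincipal
  obtain ⟨x, hxI, hx0⟩ := Submodule.exists_mem_ne_zero_of_ne_bot hI
  have hxF : (x : F) ≠ 0 := by
    intro h; apply hx0; exact Subtype.ext h
  -- the set of orders of nonzero elements of `I`
  have hex : ∃ n : ℕ, ∃ y : valSubring ι, y ∈ I ∧ y ≠ 0 ∧ (ι (y : F)).order = n := by
    refine ⟨(ι (x : F)).order.toNat, x, hxI, hx0, ?_⟩
    have := (mem_valSubring_of_ne ι hxF).1 x.2
    omega
  obtain ⟨y, hyI, hy0, hyord⟩ := Nat.find_spec hex
  have hyF : (y : F) ≠ 0 := by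
    intro h; apply hy0; exact Subtype.ext h
  refine ⟨⟨y, le_antisymm ?_ ?_⟩⟩
  · intro z hz
    rw [Submodule.mem_span_singleton]
    rcases eq_or_ne z 0 with rfl | hz0
    · exact ⟨0, by simp⟩
    have hzF : (z : F) ≠ 0 := by
      intro h; apply hz0; exact Subtype.ext h
    have hzord : 0 ≤ (ι (z : F)).order := (mem_valSubring_of_ne ι hzF).1 z.2
    have hmin : Nat.find hex ≤ (ι (z : F)).order.toNat :=
      Nat.find_min' hex ⟨z, hz, hz0, by omega⟩
    have hq : (z : F) / (y : F) ∈ valSubring ι := by
      rw [mem_valSubring_of_ne ι (div_ne_zero hzF hyF), div_eq_mul_inv,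
        order_mul' ι hzF (inv_ne_zero hyF), order_inv' ι hyF, hyord]
      omega
    refine ⟨⟨_, hq⟩, ?_⟩
    apply Subtype.ext
    simp only [smul_eq_mul, MulMemClass.coe_mul]
    field_simp
  · rw [Submodule.span_singleton_le_iff_mem]
    exact hyI

end order

/-- **B1.** -/
theorem B1 {K F : Type*} [Field K] [Field F] [Algebra K F] {L : Type*} [Field L]
    (φ₀ : K →+* L) (ι : F →+* LaurentSeries L)
    (hιK : ∀ a, ι (algebraMap K F a) = HahnSeries.C (φ₀ a)) (t : F) (ht : 0 < (ι t).order) :
    ∃ (v : Place K F) (m : ℕ), 0 < m ∧ (∀ f : F, f ≠ 0 → ((ι f).order : ℤ) = m * v.ord f) ∧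
      ∀ f : F, f ∈ v.toValuationSubring ↔ 0 ≤ (ι f).orderTop := by
  have ht0 : t ≠ 0 := by
    rintro rfl
    rw [map_zero, HahnSeries.order_zero] at ht
    exact lt_irrefl _ ht
  -- the place
  obtain ⟨v, hv⟩ : ∃ v : Place K F, v.toValuationSubring = valSubring ι :=
    ⟨{ toValuationSubring := valSubring ι
       algebraMap_mem' := by
        intro a
        rw [mem_valSubring, hιK]
        by_cases h : φ₀ a = 0
        · rw [h, map_zero, HahnSeries.orderTop_zero]; exact le_top
        · rw [← HahnSeries.order_eq_orderTop_of_ne_zero (HahnSeries.C_ne_zero h),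
            HahnSeries.order_C]
          rfl
       ne_top' := by
        intro h
        have : t⁻¹ ∈ valSubring ι := by rw [h]; exact ValuationSubring.mem_top _
        rw [mem_valSubring_of_ne ι (inv_ne_zero ht0), order_inv' ι ht0] at this
        omega
       isPrincipalIdealRing' := isPrincipalIdealRing_valSubring ι }, rfl⟩
  have hmem : ∀ {f : F}, f ≠ 0 → (f ∈ v.toValuationSubring ↔ 0 ≤ (ι f).order) := by
    intro f hf
    rw [hv]; exact mem_valSubring_of_ne ι hf
  obtain ⟨π, hπ⟩ := IsDiscreteValuationRing.exists_irreducible v.toValuationSubring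
  have hπF : (π : F) ≠ 0 := by
    intro h; exact hπ.ne_zero (Subtype.ext h)
  have hπord : 0 ≤ (ι (π : F)).order := (hmem hπF).1 π.2
  have hπpos : 0 < (ι (π : F)).order := by
    rcases lt_or_eq_of_le hπord with h | h
    · exact h
    · exfalso
      apply hπ.not_isUnit
      have hinv : (π : F)⁻¹ ∈ v.toValuationSubring := by
        rw [hmem (inv_ne_zero hπF), order_inv' ι hπF]; omega
      refine ⟨⟨π, ⟨_, hinv⟩, ?_, ?_⟩, rfl⟩
      · apply Subtype.ext; simp [hπF]
      · apply Subtype.ext; simp [hπF]
  have hunit : ∀ u : v.toValuationSubringˣ, (ι ((u : v.toValuationSubring) : F)).order = 0 := by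
    intro u
    have hu0 : ((u : v.toValuationSubring) : F) ≠ 0 := by
      intro h
      exact u.ne_zero (Subtype.ext h)
    have h1 : 0 ≤ (ι ((u : v.toValuationSubring) : F)).order :=
      (hmem hu0).1 (u : v.toValuationSubring).2
    have e : (((u⁻¹ : v.toValuationSubringˣ) : v.toValuationSubring) : F)
        = ((u : v.toValuationSubring) : F)⁻¹ := by
      have h := congrArg (fun x : v.toValuationSubring => (x : F)) u.inv_mul
      simp only [MulMemClass.coe_mul, OneMemClass.coe_one] at h
      exact eq_inv_of_mul_eq_one_left h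
    have h2 : 0 ≤ (ι (((u : v.toValuationSubring) : F)⁻¹)).order := by
      have hm : ((u : v.toValuationSubring) : F)⁻¹ ∈ v.toValuationSubring := by
        rw [← e]
        exact ((u⁻¹ : v.toValuationSubringˣ) : v.toValuationSubring).2
      exact (hmem (inv_ne_zero hu0)).1 hm
    rw [order_inv' ι hu0] at h2
    omega
  refine ⟨v, (ι (π : F)).order.toNat, by omega, ?_, fun f => by rw [hv]; exact Iff.rfl⟩
  intro f hf
  obtain ⟨u, hu⟩ := v.exists_unit_mul_zpow hf hπ
  have hu0 : ((u : v.toValuationSubring) : F) ≠ 0 := by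
    intro h
    exact u.ne_zero (Subtype.ext h)
  conv_lhs => rw [hu]
  rw [order_mul' ι hu0 (zpow_ne_zero _ hπF), hunit u, order_zpow' ι hπF, zero_add,
    Int.toNat_of_nonneg hπord]
  ring

end Fermat.Agent.S24_helper21_B1
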