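import Fermat.Agent.S24_helper2_A3
import Fermat.Agent.S24_helper8_LDER
import Fermat.Agent.S24_helper21_B1

/-!
# S24, piece A4emb: the order of `dt` at a place induced by a Laurent series embedding

If the place `v` of `F` is induced by an embedding `ι : F → L((s))` which is constant on `K`,
then `ord_v (dt) = ord_v t - 1` for every `t` with `ord_v t ≠ 0`.
-/

set_option autoImplicit false
set_option linter.style.haveILetI false
set_option linter.unusedVariables false

noncomputable section

namespace Fermat.Agent.S24_helper21_A4emb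

open AlgebraicCurve IntermediateField KaehlerDifferential
open Fermat.Agent.S24_helper2_A3 Fermat.Agent.S24_helper8_LDER Fermat.Agent.S24_helper21_B1

section deriv

variable {K F : Type*} [Field K] [Field F] [Algebra K F] {L : Type*} [Field L]

/-- The `K`-derivation `f ↦ d(ι f)/ds` of `F` with values in `L((s))`, the latter being an
`F`-module through `ι`. -/
theorem exists_lift (φ₀ : K →+* L) (ι : F →+* LaurentSeries L)
    (hιK : ∀ a, ι (algebraMap K F a) = HahnSeries.C (φ₀ a)) :
    ∃ Λ : Ω[F⁄K] → LaurentSeries L,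
      (∀ f : F, Λ (D K F f) = LaurentSeries.derivative L (ι f)) ∧
      (∀ (f : F) (ω : Ω[F⁄K]), Λ (f • ω) = ι f * Λ ω) := by
  letI algF : Algebra F (LaurentSeries L) := ι.toAlgebra
  letI algK : Algebra K (LaurentSeries L) := (ι.comp (algebraMap K F)).toAlgebra
  haveI tower : IsScalarTower K F (LaurentSeries L) :=
    IsScalarTower.of_algebraMap_eq (fun _ => rfl)
  have hF : ∀ (f : F) (y : LaurentSeries L), f • y = ι f * y := fun f y => rfl
  have hK : ∀ (a : K) (y : LaurentSeries L), a • y = HahnSeries.C (φ₀ a) * y := by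
    intro a y
    have : a • y = ι (algebraMap K F a) * y := rfl
    rw [this, hιK]
  let δ : Derivation K F (LaurentSeries L) :=
    { toFun := fun f => LaurentSeries.derivative L (ι f)
      map_add' := fun a b => by
        simp only [map_add]
      map_smul' := fun a f => by
        simp only [RingHom.id_apply]
        rw [Algebra.smul_def, map_mul, hιK, LDER_mul, LDER_C, zero_mul, add_zero, hK]
      map_one_eq_zero' := by
        show LaurentSeries.derivative L (ι 1) = 0
        rw [map_one]
        have : (1 : LaurentSeries L) = HahnSeries.C (1 : L) := (map_one _).symm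
        rw [this, LDER_C]
      leibniz' := fun a b => by
        show LaurentSeries.derivative L (ι (a * b)) =
          a • LaurentSeries.derivative L (ι b) + b • LaurentSeries.derivative L (ι a)
        rw [map_mul, LDER_mul, hF, hF, mul_comm (LaurentSeries.derivative L (ι a))] }
  refine ⟨fun ω => δ.liftKaehlerDifferential ω, fun f => ?_, fun f ω => ?_⟩
  · exact Derivation.liftKaehlerDifferential_comp_D δ f
  · show δ.liftKaehlerDifferential (f • ω) = ι f * δ.liftKaehlerDifferential ω
    rw [map_smul, hF]

end deriv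

/-- **A4emb.** -/
theorem A4emb {K F : Type*} [Field K] [IsAlgClosed K] [CharZero K] [Field F] [Algebra K F]
    (x : F) (hx : Transcendental K x) (halg : Algebra.IsAlgebraic K⟮x⟯ F)
    {L : Type*} [Field L] (φ₀ : K →+* L) (ι : F →+* LaurentSeries L)
    (hιK : ∀ a, ι (algebraMap K F a) = HahnSeries.C (φ₀ a))
    (v : Place K F) (hv : ∀ f : F, f ∈ v.toValuationSubring ↔ 0 ≤ (ι f).orderTop)
    (t : F) (ht : v.ord t ≠ 0) :
    v.ordDifferential (KaehlerDifferential.D K F t) = v.ord t - 1 := by
  haveI : CharZero L := charZero_of_injective_ringHom φ₀.injective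
  have ht0 : t ≠ 0 := by
    rintro rfl
    exact ht v.ord_zero
  -- the uniformizer defining `dCoord`
  obtain ⟨π, hπ, hdc⟩ := exists_dCoord_eq v
  have hπF : (π : F) ≠ 0 := fun h => hπ.ne_zero (Subtype.ext h)
  have hπord : 0 ≤ (ι (π : F)).order := (nonneg_iff ι hπF).1 ((hv _).1 π.2)
  have hπpos : 0 < (ι (π : F)).order := by
    rcases lt_or_eq_of_le hπord with h | h
    · exact h
    · exfalso
      apply hπ.not_isUnit
      have hinv : (π : F)⁻¹ ∈ v.toValuationSubring := by
        rw [hv, nonneg_iff ι (inv_ne_zero hπF), order_inv' ι hπF]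
        omega
      refine ⟨⟨π, ⟨_, hinv⟩, ?_, ?_⟩, rfl⟩
      · apply Subtype.ext; simp [hπF]
      · apply Subtype.ext; simp [hπF]
  -- the place attached to `ι` is `v`
  obtain ⟨v', m, hm, hord, hv'⟩ := B1 φ₀ ι hιK (π : F) hπpos
  have hvv : v' = v := by
    apply Place.ext
    ext f
    rw [hv', hv]
  subst hvv
  -- the lift of the derivation
  obtain ⟨Λ, hΛD, hΛsmul⟩ := exists_lift (K := K) φ₀ ι hιK
  -- `D t = f • D π`
  have hspan := (span_D_irreducible x halg v' hπ).1
  have hmem : D K F t ∈ Submodule.span F {D K F (π : F)} := by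
    rw [hspan]; exact Submodule.mem_top
  obtain ⟨f, hf⟩ := Submodule.mem_span_singleton.1 hmem
  have hkey : LaurentSeries.derivative L (ι t) = ι f * LaurentSeries.derivative L (ι (π : F)) := by
    rw [← hΛD, ← hΛD, ← hf, hΛsmul]
  -- orders
  have hot : (ι t).order = m * v'.ord t := hord t ht0
  have hoπ : (ι (π : F)).order = m := by
    rw [hord _ hπF, v'.ord_coe_irreducible hπ, mul_one]
  have hm0 : (m : ℤ) ≠ 0 := by exact_mod_cast hm.ne'
  have h1 := LDER_order (ι t) (by rw [hot]; exact mul_ne_zero hm0 ht)
  have h2 := LDER_order (ι (π : F)) (by rw [hoπ]; exact hm0)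
  have hf0 : f ≠ 0 := by
    rintro rfl
    rw [map_zero, zero_mul] at hkey
    exact h1.2 hkey
  have h3 : (LaurentSeries.derivative L (ι t)).order =
      (ι f).order + (LaurentSeries.derivative L (ι (π : F))).order := by
    rw [hkey]
    exact HahnSeries.order_mul (iota_ne_zero ι hf0) h2.2
  rw [h1.1, h2.1, hot, hoπ, hord f hf0] at h3
  have h4 : (m : ℤ) * v'.ord f = m * (v'.ord t - 1) := by
    linear_combination -h3
  have h5 : v'.ord f = v'.ord t - 1 := mul_left_cancel₀ hm0 h4
  rw [ordDifferential_eq_of_eq_smul x halg v' (f := f) (by rw [hdc, hf]), h5]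

end Fermat.Agent.S24_helper21_A4emb
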