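import Mathlib
import Fermat.Agent.S20_Defs

/-!
# S24 piece D-ORB: orbit counts of `S`, `S * T`, `T` and `1` on the cosets `Q N`
-/

set_option autoImplicit false

open CongruenceSubgroup
open scoped MatrixGroups
open Fermat.Agent.S20

namespace Fermat.Agent.S24_helper4_ORB

section generic

lemma sum_range_mul_periodic (f : ℕ → ℕ) (n : ℕ) (hf : ∀ i, f (i + n) = f i) (k : ℕ) :
    ∑ i ∈ Finset.range (n * k), f i = k * ∑ i ∈ Finset.range n, f i := by
  have hper : ∀ j i, f (n * j + i) = f i := by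
    intro j
    induction j with
    | zero => intro i; simp
    | succ j ih =>
      intro i
      have : n * (j + 1) + i = (n * j + i) + n := by ring
      rw [this, hf, ih]
  induction k with
  | zero => simp
  | succ k ih =>
    have : n * (k + 1) = n * k + n := by ring
    rw [this, Finset.sum_range_add, ih]
    rw [Finset.sum_congr rfl (fun i _ => hper k i)]
    ring

variable {X : Type*} [Fintype X] [DecidableEq X]

/-- Burnside's lemma for the cyclic group generated by a permutation `σ` with `σ ^ m = 1`. -/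
lemma sum_fix_pow (σ : Equiv.Perm X) (m : ℕ) (hσ : σ ^ m = 1) :
    ∑ i ∈ Finset.range m, Nat.card {x // (σ ^ i) x = x}
      = m * Nat.card (MulAction.orbitRel.Quotient (Subgroup.zpowers σ) X) := by
  classical
  have hfin : IsOfFinOrder σ := isOfFinOrder_of_finite σ
  obtain ⟨k, hk⟩ := orderOf_dvd_of_pow_eq_one hσ
  have hper : ∀ i, Nat.card {x // (σ ^ (i + orderOf σ)) x = x}
      = Nat.card {x // (σ ^ i) x = x} := by
    intro i
    rw [pow_add, pow_orderOf_eq_one, mul_one]
  rw [hk, sum_range_mul_periodic _ _ hper k]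
  have hB := MulAction.sum_card_fixedBy_eq_card_orbits_mul_card_group (Subgroup.zpowers σ) X
  have h1 : ∑ a : Subgroup.zpowers σ, Fintype.card (MulAction.fixedBy X a)
      = ∑ i ∈ Finset.range (orderOf σ), Nat.card {x // (σ ^ i) x = x} := by
    rw [Finset.sum_range]
    rw [← Equiv.sum_comp (finEquivZPowers hfin)]
    refine Finset.sum_congr rfl (fun i _ => ?_)
    rw [← Nat.card_eq_fintype_card]
    refine Nat.card_congr (Equiv.subtypeEquivRight (fun x => ?_))
    rw [MulAction.mem_fixedBy, finEquivZPowers_apply]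
    rfl
  rw [h1] at hB
  rw [hB, Fintype.card_zpowers, ← Nat.card_eq_fintype_card]
  unfold MulAction.orbitRel.Quotient
  ring

/-- orbit count for an involution -/
lemma orbits_involution (σ : Equiv.Perm X) (hσ : ∀ x, σ (σ x) = x) :
    2 * Nat.card (MulAction.orbitRel.Quotient (Subgroup.zpowers σ) X)
      = Nat.card X + Nat.card {x // σ x = x} := by
  have h2 : σ ^ 2 = 1 := by
    ext x
    simp [pow_two, hσ]
  have h := sum_fix_pow σ 2 h2
  rw [Finset.sum_range_succ, Finset.sum_range_one] at h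
  rw [← h]
  simp only [pow_zero, pow_one, Equiv.Perm.coe_one, id_eq]
  congr 1
  exact Nat.card_congr (Equiv.subtypeUnivEquiv (fun _ => trivial))

/-- orbit count for a permutation of order dividing `3` -/
lemma orbits_order_three (σ : Equiv.Perm X) (hσ : ∀ x, σ (σ (σ x)) = x) :
    3 * Nat.card (MulAction.orbitRel.Quotient (Subgroup.zpowers σ) X)
      = Nat.card X + 2 * Nat.card {x // σ x = x} := by
  have h3 : σ ^ 3 = 1 := by
    ext x
    simp [pow_succ, hσ]
  have h := sum_fix_pow σ 3 h3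
  rw [Finset.sum_range_succ, Finset.sum_range_succ, Finset.sum_range_one] at h
  rw [← h]
  simp only [pow_zero, pow_one, Equiv.Perm.coe_one, id_eq]
  have e0 : Nat.card {_x : X // True} = Nat.card X :=
    Nat.card_congr (Equiv.subtypeUnivEquiv (fun _ => trivial))
  have e2 : Nat.card {x : X // (σ ^ 2) x = x} = Nat.card {x : X // σ x = x} := by
    refine Nat.card_congr (Equiv.subtypeEquivRight (fun x => ?_))
    simp only [pow_two, Equiv.Perm.coe_mul, Function.comp_apply]
    constructor
    · intro hx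
      have := hσ x
      rw [hx] at this
      exact this
    · intro hx
      rw [hx, hx]
  rw [e0, e2]
  ring

/-- orbits of the trivial group -/
lemma orbits_one :
    Nat.card (MulAction.orbitRel.Quotient (Subgroup.zpowers (1 : Equiv.Perm X)) X)
      = Nat.card X := by
  have h := sum_fix_pow (1 : Equiv.Perm X) 1 (by simp)
  rw [Finset.sum_range_one] at h
  simp only [pow_zero, Equiv.Perm.coe_one, id_eq, one_mul] at h
  rw [← h]
  exact Nat.card_congr (Equiv.subtypeUnivEquiv (fun _ => trivial))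

end generic

/-- `-1` acts trivially on the cosets of `Γ₀(N)`. -/
lemma neg_one_smul_Q (N : ℕ) (q : Q N) : (-1 : SL(2, ℤ)) • q = q := by
  induction q using QuotientGroup.induction_on with
  | H h =>
    rw [MulAction.Quotient.smul_coe, QuotientGroup.eq]
    have : ((-1 : SL(2, ℤ)) • h)⁻¹ * h = -1 := by
      simp
    rw [this, Gamma0_mem]
    simp

lemma S_mul_S : (ModularGroup.S * ModularGroup.S : SL(2, ℤ)) = -1 := by
  apply Subtype.ext
  simpa using ModularGroup.S_mul_S_eq

lemma ST_cube : ((ModularGroup.S * ModularGroup.T) * (ModularGroup.S * ModularGroup.T) *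
    (ModularGroup.S * ModularGroup.T) : SL(2, ℤ)) = -1 := by
  ext i j
  fin_cases i <;> fin_cases j <;>
    simp [ModularGroup.S, ModularGroup.T, Matrix.mul_apply, Fin.sum_univ_two]

lemma S_inv_smul_S_inv_smul (N : ℕ) (q : Q N) :
    (ModularGroup.S⁻¹ : SL(2, ℤ)) • ((ModularGroup.S⁻¹ : SL(2, ℤ)) • q) = q := by
  rw [← mul_smul, ← mul_inv_rev, S_mul_S]
  have : ((-1 : SL(2, ℤ)))⁻¹ = -1 := by simp
  rw [this, neg_one_smul_Q]

lemma ST_inv_smul_cube (N : ℕ) (q : Q N) :
    ((ModularGroup.S * ModularGroup.T)⁻¹ : SL(2, ℤ)) •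
      (((ModularGroup.S * ModularGroup.T)⁻¹ : SL(2, ℤ)) •
        (((ModularGroup.S * ModularGroup.T)⁻¹ : SL(2, ℤ)) • q)) = q := by
  rw [← mul_smul, ← mul_smul, ← mul_inv_rev, ← mul_inv_rev, ← mul_assoc, ST_cube]
  have : ((-1 : SL(2, ℤ)))⁻¹ = -1 := by simp
  rw [this, neg_one_smul_Q]

lemma card_fix_inv (N : ℕ) (g : SL(2, ℤ)) :
    Nat.card {x : Q N // (MulAction.toPerm (g⁻¹) : Equiv.Perm (Q N)) x = x}
      = Nat.card {q : Q N // g • q = q} := by
  refine Nat.card_congr (Equiv.subtypeEquivRight (fun q => ?_))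
  rw [MulAction.toPerm_apply]
  constructor
  · intro hq
    rw [inv_smul_eq_iff] at hq
    exact hq.symm
  · intro hq
    rw [inv_smul_eq_iff, hq]

lemma toPerm_zpow_apply (N : ℕ) (g : SL(2, ℤ)) (k : ℤ) (y : Q N) :
    ((MulAction.toPerm g : Equiv.Perm (Q N)) ^ k) y = (g ^ k) • y := by
  have h := map_zpow (MulAction.toPermHom (SL(2, ℤ)) (Q N)) g k
  have h2 : (MulAction.toPerm g : Equiv.Perm (Q N)) ^ k = MulAction.toPerm (g ^ k) := h.symm
  rw [h2]
  rfl

theorem ORB_S (N : ℕ) [NeZero N] :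
    2 * Nat.card (MulAction.orbitRel.Quotient
      (Subgroup.zpowers (MulAction.toPerm (ModularGroup.S⁻¹) : Equiv.Perm (Q N))) (Q N)) =
      mu N + nu2 N := by
  classical
  haveI : Fintype (Q N) := Fintype.ofFinite _
  rw [orbits_involution _ (fun x => by
    simp only [MulAction.toPerm_apply]; exact S_inv_smul_S_inv_smul N x), card_fix_inv]
  rfl

theorem ORB_ST (N : ℕ) [NeZero N] :
    3 * Nat.card (MulAction.orbitRel.Quotient
      (Subgroup.zpowers (MulAction.toPerm ((ModularGroup.S * ModularGroup.T)⁻¹) :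
        Equiv.Perm (Q N))) (Q N)) = mu N + 2 * nu3 N := by
  classical
  haveI : Fintype (Q N) := Fintype.ofFinite _
  rw [orbits_order_three _ (fun x => by
    simp only [MulAction.toPerm_apply]; exact ST_inv_smul_cube N x), card_fix_inv]
  rfl

theorem ORB_T (N : ℕ) [NeZero N] :
    Nat.card (MulAction.orbitRel.Quotient
      (Subgroup.zpowers (MulAction.toPerm (ModularGroup.T⁻¹) : Equiv.Perm (Q N))) (Q N)) =
      cusps N := by
  unfold cusps
  refine Nat.card_congr (Quotient.congr (Equiv.refl _) (fun x y => ?_))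
  simp only [Equiv.refl_apply]
  change x ∈ MulAction.orbit _ y ↔ x ∈ MulAction.orbit _ y
  constructor
  · rintro ⟨⟨g, hg⟩, rfl⟩
    obtain ⟨k, rfl⟩ := Subgroup.mem_zpowers_iff.mp hg
    refine ⟨⟨ModularGroup.T ^ (-k), Subgroup.zpow_mem_zpowers _ _⟩, ?_⟩
    change (ModularGroup.T ^ (-k)) • y = ((MulAction.toPerm (ModularGroup.T⁻¹) : Equiv.Perm (Q N)) ^ k) y
    rw [toPerm_zpow_apply, inv_zpow']
  · rintro ⟨⟨g, hg⟩, rfl⟩
    obtain ⟨k, rfl⟩ := Subgroup.mem_zpowers_iff.mp hg
    refine ⟨⟨(MulAction.toPerm (ModularGroup.T⁻¹) : Equiv.Perm (Q N)) ^ (-k),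
      Subgroup.zpow_mem_zpowers _ _⟩, ?_⟩
    change ((MulAction.toPerm (ModularGroup.T⁻¹) : Equiv.Perm (Q N)) ^ (-k)) y
      = (ModularGroup.T ^ k) • y
    rw [toPerm_zpow_apply, inv_zpow', neg_neg]

theorem ORB_one (N : ℕ) [NeZero N] :
    Nat.card (MulAction.orbitRel.Quotient
      (Subgroup.zpowers (1 : Equiv.Perm (Q N))) (Q N)) = mu N := by
  classical
  haveI : Fintype (Q N) := Fintype.ofFinite _
  rw [orbits_one]
  rfl

end Fermat.Agent.S24_helper4_ORB
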