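import Fermat.Agent.S24_Defs
import Fermat.Agent.S24_helper2_A3
import Fermat.Agent.S24_helper15_A1
import Fermat.Agent.S20
import Fermat.Agent.S24_helper20_GCore
import Fermat.Agent.S24_helper6_A2Shapes
import Fermat.Agent.S24_helper23_GEN
import Fermat.Agent.S24_helper4_ORB
import Fermat.Agent.S24_helper3_B2
import Fermat.Agent.S24_helper16_B
import Fermat.Agent.S24_helper21_A4emb
import Fermat.Agent.S24_helper10_LOCfin
import Fermat.Agent.S24_helper10_LOCinf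
import Fermat.Agent.S24_helper23_DEGof
import Fermat.Agent.S24_helper28_DEGle

set_option autoImplicit false

open UpperHalfPlane ModularForm CongruenceSubgroup AlgebraicCurve IntermediateField
open KaehlerDifferential
open scoped MatrixGroups ModularForm Manifold
open Fermat.Agent.S20 Fermat.Agent.S24

namespace Fermat.Agent.S24_helper19_Wire

theorem A4emb {K F : Type*} [Field K] [IsAlgClosed K] [CharZero K] [Field F] [Algebra K F]
    (x : F) (hx : Transcendental K x) (halg : Algebra.IsAlgebraic K⟮x⟯ F)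
    {L : Type*} [Field L] (φ₀ : K →+* L) (ι : F →+* LaurentSeries L)
    (hιK : ∀ a, ι (algebraMap K F a) = HahnSeries.C (φ₀ a))
    (v : Place K F) (hv : ∀ f : F, f ∈ v.toValuationSubring ↔ 0 ≤ (ι f).orderTop)
    (t : F) (ht : v.ord t ≠ 0) :
    v.ordDifferential (D K F t) = v.ord t - 1 :=
  Fermat.Agent.S24_helper21_A4emb.A4emb x hx halg φ₀ ι hιK v hv t ht

/-- the local formula at the places above `t = 0`, for a family of embeddings as in `B2` -/
theorem A4loc {K F : Type*} [Field K] [IsAlgClosed K] [CharZero K] [Field F] [Algebra K F]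
    (t : F) (ht : Transcendental K t) [FiniteDimensional K⟮t⟯ F]
    {L : Type*} [Field L] (φ₀ : K →+* L)
    {I : Type*} [Fintype I] (hI : Fintype.card I = Module.finrank K⟮t⟯ F)
    (ι : I → F →+* LaurentSeries L)
    (hιK : ∀ i a, ι i (algebraMap K F a) = HahnSeries.C (φ₀ a))
    (hιinj : Function.Injective ι)
    (hιt : ∀ i i', ι i t = ι i' t)
    (hord : ∀ i, 0 < (ι i t).order)
    (v : Place K F) (hv : 0 < v.ord t) (s : F) (hs : v.ord s ≠ 0) :
    v.ordDifferential (D K F s) = v.ord s - 1 := by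
  obtain ⟨i, hi⟩ := Fermat.Agent.S24_helper3_B2.B2 t ht φ₀ hI ι hιK hιinj hιt hord v hv
  exact A4emb t ht (Algebra.IsAlgebraic.of_finite _ _) φ₀ (ι i) (hιK i) v hi s hs

theorem B {K F : Type*} [Field K] [IsAlgClosed K] [CharZero K] [Field F] [Algebra K F]
    (t : F) (ht : Transcendental K t) [FiniteDimensional K⟮t⟯ F]
    {L : Type*} [Field L] (φ₀ : K →+* L)
    {I : Type*} [Fintype I] (hI : Fintype.card I = Module.finrank K⟮t⟯ F)
    (ι : I → F →+* LaurentSeries L)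
    (hιK : ∀ i a, ι i (algebraMap K F a) = HahnSeries.C (φ₀ a))
    (hιinj : Function.Injective ι)
    (hιt : ∀ i i', ι i t = ι i' t)
    (e₀ : ℕ) (he₀ : 0 < e₀) (hord : ∀ i, (ι i t).order = (e₀ : ℤ))
    (ζ : L) (hζ : IsPrimitiveRoot ζ e₀)
    (π : Equiv.Perm I)
    (hπ : ∀ i f (n : ℤ), (ι (π i) f).coeff n = ζ ^ n * (ι i f).coeff n) :
    ∃ (S : Finset (Place K F)) (o : S → MulAction.orbitRel.Quotient (Subgroup.zpowers π) I),
      (∀ v, v ∈ S ↔ 0 < v.ord t) ∧ Function.Bijective o :=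
  Fermat.Agent.S24_helper16_B.B t ht φ₀ hI ι hιK hιinj hιt e₀ he₀ hord ζ hζ π hπ

theorem G {K F : Type*} [Field K] [IsAlgClosed K] [CharZero K] [Field F] [Algebra K F]
    [HasCanonicalDivisor (K := K) (F := F)]
    (j : F) (hj : Transcendental K j) [FiniteDimensional K⟮j⟯ F]
    (n : K → ℕ) (ninf : ℕ)
    (hfin : ∀ j₀ : K, ∃ S : Finset (Place K F),
      (∀ v, v ∈ S ↔ 0 < v.ord (j - algebraMap K F j₀)) ∧ S.card = n j₀ ∧
      ∀ v ∈ S, v.ordDifferential (D K F j) = v.ord (j - algebraMap K F j₀) - 1)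
    (hinf : ∃ S : Finset (Place K F), (∀ v, v ∈ S ↔ v.ord j < 0) ∧ S.card = ninf ∧
      ∀ v ∈ S, v.ordDifferential (D K F j) = v.ord j - 1)
    (hn : ∀ j₀ : K, j₀ ≠ 0 → j₀ ≠ 1728 → n j₀ = Module.finrank K⟮j⟯ F)
    {ω : Ω[F⁄K]} (hω : ω ≠ 0) :
    Divisor.degree (canonicalDivisorOf hω) =
      ((Module.finrank K⟮j⟯ F : ℤ) - n 0) + ((Module.finrank K⟮j⟯ F : ℤ) - n 1728)
        - (Module.finrank K⟮j⟯ F : ℤ) - ninf :=
  Fermat.Agent.S24_helper20_GCore.G_core j hj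
    (Fermat.Agent.S24_helper6_A2Shapes.hprin j hj)
    (Fermat.Agent.S24_helper6_A2Shapes.hzeros j hj)
    (Fermat.Agent.S24_helper6_A2Shapes.hpoles j hj) n ninf hfin hinf hn hω

theorem TR (N : ℕ) [NeZero N] : Transcendental Kbar (jElt N) :=
  Fermat.Agent.S24_helper23_GEN.TR N

theorem ORB_S (N : ℕ) [NeZero N] :
    2 * Nat.card (MulAction.orbitRel.Quotient
      (Subgroup.zpowers (MulAction.toPerm (ModularGroup.S⁻¹) : Equiv.Perm (Q N))) (Q N)) =
      mu N + nu2 N := Fermat.Agent.S24_helper4_ORB.ORB_S N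
theorem ORB_ST (N : ℕ) [NeZero N] :
    3 * Nat.card (MulAction.orbitRel.Quotient
      (Subgroup.zpowers (MulAction.toPerm ((ModularGroup.S * ModularGroup.T)⁻¹) :
        Equiv.Perm (Q N))) (Q N)) = mu N + 2 * nu3 N := Fermat.Agent.S24_helper4_ORB.ORB_ST N
theorem ORB_T (N : ℕ) [NeZero N] :
    Nat.card (MulAction.orbitRel.Quotient
      (Subgroup.zpowers (MulAction.toPerm (ModularGroup.T⁻¹) : Equiv.Perm (Q N))) (Q N)) =
      cusps N := Fermat.Agent.S24_helper4_ORB.ORB_T N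
theorem ORB_one (N : ℕ) [NeZero N] :
    Nat.card (MulAction.orbitRel.Quotient
      (Subgroup.zpowers (1 : Equiv.Perm (Q N))) (Q N)) = mu N := Fermat.Agent.S24_helper4_ORB.ORB_one N

theorem LOC_fin (N : ℕ) [NeZero N] (j₀ : Kbar) :
    ∃ (e₀ : ℕ) (ζ : ℂ) (π : Equiv.Perm (Q N))
      (ι : Q N → ModularCurve.modularFunctionFieldBar N →+* LaurentSeries ℂ),
      0 < e₀ ∧ IsPrimitiveRoot ζ e₀ ∧
      (∀ q a, ι q (algebraMap Kbar _ a) = HahnSeries.C (phi0 a)) ∧
      Function.Injective ι ∧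
      (∀ q q', ι q (jElt N) = ι q' (jElt N)) ∧
      (∀ q, (ι q (jElt N - algebraMap Kbar _ j₀)).order = (e₀ : ℤ)) ∧
      (∀ q f (n : ℤ), (ι (π q) f).coeff n = ζ ^ n * (ι q f).coeff n) ∧
      ((j₀ ≠ 0 ∧ j₀ ≠ 1728 → π = 1) ∧
       (j₀ = 1728 → π = MulAction.toPerm (ModularGroup.S⁻¹)) ∧
       (j₀ = 0 → π = MulAction.toPerm ((ModularGroup.S * ModularGroup.T)⁻¹))) :=
  Fermat.Agent.S24_helper10_LOCfin.LOC_fin N j₀

theorem LOC_inf (N : ℕ) [NeZero N] :
    ∃ (ζ : ℂ) (ι : Q N → ModularCurve.modularFunctionFieldBar N →+* LaurentSeries ℂ),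
      IsPrimitiveRoot ζ N ∧
      (∀ q a, ι q (algebraMap Kbar _ a) = HahnSeries.C (phi0 a)) ∧
      Function.Injective ι ∧
      (∀ q q', ι q (jElt N) = ι q' (jElt N)) ∧
      (∀ q, (ι q (jElt N)⁻¹).order = (N : ℤ)) ∧
      (∀ q f (n : ℤ), (ι (MulAction.toPerm (ModularGroup.T⁻¹) q) f).coeff n =
        ζ ^ n * (ι q f).coeff n) :=
  Fermat.Agent.S24_helper10_LOCinf.LOC_inf N

theorem DEG (N : ℕ) [NeZero N] :
    FiniteDimensional Kbar⟮jElt N⟯ (ModularCurve.modularFunctionFieldBar N) ∧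
      Module.finrank Kbar⟮jElt N⟯ (ModularCurve.modularFunctionFieldBar N) = mu N := by
  obtain ⟨ζ, ι, -, hιK, hinj, hιj, -, -⟩ := Fermat.Agent.S24_helper10_LOCinf.LOC_inf N
  exact Fermat.Agent.S24_helper23_DEGof.DEG_of N (Fermat.Agent.S24_helper28_DEGle.DEG_le N) ι hinj
    (fun q q' a => by rw [hιK, hιK]) hιj

end Fermat.Agent.S24_helper19_Wire
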