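import Mathlib
import Fermat.Agent.S18_helper14_ADefs
import Fermat.Agent.S24_helper19_Wire
import Fermat.Agent.S24_helper28_DEGleAlg

/-!
# S18, block A, piece X-A-FIN: the function field is finite over `K1(j)`

For every field `K1` of characteristic zero the field
`F1 = modularFunctionFieldFullC K1 N = K1(j(q^d) : d ∣ N) ⊆ K1((q))` is a finite extension of
`K1(j)`.

Route: the landed degree theorem of S24 over `ℚ̄` gives a nonzero polynomial relation
`Q(j, j(q^d)) = 0` with coefficients in `ℚ̄`; it descends to `ℚ` (linear disjointness,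
`S24_helper28_DEGleAlg.descend_relation`) and then ascends to `K1` along the coefficientwise map.

* `S18FIN_relation`          : the relation over `K1`;
* `S18FIN_transcendental`    : `j` is transcendental over `K1` (any field);
* `S18FIN_isAlgebraic`       : `j(q^d)` is algebraic over `K1(j)` inside `K1((q))`;
* `S18FIN_finiteDimensional` : `FiniteDimensional K1⟮j⟯ F1` (Mathlib form, `j` as an element of
  `F1`), and `S18FIN_finiteDimensional_inv` for `j⁻¹`;
* `F1L_finite`               : the elementwise form `Setup.finite` for the carriers of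
  `S18_helper14_ADefs`.
-/

set_option autoImplicit false

noncomputable section

open ModularCurve IntermediateField Polynomial
open Fermat.Agent.S24 Fermat.Agent.S24_helper28_DEGleAlg
open Fermat.Agent.S18A

namespace Fermat.Agent.S18_helper13_FIN

/-! ### The polynomial relation -/

/-- a nonzero polynomial relation between `j` and `j(q^d)` over `ℚ̄`, from the degree theorem -/
theorem S18FIN_relation_bar (N : ℕ) [NeZero N] (d : ℕ) [NeZero d] (hd : d ∣ N) :
    ∃ Q : Polynomial (Polynomial Kbar), Q ≠ 0 ∧ ev2 (jLaur 1) (jLaur d) Q = 0 := by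
  classical
  obtain ⟨hfd, -⟩ := Fermat.Agent.S24_helper19_Wire.DEG N
  have halg : Algebra.IsAlgebraic Kbar⟮jElt N⟯ (modularFunctionFieldBar N) :=
    Algebra.IsAlgebraic.of_finite _ _
  have h1 : Algebra.IsAlgebraic (Algebra.adjoin Kbar {jElt N}) (modularFunctionFieldBar N) :=
    (IntermediateField.isAlgebraic_adjoin_iff_top (F := Kbar) (s := {jElt N})
      (S := modularFunctionFieldBar N)).mp halg
  obtain ⟨p, hp0, hp⟩ := h1.isAlgebraic (jF N d hd)
  -- the surjection `ℚ̄[J] → ℚ̄[j]`
  let g : Algebra.adjoin Kbar {jElt N} := ⟨jElt N, Algebra.self_mem_adjoin_singleton Kbar _⟩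
  let φ : Polynomial Kbar →+* Algebra.adjoin Kbar {jElt N} :=
    (Polynomial.aeval g : Polynomial Kbar →ₐ[Kbar] _).toRingHom
  have hφ : Function.Surjective φ := by
    rintro ⟨a, ha⟩
    rw [Algebra.adjoin_singleton_eq_range_aeval] at ha
    obtain ⟨q, hq⟩ := ha
    refine ⟨q, Subtype.ext ?_⟩
    show ((Polynomial.aeval g q : Algebra.adjoin Kbar {jElt N}) : modularFunctionFieldBar N) = a
    rw [Polynomial.aeval_subalgebra_coe]
    exact hq
  obtain ⟨Q, hQ⟩ := Polynomial.map_surjective φ hφ p
  refine ⟨Q, ?_, ?_⟩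
  · rintro rfl
    rw [Polynomial.map_zero] at hQ
    exact hp0 hQ.symm
  · rw [← hQ, Polynomial.aeval_def, Polynomial.eval₂_map] at hp
    let v : modularFunctionFieldBar N →+* LaurentSeries Kbar :=
      (modularFunctionFieldBar N).val.toRingHom
    have h2 := congrArg v hp
    rw [map_zero] at h2
    have h3 := Polynomial.hom_eval₂ Q ((algebraMap (Algebra.adjoin Kbar {jElt N})
      (modularFunctionFieldBar N)).comp φ) v (jF N d hd)
    have h4 : v.comp
        ((algebraMap (Algebra.adjoin Kbar {jElt N}) (modularFunctionFieldBar N)).comp φ)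
        = Polynomial.eval₂RingHom (HahnSeries.C : Kbar →+* LaurentSeries Kbar) (jLaur 1) := by
      apply Polynomial.ringHom_ext
      · intro c
        simp only [φ, v, RingHom.comp_apply, AlgHom.toRingHom_eq_coe, RingHom.coe_coe,
          Polynomial.aeval_C, Polynomial.coe_eval₂RingHom, Polynomial.eval₂_C]
        rw [HahnSeries.C_apply, ← algebraMap_laurentSeries_eq_single]
        rfl
      · simp only [φ, v, RingHom.comp_apply, AlgHom.toRingHom_eq_coe, RingHom.coe_coe,
          Polynomial.aeval_X, Polynomial.coe_eval₂RingHom, Polynomial.eval₂_X]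
        rfl
    unfold ev2
    rw [Polynomial.coe_eval₂RingHom, ← h4]
    have h5 : v (jF N d hd) = jLaur d := rfl
    rw [← h5, ← h3]
    exact h2

/-- a nonzero polynomial relation between `j` and `j(q^d)` over `ℚ` -/
theorem S18FIN_relation_rat (N : ℕ) [NeZero N] (d : ℕ) [NeZero d] (hd : d ∣ N) :
    ∃ Q : Polynomial (Polynomial ℚ), Q ≠ 0 ∧
      ev2 (jqModC ℚ) (qExpand ℚ d (jqModC ℚ)) Q = 0 := by
  obtain ⟨P, hP0, hP⟩ := S18FIN_relation_bar N d hd
  have h1 : coeffMap (algebraMap ℚ Kbar) (jqModC ℚ) = jLaur 1 := by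
    rw [jLaur, coeffEmb, qExpand_one_apply]
    rfl
  have h2 : coeffMap (algebraMap ℚ Kbar) (qExpand ℚ d (jqModC ℚ)) = jLaur d := rfl
  obtain ⟨Q, hQ0, -, hQ⟩ := descend_relation (K := ℚ) (L := Kbar) (jqModC ℚ)
    (qExpand ℚ d (jqModC ℚ)) P hP0 (by rw [h1, h2]; exact hP)
  exact ⟨Q, hQ0, hQ⟩

/-- the two-variable evaluation commutes with coefficientwise maps -/
theorem S18FIN_ev2_coeffMap {K L : Type*} [Field K] [Field L] (f : K →+* L)
    (u v : LaurentSeries K) (Q : Polynomial (Polynomial K)) :
    ev2 (coeffMap f u) (coeffMap f v) (Q.map (Polynomial.mapRingHom f))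
      = coeffMap f (ev2 u v Q) := by
  unfold ev2
  rw [Polynomial.coe_eval₂RingHom, Polynomial.coe_eval₂RingHom, Polynomial.eval₂_map,
    Polynomial.hom_eval₂]
  congr 1
  apply Polynomial.ringHom_ext
  · intro c
    simp only [RingHom.comp_apply, Polynomial.coe_mapRingHom, Polynomial.map_C,
      Polynomial.coe_eval₂RingHom, Polynomial.eval₂_C]
    rw [HahnSeries.C_apply, HahnSeries.C_apply, coeffMap_single]
  · simp only [RingHom.comp_apply, Polynomial.coe_mapRingHom, Polynomial.map_X,
      Polynomial.coe_eval₂RingHom, Polynomial.eval₂_X]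

/-- a nonzero polynomial relation between `j` and `j(q^d)` over any field of characteristic
zero -/
theorem S18FIN_relation (K1 : Type*) [Field K1] [CharZero K1] (N : ℕ) [NeZero N]
    (d : ℕ) [NeZero d] (hd : d ∣ N) :
    ∃ Q : Polynomial (Polynomial K1), Q ≠ 0 ∧
      ev2 (jqModC K1) (qExpand K1 d (jqModC K1)) Q = 0 := by
  obtain ⟨Q, hQ0, hQ⟩ := S18FIN_relation_rat N d hd
  refine ⟨Q.map (Polynomial.mapRingHom (algebraMap ℚ K1)), ?_, ?_⟩
  · intro h0
    apply hQ0
    apply Polynomial.map_injective (Polynomial.mapRingHom (algebraMap ℚ K1))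
      (Polynomial.map_injective _ (algebraMap ℚ K1).injective)
    rw [h0, Polynomial.map_zero]
  · have h := S18FIN_ev2_coeffMap (algebraMap ℚ K1) (jqModC ℚ) (qExpand ℚ d (jqModC ℚ)) Q
    rw [hQ, map_zero, coeffMap_qExpand, coeffMap_jqModC] at h
    exact h

/-- `j` is transcendental over the constants -/
theorem S18FIN_transcendental (K1 : Type*) [Field K1] : Transcendental K1 (jqModC K1) := by
  intro h
  obtain ⟨c, hc⟩ := Fermat.Agent.S18_helper13_GAUSS.mem_range_C_of_isAlgebraic h
  have h1 := coeff_jqModC_neg_one K1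
  rw [hc, HahnSeries.C_apply, HahnSeries.coeff_single_of_ne (by norm_num)] at h1
  exact zero_ne_one h1

/-! ### Algebraicity and finiteness -/

/-- a two-variable relation gives algebraicity over `K(u)`, for a field `F` embedded in
`K((q))` -/
theorem S18FIN_isAlgebraic_of_relation {K1 F : Type*} [Field K1] [Field F] [Algebra K1 F]
    (ι : F →+* LaurentSeries K1) (hι : ∀ a : K1, ι (algebraMap K1 F a) = HahnSeries.C a)
    (u v : F) (hu : Transcendental K1 u) (Q : Polynomial (Polynomial K1)) (hQ0 : Q ≠ 0)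
    (hQ : ev2 (ι u) (ι v) Q = 0) : IsAlgebraic K1⟮u⟯ v := by
  have hgenT : Transcendental K1 (IntermediateField.AdjoinSimple.gen K1 u) := by
    intro halg
    apply hu
    obtain ⟨p, hp0, hp⟩ := halg
    refine ⟨p, hp0, ?_⟩
    have := congrArg (algebraMap K1⟮u⟯ F) hp
    rwa [← Polynomial.aeval_algebraMap_apply, IntermediateField.AdjoinSimple.algebraMap_gen,
      map_zero] at this
  let φ : Polynomial K1 →+* K1⟮u⟯ :=
    (Polynomial.aeval (IntermediateField.AdjoinSimple.gen K1 u) : Polynomial K1 →ₐ[K1] K1⟮u⟯)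
  have hφinj : Function.Injective φ := transcendental_iff_injective.mp hgenT
  refine ⟨Q.map φ, ?_, ?_⟩
  · intro h0
    apply hQ0
    apply Polynomial.map_injective φ hφinj
    rw [h0, Polynomial.map_zero]
  · apply ι.injective
    rw [map_zero, Polynomial.aeval_def, Polynomial.eval₂_map, Polynomial.hom_eval₂]
    have h1 : ι.comp ((algebraMap K1⟮u⟯ F).comp φ)
        = Polynomial.eval₂RingHom (HahnSeries.C : K1 →+* LaurentSeries K1) (ι u) := by
      apply Polynomial.ringHom_ext
      · intro c
        simp only [φ, RingHom.comp_apply, RingHom.coe_coe,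
          Polynomial.aeval_C, Polynomial.coe_eval₂RingHom, Polynomial.eval₂_C]
        rw [← hι c]
        rfl
      · simp only [φ, RingHom.comp_apply, RingHom.coe_coe,
          Polynomial.aeval_X, Polynomial.coe_eval₂RingHom, Polynomial.eval₂_X]
        rfl
    rw [h1]
    exact hQ

section Field

variable (K1 : Type*) [Field K1] (N : ℕ)

/-- `j` as an element of the function field -/
def S18FIN_jE : modularFunctionFieldFullC K1 N := ⟨jqModC K1, jqModC_mem_full K1 N⟩

@[simp] theorem S18FIN_coe_jE : ((S18FIN_jE K1 N : modularFunctionFieldFullC K1 N) :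
    LaurentSeries K1) = jqModC K1 := rfl

/-- the generators `j(q^d)`, `d ∣ N`, as elements of the function field -/
def S18FIN_gens : Set (modularFunctionFieldFullC K1 N) :=
  {g | (g : LaurentSeries K1) ∈ divisorExpansionsC K1 N}

theorem S18FIN_divisorExpansionsC_finite [NeZero N] : (divisorExpansionsC K1 N).Finite := by
  classical
  let g : ℕ → LaurentSeries K1 := fun d =>
    if h : d = 0 then 0 else (haveI : NeZero d := ⟨h⟩; qExpand K1 d (jqModC K1))
  refine ((Finset.range (N + 1)).finite_toSet.image g).subset ?_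
  rintro x ⟨d, hd0, hd, rfl⟩
  refine ⟨d, ?_, ?_⟩
  · rw [Finset.coe_range, Set.mem_Iio]
    exact Nat.lt_succ_of_le (Nat.le_of_dvd (Nat.pos_of_ne_zero (NeZero.ne N)) hd)
  · show (if h : d = 0 then 0 else (haveI : NeZero d := ⟨h⟩; qExpand K1 d (jqModC K1))) = _
    rw [dif_neg (NeZero.ne d)]

theorem S18FIN_gens_finite [NeZero N] : (S18FIN_gens K1 N).Finite :=
  (S18FIN_divisorExpansionsC_finite K1 N).preimage Subtype.val_injective.injOn

theorem S18FIN_adjoin_gens : IntermediateField.adjoin K1 (S18FIN_gens K1 N) = ⊤ := by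
  apply IntermediateField.lift_injective (modularFunctionFieldFullC K1 N)
  rw [IntermediateField.lift_adjoin, IntermediateField.lift_top]
  have h : (Subtype.val '' S18FIN_gens K1 N : Set (LaurentSeries K1)) = divisorExpansionsC K1 N := by
    ext x
    constructor
    · rintro ⟨g, hg, rfl⟩
      exact hg
    · intro hx
      exact ⟨⟨x, IntermediateField.subset_adjoin K1 _ hx⟩, hx, rfl⟩
  rw [h]
  rfl

theorem S18FIN_transcendental_jE : Transcendental K1 (S18FIN_jE K1 N) := by
  intro h
  apply S18FIN_transcendental K1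
  obtain ⟨p, hp0, hp⟩ := h
  refine ⟨p, hp0, ?_⟩
  have := congrArg (algebraMap (modularFunctionFieldFullC K1 N) (LaurentSeries K1)) hp
  rwa [← Polynomial.aeval_algebraMap_apply, map_zero] at this

theorem S18FIN_isIntegral_gens [CharZero K1] [NeZero N] (g : modularFunctionFieldFullC K1 N)
    (hg : g ∈ S18FIN_gens K1 N) : IsIntegral K1⟮S18FIN_jE K1 N⟯ g := by
  obtain ⟨d, hd0, hd, hgd⟩ := hg
  obtain ⟨Q, hQ0, hQ⟩ := S18FIN_relation K1 N d hd
  refine (S18FIN_isAlgebraic_of_relation
    ((modularFunctionFieldFullC K1 N).val.toRingHom) ?_ (S18FIN_jE K1 N) g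
    (S18FIN_transcendental_jE K1 N) Q hQ0 ?_).isIntegral
  · intro a
    show algebraMap K1 (LaurentSeries K1) a = _
    rw [algebraMap_laurentSeries_eq_single, HahnSeries.C_apply]
  · show ev2 (jqModC K1) (g : LaurentSeries K1) Q = 0
    rw [hgd]
    exact hQ

/-- **X-A-FIN, Mathlib form.** The function field `K1(j(q^d) : d ∣ N)` is finite over
`K1(j)`. -/
theorem S18FIN_finiteDimensional [CharZero K1] [NeZero N] :
    FiniteDimensional K1⟮S18FIN_jE K1 N⟯ (modularFunctionFieldFullC K1 N) := by
  have : Finite (S18FIN_gens K1 N) := (S18FIN_gens_finite K1 N).to_subtype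
  have h1 : FiniteDimensional K1⟮S18FIN_jE K1 N⟯
      (IntermediateField.adjoin K1⟮S18FIN_jE K1 N⟯ (S18FIN_gens K1 N)) :=
    IntermediateField.finiteDimensional_adjoin (fun g hg => S18FIN_isIntegral_gens K1 N g hg)
  have h2 : IntermediateField.adjoin K1⟮S18FIN_jE K1 N⟯ (S18FIN_gens K1 N) = ⊤ := by
    rw [eq_top_iff]
    intro x _
    have hx : x ∈ IntermediateField.adjoin K1 (S18FIN_gens K1 N) := by
      rw [S18FIN_adjoin_gens]
      exact IntermediateField.mem_top
    induction hx using IntermediateField.adjoin_induction with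
    | mem y hy => exact IntermediateField.subset_adjoin _ _ hy
    | algebraMap a =>
      exact IntermediateField.algebraMap_mem _
        (⟨algebraMap K1 (modularFunctionFieldFullC K1 N) a,
          IntermediateField.algebraMap_mem _ a⟩ : K1⟮S18FIN_jE K1 N⟯)
    | add x y _ _ h1 h2 => exact add_mem (h1 trivial) (h2 trivial)
    | inv x _ h1 => exact inv_mem (h1 trivial)
    | mul x y _ _ h1 h2 => exact mul_mem (h1 trivial) (h2 trivial)
  rw [h2] at h1
  exact (IntermediateField.topEquiv (F := K1⟮S18FIN_jE K1 N⟯)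
    (E := modularFunctionFieldFullC K1 N)).toLinearEquiv.finiteDimensional



/-- the function field is algebraic over `K1(j)` -/
theorem S18FIN_isAlgebraic_field [CharZero K1] [NeZero N] :
    Algebra.IsAlgebraic K1⟮S18FIN_jE K1 N⟯ (modularFunctionFieldFullC K1 N) :=
  haveI := S18FIN_finiteDimensional K1 N
  Algebra.IsAlgebraic.of_finite _ _

/-- **X-A-FIN, Mathlib form, chart at infinity.** The function field is finite over
`K1(j⁻¹)`. -/
theorem S18FIN_finiteDimensional_inv [CharZero K1] [NeZero N] :
    FiniteDimensional K1⟮(S18FIN_jE K1 N)⁻¹⟯ (modularFunctionFieldFullC K1 N) :=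
  haveI := S18FIN_finiteDimensional K1 N
  Fermat.Agent.S24_helper6_A2.finiteDimensional_adjoin_inv (S18FIN_jE K1 N)

/-- **X-A-FIN, core fact.** `j(q^d)` is algebraic over `K1(j)`, inside `K1((q))`. -/
theorem S18FIN_isAlgebraic [CharZero K1] [NeZero N] (d : ℕ) [NeZero d] (hd : d ∣ N) :
    IsAlgebraic K1⟮jqModC K1⟯ (qExpand K1 d (jqModC K1)) := by
  obtain ⟨Q, hQ0, hQ⟩ := S18FIN_relation K1 N d hd
  refine S18FIN_isAlgebraic_of_relation (RingHom.id _) ?_ _ _ (S18FIN_transcendental K1) Q hQ0 hQ
  intro a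
  show algebraMap K1 (LaurentSeries K1) a = _
  rw [algebraMap_laurentSeries_eq_single, HahnSeries.C_apply]

end Field

/-! ### The elementwise form -/

section Elementwise

variable (O K1 : Type*) [CommRing O] [Field K1] [Algebra O K1] [IsFractionRing O K1] (N : ℕ)

/-- constants of `K1` lie in the subfield generated by the constants of `O` -/
theorem S18FIN_C_mem_closure (S : Set (LaurentSeries K1)) (c : K1) :
    (HahnSeries.C c : LaurentSeries K1) ∈
      Subfield.closure ((OL O K1 : Set (LaurentSeries K1)) ∪ S) := by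
  obtain ⟨a, b, hb, rfl⟩ := IsFractionRing.div_surjective (A := O) c
  rw [map_div₀]
  exact div_mem (Subfield.subset_closure (Or.inl (C_mem_OL O K1 a)))
    (Subfield.subset_closure (Or.inl (C_mem_OL O K1 b)))

/-- elements of `K1(j)` lie in the subfield generated by the constants of `O` and `j` -/
theorem S18FIN_coe_mem_closure (e : modularFunctionFieldFullC K1 N)
    (he : e ∈ K1⟮S18FIN_jE K1 N⟯) :
    (e : LaurentSeries K1) ∈
      Subfield.closure ((OL O K1 : Set (LaurentSeries K1)) ∪ {jqModC K1}) := by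
  induction he using IntermediateField.adjoin_induction with
  | mem y hy =>
    rw [Set.mem_singleton_iff] at hy
    rw [hy]
    exact Subfield.subset_closure (Or.inr rfl)
  | algebraMap a =>
    have h : ((algebraMap K1 (modularFunctionFieldFullC K1 N) a : modularFunctionFieldFullC K1 N) :
        LaurentSeries K1) = HahnSeries.C a := by
      show algebraMap K1 (LaurentSeries K1) a = _
      rw [algebraMap_laurentSeries_eq_single, HahnSeries.C_apply]
    rw [h]
    exact S18FIN_C_mem_closure O K1 _ a
  | add x y _ _ h1 h2 => exact add_mem h1 h2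
  | inv x _ h1 => exact inv_mem h1
  | mul x y _ _ h1 h2 => exact mul_mem h1 h2

/-- **X-A-FIN, elementwise form** (`Setup.finite` for the carriers of `S18_helper14_ADefs`). -/
theorem F1L_finite [CharZero K1] [NeZero N] :
    ∃ s : Finset (LaurentSeries K1), ∀ x ∈ F1L K1 N,
      ∃ c : LaurentSeries K1 → LaurentSeries K1,
        (∀ y, c y ∈ Subfield.closure ((OL O K1 : Set (LaurentSeries K1)) ∪ {jqModC K1})) ∧
        x = ∑ y ∈ s, c y * y := by
  classical
  have hfd := S18FIN_finiteDimensional K1 N
  obtain ⟨t, ht⟩ := (Module.finite_def.mp hfd : (⊤ : Submodule K1⟮S18FIN_jE K1 N⟯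
    (modularFunctionFieldFullC K1 N)).FG)
  refine ⟨t.image Subtype.val, ?_⟩
  intro x hx
  have hxt : (⟨x, hx⟩ : modularFunctionFieldFullC K1 N) ∈
      Submodule.span K1⟮S18FIN_jE K1 N⟯ (t : Set (modularFunctionFieldFullC K1 N)) := by
    rw [ht]
    exact Submodule.mem_top
  obtain ⟨f, -, hf⟩ := Submodule.mem_span_finset.mp hxt
  refine ⟨fun y => if hy : y ∈ modularFunctionFieldFullC K1 N then
    (((f ⟨y, hy⟩ : K1⟮S18FIN_jE K1 N⟯) : modularFunctionFieldFullC K1 N) : LaurentSeries K1)
    else 0, ?_, ?_⟩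
  · intro y
    show (if hy : y ∈ modularFunctionFieldFullC K1 N then
      (((f ⟨y, hy⟩ : K1⟮S18FIN_jE K1 N⟯) : modularFunctionFieldFullC K1 N) : LaurentSeries K1)
      else 0) ∈ _
    by_cases hy : y ∈ modularFunctionFieldFullC K1 N
    · rw [dif_pos hy]
      exact S18FIN_coe_mem_closure O K1 N _ (f ⟨y, hy⟩).2
    · rw [dif_neg hy]
      exact zero_mem _
  · rw [Finset.sum_image (fun a _ b _ h => Subtype.val_injective h)]
    have h1 := congrArg ((modularFunctionFieldFullC K1 N).val.toRingHom) hf
    rw [map_sum] at h1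
    have h2 : (modularFunctionFieldFullC K1 N).val.toRingHom ⟨x, hx⟩ = x := rfl
    rw [h2] at h1
    rw [← h1]
    refine Finset.sum_congr rfl (fun a _ => ?_)
    show _ = (if hy : (a : LaurentSeries K1) ∈ modularFunctionFieldFullC K1 N then
      (((f ⟨a, hy⟩ : K1⟮S18FIN_jE K1 N⟯) : modularFunctionFieldFullC K1 N) : LaurentSeries K1)
      else 0) * (a : LaurentSeries K1)
    rw [dif_pos a.2]
    rfl

end Elementwise

end Fermat.Agent.S18_helper13_FIN
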