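import Mathlib
import Fermat.Prelude.Def_ModularCurve_LaurentCoeff

/-!
# S18, abstract piece P13 (corrected form): the Gauss valuation ring over a discrete valuation ring

Let `O` be a domain with a nonzero element `π`, an injection `inc : O → K` into a field and a
ring homomorphism `res : O → κ` to a field with kernel `π O`, such that every nonzero element of
`O` is `π ^ n` times an element with nonzero residue (`GaussData`; e.g. a discrete valuation
ring with uniformiser `π`).  The *Gauss valuation ring* is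

`V = {x ∈ K((q)) | ∃ a b ∈ O((q)), res b ≠ 0, b x = a}`.

* `Vring`, `red : V →+* κ((q))`, `redFun_incS`;
* `exists_eq_mul_of_redFun_eq_zero`, `redFun_pi_mul`: the kernel of `red` is `π V`;
* `exists_normalize`: every nonzero series over `O` is `π ^ n` times one with nonzero reduction;
* `inv_mem_Vring`: elements with nonzero reduction are units of `V`;
* `exists_zpow_mul`, `mem_or_inv_mem`: `V` is a valuation ring of the fractions of `O((q))`;
* `mem_Vring_of_isIntegral`: `V` is integrally closed;
* `mem_range_C_of_isAlgebraic`: `K` is algebraically closed in `K((q))`;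
* `eq_zero_of_sum_C_mul_eq_zero`: linear disjointness of `K₁((q))` and `K` over `K₁`.
-/

set_option autoImplicit false

noncomputable section

namespace Fermat.Agent.S18_helper13_GAUSS

open ModularCurve

/-- The data needed for the Gauss valuation ring. -/
structure GaussData (O K κ : Type*) [CommRing O] [IsDomain O] [Field K] [Field κ] where
  /-- the inclusion into the fraction field (or any bigger field) -/
  inc : O →+* K
  /-- the residue map -/
  res : O →+* κ
  /-- the uniformiser -/
  π : O
  inc_injective : Function.Injective inc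
  π_ne_zero : π ≠ 0
  res_eq_zero_iff : ∀ x : O, res x = 0 ↔ ∃ y : O, x = π * y
  exists_normalize : ∀ x : O, x ≠ 0 → ∃ (n : ℕ) (u : O), x = π ^ n * u ∧ res u ≠ 0

variable {O K κ : Type*} [CommRing O] [IsDomain O] [Field K] [Field κ] (D : GaussData O K κ)

namespace GaussData

/-- The coefficientwise inclusion `O((q)) → K((q))`. -/
def incS : LaurentSeries O →+* LaurentSeries K := coeffMap D.inc

/-- The coefficientwise reduction `O((q)) → κ((q))`. -/
def redS : LaurentSeries O →+* LaurentSeries κ := coeffMap D.res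

/-- The uniformiser as a constant series over `O`. -/
def πO : LaurentSeries O := HahnSeries.C D.π

/-- The uniformiser as a constant series over `K`. -/
def πK : LaurentSeries K := HahnSeries.C (D.inc D.π)

@[simp] theorem incS_coeff (a : LaurentSeries O) (n : ℤ) :
    (D.incS a).coeff n = D.inc (a.coeff n) := rfl

@[simp] theorem redS_coeff (a : LaurentSeries O) (n : ℤ) :
    (D.redS a).coeff n = D.res (a.coeff n) := rfl

theorem incS_injective : Function.Injective D.incS := by
  intro a b h
  ext n
  have := congrArg (fun x => x.coeff n) h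
  exact D.inc_injective (by simpa using this)

theorem incS_eq_zero_iff (a : LaurentSeries O) : D.incS a = 0 ↔ a = 0 :=
  map_eq_zero_iff D.incS D.incS_injective

theorem incS_ne_zero {b : LaurentSeries O} (hb : b ≠ 0) : D.incS b ≠ 0 :=
  fun h => hb ((D.incS_eq_zero_iff b).mp h)

theorem ne_zero_of_redS_ne_zero {b : LaurentSeries O} (hb : D.redS b ≠ 0) : b ≠ 0 := by
  rintro rfl
  exact hb (map_zero _)

theorem incS_πO : D.incS D.πO = D.πK := by
  rw [incS, πO, πK, HahnSeries.C_apply, coeffMap_single, HahnSeries.C_apply]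

theorem res_π : D.res D.π = 0 := (D.res_eq_zero_iff D.π).mpr ⟨1, (mul_one _).symm⟩

theorem redS_πO : D.redS D.πO = 0 := by
  rw [redS, πO, HahnSeries.C_apply, coeffMap_single, res_π, HahnSeries.single_eq_zero]

theorem πO_ne_zero : D.πO ≠ 0 := by
  rw [πO, HahnSeries.C_apply]
  exact HahnSeries.single_ne_zero D.π_ne_zero

theorem πK_ne_zero : D.πK ≠ 0 := by
  rw [← incS_πO]
  exact D.incS_ne_zero D.πO_ne_zero

theorem πO_mul_coeff (a : LaurentSeries O) (k : ℤ) : (D.πO * a).coeff k = D.π * a.coeff k := by
  rw [πO, HahnSeries.C_mul_eq_smul, HahnSeries.coeff_smul, smul_eq_mul]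

/-! ### The valuation ring -/

/-- The valuation ring of the Gauss valuation, as a subring of `K((q))`. -/
def Vring : Subring (LaurentSeries K) where
  carrier := {x | ∃ a b : LaurentSeries O, D.redS b ≠ 0 ∧ D.incS b * x = D.incS a}
  mul_mem' := by
    rintro x y ⟨a, b, hb, h⟩ ⟨a', b', hb', h'⟩
    refine ⟨a * a', b * b', ?_, ?_⟩
    · rw [map_mul]; exact mul_ne_zero hb hb'
    · rw [map_mul, map_mul, ← h, ← h']; ring
  one_mem' := ⟨1, 1, by rw [map_one]; exact one_ne_zero, by simp⟩
  add_mem' := by
    rintro x y ⟨a, b, hb, h⟩ ⟨a', b', hb', h'⟩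
    refine ⟨a * b' + a' * b, b * b', ?_, ?_⟩
    · rw [map_mul]; exact mul_ne_zero hb hb'
    · rw [map_mul, map_add, map_mul, map_mul, ← h, ← h']; ring
  zero_mem' := ⟨0, 1, by rw [map_one]; exact one_ne_zero, by simp⟩
  neg_mem' := by
    rintro x ⟨a, b, hb, h⟩
    exact ⟨-a, b, hb, by rw [map_neg, ← h]; ring⟩

theorem mem_Vring_iff {x : LaurentSeries K} :
    x ∈ D.Vring ↔ ∃ a b : LaurentSeries O, D.redS b ≠ 0 ∧ D.incS b * x = D.incS a :=
  Iff.rfl

theorem incS_mem_Vring (a : LaurentSeries O) : D.incS a ∈ D.Vring :=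
  ⟨a, 1, by rw [map_one]; exact one_ne_zero, by simp⟩

theorem πK_mem_Vring : D.πK ∈ D.Vring := by
  rw [← incS_πO]
  exact D.incS_mem_Vring _

open Classical in
/-- Reduction of an element of the valuation ring (junk value `0` outside). -/
def redFun (x : LaurentSeries K) : LaurentSeries κ :=
  if h : x ∈ D.Vring then D.redS h.choose / D.redS h.choose_spec.choose else 0

theorem redFun_eq {x : LaurentSeries K} {a b : LaurentSeries O} (hb : D.redS b ≠ 0)
    (h : D.incS b * x = D.incS a) : D.redFun x = D.redS a / D.redS b := by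
  have hx : x ∈ D.Vring := ⟨a, b, hb, h⟩
  rw [redFun, dif_pos hx]
  obtain ⟨hb', h'⟩ := hx.choose_spec.choose_spec
  set a' := hx.choose
  set b' := hx.choose_spec.choose
  rw [div_eq_div_iff hb' hb, ← map_mul, ← map_mul]
  congr 1
  apply D.incS_injective
  rw [map_mul, map_mul, ← h, ← h']
  ring

/-- Reduction as a ring homomorphism on the valuation ring. -/
def red : D.Vring →+* LaurentSeries κ where
  toFun x := D.redFun (x : LaurentSeries K)
  map_one' := by
    rw [D.redFun_eq (a := 1) (b := 1) (by rw [map_one]; exact one_ne_zero) (by simp)]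
    simp
  map_mul' := by
    rintro ⟨x, a, b, hb, h⟩ ⟨y, a', b', hb', h'⟩
    show D.redFun (x * y) = D.redFun x * D.redFun y
    rw [D.redFun_eq hb h, D.redFun_eq hb' h',
      D.redFun_eq (a := a * a') (b := b * b') (by rw [map_mul]; exact mul_ne_zero hb hb')
        (by rw [map_mul, map_mul, ← h, ← h']; ring), map_mul, map_mul]
    field_simp
  map_zero' := by
    rw [D.redFun_eq (a := 0) (b := 1) (by rw [map_one]; exact one_ne_zero) (by simp)]
    simp
  map_add' := by
    rintro ⟨x, a, b, hb, h⟩ ⟨y, a', b', hb', h'⟩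
    show D.redFun (x + y) = D.redFun x + D.redFun y
    rw [D.redFun_eq hb h, D.redFun_eq hb' h',
      D.redFun_eq (a := a * b' + a' * b) (b := b * b') (by rw [map_mul]; exact mul_ne_zero hb hb')
        (by rw [map_mul, map_add, map_mul, map_mul, ← h, ← h']; ring), map_mul, map_add, map_mul,
      map_mul]
    field_simp

theorem red_apply (x : D.Vring) : D.red x = D.redFun (x : LaurentSeries K) := rfl

theorem redFun_incS (a : LaurentSeries O) : D.redFun (D.incS a) = D.redS a := by
  rw [D.redFun_eq (a := a) (b := 1) (by rw [map_one]; exact one_ne_zero) (by simp)]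
  simp

theorem redFun_of_not_mem {x : LaurentSeries K} (hx : x ∉ D.Vring) : D.redFun x = 0 := by
  rw [redFun, dif_neg hx]

theorem redFun_mul {x y : LaurentSeries K} (hx : x ∈ D.Vring) (hy : y ∈ D.Vring) :
    D.redFun (x * y) = D.redFun x * D.redFun y := by
  obtain ⟨a, b, hb, h⟩ := hx
  obtain ⟨a', b', hb', h'⟩ := hy
  rw [D.redFun_eq hb h, D.redFun_eq hb' h',
    D.redFun_eq (a := a * a') (b := b * b') (by rw [map_mul]; exact mul_ne_zero hb hb')
      (by rw [map_mul, map_mul, ← h, ← h']; ring), map_mul, map_mul]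
  field_simp

theorem redFun_add {x y : LaurentSeries K} (hx : x ∈ D.Vring) (hy : y ∈ D.Vring) :
    D.redFun (x + y) = D.redFun x + D.redFun y := by
  obtain ⟨a, b, hb, h⟩ := hx
  obtain ⟨a', b', hb', h'⟩ := hy
  rw [D.redFun_eq hb h, D.redFun_eq hb' h',
    D.redFun_eq (a := a * b' + a' * b) (b := b * b') (by rw [map_mul]; exact mul_ne_zero hb hb')
      (by rw [map_mul, map_add, map_mul, map_mul, ← h, ← h']; ring), map_mul, map_add, map_mul,
    map_mul]
  field_simp

theorem redFun_neg {x : LaurentSeries K} (hx : x ∈ D.Vring) :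
    D.redFun (-x) = -D.redFun x := by
  obtain ⟨a, b, hb, h⟩ := hx
  rw [D.redFun_eq hb h, D.redFun_eq (a := -a) (b := b) hb (by rw [map_neg, ← h]; ring), map_neg,
    neg_div]

theorem redFun_sub {x y : LaurentSeries K} (hx : x ∈ D.Vring) (hy : y ∈ D.Vring) :
    D.redFun (x - y) = D.redFun x - D.redFun y := by
  rw [sub_eq_add_neg, D.redFun_add hx (D.Vring.neg_mem hy), D.redFun_neg hy, sub_eq_add_neg]

theorem redFun_pow {x : LaurentSeries K} (hx : x ∈ D.Vring) (n : ℕ) :
    D.redFun (x ^ n) = D.redFun x ^ n := by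
  induction n with
  | zero =>
    rw [pow_zero, pow_zero]
    have h := D.redFun_incS 1
    rwa [map_one, map_one] at h
  | succ n ih => rw [pow_succ, pow_succ, D.redFun_mul (D.Vring.pow_mem hx n) hx, ih]

theorem redFun_one : D.redFun (1 : LaurentSeries K) = (1 : LaurentSeries κ) := by
  have h := D.redFun_incS 1
  rwa [map_one, map_one] at h

theorem redFun_zero : D.redFun (0 : LaurentSeries K) = (0 : LaurentSeries κ) := by
  have h := D.redFun_incS 0
  rwa [map_zero, map_zero] at h

/-! ### The kernel of the reduction -/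

/-- exact division by `π` in `O` (junk value `0` when not divisible) -/
def divπ : ZeroHom O O where
  toFun x := by
    classical
    exact if h : ∃ y : O, x = D.π * y then h.choose else 0
  map_zero' := by
    classical
    have h : ∃ y : O, (0 : O) = D.π * y := ⟨0, by simp⟩
    simp only [dif_pos h]
    rcases mul_eq_zero.mp h.choose_spec.symm with h3 | h3
    · exact absurd h3 D.π_ne_zero
    · exact h3

theorem mul_divπ {x : O} (h : D.res x = 0) : D.π * D.divπ x = x := by
  classical
  have h' : ∃ y : O, x = D.π * y := (D.res_eq_zero_iff x).mp h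
  show D.π * (if h : ∃ y : O, x = D.π * y then h.choose else 0) = x
  rw [dif_pos h']
  exact h'.choose_spec.symm

/-- a series with zero reduction is divisible by `π` -/
theorem exists_eq_mul_of_redS_eq_zero {a : LaurentSeries O} (h : D.redS a = 0) :
    ∃ a' : LaurentSeries O, a = D.πO * a' := by
  refine ⟨a.map D.divπ, ?_⟩
  refine HahnSeries.ext ?_
  funext k
  rw [πO_mul_coeff]
  show a.coeff k = D.π * D.divπ (a.coeff k)
  have hk : D.res (a.coeff k) = 0 := by
    have := congrArg (fun x => x.coeff k) h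
    simpa using this
  exact (D.mul_divπ hk).symm

theorem redS_eq_zero_iff (a : LaurentSeries O) :
    D.redS a = 0 ↔ ∃ a' : LaurentSeries O, a = D.πO * a' := by
  refine ⟨D.exists_eq_mul_of_redS_eq_zero, ?_⟩
  rintro ⟨a', rfl⟩
  rw [map_mul, redS_πO, zero_mul]

/-- the kernel of the reduction is `π V` -/
theorem exists_eq_mul_of_redFun_eq_zero {x : LaurentSeries K}
    (hx : x ∈ D.Vring) (h : D.redFun x = 0) : ∃ y ∈ D.Vring, x = D.πK * y := by
  obtain ⟨a, b, hb, hab⟩ := hx
  rw [D.redFun_eq hb hab, div_eq_zero_iff] at h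
  have ha : D.redS a = 0 := h.resolve_right hb
  obtain ⟨a', rfl⟩ := D.exists_eq_mul_of_redS_eq_zero ha
  have hb0 : D.incS b ≠ 0 := D.incS_ne_zero (D.ne_zero_of_redS_ne_zero hb)
  refine ⟨D.incS a' / D.incS b, ⟨a', b, hb, by field_simp⟩, ?_⟩
  rw [map_mul, incS_πO] at hab
  field_simp
  linear_combination hab

theorem redFun_πK_mul {y : LaurentSeries K} (hy : y ∈ D.Vring) :
    D.redFun (D.πK * y) = 0 := by
  rw [D.redFun_mul D.πK_mem_Vring hy, ← incS_πO, redFun_incS, redS_πO, zero_mul]

theorem redFun_eq_zero_iff {x : LaurentSeries K} (hx : x ∈ D.Vring) :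
    D.redFun x = 0 ↔ ∃ y ∈ D.Vring, x = D.πK * y := by
  refine ⟨D.exists_eq_mul_of_redFun_eq_zero hx, ?_⟩
  rintro ⟨y, hy, rfl⟩
  exact D.redFun_πK_mul hy

/-! ### Normalisation -/

theorem exists_normalize_aux (k : ℕ) : ∀ (a : LaurentSeries O) (m : ℤ) (u : O),
    a.coeff m = D.π ^ k * u → D.res u ≠ 0 →
    ∃ (n : ℕ) (a' : LaurentSeries O), a = D.πO ^ n * a' ∧ D.redS a' ≠ 0 := by
  induction k with
  | zero =>
    intro a m u hm hu
    refine ⟨0, a, by simp, fun h0 => hu ?_⟩
    have := congrArg (fun x => x.coeff m) h0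
    simp only [redS_coeff, HahnSeries.coeff_zero] at this
    rwa [hm, pow_zero, one_mul] at this
  | succ k ih =>
    intro a m u hm hu
    by_cases h0 : D.redS a = 0
    · obtain ⟨a', rfl⟩ := D.exists_eq_mul_of_redS_eq_zero h0
      rw [πO_mul_coeff, pow_succ', mul_assoc] at hm
      have hm' : a'.coeff m = D.π ^ k * u := mul_left_cancel₀ D.π_ne_zero hm
      obtain ⟨n, a'', rfl, h''⟩ := ih a' m u hm' hu
      exact ⟨n + 1, a'', by ring, h''⟩
    · exact ⟨0, a, by simp, h0⟩

/-- every nonzero series over `O` is `π ^ n` times a series with nonzero reduction -/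
theorem exists_normalize_series (a : LaurentSeries O) (ha : a ≠ 0) :
    ∃ (n : ℕ) (a' : LaurentSeries O), a = D.πO ^ n * a' ∧ D.redS a' ≠ 0 := by
  obtain ⟨m, hm⟩ : ∃ m, a.coeff m ≠ 0 := by
    by_contra h
    refine ha (HahnSeries.ext (funext fun m => ?_))
    by_contra hm
    exact h ⟨m, hm⟩
  obtain ⟨k, u, hku, hu⟩ := D.exists_normalize (a.coeff m) hm
  exact D.exists_normalize_aux k a m u hku hu

/-! ### Units and the valuation -/

/-- elements of `V` with nonzero reduction are units of `V` -/
theorem inv_mem_Vring {x : LaurentSeries K} (hx : x ∈ D.Vring) (h : D.redFun x ≠ 0) :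
    x⁻¹ ∈ D.Vring := by
  obtain ⟨a, b, hb, hab⟩ := hx
  rw [D.redFun_eq hb hab] at h
  have ha : D.redS a ≠ 0 := fun h0 => h (by rw [h0, zero_div])
  have ha0 : D.incS a ≠ 0 := D.incS_ne_zero (D.ne_zero_of_redS_ne_zero ha)
  have hb0 : D.incS b ≠ 0 := D.incS_ne_zero (D.ne_zero_of_redS_ne_zero hb)
  have hx0 : x ≠ 0 := by
    rintro rfl
    rw [mul_zero] at hab
    exact ha0 hab.symm
  refine ⟨b, a, ha, ?_⟩
  field_simp
  rw [mul_comm]
  exact hab.symm

theorem redFun_inv {x : LaurentSeries K} (hx : x ∈ D.Vring) (h : D.redFun x ≠ 0) :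
    D.redFun x⁻¹ = (D.redFun x)⁻¹ := by
  have hx0 : x ≠ 0 := by
    rintro rfl
    exact h D.redFun_zero
  have h1 := D.redFun_mul hx (D.inv_mem_Vring hx h)
  rw [mul_inv_cancel₀ hx0, redFun_one] at h1
  exact eq_inv_of_mul_eq_one_right h1.symm

/-- `V` is a valuation ring of the fractions of `O((q))`: every nonzero fraction is a power of
`π` times a unit of `V`. -/
theorem exists_zpow_mul {x : LaurentSeries K} (hx0 : x ≠ 0)
    (hfrac : ∃ a b : LaurentSeries O, b ≠ 0 ∧ D.incS b * x = D.incS a) :
    ∃ (z : ℤ) (u : LaurentSeries K), u ∈ D.Vring ∧ D.redFun u ≠ 0 ∧ x = D.πK ^ z * u := by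
  obtain ⟨a, b, hb, hab⟩ := hfrac
  have ha : a ≠ 0 := by
    rintro rfl
    rw [map_zero] at hab
    rcases mul_eq_zero.mp hab with h | h
    · exact D.incS_ne_zero hb h
    · exact hx0 h
  obtain ⟨n, a', rfl, ha'⟩ := D.exists_normalize_series a ha
  obtain ⟨m, b', rfl, hb'⟩ := D.exists_normalize_series b hb
  have hπ := D.πK_ne_zero
  have ha0 : D.incS a' ≠ 0 := D.incS_ne_zero (D.ne_zero_of_redS_ne_zero ha')
  have hb0 : D.incS b' ≠ 0 := D.incS_ne_zero (D.ne_zero_of_redS_ne_zero hb')
  simp only [map_mul, map_pow, incS_πO] at hab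
  have hu : D.incS b' * (D.incS a' / D.incS b') = D.incS a' := by field_simp
  refine ⟨(n : ℤ) - m, D.incS a' / D.incS b', ⟨a', b', hb', hu⟩, ?_, ?_⟩
  · rw [D.redFun_eq hb' hu]
    exact div_ne_zero ha' hb'
  · rw [zpow_sub₀ hπ, zpow_natCast, zpow_natCast]
    field_simp
    linear_combination hab

theorem mem_or_inv_mem {x : LaurentSeries K}
    (hfrac : ∃ a b : LaurentSeries O, b ≠ 0 ∧ D.incS b * x = D.incS a) :
    x ∈ D.Vring ∨ x⁻¹ ∈ D.Vring := by
  rcases eq_or_ne x 0 with rfl | hx0
  · exact Or.inl (zero_mem _)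
  obtain ⟨z, u, hu, hu0, rfl⟩ := D.exists_zpow_mul hx0 hfrac
  rcases le_or_gt 0 z with hz | hz
  · left
    obtain ⟨n, rfl⟩ := Int.eq_ofNat_of_zero_le hz
    rw [zpow_natCast]
    exact D.Vring.mul_mem (D.Vring.pow_mem D.πK_mem_Vring n) hu
  · right
    obtain ⟨n, hn⟩ := Int.eq_ofNat_of_zero_le (show 0 ≤ -z by omega)
    rw [mul_inv, ← zpow_neg, hn, zpow_natCast]
    exact D.Vring.mul_mem (D.Vring.pow_mem D.πK_mem_Vring n) (D.inv_mem_Vring hu hu0)

/-! ### `V` is integrally closed -/

/-- an element of the valuation ring with zero reduction is not the inverse of an integral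
element -/
theorem not_isIntegral_inv {y : LaurentSeries K} (hy : y ∈ D.Vring) (hy0 : D.redFun y = 0)
    (hyz : y ≠ 0) : ¬ IsIntegral D.Vring y⁻¹ := by
  rintro ⟨p, hp, hpx⟩
  have key : Polynomial.eval₂ (algebraMap D.Vring (LaurentSeries K)) y p.reverse = 0 := by
    let _ : Invertible y⁻¹ := invertibleOfNonzero (inv_ne_zero hyz)
    have h := (Polynomial.eval₂_reverse_eq_zero_iff (algebraMap D.Vring (LaurentSeries K))
      y⁻¹ p).mpr hpx
    rwa [invOf_eq_inv, inv_inv] at h
  set z : D.Vring := ⟨y, hy⟩ with hzdef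
  have hz : ((Polynomial.eval z p.reverse : D.Vring) : LaurentSeries K) =
      Polynomial.eval₂ D.Vring.subtype y p.reverse := by
    have := Polynomial.hom_eval₂ p.reverse (RingHom.id _) D.Vring.subtype z
    rw [Polynomial.eval₂_id, RingHom.comp_id] at this
    exact this
  have hz0 : Polynomial.eval z p.reverse = 0 := by
    apply Subtype.ext
    rw [hz]
    exact key
  have hred := Polynomial.hom_eval₂ p.reverse (RingHom.id _) D.red z
  rw [Polynomial.eval₂_id, RingHom.comp_id, hz0, map_zero] at hred
  have hz1 : D.red z = 0 := hy0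
  rw [hz1, Polynomial.eval₂_at_zero, Polynomial.coeff_zero_reverse, hp.leadingCoeff,
    map_one] at hred
  exact zero_ne_one hred

/-- `V` is integrally closed in the fractions of `O((q))`. -/
theorem mem_Vring_of_isIntegral {x : LaurentSeries K}
    (hfrac : ∃ a b : LaurentSeries O, b ≠ 0 ∧ D.incS b * x = D.incS a)
    (hint : IsIntegral D.Vring x) : x ∈ D.Vring := by
  rcases eq_or_ne x 0 with rfl | hx0
  · exact zero_mem _
  obtain ⟨z, u, hu, hu0, rfl⟩ := D.exists_zpow_mul hx0 hfrac
  rcases le_or_gt 0 z with hz | hz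
  · obtain ⟨n, rfl⟩ := Int.eq_ofNat_of_zero_le hz
    rw [zpow_natCast]
    exact D.Vring.mul_mem (D.Vring.pow_mem D.πK_mem_Vring n) hu
  · exfalso
    obtain ⟨n, hn⟩ := Int.eq_ofNat_of_zero_le (show 0 ≤ -z by omega)
    have hn0 : n ≠ 0 := by
      rintro rfl
      simp at hn
      omega
    have hinv : (D.πK ^ z * u)⁻¹ = D.πK ^ n * u⁻¹ := by
      rw [mul_inv, ← zpow_neg, hn, zpow_natCast]
    have hmem : (D.πK ^ z * u)⁻¹ ∈ D.Vring := by
      rw [hinv]
      exact D.Vring.mul_mem (D.Vring.pow_mem D.πK_mem_Vring n) (D.inv_mem_Vring hu hu0)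
    have hred : D.redFun (D.πK ^ z * u)⁻¹ = 0 := by
      rw [hinv, D.redFun_mul (D.Vring.pow_mem D.πK_mem_Vring n) (D.inv_mem_Vring hu hu0),
        D.redFun_pow D.πK_mem_Vring, ← incS_πO, redFun_incS, redS_πO, zero_pow hn0, zero_mul]
    have := D.not_isIntegral_inv hmem hred (inv_ne_zero hx0)
    rw [inv_inv] at this
    exact this hint

/-! ### Gauss data of a discrete valuation ring -/

/-- The Gauss data of a discrete valuation ring `O`, a field `K ⊇ O` and a ring homomorphism
`res : O → κ` whose kernel is the maximal ideal. -/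
def ofDVR' (O K κ : Type*) [CommRing O] [IsDomain O] [IsDiscreteValuationRing O] [Field K]
    [Field κ] (inc : O →+* K) (hinc : Function.Injective inc) (res : O →+* κ)
    (hres : ∀ x : O, res x = 0 ↔ x ∈ IsLocalRing.maximalIdeal O) : GaussData O K κ where
  inc := inc
  res := res
  π := (IsDiscreteValuationRing.exists_irreducible O).choose
  inc_injective := hinc
  π_ne_zero := (IsDiscreteValuationRing.exists_irreducible O).choose_spec.ne_zero
  res_eq_zero_iff := by
    intro x
    have hπ := (IsDiscreteValuationRing.exists_irreducible O).choose_spec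
    rw [hres, hπ.maximalIdeal_eq, Ideal.mem_span_singleton']
    constructor
    · rintro ⟨y, hy⟩
      exact ⟨y, by rw [← hy, mul_comm]⟩
    · rintro ⟨y, hy⟩
      exact ⟨y, by rw [hy, mul_comm]⟩
  exists_normalize := by
    intro x hx
    have hπ := (IsDiscreteValuationRing.exists_irreducible O).choose_spec
    obtain ⟨n, u, hu⟩ := IsDiscreteValuationRing.eq_unit_mul_pow_irreducible hx hπ
    refine ⟨n, u, by rw [hu, mul_comm], ?_⟩
    rw [Ne, hres, IsLocalRing.mem_maximalIdeal, mem_nonunits_iff, not_not]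
    exact u.isUnit

/-- The Gauss data of a discrete valuation ring with its fraction field and residue field. -/
def ofDVR (O K : Type*) [CommRing O] [IsDomain O] [IsDiscreteValuationRing O] [Field K]
    [Algebra O K] [IsFractionRing O K] : GaussData O K (IsLocalRing.ResidueField O) :=
  ofDVR' O K (IsLocalRing.ResidueField O) (algebraMap O K) (IsFractionRing.injective O K)
    (IsLocalRing.residue O) (fun x => IsLocalRing.residue_eq_zero_iff x)

end GaussData

/-! ### `K` is algebraically closed in `K((q))` -/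

/-- A Laurent series which is algebraic over the field of constants is a constant. -/
theorem mem_range_algebraMap_of_isAlgebraic {K : Type*} [Field K] {x : LaurentSeries K}
    (hx : IsAlgebraic K x) : ∃ c : K, x = algebraMap K (LaurentSeries K) c := by
  have htower : ∀ c : K, algebraMap K (LaurentSeries K) c =
      algebraMap (PowerSeries K) (LaurentSeries K) (algebraMap K (PowerSeries K) c) := by
    intro c
    rw [HahnSeries.algebraMap_apply']
    rfl
  have hcomp : (algebraMap (PowerSeries K) (LaurentSeries K)).comp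
      (algebraMap K (PowerSeries K)) = algebraMap K (LaurentSeries K) :=
    RingHom.ext fun c => (htower c).symm
  -- algebraic elements are power series
  have key : ∀ y : LaurentSeries K, IsAlgebraic K y →
      ∃ f : PowerSeries K, algebraMap (PowerSeries K) (LaurentSeries K) f = y := by
    intro y hy
    obtain ⟨p, hp, hpy⟩ : IsIntegral K y := hy.isIntegral
    have h2 : IsIntegral (PowerSeries K) y := by
      refine ⟨p.map (algebraMap K (PowerSeries K)), hp.map _, ?_⟩
      rw [Polynomial.eval₂_map, hcomp]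
      exact hpy
    exact IsIntegrallyClosed.isIntegral_iff.mp h2
  obtain ⟨f, hf⟩ := key x hx
  refine ⟨PowerSeries.constantCoeff f, ?_⟩
  by_contra hne
  set y : LaurentSeries K := x - algebraMap K (LaurentSeries K) (PowerSeries.constantCoeff f)
    with hy
  have hy0 : y ≠ 0 := fun h => hne (sub_eq_zero.mp h)
  have hyalg : IsAlgebraic K y := hx.sub (isAlgebraic_algebraMap _)
  obtain ⟨g, hg⟩ := key y⁻¹ hyalg.inv
  have hyf : y = algebraMap (PowerSeries K) (LaurentSeries K)
      (f - PowerSeries.C (PowerSeries.constantCoeff f)) := by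
    rw [hy, map_sub, hf, htower]
    rfl
  have hmul : (f - PowerSeries.C (PowerSeries.constantCoeff f)) * g = 1 := by
    apply IsFractionRing.injective (PowerSeries K) (LaurentSeries K)
    rw [map_mul, ← hyf, hg, map_one, mul_inv_cancel₀ hy0]
  have := congrArg PowerSeries.constantCoeff hmul
  simp at this

/-- A Laurent series which is algebraic over the field of constants is a constant. -/
theorem mem_range_C_of_isAlgebraic {K : Type*} [Field K] {x : LaurentSeries K}
    (hx : IsAlgebraic K x) : ∃ c : K, x = HahnSeries.C c := by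
  obtain ⟨c, hc⟩ := mem_range_algebraMap_of_isAlgebraic hx
  exact ⟨c, by rw [hc, algebraMap_laurentSeries_eq_single, HahnSeries.C_apply]⟩

/-! ### Linear disjointness -/

/-- Linear disjointness of `K₁((q))` and `K` over `K₁` inside `K((q))`: a `K₁`-linearly
independent family of constants of `K` is linearly independent over `K₁((q))`. -/
theorem eq_zero_of_sum_C_mul_eq_zero {K₁ K : Type*} [Field K₁] [Field K] [Algebra K₁ K]
    {ι : Type*} {c : ι → K} (hc : LinearIndependent K₁ c) (s : Finset ι)
    (x : ι → LaurentSeries K₁)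
    (h : ∑ i ∈ s, HahnSeries.C (c i) * coeffMap (algebraMap K₁ K) (x i) = 0) :
    ∀ i ∈ s, x i = 0 := by
  intro i hi
  ext n
  have hn := congrArg (fun y => y.coeff n) h
  simp only [HahnSeries.coeff_sum, HahnSeries.C_mul_eq_smul, HahnSeries.coeff_smul,
    coeffMap_coeff, smul_eq_mul, HahnSeries.coeff_zero] at hn
  have hn' : ∑ j ∈ s, (x j).coeff n • c j = 0 := by
    rw [← hn]
    refine Finset.sum_congr rfl fun j _ => ?_
    rw [Algebra.smul_def, mul_comm]
  exact linearIndependent_iff'.mp hc s (fun j => (x j).coeff n) hn' i hi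

end Fermat.Agent.S18_helper13_GAUSS
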