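import Fermat.Agent.S18_helper14_ASETUP

/-!
# S18, block A: `Frac A = F1` for the two charts, from the finiteness of `F1 / K1(j)` (helper14)

Abstract part (any ambient field `L`): if the subfield `F1` is spanned by finitely many elements
over `E = Frac O[j]`, then every element of `F1` has a nonzero multiple by an element of `O[x]`
(`x = j` or `x = j⁻¹`) which is integral over `O[x]`.  This discharges the hypotheses
`hfrac0`, `hfracInf` of `S18A.setup_of`.
-/

set_option autoImplicit false

noncomputable section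

open Polynomial Fermat.Agent.S18_helper9_CDefs

namespace Fermat.Agent.S18A

section Abstract

variable {L : Type*} [Field L]

/-- A subfield which is finitely spanned over a smaller subfield is algebraic over it. -/
theorem isAlgebraic_of_finite_span (E F1 : Subfield L) (hEF : E ≤ F1) (s : Finset L)
    (hfin : ∀ x ∈ F1, ∃ c : L → L, (∀ y, c y ∈ E) ∧ x = ∑ y ∈ s, c y * y)
    (v : L) (hv : v ∈ F1) : IsAlgebraic E v := by
  let F1' : Subalgebra E L :=
    { F1.toSubring.toSubsemiring with algebraMap_mem' := fun e => hEF e.2 }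
  have hle : Subalgebra.toSubmodule F1' ≤ Submodule.span E (s : Set L) := by
    intro x hx
    obtain ⟨c, hc, rfl⟩ := hfin x hx
    refine Submodule.sum_mem _ fun y hy => ?_
    have h1 : c y * y = (⟨c y, hc y⟩ : E) • y := rfl
    rw [h1]
    exact Submodule.smul_mem _ _ (Submodule.subset_span hy)
  have : FiniteDimensional E (Submodule.span E (s : Set L)) :=
    FiniteDimensional.span_finset _ s
  have hfd : FiniteDimensional E F1' := Submodule.finiteDimensional_of_le hle
  have h2 : IsIntegral E (⟨v, hv⟩ : F1') := IsIntegral.of_finite E _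
  have h3 : IsIntegral E (F1'.val ⟨v, hv⟩) := h2.map F1'.val
  exact h3.isAlgebraic

/-- Algebraicity descends from a subfield `E` to a subring `R` with `Frac R = E`. -/
theorem isAlgebraic_of_frac (R : Subring L) (E : Subfield L) (hRE : R ≤ E.toSubring)
    (hfrac : ∀ e ∈ E, ∃ y ∈ R, ∃ z ∈ R, y / z = e) (v : L)
    (hv : IsAlgebraic E v) : IsAlgebraic R v := by
  let _ : Algebra R E := (Subring.inclusion hRE).toAlgebra
  have : IsScalarTower R E L := IsScalarTower.of_algebraMap_eq (fun _ => rfl)
  have : Algebra.IsAlgebraic R E := by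
    refine ⟨fun e => ?_⟩
    obtain ⟨y, hy, z, hz, hyz⟩ := hfrac e e.2
    by_cases hz0 : z = 0
    · have he : e = 0 := by
        apply Subtype.ext
        rw [← hyz, hz0, div_zero]; rfl
      rw [he]
      exact isAlgebraic_zero
    · have hz' : (⟨z, hz⟩ : R) ≠ 0 := fun h => hz0 (congrArg Subtype.val h)
      refine ⟨C (⟨z, hz⟩ : R) * X - C (⟨y, hy⟩ : R), ?_, ?_⟩
      · intro h0
        have := congrArg (fun p => Polynomial.coeff p 1) h0
        simp at this
        first | exact hz' this | exact hz0 this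
      · rw [map_sub, map_mul, aeval_C, aeval_C, aeval_X]
        apply Subtype.ext
        change z * (e : L) - y = 0
        rw [← hyz, mul_div_cancel₀ _ hz0, sub_self]
  exact IsAlgebraic.restrictScalars R hv

/-- Clearing denominators: an element algebraic over `Frac O[x]` has a nonzero multiple by an
element of `O[x]` which is integral over `O[x]`. -/
theorem exists_mul_isIntegral_adj (O' : Subring L) (x v : L)
    (hv : IsAlgebraic (Subfield.closure ((O' : Set L) ∪ {x})) v) :
    ∃ b ∈ adj O' x, b ≠ 0 ∧ IsIntegral (adj O' x) (v * b) := by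
  have hRE : adj O' x ≤ (Subfield.closure ((O' : Set L) ∪ {x})).toSubring :=
    Subring.closure_le.2 Subfield.subset_closure
  have h1 : IsAlgebraic (adj O' x) v :=
    isAlgebraic_of_frac (adj O' x) _ hRE (fun e he => Subfield.mem_closure_iff.1 he) v hv
  obtain ⟨y, hy0, hint⟩ := h1.exists_integral_multiple
  refine ⟨(y : L), y.2, fun h => hy0 (Subtype.ext h), ?_⟩
  rw [mul_comm]
  exact hint

theorem closure_inv_eq (O' : Subring L) (j : L) :
    Subfield.closure ((O' : Set L) ∪ {j⁻¹}) = Subfield.closure ((O' : Set L) ∪ {j}) := by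
  apply le_antisymm
  · rw [Subfield.closure_le]
    rintro y (hy | hy)
    · exact Subfield.subset_closure (Or.inl hy)
    · rw [Set.mem_singleton_iff] at hy
      subst hy
      exact Subfield.inv_mem _ (Subfield.subset_closure (Or.inr rfl))
  · rw [Subfield.closure_le]
    rintro y (hy | hy)
    · exact Subfield.subset_closure (Or.inl hy)
    · rw [Set.mem_singleton_iff] at hy
      subst hy
      have : (y⁻¹)⁻¹ ∈ Subfield.closure ((O' : Set L) ∪ {y⁻¹}) :=
        Subfield.inv_mem _ (Subfield.subset_closure (Or.inr rfl))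
      rwa [inv_inv] at this

/-- **`Frac A = F1`**, abstract form: every element of `F1` has a nonzero denominator in the
integral closure `A` of `O[x]` in `F1` (`x = j` or `x = j⁻¹`). -/
theorem frac_of_finite (O' : Subring L) (j : L) (F1 : Subfield L)
    (hO : (O' : Set L) ⊆ F1) (hj : j ∈ F1)
    (hfin : ∃ s : Finset L, ∀ x ∈ F1, ∃ c : L → L,
      (∀ y, c y ∈ Subfield.closure ((O' : Set L) ∪ {j})) ∧ x = ∑ y ∈ s, c y * y)
    (x : L) (hx : x = j ∨ x = j⁻¹) :
    ∀ v ∈ F1, ∃ b ∈ icl (adj O' x) F1, b ≠ 0 ∧ v * b ∈ icl (adj O' x) F1 := by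
  intro v hv
  obtain ⟨s, hs⟩ := hfin
  have hEF : Subfield.closure ((O' : Set L) ∪ {j}) ≤ F1 := by
    rw [Subfield.closure_le]
    rintro y (hy | hy)
    · exact hO hy
    · rw [Set.mem_singleton_iff] at hy
      subst hy
      exact hj
  have halg : IsAlgebraic (Subfield.closure ((O' : Set L) ∪ {j})) v :=
    isAlgebraic_of_finite_span _ F1 hEF s hs v hv
  have hEx : Subfield.closure ((O' : Set L) ∪ {x}) = Subfield.closure ((O' : Set L) ∪ {j}) := by
    rcases hx with rfl | rfl
    · rfl
    · exact closure_inv_eq O' j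
  have halg' : IsAlgebraic (Subfield.closure ((O' : Set L) ∪ {x})) v := by
    rw [hEx]; exact halg
  obtain ⟨b, hb, hb0, hint⟩ := exists_mul_isIntegral_adj O' x v halg'
  have hxF : x ∈ F1 := by
    rcases hx with rfl | rfl
    · exact hj
    · exact F1.inv_mem hj
  have hRF : adj O' x ≤ F1.toSubring := by
    refine Subring.closure_le.2 ?_
    rintro y (hy | hy)
    · exact hO hy
    · rw [Set.mem_singleton_iff] at hy
      subst hy
      exact hxF
  have hbF : b ∈ F1 := hRF hb
  refine ⟨b, mem_icl.2 ⟨?_, hbF⟩, hb0, mem_icl.2 ⟨hint, F1.mul_mem hv hbF⟩⟩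
  exact isIntegral_algebraMap (R := adj O' x) (A := L) (x := ⟨b, hb⟩)

end Abstract

section Concrete

variable {O K1 : Type*} [CommRing O] [IsDomain O] [IsDiscreteValuationRing O] [Field K1]
  [Algebra O K1] [IsFractionRing O K1]
variable {k : Type*} [Field k] (ρ : O →+* k)
  (hρ : ∀ x : O, ρ x = 0 ↔ x ∈ IsLocalRing.maximalIdeal O) (N : ℕ)

open ModularCurve

/-- **Block A, main theorem (conditional on saturation and finiteness only).** -/
theorem setup_of_sat_fin
    (hsat0 : ∀ v ∈ VL O K1 ρ hρ N, πL O K1 ρ hρ * v ∈ A0L O K1 N → v ∈ A0L O K1 N)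
    (hsatInf : ∀ v ∈ VL O K1 ρ hρ N, πL O K1 ρ hρ * v ∈ AinfL O K1 N → v ∈ AinfL O K1 N)
    (hfin : ∃ s : Finset (LaurentSeries K1), ∀ x ∈ F1L K1 N,
      ∃ c : LaurentSeries K1 → LaurentSeries K1,
        (∀ y, c y ∈ Subfield.closure ((OL O K1 : Set (LaurentSeries K1)) ∪ {jqModC K1})) ∧
          x = ∑ y ∈ s, c y * y) :
    Setup (OL O K1) (πL O K1 ρ hρ) (jqModC K1) (F1L K1 N) (VL O K1 ρ hρ N)
      (A0L O K1 N) (AinfL O K1 N) :=
  setup_of ρ hρ N hsat0 hsatInf
    (frac_of_finite (OL O K1) (jqModC K1) (F1L K1 N) (OL_le_F1L N) (jq_mem_F1L N) hfin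
      (jqModC K1) (Or.inl rfl))
    (frac_of_finite (OL O K1) (jqModC K1) (F1L K1 N) (OL_le_F1L N) (jq_mem_F1L N) hfin
      (jqModC K1)⁻¹ (Or.inr rfl))
    hfin

end Concrete

end Fermat.Agent.S18A
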