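import Fermat.Agent.S18_helper14_SETUP
import Fermat.Agent.S18_helper17_IG
import Fermat.Agent.S18_helper1_AIVA
import Fermat.Agent.S18_helper27_CNOETH
import Fermat.Agent.S18_helper27_RESALGCL

/-!
# S18, block A → block B: the charts as TYPES, and the chart-level plug of `S18B_IG_generic`
(helper14)

Carriers: the base ring is `↥(OL O K1)` (the constants of `O` inside `K1((q))`, as in
helper1's `S18AIVA_chart`), the function field is the TYPE `F1T K1 N = ↥(modularFunctionFieldFullC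
K1 N)` with its `IntermediateField` structure (the carrier of the horizontal input), the chart is
any `A : Subring (LaurentSeries K1)` with a `Chart` structure (`x = j` or `x = j⁻¹`).

* instances (as `def`s, to be installed with `letI`): `algOLK`, `algOLF`, `algOLA`, `algAF`;
* `IGat_chart`: `[IG]` at ONE maximal ideal `m ∋ π` of the chart, from a cover `(An, Bd)` and the
  horizontal input at the points `t₀` below `m`;
* `IG_chart`: `CDefs.IG π A` from the same data at all maximal ideals.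
-/

set_option autoImplicit false
set_option linter.unusedSectionVars false
set_option linter.style.haveILetI false

noncomputable section

open Polynomial ModularCurve Fermat.Agent.S18_helper13_GAUSS Fermat.Agent.S18_helper9_CDefs
open Fermat.Agent.S18A Fermat.Agent.S18_helper17_BDefs

namespace Fermat.Agent.S18AI

/-- The function field `F1`, as a type. -/
abbrev F1T (K1 : Type) [Field K1] (N : ℕ) : Type := ↥(modularFunctionFieldFullC K1 N)

section Inst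

variable (O K1 : Type) [CommRing O] [IsDomain O] [IsDiscreteValuationRing O] [Field K1]
  [Algebra O K1] [IsFractionRing O K1] (N : ℕ)

/-- `OL → K1`. -/
@[reducible] def algOLK : Algebra ↥(OL O K1) K1 := (OLtoK (O := O) (K1 := K1)).toAlgebra

/-- `OL → F1`. -/
def olToF1 : ↥(OL O K1) →+* F1T K1 N :=
  RingHom.codRestrict (OL O K1).subtype (modularFunctionFieldFullC K1 N)
    (fun c => OL_le_F1L N c.2)

/-- `F1` as an algebra over `OL`. -/
@[reducible] def algOLF : Algebra ↥(OL O K1) (F1T K1 N) := (olToF1 O K1 N).toAlgebra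

theorem olToF1_coe (c : ↥(OL O K1)) :
    ((olToF1 O K1 N c : F1T K1 N) : LaurentSeries K1) = (c : LaurentSeries K1) := rfl

theorem olToF1_injective : Function.Injective (olToF1 O K1 N) := fun _ _ h =>
  Subtype.ext (congrArg (fun z : F1T K1 N => (z : LaurentSeries K1)) h)

theorem isScalarTower_OL_K1_F1 :
    letI := algOLK O K1
    letI := algOLF O K1 N
    IsScalarTower ↥(OL O K1) K1 (F1T K1 N) := by
  letI := algOLK O K1
  letI := algOLF O K1 N
  refine IsScalarTower.of_algebraMap_eq (fun c => ?_)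
  apply Subtype.ext
  show (c : LaurentSeries K1) = algebraMap K1 (LaurentSeries K1) (OLtoK c)
  rw [algebraMap_eq_C, C_OLtoK]

theorem isFractionRing_OL_K1 :
    letI := algOLK O K1
    IsFractionRing ↥(OL O K1) K1 := by
  exact (IsFractionRing.isFractionRing_iff_of_base_ringEquiv (S := K1) (h := equivOL O K1)).mp inferInstance

variable {O K1 N}
variable (A : Subring (LaurentSeries K1))

/-- The chart as an algebra over `OL`. -/
@[reducible] def algOLA (hOA : OL O K1 ≤ A) : Algebra ↥(OL O K1) ↥A := (Subring.inclusion hOA).toAlgebra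

/-- `A → F1`. -/
def aToF1 (hAF : ∀ a ∈ A, a ∈ modularFunctionFieldFullC K1 N) : ↥A →+* F1T K1 N :=
  RingHom.codRestrict A.subtype (modularFunctionFieldFullC K1 N) (fun a => hAF a a.2)

/-- `F1` as an algebra over the chart. -/
@[reducible] def algAF (hAF : ∀ a ∈ A, a ∈ modularFunctionFieldFullC K1 N) : Algebra ↥A (F1T K1 N) :=
  (aToF1 A hAF).toAlgebra

end Inst

section Plug

variable {O K1 k : Type} [CommRing O] [IsDomain O] [IsDiscreteValuationRing O] [Field K1]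
  [CharZero K1] [Algebra O K1] [IsFractionRing O K1] [Field k] [IsAlgClosed k]
  (ρ : O →+* k) (hρ : ∀ x : O, ρ x = 0 ↔ x ∈ IsLocalRing.maximalIdeal O) (N : ℕ) [NeZero N]

include hρ in
/-- The residue field of `OL` is algebraically closed. -/
theorem isAlgClosed_residue_OL (hρs : Function.Surjective ρ) :
    letI := dvr_OL (O := O) (K1 := K1)
    IsAlgClosed (IsLocalRing.ResidueField ↥(OL O K1)) := by
  letI := dvr_OL (O := O) (K1 := K1)
  let e := equivOL O K1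
  refine Fermat.Agent.S18_helper27_RESALGCL.S18RES_isAlgClosed_of_surjective
    (ρ.comp (e.symm : ↥(OL O K1) →+* O)) (hρs.comp e.symm.surjective) (fun x => ?_)
  rw [RingHom.comp_apply, hρ, IsLocalRing.mem_maximalIdeal, IsLocalRing.mem_maximalIdeal,
    mem_nonunits_iff, mem_nonunits_iff, not_iff_not]
  exact MulEquiv.isUnit_map (e.symm : ↥(OL O K1) ≃* O)

/-- **Chart-level plug of block B**: `[IG]` at one maximal ideal `m ∋ π` of a chart `A`
(`x = j` or `x = j⁻¹`), from a cover `(An, Bd)` of the `x`-line and the horizontal input at the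
points `t₀` below `m`.  All instance hypotheses of `S18B_IG_generic` are discharged from `Setup`,
the generic étale element is helper1's `S18AIVA_chart`. -/
theorem IGat_chart (hρs : Function.Surjective ρ)
    (S : Setup (OL O K1) (πL O K1 ρ hρ) (jqModC K1) (F1L K1 N) (VL O K1 ρ hρ N)
      (A0L O K1 N) (AinfL O K1 N))
    (x : LaurentSeries K1) (hx : x = jqModC K1 ∨ x = (jqModC K1)⁻¹)
    (A : Subring (LaurentSeries K1))
    (hC : Chart (OL O K1) (πL O K1 ρ hρ) x (F1L K1 N) (VL O K1 ρ hρ N) A)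
    (hxF : x ∈ modularFunctionFieldFullC K1 N) (hxA : x ∈ A) (hOA : OL O K1 ≤ A)
    (An Bd : Polynomial ↥(OL O K1))
    (hcov : @S18B_Cover ↥(OL O K1) (F1T K1 N) _ _ (algOLF O K1 N)
      (⟨πL O K1 ρ hρ, S.π_mem⟩ : ↥(OL O K1)) (⟨x, hxF⟩ : F1T K1 N) An Bd)
    (m : Ideal ↥A) (hm : m.IsMaximal)
    (hπm : (⟨πL O K1 ρ hρ, hOA S.π_mem⟩ : ↥A) ∈ m)
    (hhor : ∀ t₀ : ↥(OL O K1),
      (∃ c : ↥(OL O K1), (⟨x, hxA⟩ : ↥A) - ⟨(c : LaurentSeries K1), hOA c.2⟩ ∈ m ∧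
        (⟨πL O K1 ρ hρ, S.π_mem⟩ : ↥(OL O K1)) ∣ An.eval t₀ - c * Bd.eval t₀) →
      ¬ (⟨πL O K1 ρ hρ, S.π_mem⟩ : ↥(OL O K1)) ∣ Bd.eval t₀ →
      @S18B_Hor ↥(OL O K1) (F1T K1 N) _ _ (algOLF O K1 N)
        (⟨πL O K1 ρ hρ, S.π_mem⟩ : ↥(OL O K1)) (⟨x, hxF⟩ : F1T K1 N) An Bd t₀) :
    @S18B_IGat ↥A _ (⟨πL O K1 ρ hρ, hOA S.π_mem⟩ : ↥A) m := by
  classical
  have hcz : CharZero (LaurentSeries K1) :=
    charZero_of_injective_ringHom (HahnSeries.C_injective (Γ := ℤ) (R := K1))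
  have hAeq : A = icl (adj (OL O K1) x) (F1L K1 N) :=
    Subring.ext (fun y => (hC.mem_iff y).trans mem_icl.symm)
  have hAF : ∀ a ∈ A, a ∈ modularFunctionFieldFullC K1 N := fun a ha => ((hC.mem_iff a).mp ha).2
  haveI hdvr : IsDiscreteValuationRing ↥(OL O K1) := S.dvr
  letI iOLF : Algebra ↥(OL O K1) (F1T K1 N) := algOLF O K1 N
  letI iOLA : Algebra ↥(OL O K1) ↥A := algOLA A hOA
  letI iAF : Algebra ↥A (F1T K1 N) := algAF A hAF
  haveI : IsScalarTower ↥(OL O K1) ↥A (F1T K1 N) :=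
    IsScalarTower.of_algebraMap_eq (fun _ => rfl)
  have hinjOF : Function.Injective (algebraMap ↥(OL O K1) (F1T K1 N)) := olToF1_injective O K1 N
  have hinjAF : Function.Injective (algebraMap ↥A (F1T K1 N)) := fun a b h =>
    Subtype.ext (congrArg (fun z : F1T K1 N => (z : LaurentSeries K1)) h)
  haveI : FaithfulSMul ↥(OL O K1) (F1T K1 N) := (faithfulSMul_iff_algebraMap_injective _ _).mpr hinjOF
  haveI : FaithfulSMul ↥A (F1T K1 N) := (faithfulSMul_iff_algebraMap_injective _ _).mpr hinjAF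
  haveI : CharZero (F1T K1 N) :=
    charZero_of_injective_algebraMap (algebraMap K1 (F1T K1 N)).injective
  haveI : IsAlgClosed (IsLocalRing.ResidueField ↥(OL O K1)) := isAlgClosed_residue_OL ρ hρ hρs
  haveI : IsNoetherianRing ↥A :=
    Fermat.Agent.S18_helper27_CNOETH.S18CNOETH_chart_noetherian S x hx A hC
  haveI : IsIntegrallyClosed ↥A := by
    rw [hAeq]
    exact Fermat.Agent.S18_helper20_CSAT.CSAT_isIntegrallyClosed_icl _ _
  haveI : IsFractionRing ↥A (F1T K1 N) := by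
    refine IsFractionRing.of_field ↥A (F1T K1 N) (fun z => ?_)
    obtain ⟨b, hb, hb0, hzb⟩ := frac_of_finite (OL O K1) (jqModC K1) (F1L K1 N) S.O_le S.j_mem
      S.finite x hx (z : LaurentSeries K1) z.2
    rw [← hAeq] at hb hzb
    refine ⟨⟨_, hzb⟩, ⟨b, hb⟩, ?_⟩
    have hb0' : algebraMap ↥A (F1T K1 N) ⟨b, hb⟩ ≠ 0 := by
      intro h
      exact hb0 (congrArg (fun z : F1T K1 N => (z : LaurentSeries K1)) h)
    rw [eq_div_iff hb0']
    exact Subtype.ext rfl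
  -- the coordinate
  have hxtrL : Transcendental ↥(OL O K1) x := by
    rcases hx with rfl | rfl
    · exact S.j_trans
    · intro halg
      apply S.j_trans
      have := halg.inv
      rwa [inv_inv] at this
  have hev : ∀ p : Polynomial ↥(OL O K1),
      ((aeval (⟨x, hxA⟩ : ↥A) p : ↥A) : LaurentSeries K1) = eval₂ (OL O K1).subtype x p := by
    intro p
    exact Polynomial.hom_eval₂ p (algebraMap ↥(OL O K1) ↥A) A.subtype ⟨x, hxA⟩
  have hxtr : Transcendental ↥(OL O K1) (⟨x, hxA⟩ : ↥A) := by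
    rw [transcendental_iff_injective, injective_iff_map_eq_zero]
    intro p hp
    have h1 := hev p
    rw [hp] at h1
    have h2 : aeval x p = 0 := h1.symm
    exact (transcendental_iff.mp hxtrL) p h2
  have hcomp : A.subtype.comp (aeval (⟨x, hxA⟩ : ↥A) : Polynomial ↥(OL O K1) →ₐ[↥(OL O K1)] ↥A).toRingHom
      = (aeval x : Polynomial ↥(OL O K1) →ₐ[↥(OL O K1)] LaurentSeries K1).toRingHom := by
    apply Polynomial.ringHom_ext
    · intro c
      simp only [RingHom.comp_apply, AlgHom.toRingHom_eq_coe, RingHom.coe_coe, aeval_C]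
      rfl
    · simp only [RingHom.comp_apply, AlgHom.toRingHom_eq_coe, RingHom.coe_coe, aeval_X]
      rfl
  have hA' : ∀ a : ↥A, IsIntegral (Algebra.adjoin ↥(OL O K1) {(⟨x, hxA⟩ : ↥A)}) a := by
    intro a
    have h1 : IsIntegral (adj (OL O K1) x) (a : LaurentSeries K1) := ((hC.mem_iff a.1).mp a.2).1
    rw [Fermat.Agent.S18_helper27_CFIN.S18CFIN_isIntegral_iff] at h1
    obtain ⟨p, hpm, hp⟩ := h1
    let φ : Polynomial ↥(OL O K1) →+* ↥(Algebra.adjoin ↥(OL O K1) {(⟨x, hxA⟩ : ↥A)}) :=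
      (aeval (⟨x, hxA⟩ : ↥A) : Polynomial ↥(OL O K1) →ₐ[↥(OL O K1)] ↥A).toRingHom.codRestrict
        (Algebra.adjoin ↥(OL O K1) {(⟨x, hxA⟩ : ↥A)})
        (fun q => by
          rw [Algebra.adjoin_singleton_eq_range_aeval]
          exact ⟨q, rfl⟩)
    refine ⟨p.map φ, hpm.map φ, ?_⟩
    rw [Polynomial.eval₂_map]
    have hφ : (algebraMap ↥(Algebra.adjoin ↥(OL O K1) {(⟨x, hxA⟩ : ↥A)}) ↥A).comp φ
        = (aeval (⟨x, hxA⟩ : ↥A) : Polynomial ↥(OL O K1) →ₐ[↥(OL O K1)] ↥A).toRingHom := by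
      ext <;> rfl
    rw [hφ]
    apply Subtype.ext
    have h2 : A.subtype (eval₂ (aeval (⟨x, hxA⟩ : ↥A) : Polynomial ↥(OL O K1) →ₐ[↥(OL O K1)] ↥A).toRingHom a p)
        = eval₂ (A.subtype.comp (aeval (⟨x, hxA⟩ : ↥A) : Polynomial ↥(OL O K1) →ₐ[↥(OL O K1)] ↥A).toRingHom)
            (A.subtype a) p :=
      Polynomial.hom_eval₂ p _ A.subtype a
    rw [hcomp] at h2
    exact h2.trans hp
  -- the generic étale element
  haveI : PerfectField k := inferInstance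
  obtain ⟨Vel, P₀, hVel, hmon, hroot, hgen, hsep, -⟩ :=
    Fermat.Agent.S18_helper1_AIVA.S18AIVA_chart ρ hρ N hρs S x hx A hC
  have hconv : ∀ Q : Polynomial (Polynomial ↥(OL O K1)),
      ((aeval (⟨Vel, hVel⟩ : ↥A) (Q.map (aeval (⟨x, hxA⟩ : ↥A) :
          Polynomial ↥(OL O K1) →ₐ[↥(OL O K1)] ↥A).toRingHom) : ↥A) : LaurentSeries K1)
        = eval₂ (eval₂RingHom (OL O K1).subtype x) Vel Q := by
    intro Q
    rw [Polynomial.aeval_def, Polynomial.eval₂_map]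
    have h2 : A.subtype (eval₂ ((algebraMap ↥A ↥A).comp
        (aeval (⟨x, hxA⟩ : ↥A) : Polynomial ↥(OL O K1) →ₐ[↥(OL O K1)] ↥A).toRingHom)
          (⟨Vel, hVel⟩ : ↥A) Q)
        = eval₂ (A.subtype.comp ((algebraMap ↥A ↥A).comp
            (aeval (⟨x, hxA⟩ : ↥A) : Polynomial ↥(OL O K1) →ₐ[↥(OL O K1)] ↥A).toRingHom))
            (A.subtype ⟨Vel, hVel⟩) Q :=
      Polynomial.hom_eval₂ Q _ A.subtype _
    have h3 : A.subtype.comp ((algebraMap ↥A ↥A).comp
        (aeval (⟨x, hxA⟩ : ↥A) : Polynomial ↥(OL O K1) →ₐ[↥(OL O K1)] ↥A).toRingHom)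
        = eval₂RingHom (OL O K1).subtype x := by
      apply Polynomial.ringHom_ext
      · intro c
        simp only [RingHom.comp_apply, AlgHom.toRingHom_eq_coe, RingHom.coe_coe, aeval_C,
          Algebra.algebraMap_self, RingHom.id_apply, coe_eval₂RingHom, eval₂_C]
        rfl
      · simp only [RingHom.comp_apply, AlgHom.toRingHom_eq_coe, RingHom.coe_coe, aeval_X,
          Algebra.algebraMap_self, RingHom.id_apply, coe_eval₂RingHom, eval₂_X]
        rfl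
    rw [h3] at h2
    exact h2
  have hP₀V : aeval (⟨Vel, hVel⟩ : ↥A) (P₀.map (aeval (⟨x, hxA⟩ : ↥A) :
      Polynomial ↥(OL O K1) →ₐ[↥(OL O K1)] ↥A).toRingHom) = 0 := by
    apply Subtype.ext
    rw [hconv, hroot]
    rfl
  have hVgen : ∀ y : F1T K1 N, ∃ (num : Polynomial (Polynomial ↥(OL O K1)))
      (den : Polynomial ↥(OL O K1)), den ≠ 0 ∧
      y * algebraMap ↥A (F1T K1 N) (aeval (⟨x, hxA⟩ : ↥A) den) =
        algebraMap ↥A (F1T K1 N) (aeval (⟨Vel, hVel⟩ : ↥A) (num.map (aeval (⟨x, hxA⟩ : ↥A) :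
          Polynomial ↥(OL O K1) →ₐ[↥(OL O K1)] ↥A).toRingHom)) := by
    intro y
    obtain ⟨n, d, hd0, hnd⟩ := hgen (y : LaurentSeries K1) y.2
    refine ⟨n, d, hd0, Subtype.ext ?_⟩
    show (y : LaurentSeries K1) * ((aeval (⟨x, hxA⟩ : ↥A) d : ↥A) : LaurentSeries K1) =
      ((aeval (⟨Vel, hVel⟩ : ↥A) (n.map (aeval (⟨x, hxA⟩ : ↥A) :
          Polynomial ↥(OL O K1) →ₐ[↥(OL O K1)] ↥A).toRingHom) : ↥A) : LaurentSeries K1)
    rw [hconv, hev, mul_comm, hnd]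
  have hπirr : Irreducible (⟨πL O K1 ρ hρ, S.π_mem⟩ : ↥(OL O K1)) := S.π_irr S.π_mem
  exact Fermat.Agent.S18_helper17_IG.S18B_IG_generic (O := ↥(OL O K1)) (F1 := F1T K1 N)
    (A := ↥A) (⟨πL O K1 ρ hρ, S.π_mem⟩ : ↥(OL O K1)) hπirr (⟨x, hxA⟩ : ↥A) hxtr hA'
    (⟨Vel, hVel⟩ : ↥A) P₀ hmon hP₀V hVgen hsep An Bd hcov m hm hπm hhor

/-- `IGat_chart` in the pointwise shape of `CDefs.IG` (the shape of `hcusp` in helper18's
`S18IGINF_IG_inf`). -/
theorem IGpt_chart (hρs : Function.Surjective ρ)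
    (S : Setup (OL O K1) (πL O K1 ρ hρ) (jqModC K1) (F1L K1 N) (VL O K1 ρ hρ N)
      (A0L O K1 N) (AinfL O K1 N))
    (x : LaurentSeries K1) (hx : x = jqModC K1 ∨ x = (jqModC K1)⁻¹)
    (A : Subring (LaurentSeries K1))
    (hC : Chart (OL O K1) (πL O K1 ρ hρ) x (F1L K1 N) (VL O K1 ρ hρ N) A)
    (hxF : x ∈ modularFunctionFieldFullC K1 N) (hxA : x ∈ A) (hOA : OL O K1 ≤ A)
    (An Bd : Polynomial ↥(OL O K1))
    (hcov : @S18B_Cover ↥(OL O K1) (F1T K1 N) _ _ (algOLF O K1 N)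
      (⟨πL O K1 ρ hρ, S.π_mem⟩ : ↥(OL O K1)) (⟨x, hxF⟩ : F1T K1 N) An Bd)
    (hπ : πL O K1 ρ hρ ∈ A) (m : Ideal ↥A) (hm : m.IsMaximal)
    (hπm : (⟨πL O K1 ρ hρ, hπ⟩ : ↥A) ∈ m)
    (hhor : ∀ t₀ : ↥(OL O K1),
      (∃ c : ↥(OL O K1), (⟨x, hxA⟩ : ↥A) - ⟨(c : LaurentSeries K1), hOA c.2⟩ ∈ m ∧
        (⟨πL O K1 ρ hρ, S.π_mem⟩ : ↥(OL O K1)) ∣ An.eval t₀ - c * Bd.eval t₀) →
      ¬ (⟨πL O K1 ρ hρ, S.π_mem⟩ : ↥(OL O K1)) ∣ Bd.eval t₀ →
      @S18B_Hor ↥(OL O K1) (F1T K1 N) _ _ (algOLF O K1 N)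
        (⟨πL O K1 ρ hρ, S.π_mem⟩ : ↥(OL O K1)) (⟨x, hxF⟩ : F1T K1 N) An Bd t₀) :
    ∃ y ∈ m, ∀ z ∈ m, ∃ c : ↥A, c ∉ m ∧ ∃ a b : ↥A,
      c * z = a * (⟨πL O K1 ρ hρ, hπ⟩ : ↥A) + b * y := by
  obtain ⟨y, hy, h1, -⟩ :=
    IGat_chart ρ hρ N hρs S x hx A hC hxF hxA hOA An Bd hcov m hm hπm hhor
  exact ⟨y, hy, fun z hz => by
    obtain ⟨s, hs, a, b, hab⟩ := h1 z hz
    exact ⟨s, hs, a, b, hab⟩⟩

/-- **`CDefs.IG` for a chart**, from a cover and the horizontal input at all points. -/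
theorem IG_chart (hρs : Function.Surjective ρ)
    (S : Setup (OL O K1) (πL O K1 ρ hρ) (jqModC K1) (F1L K1 N) (VL O K1 ρ hρ N)
      (A0L O K1 N) (AinfL O K1 N))
    (x : LaurentSeries K1) (hx : x = jqModC K1 ∨ x = (jqModC K1)⁻¹)
    (A : Subring (LaurentSeries K1))
    (hC : Chart (OL O K1) (πL O K1 ρ hρ) x (F1L K1 N) (VL O K1 ρ hρ N) A)
    (hxF : x ∈ modularFunctionFieldFullC K1 N) (hxA : x ∈ A) (hOA : OL O K1 ≤ A)
    (An Bd : Polynomial ↥(OL O K1))
    (hcov : @S18B_Cover ↥(OL O K1) (F1T K1 N) _ _ (algOLF O K1 N)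
      (⟨πL O K1 ρ hρ, S.π_mem⟩ : ↥(OL O K1)) (⟨x, hxF⟩ : F1T K1 N) An Bd)
    (hhor : ∀ t₀ : ↥(OL O K1),
      ¬ (⟨πL O K1 ρ hρ, S.π_mem⟩ : ↥(OL O K1)) ∣ Bd.eval t₀ →
      @S18B_Hor ↥(OL O K1) (F1T K1 N) _ _ (algOLF O K1 N)
        (⟨πL O K1 ρ hρ, S.π_mem⟩ : ↥(OL O K1)) (⟨x, hxF⟩ : F1T K1 N) An Bd t₀) :
    IG (πL O K1 ρ hρ) A := fun hπ m hm hπm =>
  IGpt_chart ρ hρ N hρs S x hx A hC hxF hxA hOA An Bd hcov hπ m hm hπm
    (fun t₀ _ h2 => hhor t₀ h2)

end Plug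

end Fermat.Agent.S18AI
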