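import Fermat.Agent.S18_helper14_AFRAC
import Fermat.Agent.S18_helper25_COREDefs

/-!
# S18, block A: the concrete carriers `S18K_*` of the integrator ARE the abstract carriers of
`S18_helper14_ADefs` at `O := ↥(S18K_O1 A K1)`, `K1 := ↥K1`, `ρ := S18K_res A K1` (helper14)

All identifications are `rfl` except `S18K_O` (`Subring.map` versus `RingHom.range`), which is a
two-line extensionality.  Consequently every statement proved for the abstract carriers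
(`S18A.setup_of`, `S18A.setup_of_sat_fin`, X-A-SAT, X-A-FIN) transfers verbatim.
-/

set_option autoImplicit false

open ModularCurve Fermat.Agent.S18_helper13_GAUSS Fermat.Agent.S18_helper9_CDefs
open Fermat.Agent.S18_helper25_COREDefs Fermat.Agent.S18A

noncomputable section

namespace Fermat.Agent.S18AK

variable (A : ValuationSubring (AlgebraicClosure ℚ))
  (K1 : IntermediateField ℚ (AlgebraicClosure ℚ))

theorem S18K_O_eq : S18K_O A K1 = OL ↥(S18K_O1 A K1) ↥K1 := by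
  ext x
  rw [S18K_O, Subring.mem_map, mem_OL_iff]
  constructor
  · rintro ⟨c, hc, rfl⟩
    exact ⟨⟨c, hc⟩, rfl⟩
  · rintro ⟨a, rfl⟩
    exact ⟨a.1, a.2, rfl⟩

theorem S18K_j_eq : S18K_j K1 = jqModC ↥K1 := rfl

theorem S18K_F1_eq (N : ℕ) : S18K_F1 K1 N = F1L ↥K1 N := rfl

theorem S18K_A0_eq (N : ℕ) : S18K_A0 A K1 N = A0L ↥(S18K_O1 A K1) ↥K1 N := by
  rw [S18K_A0, S18K_O_eq]; rfl

theorem S18K_Ainf_eq (N : ℕ) : S18K_Ainf A K1 N = AinfL ↥(S18K_O1 A K1) ↥K1 N := by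
  rw [S18K_Ainf, S18K_O_eq]; rfl

variable [IsDiscreteValuationRing (S18K_O1 A K1)]

theorem S18K_D_eq :
    S18K_D A K1 = gd ↥(S18K_O1 A K1) ↥K1 (S18K_res A K1) (S18K_res_eq_zero_iff A K1) := rfl

theorem S18K_π_eq :
    S18K_π A K1 = πL ↥(S18K_O1 A K1) ↥K1 (S18K_res A K1) (S18K_res_eq_zero_iff A K1) := rfl

theorem S18K_V_eq (N : ℕ) :
    S18K_V A K1 N = VL ↥(S18K_O1 A K1) ↥K1 (S18K_res A K1) (S18K_res_eq_zero_iff A K1) N := rfl

/-- Transfer of a `Setup` for the abstract carriers to the concrete carriers of the integrator. -/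
theorem setupK_of_setup (N : ℕ)
    (S : Setup (OL ↥(S18K_O1 A K1) ↥K1)
      (πL ↥(S18K_O1 A K1) ↥K1 (S18K_res A K1) (S18K_res_eq_zero_iff A K1)) (jqModC ↥K1)
      (F1L ↥K1 N) (VL ↥(S18K_O1 A K1) ↥K1 (S18K_res A K1) (S18K_res_eq_zero_iff A K1) N)
      (A0L ↥(S18K_O1 A K1) ↥K1 N) (AinfL ↥(S18K_O1 A K1) ↥K1 N)) :
    Setup (S18K_O A K1) (S18K_π A K1) (S18K_j K1) (S18K_F1 K1 N) (S18K_V A K1 N)
      (S18K_A0 A K1 N) (S18K_Ainf A K1 N) := by
  rw [S18K_O_eq, S18K_A0_eq, S18K_Ainf_eq]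
  exact S

/-- **Block A for the integrator's carriers (conditional on saturation and finiteness).** -/
theorem setupK_of_sat_fin (N : ℕ)
    (hsat0 : ∀ v ∈ S18K_V A K1 N, S18K_π A K1 * v ∈ S18K_A0 A K1 N → v ∈ S18K_A0 A K1 N)
    (hsatInf : ∀ v ∈ S18K_V A K1 N, S18K_π A K1 * v ∈ S18K_Ainf A K1 N → v ∈ S18K_Ainf A K1 N)
    (hfin : ∃ s : Finset (LaurentSeries K1), ∀ x ∈ S18K_F1 K1 N,
      ∃ c : LaurentSeries K1 → LaurentSeries K1,
        (∀ y, c y ∈ Subfield.closure ((S18K_O A K1 : Set (LaurentSeries K1)) ∪ {S18K_j K1})) ∧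
          x = ∑ y ∈ s, c y * y) :
    Setup (S18K_O A K1) (S18K_π A K1) (S18K_j K1) (S18K_F1 K1 N) (S18K_V A K1 N)
      (S18K_A0 A K1 N) (S18K_Ainf A K1 N) := by
  apply setupK_of_setup
  rw [S18K_O_eq, S18K_A0_eq, S18K_Ainf_eq] at *
  exact setup_of_sat_fin (S18K_res A K1) (S18K_res_eq_zero_iff A K1) N hsat0 hsatInf hfin

end Fermat.Agent.S18AK
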