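import Mathlib
import Fermat.Prelude.Def_FLTPrelim_Ramification
import Fermat.Agent.S18_helper5_BASE

/-!
# S18, X-A1: existential-over-types form with `Algebra.IsAlgebraic ℚ K1`

Same as `exists_baseDVR_types` / `exists_baseDVR_types_unif` of `S18_helper5_BASE2`, with the
additional instance-shaped output `Algebra.IsAlgebraic ℚ K1` (for the default `ℚ`-algebra
structure of the characteristic zero field `K1`).
-/

set_option autoImplicit false

namespace Fermat.Agent.S18_helper5_BASE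

local notation "Qb" => AlgebraicClosure ℚ

/-- A characteristic zero field which embeds into `ℚ̄` is algebraic over `ℚ`
(for its default `ℚ`-algebra structure). -/
theorem S18A1_isAlgebraic_of_embedding (K1 : Type) [Field K1] [CharZero K1] (e : K1 →+* Qb) :
    Algebra.IsAlgebraic ℚ K1 := by
  refine ⟨fun x => ?_⟩
  have hx : IsAlgebraic ℚ (e x) := (S18A1_isIntegral (e x)).isAlgebraic
  obtain ⟨p, hp0, hp⟩ := hx
  refine ⟨p, hp0, ?_⟩
  apply e.injective
  rw [map_zero, Polynomial.aeval_def, Polynomial.hom_eval₂]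
  have hcomp : e.comp (algebraMap ℚ K1) = algebraMap ℚ Qb := RingHom.ext_rat _ _
  rw [hcomp]
  exact hp

/-- **X-A1, existential-over-types form, with algebraicity of `K1` over `ℚ`.** -/
theorem exists_baseDVR_types_alg (ℓ : ℕ) (hℓ : ℓ.Prime) (A : ValuationSubring Qb)
    (hA : A.LiesOverPrime ℓ) (S : Finset Qb) :
    ∃ (K1 : Type) (_ : Field K1) (_ : CharZero K1) (_ : Algebra.IsAlgebraic ℚ K1)
      (e : K1 →+* Qb) (O : Type)
      (_ : CommRing O) (_ : IsDomain O) (_ : IsDiscreteValuationRing O) (_ : Algebra O K1)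
      (_ : IsFractionRing O K1) (rho : O →+* IsLocalRing.ResidueField A) (π : O),
      (∀ s ∈ S, s ∈ e.range) ∧
      (∀ n : ℕ, ¬ ℓ ∣ n → ∀ ζ : Qb, ζ ^ n = 1 → ζ ∈ e.range) ∧
      (∀ x : K1, e x ∈ A ↔ x ∈ (algebraMap O K1).range) ∧
      (∀ (a : O) (h : e (algebraMap O K1 a) ∈ A),
        rho a = IsLocalRing.residue A ⟨e (algebraMap O K1 a), h⟩) ∧
      Function.Surjective rho ∧
      (∀ x, rho x = 0 ↔ x ∈ IsLocalRing.maximalIdeal O) ∧
      Irreducible π ∧ IsLocalRing.maximalIdeal O = Ideal.span {π} ∧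
      (∀ n : ℕ, ¬ ℓ ∣ n → IsUnit ((n : ℕ) : O)) ∧
      CharP (IsLocalRing.ResidueField A) ℓ := by
  obtain ⟨π, hπ⟩ := S18A1_exists_isUnif A hℓ hA S
  refine ⟨↥(S18A1_K1 ℓ S), inferInstance, inferInstance,
    S18A1_isAlgebraic_of_embedding _ (algebraMap (S18A1_K1 ℓ S) Qb),
    algebraMap (S18A1_K1 ℓ S) Qb,
    ↥(S18A1_O1 A ℓ S), inferInstance, inferInstance, S18A1_isDVR A hℓ hA S, inferInstance,
    inferInstance, S18A1_res A ℓ S, S18A1_piO1 A S hπ, ?_, ?_, ?_, ?_,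
    S18A1_res_surjective A hℓ hA S, S18A1_res_eq_zero_iff A S,
    S18A1_piO1_irreducible A hℓ hA S hπ, S18A1_maximalIdeal_eq A hℓ hA S hπ,
    fun n hn => S18A1_isUnit_natCast A hℓ hA S n hn, S18A1_charP_residue A hℓ hA⟩
  · intro s hs
    exact ⟨⟨s, S18A1_mem_K1_of_mem ℓ S hs⟩, rfl⟩
  · intro n hn ζ hζ
    exact ⟨⟨ζ, S18A1_root_mem_K1 ℓ S hn hζ⟩, rfl⟩
  · intro x
    constructor
    · intro hx
      exact ⟨⟨x, hx⟩, rfl⟩
    · rintro ⟨y, rfl⟩
      exact y.2
  · intro a h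
    rfl

/-- Algebraicity of the concrete `K1` over `ℚ`, for the intermediate-field algebra structure. -/
theorem S18A1_K1_isAlgebraic (ℓ : ℕ) (S : Finset Qb) :
    Algebra.IsAlgebraic ℚ ↥(S18A1_K1 ℓ S) := by
  refine ⟨fun x => ?_⟩
  have hx : IsAlgebraic ℚ ((x : S18A1_K1 ℓ S) : Qb) := (S18A1_isIntegral _).isAlgebraic
  exact (isAlgebraic_algebraMap_iff (algebraMap (S18A1_K1 ℓ S) Qb).injective).1 hx

end Fermat.Agent.S18_helper5_BASE
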