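import Fermat.Agent.S18_helper14_AK
import Fermat.Agent.S18_helper20_ASAT
import Fermat.Agent.S18_helper13_FIN
import Fermat.Agent.S18_helper5_BASE4

/-!
# S18, block A: the final product `Setup` (helper14)

* `S18A.setup`: the `Setup` of block C for the abstract carriers of `S18_helper14_ADefs`
  (`O` a discrete valuation ring, `K1 = Frac O` algebraic over `ℚ`, `ρ : O →+* k` with kernel the
  maximal ideal, `char k = ℓ ∤ N`), UNCONDITIONAL.  Inputs: X-A-SAT (helper20, on top of the S28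
  saturation and helper18's transport), X-A-FIN (helper13), Gauss valuation (helper13) and
  `Frac A = F1` (AFRAC).
* `S18AK.setupK`: the same for the concrete carriers `S18K_*` of the integrator
  (`S18_helper25_COREDefs`), i.e. the `Setup` conjunct of `S18K_BlocksAB`.
-/

set_option autoImplicit false

open ModularCurve Fermat.Agent.S18_helper13_GAUSS Fermat.Agent.S18_helper9_CDefs
open Fermat.Agent.S18_helper25_COREDefs

noncomputable section

namespace Fermat.Agent.S18A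

/-- **Block A, main theorem.** -/
theorem setup (N : ℕ) [NeZero N] (ℓ : ℕ) [Fact ℓ.Prime]
    {O K1 k : Type} [CommRing O] [IsDomain O] [IsDiscreteValuationRing O] [Field K1]
    [CharZero K1] [Algebra O K1] [IsFractionRing O K1] [Algebra.IsAlgebraic ℚ K1] [Field k]
    [CharP k ℓ] (ρ : O →+* k) (hρ : ∀ x : O, ρ x = 0 ↔ x ∈ IsLocalRing.maximalIdeal O)
    (hℓN : ¬ ℓ ∣ N) :
    Setup (OL O K1) (πL O K1 ρ hρ) (jqModC K1) (F1L K1 N) (VL O K1 ρ hρ N)
      (A0L O K1 N) (AinfL O K1 N) :=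
  setup_of_sat_fin ρ hρ N
    (Fermat.Agent.S18_helper20_ASAT.A0L_sat N ℓ ρ hρ hℓN)
    (Fermat.Agent.S18_helper20_ASAT.AinfL_sat N ℓ ρ hρ hℓN)
    (Fermat.Agent.S18_helper13_FIN.F1L_finite O K1 N)

end Fermat.Agent.S18A

namespace Fermat.Agent.S18AK

open Fermat.Agent.S18A

/-- **Block A for the integrator's carriers**: the `Setup` conjunct of `S18K_BlocksAB`. -/
theorem setupK (N : ℕ) [NeZero N] {ℓ : ℕ} (hℓ : ℓ.Prime)
    (A : ValuationSubring (AlgebraicClosure ℚ)) (hA : A.LiesOverPrime ℓ) (hℓN : ¬ ℓ ∣ N)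
    (K1 : IntermediateField ℚ (AlgebraicClosure ℚ))
    [IsDiscreteValuationRing (S18K_O1 A K1)] :
    Setup (S18K_O A K1) (S18K_π A K1) (S18K_j K1) (S18K_F1 K1 N) (S18K_V A K1 N)
      (S18K_A0 A K1 N) (S18K_Ainf A K1 N) := by
  have : Fact ℓ.Prime := ⟨hℓ⟩
  have : CharP (IsLocalRing.ResidueField A) ℓ :=
    Fermat.Agent.S18_helper5_BASE.S18A1_charP_residue A hℓ hA
  have : Algebra.IsAlgebraic ℚ ↥K1 :=
    Fermat.Agent.S18_helper5_BASE.S18A1_isAlgebraic_of_embedding ↥K1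
      (algebraMap ↥K1 (AlgebraicClosure ℚ))
  exact setupK_of_setup A K1 N
    (setup N ℓ (S18K_res A K1) (S18K_res_eq_zero_iff A K1) hℓN)

/-- The `Setup` conjunct of `S18K_BlocksAB`, in the exact binder shape of the contract. -/
theorem setupK_admissible (N : ℕ) [NeZero N] {ℓ : ℕ} (hℓ : ℓ.Prime)
    (A : ValuationSubring (AlgebraicClosure ℚ)) (hA : A.LiesOverPrime ℓ) (hℓN : ¬ ℓ ∣ N)
    (K1 : IntermediateField ℚ (AlgebraicClosure ℚ)) (h : S18K_Admissible A K1 ℓ) :
    letI := h.dvr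
    Setup (S18K_O A K1) (S18K_π A K1) (S18K_j K1) (S18K_F1 K1 N) (S18K_V A K1 N)
      (S18K_A0 A K1 N) (S18K_Ainf A K1 N) :=
  letI := h.dvr
  setupK N hℓ A hA hℓN K1

end Fermat.Agent.S18AK
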