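import Mathlib
import Fermat.Prelude.Def_AlgebraicCurve_DivisorClassGroup
import Fermat.Agent.S18_helper21_HENSEL

/-!
# S18, CORE glue, part A: `p`-th roots of Laurent series and of functions with `p`-divisible order

* `S18K_root_one`: a power series with constant coefficient `1` has a `p`-th root (`p ≠ 0` in `K`);
* `S18K_exists_root`: a nonzero Laurent series whose order is divisible by `p` and whose leading
  coefficient is a `p`-th power is a `p`-th power;
* `S18K_place_pow`: at a place `P`, a function with `p ∣ ord_P f` is a unit times a `p`-th power.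
-/

set_option autoImplicit false

open AlgebraicCurve

noncomputable section

namespace Fermat.Agent.S18_helper25_COREA

open Fermat.Agent.S18_helper21_HENSEL

/-- a power series with constant coefficient `1` has a `p`-th root -/
theorem S18K_root_one {K : Type*} [Field K] (p : ℕ) (hp : (p : K) ≠ 0) (u : PowerSeries K)
    (hu : PowerSeries.constantCoeff u = 1) :
    ∃ y : PowerSeries K, y ^ p = u ∧ PowerSeries.constantCoeff y = 1 := by
  have hp0 : p ≠ 0 := by
    rintro rfl
    simp at hp
  obtain ⟨y, hy, hy0⟩ := S18P11_hensel_simple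
    ((Polynomial.X : Polynomial (PowerSeries K)) ^ p - Polynomial.C u) 1
    (by simp [hu])
    (by
      simp only [Polynomial.derivative_sub, Polynomial.derivative_X_pow, Polynomial.derivative_C,
        sub_zero, Polynomial.eval_mul, Polynomial.eval_pow, Polynomial.eval_X, map_one, one_pow,
        mul_one, Polynomial.eval_C]
      rw [map_natCast]
      exact hp)
  refine ⟨y, ?_, hy0⟩
  simpa [sub_eq_zero] using hy

/-- a nonzero Laurent series whose order is divisible by `p` and whose leading coefficient is a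
`p`-th power is a `p`-th power -/
theorem S18K_exists_root {K : Type*} [Field K] (p : ℕ) (hp : (p : K) ≠ 0)
    (f : LaurentSeries K) (hf : f ≠ 0) (hord : (p : ℤ) ∣ f.order)
    (hlead : ∃ r : K, r ^ p = f.coeff f.order) :
    ∃ h : LaurentSeries K, h ^ p = f := by
  obtain ⟨m, hm⟩ := hord
  obtain ⟨r, hr⟩ := hlead
  have hc : f.coeff f.order ≠ 0 := fun h => hf (HahnSeries.coeff_order_eq_zero.mp h)
  set c := f.coeff f.order with hcdef
  have hpart0 : PowerSeries.constantCoeff f.powerSeriesPart = c := by
    rw [← PowerSeries.coeff_zero_eq_constantCoeff_apply, LaurentSeries.powerSeriesPart_coeff]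
    simp [hcdef]
  obtain ⟨y, hy, -⟩ := S18K_root_one p hp (PowerSeries.C c⁻¹ * f.powerSeriesPart)
    (by rw [map_mul, PowerSeries.constantCoeff_C, hpart0, inv_mul_cancel₀ hc])
  refine ⟨HahnSeries.single m 1 * HahnSeries.ofPowerSeries ℤ K (PowerSeries.C r * y), ?_⟩
  have h1 := LaurentSeries.single_order_mul_powerSeriesPart f
  have h2 : (PowerSeries.C r * y) ^ p = f.powerSeriesPart := by
    rw [mul_pow, hy, ← map_pow, hr, ← mul_assoc, ← map_mul, mul_inv_cancel₀ hc, map_one,
      one_mul]
  have h3 : (HahnSeries.single m (1 : K)) ^ p = HahnSeries.single f.order (1 : K) := by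
    rw [HahnSeries.single_pow, one_pow, nsmul_eq_mul, ← hm]
  rw [mul_pow, ← map_pow (HahnSeries.ofPowerSeries ℤ K), h2, h3]
  exact h1

/-- at a place `P`, a function whose order is divisible by `p` is a unit times a `p`-th power -/
theorem S18K_place_pow {K F : Type*} [Field K] [Field F] [Algebra K F] (P : Place K F)
    (p : ℕ) (f : F) (hf : f ≠ 0) (hdiv : (p : ℤ) ∣ P.ord f) :
    ∃ ε g : F, ε ∈ P.toValuationSubring ∧ ε⁻¹ ∈ P.toValuationSubring ∧ g ≠ 0 ∧
      f = ε * g ^ p := by
  obtain ⟨π, hπ⟩ := IsDiscreteValuationRing.exists_irreducible P.toValuationSubring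
  obtain ⟨u, hu⟩ := P.exists_unit_mul_zpow hf hπ
  obtain ⟨k, hk⟩ := hdiv
  have hπ0 : (π : F) ≠ 0 := by
    simpa [ne_eq, ZeroMemClass.coe_eq_zero] using hπ.ne_zero
  refine ⟨((u : P.toValuationSubring) : F), (π : F) ^ k, (u : P.toValuationSubring).2, ?_,
    zpow_ne_zero _ hπ0, ?_⟩
  · have h1 : (((u⁻¹ : P.toValuationSubringˣ) : P.toValuationSubring) : F) =
        (((u : P.toValuationSubring) : F))⁻¹ := by
      have h2 : ((u : P.toValuationSubring) : F) *
          (((u⁻¹ : P.toValuationSubringˣ) : P.toValuationSubring) : F) = 1 := by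
        have h3 : ((u : P.toValuationSubring) * ((u⁻¹ : P.toValuationSubringˣ) :
            P.toValuationSubring) : P.toValuationSubring) = 1 := u.mul_inv
        exact congrArg (fun a : P.toValuationSubring => (a : F)) h3
      exact eq_inv_of_mul_eq_one_right h2
    rw [← h1]
    exact ((u⁻¹ : P.toValuationSubringˣ) : P.toValuationSubring).2
  · rw [← zpow_natCast, ← zpow_mul, mul_comm k, ← hk]
    exact hu

/-! ### The place at the cusp `∞` -/

section Cusp

variable {K : Type*} [Field K]

theorem S18K_order_inv (x : LaurentSeries K) : x⁻¹.order = -x.order := by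
  by_cases hx : x = 0
  · simp [hx]
  · have h := HahnSeries.order_mul hx (inv_ne_zero hx)
    rw [mul_inv_cancel₀ hx, HahnSeries.order_one] at h
    omega

variable (F : IntermediateField K (LaurentSeries K))

/-- the valuation ring of the `q`-adic valuation on a subfield of `K((q))` -/
def S18K_cuspVS : ValuationSubring F where
  carrier := {x | 0 ≤ (x : LaurentSeries K).order}
  mul_mem' := by
    intro a b ha hb
    simp only [Set.mem_ofPred_eq] at ha hb ⊢
    by_cases ha0 : (a : LaurentSeries K) = 0
    · simp [ha0]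
    by_cases hb0 : (b : LaurentSeries K) = 0
    · simp [hb0]
    rw [MulMemClass.coe_mul, HahnSeries.order_mul ha0 hb0]
    omega
  one_mem' := by simp
  add_mem' := by
    intro a b ha hb
    simp only [Set.mem_ofPred_eq] at ha hb ⊢
    by_cases hab : (a : LaurentSeries K) + b = 0
    · rw [AddMemClass.coe_add, hab]; simp
    · rw [AddMemClass.coe_add]
      exact le_trans (le_min ha hb) (HahnSeries.min_order_le_order_add hab)
  zero_mem' := by simp
  neg_mem' := by
    intro a ha
    simp only [Set.mem_ofPred_eq] at ha ⊢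
    rw [NegMemClass.coe_neg, HahnSeries.order_neg]
    exact ha
  mem_or_inv_mem' := by
    intro a
    simp only [Set.mem_ofPred_eq]
    rcases le_total 0 (a : LaurentSeries K).order with h | h
    · exact Or.inl h
    · right
      show 0 ≤ ((a⁻¹ : F) : LaurentSeries K).order
      rw [IntermediateField.coe_inv, S18K_order_inv]
      omega

theorem S18K_mem_cuspVS (x : F) : x ∈ S18K_cuspVS F ↔ 0 ≤ (x : LaurentSeries K).order := Iff.rfl

theorem S18K_isUnit_cuspVS (x : S18K_cuspVS F) (hx : ((x : F) : LaurentSeries K).order = 0)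
    (hx0 : x ≠ 0) : IsUnit x := by
  have hx0' : (x : F) ≠ 0 := fun h => hx0 (Subtype.ext h)
  have hinv : (x : F)⁻¹ ∈ S18K_cuspVS F := by
    rw [S18K_mem_cuspVS, IntermediateField.coe_inv, S18K_order_inv, hx]
    simp
  refine IsUnit.of_mul_eq_one (⟨(x : F)⁻¹, hinv⟩ : S18K_cuspVS F) ?_
  apply Subtype.ext
  show (x : F) * (x : F)⁻¹ = 1
  exact mul_inv_cancel₀ hx0'

theorem S18K_order_of_isUnit_cuspVS (x : S18K_cuspVS F) (hx : IsUnit x) :
    ((x : F) : LaurentSeries K).order = 0 := by
  obtain ⟨u, rfl⟩ := hx
  have h1 : 0 ≤ (((u : S18K_cuspVS F) : F) : LaurentSeries K).order := (u : S18K_cuspVS F).2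
  have h2 : 0 ≤ ((((u⁻¹ : (S18K_cuspVS F)ˣ) : S18K_cuspVS F) : F) : LaurentSeries K).order :=
    ((u⁻¹ : (S18K_cuspVS F)ˣ) : S18K_cuspVS F).2
  have h3 : ((((u : S18K_cuspVS F) : F) : LaurentSeries K)) *
      ((((u⁻¹ : (S18K_cuspVS F)ˣ) : S18K_cuspVS F) : F) : LaurentSeries K) = 1 := by
    have h4 : ((u : S18K_cuspVS F) * ((u⁻¹ : (S18K_cuspVS F)ˣ) : S18K_cuspVS F) :
        S18K_cuspVS F) = 1 := u.mul_inv
    exact congrArg (fun a : S18K_cuspVS F => ((a : F) : LaurentSeries K)) h4
  have hu0 : ((((u : S18K_cuspVS F) : F) : LaurentSeries K)) ≠ 0 := left_ne_zero_of_mul_eq_one h3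
  have hv0 : ((((u⁻¹ : (S18K_cuspVS F)ˣ) : S18K_cuspVS F) : F) : LaurentSeries K) ≠ 0 :=
    right_ne_zero_of_mul_eq_one h3
  have h6 := HahnSeries.order_mul hu0 hv0
  rw [h3, HahnSeries.order_one] at h6
  omega

variable {F}

/-- with a function of order `1`, the `q`-adic valuation ring is a discrete valuation ring -/
theorem S18K_cuspVS_isDVR (t : F) (ht : (t : LaurentSeries K).order = 1) :
    IsDiscreteValuationRing (S18K_cuspVS F) := by
  have ht0 : (t : LaurentSeries K) ≠ 0 := by
    intro h
    rw [h, HahnSeries.order_zero] at ht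
    exact zero_ne_one ht
  have htF : t ≠ 0 := fun h => ht0 (by rw [h]; rfl)
  have htm : t ∈ S18K_cuspVS F := by
    rw [S18K_mem_cuspVS, ht]; exact zero_le_one
  have hpow : ∀ n : ℕ, (((t ^ n : F)) : LaurentSeries K).order = n := by
    intro n
    induction n with
    | zero => simp
    | succ n ih =>
      rw [pow_succ, MulMemClass.coe_mul, HahnSeries.order_mul ?_ ht0, ih, ht]
      · push_cast; ring
      · exact fun h => pow_ne_zero n htF (by
          apply Subtype.ext
          exact h)
  apply IsDiscreteValuationRing.ofHasUnitMulPowIrreducibleFactorization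
  refine ⟨⟨t, htm⟩, ?_, ?_⟩
  · refine ⟨?_, ?_⟩
    · intro hu
      have := S18K_order_of_isUnit_cuspVS F _ hu
      rw [ht] at this
      exact one_ne_zero this
    · intro a b hab
      have hab' : (t : LaurentSeries K) = ((a : F) : LaurentSeries K) * ((b : F) : LaurentSeries K) := by
        have := congrArg (fun x : S18K_cuspVS F => ((x : F) : LaurentSeries K)) hab
        simpa using this
      have ha0 : ((a : F) : LaurentSeries K) ≠ 0 := by
        intro h; rw [h, zero_mul] at hab'; exact ht0 hab'
      have hb0 : ((b : F) : LaurentSeries K) ≠ 0 := by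
        intro h; rw [h, mul_zero] at hab'; exact ht0 hab'
      have hord := HahnSeries.order_mul ha0 hb0
      rw [← hab', ht] at hord
      have ha1 : 0 ≤ ((a : F) : LaurentSeries K).order := a.2
      have hb1 : 0 ≤ ((b : F) : LaurentSeries K).order := b.2
      have hcases : ((a : F) : LaurentSeries K).order = 0 ∨ ((b : F) : LaurentSeries K).order = 0 := by
        omega
      rcases hcases with h | h
      · left
        exact S18K_isUnit_cuspVS F a h (fun h0 => ha0 (by rw [h0]; rfl))
      · right
        exact S18K_isUnit_cuspVS F b h (fun h0 => hb0 (by rw [h0]; rfl))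
  · intro x hx
    have hx0 : ((x : F) : LaurentSeries K) ≠ 0 := by
      intro h
      apply hx
      apply Subtype.ext
      apply Subtype.ext
      exact h
    have hx1 : 0 ≤ ((x : F) : LaurentSeries K).order := x.2
    obtain ⟨n, hn⟩ := Int.eq_ofNat_of_zero_le hx1
    refine ⟨n, ?_⟩
    have hu : (x : F) * (t ^ n)⁻¹ ∈ S18K_cuspVS F := by
      rw [S18K_mem_cuspVS, MulMemClass.coe_mul, IntermediateField.coe_inv,
        HahnSeries.order_mul hx0 (inv_ne_zero ?_), S18K_order_inv, hpow, hn]
      · simp
      · intro h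
        exact pow_ne_zero n htF (Subtype.ext h)
    have hu0 : ((⟨(x : F) * (t ^ n)⁻¹, hu⟩ : S18K_cuspVS F)) ≠ 0 := by
      intro h
      have h1 := congrArg (fun a : S18K_cuspVS F => (a : F)) h
      simp only [ZeroMemClass.coe_zero, mul_eq_zero, inv_eq_zero] at h1
      rcases h1 with h1 | h1
      · exact hx (Subtype.ext h1)
      · exact pow_ne_zero n htF h1
    have huu : IsUnit (⟨(x : F) * (t ^ n)⁻¹, hu⟩ : S18K_cuspVS F) := by
      apply S18K_isUnit_cuspVS F _ _ hu0
      show (((x : F) * (t ^ n)⁻¹ : F) : LaurentSeries K).order = 0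
      rw [MulMemClass.coe_mul, IntermediateField.coe_inv,
        HahnSeries.order_mul hx0 (inv_ne_zero ?_), S18K_order_inv, hpow, hn]
      · simp
      · intro h
        exact pow_ne_zero n htF (Subtype.ext h)
    obtain ⟨u, hu'⟩ := huu
    refine ⟨u, ?_⟩
    rw [hu']
    apply Subtype.ext
    show (t ^ n : F) * ((x : F) * (t ^ n)⁻¹) = x
    field_simp

/-- the place at the cusp `∞` -/
def S18K_cuspPlace (t : F) (ht : (t : LaurentSeries K).order = 1) : Place K F where
  toValuationSubring := S18K_cuspVS F
  algebraMap_mem' := by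
    intro a
    rw [S18K_mem_cuspVS]
    have h : ((algebraMap K F a : F) : LaurentSeries K) = HahnSeries.C a := by
      show algebraMap K (LaurentSeries K) a = HahnSeries.C a
      have h1 : algebraMap K (PowerSeries K) a = PowerSeries.C a := by simp
      rw [HahnSeries.algebraMap_apply', h1, HahnSeries.ofPowerSeries_C]
    rw [h, HahnSeries.order_C]
  ne_top' := by
    intro h
    have h1 : t⁻¹ ∈ S18K_cuspVS F := by rw [h]; exact ValuationSubring.mem_top _
    rw [S18K_mem_cuspVS, IntermediateField.coe_inv, S18K_order_inv, ht] at h1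
    omega
  isPrincipalIdealRing' := by
    have := S18K_cuspVS_isDVR t ht
    infer_instance

/-- **divisibility of the `q`-order**: if the divisor of `f` is divisible by `p`, then so is the
order of the `q`-expansion of `f`. -/
theorem S18K_dvd_order (t : F) (ht : (t : LaurentSeries K).order = 1) (p : ℕ) (f : F)
    (hf : f ≠ 0) (hdiv : ∀ P : Place K F, (p : ℤ) ∣ P.ord f) :
    (p : ℤ) ∣ (f : LaurentSeries K).order := by
  obtain ⟨ε, g, hε, hε', hg, hfg⟩ := S18K_place_pow (S18K_cuspPlace t ht) p f hf
    (hdiv (S18K_cuspPlace t ht))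
  have hε0 : ε ≠ 0 := by
    rintro rfl
    rw [zero_mul] at hfg
    exact hf hfg
  have h1 : 0 ≤ (ε : LaurentSeries K).order := hε
  have h2 : 0 ≤ ((ε⁻¹ : F) : LaurentSeries K).order := hε'
  rw [IntermediateField.coe_inv, S18K_order_inv] at h2
  have hεL : (ε : LaurentSeries K) ≠ 0 := fun h => hε0 (Subtype.ext h)
  have hgL : (g : LaurentSeries K) ≠ 0 := fun h => hg (Subtype.ext h)
  have hpow : ∀ n : ℕ, ((g : LaurentSeries K) ^ n).order = n * (g : LaurentSeries K).order := by
    intro n
    induction n with
    | zero => simp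
    | succ n ih =>
      rw [pow_succ, HahnSeries.order_mul (pow_ne_zero n hgL) hgL, ih]
      push_cast; ring
  have h3 : (f : LaurentSeries K) = (ε : LaurentSeries K) * (g : LaurentSeries K) ^ p := by
    rw [hfg]; rfl
  rw [h3, HahnSeries.order_mul hεL (pow_ne_zero p hgL), hpow]
  have : (ε : LaurentSeries K).order = 0 := by omega
  rw [this, zero_add]
  exact dvd_mul_right _ _

end Cusp

end Fermat.Agent.S18_helper25_COREA
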