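import Mathlib
import Fermat.Prelude.Def_ModularCurve_ReductionModL
import Fermat.Agent.S18_helper13_GAUSS2
import Fermat.Agent.S18_helper9_CDefs

/-!
# S18, CORE glue, part B: lifting functions from the special fibre, and `RedPow`

For Gauss data `D : GaussData O K κ` with surjective residue map:

* `S18K_exists_lift`: every element `g` of the function field over `κ` is the reduction of an
  element `G` of the Gauss valuation ring of the function field over `K`;
* `S18K_redPow`: if `f` is a unit of the Gauss valuation ring of the function field whose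
  reduction is `(red G) ^ p`, then `RedPow π V p f G`.
-/

set_option autoImplicit false

open HahnSeries IntermediateField ModularCurve
open Fermat.Agent.S18_helper13_GAUSS Fermat.Agent.S18_helper9_CDefs

noncomputable section

namespace Fermat.Agent.S18_helper25_COREB

variable {O K κ : Type*} [CommRing O] [IsDomain O] [Field K] [Field κ] (D : GaussData O K κ)

/-- constants of `O` as elements of the Gauss ring -/
theorem S18K_incS_C (a : O) :
    D.incS (HahnSeries.C a) = algebraMap K (LaurentSeries K) (D.inc a) := by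
  rw [algebraMap_laurentSeries_eq_single, GaussData.incS, HahnSeries.C_apply, coeffMap_single]

theorem S18K_redS_C (a : O) :
    D.redS (HahnSeries.C a) = algebraMap κ (LaurentSeries κ) (D.res a) := by
  rw [algebraMap_laurentSeries_eq_single, GaussData.redS, HahnSeries.C_apply, coeffMap_single]

/-- **lifting from the special fibre**: every function of level `N` over the residue field is the
reduction of a function of level `N` over `K` lying in the Gauss valuation ring. -/
theorem S18K_exists_lift (hsurj : Function.Surjective D.res) (N : ℕ) {g : LaurentSeries κ}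
    (hg : g ∈ modularFunctionFieldFullC κ N) :
    ∃ G : LaurentSeries K, G ∈ D.Vring ∧ G ∈ modularFunctionFieldFullC K N ∧ D.redFun G = g := by
  unfold modularFunctionFieldFullC at hg
  induction hg using IntermediateField.adjoin_induction with
  | mem y hy =>
    obtain ⟨d, hd0, hd, rfl⟩ := hy
    haveI := hd0
    exact ⟨qExpand K d (jqModC K), D.jqNModC_mem_Vring d, jqModCd_mem_full K N hd,
      D.redFun_jqNModC d⟩
  | algebraMap c =>
    obtain ⟨a, rfl⟩ := hsurj c
    refine ⟨D.incS (HahnSeries.C a), D.incS_mem_Vring _, ?_, ?_⟩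
    · rw [S18K_incS_C]
      exact IntermediateField.algebraMap_mem _ _
    · rw [D.redFun_incS, S18K_redS_C]
  | add x y _ _ h1 h2 =>
    obtain ⟨G1, hG1, hG1F, e1⟩ := h1
    obtain ⟨G2, hG2, hG2F, e2⟩ := h2
    exact ⟨G1 + G2, D.Vring.add_mem hG1 hG2, add_mem hG1F hG2F, by
      rw [D.redFun_add hG1 hG2, e1, e2]⟩
  | inv x _ h =>
    obtain ⟨G1, hG1, hG1F, e1⟩ := h
    by_cases hx : x = 0
    · refine ⟨0, D.Vring.zero_mem, zero_mem _, ?_⟩
      rw [D.redFun_zero, hx, inv_zero]
    · have h0 : D.redFun G1 ≠ 0 := by rw [e1]; exact hx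
      exact ⟨G1⁻¹, D.inv_mem_Vring hG1 h0, inv_mem hG1F, by rw [D.redFun_inv hG1 h0, e1]⟩
  | mul x y _ _ h1 h2 =>
    obtain ⟨G1, hG1, hG1F, e1⟩ := h1
    obtain ⟨G2, hG2, hG2F, e2⟩ := h2
    exact ⟨G1 * G2, D.Vring.mul_mem hG1 hG2, mul_mem hG1F hG2F, by
      rw [D.redFun_mul hG1 hG2, e1, e2]⟩

/-- **`RedPow`** from a congruence of reductions. -/
theorem S18K_redPow (F1 : Subfield (LaurentSeries K)) (hπF : D.πK ∈ F1) (p : ℕ)
    (f G : LaurentSeries K) (hf : f ∈ D.Vring) (hfF : f ∈ F1) (hG : G ∈ D.Vring) (hGF : G ∈ F1)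
    (hG0 : D.redFun G ≠ 0) (hred : D.redFun f = D.redFun G ^ p) :
    RedPow D.πK (D.Vring ⊓ F1.toSubring) p f G := by
  have hGi : G⁻¹ ∈ D.Vring := D.inv_mem_Vring hG hG0
  have hGiF : G⁻¹ ∈ F1 := F1.inv_mem hGF
  have hGne : G ≠ 0 := by
    rintro rfl
    exact hG0 D.redFun_zero
  refine ⟨⟨hG, hGF⟩, ⟨hGi, hGiF⟩, ?_⟩
  set u : LaurentSeries K := f * G⁻¹ ^ p with hu
  have huV : u ∈ D.Vring := D.Vring.mul_mem hf (D.Vring.pow_mem hGi p)
  have huF : u ∈ F1 := F1.mul_mem hfF (F1.pow_mem hGiF p)
  have hured : D.redFun u = 1 := by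
    rw [hu, D.redFun_mul hf (D.Vring.pow_mem hGi p), D.redFun_pow hGi, D.redFun_inv hG hG0, hred,
      ← mul_pow, mul_inv_cancel₀ hG0, one_pow]
  have h1 : D.redFun (u - 1) = 0 := by
    rw [D.redFun_sub huV D.Vring.one_mem, hured, D.redFun_one, sub_self]
  obtain ⟨c, hc, hcu⟩ := D.exists_eq_mul_of_redFun_eq_zero (D.Vring.sub_mem huV D.Vring.one_mem) h1
  have hπ0 := D.πK_ne_zero
  have hcF : c ∈ F1 := by
    have : c = D.πK⁻¹ * (u - 1) := by
      rw [hcu, ← mul_assoc, inv_mul_cancel₀ hπ0, one_mul]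
    rw [this]
    exact F1.mul_mem (F1.inv_mem hπF) (F1.sub_mem huF F1.one_mem)
  refine ⟨c, ⟨hc, hcF⟩, ?_⟩
  rw [← hcu, add_sub_cancel, hu, inv_pow, mul_comm f, ← mul_assoc,
    mul_inv_cancel₀ (pow_ne_zero p hGne), one_mul]

end Fermat.Agent.S18_helper25_COREB
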