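import Mathlib

/-!
# S18, block C: the Kummer idempotent, elementwise (Mathlib only)

Everything lives in one ambient commutative ring / field `L`; all rings are `Subring L`.

* `kumIdem p q s = q * ∑ i < p, s ^ i` (with `q = 1 / p`).
* `kumIdem_idem` (K1): if `s ^ p = 1 + π * c` then `e * e - e ∈ π S` for every subring `S ∋ q, s, c`.
* `kumIdem_congr` (K2): if `s - s' = π * d` then `kumIdem p q s - kumIdem p q s' ∈ π S`.
* `exists_lift_of_local` : local-global gluing of "`s ∈ A' + π V'`".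
-/

set_option autoImplicit false

namespace Fermat.Agent.S18_helper23_KUMIDEM

open Finset

section Ring

variable {B : Type*} [CommRing B]

/-- The Kummer idempotent `q * ∑_{i<p} s^i` (to be used with `q = 1/p`). -/
def kumIdem (p : ℕ) (q s : B) : B := q * ∑ i ∈ range p, s ^ i

theorem kumIdem_mem (S : Subring B) (p : ℕ) {q s : B} (hq : q ∈ S) (hs : s ∈ S) :
    kumIdem p q s ∈ S :=
  S.mul_mem hq (S.sum_mem fun i _ => S.pow_mem hs i)

/-- auxiliary witnesses: `e * s ^ i = e + π * kumW q s c i`. -/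
def kumW (q s c : B) : ℕ → B
  | 0 => 0
  | (i + 1) => kumW q s c i * s + q * c

theorem kumW_mem (S : Subring B) {q s c : B} (hq : q ∈ S) (hs : s ∈ S) (hc : c ∈ S) (i : ℕ) :
    kumW q s c i ∈ S := by
  induction i with
  | zero => exact S.zero_mem
  | succ i ih => exact S.add_mem (S.mul_mem ih hs) (S.mul_mem hq hc)

theorem kumIdem_mul_root (p : ℕ) (q s π c : B) (hs : s ^ p = 1 + π * c) :
    kumIdem p q s * s = kumIdem p q s + π * (q * c) := by
  unfold kumIdem
  have h1 := geom_sum_mul s p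
  rw [hs] at h1
  linear_combination q * h1

theorem kumIdem_mul_root_pow (p : ℕ) (q s π c : B) (hs : s ^ p = 1 + π * c) (i : ℕ) :
    kumIdem p q s * s ^ i = kumIdem p q s + π * kumW q s c i := by
  induction i with
  | zero => simp [kumW]
  | succ i ih =>
    have h1 := kumIdem_mul_root p q s π c hs
    rw [pow_succ, ← mul_assoc, ih, kumW]
    linear_combination h1

/-- (K1) explicit form. -/
theorem kumIdem_mul_self (p : ℕ) (q s π c : B) (hq : (p : B) * q = 1)
    (hs : s ^ p = 1 + π * c) :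
    kumIdem p q s * kumIdem p q s - kumIdem p q s =
      π * (q * ∑ i ∈ range p, kumW q s c i) := by
  have h1 : kumIdem p q s * kumIdem p q s =
      q * ∑ i ∈ range p, (kumIdem p q s + π * kumW q s c i) := by
    conv_lhs => rw [kumIdem, ← mul_assoc, mul_comm _ q, mul_assoc, Finset.mul_sum]
    congr 1
    exact Finset.sum_congr rfl fun i _ => kumIdem_mul_root_pow p q s π c hs i
  rw [h1, Finset.sum_add_distrib, Finset.sum_const, Finset.card_range, ← Finset.mul_sum,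
    nsmul_eq_mul]
  linear_combination kumIdem p q s * hq

/-- (K1) the Kummer idempotent is idempotent modulo `π`. -/
theorem kumIdem_idem (S : Subring B) (p : ℕ) {q s c : B} (π : B) (hqS : q ∈ S) (hsS : s ∈ S)
    (hcS : c ∈ S) (hq : (p : B) * q = 1) (hs : s ^ p = 1 + π * c) :
    ∃ w ∈ S, kumIdem p q s * kumIdem p q s - kumIdem p q s = π * w :=
  ⟨_, S.mul_mem hqS (S.sum_mem fun i _ => kumW_mem S hqS hsS hcS i),
    kumIdem_mul_self p q s π c hq hs⟩

/-- (K2) explicit form. -/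
theorem kumIdem_sub (p : ℕ) (q s s' π d : B) (hd : s - s' = π * d) :
    kumIdem p q s - kumIdem p q s' =
      π * (q * ∑ i ∈ range p, (∑ j ∈ range i, s ^ j * s' ^ (i - 1 - j)) * d) := by
  unfold kumIdem
  rw [← mul_sub, ← Finset.sum_sub_distrib]
  have : ∀ i ∈ range p, s ^ i - s' ^ i =
      π * ((∑ j ∈ range i, s ^ j * s' ^ (i - 1 - j)) * d) := by
    intro i _
    rw [← geom_sum₂_mul s s' i, hd]
    ring
  rw [Finset.sum_congr rfl this, ← Finset.mul_sum]
  ring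

/-- (K2) changing the root modulo `π` changes the Kummer idempotent by a multiple of `π`. -/
theorem kumIdem_congr (S : Subring B) (p : ℕ) {q s s' d : B} (π : B) (hqS : q ∈ S) (hsS : s ∈ S)
    (hs'S : s' ∈ S) (hdS : d ∈ S) (hd : s - s' = π * d) :
    ∃ w ∈ S, kumIdem p q s - kumIdem p q s' = π * w :=
  ⟨_, S.mul_mem hqS (S.sum_mem fun _ _ => S.mul_mem
      (S.sum_mem fun j _ => S.mul_mem (S.pow_mem hsS j) (S.pow_mem hs'S _)) hdS),
    kumIdem_sub p q s s' π d hd⟩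

end Ring

section Glue

variable {L : Type*} [CommRing L]

/-- Local-global gluing.  `A ≤ A'`, `A ≤ V'` subrings of `L`, `π ∈ A`, `s ∈ L`.  If for every maximal
ideal `m` of `A` containing `π` there is `D ∈ A`, `D ∉ m`, with `D * s ∈ A' + π V'`,
then `s ∈ A' + π V'`. -/
theorem exists_lift_of_local (A A' V' : Subring L) (hAA' : A ≤ A') (hAV' : A ≤ V')
    (π s : L) (hπ : π ∈ A) (hs : s ∈ V')
    (hloc : ∀ m : Ideal A, m.IsMaximal → (⟨π, hπ⟩ : A) ∈ m →
      ∃ D : A, D ∉ m ∧ ∃ y ∈ A', ∃ w ∈ V', (D : L) * s = y + π * w) :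
    ∃ y ∈ A', ∃ w ∈ V', s = y + π * w := by
  classical
  -- the ideal of denominators
  let I : Ideal A :=
    { carrier := {D : A | ∃ y ∈ A', ∃ w ∈ V', (D : L) * s = y + π * w}
      add_mem' := by
        rintro D E ⟨y, hy, w, hw, h1⟩ ⟨y', hy', w', hw', h2⟩
        refine ⟨y + y', A'.add_mem hy hy', w + w', V'.add_mem hw hw', ?_⟩
        push_cast
        linear_combination h1 + h2
      zero_mem' := ⟨0, A'.zero_mem, 0, V'.zero_mem, by simp⟩
      smul_mem' := by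
        rintro c D ⟨y, hy, w, hw, h1⟩
        refine ⟨c * y, A'.mul_mem (hAA' c.2) hy, c * w, V'.mul_mem (hAV' c.2) hw, ?_⟩
        simp only [smul_eq_mul, Subring.coe_mul]
        linear_combination (c : L) * h1 }
  have hπI : (⟨π, hπ⟩ : A) ∈ I := ⟨0, A'.zero_mem, s, hs, by simp⟩
  have htop : I = ⊤ := by
    by_contra hne
    obtain ⟨m, hm, hIm⟩ := Ideal.exists_le_maximal I hne
    obtain ⟨D, hDm, hD⟩ := hloc m hm (hIm hπI)
    exact hDm (hIm hD)
  have h1 : (1 : A) ∈ I := by rw [htop]; exact Submodule.mem_top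
  obtain ⟨y, hy, w, hw, h⟩ := h1
  exact ⟨y, hy, w, hw, by simpa using h⟩

end Glue


section Conj

open Polynomial

variable {L : Type*} [Field L]

theorem isIntegral_of_mem (V : Subring L) {x : L} (hx : x ∈ V) : IsIntegral V x :=
  isIntegral_algebraMap (R := V) (A := L) (x := ⟨x, hx⟩)

/-- If `x = ∑ c_i h^i` (`c_i ∈ F1`, `h^p = f`, `f` not a `p`-th power in `F1`) is integral over a
subring `V ≤ F1`, then so is every conjugate `∑ c_i r^i`, `r^p = f`. -/
theorem isIntegral_conj (F1 : Subfield L) (V : Subring L) (hVF : ∀ x ∈ V, x ∈ F1)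
    (p : ℕ) (hp : p.Prime) (f h : L) (hf : f ∈ F1) (hh : h ^ p = f)
    (hnp : ∀ b ∈ F1, b ^ p ≠ f)
    (c : ℕ → L) (hc : ∀ i, c i ∈ F1)
    (hx : IsIntegral V (∑ i ∈ range p, c i * h ^ i))
    (r : L) (hr : r ^ p = f) :
    IsIntegral V (∑ i ∈ range p, c i * r ^ i) := by
  classical
  obtain ⟨Q, hQm, hQ⟩ := hx
  -- the inclusion V → F1
  let ι : V →+* F1 := RingHom.codRestrict (algebraMap V L) F1 (fun x => hVF _ x.2)
  have hι : (algebraMap F1 L).comp ι = algebraMap V L := by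
    ext x; rfl
  let P : F1[X] := ∑ i ∈ range p, C (⟨c i, hc i⟩ : F1) * X ^ i
  have hP : ∀ y : L, aeval y P = ∑ i ∈ range p, c i * y ^ i := by
    intro y
    simp only [P, map_sum, map_mul, aeval_C, map_pow, aeval_X]
    rfl
  let Q' : F1[X] := Q.map ι
  have hQ' : ∀ y : L, aeval y Q' = eval₂ (algebraMap V L) y Q := by
    intro y
    rw [aeval_def, eval₂_map, hι]
  let R : F1[X] := Q'.comp P
  have hR : ∀ y : L, aeval y R = eval₂ (algebraMap V L) (∑ i ∈ range p, c i * y ^ i) Q := by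
    intro y
    rw [aeval_comp, hQ', hP]
  have hRh : aeval h R = 0 := by rw [hR, hQ]
  -- the minimal polynomial
  let f' : F1 := ⟨f, hf⟩
  have hirr : Irreducible (X ^ p - C f' : F1[X]) := by
    apply X_pow_sub_C_irreducible_of_prime hp
    intro b hb
    apply hnp b.1 b.2
    have := congrArg Subtype.val hb
    simpa using this
  have hmonic : (X ^ p - C f' : F1[X]).Monic := monic_X_pow_sub_C f' hp.ne_zero
  have haev : ∀ y : L, aeval y (X ^ p - C f' : F1[X]) = y ^ p - f := by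
    intro y
    simp only [map_sub, map_pow, aeval_X, aeval_C]
    rfl
  have hmin : (X ^ p - C f' : F1[X]) = minpoly F1 h :=
    minpoly.eq_of_irreducible_of_monic hirr (by rw [haev, hh, sub_self]) hmonic
  have hdvd : (X ^ p - C f' : F1[X]) ∣ R := by
    rw [hmin]; exact minpoly.dvd F1 h hRh
  obtain ⟨S, hS⟩ := hdvd
  refine ⟨Q, hQm, ?_⟩
  rw [← hR, hS, map_mul, haev, hr, sub_self, zero_mul]

/-- orthogonality of characters of `ℤ/p`. -/
theorem sum_pow_primitive (p : ℕ) (ζ : L) (hζ : IsPrimitiveRoot ζ p) (i j : ℕ)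
    (hi : i < p) (hj : j < p) :
    ∑ k ∈ range p, (ζ ^ (p - j + i)) ^ k = if i = j then (p : L) else 0 := by
  split_ifs with hij
  · subst hij
    have : ζ ^ (p - i + i) = 1 := by
      rw [Nat.sub_add_cancel hi.le]; exact hζ.pow_eq_one
    simp [this]
  · have h1 : (ζ ^ (p - j + i)) ^ p = 1 := by
      rw [← pow_mul, mul_comm, pow_mul, hζ.pow_eq_one, one_pow]
    have h2 : ζ ^ (p - j + i) ≠ 1 := by
      intro h
      have hd := (hζ.pow_eq_one_iff_dvd _).1 h
      obtain ⟨t, ht⟩ := hd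
      have ht1 : t = 1 := by
        have h3 : p - j + i < p * 2 := by omega
        have h4 : 0 < p - j + i := by omega
        rw [ht] at h3 h4
        have : t < 2 := by
          by_contra hcon
          push Not at hcon
          have : p * 2 ≤ p * t := Nat.mul_le_mul_left p hcon
          omega
        have : 0 < t := by
          rcases Nat.eq_zero_or_pos t with h0 | h0
          · rw [h0] at h4; simp at h4
          · exact h0
        omega
      rw [ht1] at ht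
      omega
    have h3 := geom_sum_mul (ζ ^ (p - j + i)) p
    rw [h1, sub_self] at h3
    rcases mul_eq_zero.1 h3 with h | h
    · exact h
    · exact absurd (sub_eq_zero.1 h) h2

theorem sum_conj_eq (p : ℕ) (ζ : L) (hζ : IsPrimitiveRoot ζ p) (c : ℕ → L) (h : L)
    (j : ℕ) (hj : j < p) :
    ∑ k ∈ range p, ζ ^ (k * (p - j)) * ∑ i ∈ range p, c i * (ζ ^ k * h) ^ i =
      (p : L) * (c j * h ^ j) := by
  have h1 : ∀ k ∈ range p, ζ ^ (k * (p - j)) * ∑ i ∈ range p, c i * (ζ ^ k * h) ^ i =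
      ∑ i ∈ range p, c i * h ^ i * (ζ ^ (p - j + i)) ^ k := by
    intro k _
    rw [Finset.mul_sum]
    refine Finset.sum_congr rfl fun i _ => ?_
    rw [mul_pow, ← pow_mul, ← pow_mul]
    have : ζ ^ ((p - j + i) * k) = ζ ^ (k * (p - j)) * ζ ^ (k * i) := by
      rw [← pow_add]; congr 1; ring
    rw [this]; ring
  rw [Finset.sum_congr rfl h1, Finset.sum_comm]
  have h2 : ∀ i ∈ range p, ∑ k ∈ range p, c i * h ^ i * (ζ ^ (p - j + i)) ^ k =
      if i = j then (p : L) * (c j * h ^ j) else 0 := by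
    intro i hi
    rw [← Finset.mul_sum, sum_pow_primitive p ζ hζ i j (Finset.mem_range.1 hi) hj]
    split_ifs with hij
    · subst hij; ring
    · ring
  rw [Finset.sum_congr rfl h2, Finset.sum_ite_eq' (range p) j, if_pos (Finset.mem_range.2 hj)]

/-- (K4e) the coefficients of an element of `F1(f^{1/p}) = ⊕ F1 h^i` which is integral over `V`
lie in `V` (`V ≤ F1` integrally closed in `F1`, `f` and `p` units of `V`, `ζ_p ∈ V`,
`f` not a `p`-th power in `F1`). -/
theorem coeff_mem_of_isIntegral (F1 : Subfield L) (V : Subring L) (hVF : ∀ x ∈ V, x ∈ F1)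
    (hVic : ∀ x ∈ F1, IsIntegral V x → x ∈ V)
    (p : ℕ) (hp : p.Prime) (ζ : L) (hζ : IsPrimitiveRoot ζ p) (hζV : ζ ∈ V)
    (hpV : ((p : L))⁻¹ ∈ V)
    (f h : L) (hf : f ∈ V) (hf' : f⁻¹ ∈ V) (hh : h ^ p = f) (hnp : ∀ b ∈ F1, b ^ p ≠ f)
    (c : ℕ → L) (hc : ∀ i, c i ∈ F1) (hx : IsIntegral V (∑ i ∈ range p, c i * h ^ i))
    (j : ℕ) (hj : j < p) : c j ∈ V := by
  have hp0 : (p : L) ≠ 0 := by
    have : NeZero p := ⟨hp.ne_zero⟩
    exact (hζ.neZero' (R := L)).out
  have hf0 : f ≠ 0 := by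
    intro h0
    exact hnp 0 F1.zero_mem (by rw [zero_pow hp.ne_zero, h0])
  -- conjugates are integral
  have h1 : ∀ k : ℕ, IsIntegral V (∑ i ∈ range p, c i * (ζ ^ k * h) ^ i) := by
    intro k
    apply isIntegral_conj F1 V hVF p hp f h (hVF f hf) hh hnp c hc hx
    rw [mul_pow, ← pow_mul, mul_comm k p, pow_mul, hζ.pow_eq_one, one_pow, one_mul, hh]
  have h2 : IsIntegral V ((p : L) * (c j * h ^ j)) := by
    rw [← sum_conj_eq p ζ hζ c h j hj]
    refine IsIntegral.sum _ fun k _ => ?_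
    exact (isIntegral_of_mem V (V.pow_mem hζV _)).mul (h1 k)
  have h3 : IsIntegral V (c j * h ^ j) := by
    have := (isIntegral_of_mem V hpV).mul h2
    rwa [← mul_assoc, inv_mul_cancel₀ hp0, one_mul] at this
  have h4 : IsIntegral V (c j ^ p * f ^ j) := by
    have := h3.pow p
    rwa [mul_pow, ← pow_mul, mul_comm j p, pow_mul, hh] at this
  have h5 : c j ^ p * f ^ j ∈ V :=
    hVic _ (F1.mul_mem (F1.pow_mem (hc j) p) (F1.pow_mem (hVF f hf) j)) h4
  have h6 : c j ^ p ∈ V := by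
    have := V.mul_mem h5 (V.pow_mem hf' j)
    rwa [mul_assoc, ← mul_pow, mul_inv_cancel₀ hf0, one_pow, mul_one] at this
  exact hVic _ (hc j) (IsIntegral.of_pow hp.pos (isIntegral_of_mem V h6))

/-- (K3) nontriviality: the Kummer idempotent of `s = h / G` is not congruent to a constant
`γ ∈ V` modulo `π ·` (elements integral over `V`). -/
theorem kumIdem_sub_const_ne (F1 : Subfield L) (V : Subring L) (hVF : ∀ x ∈ V, x ∈ F1)
    (hVic : ∀ x ∈ F1, IsIntegral V x → x ∈ V)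
    (p : ℕ) (hp : p.Prime) (ζ : L) (hζ : IsPrimitiveRoot ζ p) (hζV : ζ ∈ V)
    (hpV : ((p : L))⁻¹ ∈ V)
    (f h : L) (hf : f ∈ V) (hf' : f⁻¹ ∈ V) (hh : h ^ p = f) (hnp : ∀ b ∈ F1, b ^ p ≠ f)
    (π G γ : L) (hπ : π ∈ V) (hπ0 : π ≠ 0) (hπinv : π⁻¹ ∉ V)
    (hG : G ∈ V) (hG' : G⁻¹ ∈ V) (hG0 : G ≠ 0) (hγ : γ ∈ V)
    (w : L) (hw : IsIntegral V w) :
    kumIdem p ((p : L)⁻¹) (h * G⁻¹) - γ ≠ π * w := by
  intro heq
  have hp0 : (p : L) ≠ 0 := by
    have : NeZero p := ⟨hp.ne_zero⟩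
    exact (hζ.neZero' (R := L)).out
  have hw' : w = π⁻¹ * (kumIdem p ((p : L)⁻¹) (h * G⁻¹) - γ) := by
    rw [heq, ← mul_assoc, inv_mul_cancel₀ hπ0, one_mul]
  let c : ℕ → L := fun i => π⁻¹ * ((p : L)⁻¹ * G⁻¹ ^ i - if i = 0 then γ else 0)
  have hπF : π ∈ F1 := hVF _ hπ
  have hc : ∀ i, c i ∈ F1 := by
    intro i
    refine F1.mul_mem (F1.inv_mem hπF) (F1.sub_mem (F1.mul_mem (hVF _ hpV)
      (F1.pow_mem (hVF _ hG') i)) ?_)
    split_ifs
    · exact hVF _ hγ
    · exact F1.zero_mem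
  have hsum : ∑ i ∈ range p, c i * h ^ i = w := by
    have hterm : ∀ i ∈ range p, c i * h ^ i =
        π⁻¹ * ((p : L)⁻¹ * (h * G⁻¹) ^ i) - π⁻¹ * (if i = 0 then γ else 0) := by
      intro i _
      simp only [c]
      split_ifs with h0
      · subst h0; ring
      · ring
    rw [Finset.sum_congr rfl hterm, Finset.sum_sub_distrib, ← Finset.mul_sum, ← Finset.mul_sum,
      ← Finset.mul_sum, Finset.sum_ite_eq' (range p) 0 (fun _ => γ),
      if_pos (Finset.mem_range.2 hp.pos), hw', kumIdem]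
    ring
  have h1 : c 1 ∈ V :=
    coeff_mem_of_isIntegral F1 V hVF hVic p hp ζ hζ hζV hpV f h hf hf' hh hnp c hc
      (by rw [hsum]; exact hw) 1 hp.one_lt
  apply hπinv
  have h2 : π⁻¹ = c 1 * G * (p : L) := by
    simp only [c, one_ne_zero, if_false, sub_zero, pow_one]
    field_simp
  rw [h2]
  exact V.mul_mem (V.mul_mem h1 hG) (natCast_mem V p)

end Conj

section Local

variable {L : Type*} [Field L]

/-- (K5) local lift.  From the local shape `f * d₁ = u₁ * g₁ ^ p` (C2) and a local lift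
`W₁ / d₂` of `G / g₁` modulo `π` (IG), the element `D = d₁ * W₁` satisfies
`D * (h / G) ∈ A' + π V'`. -/
theorem local_lift (p : ℕ) (hp : 0 < p) (V V' A A' : Subring L) (hAV : A ≤ V) (hVV' : V ≤ V')
    (π f h G : L) (hh : h ^ p = f) (hhV' : h ∈ V') (hG' : G⁻¹ ∈ V) (hG0 : G ≠ 0)
    (hroot : ∀ y ∈ V', y ^ p ∈ A → y ∈ A')
    (g₁ u₁ d₁ W₁ d₂ c : L) (hg₁ : g₁⁻¹ ∈ V) (hg₁0 : g₁ ≠ 0)
    (hu₁ : u₁ ∈ A) (hd₁ : d₁ ∈ A) (hd₂ : d₂ ∈ A) (hc : c ∈ V)
    (hshape : f * d₁ = u₁ * g₁ ^ p) (hW : W₁ * g₁ - G * d₂ = π * c) :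
    ∃ y ∈ A', ∃ w ∈ V', (d₁ * W₁) * (h * G⁻¹) = y + π * w := by
  have hAV' : A ≤ V' := hAV.trans hVV'
  refine ⟨d₁ * d₂ * h * g₁⁻¹, hroot _ ?_ ?_, d₁ * h * G⁻¹ * g₁⁻¹ * c, ?_, ?_⟩
  · exact V'.mul_mem (V'.mul_mem (V'.mul_mem (hAV' hd₁) (hAV' hd₂)) hhV') (hVV' hg₁)
  · have h1 : (d₁ * d₂ * h * g₁⁻¹) ^ p = d₁ ^ (p - 1) * d₂ ^ p * u₁ := by
      have hd : d₁ ^ p = d₁ ^ (p - 1) * d₁ := by
        rw [← pow_succ, Nat.sub_add_cancel hp]
      have hg : g₁ ^ p ≠ 0 := pow_ne_zero _ hg₁0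
      rw [mul_pow, mul_pow, mul_pow, hh, inv_pow, hd]
      field_simp
      linear_combination d₁ ^ (p - 1) * d₂ ^ p * hshape
    rw [h1]
    exact A.mul_mem (A.mul_mem (A.pow_mem hd₁ _) (A.pow_mem hd₂ _)) hu₁
  · exact V'.mul_mem (V'.mul_mem (V'.mul_mem (V'.mul_mem (hAV' hd₁) hhV') (hVV' hG'))
      (hVV' hg₁)) (hVV' hc)
  · field_simp
    linear_combination d₁ * h * hW

end Local

end Fermat.Agent.S18_helper23_KUMIDEM
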