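import Mathlib

/-!
# S18, pieces P6 + P7 (helper28): idempotent lifting and the two-chart Čech lemma

Pure commutative algebra (Mathlib only).

* `newton_idem` : Newton iteration `x ↦ 3x² - 2x³` lifts an idempotent modulo `ϖ` to an
  idempotent modulo `ϖ ^ n`.
* `idem_lift_unique` : two idempotents modulo `ϖ ^ n` that agree modulo `ϖ` agree modulo `ϖ ^ n`.
* `cech_two_chart` : if `B₀ ∩ B∞ = O` and the `ϖ`-power torsion of `B_mid / (B₀ + B∞)` is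
  killed by `ϖ ^ c`, then every idempotent of the special fibre (a compatible pair of
  idempotents modulo `ϖ` on the two charts) is the reduction of a constant.
-/

set_option autoImplicit false

namespace Fermat.Agent.S18_helper28_CECH

section Abstract

variable {S : Type*} [CommRing S]

/-- One Newton step. -/
theorem newton_step (x : S) :
    (3 * x ^ 2 - 2 * x ^ 3) ^ 2 - (3 * x ^ 2 - 2 * x ^ 3)
      = (x ^ 2 - x) ^ 2 * (-((3 - 2 * x) * (2 * x + 1))) := by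
  ring

theorem newton_step_sub (x : S) :
    (3 * x ^ 2 - 2 * x ^ 3) - x = (x ^ 2 - x) * (-(2 * x - 1)) := by
  ring

/-- Newton iteration: an idempotent modulo `ϖ` lifts to an idempotent modulo `ϖ ^ n`,
congruent to the original one modulo `ϖ`. -/
theorem newton_idem (ϖ e : S) (h : ϖ ∣ e ^ 2 - e) (n : ℕ) :
    ∃ a : S, ϖ ∣ a - e ∧ ϖ ^ n ∣ a ^ 2 - a := by
  -- first with exponent `2 ^ k`
  have key : ∀ k : ℕ, ∃ a : S, ϖ ∣ a - e ∧ ϖ ^ (2 ^ k) ∣ a ^ 2 - a := by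
    intro k
    induction k with
    | zero => exact ⟨e, by simp, by simpa using h⟩
    | succ k ih =>
      obtain ⟨a, ha1, ha2⟩ := ih
      refine ⟨3 * a ^ 2 - 2 * a ^ 3, ?_, ?_⟩
      · have h1 : ϖ ∣ a ^ 2 - a := by
          refine dvd_trans ?_ ha2
          exact dvd_pow_self ϖ (by positivity)
        have h2 : (3 * a ^ 2 - 2 * a ^ 3) - e = ((3 * a ^ 2 - 2 * a ^ 3) - a) + (a - e) := by ring
        rw [h2, newton_step_sub]
        exact dvd_add (Dvd.dvd.mul_right h1 _) ha1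
      · rw [newton_step, pow_succ, pow_mul]
        exact Dvd.dvd.mul_right (pow_dvd_pow_of_dvd ha2 2) _
  obtain ⟨a, ha1, ha2⟩ := key n
  exact ⟨a, ha1, dvd_trans (pow_dvd_pow ϖ (Nat.lt_two_pow_self).le) ha2⟩

/-- Uniqueness of idempotent lifts modulo `ϖ ^ n`. -/
theorem idem_lift_unique (ϖ a b : S) (n : ℕ) (ha : ϖ ^ n ∣ a ^ 2 - a) (hb : ϖ ^ n ∣ b ^ 2 - b)
    (hab : ϖ ∣ a - b) : ϖ ^ n ∣ a - b := by
  -- `d - d ^ 3 ∈ (ϖ ^ n)` for `d = a - b`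
  have hd : ϖ ^ n ∣ (a - b) - (a - b) ^ 3 := by
    have : (a - b) - (a - b) ^ 3
        = (a ^ 2 - a) * (-(a + 1) + 3 * b) + (b ^ 2 - b) * ((b + 1) - 3 * a) := by ring
    rw [this]
    exact dvd_add (Dvd.dvd.mul_right ha _) (Dvd.dvd.mul_right hb _)
  have key : ∀ k : ℕ, k ≤ n → ϖ ^ k ∣ a - b := by
    intro k
    induction k with
    | zero => intro _; simp
    | succ k ih =>
      intro hk
      rcases Nat.eq_zero_or_pos k with h0 | hpos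
      · subst h0; simpa using hab
      · have h1 := ih (Nat.le_of_succ_le hk)
        have h3 : ϖ ^ (k + 1) ∣ (a - b) ^ 3 := by
          have : ϖ ^ (k + 1) ∣ (ϖ ^ k) ^ 3 := by
            rw [← pow_mul]
            exact pow_dvd_pow ϖ (by omega)
          exact dvd_trans this (pow_dvd_pow_of_dvd h1 3)
        have h4 : ϖ ^ (k + 1) ∣ (a - b) - (a - b) ^ 3 := dvd_trans (pow_dvd_pow ϖ hk) hd
        have : a - b = ((a - b) - (a - b) ^ 3) + (a - b) ^ 3 := by ring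
        rw [this]
        exact dvd_add h4 h3
  exact key n le_rfl

end Abstract

section Subring

variable {F : Type*} [CommRing F]

/-- Divisibility by `ϖ ^ n` inside a subring, elementwise. -/
theorem subring_pow_dvd_iff (S : Subring F) {ϖ x : F} (hϖ : ϖ ∈ S) (hx : x ∈ S) (n : ℕ) :
    ((⟨ϖ, hϖ⟩ : S) ^ n ∣ ⟨x, hx⟩) ↔ ∃ u ∈ S, x = ϖ ^ n * u := by
  constructor
  · rintro ⟨⟨u, hu⟩, h⟩
    refine ⟨u, hu, ?_⟩
    have := congrArg Subtype.val h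
    simpa using this
  · rintro ⟨u, hu, h⟩
    refine ⟨⟨u, hu⟩, Subtype.ext ?_⟩
    simpa using h

/-- Divisibility by `ϖ` inside a subring, elementwise. -/
theorem subring_dvd_iff (S : Subring F) {ϖ x : F} (hϖ : ϖ ∈ S) (hx : x ∈ S) :
    ((⟨ϖ, hϖ⟩ : S) ∣ ⟨x, hx⟩) ↔ ∃ u ∈ S, x = ϖ * u := by
  have := subring_pow_dvd_iff S hϖ hx 1
  simpa using this

/-- Newton iteration inside a subring, elementwise form. -/
theorem newton_idem_subring (S : Subring F) {ϖ e : F} (hϖ : ϖ ∈ S) (he : e ∈ S)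
    (h : ∃ u ∈ S, e ^ 2 - e = ϖ * u) (n : ℕ) :
    ∃ a ∈ S, (∃ u ∈ S, a - e = ϖ * u) ∧ ∃ u ∈ S, a ^ 2 - a = ϖ ^ n * u := by
  have h' : (⟨ϖ, hϖ⟩ : S) ∣ (⟨e, he⟩ : S) ^ 2 - ⟨e, he⟩ := by
    have : ((⟨e, he⟩ : S) ^ 2 - ⟨e, he⟩ : S) = ⟨e ^ 2 - e, S.sub_mem (S.pow_mem he 2) he⟩ := rfl
    rw [this]
    exact (subring_dvd_iff S hϖ _).2 h
  obtain ⟨⟨a, ha⟩, h1, h2⟩ := newton_idem (⟨ϖ, hϖ⟩ : S) ⟨e, he⟩ h' n
  refine ⟨a, ha, ?_, ?_⟩
  · have : ((⟨a, ha⟩ : S) - ⟨e, he⟩ : S) = ⟨a - e, S.sub_mem ha he⟩ := rfl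
    rw [this] at h1
    exact (subring_dvd_iff S hϖ _).1 h1
  · have : ((⟨a, ha⟩ : S) ^ 2 - ⟨a, ha⟩ : S) = ⟨a ^ 2 - a, S.sub_mem (S.pow_mem ha 2) ha⟩ := rfl
    rw [this] at h2
    exact (subring_pow_dvd_iff S hϖ _ n).1 h2

/-- Uniqueness of idempotent lifts inside a subring, elementwise form. -/
theorem idem_lift_unique_subring (S : Subring F) {ϖ a b : F} (hϖ : ϖ ∈ S) (ha : a ∈ S)
    (hb : b ∈ S) (n : ℕ) (h1 : ∃ u ∈ S, a ^ 2 - a = ϖ ^ n * u)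
    (h2 : ∃ u ∈ S, b ^ 2 - b = ϖ ^ n * u) (h3 : ∃ u ∈ S, a - b = ϖ * u) :
    ∃ u ∈ S, a - b = ϖ ^ n * u := by
  have e1 : ((⟨a, ha⟩ : S) ^ 2 - ⟨a, ha⟩ : S) = ⟨a ^ 2 - a, S.sub_mem (S.pow_mem ha 2) ha⟩ := rfl
  have e2 : ((⟨b, hb⟩ : S) ^ 2 - ⟨b, hb⟩ : S) = ⟨b ^ 2 - b, S.sub_mem (S.pow_mem hb 2) hb⟩ := rfl
  have e3 : ((⟨a, ha⟩ : S) - ⟨b, hb⟩ : S) = ⟨a - b, S.sub_mem ha hb⟩ := rfl
  have := idem_lift_unique (⟨ϖ, hϖ⟩ : S) ⟨a, ha⟩ ⟨b, hb⟩ n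
    (by rw [e1]; exact (subring_pow_dvd_iff S hϖ _ n).2 h1)
    (by rw [e2]; exact (subring_pow_dvd_iff S hϖ _ n).2 h2)
    (by rw [e3]; exact (subring_dvd_iff S hϖ _).2 h3)
  rw [e3] at this
  exact (subring_pow_dvd_iff S hϖ _ n).1 this

/-- **Two-chart Čech lemma** (piece P7 of the S18 route).

`O ≤ B₀, B∞ ≤ B_mid` are subrings of a commutative ring, `ϖ ∈ O`.  Assume
* `H⁰`: `B₀ ∩ B∞ = O`;
* `H¹`: the `ϖ`-power torsion of `B_mid / (B₀ + B∞)` is killed by `ϖ ^ c`.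
Then a pair `(e₀, e∞)` of idempotents modulo `ϖ` on the two charts which agree modulo `ϖ` on
the overlap is the reduction of a constant `γ ∈ O`. -/
theorem cech_two_chart (O B0 Binf Bmid : Subring F) (ϖ : F) (hϖ : ϖ ∈ O)
    (hO0 : O ≤ B0) (hOinf : O ≤ Binf) (h0 : B0 ≤ Bmid) (hinf : Binf ≤ Bmid)
    (hH0 : ∀ x, x ∈ B0 → x ∈ Binf → x ∈ O)
    (c : ℕ)
    (hH1 : ∀ x ∈ Bmid, ∀ n : ℕ, (∃ a ∈ B0, ∃ b ∈ Binf, ϖ ^ n * x = a - b) →
      ∃ a ∈ B0, ∃ b ∈ Binf, ϖ ^ c * x = a - b)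
    (e0 einf : F) (he0 : e0 ∈ B0) (heinf : einf ∈ Binf)
    (hid0 : ∃ u ∈ B0, e0 ^ 2 - e0 = ϖ * u) (hidinf : ∃ u ∈ Binf, einf ^ 2 - einf = ϖ * u)
    (hagree : ∃ u ∈ Bmid, e0 - einf = ϖ * u) :
    ∃ γ ∈ O, (∃ u ∈ B0, e0 - γ = ϖ * u) ∧ ∃ u ∈ Binf, einf - γ = ϖ * u := by
  have hϖ0 : ϖ ∈ B0 := hO0 hϖ
  have hϖinf : ϖ ∈ Binf := hOinf hϖ
  have hϖmid : ϖ ∈ Bmid := h0 hϖ0
  obtain ⟨a, ha, ⟨u1, hu1, hau1⟩, ⟨ua, hua, haa⟩⟩ :=
    newton_idem_subring B0 hϖ0 he0 hid0 (c + 1)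
  obtain ⟨b, hb, ⟨u2, hu2, hbu2⟩, ⟨ub, hub, hbb⟩⟩ :=
    newton_idem_subring Binf hϖinf heinf hidinf (c + 1)
  obtain ⟨um, hum, hem⟩ := hagree
  -- `a - b ∈ ϖ ^ (c+1) B_mid`
  obtain ⟨x, hx, habx⟩ := idem_lift_unique_subring Bmid hϖmid (h0 ha) (hinf hb) (c + 1)
    ⟨ua, h0 hua, haa⟩ ⟨ub, hinf hub, hbb⟩
    ⟨u1 + um - u2, Bmid.sub_mem (Bmid.add_mem (h0 hu1) hum) (hinf hu2), by
      have : a - b = (a - e0) + (e0 - einf) - (b - einf) := by ring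
      rw [this, hau1, hem, hbu2]; ring⟩
  obtain ⟨a', ha', b', hb', hab'⟩ := hH1 x hx (c + 1) ⟨a, ha, b, hb, habx.symm⟩
  -- the constant
  have hγ : a - ϖ * a' = b - ϖ * b' := by
    have : a - b = ϖ * (a' - b') := by
      rw [habx, ← hab']; ring
    linear_combination this
  refine ⟨a - ϖ * a', hH0 _ (B0.sub_mem ha (B0.mul_mem hϖ0 ha')) ?_, ?_, ?_⟩
  · rw [hγ]
    exact Binf.sub_mem hb (Binf.mul_mem hϖinf hb')
  · refine ⟨a' - u1, B0.sub_mem ha' hu1, ?_⟩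
    linear_combination -hau1
  · refine ⟨b' - u2, Binf.sub_mem hb' hu2, ?_⟩
    rw [hγ]
    linear_combination -hbu2

/-- A subring containing `O`, as an `O`-submodule. -/
def subm (O S : Subring F) (h : O ≤ S) : Submodule O F where
  carrier := S
  add_mem' := S.add_mem
  zero_mem' := S.zero_mem
  smul_mem' := fun c x hx => by
    show c • x ∈ S
    rw [Subring.smul_def, smul_eq_mul]
    exact S.mul_mem (h c.2) hx

theorem mem_subm (O S : Subring F) (h : O ≤ S) (x : F) : x ∈ subm O S h ↔ x ∈ S := Iff.rfl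

/-- `H¹` bound: if `B_mid ⊆ B₀ + B∞ + (finitely generated O-module)` and `O` is noetherian,
then the `ϖ`-power torsion of `B_mid/(B₀ + B∞)` is killed by a fixed power `ϖ ^ c`. -/
theorem torsion_bound (O B0 Binf Bmid : Subring F) [IsNoetherianRing O] (ϖ : F) (hϖ : ϖ ∈ O)
    (hO0 : O ≤ B0) (hOinf : O ≤ Binf)
    (G : Finset F)
    (hgen : ∀ x ∈ Bmid, ∃ a ∈ B0, ∃ b ∈ Binf, ∃ g ∈ Submodule.span O (G : Set F), x = a + b + g) :
    ∃ c : ℕ, ∀ x ∈ Bmid, ∀ n : ℕ, (∃ a ∈ B0, ∃ b ∈ Binf, ϖ ^ n * x = a - b) →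
      ∃ a ∈ B0, ∃ b ∈ Binf, ϖ ^ c * x = a - b := by
  classical
  set P : Submodule O F := subm O B0 hO0 ⊔ subm O Binf hOinf with hP
  set N : Submodule O (F ⧸ P) := (Submodule.span O (G : Set F)).map P.mkQ with hN
  have hNfg : N.FG := (Submodule.fg_span G.finite_toSet).map _
  have hNoeth : IsNoetherian O N := isNoetherian_of_fg_of_noetherian N hNfg
  -- the chain of kernels of `ϖ ^ n` on `N`
  let ϖO : O := ⟨ϖ, hϖ⟩
  let K : ℕ →o Submodule O N :=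
    { toFun := fun n => LinearMap.ker (LinearMap.lsmul O N (ϖO ^ n))
      monotone' := by
        intro m n hmn y hy
        rw [LinearMap.mem_ker] at hy ⊢
        have : ϖO ^ n = ϖO ^ (n - m) * ϖO ^ m := by
          rw [← pow_add]; congr 1; omega
        rw [LinearMap.lsmul_apply] at hy ⊢
        rw [this, mul_smul, hy, smul_zero] }
  obtain ⟨c, hc⟩ := monotone_stabilizes_iff_noetherian.mpr hNoeth K
  refine ⟨c, ?_⟩
  intro x hx n hxn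
  obtain ⟨a, ha, b, hb, g, hg, rfl⟩ := hgen x hx
  obtain ⟨a₁, ha₁, b₁, hb₁, h1⟩ := hxn
  have memP : ∀ {u v : F}, u ∈ B0 → v ∈ Binf → u + v ∈ P := fun {u v} hu hv =>
    Submodule.add_mem _ (Submodule.mem_sup_left hu) (Submodule.mem_sup_right hv)
  have memP' : ∀ {u v : F}, u ∈ B0 → v ∈ Binf → u - v ∈ P := fun {u v} hu hv => by
    rw [sub_eq_add_neg]; exact memP hu (Binf.neg_mem hv)
  have smulP : ∀ (k : ℕ) {w : F}, w ∈ P → ϖ ^ k * w ∈ P := fun k {w} hw => by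
    have := P.smul_mem (ϖO ^ k) hw
    rw [Subring.smul_def, smul_eq_mul] at this
    have e : ((ϖO ^ k : O) : F) = ϖ ^ k := by simp [ϖO]
    rwa [e] at this
  -- `ϖ ^ n * g ∈ P`
  have hgn : ϖ ^ n * g ∈ P := by
    have : ϖ ^ n * g = (a₁ - b₁) - ϖ ^ n * (a + b) := by rw [← h1]; ring
    rw [this]
    exact Submodule.sub_mem _ (memP' ha₁ hb₁) (smulP n (memP ha hb))
  set y : N := ⟨P.mkQ g, Submodule.mem_map_of_mem hg⟩ with hy
  have hyK : ∀ k : ℕ, y ∈ K k ↔ ϖ ^ k * g ∈ P := by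
    intro k
    show y ∈ LinearMap.ker (LinearMap.lsmul O N (ϖO ^ k)) ↔ _
    rw [LinearMap.mem_ker, LinearMap.lsmul_apply, ← Subtype.coe_inj, Submodule.coe_smul,
      Submodule.coe_zero]
    show (ϖO ^ k) • P.mkQ g = 0 ↔ _
    have e : ((ϖO ^ k : O) : F) = ϖ ^ k := by simp [ϖO]
    rw [← map_smul, Submodule.mkQ_apply, Submodule.Quotient.mk_eq_zero, Subring.smul_def,
      smul_eq_mul, e]
  have hyc : y ∈ K c := by
    have h2 : y ∈ K (max n c) := K.monotone (le_max_left n c) ((hyK n).2 hgn)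
    rw [← hc (max n c) (le_max_right n c)] at h2
    exact h2
  have hgc : ϖ ^ c * g ∈ P := (hyK c).1 hyc
  have hxc : ϖ ^ c * (a + b + g) ∈ P := by
    have : ϖ ^ c * (a + b + g) = ϖ ^ c * (a + b) + ϖ ^ c * g := by ring
    rw [this]
    exact Submodule.add_mem _ (smulP c (memP ha hb)) hgc
  obtain ⟨u, hu, v, hv, huv⟩ := Submodule.mem_sup.1 hxc
  exact ⟨u, hu, -v, Binf.neg_mem hv, by rw [← huv]; ring⟩

/-- `B_mid = B₀ + B∞ + (finitely generated O-module)` for two charts glued along `j`: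
`B₀` is generated over `O[j]` by a finite set `Y`, `B_mid = B₀[1/j]`, and `j⁻ⁿ y ∈ B∞` for
`n` large. -/
theorem mid_gen (O B0 Binf Bmid : Subring F) (hO0 : O ≤ B0) (hOinf : O ≤ Binf)
    (j τ : F) (hjτ : j * τ = 1) (hj : j ∈ B0) (hτ : τ ∈ Binf)
    (Y : Finset F) (hY0 : ∀ y ∈ Y, y ∈ B0)
    (hgen0 : ∀ x ∈ B0, ∃ p : F → Polynomial O, x = ∑ y ∈ Y, (Polynomial.aeval j (p y)) * y)
    (hmid : ∀ x ∈ Bmid, ∃ n : ℕ, j ^ n * x ∈ B0)
    (hinf : ∀ y ∈ Y, ∃ n : ℕ, τ ^ n * y ∈ Binf) :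
    ∃ G : Finset F, ∀ x ∈ Bmid, ∃ a ∈ B0, ∃ b ∈ Binf,
      ∃ g ∈ Submodule.span O (G : Set F), x = a + b + g := by
  classical
  -- uniform bound
  obtain ⟨n0, hn0⟩ : ∃ n0 : ℕ, ∀ y ∈ Y, ∀ n, n0 ≤ n → τ ^ n * y ∈ Binf := by
    choose! nf hnf using hinf
    refine ⟨Y.sup nf, fun y hy n hn => ?_⟩
    have h1 : nf y ≤ n := le_trans (Finset.le_sup hy) hn
    have : τ ^ n * y = τ ^ (n - nf y) * (τ ^ nf y * y) := by
      rw [← mul_assoc, ← pow_add]; congr 2; omega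
    rw [this]
    exact Binf.mul_mem (Binf.pow_mem hτ _) (hnf y hy)
  set G : Finset F := (Y ×ˢ Finset.range n0).image (fun q => τ ^ q.2 * q.1) with hG
  refine ⟨G, ?_⟩
  set W : Submodule O F := subm O B0 hO0 ⊔ subm O Binf hOinf ⊔ Submodule.span O (G : Set F)
    with hW
  have hW0 : ∀ {u : F}, u ∈ B0 → u ∈ W := fun {u} hu =>
    Submodule.mem_sup_left (Submodule.mem_sup_left hu)
  have hWinf : ∀ {u : F}, u ∈ Binf → u ∈ W := fun {u} hu =>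
    Submodule.mem_sup_left (Submodule.mem_sup_right hu)
  have hWG : ∀ {u : F}, u ∈ G → u ∈ W := fun {u} hu =>
    Submodule.mem_sup_right (Submodule.subset_span hu)
  have hτj : ∀ n : ℕ, τ ^ n * j ^ n = 1 := fun n => by
    rw [← mul_pow, mul_comm, hjτ, one_pow]
  -- the basic terms
  have hterm : ∀ (N : ℕ) (y : F), y ∈ Y → ∀ (i : ℕ), τ ^ N * (j ^ i * y) ∈ W := by
    intro N y hy i
    rcases le_or_gt N i with h | h
    · have : τ ^ N * (j ^ i * y) = j ^ (i - N) * y := by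
        have : j ^ i = j ^ N * j ^ (i - N) := by rw [← pow_add]; congr 1; omega
        rw [this]
        calc τ ^ N * (j ^ N * j ^ (i - N) * y) = (τ ^ N * j ^ N) * (j ^ (i - N) * y) := by ring
          _ = j ^ (i - N) * y := by rw [hτj, one_mul]
      rw [this]
      exact hW0 (B0.mul_mem (B0.pow_mem hj _) (hY0 y hy))
    · have : τ ^ N * (j ^ i * y) = τ ^ (N - i) * y := by
        have : τ ^ N = τ ^ (N - i) * τ ^ i := by rw [← pow_add]; congr 1; omega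
        rw [this]
        calc τ ^ (N - i) * τ ^ i * (j ^ i * y) = τ ^ (N - i) * ((τ ^ i * j ^ i) * y) := by ring
          _ = τ ^ (N - i) * y := by rw [hτj, one_mul]
      rw [this]
      rcases le_or_gt n0 (N - i) with h' | h'
      · exact hWinf (hn0 y hy _ h')
      · refine hWG ?_
        rw [hG, Finset.mem_image]
        exact ⟨(y, N - i), Finset.mem_product.2 ⟨hy, Finset.mem_range.2 h'⟩, rfl⟩
  intro x hx
  obtain ⟨N, hN⟩ := hmid x hx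
  obtain ⟨p, hp⟩ := hgen0 _ hN
  have hx' : x = τ ^ N * (j ^ N * x) := by
    rw [← mul_assoc, hτj, one_mul]
  have hxW : x ∈ W := by
    rw [hx', hp, Finset.mul_sum]
    refine Submodule.sum_mem _ fun y hy => ?_
    rw [Polynomial.aeval_eq_sum_range, Finset.sum_mul, Finset.mul_sum]
    refine Submodule.sum_mem _ fun i _ => ?_
    have : τ ^ N * ((p y).coeff i • j ^ i * y) = (p y).coeff i • (τ ^ N * (j ^ i * y)) := by
      rw [Subring.smul_def, Subring.smul_def, smul_eq_mul, smul_eq_mul]; ring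
    rw [this]
    exact W.smul_mem _ (hterm N y hy i)
  obtain ⟨ab, hab, g, hg, habg⟩ := Submodule.mem_sup.1 hxW
  obtain ⟨a, ha, b, hb, hab'⟩ := Submodule.mem_sup.1 hab
  exact ⟨a, ha, b, hb, g, hg, by rw [← habg, ← hab']⟩


/-- **Two-chart Čech lemma, assembled form** (pieces C5 + C6 of the S18 route).
`O` noetherian, `B₀ ∩ B∞ = O`, `B₀` finitely generated over `O[j]`, `B_mid = B₀[1/j]`,
`j⁻ⁿ y ∈ B∞` for `n` large: every compatible pair of idempotents modulo `ϖ` is the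
reduction of a constant. -/
theorem cech_two_chart_fg (O B0 Binf Bmid : Subring F) [IsNoetherianRing O] (ϖ : F) (hϖ : ϖ ∈ O)
    (hO0 : O ≤ B0) (hOinf : O ≤ Binf) (h0 : B0 ≤ Bmid) (hinf : Binf ≤ Bmid)
    (hH0 : ∀ x, x ∈ B0 → x ∈ Binf → x ∈ O)
    (j τ : F) (hjτ : j * τ = 1) (hj : j ∈ B0) (hτ : τ ∈ Binf)
    (Y : Finset F) (hY0 : ∀ y ∈ Y, y ∈ B0)
    (hgen0 : ∀ x ∈ B0, ∃ p : F → Polynomial O, x = ∑ y ∈ Y, (Polynomial.aeval j (p y)) * y)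
    (hmid : ∀ x ∈ Bmid, ∃ n : ℕ, j ^ n * x ∈ B0)
    (hYinf : ∀ y ∈ Y, ∃ n : ℕ, τ ^ n * y ∈ Binf)
    (e0 einf : F) (he0 : e0 ∈ B0) (heinf : einf ∈ Binf)
    (hid0 : ∃ u ∈ B0, e0 ^ 2 - e0 = ϖ * u) (hidinf : ∃ u ∈ Binf, einf ^ 2 - einf = ϖ * u)
    (hagree : ∃ u ∈ Bmid, e0 - einf = ϖ * u) :
    ∃ γ ∈ O, (∃ u ∈ B0, e0 - γ = ϖ * u) ∧ ∃ u ∈ Binf, einf - γ = ϖ * u := by
  obtain ⟨G, hG⟩ := mid_gen O B0 Binf Bmid hO0 hOinf j τ hjτ hj hτ Y hY0 hgen0 hmid hYinf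
  obtain ⟨c, hc⟩ := torsion_bound O B0 Binf Bmid ϖ hϖ hO0 hOinf G hG
  exact cech_two_chart O B0 Binf Bmid ϖ hϖ hO0 hOinf h0 hinf hH0 c hc e0 einf he0 heinf
    hid0 hidinf hagree

/-- If moreover `ϖ B₀ ∩ O = ϖ O` and `ϖ` is a prime element of `O`, the idempotent is trivial:
`e₀ ≡ 0` or `e₀ ≡ 1` modulo `ϖ B₀`. -/
theorem idem_trivial_of_const (O B0 : Subring F) (ϖ : F) (hϖ : ϖ ∈ O) (hO0 : O ≤ B0)
    (hsat : ∀ x ∈ O, (∃ u ∈ B0, x = ϖ * u) → ∃ u ∈ O, x = ϖ * u)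
    (hprime : ∀ x ∈ O, ∀ y ∈ O, (∃ u ∈ O, x * y = ϖ * u) →
      (∃ u ∈ O, x = ϖ * u) ∨ ∃ u ∈ O, y = ϖ * u)
    (e0 : F) (hid0 : ∃ u ∈ B0, e0 ^ 2 - e0 = ϖ * u)
    (γ : F) (hγ : γ ∈ O) (hγe : ∃ u ∈ B0, e0 - γ = ϖ * u) :
    (∃ u ∈ B0, e0 = ϖ * u) ∨ ∃ u ∈ B0, e0 - 1 = ϖ * u := by
  obtain ⟨u, hu, hue⟩ := hid0
  obtain ⟨w, hw, hwe⟩ := hγe
  have hγB : γ ∈ B0 := hO0 hγ
  have hϖB : ϖ ∈ B0 := hO0 hϖ
  have h1 : ∃ v ∈ B0, γ * (γ - 1) = ϖ * v := by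
    refine ⟨u - w * (γ + γ - 1) - ϖ * w ^ 2,
      B0.sub_mem (B0.sub_mem hu (B0.mul_mem hw (B0.sub_mem
        (B0.add_mem hγB hγB) B0.one_mem)))
        (B0.mul_mem hϖB (B0.pow_mem hw 2)), ?_⟩
    have he : e0 = γ + ϖ * w := by linear_combination hwe
    rw [he] at hue
    linear_combination hue
  have h2 := hsat _ (O.mul_mem hγ (O.sub_mem hγ O.one_mem)) h1
  rcases hprime γ hγ (γ - 1) (O.sub_mem hγ O.one_mem) h2 with ⟨v, hv, hγv⟩ | ⟨v, hv, hγv⟩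
  · left
    refine ⟨w + v, B0.add_mem hw (hO0 hv), ?_⟩
    linear_combination hwe + hγv
  · right
    refine ⟨w + v, B0.add_mem hw (hO0 hv), ?_⟩
    linear_combination hwe + hγv

end Subring

end Fermat.Agent.S18_helper28_CECH
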