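import Mathlib
import Fermat.Agent.S18_helper23_KUMIDEM
import Fermat.Agent.S18_helper28_CECH

/-!
# S18, block C: the abstract core (connectedness of the unramified Kummer cover)

Everything lives in one ambient field `L`; all rings are `Subring L`.

`blockC_core` : from
* the Čech data `H⁰`, `H¹` of the two charts `A0'`, `A1'` of the Kummer cover (inside `Bmid`),
* saturation of `A0'`, `A1'`, `Bmid` in `V'` (elements integral over the DVR `V`),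
* local lifts of `s = h / G` at every maximal ideal of `A0`, `A1` containing `π`,
* `f = h ^ p` a unit of `V`, congruent to `G ^ p` modulo `π`, NOT a `p`-th power in `F1`,
one gets `False`.
-/

set_option autoImplicit false

namespace Fermat.Agent.S18_helper23_CCORE

open Fermat.Agent.S18_helper23_KUMIDEM

variable {L : Type*} [Field L]

/-- One chart: from local lifts of `s` at all maximal ideals containing `π` to a global element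
`e ∈ A'` with `e ≡ kumIdem p (1/p) s` modulo `π V'` and `e² - e ∈ π A'`. -/
theorem exists_chart_idem (p : ℕ) (V' A A' : Subring L)
    (hAA' : A ≤ A') (hA'V' : A' ≤ V')
    (π s c : L) (hπA : π ∈ A) (hpA : ((p : L))⁻¹ ∈ A) (hp0 : (p : L) ≠ 0)
    (hs : s ∈ V') (hc : c ∈ V') (hsp : s ^ p = 1 + π * c)
    (hsat : ∀ x ∈ V', π * x ∈ A' → x ∈ A')
    (hloc : ∀ m : Ideal A, m.IsMaximal → (⟨π, hπA⟩ : A) ∈ m →
      ∃ D : A, D ∉ m ∧ ∃ y ∈ A', ∃ w ∈ V', (D : L) * s = y + π * w) :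
    ∃ e ∈ A', (∃ w ∈ V', e - kumIdem p ((p : L)⁻¹) s = π * w) ∧ ∃ u ∈ A', e ^ 2 - e = π * u := by
  have hAV' : A ≤ V' := hAA'.trans hA'V'
  obtain ⟨y, hy, w, hw, hsy⟩ := exists_lift_of_local A A' V' hAA' hAV' π s hπA hs hloc
  have hq : (p : L) * ((p : L))⁻¹ = 1 := mul_inv_cancel₀ hp0
  have hqV' : ((p : L))⁻¹ ∈ V' := hAV' hpA
  have hyV' : y ∈ V' := hA'V' hy
  -- `e := kumIdem p q y`
  have heA' : kumIdem p ((p : L)⁻¹) y ∈ A' := kumIdem_mem A' p (hAA' hpA) hy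
  obtain ⟨w₁, hw₁, h1⟩ := kumIdem_congr V' p π hqV' hyV' hs (V'.neg_mem hw)
    (by rw [hsy]; ring : y - s = π * (-w))
  obtain ⟨w₂, hw₂, h2⟩ := kumIdem_idem V' p π hqV' hs hc hq hsp
  refine ⟨_, heA', ⟨w₁, hw₁, h1⟩, ?_⟩
  set e := kumIdem p ((p : L)⁻¹) y with he
  set e₀ := kumIdem p ((p : L)⁻¹) s with he₀
  have he₀V' : e₀ ∈ V' := kumIdem_mem V' p hqV' hs
  have heV' : e ∈ V' := hA'V' heA'
  -- e^2 - e = π * (w₁ * (e + e₀ - 1) + w₂)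
  have h3 : e ^ 2 - e = π * (w₁ * (e + e₀ - 1) + w₂) := by
    have : e = e₀ + π * w₁ := by linear_combination h1
    linear_combination (e + e₀ - 1) * h1 + h2
  refine ⟨w₁ * (e + e₀ - 1) + w₂, hsat _ ?_ ?_, h3⟩
  · exact V'.add_mem (V'.mul_mem hw₁ (V'.sub_mem (V'.add_mem heV' he₀V') V'.one_mem)) hw₂
  · rw [← h3]
    exact A'.sub_mem (A'.pow_mem heA' 2) heA'

/-- **Block C core.**  See the module docstring. -/
theorem blockC_core (p : ℕ) (hp : p.Prime)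
    (F1 : Subfield L) (O V V' A0 A1 A0' A1' Bmid : Subring L)
    (π f h G ζ : L)
    -- inclusions
    (hOA0 : O ≤ A0) (hOA1 : O ≤ A1) (hOV : O ≤ V)
    (hVF : ∀ x ∈ V, x ∈ F1)
    (hA0A0' : A0 ≤ A0') (hA1A1' : A1 ≤ A1') (hA0'B : A0' ≤ Bmid) (hA1'B : A1' ≤ Bmid)
    (hBV' : Bmid ≤ V') (hVV' : V ≤ V')
    -- the valuation ring `V` of `F1` and the ring `V'` of elements integral over it
    (hVic : ∀ x ∈ F1, IsIntegral V x → x ∈ V)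
    (hV'int : ∀ x ∈ V', IsIntegral V x)
    (hπO : π ∈ O) (hπ0 : π ≠ 0) (hπinv : π⁻¹ ∉ V)
    (hpO : ((p : L))⁻¹ ∈ O) (hζ : IsPrimitiveRoot ζ p) (hζV : ζ ∈ V)
    -- `f`, `h`, `G`
    (hf : f ∈ V) (hf' : f⁻¹ ∈ V) (hh : h ^ p = f) (hnp : ∀ b ∈ F1, b ^ p ≠ f) (hhV' : h ∈ V')
    (hG : G ∈ V) (hG' : G⁻¹ ∈ V) (hG0 : G ≠ 0) (hfG : ∃ c ∈ V, f = G ^ p * (1 + π * c))
    -- saturation
    (hsat0 : ∀ x ∈ V', π * x ∈ A0' → x ∈ A0') (hsat1 : ∀ x ∈ V', π * x ∈ A1' → x ∈ A1')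
    (hsatB : ∀ x ∈ V', π * x ∈ Bmid → x ∈ Bmid)
    -- Čech data
    (hH0 : ∀ x, x ∈ A0' → x ∈ A1' → x ∈ O)
    (c : ℕ)
    (hH1 : ∀ x ∈ Bmid, ∀ n : ℕ, (∃ a ∈ A0', ∃ b ∈ A1', π ^ n * x = a - b) →
      ∃ a ∈ A0', ∃ b ∈ A1', π ^ c * x = a - b)
    -- local lifts of `s = h / G`
    (hloc0 : ∀ m : Ideal A0, m.IsMaximal → (⟨π, hOA0 hπO⟩ : A0) ∈ m →
      ∃ D : A0, D ∉ m ∧ ∃ y ∈ A0', ∃ w ∈ V', (D : L) * (h * G⁻¹) = y + π * w)
    (hloc1 : ∀ m : Ideal A1, m.IsMaximal → (⟨π, hOA1 hπO⟩ : A1) ∈ m →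
      ∃ D : A1, D ∉ m ∧ ∃ y ∈ A1', ∃ w ∈ V', (D : L) * (h * G⁻¹) = y + π * w) :
    False := by
  have hp0 : (p : L) ≠ 0 := by
    have : NeZero p := ⟨hp.ne_zero⟩
    exact (hζ.neZero' (R := L)).out
  obtain ⟨c₀, hc₀, hfG⟩ := hfG
  have hs : h * G⁻¹ ∈ V' := V'.mul_mem hhV' (hVV' hG')
  have hsp : (h * G⁻¹) ^ p = 1 + π * c₀ := by
    have hGp : G ^ p ≠ 0 := pow_ne_zero _ hG0
    rw [mul_pow, hh, hfG, inv_pow]
    field_simp
  obtain ⟨e0, he0, ⟨w0, hw0, hew0⟩, hid0⟩ := exists_chart_idem p V' A0 A0' hA0A0'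
    (hA0'B.trans hBV') π (h * G⁻¹) c₀ (hOA0 hπO) (hOA0 hpO) hp0 hs (hVV' hc₀) hsp hsat0 hloc0
  obtain ⟨e1, he1, ⟨w1, hw1, hew1⟩, hid1⟩ := exists_chart_idem p V' A1 A1' hA1A1'
    (hA1'B.trans hBV') π (h * G⁻¹) c₀ (hOA1 hπO) (hOA1 hpO) hp0 hs (hVV' hc₀) hsp hsat1 hloc1
  -- agreement on the overlap
  have hagree : ∃ u ∈ Bmid, e0 - e1 = π * u := by
    have h1 : e0 - e1 = π * (w0 - w1) := by linear_combination hew0 - hew1
    refine ⟨w0 - w1, hsatB _ (V'.sub_mem hw0 hw1) ?_, h1⟩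
    rw [← h1]
    exact Bmid.sub_mem (hA0'B he0) (hA1'B he1)
  obtain ⟨γ, hγ, ⟨u, hu, heγ⟩, -⟩ :=
    Fermat.Agent.S18_helper28_CECH.cech_two_chart O A0' A1' Bmid π hπO (hOA0.trans hA0A0')
      (hOA1.trans hA1A1') hA0'B hA1'B hH0 c hH1 e0 e1 he0 he1 hid0 hid1 hagree
  -- contradiction with nontriviality
  have hint : IsIntegral V (u - w0) :=
    hV'int _ (V'.sub_mem (hBV' (hA0'B hu)) hw0)
  refine kumIdem_sub_const_ne F1 V hVF hVic p hp ζ hζ hζV (hOV hpO) f h hf hf' hh hnp π G γ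
    (hOV hπO) hπ0 hπinv hG hG' hG0 (hOV hγ) (u - w0) hint ?_
  linear_combination heγ - hew0

end Fermat.Agent.S18_helper23_CCORE
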