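import Mathlib

/-!
# S18, abstract piece P12: Kummer local structure (Mathlib only)

* `S18P12_exists_coeff_of_isIntegral`, `S18P12_isIntegral_iff`: for an integrally closed domain
  `R` with fraction field `K` and `F = K(θ)` with power basis `1, θ, …, θ^(n-1)`,
  `θ ^ n = u`, `u` and `n` units of `R`: the integral closure of `R` in `F` is `⊕ R θ^i`
  (trace argument; no discriminant needed).
* `S18P12_idem`: the Kummer idempotents `e_i = ∏_{j ≠ i} (τ - ζ^j)/(ζ^i - ζ^j)` for `τ ^ p = 1`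
  in any commutative algebra over a field containing a primitive `p`-th root of unity `ζ`:
  orthogonal idempotents with sum `1`, functorial, with explicit product formula, and
  `e₀ = (1/p) ∑_{i<p} τ^i`.
* `S18P12_adjoinRoot_idem`: in `κ[T]/(T^p - g^p)` the idempotent `e₀` is nontrivial.
-/

set_option autoImplicit false
set_option linter.unusedSectionVars false
set_option linter.unusedVariables false
set_option linter.style.haveILetI false

open Polynomial

namespace Fermat.Agent.S18_helper6_KUMMER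

section Trace

variable {K F : Type*} [Field K] [Field F] [Algebra K F]

/-- Coordinates of `θ ^ n` (`n < dim`) in the power basis. -/
theorem S18P12_repr_pow_of_lt (pb : PowerBasis K F) {n : ℕ} (hn : n < pb.dim) (i : Fin pb.dim) :
    pb.basis.repr (pb.gen ^ n) i = if (i : ℕ) = n then 1 else 0 := by
  have h : pb.gen ^ n = pb.basis ⟨n, hn⟩ := by rw [pb.basis_eq_pow]
  rw [h, Module.Basis.repr_self, Finsupp.single_apply]
  by_cases hin : (i : ℕ) = n
  · have : (⟨n, hn⟩ : Fin pb.dim) = i := Fin.ext hin.symm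
    simp [this, hin]
  · have : (⟨n, hn⟩ : Fin pb.dim) ≠ i := fun h => hin (by rw [← h])
    simp [this, hin]

/-- Trace of `θ ^ n` for `0 < n < dim` when `θ ^ dim = a` is a scalar: it vanishes. -/
theorem S18P12_trace_pow_eq_zero (pb : PowerBasis K F) (a : K)
    (hθ : pb.gen ^ pb.dim = algebraMap K F a) {n : ℕ} (hn0 : 0 < n) (hn : n < pb.dim) :
    Algebra.trace K F (pb.gen ^ n) = 0 := by
  classical
  rw [Algebra.trace_eq_matrix_trace pb.basis, Matrix.trace]
  apply Finset.sum_eq_zero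
  intro i _
  rw [Matrix.diag_apply, Algebra.leftMulMatrix_eq_repr_mul, pb.basis_eq_pow, ← pow_add]
  by_cases h : n + (i : ℕ) < pb.dim
  · rw [S18P12_repr_pow_of_lt pb h, if_neg]
    omega
  · have hlt : n + (i : ℕ) - pb.dim < pb.dim := by have := i.2; omega
    have e : pb.gen ^ (n + (i : ℕ)) = a • pb.gen ^ (n + (i : ℕ) - pb.dim) := by
      have : n + (i : ℕ) = pb.dim + (n + (i : ℕ) - pb.dim) := by omega
      conv_lhs => rw [this, pow_add, hθ]
      rw [Algebra.smul_def]
    rw [e, map_smul, Finsupp.smul_apply, S18P12_repr_pow_of_lt pb hlt, if_neg, smul_zero]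
    omega

theorem S18P12_trace_one (pb : PowerBasis K F) :
    Algebra.trace K F (1 : F) = (pb.dim : K) := by
  classical
  rw [Algebra.trace_eq_matrix_trace pb.basis, map_one, Matrix.trace_one, Fintype.card_fin]

/-- Trace of `θ ^ (j + m)` for `j, m < dim`, when `θ ^ dim = a`. -/
theorem S18P12_trace_pow_add (pb : PowerBasis K F) (a : K)
    (hθ : pb.gen ^ pb.dim = algebraMap K F a) {j m : ℕ} (hj : j < pb.dim) (hm : m < pb.dim) :
    Algebra.trace K F (pb.gen ^ (j + m)) =
      if j + m = 0 then (pb.dim : K) else if j + m = pb.dim then a * pb.dim else 0 := by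
  by_cases h0 : j + m = 0
  · rw [if_pos h0, h0, pow_zero, S18P12_trace_one]
  rw [if_neg h0]
  by_cases h1 : j + m = pb.dim
  · rw [if_pos h1, h1, hθ, Algebra.algebraMap_eq_smul_one, map_smul, S18P12_trace_one,
      smul_eq_mul]
  rw [if_neg h1]
  by_cases h2 : j + m < pb.dim
  · exact S18P12_trace_pow_eq_zero pb a hθ (by omega) h2
  · have e : pb.gen ^ (j + m) = a • pb.gen ^ (j + m - pb.dim) := by
      have : j + m = pb.dim + (j + m - pb.dim) := by omega
      conv_lhs => rw [this, pow_add, hθ]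
      rw [Algebra.smul_def]
    rw [e, map_smul, S18P12_trace_pow_eq_zero pb a hθ (by omega) (by omega), smul_zero]

/-- Trace of `x * θ ^ m` in terms of the coordinates of `x`: only the coordinate with index
`dim - m` (resp. `0` when `m = 0`) survives. -/
theorem S18P12_trace_mul_pow (pb : PowerBasis K F) (a : K)
    (hθ : pb.gen ^ pb.dim = algebraMap K F a) (x : F) (i : Fin pb.dim) :
    Algebra.trace K F (x * pb.gen ^ (if (i : ℕ) = 0 then 0 else pb.dim - (i : ℕ))) =
      pb.basis.repr x i * (if (i : ℕ) = 0 then (pb.dim : K) else a * pb.dim) := by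
  classical
  set m := (if (i : ℕ) = 0 then 0 else pb.dim - (i : ℕ)) with hm
  have hmlt : m < pb.dim := by
    have := i.2
    rw [hm]; split_ifs <;> omega
  conv_lhs => rw [← pb.basis.sum_repr x]
  rw [Finset.sum_mul, map_sum]
  rw [Finset.sum_eq_single i]
  · rw [pb.basis_eq_pow, smul_mul_assoc, map_smul, ← pow_add, smul_eq_mul,
      S18P12_trace_pow_add pb a hθ i.2 hmlt]
    congr 1
    by_cases hi : (i : ℕ) = 0
    · have : (i : ℕ) + m = 0 := by rw [hm, if_pos hi, hi]
      rw [if_pos this, if_pos hi]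
    · have h1 : (i : ℕ) + m = pb.dim := by
        have := i.2
        rw [hm, if_neg hi]; omega
      have h0 : ¬ ((i : ℕ) + m = 0) := by omega
      rw [if_neg h0, if_pos h1, if_neg hi]
  · intro j _ hji
    rw [pb.basis_eq_pow, smul_mul_assoc, map_smul, ← pow_add,
      S18P12_trace_pow_add pb a hθ j.2 hmlt]
    have hne : (j : ℕ) ≠ (i : ℕ) := fun h => hji (Fin.ext h)
    have h0 : ¬ ((j : ℕ) + m = 0) := by
      rw [hm]; split_ifs with hi <;> omega
    have h1 : ¬ ((j : ℕ) + m = pb.dim) := by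
      have := j.2
      rw [hm]; split_ifs with hi <;> omega
    rw [if_neg h0, if_neg h1, smul_zero]
  · intro h; exact absurd (Finset.mem_univ i) h

end Trace

section IntegralClosure

variable {R K F : Type*} [CommRing R] [Field K] [Algebra R K]
  [Field F] [Algebra K F] [Algebra R F] [IsScalarTower R K F]

/-- **Kummer local structure (K4), general form.** `R → K` with `R` integrally closed in the
field `K` (hypothesis `hic`), `F = K(θ)` with power basis `1, θ, …, θ^(n-1)`, `θ ^ n = u` with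
`u` and `n` units of `R`. Then every element of `F` integral over `R` is an `R`-linear
combination of the `θ ^ i`. -/
theorem S18P12_exists_coeff_of_isIntegral' (hic : ∀ t : K, IsIntegral R t → ∃ r, algebraMap R K r = t)
    (pb : PowerBasis K F) (u : R) (hu : IsUnit u)
    (hd : IsUnit ((pb.dim : ℕ) : R)) (hθ : pb.gen ^ pb.dim = algebraMap R F u)
    {x : F} (hx : IsIntegral R x) :
    ∃ c : Fin pb.dim → R, x = ∑ i, algebraMap R F (c i) * pb.gen ^ (i : ℕ) := by
  classical
  have hθK : pb.gen ^ pb.dim = algebraMap K F (algebraMap R K u) := by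
    rw [hθ, IsScalarTower.algebraMap_apply R K F]
  have hdim : 0 < pb.dim := pb.dim_pos
  have : FiniteDimensional K F := pb.finite
  have hθint : IsIntegral R pb.gen := by
    refine ⟨X ^ pb.dim - C u, monic_X_pow_sub_C u hdim.ne', ?_⟩
    rw [eval₂_sub, eval₂_X_pow, eval₂_C, hθ, sub_self]
  -- the traces are in `R`
  have key : ∀ i : Fin pb.dim, ∃ r : R, algebraMap R K r = pb.basis.repr x i := by
    intro i
    have hint : IsIntegral R
        (Algebra.trace K F (x * pb.gen ^ (if (i : ℕ) = 0 then 0 else pb.dim - (i : ℕ)))) :=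
      Algebra.isIntegral_trace (hx.mul (hθint.pow _))
    obtain ⟨t, ht⟩ := hic _ hint
    rw [S18P12_trace_mul_pow pb (algebraMap R K u) hθK x i] at ht
    obtain ⟨d, hd'⟩ := hd
    obtain ⟨v, hv⟩ := hu
    by_cases hi : (i : ℕ) = 0
    · rw [if_pos hi] at ht
      refine ⟨t * ((d⁻¹ : Rˣ) : R), ?_⟩
      have hdK : (algebraMap R K ((d : Rˣ) : R)) = (pb.dim : K) := by
        rw [hd', map_natCast]
      have h1 : algebraMap R K ((d⁻¹ : Rˣ) : R) * (pb.dim : K) = 1 := by
        rw [← hdK, ← map_mul, Units.inv_mul, map_one]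
      rw [map_mul, ht, mul_assoc, mul_comm (pb.dim : K), h1, mul_one]
    · rw [if_neg hi] at ht
      refine ⟨t * ((d⁻¹ : Rˣ) : R) * ((v⁻¹ : Rˣ) : R), ?_⟩
      have hdK : (algebraMap R K ((d : Rˣ) : R)) = (pb.dim : K) := by
        rw [hd', map_natCast]
      have h1 : algebraMap R K ((d⁻¹ : Rˣ) : R) * (pb.dim : K) = 1 := by
        rw [← hdK, ← map_mul, Units.inv_mul, map_one]
      have h2 : algebraMap R K ((v⁻¹ : Rˣ) : R) * algebraMap R K u = 1 := by
        rw [← hv, ← map_mul, Units.inv_mul, map_one]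
      rw [map_mul, map_mul, ht]
      calc pb.basis.repr x i * (algebraMap R K u * (pb.dim : K)) *
            algebraMap R K ((d⁻¹ : Rˣ) : R) * algebraMap R K ((v⁻¹ : Rˣ) : R)
          = pb.basis.repr x i * (algebraMap R K ((d⁻¹ : Rˣ) : R) * (pb.dim : K)) *
              (algebraMap R K ((v⁻¹ : Rˣ) : R) * algebraMap R K u) := by ring
        _ = pb.basis.repr x i := by rw [h1, h2, mul_one, mul_one]
  choose c hc using key
  refine ⟨c, ?_⟩
  conv_lhs => rw [← pb.basis.sum_repr x]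
  refine Finset.sum_congr rfl fun i _ => ?_
  rw [pb.basis_eq_pow, ← hc i, Algebra.smul_def, ← IsScalarTower.algebraMap_apply R K F]

/-- Uniqueness of the coefficients in `S18P12_exists_coeff_of_isIntegral'`. -/
theorem S18P12_coeff_unique' (hinj : Function.Injective (algebraMap R K))
    (pb : PowerBasis K F) {c c' : Fin pb.dim → R}
    (h : ∑ i, algebraMap R F (c i) * pb.gen ^ (i : ℕ) =
      ∑ i, algebraMap R F (c' i) * pb.gen ^ (i : ℕ)) : c = c' := by
  have hrw : ∀ d : Fin pb.dim → R, ∑ i, algebraMap R F (d i) * pb.gen ^ (i : ℕ) =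
      ∑ i, algebraMap R K (d i) • pb.basis i := by
    intro d
    refine Finset.sum_congr rfl fun i _ => ?_
    rw [pb.basis_eq_pow, Algebra.smul_def, ← IsScalarTower.algebraMap_apply R K F]
  rw [hrw c, hrw c'] at h
  have h2 := congrArg pb.basis.repr h
  funext i
  have h3 := congrArg (fun f => f i) h2
  simp only [map_sum, map_smul, Module.Basis.repr_self, Finsupp.smul_single, smul_eq_mul,
    mul_one, Finsupp.coe_finsetSum, Finset.sum_apply, Finsupp.single_apply,
    Finset.sum_ite_eq', Finset.mem_univ, if_true] at h3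
  exact hinj h3

/-- **Kummer local structure, iff form (general).** -/
theorem S18P12_isIntegral_iff' (hic : ∀ t : K, IsIntegral R t → ∃ r, algebraMap R K r = t)
    (pb : PowerBasis K F) (u : R) (hu : IsUnit u)
    (hd : IsUnit ((pb.dim : ℕ) : R)) (hθ : pb.gen ^ pb.dim = algebraMap R F u) (x : F) :
    IsIntegral R x ↔ ∃ c : Fin pb.dim → R, x = ∑ i, algebraMap R F (c i) * pb.gen ^ (i : ℕ) := by
  refine ⟨S18P12_exists_coeff_of_isIntegral' hic pb u hu hd hθ, ?_⟩
  rintro ⟨c, rfl⟩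
  have hθint : IsIntegral R pb.gen := by
    refine ⟨X ^ pb.dim - C u, monic_X_pow_sub_C u pb.dim_pos.ne', ?_⟩
    rw [eval₂_sub, eval₂_X_pow, eval₂_C, hθ, sub_self]
  exact IsIntegral.sum _ fun i _ => (isIntegral_algebraMap).mul (hθint.pow _)

/-- Divisibility by `π` is detected on the coefficients (general form). -/
theorem S18P12_smul_mem_iff' (hic : ∀ t : K, IsIntegral R t → ∃ r, algebraMap R K r = t)
    (hinj : Function.Injective (algebraMap R K))
    (pb : PowerBasis K F) (u : R) (hu : IsUnit u)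
    (hd : IsUnit ((pb.dim : ℕ) : R)) (hθ : pb.gen ^ pb.dim = algebraMap R F u) (π : R)
    (c : Fin pb.dim → R) :
    (∃ y : F, IsIntegral R y ∧ ∑ i, algebraMap R F (c i) * pb.gen ^ (i : ℕ) = algebraMap R F π * y)
      ↔ ∀ i, π ∣ c i := by
  constructor
  · rintro ⟨y, hy, hxy⟩
    obtain ⟨c', rfl⟩ := S18P12_exists_coeff_of_isIntegral' hic pb u hu hd hθ hy
    have h : ∑ i, algebraMap R F (c i) * pb.gen ^ (i : ℕ) =
        ∑ i, algebraMap R F (π * c' i) * pb.gen ^ (i : ℕ) := by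
      rw [hxy, Finset.mul_sum]
      refine Finset.sum_congr rfl fun i _ => ?_
      rw [map_mul, mul_assoc]
    have := S18P12_coeff_unique' hinj pb h
    intro i
    exact ⟨c' i, congrFun this i⟩
  · intro h
    choose c' hc' using h
    refine ⟨∑ i, algebraMap R F (c' i) * pb.gen ^ (i : ℕ),
      (S18P12_isIntegral_iff' hic pb u hu hd hθ _).mpr ⟨c', rfl⟩, ?_⟩
    rw [Finset.mul_sum]
    refine Finset.sum_congr rfl fun i _ => ?_
    rw [hc' i, map_mul, mul_assoc]

end IntegralClosure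

section IffUnique

variable {R K F : Type*} [CommRing R] [IsDomain R] [IsIntegrallyClosed R]
  [Field K] [Algebra R K] [IsFractionRing R K]
  [Field F] [Algebra K F] [Algebra R F] [IsScalarTower R K F]

/-- **Kummer local structure (K4).** `R` integrally closed domain with fraction field `K`,
`F = K(θ)` with power basis `1, θ, …, θ^(n-1)`, `θ ^ n = u` with `u` and `n` units of `R`.
Then every element of `F` integral over `R` is an `R`-linear combination of the `θ ^ i`. -/
theorem S18P12_exists_coeff_of_isIntegral (pb : PowerBasis K F) (u : R) (hu : IsUnit u)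
    (hd : IsUnit ((pb.dim : ℕ) : R)) (hθ : pb.gen ^ pb.dim = algebraMap R F u)
    {x : F} (hx : IsIntegral R x) :
    ∃ c : Fin pb.dim → R, x = ∑ i, algebraMap R F (c i) * pb.gen ^ (i : ℕ) :=
  S18P12_exists_coeff_of_isIntegral' (fun _ ht => IsIntegrallyClosed.isIntegral_iff.mp ht)
    pb u hu hd hθ hx

/-- Uniqueness of the coefficients in `S18P12_exists_coeff_of_isIntegral`. -/
theorem S18P12_coeff_unique (pb : PowerBasis K F) {c c' : Fin pb.dim → R}
    (h : ∑ i, algebraMap R F (c i) * pb.gen ^ (i : ℕ) =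
      ∑ i, algebraMap R F (c' i) * pb.gen ^ (i : ℕ)) : c = c' :=
  S18P12_coeff_unique' (IsFractionRing.injective R K) pb h

/-- **Kummer local structure, iff form.** -/
theorem S18P12_isIntegral_iff (pb : PowerBasis K F) (u : R) (hu : IsUnit u)
    (hd : IsUnit ((pb.dim : ℕ) : R)) (hθ : pb.gen ^ pb.dim = algebraMap R F u) (x : F) :
    IsIntegral R x ↔ ∃ c : Fin pb.dim → R, x = ∑ i, algebraMap R F (c i) * pb.gen ^ (i : ℕ) :=
  S18P12_isIntegral_iff' (fun _ ht => IsIntegrallyClosed.isIntegral_iff.mp ht) pb u hu hd hθ x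

/-- Divisibility by `π` is detected on the coefficients. -/
theorem S18P12_smul_mem_iff (pb : PowerBasis K F) (u : R) (hu : IsUnit u)
    (hd : IsUnit ((pb.dim : ℕ) : R)) (hθ : pb.gen ^ pb.dim = algebraMap R F u) (π : R)
    (c : Fin pb.dim → R) :
    (∃ y : F, IsIntegral R y ∧ ∑ i, algebraMap R F (c i) * pb.gen ^ (i : ℕ) = algebraMap R F π * y)
      ↔ ∀ i, π ∣ c i :=
  S18P12_smul_mem_iff' (fun _ ht => IsIntegrallyClosed.isIntegral_iff.mp ht)
    (IsFractionRing.injective R K) pb u hu hd hθ π c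

end IffUnique

section Idem

variable {k : Type*} [Field k] {S : Type*} [CommRing S] [Algebra k S]

/-- The `i`-th Kummer idempotent attached to an element `τ` with `τ ^ p = 1`:
the Lagrange basis polynomial of the nodes `1, ζ, …, ζ^(p-1)` evaluated at `τ`. -/
noncomputable def S18P12_idem (ζ : k) (p : ℕ) (τ : S) (i : ℕ) : S :=
  aeval τ (Lagrange.basis (Finset.range p) (fun j => ζ ^ j) i)

theorem S18P12_injOn_pow {ζ : k} {p : ℕ} (hζ : IsPrimitiveRoot ζ p) :
    Set.InjOn (fun j => ζ ^ j) (Finset.range p : Set ℕ) := by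
  intro i hi j hj h
  exact hζ.pow_inj (Finset.mem_range.mp hi) (Finset.mem_range.mp hj) h

theorem S18P12_sum_idem {ζ : k} {p : ℕ} (hζ : IsPrimitiveRoot ζ p) (hp : 0 < p) (τ : S) :
    ∑ i ∈ Finset.range p, S18P12_idem ζ p τ i = 1 := by
  unfold S18P12_idem
  rw [← map_sum, Lagrange.sum_basis (S18P12_injOn_pow hζ) ⟨0, Finset.mem_range.mpr hp⟩, map_one]

theorem S18P12_idem_eq_prod (ζ : k) (p : ℕ) (τ : S) (i : ℕ) :
    S18P12_idem ζ p τ i =
      ∏ j ∈ (Finset.range p).erase i,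
        algebraMap k S (ζ ^ i - ζ ^ j)⁻¹ * (τ - algebraMap k S (ζ ^ j)) := by
  unfold S18P12_idem Lagrange.basis
  rw [map_prod]
  refine Finset.prod_congr rfl fun j _ => ?_
  unfold Lagrange.basisDivisor
  rw [map_mul, aeval_C, map_sub, aeval_X, aeval_C]

theorem S18P12_prod_sub_eq {ζ : k} {p : ℕ} (hζ : IsPrimitiveRoot ζ p) (hp : 0 < p) :
    ∏ j ∈ Finset.range p, (X - C (ζ ^ j) : k[X]) = X ^ p - 1 := by
  classical
  rw [X_pow_sub_one_eq_prod hp hζ]
  have himg : nthRootsFinset p (1 : k) = (Finset.range p).image (fun j => ζ ^ j) := by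
    symm
    apply Finset.eq_of_subset_of_card_le
    · intro x hx
      obtain ⟨j, _, rfl⟩ := Finset.mem_image.mp hx
      rw [mem_nthRootsFinset hp, ← pow_mul, mul_comm, pow_mul, hζ.pow_eq_one, one_pow]
    · rw [hζ.card_nthRootsFinset, Finset.card_image_of_injOn (S18P12_injOn_pow hζ),
        Finset.card_range]
  rw [himg, Finset.prod_image]
  intro i hi j hj h
  exact S18P12_injOn_pow hζ hi hj h

theorem S18P12_prod_tau_sub {ζ : k} {p : ℕ} (hζ : IsPrimitiveRoot ζ p) (hp : 0 < p) (τ : S) :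
    ∏ j ∈ Finset.range p, (τ - algebraMap k S (ζ ^ j)) = τ ^ p - 1 := by
  have h := congrArg (aeval τ) (S18P12_prod_sub_eq hζ hp)
  simpa [map_prod] using h

theorem S18P12_sub_mul_idem {ζ : k} {p : ℕ} (hζ : IsPrimitiveRoot ζ p) (hp : 0 < p) {τ : S}
    (hτ : τ ^ p = 1) {i : ℕ} (hi : i < p) :
    (τ - algebraMap k S (ζ ^ i)) * S18P12_idem ζ p τ i = 0 := by
  classical
  rw [S18P12_idem_eq_prod, Finset.prod_mul_distrib, mul_left_comm,
    Finset.mul_prod_erase (Finset.range p) (fun j => τ - algebraMap k S (ζ ^ j))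
      (Finset.mem_range.mpr hi),
    S18P12_prod_tau_sub hζ hp, hτ, sub_self, mul_zero]

theorem S18P12_idem_mul_idem_of_ne {ζ : k} {p : ℕ} (hζ : IsPrimitiveRoot ζ p) (hp : 0 < p)
    {τ : S} (hτ : τ ^ p = 1) {i j : ℕ} (hj : j < p) (hij : i ≠ j) :
    S18P12_idem ζ p τ i * S18P12_idem ζ p τ j = 0 := by
  classical
  have hmem : j ∈ (Finset.range p).erase i :=
    Finset.mem_erase.mpr ⟨fun h => hij h.symm, Finset.mem_range.mpr hj⟩
  rw [S18P12_idem_eq_prod ζ p τ i, ← Finset.mul_prod_erase _ _ hmem]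
  have h0 := S18P12_sub_mul_idem (S := S) hζ hp hτ hj
  calc algebraMap k S (ζ ^ i - ζ ^ j)⁻¹ * (τ - algebraMap k S (ζ ^ j)) *
        (∏ x ∈ ((Finset.range p).erase i).erase j,
          algebraMap k S (ζ ^ i - ζ ^ x)⁻¹ * (τ - algebraMap k S (ζ ^ x))) *
        S18P12_idem ζ p τ j
      = algebraMap k S (ζ ^ i - ζ ^ j)⁻¹ *
        (∏ x ∈ ((Finset.range p).erase i).erase j,
          algebraMap k S (ζ ^ i - ζ ^ x)⁻¹ * (τ - algebraMap k S (ζ ^ x))) *
        ((τ - algebraMap k S (ζ ^ j)) * S18P12_idem ζ p τ j) := by ring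
    _ = 0 := by rw [h0, mul_zero]

theorem S18P12_idem_mul_self {ζ : k} {p : ℕ} (hζ : IsPrimitiveRoot ζ p) (hp : 0 < p)
    {τ : S} (hτ : τ ^ p = 1) {i : ℕ} (hi : i < p) :
    S18P12_idem ζ p τ i * S18P12_idem ζ p τ i = S18P12_idem ζ p τ i := by
  classical
  have hsum := S18P12_sum_idem (S := S) hζ hp τ
  have hmem : i ∈ Finset.range p := Finset.mem_range.mpr hi
  calc S18P12_idem ζ p τ i * S18P12_idem ζ p τ i
      = S18P12_idem ζ p τ i * ∑ j ∈ Finset.range p, S18P12_idem ζ p τ j := by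
        rw [Finset.mul_sum, Finset.sum_eq_single i]
        · intro j hj hji
          exact S18P12_idem_mul_idem_of_ne hζ hp hτ (Finset.mem_range.mp hj)
            (fun h => hji h.symm)
        · intro h; exact absurd hmem h
    _ = S18P12_idem ζ p τ i := by rw [hsum, mul_one]

theorem S18P12_map_idem {S' : Type*} [CommRing S'] [Algebra k S'] (φ : S →ₐ[k] S')
    (ζ : k) (p : ℕ) (τ : S) (i : ℕ) :
    φ (S18P12_idem ζ p τ i) = S18P12_idem ζ p (φ τ) i := by
  unfold S18P12_idem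
  rw [aeval_algHom_apply]

theorem S18P12_idem_algebraMap_self {ζ : k} {p : ℕ} (hζ : IsPrimitiveRoot ζ p)
    {i : ℕ} (hi : i < p) :
    S18P12_idem ζ p (algebraMap k S (ζ ^ i)) i = 1 := by
  unfold S18P12_idem
  have h : (aeval (ζ ^ i)) (Lagrange.basis (Finset.range p) (fun j => ζ ^ j) i) =
      eval ((fun j => ζ ^ j) i) (Lagrange.basis (Finset.range p) (fun j => ζ ^ j) i) := by
    rw [coe_aeval_eq_eval]
  rw [aeval_algebraMap_apply, h,
    Lagrange.eval_basis_self (S18P12_injOn_pow hζ) (Finset.mem_range.mpr hi), map_one]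

theorem S18P12_idem_algebraMap_of_ne {ζ : k} {p : ℕ} (hζ : IsPrimitiveRoot ζ p)
    {i m : ℕ} (hm : m < p) (him : i ≠ m) :
    S18P12_idem ζ p (algebraMap k S (ζ ^ m)) i = 0 := by
  unfold S18P12_idem
  have h : (aeval (ζ ^ m)) (Lagrange.basis (Finset.range p) (fun j => ζ ^ j) i) =
      eval ((fun j => ζ ^ j) m) (Lagrange.basis (Finset.range p) (fun j => ζ ^ j) i) := by
    rw [coe_aeval_eq_eval]
  rw [aeval_algebraMap_apply, h,
    Lagrange.eval_basis_of_ne him (Finset.mem_range.mpr hm), map_zero]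

end Idem

section IdemMore

variable {k : Type*} [Field k] {S : Type*} [CommRing S] [Algebra k S]

/-- The idempotents lie in every `k`-subalgebra containing `τ`. -/
theorem S18P12_idem_mem_subalgebra (A : Subalgebra k S) (ζ : k) (p : ℕ) {τ : S} (hτ : τ ∈ A)
    (i : ℕ) : S18P12_idem ζ p τ i ∈ A := by
  unfold S18P12_idem
  exact Algebra.adjoin_le (Set.singleton_subset_iff.mpr hτ)
    (Polynomial.aeval_mem_adjoin_singleton k τ)

/-- The idempotents lie in every subring containing the constants and `τ`. -/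
theorem S18P12_idem_mem_subring (A : Subring S) (hk : ∀ c : k, algebraMap k S c ∈ A)
    (ζ : k) (p : ℕ) {τ : S} (hτ : τ ∈ A) (i : ℕ) : S18P12_idem ζ p τ i ∈ A := by
  let A' : Subalgebra k S := { A.toSubsemiring with algebraMap_mem' := hk }
  exact S18P12_idem_mem_subalgebra A' ζ p (show τ ∈ A' from hτ) i

/-- Ring-hom version of `S18P12_map_idem`. -/
theorem S18P12_map_idem_ringHom {S' : Type*} [CommRing S'] [Algebra k S'] (φ : S →+* S')
    (hφ : ∀ c : k, φ (algebraMap k S c) = algebraMap k S' c)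
    (ζ : k) (p : ℕ) (τ : S) (i : ℕ) :
    φ (S18P12_idem ζ p τ i) = S18P12_idem ζ p (φ τ) i :=
  S18P12_map_idem ({ φ with commutes' := hφ } : S →ₐ[k] S') ζ p τ i

/-- Non-triviality criterion: if two `k`-algebra maps to a nontrivial ring send `τ` to `1`
and to `ζ ^ m` (`0 < m < p`), then the idempotent `e₀` is neither `0` nor `1`. -/
theorem S18P12_idem_zero_ne {S' : Type*} [CommRing S'] [Nontrivial S'] [Algebra k S']
    {ζ : k} {p : ℕ} (hζ : IsPrimitiveRoot ζ p) (hp : 0 < p) {τ : S}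
    (φ₀ φ₁ : S →ₐ[k] S') (h₀ : φ₀ τ = 1) {m : ℕ} (hm0 : m ≠ 0) (hm : m < p)
    (h₁ : φ₁ τ = algebraMap k S' (ζ ^ m)) :
    S18P12_idem ζ p τ 0 ≠ 0 ∧ S18P12_idem ζ p τ 0 ≠ 1 := by
  constructor
  · intro h
    have h1 := S18P12_map_idem φ₀ ζ p τ 0
    rw [h, map_zero, h₀, show (1 : S') = algebraMap k S' (ζ ^ 0) by rw [pow_zero, map_one],
      S18P12_idem_algebraMap_self hζ hp] at h1
    exact zero_ne_one h1
  · intro h
    have h1 := S18P12_map_idem φ₁ ζ p τ 0
    rw [h, map_one, h₁, S18P12_idem_algebraMap_of_ne hζ hm (Ne.symm hm0)] at h1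
    exact one_ne_zero h1

/-- Explicit product formula for `e₀` in terms of `T` and `g` (`τ = T * g'`, `g * g' = 1`):
`e₀ * ∏_{j ≠ 0} ((1 - ζ^j) g) = ∏_{j ≠ 0} (T - ζ^j g)`. -/
theorem S18P12_idem_zero_mul_prod {ζ : k} {p : ℕ} (hζ : IsPrimitiveRoot ζ p)
    (T g g' : S) (hg : g * g' = 1) :
    S18P12_idem ζ p (T * g') 0 *
        ∏ j ∈ (Finset.range p).erase 0, (algebraMap k S (1 - ζ ^ j) * g) =
      ∏ j ∈ (Finset.range p).erase 0, (T - algebraMap k S (ζ ^ j) * g) := by
  rw [S18P12_idem_eq_prod, ← Finset.prod_mul_distrib]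
  refine Finset.prod_congr rfl fun j hj => ?_
  have hj' := Finset.mem_erase.mp hj
  have hjp : j < p := Finset.mem_range.mp hj'.2
  have hne : (1 : k) - ζ ^ j ≠ 0 := by
    intro h
    have h' : ζ ^ 0 = ζ ^ j := by rw [pow_zero]; exact sub_eq_zero.mp h
    exact hj'.1 (hζ.pow_inj (by omega) hjp h').symm
  rw [pow_zero]
  have hinv : algebraMap k S (1 - ζ ^ j)⁻¹ * algebraMap k S (1 - ζ ^ j) = 1 := by
    rw [← map_mul, inv_mul_cancel₀ hne, map_one]
  calc algebraMap k S (1 - ζ ^ j)⁻¹ * (T * g' - algebraMap k S (ζ ^ j)) *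
        (algebraMap k S (1 - ζ ^ j) * g)
      = (algebraMap k S (1 - ζ ^ j)⁻¹ * algebraMap k S (1 - ζ ^ j)) *
          (T * (g * g') - algebraMap k S (ζ ^ j) * g) := by ring
    _ = T - algebraMap k S (ζ ^ j) * g := by rw [hinv, hg, one_mul, mul_one]

end IdemMore

section AdjoinRootSplit

variable {k : Type*} [Field k] {κ : Type*} [Field κ] [Algebra k κ]

/-- Evaluation `κ[T]/(T^p - g^p) → κ`, `T ↦ ζ^m g`. -/
noncomputable def S18P12_ev (ζ : k) (p : ℕ) (g : κ) (hζ : ζ ^ p = 1) (m : ℕ) :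
    AdjoinRoot (X ^ p - C (g ^ p) : κ[X]) →ₐ[k] κ :=
  AdjoinRoot.liftAlgHom (X ^ p - C (g ^ p) : κ[X]) (AlgHom.id k κ)
    (algebraMap k κ (ζ ^ m) * g) (by
      rw [eval₂_sub, eval₂_X_pow, eval₂_C, mul_pow, ← map_pow, ← pow_mul, mul_comm m p, pow_mul,
        hζ, one_pow, map_one, one_mul]
      exact sub_self _)

theorem S18P12_ev_root (ζ : k) (p : ℕ) (g : κ) (hζ : ζ ^ p = 1) (m : ℕ) :
    S18P12_ev ζ p g hζ m (AdjoinRoot.root _) = algebraMap k κ (ζ ^ m) * g := by
  unfold S18P12_ev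
  exact AdjoinRoot.liftAlgHom_root _ _ _ _

theorem S18P12_ev_of (ζ : k) (p : ℕ) (g : κ) (hζ : ζ ^ p = 1) (m : ℕ) (c : κ) :
    S18P12_ev ζ p g hζ m (AdjoinRoot.of _ c) = c := by
  unfold S18P12_ev
  exact AdjoinRoot.liftAlgHom_of _ _ _ _ _

/-- The element `τ = T / g` of `κ[T]/(T^p - g^p)`. -/
noncomputable def S18P12_tau (p : ℕ) (g : κ) : AdjoinRoot (X ^ p - C (g ^ p) : κ[X]) :=
  AdjoinRoot.root _ * AdjoinRoot.of _ g⁻¹

theorem S18P12_tau_pow (p : ℕ) {g : κ} (hg : g ≠ 0) : S18P12_tau p g ^ p = 1 := by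
  unfold S18P12_tau
  have hroot : (AdjoinRoot.root (X ^ p - C (g ^ p) : κ[X])) ^ p = AdjoinRoot.of _ (g ^ p) := by
    have h := AdjoinRoot.eval₂_root (X ^ p - C (g ^ p) : κ[X])
    rw [eval₂_sub, eval₂_X_pow, eval₂_C, sub_eq_zero] at h
    exact h
  rw [mul_pow, hroot, ← map_pow, ← map_mul, ← mul_pow, mul_inv_cancel₀ hg, one_pow, map_one]

theorem S18P12_ev_tau (ζ : k) (p : ℕ) {g : κ} (hg : g ≠ 0) (hζ : ζ ^ p = 1) (m : ℕ) :
    S18P12_ev ζ p g hζ m (S18P12_tau p g) = algebraMap k κ (ζ ^ m) := by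
  unfold S18P12_tau
  rw [map_mul, S18P12_ev_root, S18P12_ev_of, mul_assoc, mul_inv_cancel₀ hg, mul_one]

/-- In `κ' = κ[T]/(T^p - g^p)` (`g ≠ 0`, `p ≥ 2`, `ζ ∈ k` primitive), the Kummer idempotent
`e₀ = ∏_{j ≠ 0} (T - ζ^j g)/((1 - ζ^j) g)` is a nontrivial idempotent. -/
theorem S18P12_adjoinRoot_idem {ζ : k} {p : ℕ} (hζ : IsPrimitiveRoot ζ p) (hp : 2 ≤ p)
    {g : κ} (hg : g ≠ 0) :
    S18P12_idem ζ p (S18P12_tau p g) 0 * S18P12_idem ζ p (S18P12_tau p g) 0 =
        S18P12_idem ζ p (S18P12_tau p g) 0 ∧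
      S18P12_idem ζ p (S18P12_tau p g) 0 ≠ 0 ∧ S18P12_idem ζ p (S18P12_tau p g) 0 ≠ 1 := by
  refine ⟨S18P12_idem_mul_self hζ (by omega) (S18P12_tau_pow p hg) (by omega), ?_⟩
  refine S18P12_idem_zero_ne hζ (by omega) (S18P12_ev ζ p g hζ.pow_eq_one 0)
    (S18P12_ev ζ p g hζ.pow_eq_one 1) ?_ one_ne_zero (by omega) ?_
  · rw [S18P12_ev_tau ζ p hg, pow_zero, map_one]
  · rw [S18P12_ev_tau ζ p hg]

end AdjoinRootSplit

section Bridge

variable {k : Type*} [Field k] {S : Type*} [CommRing S] [Algebra k S]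

theorem S18P12_natCast_ne_zero {ζ : k} {p : ℕ} (hζ : IsPrimitiveRoot ζ p) (hp : 0 < p) :
    (p : k) ≠ 0 := by
  have : NeZero p := ⟨hp.ne'⟩
  exact (hζ.neZero' (n := p)).ne

/-- The Lagrange basis polynomial at the node `1 = ζ^0` is `(1/p) ∑_{i<p} X^i`. -/
theorem S18P12_basis_zero_eq {ζ : k} {p : ℕ} (hζ : IsPrimitiveRoot ζ p) (hp : 0 < p) :
    Lagrange.basis (Finset.range p) (fun j => ζ ^ j) 0 =
      C ((p : k)⁻¹) * ∑ i ∈ Finset.range p, (X : k[X]) ^ i := by
  classical
  have hp0 : (p : k) ≠ 0 := S18P12_natCast_ne_zero hζ hp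
  have h0mem : 0 ∈ Finset.range p := Finset.mem_range.mpr hp
  refine Polynomial.eq_of_degrees_lt_of_eval_index_eq (Finset.range p) (S18P12_injOn_pow hζ) ?_ ?_ ?_
  · rw [Lagrange.degree_basis (S18P12_injOn_pow hζ) h0mem, Finset.card_range]
    exact_mod_cast Nat.sub_lt hp Nat.one_pos
  · rw [Finset.card_range]
    refine lt_of_le_of_lt (degree_mul_le _ _) ?_
    have hC : (C ((p : k)⁻¹)).degree = 0 := degree_C (inv_ne_zero hp0)
    rw [hC, zero_add]
    refine lt_of_le_of_lt (degree_sum_le _ _) ?_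
    refine (Finset.sup_lt_iff (WithBot.bot_lt_coe p)).mpr ?_
    intro i hi
    rw [degree_X_pow]
    exact WithBot.coe_lt_coe.mpr (Finset.mem_range.mp hi)
  · intro m hm
    have hmp : m < p := Finset.mem_range.mp hm
    simp only [eval_mul, eval_C, eval_finsetSum, eval_pow, eval_X]
    by_cases hm0 : m = 0
    · subst hm0
      rw [Lagrange.eval_basis_self (S18P12_injOn_pow hζ) h0mem]
      simp only [pow_zero, one_pow, Finset.sum_const, Finset.card_range, nsmul_eq_mul, mul_one]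
      rw [inv_mul_cancel₀ hp0]
    · rw [Lagrange.eval_basis_of_ne (Ne.symm hm0) hm]
      have hprim : ζ ^ m ≠ 1 := hζ.pow_ne_one_of_pos_of_lt hm0 hmp
      have hgeom : (∑ i ∈ Finset.range p, (ζ ^ m) ^ i) * (ζ ^ m - 1) = 0 := by
        rw [geom_sum_mul, ← pow_mul, mul_comm, pow_mul, hζ.pow_eq_one, one_pow, sub_self]
      have : ∑ i ∈ Finset.range p, (ζ ^ m) ^ i = 0 := by
        rcases mul_eq_zero.mp hgeom with h | h
        · exact h
        · exact absurd (sub_eq_zero.mp h) hprim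
      rw [this, mul_zero]

/-- `e₀ = (1/p) ∑_{i<p} τ^i` (this is `kumIdem` of `S18_helper23_KUMIDEM`). -/
theorem S18P12_idem_zero_eq {ζ : k} {p : ℕ} (hζ : IsPrimitiveRoot ζ p) (hp : 0 < p) (τ : S) :
    S18P12_idem ζ p τ 0 = algebraMap k S ((p : k)⁻¹) * ∑ i ∈ Finset.range p, τ ^ i := by
  unfold S18P12_idem
  rw [S18P12_basis_zero_eq hζ hp, map_mul, aeval_C, map_sum]
  simp only [map_pow, aeval_X]

end Bridge

end Fermat.Agent.S18_helper6_KUMMER
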