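import Mathlib
import Fermat.Agent.S18_helper6_KUMMER

/-!
# S18, piece P12E: elementwise, root-of-unity-free Kummer normality (request of block C)

`S18P12E_coeff_mem`: inside one ambient field `L`, with `F1` a subfield, `V ⊆ F1` a subring
integrally closed in `F1`, `p` prime and invertible in `V`, `f` a unit of `V` that is not a
`p`-th power in `F1`, `h ^ p = f`: if `∑_{i<p} c_i h^i` (`c_i ∈ F1`) is integral over `V`
then every `c_i` lies in `V`.
-/

set_option autoImplicit false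
set_option linter.style.haveILetI false

open Polynomial

namespace Fermat.Agent.S18_helper6_KUMMERE

open Fermat.Agent.S18_helper6_KUMMER

/-- Coordinates of `∑_{i < dim} a_i θ^i` in the power basis. -/
theorem S18P12E_repr_sum_range {K F : Type*} [Field K] [Field F] [Algebra K F]
    (pb : PowerBasis K F) (a : ℕ → K) (j : Fin pb.dim) :
    pb.basis.repr (∑ i ∈ Finset.range pb.dim, algebraMap K F (a i) * pb.gen ^ i) j = a j := by
  classical
  rw [Finset.sum_range (fun i => algebraMap K F (a i) * pb.gen ^ i)]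
  have : ∀ i : Fin pb.dim, algebraMap K F (a i) * pb.gen ^ (i : ℕ) = a i • pb.basis i := by
    intro i
    rw [pb.basis_eq_pow, Algebra.smul_def]
  simp only [this, map_sum, map_smul, Module.Basis.repr_self, Finsupp.smul_single, smul_eq_mul,
    mul_one, Finsupp.coe_finsetSum, Finset.sum_apply, Finsupp.single_apply,
    Finset.sum_ite_eq', Finset.mem_univ, if_true]

/-- Coordinates of `∑_{i : Fin dim} a_i θ^i` in the power basis. -/
theorem S18P12E_repr_sum_fin {K F : Type*} [Field K] [Field F] [Algebra K F]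
    (pb : PowerBasis K F) (a : Fin pb.dim → K) (j : Fin pb.dim) :
    pb.basis.repr (∑ i, algebraMap K F (a i) * pb.gen ^ (i : ℕ)) j = a j := by
  classical
  have : ∀ i : Fin pb.dim, algebraMap K F (a i) * pb.gen ^ (i : ℕ) = a i • pb.basis i := by
    intro i
    rw [pb.basis_eq_pow, Algebra.smul_def]
  simp only [this, map_sum, map_smul, Module.Basis.repr_self, Finsupp.smul_single, smul_eq_mul,
    mul_one, Finsupp.coe_finsetSum, Finset.sum_apply, Finsupp.single_apply,
    Finset.sum_ite_eq', Finset.mem_univ, if_true]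

/-- **Elementwise, ζ-free (K4).** Inside one ambient field `L`: `F1` a subfield, `V ⊆ F1` a
subring integrally closed in `F1`, `p` a prime number invertible in `V`, `f` a unit of `V`
which is not a `p`-th power in `F1`, `h ^ p = f`. If `∑_{i<p} c_i h^i` (`c_i ∈ F1`) is
integral over `V`, then all `c_i` lie in `V`. -/
theorem S18P12E_coeff_mem {L : Type*} [Field L] (F1 : Subfield L) (V : Subring L)
    (hVF : ∀ x ∈ V, x ∈ F1) (hVic : ∀ x ∈ F1, IsIntegral V x → x ∈ V)
    (p : ℕ) (hp : p.Prime) (hp0 : (p : L) ≠ 0) (hpV : ((p : L))⁻¹ ∈ V)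
    (f h : L) (hf : f ∈ V) (hf' : f⁻¹ ∈ V) (hh : h ^ p = f) (hnp : ∀ b ∈ F1, b ^ p ≠ f)
    (c : ℕ → L) (hc : ∀ i, c i ∈ F1)
    (hx : IsIntegral V (∑ i ∈ Finset.range p, c i * h ^ i)) (j : ℕ) (hj : j < p) :
    c j ∈ V := by
  classical
  -- the rings
  let ι : V →+* F1 := Subring.inclusion (show V ≤ F1.toSubring from fun x hx => hVF x hx)
  letI algVK : Algebra V F1 := ι.toAlgebra
  haveI towVKL : IsScalarTower V F1 L := IsScalarTower.of_algebraMap_eq (fun _ => rfl)
  let fK : F1 := ⟨f, hVF f hf⟩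
  have hirr : Irreducible (X ^ p - C fK : F1[X]) := by
    refine X_pow_sub_C_irreducible_of_prime hp ?_
    intro b hb
    exact hnp (b : L) b.2 (by
      have := congrArg (Subtype.val) hb
      simpa [fK] using this)
  haveI : Fact (Irreducible (X ^ p - C fK : F1[X])) := ⟨hirr⟩
  have hne : (X ^ p - C fK : F1[X]) ≠ 0 := hirr.ne_zero
  have hdeg : (X ^ p - C fK : F1[X]).natDegree = p := natDegree_X_pow_sub_C
  have hf0 : f ≠ 0 := by
    intro h0
    exact hnp 0 F1.zero_mem (by rw [h0, zero_pow hp.ne_zero])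
  -- the embedding of `F1[T]/(T^p - f)` into `L`
  let φ : AdjoinRoot (X ^ p - C fK : F1[X]) →ₐ[F1] L :=
    AdjoinRoot.liftAlgHom (X ^ p - C fK : F1[X]) (Algebra.ofId F1 L) h (by
      rw [eval₂_sub, eval₂_X_pow, eval₂_C, hh]
      exact sub_self _)
  have hφroot : φ (AdjoinRoot.root _) = h := AdjoinRoot.liftAlgHom_root _ _ _ _
  have hφinj : Function.Injective φ := φ.toRingHom.injective
  -- the power basis
  let pb : PowerBasis F1 (AdjoinRoot (X ^ p - C fK : F1[X])) := AdjoinRoot.powerBasis hne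
  have hgen : pb.gen = AdjoinRoot.root _ := AdjoinRoot.powerBasis_gen hne
  have hdim : pb.dim = p := (AdjoinRoot.powerBasis_dim hne).trans hdeg
  -- the element
  let cK : ℕ → F1 := fun i => ⟨c i, hc i⟩
  let xF : AdjoinRoot (X ^ p - C fK : F1[X]) :=
    ∑ i ∈ Finset.range pb.dim, algebraMap F1 _ (cK i) * pb.gen ^ i
  have hφx : φ xF = ∑ i ∈ Finset.range p, c i * h ^ i := by
    simp only [xF, map_sum, map_mul, map_pow, hgen, hφroot, AlgHom.commutes, hdim]
    rfl
  have hxF : IsIntegral V xF := by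
    have h1 : IsIntegral V ((φ.restrictScalars V) xF) := by
      change IsIntegral V (φ xF)
      rw [hφx]; exact hx
    exact (isIntegral_algHom_iff (φ.restrictScalars V) hφinj).mp h1
  -- `V` is integrally closed in `F1`
  have hic : ∀ t : F1, IsIntegral V t → ∃ r : V, algebraMap V F1 r = t := by
    intro t ht
    have h1 : IsIntegral V (algebraMap F1 L t) := ht.map (IsScalarTower.toAlgHom V F1 L)
    exact ⟨⟨(t : L), hVic (t : L) t.2 h1⟩, Subtype.ext rfl⟩
  -- units
  let u : V := ⟨f, hf⟩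
  have hu : IsUnit u :=
    ⟨⟨u, ⟨f⁻¹, hf'⟩, Subtype.ext (mul_inv_cancel₀ hf0), Subtype.ext (inv_mul_cancel₀ hf0)⟩, rfl⟩
  have hd : IsUnit ((pb.dim : ℕ) : V) := by
    rw [hdim]
    refine ⟨⟨(p : V), ⟨(p : L)⁻¹, hpV⟩, Subtype.ext ?_, Subtype.ext ?_⟩, rfl⟩
    · simp [mul_inv_cancel₀ hp0]
    · simp [inv_mul_cancel₀ hp0]
  have hθ : pb.gen ^ pb.dim = algebraMap V (AdjoinRoot (X ^ p - C fK : F1[X])) u := by
    rw [hgen, hdim, IsScalarTower.algebraMap_apply V F1 (AdjoinRoot (X ^ p - C fK : F1[X]))]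
    have h1 := AdjoinRoot.eval₂_root (X ^ p - C fK : F1[X])
    rw [eval₂_sub, eval₂_X_pow, eval₂_C, sub_eq_zero] at h1
    rw [h1, AdjoinRoot.algebraMap_eq]
    rfl
  obtain ⟨c'', hc''⟩ := S18P12_exists_coeff_of_isIntegral' hic pb u hu hd hθ hxF
  have hjd : j < pb.dim := by rw [hdim]; exact hj
  have h1 := S18P12E_repr_sum_range pb cK ⟨j, hjd⟩
  have h2 : pb.basis.repr xF ⟨j, hjd⟩ = algebraMap V F1 (c'' ⟨j, hjd⟩) := by
    rw [hc'']
    have : ∀ i : Fin pb.dim, algebraMap V (AdjoinRoot (X ^ p - C fK : F1[X])) (c'' i) *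
        pb.gen ^ (i : ℕ) = algebraMap F1 _ (algebraMap V F1 (c'' i)) * pb.gen ^ (i : ℕ) := by
      intro i
      rw [← IsScalarTower.algebraMap_apply V F1 (AdjoinRoot (X ^ p - C fK : F1[X]))]
    simp only [this]
    exact S18P12E_repr_sum_fin pb (fun i => algebraMap V F1 (c'' i)) ⟨j, hjd⟩
  have h3 : cK j = algebraMap V F1 (c'' ⟨j, hjd⟩) := by
    rw [← h2]; exact h1.symm
  have h4 : c j = ((c'' ⟨j, hjd⟩ : V) : L) := congrArg Subtype.val h3
  rw [h4]
  exact (c'' ⟨j, hjd⟩).2

end Fermat.Agent.S18_helper6_KUMMERE
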