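import Mathlib
import Fermat.Agent.S18_helper9_CDefs
import Fermat.Agent.S18_helper23_KUMIDEM
import Fermat.Agent.S18_helper6_KUMMERE

/-!
# S18, block C: pieces X-C-IDEM and X-C-LOC in the shapes of `S18_helper9_CDefs`

* `vsub V s` : `V[s]` as a `Subring L`; `mem_vsub_iff : x ∈ vsub V s ↔ x ∈ vadj V s p`.
* `idem`     : `kumIdem p s` is idempotent modulo `π V[s]`.
* `nontriv`  : `kumIdem p (h/G) - γ ∉ π V[h/G]` when `h ∉ F1`.
* `loc`      : from the local shape at `m` to `d * kumIdem p (h/G) ∈ A' + π V[h/G]`, `d ∉ m`.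
* adapters   : `fadj_subset_vadj`, `mem_of_isIntegral_of_val`, `icl_subset_vadj`,
  `vadj_div_subset`, `vadj_subset_icl`, `nontriv_icl`.
-/

set_option autoImplicit false

namespace Fermat.Agent.S18_helper23_CLOC

open Fermat.Agent.S18_helper9_CDefs Finset Polynomial

variable {L : Type*} [Field L]

/-- elements of `R[s]` are polynomials of degree `< p` in `s` when `s ^ p ∈ R`. -/
theorem exists_coeff_of_mem_adjoin {R : Type*} [CommRing R] [Algebra R L] (s : L) (p : ℕ)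
    (hp : 0 < p) (a : R) (hs : s ^ p = algebraMap R L a) {x : L}
    (hx : x ∈ Algebra.adjoin R {s}) :
    ∃ c : ℕ → R, x = ∑ i ∈ range p, algebraMap R L (c i) * s ^ i := by
  classical
  rcases subsingleton_or_nontrivial R with hR | hR
  · -- degenerate: `R` trivial forces `L` trivial, impossible
    exfalso
    have : (1 : L) = 0 := by
      rw [← map_one (algebraMap R L), Subsingleton.elim (1 : R) 0, map_zero]
    exact one_ne_zero this
  rw [Algebra.adjoin_singleton_eq_range_aeval] at hx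
  obtain ⟨P, rfl⟩ := hx
  set g : R[X] := X ^ p - C a with hg
  have hgm : g.Monic := monic_X_pow_sub_C _ hp.ne'
  have hroot : aeval s g = 0 := by
    simp only [hg, map_sub, map_pow, aeval_X, aeval_C, hs, sub_self]
  have hdeg : (P %ₘ g).natDegree < p := by
    have h1 : g.natDegree = p := natDegree_X_pow_sub_C
    have hg1 : g ≠ 1 := by
      intro h1'
      rw [h1', natDegree_one] at h1
      omega
    have := natDegree_modByMonic_lt P hgm hg1
    rwa [h1] at this
  refine ⟨fun i => (P %ₘ g).coeff i, ?_⟩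
  have h2 : aeval s P = aeval s (P %ₘ g) := by
    conv_lhs => rw [← modByMonic_add_div P g]
    rw [map_add, map_mul, hroot, zero_mul, add_zero]
  have h3 := aeval_eq_sum_range' hdeg s
  simp only [AlgHom.toRingHom_eq_coe, RingHom.coe_coe] at h2 ⊢
  rw [h2, h3]
  exact Finset.sum_congr rfl fun i _ => by rw [Algebra.smul_def]

/-- `V[s]` as a subring of `L`. -/
noncomputable def vsub (V : Subring L) (s : L) : Subring L := (Algebra.adjoin V {s}).toSubring

theorem le_vsub (V : Subring L) (s : L) : V ≤ vsub V s := by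
  intro x hx
  exact (Algebra.adjoin V {s}).algebraMap_mem ⟨x, hx⟩

theorem self_mem_vsub (V : Subring L) (s : L) : s ∈ vsub V s :=
  Algebra.subset_adjoin (Set.mem_singleton s)

theorem vadj_subset_vsub (V : Subring L) (s : L) (p : ℕ) : vadj V s p ⊆ vsub V s := by
  rintro x ⟨c, hc, rfl⟩
  exact (vsub V s).sum_mem fun i _ =>
    (vsub V s).mul_mem (le_vsub V s (hc i)) ((vsub V s).pow_mem (self_mem_vsub V s) i)

theorem vsub_subset_vadj (V : Subring L) (s : L) (p : ℕ) (hp : 0 < p) (hs : s ^ p ∈ V) :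
    (vsub V s : Set L) ⊆ vadj V s p := by
  intro x hx
  have hx' : x ∈ Algebra.adjoin V {s} := hx
  obtain ⟨c, hc⟩ := exists_coeff_of_mem_adjoin s p hp (⟨s ^ p, hs⟩ : V) rfl hx'
  exact ⟨fun i => (c i : L), fun i => (c i).2, hc⟩

theorem mem_vsub_iff (V : Subring L) (s : L) (p : ℕ) (hp : 0 < p) (hs : s ^ p ∈ V) (x : L) :
    x ∈ vsub V s ↔ x ∈ vadj V s p :=
  ⟨fun h => vsub_subset_vadj V s p hp hs h, fun h => vadj_subset_vsub V s p h⟩

theorem kumIdem_eq (p : ℕ) (s : L) :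
    kumIdem p s = Fermat.Agent.S18_helper23_KUMIDEM.kumIdem p ((p : L)⁻¹) s := rfl

/-! ### `vadj V s p` -/

theorem vadj_zero_mem (V : Subring L) (s : L) (p : ℕ) : (0 : L) ∈ vadj V s p :=
  ⟨fun _ => 0, fun _ => V.zero_mem, by simp⟩

theorem vadj_add_mem (V : Subring L) (s : L) (p : ℕ) {x y : L} (hx : x ∈ vadj V s p)
    (hy : y ∈ vadj V s p) : x + y ∈ vadj V s p := by
  obtain ⟨c, hc, rfl⟩ := hx
  obtain ⟨d, hd, rfl⟩ := hy
  refine ⟨fun i => c i + d i, fun i => V.add_mem (hc i) (hd i), ?_⟩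
  rw [← Finset.sum_add_distrib]
  exact Finset.sum_congr rfl fun i _ => by ring

theorem vadj_smul_mem (V : Subring L) (s : L) (p : ℕ) {a x : L} (ha : a ∈ V)
    (hx : x ∈ vadj V s p) : a * x ∈ vadj V s p := by
  obtain ⟨c, hc, rfl⟩ := hx
  refine ⟨fun i => a * c i, fun i => V.mul_mem ha (hc i), ?_⟩
  rw [Finset.mul_sum]
  exact Finset.sum_congr rfl fun i _ => by ring

theorem vadj_sum_mem (V : Subring L) (s : L) (p : ℕ) {ι : Type*} (t : Finset ι) (x : ι → L)
    (hx : ∀ i ∈ t, x i ∈ vadj V s p) : ∑ i ∈ t, x i ∈ vadj V s p := by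
  classical
  induction t using Finset.induction_on with
  | empty => simpa using vadj_zero_mem V s p
  | insert a t ha ih =>
    rw [Finset.sum_insert ha]
    exact vadj_add_mem V s p (hx a (Finset.mem_insert_self a t))
      (ih fun i hi => hx i (Finset.mem_insert_of_mem hi))

theorem vadj_pow_mem (V : Subring L) (s : L) (p : ℕ) {i : ℕ} (hi : i < p) :
    s ^ i ∈ vadj V s p := by
  classical
  refine ⟨fun k => if k = i then 1 else 0, fun k => ?_, ?_⟩
  · dsimp only
    split_ifs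
    · exact V.one_mem
    · exact V.zero_mem
  · simp only [ite_mul, one_mul, zero_mul]
    rw [Finset.sum_ite_eq' (range p) i, if_pos (Finset.mem_range.2 hi)]

/-- closed form of the auxiliary witnesses. -/
theorem kumW_eq (q s c : L) (i : ℕ) :
    Fermat.Agent.S18_helper23_KUMIDEM.kumW q s c i = q * c * ∑ k ∈ range i, s ^ k := by
  induction i with
  | zero => simp [Fermat.Agent.S18_helper23_KUMIDEM.kumW]
  | succ i ih =>
    rw [Fermat.Agent.S18_helper23_KUMIDEM.kumW, ih, Finset.sum_range_succ', Finset.sum_congr rfl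
      (fun k _ => pow_succ s k), ← Finset.sum_mul]
    ring

/-- (X-C-IDEM, part 1) the Kummer idempotent is idempotent modulo `π V[s]`. -/
theorem idem (V : Subring L) (π s : L) (p : ℕ) (hp : 0 < p) (hpV : (p : L)⁻¹ ∈ V) [CharZero L]
    (hs : ∃ c ∈ V, s ^ p = 1 + π * c) :
    ∃ w ∈ vadj V s p, kumIdem p s * kumIdem p s - kumIdem p s = π * w := by
  obtain ⟨c, hc, hsp⟩ := hs
  have hp0 : (p : L) ≠ 0 := Nat.cast_ne_zero.2 hp.ne'
  have hq : (p : L) * (p : L)⁻¹ = 1 := mul_inv_cancel₀ hp0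
  refine ⟨_, ?_, Fermat.Agent.S18_helper23_KUMIDEM.kumIdem_mul_self p ((p : L)⁻¹) s π c hq hsp⟩
  refine vadj_smul_mem V s p hpV (vadj_sum_mem V s p _ _ fun i hi => ?_)
  rw [kumW_eq]
  refine vadj_smul_mem V s p (V.mul_mem hpV hc) (vadj_sum_mem V s p _ _ fun k hk => ?_)
  exact vadj_pow_mem V s p ((Finset.mem_range.1 hk).trans (Finset.mem_range.1 hi))

/-- linear independence of `1, s, …, s^(p-1)` over `F1` when `s ^ p ∈ F1` is not a `p`-th power in
`F1`. -/
theorem coeff_eq_zero_of_sum_eq_zero (F1 : Subfield L) (p : ℕ) (hp : p.Prime) (s : L)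
    (hsp : s ^ p ∈ F1) (hnp : ∀ b ∈ F1, b ^ p ≠ s ^ p)
    (b : ℕ → L) (hb : ∀ i, b i ∈ F1) (h0 : ∑ i ∈ range p, b i * s ^ i = 0)
    (i : ℕ) (hi : i < p) : b i = 0 := by
  classical
  let P : F1[X] := ∑ i ∈ range p, C (⟨b i, hb i⟩ : F1) * X ^ i
  have hP : aeval s P = 0 := by
    simp only [P, map_sum, map_mul, aeval_C, map_pow, aeval_X]
    exact h0
  let a : F1 := ⟨s ^ p, hsp⟩
  have hirr : Irreducible (X ^ p - C a : F1[X]) := by
    apply X_pow_sub_C_irreducible_of_prime hp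
    intro c hc
    apply hnp c.1 c.2
    have := congrArg Subtype.val hc
    simpa using this
  have hmonic : (X ^ p - C a : F1[X]).Monic := monic_X_pow_sub_C a hp.ne_zero
  have haev : aeval s (X ^ p - C a : F1[X]) = 0 := by
    simp only [map_sub, map_pow, aeval_X, aeval_C]
    exact sub_self _
  have hmin : (X ^ p - C a : F1[X]) = minpoly F1 s :=
    minpoly.eq_of_irreducible_of_monic hirr haev hmonic
  have hdvd : (X ^ p - C a : F1[X]) ∣ P := by
    rw [hmin]; exact minpoly.dvd F1 s hP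
  have hdeg : P.degree < (X ^ p - C a : F1[X]).degree := by
    rw [degree_X_pow_sub_C hp.pos]
    refine (degree_sum_le _ _).trans_lt ?_
    refine (Finset.sup_lt_iff (WithBot.bot_lt_coe p)).2 ?_
    intro k hk
    refine (degree_C_mul_X_pow_le k _).trans_lt ?_
    exact WithBot.coe_lt_coe.2 (Finset.mem_range.1 hk)
  have hP0 : P = 0 := Polynomial.eq_zero_of_dvd_of_degree_lt hdvd hdeg
  have hcoeff : P.coeff i = ⟨b i, hb i⟩ := by
    simp only [P, finsetSum_coeff, coeff_C_mul, coeff_X_pow]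
    rw [Finset.sum_eq_single i]
    · simp
    · intro k _ hk
      simp [Ne.symm hk]
    · intro hi'
      exact absurd (Finset.mem_range.2 hi) hi'
  rw [hP0, coeff_zero] at hcoeff
  have := congrArg Subtype.val hcoeff
  simpa using this.symm

/-- every element of `F1(h)` is `∑_{i<p} c_i h^i` with `c_i ∈ F1` (when `h ^ p ∈ F1`). -/
theorem fadj_subset_vadj (F1 : Subfield L) (h : L) (p : ℕ) (hp : 0 < p) (hh : h ^ p ∈ F1) :
    (fadj F1 h : Set L) ⊆ vadj F1.toSubring h p := by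
  intro x hx
  have hint : IsIntegral F1 h := by
    refine ⟨X ^ p - C (⟨h ^ p, hh⟩ : F1), monic_X_pow_sub_C _ hp.ne', ?_⟩
    simp only [eval₂_sub, eval₂_pow, eval₂_X, eval₂_C]
    exact sub_self _
  have hle : fadj F1 h ≤ (IntermediateField.adjoin F1 {h}).toSubfield := by
    rw [fadj, Subfield.closure_le]
    rintro y (hy | hy)
    · exact (IntermediateField.adjoin F1 {h}).algebraMap_mem ⟨y, hy⟩
    · rw [Set.mem_singleton_iff] at hy
      rw [hy]
      exact IntermediateField.mem_adjoin_simple_self F1 h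
  have hx1 : x ∈ IntermediateField.adjoin F1 {h} := hle hx
  have hx2 : x ∈ Algebra.adjoin F1 {h} := by
    rw [← IntermediateField.adjoin_simple_toSubalgebra_of_isAlgebraic hint.isAlgebraic]
    exact hx1
  obtain ⟨c, hc⟩ := exists_coeff_of_mem_adjoin h p hp (⟨h ^ p, hh⟩ : F1) rfl hx2
  exact ⟨fun i => (c i : L), fun i => (c i).2, hc⟩

/-- a subring of `F1` with the valuation property is integrally closed in `F1`. -/
theorem mem_of_isIntegral_of_val (F1 : Subfield L) (V : Subring L)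
    (hval : ∀ x ∈ F1, x ∈ V ∨ x⁻¹ ∈ V) {x : L} (hxF : x ∈ F1) (hx : IsIntegral V x) : x ∈ V := by
  rcases hval x hxF with h | h
  · exact h
  obtain ⟨P, hPm, hP⟩ := hx
  by_cases hx0 : x = 0
  · rw [hx0]; exact V.zero_mem
  rw [eval₂_eq_sum_range, Finset.sum_range_succ, hPm.coeff_natDegree, map_one, one_mul] at hP
  rcases Nat.eq_zero_or_pos P.natDegree with hn | hn
  · rw [hn] at hP
    simp at hP
  have key : x = -∑ k ∈ range P.natDegree,
      (P.coeff k : L) * x⁻¹ ^ (P.natDegree - 1 - k) := by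
    have h1 : x ^ P.natDegree = -∑ k ∈ range P.natDegree, algebraMap V L (P.coeff k) * x ^ k := by
      linear_combination hP
    have h2 : x = x ^ P.natDegree * x⁻¹ ^ (P.natDegree - 1) := by
      have : x ^ P.natDegree = x ^ (P.natDegree - 1) * x := by
        rw [← pow_succ, Nat.sub_add_cancel hn]
      rw [this, inv_pow]
      field_simp
    conv_lhs => rw [h2, h1]
    rw [neg_mul, Finset.sum_mul]
    congr 1
    refine Finset.sum_congr rfl fun k hk => ?_
    have hk' : k ≤ P.natDegree - 1 := by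
      have := Finset.mem_range.1 hk; omega
    have : x⁻¹ ^ (P.natDegree - 1) = x⁻¹ ^ (P.natDegree - 1 - k) * x⁻¹ ^ k := by
      rw [← pow_add, Nat.sub_add_cancel hk']
    rw [this, inv_pow x k]
    have hxk : x ^ k ≠ 0 := pow_ne_zero _ hx0
    field_simp
    rfl
  rw [key]
  exact V.neg_mem (V.sum_mem fun k _ => V.mul_mem (P.coeff k).2 (V.pow_mem h _))

/-- change of generator in `V[s]`. -/
theorem vadj_div_subset (V : Subring L) (h G : L) (p : ℕ) (hG : G ∈ V) (hG0 : G ≠ 0) :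
    vadj V h p ⊆ vadj V (h / G) p := by
  rintro x ⟨c, hc, rfl⟩
  refine ⟨fun i => c i * G ^ i, fun i => V.mul_mem (hc i) (V.pow_mem hG i), ?_⟩
  refine Finset.sum_congr rfl fun i _ => ?_
  rw [div_pow]
  have : G ^ i ≠ 0 := pow_ne_zero _ hG0
  field_simp

/-- normality of `V[h]`: elements of `F1(h)` integral over `V` lie in `V[h]`
(uses helper6's `S18P12E_coeff_mem`). -/
theorem icl_subset_vadj (F1 : Subfield L) (V : Subring L) (hVF : ∀ x ∈ V, x ∈ F1)
    (hVic : ∀ x ∈ F1, IsIntegral V x → x ∈ V) (p : ℕ) (hp : p.Prime) (hp0 : (p : L) ≠ 0)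
    (hpV : ((p : L))⁻¹ ∈ V) (f h : L) (hf : f ∈ V) (hf' : f⁻¹ ∈ V) (hh : h ^ p = f)
    (hnp : ∀ b ∈ F1, b ^ p ≠ f) :
    (icl V (fadj F1 h) : Set L) ⊆ vadj V h p := by
  intro x hx
  obtain ⟨hxint, hxF⟩ := hx
  obtain ⟨c, hc, rfl⟩ := fadj_subset_vadj F1 h p hp.pos (by rw [hh]; exact hVF f hf) hxF
  have hmem := Fermat.Agent.S18_helper6_KUMMERE.S18P12E_coeff_mem F1 V hVF hVic p hp hp0 hpV f h
    hf hf' hh hnp c hc hxint
  classical
  refine ⟨fun i => if i < p then c i else 0, fun i => ?_, ?_⟩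
  · dsimp only
    split_ifs with hi
    · exact hmem i hi
    · exact V.zero_mem
  · refine Finset.sum_congr rfl fun i hi => ?_
    dsimp only
    rw [if_pos (Finset.mem_range.1 hi)]

variable {O V A0 Ainf : Subring L} {F1 : Subfield L} {π j : L}

/-- a `p`-th root of an element of `F1` which is not in `F1`: its `p`-th power is not a `p`-th
power in `F1` (roots of unity of `L` are algebraic over `O`, hence in `F1`). -/
theorem not_pow_of_notMem (S : Setup O π j F1 V A0 Ainf) {p : ℕ} (hp : 0 < p) (s : L)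
    (hs : s ∉ F1) : ∀ b ∈ F1, b ^ p ≠ s ^ p := by
  intro b hb hbs
  have hb0 : b ≠ 0 := by
    rintro rfl
    rw [zero_pow hp.ne'] at hbs
    exact hs ((pow_eq_zero_iff hp.ne').1 hbs.symm ▸ F1.zero_mem)
  have hξ : (s / b) ^ p = 1 := by
    rw [div_pow, ← hbs, div_self (pow_ne_zero _ hb0)]
  have halg : IsAlgebraic O (s / b) := by
    refine ⟨X ^ p - C 1, X_pow_sub_C_ne_zero hp 1, ?_⟩
    simp only [map_sub, map_pow, aeval_X, map_one, hξ, sub_self]
  obtain ⟨a, ha, b', hb', hb'0, hab⟩ := S.algClosed _ halg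
  apply hs
  have : s = a / b' * b := by
    field_simp
    rw [← hab]
    field_simp
  rw [this]
  exact F1.mul_mem (F1.div_mem (S.O_le ha) (S.O_le hb')) hb

/-- (X-C-IDEM, part 2) nontriviality of the Kummer idempotent. -/
theorem nontriv [CharZero L] (S : Setup O π j F1 V A0 Ainf) {p : ℕ} (hp : p.Prime)
    (f h G : L) (hf : f ∈ F1) (hh : h ^ p = f) (hG : G ∈ F1) (hG0 : G ≠ 0) (hhF : h ∉ F1)
    (γ : L) (hγ : γ ∈ V) : ¬ ∃ w ∈ vadj V (h / G) p, kumIdem p (h / G) - γ = π * w := by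
  rintro ⟨w, ⟨c, hc, rfl⟩, heq⟩
  have hp0 : (p : L) ≠ 0 := Nat.cast_ne_zero.2 hp.ne_zero
  have hs : h / G ∉ F1 := by
    intro hs
    apply hhF
    have : h = h / G * G := by field_simp
    rw [this]
    exact F1.mul_mem hs hG
  have hsp : (h / G) ^ p ∈ F1 := by
    rw [div_pow, hh]
    exact F1.div_mem hf (F1.pow_mem hG p)
  have hnp := not_pow_of_notMem S hp.pos (h / G) hs
  have hπF : π ∈ F1 := S.O_le S.π_mem
  let b : ℕ → L := fun i => (p : L)⁻¹ - (if i = 0 then γ else 0) - π * c i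
  have hb : ∀ i, b i ∈ F1 := by
    intro i
    refine F1.sub_mem (F1.sub_mem (F1.inv_mem (natCast_mem F1 p)) ?_)
      (F1.mul_mem hπF (S.V_le (hc i)))
    split_ifs
    · exact S.V_le hγ
    · exact F1.zero_mem
  have h0 : ∑ i ∈ range p, b i * (h / G) ^ i = 0 := by
    have hterm : ∀ i ∈ range p, b i * (h / G) ^ i =
        (p : L)⁻¹ * (h / G) ^ i - (if i = 0 then γ else 0) - π * (c i * (h / G) ^ i) := by
      intro i _
      simp only [b]
      split_ifs with h0
      · subst h0; ring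
      · ring
    rw [Finset.sum_congr rfl hterm, Finset.sum_sub_distrib, Finset.sum_sub_distrib,
      ← Finset.mul_sum, ← Finset.mul_sum, Finset.sum_ite_eq' (range p) 0 (fun _ => γ),
      if_pos (Finset.mem_range.2 hp.pos)]
    rw [kumIdem] at heq
    linear_combination heq
  have h1 := coeff_eq_zero_of_sum_eq_zero F1 p hp (h / G) hsp hnp b hb h0 1 hp.one_lt
  simp only [b, one_ne_zero, if_false, sub_zero] at h1
  have hπ0 : π ≠ 0 := by
    rintro rfl
    exact S.π_nonunit (by rw [inv_zero]; exact V.zero_mem)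
  apply S.π_nonunit
  have : π⁻¹ = c 1 * (p : L) := by
    field_simp
    have h2 : (p : L)⁻¹ = π * c 1 := by linear_combination h1
    have h3 : (p : L) * (p : L)⁻¹ = 1 := mul_inv_cancel₀ hp0
    rw [h2] at h3
    linear_combination -h3
  rw [this]
  exact V.mul_mem (hc 1) (natCast_mem V p)

theorem adj_le_of_mem (O : Subring L) (x : L) : O ≤ adj O x := fun _ ha =>
  Subring.subset_closure (Or.inl ha)

theorem chart_O_le {x : L} {A : Subring L} (S : Setup O π j F1 V A0 Ainf)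
    (hC : Chart O π x F1 V A) : O ≤ A := by
  intro a ha
  rw [hC.mem_iff]
  refine ⟨?_, S.O_le ha⟩
  exact isIntegral_algebraMap (R := adj O x) (A := L) (x := ⟨a, adj_le_of_mem O x ha⟩)

theorem chart_le_F1 {x : L} {A : Subring L} (hC : Chart O π x F1 V A) {a : L} (ha : a ∈ A) :
    a ∈ F1 := ((hC.mem_iff a).1 ha).2

theorem chart_isIntegral {x : L} {A : Subring L} (hC : Chart O π x F1 V A) {a : L}
    (ha : a ∈ A) : IsIntegral (adj O x) a := ((hC.mem_iff a).1 ha).1

theorem F1_le_fadj (F1 : Subfield L) (h : L) : F1 ≤ fadj F1 h := fun _ ha =>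
  Subfield.subset_closure (Or.inl ha)

theorem self_mem_fadj (F1 : Subfield L) (h : L) : h ∈ fadj F1 h :=
  Subfield.subset_closure (Or.inr rfl)

theorem chart_le_icl {x : L} {A : Subring L} (hC : Chart O π x F1 V A) (h : L) :
    A ≤ icl (adj O x) (fadj F1 h) := fun _ ha =>
  ⟨chart_isIntegral hC ha, F1_le_fadj F1 h (chart_le_F1 hC ha)⟩

/-- (X-C-LOC) the Kummer idempotent at a maximal ideal `m ∋ π` of the chart `A`:
from the local shape `f = u g^p`, `G ≡ g w` (conclusion of X-C-LOCRING) to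
`d * kumIdem p (h/G) ∈ A' + π V[s]` with `d ∉ m`.  (`locAt A m` is written unfolded.) -/
theorem loc [CharZero L] (S : Setup O π j F1 V A0 Ainf) {p : ℕ} (hp : p.Prime)
    (hpO : (p : L)⁻¹ ∈ O)
    (x : L) (_hx : x = j ∨ x = j⁻¹) (A : Subring L) (hC : Chart O π x F1 V A)
    (f h G : L) (hf0 : f ≠ 0) (hh : h ^ p = f) (hred : RedPow π V p f G)
    (_hπ : π ∈ A) (m : Ideal A) (hm : m.IsPrime)
    (hshape : ∃ u g w : L, (∃ a c : A, c ∉ m ∧ u * (c : L) = a) ∧
      (∃ a c : A, c ∉ m ∧ u⁻¹ * (c : L) = a) ∧ g ∈ F1 ∧ g ∈ V ∧ g⁻¹ ∈ V ∧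
      f = u * g ^ p ∧ (∃ a c : A, c ∉ m ∧ w * (c : L) = a) ∧
      (∃ a c : A, c ∉ m ∧ w⁻¹ * (c : L) = a) ∧ ∃ c ∈ V, G = g * w * (1 + π * c)) :
    ∃ d : A, d ∉ m ∧ ∃ a ∈ icl (adj O x) (fadj F1 h), ∃ w ∈ vadj V (h / G) p,
      (d : L) * kumIdem p (h / G) = a + π * w := by
  obtain ⟨u, g, w, ⟨au, cu, hcu, hu⟩, -, hgF, hgV, hgV', hfu, -, ⟨aw, cw, hcw, hw⟩, c, hc, hG⟩ :=
    hshape
  obtain ⟨hGV, hGV', c₀, hc₀, hfG⟩ := hred
  have hOA : O ≤ A := chart_O_le S hC
  have hOV : O ≤ V := hOA.trans hC.le_V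
  have hπV : π ∈ V := hOV S.π_mem
  have hqV : (p : L)⁻¹ ∈ V := hOV hpO
  -- nonvanishing
  have hg0 : g ≠ 0 := by
    rintro rfl
    rw [zero_pow hp.ne_zero, mul_zero] at hfu
    exact hf0 hfu
  have hu0 : u ≠ 0 := by
    rintro rfl
    rw [zero_mul] at hfu
    exact hf0 hfu
  have hG0 : G ≠ 0 := by
    rintro rfl
    rw [zero_pow hp.ne_zero, zero_mul] at hfG
    exact hf0 hfG
  have hw0 : w ≠ 0 := by
    rintro rfl
    rw [mul_zero, zero_mul] at hG
    exact hG0 hG
  have h1c : 1 + π * c ≠ 0 := by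
    intro h0
    rw [h0, mul_zero] at hG
    exact hG0 hG
  have hcw0 : (cw : L) ≠ 0 := by
    intro h0
    apply hcw
    have : cw = 0 := Subtype.ext h0
    rw [this]; exact m.zero_mem
  -- the two roots
  set s : L := h / G with hs
  set s' : L := h / (g * w) with hs'
  have hss' : s' = s * (1 + π * c) := by
    rw [hs', hs, hG]
    field_simp
  have hsp : s ^ p = 1 + π * c₀ := by
    rw [hs, div_pow, hh, hfG]
    field_simp
  have hspV : s ^ p ∈ V := by
    rw [hsp]; exact V.add_mem V.one_mem (V.mul_mem hπV hc₀)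
  -- congruence of the idempotents
  have hsS : s ∈ vsub V s := self_mem_vsub V s
  have hcS : c ∈ vsub V s := le_vsub V s hc
  have hs'S : s' ∈ vsub V s := by
    rw [hss']
    exact (vsub V s).mul_mem hsS ((vsub V s).add_mem (vsub V s).one_mem
      ((vsub V s).mul_mem (le_vsub V s hπV) hcS))
  obtain ⟨w₁, hw₁, hcong⟩ := Fermat.Agent.S18_helper23_KUMIDEM.kumIdem_congr (vsub V s) p π
    (le_vsub V s hqV) hs'S hsS ((vsub V s).mul_mem hsS hcS)
    (by rw [hss']; ring : s' - s = π * (s * c))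
  have hw₁' : w₁ ∈ vadj V s p := vsub_subset_vadj V s p hp.pos hspV hw₁
  -- `(s')^p * c₁ = a₁`
  have hwF : w ∈ F1 := by
    have : w = ((aw : L) / (cw : L))⁻¹ := by
      rw [← hw]; field_simp
    rw [this]
    exact F1.inv_mem (F1.div_mem (chart_le_F1 hC aw.2) (chart_le_F1 hC cw.2))
  have hs'p : s' ^ p * ((cu : L) * (cw : L) ^ p) = (au : L) * (aw : L) ^ p := by
    have h1 : s' ^ p = u * (w⁻¹) ^ p := by
      rw [hs', div_pow, hh, hfu, mul_pow, inv_pow]
      field_simp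
    rw [h1, ← hu, ← hw]
    ring
  obtain ⟨c₁, hc₁, a₁, hc₁a₁⟩ : ∃ c₁ : A, c₁ ∉ m ∧ ∃ a₁ : A, s' ^ p * (c₁ : L) = (a₁ : L) := by
    refine ⟨cu * cw ^ p, ?_, au * aw ^ p, ?_⟩
    · intro hmem
      rcases hm.mem_or_mem hmem with h1 | h1
      · exact hcu h1
      · exact hcw (hm.mem_of_pow_mem _ h1)
    · push_cast
      exact hs'p
  set y : L := (c₁ : L) * s' with hy
  have hyp : y ^ p = ((c₁ ^ (p - 1) * a₁ : A) : L) := by
    have hd : (c₁ : L) ^ p = (c₁ : L) ^ (p - 1) * (c₁ : L) := by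
      rw [← pow_succ, Nat.sub_add_cancel hp.pos]
    rw [hy, mul_pow, hd]
    push_cast
    rw [← hc₁a₁]; ring
  have hA' : A ≤ icl (adj O x) (fadj F1 h) := chart_le_icl hC h
  have hyA' : y ∈ icl (adj O x) (fadj F1 h) := by
    refine ⟨IsIntegral.of_pow hp.pos ?_, ?_⟩
    · rw [hyp]
      exact chart_isIntegral hC (c₁ ^ (p - 1) * a₁).2
    · rw [hy, hs']
      exact (fadj F1 h).mul_mem (F1_le_fadj F1 h (chart_le_F1 hC c₁.2))
        ((fadj F1 h).div_mem (self_mem_fadj F1 h) (F1_le_fadj F1 h (F1.mul_mem hgF hwF)))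
  -- the lift
  have hc₁0 : (c₁ : L) ≠ 0 := by
    intro h0
    apply hc₁
    have : c₁ = 0 := Subtype.ext h0
    rw [this]; exact m.zero_mem
  have hlift : ((c₁ ^ (p - 1) : A) : L) * kumIdem p s' =
      (p : L)⁻¹ * ∑ i ∈ range p, (c₁ : L) ^ (p - 1 - i) * y ^ i := by
    rw [kumIdem, mul_left_comm, Finset.mul_sum]
    congr 1
    refine Finset.sum_congr rfl fun i hi => ?_
    have hi' : i ≤ p - 1 := by
      have := Finset.mem_range.1 hi; omega
    have : (c₁ : L) ^ (p - 1) = (c₁ : L) ^ (p - 1 - i) * (c₁ : L) ^ i := by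
      rw [← pow_add, Nat.sub_add_cancel hi']
    rw [hy, mul_pow]
    push_cast
    rw [this]; ring
  refine ⟨c₁ ^ (p - 1), fun hmem => hc₁ (hm.mem_of_pow_mem _ hmem),
    (p : L)⁻¹ * ∑ i ∈ range p, (c₁ : L) ^ (p - 1 - i) * y ^ i, ?_,
    -(((c₁ ^ (p - 1) : A) : L) * w₁), ?_, ?_⟩
  · refine Subring.mul_mem _ (hA' (hOA hpO)) (Subring.sum_mem _ fun i _ => ?_)
    exact Subring.mul_mem _ (Subring.pow_mem _ (hA' c₁.2) _) (Subring.pow_mem _ hyA' _)
  · have h1 : ((c₁ ^ (p - 1) : A) : L) ∈ V := hC.le_V (c₁ ^ (p - 1)).2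
    have := vadj_smul_mem V s p (V.neg_mem h1) hw₁'
    rwa [neg_mul] at this
  · rw [← hlift]
    rw [kumIdem_eq, kumIdem_eq]
    linear_combination -((c₁ ^ (p - 1) : A) : L) * hcong


/-- `1 + π c` is a unit of `V`. -/
theorem inv_one_add_mem (S : Setup O π j F1 V A0 Ainf) {c : L} (hc : c ∈ V) :
    (1 + π * c)⁻¹ ∈ V := by
  have hOV : O ≤ V := (chart_O_le S S.chart0).trans S.chart0.le_V
  have hπV : π ∈ V := hOV S.π_mem
  have ht : 1 + π * c ∈ V := V.add_mem V.one_mem (V.mul_mem hπV hc)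
  by_contra hinv
  obtain ⟨v, hv, hvt⟩ := S.V_unif _ ht hinv
  have hπ0 : π ≠ 0 := by
    rintro rfl
    exact S.π_nonunit (by rw [inv_zero]; exact V.zero_mem)
  apply S.π_nonunit
  have : π⁻¹ = v - c := by
    field_simp
    linear_combination hvt
  rw [this]
  exact V.sub_mem hv hc

/-- `V[h/G] ⊆` elements of `F1(h)` integral over `V`. -/
theorem vadj_subset_icl (S : Setup O π j F1 V A0 Ainf) {p : ℕ} (hp : 0 < p) (h G : L)
    (hG : G ∈ V) (hs : (h / G) ^ p ∈ V) :
    vadj V (h / G) p ⊆ (icl V (fadj F1 h) : Set L) := by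
  rintro x ⟨c, hc, rfl⟩
  have hsint : IsIntegral V (h / G) :=
    IsIntegral.of_pow hp (Fermat.Agent.S18_helper23_KUMIDEM.isIntegral_of_mem V hs)
  have hsF : h / G ∈ fadj F1 h :=
    (fadj F1 h).div_mem (self_mem_fadj F1 h) (F1_le_fadj F1 h (S.V_le hG))
  refine ⟨?_, ?_⟩
  · exact IsIntegral.sum _ fun i _ =>
      (Fermat.Agent.S18_helper23_KUMIDEM.isIntegral_of_mem V (hc i)).mul (hsint.pow i)
  · exact (fadj F1 h).sum_mem fun i _ =>
      (fadj F1 h).mul_mem (F1_le_fadj F1 h (S.V_le (hc i))) ((fadj F1 h).pow_mem hsF i)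

/-- nontriviality against all of `icl V (fadj F1 h)` (what the assembly needs after the Čech
lemma): combines `nontriv` with the normality of `V[h]` (helper6, `S18P12E_coeff_mem`). -/
theorem nontriv_icl [CharZero L] (S : Setup O π j F1 V A0 Ainf) {p : ℕ} (hp : p.Prime)
    (hpO : (p : L)⁻¹ ∈ O) (f h G : L) (hf0 : f ≠ 0) (hh : h ^ p = f)
    (hred : RedPow π V p f G) (hhF : h ∉ F1) (γ : L) (hγ : γ ∈ V) :
    ¬ ∃ w ∈ icl V (fadj F1 h), kumIdem p (h / G) - γ = π * w := by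
  rintro ⟨w, hw, heq⟩
  obtain ⟨hGV, hGV', c₀, hc₀, hfG⟩ := hred
  have hOV : O ≤ V := (chart_O_le S S.chart0).trans S.chart0.le_V
  have hπV : π ∈ V := hOV S.π_mem
  have hp0 : (p : L) ≠ 0 := Nat.cast_ne_zero.2 hp.ne_zero
  have hG0 : G ≠ 0 := by
    rintro rfl
    rw [zero_pow hp.ne_zero, zero_mul] at hfG
    exact hf0 hfG
  have hfV : f ∈ V := by
    rw [hfG]
    exact V.mul_mem (V.pow_mem hGV p) (V.add_mem V.one_mem (V.mul_mem hπV hc₀))
  have hfV' : f⁻¹ ∈ V := by
    rw [hfG, mul_inv, ← inv_pow]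
    exact V.mul_mem (V.pow_mem hGV' p) (inv_one_add_mem S hc₀)
  have hnp : ∀ b ∈ F1, b ^ p ≠ f := by
    intro b hb
    rw [← hh]
    exact not_pow_of_notMem S hp.pos h hhF b hb
  have hw1 : w ∈ vadj V h p :=
    icl_subset_vadj F1 V (fun x hx => S.V_le hx)
      (fun x hxF hx => mem_of_isIntegral_of_val F1 V S.V_val hxF hx) p hp hp0 (hOV hpO) f h hfV
      hfV' hh hnp hw
  exact nontriv S hp f h G (S.V_le hfV) hh (S.V_le hGV) hG0 hhF γ hγ
    ⟨w, vadj_div_subset V h G p hGV hG0 hw1, heq⟩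

end Fermat.Agent.S18_helper23_CLOC
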