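import Fermat.Agent.S18_helper28_CECH
import Fermat.Agent.S18_helper9_CDefs

/-!
# S18 block C, piece X-C-H1 (helper28): `H¹` has bounded `π`-torsion

Exactly the statement of the `pieces` row X-C-H1 (interface of block C, helper9), with the
(necessary) extra hypothesis `j ≠ 0`.
-/

set_option autoImplicit false

namespace Fermat.Agent.S18_helper28_H1

open Fermat.Agent.S18_helper28_CECH Fermat.Agent.S18_helper9_CDefs

variable {L : Type*} [Field L]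

/-- Every element of `O[j] = adj O j` is a polynomial in `j` with coefficients in `O`. -/
theorem exists_aeval_of_mem_adj (O : Subring L) (j : L) (x : L) (hx : x ∈ adj O j) :
    ∃ p : Polynomial O, Polynomial.aeval j p = x := by
  unfold adj at hx
  induction hx using Subring.closure_induction with
  | mem x hx =>
    rcases hx with hx | hx
    · exact ⟨Polynomial.C ⟨x, hx⟩, by simp [Polynomial.aeval_C]; rfl⟩
    · rw [Set.mem_singleton_iff] at hx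
      subst hx
      exact ⟨Polynomial.X, by simp⟩
  | zero => exact ⟨0, by simp⟩
  | one => exact ⟨1, by simp⟩
  | add x y _ _ hx hy =>
    obtain ⟨p, rfl⟩ := hx
    obtain ⟨q, rfl⟩ := hy
    exact ⟨p + q, by simp⟩
  | neg x _ hx =>
    obtain ⟨p, rfl⟩ := hx
    exact ⟨-p, by simp⟩
  | mul x y _ _ hx hy =>
    obtain ⟨p, rfl⟩ := hx
    obtain ⟨q, rfl⟩ := hy
    exact ⟨p * q, by simp⟩

/-- The subring `B₀[1/j]` of `L`. -/
def midSubring (B0 : Subring L) (j : L) (hj0 : j ∈ B0) : Subring L where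
  carrier := {x | ∃ n : ℕ, j ^ n * x ∈ B0}
  mul_mem' := by
    rintro x y ⟨n, hn⟩ ⟨m, hm⟩
    refine ⟨n + m, ?_⟩
    have : j ^ (n + m) * (x * y) = (j ^ n * x) * (j ^ m * y) := by rw [pow_add]; ring
    rw [this]
    exact B0.mul_mem hn hm
  one_mem' := ⟨0, by simp [B0.one_mem]⟩
  add_mem' := by
    rintro x y ⟨n, hn⟩ ⟨m, hm⟩
    refine ⟨n + m, ?_⟩
    have : j ^ (n + m) * (x + y) = j ^ m * (j ^ n * x) + j ^ n * (j ^ m * y) := by
      rw [pow_add]; ring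
    rw [this]
    exact B0.add_mem (B0.mul_mem (B0.pow_mem hj0 _) hn) (B0.mul_mem (B0.pow_mem hj0 _) hm)
  zero_mem' := ⟨0, by simp [B0.zero_mem]⟩
  neg_mem' := by
    rintro x ⟨n, hn⟩
    exact ⟨n, by rw [mul_neg]; exact B0.neg_mem hn⟩

/-- **X-C-H1.** `B₀` finitely generated over `O[j]`, every element of `B₀` times a power of
`1/j` lies in `B∞`, `O` noetherian: the `π`-power torsion of `B₀[1/j]/(B₀ + B∞)` is killed by a
fixed power of `π`. -/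
theorem H1 (O : Subring L) (π j : L) (hj : j ≠ 0) (hO : IsNoetherianRing O) (hπ : π ∈ O)
    (B0 Binf : Subring L) (h0 : O ≤ B0) (h1 : O ≤ Binf) (hj0 : j ∈ B0) (hj1 : j⁻¹ ∈ Binf)
    (hfin : ∃ s : Finset L, (↑s ⊆ (B0 : Set L)) ∧ ∀ x ∈ B0, ∃ c : L → L,
      (∀ y, c y ∈ adj O j) ∧ x = ∑ y ∈ s, c y * y)
    (hpole : ∀ x ∈ B0, ∃ n : ℕ, j⁻¹ ^ n * x ∈ Binf) :
    ∃ c : ℕ, ∀ x : L, (∃ n : ℕ, j ^ n * x ∈ B0) →
      (∃ u ∈ B0, ∃ v ∈ Binf, π ^ (c + 1) * x = u + v) → ∃ u ∈ B0, ∃ v ∈ Binf, π ^ c * x = u + v := by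
  classical
  obtain ⟨s, hs, hgen⟩ := hfin
  have hgen0 : ∀ x ∈ B0, ∃ p : L → Polynomial O, x = ∑ y ∈ s, (Polynomial.aeval j (p y)) * y := by
    intro x hx
    obtain ⟨c, hc, hxc⟩ := hgen x hx
    choose p hp using fun y => exists_aeval_of_mem_adj O j (c y) (hc y)
    exact ⟨p, by rw [hxc]; exact Finset.sum_congr rfl fun y _ => by rw [hp y]⟩
  obtain ⟨G, hG⟩ := mid_gen O B0 Binf (midSubring B0 j hj0) h0 h1 j j⁻¹
    (mul_inv_cancel₀ hj) hj0 hj1 s (fun y hy => hs hy) hgen0 (fun x hx => hx)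
    (fun y hy => hpole y (hs hy))
  obtain ⟨c, hc⟩ := torsion_bound O B0 Binf (midSubring B0 j hj0) π hπ h0 h1 G hG
  refine ⟨c, fun x hx hx' => ?_⟩
  obtain ⟨u, hu, v, hv, huv⟩ := hx'
  obtain ⟨a, ha, b, hb, hab⟩ := hc x hx (c + 1) ⟨u, hu, -v, Binf.neg_mem hv, by rw [huv]; ring⟩
  exact ⟨a, ha, -b, Binf.neg_mem hb, by rw [hab]; ring⟩

/-- Variant with all powers `π ^ n`. -/
theorem H1_all (O : Subring L) (π j : L) (hj : j ≠ 0) (hO : IsNoetherianRing O) (hπ : π ∈ O)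
    (B0 Binf : Subring L) (h0 : O ≤ B0) (h1 : O ≤ Binf) (hj0 : j ∈ B0) (hj1 : j⁻¹ ∈ Binf)
    (hfin : ∃ s : Finset L, (↑s ⊆ (B0 : Set L)) ∧ ∀ x ∈ B0, ∃ c : L → L,
      (∀ y, c y ∈ adj O j) ∧ x = ∑ y ∈ s, c y * y)
    (hpole : ∀ x ∈ B0, ∃ n : ℕ, j⁻¹ ^ n * x ∈ Binf) :
    ∃ c : ℕ, ∀ x : L, (∃ n : ℕ, j ^ n * x ∈ B0) → ∀ n : ℕ,
      (∃ u ∈ B0, ∃ v ∈ Binf, π ^ n * x = u + v) → ∃ u ∈ B0, ∃ v ∈ Binf, π ^ c * x = u + v := by
  classical
  obtain ⟨s, hs, hgen⟩ := hfin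
  have hgen0 : ∀ x ∈ B0, ∃ p : L → Polynomial O, x = ∑ y ∈ s, (Polynomial.aeval j (p y)) * y := by
    intro x hx
    obtain ⟨c, hc, hxc⟩ := hgen x hx
    choose p hp using fun y => exists_aeval_of_mem_adj O j (c y) (hc y)
    exact ⟨p, by rw [hxc]; exact Finset.sum_congr rfl fun y _ => by rw [hp y]⟩
  obtain ⟨G, hG⟩ := mid_gen O B0 Binf (midSubring B0 j hj0) h0 h1 j j⁻¹
    (mul_inv_cancel₀ hj) hj0 hj1 s (fun y hy => hs hy) hgen0 (fun x hx => hx)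
    (fun y hy => hpole y (hs hy))
  obtain ⟨c, hc⟩ := torsion_bound O B0 Binf (midSubring B0 j hj0) π hπ h0 h1 G hG
  refine ⟨c, fun x hx n hx' => ?_⟩
  obtain ⟨u, hu, v, hv, huv⟩ := hx'
  obtain ⟨a, ha, b, hb, hab⟩ := hc x hx n ⟨u, hu, -v, Binf.neg_mem hv, by rw [huv]; ring⟩
  exact ⟨a, ha, -b, Binf.neg_mem hb, by rw [hab]; ring⟩

end Fermat.Agent.S18_helper28_H1
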