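import Mathlib

/-!
# S18, piece X-C4 algebra (`H⁰` of the two-chart cover) (helper2)

Pure commutative algebra (Mathlib only).

`O` an integrally closed domain, `L` a field which is an `O`-algebra, `j : L` transcendental
over `O`.

* `S18H0_inter` : `O[j] ∩ O[1/j] = O` (polynomial form).
* `S18H0_isIntegral_of_two_charts` : an element of `L` which is integral over `O[j]` and over
  `O[1/j]` is integral over `O` (ring-hom form, `O[X] → L`, `X ↦ j` resp. `X ↦ j⁻¹`).
* `S18H0_isIntegral_of_adjoin` : the same for `Algebra.adjoin O {j}` and `Algebra.adjoin O {j⁻¹}`.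
* `S18H0_mem_range_of_adjoin` : the `H⁰ = O` form.
-/

set_option autoImplicit false

open Polynomial

namespace Fermat.Agent.S18_helper2_H0

section Reflect

variable {O L : Type*} [CommRing O] [Field L]

/-- `q(j⁻¹) * j ^ N = (reflect N q)(j)` for `natDegree q ≤ N`. -/
theorem S18H0_eval₂_inv_mul_pow (i : O →+* L) {j : L} (hj : j ≠ 0) (N : ℕ) (q : O[X])
    (hq : q.natDegree ≤ N) :
    eval₂ i j⁻¹ q * j ^ N = eval₂ i j (reflect N q) := by
  have hj' : j⁻¹ ≠ 0 := inv_ne_zero hj
  let _ : Invertible (j⁻¹ : L) := invertibleOfNonzero hj'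
  have h := eval₂_reflect_mul_pow i (j⁻¹ : L) N q hq
  have hinv : (⅟(j⁻¹ : L)) = j := by
    rw [invOf_eq_inv, inv_inv]
  rw [hinv] at h
  rw [← h, mul_assoc, ← mul_pow, inv_mul_cancel₀ hj, one_pow, mul_one]

end Reflect

section Inter

variable {O L : Type*} [CommRing O] [Field L] [Algebra O L]

omit [Algebra O L] in
theorem S18H0_nontrivial_of_ringHom (i : O →+* L) : Nontrivial O := by
  by_contra h
  rw [not_nontrivial_iff_subsingleton] at h
  have h1 : i 1 = i 0 := by
    congr 1; exact Subsingleton.elim _ _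
  rw [map_one, map_zero] at h1
  exact one_ne_zero h1

theorem S18H0_nontrivial_of_transcendental {j : L} (_hj : Transcendental O j) : Nontrivial O :=
  S18H0_nontrivial_of_ringHom (algebraMap O L)

theorem S18H0_ne_zero_of_transcendental {j : L} (hj : Transcendental O j) : j ≠ 0 := by
  rintro rfl
  have : Nontrivial O := S18H0_nontrivial_of_ringHom (algebraMap O L)
  apply hj
  exact ⟨X, X_ne_zero, by simp⟩

/-- `j⁻¹` is transcendental if `j` is. -/
theorem S18H0_transcendental_inv {j : L} (hj : Transcendental O j) : Transcendental O j⁻¹ := by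
  have hj0 : j ≠ 0 := S18H0_ne_zero_of_transcendental hj
  have : Nontrivial O := S18H0_nontrivial_of_transcendental hj
  rw [transcendental_iff_injective] at hj ⊢
  rw [injective_iff_map_eq_zero] at hj ⊢
  intro q hq
  have h := S18H0_eval₂_inv_mul_pow (algebraMap O L) hj0 q.natDegree q le_rfl
  rw [← aeval_def, hq, zero_mul, ← aeval_def] at h
  have h2 := hj _ h.symm
  -- `reflect (natDegree q) q = 0` implies `q = 0`
  have h3 : reflect q.natDegree (reflect q.natDegree q) = 0 := by rw [h2, reflect_zero]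
  have h4 : reflect q.natDegree (reflect q.natDegree q) = q := by
    ext n
    rw [coeff_reflect, coeff_reflect, revAt_invol]
  rw [h4] at h3
  exact h3

/-- **`O[j] ∩ O[1/j] = O`.**  If `p(j) = q(1/j)` with `j` transcendental, then `p` is a
constant. -/
theorem S18H0_inter {j : L} (hj : Transcendental O j) (p q : O[X])
    (h : aeval j p = aeval j⁻¹ q) : ∃ a : O, p = C a ∧ aeval j p = algebraMap O L a := by
  have hj0 : j ≠ 0 := S18H0_ne_zero_of_transcendental hj
  have : Nontrivial O := S18H0_nontrivial_of_transcendental hj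
  have hinj := transcendental_iff_injective.mp hj
  set N := q.natDegree with hN
  have h1 : aeval j (p * X ^ N) = aeval j (reflect N q) := by
    rw [map_mul, map_pow, aeval_X, h, aeval_def, aeval_def,
      S18H0_eval₂_inv_mul_pow (algebraMap O L) hj0 N q le_rfl]
  have h2 : p * X ^ N = reflect N q := hinj h1
  have hdeg : (p * X ^ N).natDegree ≤ N := by
    rw [h2]
    exact natDegree_reflect_le.trans (by simp [hN])
  have hp0 : p.natDegree = 0 := by
    by_cases hp : p = 0
    · simp [hp]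
    · rw [natDegree_mul_X_pow N hp] at hdeg
      omega
  refine ⟨p.coeff 0, eq_C_of_natDegree_eq_zero hp0, ?_⟩
  conv_lhs => rw [eq_C_of_natDegree_eq_zero hp0]
  rw [aeval_C]

end Inter

section Minpoly

variable {R L : Type*} [CommRing R] [IsDomain R] [IsIntegrallyClosed R] [Field L]

/-- Ring-hom form of `minpoly.isIntegrallyClosed_dvd`: for an injective ring hom `φ : R → L` from
an integrally closed domain to a field and `x : L` integral over `φ`, there is a monic `g ∈ R[Y]`
with `g(x) = 0` dividing every `h ∈ R[Y]` with `h(x) = 0`. -/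
theorem S18H0_exists_minpoly (φ : R →+* L) (hφ : Function.Injective φ) {x : L}
    (hx : φ.IsIntegralElem x) :
    ∃ g : R[X], g.Monic ∧ eval₂ φ x g = 0 ∧ ∀ h : R[X], eval₂ φ x h = 0 → g ∣ h := by
  let _ : Algebra R L := φ.toAlgebra
  have hfaith : FaithfulSMul R L := (faithfulSMul_iff_algebraMap_injective R L).mpr hφ
  have : Module.IsTorsionFree R L := by
    infer_instance
  have hx' : IsIntegral R x := hx
  refine ⟨minpoly R x, minpoly.monic hx', ?_, fun h hh => ?_⟩
  · have := minpoly.aeval R x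
    rwa [aeval_def] at this
  · exact minpoly.isIntegrallyClosed_dvd hx' (by rw [aeval_def]; exact hh)

end Minpoly

section Main

variable {O L : Type*} [CommRing O] [IsDomain O] [IsIntegrallyClosed O] [Field L] [Algebra O L]

/-- The polynomial in `O[X][Y]` obtained from `g` by reflecting every coefficient at `N`. -/
noncomputable def S18H0_reflectCoeffs (N : ℕ) (g : O[X][X]) : O[X][X] :=
  g.sum fun i c => monomial i (reflect N c)

omit [IsDomain O] [IsIntegrallyClosed O] in
theorem S18H0_map_reflectCoeffs {j : L} (hj0 : j ≠ 0) (N : ℕ) (g : O[X][X])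
    (hN : ∀ i, (g.coeff i).natDegree ≤ N) :
    (S18H0_reflectCoeffs N g).map ((aeval j : O[X] →ₐ[O] L) : O[X] →+* L)
      = C (j ^ N) * g.map ((aeval j⁻¹ : O[X] →ₐ[O] L) : O[X] →+* L) := by
  ext n
  rw [coeff_C_mul, coeff_map, coeff_map, S18H0_reflectCoeffs, Polynomial.sum, finsetSum_coeff]
  simp only [coeff_monomial]
  rw [Finset.sum_ite_eq']
  split_ifs with hn
  · simp only [RingHom.coe_coe, aeval_def]
    rw [← S18H0_eval₂_inv_mul_pow (algebraMap O L) hj0 N _ (hN n), mul_comm]
  · rw [notMem_support_iff.mp hn]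
    simp

omit [IsDomain O] [IsIntegrallyClosed O] in
/-- Key divisibility: if `g₀` is "the minimal polynomial of `x` over `O[j]`" and `g₁` is any
polynomial over `O[1/j]` killing `x`, then the image of `g₀` divides the image of `g₁` in `L[Y]`. -/
theorem S18H0_dvd_aux {j : L} (hj0 : j ≠ 0) {x : L} (g₀ g₁ : O[X][X])
    (hdvd : ∀ h : O[X][X], eval₂ ((aeval j : O[X] →ₐ[O] L) : O[X] →+* L) x h = 0 → g₀ ∣ h)
    (h1 : eval₂ ((aeval j⁻¹ : O[X] →ₐ[O] L) : O[X] →+* L) x g₁ = 0) :
    g₀.map ((aeval j : O[X] →ₐ[O] L) : O[X] →+* L)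
      ∣ g₁.map ((aeval j⁻¹ : O[X] →ₐ[O] L) : O[X] →+* L) := by
  classical
  set N := g₁.support.sup fun i => (g₁.coeff i).natDegree with hN
  have hNle : ∀ i, (g₁.coeff i).natDegree ≤ N := by
    intro i
    by_cases hi : i ∈ g₁.support
    · exact Finset.le_sup (f := fun i => (g₁.coeff i).natDegree) hi
    · rw [notMem_support_iff.mp hi]; simp
  have hmap := S18H0_map_reflectCoeffs hj0 N g₁ hNle
  have hev : eval₂ ((aeval j : O[X] →ₐ[O] L) : O[X] →+* L) x (S18H0_reflectCoeffs N g₁) = 0 := by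
    rw [← eval_map, hmap, eval_mul, eval_C, eval_map, h1, mul_zero]
  have h2 := hdvd _ hev
  have h3 := Polynomial.map_dvd ((aeval j : O[X] →ₐ[O] L) : O[X] →+* L) h2
  rw [hmap] at h3
  have hunit : IsUnit (C (j ^ N) : L[X]) :=
    Polynomial.isUnit_C.mpr (IsUnit.mk0 _ (pow_ne_zero _ hj0))
  exact (hunit.dvd_mul_left).mp h3

/-- **`H⁰` of the two-chart cover, ring-hom form.**  `x` integral over `O[j]` (i.e. over
`O[X] → L, X ↦ j`) and over `O[1/j]` (`X ↦ j⁻¹`), `j` transcendental over `O`, `O` an integrally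
closed domain: then `x` is integral over `O`. -/
theorem S18H0_isIntegral_of_two_charts {j : L} (hj : Transcendental O j) {x : L}
    (h0 : ((aeval j : O[X] →ₐ[O] L) : O[X] →+* L).IsIntegralElem x)
    (h1 : ((aeval j⁻¹ : O[X] →ₐ[O] L) : O[X] →+* L).IsIntegralElem x) :
    IsIntegral O x := by
  have hj0 : j ≠ 0 := S18H0_ne_zero_of_transcendental hj
  have hj' : Transcendental O j⁻¹ := S18H0_transcendental_inv hj
  have hinj0 : Function.Injective ((aeval j : O[X] →ₐ[O] L) : O[X] →+* L) :=
    transcendental_iff_injective.mp hj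
  have hinj1 : Function.Injective ((aeval j⁻¹ : O[X] →ₐ[O] L) : O[X] →+* L) :=
    transcendental_iff_injective.mp hj'
  obtain ⟨g₀, hg₀m, hg₀x, hg₀d⟩ := S18H0_exists_minpoly _ hinj0 h0
  obtain ⟨g₁, hg₁m, hg₁x, hg₁d⟩ := S18H0_exists_minpoly _ hinj1 h1
  -- the two images in `L[Y]` agree
  have hd01 := S18H0_dvd_aux hj0 g₀ g₁ hg₀d hg₁x
  have hd10 : g₁.map ((aeval j⁻¹ : O[X] →ₐ[O] L) : O[X] →+* L)
      ∣ g₀.map ((aeval j : O[X] →ₐ[O] L) : O[X] →+* L) := by
    have := S18H0_dvd_aux (j := j⁻¹) (inv_ne_zero hj0) g₁ g₀ hg₁d (by rw [inv_inv]; exact hg₀x)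
    rwa [inv_inv] at this
  have heq : g₀.map ((aeval j : O[X] →ₐ[O] L) : O[X] →+* L)
      = g₁.map ((aeval j⁻¹ : O[X] →ₐ[O] L) : O[X] →+* L) :=
    Polynomial.eq_of_monic_of_associated (hg₀m.map _) (hg₁m.map _)
      (associated_of_dvd_dvd hd01 hd10)
  -- every coefficient of `g₀` is a constant
  have hcoeff : ∀ n, g₀.coeff n ∈ Set.range (C : O →+* O[X]) := by
    intro n
    have h := congrArg (fun P => P.coeff n) heq
    simp only [coeff_map, RingHom.coe_coe] at h
    obtain ⟨a, ha, -⟩ := S18H0_inter hj _ _ h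
    exact ⟨a, ha.symm⟩
  obtain ⟨f, hf, -, hfm⟩ :=
    lifts_and_natDegree_eq_and_monic ((lifts_iff_coeff_lifts _).mpr hcoeff) hg₀m
  refine ⟨f, hfm, ?_⟩
  rw [← hf, eval₂_map] at hg₀x
  have hcomp : (((aeval j : O[X] →ₐ[O] L) : O[X] →+* L).comp (C : O →+* O[X]))
      = algebraMap O L := by
    ext a
    simp
  rwa [hcomp] at hg₀x

/-- Integrality over `Algebra.adjoin O {t}` implies integrality along `O[X] → L, X ↦ t`. -/
theorem S18H0_isIntegralElem_of_adjoin {O L : Type*} [CommRing O] [CommRing L] [Algebra O L]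
    (t : L) {x : L} (h : IsIntegral (Algebra.adjoin O {t}) x) :
    ((aeval t : O[X] →ₐ[O] L) : O[X] →+* L).IsIntegralElem x := by
  obtain ⟨p, hpm, hpx⟩ := h
  -- lift `p` along the surjection `O[X] → adjoin O {t}`
  let ψ : O[X] →+* Algebra.adjoin O {t} :=
    ((aeval t : O[X] →ₐ[O] L).codRestrict (Algebra.adjoin O {t}) (fun q => by
      rw [Algebra.adjoin_singleton_eq_range_aeval]
      exact ⟨q, rfl⟩) : O[X] →+* Algebra.adjoin O {t})
  have hψ : Function.Surjective ψ := by
    rintro ⟨y, hy⟩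
    rw [Algebra.adjoin_singleton_eq_range_aeval] at hy
    obtain ⟨q, hq⟩ := hy
    exact ⟨q, Subtype.ext hq⟩
  have hlift : p ∈ lifts ψ := by
    rw [lifts_iff_coeff_lifts]
    intro n
    exact hψ _
  obtain ⟨q, hq, -, hqm⟩ := lifts_and_natDegree_eq_and_monic hlift hpm
  refine ⟨q, hqm, ?_⟩
  have hcomp : (algebraMap (Algebra.adjoin O {t}) L).comp ψ
      = ((aeval t : O[X] →ₐ[O] L) : O[X] →+* L) := by
    ext a <;> rfl
  rw [← hcomp, ← eval₂_map, hq]
  exact hpx

/-- **`H⁰` of the two-chart cover, `Algebra.adjoin` form.** -/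
theorem S18H0_isIntegral_of_adjoin {j : L} (hj : Transcendental O j) {x : L}
    (h0 : IsIntegral (Algebra.adjoin O {j}) x) (h1 : IsIntegral (Algebra.adjoin O {j⁻¹}) x) :
    IsIntegral O x :=
  S18H0_isIntegral_of_two_charts hj (S18H0_isIntegralElem_of_adjoin j h0)
    (S18H0_isIntegralElem_of_adjoin j⁻¹ h1)

/-- **`H⁰ = O`.**  If moreover every element of `L` integral over `O` is a constant (e.g. `O`
integrally closed in its fraction field `K` and `K` algebraically closed in `L`), then
`integralClosure O[j] L ∩ integralClosure O[1/j] L` is the image of `O`. -/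
theorem S18H0_mem_range_of_adjoin {j : L} (hj : Transcendental O j)
    (hconst : ∀ y : L, IsIntegral O y → y ∈ Set.range (algebraMap O L)) {x : L}
    (h0 : IsIntegral (Algebra.adjoin O {j}) x) (h1 : IsIntegral (Algebra.adjoin O {j⁻¹}) x) :
    x ∈ Set.range (algebraMap O L) :=
  hconst x (S18H0_isIntegral_of_adjoin hj h0 h1)

end Main

end Fermat.Agent.S18_helper2_H0
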