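import Mathlib
import Fermat.Agent.S18_helper2_H0
import Fermat.Agent.S18_helper9_CDefs

/-!
# S18, block C, piece X-C-H0 (helper2): `H⁰ = O` in the carriers of `S18_helper9_CDefs`

`O : Subring L` a discrete valuation ring, `Frac O` algebraically closed in `L`, `j` transcendental
over `O`: an element of `L` integral over `O[j]` and over `O[j⁻¹]` lies in `O`.
-/

set_option autoImplicit false

open Polynomial

namespace Fermat.Agent.S18_helper2_H0C

open Fermat.Agent.S18_helper9_CDefs Fermat.Agent.S18_helper2_H0

variable {L : Type*} [Field L]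

/-- Every element of `adj O t = O[t]` is a polynomial in `t` with coefficients in `O`. -/
theorem S18H0C_mem_adj_iff (O : Subring L) (t : L) (y : L) :
    y ∈ adj O t ↔ ∃ q : Polynomial O, aeval t q = y := by
  constructor
  · intro hy
    -- the range of `aeval t` is a subring containing `O` and `t`
    have hle : adj O t ≤ ((aeval t : Polynomial O →ₐ[O] L) : Polynomial O →+* L).range := by
      rw [adj, Subring.closure_le]
      rintro z (hz | hz)
      · exact ⟨C ⟨z, hz⟩, by rw [RingHom.coe_coe, aeval_C]; rfl⟩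
      · rw [Set.mem_singleton_iff] at hz
        exact ⟨X, by simp [hz]⟩
    obtain ⟨q, hq⟩ := hle hy
    exact ⟨q, hq⟩
  · rintro ⟨q, rfl⟩
    have hO : ∀ a : O, (a : L) ∈ adj O t := fun a =>
      Subring.subset_closure (Or.inl a.2)
    have ht : t ∈ adj O t := Subring.subset_closure (Or.inr rfl)
    rw [aeval_eq_sum_range]
    refine Subring.sum_mem _ fun i _ => ?_
    rw [Algebra.smul_def]
    exact Subring.mul_mem _ (hO _) (Subring.pow_mem _ ht i)

/-- Integrality over the subring `adj O t` implies integrality along `O[X] → L, X ↦ t`. -/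
theorem S18H0C_isIntegralElem_of_adj (O : Subring L) (t : L) {x : L}
    (h : IsIntegral (adj O t) x) :
    ((aeval t : Polynomial O →ₐ[O] L) : Polynomial O →+* L).IsIntegralElem x := by
  obtain ⟨p, hpm, hpx⟩ := h
  set φ : Polynomial O →+* L := ((aeval t : Polynomial O →ₐ[O] L) : Polynomial O →+* L) with hφ
  have hlift : p.map (algebraMap (adj O t) L) ∈ lifts φ := by
    rw [lifts_iff_coeff_lifts]
    intro n
    rw [coeff_map]
    obtain ⟨q, hq⟩ := (S18H0C_mem_adj_iff O t _).mp (p.coeff n).2
    exact ⟨q, hq⟩
  obtain ⟨q, hq, -, hqm⟩ := lifts_and_natDegree_eq_and_monic hlift (hpm.map _)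
  refine ⟨q, hqm, ?_⟩
  rw [← eval_map, hq, eval_map]
  exact hpx

/-- **X-C-H0.**  `H⁰ = O` for the two-chart cover, in the carriers of `S18_helper9_CDefs`. -/
theorem H0 (O : Subring L) (j : L) (hO : IsDiscreteValuationRing O)
    (halg : ∀ x : L, IsAlgebraic O x → ∃ a ∈ O, ∃ b ∈ O, b ≠ 0 ∧ x * b = a)
    (hj : Transcendental O j) (x : L)
    (h0 : IsIntegral (adj O j) x) (h1 : IsIntegral (adj O j⁻¹) x) : x ∈ O := by
  have := hO
  have hint : IsIntegral O x :=
    S18H0_isIntegral_of_two_charts hj (S18H0C_isIntegralElem_of_adj O j h0)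
      (S18H0C_isIntegralElem_of_adj O j⁻¹ h1)
  obtain ⟨a, ha, b, hb, hb0, hxb⟩ := halg x hint.isAlgebraic
  -- work in the fraction ring of `O`
  let K := FractionRing O
  let _ : Algebra K L := FractionRing.liftAlgebra O L
  have : IsScalarTower O K L := FractionRing.isScalarTower_liftAlgebra O L
  set ξ : K := algebraMap O K ⟨a, ha⟩ / algebraMap O K ⟨b, hb⟩ with hξ
  have hb0' : algebraMap O K ⟨b, hb⟩ ≠ 0 := by
    intro h
    have := (IsFractionRing.injective O K) (h.trans (map_zero _).symm)
    exact hb0 (congrArg Subtype.val this)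
  have hξx : algebraMap K L ξ = x := by
    rw [hξ, map_div₀, ← IsScalarTower.algebraMap_apply, ← IsScalarTower.algebraMap_apply]
    show a / b = x
    rw [div_eq_iff hb0, hxb]
  have hξint : IsIntegral O ξ := by
    rw [← isIntegral_algebraMap_iff (algebraMap K L).injective, hξx]
    exact hint
  obtain ⟨y, hy⟩ := IsIntegrallyClosed.isIntegral_iff.mp hξint
  have : x = (y : L) := by
    rw [← hξx, ← hy, ← IsScalarTower.algebraMap_apply]
    rfl
  rw [this]
  exact y.2

/-- Special-fibre variant: `O` replaced by a subfield `k` of `L` which is algebraically closed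
in `L`. -/
theorem H0_field (k : Subfield L) (j : L)
    (halg : ∀ x : L, IsAlgebraic k x → x ∈ k)
    (hj : Transcendental k j) (x : L)
    (h0 : IsIntegral (adj k.toSubring j) x) (h1 : IsIntegral (adj k.toSubring j⁻¹) x) : x ∈ k := by
  have hj' : Transcendental k.toSubring j := hj
  have : IsIntegrallyClosed k.toSubring :=
    IsIntegrallyClosed.of_equiv (RingEquiv.refl k : k ≃+* k.toSubring)
  have hint : IsIntegral k.toSubring x :=
    S18H0_isIntegral_of_two_charts hj' (S18H0C_isIntegralElem_of_adj k.toSubring j h0)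
      (S18H0C_isIntegralElem_of_adj k.toSubring j⁻¹ h1)
  have hint' : IsIntegral k x := hint
  exact halg x hint'.isAlgebraic

end Fermat.Agent.S18_helper2_H0C
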