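import Mathlib
import Fermat.Agent.S18_helper9_CDefs
import Fermat.Agent.S18_helper9_CBasic
import Fermat.Agent.S18_helper23_CCORE
import Fermat.Agent.S18_helper28_H1
import Fermat.Agent.S18_helper2_H0C
import Fermat.Agent.S18_helper27_CFIN
import Fermat.Agent.S18_helper20_CSAT
import Fermat.Agent.S18_helper23_CLOC

set_option autoImplicit false

/-! # S18 block C: assembly (helper9)

`main_of` : the main theorem of block C, assuming the local shape of `f` at every maximal ideal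
containing `π` of the two charts (output of X-C-LOCRING).  Everything else (Čech `H⁰`, `H¹`,
saturation, Kummer idempotent, normality of `V[h]`) is discharged here from the landed pieces of
helper2 (H0), helper28 (H1, Čech), helper27 (finiteness, pole lemma), helper20 (saturation),
helper23 (Kummer idempotent, local lift, nontriviality) and helper6 (normality).
-/

namespace Fermat.Agent.S18_helper9_CASM

open Fermat.Agent.S18_helper9_CDefs Fermat.Agent.S18_helper9_CBasic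

variable {L : Type*} [Field L] {O : Subring L} {π j x : L} {F1 : Subfield L}
  {V A0 Ainf A : Subring L}

/-! ## basic consequences of `Setup` / `Chart` -/

theorem cm_pi_ne_zero (S : Setup O π j F1 V A0 Ainf) : π ≠ 0 := by
  intro h
  apply S.π_nonunit
  rw [h, inv_zero]
  exact V.zero_mem

theorem cm_j_ne_zero (S : Setup O π j F1 V A0 Ainf) : j ≠ 0 := by
  intro h
  apply S.j_trans
  rw [h]
  exact isAlgebraic_zero

theorem cm_O_le (S : Setup O π j F1 V A0 Ainf) (hC : Chart O π x F1 V A) : O ≤ A :=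
  fun y hy => (hC.mem_iff y).2 ⟨isIntegral_of_mem _ (le_adj O x hy), S.O_le hy⟩

theorem cm_x_mem (hC : Chart O π x F1 V A) (hx : x ∈ F1) : x ∈ A :=
  (hC.mem_iff x).2 ⟨isIntegral_of_mem _ (mem_adj_self O x), hx⟩

theorem cm_adj_le (S : Setup O π j F1 V A0 Ainf) (hC : Chart O π x F1 V A) (hx : x ∈ F1) :
    adj O x ≤ A :=
  adj_le (cm_O_le S hC) (cm_x_mem hC hx)

theorem cm_le_F1 (hC : Chart O π x F1 V A) : ∀ y ∈ A, y ∈ F1 :=
  fun y hy => ((hC.mem_iff y).1 hy).2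

theorem cm_O_le_V (S : Setup O π j F1 V A0 Ainf) : O ≤ V :=
  (cm_O_le S S.chart0).trans S.chart0.le_V

theorem cm_icl_eq (S : Setup O π j F1 V A0 Ainf) (hC : Chart O π x F1 V A) (hx : x ∈ F1)
    (E : Subfield L) : icl A E = icl (adj O x) E := by
  apply le_antisymm
  · intro y hy
    exact ⟨isIntegral_trans' (fun a ha => ((hC.mem_iff a).1 ha).1) hy.1, hy.2⟩
  · exact icl_mono (cm_adj_le S hC hx) E

/-- a valuation ring is integrally closed (elementwise). -/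
theorem cm_mem_of_isIntegral_of_inv_mem (V : Subring L) {y : L} (hy : IsIntegral V y)
    (hinv : y⁻¹ ∈ V) : y ∈ V := by
  by_cases hy0 : y = 0
  · rw [hy0]; exact V.zero_mem
  obtain ⟨P, hP, hPy⟩ := hy
  have hn : P.natDegree ≠ 0 := by
    intro h0
    have h1 : P = 1 := Polynomial.eq_one_of_monic_natDegree_zero hP h0
    rw [h1, Polynomial.eval₂_one] at hPy
    exact one_ne_zero hPy
  rw [Polynomial.eval₂_eq_sum_range, Finset.sum_range_succ, hP.coeff_natDegree, map_one,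
    one_mul] at hPy
  obtain ⟨n, hn'⟩ := Nat.exists_eq_succ_of_ne_zero hn
  rw [hn'] at hPy
  simp only [Nat.succ_eq_add_one] at hPy
  have h1 : y ^ (n + 1) = - ∑ i ∈ Finset.range (n + 1), algebraMap V L (P.coeff i) * y ^ i := by
    linear_combination hPy
  have h2 : y = y ^ (n + 1) * (y⁻¹) ^ n := by
    rw [pow_succ, inv_pow]
    field_simp
  have key : y = - ∑ i ∈ Finset.range (n + 1),
      (algebraMap V L (P.coeff i)) * (y⁻¹) ^ (n - i) := by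
    calc y = y ^ (n + 1) * (y⁻¹) ^ n := h2
      _ = (- ∑ i ∈ Finset.range (n + 1), algebraMap V L (P.coeff i) * y ^ i) * (y⁻¹) ^ n := by
          rw [h1]
      _ = - ∑ i ∈ Finset.range (n + 1), (algebraMap V L (P.coeff i)) * (y⁻¹) ^ (n - i) := by
          rw [neg_mul, Finset.sum_mul]
          congr 1
          refine Finset.sum_congr rfl fun i hi => ?_
          have hi' : i ≤ n := Nat.lt_succ_iff.mp (Finset.mem_range.mp hi)
          have h3 : y ^ i * (y⁻¹) ^ n = (y⁻¹) ^ (n - i) := by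
            have : (y⁻¹) ^ n = (y⁻¹) ^ (n - i) * (y⁻¹) ^ i := by
              rw [← pow_add, Nat.sub_add_cancel hi']
            rw [this, inv_pow y i]
            field_simp
          rw [mul_assoc, h3]
  rw [key]
  refine V.neg_mem (V.sum_mem fun i _ => V.mul_mem ?_ (V.pow_mem hinv _))
  exact (P.coeff i).2

theorem cm_hVic (S : Setup O π j F1 V A0 Ainf) : ∀ y ∈ F1, IsIntegral V y → y ∈ V := by
  intro y hy hint
  rcases S.V_val y hy with h | h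
  · exact h
  · exact cm_mem_of_isIntegral_of_inv_mem V hint h

theorem cm_one_add_inv_mem (S : Setup O π j F1 V A0 Ainf) {c : L} (hc : c ∈ V) :
    (1 + π * c)⁻¹ ∈ V := by
  by_contra h
  have hπV : π ∈ V := cm_O_le_V S S.π_mem
  have hmem : 1 + π * c ∈ V := V.add_mem V.one_mem (V.mul_mem hπV hc)
  obtain ⟨v, hv, hv'⟩ := S.V_unif _ hmem h
  apply S.π_nonunit
  have hπ0 := cm_pi_ne_zero S
  have : π⁻¹ = v - c := by
    field_simp
    linear_combination hv'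
  rw [this]
  exact V.sub_mem hv hc

theorem cm_f_mem (S : Setup O π j F1 V A0 Ainf) {p : ℕ} {f G : L} (hred : RedPow π V p f G) :
    f ∈ V ∧ f⁻¹ ∈ V := by
  obtain ⟨hG, hG', c, hc, hf⟩ := hred
  have hπV : π ∈ V := cm_O_le_V S S.π_mem
  constructor
  · rw [hf]
    exact V.mul_mem (V.pow_mem hG _) (V.add_mem V.one_mem (V.mul_mem hπV hc))
  · rw [hf, mul_inv, ← inv_pow]
    exact V.mul_mem (V.pow_mem hG' _) (cm_one_add_inv_mem S hc)

theorem cm_G_ne_zero {p : ℕ} (hp : p ≠ 0) {f G : L} (hf0 : f ≠ 0) (hred : RedPow π V p f G) :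
    G ≠ 0 := by
  obtain ⟨-, -, c, -, hf⟩ := hred
  intro h
  apply hf0
  rw [hf, h, zero_pow hp, zero_mul]

/-- if `h ∉ F1` then `f = h ^ p` is not a `p`-th power in `F1`. -/
theorem cm_hnp (S : Setup O π j F1 V A0 Ainf) {p : ℕ} (hp : p ≠ 0) {f h : L} (hf0 : f ≠ 0)
    (hh : h ^ p = f) (hhF : h ∉ F1) : ∀ b ∈ F1, b ^ p ≠ f := by
  intro b hb hbf
  have hb0 : b ≠ 0 := by
    intro h0
    apply hf0
    rw [← hbf, h0, zero_pow hp]
  have h1 : (h * b⁻¹) ^ p = 1 := by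
    rw [mul_pow, hh, inv_pow, hbf]
    exact mul_inv_cancel₀ hf0
  have halg : IsAlgebraic O (h * b⁻¹) := by
    refine ⟨Polynomial.X ^ p - 1, ?_, ?_⟩
    · exact (Polynomial.monic_X_pow_sub_C (1 : O) hp).ne_zero
    · simp [h1]
  obtain ⟨a, ha, d, hd, hd0, hmul⟩ := S.algClosed _ halg
  apply hhF
  have : h = a * d⁻¹ * b := by
    field_simp
    field_simp at hmul
    linear_combination hmul
  rw [this]
  exact F1.mul_mem (F1.mul_mem (S.O_le ha) (F1.inv_mem (S.O_le hd))) hb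

/-! ## the abstract core without roots of unity (proof copied from helper23's `blockC_core`) -/

theorem cm_core (p : ℕ) (O V' A0 A1 A0' A1' Bmid : Subring L) (π s c₀ : L)
    (hOA0 : O ≤ A0) (hOA1 : O ≤ A1)
    (hA0A0' : A0 ≤ A0') (hA1A1' : A1 ≤ A1') (hA0'B : A0' ≤ Bmid) (hA1'B : A1' ≤ Bmid)
    (hBV' : Bmid ≤ V')
    (hπO : π ∈ O) (hpO : ((p : L))⁻¹ ∈ O) (hp0 : (p : L) ≠ 0)
    (hs : s ∈ V') (hc₀ : c₀ ∈ V') (hsp : s ^ p = 1 + π * c₀)
    (hsat0 : ∀ x ∈ V', π * x ∈ A0' → x ∈ A0') (hsat1 : ∀ x ∈ V', π * x ∈ A1' → x ∈ A1')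
    (hsatB : ∀ x ∈ V', π * x ∈ Bmid → x ∈ Bmid)
    (hH0 : ∀ x, x ∈ A0' → x ∈ A1' → x ∈ O)
    (c : ℕ)
    (hH1 : ∀ x ∈ Bmid, ∀ n : ℕ, (∃ a ∈ A0', ∃ b ∈ A1', π ^ n * x = a - b) →
      ∃ a ∈ A0', ∃ b ∈ A1', π ^ c * x = a - b)
    (hloc0 : ∀ m : Ideal A0, m.IsMaximal → (⟨π, hOA0 hπO⟩ : A0) ∈ m →
      ∃ D : A0, D ∉ m ∧ ∃ y ∈ A0', ∃ w ∈ V', (D : L) * s = y + π * w)
    (hloc1 : ∀ m : Ideal A1, m.IsMaximal → (⟨π, hOA1 hπO⟩ : A1) ∈ m →
      ∃ D : A1, D ∉ m ∧ ∃ y ∈ A1', ∃ w ∈ V', (D : L) * s = y + π * w) :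
    ∃ γ ∈ O, ∃ w ∈ V', Fermat.Agent.S18_helper23_KUMIDEM.kumIdem p ((p : L)⁻¹) s - γ = π * w := by
  obtain ⟨e0, he0, ⟨w0, hw0, hew0⟩, hid0⟩ :=
    Fermat.Agent.S18_helper23_CCORE.exists_chart_idem p V' A0 A0' hA0A0'
      (hA0'B.trans hBV') π s c₀ (hOA0 hπO) (hOA0 hpO) hp0 hs hc₀ hsp hsat0 hloc0
  obtain ⟨e1, he1, ⟨w1, hw1, hew1⟩, hid1⟩ :=
    Fermat.Agent.S18_helper23_CCORE.exists_chart_idem p V' A1 A1' hA1A1'
      (hA1'B.trans hBV') π s c₀ (hOA1 hπO) (hOA1 hpO) hp0 hs hc₀ hsp hsat1 hloc1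
  have hagree : ∃ u ∈ Bmid, e0 - e1 = π * u := by
    have h1 : e0 - e1 = π * (w0 - w1) := by linear_combination hew0 - hew1
    refine ⟨w0 - w1, hsatB _ (V'.sub_mem hw0 hw1) ?_, h1⟩
    rw [← h1]
    exact Bmid.sub_mem (hA0'B he0) (hA1'B he1)
  obtain ⟨γ, hγ, ⟨u, hu, heγ⟩, -⟩ :=
    Fermat.Agent.S18_helper28_CECH.cech_two_chart O A0' A1' Bmid π hπO (hOA0.trans hA0A0')
      (hOA1.trans hA1A1') hA0'B hA1'B hH0 c hH1 e0 e1 he0 he1 hid0 hid1 hagree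
  exact ⟨γ, hγ, u - w0, V'.sub_mem (hBV' (hA0'B hu)) hw0, by linear_combination heγ - hew0⟩

/-! ## local lifts from the local shape -/

theorem cm_hloc (S : Setup O π j F1 V A0 Ainf) {p : ℕ} (hp : p.Prime)
    (hC : Chart O π x F1 V A) (f h G : L) (hf0 : f ≠ 0) (hh : h ^ p = f)
    (hred : RedPow π V p f G) (m : Ideal A) (hm : m.IsMaximal)
    (hshape : ∃ u g w : L, (∃ a c : A, c ∉ m ∧ u * (c : L) = a) ∧
      (∃ a c : A, c ∉ m ∧ u⁻¹ * (c : L) = a) ∧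
      g ∈ F1 ∧ g ∈ V ∧ g⁻¹ ∈ V ∧ f = u * g ^ p ∧
      (∃ a c : A, c ∉ m ∧ w * (c : L) = a) ∧ (∃ a c : A, c ∉ m ∧ w⁻¹ * (c : L) = a) ∧
      ∃ c ∈ V, G = g * w * (1 + π * c)) :
    ∃ D : A, D ∉ m ∧ ∃ y ∈ icl A (fadj F1 h), ∃ w ∈ icl V (fadj F1 h),
      (D : L) * (h * G⁻¹) = y + π * w := by
  obtain ⟨u, g, w, ⟨a1, c1, hc1, hu⟩, -, -, hgV, hgV', hfu, -, ⟨a2, c2, hc2, hw⟩, c, hc, hG⟩ :=
    hshape
  have hG0 : G ≠ 0 := cm_G_ne_zero hp.ne_zero hf0 hred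
  have hg0 : g ≠ 0 := by
    intro h0
    apply hG0
    rw [hG, h0, zero_mul, zero_mul]
  have hw0 : w ≠ 0 := by
    intro h0
    apply hG0
    rw [hG, h0, mul_zero, zero_mul]
  obtain ⟨hfV, hfV'⟩ := cm_f_mem S hred
  have hhV' : h ∈ icl V (fadj F1 h) :=
    ⟨IsIntegral.of_pow hp.pos (by rw [hh]; exact isIntegral_of_mem V hfV), mem_fadj_self F1 h⟩
  have hVV' : V ≤ icl V (fadj F1 h) :=
    le_icl (fun y hy => le_fadj F1 h (S.V_le hy))
  have hroot : ∀ y ∈ icl V (fadj F1 h), y ^ p ∈ A → y ∈ icl A (fadj F1 h) := by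
    intro y hy hyp
    exact ⟨IsIntegral.of_pow hp.pos (isIntegral_of_mem A hyp), hy.2⟩
  obtain ⟨y, hy, w', hw', hyw⟩ :=
    Fermat.Agent.S18_helper23_KUMIDEM.local_lift p hp.pos V (icl V (fadj F1 h)) A
      (icl A (fadj F1 h)) hC.le_V hVV' π f h G hh hhV' hred.2.1 hG0 hroot
      g (a1 : L) (c1 : L) (c2 : L) (a2 : L) (-(c * c2 * g)) hgV' hg0 a1.2 c1.2 a2.2
      (V.neg_mem (V.mul_mem (V.mul_mem hc (hC.le_V c2.2)) hgV))
      (by rw [hfu, ← hu]; ring)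
      (by
        have hw2 : (a2 : L) = w⁻¹ * c2 := hw.symm
        rw [hw2, hG]
        field_simp
        ring)
  refine ⟨c1 * c2, ?_, y, hy, w', hw', ?_⟩
  · intro hmem
    rcases hm.isPrime.mem_or_mem hmem with h1 | h1
    · exact hc1 h1
    · exact hc2 h1
  · rw [← hyw]
    push_cast
    ring

/-! ## the main theorem of block C -/

/-- The local shape of `f` at a maximal ideal `m` of the chart `A` (conclusion of X-C-LOCRING). -/
def LocShape (π : L) (F1 : Subfield L) (V A : Subring L) (p : ℕ) (f G : L) (m : Ideal A) : Prop :=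
  ∃ u g w : L, (∃ a c : A, c ∉ m ∧ u * (c : L) = a) ∧ (∃ a c : A, c ∉ m ∧ u⁻¹ * (c : L) = a) ∧
    g ∈ F1 ∧ g ∈ V ∧ g⁻¹ ∈ V ∧ f = u * g ^ p ∧
    (∃ a c : A, c ∉ m ∧ w * (c : L) = a) ∧ (∃ a c : A, c ∉ m ∧ w⁻¹ * (c : L) = a) ∧
    ∃ c ∈ V, G = g * w * (1 + π * c)

open Fermat.Agent.S18_helper28_H1 Fermat.Agent.S18_helper2_H0C Fermat.Agent.S18_helper27_CFIN
  Fermat.Agent.S18_helper20_CSAT in
theorem main_of [CharZero L] (S : Setup O π j F1 V A0 Ainf) {p : ℕ} (hp : p.Prime)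
    (hpO : (p : L)⁻¹ ∈ O) (f h G : L) (hf : f ∈ F1)
    (hf0 : f ≠ 0) (hh : h ^ p = f) (hred : RedPow π V p f G)
    (hshape0 : ∀ (hπ : π ∈ A0) (m : Ideal A0), m.IsMaximal → (⟨π, hπ⟩ : A0) ∈ m →
      LocShape π F1 V A0 p f G m)
    (hshapeInf : ∀ (hπ : π ∈ Ainf) (m : Ideal Ainf), m.IsMaximal → (⟨π, hπ⟩ : Ainf) ∈ m →
      LocShape π F1 V Ainf p f G m) :
    h ∈ F1 := by
  by_contra hhF
  have hπ0 := cm_pi_ne_zero S
  have hj0 := cm_j_ne_zero S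
  have hp0 : (p : L) ≠ 0 := Nat.cast_ne_zero.mpr hp.ne_zero
  have hG0 := cm_G_ne_zero hp.ne_zero hf0 hred
  obtain ⟨hfV, hfV'⟩ := cm_f_mem S hred
  have hred' := hred
  obtain ⟨hGV, hGV', c₀, hc₀, hfG⟩ := hred'
  have hF1F' : F1 ≤ fadj F1 h := le_fadj F1 h
  have hjF1 : j ∈ F1 := S.j_mem
  have hjinvF1 : j⁻¹ ∈ F1 := F1.inv_mem S.j_mem
  have hOA0 : O ≤ A0 := cm_O_le S S.chart0
  have hOAinf : O ≤ Ainf := cm_O_le S S.chartInf
  have hA0B0 : A0 ≤ icl A0 (fadj F1 h) :=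
    le_icl (fun y hy => hF1F' (cm_le_F1 S.chart0 y hy))
  have hAinfBinf : Ainf ≤ icl Ainf (fadj F1 h) :=
    le_icl (fun y hy => hF1F' (cm_le_F1 S.chartInf y hy))
  have hjA0 : j ∈ A0 := cm_x_mem S.chart0 hjF1
  have hjB0 : j ∈ icl A0 (fadj F1 h) := hA0B0 hjA0
  have hjinvAinf : j⁻¹ ∈ Ainf := cm_x_mem S.chartInf hjinvF1
  have hB0eq : icl A0 (fadj F1 h) = icl (adj O j) (fadj F1 h) :=
    cm_icl_eq S S.chart0 hjF1 _
  have hBinfeq : icl Ainf (fadj F1 h) = icl (adj O j⁻¹) (fadj F1 h) :=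
    cm_icl_eq S S.chartInf hjinvF1 _
  have hVV' : V ≤ icl V (fadj F1 h) := le_icl (fun y hy => hF1F' (S.V_le hy))
  have hB0V' : icl A0 (fadj F1 h) ≤ icl V (fadj F1 h) := icl_mono S.chart0.le_V _
  have hB0Bmid : icl A0 (fadj F1 h) ≤ midSubring (icl A0 (fadj F1 h)) j hjB0 :=
    fun y hy => ⟨0, by simpa using hy⟩
  have hjinvV : j⁻¹ ∈ V := S.chart0.x_inv_mem
  have hjV : j ∈ V := S.chart0.le_V hjA0
  have hBmidV' : midSubring (icl A0 (fadj F1 h)) j hjB0 ≤ icl V (fadj F1 h) := by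
    rintro y ⟨n, hn⟩
    have : y = (j⁻¹) ^ n * (j ^ n * y) := by
      rw [inv_pow]
      field_simp
    rw [this]
    exact Subring.mul_mem _ (Subring.pow_mem _ (hVV' hjinvV) n) (hB0V' hn)
  have hBinfBmid : icl Ainf (fadj F1 h) ≤ midSubring (icl A0 (fadj F1 h)) j hjB0 := by
    intro y hy
    rw [hBinfeq] at hy
    obtain ⟨n, hn⟩ := S18CFIN_pole O j⁻¹ (inv_ne_zero hj0) y hy.1
    rw [inv_inv] at hn
    refine ⟨n, ?_⟩
    rw [hB0eq]
    exact ⟨hn, (fadj F1 h).mul_mem ((fadj F1 h).pow_mem (hF1F' hjF1) n) hy.2⟩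
  have hhV' : h ∈ icl V (fadj F1 h) :=
    ⟨IsIntegral.of_pow hp.pos (by rw [hh]; exact isIntegral_of_mem V hfV), mem_fadj_self F1 h⟩
  have hs : h * G⁻¹ ∈ icl V (fadj F1 h) := Subring.mul_mem _ hhV' (hVV' hGV')
  have hsp : (h * G⁻¹) ^ p = 1 + π * c₀ := by
    have hGp : G ^ p ≠ 0 := pow_ne_zero _ hG0
    rw [mul_pow, hh, hfG, inv_pow]
    field_simp
  -- saturation
  have hnp := cm_hnp S hp.ne_zero hf0 hh hhF
  have hV'vadj : (icl V (fadj F1 h) : Set L) ⊆ vadj V h p :=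
    Fermat.Agent.S18_helper23_CLOC.icl_subset_vadj F1 V (fun x hx => S.V_le hx) (cm_hVic S) p hp
      hp0 (cm_O_le_V S hpO) f h hfV hfV' hh hnp
  have hhpV : h ^ p ∈ V := by rw [hh]; exact hfV
  have hsatmid : ∀ y ∈ icl V (fadj F1 h), π * y ∈ icl (adjMid O j) (fadj F1 h) →
      y ∈ icl (adjMid O j) (fadj F1 h) :=
    fun y hy hπy => sat_V S p h hhpV _ hF1F' y (hV'vadj hy) hπy
  have hsat0 : ∀ y ∈ icl V (fadj F1 h), π * y ∈ icl A0 (fadj F1 h) →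
      y ∈ icl A0 (fadj F1 h) := by
    intro y hy hπy
    rw [hB0eq] at hπy ⊢
    exact sat_chart S j (Or.inl rfl) _ hF1F' y
      (hsatmid y hy (icl_mono (adj_le_adjMid O j) _ hπy)) hπy
  have hsat1 : ∀ y ∈ icl V (fadj F1 h), π * y ∈ icl Ainf (fadj F1 h) →
      y ∈ icl Ainf (fadj F1 h) := by
    intro y hy hπy
    rw [hBinfeq] at hπy ⊢
    exact sat_chart S j⁻¹ (Or.inr rfl) _ hF1F' y
      (hsatmid y hy (icl_mono (adj_inv_le_adjMid O j) _ hπy)) hπy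
  have hsatB : ∀ y ∈ icl V (fadj F1 h), π * y ∈ midSubring (icl A0 (fadj F1 h)) j hjB0 →
      y ∈ midSubring (icl A0 (fadj F1 h)) j hjB0 := by
    rintro y hy ⟨n, hn⟩
    refine ⟨n, hsat0 _ (Subring.mul_mem _ (Subring.pow_mem _ (hVV' hjV) n) hy) ?_⟩
    have : π * (j ^ n * y) = j ^ n * (π * y) := by ring
    rw [this]
    exact hn
  -- H0
  have hH0 : ∀ y, y ∈ icl A0 (fadj F1 h) → y ∈ icl Ainf (fadj F1 h) → y ∈ O := by
    intro y h0 h1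
    rw [hB0eq] at h0
    rw [hBinfeq] at h1
    exact H0 O j S.dvr S.algClosed S.j_trans y h0.1 h1.1
  -- H1
  have hhalg : IsAlgebraic F1 h := by
    refine ⟨Polynomial.X ^ p - Polynomial.C (⟨f, hf⟩ : F1), ?_, ?_⟩
    · exact (Polynomial.monic_X_pow_sub_C _ hp.ne_zero).ne_zero
    · have : algebraMap F1 L ⟨f, hf⟩ = f := rfl
      simp [hh, this]
  have hfin := S18CFIN_fin S j (Or.inl rfl) h hhalg
  rw [← hB0eq] at hfin
  have hpole : ∀ y ∈ icl A0 (fadj F1 h), ∃ n : ℕ, j⁻¹ ^ n * y ∈ icl Ainf (fadj F1 h) := by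
    intro y hy
    rw [hB0eq] at hy
    obtain ⟨n, hn⟩ := S18CFIN_pole O j hj0 y hy.1
    refine ⟨n, ?_⟩
    rw [hBinfeq]
    exact ⟨hn, (fadj F1 h).mul_mem ((fadj F1 h).pow_mem (hF1F' hjinvF1) n) hy.2⟩
  have hON : IsNoetherianRing O := by
    have := S.dvr
    infer_instance
  obtain ⟨c, hc⟩ := H1_all O π j hj0 hON S.π_mem (icl A0 (fadj F1 h)) (icl Ainf (fadj F1 h))
    (hOA0.trans hA0B0) (hOAinf.trans hAinfBinf) hjB0 (hAinfBinf hjinvAinf) hfin hpole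
  have hH1 : ∀ y ∈ midSubring (icl A0 (fadj F1 h)) j hjB0, ∀ n : ℕ,
      (∃ a ∈ icl A0 (fadj F1 h), ∃ b ∈ icl Ainf (fadj F1 h), π ^ n * y = a - b) →
      ∃ a ∈ icl A0 (fadj F1 h), ∃ b ∈ icl Ainf (fadj F1 h), π ^ c * y = a - b := by
    rintro y ⟨k, hk⟩ n ⟨a, ha, b, hb, hab⟩
    obtain ⟨u, hu, v, hv, huv⟩ := hc y ⟨k, hk⟩ n
      ⟨a, ha, -b, Subring.neg_mem _ hb, by rw [hab]; ring⟩
    exact ⟨u, hu, -v, Subring.neg_mem _ hv, by rw [huv]; ring⟩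
  -- local lifts
  have hloc0 : ∀ m : Ideal A0, m.IsMaximal → (⟨π, hOA0 S.π_mem⟩ : A0) ∈ m →
      ∃ D : A0, D ∉ m ∧ ∃ y ∈ icl A0 (fadj F1 h), ∃ w ∈ icl V (fadj F1 h),
        (D : L) * (h * G⁻¹) = y + π * w := fun m hm hπm =>
    cm_hloc S hp S.chart0 f h G hf0 hh hred m hm (hshape0 (hOA0 S.π_mem) m hm hπm)
  have hloc1 : ∀ m : Ideal Ainf, m.IsMaximal → (⟨π, hOAinf S.π_mem⟩ : Ainf) ∈ m →
      ∃ D : Ainf, D ∉ m ∧ ∃ y ∈ icl Ainf (fadj F1 h), ∃ w ∈ icl V (fadj F1 h),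
        (D : L) * (h * G⁻¹) = y + π * w := fun m hm hπm =>
    cm_hloc S hp S.chartInf f h G hf0 hh hred m hm (hshapeInf (hOAinf S.π_mem) m hm hπm)
  obtain ⟨γ, hγ, w, hw, hγw⟩ := cm_core p O (icl V (fadj F1 h)) A0 Ainf (icl A0 (fadj F1 h))
    (icl Ainf (fadj F1 h)) (midSubring (icl A0 (fadj F1 h)) j hjB0) π (h * G⁻¹) c₀
    hOA0 hOAinf hA0B0 hAinfBinf hB0Bmid hBinfBmid hBmidV' S.π_mem hpO hp0 hs (hVV' hc₀) hsp
    hsat0 hsat1 hsatB hH0 c hH1 hloc0 hloc1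
  refine Fermat.Agent.S18_helper23_CLOC.nontriv_icl S hp hpO f h G hf0 hh hred hhF γ
    (cm_O_le_V S hγ) ⟨w, hw, ?_⟩
  rw [Fermat.Agent.S18_helper23_CLOC.kumIdem_eq, div_eq_mul_inv]
  exact hγw

end Fermat.Agent.S18_helper9_CASM
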