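import Mathlib
import Fermat.Agent.S18_helper9_CDefs
import Fermat.Agent.S18_helper9_CASM
import Fermat.Agent.S18_helper3_LOCRING
import Fermat.Agent.S18_helper27_CNOETH

set_option autoImplicit false

/-! # S18 block C: the main theorem (helper9, assembler)

`main` : in the abstract two-chart setting `Setup` (block A) with the input `IG` of block B at
both charts, if `f ∈ F1` is nonzero, a `p`-th power times a unit at every place of `F1` over the
constants (`PowDiv`), and a `v`-unit whose reduction is a `p`-th power (`RedPow`), then every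
`p`-th root `h` of `f` in the ambient field lies in `F1`.

Pieces: helper3 (local shape, `locring`), helper27 (finiteness, noetherianity), helper2 (`H⁰`),
helper28 (`H¹`, Čech), helper20 (saturation), helper23 (Kummer idempotent), helper6 (normality).
-/

namespace Fermat.Agent.S18_helper9_CMAIN

open Fermat.Agent.S18_helper9_CDefs

variable {L : Type*} [Field L] {O : Subring L} {π j : L} {F1 : Subfield L}
  {V A0 Ainf : Subring L}

theorem main [CharZero L] (S : Setup O π j F1 V A0 Ainf) {p : ℕ} (hp : p.Prime)
    (hpO : (p : L)⁻¹ ∈ O) (hIG0 : IG π A0) (hIGinf : IG π Ainf) (f h G : L) (hf : f ∈ F1)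
    (hf0 : f ≠ 0) (hh : h ^ p = f) (hdiv : PowDiv O π F1 p f) (hred : RedPow π V p f G) :
    h ∈ F1 :=
  Fermat.Agent.S18_helper9_CASM.main_of S hp hpO f h G hf hf0 hh hred
    (fun hπ m hm hπm =>
      Fermat.Agent.S18_helper3_LOCRING.locring S hp j A0 S.chart0 hIG0
        (Fermat.Agent.S18_helper27_CNOETH.S18CNOETH_chart_noetherian S j (Or.inl rfl) A0 S.chart0)
        f G hf0 hdiv hred hπ m hm hπm)
    (fun hπ m hm hπm =>
      Fermat.Agent.S18_helper3_LOCRING.locring S hp j⁻¹ Ainf S.chartInf hIGinf
        (Fermat.Agent.S18_helper27_CNOETH.S18CNOETH_chart_noetherian S j⁻¹ (Or.inr rfl) Ainf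
          S.chartInf)
        f G hf0 hdiv hred hπ m hm hπm)

end Fermat.Agent.S18_helper9_CMAIN
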