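import Mathlib
import Fermat.Agent.S18_helper9_CMAIN
import Fermat.Agent.S18_helper25_COREDefs

set_option autoImplicit false

/-! # S18 block C: the contract `S18K_BlockC` of the CORE glue (helper25) holds

`S18K_BlockC A N ℓ` is `Fermat.Agent.S18_helper9_CMAIN.main` instantiated at the concrete
carriers of `S18_helper25_COREDefs`. -/

namespace Fermat.Agent.S18_helper9_CPLUG

open Fermat.Agent.S18_helper25_COREDefs Fermat.Agent.S18_helper9_CDefs

theorem S18K_blockC (A : ValuationSubring (AlgebraicClosure ℚ)) (N : ℕ) [NeZero N] (ℓ : ℕ) :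
    S18K_BlockC A N ℓ := by
  intro K1 hadm hS hIG0 hIGinf p hp hpO f h' G hf hf0 hh hdiv hred
  have : CharZero (LaurentSeries K1) :=
    charZero_of_injective_ringHom (HahnSeries.C : K1 →+* LaurentSeries K1).injective
  exact Fermat.Agent.S18_helper9_CMAIN.main hS hp hpO hIG0 hIGinf f h' G hf hf0 hh hdiv hred

end Fermat.Agent.S18_helper9_CPLUG
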