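import Mathlib
import Fermat.Prelude.Def_ModularCurve_ReductionModL
import Fermat.Agent.S18_helper12_ASM
import Fermat.Agent.S18_helper25_GLUE
import Fermat.Agent.S18_helper25_COREDefs
import Fermat.Agent.S18_helper25_COREA
import Fermat.Agent.S18_helper25_COREB
import Fermat.Agent.S18_helper26_POWDIV
import Fermat.Agent.S18_helper19_PLACEMOD
import Fermat.Agent.S18_helper5_BASE
import Fermat.Agent.S18_helper9_CPLUG

/-!
# S18: `CoreStatement` from the block A + B contract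

`core_of_blocks : S18K_BlocksAB A N ℓ → CoreStatement N ℓ A`.

The proof descends the two integral series `y₁, y₂` to a field `K1 ⊆ ℚ̄` for which
`O1 = A ∩ K1` is a discrete valuation ring with the same residue field as `A` (helper5, X-A1),
transports the hypotheses (divisibility of the divisor: helper19 PLACEMOD + helper26 POWDIV;
reduction: `S18K_redPow`), extracts a `p`-th root in `K1((q))` (`S18K_exists_root`, the order
being divisible by `p` thanks to the place at the cusp) and applies block C (helper9).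
-/

set_option autoImplicit false

open HahnSeries IntermediateField AlgebraicCurve ModularCurve
open Fermat.Agent.S18_helper13_GAUSS Fermat.Agent.S18_helper9_CDefs
open Fermat.Agent.S18_helper25_GLUE Fermat.Agent.S18_helper25_COREDefs
open Fermat.Agent.S18_helper25_COREA Fermat.Agent.S18_helper25_COREB

noncomputable section

namespace Fermat.Agent.S18_helper25_CORE

local notation "Qb" => AlgebraicClosure ℚ

/-! ### Generalities on coefficient maps -/

section CoeffMap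

variable {K1 K : Type*} [Field K1] [Field K]

theorem S18K_order_coeffMap (φ : K1 →+* K) (x : LaurentSeries K1) :
    (coeffMap φ x).order = x.order := by
  by_cases hx : x = 0
  · simp [hx]
  · have hx' : coeffMap φ x ≠ 0 := fun h =>
      hx (S18G_coeffMap_injective φ (by rw [h, map_zero]))
    apply le_antisymm
    · apply HahnSeries.order_le_of_coeff_ne_zero
      rw [coeffMap_coeff]
      intro h
      exact HahnSeries.coeff_order_eq_zero.not.mpr hx (φ.injective (by rw [h, map_zero]))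
    · apply HahnSeries.order_le_of_coeff_ne_zero
      intro h
      have h1 : (coeffMap φ x).coeff (coeffMap φ x).order = 0 := by
        rw [coeffMap_coeff, h, map_zero]
      exact HahnSeries.coeff_order_eq_zero.not.mpr hx' h1

theorem S18K_order_jqModC_inv : ((jqModC K)⁻¹ : LaurentSeries K).order = 1 := by
  have h0 : jqModC K ≠ 0 := jqModC_ne_zero_of_nontrivial K
  have h1 : (jqModC K).order = -1 := by
    apply le_antisymm
    · apply HahnSeries.order_le_of_coeff_ne_zero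
      rw [coeff_jqModC_neg_one]
      exact one_ne_zero
    · by_contra hlt
      rw [not_le] at hlt
      exact HahnSeries.coeff_order_eq_zero.not.mpr h0 (coeff_jqModC_of_lt K hlt)
  rw [S18K_order_inv, h1]
  rfl

end CoeffMap

/-! ### Places: descent, `PowDiv`, the order at the cusp (over a general field `K1`) -/

section General

variable {K1 : Type*} [Field K1] (φ : K1 →+* Qb) (N : ℕ) [NeZero N]

/-- from the divisibility of the divisor over `ℚ̄` to `PowDiv` and the divisibility of the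
`q`-order over `K1` -/
theorem S18K_powDiv_and_order (O : Subring (LaurentSeries K1)) (π : LaurentSeries K1)
    (hπ0 : π ≠ 0)
    (hK : ∀ c : K1, ∃ o ∈ O, ∃ n : ℕ, algebraMap K1 (LaurentSeries K1) c * π ^ n = o)
    (p : ℕ) (f : LaurentSeries K1) (hf : f ∈ modularFunctionFieldFullC K1 N) (hf0 : f ≠ 0)
    (hF : coeffMap φ f ∈ modularFunctionFieldBar N)
    (hdiv : ∀ P : Place Qb (modularFunctionFieldBar N), (p : ℤ) ∣ P.ord ⟨coeffMap φ f, hF⟩) :
    PowDiv O π (modularFunctionFieldFullC K1 N).toSubfield p f ∧ (p : ℤ) ∣ f.order := by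
  have hf'0 : (⟨f, hf⟩ : modularFunctionFieldFullC K1 N) ≠ 0 := by
    intro h
    exact hf0 (congrArg Subtype.val h)
  have hdiv1 : ∀ P1 : Place K1 (modularFunctionFieldFullC K1 N), (p : ℤ) ∣ P1.ord ⟨f, hf⟩ :=
    Fermat.Agent.S18_helper19_PLACEMOD.S18A3C_dvd_ord_descent N φ
      (Fermat.Agent.S18_helper19_PLACEMOD.S18A3C_inc N φ)
      (Fermat.Agent.S18_helper19_PLACEMOD.S18A3C_inc_coe N φ) p ⟨f, hf⟩ hdiv
  refine ⟨?_, ?_⟩
  · have hK' : ∀ c : K1, ∃ o ∈ O, ∃ n : ℕ,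
        (modularFunctionFieldFullC K1 N).val.toRingHom
          (algebraMap K1 (modularFunctionFieldFullC K1 N) c) * π ^ n = o := by
      intro c
      obtain ⟨o, ho, n, hn⟩ := hK c
      exact ⟨o, ho, n, hn⟩
    have hι : ∀ y : LaurentSeries K1, y ∈ (modularFunctionFieldFullC K1 N).toSubfield ↔
        ∃ x : modularFunctionFieldFullC K1 N,
          (modularFunctionFieldFullC K1 N).val.toRingHom x = y :=
      fun y => ⟨fun hy => ⟨⟨y, hy⟩, rfl⟩, by rintro ⟨x, rfl⟩; exact x.2⟩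
    have key := Fermat.Agent.S18_helper26_POWDIV.powDiv_of_place (K := K1)
      (F := modularFunctionFieldFullC K1 N) O π hπ0
      (modularFunctionFieldFullC K1 N).toSubfield
      (modularFunctionFieldFullC K1 N).val.toRingHom hι hK' p ⟨f, hf⟩ hf'0 hdiv1
    exact key
  · exact S18K_dvd_order (F := modularFunctionFieldFullC K1 N)
      ⟨(jqModC K1)⁻¹, inv_mem (jqModC_mem_full K1 N)⟩ S18K_order_jqModC_inv p
      ⟨f, hf⟩ hf'0 hdiv1

/-- ascent of a `p`-th root -/
theorem S18K_ascend (p : ℕ) (h' f : LaurentSeries K1)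
    (hh' : h' ∈ modularFunctionFieldFullC K1 N) (hpow : h' ^ p = f)
    (Y₁ Y₂ : LaurentSeries Qb) (hY₁ : Y₁ ∈ modularFunctionFieldBar N)
    (hY₂ : Y₂ ∈ modularFunctionFieldBar N) (hcm : coeffMap φ f = Y₁ / Y₂) :
    ∃ w : modularFunctionFieldBar N,
      ((⟨Y₁, hY₁⟩ : modularFunctionFieldBar N) / ⟨Y₂, hY₂⟩) = w ^ p := by
  refine ⟨⟨coeffMap φ h', S18G_le_bar N (S18G_coeffMap_mem φ N hh')⟩, ?_⟩
  apply Subtype.ext
  show Y₁ / Y₂ = (coeffMap φ h') ^ p
  rw [← hcm, ← hpow, map_pow]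

end General

/-! ### The base -/

section Base

variable (A : ValuationSubring Qb) (K1 : IntermediateField ℚ Qb)

/-- descent of integrality of the coefficients -/
theorem S18K_exists_integral (y : LaurentSeries A) (w : LaurentSeries K1)
    (h : coeffMap (algebraMap K1 Qb) w = coeffMap A.subtype y) :
    ∃ v : LaurentSeries (S18K_O1 A K1), coeffMap (S18K_O1 A K1).subtype v = w ∧
      coeffMap (S18K_incl A K1) v = y := by
  have hcoe : ∀ n, ((w.coeff n : K1) : Qb) = ((y.coeff n : A) : Qb) := by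
    intro n
    exact congrArg (fun z => z.coeff n) h
  have hc : ∀ n, ∃ r : S18K_O1 A K1, (S18K_O1 A K1).subtype r = w.coeff n := by
    intro n
    refine ⟨⟨w.coeff n, ?_⟩, rfl⟩
    rw [S18K_mem_O1, hcoe n]
    exact (y.coeff n).2
  obtain ⟨v, hv⟩ := S18G_exists_coeffMap_eq _ w hc
  refine ⟨v, hv, ?_⟩
  ext n
  have h2 : (((v.coeff n : S18K_O1 A K1) : K1)) = w.coeff n :=
    congrArg (fun z => z.coeff n) hv
  rw [coeffMap_coeff, S18K_incl_coe, h2, hcoe n]

variable {ℓ : ℕ} [Fact ℓ.Prime]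

/-- X-A1 (helper5) in the shape of `S18K_Admissible` -/
theorem S18K_hbase (hA : A.LiesOverPrime ℓ) (S : Finset Qb) :
    ∃ K1 : IntermediateField ℚ Qb, (∀ s ∈ S, s ∈ K1) ∧ S18K_Admissible A K1 ℓ := by
  have hℓ : ℓ.Prime := Fact.out
  refine ⟨Fermat.Agent.S18_helper5_BASE.S18A1_K1 ℓ S,
    fun s hs => Fermat.Agent.S18_helper5_BASE.S18A1_mem_K1_of_mem ℓ S hs, ?_, ?_, ?_⟩
  · exact Fermat.Agent.S18_helper5_BASE.S18A1_isDVR A hℓ hA S
  · intro n hn ζ hζ
    exact Fermat.Agent.S18_helper5_BASE.S18A1_root_mem_K1 ℓ S hn hζ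
  · intro x
    obtain ⟨a, ha⟩ := Fermat.Agent.S18_helper5_BASE.S18A1_res_surjective A hℓ hA S x
    exact ⟨a, ha⟩

/-- a prime `p ≠ ℓ` is invertible in `O` -/
theorem S18K_natCast_inv_mem (hA : A.LiesOverPrime ℓ) (p : ℕ) (hp : p.Prime) (hpℓ : p ≠ ℓ) :
    ((p : LaurentSeries K1))⁻¹ ∈ S18K_O A K1 := by
  have hℓ : ℓ.Prime := Fact.out
  rw [S18K_mem_O]
  have hnd : ¬ ((ℓ : ℤ) ∣ (p : ℤ)) := by
    intro h
    have h1 : ℓ ∣ p := by exact_mod_cast h
    exact hpℓ ((Nat.prime_dvd_prime_iff_eq hℓ hp).mp h1).symm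
  have hv := Fermat.Agent.S18_helper5_BASE.S18A1_val_int_eq_one A hℓ hA (p : ℤ) hnd
  refine ⟨((p : K1))⁻¹, ?_, ?_⟩
  · have h1 : (((p : K1)⁻¹ : K1) : Qb) = ((p : ℤ) : Qb)⁻¹ := by
      simp
    rw [h1, ← A.valuation_le_one_iff, map_inv₀, hv, inv_one]
  · rw [map_inv₀, map_natCast]

section Constants

variable [IsDiscreteValuationRing (S18K_O1 A K1)]

theorem S18K_π_eq : S18K_π A K1 = (S18K_D A K1).πK := rfl

theorem S18K_π_ne_zero : S18K_π A K1 ≠ 0 := (S18K_D A K1).πK_ne_zero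

theorem S18K_π_mem_F1 (N : ℕ) : S18K_π A K1 ∈ S18K_F1 K1 N := by
  show (S18K_D A K1).πK ∈ modularFunctionFieldFullC K1 N
  have h : (S18K_D A K1).πK
      = algebraMap K1 (LaurentSeries K1) ((S18K_D A K1).inc (S18K_D A K1).π) := by
    rw [algebraMap_laurentSeries_eq_single]
    rfl
  rw [h]
  exact IntermediateField.algebraMap_mem _ _

/-- every constant of `K1` becomes integral after multiplication by a power of `π` -/
theorem S18K_const_mul_pow (c : K1) :
    ∃ o ∈ S18K_O A K1, ∃ n : ℕ,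
      algebraMap K1 (LaurentSeries K1) c * S18K_π A K1 ^ n = o := by
  have hC : ∀ x : K1, algebraMap K1 (LaurentSeries K1) x = HahnSeries.C x := by
    intro x
    rw [algebraMap_laurentSeries_eq_single]
    rfl
  rcases (S18K_O1 A K1).mem_or_inv_mem c with hc | hc
  · refine ⟨_, ?_, 0, rfl⟩
    rw [pow_zero, mul_one, S18K_mem_O]
    exact ⟨c, hc, (hC c).symm⟩
  · by_cases hc0 : c = 0
    · refine ⟨0, Subring.zero_mem _, 0, ?_⟩
      rw [hc0, map_zero, zero_mul]
    · have hne : (⟨c⁻¹, hc⟩ : S18K_O1 A K1) ≠ 0 := by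
        intro h
        exact inv_ne_zero hc0 (congrArg Subtype.val h)
      obtain ⟨n, u, hu, hures⟩ := (S18K_D A K1).exists_normalize _ hne
      have hunit : IsUnit u := by
        by_contra hnu
        apply hures
        show S18K_res A K1 u = 0
        rw [S18K_res_eq_zero_iff, IsLocalRing.mem_maximalIdeal, mem_nonunits_iff]
        exact hnu
      obtain ⟨u', rfl⟩ := hunit
      have hu1 : c⁻¹ = (((S18K_D A K1).π : S18K_O1 A K1) : K1) ^ n * ((u' : S18K_O1 A K1) : K1) :=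
        congrArg Subtype.val hu
      have hu2 : ((u' : S18K_O1 A K1) : K1) * (((u'⁻¹ : (S18K_O1 A K1)ˣ) : S18K_O1 A K1) : K1)
          = 1 := congrArg Subtype.val u'.mul_inv
      have hπ0 : (((S18K_D A K1).π : S18K_O1 A K1) : K1) ≠ 0 := by
        intro h
        exact (S18K_D A K1).π_ne_zero (Subtype.ext h)
      have hu0 : ((u' : S18K_O1 A K1) : K1) ≠ 0 := left_ne_zero_of_mul_eq_one hu2
      have key : c * (((S18K_D A K1).π : S18K_O1 A K1) : K1) ^ n
          = (((u'⁻¹ : (S18K_O1 A K1)ˣ) : S18K_O1 A K1) : K1) := by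
        have h1 : c = ((((S18K_D A K1).π : S18K_O1 A K1) : K1) ^ n * ((u' : S18K_O1 A K1) : K1))⁻¹ := by
          rw [← hu1, inv_inv]
        rw [h1, mul_inv, mul_comm _ ((u' : S18K_O1 A K1) : K1)⁻¹, mul_assoc,
          inv_mul_cancel₀ (pow_ne_zero n hπ0), mul_one]
        exact (eq_inv_of_mul_eq_one_right hu2).symm
      refine ⟨HahnSeries.C ((((u'⁻¹ : (S18K_O1 A K1)ˣ) : S18K_O1 A K1) : K1)), ?_, n, ?_⟩
      · rw [S18K_mem_O]
        exact ⟨_, ((u'⁻¹ : (S18K_O1 A K1)ˣ) : S18K_O1 A K1).2, rfl⟩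
      · rw [hC, ← key, map_mul, map_pow]
        rfl

end Constants

end Base

/-! ### The main theorem -/

section Main

variable (N : ℕ) [NeZero N] {ℓ : ℕ} [Fact ℓ.Prime] (A : ValuationSubring Qb)

set_option synthInstance.maxHeartbeats 400000 in
set_option maxHeartbeats 1600000 in
/-- **CORE**: the statement `CoreStatement` follows from the contract of blocks A and B
(block C and the base X-A1 being landed). -/
theorem core_of_blocks (hA : A.LiesOverPrime ℓ) (hAB : S18K_BlocksAB A N ℓ) :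
    Fermat.Agent.S18_helper12_ASM.CoreStatement N ℓ A := by
  intro p hp hpℓ y₁ y₂ hy₁ hy₂ g hg hg0 hy₂r hred hdiv
  -- nonvanishing
  have hy₁r : coeffMap (IsLocalRing.residue A) y₁ ≠ 0 := by
    rw [hred]
    exact mul_ne_zero (pow_ne_zero p hg0) hy₂r
  have hY₁0 : coeffMap A.subtype y₁ ≠ 0 :=
    Fermat.Agent.S18_helper12_ASM.coeffMap_subtype_ne_zero hy₁r
  have hY₂0 : coeffMap A.subtype y₂ ≠ 0 :=
    Fermat.Agent.S18_helper12_ASM.coeffMap_subtype_ne_zero hy₂r
  -- the finite set of constants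
  obtain ⟨S₁, hS₁⟩ := S18G_exists_finset (k₀ := ℚ) N (S18G_bar_le N hy₁)
  obtain ⟨S₂, hS₂⟩ := S18G_exists_finset (k₀ := ℚ) N (S18G_bar_le N hy₂)
  obtain ⟨r, hr⟩ := IsAlgClosed.exists_pow_nat_eq
    ((coeffMap A.subtype y₁ / coeffMap A.subtype y₂).coeff
      (coeffMap A.subtype y₁ / coeffMap A.subtype y₂).order) hp.pos
  classical
  obtain ⟨K1, hSK, hadm⟩ := S18K_hbase A hA (S₁ ∪ S₂ ∪ {r})
  have := hadm.dvr
  obtain ⟨w₁, hw₁F, hw₁⟩ := hS₁ K1 (fun s hs => hSK s (by simp [hs]))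
  obtain ⟨w₂, hw₂F, hw₂⟩ := hS₂ K1 (fun s hs => hSK s (by simp [hs]))
  have hrK : r ∈ K1 := hSK r (by simp)
  -- integrality of the coefficients
  obtain ⟨v₁, hv₁, hv₁y⟩ := S18K_exists_integral A K1 y₁ w₁ hw₁
  obtain ⟨v₂, hv₂, hv₂y⟩ := S18K_exists_integral A K1 y₂ w₂ hw₂
  have hw₁D : w₁ = (S18K_D A K1).incS v₁ := hv₁.symm
  have hw₂D : w₂ = (S18K_D A K1).incS v₂ := hv₂.symm
  have hredw : ∀ (v : LaurentSeries (S18K_O1 A K1)) (y : LaurentSeries A),
      coeffMap (S18K_incl A K1) v = y →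
      (S18K_D A K1).redFun ((S18K_D A K1).incS v) = coeffMap (IsLocalRing.residue A) y := by
    intro v y hvy
    rw [(S18K_D A K1).redFun_incS, ← hvy, coeffMap_coeffMap]
    rfl
  have hredw₁ : (S18K_D A K1).redFun w₁ = coeffMap (IsLocalRing.residue A) y₁ := by
    rw [hw₁D]; exact hredw v₁ y₁ hv₁y
  have hredw₂ : (S18K_D A K1).redFun w₂ = coeffMap (IsLocalRing.residue A) y₂ := by
    rw [hw₂D]; exact hredw v₂ y₂ hv₂y
  have hw₁V : w₁ ∈ (S18K_D A K1).Vring := by rw [hw₁D]; exact (S18K_D A K1).incS_mem_Vring _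
  have hw₂V : w₂ ∈ (S18K_D A K1).Vring := by rw [hw₂D]; exact (S18K_D A K1).incS_mem_Vring _
  have hw₁0 : w₁ ≠ 0 := by
    rintro rfl
    rw [map_zero] at hw₁
    exact hY₁0 hw₁.symm
  have hw₂0 : w₂ ≠ 0 := by
    rintro rfl
    rw [map_zero] at hw₂
    exact hY₂0 hw₂.symm
  have hw₂r : (S18K_D A K1).redFun w₂ ≠ 0 := by rw [hredw₂]; exact hy₂r
  -- the function `f1 = w₁ / w₂` over `K1`
  have hf1F : w₁ / w₂ ∈ modularFunctionFieldFullC K1 N := div_mem hw₁F hw₂F
  have hf10 : w₁ / w₂ ≠ 0 := div_ne_zero hw₁0 hw₂0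
  have hf1V : w₁ / w₂ ∈ (S18K_D A K1).Vring := by
    rw [div_eq_mul_inv]
    exact (S18K_D A K1).Vring.mul_mem hw₁V ((S18K_D A K1).inv_mem_Vring hw₂V hw₂r)
  have hredf1 : (S18K_D A K1).redFun (w₁ / w₂) = g ^ p := by
    rw [div_eq_mul_inv, (S18K_D A K1).redFun_mul hw₁V ((S18K_D A K1).inv_mem_Vring hw₂V hw₂r),
      (S18K_D A K1).redFun_inv hw₂V hw₂r, hredw₁, hredw₂, hred, mul_assoc,
      mul_inv_cancel₀ hy₂r, mul_one]
  -- `RedPow`
  obtain ⟨G, hGV, hGF, hGred⟩ := S18K_exists_lift (S18K_D A K1) hadm.res_surj N hg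
  have hRed : RedPow (S18K_π A K1) (S18K_V A K1 N) p (w₁ / w₂) G :=
    S18K_redPow (S18K_D A K1) (S18K_F1 K1 N) (S18K_π_mem_F1 A K1 N) p (w₁ / w₂) G hf1V hf1F
      hGV hGF (by rw [hGred]; exact hg0) (by rw [hredf1, hGred])
  -- descent of the divisibility of the divisor, `PowDiv`, order at the cusp
  have hcm : coeffMap (algebraMap K1 Qb) (w₁ / w₂)
      = coeffMap A.subtype y₁ / coeffMap A.subtype y₂ := by
    rw [map_div₀, hw₁, hw₂]
  have hF : coeffMap (algebraMap K1 Qb) (w₁ / w₂) ∈ modularFunctionFieldBar N :=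
    S18G_le_bar N (S18G_coeffMap_mem _ N hf1F)
  have hdiv' : ∀ P : Place Qb (modularFunctionFieldBar N),
      (p : ℤ) ∣ P.ord ⟨coeffMap (algebraMap K1 Qb) (w₁ / w₂), hF⟩ := by
    intro P
    have h1 : (⟨coeffMap (algebraMap K1 Qb) (w₁ / w₂), hF⟩ : modularFunctionFieldBar N)
        = (⟨_, hy₁⟩ : modularFunctionFieldBar N) / ⟨_, hy₂⟩ := Subtype.ext hcm
    rw [h1]
    exact hdiv P
  obtain ⟨hPow, hord⟩ := S18K_powDiv_and_order (algebraMap K1 Qb) N (S18K_O A K1)
    (S18K_π A K1) (S18K_π_ne_zero A K1) (fun c => S18K_const_mul_pow A K1 c) p (w₁ / w₂)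
    hf1F hf10 hF hdiv'
  -- the leading coefficient is a `p`-th power
  have hlead : ∃ r1 : K1, r1 ^ p = (w₁ / w₂ : LaurentSeries K1).coeff (w₁ / w₂).order := by
    refine ⟨⟨r, hrK⟩, ?_⟩
    apply (algebraMap K1 Qb).injective
    rw [map_pow]
    show r ^ p = algebraMap K1 Qb ((w₁ / w₂ : LaurentSeries K1).coeff (w₁ / w₂).order)
    rw [hr, ← coeffMap_coeff, ← S18K_order_coeffMap (algebraMap K1 Qb) (w₁ / w₂), hcm]
  have hp0 : (p : K1) ≠ 0 := Nat.cast_ne_zero.mpr hp.ne_zero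
  obtain ⟨h', hh'⟩ := S18K_exists_root p hp0 (w₁ / w₂) hf10 hord hlead
  -- block C
  obtain ⟨hS, hIG0, hIGinf⟩ := hAB K1 hadm
  have hh'F : h' ∈ S18K_F1 K1 N :=
    Fermat.Agent.S18_helper9_CPLUG.S18K_blockC A N ℓ K1 hadm hS hIG0 hIGinf p hp
      (S18K_natCast_inv_mem A K1 hA p hp hpℓ) (w₁ / w₂) h' G hf1F hf10 hh' hPow hRed
  -- conclusion
  exact S18K_ascend (algebraMap K1 Qb) N p h' (w₁ / w₂) hh'F hh' _ _ hy₁ hy₂ hcm

end Main

end Fermat.Agent.S18_helper25_CORE
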