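import Mathlib
import Fermat.Prelude.Def_ModularCurve_ReductionModL
import Fermat.Agent.S18_helper12_ASM
import Fermat.Agent.S18_helper25_CORE
import Fermat.Agent.S18_helper26_CONST
import Fermat.Agent.S18_helper14_SETUP

/-!
# S18 from the two `[IG]` statements of block B

`S18_of_IG`: the frozen statement S18, with the two `IG` conjuncts of `S18K_BlocksAB` (block B) as
the only hypothesis.  Everything else (block A `Setup`, block C, block D, CORE glue, X-A1,
`ConstStatement`) is plugged in.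
-/

set_option autoImplicit false

open ModularCurve
open Fermat.Agent.S18_helper9_CDefs Fermat.Agent.S18_helper25_COREDefs

namespace Fermat.Agent.S18_helper25_FINAL

/-- the contract of block B alone: `[IG]` at both charts, for every admissible `K1`. -/
def S18K_BlockB (A : ValuationSubring (AlgebraicClosure ℚ)) (N : ℕ) [NeZero N] (ℓ : ℕ) : Prop :=
  ∀ (K1 : IntermediateField ℚ (AlgebraicClosure ℚ)) (h : S18K_Admissible A K1 ℓ),
    letI := h.dvr
    IG (S18K_π A K1) (S18K_A0 A K1 N) ∧ IG (S18K_π A K1) (S18K_Ainf A K1 N)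

theorem S18K_blocksAB_of_blockB (N : ℕ) [NeZero N] {ℓ : ℕ} [Fact ℓ.Prime] (hℓN : ¬ ℓ ∣ N)
    (A : ValuationSubring (AlgebraicClosure ℚ)) (hA : A.LiesOverPrime ℓ)
    (hB : S18K_BlockB A N ℓ) : S18K_BlocksAB A N ℓ :=
  fun K1 h => ⟨Fermat.Agent.S18AK.setupK_admissible N Fact.out A hA hℓN K1 h, hB K1 h⟩

/-- **S18 modulo block B.** -/
theorem S18_of_IG (N : ℕ) [NeZero N] {ℓ : ℕ}
    [Fact ℓ.Prime] (hℓN : ¬ ℓ ∣ N) (A : ValuationSubring (AlgebraicClosure ℚ))
    (hA : A.LiesOverPrime ℓ) (hB : S18K_BlockB A N ℓ)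
    (h : ModularCurve.ReductionInputsModL A N) (m : ℕ) (hm : ¬ ℓ ∣ m) (z : ModularCurve.JZero N)
    (hmz : m • z = 0) (hz : ModularCurve.reductionModL A N z = 0) :
    z = 0 :=
  Fermat.Agent.S18_helper12_ASM.S18_of_core N A
    (Fermat.Agent.S18_helper25_CORE.core_of_blocks N A hA
      (S18K_blocksAB_of_blockB N hℓN A hA hB))
    (Fermat.Agent.S18_helper26_CONST.S18P15_const _ N) h m hm z hmz hz

end Fermat.Agent.S18_helper25_FINAL
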