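import Fermat.Agent.S18_helper14_BPLUG
import Fermat.Agent.S18_helper12_ROOTS
import Fermat.Agent.S18_helper25_FINAL

/-!
# S18: block B for the carriers of the integrator (helper14)

`blockBK : S18K_BlockB A N ℓ`, i.e. `[IG]` at both charts for every admissible `K1`, from
`S18BP.blockB_abs` at `O := ↥(S18K_O1 A K1)`, with the units and roots of unity of helper12's
`S18_helper12_ROOTS`.  Together with `S18_helper25_FINAL.S18_of_IG` this is statement S18.
-/

set_option autoImplicit false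
set_option linter.style.haveILetI false

noncomputable section

open ModularCurve Fermat.Agent.S18_helper13_GAUSS Fermat.Agent.S18_helper9_CDefs
open Fermat.Agent.S18A Fermat.Agent.S18AK Fermat.Agent.S18_helper25_COREDefs
open Fermat.Agent.S18_helper25_FINAL Fermat.Agent.S18_helper12_ROOTS

namespace Fermat.Agent.S18BP

/-- **Block B for the concrete carriers.** -/
theorem blockBK (N : ℕ) [NeZero N] {ℓ : ℕ} [Fact ℓ.Prime] (hℓN : ¬ ℓ ∣ N)
    (A : ValuationSubring (AlgebraicClosure ℚ)) (hA : A.LiesOverPrime ℓ) :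
    S18K_BlockB A N ℓ := by
  intro K1 h
  letI := h.dvr
  have hℓ : ℓ.Prime := Fact.out
  haveI : CharP (IsLocalRing.ResidueField A) ℓ :=
    Fermat.Agent.S18_helper5_BASE.S18A1_charP_residue A hℓ hA
  haveI : Algebra.IsAlgebraic ℚ ↥K1 :=
    Fermat.Agent.S18_helper5_BASE.S18A1_isAlgebraic_of_embedding ↥K1
      (algebraMap ↥K1 (AlgebraicClosure ℚ))
  haveI : IsAlgClosed (IsLocalRing.ResidueField A) :=
    Fermat.Agent.S18_helper27_RESALGCL.S18RES_isAlgClosed_residueField_Qbar A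
  have hcase : IsUnit (2 : ↥(S18K_O1 A K1)) ∨
      (IsUnit (3 : ↥(S18K_O1 A K1)) ∧ ∃ w : ↥(S18K_O1 A K1), w ^ 2 + w + 1 = 0) := by
    by_cases h2 : ℓ = 2
    · right
      have h3 : ¬ ℓ ∣ 3 := by rw [h2]; norm_num
      have hℓ3 : ℓ ≠ 3 := by rw [h2]; norm_num
      refine ⟨?_, S18RT_exists_cubeRoot A K1 hℓ h hℓ3⟩
      have := S18RT_isUnit_natCast A K1 hℓ hA h3
      exact_mod_cast this
    · left
      have h2' : ¬ ℓ ∣ 2 := fun hd => h2 ((Nat.prime_dvd_prime_iff_eq hℓ Nat.prime_two).mp hd)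
      have := S18RT_isUnit_natCast A K1 hℓ hA h2'
      exact_mod_cast this
  have hNu : IsUnit ((N : ℕ) : ↥(S18K_O1 A K1)) := S18RT_isUnit_natCast A K1 hℓ hA hℓN
  have hz : ∃ z : ↥(S18K_O1 A K1), IsPrimitiveRoot z N :=
    S18RT_exists_primitiveRoot A K1 h (NeZero.ne N) hℓN
  have hB := blockB_abs (O := ↥(S18K_O1 A K1)) (K1 := ↥K1) (S18K_res A K1)
    (S18K_res_eq_zero_iff A K1) N ℓ h.res_surj (algebraMap ↥K1 (AlgebraicClosure ℚ)) hℓN hcase
    hNu hz
  rw [S18K_A0_eq, S18K_Ainf_eq]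
  exact hB

end Fermat.Agent.S18BP
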