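import Mathlib
import Fermat.Agent.S18_helper17_IG
import Fermat.Agent.S18_helper29_COVERINST
import Fermat.Agent.S18_helper16_HORC

/-!
# S18, block B: the generic `[IG]` theorem fused with the covers and the horizontal input

For any chart ring `A` (with the instance package of `S18B_IG_generic`) inside the function field
`F₁ = modularFunctionFieldFullC K₁ N`:

* `S18B_IGat_chart0`: `[IG]` at every maximal ideal `m ∋ π` when `x = j`
  (Legendre cover if `π ∤ 2`, Hesse cover if `π ∤ 3` and `O` contains a primitive cube root of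
  unity);
* `S18B_IGat_cusp`: `[IG]` at every maximal ideal `m ∋ π, x` when `x = j⁻¹` (cusp cover
  `t ^ N = x`).
-/

set_option autoImplicit false
set_option linter.unusedSectionVars false
set_option linter.style.haveILetI false
set_option linter.unusedVariables false

open Polynomial IntermediateField ModularCurve
open Fermat.Agent.S20 Fermat.Agent.S24
open Fermat.Agent.S18_helper17_BDefs Fermat.Agent.S18_helper29_COVERS
open Fermat.Agent.S18_helper26_CONST Fermat.Agent.S18_helper26_DEGK1
open Fermat.Agent.S18_helper16_HORC Fermat.Agent.S18_helper17_IG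

namespace Fermat.Agent.S18_helper17_PLUGGEN

section units

variable {O : Type} [CommRing O] [IsDomain O] [IsDiscreteValuationRing O]

/-- In a discrete valuation ring, an element not divisible by the uniformiser is a unit. -/
theorem S18PG_isUnit_of_not_dvd {π : O} (hπ : Irreducible π) {a : O} (h : ¬ π ∣ a) :
    IsUnit a := by
  by_contra hu
  have hmem : a ∈ IsLocalRing.maximalIdeal O := (IsLocalRing.mem_maximalIdeal a).2 hu
  rw [(IsDiscreteValuationRing.irreducible_iff_uniformizer π).1 hπ,
    Ideal.mem_span_singleton] at hmem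
  exact h hmem

/-- A prime not dividing `2` does not divide `256`, so `256` has an inverse. -/
theorem S18PG_exists_inv_256 {π : O} (hπ : Irreducible π) (h2 : ¬ π ∣ 2) :
    ∃ c : O, c * 256 = 1 := by
  have h256 : ¬ π ∣ (256 : O) := by
    have : (256 : O) = 2 ^ 8 := by norm_num
    rw [this]
    exact fun h => h2 (hπ.prime.dvd_of_dvd_pow h)
  obtain ⟨u, hu⟩ := S18PG_isUnit_of_not_dvd hπ h256
  exact ⟨(↑u⁻¹ : O), by rw [← hu]; exact Units.inv_mul u⟩

/-- A prime not dividing `3` does not divide `27`, so `27` has an inverse. -/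
theorem S18PG_exists_inv_27 {π : O} (hπ : Irreducible π) (h3 : ¬ π ∣ 3) :
    ∃ c : O, c * 27 = 1 := by
  have h27 : ¬ π ∣ (27 : O) := by
    have : (27 : O) = 3 ^ 3 := by norm_num
    rw [this]
    exact fun h => h3 (hπ.prime.dvd_of_dvd_pow h)
  obtain ⟨u, hu⟩ := S18PG_isUnit_of_not_dvd hπ h27
  exact ⟨(↑u⁻¹ : O), by rw [← hu]; exact Units.inv_mul u⟩

end units

variable {O K1 : Type} [CommRing O] [IsDomain O] [IsDiscreteValuationRing O]
  [Field K1] [CharZero K1] [Algebra O K1] [IsFractionRing O K1] (N : ℕ) [NeZero N]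
  [Algebra O (modularFunctionFieldFullC K1 N)]
  [IsScalarTower O K1 (modularFunctionFieldFullC K1 N)]
  {A : Type} [CommRing A] [Algebra O A] [Algebra A (modularFunctionFieldFullC K1 N)]
  [IsScalarTower O A (modularFunctionFieldFullC K1 N)]
  [IsDomain A] [IsFractionRing A (modularFunctionFieldFullC K1 N)] [IsIntegrallyClosed A]
  [IsNoetherianRing A]

theorem S18PG_faithfulSMul_O : FaithfulSMul O (modularFunctionFieldFullC K1 N) := by
  rw [faithfulSMul_iff_algebraMap_injective]
  rw [IsScalarTower.algebraMap_eq O K1 (modularFunctionFieldFullC K1 N)]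
  exact (algebraMap K1 (modularFunctionFieldFullC K1 N)).injective.comp
    (IsFractionRing.injective O K1)

theorem S18PG_charZero : CharZero (modularFunctionFieldFullC K1 N) :=
  charZero_of_injective_algebraMap (algebraMap K1 (modularFunctionFieldFullC K1 N)).injective

theorem S18PG_faithfulSMul_A : FaithfulSMul A (modularFunctionFieldFullC K1 N) := by
  rw [faithfulSMul_iff_algebraMap_injective]
  exact IsFractionRing.injective A (modularFunctionFieldFullC K1 N)

/-- transcendence of `x` over `O` from transcendence of its image over `K1` -/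
theorem S18PG_transcendental (x : A) (y : modularFunctionFieldFullC K1 N)
    (hxy : algebraMap A (modularFunctionFieldFullC K1 N) x = y) (hy : Transcendental K1 y) :
    Transcendental O x := by
  intro hx
  apply hy
  have h1 : IsAlgebraic O (algebraMap A (modularFunctionFieldFullC K1 N) x) := hx.algebraMap
  rw [hxy] at h1
  exact h1.extendScalars (IsFractionRing.injective O K1)

/-- **Chart `0`** (`x = j`): `[IG]` at every maximal ideal containing `π`. -/
theorem S18B_IGat_chart0 (emb : K1 →+* Kbar) (π : O) (hπ : Irreducible π)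
    [hk : IsAlgClosed (IsLocalRing.ResidueField O)]
    (hcase : ¬ π ∣ 2 ∨ (¬ π ∣ 3 ∧ ∃ w : O, w ^ 2 + w + 1 = 0))
    (x : A) (hxj : algebraMap A (modularFunctionFieldFullC K1 N) x = S18P15_jbar K1 N)
    (hA' : ∀ a : A, IsIntegral (Algebra.adjoin O {x}) a)
    (V : A) (P₀ : Polynomial O[X]) (hP₀ : P₀.Monic)
    (hP₀V : aeval V (P₀.map (aeval x : O[X] →ₐ[O] A).toRingHom) = 0)
    (hVgen : ∀ y : modularFunctionFieldFullC K1 N, ∃ (num : Polynomial O[X]) (den : O[X]),
      den ≠ 0 ∧ y * algebraMap A (modularFunctionFieldFullC K1 N) (aeval x den) =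
        algebraMap A (modularFunctionFieldFullC K1 N)
          (aeval V (num.map (aeval x : O[X] →ₐ[O] A).toRingHom)))
    (hsep : ∀ (κ : Type) [Field κ] (f : O[X] →+* κ), (∀ p, f p = 0 ↔ C π ∣ p) →
      (P₀.map f).Separable)
    (m : Ideal A) (hm : m.IsMaximal) (hπm : algebraMap O A π ∈ m) :
    S18B_IGat (algebraMap O A π) m := by
  haveI := S18PG_faithfulSMul_O (O := O) (K1 := K1) N
  haveI := S18PG_charZero (K1 := K1) N
  haveI := S18PG_faithfulSMul_A (K1 := K1) (A := A) N
  have hx : Transcendental O x :=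
    S18PG_transcendental N x _ hxj (S18P15_transcendental_jbar K1 N)
  rcases hcase with h2 | ⟨h3, w, hw⟩
  · obtain ⟨c, hc⟩ := S18PG_exists_inv_256 hπ h2
    refine S18B_IG_generic π hπ x hx hA' V P₀ hP₀ hP₀V hVgen hsep (lamNum O) (lamDen O)
      (S18B_cover_lam π hπ.prime h2 c hc _) m hm hπm ?_
    intro t₀ _ hden
    rw [hxj]
    exact S18HOR_lam N emb π hπ t₀ hden
  · obtain ⟨c, hc⟩ := S18PG_exists_inv_27 hπ h3
    refine S18B_IG_generic π hπ x hx hA' V P₀ hP₀ hP₀V hVgen hsep (muNum O) (muDen O)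
      (S18B_cover_mu π hπ.prime h3 c hc w hw _) m hm hπm ?_
    intro t₀ _ hden
    rw [hxj]
    exact S18HOR_mu N emb π hπ t₀ hden

/-- **Chart `∞`, cusp case** (`x = j⁻¹ ∈ m`): `[IG]` at every maximal ideal containing `π`
and `x`. -/
theorem S18B_IGat_cusp (emb : K1 →+* Kbar) (π : O) (hπ : Irreducible π)
    [hk : IsAlgClosed (IsLocalRing.ResidueField O)]
    (hNu : IsUnit (N : O)) (z : O) (hz : IsPrimitiveRoot z N)
    (x : A) (hxj : algebraMap A (modularFunctionFieldFullC K1 N) x = (S18P15_jbar K1 N)⁻¹)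
    (hA' : ∀ a : A, IsIntegral (Algebra.adjoin O {x}) a)
    (V : A) (P₀ : Polynomial O[X]) (hP₀ : P₀.Monic)
    (hP₀V : aeval V (P₀.map (aeval x : O[X] →ₐ[O] A).toRingHom) = 0)
    (hVgen : ∀ y : modularFunctionFieldFullC K1 N, ∃ (num : Polynomial O[X]) (den : O[X]),
      den ≠ 0 ∧ y * algebraMap A (modularFunctionFieldFullC K1 N) (aeval x den) =
        algebraMap A (modularFunctionFieldFullC K1 N)
          (aeval V (num.map (aeval x : O[X] →ₐ[O] A).toRingHom)))
    (hsep : ∀ (κ : Type) [Field κ] (f : O[X] →+* κ), (∀ p, f p = 0 ↔ C π ∣ p) →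
      (P₀.map f).Separable)
    (m : Ideal A) (hm : m.IsMaximal) (hπm : algebraMap O A π ∈ m) (hxm : x ∈ m) :
    S18B_IGat (algebraMap O A π) m := by
  haveI := S18PG_faithfulSMul_O (O := O) (K1 := K1) N
  haveI := S18PG_charZero (K1 := K1) N
  haveI := S18PG_faithfulSMul_A (K1 := K1) (A := A) N
  have htr : Transcendental K1 (S18P15_jbar K1 N)⁻¹ := by
    intro h
    exact S18P15_transcendental_jbar K1 N (by simpa using h.inv)
  have hx : Transcendental O x := S18PG_transcendental N x _ hxj htr
  refine S18B_IG_generic π hπ x hx hA' V P₀ hP₀ hP₀V hVgen hsep (X ^ N) 1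
    (S18B_cover_tau π hπ.prime N (NeZero.pos N) hNu z hz _) m hm hπm ?_
  rintro t₀ ⟨c, hcm, hdvd⟩ -
  rw [hxj]
  refine S18HOR_tau N emb π hπ t₀ ?_
  have hcm' : algebraMap O A c ∈ m := by
    have := m.sub_mem hxm hcm
    simpa using this
  have hπc : π ∣ c := by
    by_contra hnc
    have hu : IsUnit c := S18PG_isUnit_of_not_dvd hπ hnc
    exact hm.ne_top (Ideal.eq_top_of_isUnit_mem m hcm' (hu.map (algebraMap O A)))
  have h1 : π ∣ t₀ ^ N := by
    have h2 : π ∣ (X ^ N : O[X]).eval t₀ - c * (1 : O[X]).eval t₀ + c :=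
      dvd_add hdvd hπc
    simpa using h2
  exact hπ.prime.dvd_of_dvd_pow h1

end Fermat.Agent.S18_helper17_PLUGGEN
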