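import Fermat.Agent.S18_helper18_IGINF
import Fermat.Agent.S18_helper14_SETUP
import Fermat.Agent.S18_helper27_RESALGCL

/-!
# S18, block B glue, piece X-B-IGINFL (helper18)

`S18_helper18_IGINF` at the concrete carriers: the abstract carriers of `S18_helper14_ADefs`
and the carriers `S18K_*` of the integrator (`S18_helper25_COREDefs`).

* `S18IGINFL_IGatAll π A`  : `[IG]` in the shape of block B at every maximal ideal `m ∋ π`;
* `S18IGINFL_CuspIG π j A` : `[IG]` in the shape of block B at every maximal ideal `m ∋ π, j⁻¹`;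
* `S18IGINFL_IG_inf`, `S18IGINFK_IG_inf` : `IG π Ainf` from `IG π A0` and the cusp case;
* `S18IGINFK_blocksAB` : the contract `S18K_BlocksAB` from block B's output.
-/

set_option autoImplicit false

open ModularCurve Fermat.Agent.S18_helper13_GAUSS Fermat.Agent.S18_helper9_CDefs
open Fermat.Agent.S18_helper25_COREDefs Fermat.Agent.S18A Fermat.Agent.S18AK
open Fermat.Agent.S18_helper17_BDefs Fermat.Agent.S18_helper18_IGINF

namespace Fermat.Agent.S18_helper18_IGINFL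

section Shapes

variable {L : Type} [Field L]

/-- `[IG]` (shape of block B, `S18B_IGat`) at every maximal ideal of `A` containing `π`. -/
def S18IGINFL_IGatAll (π : L) (A : Subring L) : Prop :=
  ∀ (hπ : π ∈ A) (m : Ideal A), m.IsMaximal → (⟨π, hπ⟩ : A) ∈ m → S18B_IGat (⟨π, hπ⟩ : A) m

/-- `[IG]` (shape of block B, `S18B_IGat`) at the cusps of the chart `A` with coordinate `j⁻¹`:
the maximal ideals containing `π` and `j⁻¹`. -/
def S18IGINFL_CuspIG (π j : L) (A : Subring L) : Prop :=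
  ∀ (hπ : π ∈ A) (hj : j⁻¹ ∈ A) (m : Ideal A), m.IsMaximal → (⟨π, hπ⟩ : A) ∈ m →
    (⟨j⁻¹, hj⟩ : A) ∈ m → S18B_IGat (⟨π, hπ⟩ : A) m

theorem S18IGINFL_IG_of_IGatAll {π : L} {A : Subring L} (h : S18IGINFL_IGatAll π A) :
    IG π A :=
  S18IGINF_IG_of_IGat A h

theorem S18IGINFL_CuspIG_of_IGatAll {π j : L} {A : Subring L} (h : S18IGINFL_IGatAll π A) :
    S18IGINFL_CuspIG π j A :=
  fun hπ _ m hm hπm _ => h hπ m hm hπm

/-- `IG π Ainf` from `IG π A0` and the cusp case, in the abstract two-chart setting. -/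
theorem S18IGINFL_IG_inf_setup {O : Subring L} {π j : L} {F1 : Subfield L}
    {V A0 Ainf : Subring L} (S : Setup O π j F1 V A0 Ainf) [IsLocalRing O]
    [IsAlgClosed (IsLocalRing.ResidueField O)] (hIG0 : IG π A0)
    (hcusp : S18IGINFL_CuspIG π j Ainf) : IG π Ainf :=
  S18IGINF_IG_inf_of_IGat S hIG0 (fun m hm hπm hjm => hcusp _ _ m hm hπm hjm)

end Shapes

section ResidueField

/-- Algebraic closedness of the residue field is transported along a ring isomorphism. -/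
theorem S18IGINFL_isAlgClosed_of_equiv {O O' k : Type*} [CommRing O] [IsLocalRing O]
    [CommRing O'] [IsLocalRing O'] [Field k] [IsAlgClosed k] (e : O ≃+* O') (ρ : O →+* k)
    (hsurj : Function.Surjective ρ) (hρ : ∀ x : O, ρ x = 0 ↔ x ∈ IsLocalRing.maximalIdeal O) :
    IsAlgClosed (IsLocalRing.ResidueField O') := by
  refine Fermat.Agent.S18_helper27_RESALGCL.S18RES_isAlgClosed_of_surjective
    (ρ.comp e.symm.toRingHom) ?_ ?_
  · intro y
    obtain ⟨x, rfl⟩ := hsurj y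
    exact ⟨e x, by simp⟩
  · intro x
    rw [RingHom.comp_apply, hρ, IsLocalRing.mem_maximalIdeal, IsLocalRing.mem_maximalIdeal,
      mem_nonunits_iff, mem_nonunits_iff, not_iff_not]
    exact MulEquiv.isUnit_map e.symm.toMulEquiv

/-- The residue field of the constants `OL` is algebraically closed. -/
theorem S18IGINFL_isAlgClosed_OL {O K1 k : Type} [CommRing O] [IsLocalRing O] [Field K1]
    [Algebra O K1] [FaithfulSMul O K1] [Field k] [IsAlgClosed k] [IsLocalRing (OL O K1)]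
    (ρ : O →+* k) (hρ : ∀ x : O, ρ x = 0 ↔ x ∈ IsLocalRing.maximalIdeal O)
    (hsurj : Function.Surjective ρ) : IsAlgClosed (IsLocalRing.ResidueField (OL O K1)) :=
  S18IGINFL_isAlgClosed_of_equiv (equivOL O K1) ρ hsurj hρ

end ResidueField

section ADefs

variable (N : ℕ) [NeZero N] (ℓ : ℕ) [Fact ℓ.Prime]
  {O K1 k : Type} [CommRing O] [IsDomain O] [IsDiscreteValuationRing O] [Field K1]
  [CharZero K1] [Algebra O K1] [IsFractionRing O K1] [Algebra.IsAlgebraic ℚ K1] [Field k]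
  [CharP k ℓ] (ρ : O →+* k) (hρ : ∀ x : O, ρ x = 0 ↔ x ∈ IsLocalRing.maximalIdeal O)

/-- **`[IG]` at the chart at infinity, abstract carriers of `S18_helper14_ADefs`.** -/
theorem S18IGINFL_IG_inf [IsAlgClosed k] (hsurj : Function.Surjective ρ) (hℓN : ¬ ℓ ∣ N)
    (hIG0 : IG (πL O K1 ρ hρ) (A0L O K1 N))
    (hcusp : S18IGINFL_CuspIG (πL O K1 ρ hρ) (jqModC K1) (AinfL O K1 N)) :
    IG (πL O K1 ρ hρ) (AinfL O K1 N) := by
  have S := setup N ℓ (O := O) (K1 := K1) ρ hρ hℓN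
  have := S.dvr
  have := S18IGINFL_isAlgClosed_OL (O := O) (K1 := K1) ρ hρ hsurj
  exact S18IGINFL_IG_inf_setup S hIG0 hcusp

/-- Both charts at once. -/
theorem S18IGINFL_IG_both [IsAlgClosed k] (hsurj : Function.Surjective ρ) (hℓN : ¬ ℓ ∣ N)
    (h0 : S18IGINFL_IGatAll (πL O K1 ρ hρ) (A0L O K1 N))
    (hcusp : S18IGINFL_CuspIG (πL O K1 ρ hρ) (jqModC K1) (AinfL O K1 N)) :
    IG (πL O K1 ρ hρ) (A0L O K1 N) ∧ IG (πL O K1 ρ hρ) (AinfL O K1 N) :=
  ⟨S18IGINFL_IG_of_IGatAll h0,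
    S18IGINFL_IG_inf N ℓ ρ hρ hsurj hℓN (S18IGINFL_IG_of_IGatAll h0) hcusp⟩

end ADefs

section K

variable (N : ℕ) [NeZero N] {ℓ : ℕ} (hℓ : ℓ.Prime)
  (A : ValuationSubring (AlgebraicClosure ℚ)) (hA : A.LiesOverPrime ℓ) (hℓN : ¬ ℓ ∣ N)
  (K1 : IntermediateField ℚ (AlgebraicClosure ℚ))

include hℓ hA hℓN in
/-- **`[IG]` at the chart at infinity, carriers of the integrator.** -/
theorem S18IGINFK_IG_inf (h : S18K_Admissible A K1 ℓ) :
    letI := h.dvr
    IG (S18K_π A K1) (S18K_A0 A K1 N) →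
    S18IGINFL_CuspIG (S18K_π A K1) (S18K_j K1) (S18K_Ainf A K1 N) →
    IG (S18K_π A K1) (S18K_Ainf A K1 N) := by
  let _ := h.dvr
  intro hIG0 hcusp
  have : Fact ℓ.Prime := ⟨hℓ⟩
  have : CharP (IsLocalRing.ResidueField A) ℓ :=
    Fermat.Agent.S18_helper5_BASE.S18A1_charP_residue A hℓ hA
  have : Algebra.IsAlgebraic ℚ ↥K1 :=
    Fermat.Agent.S18_helper5_BASE.S18A1_isAlgebraic_of_embedding ↥K1
      (algebraMap ↥K1 (AlgebraicClosure ℚ))
  have : IsAlgClosed (IsLocalRing.ResidueField A) :=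
    Fermat.Agent.S18_helper27_RESALGCL.S18RES_isAlgClosed_residueField_Qbar A
  rw [S18K_A0_eq] at hIG0
  rw [S18K_Ainf_eq] at hcusp ⊢
  exact S18IGINFL_IG_inf N ℓ (S18K_res A K1) (S18K_res_eq_zero_iff A K1) h.res_surj hℓN
    hIG0 hcusp

include hℓ hA hℓN in
/-- **The contract `S18K_BlocksAB`** from block B's output: `[IG]` at every maximal ideal `∋ π`
of the finite chart and at the cusps of the chart at infinity, for every admissible `K1`. -/
theorem S18IGINFK_blocksAB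
    (hB : ∀ (K1 : IntermediateField ℚ (AlgebraicClosure ℚ)) (h : S18K_Admissible A K1 ℓ),
      letI := h.dvr
      IG (S18K_π A K1) (S18K_A0 A K1 N) ∧
        S18IGINFL_CuspIG (S18K_π A K1) (S18K_j K1) (S18K_Ainf A K1 N)) :
    S18K_BlocksAB A N ℓ := by
  intro K1 h
  let _ := h.dvr
  exact ⟨setupK_admissible N hℓ A hA hℓN K1 h, (hB K1 h).1,
    S18IGINFK_IG_inf N hℓ A hA hℓN K1 h (hB K1 h).1 (hB K1 h).2⟩

end K

end Fermat.Agent.S18_helper18_IGINFL
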