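import Fermat.Agent.S18_helper14_AINST
import Fermat.Agent.S18_helper17_PLUGGEN
import Fermat.Agent.S18_helper18_IGINFL

/-!
# S18, block B plug for the carriers of block A (helper14)

`[IG]` at the two charts `A0L`, `AinfL` of `S18_helper14_ADefs`, by plugging the instance package
of `S18_helper14_AINST` and helper1's generic étale element into helper17's fused theorems
`S18B_IGat_chart0` / `S18B_IGat_cusp` (covers of helper29, horizontal input of helper16/helper10),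
at the base ring `↥(OL O K1)`.
-/

set_option autoImplicit false
set_option linter.unusedSectionVars false
set_option linter.style.haveILetI false

noncomputable section

open Polynomial ModularCurve Fermat.Agent.S18_helper13_GAUSS Fermat.Agent.S18_helper9_CDefs
open Fermat.Agent.S18A Fermat.Agent.S18_helper17_BDefs Fermat.Agent.S18AI

namespace Fermat.Agent.S18BP

variable {O K1 k : Type} [CommRing O] [IsDomain O] [IsDiscreteValuationRing O] [Field K1]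
  [CharZero K1] [Algebra O K1] [IsFractionRing O K1] [Field k] [IsAlgClosed k]
  (ρ : O →+* k) (hρ : ∀ x : O, ρ x = 0 ↔ x ∈ IsLocalRing.maximalIdeal O) (N : ℕ) [NeZero N]

/-- **`[IG]` at one maximal ideal of a chart**, covers and horizontal input plugged in.
`hmode`: either the chart is the finite one (`x = j`; Legendre cover if `2` is invertible, Hesse
cover if `3` is invertible and `O` contains a primitive cube root of unity), or it is the chart at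
infinity and `m` is a cusp (`x = j⁻¹ ∈ m`; cover `t ^ N = x`). -/
theorem IGat_gen (hρs : Function.Surjective ρ) (emb : K1 →+* AlgebraicClosure ℚ)
    (S : Setup (OL O K1) (πL O K1 ρ hρ) (jqModC K1) (F1L K1 N) (VL O K1 ρ hρ N)
      (A0L O K1 N) (AinfL O K1 N))
    (x : LaurentSeries K1) (hx : x = jqModC K1 ∨ x = (jqModC K1)⁻¹)
    (A : Subring (LaurentSeries K1))
    (hC : Chart (OL O K1) (πL O K1 ρ hρ) x (F1L K1 N) (VL O K1 ρ hρ N) A)
    (hπ : πL O K1 ρ hρ ∈ A) (hxA : x ∈ A)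
    (m : Ideal ↥A) (hm : m.IsMaximal) (hπm : (⟨πL O K1 ρ hρ, hπ⟩ : ↥A) ∈ m)
    (hmode : (x = jqModC K1 ∧
        (IsUnit (2 : O) ∨ (IsUnit (3 : O) ∧ ∃ w : O, w ^ 2 + w + 1 = 0))) ∨
      (x = (jqModC K1)⁻¹ ∧ IsUnit ((N : ℕ) : O) ∧ (∃ z : O, IsPrimitiveRoot z N) ∧
        (⟨x, hxA⟩ : ↥A) ∈ m)) :
    @S18B_IGat ↥A _ (⟨πL O K1 ρ hρ, hπ⟩ : ↥A) m := by
  classical
  have hcz : CharZero (LaurentSeries K1) :=
    charZero_of_injective_ringHom (HahnSeries.C_injective (Γ := ℤ) (R := K1))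
  have hAeq : A = icl (adj (OL O K1) x) (F1L K1 N) :=
    Subring.ext (fun y => (hC.mem_iff y).trans mem_icl.symm)
  have hAF : ∀ a ∈ A, a ∈ modularFunctionFieldFullC K1 N := fun a ha => ((hC.mem_iff a).mp ha).2
  have hOA : OL O K1 ≤ A := Fermat.Agent.S18_helper1_AIVC.S18AIVC_O_le hC S.O_le
  haveI hdvr : IsDiscreteValuationRing ↥(OL O K1) := S.dvr
  letI iOLF : Algebra ↥(OL O K1) (F1T K1 N) := algOLF O K1 N
  letI iOLA : Algebra ↥(OL O K1) ↥A := algOLA A hOA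
  letI iAF : Algebra ↥A (F1T K1 N) := algAF A hAF
  haveI : IsScalarTower ↥(OL O K1) ↥A (F1T K1 N) :=
    IsScalarTower.of_algebraMap_eq (fun _ => rfl)
  haveI : IsAlgClosed (IsLocalRing.ResidueField ↥(OL O K1)) := isAlgClosed_residue_OL ρ hρ hρs
  haveI : IsNoetherianRing ↥A :=
    Fermat.Agent.S18_helper27_CNOETH.S18CNOETH_chart_noetherian S x hx A hC
  haveI : IsIntegrallyClosed ↥A := by
    rw [hAeq]
    exact Fermat.Agent.S18_helper20_CSAT.CSAT_isIntegrallyClosed_icl _ _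
  have hinjAF : Function.Injective (algebraMap ↥A (F1T K1 N)) := fun a b h =>
    Subtype.ext (congrArg (fun z : F1T K1 N => (z : LaurentSeries K1)) h)
  haveI : FaithfulSMul ↥A (F1T K1 N) := (faithfulSMul_iff_algebraMap_injective _ _).mpr hinjAF
  haveI : IsFractionRing ↥A (F1T K1 N) := by
    refine IsFractionRing.of_field ↥A (F1T K1 N) (fun z => ?_)
    obtain ⟨b, hb, hb0, hzb⟩ := frac_of_finite (OL O K1) (jqModC K1) (F1L K1 N) S.O_le S.j_mem
      S.finite x hx (z : LaurentSeries K1) z.2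
    rw [← hAeq] at hb hzb
    refine ⟨⟨_, hzb⟩, ⟨b, hb⟩, ?_⟩
    have hb0' : algebraMap ↥A (F1T K1 N) ⟨b, hb⟩ ≠ 0 := by
      intro h
      exact hb0 (congrArg (fun z : F1T K1 N => (z : LaurentSeries K1)) h)
    rw [eq_div_iff hb0']
    exact Subtype.ext rfl
  -- the coordinate
  have hev : ∀ p : Polynomial ↥(OL O K1),
      ((aeval (⟨x, hxA⟩ : ↥A) p : ↥A) : LaurentSeries K1) = eval₂ (OL O K1).subtype x p := by
    intro p
    exact Polynomial.hom_eval₂ p (algebraMap ↥(OL O K1) ↥A) A.subtype ⟨x, hxA⟩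
  have hcomp : A.subtype.comp (aeval (⟨x, hxA⟩ : ↥A) : Polynomial ↥(OL O K1) →ₐ[↥(OL O K1)] ↥A).toRingHom
      = (aeval x : Polynomial ↥(OL O K1) →ₐ[↥(OL O K1)] LaurentSeries K1).toRingHom := by
    apply Polynomial.ringHom_ext
    · intro c
      simp only [RingHom.comp_apply, AlgHom.toRingHom_eq_coe, RingHom.coe_coe, aeval_C]
      rfl
    · simp only [RingHom.comp_apply, AlgHom.toRingHom_eq_coe, RingHom.coe_coe, aeval_X]
      rfl
  have hA' : ∀ a : ↥A, IsIntegral (Algebra.adjoin ↥(OL O K1) {(⟨x, hxA⟩ : ↥A)}) a := by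
    intro a
    have h1 : IsIntegral (adj (OL O K1) x) (a : LaurentSeries K1) := ((hC.mem_iff a.1).mp a.2).1
    rw [Fermat.Agent.S18_helper27_CFIN.S18CFIN_isIntegral_iff] at h1
    obtain ⟨p, hpm, hp⟩ := h1
    let φ : Polynomial ↥(OL O K1) →+* ↥(Algebra.adjoin ↥(OL O K1) {(⟨x, hxA⟩ : ↥A)}) :=
      (aeval (⟨x, hxA⟩ : ↥A) : Polynomial ↥(OL O K1) →ₐ[↥(OL O K1)] ↥A).toRingHom.codRestrict
        (Algebra.adjoin ↥(OL O K1) {(⟨x, hxA⟩ : ↥A)})
        (fun q => by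
          rw [Algebra.adjoin_singleton_eq_range_aeval]
          exact ⟨q, rfl⟩)
    refine ⟨p.map φ, hpm.map φ, ?_⟩
    rw [Polynomial.eval₂_map]
    have hφ : (algebraMap ↥(Algebra.adjoin ↥(OL O K1) {(⟨x, hxA⟩ : ↥A)}) ↥A).comp φ
        = (aeval (⟨x, hxA⟩ : ↥A) : Polynomial ↥(OL O K1) →ₐ[↥(OL O K1)] ↥A).toRingHom := by
      ext <;> rfl
    rw [hφ]
    apply Subtype.ext
    have h2 : A.subtype (eval₂ (aeval (⟨x, hxA⟩ : ↥A) : Polynomial ↥(OL O K1) →ₐ[↥(OL O K1)] ↥A).toRingHom a p)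
        = eval₂ (A.subtype.comp (aeval (⟨x, hxA⟩ : ↥A) : Polynomial ↥(OL O K1) →ₐ[↥(OL O K1)] ↥A).toRingHom)
            (A.subtype a) p :=
      Polynomial.hom_eval₂ p _ A.subtype a
    rw [hcomp] at h2
    exact h2.trans hp
  -- the generic étale element
  haveI : PerfectField k := inferInstance
  obtain ⟨Vel, P₀, hVel, hmon, hroot, hgen, hsep, -⟩ :=
    Fermat.Agent.S18_helper1_AIVA.S18AIVA_chart ρ hρ N hρs S x hx A hC
  have hconv : ∀ Q : Polynomial (Polynomial ↥(OL O K1)),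
      ((aeval (⟨Vel, hVel⟩ : ↥A) (Q.map (aeval (⟨x, hxA⟩ : ↥A) :
          Polynomial ↥(OL O K1) →ₐ[↥(OL O K1)] ↥A).toRingHom) : ↥A) : LaurentSeries K1)
        = eval₂ (eval₂RingHom (OL O K1).subtype x) Vel Q := by
    intro Q
    rw [Polynomial.aeval_def, Polynomial.eval₂_map]
    have h2 : A.subtype (eval₂ ((algebraMap ↥A ↥A).comp
        (aeval (⟨x, hxA⟩ : ↥A) : Polynomial ↥(OL O K1) →ₐ[↥(OL O K1)] ↥A).toRingHom)
          (⟨Vel, hVel⟩ : ↥A) Q)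
        = eval₂ (A.subtype.comp ((algebraMap ↥A ↥A).comp
            (aeval (⟨x, hxA⟩ : ↥A) : Polynomial ↥(OL O K1) →ₐ[↥(OL O K1)] ↥A).toRingHom))
            (A.subtype ⟨Vel, hVel⟩) Q :=
      Polynomial.hom_eval₂ Q _ A.subtype _
    have h3 : A.subtype.comp ((algebraMap ↥A ↥A).comp
        (aeval (⟨x, hxA⟩ : ↥A) : Polynomial ↥(OL O K1) →ₐ[↥(OL O K1)] ↥A).toRingHom)
        = eval₂RingHom (OL O K1).subtype x := by
      apply Polynomial.ringHom_ext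
      · intro c
        simp only [RingHom.comp_apply, AlgHom.toRingHom_eq_coe, RingHom.coe_coe, aeval_C,
          Algebra.algebraMap_self, RingHom.id_apply, coe_eval₂RingHom, eval₂_C]
        rfl
      · simp only [RingHom.comp_apply, AlgHom.toRingHom_eq_coe, RingHom.coe_coe, aeval_X,
          Algebra.algebraMap_self, RingHom.id_apply, coe_eval₂RingHom, eval₂_X]
        rfl
    rw [h3] at h2
    exact h2
  have hP₀V : aeval (⟨Vel, hVel⟩ : ↥A) (P₀.map (aeval (⟨x, hxA⟩ : ↥A) :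
      Polynomial ↥(OL O K1) →ₐ[↥(OL O K1)] ↥A).toRingHom) = 0 := by
    apply Subtype.ext
    rw [hconv, hroot]
    rfl
  have hVgen : ∀ y : F1T K1 N, ∃ (num : Polynomial (Polynomial ↥(OL O K1)))
      (den : Polynomial ↥(OL O K1)), den ≠ 0 ∧
      y * algebraMap ↥A (F1T K1 N) (aeval (⟨x, hxA⟩ : ↥A) den) =
        algebraMap ↥A (F1T K1 N) (aeval (⟨Vel, hVel⟩ : ↥A) (num.map (aeval (⟨x, hxA⟩ : ↥A) :
          Polynomial ↥(OL O K1) →ₐ[↥(OL O K1)] ↥A).toRingHom)) := by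
    intro y
    obtain ⟨n, d, hd0, hnd⟩ := hgen (y : LaurentSeries K1) y.2
    refine ⟨n, d, hd0, Subtype.ext ?_⟩
    show (y : LaurentSeries K1) * ((aeval (⟨x, hxA⟩ : ↥A) d : ↥A) : LaurentSeries K1) =
      ((aeval (⟨Vel, hVel⟩ : ↥A) (n.map (aeval (⟨x, hxA⟩ : ↥A) :
          Polynomial ↥(OL O K1) →ₐ[↥(OL O K1)] ↥A).toRingHom) : ↥A) : LaurentSeries K1)
    rw [hconv, hev, mul_comm, hnd]
  have hπirr : Irreducible (⟨πL O K1 ρ hρ, S.π_mem⟩ : ↥(OL O K1)) := S.π_irr S.π_mem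
  -- transport of units and roots of unity to `OL`
  let e := equivOL O K1
  have hunit : ∀ n : ℕ, IsUnit ((n : ℕ) : O) →
      ¬ (⟨πL O K1 ρ hρ, S.π_mem⟩ : ↥(OL O K1)) ∣ ((n : ℕ) : ↥(OL O K1)) := by
    intro n hn hdvd
    have h1 : IsUnit ((n : ℕ) : ↥(OL O K1)) := by
      have := hn.map (e : O →+* ↥(OL O K1))
      rwa [map_natCast] at this
    exact hπirr.not_isUnit (isUnit_of_dvd_unit hdvd h1)
  rcases hmode with ⟨rfl, hcase⟩ | ⟨rfl, hNu, ⟨z, hz⟩, hxm⟩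
  · have hcase' : ¬ (⟨πL O K1 ρ hρ, S.π_mem⟩ : ↥(OL O K1)) ∣ 2 ∨
        (¬ (⟨πL O K1 ρ hρ, S.π_mem⟩ : ↥(OL O K1)) ∣ 3 ∧
          ∃ w : ↥(OL O K1), w ^ 2 + w + 1 = 0) := by
      rcases hcase with h2 | ⟨h3, w, hw⟩
      · left
        have := hunit 2 (by exact_mod_cast h2)
        exact_mod_cast this
      · right
        refine ⟨?_, e w, ?_⟩
        · have := hunit 3 (by exact_mod_cast h3)
          exact_mod_cast this
        · rw [← map_pow, ← map_add, ← map_one e, ← map_add, hw, map_zero]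
    letI iOLK : Algebra ↥(OL O K1) K1 := algOLK O K1
    haveI : IsFractionRing ↥(OL O K1) K1 := isFractionRing_OL_K1 O K1
    haveI : IsScalarTower ↥(OL O K1) K1 (F1T K1 N) := isScalarTower_OL_K1_F1 O K1 N
    exact Fermat.Agent.S18_helper17_PLUGGEN.S18B_IGat_chart0 (O := ↥(OL O K1)) (K1 := K1) N
      (A := ↥A) emb (⟨πL O K1 ρ hρ, S.π_mem⟩ : ↥(OL O K1)) hπirr hcase'
      (⟨jqModC K1, hxA⟩ : ↥A) rfl hA' (⟨Vel, hVel⟩ : ↥A) P₀ hmon hP₀V hVgen hsep m hm hπm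
  · have hNu' : IsUnit ((N : ℕ) : ↥(OL O K1)) := by
      have := hNu.map (e : O →+* ↥(OL O K1))
      rwa [map_natCast] at this
    have hz' : IsPrimitiveRoot (e z) N := hz.map_of_injective e.injective
    letI iOLK : Algebra ↥(OL O K1) K1 := algOLK O K1
    haveI : IsFractionRing ↥(OL O K1) K1 := isFractionRing_OL_K1 O K1
    haveI : IsScalarTower ↥(OL O K1) K1 (F1T K1 N) := isScalarTower_OL_K1_F1 O K1 N
    exact Fermat.Agent.S18_helper17_PLUGGEN.S18B_IGat_cusp (O := ↥(OL O K1)) (K1 := K1) N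
      (A := ↥A) emb (⟨πL O K1 ρ hρ, S.π_mem⟩ : ↥(OL O K1)) hπirr hNu' (e z) hz'
      (⟨(jqModC K1)⁻¹, hxA⟩ : ↥A) rfl hA' (⟨Vel, hVel⟩ : ↥A) P₀ hmon hP₀V hVgen hsep m hm hπm hxm

open Fermat.Agent.S18_helper18_IGINFL

/-- **`[IG]` at every maximal ideal of the finite chart.** -/
theorem IGatAll_A0 (hρs : Function.Surjective ρ) (emb : K1 →+* AlgebraicClosure ℚ)
    (S : Setup (OL O K1) (πL O K1 ρ hρ) (jqModC K1) (F1L K1 N) (VL O K1 ρ hρ N)
      (A0L O K1 N) (AinfL O K1 N))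
    (hcase : IsUnit (2 : O) ∨ (IsUnit (3 : O) ∧ ∃ w : O, w ^ 2 + w + 1 = 0)) :
    S18IGINFL_IGatAll (πL O K1 ρ hρ) (A0L O K1 N) :=
  fun hπ m hm hπm =>
    IGat_gen ρ hρ N hρs emb S (jqModC K1) (Or.inl rfl) (A0L O K1 N) S.chart0 hπ
      (Fermat.Agent.S18_helper1_AIVC.S18AIVC_x_mem S.chart0 S.j_mem) m hm hπm
      (Or.inl ⟨rfl, hcase⟩)

/-- **`[IG]` at the cusps of the chart at infinity.** -/
theorem CuspIG_Ainf (hρs : Function.Surjective ρ) (emb : K1 →+* AlgebraicClosure ℚ)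
    (S : Setup (OL O K1) (πL O K1 ρ hρ) (jqModC K1) (F1L K1 N) (VL O K1 ρ hρ N)
      (A0L O K1 N) (AinfL O K1 N))
    (hNu : IsUnit ((N : ℕ) : O)) (hz : ∃ z : O, IsPrimitiveRoot z N) :
    S18IGINFL_CuspIG (πL O K1 ρ hρ) (jqModC K1) (AinfL O K1 N) :=
  fun hπ hj m hm hπm hjm =>
    IGat_gen ρ hρ N hρs emb S (jqModC K1)⁻¹ (Or.inr rfl) (AinfL O K1 N) S.chartInf hπ hj m hm
      hπm (Or.inr ⟨rfl, hNu, hz, hjm⟩)

/-- **Block B for the abstract carriers of block A.** -/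
theorem blockB_abs (ℓ : ℕ) [Fact ℓ.Prime] [Algebra.IsAlgebraic ℚ K1] [CharP k ℓ]
    (hρs : Function.Surjective ρ) (emb : K1 →+* AlgebraicClosure ℚ) (hℓN : ¬ ℓ ∣ N)
    (hcase : IsUnit (2 : O) ∨ (IsUnit (3 : O) ∧ ∃ w : O, w ^ 2 + w + 1 = 0))
    (hNu : IsUnit ((N : ℕ) : O)) (hz : ∃ z : O, IsPrimitiveRoot z N) :
    IG (πL O K1 ρ hρ) (A0L O K1 N) ∧ IG (πL O K1 ρ hρ) (AinfL O K1 N) := by
  have S := setup N ℓ (O := O) (K1 := K1) ρ hρ hℓN
  exact S18IGINFL_IG_both N ℓ ρ hρ hρs hℓN (IGatAll_A0 ρ hρ N hρs emb S hcase)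
    (CuspIG_Ainf ρ hρ N hρs emb S hNu hz)

end Fermat.Agent.S18BP
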