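import Mathlib

set_option linter.style.haveILetI false

/-!
# S18, abstract piece P9 (route #713, block B7): the algebra behind the norm trick

A finite group `G` acts on a commutative ring `B` (not necessarily a domain: a finite product of
Dedekind domains in the application) and `A → B` identifies `A` with the invariants.
For a maximal ideal `Q'` of `B` with residue field `A / Q`, `Q = Q' ∩ A`, and a local generator
`u` of `Q'` which avoids the other conjugates of `Q'`, the norm `∏ g, g • u` is a uniformiser of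
`A` at `Q`: it lies in `Q` and not in `Q ^ 2`.

Mathlib only.
-/

namespace Fermat.Agent.S18_helper15_GRPNORM

open scoped Pointwise

/-! ### The norm -/

section Norm

variable {B G : Type*} [CommRing B] [Group G] [Fintype G] [MulSemiringAction G B]

/-- The norm `∏ g, g • u`. -/
noncomputable def S18P9_norm (G : Type*) {B : Type*} [Group G] [Fintype G] [CommRing B]
    [MulSemiringAction G B] (u : B) : B :=
  ∏ g : G, g • u

theorem S18P9_norm_def (u : B) : S18P9_norm G u = ∏ g : G, g • u := rfl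

theorem S18P9_smul_norm (h : G) (u : B) : h • S18P9_norm G u = S18P9_norm G u := by
  unfold S18P9_norm
  rw [Finset.smul_prod']
  simp only [smul_smul]
  exact Fintype.prod_equiv (Equiv.mulLeft h) _ _ (fun g => rfl)

theorem S18P9_norm_mem_range {A : Type*} [CommRing A] [Algebra A B] [Algebra.IsInvariant A B G]
    (u : B) : ∃ a : A, algebraMap A B a = S18P9_norm G u :=
  Algebra.IsInvariant.isInvariant (A := A) (G := G) _ (fun g => S18P9_smul_norm g u)

theorem S18P9_norm_mem_iff (P : Ideal B) [P.IsPrime] (u : B) :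
    S18P9_norm G u ∈ P ↔ ∃ g : G, u ∈ g • P := by
  unfold S18P9_norm
  rw [Ideal.IsPrime.prod_mem_iff]
  constructor
  · rintro ⟨g, -, hg⟩
    refine ⟨g⁻¹, ?_⟩
    rw [Ideal.mem_pointwise_smul_iff_inv_smul_mem, inv_inv]
    exact hg
  · rintro ⟨g, hg⟩
    refine ⟨g⁻¹, Finset.mem_univ _, ?_⟩
    rwa [Ideal.mem_pointwise_smul_iff_inv_smul_mem] at hg

end Norm

/-! ### Order at a maximal ideal with principal cotangent space -/

section Ord

variable {B : Type*} [CommRing B]

/-- `x` has order exactly `n` at `M`. -/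
def S18P9_HasOrd (M : Ideal B) (x : B) (n : ℕ) : Prop :=
  x ∈ M ^ n ∧ x ∉ M ^ (n + 1)

theorem S18P9_pow_le_span_pow_sup (M : Ideal B) (u : B) (hu : u ∈ M)
    (hgen : M ≤ Ideal.span {u} ⊔ M ^ 2) (n : ℕ) :
    M ^ n ≤ Ideal.span {u ^ n} ⊔ M ^ (n + 1) := by
  induction n with
  | zero => simp
  | succ n ih =>
    have hun : Ideal.span {u ^ n} ≤ M ^ n := by
      rw [Ideal.span_singleton_le_iff_mem]
      exact Ideal.pow_mem_pow hu n
    calc M ^ (n + 1) = M ^ n * M := pow_succ M n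
      _ ≤ (Ideal.span {u ^ n} ⊔ M ^ (n + 1)) * M := Ideal.mul_mono_left ih
      _ = Ideal.span {u ^ n} * M ⊔ M ^ (n + 1) * M := Ideal.sup_mul _ _ _
      _ ≤ Ideal.span {u ^ n} * (Ideal.span {u} ⊔ M ^ 2) ⊔ M ^ (n + 1) * M :=
          sup_le_sup_right (Ideal.mul_mono_right hgen) _
      _ = (Ideal.span {u ^ n} * Ideal.span {u} ⊔ Ideal.span {u ^ n} * M ^ 2) ⊔ M ^ (n + 1) * M := by
          rw [Ideal.mul_sup]
      _ ≤ Ideal.span {u ^ (n + 1)} ⊔ M ^ (n + 1 + 1) := by
          refine sup_le (sup_le ?_ ?_) ?_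
          · rw [Ideal.span_singleton_mul_span_singleton, ← pow_succ]
            exact le_sup_left
          · refine le_trans (Ideal.mul_mono_left hun) ?_
            rw [← pow_add]
            exact le_sup_right
          · rw [← pow_succ]
            exact le_sup_right

theorem S18P9_mem_pow_of_mul_mem (M : Ideal B) [M.IsMaximal] {c x : B} (hc : c ∉ M) (n : ℕ)
    (h : c * x ∈ M ^ n) : x ∈ M ^ n := by
  rcases Nat.eq_zero_or_pos n with rfl | hn
  · simp
  have hrad : (M ^ n).radical = M := by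
    rw [Ideal.radical_pow M hn.ne']
    exact Ideal.IsPrime.radical inferInstance
  have hprim : (M ^ n).IsPrimary :=
    Ideal.isPrimary_of_isMaximal_radical (by rw [hrad]; infer_instance)
  rcases (Ideal.isPrimary_iff.mp hprim).2 (show x * c ∈ M ^ n by rwa [mul_comm]) with h1 | h1
  · exact h1
  · rw [hrad] at h1
    exact absurd h1 hc

/-- Decomposition of an element of `M ^ n`. -/
theorem S18P9_exists_eq_mul_pow_add (M : Ideal B) (u : B) (hu : u ∈ M)
    (hgen : M ≤ Ideal.span {u} ⊔ M ^ 2) (n : ℕ) {x : B} (hx : x ∈ M ^ n) :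
    ∃ c z : B, z ∈ M ^ (n + 1) ∧ x = c * u ^ n + z := by
  have h := S18P9_pow_le_span_pow_sup M u hu hgen n hx
  obtain ⟨y, hy, z, hz, rfl⟩ := Submodule.mem_sup.mp h
  obtain ⟨c, rfl⟩ := Ideal.mem_span_singleton'.mp hy
  exact ⟨c, z, hz, rfl⟩

theorem S18P9_hasOrd_mul (M : Ideal B) [M.IsMaximal] (u : B) (hu : u ∈ M)
    (hgen : M ≤ Ideal.span {u} ⊔ M ^ 2) (hord : ∀ n : ℕ, u ^ n ∉ M ^ (n + 1))
    {x y : B} {a b : ℕ} (hx : S18P9_HasOrd M x a) (hy : S18P9_HasOrd M y b) :
    S18P9_HasOrd M (x * y) (a + b) := by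
  refine ⟨?_, fun hxy => ?_⟩
  · rw [pow_add]
    exact Ideal.mul_mem_mul hx.1 hy.1
  obtain ⟨c, z, hz, rfl⟩ := S18P9_exists_eq_mul_pow_add M u hu hgen a hx.1
  obtain ⟨c', z', hz', rfl⟩ := S18P9_exists_eq_mul_pow_add M u hu hgen b hy.1
  have hua : u ^ a ∈ M ^ a := Ideal.pow_mem_pow hu a
  have hub : u ^ b ∈ M ^ b := Ideal.pow_mem_pow hu b
  have hc : c ∉ M := by
    intro hc
    apply hx.2
    refine Ideal.add_mem _ ?_ hz
    rw [pow_succ']
    exact Ideal.mul_mem_mul hc hua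
  have hc' : c' ∉ M := by
    intro hc'
    apply hy.2
    refine Ideal.add_mem _ ?_ hz'
    rw [pow_succ']
    exact Ideal.mul_mem_mul hc' hub
  have hcc : c * c' ∉ M := fun h =>
    (Ideal.IsPrime.mem_or_mem inferInstance h).elim hc hc'
  have hrest : c * u ^ a * z' + z * (c' * u ^ b) + z * z' ∈ M ^ (a + b + 1) := by
    refine Ideal.add_mem _ (Ideal.add_mem _ ?_ ?_) ?_
    · have : c * u ^ a * z' ∈ M ^ a * M ^ (b + 1) :=
        Ideal.mul_mem_mul (Ideal.mul_mem_left _ _ hua) hz'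
      rwa [← pow_add, ← add_assoc] at this
    · have : z * (c' * u ^ b) ∈ M ^ (a + 1) * M ^ b :=
        Ideal.mul_mem_mul hz (Ideal.mul_mem_left _ _ hub)
      rwa [← pow_add, show a + 1 + b = a + b + 1 by ring] at this
    · have : z * z' ∈ M ^ (a + 1) * M ^ (b + 1) := Ideal.mul_mem_mul hz hz'
      rw [← pow_add] at this
      exact Ideal.pow_le_pow_right (by omega) this
  have hmain : c * c' * u ^ (a + b) ∈ M ^ (a + b + 1) := by
    have : c * c' * u ^ (a + b) =
        (c * u ^ a + z) * (c' * u ^ b + z') - (c * u ^ a * z' + z * (c' * u ^ b) + z * z') := by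
      ring
    rw [this]
    exact Ideal.sub_mem _ hxy hrest
  exact hord (a + b) (S18P9_mem_pow_of_mul_mem M hcc _ hmain)

theorem S18P9_hasOrd_zero_of_not_mem (M : Ideal B) {x : B} (hx : x ∉ M) : S18P9_HasOrd M x 0 := by
  refine ⟨by simp, ?_⟩
  simpa using hx

theorem S18P9_hasOrd_one_of_gen (M : Ideal B) [M.IsMaximal] (u : B) (hu1 : u ∉ M ^ 2)
    {v : B} (hv : v ∈ M) (hgenv : M ≤ Ideal.span {v} ⊔ M ^ 2) (hu : u ∈ M) :
    S18P9_HasOrd M v 1 := by
  refine ⟨by simpa using hv, fun hv2 => hu1 ?_⟩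
  have : M ≤ M ^ 2 := by
    refine hgenv.trans (sup_le ?_ le_rfl)
    rw [Ideal.span_singleton_le_iff_mem]
    simpa using hv2
  exact this hu

/-- Order of a finite product. -/
theorem S18P9_hasOrd_prod (M : Ideal B) [M.IsMaximal] (u : B) (hu : u ∈ M)
    (hgen : M ≤ Ideal.span {u} ⊔ M ^ 2) (hord : ∀ n : ℕ, u ^ n ∉ M ^ (n + 1))
    {ι : Type*} (s : Finset ι) (f : ι → B) (n : ι → ℕ)
    (h : ∀ i ∈ s, S18P9_HasOrd M (f i) (n i)) :
    S18P9_HasOrd M (∏ i ∈ s, f i) (∑ i ∈ s, n i) := by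
  classical
  induction s using Finset.induction with
  | empty =>
    simp only [Finset.prod_empty, Finset.sum_empty]
    exact S18P9_hasOrd_zero_of_not_mem M (fun h1 => (Ideal.IsPrime.ne_top inferInstance)
      ((Ideal.eq_top_iff_one M).mpr h1))
  | insert a s ha ih =>
    rw [Finset.prod_insert ha, Finset.sum_insert ha]
    exact S18P9_hasOrd_mul M u hu hgen hord (h a (Finset.mem_insert_self a s))
      (ih (fun i hi => h i (Finset.mem_insert_of_mem hi)))

end Ord


/-! ### Transport of ideals under the group action -/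

section Transport

variable {B G : Type*} [CommRing B] [Group G] [MulSemiringAction G B]

theorem S18P9_smul_sup (g : G) (J K : Ideal B) : g • (J ⊔ K) = g • J ⊔ g • K := by
  simp only [Ideal.pointwise_smul_def, Ideal.map_sup]

theorem S18P9_smul_pow (g : G) (J : Ideal B) (n : ℕ) : g • (J ^ n) = (g • J) ^ n := by
  simp only [Ideal.pointwise_smul_def, Ideal.map_pow]

theorem S18P9_smul_span_singleton (g : G) (x : B) :
    g • (Ideal.span {x} : Ideal B) = Ideal.span {g • x} := by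
  simp only [Ideal.pointwise_smul_def, Ideal.map_span, Set.image_singleton,
    MulSemiringAction.toRingHom_apply]

theorem S18P9_smul_le_smul (g : G) {J K : Ideal B} (h : J ≤ K) : g • J ≤ g • K := by
  simp only [Ideal.pointwise_smul_def]
  exact Ideal.map_mono h

theorem S18P9_smul_map_algebraMap {A : Type*} [CommRing A] [Algebra A B] [SMulCommClass G A B]
    (g : G) (Q : Ideal A) :
    g • (Q.map (algebraMap A B)) = Q.map (algebraMap A B) := by
  rw [Ideal.pointwise_smul_def, Ideal.map_map]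
  congr 1
  ext a
  simp only [RingHom.coe_comp, Function.comp_apply, MulSemiringAction.toRingHom_apply]
  exact smul_algebraMap g a

theorem S18P9_smul_isMaximal (g : G) (M : Ideal B) [hM : M.IsMaximal] : (g • M).IsMaximal := by
  rw [Ideal.pointwise_smul_def]
  exact Ideal.map_isMaximal_of_equiv (MulSemiringAction.toRingEquiv G B g)

end Transport

/-! ### The order of the norm at `Q'` -/

section NormOrd

variable {B G : Type*} [CommRing B] [Group G] [Fintype G] [MulSemiringAction G B]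

theorem S18P9_hasOrd_norm (Q' : Ideal B) [Q'.IsMaximal] (u : B) (hu : u ∈ Q')
    (hgen : Q' ≤ Ideal.span {u} ⊔ Q' ^ 2)
    (havoid : ∀ g : G, g • Q' ≠ Q' → u ∉ g • Q')
    (hord : ∀ n : ℕ, u ^ n ∉ Q' ^ (n + 1)) :
    S18P9_HasOrd Q' (S18P9_norm G u) (Nat.card (MulAction.stabilizer G Q')) := by
  classical
  have hu1 : u ∉ Q' ^ 2 := by simpa using hord 1
  have key := S18P9_hasOrd_prod Q' u hu hgen hord (Finset.univ : Finset G) (fun g => g • u)
    (fun g => if g • Q' = Q' then 1 else 0) (by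
      intro g _
      by_cases hg : g • Q' = Q'
      · simp only [hg, if_true]
        have hgu : g • u ∈ Q' := by
          have : g • u ∈ g • Q' := Ideal.smul_mem_pointwise_smul_iff.mpr hu
          rwa [hg] at this
        refine S18P9_hasOrd_one_of_gen Q' u hu1 hgu ?_ hu
        have := S18P9_smul_le_smul g hgen
        rwa [S18P9_smul_sup, S18P9_smul_pow, S18P9_smul_span_singleton, hg] at this
      · simp only [hg, if_false]
        refine S18P9_hasOrd_zero_of_not_mem Q' (fun hgu => ?_)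
        have hg' : g⁻¹ • Q' ≠ Q' := by
          intro h
          apply hg
          rw [← h, smul_inv_smul, h]
        apply havoid g⁻¹ hg'
        rw [Ideal.mem_pointwise_smul_iff_inv_smul_mem, inv_inv]
        exact hgu)
  have hsum : (∑ g : G, if g • Q' = Q' then 1 else 0) =
      Nat.card (MulAction.stabilizer G Q') := by
    rw [Finset.sum_boole, Nat.card_eq_fintype_card, Fintype.card_subtype]
    simp only [MulAction.mem_stabilizer_iff, Nat.cast_id]
  rw [hsum] at key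
  exact key

end NormOrd


/-! ### Local structure modulo powers of a maximal ideal -/

section Local

variable {A B : Type*} [CommRing A] [CommRing B] [Algebra A B]

/-- Every element of `B` is an `A`-combination of `1, v, …, v ^ (n - 1)` modulo `M ^ n`. -/
theorem S18P9_exists_sum_pow (M : Ideal B) (v : B) (hv : v ∈ M)
    (hgen : M ≤ Ideal.span {v} ⊔ M ^ 2)
    (hres : ∀ b : B, ∃ a : A, b - algebraMap A B a ∈ M) (n : ℕ) (x : B) :
    ∃ a : Fin n → A, x - ∑ j : Fin n, algebraMap A B (a j) * v ^ (j : ℕ) ∈ M ^ n := by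
  induction n with
  | zero => exact ⟨fun _ => 0, by simp⟩
  | succ n ih =>
    obtain ⟨a, ha⟩ := ih
    obtain ⟨c, z, hz, hcz⟩ := S18P9_exists_eq_mul_pow_add M v hv hgen n ha
    obtain ⟨an, han⟩ := hres c
    refine ⟨Fin.snoc a an, ?_⟩
    rw [Fin.sum_univ_castSucc]
    simp only [Fin.snoc_castSucc, Fin.snoc_last, Fin.val_castSucc, Fin.val_last]
    have : x - (∑ j : Fin n, algebraMap A B (a j) * v ^ (j : ℕ) + algebraMap A B an * v ^ n) =
        (c - algebraMap A B an) * v ^ n + z := by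
      have h1 : x = ∑ j : Fin n, algebraMap A B (a j) * v ^ (j : ℕ) + (c * v ^ n + z) := by
        rw [← hcz]; ring
      rw [h1]; ring
    rw [this]
    refine Ideal.add_mem _ ?_ hz
    rw [pow_succ']
    exact Ideal.mul_mem_mul han (Ideal.pow_mem_pow hv n)

theorem S18P9_stab (Q' : Ideal B) [Q'.IsMaximal] (u : B) (hu : u ∈ Q')
    (hgen : Q' ≤ Ideal.span {u} ⊔ Q' ^ 2) (I : Ideal B) (s : ℕ) (h : ¬ I ≤ Q' ^ s) :
    ∃ i, i < s ∧ Q' ^ i ≤ I ⊔ Q' ^ (i + 1) := by
  classical
  have hex : ∃ j, ¬ I ≤ Q' ^ j := ⟨s, h⟩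
  set j₀ := Nat.find hex with hj₀
  have hj₀s : j₀ ≤ s := Nat.find_min' hex h
  have hj₀P : ¬ I ≤ Q' ^ j₀ := Nat.find_spec hex
  have hj₀0 : j₀ ≠ 0 := by
    intro h0
    apply hj₀P
    rw [h0, pow_zero, Ideal.one_eq_top]
    exact le_top
  obtain ⟨i, hi⟩ := Nat.exists_eq_succ_of_ne_zero hj₀0
  have hIi : I ≤ Q' ^ i := by
    by_contra hcon
    have := Nat.find_min' hex hcon
    omega
  refine ⟨i, by omega, ?_⟩
  rw [hi] at hj₀P
  obtain ⟨x, hxI, hx⟩ := SetLike.not_le_iff_exists.mp hj₀P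
  obtain ⟨c, z, hz, hcz⟩ := S18P9_exists_eq_mul_pow_add Q' u hu hgen i (hIi hxI)
  have hc : c ∉ Q' := by
    intro hc
    apply hx
    rw [hcz]
    refine Ideal.add_mem _ ?_ hz
    rw [Nat.succ_eq_add_one, pow_succ']
    exact Ideal.mul_mem_mul hc (Ideal.pow_mem_pow hu i)
  obtain ⟨d, m, hm, hdm⟩ := Ideal.IsMaximal.exists_inv (I := Q') inferInstance hc
  have hui : u ^ i ∈ I ⊔ Q' ^ (i + 1) := by
    have : u ^ i = d * x + (m * u ^ i - d * z) := by
      have h1 : u ^ i = (d * c + m) * u ^ i := by rw [hdm, one_mul]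
      rw [hcz]
      linear_combination h1
    rw [this]
    refine Submodule.add_mem_sup (Ideal.mul_mem_left _ _ hxI) ?_
    refine Ideal.sub_mem _ ?_ (Ideal.mul_mem_left _ _ hz)
    rw [pow_succ']
    exact Ideal.mul_mem_mul hm (Ideal.pow_mem_pow hu i)
  refine (S18P9_pow_le_span_pow_sup Q' u hu hgen i).trans (sup_le ?_ le_sup_right)
  rw [Ideal.span_singleton_le_iff_mem]
  exact hui

theorem S18P9_stab_all (Q' I : Ideal B) (i : ℕ) (h : Q' ^ i ≤ I ⊔ Q' ^ (i + 1)) (m : ℕ) :
    Q' ^ i ≤ I ⊔ Q' ^ m := by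
  induction m with
  | zero => simp
  | succ m ih =>
    rcases Nat.lt_or_ge m i with hmi | hmi
    · exact (Ideal.pow_le_pow_right (by omega)).trans le_sup_right
    · have h1 : Q' ^ (i + 1) ≤ I ⊔ Q' ^ (m + 1) := by
        calc Q' ^ (i + 1) = Q' ^ i * Q' := pow_succ _ _
          _ ≤ (I ⊔ Q' ^ m) * Q' := Ideal.mul_mono_left ih
          _ = I * Q' ⊔ Q' ^ m * Q' := Ideal.sup_mul _ _ _
          _ ≤ I ⊔ Q' ^ (m + 1) := by
              refine sup_le_sup Ideal.mul_le_left ?_
              rw [← pow_succ]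
      exact h.trans (sup_le le_sup_left h1)

end Local


/-! ### Counting: the ramification index is at least the order of the stabiliser -/

section Count

variable {A B G : Type*} [CommRing A] [CommRing B] [Algebra A B] [Group G] [Fintype G]
  [MulSemiringAction G B] [SMulCommClass G A B] [Algebra.IsInvariant A B G]

/-- Every prime of `B` containing `Q B` is a conjugate of `Q'`. -/
theorem S18P9_exists_smul_eq (Q : Ideal A) [Q.IsMaximal] (Q' : Ideal B) [Q'.IsPrime]
    (hQ : Q'.comap (algebraMap A B) = Q) (P : Ideal B) [P.IsPrime]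
    (hP : Q.map (algebraMap A B) ≤ P) : ∃ g : G, P = g • Q' := by
  have h1 : Q ≤ P.comap (algebraMap A B) :=
    Ideal.le_comap_map.trans (Ideal.comap_mono hP)
  have h2 : Q = P.comap (algebraMap A B) :=
    Ideal.IsMaximal.eq_of_le inferInstance (Ideal.IsPrime.ne_top (Ideal.comap_isPrime _ P)) h1
  exact Algebra.IsInvariant.exists_smul_of_under_eq A B G Q' P (by
    rw [Ideal.under_def, Ideal.under_def, hQ, h2])

theorem S18P9_exists_pow_le (Q : Ideal A) [Q.IsMaximal] (Q' : Ideal B) [Q'.IsPrime]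
    (hQ : Q'.comap (algebraMap A B) = Q)
    [Module.Finite (A ⧸ Q) (B ⧸ Q.map (algebraMap A B))] :
    ∃ N : ℕ, (⨅ g : G, g • Q') ^ N ≤ Q.map (algebraMap A B) := by
  classical
  letI : Field (A ⧸ Q) := Ideal.Quotient.field Q
  set I := Q.map (algebraMap A B) with hI
  haveI : IsArtinianRing (B ⧸ I) := IsArtinianRing.of_finite (A ⧸ Q) (B ⧸ I)
  obtain ⟨N, hN⟩ := IsArtinianRing.isNilpotent_jacobson_bot (R := B ⧸ I)
  refine ⟨N, ?_⟩
  have hle : (⨅ g : G, g • Q').map (Ideal.Quotient.mk I) ≤ Ideal.jacobson ⊥ := by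
    rw [Ideal.jacobson]
    refine le_sInf ?_
    rintro 𝔫 ⟨-, h𝔫⟩
    haveI := h𝔫
    haveI : (𝔫.comap (Ideal.Quotient.mk I)).IsPrime := Ideal.comap_isPrime _ _
    have hIP : I ≤ 𝔫.comap (Ideal.Quotient.mk I) := by
      intro x hx
      rw [Ideal.mem_comap, Ideal.Quotient.eq_zero_iff_mem.mpr hx]
      exact 𝔫.zero_mem
    obtain ⟨g, hg⟩ := S18P9_exists_smul_eq (G := G) Q Q' hQ _ hIP
    rw [Ideal.map_le_iff_le_comap, hg]
    exact iInf_le _ g
  have h3 : ((⨅ g : G, g • Q') ^ N).map (Ideal.Quotient.mk I) = ⊥ := by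
    rw [Ideal.map_pow, eq_bot_iff]
    calc (Ideal.map (Ideal.Quotient.mk I) (⨅ g : G, g • Q')) ^ N
        ≤ (Ideal.jacobson ⊥) ^ N := Ideal.pow_right_mono hle N
      _ = ⊥ := by rw [hN]; rfl
  rw [Ideal.map_eq_bot_iff_le_ker, Ideal.mk_ker] at h3
  exact h3

/-- Codimension of the image of `M ^ n` in `B / Q B`. -/
theorem S18P9_finrank_quot_le (Q : Ideal A) [Q.IsMaximal] (M : Ideal B) (v : B) (hv : v ∈ M)
    (hgen : M ≤ Ideal.span {v} ⊔ M ^ 2)
    (hres : ∀ b : B, ∃ a : A, b - algebraMap A B a ∈ M) (n : ℕ) :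
    Module.finrank (A ⧸ Q) ((B ⧸ Q.map (algebraMap A B)) ⧸
      (((M ^ n).map (Ideal.Quotient.mk (Q.map (algebraMap A B)))).restrictScalars (A ⧸ Q))) ≤ n := by
  classical
  letI : Field (A ⧸ Q) := Ideal.Quotient.field Q
  set I := Q.map (algebraMap A B) with hI
  set W : Submodule (A ⧸ Q) (B ⧸ I) :=
    ((M ^ n).map (Ideal.Quotient.mk I)).restrictScalars (A ⧸ Q) with hW
  have hspan : Submodule.span (A ⧸ Q)
      (Set.range (fun j : Fin n => W.mkQ (Ideal.Quotient.mk I (v ^ (j : ℕ))))) = ⊤ := by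
    rw [eq_top_iff]
    rintro y -
    obtain ⟨y', rfl⟩ := W.mkQ_surjective y
    obtain ⟨x, rfl⟩ := Ideal.Quotient.mk_surjective y'
    obtain ⟨a, ha⟩ := S18P9_exists_sum_pow (A := A) M v hv hgen hres n x
    have hx : x = ∑ j : Fin n, algebraMap A B (a j) * v ^ (j : ℕ) +
        (x - ∑ j : Fin n, algebraMap A B (a j) * v ^ (j : ℕ)) := by ring
    have hr : W.mkQ (Ideal.Quotient.mk I (x - ∑ j : Fin n, algebraMap A B (a j) * v ^ (j : ℕ))) = 0 := by
      rw [Submodule.mkQ_apply, Submodule.Quotient.mk_eq_zero]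
      exact Ideal.mem_map_of_mem _ ha
    rw [hx, map_add, map_add, hr, add_zero, map_sum, map_sum]
    refine Submodule.sum_mem _ (fun j _ => ?_)
    have : Ideal.Quotient.mk I (algebraMap A B (a j) * v ^ (j : ℕ)) =
        (Ideal.Quotient.mk Q (a j)) • Ideal.Quotient.mk I (v ^ (j : ℕ)) := by
      rw [Ideal.Quotient.mk_smul_mk_quotient_map_quotient]
    rw [this, map_smul]
    exact Submodule.smul_mem _ _ (Submodule.subset_span ⟨j, rfl⟩)
  have := finrank_le_of_span_eq_top hspan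
  simpa using this


theorem S18P9_prod_sup_le {ι : Type*} (I : Ideal B) (O : Finset ι) (f : ι → Ideal B) :
    ∏ M ∈ O, (I ⊔ f M) ≤ I ⊔ ∏ M ∈ O, f M := by
  classical
  induction O using Finset.induction with
  | empty => simp
  | insert a O ha ih =>
    rw [Finset.prod_insert ha, Finset.prod_insert ha]
    calc (I ⊔ f a) * ∏ M ∈ O, (I ⊔ f M) ≤ (I ⊔ f a) * (I ⊔ ∏ M ∈ O, f M) :=
          Ideal.mul_mono_right ih
      _ = I * (I ⊔ ∏ M ∈ O, f M) ⊔ f a * (I ⊔ ∏ M ∈ O, f M) := Ideal.sup_mul _ _ _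
      _ ≤ I ⊔ f a * ∏ M ∈ O, f M := by
          have h1 : I * (I ⊔ ∏ M ∈ O, f M) ≤ I := Ideal.mul_le_left
          have h2 : f a * I ≤ I := Ideal.mul_le_right
          refine sup_le (h1.trans le_sup_left) ?_
          rw [Ideal.mul_sup]
          exact sup_le (h2.trans le_sup_left) le_sup_right

theorem S18P9_map_le_pow_card_stabilizer (Q : Ideal A) [Q.IsMaximal] (Q' : Ideal B)
    [Q'.IsMaximal] (hQ : Q'.comap (algebraMap A B) = Q)
    (hres : ∀ b : B, ∃ a : A, b - algebraMap A B a ∈ Q')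
    [Module.Finite (A ⧸ Q) (B ⧸ Q.map (algebraMap A B))]
    (hrank : Fintype.card G ≤ Module.finrank (A ⧸ Q) (B ⧸ Q.map (algebraMap A B)))
    (u : B) (hu : u ∈ Q') (hgen : Q' ≤ Ideal.span {u} ⊔ Q' ^ 2) :
    Q.map (algebraMap A B) ≤ Q' ^ Nat.card (MulAction.stabilizer G Q') := by
  classical
  by_contra hcon
  letI : Field (A ⧸ Q) := Ideal.Quotient.field Q
  set I := Q.map (algebraMap A B) with hI
  set s := Nat.card (MulAction.stabilizer G Q') with hs
  have hs1 : 1 ≤ s := Nat.card_pos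
  obtain ⟨i, his, hi⟩ := S18P9_stab Q' u hu hgen I s hcon
  have hstab : ∀ m, Q' ^ (s - 1) ≤ I ⊔ Q' ^ m := fun m =>
    (Ideal.pow_le_pow_right (by omega)).trans (S18P9_stab_all Q' I i hi m)
  obtain ⟨N, hN⟩ := S18P9_exists_pow_le (G := G) Q Q' hQ
  have hstabg : ∀ g : G, (g • Q') ^ (s - 1) ≤ I ⊔ (g • Q') ^ N := by
    intro g
    have := S18P9_smul_le_smul g (hstab N)
    rwa [S18P9_smul_sup, S18P9_smul_pow, S18P9_smul_pow, hI, S18P9_smul_map_algebraMap] at this
  set O : Finset (Ideal B) := Finset.univ.image (fun g : G => g • Q') with hO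
  have hOmem : ∀ M ∈ O, ∃ g : G, g • Q' = M := by
    intro M hM
    simpa [hO] using hM
  have hmax : ∀ M ∈ O, M.IsMaximal := by
    intro M hM
    obtain ⟨g, rfl⟩ := hOmem M hM
    exact S18P9_smul_isMaximal g Q'
  -- the intersection is contained in `I`
  have hcop : (O : Set (Ideal B)).Pairwise (Function.onFun IsCoprime fun M => I ⊔ M ^ N) := by
    intro M hM M' hM' hne
    haveI := hmax M hM
    haveI := hmax M' hM'
    show IsCoprime (I ⊔ M ^ N) (I ⊔ M' ^ N)
    rw [Ideal.isCoprime_iff_sup_eq, eq_top_iff]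
    have h1 : M ⊔ M' = ⊤ := Ideal.IsMaximal.coprime_of_ne inferInstance inferInstance hne
    have h2 : M ^ N ⊔ M' ^ N = ⊤ := Ideal.pow_sup_pow_eq_top h1
    rw [← h2]
    exact sup_le_sup le_sup_right le_sup_right
  have hint : ⨅ M ∈ O, (I ⊔ M ^ (s - 1)) ≤ I := by
    calc ⨅ M ∈ O, (I ⊔ M ^ (s - 1)) ≤ ⨅ M ∈ O, (I ⊔ M ^ N) := by
          refine iInf₂_mono (fun M hM => ?_)
          obtain ⟨g, rfl⟩ := hOmem M hM
          exact sup_le le_sup_left (hstabg g)
      _ = ∏ M ∈ O, (I ⊔ M ^ N) := (Ideal.prod_eq_iInf_of_pairwise_isCoprime hcop).symm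
      _ ≤ I ⊔ ∏ M ∈ O, M ^ N := S18P9_prod_sup_le I O _
      _ = I ⊔ (∏ M ∈ O, M) ^ N := by rw [Finset.prod_pow]
      _ ≤ I ⊔ (⨅ g : G, g • Q') ^ N := by
          refine sup_le_sup le_rfl (Ideal.pow_right_mono ?_ N)
          refine le_iInf (fun g => ?_)
          refine (Ideal.prod_le_inf (s := O) (f := fun M => M)).trans ?_
          exact Finset.inf_le (f := fun M : Ideal B => M)
            (Finset.mem_image_of_mem _ (Finset.mem_univ g))
      _ ≤ I := sup_le le_rfl hN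
  -- the subspaces
  set W : O → Submodule (A ⧸ Q) (B ⧸ I) := fun M =>
    (((M : Ideal B) ^ (s - 1)).map (Ideal.Quotient.mk I)).restrictScalars (A ⧸ Q) with hW
  have hdim : ∀ M : O, Module.finrank (A ⧸ Q) ((B ⧸ I) ⧸ W M) ≤ s - 1 := by
    rintro ⟨M, hM⟩
    obtain ⟨g, rfl⟩ := hOmem M hM
    refine S18P9_finrank_quot_le Q (g • Q') (g • u) (Ideal.smul_mem_pointwise_smul_iff.mpr hu)
      ?_ ?_ (s - 1)
    · have := S18P9_smul_le_smul g hgen
      rwa [S18P9_smul_sup, S18P9_smul_pow, S18P9_smul_span_singleton] at this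
    · intro b
      obtain ⟨a, ha⟩ := hres (g⁻¹ • b)
      refine ⟨a, ?_⟩
      rw [Ideal.mem_pointwise_smul_iff_inv_smul_mem, smul_sub, smul_algebraMap]
      exact ha
  set f : (B ⧸ I) →ₗ[A ⧸ Q] (∀ M : O, (B ⧸ I) ⧸ W M) :=
    LinearMap.pi (fun M => (W M).mkQ) with hf
  have hinj : Function.Injective f := by
    rw [← LinearMap.ker_eq_bot, eq_bot_iff]
    intro y hy
    rw [LinearMap.mem_ker] at hy
    obtain ⟨x, rfl⟩ := Ideal.Quotient.mk_surjective y
    have hx : x ∈ ⨅ M ∈ O, (I ⊔ M ^ (s - 1)) := by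
      simp only [Ideal.mem_iInf]
      intro M hM
      have h1 : (W ⟨M, hM⟩).mkQ (Ideal.Quotient.mk I x) = 0 := by
        have := congrFun hy ⟨M, hM⟩
        simpa [hf] using this
      rw [Submodule.mkQ_apply, Submodule.Quotient.mk_eq_zero] at h1
      have h2 : Ideal.Quotient.mk I x ∈ (M ^ (s - 1)).map (Ideal.Quotient.mk I) := h1
      rw [Ideal.mem_map_iff_of_surjective _ Ideal.Quotient.mk_surjective] at h2
      obtain ⟨x', hx', hxx'⟩ := h2
      have h3 : x - x' ∈ I := by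
        rw [← Ideal.Quotient.eq]
        exact hxx'.symm
      have : x = (x - x') + x' := by ring
      rw [this]
      exact Submodule.add_mem_sup h3 hx'
    rw [Submodule.mem_bot, Ideal.Quotient.eq_zero_iff_mem]
    exact hint hx
  have hfin1 : Module.finrank (A ⧸ Q) (B ⧸ I) ≤
      Module.finrank (A ⧸ Q) (∀ M : O, (B ⧸ I) ⧸ W M) :=
    LinearMap.finrank_le_finrank_of_injective hinj
  have hfin2 : Module.finrank (A ⧸ Q) (∀ M : O, (B ⧸ I) ⧸ W M) ≤ O.card * (s - 1) := by
    rw [Module.finrank_pi_fintype]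
    calc ∑ M : O, Module.finrank (A ⧸ Q) ((B ⧸ I) ⧸ W M) ≤ ∑ _M : O, (s - 1) :=
          Finset.sum_le_sum (fun M _ => hdim M)
      _ = O.card * (s - 1) := by simp
  have hcard : O.card * s = Fintype.card G := by
    have h1 : (MulAction.stabilizer G Q').index = O.card := by
      rw [MulAction.index_stabilizer]
      have : MulAction.orbit G Q' = (O : Set (Ideal B)) := by
        rw [hO, Finset.coe_image, Finset.coe_univ, Set.image_univ]
        rfl
      rw [this, Set.ncard_coe_finset]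
    have h2 := Subgroup.card_mul_index (MulAction.stabilizer G Q')
    rw [h1, Nat.card_eq_fintype_card (α := G)] at h2
    rw [← h2, mul_comm]
  have hOpos : 1 ≤ O.card := by
    rw [Nat.succ_le_iff, Finset.card_pos]
    exact ⟨(1 : G) • Q', Finset.mem_image_of_mem _ (Finset.mem_univ _)⟩
  have hlt : O.card * (s - 1) < O.card * s := by
    apply Nat.mul_lt_mul_of_pos_left <;> omega
  have hrank' : Fintype.card G ≤ Module.finrank (A ⧸ Q) (B ⧸ I) := hrank
  have hchain : Fintype.card G ≤ O.card * (s - 1) := hrank'.trans (hfin1.trans hfin2)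
  rw [← hcard] at hchain
  exact absurd hchain (not_le.mpr hlt)

/-- **The norm trick.** -/
theorem S18P9_norm_uniformizer (Q : Ideal A) [Q.IsMaximal] (Q' : Ideal B) [Q'.IsMaximal]
    (hQ : Q'.comap (algebraMap A B) = Q)
    (hres : ∀ b : B, ∃ a : A, b - algebraMap A B a ∈ Q')
    [Module.Finite (A ⧸ Q) (B ⧸ Q.map (algebraMap A B))]
    (hrank : Fintype.card G ≤ Module.finrank (A ⧸ Q) (B ⧸ Q.map (algebraMap A B)))
    (u : B) (hu : u ∈ Q') (hgen : Q' ≤ Ideal.span {u} ⊔ Q' ^ 2)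
    (havoid : ∀ g : G, g • Q' ≠ Q' → u ∉ g • Q')
    (hord : ∀ n : ℕ, u ^ n ∉ Q' ^ (n + 1)) :
    ∃ a : A, algebraMap A B a = S18P9_norm G u ∧ a ∈ Q ∧ a ∉ Q ^ 2 := by
  obtain ⟨a, ha⟩ := S18P9_norm_mem_range (A := A) (G := G) u
  have hordn := S18P9_hasOrd_norm Q' u hu hgen havoid hord
  have hle := S18P9_map_le_pow_card_stabilizer (G := G) Q Q' hQ hres hrank u hu hgen
  have hs1 : 1 ≤ Nat.card (MulAction.stabilizer G Q') := Nat.card_pos
  refine ⟨a, ha, ?_, fun ha2 => ?_⟩
  · rw [← hQ, Ideal.mem_comap, ha]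
    have h1 : Q' ^ Nat.card (MulAction.stabilizer G Q') ≤ Q' ^ 1 := Ideal.pow_le_pow_right hs1
    rw [pow_one] at h1
    exact h1 hordn.1
  · apply hordn.2
    rw [← ha]
    have h1 : algebraMap A B a ∈ (Q ^ 2).map (algebraMap A B) := Ideal.mem_map_of_mem _ ha2
    rw [Ideal.map_pow] at h1
    have h2 : (Q.map (algebraMap A B)) ^ 2 ≤ (Q' ^ Nat.card (MulAction.stabilizer G Q')) ^ 2 :=
      Ideal.pow_right_mono hle 2
    rw [← pow_mul] at h2
    exact Ideal.pow_le_pow_right (by omega) (h2 h1)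

end Count

end Fermat.Agent.S18_helper15_GRPNORM
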