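import Mathlib
import Fermat.Agent.S18_helper15_GRPNORM

set_option linter.style.haveILetI false
set_option linter.unusedSectionVars false
set_option linter.deprecated false

/-!
# S18, block B: DVRINV (pieces row X-B7a-DVRINV), proved from P9 and Mathlib's Galois package

`D` a discrete valuation ring, `S` a finite group acting faithfully on `D`, every residue class
having an `S`-fixed representative. Then every `S`-invariant element of the maximal ideal lies in
its `|S|`-th power.

Proof: the fixed ring `D0` is a principal ideal ring, `Frac D / Frac D0` is Galois with group `S`,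
`D` is the integral closure of `D0`, hence finite over `D0`, and the fibre of `D` over the maximal
ideal of `D0` has dimension `|S|`; then the counting lemma of P9 applies.
-/

namespace Fermat.Agent.S18_helper15_DVRINV

open scoped Pointwise
open Fermat.Agent.S18_helper15_GRPNORM

section

variable {D : Type*} [CommRing D] [IsDomain D] [IsDiscreteValuationRing D]
  {S : Type*} [Group S] [Finite S] [MulSemiringAction S D]

theorem S18P9_mem_fixed_iff (x : D) : x ∈ FixedPoints.subring D S ↔ ∀ h : S, h • x = x := Iff.rfl

theorem S18P9_isInvariant : Algebra.IsInvariant (FixedPoints.subring D S) D S :=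
  ⟨fun b hb => ⟨⟨b, hb⟩, rfl⟩⟩

/-- The fixed ring of a DVR is a principal ideal ring. -/
theorem S18P9_fixed_isPrincipalIdealRing : IsPrincipalIdealRing (FixedPoints.subring D S) := by
  classical
  refine ⟨fun 𝔞 => ?_⟩
  by_cases h0 : 𝔞 = ⊥
  · rw [h0]; exact bot_isPrincipal
  obtain ⟨a1, ha1, ha10⟩ := Submodule.exists_mem_ne_zero_of_ne_bot h0
  -- minimise the valuation
  let T : Set ℕ∞ := {n | ∃ a ∈ 𝔞, a ≠ 0 ∧ IsDiscreteValuationRing.addVal D (a : D) = n}
  have hT : T.Nonempty := ⟨_, a1, ha1, ha10, rfl⟩
  obtain ⟨n0, ⟨a0, ha0, ha00, rfl⟩, hmin⟩ := WellFounded.has_min wellFounded_lt T hT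
  refine ⟨⟨a0, ?_⟩⟩
  apply le_antisymm
  · intro b hb
    rw [Submodule.mem_span_singleton]  
    by_cases hb0 : b = 0
    · exact ⟨0, by simp [hb0]⟩
    have hle : IsDiscreteValuationRing.addVal D (a0 : D) ≤ IsDiscreteValuationRing.addVal D (b : D) := by
      by_contra hlt
      exact hmin _ ⟨b, hb, hb0, rfl⟩ (not_le.mp hlt)
    rw [IsDiscreteValuationRing.addVal_le_iff_dvd] at hle
    obtain ⟨c, hc⟩ := hle
    have ha0D : (a0 : D) ≠ 0 := fun h => ha00 (Subtype.ext h)
    have hcinv : ∀ h : S, h • c = c := by
      intro h
      have h1 : h • (b : D) = b := b.2 h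
      have h2 : h • (a0 : D) = a0 := a0.2 h
      have h3 : (a0 : D) * (h • c) = (a0 : D) * c := by
        calc (a0 : D) * (h • c) = (h • (a0 : D)) * (h • c) := by rw [h2]
          _ = h • ((a0 : D) * c) := (smul_mul' h _ _).symm
          _ = h • (b : D) := by rw [hc]
          _ = (b : D) := h1
          _ = (a0 : D) * c := hc
      exact mul_left_cancel₀ ha0D h3
    refine ⟨⟨c, hcinv⟩, ?_⟩
    apply Subtype.ext
    simp only [smul_eq_mul, Subring.coe_mul]
    rw [hc, mul_comm]
  · rw [Ideal.submodule_span_eq, Ideal.span_singleton_le_iff_mem]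
    exact ha0


variable [FaithfulSMul S D]

/-- Galois package for `D` over its fixed ring: finiteness and the fibre dimension. -/
theorem S18P9_fixed_finite_and_rank (Q : Ideal (FixedPoints.subring D S)) [Q.IsMaximal] :
    Module.Finite (FixedPoints.subring D S) D ∧
      Module.finrank ((FixedPoints.subring D S) ⧸ Q)
        (D ⧸ Q.map (algebraMap (FixedPoints.subring D S) D)) = Nat.card S := by
  classical
  haveI : Algebra.IsInvariant (FixedPoints.subring D S) D S := S18P9_isInvariant
  haveI : IsPrincipalIdealRing (FixedPoints.subring D S) := S18P9_fixed_isPrincipalIdealRing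
  letI : Algebra (FractionRing (FixedPoints.subring D S)) (FractionRing D) :=
    FractionRing.liftAlgebra (FixedPoints.subring D S) (FractionRing D)
  haveI : IsScalarTower (FixedPoints.subring D S) (FractionRing (FixedPoints.subring D S))
      (FractionRing D) := FractionRing.isScalarTower_liftAlgebra _ _
  letI : MulSemiringAction S (FractionRing D) :=
    IsFractionRing.mulSemiringAction S D (FractionRing D)
  haveI : IsGaloisGroup S (FixedPoints.subring D S) D := ⟨inferInstance, inferInstance, inferInstance⟩
  haveI : IsGaloisGroup S (FractionRing (FixedPoints.subring D S)) (FractionRing D) :=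
    IsGaloisGroup.to_isFractionRing S (FixedPoints.subring D S) D _ _
  haveI : FiniteDimensional (FractionRing (FixedPoints.subring D S)) (FractionRing D) :=
    IsGaloisGroup.finiteDimensional S _ _
  haveI : IsGalois (FractionRing (FixedPoints.subring D S)) (FractionRing D) :=
    IsGaloisGroup.isGalois S _ _
  haveI : Algebra.IsIntegral (FixedPoints.subring D S) D :=
    Algebra.IsInvariant.isIntegral (FixedPoints.subring D S) D S
  haveI : IsIntegralClosure D (FixedPoints.subring D S) (FractionRing D) :=
    IsIntegralClosure.of_isIntegrallyClosed D (FixedPoints.subring D S) (FractionRing D)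
  haveI hfin : Module.Finite (FixedPoints.subring D S) D :=
    IsIntegralClosure.finite (FixedPoints.subring D S) (FractionRing (FixedPoints.subring D S))
      (FractionRing D) D
  refine ⟨hfin, ?_⟩
  rw [Ideal.finrank_quotient_map Q (FractionRing (FixedPoints.subring D S)) (FractionRing D),
    ← IsGaloisGroup.card_eq_finrank S]


/-- **DVRINV** (statement of pieces row X-B7a-DVRINV): invariant elements of the maximal ideal of a
DVR with a faithful action of a finite group `S` and `S`-fixed residue representatives lie in the
`|S|`-th power of the maximal ideal. -/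
theorem S18P9_invariant_mem_pow
    (hres : ∀ d : D, ∃ a : D, (∀ h : S, h • a = a) ∧ d - a ∈ IsLocalRing.maximalIdeal D)
    (x : D) (hx : x ∈ IsLocalRing.maximalIdeal D) (hinv : ∀ h : S, h • x = x) :
    x ∈ (IsLocalRing.maximalIdeal D) ^ (Nat.card S) := by
  classical
  letI : Fintype S := Fintype.ofFinite S
  haveI : Algebra.IsInvariant (FixedPoints.subring D S) D S := S18P9_isInvariant
  haveI : Algebra.IsIntegral (FixedPoints.subring D S) D :=
    Algebra.IsInvariant.isIntegral (FixedPoints.subring D S) D S
  haveI hQmax : ((IsLocalRing.maximalIdeal D).comap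
      (algebraMap (FixedPoints.subring D S) D)).IsMaximal :=
    Ideal.isMaximal_comap_of_isIntegral_of_isMaximal _
  obtain ⟨hfin, hrank⟩ := S18P9_fixed_finite_and_rank (S := S)
    ((IsLocalRing.maximalIdeal D).comap (algebraMap (FixedPoints.subring D S) D))
  haveI := hfin
  haveI : Module.Finite (FixedPoints.subring D S)
      (D ⧸ ((IsLocalRing.maximalIdeal D).comap (algebraMap (FixedPoints.subring D S) D)).map
        (algebraMap (FixedPoints.subring D S) D)) := inferInstance
  haveI : Module.Finite ((FixedPoints.subring D S) ⧸
        ((IsLocalRing.maximalIdeal D).comap (algebraMap (FixedPoints.subring D S) D)))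
      (D ⧸ ((IsLocalRing.maximalIdeal D).comap (algebraMap (FixedPoints.subring D S) D)).map
        (algebraMap (FixedPoints.subring D S) D)) :=
    Module.Finite.of_restrictScalars_finite (FixedPoints.subring D S) _ _
  obtain ⟨ϖ, hϖ⟩ := IsDiscreteValuationRing.exists_irreducible D
  have hmϖ : IsLocalRing.maximalIdeal D = Ideal.span {ϖ} :=
    (IsDiscreteValuationRing.irreducible_iff_uniformizer ϖ).mp hϖ
  have hstabtop : MulAction.stabilizer S (IsLocalRing.maximalIdeal D) = ⊤ := by
    rw [eq_top_iff]
    intro h _
    rw [MulAction.mem_stabilizer_iff]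
    haveI := S18P9_smul_isMaximal h (IsLocalRing.maximalIdeal D)
    exact IsLocalRing.eq_maximalIdeal inferInstance
  have hcard : Nat.card (MulAction.stabilizer S (IsLocalRing.maximalIdeal D)) = Nat.card S := by
    rw [hstabtop, Subgroup.card_top]
  have key := S18P9_map_le_pow_card_stabilizer (G := S)
    ((IsLocalRing.maximalIdeal D).comap (algebraMap (FixedPoints.subring D S) D))
    (IsLocalRing.maximalIdeal D) rfl
    (fun b => by
      obtain ⟨a, ha, hba⟩ := hres b
      exact ⟨⟨a, ha⟩, hba⟩)
    (by rw [hrank, Nat.card_eq_fintype_card])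
    ϖ (by rw [hmϖ]; exact Ideal.mem_span_singleton_self ϖ)
    (by rw [← hmϖ]; exact le_sup_left)
  rw [hcard] at key
  apply key
  have hxQ : (⟨x, hinv⟩ : FixedPoints.subring D S) ∈
      (IsLocalRing.maximalIdeal D).comap (algebraMap (FixedPoints.subring D S) D) := hx
  exact Ideal.mem_map_of_mem _ hxQ

end

end Fermat.Agent.S18_helper15_DVRINV
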