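import Mathlib

/-!
# S18, piece X-B5a (DISCEMB): unit discriminant at a horizontal prime from embeddings

`B` a free `R`-algebra of finite rank, `g : R`, and rank-many pairwise distinct ring
homomorphisms `Φ i : B →+* Ω⟦X⟧` agreeing on `R`, such that `ord_s ∘ φ` is the `g`-adic valuation
with `ord_s (φ g) = 1`, and `B` is integrally closed at `g`.  Then `g` does not divide the
discriminant of any basis.
-/

set_option autoImplicit false
set_option linter.unusedSectionVars false
set_option linter.unusedVariables false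

open Polynomial Matrix

namespace Fermat.Agent.S18_helper16_DISCEMB

section Core

variable {R B A ι : Type*} [CommRing R] [CommRing B] [Algebra R B] [CommRing A] [IsDomain A]
  [Fintype ι] [DecidableEq ι]

/-- the matrix `T = [Φ i (b j)]`. -/
noncomputable def tmat (b : Module.Basis ι R B) (Φ : ι → B →+* A) : Matrix ι ι A :=
  Matrix.of fun i j => Φ i (b j)

theorem tmat_apply (b : Module.Basis ι R B) (Φ : ι → B →+* A) (i j : ι) :
    tmat b Φ i j = Φ i (b j) := rfl

/-- evaluation of `Φ i` on an element in terms of coordinates. -/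
theorem phi_eq_sum (b : Module.Basis ι R B) (φ : R →+* A) (Φ : ι → B →+* A)
    (hΦ : ∀ i r, Φ i (algebraMap R B r) = φ r) (i : ι) (x : B) :
    Φ i x = ∑ j, φ (b.repr x j) * Φ i (b j) := by
  conv_lhs => rw [← b.sum_repr x]
  rw [map_sum]
  refine Finset.sum_congr rfl fun j _ => ?_
  rw [Algebra.smul_def, map_mul, hΦ]

/-- pairwise distinct ring homomorphisms into a domain have nonzero "Vandermonde" determinant
on a basis. -/
theorem det_tmat_ne_zero (b : Module.Basis ι R B) (φ : R →+* A) (Φ : ι → B →+* A)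
    (hΦ : ∀ i r, Φ i (algebraMap R B r) = φ r) (hinj : Function.Injective Φ) :
    (tmat b Φ).det ≠ 0 := by
  intro hdet
  obtain ⟨v, hv0, hv⟩ := (Matrix.exists_vecMul_eq_zero_iff (M := tmat b Φ)).mpr hdet
  have hli : LinearIndependent A (fun i : ι => ((Φ i : B →* A) : B → A)) := by
    have h := linearIndependent_monoidHom B A
    have hinj' : Function.Injective (fun i : ι => ((Φ i : B →+* A) : B →* A)) := by
      intro i j hij
      apply hinj
      ext x
      exact congrArg (fun f : B →* A => f x) hij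
    exact h.comp _ hinj'
  rw [Fintype.linearIndependent_iff] at hli
  apply hv0
  funext i
  refine hli v ?_ i
  funext x
  simp only [Finset.sum_apply, Pi.smul_apply, smul_eq_mul, Pi.zero_apply]
  have hx : ∀ i, ((Φ i : B →* A) : B → A) x = ∑ j, φ (b.repr x j) * Φ i (b j) :=
    fun i => phi_eq_sum b φ Φ hΦ i x
  simp only [hx]
  simp_rw [Finset.mul_sum]
  rw [Finset.sum_comm]
  refine Finset.sum_eq_zero fun j _ => ?_
  have hj := congrFun hv j
  simp only [Matrix.vecMul, dotProduct, tmat_apply, Pi.zero_apply] at hj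
  calc ∑ i, v i * (φ (b.repr x j) * Φ i (b j))
      = φ (b.repr x j) * ∑ i, v i * Φ i (b j) := by
        rw [Finset.mul_sum]
        refine Finset.sum_congr rfl fun i _ => by ring
    _ = 0 := by rw [hj, mul_zero]

/-- `diag(Φ y) * T = T * φ(A_y)`. -/
theorem diag_mul_tmat (b : Module.Basis ι R B) (φ : R →+* A) (Φ : ι → B →+* A)
    (hΦ : ∀ i r, Φ i (algebraMap R B r) = φ r) (y : B) :
    Matrix.diagonal (fun i => Φ i y) * tmat b Φ
      = tmat b Φ * (Algebra.leftMulMatrix b y).map φ := by
  ext i j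
  rw [Matrix.diagonal_mul, Matrix.mul_apply, tmat_apply]
  rw [← map_mul, phi_eq_sum b φ Φ hΦ i (y * b j)]
  refine Finset.sum_congr rfl fun k _ => ?_
  rw [tmat_apply, Matrix.map_apply, Algebra.leftMulMatrix_eq_repr_mul, mul_comm]

/-- the characteristic polynomial of multiplication by `y` maps to `∏ (X - Φ i y)`. -/
theorem map_charpoly (b : Module.Basis ι R B) (φ : R →+* A) (Φ : ι → B →+* A)
    (hΦ : ∀ i r, Φ i (algebraMap R B r) = φ r) (hinj : Function.Injective Φ) (y : B) :
    (Algebra.leftMulMatrix b y).charpoly.map φ = ∏ i, (X - C (Φ i y)) := by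
  have hT := det_tmat_ne_zero b φ Φ hΦ hinj
  have h1 := diag_mul_tmat b φ Φ hΦ y
  rw [← Matrix.charpoly_map, ← Matrix.charpoly_diagonal]
  set T := tmat b Φ with hTdef
  set D := Matrix.diagonal (fun i => Φ i y) with hD
  set M := (Algebra.leftMulMatrix b y).map φ with hM
  -- work with matrices over `A[X]`
  have h2 : T.map C * charmatrix M = charmatrix D * T.map C := by
    unfold charmatrix
    have e1 : T.map C * (Matrix.scalar ι (X : A[X]) - (C : A →+* A[X]).mapMatrix M)
        = Matrix.scalar ι (X : A[X]) * T.map C - (C : A →+* A[X]).mapMatrix (T * M) := by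
      rw [mul_sub, map_mul]
      congr 1
      rw [← Matrix.scalar_commute (X : A[X]) (fun r => Commute.all _ _) (T.map C)]
    have e2 : (Matrix.scalar ι (X : A[X]) - (C : A →+* A[X]).mapMatrix D) * T.map C
        = Matrix.scalar ι (X : A[X]) * T.map C - (C : A →+* A[X]).mapMatrix (D * T) := by
      rw [sub_mul, map_mul]
      rfl
    rw [e1, e2, h1]
  have h3 := congrArg Matrix.det h2
  rw [Matrix.det_mul, Matrix.det_mul] at h3
  have h4 : (T.map C).det = C T.det := by
    have := (RingHom.map_det (C : A →+* A[X]) T).symm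
    simpa using this
  rw [h4] at h3
  have h5 : (C T.det : A[X]) ≠ 0 := by
    rw [Ne, C_eq_zero]; exact hT
  unfold Matrix.charpoly
  rw [mul_comm] at h3
  exact mul_right_cancel₀ h5 h3

/-- trace formula: `φ (tr y) = ∑ Φ i y`. -/
theorem map_trace (b : Module.Basis ι R B) (φ : R →+* A) (Φ : ι → B →+* A)
    (hΦ : ∀ i r, Φ i (algebraMap R B r) = φ r) (hinj : Function.Injective Φ) (y : B) :
    φ (Algebra.trace R B y) = ∑ i, Φ i y := by
  have hT := det_tmat_ne_zero b φ Φ hΦ hinj
  have h1 := diag_mul_tmat b φ Φ hΦ y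
  set T := tmat b Φ with hTdef
  set D := Matrix.diagonal (fun i => Φ i y) with hD
  set M := (Algebra.leftMulMatrix b y).map φ with hM
  have h2 : T.det * Matrix.trace D = T.det * Matrix.trace M := by
    have e1 : Matrix.trace (T.adjugate * (D * T)) = T.det * Matrix.trace D := by
      rw [← Matrix.mul_assoc, Matrix.trace_mul_comm, ← Matrix.mul_assoc, Matrix.mul_adjugate,
        Matrix.smul_mul, Matrix.one_mul, Matrix.trace_smul, smul_eq_mul]
    have e2 : Matrix.trace (T.adjugate * (T * M)) = T.det * Matrix.trace M := by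
      rw [← Matrix.mul_assoc, Matrix.adjugate_mul, Matrix.smul_mul, Matrix.one_mul,
        Matrix.trace_smul, smul_eq_mul]
    rw [← e1, ← e2, h1]
  have h3 := mul_left_cancel₀ hT h2
  rw [Algebra.trace_eq_matrix_trace b y]
  have h4 : φ (Matrix.trace (Algebra.leftMulMatrix b y)) = Matrix.trace M := by
    rw [hM]
    simp only [Matrix.trace, map_sum, Matrix.diag_apply, Matrix.map_apply]
  rw [h4, ← h3, hD, Matrix.trace_diagonal]

/-- discriminant formula: `φ (discr b) = det(T)^2`. -/
theorem map_discr (b : Module.Basis ι R B) (φ : R →+* A) (Φ : ι → B →+* A)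
    (hΦ : ∀ i r, Φ i (algebraMap R B r) = φ r) (hinj : Function.Injective Φ) :
    φ (Algebra.discr R b) = (tmat b Φ).det ^ 2 := by
  rw [Algebra.discr_def, RingHom.map_det]
  have h : φ.mapMatrix (Algebra.traceMatrix R b) = (tmat b Φ).transpose * tmat b Φ := by
    ext i j
    rw [RingHom.mapMatrix_apply, Matrix.map_apply, Algebra.traceMatrix_apply,
      Algebra.traceForm_apply, map_trace b φ Φ hΦ hinj, Matrix.mul_apply]
    refine Finset.sum_congr rfl fun l _ => ?_
    rw [Matrix.transpose_apply, tmat_apply, tmat_apply, map_mul]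
  rw [h, Matrix.det_mul, Matrix.det_transpose, sq]

/-- coefficients of `∏ (X - a i)` when all `a i` are divisible by `s`. -/
theorem pow_dvd_coeff_prod {A' : Type*} [CommRing A'] (s : A') (a : ι → A') (S : Finset ι)
    (ha : ∀ i ∈ S, s ∣ a i) (m : ℕ) :
    s ^ (S.card - m) ∣ (∏ i ∈ S, (X - C (a i))).coeff m := by
  classical
  induction S using Finset.induction_on generalizing m with
  | empty => simp
  | insert i S hi ih =>
    rw [Finset.prod_insert hi, Finset.card_insert_of_notMem hi, sub_mul]
    have hai : s ∣ a i := ha i (Finset.mem_insert_self i S)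
    have ih' := fun m => ih (fun j hj => ha j (Finset.mem_insert_of_mem hj)) m
    rw [coeff_sub, coeff_C_mul]
    apply dvd_sub
    · cases m with
      | zero => simp
      | succ k =>
        rw [coeff_X_mul]
        have : S.card + 1 - (k + 1) = S.card - k := by omega
        rw [this]
        exact ih' k
    · have h1 : s ^ (S.card + 1 - m) ∣ s * s ^ (S.card - m) := by
        rw [← pow_succ']
        exact pow_dvd_pow s (by omega)
      exact h1.trans (mul_dvd_mul hai (ih' m))

end Core

section PS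

variable {R B Ω ι : Type*} [CommRing R] [CommRing B] [Algebra R B] [Field Ω]
  [Fintype ι] [DecidableEq ι]

/-- `ord_s ∘ φ` dominates the `g`-adic valuation. -/
theorem pow_dvd_of_X_pow_dvd (g : R) (φ : R →+* PowerSeries Ω)
    (hφg : ∀ r : R, PowerSeries.constantCoeff (φ r) = 0 ↔ g ∣ r)
    (hg1 : PowerSeries.coeff 1 (φ g) ≠ 0) :
    ∀ (i : ℕ) (r : R), (PowerSeries.X : PowerSeries Ω) ^ i ∣ φ r → g ^ i ∣ r := by
  intro i
  induction i with
  | zero => intro r _; simp
  | succ i ih =>
    intro r hr
    have h0 : PowerSeries.constantCoeff (φ r) = 0 := by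
      rw [← PowerSeries.X_dvd_iff]
      exact (dvd_pow_self _ (Nat.succ_ne_zero i)).trans hr
    obtain ⟨r', rfl⟩ := (hφg r).mp h0
    have hg0 : PowerSeries.constantCoeff (φ g) = 0 := (hφg g).mpr dvd_rfl
    obtain ⟨u, hu⟩ := PowerSeries.X_dvd_iff.mpr hg0
    have hu1 : PowerSeries.constantCoeff u ≠ 0 := by
      intro h
      apply hg1
      rw [hu, show (1 : ℕ) = 0 + 1 from rfl, PowerSeries.coeff_succ_X_mul,
        PowerSeries.coeff_zero_eq_constantCoeff_apply, h]
    have huu : IsUnit u := by
      rw [PowerSeries.isUnit_iff_constantCoeff]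
      exact isUnit_iff_ne_zero.mpr hu1
    rw [map_mul, hu, pow_succ', mul_assoc] at hr
    have h2 : (PowerSeries.X : PowerSeries Ω) ^ i ∣ u * φ r' :=
      (mul_dvd_mul_iff_left PowerSeries.X_ne_zero).mp hr
    have h3 : (PowerSeries.X : PowerSeries Ω) ^ i ∣ φ r' := by
      obtain ⟨w, hw⟩ := h2
      refine ⟨↑huu.unit⁻¹ * w, ?_⟩
      have : φ r' = ↑huu.unit⁻¹ * (u * φ r') := by
        rw [← mul_assoc, IsUnit.val_inv_mul, one_mul]
      rw [this, hw]
      ring
    rw [pow_succ']
    exact mul_dvd_mul_left g (ih r' h3)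

/-- Step (2): if all `Φ i y` vanish at `s = 0` then `g ∣ y`. -/
theorem dvd_of_forall_constantCoeff_eq_zero (b : Module.Basis ι R B)
    (g : R) (φ : R →+* PowerSeries Ω)
    (hφg : ∀ r : R, PowerSeries.constantCoeff (φ r) = 0 ↔ g ∣ r)
    (hg1 : PowerSeries.coeff 1 (φ g) ≠ 0)
    (Φ : ι → B →+* PowerSeries Ω)
    (hΦ : ∀ i r, Φ i (algebraMap R B r) = φ r) (hinj : Function.Injective Φ)
    (hIC : ∀ (y : B) (P : Polynomial R), P.Monic →
      Polynomial.aeval y (P.scaleRoots g) = 0 → algebraMap R B g ∣ y)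
    (y : B) (hy : ∀ i, PowerSeries.constantCoeff (Φ i y) = 0) :
    algebraMap R B g ∣ y := by
  classical
  rcases subsingleton_or_nontrivial R with hR | hR
  · have : Subsingleton B := Module.subsingleton R B
    exact ⟨0, Subsingleton.elim _ _⟩
  set χ := (Algebra.leftMulMatrix b y).charpoly with hχ
  set n := Fintype.card ι with hn
  have hχmonic : χ.Monic := Matrix.charpoly_monic _
  have hχdeg : χ.natDegree = n := Matrix.charpoly_natDegree_eq_dim _
  have hχy : Polynomial.aeval y χ = 0 := by
    apply Algebra.leftMulMatrix_injective b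
    rw [map_zero, ← Polynomial.aeval_algHom_apply]
    exact Matrix.aeval_self_charpoly _
  have hmap : χ.map φ = ∏ i, (X - C (Φ i y)) := map_charpoly b φ Φ hΦ hinj y
  have hdiv : ∀ m, g ^ (n - m) ∣ χ.coeff m := by
    intro m
    apply pow_dvd_of_X_pow_dvd g φ hφg hg1
    rw [← Polynomial.coeff_map, hmap]
    have := pow_dvd_coeff_prod (PowerSeries.X : PowerSeries Ω) (fun i => Φ i y) Finset.univ
      (fun i _ => PowerSeries.X_dvd_iff.mpr (hy i)) m
    simpa [hn] using this
  choose q hq using hdiv
  -- the polynomial `P' = X^n + ∑_{m<n} q m X^m`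
  set P' : Polynomial R := X ^ n + ∑ m ∈ Finset.range n, C (q m) * X ^ m with hP'
  have hlow : (∑ m ∈ Finset.range n, C (q m) * X ^ m : Polynomial R).degree < n := by
    refine (Polynomial.degree_sum_le _ _).trans_lt ?_
    rw [Finset.sup_lt_iff (by exact_mod_cast WithBot.bot_lt_coe n)]
    intro m hm
    refine (Polynomial.degree_C_mul_X_pow_le m (q m)).trans_lt ?_
    exact_mod_cast Finset.mem_range.mp hm
  have hP'monic : P'.Monic := Polynomial.monic_X_pow_add hlow
  have hP'deg : P'.natDegree = n := by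
    have h2 : P'.degree = n := by
      rw [hP', Polynomial.degree_add_eq_left_of_degree_lt]
      · exact Polynomial.degree_X_pow n
      · rw [Polynomial.degree_X_pow]; exact hlow
    exact Polynomial.natDegree_eq_of_degree_eq_some h2
  have hcoeffP' : ∀ m, P'.coeff m = if m = n then 1 else if m < n then q m else 0 := by
    intro m
    rw [hP', Polynomial.coeff_add, Polynomial.coeff_X_pow, Polynomial.finsetSum_coeff]
    simp only [Polynomial.coeff_C_mul, Polynomial.coeff_X_pow]
    by_cases hmn : m = n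
    · rw [if_pos hmn, if_pos hmn]
      rw [Finset.sum_eq_zero, add_zero]
      intro k hk
      have : m ≠ k := by
        have := Finset.mem_range.mp hk
        omega
      rw [if_neg this, mul_zero]
    · rw [if_neg hmn, if_neg hmn, zero_add]
      by_cases hlt : m < n
      · rw [if_pos hlt]
        rw [Finset.sum_eq_single m]
        · simp
        · intro k _ hk
          rw [if_neg (Ne.symm hk), mul_zero]
        · intro hm
          exact absurd (Finset.mem_range.mpr hlt) hm
      · rw [if_neg hlt]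
        refine Finset.sum_eq_zero fun k hk => ?_
        have := Finset.mem_range.mp hk
        rw [if_neg (by omega), mul_zero]
  have hscale : P'.scaleRoots g = χ := by
    ext m
    rw [Polynomial.coeff_scaleRoots, hP'deg, hcoeffP']
    by_cases hmn : m = n
    · rw [if_pos hmn, hmn, Nat.sub_self, pow_zero, mul_one]
      have := hχmonic.coeff_natDegree
      rw [hχdeg] at this
      exact this.symm
    · rw [if_neg hmn]
      by_cases hlt : m < n
      · rw [if_pos hlt, hq m, mul_comm]
      · rw [if_neg hlt, zero_mul]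
        symm
        apply Polynomial.coeff_eq_zero_of_natDegree_lt
        rw [hχdeg]
        omega
  exact hIC y P' hP'monic (by rw [hscale]; exact hχy)

end PS

section Main

variable {R B Ω ι : Type*} [CommRing R] [CommRing B] [Algebra R B] [Field Ω]
  [Fintype ι] [DecidableEq ι]

/-- reduction of `Φ i` modulo `s`. -/
noncomputable def red (Φ : ι → B →+* PowerSeries Ω) (i : ι) : B →+* Ω :=
  (PowerSeries.constantCoeff (R := Ω)).comp (Φ i)

theorem red_apply (Φ : ι → B →+* PowerSeries Ω) (i : ι) (x : B) :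
    red Φ i x = PowerSeries.constantCoeff (Φ i x) := rfl

/-- a ring hom commutes with polynomial evaluation. -/
theorem hom_aeval {S : Type*} [CommRing S] (ψ : B →+* S) (φ' : R →+* S)
    (h : ∀ r, ψ (algebraMap R B r) = φ' r) (x : B) (P : Polynomial R) :
    ψ (Polynomial.aeval x P) = (P.map φ').eval (ψ x) := by
  rw [Polynomial.aeval_def, Polynomial.hom_eval₂, Polynomial.eval_map]
  congr 1
  ext r
  exact h r

/-- in characteristic zero, a root of a nonzero polynomial is a simple root of some iterated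
derivative. -/
theorem exists_simple_root [CharZero Ω] (χ : Polynomial R) (hχ : χ.Monic) (φ' : R →+* Ω) (a : Ω)
    (ha : (χ.map φ').eval a = 0) :
    ∃ P : Polynomial R, (P.map φ').eval a = 0 ∧ (Polynomial.derivative (P.map φ')).eval a ≠ 0 := by
  classical
  set p := χ.map φ' with hp
  have hp0 : p ≠ 0 := (hχ.map φ').ne_zero
  have hex : ∃ i : ℕ, (Polynomial.derivative^[i] p).eval a ≠ 0 := by
    by_contra hcon
    push Not at hcon
    apply hp0
    apply Polynomial.taylor_injective a
    rw [map_zero]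
    ext k
    rw [Polynomial.taylor_coeff, Polynomial.coeff_zero]
    have h1 := hcon k
    have h2 : (Polynomial.derivative^[k] p) = k.factorial • (Polynomial.hasseDeriv k p) := by
      rw [← Polynomial.factorial_smul_hasseDeriv]
      rfl
    rw [h2, Polynomial.eval_smul, nsmul_eq_mul] at h1
    rcases mul_eq_zero.mp h1 with h | h
    · exact absurd h (Nat.cast_ne_zero.mpr (Nat.factorial_ne_zero k))
    · exact h
  set i := Nat.find hex with hi
  have hi1 : (Polynomial.derivative^[i] p).eval a ≠ 0 := Nat.find_spec hex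
  have hi0 : i ≠ 0 := by
    intro h0
    rw [h0] at hi1
    exact hi1 ha
  obtain ⟨i', hi'⟩ := Nat.exists_eq_succ_of_ne_zero hi0
  refine ⟨Polynomial.derivative^[i'] χ, ?_, ?_⟩
  · rw [← Polynomial.iterate_derivative_map]
    have := Nat.find_min hex (m := i') (by omega)
    push Not at this
    exact this
  · rw [← Polynomial.iterate_derivative_map, ← Function.iterate_succ_apply' Polynomial.derivative]
    have : i'.succ = i := hi'.symm
    rw [this]
    exact hi1

/-- Step (3): the reductions of the `Φ i` are pairwise distinct. -/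
theorem red_injective [CharZero Ω] (b : Module.Basis ι R B)
    (g : R) (φ : R →+* PowerSeries Ω)
    (hφg : ∀ r : R, PowerSeries.constantCoeff (φ r) = 0 ↔ g ∣ r)
    (hg1 : PowerSeries.coeff 1 (φ g) ≠ 0)
    (Φ : ι → B →+* PowerSeries Ω)
    (hΦ : ∀ i r, Φ i (algebraMap R B r) = φ r) (hinj : Function.Injective Φ)
    (hIC : ∀ (y : B) (P : Polynomial R), P.Monic →
      Polynomial.aeval y (P.scaleRoots g) = 0 → algebraMap R B g ∣ y) :
    Function.Injective (red Φ) := by
  classical
  intro i j hij
  by_contra hne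
  set ψ := red Φ i with hψ
  set φ' : R →+* Ω := (PowerSeries.constantCoeff (R := Ω)).comp φ with hφ'
  have hredφ : ∀ l r, red Φ l (algebraMap R B r) = φ' r := fun l r => by
    rw [red_apply, hΦ]; rfl
  have hfin : Module.Finite R B := Module.Finite.of_basis b
  have hint : ∀ x : B, IsIntegral R x := fun x => Algebra.IsIntegral.isIntegral x
  -- (a) kernel comparison
  have hker : ∀ l, RingHom.ker ψ ≤ RingHom.ker (red Φ l) ∨
      ∃ c, red Φ l c = 0 ∧ ψ c ≠ 0 := by
    intro l
    by_cases h1 : RingHom.ker ψ ≤ RingHom.ker (red Φ l)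
    · exact Or.inl h1
    right
    by_contra hcon
    push Not at hcon
    have hle : RingHom.ker (red Φ l) ≤ RingHom.ker ψ := fun c hc => by
      rw [RingHom.mem_ker] at hc ⊢
      exact hcon c hc
    obtain ⟨x, hxψ, hxl⟩ := Set.not_subset.mp h1
    have hprime : (RingHom.ker (red Φ l)).IsPrime := RingHom.ker_isPrime _
    have hlt := Ideal.comap_lt_comap_of_integral_mem_sdiff (R := R) hle
      (x := x) ⟨hxψ, hxl⟩ (hint x)
    have heq : (RingHom.ker (red Φ l)).comap (algebraMap R B)
        = (RingHom.ker ψ).comap (algebraMap R B) := by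
      ext r
      simp only [Ideal.mem_comap, RingHom.mem_ker]
      rw [hredφ l r, hψ, hredφ i r]
    rw [heq] at hlt
    exact lt_irrefl _ hlt
  -- (b) the element `c`
  set S : Finset ι := Finset.univ.filter (fun l => ¬ RingHom.ker ψ ≤ RingHom.ker (red Φ l))
    with hS
  have hc_ex : ∀ l, ∃ c, (l ∈ S → red Φ l c = 0) ∧ ψ c ≠ 0 := by
    intro l
    rcases hker l with h | ⟨c, hc1, hc2⟩
    · refine ⟨1, fun hl => ?_, by rw [map_one]; exact one_ne_zero⟩
      rw [hS, Finset.mem_filter] at hl
      exact absurd h hl.2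
    · exact ⟨c, fun _ => hc1, hc2⟩
  choose cl hcl1 hcl2 using hc_ex
  set c : B := ∏ l ∈ S, cl l with hc
  have hψc : ψ c ≠ 0 := by
    rw [hc, map_prod]
    exact Finset.prod_ne_zero_iff.mpr fun l _ => hcl2 l
  have hcy : ∀ y, ψ y = 0 → ∀ l, PowerSeries.constantCoeff (Φ l (c * y)) = 0 := by
    intro y hy l
    rw [← red_apply, map_mul]
    by_cases hl : l ∈ S
    · have : red Φ l c = 0 := by
        rw [hc, map_prod]
        exact Finset.prod_eq_zero hl (hcl1 l hl)
      rw [this, zero_mul]
    · have hle : RingHom.ker ψ ≤ RingHom.ker (red Φ l) := by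
        by_contra h
        exact hl (by rw [hS, Finset.mem_filter]; exact ⟨Finset.mem_univ _, h⟩)
      have : red Φ l y = 0 := hle (by rw [RingHom.mem_ker]; exact hy)
      rw [this, mul_zero]
  -- (c)
  have hdvd : ∀ y, ψ y = 0 → algebraMap R B g ∣ c * y := fun y hy =>
    dvd_of_forall_constantCoeff_eq_zero b g φ hφg hg1 Φ hΦ hinj hIC (c * y) (hcy y hy)
  -- (d) the difference
  set δ : B → PowerSeries Ω := fun x => Φ i x - Φ j x with hδ
  have hδX : ∀ x, (PowerSeries.X : PowerSeries Ω) ∣ δ x := by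
    intro x
    rw [PowerSeries.X_dvd_iff, hδ]
    simp only [map_sub]
    rw [← red_apply, ← red_apply, ← hij]
    exact sub_self _
  have hex1 : ∃ x₁, δ x₁ ≠ 0 := by
    by_contra hcon
    push Not at hcon
    apply hne
    apply hinj
    ext1 x
    exact sub_eq_zero.mp (hcon x)
  have hex : ∃ k : ℕ, ∃ x, ¬ (PowerSeries.X : PowerSeries Ω) ^ (k + 1) ∣ δ x := by
    obtain ⟨x₁, hx₁⟩ := hex1
    have : ∃ k, PowerSeries.coeff k (δ x₁) ≠ 0 := by
      by_contra hcon
      push Not at hcon
      exact hx₁ (PowerSeries.ext fun k => by rw [hcon k, map_zero])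
    obtain ⟨k, hk⟩ := this
    refine ⟨k, x₁, fun hd => hk ?_⟩
    exact (PowerSeries.X_pow_dvd_iff.mp hd) k (Nat.lt_succ_self k)
  set k := Nat.find hex with hkdef
  obtain ⟨x₀, hx₀⟩ := Nat.find_spec hex
  have hk : ∀ x, (PowerSeries.X : PowerSeries Ω) ^ k ∣ δ x := by
    intro x
    rcases Nat.eq_zero_or_pos k with h0 | hpos
    · rw [h0, pow_zero]; exact one_dvd _
    · have := Nat.find_min hex (m := k - 1) (by omega)
      push Not at this
      have h2 := this x
      rwa [Nat.sub_add_cancel hpos] at h2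
  -- (e) the polynomial
  obtain ⟨χ, hχm, hχ0⟩ := hint x₀
  have hχa : (χ.map φ').eval (ψ x₀) = 0 := by
    rw [← hom_aeval ψ φ' (hredφ i) x₀ χ, Polynomial.aeval_def, hχ0, map_zero]
  obtain ⟨P, hP0, hP1⟩ := exists_simple_root χ hχm φ' (ψ x₀) hχa
  set y := Polynomial.aeval x₀ P with hy
  have hψy : ψ y = 0 := by
    rw [hy, hom_aeval ψ φ' (hredφ i) x₀ P]; exact hP0
  obtain ⟨y', hy'⟩ := hdvd y hψy
  -- (f) expansion of `δ y`
  set Q := P.map φ with hQ
  have hΦy : ∀ l, Φ l y = Q.eval (Φ l x₀) := fun l => hom_aeval (Φ l) φ (hΦ l) x₀ P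
  obtain ⟨kk, hkk⟩ := Polynomial.binomExpansion Q (Φ j x₀) (δ x₀)
  have hsum : Φ j x₀ + δ x₀ = Φ i x₀ := by rw [hδ]; ring
  rw [hsum] at hkk
  have hδy : δ y = δ x₀ * (Q.derivative.eval (Φ j x₀) + kk * δ x₀) := by
    show Φ i y - Φ j y = _
    rw [hΦy i, hΦy j, hkk]; ring
  have hw : IsUnit (Q.derivative.eval (Φ j x₀) + kk * δ x₀) := by
    rw [PowerSeries.isUnit_iff_constantCoeff, isUnit_iff_ne_zero, map_add, map_mul]
    have h1 : PowerSeries.constantCoeff (δ x₀) = 0 := PowerSeries.X_dvd_iff.mp (hδX x₀)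
    rw [h1, mul_zero, add_zero]
    have h2 : PowerSeries.constantCoeff (Q.derivative.eval (Φ j x₀))
        = (Polynomial.derivative (P.map φ')).eval (ψ x₀) := by
      have h3 : (PowerSeries.constantCoeff (R := Ω)) (Q.derivative.eval (Φ j x₀))
          = (Q.derivative.map (PowerSeries.constantCoeff (R := Ω))).eval
              (PowerSeries.constantCoeff (Φ j x₀)) := by
        rw [Polynomial.eval_map]
        exact (Polynomial.hom_eval₂ Q.derivative (RingHom.id _)
          (PowerSeries.constantCoeff (R := Ω)) (Φ j x₀)).trans (by rw [RingHom.comp_id])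
      rw [h3, Polynomial.derivative_map, Polynomial.derivative_map, Polynomial.map_map,
        ← red_apply, ← hij]
    rw [h2]
    exact hP1
  have hδy_not : ¬ (PowerSeries.X : PowerSeries Ω) ^ (k + 1) ∣ δ y := by
    intro hd
    apply hx₀
    rw [hδy] at hd
    exact (hw.dvd_mul_right).mp hd
  -- (g) the contradiction
  have hΦic : IsUnit (Φ i c) := by
    rw [PowerSeries.isUnit_iff_constantCoeff, isUnit_iff_ne_zero, ← red_apply]
    exact hψc
  have hδcy : δ (c * y) = Φ i c * δ y + δ c * Φ j y := by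
    show Φ i (c * y) - Φ j (c * y) = Φ i c * (Φ i y - Φ j y) + (Φ i c - Φ j c) * Φ j y
    rw [map_mul, map_mul]; ring
  have h1 : (PowerSeries.X : PowerSeries Ω) ^ (k + 1) ∣ δ c * Φ j y := by
    rw [pow_succ]
    refine mul_dvd_mul (hk c) ?_
    rw [PowerSeries.X_dvd_iff, ← red_apply, ← hij]
    exact hψy
  have h2 : (PowerSeries.X : PowerSeries Ω) ^ (k + 1) ∣ δ (c * y) := by
    have : δ (c * y) = φ g * δ y' := by
      show Φ i (c * y) - Φ j (c * y) = φ g * (Φ i y' - Φ j y')
      rw [hy', map_mul, map_mul, hΦ, hΦ]; ring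
    rw [this, pow_succ']
    refine mul_dvd_mul ?_ (hk y')
    rw [PowerSeries.X_dvd_iff]
    exact (hφg g).mpr dvd_rfl
  have h3 : (PowerSeries.X : PowerSeries Ω) ^ (k + 1) ∣ Φ i c * δ y := by
    have : Φ i c * δ y = δ (c * y) - δ c * Φ j y := by rw [hδcy]; ring
    rw [this]
    exact dvd_sub h2 h1
  exact hδy_not ((hΦic.dvd_mul_left).mp h3)

/-- **X-B5a (DISCEMB)**: `g` does not divide the discriminant. -/
theorem S18B5_not_dvd_discr [CharZero Ω] (b : Module.Basis ι R B)
    (g : R) (φ : R →+* PowerSeries Ω)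
    (hφg : ∀ r : R, PowerSeries.constantCoeff (φ r) = 0 ↔ g ∣ r)
    (hg1 : PowerSeries.coeff 1 (φ g) ≠ 0)
    (Φ : ι → B →+* PowerSeries Ω)
    (hΦ : ∀ i r, Φ i (algebraMap R B r) = φ r) (hinj : Function.Injective Φ)
    (hIC : ∀ (y : B) (P : Polynomial R), P.Monic →
      Polynomial.aeval y (P.scaleRoots g) = 0 → algebraMap R B g ∣ y) :
    ¬ g ∣ Algebra.discr R b := by
  intro hdvd
  have h0 := (hφg _).mpr hdvd
  rw [map_discr b φ Φ hΦ hinj, map_pow] at h0
  have h1 : PowerSeries.constantCoeff ((tmat b Φ).det) = 0 := by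
    exact pow_eq_zero_iff (two_ne_zero) |>.mp h0
  have h2 : PowerSeries.constantCoeff ((tmat b Φ).det) = (tmat b (red Φ)).det := by
    rw [RingHom.map_det]
    rfl
  rw [h2] at h1
  have hred := red_injective b g φ hφg hg1 Φ hΦ hinj hIC
  exact det_tmat_ne_zero b ((PowerSeries.constantCoeff (R := Ω)).comp φ) (red Φ)
    (fun i r => by rw [red_apply, hΦ]; rfl) hred h1

end Main

section Wrappers

/-- `hIC` holds as soon as `B` is integrally closed in an overring `E` in which `g` is a unit. -/
theorem S18B5_hIC_of_closed {R B E : Type*} [CommRing R] [CommRing B] [CommRing E] [Algebra R B]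
    [Algebra B E] [Algebra R E] [IsScalarTower R B E]
    (hinjBE : Function.Injective (algebraMap B E))
    (hcl : ∀ z : E, IsIntegral R z → ∃ y : B, algebraMap B E y = z)
    (g : R) (hg : IsUnit (algebraMap R E g)) :
    ∀ (y : B) (P : Polynomial R), P.Monic →
      Polynomial.aeval y (P.scaleRoots g) = 0 → algebraMap R B g ∣ y := by
  intro y P hP h
  set z : E := ↑hg.unit⁻¹ * algebraMap B E y with hz
  have hgz : algebraMap R E g * z = algebraMap B E y := by
    rw [hz, ← mul_assoc, IsUnit.mul_val_inv, one_mul]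
  have h1 : Polynomial.aeval (algebraMap B E y) (P.scaleRoots g) = 0 := by
    rw [Polynomial.aeval_algebraMap_apply, h, map_zero]
  rw [← hgz, Polynomial.aeval_def, Polynomial.scaleRoots_eval₂_mul] at h1
  have h2 : Polynomial.eval₂ (algebraMap R E) z P = 0 := by
    have hu : IsUnit (algebraMap R E g ^ P.natDegree) := hg.pow _
    exact (hu.mul_right_eq_zero).mp h1
  obtain ⟨y', hy'⟩ := hcl z ⟨P, hP, h2⟩
  refine ⟨y', hinjBE ?_⟩
  rw [map_mul, hy', ← hgz, ← IsScalarTower.algebraMap_apply]

variable {Ω : Type*} [Field Ω]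

/-- corestriction of a ring hom to power series. -/
noncomputable def corestrict {S : Type*} [CommRing S] (f : S →+* LaurentSeries Ω)
    (h : ∀ s, ∃ p : PowerSeries Ω, HahnSeries.ofPowerSeries ℤ Ω p = f s) :
    S →+* PowerSeries Ω where
  toFun s := (h s).choose
  map_one' := HahnSeries.ofPowerSeries_injective (by rw [(h 1).choose_spec, map_one, map_one])
  map_zero' := HahnSeries.ofPowerSeries_injective (by rw [(h 0).choose_spec, map_zero, map_zero])
  map_mul' x y := HahnSeries.ofPowerSeries_injective (by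
    rw [(h (x * y)).choose_spec, map_mul, map_mul, (h x).choose_spec, (h y).choose_spec])
  map_add' x y := HahnSeries.ofPowerSeries_injective (by
    rw [(h (x + y)).choose_spec, map_add, map_add, (h x).choose_spec, (h y).choose_spec])

theorem ofPowerSeries_corestrict {S : Type*} [CommRing S] (f : S →+* LaurentSeries Ω)
    (h : ∀ s, ∃ p : PowerSeries Ω, HahnSeries.ofPowerSeries ℤ Ω p = f s) (s : S) :
    HahnSeries.ofPowerSeries ℤ Ω (corestrict f h s) = f s :=
  (h s).choose_spec

theorem coeff_corestrict {S : Type*} [CommRing S] (f : S →+* LaurentSeries Ω)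
    (h : ∀ s, ∃ p : PowerSeries Ω, HahnSeries.ofPowerSeries ℤ Ω p = f s) (s : S) (n : ℕ) :
    PowerSeries.coeff n (corestrict f h s) = (f s).coeff (n : ℤ) := by
  rw [← ofPowerSeries_corestrict f h s, HahnSeries.ofPowerSeries_apply_coeff]

/-- images of integral elements are power series. -/
theorem exists_powerSeries_of_integral {R B : Type*} [CommRing R] [CommRing B] [Algebra R B]
    (φ : R →+* LaurentSeries Ω)
    (hφ0 : ∀ r : R, ∃ p : PowerSeries Ω, HahnSeries.ofPowerSeries ℤ Ω p = φ r)
    (Ψ : B →+* LaurentSeries Ω) (hΨ : ∀ r, Ψ (algebraMap R B r) = φ r)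
    (x : B) (hx : IsIntegral R x) :
    ∃ p : PowerSeries Ω, HahnSeries.ofPowerSeries ℤ Ω p = Ψ x := by
  obtain ⟨χ, hχm, hχ0⟩ := hx
  have h1 : Polynomial.eval₂ φ (Ψ x) χ = 0 := by
    have := congrArg Ψ hχ0
    rw [Polynomial.hom_eval₂, map_zero] at this
    have e : Ψ.comp (algebraMap R B) = φ := RingHom.ext hΨ
    rwa [e] at this
  have h2 : IsIntegral (PowerSeries Ω) (Ψ x) := by
    refine ⟨χ.map (corestrict φ hφ0), hχm.map _, ?_⟩
    rw [Polynomial.eval₂_map]
    have e : (algebraMap (PowerSeries Ω) (LaurentSeries Ω)).comp (corestrict φ hφ0) = φ := by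
      ext1 r
      rw [RingHom.comp_apply, LaurentSeries.coe_algebraMap]
      exact ofPowerSeries_corestrict φ hφ0 r
    rw [e]
    exact h1
  obtain ⟨p, hp⟩ := IsIntegrallyClosed.isIntegral_iff.mp h2
  exact ⟨p, by rw [← hp, LaurentSeries.coe_algebraMap]⟩

/-- **X-B5a, Laurent-series form** (the embeddings are indexed by any type `κ` of the right
cardinality and take values in Laurent series). -/
theorem S18B5_not_dvd_discr_laurent [CharZero Ω] {R B ι κ : Type*} [CommRing R] [CommRing B]
    [Algebra R B] [Fintype ι] [DecidableEq ι] [Fintype κ]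
    (b : Module.Basis ι R B)
    (g : R) (φ : R →+* LaurentSeries Ω)
    (hφ0 : ∀ r : R, ∃ p : PowerSeries Ω, HahnSeries.ofPowerSeries ℤ Ω p = φ r)
    (hφg : ∀ r : R, (φ r).coeff 0 = 0 ↔ g ∣ r)
    (hg1 : (φ g).coeff 1 ≠ 0)
    (Φ : κ → B →+* LaurentSeries Ω) (hcard : Fintype.card κ = Fintype.card ι)
    (hΦ : ∀ i r, Φ i (algebraMap R B r) = φ r) (hinj : Function.Injective Φ)
    (hIC : ∀ (y : B) (P : Polynomial R), P.Monic →
      Polynomial.aeval y (P.scaleRoots g) = 0 → algebraMap R B g ∣ y) :
    ¬ g ∣ Algebra.discr R b := by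
  classical
  have hfin : Module.Finite R B := Module.Finite.of_basis b
  have hint : ∀ x : B, IsIntegral R x := fun x => Algebra.IsIntegral.isIntegral x
  have hΦ0 : ∀ i (x : B), ∃ p : PowerSeries Ω, HahnSeries.ofPowerSeries ℤ Ω p = Φ i x :=
    fun i x => exists_powerSeries_of_integral φ hφ0 (Φ i) (hΦ i) x (hint x)
  let e : ι ≃ κ := (Fintype.equivOfCardEq hcard).symm
  refine S18B5_not_dvd_discr b g (corestrict φ hφ0) ?_ ?_
    (fun i => corestrict (Φ (e i)) (hΦ0 (e i))) ?_ ?_ hIC
  · intro r
    rw [← hφg r, ← PowerSeries.coeff_zero_eq_constantCoeff_apply, coeff_corestrict]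
    rfl
  · rw [coeff_corestrict]
    exact hg1
  · intro i r
    apply HahnSeries.ofPowerSeries_injective (Γ := ℤ) (R := Ω)
    rw [ofPowerSeries_corestrict, ofPowerSeries_corestrict, hΦ]
  · intro i j hij
    apply e.injective
    apply hinj
    ext1 x
    have := congrArg (fun f : B →+* PowerSeries Ω => HahnSeries.ofPowerSeries ℤ Ω (f x)) hij
    simpa only [ofPowerSeries_corestrict] using this

end Wrappers

end Fermat.Agent.S18_helper16_DISCEMB
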