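import Mathlib
import Fermat.Agent.S18_helper16_DISCEMB
import Fermat.Agent.S18_helper10_EXTCNT
import Fermat.Agent.S18_helper17_BDefs

/-!
# S18, block B, piece X-B5b-HOR (abstract assembly)

`S18HOR_of_local`: local analytic data at every point `θ` of a horizontal prime through
`(π, t₀)` (a local parameter `T(s)` and `[F1 : K1(x)]` embeddings of `F1` into `Ω((s))` compatible
with the cover relation) imply the horizontal input `S18B_Hor` of the purity theorem: no
horizontal prime `g` of `R = O[X]_(π, X - t₀)` divides the discriminant of the integral closure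
of `R` in `E = F1(t)`.
-/

set_option autoImplicit false
set_option linter.unusedSectionVars false
set_option linter.style.haveILetI false

namespace Fermat.Agent.S18_helper16_HOR

open Polynomial IntermediateField Fermat.Agent.S18_helper17_BDefs

section LocPrime

variable {S R : Type*} [CommRing S] [IsDomain S] [CommRing R] [Algebra S R]
  (n0 : Ideal S) [n0.IsPrime] [IsLocalization.AtPrime R n0]

include n0 in
theorem S18HOR_algebraMap_injective : Function.Injective (algebraMap S R) :=
  IsLocalization.injective R (M := n0.primeCompl) n0.primeCompl_le_nonZeroDivisors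

/-- A prime element of `S` lying in the prime `n0` stays prime in the localization at `n0`. -/
theorem S18HOR_prime_map {p : S} (hp : Prime p) (hpn : p ∈ n0) : Prime (algebraMap S R p) := by
  have hinj : Function.Injective (algebraMap S R) := S18HOR_algebraMap_injective n0
  have h0 : algebraMap S R p ≠ 0 := by
    rw [Ne, map_eq_zero_iff _ hinj]; exact hp.ne_zero
  have hI : (Ideal.span {p} : Ideal S).IsPrime := (Ideal.span_singleton_prime hp.ne_zero).2 hp
  have hd : Disjoint (n0.primeCompl : Set S) (Ideal.span {p} : Ideal S) := by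
    rw [Set.disjoint_left]
    intro m hm hm2
    exact hm ((Ideal.span_singleton_le_iff_mem n0).2 hpn hm2)
  have := IsLocalization.isPrime_of_isPrime_disjoint n0.primeCompl R _ hI hd
  rw [Ideal.map_span, Set.image_singleton] at this
  exact (Ideal.span_singleton_prime h0).1 this

/-- Elements outside `n0` become units. -/
theorem S18HOR_isUnit_of_notMem {p : S} (hp : p ∉ n0) : IsUnit (algebraMap S R p) :=
  IsLocalization.map_units R (⟨p, hp⟩ : n0.primeCompl)

/-- A non-unit of the localization does not divide the image of an element outside `n0`. -/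
theorem S18HOR_not_dvd_of_notMem {g : R} (hg : ¬ IsUnit g) {p : S} (hp : p ∉ n0) :
    ¬ g ∣ algebraMap S R p := fun h =>
  hg (isUnit_of_dvd_unit h (S18HOR_isUnit_of_notMem n0 hp))

end LocPrime

section Point

variable {O K1 : Type} [CommRing O] [IsDomain O] [IsDiscreteValuationRing O]
  [Field K1] [Algebra O K1] [IsFractionRing O K1]
  {Ω : Type} [Field Ω] [IsAlgClosed Ω]
  {R : Type} [CommRing R] [IsDomain R] [Algebra O[X] R]

/-- A horizontal prime meets the constants trivially. -/
theorem S18HOR_const_eq_zero (π : O) (hπ : Irreducible π) (n0 : Ideal O[X]) [n0.IsPrime]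
    [IsLocalization.AtPrime R n0] (hπn : C π ∈ n0) (g : R) (hg : Prime g)
    (hgπ : ¬ Associated g (algebraMap O[X] R (C π))) (a : O)
    (ha : g ∣ algebraMap O[X] R (C a)) : a = 0 := by
  by_contra h0
  have hπ' : Prime (algebraMap O[X] R (C π)) :=
    S18HOR_prime_map n0 (Polynomial.prime_C_iff.2 hπ.prime) hπn
  obtain ⟨n, u, hu⟩ := IsDiscreteValuationRing.eq_unit_mul_pow_irreducible h0 hπ
  rw [hu, C_mul, C_pow, map_mul, map_pow] at ha
  have hunit : IsUnit (algebraMap O[X] R (C (u : O))) := (u.isUnit.map C).map _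
  have h1 : g ∣ (algebraMap O[X] R (C π)) ^ n := (hunit.dvd_mul_left).1 ha
  have h2 : g ∣ algebraMap O[X] R (C π) := hg.dvd_of_dvd_pow h1
  exact hgπ (hg.irreducible.associated_of_dvd hπ'.irreducible h2)

/-- **The point of a horizontal prime.** -/
theorem S18HOR_exists_point (e : K1 →+* Ω) (π : O) (hπ : Irreducible π) (n0 : Ideal O[X])
    [n0.IsPrime] [IsLocalization.AtPrime R n0] (hπn : C π ∈ n0) (g : R) (hg : Prime g)
    (hgπ : ¬ Associated g (algebraMap O[X] R (C π))) :
    ∃ θ : Ω, (∀ p : O[X], eval₂ (e.comp (algebraMap O K1)) θ p = 0 ↔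
        g ∣ algebraMap O[X] R p) ∧
      ∃ p : O[X], p ≠ 0 ∧ eval₂ (e.comp (algebraMap O K1)) θ p = 0 := by
  classical
  have hinjR : Function.Injective (algebraMap O[X] R) := S18HOR_algebraMap_injective n0
  let I : Ideal R := Ideal.span {g}
  let 𝔭 : Ideal O[X] := I.comap (algebraMap O[X] R)
  have hIprime : I.IsPrime := (Ideal.span_singleton_prime hg.ne_zero).2 hg
  have h𝔭 : 𝔭.IsPrime := Ideal.comap_isPrime _ I
  have hmem : ∀ p, p ∈ 𝔭 ↔ g ∣ algebraMap O[X] R p := fun p => by
    rw [Ideal.mem_comap, Ideal.mem_span_singleton]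
  -- a nonzero element of `𝔭`
  obtain ⟨G, hG0, hG⟩ : ∃ G : O[X], G ≠ 0 ∧ G ∈ 𝔭 := by
    obtain ⟨⟨a, s⟩, has⟩ := IsLocalization.surj n0.primeCompl g
    refine ⟨a, ?_, ?_⟩
    · rintro rfl
      simp only [map_zero, mul_eq_zero] at has
      rcases has with h | h
      · exact hg.ne_zero h
      · exact (S18HOR_isUnit_of_notMem n0 s.2).ne_zero h
    · rw [hmem]
      exact ⟨_, has.symm⟩
  -- the quotient
  letI algΩ : Algebra O Ω := (e.comp (algebraMap O K1)).toAlgebra
  have hinjΩ : Function.Injective (algebraMap O Ω) :=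
    e.injective.comp (IsFractionRing.injective O K1)
  have tfΩ : Module.IsTorsionFree O Ω := Module.isTorsionFree_iff_algebraMap_injective.2 hinjΩ
  have hinjD : Function.Injective (algebraMap O (O[X] ⧸ 𝔭)) := by
    rw [injective_iff_map_eq_zero]
    intro a ha
    have h1 : (Ideal.Quotient.mk 𝔭) (C a) = 0 := ha
    rw [Ideal.Quotient.eq_zero_iff_mem, hmem] at h1
    exact S18HOR_const_eq_zero π hπ n0 hπn g hg hgπ a h1
  have tfD : Module.IsTorsionFree O (O[X] ⧸ 𝔭) :=
    Module.isTorsionFree_iff_algebraMap_injective.2 hinjD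
  have hmk : ∀ p : O[X], aeval (Ideal.Quotient.mk 𝔭 X) p = Ideal.Quotient.mk 𝔭 p := by
    intro p
    have := Polynomial.aeval_algHom_apply (Ideal.Quotient.mkₐ O 𝔭) (X : O[X]) p
    rw [Polynomial.aeval_X_left_apply] at this
    exact this
  have algD : Algebra.IsAlgebraic O (O[X] ⧸ 𝔭) := by
    have hξ : IsAlgebraic O (Ideal.Quotient.mk 𝔭 X) :=
      ⟨G, hG0, by rw [hmk, Ideal.Quotient.eq_zero_iff_mem]; exact hG⟩
    refine ⟨fun y => ?_⟩
    obtain ⟨p, rfl⟩ := Ideal.Quotient.mk_surjective y
    rw [← hmk]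
    exact Algebra.isAlgebraic_adjoin_singleton_iff.mpr hξ _ (aeval_mem_adjoin_singleton O _)
  let L : (O[X] ⧸ 𝔭) →ₐ[O] Ω := IsAlgClosed.lift
  have hLinj : Function.Injective L := by
    rw [injective_iff_map_eq_zero]
    intro y hy
    by_contra hy0
    have hne := Ideal.comap_ne_bot_of_algebraic_mem (I := RingHom.ker (L : (O[X] ⧸ 𝔭) →+* Ω))
      hy0 (by rw [RingHom.mem_ker]; exact hy) (Algebra.IsAlgebraic.isAlgebraic (R := O) y)
    apply hne
    rw [eq_bot_iff]
    intro a ha
    rw [Ideal.mem_comap, RingHom.mem_ker] at ha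
    have h2 : L (algebraMap O (O[X] ⧸ 𝔭) a) = algebraMap O Ω a := L.commutes a
    rw [Ideal.mem_bot]
    apply hinjΩ
    rw [map_zero, ← h2]
    exact ha
  let ev0 : O[X] →+* Ω := (L : (O[X] ⧸ 𝔭) →+* Ω).comp (Ideal.Quotient.mk 𝔭)
  have hev0 : ev0 = eval₂RingHom (e.comp (algebraMap O K1)) (ev0 X) := by
    apply Polynomial.ringHom_ext
    · intro a
      rw [coe_eval₂RingHom, eval₂_C]
      exact L.commutes a
    · rw [coe_eval₂RingHom, eval₂_X]
  have hker : ∀ p, ev0 p = 0 ↔ p ∈ 𝔭 := by
    intro p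
    show L (Ideal.Quotient.mk 𝔭 p) = 0 ↔ _
    rw [map_eq_zero_iff L hLinj, Ideal.Quotient.eq_zero_iff_mem]
  refine ⟨ev0 X, fun p => ?_, G, hG0, ?_⟩
  · rw [← hmem, ← hker, hev0]
    simp
  · have := (hker G).2 hG
    rw [hev0] at this
    simpa using this

end Point

section Phi

variable {O K1 : Type} [CommRing O] [IsDomain O] [Field K1] [Algebra O K1]
  {Ω : Type} [Field Ω] {R : Type} [CommRing R] [IsDomain R] [Algebra O[X] R]

/-- The map `p ↦ p(T(s))` on `O[X]`. -/
noncomputable def S18HOR_phi0 (e : K1 →+* Ω) (T : PowerSeries Ω) : O[X] →+* PowerSeries Ω :=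
  eval₂RingHom ((PowerSeries.C).comp (e.comp (algebraMap O K1))) T

theorem S18HOR_phi0_apply (e : K1 →+* Ω) (T : PowerSeries Ω) (p : O[X]) :
    S18HOR_phi0 e T p = eval₂ ((PowerSeries.C).comp (e.comp (algebraMap O K1))) T p := rfl

theorem S18HOR_constantCoeff_phi0 (e : K1 →+* Ω) (T : PowerSeries Ω) (p : O[X]) :
    PowerSeries.constantCoeff (S18HOR_phi0 e T p) =
      eval₂ (e.comp (algebraMap O K1)) (PowerSeries.constantCoeff T) p := by
  rw [S18HOR_phi0_apply, Polynomial.hom_eval₂]
  have : (PowerSeries.constantCoeff (R := Ω)).comp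
      ((PowerSeries.C).comp (e.comp (algebraMap O K1))) = e.comp (algebraMap O K1) := by
    ext a
    simp
  rw [this]

/-- `d/ds p(T(s))` at `s = 0` is `p'(T(0)) T'(0)`. -/
theorem S18HOR_coeff_one_phi0 (e : K1 →+* Ω) (T : PowerSeries Ω) (p : O[X]) :
    PowerSeries.coeff 1 (S18HOR_phi0 e T p) =
      eval₂ (e.comp (algebraMap O K1)) (PowerSeries.constantCoeff T) (derivative p) *
        PowerSeries.coeff 1 T := by
  set c : O →+* Ω := e.comp (algebraMap O K1) with hc
  set θ : Ω := PowerSeries.constantCoeff T with hθ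
  set y : PowerSeries Ω := T - PowerSeries.C θ with hy
  have hT : T = PowerSeries.C θ + y := by rw [hy]; ring
  have hy0 : PowerSeries.constantCoeff y = 0 := by
    rw [hy, map_sub, PowerSeries.constantCoeff_C, hθ, sub_self]
  have hy1 : PowerSeries.coeff 1 y = PowerSeries.coeff 1 T := by
    rw [hy, map_sub, PowerSeries.coeff_C]
    simp
  obtain ⟨k, hk⟩ := Polynomial.binomExpansion (p.map ((PowerSeries.C).comp c))
    (PowerSeries.C θ) y
  have h1 : S18HOR_phi0 e T p = (p.map ((PowerSeries.C).comp c)).eval T := by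
    rw [S18HOR_phi0_apply, Polynomial.eval_map]
  have h2 : (p.map ((PowerSeries.C).comp c)).eval (PowerSeries.C θ) =
      PowerSeries.C (eval₂ c θ p) := by
    rw [Polynomial.eval_map, Polynomial.hom_eval₂]
  have h3 : (derivative (p.map ((PowerSeries.C).comp c))).eval (PowerSeries.C θ) =
      PowerSeries.C (eval₂ c θ (derivative p)) := by
    rw [Polynomial.derivative_map, Polynomial.eval_map, Polynomial.hom_eval₂]
  have h4 : PowerSeries.coeff 1 (k * y ^ 2) = 0 := by
    have hX : (PowerSeries.X : PowerSeries Ω) ∣ y := PowerSeries.X_dvd_iff.2 hy0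
    have hX2 : (PowerSeries.X : PowerSeries Ω) ^ 2 ∣ k * y ^ 2 :=
      Dvd.dvd.mul_left (pow_dvd_pow_of_dvd hX 2) k
    exact (PowerSeries.X_pow_dvd_iff.1 hX2) 1 (by norm_num)
  have key : PowerSeries.coeff 1 ((p.map ((PowerSeries.C).comp c)).eval T) =
      eval₂ c θ (derivative p) * PowerSeries.coeff 1 y := by
    conv_lhs => rw [hT]
    rw [hk, h2, h3, map_add, map_add, h4, add_zero, PowerSeries.coeff_C_mul,
      PowerSeries.coeff_C]
    simp
  rw [h1, key, hy1]

/-- **The local parametrisation of `R` along a horizontal prime.** -/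
theorem S18HOR_exists_phi (e : K1 →+* Ω) (n0 : Ideal O[X]) [n0.IsPrime]
    [IsLocalization.AtPrime R n0] (g : R) (hg : Prime g) (T : PowerSeries Ω)
    (hker : ∀ p : O[X], eval₂ (e.comp (algebraMap O K1)) (PowerSeries.constantCoeff T) p = 0 ↔
      g ∣ algebraMap O[X] R p) :
    ∃ φ : R →+* PowerSeries Ω, (∀ p, φ (algebraMap O[X] R p) = S18HOR_phi0 e T p) ∧
      (∀ r, PowerSeries.constantCoeff (φ r) = 0 ↔ g ∣ r) := by
  have hne : ∀ p : O[X], p ∉ n0 →
      eval₂ (e.comp (algebraMap O K1)) (PowerSeries.constantCoeff T) p ≠ 0 := fun p hp h =>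
    S18HOR_not_dvd_of_notMem n0 hg.not_isUnit hp ((hker p).1 h)
  have hunits : ∀ y : n0.primeCompl, IsUnit (S18HOR_phi0 (O := O) e T y) := fun y => by
    rw [PowerSeries.isUnit_iff_constantCoeff, S18HOR_constantCoeff_phi0]
    exact isUnit_iff_ne_zero.2 (hne y y.2)
  refine ⟨IsLocalization.lift (M := n0.primeCompl) (S := R) hunits,
    fun p => IsLocalization.lift_eq hunits p, fun r => ?_⟩
  obtain ⟨⟨a, s⟩, has⟩ := IsLocalization.surj n0.primeCompl r
  have has' : r * algebraMap O[X] R s = algebraMap O[X] R a := has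
  have h1 : IsLocalization.lift (M := n0.primeCompl) (S := R) hunits r *
      S18HOR_phi0 e T (s : O[X]) = S18HOR_phi0 e T a := by
    rw [← IsLocalization.lift_eq (M := n0.primeCompl) (S := R) hunits (s : O[X]),
      ← IsLocalization.lift_eq (M := n0.primeCompl) (S := R) hunits a, ← map_mul, has']
  have h2 := congrArg PowerSeries.constantCoeff h1
  rw [map_mul, S18HOR_constantCoeff_phi0, S18HOR_constantCoeff_phi0] at h2
  constructor
  · intro h
    rw [h, zero_mul] at h2
    have h3 := (hker a).1 h2.symm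
    rw [← has'] at h3
    exact (hg.dvd_or_dvd h3).resolve_right (S18HOR_not_dvd_of_notMem n0 hg.not_isUnit s.2)
  · intro h
    have h3 : g ∣ algebraMap O[X] R a := has' ▸ Dvd.dvd.mul_right h _
    rw [(hker a).2 h3] at h2
    exact (mul_eq_zero.1 h2).resolve_right (hne s s.2)

/-- The order of `φ g` is exactly one. -/
theorem S18HOR_coeff_one_ne_zero [IsDiscreteValuationRing O] [IsFractionRing O K1] [CharZero K1]
    (e : K1 →+* Ω) (π : O) (hπ : Irreducible π) (n0 : Ideal O[X]) [n0.IsPrime]
    [IsLocalization.AtPrime R n0] (hπn : C π ∈ n0) (g : R) (hg : Prime g)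
    (hgπ : ¬ Associated g (algebraMap O[X] R (C π))) (T : PowerSeries Ω)
    (hT1 : PowerSeries.coeff 1 T ≠ 0)
    (hker : ∀ p : O[X], eval₂ (e.comp (algebraMap O K1)) (PowerSeries.constantCoeff T) p = 0 ↔
      g ∣ algebraMap O[X] R p)
    (hex : ∃ p : O[X], p ≠ 0 ∧
      eval₂ (e.comp (algebraMap O K1)) (PowerSeries.constantCoeff T) p = 0)
    (φ : R →+* PowerSeries Ω) (hφ : ∀ p, φ (algebraMap O[X] R p) = S18HOR_phi0 e T p)
    (hφg : ∀ r, PowerSeries.constantCoeff (φ r) = 0 ↔ g ∣ r) :
    PowerSeries.coeff 1 (φ g) ≠ 0 := by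
  classical
  have hex' : ∃ n, ∃ p : O[X], p ≠ 0 ∧ g ∣ algebraMap O[X] R p ∧ p.natDegree = n := by
    obtain ⟨p, hp0, hp⟩ := hex
    exact ⟨_, p, hp0, (hker p).1 hp, rfl⟩
  obtain ⟨G0, hG0, hG0dvd, hdeg⟩ := Nat.find_spec hex'
  have hmin : ∀ p : O[X], p ≠ 0 → g ∣ algebraMap O[X] R p → G0.natDegree ≤ p.natDegree := by
    intro p hp hd
    rw [hdeg]
    exact Nat.find_min' hex' ⟨p, hp, hd, rfl⟩
  have hdeg0 : G0.natDegree ≠ 0 := by
    intro h
    rw [Polynomial.eq_C_of_natDegree_eq_zero h] at hG0dvd hG0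
    have := S18HOR_const_eq_zero π hπ n0 hπn g hg hgπ _ hG0dvd
    rw [this, C_0] at hG0
    exact hG0 rfl
  haveI : CharZero O := (algebraMap O K1).charZero
  have hder0 : derivative G0 ≠ 0 := fun h =>
    hdeg0 (Polynomial.derivative_eq_zero.1 h)
  have hderlt : (derivative G0).natDegree < G0.natDegree :=
    Polynomial.natDegree_derivative_lt hdeg0
  have hder : eval₂ (e.comp (algebraMap O K1)) (PowerSeries.constantCoeff T)
      (derivative G0) ≠ 0 := by
    intro h
    have := hmin _ hder0 ((hker _).1 h)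
    omega
  have h1 : PowerSeries.coeff 1 (S18HOR_phi0 e T G0) ≠ 0 := by
    rw [S18HOR_coeff_one_phi0]
    exact mul_ne_zero hder hT1
  obtain ⟨r, hr⟩ := hG0dvd
  intro hg1
  apply h1
  rw [← hφ, hr, map_mul]
  have hg0 : PowerSeries.constantCoeff (φ g) = 0 := (hφg g).2 dvd_rfl
  have hX2 : (PowerSeries.X : PowerSeries Ω) ^ 2 ∣ φ g := by
    rw [PowerSeries.X_pow_dvd_iff]
    intro m hm
    interval_cases m
    · rwa [PowerSeries.coeff_zero_eq_constantCoeff_apply]
    · exact hg1
  exact (PowerSeries.X_pow_dvd_iff.1 (Dvd.dvd.mul_right hX2 (φ r))) 1 (by norm_num)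

/-- A power series with nonzero linear term is transcendental over the constants. -/
theorem S18HOR_eval_ne_zero [IsAlgClosed Ω] (T : PowerSeries Ω)
    (hT1 : PowerSeries.coeff 1 T ≠ 0) :
    ∀ q : Polynomial Ω, q ≠ 0 → (q.map PowerSeries.C).eval T ≠ 0 := by
  intro q
  induction' hn : q.natDegree using Nat.strong_induction_on with n ih generalizing q
  intro hq
  by_cases h0 : q.natDegree = 0
  · rw [Polynomial.eq_C_of_natDegree_eq_zero h0] at hq ⊢
    rw [Polynomial.map_C, Polynomial.eval_C]
    intro h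
    apply hq
    have h2 := congrArg PowerSeries.constantCoeff h
    rw [PowerSeries.constantCoeff_C, map_zero] at h2
    rw [h2, C_0]
  · have hdeg : q.degree ≠ 0 := Polynomial.degree_ne_of_natDegree_ne h0
    obtain ⟨r, hr⟩ := IsAlgClosed.exists_root q hdeg
    obtain ⟨q1, hq1⟩ := Polynomial.dvd_iff_isRoot.2 hr
    have hq10 : q1 ≠ 0 := by
      rintro rfl
      rw [mul_zero] at hq1
      exact hq hq1
    have hdegq : q.natDegree = 1 + q1.natDegree := by
      rw [hq1, Polynomial.natDegree_mul (Polynomial.X_sub_C_ne_zero r) hq10,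
        Polynomial.natDegree_X_sub_C]
    have h1 := ih q1.natDegree (by omega) q1 rfl hq10
    rw [hq1, Polynomial.map_mul, Polynomial.eval_mul]
    refine mul_ne_zero ?_ h1
    rw [Polynomial.map_sub, Polynomial.map_X, Polynomial.map_C, Polynomial.eval_sub,
      Polynomial.eval_X, Polynomial.eval_C]
    intro h
    apply hT1
    have h2 := congrArg (PowerSeries.coeff 1) h
    rw [map_sub, PowerSeries.coeff_C, map_zero] at h2
    simpa using h2

end Phi

section Fields

variable {K F E : Type*} [Field K] [Field F] [Field E] [Algebra K F] [Algebra F E]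
  [Algebra K E] [IsScalarTower K F E]

theorem S18HOR_transcendental (x : F) (hx : Transcendental K x) (t : E) (An Bd : K[X])
    (hrel : algebraMap F E x * aeval t Bd = aeval t An) (hBd : aeval t Bd ≠ 0) :
    Transcendental K t := by
  intro halg
  apply hx
  have hsub : (Algebra.adjoin K {t}).IsAlgebraic :=
    Algebra.isAlgebraic_adjoin_singleton_iff.mpr halg
  have h1 : IsAlgebraic K (aeval t An) := hsub _ (aeval_mem_adjoin_singleton K t)
  have h2 : IsAlgebraic K (aeval t Bd) := hsub _ (aeval_mem_adjoin_singleton K t)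
  have h3 : algebraMap F E x = aeval t An * (aeval t Bd)⁻¹ := by
    rw [← hrel]
    field_simp
  have h4 : IsAlgebraic K (algebraMap F E x) := by
    rw [h3]
    exact h1.mul (IsAlgebraic.inv_iff.2 h2)
  exact (isAlgebraic_algebraMap_iff (algebraMap F E).injective).1 h4

theorem S18HOR_aeval_mem (t : E) (p : K[X]) : aeval t p ∈ K⟮t⟯ :=
  IntermediateField.algebra_adjoin_le_adjoin K _ (aeval_mem_adjoin_singleton K t)

theorem S18HOR_map_mem (x : F) (t : E) (An Bd : K[X])
    (hrel : algebraMap F E x * aeval t Bd = aeval t An) (hBd : aeval t Bd ≠ 0)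
    (a : F) (ha : a ∈ K⟮x⟯) : algebraMap F E a ∈ K⟮t⟯ := by
  have hx : algebraMap F E x ∈ K⟮t⟯ := by
    have h3 : algebraMap F E x = aeval t An * (aeval t Bd)⁻¹ := by
      rw [← hrel]
      field_simp
    rw [h3]
    exact mul_mem (S18HOR_aeval_mem t An) (inv_mem (S18HOR_aeval_mem t Bd))
  induction ha using IntermediateField.adjoin_induction with
  | mem y hy =>
    rw [Set.mem_singleton_iff] at hy
    subst hy
    exact hx
  | algebraMap c =>
    rw [← IsScalarTower.algebraMap_apply]
    exact K⟮t⟯.algebraMap_mem c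
  | add y z _ _ h1 h2 => rw [map_add]; exact add_mem h1 h2
  | inv y _ h => rw [map_inv₀]; exact inv_mem h
  | mul y z _ _ h1 h2 => rw [map_mul]; exact mul_mem h1 h2

theorem S18HOR_finiteDimensional (x : F) (hx : Transcendental K x) [FiniteDimensional K⟮x⟯ F]
    (t : E) (hgen : IntermediateField.adjoin F {t} = ⊤) (An Bd : K[X])
    (hrel : algebraMap F E x * aeval t Bd = aeval t An) (hBd : aeval t Bd ≠ 0) :
    FiniteDimensional K⟮t⟯ E := by
  classical
  -- `t` is algebraic over `F`
  have hBd0 : Bd ≠ 0 := by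
    rintro rfl
    exact hBd (map_zero _)
  have hint : IsIntegral F t := by
    rw [← isAlgebraic_iff_isIntegral]
    refine ⟨An.map (algebraMap K F) - C x * Bd.map (algebraMap K F), ?_, ?_⟩
    · intro h0
      obtain ⟨i, hi⟩ : ∃ i, Bd.coeff i ≠ 0 := by
        by_contra hcon
        push Not at hcon
        exact hBd0 (Polynomial.ext fun i => by rw [hcon i, coeff_zero])
      have h1 := congrArg (fun P : F[X] => P.coeff i) h0
      simp only [coeff_sub, coeff_map, coeff_C_mul, coeff_zero] at h1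
      apply hx
      have h2 : x = algebraMap K F (An.coeff i / Bd.coeff i) := by
        rw [map_div₀, eq_div_iff ((_root_.map_ne_zero _).2 hi)]
        exact (sub_eq_zero.1 h1).symm
      rw [h2]
      exact isAlgebraic_algebraMap _
    · rw [map_sub, map_mul, aeval_C, Polynomial.aeval_map_algebraMap,
        Polynomial.aeval_map_algebraMap, hrel, sub_self]
  have hfin1 : FiniteDimensional F (⊤ : IntermediateField F E) :=
    hgen ▸ IntermediateField.adjoin.finiteDimensional hint
  have hfin2 : FiniteDimensional F E :=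
    Module.Finite.equiv (IntermediateField.topEquiv (F := F) (E := E)).toLinearEquiv
  have hfin3 : FiniteDimensional K⟮x⟯ E := Module.Finite.trans F E
  let h01 : K⟮x⟯ →+* K⟮t⟯ :=
    ((algebraMap F E).comp (algebraMap K⟮x⟯ F)).codRestrict K⟮t⟯
      (fun a => S18HOR_map_mem x t An Bd hrel hBd a a.2)
  letI : Algebra K⟮x⟯ K⟮t⟯ := h01.toAlgebra
  haveI : IsScalarTower K⟮x⟯ K⟮t⟯ E := IsScalarTower.of_algebraMap_eq (fun a => rfl)
  exact Module.Finite.of_restrictScalars_finite K⟮x⟯ K⟮t⟯ E

end Fields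

section Rank

variable {O K1 E R B : Type*} [CommRing O] [IsDomain O] [Field K1] [Algebra O K1]
  [IsFractionRing O K1] [Field E] [Algebra K1 E] [Algebra O E] [IsScalarTower O K1 E]
  [CommRing R] [IsDomain R] [Algebra O[X] R] [Algebra R E]
  [CommRing B] [Algebra R B] [Algebra B E] [IsScalarTower R B E]

/-- Every element of `K1(t)` is a quotient of elements of `R`. -/
theorem S18HOR_exists_frac (t : E)
    (hRt : ∀ p : O[X], algebraMap R E (algebraMap O[X] R p) = aeval t p)
    (hinjRE : Function.Injective (algebraMap R E)) (c : E) (hc : c ∈ K1⟮t⟯) :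
    ∃ r r' : R, r ≠ 0 ∧ algebraMap R E r * c = algebraMap R E r' := by
  induction hc using IntermediateField.adjoin_induction with
  | mem y hy =>
    rw [Set.mem_singleton_iff] at hy
    subst hy
    refine ⟨1, algebraMap O[X] R X, one_ne_zero, ?_⟩
    rw [map_one, one_mul, hRt, aeval_X]
  | algebraMap a =>
    obtain ⟨n, d, hd, had⟩ := IsFractionRing.div_surjective (A := O) a
    have hd0 : d ≠ 0 := nonZeroDivisors.ne_zero hd
    have hdE : algebraMap R E (algebraMap O[X] R (C d)) = algebraMap K1 E (algebraMap O K1 d) := by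
      rw [hRt, aeval_C, IsScalarTower.algebraMap_apply O K1 E]
    have hnE : algebraMap R E (algebraMap O[X] R (C n)) = algebraMap K1 E (algebraMap O K1 n) := by
      rw [hRt, aeval_C, IsScalarTower.algebraMap_apply O K1 E]
    have hdK : algebraMap O K1 d ≠ 0 := by
      rw [Ne, map_eq_zero_iff _ (IsFractionRing.injective O K1)]
      exact hd0
    refine ⟨algebraMap O[X] R (C d), algebraMap O[X] R (C n), ?_, ?_⟩
    · intro h
      have h2 := congrArg (algebraMap R E) h
      rw [hdE, map_zero, map_eq_zero] at h2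
      exact hdK h2
    · rw [hdE, hnE, ← had, ← map_mul, mul_div_cancel₀ _ hdK]
  | add y z _ _ h1 h2 =>
    obtain ⟨r1, r1', h10, h1⟩ := h1
    obtain ⟨r2, r2', h20, h2⟩ := h2
    refine ⟨r1 * r2, r1' * r2 + r2' * r1, mul_ne_zero h10 h20, ?_⟩
    rw [map_add, map_mul, map_mul, map_mul, ← h1, ← h2]
    ring
  | inv y _ h =>
    obtain ⟨r1, r1', h10, h1⟩ := h
    by_cases hy : y = 0
    · subst hy
      exact ⟨1, 0, one_ne_zero, by simp⟩
    · refine ⟨r1', r1, ?_, ?_⟩
      · rintro rfl
        rw [map_zero, mul_eq_zero] at h1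
        rcases h1 with h1 | h1
        · exact h10 ((map_eq_zero_iff _ hinjRE).1 h1)
        · exact hy h1
      · rw [← h1]
        field_simp
  | mul y z _ _ h1 h2 =>
    obtain ⟨r1, r1', h10, h1⟩ := h1
    obtain ⟨r2, r2', h20, h2⟩ := h2
    refine ⟨r1 * r2, r1' * r2', mul_ne_zero h10 h20, ?_⟩
    rw [map_mul, map_mul, ← h1, ← h2]
    ring

/-- The rank of `B` over `R` is at most `[E : K1(t)]`. -/
theorem S18HOR_card_le (t : E)
    (hRt : ∀ p : O[X], algebraMap R E (algebraMap O[X] R p) = aeval t p)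
    (hinjRE : Function.Injective (algebraMap R E))
    (hinjBE : Function.Injective (algebraMap B E)) [FiniteDimensional K1⟮t⟯ E]
    {ι : Type*} [Fintype ι] (b : Module.Basis ι R B) :
    Fintype.card ι ≤ Module.finrank K1⟮t⟯ E := by
  classical
  have hli : LinearIndependent K1⟮t⟯ (fun i => algebraMap B E (b i)) := by
    rw [Fintype.linearIndependent_iff]
    intro c hc i₀
    have hfrac := fun i => S18HOR_exists_frac (O := O) (K1 := K1) (R := R) t hRt hinjRE
      (c i : E) (c i).2
    choose r r' hr0 hr using hfrac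
    let a : ι → R := fun i => r' i * ∏ j ∈ Finset.univ.erase i, r j
    have hD : ∀ i, (∏ j, r j) = r i * ∏ j ∈ Finset.univ.erase i, r j := fun i =>
      (Finset.mul_prod_erase Finset.univ r (Finset.mem_univ i)).symm
    have ha : ∀ i, algebraMap R E (a i) = algebraMap R E (∏ j, r j) * (c i : E) := by
      intro i
      rw [hD i, map_mul, map_mul, mul_right_comm, hr i]
    have hsum : algebraMap B E (∑ i, a i • b i) = 0 := by
      rw [map_sum]
      have h1 : ∀ i, algebraMap B E (a i • b i) =
          algebraMap R E (∏ j, r j) * ((c i : E) * algebraMap B E (b i)) := by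
        intro i
        rw [Algebra.smul_def, map_mul, ← IsScalarTower.algebraMap_apply R B E, ha i, mul_assoc]
      rw [Finset.sum_congr rfl (fun i _ => h1 i), ← Finset.mul_sum]
      have h2 : ∑ i, (c i : E) * algebraMap B E (b i) = ∑ i, c i • algebraMap B E (b i) :=
        Finset.sum_congr rfl (fun i _ => rfl)
      rw [h2, hc, mul_zero]
    have hsum0 : ∑ i, a i • b i = 0 := hinjBE (by rw [hsum, map_zero])
    have hai : a i₀ = 0 := (Fintype.linearIndependent_iff.1 b.linearIndependent) a hsum0 i₀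
    have hprod : (∏ j, r j) ≠ 0 := Finset.prod_ne_zero_iff.2 (fun j _ => hr0 j)
    have h3 := ha i₀
    rw [hai, map_zero] at h3
    have h4 := (mul_eq_zero.1 h3.symm).resolve_left
      (fun h => hprod ((map_eq_zero_iff _ hinjRE).1 h))
    exact Subtype.ext h4
  exact hli.fintype_card_le_finrank

/-- Every element of `E` is algebraic over `R`. -/
theorem S18HOR_isAlgebraic (t : E)
    (hRt : ∀ p : O[X], algebraMap R E (algebraMap O[X] R p) = aeval t p)
    (hinjRE : Function.Injective (algebraMap R E)) [FiniteDimensional K1⟮t⟯ E] (z : E) :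
    IsAlgebraic R z := by
  classical
  obtain ⟨p, hp0, hpz⟩ := Algebra.IsAlgebraic.isAlgebraic (R := K1⟮t⟯) z
  have hfrac := fun k => S18HOR_exists_frac (O := O) (K1 := K1) (R := R) t hRt hinjRE
    (p.coeff k : E) (p.coeff k).2
  choose r r' hr0 hr using hfrac
  set D : R := ∏ k ∈ p.support, r k with hDdef
  have hD0 : D ≠ 0 := Finset.prod_ne_zero_iff.2 (fun j _ => hr0 j)
  let a : ℕ → R := fun k => r' k * ∏ j ∈ p.support.erase k, r j
  have ha : ∀ k ∈ p.support, algebraMap R E (a k) = algebraMap R E D * (p.coeff k : E) := by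
    intro k hk
    rw [hDdef, ← Finset.mul_prod_erase p.support r hk, map_mul, map_mul, mul_right_comm, hr k]
  refine ⟨∑ k ∈ p.support, monomial k (a k), ?_, ?_⟩
  · intro hq
    have hn : p.natDegree ∈ p.support := Polynomial.natDegree_mem_support_of_nonzero hp0
    have h1 := congrArg (fun P : R[X] => P.coeff p.natDegree) hq
    simp only [Polynomial.finsetSum_coeff, Polynomial.coeff_monomial, coeff_zero] at h1
    rw [Finset.sum_ite_eq' p.support p.natDegree, if_pos hn] at h1
    have h2 := ha _ hn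
    rw [h1, map_zero] at h2
    rcases mul_eq_zero.1 h2.symm with h3 | h3
    · exact hD0 ((map_eq_zero_iff _ hinjRE).1 h3)
    · have h4 : p.coeff p.natDegree = 0 := Subtype.ext h3
      exact (Polynomial.mem_support_iff.1 hn) h4
  · rw [map_sum]
    have h1 : ∀ k ∈ p.support, aeval z (monomial k (a k)) =
        algebraMap R E D * ((p.coeff k : E) * z ^ k) := by
      intro k hk
      rw [Polynomial.aeval_monomial, ha k hk, mul_assoc]
    rw [Finset.sum_congr rfl h1, ← Finset.mul_sum]
    have h2 : aeval z p = ∑ k ∈ p.support, (p.coeff k : E) * z ^ k := by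
      rw [Polynomial.aeval_def, Polynomial.eval₂_eq_sum, Polynomial.sum_def]
      rfl
    rw [← h2, hpz, mul_zero]

end Rank

section Main

/-- Local analytic input at a point `θ` of the cover: a local parameter `T(s)` through `θ` and
`[F1 : K1(x)]` pairwise distinct embeddings of `F1` in `Ω((s))`, constant on `K1` via `e`, and
compatible with the cover relation `An(T) = x * Bd(T)`. -/
def S18HOR_LocalData {O K1 F1 : Type} [CommRing O] [Field K1] [Field F1] [Algebra O K1]
    [Algebra K1 F1] (x : F1) (An Bd : O[X]) {Ω : Type} [Field Ω] (e : K1 →+* Ω) (θ : Ω) : Prop :=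
  ∃ (T : PowerSeries Ω) (κ : Type) (_ : Fintype κ) (ι : κ → F1 →+* LaurentSeries Ω),
    PowerSeries.constantCoeff T = θ ∧ PowerSeries.coeff 1 T ≠ 0 ∧
    Function.Injective ι ∧
    (∀ q a, ι q (algebraMap K1 F1 a) = HahnSeries.C (e a)) ∧
    (∀ q, ι q x * HahnSeries.ofPowerSeries ℤ Ω
        (eval₂ (PowerSeries.C.comp (e.comp (algebraMap O K1))) T Bd) =
      HahnSeries.ofPowerSeries ℤ Ω (eval₂ (PowerSeries.C.comp (e.comp (algebraMap O K1))) T An)) ∧
    Fintype.card κ = Module.finrank K1⟮x⟯ F1

variable {O K1 : Type} [CommRing O] [IsDomain O] [Field K1] [Algebra O K1] {Ω : Type} [Field Ω]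

theorem S18HOR_ofPowerSeries_phi0 (e : K1 →+* Ω) (T : PowerSeries Ω) (p : O[X]) :
    HahnSeries.ofPowerSeries ℤ Ω (S18HOR_phi0 e T p) =
      ((p.map (algebraMap O K1)).map ((HahnSeries.C : Ω →+* LaurentSeries Ω).comp e)).eval
        (HahnSeries.ofPowerSeries ℤ Ω T) := by
  rw [S18HOR_phi0_apply, Polynomial.hom_eval₂, Polynomial.eval_map, Polynomial.eval₂_map]
  congr 1
  ext a
  simp

theorem S18HOR_eval_laurent_ne_zero [IsAlgClosed Ω] (e : K1 →+* Ω) (T : PowerSeries Ω)
    (hT1 : PowerSeries.coeff 1 T ≠ 0) (p : K1[X]) (hp : p ≠ 0) :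
    (p.map ((HahnSeries.C : Ω →+* LaurentSeries Ω).comp e)).eval
      (HahnSeries.ofPowerSeries ℤ Ω T) ≠ 0 := by
  have h1 : (p.map ((HahnSeries.C : Ω →+* LaurentSeries Ω).comp e)).eval
      (HahnSeries.ofPowerSeries ℤ Ω T) =
      HahnSeries.ofPowerSeries ℤ Ω (((p.map e).map PowerSeries.C).eval T) := by
    rw [Polynomial.eval_map, Polynomial.eval_map, Polynomial.eval₂_map, Polynomial.hom_eval₂]
    congr 1
    ext a
    simp
  rw [h1, Ne, map_eq_zero_iff _ HahnSeries.ofPowerSeries_injective]
  exact S18HOR_eval_ne_zero T hT1 _ ((Polynomial.map_ne_zero_iff e.injective).2 hp)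

/-- **X-B5b-HOR, abstract assembly.**  Local analytic data at every point of every horizontal
prime through `(π, t₀)` imply the horizontal input `S18B_Hor` of the purity theorem. -/
theorem S18HOR_of_local {O K1 F1 : Type} [CommRing O] [IsDomain O] [IsDiscreteValuationRing O]
    [Field K1] [CharZero K1] [Algebra O K1] [IsFractionRing O K1] [Field F1] [Algebra K1 F1]
    [Algebra O F1] [IsScalarTower O K1 F1]
    (π : O) (hπ : Irreducible π) (x : F1) (hx : Transcendental K1 x) [FiniteDimensional K1⟮x⟯ F1]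
    (An Bd : O[X])
    (hden : ∀ (E : Type) [Field E] [Algebra F1 E] [Algebra O E] [IsScalarTower O F1 E] (t : E),
      S18B_rel x An Bd E t → aeval t Bd ≠ 0)
    (t₀ : O) {Ω : Type} [Field Ω] [IsAlgClosed Ω] (e : K1 →+* Ω)
    (hloc : ∀ θ : Ω,
      (∀ p : O[X], p ∉ (Ideal.span {C π, X - C t₀} : Ideal O[X]) →
        eval₂ (e.comp (algebraMap O K1)) θ p ≠ 0) →
      (∃ p : O[X], p ≠ 0 ∧ eval₂ (e.comp (algebraMap O K1)) θ p = 0) →
      S18HOR_LocalData x An Bd e θ) :
    S18B_Hor O F1 π x An Bd t₀ := by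
  intro E _ _ _ _ t hrel hgen hn0P R _ _ _ _ _ hRt B _ _ _ _ _ g hg hgπ ι _ _ b
  classical
  have hπn : C π ∈ (Ideal.span {C π, X - C t₀} : Ideal O[X]) := Ideal.subset_span (by simp)
  haveI : CharZero Ω := charZero_of_injective_ringHom e.injective
  -- Step 1: the point `θ`
  obtain ⟨θ, hker, hex⟩ := S18HOR_exists_point (Ω := Ω) e π hπ
    (Ideal.span {C π, X - C t₀} : Ideal O[X]) hπn g hg hgπ
  have hne : ∀ p : O[X], p ∉ (Ideal.span {C π, X - C t₀} : Ideal O[X]) →
      eval₂ (e.comp (algebraMap O K1)) θ p ≠ 0 := fun p hp h =>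
    S18HOR_not_dvd_of_notMem _ hg.not_isUnit hp ((hker p).1 h)
  -- Step 2: the local data
  obtain ⟨T, κ, hκ, ι', hT0, hT1, hιinj, hιK, hιrel, hcard⟩ := hloc θ hne hex
  subst hT0
  -- Step 3: the parametrisation of `R`
  obtain ⟨φ, hφ, hφg⟩ := S18HOR_exists_phi e
    (Ideal.span {C π, X - C t₀} : Ideal O[X]) g hg T hker
  -- Step 4: `φ g` has order one
  have hg1 := S18HOR_coeff_one_ne_zero e π hπ
    (Ideal.span {C π, X - C t₀} : Ideal O[X]) hπn g hg hgπ T hT1 hker hex φ hφ hφg
  -- Step 5: the field `E`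
  letI algK1E : Algebra K1 E := ((algebraMap F1 E).comp (algebraMap K1 F1)).toAlgebra
  haveI : IsScalarTower K1 F1 E := IsScalarTower.of_algebraMap_eq (fun _ => rfl)
  haveI : IsScalarTower O K1 E := IsScalarTower.of_algebraMap_eq (fun a => by
    show algebraMap O E a = algebraMap F1 E (algebraMap K1 F1 (algebraMap O K1 a))
    rw [← IsScalarTower.algebraMap_apply O K1 F1, ← IsScalarTower.algebraMap_apply O F1 E])
  have hBdt : aeval t (Bd.map (algebraMap O K1)) ≠ 0 := by
    rw [aeval_map_algebraMap]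
    exact hden E t hrel
  have hrel' : algebraMap F1 E x * aeval t (Bd.map (algebraMap O K1)) =
      aeval t (An.map (algebraMap O K1)) := by
    rw [aeval_map_algebraMap, aeval_map_algebraMap]
    exact hrel.symm
  have hBd0 : Bd.map (algebraMap O K1) ≠ 0 := by
    intro h
    rw [h, map_zero] at hBdt
    exact hBdt rfl
  have ht : Transcendental K1 t := S18HOR_transcendental x hx t _ _ hrel' hBdt
  haveI : FiniteDimensional K1⟮t⟯ E := S18HOR_finiteDimensional x hx t hgen _ _ hrel' hBdt
  -- the embeddings of `E`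
  set φK : K1 →+* LaurentSeries Ω := (HahnSeries.C : Ω →+* LaurentSeries Ω).comp e with hφK
  set TL : LaurentSeries Ω := HahnSeries.ofPowerSeries ℤ Ω T with hTL
  have hT : ∀ p : K1[X], p ≠ 0 → (p.map φK).eval TL ≠ 0 := fun p hp =>
    S18HOR_eval_laurent_ne_zero e T hT1 p hp
  have hBdT : ((Bd.map (algebraMap O K1)).map φK).eval TL ≠ 0 := hT _ hBd0
  have hιrel' : ∀ q, ι' q x * ((Bd.map (algebraMap O K1)).map φK).eval TL =
      ((An.map (algebraMap O K1)).map φK).eval TL := by
    intro q
    rw [← S18HOR_ofPowerSeries_phi0, ← S18HOR_ofPowerSeries_phi0]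
    exact hιrel q
  set J : LaurentSeries Ω := ((An.map (algebraMap O K1)).map φK).eval TL /
    ((Bd.map (algebraMap O K1)).map φK).eval TL with hJ
  have hιj : ∀ q, ι' q x = J := fun q => by
    rw [hJ, eq_div_iff hBdT]
    exact hιrel' q
  have hrelΩ : J * ((Bd.map (algebraMap O K1)).map φK).eval TL =
      ((An.map (algebraMap O K1)).map φK).eval TL := div_mul_cancel₀ _ hBdT
  obtain ⟨S, Φ, hScard, hΦinj, hΦF, hΦK, hΦt, hΦp⟩ :=
    Fermat.Agent.S18_helper10_EXTCNT.S18XB5_ext_count_full (K := K1) (F := F1) (E := E)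
      φK x t ht hgen (An.map (algebraMap O K1)) (Bd.map (algebraMap O K1)) hBd0 hrel' ι' hιinj
      hιK J hιj hcard TL hT hrelΩ
  -- Step 6: restriction to `B`
  have hinjOX : Function.Injective (algebraMap O[X] R) :=
    S18HOR_algebraMap_injective (Ideal.span {C π, X - C t₀} : Ideal O[X])
  have haeval_inj : ∀ p : O[X], aeval t p = 0 → p = 0 := by
    intro p hp
    rw [← aeval_map_algebraMap K1] at hp
    have h1 := (transcendental_iff.1 ht) _ hp
    exact (Polynomial.map_eq_zero_iff (IsFractionRing.injective O K1)).1 h1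
  have hinjRE : Function.Injective (algebraMap R E) := by
    rw [injective_iff_map_eq_zero]
    intro r hr
    obtain ⟨⟨a, s⟩, has⟩ := IsLocalization.surj
      (Ideal.span {C π, X - C t₀} : Ideal O[X]).primeCompl r
    have has' : r * algebraMap O[X] R s = algebraMap O[X] R a := has
    have h1 := congrArg (algebraMap R E) has'
    rw [map_mul, hr, zero_mul, hRt] at h1
    have h2 := haeval_inj a h1.symm
    rw [h2, map_zero] at has'
    rcases mul_eq_zero.1 has' with h3 | h3
    · exact h3
    · exact absurd h3 (S18HOR_isUnit_of_notMem _ s.2).ne_zero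
  have hinjBE : Function.Injective (algebraMap B E) := IsIntegralClosure.algebraMap_injective B R E
  have hcardle : Fintype.card ι ≤ Module.finrank K1⟮t⟯ E :=
    S18HOR_card_le (O := O) (K1 := K1) t hRt hinjRE hinjBE b
  obtain ⟨emb⟩ : Nonempty (ι ↪ {i // i ∈ S}) :=
    Function.Embedding.nonempty_of_card_le (by rw [hScard]; exact hcardle)
  haveI : IsDomain B := hinjBE.isDomain
  haveI : Algebra.IsAlgebraic R E :=
    ⟨fun z => S18HOR_isAlgebraic (O := O) (K1 := K1) t hRt hinjRE z⟩
  have hfracB : IsFractionRing B E :=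
    IsIntegralClosure.isFractionRing_of_algebraic R B
      (fun r hr => hinjRE (by rw [hr, map_zero]))
  let φL : R →+* LaurentSeries Ω := (HahnSeries.ofPowerSeries ℤ Ω).comp φ
  let Φ'' : ι → B →+* LaurentSeries Ω := fun i => (Φ (emb i)).comp (algebraMap B E)
  have hΦ'' : ∀ i r, Φ'' i (algebraMap R B r) = φL r := by
    intro i
    have hext : ((Φ'' i).comp (algebraMap R B)) = φL := by
      apply IsLocalization.ringHom_ext (Ideal.span {C π, X - C t₀} : Ideal O[X]).primeCompl
      refine RingHom.ext fun p => ?_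
      show Φ (emb i) (algebraMap B E (algebraMap R B (algebraMap O[X] R p))) =
        HahnSeries.ofPowerSeries ℤ Ω (φ (algebraMap O[X] R p))
      rw [← IsScalarTower.algebraMap_apply R B E, hRt, hφ, S18HOR_ofPowerSeries_phi0,
        ← aeval_map_algebraMap K1, hΦp]
    intro r
    exact RingHom.congr_fun hext r
  have hinj'' : Function.Injective Φ'' := by
    intro i i' h
    apply emb.injective
    apply hΦinj
    exact IsLocalization.ringHom_ext (nonZeroDivisors B) h
  have hIC := Fermat.Agent.S18_helper16_DISCEMB.S18B5_hIC_of_closed (R := R) (B := B) (E := E)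
    hinjBE (fun z hz => (IsIntegralClosure.isIntegral_iff (A := B)).1 hz) g
    (isUnit_iff_ne_zero.2 (fun h => hg.ne_zero (hinjRE (by rw [h, map_zero]))))
  refine Fermat.Agent.S18_helper16_DISCEMB.S18B5_not_dvd_discr_laurent (Ω := Ω) b g φL
    (fun r => ⟨φ r, rfl⟩) ?_ ?_ Φ'' rfl hΦ'' hinj'' hIC
  · intro r
    have h1 : (φL r).coeff 0 = PowerSeries.constantCoeff (φ r) := by
      have := HahnSeries.ofPowerSeries_apply_coeff (Γ := ℤ) (φ r) 0
      simp only [Nat.cast_zero, PowerSeries.coeff_zero_eq_constantCoeff] at this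
      exact this
    rw [h1]
    exact hφg r
  · have h1 : (φL g).coeff 1 = PowerSeries.coeff 1 (φ g) := by
      have := HahnSeries.ofPowerSeries_apply_coeff (Γ := ℤ) (φ g) 1
      simp only [Nat.cast_one] at this
      exact this
    rw [h1]
    exact hg1

end Main

end Fermat.Agent.S18_helper16_HOR
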