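import Fermat.Agent.S18_helper18_TENSORO
import Fermat.Agent.S18_helper13_GAUSS2
import Fermat.Agent.S18_helper9_CDefs
import Fermat.Agent.S18_helper14_ADefs

/-!
# S18, block A, piece X-A2-LOC (helper18)

Glue between block A and the contract of block C (`S18_helper9_CDefs.Setup` / `Chart`): for the
chart rings `A_0 = O · chartAlgFin`, `A_∞ = O · chartAlgInf` inside `K1((q))` we prove

* `A_s ⊆ F1 := modularFunctionFieldFullC K1 N` and `F1 ⊆ Frac A_s`;
* the fields `le_V`, `x_inv_mem`, `sat`, `loc` of `Chart` with `V := (Gauss ring) ∩ F1`;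
* the fields `π_mem`, `O_le`, `j_mem`, `V_le`, `V_val`, `V_unif`, `π_nonunit` of `Setup`.
-/

set_option autoImplicit false
set_option linter.unusedSectionVars false
set_option linter.unusedVariables false

noncomputable section

open ModularCurve ModularCurve.IgusaScheme Polynomial Fermat.Agent.S28_helper14_Defs
  Fermat.Agent.S28_helper14_Res Fermat.Agent.S28_helper14_Val
  Fermat.Agent.S18_helper18_TENSORO Fermat.Agent.S18_helper13_GAUSS

namespace Fermat.Agent.S18_helper18_CHARTV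

/-! ## Part A: the function field over `ℚ` is the fraction field of each chart -/

section FracQ

variable (N : ℕ) [NeZero N] (ℓ : ℕ) [Fact ℓ.Prime]

/-- Every element of the function field is a quotient of two elements of the finite chart. -/
theorem frac_fin (hℓN : ¬ ℓ ∣ N) (y : ↥(modularFunctionFieldFull N)) :
    ∃ a ∈ chartAlgFin N ℓ, ∃ b ∈ chartAlgFin N ℓ, b ≠ 0 ∧ y * b = a := by
  classical
  obtain ⟨D⟩ := Fermat.Agent.S28_helper14_UD.exists_unitData_h14 N
  obtain ⟨A0, B0, hA0, hid0⟩ := Fermat.Agent.S28_SPANQ.spanQ N D (y : LaurentSeries ℚ) y.2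
  set F : ℕ → ℚ[X] := fun i => if i < D.ι then B0 i else A0 with hF
  have hFι : F D.ι = A0 := by simp [hF]
  have hFlt : ∀ i < D.ι, F i = B0 i := fun i hi => by simp [hF, hi]
  obtain ⟨t, G, ht, hG, -⟩ := Fermat.Agent.S28_KEYREP.exists_scale_poly ℓ (D.ι + 1) F
    ⟨D.ι, Nat.lt_succ_self _, by rw [hFι]; exact hA0⟩
  set A : (Rl ℓ)[X] := (G D.ι).map (Int.castRingHom (Rl ℓ)) with hA
  have haev : ∀ i < D.ι + 1, aeval jq ((G i).map (Int.castRingHom (Rl ℓ)))
      = algebraMap ℚ (LaurentSeries ℚ) t * aeval jq (F i) := by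
    intro i hi
    rw [Fermat.Agent.S28_KEYREP.aeval_map_int, hG i hi, map_mul, aeval_C]
  have hid : aeval jq A * (y : LaurentSeries ℚ) = ∑ i ∈ Finset.range D.ι,
      aeval jq ((G i).map (Int.castRingHom (Rl ℓ))) * (Vser ℚ (D.k₀ * (D.ι - 1)) D.U) ^ i := by
    rw [hA, haev _ (Nat.lt_succ_self _), hFι, mul_assoc, hid0, Finset.mul_sum]
    refine Finset.sum_congr rfl fun i hi => ?_
    have hi' := Finset.mem_range.mp hi
    rw [haev i (by omega), hFlt i hi']
    ring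
  have hA0' : aeval jq A ≠ 0 := by
    rw [hA, haev _ (Nat.lt_succ_self _), hFι]
    refine mul_ne_zero ?_ ?_
    · rw [Ne, map_eq_zero_iff _ (algebraMap ℚ (LaurentSeries ℚ)).injective]
      exact ht
    · intro h
      exact hA0 ((transcendental_iff.mp Fermat.Agent.S28_helper14_Key.transcendental_jq) A0 h)
  -- the denominator as an element of the function field
  set b : ↥(modularFunctionFieldFull N) := aeval (jFull N) A with hb
  have hbcoe : (b : LaurentSeries ℚ) = aeval jq A := by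
    have := Polynomial.aeval_algHom_apply (Fermat.Agent.S28_GLUE.incF N ℓ) (jFull N) A
    rw [Fermat.Agent.S28_GLUE.incF_apply, Fermat.Agent.S28_GLUE.incF_apply] at this
    rw [hb, ← this]
    rfl
  have hbmem : b ∈ chartAlgFin N ℓ :=
    adjoin_le_chartAlg N ℓ _ (Polynomial.aeval_mem_adjoin_singleton _ _)
  have hb0 : b ≠ 0 := by
    intro h
    apply hA0'
    rw [← hbcoe, h]
    rfl
  refine ⟨y * b, ?_, b, hbmem, hb0, rfl⟩
  rw [Fermat.Agent.S28_GLUE.mem_chartAlg_iff_isIntegral N ℓ (jFull N)]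
  have h1 : (((y * b : ↥(modularFunctionFieldFull N))) : LaurentSeries ℚ) =
      aeval jq A * (y : LaurentSeries ℚ) := by
    rw [← hbcoe, mul_comm]
    rfl
  rw [h1, hid]
  exact IsIntegral.sum _ fun i _ =>
    (Fermat.Agent.S28_helper14_Key.isIntegral_aeval ℓ jq _).mul
      ((Fermat.Agent.S28_helper14_Key.isIntegral_V N ℓ hℓN D).pow i)

/-- Every element of the function field is a quotient of two elements of the chart at
infinity. -/
theorem frac_inf (hℓN : ¬ ℓ ∣ N) (y : ↥(modularFunctionFieldFull N)) :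
    ∃ a ∈ chartAlgInf N ℓ, ∃ b ∈ chartAlgInf N ℓ, b ≠ 0 ∧ y * b = a := by
  obtain ⟨a, ha, b, hb, hb0, hab⟩ := frac_fin N ℓ hℓN y
  have hs : ((jFull N)⁻¹ : ↥(modularFunctionFieldFull N)) ∈
      ({(jFull N)⁻¹} : Set ↥(modularFunctionFieldFull N)) := Set.mem_singleton _
  have hs0 : ((jFull N)⁻¹ : ↥(modularFunctionFieldFull N)) ≠ 0 := inv_ne_zero (jFull_ne_zero N)
  have hmid : ∀ z ∈ chartAlgFin N ℓ,
      z ∈ chartAlg N ℓ (insert ((jFull N)⁻¹)⁻¹ {(jFull N)⁻¹}) := by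
    intro z hz
    refine chartAlg_mono N ℓ ?_ hz
    rw [inv_inv]
    intro w hw
    rw [Set.mem_singleton_iff] at hw
    rw [hw]
    exact Set.mem_insert _ _
  obtain ⟨n, hn⟩ := exists_pow_mul_mem_chartAlg hs hs0 (hmid a ha)
  obtain ⟨m, hm⟩ := exists_pow_mul_mem_chartAlg hs hs0 (hmid b hb)
  have hjinv : ((jFull N)⁻¹ : ↥(modularFunctionFieldFull N)) ∈ chartAlgInf N ℓ :=
    subset_chartAlg N ℓ _ rfl
  refine ⟨(jFull N)⁻¹ ^ (n + m) * a, ?_, (jFull N)⁻¹ ^ (n + m) * b, ?_, ?_, ?_⟩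
  · rw [pow_add, mul_comm ((jFull N)⁻¹ ^ n), mul_assoc]
    exact mul_mem (pow_mem hjinv m) hn
  · rw [pow_add, mul_assoc]
    exact mul_mem (pow_mem hjinv n) hm
  · exact mul_ne_zero (pow_ne_zero _ hs0) hb0
  · rw [← hab]
    ring

end FracQ

/-! ## Part B: the chart rings and the function field `F1` over `K1` -/

section FullC

variable (N : ℕ) [NeZero N] (ℓ : ℕ) [Fact ℓ.Prime]
  (C0 : Subalgebra (Rl ℓ) ↥(modularFunctionFieldFull N))
  {O K1 : Type} [CommRing O] [Field K1] [CharZero K1] [Algebra O K1]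

theorem embQ_injective : Function.Injective (embQ K1) := by
  intro a b h
  ext n
  have := congrArg (fun x => x.coeff n) h
  exact (algebraMap ℚ K1).injective (by simpa using this)

theorem embQ_qExpand_jq (d : ℕ) [NeZero d] :
    embQ K1 (qExpand ℚ d jq) = qExpand K1 d (jqModC K1) := by
  rw [embQ, coeffMap_qExpand, ← jqModC_rat, coeffMap_jqModC]

theorem C_mem_fullC (c : K1) : HahnSeries.C c ∈ modularFunctionFieldFullC K1 N := by
  have h := (modularFunctionFieldFullC K1 N).algebraMap_mem c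
  rwa [algebraMap_laurentSeries_eq_single] at h

theorem cstO_mem_fullC (c : O) : cstO K1 c ∈ modularFunctionFieldFullC K1 N :=
  C_mem_fullC N (algebraMap O K1 c)

/-- Extension of scalars maps the function field over `ℚ` into the function field over `K1`. -/
theorem embQ_mem_fullC {x : LaurentSeries ℚ} (hx : x ∈ modularFunctionFieldFull N) :
    embQ K1 x ∈ modularFunctionFieldFullC K1 N := by
  rw [modularFunctionFieldFull] at hx
  induction hx using IntermediateField.adjoin_induction with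
  | mem x hx =>
    obtain ⟨d, hd, hdN, rfl⟩ := hx
    rw [embQ_qExpand_jq]
    exact jqModCd_mem_full K1 N hdN
  | algebraMap c =>
    have h1 : embQ K1 (algebraMap ℚ (LaurentSeries ℚ) c) = HahnSeries.C (algebraMap ℚ K1 c) := by
      rw [algebraMap_laurentSeries_eq_single, embQ, coeffMap_single]
      rfl
    rw [h1]
    exact C_mem_fullC N _
  | add x y _ _ hx hy =>
    rw [map_add]
    exact add_mem hx hy
  | inv x _ hx =>
    rw [map_inv₀]
    exact inv_mem hx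
  | mul x y _ _ hx hy =>
    rw [map_mul]
    exact mul_mem hx hy

theorem embC_mem_fullC (x : C0) : embC N ℓ C0 K1 x ∈ modularFunctionFieldFullC K1 N :=
  embQ_mem_fullC N (x : ↥(modularFunctionFieldFull N)).2

/-- The chart ring lies in the function field `F1`. -/
theorem chartO_le_fullC {z : LaurentSeries K1} (hz : z ∈ chartO N ℓ C0 O K1) :
    z ∈ modularFunctionFieldFullC K1 N := by
  refine chartO_induction N ℓ C0 (P := fun z => z ∈ modularFunctionFieldFullC K1 N)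
    (zero_mem _) ?_ (fun x y hx hy => add_mem hx hy) (fun x hx => neg_mem hx) hz
  intro c x
  exact mul_mem (cstO_mem_fullC N c) (embC_mem_fullC N ℓ C0 x)

/-- `F1` is contained in the fraction field of the chart ring, provided the function field over
`ℚ` is the fraction field of `C0` and `K1` is the fraction field of `O`. -/
theorem fullC_le_frac
    (hfrac0 : ∀ y : ↥(modularFunctionFieldFull N), ∃ a ∈ C0, ∃ b ∈ C0, b ≠ 0 ∧ y * b = a)
    (hK : ∀ c : K1, ∃ a b : O, b ≠ 0 ∧ algebraMap O K1 b * c = algebraMap O K1 a)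
    (hinj : Function.Injective (algebraMap O K1))
    {x : LaurentSeries K1} (hx : x ∈ modularFunctionFieldFullC K1 N) :
    ∃ a ∈ chartO N ℓ C0 O K1, ∃ b ∈ chartO N ℓ C0 O K1, b ≠ 0 ∧ x * b = a := by
  rw [modularFunctionFieldFullC] at hx
  induction hx using IntermediateField.adjoin_induction with
  | mem x hx =>
    obtain ⟨d, hd, hdN, rfl⟩ := hx
    obtain ⟨a, ha, b, hb, hb0, hab⟩ := hfrac0 ⟨qExpand ℚ d jq, jqd_mem_full N hdN⟩
    refine ⟨embC N ℓ C0 K1 ⟨a, ha⟩, embC_mem_chartO N ℓ C0 _, embC N ℓ C0 K1 ⟨b, hb⟩,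
      embC_mem_chartO N ℓ C0 _, ?_, ?_⟩
    · rw [embC_apply, Ne, map_eq_zero_iff _ embQ_injective]
      intro h
      exact hb0 (Subtype.ext h)
    · rw [embC_apply, embC_apply, ← embQ_qExpand_jq, ← map_mul]
      congr 1
      exact congrArg Subtype.val hab
  | algebraMap c =>
    obtain ⟨a, b, hb0, hab⟩ := hK c
    refine ⟨cstO K1 a, cstO_mem_chartO N ℓ C0 a, cstO K1 b, cstO_mem_chartO N ℓ C0 b, ?_, ?_⟩
    · rw [cstO_apply, Ne, HahnSeries.single_eq_zero_iff]
      intro h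
      exact hb0 (hinj (by rw [h, map_zero]))
    · rw [algebraMap_laurentSeries_eq_single, cstO_apply, cstO_apply, HahnSeries.single_mul_single,
        zero_add, mul_comm, hab]
  | add x y _ _ hx hy =>
    obtain ⟨a, ha, b, hb, hb0, hab⟩ := hx
    obtain ⟨a', ha', b', hb', hb0', hab'⟩ := hy
    refine ⟨a * b' + a' * b, add_mem (mul_mem ha hb') (mul_mem ha' hb), b * b', mul_mem hb hb',
      mul_ne_zero hb0 hb0', ?_⟩
    rw [← hab, ← hab']
    ring
  | inv x _ hx =>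
    obtain ⟨a, ha, b, hb, hb0, hab⟩ := hx
    rcases eq_or_ne x 0 with rfl | hx0
    · exact ⟨0, zero_mem _, 1, one_mem _, one_ne_zero, by simp⟩
    · have ha0 : a ≠ 0 := by
        rw [← hab]
        exact mul_ne_zero hx0 hb0
      refine ⟨b, hb, a, ha, ha0, ?_⟩
      rw [← hab]
      field_simp
  | mul x y _ _ hx hy =>
    obtain ⟨a, ha, b, hb, hb0, hab⟩ := hx
    obtain ⟨a', ha', b', hb', hb0', hab'⟩ := hy
    refine ⟨a * a', mul_mem ha ha', b * b', mul_mem hb hb', mul_ne_zero hb0 hb0', ?_⟩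
    rw [← hab, ← hab']
    ring

end FullC

/-! ## Part C: comparison with the Gauss data of helper13 -/

section Bridge

variable {O K1 k1 : Type} [CommRing O] [IsDomain O] [Field K1] [Algebra O K1] [Field k1]
  (D : GaussData O K1 k1) (hD : D.inc = algebraMap O K1)

include hD

theorem algebraMap_injective : Function.Injective (algebraMap O K1) := by
  rw [← hD]
  exact D.inc_injective

theorem incS_eq : D.incS = incO K1 := by
  rw [GaussData.incS, hD]
  rfl

omit hD in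
theorem redS_eq : D.redS = redO D.res := rfl

theorem VringO_eq : VringO K1 D.res = D.Vring := by
  ext x
  rw [mem_VringO_iff, GaussData.mem_Vring_iff, incS_eq D hD]
  rfl

theorem mem_Vring_iff_mem_VringO {x : LaurentSeries K1} : x ∈ D.Vring ↔ x ∈ VringO K1 D.res := by
  rw [VringO_eq D hD]

theorem redFunO_eq_redFun (x : LaurentSeries K1) : redFunO K1 D.res x = D.redFun x := by
  by_cases hx : x ∈ D.Vring
  · obtain ⟨a, b, hb, h⟩ := hx
    rw [D.redFun_eq hb h,
      redFunO_eq D.res (algebraMap_injective D hD) (a := a) (b := b) hb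
        (by rw [← incS_eq D hD]; exact h)]
    rfl
  · rw [D.redFun_of_not_mem hx, redFunO_of_not_mem]
    rwa [VringO_eq D hD]

theorem cstO_pi : cstO K1 D.π = D.πK := by
  rw [cstO_apply, GaussData.πK, hD]
  rfl

theorem cstO_pi_ne_zero : cstO K1 D.π ≠ 0 := by
  rw [cstO_pi D hD]
  exact D.πK_ne_zero

theorem redFunO_pi : redFunO K1 D.res (cstO K1 D.π) = 0 := by
  rw [redFunO_cstO D.res (algebraMap_injective D hD), D.res_π, HahnSeries.single_eq_zero]

theorem redFunO_pi_pow_mul {n : ℕ} (hn : 0 < n) {x : LaurentSeries K1}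
    (hx : x ∈ VringO K1 D.res) : redFunO K1 D.res (cstO K1 D.π ^ n * x) = 0 := by
  obtain ⟨m, rfl⟩ : ∃ m, n = m + 1 := ⟨n - 1, by omega⟩
  have hπ := cstO_mem_VringO K1 D.res D.π
  rw [pow_succ, mul_assoc,
    redFunO_mul D.res (algebraMap_injective D hD) (pow_mem hπ m) (mul_mem hπ hx),
    redFunO_mul D.res (algebraMap_injective D hD) hπ hx, redFunO_pi D hD, zero_mul, mul_zero]

end Bridge

/-! ## Part D: the chart ring and the Gauss valuation ring of `F1` -/

section ChartV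

variable (N : ℕ) [NeZero N] (ℓ : ℕ) [Fact ℓ.Prime]
  (C0 : Subalgebra (Rl ℓ) ↥(modularFunctionFieldFull N))
  {O K1 k1 : Type} [CommRing O] [IsDomain O] [Field K1] [CharZero K1] [Algebra O K1]
  [Field k1] [CharP k1 ℓ]
  (D : GaussData O K1 k1)

/-- The function field `F1` as a subfield of `K1((q))`. -/
def F1 (K1 : Type) [Field K1] : Subfield (LaurentSeries K1) :=
  (modularFunctionFieldFullC K1 N).toSubfield

theorem mem_F1 {x : LaurentSeries K1} : x ∈ F1 N K1 ↔ x ∈ modularFunctionFieldFullC K1 N :=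
  Iff.rfl

/-- The Gauss valuation ring of `F1`. -/
def VF1 : Subring (LaurentSeries K1) := VringO K1 D.res ⊓ (F1 N K1).toSubring

theorem mem_VF1 {x : LaurentSeries K1} :
    x ∈ VF1 N D ↔ x ∈ VringO K1 D.res ∧ x ∈ modularFunctionFieldFullC K1 N :=
  Iff.rfl

/-- The image of `O` in `K1((q))`. -/
def Oc (O K1 : Type) [CommRing O] [Field K1] [Algebra O K1] : Subring (LaurentSeries K1) :=
  (cstO K1 : O →+* LaurentSeries K1).range

theorem mem_Oc {x : LaurentSeries K1} : x ∈ Oc O K1 ↔ ∃ c : O, cstO K1 c = x := Iff.rfl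

theorem cstO_mem_Oc (c : O) : cstO K1 c ∈ Oc O K1 := ⟨c, rfl⟩

variable (hD : D.inc = algebraMap O K1)
  (hA : ∀ x ∈ C0, ((x : ↥(modularFunctionFieldFull N)) : LaurentSeries ℚ) ∈ Vring ℓ)
  (hkey : ∀ x ∈ C0, redFun ℓ ((x : ↥(modularFunctionFieldFull N)) : LaurentSeries ℚ) = 0 →
    ∃ y ∈ C0, x = (ℓ : ↥(modularFunctionFieldFull N)) * y)
  (hunit : ∀ n : ℕ, ¬ ℓ ∣ n → IsUnit (n : O))
  (hfrac0 : ∀ y : ↥(modularFunctionFieldFull N), ∃ a ∈ C0, ∃ b ∈ C0, b ≠ 0 ∧ y * b = a)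
  (hK : ∀ c : K1, ∃ a b : O, b ≠ 0 ∧ D.inc b * c = D.inc a)

include hD hA hunit in
/-- `Chart.le_V`. -/
theorem chartO_le_VF1 : chartO N ℓ C0 O K1 ≤ VF1 N D := fun z hz =>
  ⟨chartO_le_VringO N ℓ C0 D.res hA (algebraMap_injective D hD) hunit hz,
    chartO_le_fullC N ℓ C0 hz⟩

include hD hA hkey hunit in
/-- `Chart.sat`. -/
theorem chartO_sat {v : LaurentSeries K1} (hv : v ∈ VringO K1 D.res)
    (h : cstO K1 D.π * v ∈ chartO N ℓ C0 O K1) : v ∈ chartO N ℓ C0 O K1 := by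
  obtain ⟨w, hw, hzw⟩ := chartO_inter_pi N ℓ C0 D.res hA hkey (algebraMap_injective D hD) hunit
    D.π D.res_π (fun c hc => (D.res_eq_zero_iff c).mp hc) h hv rfl
  rw [mul_left_cancel₀ (cstO_pi_ne_zero D hD) hzw]
  exact hw

include hD hA hkey hunit in
theorem chartO_sat_pow (n : ℕ) : ∀ {u : LaurentSeries K1}, u ∈ VringO K1 D.res →
    cstO K1 D.π ^ n * u ∈ chartO N ℓ C0 O K1 → u ∈ chartO N ℓ C0 O K1 := by
  induction n with
  | zero =>
    intro u _ h
    simpa using h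
  | succ n ih =>
    intro u hu h
    rw [pow_succ', mul_assoc] at h
    exact ih hu (chartO_sat N ℓ C0 D hD hA hkey hunit
      (mul_mem (pow_mem (cstO_mem_VringO K1 D.res D.π) n) hu) h)

include hD hA hkey hunit in
/-- A nonzero element of the chart ring is a power of `π` times an element of the chart ring
with nonzero reduction. -/
theorem chartO_strip {a : LaurentSeries K1} (ha : a ∈ chartO N ℓ C0 O K1) (ha0 : a ≠ 0) :
    ∃ (n : ℕ) (u : LaurentSeries K1), u ∈ chartO N ℓ C0 O K1 ∧ redFunO K1 D.res u ≠ 0 ∧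
      a = cstO K1 D.π ^ n * u := by
  have hinj := algebraMap_injective D hD
  have haV : a ∈ D.Vring := by
    rw [← VringO_eq D hD]
    exact chartO_le_VringO N ℓ C0 D.res hA hinj hunit ha
  have hfr : ∃ a' b' : LaurentSeries O, b' ≠ 0 ∧ D.incS b' * a = D.incS a' := by
    obtain ⟨a', b', hb', h⟩ := haV
    exact ⟨a', b', D.ne_zero_of_redS_ne_zero hb', h⟩
  obtain ⟨z, u, hu, hu0, hau⟩ := D.exists_zpow_mul ha0 hfr
  rw [← cstO_pi D hD] at hau
  rw [← redFunO_eq_redFun D hD] at hu0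
  rw [← VringO_eq D hD] at hu haV
  have hπ0 := cstO_pi_ne_zero D hD
  rcases le_or_gt 0 z with hz | hz
  · obtain ⟨n, rfl⟩ := Int.eq_ofNat_of_zero_le hz
    rw [zpow_natCast] at hau
    refine ⟨n, u, ?_, hu0, hau⟩
    apply chartO_sat_pow N ℓ C0 D hD hA hkey hunit n hu
    rw [← hau]
    exact ha
  · exfalso
    obtain ⟨n, hn⟩ := Int.eq_ofNat_of_zero_le (show 0 ≤ -z by omega)
    have hn0 : 0 < n := by omega
    have h1 : cstO K1 D.π ^ n * a = u := by
      rw [hau, ← zpow_natCast, ← hn, ← mul_assoc, ← zpow_add₀ hπ0]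
      simp
    apply hu0
    rw [← h1]
    exact redFunO_pi_pow_mul D hD hn0 haV

include hD hA hkey hunit hfrac0 hK in
/-- `Chart.loc`: the Gauss valuation ring of `F1` is the localisation of the chart ring at the
prime `π`. -/
theorem chartO_loc {v : LaurentSeries K1} (hv : v ∈ VF1 N D) :
    ∃ b ∈ chartO N ℓ C0 O K1, b ≠ 0 ∧ b⁻¹ ∈ VF1 N D ∧ v * b ∈ chartO N ℓ C0 O K1 := by
  have hinj := algebraMap_injective D hD
  rcases eq_or_ne v 0 with rfl | hv0
  · exact ⟨1, one_mem _, one_ne_zero, by rw [inv_one]; exact one_mem _,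
      by rw [zero_mul]; exact zero_mem _⟩
  obtain ⟨hvV, hvF⟩ := hv
  have hK' : ∀ c : K1, ∃ a b : O, b ≠ 0 ∧ algebraMap O K1 b * c = algebraMap O K1 a := by
    intro c
    obtain ⟨a, b, hb, h⟩ := hK c
    exact ⟨a, b, hb, by rw [← hD]; exact h⟩
  obtain ⟨a, ha, b, hb, hb0, hab⟩ := fullC_le_frac N ℓ C0 hfrac0 hK' hinj hvF
  have ha0 : a ≠ 0 := by
    rw [← hab]
    exact mul_ne_zero hv0 hb0
  obtain ⟨n, a', ha', hra, rfl⟩ := chartO_strip N ℓ C0 D hD hA hkey hunit ha ha0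
  obtain ⟨m, b', hb', hrb, rfl⟩ := chartO_strip N ℓ C0 D hD hA hkey hunit hb hb0
  have hπ0 := cstO_pi_ne_zero D hD
  have hV := chartO_le_VringO N ℓ C0 D.res hA hinj hunit
  have hb'0 : b' ≠ 0 := by
    rintro rfl
    exact hrb (redFunO_zero D.res hinj)
  refine ⟨b', hb', hb'0, ⟨inv_mem_VringO D.res hinj (hV hb') hrb,
    (F1 N K1).inv_mem (chartO_le_fullC N ℓ C0 hb')⟩, ?_⟩
  rcases le_or_gt m n with hmn | hmn
  · have h1 : v * b' = cstO K1 D.π ^ (n - m) * a' := by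
      apply mul_left_cancel₀ (pow_ne_zero m hπ0)
      calc cstO K1 D.π ^ m * (v * b') = v * (cstO K1 D.π ^ m * b') := by ring
        _ = cstO K1 D.π ^ (m + (n - m)) * a' := by rw [hab, Nat.add_sub_cancel' hmn]
        _ = cstO K1 D.π ^ m * (cstO K1 D.π ^ (n - m) * a') := by rw [pow_add, mul_assoc]
    rw [h1]
    exact mul_mem (pow_mem (cstO_mem_chartO N ℓ C0 D.π) _) ha'
  · exfalso
    have h1 : cstO K1 D.π ^ (m - n) * (v * b') = a' := by
      apply mul_left_cancel₀ (pow_ne_zero n hπ0)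
      calc cstO K1 D.π ^ n * (cstO K1 D.π ^ (m - n) * (v * b'))
          = v * (cstO K1 D.π ^ (n + (m - n)) * b') := by rw [pow_add]; ring
        _ = cstO K1 D.π ^ n * a' := by rw [Nat.add_sub_cancel' hmn.le, hab]
    apply hra
    rw [← h1]
    exact redFunO_pi_pow_mul D hD (by omega) (mul_mem hvV (hV hb'))

end ChartV

/-! ## Part E: the carriers of `S18_helper14_ADefs` -/

section ADefsGlue

open Fermat.Agent.S18A Fermat.Agent.S18_helper9_CDefs

variable (N : ℕ) [NeZero N] (ℓ : ℕ) [Fact ℓ.Prime]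
  {O K1 k : Type} [CommRing O] [IsDomain O] [IsDiscreteValuationRing O] [Field K1] [CharZero K1]
  [Algebra O K1] [IsFractionRing O K1] [Field k] [CharP k ℓ]
  (ρ : O →+* k) (hρ : ∀ x : O, ρ x = 0 ↔ x ∈ IsLocalRing.maximalIdeal O)

include hρ in
theorem base_hunit : ∀ n : ℕ, ¬ ℓ ∣ n → IsUnit (n : O) := by
  intro n hn
  by_contra hnu
  have h1 : (n : O) ∈ IsLocalRing.maximalIdeal O := by
    rw [IsLocalRing.mem_maximalIdeal, mem_nonunits_iff]
    exact hnu
  have h2 := (hρ _).mpr h1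
  rw [map_natCast] at h2
  exact hn ((CharP.cast_eq_zero_iff k ℓ n).mp h2)

omit [IsDiscreteValuationRing O] [CharZero K1] in
theorem base_hK : ∀ c : K1, ∃ a b : O, b ≠ 0 ∧ algebraMap O K1 b * c = algebraMap O K1 a := by
  intro c
  obtain ⟨a, b, hb, rfl⟩ := IsFractionRing.div_surjective (A := O) c
  have hb0 : b ≠ 0 := nonZeroDivisors.ne_zero hb
  have hb1 : algebraMap O K1 b ≠ 0 := by
    rw [Ne, map_eq_zero_iff _ (IsFractionRing.injective O K1)]
    exact hb0
  exact ⟨a, b, hb0, by field_simp⟩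

theorem base_hinj : Function.Injective (algebraMap O K1) := IsFractionRing.injective O K1

theorem Oc_eq_OL : Oc O K1 = OL O K1 := rfl

theorem cstO_pi_eq_πL : cstO K1 (gd O K1 ρ hρ).π = πL O K1 ρ hρ := rfl

theorem VF1_eq_VL : VF1 N (gd O K1 ρ hρ) = VL O K1 ρ hρ N := by
  rw [VF1, VL, VringO_eq (gd O K1 ρ hρ) rfl]
  rfl

theorem OL_le_chartO (C0 : Subalgebra (Rl ℓ) ↥(modularFunctionFieldFull N)) :
    OL O K1 ≤ chartO N ℓ C0 O K1 := by
  rintro _ ⟨c, rfl⟩
  exact cstO_mem_chartO N ℓ C0 c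

theorem adj_le_chartFinO : adj (OL O K1) (jqModC K1) ≤ chartFinO N ℓ O K1 := by
  rw [adj, Subring.closure_le]
  rintro x (hx | hx)
  · exact OL_le_chartO N ℓ _ hx
  · rw [Set.mem_singleton_iff] at hx
    rw [hx]
    exact jq_mem_chartFinO N ℓ

theorem adj_le_chartInfO : adj (OL O K1) (jqModC K1)⁻¹ ≤ chartInfO N ℓ O K1 := by
  rw [adj, Subring.closure_le]
  rintro x (hx | hx)
  · exact OL_le_chartO N ℓ _ hx
  · rw [Set.mem_singleton_iff] at hx
    rw [hx]
    exact jq_inv_mem_chartInfO N ℓ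

theorem chartO_le_F1L (C0 : Subalgebra (Rl ℓ) ↥(modularFunctionFieldFull N))
    {z : LaurentSeries K1} (hz : z ∈ chartO N ℓ C0 O K1) : z ∈ F1L K1 N :=
  chartO_le_fullC N ℓ C0 hz

section WithC0

variable (C0 : Subalgebra (Rl ℓ) ↥(modularFunctionFieldFull N))
  (hA : ∀ x ∈ C0, ((x : ↥(modularFunctionFieldFull N)) : LaurentSeries ℚ) ∈ Vring ℓ)
  (hkey : ∀ x ∈ C0, redFun ℓ ((x : ↥(modularFunctionFieldFull N)) : LaurentSeries ℚ) = 0 →
    ∃ y ∈ C0, x = (ℓ : ↥(modularFunctionFieldFull N)) * y)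

include hA in
theorem chartO_le_VL : chartO N ℓ C0 O K1 ≤ VL O K1 ρ hρ N := by
  rw [← VF1_eq_VL]
  exact chartO_le_VF1 N ℓ C0 (gd O K1 ρ hρ) rfl hA (base_hunit ℓ ρ hρ)

include hA hkey in
/-- Saturation of the chart ring with respect to the Gauss valuation ring `VL`. -/
theorem chartO_sat_VL {v : LaurentSeries K1} (hv : v ∈ (gd O K1 ρ hρ).Vring)
    (h : πL O K1 ρ hρ * v ∈ chartO N ℓ C0 O K1) : v ∈ chartO N ℓ C0 O K1 := by
  rw [← VringO_eq (gd O K1 ρ hρ) rfl] at hv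
  exact chartO_sat N ℓ C0 (gd O K1 ρ hρ) rfl hA hkey (base_hunit ℓ ρ hρ) hv h

include hA hkey in
theorem chartO_sat_pow_VL (n : ℕ) {v : LaurentSeries K1} (hv : v ∈ (gd O K1 ρ hρ).Vring)
    (h : πL O K1 ρ hρ ^ n * v ∈ chartO N ℓ C0 O K1) : v ∈ chartO N ℓ C0 O K1 := by
  rw [← VringO_eq (gd O K1 ρ hρ) rfl] at hv
  exact chartO_sat_pow N ℓ C0 (gd O K1 ρ hρ) rfl hA hkey (base_hunit ℓ ρ hρ) n hv h

include hρ in
/-- `F1 = Frac (O · C0)`, in the shape of `hfrac` of `S18_helper14_ASETUP.setup_of`. -/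
theorem chartO_frac_F1L
    (hfrac0 : ∀ y : ↥(modularFunctionFieldFull N), ∃ a ∈ C0, ∃ b ∈ C0, b ≠ 0 ∧ y * b = a)
    {v : LaurentSeries K1} (hv : v ∈ F1L K1 N) :
    ∃ b ∈ chartO N ℓ C0 O K1, b ≠ 0 ∧ v * b ∈ chartO N ℓ C0 O K1 := by
  obtain ⟨a, ha, b, hb, hb0, hab⟩ := fullC_le_frac N ℓ C0 hfrac0 (base_hK (O := O) (K1 := K1)) base_hinj hv
  exact ⟨b, hb, hb0, by rw [hab]; exact ha⟩

end WithC0

/-! ### Integrality of the chart rings over `O[j]`, `O[j⁻¹]` -/

include hρ in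
/-- Extension of scalars maps `ℤ_(ℓ)[s]` into `O[t]`. -/
theorem embQ_adjoin_mem (s : ↥(modularFunctionFieldFull N)) (t : LaurentSeries K1)
    (hst : embQ K1 (s : LaurentSeries ℚ) = t)
    {a : ↥(modularFunctionFieldFull N)} (ha : a ∈ Algebra.adjoin (Rl ℓ) {s}) :
    embQ K1 (a : LaurentSeries ℚ) ∈ adj (OL O K1) t := by
  obtain ⟨φ, hφ⟩ := exists_phi ℓ (O := O) (K1 := K1) base_hinj (base_hunit ℓ ρ hρ)
  induction ha using Algebra.adjoin_induction with
  | mem x hx =>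
    rw [Set.mem_singleton_iff] at hx
    rw [hx, hst]
    exact Subring.subset_closure (Or.inr rfl)
  | algebraMap r =>
    have h1 : embQ K1 ((algebraMap (Rl ℓ) ↥(modularFunctionFieldFull N) r :
        ↥(modularFunctionFieldFull N)) : LaurentSeries ℚ) = cstO K1 (φ r) := by
      rw [Fermat.Agent.S28_TENSOR.coe_algebraMap N ℓ r, ← incO_coeffMap_phi ℓ φ hφ,
        coeffMap_single, cstO_eq_incO]
    rw [h1]
    exact Subring.subset_closure (Or.inl ⟨φ r, rfl⟩)
  | add x y _ _ hx hy =>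
    have : ((x + y : ↥(modularFunctionFieldFull N)) : LaurentSeries ℚ) =
        (x : LaurentSeries ℚ) + (y : LaurentSeries ℚ) := rfl
    rw [this, map_add]
    exact add_mem hx hy
  | mul x y _ _ hx hy =>
    have : ((x * y : ↥(modularFunctionFieldFull N)) : LaurentSeries ℚ) =
        (x : LaurentSeries ℚ) * (y : LaurentSeries ℚ) := rfl
    rw [this, map_mul]
    exact mul_mem hx hy

include hρ in
/-- The `q`-expansion of an element integral over `ℤ_(ℓ)[s]` is integral over `O[t]`. -/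
theorem isIntegral_embQ (s : ↥(modularFunctionFieldFull N)) (t : LaurentSeries K1)
    (hst : embQ K1 (s : LaurentSeries ℚ) = t)
    {x : ↥(modularFunctionFieldFull N)} (hx : x ∈ chartAlg N ℓ {s}) :
    IsIntegral (adj (OL O K1) t) (embQ K1 (x : LaurentSeries ℚ)) := by
  rw [mem_chartAlg_iff] at hx
  let g : ↥(modularFunctionFieldFull N) →+* LaurentSeries K1 :=
    (embQ K1).comp (modularFunctionFieldFull N).toSubfield.subtype
  let f : ↥(Algebra.adjoin (Rl ℓ) {s}) →+* ↥(adj (OL O K1) t) :=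
    (g.comp (Algebra.adjoin (Rl ℓ) {s}).val.toRingHom).codRestrict (adj (OL O K1) t)
      (fun a => embQ_adjoin_mem N ℓ ρ hρ s t hst a.2)
  exact hx.map_of_comp_eq f g (by ext; rfl)

include hρ in
theorem isIntegral_chartO (s : ↥(modularFunctionFieldFull N)) (t : LaurentSeries K1)
    (hst : embQ K1 (s : LaurentSeries ℚ) = t)
    {z : LaurentSeries K1} (hz : z ∈ chartO N ℓ (chartAlg N ℓ {s}) O K1) :
    IsIntegral (adj (OL O K1) t) z := by
  refine chartO_induction N ℓ (chartAlg N ℓ {s}) (P := fun z => IsIntegral (adj (OL O K1) t) z)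
    isIntegral_zero ?_ (fun x y hx hy => hx.add hy) (fun x hx => hx.neg) hz
  intro c x
  refine IsIntegral.mul ?_ (isIntegral_embQ N ℓ ρ hρ s t hst x.2)
  exact isIntegral_algebraMap
    (x := (⟨cstO K1 c, Subring.subset_closure (Or.inl ⟨c, rfl⟩)⟩ : adj (OL O K1) t))

include hρ in
/-- The chart ring `O · chartAlgFin` consists of elements of `F1` integral over `O[j]`. -/
theorem chartFinO_le_A0L : chartFinO N ℓ O K1 ≤ A0L O K1 N := fun z hz =>
  ⟨isIntegral_chartO N ℓ ρ hρ (jFull N) (jqModC K1) (by rw [coe_jFull, embQ_jq]) hz,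
    chartO_le_fullC N ℓ _ hz⟩

include hρ in
/-- The chart ring `O · chartAlgInf` consists of elements of `F1` integral over `O[j⁻¹]`. -/
theorem chartInfO_le_AinfL : chartInfO N ℓ O K1 ≤ AinfL O K1 N := fun z hz =>
  ⟨isIntegral_chartO N ℓ ρ hρ (jFull N)⁻¹ (jqModC K1)⁻¹
      (by rw [IntermediateField.coe_inv, coe_jFull, map_inv₀, embQ_jq]) hz,
    chartO_le_fullC N ℓ _ hz⟩

/-! ### The hypotheses of `S18_helper14_ASETUP.setup_of` -/

include hρ in
/-- `hfrac0` of `setup_of`. -/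
theorem A0L_frac (hℓN : ¬ ℓ ∣ N) : ∀ v ∈ F1L K1 N, ∃ b ∈ A0L O K1 N, b ≠ 0 ∧
    v * b ∈ A0L O K1 N := by
  intro v hv
  obtain ⟨b, hb, hb0, hvb⟩ := chartO_frac_F1L N ℓ ρ hρ (chartAlgFin N ℓ)
    (frac_fin N ℓ hℓN) hv
  exact ⟨b, chartFinO_le_A0L N ℓ ρ hρ hb, hb0, chartFinO_le_A0L N ℓ ρ hρ hvb⟩

include hρ in
/-- `hfracInf` of `setup_of`. -/
theorem AinfL_frac (hℓN : ¬ ℓ ∣ N) : ∀ v ∈ F1L K1 N, ∃ b ∈ AinfL O K1 N, b ≠ 0 ∧
    v * b ∈ AinfL O K1 N := by
  intro v hv
  obtain ⟨b, hb, hb0, hvb⟩ := chartO_frac_F1L N ℓ ρ hρ (chartAlgInf N ℓ)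
    (frac_inf N ℓ hℓN) hv
  exact ⟨b, chartInfO_le_AinfL N ℓ ρ hρ hb, hb0, chartInfO_le_AinfL N ℓ ρ hρ hvb⟩

/-- `hsat0` of `setup_of`, from the normality of the chart ring. -/
theorem A0L_sat_of_le (hℓN : ¬ ℓ ∣ N) (hle : A0L O K1 N ≤ chartFinO N ℓ O K1) :
    ∀ v ∈ VL O K1 ρ hρ N, πL O K1 ρ hρ * v ∈ A0L O K1 N → v ∈ A0L O K1 N := by
  intro v hv h
  exact chartFinO_le_A0L N ℓ ρ hρ
    (chartO_sat_VL N ℓ ρ hρ _ (hA_fin N ℓ) (hkey_fin N ℓ hℓN) hv.1 (hle h))

/-- `hsatInf` of `setup_of`, from the normality of the chart ring. -/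
theorem AinfL_sat_of_le (hℓN : ¬ ℓ ∣ N) (hle : AinfL O K1 N ≤ chartInfO N ℓ O K1) :
    ∀ v ∈ VL O K1 ρ hρ N, πL O K1 ρ hρ * v ∈ AinfL O K1 N → v ∈ AinfL O K1 N := by
  intro v hv h
  exact chartInfO_le_AinfL N ℓ ρ hρ
    (chartO_sat_VL N ℓ ρ hρ _ (hA_inf N ℓ) (hkey_inf N ℓ hℓN) hv.1 (hle h))

end ADefsGlue

end Fermat.Agent.S18_helper18_CHARTV
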