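import Fermat.Agent.S18_helper18_IGMID
import Fermat.Agent.S18_helper20_CSAT
import Fermat.Agent.S18_helper4_T2

/-!
# S18, block B glue, piece X-B-IGINF (helper18)

Instantiation of `S18_helper18_IGMID` at the abstract two-chart setting `Setup` of block C:
the hypotheses of `S18IGMID_IG_inf` (pole lemmas between the two charts, residue fields of the
chart rings are the residue field of `O`) are consequences of `Setup` and of the algebraic
closedness of the residue field of `O`.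
-/

set_option autoImplicit false

namespace Fermat.Agent.S18_helper18_IGINF

open Fermat.Agent.S18_helper9_CDefs Fermat.Agent.S18_helper20_CSAT
  Fermat.Agent.S18_helper18_IGMID Fermat.Agent.S18_helper17_BDefs

variable {L : Type} [Field L] {O : Subring L} {π j : L} {F1 : Subfield L}
  {V A0 Ainf : Subring L}

/-! ### elementary consequences of `Setup` -/

theorem S18IGINF_O_le_A0 (S : Setup O π j F1 V A0 Ainf) : O ≤ A0 := CSAT_O_le_A0 S

theorem S18IGINF_O_le_Ainf (S : Setup O π j F1 V A0 Ainf) : O ≤ Ainf := fun a ha =>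
  (S.chartInf.mem_iff a).mpr
    ⟨isIntegral_algebraMap (x := (⟨a, CSAT_O_le_adj O j⁻¹ ha⟩ : adj O j⁻¹)), S.O_le ha⟩

theorem S18IGINF_j_mem (S : Setup O π j F1 V A0 Ainf) : j ∈ A0 :=
  (S.chart0.mem_iff j).mpr
    ⟨isIntegral_algebraMap (x := (⟨j, CSAT_mem_adj O j⟩ : adj O j)), S.j_mem⟩

theorem S18IGINF_jinv_mem (S : Setup O π j F1 V A0 Ainf) : j⁻¹ ∈ Ainf :=
  (S.chartInf.mem_iff j⁻¹).mpr
    ⟨isIntegral_algebraMap (x := (⟨j⁻¹, CSAT_mem_adj O j⁻¹⟩ : adj O j⁻¹)), F1.inv_mem S.j_mem⟩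

theorem S18IGINF_Ainf_le_Amid (S : Setup O π j F1 V A0 Ainf) :
    Ainf ≤ icl (adjMid O j) F1 := by
  intro a ha
  obtain ⟨h1, h2⟩ := (S.chartInf.mem_iff a).mp ha
  exact ⟨CSAT_isIntegral_mono (CSAT_adj_inv_le_adjMid O j) h1, h2⟩

/-- every element of the chart at infinity is moved into the finite chart by a power of `j` -/
theorem S18IGINF_poleInf (S : Setup O π j F1 V A0 Ainf) :
    ∀ z ∈ Ainf, ∃ n : ℕ, j ^ n * z ∈ A0 := fun _ hz =>
  CSAT_pow_mul_mem_A0 S (S18IGINF_Ainf_le_Amid S hz)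

/-- every element of `A_mid` is moved into `Ainf` by a power of `j⁻¹` -/
theorem S18IGINF_pow_mul_mem_Ainf (S : Setup O π j F1 V A0 Ainf) {a : L}
    (ha : a ∈ icl (adjMid O j) F1) : ∃ n : ℕ, j⁻¹ ^ n * a ∈ Ainf := by
  obtain ⟨n, hn⟩ := CSAT_exists_pow_mul_isIntegral (adj O j⁻¹) (adjMid O j) j⁻¹
    (CSAT_mem_adj O j⁻¹)
    (fun r hr => CSAT_pow_mul_mem_adj O j⁻¹ (inv_ne_zero (CSAT_j_ne_zero S))
      (by rw [CSAT_adjMid_inv]; exact hr)) ha.1
  exact ⟨n, (S.chartInf.mem_iff _).mpr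
    ⟨hn, F1.mul_mem (F1.pow_mem (F1.inv_mem S.j_mem) n) ha.2⟩⟩

/-- every element of the finite chart is moved into the chart at infinity by a power of `j⁻¹` -/
theorem S18IGINF_pole0 (S : Setup O π j F1 V A0 Ainf) :
    ∀ a ∈ A0, ∃ n : ℕ, j⁻¹ ^ n * a ∈ Ainf := fun _ ha =>
  S18IGINF_pow_mul_mem_Ainf S (CSAT_A0_le_Amid S ha)

/-! ### residue fields of the chart rings -/

section Res

variable (x : L) (A : Subring L)

/-- `O[x] ⊆ A` -/
theorem S18IGINF_adj_le (hOA : O ≤ A) (hxA : x ∈ A) : adj O x ≤ A := by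
  refine Subring.closure_le.mpr ?_
  rintro y (hy | hy)
  · exact hOA hy
  · rw [Set.mem_singleton_iff] at hy
    rw [hy]
    exact hxA

/-- integrality over `O[x] ⊆ L` of an element of a subring `A ⊇ O[x]`, transported inside `A`
(with the algebra structure `O → A` given by the inclusion) -/
theorem S18IGINF_isIntegral_adjoin (hOA : O ≤ A) (hxA : x ∈ A) (b : A)
    (hb : IsIntegral (adj O x) (b : L)) :
    letI : Algebra O A := (Subring.inclusion hOA).toAlgebra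
    IsIntegral (Algebra.adjoin O {(⟨x, hxA⟩ : A)}) b := by
  let _ : Algebra O A := (Subring.inclusion hOA).toAlgebra
  have hle := S18IGINF_adj_le x A hOA hxA
  -- the `O`-algebra hom `A → L`
  let ι : A →ₐ[O] L := { A.subtype with commutes' := fun _ => rfl }
  have hmem : ∀ c : adj O x, (⟨(c : L), hle c.2⟩ : A) ∈ Algebra.adjoin O {(⟨x, hxA⟩ : A)} := by
    intro c
    obtain ⟨P, hP⟩ := (CSAT_mem_adj_iff O x c).mp c.2
    have h1 : (⟨(c : L), hle c.2⟩ : A) = Polynomial.aeval (⟨x, hxA⟩ : A) P := by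
      apply Subtype.ext
      have h2 : ι (Polynomial.aeval (⟨x, hxA⟩ : A) P) = Polynomial.aeval (ι ⟨x, hxA⟩) P :=
        (Polynomial.aeval_algHom_apply ι (⟨x, hxA⟩ : A) P).symm
      have h3 : ι (⟨x, hxA⟩ : A) = x := rfl
      rw [h3, hP] at h2
      exact h2.symm
    rw [h1]
    exact Polynomial.aeval_mem_adjoin_singleton O _
  let φ : adj O x →+* Algebra.adjoin O {(⟨x, hxA⟩ : A)} :=
    (Subring.inclusion hle).codRestrict (Algebra.adjoin O {(⟨x, hxA⟩ : A)}) hmem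
  obtain ⟨p, hp, hpb⟩ := hb
  refine ⟨p.map φ, hp.map φ, ?_⟩
  rw [Polynomial.eval₂_map]
  apply Subtype.ext
  have h4 := Polynomial.hom_eval₂ p
    ((algebraMap (Algebra.adjoin O {(⟨x, hxA⟩ : A)}) A).comp φ) A.subtype b
  have h5 : A.subtype.comp ((algebraMap (Algebra.adjoin O {(⟨x, hxA⟩ : A)}) A).comp φ) =
      algebraMap (adj O x) L := by
    ext c
    rfl
  rw [h5] at h4
  have h6 : A.subtype b = (b : L) := rfl
  rw [h6, hpb] at h4
  exact h4

/-- **`hres`**: if the residue field of `O` is algebraically closed, every element of a chart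
ring `A` (integral over `O[x]`) is congruent to a constant of `O` modulo any maximal ideal
containing `π`. -/
theorem S18IGINF_hres_gen [IsLocalRing O] [IsAlgClosed (IsLocalRing.ResidueField O)]
    (hπO : π ∈ O)
    (hπgen : ∀ c ∈ IsLocalRing.maximalIdeal O, ∃ c' : O, c = (⟨π, hπO⟩ : O) * c')
    (hOA : O ≤ A) (hxA : x ∈ A) (hint : ∀ y ∈ A, IsIntegral (adj O x) y)
    (m : Ideal A) (hm : m.IsMaximal) (hπm : (⟨π, hOA hπO⟩ : A) ∈ m) (z : A) :
    ∃ c : L, ∃ hc : c ∈ O, z - ⟨c, hOA hc⟩ ∈ m := by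
  let _ : Algebra O A := (Subring.inclusion hOA).toAlgebra
  have := hm
  have hQ : ∀ c ∈ IsLocalRing.maximalIdeal O, algebraMap O A c ∈ m := by
    intro c hc
    obtain ⟨c', rfl⟩ := hπgen c hc
    rw [map_mul]
    exact m.mul_mem_right _ hπm
  obtain ⟨c, hc⟩ := Fermat.Agent.S18_helper4_T2.S18T2_exists_sub_mem (O := O) (B := A)
    (⟨x, hxA⟩ : A) (fun b => S18IGINF_isIntegral_adjoin x A hOA hxA b (hint b b.2)) m hQ z
  exact ⟨(c : L), c.2, hc⟩

end Res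

/-- the maximal ideal of `O` is generated by `π` -/
theorem S18IGINF_pi_gen (S : Setup O π j F1 V A0 Ainf) [IsLocalRing O] :
    ∀ c ∈ IsLocalRing.maximalIdeal O, ∃ c' : O, c = (⟨π, S.π_mem⟩ : O) * c' := by
  have := S.dvr
  intro c hc
  have h1 : IsLocalRing.maximalIdeal O = Ideal.span {(⟨π, S.π_mem⟩ : O)} :=
    (IsDiscreteValuationRing.irreducible_iff_uniformizer _).mp (S.π_irr S.π_mem)
  rw [h1, Ideal.mem_span_singleton] at hc
  exact hc

/-- `hres` for the finite chart. -/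
theorem S18IGINF_hres0 (S : Setup O π j F1 V A0 Ainf) [IsLocalRing O]
    [IsAlgClosed (IsLocalRing.ResidueField O)]
    (m : Ideal A0) (hm : m.IsMaximal) (hπm : (⟨π, CSAT_O_le_A0 S S.π_mem⟩ : A0) ∈ m) (z : A0) :
    ∃ c : L, ∃ hc : c ∈ O, z - ⟨c, CSAT_O_le_A0 S hc⟩ ∈ m :=
  S18IGINF_hres_gen j A0 S.π_mem (S18IGINF_pi_gen S) (CSAT_O_le_A0 S) (S18IGINF_j_mem S)
    (fun y hy => ((S.chart0.mem_iff y).mp hy).1) m hm hπm z

/-- `hres` for the chart at infinity. -/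
theorem S18IGINF_hresInf (S : Setup O π j F1 V A0 Ainf) [IsLocalRing O]
    [IsAlgClosed (IsLocalRing.ResidueField O)]
    (m : Ideal Ainf) (hm : m.IsMaximal)
    (hπm : (⟨π, S18IGINF_O_le_Ainf S S.π_mem⟩ : Ainf) ∈ m) (z : Ainf) :
    ∃ c : L, ∃ hc : c ∈ O, z - ⟨c, S18IGINF_O_le_Ainf S hc⟩ ∈ m :=
  S18IGINF_hres_gen j⁻¹ Ainf S.π_mem (S18IGINF_pi_gen S) (S18IGINF_O_le_Ainf S)
    (S18IGINF_jinv_mem S) (fun y hy => ((S.chartInf.mem_iff y).mp hy).1) m hm hπm z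

/-! ### `[IG]` at the chart at infinity -/

/-- **`[IG]` at the chart at infinity** from `[IG]` at the finite chart and `[IG]` at the cusps
(the maximal ideals `m ∋ π` of `Ainf` with `j⁻¹ ∈ m`). -/
theorem S18IGINF_IG_inf (S : Setup O π j F1 V A0 Ainf) [IsLocalRing O]
    [IsAlgClosed (IsLocalRing.ResidueField O)] (hIG0 : IG π A0)
    (hcusp : ∀ m : Ideal Ainf, m.IsMaximal →
      (⟨π, S18IGINF_O_le_Ainf S S.π_mem⟩ : Ainf) ∈ m →
      (⟨j⁻¹, S18IGINF_jinv_mem S⟩ : Ainf) ∈ m → ∃ y ∈ m, ∀ x ∈ m, ∃ c : Ainf, c ∉ m ∧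
        ∃ a b : Ainf, c * x = a * (⟨π, S18IGINF_O_le_Ainf S S.π_mem⟩ : Ainf) + b * y) :
    IG π Ainf :=
  S18IGMID_IG_inf (CSAT_j_ne_zero S) (CSAT_O_le_A0 S) (S18IGINF_O_le_Ainf S)
    S.π_mem (S18IGINF_jinv_mem S) (S18IGINF_pole0 S) (S18IGINF_poleInf S) hIG0 hcusp
    (fun m hm hπm z => S18IGINF_hresInf S m hm hπm z)

/-- the same with the cusp input in the shape `S18B_IGat` of block B -/
theorem S18IGINF_IG_inf_of_IGat (S : Setup O π j F1 V A0 Ainf) [IsLocalRing O]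
    [IsAlgClosed (IsLocalRing.ResidueField O)] (hIG0 : IG π A0)
    (hcusp : ∀ m : Ideal Ainf, m.IsMaximal →
      (⟨π, S18IGINF_O_le_Ainf S S.π_mem⟩ : Ainf) ∈ m →
      (⟨j⁻¹, S18IGINF_jinv_mem S⟩ : Ainf) ∈ m →
      S18B_IGat (⟨π, S18IGINF_O_le_Ainf S S.π_mem⟩ : Ainf) m) :
    IG π Ainf :=
  S18IGINF_IG_inf S hIG0 (fun m hm hπm hjm => by
    obtain ⟨y, hy, hgen, -⟩ := hcusp m hm hπm hjm
    exact ⟨y, hy, hgen⟩)

/-- `IG π A` from `S18B_IGat` at every maximal ideal containing `π` -/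
theorem S18IGINF_IG_of_IGat (A : Subring L)
    (h : ∀ (hπ : π ∈ A) (m : Ideal A), m.IsMaximal → (⟨π, hπ⟩ : A) ∈ m →
      S18B_IGat (⟨π, hπ⟩ : A) m) : IG π A := by
  intro hπ m hm hπm
  obtain ⟨y, hy, hgen, -⟩ := h hπ m hm hπm
  exact ⟨y, hy, hgen⟩

end Fermat.Agent.S18_helper18_IGINF
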