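import Mathlib
import Fermat.Agent.S18_helper1_AIVA

set_option autoImplicit false

namespace Fermat.Agent.S18_helper1_AIVT

open Polynomial

section Generic

variable {L : Type*} [Field L] (OLs : Subring L) (πs : OLs) (x : L) (As : Subring L)
  (F1s : Subfield L)
  {O A F1 : Type*} [CommRing O] [CommRing A] [Field F1] [Algebra O A] [Algebra A F1]
  (eO : O ≃+* OLs) (iA : A →+* L) (iF : F1 →+* L)

/-- the dictionary between the two evaluation maps `O[X] → A → L` and `OLs[X] → L`. -/
theorem S18AIVT_comp_eq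
    (hOA : ∀ c : O, iA (algebraMap O A c) = (eO c : L))
    (xA : A) (hxA : iA xA = x) :
    (iA.comp (aeval xA : O[X] →ₐ[O] A).toRingHom).comp
        ((Polynomial.mapEquiv eO).symm : Polynomial OLs →+* O[X])
      = eval₂RingHom OLs.subtype x := by
  refine Polynomial.ringHom_ext (fun c => ?_) ?_
  · simp only [RingHom.coe_comp, Function.comp_apply, RingHom.coe_coe, AlgHom.toRingHom_eq_coe,
      coe_eval₂RingHom, eval₂_C, Subring.coe_subtype]
    have h1 : (Polynomial.mapEquiv eO).symm (C c) = C (eO.symm c) := by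
      rw [RingEquiv.symm_apply_eq]
      simp [Polynomial.mapEquiv_apply]
    rw [h1, aeval_C, hOA, RingEquiv.apply_symm_apply]
  · simp only [RingHom.coe_comp, Function.comp_apply, RingHom.coe_coe, AlgHom.toRingHom_eq_coe,
      coe_eval₂RingHom, eval₂_X]
    have h1 : (Polynomial.mapEquiv eO).symm (X : Polynomial OLs) = X := by
      rw [RingEquiv.symm_apply_eq]
      simp [Polynomial.mapEquiv_apply]
    rw [h1, aeval_X, hxA]

/-- evaluation of a two-variable polynomial, transported. -/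
theorem S18AIVT_eval_eq
    (hOA : ∀ c : O, iA (algebraMap O A c) = (eO c : L))
    (xA : A) (hxA : iA xA = x) (V : A) (Q : Polynomial (Polynomial OLs)) :
    iA (aeval V ((Q.map ((Polynomial.mapEquiv eO).symm : Polynomial OLs →+* O[X])).map
        (aeval xA : O[X] →ₐ[O] A).toRingHom))
      = eval₂ (eval₂RingHom OLs.subtype x) (iA V) Q := by
  rw [← S18AIVT_comp_eq OLs x eO iA hOA xA hxA, Polynomial.map_map, aeval_def,
    Polynomial.hom_eval₂, eval₂_map, Algebra.algebraMap_self, RingHom.comp_id,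
    RingHom.comp_assoc]

/-- evaluation of a one-variable polynomial, transported. -/
theorem S18AIVT_eval_eq₁
    (hOA : ∀ c : O, iA (algebraMap O A c) = (eO c : L))
    (xA : A) (hxA : iA xA = x) (d : Polynomial OLs) :
    iA (aeval xA ((Polynomial.mapEquiv eO).symm d)) = eval₂ OLs.subtype x d := by
  have h := congrArg (fun g : Polynomial OLs →+* L => g d)
    (S18AIVT_comp_eq OLs x eO iA hOA xA hxA)
  simpa using h

/-- **Typed transfer of (A-iv)**: from the subring-language statement (output of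
`S18AIVC_chart` / `S18AIVA_chart`) to the hypotheses `V, P₀, hP₀, hP₀V, hVgen, hsep`
of the generic `[IG]` theorem of block B, for arbitrary carrier types `O, A, F1`
identified with the subrings through `eO, iA, iF`. -/
theorem S18AIVT_typed
    (h : ∃ (Vel : L) (P₀ : Polynomial (Polynomial OLs)), Vel ∈ As ∧ P₀.Monic ∧
      eval₂ (eval₂RingHom OLs.subtype x) Vel P₀ = 0 ∧
      (∀ y ∈ F1s, ∃ (n : Polynomial (Polynomial OLs)) (d : Polynomial OLs),
        d ≠ 0 ∧ eval₂ OLs.subtype x d * y = eval₂ (eval₂RingHom OLs.subtype x) Vel n) ∧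
      (∀ (κ : Type) [Field κ] (f : Polynomial OLs →+* κ),
        (∀ p, f p = 0 ↔ C πs ∣ p) → (P₀.map f).Separable) ∧
      (∀ Q : Polynomial (Polynomial OLs),
        eval₂ (eval₂RingHom OLs.subtype x) Vel Q = 0 → P₀ ∣ Q))
    (hiA : Function.Injective iA) (hAs : ∀ a ∈ As, ∃ a' : A, iA a' = a)
    (hF : ∀ y : F1, iF y ∈ F1s)
    (hOA : ∀ c : O, iA (algebraMap O A c) = (eO c : L))
    (hAF : ∀ a : A, iF (algebraMap A F1 a) = iA a)
    (xA : A) (hxA : iA xA = x) (π0 : O) (hπ0 : eO π0 = πs) :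
    ∃ (V : A) (P₀ : Polynomial O[X]), P₀.Monic ∧
      aeval V (P₀.map (aeval xA : O[X] →ₐ[O] A).toRingHom) = 0 ∧
      (∀ y : F1, ∃ (num : Polynomial O[X]) (den : O[X]), den ≠ 0 ∧
        y * algebraMap A F1 (aeval xA den)
          = algebraMap A F1 (aeval V (num.map (aeval xA : O[X] →ₐ[O] A).toRingHom))) ∧
      (∀ (κ : Type) [Field κ] (f : O[X] →+* κ), (∀ p, f p = 0 ↔ C π0 ∣ p) →
        (P₀.map f).Separable) ∧
      (∀ Q : Polynomial O[X],
        aeval V (Q.map (aeval xA : O[X] →ₐ[O] A).toRingHom) = 0 → P₀ ∣ Q) := by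
  obtain ⟨Vel, P₀, hVel, hmon, hroot, hgen, hsep, hmin⟩ := h
  obtain ⟨V, hV⟩ := hAs Vel hVel
  set E : O[X] ≃+* Polynomial OLs := Polynomial.mapEquiv eO with hE
  refine ⟨V, P₀.map (E.symm : Polynomial OLs →+* O[X]), hmon.map _, ?_, ?_, ?_, ?_⟩
  · apply hiA
    rw [S18AIVT_eval_eq OLs x eO iA hOA xA hxA V P₀, hV, hroot, map_zero]
  · intro y
    obtain ⟨n, d, hd, hnd⟩ := hgen (iF y) (hF y)
    refine ⟨n.map (E.symm : Polynomial OLs →+* O[X]), E.symm d, ?_, ?_⟩
    · intro h0
      exact hd (E.symm.injective (h0.trans (map_zero _).symm))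
    · apply iF.injective
      rw [map_mul, hAF, hAF, S18AIVT_eval_eq OLs x eO iA hOA xA hxA V n,
        S18AIVT_eval_eq₁ OLs x eO iA hOA xA hxA d, hV, mul_comm]
      exact hnd
  · intro κ _ f hf
    have hf' : ∀ p : Polynomial OLs,
        (f.comp (E.symm : Polynomial OLs →+* O[X])) p = 0 ↔ C πs ∣ p := by
      intro p
      have hC : E (C π0) = C πs := by
        rw [hE, Polynomial.mapEquiv_apply, Polynomial.map_C, ← hπ0]
        rfl
      rw [RingHom.comp_apply, RingHom.coe_coe, hf, ← hC]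
      constructor
      · rintro ⟨q, hq⟩
        refine ⟨E q, ?_⟩
        rw [← map_mul, ← hq, RingEquiv.apply_symm_apply]
      · rintro ⟨q, hq⟩
        refine ⟨E.symm q, ?_⟩
        rw [hq, map_mul, RingEquiv.symm_apply_apply]
    have := hsep κ (f.comp (E.symm : Polynomial OLs →+* O[X])) hf'
    rwa [← Polynomial.map_map] at this
  · intro Q hQ
    have h2 : ((E.symm : Polynomial OLs →+* O[X]).comp (E : O[X] →+* Polynomial OLs))
        = RingHom.id _ := RingHom.ext fun p => E.symm_apply_apply p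
    have hQQ : (Q.map (E : O[X] →+* Polynomial OLs)).map (E.symm : Polynomial OLs →+* O[X])
        = Q := by
      rw [Polynomial.map_map, h2, Polynomial.map_id]
    have hQ' : eval₂ (eval₂RingHom OLs.subtype x) Vel
        (Q.map (E : O[X] →+* Polynomial OLs)) = 0 := by
      have h1 := S18AIVT_eval_eq OLs x eO iA hOA xA hxA V (Q.map (E : O[X] →+* Polynomial OLs))
      rw [hV] at h1
      rw [← h1, ← hE, hQQ, hQ, map_zero]
    obtain ⟨R, hR⟩ := hmin _ hQ'
    refine ⟨R.map (E.symm : Polynomial OLs →+* O[X]), ?_⟩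
    rw [← Polynomial.map_mul, ← hR, hQQ]

end Generic

section ADefs

open ModularCurve Fermat.Agent.S18_helper13_GAUSS Fermat.Agent.S18_helper9_CDefs
  Fermat.Agent.S18A Fermat.Agent.S18_helper1_AIVA

variable {O K1 k : Type*} [CommRing O] [IsDomain O] [IsDiscreteValuationRing O] [Field K1]
  [CharZero K1] [Algebra O K1] [IsFractionRing O K1] [Field k] [PerfectField k]
  (ρ : O →+* k) (hρ : ∀ x : O, ρ x = 0 ↔ x ∈ IsLocalRing.maximalIdeal O) (N : ℕ)

/-- **(A-iv), typed, for the carriers of block A**: for ANY types `A`, `F1` carrying the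
chart `As` and the function field (through injective `iA`, `iF` compatible with the
algebra structures), the four (A-iv) hypotheses of `S18B_IG_generic` hold, with
`O` the abstract base, `π := (gd O K1 ρ hρ).π` and `x := xA`. -/
theorem S18AIVT_chart (hρs : Function.Surjective ρ)
    (S : Setup (OL O K1) (πL O K1 ρ hρ) (jqModC K1) (F1L K1 N) (VL O K1 ρ hρ N)
      (A0L O K1 N) (AinfL O K1 N))
    (x : LaurentSeries K1) (hx : x = jqModC K1 ∨ x = (jqModC K1)⁻¹)
    (As : Subring (LaurentSeries K1))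
    (hC : Chart (OL O K1) (πL O K1 ρ hρ) x (F1L K1 N) (VL O K1 ρ hρ N) As)
    {A F1 : Type*} [CommRing A] [Field F1] [Algebra O A] [Algebra A F1]
    (iA : A →+* LaurentSeries K1) (iF : F1 →+* LaurentSeries K1)
    (hiA : Function.Injective iA) (hAs : ∀ a ∈ As, ∃ a' : A, iA a' = a)
    (hF : ∀ y : F1, iF y ∈ F1L K1 N)
    (hOA : ∀ c : O, iA (algebraMap O A c) = HahnSeries.C (algebraMap O K1 c))
    (hAF : ∀ a : A, iF (algebraMap A F1 a) = iA a)
    (xA : A) (hxA : iA xA = x) :
    ∃ (V : A) (P₀ : Polynomial O[X]), P₀.Monic ∧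
      aeval V (P₀.map (aeval xA : O[X] →ₐ[O] A).toRingHom) = 0 ∧
      (∀ y : F1, ∃ (num : Polynomial O[X]) (den : O[X]), den ≠ 0 ∧
        y * algebraMap A F1 (aeval xA den)
          = algebraMap A F1 (aeval V (num.map (aeval xA : O[X] →ₐ[O] A).toRingHom))) ∧
      (∀ (κ : Type) [Field κ] (f : O[X] →+* κ),
        (∀ p, f p = 0 ↔ C (gd O K1 ρ hρ).π ∣ p) → (P₀.map f).Separable) ∧
      (∀ Q : Polynomial O[X],
        aeval V (Q.map (aeval xA : O[X] →ₐ[O] A).toRingHom) = 0 → P₀ ∣ Q) :=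
  S18AIVT_typed (OL O K1) (⟨πL O K1 ρ hρ, S.π_mem⟩ : OL O K1) x As (F1L K1 N)
    (S18AIVA_equiv O K1) iA iF (S18AIVA_chart ρ hρ N hρs S x hx As hC) hiA hAs hF
    (fun c => (hOA c).trans (S18AIVA_equiv_coe O K1 c).symm) hAF xA hxA (gd O K1 ρ hρ).π
    (Subtype.ext rfl)

end ADefs

end Fermat.Agent.S18_helper1_AIVT
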