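import Mathlib

/-!
# S18, abstract piece P10 [BC]: integral closure and algebraic extension of the constant field

`K1 ⊆ K` fields, `K / K1` Galois (possibly infinite; e.g. `K` algebraically closed of
characteristic zero), `R` a commutative `K1`-algebra and `E` a commutative `R`-algebra.
An element of `E ⊗[K1] K` which is integral over `R ⊗[K1] K` is a `K`-combination of elements of
`E` integral over `R`.  Proof: coordinates with respect to a `K1`-linearly independent family are
traces, and traces are sums of conjugates under ring automorphisms.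
-/

set_option autoImplicit false

open scoped TensorProduct
open Polynomial

namespace Fermat.Agent.S18_helper20_P10

section Basic

/-- Integrality with respect to a ring hom is transported by a compatible pair of ring homs. -/
theorem S18P10_isIntegralElem_of_comm {S T : Type*} [CommRing S] [CommRing T] (f : S →+* T)
    (γS : S →+* S) (γT : T →+* T) (hcomm : f.comp γS = γT.comp f) {z : T}
    (hz : f.IsIntegralElem z) : f.IsIntegralElem (γT z) := by
  obtain ⟨P, hP, hPz⟩ := hz
  refine ⟨P.map γS, hP.map _, ?_⟩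
  rw [eval₂_map, hcomm, ← hom_eval₂, hPz, map_zero]

/-- Finite sums of integral elements (ring hom version). -/
theorem S18P10_isIntegralElem_sum {S T : Type*} [CommRing S] [CommRing T] (f : S →+* T)
    {α : Type*} (s : Finset α) (g : α → T) (h : ∀ a ∈ s, f.IsIntegralElem (g a)) :
    f.IsIntegralElem (∑ a ∈ s, g a) := by
  classical
  induction s using Finset.induction_on with
  | empty =>
    rw [Finset.sum_empty]
    have := RingHom.isIntegralElem_map (f := f) (x := 0)
    rwa [map_zero] at this
  | insert a s ha ih =>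
    rw [Finset.sum_insert ha]
    exact RingHom.IsIntegralElem.add f (h a (Finset.mem_insert_self a s))
      (ih fun b hb => h b (Finset.mem_insert_of_mem hb))

/-- A functional dual to one member of a finite linearly independent family, realised by the
trace form of a finite separable extension. -/
theorem S18P10_exists_trace_dual {K1 L : Type*} [Field K1] [Field L] [Algebra K1 L]
    [FiniteDimensional K1 L] [Algebra.IsSeparable K1 L] {ι : Type*} [DecidableEq ι]
    (s : Finset ι) (c : ι → L)
    (hc : LinearIndependent K1 (fun i : s => c i)) (j : ι) (hj : j ∈ s) :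
    ∃ a : L, ∀ i ∈ s, Algebra.trace K1 L (a * c i) = if i = j then 1 else 0 := by
  -- the coordinate functional on the span
  let p : Submodule K1 L := Submodule.span K1 (Set.range fun i : s => c i)
  let φ₀ : p →ₗ[K1] K1 := (Finsupp.lapply (⟨j, hj⟩ : s)).comp hc.repr
  obtain ⟨φ, hφ⟩ := LinearMap.exists_extend φ₀
  have hφc : ∀ i (hi : i ∈ s), φ (c i) = if i = j then 1 else 0 := by
    intro i hi
    have hmem : c i ∈ p := Submodule.subset_span ⟨⟨i, hi⟩, rfl⟩
    have h1 : φ (c i) = φ₀ ⟨c i, hmem⟩ := by
      rw [← hφ]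
      rfl
    rw [h1]
    have h2 : hc.repr ⟨c i, hmem⟩ = Finsupp.single (⟨i, hi⟩ : s) 1 :=
      hc.repr_eq_single (⟨i, hi⟩ : s) ⟨c i, hmem⟩ rfl
    show (hc.repr ⟨c i, hmem⟩) ⟨j, hj⟩ = _
    rw [h2, Finsupp.single_apply]
    by_cases hij : i = j
    · subst hij
      simp
    · rw [if_neg hij, if_neg]
      intro h
      exact hij (congrArg Subtype.val h)
  have hB := traceForm_nondegenerate K1 L
  let e := LinearMap.BilinForm.toDual (Algebra.traceForm K1 L) hB
  refine ⟨e.symm φ, fun i hi => ?_⟩
  have h3 : e (e.symm φ) (c i) = φ (c i) := by rw [LinearEquiv.apply_symm_apply]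
  rw [← hφc i hi, ← h3]
  rfl

end Basic

section Core

variable {K1 K R E : Type*} [Field K1] [Field K] [Algebra K1 K]
  [CommRing R] [Algebra K1 R] [CommRing E] [Algebra K1 E] [Algebra R E] [IsScalarTower K1 R E]

variable (K1 K R E) in
/-- The base change `R ⊗[K1] K → E ⊗[K1] K` of the structure map `R → E`. -/
noncomputable def S18P10_bc : R ⊗[K1] K →ₐ[R] E ⊗[K1] K :=
  Algebra.TensorProduct.map (Algebra.ofId R E) (AlgHom.id K1 K)

@[simp]
theorem S18P10_bc_tmul (r : R) (a : K) :
    S18P10_bc K1 K R E (r ⊗ₜ[K1] a) = algebraMap R E r ⊗ₜ[K1] a := rfl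

variable (E) in
/-- The action of an automorphism of `K / K1` on `E ⊗[K1] K`. -/
noncomputable def S18P10_act (σ : K ≃ₐ[K1] K) : E ⊗[K1] K →ₐ[E] E ⊗[K1] K :=
  Algebra.TensorProduct.map (AlgHom.id E E) σ.toAlgHom

@[simp]
theorem S18P10_act_tmul (σ : K ≃ₐ[K1] K) (x : E) (a : K) :
    S18P10_act E σ (x ⊗ₜ[K1] a) = x ⊗ₜ[K1] σ a := rfl

theorem S18P10_bc_comp_act (σ : K ≃ₐ[K1] K) :
    (S18P10_bc K1 K R E).toRingHom.comp (S18P10_act R σ).toRingHom =
      (S18P10_act E σ).toRingHom.comp (S18P10_bc K1 K R E).toRingHom := by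
  refine RingHom.ext fun z => ?_
  induction z using TensorProduct.induction_on with
  | zero => simp
  | tmul r a => rfl
  | add z w hz hw =>
    simp only [map_add, hz, hw]

/-- Conjugates of integral elements are integral. -/
theorem S18P10_isIntegralElem_act (σ : K ≃ₐ[K1] K) {z : E ⊗[K1] K}
    (hz : (S18P10_bc K1 K R E).toRingHom.IsIntegralElem z) :
    (S18P10_bc K1 K R E).toRingHom.IsIntegralElem (S18P10_act E σ z) :=
  S18P10_isIntegralElem_of_comm _ (S18P10_act R σ).toRingHom (S18P10_act E σ).toRingHom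
    (S18P10_bc_comp_act σ) hz

/-- An element `x ⊗ 1` integral over `R ⊗[K1] K` comes from an element integral over `R`. -/
theorem S18P10_isIntegral_of_tmul_one [Algebra.IsAlgebraic K1 K] {x : E}
    (hx : (S18P10_bc K1 K R E).toRingHom.IsIntegralElem (x ⊗ₜ[K1] (1 : K))) :
    IsIntegral R x := by
  letI : Algebra (R ⊗[K1] K) (E ⊗[K1] K) := (S18P10_bc K1 K R E).toRingHom.toAlgebra
  haveI : IsScalarTower R (R ⊗[K1] K) (E ⊗[K1] K) :=
    IsScalarTower.of_algebraMap_eq fun r => ((S18P10_bc K1 K R E).commutes r).symm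
  haveI : Algebra.IsIntegral K1 K := Algebra.IsAlgebraic.isIntegral
  have h1 : IsIntegral (R ⊗[K1] K) (x ⊗ₜ[K1] (1 : K)) := hx
  have h2 : IsIntegral R (x ⊗ₜ[K1] (1 : K)) := isIntegral_trans _ h1
  have hinj : Function.Injective
      (Algebra.TensorProduct.includeLeft : E →ₐ[R] E ⊗[K1] K) :=
    Algebra.TensorProduct.includeLeft_injective (algebraMap K1 K).injective
  exact (isIntegral_algHom_iff _ hinj).mp h2

/-- **P10, coordinate form.**  If `∑ xᵢ ⊗ cᵢ` is integral over `R ⊗[K1] K` and the `cᵢ` are
linearly independent over `K1`, then every `xᵢ` is integral over `R`. -/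
theorem S18P10_isIntegral_coord [IsGalois K1 K] {ι : Type*} (s : Finset ι) (c : ι → K)
    (hc : LinearIndependent K1 (fun i : s => c i)) (x : ι → E)
    (hx : (S18P10_bc K1 K R E).toRingHom.IsIntegralElem (∑ i ∈ s, x i ⊗ₜ[K1] c i)) :
    ∀ i ∈ s, IsIntegral R (x i) := by
  classical
  intro j hj
  haveI : Algebra.IsAlgebraic K1 K := inferInstance
  -- a finite Galois subextension containing the `c i`
  let T : Set K := ((s.image c : Finset K) : Set K)
  haveI : Finite T := Finset.finite_toSet _
  let L := FiniteGaloisIntermediateField.adjoin K1 T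
  have hcL : ∀ i ∈ s, c i ∈ L.toIntermediateField := fun i hi =>
    FiniteGaloisIntermediateField.subset_adjoin K1 T
      (Finset.mem_coe.mpr (Finset.mem_image_of_mem c hi))
  let c' : ι → L.toIntermediateField := fun i => if h : i ∈ s then ⟨c i, hcL i h⟩ else 0
  have hc'val : ∀ i ∈ s, ((c' i : L.toIntermediateField) : K) = c i := by
    intro i hi
    simp only [c', dif_pos hi]
  have hc' : LinearIndependent K1 (fun i : s => c' i) := by
    refine LinearIndependent.of_comp (L.toIntermediateField.val.toLinearMap) ?_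
    have : (⇑(L.toIntermediateField.val.toLinearMap) ∘ fun i : s => c' i) = fun i : s => c i := by
      funext i
      exact hc'val i i.2
    rw [this]
    exact hc
  obtain ⟨a, ha⟩ := S18P10_exists_trace_dual s c' hc' j hj
  -- lifts of the automorphisms of `L`
  let σ : (L.toIntermediateField ≃ₐ[K1] L.toIntermediateField) → (K ≃ₐ[K1] K) :=
    fun γ => γ.liftNormal K
  have hσ : ∀ γ (y : L.toIntermediateField), σ γ (y : K) = ((γ y : L.toIntermediateField) : K) :=
    fun γ y => AlgEquiv.liftNormal_commutes γ K y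
  -- the averaged element is integral
  have hint : (S18P10_bc K1 K R E).toRingHom.IsIntegralElem
      (∑ γ : L.toIntermediateField ≃ₐ[K1] L.toIntermediateField,
        S18P10_act E (σ γ) (((1 : E) ⊗ₜ[K1] (a : K)) * ∑ i ∈ s, x i ⊗ₜ[K1] c i)) := by
    refine S18P10_isIntegralElem_sum _ _ _ fun γ _ => ?_
    refine S18P10_isIntegralElem_act (σ γ) ?_
    refine RingHom.IsIntegralElem.mul _ ?_ hx
    have h1 : ((1 : E) ⊗ₜ[K1] (a : K)) =
        (S18P10_bc K1 K R E).toRingHom ((1 : R) ⊗ₜ[K1] (a : K)) := by
      show _ = S18P10_bc K1 K R E ((1 : R) ⊗ₜ[K1] (a : K))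
      rw [S18P10_bc_tmul, map_one]
    rw [h1]
    exact RingHom.isIntegralElem_map _
  -- and equals `x j ⊗ 1`
  have hval : (∑ γ : L.toIntermediateField ≃ₐ[K1] L.toIntermediateField,
        S18P10_act E (σ γ) (((1 : E) ⊗ₜ[K1] (a : K)) * ∑ i ∈ s, x i ⊗ₜ[K1] c i)) =
      x j ⊗ₜ[K1] (1 : K) := by
    have hterm : ∀ γ : L.toIntermediateField ≃ₐ[K1] L.toIntermediateField,
        S18P10_act E (σ γ) (((1 : E) ⊗ₜ[K1] (a : K)) * ∑ i ∈ s, x i ⊗ₜ[K1] c i) =
          ∑ i ∈ s, x i ⊗ₜ[K1] (((γ (a * c' i) : L.toIntermediateField)) : K) := by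
      intro γ
      rw [Finset.mul_sum, map_sum]
      refine Finset.sum_congr rfl fun i hi => ?_
      rw [Algebra.TensorProduct.tmul_mul_tmul, one_mul, S18P10_act_tmul, ← hσ]
      congr 2
      rw [← hc'val i hi]
      rfl
    simp only [hterm]
    rw [Finset.sum_comm]
    have hsum : ∀ i ∈ s, (∑ γ : L.toIntermediateField ≃ₐ[K1] L.toIntermediateField,
        x i ⊗ₜ[K1] (((γ (a * c' i) : L.toIntermediateField)) : K)) =
          if i = j then x j ⊗ₜ[K1] (1 : K) else 0 := by
      intro i hi
      rw [← TensorProduct.tmul_sum]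
      have h1 : (∑ γ : L.toIntermediateField ≃ₐ[K1] L.toIntermediateField,
          (((γ (a * c' i) : L.toIntermediateField)) : K)) =
            algebraMap K1 K (if i = j then 1 else 0) := by
        have h2 := trace_eq_sum_automorphisms (K := K1) (L := L.toIntermediateField)
          (a * c' i)
        rw [ha i hi] at h2
        have h3 : (((algebraMap K1 ↥L.toIntermediateField) (if i = j then 1 else 0) :
            L.toIntermediateField) : K) =
            ((∑ γ : L.toIntermediateField ≃ₐ[K1] L.toIntermediateField, γ (a * c' i) :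
              L.toIntermediateField) : K) := congrArg Subtype.val h2
        rw [IsScalarTower.algebraMap_apply K1 L.toIntermediateField K]
        rw [show ((algebraMap (↥L.toIntermediateField) K)
          ((algebraMap K1 ↥L.toIntermediateField) (if i = j then 1 else 0))) =
            (((algebraMap K1 ↥L.toIntermediateField) (if i = j then 1 else 0) :
              L.toIntermediateField) : K) from rfl, h3]
        push_cast
        rfl
      rw [h1]
      by_cases hij : i = j
      · rw [if_pos hij, if_pos hij, map_one, hij]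
      · rw [if_neg hij, if_neg hij, map_zero, TensorProduct.tmul_zero]
    rw [Finset.sum_congr rfl hsum, Finset.sum_ite_eq' s j, if_pos hj]
  rw [hval] at hint
  exact S18P10_isIntegral_of_tmul_one hint

/-- **P10, range form.**  An element of `E ⊗[K1] K` integral over `R ⊗[K1] K` lies in the image
of `(integralClosure R E) ⊗[K1] K`. -/
theorem S18P10_mem_range [IsGalois K1 K] (z : E ⊗[K1] K)
    (hz : (S18P10_bc K1 K R E).toRingHom.IsIntegralElem z) :
    z ∈ (Algebra.TensorProduct.map ((integralClosure R E).val) (AlgHom.id K1 K)).range := by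
  classical
  let b := Module.Basis.ofVectorSpace K1 K
  obtain ⟨x, rfl⟩ := TensorProduct.eq_repr_basis_right b z
  rw [Finsupp.sum] at hz ⊢
  have hli : LinearIndependent K1 (fun i : x.support => b i) :=
    b.linearIndependent.comp _ Subtype.val_injective
  have hint := S18P10_isIntegral_coord x.support (fun i => b i) hli (fun i => x i) hz
  refine Subalgebra.sum_mem _ fun i hi => ?_
  exact ⟨(⟨x i, hint i hi⟩ : integralClosure R E) ⊗ₜ[K1] b i, rfl⟩

/-- Converse of `S18P10_mem_range` (no hypothesis on `K / K1` beyond algebraicity). -/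
theorem S18P10_isIntegralElem_of_mem_range [Algebra.IsAlgebraic K1 K] (z : E ⊗[K1] K)
    (hz : z ∈ (Algebra.TensorProduct.map ((integralClosure R E).val) (AlgHom.id K1 K)).range) :
    (S18P10_bc K1 K R E).toRingHom.IsIntegralElem z := by
  obtain ⟨w, rfl⟩ := hz
  induction w using TensorProduct.induction_on with
  | zero =>
    show (S18P10_bc K1 K R E).toRingHom.IsIntegralElem
      ((Algebra.TensorProduct.map ((integralClosure R E).val) (AlgHom.id K1 K)) 0)
    rw [map_zero]
    have := RingHom.isIntegralElem_map (f := (S18P10_bc K1 K R E).toRingHom) (x := 0)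
    rwa [map_zero] at this
  | tmul y a =>
    have h1 : (Algebra.TensorProduct.map ((integralClosure R E).val) (AlgHom.id K1 K))
        (y ⊗ₜ[K1] a) = ((y : E) ⊗ₜ[K1] (1 : K)) * ((1 : E) ⊗ₜ[K1] a) := by
      rw [Algebra.TensorProduct.tmul_mul_tmul, mul_one, one_mul]
      rfl
    show (S18P10_bc K1 K R E).toRingHom.IsIntegralElem
      ((Algebra.TensorProduct.map ((integralClosure R E).val) (AlgHom.id K1 K)) (y ⊗ₜ[K1] a))
    rw [h1]
    refine RingHom.IsIntegralElem.mul _ ?_ ?_
    · obtain ⟨P, hP, hPy⟩ := y.2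
      refine ⟨P.map (algebraMap R (R ⊗[K1] K)), hP.map _, ?_⟩
      rw [eval₂_map]
      have h2 : (S18P10_bc K1 K R E).toRingHom.comp (algebraMap R (R ⊗[K1] K)) =
          (Algebra.TensorProduct.includeLeft : E →ₐ[R] E ⊗[K1] K).toRingHom.comp
            (algebraMap R E) := by
        refine RingHom.ext fun r => ?_
        rfl
      rw [h2]
      have h3 := hom_eval₂ P (algebraMap R E)
        (Algebra.TensorProduct.includeLeft : E →ₐ[R] E ⊗[K1] K).toRingHom (y : E)
      rw [hPy, map_zero] at h3
      exact h3.symm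
    · have h4 : ((1 : E) ⊗ₜ[K1] a) =
          (S18P10_bc K1 K R E).toRingHom ((1 : R) ⊗ₜ[K1] a) := by
        show _ = S18P10_bc K1 K R E ((1 : R) ⊗ₜ[K1] a)
        rw [S18P10_bc_tmul, map_one]
      rw [h4]
      exact RingHom.isIntegralElem_map _
  | add v w hv hw =>
    show (S18P10_bc K1 K R E).toRingHom.IsIntegralElem
      ((Algebra.TensorProduct.map ((integralClosure R E).val) (AlgHom.id K1 K)) (v + w))
    rw [map_add]
    exact RingHom.IsIntegralElem.add _ hv hw

end Core

section AlgClosed

/-- An algebraically closed field of characteristic zero is Galois over every subfield over which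
it is algebraic. -/
theorem S18P10_isGalois_of_isAlgClosed (K1 K : Type*) [Field K1] [Field K] [Algebra K1 K]
    [IsAlgClosed K] [Algebra.IsAlgebraic K1 K] [CharZero K1] : IsGalois K1 K :=
  haveI : IsAlgClosure K1 K := ⟨inferInstance, inferInstance⟩
  IsAlgClosure.isGalois K1 K

/-- **P10** for an algebraically closed field of characteristic zero, coordinate form. -/
theorem S18P10_isIntegral_coord_algClosed {K1 K R E : Type*} [Field K1] [Field K] [Algebra K1 K]
    [CommRing R] [Algebra K1 R] [CommRing E] [Algebra K1 E] [Algebra R E] [IsScalarTower K1 R E]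
    [IsAlgClosed K] [Algebra.IsAlgebraic K1 K] [CharZero K1]
    {ι : Type*} (s : Finset ι) (c : ι → K)
    (hc : LinearIndependent K1 (fun i : s => c i)) (x : ι → E)
    (hx : (S18P10_bc K1 K R E).toRingHom.IsIntegralElem (∑ i ∈ s, x i ⊗ₜ[K1] c i)) :
    ∀ i ∈ s, IsIntegral R (x i) :=
  haveI := S18P10_isGalois_of_isAlgClosed K1 K
  S18P10_isIntegral_coord s c hc x hx

/-- **P10** for an algebraically closed field of characteristic zero, range form. -/
theorem S18P10_mem_range_algClosed {K1 K R E : Type*} [Field K1] [Field K] [Algebra K1 K]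
    [CommRing R] [Algebra K1 R] [CommRing E] [Algebra K1 E] [Algebra R E] [IsScalarTower K1 R E]
    [IsAlgClosed K] [Algebra.IsAlgebraic K1 K] [CharZero K1] (z : E ⊗[K1] K)
    (hz : (S18P10_bc K1 K R E).toRingHom.IsIntegralElem z) :
    z ∈ (Algebra.TensorProduct.map ((integralClosure R E).val) (AlgHom.id K1 K)).range :=
  haveI := S18P10_isGalois_of_isAlgClosed K1 K
  S18P10_mem_range z hz

end AlgClosed

section Algebraic

/-- Integrality with respect to a ring hom is transported along a commutative square. -/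
theorem S18P10_isIntegralElem_of_square {S T S' T' : Type*} [CommRing S] [CommRing T]
    [CommRing S'] [CommRing T'] (f : S →+* T) (f' : S' →+* T')
    (γS : S →+* S') (γT : T →+* T') (hcomm : f'.comp γS = γT.comp f) {z : T}
    (hz : f.IsIntegralElem z) : f'.IsIntegralElem (γT z) := by
  obtain ⟨P, hP, hPz⟩ := hz
  refine ⟨P.map γS, hP.map _, ?_⟩
  rw [eval₂_map, hcomm, ← hom_eval₂, hPz, map_zero]

variable {K1 K R E : Type*} [Field K1] [Field K] [Algebra K1 K]
  [CommRing R] [Algebra K1 R] [CommRing E] [Algebra K1 E] [Algebra R E] [IsScalarTower K1 R E]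

/-- **P10, coordinate form, for an arbitrary algebraic extension `K / K1` in characteristic
zero** (`K / K1` need not be normal). -/
theorem S18P10_isIntegral_coord_of_isAlgebraic [CharZero K1] [Algebra.IsAlgebraic K1 K]
    {ι : Type*} (s : Finset ι) (c : ι → K)
    (hc : LinearIndependent K1 (fun i : s => c i)) (x : ι → E)
    (hx : (S18P10_bc K1 K R E).toRingHom.IsIntegralElem (∑ i ∈ s, x i ⊗ₜ[K1] c i)) :
    ∀ i ∈ s, IsIntegral R (x i) := by
  classical
  let Ω := AlgebraicClosure K
  haveI : Algebra.IsAlgebraic K1 Ω := Algebra.IsAlgebraic.trans K1 K Ω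
  let jK : K →ₐ[K1] Ω := IsScalarTower.toAlgHom K1 K Ω
  let jE : E ⊗[K1] K →ₐ[E] E ⊗[K1] Ω := Algebra.TensorProduct.map (AlgHom.id E E) jK
  let jR : R ⊗[K1] K →ₐ[R] R ⊗[K1] Ω := Algebra.TensorProduct.map (AlgHom.id R R) jK
  have hsq : (S18P10_bc K1 Ω R E).toRingHom.comp jR.toRingHom =
      jE.toRingHom.comp (S18P10_bc K1 K R E).toRingHom := by
    refine RingHom.ext fun z => ?_
    induction z using TensorProduct.induction_on with
    | zero => simp
    | tmul r a => rfl
    | add z w hz hw => simp only [map_add, hz, hw]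
  have h1 := S18P10_isIntegralElem_of_square _ _ jR.toRingHom jE.toRingHom hsq hx
  have h2 : jE.toRingHom (∑ i ∈ s, x i ⊗ₜ[K1] c i) = ∑ i ∈ s, x i ⊗ₜ[K1] (jK (c i)) := by
    show jE (∑ i ∈ s, x i ⊗ₜ[K1] c i) = _
    rw [map_sum]
    rfl
  rw [h2] at h1
  have hli : LinearIndependent K1 (fun i : s => jK (c i)) :=
    hc.map' jK.toLinearMap (LinearMap.ker_eq_bot.mpr jK.toRingHom.injective)
  exact S18P10_isIntegral_coord_algClosed s (fun i => jK (c i)) hli x h1

/-- **P10, range form, for an arbitrary algebraic extension `K / K1` in characteristic zero.** -/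
theorem S18P10_mem_range_of_isAlgebraic [CharZero K1] [Algebra.IsAlgebraic K1 K]
    (z : E ⊗[K1] K) (hz : (S18P10_bc K1 K R E).toRingHom.IsIntegralElem z) :
    z ∈ (Algebra.TensorProduct.map ((integralClosure R E).val) (AlgHom.id K1 K)).range := by
  classical
  let b := Module.Basis.ofVectorSpace K1 K
  obtain ⟨x, rfl⟩ := TensorProduct.eq_repr_basis_right b z
  rw [Finsupp.sum] at hz ⊢
  have hli : LinearIndependent K1 (fun i : x.support => b i) :=
    b.linearIndependent.comp _ Subtype.val_injective
  have hint := S18P10_isIntegral_coord_of_isAlgebraic x.support (fun i => b i) hli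
    (fun i => x i) hz
  refine Subalgebra.sum_mem _ fun i hi => ?_
  exact ⟨(⟨x i, hint i hi⟩ : integralClosure R E) ⊗ₜ[K1] b i, rfl⟩

/-- The integral closure of `R ⊗[K1] K` in `E ⊗[K1] K` is exactly the image of
`(integralClosure R E) ⊗[K1] K` (characteristic zero, `K / K1` algebraic). -/
theorem S18P10_isIntegralElem_iff_mem_range [CharZero K1] [Algebra.IsAlgebraic K1 K]
    (z : E ⊗[K1] K) :
    (S18P10_bc K1 K R E).toRingHom.IsIntegralElem z ↔
      z ∈ (Algebra.TensorProduct.map ((integralClosure R E).val) (AlgHom.id K1 K)).range :=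
  ⟨S18P10_mem_range_of_isAlgebraic z, S18P10_isIntegralElem_of_mem_range z⟩

end Algebraic

end Fermat.Agent.S18_helper20_P10
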