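import Mathlib
import Fermat.Agent.S18_helper23_CCORE
import Fermat.Agent.S18_helper6_KUMMERE

/-!
# S18, block C: the abstract core WITHOUT roots of unity

`blockC_core_nz` is `S18_helper23_CCORE.blockC_core` with the hypotheses `(ζ hζ hζV)` replaced by
`(hp0 : (p : L) ≠ 0)`: the normality of `V[h]` is taken from helper6's trace argument
`S18_helper6_KUMMERE.S18P12E_coeff_mem` instead of the conjugation argument.
-/

set_option autoImplicit false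

namespace Fermat.Agent.S18_helper23_CCORE2

open Fermat.Agent.S18_helper23_KUMIDEM Fermat.Agent.S18_helper23_CCORE Finset

variable {L : Type*} [Field L]

/-- (K3, root-of-unity free) nontriviality: the Kummer idempotent of `s = h / G` is not congruent
to a constant `γ ∈ V` modulo `π ·` (elements integral over `V`). -/
theorem kumIdem_sub_const_ne_nz (F1 : Subfield L) (V : Subring L) (hVF : ∀ x ∈ V, x ∈ F1)
    (hVic : ∀ x ∈ F1, IsIntegral V x → x ∈ V)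
    (p : ℕ) (hp : p.Prime) (hp0 : (p : L) ≠ 0) (hpV : ((p : L))⁻¹ ∈ V)
    (f h : L) (hf : f ∈ V) (hf' : f⁻¹ ∈ V) (hh : h ^ p = f) (hnp : ∀ b ∈ F1, b ^ p ≠ f)
    (π G γ : L) (hπ : π ∈ V) (hπ0 : π ≠ 0) (hπinv : π⁻¹ ∉ V)
    (hG : G ∈ V) (hG' : G⁻¹ ∈ V) (hG0 : G ≠ 0) (hγ : γ ∈ V)
    (w : L) (hw : IsIntegral V w) :
    kumIdem p ((p : L)⁻¹) (h * G⁻¹) - γ ≠ π * w := by
  intro heq
  have hw' : w = π⁻¹ * (kumIdem p ((p : L)⁻¹) (h * G⁻¹) - γ) := by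
    rw [heq, ← mul_assoc, inv_mul_cancel₀ hπ0, one_mul]
  let c : ℕ → L := fun i => π⁻¹ * ((p : L)⁻¹ * G⁻¹ ^ i - if i = 0 then γ else 0)
  have hπF : π ∈ F1 := hVF _ hπ
  have hc : ∀ i, c i ∈ F1 := by
    intro i
    refine F1.mul_mem (F1.inv_mem hπF) (F1.sub_mem (F1.mul_mem (hVF _ hpV)
      (F1.pow_mem (hVF _ hG') i)) ?_)
    split_ifs
    · exact hVF _ hγ
    · exact F1.zero_mem
  have hsum : ∑ i ∈ range p, c i * h ^ i = w := by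
    have hterm : ∀ i ∈ range p, c i * h ^ i =
        π⁻¹ * ((p : L)⁻¹ * (h * G⁻¹) ^ i) - π⁻¹ * (if i = 0 then γ else 0) := by
      intro i _
      simp only [c]
      split_ifs with h0
      · subst h0; ring
      · ring
    rw [Finset.sum_congr rfl hterm, Finset.sum_sub_distrib, ← Finset.mul_sum, ← Finset.mul_sum,
      ← Finset.mul_sum, Finset.sum_ite_eq' (range p) 0 (fun _ => γ),
      if_pos (Finset.mem_range.2 hp.pos), hw', kumIdem]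
    ring
  have h1 : c 1 ∈ V :=
    Fermat.Agent.S18_helper6_KUMMERE.S18P12E_coeff_mem F1 V hVF hVic p hp hp0 hpV f h hf hf' hh
      hnp c hc (by rw [hsum]; exact hw) 1 hp.one_lt
  apply hπinv
  have h2 : π⁻¹ = c 1 * G * (p : L) := by
    simp only [c, one_ne_zero, if_false, sub_zero, pow_one]
    field_simp
  rw [h2]
  exact V.mul_mem (V.mul_mem h1 hG) (natCast_mem V p)

/-- **Block C core, root-of-unity free.**  Same as `blockC_core`, with `(ζ hζ hζV)` replaced by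
`(hp0 : (p : L) ≠ 0)`. -/
theorem blockC_core_nz (p : ℕ) (hp : p.Prime) (hp0 : (p : L) ≠ 0)
    (F1 : Subfield L) (O V V' A0 A1 A0' A1' Bmid : Subring L)
    (π f h G : L)
    -- inclusions
    (hOA0 : O ≤ A0) (hOA1 : O ≤ A1) (hOV : O ≤ V)
    (hVF : ∀ x ∈ V, x ∈ F1)
    (hA0A0' : A0 ≤ A0') (hA1A1' : A1 ≤ A1') (hA0'B : A0' ≤ Bmid) (hA1'B : A1' ≤ Bmid)
    (hBV' : Bmid ≤ V') (hVV' : V ≤ V')
    -- the valuation ring `V` of `F1` and the ring `V'` of elements integral over it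
    (hVic : ∀ x ∈ F1, IsIntegral V x → x ∈ V)
    (hV'int : ∀ x ∈ V', IsIntegral V x)
    (hπO : π ∈ O) (hπ0 : π ≠ 0) (hπinv : π⁻¹ ∉ V)
    (hpO : ((p : L))⁻¹ ∈ O)
    -- `f`, `h`, `G`
    (hf : f ∈ V) (hf' : f⁻¹ ∈ V) (hh : h ^ p = f) (hnp : ∀ b ∈ F1, b ^ p ≠ f) (hhV' : h ∈ V')
    (hG : G ∈ V) (hG' : G⁻¹ ∈ V) (hG0 : G ≠ 0) (hfG : ∃ c ∈ V, f = G ^ p * (1 + π * c))
    -- saturation
    (hsat0 : ∀ x ∈ V', π * x ∈ A0' → x ∈ A0') (hsat1 : ∀ x ∈ V', π * x ∈ A1' → x ∈ A1')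
    (hsatB : ∀ x ∈ V', π * x ∈ Bmid → x ∈ Bmid)
    -- Čech data
    (hH0 : ∀ x, x ∈ A0' → x ∈ A1' → x ∈ O)
    (c : ℕ)
    (hH1 : ∀ x ∈ Bmid, ∀ n : ℕ, (∃ a ∈ A0', ∃ b ∈ A1', π ^ n * x = a - b) →
      ∃ a ∈ A0', ∃ b ∈ A1', π ^ c * x = a - b)
    -- local lifts of `s = h / G`
    (hloc0 : ∀ m : Ideal A0, m.IsMaximal → (⟨π, hOA0 hπO⟩ : A0) ∈ m →
      ∃ D : A0, D ∉ m ∧ ∃ y ∈ A0', ∃ w ∈ V', (D : L) * (h * G⁻¹) = y + π * w)
    (hloc1 : ∀ m : Ideal A1, m.IsMaximal → (⟨π, hOA1 hπO⟩ : A1) ∈ m →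
      ∃ D : A1, D ∉ m ∧ ∃ y ∈ A1', ∃ w ∈ V', (D : L) * (h * G⁻¹) = y + π * w) :
    False := by
  obtain ⟨c₀, hc₀, hfG⟩ := hfG
  have hs : h * G⁻¹ ∈ V' := V'.mul_mem hhV' (hVV' hG')
  have hsp : (h * G⁻¹) ^ p = 1 + π * c₀ := by
    have hGp : G ^ p ≠ 0 := pow_ne_zero _ hG0
    rw [mul_pow, hh, hfG, inv_pow]
    field_simp
  obtain ⟨e0, he0, ⟨w0, hw0, hew0⟩, hid0⟩ := exists_chart_idem p V' A0 A0' hA0A0'
    (hA0'B.trans hBV') π (h * G⁻¹) c₀ (hOA0 hπO) (hOA0 hpO) hp0 hs (hVV' hc₀) hsp hsat0 hloc0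
  obtain ⟨e1, he1, ⟨w1, hw1, hew1⟩, hid1⟩ := exists_chart_idem p V' A1 A1' hA1A1'
    (hA1'B.trans hBV') π (h * G⁻¹) c₀ (hOA1 hπO) (hOA1 hpO) hp0 hs (hVV' hc₀) hsp hsat1 hloc1
  -- agreement on the overlap
  have hagree : ∃ u ∈ Bmid, e0 - e1 = π * u := by
    have h1 : e0 - e1 = π * (w0 - w1) := by linear_combination hew0 - hew1
    refine ⟨w0 - w1, hsatB _ (V'.sub_mem hw0 hw1) ?_, h1⟩
    rw [← h1]
    exact Bmid.sub_mem (hA0'B he0) (hA1'B he1)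
  obtain ⟨γ, hγ, ⟨u, hu, heγ⟩, -⟩ :=
    Fermat.Agent.S18_helper28_CECH.cech_two_chart O A0' A1' Bmid π hπO (hOA0.trans hA0A0')
      (hOA1.trans hA1A1') hA0'B hA1'B hH0 c hH1 e0 e1 he0 he1 hid0 hid1 hagree
  -- contradiction with nontriviality
  have hint : IsIntegral V (u - w0) :=
    hV'int _ (V'.sub_mem (hBV' (hA0'B hu)) hw0)
  refine kumIdem_sub_const_ne_nz F1 V hVF hVic p hp hp0 (hOV hpO) f h hf hf' hh hnp π G γ
    (hOV hπO) hπ0 hπinv hG hG' hG0 (hOV hγ) (u - w0) hint ?_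
  linear_combination heγ - hew0

end Fermat.Agent.S18_helper23_CCORE2
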