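import Mathlib
import Fermat.Agent.S18_helper9_CBasic
import Fermat.Agent.S18_helper23_CLOC

/-!
# S18, block C: local lift of `s = h / G` itself (input `hloc0`/`hloc1` of `blockC_core_nz`)

`loc_s` : from the local shape at a prime `m` of the chart `A` (conclusion of X-C-LOCRING, with
`locAt` unfolded) to `D * (h * G⁻¹) = y + π * w` with `D ∈ A \ m`, `y` integral over `O[x]`
(hence over `A`) in `F1(h)`, and `w` integral over `V` in `F1(h)`.
-/

set_option autoImplicit false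

namespace Fermat.Agent.S18_helper23_CLOCS

open Fermat.Agent.S18_helper9_CDefs Fermat.Agent.S18_helper23_CLOC Finset

variable {L : Type*} [Field L] {O V A0 Ainf : Subring L} {F1 : Subfield L} {π j : L}

/-- local lift of `s = h * G⁻¹`. -/
theorem loc_s (S : Setup O π j F1 V A0 Ainf) {p : ℕ} (hp : p.Prime)
    (x : L) (A : Subring L) (hC : Chart O π x F1 V A)
    (f h G : L) (hf0 : f ≠ 0) (hh : h ^ p = f) (hred : RedPow π V p f G)
    (m : Ideal A) (hm : m.IsPrime)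
    (hshape : ∃ u g w : L, (∃ a c : A, c ∉ m ∧ u * (c : L) = a) ∧
      (∃ a c : A, c ∉ m ∧ u⁻¹ * (c : L) = a) ∧ g ∈ F1 ∧ g ∈ V ∧ g⁻¹ ∈ V ∧
      f = u * g ^ p ∧ (∃ a c : A, c ∉ m ∧ w * (c : L) = a) ∧
      (∃ a c : A, c ∉ m ∧ w⁻¹ * (c : L) = a) ∧ ∃ c ∈ V, G = g * w * (1 + π * c)) :
    ∃ D : A, D ∉ m ∧ ∃ y : L, y ∈ icl (adj O x) (fadj F1 h) ∧ y ∈ icl A (fadj F1 h) ∧
      ∃ w ∈ icl V (fadj F1 h), (D : L) * (h * G⁻¹) = y + π * w := by
  obtain ⟨u, g, w, ⟨au, cu, hcu, hu⟩, -, hgF, hgV, hgV', hfu, -, ⟨aw, cw, hcw, hw⟩, c, hc, hG⟩ :=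
    hshape
  obtain ⟨hGV, hGV', c₀, hc₀, hfG⟩ := hred
  have hOA : O ≤ A := chart_O_le S hC
  have hOV : O ≤ V := hOA.trans hC.le_V
  have hπV : π ∈ V := hOV S.π_mem
  -- nonvanishing
  have hg0 : g ≠ 0 := by
    rintro rfl
    rw [zero_pow hp.ne_zero, mul_zero] at hfu
    exact hf0 hfu
  have hG0 : G ≠ 0 := by
    rintro rfl
    rw [zero_pow hp.ne_zero, zero_mul] at hfG
    exact hf0 hfG
  have hw0 : w ≠ 0 := by
    rintro rfl
    rw [mul_zero, zero_mul] at hG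
    exact hG0 hG
  have h1c : 1 + π * c ≠ 0 := by
    intro h0
    rw [h0, mul_zero] at hG
    exact hG0 hG
  have hcw0 : (cw : L) ≠ 0 := by
    intro h0
    apply hcw
    have : cw = 0 := Subtype.ext h0
    rw [this]; exact m.zero_mem
  set s' : L := h / (g * w) with hs'
  have hwF : w ∈ F1 := by
    have : w = ((aw : L) / (cw : L))⁻¹ := by
      rw [← hw]; field_simp
    rw [this]
    exact F1.inv_mem (F1.div_mem (chart_le_F1 hC aw.2) (chart_le_F1 hC cw.2))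
  have hs'p : s' ^ p * ((cu : L) * (cw : L) ^ p) = (au : L) * (aw : L) ^ p := by
    have h1 : s' ^ p = u * (w⁻¹) ^ p := by
      rw [hs', div_pow, hh, hfu, mul_pow, inv_pow]
      field_simp
    rw [h1, ← hu, ← hw]
    ring
  obtain ⟨c₁, hc₁, a₁, hc₁a₁⟩ : ∃ c₁ : A, c₁ ∉ m ∧ ∃ a₁ : A, s' ^ p * (c₁ : L) = (a₁ : L) := by
    refine ⟨cu * cw ^ p, ?_, au * aw ^ p, ?_⟩
    · intro hmem
      rcases hm.mem_or_mem hmem with h1 | h1
      · exact hcu h1
      · exact hcw (hm.mem_of_pow_mem _ h1)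
    · push_cast
      exact hs'p
  set y : L := (c₁ : L) * s' with hy
  have hyp : y ^ p = ((c₁ ^ (p - 1) * a₁ : A) : L) := by
    have hd : (c₁ : L) ^ p = (c₁ : L) ^ (p - 1) * (c₁ : L) := by
      rw [← pow_succ, Nat.sub_add_cancel hp.pos]
    rw [hy, mul_pow, hd]
    push_cast
    rw [← hc₁a₁]; ring
  have hyF : y ∈ fadj F1 h := by
    rw [hy, hs']
    exact (fadj F1 h).mul_mem (F1_le_fadj F1 h (chart_le_F1 hC c₁.2))
      ((fadj F1 h).div_mem (self_mem_fadj F1 h) (F1_le_fadj F1 h (F1.mul_mem hgF hwF)))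
  have hyint : IsIntegral (adj O x) y := by
    refine IsIntegral.of_pow hp.pos ?_
    rw [hyp]
    exact chart_isIntegral hC (c₁ ^ (p - 1) * a₁).2
  have hadjA : adj O x ≤ A := by
    intro z hz
    rw [hC.mem_iff]
    have hzint : IsIntegral (adj O x) z :=
      isIntegral_algebraMap (R := adj O x) (A := L) (x := ⟨z, hz⟩)
    refine ⟨hzint, ?_⟩
    -- `adj O x ⊆ F1` : it is generated by `O` and `x`, and `x⁻¹ ∈ V ⊆ F1`
    have hxF : x ∈ F1 := by
      have := S.V_le hC.x_inv_mem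
      simpa using F1.inv_mem this
    have hle : adj O x ≤ F1.toSubring := by
      rw [adj, Subring.closure_le]
      rintro t (ht | ht)
      · exact S.O_le ht
      · rw [Set.mem_singleton_iff] at ht
        rw [ht]; exact hxF
    exact hle hz
  have hyintA : IsIntegral A y := Fermat.Agent.S18_helper9_CBasic.isIntegral_mono hadjA hyint
  have hyintV : IsIntegral V y :=
    Fermat.Agent.S18_helper9_CBasic.isIntegral_mono hC.le_V hyintA
  have hinv : (1 + π * c)⁻¹ ∈ V := inv_one_add_mem S hc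
  refine ⟨c₁, hc₁, y, ⟨hyint, hyF⟩, ⟨hyintA, hyF⟩, -(y * (c * (1 + π * c)⁻¹)), ⟨?_, ?_⟩, ?_⟩
  · have hcV : IsIntegral V (c * (1 + π * c)⁻¹) :=
      Fermat.Agent.S18_helper23_KUMIDEM.isIntegral_of_mem V (V.mul_mem hc hinv)
    exact (hyintV.mul hcV).neg
  · exact (fadj F1 h).neg_mem ((fadj F1 h).mul_mem hyF
      (F1_le_fadj F1 h (S.V_le (V.mul_mem hc hinv))))
  · rw [hy, hs', hG]
    field_simp
    ring

end Fermat.Agent.S18_helper23_CLOCS
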