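import Mathlib
import Fermat.Agent.S18_helper17_BDefs
import Fermat.Agent.S18_helper12_NORM
import Fermat.Agent.S18_helper4_T2
import Fermat.Agent.S18_helper4_T3
import Fermat.Agent.S18_helper24_T4
import Fermat.Agent.S18_helper24_ICLOC

set_option autoImplicit false

/-! # S18 block B assembly, second half (X-B-NORMWIRE)

Wiring of the norm descent (`S18B_norm_descent`, helper12) with the glue lemmas T2, T3 (helper4)
and T4 (helper24): in the Galois cover `E = F1(t)` of the chart `A`, with `B` the integral closure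
of `A` in `E`, the local structure `(π, t - t₀)` of `B` at the maximal ideals over `m` gives
`[IG]` for `A` at `m`.
-/

namespace Fermat.Agent.S18_helper24_NORMWIRE

open Polynomial IsLocalRing Fermat.Agent.S18_helper17_BDefs

/-- An automorphism of `E = F1(t)` over `F1` fixing `t` is the identity. -/
theorem S18NW_eq_one_of_fix {F1 E : Type*} [Field F1] [Field E] [Algebra F1 E] (t : E)
    (hgen : IntermediateField.adjoin F1 {t} = ⊤) (σ : E ≃ₐ[F1] E) (h : σ t = t) : σ = 1 := by
  ext y
  have hy : y ∈ IntermediateField.adjoin F1 {t} := by rw [hgen]; trivial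
  induction hy using IntermediateField.adjoin_induction with
  | mem z hz =>
    rw [Set.mem_singleton_iff] at hz
    subst hz
    simpa using h
  | algebraMap c => simp
  | add a b _ _ ha hb =>
    simp only [AlgEquiv.one_apply] at ha hb ⊢
    rw [map_add, ha, hb]
  | inv a _ ha =>
    simp only [AlgEquiv.one_apply] at ha ⊢
    rw [map_inv₀, ha]
  | mul a b _ _ ha hb =>
    simp only [AlgEquiv.one_apply] at ha hb ⊢
    rw [map_mul, ha, hb]

/-- The cover relation is preserved by automorphisms over `F1`. -/
theorem S18NW_rel_map {O F1 : Type} [CommRing O] [Field F1] [Algebra O F1] (x : F1)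
    (An Bd : O[X]) (E : Type) [Field E] [Algebra F1 E] [Algebra O E] [IsScalarTower O F1 E]
    (σ : E ≃ₐ[F1] E) (t : E) (ht : S18B_rel x An Bd E t) : S18B_rel x An Bd E (σ t) := by
  unfold S18B_rel at ht ⊢
  have hσ : ∀ p : O[X], aeval (σ t) p = σ (aeval t p) := by
    intro p
    have h1 : aeval (σ t) p = aeval (σ t) (p.map (algebraMap O F1)) := by
      rw [aeval_map_algebraMap]
    have h2 : aeval t p = aeval t (p.map (algebraMap O F1)) := by
      rw [aeval_map_algebraMap]
    rw [h1, h2]
    exact (Polynomial.aeval_algHom_apply (σ : E →ₐ[F1] E) t _)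
  rw [hσ, hσ, ht, map_mul, AlgEquiv.commutes]

/-- `O[x] ⊆` image of `A` inside `E`. -/
theorem S18NW_adjoin_le_range {O A E : Type*} [CommRing O] [CommRing A] [CommRing E]
    [Algebra O A] [Algebra O E] [Algebra A E] [IsScalarTower O A E] (x : A)
    (s : Algebra.adjoin O {algebraMap A E x}) :
    ∃ a : A, algebraMap A E a = algebraMap (Algebra.adjoin O {algebraMap A E x}) E s := by
  obtain ⟨s, hs⟩ := s
  change ∃ a : A, algebraMap A E a = s
  induction hs using Algebra.adjoin_induction with
  | mem y hy =>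
    rw [Set.mem_singleton_iff] at hy
    exact ⟨x, hy.symm⟩
  | algebraMap c => exact ⟨algebraMap O A c, (IsScalarTower.algebraMap_apply O A E c).symm⟩
  | add y z _ _ hy hz =>
    obtain ⟨a, ha⟩ := hy
    obtain ⟨b, hb⟩ := hz
    exact ⟨a + b, by rw [map_add, ha, hb]⟩
  | mul y z _ _ hy hz =>
    obtain ⟨a, ha⟩ := hy
    obtain ⟨b, hb⟩ := hz
    exact ⟨a * b, by rw [map_mul, ha, hb]⟩

section Main

variable {O F1 A : Type} [CommRing O] [IsLocalRing O]
  [IsAlgClosed (ResidueField O)]
  [Field F1] [CharZero F1] [Algebra O F1]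
  [CommRing A] [IsDomain A] [IsIntegrallyClosed A] [IsNoetherianRing A]
  [Algebra O A] [Algebra A F1] [IsScalarTower O A F1] [IsFractionRing A F1]
  {E : Type} [Field E] [Algebra F1 E] [Algebra O E] [IsScalarTower O F1 E]
  [Algebra A E] [IsScalarTower A F1 E] [IsScalarTower O A E]
  [FiniteDimensional F1 E] [IsGalois F1 E]
  {B : Type} [CommRing B] [IsDomain B] [Algebra A B] [Algebra B E] [IsScalarTower A B E]
  [IsIntegralClosure B A E] [Algebra O B] [IsScalarTower O A B] [IsScalarTower O B E]

/-- **X-B-NORMWIRE.**  `[IG]` for the chart `A` at `m` from the local structure `(π, t - t₀)` of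
the integral closure `B` of `A` in the Galois cover `E = F1(t)` at the maximal ideals over `m`. -/
theorem S18B_IGat_of_hloc (π : O) (hπ : maximalIdeal O = Ideal.span {π})
    (x : A) (hAint : ∀ a : A, IsIntegral (Algebra.adjoin O {x}) a)
    (An Bd : O[X]) (hcov : S18B_Cover O F1 π (algebraMap A F1 x) An Bd)
    (t : E) (ht : S18B_rel (algebraMap A F1 x) An Bd E t)
    (hgen : IntermediateField.adjoin F1 {t} = ⊤)
    (m : Ideal A) [hm : m.IsMaximal] (hπm : algebraMap O A π ∈ m)
    (hπ0 : algebraMap O A π ≠ 0)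
    (hloc : ∀ m' : Ideal B, m'.IsMaximal → m'.comap (algebraMap A B) = m →
      ∀ (tB : B) (t₀ : O), algebraMap B E tB = t → tB - algebraMap O B t₀ ∈ m' →
      (∃ c : O, x - algebraMap O A c ∈ m ∧ π ∣ An.eval t₀ - c * Bd.eval t₀) →
      ¬ π ∣ Bd.eval t₀ →
      (∀ y ∈ m', ∃ s, s ∉ m' ∧ ∃ a b : B, s * y =
          a * algebraMap O B π + b * (tB - algebraMap O B t₀)) ∧
        ∀ (n : ℕ) (s : B), s ∉ m' →
          ¬ algebraMap O B π ∣ s * (tB - algebraMap O B t₀) ^ n) :
    S18B_IGat (algebraMap O A π) m := by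
  classical
  -- instances
  have : Algebra.IsIntegral A B := IsIntegralClosure.isIntegral_algebra A E
  have : IsFractionRing B E := IsIntegralClosure.isFractionRing_of_finite_extension A F1 E B
  have : Module.Finite A B := IsIntegralClosure.finite A F1 E B
  have : Algebra.IsInvariant A B (B ≃ₐ[A] B) := Algebra.isInvariant_of_isGalois' A F1 E B
  have : Finite (B ≃ₐ[A] B) := Finite.of_equiv _ (galRestrict A F1 E B).toEquiv
  have hinjBE : Function.Injective (algebraMap B E) :=
    IsIntegralClosure.algebraMap_injective B A E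
  have hinjAE : Function.Injective (algebraMap A E) := by
    rw [IsScalarTower.algebraMap_eq A F1 E]
    exact (algebraMap F1 E).injective.comp (IsFractionRing.injective A F1)
  have hinjAB : Function.Injective (algebraMap A B) := by
    intro a b hab
    apply hinjAE
    rw [IsScalarTower.algebraMap_apply A B E, IsScalarTower.algebraMap_apply A B E, hab]
  have : FaithfulSMul A B := (faithfulSMul_iff_algebraMap_injective A B).2 hinjAB
  have hxE : algebraMap F1 E (algebraMap A F1 x) = algebraMap A E x :=
    (IsScalarTower.algebraMap_apply A F1 E x).symm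
  -- constants of the maximal ideal of `O` lie in `m`
  have hmO : ∀ c ∈ maximalIdeal O, algebraMap O A c ∈ m := by
    intro c hc
    rw [hπ, Ideal.mem_span_singleton] at hc
    obtain ⟨d, rfl⟩ := hc
    rw [map_mul]
    exact m.mul_mem_right _ hπm
  -- `B` contains everything integral over `O[x]`
  have hB : ∀ y : E, IsIntegral (Algebra.adjoin O {algebraMap F1 E (algebraMap A F1 x)}) y →
      ∃ b : B, algebraMap B E b = y := by
    intro y hy
    rw [hxE] at hy
    have hyA : IsIntegral A y :=
      Fermat.Agent.S18_helper24_ICLOC.S18ICLOC_isIntegral_of_range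
        (S18NW_adjoin_le_range (O := O) (A := A) (E := E) x) hy
    exact (IsIntegralClosure.isIntegral_iff (R := A) (A := B) (B := E)).1 hyA
  -- residue fields: every element of `B` is a constant modulo `m'`
  have hresO : ∀ m' : Ideal B, m'.IsMaximal → m'.comap (algebraMap A B) = m →
      ∀ b : B, ∃ c : O, b - algebraMap O B c ∈ m' := by
    intro m' hm' hcomap b
    have := hm'
    have hQ : ∀ c ∈ maximalIdeal O, algebraMap O B c ∈ m' := by
      intro c hc
      have h1 : algebraMap O A c ∈ m'.comap (algebraMap A B) := by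
        rw [hcomap]; exact hmO c hc
      rw [Ideal.mem_comap, ← IsScalarTower.algebraMap_apply] at h1
      exact h1
    have hψA : (aeval x : O[X] →ₐ[O] A).toRingHom.IsIntegral :=
      fun a => Fermat.Agent.S18_helper4_T2.S18T2_isIntegralElem_of_adjoin x a (hAint a)
    have hAB : (algebraMap A B).IsIntegral := fun z => Algebra.IsIntegral.isIntegral (R := A) z
    have hψ := RingHom.IsIntegral.trans _ _ hψA hAB
    exact Fermat.Agent.S18_helper4_T2.S18T2_exists_sub_mem_of_ringHom
      ((algebraMap A B).comp (aeval x : O[X] →ₐ[O] A).toRingHom)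
      (fun c => by
        simp only [RingHom.comp_apply, AlgHom.toRingHom_eq_coe, RingHom.coe_coe, aeval_C]
        exact (IsScalarTower.algebraMap_apply O A B c).symm) hψ m' hQ b
  -- the point `t₀` below `m'` and the local structure there
  have hpoint : ∀ m' : Ideal B, m'.IsMaximal → m'.comap (algebraMap A B) = m →
      ∃ (tB : B) (t₀ : O), algebraMap B E tB = t ∧ tB - algebraMap O B t₀ ∈ m' ∧
        (∀ y ∈ m', ∃ s, s ∉ m' ∧ ∃ a b : B, s * y =
          a * algebraMap O B π + b * (tB - algebraMap O B t₀)) ∧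
        ∀ (n : ℕ) (s : B), s ∉ m' →
          ¬ algebraMap O B π ∣ s * (tB - algebraMap O B t₀) ^ n := by
    intro m' hm' hcomap
    have hπQ : algebraMap O B π ∈ m' := by
      have h1 : algebraMap O A π ∈ m'.comap (algebraMap A B) := by rw [hcomap]; exact hπm
      rw [Ideal.mem_comap, ← IsScalarTower.algebraMap_apply] at h1
      exact h1
    obtain ⟨tB, t₀, htB, hτ, ⟨c, hc, hdvd⟩, hBd⟩ :=
      Fermat.Agent.S18_helper24_T4.S18T4_point_chart hπ hcov x rfl E t ht hinjBE hB m'
        hm'.ne_top hπQ (hresO m' hm' hcomap)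
    rw [hcomap] at hc
    obtain ⟨h1, h2⟩ := hloc m' hm' hcomap tB t₀ htB hτ ⟨c, hc, hdvd⟩ hBd
    exact ⟨tB, t₀, htB, hτ, h1, h2⟩
  have hπAB : algebraMap A B (algebraMap O A π) = algebraMap O B π :=
    (IsScalarTower.algebraMap_apply O A B π).symm
  -- apply the norm descent
  refine Fermat.Agent.S18_helper12_NORM.S18B_norm_descent (A := A) (B := B) (B ≃ₐ[A] B)
    (algebraMap O A π) hπ0 m hπm ?_ ?_ ?_
  · -- hres
    intro m' hm' hcomap b
    obtain ⟨c, hc⟩ := hresO m' hm' hcomap b
    refine ⟨algebraMap O A c, ?_⟩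
    rw [← IsScalarTower.algebraMap_apply]
    exact hc
  · -- hloc
    intro m' hm' hcomap
    obtain ⟨tB, t₀, -, hτ, h1, h2⟩ := hpoint m' hm' hcomap
    refine ⟨tB - algebraMap O B t₀, hτ, ?_, ?_⟩
    · rw [hπAB]; exact h1
    · rw [hπAB]; exact h2
  · -- hfaith
    intro m' hm' hcomap h hh
    obtain ⟨tB, t₀, htB, hτ, -, h2⟩ := hpoint m' hm' hcomap
    have := hm'.isPrime
    obtain ⟨s, hs, hdiv⟩ := hh tB
    rw [hπAB] at hdiv
    have hrel : S18B_rel (algebraMap A F1 x) An Bd E (algebraMap B E tB) := by
      rw [htB]; exact ht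
    have hσ : algebraMap B E (h tB) = (galRestrict A F1 E B).symm h (algebraMap B E tB) :=
      (galRestrict_symm_algebraMap_apply A F1 h tB).symm
    have hrel' : S18B_rel (algebraMap A F1 x) An Bd E (algebraMap B E (h • tB)) := by
      change S18B_rel (algebraMap A F1 x) An Bd E (algebraMap B E (h tB))
      rw [hσ]
      exact S18NW_rel_map _ An Bd E _ _ hrel
    have hfix : h • tB = tB :=
      Fermat.Agent.S18_helper4_T3.S18T3_faith hinjBE π hπ (algebraMap A F1 x) An Bd hcov
        tB (h • tB) hrel hrel' t₀ m' hτ h2 s hs hdiv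
    have hσt : (galRestrict A F1 E B).symm h t = t := by
      rw [← htB, ← hσ]
      exact congrArg (algebraMap B E) hfix
    have hone : (galRestrict A F1 E B).symm h = 1 := S18NW_eq_one_of_fix t hgen _ hσt
    have := congrArg (galRestrict A F1 E B) hone
    rw [MulEquiv.apply_symm_apply, map_one] at this
    exact this

end Main

end Fermat.Agent.S18_helper24_NORMWIRE
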