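import Fermat.Agent.S18_helper24_DISC
import Fermat.Agent.S18_helper4_P2
import Fermat.Agent.S18_helper25_P3

/-!
# S18, block B: abstract assembly of B3 + B4 + B6 (purity), helper24

`R` a noetherian UFD, `π` a prime element in the Jacobson radical with `R / π` a PID,
`B` the integral closure of `R` in a `K`-algebra `E` (`K = Frac R`), finite over `R`.

* `S18PUR_exists_basis` (B3): `B` has an `R`-basis lifting a basis of `B / πB` over `R / π`.
* `S18PUR_isUnit_discr` (B4 + B6): if `B` is generically etale at `π` (bridge of P4) and no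
  prime element other than `π` divides the discriminant (X-B5), then the discriminant of `B`
  over `R` is a unit, and so is the discriminant of `B / πB` over `R / π`.
-/

set_option autoImplicit false
set_option linter.unusedSectionVars false
set_option linter.style.haveILetI false

noncomputable section

namespace Fermat.Agent.S18_helper24_PURITY

/-- The special fibre `B / πB`. -/
abbrev S18PUR_Fibre {R : Type*} [CommRing R] (B : Type*) [CommRing B] [Algebra R B] (π : R) :
    Type _ :=
  B ⧸ (Ideal.span {π}).map (algebraMap R B)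

open Module Polynomial Fermat.Agent.S18_helper24_DISC Fermat.Agent.S18_helper4_P2
  Fermat.Agent.S18_helper25_P3

variable {R : Type*} [CommRing R] [IsDomain R] [IsNoetherianRing R] [IsIntegrallyClosed R]
  (K : Type*) [Field K] [Algebra R K] [IsFractionRing R K]
  (E : Type*) [CommRing E] [Algebra R E] [Algebra K E] [IsScalarTower R K E]
  {B : Type*} [CommRing B] [Algebra R B] [Algebra B E] [IsScalarTower R B E]
  [IsIntegralClosure B R E] [Module.Finite R B]

include K E


omit [IsNoetherianRing R] [Module.Finite R B] in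
/-- `B` has no `π`-torsion. -/
theorem S18PUR_smul_eq_zero (π : R) (hπ0 : π ≠ 0) (x : B) (h : π • x = 0) : x = 0 := by
  apply IsIntegralClosure.algebraMap_injective B R E
  rw [map_zero]
  have h1 : algebraMap R E π * algebraMap B E x = 0 := by
    have := congrArg (algebraMap B E) h
    rwa [Algebra.smul_def, map_mul, ← IsScalarTower.algebraMap_apply, map_zero] at this
  have hK : algebraMap R K π ≠ 0 := by
    rwa [Ne, map_eq_zero_iff _ (IsFractionRing.injective R K)]
  have h2 : algebraMap K E (algebraMap R K π) * algebraMap B E x = 0 := by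
    rwa [← IsScalarTower.algebraMap_apply]
  calc algebraMap B E x
      = algebraMap K E ((algebraMap R K π)⁻¹) *
          (algebraMap K E (algebraMap R K π) * algebraMap B E x) := by
        rw [← mul_assoc, ← map_mul, inv_mul_cancel₀ hK, map_one, one_mul]
    _ = 0 := by rw [h2, mul_zero]

/-- **B3.** A basis of `B / πB` over `R / π` lifts to a basis of `B` over `R`. -/
theorem S18PUR_exists_basis (π : R) (hπ : Prime π) (hπJ : π ∈ Ideal.jacobson (⊥ : Ideal R))
    [IsPrincipalIdealRing (R ⧸ Ideal.span {π})] :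
    ∃ (n : ℕ) (b : Basis (Fin n) R B)
      (bb : Basis (Fin n) (R ⧸ Ideal.span {π}) (S18PUR_Fibre B π)),
      ∀ i, bb i = Ideal.Quotient.mk _ (b i) := by
  classical
  haveI : (Ideal.span {π}).IsPrime := (Ideal.span_singleton_prime hπ.ne_zero).mpr hπ
  haveI hfree := S18P3_free K E (B := B) π hπ
  haveI : Module.Finite R (S18PUR_Fibre B π) :=
    Module.Finite.of_surjective (Ideal.Quotient.mkₐ R _).toLinearMap
      (Ideal.Quotient.mkₐ_surjective R _)
  haveI : Module.Finite (R ⧸ Ideal.span {π}) (S18PUR_Fibre B π) :=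
    Module.Finite.of_restrictScalars_finite R _ _
  set n := Module.finrank (R ⧸ Ideal.span {π}) (S18PUR_Fibre B π) with hn
  let bb : Basis (Fin n) (R ⧸ Ideal.span {π}) (S18PUR_Fibre B π) :=
    Module.finBasis (R ⧸ Ideal.span {π}) (S18PUR_Fibre B π)
  have hsurj : Function.Surjective (Ideal.Quotient.mk ((Ideal.span {π}).map (algebraMap R B))) :=
    Ideal.Quotient.mk_surjective
  choose m hm using fun i => hsurj (bb i)
  have hmk_smul : ∀ (r : R) (x : B),
      (Ideal.Quotient.mk ((Ideal.span {π}).map (algebraMap R B))) (r • x) =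
        (Ideal.Quotient.mk (Ideal.span {π}) r) •
          (Ideal.Quotient.mk ((Ideal.span {π}).map (algebraMap R B))) x := by
    intro r x
    rw [Ideal.Quotient.mk_smul_mk_quotient_map_quotient, Algebra.smul_def]
  have hmk_sum : ∀ c : Fin n → R,
      (Ideal.Quotient.mk ((Ideal.span {π}).map (algebraMap R B))) (∑ i, c i • m i) =
        ∑ i, (Ideal.Quotient.mk (Ideal.span {π}) (c i)) • bb i := by
    intro c
    rw [map_sum]
    exact Finset.sum_congr rfl fun i _ => by rw [hmk_smul, hm]
  have hmem : ∀ x : B, (Ideal.Quotient.mk ((Ideal.span {π}).map (algebraMap R B))) x = 0 →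
      ∃ y : B, x = π • y := by
    intro x hx
    rw [Ideal.Quotient.eq_zero_iff_mem, Ideal.map_span, Set.image_singleton,
      Ideal.mem_span_singleton'] at hx
    obtain ⟨y, hy⟩ := hx
    exact ⟨y, by rw [Algebra.smul_def, ← hy, mul_comm]⟩
  have hreg : ∀ x : B, π • x = 0 → x = 0 := S18PUR_smul_eq_zero K E π hπ.ne_zero
  have hspan : ∀ x : B, ∃ (c : Fin n → R) (y : B), x = ∑ i, c i • m i + π • y := by
    intro x
    have hx := bb.sum_repr ((Ideal.Quotient.mk ((Ideal.span {π}).map (algebraMap R B))) x)
    choose c hc using fun i => Ideal.Quotient.mk_surjective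
      (bb.repr ((Ideal.Quotient.mk ((Ideal.span {π}).map (algebraMap R B))) x) i)
    have h0 : (Ideal.Quotient.mk ((Ideal.span {π}).map (algebraMap R B)))
        (x - ∑ i, c i • m i) = 0 := by
      rw [map_sub, hmk_sum, sub_eq_zero, ← hx]
      exact Finset.sum_congr rfl fun i _ => by rw [hc]
    obtain ⟨y, hy⟩ := hmem _ h0
    exact ⟨c, y, by rw [← hy]; ring⟩
  have hind : ∀ c : Fin n → R, (∃ y : B, ∑ i, c i • m i = π • y) → ∀ i, π ∣ c i := by
    rintro c ⟨y, hy⟩ i
    have h1 := hmk_sum c
    rw [hy, hmk_smul] at h1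
    have hπ0 : Ideal.Quotient.mk (Ideal.span {π}) π = 0 :=
      Ideal.Quotient.eq_zero_iff_mem.mpr (Ideal.mem_span_singleton_self π)
    rw [hπ0, zero_smul] at h1
    have h2 := (Fintype.linearIndependent_iff.mp bb.linearIndependent) _ h1.symm i
    rw [Ideal.Quotient.eq_zero_iff_mem, Ideal.mem_span_singleton] at h2
    exact h2
  refine ⟨n, S18P2_basis π hπJ hreg m hspan hind, bb, fun i => ?_⟩
  rw [S18P2_basis_apply, hm]

omit K E [IsNoetherianRing R] [IsIntegrallyClosed R] [Module.Finite R B] in
/-- **B4 + B6.** Generic separability at `π` plus the horizontal statement give a unit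
discriminant, upstairs and on the special fibre. -/
theorem S18PUR_isUnit_discr [UniqueFactorizationMonoid R] (π : R)
    {n : ℕ} (b : Basis (Fin n) R B)
    (bb : Basis (Fin n) (R ⧸ Ideal.span {π}) (S18PUR_Fibre B π))
    (hbb : ∀ i, bb i = Ideal.Quotient.mk _ (b i))
    {κ : Type*} [Field κ] (f : R →+* κ) (hfπ : f π = 0)
    (V : B) (P : R[X]) (hP : P.Monic) (hdeg : P.natDegree = n) (hV : aeval V P = 0)
    (hli : LinearIndependent R (fun i : Fin P.natDegree => V ^ (i : ℕ)))
    (hsep : (P.map f).Separable)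
    (hhor : ∀ g : R, Prime g → ¬ Associated g π → ¬ g ∣ Algebra.discr R b) :
    IsUnit (Algebra.discr R b) ∧ IsUnit (Algebra.discr (R ⧸ Ideal.span {π}) bb) := by
  classical
  have hcard : P.natDegree = Fintype.card (Fin n) := by rw [Fintype.card_fin, hdeg]
  have hfd : f (Algebra.discr R b) ≠ 0 :=
    S18P4_map_discr_ne_zero_of_separable b f V P hP hcard hV hli hsep
  have hd0 : Algebra.discr R b ≠ 0 := fun h => hfd (by rw [h, map_zero])
  have hπd : ¬ π ∣ Algebra.discr R b :=
    S18P4_not_dvd_discr_of_separable b f V P hP hcard hV hli hsep hfπ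
  have hunit : IsUnit (Algebra.discr R b) := by
    refine S18P4_isUnit_of_forall_prime_not_dvd hd0 fun g hg hgd => ?_
    by_cases hass : Associated g π
    · exact hπd (hass.symm.dvd.trans hgd)
    · exact hhor g hg hass hgd
  refine ⟨hunit, ?_⟩
  have hmap := S18P4_discr_map (Ideal.Quotient.mk (Ideal.span {π}))
    (Ideal.Quotient.mk ((Ideal.span {π}).map (algebraMap R B)))
    (fun r x => by
      rw [Ideal.Quotient.mk_smul_mk_quotient_map_quotient, Algebra.smul_def]) b bb
    (fun i => (hbb i).symm)
  rw [hmap]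
  exact hunit.map _

/-- **B3 + B4 + B6, assembled.** -/
theorem S18PUR_purity [UniqueFactorizationMonoid R] (π : R) (hπ : Prime π)
    (hπJ : π ∈ Ideal.jacobson (⊥ : Ideal R)) [IsPrincipalIdealRing (R ⧸ Ideal.span {π})]
    {κ : Type*} [Field κ] (f : R →+* κ) (hfπ : f π = 0)
    (V : B) (P : R[X]) (hP : P.Monic) (hdeg : P.natDegree = Module.finrank R B)
    (hV : aeval V P = 0)
    (hli : LinearIndependent R (fun i : Fin P.natDegree => V ^ (i : ℕ)))
    (hsep : (P.map f).Separable)
    (hhor : ∀ (m : ℕ) (b' : Basis (Fin m) R B) (g : R), Prime g → ¬ Associated g π →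
      ¬ g ∣ Algebra.discr R b') :
    ∃ (n : ℕ) (b : Basis (Fin n) R B)
      (bb : Basis (Fin n) (R ⧸ Ideal.span {π}) (S18PUR_Fibre B π)),
      (∀ i, bb i = Ideal.Quotient.mk _ (b i)) ∧ IsUnit (Algebra.discr R b) ∧
        IsUnit (Algebra.discr (R ⧸ Ideal.span {π}) bb) := by
  obtain ⟨n, b, bb, hbb⟩ := S18PUR_exists_basis K E (B := B) π hπ hπJ
  have hn : Module.finrank R B = n := by
    rw [Module.finrank_eq_card_basis b, Fintype.card_fin]
  exact ⟨n, b, bb, hbb,
    S18PUR_isUnit_discr π b bb hbb f hfπ V P hP (hdeg.trans hn) hV hli hsep (hhor n b)⟩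

end Fermat.Agent.S18_helper24_PURITY
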