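import Mathlib

/-!
# S18, abstract piece P8: local Nakayama descent

`A` a commutative ring, `B` an `A`-algebra which is a finite `A`-module.

* `S18P8_surjective_of_forall_maximal`: if `A + m B = B` for every maximal ideal `m` of `A`
  then `A → B` is surjective (global Nakayama, conductor argument).
* `S18P8_map_eq_of_separating`: in a Dedekind domain `B`, if `Q` is the only maximal ideal over
  `m` and `m` contains an element outside `Q ^ 2` then `m B = Q`.
* `S18P8_subalgebra_eq_top`: the descent statement used for the norm trick.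
-/

namespace Fermat.Agent.S18_helper27_NAKDESC

open Ideal

/-- Global Nakayama: a finite ring extension `A → B` with `A + m B = B` for every maximal
ideal `m` of `A` is surjective. -/
theorem S18P8_surjective_of_forall_maximal {A B : Type*} [CommRing A] [CommRing B] [Algebra A B]
    [Module.Finite A B]
    (h : ∀ m : Ideal A, m.IsMaximal → ∀ x : B,
      ∃ a : A, x - algebraMap A B a ∈ m.map (algebraMap A B)) :
    Function.Surjective (algebraMap A B) := by
  classical
  -- the conductor
  let N₀ : Submodule A B := LinearMap.range (Algebra.linearMap A B)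
  let J : Ideal A :=
    { carrier := {r | ∀ x : B, r • x ∈ N₀}
      add_mem' := fun {r s} hr hs x => by
        rw [add_smul]; exact N₀.add_mem (hr x) (hs x)
      zero_mem' := fun x => by rw [zero_smul]; exact N₀.zero_mem
      smul_mem' := fun c r hr x => by
        rw [smul_eq_mul, mul_smul]; exact N₀.smul_mem c (hr x) }
  have hJ : J = ⊤ := by
    by_contra hne
    obtain ⟨m, hm, hJm⟩ := Ideal.exists_le_maximal J hne
    -- Nakayama in the quotient module
    have hfg : (⊤ : Submodule A (B ⧸ N₀)).FG := Module.finite_def.mp inferInstance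
    have hle : (⊤ : Submodule A (B ⧸ N₀)) ≤ m • (⊤ : Submodule A (B ⧸ N₀)) := by
      rintro y -
      obtain ⟨x, rfl⟩ := N₀.mkQ_surjective y
      obtain ⟨a, ha⟩ := h m hm x
      have hx : N₀.mkQ x = N₀.mkQ (x - algebraMap A B a) := by
        rw [map_sub, sub_eq_self.mpr]
        rw [Submodule.mkQ_apply, Submodule.Quotient.mk_eq_zero]
        exact ⟨a, rfl⟩
      rw [hx]
      have hmem : ∀ z ∈ m.map (algebraMap A B),
          N₀.mkQ z ∈ m • (⊤ : Submodule A (B ⧸ N₀)) := by
        intro z hz
        have hz' : z ∈ m • (⊤ : Submodule A B) := by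
          rw [Ideal.smul_top_eq_map]; exact hz
        have h2 : N₀.mkQ z ∈ (m • (⊤ : Submodule A B)).map N₀.mkQ :=
          Submodule.mem_map_of_mem hz'
        rw [Submodule.map_smul''] at h2
        exact Submodule.smul_mono le_rfl le_top h2
      exact hmem _ ha
    obtain ⟨r, hr1, hr⟩ :=
      Submodule.exists_sub_one_mem_and_smul_eq_zero_of_fg_of_le_smul m _ hfg hle
    have hrJ : r ∈ J := by
      intro x
      have := hr (N₀.mkQ x) Submodule.mem_top
      rwa [← map_smul, Submodule.mkQ_apply, Submodule.Quotient.mk_eq_zero] at this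
    have h1 : (1 : A) ∈ m := by
      have := m.sub_mem (hJm hrJ) hr1
      simpa using this
    exact hm.ne_top ((Ideal.eq_top_iff_one m).mpr h1)
  intro x
  have h1 : (1 : A) ∈ J := by rw [hJ]; trivial
  obtain ⟨a, ha⟩ := h1 x
  exact ⟨a, by simpa using ha⟩

/-- In a Dedekind domain: an ideal `I ≤ Q` (`Q` maximal) such that `Q` is the only maximal
ideal containing `I` and which contains an element outside `Q ^ 2` is equal to `Q`. -/
theorem S18P8_eq_of_le_of_unique {B : Type*} [CommRing B] [IsDedekindDomain B]
    (I Q : Ideal B) (hIQ : I ≤ Q)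
    (huniq : ∀ P : Ideal B, P.IsMaximal → I ≤ P → P = Q)
    (y : B) (hyI : y ∈ I) (hyQ2 : y ∉ Q ^ 2) : I = Q := by
  obtain ⟨J, hJ⟩ := Ideal.dvd_iff_le.mpr hIQ
  have hJtop : J = ⊤ := by
    by_contra hne
    obtain ⟨P, hP, hJP⟩ := Ideal.exists_le_maximal J hne
    have hIP : I ≤ P := by rw [hJ]; exact Ideal.mul_le_right.trans hJP
    have hPQ := huniq P hP hIP
    subst hPQ
    apply hyQ2
    have hle : I ≤ P ^ 2 := by rw [hJ, sq]; exact Ideal.mul_mono_right hJP
    exact hle hyI
  rw [hJ, hJtop, Ideal.mul_top]

/-- **P8, local Nakayama descent (ring-hom form).** `B` a Dedekind domain, finite over `R`;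
`A` an `R`-algebra mapping to `B` such that

* every residue field of `B` at a maximal ideal is already reached by `A`;
* for every maximal ideal `Q` of `B` there is `y ∈ A` whose image is a uniformiser at `Q`
  (in `Q`, not in `Q ^ 2`) and lies outside every other maximal ideal of `B` over the same
  prime of `R`.

Then `A → B` is surjective. -/
theorem S18P8_surjective_of_separating {R A B : Type*} [CommRing R] [CommRing A] [CommRing B]
    [IsDedekindDomain B] [Algebra R A] [Algebra A B] [Algebra R B] [IsScalarTower R A B]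
    [Module.Finite R B]
    (hres : ∀ Q : Ideal B, Q.IsMaximal → ∀ x : B, ∃ a : A, x - algebraMap A B a ∈ Q)
    (hsep : ∀ Q : Ideal B, Q.IsMaximal → ∃ y : A, algebraMap A B y ∈ Q ∧
      algebraMap A B y ∉ Q ^ 2 ∧
      ∀ Q' : Ideal B, Q'.IsMaximal → Q' ≠ Q →
        Q'.comap (algebraMap R B) = Q.comap (algebraMap R B) → algebraMap A B y ∉ Q') :
    Function.Surjective (algebraMap A B) := by
  have : Module.Finite A B := Module.Finite.of_restrictScalars_finite R A B
  apply S18P8_surjective_of_forall_maximal
  intro m hm x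
  by_cases hker : RingHom.ker (algebraMap A B) ≤ m
  · obtain ⟨Q, hQmax, hQm⟩ := Ideal.exists_ideal_over_maximal_of_isIntegral (S := B) m hker
    obtain ⟨y, hyQ, hyQ2, hyoth⟩ := hsep Q hQmax
    have hym : y ∈ m := by
      rw [← hQm, Ideal.mem_comap]; exact hyQ
    have hmapQ : m.map (algebraMap A B) ≤ Q := by
      rw [Ideal.map_le_iff_le_comap, hQm]
    have hcomapR : ∀ P : Ideal B, P.comap (algebraMap A B) = m →
        P.comap (algebraMap R B) = Q.comap (algebraMap R B) := by
      intro P hP
      rw [IsScalarTower.algebraMap_eq R A B, ← Ideal.comap_comap, ← Ideal.comap_comap, hP, hQm]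
    have hI : m.map (algebraMap A B) = Q := by
      refine S18P8_eq_of_le_of_unique _ Q hmapQ ?_ _ (Ideal.mem_map_of_mem _ hym) hyQ2
      intro P hP hIP
      have hPm : P.comap (algebraMap A B) = m := by
        have hle : m ≤ P.comap (algebraMap A B) := Ideal.map_le_iff_le_comap.mp hIP
        have hne : P.comap (algebraMap A B) ≠ ⊤ := Ideal.comap_ne_top _ hP.ne_top
        exact (hm.eq_of_le hne hle).symm
      by_contra hPQ
      refine hyoth P hP hPQ (hcomapR P hPm) ?_
      have : y ∈ P.comap (algebraMap A B) := by rw [hPm]; exact hym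
      exact this
    obtain ⟨a, hxa⟩ := hres Q hQmax x
    exact ⟨a, by rw [hI]; exact hxa⟩
  · -- `m + ker = ⊤`, hence `m B = B`
    have htop : m.map (algebraMap A B) = ⊤ := by
      obtain ⟨k, hk, hkm⟩ := SetLike.not_le_iff_exists.mp hker
      obtain ⟨c, u, hu, huv⟩ := hm.exists_inv hkm
      rw [Ideal.eq_top_iff_one]
      have h1 : algebraMap A B u = 1 := by
        have := congrArg (algebraMap A B) huv
        rw [map_add, map_mul, (RingHom.mem_ker).mp hk, mul_zero, zero_add, map_one] at this
        exact this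
      rw [← h1]
      exact Ideal.mem_map_of_mem _ hu
    exact ⟨0, by rw [htop]; trivial⟩

/-- **P8, local Nakayama descent (subalgebra form).** `B` a Dedekind domain, finite over `R`;
`A` an `R`-subalgebra of `B` such that

* every residue field of `B` at a maximal ideal is already reached by `A`;
* for every maximal ideal `Q` of `B` there is `y ∈ A` which is a uniformiser at `Q`
  (`y ∈ Q`, `y ∉ Q ^ 2`) and lies outside every other maximal ideal of `B` over the same
  prime of `R`.

Then `A = B`. -/
theorem S18P8_subalgebra_eq_top {R B : Type*} [CommRing R] [CommRing B] [IsDedekindDomain B]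
    [Algebra R B] [Module.Finite R B] (A : Subalgebra R B)
    (hres : ∀ Q : Ideal B, Q.IsMaximal → ∀ x : B, ∃ a ∈ A, x - a ∈ Q)
    (hsep : ∀ Q : Ideal B, Q.IsMaximal → ∃ y ∈ A, y ∈ Q ∧ y ∉ Q ^ 2 ∧
      ∀ Q' : Ideal B, Q'.IsMaximal → Q' ≠ Q →
        Q'.comap (algebraMap R B) = Q.comap (algebraMap R B) → y ∉ Q') :
    A = ⊤ := by
  have hsurj : Function.Surjective (algebraMap A B) := by
    apply S18P8_surjective_of_separating (R := R)
    · intro Q hQ x
      obtain ⟨a, haA, hxa⟩ := hres Q hQ x
      exact ⟨⟨a, haA⟩, hxa⟩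
    · intro Q hQ
      obtain ⟨y, hyA, h1, h2, h3⟩ := hsep Q hQ
      exact ⟨⟨y, hyA⟩, h1, h2, h3⟩
  rw [eq_top_iff]
  rintro x -
  obtain ⟨a, rfl⟩ := hsurj x
  exact a.2

end Fermat.Agent.S18_helper27_NAKDESC
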