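import Fermat.Agent.S18_helper28_CECH

/-!
# S18, piece X-C5 (algebra), helper28: the `H¹` torsion bound in the shape consumed by
`Fermat.Agent.S18_helper9_CECH.cech_two_chart`

Ambient ring `B` (think `A'_mid`), `ι : O →+* B`, charts `A₀ A₁ : Subring B`.
If `A₀` is generated over `O[j]` by a finite set `Y`, `B = A₀[1/j]` and `j⁻ⁿ y ∈ A₁` for `n`
large, then `B/(A₀ + A₁)` is a finitely generated `O`-module and, `O` being noetherian, its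
`π`-power torsion is killed by a fixed power `π ^ c`.
-/

set_option autoImplicit false

namespace Fermat.Agent.S18_helper28_C5

open Fermat.Agent.S18_helper28_CECH

variable {B O : Type*} [CommRing B] [CommRing O]

/-- `H¹` torsion bound, general form: for every `n`. -/
theorem S18C5_torsion_bound_all [IsNoetherianRing O] (ι : O →+* B) (π : O)
    (A₀ A₁ : Subring B) (hι₀ : ∀ x : O, ι x ∈ A₀) (hι₁ : ∀ x : O, ι x ∈ A₁)
    (j τ : B) (hjτ : j * τ = 1) (hj : j ∈ A₀) (hτ : τ ∈ A₁)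
    (Y : Finset B) (hY : ∀ y ∈ Y, y ∈ A₀)
    (hgen : ∀ x ∈ A₀, ∃ p : B → Polynomial O, x = ∑ y ∈ Y, Polynomial.eval₂ ι j (p y) * y)
    (hmid : ∀ x : B, ∃ n : ℕ, j ^ n * x ∈ A₀)
    (hinf : ∀ y ∈ Y, ∃ n : ℕ, τ ^ n * y ∈ A₁) :
    ∃ c : ℕ, ∀ x : B, ∀ n : ℕ, (∃ u ∈ A₀, ∃ v ∈ A₁, ι π ^ n * x = u + v) →
      ∃ u ∈ A₀, ∃ v ∈ A₁, ι π ^ c * x = u + v := by
  classical
  set O' : Subring B := ι.range with hO'
  have hNoeth : IsNoetherianRing O' := isNoetherianRing_range ι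
  have hO0 : O' ≤ A₀ := by
    rintro _ ⟨x, rfl⟩; exact hι₀ x
  have hO1 : O' ≤ A₁ := by
    rintro _ ⟨x, rfl⟩; exact hι₁ x
  have hgen0 : ∀ x ∈ A₀, ∃ p : B → Polynomial O',
      x = ∑ y ∈ Y, (Polynomial.aeval j (p y)) * y := by
    intro x hx
    obtain ⟨p, hp⟩ := hgen x hx
    refine ⟨fun y => (p y).map ι.rangeRestrict, ?_⟩
    rw [hp]
    refine Finset.sum_congr rfl fun y _ => ?_
    congr 1
    rw [Polynomial.aeval_def, Polynomial.eval₂_map]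
    rfl
  obtain ⟨G, hG⟩ := mid_gen O' A₀ A₁ ⊤ hO0 hO1 j τ hjτ hj hτ Y hY hgen0
    (fun x _ => hmid x) hinf
  obtain ⟨c, hc⟩ := torsion_bound O' A₀ A₁ ⊤ (ι π) ⟨π, rfl⟩ hO0 hO1 G hG
  refine ⟨c, fun x n hx => ?_⟩
  obtain ⟨u, hu, v, hv, huv⟩ := hx
  obtain ⟨a, ha, b, hb, hab⟩ := hc x (Subring.mem_top x) n
    ⟨u, hu, -v, A₁.neg_mem hv, by rw [huv]; ring⟩
  exact ⟨a, ha, -b, A₁.neg_mem hb, by rw [hab]; ring⟩

/-- `H¹` torsion bound in exactly the shape of the hypothesis `hH1` of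
`S18_helper9_CECH.cech_two_chart`. -/
theorem S18C5_torsion_bound [IsNoetherianRing O] (ι : O →+* B) (π : O)
    (A₀ A₁ : Subring B) (hι₀ : ∀ x : O, ι x ∈ A₀) (hι₁ : ∀ x : O, ι x ∈ A₁)
    (j τ : B) (hjτ : j * τ = 1) (hj : j ∈ A₀) (hτ : τ ∈ A₁)
    (Y : Finset B) (hY : ∀ y ∈ Y, y ∈ A₀)
    (hgen : ∀ x ∈ A₀, ∃ p : B → Polynomial O, x = ∑ y ∈ Y, Polynomial.eval₂ ι j (p y) * y)
    (hmid : ∀ x : B, ∃ n : ℕ, j ^ n * x ∈ A₀)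
    (hinf : ∀ y ∈ Y, ∃ n : ℕ, τ ^ n * y ∈ A₁) :
    ∃ c : ℕ, ∀ x : B, (∃ u ∈ A₀, ∃ v ∈ A₁, ι π ^ (c + 1) * x = u + v) →
      ∃ u ∈ A₀, ∃ v ∈ A₁, ι π ^ c * x = u + v := by
  obtain ⟨c, hc⟩ := S18C5_torsion_bound_all ι π A₀ A₁ hι₀ hι₁ j τ hjτ hj hτ Y hY hgen hmid hinf
  exact ⟨c, fun x hx => hc x (c + 1) hx⟩

end Fermat.Agent.S18_helper28_C5
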