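import Mathlib
import Fermat.Prelude.Def_AlgebraicCurve_DivisorClassGroup

/-!
# S18, bridging piece X-C2-PLACE (helper28)

A prime element `g` of a domain `R` with fraction field `F` such that the constants `K` lie in
the localisation `R_(g)` defines a place `P : Place K F` (the DVR `R_(g)`), and
`P.ord x = multiplicity g x` for `x ∈ R`.

This links the hypothesis `∀ P : Place K F, p ∣ P.ord f` with divisibility of the
`g`-adic multiplicities in the local UFD.
-/

set_option autoImplicit false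

namespace Fermat.Agent.S18_helper28_PRIMEPLACE

open AlgebraicCurve

variable {K F R : Type*} [Field K] [Field F] [Algebra K F]
  [CommRing R] [IsDomain R] [Algebra R F] [IsFractionRing R F]

/-- The localisation `R_(g)` inside `F`, as a subring. -/
def S18C2P_locSubring (g : R) (hg : Prime g) : Subring F where
  carrier := {x | ∃ a b : R, ¬ g ∣ b ∧ x * algebraMap R F b = algebraMap R F a}
  mul_mem' := by
    rintro x y ⟨a, b, hb, hx⟩ ⟨c, d, hd, hy⟩
    refine ⟨a * c, b * d, fun h => (hg.dvd_or_dvd h).elim hb hd, ?_⟩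
    rw [map_mul, map_mul, ← hx, ← hy]; ring
  one_mem' := ⟨1, 1, fun h => hg.not_isUnit (isUnit_of_dvd_one h), by simp⟩
  add_mem' := by
    rintro x y ⟨a, b, hb, hx⟩ ⟨c, d, hd, hy⟩
    refine ⟨a * d + c * b, b * d, fun h => (hg.dvd_or_dvd h).elim hb hd, ?_⟩
    rw [map_add, map_mul, map_mul, map_mul, ← hx, ← hy]; ring
  zero_mem' := ⟨0, 1, fun h => hg.not_isUnit (isUnit_of_dvd_one h), by simp⟩
  neg_mem' := by
    rintro x ⟨a, b, hb, hx⟩
    exact ⟨-a, b, hb, by rw [map_neg, ← hx]; ring⟩

theorem S18C2P_mem_locSubring (g : R) (hg : Prime g) (x : F) :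
    x ∈ S18C2P_locSubring (F := F) g hg ↔
      ∃ a b : R, ¬ g ∣ b ∧ x * algebraMap R F b = algebraMap R F a := Iff.rfl

theorem S18C2P_algebraMap_mem (g : R) (hg : Prime g) (a : R) :
    algebraMap R F a ∈ S18C2P_locSubring (F := F) g hg :=
  ⟨a, 1, fun h => hg.not_isUnit (isUnit_of_dvd_one h), by simp⟩

variable [WfDvdMonoid R]

/-- Every nonzero element of `F` is `g ^ n * (a / b)` or its inverse is, with `g ∤ a, b`. -/
theorem S18C2P_exists_zpow (g : R) (hg : Prime g) (x : F) (hx : x ≠ 0) :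
    ∃ (n : ℤ) (a b : R), ¬ g ∣ a ∧ ¬ g ∣ b ∧
      x * algebraMap R F b = algebraMap R F g ^ n * algebraMap R F a := by
  have hinj : Function.Injective (algebraMap R F) := IsFractionRing.injective R F
  obtain ⟨a, b, hb, rfl⟩ := IsFractionRing.div_surjective (A := R) x
  have hb0 : b ≠ 0 := nonZeroDivisors.ne_zero hb
  have ha0 : a ≠ 0 := by
    rintro rfl
    simp at hx
  obtain ⟨m, a', ha', rfl⟩ := WfDvdMonoid.max_power_factor ha0 hg.irreducible
  obtain ⟨n, b', hb', rfl⟩ := WfDvdMonoid.max_power_factor hb0 hg.irreducible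
  have hgF : algebraMap R F g ≠ 0 := by
    intro h
    exact hg.ne_zero (hinj (by rw [h, map_zero]))
  have hb'F : algebraMap R F b' ≠ 0 := by
    intro h
    apply hb'
    have : b' = 0 := hinj (by rw [h, map_zero])
    rw [this]; exact dvd_zero g
  refine ⟨(m : ℤ) - n, a', b', ha', hb', ?_⟩
  rw [zpow_sub₀ hgF, zpow_natCast, zpow_natCast, map_mul, map_mul, map_pow, map_pow]
  field_simp

theorem S18C2P_mem_or_inv_mem (g : R) (hg : Prime g) (x : F) :
    x ∈ S18C2P_locSubring (F := F) g hg ∨ x⁻¹ ∈ S18C2P_locSubring (F := F) g hg := by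
  rcases eq_or_ne x 0 with rfl | hx
  · left; exact Subring.zero_mem _
  obtain ⟨n, a, b, ha, hb, h⟩ := S18C2P_exists_zpow (F := F) g hg x hx
  have hinj : Function.Injective (algebraMap R F) := IsFractionRing.injective R F
  have hgF : algebraMap R F g ≠ 0 := by
    intro h
    exact hg.ne_zero (hinj (by rw [h, map_zero]))
  have haF : algebraMap R F a ≠ 0 := by
    intro h
    apply ha
    have : a = 0 := hinj (by rw [h, map_zero])
    rw [this]; exact dvd_zero g
  have hbF : algebraMap R F b ≠ 0 := by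
    intro h
    apply hb
    have : b = 0 := hinj (by rw [h, map_zero])
    rw [this]; exact dvd_zero g
  rcases le_or_gt 0 n with hn | hn
  · left
    obtain ⟨k, rfl⟩ := Int.eq_ofNat_of_zero_le hn
    refine ⟨g ^ k * a, b, hb, ?_⟩
    rw [h, zpow_natCast, map_mul, map_pow]
  · right
    obtain ⟨k, hk⟩ := Int.eq_ofNat_of_zero_le (by omega : 0 ≤ -n)
    refine ⟨g ^ k * b, a, ha, ?_⟩
    have hn' : n = -(k : ℤ) := by omega
    rw [hn', zpow_neg, zpow_natCast] at h
    rw [map_mul, map_pow]
    have hgk : algebraMap R F g ^ k ≠ 0 := pow_ne_zero _ hgF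
    field_simp
    field_simp at h
    linear_combination -h

/-- The localisation `R_(g)` inside `F`, as a valuation subring. -/
def S18C2P_locVS (g : R) (hg : Prime g) : ValuationSubring F :=
  { S18C2P_locSubring (F := F) g hg with
    mem_or_inv_mem' := S18C2P_mem_or_inv_mem g hg }

theorem S18C2P_mem_locVS (g : R) (hg : Prime g) (x : F) :
    x ∈ S18C2P_locVS (F := F) g hg ↔
      ∃ a b : R, ¬ g ∣ b ∧ x * algebraMap R F b = algebraMap R F a := Iff.rfl


/-- `g` as an element of `R_(g)`. -/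
def S18C2P_unif (g : R) (hg : Prime g) : S18C2P_locVS (F := F) g hg :=
  ⟨algebraMap R F g, S18C2P_algebraMap_mem g hg g⟩

theorem S18C2P_algebraMap_ne_zero {a : R} (g : R) (ha : ¬ g ∣ a) : algebraMap R F a ≠ 0 := by
  intro h
  apply ha
  have : a = 0 := IsFractionRing.injective R F (by rw [h, map_zero])
  rw [this]; exact dvd_zero g

/-- A fraction `a / b` with `g ∤ a, b` is a unit of `R_(g)`. -/
theorem S18C2P_isUnit_of (g : R) (hg : Prime g) (x : S18C2P_locVS (F := F) g hg) (a b : R)
    (ha : ¬ g ∣ a) (hb : ¬ g ∣ b) (hx : (x : F) * algebraMap R F b = algebraMap R F a) :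
    IsUnit x := by
  have haF : algebraMap R F a ≠ 0 := S18C2P_algebraMap_ne_zero g ha
  have hbF : algebraMap R F b ≠ 0 := S18C2P_algebraMap_ne_zero g hb
  have hx0 : (x : F) ≠ 0 := by
    intro h
    rw [h, zero_mul] at hx
    exact haF hx.symm
  have hinv : (x : F)⁻¹ ∈ S18C2P_locVS (F := F) g hg := by
    refine ⟨b, a, ha, ?_⟩
    rw [← hx]
    field_simp
  refine IsUnit.of_mul_eq_one (⟨(x : F)⁻¹, hinv⟩ : S18C2P_locVS (F := F) g hg) ?_
  apply Subtype.ext
  show (x : F) * (x : F)⁻¹ = 1
  exact mul_inv_cancel₀ hx0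

theorem S18C2P_unif_not_isUnit (g : R) (hg : Prime g) :
    ¬ IsUnit (S18C2P_unif (F := F) g hg) := by
  intro h
  obtain ⟨y, hy⟩ := h.exists_right_inv
  obtain ⟨c, d, hd, hcd⟩ := y.2
  have h1 : algebraMap R F g * (y : F) = 1 := congrArg Subtype.val hy
  have h2 : algebraMap R F (g * c) = algebraMap R F d := by
    rw [map_mul, ← hcd, ← mul_assoc, h1, one_mul]
  exact hd ⟨c, (IsFractionRing.injective R F h2).symm⟩

theorem S18C2P_unif_ne_zero (g : R) (hg : Prime g) : S18C2P_unif (F := F) g hg ≠ 0 := by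
  intro h
  have h1 : algebraMap R F g = 0 := congrArg Subtype.val h
  exact hg.ne_zero (IsFractionRing.injective R F (by rw [h1, map_zero]))

/-- Every nonzero element of `R_(g)` is a unit times a power of `g`. -/
theorem S18C2P_factor (g : R) (hg : Prime g) (x : S18C2P_locVS (F := F) g hg) (hx : x ≠ 0) :
    ∃ (n : ℕ) (u : (S18C2P_locVS (F := F) g hg)ˣ), x = u * S18C2P_unif (F := F) g hg ^ n := by
  have hx0 : (x : F) ≠ 0 := fun h => hx (Subtype.ext h)
  obtain ⟨n, a, b, ha, hb, h⟩ := S18C2P_exists_zpow (F := F) g hg x hx0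
  obtain ⟨c, d, hd, hcd⟩ := x.2
  have hgF : algebraMap R F g ≠ 0 := fun h =>
    hg.ne_zero (IsFractionRing.injective R F (by rw [h, map_zero]))
  have haF : algebraMap R F a ≠ 0 := S18C2P_algebraMap_ne_zero g ha
  have hbF : algebraMap R F b ≠ 0 := S18C2P_algebraMap_ne_zero g hb
  have hdF : algebraMap R F d ≠ 0 := S18C2P_algebraMap_ne_zero g hd
  have hn : 0 ≤ n := by
    by_contra hneg
    obtain ⟨k, hk⟩ := Int.eq_ofNat_of_zero_le (by omega : 0 ≤ -n - 1)
    have hn' : n = -((k : ℤ) + 1) := by omega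
    rw [hn', zpow_neg] at h
    have h3 : algebraMap R F (a * d) = algebraMap R F (g ^ (k + 1) * c * b) := by
      rw [map_mul, map_mul, map_mul, map_pow, ← hcd]
      have hgk : algebraMap R F g ^ ((k : ℤ) + 1) = algebraMap R F g ^ (k + 1) := by
        rw [← zpow_natCast]; push_cast; rfl
      rw [hgk] at h
      have hgk0 : algebraMap R F g ^ (k + 1) ≠ 0 := pow_ne_zero _ hgF
      field_simp at h
      linear_combination (-(algebraMap R F d)) * h
    have h4 : a * d = g ^ (k + 1) * c * b := IsFractionRing.injective R F h3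
    have h5 : g ∣ a * d := ⟨g ^ k * c * b, by rw [h4]; ring⟩
    exact (hg.dvd_or_dvd h5).elim ha hd
  obtain ⟨k, rfl⟩ := Int.eq_ofNat_of_zero_le hn
  rw [zpow_natCast] at h
  -- the unit
  have hu_mem : algebraMap R F a / algebraMap R F b ∈ S18C2P_locVS (F := F) g hg :=
    ⟨a, b, hb, by field_simp⟩
  have hu : IsUnit (⟨_, hu_mem⟩ : S18C2P_locVS (F := F) g hg) :=
    S18C2P_isUnit_of g hg _ a b ha hb (by field_simp)
  refine ⟨k, hu.unit, Subtype.ext ?_⟩
  show (x : F) = (algebraMap R F a / algebraMap R F b) * (algebraMap R F g) ^ k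
  field_simp
  linear_combination h

theorem S18C2P_irreducible_unif (g : R) (hg : Prime g) :
    Irreducible (S18C2P_unif (F := F) g hg) := by
  refine ⟨S18C2P_unif_not_isUnit g hg, fun x y hxy => ?_⟩
  have hp0 := S18C2P_unif_ne_zero (F := F) g hg
  have hx0 : x ≠ 0 := by rintro rfl; rw [zero_mul] at hxy; exact hp0 hxy
  have hy0 : y ≠ 0 := by rintro rfl; rw [mul_zero] at hxy; exact hp0 hxy
  obtain ⟨n, u, rfl⟩ := S18C2P_factor g hg x hx0
  obtain ⟨m, v, rfl⟩ := S18C2P_factor g hg y hy0
  rcases Nat.eq_zero_or_pos n with hn | hn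
  · left; subst hn; simp
  rcases Nat.eq_zero_or_pos m with hm | hm
  · right; subst hm; simp
  exfalso
  obtain ⟨k, hk⟩ : ∃ k, n + m = k + 2 := ⟨n + m - 2, by omega⟩
  have h1 : S18C2P_unif (F := F) g hg * 1 =
      S18C2P_unif (F := F) g hg * (S18C2P_unif (F := F) g hg ^ (k + 1) *
        ((u : S18C2P_locVS (F := F) g hg) * (v : S18C2P_locVS (F := F) g hg))) := by
    rw [mul_one]
    calc S18C2P_unif (F := F) g hg
        = (u : S18C2P_locVS (F := F) g hg) * S18C2P_unif (F := F) g hg ^ n *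
          ((v : S18C2P_locVS (F := F) g hg) * S18C2P_unif (F := F) g hg ^ m) := hxy
      _ = S18C2P_unif (F := F) g hg ^ (n + m) *
          ((u : S18C2P_locVS (F := F) g hg) * (v : S18C2P_locVS (F := F) g hg)) := by
        rw [pow_add]; ring
      _ = _ := by rw [hk]; ring
  have h2 := mul_left_cancel₀ hp0 h1
  have h3 : IsUnit (S18C2P_unif (F := F) g hg ^ (k + 1)) :=
    IsUnit.of_mul_eq_one _ h2.symm
  exact S18C2P_unif_not_isUnit g hg ((isUnit_pow_iff (Nat.succ_ne_zero k)).1 h3)

theorem S18C2P_isDVR (g : R) (hg : Prime g) :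
    IsDiscreteValuationRing (S18C2P_locVS (F := F) g hg) := by
  apply IsDiscreteValuationRing.ofHasUnitMulPowIrreducibleFactorization
  refine ⟨S18C2P_unif g hg, S18C2P_irreducible_unif g hg, fun {x} hx => ?_⟩
  obtain ⟨n, u, rfl⟩ := S18C2P_factor g hg x hx
  exact ⟨n, u, by ring⟩

/-- The place of `F/K` attached to a prime element `g` of `R` such that `K ⊆ R_(g)`. -/
def S18C2P_place (g : R) (hg : Prime g)
    (hK : ∀ c : K, ∃ a b : R, ¬ g ∣ b ∧
      algebraMap K F c * algebraMap R F b = algebraMap R F a) : Place K F where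
  toValuationSubring := S18C2P_locVS g hg
  algebraMap_mem' := hK
  ne_top' := by
    intro h
    have hdvr := S18C2P_isDVR (F := F) g hg
    have hgF : algebraMap R F g ≠ 0 := fun h =>
      hg.ne_zero (IsFractionRing.injective R F (by rw [h, map_zero]))
    have hmem : (algebraMap R F g)⁻¹ ∈ S18C2P_locVS (F := F) g hg := by
      rw [h]; exact ValuationSubring.mem_top _
    apply S18C2P_unif_not_isUnit (F := F) g hg
    refine IsUnit.of_mul_eq_one (⟨_, hmem⟩ : S18C2P_locVS (F := F) g hg) (Subtype.ext ?_)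
    show algebraMap R F g * (algebraMap R F g)⁻¹ = 1
    exact mul_inv_cancel₀ hgF
  isPrincipalIdealRing' := by
    have hdvr := S18C2P_isDVR (F := F) g hg
    infer_instance

/-- `ord` at the place of `g` is the `g`-adic multiplicity. -/
theorem S18C2P_ord_eq_multiplicity (g : R) (hg : Prime g)
    (hK : ∀ c : K, ∃ a b : R, ¬ g ∣ b ∧
      algebraMap K F c * algebraMap R F b = algebraMap R F a) (x : R) (hx : x ≠ 0) :
    (S18C2P_place g hg hK).ord (algebraMap R F x) = (multiplicity g x : ℤ) := by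
  obtain ⟨n, x', hx', rfl⟩ := WfDvdMonoid.max_power_factor hx hg.irreducible
  have hmult : multiplicity g (g ^ n * x') = n := by
    apply multiplicity_eq_of_dvd_of_not_dvd (Dvd.intro _ rfl)
    rintro ⟨y, hy⟩
    apply hx'
    refine ⟨y, ?_⟩
    have hgn : g ^ n ≠ 0 := pow_ne_zero _ hg.ne_zero
    apply mul_left_cancel₀ hgn
    rw [hy]; ring
  rw [hmult]
  have hu : IsUnit (⟨algebraMap R F x', S18C2P_algebraMap_mem g hg x'⟩ :
      S18C2P_locVS (F := F) g hg) :=
    S18C2P_isUnit_of g hg _ x' 1 hx' (fun h => hg.not_isUnit (isUnit_of_dvd_one h)) (by simp)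
  have key := (S18C2P_place g hg hK).ord_unit_smul_zpow hu.unit
    (π := S18C2P_unif g hg) (S18C2P_irreducible_unif g hg) (n : ℤ)
  rw [← key]
  congr 1
  show algebraMap R F (g ^ n * x') = algebraMap R F x' * (algebraMap R F g) ^ (n : ℤ)
  rw [zpow_natCast, map_mul, map_pow]; ring

/-- **Bridge.** If `p ∣ P.ord f` for every place `P` of `F/K`, then `p` divides the difference of
the `g`-adic multiplicities of numerator and denominator of `f`, for every prime element `g` of
`R` with `K ⊆ R_(g)`. -/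
theorem S18C2P_dvd_multiplicity_sub (p : ℕ) (f : F)
    (hdiv : ∀ P : Place K F, (p : ℤ) ∣ P.ord f)
    (g : R) (hg : Prime g)
    (hK : ∀ c : K, ∃ a b : R, ¬ g ∣ b ∧
      algebraMap K F c * algebraMap R F b = algebraMap R F a)
    (a b : R) (ha : a ≠ 0) (hb : b ≠ 0) (hf : f * algebraMap R F b = algebraMap R F a) :
    (p : ℤ) ∣ (multiplicity g a : ℤ) - (multiplicity g b : ℤ) := by
  have hinj : Function.Injective (algebraMap R F) := IsFractionRing.injective R F
  have haF : algebraMap R F a ≠ 0 := fun h => ha (hinj (by rw [h, map_zero]))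
  have hbF : algebraMap R F b ≠ 0 := fun h => hb (hinj (by rw [h, map_zero]))
  have hf0 : f ≠ 0 := by
    rintro rfl
    rw [zero_mul] at hf
    exact haF hf.symm
  have h1 := (S18C2P_place g hg hK).ord_mul hf0 hbF
  rw [hf, S18C2P_ord_eq_multiplicity g hg hK a ha, S18C2P_ord_eq_multiplicity g hg hK b hb] at h1
  have h2 := hdiv (S18C2P_place g hg hK)
  have : (multiplicity g a : ℤ) - (multiplicity g b : ℤ) = (S18C2P_place g hg hK).ord f := by
    omega
  rw [this]
  exact h2


omit [IsDomain R] [IsFractionRing R F] [WfDvdMonoid R] in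
/-- The hypothesis `hK` in the situation of the application: `K` is generated over the image
of a base ring `O` by inverting `π`, and `g` does not divide `π` in `R`. -/
theorem S18C2P_hK_of_base {O : Type*} [CommRing O] [Algebra O R] [Algebra O K] [Algebra O F]
    [IsScalarTower O R F] [IsScalarTower O K F] (π : O)
    (hπ : ∀ c : K, ∃ (o : O) (n : ℕ), c * algebraMap O K π ^ n = algebraMap O K o)
    (g : R) (hg : Prime g) (hgπ : ¬ g ∣ algebraMap O R π) :
    ∀ c : K, ∃ a b : R, ¬ g ∣ b ∧ algebraMap K F c * algebraMap R F b = algebraMap R F a := by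
  intro c
  obtain ⟨o, n, hon⟩ := hπ c
  refine ⟨algebraMap O R o, algebraMap O R π ^ n, fun h => hgπ (hg.dvd_of_dvd_pow h), ?_⟩
  rw [map_pow, ← IsScalarTower.algebraMap_apply O R F, ← IsScalarTower.algebraMap_apply O R F,
    IsScalarTower.algebraMap_apply O K F π, IsScalarTower.algebraMap_apply O K F o, ← map_pow,
    ← map_mul, hon]

end Fermat.Agent.S18_helper28_PRIMEPLACE
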