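import Mathlib

/-!
# S18, piece X-B1 (polynomial layer): the Legendre cover and the Hesse cover of the `j`-line

Everything here is stated over an arbitrary commutative ring, so that it applies to the base
discrete valuation ring, to its fraction field and to its residue field alike.

* Legendre (`lam`): `j = 256 (t^2 - t + 1)^3 / (t^2 (t - 1)^2)`, group `S_3` generated by
  `t -> 1 - t` and `t -> 1 / t`.
* Hesse (`mu`): `j = 27 t^3 (t^3 + 8)^3 / (t^3 - 1)^3`, group `A_4` generated by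
  `t -> w t` (`w^3 = 1`) and `t -> (t + 2) / (t - 1)`.
-/

set_option autoImplicit false
set_option linter.unusedSimpArgs false
set_option linter.unusedVariables false

namespace Fermat.Agent.S18_helper29_COVERS

open Polynomial

section Defs

variable (R : Type*) [CommRing R]

/-- `T^2 - T + 1`. -/
noncomputable def lamA : R[X] := X ^ 2 - X + 1

/-- `T (T - 1) = T^2 - T`. -/
noncomputable def lamB : R[X] := X ^ 2 - X

/-- `(T + 1) (T - 2) (2 T - 1)`. -/
noncomputable def lamC : R[X] := (X + 1) * (X - 2) * (2 * X - 1)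

/-- Numerator of the Legendre `j`-function. -/
noncomputable def lamNum : R[X] := 256 * lamA R ^ 3

/-- Denominator of the Legendre `j`-function. -/
noncomputable def lamDen : R[X] := lamB R ^ 2

/-- The polynomial `256 (T^2 - T + 1)^3 - j T^2 (T - 1)^2` whose roots are the `t` over `j`. -/
noncomputable def lamP (j : R) : R[X] := lamNum R - C j * lamDen R

/-- `T^6 - 20 T^3 - 8`. -/
noncomputable def muC : R[X] := X ^ 6 - 20 * X ^ 3 - 8

/-- `T (T^3 + 8)`. -/
noncomputable def muA : R[X] := X * (X ^ 3 + 8)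

/-- `T^3 - 1`. -/
noncomputable def muB : R[X] := X ^ 3 - 1

/-- Numerator of the Hesse `j`-function. -/
noncomputable def muNum : R[X] := 27 * muA R ^ 3

/-- Denominator of the Hesse `j`-function. -/
noncomputable def muDen : R[X] := muB R ^ 3

/-- The polynomial `27 T^3 (T^3 + 8)^3 - j (T^3 - 1)^3` whose roots are the `t` over `j`. -/
noncomputable def muP (j : R) : R[X] := muNum R - C j * muDen R

end Defs

section Identities

variable {R : Type*} [CommRing R]

theorem lamA_eq_lamB_add_one : lamA R = lamB R + 1 := by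
  simp only [lamA, lamB]

theorem lamNum_sub_lamDen : lamNum R - 1728 * lamDen R = 64 * lamC R ^ 2 := by
  simp only [lamNum, lamDen, lamA, lamB, lamC]; ring

theorem C_ofNat_1728 : (C (1728 : R) : R[X]) = 1728 := map_ofNat C 1728

theorem lamP_1728 : lamP R 1728 = 64 * lamC R ^ 2 := by
  rw [← lamNum_sub_lamDen, lamP, C_ofNat_1728]

theorem lamP_zero : lamP R 0 = 256 * lamA R ^ 3 := by
  simp [lamP, lamNum]

theorem muNum_sub_muDen : muNum R - 1728 * muDen R = 27 * muC R ^ 2 := by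
  simp only [muNum, muDen, muA, muB, muC]; ring

theorem muP_1728 : muP R 1728 = 27 * muC R ^ 2 := by
  rw [← muNum_sub_muDen, muP, C_ofNat_1728]

theorem muP_zero : muP R 0 = 27 * muA R ^ 3 := by
  simp [muP, muNum]

end Identities



section Eval

variable {R : Type*} [CommRing R] {S : Type*} [CommRing S] [Algebra R S]

@[simp] theorem aeval_lamA (x : S) : aeval x (lamA R) = x ^ 2 - x + 1 := by
  simp [lamA, map_ofNat]

@[simp] theorem aeval_lamB (x : S) : aeval x (lamB R) = x ^ 2 - x := by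
  simp [lamB, map_ofNat]

@[simp] theorem aeval_lamC (x : S) : aeval x (lamC R) = (x + 1) * (x - 2) * (2 * x - 1) := by
  simp [lamC, map_ofNat]

@[simp] theorem aeval_lamNum (x : S) : aeval x (lamNum R) = 256 * (x ^ 2 - x + 1) ^ 3 := by
  simp [lamNum, map_ofNat]

@[simp] theorem aeval_lamDen (x : S) : aeval x (lamDen R) = (x ^ 2 - x) ^ 2 := by
  simp [lamDen, map_ofNat]

theorem aeval_lamP (j : R) (x : S) :
    aeval x (lamP R j) = 256 * (x ^ 2 - x + 1) ^ 3 - algebraMap R S j * (x ^ 2 - x) ^ 2 := by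
  simp [lamP, map_ofNat]

@[simp] theorem aeval_muA (x : S) : aeval x (muA R) = x * (x ^ 3 + 8) := by
  simp [muA, map_ofNat]

@[simp] theorem aeval_muB (x : S) : aeval x (muB R) = x ^ 3 - 1 := by
  simp [muB, map_ofNat]

@[simp] theorem aeval_muC (x : S) : aeval x (muC R) = x ^ 6 - 20 * x ^ 3 - 8 := by
  simp [muC, map_ofNat]

@[simp] theorem aeval_muNum (x : S) : aeval x (muNum R) = 27 * (x * (x ^ 3 + 8)) ^ 3 := by
  simp [muNum, map_ofNat]

@[simp] theorem aeval_muDen (x : S) : aeval x (muDen R) = (x ^ 3 - 1) ^ 3 := by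
  simp [muDen, map_ofNat]

theorem aeval_muP (j : R) (x : S) :
    aeval x (muP R j) = 27 * (x * (x ^ 3 + 8)) ^ 3 - algebraMap R S j * (x ^ 3 - 1) ^ 3 := by
  simp [muP, map_ofNat]

end Eval



section Orbit

variable {S : Type*} [CommRing S]

/-- The six `S_3`-translates of `t` are the roots of `lamP j`: cleared-denominator form. -/
theorem lam_orbit_identity (x t : S) :
    256 * (x ^ 2 - x + 1) ^ 3 * (t ^ 2 - t) ^ 2 - 256 * (t ^ 2 - t + 1) ^ 3 * (x ^ 2 - x) ^ 2
      = 256 * (x - t) * (x + t - 1) * (t * x - 1) * ((1 - t) * x - 1) * (t * x - t + 1)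
          * ((1 - t) * x + t) := by
  ring

/-- Invariance of the Legendre `j`-function under `t -> 1 - t`, cleared-denominator form. -/
theorem lam_invariant_one_sub (t : S) :
    (1 - t) ^ 2 - (1 - t) + 1 = t ^ 2 - t + 1 ∧ (1 - t) ^ 2 - (1 - t) = t ^ 2 - t := by
  constructor <;> ring

/-- Invariance of the Legendre `j`-function under `t -> 1 / t`: if `t * u = 1` then
`u^2 - u + 1 = u^2 (t^2 - t + 1)` and `u^2 - u = - u^3 (t^2 - t)`. -/
theorem lam_invariant_inv {t u : S} (h : t * u = 1) :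
    u ^ 2 - u + 1 = u ^ 2 * (t ^ 2 - t + 1) ∧ u ^ 2 - u = - u ^ 3 * (t ^ 2 - t) := by
  constructor
  · linear_combination (-t * u + u - 1) * h
  · linear_combination (t * u ^ 2 - u ^ 2 + u) * h

/-- The product over the three cube roots of unity, as a polynomial in `u = x^3`, `s = t^3`. -/
theorem mu_orbit_identity_cubes (u s : S) :
    27 * (u * (u + 8) ^ 3 * (s - 1) ^ 3 - s * (s + 8) ^ 3 * (u - 1) ^ 3)
      = 27 * (u - s) * ((-(u + 8) + (u - 1) * s) ^ 3 + (3 * (u - 4)) ^ 3 * s
          + (-3 * (u + 2)) ^ 3 * s ^ 2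
          - 3 * (-(u + 8) + (u - 1) * s) * (3 * (u - 4)) * (-3 * (u + 2)) * s) := by
  ring

end Orbit


section Certificates

variable {R : Type*} [CommRing R]

theorem derivative_lamA : derivative (lamA R) = 2 * X - 1 := by
  simp only [lamA, derivative_add, derivative_sub, derivative_X_pow, derivative_X, derivative_one]
  simp only [Nat.cast_ofNat, map_ofNat]
  ring

theorem derivative_lamB : derivative (lamB R) = 2 * X - 1 := by
  simp only [lamB, derivative_sub, derivative_X_pow, derivative_X]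
  simp only [Nat.cast_ofNat, map_ofNat]
  ring

theorem lamC_expand : lamC R = 2 * X ^ 3 - 3 * X ^ 2 - 3 * X + 2 := by
  simp only [lamC]; ring

theorem derivative_lamC : derivative (lamC R) = 6 * X ^ 2 - 6 * X - 3 := by
  rw [lamC_expand]
  simp only [derivative_add, derivative_sub, derivative_mul, derivative_X_pow, derivative_X,
    derivative_ofNat]
  simp only [Nat.cast_ofNat, map_ofNat]
  ring

theorem derivative_muA : derivative (muA R) = 4 * X ^ 3 + 8 := by
  have h : muA R = X ^ 4 + 8 * X := by simp only [muA]; ring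
  rw [h]
  simp only [derivative_add, derivative_mul, derivative_X_pow, derivative_X, derivative_ofNat]
  simp only [Nat.cast_ofNat, map_ofNat]
  ring

theorem derivative_muB : derivative (muB R) = 3 * X ^ 2 := by
  simp only [muB, derivative_sub, derivative_X_pow, derivative_one]
  simp only [Nat.cast_ofNat, map_ofNat]
  ring

theorem derivative_muC : derivative (muC R) = 6 * X ^ 5 - 60 * X ^ 2 := by
  simp only [muC, derivative_sub, derivative_mul, derivative_X_pow, derivative_ofNat]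
  simp only [Nat.cast_ofNat, map_ofNat]
  ring

/-- Bezout certificate: `T^2 - T + 1` is squarefree when `3` is invertible. -/
theorem lamA_bezout : (2 * X - 1) * derivative (lamA R) - 4 * lamA R = -3 := by
  rw [derivative_lamA]; simp only [lamA]; ring

/-- Bezout certificate: `(T + 1) (T - 2) (2 T - 1)` is squarefree when `3` is invertible. -/
theorem lamC_bezout :
    (4 * X ^ 2 - 4 * X - 5) * derivative (lamC R) - 6 * (2 * X - 1) * lamC R = 27 := by
  rw [derivative_lamC]; simp only [lamC]; ring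

/-- Bezout certificate: `T (T^3 + 8)` is squarefree when `6` is invertible. -/
theorem muA_bezout : (6 + X ^ 3) * derivative (muA R) - 4 * X ^ 2 * muA R = 48 := by
  rw [derivative_muA]; simp only [muA]; ring

/-- Bezout certificate: `T^6 - 20 T^3 - 8` is squarefree when `6` is invertible. -/
theorem muC_bezout :
    (30 * X ^ 3 - 324) * muC R - X * (5 * X ^ 3 - 104) * derivative (muC R) = 2592 := by
  rw [derivative_muC]; simp only [muC]; ring

/-- The Wronskian of numerator and denominator of the Legendre `j`-function. -/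
theorem lam_wronskian :
    derivative (lamNum R) * lamDen R - lamNum R * derivative (lamDen R)
      = 256 * lamA R ^ 2 * lamB R * lamC R := by
  simp only [lamNum, lamDen, derivative_mul, derivative_pow, derivative_ofNat, derivative_lamA,
    derivative_lamB]
  simp only [lamA, lamB, lamC]
  simp only [Nat.cast_ofNat, map_ofNat]
  ring

/-- The Wronskian of numerator and denominator of the Hesse `j`-function. -/
theorem mu_wronskian :
    derivative (muNum R) * muDen R - muNum R * derivative (muDen R)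
      = 81 * muA R ^ 2 * muB R ^ 2 * muC R := by
  simp only [muNum, muDen, derivative_mul, derivative_pow, derivative_ofNat, derivative_muA,
    derivative_muB]
  simp only [muA, muB, muC]
  simp only [Nat.cast_ofNat, map_ofNat]
  ring

end Certificates


section LocalFactor

variable {L : Type*} [Field L]

/-- If `t0` is a simple root of `G`, then `c * G ^ e = (X - t0) ^ e * U` with `U (t0) ≠ 0`. -/
theorem local_factor_of_pow (G : L[X]) (e : ℕ) (c : L[X]) (t0 : L) (hc : c.eval t0 ≠ 0)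
    (h0 : G.eval t0 = 0) (h1 : (derivative G).eval t0 ≠ 0) :
    ∃ U : L[X], c * G ^ e = (X - C t0) ^ e * U ∧ U.eval t0 ≠ 0 := by
  obtain ⟨V, hV⟩ : (X - C t0) ∣ G := dvd_iff_isRoot.mpr h0
  have hV0 : V.eval t0 ≠ 0 := by
    intro h
    apply h1
    rw [hV, derivative_mul, eval_add, eval_mul, eval_mul, h]
    simp
  refine ⟨c * V ^ e, ?_, ?_⟩
  · rw [hV, mul_pow]; ring
  · rw [eval_mul, eval_pow]
    exact mul_ne_zero hc (pow_ne_zero _ hV0)

/-- If `t0` is a root of `G` with `G' (t0) ≠ 0`, then `G = (X - t0) * U` with `U (t0) ≠ 0`. -/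
theorem local_factor_simple (G : L[X]) (t0 : L)
    (h0 : G.eval t0 = 0) (h1 : (derivative G).eval t0 ≠ 0) :
    ∃ U : L[X], G = (X - C t0) ^ 1 * U ∧ U.eval t0 ≠ 0 := by
  obtain ⟨U, hU, hU0⟩ := local_factor_of_pow G 1 1 t0 (by simp) h0 h1
  exact ⟨U, by simpa using hU, hU0⟩

theorem eval_lamA (x : L) : (lamA L).eval x = x ^ 2 - x + 1 := by simp [lamA]
theorem eval_lamB (x : L) : (lamB L).eval x = x ^ 2 - x := by simp [lamB]
theorem eval_lamC (x : L) : (lamC L).eval x = (x + 1) * (x - 2) * (2 * x - 1) := by simp [lamC]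
theorem eval_lamNum (x : L) : (lamNum L).eval x = 256 * (x ^ 2 - x + 1) ^ 3 := by
  simp [lamNum, lamA]
theorem eval_lamDen (x : L) : (lamDen L).eval x = (x ^ 2 - x) ^ 2 := by simp [lamDen, lamB]
theorem eval_muA (x : L) : (muA L).eval x = x * (x ^ 3 + 8) := by simp [muA]
theorem eval_muB (x : L) : (muB L).eval x = x ^ 3 - 1 := by simp [muB]
theorem eval_muC (x : L) : (muC L).eval x = x ^ 6 - 20 * x ^ 3 - 8 := by simp [muC]
theorem eval_muNum (x : L) : (muNum L).eval x = 27 * (x * (x ^ 3 + 8)) ^ 3 := by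
  simp [muNum, muA]
theorem eval_muDen (x : L) : (muDen L).eval x = (x ^ 3 - 1) ^ 3 := by simp [muDen, muB]

/-- Local shape of the Legendre cover at a point `t0` with `j (t0) = 0`. -/
theorem lam_local_factor_zero (h2 : (2 : L) ≠ 0) (h3 : (3 : L) ≠ 0) (t0 : L)
    (h0 : (lamNum L).eval t0 = 0) :
    ∃ U : L[X], lamP L 0 = (X - C t0) ^ 3 * U ∧ U.eval t0 ≠ 0 := by
  have hA : (lamA L).eval t0 = 0 := by
    rw [eval_lamNum] at h0
    rw [eval_lamA]
    have h256 : (256 : L) ≠ 0 := by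
      have : (256 : L) = 2 ^ 8 := by norm_num
      rw [this]; exact pow_ne_zero _ h2
    exact pow_eq_zero_iff (n := 3) (by norm_num) |>.mp ((mul_eq_zero.mp h0).resolve_left h256)
  have hA' : (derivative (lamA L)).eval t0 ≠ 0 := by
    intro h
    have hb := congrArg (eval t0) (lamA_bezout (R := L))
    rw [eval_sub, eval_mul, eval_mul, h, hA] at hb
    simp only [mul_zero, sub_zero, eval_neg, eval_ofNat] at hb
    exact h3 (neg_eq_zero.mp hb.symm)
  rw [lamP_zero]
  refine local_factor_of_pow (lamA L) 3 256 t0 ?_ hA hA'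
  simp only [eval_ofNat]
  have : (256 : L) = 2 ^ 8 := by norm_num
  rw [this]; exact pow_ne_zero _ h2

/-- Local shape of the Legendre cover at a point `t0` with `j (t0) = 1728`. -/
theorem lam_local_factor_1728 (h2 : (2 : L) ≠ 0) (h3 : (3 : L) ≠ 0) (t0 : L)
    (h0 : (lamNum L).eval t0 = 1728 * (lamDen L).eval t0) :
    ∃ U : L[X], lamP L 1728 = (X - C t0) ^ 2 * U ∧ U.eval t0 ≠ 0 := by
  have h64 : (64 : L) ≠ 0 := by
    have : (64 : L) = 2 ^ 6 := by norm_num
    rw [this]; exact pow_ne_zero _ h2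
  have hC : (lamC L).eval t0 = 0 := by
    have hb := congrArg (eval t0) (lamNum_sub_lamDen (R := L))
    rw [eval_sub, eval_mul, eval_mul, eval_pow, h0] at hb
    simp only [eval_ofNat, sub_self] at hb
    exact pow_eq_zero_iff (n := 2) (by norm_num) |>.mp ((mul_eq_zero.mp hb.symm).resolve_left h64)
  have hC' : (derivative (lamC L)).eval t0 ≠ 0 := by
    intro h
    have hb := congrArg (eval t0) (lamC_bezout (R := L))
    rw [eval_sub, eval_mul, eval_mul, h, hC] at hb
    simp only [mul_zero, sub_zero, eval_ofNat] at hb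
    have : (27 : L) = 3 ^ 3 := by norm_num
    rw [this] at hb
    exact pow_ne_zero _ h3 hb.symm
  rw [lamP_1728]
  refine local_factor_of_pow (lamC L) 2 64 t0 ?_ hC hC'
  simpa only [eval_ofNat] using h64

/-- Local shape of the Legendre cover at a point `t0` with `j (t0) ≠ 0, 1728`. -/
theorem lam_local_factor_generic (h2 : (2 : L) ≠ 0) (t0 j0 : L)
    (hden : (lamDen L).eval t0 ≠ 0) (hj : (lamNum L).eval t0 = j0 * (lamDen L).eval t0)
    (hj0 : j0 ≠ 0) (hj1 : j0 ≠ 1728) :
    ∃ U : L[X], lamP L j0 = (X - C t0) ^ 1 * U ∧ U.eval t0 ≠ 0 := by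
  have h256 : (256 : L) ≠ 0 := by
    have : (256 : L) = 2 ^ 8 := by norm_num
    rw [this]; exact pow_ne_zero _ h2
  have h64 : (64 : L) ≠ 0 := by
    have : (64 : L) = 2 ^ 6 := by norm_num
    rw [this]; exact pow_ne_zero _ h2
  have hB : (lamB L).eval t0 ≠ 0 := by
    intro h
    apply hden
    rw [lamDen, eval_pow, h]; simp
  have hA : (lamA L).eval t0 ≠ 0 := by
    intro h
    have : (lamNum L).eval t0 = 0 := by rw [lamNum, eval_mul, eval_pow, h]; simp
    rw [this] at hj
    rcases mul_eq_zero.mp hj.symm with h' | h'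
    · exact hj0 h'
    · exact hden h'
  have hC : (lamC L).eval t0 ≠ 0 := by
    intro h
    have hb := congrArg (eval t0) (lamNum_sub_lamDen (R := L))
    rw [eval_sub, eval_mul, eval_mul, eval_pow, h, hj] at hb
    simp only [eval_ofNat] at hb
    have : (j0 - 1728) * (lamDen L).eval t0 = 0 := by rw [sub_mul, hb]; simp
    rcases mul_eq_zero.mp this with h' | h'
    · exact hj1 (sub_eq_zero.mp h')
    · exact hden h'
  refine local_factor_simple (lamP L j0) t0 ?_ ?_
  · rw [lamP, eval_sub, eval_mul, eval_C, hj, sub_self]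
  · intro h
    have hw := congrArg (eval t0) (lam_wronskian (R := L))
    rw [lamP, derivative_sub, derivative_mul, derivative_C, zero_mul, zero_add, eval_sub,
      eval_mul, eval_C] at h
    have h' : (derivative (lamNum L)).eval t0 = j0 * (derivative (lamDen L)).eval t0 :=
      sub_eq_zero.mp h
    rw [eval_sub, eval_mul, eval_mul, h', hj] at hw
    have : j0 * (derivative (lamDen L)).eval t0 * (lamDen L).eval t0
        - j0 * (lamDen L).eval t0 * (derivative (lamDen L)).eval t0 = 0 := by ring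
    rw [this] at hw
    simp only [eval_mul, eval_pow, eval_ofNat] at hw
    have hne : (256 : L) * (lamA L).eval t0 ^ 2 * (lamB L).eval t0 * (lamC L).eval t0 ≠ 0 :=
      mul_ne_zero (mul_ne_zero (mul_ne_zero h256 (pow_ne_zero _ hA)) hB) hC
    exact hne hw.symm

end LocalFactor


section LocalFactorMu

variable {L : Type*} [Field L]

/-- Local shape of the Hesse cover at a point `t0` with `j (t0) = 0`. -/
theorem mu_local_factor_zero (h2 : (2 : L) ≠ 0) (h3 : (3 : L) ≠ 0) (t0 : L)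
    (h0 : (muNum L).eval t0 = 0) :
    ∃ U : L[X], muP L 0 = (X - C t0) ^ 3 * U ∧ U.eval t0 ≠ 0 := by
  have h27 : (27 : L) ≠ 0 := by
    have : (27 : L) = 3 ^ 3 := by norm_num
    rw [this]; exact pow_ne_zero _ h3
  have hA : (muA L).eval t0 = 0 := by
    rw [muNum, eval_mul, eval_pow, eval_ofNat] at h0
    exact pow_eq_zero_iff (n := 3) (by norm_num) |>.mp ((mul_eq_zero.mp h0).resolve_left h27)
  have hA' : (derivative (muA L)).eval t0 ≠ 0 := by
    intro h
    have hb := congrArg (eval t0) (muA_bezout (R := L))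
    rw [eval_sub, eval_mul, eval_mul, h, hA] at hb
    simp only [mul_zero, sub_zero, eval_ofNat] at hb
    have : (48 : L) = 2 ^ 4 * 3 := by norm_num
    rw [this] at hb
    exact mul_ne_zero (pow_ne_zero _ h2) h3 hb.symm
  rw [muP_zero]
  refine local_factor_of_pow (muA L) 3 27 t0 ?_ hA hA'
  simpa only [eval_ofNat] using h27

/-- Local shape of the Hesse cover at a point `t0` with `j (t0) = 1728`. -/
theorem mu_local_factor_1728 (h2 : (2 : L) ≠ 0) (h3 : (3 : L) ≠ 0) (t0 : L)
    (h0 : (muNum L).eval t0 = 1728 * (muDen L).eval t0) :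
    ∃ U : L[X], muP L 1728 = (X - C t0) ^ 2 * U ∧ U.eval t0 ≠ 0 := by
  have h27 : (27 : L) ≠ 0 := by
    have : (27 : L) = 3 ^ 3 := by norm_num
    rw [this]; exact pow_ne_zero _ h3
  have hC : (muC L).eval t0 = 0 := by
    have hb := congrArg (eval t0) (muNum_sub_muDen (R := L))
    rw [eval_sub, eval_mul, eval_mul, eval_pow, h0] at hb
    simp only [eval_ofNat, sub_self] at hb
    exact pow_eq_zero_iff (n := 2) (by norm_num) |>.mp ((mul_eq_zero.mp hb.symm).resolve_left h27)
  have hC' : (derivative (muC L)).eval t0 ≠ 0 := by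
    intro h
    have hb := congrArg (eval t0) (muC_bezout (R := L))
    rw [eval_sub, eval_mul, eval_mul, h, hC] at hb
    simp only [mul_zero, sub_zero, eval_ofNat] at hb
    have : (2592 : L) = 2 ^ 5 * 3 ^ 4 := by norm_num
    rw [this] at hb
    exact mul_ne_zero (pow_ne_zero _ h2) (pow_ne_zero _ h3) hb.symm
  rw [muP_1728]
  refine local_factor_of_pow (muC L) 2 27 t0 ?_ hC hC'
  simpa only [eval_ofNat] using h27

/-- Local shape of the Hesse cover at a point `t0` with `j (t0) ≠ 0, 1728`. -/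
theorem mu_local_factor_generic (h3 : (3 : L) ≠ 0) (t0 j0 : L)
    (hden : (muDen L).eval t0 ≠ 0) (hj : (muNum L).eval t0 = j0 * (muDen L).eval t0)
    (hj0 : j0 ≠ 0) (hj1 : j0 ≠ 1728) :
    ∃ U : L[X], muP L j0 = (X - C t0) ^ 1 * U ∧ U.eval t0 ≠ 0 := by
  have h27 : (27 : L) ≠ 0 := by
    have : (27 : L) = 3 ^ 3 := by norm_num
    rw [this]; exact pow_ne_zero _ h3
  have h81 : (81 : L) ≠ 0 := by
    have : (81 : L) = 3 ^ 4 := by norm_num
    rw [this]; exact pow_ne_zero _ h3
  have hB : (muB L).eval t0 ≠ 0 := by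
    intro h
    apply hden
    rw [muDen, eval_pow, h]; simp
  have hA : (muA L).eval t0 ≠ 0 := by
    intro h
    have : (muNum L).eval t0 = 0 := by rw [muNum, eval_mul, eval_pow, h]; simp
    rw [this] at hj
    rcases mul_eq_zero.mp hj.symm with h' | h'
    · exact hj0 h'
    · exact hden h'
  have hC : (muC L).eval t0 ≠ 0 := by
    intro h
    have hb := congrArg (eval t0) (muNum_sub_muDen (R := L))
    rw [eval_sub, eval_mul, eval_mul, eval_pow, h, hj] at hb
    simp only [eval_ofNat] at hb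
    have : (j0 - 1728) * (muDen L).eval t0 = 0 := by rw [sub_mul, hb]; simp
    rcases mul_eq_zero.mp this with h' | h'
    · exact hj1 (sub_eq_zero.mp h')
    · exact hden h'
  refine local_factor_simple (muP L j0) t0 ?_ ?_
  · rw [muP, eval_sub, eval_mul, eval_C, hj, sub_self]
  · intro h
    have hw := congrArg (eval t0) (mu_wronskian (R := L))
    rw [muP, derivative_sub, derivative_mul, derivative_C, zero_mul, zero_add, eval_sub,
      eval_mul, eval_C] at h
    have h' : (derivative (muNum L)).eval t0 = j0 * (derivative (muDen L)).eval t0 :=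
      sub_eq_zero.mp h
    rw [eval_sub, eval_mul, eval_mul, h', hj] at hw
    have : j0 * (derivative (muDen L)).eval t0 * (muDen L).eval t0
        - j0 * (muDen L).eval t0 * (derivative (muDen L)).eval t0 = 0 := by ring
    rw [this] at hw
    simp only [eval_mul, eval_pow, eval_ofNat] at hw
    have hne : (81 : L) * (muA L).eval t0 ^ 2 * (muB L).eval t0 ^ 2 * (muC L).eval t0 ≠ 0 :=
      mul_ne_zero (mul_ne_zero (mul_ne_zero h81 (pow_ne_zero _ hA)) (pow_ne_zero _ hB)) hC
    exact hne hw.symm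

end LocalFactorMu

section LocalFactorCombined

variable {L : Type*} [Field L]

/-- **Local shape of the Legendre cover** (all cases): for `t0` with `t0 (t0 - 1) ≠ 0` and
`j0 = j (t0)`, the polynomial `lamNum - j0 * lamDen` is `(X - t0) ^ e * U` with `U (t0) ≠ 0`,
where `e = 3, 2, 1` according to `j0 = 0`, `j0 = 1728`, otherwise. -/
theorem lam_local_factor (h2 : (2 : L) ≠ 0) (h3 : (3 : L) ≠ 0) (t0 : L)
    (hden : (lamDen L).eval t0 ≠ 0) (e : ℕ)
    (he0 : (lamNum L).eval t0 / (lamDen L).eval t0 = 0 → e = 3)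
    (he1 : (lamNum L).eval t0 / (lamDen L).eval t0 = 1728 → e = 2)
    (he2 : (lamNum L).eval t0 / (lamDen L).eval t0 ≠ 0 →
      (lamNum L).eval t0 / (lamDen L).eval t0 ≠ 1728 → e = 1) :
    ∃ U : L[X],
      lamNum L - C ((lamNum L).eval t0 / (lamDen L).eval t0) * lamDen L = (X - C t0) ^ e * U ∧
        U.eval t0 ≠ 0 := by
  set j0 := (lamNum L).eval t0 / (lamDen L).eval t0 with hj0
  have hj : (lamNum L).eval t0 = j0 * (lamDen L).eval t0 := by
    rw [hj0, div_mul_cancel₀ _ hden]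
  by_cases h0 : j0 = 0
  · rw [he0 h0, h0]
    have : (lamNum L).eval t0 = 0 := by rw [hj, h0, zero_mul]
    exact lam_local_factor_zero h2 h3 t0 this
  by_cases h1 : j0 = 1728
  · rw [he1 h1, h1]
    have : (lamNum L).eval t0 = 1728 * (lamDen L).eval t0 := by rw [hj, h1]
    exact lam_local_factor_1728 h2 h3 t0 this
  · rw [he2 h0 h1]
    exact lam_local_factor_generic h2 t0 j0 hden hj h0 h1

/-- **Local shape of the Hesse cover** (all cases). -/
theorem mu_local_factor (h2 : (2 : L) ≠ 0) (h3 : (3 : L) ≠ 0) (t0 : L)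
    (hden : (muDen L).eval t0 ≠ 0) (e : ℕ)
    (he0 : (muNum L).eval t0 / (muDen L).eval t0 = 0 → e = 3)
    (he1 : (muNum L).eval t0 / (muDen L).eval t0 = 1728 → e = 2)
    (he2 : (muNum L).eval t0 / (muDen L).eval t0 ≠ 0 →
      (muNum L).eval t0 / (muDen L).eval t0 ≠ 1728 → e = 1) :
    ∃ U : L[X],
      muNum L - C ((muNum L).eval t0 / (muDen L).eval t0) * muDen L = (X - C t0) ^ e * U ∧
        U.eval t0 ≠ 0 := by
  set j0 := (muNum L).eval t0 / (muDen L).eval t0 with hj0
  have hj : (muNum L).eval t0 = j0 * (muDen L).eval t0 := by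
    rw [hj0, div_mul_cancel₀ _ hden]
  by_cases h0 : j0 = 0
  · rw [he0 h0, h0]
    have : (muNum L).eval t0 = 0 := by rw [hj, h0, zero_mul]
    exact mu_local_factor_zero h2 h3 t0 this
  by_cases h1 : j0 = 1728
  · rw [he1 h1, h1]
    have : (muNum L).eval t0 = 1728 * (muDen L).eval t0 := by rw [hj, h1]
    exact mu_local_factor_1728 h2 h3 t0 this
  · rw [he2 h0 h1]
    exact mu_local_factor_generic h3 t0 j0 hden hj h0 h1

/-- The ramification index of the `j`-line used by S24 (`3` over `0`, `2` over `1728`, else `1`).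
-/
noncomputable def ramIdx (j0 : L) : ℕ := by
  classical exact if j0 = 0 then 3 else if j0 = 1728 then 2 else 1

theorem ramIdx_zero : ramIdx (0 : L) = 3 := by simp [ramIdx]

theorem ramIdx_1728 (h : (1728 : L) ≠ 0) : ramIdx (1728 : L) = 2 := by simp [ramIdx, h]

theorem ramIdx_generic {j0 : L} (h0 : j0 ≠ 0) (h1 : j0 ≠ 1728) : ramIdx j0 = 1 := by
  simp [ramIdx, h0, h1]

theorem ne_1728_zero (h2 : (2 : L) ≠ 0) (h3 : (3 : L) ≠ 0) : (1728 : L) ≠ 0 := by
  have : (1728 : L) = 2 ^ 6 * 3 ^ 3 := by norm_num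
  rw [this]; exact mul_ne_zero (pow_ne_zero _ h2) (pow_ne_zero _ h3)

theorem lam_local_factor_ramIdx (h2 : (2 : L) ≠ 0) (h3 : (3 : L) ≠ 0) (t0 : L)
    (hden : (lamDen L).eval t0 ≠ 0) :
    ∃ U : L[X],
      lamNum L - C ((lamNum L).eval t0 / (lamDen L).eval t0) * lamDen L
        = (X - C t0) ^ ramIdx ((lamNum L).eval t0 / (lamDen L).eval t0) * U ∧
        U.eval t0 ≠ 0 :=
  lam_local_factor h2 h3 t0 hden _ (fun h => by rw [h, ramIdx_zero])
    (fun h => by rw [h, ramIdx_1728 (ne_1728_zero h2 h3)]) (fun h0 h1 => ramIdx_generic h0 h1)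

theorem mu_local_factor_ramIdx (h2 : (2 : L) ≠ 0) (h3 : (3 : L) ≠ 0) (t0 : L)
    (hden : (muDen L).eval t0 ≠ 0) :
    ∃ U : L[X],
      muNum L - C ((muNum L).eval t0 / (muDen L).eval t0) * muDen L
        = (X - C t0) ^ ramIdx ((muNum L).eval t0 / (muDen L).eval t0) * U ∧
        U.eval t0 ≠ 0 :=
  mu_local_factor h2 h3 t0 hden _ (fun h => by rw [h, ramIdx_zero])
    (fun h => by rw [h, ramIdx_1728 (ne_1728_zero h2 h3)]) (fun h0 h1 => ramIdx_generic h0 h1)

end LocalFactorCombined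


section Monic

variable {R : Type*} [CommRing R]

theorem lamP_expand (j : R) :
    lamP R j = C 256 * X ^ 6 + (C (-768) * X ^ 5 + C (1536 - j) * X ^ 4
      + C (2 * j - 1792) * X ^ 3 + C (1536 - j) * X ^ 2 + C (-768) * X + C 256) := by
  simp only [lamP, lamNum, lamDen, lamA, lamB, map_sub, map_mul, map_neg, map_ofNat]
  ring

theorem muP_expand (j : R) :
    muP R j = C 27 * X ^ 12 + (C (648 - j) * X ^ 9 + C (5184 + 3 * j) * X ^ 6
      + C (13824 - 3 * j) * X ^ 3 + C j) := by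
  simp only [muP, muNum, muDen, muA, muB, map_sub, map_add, map_mul, map_ofNat]
  ring

/-- After division by the unit `256`, the Legendre polynomial is monic (of degree `6`). -/
theorem lamP_scaled_monic (j c : R) (hc : c * 256 = 1) : (C c * lamP R j).Monic := by
  nontriviality R
  rw [lamP_expand]
  have h1 : (C c * (C 256 * X ^ 6 + (C (-768) * X ^ 5 + C (1536 - j) * X ^ 4
      + C (2 * j - 1792) * X ^ 3 + C (1536 - j) * X ^ 2 + C (-768) * X + C 256)) : R[X]) =
      X ^ 6 + (C (c * -768) * X ^ 5 + C (c * (1536 - j)) * X ^ 4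
        + C (c * (2 * j - 1792)) * X ^ 3 + C (c * (1536 - j)) * X ^ 2 + C (c * -768) * X
        + C (c * 256)) := by
    have : (C c * C 256 : R[X]) = 1 := by rw [← C_mul, hc, C_1]
    simp only [C_mul]
    linear_combination (X ^ 6) * this
  rw [h1]
  monicity!

theorem lamP_scaled_natDegree [Nontrivial R] (j c : R) (hc : c * 256 = 1) :
    (C c * lamP R j).natDegree = 6 := by
  rw [lamP_expand]
  have h1 : (C c * (C 256 * X ^ 6 + (C (-768) * X ^ 5 + C (1536 - j) * X ^ 4
      + C (2 * j - 1792) * X ^ 3 + C (1536 - j) * X ^ 2 + C (-768) * X + C 256)) : R[X]) =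
      X ^ 6 + (C (c * -768) * X ^ 5 + C (c * (1536 - j)) * X ^ 4
        + C (c * (2 * j - 1792)) * X ^ 3 + C (c * (1536 - j)) * X ^ 2 + C (c * -768) * X
        + C (c * 256)) := by
    have : (C c * C 256 : R[X]) = 1 := by rw [← C_mul, hc, C_1]
    simp only [C_mul]
    linear_combination (X ^ 6) * this
  rw [h1]
  compute_degree!

/-- After division by the unit `27`, the Hesse polynomial is monic (of degree `12`). -/
theorem muP_scaled_monic (j c : R) (hc : c * 27 = 1) : (C c * muP R j).Monic := by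
  nontriviality R
  rw [muP_expand]
  have h1 : (C c * (C 27 * X ^ 12 + (C (648 - j) * X ^ 9 + C (5184 + 3 * j) * X ^ 6
      + C (13824 - 3 * j) * X ^ 3 + C j)) : R[X]) =
      X ^ 12 + (C (c * (648 - j)) * X ^ 9 + C (c * (5184 + 3 * j)) * X ^ 6
        + C (c * (13824 - 3 * j)) * X ^ 3 + C (c * j)) := by
    have : (C c * C 27 : R[X]) = 1 := by rw [← C_mul, hc, C_1]
    simp only [C_mul]
    linear_combination (X ^ 12) * this
  rw [h1]
  monicity!

theorem muP_scaled_natDegree [Nontrivial R] (j c : R) (hc : c * 27 = 1) :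
    (C c * muP R j).natDegree = 12 := by
  rw [muP_expand]
  have h1 : (C c * (C 27 * X ^ 12 + (C (648 - j) * X ^ 9 + C (5184 + 3 * j) * X ^ 6
      + C (13824 - 3 * j) * X ^ 3 + C j)) : R[X]) =
      X ^ 12 + (C (c * (648 - j)) * X ^ 9 + C (c * (5184 + 3 * j)) * X ^ 6
        + C (c * (13824 - 3 * j)) * X ^ 3 + C (c * j)) := by
    have : (C c * C 27 : R[X]) = 1 := by rw [← C_mul, hc, C_1]
    simp only [C_mul]
    linear_combination (X ^ 12) * this
  rw [h1]
  compute_degree!

end Monic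

section Integrality

variable {R : Type*} [CommRing R] {S : Type*} [CommRing S] [Algebra R S]

/-- `t` is integral over any ring containing `j` in which `2` is invertible (Legendre). -/
theorem lam_isIntegral (j c : R) (hc : c * 256 = 1) (t : S)
    (h : 256 * (t ^ 2 - t + 1) ^ 3 = algebraMap R S j * (t ^ 2 - t) ^ 2) : IsIntegral R t := by
  refine ⟨C c * lamP R j, lamP_scaled_monic j c hc, ?_⟩
  rw [← aeval_def, map_mul, aeval_lamP, h, sub_self, mul_zero]

/-- `1 / t` is integral over any ring containing `j` in which `2` is invertible (Legendre). -/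
theorem lam_isIntegral_inv (j c : R) (hc : c * 256 = 1) (t u : S) (htu : t * u = 1)
    (h : 256 * (t ^ 2 - t + 1) ^ 3 = algebraMap R S j * (t ^ 2 - t) ^ 2) : IsIntegral R u := by
  refine lam_isIntegral j c hc u ?_
  obtain ⟨h1, h2⟩ := lam_invariant_inv htu
  rw [h1, h2]
  linear_combination (u ^ 6) * h

/-- `1 - t` satisfies the same equation as `t` (Legendre). -/
theorem lam_eq_one_sub (j : R) (t : S)
    (h : 256 * (t ^ 2 - t + 1) ^ 3 = algebraMap R S j * (t ^ 2 - t) ^ 2) :
    256 * ((1 - t) ^ 2 - (1 - t) + 1) ^ 3 = algebraMap R S j * ((1 - t) ^ 2 - (1 - t)) ^ 2 := by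
  obtain ⟨h1, h2⟩ := lam_invariant_one_sub t
  rw [h1, h2, h]

/-- `1 / t` satisfies the same equation as `t` (Legendre). -/
theorem lam_eq_inv (j : R) (t u : S) (htu : t * u = 1)
    (h : 256 * (t ^ 2 - t + 1) ^ 3 = algebraMap R S j * (t ^ 2 - t) ^ 2) :
    256 * (u ^ 2 - u + 1) ^ 3 = algebraMap R S j * (u ^ 2 - u) ^ 2 := by
  obtain ⟨h1, h2⟩ := lam_invariant_inv htu
  rw [h1, h2]
  linear_combination (u ^ 6) * h

/-- `1 / (t (t - 1))` is integral over any ring containing `j` in which `2` is invertible. -/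
theorem lam_isIntegral_inv_den (j c : R) (hc : c * 256 = 1) (t s : S) (hts : (t ^ 2 - t) * s = 1)
    (h : 256 * (t ^ 2 - t + 1) ^ 3 = algebraMap R S j * (t ^ 2 - t) ^ 2) : IsIntegral R s := by
  have hmon : (X ^ 3 + (C (c * 768) * X ^ 2 + C (c * (768 - j)) * X + C (c * 256)) : R[X]).Monic := by
    nontriviality R
    monicity!
  refine ⟨_, hmon, ?_⟩
  have hc' : algebraMap R S c * 256 = 1 := by
    have := congrArg (algebraMap R S) hc
    simpa [map_mul, map_ofNat] using this
  rw [← aeval_def]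
  simp only [map_add, map_mul, map_pow, aeval_X, aeval_C, map_sub, map_ofNat]
  have key : 256 * (1 + s) ^ 3 = algebraMap R S j * s := by
    have e1 : (t ^ 2 - t + 1) * s = 1 + s := by linear_combination hts
    have e2 : (t ^ 2 - t) ^ 2 * s ^ 3 = s := by
      linear_combination (s * ((t ^ 2 - t) * s) + s) * hts
    calc 256 * (1 + s) ^ 3 = 256 * ((t ^ 2 - t + 1) * s) ^ 3 := by rw [e1]
      _ = (256 * (t ^ 2 - t + 1) ^ 3) * s ^ 3 := by ring
      _ = algebraMap R S j * ((t ^ 2 - t) ^ 2 * s ^ 3) := by rw [h]; ring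
      _ = algebraMap R S j * s := by rw [e2]
  linear_combination (algebraMap R S c) * key + (s ^ 3) * (-hc')

end Integrality


section IntegralityMu

variable {R : Type*} [CommRing R] {S : Type*} [CommRing S] [Algebra R S]

/-- `t` is integral over any ring containing `j` in which `3` is invertible (Hesse). -/
theorem mu_isIntegral (j c : R) (hc : c * 27 = 1) (t : S)
    (h : 27 * (t * (t ^ 3 + 8)) ^ 3 = algebraMap R S j * (t ^ 3 - 1) ^ 3) : IsIntegral R t := by
  refine ⟨C c * muP R j, muP_scaled_monic j c hc, ?_⟩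
  rw [← aeval_def, map_mul, aeval_muP, h, sub_self, mul_zero]

/-- `w t` satisfies the same equation as `t` when `w ^ 3 = 1` (Hesse). -/
theorem mu_eq_smul (j : R) (t w : S) (hw : w ^ 3 = 1)
    (h : 27 * (t * (t ^ 3 + 8)) ^ 3 = algebraMap R S j * (t ^ 3 - 1) ^ 3) :
    27 * (w * t * ((w * t) ^ 3 + 8)) ^ 3 = algebraMap R S j * ((w * t) ^ 3 - 1) ^ 3 := by
  have e : (w * t) ^ 3 = t ^ 3 := by rw [mul_pow, hw, one_mul]
  rw [e, mul_pow (w * t), mul_pow w t, hw, one_mul, ← mul_pow]
  exact h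

/-- The Moebius map `t -> (t + 2) / (t - 1)` preserves the Hesse equation: if `(t - 1) d = 1` and
`y = (t + 2) d` then `y` satisfies the same equation as `t`. -/
theorem mu_eq_moebius (j : R) (t d : S) (hd : (t - 1) * d = 1)
    (h : 27 * (t * (t ^ 3 + 8)) ^ 3 = algebraMap R S j * (t ^ 3 - 1) ^ 3) :
    27 * ((t + 2) * d * (((t + 2) * d) ^ 3 + 8)) ^ 3
      = algebraMap R S j * (((t + 2) * d) ^ 3 - 1) ^ 3 := by
  have e1 : ((t + 2) * d) ^ 3 - 1 = 9 * (t ^ 2 + t + 1) * d ^ 3 := by
    linear_combination ((d * (t - 1)) ^ 2 + d * (t - 1) + 1) * hd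
  have e2 : ((t + 2) * d) ^ 3 + 8 = 9 * t * (t ^ 2 - 2 * t + 4) * d ^ 3 := by
    linear_combination (-8 * ((d * (t - 1)) ^ 2 + d * (t - 1) + 1)) * hd
  rw [e1, e2]
  have e3 : (t ^ 2 + t + 1) * d ^ 3 * (t - 1) ^ 3 = t ^ 2 + t + 1 := by
    linear_combination ((t ^ 2 + t + 1) * ((d * (t - 1)) ^ 2 + d * (t - 1) + 1)) * hd
  have key : 27 * ((t + 2) * d * (9 * t * (t ^ 2 - 2 * t + 4) * d ^ 3)) ^ 3
      = 729 * d ^ 12 * (27 * (t * (t ^ 3 + 8)) ^ 3) := by ring
  have key2 : (9 * (t ^ 2 + t + 1) * d ^ 3) ^ 3 = 729 * d ^ 12 * (t ^ 3 - 1) ^ 3 := by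
    have : (t ^ 2 + t + 1) ^ 3 * d ^ 9 = d ^ 12 * (t ^ 3 - 1) ^ 3 := by
      have h3 : d ^ 3 * (t - 1) ^ 3 = 1 := by
        linear_combination ((d * (t - 1)) ^ 2 + d * (t - 1) + 1) * hd
      calc (t ^ 2 + t + 1) ^ 3 * d ^ 9
          = (t ^ 2 + t + 1) ^ 3 * d ^ 9 * (d ^ 3 * (t - 1) ^ 3) := by rw [h3, mul_one]
        _ = d ^ 12 * (t ^ 3 - 1) ^ 3 := by ring
    calc (9 * (t ^ 2 + t + 1) * d ^ 3) ^ 3 = 729 * ((t ^ 2 + t + 1) ^ 3 * d ^ 9) := by ring
      _ = 729 * d ^ 12 * (t ^ 3 - 1) ^ 3 := by rw [this]; ring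
  rw [key, key2, h]
  ring

/-- `1 / (t^3 - 1)` is integral over any ring containing `j` in which `3` is invertible. -/
theorem mu_isIntegral_inv_den (j c : R) (hc : c * 27 = 1) (t s : S) (hts : (t ^ 3 - 1) * s = 1)
    (h : 27 * (t * (t ^ 3 + 8)) ^ 3 = algebraMap R S j * (t ^ 3 - 1) ^ 3) : IsIntegral R s := by
  have hmon : (X ^ 4 + (C (c ^ 3 * 26244) * X ^ 3 + C (c ^ 3 * 7290) * X ^ 2
      + C (c ^ 3 * (756 - j)) * X + C (c ^ 3 * 27)) : R[X]).Monic := by
    nontriviality R
    monicity!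
  refine ⟨_, hmon, ?_⟩
  have hc' : algebraMap R S c ^ 3 * 19683 = 1 := by
    have h1 : (c * 27) ^ 3 = 1 := by rw [hc, one_pow]
    have := congrArg (algebraMap R S) h1
    simp only [map_mul, map_pow, map_ofNat, map_one] at this
    linear_combination this
  rw [← aeval_def]
  simp only [map_add, map_mul, map_pow, aeval_X, aeval_C, map_sub, map_ofNat]
  have key : 27 * (1 + s) * (1 + 9 * s) ^ 3 = algebraMap R S j * s := by
    have e1 : t ^ 3 * s = 1 + s := by linear_combination hts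
    have e2 : (t ^ 3 + 8) * s = 1 + 9 * s := by linear_combination hts
    have e3 : (t ^ 3 - 1) ^ 3 * s ^ 4 = s := by
      linear_combination (s * (((t ^ 3 - 1) * s) ^ 2 + (t ^ 3 - 1) * s + 1)) * hts
    calc 27 * (1 + s) * (1 + 9 * s) ^ 3 = 27 * (t ^ 3 * s) * ((t ^ 3 + 8) * s) ^ 3 := by
          rw [e1, e2]
      _ = (27 * (t * (t ^ 3 + 8)) ^ 3) * s ^ 4 := by ring
      _ = algebraMap R S j * ((t ^ 3 - 1) ^ 3 * s ^ 4) := by rw [h]; ring
      _ = algebraMap R S j * s := by rw [e3]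
  linear_combination (algebraMap R S c ^ 3) * key + (s ^ 4) * (-hc')

end IntegralityMu


section Roots

variable {D : Type*} [CommRing D]

theorem cube_root_one {w : D} (hw : w ^ 2 + w + 1 = 0) : w ^ 3 = 1 := by
  linear_combination (w - 1) * hw

/-- `a^3 + b^3 + c^3 - 3abc` is the norm form of `a + b w + c w^2`. -/
theorem norm_form_identity {w : D} (hw : w ^ 2 + w + 1 = 0) (a b c : D) :
    a ^ 3 + b ^ 3 + c ^ 3 - 3 * a * b * c
      = (a + b + c) * (a + w * b + w ^ 2 * c) * (a + w ^ 2 * b + w * c) := by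
  linear_combination (-w ^ 2 * a * b * c - w ^ 2 * b ^ 2 * c - w ^ 2 * b * c ^ 2 - w * a * b ^ 2
    + w * a * b * c - w * a * c ^ 2 - w * b ^ 3 - w * c ^ 3 - a ^ 2 * b - a ^ 2 * c
    - 3 * a * b * c + b ^ 3 + c ^ 3) * hw

theorem cube_sub_cube {w : D} (hw : w ^ 2 + w + 1 = 0) (y z : D) :
    y ^ 3 - z ^ 3 = (y - z) * (y - w * z) * (y - w ^ 2 * z) := by
  linear_combination (-w * y * z ^ 2 + w * z ^ 3 + y ^ 2 * z - z ^ 3) * hw

/-- The factor of the Hesse orbit identity attached to the point `a` of the orbit of `t`. -/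
theorem mu_phi_identity {w : D} (hw : w ^ 2 + w + 1 = 0) (u t : D) :
    (-(u + 8) + (u - 1) * t ^ 3) ^ 3 + (3 * (u - 4)) ^ 3 * t ^ 3
        + (-3 * (u + 2)) ^ 3 * (t ^ 3) ^ 2
        - 3 * (-(u + 8) + (u - 1) * t ^ 3) * (3 * (u - 4)) * (-3 * (u + 2)) * t ^ 3
      = ((t - 1) ^ 3 * u - (t + 2) ^ 3) * ((w * t - 1) ^ 3 * u - (w * t + 2) ^ 3)
          * ((w ^ 2 * t - 1) ^ 3 * u - (w ^ 2 * t + 2) ^ 3) := by
  have h3 := cube_root_one hw
  have key := norm_form_identity hw (-(u + 8) + (u - 1) * t ^ 3) (3 * (u - 4) * t)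
    (-3 * (u + 2) * t ^ 2)
  have e1 : (-(u + 8) + (u - 1) * t ^ 3) + 3 * (u - 4) * t + (-3 * (u + 2) * t ^ 2)
      = (t - 1) ^ 3 * u - (t + 2) ^ 3 := by ring
  have e2 : (-(u + 8) + (u - 1) * t ^ 3) + w * (3 * (u - 4) * t) + w ^ 2 * (-3 * (u + 2) * t ^ 2)
      = (w * t - 1) ^ 3 * u - (w * t + 2) ^ 3 := by
    linear_combination (-(u - 1) * t ^ 3) * h3
  have e3 : (-(u + 8) + (u - 1) * t ^ 3) + w ^ 2 * (3 * (u - 4) * t) + w * (-3 * (u + 2) * t ^ 2)
      = (w ^ 2 * t - 1) ^ 3 * u - (w ^ 2 * t + 2) ^ 3 := by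
    linear_combination (-(u - 1) * t ^ 3 * (w ^ 3 + 1) + 3 * (u + 2) * t ^ 2 * w) * h3
  rw [← e1, ← e2, ← e3, ← key]
  ring

variable [IsDomain D]

/-- **Roots of the Legendre polynomial.** If `t` and `x` lie over the same `j`, then `x` is one of
the six `S_3`-translates of `t` (written without denominators). -/
theorem lam_root_cases (h2 : (2 : D) ≠ 0) (j t x : D)
    (ht : 256 * (t ^ 2 - t + 1) ^ 3 = j * (t ^ 2 - t) ^ 2)
    (hx : 256 * (x ^ 2 - x + 1) ^ 3 = j * (x ^ 2 - x) ^ 2) :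
    x = t ∨ x = 1 - t ∨ t * x = 1 ∨ (1 - t) * x = 1 ∨ t * x = t - 1 ∨ (1 - t) * x = -t := by
  have h256 : (256 : D) ≠ 0 := by
    have : (256 : D) = 2 ^ 8 := by norm_num
    rw [this]; exact pow_ne_zero _ h2
  have key := lam_orbit_identity x t
  have hz : 256 * (x ^ 2 - x + 1) ^ 3 * (t ^ 2 - t) ^ 2
      - 256 * (t ^ 2 - t + 1) ^ 3 * (x ^ 2 - x) ^ 2 = 0 := by
    rw [ht, hx]; ring
  rw [hz] at key
  have key' := key.symm
  simp only [mul_eq_zero, h256, false_or] at key'
  rcases key' with ((((h | h) | h) | h) | h) | h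
  · exact Or.inl (sub_eq_zero.mp h)
  · exact Or.inr (Or.inl (by linear_combination h))
  · exact Or.inr (Or.inr (Or.inl (by linear_combination h)))
  · exact Or.inr (Or.inr (Or.inr (Or.inl (by linear_combination h))))
  · exact Or.inr (Or.inr (Or.inr (Or.inr (Or.inl (by linear_combination h)))))
  · exact Or.inr (Or.inr (Or.inr (Or.inr (Or.inr (by linear_combination h)))))

theorem lam_den_ne_zero (h2 : (2 : D) ≠ 0) (j t : D)
    (ht : 256 * (t ^ 2 - t + 1) ^ 3 = j * (t ^ 2 - t) ^ 2) : t ^ 2 - t ≠ 0 := by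
  intro h
  rw [h] at ht
  have h256 : (256 : D) ≠ 0 := by
    have : (256 : D) = 2 ^ 8 := by norm_num
    rw [this]; exact pow_ne_zero _ h2
  have : (256 : D) = 0 := by linear_combination ht
  exact h256 this

theorem cube_eq_cube_cases {w : D} (hw : w ^ 2 + w + 1 = 0) {y z : D} (h : y ^ 3 = z ^ 3) :
    y = z ∨ y = w * z ∨ y = w ^ 2 * z := by
  have key := cube_sub_cube hw y z
  rw [h, sub_self] at key
  have key' := key.symm
  simp only [mul_eq_zero] at key'
  rcases key' with (h | h) | h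
  · exact Or.inl (sub_eq_zero.mp h)
  · exact Or.inr (Or.inl (sub_eq_zero.mp h))
  · exact Or.inr (Or.inr (sub_eq_zero.mp h))

/-- **Roots of the Hesse polynomial.** If `t` and `x` lie over the same `j`, then `x` is one of
the twelve `A_4`-translates of `t`: either `x^3 = t^3`, or `((a - 1) x)^3 = (a + 2)^3` for one of
`a = t, w t, w^2 t`. -/
theorem mu_root_cases (h3 : (3 : D) ≠ 0) {w : D} (hw : w ^ 2 + w + 1 = 0) (j t x : D)
    (ht : 27 * (t * (t ^ 3 + 8)) ^ 3 = j * (t ^ 3 - 1) ^ 3)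
    (hx : 27 * (x * (x ^ 3 + 8)) ^ 3 = j * (x ^ 3 - 1) ^ 3) :
    x ^ 3 = t ^ 3 ∨ ((t - 1) * x) ^ 3 = (t + 2) ^ 3 ∨ ((w * t - 1) * x) ^ 3 = (w * t + 2) ^ 3
      ∨ ((w ^ 2 * t - 1) * x) ^ 3 = (w ^ 2 * t + 2) ^ 3 := by
  have h27 : (27 : D) ≠ 0 := by
    have : (27 : D) = 3 ^ 3 := by norm_num
    rw [this]; exact pow_ne_zero _ h3
  have key := mu_orbit_identity_cubes (x ^ 3) (t ^ 3)
  have hz : 27 * (x ^ 3 * (x ^ 3 + 8) ^ 3 * (t ^ 3 - 1) ^ 3
      - t ^ 3 * (t ^ 3 + 8) ^ 3 * (x ^ 3 - 1) ^ 3) = 0 := by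
    have e1 : 27 * (x ^ 3 * (x ^ 3 + 8) ^ 3) = j * (x ^ 3 - 1) ^ 3 := by rw [← hx]; ring
    have e2 : 27 * (t ^ 3 * (t ^ 3 + 8) ^ 3) = j * (t ^ 3 - 1) ^ 3 := by rw [← ht]; ring
    linear_combination ((t ^ 3 - 1) ^ 3) * e1 - ((x ^ 3 - 1) ^ 3) * e2
  rw [hz, mu_phi_identity hw] at key
  have key' := key.symm
  simp only [mul_eq_zero, h27, false_or] at key'
  rcases key' with h | (h | h) | h
  · exact Or.inl (sub_eq_zero.mp h)
  · exact Or.inr (Or.inl (by linear_combination h))
  · exact Or.inr (Or.inr (Or.inl (by linear_combination h)))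
  · exact Or.inr (Or.inr (Or.inr (by linear_combination h)))

theorem mu_den_ne_zero (h3 : (3 : D) ≠ 0) (j t : D)
    (ht : 27 * (t * (t ^ 3 + 8)) ^ 3 = j * (t ^ 3 - 1) ^ 3) : t ^ 3 - 1 ≠ 0 := by
  intro h
  have h1 : t ^ 3 = 1 := sub_eq_zero.mp h
  have e : (t * (t ^ 3 + 8)) ^ 3 = 729 := by
    calc (t * (t ^ 3 + 8)) ^ 3 = t ^ 3 * (t ^ 3 + 8) ^ 3 := by ring
      _ = 729 := by rw [h1]; norm_num
  rw [h, e] at ht
  have h27 : (3 : D) ^ 9 ≠ 0 := pow_ne_zero _ h3
  apply h27
  linear_combination ht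

end Roots

end Fermat.Agent.S18_helper29_COVERS
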