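import Mathlib
import Fermat.Agent.S18_helper4_B6

/-!
# S18, block B: the conclusion of X-B6-PUR from a basis with unit discriminant

`R` a local domain with maximal ideal `(π, τ)`, `π` prime, `τ` not nilpotent modulo `π`;
`B` a finite free `R`-algebra with basis `b` and unit discriminant. Then at every maximal ideal
`M` of `B`: `M B_M = (π, τ) B_M` (elementwise) and `π ∤ s τⁿ` for `s ∉ M`.
This is exactly the conclusion of `S18B_purity_local` (block-B interface, board #782 (1)).
-/

set_option autoImplicit false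

namespace Fermat.Agent.S18_helper4_B6PUR

open IsLocalRing Fermat.Agent.S18_helper4_B6

variable {R B ι : Type*} [CommRing R] [IsLocalRing R] [CommRing B] [Algebra R B]
  [Module.Free R B] [Module.Finite R B] [Fintype ι] [DecidableEq ι]

/-- First half: `M B_M = (π, τ) B_M`, elementwise. -/
theorem S18B6_exists_mul_eq_pair (b : Module.Basis ι R B) (hdisc : IsUnit (Algebra.discr R b))
    (π τ : R) (hn : maximalIdeal R = Ideal.span {π, τ}) (M : Ideal B) [M.IsMaximal]
    (x : B) (hx : x ∈ M) :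
    ∃ s, s ∉ M ∧ ∃ a c : B, s * x = a * algebraMap R B π + c * algebraMap R B τ := by
  obtain ⟨s, hs, hsx⟩ := S18B6_exists_mul_mem b hdisc M x hx
  refine ⟨s, hs, ?_⟩
  rw [hn, Ideal.map_span, Set.image_pair, Ideal.mem_span_pair] at hsx
  obtain ⟨a, c, hac⟩ := hsx
  exact ⟨a, c, hac.symm⟩

omit [IsLocalRing R] [Module.Free R B] [Module.Finite R B] [DecidableEq ι] in
/-- Divisibility by a prime element of `R` in a free `R`-algebra can be tested on coordinates. -/
theorem S18B6_dvd_of_dvd_mul_pow (b : Module.Basis ι R B) (π τ : R) (hπ : Prime π)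
    (hτ : ∀ n : ℕ, ¬ π ∣ τ ^ n) (n : ℕ) (s : B)
    (h : algebraMap R B π ∣ s * algebraMap R B τ ^ n) : algebraMap R B π ∣ s := by
  obtain ⟨c, hc⟩ := h
  have hcoord : ∀ i, π ∣ b.repr s i := by
    intro i
    have h1 := congrArg (fun v => b.repr v i) hc
    have e1 : s * algebraMap R B τ ^ n = (τ ^ n) • s := by
      rw [Algebra.smul_def, map_pow, mul_comm]
    have e2 : algebraMap R B π * c = π • c := by rw [Algebra.smul_def]
    simp only [e1, e2, map_smul, Finsupp.smul_apply, smul_eq_mul] at h1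
    have h2 : π ∣ τ ^ n * b.repr s i := ⟨_, h1⟩
    rcases hπ.dvd_or_dvd h2 with h3 | h3
    · exact absurd h3 (hτ n)
    · exact h3
  choose d hd using hcoord
  refine ⟨∑ i, d i • b i, ?_⟩
  rw [← Algebra.smul_def, Finset.smul_sum]
  conv_lhs => rw [← b.sum_repr s]
  refine Finset.sum_congr rfl fun i _ => ?_
  rw [smul_smul, ← hd i]

/-- The conclusion of `S18B_purity_local` from a basis with unit discriminant. -/
theorem S18B6_purity_of_discr (b : Module.Basis ι R B) (hdisc : IsUnit (Algebra.discr R b))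
    (π τ : R) (hπ : Prime π) (hn : maximalIdeal R = Ideal.span {π, τ})
    (hτ : ∀ n : ℕ, ¬ π ∣ τ ^ n) :
    ∀ M : Ideal B, M.IsMaximal →
      (∀ x ∈ M, ∃ s, s ∉ M ∧ ∃ a c : B, s * x = a * algebraMap R B π + c * algebraMap R B τ) ∧
      ∀ (n : ℕ) (s : B), s ∉ M → ¬ algebraMap R B π ∣ s * algebraMap R B τ ^ n := by
  intro M hM
  refine ⟨fun x hx => S18B6_exists_mul_eq_pair b hdisc π τ hn M x hx, ?_⟩
  intro n s hs hdvd
  obtain ⟨c, hc⟩ := S18B6_dvd_of_dvd_mul_pow b π τ hπ hτ n s hdvd
  apply hs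
  rw [hc]
  refine M.mul_mem_right c (S18B6_algebraMap_mem M π ?_)
  rw [hn]
  exact Ideal.subset_span (Set.mem_insert _ _)

end Fermat.Agent.S18_helper4_B6PUR
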