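import Mathlib
import Fermat.Prelude.Def_FLTPrelim_Ramification
import Fermat.Agent.S18_helper5_BASE

/-!
# S18, X-A1: the base discrete valuation ring, existential-over-types form

The output of `S18_helper5_BASE` repackaged so that after `obtain` the base field `K1` and the
base ring `O` are plain types (no subtypes of `ℚ̄`).
-/

set_option autoImplicit false

namespace Fermat.Agent.S18_helper5_BASE

local notation "Qb" => AlgebraicClosure ℚ

/-- **X-A1, existential-over-types form.**  For every finite set `S ⊆ ℚ̄` there are a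
characteristic zero field `K1` with an embedding `e : K1 → ℚ̄` whose range contains `S` and all
roots of unity of order prime to `ℓ`, and a discrete valuation ring `O` with fraction field `K1`,
equal to `e ⁻¹ A`, whose residue map `rho` to the residue field of `A` is surjective with kernel
the maximal ideal. -/
theorem exists_baseDVR_types (ℓ : ℕ) (hℓ : ℓ.Prime) (A : ValuationSubring Qb)
    (hA : A.LiesOverPrime ℓ) (S : Finset Qb) :
    ∃ (K1 : Type) (_ : Field K1) (_ : CharZero K1) (e : K1 →+* Qb) (O : Type)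
      (_ : CommRing O) (_ : IsDomain O) (_ : IsDiscreteValuationRing O) (_ : Algebra O K1)
      (_ : IsFractionRing O K1) (rho : O →+* IsLocalRing.ResidueField A),
      (∀ s ∈ S, s ∈ e.range) ∧
      (∀ n : ℕ, ¬ ℓ ∣ n → ∀ ζ : Qb, ζ ^ n = 1 → ζ ∈ e.range) ∧
      (∀ x : K1, e x ∈ A ↔ x ∈ (algebraMap O K1).range) ∧
      (∀ (a : O) (h : e (algebraMap O K1 a) ∈ A),
        rho a = IsLocalRing.residue A ⟨e (algebraMap O K1 a), h⟩) ∧
      Function.Surjective rho ∧
      (∀ x, rho x = 0 ↔ x ∈ IsLocalRing.maximalIdeal O) := by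
  refine ⟨↥(S18A1_K1 ℓ S), inferInstance, inferInstance, algebraMap (S18A1_K1 ℓ S) Qb,
    ↥(S18A1_O1 A ℓ S), inferInstance, inferInstance, S18A1_isDVR A hℓ hA S, inferInstance,
    inferInstance, S18A1_res A ℓ S, ?_, ?_, ?_, ?_, S18A1_res_surjective A hℓ hA S,
    S18A1_res_eq_zero_iff A S⟩
  · intro s hs
    exact ⟨⟨s, S18A1_mem_K1_of_mem ℓ S hs⟩, rfl⟩
  · intro n hn ζ hζ
    exact ⟨⟨ζ, S18A1_root_mem_K1 ℓ S hn hζ⟩, rfl⟩
  · intro x
    constructor
    · intro hx
      exact ⟨⟨x, hx⟩, rfl⟩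
    · rintro ⟨y, rfl⟩
      exact y.2
  · intro a h
    rfl

/-- The same with an explicit uniformiser: `π : O` irreducible, generating the maximal ideal. -/
theorem exists_baseDVR_types_unif (ℓ : ℕ) (hℓ : ℓ.Prime) (A : ValuationSubring Qb)
    (hA : A.LiesOverPrime ℓ) (S : Finset Qb) :
    ∃ (K1 : Type) (_ : Field K1) (_ : CharZero K1) (e : K1 →+* Qb) (O : Type)
      (_ : CommRing O) (_ : IsDomain O) (_ : IsDiscreteValuationRing O) (_ : Algebra O K1)
      (_ : IsFractionRing O K1) (rho : O →+* IsLocalRing.ResidueField A) (π : O),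
      (∀ s ∈ S, s ∈ e.range) ∧
      (∀ n : ℕ, ¬ ℓ ∣ n → ∀ ζ : Qb, ζ ^ n = 1 → ζ ∈ e.range) ∧
      (∀ x : K1, e x ∈ A ↔ x ∈ (algebraMap O K1).range) ∧
      (∀ (a : O) (h : e (algebraMap O K1 a) ∈ A),
        rho a = IsLocalRing.residue A ⟨e (algebraMap O K1 a), h⟩) ∧
      Function.Surjective rho ∧
      (∀ x, rho x = 0 ↔ x ∈ IsLocalRing.maximalIdeal O) ∧
      Irreducible π ∧ IsLocalRing.maximalIdeal O = Ideal.span {π} ∧
      (∀ n : ℕ, ¬ ℓ ∣ n → IsUnit ((n : ℕ) : O)) ∧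
      CharP (IsLocalRing.ResidueField A) ℓ := by
  obtain ⟨π, hπ⟩ := S18A1_exists_isUnif A hℓ hA S
  refine ⟨↥(S18A1_K1 ℓ S), inferInstance, inferInstance, algebraMap (S18A1_K1 ℓ S) Qb,
    ↥(S18A1_O1 A ℓ S), inferInstance, inferInstance, S18A1_isDVR A hℓ hA S, inferInstance,
    inferInstance, S18A1_res A ℓ S, S18A1_piO1 A S hπ, ?_, ?_, ?_, ?_,
    S18A1_res_surjective A hℓ hA S, S18A1_res_eq_zero_iff A S,
    S18A1_piO1_irreducible A hℓ hA S hπ, S18A1_maximalIdeal_eq A hℓ hA S hπ,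
    fun n hn => S18A1_isUnit_natCast A hℓ hA S n hn, S18A1_charP_residue A hℓ hA⟩
  · intro s hs
    exact ⟨⟨s, S18A1_mem_K1_of_mem ℓ S hs⟩, rfl⟩
  · intro n hn ζ hζ
    exact ⟨⟨ζ, S18A1_root_mem_K1 ℓ S hn hζ⟩, rfl⟩
  · intro x
    constructor
    · intro hx
      exact ⟨⟨x, hx⟩, rfl⟩
    · rintro ⟨y, rfl⟩
      exact y.2
  · intro a h
    rfl

end Fermat.Agent.S18_helper5_BASE
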