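import Mathlib

/-!
# S18, block B, piece X-B7 (abstract form): the norm trick gives `[IG]`

Let `H` be a finite group acting faithfully on a domain `B`, finite over `A = B^H`, let `m` be a
maximal ideal of `A` containing `π`, and suppose that every maximal ideal `Q` of `B` over `m` has
residue field `A/m` (infinite) and is generated, locally at `Q`, by `π` and one more element.
Then `m` is generated, locally at `m`, by `π` and one element `y` (the norm of a suitable local
parameter): `S18B7_IG_of_cover`.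

The proof is a direct counting argument: no special fibre, no Dedekind domains.
-/

namespace Fermat.Agent.S18_helper7_B7

open Polynomial
open scoped Pointwise

section LocMem

variable {B : Type*} [CommRing B]

/-- `z ∈ I B_Q`, elementwise: some `t ∉ Q` multiplies `z` into `I`. -/
def S18B7_LocMem (Q I : Ideal B) (z : B) : Prop := ∃ t : B, t ∉ Q ∧ t * z ∈ I

theorem S18B7_locMem_of_mem {Q I : Ideal B} (hQ : Q ≠ ⊤) {z : B} (hz : z ∈ I) :
    S18B7_LocMem Q I z :=
  ⟨1, (Ideal.ne_top_iff_one Q).mp hQ, by simpa using hz⟩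

theorem S18B7_locMem_add {Q I : Ideal B} (hQ : Q.IsPrime) {z w : B}
    (hz : S18B7_LocMem Q I z) (hw : S18B7_LocMem Q I w) : S18B7_LocMem Q I (z + w) := by
  obtain ⟨t, ht, hz⟩ := hz
  obtain ⟨t', ht', hw⟩ := hw
  refine ⟨t * t', fun h => (hQ.mem_or_mem h).elim ht ht', ?_⟩
  have : t * t' * (z + w) = t' * (t * z) + t * (t' * w) := by ring
  rw [this]
  exact I.add_mem (I.mul_mem_left _ hz) (I.mul_mem_left _ hw)

theorem S18B7_locMem_mul_left {Q I : Ideal B} (c : B) {z : B}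
    (hz : S18B7_LocMem Q I z) : S18B7_LocMem Q I (c * z) := by
  obtain ⟨t, ht, hz⟩ := hz
  refine ⟨t, ht, ?_⟩
  have : t * (c * z) = c * (t * z) := by ring
  rw [this]
  exact I.mul_mem_left _ hz

theorem S18B7_locMem_mono {Q I J : Ideal B} (h : I ≤ J) {z : B}
    (hz : S18B7_LocMem Q I z) : S18B7_LocMem Q J z := by
  obtain ⟨t, ht, hz⟩ := hz
  exact ⟨t, ht, h hz⟩

theorem S18B7_locMem_of_mul {Q I : Ideal B} (hQ : Q.IsPrime) {t z : B} (ht : t ∉ Q)
    (h : S18B7_LocMem Q I (t * z)) : S18B7_LocMem Q I z := by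
  obtain ⟨t', ht', hz⟩ := h
  refine ⟨t' * t, fun h => (hQ.mem_or_mem h).elim ht' ht, ?_⟩
  rwa [mul_assoc]

theorem S18B7_mem_of_locMem_le {Q I : Ideal B} (hQ : Q.IsPrime) (hI : I ≤ Q) {z : B}
    (h : S18B7_LocMem Q I z) : z ∈ Q := by
  obtain ⟨t, ht, hz⟩ := h
  exact (hQ.mem_or_mem (hI hz)).resolve_left ht

/-- Transitivity through a pair of generators. -/
theorem S18B7_locMem_pair_trans {Q J : Ideal B} (hQ : Q.IsPrime) {p w z : B}
    (hz : S18B7_LocMem Q (Ideal.span {p, w}) z) (hp : S18B7_LocMem Q J p)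
    (hw : S18B7_LocMem Q J w) : S18B7_LocMem Q J z := by
  obtain ⟨t, ht, hz⟩ := hz
  obtain ⟨c, d, hcd⟩ := Ideal.mem_span_pair.mp hz
  apply S18B7_locMem_of_mul hQ ht
  rw [← hcd]
  exact S18B7_locMem_add hQ (S18B7_locMem_mul_left c hp) (S18B7_locMem_mul_left d hw)

theorem S18B7_pair_pow_mem (p w c d : B) (a : ℕ) :
    (c * p + d * w) ^ a ∈ Ideal.span {p, w ^ a} := by
  induction a with
  | zero =>
    rw [pow_zero, pow_zero]
    exact Ideal.subset_span (by simp)
  | succ a ih =>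
    obtain ⟨c', d', h⟩ := Ideal.mem_span_pair.mp ih
    refine Ideal.mem_span_pair.mpr ⟨c' * (c * p + d * w) + d' * w ^ a * c, d' * d, ?_⟩
    rw [pow_succ (c * p + d * w), ← h]
    ring

theorem S18B7_locMem_pow {Q : Ideal B} (hQ : Q.IsPrime) {p w z : B}
    (hz : S18B7_LocMem Q (Ideal.span {p, w}) z) (a : ℕ) :
    S18B7_LocMem Q (Ideal.span {p, w ^ a}) (z ^ a) := by
  obtain ⟨t, ht, hz⟩ := hz
  obtain ⟨c, d, hcd⟩ := Ideal.mem_span_pair.mp hz
  refine ⟨t ^ a, fun h => ht (hQ.mem_of_pow_mem _ h), ?_⟩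
  rw [← mul_pow, ← hcd]
  exact S18B7_pair_pow_mem p w c d a

/-- A product of elements of the form `α p + β wᵢ` lies in `(p, ∏ wᵢ)`. -/
theorem S18B7_prod_pair_mem {ι : Type*} (s : Finset ι) (p : B) (α β w : ι → B) :
    ∏ i ∈ s, (α i * p + β i * w i) ∈ Ideal.span {p, ∏ i ∈ s, w i} := by
  classical
  induction s using Finset.induction_on with
  | empty =>
    rw [Finset.prod_empty, Finset.prod_empty]
    exact Ideal.subset_span (by simp)
  | insert i s hi ih =>
    obtain ⟨c', d', h⟩ := Ideal.mem_span_pair.mp ih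
    rw [Finset.prod_insert hi, Finset.prod_insert hi, ← h]
    refine Ideal.mem_span_pair.mpr
      ⟨α i * (c' * p + d' * ∏ i ∈ s, w i) + β i * w i * c', β i * d', ?_⟩
    ring

end LocMem


section Action

variable {A B H : Type*} [CommRing A] [CommRing B] [Algebra A B] [Group H]
  [MulSemiringAction H B] [SMulCommClass H A B]

theorem S18B7_smul_mem_map (m : Ideal A) (h : H) {z : B}
    (hz : z ∈ m.map (algebraMap A B)) : h • z ∈ m.map (algebraMap A B) := by
  have h1 := Ideal.mem_map_of_mem (MulSemiringAction.toRingHom H B h) hz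
  rw [Ideal.map_map] at h1
  have h2 : (MulSemiringAction.toRingHom H B h).comp (algebraMap A B) = algebraMap A B :=
    RingHom.ext fun a => smul_algebraMap h a
  rw [h2] at h1
  exact h1

theorem S18B7_locMem_smul_map (m : Ideal A) (h : H) {Q : Ideal B} {z : B}
    (hz : S18B7_LocMem Q (m.map (algebraMap A B)) z) :
    S18B7_LocMem (h • Q) (m.map (algebraMap A B)) (h • z) := by
  obtain ⟨t, ht, hz⟩ := hz
  refine ⟨h • t, fun h' => ht (Ideal.smul_mem_pointwise_smul_iff.mp h'), ?_⟩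
  rw [← smul_mul']
  exact S18B7_smul_mem_map m h hz

theorem S18B7_locMem_smul_pair (h : H) {Q : Ideal B} {p w z : B}
    (hz : S18B7_LocMem Q (Ideal.span {p, w}) z) :
    S18B7_LocMem (h • Q) (Ideal.span {h • p, h • w}) (h • z) := by
  obtain ⟨t, ht, hz⟩ := hz
  obtain ⟨c, d, hcd⟩ := Ideal.mem_span_pair.mp hz
  refine ⟨h • t, fun h' => ht (Ideal.smul_mem_pointwise_smul_iff.mp h'), ?_⟩
  rw [← smul_mul', ← hcd, smul_add, smul_mul', smul_mul']
  exact Ideal.mem_span_pair.mpr ⟨_, _, rfl⟩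

/-- Local-global principle for ideals containing `m B`: membership can be tested locally at the
maximal ideals of `B` lying over `m`. -/
theorem S18B7_mem_of_forall_locMem (m : Ideal A) [hm : m.IsMaximal] (I : Ideal B)
    (hI : m.map (algebraMap A B) ≤ I) (z : B)
    (h : ∀ Q : Ideal B, Q.IsMaximal → Q.comap (algebraMap A B) = m → S18B7_LocMem Q I z) :
    z ∈ I := by
  by_contra hz
  let J : Ideal B := Submodule.comap (LinearMap.mulRight B z) I
  have hJmem : ∀ t : B, t ∈ J ↔ t * z ∈ I := fun t => Iff.rfl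
  have hJ : J ≠ ⊤ := by
    intro h1
    apply hz
    have : (1 : B) ∈ J := h1 ▸ Submodule.mem_top
    simpa [hJmem] using this
  obtain ⟨Q, hQmax, hJQ⟩ := Ideal.exists_le_maximal J hJ
  have hIJ : I ≤ J := fun i hi => (hJmem i).mpr (I.mul_mem_right _ hi)
  have hmQ : m ≤ Q.comap (algebraMap A B) := by
    intro a ha
    rw [Ideal.mem_comap]
    exact hJQ (hIJ (hI (Ideal.mem_map_of_mem _ ha)))
  have hQm : Q.comap (algebraMap A B) = m :=
    (hm.eq_of_le (Ideal.comap_ne_top _ hQmax.ne_top) hmQ).symm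
  obtain ⟨t, ht, htz⟩ := h Q hQmax hQm
  exact ht (hJQ ((hJmem t).mpr htz))

end Action


section Conjugates

variable {A B H : Type*} [CommRing A] [CommRing B] [Algebra A B] [Group H]
  [MulSemiringAction H B] [SMulCommClass H A B]

theorem S18B7_smul_aeval (h : H) (b0 : B) (f : A[X]) :
    h • (aeval b0 f) = aeval (h • b0) f :=
  (aeval_algHom_apply (MulSemiringAction.toAlgHom A B h) b0 f).symm

/-- If `r B ⊆ A[b0]` with `r ≠ 0` then the conjugates `h • b0` are pairwise distinct. -/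
theorem S18B7_injective_smul [IsDomain B] [FaithfulSMul H B]
    (hinj : Function.Injective (algebraMap A B)) (r : A) (hr : r ≠ 0) (b0 : B)
    (hspan : ∀ z : B, ∃ f : A[X], algebraMap A B r * z = aeval b0 f) :
    Function.Injective (fun h : H => h • b0) := by
  intro h h' hh
  have hh' : h • b0 = h' • b0 := hh
  apply FaithfulSMul.eq_of_smul_eq_smul (α := B)
  intro z
  obtain ⟨f, hf⟩ := hspan z
  have hr' : algebraMap A B r ≠ 0 := fun h0 => hr (hinj (by rw [h0, map_zero]))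
  apply mul_left_cancel₀ hr'
  have e1 : algebraMap A B r * h • z = h • (algebraMap A B r * z) := by
    rw [smul_mul', smul_algebraMap]
  have e2 : algebraMap A B r * h' • z = h' • (algebraMap A B r * z) := by
    rw [smul_mul', smul_algebraMap]
  rw [e1, e2, hf, S18B7_smul_aeval, S18B7_smul_aeval, hh']

/-- If `r B ⊆ ∑_{i<n} A b0^i` with `r ≠ 0` then `|H| ≤ n`. -/
theorem S18B7_card_le [IsDomain B] [FaithfulSMul H B] [Fintype H]
    (hinj : Function.Injective (algebraMap A B)) (r : A) (hr : r ≠ 0) (b0 : B) (n : ℕ)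
    (hspan : ∀ z : B, ∃ f : A[X], f.degree < n ∧ algebraMap A B r * z = aeval b0 f) :
    Fintype.card H ≤ n := by
  classical
  have hinjH : Function.Injective (fun h : H => h • b0) :=
    S18B7_injective_smul hinj r hr b0 fun z => by
      obtain ⟨f, -, hf⟩ := hspan z
      exact ⟨f, hf⟩
  obtain ⟨f, hfdeg, hf⟩ := hspan (b0 ^ n)
  set F : A[X] := C r * X ^ n - f with hF
  have hdeg1 : (C r * X ^ n : A[X]).degree = n := degree_C_mul_X_pow n hr
  have hFdeg : F.degree = n := by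
    rw [hF, degree_sub_eq_left_of_degree_lt (by rw [hdeg1]; exact hfdeg), hdeg1]
  have hF0 : aeval b0 F = 0 := by
    rw [hF, map_sub, map_mul, aeval_C, map_pow, aeval_X, hf, sub_self]
  set G : B[X] := F.map (algebraMap A B) with hG
  have hGdeg : G.natDegree = n := by
    rw [hG, natDegree_map_eq_of_injective hinj]
    exact natDegree_eq_of_degree_eq_some hFdeg
  have hGne : G ≠ 0 := by
    intro h0
    have : F = 0 := by
      apply map_injective _ hinj
      rw [← hG, h0, Polynomial.map_zero]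
    rw [this, degree_zero] at hFdeg
    exact WithBot.bot_ne_natCast _ hFdeg
  have hroots : (Finset.univ.image fun h : H => h • b0).val ⊆ G.roots := by
    intro x hx
    rw [Finset.mem_val, Finset.mem_image] at hx
    obtain ⟨h, -, rfl⟩ := hx
    rw [mem_roots hGne, IsRoot.def, hG, eval_map, ← aeval_def, ← S18B7_smul_aeval, hF0,
      smul_zero]
  have := card_le_degree_of_subset_roots hroots
  rw [Finset.card_image_of_injective _ hinjH, hGdeg] at this
  simpa using this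

/-- If the conjugates of `b0` are distinct then `1, b0, …, b0^(|H|-1)` are linearly independent
over `A`. -/
theorem S18B7_eq_zero_of_aeval_eq_zero [IsDomain B] [Fintype H]
    (hinj : Function.Injective (algebraMap A B)) (b0 : B)
    (hb0 : Function.Injective (fun h : H => h • b0)) (f : A[X])
    (hdeg : f.natDegree < Fintype.card H) (hf : aeval b0 f = 0) : f = 0 := by
  apply map_injective _ hinj
  rw [Polynomial.map_zero]
  refine eq_zero_of_natDegree_lt_card_of_eval_eq_zero _ hb0 (fun h => ?_)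
    ((natDegree_map_le).trans_lt hdeg)
  rw [eval_map, ← aeval_def, ← S18B7_smul_aeval, hf, smul_zero]

end Conjugates


section Nakayama

variable {A B : Type*} [CommRing A] [CommRing B] [Algebra A B]

/-- Nakayama: if `B = ∑_{i<n} A b0^i + m B` then `r B ⊆ ∑_{i<n} A b0^i` for some `r ≡ 1 mod m`. -/
theorem S18B7_nakayama [Module.Finite A B] (m : Ideal A) (b0 : B) (n : ℕ)
    (h : ∀ z : B, ∃ f : A[X], f.degree < n ∧ z - aeval b0 f ∈ m.map (algebraMap A B)) :
    ∃ r : A, r - 1 ∈ m ∧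
      ∀ z : B, ∃ f : A[X], f.degree < n ∧ algebraMap A B r * z = aeval b0 f := by
  let N : Submodule A B := (Polynomial.degreeLT A n).map (aeval b0).toLinearMap
  have hsup : (⊤ : Submodule A B) ≤ N ⊔ m • (⊤ : Submodule A B) := by
    intro z _
    obtain ⟨f, hf, hz⟩ := h z
    have h1 : aeval b0 f ∈ N :=
      Submodule.mem_map.mpr ⟨f, Polynomial.mem_degreeLT.mpr hf, rfl⟩
    have h2 : z - aeval b0 f ∈ m • (⊤ : Submodule A B) := by
      rw [Ideal.smul_top_eq_map]
      exact hz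
    have : z = aeval b0 f + (z - aeval b0 f) := by ring
    rw [this]
    exact Submodule.add_mem_sup h1 h2
  obtain ⟨r, hr, hle⟩ := Submodule.exists_sub_one_mem_and_smul_le_of_fg_of_le_sup
    (I := m) (N := N) (N' := ⊤) (P := ⊤) Module.Finite.fg_top le_rfl hsup
  refine ⟨r, hr, fun z => ?_⟩
  have hz : r • z ∈ r • (⊤ : Submodule A B) :=
    Submodule.smul_mem_pointwise_smul z r ⊤ Submodule.mem_top
  obtain ⟨f, hf, hfz⟩ := Submodule.mem_map.mp (hle hz)
  refine ⟨f, Polynomial.mem_degreeLT.mp hf, ?_⟩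
  rw [← Algebra.smul_def]
  exact hfz.symm

theorem S18B7_aeval_sub_mem (Q : Ideal B) (b0 : B) (c : A)
    (h : b0 - algebraMap A B c ∈ Q) (f : A[X]) :
    aeval b0 f - algebraMap A B (f.eval c) ∈ Q := by
  obtain ⟨q, hq⟩ := X_sub_C_dvd_sub_C_eval (a := c) (p := f)
  have := congrArg (aeval b0) hq
  rw [map_sub, map_mul, map_sub, aeval_X, aeval_C, aeval_C] at this
  rw [this]
  exact Q.mul_mem_right _ h

end Nakayama


section Counting

variable {A B : Type*} [CommRing A] [CommRing B] [Algebra A B]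

/-- The data of the counting argument: `Qs` is the set of maximal ideals of `B` over `m`,
`b0 - c Q` is a local parameter at `Q` modulo `π`, the `c Q` are pairwise distinct modulo `m`,
and the residue fields of `B` at the `Q ∈ Qs` are `A / m`. -/
structure S18B7_Data (m : Ideal A) (π : A) (Qs : Finset (Ideal B)) (c : Ideal B → A)
    (b0 : B) : Prop where
  hmax : m.IsMaximal
  hQs : ∀ Q : Ideal B, Q ∈ Qs ↔ Q.IsMaximal ∧ Q.comap (algebraMap A B) = m
  hπ : π ∈ m
  hc : ∀ Q ∈ Qs, ∀ Q' ∈ Qs, Q ≠ Q' → c Q - c Q' ∉ m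
  hb0 : ∀ Q ∈ Qs, b0 - algebraMap A B (c Q) ∈ Q
  hgen : ∀ Q ∈ Qs, ∀ z ∈ Q,
    S18B7_LocMem Q (Ideal.span {algebraMap A B π, b0 - algebraMap A B (c Q)}) z
  hres : ∀ Q ∈ Qs, ∀ b : B, ∃ a : A, b - algebraMap A B a ∈ Q

/-- `∏_{Q ∈ Qs} (b0 - c Q)`. -/
def S18B7_pb (Qs : Finset (Ideal B)) (c : Ideal B → A) (b0 : B) : B :=
  ∏ Q ∈ Qs, (b0 - algebraMap A B (c Q))

/-- `∏_{Q ∈ Qs} (X - c Q)`. -/
noncomputable def S18B7_pp (Qs : Finset (Ideal B)) (c : Ideal B → A) : A[X] :=
  ∏ Q ∈ Qs, (X - C (c Q))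

theorem S18B7_aeval_pp (Qs : Finset (Ideal B)) (c : Ideal B → A) (b0 : B) :
    aeval b0 (S18B7_pp Qs c) = S18B7_pb Qs c b0 := by
  simp [S18B7_pp, S18B7_pb, map_prod]

omit [Algebra A B] in
theorem S18B7_monic_pp (Qs : Finset (Ideal B)) (c : Ideal B → A) : (S18B7_pp Qs c).Monic :=
  monic_prod_of_monic _ _ fun _ _ => monic_X_sub_C _

omit [Algebra A B] in
theorem S18B7_natDegree_pp [Nontrivial A] (Qs : Finset (Ideal B)) (c : Ideal B → A) :
    (S18B7_pp Qs c).natDegree = Qs.card := by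
  rw [S18B7_pp, natDegree_prod_of_monic _ _ fun _ _ => monic_X_sub_C _]
  simp

namespace S18B7_Data

variable {m : Ideal A} {π : A} {Qs : Finset (Ideal B)} {c : Ideal B → A} {b0 : B}

theorem isMaximal (D : S18B7_Data m π Qs c b0) {Q : Ideal B} (hQ : Q ∈ Qs) : Q.IsMaximal :=
  ((D.hQs Q).mp hQ).1

theorem isPrime (D : S18B7_Data m π Qs c b0) {Q : Ideal B} (hQ : Q ∈ Qs) : Q.IsPrime :=
  (D.isMaximal hQ).isPrime

theorem comap_eq (D : S18B7_Data m π Qs c b0) {Q : Ideal B} (hQ : Q ∈ Qs) :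
    Q.comap (algebraMap A B) = m :=
  ((D.hQs Q).mp hQ).2

theorem map_le (D : S18B7_Data m π Qs c b0) {Q : Ideal B} (hQ : Q ∈ Qs) :
    m.map (algebraMap A B) ≤ Q :=
  Ideal.map_le_iff_le_comap.mpr (D.comap_eq hQ).ge

theorem algebraMap_mem_iff (D : S18B7_Data m π Qs c b0) {Q : Ideal B} (hQ : Q ∈ Qs) (a : A) :
    algebraMap A B a ∈ Q ↔ a ∈ m := by
  rw [← D.comap_eq hQ, Ideal.mem_comap]

theorem pi_mem_map (D : S18B7_Data m π Qs c b0) :
    algebraMap A B π ∈ m.map (algebraMap A B) :=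
  Ideal.mem_map_of_mem _ D.hπ

theorem notMem_of_ne (D : S18B7_Data m π Qs c b0) {Q Q' : Ideal B} (hQ : Q ∈ Qs)
    (hQ' : Q' ∈ Qs) (hne : Q ≠ Q') : b0 - algebraMap A B (c Q') ∉ Q := by
  intro h
  have h1 := Q.sub_mem h (D.hb0 Q hQ)
  have h2 : algebraMap A B (c Q - c Q') ∈ Q := by
    rw [map_sub]
    convert h1 using 1
    ring
  exact D.hc Q hQ Q' hQ' hne ((D.algebraMap_mem_iff hQ _).mp h2)

/-- `b0 - c Q` lies in no other member of `Qs`. -/
theorem mem_iff_eq (D : S18B7_Data m π Qs c b0) {Q Q' : Ideal B} (hQ : Q ∈ Qs)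
    (hQ' : Q' ∈ Qs) : b0 - algebraMap A B (c Q) ∈ Q' ↔ Q' = Q := by
  constructor
  · intro h
    by_contra hne
    exact D.notMem_of_ne hQ' hQ hne h
  · rintro rfl
    exact D.hb0 _ hQ

theorem tau_notMem (D : S18B7_Data m π Qs c b0) {Q : Ideal B} (hQ : Q ∈ Qs) :
    ∏ Q' ∈ Qs.erase Q, (b0 - algebraMap A B (c Q')) ∉ Q := by
  classical
  intro h
  obtain ⟨Q', hQ', hmem⟩ := ((D.isPrime hQ).prod_mem_iff).mp h
  rw [Finset.mem_erase] at hQ'
  exact D.notMem_of_ne hQ hQ'.2 (Ne.symm hQ'.1) hmem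

theorem mul_tau (Qs : Finset (Ideal B)) (c : Ideal B → A) (b0 : B) {Q : Ideal B}
    (hQ : Q ∈ Qs) :
    (∏ Q' ∈ Qs.erase Q, (b0 - algebraMap A B (c Q'))) * (b0 - algebraMap A B (c Q)) =
      S18B7_pb Qs c b0 := by
  classical
  rw [mul_comm, S18B7_pb]
  exact Finset.mul_prod_erase Qs (fun Q => b0 - algebraMap A B (c Q)) hQ

/-- If `pb ^ a ∈ I` then `(b0 - c Q) ^ a ∈ I` locally at `Q`. -/
theorem locMem_pow_of_pb (D : S18B7_Data m π Qs c b0) {Q : Ideal B} (hQ : Q ∈ Qs)
    (I : Ideal B) (a : ℕ) (h : S18B7_pb Qs c b0 ^ a ∈ I) :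
    S18B7_LocMem Q I ((b0 - algebraMap A B (c Q)) ^ a) := by
  classical
  refine ⟨(∏ Q' ∈ Qs.erase Q, (b0 - algebraMap A B (c Q'))) ^ a,
    fun h' => D.tau_notMem hQ ((D.isPrime hQ).mem_of_pow_mem _ h'), ?_⟩
  rw [← mul_pow, mul_tau Qs c b0 hQ]
  exact h

/-- Lagrange interpolation: every `z` is congruent to a polynomial in `b0` modulo all `Q ∈ Qs`. -/
theorem lagrange (D : S18B7_Data m π Qs c b0) (z : B) :
    ∃ L : A[X], ∀ Q ∈ Qs, z - aeval b0 L ∈ Q := by
  classical
  have := D.hmax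
  let _ : Field (A ⧸ m) := Ideal.Quotient.field m
  have hres' : ∀ Q : Ideal B, ∃ a : A, Q ∈ Qs → z - algebraMap A B a ∈ Q := by
    intro Q
    by_cases hQ : Q ∈ Qs
    · obtain ⟨a, ha⟩ := D.hres Q hQ z
      exact ⟨a, fun _ => ha⟩
    · exact ⟨0, fun h => absurd h hQ⟩
  choose a ha using hres'
  let v : Ideal B → A ⧸ m := fun Q => Ideal.Quotient.mk m (c Q)
  let r : Ideal B → A ⧸ m := fun Q => Ideal.Quotient.mk m (a Q)
  have hv : Set.InjOn v (Qs : Set (Ideal B)) := by
    intro Q hQ Q' hQ' hvv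
    by_contra hne
    apply D.hc Q hQ Q' hQ' hne
    rw [← Ideal.Quotient.eq]
    exact hvv
  obtain ⟨L, hL⟩ := Polynomial.map_surjective (Ideal.Quotient.mk m)
    Ideal.Quotient.mk_surjective (Lagrange.interpolate Qs v r)
  refine ⟨L, fun Q hQ => ?_⟩
  have h1 : L.eval (c Q) - a Q ∈ m := by
    rw [← Ideal.Quotient.eq]
    have := Lagrange.eval_interpolate_at_node r hv hQ
    rw [← hL, eval_map, eval₂_hom] at this
    simpa [v, r] using this
  have h2 : algebraMap A B (L.eval (c Q) - a Q) ∈ Q := (D.algebraMap_mem_iff hQ _).mpr h1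
  have h3 := S18B7_aeval_sub_mem Q b0 (c Q) (D.hb0 Q hQ) L
  have h4 := ha Q hQ
  have : z - aeval b0 L = (z - algebraMap A B (a Q)) - algebraMap A B (L.eval (c Q) - a Q)
      - (aeval b0 L - algebraMap A B (L.eval (c Q))) := by
    rw [map_sub]
    ring
  rw [this]
  exact Q.sub_mem (Q.sub_mem h4 h2) h3

/-- The intersection of the `Q ∈ Qs` is `m B + pb B`. -/
theorem mem_sup_of_forall_mem (D : S18B7_Data m π Qs c b0) (z : B)
    (hz : ∀ Q ∈ Qs, z ∈ Q) :
    z ∈ m.map (algebraMap A B) ⊔ Ideal.span {S18B7_pb Qs c b0} := by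
  have := D.hmax
  refine S18B7_mem_of_forall_locMem m _ le_sup_left z fun Q hQmax hQm => ?_
  have hQ : Q ∈ Qs := (D.hQs Q).mpr ⟨hQmax, hQm⟩
  refine S18B7_locMem_pair_trans (D.isPrime hQ) (D.hgen Q hQ z (hz Q hQ)) ?_ ?_
  · exact S18B7_locMem_of_mem hQmax.ne_top (Ideal.mem_sup_left D.pi_mem_map)
  · have := D.locMem_pow_of_pb hQ (m.map (algebraMap A B) ⊔ Ideal.span {S18B7_pb Qs c b0}) 1
      (by rw [pow_one]; exact Ideal.mem_sup_right (Ideal.subset_span rfl))
    rwa [pow_one] at this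

/-- Iterating `lagrange`: `z ≡ F(b0) + pb^a w  mod m B`. -/
theorem exists_poly_add_pow (D : S18B7_Data m π Qs c b0) (a : ℕ) (z : B) :
    ∃ (F : A[X]) (w : B),
      z - aeval b0 F - S18B7_pb Qs c b0 ^ a * w ∈ m.map (algebraMap A B) := by
  induction a generalizing z with
  | zero => exact ⟨0, z, by simp⟩
  | succ a ih =>
    obtain ⟨F, w, hF⟩ := ih z
    obtain ⟨L, hL⟩ := D.lagrange w
    obtain ⟨μ, hμ, ν, hν, hsum⟩ := Submodule.mem_sup.mp (D.mem_sup_of_forall_mem _ hL)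
    obtain ⟨w', rfl⟩ := Ideal.mem_span_singleton'.mp hν
    refine ⟨F + S18B7_pp Qs c ^ a * L, w', ?_⟩
    have : z - aeval b0 (F + S18B7_pp Qs c ^ a * L) - S18B7_pb Qs c b0 ^ (a + 1) * w' =
        (z - aeval b0 F - S18B7_pb Qs c b0 ^ a * w) + S18B7_pb Qs c b0 ^ a * μ := by
      have hw : w = aeval b0 L + (μ + w' * S18B7_pb Qs c b0) := by
        rw [hsum]; ring
      rw [map_add, map_mul, map_pow, S18B7_aeval_pp]
      conv_rhs => rw [hw]
      ring
    rw [this]
    exact Ideal.add_mem _ hF (Ideal.mul_mem_left _ _ hμ)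

/-- **Counting lemma**: if `(b0 - c Q)^a ∈ m B` locally at every `Q ∈ Qs`, then
`B = ∑_{i < |Qs| a} A b0^i + m B`. -/
theorem exists_poly_of_good (D : S18B7_Data m π Qs c b0) (a : ℕ)
    (hgood : ∀ Q ∈ Qs,
      S18B7_LocMem Q (m.map (algebraMap A B)) ((b0 - algebraMap A B (c Q)) ^ a))
    (z : B) :
    ∃ f : A[X], f.degree < (Qs.card * a : ℕ) ∧ z - aeval b0 f ∈ m.map (algebraMap A B) := by
  classical
  have := D.hmax
  have : Nontrivial A := ⟨⟨0, 1, fun h => D.hmax.ne_top ((Ideal.eq_top_iff_one m).mpr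
    (h ▸ m.zero_mem))⟩⟩
  have hpb : S18B7_pb Qs c b0 ^ a ∈ m.map (algebraMap A B) := by
    refine S18B7_mem_of_forall_locMem m _ le_rfl _ fun Q hQmax hQm => ?_
    have hQ : Q ∈ Qs := (D.hQs Q).mpr ⟨hQmax, hQm⟩
    have := S18B7_locMem_mul_left
      ((∏ Q' ∈ Qs.erase Q, (b0 - algebraMap A B (c Q'))) ^ a) (hgood Q hQ)
    rwa [← mul_pow, mul_tau Qs c b0 hQ] at this
  obtain ⟨F, w, hF⟩ := D.exists_poly_add_pow a z
  have hF' : z - aeval b0 F ∈ m.map (algebraMap A B) := by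
    have := Ideal.add_mem _ hF (Ideal.mul_mem_right w _ hpb)
    convert this using 1
    ring
  set P : A[X] := S18B7_pp Qs c ^ a with hP
  have hPm : P.Monic := (S18B7_monic_pp Qs c).pow a
  have hPdeg : P.natDegree = Qs.card * a := by
    rw [hP, (S18B7_monic_pp Qs c).natDegree_pow, S18B7_natDegree_pp, mul_comm]
  refine ⟨F %ₘ P, ?_, ?_⟩
  · have := degree_modByMonic_lt F hPm
    rwa [degree_eq_natDegree hPm.ne_zero, hPdeg] at this
  · have hdiv : aeval b0 F = aeval b0 (F %ₘ P) + S18B7_pb Qs c b0 ^ a * aeval b0 (F /ₘ P) := by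
      conv_lhs => rw [← modByMonic_add_div F P]
      rw [map_add, map_mul, hP, map_pow, S18B7_aeval_pp]
    have : z - aeval b0 (F %ₘ P) =
        (z - aeval b0 F) + S18B7_pb Qs c b0 ^ a * aeval b0 (F /ₘ P) := by
      rw [hdiv]; ring
    rw [this]
    exact Ideal.add_mem _ hF' (Ideal.mul_mem_right _ _ hpb)

end S18B7_Data

end Counting


section Main

variable {A B H : Type*} [CommRing A] [CommRing B] [Algebra A B] [Group H]
  [MulSemiringAction H B] [SMulCommClass H A B]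

theorem S18B7_smul_mem_orbit (m : Ideal A) (h : H) {Q : Ideal B}
    (hQ : Q.IsMaximal ∧ Q.comap (algebraMap A B) = m) :
    (h • Q).IsMaximal ∧ (h • Q).comap (algebraMap A B) = m := by
  constructor
  · rw [Ideal.pointwise_smul_eq_comap]
    have := hQ.1
    exact Ideal.comap_isMaximal_of_surjective _
      (MulSemiringAction.toRingAut H B h).symm.surjective
  · have := Ideal.under_smul A (P := Q) h
    rw [Ideal.under_def, Ideal.under_def] at this
    rw [this, hQ.2]

variable {m : Ideal A} {π : A} {Qs : Finset (Ideal B)} {c : Ideal B → A} {b0 : B}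

theorem S18B7_Data.smul_mem (D : S18B7_Data m π Qs c b0) (h : H) {Q : Ideal B}
    (hQ : Q ∈ Qs) : h • Q ∈ Qs :=
  (D.hQs _).mpr (S18B7_smul_mem_orbit m h ((D.hQs Q).mp hQ))

/-- The conjugate `h • (b0 - c Q)` is a local parameter at `h • Q`. -/
theorem S18B7_Data.hgen_smul (D : S18B7_Data m π Qs c b0) (h : H) {Q : Ideal B}
    (hQ : Q ∈ Qs) (z : B) (hz : z ∈ h • Q) :
    S18B7_LocMem (h • Q)
      (Ideal.span {algebraMap A B π, h • (b0 - algebraMap A B (c Q))}) z := by
  have h1 : h⁻¹ • z ∈ Q := Ideal.mem_pointwise_smul_iff_inv_smul_mem.mp hz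
  have h2 := S18B7_locMem_smul_pair h (D.hgen Q hQ _ h1)
  rwa [smul_inv_smul, smul_algebraMap] at h2

/-- Goodness of an exponent at one point of the orbit propagates to all points. -/
theorem S18B7_Data.good_of_good_at (D : S18B7_Data m π Qs c b0) {Q1 : Ideal B}
    (hQ1 : Q1 ∈ Qs) (htrans : ∀ Q ∈ Qs, ∃ h : H, h • Q1 = Q) (a : ℕ)
    (h1 : S18B7_LocMem Q1 (m.map (algebraMap A B)) ((b0 - algebraMap A B (c Q1)) ^ a)) :
    ∀ Q ∈ Qs, S18B7_LocMem Q (m.map (algebraMap A B)) ((b0 - algebraMap A B (c Q)) ^ a) := by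
  intro Q hQ
  obtain ⟨h, rfl⟩ := htrans Q hQ
  have hprime := D.isPrime hQ
  have e1 := D.hgen_smul h hQ1 _ (D.hb0 _ hQ)
  have e2 := S18B7_locMem_pow hprime e1 a
  refine S18B7_locMem_pair_trans hprime e2 ?_ ?_
  · exact S18B7_locMem_of_mem hprime.ne_top D.pi_mem_map
  · have := S18B7_locMem_smul_map m h h1
    rwa [smul_pow'] at this


/-- The set of `h : H` with `h • u ∈ Q1` (for a local parameter `u` at `Q1` this is the
stabiliser of `Q1`). -/
noncomputable def S18B7_D (H : Type*) {B : Type*} [CommRing B] [Group H] [Fintype H]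
    [MulSemiringAction H B] (Q1 : Ideal B) (u : B) : Finset H := by
  classical exact Finset.univ.filter fun h : H => h • u ∈ Q1

theorem S18B7_mem_D [Fintype H] {Q1 : Ideal B} {u : B} {h : H} :
    h ∈ S18B7_D H Q1 u ↔ h • u ∈ Q1 := by
  classical
  simp [S18B7_D]

theorem S18B7_Data.smul_eq_of_mem_D [Fintype H] (D : S18B7_Data m π Qs c b0) {Q1 : Ideal B}
    (hQ1 : Q1 ∈ Qs) {h : H} (hh : h ∈ S18B7_D H Q1 (b0 - algebraMap A B (c Q1))) :
    h • Q1 = Q1 := by
  have h1 : b0 - algebraMap A B (c Q1) ∈ h⁻¹ • Q1 :=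
    Ideal.mem_inv_pointwise_smul_iff.mpr (S18B7_mem_D.mp hh)
  have h2 : h⁻¹ • Q1 = Q1 := (D.mem_iff_eq hQ1 (D.smul_mem h⁻¹ hQ1)).mp h1
  calc h • Q1 = h • (h⁻¹ • Q1) := by rw [h2]
    _ = Q1 := smul_inv_smul h Q1

theorem S18B7_Data.card_mul_le [Fintype H] (D : S18B7_Data m π Qs c b0) {Q1 : Ideal B}
    (hQ1 : Q1 ∈ Qs) (htrans : ∀ Q ∈ Qs, ∃ h : H, h • Q1 = Q) :
    Qs.card * (S18B7_D H Q1 (b0 - algebraMap A B (c Q1))).card ≤ Fintype.card H := by
  classical
  choose! rep hrep using htrans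
  rw [← Finset.card_product, ← Finset.card_univ]
  refine Finset.card_le_card_of_injOn (fun p : Ideal B × H => rep p.1 * p.2)
    (fun _ _ => Finset.mem_univ _) ?_
  rintro ⟨Q, d⟩ hp ⟨Q', d'⟩ hp' heq
  rw [Finset.mem_coe, Finset.mem_product] at hp hp'
  simp only at heq hp hp'
  have e1 : (rep Q * d) • Q1 = Q := by
    rw [mul_smul, D.smul_eq_of_mem_D hQ1 hp.2, hrep Q hp.1]
  have e2 : (rep Q' * d') • Q1 = Q' := by
    rw [mul_smul, D.smul_eq_of_mem_D hQ1 hp'.2, hrep Q' hp'.1]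
  have hQQ : Q = Q' := by rw [← e1, ← e2, heq]
  subst hQQ
  have : d = d' := mul_left_cancel heq
  rw [this]

/-- `u ^ |Stab Q1|` lies in `(π, y)` locally at `Q1`, where `y` is the norm of `u = b0 - c Q1`. -/
theorem S18B7_Data.locMem_pow_card [Fintype H] (D : S18B7_Data m π Qs c b0) {Q1 : Ideal B}
    (hQ1 : Q1 ∈ Qs) :
    S18B7_LocMem Q1
      (Ideal.span {algebraMap A B π, ∏ h : H, h • (b0 - algebraMap A B (c Q1))})
      ((b0 - algebraMap A B (c Q1)) ^ (S18B7_D H Q1 (b0 - algebraMap A B (c Q1))).card) := by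
  classical
  set u := b0 - algebraMap A B (c Q1) with hu
  set Ds := S18B7_D H Q1 u with hDs
  have hprime := D.isPrime hQ1
  have key : ∀ h : H, ∃ t α β : B, h ∈ Ds → t ∉ Q1 ∧ t * u = α * algebraMap A B π + β * h • u := by
    intro h
    by_cases hh : h ∈ Ds
    · have e1 := D.hgen_smul h hQ1 u (by
        rw [D.smul_eq_of_mem_D hQ1 hh]; exact D.hb0 _ hQ1)
      rw [D.smul_eq_of_mem_D hQ1 hh] at e1
      obtain ⟨t, ht, hmem⟩ := e1
      obtain ⟨α, β, hαβ⟩ := Ideal.mem_span_pair.mp hmem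
      exact ⟨t, α, β, fun _ => ⟨ht, hαβ.symm⟩⟩
    · exact ⟨0, 0, 0, fun h' => absurd h' hh⟩
  choose t α β hkey using key
  have hT : ∏ h ∈ Ds, t h ∉ Q1 := by
    intro h'
    obtain ⟨h, hh, hmem⟩ := (hprime.prod_mem_iff).mp h'
    exact (hkey h hh).1 hmem
  have hτ : ∏ h ∈ Dsᶜ, h • u ∉ Q1 := by
    intro h'
    obtain ⟨h, hh, hmem⟩ := (hprime.prod_mem_iff).mp h'
    rw [Finset.mem_compl] at hh
    exact hh (S18B7_mem_D.mpr hmem)
  have hprod : (∏ h ∈ Ds, t h) * u ^ Ds.card =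
      ∏ h ∈ Ds, (α h * algebraMap A B π + β h * h • u) := by
    rw [← Finset.prod_const, ← Finset.prod_mul_distrib]
    exact Finset.prod_congr rfl fun h hh => (hkey h hh).2
  have hmem := S18B7_prod_pair_mem Ds (algebraMap A B π) α β (fun h => h • u)
  rw [← hprod] at hmem
  obtain ⟨c', d', hcd⟩ := Ideal.mem_span_pair.mp hmem
  refine ⟨(∏ h ∈ Dsᶜ, h • u) * ∏ h ∈ Ds, t h,
    fun h' => (hprime.mem_or_mem h').elim hτ hT, ?_⟩
  rw [mul_assoc, ← hcd]
  refine Ideal.mem_span_pair.mpr ⟨(∏ h ∈ Dsᶜ, h • u) * c', d', ?_⟩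
  rw [← Finset.prod_mul_prod_compl Ds (fun h => h • u)]
  ring

theorem S18B7_Data.card_le_of_good [IsDomain B] [FaithfulSMul H B] [Fintype H]
    [Module.Finite A B] (D : S18B7_Data m π Qs c b0)
    (hinj : Function.Injective (algebraMap A B)) (a : ℕ)
    (hgood : ∀ Q ∈ Qs,
      S18B7_LocMem Q (m.map (algebraMap A B)) ((b0 - algebraMap A B (c Q)) ^ a)) :
    Fintype.card H ≤ Qs.card * a := by
  obtain ⟨r, hr, hspan⟩ := S18B7_nakayama m b0 (Qs.card * a) (D.exists_poly_of_good a hgood)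
  have hr0 : r ≠ 0 := by
    rintro rfl
    apply D.hmax.ne_top
    rw [Ideal.eq_top_iff_one]
    have := m.neg_mem hr
    simpa using this
  exact S18B7_card_le hinj r hr0 b0 _ hspan

/-- Every `x ∈ m` lies in `(π, u^j)` locally at `Q1`, for all `j ≤ |Stab Q1|`. -/
theorem S18B7_Data.locMem_pow_of_mem [IsDomain B] [FaithfulSMul H B] [Fintype H]
    [Module.Finite A B] (D : S18B7_Data m π Qs c b0)
    (hinj : Function.Injective (algebraMap A B)) {Q1 : Ideal B} (hQ1 : Q1 ∈ Qs)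
    (htrans : ∀ Q ∈ Qs, ∃ h : H, h • Q1 = Q) (x : A) (hx : x ∈ m) (j : ℕ)
    (hj : j ≤ (S18B7_D H Q1 (b0 - algebraMap A B (c Q1))).card) :
    S18B7_LocMem Q1 (Ideal.span {algebraMap A B π, (b0 - algebraMap A B (c Q1)) ^ j})
      (algebraMap A B x) := by
  have hprime := D.isPrime hQ1
  induction j with
  | zero =>
    refine ⟨1, (Ideal.ne_top_iff_one Q1).mp hprime.ne_top, ?_⟩
    exact Ideal.mem_span_pair.mpr ⟨0, algebraMap A B x, by simp⟩
  | succ j ih =>
    obtain ⟨T, hT, hmem⟩ := ih (Nat.le_of_succ_le hj)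
    obtain ⟨α, β, hαβ⟩ := Ideal.mem_span_pair.mp hmem
    by_cases hβ : β ∈ Q1
    · obtain ⟨t, ht, htmem⟩ := D.hgen Q1 hQ1 β hβ
      obtain ⟨α', β', h'⟩ := Ideal.mem_span_pair.mp htmem
      refine ⟨t * T, fun h => (hprime.mem_or_mem h).elim ht hT, ?_⟩
      refine Ideal.mem_span_pair.mpr
        ⟨t * α + α' * (b0 - algebraMap A B (c Q1)) ^ j, β', ?_⟩
      have : t * T * algebraMap A B x = t * α * algebraMap A B π
          + (t * β) * (b0 - algebraMap A B (c Q1)) ^ j := by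
        rw [mul_assoc, ← hαβ]; ring
      rw [this, ← h']
      ring
    · exfalso
      have hloc : S18B7_LocMem Q1 (m.map (algebraMap A B))
          ((b0 - algebraMap A B (c Q1)) ^ j) := by
        refine ⟨β, hβ, ?_⟩
        have : β * (b0 - algebraMap A B (c Q1)) ^ j =
            T * algebraMap A B x - α * algebraMap A B π := by
          rw [← hαβ]; ring
        rw [this]
        exact Ideal.sub_mem _ (Ideal.mul_mem_left _ _ (Ideal.mem_map_of_mem _ hx))
          (Ideal.mul_mem_left _ _ D.pi_mem_map)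
      have h1 := D.card_le_of_good (H := H) hinj j (D.good_of_good_at hQ1 htrans j hloc)
      have h2 := D.card_mul_le hQ1 htrans
      have h3 : 0 < Qs.card := Finset.card_pos.mpr ⟨Q1, hQ1⟩
      have h4 : Qs.card * (j + 1) ≤
          Qs.card * (S18B7_D H Q1 (b0 - algebraMap A B (c Q1))).card :=
        Nat.mul_le_mul_left _ hj
      rw [Nat.mul_succ] at h4
      omega


theorem S18B7_degree_C_mul_lt {A : Type*} [CommRing A] (a : A) {f : A[X]} {n : ℕ}
    (h : f.degree < n) : (C a * f).degree < n := by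
  refine lt_of_le_of_lt (degree_mul_le _ _) ?_
  calc (C a).degree + f.degree ≤ 0 + f.degree := by gcongr; exact degree_C_le
    _ = f.degree := zero_add _
    _ < n := h

/-- The abstract norm trick, for given data `D`. -/
theorem S18B7_Data.main [IsDomain B] [FaithfulSMul H B] [Fintype H] [Module.Finite A B]
    [Algebra.IsInvariant A B H] (D : S18B7_Data m π Qs c b0)
    (hinj : Function.Injective (algebraMap A B)) {Q1 : Ideal B} (hQ1 : Q1 ∈ Qs)
    (htrans : ∀ Q ∈ Qs, ∃ h : H, h • Q1 = Q) :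
    ∃ y ∈ m, ∀ x ∈ m, ∃ c' : A, c' ∉ m ∧ ∃ a b : A, c' * x = a * π + b * y := by
  classical
  have hmax := D.hmax
  have hprime1 := D.isPrime hQ1
  set u := b0 - algebraMap A B (c Q1) with hu
  set yB : B := ∏ h : H, h • u with hyB
  -- the norm lies in `A`, and in `m`
  have hinv : ∀ g : H, g • yB = yB := fun g => Finset.smul_prod_perm u g
  obtain ⟨y, hy⟩ := Algebra.IsInvariant.isInvariant (A := A) (G := H) yB hinv
  have hyQ1 : yB ∈ Q1 := by
    obtain ⟨k, hk⟩ := Finset.dvd_prod_of_mem (fun h : H => h • u) (Finset.mem_univ (1 : H))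
    rw [hyB, hk, one_smul]
    exact Q1.mul_mem_right _ (D.hb0 _ hQ1)
  have hym : y ∈ m := by
    rw [← D.algebraMap_mem_iff hQ1, hy]
    exact hyQ1
  have hyB_map : yB ∈ m.map (algebraMap A B) := hy ▸ Ideal.mem_map_of_mem _ hym
  have hpair_le : Ideal.span {algebraMap A B π, yB} ≤ m.map (algebraMap A B) := by
    rw [Ideal.span_le]
    rintro z (rfl | rfl)
    · exact D.pi_mem_map
    · exact hyB_map
  refine ⟨y, hym, fun x hx => ?_⟩
  set s' := (S18B7_D H Q1 u).card with hs'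
  -- `s'` is good
  have hpow := D.locMem_pow_card (H := H) hQ1
  have hgood := D.good_of_good_at hQ1 htrans s' (S18B7_locMem_mono hpair_le hpow)
  -- Nakayama
  obtain ⟨r, hr, hspan⟩ :=
    S18B7_nakayama m b0 (Qs.card * s') (D.exists_poly_of_good s' hgood)
  have hr_notMem : r ∉ m := by
    intro h
    apply hmax.ne_top
    rw [Ideal.eq_top_iff_one]
    have := m.sub_mem h hr
    simpa using this
  have hr0 : r ≠ 0 := fun h => hr_notMem (h ▸ m.zero_mem)
  have hconj : Function.Injective (fun h : H => h • b0) :=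
    S18B7_injective_smul hinj r hr0 b0 fun z => by
      obtain ⟨f, -, hf⟩ := hspan z
      exact ⟨f, hf⟩
  have hn_le : Qs.card * s' ≤ Fintype.card H := D.card_mul_le hQ1 htrans
  have hcard_pos : 0 < Fintype.card H := Fintype.card_pos
  have hnat : ∀ f : A[X], f.degree < (Qs.card * s' : ℕ) → f.natDegree < Fintype.card H := by
    intro f hf
    by_cases hf0 : f = 0
    · rw [hf0, natDegree_zero]; exact hcard_pos
    · exact lt_of_lt_of_le ((natDegree_lt_iff_degree_lt hf0).mpr hf) hn_le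
  -- `x ∈ (π, y)` locally at every `Q ∈ Qs`
  have hloc1 : S18B7_LocMem Q1 (Ideal.span {algebraMap A B π, yB}) (algebraMap A B x) := by
    refine S18B7_locMem_pair_trans hprime1
      (D.locMem_pow_of_mem (H := H) hinj hQ1 htrans x hx s' le_rfl) ?_ hpow
    exact S18B7_locMem_of_mem hprime1.ne_top (Ideal.subset_span (by simp))
  have hlocQ : ∀ Q ∈ Qs,
      S18B7_LocMem Q (Ideal.span {algebraMap A B π, yB}) (algebraMap A B x) := by
    intro Q hQ
    obtain ⟨h, rfl⟩ := htrans Q hQ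
    have := S18B7_locMem_smul_pair h hloc1
    rwa [smul_algebraMap, smul_algebraMap, hinv h] at this
  -- prime avoidance: a common denominator outside all `Q ∈ Qs`
  let J : Ideal B :=
    Submodule.comap (LinearMap.mulRight B (algebraMap A B x)) (Ideal.span {algebraMap A B π, yB})
  have hJmem : ∀ t : B, t ∈ J ↔ t * algebraMap A B x ∈ Ideal.span {algebraMap A B π, yB} :=
    fun t => Iff.rfl
  have hJnot : ¬ ((J : Set B) ⊆ ⋃ Q ∈ (↑Qs : Set (Ideal B)), (Q : Set B)) := by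
    intro hsub
    obtain ⟨Q, hQ, hJQ⟩ := (Ideal.subset_union_prime (f := fun Q : Ideal B => Q) Q1 Q1
      (fun Q hQ _ _ => D.isPrime hQ)).mp hsub
    obtain ⟨t, ht, htx⟩ := hlocQ Q hQ
    exact ht (hJQ ((hJmem t).mpr htx))
  obtain ⟨t, htJ, htQ⟩ := Set.not_subset.mp hJnot
  have htQ' : ∀ Q ∈ Qs, t ∉ Q := by
    intro Q hQ h
    exact htQ (Set.mem_biUnion (Finset.mem_coe.mpr hQ) h)
  -- its norm lies in `A \ m`
  set nt : B := ∏ h : H, h • t with hnt
  obtain ⟨c', hc'⟩ := Algebra.IsInvariant.isInvariant (A := A) (G := H) nt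
    (fun g => Finset.smul_prod_perm t g)
  have hntJ : nt ∈ J := by
    obtain ⟨k, hk⟩ := Finset.dvd_prod_of_mem (fun h : H => h • t) (Finset.mem_univ (1 : H))
    rw [hnt, hk, one_smul]
    exact J.mul_mem_right _ htJ
  have hc'm : c' ∉ m := by
    intro h
    have h1 : nt ∈ Q1 := by
      rw [← hc']
      exact (D.algebraMap_mem_iff hQ1 _).mpr h
    obtain ⟨g, -, hg⟩ := (hprime1.prod_mem_iff).mp h1
    have h2 : t ∈ g⁻¹ • Q1 := Ideal.mem_inv_pointwise_smul_iff.mpr hg
    exact htQ' _ (D.smul_mem g⁻¹ hQ1) h2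
  obtain ⟨α, β, hαβ⟩ := Ideal.mem_span_pair.mp ((hJmem nt).mp hntJ)
  -- purity: descend to `A` through the coordinates in `1, b0, …`
  obtain ⟨Fα, hFα, hα⟩ := hspan α
  obtain ⟨Fβ, hFβ, hβ⟩ := hspan β
  obtain ⟨F1, hF1, h1⟩ := hspan 1
  set G : A[X] := C (c' * x) * F1 - C π * Fα - C y * Fβ with hG
  have hGdeg : G.degree < (Qs.card * s' : ℕ) := by
    refine lt_of_le_of_lt (degree_sub_le _ _) (max_lt (lt_of_le_of_lt (degree_sub_le _ _)
      (max_lt ?_ ?_)) ?_)
    · exact S18B7_degree_C_mul_lt _ hF1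
    · exact S18B7_degree_C_mul_lt _ hFα
    · exact S18B7_degree_C_mul_lt _ hFβ
  have hG0 : aeval b0 G = 0 := by
    simp only [hG, map_sub, map_mul, aeval_C]
    rw [← h1, ← hα, ← hβ, hy, hc']
    linear_combination (-(algebraMap A B r)) * hαβ
  have hGz : G = 0 := S18B7_eq_zero_of_aeval_eq_zero hinj b0 hconj G (hnat G hGdeg) hG0
  have hcoeff : ∀ i, c' * x * F1.coeff i = π * Fα.coeff i + y * Fβ.coeff i := by
    intro i
    have := congrArg (fun p : A[X] => p.coeff i) hGz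
    simp only [hG, coeff_sub, coeff_C_mul, coeff_zero] at this
    linear_combination this
  -- some coefficient of `F1` is a unit at `m`
  have hex : ∃ i, F1.coeff i ∉ m := by
    by_contra hall
    push Not at hall
    have hmem : aeval b0 F1 ∈ m.map (algebraMap A B) := by
      rw [aeval_eq_sum_range]
      refine Ideal.sum_mem _ fun i _ => ?_
      rw [Algebra.smul_def]
      exact Ideal.mul_mem_right _ _ (Ideal.mem_map_of_mem _ (hall i))
    rw [← h1, mul_one] at hmem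
    exact hr_notMem ((D.algebraMap_mem_iff hQ1 _).mp (D.map_le hQ1 hmem))
  obtain ⟨i, hi⟩ := hex
  refine ⟨c' * F1.coeff i, fun h => (hmax.isPrime.mem_or_mem h).elim hc'm hi,
    Fα.coeff i, Fβ.coeff i, ?_⟩
  linear_combination hcoeff i


end Main

section Top

variable {B : Type*} [CommRing B]

/-- Changing a local parameter by an element of `Q^2` gives a local parameter. -/
theorem S18B7_hgen_of_sub_mem_sq {Q : Ideal B} (hQ : Q.IsPrime) {p v u : B}
    (hgen : ∀ z ∈ Q, S18B7_LocMem Q (Ideal.span {p, v}) z) (huv : u - v ∈ Q ^ 2) :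
    ∀ z ∈ Q, S18B7_LocMem Q (Ideal.span {p, u}) z := by
  have step1 : ∀ d ∈ Q ^ 2, ∃ t : B, t ∉ Q ∧ ∃ α γ : B, γ ∈ Q ∧ t * d = α * p + γ * v := by
    intro d hd
    rw [pow_two] at hd
    refine Submodule.smul_induction_on hd ?_ ?_
    · intro q hq q' hq'
      obtain ⟨t, ht, hmem⟩ := hgen q hq
      obtain ⟨α, β, hαβ⟩ := Ideal.mem_span_pair.mp hmem
      refine ⟨t, ht, α * q', β * q', Q.mul_mem_left _ hq', ?_⟩
      rw [smul_eq_mul, ← mul_assoc, ← hαβ]
      ring
    · rintro x y ⟨t, ht, α, γ, hγ, h⟩ ⟨t', ht', α', γ', hγ', h'⟩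
      refine ⟨t * t', fun h => (hQ.mem_or_mem h).elim ht ht', t' * α + t * α',
        t' * γ + t * γ', Q.add_mem (Q.mul_mem_left _ hγ) (Q.mul_mem_left _ hγ'), ?_⟩
      have : t * t' * (x + y) = t' * (t * x) + t * (t' * y) := by ring
      rw [this, h, h']
      ring
  obtain ⟨t, ht, α, γ, hγ, h⟩ := step1 _ huv
  have hv : S18B7_LocMem Q (Ideal.span {p, u}) v := by
    refine ⟨t + γ, fun h' => ht ?_, ?_⟩
    · have := Q.sub_mem h' hγ
      simpa using this
    · refine Ideal.mem_span_pair.mpr ⟨-α, t, ?_⟩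
      linear_combination h
  intro z hz
  exact S18B7_locMem_pair_trans hQ (hgen z hz)
    (S18B7_locMem_of_mem hQ.ne_top (Ideal.subset_span (by simp))) hv

end Top

section Final

variable {A B : Type*} [CommRing A] [CommRing B] [IsDomain B] [Algebra A B]
  [Module.Finite A B]

/-- **X-B7, abstract norm trick.** Let the finite group `H` act faithfully on the domain `B`,
finite over `A = B^H`; let `m ∋ π` be a maximal ideal of `A` with infinite residue field, such that
every maximal ideal `Q` of `B` over `m` has residue field `A/m` and is generated, locally at `Q`,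
by `π` and one more element. Then `m` is generated, locally at `m`, by `π` and one element. -/
theorem S18B7_IG_of_cover (H : Type*) [Group H] [Finite H] [MulSemiringAction H B]
    [SMulCommClass H A B] [Algebra.IsInvariant A B H] [FaithfulSMul H B]
    (hinj : Function.Injective (algebraMap A B))
    (π : A) (m : Ideal A) [hm : m.IsMaximal] (hπ : π ∈ m) [Infinite (A ⧸ m)]
    (hres : ∀ Q : Ideal B, Q.IsMaximal → Q.comap (algebraMap A B) = m →
      ∀ b : B, ∃ a : A, b - algebraMap A B a ∈ Q)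
    (hloc : ∀ Q : Ideal B, Q.IsMaximal → Q.comap (algebraMap A B) = m →
      ∃ v ∈ Q, ∀ z ∈ Q, ∃ t : B, t ∉ Q ∧ ∃ α β : B, t * z = α * algebraMap A B π + β * v) :
    ∃ y ∈ m, ∀ x ∈ m, ∃ c : A, c ∉ m ∧ ∃ a b : A, c * x = a * π + b * y := by
  classical
  cases nonempty_fintype H
  have hint : Algebra.IsIntegral A B := Algebra.IsInvariant.isIntegral A B H
  -- a maximal ideal over `m` and its orbit
  obtain ⟨Q1, hQ1max, hQ1m⟩ := Ideal.exists_ideal_over_maximal_of_isIntegral (S := B) m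
    (by rw [(RingHom.injective_iff_ker_eq_bot _).mp hinj]; exact bot_le)
  set Qs : Finset (Ideal B) := Finset.univ.image fun h : H => h • Q1 with hQsdef
  have hQs : ∀ Q : Ideal B, Q ∈ Qs ↔ Q.IsMaximal ∧ Q.comap (algebraMap A B) = m := by
    intro Q
    rw [hQsdef, Finset.mem_image]
    constructor
    · rintro ⟨h, -, rfl⟩
      exact S18B7_smul_mem_orbit m h ⟨hQ1max, hQ1m⟩
    · rintro ⟨hQmax, hQm⟩
      have := hQ1max.isPrime
      have := hQmax.isPrime
      obtain ⟨g, hg⟩ := Algebra.IsInvariant.exists_smul_of_under_eq A B H Q1 Q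
        (by rw [Ideal.under_def, Ideal.under_def, hQ1m, hQm])
      exact ⟨g, Finset.mem_univ _, hg.symm⟩
  have hQ1 : Q1 ∈ Qs := (hQs Q1).mpr ⟨hQ1max, hQ1m⟩
  have htrans : ∀ Q ∈ Qs, ∃ h : H, h • Q1 = Q := by
    intro Q hQ
    rw [hQsdef, Finset.mem_image] at hQ
    obtain ⟨h, -, hh⟩ := hQ
    exact ⟨h, hh⟩
  -- distinct constants
  let c0 : Ideal B → A ⧸ m := fun Q =>
    if hQ : Q ∈ Qs then Infinite.natEmbedding (A ⧸ m) (Qs.equivFin ⟨Q, hQ⟩ : ℕ) else 0
  have hc0 : ∀ Q ∈ Qs, ∀ Q' ∈ Qs, c0 Q = c0 Q' → Q = Q' := by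
    intro Q hQ Q' hQ' h
    simp only [c0, dif_pos hQ, dif_pos hQ'] at h
    have h1 := Fin.val_injective ((Infinite.natEmbedding (A ⧸ m)).injective h)
    have h2 := Qs.equivFin.injective h1
    exact congrArg Subtype.val h2
  choose c hc using fun Q : Ideal B => Ideal.Quotient.mk_surjective (I := m) (c0 Q)
  -- local parameters
  have hloc' : ∀ Q : Ideal B, ∃ v : B, Q ∈ Qs → v ∈ Q ∧
      ∀ z ∈ Q, S18B7_LocMem Q (Ideal.span {algebraMap A B π, v}) z := by
    intro Q
    by_cases hQ : Q ∈ Qs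
    · obtain ⟨v, hv, hgen⟩ := hloc Q ((hQs Q).mp hQ).1 ((hQs Q).mp hQ).2
      refine ⟨v, fun _ => ⟨hv, fun z hz => ?_⟩⟩
      obtain ⟨t, ht, α, β, h⟩ := hgen z hz
      exact ⟨t, ht, Ideal.mem_span_pair.mpr ⟨α, β, h.symm⟩⟩
    · exact ⟨0, fun h => absurd h hQ⟩
  choose v hv using hloc'
  -- Chinese remainder theorem
  have hcop : Pairwise (Function.onFun IsCoprime fun i : Qs => ((i : Ideal B) ^ 2)) := by
    intro i j hij
    have := ((hQs i).mp i.2).1
    have := ((hQs j).mp j.2).1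
    have : (i : Ideal B) ≠ j := fun h => hij (Subtype.ext h)
    exact (Ideal.isCoprime_of_isMaximal this).pow
  obtain ⟨b0, hb0⟩ := Ideal.exists_forall_sub_mem_ideal hcop
    (fun i : Qs => algebraMap A B (c i) + v i)
  have hsq : ∀ Q ∈ Qs, (b0 - algebraMap A B (c Q)) - v Q ∈ Q ^ 2 := by
    intro Q hQ
    have := hb0 ⟨Q, hQ⟩
    simp only at this
    convert this using 1
    ring
  have D : S18B7_Data m π Qs c b0 :=
    { hmax := hm
      hQs := hQs
      hπ := hπ
      hc := by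
        intro Q hQ Q' hQ' hne h
        apply hne
        apply hc0 Q hQ Q' hQ'
        rw [← hc Q, ← hc Q']
        exact Ideal.Quotient.eq.mpr h
      hb0 := by
        intro Q hQ
        have h1 := Ideal.pow_le_self (two_ne_zero) (hsq Q hQ)
        have h2 := Q.add_mem h1 (hv Q hQ).1
        simpa using h2
      hgen := by
        intro Q hQ
        exact S18B7_hgen_of_sub_mem_sq ((hQs Q).mp hQ).1.isPrime (hv Q hQ).2 (hsq Q hQ)
      hres := fun Q hQ => hres Q ((hQs Q).mp hQ).1 ((hQs Q).mp hQ).2 }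
  exact D.main (H := H) hinj hQ1 htrans

end Final

end Fermat.Agent.S18_helper7_B7
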