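import Mathlib

namespace Fermat.Agent.S18_helper7_P14

open Polynomial Module

/-- The trace of a matrix over a field `K` that is integral over `R` is integral over `R`. -/
theorem S18P14_isIntegral_trace_matrix {R K n : Type*} [CommRing R] [Field K] [Algebra R K]
    [Fintype n] [DecidableEq n] {M : Matrix n n K} (hM : IsIntegral R M) :
    IsIntegral R M.trace := by
  classical
  let Ω := AlgebraicClosure K
  let φ : Matrix n n K →ₐ[R] Matrix n n Ω := (IsScalarTower.toAlgHom R K Ω).mapMatrix
  have hM' : IsIntegral R (φ M) := hM.map φ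
  have htr : (φ M).trace = algebraMap K Ω M.trace := by
    simp [φ, Matrix.trace, Matrix.map_apply]
  rw [← isIntegral_algebraMap_iff (algebraMap K Ω).injective, ← htr,
    Matrix.trace_eq_sum_roots_charpoly]
  refine IsIntegral.multiset_sum fun μ hμ => ?_
  have hroot : IsRoot (φ M).charpoly μ := by
    rw [mem_roots (Matrix.charpoly_monic _).ne_zero] at hμ
    exact hμ
  have hspec : μ ∈ spectrum Ω (φ M) := Matrix.mem_spectrum_iff_isRoot_charpoly.mpr hroot
  obtain ⟨p, hp, hp0⟩ := hM'
  refine ⟨p, hp, ?_⟩
  have hnt : Nontrivial (Matrix n n Ω) := by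
    by_contra h
    rw [not_nontrivial_iff_subsingleton] at h
    have : IsUnit (algebraMap Ω (Matrix n n Ω) μ - φ M) := by
      refine ⟨⟨_, 0, Subsingleton.elim _ _, Subsingleton.elim _ _⟩, rfl⟩
    exact (spectrum.mem_iff.mp hspec) this
  have h1 := spectrum.subset_polynomial_aeval (φ M) (p.map (algebraMap R Ω)) ⟨μ, hspec, rfl⟩
  have h2 : aeval (φ M) (p.map (algebraMap R Ω)) = 0 := by
    rw [aeval_map_algebraMap]
    simpa [aeval_def] using hp0
  rw [h2, spectrum.zero_eq, Set.mem_singleton_iff] at h1
  simpa [eval_map] using h1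

/-- The trace of an integral element of a finite algebra `E` (not necessarily a field) over a
field `K` is integral. -/
theorem S18P14_isIntegral_trace {R K E : Type*} [CommRing R] [Field K] [Algebra R K]
    [CommRing E] [Algebra K E] [Algebra R E] [IsScalarTower R K E] [Module.Finite K E]
    {x : E} (hx : IsIntegral R x) : IsIntegral R (Algebra.trace K E x) := by
  classical
  let b := Module.finBasis K E
  rw [Algebra.trace_eq_matrix_trace b]
  apply S18P14_isIntegral_trace_matrix
  exact hx.map ((Algebra.leftMulMatrix b).restrictScalars R)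


section Finiteness

variable {R K E : Type*} [CommRing R] [Field K] [Algebra R K] [IsFractionRing R K]
  [CommRing E] [Algebra K E] [Algebra R E] [IsScalarTower R K E] [Module.Finite K E]

/-- A finite `K`-algebra has a `K`-basis consisting of elements integral over `R`
(`K = Frac R`). -/
theorem S18P14_exists_basis_integral (R K E : Type*) [CommRing R] [IsDomain R] [Field K]
    [Algebra R K] [IsFractionRing R K] [CommRing E] [Algebra K E] [Algebra R E]
    [IsScalarTower R K E] [Module.Finite K E] :
    ∃ (n : ℕ) (b : Basis (Fin n) K E), ∀ i, IsIntegral R (b i) := by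
  classical
  let b0 := Module.finBasis K E
  have h1 : Algebra.IsAlgebraic R K := IsLocalization.isAlgebraic K (nonZeroDivisors R)
  have h2 : Algebra.IsAlgebraic K E := Algebra.IsAlgebraic.of_finite K E
  have h3 : Algebra.IsAlgebraic R E := Algebra.IsAlgebraic.trans R K E
  obtain ⟨y, hy, hint⟩ :=
    Algebra.IsAlgebraic.exists_integral_multiples R (Finset.univ.image b0)
  have hyK : IsUnit (algebraMap R K y) :=
    IsUnit.mk0 _ (by
      rwa [Ne, map_eq_zero_iff _ (IsFractionRing.injective R K)])
  refine ⟨_, b0.isUnitSMul (fun _ => hyK), fun i => ?_⟩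
  rw [Basis.isUnitSMul_apply, algebraMap_smul]
  exact hint _ (Finset.mem_image_of_mem _ (Finset.mem_univ i))

theorem S18P14_integralClosure_le_span_dualBasis [IsIntegrallyClosed R]
    (hnd : (Algebra.traceForm K E).Nondegenerate) {ι : Type*} [Finite ι] [DecidableEq ι]
    (b : Basis ι K E) (hb_int : ∀ i, IsIntegral R (b i)) :
    Subalgebra.toSubmodule (integralClosure R E) ≤
      Submodule.span R (Set.range ((Algebra.traceForm K E).dualBasis hnd b)) := by
  rw [← LinearMap.BilinForm.dualSubmodule_span_of_basis,
    ← LinearMap.BilinForm.le_flip_dualSubmodule, Submodule.span_le]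
  rintro _ ⟨i, rfl⟩ y hy
  simp only [LinearMap.BilinForm.flip_apply, Algebra.traceForm_apply]
  refine Submodule.mem_one.mpr <| IsIntegrallyClosed.isIntegral_iff.mp ?_
  exact S18P14_isIntegral_trace ((show IsIntegral R y from hy).mul (hb_int i))

/-- **P14 (a)**: the integral closure of a noetherian integrally closed domain `R` in a finite
`K`-algebra `E` (`K = Frac R`) with nondegenerate trace form is a noetherian `R`-module. `E` need
not be a field. -/
theorem S18P14_isNoetherian_integralClosure [IsDomain R] [IsIntegrallyClosed R]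
    [IsNoetherianRing R] (hnd : (Algebra.traceForm K E).Nondegenerate) :
    IsNoetherian R (integralClosure R E) := by
  classical
  obtain ⟨n, b, hb_int⟩ := S18P14_exists_basis_integral R K E
  let b' := (Algebra.traceForm K E).dualBasis hnd b
  have hN : IsNoetherian R (Submodule.span R (Set.range b')) :=
    isNoetherian_span_of_finite R (Set.finite_range b')
  have hle := S18P14_integralClosure_le_span_dualBasis (R := R) hnd b hb_int
  have : IsNoetherian R (Subalgebra.toSubmodule (integralClosure R E)) :=
    isNoetherian_of_le hle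
  exact this

/-- **P14 (a)**, finiteness form. -/
theorem S18P14_finite_integralClosure [IsDomain R] [IsIntegrallyClosed R]
    [IsNoetherianRing R] (hnd : (Algebra.traceForm K E).Nondegenerate) :
    Module.Finite R (integralClosure R E) :=
  haveI := S18P14_isNoetherian_integralClosure (R := R) hnd
  Module.IsNoetherian.finite R _

end Finiteness


section BaseChange

open scoped TensorProduct

/-- Trace commutes with base change, on elements `1 ⊗ x`. -/
theorem S18P14_trace_one_tmul {R B A : Type*} [CommRing R] [CommRing B] [Algebra R B]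
    [Module.Free R B] [Module.Finite R B] [CommRing A] [Algebra R A] (x : B) :
    Algebra.trace A (A ⊗[R] B) (1 ⊗ₜ[R] x) = algebraMap R A (Algebra.trace R B x) := by
  rw [Algebra.trace_apply, ← Algebra.baseChange_lmul, LinearMap.trace_baseChange]
  rfl

/-- **P14 (a'), base change**: if the finite `L`-algebra `F` has nondegenerate trace form then so
has the `M`-algebra `M ⊗[L] F`, for every field extension `M / L`. -/
theorem S18P14_traceForm_baseChange_nondegenerate {L F M : Type*} [Field L] [Field M]
    [Algebra L M] [CommRing F] [Algebra L F] [Module.Finite L F]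
    (h : (Algebra.traceForm L F).Nondegenerate) :
    (Algebra.traceForm M (M ⊗[L] F)).Nondegenerate := by
  classical
  let b := Module.finBasis L F
  let b' := Algebra.TensorProduct.basis M b
  refine LinearMap.BilinForm.nondegenerate_of_det_ne_zero _ b' ?_
  have hmat : LinearMap.BilinForm.toMatrix b' (Algebra.traceForm M (M ⊗[L] F)) =
      (LinearMap.BilinForm.toMatrix b (Algebra.traceForm L F)).map (algebraMap L M) := by
    ext i j
    simp only [LinearMap.BilinForm.toMatrix_apply, Algebra.traceForm_apply, Matrix.map_apply, b',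
      Algebra.TensorProduct.basis_apply, Algebra.TensorProduct.tmul_mul_tmul, mul_one]
    exact S18P14_trace_one_tmul _
  rw [hmat, ← RingHom.mapMatrix_apply, ← RingHom.map_det]
  exact (_root_.map_ne_zero _).mpr ((LinearMap.BilinForm.nondegenerate_iff_det_ne_zero b).mp h)

/-- **P14 (a'), separable case**: for a finite separable field extension `F / L` and any field
extension `M / L`, the `M`-algebra `M ⊗[L] F` (a finite product of fields) has nondegenerate
trace form. -/
theorem S18P14_traceForm_tensor_nondegenerate (L F M : Type*) [Field L] [Field M]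
    [Algebra L M] [Field F] [Algebra L F] [FiniteDimensional L F] [Algebra.IsSeparable L F] :
    (Algebra.traceForm M (M ⊗[L] F)).Nondegenerate :=
  S18P14_traceForm_baseChange_nondegenerate (traceForm_nondegenerate L F)

end BaseChange


section Invariants

open scoped TensorProduct

variable {L M F : Type*} [Field L] [Field M] [Algebra L M] [CommRing F] [Algebra L F]

/-- Coordinates of `(σ ⊗ id) z` with respect to the base-changed basis `1 ⊗ b i`. -/
theorem S18P14_repr_map_tmul {ι : Type*} (b : Basis ι L F) (σ : M →ₐ[L] M)
    (z : M ⊗[L] F) (i : ι) :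
    (Algebra.TensorProduct.basis M b).repr
        (Algebra.TensorProduct.map σ (AlgHom.id L F) z) i =
      σ ((Algebra.TensorProduct.basis M b).repr z i) := by
  induction z using TensorProduct.induction_on with
  | zero => simp
  | tmul m x =>
    simp only [Algebra.TensorProduct.map_tmul, AlgHom.coe_id, id_eq,
      Algebra.TensorProduct.basis_repr_tmul, Finsupp.smul_apply, Finsupp.mapRange_apply,
      smul_eq_mul, map_mul, AlgHom.commutes]
  | add z w hz hw => simp only [map_add, Finsupp.add_apply, hz, hw]

/-- **P14 (b), invariants**: let `S` be a set of `L`-algebra endomorphisms of the field `M` whose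
common fixed points are exactly `L`. Then an element of `M ⊗[L] F` fixed by all `σ ⊗ id`,
`σ ∈ S`, is of the form `1 ⊗ x`. (`F` is an arbitrary commutative `L`-algebra.) -/
theorem S18P14_invariants_tensor (S : Set (M →ₐ[L] M))
    (hS : ∀ m : M, (∀ σ ∈ S, σ m = m) → ∃ l : L, algebraMap L M l = m)
    (z : M ⊗[L] F)
    (hz : ∀ σ ∈ S, Algebra.TensorProduct.map σ (AlgHom.id L F) z = z) :
    ∃ x : F, z = 1 ⊗ₜ[L] x := by
  classical
  let b := Module.Free.chooseBasis L F
  let b' := Algebra.TensorProduct.basis M b
  have hfix : ∀ i, ∃ l : L, algebraMap L M l = b'.repr z i := by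
    intro i
    refine hS _ fun σ hσ => ?_
    have := S18P14_repr_map_tmul b σ z i
    rw [hz σ hσ] at this
    exact this.symm
  choose l hl using hfix
  refine ⟨∑ i ∈ (b'.repr z).support, l i • b i, ?_⟩
  apply b'.repr.injective
  ext i
  rw [Algebra.TensorProduct.basis_repr_tmul, Finsupp.smul_apply, Finsupp.mapRange_apply,
    smul_eq_mul, one_mul, map_sum, Finsupp.finsetSum_apply]
  simp only [map_smul, Finsupp.smul_apply, Basis.repr_self, smul_eq_mul]
  rw [Finset.sum_eq_single i]
  · simp [hl]
  · intro j _ hji
    simp [hji]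
  · intro hi
    have h0 : b'.repr z i = 0 := by simpa using hi
    have : l i = 0 := by
      have := hl i
      rw [h0] at this
      exact (map_eq_zero_iff _ (algebraMap L M).injective).mp this
    simp [this]

/-- **P14 (b), invariants, group-action form**: if the group `G` acts on the field `M` by
`L`-algebra automorphisms with fixed field `L`, then the invariants of `G` acting on
`M ⊗[L] F` through the left factor are exactly the elements `1 ⊗ x`, `x : F`. -/
theorem S18P14_invariants_tensor_of_action {G : Type*} [Group G] [MulSemiringAction G M]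
    [SMulCommClass G L M] [Algebra.IsInvariant L M G] (z : M ⊗[L] F)
    (hz : ∀ g : G,
      Algebra.TensorProduct.map (MulSemiringAction.toAlgHom L M g) (AlgHom.id L F) z = z) :
    ∃ x : F, z = 1 ⊗ₜ[L] x := by
  refine S18P14_invariants_tensor (Set.range fun g : G => MulSemiringAction.toAlgHom L M g)
    (fun m hm => Algebra.IsInvariant.isInvariant (A := L) (G := G) m fun g => ?_) z ?_
  · exact hm _ ⟨g, rfl⟩
  · rintro _ ⟨g, rfl⟩
    exact hz g

/-- Conversely `1 ⊗ x` is fixed by every `σ ⊗ id`. -/
theorem S18P14_map_one_tmul (σ : M →ₐ[L] M) (x : F) :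
    Algebra.TensorProduct.map σ (AlgHom.id L F) (1 ⊗ₜ[L] x) = 1 ⊗ₜ[L] x := by
  simp

/-- `F → M ⊗[L] F`, `x ↦ 1 ⊗ x` is injective (`M` is a nonzero free `L`-module). -/
theorem S18P14_includeRight_injective :
    Function.Injective (Algebra.TensorProduct.includeRight : F →ₐ[L] M ⊗[L] F) :=
  Algebra.TensorProduct.includeRight_injective (algebraMap L M).injective

end Invariants


section Stability

open scoped TensorProduct

variable {L M F : Type*} [Field L] [Field M] [Algebra L M] [CommRing F] [Algebra L F]

/-- **P14 (b), stability**: let `R` be a ring mapping to `M` (e.g. a subring of `M`) and let the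
`L`-algebra endomorphism `σ` of `M` preserve `R` (`σ ∘ algebraMap = algebraMap ∘ τ`). Then
`σ ⊗ id` preserves the integral closure of `R` in `M ⊗[L] F`. -/
theorem S18P14_isIntegral_map {R : Type*} [CommRing R] [Algebra R M] (σ : M →ₐ[L] M)
    (τ : R →+* R) (hτ : ∀ r, σ (algebraMap R M r) = algebraMap R M (τ r))
    {z : M ⊗[L] F} (hz : IsIntegral R z) :
    IsIntegral R (Algebra.TensorProduct.map σ (AlgHom.id L F) z) := by
  refine IsIntegral.map_of_comp_eq τ
    (Algebra.TensorProduct.map σ (AlgHom.id L F)).toRingHom ?_ hz
  ext r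
  simp only [RingHom.comp_apply, Algebra.TensorProduct.algebraMap_apply, AlgHom.toRingHom_eq_coe,
    RingHom.coe_coe, Algebra.TensorProduct.map_tmul, map_one, hτ]

/-- Integrality of `x : F` versus integrality of `1 ⊗ x : M ⊗[L] F`, in ring-hom form:
`R₀ → L` and `R → M` are arbitrary ring homs (e.g. inclusions of subrings), `R₀ → R` is integral
and compatible. Then `1 ⊗ x` is integral over `R` iff `x` is integral over `R₀`. With
`S18P14_invariants_tensor` this is `B^G = B ∩ F = integral closure of R₀ in F`. -/
theorem S18P14_isIntegralElem_one_tmul_iff {R₀ R : Type*} [CommRing R₀] [CommRing R]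
    (f₀ : R₀ →+* L) (f : R →+* M) (ι : R₀ →+* R) (hι : ι.IsIntegral)
    (hcomp : f.comp ι = (algebraMap L M).comp f₀) (x : F) :
    ((Algebra.TensorProduct.includeLeftRingHom : M →+* M ⊗[L] F).comp f).IsIntegralElem
        (1 ⊗ₜ[L] x) ↔
      ((algebraMap L F).comp f₀).IsIntegralElem x := by
  set φ : R →+* M ⊗[L] F := (Algebra.TensorProduct.includeLeftRingHom).comp f with hφ
  set incR : F →+* M ⊗[L] F :=
    (Algebra.TensorProduct.includeRight : F →ₐ[L] M ⊗[L] F).toRingHom with hincR
  have hsq : φ.comp ι = incR.comp ((algebraMap L F).comp f₀) := by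
    ext r
    have h1 : f (ι r) = algebraMap L M (f₀ r) := by
      have := congrArg (fun g : R₀ →+* M => g r) hcomp
      simpa using this
    simp only [hφ, hincR, RingHom.comp_apply, Algebra.TensorProduct.includeLeftRingHom_apply, h1,
      AlgHom.toRingHom_eq_coe, RingHom.coe_coe, Algebra.TensorProduct.includeRight_apply]
    rw [Algebra.algebraMap_eq_smul_one, Algebra.algebraMap_eq_smul_one, TensorProduct.smul_tmul]
  have hx1 : incR x = 1 ⊗ₜ[L] x := rfl
  constructor
  · intro h
    have h2 : (φ.comp ι).IsIntegralElem (1 ⊗ₜ[L] x) := by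
      let _ : Algebra R₀ R := ι.toAlgebra
      let _ : Algebra R (M ⊗[L] F) := φ.toAlgebra
      let _ : Algebra R₀ (M ⊗[L] F) := (φ.comp ι).toAlgebra
      have : IsScalarTower R₀ R (M ⊗[L] F) := IsScalarTower.of_algebraMap_eq fun _ => rfl
      have : Algebra.IsIntegral R₀ R := ⟨hι⟩
      exact isIntegral_trans (R := R₀) (A := R) _ h
    rw [hsq] at h2
    obtain ⟨p, hp, hp0⟩ := h2
    refine ⟨p, hp, ?_⟩
    have hinj : Function.Injective incR := S18P14_includeRight_injective
    apply hinj
    rw [map_zero, ← hp0, ← hx1, Polynomial.hom_eval₂]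
  · rintro ⟨p, hp, hp0⟩
    refine ⟨p.map ι, hp.map ι, ?_⟩
    rw [Polynomial.eval₂_map, hsq, ← hx1, ← Polynomial.hom_eval₂, hp0, map_zero]

end Stability

end Fermat.Agent.S18_helper7_P14
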