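import Mathlib

set_option autoImplicit false

namespace Fermat.Agent.S18_helper9_CECH

variable {B : Type*} [CommRing B]

/-- One Newton step `a ↦ 3a² - 2a³` for idempotents: the new element differs from `a` by a
multiple of `a² - a`, and its idempotency defect is a multiple of `(a² - a)²`. -/
theorem newton_step (a : B) :
    (3 * a ^ 2 - 2 * a ^ 3) - a = (a * a - a) * (1 - 2 * a) ∧
    (3 * a ^ 2 - 2 * a ^ 3) * (3 * a ^ 2 - 2 * a ^ 3) - (3 * a ^ 2 - 2 * a ^ 3)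
      = (a * a - a) ^ 2 * (4 * (a * a - a) - 3) := by
  constructor <;> ring

/-- Idempotent lifting inside a subring `A` of `B` which is `p`-saturated: an element of `A`
which is idempotent modulo `p B` can be corrected inside `A`, modulo `p A`, to an element which is
idempotent modulo `p ^ n A`, for every `n ≥ 1`. -/
theorem exists_lift_idem (A : Subring B) (p : B) (hp : p ∈ A)
    (hsat : ∀ x : B, p * x ∈ A → ∃ a ∈ A, p * x = p * a)
    (a : B) (ha : a ∈ A) (hidem : ∃ w : B, a * a - a = p * w) (n : ℕ) :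
    ∃ a' ∈ A, (∃ w ∈ A, a' * a' - a' = p ^ (n + 1) * w) ∧ ∃ w ∈ A, a' - a = p * w := by
  induction n with
  | zero =>
    obtain ⟨w, hw⟩ := hidem
    have h1 : p * w ∈ A := by
      rw [← hw]; exact A.sub_mem (A.mul_mem ha ha) ha
    obtain ⟨w', hw', hww'⟩ := hsat w h1
    refine ⟨a, ha, ⟨w', hw', ?_⟩, ⟨0, A.zero_mem, by ring⟩⟩
    rw [hw, hww']; ring
  | succ n ih =>
    obtain ⟨a', ha', ⟨w, hw, hw2⟩, ⟨u, hu, hu2⟩⟩ := ih
    refine ⟨3 * a' ^ 2 - 2 * a' ^ 3, ?_, ⟨p ^ n * w ^ 2 * (4 * (a' * a' - a') - 3), ?_, ?_⟩,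
      ⟨u + p ^ n * w * (1 - 2 * a'), ?_, ?_⟩⟩
    · have h3 : (3 : B) ∈ A := by
        have : (3 : B) = ((3 : ℕ) : B) := by norm_num
        rw [this]; exact natCast_mem A 3
      have h2 : (2 : B) ∈ A := by
        have : (2 : B) = ((2 : ℕ) : B) := by norm_num
        rw [this]; exact natCast_mem A 2
      exact A.sub_mem (A.mul_mem h3 (A.pow_mem ha' 2)) (A.mul_mem h2 (A.pow_mem ha' 3))
    · have h3 : (3 : B) ∈ A := by
        have : (3 : B) = ((3 : ℕ) : B) := by norm_num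
        rw [this]; exact natCast_mem A 3
      have h4 : (4 : B) ∈ A := by
        have : (4 : B) = ((4 : ℕ) : B) := by norm_num
        rw [this]; exact natCast_mem A 4
      exact A.mul_mem (A.mul_mem (A.pow_mem hp n) (A.pow_mem hw 2))
        (A.sub_mem (A.mul_mem h4 (A.sub_mem (A.mul_mem ha' ha') ha')) h3)
    · rw [(newton_step a').2, hw2]; ring
    · have h2 : (2 : B) ∈ A := by
        have : (2 : B) = ((2 : ℕ) : B) := by norm_num
        rw [this]; exact natCast_mem A 2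
      exact A.add_mem hu (A.mul_mem (A.mul_mem (A.pow_mem hp n) hw)
        (A.sub_mem A.one_mem (A.mul_mem h2 ha')))
    · have e1 : (3 * a' ^ 2 - 2 * a' ^ 3) - a = ((3 * a' ^ 2 - 2 * a' ^ 3) - a') + (a' - a) := by
        ring
      rw [e1, (newton_step a').1, hw2, hu2]; ring

/-- Uniqueness of idempotent lifts: two elements which are idempotent modulo `p ^ n` and
congruent modulo `p` are congruent modulo `p ^ n`. -/
theorem idem_congr (p a b : B) (n : ℕ)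
    (ha : ∃ w, a * a - a = p ^ n * w) (hb : ∃ w, b * b - b = p ^ n * w)
    (hab : ∃ w, a - b = p * w) : ∃ w, a - b = p ^ n * w := by
  set I : Ideal B := Ideal.span {p ^ n} with hI
  have hmem : ∀ x : B, (∃ w, x = p ^ n * w) ↔ x ∈ I := by
    intro x
    rw [hI, Ideal.mem_span_singleton']
    constructor
    · rintro ⟨w, rfl⟩; exact ⟨w, by ring⟩
    · rintro ⟨w, rfl⟩; exact ⟨w, by ring⟩
  have h1 : IsIdempotentElem (Ideal.Quotient.mk I a) := by
    rw [IsIdempotentElem, ← map_mul, Ideal.Quotient.eq]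
    exact (hmem _).1 ha
  have h2 : IsIdempotentElem (Ideal.Quotient.mk I b) := by
    rw [IsIdempotentElem, ← map_mul, Ideal.Quotient.eq]
    exact (hmem _).1 hb
  have h3 : IsNilpotent (Ideal.Quotient.mk I a - Ideal.Quotient.mk I b) := by
    refine ⟨n, ?_⟩
    rw [← map_sub, ← map_pow, Ideal.Quotient.eq_zero_iff_mem]
    obtain ⟨w, hw⟩ := hab
    refine (hmem _).1 ⟨w ^ n, ?_⟩
    rw [hw]; ring
  have h4 := eq_of_isNilpotent_sub_of_isIdempotentElem h1 h2 h3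
  rw [Ideal.Quotient.eq] at h4
  exact (hmem _).2 h4

/-- **Two-chart Čech lemma.** Let `A₀, A₁` be subrings of `B`, `O` a subring of both
(given through a ring homomorphism `ι : O → B`), `π ∈ O`. Assume
* `A₀ ∩ A₁ = ι(O)` (`H⁰ = O`);
* the `π`-torsion of `B / (A₀ + A₁)` is bounded (`H¹` has bounded torsion);
* `A₀` and `A₁` are `π`-saturated in `B`.
If `a ∈ A₀` and `b ∈ A₁` are congruent modulo `π B` and idempotent modulo `π B`, then their common
class modulo `π B` is the class of a constant `γ ∈ O`. -/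
theorem cech_two_chart {O : Type*} [CommRing O] (ι : O →+* B) (π : O)
    (A₀ A₁ : Subring B) (hι₀ : ∀ x : O, ι x ∈ A₀) (hι₁ : ∀ x : O, ι x ∈ A₁)
    (hsat₀ : ∀ x : B, ι π * x ∈ A₀ → ∃ a ∈ A₀, ι π * x = ι π * a)
    (hsat₁ : ∀ x : B, ι π * x ∈ A₁ → ∃ a ∈ A₁, ι π * x = ι π * a)
    (hH0 : ∀ x : B, x ∈ A₀ → x ∈ A₁ → ∃ γ : O, ι γ = x)
    (c : ℕ)
    (hH1 : ∀ x : B, (∃ u ∈ A₀, ∃ v ∈ A₁, ι π ^ (c + 1) * x = u + v) →
      ∃ u ∈ A₀, ∃ v ∈ A₁, ι π ^ c * x = u + v)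
    (a b : B) (ha : a ∈ A₀) (hb : b ∈ A₁)
    (hab : ∃ w : B, a - b = ι π * w) (hidem : ∃ w : B, a * a - a = ι π * w) :
    ∃ γ : O, ∃ w : B, a - ι γ = ι π * w := by
  -- `b` is idempotent mod `π` as well
  have hidemb : ∃ w : B, b * b - b = ι π * w := by
    obtain ⟨w, hw⟩ := hab
    obtain ⟨w', hw'⟩ := hidem
    refine ⟨w' - w * (a + b - 1), ?_⟩
    have : b * b - b = (a * a - a) - (a - b) * (a + b - 1) := by ring
    rw [this, hw, hw']; ring
  obtain ⟨a', ha', ⟨wa, -, hwa⟩, ⟨ua, hua, hua2⟩⟩ :=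
    exists_lift_idem A₀ (ι π) (hι₀ π) hsat₀ a ha hidem c
  obtain ⟨b', hb', ⟨wb, -, hwb⟩, ⟨ub, hub, hub2⟩⟩ :=
    exists_lift_idem A₁ (ι π) (hι₁ π) hsat₁ b hb hidemb c
  -- `a' ≡ b'` modulo `π`
  have hab' : ∃ w, a' - b' = ι π * w := by
    obtain ⟨w, hw⟩ := hab
    refine ⟨ua + w - ub, ?_⟩
    have : a' - b' = (a' - a) + (a - b) - (b' - b) := by ring
    rw [this, hua2, hw, hub2]; ring
  obtain ⟨cn, hcn⟩ := idem_congr (ι π) a' b' (c + 1) ⟨wa, hwa⟩ ⟨wb, hwb⟩ hab'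
  obtain ⟨u, hu, v, hv, huv⟩ := hH1 cn ⟨a', ha', -b', A₁.neg_mem hb', by rw [← hcn]; ring⟩
  -- `a' - π u = b' + π v` lies in `A₀ ∩ A₁`
  have hx₀ : a' - ι π * u ∈ A₀ := A₀.sub_mem ha' (A₀.mul_mem (hι₀ π) hu)
  have hx₁ : a' - ι π * u ∈ A₁ := by
    have : a' - ι π * u = b' + ι π * v := by
      have h1 : a' - b' = ι π * (ι π ^ c * cn) := by rw [hcn]; ring
      have h2 : a' - ι π * u - (b' + ι π * v) = (a' - b') - ι π * (u + v) := by ring
      have h3 : a' - ι π * u - (b' + ι π * v) = 0 := by rw [h2, h1, huv]; ring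
      exact sub_eq_zero.mp h3
    rw [this]
    exact A₁.add_mem hb' (A₁.mul_mem (hι₁ π) hv)
  obtain ⟨γ, hγ⟩ := hH0 _ hx₀ hx₁
  refine ⟨γ, u - ua, ?_⟩
  have : a - ι γ = -(a' - a) + ι π * u := by rw [hγ]; ring
  rw [this, hua2]; ring

end Fermat.Agent.S18_helper9_CECH
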