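import Fermat.Agent.S20_Basic

set_option autoImplicit false

open UpperHalfPlane ModularForm CongruenceSubgroup Matrix.SpecialLinearGroup
open scoped MatrixGroups ModularForm Manifold

namespace Fermat.Agent.S20

variable {N : ℕ} [NeZero N]

/-- The matrix of conjugates of the basis elements. -/
noncomputable def Phi (B : HomBasis N) (z : ℍ) : Matrix (Q N) (Fin B.n) ℂ :=
  Matrix.of fun q i => cj N (B.wt i) (B.f i) q z

theorem Phi_apply (B : HomBasis N) (z : ℍ) (q : Q N) (i : Fin B.n) :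
    Phi B z q i = cj N (B.wt i) (B.f i) q z := rfl

/-- Pointwise linear independence of the columns of `Phi`. -/
def PointwiseIndep (B : HomBasis N) : Prop :=
  ∀ (z : ℍ) (c : Fin B.n → ℂ), (∀ q : Q N, ∑ i, c i * cj N (B.wt i) (B.f i) q z = 0) → c = 0

/-- Decay of the inverse of `Phi` at `i∞`. -/
def InvDecay (B : HomBasis N) : Prop :=
  ∀ (Ψ : ℍ → Matrix (Fin B.n) (Q N) ℂ), (∀ z, Ψ z * Phi B z = 1) →
    ∀ (i : Fin B.n) (q : Q N),
      IsZeroAtImInfty (fun z => ModularForm.discriminant z * Ψ z i q)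

theorem neg_one_mem_Gamma0 (N : ℕ) : (-1 : SL(2, ℤ)) ∈ Gamma0 N := by
  rw [Gamma0_mem]
  simp

theorem IsMF.eq_zero_of_odd {k : ℤ} {f : ℍ → ℂ} (hf : IsMF N k f) (hk : Odd k) : f = 0 := by
  obtain ⟨F, rfl⟩ := hf
  have h1 : (-1 : GL (Fin 2) ℝ) ∈ (Gamma0 N : Subgroup (GL (Fin 2) ℝ)) :=
    ⟨-1, neg_one_mem_Gamma0 N, by ext i j; fin_cases i <;> fin_cases j <;> simp⟩
  rw [ModularForm.eq_zero_of_neg_one_mem h1 hk F]
  rfl

theorem IsMF.eq_zero_of_neg {k : ℤ} {f : ℍ → ℂ} (hf : IsMF N k f) (hk : k < 0) : f = 0 := by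
  obtain ⟨F, rfl⟩ := hf
  rw [ModularForm.isZero_of_neg_weight hk F]
  rfl

theorem IsMF.eq_const {f : ℍ → ℂ} (hf : IsMF N 0 f) : ∃ c : ℂ, f = fun _ => c := by
  obtain ⟨F, rfl⟩ := hf
  obtain ⟨c, hc⟩ := ModularForm.eq_const_of_weight_zero F
  exact ⟨c, hc⟩

theorem IsMF1.eq_zero_of_neg {k : ℤ} {f : ℍ → ℂ} (hf : IsMF1 k f) (hk : k < 0) : f = 0 :=
  (hf.isMF (N := 1)).eq_zero_of_neg hk

theorem IsMF1.eq_zero_of_odd {k : ℤ} {f : ℍ → ℂ} (hf : IsMF1 k f) (hk : Odd k) : f = 0 :=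
  (hf.isMF (N := 1)).eq_zero_of_odd hk

theorem IsMF1.eq_const {f : ℍ → ℂ} (hf : IsMF1 0 f) : ∃ c : ℂ, f = fun _ => c :=
  (hf.isMF (N := 1)).eq_const

namespace HomBasis

variable (B : HomBasis N)

theorem f_ne_zero (i : Fin B.n) : B.f i ≠ 0 := by
  intro h
  classical
  have h1 := B.indep (B.wt i) (fun j => if j = i then (1 : ℍ → ℂ) else 0)
    (fun j => by
      by_cases hj : j = i
      · subst hj
        simpa using IsMF1.one
      · simpa [hj] using IsMF1.zero)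
    (by
      rw [Finset.sum_eq_single i]
      · simp [h]
      · intro j _ hj
        simp [hj]
      · simp) i
  simp only [if_true] at h1
  have := congrFun h1 UpperHalfPlane.I
  simp at this

theorem wt_nonneg (i : Fin B.n) : 0 ≤ B.wt i := by
  by_contra h
  exact B.f_ne_zero i ((B.isMF i).eq_zero_of_neg (not_le.mp h))

theorem wt_even (i : Fin B.n) : Even (B.wt i) := by
  by_contra h
  exact B.f_ne_zero i ((B.isMF i).eq_zero_of_odd (Int.not_even_iff_odd.mp h))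

end HomBasis

end Fermat.Agent.S20
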