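import Fermat.Agent.S20_helper10_DK
import Fermat.Agent.S20_helper13_Da

set_option autoImplicit false

open UpperHalfPlane ModularForm CongruenceSubgroup
open scoped MatrixGroups ModularForm Manifold Topology
open Fermat.Agent.S20 Fermat.Agent.S20_helper10_DDefs Fermat.Agent.S20_helper10_DK

namespace Fermat.Agent.S20_helper10_D1

variable (N : ℕ) [NeZero N]

/-- `E₄ M_{w-4} + E₆ M_{w-6}` -/
noncomputable def IS (w : ℤ) : Submodule ℂ (ℍ → ℂ) :=
  (MS N (w - 4)).map (LinearMap.mulLeft ℂ (⇑E₄ : ℍ → ℂ)) ⊔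
    (MS N (w - 6)).map (LinearMap.mulLeft ℂ (⇑E₆ : ℍ → ℂ))

theorem mem_IS {w : ℤ} {F : ℍ → ℂ} : F ∈ IS N w ↔
    ∃ G H : ℍ → ℂ, IsMF N (w - 4) G ∧ IsMF N (w - 6) H ∧ F = ⇑E₄ * G + ⇑E₆ * H := by
  unfold IS
  rw [Submodule.mem_sup]
  constructor
  · rintro ⟨y, hy, z, hz, rfl⟩
    obtain ⟨G, hG, rfl⟩ := Submodule.mem_map.mp hy
    obtain ⟨H, hH, rfl⟩ := Submodule.mem_map.mp hz
    exact ⟨G, H, hG, hH, rfl⟩
  · rintro ⟨G, H, hG, hH, rfl⟩
    exact ⟨_, Submodule.mem_map.mpr ⟨G, hG, rfl⟩, _, Submodule.mem_map.mpr ⟨H, hH, rfl⟩, rfl⟩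

theorem isMF_E₄_mul {w : ℤ} {G : ℍ → ℂ} (hG : IsMF N (w - 4) G) : IsMF N w (⇑E₄ * G) :=
  ((isMF1_E₄.isMF (N := N)).mul hG).cast (by ring)

theorem isMF_E₆_mul {w : ℤ} {G : ℍ → ℂ} (hG : IsMF N (w - 6) G) : IsMF N w (⇑E₆ * G) :=
  ((isMF1_E₆.isMF (N := N)).mul hG).cast (by ring)

theorem IS_le (w : ℤ) : IS N w ≤ MS N w := by
  intro F hF
  obtain ⟨G, H, hG, hH, rfl⟩ := (mem_IS N).mp hF
  exact (isMF_E₄_mul N hG).add (isMF_E₆_mul N hH)

/-- a basis of a complement of `IS N w` in `MS N w` -/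
theorem exists_compl_basis (w : ℤ) : ∃ (m : ℕ) (g : Fin m → ℍ → ℂ), (∀ j, IsMF N w (g j)) ∧
    (∀ F, IsMF N w F → ∃ (c : Fin m → ℂ) (G H : ℍ → ℂ), IsMF N (w - 4) G ∧ IsMF N (w - 6) H ∧
      F = ∑ j, c j • g j + ⇑E₄ * G + ⇑E₆ * H) ∧
    (∀ (c : Fin m → ℂ) (G H : ℍ → ℂ), IsMF N (w - 4) G → IsMF N (w - 6) H →
      ∑ j, c j • g j = ⇑E₄ * G + ⇑E₆ * H → c = 0) := by
  obtain ⟨C, hC⟩ := Submodule.exists_isCompl (IS N w)
  have : Module.Finite ℂ (MS N w) := (Fermat.Agent.S20_helper13_Da.D_sturm N w).1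
  set V : Submodule ℂ (ℍ → ℂ) := C ⊓ MS N w with hV
  have hVle : V ≤ MS N w := inf_le_right
  have : Module.Finite ℂ V := Submodule.finiteDimensional_of_le hVle
  let b := Module.finBasis ℂ V
  refine ⟨Module.finrank ℂ V, fun j => (b j : ℍ → ℂ), fun j => hVle (b j).2, ?_, ?_⟩
  · intro F hF
    have hmem : F ∈ IS N w ⊔ C := by rw [hC.sup_eq_top]; trivial
    obtain ⟨x, hx, y, hy, hxy⟩ := Submodule.mem_sup.mp hmem
    have hyM : y ∈ MS N w := by
      have : y = F - x := by rw [← hxy]; abel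
      rw [this]
      exact (MS N w).sub_mem hF (IS_le N w hx)
    have hyV : y ∈ V := ⟨hy, hyM⟩
    obtain ⟨G, H, hG, hH, hxGH⟩ := (mem_IS N).mp hx
    refine ⟨fun j => b.repr ⟨y, hyV⟩ j, G, H, hG, hH, ?_⟩
    have h1 := b.sum_repr ⟨y, hyV⟩
    have h2 : (∑ j, b.repr ⟨y, hyV⟩ j • (b j : ℍ → ℂ)) = y := by
      have h3 := congrArg (Subtype.val) h1
      rw [Submodule.coe_sum] at h3
      simpa only [Submodule.coe_smul] using h3
    rw [h2, ← hxy, hxGH]
    abel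
  · intro c G H hG hH h
    have h1 : (∑ j, c j • (b j : ℍ → ℂ)) ∈ V :=
      V.sum_mem fun j _ => V.smul_mem _ (b j).2
    have h2 : (∑ j, c j • (b j : ℍ → ℂ)) ∈ IS N w := by
      rw [h]
      exact (mem_IS N).mpr ⟨G, H, hG, hH, rfl⟩
    have h3 : (∑ j, c j • (b j : ℍ → ℂ)) ∈ IS N w ⊓ C := ⟨h2, h1.1⟩
    rw [hC.inf_eq_bot, Submodule.mem_bot] at h3
    have h4 : ∑ j, c j • b j = 0 := by
      apply Subtype.ext
      rw [Submodule.coe_sum, Submodule.coe_zero]
      simpa only [Submodule.coe_smul] using h3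
    have := Fintype.linearIndependent_iff.mp b.linearIndependent c h4
    funext j
    exact this j


/-- number of generators of weight `w` -/
noncomputable def gm (w : ℕ) : ℕ := Classical.choose (exists_compl_basis N (w : ℤ))

/-- the generators of weight `w` -/
noncomputable def gg (w : ℕ) : Fin (gm N w) → ℍ → ℂ :=
  Classical.choose (Classical.choose_spec (exists_compl_basis N (w : ℤ)))

theorem gg_isMF (w : ℕ) (j : Fin (gm N w)) : IsMF N (w : ℤ) (gg N w j) :=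
  (Classical.choose_spec (Classical.choose_spec (exists_compl_basis N (w : ℤ)))).1 j

theorem gg_span (w : ℕ) (F : ℍ → ℂ) (hF : IsMF N (w : ℤ) F) :
    ∃ (c : Fin (gm N w) → ℂ) (G H : ℍ → ℂ), IsMF N ((w : ℤ) - 4) G ∧ IsMF N ((w : ℤ) - 6) H ∧
      F = ∑ j, c j • gg N w j + ⇑E₄ * G + ⇑E₆ * H :=
  (Classical.choose_spec (Classical.choose_spec (exists_compl_basis N (w : ℤ)))).2.1 F hF

theorem gg_indep (w : ℕ) (c : Fin (gm N w) → ℂ) (G H : ℍ → ℂ) (hG : IsMF N ((w : ℤ) - 4) G)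
    (hH : IsMF N ((w : ℤ) - 6) H) (h : ∑ j, c j • gg N w j = ⇑E₄ * G + ⇑E₆ * H) : c = 0 :=
  (Classical.choose_spec (Classical.choose_spec (exists_compl_basis N (w : ℤ)))).2.2 c G H hG hH h

/-- the index type of all generators -/
abbrev Idx : Type := Σ w : ℕ, Fin (gm N w)

/-- the family of all generators -/
noncomputable def fI (i : Idx N) : ℍ → ℂ := gg N i.1 i.2

theorem fI_isMF (i : Idx N) : IsMF N (i.1 : ℤ) (fI N i) := gg_isMF N i.1 i.2

/-- the generators of weight at most `W` -/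
noncomputable def SW (W : ℕ) : Finset (Idx N) := (Finset.range (W + 1)).sigma fun _ => Finset.univ

theorem mem_SW {W : ℕ} {i : Idx N} : i ∈ SW N W ↔ i.1 ≤ W := by
  simp [SW]

/-- extension by zero of a coefficient vector in weight `w` -/
noncomputable def extc (w : ℕ) (c : Fin (gm N w) → ℂ) (i : Idx N) : ℂ :=
  if h : i.1 = w then c (Fin.cast (congrArg (gm N) h) i.2) else 0

theorem extc_self (w : ℕ) (c : Fin (gm N w) → ℂ) (j : Fin (gm N w)) :
    extc N w c ⟨w, j⟩ = c j := by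
  simp [extc]

theorem extc_ne (w : ℕ) (c : Fin (gm N w) → ℂ) (i : Idx N) (h : i.1 ≠ w) :
    extc N w c i = 0 := by
  simp [extc, h]

theorem sum_SW_weight (W w : ℕ) (hw : w ≤ W) (κ : Idx N → ℂ) (hκ : ∀ i : Idx N, i.1 ≠ w → κ i = 0) :
    ∑ i ∈ SW N W, (fun _ : ℍ => κ i) * fI N i = ∑ j : Fin (gm N w), κ ⟨w, j⟩ • gg N w j := by
  unfold SW
  rw [Finset.sum_sigma]
  rw [Finset.sum_eq_single w]
  · refine Finset.sum_congr rfl fun j _ => ?_
    funext z
    simp [fI]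
  · intro w' _ hw'
    refine Finset.sum_eq_zero fun j _ => ?_
    rw [hκ ⟨w', j⟩ hw']
    funext z
    simp
  · intro h
    exact absurd (Finset.mem_range.mpr (Nat.lt_succ_of_le hw)) h

theorem isMF_sum_SW (W : ℕ) (w : ℤ) (a : Idx N → ℍ → ℂ) (ha : ∀ i, IsMF1 (w - i.1) (a i)) :
    IsMF N w (∑ i ∈ SW N W, a i * fI N i) := by
  refine IsMF.sum _ _ fun i _ => ?_
  exact (((ha i).isMF (N := N)).mul (fI_isMF N i)).cast (by ring)

theorem spanW (n : ℕ) : ∀ (W : ℕ) (w : ℤ), w < n → w ≤ W → ∀ F : ℍ → ℂ, IsMF N w F →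
    ∃ a : Idx N → ℍ → ℂ, (∀ i, IsMF1 (w - i.1) (a i)) ∧ F = ∑ i ∈ SW N W, a i * fI N i := by
  induction n with
  | zero =>
    intro W w hw _ F hF
    have hw' : w < 0 := by simpa using hw
    refine ⟨fun _ => 0, fun _ => IsMF1.zero, ?_⟩
    rw [hF.eq_zero_of_neg hw']
    simp
  | succ n ih =>
    intro W w hw hwW F hF
    rcases lt_or_ge w 0 with hneg | hnn
    · refine ⟨fun _ => 0, fun _ => IsMF1.zero, ?_⟩
      rw [hF.eq_zero_of_neg hneg]
      simp
    obtain ⟨w', rfl⟩ := Int.eq_ofNat_of_zero_le hnn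
    have hw'W : w' ≤ W := by exact_mod_cast hwW
    obtain ⟨c, G, H, hG, hH, hFeq⟩ := gg_span N w' F hF
    obtain ⟨aG, haG, hGeq⟩ := ih W ((w' : ℤ) - 4) (by push_cast at hw ⊢; omega) (by omega) G hG
    obtain ⟨aH, haH, hHeq⟩ := ih W ((w' : ℤ) - 6) (by push_cast at hw ⊢; omega) (by omega) H hH
    refine ⟨fun i => (fun _ : ℍ => extc N w' c i) + ⇑E₄ * aG i + ⇑E₆ * aH i, fun i => ?_, ?_⟩
    · refine IsMF1.add (IsMF1.add ?_ ?_) ?_
      · by_cases h : i.1 = w'
        · have : (w' : ℤ) - (i.1 : ℤ) = 0 := by rw [h]; ring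
          rw [this]
          exact IsMF1.const _
        · rw [extc_ne N w' c i h]
          exact IsMF1.zero
      · exact (isMF1_E₄.mul (haG i)).cast (by ring)
      · exact (isMF1_E₆.mul (haH i)).cast (by ring)
    · have h1 := sum_SW_weight N W w' hw'W (extc N w' c) (fun i hi => extc_ne N w' c i hi)
      simp only [extc_self] at h1
      rw [hFeq, ← h1, hGeq, hHeq]
      simp only [add_mul, Finset.sum_add_distrib, Finset.mul_sum, mul_assoc]


theorem indepW (n : ℕ) : ∀ (W : ℕ) (w : ℤ), w < n → w ≤ W → ∀ a : Idx N → ℍ → ℂ,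
    (∀ i, IsMF1 (w - i.1) (a i)) → ∑ i ∈ SW N W, a i * fI N i = 0 →
      ∀ i ∈ SW N W, a i = 0 := by
  induction n with
  | zero =>
    intro W w hw _ a ha _ i _
    have hw' : w < 0 := by simpa using hw
    exact (ha i).eq_zero_of_neg (by omega)
  | succ n ih =>
    intro W w hw hwW a ha hsum
    rcases lt_or_ge w 0 with hneg | hnn
    · intro i _
      exact (ha i).eq_zero_of_neg (by omega)
    obtain ⟨w', rfl⟩ := Int.eq_ofNat_of_zero_le hnn
    have hw'W : w' ≤ W := by exact_mod_cast hwW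
    choose κ b c hκ hb hc habc using fun i => D_decomp (ha i)
    have hb' : ∀ i : Idx N, IsMF1 ((w' : ℤ) - 4 - i.1) (b i) := fun i => (hb i).cast (by ring)
    have hc' : ∀ i : Idx N, IsMF1 ((w' : ℤ) - 6 - i.1) (c i) := fun i => (hc i).cast (by ring)
    have hB : IsMF N ((w' : ℤ) - 4) (∑ i ∈ SW N W, b i * fI N i) := isMF_sum_SW N W _ b hb'
    have hC : IsMF N ((w' : ℤ) - 6) (∑ i ∈ SW N W, c i * fI N i) := isMF_sum_SW N W _ c hc'
    have hκ' : ∀ i : Idx N, i.1 ≠ w' → κ i = 0 := fun i hi => hκ i (by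
      intro h
      apply hi
      omega)
    have hsum' : ∑ i ∈ SW N W, (fun _ : ℍ => κ i) * fI N i +
        ⇑E₄ * (∑ i ∈ SW N W, b i * fI N i) + ⇑E₆ * (∑ i ∈ SW N W, c i * fI N i) = 0 := by
      rw [← hsum]
      simp only [Finset.mul_sum, ← Finset.sum_add_distrib]
      refine Finset.sum_congr rfl fun i _ => ?_
      conv_rhs => rw [habc i]
      ring
    rw [sum_SW_weight N W w' hw'W κ hκ'] at hsum'
    have hκ0 : (fun j => κ ⟨w', j⟩) = 0 :=
      gg_indep N w' _ (-(∑ i ∈ SW N W, b i * fI N i)) (-(∑ i ∈ SW N W, c i * fI N i))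
        hB.neg hC.neg (by linear_combination hsum')
    have hκall : ∀ i : Idx N, κ i = 0 := by
      intro i
      by_cases h : i.1 = w'
      · obtain ⟨w'', j⟩ := i
        simp only at h
        subst h
        exact congrFun hκ0 j
      · exact hκ' i h
    have hEBC : ⇑E₄ * (∑ i ∈ SW N W, b i * fI N i) + ⇑E₆ * (∑ i ∈ SW N W, c i * fI N i) = 0 := by
      have h0 : ∑ j : Fin (gm N w'), κ ⟨w', j⟩ • gg N w' j = 0 :=
        Finset.sum_eq_zero fun j _ => by rw [hκall, zero_smul]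
      rw [h0, zero_add] at hsum'
      exact hsum'
    obtain ⟨B', hB', hBB', hCB'⟩ := D_koszul hB hC hEBC
    obtain ⟨d, hd, hB'eq⟩ := spanW N (n + 1) W ((w' : ℤ) - 10) (by omega) (by omega) B' hB'
    have r1 : ∑ i ∈ SW N W, (b i - ⇑E₆ * d i) * fI N i = 0 := by
      simp only [sub_mul, Finset.sum_sub_distrib, mul_assoc, ← Finset.mul_sum]
      rw [← hB'eq]
      exact sub_eq_zero.mpr hBB'
    have hb0 := ih W ((w' : ℤ) - 4) (by push_cast at hw ⊢; omega) (by omega)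
      (fun i => b i - ⇑E₆ * d i)
      (fun i => (hb' i).sub ((isMF1_E₆.mul (hd i)).cast (by ring))) r1
    have r2 : ∑ i ∈ SW N W, (c i + ⇑E₄ * d i) * fI N i = 0 := by
      simp only [add_mul, Finset.sum_add_distrib, mul_assoc, ← Finset.mul_sum]
      rw [← hB'eq, hCB']
      exact neg_add_cancel _
    have hc0 := ih W ((w' : ℤ) - 6) (by push_cast at hw ⊢; omega) (by omega)
      (fun i => c i + ⇑E₄ * d i)
      (fun i => (hc' i).add ((isMF1_E₄.mul (hd i)).cast (by ring))) r2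
    intro i hi
    have h1 : b i = ⇑E₆ * d i := sub_eq_zero.mp (hb0 i hi)
    have h2 : c i = -(⇑E₄ * d i) := eq_neg_of_add_eq_zero_left (hc0 i hi)
    rw [habc i, hκall i, h1, h2]
    funext z
    simp only [Pi.add_apply, Pi.mul_apply, Pi.neg_apply, Pi.zero_apply]
    ring

/-- independence in all weights, for the generators of weight at most `W` -/
theorem indep_all (W : ℕ) (w : ℤ) (a : Idx N → ℍ → ℂ)
    (ha : ∀ i ∈ SW N W, IsMF1 (w - i.1) (a i)) (h : ∑ i ∈ SW N W, a i * fI N i = 0) :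
    ∀ i ∈ SW N W, a i = 0 := by
  classical
  set W' : ℕ := max W w.toNat with hW'
  have hsub : SW N W ⊆ SW N W' := by
    intro i hi
    rw [mem_SW] at hi ⊢
    exact le_trans hi (le_max_left _ _)
  set a' : Idx N → ℍ → ℂ := fun i => if i ∈ SW N W then a i else 0 with ha'
  have h1 : ∑ i ∈ SW N W', a' i * fI N i = 0 := by
    rw [← h, ← Finset.sum_subset hsub]
    · refine Finset.sum_congr rfl fun i hi => ?_
      simp only [ha', hi, if_true]
    · intro i _ hi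
      simp only [ha', hi, if_false, zero_mul]
  have h2 : ∀ i, IsMF1 (w - i.1) (a' i) := by
    intro i
    by_cases hi : i ∈ SW N W
    · simp only [ha', hi, if_true]
      exact ha i hi
    · simp only [ha', hi, if_false]
      exact IsMF1.zero
  have hwW' : w ≤ (W' : ℤ) := by
    have : w ≤ (w.toNat : ℤ) := Int.self_le_toNat w
    have h3 : (w.toNat : ℤ) ≤ (W' : ℤ) := by exact_mod_cast le_max_right W w.toNat
    exact le_trans this h3
  have h3 := indepW N (W' + 1) W' w (by push_cast; omega) hwW' a' h2 h1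
  intro i hi
  have := h3 i (hsub hi)
  simpa only [ha', hi, if_true] using this

end Fermat.Agent.S20_helper10_D1
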