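import Fermat.Agent.S20_helper10_DDefs
import Fermat.Agent.S20_helper10_E0
import Fermat.Agent.S20_helper13_B2

set_option autoImplicit false

open UpperHalfPlane ModularForm CongruenceSubgroup
open scoped MatrixGroups ModularForm Manifold Topology
open Fermat.Agent.S20 Fermat.Agent.S20_helper10_DDefs

namespace Fermat.Agent.S20_helper10_DK

theorem tendsto_E₆ : ∃ c : ℂ, c ≠ 0 ∧ Filter.Tendsto (⇑E₆) atImInfty (nhds c) :=
  ⟨1, one_ne_zero, Fermat.Agent.S20_helper13_B2.tendsto_E (k := 6) (by norm_num) (by decide)⟩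

theorem tendsto_E₄ : ∃ c : ℂ, c ≠ 0 ∧ Filter.Tendsto (⇑E₄) atImInfty (nhds c) :=
  ⟨1, one_ne_zero, Fermat.Agent.S20_helper13_B2.tendsto_E (k := 4) (by norm_num) (by decide)⟩

/-- The Koszul relation: `(E₄, E₆)` is a regular sequence on the module of forms. -/
theorem D_koszul {N : ℕ} [NeZero N] {w : ℤ} {B C : ℍ → ℂ} (hB : IsMF N (w - 4) B)
    (hC : IsMF N (w - 6) C) (h : ⇑E₄ * B + ⇑E₆ * C = 0) :
    ∃ B' : ℍ → ℂ, IsMF N (w - 10) B' ∧ B = ⇑E₆ * B' ∧ C = -(⇑E₄ * B') := by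
  -- conjugates of the relation
  have hconj : ∀ q : Q N, ⇑E₄ * cj N (w - 4) B q + ⇑E₆ * cj N (w - 6) C q = 0 := by
    intro q
    have h1 : cj N (4 + (w - 4)) (⇑E₄ * B) q = ⇑E₄ * cj N (w - 4) B q :=
      cj_mul_left isMF1_E₄ B q
    have h2 : cj N (6 + (w - 6)) (⇑E₆ * C) q = ⇑E₆ * cj N (w - 6) C q :=
      cj_mul_left isMF1_E₆ C q
    have e1 : (4 : ℤ) + (w - 4) = w := by ring
    have e2 : (6 : ℤ) + (w - 6) = w := by ring
    rw [e1] at h1
    rw [e2] at h2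
    rw [← h1, ← h2, ← cj_add, h, cj_zero]
  have hvan : ∀ z : ℍ, E₆ z = 0 → ∀ q : Q N, cj N (w - 4) B q z = 0 := by
    intro z hz q
    have := congrFun (hconj q) z
    simp only [Pi.add_apply, Pi.mul_apply, Pi.zero_apply, hz, zero_mul, add_zero] at this
    rcases mul_eq_zero.mp this with h4 | h4
    · exact (Fermat.Agent.S20_helper13_B2.E₄_E₆_not_both_zero z h4 hz).elim
    · exact h4
  obtain ⟨G, hG, hBG⟩ := Fermat.Agent.S20_helper10_E0.E0_div hB isMF1_E₆ tendsto_E₆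
    Fermat.Agent.S20_helper13_B2.B2b hvan
  have hG' : IsMF N (w - 10) G := hG.cast (by ring)
  refine ⟨G, hG', hBG, ?_⟩
  have hcont : Continuous (⇑E₄ * G + C) := by
    have h1 : MDifferentiable 𝓘(ℂ) 𝓘(ℂ) (⇑E₄ * G + C) :=
      (isMF1_E₄.holo.mul hG.holo).add hC.holo
    exact h1.continuous
  have := Fermat.Agent.S20_helper10_E0.eq_zero_of_mul_eq_zero isMF1_E₆.holo hcont
    Fermat.Agent.S20_helper13_B2.B2b (fun z => by
      have h1 := congrFun h z
      have h2 := congrFun hBG z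
      simp only [Pi.add_apply, Pi.mul_apply, Pi.zero_apply] at h1 h2 ⊢
      rw [h2] at h1
      linear_combination h1)
  exact eq_neg_of_add_eq_zero_right this

/-- level one forms of weight two vanish -/
theorem isMF1_two_eq_zero {a : ℍ → ℂ} (ha : IsMF1 2 a) : a = 0 := by
  obtain ⟨F, rfl⟩ := ha
  have := rank_zero_iff_forall_zero.mp ModularForm.levelOne_weight_two_rank_zero F
  rw [this]
  rfl

/-- decomposition of a level one form into a constant and multiples of `E₄`, `E₆` -/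
theorem D_decomp {v : ℤ} {a : ℍ → ℂ} (ha : IsMF1 v a) :
    ∃ (κ : ℂ) (b c : ℍ → ℂ), (v ≠ 0 → κ = 0) ∧ IsMF1 (v - 4) b ∧ IsMF1 (v - 6) c ∧
      a = (fun _ => κ) + ⇑E₄ * b + ⇑E₆ * c := by
  have hzero : a = 0 → ∃ (κ : ℂ) (b c : ℍ → ℂ), (v ≠ 0 → κ = 0) ∧ IsMF1 (v - 4) b ∧
      IsMF1 (v - 6) c ∧ a = (fun _ => κ) + ⇑E₄ * b + ⇑E₆ * c := by
    intro h0
    refine ⟨0, 0, 0, fun _ => rfl, IsMF1.zero, IsMF1.zero, ?_⟩
    rw [h0]
    funext z
    simp
  rcases lt_or_ge v 0 with hv | hv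
  · exact hzero (ha.eq_zero_of_neg hv)
  rcases eq_or_lt_of_le hv with hv0 | hv0
  · subst hv0
    obtain ⟨κ, hκ⟩ := ha.eq_const
    refine ⟨κ, 0, 0, fun h => absurd rfl h, IsMF1.zero, IsMF1.zero, ?_⟩
    rw [hκ]
    funext z
    simp
  rcases lt_or_ge v 4 with hv4 | hv4
  · have : v = 1 ∨ v = 2 ∨ v = 3 := by omega
    rcases this with rfl | rfl | rfl
    · exact hzero (ha.eq_zero_of_odd (by decide))
    · exact hzero (isMF1_two_eq_zero ha)
    · exact hzero (ha.eq_zero_of_odd (by decide))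
  · obtain ⟨b, c, hb, hc, habc⟩ := Fermat.Agent.S20_helper8_B1.B1b hv4 ha
    refine ⟨0, b, c, fun _ => rfl, hb, hc, ?_⟩
    rw [habc]
    funext z
    simp

end Fermat.Agent.S20_helper10_DK
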