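import Fermat.Agent.S20_Core
import Fermat.Agent.S20_helper8_B1
import Fermat.Agent.S20_helper10_E0
import Fermat.Agent.S20_helper13_B2
import Fermat.Agent.S20_helper19_B3

/-!
# S20, piece E3: pointwise independence at the zeros of `E₄`

The file is organised so that the analogous statement at the zeros of `E₆` (piece E2) follows
from the same two generic results:

* `indep_at_fixed`: pointwise independence at a fixed point `z₀` of some `γ ∈ SL(2,ℤ)`;
* `indep_transport`: transport of pointwise independence from `z₀` to `z₁` when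
  `(E₄ z₁, E₆ z₁) = (t⁴ E₄ z₀, t⁶ E₆ z₀)` with `t ≠ 0`.
-/

set_option autoImplicit false

open UpperHalfPlane ModularForm CongruenceSubgroup Matrix.SpecialLinearGroup
open scoped MatrixGroups ModularForm Manifold
open Fermat.Agent.S20

namespace Fermat.Agent.S20_helper1_E3

variable {N : ℕ} [NeZero N]

/-- A submodule of `ι → ℂ` which is stable under a diagonal operator is stable under the
projections onto the level sets of the diagonal entries (Lagrange interpolation). -/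
theorem split_of_diag_stable {ι : Type*} [Fintype ι] (K : Submodule ℂ (ι → ℂ)) (ε : ι → ℂ)
    (hK : ∀ c ∈ K, (fun i => ε i * c i) ∈ K) (c : ι → ℂ) (hc : c ∈ K) (κ : ℂ) :
    (fun i => if ε i = κ then c i else 0) ∈ K := by
  classical
  have hpow : ∀ n : ℕ, (fun i => ε i ^ n * c i) ∈ K := by
    intro n
    induction n with
    | zero => simpa using hc
    | succ n ih =>
      have := hK _ ih
      convert this using 1
      ext i
      ring
  have hpoly : ∀ p : Polynomial ℂ, (fun i => p.eval (ε i) * c i) ∈ K := by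
    intro p
    induction p using Polynomial.induction_on' with
    | add p q hp hq =>
      have := K.add_mem hp hq
      convert this using 1
      ext i
      simp [add_mul]
    | monomial n a =>
      have := K.smul_mem a (hpow n)
      convert this using 1
      ext i
      simp [Polynomial.eval_monomial, mul_assoc]
  by_cases hκ : κ ∈ Finset.univ.image ε
  · have := hpoly (Lagrange.basis (Finset.univ.image ε) id κ)
    convert this using 1
    ext i
    by_cases hi : ε i = κ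
    · rw [if_pos hi]
      have h1 : (Lagrange.basis (Finset.univ.image ε) id κ).eval (ε i) = 1 := by
        rw [hi]
        exact Lagrange.eval_basis_self (v := id) (Function.injective_id.injOn) hκ
      rw [h1, one_mul]
    · rw [if_neg hi]
      have h1 : (Lagrange.basis (Finset.univ.image ε) id κ).eval (ε i) = 0 :=
        Lagrange.eval_basis_of_ne (v := id) (i := κ) (j := ε i) (Ne.symm hi)
          (Finset.mem_image_of_mem _ (Finset.mem_univ i))
      rw [h1, zero_mul]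
  · convert K.zero_mem using 1
    ext i
    rw [if_neg]
    · rfl
    · intro hi
      exact hκ (hi ▸ Finset.mem_image_of_mem _ (Finset.mem_univ i))

omit [NeZero N] in
/-- `cj_mul_left` with a free total weight. -/
theorem cj_mul_left' {k₁ k₂ k : ℤ} (hk : k₁ + k₂ = k) {f : ℍ → ℂ} (ha : IsMF1 k₁ f)
    (g : ℍ → ℂ) (q : Q N) : cj N k (f * g) q = f * cj N k₂ g q := by
  subst hk
  exact cj_mul_left ha g q

/-- The kernel of `Phi B z`, as a submodule. -/
def ker (B : HomBasis N) (z : ℍ) : Submodule ℂ (Fin B.n → ℂ) where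
  carrier := {c | ∀ q : Q N, ∑ i, c i * cj N (B.wt i) (B.f i) q z = 0}
  add_mem' := by
    intro a b ha hb q
    have := congrArg₂ (· + ·) (ha q) (hb q)
    simp only [add_zero] at this
    rw [← this, ← Finset.sum_add_distrib]
    refine Finset.sum_congr rfl fun i _ => ?_
    simp only [Pi.add_apply]
    ring
  zero_mem' := by
    intro q
    simp
  smul_mem' := by
    intro a c hc q
    have := congrArg (a * ·) (hc q)
    simp only [mul_zero] at this
    rw [← this, Finset.mul_sum]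
    refine Finset.sum_congr rfl fun i _ => ?_
    simp only [Pi.smul_apply, smul_eq_mul]
    ring

omit [NeZero N] in
theorem mem_ker (B : HomBasis N) (z : ℍ) (c : Fin B.n → ℂ) :
    c ∈ ker B z ↔ ∀ q : Q N, ∑ i, c i * cj N (B.wt i) (B.f i) q z = 0 := Iff.rfl

/-- At a fixed point `z₀` of `γ`, the kernel of `Phi B z₀` is stable under the diagonal
operator with entries `(denom γ z₀) ^ k_i`. -/
theorem ker_stable (B : HomBasis N) (γ : SL(2, ℤ)) (z₀ : ℍ) (hfix : γ • z₀ = z₀)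
    (c : Fin B.n → ℂ) (hc : c ∈ ker B z₀) :
    (fun i => (denom γ z₀) ^ (B.wt i) * c i) ∈ ker B z₀ := by
  intro q
  have h1 := hc (γ • q)
  rw [← h1]
  refine Finset.sum_congr rfl fun i _ => ?_
  have h2 := cj_smul_apply (B.isMF i) γ (γ • q) z₀
  rw [hfix, inv_smul_smul] at h2
  rw [h2]
  ring

/-- Core of the fixed point step: a kernel vector supported on a single class is zero. -/
theorem indep_at_fixed_aux (B : HomBasis N) (z₀ : ℍ) (ζ : ℂ) (hζ0 : ζ ≠ 0)
    (m : ℕ) (hm : 0 < m)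
    (hζ : ∀ k : ℤ, Even k → ζ ^ k = 1 → (m : ℤ) ∣ k)
    (R : ℍ → ℂ) (hR : IsMF1 m R) (hR0 : R z₀ ≠ 0)
    (P : ℍ → ℂ) (wP : ℤ) (hP : IsMF1 wP P) (hP0 : P z₀ = 0)
    (hPinf : ∃ c : ℂ, c ≠ 0 ∧ Filter.Tendsto P atImInfty (nhds c))
    (hsimple : ∀ z : ℍ, P z = 0 → deriv (P ∘ ofComplex) z ≠ 0)
    (hzeros : ∀ z₁ : ℍ, P z₁ = 0 → ∃ t : ℂ, E₄ z₁ = t ^ 4 * E₄ z₀ ∧ E₆ z₁ = t ^ 6 * E₆ z₀)
    (c : Fin B.n → ℂ) (hc : c ∈ ker B z₀) (i₀ : Fin B.n)
    (hsupp : ∀ i, c i ≠ 0 → ζ ^ (B.wt i) = ζ ^ (B.wt i₀)) : c = 0 := by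
  classical
  -- the common weight
  set L : ℕ := ∑ i, (B.wt i).toNat with hL
  set w : ℤ := B.wt i₀ + m * L with hw
  have hwt : ∀ i, (B.wt i : ℤ) ≤ L := by
    intro i
    have h1 : (B.wt i).toNat ≤ L :=
      Finset.single_le_sum (f := fun i => (B.wt i).toNat) (fun _ _ => Nat.zero_le _)
        (Finset.mem_univ i)
    have h2 : ((B.wt i).toNat : ℤ) = B.wt i := Int.toNat_of_nonneg (B.wt_nonneg i)
    rw [← h2]
    exact_mod_cast h1
  have hwge : ∀ i, B.wt i ≤ w := by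
    intro i
    have h1 := hwt i
    have h2 := B.wt_nonneg i₀
    have h3 : (L : ℤ) ≤ m * L := by
      have : (1 : ℤ) ≤ m := by exact_mod_cast hm
      nlinarith [Int.natCast_nonneg L]
    rw [hw]
    linarith
  -- exponents
  have hdiv : ∀ i, c i ≠ 0 → ∃ e : ℕ, (e : ℤ) * m = w - B.wt i := by
    intro i hi
    have h1 : ζ ^ (B.wt i - B.wt i₀) = 1 := by
      rw [zpow_sub₀ hζ0, hsupp i hi, div_self (zpow_ne_zero _ hζ0)]
    have h2 : (m : ℤ) ∣ B.wt i - B.wt i₀ :=
      hζ _ ((B.wt_even i).sub (B.wt_even i₀)) h1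
    have h3 : (m : ℤ) ∣ w - B.wt i := by
      have : w - B.wt i = m * L - (B.wt i - B.wt i₀) := by rw [hw]; ring
      rw [this]
      exact dvd_sub (dvd_mul_right _ _) h2
    obtain ⟨d, hd⟩ := h3
    have hd0 : 0 ≤ d := by
      have h4 : 0 ≤ w - B.wt i := sub_nonneg.mpr (hwge i)
      rw [hd] at h4
      have : (0 : ℤ) < m := by exact_mod_cast hm
      by_contra hneg
      rw [not_le] at hneg
      nlinarith
    refine ⟨d.toNat, ?_⟩
    rw [Int.toNat_of_nonneg hd0, hd, mul_comm]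
  -- the coefficients
  have hcoef : ∀ i, ∃ a : ℍ → ℂ, IsMF1 (w - B.wt i) a ∧ a z₀ = c i := by
    intro i
    by_cases hi : c i = 0
    · exact ⟨0, IsMF1.zero, by simp [hi]⟩
    · obtain ⟨e, he⟩ := hdiv i hi
      refine ⟨(c i * (R z₀ ^ e)⁻¹) • R ^ e, ((hR.pow e).smul _).cast he, ?_⟩
      simp only [Pi.smul_apply, Pi.pow_apply, smul_eq_mul]
      rw [mul_assoc, inv_mul_cancel₀ (pow_ne_zero _ hR0), mul_one]
  choose a ha ha0 using hcoef
  -- the form `F`
  set F : ℍ → ℂ := ∑ i, a i * B.f i with hFdef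
  have hF : IsMF N w F :=
    IsMF.sum _ _ fun i _ => (((ha i).isMF (N := N)).mul (B.isMF i)).cast (by ring)
  have hcjF : ∀ q : Q N, cj N w F q = ∑ i, a i * cj N (B.wt i) (B.f i) q := by
    intro q
    rw [hFdef, cj_sum]
    refine Finset.sum_congr rfl fun i _ => ?_
    exact cj_mul_left' (by ring) (ha i) _ q
  have hvan0 : ∀ q : Q N, cj N w F q z₀ = 0 := by
    intro q
    rw [hcjF q, Finset.sum_apply]
    rw [← hc q]
    refine Finset.sum_congr rfl fun i _ => ?_
    rw [Pi.mul_apply, ha0 i]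
  have hvan : ∀ z : ℍ, P z = 0 → ∀ q : Q N, cj N w F q z = 0 := by
    intro z hz
    obtain ⟨t, h4, h6⟩ := hzeros z hz
    exact Fermat.Agent.S20_helper10_E0.E0_prop hF z₀ z t h4 h6 hvan0
  obtain ⟨G, hG, hFG⟩ := Fermat.Agent.S20_helper10_E0.E0_div hF hP hPinf hsimple hvan
  obtain ⟨b, hb, hGb⟩ := B.span (w - wP) G hG
  have hrel : ∑ i, (a i - P * b i) * B.f i = 0 := by
    have h1 : ∑ i, (a i - P * b i) * B.f i = F - P * G := by
      rw [hFdef, hGb, Finset.mul_sum, ← Finset.sum_sub_distrib]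
      refine Finset.sum_congr rfl fun i _ => ?_
      ring
    rw [h1, hFG, sub_self]
  have hind := B.indep w (fun i => a i - P * b i)
    (fun i => (ha i).sub ((hP.mul (hb i)).cast (by ring))) hrel
  funext i
  have h1 := congrFun (hind i) z₀
  simp only [Pi.sub_apply, Pi.mul_apply, Pi.zero_apply, hP0, zero_mul, sub_zero] at h1
  rw [← ha0 i, h1]
  rfl

/-- Pointwise independence at a fixed point `z₀` of `γ ∈ SL(2,ℤ)`, where `ζ = denom γ z₀` is
such that `ζ ^ k = 1` (`k` even) forces `m ∣ k`, `R` is a level one form of weight `m` not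
vanishing at `z₀`, and `P` is a level one form with simple zeros, all "proportional" to `z₀`. -/
theorem indep_at_fixed (B : HomBasis N) (γ : SL(2, ℤ)) (z₀ : ℍ) (hfix : γ • z₀ = z₀)
    (m : ℕ) (hm : 0 < m)
    (hζ : ∀ k : ℤ, Even k → (denom γ z₀) ^ k = 1 → (m : ℤ) ∣ k)
    (R : ℍ → ℂ) (hR : IsMF1 m R) (hR0 : R z₀ ≠ 0)
    (P : ℍ → ℂ) (wP : ℤ) (hP : IsMF1 wP P) (hP0 : P z₀ = 0)
    (hPinf : ∃ c : ℂ, c ≠ 0 ∧ Filter.Tendsto P atImInfty (nhds c))
    (hsimple : ∀ z : ℍ, P z = 0 → deriv (P ∘ ofComplex) z ≠ 0)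
    (hzeros : ∀ z₁ : ℍ, P z₁ = 0 → ∃ t : ℂ, E₄ z₁ = t ^ 4 * E₄ z₀ ∧ E₆ z₁ = t ^ 6 * E₆ z₀)
    (c : Fin B.n → ℂ) (h : ∀ q : Q N, ∑ i, c i * cj N (B.wt i) (B.f i) q z₀ = 0) : c = 0 := by
  classical
  have hζ0 : denom γ z₀ ≠ 0 := denom_ne_zero _ z₀
  have hc : c ∈ ker B z₀ := h
  funext i₀
  have hsplit := split_of_diag_stable (ker B z₀) (fun i => (denom γ z₀) ^ (B.wt i))
    (fun c hc => ker_stable B γ z₀ hfix c hc) c hc ((denom γ z₀) ^ (B.wt i₀))
  have h0 := indep_at_fixed_aux B z₀ (denom γ z₀) hζ0 m hm hζ R hR hR0 P wP hP hP0 hPinf hsimple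
    hzeros _ hsplit i₀ (fun i hi => by
      by_contra hne
      exact hi (if_neg hne))
  have h1 := congrFun h0 i₀
  simpa using h1

/-- Transport of pointwise independence from `z₀` to `z₁`, via the Gram matrix. -/
theorem indep_transport (B : HomBasis N) (hn : B.n = mu N) (z₀ z₁ : ℍ) (t : ℂ) (ht : t ≠ 0)
    (h4 : E₄ z₁ = t ^ 4 * E₄ z₀) (h6 : E₆ z₁ = t ^ 6 * E₆ z₀)
    (h0 : ∀ c : Fin B.n → ℂ, (∀ q : Q N, ∑ i, c i * cj N (B.wt i) (B.f i) q z₀ = 0) → c = 0)
    (c : Fin B.n → ℂ) (h : ∀ q : Q N, ∑ i, c i * cj N (B.wt i) (B.f i) q z₁ = 0) : c = 0 := by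
  classical
  -- Gram entries
  have hgram : ∀ i l : Fin B.n,
      ∑ q : Q N, cj N (B.wt i) (B.f i) q z₁ * cj N (B.wt l) (B.f l) q z₁ =
        t ^ (B.wt i).toNat * t ^ (B.wt l).toNat *
          ∑ q : Q N, cj N (B.wt i) (B.f i) q z₀ * cj N (B.wt l) (B.f l) q z₀ := by
    intro i l
    have h1 := Fermat.Agent.S20_helper8_B1.B1a
      (isMF1_sum_cj_mul (B.isMF i) (B.isMF l)) z₀ z₁ t h4 h6
    simp only [Finset.sum_apply, Pi.mul_apply] at h1
    rw [h1, Int.toNat_add (B.wt_nonneg i) (B.wt_nonneg l), pow_add]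
  -- the modified vector
  set c' : Fin B.n → ℂ := fun l => t ^ (B.wt l).toNat * c l with hc'
  set v : Q N → ℂ := fun q => ∑ l, c' l * cj N (B.wt l) (B.f l) q z₀ with hv
  have hvA : ∀ i : Fin B.n, ∑ q : Q N, cj N (B.wt i) (B.f i) q z₀ * v q = 0 := by
    intro i
    have h1 : ∑ l, (∑ q : Q N, cj N (B.wt i) (B.f i) q z₁ * cj N (B.wt l) (B.f l) q z₁) * c l
        = 0 := by
      simp only [Finset.sum_mul]
      rw [Finset.sum_comm]
      refine Finset.sum_eq_zero fun q _ => ?_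
      have := congrArg (cj N (B.wt i) (B.f i) q z₁ * ·) (h q)
      simp only [mul_zero, Finset.mul_sum] at this
      rw [← this]
      refine Finset.sum_congr rfl fun l _ => ?_
      ring
    simp only [hgram] at h1
    have h2 : t ^ (B.wt i).toNat *
        ∑ q : Q N, cj N (B.wt i) (B.f i) q z₀ * v q = 0 := by
      rw [← h1, hv]
      simp only [Finset.mul_sum, Finset.sum_mul]
      rw [Finset.sum_comm]
      refine Finset.sum_congr rfl fun l _ => ?_
      refine Finset.sum_congr rfl fun q _ => ?_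
      rw [hc']
      ring
    rcases mul_eq_zero.mp h2 with h3 | h3
    · exact absurd h3 (pow_ne_zero _ ht)
    · exact h3
  -- the linear map `Phi z₀`
  let Lm : (Fin B.n → ℂ) →ₗ[ℂ] (Q N → ℂ) :=
    { toFun := fun x q => ∑ i, x i * cj N (B.wt i) (B.f i) q z₀
      map_add' := by
        intro x y
        funext q
        simp only [Pi.add_apply, add_mul, Finset.sum_add_distrib]
      map_smul' := by
        intro a x
        funext q
        simp only [Pi.smul_apply, smul_eq_mul, RingHom.id_apply, Finset.mul_sum, mul_assoc] }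
  have hLinj : Function.Injective Lm := by
    rw [← LinearMap.ker_eq_bot, LinearMap.ker_eq_bot']
    intro x hx
    exact h0 x fun q => congrFun hx q
  have hfr : Module.finrank ℂ (Fin B.n → ℂ) = Module.finrank ℂ (Q N → ℂ) := by
    rw [Module.finrank_fintype_fun_eq_card, Module.finrank_fintype_fun_eq_card,
      Fintype.card_fin, hn, mu, Nat.card_eq_fintype_card]
  have hLsurj : Function.Surjective Lm :=
    (LinearMap.injective_iff_surjective_of_finrank_eq_finrank hfr).mp hLinj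
  have hv0 : v = 0 := by
    funext q₀
    obtain ⟨x, hx⟩ := hLsurj (Pi.single q₀ 1)
    have h1 : ∑ q : Q N, v q * (Lm x) q = v q₀ := by
      rw [hx]
      simp [Pi.single_apply]
    rw [Pi.zero_apply, ← h1]
    show ∑ q : Q N, v q * ∑ i, x i * cj N (B.wt i) (B.f i) q z₀ = 0
    simp only [Finset.mul_sum]
    rw [Finset.sum_comm]
    refine Finset.sum_eq_zero fun i _ => ?_
    have := congrArg (x i * ·) (hvA i)
    simp only [mul_zero, Finset.mul_sum] at this
    rw [← this]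
    refine Finset.sum_congr rfl fun q _ => ?_
    ring
  have hc'0 : c' = 0 := h0 c' fun q => congrFun hv0 q
  funext l
  have h1 := congrFun hc'0 l
  simp only [hc', Pi.zero_apply] at h1
  rcases mul_eq_zero.mp h1 with h2 | h2
  · exact absurd h2 (pow_ne_zero _ ht)
  · exact h2

/-- A sixth root of unity computation: `ζ² - ζ + 1 = 0`, `k` even and `ζ ^ k = 1` force
`6 ∣ k`. -/
theorem six_dvd_of_zpow_eq_one (ζ : ℂ) (hζ : ζ ^ 2 - ζ + 1 = 0) (k : ℤ) (hk : Even k)
    (h : ζ ^ k = 1) : (6 : ℤ) ∣ k := by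
  have hne : ζ ≠ 0 := by
    rintro rfl
    norm_num at hζ
  have h2 : ζ ^ 2 = ζ - 1 := by linear_combination hζ
  have h3 : ζ ^ 3 = -1 := by linear_combination (ζ + 1) * hζ
  have h6 : ζ ^ (6 : ℤ) = 1 := by
    have : ζ ^ (6 : ℤ) = (ζ ^ 3) ^ 2 := by
      rw [show (6 : ℤ) = ((6 : ℕ) : ℤ) from rfl, zpow_natCast]
      ring
    rw [this, h3]
    norm_num
  obtain ⟨j, hj⟩ := hk
  have hjd : j = 3 * (j / 3) + j % 3 := (Int.mul_ediv_add_emod j 3).symm
  have hr0 : 0 ≤ j % 3 := Int.emod_nonneg _ (by norm_num)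
  have hr3 : j % 3 < 3 := Int.emod_lt_of_pos _ (by norm_num)
  have hkd : k = 6 * (j / 3) + 2 * (j % 3) := by
    rw [hj]
    linarith
  have hpow : ζ ^ k = ζ ^ (2 * (j % 3)) := by
    rw [hkd, zpow_add₀ hne, zpow_mul, h6, one_zpow, one_mul]
  rw [hpow] at h
  have hcases : j % 3 = 0 ∨ j % 3 = 1 ∨ j % 3 = 2 := by omega
  rcases hcases with hr | hr | hr
  · rw [hkd, hr]
    exact ⟨j / 3, by ring⟩
  · exfalso
    rw [hr] at h
    have h' : ζ ^ 2 = 1 := by
      have : ζ ^ (2 * 1 : ℤ) = ζ ^ 2 := by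
        rw [show (2 * 1 : ℤ) = ((2 : ℕ) : ℤ) from rfl, zpow_natCast]
      rw [← this]
      exact h
    have hz : ζ = 2 := by linear_combination h' - h2
    rw [hz] at hζ
    norm_num at hζ
  · exfalso
    rw [hr] at h
    have h' : ζ ^ 4 = 1 := by
      have : ζ ^ (2 * 2 : ℤ) = ζ ^ 4 := by
        rw [show (2 * 2 : ℤ) = ((4 : ℕ) : ℤ) from rfl, zpow_natCast]
      rw [← this]
      exact h
    have hz : ζ = -1 := by linear_combination ζ * h3 - h'
    rw [hz] at hζ
    norm_num at hζ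

/-- Piece E3: pointwise independence at the zeros of `E₄`. -/
theorem E3 {N : ℕ} [NeZero N] (B : HomBasis N) (hn : B.n = mu N) (z₀ : ℍ) (h4 : E₄ z₀ = 0)
    (c : Fin B.n → ℂ) (h : ∀ q : Q N, ∑ i, c i * cj N (B.wt i) (B.f i) q z₀ = 0) : c = 0 := by
  obtain ⟨ρ, hρ⟩ := Fermat.Agent.S20_helper19_B3.B3c
  have hE4ρ : E₄ ρ = 0 := Fermat.Agent.S20_helper19_B3.B3b ρ hρ
  have hE6ρ : E₆ ρ ≠ 0 := fun h6 =>
    Fermat.Agent.S20_helper13_B2.E₄_E₆_not_both_zero ρ hE4ρ h6
  have hE6z : E₆ z₀ ≠ 0 := fun h6 =>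
    Fermat.Agent.S20_helper13_B2.E₄_E₆_not_both_zero z₀ h4 h6
  have key : ∀ z₁ : ℍ, E₄ z₁ = 0 →
      ∃ t : ℂ, E₄ z₁ = t ^ 4 * E₄ ρ ∧ E₆ z₁ = t ^ 6 * E₆ ρ := by
    intro z₁ hz₁
    obtain ⟨t, ht⟩ := IsAlgClosed.exists_pow_nat_eq (E₆ z₁ / E₆ ρ) (n := 6) (by norm_num)
    refine ⟨t, by rw [hz₁, hE4ρ, mul_zero], ?_⟩
    rw [ht, div_mul_cancel₀ _ hE6ρ]
  obtain ⟨t, ht4, ht6⟩ := key z₀ h4
  have ht : t ≠ 0 := by
    rintro rfl
    rw [zero_pow (by norm_num), zero_mul] at ht6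
    exact hE6z ht6
  refine indep_transport B hn ρ z₀ t ht ht4 ht6 ?_ c h
  intro c' hc'
  refine indep_at_fixed B (ModularGroup.S * ModularGroup.T) ρ hρ 6 (by norm_num) ?_
    (⇑E₆) isMF1_E₆ hE6ρ (⇑E₄) 4 isMF1_E₄ hE4ρ
    ⟨1, one_ne_zero, Fermat.Agent.S20_helper13_B2.tendsto_E _ ⟨2, rfl⟩⟩
    Fermat.Agent.S20_helper13_B2.B2a key c' hc'
  intro k hk hk1
  rw [Fermat.Agent.S20_helper19_B3.denom_ST] at hk1
  exact six_dvd_of_zpow_eq_one _ (Fermat.Agent.S20_helper19_B3.B3g ρ hρ) k hk hk1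

end Fermat.Agent.S20_helper1_E3
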