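import Fermat.Agent.S20_helper1_E3

set_option autoImplicit false

open UpperHalfPlane ModularForm CongruenceSubgroup Matrix.SpecialLinearGroup
open scoped MatrixGroups ModularForm Manifold
open Fermat.Agent.S20

namespace Fermat.Agent.S20_helper20_E2

/-- `I ^ k = 1` with `k` even forces `4 ∣ k`. -/
theorem four_dvd_of_I_zpow_eq_one (k : ℤ) (hk : Even k) (h : Complex.I ^ k = 1) :
    (4 : ℤ) ∣ k := by
  obtain ⟨j, hj⟩ := hk
  have hk2 : k = 2 * j := by rw [hj]; ring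
  have h1 : Complex.I ^ k = (-1 : ℂ) ^ j := by
    rw [hk2, zpow_mul]
    congr 1
    rw [show (2 : ℤ) = ((2 : ℕ) : ℤ) from rfl, zpow_natCast, Complex.I_sq]
  rw [h1] at h
  rcases Int.even_or_odd j with hj' | hj'
  · obtain ⟨i, hi⟩ := hj'
    exact ⟨i, by rw [hk2, hi]; ring⟩
  · exfalso
    rw [hj'.neg_one_zpow] at h
    norm_num at h

/-- Piece E2: pointwise independence at the zeros of `E₆`. -/
theorem E2 {N : ℕ} [NeZero N] (B : HomBasis N) (hn : B.n = mu N) (z₀ : ℍ) (h6 : E₆ z₀ = 0)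
    (c : Fin B.n → ℂ) (h : ∀ q : Q N, ∑ i, c i * cj N (B.wt i) (B.f i) q z₀ = 0) : c = 0 := by
  have hE6I : E₆ UpperHalfPlane.I = 0 := Fermat.Agent.S20_helper19_B3.B3a
  have hE4I : E₄ UpperHalfPlane.I ≠ 0 := fun h4 =>
    Fermat.Agent.S20_helper13_B2.E₄_E₆_not_both_zero UpperHalfPlane.I h4 hE6I
  have hE4z : E₄ z₀ ≠ 0 := fun h4 =>
    Fermat.Agent.S20_helper13_B2.E₄_E₆_not_both_zero z₀ h4 h6
  have key : ∀ z₁ : ℍ, E₆ z₁ = 0 →
      ∃ t : ℂ, E₄ z₁ = t ^ 4 * E₄ UpperHalfPlane.I ∧ E₆ z₁ = t ^ 6 * E₆ UpperHalfPlane.I := by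
    intro z₁ hz₁
    obtain ⟨t, ht⟩ := IsAlgClosed.exists_pow_nat_eq (E₄ z₁ / E₄ UpperHalfPlane.I) (n := 4)
      (by norm_num)
    refine ⟨t, ?_, by rw [hz₁, hE6I, mul_zero]⟩
    rw [ht, div_mul_cancel₀ _ hE4I]
  obtain ⟨t, ht4, ht6⟩ := key z₀ h6
  have ht : t ≠ 0 := by
    rintro rfl
    rw [zero_pow (by norm_num), zero_mul] at ht4
    exact hE4z ht4
  refine Fermat.Agent.S20_helper1_E3.indep_transport B hn UpperHalfPlane.I z₀ t ht ht4 ht6 ?_ c h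
  intro c' hc'
  refine Fermat.Agent.S20_helper1_E3.indep_at_fixed B ModularGroup.S UpperHalfPlane.I
    Fermat.Agent.S20_helper19_B3.B3d 4 (by norm_num) ?_
    (⇑E₄) isMF1_E₄ hE4I (⇑E₆) 6 isMF1_E₆ hE6I
    ⟨1, one_ne_zero, Fermat.Agent.S20_helper13_B2.tendsto_E _ ⟨3, rfl⟩⟩
    Fermat.Agent.S20_helper13_B2.B2b key c' hc'
  intro k hk hk1
  rw [ModularGroup.denom_S] at hk1
  exact four_dvd_of_I_zpow_eq_one k hk hk1

end Fermat.Agent.S20_helper20_E2
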