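import Fermat.Agent.S20_Core
import Fermat.Agent.S20_helper8_B1

set_option autoImplicit false

open UpperHalfPlane ModularForm CongruenceSubgroup Matrix.SpecialLinearGroup
open scoped MatrixGroups ModularForm Manifold
open Fermat.Agent.S20

namespace Fermat.Agent.S20_helper20_Gram

variable {N : ℕ} [NeZero N]

/-- finite products of level one forms -/
theorem isMF1_prod {ι : Type*} (s : Finset ι) (w : ι → ℤ) (F : ι → ℍ → ℂ)
    (h : ∀ i ∈ s, IsMF1 (w i) (F i)) : IsMF1 (∑ i ∈ s, w i) (∏ i ∈ s, F i) := by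
  classical
  induction s using Finset.induction_on with
  | empty => simpa using IsMF1.one
  | insert a s ha ih =>
    rw [Finset.sum_insert ha, Finset.prod_insert ha]
    exact (h a (Finset.mem_insert_self a s)).mul
      (ih fun i hi => h i (Finset.mem_insert_of_mem hi))

/-- The Gram matrix `Phiᵀ * Phi`. -/
noncomputable def gram (B : HomBasis N) (z : ℍ) : Matrix (Fin B.n) (Fin B.n) ℂ :=
  (Phi B z).transpose * Phi B z

theorem gram_apply (B : HomBasis N) (z : ℍ) (i l : Fin B.n) :
    gram B z i l = ∑ q : Q N, cj N (B.wt i) (B.f i) q z * cj N (B.wt l) (B.f l) q z := by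
  simp [gram, Matrix.mul_apply, Phi_apply]

theorem isMF1_gram_entry (B : HomBasis N) (i l : Fin B.n) :
    IsMF1 (B.wt i + B.wt l) (fun z => gram B z i l) := by
  have h := isMF1_sum_cj_mul (B.isMF i) (B.isMF l)
  have e : (fun z => gram B z i l) =
      ∑ q : Q N, cj N (B.wt i) (B.f i) q * cj N (B.wt l) (B.f l) q := by
    funext z
    rw [gram_apply]
    simp
  rw [e]
  exact h

/-- The Gram determinant is a level one form of weight `2 * ∑ k_i`. -/
theorem isMF1_det_gram (B : HomBasis N) :
    IsMF1 (2 * ∑ i, B.wt i) (fun z => (gram B z).det) := by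
  have e : (fun z => (gram B z).det) =
      ∑ σ : Equiv.Perm (Fin B.n), (((Equiv.Perm.sign σ : ℤˣ) : ℤ) : ℂ) •
        ∏ i : Fin B.n, (fun z => gram B z (σ i) i) := by
    funext z
    rw [Matrix.det_apply']
    simp [Finset.sum_apply, Finset.prod_apply]
  rw [e]
  refine IsMF1.sum _ _ fun σ _ => IsMF1.smul _ ?_
  have h := isMF1_prod (Finset.univ : Finset (Fin B.n)) (fun i => B.wt (σ i) + B.wt i)
    (fun i => fun z => gram B z (σ i) i) (fun i _ => isMF1_gram_entry B (σ i) i)
  refine h.cast ?_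
  rw [Finset.sum_add_distrib, Equiv.sum_comp σ (fun i => B.wt i)]
  ring

/-- The Gram determinant is nonzero exactly when `Phi` has trivial kernel. -/
theorem det_gram_ne_zero_iff (B : HomBasis N) (hn : B.n = mu N) (z : ℍ) :
    (gram B z).det ≠ 0 ↔ ∀ c : Fin B.n → ℂ,
      (∀ q : Q N, ∑ i, c i * cj N (B.wt i) (B.f i) q z = 0) → c = 0 := by
  classical
  have hcard : Fintype.card (Q N) = Fintype.card (Fin B.n) := by
    rw [Fintype.card_fin, hn, mu, Nat.card_eq_fintype_card]
  let e : Q N ≃ Fin B.n := Fintype.equivOfCardEq hcard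
  let P : Matrix (Fin B.n) (Fin B.n) ℂ := (Phi B z).submatrix e.symm id
  have hG : gram B z = P.transpose * P := by
    ext i l
    rw [gram_apply, Matrix.mul_apply]
    simp only [Matrix.transpose_apply, P, Matrix.submatrix_apply, id, Phi_apply]
    exact (Equiv.sum_comp e.symm
      (fun q => cj N (B.wt i) (B.f i) q z * cj N (B.wt l) (B.f l) q z)).symm
  have hdet : (gram B z).det = P.det ^ 2 := by
    rw [hG, Matrix.det_mul, Matrix.det_transpose]; ring
  have hP : P.det ≠ 0 ↔ ∀ c : Fin B.n → ℂ, P.mulVec c = 0 → c = 0 := by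
    constructor
    · intro h c hc
      by_contra hne
      exact h (Matrix.exists_mulVec_eq_zero_iff.mp ⟨c, hne, hc⟩)
    · intro h hdet0
      obtain ⟨v, hv, hv0⟩ := Matrix.exists_mulVec_eq_zero_iff.mpr hdet0
      exact hv (h v hv0)
  have hker : ∀ c : Fin B.n → ℂ, P.mulVec c = 0 ↔
      ∀ q : Q N, ∑ i, c i * cj N (B.wt i) (B.f i) q z = 0 := by
    intro c
    constructor
    · intro h q
      have := congrFun h (e q)
      simp only [Matrix.mulVec, dotProduct, P, Matrix.submatrix_apply, id, Phi_apply,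
        Equiv.symm_apply_apply, Pi.zero_apply] at this
      rw [← this]
      exact Finset.sum_congr rfl fun i _ => mul_comm _ _
    · intro h
      funext i'
      simp only [Matrix.mulVec, dotProduct, P, Matrix.submatrix_apply, id, Phi_apply,
        Pi.zero_apply]
      rw [← h (e.symm i')]
      exact Finset.sum_congr rfl fun i _ => mul_comm _ _
  rw [hdet, pow_ne_zero_iff (by norm_num), hP]
  exact forall_congr' fun c => by rw [hker c]

/-- Transfer of pointwise independence along the weighted scaling of `(E₄, E₆)`. -/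
theorem gram_transfer (B : HomBasis N) (hn : B.n = mu N) (z₀ z₁ : ℍ) (t : ℂ) (ht : t ≠ 0)
    (h4 : E₄ z₁ = t ^ 4 * E₄ z₀) (h6 : E₆ z₁ = t ^ 6 * E₆ z₀)
    (hinj : ∀ c : Fin B.n → ℂ,
      (∀ q : Q N, ∑ i, c i * cj N (B.wt i) (B.f i) q z₀ = 0) → c = 0)
    (c : Fin B.n → ℂ) (h : ∀ q : Q N, ∑ i, c i * cj N (B.wt i) (B.f i) q z₁ = 0) : c = 0 := by
  have h0 : (gram B z₀).det ≠ 0 := (det_gram_ne_zero_iff B hn z₀).mpr hinj
  have h1 := Fermat.Agent.S20_helper8_B1.B1a (isMF1_det_gram B) z₀ z₁ t h4 h6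
  have h1' : (gram B z₁).det ≠ 0 := by
    rw [h1]
    exact mul_ne_zero (pow_ne_zero _ ht) h0
  exact (det_gram_ne_zero_iff B hn z₁).mp h1' c h

omit [NeZero N] in
theorem cj_mul_left' {k k₁ k₂ : ℤ} {f : ℍ → ℂ} (hk : k = k₁ + k₂) (ha : IsMF1 k₁ f)
    (g : ℍ → ℂ) (q : Q N) : cj N k (f * g) q = f * cj N k₂ g q := by
  subst hk
  exact cj_mul_left ha g q

/-- If the kernel vector `c` is supported on indices whose weights lie in a single class
modulo `d`, where `H` is a level one form of weight `d` not vanishing at `z₀`, and forms all of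
whose conjugates vanish at `z₀` are divisible by `P`, then `c = 0`. -/
theorem single_class (B : HomBasis N) (z₀ : ℍ) {d : ℕ} (hd : 0 < d) {H : ℍ → ℂ}
    (hH : IsMF1 (d : ℤ) H) (hH0 : H z₀ ≠ 0) {wP : ℤ} {P : ℍ → ℂ} (hP : IsMF1 wP P)
    (hP0 : P z₀ = 0)
    (hdiv : ∀ (w : ℤ) (F : ℍ → ℂ), IsMF N w F → (∀ q : Q N, cj N w F q z₀ = 0) →
      ∃ G : ℍ → ℂ, IsMF N (w - wP) G ∧ F = P * G)
    (κ : ℤ) (c : Fin B.n → ℂ) (hc : ∀ i, c i ≠ 0 → (d : ℤ) ∣ B.wt i - κ)
    (h : ∀ q : Q N, ∑ i, c i * cj N (B.wt i) (B.f i) q z₀ = 0) : c = 0 := by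
  classical
  set M : ℕ := ∑ i, (B.wt i - κ).natAbs with hM
  set w : ℤ := κ + d * M with hw
  have hm : ∀ i, c i ≠ 0 → ∃ m : ℕ, (m : ℤ) * d = w - B.wt i := by
    intro i hi
    obtain ⟨j, hj⟩ := hc i hi
    have hle : (B.wt i - κ).natAbs ≤ M :=
      Finset.single_le_sum (f := fun i => (B.wt i - κ).natAbs) (fun _ _ => Nat.zero_le _)
        (Finset.mem_univ i)
    have hj' : j.natAbs ≤ M := by
      have h1 : (B.wt i - κ).natAbs = d * j.natAbs := by
        rw [hj, Int.natAbs_mul, Int.natAbs_natCast]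
      have h2 : j.natAbs ≤ d * j.natAbs := Nat.le_mul_of_pos_left _ hd
      omega
    refine ⟨((M : ℤ) - j).toNat, ?_⟩
    have h3 : 0 ≤ (M : ℤ) - j := by omega
    rw [Int.toNat_of_nonneg h3, hw]
    linear_combination hj
  choose! m hm using hm
  let A : Fin B.n → ℍ → ℂ := fun i =>
    if c i = 0 then 0 else (c i * ((H z₀)⁻¹) ^ m i) • H ^ m i
  have hA : ∀ i, IsMF1 (w - B.wt i) (A i) := by
    intro i
    by_cases hi : c i = 0
    · simp only [A, hi, if_true]
      exact IsMF1.zero
    · simp only [A, hi, if_false]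
      exact (IsMF1.smul _ (hH.pow (m i))).cast (hm i hi)
  have hA0 : ∀ i, A i z₀ = c i := by
    intro i
    by_cases hi : c i = 0
    · simp [A, hi]
    · simp only [A, hi, if_false, Pi.smul_apply, Pi.pow_apply, smul_eq_mul]
      rw [mul_assoc, ← mul_pow, inv_mul_cancel₀ hH0, one_pow, mul_one]
  let F : ℍ → ℂ := ∑ i, A i * B.f i
  have hF : IsMF N w F :=
    IsMF.sum _ _ fun i _ => (((hA i).isMF (N := N)).mul (B.isMF i)).cast (by ring)
  have hcjF : ∀ q : Q N, cj N w F q = ∑ i, A i * cj N (B.wt i) (B.f i) q := by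
    intro q
    simp only [F]
    rw [cj_sum]
    refine Finset.sum_congr rfl fun i _ => ?_
    exact cj_mul_left' (by ring) (hA i) _ q
  have hvan : ∀ q : Q N, cj N w F q z₀ = 0 := by
    intro q
    rw [hcjF q, Finset.sum_apply]
    simp only [Pi.mul_apply, hA0]
    exact h q
  obtain ⟨G, hG, hFG⟩ := hdiv w F hF hvan
  obtain ⟨a, ha, hGa⟩ := B.span (w - wP) G hG
  have hind := B.indep w (fun i => A i - P * a i)
    (fun i => (hA i).sub ((hP.mul (ha i)).cast (by ring))) (by
      simp only [sub_mul, Finset.sum_sub_distrib]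
      have e1 : ∑ i, P * a i * B.f i = P * G := by
        rw [hGa, Finset.mul_sum]
        exact Finset.sum_congr rfl fun i _ => mul_assoc _ _ _
      rw [e1, ← hFG]
      exact sub_self _)
  funext i
  have := congrFun (hind i) z₀
  simp only [Pi.sub_apply, Pi.mul_apply, hA0, hP0, zero_mul, sub_zero, Pi.zero_apply] at this
  exact this

/-- A subspace stable under a diagonal operator is stable under polynomials in it. -/
theorem ker_poly {n : ℕ} (K : Submodule ℂ (Fin n → ℂ)) (ε : Fin n → ℂ)
    (hK : ∀ c ∈ K, (fun i => ε i * c i) ∈ K) (p : Polynomial ℂ) (c : Fin n → ℂ) (hc : c ∈ K) :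
    (fun i => p.eval (ε i) * c i) ∈ K := by
  induction p using Polynomial.induction_on' with
  | add p q hp hq =>
    have e : (fun i => (p + q).eval (ε i) * c i) =
        (fun i => p.eval (ε i) * c i) + (fun i => q.eval (ε i) * c i) := by
      funext i
      simp [add_mul]
    rw [e]
    exact K.add_mem hp hq
  | monomial k a =>
    have hpow : ∀ k : ℕ, (fun i => ε i ^ k * c i) ∈ K := by
      intro k
      induction k with
      | zero => simpa using hc
      | succ k ih =>
        have := hK _ ih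
        convert this using 1
        funext i
        ring
    have e : (fun i => (Polynomial.monomial k a).eval (ε i) * c i) =
        a • (fun i => ε i ^ k * c i) := by
      funext i
      simp [Polynomial.eval_monomial, mul_assoc]
    rw [e]
    exact K.smul_mem a (hpow k)

/-- A subspace stable under a diagonal operator contains the eigen-components of its
elements. -/
theorem ker_component {n : ℕ} (K : Submodule ℂ (Fin n → ℂ)) (ε : Fin n → ℂ)
    (hK : ∀ c ∈ K, (fun i => ε i * c i) ∈ K) (c : Fin n → ℂ) (hc : c ∈ K) (lam : ℂ) :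
    (fun i => if ε i = lam then c i else 0) ∈ K := by
  classical
  let S : Finset ℂ := (Finset.univ.image ε).erase lam
  let p : Polynomial ℂ :=
    ∏ μ ∈ S, (Polynomial.C ((lam - μ)⁻¹) * (Polynomial.X - Polynomial.C μ))
  have hp := ker_poly K ε hK p c hc
  convert hp using 1
  funext i
  by_cases hi : ε i = lam
  · simp only [hi, if_true]
    have e : p.eval lam = 1 := by
      simp only [p, Polynomial.eval_prod, Polynomial.eval_mul, Polynomial.eval_C,
        Polynomial.eval_sub, Polynomial.eval_X]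
      apply Finset.prod_eq_one
      intro μ hμ
      have : lam - μ ≠ 0 := sub_ne_zero.mpr (Ne.symm (Finset.ne_of_mem_erase hμ))
      exact inv_mul_cancel₀ this
    rw [e, one_mul]
  · simp only [hi, if_false]
    have e : p.eval (ε i) = 0 := by
      simp only [p, Polynomial.eval_prod, Polynomial.eval_mul, Polynomial.eval_C,
        Polynomial.eval_sub, Polynomial.eval_X]
      apply Finset.prod_eq_zero (i := ε i)
      · exact Finset.mem_erase.mpr ⟨hi, Finset.mem_image_of_mem _ (Finset.mem_univ i)⟩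
      · simp
    rw [e, zero_mul]

/-- The kernel of `Phi z` as a submodule. -/
def kerPhi (B : HomBasis N) (z : ℍ) : Submodule ℂ (Fin B.n → ℂ) where
  carrier := {c | ∀ q : Q N, ∑ i, c i * cj N (B.wt i) (B.f i) q z = 0}
  add_mem' := by
    intro a b ha hb q
    simp only [Pi.add_apply, add_mul, Finset.sum_add_distrib]
    rw [ha q, hb q, add_zero]
  zero_mem' := by
    intro q
    simp
  smul_mem' := by
    intro r a ha q
    simp only [Pi.smul_apply, smul_eq_mul, mul_assoc]
    rw [← Finset.mul_sum, ha q, mul_zero]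

omit [NeZero N] in
theorem mem_kerPhi (B : HomBasis N) (z : ℍ) (c : Fin B.n → ℂ) :
    c ∈ kerPhi B z ↔ ∀ q : Q N, ∑ i, c i * cj N (B.wt i) (B.f i) q z = 0 := Iff.rfl

/-- If `γ` fixes `z`, the kernel of `Phi z` is stable under `diag (denom γ z ^ k_i)`. -/
theorem kernel_stable (B : HomBasis N) (γ : SL(2, ℤ)) (z : ℍ) (hz : γ • z = z)
    (c : Fin B.n → ℂ) (h : ∀ q : Q N, ∑ i, c i * cj N (B.wt i) (B.f i) q z = 0) :
    ∀ q : Q N, ∑ i, (denom γ z ^ (B.wt i) * c i) * cj N (B.wt i) (B.f i) q z = 0 := by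
  intro q
  rw [← h (γ • q)]
  refine Finset.sum_congr rfl fun i _ => ?_
  have e := cj_smul_apply (B.isMF i) γ (γ • q) z
  rw [hz, inv_smul_smul] at e
  rw [e]
  ring

end Fermat.Agent.S20_helper20_Gram
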