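import Fermat.Agent.S20_Core

/-!
# Piece F of S20: shared definitions

`ee x = exp (2 π i x)`; for a square matrix `P` with `P ^ N = 1` the spectral projectors
`proj N P a` onto the `ee (a / N)`-eigenspaces of `P`, and the matrices
`EE N P z = ∑ a < N, ee (a z / N) • proj N P a`, `EEinv N P z = ∑ a < N, ee (- a z / N) • proj N P a`.
`PT N` is the permutation matrix of `T⁻¹` acting on the cosets `Q N`, so that
`(PT N * M) q i = M (T⁻¹ • q) i`.
-/

set_option autoImplicit false

open UpperHalfPlane ModularForm CongruenceSubgroup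
open scoped MatrixGroups ModularForm Manifold Real

namespace Fermat.Agent.S20_helper7_FDefs

open Fermat.Agent.S20

/-- `ee x = exp (2 π i x)`. -/
noncomputable def ee (x : ℂ) : ℂ := Complex.exp (2 * π * Complex.I * x)

section alg

variable {X : Type*} [Fintype X] [DecidableEq X]

/-- The spectral projector of `P` (with `P ^ N = 1`) for the eigenvalue `ee (a / N)`. -/
noncomputable def proj (N : ℕ) (P : Matrix X X ℂ) (a : ℕ) : Matrix X X ℂ :=
  (N : ℂ)⁻¹ • ∑ j ∈ Finset.range N, ee (-((a : ℂ) * (j : ℂ)) / (N : ℂ)) • P ^ j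

/-- `EE N P z = ∑ a < N, ee (a z / N) • proj N P a`. -/
noncomputable def EE (N : ℕ) (P : Matrix X X ℂ) (z : ℂ) : Matrix X X ℂ :=
  ∑ a ∈ Finset.range N, ee ((a : ℂ) * z / (N : ℂ)) • proj N P a

/-- `EEinv N P z = ∑ a < N, ee (- a z / N) • proj N P a`, the inverse of `EE N P z`. -/
noncomputable def EEinv (N : ℕ) (P : Matrix X X ℂ) (z : ℂ) : Matrix X X ℂ :=
  ∑ a ∈ Finset.range N, ee (-((a : ℂ) * z / (N : ℂ))) • proj N P a

end alg

/-- The permutation matrix of `T⁻¹` acting on the cosets: `PT N q q' = 1` iff `q' = T⁻¹ • q`. -/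
noncomputable def PT (N : ℕ) : Matrix (Q N) (Q N) ℂ :=
  Matrix.of fun q q' => by
    classical exact if q' = (ModularGroup.T⁻¹ : SL(2, ℤ)) • q then (1 : ℂ) else 0

theorem PT_apply (N : ℕ) [DecidableEq (Q N)] (q q' : Q N) :
    PT N q q' = if q' = (ModularGroup.T⁻¹ : SL(2, ℤ)) • q then (1 : ℂ) else 0 := by
  unfold PT
  simp only [Matrix.of_apply]
  congr

/-- The Gram matrix of the conjugates of the basis. -/
noncomputable def gram {N : ℕ} [NeZero N] (B : HomBasis N) (z : ℍ) :
    Matrix (Fin B.n) (Fin B.n) ℂ :=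
  (Phi B z).transpose * Phi B z

end Fermat.Agent.S20_helper7_FDefs
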