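import Fermat.Agent.S20_Core
import Fermat.Agent.S20_helper7_FDefs

set_option autoImplicit false

open UpperHalfPlane ModularForm CongruenceSubgroup
open scoped MatrixGroups ModularForm Manifold
open Fermat.Agent.S20 Fermat.Agent.S20_helper7_FDefs

namespace Fermat.Agent.S20_helper27_FGram

variable {N : ℕ} [NeZero N]

theorem gram_apply (B : HomBasis N) (z : ℍ) (i l : Fin B.n) :
    gram B z i l = ∑ q : Q N, cj N (B.wt i) (B.f i) q z * cj N (B.wt l) (B.f l) q z := by
  unfold gram
  rw [Matrix.mul_apply]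
  rfl

/-- entries of the Gram matrix are level one forms -/
theorem isMF1_gram_entry (B : HomBasis N) (i l : Fin B.n) :
    IsMF1 (B.wt i + B.wt l) (fun z => gram B z i l) := by
  have h := isMF1_sum_cj_mul (B.isMF i) (B.isMF l)
  have e : (fun z => gram B z i l) =
      ∑ q : Q N, cj N (B.wt i) (B.f i) q * cj N (B.wt l) (B.f l) q := by
    funext z
    rw [gram_apply, Finset.sum_apply]
    rfl
  rw [e]
  exact h

/-- products of level one forms are level one forms -/
theorem isMF1_prod {ι : Type*} (s : Finset ι) (k : ι → ℤ) (F : ι → ℍ → ℂ)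
    (h : ∀ i ∈ s, IsMF1 (k i) (F i)) : IsMF1 (∑ i ∈ s, k i) (∏ i ∈ s, F i) := by
  classical
  induction s using Finset.induction_on with
  | empty => simpa using IsMF1.one
  | insert a s ha ih =>
    rw [Finset.sum_insert ha, Finset.prod_insert ha]
    exact (h a (Finset.mem_insert_self a s)).mul
      (ih fun i hi => h i (Finset.mem_insert_of_mem hi))

theorem isMF1_det_gram (B : HomBasis N) :
    IsMF1 (2 * ∑ i, B.wt i) (fun z => (gram B z).det) := by
  classical
  have e : (fun z => (gram B z).det) =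
      ∑ σ : Equiv.Perm (Fin B.n), ((Equiv.Perm.sign σ : ℤ) : ℂ) •
        ∏ i, (fun z => gram B z (σ i) i) := by
    funext z
    rw [Matrix.det_apply, Finset.sum_apply]
    refine Finset.sum_congr rfl fun σ _ => ?_
    rw [Pi.smul_apply, Finset.prod_apply, smul_eq_mul]
    rcases Int.units_eq_one_or (Equiv.Perm.sign σ) with h | h <;> rw [h] <;> simp
  rw [e]
  refine IsMF1.sum _ _ fun σ _ => IsMF1.smul _ ?_
  have h1 := isMF1_prod Finset.univ (fun i => B.wt (σ i) + B.wt i)
    (fun i => (fun z => gram B z (σ i) i)) (fun i _ => isMF1_gram_entry B (σ i) i)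
  refine h1.cast ?_
  rw [Finset.sum_add_distrib, Equiv.sum_comp σ B.wt]
  ring

theorem exists_equiv (B : HomBasis N) (hn : B.n = mu N) : Nonempty (Q N ≃ Fin B.n) := by
  refine ⟨Fintype.equivFinOfCardEq ?_⟩
  rw [hn, mu, Nat.card_eq_fintype_card]

theorem det_gram_eq [DecidableEq (Q N)] (B : HomBasis N) (e : Q N ≃ Fin B.n) (z : ℍ) :
    (gram B z).det = ((Phi B z).submatrix id e).det ^ 2 := by
  have h1 : ((Phi B z).submatrix id e).transpose * ((Phi B z).submatrix id e) =
      (gram B z).submatrix e e := by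
    ext q q'
    rw [Matrix.mul_apply, Matrix.submatrix_apply, gram, Matrix.mul_apply]
    rfl
  have h2 := congrArg Matrix.det h1
  rw [Matrix.det_mul, Matrix.det_transpose, Matrix.det_submatrix_equiv_self] at h2
  rw [← h2, sq]

theorem det_submatrix_ne_zero [DecidableEq (Q N)] (B : HomBasis N) (hind : PointwiseIndep B)
    (e : Q N ≃ Fin B.n) (z : ℍ) : ((Phi B z).submatrix id e).det ≠ 0 := by
  intro h0
  obtain ⟨v, hv, hv0⟩ := Matrix.exists_mulVec_eq_zero_iff.mpr h0
  apply hv
  have hc := hind z (fun i => v (e.symm i)) (fun q => by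
    have h1 := congrFun hv0 q
    rw [Matrix.mulVec, dotProduct] at h1
    simp only [Matrix.submatrix_apply, id, Pi.zero_apply] at h1
    rw [← h1, ← Equiv.sum_comp e]
    refine Finset.sum_congr rfl fun q' _ => ?_
    rw [Equiv.symm_apply_apply, mul_comm]
    rfl)
  funext q
  have := congrFun hc (e q)
  simpa using this

theorem det_gram_ne_zero (B : HomBasis N) (hn : B.n = mu N) (hind : PointwiseIndep B) (z : ℍ) :
    (gram B z).det ≠ 0 := by
  classical
  obtain ⟨e⟩ := exists_equiv B hn
  rw [det_gram_eq B e z]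
  exact pow_ne_zero 2 (det_submatrix_ne_zero B hind e z)

end Fermat.Agent.S20_helper27_FGram
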