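import Mathlib
import Fermat.Agent.S20_helper7_FDefs
import Fermat.Agent.S20_helper29_P1

set_option autoImplicit false

open UpperHalfPlane ModularForm CongruenceSubgroup
open scoped MatrixGroups ModularForm Manifold Real
open Fermat.Agent.S20 Fermat.Agent.S20_helper7_FDefs Fermat.Agent.S20_helper29_P1

namespace Fermat.Agent.S20_helper29_FAlg2

/-! ### determinant of `f + c (1 - f)` for a projection `f` -/

theorem det_of_isProj {V : Type*} [AddCommGroup V] [Module ℂ V] [FiniteDimensional ℂ V]
    (W : Submodule ℂ V) (f : V →ₗ[ℂ] V) (h : LinearMap.IsProj W f) (c : ℂ) :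
    LinearMap.det (f + c • (1 - f)) = c ^ (Module.finrank ℂ V - Module.finrank ℂ W) := by
  have hc := h.isCompl
  have key : f + c • (1 - f) =
      (W.prodEquivOfIsCompl (LinearMap.ker f) hc).conj
        (LinearMap.prodMap LinearMap.id (c • LinearMap.id)) := by
    apply LinearMap.ext
    intro x
    obtain ⟨⟨w, k⟩, rfl⟩ := (W.prodEquivOfIsCompl (LinearMap.ker f) hc).surjective x
    rw [LinearEquiv.conj_apply_apply, LinearEquiv.symm_apply_apply]
    simp only [Submodule.coe_prodEquivOfIsCompl', LinearMap.add_apply, LinearMap.smul_apply,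
      LinearMap.sub_apply, Module.End.one_apply, LinearMap.prodMap_apply, LinearMap.id_apply,
      map_add]
    have h1 : f (w : V) = w := h.map_id _ w.2
    have h2 : f (k : V) = 0 := LinearMap.mem_ker.mp k.2
    rw [h1, h2]
    simp
  rw [key, LinearEquiv.conj_apply, LinearMap.comp_assoc, LinearMap.det_conj,
    LinearMap.det_prodMap, LinearMap.det_id, LinearMap.det_smul, LinearMap.det_id, one_mul,
    mul_one]
  congr 1
  have := Submodule.finrank_add_eq_of_isCompl hc
  omega

/-! ### the action of `T⁻¹` -/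

variable (N : ℕ) [NeZero N]

theorem PT_mul_apply {n : Type*} (M : Matrix (Q N) n ℂ) (q : Q N) (i : n) :
    (PT N * M) q i = M ((ModularGroup.T⁻¹ : SL(2, ℤ)) • q) i := by
  classical
  rw [Matrix.mul_apply]
  simp only [PT_apply]
  rw [Finset.sum_eq_single ((ModularGroup.T⁻¹ : SL(2, ℤ)) • q)]
  · simp
  · intro b _ hb
    simp [hb]
  · intro h
    exact absurd (Finset.mem_univ _) h

theorem PT_pow_mul_apply [DecidableEq (Q N)] {n : Type*} (j : ℕ) (M : Matrix (Q N) n ℂ)
    (q : Q N) (i : n) :
    (PT N ^ j * M) q i = M ((ModularGroup.T⁻¹ ^ j : SL(2, ℤ)) • q) i := by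
  induction j generalizing M q with
  | zero => simp
  | succ j ih =>
    rw [pow_succ, Matrix.mul_assoc, ih, PT_mul_apply, ← mul_smul, ← pow_succ']

omit [NeZero N] in
theorem T_inv_pow_smul (q : Q N) : (ModularGroup.T⁻¹ ^ N : SL(2, ℤ)) • q = q := by
  induction q using QuotientGroup.induction_on with
  | H h =>
    rw [smul_mk, mk_eq_mk_iff]
    have e : (ModularGroup.T⁻¹ ^ N : SL(2, ℤ)) = ModularGroup.T ^ (-(N : ℤ)) := by
      rw [zpow_neg, zpow_natCast, inv_pow]
    rw [e, (T_zpow_mul_col _ h).1, (T_zpow_mul_col _ h).2]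
    refine ⟨-(h 1 0 * h 1 0), ?_⟩
    ring

theorem PT_pow [DecidableEq (Q N)] : PT N ^ N = 1 := by
  ext q q'
  have := PT_pow_mul_apply N N (1 : Matrix (Q N) (Q N) ℂ) q q'
  rw [mul_one, T_inv_pow_smul] at this
  exact this

theorem PT_transpose_mul [DecidableEq (Q N)] : (PT N).transpose * PT N = 1 := by
  ext q q'
  rw [Matrix.mul_apply]
  simp only [Matrix.transpose_apply, PT_apply]
  rw [Finset.sum_eq_single ((ModularGroup.T : SL(2, ℤ)) • q)]
  · simp only [inv_smul_smul, if_true, one_mul, Matrix.one_apply]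
    by_cases hqq : q = q'
    · simp [hqq]
    · have : ¬ q' = q := fun h => hqq h.symm
      simp [hqq, this]
  · intro b _ hb
    have : ¬ q = (ModularGroup.T⁻¹ : SL(2, ℤ)) • b := by
      intro h
      apply hb
      rw [h, smul_inv_smul]
    simp [this]
  · intro h
    exact absurd (Finset.mem_univ _) h

theorem cusps_le_mu : cusps N ≤ mu N := by
  unfold cusps mu
  exact Nat.card_le_card_of_surjective _ Quotient.mk_surjective

/-! ### the averaging projector -/

theorem proj_zero_eq [DecidableEq (Q N)] :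
    proj N (PT N) 0 = (N : ℂ)⁻¹ • ∑ j ∈ Finset.range N, PT N ^ j := by
  unfold proj
  congr 1
  refine Finset.sum_congr rfl fun j _ => ?_
  simp [ee]

theorem PT_pow_mulVec [DecidableEq (Q N)] (j : ℕ) (v : Q N → ℂ) (q : Q N) :
    ((PT N ^ j).mulVec v) q = v ((ModularGroup.T⁻¹ ^ j : SL(2, ℤ)) • q) := by
  have := PT_pow_mul_apply N j (Matrix.of fun q' (_ : Unit) => v q') q ()
  simp only [Matrix.mul_apply, Matrix.of_apply] at this
  rw [← this]
  rfl

theorem proj_zero_mulVec [DecidableEq (Q N)] (v : Q N → ℂ) (q : Q N) :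
    ((proj N (PT N) 0).mulVec v) q =
      (N : ℂ)⁻¹ * ∑ j ∈ Finset.range N, v ((ModularGroup.T⁻¹ ^ j : SL(2, ℤ)) • q) := by
  rw [proj_zero_eq, Matrix.smul_mulVec, Pi.smul_apply, smul_eq_mul, Matrix.sum_mulVec,
    Finset.sum_apply]
  congr 1
  exact Finset.sum_congr rfl fun j _ => PT_pow_mulVec N j v q

/-- the space of `T`-invariant functions on the cosets -/
def Winv : Submodule ℂ (Q N → ℂ) where
  carrier := {v | ∀ q, v ((ModularGroup.T⁻¹ : SL(2, ℤ)) • q) = v q}
  add_mem' := by
    intro a b ha hb q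
    simp only [Pi.add_apply]
    rw [ha q, hb q]
  zero_mem' := by
    intro q
    rfl
  smul_mem' := by
    intro c a ha q
    simp only [Pi.smul_apply]
    rw [ha q]

theorem mem_Winv (v : Q N → ℂ) :
    v ∈ Winv N ↔ ∀ q, v ((ModularGroup.T⁻¹ : SL(2, ℤ)) • q) = v q := Iff.rfl

theorem isProj_proj_zero [DecidableEq (Q N)] :
    LinearMap.IsProj (Winv N) (Matrix.toLin' (proj N (PT N) 0)) := by
  constructor
  · intro v
    rw [mem_Winv]
    intro q
    rw [Matrix.toLin'_apply, proj_zero_mulVec, proj_zero_mulVec]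
    congr 1
    have h1 : ∀ j : ℕ, v ((ModularGroup.T⁻¹ ^ j : SL(2, ℤ)) • (ModularGroup.T⁻¹ : SL(2, ℤ)) • q) =
        v ((ModularGroup.T⁻¹ ^ (j + 1) : SL(2, ℤ)) • q) := by
      intro j
      rw [← mul_smul, ← pow_succ]
    simp only [h1]
    have h2 := Finset.sum_range_succ' (fun j => v ((ModularGroup.T⁻¹ ^ j : SL(2, ℤ)) • q)) N
    have h3 := Finset.sum_range_succ (fun j => v ((ModularGroup.T⁻¹ ^ j : SL(2, ℤ)) • q)) N
    rw [h3] at h2
    simp only [T_inv_pow_smul, pow_zero, one_smul] at h2
    exact (add_right_cancel h2).symm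
  · intro v hv
    rw [mem_Winv] at hv
    ext q
    rw [Matrix.toLin'_apply, proj_zero_mulVec]
    have h1 : ∀ j : ℕ, v ((ModularGroup.T⁻¹ ^ j : SL(2, ℤ)) • q) = v q := by
      intro j
      induction j with
      | zero => simp
      | succ j ih => rw [pow_succ', mul_smul, hv, ih]
    simp only [h1, Finset.sum_const, Finset.card_range, nsmul_eq_mul]
    have : (N : ℂ) ≠ 0 := Nat.cast_ne_zero.mpr (NeZero.ne N)
    field_simp

/-- the subgroup of `SL(2,ℤ)` leaving a function on the cosets invariant -/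
def stab (v : Q N → ℂ) : Subgroup SL(2, ℤ) where
  carrier := {g | ∀ q, v (g • q) = v q}
  mul_mem' := by
    intro a b ha hb q
    rw [mul_smul, ha, hb]
  one_mem' := by
    intro q
    rw [one_smul]
  inv_mem' := by
    intro a ha q
    have := ha (a⁻¹ • q)
    rw [smul_inv_smul] at this
    exact this.symm

theorem zpowers_le_stab (v : Q N → ℂ) (hv : v ∈ Winv N) :
    Subgroup.zpowers ModularGroup.T ≤ stab N v := by
  rw [Subgroup.zpowers_le]
  have h1 : (ModularGroup.T⁻¹ : SL(2, ℤ)) ∈ stab N v := hv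
  have h2 := (stab N v).inv_mem h1
  rwa [inv_inv] at h2

theorem finrank_Winv : Module.finrank ℂ (Winv N) = cusps N := by
  classical
  haveI : Fintype (MulAction.orbitRel.Quotient (Subgroup.zpowers ModularGroup.T) (Q N)) :=
    Fintype.ofFinite _
  have hsurj : Function.Surjective
      (Quotient.mk (MulAction.orbitRel (Subgroup.zpowers ModularGroup.T) (Q N))) :=
    Quotient.mk_surjective
  have hL : Function.Injective (LinearMap.funLeft ℂ ℂ
      (Quotient.mk (MulAction.orbitRel (Subgroup.zpowers ModularGroup.T) (Q N)))) :=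
    LinearMap.funLeft_injective_of_surjective ℂ ℂ _ hsurj
  have hrange : LinearMap.range (LinearMap.funLeft ℂ ℂ
      (Quotient.mk (MulAction.orbitRel (Subgroup.zpowers ModularGroup.T) (Q N)))) = Winv N := by
    ext v
    constructor
    · rintro ⟨g, rfl⟩
      rw [mem_Winv]
      intro q
      simp only [LinearMap.funLeft_apply]
      congr 1
      apply Quotient.sound
      exact ⟨⟨ModularGroup.T⁻¹, Subgroup.inv_mem _ (Subgroup.mem_zpowers _)⟩, rfl⟩
    · intro hv
      have hconst : ∀ q q' : Q N,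
          (MulAction.orbitRel (Subgroup.zpowers ModularGroup.T) (Q N)) q q' → v q = v q' := by
        intro q q' hqq
        rw [MulAction.orbitRel_apply, MulAction.mem_orbit_iff] at hqq
        obtain ⟨⟨x, hx⟩, rfl⟩ := hqq
        exact zpowers_le_stab N v hv hx q'
      refine ⟨Quotient.lift v hconst, ?_⟩
      ext q
      rfl
  rw [← hrange, LinearMap.finrank_range_of_inj hL, Module.finrank_fintype_fun_eq_card]
  unfold cusps
  rw [Nat.card_eq_fintype_card]

theorem det_proj_zero [DecidableEq (Q N)] (c : ℂ) :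
    (proj N (PT N) 0 + c • (1 - proj N (PT N) 0)).det = c ^ (mu N - cusps N) := by
  rw [← LinearMap.det_toLin']
  have : Matrix.toLin' (proj N (PT N) 0 + c • (1 - proj N (PT N) 0)) =
      Matrix.toLin' (proj N (PT N) 0) + c • (1 - Matrix.toLin' (proj N (PT N) 0)) := by
    rw [map_add, map_smul, map_sub, Matrix.toLin'_one]
    rfl
  rw [this, det_of_isProj (Winv N) _ (isProj_proj_zero N) c, finrank_Winv,
    Module.finrank_fintype_fun_eq_card]
  unfold mu
  rw [Nat.card_eq_fintype_card]

end Fermat.Agent.S20_helper29_FAlg2
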