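import Fermat.Agent.S20_helper7_FDefs

/-!
# Piece F-alg1 of S20: algebra of the spectral projectors `proj N P a` and of `EE`, `EEinv`

For a square matrix `P` with `P ^ N = 1`: `EE` and `EEinv` are mutually inverse,
`EE (z+1) = P * EE z`, `proj N P 0` is idempotent, and if moreover `Pᵀ * P = 1` then
`(EE z)ᵀ * EE z = proj 0 + ee z • (1 - proj 0)`.
-/

set_option autoImplicit false

open scoped Real

namespace Fermat.Agent.S20_helper4_FAlg1

open Fermat.Agent.S20_helper7_FDefs

lemma ee_add (x y : ℂ) : ee (x + y) = ee x * ee y := by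
  unfold ee
  rw [mul_add, Complex.exp_add]

lemma ee_zero : ee 0 = 1 := by
  unfold ee; simp

lemma ee_neg (x : ℂ) : ee (-x) = (ee x)⁻¹ := by
  unfold ee
  rw [mul_neg, Complex.exp_neg]

lemma ee_ne_zero (x : ℂ) : ee x ≠ 0 := Complex.exp_ne_zero _

lemma ee_int (n : ℤ) : ee (n : ℂ) = 1 := by
  unfold ee
  rw [Complex.exp_eq_one_iff]
  exact ⟨n, by ring⟩

lemma ee_nat (n : ℕ) : ee (n : ℂ) = 1 := by
  have := ee_int (n : ℤ)
  simpa using this

lemma ee_eq_one_iff (x : ℂ) : ee x = 1 ↔ ∃ n : ℤ, x = n := by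
  unfold ee
  rw [Complex.exp_eq_one_iff]
  constructor
  · rintro ⟨n, hn⟩
    refine ⟨n, ?_⟩
    have h2 : (2 * (π : ℂ) * Complex.I) ≠ 0 := by
      simp [Real.pi_ne_zero, Complex.I_ne_zero]
    apply mul_left_cancel₀ h2
    rw [hn]; ring
  · rintro ⟨n, rfl⟩
    exact ⟨n, by ring⟩

lemma ee_nat_mul (x : ℂ) (j : ℕ) : ee ((j : ℂ) * x) = ee x ^ j := by
  unfold ee
  rw [← Complex.exp_nat_mul]
  congr 1; ring

/-- geometric sum of roots of unity -/
lemma geom_sum_ee {N : ℕ} (hN : 0 < N) (k : ℤ) :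
    ∑ j ∈ Finset.range N, ee ((k : ℂ) * (j : ℂ) / (N : ℂ)) =
      if (N : ℤ) ∣ k then (N : ℂ) else 0 := by
  have hN0 : (N : ℂ) ≠ 0 := by exact_mod_cast hN.ne'
  have hpow : ∀ j : ℕ, ee ((k : ℂ) * (j : ℂ) / (N : ℂ)) = ee ((k : ℂ) / (N : ℂ)) ^ j := by
    intro j
    rw [← ee_nat_mul]
    congr 1; ring
  simp_rw [hpow]
  split_ifs with h
  · obtain ⟨m, rfl⟩ := h
    have : ee (((↑(N : ℤ) * m : ℤ) : ℂ) / (N : ℂ)) = 1 := by
      have e : (((↑(N : ℤ) * m : ℤ) : ℂ) / (N : ℂ)) = (m : ℂ) := by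
        push_cast; field_simp
      rw [e, ee_int]
    rw [this]; simp
  · have hne : ee ((k : ℂ) / (N : ℂ)) ≠ 1 := by
      rw [Ne, ee_eq_one_iff]
      rintro ⟨n, hn⟩
      apply h
      refine ⟨n, ?_⟩
      have : (k : ℂ) = (N : ℂ) * n := by
        field_simp at hn
        linear_combination hn
      exact_mod_cast this
    have hone : ee ((k : ℂ) / (N : ℂ)) ^ N = 1 := by
      rw [← ee_nat_mul]
      have e : (N : ℂ) * ((k : ℂ) / (N : ℂ)) = (k : ℂ) := by field_simp
      rw [e, ee_int]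
    have := mul_neg_geom_sum (ee ((k : ℂ) / (N : ℂ))) N
    rw [hone, sub_self] at this
    rcases mul_eq_zero.mp this with h' | h'
    · exact absurd (sub_eq_zero.mp h').symm hne
    · exact h'


section mat

variable {X : Type*} [Fintype X] [DecidableEq X] {N : ℕ} {P : Matrix X X ℂ}

/-- `P * proj a = ee (a / N) • proj a` -/
lemma mul_proj (hN : 0 < N) (hP : P ^ N = 1) (a : ℕ) :
    P * proj N P a = ee ((a : ℂ) / (N : ℂ)) • proj N P a := by
  have hN0 : (N : ℂ) ≠ 0 := by exact_mod_cast hN.ne'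
  unfold proj
  rw [Matrix.mul_smul, smul_comm (ee _) ((N : ℂ)⁻¹)]
  congr 1
  rw [Finset.mul_sum, Finset.smul_sum]
  -- LHS: ∑ j < N, c_j • P^(j+1); RHS: ∑ j < N, (ee(a/N) c_j) • P^j
  have hL : ∀ j ∈ Finset.range N,
      P * (ee (-((a : ℂ) * (j : ℂ)) / (N : ℂ)) • P ^ j) =
        (fun i : ℕ => (ee ((a : ℂ) / (N : ℂ)) * ee (-((a : ℂ) * (i : ℂ)) / (N : ℂ))) • P ^ i)
          (j + 1) := by
    intro j _
    simp only
    rw [Matrix.mul_smul, ← pow_succ']
    congr 1
    rw [← ee_add]
    congr 1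
    push_cast
    field_simp
    ring
  rw [Finset.sum_congr rfl hL]
  have hR : ∀ j ∈ Finset.range N,
      ee ((a : ℂ) / (N : ℂ)) • (ee (-((a : ℂ) * (j : ℂ)) / (N : ℂ)) • P ^ j) =
        (fun i : ℕ => (ee ((a : ℂ) / (N : ℂ)) * ee (-((a : ℂ) * (i : ℂ)) / (N : ℂ))) • P ^ i)
          j := by
    intro j _
    simp only
    rw [smul_smul]
  rw [Finset.sum_congr rfl hR]
  set f : ℕ → Matrix X X ℂ :=
    fun i : ℕ => (ee ((a : ℂ) / (N : ℂ)) * ee (-((a : ℂ) * (i : ℂ)) / (N : ℂ))) • P ^ i with hf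
  have h1 : ∑ j ∈ Finset.range N, f (j + 1) + f 0 = ∑ j ∈ Finset.range (N + 1), f j :=
    (Finset.sum_range_succ' f N).symm
  have h2 : ∑ j ∈ Finset.range N, f j + f N = ∑ j ∈ Finset.range (N + 1), f j :=
    (Finset.sum_range_succ f N).symm
  have h3 : f N = f 0 := by
    simp only [hf]
    rw [hP, pow_zero]
    congr 1
    congr 1
    have e : (-((a : ℂ) * (N : ℂ)) / (N : ℂ)) = ((-(a : ℤ) : ℤ) : ℂ) := by
      push_cast; field_simp
    rw [e, ee_int]
    simp [ee_zero]
  have : ∑ j ∈ Finset.range N, f (j + 1) = ∑ j ∈ Finset.range N, f j := by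
    have := h1.trans h2.symm
    rw [h3] at this
    exact add_right_cancel this
  exact this

lemma commute_proj (a : ℕ) : Commute P (proj N P a) := by
  unfold proj
  refine Commute.smul_right ?_ _
  refine Commute.sum_right _ _ _ fun j _ => ?_
  exact Commute.smul_right ((Commute.refl P).pow_right j) _

lemma pow_mul_proj (hN : 0 < N) (hP : P ^ N = 1) (a j : ℕ) :
    P ^ j * proj N P a = ee ((a : ℂ) * (j : ℂ) / (N : ℂ)) • proj N P a := by
  induction j with
  | zero => simp [ee_zero]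
  | succ j ih =>
    rw [pow_succ', mul_assoc, ih, Matrix.mul_smul, mul_proj hN hP, smul_smul, ← ee_add]
    congr 2
    push_cast
    ring

lemma proj_mul_proj (hN : 0 < N) (hP : P ^ N = 1) (a b : ℕ) :
    proj N P b * proj N P a = if (N : ℤ) ∣ (a : ℤ) - b then proj N P a else 0 := by
  have hN0 : (N : ℂ) ≠ 0 := by exact_mod_cast hN.ne'
  conv_lhs => rw [proj]
  rw [Matrix.smul_mul, Finset.sum_mul]
  have h1 : ∀ j ∈ Finset.range N,
      (ee (-((b : ℂ) * (j : ℂ)) / (N : ℂ)) • P ^ j) * proj N P a =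
        ee ((((a : ℤ) - b : ℤ) : ℂ) * (j : ℂ) / (N : ℂ)) • proj N P a := by
    intro j _
    rw [Matrix.smul_mul, pow_mul_proj hN hP, smul_smul, ← ee_add]
    congr 2
    push_cast
    ring
  rw [Finset.sum_congr rfl h1, ← Finset.sum_smul, geom_sum_ee hN]
  split_ifs with h
  · rw [smul_smul, inv_mul_cancel₀ hN0, one_smul]
  · rw [zero_smul, smul_zero]

lemma sum_proj (hN : 0 < N) :
    ∑ a ∈ Finset.range N, proj N P a = 1 := by
  have hN0 : (N : ℂ) ≠ 0 := by exact_mod_cast hN.ne'
  unfold proj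
  rw [← Finset.smul_sum, Finset.sum_comm]
  have h1 : ∀ j ∈ Finset.range N,
      ∑ a ∈ Finset.range N, ee (-((a : ℂ) * (j : ℂ)) / (N : ℂ)) • P ^ j =
        (if j = 0 then (N : ℂ) else 0) • P ^ j := by
    intro j hj
    rw [← Finset.sum_smul]
    congr 1
    have h2 : ∀ a ∈ Finset.range N, ee (-((a : ℂ) * (j : ℂ)) / (N : ℂ)) =
        ee ((((-(j : ℤ)) : ℤ) : ℂ) * (a : ℂ) / (N : ℂ)) := by
      intro a _
      congr 1
      push_cast
      ring
    rw [Finset.sum_congr rfl h2, geom_sum_ee hN]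
    have hj' : j < N := Finset.mem_range.mp hj
    by_cases h0 : j = 0
    · subst h0; simp
    · rw [if_neg h0, if_neg]
      rintro ⟨m, hm⟩
      have hjpos : 0 < j := Nat.pos_of_ne_zero h0
      have : (N : ℤ) ∣ (j : ℤ) := ⟨-m, by linarith⟩
      have := Int.le_of_dvd (by exact_mod_cast hjpos) this
      omega
  rw [Finset.sum_congr rfl h1]
  rw [Finset.sum_eq_single 0]
  · simp [hN0]
  · intro j _ hj0
    rw [if_neg hj0, zero_smul]
  · intro h
    exact absurd (Finset.mem_range.mpr hN) h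

lemma dvd_sub_iff_eq {a b : ℕ} (ha : a < N) (hb : b < N) :
    (N : ℤ) ∣ (b : ℤ) - a ↔ a = b := by
  constructor
  · rintro ⟨m, hm⟩
    have h1 : (b : ℤ) - a < N := by omega
    have h2 : -(N : ℤ) < (b : ℤ) - a := by omega
    have hm0 : m = 0 := by
      by_contra hne
      rcases lt_or_gt_of_ne hne with h | h
      · have : (N : ℤ) * m ≤ (N : ℤ) * (-1) :=
          mul_le_mul_of_nonneg_left (by omega) (by omega)
        omega
      · have : (N : ℤ) * 1 ≤ (N : ℤ) * m :=
          mul_le_mul_of_nonneg_left (by omega) (by omega)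
        omega
    rw [hm0, mul_zero] at hm
    omega
  · rintro rfl
    simp

theorem EE_mul_EEinv (hN : 0 < N) (hP : P ^ N = 1) (z : ℂ) : EE N P z * EEinv N P z = 1 := by
  unfold EE EEinv
  rw [Finset.sum_mul]
  rw [← sum_proj (P := P) hN]
  refine Finset.sum_congr rfl fun a ha => ?_
  rw [Finset.mul_sum]
  rw [Finset.sum_eq_single a]
  · rw [Matrix.smul_mul, Matrix.mul_smul, proj_mul_proj hN hP, if_pos (by simp), smul_smul,
      ← ee_add, add_neg_cancel, ee_zero, one_smul]
  · intro b hb hba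
    rw [Matrix.smul_mul, Matrix.mul_smul, proj_mul_proj hN hP, if_neg, smul_zero, smul_zero]
    rw [dvd_sub_iff_eq (Finset.mem_range.mp ha) (Finset.mem_range.mp hb)]
    exact fun h => hba h.symm
  · intro h; exact absurd ha h

theorem EEinv_mul_EE (hN : 0 < N) (hP : P ^ N = 1) (z : ℂ) : EEinv N P z * EE N P z = 1 := by
  unfold EE EEinv
  rw [Finset.sum_mul]
  rw [← sum_proj (P := P) hN]
  refine Finset.sum_congr rfl fun a ha => ?_
  rw [Finset.mul_sum]
  rw [Finset.sum_eq_single a]
  · rw [Matrix.smul_mul, Matrix.mul_smul, proj_mul_proj hN hP, if_pos (by simp), smul_smul,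
      ← ee_add, neg_add_cancel, ee_zero, one_smul]
  · intro b hb hba
    rw [Matrix.smul_mul, Matrix.mul_smul, proj_mul_proj hN hP, if_neg, smul_zero, smul_zero]
    rw [dvd_sub_iff_eq (Finset.mem_range.mp ha) (Finset.mem_range.mp hb)]
    exact fun h => hba h.symm
  · intro h; exact absurd ha h

theorem EE_add_one (hN : 0 < N) (hP : P ^ N = 1) (z : ℂ) :
    EE N P (z + 1) = P * EE N P z := by
  have hN0 : (N : ℂ) ≠ 0 := by exact_mod_cast hN.ne'
  unfold EE
  rw [Finset.mul_sum]
  refine Finset.sum_congr rfl fun a _ => ?_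
  rw [Matrix.mul_smul, mul_proj hN hP, smul_smul, ← ee_add]
  congr 2
  field_simp

theorem EEinv_add_one (hN : 0 < N) (hP : P ^ N = 1) (z : ℂ) :
    EEinv N P (z + 1) * P = EEinv N P z := by
  have hN0 : (N : ℂ) ≠ 0 := by exact_mod_cast hN.ne'
  unfold EEinv
  rw [Finset.sum_mul]
  refine Finset.sum_congr rfl fun a _ => ?_
  rw [Matrix.smul_mul, ← (commute_proj a).eq, mul_proj hN hP, smul_smul, ← ee_add]
  congr 2
  field_simp
  ring

theorem proj_zero_mul_self (hN : 0 < N) (hP : P ^ N = 1) :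
    proj N P 0 * proj N P 0 = proj N P 0 := by
  rw [proj_mul_proj hN hP, if_pos (by simp)]

lemma transpose_mul_proj (hN : 0 < N) (hP : P ^ N = 1) (hPT : P.transpose * P = 1) (b : ℕ) :
    P.transpose * proj N P b = ee (-((b : ℂ) / (N : ℂ))) • proj N P b := by
  have h1 : proj N P b = ee ((b : ℂ) / (N : ℂ)) • (P.transpose * proj N P b) := by
    calc proj N P b = (P.transpose * P) * proj N P b := by rw [hPT, one_mul]
      _ = P.transpose * (P * proj N P b) := by rw [mul_assoc]
      _ = ee ((b : ℂ) / (N : ℂ)) • (P.transpose * proj N P b) := by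
        rw [mul_proj hN hP, Matrix.mul_smul]
  have h2 : ee (-((b : ℂ) / (N : ℂ))) • proj N P b =
      (ee (-((b : ℂ) / (N : ℂ))) * ee ((b : ℂ) / (N : ℂ))) • (P.transpose * proj N P b) := by
    rw [← smul_smul, ← h1]
  rw [h2, ← ee_add, neg_add_cancel, ee_zero, one_smul]

lemma transpose_pow_mul_proj (hN : 0 < N) (hP : P ^ N = 1) (hPT : P.transpose * P = 1)
    (b j : ℕ) :
    P.transpose ^ j * proj N P b = ee (-((b : ℂ) * (j : ℂ)) / (N : ℂ)) • proj N P b := by
  induction j with
  | zero => simp [ee_zero]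
  | succ j ih =>
    rw [pow_succ', mul_assoc, ih, Matrix.mul_smul, transpose_mul_proj hN hP hPT, smul_smul,
      ← ee_add]
    congr 2
    push_cast
    ring

lemma transpose_proj_mul_proj (hN : 0 < N) (hP : P ^ N = 1) (hPT : P.transpose * P = 1)
    (a b : ℕ) :
    (proj N P a).transpose * proj N P b =
      if (N : ℤ) ∣ (a : ℤ) + b then proj N P b else 0 := by
  have hN0 : (N : ℂ) ≠ 0 := by exact_mod_cast hN.ne'
  conv_lhs => rw [proj]
  rw [Matrix.transpose_smul, Matrix.transpose_sum, Matrix.smul_mul, Finset.sum_mul]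
  have h1 : ∀ j ∈ Finset.range N,
      (ee (-((a : ℂ) * (j : ℂ)) / (N : ℂ)) • P ^ j).transpose * proj N P b =
        ee ((((-((a : ℤ) + b)) : ℤ) : ℂ) * (j : ℂ) / (N : ℂ)) • proj N P b := by
    intro j _
    rw [Matrix.transpose_smul, Matrix.transpose_pow, Matrix.smul_mul,
      transpose_pow_mul_proj hN hP hPT, smul_smul, ← ee_add]
    congr 2
    push_cast
    ring
  rw [Finset.sum_congr rfl h1, ← Finset.sum_smul, geom_sum_ee hN]
  simp only [dvd_neg]
  split_ifs with h
  · rw [smul_smul, inv_mul_cancel₀ hN0, one_smul]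
  · rw [zero_smul, smul_zero]

theorem EE_transpose_mul (hN : 0 < N) (hP : P ^ N = 1) (hPT : P.transpose * P = 1) (z : ℂ) :
    (EE N P z).transpose * EE N P z = proj N P 0 + ee z • (1 - proj N P 0) := by
  have hN0 : (N : ℂ) ≠ 0 := by exact_mod_cast hN.ne'
  -- inner sums
  have key : ∀ b ∈ Finset.range N,
      (EE N P z).transpose * (ee ((b : ℂ) * z / (N : ℂ)) • proj N P b) =
        (if b = 0 then (1 : ℂ) else ee z) • proj N P b := by
    intro b hb
    have hbN : b < N := Finset.mem_range.mp hb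
    conv_lhs => rw [EE]
    rw [Matrix.transpose_sum, Finset.sum_mul]
    set a₀ : ℕ := if b = 0 then 0 else N - b with ha₀
    have ha₀N : a₀ < N := by
      rw [ha₀]; split_ifs with h
      · exact hN
      · omega
    have hdvd : ∀ a < N, ((N : ℤ) ∣ (a : ℤ) + b ↔ a = a₀) := by
      intro a ha
      rw [ha₀]
      constructor
      · rintro ⟨m, hm⟩
        have hm01 : m = 0 ∨ m = 1 := by
          have h1 : (0 : ℤ) ≤ (a : ℤ) + b := by omega
          have h2 : (a : ℤ) + b < 2 * N := by omega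
          have hNpos : (0 : ℤ) < N := by exact_mod_cast hN
          have : 0 ≤ m := by
            by_contra hneg
            have : (N : ℤ) * m ≤ (N : ℤ) * (-1) :=
              mul_le_mul_of_nonneg_left (by omega) (by omega)
            omega
          have : m < 2 := by
            by_contra hge
            have : (N : ℤ) * 2 ≤ (N : ℤ) * m :=
              mul_le_mul_of_nonneg_left (by omega) (by omega)
            omega
          omega
        rcases hm01 with rfl | rfl
        · have : a = 0 ∧ b = 0 := by omega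
          rw [if_pos this.2]; exact this.1
        · have hb0 : b ≠ 0 := by omega
          rw [if_neg hb0]; omega
      · intro h
        split_ifs at h with hb0
        · subst h; subst hb0; simp
        · refine ⟨1, ?_⟩
          subst h
          have : b ≤ N := by omega
          push_cast [Nat.cast_sub this]
          ring
    rw [Finset.sum_eq_single a₀]
    · rw [Matrix.transpose_smul, Matrix.smul_mul, Matrix.mul_smul,
        transpose_proj_mul_proj hN hP hPT, if_pos ((hdvd a₀ ha₀N).mpr rfl), smul_smul,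
        ← ee_add]
      congr 1
      rw [ha₀]
      split_ifs with hb0
      · subst hb0; simp [ee_zero]
      · congr 1
        have : b ≤ N := by omega
        push_cast [Nat.cast_sub this]
        field_simp
        ring
    · intro a ha haa
      rw [Matrix.transpose_smul, Matrix.smul_mul, Matrix.mul_smul,
        transpose_proj_mul_proj hN hP hPT, if_neg, smul_zero, smul_zero]
      rw [hdvd a (Finset.mem_range.mp ha)]
      exact haa
    · intro h; exact absurd (Finset.mem_range.mpr ha₀N) h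
  conv_lhs => rw [show EE N P z = ∑ b ∈ Finset.range N, ee ((b : ℂ) * z / (N : ℂ)) • proj N P b
    from rfl]
  rw [Finset.mul_sum]
  conv_lhs => rw [show (∑ b ∈ Finset.range N, ee ((b : ℂ) * z / (N : ℂ)) • proj N P b) =
    EE N P z from rfl]
  rw [Finset.sum_congr rfl key]
  have h2 : ∀ b ∈ Finset.range N, (if b = 0 then (1 : ℂ) else ee z) • proj N P b =
      ee z • proj N P b + (if b = 0 then (1 - ee z) • proj N P 0 else 0) := by
    intro b _
    split_ifs with hb0
    · subst hb0
      rw [← add_smul]; congr 1; ring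
    · rw [add_zero]
  rw [Finset.sum_congr rfl h2, Finset.sum_add_distrib, ← Finset.smul_sum, sum_proj hN,
    Finset.sum_ite_eq' (Finset.range N) 0, if_pos (Finset.mem_range.mpr hN)]
  rw [sub_smul, smul_sub, one_smul]
  abel

end mat

end Fermat.Agent.S20_helper4_FAlg1
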