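import Fermat.Agent.S20_helper7_FDefs

/-!
# Piece F of S20: generic analysis at `i∞` for holomorphic 1-periodic functions on `ℍ`
-/

set_option autoImplicit false

open UpperHalfPlane ModularForm CongruenceSubgroup Filter Topology Asymptotics
open scoped MatrixGroups ModularForm Manifold Real

namespace Fermat.Agent.S20_helper7_FAn1

open Fermat.Agent.S20 Fermat.Agent.S20_helper7_FDefs

/-! ### The exponential `ee` -/

theorem ee_zero : ee 0 = 1 := by simp [ee]

theorem ee_add (x y : ℂ) : ee (x + y) = ee x * ee y := by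
  unfold ee
  rw [mul_add, Complex.exp_add]

theorem ee_neg (x : ℂ) : ee (-x) = (ee x)⁻¹ := by
  unfold ee
  rw [mul_neg, Complex.exp_neg]

theorem ee_ne_zero (x : ℂ) : ee x ≠ 0 := Complex.exp_ne_zero _

theorem ee_one : ee 1 = 1 := by
  unfold ee
  rw [mul_one]
  exact Complex.exp_two_pi_mul_I

theorem ee_add_one (x : ℂ) : ee (x + 1) = ee x := by rw [ee_add, ee_one, mul_one]

theorem norm_ee (x : ℂ) : ‖ee x‖ = Real.exp (-2 * π * x.im) := by
  unfold ee
  rw [Complex.norm_exp]
  congr 1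
  simp [Complex.mul_re, Complex.mul_im]

theorem ee_eq_qParam (z : ℂ) : ee z = Function.Periodic.qParam 1 z := by
  simp [ee, Function.Periodic.qParam]

theorem differentiable_ee : Differentiable ℂ ee := by
  unfold ee
  fun_prop

/-- `z ↦ ee (c * z)` is holomorphic on `ℍ`. -/
theorem mdiff_ee_mul (c : ℂ) : MDifferentiable 𝓘(ℂ) 𝓘(ℂ) (fun z : ℍ => ee (c * (z : ℂ))) := by
  rw [UpperHalfPlane.mdifferentiable_iff]
  have h : DifferentiableOn ℂ (fun w : ℂ => ee (c * w)) {z | 0 < z.im} := by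
    have : Differentiable ℂ (fun w : ℂ => ee (c * w)) :=
      differentiable_ee.comp (differentiable_id.const_mul c)
    exact this.differentiableOn
  refine h.congr fun z hz => ?_
  simp [ofComplex_apply_of_im_pos hz]

theorem tendsto_ee_atImInfty : Tendsto (fun z : ℍ => ee (z : ℂ)) atImInfty (𝓝 0) := by
  have := UpperHalfPlane.qParam_tendsto_atImInfty (h := 1) one_pos
  refine this.congr fun z => ?_
  rw [ee_eq_qParam]

/-- `ee (c z)` tends to zero at `i∞` when `c > 0` is real. -/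
theorem tendsto_ee_mul_atImInfty {c : ℝ} (hc : 0 < c) :
    Tendsto (fun z : ℍ => ee ((c : ℂ) * (z : ℂ))) atImInfty (𝓝 0) := by
  rw [tendsto_zero_iff_norm_tendsto_zero]
  simp only [norm_ee]
  have h1 : Tendsto (fun z : ℍ => z.im) atImInfty atTop := tendsto_comap
  have h2 : Tendsto (fun z : ℍ => -2 * π * ((c : ℂ) * (z : ℂ)).im) atImInfty atBot := by
    have : ∀ z : ℍ, -2 * π * ((c : ℂ) * (z : ℂ)).im = -(2 * π * c) * z.im := by
      intro z
      simp [Complex.mul_im]
      ring
    simp only [this]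
    exact h1.const_mul_atTop_of_neg (by
      have : (0:ℝ) < 2 * π * c := by positivity
      linarith)
  exact Real.tendsto_exp_atBot.comp h2

theorem isBoundedAtImInfty_ee_mul {c : ℝ} (hc : 0 ≤ c) :
    IsBoundedAtImInfty (fun z : ℍ => ee ((c : ℂ) * (z : ℂ))) := by
  rw [isBoundedAtImInfty_iff]
  refine ⟨1, 0, fun z _ => ?_⟩
  rw [norm_ee]
  have : ((c : ℂ) * (z : ℂ)).im = c * z.im := by simp [Complex.mul_im]
  rw [this, Real.exp_le_one_iff]
  have := z.im_pos
  have : 0 ≤ 2 * π * (c * z.im) := by positivity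
  linarith

/-! ### Holomorphic 1-periodic functions -/

/-- `f` is holomorphic on `ℍ` and `1`-periodic. -/
structure Per1 (f : ℍ → ℂ) : Prop where
  holo : MDifferentiable 𝓘(ℂ) 𝓘(ℂ) f
  per : ∀ z : ℍ, f ((1 : ℝ) +ᵥ z) = f z

variable {f g : ℍ → ℂ}

theorem Per1.periodic (hf : Per1 f) : Function.Periodic (f ∘ ofComplex) ((1 : ℝ) : ℂ) := by
  intro w
  by_cases hw : 0 < Complex.im w
  · have : 0 < Complex.im (w + ((1 : ℝ) : ℂ)) := by simp [hw]
    simp only [Function.comp_apply, ofComplex_apply_of_im_pos this, ofComplex_apply_of_im_pos hw]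
    rw [← hf.per ⟨w, hw⟩]
    congr 1
    ext
    simp [add_comm]
  · rw [not_lt] at hw
    have : Complex.im (w + ((1 : ℝ) : ℂ)) ≤ 0 := by simpa using hw
    simp only [Function.comp_apply]
    rw [ofComplex_apply_of_im_nonpos this, ofComplex_apply_of_im_nonpos hw]

theorem Per1.const (c : ℂ) : Per1 (fun _ : ℍ => c) :=
  ⟨mdifferentiable_const, fun _ => rfl⟩

theorem Per1.add (hf : Per1 f) (hg : Per1 g) : Per1 (fun z => f z + g z) :=
  ⟨hf.holo.add hg.holo, fun z => by simp only [hf.per, hg.per]⟩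

theorem Per1.mul (hf : Per1 f) (hg : Per1 g) : Per1 (fun z => f z * g z) :=
  ⟨hf.holo.mul hg.holo, fun z => by simp only [hf.per, hg.per]⟩

theorem Per1.const_mul (c : ℂ) (hf : Per1 f) : Per1 (fun z => c * f z) :=
  (Per1.const c).mul hf

theorem Per1.sum {ι : Type*} (s : Finset ι) (F : ι → ℍ → ℂ) (h : ∀ i ∈ s, Per1 (F i)) :
    Per1 (fun z => ∑ i ∈ s, F i z) := by
  classical
  induction s using Finset.induction_on with
  | empty => simpa using Per1.const 0
  | insert a s ha ih =>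
    simp only [Finset.sum_insert ha]
    exact (h a (Finset.mem_insert_self a s)).add
      (ih fun i hi => h i (Finset.mem_insert_of_mem hi))

theorem coe_one_vadd (z : ℍ) : (((1 : ℝ) +ᵥ z : ℍ) : ℂ) = (z : ℂ) + 1 := by
  simp [add_comm]

theorem per1_ee : Per1 (fun z : ℍ => ee (z : ℂ)) := by
  refine ⟨?_, fun z => ?_⟩
  · simpa using mdiff_ee_mul 1
  · rw [coe_one_vadd, ee_add_one]

theorem T_smul_eq (z : ℍ) : ModularGroup.T • z = (1 : ℝ) +ᵥ z :=
  UpperHalfPlane.modular_T_smul z

theorem denom_T (z : ℍ) : denom ((ModularGroup.T : SL(2, ℤ)) : GL (Fin 2) ℝ) z = 1 := by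
  rw [ModularGroup.denom_apply]
  simp [ModularGroup.T]

theorem per1_of_isMF1 {k : ℤ} (hf : IsMF1 k f) : Per1 f := by
  refine ⟨hf.holo, fun z => ?_⟩
  have h := congrFun (hf.slash_eq ModularGroup.T) z
  rw [ModularForm.SL_slash_apply, denom_T, T_smul_eq] at h
  simpa using h

/-- Evaluation of a conjugate at `z + 1`. -/
theorem cj_vadd_one {N : ℕ} [NeZero N] {k : ℤ} (hf : IsMF N k f) (q : Q N) (z : ℍ) :
    cj N k f q ((1 : ℝ) +ᵥ z) = cj N k f ((ModularGroup.T⁻¹ : SL(2, ℤ)) • q) z := by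
  have h := cj_smul_apply hf ModularGroup.T q z
  rw [denom_T, T_smul_eq] at h
  simpa using h

theorem Per1.tendsto_of_bdd (hf : Per1 f) (hb : IsBoundedAtImInfty f) :
    Tendsto f atImInfty (𝓝 (cuspFunction 1 f 0)) := by
  have han := UpperHalfPlane.analyticAt_cuspFunction_zero one_pos hf.periodic hf.holo hb
  have : (cuspFunction 1 f ∘ fun τ : ℍ ↦ Function.Periodic.qParam 1 τ) = f := by
    funext τ
    simpa using eq_cuspFunction τ one_ne_zero hf.periodic
  simpa [this] using han.continuousAt.tendsto.comp (qParam_tendsto_atImInfty one_pos)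

theorem Per1.isBigO_of_zero (hf : Per1 f) (h0 : IsZeroAtImInfty f) :
    f =O[atImInfty] fun τ : ℍ => Real.exp (-2 * π * τ.im) := by
  have := UpperHalfPlane.IsZeroAtImInfty.exp_decay_atImInfty h0 one_pos hf.periodic hf.holo
    h0.isBoundedAtImInfty
  simpa using this

/-- If `f` is zero at `i∞`, holomorphic and periodic then `f / ee` is bounded at `i∞`. -/
theorem Per1.div_ee_bdd (hf : Per1 f) (h0 : IsZeroAtImInfty f) :
    IsBoundedAtImInfty (fun z : ℍ => f z / ee (z : ℂ)) := by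
  have h1 := hf.isBigO_of_zero h0
  obtain ⟨C, hC⟩ := h1.bound
  refine IsBigO.of_bound C ?_
  filter_upwards [hC] with z hz
  rw [norm_div, norm_ee]
  simp only [Pi.one_apply, norm_one, mul_one]
  rw [Real.norm_of_nonneg (Real.exp_pos _).le] at hz
  rw [div_le_iff₀ (Real.exp_pos _)]
  simpa using hz

/-- If `ee * f` is zero at `i∞` for a holomorphic periodic `f` then `f` is bounded at `i∞`. -/
theorem Per1.bdd_of_ee_mul_zero (hf : Per1 f)
    (h0 : IsZeroAtImInfty (fun z : ℍ => ee (z : ℂ) * f z)) : IsBoundedAtImInfty f := by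
  have h1 := (per1_ee.mul hf).div_ee_bdd h0
  refine h1.congr' ?_ (by rfl)
  filter_upwards with z
  field_simp [ee_ne_zero]

/-- If `ee * f` is zero at `i∞` for a holomorphic periodic `f` then `f` has a limit at `i∞`. -/
theorem Per1.tendsto_of_ee_mul_zero (hf : Per1 f)
    (h0 : IsZeroAtImInfty (fun z : ℍ => ee (z : ℂ) * f z)) :
    Tendsto f atImInfty (𝓝 (cuspFunction 1 f 0)) :=
  hf.tendsto_of_bdd (hf.bdd_of_ee_mul_zero h0)

end Fermat.Agent.S20_helper7_FAn1
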