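import Fermat.Agent.S20_helper7_FAn1
import Fermat.Agent.S20_helper4_FAlg1
import Fermat.Agent.S20_helper29_FAlg2
import Fermat.Agent.S20_helper27_FGram

/-!
# Piece F of S20: the matrix `A(z) = EEinv(z) * Phi(z)` and its limit at `i∞`
-/

set_option autoImplicit false

open UpperHalfPlane ModularForm CongruenceSubgroup Filter Topology Asymptotics
open scoped MatrixGroups ModularForm Manifold Real

namespace Fermat.Agent.S20_helper7_FAn2

open Fermat.Agent.S20 Fermat.Agent.S20_helper7_FDefs Fermat.Agent.S20_helper7_FAn1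
open Fermat.Agent.S20_helper4_FAlg1 (EE_mul_EEinv EEinv_mul_EE EE_add_one EEinv_add_one EE_transpose_mul)
open Fermat.Agent.S20_helper29_FAlg2 Fermat.Agent.S20_helper27_FGram

/-! ### Soft analysis helpers -/

theorem zero_mul_bdd {f g : ℍ → ℂ} (hf : IsZeroAtImInfty f) (hg : IsBoundedAtImInfty g) :
    IsZeroAtImInfty (fun z => f z * g z) := by
  have h1 : f =o[atImInfty] (fun _ : ℍ => (1 : ℝ)) := (isLittleO_one_iff ℝ).mpr hf
  have h2 : g =O[atImInfty] (fun _ : ℍ => (1 : ℝ)) := hg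
  have h3 := h1.mul_isBigO h2
  simp only [mul_one] at h3
  exact (isLittleO_one_iff ℝ).mp h3

theorem bdd_mul_zero {f g : ℍ → ℂ} (hf : IsBoundedAtImInfty f) (hg : IsZeroAtImInfty g) :
    IsZeroAtImInfty (fun z => f z * g z) := by
  simpa only [mul_comm] using zero_mul_bdd hg hf

theorem zero_sum {ι : Type*} (s : Finset ι) (F : ι → ℍ → ℂ)
    (h : ∀ i ∈ s, IsZeroAtImInfty (F i)) : IsZeroAtImInfty (fun z => ∑ i ∈ s, F i z) := by
  have := tendsto_finsetSum s (fun i hi => h i hi)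
  simpa [IsZeroAtImInfty, ZeroAtFilter] using this

theorem bdd_sum {ι : Type*} (s : Finset ι) (F : ι → ℍ → ℂ)
    (h : ∀ i ∈ s, IsBoundedAtImInfty (F i)) : IsBoundedAtImInfty (fun z => ∑ i ∈ s, F i z) := by
  classical
  induction s using Finset.induction_on with
  | empty =>
    simp only [Finset.sum_empty]
    exact Filter.const_boundedAtFilter _ (0 : ℂ)
  | insert a s ha ih =>
    simp only [Finset.sum_insert ha]
    exact Filter.BoundedAtFilter.add (h a (Finset.mem_insert_self a s))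
      (ih fun i hi => h i (Finset.mem_insert_of_mem hi))

theorem mdiff_sum {ι : Type*} (s : Finset ι) (F : ι → ℍ → ℂ)
    (h : ∀ i ∈ s, MDifferentiable 𝓘(ℂ) 𝓘(ℂ) (F i)) :
    MDifferentiable 𝓘(ℂ) 𝓘(ℂ) (fun z => ∑ i ∈ s, F i z) := by
  classical
  induction s using Finset.induction_on with
  | empty =>
    simp only [Finset.sum_empty]
    exact mdifferentiable_const
  | insert a s ha ih =>
    simp only [Finset.sum_insert ha]
    exact (h a (Finset.mem_insert_self a s)).add
      (ih fun i hi => h i (Finset.mem_insert_of_mem hi))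

theorem bdd_const (c : ℂ) : IsBoundedAtImInfty (fun _ : ℍ => c) :=
  Filter.const_boundedAtFilter _ c

theorem bdd_mul {f g : ℍ → ℂ} (hf : IsBoundedAtImInfty f) (hg : IsBoundedAtImInfty g) :
    IsBoundedAtImInfty (fun z => f z * g z) :=
  Filter.BoundedAtFilter.mul hf hg

theorem bdd_of_tendsto {f : ℍ → ℂ} {l : ℂ} (hf : Tendsto f atImInfty (𝓝 l)) :
    IsBoundedAtImInfty f :=
  hf.isBigO_one ℝ

/-! ### Entries of `EE` and `EEinv` -/

section entries

variable {X : Type*} [Fintype X] [DecidableEq X] (N : ℕ) (P : Matrix X X ℂ)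

theorem EE_apply (z : ℂ) (x y : X) :
    EE N P z x y = ∑ a ∈ Finset.range N, ee ((a : ℂ) * z / (N : ℂ)) * proj N P a x y := by
  simp [EE, Matrix.sum_apply]

theorem EEinv_apply (z : ℂ) (x y : X) :
    EEinv N P z x y = ∑ a ∈ Finset.range N, ee (-((a : ℂ) * z / (N : ℂ))) * proj N P a x y := by
  simp [EEinv, Matrix.sum_apply]

theorem EE_bdd (x y : X) : IsBoundedAtImInfty (fun z : ℍ => EE N P (z : ℂ) x y) := by
  simp only [EE_apply]
  refine bdd_sum _ _ fun a _ => bdd_mul ?_ (bdd_const _)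
  have h := isBoundedAtImInfty_ee_mul (c := (a : ℝ) / N) (by positivity)
  refine h.congr' ?_ (by rfl)
  filter_upwards with z
  congr 1
  push_cast
  ring

theorem ee_mul_EEinv_zero [NeZero N] (x y : X) :
    IsZeroAtImInfty (fun z : ℍ => ee (z : ℂ) * EEinv N P (z : ℂ) x y) := by
  simp only [EEinv_apply, Finset.mul_sum]
  refine zero_sum _ _ fun a ha => ?_
  have hN : (0 : ℝ) < N := Nat.cast_pos.mpr (NeZero.pos N)
  have haN : (a : ℝ) < N := Nat.cast_lt.mpr (Finset.mem_range.mp ha)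
  have h := tendsto_ee_mul_atImInfty (c := ((N : ℝ) - a) / N) (div_pos (by linarith) hN)
  have h2 := zero_mul_bdd h (bdd_const (proj N P a x y))
  refine h2.congr fun z => ?_
  rw [← mul_assoc, ← ee_add]
  congr 2
  have : (N : ℂ) ≠ 0 := Nat.cast_ne_zero.mpr (NeZero.ne N)
  push_cast
  field_simp
  ring

theorem mdiff_EE (x y : X) :
    MDifferentiable 𝓘(ℂ) 𝓘(ℂ) (fun z : ℍ => EE N P (z : ℂ) x y) := by
  simp only [EE_apply]
  refine mdiff_sum _ _ fun a _ => ?_
  refine MDifferentiable.mul ?_ mdifferentiable_const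
  have h := mdiff_ee_mul ((a : ℂ) / N)
  have e : (fun z : ℍ => ee ((a : ℂ) * (z : ℂ) / (N : ℂ))) =
      fun z : ℍ => ee ((a : ℂ) / N * (z : ℂ)) := by
    funext z
    congr 1
    ring
  rw [e]
  exact h

theorem mdiff_EEinv (x y : X) :
    MDifferentiable 𝓘(ℂ) 𝓘(ℂ) (fun z : ℍ => EEinv N P (z : ℂ) x y) := by
  simp only [EEinv_apply]
  refine mdiff_sum _ _ fun a _ => ?_
  refine MDifferentiable.mul ?_ mdifferentiable_const
  have h := mdiff_ee_mul (-((a : ℂ) / N))
  have e : (fun z : ℍ => ee (-((a : ℂ) * (z : ℂ) / (N : ℂ)))) =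
      fun z : ℍ => ee (-((a : ℂ) / N) * (z : ℂ)) := by
    funext z
    congr 1
    ring
  rw [e]
  exact h

end entries

/-! ### The matrix `A` -/

section Amat

variable {N : ℕ} [NeZero N] (B : HomBasis N)

/-- A fixed decidable equality on the cosets (all statements are instance-generic). -/
@[reducible] noncomputable def decQ (N : ℕ) : DecidableEq (Q N) := Classical.decEq _

attribute [local instance] decQ

/-- `A(z) = EEinv(z) * Phi(z)`. -/
noncomputable def Amat (z : ℍ) : Matrix (Q N) (Fin B.n) ℂ :=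
  EEinv N (PT N) (z : ℂ) * Phi B z

theorem Phi_vadd_one (z : ℍ) : Phi B ((1 : ℝ) +ᵥ z) = PT N * Phi B z := by
  ext q i
  rw [PT_mul_apply, Phi_apply, Phi_apply, cj_vadd_one (B.isMF i)]

theorem Amat_vadd_one (z : ℍ) : Amat B ((1 : ℝ) +ᵥ z) = Amat B z := by
  unfold Amat
  rw [Phi_vadd_one, ← Matrix.mul_assoc, coe_one_vadd,
    EEinv_add_one (NeZero.pos N) (PT_pow N)]

theorem EE_mul_Amat (z : ℍ) : EE N (PT N) (z : ℂ) * Amat B z = Phi B z := by
  unfold Amat
  rw [← Matrix.mul_assoc, EE_mul_EEinv (NeZero.pos N) (PT_pow N), Matrix.one_mul]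

theorem Amat_apply (z : ℍ) (q : Q N) (i : Fin B.n) :
    Amat B z q i = ∑ q' : Q N, EEinv N (PT N) (z : ℂ) q q' * cj N (B.wt i) (B.f i) q' z := by
  simp [Amat, Matrix.mul_apply, Phi_apply]

theorem Phi_eq_sum (z : ℍ) (q : Q N) (i : Fin B.n) :
    cj N (B.wt i) (B.f i) q z = ∑ q' : Q N, EE N (PT N) (z : ℂ) q q' * Amat B z q' i := by
  rw [← Phi_apply, ← EE_mul_Amat, Matrix.mul_apply]

theorem per1_Amat (q : Q N) (i : Fin B.n) : Per1 (fun z => Amat B z q i) := by
  refine ⟨?_, fun z => by rw [Amat_vadd_one]⟩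
  simp only [Amat_apply]
  exact mdiff_sum _ _ fun q' _ => (mdiff_EEinv N (PT N) q q').mul (cj_holo (B.isMF i).holo q')

theorem ee_mul_Amat_zero (q : Q N) (i : Fin B.n) :
    IsZeroAtImInfty (fun z : ℍ => ee (z : ℂ) * Amat B z q i) := by
  simp only [Amat_apply, Finset.mul_sum, ← mul_assoc]
  exact zero_sum _ _ fun q' _ =>
    zero_mul_bdd (ee_mul_EEinv_zero N (PT N) q q') (cj_bdd (B.isMF i) q')

/-- The limit of `A(z)` at `i∞`. -/
noncomputable def A0 : Matrix (Q N) (Fin B.n) ℂ :=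
  Matrix.of fun q i => cuspFunction 1 (fun z => Amat B z q i) 0

theorem tendsto_Amat (q : Q N) (i : Fin B.n) :
    Tendsto (fun z => Amat B z q i) atImInfty (𝓝 (A0 B q i)) :=
  (per1_Amat B q i).tendsto_of_ee_mul_zero (ee_mul_Amat_zero B q i)

theorem Amat_bdd (q : Q N) (i : Fin B.n) : IsBoundedAtImInfty (fun z => Amat B z q i) :=
  bdd_of_tendsto (tendsto_Amat B q i)

end Amat

end Fermat.Agent.S20_helper7_FAn2
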