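import Fermat.Agent.S20_helper7_FAn2
import Fermat.Agent.S20_helper19_E1

/-!
# Piece F of S20: the limit matrix `A0` is injective
-/

set_option autoImplicit false

open UpperHalfPlane ModularForm CongruenceSubgroup Filter Topology Asymptotics
open scoped MatrixGroups ModularForm Manifold Real

namespace Fermat.Agent.S20_helper7_FAn3

open Fermat.Agent.S20 Fermat.Agent.S20_helper7_FDefs Fermat.Agent.S20_helper7_FAn1
open Fermat.Agent.S20_helper7_FAn2
open Fermat.Agent.S20_helper4_FAlg1 (EE_mul_EEinv EEinv_mul_EE EE_add_one EEinv_add_one EE_transpose_mul)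
open Fermat.Agent.S20_helper29_FAlg2 Fermat.Agent.S20_helper27_FGram

local notation "Δ" => ModularForm.discriminant

attribute [local instance] decQ

/-- Level one forms of even weight `m ≥ 4` tending to `1` at `i∞`. -/
theorem exists_unit_form (m : ℤ) (hm : Even m) (hm4 : 4 ≤ m) :
    ∃ h : ℍ → ℂ, IsMF1 m h ∧ Tendsto h atImInfty (𝓝 1) := by
  obtain ⟨a, b, hab⟩ := Fermat.Agent.S20_helper19_E1.exists_weight m hm hm4
  refine ⟨(⇑E₄) ^ a * (⇑E₆) ^ b,
    ((isMF1_E₄.pow a).mul (isMF1_E₆.pow b)).cast (by rw [← hab]; ring), ?_⟩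
  have := (Fermat.Agent.S20_helper19_E1.tendsto_E₄.pow a).mul
    (Fermat.Agent.S20_helper19_E1.tendsto_E₆.pow b)
  simp only [one_pow, mul_one] at this
  exact this

theorem tendsto_discriminant_div_ee :
    Tendsto (fun z : ℍ => Δ z / ee (z : ℂ)) atImInfty (𝓝 1) := by
  refine ModularForm.tendsto_atImInfty_tprod_one_sub_eta_q_pow.congr fun z => ?_
  rw [ModularForm.discriminant_eq_q_prod, ← ee_eq_qParam]
  field_simp [ee_ne_zero]

theorem tendsto_ee_div_discriminant :
    Tendsto (fun z : ℍ => ee (z : ℂ) / Δ z) atImInfty (𝓝 1) := by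
  have := tendsto_discriminant_div_ee.inv₀ one_ne_zero
  simp only [inv_one] at this
  refine this.congr fun z => ?_
  rw [inv_div]

section inj

variable {N : ℕ} [NeZero N] (B : HomBasis N)

/-- If all conjugates of `F` are `O(Δ)` at `i∞`, then `F / Δ` is a modular form. -/
theorem isMF_div_discriminant {w : ℤ} {F : ℍ → ℂ} (hF : IsMF N w F)
    (hb : ∀ q : Q N, IsBoundedAtImInfty (fun z => cj N w F q z / Δ z)) :
    IsMF N (w - 12) (F / Δ) := by
  rw [isMF_iff]
  refine ⟨hF.holo.div CuspForm.discriminant.holo' discriminant_ne_zero, ?_, ?_⟩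
  · intro γ hγ
    rw [div_slash_SL2, hF.slash_eq hγ, isMF1_discriminant.slash_eq]
  · intro γ
    have : (F / Δ) ∣[w - 12] γ = fun z => cj N w F ((γ⁻¹ : SL(2, ℤ)) : Q N) z / Δ z := by
      rw [div_slash_SL2, isMF1_discriminant.slash_eq, cj_eq hF, inv_inv]
      rfl
    rw [this]
    exact hb _

/-- The limit matrix `A0` is injective. -/
theorem A0_injective (c : Fin B.n → ℂ) (h : ∀ q : Q N, ∑ i, A0 B q i * c i = 0) : c = 0 := by
  -- the weight
  set w : ℤ := 12 + ∑ j, B.wt j with hw
  have hwt : ∀ i, Even (w - B.wt i) ∧ 4 ≤ w - B.wt i := by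
    intro i
    have h1 : ∑ j, B.wt j = B.wt i + ∑ j ∈ Finset.univ.erase i, B.wt j := by
      rw [Finset.add_sum_erase _ _ (Finset.mem_univ i)]
    have h2 : 0 ≤ ∑ j ∈ Finset.univ.erase i, B.wt j :=
      Finset.sum_nonneg fun j _ => B.wt_nonneg j
    have h3 : Even (∑ j ∈ Finset.univ.erase i, B.wt j) :=
      Finset.even_sum _ fun j _ => B.wt_even j
    have h4 : w - B.wt i = 12 + ∑ j ∈ Finset.univ.erase i, B.wt j := by
      rw [hw, h1]; ring
    rw [h4]
    exact ⟨Even.add (by decide) h3, by linarith⟩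
  choose hh hh1 hh2 using fun i => exists_unit_form (w - B.wt i) (hwt i).1 (hwt i).2
  -- the form `F`
  set F : ℍ → ℂ := ∑ i, c i • (hh i * B.f i) with hF
  have hFmf : IsMF N w F :=
    IsMF.sum _ _ fun i _ => ((((hh1 i).isMF).mul (B.isMF i)).cast (by ring)).smul (c i)
  -- its conjugates
  have hcj : ∀ q z, cj N w F q z = ∑ i, c i * (hh i z * cj N (B.wt i) (B.f i) q z) := by
    intro q z
    rw [hF, cj_sum]
    simp only [cj_smul, Finset.sum_apply, Pi.smul_apply, smul_eq_mul]
    refine Finset.sum_congr rfl fun i _ => ?_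
    rw [Fermat.Agent.S20_helper19_E1.cj_mul_left' (B.wt i) (hh1 i) (B.f i) q (by ring)]
    rfl
  -- the vector `b = A * (c h)`
  set b : Q N → ℍ → ℂ := fun q' z => ∑ i, Amat B z q' i * (c i * hh i z) with hb
  have hbper : ∀ q', Per1 (b q') := fun q' =>
    Per1.sum _ _ fun i _ =>
      (per1_Amat B q' i).mul ((Per1.const (c i)).mul (per1_of_isMF1 (hh1 i)))
  have hbzero : ∀ q', IsZeroAtImInfty (b q') := by
    intro q'
    have : Tendsto (b q') atImInfty (𝓝 (∑ i, A0 B q' i * (c i * 1))) :=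
      tendsto_finsetSum _ fun i _ =>
        (tendsto_Amat B q' i).mul (tendsto_const_nhds.mul (hh2 i))
    simp only [mul_one, h q'] at this
    exact this
  have hbdiv : ∀ q', IsBoundedAtImInfty (fun z : ℍ => b q' z / ee (z : ℂ)) := fun q' =>
    (hbper q').div_ee_bdd (hbzero q')
  have hcjb : ∀ q z, cj N w F q z = ∑ q', EE N (PT N) (z : ℂ) q q' * b q' z := by
    intro q z
    rw [hcj]
    simp only [hb, Finset.mul_sum]
    rw [Finset.sum_comm]
    refine Finset.sum_congr rfl fun i _ => ?_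
    rw [Phi_eq_sum B z q i, Finset.mul_sum, Finset.mul_sum]
    refine Finset.sum_congr rfl fun q' _ => ?_
    ring
  have hbd : ∀ q, IsBoundedAtImInfty (fun z => cj N w F q z / Δ z) := by
    intro q
    have h1 : IsBoundedAtImInfty (fun z : ℍ =>
        (∑ q', EE N (PT N) (z : ℂ) q q' * (b q' z / ee (z : ℂ))) * (ee (z : ℂ) / Δ z)) :=
      bdd_mul (bdd_sum _ _ fun q' _ => bdd_mul (EE_bdd N (PT N) q q') (hbdiv q'))
        (bdd_of_tendsto tendsto_ee_div_discriminant)
    refine h1.congr' ?_ (by rfl)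
    filter_upwards with z
    rw [hcjb, Finset.sum_mul, Finset.sum_div]
    refine Finset.sum_congr rfl fun q' _ => ?_
    field_simp [ee_ne_zero, discriminant_ne_zero]
  have hG := isMF_div_discriminant hFmf hbd
  obtain ⟨a, ha1, ha2⟩ := B.span (w - 12) _ hG
  have hind := B.indep w (fun i => c i • hh i - Δ * a i)
    (fun i => ((hh1 i).smul (c i)).sub ((isMF1_discriminant.mul (ha1 i)).cast (by ring))) (by
      have e1 : ∑ i, (c i • hh i - Δ * a i) * B.f i = F - Δ * ∑ i, a i * B.f i := by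
        rw [hF, Finset.mul_sum, ← Finset.sum_sub_distrib]
        refine Finset.sum_congr rfl fun i _ => ?_
        funext z
        simp only [Pi.mul_apply, Pi.sub_apply, Pi.smul_apply, smul_eq_mul]
        ring
      rw [e1, ← ha2]
      funext z
      simp only [Pi.sub_apply, Pi.mul_apply, Pi.div_apply, Pi.zero_apply]
      field_simp [discriminant_ne_zero]
      ring)
  funext i
  have e1 : Tendsto (c i • hh i) atImInfty (𝓝 (c i * 1)) := by
    have := (tendsto_const_nhds (x := c i)).mul (hh2 i)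
    exact this
  have e2 : Tendsto (Δ * a i) atImInfty (𝓝 0) :=
    zero_mul_bdd discriminant_isZeroAtImInfty (ha1 i).bdd
  have e3 : c i • hh i = Δ * a i := sub_eq_zero.mp (hind i)
  rw [e3] at e1
  simpa using tendsto_nhds_unique e1 e2

end inj

end Fermat.Agent.S20_helper7_FAn3
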