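import Mathlib
import Fermat.Prelude.Def_ModularCurve_PeriodMap
import Fermat.Agent.S20_Defs

set_option autoImplicit false

open CongruenceSubgroup
open scoped MatrixGroups

namespace Fermat.Agent.S21

open Fermat.Agent.S20

/-- The permutation representation of `SL(2,ℤ)` on functions on the coset space
`Q N = SL(2,ℤ) ⧸ Γ₀(N)`: `(rho N g u) x = u (g⁻¹ • x)`. -/
noncomputable def rho (N : ℕ) (g : SL(2, ℤ)) : (Q N → ℂ) →ₗ[ℂ] (Q N → ℂ) :=
  LinearMap.funLeft ℂ ℂ (fun x : Q N => g⁻¹ • x)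

theorem rho_apply (N : ℕ) (g : SL(2, ℤ)) (u : Q N → ℂ) (x : Q N) :
    rho N g u x = u (g⁻¹ • x) := rfl

theorem rho_one (N : ℕ) : rho N 1 = LinearMap.id := by
  ext u x
  simp [rho_apply]

theorem rho_mul (N : ℕ) (g h : SL(2, ℤ)) : rho N (g * h) = rho N g ∘ₗ rho N h := by
  ext u x
  simp [rho_apply, mul_smul]

theorem rho_mul_apply (N : ℕ) (g h : SL(2, ℤ)) (u : Q N → ℂ) :
    rho N (g * h) u = rho N g (rho N h u) := by
  rw [rho_mul]; rfl

end Fermat.Agent.S21
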