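import Mathlib
import Fermat.Agent.S21_Defs

/-!
# S21, piece DIMa4: connectivity

`ker (1 + ρ S) ⊔ ker (1 + ρ U + ρ U ^ 2)` (with `U = S * T`) has codimension at most one in the
permutation module `Q N → ℂ`: a linear functional killing it is invariant under `S` and `S * T`,
hence under `SL(2, ℤ)`, hence is a multiple of the sum functional.
-/

set_option autoImplicit false
set_option linter.style.haveILetI false

open CongruenceSubgroup
open scoped MatrixGroups

namespace Fermat.Agent.S21_helper15_DIMa4

open Fermat.Agent.S20 Fermat.Agent.S21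

theorem neg_one_mem (N : ℕ) : (-1 : SL(2, ℤ)) ∈ Gamma0 N := by
  rw [Gamma0_mem]
  simp

/-- `-1` acts trivially on the coset space. -/
theorem neg_one_smul_Q (N : ℕ) (x : Q N) : (-1 : SL(2, ℤ)) • x = x := by
  induction x using QuotientGroup.induction_on with
  | H g =>
    rw [MulAction.Quotient.smul_mk, QuotientGroup.eq, smul_eq_mul]
    have h1 : (-1 : SL(2, ℤ))⁻¹ = -1 := by decide
    have : ((-1 : SL(2, ℤ)) * g)⁻¹ * g = -1 := by
      rw [mul_inv_rev, h1, mul_neg, mul_one, neg_mul, inv_mul_cancel]
    rw [this]
    exact neg_one_mem N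

theorem rho_neg_one (N : ℕ) : rho N (-1) = LinearMap.id := by
  ext u x
  rw [rho_apply]
  have h1 : (-1 : SL(2, ℤ))⁻¹ = -1 := by decide
  rw [h1, neg_one_smul_Q]
  rfl

theorem ST_cube : (ModularGroup.S * ModularGroup.T) ^ 3 = (-1 : SL(2, ℤ)) := by decide

theorem S_mul_S : ModularGroup.S * ModularGroup.S = (-1 : SL(2, ℤ)) := by decide

theorem rho_S_sq (N : ℕ) : rho N ModularGroup.S ∘ₗ rho N ModularGroup.S = LinearMap.id := by
  rw [← rho_mul, S_mul_S, rho_neg_one]

theorem rho_pow (N : ℕ) (g : SL(2, ℤ)) (n : ℕ) : rho N g ^ n = rho N (g ^ n) := by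
  induction n with
  | zero => rw [pow_zero, pow_zero, rho_one]; rfl
  | succ n ih => rw [pow_succ, pow_succ, ih, rho_mul]; rfl

theorem sub_rho_S_mem (N : ℕ) (u : Q N → ℂ) :
    u - rho N ModularGroup.S u ∈ LinearMap.ker (1 + rho N ModularGroup.S) := by
  rw [LinearMap.mem_ker]
  have h := LinearMap.congr_fun (rho_S_sq N) u
  simp only [LinearMap.comp_apply, LinearMap.id_apply] at h
  simp only [LinearMap.add_apply, Module.End.one_apply, map_sub, h]
  abel

theorem sub_rho_U_mem (N : ℕ) (u : Q N → ℂ) :
    u - rho N (ModularGroup.S * ModularGroup.T) u ∈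
      LinearMap.ker (1 + rho N (ModularGroup.S * ModularGroup.T)
        + rho N (ModularGroup.S * ModularGroup.T) ^ 2) := by
  rw [LinearMap.mem_ker]
  set R := rho N (ModularGroup.S * ModularGroup.T) with hR
  have h3 : R ^ 3 = 1 := by
    rw [hR, rho_pow, ST_cube, rho_neg_one]; rfl
  have key : (1 + R + R ^ 2) * (1 - R) = 0 := by
    have e1 : R * R = R ^ 2 := (sq R).symm
    have e2 : R ^ 2 * R = R ^ 3 := (pow_succ R 2).symm
    have : (1 + R + R ^ 2) * (1 - R) = 1 - R ^ 3 := by
      rw [mul_sub, mul_one, add_mul, add_mul, one_mul, e1, e2]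
      abel
    rw [this, h3, sub_self]
  have := LinearMap.congr_fun key u
  simpa [Module.End.mul_apply] using this

/-- `ρ g` maps the indicator of `x` to the indicator of `g • x`. -/
theorem rho_single (N : ℕ) [DecidableEq (Q N)] (g : SL(2, ℤ)) (x : Q N) :
    rho N g (Pi.single x 1) = Pi.single (g • x) 1 := by
  ext y
  rw [rho_apply]
  by_cases h : y = g • x
  · subst h
    simp
  · rw [Pi.single_eq_of_ne h, Pi.single_eq_of_ne]
    intro h'
    apply h
    rw [← h', smul_inv_smul]

theorem finrank_sup_ge (N : ℕ) [NeZero N] :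
    mu N ≤ Module.finrank ℂ
      ↥(LinearMap.ker (1 + rho N ModularGroup.S) ⊔
        LinearMap.ker (1 + rho N (ModularGroup.S * ModularGroup.T)
          + rho N (ModularGroup.S * ModularGroup.T) ^ 2)) + 1 := by
  classical
  haveI : Finite (Q N) := inferInstance
  letI : Fintype (Q N) := Fintype.ofFinite _
  set W : Submodule ℂ (Q N → ℂ) := LinearMap.ker (1 + rho N ModularGroup.S) ⊔
        LinearMap.ker (1 + rho N (ModularGroup.S * ModularGroup.T)
          + rho N (ModularGroup.S * ModularGroup.T) ^ 2) with hW
  -- the sum functional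
  let σ : Module.Dual ℂ (Q N → ℂ) := ∑ x : Q N, LinearMap.proj x
  have hann : W.dualAnnihilator ≤ Submodule.span ℂ {σ} := by
    intro φ hφ
    rw [Submodule.mem_dualAnnihilator] at hφ
    -- the coefficient function of `φ`
    set a : Q N → ℂ := fun x => φ (Pi.single x 1) with ha
    have haS : ∀ x, a (ModularGroup.S • x) = a x := by
      intro x
      have h1 := hφ _ (Submodule.mem_sup_left (sub_rho_S_mem N (Pi.single x 1)))
      rw [map_sub, rho_single, sub_eq_zero] at h1
      exact h1.symm
    have haU : ∀ x, a ((ModularGroup.S * ModularGroup.T) • x) = a x := by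
      intro x
      have h1 := hφ _ (Submodule.mem_sup_right (sub_rho_U_mem N (Pi.single x 1)))
      rw [map_sub, rho_single, sub_eq_zero] at h1
      exact h1.symm
    have haSinv : ∀ x, a (ModularGroup.S⁻¹ • x) = a x := by
      intro x
      rw [← haS (ModularGroup.S⁻¹ • x), smul_inv_smul]
    have haT : ∀ x, a (ModularGroup.T • x) = a x := by
      intro x
      have : ModularGroup.T • x = ModularGroup.S⁻¹ • ((ModularGroup.S * ModularGroup.T) • x) := by
        rw [mul_smul, inv_smul_smul]
      rw [this, haSinv, haU]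
    -- invariance under the whole group
    let H : Subgroup SL(2, ℤ) :=
      { carrier := {g | ∀ x, a (g • x) = a x}
        one_mem' := fun x => by rw [one_smul]
        mul_mem' := fun {g h} hg hh x => by rw [mul_smul, hg, hh]
        inv_mem' := fun {g} hg x => by rw [← hg (g⁻¹ • x), smul_inv_smul] }
    have hH : H = ⊤ := by
      rw [eq_top_iff, ← SpecialLinearGroup.SL2Z_generators, Subgroup.closure_le]
      rintro g (rfl | rfl)
      · exact haS
      · exact haT
    have hconst : ∀ x, a x = a (QuotientGroup.mk 1) := by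
      intro x
      induction x using QuotientGroup.induction_on with
      | H g =>
        have hg : g ∈ H := hH ▸ Subgroup.mem_top g
        have := hg (QuotientGroup.mk 1)
        rw [MulAction.Quotient.smul_mk, smul_eq_mul, mul_one] at this
        exact this
    rw [Submodule.mem_span_singleton]
    refine ⟨a (QuotientGroup.mk 1), ?_⟩
    apply LinearMap.ext
    intro u
    rw [LinearMap.pi_apply_eq_sum_univ φ u]
    simp only [σ, LinearMap.smul_apply, LinearMap.sum_apply, LinearMap.proj_apply,
      smul_eq_mul, Finset.mul_sum]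
    refine Finset.sum_congr rfl fun x _ => ?_
    have : φ (fun j => if x = j then (1 : ℂ) else 0) = a x := by
      rw [ha]
      congr 1
      ext j
      simp [Pi.single_apply, eq_comm]
    rw [this, hconst x, mul_comm]
  have h1 : Module.finrank ℂ W.dualAnnihilator ≤ 1 := by
    calc Module.finrank ℂ W.dualAnnihilator
        ≤ Module.finrank ℂ (Submodule.span ℂ {σ}) := Submodule.finrank_mono hann
      _ ≤ 1 := by
          have := finrank_span_le_card (R := ℂ) ({σ} : Set (Module.Dual ℂ (Q N → ℂ)))
          simpa using this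
  have h2 := Subspace.finrank_add_finrank_dualAnnihilator_eq W
  have h3 : Module.finrank ℂ (Q N → ℂ) = mu N := by
    rw [Module.finrank_fintype_fun_eq_card, mu, Nat.card_eq_fintype_card]
  omega

end Fermat.Agent.S21_helper15_DIMa4
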