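import Mathlib
import Fermat.Agent.S21_Defs

set_option autoImplicit false
set_option linter.style.haveILetI false

/-!
# S21 piece DIMa2: the kernel of `1 + ρ(U) + ρ(U)²` for `U = S * T`

`U = S * T` has `U ^ 3 = -1`, which acts trivially on `Q N = SL(2,ℤ) ⧸ Γ₀(N)`.  Hence
`p = 1 - (1 + ρ U + ρ U ^ 2) / 3` is a projection onto `ker (1 + ρ U + ρ U ^ 2)`, and its trace
is `μ - (μ + 2 ν₃) / 3`.
-/

open CongruenceSubgroup
open scoped MatrixGroups
open Fermat.Agent.S20 Fermat.Agent.S21

namespace Fermat.Agent.S21_helper17_DIMa2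

theorem U_cube : (ModularGroup.S * ModularGroup.T) ^ 3 = (-1 : SL(2, ℤ)) := by
  decide

/-- `-1` acts trivially on the cosets of `Γ₀(N)`. -/
theorem neg_one_smul (N : ℕ) (x : Q N) : (-1 : SL(2, ℤ)) • x = x := by
  induction x using QuotientGroup.induction_on with
  | H g =>
    change (((-1 : SL(2,ℤ)) * g : SL(2, ℤ)) : Q N) = (g : Q N)
    rw [eq_comm, QuotientGroup.eq]
    have : g⁻¹ * (-1 * g) = -1 := by
      simp
    rw [this, Gamma0_mem]
    simp

/-- The trace of a "permutation operator" is the number of fixed points. -/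
theorem trace_funLeft {X : Type*} [Fintype X] [DecidableEq X] (σ : X → X) :
    LinearMap.trace ℂ (X → ℂ) (LinearMap.funLeft ℂ ℂ σ)
      = ((Finset.univ.filter (fun x => σ x = x)).card : ℂ) := by
  rw [LinearMap.trace_eq_matrix_trace ℂ (Pi.basisFun ℂ X), LinearMap.toMatrix_eq_toMatrix',
    Matrix.trace]
  simp [LinearMap.toMatrix'_apply, LinearMap.funLeft_apply, Pi.single_apply, Finset.sum_boole]

/-- Abstract form: a self-map `σ` of a finite set with `σ³ = id`. -/
theorem finrank_ker_of_cube {X : Type*} [Fintype X] [DecidableEq X] (σ : X → X)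
    (h3 : ∀ x, σ (σ (σ x)) = x) :
    3 * Module.finrank ℂ (LinearMap.ker
        ((1 : Module.End ℂ (X → ℂ)) + LinearMap.funLeft ℂ ℂ σ + (LinearMap.funLeft ℂ ℂ σ) ^ 2))
      + 2 * (Finset.univ.filter (fun x => σ x = x)).card = 2 * Fintype.card X := by
  set P : Module.End ℂ (X → ℂ) := LinearMap.funLeft ℂ ℂ σ with hP
  set E : Module.End ℂ (X → ℂ) := 1 + P + P ^ 2 with hE
  have hEapp : ∀ (u : X → ℂ) (x : X), E u x = u x + u (σ x) + u (σ (σ x)) := by
    intro u x
    simp [hE, hP, pow_two, LinearMap.funLeft_apply]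
  set p : Module.End ℂ (X → ℂ) := 1 - (1 / 3 : ℂ) • E with hp
  have hpapp : ∀ (u : X → ℂ) (x : X), p u x = u x - (1 / 3 : ℂ) * E u x := by
    intro u x
    simp [hp]
  have hproj : LinearMap.IsProj (LinearMap.ker E) p := by
    refine ⟨fun u => ?_, fun u hu => ?_⟩
    · rw [LinearMap.mem_ker]
      ext x
      rw [hEapp, hpapp, hpapp, hpapp, hEapp, hEapp, hEapp, h3]
      simp only [Pi.zero_apply]
      ring
    · rw [LinearMap.mem_ker] at hu
      ext x
      rw [hpapp, hu]
      simp
  have htr := hproj.trace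
  have hfix2 : (Finset.univ.filter (fun x => σ (σ x) = x)) = Finset.univ.filter (fun x => σ x = x) := by
    ext x
    simp only [Finset.mem_filter, Finset.mem_univ, true_and]
    constructor
    · intro h
      have := h3 x
      rw [h] at this
      exact this
    · intro h
      rw [h, h]
  have hP2 : P ^ 2 = LinearMap.funLeft ℂ ℂ (σ ∘ σ) := by
    ext u x
    simp [hP, pow_two, LinearMap.funLeft_apply]
  have htrp : LinearMap.trace ℂ (X → ℂ) p = (Fintype.card X : ℂ)
      - (1 / 3 : ℂ) * ((Fintype.card X : ℂ) + ((Finset.univ.filter (fun x => σ x = x)).card : ℂ)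
        + ((Finset.univ.filter (fun x => σ x = x)).card : ℂ)) := by
    rw [hp, map_sub, map_smul, hE, map_add, map_add, LinearMap.trace_one, hP2, hP,
      trace_funLeft, trace_funLeft, Module.finrank_fintype_fun_eq_card, smul_eq_mul]
    simp only [Function.comp_apply]
    rw [hfix2]
  rw [htrp] at htr
  have : ((3 * Module.finrank ℂ (LinearMap.ker E)
      + 2 * (Finset.univ.filter (fun x => σ x = x)).card : ℕ) : ℂ)
      = ((2 * Fintype.card X : ℕ) : ℂ) := by
    push_cast
    rw [← htr]
    ring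
  exact_mod_cast this

theorem finrank_ker_U (N : ℕ) [NeZero N] :
    3 * Module.finrank ℂ (LinearMap.ker (1 + rho N (ModularGroup.S * ModularGroup.T)
        + rho N (ModularGroup.S * ModularGroup.T) ^ 2)) + 2 * nu3 N = 2 * mu N := by
  classical
  letI : Fintype (Q N) := Fintype.ofFinite _
  set U : SL(2, ℤ) := ModularGroup.S * ModularGroup.T with hU
  have hU3 : ∀ x : Q N, U • U • U • x = x := by
    intro x
    rw [← mul_smul, ← mul_smul, ← pow_two, ← pow_succ, hU, U_cube, neg_one_smul]
  have hUinv3 : ∀ x : Q N, U⁻¹ • U⁻¹ • U⁻¹ • x = x := by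
    intro x
    rw [inv_smul_eq_iff, inv_smul_eq_iff, inv_smul_eq_iff, hU3]
  have key := finrank_ker_of_cube (fun x : Q N => U⁻¹ • x) hUinv3
  have hfix : (Finset.univ.filter (fun x : Q N => U⁻¹ • x = x)).card = nu3 N := by
    rw [nu3, Nat.card_eq_fintype_card, Fintype.card_subtype]
    congr 1
    ext x
    simp only [Finset.mem_filter, Finset.mem_univ, true_and]
    rw [inv_smul_eq_iff]
    exact eq_comm
  rw [hfix] at key
  rw [mu, Nat.card_eq_fintype_card]
  exact key

end Fermat.Agent.S21_helper17_DIMa2
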