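import Mathlib
import Fermat.Prelude.Def_ModularCurve_PeriodHomPair
import Fermat.Agent.S21_helper1_Reflect

/-!
# S21, piece P3a: the reflected cusp form
-/

set_option autoImplicit false

open UpperHalfPlane CongruenceSubgroup Filter Topology ModularCurve ModularCurve.Period
open scoped MatrixGroups ComplexConjugate

namespace Fermat.Agent.S21_helper1_P3a

theorem P3a (N : ℕ) [NeZero N] (f : CuspForm (Gamma0 N) 2) :
    ∃ fc : CuspForm (Gamma0 N) 2, ∀ z : ℍ, fc z = conj (f (J • z)) :=
  ⟨Fermat.Agent.S21_helper1_Reflect.reflect f,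
    Fermat.Agent.S21_helper1_Reflect.reflect_apply f⟩

end Fermat.Agent.S21_helper1_P3a
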