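import Mathlib

/-!
# S21, piece PAR: parabolic elements of `SL(2,ℤ)` are conjugate to `± T ^ n`
-/

set_option autoImplicit false

open scoped MatrixGroups

namespace Fermat.Agent.S21_helper1_PAR

/-- A matrix in `SL(2,ℤ)` of trace `2` fixes a primitive vector. -/
theorem exists_fixed_primitive (γ : SL(2, ℤ))
    (h : ((γ : Matrix (Fin 2) (Fin 2) ℤ)).trace = 2) :
    ∃ p q : ℤ, IsCoprime p q ∧ γ 0 0 * p + γ 0 1 * q = p ∧ γ 1 0 * p + γ 1 1 * q = q := by
  have htr : γ 0 0 + γ 1 1 = 2 := by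
    rw [Matrix.trace_fin_two] at h
    exact h
  have hdet : γ 0 0 * γ 1 1 - γ 0 1 * γ 1 0 = 1 := by
    have := γ.det_coe
    rw [Matrix.det_fin_two] at this
    exact this
  by_cases hc : γ 1 0 = 0
  · -- then `γ 0 0 = γ 1 1 = 1`
    have h1 : γ 0 0 * γ 1 1 = 1 := by rw [hc] at hdet; linarith
    have h2 : (γ 0 0 - 1) ^ 2 = 0 := by linear_combination γ 0 0 * htr - h1
    have h3 : γ 0 0 = 1 := by
      have := pow_eq_zero_iff (n := 2) (by norm_num) |>.mp h2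
      linarith
    refine ⟨1, 0, isCoprime_one_left, ?_, ?_⟩
    · rw [h3]; ring
    · rw [hc]; ring
  · -- `(p, q)` proportional to `(γ 0 0 - 1, γ 1 0)`
    have hg : 0 < Int.gcd (γ 0 0 - 1) (γ 1 0) :=
      Int.gcd_pos_of_ne_zero_right _ hc
    obtain ⟨p, q, hpq, hp, hq⟩ := Int.exists_gcd_one hg
    have hg0 : (Int.gcd (γ 0 0 - 1) (γ 1 0) : ℤ) ≠ 0 := by exact_mod_cast hg.ne'
    refine ⟨p, q, Int.isCoprime_iff_gcd_eq_one.mpr hpq, ?_, ?_⟩
    · apply mul_right_cancel₀ hg0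
      have e1 : (γ 0 0 * p + γ 0 1 * q) * (Int.gcd (γ 0 0 - 1) (γ 1 0) : ℤ) =
          γ 0 0 * (p * Int.gcd (γ 0 0 - 1) (γ 1 0)) +
            γ 0 1 * (q * Int.gcd (γ 0 0 - 1) (γ 1 0)) := by ring
      rw [e1, ← hp, ← hq]
      linear_combination γ 0 0 * htr - hdet
    · apply mul_right_cancel₀ hg0
      have e1 : (γ 1 0 * p + γ 1 1 * q) * (Int.gcd (γ 0 0 - 1) (γ 1 0) : ℤ) =
          γ 1 0 * (p * Int.gcd (γ 0 0 - 1) (γ 1 0)) +
            γ 1 1 * (q * Int.gcd (γ 0 0 - 1) (γ 1 0)) := by ring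
      rw [e1, ← hp, ← hq]
      linear_combination γ 1 0 * htr

/-- A matrix in `SL(2,ℤ)` of trace `2` is conjugate to a power of `T`. -/
theorem exists_conj_of_trace_eq_two (γ : SL(2, ℤ))
    (h : ((γ : Matrix (Fin 2) (Fin 2) ℤ)).trace = 2) :
    ∃ (δ : SL(2, ℤ)) (n : ℤ), γ * δ = δ * ModularGroup.T ^ n := by
  obtain ⟨p, q, ⟨u, v, huv⟩, h1, h2⟩ := exists_fixed_primitive γ h
  -- `δ` with first column `(p, q)`
  let δ : SL(2, ℤ) := ⟨!![p, -v; q, u], by
    rw [Matrix.det_fin_two_of]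
    linear_combination huv⟩
  have hδ00 : δ 0 0 = p := rfl
  have hδ01 : δ 0 1 = -v := rfl
  have hδ10 : δ 1 0 = q := rfl
  have hδ11 : δ 1 1 = u := rfl
  set M : SL(2, ℤ) := δ⁻¹ * γ * δ with hM
  have hγδ : γ * δ = δ * M := by
    rw [hM]
    group
  have hMdet : M 0 0 * M 1 1 - M 0 1 * M 1 0 = 1 := by
    have := M.det_coe
    rw [Matrix.det_fin_two] at this
    exact this
  have hM00 : M 0 0 = 1 := by
    have : M 0 0 = u * (γ 0 0 * p + γ 0 1 * q) + v * (γ 1 0 * p + γ 1 1 * q) := by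
      simp only [hM, Matrix.SpecialLinearGroup.coe_mul, Matrix.SpecialLinearGroup.coe_inv,
        Matrix.adjugate_fin_two, Matrix.mul_apply, Fin.sum_univ_two, Matrix.of_apply,
        Matrix.cons_val', Matrix.cons_val_zero, Matrix.cons_val_one, hδ00, hδ01, hδ10, hδ11]
      ring
    rw [this, h1, h2]
    linear_combination huv
  have hM10 : M 1 0 = 0 := by
    have : M 1 0 = -q * (γ 0 0 * p + γ 0 1 * q) + p * (γ 1 0 * p + γ 1 1 * q) := by
      simp only [hM, Matrix.SpecialLinearGroup.coe_mul, Matrix.SpecialLinearGroup.coe_inv,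
        Matrix.adjugate_fin_two, Matrix.mul_apply, Fin.sum_univ_two, Matrix.of_apply,
        Matrix.cons_val', Matrix.cons_val_zero, Matrix.cons_val_one, hδ00, hδ01, hδ10, hδ11]
      ring
    rw [this, h1, h2]
    ring
  have hM11 : M 1 1 = 1 := by
    rw [hM00, hM10] at hMdet
    linarith
  refine ⟨δ, M 0 1, ?_⟩
  rw [hγδ]
  congr 1
  ext i j
  rw [ModularGroup.coe_T_zpow]
  fin_cases i <;> fin_cases j
  · simpa using hM00
  · simp
  · simpa using hM10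
  · simpa using hM11

/-- Piece PAR: an element of `SL(2,ℤ)` with `trace ^ 2 = 4` is conjugate to `± T ^ n`. -/
theorem exists_conj_of_trace_sq_eq_four (γ : SL(2, ℤ))
    (h : ((γ : Matrix (Fin 2) (Fin 2) ℤ)).trace ^ 2 = 4) :
    ∃ (δ : SL(2, ℤ)) (n : ℤ),
      γ * δ = δ * ModularGroup.T ^ n ∨ γ * δ = -(δ * ModularGroup.T ^ n) := by
  have h2 : ((γ : Matrix (Fin 2) (Fin 2) ℤ)).trace = 2 ∨
      ((γ : Matrix (Fin 2) (Fin 2) ℤ)).trace = -2 := by
    have : (((γ : Matrix (Fin 2) (Fin 2) ℤ)).trace - 2) *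
        (((γ : Matrix (Fin 2) (Fin 2) ℤ)).trace + 2) = 0 := by
      linear_combination h
    rcases mul_eq_zero.mp this with h3 | h3
    · left; linarith
    · right; linarith
  rcases h2 with h2 | h2
  · obtain ⟨δ, n, hδ⟩ := exists_conj_of_trace_eq_two γ h2
    exact ⟨δ, n, Or.inl hδ⟩
  · have h3 : (((-γ : SL(2, ℤ)) : Matrix (Fin 2) (Fin 2) ℤ)).trace = 2 := by
      rw [Matrix.SpecialLinearGroup.coe_neg, Matrix.trace_neg, h2]
      norm_num
    obtain ⟨δ, n, hδ⟩ := exists_conj_of_trace_eq_two (-γ) h3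
    refine ⟨δ, n, Or.inr ?_⟩
    rw [← hδ, neg_mul, neg_neg]

end Fermat.Agent.S21_helper1_PAR
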