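import Mathlib
import Fermat.Prelude.Def_ModularCurve_PeriodHomPair

set_option autoImplicit false

open UpperHalfPlane CongruenceSubgroup Filter Topology ModularCurve ModularCurve.Period
open scoped MatrixGroups ComplexConjugate

namespace Fermat.Agent.S21_helper22_P3b

/-- the reflection `J` intertwines `γ` and `jConjSL γ` -/
theorem J_smul_smul (γ : SL(2, ℤ)) (z : ℍ) : J • (γ • z) = jConjSL γ • (J • z) := by
  apply UpperHalfPlane.ext
  rw [coe_J_smul, coe_specialLinearGroup_apply, coe_specialLinearGroup_apply, coe_J_smul]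
  simp only [jConjSL_coe, jConjMat_apply_zero_zero, jConjMat_apply_zero_one,
    jConjMat_apply_one_zero, jConjMat_apply_one_one, map_div₀, map_add, map_mul,
    Complex.conj_ofReal, map_neg, Complex.ofReal_neg, algebraMap_int_eq, eq_intCast]
  have h1 : (-(((γ 1 0 : ℤ) : ℝ) : ℂ) * -(starRingEnd ℂ) (z : ℂ) + (((γ 1 1 : ℤ) : ℝ) : ℂ)) =
      ((((γ 1 0 : ℤ) : ℝ) : ℂ) * (starRingEnd ℂ) (z : ℂ) + (((γ 1 1 : ℤ) : ℝ) : ℂ)) := by ring
  rw [h1, ← neg_div]
  congr 1
  ring

theorem tendsto_J_smul : Tendsto (fun w : ℍ => J • w) atImInfty atImInfty :=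
  tendsto_smul_atImInfty (by simp [J])

/-- P3b: the reflected primitive. -/
theorem P3b (N : ℕ) [NeZero N] (f fc : CuspForm (Gamma0 N) 2)
    (hfc : ∀ z : ℍ, fc z = conj (f (J • z)))
    {F : ℍ → ℂ} (hF : HasEquivariantPrimitive N f F) :
    HasEquivariantPrimitive N fc (fun z => - conj (F (J • z))) := by
  obtain ⟨hder, hzero, hequiv, hlim⟩ := hF
  refine ⟨fun τ => ?_, ?_, fun γ => ?_, fun δ => ?_⟩
  · -- derivative
    have h1 : HasDerivAt (F ∘ ofComplex) (f (J • τ)) ((J • τ : ℍ) : ℂ) := hder (J • τ)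
    rw [coe_J_smul] at h1
    -- `H y = conj (G (conj y))` at `y₀ = -τ`
    have h2 : HasDerivAt (conj ∘ (F ∘ ofComplex) ∘ conj) (conj (f (J • τ)))
        (conj (-conj (τ : ℂ))) := h1.conj_conj
    have h3 : conj (-conj (τ : ℂ)) = -(τ : ℂ) := by simp
    rw [h3] at h2
    have h4 : HasDerivAt (fun x : ℂ => -x) (-1) (τ : ℂ) := (hasDerivAt_id _).neg
    obtain ⟨H, hH⟩ : ∃ H : ℂ → ℂ, H = conj ∘ (F ∘ ofComplex) ∘ conj := ⟨_, rfl⟩
    rw [← hH] at h2
    have h5 : HasDerivAt (fun x : ℂ => H (-x))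
        (conj (f (J • τ)) * (-1)) (τ : ℂ) :=
      HasDerivAt.comp (h₂ := H) (h := fun x : ℂ => -x) (τ : ℂ) h2 h4
    have h6 : HasDerivAt (fun x : ℂ => -H (-x))
        (-(conj (f (J • τ)) * (-1))) (τ : ℂ) := h5.neg
    have h7 : -(conj (f (J • τ)) * (-1)) = fc τ := by rw [hfc]; ring
    rw [h7] at h6
    refine h6.congr_of_eventuallyEq ?_
    filter_upwards [isOpen_upperHalfPlaneSet.mem_nhds τ.im_pos] with x hx
    rw [hH]
    simp only [Function.comp_apply]
    have h8 : J • ofComplex x = ofComplex (conj (-x)) := by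
      rw [J_smul, ofComplex_apply_of_im_pos hx]
      simp
    rw [h8]
  · -- vanishing at infinity
    have h1 : Tendsto (fun z : ℍ => F (J • z)) atImInfty (𝓝 0) := hzero.comp tendsto_J_smul
    have h2 : Tendsto (fun z : ℍ => -conj (F (J • z))) atImInfty (𝓝 (-conj (0 : ℂ))) :=
      ((Complex.continuous_conj.tendsto 0).comp h1).neg
    simpa using h2
  · -- equivariance
    obtain ⟨c, hc⟩ := hequiv (jConjGamma0 N γ)
    refine ⟨-conj c, fun z => ?_⟩
    have h1 := hc (J • z)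
    rw [jConjGamma0_coe, ← J_smul_smul] at h1
    have h2 : F (J • ((γ : SL(2, ℤ)) • z)) = F (J • z) + c := by rw [← h1]; ring
    simp only []
    rw [h2, map_add]
    ring
  · -- limits at the cusps
    obtain ⟨L, hL⟩ := hlim (jConjSL δ)
    refine ⟨-conj L, ?_⟩
    have h1 : Tendsto (fun w : ℍ => F (jConjSL δ • (J • w))) atImInfty (𝓝 L) :=
      hL.comp tendsto_J_smul
    have h2 : (fun w : ℍ => -conj (F (J • (δ • w)))) =
        fun w : ℍ => -conj (F (jConjSL δ • (J • w))) := by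
      funext w
      rw [J_smul_smul]
    rw [h2]
    exact ((Complex.continuous_conj.tendsto L).comp h1).neg

end Fermat.Agent.S21_helper22_P3b
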