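import Mathlib
import Fermat.Prelude.Def_ModularCurve_PeriodHomPair

set_option autoImplicit false

open UpperHalfPlane CongruenceSubgroup Filter Topology ModularCurve ModularCurve.Period
open scoped MatrixGroups ComplexConjugate

namespace Fermat.Agent.S21_helper23_P3c

/-- P3c: the reflection `J : z ↦ -conj z` intertwines `γ` and `jConjSL γ`. -/
theorem P3c (γ : SL(2, ℤ)) (z : ℍ) : J • (γ • z) = jConjSL γ • (J • z) := by
  apply UpperHalfPlane.ext
  rw [coe_J_smul, coe_specialLinearGroup_apply, coe_specialLinearGroup_apply, coe_J_smul]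
  simp only [jConjSL_coe, jConjMat_apply_zero_zero, jConjMat_apply_zero_one,
    jConjMat_apply_one_zero, jConjMat_apply_one_one, map_div₀, map_add, map_mul,
    algebraMap_int_eq, eq_intCast, Int.cast_neg, Complex.conj_ofReal, Complex.ofReal_neg,
    Complex.ofReal_intCast, map_intCast]
  have h1 : ((γ : Matrix (Fin 2) (Fin 2) ℤ) 1 0 : ℂ) * conj (z : ℂ)
      + ((γ : Matrix (Fin 2) (Fin 2) ℤ) 1 1 : ℂ) ≠ 0 := by
    have := UpperHalfPlane.denom_ne_zero (γ : GL (Fin 2) ℝ) z
    have h2 : conj (denom (γ : GL (Fin 2) ℝ) z) ≠ 0 := by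
      simpa using this
    simpa [denom] using h2
  have h2 : -((γ : Matrix (Fin 2) (Fin 2) ℤ) 1 0 : ℂ) * -conj (z : ℂ)
      + ((γ : Matrix (Fin 2) (Fin 2) ℤ) 1 1 : ℂ) ≠ 0 := by
    simpa using h1
  field_simp
  ring

end Fermat.Agent.S21_helper23_P3c
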