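import Mathlib
import Fermat.Prelude.Def_ModularCurve_PeriodHomPair
import Fermat.Prelude.Def_ModularCurve_GenusNumerics
import Fermat.Agent.S21_helper16_P1a1
import Fermat.Agent.S21_helper13_P1a2
import Fermat.Agent.S21_helper16_P1a3
import Fermat.Agent.S21_helper23_P1b
import Fermat.Agent.S21_helper23_P3c
import Fermat.Agent.S21_helper29_P2
import Fermat.Agent.S21_helper28_P5
import Fermat.Agent.S20

set_option autoImplicit false

open UpperHalfPlane CongruenceSubgroup Filter Topology ModularCurve ModularCurve.Period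
open scoped MatrixGroups ComplexConjugate

namespace Fermat.Agent.S21_helper23_Asm

open Fermat.Agent.S21_helper16_P1a1 Fermat.Agent.S21_helper13_P1a2 Fermat.Agent.S21_helper16_P1a3
  Fermat.Agent.S21_helper23_P1b Fermat.Agent.S21_helper23_P3c Fermat.Agent.S21_helper28_P5

variable (N : ℕ)

/-- Statement of piece P3a (reflected cusp form). -/
def P3aStmt : Prop :=
  ∀ f : CuspForm (Gamma0 N) 2, ∃ fc : CuspForm (Gamma0 N) 2, ∀ z : ℍ, fc z = conj (f (J • z))

/-- Statement of piece P3b (reflected primitive). -/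
def P3bStmt : Prop :=
  ∀ (f fc : CuspForm (Gamma0 N) 2), (∀ z : ℍ, fc z = conj (f (J • z))) →
    ∀ {F : ℍ → ℂ}, HasEquivariantPrimitive N f F →
      HasEquivariantPrimitive N fc (fun z => - conj (F (J • z)))

/-- Statement of piece P4 (maximum principle). -/
def P4Stmt : Prop :=
  ∀ (A : ℍ → ℂ), (∀ τ : ℍ, DifferentiableAt ℂ (A ∘ ofComplex) ↑τ) →
    (∀ (γ : Gamma0 N) (z : ℍ), (A ((γ : SL(2, ℤ)) • z)).re = (A z).re) →
    (∀ δ : SL(2, ℤ), ∃ L : ℂ, Tendsto (fun w : ℍ => A (δ • w)) atImInfty (𝓝 L)) →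
    ∃ c : ℂ, ∀ z : ℍ, A z = c

/-- Existence of the Eichler primitive. -/
theorem exists_prim [NeZero N] (f : CuspForm (Gamma0 N) 2) :
    ∃ F : ℍ → ℂ, HasEquivariantPrimitive N f F := by
  obtain ⟨F, hder, h0⟩ := P1a1 N f
  exact ⟨F, hder, h0, P1a2 N f F hder, P1a3 N f F hder⟩

/-- `periodMap` is the period hom of any primitive. -/
theorem periodMap_eq (f : CuspForm (Gamma0 N) 2) {F : ℍ → ℂ}
    (hF : HasEquivariantPrimitive N f F) : periodMap N f = hF.2.2.1.periodHom := by
  obtain ⟨F₀, h₀, h⟩ := periodMap_def N f hF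
  have := P1b N f h₀ hF
  subst this
  exact h

theorem periodMap_apply (f : CuspForm (Gamma0 N) 2) {F : ℍ → ℂ}
    (hF : HasEquivariantPrimitive N f F) (γ : Gamma0 N) (z : ℍ) :
    periodMap N f (Additive.ofMul γ) = F ((γ : SL(2, ℤ)) • z) - F z := by
  rw [periodMap_eq N f hF, IsEquivariantPrimitive.periodHom_apply,
    ← hF.2.2.1.sub_eq_period γ z]

theorem hasPrim_add {f g : CuspForm (Gamma0 N) 2} {F G : ℍ → ℂ}
    (hF : HasEquivariantPrimitive N f F) (hG : HasEquivariantPrimitive N g G) :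
    HasEquivariantPrimitive N (f + g) (F + G) := by
  obtain ⟨hF1, hF2, hF3, hF4⟩ := hF
  obtain ⟨hG1, hG2, hG3, hG4⟩ := hG
  refine ⟨fun τ => ?_, ?_, fun γ => ?_, fun δ => ?_⟩
  · exact (hF1 τ).add (hG1 τ)
  · have := hF2.add hG2
    rw [add_zero] at this
    exact this
  · obtain ⟨c, hc⟩ := hF3 γ
    obtain ⟨d, hd⟩ := hG3 γ
    refine ⟨c + d, fun z => ?_⟩
    have h1 := hc z
    have h2 := hd z
    simp only [Pi.add_apply]
    linear_combination h1 + h2
  · obtain ⟨L, hL⟩ := hF4 δ
    obtain ⟨M, hM⟩ := hG4 δ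
    exact ⟨L + M, by simpa using hL.add hM⟩

theorem hasPrim_smul (c : ℂ) {f : CuspForm (Gamma0 N) 2} {F : ℍ → ℂ}
    (hF : HasEquivariantPrimitive N f F) :
    HasEquivariantPrimitive N (c • f) (c • F) := by
  obtain ⟨hF1, hF2, hF3, hF4⟩ := hF
  refine ⟨fun τ => ?_, ?_, fun γ => ?_, fun δ => ?_⟩
  · exact (hF1 τ).const_mul c
  · have := hF2.const_mul c
    rw [mul_zero] at this
    exact this
  · obtain ⟨a, ha⟩ := hF3 γ
    refine ⟨c * a, fun z => ?_⟩
    have h1 := ha z
    simp only [Pi.smul_apply, smul_eq_mul]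
    linear_combination c * h1
  · obtain ⟨L, hL⟩ := hF4 δ
    exact ⟨c * L, by simpa using hL.const_mul c⟩

theorem periodMap_add [NeZero N] (f g : CuspForm (Gamma0 N) 2) :
    periodMap N (f + g) = periodMap N f + periodMap N g := by
  obtain ⟨F, hF⟩ := exists_prim N f
  obtain ⟨G, hG⟩ := exists_prim N g
  refine AddMonoidHom.ext fun γ => ?_
  obtain ⟨γ, rfl⟩ := Additive.ofMul.surjective γ
  rw [AddMonoidHom.add_apply, periodMap_apply N _ (hasPrim_add N hF hG) γ UpperHalfPlane.I,
    periodMap_apply N _ hF γ UpperHalfPlane.I, periodMap_apply N _ hG γ UpperHalfPlane.I]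
  simp only [Pi.add_apply]
  ring

theorem periodMap_smul [NeZero N] (c : ℂ) (f : CuspForm (Gamma0 N) 2) :
    periodMap N (c • f) = c • periodMap N f := by
  obtain ⟨F, hF⟩ := exists_prim N f
  refine AddMonoidHom.ext fun γ => ?_
  obtain ⟨γ, rfl⟩ := Additive.ofMul.surjective γ
  rw [AddMonoidHom.smul_apply, periodMap_apply N _ (hasPrim_smul N c hF) γ UpperHalfPlane.I,
    periodMap_apply N _ hF γ UpperHalfPlane.I]
  simp only [Pi.smul_apply, smul_eq_mul]
  ring

/-- The period map as a linear map. -/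
noncomputable def pml [NeZero N] : CuspForm (Gamma0 N) 2 →ₗ[ℂ] (Additive (Gamma0 N) →+ ℂ) where
  toFun := periodMap N
  map_add' := periodMap_add N
  map_smul' := periodMap_smul N

theorem existsPeriodMapLinear [NeZero N] : ExistsPeriodMapLinear N :=
  ⟨pml N, fun _ => rfl⟩

theorem periodHomPair_apply [NeZero N] (f g : CuspForm (Gamma0 N) 2) (γ : Gamma0 N) :
    periodHomPair N (f, g) (Additive.ofMul γ)
      = periodMap N f (Additive.ofMul γ) + periodMap N f (Additive.ofMul (jConjGamma0 N γ))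
        + (periodMap N g (Additive.ofMul γ) - periodMap N g (Additive.ofMul (jConjGamma0 N γ))) := by
  obtain ⟨p, hp, h⟩ := periodHomPair_def N (existsPeriodMapLinear N)
  rw [h]
  simp only [LinearMap.coprod_apply, LinearMap.comp_apply, LinearMap.add_apply,
    LinearMap.sub_apply, LinearMap.id_apply, AddMonoidHom.add_apply, AddMonoidHom.sub_apply,
    charInvolution_apply, hp, toMul_ofMul]

/-- Period of the reflected form. -/
theorem exists_reflect [NeZero N] (h3a : P3aStmt N) (h3b : P3bStmt N)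
    (f : CuspForm (Gamma0 N) 2) :
    ∃ fc : CuspForm (Gamma0 N) 2, ∀ γ : Gamma0 N,
      periodMap N fc (Additive.ofMul γ)
        = - conj (periodMap N f (Additive.ofMul (jConjGamma0 N γ))) := by
  obtain ⟨F, hF⟩ := exists_prim N f
  obtain ⟨fc, hfc⟩ := h3a f
  refine ⟨fc, fun γ => ?_⟩
  have hFc := h3b f fc hfc hF
  rw [periodMap_apply N fc hFc γ UpperHalfPlane.I,
    periodMap_apply N f hF (jConjGamma0 N γ) (J • UpperHalfPlane.I)]
  simp only [jConjGamma0_coe, P3c, map_sub]
  ring

/-- Core injectivity: if `P f = conj ∘ P h` then `f = 0`. -/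
theorem eq_zero_of_period_conj [NeZero N] (h4 : P4Stmt N) (f h : CuspForm (Gamma0 N) 2)
    (hfh : ∀ γ : Gamma0 N, periodMap N f (Additive.ofMul γ)
      = conj (periodMap N h (Additive.ofMul γ))) : f = 0 := by
  obtain ⟨F, hF⟩ := exists_prim N f
  obtain ⟨H, hH⟩ := exists_prim N h
  -- A₁ = F - H has invariant real part
  have hper : ∀ (γ : Gamma0 N) (z : ℍ), F ((γ : SL(2, ℤ)) • z) - F z
      = conj (H ((γ : SL(2, ℤ)) • z) - H z) := by
    intro γ z
    rw [← periodMap_apply N f hF γ z, ← periodMap_apply N h hH γ z]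
    exact hfh γ
  obtain ⟨c₁, hc₁⟩ := h4 (fun z => F z - H z)
    (fun τ => ((hF.1 τ).differentiableAt).sub ((hH.1 τ).differentiableAt))
    (fun γ z => by
      have := congrArg Complex.re (hper γ z)
      simp only [Complex.sub_re, Complex.conj_re, map_sub] at this ⊢
      linarith)
    (fun δ => by
      obtain ⟨L, hL⟩ := hF.2.2.2 δ
      obtain ⟨M, hM⟩ := hH.2.2.2 δ
      exact ⟨L - M, hL.sub hM⟩)
  obtain ⟨c₂, hc₂⟩ := h4 (fun z => -Complex.I * (F z + H z))
    (fun τ => (((hF.1 τ).differentiableAt).add ((hH.1 τ).differentiableAt)).const_mul _)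
    (fun γ z => by
      have := congrArg Complex.im (hper γ z)
      simp only [Complex.sub_im, Complex.conj_im, map_sub] at this
      simp only [Complex.mul_re, Complex.neg_re, Complex.I_re, Complex.neg_im, Complex.I_im,
        Complex.add_im, Complex.add_re]
      linarith)
    (fun δ => by
      obtain ⟨L, hL⟩ := hF.2.2.2 δ
      obtain ⟨M, hM⟩ := hH.2.2.2 δ
      exact ⟨-Complex.I * (L + M), (hL.add hM).const_mul _⟩)
  -- so F is constant
  have hFconst : ∀ z : ℍ, F z = (c₁ + Complex.I * c₂) / 2 := by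
    intro z
    have h1 := hc₁ z
    have h2 := hc₂ z
    have hI : Complex.I * Complex.I = -1 := Complex.I_mul_I
    have : 2 * F z = c₁ + Complex.I * c₂ := by
      rw [← h1, ← h2]
      linear_combination (F z + H z) * hI
    rw [← this]; ring
  -- hence f = 0
  ext τ
  have hd := hF.1 τ
  have hconst : (F ∘ ofComplex) =ᶠ[𝓝 (τ : ℂ)] fun _ => (c₁ + Complex.I * c₂) / 2 :=
    Filter.Eventually.of_forall fun w => hFconst _
  have hd0 : HasDerivAt (F ∘ ofComplex) 0 (τ : ℂ) :=
    (hasDerivAt_const (τ : ℂ) ((c₁ + Complex.I * c₂) / 2)).congr_of_eventuallyEq hconst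
  simpa using hd.unique hd0

theorem injective [NeZero N] (h3a : P3aStmt N) (h3b : P3bStmt N) (h4 : P4Stmt N) :
    Function.Injective (periodHomPair N) := by
  rw [injective_iff_map_eq_zero]
  rintro ⟨f, g⟩ hfg
  have key : ∀ γ : Gamma0 N,
      periodMap N f (Additive.ofMul γ) + periodMap N f (Additive.ofMul (jConjGamma0 N γ))
        + (periodMap N g (Additive.ofMul γ) - periodMap N g (Additive.ofMul (jConjGamma0 N γ)))
        = 0 := by
    intro γ
    rw [← periodHomPair_apply, hfg]; rfl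
  have hf1 : ∀ γ : Gamma0 N,
      periodMap N f (Additive.ofMul γ) + periodMap N f (Additive.ofMul (jConjGamma0 N γ)) = 0 := by
    intro γ
    have h1 := key γ
    have h2 := key (jConjGamma0 N γ)
    rw [jConjGamma0_jConjGamma0] at h2
    linear_combination (1 / 2 : ℂ) * h1 + (1 / 2 : ℂ) * h2
  have hg1 : ∀ γ : Gamma0 N,
      periodMap N g (Additive.ofMul γ) - periodMap N g (Additive.ofMul (jConjGamma0 N γ)) = 0 := by
    intro γ
    have h1 := key γ
    have h2 := key (jConjGamma0 N γ)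
    rw [jConjGamma0_jConjGamma0] at h2
    linear_combination (1 / 2 : ℂ) * h1 - (1 / 2 : ℂ) * h2
  obtain ⟨fc, hfc⟩ := exists_reflect N h3a h3b f
  obtain ⟨gc, hgc⟩ := exists_reflect N h3a h3b g
  have hf0 : f = 0 := by
    refine eq_zero_of_period_conj N h4 f fc fun γ => ?_
    rw [hfc γ, map_neg, Complex.conj_conj]
    linear_combination hf1 γ
  have hg0 : g = 0 := by
    refine eq_zero_of_period_conj N h4 g (-gc) fun γ => ?_
    have hneg : periodMap N (-gc) = - periodMap N gc := by
      have := periodMap_smul N (-1 : ℂ) gc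
      simpa using this
    rw [hneg, AddMonoidHom.neg_apply, hgc γ, neg_neg, Complex.conj_conj]
    linear_combination hg1 γ
  rw [hf0, hg0]; rfl

theorem periodMap_mem [NeZero N] (f : CuspForm (Gamma0 N) 2) :
    periodMap N f ∈ parabolicHoms ℂ (Gamma0 N) ℂ := by
  obtain ⟨F, hF⟩ := exists_prim N f
  rw [periodMap_eq N f hF]
  exact Fermat.Agent.S21_helper29_P2.periodHom_mem_parabolicHoms hF

theorem range_le [NeZero N] :
    LinearMap.range (periodHomPair N) ≤ parabolicHoms ℂ (Gamma0 N) ℂ := by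
  rintro ψ ⟨⟨f, g⟩, rfl⟩
  obtain ⟨p, hp, h⟩ := periodHomPair_def N (existsPeriodMapLinear N)
  rw [h]
  simp only [LinearMap.coprod_apply, LinearMap.comp_apply, LinearMap.add_apply,
    LinearMap.sub_apply, LinearMap.id_apply, hp]
  have hf := periodMap_mem N f
  have hg := periodMap_mem N g
  exact Submodule.add_mem _
    (Submodule.add_mem _ hf (charInvolution_mem_parabolicHoms N ℂ ℂ hf))
    (Submodule.sub_mem _ hg (charInvolution_mem_parabolicHoms N ℂ ℂ hg))

theorem main [NeZero N] (h3a : P3aStmt N) (h3b : P3bStmt N) (h4 : P4Stmt N) :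
    Function.Injective (ModularCurve.periodHomPair N)
      ∧ LinearMap.range (ModularCurve.periodHomPair N)
          = ModularCurve.Period.parabolicHoms ℂ (CongruenceSubgroup.Gamma0 N) ℂ := by
  have hinj := injective N h3a h3b h4
  refine ⟨hinj, ?_⟩
  obtain ⟨hfin, hle⟩ := P5 N
  have hS20 := Fermat.Agent.S20.result N
  haveI := hfin
  apply Submodule.eq_of_le_of_finrank_le (range_le N)
  have hr : Module.finrank ℂ (LinearMap.range (periodHomPair N))
      = Module.finrank ℂ (CuspForm (Gamma0 N) 2 × CuspForm (Gamma0 N) 2) :=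
    LinearMap.finrank_range_of_inj hinj
  have hfinS : Module.Finite ℂ (CuspForm (Gamma0 N) 2 × CuspForm (Gamma0 N) 2) := by
    have : Module.Finite ℂ (LinearMap.range (periodHomPair N)) :=
      Module.Finite.of_injective (Submodule.inclusion (range_le N))
        (Submodule.inclusion_injective _)
    exact Module.Finite.of_injective
      (LinearMap.rangeRestrict (periodHomPair N))
      (by
        intro x y hxy
        apply hinj
        exact congrArg Subtype.val hxy)
  haveI := hfinS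
  haveI : Module.Finite ℂ (CuspForm (Gamma0 N) 2) :=
    Module.Finite.of_injective (LinearMap.inl ℂ _ (CuspForm (Gamma0 N) 2)) LinearMap.inl_injective
  rw [hr, Module.finrank_prod]
  have : (Module.finrank ℂ (parabolicHoms ℂ (Gamma0 N) ℂ) : ℚ)
      ≤ ((Module.finrank ℂ (CuspForm (Gamma0 N) 2) + Module.finrank ℂ (CuspForm (Gamma0 N) 2) : ℕ) : ℚ) := by
    push_cast
    rw [hS20]
    linarith
  exact_mod_cast this

end Fermat.Agent.S21_helper23_Asm
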