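import Mathlib
import Fermat.Agent.S21_Defs

set_option autoImplicit false

open CongruenceSubgroup
open scoped MatrixGroups

namespace Fermat.Agent.S21_helper25_DIMa3

open Fermat.Agent.S20 Fermat.Agent.S21

/-- The orbit space of `T` acting on the cosets. -/
abbrev Orb (N : ℕ) : Type :=
  MulAction.orbitRel.Quotient (Subgroup.zpowers ModularGroup.T) (Q N)

lemma mem_ker_iff (N : ℕ) (u : Q N → ℂ) :
    u ∈ LinearMap.ker (rho N ModularGroup.T - 1) ↔
      ∀ x : Q N, u (ModularGroup.T⁻¹ • x) = u x := by
  rw [LinearMap.mem_ker, LinearMap.sub_apply, sub_eq_zero]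
  constructor
  · intro h x
    have := congrFun h x
    simpa [rho_apply] using this
  · intro h
    funext x
    simpa [rho_apply] using h x

lemma invariant_of_mem_ker (N : ℕ) {u : Q N → ℂ}
    (hu : u ∈ LinearMap.ker (rho N ModularGroup.T - 1))
    (g : Subgroup.zpowers ModularGroup.T) (x : Q N) : u (g • x) = u x := by
  rw [mem_ker_iff] at hu
  have hT : ∀ y : Q N, u (ModularGroup.T • y) = u y := by
    intro y
    have := hu (ModularGroup.T • y)
    rw [inv_smul_smul] at this
    exact this.symm
  obtain ⟨g, n, rfl⟩ := g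
  show u ((ModularGroup.T ^ n) • x) = u x
  induction n using Int.induction_on generalizing x with
  | zero => simp
  | succ n ih =>
    rw [zpow_add_one, mul_smul, ih, hT]
  | pred n ih =>
    rw [zpow_sub_one, mul_smul, ih, hu]

/-- Functions on the orbit space are the same as `T`-invariant functions. -/
noncomputable def orbEquiv (N : ℕ) :
    (Orb N → ℂ) ≃ₗ[ℂ] LinearMap.ker (rho N ModularGroup.T - 1) where
  toFun f := ⟨fun x => f (Quotient.mk'' x), by
    rw [mem_ker_iff]
    intro x
    show f _ = f _
    congr 1
    apply Quotient.sound'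
    refine ⟨⟨ModularGroup.T⁻¹, Subgroup.inv_mem _ (Subgroup.mem_zpowers _)⟩, rfl⟩⟩
  map_add' f g := rfl
  map_smul' c f := rfl
  invFun u := Quotient.lift (fun x => (u : Q N → ℂ) x) (by
    rintro x y ⟨g, rfl⟩
    exact invariant_of_mem_ker N u.2 g y)
  left_inv f := by
    funext q
    induction q using Quotient.inductionOn'
    rfl
  right_inv u := by
    apply Subtype.ext
    funext x
    rfl

theorem finrank_ker_T (N : ℕ) [NeZero N] :
    Module.finrank ℂ (LinearMap.ker (rho N ModularGroup.T - 1)) = cusps N := by
  classical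
  have : Finite (Q N) := inferInstance
  letI : Fintype (Orb N) := Fintype.ofFinite _
  rw [← (orbEquiv N).finrank_eq, Module.finrank_fintype_fun_eq_card, cusps,
    Nat.card_eq_fintype_card]

end Fermat.Agent.S21_helper25_DIMa3
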