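import Mathlib
import Fermat.Prelude.Def_ModularCurve_PeriodMap
import Fermat.Agent.S20_Defs

/-!
# The Shapiro cocycle of a homomorphism `Γ₀(N) → ℂ`

For `ψ : Γ₀(N) → ℂ` we define the cocycle `coc ψ : SL(2,ℤ) → (Q N → ℂ)`,
`coc ψ g q = ψ ((q.out)⁻¹ * g * (g⁻¹ • q).out)`, and prove the cocycle identity, the relations
coming from `S ^ 2 = -1`, `(S T) ^ 3 = -1`, the parabolic condition at `T ^ N`, and that `ψ`
vanishes as soon as `coc ψ` is a coboundary on `S` and `T`.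
-/

set_option autoImplicit false

open CongruenceSubgroup ModularCurve.Period
open scoped MatrixGroups

namespace Fermat.Agent.S21_helper27

open Fermat.Agent.S20

variable (N : ℕ)

/-- the action of `g` on functions on the cosets: `(act g v) q = v (g⁻¹ • q)` -/
noncomputable def act (g : SL(2, ℤ)) : (Q N → ℂ) →ₗ[ℂ] (Q N → ℂ) :=
  LinearMap.funLeft ℂ ℂ (fun q => g⁻¹ • q)

@[simp] theorem act_apply (g : SL(2, ℤ)) (v : Q N → ℂ) (q : Q N) :
    act N g v q = v (g⁻¹ • q) := rfl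

theorem act_one : act N 1 = LinearMap.id := by
  ext v q
  simp

theorem act_mul (g h : SL(2, ℤ)) : act N (g * h) = act N g ∘ₗ act N h := by
  ext v q
  simp [mul_smul]

theorem act_mul_apply (g h : SL(2, ℤ)) (v : Q N → ℂ) :
    act N (g * h) v = act N g (act N h v) := by
  rw [act_mul]; rfl

theorem act_inv_apply (g : SL(2, ℤ)) (v : Q N → ℂ) : act N g⁻¹ (act N g v) = v := by
  rw [← act_mul_apply, inv_mul_cancel, act_one]; rfl

theorem act_apply_inv (g : SL(2, ℤ)) (v : Q N → ℂ) : act N g (act N g⁻¹ v) = v := by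
  rw [← act_mul_apply, mul_inv_cancel, act_one]; rfl

/-- the extension by zero of `ψ` to `SL(2,ℤ)` -/
noncomputable def ext0 (ψ : Additive (Gamma0 N) →+ ℂ) (x : SL(2, ℤ)) : ℂ := by
  classical
  exact if h : x ∈ Gamma0 N then ψ (Additive.ofMul ⟨x, h⟩) else 0

theorem ext0_of_mem (ψ : Additive (Gamma0 N) →+ ℂ) {x : SL(2, ℤ)} (h : x ∈ Gamma0 N) :
    ext0 N ψ x = ψ (Additive.ofMul ⟨x, h⟩) := by
  unfold ext0
  rw [dif_pos h]

theorem ext0_mul (ψ : Additive (Gamma0 N) →+ ℂ) {x y : SL(2, ℤ)} (hx : x ∈ Gamma0 N)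
    (hy : y ∈ Gamma0 N) : ext0 N ψ (x * y) = ext0 N ψ x + ext0 N ψ y := by
  rw [ext0_of_mem N ψ hx, ext0_of_mem N ψ hy, ext0_of_mem N ψ (mul_mem hx hy), ← map_add]
  rfl

theorem ext0_one (ψ : Additive (Gamma0 N) →+ ℂ) : ext0 N ψ 1 = 0 := by
  have h := ext0_mul N ψ (one_mem (Gamma0 N)) (one_mem (Gamma0 N))
  rw [mul_one] at h
  linear_combination -h

theorem ext0_inv (ψ : Additive (Gamma0 N) →+ ℂ) {x : SL(2, ℤ)} (hx : x ∈ Gamma0 N) :
    ext0 N ψ x⁻¹ = -ext0 N ψ x := by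
  have h := ext0_mul N ψ hx (inv_mem hx)
  rw [mul_inv_cancel, ext0_one] at h
  linear_combination -h

theorem ext0_conj (ψ : Additive (Gamma0 N) →+ ℂ) {x y : SL(2, ℤ)} (hx : x ∈ Gamma0 N)
    (hy : y ∈ Gamma0 N) : ext0 N ψ (y⁻¹ * x * y) = ext0 N ψ x := by
  rw [ext0_mul N ψ (mul_mem (inv_mem hy) hx) hy, ext0_mul N ψ (inv_mem hy) hx,
    ext0_inv N ψ hy]
  ring

theorem ext0_add (ψ ψ' : Additive (Gamma0 N) →+ ℂ) (x : SL(2, ℤ)) :
    ext0 N (ψ + ψ') x = ext0 N ψ x + ext0 N ψ' x := by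
  unfold ext0
  split_ifs <;> simp

theorem ext0_smul (c : ℂ) (ψ : Additive (Gamma0 N) →+ ℂ) (x : SL(2, ℤ)) :
    ext0 N (c • ψ) x = c * ext0 N ψ x := by
  unfold ext0
  split_ifs <;> simp

theorem neg_one_mem : (-1 : SL(2, ℤ)) ∈ Gamma0 N := by
  rw [Gamma0_mem]
  simp

theorem ext0_neg_one (ψ : Additive (Gamma0 N) →+ ℂ) : ext0 N ψ (-1) = 0 := by
  have h := ext0_mul N ψ (neg_one_mem N) (neg_one_mem N)
  rw [neg_mul_neg, mul_one, ext0_one] at h
  have h2 : (2 : ℂ) * ext0 N ψ (-1) = 0 := by linear_combination -h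
  simpa using h2

/-- the element of `Γ₀(N)` attached to `g` and `q` -/
noncomputable def gam (g : SL(2, ℤ)) (q : Q N) : SL(2, ℤ) :=
  (q.out)⁻¹ * g * (g⁻¹ • q).out

theorem gam_mem (g : SL(2, ℤ)) (q : Q N) : gam N g q ∈ Gamma0 N := by
  unfold gam
  rw [mul_assoc, ← QuotientGroup.eq]
  have h1 : ((q.out : SL(2, ℤ)) : Q N) = q := QuotientGroup.out_eq' q
  have h2 : (((g * (g⁻¹ • q).out : SL(2, ℤ))) : Q N) = g • (((g⁻¹ • q).out : SL(2, ℤ)) : Q N) :=
    rfl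
  rw [h1, h2, QuotientGroup.out_eq', smul_inv_smul]

theorem gam_mul (g h : SL(2, ℤ)) (q : Q N) :
    gam N (g * h) q = gam N g q * gam N h (g⁻¹ • q) := by
  unfold gam
  rw [mul_inv_rev, mul_smul]
  group

/-- the Shapiro cocycle -/
noncomputable def coc (ψ : Additive (Gamma0 N) →+ ℂ) (g : SL(2, ℤ)) : Q N → ℂ :=
  fun q => ext0 N ψ (gam N g q)

theorem coc_apply (ψ : Additive (Gamma0 N) →+ ℂ) (g : SL(2, ℤ)) (q : Q N) :
    coc N ψ g q = ext0 N ψ (gam N g q) := rfl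

theorem coc_mul (ψ : Additive (Gamma0 N) →+ ℂ) (g h : SL(2, ℤ)) :
    coc N ψ (g * h) = coc N ψ g + act N g (coc N ψ h) := by
  funext q
  rw [Pi.add_apply, act_apply, coc_apply, coc_apply, coc_apply, gam_mul,
    ext0_mul N ψ (gam_mem N g q) (gam_mem N h _)]

theorem coc_one (ψ : Additive (Gamma0 N) →+ ℂ) : coc N ψ 1 = 0 := by
  have h := coc_mul N ψ 1 1
  rw [mul_one, act_one, LinearMap.id_apply] at h
  have h2 : coc N ψ 1 + coc N ψ 1 = coc N ψ 1 + 0 := by rw [add_zero]; exact h.symm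
  exact add_left_cancel h2

theorem coc_add (ψ ψ' : Additive (Gamma0 N) →+ ℂ) (g : SL(2, ℤ)) :
    coc N (ψ + ψ') g = coc N ψ g + coc N ψ' g := by
  funext q
  simp only [coc_apply, Pi.add_apply, ext0_add]

theorem coc_smul (c : ℂ) (ψ : Additive (Gamma0 N) →+ ℂ) (g : SL(2, ℤ)) :
    coc N (c • ψ) g = c • coc N ψ g := by
  funext q
  simp only [coc_apply, Pi.smul_apply, ext0_smul, smul_eq_mul]

/-- `-1` acts trivially on the cosets -/
theorem neg_one_smul_Q (q : Q N) : (-1 : SL(2, ℤ)) • q = q := by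
  induction q using QuotientGroup.induction_on with
  | H h =>
    show (((-1 : SL(2, ℤ)) * h : SL(2, ℤ)) : Q N) = (h : Q N)
    rw [eq_comm, QuotientGroup.eq]
    have : h⁻¹ * (-1 * h) = -1 := by
      rw [neg_mul, one_mul, mul_neg, inv_mul_cancel]
    rw [this]
    exact neg_one_mem N

theorem act_neg_one : act N (-1) = LinearMap.id := by
  ext v q
  have h : ((-1 : SL(2, ℤ)))⁻¹ = -1 := by
    rw [inv_eq_iff_mul_eq_one, neg_mul_neg, mul_one]
  simp [h, neg_one_smul_Q]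

theorem coc_neg_one (ψ : Additive (Gamma0 N) →+ ℂ) : coc N ψ (-1) = 0 := by
  funext q
  have h : ((-1 : SL(2, ℤ)))⁻¹ = -1 := by
    rw [inv_eq_iff_mul_eq_one, neg_mul_neg, mul_one]
  have h2 : gam N (-1) q = -1 := by
    unfold gam
    rw [h, neg_one_smul_Q, mul_neg, mul_one, neg_mul, inv_mul_cancel]
  rw [coc_apply, h2, ext0_neg_one]
  rfl

end Fermat.Agent.S21_helper27
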