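import Mathlib

/-!
# Abstract linear algebra for the bound on parabolic cohomology
-/

set_option autoImplicit false

namespace Fermat.Agent.S21_helper27

open Module

section Proj

variable {V : Type*} [AddCommGroup V] [Module ℂ V]

theorem mul_sum_pow_eq (a : Module.End ℂ V) (n : ℕ) (ha : a ^ n = 1) :
    a * ∑ j ∈ Finset.range n, a ^ j = ∑ j ∈ Finset.range n, a ^ j := by
  rw [Finset.mul_sum]
  have h1 : ∑ j ∈ Finset.range n, a * a ^ j = ∑ j ∈ Finset.range n, a ^ (j + 1) :=
    Finset.sum_congr rfl fun j _ => (pow_succ' a j).symm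
  rw [h1]
  have h2 := Finset.sum_range_succ' (fun j => a ^ j) n
  have h3 := Finset.sum_range_succ (fun j => a ^ j) n
  rw [h3, ha, pow_zero] at h2
  exact add_right_cancel h2.symm

theorem pow_apply_of_fixed (a : Module.End ℂ V) (x : V) (hx : a x = x) (j : ℕ) :
    (a ^ j) x = x := by
  induction j with
  | zero => rfl
  | succ j ih => rw [pow_succ, Module.End.mul_apply, hx, ih]

/-- the averaging operator of a finite order endomorphism is a projector onto the invariants -/
theorem isProj_avg (a : Module.End ℂ V) (n : ℕ) (hn : n ≠ 0) (ha : a ^ n = 1) :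
    LinearMap.IsProj (LinearMap.ker (a - 1)) ((n : ℂ)⁻¹ • ∑ j ∈ Finset.range n, a ^ j) := by
  have hn' : (n : ℂ) ≠ 0 := Nat.cast_ne_zero.mpr hn
  constructor
  · intro x
    rw [LinearMap.mem_ker, LinearMap.sub_apply, Module.End.one_apply, sub_eq_zero,
      LinearMap.smul_apply, map_smul, ← Module.End.mul_apply, mul_sum_pow_eq a n ha]
  · intro x hx
    rw [LinearMap.mem_ker, LinearMap.sub_apply, Module.End.one_apply, sub_eq_zero] at hx
    rw [LinearMap.smul_apply, LinearMap.sum_apply]
    simp only [pow_apply_of_fixed a x hx]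
    rw [Finset.sum_const, Finset.card_range, ← Nat.cast_smul_eq_nsmul ℂ, smul_smul,
      inv_mul_cancel₀ hn', one_smul]

theorem finrank_ker_sub_one [FiniteDimensional ℂ V] (a : Module.End ℂ V) (n : ℕ) (hn : n ≠ 0)
    (ha : a ^ n = 1) :
    (n : ℂ) * (finrank ℂ (LinearMap.ker (a - 1)) : ℂ) =
      ∑ j ∈ Finset.range n, LinearMap.trace ℂ V (a ^ j) := by
  have hn' : (n : ℂ) ≠ 0 := Nat.cast_ne_zero.mpr hn
  have h := (isProj_avg a n hn ha).trace
  rw [map_smul, map_sum, smul_eq_mul] at h
  rw [← h, ← mul_assoc, mul_inv_cancel₀ hn', one_mul]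

end Proj

section Count

variable {V : Type*} [AddCommGroup V] [Module ℂ V] [FiniteDimensional ℂ V]

/-- the main counting lemma -/
theorem count_bound (s t u : Module.End ℂ V) (hu : u = s * t) (hu3 : u * u * u = 1)
    (σ : V →ₗ[ℂ] ℂ)
    (hB : LinearMap.ker σ ≤ LinearMap.range (1 - s) ⊔ LinearMap.range (1 - u))
    (hA : finrank ℂ ↥(LinearMap.ker (s - 1) ⊓ LinearMap.ker (t - 1)) ≤ 1)
    (D : Submodule ℂ V)
    (hD1 : D ⊓ (LinearMap.ker (s - 1) ⊔ LinearMap.ker (t - 1)) = ⊥)
    (hD2 : D ≤ LinearMap.ker ((1 + u + u * u) * (1 - s))) :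
    finrank ℂ D + finrank ℂ (LinearMap.ker (s - 1)) + finrank ℂ (LinearMap.ker (t - 1)) +
      finrank ℂ (LinearMap.ker (u - 1)) ≤ finrank ℂ V + 2 := by
  set M : Module.End ℂ V := (1 + u + u * u) * (1 - s) with hM
  set Vs := LinearMap.ker (s - 1) with hVs
  set Vt := LinearMap.ker (t - 1) with hVt
  set Vu := LinearMap.ker (u - 1) with hVu
  -- `Vs` and `Vt` are in the kernel of `M`
  have hs_le : Vs ≤ LinearMap.ker M := by
    intro x hx
    rw [hVs, LinearMap.mem_ker, LinearMap.sub_apply, Module.End.one_apply, sub_eq_zero] at hx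
    rw [LinearMap.mem_ker, hM, Module.End.mul_apply, LinearMap.sub_apply, Module.End.one_apply,
      hx, sub_self, map_zero]
  have hu3' : ∀ x, u (u (u x)) = x := fun x => by
    have := congrArg (fun f : Module.End ℂ V => f x) hu3
    simpa [Module.End.mul_apply] using this
  have hMu : ∀ x, (1 + u + u * u) (x - u x) = 0 := by
    intro x
    simp only [LinearMap.add_apply, Module.End.one_apply, Module.End.mul_apply, map_sub, hu3']
    abel
  have ht_le : Vt ≤ LinearMap.ker M := by
    intro x hx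
    rw [hVt, LinearMap.mem_ker, LinearMap.sub_apply, Module.End.one_apply, sub_eq_zero] at hx
    have hux : u x = s x := by rw [hu, Module.End.mul_apply, hx]
    rw [LinearMap.mem_ker, hM, Module.End.mul_apply, LinearMap.sub_apply, Module.End.one_apply,
      ← hux]
    exact hMu x
  -- the range of `M` contains `Vu ⊓ ker σ`
  have hrange : Vu ⊓ LinearMap.ker σ ≤ LinearMap.range M := by
    intro z hz
    obtain ⟨hz1, hz2⟩ := Submodule.mem_inf.mp hz
    rw [hVu, LinearMap.mem_ker, LinearMap.sub_apply, Module.End.one_apply, sub_eq_zero] at hz1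
    obtain ⟨y1, hy1, y2, hy2, hyz⟩ := Submodule.mem_sup.mp (hB hz2)
    obtain ⟨x1, rfl⟩ := hy1
    obtain ⟨x2, rfl⟩ := hy2
    refine ⟨(3 : ℂ)⁻¹ • x1, ?_⟩
    have h3z : (1 + u + u * u) z = (3 : ℂ) • z := by
      simp only [LinearMap.add_apply, Module.End.one_apply, Module.End.mul_apply, hz1]
      module
    have h4 : (1 + u + u * u) ((1 - u) x2) = 0 := by
      rw [LinearMap.sub_apply, Module.End.one_apply]
      exact hMu x2
    have h5 : M x1 = (3 : ℂ) • z := by
      rw [← h3z, ← hyz, map_add, h4, add_zero, hM, Module.End.mul_apply]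
    rw [map_smul, h5, smul_smul]
    norm_num
  -- dimension counts
  have e1 := LinearMap.finrank_range_add_finrank_ker M
  have e2 := LinearMap.finrank_range_add_finrank_ker σ
  have e3 : finrank ℂ (LinearMap.range σ) ≤ 1 := by
    have := Submodule.finrank_le (LinearMap.range σ)
    rwa [finrank_self] at this
  have e4 := Submodule.finrank_sup_add_finrank_inf_eq Vu (LinearMap.ker σ)
  have e5 : finrank ℂ ↥(Vu ⊔ LinearMap.ker σ) ≤ finrank ℂ V := Submodule.finrank_le _
  have e6 : finrank ℂ ↥(Vu ⊓ LinearMap.ker σ) ≤ finrank ℂ (LinearMap.range M) :=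
    Submodule.finrank_mono hrange
  have e7 := Submodule.finrank_sup_add_finrank_inf_eq D (Vs ⊔ Vt)
  have e8 := Submodule.finrank_sup_add_finrank_inf_eq Vs Vt
  have e9 : finrank ℂ ↥(D ⊔ (Vs ⊔ Vt)) ≤ finrank ℂ (LinearMap.ker M) :=
    Submodule.finrank_mono (sup_le hD2 (sup_le hs_le ht_le))
  have e10 : finrank ℂ ↥(D ⊓ (Vs ⊔ Vt)) = 0 := by
    rw [hD1]; exact finrank_bot ℂ V
  omega

end Count

section Theta

variable {V : Type*} [AddCommGroup V] [Module ℂ V]

/-- telescoping identity -/
theorem one_sub_mul_sum (t : Module.End ℂ V) (n : ℕ) :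
    (1 - t) * ∑ j ∈ Finset.range (n + 1), (j : ℂ) • t ^ j =
      ∑ j ∈ Finset.range (n + 1), t ^ j - 1 - (n : ℂ) • t ^ (n + 1) := by
  induction n with
  | zero => simp
  | succ n ih =>
    rw [Finset.sum_range_succ, mul_add, ih, Finset.sum_range_succ _ (n + 1)]
    have : (1 - t) * (((n + 1 : ℕ) : ℂ) • t ^ (n + 1)) =
        ((n + 1 : ℕ) : ℂ) • t ^ (n + 1) - ((n + 1 : ℕ) : ℂ) • t ^ (n + 1 + 1) := by
      rw [sub_mul, one_mul, mul_smul_comm, ← pow_succ']
    rw [this]
    push_cast
    module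

/-- the section `R` of `1 - t` on the kernel of the averaging operator -/
noncomputable def Rsec (t : Module.End ℂ V) (n : ℕ) : Module.End ℂ V :=
  -((n : ℂ)⁻¹ • ∑ j ∈ Finset.range n, (j : ℂ) • t ^ j)

theorem one_sub_mul_Rsec (t : Module.End ℂ V) (n : ℕ) (hn : n ≠ 0) (ht : t ^ n = 1) :
    (1 - t) * Rsec t n = 1 - (n : ℂ)⁻¹ • ∑ j ∈ Finset.range n, t ^ j := by
  obtain ⟨m, rfl⟩ := Nat.exists_eq_succ_of_ne_zero hn
  have hn' : ((m + 1 : ℕ) : ℂ) ≠ 0 := Nat.cast_ne_zero.mpr hn
  unfold Rsec
  rw [mul_neg, mul_smul_comm, Nat.succ_eq_add_one, one_sub_mul_sum, ht]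
  have : (1 : Module.End ℂ V) = ((m + 1 : ℕ) : ℂ)⁻¹ • (((m + 1 : ℕ) : ℂ) • (1 : Module.End ℂ V)) := by
    rw [smul_smul, inv_mul_cancel₀ hn', one_smul]
  conv_rhs => rw [this]
  rw [← smul_sub, ← smul_neg]
  congr 1
  push_cast
  module

theorem Rsec_spec (t : Module.End ℂ V) (n : ℕ) (hn : n ≠ 0) (ht : t ^ n = 1) (b : V)
    (hb : (∑ j ∈ Finset.range n, t ^ j) b = 0) : Rsec t n b - t (Rsec t n b) = b := by
  have h := congrArg (fun f : Module.End ℂ V => f b) (one_sub_mul_Rsec t n hn ht)
  simp only [Module.End.mul_apply, LinearMap.sub_apply, Module.End.one_apply,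
    LinearMap.smul_apply, hb, smul_zero, sub_zero] at h
  exact h

/-- the class `d = a / 2 - R b` -/
noncomputable def dcls (t : Module.End ℂ V) (n : ℕ) (a b : V) : V :=
  (2 : ℂ)⁻¹ • a - Rsec t n b

theorem dcls_add (t : Module.End ℂ V) (n : ℕ) (a b a' b' : V) :
    dcls t n (a + a') (b + b') = dcls t n a b + dcls t n a' b' := by
  unfold dcls
  rw [map_add]
  module

theorem dcls_smul (t : Module.End ℂ V) (n : ℕ) (c : ℂ) (a b : V) :
    dcls t n (c • a) (c • b) = c • dcls t n a b := by
  unfold dcls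
  rw [map_smul]
  module

theorem dcls_mem_ker (s t u : Module.End ℂ V) (hu : u = s * t) (hu3 : u * u * u = 1)
    (n : ℕ) (hn : n ≠ 0) (ht : t ^ n = 1) (a b : V)
    (ha : a + s a = 0) (hb : (∑ j ∈ Finset.range n, t ^ j) b = 0)
    (hc : (a + s b) + u (a + s b) + u (u (a + s b)) = 0) :
    ((1 + u + u * u) * (1 - s)) (dcls t n a b) = 0 := by
  have hu3' : ∀ x, u (u (u x)) = x := fun x => by
    have := congrArg (fun f : Module.End ℂ V => f x) hu3
    simpa [Module.End.mul_apply] using this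
  have hR := Rsec_spec t n hn ht b hb
  set b' := Rsec t n b with hb'
  have hsa : s a = -a := by linear_combination (norm := module) ha
  have hub' : u b' = s (t b') := by rw [hu]; rfl
  -- `(1 - s) d = (a + s b) + u b' - b'`
  have h1 : (1 - s) (dcls t n a b) = (a + s b) + (u b' - b') := by
    unfold dcls
    rw [LinearMap.sub_apply, Module.End.one_apply, map_sub, map_smul, hsa, ← hb', hub']
    have h2 : s b = s b' - s (t b') := by rw [← map_sub, hR]
    rw [h2]
    module
  rw [Module.End.mul_apply, h1, map_add]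
  have h3 : (1 + u + u * u) (a + s b) = 0 := by
    simp only [LinearMap.add_apply, Module.End.one_apply, Module.End.mul_apply]
    exact hc
  have h4 : (1 + u + u * u) (u b' - b') = 0 := by
    simp only [LinearMap.add_apply, Module.End.one_apply, Module.End.mul_apply, map_sub, hu3']
    abel
  rw [h3, h4, add_zero]

theorem coboundary_of_dcls (s t : Module.End ℂ V)
    (n : ℕ) (hn : n ≠ 0) (ht : t ^ n = 1) (a b : V)
    (ha : a + s a = 0) (hb : (∑ j ∈ Finset.range n, t ^ j) b = 0)
    (v₁ v₂ : V) (h₁ : s v₁ = v₁) (h₂ : t v₂ = v₂) (hd : dcls t n a b = v₁ + v₂) :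
    ∃ v : V, a = s v - v ∧ b = t v - v := by
  have hR := Rsec_spec t n hn ht b hb
  set b' := Rsec t n b with hb'
  have hsa : s a = -a := by linear_combination (norm := module) ha
  refine ⟨-(v₂ + b'), ?_, ?_⟩
  · -- `a = (1 - s) (a / 2) = (1 - s) (d + b')`
    have e1 : (2 : ℂ)⁻¹ • a = v₁ + v₂ + b' := by
      unfold dcls at hd
      rw [← hb'] at hd
      linear_combination (norm := module) hd
    have e2 := congrArg s e1
    rw [map_smul, hsa, map_add, map_add, h₁] at e2
    rw [map_neg, map_add]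
    linear_combination (norm := module) e1 - e2
  · rw [map_neg, map_add, h₂]
    linear_combination (norm := module) -hR

end Theta

end Fermat.Agent.S21_helper27
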