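import Fermat.Agent.S21_helper27_Relations
import Fermat.Agent.S21_helper27_LinAlg

/-!
# The bound `dim Hom_par(Γ₀(N), ℂ) ≤ 2 g`
-/

set_option autoImplicit false
set_option linter.unusedSectionVars false

open CongruenceSubgroup ModularCurve.Period Module
open scoped MatrixGroups

namespace Fermat.Agent.S21_helper27

open Fermat.Agent.S20

variable (N : ℕ) [NeZero N]

noncomputable instance instFintypeQ' : Fintype (Q N) := Fintype.ofFinite _

instance : FiniteDimensional ℂ (Q N → ℂ) := inferInstance

theorem finrank_V : finrank ℂ (Q N → ℂ) = mu N := by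
  rw [Module.finrank_fintype_fun_eq_card, mu, Nat.card_eq_fintype_card]

/-! ### traces -/

theorem trace_act (g : SL(2, ℤ)) :
    LinearMap.trace ℂ (Q N → ℂ) (act N g) = (Nat.card {q : Q N // g • q = q} : ℂ) := by
  classical
  rw [LinearMap.trace_eq_matrix_trace ℂ (Pi.basisFun ℂ (Q N)), Matrix.trace]
  have h1 : ∀ q : Q N, (LinearMap.toMatrix (Pi.basisFun ℂ (Q N)) (Pi.basisFun ℂ (Q N))
      (act N g)).diag q = if g • q = q then (1 : ℂ) else 0 := by
    intro q
    rw [Matrix.diag_apply, LinearMap.toMatrix_apply, Pi.basisFun_apply, Pi.basisFun_repr,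
      act_apply, Pi.single_apply]
    congr 1
    rw [eq_iff_iff, inv_smul_eq_iff, eq_comm]
  simp only [h1]
  rw [Finset.sum_boole, Nat.card_eq_fintype_card, Fintype.card_subtype]

theorem act_S_sq : (act N ModularGroup.S) ^ 2 = 1 := by
  ext v q
  rw [pow_two, Module.End.mul_apply, act_S_S]
  rfl

theorem act_mul' (g h : SL(2, ℤ)) : act N g * act N h = act N (g * h) :=
  (act_mul N g h).symm

theorem act_U_eq : act N (ModularGroup.S * ModularGroup.T) =
    act N ModularGroup.S * act N ModularGroup.T := act_mul N _ _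

theorem act_U_cube' : act N (ModularGroup.S * ModularGroup.T) *
    act N (ModularGroup.S * ModularGroup.T) * act N (ModularGroup.S * ModularGroup.T) = 1 := by
  apply LinearMap.ext
  intro v
  rw [Module.End.mul_apply, Module.End.mul_apply, act_U_cube]
  rfl

theorem act_U_pow_three : (act N (ModularGroup.S * ModularGroup.T)) ^ 3 = 1 := by
  rw [pow_succ, pow_two, act_U_cube']

theorem finrank_Vs :
    2 * finrank ℂ (LinearMap.ker (act N ModularGroup.S - 1)) = mu N + nu2 N := by
  have h := finrank_ker_sub_one (act N ModularGroup.S) 2 (by norm_num) (act_S_sq N)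
  rw [Finset.sum_range_succ, Finset.sum_range_one, pow_zero, pow_one, LinearMap.trace_one,
    trace_act, finrank_V] at h
  unfold nu2
  exact_mod_cast h

theorem fixed_sq_iff (g : SL(2, ℤ)) (hg : g * g * g = -1) (q : Q N) :
    (g * g) • q = q ↔ g • q = q := by
  have h3 : g • g • g • q = q := by
    rw [← mul_smul, ← mul_smul, hg, neg_one_smul_Q]
  constructor
  · intro h
    rw [mul_smul] at h
    have := h3
    rw [h] at this
    exact this
  · intro h
    rw [mul_smul, h, h]

theorem finrank_Vu :
    3 * finrank ℂ (LinearMap.ker (act N (ModularGroup.S * ModularGroup.T) - 1)) =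
      mu N + 2 * nu3 N := by
  have h := finrank_ker_sub_one (act N (ModularGroup.S * ModularGroup.T)) 3 (by norm_num)
    (act_U_pow_three N)
  rw [Finset.sum_range_succ, Finset.sum_range_succ, Finset.sum_range_one, pow_zero, pow_one,
    LinearMap.trace_one, pow_two, act_mul', trace_act, trace_act, finrank_V] at h
  have e : Nat.card {q : Q N // (ModularGroup.S * ModularGroup.T *
      (ModularGroup.S * ModularGroup.T)) • q = q} = nu3 N := by
    unfold nu3
    exact Nat.card_congr (Equiv.subtypeEquivRight fun q => fixed_sq_iff N _ ST_cube q)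
  rw [e] at h
  have h2 : ((3 * finrank ℂ (LinearMap.ker (act N (ModularGroup.S * ModularGroup.T) - 1)) : ℕ) : ℂ)
      = ((mu N + 2 * nu3 N : ℕ) : ℂ) := by
    push_cast
    push_cast at h
    rw [h]
    unfold nu3
    ring
  exact_mod_cast h2

/-! ### invariants of `T` -/

/-- the orbit space of `T` -/
abbrev Om : Type := MulAction.orbitRel.Quotient (Subgroup.zpowers ModularGroup.T) (Q N)

noncomputable instance : Fintype (Om N) := Fintype.ofFinite _

/-- pull back along the orbit map -/
noncomputable def pullOm : (Om N → ℂ) →ₗ[ℂ] (Q N → ℂ) :=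
  LinearMap.funLeft ℂ ℂ (fun q : Q N => (Quotient.mk'' q : Om N))

theorem pullOm_injective : Function.Injective (pullOm N) := by
  intro f f' h
  funext ω
  induction ω using Quotient.inductionOn' with
  | h q => exact congrFun h q

theorem invariant_zpowers (v : Q N → ℂ) (hv : act N ModularGroup.T v = v)
    (g : SL(2, ℤ)) (hg : g ∈ Subgroup.zpowers ModularGroup.T) (q : Q N) : v (g • q) = v q := by
  let H : Subgroup SL(2, ℤ) :=
    { carrier := {g | ∀ q, v (g • q) = v q}
      one_mem' := fun q => by rw [one_smul]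
      mul_mem' := by
        intro g h hg hh q
        rw [mul_smul, hg, hh]
      inv_mem' := by
        intro g hg q
        have := hg (g⁻¹ • q)
        rw [smul_inv_smul] at this
        exact this.symm }
  have hT : ModularGroup.T ∈ H := by
    intro q
    have := congrFun hv (ModularGroup.T • q)
    rw [act_apply, inv_smul_smul] at this
    exact this.symm
  have hle : Subgroup.zpowers ModularGroup.T ≤ H := by
    rw [Subgroup.zpowers_le]
    exact hT
  exact hle hg q

theorem range_pullOm : LinearMap.range (pullOm N) = LinearMap.ker (act N ModularGroup.T - 1) := by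
  ext v
  rw [LinearMap.mem_ker, LinearMap.sub_apply, Module.End.one_apply, sub_eq_zero]
  constructor
  · rintro ⟨f, rfl⟩
    funext q
    rw [act_apply]
    show f (Quotient.mk'' (ModularGroup.T⁻¹ • q)) = f (Quotient.mk'' q)
    congr 1
    apply Quotient.sound'
    show (ModularGroup.T⁻¹ • q) ∈ MulAction.orbit (Subgroup.zpowers ModularGroup.T) q
    exact ⟨⟨ModularGroup.T⁻¹, inv_mem (Subgroup.mem_zpowers _)⟩, rfl⟩
  · intro hv
    refine ⟨Quotient.lift v ?_, ?_⟩
    · rintro q q' ⟨⟨g, hg⟩, rfl⟩
      exact invariant_zpowers N v hv g hg q'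
    · funext q
      rfl

theorem finrank_Vt : finrank ℂ (LinearMap.ker (act N ModularGroup.T - 1)) = cusps N := by
  rw [← range_pullOm, LinearMap.finrank_range_of_inj (pullOm_injective N),
    Module.finrank_fintype_fun_eq_card, cusps, Nat.card_eq_fintype_card]

/-! ### transitivity -/

/-- the sum functional -/
noncomputable def sumF : (Q N → ℂ) →ₗ[ℂ] ℂ where
  toFun v := ∑ q, v q
  map_add' v w := by simp [Finset.sum_add_distrib]
  map_smul' c v := by simp [Finset.mul_sum]

theorem act_single (g : SL(2, ℤ)) (q : Q N) [DecidableEq (Q N)] :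
    act N g (Pi.single q (1 : ℂ)) = Pi.single (g • q) (1 : ℂ) := by
  funext q'
  rw [act_apply, Pi.single_apply, Pi.single_apply]
  congr 1
  rw [eq_iff_iff, inv_smul_eq_iff]

theorem single_sub_mem [DecidableEq (Q N)] (q q' : Q N) :
    (Pi.single q (1 : ℂ) - Pi.single q' (1 : ℂ) : Q N → ℂ) ∈
      LinearMap.range (1 - act N ModularGroup.S) ⊔
        LinearMap.range (1 - act N (ModularGroup.S * ModularGroup.T)) := by
  set I := LinearMap.range (1 - act N ModularGroup.S) ⊔
        LinearMap.range (1 - act N (ModularGroup.S * ModularGroup.T)) with hI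
  let H : Subgroup SL(2, ℤ) :=
    { carrier := {g | ∀ q : Q N, (Pi.single q (1 : ℂ) - Pi.single (g • q) (1 : ℂ) : Q N → ℂ) ∈ I}
      one_mem' := fun q => by rw [one_smul, sub_self]; exact I.zero_mem
      mul_mem' := by
        intro g h hg hh q
        have h1 := hh q
        have h2 := hg (h • q)
        have := I.add_mem h1 h2
        rw [mul_smul]
        convert this using 1
        abel
      inv_mem' := by
        intro g hg q
        have h1 := hg (g⁻¹ • q)
        rw [smul_inv_smul] at h1
        have := I.neg_mem h1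
        convert this using 1
        abel }
  have hS : ModularGroup.S ∈ H := by
    intro q
    refine Submodule.mem_sup_left ⟨Pi.single q 1, ?_⟩
    rw [LinearMap.sub_apply, Module.End.one_apply, act_single]
  have hU : ModularGroup.S * ModularGroup.T ∈ H := by
    intro q
    refine Submodule.mem_sup_right ⟨Pi.single q 1, ?_⟩
    rw [LinearMap.sub_apply, Module.End.one_apply, act_single]
  have hT : ModularGroup.T ∈ H := by
    have := H.mul_mem (H.inv_mem hS) hU
    rwa [inv_mul_cancel_left] at this
  have hH : H = ⊤ := by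
    rw [eq_top_iff, ← SpecialLinearGroup.SL2Z_generators, Subgroup.closure_le]
    rintro g (rfl | rfl)
    · exact hS
    · exact hT
  obtain ⟨g, rfl⟩ := MulAction.exists_smul_eq SL(2, ℤ) q q'
  have : g ∈ H := by rw [hH]; exact Subgroup.mem_top g
  exact this q

theorem ker_sumF_le : LinearMap.ker (sumF N) ≤
    LinearMap.range (1 - act N ModularGroup.S) ⊔
      LinearMap.range (1 - act N (ModularGroup.S * ModularGroup.T)) := by
  classical
  intro v hv
  rw [LinearMap.mem_ker] at hv
  have hv' : ∑ q, v q = 0 := hv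
  set q₀ : Q N := ((1 : SL(2, ℤ)) : Q N) with hq₀
  have e : v = ∑ q, v q • (Pi.single q (1 : ℂ) - Pi.single q₀ (1 : ℂ) : Q N → ℂ) := by
    have e1 : v = ∑ q, v q • (Pi.single q (1 : ℂ) : Q N → ℂ) := by
      funext q'
      simp [Finset.sum_apply, Pi.single_apply]
    have e2 : ∑ q, v q • (Pi.single q₀ (1 : ℂ) : Q N → ℂ) = 0 := by
      rw [← Finset.sum_smul, hv', zero_smul]
    simp only [smul_sub]
    rw [Finset.sum_sub_distrib, e2, sub_zero]
    exact e1
  rw [e]
  exact Submodule.sum_mem _ fun q _ => Submodule.smul_mem _ _ (single_sub_mem N q q₀)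

theorem finrank_inf_le :
    finrank ℂ ↥(LinearMap.ker (act N ModularGroup.S - 1) ⊓
      LinearMap.ker (act N ModularGroup.T - 1)) ≤ 1 := by
  have hle : LinearMap.ker (act N ModularGroup.S - 1) ⊓ LinearMap.ker (act N ModularGroup.T - 1) ≤
      Submodule.span ℂ {(fun _ => 1 : Q N → ℂ)} := by
    intro v hv
    obtain ⟨h1, h2⟩ := Submodule.mem_inf.mp hv
    rw [LinearMap.mem_ker, LinearMap.sub_apply, Module.End.one_apply, sub_eq_zero] at h1 h2
    rw [Submodule.mem_span_singleton]
    refine ⟨v ((1 : SL(2, ℤ)) : Q N), ?_⟩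
    funext q
    rw [Pi.smul_apply, smul_eq_mul, mul_one]
    exact const_of_invariant N v h1 h2 _ _
  refine (Submodule.finrank_mono hle).trans ?_
  refine (finrank_span_le_card _).trans ?_
  simp

/-! ### the class map -/

/-- the linear map `ψ ↦ d_ψ` -/
noncomputable def Theta : parabolicHoms ℂ (Gamma0 N) ℂ →ₗ[ℂ] (Q N → ℂ) where
  toFun ψ := dcls (act N ModularGroup.T) N (coc N ψ.1 ModularGroup.S) (coc N ψ.1 ModularGroup.T)
  map_add' ψ ψ' := by
    show dcls _ N (coc N (ψ.1 + ψ'.1) _) (coc N (ψ.1 + ψ'.1) _) = _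
    rw [coc_add, coc_add, dcls_add]
  map_smul' c ψ := by
    show dcls _ N (coc N (c • ψ.1) _) (coc N (c • ψ.1) _) = _
    rw [coc_smul, coc_smul, dcls_smul]
    rfl

theorem Theta_apply (ψ : parabolicHoms ℂ (Gamma0 N) ℂ) :
    Theta N ψ = dcls (act N ModularGroup.T) N (coc N ψ.1 ModularGroup.S)
      (coc N ψ.1 ModularGroup.T) := rfl

theorem coc_T_rel' (ψ : parabolicHoms ℂ (Gamma0 N) ℂ) :
    (∑ j ∈ Finset.range N, (act N ModularGroup.T) ^ j) (coc N ψ.1 ModularGroup.T) = 0 := by
  rw [LinearMap.sum_apply]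
  exact coc_T_rel N ψ.1 ψ.2

theorem Theta_mem_ker (ψ : parabolicHoms ℂ (Gamma0 N) ℂ) :
    Theta N ψ ∈ LinearMap.ker ((1 + act N (ModularGroup.S * ModularGroup.T) +
      act N (ModularGroup.S * ModularGroup.T) * act N (ModularGroup.S * ModularGroup.T)) *
        (1 - act N ModularGroup.S)) := by
  rw [LinearMap.mem_ker, Theta_apply]
  refine dcls_mem_ker (act N ModularGroup.S) (act N ModularGroup.T)
    (act N (ModularGroup.S * ModularGroup.T)) (act_U_eq N) (act_U_cube' N) N (NeZero.ne N)
    (act_T_pow N) _ _ (coc_S_rel N ψ.1) (coc_T_rel' N ψ) ?_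
  have h := coc_U_rel N ψ.1
  rw [coc_U] at h
  exact h

theorem eq_zero_of_Theta_mem (ψ : parabolicHoms ℂ (Gamma0 N) ℂ)
    (h : Theta N ψ ∈ LinearMap.ker (act N ModularGroup.S - 1) ⊔
      LinearMap.ker (act N ModularGroup.T - 1)) : ψ = 0 := by
  obtain ⟨v₁, h₁, v₂, h₂, hd⟩ := Submodule.mem_sup.mp h
  rw [LinearMap.mem_ker, LinearMap.sub_apply, Module.End.one_apply, sub_eq_zero] at h₁ h₂
  obtain ⟨v, hS, hT⟩ := coboundary_of_dcls (act N ModularGroup.S) (act N ModularGroup.T) N
    (NeZero.ne N) (act_T_pow N) _ _ (coc_S_rel N ψ.1) (coc_T_rel' N ψ) v₁ v₂ h₁ h₂ hd.symm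
  exact Subtype.ext (eq_zero_of_coboundary N ψ.1 v hS hT)

theorem Theta_injective : Function.Injective (Theta N) := by
  rw [← LinearMap.ker_eq_bot, LinearMap.ker_eq_bot']
  intro ψ hψ
  refine eq_zero_of_Theta_mem N ψ ?_
  rw [hψ]
  exact Submodule.zero_mem _

/-- finiteness of the space of parabolic homomorphisms -/
theorem parabolicHoms_finite : Module.Finite ℂ (parabolicHoms ℂ (Gamma0 N) ℂ) :=
  FiniteDimensional.of_injective (Theta N) (Theta_injective N)

/-- the combinatorial bound -/
theorem parabolicHoms_finrank_le :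
    6 * finrank ℂ (parabolicHoms ℂ (Gamma0 N) ℂ) + 3 * nu2 N + 4 * nu3 N + 6 * cusps N ≤
      12 + mu N := by
  have hD1 : LinearMap.range (Theta N) ⊓ (LinearMap.ker (act N ModularGroup.S - 1) ⊔
      LinearMap.ker (act N ModularGroup.T - 1)) = ⊥ := by
    rw [eq_bot_iff]
    rintro x ⟨⟨ψ, rfl⟩, hx⟩
    rw [eq_zero_of_Theta_mem N ψ hx, map_zero]
    exact Submodule.zero_mem _
  have hD2 : LinearMap.range (Theta N) ≤ LinearMap.ker
      ((1 + act N (ModularGroup.S * ModularGroup.T) +
      act N (ModularGroup.S * ModularGroup.T) * act N (ModularGroup.S * ModularGroup.T)) *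
        (1 - act N ModularGroup.S)) := by
    rintro x ⟨ψ, rfl⟩
    exact Theta_mem_ker N ψ
  have h := count_bound (act N ModularGroup.S) (act N ModularGroup.T)
    (act N (ModularGroup.S * ModularGroup.T)) (act_U_eq N) (act_U_cube' N) (sumF N)
    (ker_sumF_le N) (finrank_inf_le N) (LinearMap.range (Theta N)) hD1 hD2
  rw [LinearMap.finrank_range_of_inj (Theta_injective N), finrank_V, finrank_Vt] at h
  have h2 := finrank_Vs N
  have h3 := finrank_Vu N
  omega

end Fermat.Agent.S21_helper27
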