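import Fermat.Agent.S21_helper27_ParBound
import Fermat.Agent.S20_helper29_A1
import Fermat.Agent.S20_helper29_A4
import Fermat.Agent.S20_helper22_A2
import Fermat.Agent.S20_helper22_A3

/-!
# `dim Hom_par(Γ₀(N), ℂ) ≤ 2 * genusFormula N`
-/

set_option autoImplicit false

open CongruenceSubgroup ModularCurve.Period Module
open scoped MatrixGroups

namespace Fermat.Agent.S21_helper27

open Fermat.Agent.S20

/-- the dimension of the space of parabolic homomorphisms is at most twice the genus -/
theorem parabolicHoms_finrank_le_genus (N : ℕ) [NeZero N] :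
    (finrank ℂ (parabolicHoms ℂ (Gamma0 N) ℂ) : ℚ) ≤ 2 * ModularCurve.genusFormula N := by
  have h := parabolicHoms_finrank_le N
  rw [Fermat.Agent.S20_helper29_A1.A1, Fermat.Agent.S20_helper29_A4.A4,
    Fermat.Agent.S20_helper22_A2.A2, Fermat.Agent.S20_helper22_A3.A3] at h
  have h' : (6 * (finrank ℂ (parabolicHoms ℂ (Gamma0 N) ℂ) : ℚ) + 3 * (ModularCurve.nuTwo N : ℚ) +
      4 * (ModularCurve.nuThree N : ℚ) + 6 * (ModularCurve.cuspCount N : ℚ)) ≤
      12 + (ModularCurve.dedekindPsi N : ℚ) := by
    exact_mod_cast h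
  unfold ModularCurve.genusFormula
  linarith

end Fermat.Agent.S21_helper27
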