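import Mathlib
import Fermat.Prelude.Def_ModularCurve_PeriodHomPair
import Fermat.Agent.S22_Period

set_option autoImplicit false

open UpperHalfPlane CongruenceSubgroup
open scoped MatrixGroups

namespace Fermat.Agent.S21_helper2_Defs

/-- The normalised Eichler integral (primitive vanishing at `i∞`) of a weight two cusp form,
`F_f(τ) = ∑ a_n / (2π i n) · e^{2π i n τ}`. -/
noncomputable def prim {N : ℕ} (f : CuspForm (Gamma0 N) 2) : ℍ → ℂ :=
  fun τ => Fermat.Agent.S22.eis (Fermat.Agent.S22.coeffs f) 1 (τ : ℂ)

/-- The period of `f` along `γ`, computed with the explicit primitive. -/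
noncomputable def per {N : ℕ} (f : CuspForm (Gamma0 N) 2) (γ : SL(2, ℤ)) : ℂ :=
  prim f (γ • UpperHalfPlane.I) - prim f UpperHalfPlane.I

end Fermat.Agent.S21_helper2_Defs
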