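import Mathlib
import Fermat.Agent.S21_Defs

/-!
# S21 piece DIMa1: `2 * finrank ker (1 + rho S) + nu2 = mu`
-/

set_option autoImplicit false

open CongruenceSubgroup
open scoped MatrixGroups
open Fermat.Agent.S20 Fermat.Agent.S21

namespace Fermat.Agent.S21_helper4_DIMa1

section generic

variable {X : Type*} [Fintype X] [DecidableEq X]

/-- The trace of the operator `u ↦ u ∘ σ` on functions on a finite set is the number of fixed
points of `σ`. -/
lemma trace_funLeft (σ : X → X) :
    LinearMap.trace ℂ (X → ℂ) (LinearMap.funLeft ℂ ℂ σ) = (Fintype.card {x // σ x = x} : ℂ) := by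
  rw [LinearMap.trace_eq_matrix_trace ℂ (Pi.basisFun ℂ X), LinearMap.toMatrix_eq_toMatrix']
  simp only [Matrix.trace, Matrix.diag_apply, LinearMap.toMatrix'_apply, LinearMap.funLeft_apply,
    Pi.single_apply]
  rw [Finset.sum_boole, Fintype.card_subtype]

/-- For an involution `σ`, twice the dimension of the `(-1)`-eigenspace of `u ↦ u ∘ σ` plus the
number of fixed points is the cardinality. -/
lemma two_finrank_ker_add (σ : X → X) (hσ : ∀ x, σ (σ x) = x) :
    2 * Module.finrank ℂ (LinearMap.ker (1 + LinearMap.funLeft ℂ ℂ σ : (X → ℂ) →ₗ[ℂ] (X → ℂ)))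
      + Fintype.card {x // σ x = x} = Fintype.card X := by
  set ρ : (X → ℂ) →ₗ[ℂ] (X → ℂ) := LinearMap.funLeft ℂ ℂ σ with hρ
  have hρρ : ∀ u, ρ (ρ u) = u := by
    intro u
    ext x
    simp [hρ, LinearMap.funLeft_apply, hσ]
  set f : (X → ℂ) →ₗ[ℂ] (X → ℂ) := (2 : ℂ)⁻¹ • (1 - ρ) with hf
  have hproj : LinearMap.IsProj (LinearMap.ker (1 + ρ)) f := by
    refine ⟨fun u => ?_, fun u hu => ?_⟩
    · rw [LinearMap.mem_ker]
      simp only [hf, LinearMap.smul_apply, LinearMap.sub_apply, LinearMap.add_apply,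
        Module.End.one_apply, map_smul, map_sub, hρρ]
      rw [add_comm u (ρ u), sub_self, smul_zero]
    · rw [LinearMap.mem_ker] at hu
      simp only [LinearMap.add_apply, Module.End.one_apply] at hu
      have h1 : ρ u = -u := by
        rw [eq_neg_iff_add_eq_zero, add_comm]; exact hu
      simp only [hf, LinearMap.smul_apply, LinearMap.sub_apply, Module.End.one_apply, h1,
        sub_neg_eq_add]
      rw [← two_smul ℂ u, smul_smul]
      simp
  have htr := hproj.trace
  have h2 : LinearMap.trace ℂ (X → ℂ) f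
      = (2 : ℂ)⁻¹ * ((Fintype.card X : ℂ) - (Fintype.card {x // σ x = x} : ℂ)) := by
    simp only [hf, map_smul, map_sub, smul_eq_mul]
    rw [hρ, trace_funLeft, LinearMap.trace_one]
    simp
  rw [h2] at htr
  have h3 : ((2 * Module.finrank ℂ (LinearMap.ker (1 + ρ)) + Fintype.card {x // σ x = x} : ℕ) : ℂ)
      = (Fintype.card X : ℂ) := by
    push_cast
    rw [← htr]
    ring
  exact_mod_cast h3

end generic

/-- `-1` acts trivially on the cosets of `Γ₀(N)`. -/
lemma neg_one_smul_Q (N : ℕ) (q : Q N) : (-1 : SL(2, ℤ)) • q = q := by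
  induction q using QuotientGroup.induction_on with
  | H h =>
    rw [MulAction.Quotient.smul_coe, QuotientGroup.eq]
    have : ((-1 : SL(2, ℤ)) • h)⁻¹ * h = -1 := by
      simp
    rw [this, Gamma0_mem]
    simp

lemma S_inv_smul_S_inv_smul (N : ℕ) (q : Q N) :
    (ModularGroup.S⁻¹ : SL(2, ℤ)) • ((ModularGroup.S⁻¹ : SL(2, ℤ)) • q) = q := by
  rw [← mul_smul]
  have h : (ModularGroup.S⁻¹ * ModularGroup.S⁻¹ : SL(2, ℤ)) = -1 := by
    rw [← mul_inv_rev]
    have h2 : (ModularGroup.S * ModularGroup.S : SL(2, ℤ)) = -1 := by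
      apply Subtype.ext
      simpa using ModularGroup.S_mul_S_eq
    rw [h2]
    simp
  rw [h, neg_one_smul_Q]

theorem finrank_ker_S (N : ℕ) [NeZero N] :
    2 * Module.finrank ℂ (LinearMap.ker (1 + rho N ModularGroup.S)) + nu2 N = mu N := by
  classical
  haveI : Fintype (Q N) := Fintype.ofFinite _
  have h := two_finrank_ker_add (X := Q N) (fun x => (ModularGroup.S⁻¹ : SL(2, ℤ)) • x)
    (S_inv_smul_S_inv_smul N)
  have hmu : mu N = Fintype.card (Q N) := by
    unfold mu; exact Nat.card_eq_fintype_card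
  have hnu : nu2 N = Fintype.card {x : Q N // (ModularGroup.S⁻¹ : SL(2, ℤ)) • x = x} := by
    unfold nu2
    rw [← Nat.card_eq_fintype_card]
    apply Nat.card_congr
    refine Equiv.subtypeEquivRight (fun q => ?_)
    constructor
    · intro hq
      rw [inv_smul_eq_iff, hq]
    · intro hq
      rw [inv_smul_eq_iff] at hq
      exact hq.symm
  rw [hmu, hnu]
  exact h

end Fermat.Agent.S21_helper4_DIMa1
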