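import Mathlib
import Fermat.Prelude.Def_ModularCurve_PeriodHomPair
import Fermat.Agent.S21_helper29_P2

/-!
# S21 piece P2: period homomorphisms are parabolic

Restatement (in the interface shape of the S21 assembly) of
`Fermat.Agent.S21_helper29_P2.periodHom_mem_parabolicHoms`: for an equivariant primitive `F`
having a limit along every cusp, the period homomorphism kills the parabolic elements.
-/

set_option autoImplicit false

open UpperHalfPlane CongruenceSubgroup Filter Topology ModularCurve ModularCurve.Period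
open scoped MatrixGroups ComplexConjugate

namespace Fermat.Agent.S21_helper5_P2

theorem P2 (N : ℕ) (F : ℍ → ℂ) (hF : IsEquivariantPrimitive (Gamma0 N) F)
    (hlim : ∀ δ : SL(2, ℤ), ∃ L : ℂ, Tendsto (fun w : ℍ => F (δ • w)) atImInfty (𝓝 L)) :
    hF.periodHom ∈ parabolicHoms ℂ (Gamma0 N) ℂ := by
  rw [mem_parabolicHoms_iff]
  intro γ hγ
  rw [IsEquivariantPrimitive.periodHom_apply]
  obtain ⟨δ, hδ⟩ := Fermat.Agent.S21_helper29_P2.exists_conj_c_eq_zero (γ : SL(2, ℤ)) hγ
  obtain ⟨n, hn⟩ := ModularGroup.exists_eq_T_zpow_of_c_eq_zero hδ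
  obtain ⟨L, hL⟩ := hlim δ
  have key : ∀ w : ℍ, F (δ • ((ModularGroup.T ^ n) • w)) - F (δ • w) = hF.period γ := by
    intro w
    have h1 := hF.sub_eq_period γ (δ • w)
    rw [← h1, ← hn w, ← mul_smul, ← mul_smul]
    congr 3
    group
  have h1 : Tendsto (fun w : ℍ => F (δ • ((ModularGroup.T ^ n) • w))) atImInfty (𝓝 L) :=
    hL.comp (Fermat.Agent.S21_helper29_P2.tendsto_T_zpow_smul n)
  have h2 : Tendsto (fun w : ℍ => F (δ • ((ModularGroup.T ^ n) • w)) - F (δ • w)) atImInfty
      (𝓝 (L - L)) := h1.sub hL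
  simp only [key, sub_self] at h2
  exact tendsto_nhds_unique tendsto_const_nhds h2

end Fermat.Agent.S21_helper5_P2
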