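import Mathlib
import Fermat.Prelude.Def_ModularCurve_PeriodHomPair

/-!
# S21 piece P4: the maximum principle on `Γ₀(N)\ℍ*`

A holomorphic function on `ℍ` whose real part is `Γ₀(N)`-invariant and which has a limit at
every cusp is constant.
-/

set_option autoImplicit false

open UpperHalfPlane CongruenceSubgroup Filter Topology ModularCurve ModularCurve.Period
open scoped MatrixGroups ComplexConjugate Manifold Real

namespace Fermat.Agent.S21_helper7_P4

/-- A holomorphic function on a connected open set whose real part has a maximum is constant. -/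
theorem const_of_isMaxOn_re {U : Set ℂ} (hU : IsOpen U) (hc : IsPreconnected U) {g : ℂ → ℂ}
    (hg : DifferentiableOn ℂ g U) {c : ℂ} (hcU : c ∈ U)
    (hm : ∀ x ∈ U, (g x).re ≤ (g c).re) : ∀ x ∈ U, g x = g c := by
  have hf : DifferentiableOn ℂ (fun x => Complex.exp (g x)) U := fun x hx =>
    ((hg x hx).differentiableAt (hU.mem_nhds hx)).cexp.differentiableWithinAt
  have hmax : IsMaxOn (norm ∘ fun x => Complex.exp (g x)) U c := by
    intro x hx
    simp only [Function.comp_apply, Complex.norm_exp]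
    exact Real.exp_le_exp.mpr (hm x hx)
  have hconst := Complex.eqOn_of_isPreconnected_of_isMaxOn_norm hc hU hf hcU hmax
  have hderiv : U.EqOn (deriv g) 0 := by
    intro x hx
    have hgx : DifferentiableAt ℂ g x := (hg x hx).differentiableAt (hU.mem_nhds hx)
    have h1 : HasDerivAt (fun x => Complex.exp (g x)) (Complex.exp (g x) * deriv g x) x :=
      hgx.hasDerivAt.cexp
    have h2 : HasDerivAt (fun x => Complex.exp (g x)) 0 x := by
      have : (fun x => Complex.exp (g x)) =ᶠ[𝓝 x] fun _ => Complex.exp (g c) := by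
        filter_upwards [hU.mem_nhds hx] with y hy
        exact hconst hy
      exact (hasDerivAt_const x _).congr_of_eventuallyEq this
    have h3 := h1.unique h2
    simpa [Complex.exp_ne_zero] using h3
  intro x hx
  exact hU.is_const_of_deriv_eq_zero hc hg hderiv hx hcU

/-- Version of `const_of_isMaxOn_re` on the upper half-plane. -/
theorem const_of_re_le {D : ℍ → ℂ} (hD : MDifferentiable 𝓘(ℂ) 𝓘(ℂ) D) (z₀ : ℍ)
    (hm : ∀ z : ℍ, (D z).re ≤ (D z₀).re) : ∀ z : ℍ, D z = D z₀ := by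
  have hU : IsOpen {z : ℂ | 0 < z.im} := isOpen_upperHalfPlaneSet
  have hc : IsPreconnected {z : ℂ | 0 < z.im} :=
    (convex_halfSpace_im_gt 0).isPreconnected
  have hg : DifferentiableOn ℂ (D ∘ ofComplex) {z : ℂ | 0 < z.im} :=
    UpperHalfPlane.mdifferentiable_iff.mp hD
  have key := const_of_isMaxOn_re hU hc hg (c := (z₀ : ℂ)) z₀.im_pos (fun x hx => by
    have h1 : (D ∘ ofComplex) x = D ⟨x, hx⟩ := by
      simp [ofComplex_apply_of_im_pos hx]
    have h2 : (D ∘ ofComplex) (z₀ : ℂ) = D z₀ := by simp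
    rw [h1, h2]
    exact hm _)
  intro z
  have := key (z : ℂ) z.im_pos
  simpa using this

section main

variable (N : ℕ) [NeZero N] (A : ℍ → ℂ)

theorem mdiff_of_differentiableAt
    (hA : ∀ τ : ℍ, DifferentiableAt ℂ (A ∘ ofComplex) ↑τ) :
    MDifferentiable 𝓘(ℂ) 𝓘(ℂ) A :=
  fun τ => UpperHalfPlane.mdifferentiableAt_iff.mpr (hA τ)

theorem mdiff_comp_smul (hA : MDifferentiable 𝓘(ℂ) 𝓘(ℂ) A) (δ : SL(2, ℤ)) :
    MDifferentiable 𝓘(ℂ) 𝓘(ℂ) (fun w : ℍ => A (δ • w)) := by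
  have h1 : MDifferentiable 𝓘(ℂ) 𝓘(ℂ) (fun τ : ℍ => (δ : GL (Fin 2) ℝ) • τ) :=
    UpperHalfPlane.mdifferentiable_smul (by simp)
  exact hA.comp h1

omit [NeZero N] in
theorem conj_T_pow_mem (δ : SL(2, ℤ)) : δ * ModularGroup.T ^ (N : ℤ) * δ⁻¹ ∈ Gamma0 N := by
  have h1 : ModularGroup.T ^ (N : ℤ) ∈ Gamma N := by
    have := ModularGroup_T_pow_mem_Gamma (N : ℤ) (N : ℤ) dvd_rfl
    simpa using this
  have h2 : δ * ModularGroup.T ^ (N : ℤ) * δ⁻¹ ∈ Gamma N :=
    (Gamma_normal N).conj_mem _ h1 δ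
  have h3 : Gamma N ≤ Gamma1 N := by
    intro γ hγ
    rw [Gamma_mem] at hγ
    rw [Gamma1_mem]
    exact ⟨hγ.1, hγ.2.2.2, hγ.2.2.1⟩
  exact Gamma1_in_Gamma0 N (h3 h2)

theorem tendsto_vadd (x : ℝ) : Tendsto (fun w : ℍ => x +ᵥ w) atImInfty atImInfty := by
  rw [atImInfty, tendsto_comap_iff]
  have : (UpperHalfPlane.im ∘ fun w : ℍ => x +ᵥ w) = UpperHalfPlane.im := by
    funext w
    simp
  rw [this]
  exact tendsto_comap

variable {N A}

theorem re_vadd (hinv : ∀ (γ : Gamma0 N) (z : ℍ), (A ((γ : SL(2, ℤ)) • z)).re = (A z).re)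
    (δ : SL(2, ℤ)) (w : ℍ) : (A (δ • ((N : ℝ) +ᵥ w))).re = (A (δ • w)).re := by
  have h1 : δ • ((N : ℝ) +ᵥ w) = (δ * ModularGroup.T ^ (N : ℤ) * δ⁻¹) • (δ • w) := by
    rw [mul_smul, mul_smul, inv_smul_smul, UpperHalfPlane.modular_T_zpow_smul]
    simp
  rw [h1]
  exact hinv ⟨_, conj_T_pow_mem N δ⟩ (δ • w)

theorem vadd_eq (hA : MDifferentiable 𝓘(ℂ) 𝓘(ℂ) A)
    (hinv : ∀ (γ : Gamma0 N) (z : ℍ), (A ((γ : SL(2, ℤ)) • z)).re = (A z).re)
    (hlim : ∀ δ : SL(2, ℤ), ∃ L : ℂ, Tendsto (fun w : ℍ => A (δ • w)) atImInfty (𝓝 L))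
    (δ : SL(2, ℤ)) (w : ℍ) : A (δ • ((N : ℝ) +ᵥ w)) = A (δ • w) := by
  set D : ℍ → ℂ := fun w => A (δ • ((N : ℝ) +ᵥ w)) - A (δ • w) with hD
  have hB := mdiff_comp_smul A hA δ
  have hDdiff : MDifferentiable 𝓘(ℂ) 𝓘(ℂ) D := by
    have h1 : MDifferentiable 𝓘(ℂ) 𝓘(ℂ) (fun w : ℍ => A (δ • ((N : ℝ) +ᵥ w))) := by
      have h2 := mdiff_comp_smul A hA (δ * ModularGroup.T ^ (N : ℤ))
      have h3 : (fun w : ℍ => A ((δ * ModularGroup.T ^ (N : ℤ)) • w)) =
          fun w : ℍ => A (δ • ((N : ℝ) +ᵥ w)) := by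
        funext w
        rw [mul_smul, UpperHalfPlane.modular_T_zpow_smul]
        simp
      rw [← h3]
      exact h2
    exact h1.sub hB
  have hre : ∀ z : ℍ, (D z).re = 0 := by
    intro z
    simp only [hD, Complex.sub_re, re_vadd hinv δ z, sub_self]
  have hconst := const_of_re_le hDdiff UpperHalfPlane.I (fun z => by rw [hre, hre])
  obtain ⟨L, hL⟩ := hlim δ
  have hlimD : Tendsto D atImInfty (𝓝 (L - L)) :=
    (hL.comp (tendsto_vadd (N : ℝ))).sub hL
  have hlimD' : Tendsto D atImInfty (𝓝 (D UpperHalfPlane.I)) := by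
    have : D = fun _ => D UpperHalfPlane.I := funext hconst
    rw [this]
    exact tendsto_const_nhds
  have h0 : D UpperHalfPlane.I = 0 := by
    have := tendsto_nhds_unique hlimD' hlimD
    simpa using this
  have := hconst w
  rw [h0] at this
  exact sub_eq_zero.mp this

theorem periodic_comp (hA : MDifferentiable 𝓘(ℂ) 𝓘(ℂ) A)
    (hinv : ∀ (γ : Gamma0 N) (z : ℍ), (A ((γ : SL(2, ℤ)) • z)).re = (A z).re)
    (hlim : ∀ δ : SL(2, ℤ), ∃ L : ℂ, Tendsto (fun w : ℍ => A (δ • w)) atImInfty (𝓝 L))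
    (δ : SL(2, ℤ)) :
    Function.Periodic ((fun w : ℍ => A (δ • w)) ∘ ofComplex) ((N : ℝ) : ℂ) := by
  intro w
  by_cases hw : 0 < Complex.im w
  · have hw' : 0 < Complex.im (w + ((N : ℝ) : ℂ)) := by simp [hw]
    simp only [Function.comp_apply, ofComplex_apply_of_im_pos hw',
      ofComplex_apply_of_im_pos hw]
    rw [← vadd_eq hA hinv hlim δ ⟨w, hw⟩]
    congr 2
    ext
    simp [add_comm]
  · rw [not_lt] at hw
    have hw' : Complex.im (w + ((N : ℝ) : ℂ)) ≤ 0 := by simpa using hw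
    simp only [Function.comp_apply]
    rw [ofComplex_apply_of_im_nonpos hw', ofComplex_apply_of_im_nonpos hw]

/-- **P4**: the maximum principle. -/
theorem P4 (N : ℕ) [NeZero N] (A : ℍ → ℂ)
    (hA : ∀ τ : ℍ, DifferentiableAt ℂ (A ∘ ofComplex) ↑τ)
    (hinv : ∀ (γ : Gamma0 N) (z : ℍ), (A ((γ : SL(2, ℤ)) • z)).re = (A z).re)
    (hlim : ∀ δ : SL(2, ℤ), ∃ L : ℂ, Tendsto (fun w : ℍ => A (δ • w)) atImInfty (𝓝 L)) :
    ∃ c : ℂ, ∀ z : ℍ, A z = c := by
  have hAm := mdiff_of_differentiableAt A hA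
  have hN : (0 : ℝ) < N := Nat.cast_pos.mpr (NeZero.pos N)
  -- the functions `B_δ`, their cusp functions
  set B : SL(2, ℤ) → ℍ → ℂ := fun δ w => A (δ • w) with hB
  set b : SL(2, ℤ) → ℂ → ℂ := fun δ => cuspFunction (N : ℝ) (B δ) with hb
  have hper : ∀ δ, Function.Periodic (B δ ∘ ofComplex) ((N : ℝ) : ℂ) := fun δ =>
    periodic_comp hAm hinv hlim δ
  have hbdd : ∀ δ, IsBoundedAtImInfty (B δ) := fun δ => by
    obtain ⟨L, hL⟩ := hlim δ
    exact hL.isBigO_one ℝ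
  have hbdiff : ∀ δ, ∀ x ∈ Metric.ball (0 : ℂ) 1, DifferentiableAt ℂ (b δ) x := fun δ x hx =>
    UpperHalfPlane.differentiableAt_cuspFunction hN (hper δ) (mdiff_comp_smul A hAm δ) (hbdd δ)
      (mem_ball_zero_iff.mp hx)
  have hbeq : ∀ δ (w : ℍ), b δ (Function.Periodic.qParam (N : ℝ) w) = A (δ • w) := fun δ w =>
    UpperHalfPlane.eq_cuspFunction w hN.ne' (hper δ)
  -- the compact set
  set r : ℝ := Real.exp (-π / N) with hr
  have hr1 : r < 1 := by
    rw [hr, Real.exp_lt_one_iff]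
    exact div_neg_of_neg_of_pos (neg_lt_zero.mpr Real.pi_pos) hN
  have hr0 : 0 < r := Real.exp_pos _
  have hKsub : Metric.closedBall (0 : ℂ) r ⊆ Metric.ball (0 : ℂ) 1 :=
    Metric.closedBall_subset_ball hr1
  have hKc : IsCompact (Metric.closedBall (0 : ℂ) r) := isCompact_closedBall 0 r
  have hKne : (Metric.closedBall (0 : ℂ) r).Nonempty := ⟨0, Metric.mem_closedBall_self hr0.le⟩
  -- maxima on the compact set, for every coset
  have hmaxq : ∀ q : SL(2, ℤ) ⧸ Gamma0 N, ∃ x ∈ Metric.closedBall (0 : ℂ) r,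
      ∀ y ∈ Metric.closedBall (0 : ℂ) r, (b q.out⁻¹ y).re ≤ (b q.out⁻¹ x).re := by
    intro q
    have hcont : ContinuousOn (fun y => (b q.out⁻¹ y).re) (Metric.closedBall (0 : ℂ) r) :=
      fun y hy => (Complex.continuous_re.continuousAt.comp
        (hbdiff q.out⁻¹ y (hKsub hy)).continuousAt).continuousWithinAt
    obtain ⟨x, hx, hmax⟩ := hKc.exists_isMaxOn hKne hcont
    exact ⟨x, hx, fun y hy => hmax hy⟩
  choose X hXmem hXmax using hmaxq
  obtain ⟨q₀, hq₀⟩ := Finite.exists_max (fun q : SL(2, ℤ) ⧸ Gamma0 N => (b q.out⁻¹ (X q)).re)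
  set δ₀ : SL(2, ℤ) := q₀.out⁻¹ with hδ₀
  set M : ℝ := (b δ₀ (X q₀)).re with hM
  -- `Re A ≤ M` everywhere
  have hAle : ∀ z : ℍ, (A z).re ≤ M := by
    intro z
    obtain ⟨g, hg⟩ := ModularGroup.exists_one_half_le_im_smul z
    obtain ⟨h, hh⟩ := QuotientGroup.mk_out_eq_mul (Gamma0 N) g
    set q : SL(2, ℤ) ⧸ Gamma0 N := (g : SL(2, ℤ) ⧸ Gamma0 N) with hq
    set w : ℍ := g • z with hw
    have h1 : q.out⁻¹ • w = ((h⁻¹ : Gamma0 N) : SL(2, ℤ)) • z := by
      rw [hh, hw, mul_inv_rev, mul_smul, inv_smul_smul]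
      rfl
    have h2 : (A z).re = (b q.out⁻¹ (Function.Periodic.qParam (N : ℝ) w)).re := by
      rw [hbeq, h1, hinv]
    have h3 : Function.Periodic.qParam (N : ℝ) (w : ℂ) ∈ Metric.closedBall (0 : ℂ) r := by
      rw [mem_closedBall_zero_iff, Function.Periodic.norm_qParam, hr]
      apply Real.exp_le_exp.mpr
      have : (1 : ℝ) / 2 ≤ (w : ℂ).im := hg
      rw [div_le_div_iff_of_pos_right hN]
      nlinarith [Real.pi_pos]
    rw [h2]
    exact (hXmax q _ h3).trans (hq₀ q)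
  -- `Re b_δ₀ ≤ M` on the unit disc
  have hble : ∀ x ∈ Metric.ball (0 : ℂ) 1, (b δ₀ x).re ≤ (b δ₀ (X q₀)).re := by
    intro x hx
    by_cases hx0 : x = 0
    · subst hx0
      exact hXmax q₀ 0 (Metric.mem_closedBall_self hr0.le)
    · have him := Function.Periodic.im_invQParam_pos_of_norm_lt_one hN
        (mem_ball_zero_iff.mp hx) hx0
      have h1 : b δ₀ x = A (δ₀ • (⟨_, him⟩ : ℍ)) := by
        rw [← hbeq]
        congr 1
        exact (Function.Periodic.qParam_right_inv hN.ne' hx0).symm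
      rw [h1]
      exact hAle _
  have hconst := const_of_isMaxOn_re Metric.isOpen_ball
    (convex_ball (0 : ℂ) 1).isPreconnected
    (fun x hx => (hbdiff δ₀ x hx).differentiableWithinAt) (hKsub (hXmem q₀)) hble
  refine ⟨b δ₀ (X q₀), fun z => ?_⟩
  have h1 : A z = b δ₀ (Function.Periodic.qParam (N : ℝ) ((δ₀⁻¹ • z : ℍ) : ℂ)) := by
    rw [hbeq, smul_inv_smul]
  rw [h1]
  apply hconst
  rw [mem_ball_zero_iff]
  exact Function.Periodic.norm_qParam_lt_one hN (δ₀⁻¹ • z).im_pos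

end main

end Fermat.Agent.S21_helper7_P4
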