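import Mathlib
import Fermat.Prelude.Def_ModularCurve_PeriodHomPair
import Fermat.Agent.S20_Defs
import Fermat.Agent.S20_helper29_A1
import Fermat.Agent.S20_helper22_A2
import Fermat.Agent.S20_helper22_A3
import Fermat.Agent.S20_helper29_A4

set_option autoImplicit false

open CongruenceSubgroup
open scoped MatrixGroups

namespace Fermat.Agent.S21_helper8_P5

/-! ### Part I: permutation modules -/

section Perm

variable {G : Type*} [Group G] {X : Type*} [MulAction G X]

/-- The action of `g` on functions `X → ℂ`: `(g • v) x = v (g⁻¹ • x)`. -/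
def act (g : G) : (X → ℂ) →ₗ[ℂ] (X → ℂ) := LinearMap.funLeft ℂ ℂ (fun x => g⁻¹ • x)

@[simp] theorem act_apply (g : G) (v : X → ℂ) (x : X) : act g v x = v (g⁻¹ • x) := rfl

theorem act_mul (g h : G) (v : X → ℂ) : act (g * h) v = act g (act h v) := by
  ext x
  simp [mul_smul]

theorem act_one (v : X → ℂ) : act (1 : G) v = v := by
  ext x
  simp

theorem act_of_trivial {g : G} (hg : ∀ x : X, g • x = x) (v : X → ℂ) : act g v = v := by
  ext x
  have : g⁻¹ • x = x := by
    conv_lhs => rw [← hg x]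
    simp
  simp [this]

theorem act_pow (g : G) (n : ℕ) (v : X → ℂ) : act (g ^ n) v = ((act g) ^ n) v := by
  induction n generalizing v with
  | zero => simp [act_one]
  | succ n ih =>
    rw [pow_succ, act_mul, ih, pow_succ]
    rfl

/-- The `(-1)`-eigenspace of an involution. -/
def kerA (s : G) : Submodule ℂ (X → ℂ) := LinearMap.ker (LinearMap.id + act s)

theorem mem_kerA {s : G} {v : X → ℂ} : v ∈ kerA s ↔ v + act s v = 0 := by
  simp [kerA, LinearMap.mem_ker]

/-- The kernel of `1 + u + u²`. -/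
def kerB (u : G) : Submodule ℂ (X → ℂ) :=
  LinearMap.ker (LinearMap.id + act u + act (u * u))

theorem mem_kerB {u : G} {v : X → ℂ} : v ∈ kerB u ↔ v + act u v + act (u * u) v = 0 := by
  simp [kerB, LinearMap.mem_ker]

variable [Fintype X]

theorem trace_act (g : G) :
    LinearMap.trace ℂ (X → ℂ) (act g) = (Nat.card {x : X // g • x = x} : ℂ) := by
  classical
  rw [Nat.card_eq_fintype_card]
  rw [LinearMap.trace_eq_matrix_trace ℂ (Pi.basisFun ℂ X), Matrix.trace]
  simp only [Matrix.diag_apply, LinearMap.toMatrix_apply, Pi.basisFun_apply, Pi.basisFun_repr,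
    act_apply]
  rw [Fintype.card_subtype, Finset.card_filter]
  push_cast
  refine Finset.sum_congr rfl fun x _ => ?_
  by_cases h : g • x = x
  · have h' : g⁻¹ • x = x := by
      conv_lhs => rw [← h]
      simp
    simp [h, h']
  · have h' : g⁻¹ • x ≠ x := by
      intro h'
      apply h
      conv_lhs => rw [← h']
      simp
    simp [h, h']

theorem finrank_kerA (s : G) (hs : ∀ x : X, (s * s) • x = x) :
    2 * Module.finrank ℂ (kerA (X := X) s) + Nat.card {x : X // s • x = x}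
      = Nat.card X := by
  classical
  set P : (X → ℂ) →ₗ[ℂ] (X → ℂ) := (1 / 2 : ℂ) • (LinearMap.id - act s) with hP
  have hss : ∀ v : X → ℂ, act s (act s v) = v := fun v => by
    rw [← act_mul, act_of_trivial hs]
  have hproj : LinearMap.IsProj (kerA (X := X) s) P := by
    constructor
    · intro v
      rw [mem_kerA, hP]
      simp only [LinearMap.smul_apply, LinearMap.sub_apply, LinearMap.id_apply, map_smul,
        map_sub, hss]
      module
    · intro v hv
      rw [mem_kerA] at hv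
      have h1 : act s v = -v := by
        rw [eq_neg_iff_add_eq_zero, add_comm]; exact hv
      rw [hP]
      simp only [LinearMap.smul_apply, LinearMap.sub_apply, LinearMap.id_apply, h1]
      module
  have htr := hproj.trace
  rw [hP, map_smul, map_sub, trace_act, LinearMap.trace_id, Module.finrank_pi,
    smul_eq_mul] at htr
  have h2 : (2 * Module.finrank ℂ (kerA (X := X) s) + Nat.card {x : X // s • x = x} : ℂ)
      = Nat.card X := by
    rw [Nat.card_eq_fintype_card (α := X), ← htr]; ring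
  exact_mod_cast h2

theorem finrank_kerB (u : G) (hu : ∀ x : X, (u * u * u) • x = x) :
    3 * Module.finrank ℂ (kerB (X := X) u) + 2 * Nat.card {x : X // u • x = x}
      = 2 * Nat.card X := by
  classical
  set P : (X → ℂ) →ₗ[ℂ] (X → ℂ) :=
    (1 / 3 : ℂ) • ((2 : ℂ) • LinearMap.id - act u - act (u * u)) with hP
  have huuu : ∀ v : X → ℂ, act u (act (u * u) v) = v := fun v => by
    rw [← act_mul, ← mul_assoc, act_of_trivial hu]
  have huu : ∀ v : X → ℂ, act (u * u) v = act u (act u v) := fun v => act_mul u u v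
  have hproj : LinearMap.IsProj (kerB (X := X) u) P := by
    constructor
    · intro v
      rw [mem_kerB, hP]
      simp only [LinearMap.smul_apply, LinearMap.sub_apply, LinearMap.id_apply, map_smul,
        map_sub]
      have e1 : act (u * u) (act u v) = v := by
        rw [← act_mul, act_of_trivial hu]
      have e2 : act (u * u) (act (u * u) v) = act u v := by
        rw [huu (act (u * u) v), huuu]
      rw [huuu, e1, e2, huu v]
      module
    · intro v hv
      rw [mem_kerB] at hv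
      have h1 : act (u * u) v = -v - act u v := by
        rw [eq_sub_iff_add_eq, eq_neg_iff_add_eq_zero]
        rw [← hv]; abel
      rw [hP]
      simp only [LinearMap.smul_apply, LinearMap.sub_apply, LinearMap.id_apply, h1]
      module
  have hfix : Nat.card {x : X // (u * u) • x = x} = Nat.card {x : X // u • x = x} := by
    refine Nat.card_congr (Equiv.subtypeEquivRight fun x => ?_)
    constructor
    · intro h
      have h3 := hu x
      rw [mul_assoc, mul_smul u (u * u), h] at h3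
      exact h3
    · intro h
      rw [mul_smul, h, h]
  have htr := hproj.trace
  rw [hP, map_smul, map_sub, map_sub, map_smul, trace_act, trace_act, LinearMap.trace_id,
    Module.finrank_pi, smul_eq_mul, smul_eq_mul, hfix] at htr
  have h2 : (3 * Module.finrank ℂ (kerB (X := X) u) + 2 * Nat.card {x : X // u • x = x} : ℂ)
      = 2 * Nat.card X := by
    rw [Nat.card_eq_fintype_card (α := X), ← htr]; ring
  exact_mod_cast h2

end Perm

/-! ### Part II: cocycles -/

section Cocycle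

variable {G : Type*} [Group G] {X : Type*} [MulAction G X]

/-- A 1-cocycle of `G` with values in `X → ℂ`. -/
def IsCoc (z : G → X → ℂ) : Prop := ∀ g h : G, z (g * h) = z g + act g (z h)

namespace IsCoc

variable {z : G → X → ℂ}

theorem map_one (hz : IsCoc z) : z 1 = 0 := by
  have h := hz 1 1
  rw [mul_one, act_one] at h
  simpa using h

theorem map_inv (hz : IsCoc z) (g : G) : z g⁻¹ = - act g⁻¹ (z g) := by
  have h := hz g⁻¹ g
  rw [inv_mul_cancel, hz.map_one] at h
  rw [eq_neg_iff_add_eq_zero]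
  exact h.symm

theorem map_pow (hz : IsCoc z) (g : G) (n : ℕ) :
    z (g ^ n) = ∑ j ∈ Finset.range n, act (g ^ j) (z g) := by
  induction n with
  | zero => simp [hz.map_one]
  | succ n ih => rw [pow_succ, hz, ih, Finset.sum_range_succ]

/-- The subgroup on which a cocycle vanishes. -/
def vanish (hz : IsCoc z) : Subgroup G where
  carrier := {g | z g = 0}
  one_mem' := hz.map_one
  mul_mem' := by
    intro a b ha hb
    simp only [Set.mem_ofPred_eq] at ha hb ⊢
    rw [hz, ha, hb]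
    simp
  inv_mem' := by
    intro a ha
    simp only [Set.mem_ofPred_eq] at ha ⊢
    rw [hz.map_inv, ha]
    simp

theorem mem_vanish (hz : IsCoc z) {g : G} : g ∈ hz.vanish ↔ z g = 0 := Iff.rfl

theorem eq_zero_of_closure (hz : IsCoc z) {S : Set G} (hS : Subgroup.closure S = ⊤)
    (h : ∀ g ∈ S, z g = 0) (g : G) : z g = 0 := by
  have : Subgroup.closure S ≤ hz.vanish := (Subgroup.closure_le _).2 h
  rw [hS] at this
  exact this (Subgroup.mem_top g)

end IsCoc

end Cocycle

section Shapiro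

variable {G : Type*} [Group G] (Γ : Subgroup G)

/-- Extension by zero of a homomorphism on `Γ` to a function on `G`. -/
noncomputable def ext0 (ψ : Additive Γ →+ ℂ) (g : G) : ℂ :=
  open Classical in if h : g ∈ Γ then ψ (Additive.ofMul ⟨g, h⟩) else 0

variable {Γ}

theorem ext0_of_mem (ψ : Additive Γ →+ ℂ) {g : G} (h : g ∈ Γ) :
    ext0 Γ ψ g = ψ (Additive.ofMul ⟨g, h⟩) := dif_pos h

theorem ext0_mul (ψ : Additive Γ →+ ℂ) {g h : G} (hg : g ∈ Γ) (hh : h ∈ Γ) :
    ext0 Γ ψ (g * h) = ext0 Γ ψ g + ext0 Γ ψ h := by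
  rw [ext0_of_mem ψ hg, ext0_of_mem ψ hh, ext0_of_mem ψ (Γ.mul_mem hg hh), ← map_add]
  rfl

theorem ext0_add (ψ ψ' : Additive Γ →+ ℂ) (g : G) :
    ext0 Γ (ψ + ψ') g = ext0 Γ ψ g + ext0 Γ ψ' g := by
  unfold ext0
  split_ifs <;> simp

theorem ext0_smul (c : ℂ) (ψ : Additive Γ →+ ℂ) (g : G) :
    ext0 Γ (c • ψ) g = c * ext0 Γ ψ g := by
  unfold ext0
  split_ifs <;> simp

variable (Γ)

/-- The element `x.out⁻¹ * g * (g⁻¹ • x).out` of `Γ`. -/
noncomputable def kk (g : G) (x : G ⧸ Γ) : G := x.out⁻¹ * g * (g⁻¹ • x).out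

theorem kk_mem (g : G) (x : G ⧸ Γ) : kk Γ g x ∈ Γ := by
  have h : (QuotientGroup.mk x.out : G ⧸ Γ) = QuotientGroup.mk (g * (g⁻¹ • x).out) := by
    have e : (QuotientGroup.mk (g * (g⁻¹ • x).out) : G ⧸ Γ)
        = g • (QuotientGroup.mk (g⁻¹ • x).out : G ⧸ Γ) := rfl
    rw [e, QuotientGroup.out_eq', QuotientGroup.out_eq', smul_inv_smul]
  rw [QuotientGroup.eq] at h
  rw [kk, mul_assoc]
  exact h

theorem kk_mul (g h : G) (x : G ⧸ Γ) : kk Γ (g * h) x = kk Γ g x * kk Γ h (g⁻¹ • x) := by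
  simp only [kk, mul_inv_rev, mul_smul]
  group

/-- The cocycle attached to a homomorphism `ψ : Γ → ℂ` (Shapiro's lemma). -/
noncomputable def coc (g : G) : (Additive Γ →+ ℂ) →ₗ[ℂ] ((G ⧸ Γ) → ℂ) where
  toFun ψ x := ext0 Γ ψ (kk Γ g x)
  map_add' ψ ψ' := by
    ext x
    simp [ext0_add]
  map_smul' c ψ := by
    ext x
    simp [ext0_smul]

theorem coc_apply (g : G) (ψ : Additive Γ →+ ℂ) (x : G ⧸ Γ) :
    coc Γ g ψ x = ext0 Γ ψ (kk Γ g x) := rfl

theorem isCoc_coc (ψ : Additive Γ →+ ℂ) : IsCoc (fun g => coc Γ g ψ) := by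
  intro g h
  ext x
  simp only [coc_apply, Pi.add_apply, act_apply]
  rw [kk_mul, ext0_mul ψ (kk_mem Γ g x) (kk_mem Γ h _)]

theorem isCoc_cob (v : (G ⧸ Γ) → ℂ) : IsCoc (fun g : G => act g v - v) := by
  intro g h
  simp only [map_sub, act_mul]
  abel

/-- The cocycle `coc ψ + d v`, linear in `(ψ, v)`. -/
noncomputable def zz (g : G) :
    ((Additive Γ →+ ℂ) × ((G ⧸ Γ) → ℂ)) →ₗ[ℂ] ((G ⧸ Γ) → ℂ) :=
  (coc Γ g).comp (LinearMap.fst ℂ _ _) + (act g - LinearMap.id).comp (LinearMap.snd ℂ _ _)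

theorem zz_apply (g : G) (p : (Additive Γ →+ ℂ) × ((G ⧸ Γ) → ℂ)) :
    zz Γ g p = coc Γ g p.1 + (act g p.2 - p.2) := rfl

theorem isCoc_zz (p : (Additive Γ →+ ℂ) × ((G ⧸ Γ) → ℂ)) : IsCoc (fun g => zz Γ g p) := by
  intro g h
  have h1 := isCoc_coc Γ p.1 g h
  have h2 := isCoc_cob Γ p.2 g h
  simp only at h1 h2
  simp only [zz_apply, map_add]
  rw [h1, h2]
  abel

end Shapiro

/-! ### Part III: orbit sums -/

section Orbits

variable {G : Type*} [Group G] {X : Type*} [MulAction G X] (t : G)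

/-- The set of orbits of `t` on `X`. -/
abbrev Orb (X : Type*) [MulAction G X] : Type _ :=
  MulAction.orbitRel.Quotient (Subgroup.zpowers t) X

/-- The orbit of a point. -/
def orb (x : X) : Orb t X := Quotient.mk'' x

theorem orb_surjective : Function.Surjective (orb t : X → Orb t X) := Quotient.mk''_surjective

theorem orb_smul (x : X) : orb t (t • x) = orb t x := by
  apply Quotient.sound'
  rw [MulAction.orbitRel_apply]
  exact ⟨⟨t, Subgroup.mem_zpowers t⟩, rfl⟩

variable [Fintype X]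

open Classical in
/-- The orbit sum map. -/
noncomputable def sig : (X → ℂ) →ₗ[ℂ] (Orb t X → ℂ) :=
  ∑ x : X, (LinearMap.proj x : (X → ℂ) →ₗ[ℂ] ℂ).smulRight (Pi.single (orb t x) (1 : ℂ))

open Classical in
theorem sig_apply (v : X → ℂ) : sig t v = ∑ x : X, v x • Pi.single (orb t x) (1 : ℂ) := by
  simp [sig, LinearMap.sum_apply]

open Classical in
theorem sig_single (y : X) : sig t (Pi.single y (1 : ℂ)) = Pi.single (orb t y) (1 : ℂ) := by
  rw [sig_apply, Finset.sum_eq_single y]
  · simp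
  · intro x _ hx
    simp [hx]
  · simp

theorem sig_act (v : X → ℂ) : sig t (act t v) = sig t v := by
  classical
  rw [sig_apply, sig_apply]
  rw [← Equiv.sum_comp (MulAction.toPerm t)]
  refine Finset.sum_congr rfl fun x _ => ?_
  simp [orb_smul]

theorem sig_act_pow (n : ℕ) (v : X → ℂ) : sig t (act (t ^ n) v) = sig t v := by
  induction n generalizing v with
  | zero => simp [act_one]
  | succ n ih => rw [pow_succ, act_mul, ih, sig_act]

/-- The map `(a, b) ↦ σ_t (s⁻¹ (b - a))`. -/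
noncomputable def theta (s : G) : ((X → ℂ) × (X → ℂ)) →ₗ[ℂ] (Orb t X → ℂ) :=
  (sig t).comp ((act s⁻¹).comp (LinearMap.snd ℂ _ _ - LinearMap.fst ℂ _ _))

theorem theta_apply (s : G) (p : (X → ℂ) × (X → ℂ)) :
    theta t s p = sig t (act s⁻¹ (p.2 - p.1)) := rfl

/-- The restriction of `theta` to `kerA s × kerB u`. -/
noncomputable def thetaR (s u : G) :
    ((kerA (X := X) s) × (kerB (X := X) u)) →ₗ[ℂ] (Orb t X → ℂ) :=
  (theta t s).comp (LinearMap.prodMap (kerA s).subtype (kerB u).subtype)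

theorem thetaR_apply (s u : G) (p : (kerA (X := X) s) × (kerB (X := X) u)) :
    thetaR t s u p = sig t (act s⁻¹ ((p.2 : X → ℂ) - (p.1 : X → ℂ))) := rfl

omit [Fintype X] in
/-- A function invariant under generators of a transitive group is constant. -/
theorem const_of_invariant {s : G} (hgen : Subgroup.closure {s, t} = ⊤)
    (htrans : ∀ x y : X, ∃ g : G, g • x = y) (L : X → ℂ)
    (hs : ∀ x, L (s • x) = L x) (ht : ∀ x, L (t • x) = L x) (x y : X) : L x = L y := by
  let K : Subgroup G :=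
    { carrier := {g | ∀ x, L (g • x) = L x}
      one_mem' := by intro x; simp
      mul_mem' := by
        intro a b ha hb x
        rw [mul_smul, ha, hb]
      inv_mem' := by
        intro a ha x
        have := ha (a⁻¹ • x)
        rw [smul_inv_smul] at this
        exact this.symm }
  have hK : Subgroup.closure {s, t} ≤ K := by
    rw [Subgroup.closure_le]
    intro g hg
    rcases hg with rfl | rfl
    · exact hs
    · exact ht
  rw [hgen] at hK
  obtain ⟨g, rfl⟩ := htrans x y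
  exact ((hK (Subgroup.mem_top g)) x).symm

theorem card_orb_le (s u : G) (hgen : Subgroup.closure {s, t} = ⊤)
    (htrans : ∀ x y : X, ∃ g : G, g • x = y) (hs : ∀ x : X, (s * s) • x = x) :
    Nat.card (Orb t X) ≤ Module.finrank ℂ (LinearMap.range (thetaR (X := X) t s u)) + 1 := by
  classical
  let _ : Fintype (Orb t X) := Fintype.ofFinite _
  set W := LinearMap.range (thetaR (X := X) t s u) with hW
  have h1 := Subspace.finrank_add_finrank_dualAnnihilator_eq W
  rw [Module.finrank_pi, ← Nat.card_eq_fintype_card] at h1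
  -- the sum functional
  let Λ₀ : Module.Dual ℂ (Orb t X → ℂ) := ∑ O : Orb t X, LinearMap.proj O
  have h2 : W.dualAnnihilator ≤ Submodule.span ℂ {Λ₀} := by
    intro lam hlam
    rw [Submodule.mem_dualAnnihilator] at hlam
    -- key relation
    have hkey : ∀ v : X → ℂ, lam (sig t v) = lam (sig t (act s⁻¹ v)) := by
      intro v
      have hss : act s (act s v) = v := by rw [← act_mul, act_of_trivial hs]
      have hsi : act s⁻¹ (act s v) = v := by rw [← act_mul, inv_mul_cancel, act_one]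
      have ha : v - act s v ∈ kerA (X := X) s := by
        rw [mem_kerA, map_sub, hss]; abel
      have hw := hlam (thetaR t s u (⟨v - act s v, ha⟩, 0)) (LinearMap.mem_range_self _ _)
      have e : thetaR t s u (⟨v - act s v, ha⟩, 0) = sig t v - sig t (act s⁻¹ v) := by
        rw [thetaR_apply]
        show sig t (act s⁻¹ ((0 : X → ℂ) - (v - act s v))) = _
        rw [zero_sub, neg_sub, map_sub, hsi, map_sub]
      rw [e, map_sub, sub_eq_zero] at hw
      exact hw
    let L : X → ℂ := fun x => lam (Pi.single (orb t x) (1 : ℂ))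
    have hLs : ∀ x, L (s • x) = L x := by
      intro x
      have h := hkey (Pi.single (s • x) (1 : ℂ))
      have e : act s⁻¹ (Pi.single (s • x) (1 : ℂ)) = Pi.single x (1 : ℂ) := by
        ext y
        simp only [act_apply, inv_inv, Pi.single_apply]
        by_cases hy : y = x
        · simp [hy]
        · have : s • y ≠ s • x := fun h => hy (smul_left_cancel s h)
          simp [hy, this]
      rw [e, sig_single, sig_single] at h
      exact h
    have hLt : ∀ x, L (t • x) = L x := by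
      intro x
      simp only [L, orb_smul]
    have hLc : ∀ x y, L x = L y := const_of_invariant t hgen htrans L hLs hLt
    rw [Submodule.mem_span_singleton]
    rcases isEmpty_or_nonempty X with hX | ⟨⟨x₀⟩⟩
    · refine ⟨0, ?_⟩
      rw [zero_smul]
      refine LinearMap.pi_ext fun O c => ?_
      obtain ⟨x, -⟩ := orb_surjective t O
      exact (hX.false x).elim
    · refine ⟨L x₀, ?_⟩
      refine LinearMap.pi_ext fun O c => ?_
      obtain ⟨x, rfl⟩ := orb_surjective t O
      have e1 : (Pi.single (orb t x) c : Orb t X → ℂ) = c • Pi.single (orb t x) (1 : ℂ) := by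
        rw [← Pi.single_smul, smul_eq_mul, mul_one]
      have e2 : Λ₀ (Pi.single (orb t x) c) = c := by
        simp only [Λ₀, LinearMap.sum_apply, LinearMap.proj_apply]
        rw [Finset.sum_eq_single (orb t x)]
        · simp
        · intro O' _ hO'
          simp [hO']
        · simp
      rw [LinearMap.smul_apply, e2, e1, map_smul]
      show L x₀ • c = c • L x
      rw [hLc x x₀, smul_eq_mul, smul_eq_mul, mul_comm]
  have h3 : Module.finrank ℂ W.dualAnnihilator ≤ 1 := by
    refine (Submodule.finrank_mono h2).trans ?_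
    have := finrank_span_le_card (R := ℂ) ({Λ₀} : Set (Module.Dual ℂ (Orb t X → ℂ)))
    simpa using this
  omega

end Orbits

/-! ### Part IV: the abstract dimension bound -/

section Main

variable {G : Type*} [Group G] (Γ : Subgroup G) (par : G → Prop)

/-- Homomorphisms `Γ → ℂ` vanishing on the elements satisfying `par`. -/
def parHoms : Submodule ℂ (Additive Γ →+ ℂ) where
  carrier := {φ | ∀ γ : Γ, par γ → φ (Additive.ofMul γ) = 0}
  zero_mem' := fun _ _ => rfl
  add_mem' := by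
    intro φ ψ hφ hψ γ hγ
    show φ (Additive.ofMul γ) + ψ (Additive.ofMul γ) = 0
    rw [hφ γ hγ, hψ γ hγ, add_zero]
  smul_mem' := by
    intro c φ hφ γ hγ
    show c • φ (Additive.ofMul γ) = 0
    rw [hφ γ hγ, smul_zero]

variable {Γ par}

theorem mem_parHoms {φ : Additive Γ →+ ℂ} :
    φ ∈ parHoms Γ par ↔ ∀ γ : Γ, par γ → φ (Additive.ofMul γ) = 0 := Iff.rfl

theorem ext0_eq_zero_of_par {ψ : Additive Γ →+ ℂ} (hψ : ψ ∈ parHoms Γ par) {g : G}
    (hg : par g) : ext0 Γ ψ g = 0 := by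
  unfold ext0
  split_ifs with h
  · exact hψ ⟨g, h⟩ hg
  · rfl

theorem kk_of_trivial {g : G} (hg : ∀ x : G ⧸ Γ, g • x = x) (x : G ⧸ Γ) :
    kk Γ g x = x.out⁻¹ * g * x.out := by
  have : g⁻¹ • x = x := by
    conv_lhs => rw [← hg x]
    simp
  rw [kk, this]

theorem coc_eq_zero_of_trivial {ψ : Additive Γ →+ ℂ} (hψ : ψ ∈ parHoms Γ par) {g : G}
    (hg : ∀ x : G ⧸ Γ, g • x = x) (hp : ∀ h : G, par (h⁻¹ * g * h)) : coc Γ g ψ = 0 := by
  ext x
  rw [coc_apply, kk_of_trivial hg]
  exact ext0_eq_zero_of_par hψ (hp _)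

theorem zz_eq_zero_of_trivial {ψ : Additive Γ →+ ℂ} (hψ : ψ ∈ parHoms Γ par)
    (v : (G ⧸ Γ) → ℂ) {g : G}
    (hg : ∀ x : G ⧸ Γ, g • x = x) (hp : ∀ h : G, par (h⁻¹ * g * h)) : zz Γ g (ψ, v) = 0 := by
  rw [zz_apply, coc_eq_zero_of_trivial hψ hg hp, act_of_trivial hg]
  simp

theorem exists_pow_trivial {X : Type*} [MulAction G X] [Fintype X] (t : G) :
    ∃ M : ℕ, 0 < M ∧ ∀ x : X, (t ^ M) • x = x := by
  classical
  refine ⟨Fintype.card (Equiv.Perm X), Fintype.card_pos, fun x => ?_⟩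
  have h := pow_card_eq_one (x := MulAction.toPermHom G X t)
  rw [← map_pow] at h
  have := congrArg (fun e : Equiv.Perm X => e x) h
  simpa using this

/-- If the cocycle of `(ψ, v)` vanishes on generators then `ψ = 0` and `v` is constant. -/
theorem eq_zero_of_zz_eq_zero {s t : G} (hgen : Subgroup.closure {s, t} = ⊤)
    (p : (Additive Γ →+ ℂ) × ((G ⧸ Γ) → ℂ))
    (h1 : zz Γ s p = 0) (h2 : zz Γ (s * t) p = 0) :
    p.1 = 0 ∧ ∀ x, p.2 x = p.2 (QuotientGroup.mk 1) := by
  have hc := isCoc_zz Γ p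
  have ht : zz Γ t p = 0 := by
    have e : t = s⁻¹ * (s * t) := by group
    have h3 := hc s⁻¹ (s * t)
    have h4 := hc.map_inv s
    simp only at h3 h4
    rw [e, h3, h4, h1, h2]
    simp
  have hall : ∀ g : G, zz Γ g p = 0 := by
    intro g
    refine hc.eq_zero_of_closure hgen ?_ g
    intro g hg
    rcases hg with rfl | rfl
    · exact h1
    · exact ht
  have hψ : p.1 = 0 := by
    refine AddMonoidHom.ext fun γ' => ?_
    obtain ⟨γ, rfl⟩ : ∃ γ : Γ, Additive.ofMul γ = γ' := ⟨Additive.toMul γ', rfl⟩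
    set x₀ : G ⧸ Γ := QuotientGroup.mk 1 with hx₀
    have hs₀ : x₀.out ∈ Γ := by
      have := QuotientGroup.out_eq' x₀
      rw [hx₀, QuotientGroup.eq] at this
      simpa using Γ.inv_mem this
    set g : G := x₀.out * γ * x₀.out⁻¹ with hg
    have hgΓ : g ∈ Γ := Γ.mul_mem (Γ.mul_mem hs₀ γ.2) (Γ.inv_mem hs₀)
    have hgx : g⁻¹ • x₀ = x₀ := by
      rw [hx₀]
      show (QuotientGroup.mk (g⁻¹ * 1) : G ⧸ Γ) = QuotientGroup.mk 1
      rw [QuotientGroup.eq]
      simpa using hgΓ
    have hk : kk Γ g x₀ = γ := by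
      rw [kk, hgx, hg]
      group
    have h5 := congrFun (hall g) x₀
    rw [zz_apply] at h5
    simp only [Pi.add_apply, Pi.sub_apply, act_apply, hgx, sub_self, add_zero, coc_apply, hk,
      Pi.zero_apply] at h5
    rw [ext0_of_mem _ γ.2] at h5
    exact h5
  refine ⟨hψ, fun x => ?_⟩
  obtain ⟨g, rfl⟩ := QuotientGroup.mk_surjective x
  have h5 := congrFun (hall g⁻¹) (QuotientGroup.mk 1 : G ⧸ Γ)
  rw [zz_apply, hψ] at h5
  simp only [map_zero, zero_add, Pi.sub_apply, act_apply, inv_inv, Pi.zero_apply] at h5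
  have e : g • (QuotientGroup.mk 1 : G ⧸ Γ) = QuotientGroup.mk g := by
    show (QuotientGroup.mk (g * 1) : G ⧸ Γ) = _
    rw [mul_one]
  rw [e] at h5
  exact sub_eq_zero.mp h5

end Main

section Assembly

variable {G : Type*} [Group G] (Γ : Subgroup G) (par : G → Prop) [Fintype (G ⧸ Γ)]

/-- The cocycle evaluated at `g`, on `parHoms × V`. -/
noncomputable def zzH (g : G) :
    ((parHoms Γ par) × ((G ⧸ Γ) → ℂ)) →ₗ[ℂ] ((G ⧸ Γ) → ℂ) :=
  (zz Γ g).comp (LinearMap.prodMap (parHoms Γ par).subtype LinearMap.id)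

omit [Fintype (G ⧸ Γ)] in
theorem zzH_apply (g : G) (p : (parHoms Γ par) × ((G ⧸ Γ) → ℂ)) :
    zzH Γ par g p = zz Γ g ((p.1 : Additive Γ →+ ℂ), p.2) := rfl

variable {Γ par}

omit [Fintype (G ⧸ Γ)] in
theorem zzH_mem_kerA {s : G} (hz : ∀ x : G ⧸ Γ, (s * s) • x = x)
    (hzp : ∀ h : G, par (h⁻¹ * (s * s) * h))
    (p : (parHoms Γ par) × ((G ⧸ Γ) → ℂ)) : zzH Γ par s p ∈ kerA (X := G ⧸ Γ) s := by
  rw [mem_kerA, zzH_apply]
  have hc := isCoc_zz Γ ((p.1 : Additive Γ →+ ℂ), p.2) s s
  simp only at hc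
  rw [← hc]
  exact zz_eq_zero_of_trivial p.1.2 p.2 hz hzp

omit [Fintype (G ⧸ Γ)] in
theorem zzH_mem_kerB {s u : G} (hz : ∀ x : G ⧸ Γ, (s * s) • x = x)
    (hzp : ∀ h : G, par (h⁻¹ * (s * s) * h)) (hu : u * u * u = s * s)
    (p : (parHoms Γ par) × ((G ⧸ Γ) → ℂ)) : zzH Γ par u p ∈ kerB (X := G ⧸ Γ) u := by
  rw [mem_kerB, zzH_apply]
  have hc := isCoc_zz Γ ((p.1 : Additive Γ →+ ℂ), p.2)
  have h1 := hc (u * u) u
  have h2 := hc u u
  simp only at h1 h2
  have h3 : zz Γ (u * u * u) ((p.1 : Additive Γ →+ ℂ), p.2) = 0 := by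
    rw [hu]
    exact zz_eq_zero_of_trivial p.1.2 p.2 hz hzp
  rw [h1, h2] at h3
  rw [← h3]

variable (Γ par)

/-- The map `(ψ, v) ↦ (z(s), z(u))`. -/
noncomputable def PhiR (s u : G) (hz : ∀ x : G ⧸ Γ, (s * s) • x = x)
    (hzp : ∀ h : G, par (h⁻¹ * (s * s) * h)) (hu : u * u * u = s * s) :
    ((parHoms Γ par) × ((G ⧸ Γ) → ℂ)) →ₗ[ℂ]
      ((kerA (X := G ⧸ Γ) s) × (kerB (X := G ⧸ Γ) u)) :=
  LinearMap.prod
    (LinearMap.codRestrict (kerA s) (zzH Γ par s) (zzH_mem_kerA hz hzp))
    (LinearMap.codRestrict (kerB u) (zzH Γ par u) (zzH_mem_kerB hz hzp hu))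

variable {Γ par}

theorem main_abstract (s t : G) (hgen : Subgroup.closure {s, t} = ⊤)
    (hz : ∀ x : G ⧸ Γ, (s * s) • x = x)
    (hzp : ∀ h : G, par (h⁻¹ * (s * s) * h))
    (hu : (s * t) * (s * t) * (s * t) = s * s)
    (htp : ∀ (h : G) (m : ℕ), par (h⁻¹ * t ^ m * h)) :
    Module.Finite ℂ (parHoms Γ par) ∧
      Module.finrank ℂ (parHoms Γ par) + Nat.card (G ⧸ Γ) + Nat.card (Orb t (G ⧸ Γ))
        ≤ Module.finrank ℂ (kerA (X := G ⧸ Γ) s)
          + Module.finrank ℂ (kerB (X := G ⧸ Γ) (s * t)) + 2 := by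
  classical
  set u := s * t with hu_def
  set Φ := PhiR Γ par s u hz hzp hu with hΦ
  -- elements of the kernel
  have hker : ∀ p, Φ p = 0 → (p.1 : Additive Γ →+ ℂ) = 0 ∧
      ∀ x, p.2 x = p.2 (QuotientGroup.mk 1) := by
    intro p hp
    have h1 : zzH Γ par s p = 0 := by
      have := congrArg (fun q => ((q.1 : kerA (X := G ⧸ Γ) s) : (G ⧸ Γ) → ℂ)) hp
      simpa [hΦ, PhiR] using this
    have h2 : zzH Γ par u p = 0 := by
      have := congrArg (fun q => ((q.2 : kerB (X := G ⧸ Γ) u) : (G ⧸ Γ) → ℂ)) hp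
      simpa [hΦ, PhiR] using this
    exact eq_zero_of_zz_eq_zero hgen ((p.1 : Additive Γ →+ ℂ), p.2) h1 h2
  -- finiteness
  have hfin : Module.Finite ℂ (parHoms Γ par) := by
    refine Module.Finite.of_injective (Φ.comp (LinearMap.inl ℂ _ _)) ?_
    rw [← LinearMap.ker_eq_bot, LinearMap.ker_eq_bot']
    intro ψ hψ
    have := (hker (ψ, 0) hψ).1
    exact Subtype.ext this
  refine ⟨hfin, ?_⟩
  -- kernel has dimension at most one
  have hk1 : Module.finrank ℂ (LinearMap.ker Φ) ≤ 1 := by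
    let e : (parHoms Γ par) × ((G ⧸ Γ) → ℂ) := (0, fun _ => 1)
    have hle : LinearMap.ker Φ ≤ Submodule.span ℂ {e} := by
      intro p hp
      rw [LinearMap.mem_ker] at hp
      obtain ⟨h1, h2⟩ := hker p hp
      rw [Submodule.mem_span_singleton]
      refine ⟨p.2 (QuotientGroup.mk 1), ?_⟩
      refine Prod.ext ?_ ?_
      · simp only [e, Prod.smul_mk, smul_zero]
        exact (Subtype.ext h1).symm
      · funext x
        simp [e, h2 x]
    refine (Submodule.finrank_mono hle).trans ?_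
    have := finrank_span_le_card (R := ℂ) ({e} : Set ((parHoms Γ par) × ((G ⧸ Γ) → ℂ)))
    simpa using this
  -- the range is killed by theta
  have hrange : LinearMap.range Φ ≤ LinearMap.ker (thetaR (X := G ⧸ Γ) t s u) := by
    rintro _ ⟨p, rfl⟩
    rw [LinearMap.mem_ker, thetaR_apply]
    set p' : (Additive Γ →+ ℂ) × ((G ⧸ Γ) → ℂ) := ((p.1 : Additive Γ →+ ℂ), p.2) with hp'
    have hc := isCoc_zz Γ p'
    have e1 : act s⁻¹ (zz Γ u p' - zz Γ s p') = zz Γ t p' := by
      have e : t = s⁻¹ * u := by rw [hu_def]; group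
      have h3 := hc s⁻¹ u
      have h4 := hc.map_inv s
      simp only at h3 h4
      rw [e, h3, h4, map_sub]
      abel
    show sig t (act s⁻¹ (zz Γ u p' - zz Γ s p')) = 0
    rw [e1]
    obtain ⟨M, hM, hMx⟩ := exists_pow_trivial (X := G ⧸ Γ) t
    have h5 : zz Γ (t ^ M) p' = 0 :=
      zz_eq_zero_of_trivial p.1.2 p.2 hMx (fun h => htp h M)
    have h6 := hc.map_pow t M
    rw [h5] at h6
    have h7 := congrArg (sig t) h6
    rw [map_zero, map_sum] at h7
    simp only [sig_act_pow, Finset.sum_const, Finset.card_range] at h7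
    have hM' : (M : ℂ) ≠ 0 := by exact_mod_cast hM.ne'
    rw [← Nat.cast_smul_eq_nsmul ℂ] at h7
    exact (smul_eq_zero.mp h7.symm).resolve_left hM'
  have hrk := LinearMap.finrank_range_add_finrank_ker Φ
  have hrk2 := LinearMap.finrank_range_add_finrank_ker (thetaR (X := G ⧸ Γ) t s u)
  have hmono := Submodule.finrank_mono hrange
  have horb := card_orb_le (X := G ⧸ Γ) t s u hgen
    (fun x y => MulAction.exists_smul_eq G x y) hz
  rw [Module.finrank_prod, Module.finrank_pi, ← Nat.card_eq_fintype_card] at hrk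
  rw [Module.finrank_prod] at hrk2
  omega

end Assembly

/-! ### Part V: the case of `Γ₀(N)` -/

section Gamma0

open ModularGroup Matrix.SpecialLinearGroup Fermat.Agent.S20

/-- The parabolicity predicate of the prelude. -/
def parSL (g : SL(2, ℤ)) : Prop := (g : Matrix (Fin 2) (Fin 2) ℤ).trace ^ 2 = 4

theorem parabolicHoms_eq (N : ℕ) :
    ModularCurve.Period.parabolicHoms ℂ (Gamma0 N) ℂ = parHoms (Gamma0 N) parSL := by
  ext φ
  exact Iff.rfl

theorem trace_conj (h g : SL(2, ℤ)) :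
    ((h⁻¹ * g * h : SL(2, ℤ)) : Matrix (Fin 2) (Fin 2) ℤ).trace
      = (g : Matrix (Fin 2) (Fin 2) ℤ).trace := by
  rw [Matrix.SpecialLinearGroup.coe_mul, Matrix.trace_mul_comm, ← Matrix.SpecialLinearGroup.coe_mul,
    ← mul_assoc, mul_inv_cancel, one_mul]

theorem SS_eq : (S * S : SL(2, ℤ)) = -1 := by
  ext i j
  fin_cases i <;> fin_cases j <;> simp [coe_S]

theorem STcube_eq : (S * T) * (S * T) * (S * T) = (S * S : SL(2, ℤ)) := by
  ext i j
  fin_cases i <;> fin_cases j <;> simp [coe_S, coe_T]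

theorem parSL_SS (h : SL(2, ℤ)) : parSL (h⁻¹ * (S * S) * h) := by
  unfold parSL
  rw [trace_conj, SS_eq]
  simp

theorem parSL_T (h : SL(2, ℤ)) (m : ℕ) : parSL (h⁻¹ * T ^ m * h) := by
  unfold parSL
  rw [trace_conj, ← zpow_natCast, coe_T_zpow]
  simp [Matrix.trace_fin_two]

theorem SS_smul (N : ℕ) (x : Q N) : (S * S : SL(2, ℤ)) • x = x := by
  obtain ⟨h, rfl⟩ := QuotientGroup.mk_surjective x
  show (QuotientGroup.mk ((S * S) * h) : Q N) = QuotientGroup.mk h
  rw [eq_comm, QuotientGroup.eq, ← mul_assoc]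
  rw [SS_eq, Gamma0_mem]
  simp

/-- **P5**: the space of parabolic homomorphisms `Γ₀(N) → ℂ` is finite-dimensional of
dimension at most twice the genus. -/
theorem P5 (N : ℕ) [NeZero N] :
    Module.Finite ℂ (ModularCurve.Period.parabolicHoms ℂ (CongruenceSubgroup.Gamma0 N) ℂ) ∧
      (Module.finrank ℂ
          (ModularCurve.Period.parabolicHoms ℂ (CongruenceSubgroup.Gamma0 N) ℂ) : ℚ)
        ≤ 2 * ModularCurve.genusFormula N := by
  classical
  let _ : Fintype (SL(2, ℤ) ⧸ Gamma0 N) := Fintype.ofFinite _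
  rw [parabolicHoms_eq]
  obtain ⟨hfin, hle⟩ := main_abstract (Γ := Gamma0 N) (par := parSL) S T
    SpecialLinearGroup.SL2Z_generators (SS_smul N) parSL_SS STcube_eq parSL_T
  refine ⟨hfin, ?_⟩
  have hA := finrank_kerA (X := SL(2, ℤ) ⧸ Gamma0 N) S (SS_smul N)
  have hB := finrank_kerB (X := SL(2, ℤ) ⧸ Gamma0 N) (S * T) (by
    intro x; rw [STcube_eq]; exact SS_smul N x)
  have h1 : Nat.card (SL(2, ℤ) ⧸ Gamma0 N) = mu N := rfl
  have h2 : Nat.card {x : SL(2, ℤ) ⧸ Gamma0 N // S • x = x} = nu2 N := rfl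
  have h3 : Nat.card {x : SL(2, ℤ) ⧸ Gamma0 N // (S * T) • x = x} = nu3 N := rfl
  have h4 : Nat.card (Orb T (SL(2, ℤ) ⧸ Gamma0 N)) = cusps N := rfl
  rw [h1, h2] at hA
  rw [h1, h3] at hB
  rw [h1, h4] at hle
  rw [Fermat.Agent.S20_helper29_A1.A1] at hA hB hle
  rw [Fermat.Agent.S20_helper22_A2.A2] at hA
  rw [Fermat.Agent.S20_helper22_A3.A3] at hB
  rw [Fermat.Agent.S20_helper29_A4.A4] at hle
  unfold ModularCurve.genusFormula
  have hA' : (2 * Module.finrank ℂ (kerA (X := SL(2, ℤ) ⧸ Gamma0 N) S) : ℚ)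
      + ModularCurve.nuTwo N = ModularCurve.dedekindPsi N := by exact_mod_cast hA
  have hB' : (3 * Module.finrank ℂ (kerB (X := SL(2, ℤ) ⧸ Gamma0 N) (S * T)) : ℚ)
      + 2 * ModularCurve.nuThree N = 2 * ModularCurve.dedekindPsi N := by exact_mod_cast hB
  have hle' : (Module.finrank ℂ (parHoms (Gamma0 N) parSL) : ℚ) + ModularCurve.dedekindPsi N
      + ModularCurve.cuspCount N
      ≤ Module.finrank ℂ (kerA (X := SL(2, ℤ) ⧸ Gamma0 N) S)
        + Module.finrank ℂ (kerB (X := SL(2, ℤ) ⧸ Gamma0 N) (S * T)) + 2 := by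
    exact_mod_cast hle
  linarith

end Gamma0

end Fermat.Agent.S21_helper8_P5
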