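import Mathlib
import Fermat.Prelude.Def_ModularCurve_PeriodMap
import Fermat.Agent.S21_Defs
import Fermat.Agent.S20_Basic
import Fermat.Agent.S21_helper4_DIMa1
import Fermat.Agent.S21_helper17_DIMa2
import Fermat.Agent.S21_helper25_DIMa3
import Fermat.Agent.S21_helper15_DIMa4

set_option autoImplicit false

open CongruenceSubgroup ModularCurve.Period
open scoped MatrixGroups

namespace Fermat.Agent.S21_helper9_DIMb

open Fermat.Agent.S20 Fermat.Agent.S21

variable {N : ℕ}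

/-! ### The Shapiro cocycle -/

theorem DIMb_out_mem (g : SL(2, ℤ)) (x : Q N) :
    x.out⁻¹ * g * (g⁻¹ • x).out ∈ Gamma0 N := by
  have h1 : ((g⁻¹ * x.out : SL(2, ℤ)) : Q N) = g⁻¹ • x := by
    conv_rhs => rw [← QuotientGroup.out_eq' x]
    rfl
  have h2 : (((g⁻¹ • x).out : SL(2, ℤ)) : Q N) = g⁻¹ • x := QuotientGroup.out_eq' _
  have := QuotientGroup.eq.mp (h1.trans h2.symm)
  simpa [mul_assoc] using this

/-- The element `x.out⁻¹ * g * (g⁻¹ • x).out` of `Γ₀(N)`. -/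
noncomputable def cArg (N : ℕ) (g : SL(2, ℤ)) (x : Q N) : Gamma0 N :=
  ⟨x.out⁻¹ * g * (g⁻¹ • x).out, DIMb_out_mem g x⟩

theorem cArg_mul (g h : SL(2, ℤ)) (x : Q N) :
    cArg N (g * h) x = cArg N g x * cArg N h (g⁻¹ • x) := by
  apply Subtype.ext
  simp only [cArg, Subgroup.coe_mul, mul_inv_rev, mul_smul]
  group

/-- The Shapiro cocycle attached to a homomorphism `φ : Γ₀(N) → ℂ`. -/
noncomputable def coc (N : ℕ) (φ : Additive (Gamma0 N) →+ ℂ) (g : SL(2, ℤ)) : Q N → ℂ :=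
  fun x => φ (Additive.ofMul (cArg N g x))

theorem coc_apply (φ : Additive (Gamma0 N) →+ ℂ) (g : SL(2, ℤ)) (x : Q N) :
    coc N φ g x = φ (Additive.ofMul (cArg N g x)) := rfl

theorem coc_mul (φ : Additive (Gamma0 N) →+ ℂ) (g h : SL(2, ℤ)) :
    coc N φ (g * h) = coc N φ g + rho N g (coc N φ h) := by
  funext x
  simp only [coc, Pi.add_apply, rho_apply, cArg_mul, ofMul_mul, map_add]

/-- The cocycle `coc φ` modified by the coboundary of `w`. -/
noncomputable def coc' (N : ℕ) (φ : Additive (Gamma0 N) →+ ℂ) (w : Q N → ℂ) (g : SL(2, ℤ)) :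
    Q N → ℂ :=
  coc N φ g + (rho N g w - w)

theorem coc'_mul (φ : Additive (Gamma0 N) →+ ℂ) (w : Q N → ℂ) (g h : SL(2, ℤ)) :
    coc' N φ w (g * h) = coc' N φ w g + rho N g (coc' N φ w h) := by
  simp only [coc', coc_mul, rho_mul_apply, map_add, map_sub]
  abel

/-! ### Abstract cocycles -/

/-- A cocycle with values in the permutation module. -/
def IsCoc (N : ℕ) (c : SL(2, ℤ) → (Q N → ℂ)) : Prop :=
  ∀ g h, c (g * h) = c g + rho N g (c h)

theorem isCoc_coc' (φ : Additive (Gamma0 N) →+ ℂ) (w : Q N → ℂ) : IsCoc N (coc' N φ w) :=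
  coc'_mul φ w

theorem IsCoc.map_one {c : SL(2, ℤ) → (Q N → ℂ)} (hc : IsCoc N c) : c 1 = 0 := by
  have := hc 1 1
  rw [mul_one, rho_one, LinearMap.id_apply] at this
  simpa using this

theorem IsCoc.map_inv {c : SL(2, ℤ) → (Q N → ℂ)} (hc : IsCoc N c) (g : SL(2, ℤ))
    (hg : c g = 0) : c g⁻¹ = 0 := by
  have := hc g⁻¹ g
  rw [inv_mul_cancel, hc.map_one, hg, map_zero, add_zero] at this
  exact this.symm

theorem IsCoc.eq_zero {c : SL(2, ℤ) → (Q N → ℂ)} (hc : IsCoc N c)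
    (hS : c ModularGroup.S = 0) (hT : c ModularGroup.T = 0) (g : SL(2, ℤ)) : c g = 0 := by
  have hg : g ∈ Subgroup.closure ({ModularGroup.S, ModularGroup.T} : Set SL(2, ℤ)) := by
    rw [SpecialLinearGroup.SL2Z_generators]; trivial
  induction hg using Subgroup.closure_induction with
  | mem x hx =>
    rcases hx with rfl | rfl
    · exact hS
    · exact hT
  | one => exact hc.map_one
  | mul x y _ _ hx hy => rw [hc x y, hx, hy, map_zero, add_zero]
  | inv x _ hx => exact hc.map_inv x hx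

end Fermat.Agent.S21_helper9_DIMb

namespace Fermat.Agent.S21_helper9_DIMb

open Fermat.Agent.S20 Fermat.Agent.S21

variable {N : ℕ}

/-! ### Evaluation at the trivial coset -/

theorem DIMb_smul_one_of_mem {γ : SL(2, ℤ)} (hγ : γ ∈ Gamma0 N) :
    γ • ((1 : SL(2, ℤ)) : Q N) = ((1 : SL(2, ℤ)) : Q N) := by
  have h1 : γ • ((1 : SL(2, ℤ)) : Q N) = ((γ * 1 : SL(2, ℤ)) : Q N) := rfl
  rw [h1, mul_one]
  exact QuotientGroup.eq.mpr (by simpa using inv_mem hγ)

theorem DIMb_out_one_mem : (((1 : SL(2, ℤ)) : Q N)).out ∈ Gamma0 N := by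
  have h := QuotientGroup.out_eq' (((1 : SL(2, ℤ)) : Q N))
  have := QuotientGroup.eq.mp h
  simpa using inv_mem this

theorem coc_apply_one (φ : Additive (Gamma0 N) →+ ℂ) (γ : Gamma0 N) :
    coc N φ (γ : SL(2, ℤ)) ((1 : SL(2, ℤ)) : Q N) = φ (Additive.ofMul γ) := by
  have hfix : ((γ : SL(2, ℤ))⁻¹) • ((1 : SL(2, ℤ)) : Q N) = ((1 : SL(2, ℤ)) : Q N) :=
    DIMb_smul_one_of_mem (inv_mem γ.2)
  set r : Gamma0 N := ⟨(((1 : SL(2, ℤ)) : Q N)).out, DIMb_out_one_mem⟩ with hr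
  have harg : cArg N (γ : SL(2, ℤ)) ((1 : SL(2, ℤ)) : Q N) = r⁻¹ * γ * r := by
    apply Subtype.ext
    simp only [cArg, hfix, Subgroup.coe_mul, Subgroup.coe_inv, hr]
  rw [coc_apply, harg, ofMul_mul, ofMul_mul, map_add, map_add, ofMul_inv, map_neg]
  ring

theorem hom_eq_zero_of_coc' (φ : Additive (Gamma0 N) →+ ℂ) (w : Q N → ℂ)
    (h : ∀ g, coc' N φ w g = 0) : φ = 0 := by
  refine DFunLike.ext _ _ fun a => ?_
  obtain ⟨γ, rfl⟩ : ∃ γ : Gamma0 N, Additive.ofMul γ = a := ⟨Additive.toMul a, rfl⟩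
  have h1 := congrFun (h (γ : SL(2, ℤ))) ((1 : SL(2, ℤ)) : Q N)
  have hfix : ((γ : SL(2, ℤ))⁻¹) • ((1 : SL(2, ℤ)) : Q N) = ((1 : SL(2, ℤ)) : Q N) :=
    DIMb_smul_one_of_mem (inv_mem γ.2)
  simp only [coc', Pi.add_apply, Pi.sub_apply, rho_apply, hfix, sub_self, add_zero,
    Pi.zero_apply, coc_apply_one] at h1
  simpa using h1

theorem const_of_rho_fixed (w : Q N → ℂ) (h : ∀ g, rho N g w = w) (x : Q N) :
    w x = w ((1 : SL(2, ℤ)) : Q N) := by
  induction x using QuotientGroup.induction_on with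
  | H g =>
    have h1 := congrFun (h g⁻¹) ((1 : SL(2, ℤ)) : Q N)
    rw [rho_apply, inv_inv] at h1
    rw [← h1]
    have : g • ((1 : SL(2, ℤ)) : Q N) = ((g * 1 : SL(2, ℤ)) : Q N) := rfl
    rw [this, mul_one]

/-- If the modified cocycle vanishes at `S` and `T`, then `φ = 0` and `w` is constant. -/
theorem kernel_aux (φ : Additive (Gamma0 N) →+ ℂ) (w : Q N → ℂ)
    (hS : coc' N φ w ModularGroup.S = 0) (hT : coc' N φ w ModularGroup.T = 0) :
    φ = 0 ∧ ∀ x, w x = w ((1 : SL(2, ℤ)) : Q N) := by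
  have hall := (isCoc_coc' φ w).eq_zero hS hT
  have hφ := hom_eq_zero_of_coc' φ w hall
  refine ⟨hφ, const_of_rho_fixed w fun g => ?_⟩
  have := hall g
  rw [hφ] at this
  have h0 : coc N (0 : Additive (Gamma0 N) →+ ℂ) g = 0 := by
    funext x; simp [coc]
  simp only [coc', h0, zero_add] at this
  exact sub_eq_zero.mp this

/-! ### Linear maps -/

/-- `φ ↦ coc φ g` as a linear map. -/
noncomputable def cocL (N : ℕ) (g : SL(2, ℤ)) : (Additive (Gamma0 N) →+ ℂ) →ₗ[ℂ] (Q N → ℂ) where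
  toFun φ := coc N φ g
  map_add' φ ψ := by funext x; simp [coc]
  map_smul' a φ := by funext x; simp [coc]

theorem cocL_apply (g : SL(2, ℤ)) (φ : Additive (Gamma0 N) →+ ℂ) : cocL N g φ = coc N φ g := rfl

theorem cocL_prod_injective :
    Function.Injective ((cocL N ModularGroup.S).prod (cocL N ModularGroup.T)) := by
  rw [← LinearMap.ker_eq_bot, LinearMap.ker_eq_bot']
  intro φ hφ
  have h1 : coc N φ ModularGroup.S = 0 := congrArg Prod.fst hφ
  have h2 : coc N φ ModularGroup.T = 0 := congrArg Prod.snd hφ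
  refine (kernel_aux φ 0 ?_ ?_).1
  · simp [coc', h1]
  · simp [coc', h2]

theorem finite_homs [NeZero N] : Module.Finite ℂ (Additive (Gamma0 N) →+ ℂ) :=
  FiniteDimensional.of_injective _ (cocL_prod_injective (N := N))

theorem finite_parabolicHoms (N : ℕ) [NeZero N] :
    Module.Finite ℂ (parabolicHoms ℂ (Gamma0 N) ℂ) := by
  have := finite_homs (N := N)
  infer_instance

end Fermat.Agent.S21_helper9_DIMb

namespace Fermat.Agent.S21_helper9_DIMb

open Fermat.Agent.S20 Fermat.Agent.S21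

variable {N : ℕ}

/-! ### Relations satisfied by a cocycle -/

theorem IsCoc.map_neg_one {c : SL(2, ℤ) → (Q N → ℂ)} (hc : IsCoc N c) : c (-1) = 0 := by
  have h := hc (-1) (-1)
  have h1 : (-1 : SL(2, ℤ)) * (-1) = 1 := by decide
  rw [h1, hc.map_one, Fermat.Agent.S21_helper15_DIMa4.rho_neg_one, LinearMap.id_apply] at h
  have h2 : (2 : ℂ) • c (-1) = 0 := by rw [two_smul]; exact h.symm
  exact (smul_eq_zero.mp h2).resolve_left two_ne_zero

theorem IsCoc.rel_S {c : SL(2, ℤ) → (Q N → ℂ)} (hc : IsCoc N c) :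
    c ModularGroup.S ∈ LinearMap.ker (1 + rho N ModularGroup.S) := by
  rw [LinearMap.mem_ker]
  have h := hc ModularGroup.S ModularGroup.S
  rw [Fermat.Agent.S21_helper15_DIMa4.S_mul_S, hc.map_neg_one] at h
  simpa using h.symm

theorem IsCoc.rel_cube {c : SL(2, ℤ) → (Q N → ℂ)} (hc : IsCoc N c) (U : SL(2, ℤ))
    (hU : U ^ 3 = -1) : c U ∈ LinearMap.ker (1 + rho N U + rho N U ^ 2) := by
  rw [LinearMap.mem_ker]
  have h3 : U * (U * U) = -1 := by
    rw [← hU, pow_succ, pow_two, mul_assoc]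
  have h := hc U (U * U)
  rw [h3, hc.map_neg_one, hc U U, map_add] at h
  simp only [LinearMap.add_apply, Module.End.one_apply, pow_two, Module.End.mul_apply]
  rw [h]
  abel

theorem IsCoc.rel_U {c : SL(2, ℤ) → (Q N → ℂ)} (hc : IsCoc N c) :
    c ModularGroup.S + rho N ModularGroup.S (c ModularGroup.T) ∈
      LinearMap.ker (1 + rho N (ModularGroup.S * ModularGroup.T)
        + rho N (ModularGroup.S * ModularGroup.T) ^ 2) := by
  rw [← hc ModularGroup.S ModularGroup.T]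
  exact hc.rel_cube _ Fermat.Agent.S21_helper15_DIMa4.ST_cube

theorem IsCoc.map_T_pow {c : SL(2, ℤ) → (Q N → ℂ)} (hc : IsCoc N c) (n : ℕ) :
    c (ModularGroup.T ^ n) = (∑ i ∈ Finset.range n, rho N (ModularGroup.T ^ i)) (c ModularGroup.T) := by
  induction n with
  | zero => simpa using hc.map_one
  | succ n ih =>
    rw [pow_succ, hc, ih, Finset.sum_range_succ, LinearMap.add_apply]

/-! ### `T ^ N` -/

theorem T_pow_smul (N : ℕ) (x : Q N) : (ModularGroup.T ^ N : SL(2, ℤ)) • x = x := by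
  induction x using QuotientGroup.induction_on with
  | H g =>
    rw [MulAction.Quotient.smul_mk, QuotientGroup.eq, smul_eq_mul]
    have h1 : (ModularGroup.T ^ N : SL(2, ℤ)) ∈ Gamma N := by
      have := ModularGroup_T_pow_mem_Gamma (N : ℤ) (N : ℤ) dvd_rfl
      simpa using this
    have h2 : g⁻¹ * (ModularGroup.T ^ N)⁻¹ * g⁻¹⁻¹ ∈ Gamma N :=
      (Gamma_normal N).conj_mem _ (inv_mem h1) g⁻¹
    have h3 : (ModularGroup.T ^ N * g)⁻¹ * g = g⁻¹ * (ModularGroup.T ^ N)⁻¹ * g⁻¹⁻¹ := by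
      group
    rw [h3]
    have hle : Gamma N ≤ Gamma0 N := fun γ hγ => by
      rw [Gamma_mem] at hγ
      rw [Gamma0_mem]
      exact hγ.2.2.1
    exact hle h2

theorem T_pow_inv_smul (N : ℕ) (x : Q N) : ((ModularGroup.T ^ N : SL(2, ℤ))⁻¹) • x = x := by
  conv_lhs => rw [← T_pow_smul N x]
  rw [inv_smul_smul]

theorem rho_T_pow (N : ℕ) : rho N (ModularGroup.T ^ N) = LinearMap.id := by
  ext u x
  rw [rho_apply, T_pow_inv_smul]
  rfl

theorem trace_conj_T_pow (n : ℕ) (g : SL(2, ℤ)) :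
    ((g⁻¹ * ModularGroup.T ^ n * g : SL(2, ℤ)) : Matrix (Fin 2) (Fin 2) ℤ).trace = 2 := by
  have h1 : ((g⁻¹ * ModularGroup.T ^ n * g : SL(2, ℤ)) : Matrix (Fin 2) (Fin 2) ℤ)
      = (g⁻¹ : SL(2, ℤ)).1 * (ModularGroup.T ^ n : SL(2, ℤ)).1 * g.1 := by
    simp [Matrix.SpecialLinearGroup.coe_mul]
  rw [h1, Matrix.trace_mul_cycle]
  have h2 : g.1 * (g⁻¹ : SL(2, ℤ)).1 = 1 := by
    rw [← Matrix.SpecialLinearGroup.coe_mul, mul_inv_cancel, Matrix.SpecialLinearGroup.coe_one]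
  rw [h2, one_mul]
  have h3 : (ModularGroup.T ^ n : SL(2, ℤ)).1 = !![1, (n : ℤ); 0, 1] := by
    have := ModularGroup.coe_T_zpow (n : ℤ)
    simpa using this
  rw [h3]
  simp [Matrix.trace_fin_two]

theorem coc_T_pow_eq_zero {φ : Additive (Gamma0 N) →+ ℂ} (hφ : IsParabolicHom (Gamma0 N) φ) :
    coc N φ (ModularGroup.T ^ N) = 0 := by
  funext x
  rw [coc_apply]
  apply hφ
  have : ((cArg N (ModularGroup.T ^ N) x : Gamma0 N) : SL(2, ℤ))
      = x.out⁻¹ * ModularGroup.T ^ N * x.out := by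
    simp only [cArg, T_pow_inv_smul]
  rw [this, trace_conj_T_pow]
  norm_num

theorem coc'_T_pow_eq_zero {φ : Additive (Gamma0 N) →+ ℂ} (hφ : IsParabolicHom (Gamma0 N) φ)
    (w : Q N → ℂ) : coc' N φ w (ModularGroup.T ^ N) = 0 := by
  rw [coc', coc_T_pow_eq_zero hφ, rho_T_pow, LinearMap.id_apply, sub_self, add_zero]

/-- the norm operator of `T` -/
noncomputable def NT (N : ℕ) : (Q N → ℂ) →ₗ[ℂ] (Q N → ℂ) :=
  ∑ i ∈ Finset.range N, rho N (ModularGroup.T ^ i)

theorem rel_T {φ : Additive (Gamma0 N) →+ ℂ} (hφ : IsParabolicHom (Gamma0 N) φ)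
    (w : Q N → ℂ) : coc' N φ w ModularGroup.T ∈ LinearMap.ker (NT N) := by
  rw [LinearMap.mem_ker, NT, ← (isCoc_coc' φ w).map_T_pow, coc'_T_pow_eq_zero hφ]

theorem disjoint_NT [NeZero N] :
    Disjoint (LinearMap.ker (NT N)) (LinearMap.ker (rho N ModularGroup.T - 1)) := by
  rw [Submodule.disjoint_def]
  intro t h1 h2
  rw [LinearMap.mem_ker] at h1 h2
  have hT : rho N ModularGroup.T t = t := by
    have := h2
    rw [LinearMap.sub_apply, Module.End.one_apply, sub_eq_zero] at this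
    exact this
  have hpow : ∀ i : ℕ, rho N (ModularGroup.T ^ i) t = t := by
    intro i
    induction i with
    | zero => simp [rho_one]
    | succ i ih => rw [pow_succ, rho_mul_apply, hT, ih]
  rw [NT, LinearMap.sum_apply] at h1
  simp only [hpow, Finset.sum_const, Finset.card_range] at h1
  have hN : (N : ℂ) ≠ 0 := Nat.cast_ne_zero.mpr (NeZero.ne N)
  rw [← Nat.cast_smul_eq_nsmul ℂ] at h1
  exact (smul_eq_zero.mp h1).resolve_left hN

end Fermat.Agent.S21_helper9_DIMb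

namespace Fermat.Agent.S21_helper9_DIMb

open Fermat.Agent.S20 Fermat.Agent.S21

/-! ### The count -/

section count

variable (N : ℕ)

/-- `ker (1 + ρ S)` -/
noncomputable abbrev kerS : Submodule ℂ (Q N → ℂ) := LinearMap.ker (1 + rho N ModularGroup.S)

/-- `ker (1 + ρ U + ρ U ^ 2)` -/
noncomputable abbrev kerU : Submodule ℂ (Q N → ℂ) :=
  LinearMap.ker (1 + rho N (ModularGroup.S * ModularGroup.T)
    + rho N (ModularGroup.S * ModularGroup.T) ^ 2)

/-- The space of pairs `(c S, c T)` satisfying the three relations. -/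
noncomputable def Zrel : Submodule ℂ ((Q N → ℂ) × (Q N → ℂ)) :=
  (kerS N).comap (LinearMap.fst ℂ _ _) ⊓
    ((kerU N).comap (LinearMap.fst ℂ _ _ + rho N ModularGroup.S ∘ₗ LinearMap.snd ℂ _ _) ⊓
      (LinearMap.ker (NT N)).comap (LinearMap.snd ℂ _ _))

variable {N}

theorem mem_Zrel {z : (Q N → ℂ) × (Q N → ℂ)} :
    z ∈ Zrel N ↔ z.1 ∈ kerS N ∧ z.1 + rho N ModularGroup.S z.2 ∈ kerU N ∧
      z.2 ∈ LinearMap.ker (NT N) := by
  simp only [Zrel, Submodule.mem_inf, Submodule.mem_comap, LinearMap.fst_apply,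
    LinearMap.add_apply, LinearMap.comp_apply, LinearMap.snd_apply]

variable (N) in
theorem finrank_Zrel_le [NeZero N] :
    Module.finrank ℂ (Zrel N) ≤
      Module.finrank ℂ (LinearMap.ker (NT N)) + Module.finrank ℂ ↥(kerS N ⊓ kerU N) := by
  set f : Zrel N →ₗ[ℂ] (Q N → ℂ) := LinearMap.snd ℂ _ _ ∘ₗ (Zrel N).subtype with hf
  have h1 := LinearMap.finrank_range_add_finrank_ker f
  have h2 : Module.finrank ℂ (LinearMap.range f) ≤ Module.finrank ℂ (LinearMap.ker (NT N)) := by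
    apply Submodule.finrank_mono
    rintro _ ⟨z, rfl⟩
    exact (mem_Zrel.mp z.2).2.2
  set g : LinearMap.ker f →ₗ[ℂ] (Q N → ℂ) :=
    LinearMap.fst ℂ _ _ ∘ₗ (Zrel N).subtype ∘ₗ (LinearMap.ker f).subtype with hg
  have hginj : Function.Injective g := by
    rw [injective_iff_map_eq_zero]
    intro z hz
    have hz2 : (z.1.1).2 = 0 := LinearMap.mem_ker.mp z.2
    have hz1 : (z.1.1).1 = 0 := hz
    apply Subtype.ext
    apply Subtype.ext
    exact Prod.ext hz1 hz2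
  have h3 : Module.finrank ℂ (LinearMap.ker f) ≤ Module.finrank ℂ ↥(kerS N ⊓ kerU N) := by
    rw [← LinearMap.finrank_range_of_inj hginj]
    apply Submodule.finrank_mono
    rintro _ ⟨z, rfl⟩
    have hz2 : (z.1.1).2 = 0 := LinearMap.mem_ker.mp z.2
    have hz := mem_Zrel.mp z.1.2
    refine ⟨hz.1, ?_⟩
    have := hz.2.1
    rw [hz2, map_zero, add_zero] at this
    exact this
  omega

/-- The map `(φ, w) ↦ (c S, c T)` for the modified Shapiro cocycle `c = coc' φ w`. -/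
noncomputable def Theta (N : ℕ) :
    (parabolicHoms ℂ (Gamma0 N) ℂ × (Q N → ℂ)) →ₗ[ℂ] (Q N → ℂ) × (Q N → ℂ) :=
  LinearMap.prod
    ((cocL N ModularGroup.S ∘ₗ (parabolicHoms ℂ (Gamma0 N) ℂ).subtype) ∘ₗ LinearMap.fst ℂ _ _
      + (rho N ModularGroup.S - 1) ∘ₗ LinearMap.snd ℂ _ _)
    ((cocL N ModularGroup.T ∘ₗ (parabolicHoms ℂ (Gamma0 N) ℂ).subtype) ∘ₗ LinearMap.fst ℂ _ _
      + (rho N ModularGroup.T - 1) ∘ₗ LinearMap.snd ℂ _ _)

theorem Theta_apply (z : parabolicHoms ℂ (Gamma0 N) ℂ × (Q N → ℂ)) :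
    Theta N z = (coc' N z.1.1 z.2 ModularGroup.S, coc' N z.1.1 z.2 ModularGroup.T) := by
  simp [Theta, coc', cocL_apply]

theorem range_Theta_le : LinearMap.range (Theta N) ≤ Zrel N := by
  rintro _ ⟨z, rfl⟩
  rw [Theta_apply, mem_Zrel]
  exact ⟨(isCoc_coc' z.1.1 z.2).rel_S, (isCoc_coc' z.1.1 z.2).rel_U, rel_T z.1.2 z.2⟩

theorem finrank_ker_Theta_le [NeZero N] : Module.finrank ℂ (LinearMap.ker (Theta N)) ≤ 1 := by
  have hfin := finite_parabolicHoms N
  set e : LinearMap.ker (Theta N) →ₗ[ℂ] ℂ :=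
    (LinearMap.proj ((1 : SL(2, ℤ)) : Q N) : (Q N → ℂ) →ₗ[ℂ] ℂ) ∘ₗ LinearMap.snd ℂ _ _ ∘ₗ
      (LinearMap.ker (Theta N)).subtype with he
  have hinj : Function.Injective e := by
    rw [injective_iff_map_eq_zero]
    intro z hz
    have hz0 : (z.1).2 ((1 : SL(2, ℤ)) : Q N) = 0 := hz
    have hker : Theta N z.1 = 0 := LinearMap.mem_ker.mp z.2
    rw [Theta_apply, Prod.mk_eq_zero] at hker
    obtain ⟨hφ, hw⟩ := kernel_aux _ _ hker.1 hker.2
    apply Subtype.ext
    refine Prod.ext (Subtype.ext hφ) ?_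
    funext x
    rw [hw x, hz0]
    rfl
  have := LinearMap.finrank_le_finrank_of_injective hinj
  simpa using this

theorem finrank_parabolicHoms_le (N : ℕ) [NeZero N] :
    6 * Module.finrank ℂ (parabolicHoms ℂ (Gamma0 N) ℂ) + 3 * nu2 N + 4 * nu3 N + 6 * cusps N
      ≤ 12 + mu N := by
  have hfin := finite_parabolicHoms N
  -- rank-nullity for `Theta`
  have h1 := LinearMap.finrank_range_add_finrank_ker (Theta N)
  have h2 : Module.finrank ℂ (LinearMap.range (Theta N)) ≤ Module.finrank ℂ (Zrel N) :=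
    Submodule.finrank_mono range_Theta_le
  have h3 := finrank_ker_Theta_le (N := N)
  have h4 := finrank_Zrel_le N
  have h5 : Module.finrank ℂ (parabolicHoms ℂ (Gamma0 N) ℂ × (Q N → ℂ))
      = Module.finrank ℂ (parabolicHoms ℂ (Gamma0 N) ℂ) + mu N := by
    rw [Module.finrank_prod, Module.finrank_fintype_fun_eq_card, mu, Nat.card_eq_fintype_card]
  -- the kernel of the norm of `T`
  have h6 : Module.finrank ℂ (LinearMap.ker (NT N)) + cusps N ≤ mu N := by
    have hd := disjoint_NT (N := N)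
    have hsum := Submodule.finrank_sup_add_finrank_inf_eq (LinearMap.ker (NT N))
      (LinearMap.ker (rho N ModularGroup.T - 1))
    rw [hd.eq_bot, finrank_bot, add_zero,
      Fermat.Agent.S21_helper25_DIMa3.finrank_ker_T N] at hsum
    have hle := Submodule.finrank_le
      (LinearMap.ker (NT N) ⊔ LinearMap.ker (rho N ModularGroup.T - 1))
    rw [Module.finrank_fintype_fun_eq_card, ← Nat.card_eq_fintype_card] at hle
    rw [← hsum]
    exact hle
  have h7 := Submodule.finrank_sup_add_finrank_inf_eq (kerS N) (kerU N)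
  have h8 : 2 * Module.finrank ℂ (kerS N) + nu2 N = mu N :=
    Fermat.Agent.S21_helper4_DIMa1.finrank_ker_S N
  have h9 : 3 * Module.finrank ℂ (kerU N) + 2 * nu3 N = 2 * mu N :=
    Fermat.Agent.S21_helper17_DIMa2.finrank_ker_U N
  have h10 : mu N ≤ Module.finrank ℂ ↥(kerS N ⊔ kerU N) + 1 :=
    Fermat.Agent.S21_helper15_DIMa4.finrank_sup_ge N
  omega

end count

end Fermat.Agent.S21_helper9_DIMb
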