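import Fermat.Agent.S22_Phi

set_option autoImplicit false

namespace Fermat.Agent.S22

open Complex Filter Topology UpperHalfPlane

noncomputable section

/-- action of real matrices on pairs of complex numbers -/
def vact (g : GL (Fin 2) ℝ) (w : ℂ × ℂ) : ℂ × ℂ :=
  (((g 0 0 : ℝ) : ℂ) * w.1 + ((g 0 1 : ℝ) : ℂ) * w.2,
   ((g 1 0 : ℝ) : ℂ) * w.1 + ((g 1 1 : ℝ) : ℂ) * w.2)

theorem vact_one (w : ℂ × ℂ) : vact 1 w = w := by
  simp [vact]

theorem vact_mul (g h : GL (Fin 2) ℝ) (w : ℂ × ℂ) : vact (g * h) w = vact g (vact h w) := by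
  simp only [vact, Matrix.GeneralLinearGroup.coe_mul, Matrix.mul_apply, Fin.sum_univ_two]
  push_cast
  ext <;> simp <;> ring

theorem det_eq_entries (g : GL (Fin 2) ℝ) :
    (g.det.val : ℝ) = g 0 0 * g 1 1 - g 0 1 * g 1 0 := by
  rw [Matrix.GeneralLinearGroup.val_det_apply, Matrix.det_fin_two]

theorem moebius_im_pos (g : GL (Fin 2) ℝ) (hg : 0 < g.det.val) {z : ℂ} (hz : 0 < z.im) :
    0 < (num g z / denom g z).im := by
  rw [moebius_im]
  have := normSq_denom_pos g hz.ne'
  positivity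

theorem hasDerivAt_moebius (g : GL (Fin 2) ℝ) {z : ℂ} (hz : 0 < z.im) :
    HasDerivAt (fun z => num g z / denom g z) ((g.det.val : ℂ) / (denom g z) ^ 2) z := by
  have hne : denom g z ≠ 0 := denom_ne_zero_of_im g hz.ne'
  have hnum : HasDerivAt (fun z => num g z) ((g 0 0 : ℝ) : ℂ) z := by
    unfold num
    simpa using ((hasDerivAt_id z).const_mul ((g 0 0 : ℝ) : ℂ)).add_const ((g 0 1 : ℝ) : ℂ)
  have hden : HasDerivAt (fun z => denom g z) ((g 1 0 : ℝ) : ℂ) z := by
    unfold denom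
    simpa using ((hasDerivAt_id z).const_mul ((g 1 0 : ℝ) : ℂ)).add_const ((g 1 1 : ℝ) : ℂ)
  refine (hnum.div hden hne).congr_deriv ?_
  rw [det_eq_entries]
  unfold num denom
  push_cast
  ring

theorem hasDerivAt_Phi_comp {a : ℕ → ℂ} (ha : PolyGrowth a) (m : ℕ) (g : GL (Fin 2) ℝ)
    (hg : 0 < g.det.val) (w : ℂ × ℂ) {z : ℂ} (hz : 0 < z.im) :
    HasDerivAt (fun z => Phi a m (num g z / denom g z) (vact g w).1 (vact g w).2)
      (eis a 0 (num g z / denom g z) * (g.det.val : ℂ) ^ (m + 1) * ((denom g z) ^ (m + 2))⁻¹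
        * (w.1 - z * w.2) ^ m) z := by
  have hne : denom g z ≠ 0 := denom_ne_zero_of_im g hz.ne'
  have h1 := hasDerivAt_Phi ha m (vact g w).1 (vact g w).2 (moebius_im_pos g hg hz)
  have h2 := hasDerivAt_moebius g hz
  have h3 := HasDerivAt.comp z h1 h2
  refine h3.congr_deriv ?_
  have key : (vact g w).1 - num g z / denom g z * (vact g w).2
      = (g.det.val : ℂ) * (w.1 - z * w.2) / denom g z := by
    have hD : num g z / denom g z * denom g z = num g z := div_mul_cancel₀ _ hne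
    rw [eq_div_iff hne, det_eq_entries]
    generalize num g z / denom g z = e at hD ⊢
    unfold num denom at hD
    unfold vact denom
    push_cast
    linear_combination (-(((g 1 0 : ℝ) : ℂ) * w.1 + ((g 1 1 : ℝ) : ℂ) * w.2)) * hD
  rw [key, div_pow, mul_pow]
  field_simp
  ring

end

end Fermat.Agent.S22
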