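import Mathlib

set_option autoImplicit false

namespace Fermat.Agent.S22

open Complex Filter Topology Function
open UpperHalfPlane hiding I
open scoped Manifold

noncomputable section

local notation "I∞" => comap Complex.im atTop
local notation "𝕢" => Function.Periodic.qParam

theorem abs_re_invQParam_le {h : ℝ} (hh : 0 < h) (q : ℂ) :
    |(Function.Periodic.invQParam h q).re| ≤ h := by
  unfold Function.Periodic.invQParam
  have h1 : (h / (2 * Real.pi * I) * Complex.log q) = ((h / (2 * Real.pi) : ℝ) : ℂ) * (-I * Complex.log q) := by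
    push_cast
    field_simp
    ring_nf
    simp [Complex.I_sq]
  rw [h1, Complex.re_ofReal_mul]
  have h2 : (-I * Complex.log q).re = (Complex.log q).im := by simp
  rw [h2, Complex.log_im, abs_mul]
  have h3 : |h / (2 * Real.pi)| = h / (2 * Real.pi) := abs_of_pos (by positivity)
  rw [h3]
  have h4 : |Complex.arg q| ≤ Real.pi := Complex.abs_arg_le_pi q
  have hpi := Real.pi_pos
  calc h / (2 * Real.pi) * |Complex.arg q| ≤ h / (2 * Real.pi) * Real.pi := by gcongr
    _ = h / 2 := by field_simp
    _ ≤ h := by linarith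

theorem tendsto_pow_mul_exp_neg_mul (A : ℕ) {c : ℝ} (hc : 0 < c) :
    Tendsto (fun y : ℝ => y ^ A * Real.exp (-(c * y))) atTop (𝓝 0) := by
  have h1 := (Real.tendsto_pow_mul_exp_neg_atTop_nhds_zero A).comp
    (tendsto_id.const_mul_atTop hc)
  have h2 := h1.const_mul ((c ^ A)⁻¹)
  rw [mul_zero] at h2
  refine h2.congr fun y => ?_
  simp only [Function.comp_apply, id_eq, mul_pow]
  have : c ^ A ≠ 0 := by positivity
  field_simp

theorem boundedAtFilter_of_growth {h : ℝ} {f : ℂ → ℂ} (hh : 0 < h) (hf : Periodic f h)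
    (h_hol : ∀ᶠ z in I∞, DifferentiableAt ℂ f z) {K : ℝ} {A : ℕ}
    (hgrow : ∀ z : ℂ, 1 ≤ z.im → |z.re| ≤ h → ‖f z‖ ≤ K * z.im ^ A) :
    BoundedAtFilter I∞ f := by
  set c := Function.Periodic.cuspFunction h f with hc
  have hdiff := Function.Periodic.eventually_differentiableAt_cuspFunction_nhds_ne_zero hh hf h_hol
  have him : Tendsto (fun q => (Function.Periodic.invQParam h q).im) (𝓝[≠] 0) atTop := by
    have := Function.Periodic.invQParam_tendsto hh
    rw [tendsto_comap_iff] at this
    exact this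
  -- the key estimate
  have hest : ∀ᶠ q in 𝓝[≠] (0 : ℂ), ‖c q‖ * ‖q‖ ≤
      K * ((Function.Periodic.invQParam h q).im ^ A
        * Real.exp (-(2 * Real.pi / h * (Function.Periodic.invQParam h q).im))) := by
    filter_upwards [him.eventually (eventually_ge_atTop 1), self_mem_nhdsWithin] with q hq1 hq0
    have hq0' : q ≠ 0 := hq0
    have e1 : c q = f (Function.Periodic.invQParam h q) :=
      Function.Periodic.cuspFunction_eq_of_nonzero h f hq0'
    have e2 : ‖q‖ = Real.exp (-(2 * Real.pi / h * (Function.Periodic.invQParam h q).im)) := by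
      conv_lhs => rw [← Function.Periodic.qParam_right_inv hh.ne' hq0']
      rw [Function.Periodic.norm_qParam]
      congr 1
      ring
    rw [e1, e2]
    have := hgrow _ hq1 (abs_re_invQParam_le hh q)
    calc ‖f (Function.Periodic.invQParam h q)‖ *
          Real.exp (-(2 * Real.pi / h * (Function.Periodic.invQParam h q).im))
        ≤ K * (Function.Periodic.invQParam h q).im ^ A *
          Real.exp (-(2 * Real.pi / h * (Function.Periodic.invQParam h q).im)) := by gcongr
      _ = _ := by ring
  have hlim1 : Tendsto (fun q : ℂ => ‖c q‖ * ‖q‖) (𝓝[≠] 0) (𝓝 0) := by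
    have hpos : 0 < 2 * Real.pi / h := by positivity
    have h1 := ((tendsto_pow_mul_exp_neg_mul A hpos).comp him).const_mul K
    rw [mul_zero] at h1
    refine squeeze_zero' (Eventually.of_forall fun q => by positivity) hest h1
  have hlim2 : Tendsto (fun q : ℂ => ‖c 0‖ * ‖q‖) (𝓝[≠] 0) (𝓝 0) := by
    have : Tendsto (fun q : ℂ => ‖q‖) (𝓝[≠] 0) (𝓝 0) :=
      tendsto_nhdsWithin_of_tendsto_nhds (by simpa using (continuous_norm (E := ℂ)).tendsto 0)
    simpa using this.const_mul ‖c 0‖
  have hlittle : (fun q => c q - c 0) =o[𝓝[≠] 0] fun q => (q - 0)⁻¹ := by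
    refine Asymptotics.isLittleO_of_tendsto' ?_ ?_
    · filter_upwards [self_mem_nhdsWithin] with q hq hq'
      simp only [sub_zero, inv_eq_zero] at hq'
      exact absurd hq' hq
    · simp only [sub_zero, div_inv_eq_mul]
      rw [tendsto_zero_iff_norm_tendsto_zero]
      have h3 := hlim1.add hlim2
      rw [add_zero] at h3
      refine squeeze_zero' (Eventually.of_forall fun q => norm_nonneg _)
        (Eventually.of_forall fun q => ?_) h3
      rw [norm_mul, ← add_mul]
      gcongr
      exact norm_sub_le _ _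
  obtain ⟨S, hS1, hS2, hS3⟩ := eventually_nhds_iff.mp (eventually_nhdsWithin_iff.mp hdiff)
  have h_diff : DifferentiableOn ℂ c (S \ {0}) :=
    fun x hx => (hS1 x hx.1 hx.2).differentiableWithinAt
  have hd := differentiableOn_update_limUnder_of_isLittleO (IsOpen.mem_nhds hS2 hS3) h_diff hlittle
  rw [hc, ← Function.Periodic.cuspFunction_zero_eq_limUnder_nhds_ne, update_eq_self] at hd
  have hcont : ContinuousAt (Function.Periodic.cuspFunction h f) 0 :=
    (hd.differentiableAt (IsOpen.mem_nhds hS2 hS3)).continuousAt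
  have hbd : BoundedAtFilter (𝓝 (0 : ℂ)) (Function.Periodic.cuspFunction h f) :=
    hcont.tendsto.isBigO_one ℝ
  have hbd2 : BoundedAtFilter (𝓝[≠] (0 : ℂ)) (Function.Periodic.cuspFunction h f) :=
    hbd.mono nhdsWithin_le_nhds
  have := hbd2.comp_tendsto (Function.Periodic.qParam_tendsto hh)
  refine this.congr' ?_ (by simp)
  exact Eventually.of_forall fun z => Function.Periodic.eq_cuspFunction hh.ne' hf z

theorem isBoundedAtImInfty_of_growth {h : ℝ} {F : ℍ → ℂ} (hh : 0 < h)
    (hper : Periodic (F ∘ ofComplex) h) (hol : MDiff F) {K : ℝ} {A : ℕ}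
    (hgrow : ∀ τ : ℍ, 1 ≤ τ.im → |τ.re| ≤ h → ‖F τ‖ ≤ K * τ.im ^ A) :
    IsBoundedAtImInfty F := by
  have hopen : IsOpen {z : ℂ | 0 < z.im} := isOpen_lt continuous_const Complex.continuous_im
  have hdo := UpperHalfPlane.mdifferentiable_iff.mp hol
  have h_hol : ∀ᶠ z in I∞, DifferentiableAt ℂ (F ∘ ofComplex) z := by
    have : ∀ᶠ z in I∞, (1 : ℝ) ≤ z.im :=
      (tendsto_comap (f := Complex.im) (x := atTop)).eventually (eventually_ge_atTop 1)
    filter_upwards [this] with z hz
    exact (hdo z (by show 0 < z.im; linarith)).differentiableAt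
      (hopen.mem_nhds (by show 0 < z.im; linarith))
  have hg : ∀ z : ℂ, 1 ≤ z.im → |z.re| ≤ h → ‖(F ∘ ofComplex) z‖ ≤ K * z.im ^ A := by
    intro z hz1 hz2
    have hz0 : 0 < z.im := by linarith
    simp only [Function.comp_apply, ofComplex_apply_of_im_pos hz0]
    exact hgrow ⟨z, hz0⟩ hz1 hz2
  have hb := boundedAtFilter_of_growth hh hper h_hol hg
  have := hb.comp_tendsto tendsto_coe_atImInfty
  refine this.congr' ?_ (by simp)
  exact Eventually.of_forall fun τ => by simp

end

end Fermat.Agent.S22
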