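import Fermat.Agent.S22_Period
import Fermat.Agent.S22_Cusp
import Fermat.Prelude.Thm_Subgroup_IsArithmetic_exists_nat_mem_strictPeriods_conj

set_option autoImplicit false

namespace Fermat.Agent.S22

open Complex Filter Topology
open UpperHalfPlane hiding I
open scoped MatrixGroups ModularForm Manifold Pointwise

noncomputable section

local notation "Γ₀(" N ")" => CongruenceSubgroup.Gamma0 N

variable {N : ℕ} {k : ℤ}

theorem exists_poly_Phi (a : ℕ → ℂ) (m : ℕ) (z p q r s : ℂ) :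
    ∃ P : Polynomial ℂ, ∀ u : ℂ, P.eval u = Phi a m z (p * u + q) (r * u + s) := by
  refine ⟨∑ j ∈ Finset.range (m + 1), Polynomial.C (m.descFactorial j : ℂ)
    * (Polynomial.C p * Polynomial.X + Polynomial.C q
        - Polynomial.C z * (Polynomial.C r * Polynomial.X + Polynomial.C s)) ^ (m - j)
    * (Polynomial.C r * Polynomial.X + Polynomial.C s) ^ j
    * Polynomial.C (eis a (j + 1) z), fun u => ?_⟩
  simp [Phi, Polynomial.eval_finsetSum]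

theorem per_eq_zero_of_int (m : ℕ) (f : CuspForm Γ₀(N) k) (g : GL (Fin 2) ℝ)
    (H : ∀ n : ℤ, per m f g ((n : ℂ), 1) = 0) (u : ℂ) : per m f g (u, 1) = 0 := by
  obtain ⟨P1, hP1⟩ := exists_poly_Phi (coeffs f) m ((g • UpperHalfPlane.I : ℍ) : ℂ)
    ((g 0 0 : ℝ) : ℂ) ((g 0 1 : ℝ) : ℂ) ((g 1 0 : ℝ) : ℂ) ((g 1 1 : ℝ) : ℂ)
  obtain ⟨P2, hP2⟩ := exists_poly_Phi (coeffs f) m ((UpperHalfPlane.I : ℍ) : ℂ) 1 0 0 1
  have hper : ∀ u : ℂ, per m f g (u, 1) = (P1 - P2).eval u := by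
    intro u
    rw [Polynomial.eval_sub, hP1, hP2]
    simp [per, Xi, PhiH, vact]
  have hzero : P1 - P2 = 0 := by
    apply Polynomial.eq_zero_of_infinite_isRoot
    have hinf : (Set.range (fun n : ℤ => (n : ℂ))).Infinite :=
      Set.infinite_range_of_injective Int.cast_injective
    refine hinf.mono ?_
    rintro _ ⟨n, rfl⟩
    show (P1 - P2).eval (n : ℂ) = 0
    rw [← hper, H]
  rw [hper, hzero, Polynomial.eval_zero]

/-- the Eichler integral of `f` -/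
def eisH (m : ℕ) (f : CuspForm Γ₀(N) k) : ℍ → ℂ := fun τ => eis (coeffs f) (m + 1) (τ : ℂ)

theorem eis_automorphy [NeZero N] (m : ℕ) (hk : k = m + 2) (f : CuspForm Γ₀(N) k)
    {g : GL (Fin 2) ℝ} (hg : g ∈ Subgroup.map (Matrix.SpecialLinearGroup.mapGL ℝ) Γ₀(N))
    (H : ∀ u : ℂ, per m f g (u, 1) = 0) (τ : ℍ) :
    eisH m f (g • τ) * (denom g τ) ^ m = eisH m f τ := by
  have hdet := det_pos_of_mem hg
  have h1 := Xi_sub_PhiH_const m hk f hdet (slash_eq_of_mem f hg) ((τ : ℂ), 1) τ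
  rw [H, sub_eq_zero] at h1
  have hne : denom g τ ≠ 0 := denom_ne_zero g τ
  have h2 : PhiH m f τ ((τ : ℂ), 1) = (m.factorial : ℂ) * eisH m f τ := by
    simp only [PhiH, eisH]
    exact Phi_diag _ _ _
  have h3 : Xi m f g τ ((τ : ℂ), 1) = (denom g τ) ^ m * ((m.factorial : ℂ) * eisH m f (g • τ)) := by
    simp only [Xi, PhiH, eisH, vact]
    rw [← Phi_diag, ← Phi_homog]
    congr 1
    · rw [coe_smul_of_det_pos hdet, mul_div_cancel₀ _ hne]
      simp [num]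
    · simp [denom]
  rw [h2, h3] at h1
  have hm : (m.factorial : ℂ) ≠ 0 := by exact_mod_cast m.factorial_ne_zero
  have h4 : (m.factorial : ℂ) * (eisH m f (g • τ) * denom g τ ^ m)
      = (m.factorial : ℂ) * eisH m f τ := by
    rw [← h1]; ring
  exact mul_left_cancel₀ hm h4

theorem eisH_slash [NeZero N] (m : ℕ) (hk : k = m + 2) (f : CuspForm Γ₀(N) k)
    (H : ∀ g ∈ Subgroup.map (Matrix.SpecialLinearGroup.mapGL ℝ) Γ₀(N),
      ∀ u : ℂ, per m f g (u, 1) = 0)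
    (g : GL (Fin 2) ℝ) (hg : g ∈ Subgroup.map (Matrix.SpecialLinearGroup.mapGL ℝ) Γ₀(N)) :
    eisH m f ∣[(-(m : ℤ))] g = eisH m f := by
  have hauto := eis_automorphy m hk f hg (H g hg)
  obtain ⟨γ, -, rfl⟩ := hg
  ext τ
  have h1 : (eisH m f ∣[-(m : ℤ)] (Matrix.SpecialLinearGroup.mapGL ℝ γ)) τ
      = eisH m f (Matrix.SpecialLinearGroup.mapGL ℝ γ • τ)
        * denom (Matrix.SpecialLinearGroup.mapGL ℝ γ) τ ^ (-(-(m : ℤ))) :=
    ModularForm.SL_slash_apply (f := eisH m f) (k := -(m : ℤ)) γ τ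
  rw [h1, neg_neg, zpow_natCast]
  exact hauto τ

theorem eisH_mdiff [NeZero N] (m : ℕ) (f : CuspForm Γ₀(N) k) : MDiff (eisH m f) := by
  rw [UpperHalfPlane.mdifferentiable_iff]
  have hopen : IsOpen {z : ℂ | 0 < z.im} := isOpen_lt continuous_const Complex.continuous_im
  intro z hz
  have hz' : 0 < z.im := hz
  have h1 : DifferentiableAt ℂ (eis (coeffs f) (m + 1)) z :=
    (hasDerivAt_eis (coeffs_polyGrowth f) m hz').differentiableAt
  refine (h1.congr_of_eventuallyEq ?_).differentiableWithinAt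
  filter_upwards [hopen.mem_nhds hz'] with w hw
  have hw' : 0 < w.im := hw
  simp [eisH, Function.comp_apply, ofComplex_apply_of_im_pos hw']

theorem norm_eisH_le [NeZero N] (m : ℕ) (f : CuspForm Γ₀(N) k) (τ : ℍ) :
    ‖eisH m f τ‖ ≤ maj (coeffs f) τ.im :=
  norm_eis_le_maj (coeffs_polyGrowth f) (m + 1) τ.im_pos

theorem eisH_isZeroAtImInfty [NeZero N] (m : ℕ) (f : CuspForm Γ₀(N) k) :
    IsZeroAtImInfty (eisH m f) := by
  rw [isZeroAtImInfty_iff]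
  intro ε hε
  have hlim : Tendsto (fun y : ℝ => maj (coeffs f) 1 * Real.exp (-(2 * Real.pi * (y - 1))))
      atTop (𝓝 0) := by
    have h1 : Tendsto (fun y : ℝ => -(2 * Real.pi * (y - 1))) atTop atBot := by
      apply tendsto_neg_atTop_atBot.comp
      apply Tendsto.const_mul_atTop (by positivity)
      exact tendsto_atTop_add_const_right _ _ tendsto_id
    simpa using (Real.tendsto_exp_atBot.comp h1).const_mul (maj (coeffs f) 1)
  have hev := hlim.eventually (eventually_lt_nhds hε)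
  obtain ⟨A, hA⟩ := (hev.and (eventually_ge_atTop 1)).exists_forall_of_atTop
  refine ⟨A, fun τ hτ => ?_⟩
  obtain ⟨h1, h2⟩ := hA τ.im hτ
  exact ((norm_eisH_le m f τ).trans (maj_decay (coeffs_polyGrowth f) h2)).trans h1.le

theorem norm_denom_le (σ : SL(2, ℤ)) (M : ℝ) (τ : ℍ) (h1 : 1 ≤ τ.im) (h2 : |τ.re| ≤ M) :
    ‖denom (Matrix.SpecialLinearGroup.mapGL ℝ σ) τ‖
      ≤ ((|((σ 1 0 : ℤ) : ℝ)| + |((σ 1 1 : ℤ) : ℝ)|) * (M + 2)) * τ.im := by
  have hM : 0 ≤ M := (abs_nonneg _).trans h2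
  have hτ : ‖(τ : ℂ)‖ ≤ M + τ.im := by
    calc ‖(τ : ℂ)‖ ≤ |(τ : ℂ).re| + |(τ : ℂ).im| := Complex.norm_le_abs_re_add_abs_im _
      _ ≤ M + τ.im := by
          have : |(τ : ℂ).im| = τ.im := abs_of_pos τ.im_pos
          have h3 : |(τ : ℂ).re| ≤ M := h2
          linarith
  have e : denom (Matrix.SpecialLinearGroup.mapGL ℝ σ) τ
      = (((σ 1 0 : ℤ) : ℝ) : ℂ) * τ + (((σ 1 1 : ℤ) : ℝ) : ℂ) := by
    simp [denom]
  rw [e]
  set c := |((σ 1 0 : ℤ) : ℝ)| with hc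
  set d := |((σ 1 1 : ℤ) : ℝ)| with hd
  have hc0 : 0 ≤ c := abs_nonneg _
  have hd0 : 0 ≤ d := abs_nonneg _
  calc ‖(((σ 1 0 : ℤ) : ℝ) : ℂ) * τ + (((σ 1 1 : ℤ) : ℝ) : ℂ)‖
      ≤ ‖(((σ 1 0 : ℤ) : ℝ) : ℂ) * τ‖ + ‖(((σ 1 1 : ℤ) : ℝ) : ℂ)‖ := norm_add_le _ _
    _ = c * ‖(τ : ℂ)‖ + d := by
        rw [norm_mul, Complex.norm_real, Complex.norm_real, Real.norm_eq_abs, Real.norm_eq_abs]
    _ ≤ c * (M + τ.im) + d := by gcongr
    _ ≤ (c + d) * (M + 2) * τ.im := by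
        nlinarith [mul_nonneg hc0 hM, mul_nonneg hd0 hM, mul_nonneg hc0 (sub_nonneg.mpr h1),
          mul_nonneg hd0 (sub_nonneg.mpr h1), mul_nonneg (mul_nonneg hc0 hM) (sub_nonneg.mpr h1),
          mul_nonneg (mul_nonneg hd0 hM) (sub_nonneg.mpr h1)]

theorem eisH_slash_growth [NeZero N] (m : ℕ) (f : CuspForm Γ₀(N) k) (σ : SL(2, ℤ)) (M : ℝ) :
    ∃ (K : ℝ) (A : ℕ), ∀ τ : ℍ, 1 ≤ τ.im → |τ.re| ≤ M →
      ‖(eisH m f ∣[-(m : ℤ)] (Matrix.SpecialLinearGroup.mapGL ℝ σ)) τ‖ ≤ K * τ.im ^ A := by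
  obtain ⟨K, B, hK0, hK⟩ := maj_poly (coeffs_polyGrowth f)
  set C₁ : ℝ := (|((σ 1 0 : ℤ) : ℝ)| + |((σ 1 1 : ℤ) : ℝ)|) * (M + 2) with hC₁
  refine ⟨2 * K * (1 + C₁ ^ 2) ^ (B + 1 + m), B + 1 + m, fun τ h1 h2 => ?_⟩
  have hM : 0 ≤ M := (abs_nonneg _).trans h2
  have hC₁0 : 0 ≤ C₁ := by rw [hC₁]; positivity
  have hy : 0 < τ.im := τ.im_pos
  set dn := denom (Matrix.SpecialLinearGroup.mapGL ℝ σ) τ with hdn
  have hdnle : ‖dn‖ ≤ C₁ * τ.im := norm_denom_le σ M τ h1 h2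
  have hdn0 : dn ≠ 0 := denom_ne_zero _ τ
  have hdnpos : 0 < ‖dn‖ := norm_pos_iff.mpr hdn0
  have e1 : (eisH m f ∣[-(m : ℤ)] (Matrix.SpecialLinearGroup.mapGL ℝ σ)) τ
      = eisH m f (Matrix.SpecialLinearGroup.mapGL ℝ σ • τ) * dn ^ m := by
    have h1 : (eisH m f ∣[-(m : ℤ)] (Matrix.SpecialLinearGroup.mapGL ℝ σ)) τ
        = eisH m f (Matrix.SpecialLinearGroup.mapGL ℝ σ • τ)
          * denom (Matrix.SpecialLinearGroup.mapGL ℝ σ) τ ^ (-(-(m : ℤ))) :=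
      ModularForm.SL_slash_apply (f := eisH m f) (k := -(m : ℤ)) σ τ
    rw [h1, neg_neg, zpow_natCast]
  set E : ℝ := (1 + C₁ ^ 2) * τ.im with hE
  have hE1 : 1 ≤ E := by
    rw [hE]
    nlinarith [sq_nonneg C₁, mul_nonneg (sq_nonneg C₁) hy.le]
  have hE0 : 0 ≤ E := by linarith
  have him : (Matrix.SpecialLinearGroup.mapGL ℝ σ • τ).im = τ.im / Complex.normSq dn :=
    ModularGroup.im_smul_eq_div_normSq σ τ
  have hinv : ((Matrix.SpecialLinearGroup.mapGL ℝ σ • τ).im)⁻¹ ≤ E := by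
    rw [him, inv_div, Complex.normSq_eq_norm_sq, div_le_iff₀ hy, hE]
    have : ‖dn‖ ^ 2 ≤ (C₁ * τ.im) ^ 2 := pow_le_pow_left₀ hdnpos.le hdnle 2
    nlinarith [mul_nonneg hy.le hy.le]
  have hinv0 : 0 ≤ ((Matrix.SpecialLinearGroup.mapGL ℝ σ • τ).im)⁻¹ :=
    inv_nonneg.mpr (UpperHalfPlane.im_pos _).le
  have hmaj := (norm_eisH_le m f (Matrix.SpecialLinearGroup.mapGL ℝ σ • τ)).trans
    (hK _ (UpperHalfPlane.im_pos _))
  have hsum : ((Matrix.SpecialLinearGroup.mapGL ℝ σ • τ).im)⁻¹ ^ B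
      + ((Matrix.SpecialLinearGroup.mapGL ℝ σ • τ).im)⁻¹ ^ (B + 1) ≤ 2 * E ^ (B + 1) := by
    have a1 : ((Matrix.SpecialLinearGroup.mapGL ℝ σ • τ).im)⁻¹ ^ B ≤ E ^ B :=
      pow_le_pow_left₀ hinv0 hinv B
    have a2 : ((Matrix.SpecialLinearGroup.mapGL ℝ σ • τ).im)⁻¹ ^ (B + 1) ≤ E ^ (B + 1) :=
      pow_le_pow_left₀ hinv0 hinv (B + 1)
    have a3 : E ^ B ≤ E ^ (B + 1) := pow_le_pow_right₀ hE1 (Nat.le_succ B)
    linarith
  have hdnm : ‖dn‖ ^ m ≤ E ^ m := by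
    apply pow_le_pow_left₀ hdnpos.le
    rw [hE]
    nlinarith [sq_nonneg (C₁ - 1), mul_nonneg (sq_nonneg (C₁ - 1)) hy.le, sq_nonneg C₁]
  rw [e1, norm_mul, norm_pow]
  calc ‖eisH m f (Matrix.SpecialLinearGroup.mapGL ℝ σ • τ)‖ * ‖dn‖ ^ m
      ≤ (K * (2 * E ^ (B + 1))) * E ^ m := by
        gcongr
        exact hmaj.trans (by gcongr)
    _ = 2 * K * (1 + C₁ ^ 2) ^ (B + 1 + m) * τ.im ^ (B + 1 + m) := by
        rw [hE]
        generalize (1 + C₁ ^ 2) = a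
        rw [mul_pow, mul_pow, pow_add a, pow_add τ.im]
        ring

/-- The Eichler integral as a slash-invariant form of weight `-m`. -/
def eisSIF [NeZero N] (m : ℕ) (hk : k = m + 2) (f : CuspForm Γ₀(N) k)
    (H : ∀ g ∈ Subgroup.map (Matrix.SpecialLinearGroup.mapGL ℝ) Γ₀(N),
      ∀ u : ℂ, per m f g (u, 1) = 0) :
    SlashInvariantForm (Subgroup.map (Matrix.SpecialLinearGroup.mapGL ℝ) Γ₀(N)) (-(m : ℤ)) where
  toFun := eisH m f
  slash_action_eq' := eisH_slash m hk f H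

theorem eisH_slash_bdd [NeZero N] (m : ℕ) (hk : k = m + 2) (f : CuspForm Γ₀(N) k)
    (H : ∀ g ∈ Subgroup.map (Matrix.SpecialLinearGroup.mapGL ℝ) Γ₀(N),
      ∀ u : ℂ, per m f g (u, 1) = 0) (σ : SL(2, ℤ)) :
    IsBoundedAtImInfty (eisH m f ∣[-(m : ℤ)] (Matrix.SpecialLinearGroup.mapGL ℝ σ)) := by
  obtain ⟨M, hM0, hM⟩ := Subgroup.IsArithmetic.exists_nat_mem_strictPeriods_conj
    (Subgroup.map (Matrix.SpecialLinearGroup.mapGL ℝ) Γ₀(N))
  obtain ⟨K, A, hKA⟩ := eisH_slash_growth m f σ (M : ℝ)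
  have hp : (M : ℝ) ∈ (ConjAct.toConjAct (Matrix.SpecialLinearGroup.mapGL ℝ σ)⁻¹ •
      (Subgroup.map (Matrix.SpecialLinearGroup.mapGL ℝ) Γ₀(N))).strictPeriods := by
    have := hM σ⁻¹
    simpa [map_inv] using this
  have hper : Function.Periodic
      ((eisH m f ∣[-(m : ℤ)] (Matrix.SpecialLinearGroup.mapGL ℝ σ)) ∘ ofComplex) (M : ℝ) :=
    SlashInvariantFormClass.periodic_comp_ofComplex
      (SlashInvariantForm.translate (eisSIF m hk f H) (Matrix.SpecialLinearGroup.mapGL ℝ σ)) hp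
  exact isBoundedAtImInfty_of_growth (by exact_mod_cast hM0) hper
    ((eisH_mdiff m f).slash _ _) hKA

/-- The Eichler integral as a modular form of weight `-m`. -/
def eisMF [NeZero N] (m : ℕ) (hk : k = m + 2) (f : CuspForm Γ₀(N) k)
    (H : ∀ g ∈ Subgroup.map (Matrix.SpecialLinearGroup.mapGL ℝ) Γ₀(N),
      ∀ u : ℂ, per m f g (u, 1) = 0) :
    ModularForm (Subgroup.map (Matrix.SpecialLinearGroup.mapGL ℝ) Γ₀(N)) (-(m : ℤ)) where
  toSlashInvariantForm := eisSIF m hk f H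
  holo' := eisH_mdiff m f
  bdd_at_cusps' := fun {c} hc => by
    have hc' := (Subgroup.IsArithmetic.isCusp_iff_isCusp_SL2Z _).mp hc
    rw [OnePoint.isBoundedAt_iff_forall_SL2Z hc']
    intro σ _
    exact eisH_slash_bdd m hk f H σ

theorem eisH_eq_zero [NeZero N] (m : ℕ) (hk : k = m + 2) (f : CuspForm Γ₀(N) k)
    (H : ∀ g ∈ Subgroup.map (Matrix.SpecialLinearGroup.mapGL ℝ) Γ₀(N),
      ∀ u : ℂ, per m f g (u, 1) = 0) (τ : ℍ) : eisH m f τ = 0 := by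
  have h0 : eisMF m hk f H = 0 := by
    apply ModularForm.sturm_bound_Gamma0 N
    intro n hn
    have hnonpos : (-(m : ℤ)) * ((Γ₀(N)).index : ℤ) ≤ 0 := by
      have h1 : (0 : ℤ) ≤ (m : ℤ) := Int.natCast_nonneg m
      have h2 : (0 : ℤ) ≤ ((Γ₀(N)).index : ℤ) := Int.natCast_nonneg _
      nlinarith
    rw [Int.toNat_of_nonpos hnonpos] at hn
    have hn0 : n = 0 := by simpa using hn
    subst hn0
    rw [UpperHalfPlane.qExpansion_coeff]
    have : UpperHalfPlane.cuspFunction 1 (⇑(eisMF m hk f H)) 0 = 0 :=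
      (eisH_isZeroAtImInfty m f).cuspFunction_apply_zero one_pos
    simp [this]
  have := congrArg (fun F : ModularForm _ _ => F τ) h0
  exact this

theorem eis_zero_of_succ_zero {a : ℕ → ℂ} (ha : PolyGrowth a) (j : ℕ)
    (h : ∀ z : ℂ, 0 < z.im → eis a (j + 1) z = 0) : ∀ z : ℂ, 0 < z.im → eis a j z = 0 := by
  intro z hz
  have hopen : IsOpen {z : ℂ | 0 < z.im} := isOpen_lt continuous_const Complex.continuous_im
  have h1 := hasDerivAt_eis ha j hz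
  have h2 : HasDerivAt (eis a (j + 1)) 0 z := by
    refine (hasDerivAt_const z (0 : ℂ)).congr_of_eventuallyEq ?_
    filter_upwards [hopen.mem_nhds hz] with w hw using h w hw
  exact h1.unique h2

theorem eis_zero_of_zero {a : ℕ → ℂ} (ha : PolyGrowth a) (j : ℕ)
    (h : ∀ z : ℂ, 0 < z.im → eis a j z = 0) : ∀ z : ℂ, 0 < z.im → eis a 0 z = 0 := by
  induction j with
  | zero => exact h
  | succ j ih => exact ih (eis_zero_of_succ_zero ha j h)

/-- **Injectivity of the period map.** -/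
theorem eq_zero_of_per_eq_zero [NeZero N] (m : ℕ) (hk : k = m + 2) (f : CuspForm Γ₀(N) k)
    (H : ∀ g ∈ Subgroup.map (Matrix.SpecialLinearGroup.mapGL ℝ) Γ₀(N),
      ∀ n : ℤ, per m f g ((n : ℂ), 1) = 0) : f = 0 := by
  have H' : ∀ g ∈ Subgroup.map (Matrix.SpecialLinearGroup.mapGL ℝ) Γ₀(N),
      ∀ u : ℂ, per m f g (u, 1) = 0 := fun g hg u => per_eq_zero_of_int m f g (H g hg) u
  have h1 : ∀ z : ℂ, 0 < z.im → eis (coeffs f) (m + 1) z = 0 := fun z hz =>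
    eisH_eq_zero m hk f H' ⟨z, hz⟩
  have h2 := eis_zero_of_zero (coeffs_polyGrowth f) (m + 1) h1
  ext τ
  rw [← eis_coeffs_zero f τ, h2 _ τ.im_pos]
  rfl

end

end Fermat.Agent.S22
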