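import Fermat.Agent.S22_Lin

set_option autoImplicit false

namespace Fermat.Agent.S22

open Complex Filter Topology
open UpperHalfPlane hiding I
open scoped MatrixGroups ModularForm Manifold Pointwise

noncomputable section

local notation "Γ₀(" N ")" => CongruenceSubgroup.Gamma0 N

variable {N : ℕ} {k : ℤ}

/-- the image of `Γ₀(N)` in `GL₂(ℝ)` -/
abbrev GG (N : ℕ) : Subgroup (GL (Fin 2) ℝ) :=
  Subgroup.map (Matrix.SpecialLinearGroup.mapGL ℝ) Γ₀(N)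

theorem SL2Z_fg : Group.FG SL(2, ℤ) := by
  rw [Group.fg_iff]
  exact ⟨{ModularGroup.S, ModularGroup.T}, SpecialLinearGroup.SL2Z_generators,
    Set.toFinite _⟩

theorem GG_fg (N : ℕ) [NeZero N] : (GG N).FG := by
  have := SL2Z_fg
  have h1 : Group.FG ↥Γ₀(N) := Subgroup.fg_of_index_ne_zero Γ₀(N)
  rw [Group.fg_iff_subgroup_fg] at h1
  obtain ⟨S, hS⟩ := (Subgroup.fg_iff _).mp h1
  rw [Subgroup.fg_iff]
  refine ⟨(Matrix.SpecialLinearGroup.mapGL ℝ) '' S, ?_, hS.2.image _⟩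
  rw [← MonoidHom.map_closure, hS.1]

theorem vact_int_of_mem {g : GL (Fin 2) ℝ} (hg : g ∈ GG N) (a b : ℤ) :
    ∃ a' b' : ℤ, vact g ((a : ℂ), (b : ℂ)) = ((a' : ℂ), (b' : ℂ)) := by
  obtain ⟨γ, -, rfl⟩ := hg
  refine ⟨γ 0 0 * a + γ 0 1 * b, γ 1 0 * a + γ 1 1 * b, ?_⟩
  simp [vact]

/-- the period lattice -/
def Lam (N : ℕ) [NeZero N] (k : ℤ) (m : ℕ) : Submodule ℤ (CuspForm Γ₀(N) k →ₗ[ℂ] ℂ) :=
  Submodule.span ℤ {φ | ∃ g ∈ GG N, ∃ a b : ℤ, φ = perLin m g ((a : ℂ), (b : ℂ))}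

theorem perLin_mem_Lam [NeZero N] (m : ℕ) {g : GL (Fin 2) ℝ} (hg : g ∈ GG N) (a b : ℤ) :
    (perLin m g ((a : ℂ), (b : ℂ)) : CuspForm Γ₀(N) k →ₗ[ℂ] ℂ) ∈ Lam N k m :=
  Submodule.subset_span ⟨g, hg, a, b, rfl⟩

theorem perLin_one [NeZero N] (m : ℕ) (w : ℂ × ℂ) :
    (perLin m 1 w : CuspForm Γ₀(N) k →ₗ[ℂ] ℂ) = 0 := by
  ext f
  simp [perLin_apply, per_one]

theorem perLin_mul [NeZero N] (m : ℕ) (hk : k = m + 2) {g h : GL (Fin 2) ℝ} (hg : g ∈ GG N)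
    (w : ℂ × ℂ) :
    (perLin m (g * h) w : CuspForm Γ₀(N) k →ₗ[ℂ] ℂ) = perLin m g (vact h w) + perLin m h w := by
  ext f
  simp [perLin_apply, per_mul m hk f hg w]

theorem perLin_inv [NeZero N] (m : ℕ) (hk : k = m + 2) {g : GL (Fin 2) ℝ} (hg : g ∈ GG N)
    (w : ℂ × ℂ) :
    (perLin m g⁻¹ w : CuspForm Γ₀(N) k →ₗ[ℂ] ℂ) = -perLin m g (vact g⁻¹ w) := by
  have h := perLin_mul (N := N) (k := k) m hk hg (h := g⁻¹) w
  rw [mul_inv_cancel, perLin_one] at h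
  exact eq_neg_of_add_eq_zero_right h.symm

theorem Lam_fg (N : ℕ) [NeZero N] (m : ℕ) (hk : k = m + 2) : (Lam N k m).FG := by
  obtain ⟨S, hS⟩ := GG_fg N
  set Q : Submodule ℤ (CuspForm Γ₀(N) k →ₗ[ℂ] ℂ) :=
    (⨆ s ∈ S, Qlat k m (s • UpperHalfPlane.I)) ⊔ Qlat k m UpperHalfPlane.I with hQ
  have hQfg : Q.FG :=
    (Submodule.fg_biSup S _ fun s _ => Qlat_fg k m _).sup (Qlat_fg k m _)
  have hle1 : ∀ s ∈ S, Qlat (N := N) k m (s • UpperHalfPlane.I) ≤ Q := fun s hs =>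
    (le_biSup (fun s => Qlat (N := N) k m (s • UpperHalfPlane.I)) hs).trans le_sup_left
  have hle2 : Qlat (N := N) k m UpperHalfPlane.I ≤ Q := le_sup_right
  have key : ∀ g (hg : g ∈ Subgroup.closure (S : Set (GL (Fin 2) ℝ))), ∀ a b : ℤ,
      (perLin m g ((a : ℂ), (b : ℂ)) : CuspForm Γ₀(N) k →ₗ[ℂ] ℂ) ∈ Q := by
    intro g hg
    induction hg using Subgroup.closure_induction with
    | mem x hx =>
      intro a b
      have hxG : x ∈ GG N := hS ▸ Subgroup.subset_closure hx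
      obtain ⟨a', b', hab⟩ := vact_int_of_mem hxG a b
      rw [perLin, hab]
      exact Q.sub_mem (hle1 x hx (PhiLin_mem_Qlat m _ a' b')) (hle2 (PhiLin_mem_Qlat m _ a b))
    | one =>
      intro a b
      rw [perLin_one]
      exact Q.zero_mem
    | mul x y hx hy ihx ihy =>
      intro a b
      have hxG : x ∈ GG N := hS ▸ hx
      have hyG : y ∈ GG N := hS ▸ hy
      obtain ⟨a', b', hab⟩ := vact_int_of_mem hyG a b
      rw [perLin_mul m hk hxG, hab]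
      exact Q.add_mem (ihx a' b') (ihy a b)
    | inv x hx ihx =>
      intro a b
      have hxG : x ∈ GG N := hS ▸ hx
      obtain ⟨a', b', hab⟩ := vact_int_of_mem ((GG N).inv_mem hxG) a b
      rw [perLin_inv m hk hxG, hab]
      exact Q.neg_mem (ihx a' b')
  refine hQfg.of_le ?_
  rw [Lam, Submodule.span_le]
  rintro _ ⟨g, hg, a, b, rfl⟩
  exact key g (hS ▸ hg) a b

end

end Fermat.Agent.S22
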