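import Fermat.Agent.S22_Inj

set_option autoImplicit false

namespace Fermat.Agent.S22

open Complex Filter Topology
open UpperHalfPlane hiding I
open scoped MatrixGroups ModularForm Manifold Pointwise

noncomputable section

local notation "Γ₀(" N ")" => CongruenceSubgroup.Gamma0 N

variable {N : ℕ} {k : ℤ}

theorem eterm_add (a b : ℕ → ℂ) (j n : ℕ) (z : ℂ) :
    eterm (a + b) j n z = eterm a j n z + eterm b j n z := by
  simp only [eterm, Pi.add_apply]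
  ring

theorem eterm_smul (c : ℂ) (a : ℕ → ℂ) (j n : ℕ) (z : ℂ) :
    eterm (c • a) j n z = c * eterm a j n z := by
  simp only [eterm, Pi.smul_apply, smul_eq_mul]
  ring

theorem eis_add {a b : ℕ → ℂ} (ha : PolyGrowth a) (hb : PolyGrowth b) (j : ℕ) {z : ℂ}
    (hz : 0 < z.im) : eis (a + b) j z = eis a j z + eis b j z := by
  unfold eis
  rw [← (summable_eterm ha j hz).tsum_add (summable_eterm hb j hz)]
  exact tsum_congr fun n => eterm_add a b j n z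

theorem eis_smul (c : ℂ) (a : ℕ → ℂ) (j : ℕ) (z : ℂ) : eis (c • a) j z = c * eis a j z := by
  unfold eis
  rw [← tsum_mul_left]
  exact tsum_congr fun n => eterm_smul c a j n z

/-- the functional `f ↦ E_j(f)(τ)` -/
def eisLin [NeZero N] (j : ℕ) (τ : ℍ) : CuspForm Γ₀(N) k →ₗ[ℂ] ℂ where
  toFun f := eis (coeffs f) j (τ : ℂ)
  map_add' f g := by
    rw [coeffs_add]
    exact eis_add (coeffs_polyGrowth f) (coeffs_polyGrowth g) j τ.im_pos
  map_smul' c f := by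
    rw [coeffs_smul]
    exact eis_smul c (coeffs f) j τ

/-- the functional `f ↦ Φ_f(τ; w)` -/
def PhiLin [NeZero N] (m : ℕ) (τ : ℍ) (w : ℂ × ℂ) : CuspForm Γ₀(N) k →ₗ[ℂ] ℂ :=
  ∑ j ∈ Finset.range (m + 1),
    ((m.descFactorial j : ℂ) * (w.1 - τ * w.2) ^ (m - j) * w.2 ^ j) • eisLin (j + 1) τ

theorem PhiLin_apply [NeZero N] (m : ℕ) (τ : ℍ) (w : ℂ × ℂ) (f : CuspForm Γ₀(N) k) :
    PhiLin m τ w f = PhiH m f τ w := by
  simp [PhiLin, PhiH, Phi, eisLin]

/-- the period functional -/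
def perLin [NeZero N] (m : ℕ) (g : GL (Fin 2) ℝ) (w : ℂ × ℂ) : CuspForm Γ₀(N) k →ₗ[ℂ] ℂ :=
  PhiLin m (g • UpperHalfPlane.I) (vact g w) - PhiLin m UpperHalfPlane.I w

theorem perLin_apply [NeZero N] (m : ℕ) (g : GL (Fin 2) ℝ) (w : ℂ × ℂ) (f : CuspForm Γ₀(N) k) :
    perLin m g w f = per m f g w := by
  simp [perLin, PhiLin_apply, per, Xi]

/-- the basic functionals spanning the lattice containing `PhiLin` at integral points -/
def basicLin [NeZero N] (τ : ℍ) (i j : ℕ) : CuspForm Γ₀(N) k →ₗ[ℂ] ℂ :=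
  ((τ : ℂ) ^ i) • eisLin (j + 1) τ

/-- the finitely generated lattice at `τ` -/
def Qlat [NeZero N] (k : ℤ) (m : ℕ) (τ : ℍ) : Submodule ℤ (CuspForm Γ₀(N) k →ₗ[ℂ] ℂ) :=
  Submodule.span ℤ (Set.range fun p : Fin (m + 1) × Fin (m + 1) =>
    (basicLin τ p.1 p.2 : CuspForm Γ₀(N) k →ₗ[ℂ] ℂ))

theorem Qlat_fg [NeZero N] (k : ℤ) (m : ℕ) (τ : ℍ) : (Qlat (N := N) k m τ).FG :=
  Submodule.fg_span (Set.finite_range _)

theorem PhiLin_mem_Qlat [NeZero N] (m : ℕ) (τ : ℍ) (a b : ℤ) :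
    (PhiLin m τ ((a : ℂ), (b : ℂ)) : CuspForm Γ₀(N) k →ₗ[ℂ] ℂ) ∈ Qlat k m τ := by
  have key : (PhiLin m τ ((a : ℂ), (b : ℂ)) : CuspForm Γ₀(N) k →ₗ[ℂ] ℂ)
      = ∑ j ∈ Finset.range (m + 1), ∑ i ∈ Finset.range (m - j + 1),
        ((m.descFactorial j : ℤ) * ((-b) ^ i * a ^ (m - j - i) * ((m - j).choose i : ℤ)) * b ^ j)
          • (basicLin τ i j : CuspForm Γ₀(N) k →ₗ[ℂ] ℂ) := by
    ext f
    simp only [PhiLin, LinearMap.sum_apply, LinearMap.smul_apply, basicLin, smul_eq_mul,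
      zsmul_eq_mul]
    refine Finset.sum_congr rfl fun j _ => ?_
    have hexp : ((a : ℂ) - τ * (b : ℂ)) ^ (m - j)
        = ∑ i ∈ Finset.range (m - j + 1),
          (-(τ : ℂ) * (b : ℂ)) ^ i * (a : ℂ) ^ (m - j - i) * ((m - j).choose i : ℂ) := by
      rw [← add_pow]
      congr 1
      ring
    rw [hexp, Finset.mul_sum, Finset.sum_mul, Finset.sum_mul]
    refine Finset.sum_congr rfl fun i _ => ?_
    push_cast
    rw [mul_pow, neg_pow, neg_pow (b : ℂ)]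
    ring
  rw [key]
  refine Submodule.sum_mem _ fun j hj => Submodule.sum_mem _ fun i hi => ?_
  refine Submodule.smul_mem _ _ (Submodule.subset_span ?_)
  have hj' : j < m + 1 := Finset.mem_range.mp hj
  have hi' : i < m + 1 := by
    have := Finset.mem_range.mp hi
    omega
  exact ⟨(⟨i, hi'⟩, ⟨j, hj'⟩), rfl⟩

end

end Fermat.Agent.S22
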