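import Fermat.Agent.S22_Series

set_option autoImplicit false

namespace Fermat.Agent.S22

open Complex Filter Topology

noncomputable section

/-- The normalised primitive of `f(z) (u - z v)^m` where `f = eis a 0`. -/
def Phi (a : ℕ → ℂ) (m : ℕ) (z u v : ℂ) : ℂ :=
  ∑ j ∈ Finset.range (m + 1),
    (m.descFactorial j : ℂ) * (u - z * v) ^ (m - j) * v ^ j * eis a (j + 1) z

theorem hasDerivAt_Phi_partial {a : ℕ → ℂ} (ha : PolyGrowth a) (m : ℕ) (u v : ℂ) {z : ℂ}
    (hz : 0 < z.im) (J : ℕ) :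
    HasDerivAt (fun z => ∑ j ∈ Finset.range J,
        (m.descFactorial j : ℂ) * (u - z * v) ^ (m - j) * v ^ j * eis a (j + 1) z)
      (eis a 0 z * (u - z * v) ^ m
        - (m.descFactorial J : ℂ) * (u - z * v) ^ (m - J) * v ^ J * eis a J z) z := by
  induction J with
  | zero =>
    simp only [Finset.range_zero, Finset.sum_empty, Nat.descFactorial_zero, Nat.cast_one, one_mul,
      Nat.sub_zero, pow_zero, mul_one]
    have : (u - z * v) ^ m * eis a 0 z = eis a 0 z * (u - z * v) ^ m := mul_comm _ _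
    rw [this, sub_self]
    exact hasDerivAt_const z 0
  | succ J ih =>
    simp only [Finset.sum_range_succ]
    have hlin : HasDerivAt (fun z : ℂ => u - z * v) (-v) z := by
      simpa using ((hasDerivAt_id z).mul_const v).const_sub u
    have hpow : HasDerivAt (fun z : ℂ => (u - z * v) ^ (m - J))
        (((m - J : ℕ) : ℂ) * (u - z * v) ^ (m - J - 1) * -v) z := hlin.pow (m - J)
    have he := hasDerivAt_eis ha J hz
    have hterm : HasDerivAt (fun z : ℂ =>
        (m.descFactorial J : ℂ) * (u - z * v) ^ (m - J) * v ^ J * eis a (J + 1) z)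
        ((m.descFactorial J : ℂ) * (((m - J : ℕ) : ℂ) * (u - z * v) ^ (m - J - 1) * -v) * v ^ J
          * eis a (J + 1) z
          + (m.descFactorial J : ℂ) * (u - z * v) ^ (m - J) * v ^ J * eis a J z) z :=
      ((hpow.const_mul (m.descFactorial J : ℂ)).mul_const (v ^ J)).mul he
    refine (ih.add hterm).congr_deriv ?_
    have hsub : m - (J + 1) = m - J - 1 := by omega
    rw [Nat.descFactorial_succ, hsub]
    push_cast
    generalize (u - z * v) ^ (m - J - 1) = P1
    generalize (u - z * v) ^ (m - J) = P0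
    generalize ((m - J : ℕ) : ℂ) = c
    ring

theorem hasDerivAt_Phi {a : ℕ → ℂ} (ha : PolyGrowth a) (m : ℕ) (u v : ℂ) {z : ℂ}
    (hz : 0 < z.im) :
    HasDerivAt (fun z => Phi a m z u v) (eis a 0 z * (u - z * v) ^ m) z := by
  have h := hasDerivAt_Phi_partial ha m u v hz (m + 1)
  have h0 : m.descFactorial (m + 1) = 0 := Nat.descFactorial_eq_zero_iff_lt.mpr (Nat.lt_succ_self m)
  rw [h0] at h
  simpa [Phi] using h

theorem Phi_homog (a : ℕ → ℂ) (m : ℕ) (z u v t : ℂ) :
    Phi a m z (t * u) (t * v) = t ^ m * Phi a m z u v := by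
  unfold Phi
  rw [Finset.mul_sum]
  refine Finset.sum_congr rfl fun j hj => ?_
  have hj' : j ≤ m := Nat.lt_succ_iff.mp (Finset.mem_range.mp hj)
  have h1 : t ^ m = t ^ (m - j) * t ^ j := by rw [← pow_add, Nat.sub_add_cancel hj']
  have h2 : t * u - z * (t * v) = t * (u - z * v) := by ring
  rw [h1, h2, mul_pow, mul_pow]
  ring

theorem Phi_diag (a : ℕ → ℂ) (m : ℕ) (z : ℂ) :
    Phi a m z z 1 = (m.factorial : ℂ) * eis a (m + 1) z := by
  unfold Phi
  rw [Finset.sum_eq_single m]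
  · simp [Nat.descFactorial_self]
  · intro j hj hjm
    have hj' : j ≤ m := Nat.lt_succ_iff.mp (Finset.mem_range.mp hj)
    have : m - j ≠ 0 := by omega
    simp [this]
  · intro h
    exact absurd (Finset.mem_range.mpr (Nat.lt_succ_self m)) h

theorem tendsto_of_poly_exp_bound {F : ℝ → ℂ} {K : ℝ} {n : ℕ}
    (h : ∀ t : ℝ, 1 ≤ t → ‖F t‖ ≤ K * (t ^ n * Real.exp (-t))) : Tendsto F atTop (𝓝 0) := by
  have h1 : Tendsto (fun t : ℝ => K * (t ^ n * Real.exp (-t))) atTop (𝓝 0) := by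
    simpa using (Real.tendsto_pow_mul_exp_neg_atTop_nhds_zero n).const_mul K
  refine squeeze_zero_norm' ?_ h1
  filter_upwards [eventually_ge_atTop 1] with t ht using h t ht

theorem norm_eis_vertical_le {a : ℕ → ℂ} (ha : PolyGrowth a) (j : ℕ) (x : ℝ) {t : ℝ} (ht : 1 ≤ t) :
    ‖eis a j ((x : ℂ) + t * I)‖ ≤ maj a 1 * Real.exp (2 * Real.pi) * Real.exp (-t) := by
  have him : ((x : ℂ) + t * I).im = t := by simp
  have hpos : 0 < ((x : ℂ) + t * I).im := by rw [him]; linarith
  have h1 := norm_eis_le_maj ha j hpos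
  rw [him] at h1
  have h2 := maj_decay ha ht
  have h3 : Real.exp (-(2 * Real.pi * (t - 1))) ≤ Real.exp (2 * Real.pi) * Real.exp (-t) := by
    rw [← Real.exp_add]
    apply Real.exp_le_exp.mpr
    nlinarith [Real.pi_gt_three]
  calc ‖eis a j ((x : ℂ) + t * I)‖ ≤ maj a 1 * Real.exp (-(2 * Real.pi * (t - 1))) := h1.trans h2
    _ ≤ maj a 1 * (Real.exp (2 * Real.pi) * Real.exp (-t)) := by
        gcongr
        exact maj_nonneg a 1
    _ = _ := by ring

theorem tendsto_Phi_vertical {a : ℕ → ℂ} (ha : PolyGrowth a) (m : ℕ) (u v : ℂ) (x : ℝ) :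
    Tendsto (fun t : ℝ => Phi a m ((x : ℂ) + t * I) u v) atTop (𝓝 0) := by
  unfold Phi
  rw [show (0 : ℂ) = ∑ j ∈ Finset.range (m + 1), (0 : ℂ) by simp]
  refine tendsto_finsetSum _ fun j _ => ?_
  set A : ℝ := ‖u‖ + (|x| + 1) * ‖v‖ with hA
  have hA0 : 0 ≤ A := by positivity
  refine tendsto_of_poly_exp_bound (n := m - j)
    (K := (m.descFactorial j : ℝ) * A ^ (m - j) * ‖v‖ ^ j * (maj a 1 * Real.exp (2 * Real.pi)))
    fun t ht => ?_
  have ht0 : 0 ≤ t := by linarith
  have h1 : ‖u - ((x : ℂ) + t * I) * v‖ ≤ A * t := by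
    calc ‖u - ((x : ℂ) + t * I) * v‖ ≤ ‖u‖ + ‖((x : ℂ) + t * I) * v‖ := norm_sub_le _ _
      _ ≤ ‖u‖ + (|x| + t) * ‖v‖ := by
          rw [norm_mul]
          gcongr
          calc ‖(x : ℂ) + t * I‖ ≤ ‖(x : ℂ)‖ + ‖(t : ℂ) * I‖ := norm_add_le _ _
            _ = |x| + t := by simp [abs_of_nonneg ht0]
      _ ≤ A * t := by
          rw [hA]
          have hu := norm_nonneg u
          have hv := norm_nonneg v
          have hx := abs_nonneg x
          nlinarith [mul_nonneg hu (sub_nonneg.mpr ht), mul_nonneg (mul_nonneg hx hv) (sub_nonneg.mpr ht)]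
  have h2 := norm_eis_vertical_le ha (j + 1) x ht
  rw [norm_mul, norm_mul, norm_mul, norm_pow, norm_pow, Complex.norm_natCast]
  calc (m.descFactorial j : ℝ) * ‖u - ((x : ℂ) + t * I) * v‖ ^ (m - j) * ‖v‖ ^ j
        * ‖eis a (j + 1) ((x : ℂ) + t * I)‖
      ≤ (m.descFactorial j : ℝ) * (A * t) ^ (m - j) * ‖v‖ ^ j
        * (maj a 1 * Real.exp (2 * Real.pi) * Real.exp (-t)) := by gcongr
    _ = _ := by rw [mul_pow]; ring

end

end Fermat.Agent.S22
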