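import Mathlib

set_option autoImplicit false

namespace Fermat.Agent.S22

open Complex Filter Topology

noncomputable section

/-- term of the Eichler series -/
def eterm (a : ℕ → ℂ) (j n : ℕ) (z : ℂ) : ℂ :=
  a n * ((2 * (Real.pi : ℂ) * I * (n : ℂ)) ^ j)⁻¹ * cexp (2 * (Real.pi : ℂ) * I * (n : ℂ) * z)

/-- the `j`-fold normalised primitive of the `q`-series with coefficients `a`. -/
def eis (a : ℕ → ℂ) (j : ℕ) (z : ℂ) : ℂ := ∑' n, eterm a j n z

/-- polynomial growth with vanishing constant term -/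
def PolyGrowth (a : ℕ → ℂ) : Prop :=
  a 0 = 0 ∧ ∃ (C : ℝ) (B : ℕ), ∀ n, ‖a n‖ ≤ C * (n : ℝ) ^ B

theorem norm_two_pi_I_mul (n : ℕ) : ‖2 * (Real.pi : ℂ) * I * (n : ℂ)‖ = 2 * Real.pi * n := by
  simp [abs_of_pos Real.pi_pos]

theorem norm_inv_pow_le_one (j n : ℕ) : ‖((2 * (Real.pi : ℂ) * I * (n : ℂ)) ^ j)⁻¹‖ ≤ 1 := by
  rw [norm_inv, norm_pow, norm_two_pi_I_mul]
  rcases Nat.eq_zero_or_pos n with rfl | hn
  · rcases Nat.eq_zero_or_pos j with rfl | hj
    · simp
    · simp [hj.ne']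
  · apply inv_le_one_of_one_le₀
    apply one_le_pow₀
    have h1 : (1 : ℝ) ≤ n := by exact_mod_cast hn
    have h2 : (3 : ℝ) < Real.pi := Real.pi_gt_three
    nlinarith

theorem norm_cexp_two_pi (n : ℕ) (z : ℂ) :
    ‖cexp (2 * (Real.pi : ℂ) * I * (n : ℂ) * z)‖ = Real.exp (-(2 * Real.pi * n * z.im)) := by
  rw [Complex.norm_exp]
  congr 1
  have : (2 * (Real.pi : ℂ) * I * (n : ℂ) * z) = ((2 * Real.pi * n : ℝ) : ℂ) * (I * z) := by
    push_cast; ring
  rw [this, Complex.re_ofReal_mul]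
  simp

theorem norm_eterm_le (a : ℕ → ℂ) (j n : ℕ) (z : ℂ) :
    ‖eterm a j n z‖ ≤ ‖a n‖ * Real.exp (-(2 * Real.pi * n * z.im)) := by
  unfold eterm
  rw [norm_mul, norm_mul, norm_cexp_two_pi]
  have := norm_inv_pow_le_one j n
  have h0 := norm_nonneg (a n)
  have h1 := (Real.exp_pos (-(2 * Real.pi * n * z.im))).le
  calc ‖a n‖ * ‖((2 * (Real.pi : ℂ) * I * (n : ℂ)) ^ j)⁻¹‖ * Real.exp (-(2 * Real.pi * n * z.im))
      ≤ ‖a n‖ * 1 * Real.exp (-(2 * Real.pi * n * z.im)) := by gcongr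
    _ = _ := by ring

theorem summable_majorant {a : ℕ → ℂ} (ha : PolyGrowth a) {y : ℝ} (hy : 0 < y) :
    Summable fun n : ℕ => ‖a n‖ * Real.exp (-(2 * Real.pi * n * y)) := by
  obtain ⟨-, C, B, hC⟩ := ha
  have hr : 0 < 2 * Real.pi * y := by positivity
  have hs := (Real.summable_pow_mul_exp_neg_nat_mul B hr).mul_left C
  refine Summable.of_nonneg_of_le (fun n => by positivity) (fun n => ?_) hs
  have h1 := (Real.exp_pos (-(2 * Real.pi * n * y))).le
  calc ‖a n‖ * Real.exp (-(2 * Real.pi * n * y))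
      ≤ (C * (n : ℝ) ^ B) * Real.exp (-(2 * Real.pi * n * y)) := by gcongr; exact hC n
    _ = C * ((n : ℝ) ^ B * Real.exp (-(2 * Real.pi * y) * n)) := by
        rw [mul_assoc]; congr 3; ring

theorem summable_eterm {a : ℕ → ℂ} (ha : PolyGrowth a) (j : ℕ) {z : ℂ} (hz : 0 < z.im) :
    Summable fun n : ℕ => eterm a j n z :=
  Summable.of_norm_bounded (summable_majorant ha hz) (fun n => norm_eterm_le a j n z)

theorem hasDerivAt_eterm {a : ℕ → ℂ} (ha0 : a 0 = 0) (j n : ℕ) (z : ℂ) :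
    HasDerivAt (eterm a (j + 1) n) (eterm a j n z) z := by
  unfold eterm
  rcases Nat.eq_zero_or_pos n with rfl | hn
  · simp only [ha0, zero_mul]
    exact hasDerivAt_const z 0
  · have hn0 : (n : ℂ) ≠ 0 := by exact_mod_cast hn.ne'
    have hne : (2 * (Real.pi : ℂ) * I * (n : ℂ)) ≠ 0 := by
      simp [Real.pi_ne_zero, hn0]
    have h1 : HasDerivAt (fun w : ℂ => 2 * (Real.pi : ℂ) * I * (n : ℂ) * w)
        (2 * (Real.pi : ℂ) * I * (n : ℂ)) z := by
      simpa using (hasDerivAt_id z).const_mul (2 * (Real.pi : ℂ) * I * (n : ℂ))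
    have h2 := (h1.cexp).const_mul (a n * ((2 * (Real.pi : ℂ) * I * (n : ℂ)) ^ (j + 1))⁻¹)
    refine HasDerivAt.congr_deriv h2 ?_
    rw [pow_succ, mul_inv]
    field_simp

theorem hasDerivAt_eis {a : ℕ → ℂ} (ha : PolyGrowth a) (j : ℕ) {z : ℂ} (hz : 0 < z.im) :
    HasDerivAt (eis a (j + 1)) (eis a j z) z := by
  have hopen : IsOpen {w : ℂ | z.im / 2 < w.im} :=
    isOpen_lt continuous_const Complex.continuous_im
  have hconv : Convex ℝ {w : ℂ | z.im / 2 < w.im} := by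
    have := convex_halfSpace_im_gt (z.im / 2)
    simpa using this
  have hy : (0 : ℝ) < z.im / 2 := by positivity
  have hzmem : z ∈ {w : ℂ | z.im / 2 < w.im} := by
    show z.im / 2 < z.im
    linarith
  refine hasDerivAt_tsum_of_isPreconnected (u := fun n => ‖a n‖ * Real.exp (-(2 * Real.pi * n * (z.im / 2))))
    (summable_majorant ha hy) hopen hconv.isPreconnected
    (fun n w _ => hasDerivAt_eterm ha.1 j n w) (fun n w hw => ?_) hzmem
    (summable_eterm ha (j + 1) hz) hzmem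
  refine (norm_eterm_le a j n w).trans ?_
  have hw' : z.im / 2 ≤ w.im := le_of_lt hw
  have h0 := norm_nonneg (a n)
  gcongr

theorem norm_eis_le {a : ℕ → ℂ} (ha : PolyGrowth a) (j : ℕ) {z : ℂ} (hz : 0 < z.im) :
    ‖eis a j z‖ ≤ ∑' n : ℕ, ‖a n‖ * Real.exp (-(2 * Real.pi * n * z.im)) := by
  unfold eis
  refine (norm_tsum_le_tsum_norm (summable_eterm ha j hz).norm).trans ?_
  exact Summable.tsum_le_tsum (fun n => norm_eterm_le a j n z) (summable_eterm ha j hz).norm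
    (summable_majorant ha hz)

/-- the majorant series -/
def maj (a : ℕ → ℂ) (y : ℝ) : ℝ := ∑' n : ℕ, ‖a n‖ * Real.exp (-(2 * Real.pi * n * y))

theorem maj_nonneg (a : ℕ → ℂ) (y : ℝ) : 0 ≤ maj a y :=
  tsum_nonneg fun n => by positivity

theorem norm_eis_le_maj {a : ℕ → ℂ} (ha : PolyGrowth a) (j : ℕ) {z : ℂ} (hz : 0 < z.im) :
    ‖eis a j z‖ ≤ maj a z.im := norm_eis_le ha j hz

theorem maj_decay {a : ℕ → ℂ} (ha : PolyGrowth a) {y : ℝ} (hy : 1 ≤ y) :
    maj a y ≤ maj a 1 * Real.exp (-(2 * Real.pi * (y - 1))) := by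
  unfold maj
  rw [← tsum_mul_right]
  refine Summable.tsum_le_tsum (fun n => ?_) (summable_majorant ha (by linarith))
    ((summable_majorant ha one_pos).mul_right _)
  rcases Nat.eq_zero_or_pos n with rfl | hn
  · simp [ha.1]
  · show ‖a n‖ * Real.exp (-(2 * Real.pi * n * y)) ≤
      ‖a n‖ * Real.exp (-(2 * Real.pi * n * 1)) * Real.exp (-(2 * Real.pi * (y - 1)))
    rw [mul_assoc ‖a n‖, ← Real.exp_add]
    have h0 := norm_nonneg (a n)
    have h1 : (1 : ℝ) ≤ n := by exact_mod_cast hn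
    have hpi := Real.pi_pos
    gcongr
    nlinarith [mul_nonneg (sub_nonneg.mpr h1) (sub_nonneg.mpr hy), hpi]

theorem one_sub_exp_neg_inv_le {t : ℝ} (ht : 0 < t) : (1 - Real.exp (-t))⁻¹ ≤ 1 + t⁻¹ := by
  have h1 : Real.exp (-t) ≤ (1 + t)⁻¹ := by
    rw [Real.exp_neg]
    apply inv_anti₀ (by positivity)
    linarith [Real.add_one_le_exp t]
  have h2 : t / (1 + t) ≤ 1 - Real.exp (-t) := by
    have : (1 + t)⁻¹ = 1 - t / (1 + t) := by field_simp; ring
    linarith
  have h3 : 0 < t / (1 + t) := by positivity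
  calc (1 - Real.exp (-t))⁻¹ ≤ (t / (1 + t))⁻¹ := inv_anti₀ h3 h2
    _ = 1 + t⁻¹ := by field_simp; ring

theorem maj_poly {a : ℕ → ℂ} (ha : PolyGrowth a) :
    ∃ (K : ℝ) (B : ℕ), 0 ≤ K ∧ ∀ y : ℝ, 0 < y → maj a y ≤ K * ((y⁻¹) ^ B + (y⁻¹) ^ (B + 1)) := by
  obtain ⟨ha0, C, B, hC⟩ := ha
  refine ⟨|C| * B.factorial, B, by positivity, fun y hy => ?_⟩
  have hpi := Real.pi_pos
  have hpi1 : (1 : ℝ) ≤ Real.pi := by linarith [Real.pi_gt_three]
  have hr : 0 < Real.pi * y := by positivity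
  have hgeo : Summable fun n : ℕ => Real.exp (-(Real.pi * y)) ^ n :=
    summable_geometric_of_lt_one (Real.exp_pos _).le (by rw [Real.exp_lt_one_iff]; linarith)
  have hterm : ∀ n : ℕ, ‖a n‖ * Real.exp (-(2 * Real.pi * n * y))
      ≤ (|C| * B.factorial * (y⁻¹) ^ B) * Real.exp (-(Real.pi * y)) ^ n := by
    intro n
    have h1 : ‖a n‖ ≤ |C| * (n : ℝ) ^ B :=
      (hC n).trans (by gcongr; exact le_abs_self C)
    have h2 : (Real.pi * n * y) ^ B / B.factorial ≤ Real.exp (Real.pi * n * y) :=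
      Real.pow_div_factorial_le_exp (x := Real.pi * n * y) (by positivity) B
    have h3 : (n : ℝ) ^ B ≤ B.factorial * (y⁻¹) ^ B * Real.exp (Real.pi * n * y) := by
      have hf : (0 : ℝ) < B.factorial := by exact_mod_cast B.factorial_pos
      rw [div_le_iff₀ hf] at h2
      have h4 : (n : ℝ) ^ B * y ^ B ≤ Real.exp (Real.pi * n * y) * B.factorial := by
        have : (n : ℝ) ^ B * y ^ B ≤ (Real.pi * n * y) ^ B := by
          rw [← mul_pow]
          apply pow_le_pow_left₀ (by positivity)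
          have : (n : ℝ) * y ≤ Real.pi * (n * y) := by
            have : 0 ≤ (n : ℝ) * y := by positivity
            nlinarith
          linarith
        linarith
      have hy' : 0 < y ^ B := by positivity
      calc (n : ℝ) ^ B = (n : ℝ) ^ B * y ^ B * (y⁻¹) ^ B := by
            rw [inv_pow]; field_simp
        _ ≤ Real.exp (Real.pi * n * y) * B.factorial * (y⁻¹) ^ B := by gcongr
        _ = _ := by ring
    have h5 : Real.exp (Real.pi * n * y) * Real.exp (-(2 * Real.pi * n * y))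
        = Real.exp (-(Real.pi * y)) ^ n := by
      rw [← Real.exp_add, ← Real.exp_nat_mul]
      congr 1; ring
    calc ‖a n‖ * Real.exp (-(2 * Real.pi * n * y))
        ≤ (|C| * (B.factorial * (y⁻¹) ^ B * Real.exp (Real.pi * n * y)))
            * Real.exp (-(2 * Real.pi * n * y)) := by
          gcongr
          exact h1.trans (by gcongr)
      _ = (|C| * B.factorial * (y⁻¹) ^ B)
            * (Real.exp (Real.pi * n * y) * Real.exp (-(2 * Real.pi * n * y))) := by ring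
      _ = _ := by rw [h5]
  have hle : maj a y ≤ (|C| * B.factorial * (y⁻¹) ^ B) * (1 - Real.exp (-(Real.pi * y)))⁻¹ := by
    unfold maj
    rw [← tsum_geometric_of_lt_one (Real.exp_pos _).le
      (by rw [Real.exp_lt_one_iff]; linarith), ← tsum_mul_left]
    exact Summable.tsum_le_tsum hterm (summable_majorant ⟨ha0, C, B, hC⟩ hy) (hgeo.mul_left _)
  refine hle.trans ?_
  have h6 := one_sub_exp_neg_inv_le hr
  have h7 : (Real.pi * y)⁻¹ ≤ y⁻¹ := by
    apply inv_anti₀ hy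
    nlinarith
  have hyinv : 0 ≤ y⁻¹ := by positivity
  calc |C| * B.factorial * (y⁻¹) ^ B * (1 - Real.exp (-(Real.pi * y)))⁻¹
      ≤ |C| * B.factorial * (y⁻¹) ^ B * (1 + y⁻¹) := by
        gcongr
        linarith
    _ = _ := by ring

end

end Fermat.Agent.S22
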