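import Fermat.Agent.S22_Stab
import Fermat.Agent.S21_helper11_Prim
import Fermat.Agent.S21_helper22_MM
import Fermat.Agent.S21_helper29_P2

set_option autoImplicit false

/-!
# S23, bridge between the S22 period lattice and the prelude period map

* `PhiH_eq_prim`: the weight two Eichler integral of S22 is the normalised primitive of S21.
* `per_eq_periodMap`: the S22 period cocycle (weight 2) is the prelude period map.
* `eq_zero_of_re_periodMap`: a cusp form all of whose periods are purely imaginary vanishes.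
* `eq_zero_of_re_Lam`: the same in terms of the S22 period lattice.
-/

namespace Fermat.Agent.S23_helper12_Bridge

open Complex Filter Topology CongruenceSubgroup ModularCurve ModularCurve.Period
open UpperHalfPlane hiding I
open scoped MatrixGroups ModularForm
open Fermat.Agent.S22

noncomputable section

variable {N : ℕ} [NeZero N]

theorem two_eq : (2 : ℤ) = ((0 : ℕ) : ℤ) + 2 := by norm_num

theorem tendsto_ofComplex_vertical :
    Tendsto (fun t : ℝ => ofComplex ((t : ℂ) * I)) atTop atImInfty := by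
  rw [atImInfty, tendsto_comap_iff]
  refine tendsto_id.congr' ?_
  filter_upwards [eventually_gt_atTop 0] with t ht
  have h : 0 < ((t : ℂ) * I).im := by simpa using ht
  simp only [Function.comp_apply, id_eq]
  rw [ofComplex_apply_of_im_pos h]
  simp [UpperHalfPlane.im]

/-- The weight two Eichler integral of S22 is the normalised primitive of S21. -/
theorem PhiH_eq_prim (f : CuspForm (Gamma0 N) 2) (τ : ℍ) (w : ℂ × ℂ) :
    PhiH 0 f τ w = S21_helper11.prim f τ := by
  have hD : ∀ z : ℂ, 0 < z.im →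
      HasDerivAt (fun z => Phi (coeffs f) 0 z w.1 w.2 - S21_helper11.primC f z) 0 z := by
    intro z hz
    have h1 := hasDerivAt_PhiC 0 f w ⟨z, hz⟩
    have h2 := S21_helper11.hasDerivAt_primC f hz
    have e : ofComplex z = ⟨z, hz⟩ := ofComplex_apply_of_im_pos hz
    have h3 : HasDerivAt (fun z => Phi (coeffs f) 0 z w.1 w.2 - S21_helper11.primC f z)
        (f ⟨z, hz⟩ * (w.1 - ((⟨z, hz⟩ : ℍ) : ℂ) * w.2) ^ 0 - f (ofComplex z)) z := h1.sub h2
    refine h3.congr_deriv ?_
    rw [e]
    simp
  have hlim : Tendsto (fun t : ℝ =>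
      Phi (coeffs f) 0 ((t : ℂ) * I) w.1 w.2 - S21_helper11.primC f ((t : ℂ) * I))
      atTop (𝓝 0) := by
    have h1 := tendsto_Phi_vertical (coeffs_polyGrowth f) 0 w.1 w.2 0
    have h1' : Tendsto (fun t : ℝ => Phi (coeffs f) 0 ((t : ℂ) * I) w.1 w.2) atTop (𝓝 0) := by
      refine h1.congr fun t => ?_
      simp
    have h2 := (S21_helper11.tendsto_prim_zero f).comp tendsto_ofComplex_vertical
    have h2' : Tendsto (fun t : ℝ => S21_helper11.primC f ((t : ℂ) * I)) atTop (𝓝 0) := by
      refine h2.congr' ?_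
      filter_upwards [eventually_gt_atTop 0] with t ht
      have h : 0 < ((t : ℂ) * I).im := by simpa using ht
      simp only [Function.comp_apply, S21_helper11.prim]
      rw [ofComplex_apply_of_im_pos h]
    simpa using h1'.sub h2'
  have := eq_zero_of_hasDerivAt_zero_of_tendsto hD hlim τ.im_pos
  simp only [PhiH, S21_helper11.prim]
  exact sub_eq_zero.mp this

/-- The S22 period cocycle in weight two does not depend on the vector argument. -/
theorem per_eq_prim (f : CuspForm (Gamma0 N) 2) (g : GL (Fin 2) ℝ) (w : ℂ × ℂ) :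
    per 0 f g w = S21_helper11.prim f (g • UpperHalfPlane.I)
      - S21_helper11.prim f UpperHalfPlane.I := by
  rw [per, Xi, PhiH_eq_prim, PhiH_eq_prim]

/-- The S22 period cocycle in weight two is the prelude period map. -/
theorem per_eq_periodMap (f : CuspForm (Gamma0 N) 2) (γ : Gamma0 N) (w : ℂ × ℂ) :
    per 0 f (Matrix.SpecialLinearGroup.mapGL ℝ (γ : SL(2, ℤ))) w
      = periodMap N f (Additive.ofMul γ) := by
  rw [S21_helper11.periodMap_apply, per_eq_prim]
  rfl

/-- **Key lemma.** A cusp form all of whose periods are purely imaginary vanishes. -/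
theorem eq_zero_of_re_periodMap (f : CuspForm (Gamma0 N) 2)
    (h : ∀ γ : Gamma0 N, (periodMap N f (Additive.ofMul γ)).re = 0) : f = 0 := by
  obtain ⟨c, hc⟩ := S21_helper22_MM.const_of_re_invariant N (S21_helper11.prim f)
    (fun τ => (S21_helper11.hasDerivAt_prim f τ).differentiableAt)
    (fun γ hγ => ⟨periodMap N f (Additive.ofMul (⟨γ, hγ⟩ : Gamma0 N)), h ⟨γ, hγ⟩, fun z => by
      have := S21_helper11.prim_smul_sub f ⟨γ, hγ⟩ z
      rw [← this]
      ring⟩)
    (S21_helper11.tendsto_prim_smul f)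
  ext τ
  have h1 := S21_helper11.hasDerivAt_prim f τ
  have h2 : HasDerivAt (S21_helper11.prim f ∘ ofComplex) 0 (τ : ℂ) := by
    have e : S21_helper11.prim f ∘ ofComplex = fun _ => c := funext fun z => hc _
    rw [e]
    exact hasDerivAt_const _ _
  simpa using h1.unique h2

/-- The period functional of S22 attached to `γ ∈ Γ₀(N)` is evaluation of the period map. -/
theorem perLin_apply_eq_periodMap (f : CuspForm (Gamma0 N) 2) (γ : Gamma0 N) (w : ℂ × ℂ) :
    (perLin 0 (Matrix.SpecialLinearGroup.mapGL ℝ (γ : SL(2, ℤ))) w :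
      CuspForm (Gamma0 N) 2 →ₗ[ℂ] ℂ) f = periodMap N f (Additive.ofMul γ) := by
  rw [perLin_apply, per_eq_periodMap]

theorem perLin_mem_Lam' (γ : Gamma0 N) (w : ℂ × ℂ) :
    (perLin 0 (Matrix.SpecialLinearGroup.mapGL ℝ (γ : SL(2, ℤ))) w :
      CuspForm (Gamma0 N) 2 →ₗ[ℂ] ℂ) ∈ Lam N 2 0 := by
  have h := perLin_mem_Lam (N := N) (k := 2) 0
    (g := Matrix.SpecialLinearGroup.mapGL ℝ (γ : SL(2, ℤ))) (Subgroup.mem_map_of_mem _ γ.2) 0 0
  have e : (perLin 0 (Matrix.SpecialLinearGroup.mapGL ℝ (γ : SL(2, ℤ))) w :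
      CuspForm (Gamma0 N) 2 →ₗ[ℂ] ℂ)
      = perLin 0 (Matrix.SpecialLinearGroup.mapGL ℝ (γ : SL(2, ℤ))) (((0 : ℤ) : ℂ), ((0 : ℤ) : ℂ)) := by
    ext f
    rw [perLin_apply_eq_periodMap, perLin_apply_eq_periodMap]
  rw [e]
  exact h

/-- The period lattice of S22 separates real parts. -/
theorem eq_zero_of_re_Lam (f : CuspForm (Gamma0 N) 2)
    (h : ∀ φ ∈ Lam N 2 0, (φ f).re = 0) : f = 0 := by
  refine eq_zero_of_re_periodMap f fun γ => ?_
  have := h _ (perLin_mem_Lam' γ 0)
  rwa [perLin_apply_eq_periodMap] at this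

end

end Fermat.Agent.S23_helper12_Bridge
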