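import Mathlib

/-!
# S24, piece A4 (part I): the `π`-adic expansion homomorphism of a discrete valuation ring
with coefficient field

Let `A` be a discrete valuation ring which is an algebra over a field `K` mapping onto the
residue field, and let `π` be a uniformizer.  We construct the `K`-algebra homomorphism
`expHom : A →ₐ[K] K⟦X⟧` (`π`-adic expansion), show `expHom π = X`, injectivity, and that it
transforms the `π`-adic valuation into the order of power series.
-/

set_option autoImplicit false
set_option linter.style.haveILetI false
set_option linter.unusedSectionVars false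

namespace Fermat.Agent.S24_helper15_A4Exp

open PowerSeries IsLocalRing

variable {K A : Type*} [Field K] [CommRing A] [IsDomain A] [IsDiscreteValuationRing A]
  [Algebra K A]

section defs

variable (hres : Function.Surjective (algebraMap K (ResidueField A)))

/-- `K` is isomorphic to the residue field. -/
noncomputable def resEquiv : K ≃+* ResidueField A :=
  RingEquiv.ofBijective (algebraMap K (ResidueField A))
    ⟨(algebraMap K (ResidueField A)).injective, hres⟩

/-- The "constant term" of an element of `A`. -/
noncomputable def cst : A →+* K :=
  ((resEquiv hres).symm : ResidueField A →+* K).comp (residue A)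

theorem cst_algebraMap (k : K) : cst hres (algebraMap K A k) = k := by
  have h : residue A (algebraMap K A k) = resEquiv hres k := rfl
  simp only [cst, RingHom.comp_apply, h]
  exact (resEquiv hres).symm_apply_apply k

theorem cst_eq_zero_iff {a : A} : cst hres a = 0 ↔ a ∈ maximalIdeal A := by
  simp only [cst, RingHom.comp_apply]
  rw [← residue_eq_zero_iff]
  constructor
  · intro h
    have := congrArg (resEquiv hres) h
    simpa using this
  · intro h
    rw [h]
    simp

theorem sub_cst_mem (a : A) : a - algebraMap K A (cst hres a) ∈ maximalIdeal A := by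
  rw [← cst_eq_zero_iff hres, map_sub, cst_algebraMap, sub_self]

variable {π : A} (hπ : Irreducible π)

include hπ

theorem dvd_sub_cst (a : A) : π ∣ a - algebraMap K A (cst hres a) := by
  have h := sub_cst_mem hres a
  rw [hπ.maximalIdeal_eq, Ideal.mem_span_singleton] at h
  exact h

theorem cst_pi : cst hres π = 0 := by
  rw [cst_eq_zero_iff, hπ.maximalIdeal_eq]
  exact Ideal.mem_span_singleton_self π

/-- The shift `a ↦ (a - a₀) / π`. -/
noncomputable def shift (a : A) : A := (dvd_sub_cst hres hπ a).choose

theorem shift_spec (a : A) : a = algebraMap K A (cst hres a) + π * shift hres hπ a := by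
  have h : a - algebraMap K A (cst hres a) = π * shift hres hπ a :=
    (dvd_sub_cst hres hπ a).choose_spec
  linear_combination h

theorem shift_unique {a w : A} {k : K} (h : a = algebraMap K A k + π * w) :
    cst hres a = k ∧ shift hres hπ a = w := by
  have h1 : cst hres a = k := by
    rw [h, map_add, map_mul, cst_algebraMap, cst_pi hres hπ, zero_mul, add_zero]
  refine ⟨h1, ?_⟩
  have h2 := shift_spec hres hπ a
  rw [h1] at h2
  have h3 : π * shift hres hπ a = π * w := by
    have := h2.symm.trans h
    exact add_left_cancel this
  exact mul_left_cancel₀ hπ.ne_zero h3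

theorem shift_add (a b : A) :
    shift hres hπ (a + b) = shift hres hπ a + shift hres hπ b := by
  refine (shift_unique hres hπ (k := cst hres a + cst hres b) ?_).2
  conv_lhs => rw [shift_spec hres hπ a, shift_spec hres hπ b]
  rw [map_add]
  ring

theorem shift_zero : shift hres hπ 0 = 0 := by
  refine (shift_unique hres hπ (k := 0) ?_).2
  simp

theorem shift_one : shift hres hπ 1 = 0 := by
  refine (shift_unique hres hπ (k := 1) ?_).2
  simp

theorem shift_pi_mul (a : A) : shift hres hπ (π * a) = a := by
  refine (shift_unique hres hπ (k := 0) ?_).2
  simp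

theorem shift_algebraMap_mul (k : K) (a : A) :
    shift hres hπ (algebraMap K A k * a) = algebraMap K A k * shift hres hπ a := by
  refine (shift_unique hres hπ (k := k * cst hres a) ?_).2
  conv_lhs => rw [shift_spec hres hπ a]
  rw [map_mul]
  ring

theorem iterate_shift_add (n : ℕ) (a b : A) :
    (shift hres hπ)^[n] (a + b) = (shift hres hπ)^[n] a + (shift hres hπ)^[n] b := by
  induction n generalizing a b with
  | zero => rfl
  | succ n ih => rw [Function.iterate_succ_apply, Function.iterate_succ_apply,
      Function.iterate_succ_apply, shift_add, ih]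

theorem iterate_shift_zero (n : ℕ) : (shift hres hπ)^[n] 0 = 0 := by
  induction n with
  | zero => rfl
  | succ n ih => rw [Function.iterate_succ_apply, shift_zero, ih]

theorem iterate_shift_algebraMap_mul (n : ℕ) (k : K) (a : A) :
    (shift hres hπ)^[n] (algebraMap K A k * a) = algebraMap K A k * (shift hres hπ)^[n] a := by
  induction n generalizing a with
  | zero => rfl
  | succ n ih => rw [Function.iterate_succ_apply, Function.iterate_succ_apply,
      shift_algebraMap_mul, ih]

/-- The `π`-adic expansion, as a function. -/
noncomputable def expFun (a : A) : K⟦X⟧ :=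
  PowerSeries.mk fun n => cst hres ((shift hres hπ)^[n] a)

theorem coeff_expFun (a : A) (n : ℕ) :
    coeff n (expFun hres hπ a) = cst hres ((shift hres hπ)^[n] a) := by
  simp [expFun]

theorem expFun_eq (a : A) :
    expFun hres hπ a = C (cst hres a) + X * expFun hres hπ (shift hres hπ a) := by
  ext n
  cases n with
  | zero => simp [coeff_expFun]
  | succ n =>
    rw [map_add, coeff_expFun, coeff_succ_X_mul, coeff_expFun, Function.iterate_succ_apply,
      coeff_C]
    simp

theorem expFun_add (a b : A) :
    expFun hres hπ (a + b) = expFun hres hπ a + expFun hres hπ b := by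
  ext n
  rw [map_add, coeff_expFun, coeff_expFun, coeff_expFun, iterate_shift_add, map_add]

theorem expFun_zero : expFun hres hπ 0 = 0 := by
  ext n
  rw [coeff_expFun, iterate_shift_zero, map_zero, map_zero]

theorem expFun_one : expFun hres hπ 1 = 1 := by
  rw [expFun_eq, shift_one, expFun_zero, mul_zero, add_zero, map_one, map_one]

theorem expFun_pi_mul (a : A) : expFun hres hπ (π * a) = X * expFun hres hπ a := by
  rw [expFun_eq, shift_pi_mul, map_mul, cst_pi hres hπ, zero_mul, map_zero, zero_add]

theorem expFun_algebraMap_mul (k : K) (a : A) :
    expFun hres hπ (algebraMap K A k * a) = C k * expFun hres hπ a := by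
  ext n
  rw [coeff_expFun, iterate_shift_algebraMap_mul, map_mul, cst_algebraMap, coeff_C_mul,
    coeff_expFun]

theorem expFun_mul_aux (n : ℕ) (a b : A) :
    (X : K⟦X⟧) ^ n ∣ expFun hres hπ (a * b) - expFun hres hπ a * expFun hres hπ b := by
  induction n generalizing a with
  | zero => simp
  | succ n ih =>
    have h1 : a * b = algebraMap K A (cst hres a) * b + π * (shift hres hπ a * b) := by
      conv_lhs => rw [shift_spec hres hπ a]
      ring
    have h2 : expFun hres hπ (a * b) - expFun hres hπ a * expFun hres hπ b =
        X * (expFun hres hπ (shift hres hπ a * b) -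
          expFun hres hπ (shift hres hπ a) * expFun hres hπ b) := by
      conv_lhs => rw [h1, expFun_add, expFun_algebraMap_mul, expFun_pi_mul,
        expFun_eq hres hπ a]
      ring
    rw [h2, pow_succ']
    exact mul_dvd_mul_left X (ih (shift hres hπ a))

theorem expFun_mul (a b : A) :
    expFun hres hπ (a * b) = expFun hres hπ a * expFun hres hπ b := by
  rw [← sub_eq_zero]
  ext m
  have h := (PowerSeries.X_pow_dvd_iff (n := m + 1)).mp (expFun_mul_aux hres hπ (m + 1) a b)
  rw [h m (Nat.lt_succ_self m), map_zero]

/-- The `π`-adic expansion homomorphism. -/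
noncomputable def expHom : A →ₐ[K] K⟦X⟧ where
  toFun := expFun hres hπ
  map_one' := expFun_one hres hπ
  map_mul' := expFun_mul hres hπ
  map_zero' := expFun_zero hres hπ
  map_add' := expFun_add hres hπ
  commutes' k := by
    have := expFun_algebraMap_mul hres hπ k 1
    rw [mul_one, expFun_one, mul_one] at this
    rw [this]
    rfl

theorem expHom_apply (a : A) : expHom hres hπ a = expFun hres hπ a := rfl

theorem expHom_pi : expHom hres hπ π = X := by
  have := expFun_pi_mul hres hπ 1
  rw [mul_one, expFun_one, mul_one] at this
  exact this

theorem constantCoeff_expHom (a : A) : constantCoeff (expHom hres hπ a) = cst hres a := by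
  rw [← coeff_zero_eq_constantCoeff_apply, expHom_apply, coeff_expFun]
  rfl

theorem order_expHom_unit (u : Aˣ) : (expHom hres hπ (u : A)).order = 0 := by
  apply PowerSeries.order_zero_of_unit
  exact u.isUnit.map (expHom hres hπ)

/-- The expansion homomorphism transforms the valuation into the order. -/
theorem order_expHom_of_eq {a : A} {u : Aˣ} {m : ℕ} (h : a = u * π ^ m) :
    (expHom hres hπ a).order = m := by
  rw [h, map_mul, map_pow, expHom_pi, PowerSeries.order_mul, order_expHom_unit,
    PowerSeries.order_X_pow, zero_add]

theorem expHom_ne_zero {a : A} (ha : a ≠ 0) : expHom hres hπ a ≠ 0 := by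
  obtain ⟨m, u, hu⟩ := IsDiscreteValuationRing.eq_unit_mul_pow_irreducible ha hπ
  intro h0
  have := order_expHom_of_eq hres hπ hu
  rw [h0, PowerSeries.order_zero] at this
  exact ENat.top_ne_natCast m this

theorem expHom_injective : Function.Injective (expHom hres hπ) := by
  rw [injective_iff_map_eq_zero]
  intro a ha
  by_contra h
  exact expHom_ne_zero hres hπ h ha

end defs

end Fermat.Agent.S24_helper15_A4Exp
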