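import Mathlib
import Fermat.Prelude.Def_ModularCurve_CanonicalDivisor
import Fermat.Agent.S24_helper15_A4Exp

/-!
# S24, piece A4: the local formula for the order of a differential

For a place `v` of `F / K` (`K` of characteristic zero, residue field of `v` equal to `K`) and
`t : F` with `v.ord t ≠ 0` such that `D t` is a multiple of `v.dCoord`:
`v.ordDifferential (D t) = v.ord t - 1`.
-/

set_option autoImplicit false
set_option linter.style.haveILetI false
set_option linter.unusedSectionVars false

namespace Fermat.Agent.S24_helper15_A4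

open PowerSeries IsLocalRing KaehlerDifferential AlgebraicCurve
open Fermat.Agent.S24_helper15_A4Exp

/-! ### The key relation in a general discrete valuation ring -/

section general

variable {K A F : Type*} [Field K] [CommRing A] [IsDomain A] [IsDiscreteValuationRing A]
  [Algebra K A] [Field F] [Algebra K F] [Algebra A F] [IsScalarTower K A F] [IsFractionRing A F]
variable (hres : Function.Surjective (algebraMap K (ResidueField A)))
variable {π : A} (hπ : Irreducible π)

include hπ

/-- A linear relation between two exact differentials of `F` with coefficients and arguments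
in `A` gives the corresponding relation between derivatives of expansions. -/
theorem key {a b x₁ x₂ : A}
    (h : algebraMap A F a • D K F (algebraMap A F x₁) =
      algebraMap A F b • D K F (algebraMap A F x₂)) :
    expHom hres hπ a * d⁄dX K (expHom hres hπ x₁) =
      expHom hres hπ b * d⁄dX K (expHom hres hπ x₂) := by
  letI alg : Algebra A K⟦X⟧ := (expHom hres hπ).toRingHom.toAlgebra
  haveI : IsScalarTower K A K⟦X⟧ :=
    IsScalarTower.of_algebraMap_eq (fun k => ((expHom hres hπ).commutes k).symm)
  let δ : Derivation K A K⟦X⟧ := (PowerSeries.derivative K).compAlgebraMap A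
  let φ : Ω[A⁄K] →ₗ[A] K⟦X⟧ := δ.liftKaehlerDifferential
  have hφ : ∀ x, φ (D K A x) = d⁄dX K (expHom hres hπ x) := fun x => by
    rw [Derivation.liftKaehlerDifferential_comp_D]
    rfl
  have hsm : ∀ (c : A) (f : K⟦X⟧), c • f = expHom hres hπ c * f := fun c f => by
    rw [Algebra.smul_def]
    rfl
  set ω : Ω[A⁄K] := a • D K A x₁ - b • D K A x₂ with hω
  have hmap : KaehlerDifferential.map K K A F ω = 0 := by
    rw [hω, map_sub, map_smul, map_smul, KaehlerDifferential.map_D, KaehlerDifferential.map_D,
      ← algebraMap_smul F a, ← algebraMap_smul F b, h, sub_self]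
  haveI := KaehlerDifferential.isLocalizedModule_map (R := K) (S := A) (T := F)
    (nonZeroDivisors A)
  obtain ⟨s, hs⟩ := IsLocalizedModule.exists_of_eq (S := nonZeroDivisors A)
    (f := KaehlerDifferential.map K K A F) (x₁ := ω) (x₂ := 0) (by rw [hmap, map_zero])
  have h1 : φ ((s : A) • ω) = 0 := by
    have : (s : A) • ω = s • ω := rfl
    rw [this, hs, smul_zero, map_zero]
  rw [map_smul, hsm, hω, map_sub, map_smul, map_smul, hφ, hφ, hsm, hsm] at h1
  have hs0 : expHom hres hπ (s : A) ≠ 0 :=
    expHom_ne_zero hres hπ (nonZeroDivisors.coe_ne_zero s)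
  have := (mul_eq_zero.mp h1).resolve_left hs0
  exact sub_eq_zero.mp this

end general

/-! ### Order of the derivative of a power series -/

theorem order_derivative {K : Type*} [Field K] [CharZero K] {f : K⟦X⟧} {m : ℕ}
    (hf : f.order = (m + 1 : ℕ)) : (d⁄dX K f).order = m := by
  rw [PowerSeries.order_eq_nat] at hf ⊢
  obtain ⟨h1, h2⟩ := hf
  constructor
  · rw [coeff_derivative]
    refine mul_ne_zero h1 ?_
    exact_mod_cast Nat.succ_ne_zero m
  · intro i hi
    rw [coeff_derivative, h2 (i + 1) (by omega), zero_mul]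

/-! ### Places -/

section place

variable {K F : Type*} [Field K] [Field F] [Algebra K F]
variable (v : Place K F)

/-- `v.dCoord` is the differential of a uniformizer. -/
theorem exists_dCoord_eq :
    ∃ π₀ : v.toValuationSubring, Irreducible π₀ ∧ v.dCoord = D K F (π₀ : F) :=
  ⟨_, (IsDiscreteValuationRing.exists_irreducible v.toValuationSubring).choose_spec, rfl⟩

theorem ord_of_eq_unit_mul_pow {a : v.toValuationSubring} {u : v.toValuationSubringˣ}
    {π : v.toValuationSubring} (hπ : Irreducible π) {m : ℕ} (h : a = u * π ^ m) :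
    v.ord (a : F) = m := by
  have h1 := v.ord_unit_smul_zpow u hπ (m : ℤ)
  rw [zpow_natCast] at h1
  rw [h]
  exact h1

theorem ord_neg (x : F) : v.ord (-x) = v.ord x := by
  simp [Place.ord, Valuation.map_neg]

theorem ord_div {x y : F} (hx : x ≠ 0) (hy : y ≠ 0) : v.ord (x / y) = v.ord x - v.ord y := by
  rw [div_eq_mul_inv, v.ord_mul hx (inv_ne_zero hy), v.ord_inv]
  ring

theorem ord_nonneg_of_mem {x : F} (hx : x ∈ v.toValuationSubring) : 0 ≤ v.ord x := by
  by_cases hx0 : x = 0
  · rw [hx0, v.ord_zero]
  obtain ⟨π, hπ⟩ := IsDiscreteValuationRing.exists_irreducible v.toValuationSubring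
  have ha : (⟨x, hx⟩ : v.toValuationSubring) ≠ 0 := fun h0 => hx0 (congrArg Subtype.val h0)
  obtain ⟨m, u, hu⟩ := IsDiscreteValuationRing.eq_unit_mul_pow_irreducible ha hπ
  have := ord_of_eq_unit_mul_pow v hπ hu
  have h2 : v.ord x = m := this
  omega

variable [CharZero K] (hres : Function.Surjective (algebraMap K v.ResidueField))

include hres

/-- The differential of a uniformizer is nonzero. -/
theorem dCoord_ne_zero : v.dCoord ≠ 0 := by
  obtain ⟨π₀, hπ₀, hd⟩ := exists_dCoord_eq v
  rw [hd]
  intro h0
  have hrel : algebraMap v.toValuationSubring F 1 • D K F (algebraMap v.toValuationSubring F π₀)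
      = algebraMap v.toValuationSubring F 0 •
        D K F (algebraMap v.toValuationSubring F π₀) := by
    rw [map_zero, zero_smul, map_one, one_smul]
    exact h0
  have hkey := key hres hπ₀ hrel
  rw [map_one, map_zero, zero_mul, one_mul, expHom_pi, derivative_X] at hkey
  exact one_ne_zero hkey

/-- Integral case of the local formula. -/
theorem ord_coeff_of_pos {t : F} (htA : t ∈ v.toValuationSubring) (ht : 0 < v.ord t) {g : F}
    (hg : D K F t = g • v.dCoord) : g ≠ 0 ∧ v.ord g = v.ord t - 1 := by
  obtain ⟨π₀, hπ₀, hd⟩ := exists_dCoord_eq v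
  rw [hd] at hg
  obtain ⟨a, b, hb, hab⟩ := IsFractionRing.div_surjective (A := v.toValuationSubring) g
  have hb0 : b ≠ 0 := nonZeroDivisors.ne_zero hb
  have hbF : (b : F) ≠ 0 := fun h0 => hb0 (Subtype.ext h0)
  have hab' : g = (a : F) / (b : F) := hab.symm
  have hrel : algebraMap v.toValuationSubring F b •
      D K F (algebraMap v.toValuationSubring F ⟨t, htA⟩)
      = algebraMap v.toValuationSubring F a •
        D K F (algebraMap v.toValuationSubring F π₀) := by
    show (b : F) • D K F t = (a : F) • D K F (π₀ : F)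
    rw [hg, smul_smul, hab', mul_div_cancel₀ _ hbF]
  have hkey := key hres hπ₀ hrel
  rw [expHom_pi, derivative_X, mul_one] at hkey
  -- the expansion of `t`
  have ht0 : (⟨t, htA⟩ : v.toValuationSubring) ≠ 0 := by
    intro h0
    have : t = 0 := congrArg Subtype.val h0
    rw [this, v.ord_zero] at ht
    exact lt_irrefl _ ht
  obtain ⟨m, u, hu⟩ := IsDiscreteValuationRing.eq_unit_mul_pow_irreducible ht0 hπ₀
  have hmt : v.ord t = m := ord_of_eq_unit_mul_pow v hπ₀ hu
  have hm1 : 1 ≤ m := by omega
  obtain ⟨m', rfl⟩ : ∃ m', m = m' + 1 := ⟨m - 1, by omega⟩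
  have hordt := order_expHom_of_eq hres hπ₀ hu
  have hordd := order_derivative (K := K) hordt
  obtain ⟨mb, ub, hub⟩ := IsDiscreteValuationRing.eq_unit_mul_pow_irreducible hb0 hπ₀
  have hordb := order_expHom_of_eq hres hπ₀ hub
  have horda : (expHom hres hπ₀ a).order = ((mb + m' : ℕ) : ℕ∞) := by
    rw [← hkey, PowerSeries.order_mul, hordb, hordd]
    push_cast
    rfl
  have ha0 : a ≠ 0 := by
    rintro rfl
    rw [map_zero, PowerSeries.order_zero] at horda
    exact ENat.top_ne_natCast _ horda
  have haF : (a : F) ≠ 0 := fun h0 => ha0 (Subtype.ext h0)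
  obtain ⟨ma, ua, hua⟩ := IsDiscreteValuationRing.eq_unit_mul_pow_irreducible ha0 hπ₀
  have horda' := order_expHom_of_eq hres hπ₀ hua
  have hma : ma = mb + m' := by
    rw [horda] at horda'
    exact_mod_cast horda'.symm
  refine ⟨by rw [hab']; exact div_ne_zero haF hbF, ?_⟩
  rw [hab', ord_div v haF hbF, ord_of_eq_unit_mul_pow v hπ₀ hua,
    ord_of_eq_unit_mul_pow v hπ₀ hub, hmt, hma]
  push_cast
  ring

/-- **Local formula**, coefficient form. -/
theorem ord_coeff {t : F} (ht : v.ord t ≠ 0) {g : F} (hg : D K F t = g • v.dCoord) :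
    g ≠ 0 ∧ v.ord g = v.ord t - 1 := by
  by_cases htA : t ∈ v.toValuationSubring
  · have h0 := ord_nonneg_of_mem v htA
    exact ord_coeff_of_pos v hres htA (lt_of_le_of_ne h0 (Ne.symm ht)) hg
  · have hinv : t⁻¹ ∈ v.toValuationSubring :=
      (v.toValuationSubring.mem_or_inv_mem t).resolve_left htA
    have ht0 : t ≠ 0 := by
      rintro rfl
      exact htA v.toValuationSubring.zero_mem
    have hord : v.ord t⁻¹ = -v.ord t := v.ord_inv t
    have hpos : 0 < v.ord t⁻¹ := by
      have h0 := ord_nonneg_of_mem v hinv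
      omega
    have hD : D K F t⁻¹ = (-t⁻¹ ^ 2 * g) • v.dCoord := by
      rw [Derivation.leibniz_inv, hg, smul_smul]
    obtain ⟨h1, h2⟩ := ord_coeff_of_pos v hres hinv hpos hD
    have hg0 : g ≠ 0 := by
      rintro rfl
      exact h1 (mul_zero _)
    refine ⟨hg0, ?_⟩
    have hsq : (-t⁻¹ ^ 2 : F) ≠ 0 := neg_ne_zero.mpr (pow_ne_zero 2 (inv_ne_zero ht0))
    rw [v.ord_mul hsq hg0, ord_neg, sq, v.ord_mul (inv_ne_zero ht0) (inv_ne_zero ht0),
      hord] at h2
    omega

/-- **Local formula** (S24, piece A4): `ord_v (dt) = ord_v t - 1` if `ord_v t ≠ 0`. -/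
theorem ordDifferential_D (t : F) (ht : v.ord t ≠ 0)
    (hex : ∃ f : F, D K F t = f • v.dCoord) :
    v.ordDifferential (D K F t) = v.ord t - 1 := by
  have h : v.differentialCoeff (D K F t) = hex.choose := by
    rw [Place.differentialCoeff, dif_pos hex]
  rw [Place.ordDifferential, h]
  exact (ord_coeff v hres ht hex.choose_spec).2

/-- Variant: the coefficient of `D t` is nonzero when `v.ord t ≠ 0`. -/
theorem differentialCoeff_D_ne_zero (t : F) (ht : v.ord t ≠ 0)
    (hex : ∃ f : F, D K F t = f • v.dCoord) :
    v.differentialCoeff (D K F t) ≠ 0 := by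
  have h : v.differentialCoeff (D K F t) = hex.choose := by
    rw [Place.differentialCoeff, dif_pos hex]
  rw [h]
  exact (ord_coeff v hres ht hex.choose_spec).1

/-- Variant for elements with a constant residue: if `0 < ord (t - c)` then
`ord_v (dt) = ord_v (t - c) - 1`. -/
theorem ordDifferential_D_sub_const (t : F) (c : K) (ht : v.ord (t - algebraMap K F c) ≠ 0)
    (hex : ∃ f : F, D K F t = f • v.dCoord) :
    v.ordDifferential (D K F t) = v.ord (t - algebraMap K F c) - 1 := by
  have hD : D K F (t - algebraMap K F c) = D K F t := by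
    rw [map_sub, Derivation.map_algebraMap, sub_zero]
  rw [← hD] at hex ⊢
  exact ordDifferential_D v hres _ ht hex

end place

end Fermat.Agent.S24_helper15_A4
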