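import Mathlib
import Fermat.Agent.S24_helper16_B

/-!
# S24, piece B-CNT: wrapper around `Fermat.Agent.S24_helper16_B.B` (identical statement).
-/

set_option autoImplicit false

open AlgebraicCurve IntermediateField

namespace Fermat.Agent.S24_helper16_BCNT

theorem BCNT {K F : Type*} [Field K] [IsAlgClosed K] [CharZero K] [Field F] [Algebra K F]
    (t : F) (ht : Transcendental K t) [FiniteDimensional K⟮t⟯ F]
    {L : Type*} [Field L] (φ₀ : K →+* L)
    {I : Type*} [Fintype I] (hI : Fintype.card I = Module.finrank K⟮t⟯ F)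
    (ι : I → F →+* LaurentSeries L)
    (hιK : ∀ i a, ι i (algebraMap K F a) = HahnSeries.C (φ₀ a))
    (hιinj : Function.Injective ι)
    (hιt : ∀ i i', ι i t = ι i' t)
    (e₀ : ℕ) (he₀ : 0 < e₀) (hord : ∀ i, (ι i t).order = (e₀ : ℤ))
    (ζ : L) (hζ : IsPrimitiveRoot ζ e₀)
    (π : Equiv.Perm I)
    (hπ : ∀ i f (n : ℤ), (ι (π i) f).coeff n = ζ ^ n * (ι i f).coeff n) :
    ∃ (S : Finset (Place K F)) (o : S → MulAction.orbitRel.Quotient (Subgroup.zpowers π) I),
      (∀ v, v ∈ S ↔ 0 < v.ord t) ∧ Function.Bijective o :=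
  Fermat.Agent.S24_helper16_B.B t ht φ₀ hI ι hιK hιinj hιt e₀ he₀ hord ζ hζ π hπ

end Fermat.Agent.S24_helper16_BCNT
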