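import Fermat.Agent.S24_Defs
import Fermat.Agent.S20_Basic
import Fermat.Agent.S20_helper13_B2
import Fermat.Agent.S24_helper10_J

/-!
# S24, piece C-ORD (core): local orders of `j`, with the Taylor-expansion facts (piece C-TAY)
as hypotheses
-/

set_option autoImplicit false

open UpperHalfPlane ModularForm CongruenceSubgroup AlgebraicCurve IntermediateField
open scoped MatrixGroups ModularForm Manifold
open Fermat.Agent.S20 Fermat.Agent.S24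

namespace Fermat.Agent.S24_helper1_ORD

/-- Multiplicativity of the Taylor expansion (piece C-TAY, `taylorAt_mul`). -/
def TayMulHyp : Prop :=
  ∀ (z₀ : ℍ) (g h : ℍ → ℂ), MDifferentiable 𝓘(ℂ) 𝓘(ℂ) g → MDifferentiable 𝓘(ℂ) 𝓘(ℂ) h →
    taylorAt z₀ (g * h) = taylorAt z₀ g * taylorAt z₀ h

/-- Simple zeros have Taylor order one (piece C-TAY, `taylorAt_order_one`). -/
def TayOrderOneHyp : Prop :=
  ∀ (z₀ : ℍ) (g : ℍ → ℂ), MDifferentiable 𝓘(ℂ) 𝓘(ℂ) g → g z₀ = 0 →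
    deriv (g ∘ ofComplex) z₀ ≠ 0 → (taylorAt z₀ g).order = 1

theorem chart_zero (z₀ : ℍ) : chart z₀ 0 = (z₀ : ℂ) := by
  simp [chart]

theorem constantCoeff_taylorAt (z₀ : ℍ) (g : ℍ → ℂ) :
    PowerSeries.constantCoeff (taylorAt z₀ g) = g z₀ := by
  simp [taylorAt, chart_zero]

theorem order_taylorAt_eq_zero (z₀ : ℍ) (g : ℍ → ℂ) (h : g z₀ ≠ 0) :
    (taylorAt z₀ g).order = 0 := by
  by_contra hne
  have h0 := PowerSeries.order_ne_zero_iff_constCoeff_eq_zero.mp hne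
  rw [constantCoeff_taylorAt] at h0
  exact h h0

/-- The inverse of the discriminant. -/
noncomputable def DeltaInv : ℍ → ℂ := fun z => (ModularForm.discriminant z)⁻¹

theorem DeltaInv_mdiff : MDifferentiable 𝓘(ℂ) 𝓘(ℂ) DeltaInv :=
  MDifferentiable.inv isMF1_discriminant.holo discriminant_ne_zero

theorem order_taylorAt_DeltaInv (z₀ : ℍ) : (taylorAt z₀ DeltaInv).order = 0 :=
  order_taylorAt_eq_zero z₀ _ (inv_ne_zero (discriminant_ne_zero z₀))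

theorem E₄_mdiff : MDifferentiable 𝓘(ℂ) 𝓘(ℂ) (⇑E₄ : ℍ → ℂ) := E₄.holo'

theorem E₆_mdiff : MDifferentiable 𝓘(ℂ) 𝓘(ℂ) (⇑E₆ : ℍ → ℂ) := E₆.holo'

theorem AN7_generic_of (hm : TayMulHyp) (ho : TayOrderOneHyp) (z₀ : ℍ) (h4 : E₄ z₀ ≠ 0)
    (h6 : E₆ z₀ ≠ 0) : (taylorAt z₀ (fun z => jfun z - jfun z₀)).order = 1 := by
  obtain ⟨c, hc⟩ : ∃ c : ℂ, c = jfun z₀ := ⟨_, rfl⟩
  obtain ⟨H, hH⟩ : ∃ H : ℍ → ℂ,
      H = fun w : ℍ => (1 - c / 1728) * E₄ w ^ 3 + (c / 1728) * E₆ w ^ 2 := ⟨_, rfl⟩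
  have hHd : MDifferentiable 𝓘(ℂ) 𝓘(ℂ) H := by
    have h1 : MDifferentiable 𝓘(ℂ) 𝓘(ℂ) ((1 - c / 1728) • ((⇑E₄ : ℍ → ℂ) ^ 3)) :=
      (E₄_mdiff.pow 3).const_smul _
    have h2 : MDifferentiable 𝓘(ℂ) 𝓘(ℂ) ((c / 1728) • ((⇑E₆ : ℍ → ℂ) ^ 2)) :=
      (E₆_mdiff.pow 2).const_smul _
    have := h1.add h2
    convert this using 1
    rw [hH]
    funext w
    simp
  have hfun : (fun z => jfun z - jfun z₀) = H * DeltaInv := by
    funext z
    rw [← hc, Fermat.Agent.S24_helper10_J.jfun_sub]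
    simp only [Pi.mul_apply, hH, DeltaInv, div_eq_mul_inv]
  have hH0 : H z₀ = 0 := by
    have h := Fermat.Agent.S24_helper10_J.jfun_sub z₀ c
    rw [hc, sub_self, ← hc] at h
    have h' := h.symm
    rw [div_eq_zero_iff] at h'
    rcases h' with h' | h'
    · rw [hH]; exact h'
    · exact absurd h' (discriminant_ne_zero z₀)
  have hderiv : deriv (H ∘ ofComplex) z₀ ≠ 0 := by
    rw [hH] at hH0 ⊢
    exact Fermat.Agent.S20_helper13_B2.B2c (1 - c / 1728) (c / 1728) (by norm_num) z₀ h4 h6 hH0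
  rw [hfun, hm z₀ H DeltaInv hHd DeltaInv_mdiff, PowerSeries.order_mul,
    ho z₀ H hHd hH0 hderiv, order_taylorAt_DeltaInv, add_zero]

theorem AN7_I_of (hm : TayMulHyp) (ho : TayOrderOneHyp) :
    (taylorAt UpperHalfPlane.I (fun z => jfun z - 1728)).order = 2 := by
  have hfun : (fun z => jfun z - 1728) = (⇑E₆ : ℍ → ℂ) * ((⇑E₆ : ℍ → ℂ) * DeltaInv) := by
    funext z
    rw [Fermat.Agent.S24_helper10_J.jfun_sub_1728]
    simp only [Pi.mul_apply, DeltaInv, div_eq_mul_inv]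
    ring
  have h0 : E₆ UpperHalfPlane.I = 0 := Fermat.Agent.S20_helper19_B3.B3a
  have h1 : (taylorAt UpperHalfPlane.I (⇑E₆ : ℍ → ℂ)).order = 1 :=
    ho _ _ E₆_mdiff h0 (Fermat.Agent.S20_helper13_B2.B2b _ h0)
  rw [hfun, hm _ _ _ E₆_mdiff (E₆_mdiff.mul DeltaInv_mdiff), hm _ _ _ E₆_mdiff DeltaInv_mdiff,
    PowerSeries.order_mul, PowerSeries.order_mul, h1, order_taylorAt_DeltaInv]
  rfl

theorem AN7_rho_of (hm : TayMulHyp) (ho : TayOrderOneHyp) : (taylorAt rho jfun).order = 3 := by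
  have hfun : jfun = (⇑E₄ : ℍ → ℂ) * ((⇑E₄ : ℍ → ℂ) * ((⇑E₄ : ℍ → ℂ) * DeltaInv)) := by
    funext z
    simp only [Pi.mul_apply, DeltaInv, jfun, div_eq_mul_inv]
    ring
  have h0 : E₄ rho = 0 := Fermat.Agent.S24_helper10_J.E₄_rho
  have h1 : (taylorAt rho (⇑E₄ : ℍ → ℂ)).order = 1 :=
    ho _ _ E₄_mdiff h0 (Fermat.Agent.S20_helper13_B2.B2a _ h0)
  rw [hfun, hm _ _ _ E₄_mdiff (E₄_mdiff.mul (E₄_mdiff.mul DeltaInv_mdiff)),
    hm _ _ _ E₄_mdiff (E₄_mdiff.mul DeltaInv_mdiff), hm _ _ _ E₄_mdiff DeltaInv_mdiff,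
    PowerSeries.order_mul, PowerSeries.order_mul, PowerSeries.order_mul, h1,
    order_taylorAt_DeltaInv]
  rfl

end Fermat.Agent.S24_helper1_ORD
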