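import Mathlib
import Fermat.Prelude.Def_AlgebraicCurve_CanonicalDivisor
import Fermat.Agent.S24_helper6_A2Shapes
import Fermat.Agent.S24_helper20_GCore

/-!
# S24, piece G: global Riemann–Hurwitz bookkeeping

`K` algebraically closed of characteristic `0`, `F / K(j)` finite.  If above every finite point
`j₀` there are `n j₀` places, above `∞` there are `ninf` places, the differential `dj` has order
`e - 1` at a place of ramification index `e` above a finite point and order `-e - 1` at a place
above `∞`, and `n j₀ = [F : K(j)]` for `j₀ ≠ 0, 1728`, then the divisor of every nonzero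
differential has degree `(μ - n 0) + (μ - n 1728) - μ - ninf`, `μ = [F : K(j)]`.
-/

set_option autoImplicit false
set_option linter.style.haveILetI false

open AlgebraicCurve IntermediateField KaehlerDifferential

namespace Fermat.Agent.S24_helper20_G

theorem G {K F : Type*} [Field K] [IsAlgClosed K] [CharZero K] [Field F] [Algebra K F]
    [HasCanonicalDivisor (K := K) (F := F)]
    (j : F) (hj : Transcendental K j) [FiniteDimensional K⟮j⟯ F]
    (n : K → ℕ) (ninf : ℕ)
    (hfin : ∀ j₀ : K, ∃ S : Finset (Place K F),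
      (∀ v, v ∈ S ↔ 0 < v.ord (j - algebraMap K F j₀)) ∧ S.card = n j₀ ∧
      ∀ v ∈ S, v.ordDifferential (D K F j) = v.ord (j - algebraMap K F j₀) - 1)
    (hinf : ∃ S : Finset (Place K F), (∀ v, v ∈ S ↔ v.ord j < 0) ∧ S.card = ninf ∧
      ∀ v ∈ S, v.ordDifferential (D K F j) = v.ord j - 1)
    (hn : ∀ j₀ : K, j₀ ≠ 0 → j₀ ≠ 1728 → n j₀ = Module.finrank K⟮j⟯ F)
    {ω : Ω[F⁄K]} (hω : ω ≠ 0) :
    Divisor.degree (canonicalDivisorOf hω) =
      ((Module.finrank K⟮j⟯ F : ℤ) - n 0) + ((Module.finrank K⟮j⟯ F : ℤ) - n 1728)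
        - (Module.finrank K⟮j⟯ F : ℤ) - ninf :=
  Fermat.Agent.S24_helper20_GCore.G_core j hj
    (Fermat.Agent.S24_helper6_A2Shapes.hprin j hj)
    (Fermat.Agent.S24_helper6_A2Shapes.hzeros j hj)
    (Fermat.Agent.S24_helper6_A2Shapes.hpoles j hj)
    n ninf hfin hinf hn hω

end Fermat.Agent.S24_helper20_G
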