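import Mathlib
import Fermat.Prelude.Def_AlgebraicCurve_CanonicalDivisor
import Fermat.Agent.S24_helper15_A1
import Fermat.Agent.S24_helper2_A3
import Fermat.Agent.S24_helper9_A0fin
import Fermat.Agent.S24_helper20_GCore

/-!
# S24, piece G: everything follows from the zero-side sum formula

`ZerosFormula K F`: for every transcendental `x` with `F / K(x)` finite, the zeros of `x` form a
finite set and `∑_{v(x) > 0} v(x) = [F : K(x)]`.

From it we derive the pole-side formula, the shifted formula for `x - c`, the existence of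
principal divisors of degree `0`, and hence the Riemann–Hurwitz bookkeeping `G_of_zeros`.
-/

set_option autoImplicit false
set_option linter.style.haveILetI false
set_option linter.unusedSectionVars false

open AlgebraicCurve IntermediateField KaehlerDifferential

namespace Fermat.Agent.S24_helper20_GSum

open Fermat.Agent.S24_helper20_GCore

variable {K F : Type*} [Field K] [Field F] [Algebra K F]

/-- The zero-side sum formula for all transcendental elements. -/
def ZerosFormula (K F : Type*) [Field K] [Field F] [Algebra K F] : Prop :=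
  ∀ x : F, Transcendental K x → FiniteDimensional K⟮x⟯ F →
    ∃ S : Finset (Place K F), (∀ v, v ∈ S ↔ 0 < v.ord x) ∧
      ∑ v ∈ S, v.ord x = (Module.finrank K⟮x⟯ F : ℤ)

theorem finrank_congr {E₁ E₂ : IntermediateField K F} (h : E₁ = E₂) :
    Module.finrank E₁ F = Module.finrank E₂ F := by
  subst h
  rfl

theorem finiteDimensional_congr {E₁ E₂ : IntermediateField K F} (h : E₁ = E₂)
    (h1 : FiniteDimensional E₂ F) : FiniteDimensional E₁ F := by
  subst h
  exact h1

/-- A nonzero constant has order `0` everywhere. -/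
theorem ord_algebraMap (v : Place K F) (c : K) : v.ord (algebraMap K F c) = 0 := by
  rcases eq_or_ne c 0 with rfl | hc
  · simp
  · have hu : IsUnit (algebraMap K v.toValuationSubring c) :=
      (isUnit_iff_ne_zero.mpr hc).map (algebraMap K v.toValuationSubring)
    have := v.ord_coe_unit hu.unit
    rwa [IsUnit.unit_spec, Place.coe_algebraMap] at this

theorem transcendental_sub_const {x : F} (hx : Transcendental K x) (c : K) :
    Transcendental K (x - algebraMap K F c) := by
  intro h
  apply hx
  have := h.add (isAlgebraic_algebraMap (R := K) (A := F) c)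
  simpa using this

theorem transcendental_inv {x : F} (hx : Transcendental K x) : Transcendental K x⁻¹ :=
  fun h => hx (IsAlgebraic.inv_iff.mp h)

/-- Shifted zero-side formula. -/
theorem zeros_shift (hZ : ZerosFormula K F) (j : F) (hj : Transcendental K j)
    [FiniteDimensional K⟮j⟯ F] (j₀ : K) (S : Finset (Place K F))
    (hS : ∀ v, v ∈ S ↔ 0 < v.ord (j - algebraMap K F j₀)) :
    ∑ v ∈ S, v.ord (j - algebraMap K F j₀) = (Module.finrank K⟮j⟯ F : ℤ) := by
  have hE := (Fermat.Agent.S24_helper9_A0fin.SHIFT (K := K) j j₀).1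
  obtain ⟨S', hS', hsum⟩ := hZ (j - algebraMap K F j₀) (transcendental_sub_const hj j₀)
    (finiteDimensional_congr hE inferInstance)
  have hSS : S = S' := by
    ext v
    rw [hS, hS']
  rw [hSS, hsum, finrank_congr hE]

/-- Pole-side formula. -/
theorem poles (hZ : ZerosFormula K F) (j : F) (hj : Transcendental K j)
    [FiniteDimensional K⟮j⟯ F] (S : Finset (Place K F))
    (hS : ∀ v, v ∈ S ↔ v.ord j < 0) :
    ∑ v ∈ S, v.ord j = -(Module.finrank K⟮j⟯ F : ℤ) := by
  have hE := (Fermat.Agent.S24_helper9_A0fin.SHIFT (K := K) j 0).2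
  obtain ⟨S', hS', hsum⟩ := hZ j⁻¹ (transcendental_inv hj)
    (finiteDimensional_congr hE inferInstance)
  have hSS : S = S' := by
    ext v
    rw [hS, hS', Place.ord_inv]
    omega
  rw [hSS, ← finrank_congr hE, ← hsum, ← Finset.sum_neg_distrib]
  refine Finset.sum_congr rfl fun v _ => ?_
  rw [Place.ord_inv, neg_neg]

/-- Existence of the pole set. -/
theorem exists_poles (hZ : ZerosFormula K F) (j : F) (hj : Transcendental K j)
    [FiniteDimensional K⟮j⟯ F] :
    ∃ S : Finset (Place K F), (∀ v, v ∈ S ↔ v.ord j < 0) ∧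
      ∑ v ∈ S, v.ord j = -(Module.finrank K⟮j⟯ F : ℤ) := by
  have hE := (Fermat.Agent.S24_helper9_A0fin.SHIFT (K := K) j 0).2
  obtain ⟨S', hS', -⟩ := hZ j⁻¹ (transcendental_inv hj)
    (finiteDimensional_congr hE inferInstance)
  have hS : ∀ v, v ∈ S' ↔ v.ord j < 0 := by
    intro v
    rw [hS', Place.ord_inv]
    omega
  exact ⟨S', hS, poles hZ j hj S' hS⟩

/-- Principal divisors exist and have degree `0`. -/
theorem prin [IsAlgClosed K] (hZ : ZerosFormula K F) (x : F) (hx : Transcendental K x)
    [FiniteDimensional K⟮x⟯ F] (f : F) (hf : f ≠ 0) :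
    ∃ D : Divisor K F, (∀ v : Place K F, D v = v.ord f) ∧ Divisor.degree D = 0 := by
  classical
  have halg : Algebra.IsAlgebraic K⟮x⟯ F := Algebra.IsAlgebraic.of_finite _ _
  have hdeg : ∀ v : Place K F, v.deg = 1 :=
    fun v => Fermat.Agent.S24_helper15_A1.deg_eq_one x halg v
  by_cases hfa : IsAlgebraic K f
  · obtain ⟨c, rfl⟩ := Fermat.Agent.S24_helper15_A1.exists_eq_algebraMap_of_isAlgebraic hfa
    refine ⟨0, fun v => ?_, map_zero _⟩
    rw [ord_algebraMap]
    rfl
  · have hfin : FiniteDimensional K⟮f⟯ F := Fermat.Agent.S24_helper9_A0fin.A0fin x hx f hfa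
    obtain ⟨S0, hS0, hsum0⟩ := hZ f hfa hfin
    obtain ⟨Si, hSi, hsumi⟩ := exists_poles hZ f hfa
    have hdisj : Disjoint S0 Si := by
      rw [Finset.disjoint_left]
      intro v h0 hi
      have h1 := (hS0 v).mp h0
      have h2 := (hSi v).mp hi
      omega
    let D : Divisor K F := Finsupp.onFinset (S0 ∪ Si) (fun v => v.ord f) (by
      intro v hv
      rw [Finset.mem_union, hS0, hSi]
      omega)
    have hD : ∀ v : Place K F, D v = v.ord f := fun v => rfl
    refine ⟨D, hD, ?_⟩
    rw [degree_eq_sum D hdeg (S0 ∪ Si) (fun v hv => by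
      rw [hD] at hv
      rw [Finset.mem_union, hS0, hSi]
      omega), Finset.sum_union hdisj]
    simp only [hD]
    rw [hsum0, hsumi]
    ring

/-- **Riemann–Hurwitz bookkeeping** from the zero-side sum formula. -/
theorem G_of_zeros [IsAlgClosed K] [CharZero K]
    [HasCanonicalDivisor (K := K) (F := F)] (hZ : ZerosFormula K F)
    (j : F) (hj : Transcendental K j) [FiniteDimensional K⟮j⟯ F]
    (n : K → ℕ) (ninf : ℕ)
    (hfin : ∀ j₀ : K, ∃ S : Finset (Place K F),
      (∀ v, v ∈ S ↔ 0 < v.ord (j - algebraMap K F j₀)) ∧ S.card = n j₀ ∧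
      ∀ v ∈ S, v.ordDifferential (D K F j) = v.ord (j - algebraMap K F j₀) - 1)
    (hinf : ∃ S : Finset (Place K F), (∀ v, v ∈ S ↔ v.ord j < 0) ∧ S.card = ninf ∧
      ∀ v ∈ S, v.ordDifferential (D K F j) = v.ord j - 1)
    (hn : ∀ j₀ : K, j₀ ≠ 0 → j₀ ≠ 1728 → n j₀ = Module.finrank K⟮j⟯ F)
    {ω : Ω[F⁄K]} (hω : ω ≠ 0) :
    Divisor.degree (canonicalDivisorOf hω) =
      ((Module.finrank K⟮j⟯ F : ℤ) - n 0) + ((Module.finrank K⟮j⟯ F : ℤ) - n 1728)
        - (Module.finrank K⟮j⟯ F : ℤ) - ninf :=
  G_core j hj (fun f hf => prin hZ j hj f hf) (fun j₀ S hS => zeros_shift hZ j hj j₀ S hS)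
    (fun S hS => poles hZ j hj S hS) n ninf hfin hinf hn hω

end Fermat.Agent.S24_helper20_GSum
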