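import Mathlib
import Fermat.Agent.S24_Defs
import Fermat.Agent.S24_helper21_B1
import Fermat.Agent.S24_helper3_B2
import Fermat.Agent.S24_helper6_A2

/-!
# S24, piece B-CNT: places above `t = 0` versus orbits of embeddings

Given `μ = [F : K(t)]` pairwise distinct embeddings `ι i : F → L((s))` which agree on `t`, with
`ord (ι i t) = e₀ > 0`, permuted by `s ↦ ζ s` (`ζ` a primitive `e₀`-th root of unity), the
places of `F` above `t = 0` are in bijection with the orbits of the permutation.
-/

set_option autoImplicit false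
set_option linter.style.haveILetI false
set_option linter.unusedVariables false
set_option linter.unusedSectionVars false

open UpperHalfPlane ModularForm CongruenceSubgroup AlgebraicCurve IntermediateField
open scoped MatrixGroups ModularForm Manifold
open Fermat.Agent.S20 Fermat.Agent.S24

noncomputable section

namespace Fermat.Agent.S24_helper26_BCNT

section Hahn

variable {L : Type*} [Field L]

theorem orderTop_nonneg_iff_of_coeff {x y : LaurentSeries L} (ζ : L) (hζ : ζ ≠ 0)
    (h : ∀ n : ℤ, y.coeff n = ζ ^ n * x.coeff n) : (0 ≤ y.orderTop ↔ 0 ≤ x.orderTop) := by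
  rw [HahnSeries.le_orderTop_iff_forall, HahnSeries.le_orderTop_iff_forall]
  constructor
  · intro H j hj
    have := H j hj
    rw [h j] at this
    exact (mul_eq_zero.mp this).resolve_left (zpow_ne_zero _ hζ)
  · intro H j hj
    rw [h j, H j hj, mul_zero]

end Hahn

section Perm

variable {I : Type*}

/-- if `π ^ a` and `π ^ b` agree at `i` with `a ≤ b`, then `π ^ (b - a)` fixes `i`. -/
theorem pow_sub_fix (π : Equiv.Perm I) (i : I) {a b : ℕ} (hab : a ≤ b)
    (h : (π ^ a) i = (π ^ b) i) : (π ^ (b - a)) i = i := by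
  have e : π ^ b = π ^ a * π ^ (b - a) := by
    rw [← pow_add, Nat.add_sub_cancel' hab]
  rw [e, Equiv.Perm.mul_apply] at h
  exact ((π ^ a).injective h).symm

end Perm

theorem BCNT {K F : Type*} [Field K] [IsAlgClosed K] [CharZero K] [Field F] [Algebra K F]
    (t : F) (ht : Transcendental K t) [FiniteDimensional K⟮t⟯ F]
    {L : Type*} [Field L] (φ₀ : K →+* L)
    {I : Type*} [Fintype I] (hI : Fintype.card I = Module.finrank K⟮t⟯ F)
    (ι : I → F →+* LaurentSeries L)
    (hιK : ∀ i a, ι i (algebraMap K F a) = HahnSeries.C (φ₀ a))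
    (hιinj : Function.Injective ι)
    (hιt : ∀ i i', ι i t = ι i' t)
    (e₀ : ℕ) (he₀ : 0 < e₀) (hord : ∀ i, (ι i t).order = (e₀ : ℤ))
    (ζ : L) (hζ : IsPrimitiveRoot ζ e₀)
    (π : Equiv.Perm I)
    (hπ : ∀ i f (n : ℤ), (ι (π i) f).coeff n = ζ ^ n * (ι i f).coeff n) :
    ∃ (S : Finset (Place K F)) (o : S → MulAction.orbitRel.Quotient (Subgroup.zpowers π) I),
      (∀ v, v ∈ S ↔ 0 < v.ord t) ∧ Function.Bijective o := by
  classical
  have hζ0 : ζ ≠ 0 := hζ.ne_zero he₀.ne'
  have hordpos : ∀ i, 0 < (ι i t).order := fun i => by rw [hord i]; exact_mod_cast he₀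
  have ht0 : t ≠ 0 := by
    rintro rfl
    exact ht (isAlgebraic_zero)
  -- (1) the places
  have hB1 := fun i => Fermat.Agent.S24_helper21_B1.B1 φ₀ (ι i) (hιK i) t (hordpos i)
  choose P m hm hmul hmem using hB1
  have hPt : ∀ i, (e₀ : ℤ) = m i * (P i).ord t := fun i => by rw [← hmul i t ht0, hord i]
  have hPpos : ∀ i, 0 < (P i).ord t := by
    intro i
    have h1 : (0 : ℤ) < m i * (P i).ord t := by rw [← hPt i]; exact_mod_cast he₀
    exact pos_of_mul_pos_left (by rwa [mul_comm] at h1) (by positivity)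
  -- (2) the finite set of places
  set S : Finset (Place K F) := (Fermat.Agent.S24_helper6_A2.zeros_finite t ht).toFinset with hSdef
  have hS : ∀ v, v ∈ S ↔ 0 < v.ord t := by
    intro v
    rw [hSdef, Set.Finite.mem_toFinset]
    rfl
  have hsurj : ∀ v : Place K F, 0 < v.ord t → ∃ i, P i = v := by
    intro v hv
    obtain ⟨i, hi⟩ := Fermat.Agent.S24_helper3_B2.B2 t ht φ₀ hI ι hιK hιinj hιt hordpos v hv
    refine ⟨i, Place.ext ?_⟩
    ext f
    exact (hmem i f).trans (hi f).symm
  -- (3) invariance under `π`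
  have hPπ : ∀ i, P (π i) = P i := by
    intro i
    apply Place.ext
    ext f
    exact ((hmem (π i) f).trans (orderTop_nonneg_iff_of_coeff ζ hζ0 (hπ i f))).trans
      (hmem i f).symm
  let H : Subgroup (Equiv.Perm I) :=
    { carrier := {g | ∀ i, P (g i) = P i}
      mul_mem' := fun {a b} ha hb i => by
        rw [Equiv.Perm.mul_apply, ha, hb]
      one_mem' := fun i => rfl
      inv_mem' := fun {g} hg i => by
        have := hg (g⁻¹ i)
        have e : g (g⁻¹ i) = i := g.apply_symm_apply i
        rw [e] at this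
        exact this.symm }
  have hH : Subgroup.zpowers π ≤ H := (Subgroup.zpowers_le).2 hPπ
  have hPg : ∀ g ∈ Subgroup.zpowers π, ∀ i, P (g i) = P i := fun g hg => hH hg
  have hPpow : ∀ (a : ℕ) i, P ((π ^ a) i) = P i := fun a i =>
    hPg _ (Subgroup.pow_mem _ (Subgroup.mem_zpowers π) a) i
  -- (4) the key divisibility
  have hcoeffpow : ∀ (a : ℕ) i f (n : ℤ),
      (ι ((π ^ a) i) f).coeff n = ζ ^ ((a : ℤ) * n) * (ι i f).coeff n := by
    intro a
    induction a with
    | zero => intro i f n; simp
    | succ a ih =>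
      intro i f n
      rw [pow_succ', Equiv.Perm.mul_apply, hπ, ih, ← mul_assoc, ← zpow_add₀ hζ0]
      congr 2
      push_cast
      ring
  have hkey : ∀ (a : ℕ) i, (π ^ a) i = i → (P i).ord t ∣ (a : ℤ) := by
    intro a i hfix
    obtain ⟨u, hu⟩ := IsDiscreteValuationRing.exists_irreducible (P i).toValuationSubring
    have hu0 : (u : F) ≠ 0 := fun h => hu.ne_zero (Subtype.ext h)
    have hu1 : (P i).ord (u : F) = 1 := (P i).ord_coe_irreducible hu
    have hord_u : (ι i (u : F)).order = m i := by
      rw [hmul i _ hu0, hu1, mul_one]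
    have hne : ι i (u : F) ≠ 0 := Fermat.Agent.S24_helper21_B1.iota_ne_zero (ι i) hu0
    have hc : (ι i (u : F)).coeff (m i : ℤ) ≠ 0 := by
      rw [← hord_u, ← HahnSeries.leadingCoeff_eq]
      exact HahnSeries.leadingCoeff_ne_zero.mpr hne
    have h1 := hcoeffpow a i (u : F) (m i : ℤ)
    rw [hfix] at h1
    have h2 : ζ ^ ((a : ℤ) * (m i : ℤ)) = 1 := by
      have h3 : (1 - ζ ^ ((a : ℤ) * (m i : ℤ))) * (ι i (u : F)).coeff (m i : ℤ) = 0 := by
        rw [sub_mul, one_mul, ← h1, sub_self]
      rcases mul_eq_zero.mp h3 with h4 | h4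
      · exact (sub_eq_zero.mp h4).symm
      · exact absurd h4 hc
    have h5 : (e₀ : ℤ) ∣ (a : ℤ) * (m i : ℤ) := (hζ.zpow_eq_one_iff_dvd _).mp h2
    rw [hPt i, mul_comm (a : ℤ)] at h5
    exact (mul_dvd_mul_iff_left (by exact_mod_cast (hm i).ne')).mp h5
  -- injectivity of `a ↦ π ^ a i` below the ramification index
  have hinj_lt : ∀ i (a b : ℕ), a < b → (b : ℤ) < (P i).ord t → (π ^ a) i ≠ (π ^ b) i := by
    intro i a b hab hb h
    have h1 := pow_sub_fix π i hab.le h
    have h2 := hkey (b - a) i h1
    have h3 : (0 : ℤ) < ((b - a : ℕ) : ℤ) := by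
      have : 0 < b - a := Nat.sub_pos_of_lt hab
      exact_mod_cast this
    have h4 := Int.le_of_dvd h3 h2
    have h5 : ((b - a : ℕ) : ℤ) ≤ b := by
      exact_mod_cast Nat.sub_le b a
    omega
  have hinjOn : ∀ i, Set.InjOn (fun a : ℕ => (π ^ a) i)
      (Finset.range ((P i).ord t).toNat : Finset ℕ) := by
    intro i a ha b hb hab
    simp only [Finset.coe_range, Set.mem_Iio] at ha hb
    have ha' : (a : ℤ) < (P i).ord t := by omega
    have hb' : (b : ℤ) < (P i).ord t := by omega
    rcases lt_trichotomy a b with h | h | h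
    · exact absurd hab (hinj_lt i a b h hb')
    · exact h
    · exact absurd hab.symm (hinj_lt i b a h ha')
  -- (5) counting
  let fib : Place K F → Finset I := fun v => Finset.univ.filter fun i => P i = v
  have hsub : ∀ i, (Finset.range ((P i).ord t).toNat).image (fun a : ℕ => (π ^ a) i)
      ⊆ fib (P i) := by
    intro i j hj
    obtain ⟨a, -, rfl⟩ := Finset.mem_image.mp hj
    simp only [fib, Finset.mem_filter, Finset.mem_univ, true_and]
    exact hPpow a i
  have hcardimg : ∀ i, ((Finset.range ((P i).ord t).toNat).image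
      (fun a : ℕ => (π ^ a) i)).card = ((P i).ord t).toNat := by
    intro i
    rw [Finset.card_image_of_injOn (hinjOn i), Finset.card_range]
  have hle : ∀ v ∈ S, v.ord t ≤ ((fib v).card : ℤ) := by
    intro v hv
    obtain ⟨i, rfl⟩ := hsurj v ((hS v).mp hv)
    have h1 := Finset.card_le_card (hsub i)
    rw [hcardimg i] at h1
    have h2 := hPpos i
    omega
  have hsumfib : ∑ v ∈ S, ((fib v).card : ℤ) = (Fintype.card I : ℤ) := by
    have h1 := Finset.card_eq_sum_card_fiberwise (f := P) (s := Finset.univ) (t := S)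
      (fun i _ => (hS _).mpr (hPpos i))
    rw [Finset.card_univ] at h1
    rw [h1]
    push_cast
    rfl
  have hsumord : ∑ v ∈ S, v.ord t = (Fintype.card I : ℤ) := by
    rw [hI]
    exact Fermat.Agent.S24_helper6_A2.sum_ord_zeros t ht
  have heq : ∀ v ∈ S, v.ord t = ((fib v).card : ℤ) :=
    (Finset.sum_eq_sum_iff_of_le hle).mp (hsumord.trans hsumfib.symm)
  -- the map from orbits to places
  let Pbar : MulAction.orbitRel.Quotient (Subgroup.zpowers π) I → S :=
    Quotient.lift (fun i => (⟨P i, (hS _).mpr (hPpos i)⟩ : S)) (by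
      intro i j hij
      have hij' : i ∈ MulAction.orbit (Subgroup.zpowers π) j := hij
      obtain ⟨g, hg⟩ := MulAction.mem_orbit_iff.mp hij'
      apply Subtype.ext
      show P i = P j
      rw [← hg]
      exact hPg (g : Equiv.Perm I) g.2 j)
  have hPbar_surj : Function.Surjective Pbar := by
    rintro ⟨v, hv⟩
    obtain ⟨i, hi⟩ := hsurj v ((hS v).mp hv)
    exact ⟨Quotient.mk _ i, Subtype.ext hi⟩
  have hPbar_inj : Function.Injective Pbar := by
    intro x y
    induction x using Quotient.inductionOn with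
    | _ i =>
    induction y using Quotient.inductionOn with
    | _ j =>
    intro hxy
    have hPij : P i = P j := congrArg Subtype.val hxy
    by_contra hne
    have hnorb : ∀ g ∈ Subgroup.zpowers π, g j ≠ i := by
      intro g hg hgj
      apply hne
      apply Quotient.sound
      show i ∈ MulAction.orbit (Subgroup.zpowers π) j
      exact MulAction.mem_orbit_iff.mpr ⟨⟨g, hg⟩, hgj⟩
    -- two disjoint subsets of the fibre
    have hdisj : Disjoint
        ((Finset.range ((P i).ord t).toNat).image (fun a : ℕ => (π ^ a) i))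
        ((Finset.range ((P j).ord t).toNat).image (fun a : ℕ => (π ^ a) j)) := by
      rw [Finset.disjoint_left]
      intro k hk1 hk2
      obtain ⟨a, -, ha⟩ := Finset.mem_image.mp hk1
      obtain ⟨b, -, hb⟩ := Finset.mem_image.mp hk2
      have h1 : (π ^ a) i = (π ^ b) j := ha.trans hb.symm
      have h2 : ((π ^ a)⁻¹ * π ^ b) j = i := by
        rw [Equiv.Perm.mul_apply, ← h1]
        exact (π ^ a).symm_apply_apply i
      exact hnorb _ (Subgroup.mul_mem _
        (Subgroup.inv_mem _ (Subgroup.pow_mem _ (Subgroup.mem_zpowers π) a))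
        (Subgroup.pow_mem _ (Subgroup.mem_zpowers π) b)) h2
    have hunion : ((Finset.range ((P i).ord t).toNat).image (fun a : ℕ => (π ^ a) i)) ∪
        ((Finset.range ((P j).ord t).toNat).image (fun a : ℕ => (π ^ a) j)) ⊆ fib (P i) := by
      apply Finset.union_subset (hsub i)
      rw [hPij]
      exact hsub j
    have h1 := Finset.card_le_card hunion
    rw [Finset.card_union_of_disjoint hdisj, hcardimg i, hcardimg j] at h1
    have h2 := heq (P i) ((hS _).mpr (hPpos i))
    have h3 := hPpos i
    have h4 := hPpos j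
    rw [← hPij] at h1
    omega
  have hbij : Function.Bijective Pbar := ⟨hPbar_inj, hPbar_surj⟩
  exact ⟨S, (Equiv.ofBijective Pbar hbij).symm, hS, (Equiv.ofBijective Pbar hbij).symm.bijective⟩

end Fermat.Agent.S24_helper26_BCNT
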