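import Fermat.Agent.S28_helper14_Val

/-!
# S28 piece VAL1: basic facts on the valuation ring `Vring ℓ`

* `exists_eq_mul_of_redFun_eq_zero`: the kernel of the reduction is `ℓ • Vring`;
* `redFun_natCast_mul`: the converse;
* `exists_normalize`: every nonzero series over `ℤ_(ℓ)` is `ℓ ^ n` times a series with
  nonzero reduction;
* `mem_Vring_of_isIntegral`: `Vring ℓ` is integrally closed in the fraction field of
  `ℤ_(ℓ)((q))`.
-/

set_option autoImplicit false

noncomputable section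

namespace Fermat.Agent.S28_VAL1

open ModularCurve Fermat.Agent.S28_helper14_Res Fermat.Agent.S28_helper14_Val

variable (ℓ : ℕ) [Fact ℓ.Prime]

/-- exact division by `ℓ` in `ℤ_(ℓ)` (junk value `0` when not divisible) -/
def divL : ZeroHom (Rl ℓ) (Rl ℓ) where
  toFun x := by
    classical
    exact if h : ∃ y : Rl ℓ, x = (ℓ : Rl ℓ) * y then h.choose else 0
  map_zero' := by
    classical
    have h : ∃ y : Rl ℓ, (0 : Rl ℓ) = (ℓ : Rl ℓ) * y := ⟨0, by simp⟩
    simp only [dif_pos h]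
    have h2 := h.choose_spec
    have hℓ : (ℓ : Rl ℓ) ≠ 0 := by
      intro h0
      have := congrArg (fun x : Rl ℓ => (x : ℚ)) h0
      simp at this
      exact (Fact.out : ℓ.Prime).ne_zero this
    rcases mul_eq_zero.mp h2.symm with h3 | h3
    · exact absurd h3 hℓ
    · exact h3

theorem natCast_ne_zero_Rl : (ℓ : Rl ℓ) ≠ 0 := by
  intro h0
  have := congrArg (fun x : Rl ℓ => (x : ℚ)) h0
  simp at this
  exact (Fact.out : ℓ.Prime).ne_zero this

theorem mul_divL {x : Rl ℓ} (h : resR ℓ x = 0) : (ℓ : Rl ℓ) * divL ℓ x = x := by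
  classical
  have h' : ∃ y : Rl ℓ, x = (ℓ : Rl ℓ) * y := (resR_eq_zero_iff ℓ x).mp h
  show (ℓ : Rl ℓ) * (if h : ∃ y : Rl ℓ, x = (ℓ : Rl ℓ) * y then h.choose else 0) = x
  rw [dif_pos h']
  exact h'.choose_spec.symm

theorem natCast_mul_coeff {R : Type*} [CommRing R] (n : ℕ) (a : LaurentSeries R) (k : ℤ) :
    (((n : LaurentSeries R)) * a).coeff k = (n : R) * a.coeff k := by
  have : ((n : LaurentSeries R)) = HahnSeries.C (n : R) := by
    rw [map_natCast]
  rw [this, HahnSeries.C_mul_eq_smul, HahnSeries.coeff_smul, smul_eq_mul]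

/-- Lemma A: a series with zero reduction is divisible by `ℓ`. -/
theorem exists_eq_mul_of_redL_eq_zero {a : LaurentSeries (Rl ℓ)} (h : redL ℓ a = 0) :
    ∃ a' : LaurentSeries (Rl ℓ), a = (ℓ : LaurentSeries (Rl ℓ)) * a' := by
  refine ⟨a.map (divL ℓ), ?_⟩
  refine HahnSeries.ext ?_
  funext k
  rw [natCast_mul_coeff]
  show a.coeff k = (ℓ : Rl ℓ) * divL ℓ (a.coeff k)
  have hk : resR ℓ (a.coeff k) = 0 := by
    have := congrArg (fun x => x.coeff k) h
    simpa using this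
  exact (mul_divL ℓ hk).symm

theorem natCast_LS_ne_zero : (ℓ : LaurentSeries ℚ) ≠ 0 := by
  have hℓ : (ℓ : ℚ) ≠ 0 := by exact_mod_cast (Fact.out : ℓ.Prime).ne_zero
  intro h
  apply hℓ
  have h2 := natCast_mul_coeff ℓ (1 : LaurentSeries ℚ) 0
  rw [h, zero_mul, HahnSeries.coeff_zero, HahnSeries.coeff_one] at h2
  simpa using h2.symm

theorem natCast_LS_zmod : (ℓ : LaurentSeries (ZMod ℓ)) = 0 := by
  have : ((ℓ : LaurentSeries (ZMod ℓ))) = HahnSeries.C ((ℓ : ZMod ℓ)) := by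
    rw [map_natCast]
  rw [this, ZMod.natCast_self, map_zero]

theorem redL_ne_zero_imp_ne_zero {b : LaurentSeries (Rl ℓ)} (hb : redL ℓ b ≠ 0) : b ≠ 0 := by
  rintro rfl
  exact hb (map_zero _)

theorem incL_ne_zero {b : LaurentSeries (Rl ℓ)} (hb : b ≠ 0) : incL ℓ b ≠ 0 :=
  fun h => hb ((incL_eq_zero_iff ℓ b).mp h)

theorem exists_eq_mul_of_redFun_eq_zero {x : LaurentSeries ℚ}
    (hx : x ∈ Vring ℓ) (h : redFun ℓ x = 0) : ∃ y ∈ Vring ℓ, x = (ℓ : LaurentSeries ℚ) * y := by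
  obtain ⟨a, b, hb, hab⟩ := hx
  rw [redFun_eq ℓ hb hab, div_eq_zero_iff] at h
  have ha : redL ℓ a = 0 := h.resolve_right hb
  obtain ⟨a', rfl⟩ := exists_eq_mul_of_redL_eq_zero ℓ ha
  have hb0 : incL ℓ b ≠ 0 := incL_ne_zero ℓ (redL_ne_zero_imp_ne_zero ℓ hb)
  refine ⟨incL ℓ a' / incL ℓ b, ⟨a', b, hb, by field_simp⟩, ?_⟩
  rw [map_mul, map_natCast] at hab
  field_simp
  linear_combination hab

theorem redFun_natCast_mul {y : LaurentSeries ℚ} (hy : y ∈ Vring ℓ) :
    redFun ℓ ((ℓ : LaurentSeries ℚ) * y) = 0 := by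
  obtain ⟨a, b, hb, hab⟩ := hy
  have h2 : incL ℓ b * ((ℓ : LaurentSeries ℚ) * y) = incL ℓ ((ℓ : LaurentSeries (Rl ℓ)) * a) := by
    rw [map_mul, map_natCast, ← hab]
    ring
  rw [redFun_eq ℓ hb h2, map_mul, map_natCast, natCast_LS_zmod, zero_mul, zero_div]

theorem padicValRat_nonneg_Rl (x : Rl ℓ) : 0 ≤ padicValRat ℓ (x : ℚ) := by
  rw [padicValRat]
  have h : padicValNat ℓ (x : ℚ).den = 0 := padicValNat.eq_zero_of_not_dvd (not_dvd_den ℓ x)
  rw [h]
  simp

theorem exists_normalize_aux (k : ℕ) : ∀ (a : LaurentSeries (Rl ℓ)) (m : ℤ),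
    a.coeff m ≠ 0 → padicValRat ℓ ((a.coeff m : Rl ℓ) : ℚ) = k →
    ∃ (n : ℕ) (a' : LaurentSeries (Rl ℓ)),
      a = (ℓ : LaurentSeries (Rl ℓ)) ^ n * a' ∧ redL ℓ a' ≠ 0 := by
  induction k with
  | zero =>
    intro a m hm hv
    refine ⟨0, a, by simp, fun h0 => ?_⟩
    obtain ⟨a', rfl⟩ := exists_eq_mul_of_redL_eq_zero ℓ h0
    rw [natCast_mul_coeff] at hm hv
    have ha' : a'.coeff m ≠ 0 := fun h => hm (by rw [h, mul_zero])
    have hq : ((a'.coeff m : Rl ℓ) : ℚ) ≠ 0 := fun h => ha' (Subtype.ext h)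
    have hℓ : (ℓ : ℚ) ≠ 0 := by exact_mod_cast (Fact.out : ℓ.Prime).ne_zero
    push_cast at hv
    rw [padicValRat.mul hℓ hq, padicValRat.self (Fact.out : ℓ.Prime).one_lt] at hv
    have := padicValRat_nonneg_Rl ℓ (a'.coeff m)
    omega
  | succ k ih =>
    intro a m hm hv
    by_cases h0 : redL ℓ a = 0
    · obtain ⟨a', rfl⟩ := exists_eq_mul_of_redL_eq_zero ℓ h0
      rw [natCast_mul_coeff] at hm hv
      have ha' : a'.coeff m ≠ 0 := fun h => hm (by rw [h, mul_zero])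
      have hq : ((a'.coeff m : Rl ℓ) : ℚ) ≠ 0 := fun h => ha' (Subtype.ext h)
      have hℓ : (ℓ : ℚ) ≠ 0 := by exact_mod_cast (Fact.out : ℓ.Prime).ne_zero
      push_cast at hv
      rw [padicValRat.mul hℓ hq, padicValRat.self (Fact.out : ℓ.Prime).one_lt] at hv
      have hv' : padicValRat ℓ ((a'.coeff m : Rl ℓ) : ℚ) = k := by
        omega
      obtain ⟨n, a'', rfl, h''⟩ := ih a' m ha' hv'
      exact ⟨n + 1, a'', by ring, h''⟩
    · exact ⟨0, a, by simp, h0⟩

theorem exists_normalize (a : LaurentSeries (Rl ℓ)) (ha : a ≠ 0) :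
    ∃ (n : ℕ) (a' : LaurentSeries (Rl ℓ)),
      a = (ℓ : LaurentSeries (Rl ℓ)) ^ n * a' ∧ redL ℓ a' ≠ 0 := by
  obtain ⟨m, hm⟩ : ∃ m, a.coeff m ≠ 0 := by
    by_contra h
    refine ha (HahnSeries.ext (funext fun m => ?_))
    by_contra hm
    exact h ⟨m, hm⟩
  have h0 := padicValRat_nonneg_Rl ℓ (a.coeff m)
  obtain ⟨k, hk⟩ := Int.eq_ofNat_of_zero_le h0
  exact exists_normalize_aux ℓ k a m hm hk

/-- an element of the valuation ring with zero reduction is not the inverse of an integral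
element -/
theorem not_isIntegral_inv {y : LaurentSeries ℚ} (hy : y ∈ Vring ℓ) (hy0 : redFun ℓ y = 0)
    (hyz : y ≠ 0) : ¬ IsIntegral (Vring ℓ) y⁻¹ := by
  rintro ⟨p, hp, hpx⟩
  -- the value of the reversed polynomial at `y`
  have key : Polynomial.eval₂ (algebraMap (Vring ℓ) (LaurentSeries ℚ)) y p.reverse = 0 := by
    let _ : Invertible y⁻¹ := invertibleOfNonzero (inv_ne_zero hyz)
    have h := (Polynomial.eval₂_reverse_eq_zero_iff (algebraMap (Vring ℓ) (LaurentSeries ℚ))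
      y⁻¹ p).mpr hpx
    rwa [invOf_eq_inv, inv_inv] at h
  -- transport to the subring
  set z : Vring ℓ := ⟨y, hy⟩ with hzdef
  have hz : ((Polynomial.eval z p.reverse : Vring ℓ) : LaurentSeries ℚ) =
      Polynomial.eval₂ (Vring ℓ).subtype y p.reverse := by
    have := Polynomial.hom_eval₂ p.reverse (RingHom.id _) (Vring ℓ).subtype z
    rw [Polynomial.eval₂_id, RingHom.comp_id] at this
    exact this
  have hz0 : Polynomial.eval z p.reverse = 0 := by
    apply Subtype.ext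
    rw [hz]
    exact key
  -- reduce
  have hred := Polynomial.hom_eval₂ p.reverse (RingHom.id _) (red ℓ) z
  rw [Polynomial.eval₂_id, RingHom.comp_id, hz0, map_zero] at hred
  have hz1 : red ℓ z = 0 := hy0
  rw [hz1, Polynomial.eval₂_at_zero, Polynomial.coeff_zero_reverse, hp.leadingCoeff,
    map_one] at hred
  exact zero_ne_one hred

theorem mem_Vring_of_isIntegral {x : LaurentSeries ℚ}
    (hfrac : ∃ a b : LaurentSeries (Rl ℓ), b ≠ 0 ∧ incL ℓ b * x = incL ℓ a)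
    (hint : IsIntegral (Vring ℓ) x) : x ∈ Vring ℓ := by
  obtain ⟨a, b, hb, hab⟩ := hfrac
  by_cases ha : a = 0
  · subst ha
    rw [map_zero] at hab
    rcases mul_eq_zero.mp hab with h | h
    · exact absurd h (incL_ne_zero ℓ hb)
    · rw [h]; exact zero_mem _
  obtain ⟨n, a', rfl, ha'⟩ := exists_normalize ℓ a ha
  obtain ⟨m, b', rfl, hb'⟩ := exists_normalize ℓ b hb
  have hℓ := natCast_LS_ne_zero ℓ
  have ha0 : incL ℓ a' ≠ 0 := incL_ne_zero ℓ (redL_ne_zero_imp_ne_zero ℓ ha')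
  have hb0 : incL ℓ b' ≠ 0 := incL_ne_zero ℓ (redL_ne_zero_imp_ne_zero ℓ hb')
  simp only [map_mul, map_pow, map_natCast] at hab
  rcases le_or_gt m n with hmn | hmn
  · -- `x = ℓ^(n-m) a' / b'`
    refine ⟨(ℓ : LaurentSeries (Rl ℓ)) ^ (n - m) * a', b', hb', ?_⟩
    simp only [map_mul, map_pow, map_natCast]
    have hpow : (ℓ : LaurentSeries ℚ) ^ n = (ℓ : LaurentSeries ℚ) ^ m * (ℓ : LaurentSeries ℚ) ^ (n - m) := by
      rw [← pow_add]; congr 1; omega
    rw [hpow] at hab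
    have hm0 : (ℓ : LaurentSeries ℚ) ^ m ≠ 0 := pow_ne_zero _ hℓ
    apply mul_left_cancel₀ hm0
    linear_combination hab
  · -- `x⁻¹ = ℓ^(m-n) b' / a'` has zero reduction: contradiction
    exfalso
    have hpow : (ℓ : LaurentSeries ℚ) ^ m = (ℓ : LaurentSeries ℚ) ^ n * (ℓ : LaurentSeries ℚ) ^ (m - n) := by
      rw [← pow_add]; congr 1; omega
    rw [hpow] at hab
    have hn0 : (ℓ : LaurentSeries ℚ) ^ n ≠ 0 := pow_ne_zero _ hℓ
    have hab' : (ℓ : LaurentSeries ℚ) ^ (m - n) * incL ℓ b' * x = incL ℓ a' := by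
      apply mul_left_cancel₀ hn0
      linear_combination hab
    have hx0 : x ≠ 0 := by
      rintro rfl
      rw [mul_zero] at hab'
      exact ha0 hab'.symm
    have hinv : incL ℓ a' * x⁻¹ = incL ℓ ((ℓ : LaurentSeries (Rl ℓ)) ^ (m - n) * b') := by
      simp only [map_mul, map_pow, map_natCast]
      field_simp
      linear_combination -hab'
    have hmem : x⁻¹ ∈ Vring ℓ := ⟨_, a', ha', hinv⟩
    have hred : redFun ℓ x⁻¹ = 0 := by
      rw [redFun_eq ℓ ha' hinv, map_mul, map_pow, map_natCast, natCast_LS_zmod,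
        zero_pow (by omega), zero_mul, zero_div]
    have := not_isIntegral_inv ℓ hmem hred (inv_ne_zero hx0)
    rw [inv_inv] at this
    exact this hint

end Fermat.Agent.S28_VAL1
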