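import Fermat.Agent.S28_helper14_Res

set_option autoImplicit false
set_option linter.unusedSectionVars false

noncomputable section

namespace Fermat.Agent.S28_helper14_Val

open ModularCurve Fermat.Agent.S28_helper14_Res

variable (ℓ : ℕ) [Fact ℓ.Prime]

/-- The coefficientwise inclusion `ℤ_(ℓ)((q)) → ℚ((q))`. -/
def incL : LaurentSeries (Rl ℓ) →+* LaurentSeries ℚ :=
  coeffMap (GaloisRep.ratLocalizedAt ℓ).subtype

/-- The coefficientwise reduction `ℤ_(ℓ)((q)) → 𝔽_ℓ((q))`. -/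
def redL : LaurentSeries (Rl ℓ) →+* LaurentSeries (ZMod ℓ) :=
  coeffMap (resR ℓ)

@[simp] theorem incL_coeff (a : LaurentSeries (Rl ℓ)) (n : ℤ) :
    (incL ℓ a).coeff n = ((a.coeff n : Rl ℓ) : ℚ) := rfl

@[simp] theorem redL_coeff (a : LaurentSeries (Rl ℓ)) (n : ℤ) :
    (redL ℓ a).coeff n = resR ℓ (a.coeff n) := rfl

theorem incL_injective : Function.Injective (incL ℓ) := by
  intro a b h
  ext n
  have := congrArg (fun x => x.coeff n) h
  simpa using this

theorem incL_eq_zero_iff (a : LaurentSeries (Rl ℓ)) : incL ℓ a = 0 ↔ a = 0 :=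
  map_eq_zero_iff (incL ℓ) (incL_injective ℓ)

/-- The valuation ring of the `ℓ`-adic Gauss valuation on the fraction field of `ℤ_(ℓ)((q))`,
as a subring of `ℚ((q))`. -/
def Vring : Subring (LaurentSeries ℚ) where
  carrier := {x | ∃ a b : LaurentSeries (Rl ℓ), redL ℓ b ≠ 0 ∧ incL ℓ b * x = incL ℓ a}
  mul_mem' := by
    rintro x y ⟨a, b, hb, h⟩ ⟨a', b', hb', h'⟩
    refine ⟨a * a', b * b', ?_, ?_⟩
    · rw [map_mul]; exact mul_ne_zero hb hb'
    · rw [map_mul, map_mul, ← h, ← h']; ring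
  one_mem' := ⟨1, 1, by rw [map_one]; exact one_ne_zero, by simp⟩
  add_mem' := by
    rintro x y ⟨a, b, hb, h⟩ ⟨a', b', hb', h'⟩
    refine ⟨a * b' + a' * b, b * b', ?_, ?_⟩
    · rw [map_mul]; exact mul_ne_zero hb hb'
    · rw [map_mul, map_add, map_mul, map_mul, ← h, ← h']; ring
  zero_mem' := ⟨0, 1, by rw [map_one]; exact one_ne_zero, by simp⟩
  neg_mem' := by
    rintro x ⟨a, b, hb, h⟩
    exact ⟨-a, b, hb, by rw [map_neg, ← h]; ring⟩

theorem mem_Vring_iff {x : LaurentSeries ℚ} :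
    x ∈ Vring ℓ ↔ ∃ a b : LaurentSeries (Rl ℓ), redL ℓ b ≠ 0 ∧ incL ℓ b * x = incL ℓ a :=
  Iff.rfl

theorem incL_mem_Vring (a : LaurentSeries (Rl ℓ)) : incL ℓ a ∈ Vring ℓ :=
  ⟨a, 1, by rw [map_one]; exact one_ne_zero, by simp⟩

open Classical in
/-- Reduction modulo `ℓ` of an element of the valuation ring (junk value `0` outside). -/
def redFun (x : LaurentSeries ℚ) : LaurentSeries (ZMod ℓ) :=
  if h : x ∈ Vring ℓ then redL ℓ h.choose / redL ℓ h.choose_spec.choose else 0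

theorem redFun_eq {x : LaurentSeries ℚ} {a b : LaurentSeries (Rl ℓ)} (hb : redL ℓ b ≠ 0)
    (h : incL ℓ b * x = incL ℓ a) : redFun ℓ x = redL ℓ a / redL ℓ b := by
  have hx : x ∈ Vring ℓ := ⟨a, b, hb, h⟩
  rw [redFun, dif_pos hx]
  obtain ⟨hb', h'⟩ := hx.choose_spec.choose_spec
  set a' := hx.choose
  set b' := hx.choose_spec.choose
  rw [div_eq_div_iff hb' hb, ← map_mul, ← map_mul]
  congr 1
  apply incL_injective ℓ
  rw [map_mul, map_mul, ← h, ← h']
  ring

/-- Reduction modulo `ℓ` as a ring homomorphism on the valuation ring. -/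
def red : Vring ℓ →+* LaurentSeries (ZMod ℓ) where
  toFun x := redFun ℓ (x : LaurentSeries ℚ)
  map_one' := by
    rw [redFun_eq ℓ (a := 1) (b := 1) (by rw [map_one]; exact one_ne_zero) (by simp)]
    simp
  map_mul' := by
    rintro ⟨x, a, b, hb, h⟩ ⟨y, a', b', hb', h'⟩
    show redFun ℓ (x * y) = redFun ℓ x * redFun ℓ y
    rw [redFun_eq ℓ hb h, redFun_eq ℓ hb' h',
      redFun_eq ℓ (a := a * a') (b := b * b') (by rw [map_mul]; exact mul_ne_zero hb hb')
        (by rw [map_mul, map_mul, ← h, ← h']; ring), map_mul, map_mul]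
    field_simp
  map_zero' := by
    rw [redFun_eq ℓ (a := 0) (b := 1) (by rw [map_one]; exact one_ne_zero) (by simp)]
    simp
  map_add' := by
    rintro ⟨x, a, b, hb, h⟩ ⟨y, a', b', hb', h'⟩
    show redFun ℓ (x + y) = redFun ℓ x + redFun ℓ y
    rw [redFun_eq ℓ hb h, redFun_eq ℓ hb' h',
      redFun_eq ℓ (a := a * b' + a' * b) (b := b * b') (by rw [map_mul]; exact mul_ne_zero hb hb')
        (by rw [map_mul, map_add, map_mul, map_mul, ← h, ← h']; ring), map_mul, map_add, map_mul,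
      map_mul]
    field_simp

theorem red_apply (x : Vring ℓ) : red ℓ x = redFun ℓ (x : LaurentSeries ℚ) := rfl

theorem redFun_incL (a : LaurentSeries (Rl ℓ)) : redFun ℓ (incL ℓ a) = redL ℓ a := by
  rw [redFun_eq ℓ (a := a) (b := 1) (by rw [map_one]; exact one_ne_zero) (by simp)]
  simp

end Fermat.Agent.S28_helper14_Val
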