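import Fermat.Agent.S28_helper14_Defs
import Fermat.Agent.S28_helper14_Res
import Fermat.Agent.S28_helper14_Val
import Fermat.Agent.S28_helper13_VAL1

set_option autoImplicit false
set_option linter.unusedSectionVars false

noncomputable section

namespace Fermat.Agent.S28_VAL2

open ModularCurve ModularCurve.IgusaScheme Fermat.Agent.S28_helper14_Defs
  Fermat.Agent.S28_helper14_Res Fermat.Agent.S28_helper14_Val

/-! ### Transport of the concrete series -/

theorem jq_eq_incL (ℓ : ℕ) [Fact ℓ.Prime] : jq = incL ℓ (jqModC (Rl ℓ)) := by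
  rw [incL, coeffMap_jqModC, jqModC_rat]

theorem redFun_jq (ℓ : ℕ) [Fact ℓ.Prime] : redFun ℓ jq = jqModC (ZMod ℓ) := by
  rw [jq_eq_incL ℓ, redFun_incL, redL, coeffMap_jqModC]

theorem coeffMap_Vser {A B : Type*} [CommRing A] [CommRing B] (f : A →+* B) (m : ℕ)
    (U : PowerSeries ℤ) : coeffMap f (Vser A m U) = Vser B m U := by
  rw [Vser, coeffMap_ofPowerSeries,
    ← RingHom.comp_apply (PowerSeries.map f) (PowerSeries.map (Int.castRingHom A)),
    ← PowerSeries.map_comp, RingHom.ext_int (f.comp (Int.castRingHom A)) (Int.castRingHom B)]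
  rfl

theorem Vser_eq_incL (ℓ : ℕ) [Fact ℓ.Prime] (m : ℕ) (U : PowerSeries ℤ) :
    Vser ℚ m U = incL ℓ (Vser (Rl ℓ) m U) := by
  rw [incL, coeffMap_Vser]

theorem redFun_Vser (ℓ : ℕ) [Fact ℓ.Prime] (m : ℕ) (U : PowerSeries ℤ) :
    redFun ℓ (Vser ℚ m U) = Vser (ZMod ℓ) m U := by
  rw [Vser_eq_incL ℓ, redFun_incL, redL, coeffMap_Vser]

/-- `jqModC A` is a unit of `A((q))` for every commutative ring `A`. -/
theorem isUnit_jqModC (A : Type*) [CommRing A] : IsUnit (jqModC A) := by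
  rw [jqModC]
  refine IsUnit.mul ?_ ?_
  · refine IsUnit.of_mul_eq_one (HahnSeries.single (1 : ℤ) (1 : A)) ?_
    rw [HahnSeries.single_mul_single]
    simp
  · refine IsUnit.map (HahnSeries.ofPowerSeries ℤ A) ?_
    rw [PowerSeries.isUnit_iff_constantCoeff]
    rw [← PowerSeries.coeff_zero_eq_constantCoeff, PowerSeries.coeff_map,
      PowerSeries.coeff_zero_eq_constantCoeff, constantCoeff_jNum]
    simp

theorem jq_inv_mem_Vring (ℓ : ℕ) [Fact ℓ.Prime] : jq⁻¹ ∈ Vring ℓ := by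
  obtain ⟨u, hu⟩ := isUnit_jqModC (Rl ℓ)
  have h1 : jq * incL ℓ (↑u⁻¹ : LaurentSeries (Rl ℓ)) = 1 := by
    rw [jq_eq_incL ℓ, ← hu, ← map_mul, Units.mul_inv, map_one]
  have h2 : jq⁻¹ = incL ℓ (↑u⁻¹ : LaurentSeries (Rl ℓ)) :=
    inv_eq_of_mul_eq_one_right h1
  rw [h2]
  exact incL_mem_Vring ℓ _

/-! ### The function field lies in the fraction field of `ℤ_(ℓ)((q))` -/

/-- The predicate "is a quotient of two series with `ℓ`-integral coefficients". -/
def IsFrac (ℓ : ℕ) [Fact ℓ.Prime] (y : LaurentSeries ℚ) : Prop :=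
  ∃ a b : LaurentSeries (Rl ℓ), b ≠ 0 ∧ incL ℓ b * y = incL ℓ a

theorem isFrac_incL (ℓ : ℕ) [Fact ℓ.Prime] (a : LaurentSeries (Rl ℓ)) : IsFrac ℓ (incL ℓ a) :=
  ⟨a, 1, one_ne_zero, by simp⟩

theorem mul_ne_zero_Rl (ℓ : ℕ) [Fact ℓ.Prime] {b b' : LaurentSeries (Rl ℓ)} (hb : b ≠ 0)
    (hb' : b' ≠ 0) : b * b' ≠ 0 := by
  intro h
  have := congrArg (incL ℓ) h
  rw [map_mul, map_zero, mul_eq_zero, incL_eq_zero_iff, incL_eq_zero_iff] at this
  rcases this with h | h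
  · exact hb h
  · exact hb' h

theorem isFrac_add (ℓ : ℕ) [Fact ℓ.Prime] {x y : LaurentSeries ℚ} (hx : IsFrac ℓ x)
    (hy : IsFrac ℓ y) : IsFrac ℓ (x + y) := by
  obtain ⟨a, b, hb, h⟩ := hx
  obtain ⟨a', b', hb', h'⟩ := hy
  refine ⟨a * b' + a' * b, b * b', mul_ne_zero_Rl ℓ hb hb', ?_⟩
  rw [map_mul, map_add, map_mul, map_mul, ← h, ← h']; ring

theorem isFrac_mul (ℓ : ℕ) [Fact ℓ.Prime] {x y : LaurentSeries ℚ} (hx : IsFrac ℓ x)
    (hy : IsFrac ℓ y) : IsFrac ℓ (x * y) := by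
  obtain ⟨a, b, hb, h⟩ := hx
  obtain ⟨a', b', hb', h'⟩ := hy
  refine ⟨a * a', b * b', mul_ne_zero_Rl ℓ hb hb', ?_⟩
  rw [map_mul, map_mul, ← h, ← h']; ring

theorem isFrac_inv (ℓ : ℕ) [Fact ℓ.Prime] {x : LaurentSeries ℚ} (hx : IsFrac ℓ x) :
    IsFrac ℓ x⁻¹ := by
  obtain ⟨a, b, hb, h⟩ := hx
  by_cases ha : a = 0
  · have hb' : incL ℓ b ≠ 0 := fun h0 => hb ((incL_eq_zero_iff ℓ b).mp h0)
    have hx0 : x = 0 := by
      rw [ha, map_zero] at h
      exact (mul_eq_zero.mp h).resolve_left hb'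
    rw [hx0, inv_zero]
    exact ⟨0, 1, one_ne_zero, by simp⟩
  · refine ⟨b, a, ha, ?_⟩
    have hb' : incL ℓ b ≠ 0 := fun h0 => hb ((incL_eq_zero_iff ℓ b).mp h0)
    have ha' : incL ℓ a ≠ 0 := fun h0 => ha ((incL_eq_zero_iff ℓ a).mp h0)
    have hx0 : x ≠ 0 := by
      rintro rfl
      rw [mul_zero] at h
      exact ha' h.symm
    rw [← h, mul_assoc, mul_inv_cancel₀ hx0, mul_one]

theorem isFrac_algebraMap (ℓ : ℕ) [Fact ℓ.Prime] (c : ℚ) :
    IsFrac ℓ (algebraMap ℚ (LaurentSeries ℚ) c) := by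
  have hden : ((c.den : ℕ) : Rl ℓ) ≠ 0 := by
    intro h
    have := congrArg (fun x : Rl ℓ => (x : ℚ)) h
    simp at this
  refine ⟨HahnSeries.single 0 ((c.num : ℤ) : Rl ℓ), HahnSeries.single 0 ((c.den : ℕ) : Rl ℓ),
    ?_, ?_⟩
  · intro h
    exact hden (by simpa using congrArg (fun x => x.coeff 0) h)
  · rw [algebraMap_laurentSeries_eq_single, incL, coeffMap_single, coeffMap_single,
      HahnSeries.single_mul_single]
    simp only [add_zero, map_natCast, map_intCast]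
    congr 1
    exact Rat.den_mul_eq_num c

theorem exists_frac_of_mem_full (N : ℕ) [NeZero N] (ℓ : ℕ) [Fact ℓ.Prime] {y : LaurentSeries ℚ}
    (hy : y ∈ modularFunctionFieldFull N) :
    ∃ a b : LaurentSeries (Rl ℓ), b ≠ 0 ∧ incL ℓ b * y = incL ℓ a := by
  change IsFrac ℓ y
  rw [modularFunctionFieldFull] at hy
  induction hy using IntermediateField.adjoin_induction with
  | mem x hx =>
    obtain ⟨d, hd, -, rfl⟩ := hx
    have : qExpand ℚ d jq = incL ℓ (qExpand (Rl ℓ) d (jqModC (Rl ℓ))) := by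
      rw [incL, coeffMap_qExpand, coeffMap_jqModC, jqModC_rat]
    rw [this]
    exact isFrac_incL ℓ _
  | algebraMap c => exact isFrac_algebraMap ℓ c
  | add x y _ _ hx hy => exact isFrac_add ℓ hx hy
  | inv x _ hx => exact isFrac_inv ℓ hx
  | mul x y _ _ hx hy => exact isFrac_mul ℓ hx hy

/-! ### The charts lie in the valuation ring -/

theorem algebraMap_Rl_coe (N : ℕ) [NeZero N] (ℓ : ℕ) [Fact ℓ.Prime] (r : Rl ℓ) :
    ((algebraMap (Rl ℓ) ↥(modularFunctionFieldFull N) r : ↥(modularFunctionFieldFull N)) :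
      LaurentSeries ℚ) = incL ℓ (HahnSeries.single 0 r) := by
  have h1 : (algebraMap (Rl ℓ) ↥(modularFunctionFieldFull N) r : ↥(modularFunctionFieldFull N)) =
      algebraMap ℚ ↥(modularFunctionFieldFull N) (r : ℚ) := rfl
  have h2 : ((algebraMap ℚ ↥(modularFunctionFieldFull N) (r : ℚ) :
      ↥(modularFunctionFieldFull N)) : LaurentSeries ℚ) =
      algebraMap ℚ (LaurentSeries ℚ) (r : ℚ) := by
    rw [eq_ratCast, eq_ratCast]
    rfl
  rw [h1, h2, incL, coeffMap_single, algebraMap_laurentSeries_eq_single]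
  rfl

theorem adjoin_le_Vring (N : ℕ) [NeZero N] (ℓ : ℕ) [Fact ℓ.Prime]
    (S : Set ↥(modularFunctionFieldFull N)) (hS : S ⊆ {jFull N, (jFull N)⁻¹})
    (x : ↥(modularFunctionFieldFull N)) (hx : x ∈ Algebra.adjoin (Rl ℓ) S) :
    (x : LaurentSeries ℚ) ∈ Vring ℓ := by
  induction hx using Algebra.adjoin_induction with
  | mem y hy =>
    rcases hS hy with rfl | rfl
    · rw [coe_jFull, jq_eq_incL ℓ]
      exact incL_mem_Vring ℓ _
    · have : (((jFull N)⁻¹ : ↥(modularFunctionFieldFull N)) : LaurentSeries ℚ) = jq⁻¹ := rfl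
      rw [this]
      exact jq_inv_mem_Vring ℓ
  | algebraMap r =>
    rw [algebraMap_Rl_coe]
    exact incL_mem_Vring ℓ _
  | add y z _ _ hy hz => exact add_mem hy hz
  | mul y z _ _ hy hz => exact mul_mem hy hz

theorem chartAlg_le_Vring (N : ℕ) [NeZero N] (ℓ : ℕ) [Fact ℓ.Prime]
    (S : Set ↥(modularFunctionFieldFull N)) (hS : S ⊆ {jFull N, (jFull N)⁻¹})
    (x : ↥(modularFunctionFieldFull N)) (hx : x ∈ chartAlg N ℓ S) :
    (x : LaurentSeries ℚ) ∈ Vring ℓ := by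
  refine Fermat.Agent.S28_VAL1.mem_Vring_of_isIntegral ℓ (exists_frac_of_mem_full N ℓ x.2) ?_
  rw [mem_chartAlg_iff] at hx
  let φ : ↥(Algebra.adjoin (Rl ℓ) S) →+* ↥(Vring ℓ) :=
    { toFun := fun y => ⟨((y : ↥(modularFunctionFieldFull N)) : LaurentSeries ℚ),
        adjoin_le_Vring N ℓ S hS y y.2⟩
      map_one' := rfl
      map_mul' := fun _ _ => rfl
      map_zero' := rfl
      map_add' := fun _ _ => rfl }
  exact hx.map_of_comp_eq φ (algebraMap ↥(modularFunctionFieldFull N) (LaurentSeries ℚ))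
    (by ext; rfl)

end Fermat.Agent.S28_VAL2
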