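import Fermat.Agent.S28_helper14_Defs
import Fermat.Agent.S28_helper14_Res

set_option autoImplicit false

noncomputable section

open ModularCurve ModularCurve.IgusaScheme Polynomial
open Fermat.Agent.S28_helper14_Defs Fermat.Agent.S28_helper14_Res

namespace Fermat.Agent.S28_GLUE

variable (N : ℕ) [NeZero N] (ℓ : ℕ) [Fact ℓ.Prime]

/-- ring homomorphisms from `ℤ_(ℓ)` to a field of characteristic zero are unique -/
theorem ringHom_Rl_ext {L : Type*} [Field L] [CharZero L] (f g : Rl ℓ →+* L) : f = g := by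
  ext x
  have hden : ((x : ℚ).den : ℚ) ≠ 0 := by exact_mod_cast (x : ℚ).den_ne_zero
  have hx : (((x : ℚ).den : ℕ) : Rl ℓ) * x = (((x : ℚ).num : ℤ) : Rl ℓ) := by
    apply Subtype.ext
    push_cast
    rw [mul_comm]
    exact Rat.mul_den_eq_num (x : ℚ)
  have hf := congrArg f hx
  have hg := congrArg g hx
  rw [map_mul, map_natCast, map_intCast] at hf hg
  have hden' : (((x : ℚ).den : ℕ) : L) ≠ 0 := by exact_mod_cast (x : ℚ).den_ne_zero
  apply mul_left_cancel₀ hden'
  rw [hf, hg]

/-- the inclusion of the function field into `ℚ((q))`, as a ring homomorphism -/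
def incR : ↥(modularFunctionFieldFull N) →+* LaurentSeries ℚ where
  toFun x := (x : LaurentSeries ℚ)
  map_one' := rfl
  map_mul' _ _ := rfl
  map_zero' := rfl
  map_add' _ _ := rfl

theorem charZero_laurent : CharZero (LaurentSeries ℚ) :=
  charZero_of_injective_algebraMap (algebraMap ℚ (LaurentSeries ℚ)).injective

/-- the inclusion of the function field into `ℚ((q))`, as a `ℤ_(ℓ)`-algebra map -/
def incF : ↥(modularFunctionFieldFull N) →ₐ[Rl ℓ] LaurentSeries ℚ where
  toFun x := (x : LaurentSeries ℚ)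
  map_one' := rfl
  map_mul' _ _ := rfl
  map_zero' := rfl
  map_add' _ _ := rfl
  commutes' r := by
    haveI := charZero_laurent
    have := ringHom_Rl_ext ℓ
      ((incR N).comp (algebraMap (Rl ℓ) ↥(modularFunctionFieldFull N)))
      (algebraMap (Rl ℓ) (LaurentSeries ℚ))
    exact congrArg (fun f : Rl ℓ →+* LaurentSeries ℚ => f r) this

theorem incF_apply (x : ↥(modularFunctionFieldFull N)) : incF N ℓ x = (x : LaurentSeries ℚ) := rfl

theorem incF_injective : Function.Injective (incF N ℓ) := fun _ _ h => Subtype.ext h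

theorem map_adjoin_singleton (s : ↥(modularFunctionFieldFull N)) :
    (Algebra.adjoin (Rl ℓ) {s}).map (incF N ℓ) =
      Algebra.adjoin (Rl ℓ) {(s : LaurentSeries ℚ)} := by
  rw [AlgHom.map_adjoin, Set.image_singleton]
  rfl

/-- the restriction of the inclusion to the adjoined subalgebras -/
def incA (s : ↥(modularFunctionFieldFull N)) :
    Algebra.adjoin (Rl ℓ) {s} →ₐ[Rl ℓ] Algebra.adjoin (Rl ℓ) {(s : LaurentSeries ℚ)} :=
  ((incF N ℓ).comp (Algebra.adjoin (Rl ℓ) {s}).val).codRestrict _ (fun a => by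
    rw [← map_adjoin_singleton]
    exact ⟨a, a.2, rfl⟩)

theorem incA_coe (s : ↥(modularFunctionFieldFull N)) (a : Algebra.adjoin (Rl ℓ) {s}) :
    ((incA N ℓ s a : Algebra.adjoin (Rl ℓ) {(s : LaurentSeries ℚ)}) : LaurentSeries ℚ) =
      ((a : ↥(modularFunctionFieldFull N)) : LaurentSeries ℚ) := rfl

theorem incA_surjective (s : ↥(modularFunctionFieldFull N)) :
    Function.Surjective (incA N ℓ s) := by
  rintro ⟨y, hy⟩
  rw [← map_adjoin_singleton] at hy
  obtain ⟨a, ha, rfl⟩ := hy
  exact ⟨⟨a, ha⟩, rfl⟩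

theorem comp_eq (s : ↥(modularFunctionFieldFull N)) :
    (algebraMap (Algebra.adjoin (Rl ℓ) {(s : LaurentSeries ℚ)}) (LaurentSeries ℚ)).comp
        (incA N ℓ s).toRingHom =
      (incF N ℓ).toRingHom.comp
        (algebraMap (Algebra.adjoin (Rl ℓ) {s}) ↥(modularFunctionFieldFull N)) := by
  ext a
  rfl

theorem mem_chartAlg_iff_isIntegral (s : ↥(modularFunctionFieldFull N))
    (x : ↥(modularFunctionFieldFull N)) :
    x ∈ chartAlg N ℓ {s} ↔
      IsIntegral (Algebra.adjoin (Rl ℓ) {(s : LaurentSeries ℚ)}) (x : LaurentSeries ℚ) := by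
  rw [mem_chartAlg_iff]
  constructor
  · intro hx
    exact hx.map_of_comp_eq (incA N ℓ s).toRingHom (incF N ℓ).toRingHom (comp_eq N ℓ s)
  · rintro ⟨p', hmonic, hroot⟩
    obtain ⟨p, hp, -, hpmonic⟩ := Polynomial.lifts_and_natDegree_eq_and_monic
      (Polynomial.map_surjective (incA N ℓ s).toRingHom (incA_surjective N ℓ s) p') hmonic
    refine ⟨p, hpmonic, ?_⟩
    apply incF_injective N ℓ
    rw [map_zero]
    have h1 : incF N ℓ (Polynomial.eval₂
        (algebraMap (Algebra.adjoin (Rl ℓ) {s}) ↥(modularFunctionFieldFull N)) x p) =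
        Polynomial.eval₂ ((incF N ℓ).toRingHom.comp
          (algebraMap (Algebra.adjoin (Rl ℓ) {s}) ↥(modularFunctionFieldFull N)))
          (incF N ℓ x) p := Polynomial.hom_eval₂ p _ (incF N ℓ).toRingHom x
    rw [h1, ← comp_eq, ← Polynomial.eval₂_map, hp]
    exact hroot

end Fermat.Agent.S28_GLUE
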