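import Mathlib
import Fermat.Agent.S28_helper14_Defs
import Fermat.Agent.S28_helper14_Res
import Fermat.Agent.S28_helper14_Val

set_option autoImplicit false
set_option linter.style.haveILetI false

open ModularCurve ModularCurve.IgusaScheme Fermat.Agent.S28_helper14_Defs
  Fermat.Agent.S28_helper14_Res Fermat.Agent.S28_helper14_Val

open Polynomial

namespace Fermat.Agent.S28_NORMAL

/-! ### The abstract descent lemma -/

section core

variable {B L : Type*} [CommRing B] [IsDomain B] [IsIntegrallyClosed B] [Field L] [Algebra B L]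
  [FaithfulSMul B L]

attribute [local instance] FractionRing.liftAlgebra

/-- If `c • y` is integral over the integrally closed domain `B` (with `c ≠ 0`), then the
coefficients of the minimal polynomial of `y` over the fraction field, scaled by the
appropriate powers of `c`, lie in `B`. -/
theorem NORMAL_coeff_mul_pow_mem (c : B) (hc : c ≠ 0) (y : L) (h : IsIntegral B (c • y)) (i : ℕ) :
    ∃ u : B, (minpoly (FractionRing B) y).coeff i *
      (algebraMap B (FractionRing B) c) ^ ((minpoly (FractionRing B) y).natDegree - i)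
        = algebraMap B (FractionRing B) u := by
  have hc' : algebraMap B (FractionRing B) c ≠ 0 := by
    rwa [Ne, map_eq_zero_iff _ (IsFractionRing.injective B (FractionRing B))]
  have hcy : IsIntegral (FractionRing B) (c • y) := h.tower_top
  have hy : IsIntegral (FractionRing B) y := by
    have := hcy.smul (algebraMap B (FractionRing B) c)⁻¹
    rwa [← algebraMap_smul (FractionRing B) c y, smul_smul, inv_mul_cancel₀ hc', one_smul] at this
  have h1 : minpoly (FractionRing B) (c • y)
      = (minpoly (FractionRing B) y).scaleRoots (algebraMap B (FractionRing B) c) := by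
    rw [← algebraMap_smul (FractionRing B) c y]
    exact IsIntegrallyClosed.minpoly_smul hc' hy
  have h2 : minpoly (FractionRing B) (c • y)
      = (minpoly B (c • y)).map (algebraMap B (FractionRing B)) :=
    minpoly.isIntegrallyClosed_eq_field_fractions' (FractionRing B) h
  refine ⟨(minpoly B (c • y)).coeff i, ?_⟩
  rw [← coeff_scaleRoots, ← h1, h2, coeff_map]

theorem NORMAL_core (c d : B) (hc : Prime c) (hcd : ¬ c ∣ d) (y : L)
    (h1 : IsIntegral B (c • y)) (h2 : IsIntegral B (d • y)) : IsIntegral B y := by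
  have hd : d ≠ 0 := fun h => hcd (h ▸ dvd_zero c)
  have hinj := IsFractionRing.injective B (FractionRing B)
  have hc' : algebraMap B (FractionRing B) c ≠ 0 := by
    rw [Ne, map_eq_zero_iff _ hinj]; exact hc.ne_zero
  have hy : IsIntegral (FractionRing B) y := by
    have hcy : IsIntegral (FractionRing B) (c • y) := h1.tower_top
    have := hcy.smul (algebraMap B (FractionRing B) c)⁻¹
    rwa [← algebraMap_smul (FractionRing B) c y, smul_smul, inv_mul_cancel₀ hc', one_smul] at this
  set m := minpoly (FractionRing B) y with hm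
  have hcoeff : ∀ i, m.coeff i ∈ Set.range (algebraMap B (FractionRing B)) := by
    intro i
    obtain ⟨u, hu⟩ := NORMAL_coeff_mul_pow_mem c hc.ne_zero y h1 i
    obtain ⟨v, hv⟩ := NORMAL_coeff_mul_pow_mem d hd y h2 i
    rw [← hm] at hu hv
    set k := m.natDegree - i
    have hB : u * d ^ k = v * c ^ k := by
      apply hinj
      rw [map_mul, map_mul, map_pow, map_pow, ← hu, ← hv]
      ring
    have hdvd : c ^ k ∣ u := by
      have hcdk : ¬ c ∣ d ^ k := fun h => hcd (hc.dvd_of_dvd_pow h)
      have hdvd' : c ^ k ∣ u * d ^ k := by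
        rw [hB]
        exact dvd_mul_left _ _
      exact hc.pow_dvd_of_dvd_mul_right k hcdk hdvd'
    obtain ⟨w, hw⟩ := hdvd
    refine ⟨w, ?_⟩
    have hck : (algebraMap B (FractionRing B) c) ^ k ≠ 0 := pow_ne_zero _ hc'
    apply mul_right_cancel₀ hck
    rw [hu, hw, map_mul, map_pow, mul_comm]
  have hlift : m ∈ Polynomial.lifts (algebraMap B (FractionRing B)) :=
    (Polynomial.lifts_iff_coeff_lifts m).mpr hcoeff
  obtain ⟨M, hM, -, hMmonic⟩ := Polynomial.lifts_and_degree_eq_and_monic hlift (minpoly.monic hy)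
  refine ⟨M, hMmonic, ?_⟩
  have : aeval y (M.map (algebraMap B (FractionRing B))) = 0 := by
    rw [hM, hm]; exact minpoly.aeval _ _
  rwa [aeval_map_algebraMap, aeval_def] at this

end core


/-! ### `ℤ_(ℓ)` -/

section Rl

variable (ℓ : ℕ) [Fact ℓ.Prime]

/-- `ℤ_(ℓ)` as a valuation subring of `ℚ`. -/
def NORMAL_valSub : ValuationSubring ℚ :=
  { GaloisRep.ratLocalizedAt ℓ with
    mem_or_inv_mem' := by
      intro x
      by_cases hx : x = 0
      · left
        rw [hx]
        exact (GaloisRep.ratLocalizedAt ℓ).zero_mem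
      by_cases h : ℓ ∣ x.den
      · right
        apply mem_ratLocalizedAt_of_not_dvd
        rw [Rat.den_inv_of_ne_zero hx]
        intro h2
        have hcop : x.num.natAbs.Coprime x.den := x.reduced
        have := Nat.eq_one_of_dvd_coprimes hcop h2 h
        exact (Fact.out : ℓ.Prime).one_lt.ne' this
      · left
        exact mem_ratLocalizedAt_of_not_dvd ℓ h }

theorem NORMAL_valSub_toSubring : (NORMAL_valSub ℓ).toSubring = GaloisRep.ratLocalizedAt ℓ := rfl

instance NORMAL_isIntegrallyClosed : IsIntegrallyClosed (Rl ℓ) := by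
  have h : IsIntegrallyClosed (NORMAL_valSub ℓ).toSubring := inferInstance
  rwa [NORMAL_valSub_toSubring] at h

theorem NORMAL_prime : Prime ((ℓ : ℕ) : Rl ℓ) := by
  have hne : ((ℓ : ℕ) : Rl ℓ) ≠ 0 := by
    intro h
    have := congrArg (Subtype.val : Rl ℓ → ℚ) h
    simp only [Subring.coe_natCast, Subring.coe_zero] at this
    exact (Fact.out : ℓ.Prime).ne_zero (by exact_mod_cast this)
  rw [← Ideal.span_singleton_prime hne]
  have hker : Ideal.span {((ℓ : ℕ) : Rl ℓ)} = RingHom.ker (resR ℓ) := by
    ext x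
    rw [RingHom.mem_ker, resR_eq_zero_iff, Ideal.mem_span_singleton]
    rfl
  rw [hker]
  exact RingHom.ker_isPrime _

theorem NORMAL_not_dvd {A : Polynomial (Rl ℓ)} (hA : A.map (resR ℓ) ≠ 0) :
    ¬ (C ((ℓ : ℕ) : Rl ℓ)) ∣ A := by
  rintro ⟨A', rfl⟩
  apply hA
  rw [Polynomial.map_mul, Polynomial.map_C, map_natCast, ZMod.natCast_self, map_zero, zero_mul]

end Rl


theorem normal_descent (ℓ : ℕ) [Fact ℓ.Prime] (s y : LaurentSeries ℚ)
    (hs : Transcendental ℚ s)
    (A : Polynomial (Rl ℓ)) (hA : A.map (resR ℓ) ≠ 0)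
    (h1 : IsIntegral (Algebra.adjoin (Rl ℓ) {s}) ((ℓ : LaurentSeries ℚ) * y))
    (h2 : IsIntegral (Algebra.adjoin (Rl ℓ) {s}) (Polynomial.aeval s A * y)) :
    IsIntegral (Algebra.adjoin (Rl ℓ) {s}) y := by
  haveI := IsScalarTower.of_algebraMap_eq (R := Rl ℓ) (S := ℚ) (A := LaurentSeries ℚ)
    (fun r => by
      rw [HahnSeries.algebraMap_apply', HahnSeries.algebraMap_apply']
      simp [PowerSeries.algebraMap_apply])
  have hs' : Transcendental (Rl ℓ) s :=
    hs.restrictScalars (R := Rl ℓ) Subtype.val_injective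
  set e := Polynomial.algEquivOfTranscendental (Rl ℓ) s hs' with he
  have : IsIntegrallyClosed (Algebra.adjoin (Rl ℓ) {s}) :=
    IsIntegrallyClosed.of_equiv e.toRingEquiv
  have hc : Prime (e (C ((ℓ : ℕ) : Rl ℓ))) :=
    (MulEquiv.prime_iff e.toMulEquiv).mpr (Polynomial.prime_C_iff.mpr (NORMAL_prime ℓ))
  have hcd : ¬ e (C ((ℓ : ℕ) : Rl ℓ)) ∣ e A := by
    intro h
    exact NORMAL_not_dvd ℓ hA ((map_dvd_iff e).mp h)
  have hc1 : e (C ((ℓ : ℕ) : Rl ℓ)) • y = (ℓ : LaurentSeries ℚ) * y := by
    rw [Algebra.smul_def]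
    congr 1
    simp [he]
  have hc2 : e A • y = Polynomial.aeval s A * y := by
    rw [Algebra.smul_def]
    congr 1
    simp [he]
  have key := NORMAL_core (L := LaurentSeries ℚ) (e (C ((ℓ : ℕ) : Rl ℓ))) (e A) hc hcd y
  rw [hc1, hc2] at key
  exact key h1 h2

end Fermat.Agent.S28_NORMAL
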