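import Fermat.Agent.S28_helper17_KEYREP
import Fermat.Agent.S28_helper29_GLUE
import Fermat.Agent.S28_helper13_VAL1
import Fermat.Agent.S28_helper22_VAL2
import Fermat.Agent.S28_helper9_NORMAL
import Fermat.Agent.S28_helper17_RELRAT

set_option autoImplicit false
set_option linter.unusedSectionVars false

noncomputable section

open ModularCurve ModularCurve.IgusaScheme Polynomial
open Fermat.Agent.S28_helper14_Defs Fermat.Agent.S28_helper14_Res Fermat.Agent.S28_helper14_Val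

namespace Fermat.Agent.S28_helper14_Key

/-- `j` is transcendental over `ℚ`. -/
theorem transcendental_jq : Transcendental ℚ jq := by
  rw [Transcendental, IsAlgebraic]
  push Not
  intro c hc h0
  have hlead : (aeval jq c).coeff (-(c.natDegree : ℤ)) = c.leadingCoeff := by
    rw [aeval_eq_sum_range, HahnSeries.coeff_sum]
    rw [Finset.sum_eq_single_of_mem c.natDegree (by simp)]
    · rw [Algebra.smul_def, algebraMap_apply_eq_single, HahnSeries.coeff_single_mul, sub_zero,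
        coeff_jq_pow_self, mul_one]
      rfl
    · intro i hi hne
      have hlt : i < c.natDegree := lt_of_le_of_ne (Nat.lt_succ_iff.mp (Finset.mem_range.mp hi)) hne
      rw [Algebra.smul_def, algebraMap_apply_eq_single, HahnSeries.coeff_single_mul, sub_zero,
        coeff_jq_pow_of_lt (by omega), mul_zero]
  rw [h0] at hlead
  exact hc (leadingCoeff_eq_zero.mp (by simpa using hlead.symm))

theorem jq_ne_zero' : jq ≠ 0 := jq_ne_zero

theorem transcendental_jq_inv : Transcendental ℚ jq⁻¹ := by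
  intro h
  exact transcendental_jq (by simpa using h.inv)

section RelQ

variable (N ℓ : ℕ) [NeZero N] [Fact ℓ.Prime]

/-- The embedding `ℤ_(ℓ) → ℂ`. -/
abbrev RtoC : Rl ℓ →+* ℂ := (algebraMap ℚ ℂ).comp (GaloisRep.ratLocalizedAt ℓ).subtype

theorem RtoC_injective : Function.Injective (RtoC ℓ) :=
  (algebraMap ℚ ℂ).injective.comp Subtype.val_injective

instance charZero_laurentC : CharZero (LaurentSeries ℂ) :=
  charZero_of_injective_algebraMap (algebraMap ℂ (LaurentSeries ℂ)).injective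

theorem coeffEmb_jq : coeffEmb ℂ jq = jqModC ℂ := by
  rw [← jqModC_rat]
  exact coeffMap_jqModC (algebraMap ℚ ℂ)

theorem coeffEmb_Vser (m : ℕ) (U : PowerSeries ℤ) : coeffEmb ℂ (Vser ℚ m U) = Vser ℂ m U := by
  unfold Vser coeffEmb
  rw [coeffMap_ofPowerSeries]
  congr 1

theorem coeffEmb_injective : Function.Injective (coeffEmb ℂ) :=
  (coeffEmb ℂ).injective

theorem coeffEmb_aeval_jq (p : Polynomial (Rl ℓ)) :
    coeffEmb ℂ (aeval jq p) = aeval (jqModC ℂ) (p.map (RtoC ℓ)) := by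
  rw [aeval_def, aeval_def, Polynomial.hom_eval₂, eval₂_map, coeffEmb_jq]
  congr 1
  exact Fermat.Agent.S28_GLUE.ringHom_Rl_ext ℓ _ _

/-- The relation satisfied by `V` over `ℤ_(ℓ)[j]`, inside `ℚ((q))`. -/
theorem rel_Q (D : UnitData N) (p' : ℕ → Polynomial (Rl ℓ))
    (hp' : ∀ i ≤ D.ι, (p' i).map (RtoC ℓ) = D.p i) :
    ∑ i ∈ Finset.range (D.ι + 1),
      aeval jq (p' i) * (Vser ℚ (D.k₀ * (D.ι - 1)) D.U) ^ (D.ι - i) = 0 := by
  apply coeffEmb_injective
  rw [map_sum, map_zero, ← D.rel]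
  refine Finset.sum_congr rfl fun i hi => ?_
  rw [map_mul, map_pow, coeffEmb_aeval_jq, coeffEmb_Vser,
    hp' i (Nat.lt_succ_iff.mp (Finset.mem_range.mp hi))]

end RelQ

section Integral

theorem isIntegral_of_rel {A : Type*} [CommRing A] {B : Type*} [CommRing B] [Algebra A B]
    (n : ℕ) (a : ℕ → A) (ha0 : a 0 = 1) (x : B)
    (h : ∑ i ∈ Finset.range (n + 1), algebraMap A B (a i) * x ^ (n - i) = 0) :
    IsIntegral A x := by
  classical
  refine ⟨∑ i ∈ Finset.range (n + 1), C (a i) * X ^ (n - i), ?_, ?_⟩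
  · apply Polynomial.monic_of_natDegree_le_of_coeff_eq_one n
    · apply Polynomial.natDegree_sum_le_of_forall_le
      intro i _
      exact (Polynomial.natDegree_C_mul_X_pow_le _ _).trans (Nat.sub_le _ _)
    · rw [Polynomial.finset_sum_coeff, Finset.sum_eq_single_of_mem 0 (by simp)]
      · simp [ha0]
      · intro i hi hne
        rw [Polynomial.coeff_C_mul, Polynomial.coeff_X_pow, if_neg, mul_zero]
        have := Finset.mem_range.mp hi
        omega
  · rw [Polynomial.eval₂_finset_sum, ← h]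
    refine Finset.sum_congr rfl fun i _ => ?_
    rw [Polynomial.eval₂_mul, Polynomial.eval₂_C, Polynomial.eval₂_pow, Polynomial.eval₂_X]

variable (ℓ : ℕ) [Fact ℓ.Prime]

theorem isIntegral_of_mem_adjoin {s x : LaurentSeries ℚ} (h : x ∈ Algebra.adjoin (Rl ℓ) {s}) :
    IsIntegral (Algebra.adjoin (Rl ℓ) {s}) x :=
  isIntegral_algebraMap (x := (⟨x, h⟩ : Algebra.adjoin (Rl ℓ) {s}))

theorem isIntegral_aeval (s : LaurentSeries ℚ) (p : Polynomial (Rl ℓ)) :
    IsIntegral (Algebra.adjoin (Rl ℓ) {s}) (aeval s p) :=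
  isIntegral_of_mem_adjoin ℓ (Polynomial.aeval_mem_adjoin_singleton _ _)

end Integral

section Main

open Fermat.Agent.S28_VAL1 (exists_eq_mul_of_redFun_eq_zero)
open Fermat.Agent.S28_VAL2 (chartAlg_le_Vring)
open Fermat.Agent.S28_KEYREP (key_rep)
open Fermat.Agent.S28_NORMAL (normal_descent)
open Fermat.Agent.S28_RELRAT (rel_rat)
open Fermat.Agent.S28_GLUE (mem_chartAlg_iff_isIntegral charZero_laurent)

variable (N ℓ : ℕ) [NeZero N] [Fact ℓ.Prime]

theorem p'_zero (D : UnitData N) (p' : ℕ → Polynomial (Rl ℓ))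
    (hp' : ∀ i ≤ D.ι, (p' i).map (RtoC ℓ) = D.p i) : p' 0 = 1 := by
  apply Polynomial.map_injective (RtoC ℓ) (RtoC_injective ℓ)
  rw [hp' 0 (Nat.zero_le _), D.hp0, Polynomial.map_one]

theorem p'_natDegree (D : UnitData N) (p' : ℕ → Polynomial (Rl ℓ))
    (hp' : ∀ i ≤ D.ι, (p' i).map (RtoC ℓ) = D.p i) (i : ℕ) (hi : i ≤ D.ι) :
    (p' i).natDegree ≤ D.k₀ * i := by
  rw [← Polynomial.natDegree_map_eq_of_injective (RtoC_injective ℓ), hp' i hi]
  exact D.hp_deg i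

theorem isIntegral_V (hℓN : ¬ ℓ ∣ N) (D : UnitData N) :
    IsIntegral (Algebra.adjoin (Rl ℓ) {jq}) (Vser ℚ (D.k₀ * (D.ι - 1)) D.U) := by
  obtain ⟨p', hp'⟩ := rel_rat N ℓ hℓN D
  refine isIntegral_of_rel D.ι
    (fun i => (⟨aeval jq (p' i), Polynomial.aeval_mem_adjoin_singleton _ _⟩ :
      Algebra.adjoin (Rl ℓ) {jq})) (Subtype.ext ?_) _ ?_
  · simp [p'_zero N ℓ D p' hp']
  · exact rel_Q N ℓ D p' hp'

theorem natCast_ne_zero_L : ((ℓ : ℕ) : LaurentSeries ℚ) ≠ 0 := by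
  have := charZero_laurent
  exact Nat.cast_ne_zero.mpr (Fact.out : ℓ.Prime).ne_zero

/-- Common part: produce the quotient `x / ℓ` and its representation. -/
theorem key_pre (hℓN : ¬ ℓ ∣ N) (D : UnitData N)
    (S : Set ↥(modularFunctionFieldFull N)) (hS : S ⊆ {jFull N, (jFull N)⁻¹})
    (x : ↥(modularFunctionFieldFull N)) (hx : x ∈ chartAlg N ℓ S)
    (h : redFun ℓ (x : LaurentSeries ℚ) = 0) :
    ∃ (y : ↥(modularFunctionFieldFull N)) (A : Polynomial (Rl ℓ)) (B : ℕ → Polynomial (Rl ℓ)),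
      x = (ℓ : ↥(modularFunctionFieldFull N)) * y ∧ A.map (resR ℓ) ≠ 0 ∧
      aeval jq A * (y : LaurentSeries ℚ) = ∑ i ∈ Finset.range D.ι,
        aeval jq (B i) * (Vser ℚ (D.k₀ * (D.ι - 1)) D.U) ^ i := by
  have hxV : (x : LaurentSeries ℚ) ∈ Vring ℓ := chartAlg_le_Vring N ℓ S hS x hx
  obtain ⟨y₀, hy₀V, hxy⟩ := exists_eq_mul_of_redFun_eq_zero ℓ hxV h
  have hℓ0 := natCast_ne_zero_L ℓ
  have hy₀F : y₀ ∈ modularFunctionFieldFull N := by
    have : y₀ = ((ℓ : ℕ) : LaurentSeries ℚ)⁻¹ * x := by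
      rw [hxy]; field_simp
    rw [this]
    exact mul_mem (inv_mem (natCast_mem _ ℓ)) x.2
  obtain ⟨A, B, hA, hAB⟩ := key_rep N ℓ hℓN D y₀ hy₀F hy₀V
  refine ⟨⟨y₀, hy₀F⟩, A, B, Subtype.ext ?_, hA, hAB⟩
  simpa using hxy

theorem key_fin (hℓN : ¬ ℓ ∣ N) (D : UnitData N)
    (x : ↥(modularFunctionFieldFull N)) (hx : x ∈ chartAlgFin N ℓ)
    (h : redFun ℓ (x : LaurentSeries ℚ) = 0) :
    ∃ y ∈ chartAlgFin N ℓ, x = (ℓ : ↥(modularFunctionFieldFull N)) * y := by
  obtain ⟨y, A, B, hxy, hA, hAB⟩ := key_pre N ℓ hℓN D {jFull N} (by simp) x hx h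
  have hint1 : IsIntegral (Algebra.adjoin (Rl ℓ) {jq}) ((ℓ : LaurentSeries ℚ) * y) := by
    have := (mem_chartAlg_iff_isIntegral N ℓ (jFull N) x).mp hx
    rw [hxy] at this
    have h2 : ((((ℓ : ↥(modularFunctionFieldFull N)) * y : ↥(modularFunctionFieldFull N))) :
        LaurentSeries ℚ) = (ℓ : LaurentSeries ℚ) * y := by simp
    rw [h2] at this
    exact this
  have hint2 : IsIntegral (Algebra.adjoin (Rl ℓ) {jq}) (aeval jq A * (y : LaurentSeries ℚ)) := by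
    rw [hAB]
    exact IsIntegral.sum _ fun i _ =>
      (isIntegral_aeval ℓ jq (B i)).mul ((isIntegral_V N ℓ hℓN D).pow i)
  have hy := normal_descent ℓ jq y transcendental_jq A hA hint1 hint2
  exact ⟨y, (mem_chartAlg_iff_isIntegral N ℓ (jFull N) y).mpr hy, hxy⟩

theorem aeval_reflect (t : LaurentSeries ℚ) (ht : t ≠ 0) (M : ℕ) (f : Polynomial (Rl ℓ))
    (hf : f.natDegree ≤ M) : aeval t (reflect M f) = aeval t⁻¹ f * t ^ M := by
  let _ := invertibleOfNonzero ht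
  have := eval₂_reflect_mul_pow (algebraMap (Rl ℓ) (LaurentSeries ℚ)) t M (reflect M f)
    (natDegree_reflect_le.trans (max_le le_rfl hf))
  rw [reflect_reflect, invOf_eq_inv] at this
  rw [aeval_def, aeval_def, this]

theorem jq_inv_ne_zero : (jq⁻¹ : LaurentSeries ℚ) ≠ 0 := inv_ne_zero jq_ne_zero

theorem isIntegral_h (hℓN : ¬ ℓ ∣ N) (D : UnitData N) :
    IsIntegral (Algebra.adjoin (Rl ℓ) {jq⁻¹})
      (Vser ℚ (D.k₀ * (D.ι - 1)) D.U * jq⁻¹ ^ D.k₀) := by
  obtain ⟨p', hp'⟩ := rel_rat N ℓ hℓN D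
  refine isIntegral_of_rel D.ι
    (fun i => (⟨aeval jq⁻¹ (reflect (D.k₀ * i) (p' i)),
      Polynomial.aeval_mem_adjoin_singleton _ _⟩ : Algebra.adjoin (Rl ℓ) {jq⁻¹}))
    (Subtype.ext ?_) _ ?_
  · simp [p'_zero N ℓ D p' hp']
  · have hrel := rel_Q N ℓ D p' hp'
    have key : ∀ i ∈ Finset.range (D.ι + 1),
        aeval jq⁻¹ (reflect (D.k₀ * i) (p' i)) *
          (Vser ℚ (D.k₀ * (D.ι - 1)) D.U * jq⁻¹ ^ D.k₀) ^ (D.ι - i) =
        jq⁻¹ ^ (D.k₀ * D.ι) *
          (aeval jq (p' i) * (Vser ℚ (D.k₀ * (D.ι - 1)) D.U) ^ (D.ι - i)) := by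
      intro i hi
      have hi' : i ≤ D.ι := Nat.lt_succ_iff.mp (Finset.mem_range.mp hi)
      rw [aeval_reflect ℓ _ jq_inv_ne_zero _ _ (p'_natDegree N ℓ D p' hp' i hi'), inv_inv,
        mul_pow, ← pow_mul]
      have : D.k₀ * D.ι = D.k₀ * i + D.k₀ * (D.ι - i) := by
        rw [← Nat.mul_add, Nat.add_sub_cancel' hi']
      rw [this, pow_add]
      ring
    show ∑ i ∈ Finset.range (D.ι + 1),
        aeval jq⁻¹ (reflect (D.k₀ * i) (p' i)) *
          (Vser ℚ (D.k₀ * (D.ι - 1)) D.U * jq⁻¹ ^ D.k₀) ^ (D.ι - i) = 0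
    rw [Finset.sum_congr rfl key, ← Finset.mul_sum, hrel, mul_zero]

theorem key_inf (hℓN : ¬ ℓ ∣ N) (D : UnitData N)
    (x : ↥(modularFunctionFieldFull N)) (hx : x ∈ chartAlgInf N ℓ)
    (h : redFun ℓ (x : LaurentSeries ℚ) = 0) :
    ∃ y ∈ chartAlgInf N ℓ, x = (ℓ : ↥(modularFunctionFieldFull N)) * y := by
  obtain ⟨y, A, B, hxy, hA, hAB⟩ := key_pre N ℓ hℓN D {(jFull N)⁻¹} (by simp) x hx h
  have hcoe : (((jFull N)⁻¹ : ↥(modularFunctionFieldFull N)) : LaurentSeries ℚ) = jq⁻¹ := by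
    simp
  have hint1 : IsIntegral (Algebra.adjoin (Rl ℓ) {jq⁻¹}) ((ℓ : LaurentSeries ℚ) * y) := by
    have := (mem_chartAlg_iff_isIntegral N ℓ (jFull N)⁻¹ x).mp hx
    rw [hxy] at this
    have h2 : ((((ℓ : ↥(modularFunctionFieldFull N)) * y : ↥(modularFunctionFieldFull N))) :
        LaurentSeries ℚ) = (ℓ : LaurentSeries ℚ) * y := by simp
    rw [h2, hcoe] at this
    exact this
  set V := Vser ℚ (D.k₀ * (D.ι - 1)) D.U with hV
  set M : ℕ := A.natDegree + ∑ i ∈ Finset.range D.ι, ((B i).natDegree + D.k₀ * i) with hM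
  have hMA : A.natDegree ≤ M := Nat.le_add_right _ _
  have hMB : ∀ i ∈ Finset.range D.ι, (B i).natDegree + D.k₀ * i ≤ M := by
    intro i hi
    exact (Finset.single_le_sum (f := fun i => (B i).natDegree + D.k₀ * i)
      (fun _ _ => Nat.zero_le _) hi).trans (Nat.le_add_left _ _)
  have hrep : aeval jq⁻¹ (reflect M A) * (y : LaurentSeries ℚ) =
      ∑ i ∈ Finset.range D.ι,
        aeval jq⁻¹ (reflect (M - D.k₀ * i) (B i)) * (V * jq⁻¹ ^ D.k₀) ^ i := by
    rw [aeval_reflect ℓ _ jq_inv_ne_zero _ _ hMA, inv_inv, mul_right_comm, hAB, Finset.sum_mul]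
    refine Finset.sum_congr rfl fun i hi => ?_
    have h1 := hMB i hi
    rw [aeval_reflect ℓ _ jq_inv_ne_zero _ _ (by omega : (B i).natDegree ≤ M - D.k₀ * i), inv_inv,
      mul_pow, ← pow_mul]
    have : M = (M - D.k₀ * i) + D.k₀ * i := by omega
    conv_lhs => rw [this, pow_add]
    ring
  have hint2 : IsIntegral (Algebra.adjoin (Rl ℓ) {jq⁻¹})
      (aeval jq⁻¹ (reflect M A) * (y : LaurentSeries ℚ)) := by
    rw [hrep]
    exact IsIntegral.sum _ fun i _ =>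
      (isIntegral_aeval ℓ jq⁻¹ _).mul ((isIntegral_h N ℓ hℓN D).pow i)
  have hA' : (reflect M A).map (resR ℓ) ≠ 0 := by
    rw [← reflect_map, Ne, reflect_eq_zero_iff]
    exact hA
  have hy := normal_descent ℓ jq⁻¹ y transcendental_jq_inv (reflect M A) hA' hint1 hint2
  refine ⟨y, (mem_chartAlg_iff_isIntegral N ℓ (jFull N)⁻¹ y).mpr ?_, hxy⟩
  rw [hcoe]
  exact hy

end Main

end Fermat.Agent.S28_helper14_Key
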