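import Mathlib
import Fermat.Prelude.Def_ModularCurve_IgusaScheme

set_option autoImplicit false
set_option linter.style.haveILetI false
set_option linter.unusedVariables false
set_option linter.unusedSectionVars false

open AlgebraicGeometry CategoryTheory CategoryTheory.Limits ModularCurve ModularCurve.IgusaScheme
  TensorProduct

noncomputable section

namespace Fermat.Agent.S28_SCHEME

/-- A space covered by two irreducible open subsets with nonempty intersection is
irreducible. -/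
theorem irreducibleSpace_of_two_opens {X : Type*} [TopologicalSpace X] (U V : Set X)
    (hU : IsOpen U) (hV : IsOpen V) (hUi : IsIrreducible U) (hVi : IsIrreducible V)
    (hcov : ∀ x : X, x ∈ U ∨ x ∈ V) (hmeet : (U ∩ V).Nonempty) : IrreducibleSpace X := by
  have key : ∀ u : Set X, IsOpen u → u.Nonempty → (U ∩ (u ∩ V)).Nonempty := by
    intro u hu ⟨y, hy⟩
    rcases hcov y with hyU | hyV
    · exact hUi.2 u V hu hV ⟨y, hyU, hy⟩ hmeet
    · have := hVi.2 u U hu hU ⟨y, hyV, hy⟩ (by rwa [Set.inter_comm])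
      obtain ⟨z, hzV, hzu, hzU⟩ := this
      exact ⟨z, hzU, hzu, hzV⟩
  haveI : Nonempty X := ⟨hmeet.some⟩
  refine { toNonempty := inferInstance, isPreirreducible_univ := ?_ }
  intro u v hu hv ⟨y, _, hy⟩ ⟨z, _, hz⟩
  have h1 := key u hu ⟨y, hy⟩
  have h2 := key v hv ⟨z, hz⟩
  obtain ⟨w, -, ⟨hwu, -⟩, hwv, -⟩ := hUi.2 (u ∩ V) (v ∩ V) (hu.inter hV) (hv.inter hV) h1 h2
  exact ⟨w, Set.mem_univ _, hwu, hwv⟩

/-- A scheme covered by two integral open subschemes which meet is integral. -/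
theorem isIntegral_of_two_charts {Y U₁ U₂ : Scheme.{0}} (f₁ : U₁ ⟶ Y) (f₂ : U₂ ⟶ Y)
    [IsOpenImmersion f₁] [IsOpenImmersion f₂] [IsIntegral U₁] [IsIntegral U₂]
    (hcov : ∀ y : Y, y ∈ Set.range f₁ ∨ y ∈ Set.range f₂)
    (hmeet : (Set.range f₁ ∩ Set.range f₂).Nonempty) : IsIntegral Y := by
  haveI : IrreducibleSpace Y := by
    refine irreducibleSpace_of_two_opens (Set.range f₁) (Set.range f₂)
      f₁.isOpenEmbedding.isOpen_range f₂.isOpenEmbedding.isOpen_range ?_ ?_ hcov hmeet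
    · rw [← Set.image_univ]
      exact (IrreducibleSpace.isIrreducible_univ U₁).image _ f₁.continuous.continuousOn
    · rw [← Set.image_univ]
      exact (IrreducibleSpace.isIrreducible_univ U₂).image _ f₂.continuous.continuousOn
  haveI : IsReduced Y := by
    have (y : Y) : _root_.IsReduced (Y.presheaf.stalk y) := by
      rcases hcov y with ⟨x, rfl⟩ | ⟨x, rfl⟩
      · exact isReduced_of_injective _
          (asIso <| f₁.stalkMap x).commRingCatIsoToRingEquiv.injective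
      · exact isReduced_of_injective _
          (asIso <| f₂.stalkMap x).commRingCatIsoToRingEquiv.injective
    exact isReduced_of_isReduced_stalk _
  exact isIntegral_of_irreducibleSpace_of_isReduced Y


section Igusa

variable (N : ℕ) [NeZero N] (ℓ : ℕ) [Fact ℓ.Prime]
variable (K : Type) [Field K] [Algebra ↥(GaloisRep.ratLocalizedAt ℓ) K]

/-- the base change morphism `Spec K ⟶ Spec R`. -/
abbrev gK : Spec (CommRingCat.of K) ⟶ Spec (CommRingCat.of ↥(GaloisRep.ratLocalizedAt ℓ)) :=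
  Spec.map (CommRingCat.ofHom (algebraMap ↥(GaloisRep.ratLocalizedAt ℓ) K))

/-- the chart of the base change attached to a chart `c : Spec A ⟶ Igusa`. -/
abbrev chartMap (A : Type) [CommRing A] [Algebra ↥(GaloisRep.ratLocalizedAt ℓ) A]
    (c : Spec (CommRingCat.of A) ⟶ ModularCurve.IgusaScheme N ℓ)
    (hc : c ≫ igusaTo N ℓ =
      Spec.map (CommRingCat.ofHom (algebraMap ↥(GaloisRep.ratLocalizedAt ℓ) A))) :
    pullback (Spec.map (CommRingCat.ofHom (algebraMap ↥(GaloisRep.ratLocalizedAt ℓ) A)))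
        (gK ℓ K) ⟶
      pullback (igusaTo N ℓ) (gK ℓ K) :=
  pullback.map _ _ _ _ c (𝟙 _) (𝟙 _) (by rw [Category.comp_id, hc]) (by simp)

theorem range_chartMap (A : Type) [CommRing A] [Algebra ↥(GaloisRep.ratLocalizedAt ℓ) A]
    (c : Spec (CommRingCat.of A) ⟶ ModularCurve.IgusaScheme N ℓ)
    (hc : c ≫ igusaTo N ℓ =
      Spec.map (CommRingCat.ofHom (algebraMap ↥(GaloisRep.ratLocalizedAt ℓ) A))) :
    Set.range (chartMap N ℓ K A c hc) =
      (pullback.fst (igusaTo N ℓ) (gK ℓ K)) ⁻¹' Set.range c := by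
  rw [chartMap, Scheme.Pullback.range_map]
  simp


/-- the pullback of an affine chart is the spectrum of the tensor product, hence nonempty
when the tensor product is nontrivial. -/
theorem nonempty_chart (A : Type) [CommRing A] [Algebra ↥(GaloisRep.ratLocalizedAt ℓ) A]
    (h : Nontrivial (A ⊗[↥(GaloisRep.ratLocalizedAt ℓ)] K)) :
    Nonempty ↑(pullback (Spec.map (CommRingCat.ofHom
      (algebraMap ↥(GaloisRep.ratLocalizedAt ℓ) A))) (gK ℓ K)) := by
  haveI : Nonempty ↑(Spec (CommRingCat.of (A ⊗[↥(GaloisRep.ratLocalizedAt ℓ)] K))) :=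
    inferInstanceAs (Nonempty (PrimeSpectrum (A ⊗[↥(GaloisRep.ratLocalizedAt ℓ)] K)))
  exact Nonempty.map (pullbackSpecIso ↥(GaloisRep.ratLocalizedAt ℓ) A K).inv ‹_›

/-- ... and integral when the tensor product is a domain. -/
theorem isIntegral_chart (A : Type) [CommRing A] [Algebra ↥(GaloisRep.ratLocalizedAt ℓ) A]
    (h : IsDomain (A ⊗[↥(GaloisRep.ratLocalizedAt ℓ)] K)) :
    IsIntegral (pullback (Spec.map (CommRingCat.ofHom
      (algebraMap ↥(GaloisRep.ratLocalizedAt ℓ) A))) (gK ℓ K)) := by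
  haveI := nonempty_chart ℓ K A inferInstance
  haveI : IsDomain ↑(CommRingCat.of (A ⊗[↥(GaloisRep.ratLocalizedAt ℓ)] K)) := h
  haveI : IsIntegral (Spec (CommRingCat.of (A ⊗[↥(GaloisRep.ratLocalizedAt ℓ)] K))) :=
    inferInstance
  exact isIntegral_of_isOpenImmersion (pullbackSpecIso ↥(GaloisRep.ratLocalizedAt ℓ) A K).hom

theorem isIntegral_pullback_of_tensor
    (h1 : IsDomain (TensorProduct ↥(GaloisRep.ratLocalizedAt ℓ) (chartAlgFin N ℓ) K))
    (h2 : IsDomain (TensorProduct ↥(GaloisRep.ratLocalizedAt ℓ) (chartAlgInf N ℓ) K))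
    (h3 : Nontrivial (TensorProduct ↥(GaloisRep.ratLocalizedAt ℓ) (chartAlgMid N ℓ) K)) :
    IsIntegral ↑(pullback (igusaTo N ℓ)
      (Spec.map (CommRingCat.ofHom (algebraMap ↥(GaloisRep.ratLocalizedAt ℓ) K)))) := by
  haveI := isIntegral_chart ℓ K (chartAlgFin N ℓ) h1
  haveI := isIntegral_chart ℓ K (chartAlgInf N ℓ) h2
  have hMid : (fFin N ℓ ≫ ιFin N ℓ) ≫ igusaTo N ℓ =
      Spec.map (CommRingCat.ofHom (algebraMap ↥(GaloisRep.ratLocalizedAt ℓ)
        (chartAlgMid N ℓ))) := by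
    rw [Category.assoc, ιFin_igusaTo, ← Spec.map_comp, ← CommRingCat.ofHom_comp]
    rfl
  refine isIntegral_of_two_charts
    (chartMap N ℓ K (chartAlgFin N ℓ) (ιFin N ℓ) (ιFin_igusaTo N ℓ))
    (chartMap N ℓ K (chartAlgInf N ℓ) (ιInf N ℓ) (ιInf_igusaTo N ℓ)) ?_ ?_
  · intro y
    rw [range_chartMap, range_chartMap]
    exact mem_range_ιFin_or_mem_range_ιInf N ℓ _
  · obtain ⟨t⟩ := nonempty_chart ℓ K (chartAlgMid N ℓ) h3
    let pr : pullback (Spec.map (CommRingCat.ofHom (algebraMap ↥(GaloisRep.ratLocalizedAt ℓ)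
        (chartAlgMid N ℓ)))) (gK ℓ K) ⟶ Spec (CommRingCat.of (chartAlgMid N ℓ)) :=
      pullback.fst _ _
    have e1 : chartMap N ℓ K (chartAlgMid N ℓ) (fFin N ℓ ≫ ιFin N ℓ) hMid ≫
        pullback.fst (igusaTo N ℓ) (gK ℓ K) = pr ≫ fFin N ℓ ≫ ιFin N ℓ := by
      exact pullback.lift_fst _ _ _
    have e2 : chartMap N ℓ K (chartAlgMid N ℓ) (fFin N ℓ ≫ ιFin N ℓ) hMid ≫
        pullback.fst (igusaTo N ℓ) (gK ℓ K) = pr ≫ fInf N ℓ ≫ ιInf N ℓ := by
      rw [e1, glue_condition]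
    refine ⟨chartMap N ℓ K (chartAlgMid N ℓ) (fFin N ℓ ≫ ιFin N ℓ) hMid t, ?_, ?_⟩
    · rw [range_chartMap]
      refine ⟨fFin N ℓ (pr t), ?_⟩
      have := congrArg (fun f => f t) e1
      simp only [Scheme.Hom.comp_apply] at this
      exact this.symm
    · rw [range_chartMap]
      refine ⟨fInf N ℓ (pr t), ?_⟩
      have := congrArg (fun f => f t) e2
      simp only [Scheme.Hom.comp_apply] at this
      exact this.symm

end Igusa

end Fermat.Agent.S28_SCHEME
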