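import Fermat.Statements.S28
import Fermat.Agent.S28_helper14_Key
import Fermat.Agent.S28_helper14_UD
import Fermat.Agent.S28_helper26_SCHEME
import Fermat.Agent.S28_helper18_TENSOR

set_option autoImplicit false
open AlgebraicGeometry CategoryTheory CategoryTheory.Limits ModularCurve ModularCurve.IgusaScheme
noncomputable section
set_option autoImplicit false
open ModularCurve ModularCurve.IgusaScheme

namespace Fermat.Agent.S28

set_option maxHeartbeats 4000000 in
set_option synthInstance.maxHeartbeats 400000 in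
theorem result
    (N : ℕ) [NeZero N] (ℓ : ℕ) [Fact ℓ.Prime] (hℓN : ¬ ℓ ∣ N)
    (K : Type) [Field K] [CharP K ℓ] [Algebra ↥(GaloisRep.ratLocalizedAt ℓ) K] :
    IsIntegral ↑(pullback (igusaTo N ℓ)
      (Spec.map (CommRingCat.ofHom (algebraMap ↥(GaloisRep.ratLocalizedAt ℓ) K)))) := by
  obtain ⟨D⟩ := Fermat.Agent.S28_helper14_UD.exists_unitData_h14 N
  have hFin := Fermat.Agent.S28_TENSOR.isDomain_tensor N ℓ K (chartAlgFin N ℓ)
    (fun x hx => Fermat.Agent.S28_VAL2.chartAlg_le_Vring N ℓ _ (by simp) x hx)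
    (fun x hx h => Fermat.Agent.S28_helper14_Key.key_fin N ℓ hℓN D x hx h)
  have hInf := Fermat.Agent.S28_TENSOR.isDomain_tensor N ℓ K (chartAlgInf N ℓ)
    (fun x hx => Fermat.Agent.S28_VAL2.chartAlg_le_Vring N ℓ _ (by simp) x hx)
    (fun x hx h => Fermat.Agent.S28_helper14_Key.key_inf N ℓ hℓN D x hx h)
  have hMid := Fermat.Agent.S28_TENSOR.nontrivial_tensor N ℓ K (chartAlgMid N ℓ)
    (fun x hx => Fermat.Agent.S28_VAL2.chartAlg_le_Vring N ℓ _ (by simp) x hx)
  exact Fermat.Agent.S28_SCHEME.isIntegral_pullback_of_tensor N ℓ K hFin hInf hMid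

end Fermat.Agent.S28
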