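import Fermat.Agent.S28_helper13_EINT_Core
import Fermat.Agent.S28_helper11_DT
import Fermat.Agent.S28_helper24_SUBST

set_option autoImplicit false

open UpperHalfPlane ModularForm CongruenceSubgroup Matrix.SpecialLinearGroup
open scoped MatrixGroups ModularForm Manifold Real
open Fermat.Agent.S20 Fermat.Agent.S28_helper14_Defs Fermat.Agent.S28_helper14_ADefs ModularCurve
open Fermat.Agent.S28_NINT Fermat.Agent.S28_ORDER Fermat.Agent.S28_EINT Fermat.Agent.S28_DT
  Fermat.Agent.S28_SUBST

/-!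
# S28, part of piece GCONJ: `GN N` has no zeros and its `q`-expansion (at period `1`) is
`X ^ ordG N * U` with `U` an integral power series with constant term `1`.
-/

namespace Fermat.Agent.S28_GQEXP

/-- The integral power series `V(X^m)`. -/
noncomputable def substPow (m : ℕ) (V : PowerSeries ℤ) : PowerSeries ℤ :=
  PowerSeries.mk fun j => if m ∣ j then V.coeff (j / m) else 0

theorem constantCoeff_substPow (m : ℕ) (V : PowerSeries ℤ) :
    PowerSeries.constantCoeff (substPow m V) = PowerSeries.constantCoeff V := by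
  rw [← PowerSeries.coeff_zero_eq_constantCoeff_apply, substPow, PowerSeries.coeff_mk,
    if_pos (dvd_zero m), Nat.zero_div, PowerSeries.coeff_zero_eq_constantCoeff_apply]

theorem nice_pow {h : ℝ} {f : ℍ → ℂ} (hf : Nice h f) (n : ℕ) : Nice h (f ^ n) := by
  induction n with
  | zero => simpa using nice_one h
  | succ n ih => rw [pow_succ]; exact nice_mul ih hf

theorem qExpansion_nice_mul {h : ℝ} (hh : 0 < h) {f g : ℍ → ℂ} (hf : Nice h f) (hg : Nice h g) :
    qExpansion h (f * g) = qExpansion h f * qExpansion h g :=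
  qExpansion_mul (nice_analytic hh hf) (nice_analytic hh hg)

theorem qExpansion_nice_pow {h : ℝ} (hh : 0 < h) {f : ℍ → ℂ} (hf : Nice h f) (n : ℕ) :
    qExpansion h (f ^ n) = qExpansion h f ^ n := by
  induction n with
  | zero => simpa using qExpansion_one h
  | succ n ih => rw [pow_succ, pow_succ, qExpansion_nice_mul hh (nice_pow hf n) hf, ih]

theorem nice_tri_one {f : ℍ → ℂ} (hf : Nice 1 f) {m : ℕ} (hm : 0 < m) :
    Nice 1 (tri m 1 0 f) := by
  have := nice_tri hf hm one_pos one_pos (dvd_refl 1) 0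
  simpa using this

theorem qExpansion_tri_one {f : ℍ → ℂ} (hf : Nice 1 f) {m : ℕ} (hm : 0 < m)
    (V : PowerSeries ℤ) (hV : qExpansion 1 f = V.map (Int.castRingHom ℂ)) :
    qExpansion 1 (tri m 1 0 f) = (substPow m V).map (Int.castRingHom ℂ) := by
  ext j
  have := qExpansion_tri_coeff hf hm one_pos one_pos (dvd_refl 1) 0 j
  simp only [Nat.cast_one, Nat.div_self one_pos, mul_one, Int.cast_zero, mul_zero, zero_mul,
    zero_div, Complex.exp_zero] at this
  rw [this, PowerSeries.coeff_map, substPow, PowerSeries.coeff_mk, hV]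
  split_ifs
  · rw [PowerSeries.coeff_map]
  · simp

/-! ### The pointwise factorisation of `GN` -/

theorem qParam_nat_mul (m : ℕ) (z : ℂ) :
    Function.Periodic.qParam 1 ((m : ℂ) * z) = Function.Periodic.qParam 1 z ^ m := by
  unfold Function.Periodic.qParam
  rw [← Complex.exp_nat_mul]
  congr 1
  simp only [Complex.ofReal_one, div_one]
  ring

theorem tri_discriminant {m : ℕ} (hm : 0 < m) (z : ℍ) :
    tri m 1 0 discriminant z = Function.Periodic.qParam 1 z ^ m * tri m 1 0 Dt z := by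
  have him : 0 < ((m : ℂ) * (z : ℂ)).im := by
    rw [Complex.mul_im]
    simp only [Complex.natCast_re, Complex.natCast_im, zero_mul, add_zero]
    exact mul_pos (Nat.cast_pos.mpr hm) z.im_pos
  have h1 : (((m : ℂ) * (z : ℂ) + ((0 : ℤ) : ℂ)) / ((1 : ℕ) : ℂ)) = (m : ℂ) * (z : ℂ) := by
    simp
  unfold tri
  rw [h1, discriminant_eq_q_mul_Dt, ofComplex_apply_of_im_pos him]
  congr 1
  exact qParam_nat_mul m z

/-- The factor attached to `s`, with a natural number exponent. -/
noncomputable def Wfac (N s : ℕ) : ℍ → ℂ :=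
  if 0 ≤ uexp N s then (tri (N / s) 1 0 Dt) ^ (uexp N s).toNat
  else (tri (N / s) 1 0 DtInv) ^ (-uexp N s).toNat

/-- The `q`-expansion of `Wfac N s`. -/
noncomputable def Wser (N s : ℕ) : PowerSeries ℤ :=
  if 0 ≤ uexp N s then (substPow (N / s) dedekindEtaUnit) ^ (uexp N s).toNat
  else (substPow (N / s) dedekindEtaUnitInv) ^ (-uexp N s).toNat

theorem constantCoeff_Wser (N s : ℕ) : PowerSeries.constantCoeff (Wser N s) = 1 := by
  unfold Wser
  split_ifs
  · rw [map_pow, constantCoeff_substPow, constantCoeff_dedekindEtaUnit, one_pow]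
  · rw [map_pow, constantCoeff_substPow, constantCoeff_dedekindEtaUnitInv, one_pow]

theorem nice_Wfac {N s : ℕ} (hs : 0 < N / s) : Nice 1 (Wfac N s) := by
  unfold Wfac
  split_ifs
  · exact nice_pow (nice_tri_one nice_Dt hs) _
  · exact nice_pow (nice_tri_one nice_DtInv hs) _

theorem qExpansion_Wfac {N s : ℕ} (hs : 0 < N / s) :
    qExpansion 1 (Wfac N s) = (Wser N s).map (Int.castRingHom ℂ) := by
  unfold Wfac Wser
  split_ifs
  · rw [qExpansion_nice_pow one_pos (nice_tri_one nice_Dt hs),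
      qExpansion_tri_one nice_Dt hs _ qExpansion_Dt, map_pow]
  · rw [qExpansion_nice_pow one_pos (nice_tri_one nice_DtInv hs),
      qExpansion_tri_one nice_DtInv hs _ qExpansion_DtInv, map_pow]

theorem tri_Dt_zpow (N s : ℕ) (z : ℍ) :
    (tri (N / s) 1 0 Dt z) ^ (uexp N s) = Wfac N s z := by
  unfold Wfac
  split_ifs with h
  · rw [Pi.pow_apply, ← zpow_natCast, Int.toNat_of_nonneg h]
  · have h' : 0 ≤ -uexp N s := by omega
    have h2 : tri (N / s) 1 0 DtInv z = (tri (N / s) 1 0 Dt z)⁻¹ := rfl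
    rw [Pi.pow_apply, h2, inv_pow, ← zpow_natCast, Int.toNat_of_nonneg h', zpow_neg, inv_inv]

theorem GN_eq (N : ℕ) [NeZero N] (z : ℍ) :
    GN N z = discriminant z ^ (ordG N).toNat * DtInv z ^ (ordG N).toNat *
      ∏ s ∈ (rad N).divisors, Wfac N s z := by
  have hq0 : Function.Periodic.qParam 1 (z : ℂ) ≠ 0 := Function.Periodic.qParam_ne_zero _
  have hpos : ∀ s ∈ (rad N).divisors, 0 < N / s := fun s hs =>
    Nat.div_pos (Nat.le_of_dvd (Nat.pos_of_ne_zero (NeZero.ne N))
      ((Nat.dvd_of_mem_divisors hs).trans (rad_dvd N)))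
      (Nat.pos_of_dvd_of_pos (Nat.dvd_of_mem_divisors hs) (rad_pos N))
  have h1 : GN N z = ∏ s ∈ (rad N).divisors,
      (Function.Periodic.qParam 1 (z : ℂ) ^ (uexp N s * ((N / s : ℕ) : ℤ)) * Wfac N s z) := by
    unfold GN
    refine Finset.prod_congr rfl fun s hs => ?_
    rw [tri_discriminant (hpos s hs), mul_zpow, tri_Dt_zpow, ← zpow_natCast, ← zpow_mul,
      mul_comm (uexp N s)]
  have h2 : ∏ s ∈ (rad N).divisors,
      Function.Periodic.qParam 1 (z : ℂ) ^ (uexp N s * ((N / s : ℕ) : ℤ)) =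
      Function.Periodic.qParam 1 (z : ℂ) ^ (ordG N) := by
    unfold ordG
    induction (rad N).divisors using Finset.induction_on with
    | empty => simp
    | insert a S ha ih => rw [Finset.prod_insert ha, Finset.sum_insert ha, ih, zpow_add₀ hq0]
  have h3 : Function.Periodic.qParam 1 (z : ℂ) ^ (ordG N) =
      discriminant z ^ (ordG N).toNat * DtInv z ^ (ordG N).toNat := by
    have h0 := ordG_nonneg N (Nat.pos_of_ne_zero (NeZero.ne N))
    rw [discriminant_eq_q_mul_Dt, mul_pow, mul_assoc, ← mul_pow]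
    have : Dt z * DtInv z = 1 := mul_inv_cancel₀ (Dt_ne_zero z)
    rw [this, one_pow, mul_one, ← zpow_natCast, Int.toNat_of_nonneg h0]
  rw [h1, Finset.prod_mul_distrib, h2, h3]

theorem GN_ne_zero (N : ℕ) [NeZero N] (z : ℍ) : GN N z ≠ 0 := by
  unfold GN
  refine Finset.prod_ne_zero_iff.mpr fun s _ => zpow_ne_zero _ ?_
  unfold tri
  exact discriminant_ne_zero _

theorem GN_eq_fun (N : ℕ) [NeZero N] :
    GN N = (discriminant : ℍ → ℂ) ^ (ordG N).toNat * DtInv ^ (ordG N).toNat *
      ∏ s ∈ (rad N).divisors, Wfac N s := by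
  funext z
  rw [GN_eq N z]
  simp only [Pi.mul_apply, Pi.pow_apply, Finset.prod_apply]

theorem qExpansion_GN (N : ℕ) [NeZero N] : ∃ U : PowerSeries ℤ, PowerSeries.constantCoeff U = 1 ∧
    qExpansion 1 (GN N) = (PowerSeries.X ^ (ordG N).toNat * U).map (Int.castRingHom ℂ) := by
  have hpos : ∀ s ∈ (rad N).divisors, 0 < N / s := fun s hs =>
    Nat.div_pos (Nat.le_of_dvd (Nat.pos_of_ne_zero (NeZero.ne N))
      ((Nat.dvd_of_mem_divisors hs).trans (rad_dvd N)))
      (Nat.pos_of_dvd_of_pos (Nat.dvd_of_mem_divisors hs) (rad_pos N))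
  set e := (ordG N).toNat with he
  have hΔ : Nice 1 (discriminant : ℍ → ℂ) := nice_of_isMF1 isMF1_discriminant
  have hW : Nice 1 (∏ s ∈ (rad N).divisors, Wfac N s) :=
    nice_prod _ _ fun s hs => nice_Wfac (hpos s hs)
  refine ⟨dedekindEtaUnit ^ e * dedekindEtaUnitInv ^ e * ∏ s ∈ (rad N).divisors, Wser N s,
    ?_, ?_⟩
  · rw [map_mul, map_mul, map_pow, map_pow, map_prod, constantCoeff_dedekindEtaUnit,
      constantCoeff_dedekindEtaUnitInv]
    simp only [one_pow, one_mul]
    exact Finset.prod_eq_one fun s _ => constantCoeff_Wser N s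
  · rw [GN_eq_fun N, qExpansion_nice_mul one_pos (nice_mul (nice_pow hΔ e) (nice_pow nice_DtInv e)) hW,
      qExpansion_nice_mul one_pos (nice_pow hΔ e) (nice_pow nice_DtInv e),
      qExpansion_nice_pow one_pos hΔ, qExpansion_nice_pow one_pos nice_DtInv,
      qExpansion_nice_prod one_pos _ _ (fun s hs => nice_Wfac (hpos s hs)),
      Fermat.Agent.S28_QDELTA.qExpansion_discriminant, qExpansion_DtInv]
    rw [Finset.prod_congr rfl fun s hs => qExpansion_Wfac (hpos s hs)]
    simp only [map_mul, map_pow, map_prod, PowerSeries.map_X, mul_pow]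
    ring

end Fermat.Agent.S28_GQEXP
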