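import Fermat.Agent.S28_helper14_Defs
import Fermat.Agent.S28_helper14_Res
import Fermat.Agent.S28_helper3_NORMARG
import Fermat.Agent.S28_helper2_INDEPC_Order
import Fermat.Agent.S28_helper17_RELRAT

set_option autoImplicit false

noncomputable section

open ModularCurve Polynomial
open Fermat.Agent.S28_helper14_Defs Fermat.Agent.S28_helper14_Res

namespace Fermat.Agent.S28_INDEPMOD

/-! ### transport along coefficient maps -/

theorem algebraMap_eq_single (R : Type*) [CommRing R] (r : R) :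
    algebraMap R (LaurentSeries R) r = HahnSeries.single 0 r := by
  have h1 : algebraMap R (PowerSeries R) r = PowerSeries.C r := by
    simp
  rw [HahnSeries.algebraMap_apply', h1, HahnSeries.ofPowerSeries_C]
  rfl

theorem coeffMap_comp_algebraMap {R S : Type*} [CommRing R] [CommRing S] (f : R →+* S) :
    (coeffMap f).comp (algebraMap R (LaurentSeries R)) =
      (algebraMap S (LaurentSeries S)).comp f := by
  ext r : 1
  simp only [RingHom.comp_apply]
  rw [algebraMap_eq_single, algebraMap_eq_single, coeffMap_single]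

theorem coeffMap_aeval {R S : Type*} [CommRing R] [CommRing S] (f : R →+* S)
    (x : LaurentSeries R) (P : Polynomial R) :
    coeffMap f (Polynomial.aeval x P) = Polynomial.aeval (coeffMap f x) (P.map f) := by
  rw [Polynomial.aeval_def, Polynomial.aeval_def, Polynomial.hom_eval₂, Polynomial.eval₂_map,
    coeffMap_comp_algebraMap]

theorem coeffMap_Vser {R S : Type*} [CommRing R] [CommRing S] (f : R →+* S) (m : ℕ)
    (U : PowerSeries ℤ) : coeffMap f (Vser R m U) = Vser S m U := by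
  unfold Vser
  rw [coeffMap_ofPowerSeries,
    ← RingHom.comp_apply (PowerSeries.map f) (PowerSeries.map (Int.castRingHom R)),
    ← PowerSeries.map_comp, RingHom.ext_int (f.comp (Int.castRingHom R)) (Int.castRingHom S)]

theorem coeffMap_injective {R S : Type*} [CommRing R] [CommRing S] (f : R →+* S)
    (hf : Function.Injective f) : Function.Injective (coeffMap f) := by
  intro x y hxy
  ext k
  apply hf
  have := congrArg (fun z => HahnSeries.coeff z k) hxy
  simpa using this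

theorem coeffMap_rel {R S : Type*} [CommRing R] [CommRing S] (f : R →+* S) (ι m : ℕ)
    (U : PowerSeries ℤ) (P : ℕ → Polynomial R) :
    coeffMap f (∑ i ∈ Finset.range (ι + 1),
        Polynomial.aeval (jqModC R) (P i) * (Vser R m U) ^ (ι - i)) =
      ∑ i ∈ Finset.range (ι + 1),
        Polynomial.aeval (jqModC S) ((P i).map f) * (Vser S m U) ^ (ι - i) := by
  rw [map_sum]
  refine Finset.sum_congr rfl fun i _ => ?_
  rw [map_mul, map_pow, coeffMap_aeval, coeffMap_jqModC, coeffMap_Vser]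

/-! ### the embedding of `ℤ_(ℓ)` into `ℂ` -/

/-- the embedding `ℤ_(ℓ) → ℂ` -/
def emb (ℓ : ℕ) [Fact ℓ.Prime] : Rl ℓ →+* ℂ :=
  (algebraMap ℚ ℂ).comp (GaloisRep.ratLocalizedAt ℓ).subtype

theorem emb_injective (ℓ : ℕ) [Fact ℓ.Prime] : Function.Injective (emb ℓ) :=
  (algebraMap ℚ ℂ).injective.comp Subtype.val_injective

theorem emb_apply (ℓ : ℕ) [Fact ℓ.Prime] (x : Rl ℓ) : emb ℓ x = ((x : ℚ) : ℂ) := rfl

theorem resR_ne_zero_of_unit (N ℓ : ℕ) [Fact ℓ.Prime] (h : ¬ ℓ ∣ N) (u' : Rl ℓ)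
    (hu0 : emb ℓ u' ≠ 0) (hu' : IsNInt N (emb ℓ u')⁻¹) : resR ℓ u' ≠ 0 := by
  obtain ⟨e, he⟩ := hu'
  have hu0' : (u' : ℚ) ≠ 0 := by
    intro h0
    apply hu0
    rw [emb_apply, h0]
    simp
  have hx : algebraMap ℚ ℂ ((N : ℚ) ^ e * (u' : ℚ)⁻¹) = (N : ℂ) ^ e * (emb ℓ u')⁻¹ := by
    rw [emb_apply]
    simp
  rw [← hx] at he
  have he' : IsIntegral ℤ ((N : ℚ) ^ e * (u' : ℚ)⁻¹) :=
    (isIntegral_algebraMap_iff (algebraMap ℚ ℂ).injective).mp he
  obtain ⟨m, hm⟩ := IsIntegrallyClosed.isIntegral_iff.mp he'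
  have hm' : ((m : ℤ) : ℚ) * (u' : ℚ) = (N : ℚ) ^ e := by
    have : ((m : ℤ) : ℚ) = (N : ℚ) ^ e * (u' : ℚ)⁻¹ := by
      rw [← hm]; simp
    rw [this, mul_assoc, inv_mul_cancel₀ hu0', mul_one]
  have hR : ((m : ℤ) : Rl ℓ) * u' = ((N : ℕ) : Rl ℓ) ^ e := by
    apply Subtype.ext
    push_cast
    exact hm'
  intro hres
  have := congrArg (resR ℓ) hR
  rw [map_mul, hres, mul_zero, map_pow, map_natCast] at this
  have hN : ((N : ℕ) : ZMod ℓ) = 0 := eq_zero_of_pow_eq_zero this.symm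
  rw [ZMod.natCast_eq_zero_iff] at hN
  exact h hN

/-! ### independence modulo `ℓ` -/

theorem indep_mod (N ℓ : ℕ) [NeZero N] [Fact ℓ.Prime] (h : ¬ ℓ ∣ N) (D : UnitData N)
    (c : ℕ → Polynomial (ZMod ℓ))
    (hc : ∑ i ∈ Finset.range D.ι, Polynomial.aeval (ModularCurve.jqModC (ZMod ℓ)) (c i) *
      (Vser (ZMod ℓ) (D.k₀ * (D.ι - 1)) D.U) ^ i = 0) :
    ∀ i < D.ι, c i = 0 := by
  obtain ⟨p', hp'⟩ := Fermat.Agent.S28_RELRAT.rel_rat N ℓ h D
  have hp'' : ∀ i ≤ D.ι, (p' i).map (emb ℓ) = D.p i := hp'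
  -- the relation over `ℤ_(ℓ)`
  have hrelR : ∑ i ∈ Finset.range (D.ι + 1),
      Polynomial.aeval (jqModC (Rl ℓ)) (p' i) *
        (Vser (Rl ℓ) (D.k₀ * (D.ι - 1)) D.U) ^ (D.ι - i) = 0 := by
    apply coeffMap_injective (emb ℓ) (emb_injective ℓ)
    rw [coeffMap_rel, map_zero, ← D.rel]
    refine Finset.sum_congr rfl fun i hi => ?_
    rw [hp'' i (by have := Finset.mem_range.mp hi; omega)]
  -- reduce modulo `ℓ`
  have hrelF := congrArg (coeffMap (resR ℓ)) hrelR
  rw [coeffMap_rel, map_zero] at hrelF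
  have hrelF' : ∑ i ∈ Finset.range (D.ι + 1),
      Polynomial.aeval (jqModC (ZMod ℓ))
          ((fun i => if i ≤ D.ι then (p' i).map (resR ℓ) else 0) i) *
        (Vser (ZMod ℓ) (D.k₀ * (D.ι - 1)) D.U) ^ (D.ι - i) = 0 := by
    rw [← hrelF]
    refine Finset.sum_congr rfl fun i hi => ?_
    have hi' : i ≤ D.ι := by have := Finset.mem_range.mp hi; omega
    simp only [hi', if_true]
  have hp'0 : p' 0 = 1 := by
    apply Polynomial.map_injective (emb ℓ) (emb_injective ℓ)
    rw [hp'' 0 (Nat.zero_le _), D.hp0, Polynomial.map_one]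
  have hφu : emb ℓ ((p' D.ι).coeff 0) = D.u := by
    have := congrArg (fun P : Polynomial ℂ => P.coeff 0) (hp'' D.ι le_rfl)
    simp only [Polynomial.coeff_map, D.hpι, Polynomial.coeff_C_zero] at this
    exact this
  have hp'ι : p' D.ι = Polynomial.C ((p' D.ι).coeff 0) := by
    apply Polynomial.map_injective (emb ℓ) (emb_injective ℓ)
    rw [hp'' D.ι le_rfl, Polynomial.map_C, hφu, D.hpι]
  refine Fermat.Agent.S28_NORMARG.normArg D.ι D.k₀ D.hι D.hk₀ (jqModC (ZMod ℓ))
    (Vser (ZMod ℓ) (D.k₀ * (D.ι - 1)) D.U)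
    (Fermat.Agent.S28_INDEPC.orderTop_jqModC (ZMod ℓ))
    (Fermat.Agent.S28_INDEPC.orderTop_Vser (ZMod ℓ) _ D.U D.hU)
    (fun i => if i ≤ D.ι then (p' i).map (resR ℓ) else 0) ?_ ?_
    (resR ℓ ((p' D.ι).coeff 0)) ?_ ?_ hrelF' c hc
  · simp only [Nat.zero_le, if_true]
    rw [hp'0, Polynomial.map_one]
  · intro i
    by_cases hi : i ≤ D.ι
    · simp only [hi, if_true]
      calc ((p' i).map (resR ℓ)).natDegree ≤ (p' i).natDegree := Polynomial.natDegree_map_le
        _ = ((p' i).map (emb ℓ)).natDegree :=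
            (Polynomial.natDegree_map_eq_of_injective (emb_injective ℓ) _).symm
        _ = (D.p i).natDegree := by rw [hp'' i hi]
        _ ≤ D.k₀ * i := D.hp_deg i
    · simp only [hi, if_false, Polynomial.natDegree_zero]
      exact Nat.zero_le _
  · apply resR_ne_zero_of_unit N ℓ h
    · rw [hφu]; exact D.hu0
    · rw [hφu]; exact D.hu'
  · simp only [le_refl, if_true]
    conv_lhs => rw [hp'ι]
    rw [Polynomial.map_C]

end Fermat.Agent.S28_INDEPMOD
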