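import Fermat.Agent.S28_helper14_Defs
import Fermat.Agent.S28_helper14_Res
import Fermat.Agent.S28_helper14_Val
import Fermat.Agent.S28_helper25_SPANQ
import Fermat.Agent.S28_helper29_INDEPMOD

set_option autoImplicit false
set_option linter.unusedSectionVars false
set_option linter.unusedVariables false

/-!
# S28 piece KEYREP: `ℓ`-primitive representation of elements of the function field
-/

noncomputable section

open ModularCurve Polynomial
open Fermat.Agent.S28_helper14_Defs Fermat.Agent.S28_helper14_Res Fermat.Agent.S28_helper14_Val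

namespace Fermat.Agent.S28_KEYREP

theorem algebraMap_eq_single (S A : Type*) [CommRing S] [CommRing A] [Algebra S A] (r : S) :
    algebraMap S (LaurentSeries A) r = HahnSeries.single 0 (algebraMap S A r) := by
  have h1 : algebraMap S (PowerSeries A) r = PowerSeries.C (algebraMap S A r) := by
    simp [PowerSeries.algebraMap_apply]
  rw [HahnSeries.algebraMap_apply', h1, HahnSeries.ofPowerSeries_C]
  rfl

theorem coeffMap_aeval {S S' A B : Type*} [CommRing S] [CommRing S'] [CommRing A] [CommRing B]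
    [Algebra S A] [Algebra S' B] (f : A →+* B) (g : S →+* S')
    (hfg : ∀ r, f (algebraMap S A r) = algebraMap S' B (g r)) (x : LaurentSeries A) (P : S[X]) :
    coeffMap f (aeval x P) = aeval (coeffMap f x) (P.map g) := by
  rw [aeval_def, aeval_def, hom_eval₂, eval₂_map]
  congr 1
  ext r : 1
  simp only [RingHom.comp_apply]
  rw [algebraMap_eq_single, algebraMap_eq_single, coeffMap_single, hfg]

variable (ℓ : ℕ) [Fact ℓ.Prime]

theorem incL_jqModC : incL ℓ (jqModC (Rl ℓ)) = jq := by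
  rw [incL, coeffMap_jqModC]
  rfl

theorem redL_jqModC : redL ℓ (jqModC (Rl ℓ)) = jqModC (ZMod ℓ) := by
  rw [redL, coeffMap_jqModC]

theorem coeffMap_Vser {A B : Type*} [CommRing A] [CommRing B] (f : A →+* B) (m : ℕ)
    (U : PowerSeries ℤ) : coeffMap f (Vser A m U) = Vser B m U := by
  rw [Vser, Vser, coeffMap_ofPowerSeries]
  congr 1
  ext n
  simp only [PowerSeries.coeff_map, eq_intCast, map_intCast]

theorem incL_Vser (m : ℕ) (U : PowerSeries ℤ) : incL ℓ (Vser (Rl ℓ) m U) = Vser ℚ m U :=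
  coeffMap_Vser _ m U

theorem redL_Vser (m : ℕ) (U : PowerSeries ℤ) : redL ℓ (Vser (Rl ℓ) m U) = Vser (ZMod ℓ) m U :=
  coeffMap_Vser _ m U

theorem incL_aeval (x : LaurentSeries (Rl ℓ)) (P : (Rl ℓ)[X]) :
    incL ℓ (aeval x P) = aeval (incL ℓ x) P := by
  have := coeffMap_aeval (S := Rl ℓ) (S' := Rl ℓ) (A := Rl ℓ) (B := ℚ)
    (GaloisRep.ratLocalizedAt ℓ).subtype (RingHom.id _) (fun r => rfl) x P
  rw [Polynomial.map_id] at this
  exact this

theorem redL_aeval (x : LaurentSeries (Rl ℓ)) (P : (Rl ℓ)[X]) :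
    redL ℓ (aeval x P) = aeval (redL ℓ x) (P.map (resR ℓ)) :=
  coeffMap_aeval (S := Rl ℓ) (S' := ZMod ℓ) (A := Rl ℓ) (B := ZMod ℓ)
    (resR ℓ) (resR ℓ) (fun r => rfl) x P

/-- Evaluating an integer polynomial through `ℤ_(ℓ)` or through `ℚ` gives the same. -/
theorem aeval_map_int (x : LaurentSeries ℚ) (P : ℤ[X]) :
    aeval x (P.map (Int.castRingHom (Rl ℓ))) = aeval x (P.map (Int.castRingHom ℚ)) := by
  rw [aeval_def, aeval_def, eval₂_map, eval₂_map]
  congr 1
  exact RingHom.ext_int _ _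

/-- Scaling a finite family of rationals to a primitive family of integers. -/
theorem exists_scale {σ : Type*} (s : Finset σ) (f : σ → ℚ) (hf : ∃ x ∈ s, f x ≠ 0) :
    ∃ (t : ℚ) (g : σ → ℤ), t ≠ 0 ∧ (∀ x ∈ s, t * f x = g x) ∧ ∃ x ∈ s, ¬ (ℓ : ℤ) ∣ g x := by
  classical
  set d : ℕ := ∏ x ∈ s, (f x).den with hd
  have hd0 : d ≠ 0 := Finset.prod_ne_zero_iff.mpr fun x _ => (f x).den_ne_zero
  set n : σ → ℤ := fun x => ((d / (f x).den : ℕ) : ℤ) * (f x).num with hn
  have hnf : ∀ x ∈ s, (d : ℚ) * f x = n x := by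
    intro x hx
    have hdvd : (f x).den ∣ d := Finset.dvd_prod_of_mem _ hx
    obtain ⟨k, hk⟩ := hdvd
    have hden : ((f x).den : ℚ) ≠ 0 := by exact_mod_cast (f x).den_ne_zero
    have hdiv : d / (f x).den = k := by
      rw [hk, Nat.mul_div_cancel_left _ (Nat.pos_of_ne_zero (f x).den_ne_zero)]
    simp only [hn, hdiv]
    conv_lhs => rw [← Rat.num_div_den (f x), hk]
    push_cast
    field_simp
  obtain ⟨x0, hx0, hfx0⟩ := hf
  have hn0 : n x0 ≠ 0 := by
    have := hnf x0 hx0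
    intro h0
    rw [h0, Int.cast_zero] at this
    rcases mul_eq_zero.mp this with h | h
    · exact hd0 (by exact_mod_cast h)
    · exact hfx0 h
  obtain ⟨g, hg, hg1⟩ := Finset.extract_gcd n ⟨x0, hx0⟩
  set G : ℤ := s.gcd n with hG
  have hG0 : G ≠ 0 := by
    intro h0
    have := hg x0 hx0
    rw [h0, zero_mul] at this
    exact hn0 this
  refine ⟨(d : ℚ) / G, g, ?_, ?_, ?_⟩
  · exact div_ne_zero (by exact_mod_cast hd0) (by exact_mod_cast hG0)
  · intro x hx
    have hGq : (G : ℚ) ≠ 0 := by exact_mod_cast hG0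
    rw [div_mul_eq_mul_div, hnf x hx, hg x hx, div_eq_iff hGq]
    push_cast
    ring
  · by_contra hall
    have hall' : ∀ x ∈ s, (ℓ : ℤ) ∣ g x := by
      intro x hx
      by_contra hx'
      exact hall ⟨x, hx, hx'⟩
    have : (ℓ : ℤ) ∣ s.gcd g := Finset.dvd_gcd hall'
    rw [hg1] at this
    have hℓ : ℓ.Prime := Fact.out
    have h1 : (ℓ : ℤ) = 1 ∨ (ℓ : ℤ) = -1 := Int.isUnit_iff.mp (isUnit_of_dvd_one this)
    rcases h1 with h1 | h1
    · exact hℓ.one_lt.ne' (by exact_mod_cast h1)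
    · have : (0 : ℤ) ≤ ℓ := Int.natCast_nonneg _
      omega

/-- Scaling a finite family of rational polynomials to a primitive family of integer
polynomials. -/
theorem exists_scale_poly (n : ℕ) (F : ℕ → ℚ[X]) (hF : ∃ i < n, F i ≠ 0) :
    ∃ (t : ℚ) (G : ℕ → ℤ[X]), t ≠ 0 ∧
      (∀ i < n, (G i).map (Int.castRingHom ℚ) = C t * F i) ∧
      ∃ i < n, (G i).map (Int.castRingHom (ZMod ℓ)) ≠ 0 := by
  classical
  set M : ℕ := (Finset.range n).sup (fun i => (F i).natDegree) with hM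
  have hdeg : ∀ i < n, (F i).natDegree ≤ M := fun i hi =>
    Finset.le_sup (f := fun i => (F i).natDegree) (Finset.mem_range.mpr hi)
  set s : Finset (ℕ × ℕ) := Finset.range n ×ˢ Finset.range (M + 1) with hs
  set f : ℕ × ℕ → ℚ := fun ik => (F ik.1).coeff ik.2 with hf
  have hfne : ∃ x ∈ s, f x ≠ 0 := by
    obtain ⟨i, hi, hFi⟩ := hF
    obtain ⟨k, hk⟩ : ∃ k, (F i).coeff k ≠ 0 := by
      by_contra hall
      have hall' : ∀ k, (F i).coeff k = 0 := by
        intro k
        by_contra hk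
        exact hall ⟨k, hk⟩
      exact hFi (Polynomial.ext fun k => by rw [hall' k, coeff_zero])
    refine ⟨(i, k), ?_, hk⟩
    rw [hs, Finset.mem_product, Finset.mem_range, Finset.mem_range]
    refine ⟨hi, ?_⟩
    have := le_natDegree_of_ne_zero hk
    have := hdeg i hi
    omega
  obtain ⟨t, g, ht, hg, ⟨x0, hx0, hgx0⟩⟩ := exists_scale ℓ s f hfne
  set G : ℕ → ℤ[X] := fun i => ∑ k ∈ Finset.range (M + 1), monomial k (g (i, k)) with hG
  have hGcoeff : ∀ i k, (G i).coeff k = if k ∈ Finset.range (M + 1) then g (i, k) else 0 := by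
    intro i k
    simp only [hG, finsetSum_coeff, coeff_monomial]
    rw [Finset.sum_ite_eq' (Finset.range (M + 1)) k]
  refine ⟨t, G, ht, ?_, ?_⟩
  · intro i hi
    ext k
    rw [coeff_map, hGcoeff, coeff_C_mul]
    by_cases hk : k ∈ Finset.range (M + 1)
    · rw [if_pos hk, eq_intCast]
      have := hg (i, k) (by rw [hs, Finset.mem_product]; exact ⟨Finset.mem_range.mpr hi, hk⟩)
      rw [← this]
    · rw [if_neg hk, eq_intCast, Int.cast_zero]
      have hk' : (F i).natDegree < k := by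
        have := hdeg i hi
        rw [Finset.mem_range] at hk
        omega
      rw [coeff_eq_zero_of_natDegree_lt hk', mul_zero]
  · obtain ⟨i0, k0⟩ := x0
    rw [hs, Finset.mem_product, Finset.mem_range] at hx0
    refine ⟨i0, hx0.1, fun h0 => hgx0 ?_⟩
    have := congrArg (fun P => P.coeff k0) h0
    simp only [coeff_map, coeff_zero, hGcoeff, if_pos hx0.2, eq_intCast] at this
    exact (ZMod.intCast_zmod_eq_zero_iff_dvd _ _).mp this

theorem key_rep (N ℓ : ℕ) [NeZero N] [Fact ℓ.Prime] (hℓN : ¬ ℓ ∣ N) (D : UnitData N)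
    (y : LaurentSeries ℚ) (hy : y ∈ modularFunctionFieldFull N) (hyV : y ∈ Vring ℓ) :
    ∃ (A : Polynomial (Rl ℓ)) (B : ℕ → Polynomial (Rl ℓ)), A.map (resR ℓ) ≠ 0 ∧
      Polynomial.aeval jq A * y = ∑ i ∈ Finset.range D.ι,
        Polynomial.aeval jq (B i) * (Vser ℚ (D.k₀ * (D.ι - 1)) D.U) ^ i := by
  classical
  obtain ⟨A0, B0, hA0, hid0⟩ := Fermat.Agent.S28_SPANQ.spanQ N D y hy
  set ι := D.ι with hι
  set m := D.k₀ * (D.ι - 1) with hm
  set F : ℕ → ℚ[X] := fun i => if i < ι then B0 i else A0 with hF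
  have hFι : F ι = A0 := by simp [hF]
  have hFlt : ∀ i < ι, F i = B0 i := fun i hi => by simp [hF, hi]
  obtain ⟨t, G, ht, hG, ⟨i0, hi0, hGi0⟩⟩ := exists_scale_poly ℓ (ι + 1) F
    ⟨ι, Nat.lt_succ_self _, by rw [hFι]; exact hA0⟩
  set A : (Rl ℓ)[X] := (G ι).map (Int.castRingHom (Rl ℓ)) with hA
  set B : ℕ → (Rl ℓ)[X] := fun i => (G i).map (Int.castRingHom (Rl ℓ)) with hB
  have hmapres : ∀ i, ((G i).map (Int.castRingHom (Rl ℓ))).map (resR ℓ)
      = (G i).map (Int.castRingHom (ZMod ℓ)) := by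
    intro i
    rw [Polynomial.map_map]
    congr 1
    exact RingHom.ext_int _ _
  have haev : ∀ i < ι + 1, aeval jq ((G i).map (Int.castRingHom (Rl ℓ)))
      = algebraMap ℚ (LaurentSeries ℚ) t * aeval jq (F i) := by
    intro i hi
    rw [aeval_map_int, hG i hi, map_mul, aeval_C]
  -- the identity
  have hid : aeval jq A * y = ∑ i ∈ Finset.range ι, aeval jq (B i) * (Vser ℚ m D.U) ^ i := by
    rw [hA, haev ι (Nat.lt_succ_self _), hFι, mul_assoc, hid0, Finset.mul_sum]
    apply Finset.sum_congr rfl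
    intro i hi
    have hi' : i < ι := Finset.mem_range.mp hi
    simp only [hB]
    rw [haev i (Nat.lt_succ_of_lt hi'), hFlt i hi', mul_assoc]
  refine ⟨A, B, ?_, hid⟩
  -- non-vanishing of the reduction of `A`
  intro hAbar
  have hi0' : i0 < ι := by
    rcases Nat.lt_succ_iff_lt_or_eq.mp hi0 with h | h
    · exact h
    · exfalso
      apply hGi0
      rw [h, ← hmapres]
      exact hAbar
  -- transport the identity to `ℤ_(ℓ)((q))`
  set jR := jqModC (Rl ℓ) with hjR
  set VR := Vser (Rl ℓ) m D.U with hVR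
  set a : LaurentSeries (Rl ℓ) := aeval jR A with ha
  set b : LaurentSeries (Rl ℓ) := ∑ i ∈ Finset.range ι, aeval jR (B i) * VR ^ i with hb
  have hinca : incL ℓ a = aeval jq A := by
    rw [ha, incL_aeval, hjR, incL_jqModC]
  have hincb : incL ℓ b = ∑ i ∈ Finset.range ι, aeval jq (B i) * (Vser ℚ m D.U) ^ i := by
    rw [hb, map_sum]
    apply Finset.sum_congr rfl
    intro i _
    rw [map_mul, map_pow, incL_aeval, hjR, incL_jqModC, hVR, incL_Vser]
  obtain ⟨α, β, hβ, hαβ⟩ := hyV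
  have h1 : a * α = β * b := by
    apply incL_injective ℓ
    rw [map_mul, map_mul, hinca, hincb, ← hid, ← hαβ]
    ring
  have h2 : redL ℓ a * redL ℓ α = redL ℓ β * redL ℓ b := by
    rw [← map_mul, ← map_mul, h1]
  have h3 : redL ℓ a = 0 := by
    rw [ha, redL_aeval, hAbar, map_zero]
  have h4 : redL ℓ b = 0 := by
    rw [h3, zero_mul] at h2
    rcases mul_eq_zero.mp h2.symm with h | h
    · exact absurd h hβ
    · exact h
  have h5 : ∑ i ∈ Finset.range D.ι, aeval (jqModC (ZMod ℓ)) ((B i).map (resR ℓ)) *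
      (Vser (ZMod ℓ) (D.k₀ * (D.ι - 1)) D.U) ^ i = 0 := by
    rw [← h4, hb, map_sum]
    apply Finset.sum_congr rfl
    intro i _
    rw [map_mul, map_pow, redL_aeval, hjR, redL_jqModC, hVR, redL_Vser]
  have h6 := Fermat.Agent.S28_INDEPMOD.indep_mod N ℓ hℓN D (fun i => (B i).map (resR ℓ)) h5 i0 hi0'
  apply hGi0
  rw [← hmapres]
  exact h6

end Fermat.Agent.S28_KEYREP
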