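import Fermat.Agent.S28_helper14_ADefs
import Fermat.Prelude.Thm_ModularCurve_coeff_jqModC_pow_self
import Fermat.Prelude.Thm_ModularCurve_coeff_jqModC_pow_of_lt

/-!
# S28, piece LEVEL1 (core): level-one structure theorem with integrality, formal form

Everything here is proved relative to the two `q`-expansion identities
`hΔ : qExpansion 1 Δ = (X * dedekindEtaUnit).map _` (piece QDELTA) and
`hE : qExpansion 1 E₄ = eisenstein4.map _` (piece QE4), taken as hypotheses.
-/

set_option autoImplicit false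

open UpperHalfPlane ModularForm CongruenceSubgroup Matrix.SpecialLinearGroup
open scoped MatrixGroups ModularForm Manifold Real
open Fermat.Agent.S20 Fermat.Agent.S28_helper14_Defs Fermat.Agent.S28_helper14_ADefs ModularCurve

namespace Fermat.Agent.S28_LEVEL1

/-- hypothesis form of piece QDELTA -/
def QDeltaHyp : Prop :=
  qExpansion 1 discriminant = (PowerSeries.X * dedekindEtaUnit).map (Int.castRingHom ℂ)

/-- hypothesis form of piece QE4 -/
def QE4Hyp : Prop :=
  qExpansion 1 (⇑E₄ : ℍ → ℂ) = eisenstein4.map (Int.castRingHom ℂ)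

theorem jqModC_mul_DeltaL_of (hΔ : QDeltaHyp) (hE : QE4Hyp) :
    jqModC ℂ * DeltaL = (HahnSeries.ofPowerSeries ℤ ℂ (qExpansion 1 (⇑E₄ : ℍ → ℂ))) ^ 3 := by
  unfold QDeltaHyp at hΔ
  unfold QE4Hyp at hE
  rw [DeltaL, hΔ, hE, jqModC, jNum, mul_assoc, ← map_mul, ← map_mul, ← map_pow, ← map_pow]
  have h1 : eisenstein4 ^ 3 * dedekindEtaUnitInv * (PowerSeries.X * dedekindEtaUnit) =
      PowerSeries.X * eisenstein4 ^ 3 := by
    have := dedekindEtaUnit_mul_inv
    calc eisenstein4 ^ 3 * dedekindEtaUnitInv * (PowerSeries.X * dedekindEtaUnit)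
        = PowerSeries.X * eisenstein4 ^ 3 * (dedekindEtaUnit * dedekindEtaUnitInv) := by ring
      _ = PowerSeries.X * eisenstein4 ^ 3 := by rw [this, mul_one]
  rw [h1, map_mul, map_mul, PowerSeries.map_X, HahnSeries.ofPowerSeries_X, ← mul_assoc,
    HahnSeries.single_mul_single]
  simp

theorem DeltaL_ne_zero : DeltaL ≠ 0 := by
  intro h
  rw [DeltaL, map_eq_zero_iff _ HahnSeries.ofPowerSeries_injective] at h
  have := ModularForm.discriminant_qExpansion_order
  rw [h, PowerSeries.order_zero] at this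
  exact absurd this (by simp)

theorem aeval_jqModC_injective : Function.Injective (Polynomial.aeval (R := ℂ) (jqModC ℂ)) := by
  rw [injective_iff_map_eq_zero]
  intro c hc
  by_contra hne
  have h1 := congrArg (fun y : LaurentSeries ℂ => y.coeff (-(c.natDegree : ℤ))) hc
  simp only [HahnSeries.coeff_zero] at h1
  rw [Polynomial.aeval_eq_sum_range, HahnSeries.coeff_sum] at h1
  rw [Finset.sum_eq_single c.natDegree] at h1
  · rw [Algebra.smul_def, algebraMap_laurentSeries_eq_single, HahnSeries.coeff_single_mul,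
      sub_zero, coeff_jqModC_pow_self, mul_one] at h1
    exact hne (Polynomial.leadingCoeff_eq_zero.mp h1)
  · intro i hi hine
    have hlt : i < c.natDegree := by
      have := Finset.mem_range.mp hi
      omega
    rw [Algebra.smul_def, algebraMap_laurentSeries_eq_single, HahnSeries.coeff_single_mul,
      sub_zero, coeff_jqModC_pow_of_lt ℂ (by omega), mul_zero]
  · intro h
    exact absurd (Finset.mem_range.mpr (Nat.lt_succ_self _)) h

/-- Power series with coefficients in a subring `O ⊆ ℂ`. -/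
def coeffSubring (O : Subring ℂ) : Subring (PowerSeries ℂ) where
  carrier := {P | ∀ n, P.coeff n ∈ O}
  mul_mem' := by
    intro P Q hP hQ n
    rw [PowerSeries.coeff_mul]
    exact Subring.sum_mem _ fun x _ => O.mul_mem (hP _) (hQ _)
  one_mem' := by
    intro n
    rw [PowerSeries.coeff_one]
    split_ifs
    · exact O.one_mem
    · exact O.zero_mem
  add_mem' := by
    intro P Q hP hQ n
    rw [map_add]
    exact O.add_mem (hP n) (hQ n)
  zero_mem' := by
    intro n
    rw [map_zero]
    exact O.zero_mem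
  neg_mem' := by
    intro P hP n
    rw [map_neg]
    exact O.neg_mem (hP n)

theorem mem_coeffSubring (O : Subring ℂ) (P : PowerSeries ℂ) :
    P ∈ coeffSubring O ↔ ∀ n, P.coeff n ∈ O := Iff.rfl

theorem map_int_mem_coeffSubring (O : Subring ℂ) (P : PowerSeries ℤ) :
    P.map (Int.castRingHom ℂ) ∈ coeffSubring O := by
  intro n
  rw [PowerSeries.coeff_map]
  exact intCast_mem O _

theorem smul_mem_coeffSubring (O : Subring ℂ) {a : ℂ} (ha : a ∈ O) {P : PowerSeries ℂ}
    (hP : P ∈ coeffSubring O) : a • P ∈ coeffSubring O := by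
  intro n
  rw [PowerSeries.coeff_smul]
  exact O.mul_mem ha (hP n)

/-- If `X * P` has coefficients in `O` then so does `P`. -/
theorem mem_coeffSubring_of_X_mul (O : Subring ℂ) {P : PowerSeries ℂ}
    (hP : PowerSeries.X * P ∈ coeffSubring O) : P ∈ coeffSubring O := by
  intro n
  have := hP (n + 1)
  rwa [PowerSeries.coeff_succ_X_mul] at this

theorem constantCoeff_qExpansion_E4_pow (hE : QE4Hyp) (n : ℕ) :
    ((qExpansion 1 (⇑E₄ : ℍ → ℂ)) ^ n).coeff 0 = 1 := by
  unfold QE4Hyp at hE
  rw [hE, PowerSeries.coeff_zero_eq_constantCoeff, map_pow,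
    ← PowerSeries.coeff_zero_eq_constantCoeff, PowerSeries.coeff_map,
    PowerSeries.coeff_zero_eq_constantCoeff, constantCoeff_eisenstein4]
  simp

theorem qExpansion_E4_pow_mem (hE : QE4Hyp) (O : Subring ℂ) (n : ℕ) :
    (qExpansion 1 (⇑E₄ : ℍ → ℂ)) ^ n ∈ coeffSubring O := by
  unfold QE4Hyp at hE
  rw [hE]
  exact (coeffSubring O).pow_mem (map_int_mem_coeffSubring O _) n

/-- Subtracting the constant term times a power of `E₄`. -/
theorem exists_sub_E4_pow (hE : QE4Hyp) (O : Subring ℂ) (m : ℕ) (k : ℤ) (hk : k = 12 * (m : ℤ))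
    (f : ModularForm 𝒮ℒ k) (hf : qExpansion 1 f ∈ coeffSubring O) :
    ∃ g : ModularForm 𝒮ℒ k, (qExpansion 1 g).coeff 0 = 0 ∧ qExpansion 1 g ∈ coeffSubring O ∧
      qExpansion 1 f = qExpansion 1 g +
        ((qExpansion 1 f).coeff 0) • (qExpansion 1 (⇑E₄ : ℍ → ℂ)) ^ (3 * m) := by
  set a₀ : ℂ := (qExpansion 1 f).coeff 0 with ha₀
  let E : ModularForm 𝒮ℒ k := ModularForm.mcast (by rw [hk]; push_cast; ring) (E₄.pow (3 * m))
  have hPE : qExpansion 1 E = (qExpansion 1 (⇑E₄ : ℍ → ℂ)) ^ (3 * m) := by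
    show qExpansion 1 (ModularForm.mcast _ (E₄.pow (3 * m))) = _
    rw [ModularForm.qExpansion_mcast, ModularForm.qExpansion_pow one_pos one_mem_strictPeriods_SL]
  have hPg : qExpansion 1 (⇑(f - a₀ • E) : ℍ → ℂ) =
      qExpansion 1 f - a₀ • qExpansion 1 E := by
    have h1 := ModularForm.qExpansion_sub one_pos one_mem_strictPeriods_SL f (a₀ • E)
    have h2 := ModularForm.qExpansion_smul one_pos one_mem_strictPeriods_SL a₀ E
    have h3 : qExpansion 1 (⇑(a₀ • E) : ℍ → ℂ) = a₀ • qExpansion 1 E := h2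
    rw [← h3]
    exact h1
  refine ⟨f - a₀ • E, ?_, ?_, ?_⟩
  · rw [hPg, hPE, map_sub, PowerSeries.coeff_smul, constantCoeff_qExpansion_E4_pow hE, ← ha₀]
    simp
  · rw [hPg, hPE]
    exact (coeffSubring O).sub_mem hf
      (smul_mem_coeffSubring O (hf 0) (qExpansion_E4_pow_mem hE O _))
  · rw [hPg, hPE]
    abel

theorem level1_structure_aux (hΔ : QDeltaHyp) (hE : QE4Hyp) (O : Subring ℂ) :
    ∀ (m : ℕ) (k : ℤ), k = 12 * (m : ℤ) → ∀ f : ModularForm 𝒮ℒ k,
      qExpansion 1 f ∈ coeffSubring O →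
      ∃ c : Polynomial ℂ, c.natDegree ≤ m ∧ (∀ a, c.coeff a ∈ O) ∧
        HahnSeries.ofPowerSeries ℤ ℂ (qExpansion 1 f) =
          Polynomial.aeval (jqModC ℂ) c * DeltaL ^ m := by
  intro m
  induction m with
  | zero =>
    intro k hk f hf
    obtain ⟨g, hg0, -, hfg⟩ := exists_sub_E4_pow hE O 0 k hk f hf
    have hk0 : k = 0 := by simpa using hk
    subst hk0
    have hg : g = 0 := by
      apply ModularForm.sturm_bound_levelOne
      have h1 : ((1 : ℕ) : ℕ∞) ≤ (qExpansion 1 g).order := by
        apply PowerSeries.nat_le_order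
        intro i hi
        have : i = 0 := by omega
        rw [this]
        exact hg0
      refine lt_of_lt_of_le ?_ h1
      simp
    rw [hg, FunLike.coe_zero, qExpansion_zero, zero_add, mul_zero, pow_zero] at hfg
    refine ⟨Polynomial.C ((qExpansion 1 f).coeff 0), ?_, ?_, ?_⟩
    · simp
    · intro a
      rw [Polynomial.coeff_C]
      split_ifs
      · exact hf 0
      · exact O.zero_mem
    · rw [pow_zero, mul_one, Polynomial.aeval_C, hfg, PowerSeries.smul_eq_C_mul, mul_one,
        HahnSeries.ofPowerSeries_C, algebraMap_laurentSeries_eq_single, PowerSeries.coeff_zero_C]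
      rfl
  | succ m ih =>
    intro k hk f hf
    obtain ⟨g, hg0, hgO, hfg⟩ := exists_sub_E4_pow hE O (m + 1) k hk f hf
    set a₀ : ℂ := (qExpansion 1 f).coeff 0 with ha₀
    set h : ModularForm 𝒮ℒ (k - 12) := CuspForm.discriminantEquiv (toCuspForm g hg0) with hh
    have hgh : qExpansion 1 g = qExpansion 1 discriminant * qExpansion 1 h :=
      ModularForm.qExpansion_eq_qExpansion_discriminant_mul g hg0
    have hΔ' := hΔ
    unfold QDeltaHyp at hΔ'
    -- coefficients of `h`
    have hhO : qExpansion 1 h ∈ coeffSubring O := by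
      apply mem_coeffSubring_of_X_mul
      have h1 : PowerSeries.X * qExpansion 1 h =
          dedekindEtaUnitInv.map (Int.castRingHom ℂ) * qExpansion 1 g := by
        rw [hgh, hΔ', map_mul, PowerSeries.map_X]
        have h2 : dedekindEtaUnit.map (Int.castRingHom ℂ) *
            dedekindEtaUnitInv.map (Int.castRingHom ℂ) = 1 := by
          rw [← map_mul, dedekindEtaUnit_mul_inv, map_one]
        calc PowerSeries.X * qExpansion 1 h
            = (dedekindEtaUnit.map (Int.castRingHom ℂ) *
                dedekindEtaUnitInv.map (Int.castRingHom ℂ)) *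
                (PowerSeries.X * qExpansion 1 h) := by rw [h2, one_mul]
          _ = _ := by ring
      rw [h1]
      exact (coeffSubring O).mul_mem (map_int_mem_coeffSubring O _) hgO
    obtain ⟨c', hc'deg, hc'O, hc'⟩ := ih (k - 12) (by rw [hk]; push_cast; ring) h hhO
    refine ⟨c' + Polynomial.monomial (m + 1) a₀, ?_, ?_, ?_⟩
    · refine (Polynomial.natDegree_add_le _ _).trans (max_le (by omega) ?_)
      exact Polynomial.natDegree_monomial_le _
    · intro a
      rw [Polynomial.coeff_add, Polynomial.coeff_monomial]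
      refine O.add_mem (hc'O a) ?_
      split_ifs
      · exact hf 0
      · exact O.zero_mem
    · have hA := jqModC_mul_DeltaL_of hΔ hE
      rw [hfg, hgh, map_add, map_mul, hc', PowerSeries.smul_eq_C_mul, map_mul,
        HahnSeries.ofPowerSeries_C, map_pow, map_add, Polynomial.aeval_monomial,
        algebraMap_laurentSeries_eq_single]
      have hD : HahnSeries.ofPowerSeries ℤ ℂ (qExpansion 1 discriminant) = DeltaL := rfl
      rw [hD]
      have h3 : (HahnSeries.ofPowerSeries ℤ ℂ (qExpansion 1 (⇑E₄ : ℍ → ℂ))) ^ (3 * (m + 1)) =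
          jqModC ℂ ^ (m + 1) * DeltaL ^ (m + 1) := by
        rw [pow_mul, ← hA, mul_pow]
      rw [h3]
      have h4 : (HahnSeries.C a₀ : LaurentSeries ℂ) = HahnSeries.single 0 a₀ := rfl
      rw [h4]
      ring

theorem level1_structure_of (hΔ : QDeltaHyp) (hE : QE4Hyp) (O : Subring ℂ) (m : ℕ) (f : ℍ → ℂ)
    (hf : IsMF1 (12 * (m : ℤ)) f) (hO : ∀ n, (qExpansion 1 f).coeff n ∈ O) :
    ∃ c : Polynomial ℂ, c.natDegree ≤ m ∧ (∀ a, c.coeff a ∈ O) ∧
      HahnSeries.ofPowerSeries ℤ ℂ (qExpansion 1 f) =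
        Polynomial.aeval (jqModC ℂ) c * DeltaL ^ m := by
  obtain ⟨F, rfl⟩ := hf
  exact level1_structure_aux hΔ hE O m _ rfl F hO

end Fermat.Agent.S28_LEVEL1
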