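import Fermat.Agent.S28_helper14_ADefs

set_option autoImplicit false

noncomputable section

open UpperHalfPlane ModularForm CongruenceSubgroup Matrix.SpecialLinearGroup
open scoped MatrixGroups ModularForm Manifold Real
open Fermat.Agent.S20 Fermat.Agent.S28_helper14_Defs Fermat.Agent.S28_helper14_ADefs ModularCurve

namespace Fermat.Agent.S28_INTERP

/-! ### generic algebra: synthetic division of `∏ (X - g q)` -/

section generic

open Polynomial

variable {ι : Type*} [Fintype ι] {K : Type*} [CommRing K]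

/-- elementary symmetric functions of a finite family -/
def es (g : ι → K) (j : ℕ) : K :=
  ∑ t ∈ (Finset.univ : Finset ι).powersetCard j, ∏ i ∈ t, g i

/-- the coefficients of the quotient of `∏ (X - g q)` by `X - x` -/
def bb (g : ι → K) (i : ℕ) (x : K) : K :=
  ∑ a ∈ Finset.range (i + 1), (-1) ^ a * es g a * x ^ (i - a)

theorem es_zero (g : ι → K) : es g 0 = 1 := by
  simp [es]

theorem vieta (g : ι → K) :
    ∏ q : ι, (X - C (g q)) =
      ∑ j ∈ Finset.range (Fintype.card ι + 1),
        (-1) ^ j * (C (es g j) * X ^ (Fintype.card ι - j)) := by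
  have h := Multiset.prod_X_sub_X_eq_sum_esymm ((Finset.univ : Finset ι).val.map g)
  rw [Multiset.map_map, Multiset.card_map] at h
  have hcard : Multiset.card (Finset.univ : Finset ι).val = Fintype.card ι := rfl
  rw [hcard] at h
  have h2 : (Multiset.map ((fun t => X - C t) ∘ g) (Finset.univ : Finset ι).val).prod =
      ∏ q : ι, (X - C (g q)) := rfl
  rw [h2] at h
  rw [h]
  refine Finset.sum_congr rfl fun j _ => ?_
  rw [Finset.esymm_map_val]
  rfl

theorem bb_zero (g : ι → K) (x : K) : bb g 0 x = 1 := by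
  simp [bb, es_zero]

theorem bb_succ (g : ι → K) (i : ℕ) (x : K) :
    bb g (i + 1) x = x * bb g i x + (-1) ^ (i + 1) * es g (i + 1) := by
  unfold bb
  rw [Finset.sum_range_succ _ (i + 1), Nat.sub_self, pow_zero, mul_one, Finset.mul_sum]
  congr 1
  refine Finset.sum_congr rfl fun a ha => ?_
  have ha' : a ≤ i := Nat.lt_succ_iff.mp (Finset.mem_range.mp ha)
  have : i + 1 - a = (i - a) + 1 := by omega
  rw [this, pow_succ]
  ring

theorem eval_prod_eq_bb (g : ι → K) (x : K) :
    (∏ q : ι, (X - C (g q))).eval x = bb g (Fintype.card ι) x := by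
  rw [vieta, eval_finsetSum]
  unfold bb
  refine Finset.sum_congr rfl fun j _ => ?_
  simp only [eval_mul, eval_pow, eval_neg, eval_one, eval_C, eval_X]
  ring

theorem bb_card_root (g : ι → K) (q : ι) : bb g (Fintype.card ι) (g q) = 0 := by
  rw [← eval_prod_eq_bb, eval_prod]
  exact Finset.prod_eq_zero (Finset.mem_univ q) (by simp)

/-- telescoping identity behind synthetic division -/
theorem tele (x : K) (e b : ℕ → K) (hb0 : b 0 = e 0)
    (hbs : ∀ i, b (i + 1) = x * b i + e (i + 1)) (n : ℕ) :
    (X - C x) * ∑ i ∈ Finset.range n, C (b i) * X ^ (n - 1 - i) =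
      ∑ j ∈ Finset.range (n + 1), C (e j) * X ^ (n - j) - C (b n) := by
  induction n with
  | zero => simp [hb0]
  | succ n ih =>
    have h1 : ∑ i ∈ Finset.range (n + 1), C (b i) * X ^ (n + 1 - 1 - i) =
        X * ∑ i ∈ Finset.range n, C (b i) * X ^ (n - 1 - i) + C (b n) := by
      rw [Finset.sum_range_succ, Finset.mul_sum]
      congr 1
      · refine Finset.sum_congr rfl fun i hi => ?_
        have hi' : i < n := Finset.mem_range.mp hi
        have : n + 1 - 1 - i = (n - 1 - i) + 1 := by omega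
        rw [this, pow_succ]
        ring
      · simp
    have h2 : ∑ j ∈ Finset.range (n + 1 + 1), C (e j) * X ^ (n + 1 - j) =
        X * ∑ j ∈ Finset.range (n + 1), C (e j) * X ^ (n - j) + C (e (n + 1)) := by
      rw [Finset.sum_range_succ _ (n + 1), Finset.mul_sum]
      congr 1
      · refine Finset.sum_congr rfl fun j hj => ?_
        have hj' : j < n + 1 := Finset.mem_range.mp hj
        have : n + 1 - j = (n - j) + 1 := by omega
        rw [this, pow_succ]
        ring
      · simp
    rw [h1, h2, hbs n]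
    have h3 : (X - C x) * (X * ∑ i ∈ Finset.range n, C (b i) * X ^ (n - 1 - i) + C (b n)) =
        X * ((X - C x) * ∑ i ∈ Finset.range n, C (b i) * X ^ (n - 1 - i)) +
          (X - C x) * C (b n) := by ring
    rw [h3, ih]
    simp only [map_add, map_mul]
    ring

theorem quot_eq [IsDomain K] [DecidableEq ι] (g : ι → K) (q : ι) :
    ∏ q' ∈ Finset.univ.erase q, (X - C (g q')) =
      ∑ i ∈ Finset.range (Fintype.card ι),
        C (bb g i (g q)) * X ^ (Fintype.card ι - 1 - i) := by
  apply mul_left_cancel₀ (X_sub_C_ne_zero (g q))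
  rw [Finset.mul_prod_erase Finset.univ (fun q' => X - C (g q')) (Finset.mem_univ q), vieta,
    tele (g q) (fun j => (-1) ^ j * es g j) (fun i => bb g i (g q))
      (by simp [bb_zero, es_zero]) (fun i => bb_succ g i (g q)), bb_card_root, map_zero,
    sub_zero]
  refine Finset.sum_congr rfl fun j _ => ?_
  simp only [map_mul, map_pow, map_neg, map_one]
  ring

theorem sum_sum_range (f : ℕ → K) (n : ℕ) :
    ∑ i ∈ Finset.range n, ∑ a ∈ Finset.range (i + 1), f a =
      ∑ a ∈ Finset.range n, ((n - a : ℕ) : K) * f a := by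
  induction n with
  | zero => simp
  | succ n ih =>
    rw [Finset.sum_range_succ, ih, Finset.sum_range_succ _ n, Finset.sum_range_succ _ n,
      ← add_assoc, ← Finset.sum_add_distrib]
    congr 1
    · refine Finset.sum_congr rfl fun a ha => ?_
      have ha' : a < n := Finset.mem_range.mp ha
      have : n + 1 - a = (n - a) + 1 := by omega
      rw [this]
      push_cast
      ring
    · simp

theorem eval_quot_self [IsDomain K] [DecidableEq ι] (g : ι → K) (q : ι) :
    (∏ q' ∈ Finset.univ.erase q, (X - C (g q'))).eval (g q) =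
      ∑ a ∈ Finset.range (Fintype.card ι),
        ((Fintype.card ι - a : ℕ) : K) *
          ((-1) ^ a * es g a * (g q) ^ (Fintype.card ι - 1 - a)) := by
  rw [quot_eq, eval_finsetSum, ← sum_sum_range]
  refine Finset.sum_congr rfl fun i hi => ?_
  have hi' : i < Fintype.card ι := Finset.mem_range.mp hi
  simp only [eval_mul, eval_C, eval_pow, eval_X]
  unfold bb
  rw [Finset.sum_mul]
  refine Finset.sum_congr rfl fun a ha => ?_
  have ha' : a ≤ i := Nat.lt_succ_iff.mp (Finset.mem_range.mp ha)
  have : Fintype.card ι - 1 - a = (i - a) + (Fintype.card ι - 1 - i) := by omega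
  rw [this, pow_add]
  ring

theorem eval_quot_other [DecidableEq ι] (g : ι → K) {q q₀ : ι} (h : q ≠ q₀) :
    (∏ q' ∈ Finset.univ.erase q, (X - C (g q'))).eval (g q₀) = 0 := by
  rw [eval_prod]
  exact Finset.prod_eq_zero (Finset.mem_erase.mpr ⟨h.symm, Finset.mem_univ q₀⟩) (by simp)

theorem interp_generic [IsDomain K] (g h : ι → K) (q₀ : ι) :
    h q₀ * ∑ i ∈ Finset.range (Fintype.card ι),
        ((Fintype.card ι - i : ℕ) : K) * (-1) ^ i *
          (es g i * (g q₀) ^ (Fintype.card ι - 1 - i)) =
      ∑ i ∈ Finset.range (Fintype.card ι),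
        (∑ a ∈ Finset.range (i + 1), (-1) ^ a * (es g a * ∑ q : ι, h q * (g q) ^ (i - a))) *
          (g q₀) ^ (Fintype.card ι - 1 - i) := by
  classical
  have hL : h q₀ * ∑ i ∈ Finset.range (Fintype.card ι),
        ((Fintype.card ι - i : ℕ) : K) * (-1) ^ i *
          (es g i * (g q₀) ^ (Fintype.card ι - 1 - i)) =
      ∑ q : ι, h q * (∏ q' ∈ Finset.univ.erase q, (X - C (g q'))).eval (g q₀) := by
    rw [Finset.sum_eq_single q₀]
    · rw [eval_quot_self]
      congr 1
      refine Finset.sum_congr rfl fun a _ => ?_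
      ring
    · intro q _ hq
      rw [eval_quot_other g hq, mul_zero]
    · intro hq
      exact absurd (Finset.mem_univ _) hq
  rw [hL]
  have hR : ∀ q : ι, (∏ q' ∈ Finset.univ.erase q, (X - C (g q'))).eval (g q₀) =
      ∑ i ∈ Finset.range (Fintype.card ι), bb g i (g q) * (g q₀) ^ (Fintype.card ι - 1 - i) := by
    intro q
    rw [quot_eq, eval_finsetSum]
    refine Finset.sum_congr rfl fun i _ => ?_
    simp only [eval_mul, eval_C, eval_pow, eval_X]
  simp only [hR, Finset.mul_sum]
  rw [Finset.sum_comm]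
  refine Finset.sum_congr rfl fun i _ => ?_
  rw [Finset.sum_mul]
  unfold bb
  simp only [Finset.mul_sum, Finset.sum_mul]
  rw [Finset.sum_comm]
  refine Finset.sum_congr rfl fun a _ => ?_
  refine Finset.sum_congr rfl fun q _ => ?_
  ring

end generic

/-! ### application to conjugates of modular forms -/

theorem isMF1_Tr {N : ℕ} [NeZero N] {kH kG : ℤ} {H G : ℍ → ℂ} (hH : IsMF N kH H)
    (hG : IsMF N kG G) (m : ℕ) : IsMF1 (kH + m * kG) (Tr N kH kG H G m) := by
  have := isMF1_sum_cj (hH.mul (hG.pow m))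
  unfold Tr
  simpa only [cj_mul, cj_pow] using this

theorem Esym_apply {N : ℕ} [NeZero N] (k : ℤ) (f : ℍ → ℂ) (i : ℕ) (z : ℍ) :
    Esym N k f i z = es (fun q : Q N => cj N k f q z) i := by
  unfold Esym es
  rw [Finset.sum_apply]
  refine Finset.sum_congr rfl fun T _ => ?_
  rw [Finset.prod_apply]

theorem Tr_apply {N : ℕ} [NeZero N] (kH kG : ℤ) (H G : ℍ → ℂ) (m : ℕ) (z : ℍ) :
    Tr N kH kG H G m z = ∑ q : Q N, cj N kH H q z * (cj N kG G q z) ^ m := by
  unfold Tr
  rw [Finset.sum_apply]
  rfl

theorem interp {N : ℕ} [NeZero N] {kH kG : ℤ} {H G : ℍ → ℂ} (hH : IsMF N kH H)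
    (hG : IsMF N kG G) :
    H * ∑ i ∈ Finset.range (Fintype.card (Q N)),
        (((Fintype.card (Q N) - i : ℕ) : ℂ) * (-1 : ℂ) ^ i) •
          (Esym N kG G i * G ^ (Fintype.card (Q N) - 1 - i)) =
      ∑ i ∈ Finset.range (Fintype.card (Q N)),
        (∑ a ∈ Finset.range (i + 1), (-1 : ℂ) ^ a • (Esym N kG G a * Tr N kH kG H G (i - a))) *
          G ^ (Fintype.card (Q N) - 1 - i) := by
  funext z
  have hG0 : G z = cj N kG G ((1 : SL(2, ℤ)) : Q N) z := by rw [cj_one hG]
  have hH0 : H z = cj N kH H ((1 : SL(2, ℤ)) : Q N) z := by rw [cj_one hH]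
  simp only [Pi.mul_apply, Finset.sum_apply, Pi.smul_apply, Pi.pow_apply, smul_eq_mul,
    Esym_apply, Tr_apply]
  rw [hG0, hH0]
  exact interp_generic (fun q : Q N => cj N kG G q z) (fun q : Q N => cj N kH H q z)
    ((1 : SL(2, ℤ)) : Q N)

end Fermat.Agent.S28_INTERP
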