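import Fermat.Agent.S28_helper7_UNITDATA_Core
import Fermat.Agent.S28_helper25_HD
import Fermat.Agent.S28_helper5_GCONJ
import Fermat.Agent.S28_helper17_RELF

/-!
# S28 piece UNITDATA: the final analytic assembly
-/

set_option autoImplicit false

open UpperHalfPlane ModularForm CongruenceSubgroup Matrix.SpecialLinearGroup
open scoped MatrixGroups ModularForm Manifold Real
open Fermat.Agent.S20 Fermat.Agent.S28_helper14_Defs Fermat.Agent.S28_helper14_ADefs ModularCurve

namespace Fermat.Agent.S28_UNITDATA

/-- **UNITDATA**: the formal data of the modular unit exist. -/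
theorem exists_unitData (N : ℕ) [NeZero N] : Nonempty (UnitData N) :=
  exists_unitData_of N (Fermat.Agent.S28_GCONJ.isMF_GN N)
    (fun d _ hd => ⟨Fermat.Agent.S28_HD.isMF_Hd N d hd,
      Fermat.Agent.S28_HD.qExpansion_Hd N d hd⟩)
    (Fermat.Agent.S28_RELF.exists_rel N)

end Fermat.Agent.S28_UNITDATA
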