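import Fermat.Agent.S28_helper14_ADefs
import Fermat.Agent.S28_helper27_ESYMM
import Fermat.Agent.S28_helper28_ORDER
import Fermat.Agent.S28_helper29_INTERP
import Fermat.Agent.S28_helper1_LEVEL1
import Fermat.Prelude.Thm_CongruenceSubgroup_one_mem_strictPeriods_Gamma0

/-!
# S28 piece UNITDATA, core: the final analytic assembly, conditional on the statements of the
pieces GCONJ (`isMF_GN`), HD (`isMF_Hd`, `qExpansion_Hd`) and RELF (`exists_rel`), which enter
as explicit hypotheses.  The unconditional wrapper is `S28_helper7_UNITDATA.lean`.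
-/

set_option autoImplicit false

open UpperHalfPlane ModularForm CongruenceSubgroup Matrix.SpecialLinearGroup
open scoped MatrixGroups ModularForm Manifold Real
open Fermat.Agent.S20 Fermat.Agent.S28_helper14_Defs Fermat.Agent.S28_helper14_ADefs ModularCurve

namespace Fermat.Agent.S28_UNITDATA

/-! ### Functions with analytic cusp function -/

/-- The cusp function (period `1`) of `f` is analytic at `0`. -/
def An (f : ℍ → ℂ) : Prop := AnalyticAt ℂ (cuspFunction 1 f) 0

variable {f g : ℍ → ℂ}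

theorem An.add (hf : An f) (hg : An g) : An (f + g) := by
  unfold An
  rw [cuspFunction_add hf.continuousAt hg.continuousAt]
  exact AnalyticAt.add hf hg

theorem An.mul (hf : An f) (hg : An g) : An (f * g) := by
  unfold An
  rw [cuspFunction_mul hf.continuousAt hg.continuousAt]
  exact AnalyticAt.mul hf hg

theorem An.smul (a : ℂ) (hf : An f) : An (a • f) := by
  unfold An
  rw [cuspFunction_smul hf.continuousAt]
  exact AnalyticAt.const_smul hf

theorem an_one : An (1 : ℍ → ℂ) := by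
  unfold An
  have h1 : cuspFunction 1 (1 : ℍ → ℂ) = 1 := by
    ext q
    rcases eq_or_ne q 0 with rfl | hq
    · simpa [cuspFunction, Function.Periodic.cuspFunction] using!
        tendsto_const_nhds.limUnder_eq
    · simp [cuspFunction, Function.Periodic.cuspFunction, hq]
  rw [h1]
  exact analyticAt_const

theorem an_zero : An (0 : ℍ → ℂ) := by
  have := an_one.smul 0
  simpa using this

theorem An.pow (hf : An f) (n : ℕ) : An (f ^ n) := by
  induction n with
  | zero => simpa using an_one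
  | succ n ih =>
    rw [pow_succ]
    exact ih.mul hf

theorem An.sum {ι : Type*} (s : Finset ι) (F : ι → ℍ → ℂ) (h : ∀ i ∈ s, An (F i)) :
    An (∑ i ∈ s, F i) := by
  classical
  induction s using Finset.induction_on with
  | empty => simpa using an_zero
  | insert a s ha ih =>
    rw [Finset.sum_insert ha]
    exact (h a (Finset.mem_insert_self a s)).add
      (ih fun i hi => h i (Finset.mem_insert_of_mem hi))

theorem an_of_isMF {N : ℕ} [NeZero N] {k : ℤ} (hf : IsMF N k f) : An f := by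
  obtain ⟨F, rfl⟩ := hf
  exact ModularFormClass.analyticAt_cuspFunction_zero F one_pos
    (CongruenceSubgroup.one_mem_strictPeriods_Gamma0 N)

theorem an_of_isMF1 {k : ℤ} (hf : IsMF1 k f) : An f :=
  an_of_isMF (hf.isMF (N := 1))

/-! ### The `q`-expansion as a Laurent series -/

/-- The `q`-expansion as a Laurent series. -/
noncomputable def L (f : ℍ → ℂ) : LaurentSeries ℂ :=
  HahnSeries.ofPowerSeries ℤ ℂ (qExpansion 1 f)

theorem L_add (hf : An f) (hg : An g) : L (f + g) = L f + L g := by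
  unfold L
  rw [qExpansion_add hf hg, map_add]

theorem L_mul (hf : An f) (hg : An g) : L (f * g) = L f * L g := by
  unfold L
  rw [qExpansion_mul hf hg, map_mul]

theorem L_smul (a : ℂ) (hf : An f) : L (a • f) = a • L f := by
  unfold L
  rw [qExpansion_smul hf, PowerSeries.smul_eq_C_mul, map_mul, HahnSeries.ofPowerSeries_C,
    HahnSeries.C_mul_eq_smul]

theorem L_one : L (1 : ℍ → ℂ) = 1 := by
  unfold L
  rw [qExpansion_one, map_one]

theorem L_zero : L (0 : ℍ → ℂ) = 0 := by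
  unfold L
  rw [qExpansion_zero, map_zero]

theorem L_pow (hf : An f) (n : ℕ) : L (f ^ n) = L f ^ n := by
  induction n with
  | zero => simpa using L_one
  | succ n ih =>
    rw [pow_succ, pow_succ, L_mul (hf.pow n) hf, ih]

theorem L_sum {ι : Type*} (s : Finset ι) (F : ι → ℍ → ℂ) (h : ∀ i ∈ s, An (F i)) :
    L (∑ i ∈ s, F i) = ∑ i ∈ s, L (F i) := by
  classical
  induction s using Finset.induction_on with
  | empty => simpa using L_zero
  | insert a s ha ih =>
    rw [Finset.sum_insert ha, Finset.sum_insert ha,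
      L_add (h a (Finset.mem_insert_self a s))
        (An.sum s F fun i hi => h i (Finset.mem_insert_of_mem hi)),
      ih fun i hi => h i (Finset.mem_insert_of_mem hi)]

/-! ### The assembly -/

section main

variable (N : ℕ) [NeZero N]

theorem card_Q_pos : 0 < Fintype.card (Q N) :=
  Fintype.card_pos_iff.mpr ⟨((1 : SL(2, ℤ)) : Q N)⟩

/-- The level one coefficients of the interpolation identity. -/
noncomputable def Bfun (d i : ℕ) : ℍ → ℂ :=
  ∑ a ∈ Finset.range (i + 1), (-1 : ℂ) ^ a •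
    (Esym N (12 * (k0 N : ℤ)) (GN N) a *
      Tr N (12 * (N : ℤ)) (12 * (k0 N : ℤ)) (Hd N d) (GN N) (i - a))

/-- The statement of piece GCONJ that is needed. -/
def GNHyp : Prop := IsMF N (12 * (k0 N : ℤ)) (GN N)

/-- The statements of piece HD. -/
def HdHyp : Prop := ∀ (d : ℕ) [NeZero d], d ∣ N → IsMF N (12 * (N : ℤ)) (Hd N d) ∧
  HahnSeries.ofPowerSeries ℤ ℂ (qExpansion 1 (Hd N d)) =
      qExpand ℂ d (jqModC ℂ) * DeltaL ^ N

/-- The statement of piece RELF. -/
def RelHyp : Prop :=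
  ∃ (U : PowerSeries ℤ) (p : ℕ → Polynomial ℂ) (u : ℂ),
    PowerSeries.constantCoeff U = 1 ∧ (∀ i n, IsNInt N ((p i).coeff n)) ∧ p 0 = 1 ∧
    (∀ i, (p i).natDegree ≤ k0 N * i) ∧ IsNInt N u ∧ IsNInt N u⁻¹ ∧ u ≠ 0 ∧
    p (Fintype.card (Q N)) = Polynomial.C u ∧
    (∀ i ≤ Fintype.card (Q N),
      HahnSeries.ofPowerSeries ℤ ℂ (qExpansion 1 (Esym N (12 * (k0 N : ℤ)) (GN N) i)) =
        (-1 : ℂ) ^ i • (Polynomial.aeval (jqModC ℂ) (p i) * DeltaL ^ (k0 N * i))) ∧
    HahnSeries.ofPowerSeries ℤ ℂ (qExpansion 1 (GN N)) =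
      Vser ℂ (k0 N * (Fintype.card (Q N) - 1)) U * DeltaL ^ (k0 N) ∧
    ∑ i ∈ Finset.range (Fintype.card (Q N) + 1),
      Polynomial.aeval (jqModC ℂ) (p i) *
        (Vser ℂ (k0 N * (Fintype.card (Q N) - 1)) U) ^ (Fintype.card (Q N) - i) = 0

theorem isMF1_Bfun_of (hGN : GNHyp N) (hHd : HdHyp N) (d : ℕ) [NeZero d] (hd : d ∣ N) (i : ℕ) :
    IsMF1 (12 * ((N + k0 N * i : ℕ) : ℤ)) (Bfun N d i) := by
  unfold Bfun
  refine IsMF1.sum _ _ fun a ha => ?_
  have ha' : a ≤ i := Nat.lt_succ_iff.mp (Finset.mem_range.mp ha)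
  have h1 := Fermat.Agent.S28_ESYMM.isMF1_Esym hGN a
  have h2 := Fermat.Agent.S28_INTERP.isMF1_Tr (hHd d hd).1 hGN (i - a)
  refine ((h1.mul h2).smul _).cast ?_
  push_cast [Nat.cast_sub ha']
  ring

theorem int_aux_of (hGN : GNHyp N) (hHd : HdHyp N) {U : PowerSeries ℤ} {p : ℕ → Polynomial ℂ}
    (hE : ∀ i ≤ Fintype.card (Q N), L (Esym N (12 * (k0 N : ℤ)) (GN N) i) =
      (-1 : ℂ) ^ i • (Polynomial.aeval (jqModC ℂ) (p i) * DeltaL ^ (k0 N * i)))
    (hG : L (GN N) = Vser ℂ (k0 N * (Fintype.card (Q N) - 1)) U * DeltaL ^ (k0 N))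
    (d : ℕ) (hd : d ∣ N) [NeZero d] :
    ∃ Qp : ℕ → Polynomial ℂ,
      qExpand ℂ d (jqModC ℂ) *
        (∑ i ∈ Finset.range (Fintype.card (Q N)), ((Fintype.card (Q N) - i : ℕ) : ℂ) •
          (Polynomial.aeval (jqModC ℂ) (p i) *
            (Vser ℂ (k0 N * (Fintype.card (Q N) - 1)) U) ^ (Fintype.card (Q N) - 1 - i))) =
      ∑ i ∈ Finset.range (Fintype.card (Q N)),
        Polynomial.aeval (jqModC ℂ) (Qp i) *
          (Vser ℂ (k0 N * (Fintype.card (Q N) - 1)) U) ^ i := by
  set n := Fintype.card (Q N) with hn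
  set k := k0 N with hk
  set V := Vser ℂ (k * (n - 1)) U with hV
  set D := DeltaL with hD
  have hGmf : IsMF N (12 * (k0 N : ℤ)) (GN N) := hGN
  have hHmf : IsMF N (12 * (N : ℤ)) (Hd N d) := (hHd d hd).1
  have hEan : ∀ i, An (Esym N (12 * (k0 N : ℤ)) (GN N) i) := fun i =>
    an_of_isMF1 (Fermat.Agent.S28_ESYMM.isMF1_Esym hGmf i)
  have hGan : An (GN N) := an_of_isMF hGmf
  have hHan : An (Hd N d) := an_of_isMF hHmf
  have hBan : ∀ i, An (Bfun N d i) := fun i => an_of_isMF1 (isMF1_Bfun_of N hGN hHd d hd i)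
  -- level one structure of the `B_i`
  choose Q' _ _ hQ' using fun i =>
    Fermat.Agent.S28_LEVEL1.level1_structure ⊤ (N + k * i) (Bfun N d i)
      (isMF1_Bfun_of N hGN hHd d hd i) (fun _ => trivial)
  have hLB : ∀ i, L (Bfun N d i) = Polynomial.aeval (jqModC ℂ) (Q' i) * D ^ (N + k * i) := hQ'
  have hLH : L (Hd N d) = qExpand ℂ d (jqModC ℂ) * D ^ N :=
    (hHd d hd).2
  -- apply `L` to the interpolation identity
  have key := congrArg L (Fermat.Agent.S28_INTERP.interp hHmf hGmf)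
  have e1 : ∀ i, i < n → k * i + k * (n - 1 - i) = k * (n - 1) := by
    intro i hi
    rw [← mul_add]
    congr 1
    omega
  have hterm : ∀ i ∈ Finset.range n, D ^ N * L ((((n - i : ℕ) : ℂ) * (-1 : ℂ) ^ i) •
      (Esym N (12 * (k0 N : ℤ)) (GN N) i * GN N ^ (n - 1 - i))) =
      D ^ (N + k * (n - 1)) * (((n - i : ℕ) : ℂ) •
        (Polynomial.aeval (jqModC ℂ) (p i) * V ^ (n - 1 - i))) := by
    intro i hi
    have hi' : i < n := Finset.mem_range.mp hi
    rw [L_smul _ ((hEan i).mul (hGan.pow _)), L_mul (hEan i) (hGan.pow _), L_pow hGan,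
      hE i hi'.le, hG]
    rw [← HahnSeries.C_mul_eq_smul, ← HahnSeries.C_mul_eq_smul, ← HahnSeries.C_mul_eq_smul,
      map_mul, pow_add, ← e1 i hi', pow_add, mul_pow, ← pow_mul]
    have e2 : (HahnSeries.C ((-1 : ℂ) ^ i) : LaurentSeries ℂ) * HahnSeries.C ((-1 : ℂ) ^ i) = 1 := by
      rw [← map_mul, ← mul_pow, neg_one_mul, neg_neg, one_pow, map_one]
    linear_combination (HahnSeries.C ((n - i : ℕ) : ℂ) * D ^ N * (D ^ (k * i) *
      D ^ (k * (n - 1 - i))) * Polynomial.aeval (jqModC ℂ) (p i) * V ^ (n - 1 - i)) * e2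
  have hLHS : L (Hd N d * ∑ i ∈ Finset.range n,
      (((n - i : ℕ) : ℂ) * (-1 : ℂ) ^ i) •
        (Esym N (12 * (k0 N : ℤ)) (GN N) i * GN N ^ (n - 1 - i))) =
      D ^ (N + k * (n - 1)) * (qExpand ℂ d (jqModC ℂ) *
        ∑ i ∈ Finset.range n, ((n - i : ℕ) : ℂ) •
          (Polynomial.aeval (jqModC ℂ) (p i) * V ^ (n - 1 - i))) := by
    rw [L_mul hHan (An.sum _ _ fun i _ => ((hEan i).mul (hGan.pow _)).smul _),
      L_sum _ _ (fun i _ => ((hEan i).mul (hGan.pow _)).smul _), hLH, mul_assoc,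
      Finset.mul_sum, Finset.sum_congr rfl hterm, ← Finset.mul_sum]
    ring
  have hRHS : L (∑ i ∈ Finset.range n,
      (∑ a ∈ Finset.range (i + 1), (-1 : ℂ) ^ a •
        (Esym N (12 * (k0 N : ℤ)) (GN N) a *
          Tr N (12 * (N : ℤ)) (12 * (k0 N : ℤ)) (Hd N d) (GN N) (i - a))) *
        GN N ^ (n - 1 - i)) =
      D ^ (N + k * (n - 1)) *
        ∑ i ∈ Finset.range n, Polynomial.aeval (jqModC ℂ) (Q' i) * V ^ (n - 1 - i) := by
    show L (∑ i ∈ Finset.range n, Bfun N d i * GN N ^ (n - 1 - i)) = _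
    rw [L_sum _ _ (fun i _ => (hBan i).mul (hGan.pow _)), Finset.mul_sum]
    refine Finset.sum_congr rfl fun i hi => ?_
    have hi' : i < n := Finset.mem_range.mp hi
    rw [L_mul (hBan i) (hGan.pow _), L_pow hGan, hLB i, hG]
    rw [pow_add, ← e1 i hi', pow_add, pow_add, mul_pow, ← pow_mul]
    ring
  rw [hLHS, hRHS] at key
  have hD0 : D ^ (N + k * (n - 1)) ≠ 0 := pow_ne_zero _ Fermat.Agent.S28_LEVEL1.DeltaL_ne_zero
  have key2 := mul_left_cancel₀ hD0 key
  refine ⟨fun j => Q' (n - 1 - j), ?_⟩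
  rw [key2, ← Finset.sum_range_reflect]
  refine Finset.sum_congr rfl fun j hj => ?_
  have hj' : j < n := Finset.mem_range.mp hj
  have e3 : n - 1 - (n - 1 - j) = j := by omega
  rw [e3]

/-- **UNITDATA**, conditional form: the formal data of the modular unit exist, given the
statements of the pieces GCONJ, HD and RELF. -/
theorem exists_unitData_of (hGN : GNHyp N) (hHd : HdHyp N) (hrel : RelHyp N) :
    Nonempty (UnitData N) := by
  obtain ⟨U, p, u, hU, hpint, hp0, hpdeg, hu, hu', hu0, hpn, hE, hG, hrel⟩ := hrel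
  exact ⟨{
    ι := Fintype.card (Q N)
    k₀ := k0 N
    hι := card_Q_pos N
    hk₀ := Fermat.Agent.S28_ORDER.k0_pos N (NeZero.pos N)
    U := U
    hU := hU
    p := p
    hp_int := hpint
    hp0 := hp0
    hp_deg := hpdeg
    u := u
    hu := hu
    hu' := hu'
    hu0 := hu0
    hpι := hpn
    rel := hrel
    int := fun d hd _ => int_aux_of N hGN hHd hE hG d hd }⟩

end main

end Fermat.Agent.S28_UNITDATA
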