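import Mathlib
import Fermat.Prelude.Def_GaloisRep_Adic
import Fermat.Prelude.Def_EllipticCurve_FrobeniusTrace
import Fermat.Prelude.Def_FLTPrelim_Ramification

/-!
# S30: the contracts between the pieces (helper12, owner)

Every piece proves one of the `Prop`s below and takes the contracts of its upstream pieces as
explicit hypotheses, so that all pieces can be written in parallel.  Only definitions here.

* `S30_FD_statement`  : Frobenius density (= the landed `PG_frobenius_density`);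
* `S30_ZP_statement`  : the ring homomorphism `ℤ_[p] →+* R` for a complete local ring `R`
  of residue characteristic `p`;
* `S30_CYC_statement` : the `p`-adic cyclotomic character and a complex conjugation;
* `S30_REL_statement` : from the quadratic relations at Frobenius lifts to a quadratic
  relation for every element of the Galois group (density + compactness);
* `S30_ODD_statement` : the algebra lemma over a field of characteristic `≠ 2` in the presence
  of an odd involution;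
* `S30_AW_statement`  : the abstract wiring: from a finite free module with quadratic
  relations to a `GaloisRepAdic`.
-/

set_option autoImplicit false

open Polynomial

noncomputable section

namespace Fermat.Agent.S30_helper12_Contracts

local notation "Qb" => AlgebraicClosure ℚ
local notation "GQ" => (AlgebraicClosure ℚ ≃ₐ[ℚ] AlgebraicClosure ℚ)

/-- Frobenius density (the landed `PG_frobenius_density`, piece G9). -/
def S30_FD_statement : Prop :=
  ∀ (L : IntermediateField ℚ (AlgebraicClosure ℚ)) [FiniteDimensional ℚ L]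
    (g : AlgebraicClosure ℚ ≃ₐ[ℚ] AlgebraicClosure ℚ) (S : Finset ℕ),
    ∃ (ℓ : ℕ) (A : ValuationSubring (AlgebraicClosure ℚ))
      (σ : AlgebraicClosure ℚ ≃ₐ[ℚ] AlgebraicClosure ℚ) (b : ℕ),
      ℓ.Prime ∧ ℓ ∉ S ∧ A.LiesOverPrime ℓ ∧ A.IsFrobeniusAt σ ℓ ∧
        ∀ x ∈ L, g x = (σ ^ b) x

/-- (P1) a complete local ring whose maximal ideal contains `p` is a `ℤ_[p]`-algebra. -/
def S30_ZP_statement (p : ℕ) [Fact p.Prime] : Prop :=
  ∀ (R : Type) [CommRing R] [IsLocalRing R] [IsAdicComplete (IsLocalRing.maximalIdeal R) R],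
    (p : R) ∈ IsLocalRing.maximalIdeal R → Nonempty (ℤ_[p] →+* R)

/-- (P2) the `p`-adic cyclotomic character `d`: continuity, triviality on inertia away from `p`,
value `ℓ` on Frobenius lifts at `ℓ ≠ p`, and a complex conjugation `c` with `d c = -1`. -/
def S30_CYC_statement (p : ℕ) [Fact p.Prime] : Prop :=
  ∃ d : GQ →* ℤ_[p]ˣ,
    (∀ n : ℕ, ∃ L : IntermediateField ℚ Qb, FiniteDimensional ℚ L ∧
      ∀ σ : GQ, (∀ x ∈ L, σ x = x) →
        ((d σ : ℤ_[p]ˣ) : ℤ_[p]) - 1 ∈ Ideal.span {(p : ℤ_[p]) ^ n}) ∧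
    (∀ ℓ : ℕ, ℓ.Prime → ℓ ≠ p → ∀ A : ValuationSubring Qb, A.LiesOverPrime ℓ →
      ∀ σ ∈ A.inertiaSubgroupIn ℚ, d σ = 1) ∧
    (∀ ℓ : ℕ, ℓ.Prime → ℓ ≠ p → ∀ A : ValuationSubring Qb, A.LiesOverPrime ℓ →
      ∀ σ : GQ, A.IsFrobeniusAt σ ℓ → ((d σ : ℤ_[p]ˣ) : ℤ_[p]) = (ℓ : ℤ_[p])) ∧
    ∃ c : GQ, c * c = 1 ∧ ((d c : ℤ_[p]ˣ) : ℤ_[p]) = -1

/-- (P7) density + compactness: on a finite free module over a complete discrete valuation ring
with finite residue field, with an adic-continuous Galois action satisfying the quadratic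
relations `σ² - a_ℓ σ + ℓ = 0` at the Frobenius lifts outside `S`, EVERY `g` satisfies a
quadratic relation `g² - t g + d g = 0`, `d` the cyclotomic character. -/
def S30_REL_statement (𝒪 : Type) [CommRing 𝒪] [IsDomain 𝒪] [IsDiscreteValuationRing 𝒪]
    [IsAdicComplete (IsLocalRing.maximalIdeal 𝒪) 𝒪] [Finite (IsLocalRing.ResidueField 𝒪)] :
    Prop :=
  ∀ (E : Type) [AddCommGroup E] [Module 𝒪 E] [Module.Finite 𝒪 E] [Module.Free 𝒪 E]
    (r : GQ →* Module.End 𝒪 E) (d : GQ →* 𝒪ˣ) (S : Finset ℕ) (a : ℕ → 𝒪),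
    GaloisActionIsAdicContinuous 𝒪 r →
    (∀ n : ℕ, ∃ L : IntermediateField ℚ Qb, FiniteDimensional ℚ L ∧
      ∀ σ : GQ, (∀ x ∈ L, σ x = x) →
        ((d σ : 𝒪ˣ) : 𝒪) - 1 ∈ IsLocalRing.maximalIdeal 𝒪 ^ n) →
    (∀ ℓ : ℕ, ℓ.Prime → ℓ ∉ S → ∀ A : ValuationSubring Qb, A.LiesOverPrime ℓ →
      ∀ σ : GQ, A.IsFrobeniusAt σ ℓ → ((d σ : 𝒪ˣ) : 𝒪) = (ℓ : 𝒪)) →
    (∀ ℓ : ℕ, ℓ.Prime → ℓ ∉ S → ∀ A : ValuationSubring Qb, A.LiesOverPrime ℓ →
      ∀ σ : GQ, A.IsFrobeniusAt σ ℓ →
        r σ * r σ - a ℓ • r σ + (ℓ : 𝒪) • (1 : Module.End 𝒪 E) = 0) →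
    ∀ g : GQ, ∃ t : 𝒪,
      r g * r g - t • r g + ((d g : 𝒪ˣ) : 𝒪) • (1 : Module.End 𝒪 E) = 0

/-- (P8) the algebra lemma with an odd involution, over any field of characteristic `≠ 2` and
for any group: a nonzero finite-dimensional representation all of whose elements satisfy
`g² - t g + d g = 0` contains a stable subspace `W0` which is a line, or a plane on which
the characteristic polynomials are `X² - t X + d g`. -/
def S30_ODD_statement (K : Type) [Field K] : Prop :=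
  ∀ (G : Type) [Group G] (W : Type) [AddCommGroup W] [Module K W] [Module.Finite K W]
    [Nontrivial W] (r : G →* Module.End K W) (d : G →* Kˣ) (c : G),
    (2 : K) ≠ 0 → c * c = 1 → ((d c : Kˣ) : K) = -1 →
    (∀ g : G, ∃ t : K,
      r g * r g - t • r g + ((d g : Kˣ) : K) • (1 : Module.End K W) = 0) →
    ∃ (W0 : Submodule K W) (r0 : G →* Module.End K W0),
      (∀ (g : G) (w : W0), ((r0 g w : W0) : W) = r g (w : W)) ∧
      (Module.finrank K W0 = 1 ∨
        (Module.finrank K W0 = 2 ∧ ∀ (g : G) (t : K),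
          r g * r g - t • r g + ((d g : Kˣ) : K) • (1 : Module.End K W) = 0 →
          LinearMap.charpoly (r0 g) = X ^ 2 - C t * X + C ((d g : Kˣ) : K)))

/-- (P9) the abstract wiring: a nonzero finite free module over `𝒪` with an adic-continuous
Galois action all of whose elements satisfy `g² - t g + d g = 0` (`d` a continuous character,
`c` an involution with `d c = -1`) yields a `GaloisRepAdic 𝒪` with these characteristic
polynomials, trivial wherever the action and `d` are trivial. -/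
def S30_AW_statement (𝒪 : Type) [CommRing 𝒪] [IsDomain 𝒪] [IsDiscreteValuationRing 𝒪]
    [IsAdicComplete (IsLocalRing.maximalIdeal 𝒪) 𝒪] [CharZero 𝒪] : Prop :=
  ∀ (E : Type) [AddCommGroup E] [Module 𝒪 E] [Module.Finite 𝒪 E] [Module.Free 𝒪 E]
    [Nontrivial E] (r : GQ →* Module.End 𝒪 E) (d : GQ →* 𝒪ˣ) (c : GQ),
    GaloisActionIsAdicContinuous 𝒪 r →
    (∀ n : ℕ, ∃ L : IntermediateField ℚ Qb, FiniteDimensional ℚ L ∧
      ∀ σ : GQ, (∀ x ∈ L, σ x = x) →
        ((d σ : 𝒪ˣ) : 𝒪) - 1 ∈ IsLocalRing.maximalIdeal 𝒪 ^ n) →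
    c * c = 1 → ((d c : 𝒪ˣ) : 𝒪) = -1 →
    (∀ g : GQ, ∃ t : 𝒪,
      r g * r g - t • r g + ((d g : 𝒪ˣ) : 𝒪) • (1 : Module.End 𝒪 E) = 0) →
    ∃ ρ : GaloisRepAdic 𝒪,
      (∀ g : GQ, r g = 1 → d g = 1 → ρ.ρ g = 1) ∧
      ∀ (g : GQ) (t : 𝒪),
        r g * r g - t • r g + ((d g : 𝒪ˣ) : 𝒪) • (1 : Module.End 𝒪 E) = 0 →
        LinearMap.charpoly (ρ.ρ g) = X ^ 2 - C t * X + C ((d g : 𝒪ˣ) : 𝒪)

end Fermat.Agent.S30_helper12_Contracts
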