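import Mathlib
import Fermat.Prelude.Def_GaloisRep_Adic
import Fermat.Agent.S30_helper12_Contracts

/-!
# S30: contracts, part 3 (helper12, owner)

* `S30_EL2_statement` : the eigenlattice over an ABSTRACT finite free `𝒪`-module `V`
  (replaces `S30_EL_statement`, whose ambient module `𝒪 ⊗[ℤ_[p]] Λ` makes instance search on
  `Module.End 𝒪 ↥E` fail for submodules `E` of a tensor product).
-/

set_option autoImplicit false

open Polynomial

noncomputable section

namespace Fermat.Agent.S30_helper12_Contracts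

local notation "Qb" => AlgebraicClosure ℚ
local notation "GQ" => (AlgebraicClosure ℚ ≃ₐ[ℚ] AlgebraicClosure ℚ)

/-- (EL2) the eigenlattice: the simultaneous eigenspace `E` of the operators `T ℓ`
(`ℓ` prime, `ℓ ∉ S`) with eigenvalues `a ℓ` in a finite free module `V` over a discrete valuation
ring, with an adic-continuous Galois action commuting with the `T ℓ`, is a finite free module,
stable under the Galois action, and the restricted action is adic-continuous. -/
def S30_EL2_statement (𝒪 : Type) [CommRing 𝒪] [IsDomain 𝒪] [IsDiscreteValuationRing 𝒪] : Prop :=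
  ∀ (V : Type) [AddCommGroup V] [Module 𝒪 V] [Module.Finite 𝒪 V] [Module.Free 𝒪 V]
    (r : GQ →* Module.End 𝒪 V) (T : ℕ → Module.End 𝒪 V) (S : Finset ℕ) (a : ℕ → 𝒪),
    (∀ (ℓ : ℕ) (g : GQ), ℓ.Prime → ℓ ∉ S → T ℓ * r g = r g * T ℓ) →
    GaloisActionIsAdicContinuous 𝒪 r →
    ∃ (E : Submodule 𝒪 V) (rE : GQ →* Module.End 𝒪 E),
      Module.Finite 𝒪 E ∧ Module.Free 𝒪 E ∧
      (∀ v : V, v ∈ E ↔ ∀ ℓ : ℕ, ℓ.Prime → ℓ ∉ S → T ℓ v = a ℓ • v) ∧
      (∀ (g : GQ) (e : E), ((rE g e : E) : V) = r g (e : V)) ∧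
      GaloisActionIsAdicContinuous 𝒪 (V := E) rE

end Fermat.Agent.S30_helper12_Contracts
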