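import Mathlib
import Fermat.Agent.G_helper19_R2

/-!
# S30, algebra endgame: the odd version of (R2) over a field which is not algebraically closed

Let `K` be an infinite field with `2 ≠ 0`, `ρ` a representation of a group `G` on a nonzero
finite-dimensional `K`-vector space `W`, `d : G →* Kˣ` a character such that every `ρ g` is killed
by a polynomial `X² - t X + d(g)`, and `c ∈ G` an element with `c² = 1` and `d(c) = -1`
("complex conjugation").  Then there is a two-dimensional representation `ρ'` over `K` itself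
with `charpoly (ρ' g) = X² - t X + d(g)`.

In `G_helper19_R2` the field was algebraically closed; this was used only to find a nontrivial
idempotent in the image algebra of an irreducible constituent.  Here the idempotent is
`(1 + ρ c) / 2`, and the case where `c` acts as a scalar on the constituent is excluded by
`d(c) = -1` unless all of `G` acts by scalars.
-/

set_option autoImplicit false

open Polynomial

namespace Fermat.Agent.S30_helper19_R2ODD

open Fermat.Agent.G_helper19_R2

/-! ### Irreducible representations with a nontrivial idempotent in the image algebra -/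

section Rep

variable {K : Type*} [Field K] {G : Type*} [Group G]
  {W : Type*} [AddCommGroup W] [Module K W]
  (ρ : G →* Module.End K W) (d : G →* Kˣ)

/-- The image of a nontrivial idempotent of the image algebra of an irreducible
representation is a line (infinite field version). -/
theorem S30R2_finrank_range [Infinite K] (hq : ∀ g : G, ∃ t : K,
    ρ g * ρ g - t • ρ g + ((d g : Kˣ) : K) • (1 : Module.End K W) = 0)
    (hirr : PG_R2_Irr ρ) {e : Module.End K W} (he : e ∈ PG_R2_img ρ) (hee : e * e = e)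
    (he0 : e ≠ 0) (he1 : e ≠ 1) : Module.finrank K (LinearMap.range e) = 1 := by
  have hQ := PG_R2_img_quadratic ρ d hq
  have hex : ∃ u : W, e u ≠ 0 := by
    by_contra hcon
    push Not at hcon
    exact he0 (LinearMap.ext hcon)
  obtain ⟨u0, hu0⟩ := hex
  have heu : e (e u0) = e u0 := by
    have := congrArg (fun f : Module.End K W => f u0) hee
    exact this
  apply finrank_eq_one (⟨e u0, ⟨u0, rfl⟩⟩ : LinearMap.range e)
  · intro h
    exact hu0 (congrArg Subtype.val h)
  · rintro ⟨w, ⟨w', rfl⟩⟩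
    obtain ⟨x, hx, hxu⟩ := PG_R2_transitive ρ hirr hu0 w'
    obtain ⟨c, hc⟩ := PG_R2_corner (PG_R2_img ρ) hQ he hee he0 he1 hx
    refine ⟨c, ?_⟩
    apply Subtype.ext
    show c • e u0 = e w'
    have h1 : (e * x * e) u0 = e w' := by
      show e (x (e u0)) = e w'
      rw [hxu]
    rw [← h1, hc]
    rfl

/-- **An irreducible representation with quadratic elements whose image algebra contains a
nontrivial idempotent has dimension `2`** (infinite field version). -/
theorem S30R2_finrank_eq_two_of_idem [Infinite K] [FiniteDimensional K W] (hq : ∀ g : G, ∃ t : K,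
    ρ g * ρ g - t • ρ g + ((d g : Kˣ) : K) • (1 : Module.End K W) = 0)
    (hirr : PG_R2_Irr ρ) {e : Module.End K W} (he : e ∈ PG_R2_img ρ) (hee : e * e = e)
    (he0 : e ≠ 0) (he1 : e ≠ 1) : Module.finrank K W = 2 := by
  have h1 := S30R2_finrank_range ρ d hq hirr he hee he0 he1
  have he' : (1 - e) * (1 - e) = 1 - e := by
    rw [sub_mul, mul_sub, mul_sub, one_mul, one_mul, mul_one, hee, sub_self, sub_zero]
  have h2 := S30R2_finrank_range ρ d hq hirr
    ((PG_R2_img ρ).sub_mem (PG_R2_img ρ).one_mem he) he'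
    (fun h => he1 (sub_eq_zero.1 h).symm)
    (fun h => he0 (by
      have : e = 1 - (1 - e) := by abel
      rw [this, h, sub_self]))
  have h3 : LinearMap.ker e = LinearMap.range (1 - e) := by
    ext w
    rw [LinearMap.mem_ker, LinearMap.mem_range]
    constructor
    · intro hw
      refine ⟨w, ?_⟩
      show w - e w = w
      rw [hw, sub_zero]
    · rintro ⟨w', rfl⟩
      show e (w' - e w') = 0
      have : e (e w') = e w' := congrArg (fun f : Module.End K W => f w') hee
      rw [map_sub, this, sub_self]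
  have h4 := LinearMap.finrank_range_add_finrank_ker e
  rw [h3, h1, h2] at h4
  exact h4.symm

/-- The idempotent attached to a non-scalar involution. -/
theorem S30R2_idem_of_invol (h2 : (2 : K) ≠ 0) {x : Module.End K W} (hx : x ∈ PG_R2_img ρ)
    (hxx : x * x = 1) (hns : ∀ a : K, x ≠ a • (1 : Module.End K W)) :
    ∃ e ∈ PG_R2_img ρ, e * e = e ∧ e ≠ 0 ∧ e ≠ 1 := by
  refine ⟨(2 : K)⁻¹ • (1 + x), (PG_R2_img ρ).smul_mem
    ((PG_R2_img ρ).add_mem (PG_R2_img ρ).one_mem hx) _, ?_, ?_, ?_⟩
  · rw [smul_mul_smul_comm, add_mul, mul_add, mul_add, one_mul, one_mul, mul_one, hxx]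
    have : (1 : Module.End K W) + x + (x + 1) = (2 : K) • (1 + x) := by
      rw [two_smul]; abel
    rw [this, smul_smul]
    congr 1
    field_simp
  · intro h
    rcases smul_eq_zero.1 h with h3 | h3
    · exact h2 (inv_eq_zero.1 h3)
    · apply hns (-1)
      rw [neg_smul, one_smul]
      exact eq_neg_of_add_eq_zero_right h3
  · intro h
    apply hns 1
    rw [one_smul]
    have h3 : (2 : K) • ((2 : K)⁻¹ • ((1 : Module.End K W) + x)) = (2 : K) • 1 := by rw [h]
    rw [smul_smul, mul_inv_cancel₀ h2, one_smul, two_smul] at h3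
    exact add_left_cancel h3

/-- If an element `c` with `c² = 1` and `d(c) = -1` acts as a scalar, then every element acts as
a scalar (`2 ≠ 0`). -/
theorem S30R2_all_scalar [FiniteDimensional K W] [Nontrivial W] (h2 : (2 : K) ≠ 0)
    (hq : ∀ g : G, ∃ t : K,
      ρ g * ρ g - t • ρ g + ((d g : Kˣ) : K) • (1 : Module.End K W) = 0)
    (c : G) (hc : c * c = 1) (hdc : ((d c : Kˣ) : K) = -1)
    (hcs : ∃ ε : K, ρ c = ε • (1 : Module.End K W)) (g : G) :
    ∃ a : K, ρ g = a • (1 : Module.End K W) := by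
  by_contra hns
  push Not at hns
  obtain ⟨ε, hε⟩ := hcs
  have hεε : ε * ε = 1 := by
    apply PG_R2_smul_one_inj (W := W)
    have h1 : ρ c * ρ c = 1 := by rw [← map_mul, hc, map_one]
    rw [hε, smul_mul_smul_comm, one_mul] at h1
    rw [h1, one_smul]
  obtain ⟨t0, ht0⟩ := hq g
  obtain ⟨t1, ht1⟩ := hq (c * g)
  have hcg : ρ (c * g) = ε • ρ g := by rw [map_mul, hε, smul_mul_assoc, one_mul]
  rw [hcg, map_mul, Units.val_mul, hdc, smul_mul_smul_comm, hεε, one_smul, smul_smul] at ht1
  -- difference of the two relations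
  have h3 : (t1 * ε - t0) • ρ g = -((2 : K) * ((d g : Kˣ) : K)) • (1 : Module.End K W) := by
    have h4 : (t1 * ε - t0) • ρ g + ((2 : K) * ((d g : Kˣ) : K)) • (1 : Module.End K W)
        = (ρ g * ρ g - t0 • ρ g + ((d g : Kˣ) : K) • (1 : Module.End K W))
          - (ρ g * ρ g - (t1 * ε) • ρ g + (-1 * ((d g : Kˣ) : K)) • (1 : Module.End K W)) := by
      module
    rw [ht0, ht1, sub_self] at h4
    rw [neg_smul]
    exact eq_neg_of_add_eq_zero_left h4
  by_cases h5 : t1 * ε - t0 = 0
  · rw [h5, zero_smul] at h3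
    rcases smul_eq_zero.1 h3.symm with h6 | h6
    · rw [neg_eq_zero] at h6
      rcases mul_eq_zero.1 h6 with h7 | h7
      · exact h2 h7
      · exact Units.ne_zero (d g) h7
    · exact PG_R2_one_ne_zero h6
  · apply hns ((t1 * ε - t0)⁻¹ * -((2 : K) * ((d g : Kˣ) : K)))
    rw [← smul_smul, ← h3, smul_smul, inv_mul_cancel₀ h5, one_smul]

/-- **Dichotomy for an irreducible representation**: either `G` acts by scalars, or the
dimension is `2` and `c` does not act as a scalar. -/
theorem S30R2_irr_cases [Infinite K] [FiniteDimensional K W] [Nontrivial W] (h2 : (2 : K) ≠ 0)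
    (hq : ∀ g : G, ∃ t : K,
      ρ g * ρ g - t • ρ g + ((d g : Kˣ) : K) • (1 : Module.End K W) = 0)
    (hirr : PG_R2_Irr ρ) (c : G) (hc : c * c = 1) (hdc : ((d c : Kˣ) : K) = -1) :
    (∀ g : G, ∃ a : K, ρ g = a • (1 : Module.End K W)) ∨
      (Module.finrank K W = 2 ∧ ∀ a : K, ρ c ≠ a • (1 : Module.End K W)) := by
  by_cases hcs : ∃ ε : K, ρ c = ε • (1 : Module.End K W)
  · exact Or.inl (S30R2_all_scalar ρ d h2 hq c hc hdc hcs)
  · push Not at hcs
    right
    refine ⟨?_, hcs⟩
    have hxx : ρ c * ρ c = 1 := by rw [← map_mul, hc, map_one]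
    obtain ⟨e, he, hee, he0, he1⟩ := S30R2_idem_of_invol ρ h2 (PG_R2_mem_img ρ c) hxx hcs
    exact S30R2_finrank_eq_two_of_idem ρ d hq hirr he hee he0 he1

end Rep

/-! ### The main theorem -/

section Main

universe uK uG uW

/-- Induction on the dimension: restriction to a minimal invariant subspace. -/
theorem S30R2_aux {K : Type uK} [Field K] [Infinite K] (h2 : (2 : K) ≠ 0)
    {G : Type uG} [Group G] (d : G →* Kˣ) (t : G → K)
    (c : G) (hc : c * c = 1) (hdc : ((d c : Kˣ) : K) = -1) (n : ℕ) :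
    ∀ (W : Type uW) [AddCommGroup W] [Module K W] [FiniteDimensional K W] [Nontrivial W]
      (ρ : G →* Module.End K W), Module.finrank K W = n →
      (∀ g : G, ρ g * ρ g - t g • ρ g + ((d g : Kˣ) : K) • (1 : Module.End K W) = 0) →
      ∃ ρ' : G →* Module.End K (Fin 2 → K),
        (∀ g : G, LinearMap.charpoly (ρ' g) = X ^ 2 - C (t g) * X + C ((d g : Kˣ) : K)) ∧
        (∀ g : G, ρ g = 1 → d g = 1 → ρ' g = 1) := by
  induction n using Nat.strong_induction_on with
  | _ n ih =>
    intro W _ _ _ _ ρ hn hE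
    have hq : ∀ g : G, ∃ t : K,
        ρ g * ρ g - t • ρ g + ((d g : Kˣ) : K) • (1 : Module.End K W) = 0 :=
      fun g => ⟨t g, hE g⟩
    by_cases hirr : PG_R2_Irr ρ
    · rcases S30R2_irr_cases ρ d h2 hq hirr c hc hdc with hs | ⟨h2', hns⟩
      · exact PG_R2_of_scalar ρ d t hE hs
      · exact PG_R2_of_two ρ d t h2' hE c hns
    · unfold PG_R2_Irr at hirr
      push Not at hirr
      obtain ⟨U, hU, hbot, htop⟩ := hirr
      have hlt : Module.finrank K U < n := by
        rw [← hn]
        exact Submodule.finrank_lt htop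
      haveI : Nontrivial U := Submodule.nontrivial_iff_ne_bot.2 hbot
      let ρU : G →* Module.End K U :=
        { toFun := fun g => (ρ g).restrict (hU g)
          map_one' := by
            ext w
            show ((ρ 1) (w : W)) = w
            rw [map_one]
            rfl
          map_mul' := by
            intro g h
            ext w
            show ((ρ (g * h)) (w : W)) = (ρ g) ((ρ h) (w : W))
            rw [map_mul]
            rfl }
      have hρU : ∀ (g : G) (w : U), ((ρU g w : U) : W) = ρ g (w : W) := fun _ _ => rfl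
      have hEU : ∀ g : G, ρU g * ρU g - t g • ρU g
          + ((d g : Kˣ) : K) • (1 : Module.End K U) = 0 := by
        intro g
        ext w
        have h1 := congrArg (fun f : Module.End K W => f (w : W)) (hE g)
        simp only [LinearMap.add_apply, LinearMap.sub_apply, LinearMap.smul_apply,
          Module.End.mul_apply, Module.End.one_apply, LinearMap.zero_apply] at h1
        simp only [LinearMap.add_apply, LinearMap.sub_apply, LinearMap.smul_apply,
          Module.End.mul_apply, Module.End.one_apply, LinearMap.zero_apply,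
          Submodule.coe_add, Submodule.coe_sub, Submodule.coe_smul, Submodule.coe_zero, hρU]
        exact h1
      obtain ⟨ρ', h1, h2''⟩ := ih _ hlt U ρU rfl hEU
      refine ⟨ρ', h1, fun g hg hd => h2'' g ?_ hd⟩
      ext w
      show ρ g (w : W) = w
      rw [hg]
      rfl

/-- **Odd (R2) over an arbitrary infinite field with `2 ≠ 0`.** A nonzero finite-dimensional
representation on which every `g` is killed by `X² - t(g) X + d(g)`, with an element `c` such that
`c² = 1` and `d(c) = -1`, yields a two-dimensional representation over the same field with these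
characteristic polynomials. -/
theorem S30R2_odd {G : Type*} [Group G] {K : Type*} [Field K] [Infinite K] (h2 : (2 : K) ≠ 0)
    {W : Type*} [AddCommGroup W] [Module K W] [FiniteDimensional K W] [Nontrivial W]
    (ρ : G →* Module.End K W) (d : G →* Kˣ) (t : G → K)
    (h : ∀ (g : G) (w : W), ρ g (ρ g w) - t g • ρ g w + (d g : K) • w = 0)
    (c : G) (hc : c * c = 1) (hdc : ((d c : Kˣ) : K) = -1) :
    ∃ ρ' : G →* Module.End K (Fin 2 → K),
      (∀ g : G, LinearMap.charpoly (ρ' g) = X ^ 2 - C (t g) * X + C (d g : K)) ∧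
      (∀ g : G, ρ g = 1 → d g = 1 → ρ' g = 1) := by
  apply S30R2_aux h2 d t c hc hdc (Module.finrank K W) W ρ rfl
  intro g
  ext w
  exact h g w

/-- **Odd (R2), existential form.** -/
theorem S30R2_odd_exists {K : Type*} [Field K] [Infinite K] (h2 : (2 : K) ≠ 0)
    {G : Type*} [Group G]
    {W : Type*} [AddCommGroup W] [Module K W] [Module.Finite K W] [Nontrivial W]
    (r : G →* Module.End K W) (d : G →* Kˣ)
    (h : ∀ g : G, ∃ t : K, r g * r g - t • r g + ((d g : Kˣ) : K) • (1 : Module.End K W) = 0)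
    (c : G) (hc : c * c = 1) (hdc : ((d c : Kˣ) : K) = -1) :
    ∃ ρ : G →* Module.End K (Fin 2 → K),
      (∀ g, r g = 1 → d g = 1 → ρ g = 1) ∧
      ∀ (g : G) (t : K), r g * r g - t • r g + ((d g : Kˣ) : K) • (1 : Module.End K W) = 0 →
        LinearMap.charpoly (ρ g) = X ^ 2 - C t * X + C ((d g : Kˣ) : K) := by
  choose t ht using h
  obtain ⟨ρ', h1, h2'⟩ := S30R2_aux h2 d t c hc hdc (Module.finrank K W) W r rfl ht
  refine ⟨ρ', h2', fun g t' ht' => ?_⟩
  have hu : IsUnit (r g) := by
    refine ⟨⟨r g, r g⁻¹, ?_, ?_⟩, rfl⟩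
    · rw [← map_mul, mul_inv_cancel, map_one]
    · rw [← map_mul, inv_mul_cancel, map_one]
  rw [h1 g, PG_R2_t_unique (r g) hu (t g) t' _ (ht g) ht']

end Main

/-! ### Subspace form (the shape of piece P8 of the S30 route) -/

section Subspace

variable {K : Type*} [Field K] {G : Type*} [Group G]
  {W : Type*} [AddCommGroup W] [Module K W]
  (ρ : G →* Module.End K W) (d : G →* Kˣ)

/-- The restriction of a representation to a stable subspace. -/
def S30R2_res (U : Submodule K W) (hU : ∀ g : G, ∀ w ∈ U, ρ g w ∈ U) :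
    G →* Module.End K U where
  toFun g := (ρ g).restrict (hU g)
  map_one' := by
    ext w
    show ((ρ 1) (w : W)) = w
    rw [map_one]
    rfl
  map_mul' := by
    intro g h
    ext w
    show ((ρ (g * h)) (w : W)) = (ρ g) ((ρ h) (w : W))
    rw [map_mul]
    rfl

@[simp] theorem S30R2_res_apply (U : Submodule K W) (hU : ∀ g : G, ∀ w ∈ U, ρ g w ∈ U)
    (g : G) (w : U) : ((S30R2_res ρ U hU g w : U) : W) = ρ g (w : W) := rfl

theorem S30R2_res_eq (U : Submodule K W) (hU : ∀ g : G, ∀ w ∈ U, ρ g w ∈ U) (g : G) :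
    S30R2_res ρ U hU g = (ρ g).restrict (hU g) := rfl

/-- A quadratic relation restricts to stable subspaces. -/
theorem S30R2_res_rel (U : Submodule K W) (hU : ∀ g : G, ∀ w ∈ U, ρ g w ∈ U) (g : G) (t δ : K)
    (h : ρ g * ρ g - t • ρ g + δ • (1 : Module.End K W) = 0) :
    S30R2_res ρ U hU g * S30R2_res ρ U hU g - t • S30R2_res ρ U hU g
      + δ • (1 : Module.End K U) = 0 := by
  ext w
  have h1 := congrArg (fun f : Module.End K W => f (w : W)) h
  simp only [LinearMap.add_apply, LinearMap.sub_apply, LinearMap.smul_apply,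
    Module.End.mul_apply, Module.End.one_apply, LinearMap.zero_apply] at h1
  simp only [LinearMap.add_apply, LinearMap.sub_apply, LinearMap.smul_apply,
    Module.End.mul_apply, Module.End.one_apply, LinearMap.zero_apply,
    Submodule.coe_add, Submodule.coe_sub, Submodule.coe_smul, Submodule.coe_zero,
    S30R2_res_apply]
  exact h1

/-- Existence of a simple subrepresentation. -/
theorem S30R2_exists_simple [FiniteDimensional K W] [Nontrivial W] :
    ∃ (U : Submodule K W) (hU : ∀ g : G, ∀ w ∈ U, ρ g w ∈ U), U ≠ ⊥ ∧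
      PG_R2_Irr (S30R2_res ρ U hU) := by
  classical
  -- a stable nonzero subspace of minimal dimension
  have hex : ∃ n : ℕ, ∃ U : Submodule K W, (∀ g : G, ∀ w ∈ U, ρ g w ∈ U) ∧ U ≠ ⊥ ∧
      Module.finrank K U = n :=
    ⟨_, ⊤, fun _ _ _ => Submodule.mem_top, top_ne_bot, rfl⟩
  obtain ⟨U, hU, hU0, hUn⟩ := Nat.find_spec hex
  have hmin : ∀ U' : Submodule K W, (∀ g : G, ∀ w ∈ U', ρ g w ∈ U') → U' ≠ ⊥ →
      Nat.find hex ≤ Module.finrank K U' := fun U' h1 h2 =>
    Nat.find_min' hex ⟨U', h1, h2, rfl⟩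
  refine ⟨U, hU, hU0, ?_⟩
  intro V hV
  by_cases hV0 : V = ⊥
  · exact Or.inl hV0
  right
  -- the image of `V` in `W`
  have hst : ∀ g : G, ∀ w ∈ V.map U.subtype, ρ g w ∈ V.map U.subtype := by
    rintro g w ⟨v, hv, rfl⟩
    exact ⟨S30R2_res ρ U hU g v, hV g v hv, rfl⟩
  have hne : V.map U.subtype ≠ ⊥ := by
    intro h
    apply hV0
    rw [eq_bot_iff]
    intro v hv
    have h1 : U.subtype v ∈ V.map U.subtype := ⟨v, hv, rfl⟩
    rw [h, Submodule.mem_bot] at h1
    rw [Submodule.mem_bot]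
    exact Subtype.ext h1
  have hle : V.map U.subtype ≤ U := by
    rintro w ⟨v, -, rfl⟩
    exact v.2
  have h1 := hmin _ hst hne
  rw [← hUn] at h1
  have h2 : V.map U.subtype = U := Submodule.eq_of_le_of_finrank_le hle h1
  rw [eq_top_iff]
  intro v _
  have h3 : (v : W) ∈ V.map U.subtype := by rw [h2]; exact v.2
  obtain ⟨v', hv', hvv⟩ := h3
  have : v' = v := Subtype.ext hvv
  rw [← this]
  exact hv'

/-- If `G` acts by scalars on an irreducible representation, it is one-dimensional and `G` acts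
through a character. -/
theorem S30R2_scalar_char [FiniteDimensional K W] [Nontrivial W] (hirr : PG_R2_Irr ρ)
    (hs : ∀ g : G, ∃ a : K, ρ g = a • (1 : Module.End K W)) :
    Module.finrank K W = 1 ∧ ∃ ψ : G →* Kˣ, ∀ g : G, ρ g = ((ψ g : Kˣ) : K) • (1 : Module.End K W) := by
  classical
  constructor
  · obtain ⟨u, hu⟩ := exists_ne (0 : W)
    have hst : ∀ g : G, ∀ w ∈ Submodule.span K {u}, ρ g w ∈ Submodule.span K {u} := by
      intro g w hw
      obtain ⟨a, ha⟩ := hs g
      rw [ha]
      exact Submodule.smul_mem _ a hw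
    rcases hirr _ hst with h | h
    · exfalso
      have : u ∈ Submodule.span K {u} := Submodule.mem_span_singleton_self u
      rw [h, Submodule.mem_bot] at this
      exact hu this
    · have h1 := finrank_span_singleton (K := K) hu
      rw [h, finrank_top] at h1
      exact h1
  · choose ψ hψ using hs
    have hψ1 : ψ 1 = 1 := by
      apply PG_R2_smul_one_inj (W := W)
      rw [← hψ, map_one, one_smul]
    have hψmul : ∀ g h : G, ψ (g * h) = ψ g * ψ h := by
      intro g h
      apply PG_R2_smul_one_inj (W := W)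
      rw [← hψ, map_mul, hψ g, hψ h, smul_mul_assoc, one_mul, smul_smul]
    have hinv : ∀ g : G, ψ g * ψ g⁻¹ = 1 := fun g => by
      rw [← hψmul, mul_inv_cancel, hψ1]
    have hinv' : ∀ g : G, ψ g⁻¹ * ψ g = 1 := fun g => by
      rw [← hψmul, inv_mul_cancel, hψ1]
    refine ⟨{ toFun := fun g => ⟨ψ g, ψ g⁻¹, hinv g, hinv' g⟩
              map_one' := Units.ext hψ1
              map_mul' := fun g h => Units.ext (hψmul g h) }, fun g => hψ g⟩

/-- **P8, odd algebra, subspace form.** Under the hypotheses of `S30R2_odd` there is a simple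
`G`-stable subspace `W0` of `W` which is either of dimension `2`, with `c` acting as a non-scalar
and with the expected characteristic polynomials, or a line on which `G` acts through a character
`ψ` with `t = ψ + d ψ⁻¹`. -/
theorem S30R2_subspace [Infinite K] (h2 : (2 : K) ≠ 0) [FiniteDimensional K W] [Nontrivial W]
    (hq : ∀ g : G, ∃ t : K,
      ρ g * ρ g - t • ρ g + ((d g : Kˣ) : K) • (1 : Module.End K W) = 0)
    (c : G) (hc : c * c = 1) (hdc : ((d c : Kˣ) : K) = -1) :
    ∃ (W0 : Submodule K W) (hW0 : ∀ g : G, ∀ w ∈ W0, ρ g w ∈ W0), W0 ≠ ⊥ ∧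
      PG_R2_Irr (S30R2_res ρ W0 hW0) ∧
      ((Module.finrank K W0 = 2 ∧
          (∀ a : K, (ρ c).restrict (hW0 c) ≠ a • (1 : Module.End K W0)) ∧
          ∀ (g : G) (t : K),
            ρ g * ρ g - t • ρ g + ((d g : Kˣ) : K) • (1 : Module.End K W) = 0 →
            LinearMap.charpoly ((ρ g).restrict (hW0 g))
              = X ^ 2 - C t * X + C ((d g : Kˣ) : K)) ∨
        (Module.finrank K W0 = 1 ∧ ∃ ψ : G →* Kˣ,
          (∀ g : G, ∀ w ∈ W0, ρ g w = ((ψ g : Kˣ) : K) • w) ∧
          ∀ (g : G) (t : K),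
            ρ g * ρ g - t • ρ g + ((d g : Kˣ) : K) • (1 : Module.End K W) = 0 →
            t = ((ψ g : Kˣ) : K) + ((d g : Kˣ) : K) * ((ψ g : Kˣ) : K)⁻¹)) := by
  obtain ⟨W0, hW0, hne, hirr⟩ := S30R2_exists_simple ρ
  haveI : Nontrivial W0 := Submodule.nontrivial_iff_ne_bot.2 hne
  refine ⟨W0, hW0, hne, hirr, ?_⟩
  have hq0 : ∀ g : G, ∃ t : K, S30R2_res ρ W0 hW0 g * S30R2_res ρ W0 hW0 g
      - t • S30R2_res ρ W0 hW0 g + ((d g : Kˣ) : K) • (1 : Module.End K W0) = 0 := by
    intro g
    obtain ⟨t, ht⟩ := hq g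
    exact ⟨t, S30R2_res_rel ρ W0 hW0 g t _ ht⟩
  rcases S30R2_irr_cases (S30R2_res ρ W0 hW0) d h2 hq0 hirr c hc hdc with hs | ⟨hd2, hns⟩
  · right
    obtain ⟨h1, ψ, hψ⟩ := S30R2_scalar_char (S30R2_res ρ W0 hW0) hirr hs
    refine ⟨h1, ψ, fun g w hw => ?_, fun g t ht => ?_⟩
    · have h3 := congrArg (fun f : Module.End K W0 => ((f ⟨w, hw⟩ : W0) : W)) (hψ g)
      exact h3
    · have h3 := S30R2_res_rel ρ W0 hW0 g t _ ht
      rw [hψ g, smul_mul_assoc, one_mul, smul_smul, smul_smul, ← sub_smul, ← add_smul] at h3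
      have h4 : ((ψ g : Kˣ) : K) * ((ψ g : Kˣ) : K) - t * ((ψ g : Kˣ) : K)
          + ((d g : Kˣ) : K) = 0 := by
        rcases smul_eq_zero.1 h3 with h5 | h5
        · exact h5
        · exact absurd h5 PG_R2_one_ne_zero
      have h6 : ((ψ g : Kˣ) : K) ≠ 0 := Units.ne_zero _
      field_simp
      linear_combination -h4
  · left
    refine ⟨hd2, hns, fun g t ht => ?_⟩
    choose t0 ht0 using hq0
    have hu : IsUnit (S30R2_res ρ W0 hW0 g) := by
      refine ⟨⟨S30R2_res ρ W0 hW0 g, S30R2_res ρ W0 hW0 g⁻¹, ?_, ?_⟩, rfl⟩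
      · rw [← map_mul, mul_inv_cancel, map_one]
      · rw [← map_mul, inv_mul_cancel, map_one]
    have h3 := PG_R2_charpoly_of_two (S30R2_res ρ W0 hW0) d t0 hd2 ht0 c hns g
    rw [PG_R2_t_unique (S30R2_res ρ W0 hW0 g) hu (t0 g) t _ (ht0 g)
      (S30R2_res_rel ρ W0 hW0 g t _ ht)] at h3
    exact h3

/-- Conversion of the relation `ρ g + d(g) ρ(g)⁻¹ = t` into the quadratic form. -/
theorem S30R2_rel_of_inv (g : G) (t : K)
    (h : ρ g + ((d g : Kˣ) : K) • ρ g⁻¹ = t • (1 : Module.End K W)) :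
    ρ g * ρ g - t • ρ g + ((d g : Kˣ) : K) • (1 : Module.End K W) = 0 := by
  have h1 : ρ g⁻¹ * ρ g = 1 := by rw [← map_mul, inv_mul_cancel, map_one]
  have h3 : (ρ g + ((d g : Kˣ) : K) • ρ g⁻¹) * ρ g = (t • (1 : Module.End K W)) * ρ g := by
    rw [h]
  rw [add_mul, smul_mul_assoc, h1, smul_mul_assoc, one_mul] at h3
  have h4 : ρ g * ρ g - t • ρ g + ((d g : Kˣ) : K) • (1 : Module.End K W)
      = (ρ g * ρ g + ((d g : Kˣ) : K) • (1 : Module.End K W)) - t • ρ g := by abel
  rw [h4, h3, sub_self]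

/-- Conversion of the quadratic relation into the form `ρ g + d(g) ρ(g)⁻¹ = t`. -/
theorem S30R2_inv_of_rel (g : G) (t : K)
    (h : ρ g * ρ g - t • ρ g + ((d g : Kˣ) : K) • (1 : Module.End K W) = 0) :
    ρ g + ((d g : Kˣ) : K) • ρ g⁻¹ = t • (1 : Module.End K W) := by
  have h1 : ρ g * ρ g⁻¹ = 1 := by rw [← map_mul, mul_inv_cancel, map_one]
  have h3 : (ρ g * ρ g - t • ρ g + ((d g : Kˣ) : K) • (1 : Module.End K W)) * ρ g⁻¹ = 0 := by
    rw [h, zero_mul]
  rw [add_mul, sub_mul, mul_assoc, h1, mul_one, smul_mul_assoc, h1, smul_mul_assoc, one_mul]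
    at h3
  have : ρ g + ((d g : Kˣ) : K) • ρ g⁻¹ - t • (1 : Module.End K W)
      = ρ g - t • 1 + ((d g : Kˣ) : K) • ρ g⁻¹ := by abel
  rw [← sub_eq_zero, this, h3]

/-- **P8 in the shape of the S30 route** (relation `ρ g + d(g) ρ(g)⁻¹ = t`). -/
theorem S30R2_P8 [Infinite K] (h2 : (2 : K) ≠ 0) [FiniteDimensional K W] [Nontrivial W]
    (hq : ∀ g : G, ∃ t : K, ρ g + ((d g : Kˣ) : K) • ρ g⁻¹ = t • (1 : Module.End K W))
    (c : G) (hc : c * c = 1) (hdc : ((d c : Kˣ) : K) = -1) :
    ∃ (W0 : Submodule K W) (hW0 : ∀ g : G, ∀ w ∈ W0, ρ g w ∈ W0), W0 ≠ ⊥ ∧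
      ((Module.finrank K W0 = 2 ∧
          ∀ (g : G) (t : K), ρ g + ((d g : Kˣ) : K) • ρ g⁻¹ = t • (1 : Module.End K W) →
            LinearMap.charpoly ((ρ g).restrict (hW0 g))
              = X ^ 2 - C t * X + C ((d g : Kˣ) : K)) ∨
        (Module.finrank K W0 = 1 ∧ ∃ ψ : G →* Kˣ,
          (∀ g : G, ∀ w ∈ W0, ρ g w = ((ψ g : Kˣ) : K) • w) ∧
          ∀ (g : G) (t : K), ρ g + ((d g : Kˣ) : K) • ρ g⁻¹ = t • (1 : Module.End K W) →
            t = ((ψ g : Kˣ) : K) + ((d g : Kˣ) : K) * ((ψ g : Kˣ) : K)⁻¹)) := by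
  obtain ⟨W0, hW0, hne, -, h⟩ := S30R2_subspace ρ d h2
    (fun g => (hq g).imp fun t ht => S30R2_rel_of_inv ρ d g t ht) c hc hdc
  refine ⟨W0, hW0, hne, ?_⟩
  rcases h with ⟨h1, -, h3⟩ | ⟨h1, ψ, h3, h4⟩
  · exact Or.inl ⟨h1, fun g t ht => h3 g t (S30R2_rel_of_inv ρ d g t ht)⟩
  · exact Or.inr ⟨h1, ψ, h3, fun g t ht => h4 g t (S30R2_rel_of_inv ρ d g t ht)⟩

end Subspace

end Fermat.Agent.S30_helper19_R2ODD
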