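import Mathlib
import Fermat.Prelude.Def_GaloisRep_Adic
import Fermat.Agent.S30_helper19_R2ODD

/-!
# S30, piece P9a: the odd (R2) argument for lattices

Let `𝒪` be a principal ideal domain of characteristic zero, `T` a nonzero finite free `𝒪`-module
with an action `ρ` of a group `G`, `d : G →* 𝒪ˣ` a character such that every `ρ g` is killed by a
polynomial `X² - t X + d(g)` with `t ∈ 𝒪`, and `c ∈ G` with `c² = 1`, `d(c) = -1`.  Then there is
an action `ρ'` of `G` on `𝒪²` with `charpoly (ρ' g) = X² - t X + d(g)`, and every congruence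
`ρ g ≡ 1`, `d g ≡ 1` modulo `a` is inherited by `ρ'`.
-/

set_option autoImplicit false

open Polynomial TensorProduct

namespace Fermat.Agent.S30_helper19_LATTICE

open Fermat.Agent.G_helper19_R2 Fermat.Agent.S30_helper19_R2ODD

/-! ### Saturated submodules -/

section Sat

variable {𝒪 : Type*} [CommRing 𝒪] [IsDomain 𝒪] [IsPrincipalIdealRing 𝒪]
  {T : Type*} [AddCommGroup T] [Module 𝒪 T]

/-- A submodule is saturated if it is closed under division by nonzero scalars. -/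
def S30LAT_Sat (U : Submodule 𝒪 T) : Prop :=
  ∀ (a : 𝒪) (x : T), a ≠ 0 → a • x ∈ U → x ∈ U

/-- A proper saturated submodule of a finite module has smaller rank. -/
theorem S30LAT_finrank_lt [Module.Finite 𝒪 T] {U : Submodule 𝒪 T} (hsat : S30LAT_Sat U)
    (htop : U ≠ ⊤) : Module.finrank 𝒪 U < Module.finrank 𝒪 T := by
  have h1 := Submodule.finrank_quotient_add_finrank U
  have h2 : Module.finrank 𝒪 (T ⧸ U) ≠ 0 := by
    intro h0
    rw [Module.finrank_eq_zero_iff] at h0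
    apply htop
    rw [eq_top_iff]
    intro x _
    obtain ⟨a, ha, hax⟩ := h0 (Submodule.Quotient.mk x)
    apply hsat a x ha
    rw [← Submodule.Quotient.mk_smul, Submodule.Quotient.mk_eq_zero] at hax
    exact hax
  omega

end Sat

/-! ### Base change to the fraction field -/

section BaseChange

variable {𝒪 : Type*} [CommRing 𝒪] [IsDomain 𝒪] [IsPrincipalIdealRing 𝒪]
  {G : Type*} [Group G]
  {T : Type*} [AddCommGroup T] [Module 𝒪 T]
  (ρ : G →* Module.End 𝒪 T) (d : G →* 𝒪ˣ)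

local notation "K" => FractionRing 𝒪

/-- The representation on `K ⊗ T`. -/
def S30LAT_rhoK : G →* Module.End K (K ⊗[𝒪] T) where
  toFun g := (ρ g).baseChange K
  map_one' := by rw [map_one, LinearMap.baseChange_one]
  map_mul' g h := by rw [map_mul, LinearMap.baseChange_mul]

theorem S30LAT_rhoK_apply (g : G) : S30LAT_rhoK ρ g = (ρ g).baseChange K := rfl

theorem S30LAT_rhoK_tmul (g : G) (a : K) (x : T) :
    S30LAT_rhoK ρ g (a ⊗ₜ[𝒪] x) = a ⊗ₜ[𝒪] ρ g x := by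
  rw [S30LAT_rhoK_apply, LinearMap.baseChange_tmul]

/-- The character with values in `K`. -/
def S30LAT_dK : G →* Kˣ := (Units.map (algebraMap 𝒪 K : 𝒪 →* K)).comp d

theorem S30LAT_dK_apply (g : G) : ((S30LAT_dK (𝒪 := 𝒪) d g : Kˣ) : K) = algebraMap 𝒪 K (d g) := rfl

/-- The lattice map `T → K ⊗ T`. -/
def S30LAT_iota : T →ₗ[𝒪] K ⊗[𝒪] T := TensorProduct.mk 𝒪 K T 1

theorem S30LAT_iota_apply (x : T) : S30LAT_iota (𝒪 := 𝒪) x = (1 : K) ⊗ₜ[𝒪] x := rfl

theorem S30LAT_rhoK_iota (g : G) (x : T) :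
    S30LAT_rhoK ρ g (S30LAT_iota x) = S30LAT_iota (ρ g x) := by
  rw [S30LAT_iota_apply, S30LAT_rhoK_tmul, S30LAT_iota_apply]

theorem S30LAT_iota_smul (a : 𝒪) (x : T) :
    S30LAT_iota (𝒪 := 𝒪) (a • x) = (algebraMap 𝒪 K a) • S30LAT_iota x := by
  rw [map_smul, algebraMap_smul]

theorem S30LAT_iota_injective [Module.Free 𝒪 T] :
    Function.Injective (S30LAT_iota (𝒪 := 𝒪) (T := T)) := by
  rw [injective_iff_map_eq_zero]
  intro x hx
  have h1 : S30LAT_iota (𝒪 := 𝒪) x = S30LAT_iota (𝒪 := 𝒪) (0 : T) := by rw [hx, map_zero]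
  obtain ⟨s, hs⟩ := (IsLocalizedModule.eq_iff_exists (nonZeroDivisors 𝒪)
    (TensorProduct.mk 𝒪 K T 1)).1 h1
  rw [smul_zero] at hs
  have hs0 : (s : 𝒪) ≠ 0 := nonZeroDivisors.coe_ne_zero s
  rcases smul_eq_zero.1 hs with h | h
  · exact absurd h hs0
  · exact h

/-- clearing denominators -/
theorem S30LAT_exists_smul (v : K ⊗[𝒪] T) :
    ∃ (s : 𝒪) (x : T), s ≠ 0 ∧ (algebraMap 𝒪 K s) • v = S30LAT_iota x := by
  obtain ⟨⟨x, s⟩, hs⟩ := IsLocalizedModule.surj (nonZeroDivisors 𝒪) (TensorProduct.mk 𝒪 K T 1) v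
  refine ⟨s, x, nonZeroDivisors.coe_ne_zero s, ?_⟩
  rw [algebraMap_smul]
  exact hs

/-- The quadratic relation passes to `K ⊗ T`. -/
theorem S30LAT_rhoK_rel (g : G) (t δ : 𝒪)
    (h : ρ g * ρ g - t • ρ g + δ • (1 : Module.End 𝒪 T) = 0) :
    S30LAT_rhoK ρ g * S30LAT_rhoK ρ g - (algebraMap 𝒪 K t) • S30LAT_rhoK ρ g
      + (algebraMap 𝒪 K δ) • (1 : Module.End K (K ⊗[𝒪] T)) = 0 := by
  have h1 := congrArg (LinearMap.baseChange K) h
  rw [LinearMap.baseChange_add, LinearMap.baseChange_sub, LinearMap.baseChange_mul,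
    LinearMap.baseChange_smul, LinearMap.baseChange_smul, LinearMap.baseChange_one,
    LinearMap.baseChange_zero] at h1
  rw [S30LAT_rhoK_apply, algebraMap_smul, algebraMap_smul]
  exact h1

end BaseChange

/-! ### Irreducibility -/

section Irr

variable {𝒪 : Type*} [CommRing 𝒪] [IsDomain 𝒪] [IsPrincipalIdealRing 𝒪]
  {G : Type*} [Group G]
  {T : Type*} [AddCommGroup T] [Module 𝒪 T]
  (ρ : G →* Module.End 𝒪 T) (d : G →* 𝒪ˣ)

local notation "K" => FractionRing 𝒪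

/-- Irreducibility in the saturated sense. -/
def S30LAT_Irr : Prop :=
  ∀ U : Submodule 𝒪 T, (∀ g : G, ∀ x ∈ U, ρ g x ∈ U) → S30LAT_Sat U → U = ⊥ ∨ U = ⊤

theorem S30LAT_algebraMap_ne_zero {a : 𝒪} (ha : a ≠ 0) : algebraMap 𝒪 K a ≠ 0 :=
  (map_ne_zero_iff _ (IsFractionRing.injective 𝒪 K)).2 ha

/-- A lattice which is irreducible in the saturated sense spans an irreducible representation
of the fraction field. -/
theorem S30LAT_irrK [Module.Free 𝒪 T] (hirr : S30LAT_Irr ρ) : PG_R2_Irr (S30LAT_rhoK ρ) := by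
  intro W0 hW0
  let U : Submodule 𝒪 T := (W0.restrictScalars 𝒪).comap S30LAT_iota
  have hmem : ∀ x : T, x ∈ U ↔ S30LAT_iota (𝒪 := 𝒪) x ∈ W0 := fun x => Iff.rfl
  have hU : ∀ g : G, ∀ x ∈ U, ρ g x ∈ U := by
    intro g x hx
    rw [hmem, ← S30LAT_rhoK_iota]
    exact hW0 g _ ((hmem x).1 hx)
  have hsat : S30LAT_Sat U := by
    intro a x ha hax
    rw [hmem, S30LAT_iota_smul] at hax
    have h2 := W0.smul_mem (algebraMap 𝒪 K a)⁻¹ hax
    rw [smul_smul, inv_mul_cancel₀ (S30LAT_algebraMap_ne_zero ha), one_smul] at h2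
    exact (hmem x).2 h2
  rcases hirr U hU hsat with h | h
  · left
    rw [eq_bot_iff]
    intro w hw
    obtain ⟨s, x, hs, hsx⟩ := S30LAT_exists_smul w
    have hx : x ∈ U := by
      rw [hmem, ← hsx]
      exact W0.smul_mem _ hw
    rw [h, Submodule.mem_bot] at hx
    rw [hx, map_zero] at hsx
    rcases smul_eq_zero.1 hsx with h1 | h1
    · exact absurd h1 (S30LAT_algebraMap_ne_zero hs)
    · exact (Submodule.mem_bot _).2 h1
  · right
    rw [eq_top_iff]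
    intro v _
    obtain ⟨s, x, hs, hsx⟩ := S30LAT_exists_smul v
    have hx : x ∈ U := by rw [h]; trivial
    rw [hmem, ← hsx] at hx
    have h2 := W0.smul_mem (algebraMap 𝒪 K s)⁻¹ hx
    rwa [smul_smul, inv_mul_cancel₀ (S30LAT_algebraMap_ne_zero hs), one_smul] at h2

end Irr

/-! ### The two cases for an irreducible lattice -/

section Cases

variable {𝒪 : Type*} [CommRing 𝒪] [IsDomain 𝒪] [IsPrincipalIdealRing 𝒪]
  {G : Type*} [Group G]
  {T : Type*} [AddCommGroup T] [Module 𝒪 T]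
  (ρ : G →* Module.End 𝒪 T) (d : G →* 𝒪ˣ) (t : G → 𝒪)

local notation "K" => FractionRing 𝒪

/-- The conclusion of the lattice theorem for a given function `t`. -/
def S30LAT_Concl (ρ' : G →* Module.End 𝒪 (Fin 2 → 𝒪)) : Prop :=
  (∀ g : G, LinearMap.charpoly (ρ' g) = X ^ 2 - C (t g) * X + C ((d g : 𝒪ˣ) : 𝒪)) ∧
    ∀ (g : G) (a : 𝒪), (∀ x : T, ∃ y : T, ρ g x - x = a • y) →
      (∃ u : 𝒪, ((d g : 𝒪ˣ) : 𝒪) - 1 = a * u) →
      ∀ v : Fin 2 → 𝒪, ∃ w : Fin 2 → 𝒪, ρ' g v - v = a • w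

theorem S30LAT_smul_one_inj [Module.Free 𝒪 T] [Nontrivial T] {a a' : 𝒪}
    (h : a • (1 : Module.End 𝒪 T) = a' • (1 : Module.End 𝒪 T)) : a = a' := by
  obtain ⟨x, hx⟩ := exists_ne (0 : T)
  have h1 := congrArg (fun f : Module.End 𝒪 T => f x) h
  simp only [LinearMap.smul_apply, Module.End.one_apply] at h1
  have h2 : (a - a') • x = 0 := by rw [sub_smul, h1, sub_self]
  rcases smul_eq_zero.1 h2 with h3 | h3
  · exact sub_eq_zero.1 h3
  · exact absurd h3 hx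

/-- **Scalar case.** -/
theorem S30LAT_of_scalar [Module.Free 𝒪 T] [Nontrivial T]
    (hE : ∀ g : G, ρ g * ρ g - t g • ρ g + ((d g : 𝒪ˣ) : 𝒪) • (1 : Module.End 𝒪 T) = 0)
    (hs : ∀ g : G, ∃ a : 𝒪, ρ g = a • (1 : Module.End 𝒪 T)) :
    ∃ ρ' : G →* Module.End 𝒪 (Fin 2 → 𝒪), S30LAT_Concl ρ d t ρ' := by
  classical
  choose ψ hψ using hs
  have hψ1 : ψ 1 = 1 := by
    apply S30LAT_smul_one_inj (T := T)
    rw [← hψ, map_one, one_smul]
  have hψmul : ∀ g h : G, ψ (g * h) = ψ g * ψ h := by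
    intro g h
    apply S30LAT_smul_one_inj (T := T)
    rw [← hψ, map_mul, hψ g, hψ h, smul_mul_assoc, one_mul, smul_smul]
  have hinv : ∀ g : G, ψ g * ψ g⁻¹ = 1 := fun g => by
    rw [← hψmul, mul_inv_cancel, hψ1]
  have hrel : ∀ g : G, ψ g * ψ g - t g * ψ g + ((d g : 𝒪ˣ) : 𝒪) = 0 := by
    intro g
    have h3 := hE g
    rw [hψ g, smul_mul_assoc, one_mul, smul_smul, smul_smul, ← sub_smul, ← add_smul] at h3
    apply S30LAT_smul_one_inj (T := T)
    rw [h3, zero_smul]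
  have htr : ∀ g : G, ψ g + ((d g : 𝒪ˣ) : 𝒪) * ψ g⁻¹ = t g := by
    intro g
    have h1 := hrel g
    have h2 := hinv g
    linear_combination (ψ g⁻¹) * h1 + (t g - ψ g) * h2
  let M : G →* Matrix (Fin 2) (Fin 2) 𝒪 :=
    { toFun := fun g => Matrix.diagonal ![ψ g, ((d g : 𝒪ˣ) : 𝒪) * ψ g⁻¹]
      map_one' := by
        rw [← Matrix.diagonal_one]
        congr 1
        ext i
        fin_cases i
        · simp [hψ1]
        · simp [hψ1]
      map_mul' := by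
        intro g h
        rw [Matrix.diagonal_mul_diagonal]
        congr 1
        ext i
        fin_cases i
        · simp [hψmul]
        · simp [hψmul]
          ring }
  have hM : ∀ g, M g = Matrix.diagonal ![ψ g, ((d g : 𝒪ˣ) : 𝒪) * ψ g⁻¹] := fun _ => rfl
  refine ⟨((Matrix.toLinAlgEquiv' : Matrix (Fin 2) (Fin 2) 𝒪 ≃ₐ[𝒪] _).toAlgHom.toRingHom :
      Matrix (Fin 2) (Fin 2) 𝒪 →+* Module.End 𝒪 (Fin 2 → 𝒪)).toMonoidHom.comp M,
    fun g => ?_, fun g a hx hd v => ?_⟩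
  · show (Matrix.toLin' (M g)).charpoly = _
    rw [Matrix.charpoly_toLin', Matrix.charpoly_fin_two, hM, Matrix.trace_fin_two,
      Matrix.det_fin_two]
    simp only [Matrix.diagonal_apply_eq, Matrix.cons_val_zero, Matrix.cons_val_one,
      Matrix.diagonal_apply_ne, ne_eq, zero_ne_one, one_ne_zero, not_false_eq_true,
      mul_zero, sub_zero]
    have h2 : ψ g * (((d g : 𝒪ˣ) : 𝒪) * ψ g⁻¹) = ((d g : 𝒪ˣ) : 𝒪) := by
      have := hinv g
      linear_combination ((d g : 𝒪ˣ) : 𝒪) * this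
    rw [htr g, h2]
  · -- `ψ g - 1` is divisible by `a`
    obtain ⟨x0, hx0⟩ := exists_ne (0 : T)
    have hψa : ∃ e : 𝒪, ψ g - 1 = a * e := by
      let b := Module.Free.chooseBasis 𝒪 T
      have hne : Nonempty (Module.Free.ChooseBasisIndex 𝒪 T) := by
        by_contra hcon
        rw [not_nonempty_iff] at hcon
        apply hx0
        exact b.ext_elem (fun i => (hcon.false i).elim)
      obtain ⟨i⟩ := hne
      obtain ⟨y, hy⟩ := hx (b i)
      rw [hψ g] at hy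
      simp only [LinearMap.smul_apply, Module.End.one_apply] at hy
      refine ⟨b.repr y i, ?_⟩
      have h1 := congrArg (fun z : T => b.repr z i) hy
      simp only [map_sub, map_smul, Finsupp.coe_sub, Finsupp.coe_smul, Pi.sub_apply,
        Pi.smul_apply, Module.Basis.repr_self, Finsupp.single_eq_same, smul_eq_mul,
        mul_one] at h1
      exact h1
    obtain ⟨e, he⟩ := hψa
    obtain ⟨u, hu⟩ := hd
    have h2 : ((d g : 𝒪ˣ) : 𝒪) * ψ g⁻¹ - 1 = a * (ψ g⁻¹ * (u - e)) := by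
      have := hinv g
      linear_combination (ψ g⁻¹) * hu - (ψ g⁻¹) * he + this
    refine ⟨![e * v 0, (ψ g⁻¹ * (u - e)) * v 1], ?_⟩
    show Matrix.toLin' (M g) v - v = _
    rw [Matrix.toLin'_apply, hM]
    funext j
    rw [Pi.sub_apply, Matrix.mulVec_diagonal, Pi.smul_apply, smul_eq_mul]
    fin_cases j
    · simp only [Fin.zero_eta, Fin.isValue, Matrix.cons_val_zero]
      linear_combination (v 0) * he
    · simp only [Fin.mk_one, Fin.isValue, Matrix.cons_val_one, Matrix.cons_val_fin_one]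
      linear_combination (v 1) * h2

/-- **Two-dimensional case.** -/
theorem S30LAT_of_two [Module.Free 𝒪 T] [Module.Finite 𝒪 T]
    (hE : ∀ g : G, ρ g * ρ g - t g • ρ g + ((d g : 𝒪ˣ) : 𝒪) • (1 : Module.End 𝒪 T) = 0)
    (h2 : Module.finrank K (K ⊗[𝒪] T) = 2) (c : G)
    (hns : ∀ a : K, S30LAT_rhoK ρ c ≠ a • (1 : Module.End K (K ⊗[𝒪] T))) :
    ∃ ρ' : G →* Module.End 𝒪 (Fin 2 → 𝒪), S30LAT_Concl ρ d t ρ' := by
  have h2' : Module.finrank 𝒪 T = 2 := by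
    rw [← h2, Module.finrank_baseChange]
  let e : T ≃ₗ[𝒪] (Fin 2 → 𝒪) := (Module.finBasisOfFinrankEq 𝒪 T h2').equivFun
  have hcp : ∀ g : G, (ρ g).charpoly = X ^ 2 - C (t g) * X + C ((d g : 𝒪ˣ) : 𝒪) := by
    intro g
    apply Polynomial.map_injective (algebraMap 𝒪 K) (IsFractionRing.injective 𝒪 K)
    rw [← LinearMap.charpoly_baseChange]
    have h3 := PG_R2_charpoly_of_two (S30LAT_rhoK ρ) (S30LAT_dK d)
      (fun g => algebraMap 𝒪 K (t g)) h2
      (fun g => S30LAT_rhoK_rel ρ g (t g) _ (hE g)) c hns g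
    rw [S30LAT_rhoK_apply, S30LAT_dK_apply] at h3
    rw [h3]
    simp only [Polynomial.map_add, Polynomial.map_sub, Polynomial.map_mul, Polynomial.map_pow,
      Polynomial.map_X, Polynomial.map_C]
  refine ⟨(e.conjRingEquiv : Module.End 𝒪 T →+* Module.End 𝒪 (Fin 2 → 𝒪)).toMonoidHom.comp ρ,
    fun g => ?_, fun g a hx _ v => ?_⟩
  · show (e.conj (ρ g)).charpoly = _
    rw [LinearEquiv.charpoly_conj]
    exact hcp g
  · obtain ⟨y, hy⟩ := hx (e.symm v)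
    refine ⟨e y, ?_⟩
    show e.conj (ρ g) v - v = a • e y
    rw [LinearEquiv.conj_apply_apply, ← map_smul, ← hy, map_sub, LinearEquiv.apply_symm_apply]

end Cases

/-! ### The irreducible case -/

section IrrCase

variable {𝒪 : Type*} [CommRing 𝒪] [IsDomain 𝒪] [IsPrincipalIdealRing 𝒪] [CharZero 𝒪]
  {G : Type*} [Group G]
  {T : Type*} [AddCommGroup T] [Module 𝒪 T]
  (ρ : G →* Module.End 𝒪 T) (d : G →* 𝒪ˣ) (t : G → 𝒪)

local notation "K" => FractionRing 𝒪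

theorem S30LAT_smul_comb {R M : Type*} [Ring R] [AddCommGroup M] [Module R M] (x y z : R)
    (m : M) (h : x • m - y • m + z • m = 0) : (x - y + z) • m = 0 := by
  rw [add_smul, sub_smul]
  exact h

theorem S30LAT_quad_monic (a b : 𝒪) : (X ^ 2 - C a * X + C b : 𝒪[X]).Monic := by
  have h1 : (X ^ 2 - C a * X + C b : 𝒪[X]) = X ^ 2 + (C (-a) * X + C b) := by
    rw [map_neg]; ring
  have h2 : (C (-a) * X + C b : 𝒪[X]).degree < ((2 : ℕ) : WithBot ℕ) :=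
    lt_of_le_of_lt degree_linear_le (by norm_num)
  rw [h1]
  exact monic_X_pow_add h2

theorem S30LAT_irr_case [Module.Free 𝒪 T] [Module.Finite 𝒪 T] [Nontrivial T]
    (hE : ∀ g : G, ρ g * ρ g - t g • ρ g + ((d g : 𝒪ˣ) : 𝒪) • (1 : Module.End 𝒪 T) = 0)
    (hirr : S30LAT_Irr ρ) (c : G) (hc : c * c = 1) (hdc : ((d c : 𝒪ˣ) : 𝒪) = -1) :
    ∃ ρ' : G →* Module.End 𝒪 (Fin 2 → 𝒪), S30LAT_Concl ρ d t ρ' := by
  haveI : CharZero K := charZero_of_injective_algebraMap (IsFractionRing.injective 𝒪 K)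
  haveI : Infinite K := Infinite.of_injective (Nat.cast : ℕ → K) Nat.cast_injective
  haveI : Nontrivial (K ⊗[𝒪] T) :=
    (S30LAT_iota_injective (𝒪 := 𝒪) (T := T)).nontrivial
  have h2K : (2 : K) ≠ 0 := two_ne_zero
  have hqK : ∀ g : G, ∃ t' : K, S30LAT_rhoK ρ g * S30LAT_rhoK ρ g - t' • S30LAT_rhoK ρ g
      + ((S30LAT_dK d g : Kˣ) : K) • (1 : Module.End K (K ⊗[𝒪] T)) = 0 :=
    fun g => ⟨_, S30LAT_rhoK_rel ρ g (t g) _ (hE g)⟩
  have hdcK : ((S30LAT_dK d c : Kˣ) : K) = -1 := by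
    rw [S30LAT_dK_apply, hdc, map_neg, map_one]
  rcases S30R2_irr_cases (S30LAT_rhoK ρ) (S30LAT_dK d) h2K hqK (S30LAT_irrK ρ hirr) c hc hdcK
    with hs | ⟨h2, hns⟩
  · apply S30LAT_of_scalar ρ d t hE
    intro g
    obtain ⟨a, ha⟩ := hs g
    have hrel : a * a - algebraMap 𝒪 K (t g) * a + algebraMap 𝒪 K ((d g : 𝒪ˣ) : 𝒪) = 0 := by
      have h3 := S30LAT_rhoK_rel ρ g (t g) _ (hE g)
      rw [ha, smul_mul_assoc, one_mul, smul_smul, smul_smul] at h3
      have h3' : (a * a - algebraMap 𝒪 K (t g) * a + algebraMap 𝒪 K ((d g : 𝒪ˣ) : 𝒪))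
          • (1 : Module.End K (K ⊗[𝒪] T)) = 0 := by
        exact S30LAT_smul_comb (R := K) (M := Module.End K (K ⊗[𝒪] T)) _ _ _ _ h3
      rcases smul_eq_zero.1 h3' with h4 | h4
      · exact h4
      · exact absurd h4 PG_R2_one_ne_zero
    have hint : IsIntegral 𝒪 a := by
      refine ⟨X ^ 2 - C (t g) * X + C ((d g : 𝒪ˣ) : 𝒪), S30LAT_quad_monic _ _, ?_⟩
      simp only [eval₂_add, eval₂_sub, eval₂_mul, eval₂_pow, eval₂_X, eval₂_C]
      linear_combination hrel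
    obtain ⟨y, hy⟩ := IsIntegrallyClosed.isIntegral_iff.1 hint
    refine ⟨y, ?_⟩
    ext x
    apply S30LAT_iota_injective (𝒪 := 𝒪)
    rw [← S30LAT_rhoK_iota, ha, LinearMap.smul_apply, Module.End.one_apply,
      LinearMap.smul_apply, Module.End.one_apply, S30LAT_iota_smul, hy]
  · exact S30LAT_of_two ρ d t hE h2 c hns

end IrrCase

/-! ### Restriction to saturated stable submodules -/

section Res

variable {𝒪 : Type*} [CommRing 𝒪] [IsDomain 𝒪] [IsPrincipalIdealRing 𝒪]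
  {G : Type*} [Group G]
  {T : Type*} [AddCommGroup T] [Module 𝒪 T]
  (ρ : G →* Module.End 𝒪 T)

/-- The restriction of the action to a stable submodule. -/
def S30LAT_res (U : Submodule 𝒪 T) (hU : ∀ g : G, ∀ w ∈ U, ρ g w ∈ U) :
    G →* Module.End 𝒪 U where
  toFun g := (ρ g).restrict (hU g)
  map_one' := by
    ext w
    show ((ρ 1) (w : T)) = w
    rw [map_one]
    rfl
  map_mul' := by
    intro g h
    ext w
    show ((ρ (g * h)) (w : T)) = (ρ g) ((ρ h) (w : T))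
    rw [map_mul]
    rfl

@[simp] theorem S30LAT_res_apply (U : Submodule 𝒪 T) (hU : ∀ g : G, ∀ w ∈ U, ρ g w ∈ U)
    (g : G) (w : U) : ((S30LAT_res ρ U hU g w : U) : T) = ρ g (w : T) := rfl

theorem S30LAT_res_rel (U : Submodule 𝒪 T) (hU : ∀ g : G, ∀ w ∈ U, ρ g w ∈ U) (g : G) (t δ : 𝒪)
    (h : ρ g * ρ g - t • ρ g + δ • (1 : Module.End 𝒪 T) = 0) :
    S30LAT_res ρ U hU g * S30LAT_res ρ U hU g - t • S30LAT_res ρ U hU g
      + δ • (1 : Module.End 𝒪 U) = 0 := by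
  ext w
  have h1 := congrArg (fun f : Module.End 𝒪 T => f (w : T)) h
  simp only [LinearMap.add_apply, LinearMap.sub_apply, LinearMap.smul_apply,
    Module.End.mul_apply, Module.End.one_apply, LinearMap.zero_apply] at h1
  simp only [LinearMap.add_apply, LinearMap.sub_apply, LinearMap.smul_apply,
    Module.End.mul_apply, Module.End.one_apply, LinearMap.zero_apply,
    Submodule.coe_add, Submodule.coe_sub, Submodule.coe_smul, Submodule.coe_zero,
    S30LAT_res_apply]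
  exact h1

/-- Congruences restrict to saturated submodules. -/
theorem S30LAT_res_congr (U : Submodule 𝒪 T) (hU : ∀ g : G, ∀ w ∈ U, ρ g w ∈ U)
    (hsat : S30LAT_Sat U) (g : G) (a : 𝒪) (hx : ∀ x : T, ∃ y : T, ρ g x - x = a • y) (x : U) :
    ∃ y : U, S30LAT_res ρ U hU g x - x = a • y := by
  obtain ⟨y, hy⟩ := hx (x : T)
  by_cases ha : a = 0
  · refine ⟨0, ?_⟩
    apply Subtype.ext
    rw [ha, zero_smul] at hy
    rw [smul_zero]
    exact hy
  · have hyU : y ∈ U := by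
      apply hsat a y ha
      rw [← hy]
      exact U.sub_mem (hU g _ x.2) x.2
    refine ⟨⟨y, hyU⟩, ?_⟩
    apply Subtype.ext
    exact hy

end Res

/-! ### The main theorem -/

section Main

universe u𝒪 uG uT

/-- Induction on the rank, along saturated stable submodules. -/
theorem S30LAT_aux {𝒪 : Type u𝒪} [CommRing 𝒪] [IsDomain 𝒪] [IsPrincipalIdealRing 𝒪] [CharZero 𝒪]
    {G : Type uG} [Group G] (d : G →* 𝒪ˣ) (t : G → 𝒪)
    (c : G) (hc : c * c = 1) (hdc : ((d c : 𝒪ˣ) : 𝒪) = -1) (n : ℕ) :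
    ∀ (T : Type uT) [AddCommGroup T] [Module 𝒪 T] [Module.Free 𝒪 T] [Module.Finite 𝒪 T]
      [Nontrivial T] (ρ : G →* Module.End 𝒪 T), Module.finrank 𝒪 T = n →
      (∀ g : G, ρ g * ρ g - t g • ρ g + ((d g : 𝒪ˣ) : 𝒪) • (1 : Module.End 𝒪 T) = 0) →
      ∃ ρ' : G →* Module.End 𝒪 (Fin 2 → 𝒪), S30LAT_Concl ρ d t ρ' := by
  induction n using Nat.strong_induction_on with
  | _ n ih =>
    intro T _ _ _ _ _ ρ hn hE
    by_cases hirr : S30LAT_Irr ρ
    · exact S30LAT_irr_case ρ d t hE hirr c hc hdc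
    · unfold S30LAT_Irr at hirr
      push Not at hirr
      obtain ⟨U, hU, hsat, hbot, htop⟩ := hirr
      have hlt : Module.finrank 𝒪 U < n := by
        rw [← hn]
        exact S30LAT_finrank_lt hsat htop
      haveI : Nontrivial U := Submodule.nontrivial_iff_ne_bot.2 hbot
      obtain ⟨ρ', h1, h2⟩ := ih _ hlt U (S30LAT_res ρ U hU) rfl
        (fun g => S30LAT_res_rel ρ U hU g (t g) _ (hE g))
      exact ⟨ρ', h1, fun g a hx hd => h2 g a (S30LAT_res_congr ρ U hU hsat g a hx) hd⟩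

/-- **P9a, the odd (R2) argument for lattices.** -/
theorem S30LAT_main {𝒪 : Type*} [CommRing 𝒪] [IsDomain 𝒪] [IsPrincipalIdealRing 𝒪] [CharZero 𝒪]
    {G : Type*} [Group G]
    {T : Type*} [AddCommGroup T] [Module 𝒪 T] [Module.Free 𝒪 T] [Module.Finite 𝒪 T] [Nontrivial T]
    (ρ : G →* Module.End 𝒪 T) (d : G →* 𝒪ˣ)
    (hq : ∀ g : G, ∃ t : 𝒪,
      ρ g * ρ g - t • ρ g + ((d g : 𝒪ˣ) : 𝒪) • (1 : Module.End 𝒪 T) = 0)
    (c : G) (hc : c * c = 1) (hdc : ((d c : 𝒪ˣ) : 𝒪) = -1) :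
    ∃ ρ' : G →* Module.End 𝒪 (Fin 2 → 𝒪),
      (∀ (g : G) (t : 𝒪),
        ρ g * ρ g - t • ρ g + ((d g : 𝒪ˣ) : 𝒪) • (1 : Module.End 𝒪 T) = 0 →
        LinearMap.charpoly (ρ' g) = X ^ 2 - C t * X + C ((d g : 𝒪ˣ) : 𝒪)) ∧
      (∀ (g : G) (a : 𝒪), (∀ x : T, ∃ y : T, ρ g x - x = a • y) →
        (∃ u : 𝒪, ((d g : 𝒪ˣ) : 𝒪) - 1 = a * u) →
        ∀ v : Fin 2 → 𝒪, ∃ w : Fin 2 → 𝒪, ρ' g v - v = a • w) ∧
      (∀ g : G, ρ g = 1 → d g = 1 → ρ' g = 1) := by
  choose t ht using hq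
  obtain ⟨ρ', h1, h2⟩ := S30LAT_aux d t c hc hdc (Module.finrank 𝒪 T) T ρ rfl ht
  refine ⟨ρ', fun g t' ht' => ?_, h2, fun g hg hd => ?_⟩
  · -- uniqueness of `t`
    have hu : ρ g * ρ g⁻¹ = 1 := by rw [← map_mul, mul_inv_cancel, map_one]
    have h3 : (t g - t') • ρ g = 0 := by
      have : (t g - t') • ρ g = (ρ g * ρ g - t' • ρ g + ((d g : 𝒪ˣ) : 𝒪) • (1 : Module.End 𝒪 T))
          - (ρ g * ρ g - t g • ρ g + ((d g : 𝒪ˣ) : 𝒪) • (1 : Module.End 𝒪 T)) := by module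
      rw [this, ht g, ht', sub_self]
    have h4 : (t g - t') • (1 : Module.End 𝒪 T) = (0 : 𝒪) • (1 : Module.End 𝒪 T) := by
      have h5 := congrArg (fun f : Module.End 𝒪 T => f * ρ g⁻¹) h3
      simp only [smul_mul_assoc, hu, zero_mul] at h5
      rw [h5, zero_smul]
    have h6 : t g = t' := sub_eq_zero.1 (S30LAT_smul_one_inj h4)
    rw [h1 g, h6]
  · refine LinearMap.ext fun v => ?_
    have hx : ∀ x : T, ∃ y : T, ρ g x - x = (0 : 𝒪) • y := fun x => ⟨0, by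
      rw [hg, Module.End.one_apply, sub_self, smul_zero]⟩
    have hd' : ∃ u : 𝒪, ((d g : 𝒪ˣ) : 𝒪) - 1 = 0 * u :=
      ⟨0, by rw [hd, Units.val_one, sub_self, zero_mul]⟩
    obtain ⟨w, hw⟩ := h2 g 0 hx hd' v
    rw [zero_smul, sub_eq_zero] at hw
    rw [hw]
    rfl

end Main

/-! ### Packaging as a `GaloisRepAdic` -/

section Galois

variable {𝒪 : Type} [CommRing 𝒪] [IsDomain 𝒪] [IsDiscreteValuationRing 𝒪]

/-- In a discrete valuation ring, `𝔪 ^ n • ⊤` is the set of multiples of `ϖ ^ n`. -/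
theorem S30LAT_mem_pow_smul_top {V : Type*} [AddCommGroup V] [Module 𝒪 V] {ϖ : 𝒪}
    (hϖ : Irreducible ϖ) (n : ℕ) (v : V) :
    v ∈ (IsLocalRing.maximalIdeal 𝒪 ^ n) • (⊤ : Submodule 𝒪 V) ↔ ∃ y : V, v = ϖ ^ n • y := by
  rw [hϖ.maximalIdeal_eq, Ideal.span_singleton_pow, Submodule.ideal_span_singleton_smul,
    Submodule.mem_smul_pointwise_iff_exists]
  constructor
  · rintro ⟨y, -, rfl⟩
    exact ⟨y, rfl⟩
  · rintro ⟨y, rfl⟩
    exact ⟨y, Submodule.mem_top, rfl⟩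

theorem S30LAT_mem_pow {ϖ : 𝒪} (hϖ : Irreducible ϖ) (n : ℕ) (x : 𝒪) :
    x ∈ IsLocalRing.maximalIdeal 𝒪 ^ n ↔ ∃ u : 𝒪, x = ϖ ^ n * u := by
  rw [hϖ.maximalIdeal_eq, Ideal.span_singleton_pow, Ideal.mem_span_singleton']
  constructor
  · rintro ⟨u, rfl⟩
    exact ⟨u, mul_comm _ _⟩
  · rintro ⟨u, rfl⟩
    exact ⟨u, mul_comm _ _⟩

/-- **P9a, packaged.** From a continuous action of `G_ℚ` on a nonzero finite free module `T`
over a discrete valuation ring of characteristic zero satisfying quadratic relations with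
constant terms given by a continuous character `d` which takes the value `-1` on an involution,
one gets a `GaloisRepAdic` with the expected characteristic polynomials; it is trivial on every
`σ` which acts trivially on `T` and has `d σ = 1`. -/
theorem S30LAT_galoisRepAdic [CharZero 𝒪]
    {T : Type} [AddCommGroup T] [Module 𝒪 T] [Module.Free 𝒪 T] [Module.Finite 𝒪 T] [Nontrivial T]
    (ρ : (AlgebraicClosure ℚ ≃ₐ[ℚ] AlgebraicClosure ℚ) →* Module.End 𝒪 T)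
    (d : (AlgebraicClosure ℚ ≃ₐ[ℚ] AlgebraicClosure ℚ) →* 𝒪ˣ)
    (hq : ∀ g, ∃ t : 𝒪,
      ρ g * ρ g - t • ρ g + ((d g : 𝒪ˣ) : 𝒪) • (1 : Module.End 𝒪 T) = 0)
    (c : AlgebraicClosure ℚ ≃ₐ[ℚ] AlgebraicClosure ℚ) (hc : c * c = 1)
    (hdc : ((d c : 𝒪ˣ) : 𝒪) = -1)
    (hcont : GaloisActionIsAdicContinuous 𝒪 ρ)
    (hdcont : ∀ n : ℕ, ∃ L : IntermediateField ℚ (AlgebraicClosure ℚ), FiniteDimensional ℚ L ∧
      ∀ σ : AlgebraicClosure ℚ ≃ₐ[ℚ] AlgebraicClosure ℚ, (∀ x ∈ L, σ x = x) →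
        ((d σ : 𝒪ˣ) : 𝒪) - 1 ∈ IsLocalRing.maximalIdeal 𝒪 ^ n) :
    ∃ R : GaloisRepAdic 𝒪,
      (∀ (g : AlgebraicClosure ℚ ≃ₐ[ℚ] AlgebraicClosure ℚ) (t : 𝒪),
        ρ g * ρ g - t • ρ g + ((d g : 𝒪ˣ) : 𝒪) • (1 : Module.End 𝒪 T) = 0 →
        LinearMap.charpoly (R.ρ g) = X ^ 2 - C t * X + C ((d g : 𝒪ˣ) : 𝒪)) ∧
      (∀ g : AlgebraicClosure ℚ ≃ₐ[ℚ] AlgebraicClosure ℚ, ρ g = 1 → d g = 1 → R.ρ g = 1) := by
  obtain ⟨ρ', h1, h2, h3⟩ := S30LAT_main ρ d hq c hc hdc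
  obtain ⟨ϖ, hϖ⟩ := IsDiscreteValuationRing.exists_irreducible 𝒪
  refine ⟨{ V := Fin 2 → 𝒪
            finrank_eq := by simp
            ρ := ρ'
            isAdicContinuous := ?_ }, h1, h3⟩
  intro n
  obtain ⟨L1, hL1, hρ⟩ := hcont n
  obtain ⟨L2, hL2, hd⟩ := hdcont n
  refine ⟨L1 ⊔ L2, IntermediateField.finiteDimensional_sup L1 L2, fun σ hσ v => ?_⟩
  have hσ1 : ∀ x ∈ L1, σ x = x := fun x hx => hσ x ((le_sup_left : L1 ≤ L1 ⊔ L2) hx)
  have hσ2 : ∀ x ∈ L2, σ x = x := fun x hx => hσ x ((le_sup_right : L2 ≤ L1 ⊔ L2) hx)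
  rw [S30LAT_mem_pow_smul_top hϖ]
  refine h2 σ (ϖ ^ n) (fun x => ?_) ?_ v
  · exact (S30LAT_mem_pow_smul_top hϖ n _).1 (hρ σ hσ1 x)
  · exact (S30LAT_mem_pow hϖ n _).1 (hd σ hσ2)

end Galois

end Fermat.Agent.S30_helper19_LATTICE
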