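import Fermat.Agent.S30_helper12_Contracts
import Fermat.Agent.S30_helper19_LATTICE

/-!
# S30, piece P9 (abstract wiring): the contract `S30_AW_statement`

`S30_AW_statement 𝒪` is `S30LAT_galoisRepAdic` (piece P9a) up to the order of the hypotheses.
-/

set_option autoImplicit false

namespace Fermat.Agent.S30_helper19_AW

open Fermat.Agent.S30_helper12_Contracts Fermat.Agent.S30_helper19_LATTICE

/-- **P9, abstract wiring.** -/
theorem S30LAT_AW (𝒪 : Type) [CommRing 𝒪] [IsDomain 𝒪] [IsDiscreteValuationRing 𝒪]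
    [IsAdicComplete (IsLocalRing.maximalIdeal 𝒪) 𝒪] [CharZero 𝒪] : S30_AW_statement 𝒪 := by
  intro E _ _ _ _ _ r d c hcont hdcont hc hdc hq
  obtain ⟨R, h1, h2⟩ := S30LAT_galoisRepAdic r d hq c hc hdc hcont hdcont
  exact ⟨R, h2, h1⟩

end Fermat.Agent.S30_helper19_AW
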