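import Mathlib
import Fermat.Prelude.Def_EllipticCurve_FrobeniusTrace
import Fermat.Prelude.Def_FLTPrelim_Ramification
import Fermat.Agent.G_helper9_FROBDENS

set_option autoImplicit false
set_option linter.unusedSectionVars false
set_option linter.unusedVariables false
set_option linter.deprecated false
set_option linter.style.haveILetI false

/-! # S30, piece P7 DENSITY-LIMIT (helper9)

For an adic-continuous action `ρ` of `G_ℚ` on a finite free `ℤ_p`-module `Λ` with Hecke operators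
`T ℓ` in a subalgebra `B ⊆ End Λ` such that every Frobenius lift `σ` at `ℓ ∉ S` satisfies the
Eichler–Shimura relation `σ² - T_ℓ σ + ℓ = 0`, every `g ∈ G_ℚ` satisfies
`ρ g + d(g) ρ g⁻¹ ∈ B` (`d` the cyclotomic character).

Proof: Frobenius density (G9), Dickson polynomials, Krull's intersection theorem.
-/

namespace Fermat.Agent.S30_helper9_P7

section Dickson

variable {R : Type*} [CommRing R] {E : Type*} [Ring E] [Algebra R E]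

/-- Dickson polynomials `D_b(T, ℓ)` evaluated in an algebra: `D_0 = 2`, `D_1 = T`,
`D_{b+2} = T D_{b+1} - ℓ D_b`. -/
noncomputable def S30P7_dickson (T : E) (l : R) : ℕ → E
  | 0 => 2
  | 1 => T
  | (b + 2) => T * S30P7_dickson T l (b + 1) - l • S30P7_dickson T l b

theorem S30P7_dickson_zero (T : E) (l : R) : S30P7_dickson T l 0 = 2 := by
  simp [S30P7_dickson]

theorem S30P7_dickson_one (T : E) (l : R) : S30P7_dickson T l 1 = T := by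
  simp [S30P7_dickson]

theorem S30P7_dickson_succ_succ (T : E) (l : R) (b : ℕ) :
    S30P7_dickson T l (b + 2) = T * S30P7_dickson T l (b + 1) - l • S30P7_dickson T l b := by
  simp [S30P7_dickson]

theorem S30P7_dickson_mem (B : Subalgebra R E) {T : E} (hT : T ∈ B) (l : R) (b : ℕ) :
    S30P7_dickson T l b ∈ B := by
  induction b using Nat.strong_induction_on with
  | _ b ih =>
    match b, ih with
    | 0, _ =>
      rw [S30P7_dickson_zero]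
      have := B.add_mem B.one_mem B.one_mem
      rwa [one_add_one_eq_two] at this
    | 1, _ => rw [S30P7_dickson_one]; exact hT
    | (b + 2), ih =>
      rw [S30P7_dickson_succ_succ]
      exact B.sub_mem (B.mul_mem hT (ih (b + 1) (by omega))) (B.smul_mem (ih b (by omega)) l)

/-- `X^b + Y^b = D_b(X + Y, XY)` for commuting `X`, `Y` with `X Y = ℓ`. -/
theorem S30P7_pow_add_pow (X Y : E) (l : R) (hXY : X * Y = l • (1 : E)) (hcomm : X * Y = Y * X)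
    (b : ℕ) : X ^ b + Y ^ b = S30P7_dickson (X + Y) l b := by
  induction b using Nat.strong_induction_on with
  | _ b ih =>
    match b, ih with
    | 0, _ => rw [S30P7_dickson_zero, pow_zero, pow_zero]; norm_num
    | 1, _ => rw [S30P7_dickson_one, pow_one, pow_one]
    | (b + 2), ih =>
      rw [S30P7_dickson_succ_succ, ← ih (b + 1) (by omega), ← ih b (by omega)]
      have hYX : Y * X = l • (1 : E) := by rw [← hcomm, hXY]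
      have h1 : Y * X ^ (b + 1) = l • X ^ b := by
        rw [pow_succ', ← mul_assoc, hYX, smul_mul_assoc, one_mul]
      have h2 : X * Y ^ (b + 1) = l • Y ^ b := by
        rw [pow_succ', ← mul_assoc, hXY, smul_mul_assoc, one_mul]
      have h3 : X * X ^ (b + 1) = X ^ (b + 2) := by rw [← pow_succ']
      have h4 : Y * Y ^ (b + 1) = Y ^ (b + 2) := by rw [← pow_succ']
      rw [add_mul, mul_add, mul_add, h1, h2, h3, h4, smul_add]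
      abel

/-- congruence modulo `π` in an algebra -/
def S30P7_Cong (π : R) (x y : E) : Prop := ∃ e : E, x - y = π • e

theorem S30P7_Cong.refl (π : R) (x : E) : S30P7_Cong π x x := ⟨0, by simp⟩

theorem S30P7_Cong.add {π : R} {x y x' y' : E} (h : S30P7_Cong π x y) (h' : S30P7_Cong π x' y') :
    S30P7_Cong π (x + x') (y + y') := by
  obtain ⟨e, he⟩ := h
  obtain ⟨e', he'⟩ := h'
  refine ⟨e + e', ?_⟩
  rw [smul_add, ← he, ← he']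
  abel

theorem S30P7_Cong.mul {π : R} {x y x' y' : E} (h : S30P7_Cong π x y) (h' : S30P7_Cong π x' y') :
    S30P7_Cong π (x * x') (y * y') := by
  obtain ⟨e, he⟩ := h
  obtain ⟨e', he'⟩ := h'
  refine ⟨e * x' + y * e', ?_⟩
  rw [smul_add, ← smul_mul_assoc, ← mul_smul_comm, ← he, ← he']
  noncomm_ring

theorem S30P7_Cong.smul {π : R} {r r' : R} {x y : E} (hr : ∃ u : R, r - r' = π * u)
    (h : S30P7_Cong π x y) : S30P7_Cong π (r • x) (r' • y) := by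
  obtain ⟨u, hu⟩ := hr
  obtain ⟨e, he⟩ := h
  refine ⟨u • x + r' • e, ?_⟩
  have h1 : r • x - r' • y = (r - r') • x + r' • (x - y) := by
    rw [sub_smul, smul_sub]; abel
  rw [h1, hu, he, smul_add, mul_smul, smul_comm r' π e]

end Dickson



section Krull

variable {p : ℕ} [Fact p.Prime] {E : Type*} [Ring E] [Algebra ℤ_[p] E] [Module.Finite ℤ_[p] E]

/-- A subalgebra of a finite `ℤ_p`-algebra is `p`-adically closed (Krull). -/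
theorem S30P7_mem_of_forall_cong (B : Subalgebra ℤ_[p] E) (τ : E)
    (h : ∀ n : ℕ, ∃ t ∈ B, S30P7_Cong ((p : ℤ_[p]) ^ n) τ t) : τ ∈ B := by
  set I : Ideal ℤ_[p] := Ideal.span {(p : ℤ_[p])} with hI
  have hItop : I ≠ ⊤ := by
    rw [hI, Ne, Ideal.span_singleton_eq_top]
    exact PadicInt.p_nonunit
  have hkrull := Ideal.iInf_pow_smul_eq_bot_of_isLocalRing
    (M := E ⧸ (Subalgebra.toSubmodule B)) I hItop
  have hmem : (Submodule.Quotient.mk τ : E ⧸ (Subalgebra.toSubmodule B)) ∈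
      (⨅ i : ℕ, I ^ i • (⊤ : Submodule ℤ_[p] (E ⧸ (Subalgebra.toSubmodule B)))) := by
    rw [Submodule.mem_iInf]
    intro n
    obtain ⟨t, ht, e, he⟩ := h n
    have h1 : (Submodule.Quotient.mk τ : E ⧸ (Subalgebra.toSubmodule B)) =
        ((p : ℤ_[p]) ^ n) • Submodule.Quotient.mk e := by
      rw [← Submodule.Quotient.mk_smul, ← he, Submodule.Quotient.mk_sub]
      have : (Submodule.Quotient.mk t : E ⧸ (Subalgebra.toSubmodule B)) = 0 :=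
        (Submodule.Quotient.mk_eq_zero _).mpr ht
      rw [this, sub_zero]
    rw [h1]
    exact Submodule.smul_mem_smul (Ideal.pow_mem_pow (Ideal.mem_span_singleton_self _) n)
      Submodule.mem_top
  rw [hkrull, Submodule.mem_bot, Submodule.Quotient.mk_eq_zero] at hmem
  exact hmem

end Krull

section Free

variable {R : Type*} [CommRing R] {Λ : Type*} [AddCommGroup Λ] [Module R Λ] [Module.Free R Λ]

/-- an endomorphism of a free module with values in `π Λ` is divisible by `π` -/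
theorem S30P7_exists_smul_eq (π : R) (φ : Module.End R Λ) (h : ∀ v : Λ, ∃ w : Λ, φ v = π • w) :
    ∃ ψ : Module.End R Λ, φ = π • ψ := by
  classical
  let b := Module.Free.chooseBasis R Λ
  choose w hw using fun i => h (b i)
  refine ⟨b.constr R w, ?_⟩
  apply b.ext
  intro i
  rw [LinearMap.smul_apply, Module.Basis.constr_basis, hw i]

end Free

section Main

open Fermat.Agent.G_helper9_FROBDENS

variable {p : ℕ} [Fact p.Prime] {Λ : Type} [AddCommGroup Λ] [Module ℤ_[p] Λ]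
  [Module.Free ℤ_[p] Λ] [Module.Finite ℤ_[p] Λ]

/-- **P7, level `n`**: `ρ g + d(g) ρ g⁻¹` is congruent mod `p^n` to an element of `B`. -/
theorem S30P7_level
    (ρ : (AlgebraicClosure ℚ ≃ₐ[ℚ] AlgebraicClosure ℚ) →* Module.End ℤ_[p] Λ)
    (d : (AlgebraicClosure ℚ ≃ₐ[ℚ] AlgebraicClosure ℚ) →* ℤ_[p]ˣ)
    (S : Finset ℕ) (T : ℕ → Module.End ℤ_[p] Λ)
    (B : Subalgebra ℤ_[p] (Module.End ℤ_[p] Λ))
    (hTB : ∀ ℓ : ℕ, ℓ.Prime → ℓ ∉ S → T ℓ ∈ B)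
    (hcont : ∀ n : ℕ, ∃ L : IntermediateField ℚ (AlgebraicClosure ℚ), FiniteDimensional ℚ L ∧
      ∀ σ : AlgebraicClosure ℚ ≃ₐ[ℚ] AlgebraicClosure ℚ, (∀ x ∈ L, σ x = x) →
        ∀ v : Λ, ∃ w : Λ, ρ σ v - v = (p : ℤ_[p]) ^ n • w)
    (hdcont : ∀ n : ℕ, ∃ L : IntermediateField ℚ (AlgebraicClosure ℚ), FiniteDimensional ℚ L ∧
      ∀ σ : AlgebraicClosure ℚ ≃ₐ[ℚ] AlgebraicClosure ℚ, (∀ x ∈ L, σ x = x) →
        ∃ u : ℤ_[p], ((d σ : ℤ_[p]ˣ) : ℤ_[p]) - 1 = (p : ℤ_[p]) ^ n * u)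
    (hES : ∀ ℓ : ℕ, ℓ.Prime → ℓ ∉ S → ∀ A : ValuationSubring (AlgebraicClosure ℚ),
      A.LiesOverPrime ℓ → ∀ σ : AlgebraicClosure ℚ ≃ₐ[ℚ] AlgebraicClosure ℚ,
        A.IsFrobeniusAt σ ℓ →
          ρ σ * ρ σ - T ℓ * ρ σ + (ℓ : ℤ_[p]) • (1 : Module.End ℤ_[p] Λ) = 0 ∧
          T ℓ * ρ σ = ρ σ * T ℓ ∧ ((d σ : ℤ_[p]ˣ) : ℤ_[p]) = ℓ)
    (g : AlgebraicClosure ℚ ≃ₐ[ℚ] AlgebraicClosure ℚ) (n : ℕ) :
    ∃ t ∈ B, S30P7_Cong ((p : ℤ_[p]) ^ n) (ρ g + ((d g : ℤ_[p]ˣ) : ℤ_[p]) • ρ g⁻¹) t := by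
  obtain ⟨L₁, hL₁, h₁⟩ := hcont n
  obtain ⟨L₂, hL₂, h₂⟩ := hdcont n
  haveI := hL₁
  haveI := hL₂
  haveI : FiniteDimensional ℚ (L₁ ⊔ L₂ : IntermediateField ℚ (AlgebraicClosure ℚ)) :=
    IntermediateField.finiteDimensional_sup L₁ L₂
  obtain ⟨ℓ, A, σ, b, hℓ, hℓS, hA, hσ, hg⟩ := PG_frobenius_density (L₁ ⊔ L₂) g S
  obtain ⟨hrel, hcomm, hdσ⟩ := hES ℓ hℓ hℓS A hA σ hσ
  -- the error term `h := (σ^b)⁻¹ g` fixes `L₁ ⊔ L₂`
  set h : AlgebraicClosure ℚ ≃ₐ[ℚ] AlgebraicClosure ℚ := (σ ^ b)⁻¹ * g with hh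
  have hfix : ∀ x ∈ (L₁ ⊔ L₂ : IntermediateField ℚ (AlgebraicClosure ℚ)), h x = x := by
    intro x hx
    rw [hh, AlgEquiv.mul_apply, hg x hx]
    exact (σ ^ b).symm_apply_apply x
  have hfix' : ∀ x ∈ (L₁ ⊔ L₂ : IntermediateField ℚ (AlgebraicClosure ℚ)), h⁻¹ x = x := by
    intro x hx
    have := hfix x hx
    calc h⁻¹ x = h⁻¹ (h x) := by rw [this]
      _ = x := h.symm_apply_apply x
  have hg_eq : g = σ ^ b * h := by rw [hh]; group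
  have hginv_eq : g⁻¹ = h⁻¹ * (σ⁻¹) ^ b := by rw [hg_eq]; group
  have hle₁ : L₁ ≤ L₁ ⊔ L₂ := le_sup_left
  have hle₂ : L₂ ≤ L₁ ⊔ L₂ := le_sup_right
  -- congruences for the error term
  have c1 : S30P7_Cong ((p : ℤ_[p]) ^ n) (ρ h) 1 := by
    obtain ⟨ψ, hψ⟩ := S30P7_exists_smul_eq ((p : ℤ_[p]) ^ n) (ρ h - 1)
      (fun v => by
        obtain ⟨w, hw⟩ := h₁ h (fun x hx => hfix x (hle₁ hx)) v
        exact ⟨w, by rw [LinearMap.sub_apply, Module.End.one_apply, hw]⟩)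
    exact ⟨ψ, hψ⟩
  have c2 : S30P7_Cong ((p : ℤ_[p]) ^ n) (ρ h⁻¹) 1 := by
    obtain ⟨ψ, hψ⟩ := S30P7_exists_smul_eq ((p : ℤ_[p]) ^ n) (ρ h⁻¹ - 1)
      (fun v => by
        obtain ⟨w, hw⟩ := h₁ h⁻¹ (fun x hx => hfix' x (hle₁ hx)) v
        exact ⟨w, by rw [LinearMap.sub_apply, Module.End.one_apply, hw]⟩)
    exact ⟨ψ, hψ⟩
  obtain ⟨u₁, hu₁⟩ := h₂ h (fun x hx => hfix x (hle₂ hx))
  -- the Frobenius side
  set X : Module.End ℤ_[p] Λ := ρ σ with hX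
  set Y : Module.End ℤ_[p] Λ := T ℓ - X with hY
  have hXY : X * Y = (ℓ : ℤ_[p]) • (1 : Module.End ℤ_[p] Λ) := by
    have : X * Y = -(X * X - T ℓ * X) := by
      rw [hY, mul_sub, ← hcomm]; abel
    rw [this]
    have h0 : X * X - T ℓ * X = -((ℓ : ℤ_[p]) • (1 : Module.End ℤ_[p] Λ)) :=
      eq_neg_of_add_eq_zero_left hrel
    rw [h0, neg_neg]
  have hYX : X * Y = Y * X := by
    rw [hY, mul_sub, sub_mul, hcomm]
  have hsum : X + Y = T ℓ := by rw [hY]; abel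
  have hD : X ^ b + Y ^ b = S30P7_dickson (T ℓ) (ℓ : ℤ_[p]) b := by
    rw [← hsum]; exact S30P7_pow_add_pow X Y (ℓ : ℤ_[p]) hXY hYX b
  -- the inverse of `X`
  set u : ℤ_[p] := (((d σ)⁻¹ : ℤ_[p]ˣ) : ℤ_[p]) with hu
  have hℓu : (ℓ : ℤ_[p]) * u = 1 := by
    rw [← hdσ, hu, ← Units.val_mul, mul_inv_cancel, Units.val_one]
  have hXinv : ρ σ⁻¹ = u • Y := by
    have h1 : ρ σ⁻¹ * X = 1 := by rw [hX, ← map_mul, inv_mul_cancel, map_one]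
    have h2 : X * (u • Y) = 1 := by
      rw [mul_smul_comm, hXY, smul_smul, mul_comm, hℓu, one_smul]
    calc ρ σ⁻¹ = ρ σ⁻¹ * (X * (u • Y)) := by rw [h2, mul_one]
      _ = (ρ σ⁻¹ * X) * (u • Y) := by rw [mul_assoc]
      _ = u • Y := by rw [h1, one_mul]
  have hpowinv : ((ℓ : ℤ_[p]) ^ b) • (ρ σ⁻¹) ^ b = Y ^ b := by
    rw [hXinv, smul_pow, smul_smul, ← mul_pow, hℓu, one_pow, one_smul]
  -- put everything together
  refine ⟨S30P7_dickson (T ℓ) (ℓ : ℤ_[p]) b, S30P7_dickson_mem B (hTB ℓ hℓ hℓS) _ b, ?_⟩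
  rw [← hD]
  have e1 : ρ g = X ^ b * ρ h := by rw [hg_eq, map_mul, map_pow]
  have e2 : ρ g⁻¹ = ρ h⁻¹ * (ρ σ⁻¹) ^ b := by rw [hginv_eq, map_mul, map_pow]
  have e3 : ((d g : ℤ_[p]ˣ) : ℤ_[p]) = (ℓ : ℤ_[p]) ^ b * ((d h : ℤ_[p]ˣ) : ℤ_[p]) := by
    rw [hg_eq, map_mul, map_pow, Units.val_mul, Units.val_pow_eq_pow_val, hdσ]
  have k1 : S30P7_Cong ((p : ℤ_[p]) ^ n) (ρ g) (X ^ b) := by
    rw [e1]
    have := S30P7_Cong.mul (S30P7_Cong.refl ((p : ℤ_[p]) ^ n) (X ^ b)) c1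
    rwa [mul_one] at this
  have k2 : S30P7_Cong ((p : ℤ_[p]) ^ n) (((d g : ℤ_[p]ˣ) : ℤ_[p]) • ρ g⁻¹) (Y ^ b) := by
    rw [e2, e3, ← hpowinv]
    have hr : ∃ v : ℤ_[p], (ℓ : ℤ_[p]) ^ b * ((d h : ℤ_[p]ˣ) : ℤ_[p]) - (ℓ : ℤ_[p]) ^ b =
        (p : ℤ_[p]) ^ n * v := by
      refine ⟨(ℓ : ℤ_[p]) ^ b * u₁, ?_⟩
      have : (ℓ : ℤ_[p]) ^ b * ((d h : ℤ_[p]ˣ) : ℤ_[p]) - (ℓ : ℤ_[p]) ^ b =
          (ℓ : ℤ_[p]) ^ b * (((d h : ℤ_[p]ˣ) : ℤ_[p]) - 1) := by ring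
      rw [this, hu₁]; ring
    have hm := S30P7_Cong.mul c2 (S30P7_Cong.refl ((p : ℤ_[p]) ^ n) ((ρ σ⁻¹) ^ b))
    rw [one_mul] at hm
    exact S30P7_Cong.smul hr hm
  exact S30P7_Cong.add k1 k2

/-- **S30, P7 (DENSITY-LIMIT)**: `ρ g + d(g) ρ g⁻¹ ∈ B` for every `g ∈ G_ℚ`. -/
theorem S30P7_density_limit
    (ρ : (AlgebraicClosure ℚ ≃ₐ[ℚ] AlgebraicClosure ℚ) →* Module.End ℤ_[p] Λ)
    (d : (AlgebraicClosure ℚ ≃ₐ[ℚ] AlgebraicClosure ℚ) →* ℤ_[p]ˣ)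
    (S : Finset ℕ) (T : ℕ → Module.End ℤ_[p] Λ)
    (B : Subalgebra ℤ_[p] (Module.End ℤ_[p] Λ))
    (hTB : ∀ ℓ : ℕ, ℓ.Prime → ℓ ∉ S → T ℓ ∈ B)
    (hcont : ∀ n : ℕ, ∃ L : IntermediateField ℚ (AlgebraicClosure ℚ), FiniteDimensional ℚ L ∧
      ∀ σ : AlgebraicClosure ℚ ≃ₐ[ℚ] AlgebraicClosure ℚ, (∀ x ∈ L, σ x = x) →
        ∀ v : Λ, ∃ w : Λ, ρ σ v - v = (p : ℤ_[p]) ^ n • w)
    (hdcont : ∀ n : ℕ, ∃ L : IntermediateField ℚ (AlgebraicClosure ℚ), FiniteDimensional ℚ L ∧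
      ∀ σ : AlgebraicClosure ℚ ≃ₐ[ℚ] AlgebraicClosure ℚ, (∀ x ∈ L, σ x = x) →
        ∃ u : ℤ_[p], ((d σ : ℤ_[p]ˣ) : ℤ_[p]) - 1 = (p : ℤ_[p]) ^ n * u)
    (hES : ∀ ℓ : ℕ, ℓ.Prime → ℓ ∉ S → ∀ A : ValuationSubring (AlgebraicClosure ℚ),
      A.LiesOverPrime ℓ → ∀ σ : AlgebraicClosure ℚ ≃ₐ[ℚ] AlgebraicClosure ℚ,
        A.IsFrobeniusAt σ ℓ →
          ρ σ * ρ σ - T ℓ * ρ σ + (ℓ : ℤ_[p]) • (1 : Module.End ℤ_[p] Λ) = 0 ∧
          T ℓ * ρ σ = ρ σ * T ℓ ∧ ((d σ : ℤ_[p]ˣ) : ℤ_[p]) = ℓ)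
    (g : AlgebraicClosure ℚ ≃ₐ[ℚ] AlgebraicClosure ℚ) :
    ρ g + ((d g : ℤ_[p]ˣ) : ℤ_[p]) • ρ g⁻¹ ∈ B :=
  S30P7_mem_of_forall_cong B _ (fun n => S30P7_level ρ d S T B hTB hcont hdcont hES g n)

/-- P7 in the form of the route: a quadratic relation with linear coefficient in `B`. -/
theorem S30P7_exists_quadratic
    (ρ : (AlgebraicClosure ℚ ≃ₐ[ℚ] AlgebraicClosure ℚ) →* Module.End ℤ_[p] Λ)
    (d : (AlgebraicClosure ℚ ≃ₐ[ℚ] AlgebraicClosure ℚ) →* ℤ_[p]ˣ)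
    (S : Finset ℕ) (T : ℕ → Module.End ℤ_[p] Λ)
    (B : Subalgebra ℤ_[p] (Module.End ℤ_[p] Λ))
    (hTB : ∀ ℓ : ℕ, ℓ.Prime → ℓ ∉ S → T ℓ ∈ B)
    (hcont : ∀ n : ℕ, ∃ L : IntermediateField ℚ (AlgebraicClosure ℚ), FiniteDimensional ℚ L ∧
      ∀ σ : AlgebraicClosure ℚ ≃ₐ[ℚ] AlgebraicClosure ℚ, (∀ x ∈ L, σ x = x) →
        ∀ v : Λ, ∃ w : Λ, ρ σ v - v = (p : ℤ_[p]) ^ n • w)
    (hdcont : ∀ n : ℕ, ∃ L : IntermediateField ℚ (AlgebraicClosure ℚ), FiniteDimensional ℚ L ∧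
      ∀ σ : AlgebraicClosure ℚ ≃ₐ[ℚ] AlgebraicClosure ℚ, (∀ x ∈ L, σ x = x) →
        ∃ u : ℤ_[p], ((d σ : ℤ_[p]ˣ) : ℤ_[p]) - 1 = (p : ℤ_[p]) ^ n * u)
    (hES : ∀ ℓ : ℕ, ℓ.Prime → ℓ ∉ S → ∀ A : ValuationSubring (AlgebraicClosure ℚ),
      A.LiesOverPrime ℓ → ∀ σ : AlgebraicClosure ℚ ≃ₐ[ℚ] AlgebraicClosure ℚ,
        A.IsFrobeniusAt σ ℓ →
          ρ σ * ρ σ - T ℓ * ρ σ + (ℓ : ℤ_[p]) • (1 : Module.End ℤ_[p] Λ) = 0 ∧
          T ℓ * ρ σ = ρ σ * T ℓ ∧ ((d σ : ℤ_[p]ˣ) : ℤ_[p]) = ℓ)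
    (g : AlgebraicClosure ℚ ≃ₐ[ℚ] AlgebraicClosure ℚ) :
    ∃ t ∈ B, ρ g * ρ g - t * ρ g + ((d g : ℤ_[p]ˣ) : ℤ_[p]) • (1 : Module.End ℤ_[p] Λ) = 0 := by
  refine ⟨_, S30P7_density_limit ρ d S T B hTB hcont hdcont hES g, ?_⟩
  have h1 : ρ g⁻¹ * ρ g = 1 := by rw [← map_mul, inv_mul_cancel, map_one]
  rw [add_mul, smul_mul_assoc, h1]
  abel

end Main

end Fermat.Agent.S30_helper9_P7
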