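import Mathlib
import Fermat.Prelude.Def_GaloisRep_Adic
import Fermat.Prelude.Def_EllipticCurve_FrobeniusTrace
import Fermat.Prelude.Def_FLTPrelim_Ramification
import Fermat.Agent.G_helper9_FROBDENS
import Fermat.Agent.S30_helper9_P7
import Fermat.Agent.S30_helper12_Contracts

set_option autoImplicit false
set_option linter.unusedSectionVars false
set_option linter.unusedVariables false
set_option linter.deprecated false
set_option linter.style.haveILetI false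

/-! # S30, contract REL (= piece P7 in the shape of `S30_helper12_Contracts`) (helper9)

`S30_REL : S30_REL_statement 𝒪` for every discrete valuation ring `𝒪` (completeness and finiteness
of the residue field are not used): if the Frobenius lifts outside `S` satisfy
`σ² - a_ℓ σ + ℓ = 0` on a finite free `𝒪`-module with adic-continuous Galois action, then every
`g` satisfies `g² - t g + d(g) = 0` for some `t ∈ 𝒪`.

Also the general form `S30REL_density_limit` over a Noetherian local ring `R` with a non-unit `π`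
and an arbitrary subalgebra `B ⊆ End Λ` containing the Hecke operators.
-/

namespace Fermat.Agent.S30_helper9_REL

open Fermat.Agent.S30_helper9_P7 Fermat.Agent.G_helper9_FROBDENS
  Fermat.Agent.S30_helper12_Contracts

section Krull

variable {R : Type*} [CommRing R] [IsLocalRing R] [IsNoetherianRing R]
  {E : Type*} [Ring E] [Algebra R E] [Module.Finite R E]

/-- A subalgebra of a finite algebra over a Noetherian local ring is `π`-adically closed for every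
non-unit `π` (Krull's intersection theorem). -/
theorem S30REL_mem_of_forall_cong (π : R) (hπ : π ∈ IsLocalRing.maximalIdeal R)
    (B : Subalgebra R E) (τ : E)
    (h : ∀ n : ℕ, ∃ t ∈ B, S30P7_Cong (π ^ n) τ t) : τ ∈ B := by
  set I : Ideal R := Ideal.span {π} with hI
  have hItop : I ≠ ⊤ := by
    rw [hI, Ne, Ideal.span_singleton_eq_top]
    exact hπ
  have hkrull := Ideal.iInf_pow_smul_eq_bot_of_isLocalRing
    (M := E ⧸ (Subalgebra.toSubmodule B)) I hItop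
  have hmem : (Submodule.Quotient.mk τ : E ⧸ (Subalgebra.toSubmodule B)) ∈
      (⨅ i : ℕ, I ^ i • (⊤ : Submodule R (E ⧸ (Subalgebra.toSubmodule B)))) := by
    rw [Submodule.mem_iInf]
    intro n
    obtain ⟨t, ht, e, he⟩ := h n
    have h1 : (Submodule.Quotient.mk τ : E ⧸ (Subalgebra.toSubmodule B)) =
        (π ^ n) • Submodule.Quotient.mk e := by
      rw [← Submodule.Quotient.mk_smul, ← he, Submodule.Quotient.mk_sub]
      have : (Submodule.Quotient.mk t : E ⧸ (Subalgebra.toSubmodule B)) = 0 :=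
        (Submodule.Quotient.mk_eq_zero _).mpr ht
      rw [this, sub_zero]
    rw [h1]
    exact Submodule.smul_mem_smul (Ideal.pow_mem_pow (Ideal.mem_span_singleton_self _) n)
      Submodule.mem_top
  rw [hkrull, Submodule.mem_bot, Submodule.Quotient.mk_eq_zero] at hmem
  exact hmem

end Krull

section Main

variable {R : Type} [CommRing R] [IsLocalRing R] [IsNoetherianRing R]
  {Λ : Type} [AddCommGroup Λ] [Module R Λ] [Module.Free R Λ] [Module.Finite R Λ]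

/-- level `n` of the density argument, over a general ring -/
theorem S30REL_level (π : R)
    (ρ : (AlgebraicClosure ℚ ≃ₐ[ℚ] AlgebraicClosure ℚ) →* Module.End R Λ)
    (d : (AlgebraicClosure ℚ ≃ₐ[ℚ] AlgebraicClosure ℚ) →* Rˣ)
    (S : Finset ℕ) (T : ℕ → Module.End R Λ)
    (B : Subalgebra R (Module.End R Λ))
    (hTB : ∀ ℓ : ℕ, ℓ.Prime → ℓ ∉ S → T ℓ ∈ B)
    (hcont : ∀ n : ℕ, ∃ L : IntermediateField ℚ (AlgebraicClosure ℚ), FiniteDimensional ℚ L ∧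
      ∀ σ : AlgebraicClosure ℚ ≃ₐ[ℚ] AlgebraicClosure ℚ, (∀ x ∈ L, σ x = x) →
        ∀ v : Λ, ∃ w : Λ, ρ σ v - v = π ^ n • w)
    (hdcont : ∀ n : ℕ, ∃ L : IntermediateField ℚ (AlgebraicClosure ℚ), FiniteDimensional ℚ L ∧
      ∀ σ : AlgebraicClosure ℚ ≃ₐ[ℚ] AlgebraicClosure ℚ, (∀ x ∈ L, σ x = x) →
        ∃ u : R, ((d σ : Rˣ) : R) - 1 = π ^ n * u)
    (hES : ∀ ℓ : ℕ, ℓ.Prime → ℓ ∉ S → ∀ A : ValuationSubring (AlgebraicClosure ℚ),
      A.LiesOverPrime ℓ → ∀ σ : AlgebraicClosure ℚ ≃ₐ[ℚ] AlgebraicClosure ℚ,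
        A.IsFrobeniusAt σ ℓ →
          ρ σ * ρ σ - T ℓ * ρ σ + (ℓ : R) • (1 : Module.End R Λ) = 0 ∧
          T ℓ * ρ σ = ρ σ * T ℓ ∧ ((d σ : Rˣ) : R) = ℓ)
    (g : AlgebraicClosure ℚ ≃ₐ[ℚ] AlgebraicClosure ℚ) (n : ℕ) :
    ∃ t ∈ B, S30P7_Cong (π ^ n) (ρ g + ((d g : Rˣ) : R) • ρ g⁻¹) t := by
  obtain ⟨L₁, hL₁, h₁⟩ := hcont n
  obtain ⟨L₂, hL₂, h₂⟩ := hdcont n
  haveI := hL₁
  haveI := hL₂
  haveI : FiniteDimensional ℚ (L₁ ⊔ L₂ : IntermediateField ℚ (AlgebraicClosure ℚ)) :=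
    IntermediateField.finiteDimensional_sup L₁ L₂
  obtain ⟨ℓ, A, σ, b, hℓ, hℓS, hA, hσ, hg⟩ := PG_frobenius_density (L₁ ⊔ L₂) g S
  obtain ⟨hrel, hcomm, hdσ⟩ := hES ℓ hℓ hℓS A hA σ hσ
  set h : AlgebraicClosure ℚ ≃ₐ[ℚ] AlgebraicClosure ℚ := (σ ^ b)⁻¹ * g with hh
  have hfix : ∀ x ∈ (L₁ ⊔ L₂ : IntermediateField ℚ (AlgebraicClosure ℚ)), h x = x := by
    intro x hx
    rw [hh, AlgEquiv.mul_apply, hg x hx]
    exact (σ ^ b).symm_apply_apply x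
  have hfix' : ∀ x ∈ (L₁ ⊔ L₂ : IntermediateField ℚ (AlgebraicClosure ℚ)), h⁻¹ x = x := by
    intro x hx
    have := hfix x hx
    calc h⁻¹ x = h⁻¹ (h x) := by rw [this]
      _ = x := h.symm_apply_apply x
  have hg_eq : g = σ ^ b * h := by rw [hh]; group
  have hginv_eq : g⁻¹ = h⁻¹ * (σ⁻¹) ^ b := by rw [hg_eq]; group
  have hle₁ : L₁ ≤ L₁ ⊔ L₂ := le_sup_left
  have hle₂ : L₂ ≤ L₁ ⊔ L₂ := le_sup_right
  have c1 : S30P7_Cong (π ^ n) (ρ h) 1 := by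
    obtain ⟨ψ, hψ⟩ := S30P7_exists_smul_eq (π ^ n) (ρ h - 1)
      (fun v => by
        obtain ⟨w, hw⟩ := h₁ h (fun x hx => hfix x (hle₁ hx)) v
        exact ⟨w, by rw [LinearMap.sub_apply, Module.End.one_apply, hw]⟩)
    exact ⟨ψ, hψ⟩
  have c2 : S30P7_Cong (π ^ n) (ρ h⁻¹) 1 := by
    obtain ⟨ψ, hψ⟩ := S30P7_exists_smul_eq (π ^ n) (ρ h⁻¹ - 1)
      (fun v => by
        obtain ⟨w, hw⟩ := h₁ h⁻¹ (fun x hx => hfix' x (hle₁ hx)) v
        exact ⟨w, by rw [LinearMap.sub_apply, Module.End.one_apply, hw]⟩)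
    exact ⟨ψ, hψ⟩
  obtain ⟨u₁, hu₁⟩ := h₂ h (fun x hx => hfix x (hle₂ hx))
  set X : Module.End R Λ := ρ σ with hX
  set Y : Module.End R Λ := T ℓ - X with hY
  have hXY : X * Y = (ℓ : R) • (1 : Module.End R Λ) := by
    have : X * Y = -(X * X - T ℓ * X) := by
      rw [hY, mul_sub, ← hcomm]; abel
    rw [this]
    have h0 : X * X - T ℓ * X = -((ℓ : R) • (1 : Module.End R Λ)) :=
      eq_neg_of_add_eq_zero_left hrel
    rw [h0, neg_neg]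
  have hYX : X * Y = Y * X := by
    rw [hY, mul_sub, sub_mul, hcomm]
  have hsum : X + Y = T ℓ := by rw [hY]; abel
  have hD : X ^ b + Y ^ b = S30P7_dickson (T ℓ) (ℓ : R) b := by
    rw [← hsum]; exact S30P7_pow_add_pow X Y (ℓ : R) hXY hYX b
  set u : R := (((d σ)⁻¹ : Rˣ) : R) with hu
  have hℓu : (ℓ : R) * u = 1 := by
    rw [← hdσ, hu, ← Units.val_mul, mul_inv_cancel, Units.val_one]
  have hXinv : ρ σ⁻¹ = u • Y := by
    have h1 : ρ σ⁻¹ * X = 1 := by rw [hX, ← map_mul, inv_mul_cancel, map_one]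
    have h2 : X * (u • Y) = 1 := by
      rw [mul_smul_comm, hXY, smul_smul, mul_comm, hℓu, one_smul]
    calc ρ σ⁻¹ = ρ σ⁻¹ * (X * (u • Y)) := by rw [h2, mul_one]
      _ = (ρ σ⁻¹ * X) * (u • Y) := by rw [mul_assoc]
      _ = u • Y := by rw [h1, one_mul]
  have hpowinv : ((ℓ : R) ^ b) • (ρ σ⁻¹) ^ b = Y ^ b := by
    rw [hXinv, smul_pow, smul_smul, ← mul_pow, hℓu, one_pow, one_smul]
  refine ⟨S30P7_dickson (T ℓ) (ℓ : R) b, S30P7_dickson_mem B (hTB ℓ hℓ hℓS) _ b, ?_⟩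
  rw [← hD]
  have e1 : ρ g = X ^ b * ρ h := by rw [hg_eq, map_mul, map_pow]
  have e2 : ρ g⁻¹ = ρ h⁻¹ * (ρ σ⁻¹) ^ b := by rw [hginv_eq, map_mul, map_pow]
  have e3 : ((d g : Rˣ) : R) = (ℓ : R) ^ b * ((d h : Rˣ) : R) := by
    rw [hg_eq, map_mul, map_pow, Units.val_mul, Units.val_pow_eq_pow_val, hdσ]
  have k1 : S30P7_Cong (π ^ n) (ρ g) (X ^ b) := by
    rw [e1]
    have := S30P7_Cong.mul (S30P7_Cong.refl (π ^ n) (X ^ b)) c1
    rwa [mul_one] at this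
  have k2 : S30P7_Cong (π ^ n) (((d g : Rˣ) : R) • ρ g⁻¹) (Y ^ b) := by
    rw [e2, e3, ← hpowinv]
    have hr : ∃ v : R, (ℓ : R) ^ b * ((d h : Rˣ) : R) - (ℓ : R) ^ b = π ^ n * v := by
      refine ⟨(ℓ : R) ^ b * u₁, ?_⟩
      have : (ℓ : R) ^ b * ((d h : Rˣ) : R) - (ℓ : R) ^ b =
          (ℓ : R) ^ b * (((d h : Rˣ) : R) - 1) := by ring
      rw [this, hu₁]; ring
    have hm := S30P7_Cong.mul c2 (S30P7_Cong.refl (π ^ n) ((ρ σ⁻¹) ^ b))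
    rw [one_mul] at hm
    exact S30P7_Cong.smul hr hm
  exact S30P7_Cong.add k1 k2

/-- **density limit over a Noetherian local ring**: `ρ g + d(g) ρ g⁻¹ ∈ B`. -/
theorem S30REL_density_limit (π : R) (hπ : π ∈ IsLocalRing.maximalIdeal R)
    (ρ : (AlgebraicClosure ℚ ≃ₐ[ℚ] AlgebraicClosure ℚ) →* Module.End R Λ)
    (d : (AlgebraicClosure ℚ ≃ₐ[ℚ] AlgebraicClosure ℚ) →* Rˣ)
    (S : Finset ℕ) (T : ℕ → Module.End R Λ)
    (B : Subalgebra R (Module.End R Λ))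
    (hTB : ∀ ℓ : ℕ, ℓ.Prime → ℓ ∉ S → T ℓ ∈ B)
    (hcont : ∀ n : ℕ, ∃ L : IntermediateField ℚ (AlgebraicClosure ℚ), FiniteDimensional ℚ L ∧
      ∀ σ : AlgebraicClosure ℚ ≃ₐ[ℚ] AlgebraicClosure ℚ, (∀ x ∈ L, σ x = x) →
        ∀ v : Λ, ∃ w : Λ, ρ σ v - v = π ^ n • w)
    (hdcont : ∀ n : ℕ, ∃ L : IntermediateField ℚ (AlgebraicClosure ℚ), FiniteDimensional ℚ L ∧
      ∀ σ : AlgebraicClosure ℚ ≃ₐ[ℚ] AlgebraicClosure ℚ, (∀ x ∈ L, σ x = x) →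
        ∃ u : R, ((d σ : Rˣ) : R) - 1 = π ^ n * u)
    (hES : ∀ ℓ : ℕ, ℓ.Prime → ℓ ∉ S → ∀ A : ValuationSubring (AlgebraicClosure ℚ),
      A.LiesOverPrime ℓ → ∀ σ : AlgebraicClosure ℚ ≃ₐ[ℚ] AlgebraicClosure ℚ,
        A.IsFrobeniusAt σ ℓ →
          ρ σ * ρ σ - T ℓ * ρ σ + (ℓ : R) • (1 : Module.End R Λ) = 0 ∧
          T ℓ * ρ σ = ρ σ * T ℓ ∧ ((d σ : Rˣ) : R) = ℓ)
    (g : AlgebraicClosure ℚ ≃ₐ[ℚ] AlgebraicClosure ℚ) :
    ρ g + ((d g : Rˣ) : R) • ρ g⁻¹ ∈ B :=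
  S30REL_mem_of_forall_cong π hπ B _
    (fun n => S30REL_level π ρ d S T B hTB hcont hdcont hES g n)

end Main

section Contract

variable (𝒪 : Type) [CommRing 𝒪] [IsDomain 𝒪] [IsDiscreteValuationRing 𝒪]

theorem S30REL_mem_pow_iff {π : 𝒪} (hπ : Irreducible π) (n : ℕ) (x : 𝒪) :
    x ∈ IsLocalRing.maximalIdeal 𝒪 ^ n ↔ ∃ u : 𝒪, x = π ^ n * u := by
  rw [hπ.maximalIdeal_eq, Ideal.span_singleton_pow, Ideal.mem_span_singleton']
  constructor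
  · rintro ⟨a, ha⟩; exact ⟨a, by rw [← ha, mul_comm]⟩
  · rintro ⟨u, hu⟩; exact ⟨u, by rw [hu, mul_comm]⟩

theorem S30REL_mem_pow_smul_iff {π : 𝒪} (hπ : Irreducible π) (n : ℕ)
    {E : Type*} [AddCommGroup E] [Module 𝒪 E] (x : E) :
    x ∈ (IsLocalRing.maximalIdeal 𝒪 ^ n) • (⊤ : Submodule 𝒪 E) ↔ ∃ w : E, x = π ^ n • w := by
  rw [hπ.maximalIdeal_eq, Ideal.span_singleton_pow, Submodule.ideal_span_singleton_smul]
  constructor
  · intro h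
    obtain ⟨w, -, hw⟩ := (Submodule.mem_smul_pointwise_iff_exists _ _ _).mp h
    exact ⟨w, hw.symm⟩
  · rintro ⟨w, rfl⟩
    exact Submodule.smul_mem_pointwise_smul _ _ _ Submodule.mem_top

/-- **contract REL** of `S30_helper12_Contracts` (completeness and finiteness of the residue field
are not needed). -/
theorem S30REL_statement_of_dvr (E : Type) [AddCommGroup E] [Module 𝒪 E] [Module.Finite 𝒪 E]
    [Module.Free 𝒪 E]
    (r : (AlgebraicClosure ℚ ≃ₐ[ℚ] AlgebraicClosure ℚ) →* Module.End 𝒪 E)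
    (d : (AlgebraicClosure ℚ ≃ₐ[ℚ] AlgebraicClosure ℚ) →* 𝒪ˣ) (S : Finset ℕ) (a : ℕ → 𝒪)
    (hcont : GaloisActionIsAdicContinuous 𝒪 r)
    (hdcont : ∀ n : ℕ, ∃ L : IntermediateField ℚ (AlgebraicClosure ℚ), FiniteDimensional ℚ L ∧
      ∀ σ : AlgebraicClosure ℚ ≃ₐ[ℚ] AlgebraicClosure ℚ, (∀ x ∈ L, σ x = x) →
        ((d σ : 𝒪ˣ) : 𝒪) - 1 ∈ IsLocalRing.maximalIdeal 𝒪 ^ n)
    (hdfrob : ∀ ℓ : ℕ, ℓ.Prime → ℓ ∉ S → ∀ A : ValuationSubring (AlgebraicClosure ℚ),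
      A.LiesOverPrime ℓ → ∀ σ : AlgebraicClosure ℚ ≃ₐ[ℚ] AlgebraicClosure ℚ,
        A.IsFrobeniusAt σ ℓ → ((d σ : 𝒪ˣ) : 𝒪) = (ℓ : 𝒪))
    (hrel : ∀ ℓ : ℕ, ℓ.Prime → ℓ ∉ S → ∀ A : ValuationSubring (AlgebraicClosure ℚ),
      A.LiesOverPrime ℓ → ∀ σ : AlgebraicClosure ℚ ≃ₐ[ℚ] AlgebraicClosure ℚ,
        A.IsFrobeniusAt σ ℓ →
          r σ * r σ - a ℓ • r σ + (ℓ : 𝒪) • (1 : Module.End 𝒪 E) = 0)
    (g : AlgebraicClosure ℚ ≃ₐ[ℚ] AlgebraicClosure ℚ) :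
    ∃ t : 𝒪, r g * r g - t • r g + ((d g : 𝒪ˣ) : 𝒪) • (1 : Module.End 𝒪 E) = 0 := by
  obtain ⟨π, hπ⟩ := IsDiscreteValuationRing.exists_irreducible 𝒪
  have hπm : π ∈ IsLocalRing.maximalIdeal 𝒪 := by
    rw [hπ.maximalIdeal_eq]; exact Ideal.mem_span_singleton_self π
  have key := S30REL_density_limit (R := 𝒪) (Λ := E) π hπm r d S
    (fun ℓ => a ℓ • (1 : Module.End 𝒪 E)) (⊥ : Subalgebra 𝒪 (Module.End 𝒪 E))
    (fun ℓ _ _ => by
      rw [← Algebra.algebraMap_eq_smul_one]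
      exact Subalgebra.algebraMap_mem _ _)
    (fun n => by
      obtain ⟨L, hL, h⟩ := hcont n
      exact ⟨L, hL, fun σ hσ v => by
        obtain ⟨w, hw⟩ := (S30REL_mem_pow_smul_iff 𝒪 hπ n _).mp (h σ hσ v)
        exact ⟨w, hw⟩⟩)
    (fun n => by
      obtain ⟨L, hL, h⟩ := hdcont n
      exact ⟨L, hL, fun σ hσ => (S30REL_mem_pow_iff 𝒪 hπ n _).mp (h σ hσ)⟩)
    (fun ℓ hℓ hℓS A hA σ hσ => by
      refine ⟨?_, ?_, hdfrob ℓ hℓ hℓS A hA σ hσ⟩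
      · rw [smul_mul_assoc, one_mul]
        exact hrel ℓ hℓ hℓS A hA σ hσ
      · rw [smul_mul_assoc, one_mul, mul_smul_comm, mul_one])
    g
  obtain ⟨t, ht⟩ := Algebra.mem_bot.mp key
  refine ⟨t, ?_⟩
  have h1 : r g⁻¹ * r g = 1 := by rw [← map_mul, inv_mul_cancel, map_one]
  have h2 : t • r g = (r g + ((d g : 𝒪ˣ) : 𝒪) • r g⁻¹) * r g := by
    rw [← ht, Algebra.algebraMap_eq_smul_one, smul_mul_assoc, one_mul]
  rw [h2, add_mul, smul_mul_assoc, h1]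
  abel

theorem S30_REL [IsAdicComplete (IsLocalRing.maximalIdeal 𝒪) 𝒪]
    [Finite (IsLocalRing.ResidueField 𝒪)] : S30_REL_statement 𝒪 := by
  intro E _ _ _ _ r d S a hcont hdcont hdfrob hrel g
  exact S30REL_statement_of_dvr 𝒪 E r d S a hcont hdcont hdfrob hrel g

end Contract

end Fermat.Agent.S30_helper9_REL
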