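import Mathlib
import Fermat.Prelude.Def_GaloisRep_Adic
import Fermat.Agent.S30_helper12_Contracts
import Fermat.Agent.S30_helper12_Contracts3
import Fermat.Agent.S30_helper9_REL
import Fermat.Agent.S30_helper19_AW

/-!
# S30: the abstract form of the concrete wiring (helper12)

`S30CWV_main`: a finite free module `V` over a complete discrete valuation ring `𝒪` of
characteristic `0`, with an adic-continuous Galois action `r`, operators `T ℓ` commuting with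
it, the Eichler-Shimura relations `r σ ² - T ℓ r σ + ℓ = 0` at the Frobenius lifts outside `S`,
and a NONZERO simultaneous eigenvector of the `T ℓ` with eigenvalues `a ℓ`, yields a
`GaloisRepAdic 𝒪` whose Frobenius characteristic polynomials are `X² - a ℓ X + ℓ` and which is
trivial wherever `r` and the cyclotomic character are trivial.

Inputs: the eigenlattice (contract `S30_EL2_statement`, a hypothesis here), the density argument
`S30_REL` (helper9) and the lattice wiring `S30LAT_AW` (helper19).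
-/

set_option autoImplicit false
set_option linter.unusedSectionVars false
set_option linter.unusedVariables false
set_option linter.style.haveILetI false

open Polynomial

noncomputable section

namespace Fermat.Agent.S30_helper12_CWV

open Fermat.Agent.S30_helper12_Contracts

local notation "Qb" => AlgebraicClosure ℚ
local notation "GQ" => (AlgebraicClosure ℚ ≃ₐ[ℚ] AlgebraicClosure ℚ)

theorem S30CWV_main (S : Finset ℕ)
    (𝒪 : Type) [CommRing 𝒪] [IsDomain 𝒪] [IsDiscreteValuationRing 𝒪]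
    [IsAdicComplete (IsLocalRing.maximalIdeal 𝒪) 𝒪] [Finite (IsLocalRing.ResidueField 𝒪)]
    [CharZero 𝒪] (hEL : S30_EL2_statement 𝒪)
    (V : Type) [AddCommGroup V] [Module 𝒪 V] [Module.Finite 𝒪 V] [Module.Free 𝒪 V]
    (r : GQ →* Module.End 𝒪 V) (T : ℕ → Module.End 𝒪 V) (a : ℕ → 𝒪)
    (d : GQ →* 𝒪ˣ) (c : GQ)
    (hcomm : ∀ (ℓ : ℕ) (g : GQ), ℓ.Prime → ℓ ∉ S → T ℓ * r g = r g * T ℓ)
    (hcont : GaloisActionIsAdicContinuous 𝒪 r)
    (hdcont : ∀ n : ℕ, ∃ L : IntermediateField ℚ Qb, FiniteDimensional ℚ L ∧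
      ∀ σ : GQ, (∀ x ∈ L, σ x = x) →
        ((d σ : 𝒪ˣ) : 𝒪) - 1 ∈ IsLocalRing.maximalIdeal 𝒪 ^ n)
    (hdfrob : ∀ ℓ : ℕ, ℓ.Prime → ℓ ∉ S → ∀ A : ValuationSubring Qb, A.LiesOverPrime ℓ →
      ∀ σ : GQ, A.IsFrobeniusAt σ ℓ → ((d σ : 𝒪ˣ) : 𝒪) = (ℓ : 𝒪))
    (hcc : c * c = 1) (hdc : ((d c : 𝒪ˣ) : 𝒪) = -1)
    (hES : ∀ ℓ : ℕ, ℓ.Prime → ℓ ∉ S → ∀ A : ValuationSubring Qb, A.LiesOverPrime ℓ →
      ∀ σ : GQ, A.IsFrobeniusAt σ ℓ →
        r σ * r σ - T ℓ * r σ + (ℓ : 𝒪) • (1 : Module.End 𝒪 V) = 0)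
    (hv : ∃ v : V, v ≠ 0 ∧ ∀ ℓ : ℕ, ℓ.Prime → ℓ ∉ S → T ℓ v = a ℓ • v) :
    ∃ ρ' : GaloisRepAdic 𝒪,
      (∀ ℓ : ℕ, ℓ.Prime → ℓ ∉ S → ∀ A : ValuationSubring Qb, A.LiesOverPrime ℓ →
        ∀ σ : GQ, A.IsFrobeniusAt σ ℓ →
          LinearMap.charpoly (ρ'.ρ σ) = X ^ 2 - C (a ℓ) * X + C ((ℓ : 𝒪))) ∧
      (∀ σ : GQ, r σ = 1 → d σ = 1 → ρ'.ρ σ = 1) := by
  classical
  obtain ⟨E, rE, hEfin, hEfree, hEmem, hEcoe, hEcont⟩ := hEL V r T S a hcomm hcont
  haveI := hEfin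
  haveI := hEfree
  obtain ⟨v, hv0, hveig⟩ := hv
  haveI : Nontrivial E :=
    ⟨⟨⟨v, (hEmem v).2 hveig⟩, 0, fun h => hv0 (congrArg Subtype.val h)⟩⟩
  -- the scalar relations at Frobenius lifts
  have hrelF : ∀ ℓ : ℕ, ℓ.Prime → ℓ ∉ S → ∀ A : ValuationSubring Qb, A.LiesOverPrime ℓ →
      ∀ σ : GQ, A.IsFrobeniusAt σ ℓ →
        rE σ * rE σ - a ℓ • rE σ + (ℓ : 𝒪) • (1 : Module.End 𝒪 E) = 0 := by
    intro ℓ hℓ hℓS A hA σ hσ
    refine LinearMap.ext fun e => Subtype.ext ?_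
    have h1 := hES ℓ hℓ hℓS A hA σ hσ
    have h2 : (r σ * r σ - T ℓ * r σ + (ℓ : 𝒪) • (1 : Module.End 𝒪 V)) (e : V) = 0 := by
      rw [h1, LinearMap.zero_apply]
    have h3 : T ℓ ((rE σ e : E) : V) = a ℓ • ((rE σ e : E) : V) :=
      (hEmem _).1 (rE σ e).2 ℓ hℓ hℓS
    simp only [LinearMap.add_apply, LinearMap.sub_apply, Module.End.mul_apply,
      LinearMap.smul_apply, Module.End.one_apply] at h2
    rw [← hEcoe σ e, h3] at h2
    simp only [LinearMap.add_apply, LinearMap.sub_apply, Module.End.mul_apply,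
      LinearMap.smul_apply, Module.End.one_apply, LinearMap.zero_apply, Submodule.coe_add,
      Submodule.coe_sub, Submodule.coe_smul, Submodule.coe_zero, hEcoe]
    rw [hEcoe σ e] at h2
    exact h2
  -- density
  have hrel := Fermat.Agent.S30_helper9_REL.S30_REL (𝒪 := 𝒪) E rE d S a hEcont hdcont
    hdfrob hrelF
  obtain ⟨ρ', hρ1, hρ2⟩ := Fermat.Agent.S30_helper19_AW.S30LAT_AW 𝒪 E rE d c hEcont hdcont
    hcc hdc hrel
  refine ⟨ρ', ?_, ?_⟩
  · intro ℓ hℓ hℓS A hA σ hσ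
    have h := hρ2 σ (a ℓ) (by
      have := hrelF ℓ hℓ hℓS A hA σ hσ
      rw [hdfrob ℓ hℓ hℓS A hA σ hσ]
      exact this)
    rw [h, hdfrob ℓ hℓ hℓS A hA σ hσ]
  · intro σ hrσ hdσ
    refine hρ1 σ ?_ hdσ
    refine LinearMap.ext fun e => Subtype.ext ?_
    rw [hEcoe, hrσ, Module.End.one_apply, Module.End.one_apply]

end Fermat.Agent.S30_helper12_CWV
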