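import Mathlib
import Fermat.Prelude.Def_GaloisRep_Adic
import Fermat.Agent.S30_helper12_Contracts

/-!
# S30: contracts, part 2 (helper12, owner)

* `S30_EL_statement` : the eigenlattice.  For a finite free `ℤ_[p]`-module `Λ` with a
  `p`-adically continuous Galois action `ρ` and operators `T ℓ` commuting with it, and
  eigenvalues `a ℓ` in a `ℤ_[p]`-algebra `𝒪` (a discrete valuation ring of characteristic `0`),
  the simultaneous eigenspace `E` of the `T ℓ` (`ℓ` prime, `ℓ ∉ S`) in `𝒪 ⊗[ℤ_[p]] Λ` is a finite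
  free `𝒪`-module, stable under the Galois action, and the restricted action is adic-continuous.
-/

set_option autoImplicit false

open Polynomial
open scoped TensorProduct

noncomputable section

namespace Fermat.Agent.S30_helper12_Contracts

local notation "Qb" => AlgebraicClosure ℚ
local notation "GQ" => (AlgebraicClosure ℚ ≃ₐ[ℚ] AlgebraicClosure ℚ)

/-- (EL) the eigenlattice. -/
def S30_EL_statement (p : ℕ) [Fact p.Prime] (𝒪 : Type) [CommRing 𝒪] [IsDomain 𝒪]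
    [IsDiscreteValuationRing 𝒪] [CharZero 𝒪] [Algebra ℤ_[p] 𝒪] : Prop :=
  ∀ (Λ : Type) [AddCommGroup Λ] [Module ℤ_[p] Λ] [Module.Finite ℤ_[p] Λ] [Module.Free ℤ_[p] Λ]
    (ρ : GQ →* Module.End ℤ_[p] Λ) (T : ℕ → Module.End ℤ_[p] Λ) (S : Finset ℕ) (a : ℕ → 𝒪),
    (p : 𝒪) ∈ IsLocalRing.maximalIdeal 𝒪 →
    (∀ (ℓ : ℕ) (g : GQ), ℓ.Prime → ℓ ∉ S → T ℓ * ρ g = ρ g * T ℓ) →
    (∀ n : ℕ, ∃ L : IntermediateField ℚ Qb, FiniteDimensional ℚ L ∧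
      ∀ σ : GQ, (∀ x ∈ L, σ x = x) → ∀ v : Λ, ∃ w : Λ, ρ σ v - v = (p : ℤ_[p]) ^ n • w) →
    ∃ (E : Submodule 𝒪 (𝒪 ⊗[ℤ_[p]] Λ)) (rE : GQ →* Module.End 𝒪 E),
      Module.Finite 𝒪 E ∧ Module.Free 𝒪 E ∧
      (∀ v : 𝒪 ⊗[ℤ_[p]] Λ, v ∈ E ↔
        ∀ ℓ : ℕ, ℓ.Prime → ℓ ∉ S → (T ℓ).baseChange 𝒪 v = a ℓ • v) ∧
      (∀ (g : GQ) (e : E), ((rE g e : E) : 𝒪 ⊗[ℤ_[p]] Λ) = (ρ g).baseChange 𝒪 (e : 𝒪 ⊗[ℤ_[p]] Λ)) ∧
      GaloisActionIsAdicContinuous 𝒪 (V := E) rE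

end Fermat.Agent.S30_helper12_Contracts
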