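import Mathlib
import Fermat.Prelude.Def_GaloisRep_Adic
import Fermat.Agent.S30_helper12_Contracts2

/-!
# S30, piece EL (helper18): the eigenlattice

For a finite free `ℤ_[p]`-module `Λ` with a `p`-adically continuous Galois action `ρ` and
operators `T ℓ` commuting with it, and eigenvalues `a ℓ` in a discrete valuation ring `𝒪` of
characteristic `0` which is a `ℤ_[p]`-algebra, the simultaneous eigenspace `E` of the `T ℓ`
(`ℓ` prime, `ℓ ∉ S`) in `𝒪 ⊗[ℤ_[p]] Λ` is a finite free `𝒪`-module, stable under the Galois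
action, saturated, and the restricted action is adic-continuous.
-/

set_option autoImplicit false

open Polynomial
open scoped TensorProduct

noncomputable section

namespace Fermat.Agent.S30_helper18_EL

open Fermat.Agent.S30_helper12_Contracts

local notation "Qb" => AlgebraicClosure ℚ
local notation "GQ" => (AlgebraicClosure ℚ ≃ₐ[ℚ] AlgebraicClosure ℚ)

section Generic

variable {Z 𝒪 Λ : Type*} [CommRing Z] [CommRing 𝒪] [Algebra Z 𝒪] [AddCommGroup Λ] [Module Z Λ]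

/-- The simultaneous eigenspace of the base changes of a family of operators. -/
def S30EL_eigen {I : Type*} (P : I → Prop) (T : I → Module.End Z Λ) (a : I → 𝒪) :
    Submodule 𝒪 (𝒪 ⊗[Z] Λ) where
  carrier := {v | ∀ i, P i → (T i).baseChange 𝒪 v = a i • v}
  add_mem' := fun {x y} hx hy i hi => by
    rw [map_add, hx i hi, hy i hi, smul_add]
  zero_mem' := fun i _ => by rw [map_zero, smul_zero]
  smul_mem' := fun c x hx i hi => by
    rw [map_smul, hx i hi, smul_comm]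

theorem S30EL_mem_eigen {I : Type*} (P : I → Prop) (T : I → Module.End Z Λ) (a : I → 𝒪)
    (v : 𝒪 ⊗[Z] Λ) :
    v ∈ S30EL_eigen P T a ↔ ∀ i, P i → (T i).baseChange 𝒪 v = a i • v := Iff.rfl

/-- The eigenspace is stable under the base change of an operator commuting with the family. -/
theorem S30EL_stable {I : Type*} (P : I → Prop) (T : I → Module.End Z Λ) (a : I → 𝒪)
    (f : Module.End Z Λ) (hf : ∀ i, P i → T i * f = f * T i)
    (v : 𝒪 ⊗[Z] Λ) (hv : v ∈ S30EL_eigen P T a) :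
    f.baseChange 𝒪 v ∈ S30EL_eigen P T a := by
  intro i hi
  have h1 : (T i).baseChange 𝒪 (f.baseChange 𝒪 v) = (T i * f).baseChange 𝒪 v := by
    rw [LinearMap.baseChange_mul]
    rfl
  have h2 : f.baseChange 𝒪 ((T i).baseChange 𝒪 v) = (f * T i).baseChange 𝒪 v := by
    rw [LinearMap.baseChange_mul]
    rfl
  rw [h1, hf i hi, ← h2, hv i hi, map_smul]

/-- The eigenspace is saturated. -/
theorem S30EL_saturated [IsDomain 𝒪] [Module.IsTorsionFree 𝒪 (𝒪 ⊗[Z] Λ)] {I : Type*}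
    (P : I → Prop) (T : I → Module.End Z Λ) (a : I → 𝒪) (c : 𝒪) (hc : c ≠ 0)
    (v : 𝒪 ⊗[Z] Λ) (hv : c • v ∈ S30EL_eigen P T a) : v ∈ S30EL_eigen P T a := by
  intro i hi
  have h := hv i hi
  rw [map_smul, smul_comm (a i) c v] at h
  have h' : c • ((T i).baseChange 𝒪 v - a i • v) = 0 := by
    rw [smul_sub, h, sub_self]
  exact sub_eq_zero.mp ((smul_eq_zero_iff_right hc).mp h')

/-- Congruence of an operator to the identity is inherited by the base change. -/
theorem S30EL_baseChange_congr (f : Module.End Z Λ) (z : Z)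
    (h : ∀ v : Λ, ∃ w : Λ, f v - v = z • w) (x : 𝒪 ⊗[Z] Λ) :
    ∃ y : 𝒪 ⊗[Z] Λ, f.baseChange 𝒪 x - x = algebraMap Z 𝒪 z • y := by
  induction x using TensorProduct.induction_on with
  | zero => exact ⟨0, by rw [map_zero, sub_zero, smul_zero]⟩
  | tmul b v =>
    obtain ⟨w, hw⟩ := h v
    refine ⟨b ⊗ₜ[Z] w, ?_⟩
    rw [LinearMap.baseChange_tmul, ← TensorProduct.tmul_sub, hw, TensorProduct.tmul_smul,
      algebraMap_smul]
  | add x y hx hy =>
    obtain ⟨x', hx'⟩ := hx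
    obtain ⟨y', hy'⟩ := hy
    refine ⟨x' + y', ?_⟩
    rw [map_add, add_sub_add_comm, hx', hy', smul_add]

end Generic

/-- **EL.** The eigenlattice. -/
theorem S30_EL (p : ℕ) [Fact p.Prime] (𝒪 : Type) [CommRing 𝒪] [IsDomain 𝒪]
    [IsDiscreteValuationRing 𝒪] [CharZero 𝒪] [Algebra ℤ_[p] 𝒪] : S30_EL_statement p 𝒪 := by
  intro Λ _ _ _ _ ρ T S a hp𝔪 hcomm hcont
  -- the eigenspace
  let P : ℕ → Prop := fun ℓ => ℓ.Prime ∧ ℓ ∉ S
  let E : Submodule 𝒪 (𝒪 ⊗[ℤ_[p]] Λ) := S30EL_eigen P T a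
  have hcomm' : ∀ (g : GQ) (i : ℕ), P i → T i * ρ g = ρ g * T i :=
    fun g i hi => hcomm i g hi.1 hi.2
  have hstab : ∀ (g : GQ), ∀ v ∈ E, (ρ g).baseChange 𝒪 v ∈ E :=
    fun g v hv => S30EL_stable P T a (ρ g) (hcomm' g) v hv
  let rE : GQ →* Module.End 𝒪 E :=
    { toFun := fun g => ((ρ g).baseChange 𝒪).restrict (hstab g)
      map_one' := by
        apply LinearMap.ext
        intro e
        apply Subtype.ext
        rw [LinearMap.coe_restrict_apply, map_one, LinearMap.baseChange_one]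
        rfl
      map_mul' := fun g h => by
        apply LinearMap.ext
        intro e
        apply Subtype.ext
        rw [LinearMap.coe_restrict_apply, map_mul, LinearMap.baseChange_mul]
        rfl }
  have hrE : ∀ (g : GQ) (e : E),
      ((rE g e : E) : 𝒪 ⊗[ℤ_[p]] Λ) = (ρ g).baseChange 𝒪 (e : 𝒪 ⊗[ℤ_[p]] Λ) :=
    fun g e => rfl
  have hp0 : ∀ n : ℕ, ((p : 𝒪) ^ n) ≠ 0 := fun n =>
    pow_ne_zero n (Nat.cast_ne_zero.mpr (Fact.out : p.Prime).ne_zero)
  refine ⟨E, rE, inferInstance, @Module.free_of_finite_type_torsion_free' 𝒪 _ E _ _ _ _ _ _,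
    ?_, hrE, ?_⟩
  · intro v
    constructor
    · intro hv ℓ hℓ hℓS
      exact hv ℓ ⟨hℓ, hℓS⟩
    · intro hv ℓ hℓ
      exact hv ℓ hℓ.1 hℓ.2
  · intro n
    obtain ⟨L, hL, hσ⟩ := hcont n
    refine ⟨L, hL, fun σ hσL e => ?_⟩
    obtain ⟨y, hy⟩ := S30EL_baseChange_congr (𝒪 := 𝒪) (ρ σ) ((p : ℤ_[p]) ^ n) (hσ σ hσL)
      (e : 𝒪 ⊗[ℤ_[p]] Λ)
    have hpn : algebraMap ℤ_[p] 𝒪 ((p : ℤ_[p]) ^ n) = (p : 𝒪) ^ n := by
      rw [map_pow, map_natCast]
    rw [hpn] at hy
    have hyE : y ∈ E := by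
      apply S30EL_saturated P T a ((p : 𝒪) ^ n) (hp0 n)
      rw [← hy]
      exact E.sub_mem (hstab σ _ e.2) e.2
    have heq : rE σ e - e = ((p : 𝒪) ^ n) • (⟨y, hyE⟩ : E) := by
      apply Subtype.ext
      rw [Submodule.coe_sub, hrE, hy]
      rfl
    rw [heq]
    exact Submodule.smul_mem_smul (Ideal.pow_mem_pow hp𝔪 n) Submodule.mem_top

end Fermat.Agent.S30_helper18_EL
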