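import Mathlib
import Fermat.Prelude.Def_GaloisRep_Adic
import Fermat.Agent.S30_helper12_CWV2
import Fermat.Agent.S30_helper12_BC
import Fermat.Agent.S30_helper18_EL

/-!
# S30: base change of the Tate module to the coefficient ring (helper12)

`S30BC2_main`: the statement of `S30CWV2_main` for `V := 𝒪 ⊗[ℤ_[p]] Λ`, where `Λ` is a finite free
`ℤ_[p]`-module with a `p`-adically continuous Galois action `ρ`, operators `T ℓ` commuting with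
it and the Eichler-Shimura relations.
-/

set_option autoImplicit false
set_option linter.unusedSectionVars false
set_option linter.unusedVariables false
set_option linter.style.haveILetI false

open Polynomial
open scoped TensorProduct

noncomputable section

namespace Fermat.Agent.S30_helper12_BC2

open Fermat.Agent.S30_helper12_Contracts Fermat.Agent.S30_helper12_CWV2 Fermat.Agent.S30_helper12_BC

local notation "Qb" => AlgebraicClosure ℚ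
local notation "GQ" => (AlgebraicClosure ℚ ≃ₐ[ℚ] AlgebraicClosure ℚ)

theorem S30BC2_main {p : ℕ} [Fact p.Prime] (S : Finset ℕ)
    (𝒪 : Type) [CommRing 𝒪] [IsDomain 𝒪] [IsDiscreteValuationRing 𝒪]
    [IsAdicComplete (IsLocalRing.maximalIdeal 𝒪) 𝒪] [Finite (IsLocalRing.ResidueField 𝒪)]
    [CharZero 𝒪] [Algebra ℤ_[p] 𝒪] (hp𝒪 : (p : 𝒪) ∈ IsLocalRing.maximalIdeal 𝒪)
    (Λ : Type) [AddCommGroup Λ] [Module ℤ_[p] Λ] [Module.Finite ℤ_[p] Λ] [Module.Free ℤ_[p] Λ]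
    (ρ : GQ →* Module.End ℤ_[p] Λ) (T : ℕ → Module.End ℤ_[p] Λ) (a : ℕ → 𝒪)
    (d : GQ →* 𝒪ˣ) (c : GQ)
    (hcomm : ∀ (ℓ : ℕ) (g : GQ), ℓ.Prime → ℓ ∉ S → T ℓ * ρ g = ρ g * T ℓ)
    (hcont : ∀ n : ℕ, ∃ L : IntermediateField ℚ Qb, FiniteDimensional ℚ L ∧
      ∀ σ : GQ, (∀ x ∈ L, σ x = x) → ∀ v : Λ, ∃ w : Λ, ρ σ v - v = (p : ℤ_[p]) ^ n • w)
    (hdcont : ∀ n : ℕ, ∃ L : IntermediateField ℚ Qb, FiniteDimensional ℚ L ∧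
      ∀ σ : GQ, (∀ x ∈ L, σ x = x) →
        ((d σ : 𝒪ˣ) : 𝒪) - 1 ∈ IsLocalRing.maximalIdeal 𝒪 ^ n)
    (hdfrob : ∀ ℓ : ℕ, ℓ.Prime → ℓ ∉ S → ∀ A : ValuationSubring Qb, A.LiesOverPrime ℓ →
      ∀ σ : GQ, A.IsFrobeniusAt σ ℓ → ((d σ : 𝒪ˣ) : 𝒪) = (ℓ : 𝒪))
    (hcc : c * c = 1) (hdc : ((d c : 𝒪ˣ) : 𝒪) = -1)
    (hES : ∀ ℓ : ℕ, ℓ.Prime → ℓ ∉ S → ∀ A : ValuationSubring Qb, A.LiesOverPrime ℓ →
      ∀ σ : GQ, A.IsFrobeniusAt σ ℓ →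
        ρ σ * ρ σ - T ℓ * ρ σ + (ℓ : ℤ_[p]) • (1 : Module.End ℤ_[p] Λ) = 0)
    (hv : ∃ v : 𝒪 ⊗[ℤ_[p]] Λ, v ≠ 0 ∧
      ∀ ℓ : ℕ, ℓ.Prime → ℓ ∉ S → (T ℓ).baseChange 𝒪 v = a ℓ • v) :
    ∃ ρ' : GaloisRepAdic 𝒪,
      (∀ ℓ : ℕ, ℓ.Prime → ℓ ∉ S → ∀ A : ValuationSubring Qb, A.LiesOverPrime ℓ →
        ∀ σ : GQ, A.IsFrobeniusAt σ ℓ →
          LinearMap.charpoly (ρ'.ρ σ) = X ^ 2 - C (a ℓ) * X + C ((ℓ : 𝒪))) ∧
      (∀ σ : GQ, ρ σ = 1 → d σ = 1 → ρ'.ρ σ = 1) := by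
  classical
  have hppow : ∀ n : ℕ, algebraMap ℤ_[p] 𝒪 ((p : ℤ_[p]) ^ n) ∈ IsLocalRing.maximalIdeal 𝒪 ^ n := by
    intro n
    rw [map_pow, map_natCast]
    exact Ideal.pow_mem_pow hp𝒪 n
  have hcontV : GaloisActionIsAdicContinuous 𝒪 (S30BC_hom 𝒪 ρ) := by
    intro n
    obtain ⟨L, hL, h⟩ := hcont n
    refine ⟨L, hL, fun σ hσ x => ?_⟩
    have h1 : ∀ v : Λ, ∃ w : Λ, (ρ σ - 1) v = (p : ℤ_[p]) ^ n • w := fun v => by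
      obtain ⟨w, hw⟩ := h σ hσ v
      exact ⟨w, by rw [LinearMap.sub_apply, Module.End.one_apply, hw]⟩
    obtain ⟨y, hy⟩ := S30BC_dvd 𝒪 (ρ σ - 1) ((p : ℤ_[p]) ^ n) h1 x
    have h2 : S30BC_hom 𝒪 ρ σ x - x = algebraMap ℤ_[p] 𝒪 ((p : ℤ_[p]) ^ n) • y := by
      rw [← hy, LinearMap.baseChange_sub, LinearMap.baseChange_one, LinearMap.sub_apply,
        Module.End.one_apply, S30BC_hom_apply]
    rw [h2]
    exact Submodule.smul_mem_smul (hppow n) Submodule.mem_top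
  have hcommV : ∀ (ℓ : ℕ) (g : GQ), ℓ.Prime → ℓ ∉ S →
      (fun ℓ => (T ℓ).baseChange 𝒪) ℓ * S30BC_hom 𝒪 ρ g =
        S30BC_hom 𝒪 ρ g * (fun ℓ => (T ℓ).baseChange 𝒪) ℓ := by
    intro ℓ g hℓ hℓS
    simp only [S30BC_hom_apply]
    rw [← LinearMap.baseChange_mul, ← LinearMap.baseChange_mul, hcomm ℓ g hℓ hℓS]
  have hESV : ∀ ℓ : ℕ, ℓ.Prime → ℓ ∉ S → ∀ A : ValuationSubring Qb, A.LiesOverPrime ℓ →
      ∀ σ : GQ, A.IsFrobeniusAt σ ℓ →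
        S30BC_hom 𝒪 ρ σ * S30BC_hom 𝒪 ρ σ - (fun ℓ => (T ℓ).baseChange 𝒪) ℓ * S30BC_hom 𝒪 ρ σ
          + (ℓ : 𝒪) • (1 : Module.End 𝒪 (𝒪 ⊗[ℤ_[p]] Λ)) = 0 := by
    intro ℓ hℓ hℓS A hA σ hσ
    have h1 := congrArg (fun φ : Module.End ℤ_[p] Λ => φ.baseChange 𝒪) (hES ℓ hℓ hℓS A hA σ hσ)
    simp only [LinearMap.baseChange_add, LinearMap.baseChange_sub, LinearMap.baseChange_mul,
      LinearMap.baseChange_smul, LinearMap.baseChange_one, LinearMap.baseChange_zero] at h1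
    simp only [S30BC_hom_apply]
    rw [← h1]
    congr 1
    refine LinearMap.ext fun x => ?_
    rw [LinearMap.smul_apply, LinearMap.smul_apply, Module.End.one_apply,
      algebra_compatible_smul 𝒪 (ℓ : ℤ_[p]) x, map_natCast]
  have hEL := Fermat.Agent.S30_helper18_EL.S30_EL p 𝒪 Λ ρ T S a hp𝒪 hcomm hcont
  obtain ⟨ρ', h1, h2⟩ := S30CWV2_main S 𝒪 (𝒪 ⊗[ℤ_[p]] Λ) (S30BC_hom 𝒪 ρ)
    (fun ℓ => (T ℓ).baseChange 𝒪) a d c hcommV hcontV hdcont hdfrob hcc hdc hESV hv hEL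
  refine ⟨ρ', h1, fun σ hσ hd => h2 σ ?_ hd⟩
  rw [S30BC_hom_apply, hσ, LinearMap.baseChange_one]

end Fermat.Agent.S30_helper12_BC2
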