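import Mathlib
import Fermat.Prelude.Def_EllipticCurve_FrobeniusTrace
import Fermat.Prelude.Def_FLTPrelim_Ramification
import Fermat.Prelude.Def_GaloisRep_ComplexConjugation
import Fermat.Agent.S05_helper5_Inertia
import Fermat.Agent.G_helper7_CYC
import Fermat.Agent.S30_helper12_Contracts

/-!
# S30, piece P2 (CYCADIC): the `p`-adic cyclotomic character of `G_ℚ`

`S30CYC_d p : G_ℚ →* ℤ_[p]ˣ` is Mathlib's `cyclotomicCharacter` of `ℚ̄`.  We prove

* `S30CYC_spec`     : `σ ζ = ζ ^ (d σ mod p ^ n)` for `ζ ^ p ^ n = 1`;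
* `S30CYC_frob`     : `d σ = ℓ` for a Frobenius element `σ` at `ℓ ≠ p`;
* `S30CYC_inertia`  : `d σ = 1` for `σ` in an inertia group at `q ≠ p`;
* `S30CYC_cont`     : for every `n` there is a finite level `L` with `d σ ≡ 1 mod p ^ n` for all
  `σ` fixing `L`;
* `S30CYC_conj`     : there is `c` with `c * c = 1` and `d c = -1` (complex conjugation).
-/

set_option autoImplicit false

open Polynomial

namespace Fermat.Agent.S30_helper17_CYCADIC

noncomputable section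

local notation "Qb" => AlgebraicClosure ℚ
local notation "GQ" => (AlgebraicClosure ℚ ≃ₐ[ℚ] AlgebraicClosure ℚ)

open Fermat.Agent.G_helper7_CYC

/-! ### A root of unity of order prime to the residue characteristic which is congruent to `1`
is `1` -/

section Val

variable {L : Type*} [Field L] (A : ValuationSubring L)

theorem S30CYC_val_geom_sum_le {μ : L} (hμ : A.valuation μ ≤ 1) (i : ℕ) :
    A.valuation (∑ j ∈ Finset.range i, μ ^ j) ≤ 1 := by
  refine A.valuation.map_sum_le (fun j _ => ?_)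
  rw [map_pow]
  exact pow_le_one₀ zero_le hμ

theorem S30CYC_eq_one_of_val_lt {m : ℕ} (hm : A.valuation (m : L) = 1) {μ : L}
    (hμ : μ ^ m = 1) (h : A.valuation (μ - 1) < 1) : μ = 1 := by
  by_contra hne
  have hm0 : m ≠ 0 := by
    rintro rfl
    simp at hm
  have hvμ : A.valuation μ = 1 := PGCYC_val_eq_one_of_pow_eq_one A hm0 hμ
  have hsum : ∑ i ∈ Finset.range m, μ ^ i = 0 := by
    have h1 : (μ - 1) * ∑ i ∈ Finset.range m, μ ^ i = 0 := by
      rw [mul_geom_sum, hμ, sub_self]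
    rcases mul_eq_zero.mp h1 with h2 | h2
    · exact absurd (sub_eq_zero.mp h2) hne
    · exact h2
  have hcast : (m : L) = ∑ i ∈ Finset.range m, (1 - μ ^ i) := by
    rw [Finset.sum_sub_distrib, hsum, sub_zero]
    simp
  have hlt : A.valuation (∑ i ∈ Finset.range m, (1 - μ ^ i)) < 1 := by
    refine A.valuation.map_sum_lt one_ne_zero (fun i _ => ?_)
    have e : 1 - μ ^ i = -((μ - 1) * ∑ j ∈ Finset.range i, μ ^ j) := by
      rw [mul_geom_sum]; ring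
    rw [e, Valuation.map_neg, map_mul]
    calc A.valuation (μ - 1) * A.valuation (∑ j ∈ Finset.range i, μ ^ j)
        ≤ A.valuation (μ - 1) * 1 :=
          mul_le_mul' le_rfl (S30CYC_val_geom_sum_le A hvμ.le i)
      _ = A.valuation (μ - 1) := mul_one _
      _ < 1 := h
  rw [← hcast, hm] at hlt
  exact lt_irrefl _ hlt

end Val

/-! ### The character -/

instance S30CYC_enough (p : ℕ) [Fact p.Prime] (i : ℕ) : HasEnoughRootsOfUnity Qb (p ^ i) :=
  have : NeZero (p ^ i) := ⟨pow_ne_zero _ (Fact.out : p.Prime).ne_zero⟩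
  have : NeZero ((p ^ i : ℕ) : Qb) := ⟨Nat.cast_ne_zero.mpr (NeZero.ne (p ^ i))⟩
  inferInstance

/-- The `p`-adic cyclotomic character of `G_ℚ`. -/
def S30CYC_d (p : ℕ) [Fact p.Prime] : GQ →* ℤ_[p]ˣ :=
  (cyclotomicCharacter Qb p).comp PGCYC_toRingEquiv

/-- The reduction of the cyclotomic character modulo `p ^ n`, as a natural number. -/
def S30CYC_exp (p : ℕ) [Fact p.Prime] (n : ℕ) (σ : GQ) : ℕ :=
  (PadicInt.toZModPow n ((S30CYC_d p σ : ℤ_[p]ˣ) : ℤ_[p])).val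

theorem S30CYC_spec (p : ℕ) [Fact p.Prime] (σ : GQ) (n : ℕ) {ζ : Qb} (hζ : ζ ^ p ^ n = 1) :
    σ ζ = ζ ^ (PadicInt.toZModPow n ((S30CYC_d p σ : ℤ_[p]ˣ) : ℤ_[p])).val :=
  cyclotomicCharacter.spec (L := Qb) p σ.toRingEquiv ζ hζ

theorem S30CYC_exists_primitiveRoot (p : ℕ) [Fact p.Prime] (n : ℕ) :
    ∃ ζ : Qb, IsPrimitiveRoot ζ (p ^ n) :=
  HasEnoughRootsOfUnity.exists_primitiveRoot Qb (p ^ n)

/-- The character is determined modulo `p ^ n` by its effect on one primitive root. -/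
theorem S30CYC_toZModPow_eq_of_primitive (p : ℕ) [Fact p.Prime] (σ : GQ) (n : ℕ) {ζ : Qb}
    (hζ : IsPrimitiveRoot ζ (p ^ n)) (m : ℕ) (h : σ ζ = ζ ^ m) :
    PadicInt.toZModPow n ((S30CYC_d p σ : ℤ_[p]ˣ) : ℤ_[p]) = (m : ZMod (p ^ n)) := by
  have : NeZero (p ^ n) := ⟨pow_ne_zero _ (Fact.out : p.Prime).ne_zero⟩
  have h1 := S30CYC_spec p σ n hζ.pow_eq_one
  rw [h] at h1
  have h2 := (hζ.isOfFinOrder (NeZero.ne _)).pow_eq_pow_iff_modEq.mp h1
  rw [← hζ.eq_orderOf] at h2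
  have h3 : ((m : ℕ) : ZMod (p ^ n)) =
      (((PadicInt.toZModPow n ((S30CYC_d p σ : ℤ_[p]ˣ) : ℤ_[p])).val : ℕ) : ZMod (p ^ n)) :=
    (ZMod.natCast_eq_natCast_iff _ _ _).mpr h2
  rw [h3, ZMod.natCast_zmod_val]

/-- The key congruence: if `σ ζ ≡ ζ ^ m` modulo the maximal ideal of a valuation ring in which
`p` is a unit, for all `p ^ n`-th roots of unity, then the cyclotomic character of `σ` is `m`
modulo `p ^ n`. -/
theorem S30CYC_toZModPow_eq_of_sub_mem (p : ℕ) [Fact p.Prime] (A : ValuationSubring Qb)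
    (hpA : A.valuation (p : Qb) = 1) (σ : GQ) (n : ℕ) (m : ℕ)
    (h : ∀ ζ : Qb, ζ ^ p ^ n = 1 → σ ζ - ζ ^ m ∈ A.nonunits) :
    PadicInt.toZModPow n ((S30CYC_d p σ : ℤ_[p]ˣ) : ℤ_[p]) = (m : ZMod (p ^ n)) := by
  have hpn0 : p ^ n ≠ 0 := pow_ne_zero _ (Fact.out : p.Prime).ne_zero
  have : NeZero (p ^ n) := ⟨hpn0⟩
  obtain ⟨ζ, hζ⟩ := S30CYC_exists_primitiveRoot p n
  set dn : ℕ := (PadicInt.toZModPow n ((S30CYC_d p σ : ℤ_[p]ˣ) : ℤ_[p])).val with hdn
  have h1 := h ζ hζ.pow_eq_one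
  rw [S30CYC_spec p σ n hζ.pow_eq_one] at h1
  have h2 : A.valuation (ζ ^ dn - ζ ^ m) < 1 :=
    (ValuationSubring.mem_nonunits_iff (A := A)).mp h1
  have hvζ : ∀ k : ℕ, A.valuation (ζ ^ k) = 1 := fun k =>
    PGCYC_val_eq_one_of_pow_eq_one A hpn0
      (by rw [← pow_mul, mul_comm, pow_mul, hζ.pow_eq_one, one_pow])
  -- the root of unity `μ = ζ ^ dn * ζ ^ (-m)`
  have hpn1 : 1 ≤ p ^ n := Nat.one_le_iff_ne_zero.mpr hpn0
  have hμ1 : (ζ ^ (dn + (p ^ n - 1) * m)) ^ (p ^ n) = 1 := by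
    rw [← pow_mul, mul_comm, pow_mul, hζ.pow_eq_one, one_pow]
  have hone : ζ ^ ((p ^ n - 1) * m) * ζ ^ m = 1 := by
    rw [← pow_add]
    have : (p ^ n - 1) * m + m = p ^ n * m := by
      have : p ^ n - 1 + 1 = p ^ n := Nat.sub_add_cancel hpn1
      calc (p ^ n - 1) * m + m = (p ^ n - 1 + 1) * m := by ring
        _ = p ^ n * m := by rw [this]
    rw [this, pow_mul, hζ.pow_eq_one, one_pow]
  have hμ2 : ζ ^ (dn + (p ^ n - 1) * m) - 1 = ζ ^ ((p ^ n - 1) * m) * (ζ ^ dn - ζ ^ m) := by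
    rw [mul_sub, hone, pow_add]; ring
  have hμ3 : A.valuation (ζ ^ (dn + (p ^ n - 1) * m) - 1) < 1 := by
    rw [hμ2, map_mul, hvζ, one_mul]
    exact h2
  have hvpn : A.valuation ((p ^ n : ℕ) : Qb) = 1 := by
    rw [Nat.cast_pow, map_pow, hpA, one_pow]
  have hμ4 := S30CYC_eq_one_of_val_lt A hvpn hμ1 hμ3
  have hdvd : p ^ n ∣ dn + (p ^ n - 1) * m := (hζ.pow_eq_one_iff_dvd _).mp hμ4
  have hz : ((dn + (p ^ n - 1) * m : ℕ) : ZMod (p ^ n)) = 0 :=
    (ZMod.natCast_eq_zero_iff _ _).mpr hdvd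
  have hcast : (((p ^ n - 1 : ℕ)) : ZMod (p ^ n)) = -1 := by
    rw [Nat.cast_sub hpn1, Nat.cast_one, ZMod.natCast_self, zero_sub]
  rw [Nat.cast_add, Nat.cast_mul, hcast, neg_one_mul, ← sub_eq_add_neg, sub_eq_zero] at hz
  rw [← hz, hdn, ZMod.natCast_zmod_val]

theorem S30CYC_val_p_eq_one {p ℓ : ℕ} (hp : p.Prime) (hℓ : ℓ.Prime) (hne : ℓ ≠ p)
    (A : ValuationSubring Qb) (hA : A.LiesOverPrime ℓ) : A.valuation (p : Qb) = 1 := by
  have hvℓ : A.valuation (ℓ : Qb) < 1 := by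
    have : (ℓ : Qb) ∈ A.nonunits := hA
    exact (ValuationSubring.mem_nonunits_iff (A := A)).mp this
  exact PGCYC_val_natCast_eq_one A hvℓ ((Nat.coprime_primes hℓ hp).mpr hne)

theorem S30CYC_mem_of_pow_eq_one (A : ValuationSubring Qb) {m : ℕ} (hm : m ≠ 0) {ζ : Qb}
    (hζ : ζ ^ m = 1) : ζ ∈ A :=
  PGCYC_mem_of_pow_eq_one A hm hζ

/-- **(i)** The cyclotomic character sends a Frobenius element at `ℓ ≠ p` to `ℓ`. -/
theorem S30CYC_frob (p : ℕ) [Fact p.Prime] {ℓ : ℕ} (hℓ : ℓ.Prime) (hne : ℓ ≠ p)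
    (A : ValuationSubring Qb) (hA : A.LiesOverPrime ℓ) (σ : GQ) (hσ : A.IsFrobeniusAt σ ℓ) :
    ((S30CYC_d p σ : ℤ_[p]ˣ) : ℤ_[p]) = (ℓ : ℤ_[p]) := by
  have hp : p.Prime := Fact.out
  have hpA := S30CYC_val_p_eq_one hp hℓ hne A hA
  refine PadicInt.ext_of_toZModPow.mp (fun n => ?_)
  rw [map_natCast]
  refine S30CYC_toZModPow_eq_of_sub_mem p A hpA σ n ℓ (fun ζ hζ => ?_)
  exact PGCYC_frobenius_spec A σ ℓ hσ ζ
    (PGCYC_mem_of_pow_eq_one A (pow_ne_zero _ hp.ne_zero) hζ)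

/-- **(ii)** The cyclotomic character is trivial on the inertia groups at `q ≠ p`. -/
theorem S30CYC_inertia (p : ℕ) [Fact p.Prime] {q : ℕ} (hq : q.Prime) (hne : q ≠ p)
    (A : ValuationSubring Qb) (hA : A.LiesOverPrime q) (σ : GQ)
    (hσ : σ ∈ A.inertiaSubgroupIn ℚ) : S30CYC_d p σ = 1 := by
  have hp : p.Prime := Fact.out
  have hpA := S30CYC_val_p_eq_one hp hq hne A hA
  apply Units.ext
  rw [Units.val_one]
  refine PadicInt.ext_of_toZModPow.mp (fun n => ?_)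
  rw [map_one]
  have h1 := S30CYC_toZModPow_eq_of_sub_mem p A hpA σ n 1 (fun ζ hζ => by
    rw [pow_one]
    exact (Fermat.Agent.S05_helper5_Inertia.inertia_spec_gen A σ hσ ζ
      (PGCYC_mem_of_pow_eq_one A (pow_ne_zero _ hp.ne_zero) hζ)).2)
  rw [h1, Nat.cast_one]

/-- **(iii)** Adic continuity of the cyclotomic character: modulo `p ^ n` it factors through
the finite level `ℚ(ζ_{p ^ n})`. -/
theorem S30CYC_cont_span (p : ℕ) [Fact p.Prime] (n : ℕ) :
    ∃ L : IntermediateField ℚ Qb, FiniteDimensional ℚ L ∧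
      ∀ σ : GQ, (∀ x ∈ L, σ x = x) →
        ((S30CYC_d p σ : ℤ_[p]ˣ) : ℤ_[p]) - 1 ∈ Ideal.span {(p : ℤ_[p]) ^ n} := by
  obtain ⟨ζ, hζ⟩ := S30CYC_exists_primitiveRoot p n
  have hQb : Algebra.IsAlgebraic ℚ Qb := AlgebraicClosure.isAlgebraic ℚ
  refine ⟨IntermediateField.adjoin ℚ {ζ},
    IntermediateField.adjoin.finiteDimensional
      (Algebra.IsAlgebraic.isAlgebraic (R := ℚ) ζ).isIntegral, ?_⟩
  intro σ hσ
  have h1 : σ ζ = ζ ^ 1 := by
    rw [pow_one]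
    exact hσ ζ (IntermediateField.mem_adjoin_simple_self ℚ ζ)
  have h2 := S30CYC_toZModPow_eq_of_primitive p σ n hζ 1 h1
  rw [← PadicInt.ker_toZModPow, RingHom.mem_ker, map_sub, map_one, h2, Nat.cast_one, sub_self]

theorem S30CYC_cont (p : ℕ) [Fact p.Prime] (n : ℕ) :
    ∃ L : IntermediateField ℚ Qb, FiniteDimensional ℚ L ∧
      ∀ σ : GQ, (∀ x ∈ L, σ x = x) →
        ∃ u : ℤ_[p], ((S30CYC_d p σ : ℤ_[p]ˣ) : ℤ_[p]) - 1 = (p : ℤ_[p]) ^ n * u := by
  obtain ⟨L, hL, h⟩ := S30CYC_cont_span p n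
  refine ⟨L, hL, fun σ hσ => ?_⟩
  obtain ⟨u, hu⟩ := Ideal.mem_span_singleton.mp (h σ hσ)
  exact ⟨u, hu⟩

/-! ### Complex conjugation -/

theorem S30CYC_conj_apply {ζ : Qb} {m : ℕ} (hm : m ≠ 0) (hζ : ζ ^ m = 1) :
    complexConjugation ζ = ζ⁻¹ := by
  apply complexEmbedding.toRingHom.injective
  show complexEmbedding (complexConjugation ζ) = complexEmbedding ζ⁻¹
  rw [complexEmbedding_complexConjugation, map_inv₀]
  have h1 : (complexEmbedding ζ) ^ m = 1 := by rw [← map_pow, hζ, map_one]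
  have h2 : ‖complexEmbedding ζ‖ = 1 := Complex.norm_eq_one_of_pow_eq_one h1 hm
  exact (Complex.inv_eq_conj h2).symm

/-- **(iv)** Complex conjugation is an involution on which the cyclotomic character is `-1`. -/
theorem S30CYC_d_complexConjugation (p : ℕ) [Fact p.Prime] :
    ((S30CYC_d p complexConjugation : ℤ_[p]ˣ) : ℤ_[p]) = -1 := by
  have hp : p.Prime := Fact.out
  refine PadicInt.ext_of_toZModPow.mp (fun n => ?_)
  have hpn0 : p ^ n ≠ 0 := pow_ne_zero _ hp.ne_zero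
  have hpn1 : 1 ≤ p ^ n := Nat.one_le_iff_ne_zero.mpr hpn0
  obtain ⟨ζ, hζ⟩ := S30CYC_exists_primitiveRoot p n
  have h1 : complexConjugation ζ = ζ ^ (p ^ n - 1) := by
    rw [S30CYC_conj_apply hpn0 hζ.pow_eq_one]
    have hζ0 : ζ ≠ 0 := hζ.ne_zero hpn0
    have : ζ ^ (p ^ n - 1) * ζ = 1 := by
      rw [← pow_succ, Nat.sub_add_cancel hpn1, hζ.pow_eq_one]
    exact (eq_inv_of_mul_eq_one_left this).symm
  rw [S30CYC_toZModPow_eq_of_primitive p complexConjugation n hζ _ h1, map_neg, map_one,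
    Nat.cast_sub hpn1, Nat.cast_one, ZMod.natCast_self, zero_sub]

theorem S30CYC_conj (p : ℕ) [Fact p.Prime] :
    ∃ c : GQ, c * c = 1 ∧ ((S30CYC_d p c : ℤ_[p]ˣ) : ℤ_[p]) = -1 :=
  ⟨complexConjugation, complexConjugation_mul_self, S30CYC_d_complexConjugation p⟩

/-! ### Summary -/

/-- **P2 (CYCADIC)**, packaged: the `p`-adic cyclotomic character with all the properties used
in the construction of the Galois representations attached to Hecke eigensystems. -/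
theorem S30CYC_exists (p : ℕ) [Fact p.Prime] :
    ∃ d : GQ →* ℤ_[p]ˣ,
      (∀ (σ : GQ) (n : ℕ) (ζ : Qb), ζ ^ p ^ n = 1 →
        σ ζ = ζ ^ (PadicInt.toZModPow n ((d σ : ℤ_[p]ˣ) : ℤ_[p])).val) ∧
      (∀ ℓ : ℕ, ℓ.Prime → ℓ ≠ p → ∀ A : ValuationSubring Qb, A.LiesOverPrime ℓ →
        ∀ σ : GQ, A.IsFrobeniusAt σ ℓ → ((d σ : ℤ_[p]ˣ) : ℤ_[p]) = (ℓ : ℤ_[p])) ∧
      (∀ q : ℕ, q.Prime → q ≠ p → ∀ A : ValuationSubring Qb, A.LiesOverPrime q →
        ∀ σ ∈ A.inertiaSubgroupIn ℚ, d σ = 1) ∧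
      (∀ n : ℕ, ∃ L : IntermediateField ℚ Qb, FiniteDimensional ℚ L ∧
        ∀ σ : GQ, (∀ x ∈ L, σ x = x) →
          ∃ u : ℤ_[p], ((d σ : ℤ_[p]ˣ) : ℤ_[p]) - 1 = (p : ℤ_[p]) ^ n * u) ∧
      (∃ c : GQ, c * c = 1 ∧ ((d c : ℤ_[p]ˣ) : ℤ_[p]) = -1) :=
  ⟨S30CYC_d p, fun σ n _ hζ => S30CYC_spec p σ n hζ,
    fun _ hℓ hne A hA σ hσ => S30CYC_frob p hℓ hne A hA σ hσ,
    fun _ hq hne A hA σ hσ => S30CYC_inertia p hq hne A hA σ hσ,
    S30CYC_cont p, S30CYC_conj p⟩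

/-- **The contract `S30_CYC_statement p`** of `S30_helper12_Contracts`, verbatim. -/
theorem S30_CYC (p : ℕ) [Fact p.Prime] :
    Fermat.Agent.S30_helper12_Contracts.S30_CYC_statement p :=
  ⟨S30CYC_d p, S30CYC_cont_span p,
    fun _ hq hne A hA σ hσ => S30CYC_inertia p hq hne A hA σ hσ,
    fun _ hℓ hne A hA σ hσ => S30CYC_frob p hℓ hne A hA σ hσ,
    S30CYC_conj p⟩

/-! ### Roots of unity of arbitrary order prime to the residue characteristic

These are the finite-level statements (for any modulus `m`), by the same argument. -/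

theorem S30CYC_val_natCast_eq_one_of_coprime {ℓ m : ℕ} (A : ValuationSubring Qb)
    (hA : A.LiesOverPrime ℓ) (hcop : Nat.Coprime ℓ m) : A.valuation (m : Qb) = 1 := by
  have hvℓ : A.valuation (ℓ : Qb) < 1 := by
    have : (ℓ : Qb) ∈ A.nonunits := hA
    exact (ValuationSubring.mem_nonunits_iff (A := A)).mp this
  exact PGCYC_val_natCast_eq_one A hvℓ hcop

/-- Two `m`-th roots of unity which are congruent modulo the maximal ideal of a valuation ring
in which `m` is a unit are equal. -/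
theorem S30CYC_root_eq_of_sub_mem {L : Type*} [Field L] (A : ValuationSubring L) {m : ℕ}
    (hm : A.valuation (m : L) = 1) {x y : L} (hx : x ^ m = 1) (hy : y ^ m = 1)
    (h : x - y ∈ A.nonunits) : x = y := by
  have hm0 : m ≠ 0 := by
    rintro rfl
    simp at hm
  have hy0 : y ≠ 0 := by
    rintro rfl
    rw [zero_pow hm0] at hy
    exact zero_ne_one hy
  have hvy : A.valuation y = 1 := PGCYC_val_eq_one_of_pow_eq_one A hm0 hy
  have h1 : (x * y⁻¹) ^ m = 1 := by rw [mul_pow, inv_pow, hx, hy, inv_one, mul_one]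
  have h2 : A.valuation (x * y⁻¹ - 1) < 1 := by
    have e : x * y⁻¹ - 1 = (x - y) * y⁻¹ := by
      rw [sub_mul, mul_inv_cancel₀ hy0]
    rw [e, map_mul, map_inv₀, hvy, inv_one, mul_one]
    exact (ValuationSubring.mem_nonunits_iff (A := A)).mp h
  have h3 := S30CYC_eq_one_of_val_lt A hm h1 h2
  have h4 : x = x * y⁻¹ * y := by rw [mul_assoc, inv_mul_cancel₀ hy0, mul_one]
  rw [h4, h3, one_mul]

/-- A Frobenius element at `ℓ` raises every root of unity of order prime to `ℓ` to the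
`ℓ`-th power. -/
theorem S30CYC_frob_root {ℓ m : ℕ} (hcop : Nat.Coprime ℓ m) (A : ValuationSubring Qb)
    (hA : A.LiesOverPrime ℓ) (σ : GQ) (hσ : A.IsFrobeniusAt σ ℓ) {ζ : Qb} (hζ : ζ ^ m = 1) :
    σ ζ = ζ ^ ℓ := by
  rcases Nat.eq_zero_or_pos m with rfl | hmpos
  · -- `m = 0` forces `ℓ = 1`, which is impossible for a prime of a valuation ring
    have hℓ1 : ℓ = 1 := by simpa using hcop
    exfalso
    have : (ℓ : Qb) ∈ A.nonunits := hA
    rw [hℓ1, Nat.cast_one] at this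
    have h1 := (ValuationSubring.mem_nonunits_iff (A := A)).mp this
    rw [map_one] at h1
    exact lt_irrefl _ h1
  have hm0 : m ≠ 0 := hmpos.ne'
  have hmA := S30CYC_val_natCast_eq_one_of_coprime A hA hcop
  refine S30CYC_root_eq_of_sub_mem A hmA ?_ ?_ ?_
  · rw [← map_pow, hζ, map_one]
  · rw [← pow_mul, mul_comm, pow_mul, hζ, one_pow]
  · exact PGCYC_frobenius_spec A σ ℓ hσ ζ (PGCYC_mem_of_pow_eq_one A hm0 hζ)

/-- An element of an inertia group at `q` fixes every root of unity of order prime to `q`. -/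
theorem S30CYC_inertia_root {q m : ℕ} (hcop : Nat.Coprime q m) (A : ValuationSubring Qb)
    (hA : A.LiesOverPrime q) (σ : GQ) (hσ : σ ∈ A.inertiaSubgroupIn ℚ) {ζ : Qb}
    (hζ : ζ ^ m = 1) : σ ζ = ζ := by
  rcases Nat.eq_zero_or_pos m with rfl | hmpos
  · have hq1 : q = 1 := by simpa using hcop
    exfalso
    have : (q : Qb) ∈ A.nonunits := hA
    rw [hq1, Nat.cast_one] at this
    have h1 := (ValuationSubring.mem_nonunits_iff (A := A)).mp this
    rw [map_one] at h1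
    exact lt_irrefl _ h1
  have hm0 : m ≠ 0 := hmpos.ne'
  have hmA := S30CYC_val_natCast_eq_one_of_coprime A hA hcop
  refine S30CYC_root_eq_of_sub_mem A hmA ?_ hζ ?_
  · rw [← map_pow, hζ, map_one]
  · exact (Fermat.Agent.S05_helper5_Inertia.inertia_spec_gen A σ hσ ζ
      (PGCYC_mem_of_pow_eq_one A hm0 hζ)).2

end

end Fermat.Agent.S30_helper17_CYCADIC
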