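import Mathlib
import Fermat.Agent.S30_helper17_CYCADIC

/-!
# S30: transport of the `p`-adic cyclotomic character to a coefficient ring

For a ring homomorphism `f : ℤ_[p] →+* 𝒪` into a local ring whose maximal ideal contains `p`,
the character `d' := f ∘ d : G_ℚ →* 𝒪ˣ` satisfies the hypotheses on `d` of the contracts
`S30_REL_statement` and `S30_AW_statement` verbatim.
-/

set_option autoImplicit false

namespace Fermat.Agent.S30_helper17_CYCT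

noncomputable section

local notation "Qb" => AlgebraicClosure ℚ
local notation "GQ" => (AlgebraicClosure ℚ ≃ₐ[ℚ] AlgebraicClosure ℚ)

open Fermat.Agent.S30_helper17_CYCADIC

variable (p : ℕ) [Fact p.Prime] {𝒪 : Type*} [CommRing 𝒪]

/-- The cyclotomic character with values in `𝒪ˣ`. -/
def S30CYCT_d (f : ℤ_[p] →+* 𝒪) : GQ →* 𝒪ˣ :=
  (Units.map (f : ℤ_[p] →* 𝒪)).comp (S30CYC_d p)

theorem S30CYCT_d_coe (f : ℤ_[p] →+* 𝒪) (σ : GQ) :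
    ((S30CYCT_d p f σ : 𝒪ˣ) : 𝒪) = f ((S30CYC_d p σ : ℤ_[p]ˣ) : ℤ_[p]) := rfl

theorem S30CYCT_frob (f : ℤ_[p] →+* 𝒪) {ℓ : ℕ} (hℓ : ℓ.Prime) (hne : ℓ ≠ p)
    (A : ValuationSubring Qb) (hA : A.LiesOverPrime ℓ) (σ : GQ) (hσ : A.IsFrobeniusAt σ ℓ) :
    ((S30CYCT_d p f σ : 𝒪ˣ) : 𝒪) = (ℓ : 𝒪) := by
  rw [S30CYCT_d_coe, S30CYC_frob p hℓ hne A hA σ hσ, map_natCast]

theorem S30CYCT_inertia (f : ℤ_[p] →+* 𝒪) {q : ℕ} (hq : q.Prime) (hne : q ≠ p)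
    (A : ValuationSubring Qb) (hA : A.LiesOverPrime q) (σ : GQ)
    (hσ : σ ∈ A.inertiaSubgroupIn ℚ) : S30CYCT_d p f σ = 1 := by
  show (Units.map (f : ℤ_[p] →* 𝒪)) (S30CYC_d p σ) = 1
  rw [S30CYC_inertia p hq hne A hA σ hσ, map_one]

theorem S30CYCT_conj (f : ℤ_[p] →+* 𝒪) :
    ∃ c : GQ, c * c = 1 ∧ ((S30CYCT_d p f c : 𝒪ˣ) : 𝒪) = -1 := by
  obtain ⟨c, hc, hd⟩ := S30CYC_conj p
  exact ⟨c, hc, by rw [S30CYCT_d_coe, hd, map_neg, map_one]⟩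

/-- Continuity for any ideal `I` containing `p`. -/
theorem S30CYCT_cont_ideal (f : ℤ_[p] →+* 𝒪) (I : Ideal 𝒪) (hp : (p : 𝒪) ∈ I) (n : ℕ) :
    ∃ L : IntermediateField ℚ Qb, FiniteDimensional ℚ L ∧
      ∀ σ : GQ, (∀ x ∈ L, σ x = x) → ((S30CYCT_d p f σ : 𝒪ˣ) : 𝒪) - 1 ∈ I ^ n := by
  obtain ⟨L, hL, h⟩ := S30CYC_cont p n
  refine ⟨L, hL, fun σ hσ => ?_⟩
  obtain ⟨u, hu⟩ := h σ hσ
  have h1 : ((S30CYCT_d p f σ : 𝒪ˣ) : 𝒪) - 1 = (p : 𝒪) ^ n * f u := by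
    rw [S30CYCT_d_coe, ← map_one f, ← map_sub, hu, map_mul, map_pow, map_natCast]
  rw [h1]
  exact Ideal.mul_mem_right _ _ (Ideal.pow_mem_pow hp n)

variable [IsLocalRing 𝒪]

theorem S30CYCT_cont (f : ℤ_[p] →+* 𝒪) (hp : (p : 𝒪) ∈ IsLocalRing.maximalIdeal 𝒪) (n : ℕ) :
    ∃ L : IntermediateField ℚ Qb, FiniteDimensional ℚ L ∧
      ∀ σ : GQ, (∀ x ∈ L, σ x = x) →
        ((S30CYCT_d p f σ : 𝒪ˣ) : 𝒪) - 1 ∈ IsLocalRing.maximalIdeal 𝒪 ^ n :=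
  S30CYCT_cont_ideal p f _ hp n

/-- **Transport, packaged**: for every ring homomorphism `f : ℤ_[p] →+* 𝒪` into a local ring
with `p` in the maximal ideal there is a character `d : G_ℚ →* 𝒪ˣ` with the hypotheses of
`S30_REL_statement` and `S30_AW_statement` (for every finite set `S` of primes containing `p`),
trivial on inertia away from `p`. -/
theorem S30CYCT_exists (f : ℤ_[p] →+* 𝒪) (hp : (p : 𝒪) ∈ IsLocalRing.maximalIdeal 𝒪) :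
    ∃ (d : GQ →* 𝒪ˣ) (c : GQ),
      (∀ n : ℕ, ∃ L : IntermediateField ℚ Qb, FiniteDimensional ℚ L ∧
        ∀ σ : GQ, (∀ x ∈ L, σ x = x) →
          ((d σ : 𝒪ˣ) : 𝒪) - 1 ∈ IsLocalRing.maximalIdeal 𝒪 ^ n) ∧
      (∀ S : Finset ℕ, p ∈ S → ∀ ℓ : ℕ, ℓ.Prime → ℓ ∉ S → ∀ A : ValuationSubring Qb,
        A.LiesOverPrime ℓ → ∀ σ : GQ, A.IsFrobeniusAt σ ℓ → ((d σ : 𝒪ˣ) : 𝒪) = (ℓ : 𝒪)) ∧
      (∀ q : ℕ, q.Prime → q ≠ p → ∀ A : ValuationSubring Qb, A.LiesOverPrime q →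
        ∀ σ ∈ A.inertiaSubgroupIn ℚ, d σ = 1) ∧
      c * c = 1 ∧ ((d c : 𝒪ˣ) : 𝒪) = -1 ∧
      ∀ σ : GQ, ((d σ : 𝒪ˣ) : 𝒪) = f ((S30CYC_d p σ : ℤ_[p]ˣ) : ℤ_[p]) := by
  obtain ⟨c, hc, hd⟩ := S30CYCT_conj p f
  refine ⟨S30CYCT_d p f, c, S30CYCT_cont p f hp, ?_, ?_, hc, hd, fun _ => rfl⟩
  · intro S hpS ℓ hℓ hℓS A hA σ hσ
    exact S30CYCT_frob p f hℓ (fun h => hℓS (h ▸ hpS)) A hA σ hσ
  · intro q hq hne A hA σ hσ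
    exact S30CYCT_inertia p f hq hne A hA σ hσ

end

end Fermat.Agent.S30_helper17_CYCT
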