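import Mathlib
import Fermat.Prelude.Def_CuspForm_HeckeGaloisRepDatum
import Fermat.Agent.S30_helper12_BC2
import Fermat.Agent.S30_helper17_CYCT

/-!
# S30: the final plug, for an abstract Tate module (helper12)

`S30FINAL_abstract`: the conclusion of the frozen statement S30 (with `𝒪'' := 𝒪'`), from a
finite free `ℤ_[p]`-module `Λ` with Galois action `ρ` and Hecke operators `T ℓ` satisfying
commutation, `p`-adic continuity, inertia-triviality and the Eichler-Shimura relations outside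
`N p`, and a nonzero eigenvector in `𝒪' ⊗[ℤ_[p]] Λ` for the eigensystem `χ`.
-/

set_option autoImplicit false
set_option linter.unusedSectionVars false
set_option linter.unusedVariables false
set_option linter.style.haveILetI false

open Polynomial
open scoped TensorProduct

noncomputable section

namespace Fermat.Agent.S30_helper12_FINAL

open Fermat.Agent.S30_helper12_Contracts Fermat.Agent.S30_helper12_BC2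
  Fermat.Agent.S30_helper17_CYCT

local notation "Qb" => AlgebraicClosure ℚ
local notation "GQ" => (AlgebraicClosure ℚ ≃ₐ[ℚ] AlgebraicClosure ℚ)

/-- a prime outside `S ⊇ {p} ∪ {q ∣ N}` does not divide `N * p` -/
theorem S30FINAL_not_dvd {p N : ℕ} (hp : p.Prime) (S : Finset ℕ) (hpS : p ∈ S)
    (hNS : ∀ q : ℕ, q.Prime → q ∣ N → q ∈ S) {ℓ : ℕ} (hℓ : ℓ.Prime) (hℓS : ℓ ∉ S) :
    ¬ ℓ ∣ N * p := by
  intro h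
  rcases (Nat.Prime.dvd_mul hℓ).1 h with h1 | h1
  · exact hℓS (hNS ℓ hℓ h1)
  · have : ℓ = p := (Nat.prime_dvd_prime_iff_eq hℓ hp).1 h1
    exact hℓS (this ▸ hpS)

theorem S30FINAL_abstract {p : ℕ} [Fact p.Prime] {N : ℕ} [NeZero N] (S : Finset ℕ)
    (hpS : p ∈ S) (hNS : ∀ q : ℕ, q.Prime → q ∣ N → q ∈ S)
    (𝒪' : Type) [CommRing 𝒪'] [IsDomain 𝒪'] [IsDiscreteValuationRing 𝒪']
    [IsAdicComplete (IsLocalRing.maximalIdeal 𝒪') 𝒪'] [Finite (IsLocalRing.ResidueField 𝒪')]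
    [CharZero 𝒪'] [Algebra ℤ_[p] 𝒪'] (hp𝒪' : (p : 𝒪') ∈ IsLocalRing.maximalIdeal 𝒪')
    (χ : CuspForm.heckeAlgebra N 2 (↑S : Set ℕ) →+* 𝒪')
    (Λ : Type) [AddCommGroup Λ] [Module ℤ_[p] Λ] [Module.Finite ℤ_[p] Λ] [Module.Free ℤ_[p] Λ]
    (ρ : GQ →* Module.End ℤ_[p] Λ) (T : ℕ → Module.End ℤ_[p] Λ)
    (hcomm : ∀ (ℓ : ℕ) (g : GQ), ℓ.Prime → T ℓ * ρ g = ρ g * T ℓ)
    (hcont : ∀ n : ℕ, ∃ L : IntermediateField ℚ Qb, FiniteDimensional ℚ L ∧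
      ∀ σ : GQ, (∀ x ∈ L, σ x = x) → ∀ v : Λ, ∃ w : Λ, ρ σ v - v = (p : ℤ_[p]) ^ n • w)
    (hunr : ∀ q : ℕ, q.Prime → ¬ q ∣ N * p → ∀ A : ValuationSubring Qb, A.LiesOverPrime q →
      ∀ σ ∈ A.inertiaSubgroupIn ℚ, ρ σ = 1)
    (hES : ∀ ℓ : ℕ, ℓ.Prime → ¬ ℓ ∣ N * p → ∀ A : ValuationSubring Qb, A.LiesOverPrime ℓ →
      ∀ σ : GQ, A.IsFrobeniusAt σ ℓ →
        ρ σ * ρ σ - T ℓ * ρ σ + (ℓ : ℤ_[p]) • (1 : Module.End ℤ_[p] Λ) = 0)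
    (hv : ∃ v : 𝒪' ⊗[ℤ_[p]] Λ, v ≠ 0 ∧
      ∀ (ℓ : ℕ) (hℓ : ℓ.Prime) (hℓN : ¬ ℓ ∣ N) (hℓS : ℓ ∉ (↑S : Set ℕ)),
        (T ℓ).baseChange 𝒪' v = χ (CuspForm.heckeAlgebra.T hℓ hℓN hℓS) • v) :
    ∃ (𝒪'' : Type) (_ : CommRing 𝒪'') (_ : IsDomain 𝒪'') (_ : IsDiscreteValuationRing 𝒪'')
      (_ : IsAdicComplete (IsLocalRing.maximalIdeal 𝒪'') 𝒪'')
      (_ : Finite (IsLocalRing.ResidueField 𝒪'')) (_ : CharZero 𝒪'')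
      (_ : Algebra 𝒪' 𝒪'') (_ : Module.Finite 𝒪' 𝒪'') (_ : IsLocalHom (algebraMap 𝒪' 𝒪'')),
    Function.Injective (algebraMap 𝒪' 𝒪'') ∧
    ∃ ρ' : GaloisRepAdic 𝒪'',
      (∀ (ℓ : ℕ) (hℓ : ℓ.Prime) (hℓN : ¬ ℓ ∣ N) (hℓS : ℓ ∉ (↑S : Set ℕ)),
        ∀ A : ValuationSubring (AlgebraicClosure ℚ), A.LiesOverPrime ℓ →
          ∀ σ : AlgebraicClosure ℚ ≃ₐ[ℚ] AlgebraicClosure ℚ, A.IsFrobeniusAt σ ℓ →
            LinearMap.charpoly (ρ'.ρ σ) =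
              X ^ 2 - C (algebraMap 𝒪' 𝒪'' (χ (CuspForm.heckeAlgebra.T hℓ hℓN hℓS))) * X
                + C ((ℓ : 𝒪''))) ∧
      (∀ q : ℕ, q.Prime → ¬ q ∣ N → q ≠ p → ρ'.IsUnramifiedAt q) := by
  classical
  have hp : p.Prime := Fact.out
  -- the eigenvalues
  let a : ℕ → 𝒪' := fun ℓ =>
    if h : ℓ.Prime ∧ ¬ ℓ ∣ N ∧ ℓ ∉ (↑S : Set ℕ) then χ (CuspForm.heckeAlgebra.T h.1 h.2.1 h.2.2)
    else 0
  have ha : ∀ (ℓ : ℕ) (hℓ : ℓ.Prime) (hℓN : ¬ ℓ ∣ N) (hℓS : ℓ ∉ (↑S : Set ℕ)),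
      a ℓ = χ (CuspForm.heckeAlgebra.T hℓ hℓN hℓS) := by
    intro ℓ hℓ hℓN hℓS
    simp only [a]
    rw [dif_pos ⟨hℓ, hℓN, hℓS⟩]
  have hN : ∀ ℓ : ℕ, ℓ.Prime → ℓ ∉ S → ¬ ℓ ∣ N := fun ℓ hℓ hℓS h => hℓS (hNS ℓ hℓ h)
  have hS' : ∀ ℓ : ℕ, ℓ ∉ S → ℓ ∉ (↑S : Set ℕ) := fun ℓ h h' => h (Finset.mem_coe.1 h')
  have hne : ∀ ℓ : ℕ, ℓ ∉ S → ℓ ≠ p := fun ℓ h h' => h (h' ▸ hpS)
  -- the cyclotomic character
  let f : ℤ_[p] →+* 𝒪' := algebraMap ℤ_[p] 𝒪'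
  obtain ⟨c, hcc, hdc⟩ := S30CYCT_conj p f
  obtain ⟨ρ', h1, h2⟩ := S30BC2_main S 𝒪' hp𝒪' Λ ρ T a (S30CYCT_d p f) c
    (fun ℓ g hℓ _ => hcomm ℓ g hℓ) hcont (fun n => S30CYCT_cont p f hp𝒪' n)
    (fun ℓ hℓ hℓS A hA σ hσ => S30CYCT_frob p f hℓ (hne ℓ hℓS) A hA σ hσ) hcc hdc
    (fun ℓ hℓ hℓS A hA σ hσ => hES ℓ hℓ (S30FINAL_not_dvd hp S hpS hNS hℓ hℓS) A hA σ hσ)
    (by
      obtain ⟨v, hv0, hv1⟩ := hv
      exact ⟨v, hv0, fun ℓ hℓ hℓS => by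
        rw [ha ℓ hℓ (hN ℓ hℓ hℓS) (hS' ℓ hℓS)]
        exact hv1 ℓ hℓ (hN ℓ hℓ hℓS) (hS' ℓ hℓS)⟩)
  refine ⟨𝒪', inferInstance, inferInstance, inferInstance, inferInstance, inferInstance,
    inferInstance, Algebra.id 𝒪', inferInstance, ?_, ?_, ρ', ?_, ?_⟩
  · exact ⟨fun _ h => h⟩
  · exact fun _ _ h => h
  · intro ℓ hℓ hℓN hℓS A hA σ hσ
    have hℓS' : ℓ ∉ S := fun h => hℓS (Finset.mem_coe.2 h)
    rw [h1 ℓ hℓ hℓS' A hA σ hσ, ha ℓ hℓ hℓN hℓS]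
    rfl
  · intro q hq hqN hqp P hP σ hσ
    have hq' : ¬ q ∣ N * p := by
      intro h
      rcases (Nat.Prime.dvd_mul hq).1 h with h3 | h3
      · exact hqN h3
      · exact hqp ((Nat.prime_dvd_prime_iff_eq hq hp).1 h3)
    exact h2 σ (hunr q hq hq' P hP σ hσ) (S30CYCT_inertia p f hq hqp P hP σ hσ)

end Fermat.Agent.S30_helper12_FINAL
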