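import Mathlib

/-!
# S30 P3a: the generic Tate module (helper1)

For an additive commutative group `J` and a prime `p`:

* `S30T_Tate J p : AddSubgroup (ℕ → J)`, the compatible systems `x` with `p ^ n • x n = 0`,
  `p • x (n + 1) = x n`;
* `Module ℤ_[p] (S30T_Tate J p)` with `(a • x) n = a.appr n • x n`;
* `S30T_ker_proj`: `x n = 0 ↔ x ∈ p ^ n T`;
* torsion-freeness.

Finiteness, freeness and functoriality are in `S30_helper1_TATEF`.
-/

namespace Fermat.Agent.S30_helper1_TATE

open PadicInt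

section Defs

variable (J : Type*) [AddCommGroup J] (p : ℕ)

/-- The `p`-adic Tate module of the additive group `J`. -/
def S30T_Tate : AddSubgroup (ℕ → J) where
  carrier := {x | (∀ n, (p ^ n) • x n = 0) ∧ ∀ n, p • x (n + 1) = x n}
  zero_mem' := by constructor <;> intro n <;> simp
  add_mem' := by
    rintro x y ⟨hx1, hx2⟩ ⟨hy1, hy2⟩
    constructor
    · intro n
      simp [smul_add, hx1 n, hy1 n]
    · intro n
      simp [smul_add, hx2 n, hy2 n]
  neg_mem' := by
    rintro x ⟨hx1, hx2⟩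
    constructor
    · intro n
      simp [hx1 n]
    · intro n
      simp [hx2 n]

variable {J p}

theorem S30T_mem_iff (x : ℕ → J) :
    x ∈ S30T_Tate J p ↔ (∀ n, (p ^ n) • x n = 0) ∧ ∀ n, p • x (n + 1) = x n := Iff.rfl

theorem S30T_pow_smul_self (x : S30T_Tate J p) (n : ℕ) : (p ^ n) • (x : ℕ → J) n = 0 :=
  x.2.1 n

theorem S30T_smul_succ (x : S30T_Tate J p) (n : ℕ) :
    p • (x : ℕ → J) (n + 1) = (x : ℕ → J) n :=
  x.2.2 n

theorem S30T_pow_smul_add (x : S30T_Tate J p) (k n : ℕ) :
    (p ^ n) • (x : ℕ → J) (k + n) = (x : ℕ → J) k := by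
  induction n with
  | zero => simp
  | succ n ih =>
    rw [pow_succ, mul_smul, ← add_assoc, S30T_smul_succ, ih]

theorem S30T_apply_zero (x : S30T_Tate J p) : (x : ℕ → J) 0 = 0 := by
  simpa using S30T_pow_smul_self x 0

@[ext]
theorem S30T_ext {x y : S30T_Tate J p} (h : ∀ n, (x : ℕ → J) n = (y : ℕ → J) n) : x = y :=
  Subtype.ext (funext h)

/-- Two natural numbers congruent modulo `p ^ n` act in the same way on the `n`-th coordinate. -/
theorem S30T_nsmul_congr (x : S30T_Tate J p) (n : ℕ) {a b : ℕ}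
    (h : (a : ZMod (p ^ n)) = (b : ZMod (p ^ n))) :
    a • (x : ℕ → J) n = b • (x : ℕ → J) n := by
  have hmod : a ≡ b [MOD p ^ n] := (ZMod.natCast_eq_natCast_iff a b (p ^ n)).1 h
  have key : ∀ c : ℕ, c • (x : ℕ → J) n = (c % p ^ n) • (x : ℕ → J) n := by
    intro c
    conv_lhs => rw [← Nat.mod_add_div c (p ^ n)]
    rw [add_smul, mul_smul, smul_comm (p ^ n) (c / p ^ n), S30T_pow_smul_self, smul_zero,
      add_zero]
  rw [key a, key b, hmod]

end Defs

section Module

variable {J : Type*} [AddCommGroup J] {p : ℕ} [hp : Fact p.Prime]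

theorem S30T_appr_cast (a : ℤ_[p]) (n : ℕ) :
    ((a.appr n : ℕ) : ZMod (p ^ n)) = toZModPow n a := rfl

theorem S30T_appr_succ_cast (a : ℤ_[p]) (n : ℕ) :
    ((a.appr (n + 1) : ℕ) : ZMod (p ^ n)) = toZModPow n a := by
  rw [← cast_toZModPow n (n + 1) (Nat.le_succ n) a, ← S30T_appr_cast a (n + 1)]
  rw [ZMod.cast_natCast (pow_dvd_pow p (Nat.le_succ n))]

/-- The scalar multiplication of `ℤ_[p]` on the Tate module. -/
noncomputable instance S30T_instSMul : SMul ℤ_[p] (S30T_Tate J p) where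
  smul a x := ⟨fun n => a.appr n • (x : ℕ → J) n, by
    constructor
    · intro n
      show (p ^ n) • (a.appr n • (x : ℕ → J) n) = 0
      rw [smul_comm, S30T_pow_smul_self, smul_zero]
    · intro n
      show p • (a.appr (n + 1) • (x : ℕ → J) (n + 1)) = a.appr n • (x : ℕ → J) n
      rw [smul_comm, S30T_smul_succ]
      exact S30T_nsmul_congr x n ((S30T_appr_succ_cast a n).trans (S30T_appr_cast a n).symm)⟩

theorem S30T_smul_apply (a : ℤ_[p]) (x : S30T_Tate J p) (n : ℕ) :
    ((a • x : S30T_Tate J p) : ℕ → J) n = a.appr n • (x : ℕ → J) n := rfl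

/-- The action of `a` on the `n`-th coordinate is multiplication by any natural number
congruent to `a` modulo `p ^ n`. -/
theorem S30T_smul_apply_of_cast (a : ℤ_[p]) (x : S30T_Tate J p) (n : ℕ) (m : ℕ)
    (h : toZModPow n a = (m : ZMod (p ^ n))) :
    ((a • x : S30T_Tate J p) : ℕ → J) n = m • (x : ℕ → J) n := by
  rw [S30T_smul_apply]
  exact S30T_nsmul_congr x n ((S30T_appr_cast a n).trans h)

noncomputable instance S30T_instModule : Module ℤ_[p] (S30T_Tate J p) where
  one_smul x := by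
    ext n
    rw [S30T_smul_apply_of_cast 1 x n 1 (by simp), one_smul]
  mul_smul a b x := by
    ext n
    rw [S30T_smul_apply_of_cast (a * b) x n (a.appr n * b.appr n)
      (by rw [map_mul, Nat.cast_mul, S30T_appr_cast, S30T_appr_cast]), mul_smul]
    rfl
  smul_zero a := by
    ext n
    rw [S30T_smul_apply]
    simp
  smul_add a x y := by
    ext n
    rw [S30T_smul_apply]
    simp only [AddSubgroup.coe_add, Pi.add_apply, smul_add]
    rfl
  add_smul a b x := by
    ext n
    rw [S30T_smul_apply_of_cast (a + b) x n (a.appr n + b.appr n)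
      (by rw [map_add, Nat.cast_add, S30T_appr_cast, S30T_appr_cast]), add_smul]
    rfl
  zero_smul x := by
    ext n
    rw [S30T_smul_apply_of_cast 0 x n 0 (by simp), zero_smul]
    rfl

theorem S30T_natCast_smul_apply (m : ℕ) (x : S30T_Tate J p) (n : ℕ) :
    (((m : ℤ_[p]) • x : S30T_Tate J p) : ℕ → J) n = m • (x : ℕ → J) n :=
  S30T_smul_apply_of_cast _ x n m (by simp)

theorem S30T_p_pow_smul_apply (k : ℕ) (x : S30T_Tate J p) (n : ℕ) :
    ((((p : ℤ_[p]) ^ k) • x : S30T_Tate J p) : ℕ → J) n = (p ^ k) • (x : ℕ → J) n :=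
  S30T_smul_apply_of_cast _ x n (p ^ k) (by simp)

/-- The projection to the `n`-th coordinate. -/
def S30T_proj (J : Type*) [AddCommGroup J] (p : ℕ) (n : ℕ) : S30T_Tate J p →+ J where
  toFun x := (x : ℕ → J) n
  map_zero' := rfl
  map_add' _ _ := rfl

omit hp in
@[simp]
theorem S30T_proj_apply (n : ℕ) (x : S30T_Tate J p) : S30T_proj J p n x = (x : ℕ → J) n := rfl

/-- The shift `y k = x (n + k)`, an element of the Tate module as soon as `x n = 0`. -/
def S30T_shift (x : S30T_Tate J p) (n : ℕ) (h : (x : ℕ → J) n = 0) : S30T_Tate J p :=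
  ⟨fun k => (x : ℕ → J) (n + k), by
    constructor
    · intro k
      show (p ^ k) • (x : ℕ → J) (n + k) = 0
      rw [S30T_pow_smul_add, h]
    · intro k
      exact S30T_smul_succ x (n + k)⟩

theorem S30T_p_pow_smul_shift (x : S30T_Tate J p) (n : ℕ) (h : (x : ℕ → J) n = 0) :
    ((p : ℤ_[p]) ^ n) • S30T_shift x n h = x := by
  ext k
  rw [S30T_p_pow_smul_apply]
  show (p ^ n) • (x : ℕ → J) (n + k) = _
  rw [add_comm, S30T_pow_smul_add]

/-- The kernel of the projection to level `n` is `p ^ n T`. -/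
theorem S30T_ker_proj (x : S30T_Tate J p) (n : ℕ) :
    (x : ℕ → J) n = 0 ↔ ∃ y : S30T_Tate J p, x = ((p : ℤ_[p]) ^ n) • y := by
  constructor
  · intro h
    exact ⟨S30T_shift x n h, (S30T_p_pow_smul_shift x n h).symm⟩
  · rintro ⟨y, rfl⟩
    rw [S30T_p_pow_smul_apply, S30T_pow_smul_self]

theorem S30T_p_pow_smul_eq_zero (k : ℕ) (x : S30T_Tate J p)
    (h : ((p : ℤ_[p]) ^ k) • x = 0) : x = 0 := by
  ext n
  have h1 : (p ^ k) • (x : ℕ → J) (n + k) = 0 := by
    rw [← S30T_p_pow_smul_apply, h]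
    rfl
  rw [S30T_pow_smul_add] at h1
  rw [h1]
  rfl

instance S30T_isTorsionFree : Module.IsTorsionFree ℤ_[p] (S30T_Tate J p) where
  isSMulRegular r hr := by
    have hr0 : r ≠ 0 := hr.ne_zero
    intro x y hxy
    have hsub : r • (x - y) = 0 := by
      rw [smul_sub]
      exact sub_eq_zero.2 hxy
    have hspec := PadicInt.unitCoeff_spec hr0
    rw [hspec, mul_smul] at hsub
    have h2 : ((p : ℤ_[p]) ^ r.valuation) • (x - y) = 0 := by
      have := congrArg (fun z => ((PadicInt.unitCoeff hr0)⁻¹ : ℤ_[p]ˣ) • z) hsub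
      simpa [Units.smul_def, smul_smul] using this
    exact sub_eq_zero.1 (S30T_p_pow_smul_eq_zero _ _ h2)

theorem S30T_smul_eq_zero (a : ℤ_[p]) (x : S30T_Tate J p) (h : a • x = 0) : a = 0 ∨ x = 0 := by
  by_cases ha : a = 0
  · exact Or.inl ha
  · right
    have hreg : IsRegular a := IsRegular.of_ne_zero ha
    exact (hreg.isSMulRegular (M := S30T_Tate J p)) (by simpa using h)

end Module

end Fermat.Agent.S30_helper1_TATE
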