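import Mathlib
import Fermat.Prelude.Sol.S_IsAdicComplete_of_module_finite
import Fermat.Agent.S30_helper1_TATE

/-!
# S30 P3a, part 2: finiteness, freeness and functoriality of the generic Tate module (helper1)

* `S30T_mem_pow_smul_top_iff`: `x ∈ 𝔪 ^ n • ⊤ ↔ x n = 0`;
* `S30T_isHausdorff`: the Tate module is `p`-adically separated;
* `S30T_finite`, `S30T_free`: if `J[p]` is finite, the Tate module is a finite free
  `ℤ_[p]`-module;
* `S30T_map : AddMonoid.End J →+* Module.End ℤ_[p] (S30T_Tate J p)` (coordinatewise);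
* `S30T_map_eq_zero`, `S30T_map_sub_mem`: relations and congruences on torsion transfer;
* `S30T_lift`: a compatible family `Θ n : M →+ J` gives `M →+ S30T_Tate J p`.
-/

namespace Fermat.Agent.S30_helper1_TATEF

open PadicInt Fermat.Agent.S30_helper1_TATE

section Hausdorff

variable {J : Type*} [AddCommGroup J] {p : ℕ} [hp : Fact p.Prime]

/-- Elements of `(p ^ n)` act as zero on the `n`-th coordinate. -/
theorem S30T_smul_apply_eq_zero (r : ℤ_[p]) (n : ℕ)
    (hr : r ∈ Ideal.span {(p : ℤ_[p]) ^ n}) (y : S30T_Tate J p) :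
    ((r • y : S30T_Tate J p) : ℕ → J) n = 0 := by
  have h0 : toZModPow n r = 0 := by
    rw [← RingHom.mem_ker, ker_toZModPow]
    exact hr
  rw [S30T_smul_apply_of_cast r y n 0 (by simpa using h0), zero_smul]

theorem S30T_maximalIdeal_pow (n : ℕ) :
    IsLocalRing.maximalIdeal ℤ_[p] ^ n = Ideal.span {(p : ℤ_[p]) ^ n} := by
  rw [maximalIdeal_eq_span_p, Ideal.span_singleton_pow]

/-- `𝔪 ^ n T` is the kernel of the projection to level `n`. -/
theorem S30T_mem_pow_smul_top_iff (x : S30T_Tate J p) (n : ℕ) :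
    x ∈ (IsLocalRing.maximalIdeal ℤ_[p] ^ n) • (⊤ : Submodule ℤ_[p] (S30T_Tate J p)) ↔
      (x : ℕ → J) n = 0 := by
  constructor
  · intro hx
    refine Submodule.smul_induction_on hx ?_ ?_
    · intro r hr y _
      rw [S30T_maximalIdeal_pow] at hr
      exact S30T_smul_apply_eq_zero r n hr y
    · intro y z hy hz
      show (y : ℕ → J) n + (z : ℕ → J) n = 0
      rw [hy, hz, add_zero]
  · intro hx
    obtain ⟨y, rfl⟩ := (S30T_ker_proj x n).1 hx
    refine Submodule.smul_mem_smul ?_ Submodule.mem_top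
    rw [S30T_maximalIdeal_pow]
    exact Ideal.mem_span_singleton_self _

theorem S30T_mem_smul_top_iff (x : S30T_Tate J p) :
    x ∈ (IsLocalRing.maximalIdeal ℤ_[p]) • (⊤ : Submodule ℤ_[p] (S30T_Tate J p)) ↔
      (x : ℕ → J) 1 = 0 := by
  have := S30T_mem_pow_smul_top_iff x 1
  rwa [pow_one] at this

instance S30T_isHausdorff :
    IsHausdorff (IsLocalRing.maximalIdeal ℤ_[p]) (S30T_Tate J p) where
  haus' x hx := by
    ext n
    have h := hx n
    rw [SModEq.zero] at h
    exact (S30T_mem_pow_smul_top_iff x n).1 h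

end Hausdorff

section Finite

variable {J : Type*} [AddCommGroup J] {p : ℕ} [hp : Fact p.Prime]

/-- If `J[p]` is finite, the Tate module is a finitely generated `ℤ_[p]`-module. -/
theorem S30T_finite (hfin : {y : J | p • y = 0}.Finite) :
    Module.Finite ℤ_[p] (S30T_Tate J p) := by
  classical
  have hE : (Set.range (S30T_proj J p 1)).Finite := by
    refine hfin.subset ?_
    rintro _ ⟨x, rfl⟩
    simpa using S30T_pow_smul_self x 1
  let E : Type _ := ↥(Set.range (S30T_proj J p 1))
  let _ : Fintype E := hE.fintype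
  choose s hs using fun e : E => e.2
  let f : (E → ℤ_[p]) →ₗ[ℤ_[p]] S30T_Tate J p := Fintype.linearCombination ℤ_[p] s
  have hpre : IsPrecomplete (IsLocalRing.maximalIdeal ℤ_[p]) (E → ℤ_[p]) :=
    P2MW.S_IsAdicComplete_of_module_finite.M4cP1X1.isPrecomplete_pi
      (IsLocalRing.maximalIdeal ℤ_[p]) E
  have hsurj : Function.Surjective f := by
    apply surjective_of_mkQ_comp_surjective (I := IsLocalRing.maximalIdeal ℤ_[p])
    intro z
    obtain ⟨x, rfl⟩ := Submodule.mkQ_surjective _ z
    let e : E := ⟨(x : ℕ → J) 1, x, rfl⟩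
    refine ⟨Pi.single e 1, ?_⟩
    have hf : f (Pi.single e 1) = s e := by
      simp [f, Fintype.linearCombination_apply_single]
    rw [LinearMap.comp_apply, hf, Submodule.mkQ_apply, Submodule.mkQ_apply,
      Submodule.Quotient.eq, S30T_mem_smul_top_iff]
    show (s e : ℕ → J) 1 - (x : ℕ → J) 1 = 0
    have := hs e
    rw [S30T_proj_apply] at this
    rw [this]
    exact sub_self _
  exact Module.Finite.of_surjective f hsurj

/-- If `J[p]` is finite, the Tate module is a free `ℤ_[p]`-module. -/
theorem S30T_free (hfin : {y : J | p • y = 0}.Finite) :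
    Module.Free ℤ_[p] (S30T_Tate J p) := by
  have := S30T_finite (J := J) (p := p) hfin
  exact Module.free_of_finite_type_torsion_free'

/-- Variant of `S30T_finite` / `S30T_free` with the torsion expressed through `ℤ`-scalars (the
shape of `Pic0.torsion`). -/
theorem S30T_finite_free_of_zsmul (hfin : {y : J | (p : ℤ) • y = 0}.Finite) :
    Module.Finite ℤ_[p] (S30T_Tate J p) ∧ Module.Free ℤ_[p] (S30T_Tate J p) := by
  have h : {y : J | p • y = 0}.Finite := by
    refine hfin.subset ?_
    intro y hy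
    show (p : ℤ) • y = 0
    rw [natCast_zsmul]
    exact hy
  exact ⟨S30T_finite h, S30T_free h⟩

end Finite

section Functoriality

variable {J : Type*} [AddCommGroup J] {p : ℕ}

/-- The coordinatewise action of an additive endomorphism on the Tate module. -/
def S30T_mapFun (f : J →+ J) (x : S30T_Tate J p) : S30T_Tate J p :=
  ⟨fun n => f ((x : ℕ → J) n), by
    constructor
    · intro n
      show (p ^ n) • f ((x : ℕ → J) n) = 0
      rw [← map_nsmul, S30T_pow_smul_self, map_zero]
    · intro n
      show p • f ((x : ℕ → J) (n + 1)) = f ((x : ℕ → J) n)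
      rw [← map_nsmul, S30T_smul_succ]⟩

theorem S30T_mapFun_apply (f : J →+ J) (x : S30T_Tate J p) (n : ℕ) :
    (S30T_mapFun f x : ℕ → J) n = f ((x : ℕ → J) n) := rfl

variable [hp : Fact p.Prime]

/-- The coordinatewise action, as a `ℤ_[p]`-linear endomorphism. -/
def S30T_mapLin (f : J →+ J) : Module.End ℤ_[p] (S30T_Tate J p) where
  toFun := S30T_mapFun f
  map_add' x y := by
    ext n
    show f ((x : ℕ → J) n + (y : ℕ → J) n) = f ((x : ℕ → J) n) + f ((y : ℕ → J) n)
    exact map_add f _ _
  map_smul' a x := by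
    ext n
    show f (a.appr n • (x : ℕ → J) n) = a.appr n • f ((x : ℕ → J) n)
    exact map_nsmul f _ _

/-- Functoriality of the Tate module: a ring homomorphism from the additive endomorphisms of `J`
to the `ℤ_[p]`-linear endomorphisms of the Tate module. -/
def S30T_map : AddMonoid.End J →+* Module.End ℤ_[p] (S30T_Tate J p) where
  toFun f := S30T_mapLin f
  map_one' := by
    ext x n
    rfl
  map_mul' f g := by
    ext x n
    rfl
  map_zero' := by
    ext x n
    rfl
  map_add' f g := by
    ext x n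
    rfl

@[simp]
theorem S30T_map_apply (f : AddMonoid.End J) (x : S30T_Tate J p) (n : ℕ) :
    ((S30T_map (p := p) f x : S30T_Tate J p) : ℕ → J) n = f ((x : ℕ → J) n) := rfl

/-- Commuting endomorphisms of `J` give commuting endomorphisms of the Tate module. -/
theorem S30T_map_commute {f g : AddMonoid.End J} (h : Commute f g) :
    Commute (S30T_map (p := p) f) (S30T_map (p := p) g) :=
  h.map S30T_map

/-- Two endomorphisms which agree on the `p`-power torsion of `J` induce the same endomorphism
of the Tate module. -/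
theorem S30T_map_eq_of_eqOn {f g : AddMonoid.End J}
    (h : ∀ (n : ℕ) (y : J), (p ^ n) • y = 0 → f y = g y) :
    S30T_map (p := p) f = S30T_map (p := p) g := by
  ext x n
  exact h n _ (S30T_pow_smul_self x n)

/-- An endomorphism which vanishes on the `p`-power torsion of `J` induces zero on the Tate
module. -/
theorem S30T_map_eq_zero {f : AddMonoid.End J}
    (h : ∀ (n : ℕ) (y : J), (p ^ n) • y = 0 → f y = 0) :
    S30T_map (p := p) f = 0 := by
  rw [← map_zero (S30T_map (p := p) (J := J))]
  exact S30T_map_eq_of_eqOn (fun n y hy => by rw [h n y hy]; rfl)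

/-- An endomorphism which is the identity on the `p`-power torsion of `J` induces the identity
on the Tate module. -/
theorem S30T_map_eq_one {f : AddMonoid.End J}
    (h : ∀ (n : ℕ) (y : J), (p ^ n) • y = 0 → f y = y) :
    S30T_map (p := p) f = 1 := by
  rw [← map_one (S30T_map (p := p) (J := J))]
  exact S30T_map_eq_of_eqOn (fun n y hy => by rw [h n y hy]; rfl)

/-- Adic continuity: two endomorphisms which agree on `J[p ^ n]` agree on the Tate module
modulo `𝔪 ^ n`. -/
theorem S30T_map_sub_mem {f g : AddMonoid.End J} (n : ℕ)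
    (h : ∀ y : J, (p ^ n) • y = 0 → f y = g y) (x : S30T_Tate J p) :
    S30T_map (p := p) f x - S30T_map (p := p) g x ∈
      (IsLocalRing.maximalIdeal ℤ_[p] ^ n) • (⊤ : Submodule ℤ_[p] (S30T_Tate J p)) := by
  rw [S30T_mem_pow_smul_top_iff]
  show f ((x : ℕ → J) n) - g ((x : ℕ → J) n) = 0
  rw [h _ (S30T_pow_smul_self x n), sub_self]

/-- Adic continuity, for the identity: an endomorphism which is trivial on `J[p ^ n]` is trivial
on the Tate module modulo `𝔪 ^ n`. -/
theorem S30T_map_sub_self_mem {f : AddMonoid.End J} (n : ℕ)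
    (h : ∀ y : J, (p ^ n) • y = 0 → f y = y) (x : S30T_Tate J p) :
    S30T_map (p := p) f x - x ∈
      (IsLocalRing.maximalIdeal ℤ_[p] ^ n) • (⊤ : Submodule ℤ_[p] (S30T_Tate J p)) := by
  have := S30T_map_sub_mem (p := p) (f := f) (g := 1) n (fun y hy => by rw [h y hy]; rfl) x
  rwa [map_one] at this

end Functoriality

section Lift

variable {J : Type*} [AddCommGroup J] {p : ℕ} {M : Type*} [AddCommGroup M]

/-- A compatible family of homomorphisms to the torsion levels gives a homomorphism to the Tate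
module. -/
def S30T_lift (Θ : ℕ → M →+ J) (h1 : ∀ n c, (p ^ n) • Θ n c = 0)
    (h2 : ∀ n c, p • Θ (n + 1) c = Θ n c) : M →+ S30T_Tate J p where
  toFun c := ⟨fun n => Θ n c, fun n => h1 n c, fun n => h2 n c⟩
  map_zero' := by
    ext n
    exact map_zero (Θ n)
  map_add' c c' := by
    ext n
    exact map_add (Θ n) c c'

@[simp]
theorem S30T_lift_apply (Θ : ℕ → M →+ J) (h1 : ∀ n c, (p ^ n) • Θ n c = 0)
    (h2 : ∀ n c, p • Θ (n + 1) c = Θ n c) (c : M) (n : ℕ) :
    ((S30T_lift Θ h1 h2 c : S30T_Tate J p) : ℕ → J) n = Θ n c := rfl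

/-- Equivariance of the lift. -/
theorem S30T_lift_map [Fact p.Prime] (Θ : ℕ → M →+ J) (h1 : ∀ n c, (p ^ n) • Θ n c = 0)
    (h2 : ∀ n c, p • Θ (n + 1) c = Θ n c) (f : AddMonoid.End J) (t : M →+ M)
    (h : ∀ n c, f (Θ n c) = Θ n (t c)) (c : M) :
    S30T_map (p := p) f (S30T_lift Θ h1 h2 c) = S30T_lift Θ h1 h2 (t c) := by
  ext n
  exact h n c

/-- The kernel of the lift is the intersection of the kernels. -/
theorem S30T_lift_eq_zero_iff (Θ : ℕ → M →+ J) (h1 : ∀ n c, (p ^ n) • Θ n c = 0)
    (h2 : ∀ n c, p • Θ (n + 1) c = Θ n c) (c : M) :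
    S30T_lift Θ h1 h2 c = 0 ↔ ∀ n, Θ n c = 0 := by
  constructor
  · intro h n
    have := congrArg (fun x : S30T_Tate J p => (x : ℕ → J) n) h
    exact this
  · intro h
    ext n
    exact h n

end Lift

section Independence

variable {J : Type*} [AddCommGroup J] {p : ℕ} [hp : Fact p.Prime] {M : Type*} [AddCommGroup M]

omit hp in
theorem S30T_coe_sum_apply {ι : Type*} (s : Finset ι) (x : ι → S30T_Tate J p) (n : ℕ) :
    ((∑ i ∈ s, x i : S30T_Tate J p) : ℕ → J) n = ∑ i ∈ s, (x i : ℕ → J) n :=
  map_sum (S30T_proj J p n) x s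

/-- If the level maps `Θ n` are injective modulo `p ^ n`, the lift sends a `ℤ`-basis of `M` to a
`ℤ_[p]`-linearly independent family of the Tate module. -/
theorem S30T_lift_linearIndependent {ι : Type*} [Fintype ι] (b : Module.Basis ι ℤ M)
    (Θ : ℕ → M →+ J) (h1 : ∀ n c, (p ^ n) • Θ n c = 0)
    (h2 : ∀ n c, p • Θ (n + 1) c = Θ n c)
    (hinj : ∀ n c, Θ n c = 0 → ∃ c' : M, c = (p ^ n) • c') :
    LinearIndependent ℤ_[p] (fun i => S30T_lift Θ h1 h2 (b i)) := by
  classical
  rw [Fintype.linearIndependent_iff]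
  intro a ha i
  rw [← PadicInt.ext_of_toZModPow]
  intro n
  rw [map_zero]
  have hn : Θ n (∑ j, (a j).appr n • b j) = 0 := by
    have h := congrArg (fun x : S30T_Tate J p => (x : ℕ → J) n) ha
    simp only [S30T_coe_sum_apply] at h
    rw [map_sum]
    rw [show (∑ j, Θ n ((a j).appr n • b j)) =
        ∑ j, ((a j • S30T_lift Θ h1 h2 (b j) : S30T_Tate J p) : ℕ → J) n from
      Finset.sum_congr rfl (fun j _ => by
        rw [S30T_smul_apply, S30T_lift_apply, map_nsmul])]
    exact h
  obtain ⟨c', hc'⟩ := hinj n _ hn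
  have hrepr := congrArg (fun c => b.repr c i) hc'
  simp only [map_sum, map_nsmul, Module.Basis.repr_self, Finsupp.coe_finsetSum,
    Finsupp.coe_smul, Finset.sum_apply, Pi.smul_apply, Finsupp.single_apply,
    smul_ite, smul_zero, Finset.sum_ite_eq', Finset.mem_univ, if_true] at hrepr
  have hdvd : (p ^ n : ℤ) ∣ ((a i).appr n : ℤ) := by
    refine ⟨b.repr c' i, ?_⟩
    have : ((a i).appr n : ℤ) = (p ^ n : ℕ) • (b.repr c' i) := by
      rw [← hrepr]
      simp
    rw [this]
    simp
  have hdvd' : p ^ n ∣ (a i).appr n := by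
    exact_mod_cast hdvd
  rw [← S30T_appr_cast]
  exact (ZMod.natCast_eq_zero_iff _ _).2 hdvd'

end Independence

end Fermat.Agent.S30_helper1_TATEF
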