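import Mathlib

/-!
# S30, piece P6 (EIGEN), abstract form: eigenvectors for characters of a faithful module

`PG30_eigen_general`: let `Z` be a noetherian commutative ring, `𝕋` a commutative `Z`-algebra
acting faithfully (`Ψ : 𝕋 →ₐ[Z] End_Z M` injective) on a finite free `Z`-module `M`, `K` a field
which is a flat `Z`-algebra and `χ : 𝕋 →ₐ[Z] K`.  Then `K ⊗[Z] M` contains a nonzero vector `x`
with `(Ψ t)_K x = χ t • x` for all `t`.

`PG30_eigen_abstract`: the case `Z = ℤ` (ring homomorphisms, `K` of characteristic `0`).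

`PG30_eigen_subalgebra`: the case of a commutative subalgebra `B` of `End_Z M`.
-/

set_option autoImplicit false

open scoped TensorProduct

namespace Fermat.Agent.S30_helper23_EIGA

/-- A maximal ideal of an artinian ring kills a nonzero vector of every faithful finite module. -/
theorem PG30_exists_killed {R : Type*} [CommRing R] [IsArtinianRing R] {V : Type*}
    [AddCommGroup V] [Module R V] [Module.Finite R V]
    (hfaith : ∀ r : R, (∀ v : V, r • v = 0) → r = 0) (𝔪 : Ideal R) [h𝔪 : 𝔪.IsMaximal] :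
    ∃ x : V, x ≠ 0 ∧ ∀ r ∈ 𝔪, r • x = 0 := by
  have hann : Module.annihilator R V = ⊥ := by
    rw [eq_bot_iff]
    intro r hr
    rw [Module.mem_annihilator] at hr
    exact hfaith r hr
  have hmin : 𝔪 ∈ (Module.annihilator R V).minimalPrimes := by
    rw [hann]
    refine ⟨⟨h𝔪.isPrime, bot_le⟩, ?_⟩
    rintro q ⟨hq, -⟩ hle
    have hqmax : q.IsMaximal := IsArtinianRing.isMaximal_of_isPrime q
    exact (hqmax.eq_of_le h𝔪.ne_top hle).ge
  have hass := Module.associatedPrimes.minimalPrimes_annihilator_subset_associatedPrimes R V hmin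
  rw [AssociatedPrimes.mem_iff, isAssociatedPrime_iff] at hass
  obtain ⟨-, x, hx⟩ := hass
  refine ⟨x, ?_, fun r hr => ?_⟩
  · rintro rfl
    apply h𝔪.ne_top
    rw [hx, eq_top_iff]
    intro r _
    rw [Submodule.mem_colon_singleton]
    simp
  · rw [hx, Submodule.mem_colon_singleton] at hr
    simpa using hr

section General

variable {Z : Type*} [CommRing Z] {𝕋 : Type*} [CommRing 𝕋] [Algebra Z 𝕋]
  {M : Type*} [AddCommGroup M] [Module Z M]
  (Ψ : 𝕋 →ₐ[Z] Module.End Z M) (K : Type*) [Field K] [Algebra Z K]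

/-- `K ⊗ 𝕋 → End_K (K ⊗ M)`, `c ⊗ t ↦ c • (Ψ t)_K`. -/
noncomputable def PG30_β : K ⊗[Z] 𝕋 →ₐ[K] Module.End K (K ⊗[Z] M) :=
  (LinearMap.tensorProductEnd Z K M).comp (Algebra.TensorProduct.map (AlgHom.id K K) Ψ)

theorem PG30_β_tmul (c : K) (t : 𝕋) :
    PG30_β Ψ K (c ⊗ₜ[Z] t) = c • (Ψ t).baseChange K := by
  simp [PG30_β, LinearMap.tensorProductEnd, LinearMap.tensorProduct]

theorem PG30_tensorProductEnd_injective [Module.Finite Z M] [Module.Free Z M]
    [Module.Flat Z K] :
    Function.Injective (LinearMap.tensorProductEnd Z K M) := by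
  have hfp : Module.FinitePresentation Z M := Module.finitePresentation_of_projective Z M
  have h := Module.FinitePresentation.isBaseChange_map Z M M K
  have e : ⇑(LinearMap.tensorProductEnd Z K M) = ⇑h.equiv := by
    funext z
    induction z using TensorProduct.induction_on with
    | zero => simp
    | tmul c A =>
      rw [IsBaseChange.equiv_tmul]
      simp [LinearMap.tensorProductEnd, LinearMap.tensorProduct]
    | add x y hx hy => rw [map_add, map_add, hx, hy]
  rw [e]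
  exact h.equiv.injective

theorem PG30_β_injective [Module.Finite Z M] [Module.Free Z M] [Module.Flat Z K]
    (hΨ : Function.Injective Ψ) : Function.Injective (PG30_β Ψ K) := by
  have h1 : Function.Injective (Algebra.TensorProduct.map (AlgHom.id K K) Ψ) := by
    have h2 := Module.Flat.lTensor_preserves_injective_linearMap (M := K)
      (Ψ.toLinearMap) hΨ
    have e : ⇑(Algebra.TensorProduct.map (AlgHom.id K K) Ψ) =
        ⇑(LinearMap.lTensor K (Ψ.toLinearMap)) := by
      funext z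
      induction z using TensorProduct.induction_on with
      | zero => simp
      | tmul c t => simp
      | add x y hx hy => rw [map_add, map_add, hx, hy]
    rw [e]
    exact h2
  exact (PG30_tensorProductEnd_injective K).comp h1

/-- `K ⊗ 𝕋 → K`, `c ⊗ t ↦ c * χ t`. -/
noncomputable def PG30_χK (χ : 𝕋 →ₐ[Z] K) : K ⊗[Z] 𝕋 →ₐ[K] K :=
  Algebra.TensorProduct.lift (AlgHom.id K K) χ (fun _ _ => Commute.all _ _)

theorem PG30_χK_tmul (χ : 𝕋 →ₐ[Z] K) (c : K) (t : 𝕋) :
    PG30_χK K χ (c ⊗ₜ[Z] t) = c * χ t := by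
  simp [PG30_χK]

/-- **P6 (EIGEN), general form.** -/
theorem PG30_eigen_general [IsNoetherianRing Z] [Module.Finite Z M] [Module.Free Z M]
    [Module.Flat Z K] (hΨ : Function.Injective Ψ) (χ : 𝕋 →ₐ[Z] K) :
    ∃ x : K ⊗[Z] M, x ≠ 0 ∧ ∀ t : 𝕋, (Ψ t).baseChange K x = χ t • x := by
  -- `𝕋` is a finite `Z`-module
  have hfin : Module.Finite Z 𝕋 := Module.Finite.of_injective Ψ.toLinearMap hΨ
  have hart : IsArtinianRing (K ⊗[Z] 𝕋) := IsArtinianRing.of_finite K (K ⊗[Z] 𝕋)
  letI : Module (K ⊗[Z] 𝕋) (K ⊗[Z] M) := Module.compHom _ (PG30_β Ψ K).toRingHom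
  have hsmul : ∀ (r : K ⊗[Z] 𝕋) (v : K ⊗[Z] M), r • v = PG30_β Ψ K r v := fun _ _ => rfl
  haveI : IsScalarTower K (K ⊗[Z] 𝕋) (K ⊗[Z] M) := ⟨fun c r v => by
    rw [hsmul, hsmul, map_smul]
    rfl⟩
  have hfinM : Module.Finite (K ⊗[Z] 𝕋) (K ⊗[Z] M) :=
    Module.Finite.of_restrictScalars_finite K (K ⊗[Z] 𝕋) (K ⊗[Z] M)
  have hsurj : Function.Surjective (PG30_χK K χ) := fun c => ⟨c ⊗ₜ[Z] 1, by
    rw [PG30_χK_tmul, map_one, mul_one]⟩
  have hmax : (RingHom.ker (PG30_χK K χ).toRingHom).IsMaximal :=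
    RingHom.ker_isMaximal_of_surjective _ hsurj
  obtain ⟨x, hx0, hx⟩ := PG30_exists_killed (R := K ⊗[Z] 𝕋) (V := K ⊗[Z] M)
    (fun r hr => PG30_β_injective Ψ K hΨ (by
      rw [map_zero]
      exact LinearMap.ext fun v => hr v))
    (RingHom.ker (PG30_χK K χ).toRingHom)
  refine ⟨x, hx0, fun t => ?_⟩
  have hmem : ((1 : K) ⊗ₜ[Z] t - (χ t) ⊗ₜ[Z] (1 : 𝕋) : K ⊗[Z] 𝕋) ∈
      RingHom.ker (PG30_χK K χ).toRingHom := by
    rw [RingHom.mem_ker]
    show PG30_χK K χ _ = 0
    rw [map_sub, PG30_χK_tmul, PG30_χK_tmul, map_one, one_mul, mul_one, sub_self]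
  have h1 := hx _ hmem
  rw [hsmul, map_sub, PG30_β_tmul, PG30_β_tmul, map_one, LinearMap.sub_apply, one_smul,
    LinearMap.smul_apply] at h1
  rw [sub_eq_zero] at h1
  rw [h1, LinearMap.baseChange_one]
  rfl

end General

/-- **P6 (EIGEN) over `ℤ`**: a commutative ring acting faithfully on a finite free `ℤ`-module has,
for every ring homomorphism `χ` to a field `K` of characteristic `0`, a nonzero `χ`-eigenvector
in `K ⊗ M`. -/
theorem PG30_eigen_abstract {𝕋 : Type*} [CommRing 𝕋] {M : Type*} [AddCommGroup M]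
    [Module.Finite ℤ M] [Module.Free ℤ M] (Ψ : 𝕋 →+* Module.End ℤ M) (K : Type*) [Field K]
    [CharZero K] (hΨ : Function.Injective Ψ) (χ : 𝕋 →+* K) :
    ∃ x : K ⊗[ℤ] M, x ≠ 0 ∧ ∀ t : 𝕋, (Ψ t).baseChange K x = χ t • x :=
  PG30_eigen_general (Z := ℤ) Ψ.toIntAlgHom K hΨ χ.toIntAlgHom

/-- **P6 (EIGEN) for a commutative subalgebra of `End_Z M`.** -/
theorem PG30_eigen_subalgebra {Z : Type*} [CommRing Z] [IsNoetherianRing Z] {M : Type*}
    [AddCommGroup M] [Module Z M] [Module.Finite Z M] [Module.Free Z M]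
    (B : Subalgebra Z (Module.End Z M)) (hB : ∀ a ∈ B, ∀ b ∈ B, a * b = b * a)
    (K : Type*) [Field K] [Algebra Z K] [Module.Flat Z K]
    (χ : B →+* K) (hχ : ∀ (z : Z) (b : B), χ (z • b) = algebraMap Z K z * χ b) :
    ∃ x : K ⊗[Z] M, x ≠ 0 ∧ ∀ b : B, (b : Module.End Z M).baseChange K x = χ b • x := by
  letI : CommRing B :=
    { (inferInstance : Ring B) with
      mul_comm := fun a b => Subtype.ext (hB a a.2 b b.2) }
  let χ' : B →ₐ[Z] K :=
    { χ with
      commutes' := fun z => by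
        have h := hχ z 1
        rw [map_one, mul_one] at h
        rw [Algebra.algebraMap_eq_smul_one]
        exact h }
  exact PG30_eigen_general (Z := Z) (𝕋 := B) B.val K Subtype.val_injective χ'

end Fermat.Agent.S30_helper23_EIGA
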