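import Mathlib
import Fermat.Agent.S30_helper23_EIGA

/-!
# S30: the eigenlattice is nontrivial (generic form; replaces P5 + P6 + the integral twin)

`PG30_eigenlattice_exists`: let `M` be a finite free `ℤ`-module on which a commutative ring `𝕋`
acts faithfully (`Ψ`), `χ : 𝕋 →+* 𝒪` a character with values in a domain `𝒪` of characteristic
`0` which is a flat algebra over a commutative ring `R` (`R = ℤ_[p]`), `Λ` an `R`-module and
`θ : M →+ Λ` an additive map sending a `ℤ`-basis of `M` to an `R`-linearly independent family,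
equivariant for operators `T i` on `Λ` and `Ψ (t i)` on `M`.  Then `𝒪 ⊗[R] Λ` contains a nonzero
vector `v` with `(T i)_𝒪 v = χ (t i) • v` for all `i`.
-/

set_option autoImplicit false

open scoped TensorProduct

noncomputable section

namespace Fermat.Agent.S30_helper23_EIGLAT

open Fermat.Agent.S30_helper23_EIGA

section Maps

variable (𝒪 : Type*) [CommRing 𝒪] (K : Type*) [Field K] [Algebra 𝒪 K]
  (M : Type*) [AddCommGroup M]

/-- `𝒪 ⊗ M → K ⊗ M`, `c ⊗ m ↦ c ⊗ m`. -/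
def PG30_f₁ : 𝒪 ⊗[ℤ] M →ₗ[𝒪] K ⊗[ℤ] M :=
  LinearMap.liftBaseChange 𝒪 ((TensorProduct.mk ℤ K M 1))

theorem PG30_f₁_tmul (c : 𝒪) (m : M) :
    PG30_f₁ 𝒪 K M (c ⊗ₜ[ℤ] m) = (algebraMap 𝒪 K c) ⊗ₜ[ℤ] m := by
  rw [PG30_f₁, LinearMap.liftBaseChange_tmul, TensorProduct.mk_apply, TensorProduct.smul_tmul',
    Algebra.smul_def, mul_one]

variable {M}

theorem PG30_f₁_baseChange (A : Module.End ℤ M) (z : 𝒪 ⊗[ℤ] M) :
    PG30_f₁ 𝒪 K M (A.baseChange 𝒪 z) = A.baseChange K (PG30_f₁ 𝒪 K M z) := by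
  induction z using TensorProduct.induction_on with
  | zero => simp
  | tmul c m => simp [PG30_f₁_tmul]
  | add x y hx hy => simp only [map_add, hx, hy]

variable [IsFractionRing 𝒪 K]

/-- Clearing denominators. -/
theorem PG30_exists_clear [IsDomain 𝒪] (x : K ⊗[ℤ] M) :
    ∃ (d : 𝒪) (x₀ : 𝒪 ⊗[ℤ] M), d ≠ 0 ∧ PG30_f₁ 𝒪 K M x₀ = algebraMap 𝒪 K d • x := by
  induction x using TensorProduct.induction_on with
  | zero => exact ⟨1, 0, one_ne_zero, by simp⟩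
  | tmul c m =>
    obtain ⟨a, s, hs, rfl⟩ := IsFractionRing.div_surjective (A := 𝒪) c
    have hs0 : s ≠ 0 := nonZeroDivisors.ne_zero hs
    have hsK : algebraMap 𝒪 K s ≠ 0 := by
      rw [Ne, map_eq_zero_iff _ (IsFractionRing.injective 𝒪 K)]
      exact hs0
    refine ⟨s, a ⊗ₜ[ℤ] m, hs0, ?_⟩
    rw [PG30_f₁_tmul, TensorProduct.smul_tmul', smul_eq_mul, mul_div_cancel₀ _ hsK]
  | add x y hx hy =>
    obtain ⟨d₁, x₁, hd₁, h₁⟩ := hx
    obtain ⟨d₂, x₂, hd₂, h₂⟩ := hy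
    refine ⟨d₁ * d₂, d₂ • x₁ + d₁ • x₂, mul_ne_zero hd₁ hd₂, ?_⟩
    rw [map_add, map_smul, map_smul, h₁, h₂, smul_add, map_mul, ← algebraMap_smul K d₂,
      ← algebraMap_smul K d₁, smul_smul, smul_smul, mul_comm (algebraMap 𝒪 K d₂)]

theorem PG30_f₁_injective [Module.Free ℤ M] : Function.Injective (PG30_f₁ 𝒪 K M) := by
  have h := Module.Flat.rTensor_preserves_injective_linearMap (M := M)
    ((algebraMap 𝒪 K).toIntAlgHom.toLinearMap) (IsFractionRing.injective 𝒪 K)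
  have e : ⇑(PG30_f₁ 𝒪 K M) =
      ⇑(LinearMap.rTensor M ((algebraMap 𝒪 K).toIntAlgHom.toLinearMap)) := by
    funext z
    induction z using TensorProduct.induction_on with
    | zero => simp
    | tmul c m => simp [PG30_f₁_tmul]
    | add x y hx hy => rw [map_add, map_add, hx, hy]
  rw [e]
  exact h

end Maps

section Push

variable (R : Type*) [CommRing R] (𝒪 : Type*) [CommRing 𝒪] [Algebra R 𝒪]
  {Λ : Type*} [AddCommGroup Λ] [Module R Λ] {M : Type*} [AddCommGroup M]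

/-- `𝒪 ⊗[ℤ] M → 𝒪 ⊗[R] Λ`, `c ⊗ m ↦ c ⊗ θ m`. -/
def PG30_f₂ (θ : M →+ Λ) : 𝒪 ⊗[ℤ] M →ₗ[𝒪] 𝒪 ⊗[R] Λ :=
  LinearMap.liftBaseChange 𝒪
    (((TensorProduct.mk R 𝒪 Λ 1).toAddMonoidHom.comp θ).toIntLinearMap)

theorem PG30_f₂_tmul (θ : M →+ Λ) (c : 𝒪) (m : M) :
    PG30_f₂ R 𝒪 θ (c ⊗ₜ[ℤ] m) = c ⊗ₜ[R] θ m := by
  rw [PG30_f₂, LinearMap.liftBaseChange_tmul]
  show c • ((1 : 𝒪) ⊗ₜ[R] θ m) = _
  rw [TensorProduct.smul_tmul', smul_eq_mul, mul_one]

theorem PG30_f₂_baseChange (θ : M →+ Λ) (A : Module.End ℤ M) (T : Module.End R Λ)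
    (hT : ∀ c, T (θ c) = θ (A c)) (z : 𝒪 ⊗[ℤ] M) :
    PG30_f₂ R 𝒪 θ (A.baseChange 𝒪 z) = T.baseChange 𝒪 (PG30_f₂ R 𝒪 θ z) := by
  induction z using TensorProduct.induction_on with
  | zero => simp
  | tmul c m => simp [PG30_f₂_tmul, hT]
  | add x y hx hy => simp only [map_add, hx, hy]

theorem PG30_f₂_injective [Module.Flat R 𝒪] (θ : M →+ Λ) {ι : Type*}
    (b : Module.Basis ι ℤ M) (hθ : LinearIndependent R (fun i => θ (b i))) :
    Function.Injective (PG30_f₂ R 𝒪 θ) := by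
  classical
  have hli : LinearIndependent 𝒪 (fun i => (1 : 𝒪) ⊗ₜ[R] θ (b i)) :=
    Module.Flat.linearIndependent_one_tmul hθ
  have e : PG30_f₂ R 𝒪 θ =
      (Finsupp.linearCombination 𝒪 (fun i => (1 : 𝒪) ⊗ₜ[R] θ (b i))).comp
        ((b.baseChange 𝒪).repr : 𝒪 ⊗[ℤ] M →ₗ[𝒪] ι →₀ 𝒪) := by
    refine (b.baseChange 𝒪).ext fun i => ?_
    rw [LinearMap.comp_apply, LinearEquiv.coe_coe, Module.Basis.repr_self,
      Finsupp.linearCombination_single, one_smul, Module.Basis.baseChange_apply, PG30_f₂_tmul]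
  rw [e, LinearMap.coe_comp, LinearEquiv.coe_coe]
  exact Function.Injective.comp hli (b.baseChange 𝒪).repr.injective

end Push

/-- **The eigenlattice is nontrivial (generic form).** -/
theorem PG30_eigenlattice_exists {R : Type*} [CommRing R] {𝒪 : Type*} [CommRing 𝒪] [IsDomain 𝒪]
    [CharZero 𝒪] [Algebra R 𝒪] [Module.Flat R 𝒪] {Λ : Type*} [AddCommGroup Λ] [Module R Λ]
    {M : Type*} [AddCommGroup M] [Module.Finite ℤ M] [Module.Free ℤ M] (θ : M →+ Λ)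
    {ι : Type*} (b : Module.Basis ι ℤ M) (hθ : LinearIndependent R (fun i => θ (b i)))
    {𝕋 : Type*} [CommRing 𝕋] (Ψ : 𝕋 →+* Module.End ℤ M) (hΨ : Function.Injective Ψ)
    (χ : 𝕋 →+* 𝒪) {I : Type*} (t : I → 𝕋) (T : I → Module.End R Λ)
    (hT : ∀ i c, T i (θ c) = θ (Ψ (t i) c)) :
    ∃ v : 𝒪 ⊗[R] Λ, v ≠ 0 ∧ ∀ i, (T i).baseChange 𝒪 v = χ (t i) • v := by
  haveI : CharZero (FractionRing 𝒪) :=
    charZero_of_injective_algebraMap (IsFractionRing.injective 𝒪 (FractionRing 𝒪))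
  obtain ⟨x, hx0, hx⟩ := PG30_eigen_abstract Ψ (FractionRing 𝒪) hΨ
    ((algebraMap 𝒪 (FractionRing 𝒪)).comp χ)
  obtain ⟨d, x₀, hd, hx₀⟩ := PG30_exists_clear 𝒪 (FractionRing 𝒪) x
  have hdK : algebraMap 𝒪 (FractionRing 𝒪) d ≠ 0 := by
    rw [Ne, map_eq_zero_iff _ (IsFractionRing.injective 𝒪 (FractionRing 𝒪))]
    exact hd
  have hinj₁ := PG30_f₁_injective 𝒪 (FractionRing 𝒪) (M := M)
  have hx₀0 : x₀ ≠ 0 := by
    rintro rfl
    rw [map_zero] at hx₀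
    exact (smul_ne_zero hdK hx0) hx₀.symm
  have heig : ∀ s : 𝕋, (Ψ s).baseChange 𝒪 x₀ = χ s • x₀ := by
    intro s
    apply hinj₁
    rw [PG30_f₁_baseChange, hx₀, map_smul, hx s, map_smul, hx₀, RingHom.comp_apply,
      ← algebraMap_smul (FractionRing 𝒪) (χ s), smul_comm]
  refine ⟨PG30_f₂ R 𝒪 θ x₀, ?_, fun i => ?_⟩
  · intro h
    exact hx₀0 (PG30_f₂_injective R 𝒪 θ b hθ (by rw [h, map_zero]))
  · rw [← PG30_f₂_baseChange R 𝒪 θ (Ψ (t i)) (T i) (hT i), heig, map_smul]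

end Fermat.Agent.S30_helper23_EIGLAT
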