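import Mathlib
import Fermat.Agent.G_helper6_E2FINAL
import Fermat.Agent.G_helper24_G1cCOMM
import Fermat.Agent.G_helper24_G1cCOMM2
import Fermat.Agent.S21_helper23_Asm

/-!
# S30, piece (g2), part HF: the Hecke algebra acts faithfully on the lattice `M`

`PG30_hecke_faithful`: if `S` contains the primes dividing `N`, there is an injective ring
homomorphism `Ψ : heckeAlgebra N 2 S →+* End_ℤ (PG_M N)` with `Ψ T_ℓ = PG_E2F_TM N ℓ`.

Proof: transport along `Λ = latticeMap⁻¹ ∘ periodHomPair : S₂ × S₂ ≃ ℂ ⊗ M`, which is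
Hecke-equivariant.
-/

set_option autoImplicit false

open UpperHalfPlane ModularForm CongruenceSubgroup
open scoped MatrixGroups ModularForm Manifold TensorProduct
open Fermat.Agent.G_helper6_Defs Fermat.Agent.G_helper6_E2FINAL
open ModularCurve ModularCurve.Period

noncomputable section

namespace Fermat.Agent.S30_helper23_HF

open Fermat.Agent.G_helper3_G1aHECKEHOM Fermat.Agent.G_helper24_G1cCOMM
  Fermat.Agent.G_helper24_G1cCOMM2

/-! ### `periodHomPair` is Hecke-equivariant -/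

theorem PG30_periodHomPair_hecke (N ℓ : ℕ) [NeZero N] [NeZero ℓ] (hℓ : ℓ.Prime)
    (hℓN : ¬ ℓ ∣ N) (f g : CuspForm (Gamma0 N) 2) :
    periodHomPair N (CuspForm.heckeTLin 2 hℓ hℓN f, CuspForm.heckeTLin 2 hℓ hℓN g) =
      PG_heckeHom N ℓ (periodHomPair N (f, g)) := by
  obtain ⟨pml, hpml, hdef⟩ :=
    periodHomPair_def N (Fermat.Agent.S21_helper23_Asm.existsPeriodMapLinear N)
  have hT : ∀ h : CuspForm (Gamma0 N) 2,
      pml (CuspForm.heckeTLin 2 hℓ hℓN h) = PG_heckeHom N ℓ (pml h) := by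
    intro h
    rw [hpml, hpml]
    exact Fermat.Agent.G_helper23_G1b.PG_period_hecke N ℓ hℓ hℓN h
  have hJ : ∀ c : Additive (Gamma0 N) →+ ℂ,
      PG_heckeHom N ℓ (charInvolution N ℂ ℂ c) = charInvolution N ℂ ℂ (PG_heckeHom N ℓ c) :=
    PG_heckeHom_charInvolution N ℓ hℓ hℓN
  rw [hdef]
  simp only [LinearMap.coprod_apply, LinearMap.comp_apply, LinearMap.add_apply,
    LinearMap.sub_apply, LinearMap.id_apply]
  rw [hT, hT, ← hJ, ← hJ, ← PG_G1c_T_apply N ℓ ℂ, ← PG_G1c_T_apply N ℓ ℂ,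
    ← PG_G1c_T_apply N ℓ ℂ, ← PG_G1c_T_apply N ℓ ℂ, ← PG_G1c_T_apply N ℓ ℂ,
    map_add, map_add, map_sub]

/-! ### The comparison isomorphism `Λ : S₂ × S₂ ≃ ℂ ⊗ M` -/

section Lambda

variable (N : ℕ)

theorem PG30_exists_Λ [NeZero N] :
    ∃ Λ : (CuspForm (Gamma0 N) 2 × CuspForm (Gamma0 N) 2) ≃ₗ[ℂ] ℂ ⊗[ℤ] (PG_M N),
      ∀ e, PG_latticeMap N (Λ e) = periodHomPair N e := by
  obtain ⟨hinj, hrange⟩ := Fermat.Agent.S21.result N
  obtain ⟨-, -, hinjL, hrangeL⟩ := Fermat.Agent.G_helper3_G2aLATTICE.PG_lattice N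
  have hr : LinearMap.range (periodHomPair N) = LinearMap.range (PG_latticeMap N) := by
    rw [hrange, hrangeL]
  refine ⟨(LinearEquiv.ofInjective (periodHomPair N) hinj).trans
    ((LinearEquiv.ofEq _ _ hr).trans (LinearEquiv.ofInjective (PG_latticeMap N) hinjL).symm),
    fun e => ?_⟩
  simp only [LinearEquiv.trans_apply]
  have := (LinearEquiv.ofInjective (PG_latticeMap N) hinjL).apply_symm_apply
    ((LinearEquiv.ofEq _ _ hr) ((LinearEquiv.ofInjective (periodHomPair N) hinj) e))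
  have h2 := congrArg Subtype.val this
  rw [LinearEquiv.ofInjective_apply] at h2
  rw [h2]
  rfl

/-- `m ↦ 1 ⊗ m` is injective. -/
theorem PG30_one_tmul_injective : Function.Injective (fun m : PG_M N => (1 : ℂ) ⊗ₜ[ℤ] m) := by
  intro m m' h
  have h1 := congrArg (PG_latticeMap N) h
  rw [PG_E2F_latticeMap_tmul, PG_E2F_latticeMap_tmul, one_smul, one_smul] at h1
  exact Subtype.ext (PG_G1c_castHom_injective N h1)

theorem PG30_baseChange_injective {A A' : Module.End ℤ (PG_M N)}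
    (h : A.baseChange ℂ = A'.baseChange ℂ) : A = A' := by
  refine LinearMap.ext fun m => PG30_one_tmul_injective N ?_
  have := LinearMap.congr_fun h ((1 : ℂ) ⊗ₜ[ℤ] m)
  simpa using this

end Lambda

/-! ### The transported action -/

section Rel

variable {N : ℕ}

/-- `A` on `M` corresponds to `t` on `S₂`. -/
def PG30_Rel (Λ : (CuspForm (Gamma0 N) 2 × CuspForm (Gamma0 N) 2) ≃ₗ[ℂ] ℂ ⊗[ℤ] (PG_M N))
    (t : Module.End ℂ (CuspForm (Gamma0 N) 2)) (A : Module.End ℤ (PG_M N)) : Prop :=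
  ∀ e : CuspForm (Gamma0 N) 2 × CuspForm (Gamma0 N) 2,
    A.baseChange ℂ (Λ e) = Λ (t e.1, t e.2)

variable {Λ : (CuspForm (Gamma0 N) 2 × CuspForm (Gamma0 N) 2) ≃ₗ[ℂ] ℂ ⊗[ℤ] (PG_M N)}

theorem PG30_Rel_unique {t : Module.End ℂ (CuspForm (Gamma0 N) 2)}
    {A A' : Module.End ℤ (PG_M N)} (h : PG30_Rel Λ t A) (h' : PG30_Rel Λ t A') : A = A' := by
  apply PG30_baseChange_injective N
  refine LinearMap.ext fun w => ?_
  obtain ⟨e, rfl⟩ := Λ.surjective w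
  rw [h e, h' e]

theorem PG30_Rel_one : PG30_Rel Λ 1 1 := by
  intro e
  rw [LinearMap.baseChange_one]
  rfl

theorem PG30_Rel_zero : PG30_Rel Λ 0 0 := by
  intro e
  rw [LinearMap.baseChange_zero]
  simp only [LinearMap.zero_apply]
  have : ((0 : CuspForm (Gamma0 N) 2), (0 : CuspForm (Gamma0 N) 2)) = 0 := rfl
  rw [this, map_zero]

theorem PG30_Rel_add {t s : Module.End ℂ (CuspForm (Gamma0 N) 2)}
    {A B : Module.End ℤ (PG_M N)} (h : PG30_Rel Λ t A) (h' : PG30_Rel Λ s B) :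
    PG30_Rel Λ (t + s) (A + B) := by
  intro e
  rw [LinearMap.baseChange_add, LinearMap.add_apply, h e, h' e, ← map_add]
  rfl

theorem PG30_Rel_mul {t s : Module.End ℂ (CuspForm (Gamma0 N) 2)}
    {A B : Module.End ℤ (PG_M N)} (h : PG30_Rel Λ t A) (h' : PG30_Rel Λ s B) :
    PG30_Rel Λ (t * s) (A * B) := by
  intro e
  rw [LinearMap.baseChange_mul, Module.End.mul_apply, h' e, h (s e.1, s e.2)]
  rfl

theorem PG30_Rel_int (n : ℤ) :
    PG30_Rel Λ (algebraMap ℤ (Module.End ℂ (CuspForm (Gamma0 N) 2)) n)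
      (algebraMap ℤ (Module.End ℤ (PG_M N)) n) := by
  intro e
  rw [Algebra.algebraMap_eq_smul_one, Algebra.algebraMap_eq_smul_one, LinearMap.baseChange_smul,
    LinearMap.baseChange_one]
  simp only [LinearMap.smul_apply, Module.End.one_apply]
  rw [← map_zsmul]
  rfl

theorem PG30_Rel_neg {t : Module.End ℂ (CuspForm (Gamma0 N) 2)}
    {A : Module.End ℤ (PG_M N)} (h : PG30_Rel Λ t A) : PG30_Rel Λ (-t) (-A) := by
  have h1 := PG30_Rel_mul (PG30_Rel_int (Λ := Λ) (-1)) h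
  simpa using h1

theorem PG30_Rel_hecke [NeZero N] (hΛ : ∀ e, PG_latticeMap N (Λ e) = periodHomPair N e)
    {ℓ : ℕ} [NeZero ℓ] (hℓ : ℓ.Prime) (hℓN : ¬ ℓ ∣ N) :
    PG30_Rel Λ (CuspForm.heckeTLin 2 hℓ hℓN) (PG_E2F_TM N ℓ) := by
  obtain ⟨-, -, hinjL, -⟩ := Fermat.Agent.G_helper3_G2aLATTICE.PG_lattice N
  intro e
  apply hinjL
  rw [PG_E2F_latticeMap_hecke, hΛ, hΛ]
  exact (PG30_periodHomPair_hecke N ℓ hℓ hℓN e.1 e.2).symm

theorem PG30_Rel_eq_zero {t : Module.End ℂ (CuspForm (Gamma0 N) 2)}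
    (h : PG30_Rel Λ t 0) : t = 0 := by
  refine LinearMap.ext fun f => ?_
  have h1 := h (f, f)
  rw [LinearMap.baseChange_zero, LinearMap.zero_apply] at h1
  have h2 : (t f, t f) = (0 : CuspForm (Gamma0 N) 2 × CuspForm (Gamma0 N) 2) :=
    Λ.injective (by rw [← h1, map_zero])
  exact congrArg Prod.fst h2

end Rel

/-! ### The ring homomorphism -/

section Main

variable (N : ℕ) [NeZero N] (S : Set ℕ)

theorem PG30_exists_rel (hNS : ∀ q : ℕ, q.Prime → q ∣ N → q ∈ S)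
    (Λ : (CuspForm (Gamma0 N) 2 × CuspForm (Gamma0 N) 2) ≃ₗ[ℂ] ℂ ⊗[ℤ] (PG_M N))
    (hΛ : ∀ e, PG_latticeMap N (Λ e) = periodHomPair N e)
    (t : Module.End ℂ (CuspForm (Gamma0 N) 2)) (ht : t ∈ CuspForm.heckeAlgebra N 2 S) :
    ∃ A : Module.End ℤ (PG_M N), PG30_Rel Λ t A := by
  unfold CuspForm.heckeAlgebra at ht
  induction ht using Algebra.adjoin_induction with
  | mem x hx =>
    rcases hx with ⟨ℓ, hℓ, hℓN, -, rfl⟩ | ⟨q, hqN, hq, hqS, -⟩
    · haveI : NeZero ℓ := ⟨hℓ.ne_zero⟩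
      exact ⟨PG_E2F_TM N ℓ, PG30_Rel_hecke hΛ hℓ hℓN⟩
    · exact absurd (hNS q hq hqN) hqS
  | algebraMap r => exact ⟨_, PG30_Rel_int r⟩
  | add x y _ _ hx hy =>
    obtain ⟨A, hA⟩ := hx
    obtain ⟨B, hB⟩ := hy
    exact ⟨A + B, PG30_Rel_add hA hB⟩
  | mul x y _ _ hx hy =>
    obtain ⟨A, hA⟩ := hx
    obtain ⟨B, hB⟩ := hy
    exact ⟨A * B, PG30_Rel_mul hA hB⟩

/-- **Hecke-faithfulness**: the Hecke algebra away from `S ⊇ {q ∣ N}` embeds into `End_ℤ M`,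
`T_ℓ ↦ PG_E2F_TM N ℓ`. -/
theorem PG30_hecke_faithful (hNS : ∀ q : ℕ, q.Prime → q ∣ N → q ∈ S) :
    ∃ Ψ : CuspForm.heckeAlgebra N 2 S →+* Module.End ℤ (PG_M N), Function.Injective Ψ ∧
      ∀ (ℓ : ℕ) (hℓ : ℓ.Prime) (hℓN : ¬ ℓ ∣ N) (hℓS : ℓ ∉ S),
        haveI : NeZero ℓ := ⟨hℓ.ne_zero⟩
        Ψ (CuspForm.heckeAlgebra.T hℓ hℓN hℓS) = PG_E2F_TM N ℓ := by
  obtain ⟨Λ, hΛ⟩ := PG30_exists_Λ N
  choose! F hF using PG30_exists_rel N S hNS Λ hΛ
  have hrel : ∀ t : CuspForm.heckeAlgebra N 2 S, PG30_Rel Λ (t : Module.End ℂ _) (F t) :=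
    fun t => hF t t.2
  refine ⟨{ toFun := fun t => F t
            map_one' := PG30_Rel_unique (hrel 1) PG30_Rel_one
            map_mul' := fun t s => PG30_Rel_unique (hrel (t * s))
              (PG30_Rel_mul (hrel t) (hrel s))
            map_zero' := PG30_Rel_unique (hrel 0) PG30_Rel_zero
            map_add' := fun t s => PG30_Rel_unique (hrel (t + s))
              (PG30_Rel_add (hrel t) (hrel s)) }, ?_, ?_⟩
  · rw [injective_iff_map_eq_zero]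
    intro t ht
    have h1 := hrel t
    have h2 : F (t : Module.End ℂ _) = 0 := ht
    rw [h2] at h1
    exact Subtype.ext (PG30_Rel_eq_zero h1)
  · intro ℓ hℓ hℓN hℓS
    haveI : NeZero ℓ := ⟨hℓ.ne_zero⟩
    exact PG30_Rel_unique (hrel (CuspForm.heckeAlgebra.T hℓ hℓN hℓS))
      (PG30_Rel_hecke hΛ hℓ hℓN)

end Main

end Fermat.Agent.S30_helper23_HF
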