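import Mathlib

/-!
# S30, piece P1 (ZP): the canonical ring homomorphism `ℤ_[p] →+* R` (helper25)

Let `R` be a commutative ring which is `I`-adically complete for an ideal `I` containing `p`
(for instance a complete local ring of residue characteristic `p`, `I` its maximal ideal).

* `S30ZP_zp p I hp : ℤ_[p] →+* R`;
* `S30ZP_zp_spec` : `zp x - (x.appr n : R) ∈ I ^ n`;
* `S30ZP_zp_unique` : every ring homomorphism `ℤ_[p] →+* R` is `zp`;
* `S30ZP_zp_sub_mem` : `p`-adic continuity.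
-/

set_option autoImplicit false

namespace Fermat.Agent.S30_helper25_ZP

variable (p : ℕ) [Fact p.Prime] {R : Type*} [CommRing R] (I : Ideal R)

theorem S30ZP_pow_mem {p : ℕ} {R : Type*} [CommRing R] {I : Ideal R} (hp : (p : R) ∈ I) (n : ℕ) :
    ((p ^ n : ℕ) : R) ∈ I ^ n := by
  rw [Nat.cast_pow]
  exact Ideal.pow_mem_pow hp n

/-- the characteristic of `R ⧸ I ^ n` divides `p ^ n`. -/
theorem S30ZP_ringChar_dvd {p : ℕ} {R : Type*} [CommRing R] {I : Ideal R} (hp : (p : R) ∈ I)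
    (n : ℕ) : ringChar (R ⧸ I ^ n) ∣ p ^ n := by
  rw [← ringChar.spec]
  have : ((p ^ n : ℕ) : R ⧸ I ^ n) = Ideal.Quotient.mk (I ^ n) ((p ^ n : ℕ) : R) := by
    simp
  rw [this, Ideal.Quotient.eq_zero_iff_mem]
  exact S30ZP_pow_mem hp n

/-- the level `n` map `ℤ_[p] → ℤ / p ^ n → R ⧸ I ^ n`. -/
noncomputable def S30ZP_level (hp : (p : R) ∈ I) (n : ℕ) : ℤ_[p] →+* R ⧸ I ^ n :=
  (ZMod.castHom (S30ZP_ringChar_dvd hp n) (R ⧸ I ^ n)).comp (PadicInt.toZModPow n)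

theorem S30ZP_level_apply (hp : (p : R) ∈ I) (n : ℕ) (x : ℤ_[p]) :
    S30ZP_level p I hp n x = ((x.appr n : ℕ) : R ⧸ I ^ n) := by
  have h : PadicInt.toZModPow n x = ((x.appr n : ℕ) : ZMod (p ^ n)) := rfl
  rw [S30ZP_level, RingHom.comp_apply, h, map_natCast]

theorem S30ZP_level_compat (hp : (p : R) ∈ I) {m n : ℕ} (hle : m ≤ n) :
    (Ideal.Quotient.factorPow I hle).comp (S30ZP_level p I hp n) = S30ZP_level p I hp m := by
  ext x
  rw [RingHom.comp_apply, S30ZP_level_apply, S30ZP_level_apply, map_natCast]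
  obtain ⟨c, hc⟩ := PadicInt.dvd_appr_sub_appr x m n hle
  have h1 : x.appr n = x.appr m + p ^ m * c := by
    have := PadicInt.appr_mono x hle
    omega
  rw [h1, Nat.cast_add, Nat.cast_mul]
  have h2 : ((p ^ m : ℕ) : R ⧸ I ^ m) = 0 := by
    have : ((p ^ m : ℕ) : R ⧸ I ^ m) = Ideal.Quotient.mk (I ^ m) ((p ^ m : ℕ) : R) := by simp
    rw [this, Ideal.Quotient.eq_zero_iff_mem]
    exact S30ZP_pow_mem hp m
  rw [h2, zero_mul, add_zero]

variable [IsAdicComplete I R]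

/-- **The canonical ring homomorphism** `ℤ_[p] →+* R` into an `I`-adically complete ring with
`p ∈ I`. -/
noncomputable def S30ZP_zp (hp : (p : R) ∈ I) : ℤ_[p] →+* R :=
  IsAdicComplete.liftRingHom I (S30ZP_level p I hp) (fun hle => S30ZP_level_compat p I hp hle)

theorem S30ZP_mk_zp (hp : (p : R) ∈ I) (n : ℕ) (x : ℤ_[p]) :
    Ideal.Quotient.mk (I ^ n) (S30ZP_zp p I hp x) = ((x.appr n : ℕ) : R ⧸ I ^ n) := by
  rw [S30ZP_zp, IsAdicComplete.mk_liftRingHom, S30ZP_level_apply]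

/-- `zp x ≡ x.appr n` modulo `I ^ n`. -/
theorem S30ZP_zp_spec (hp : (p : R) ∈ I) (x : ℤ_[p]) (n : ℕ) :
    S30ZP_zp p I hp x - ((x.appr n : ℕ) : R) ∈ I ^ n := by
  rw [← Ideal.Quotient.eq, S30ZP_mk_zp]
  simp

omit [IsAdicComplete I R] in
/-- every ring homomorphism `ℤ_[p] →+* R` maps `span {p ^ n}` into `I ^ n`. -/
theorem S30ZP_map_mem (hp : (p : R) ∈ I) (f : ℤ_[p] →+* R) {x : ℤ_[p]} {n : ℕ}
    (hx : x ∈ Ideal.span {(p : ℤ_[p]) ^ n}) : f x ∈ I ^ n := by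
  obtain ⟨y, rfl⟩ := Ideal.mem_span_singleton.1 hx
  rw [map_mul, map_pow, map_natCast]
  exact Ideal.mul_mem_right _ _ (Ideal.pow_mem_pow hp n)

/-- **Uniqueness**: every ring homomorphism `ℤ_[p] →+* R` is `zp`. -/
theorem S30ZP_zp_unique (hp : (p : R) ∈ I) (f : ℤ_[p] →+* R) : f = S30ZP_zp p I hp := by
  refine IsAdicComplete.eq_liftRingHom I (S30ZP_level p I hp)
    (fun hle => S30ZP_level_compat p I hp hle) f (fun n => ?_)
  ext x
  rw [RingHom.comp_apply, S30ZP_level_apply]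
  have h1 : f x - ((x.appr n : ℕ) : R) ∈ I ^ n := by
    have h2 := S30ZP_map_mem p I hp f (PadicInt.appr_spec n x)
    rwa [map_sub, map_natCast] at h2
  rw [← Ideal.Quotient.eq] at h1
  rw [h1]
  simp

/-- `p`-adic continuity of `zp`. -/
theorem S30ZP_zp_sub_mem (hp : (p : R) ∈ I) {x y : ℤ_[p]} {n : ℕ}
    (h : x - y ∈ Ideal.span {(p : ℤ_[p]) ^ n}) :
    S30ZP_zp p I hp x - S30ZP_zp p I hp y ∈ I ^ n := by
  rw [← map_sub]
  exact S30ZP_map_mem p I hp _ h

theorem S30ZP_zp_natCast (hp : (p : R) ∈ I) (m : ℕ) : S30ZP_zp p I hp (m : ℤ_[p]) = (m : R) :=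
  map_natCast _ m

theorem S30ZP_zp_intCast (hp : (p : R) ∈ I) (m : ℤ) : S30ZP_zp p I hp (m : ℤ_[p]) = (m : R) :=
  map_intCast _ m

/-- two ring homomorphisms `ℤ_[p] →+* R` agree. -/
theorem S30ZP_ringHom_ext (hp : (p : R) ∈ I) (f g : ℤ_[p] →+* R) : f = g := by
  rw [S30ZP_zp_unique p I hp f, S30ZP_zp_unique p I hp g]

omit [IsAdicComplete I R] in
/-- a ring homomorphism from `ℤ_[p]` to a domain of characteristic zero is injective. -/
theorem S30ZP_injective_of_charZero [IsDomain R] [CharZero R] (f : ℤ_[p] →+* R) :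
    Function.Injective f := by
  rw [injective_iff_map_eq_zero]
  intro x hx
  by_contra hx0
  have h := PadicInt.unitCoeff_spec hx0
  rw [h, map_mul, map_pow, map_natCast] at hx
  rcases mul_eq_zero.1 hx with h1 | h1
  · exact ((PadicInt.unitCoeff hx0).isUnit.map f).ne_zero h1
  · have hp0 : ((p : ℕ) : R) ≠ 0 := Nat.cast_ne_zero.2 (Fact.out : p.Prime).ne_zero
    exact pow_ne_zero _ hp0 h1

theorem S30ZP_zp_injective [IsDomain R] [CharZero R] (hp : (p : R) ∈ I) :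
    Function.Injective (S30ZP_zp p I hp) :=
  S30ZP_injective_of_charZero p (S30ZP_zp p I hp)

/-! ### The local case -/

section local_case

variable (R) [IsLocalRing R] [IsAdicComplete (IsLocalRing.maximalIdeal R) R]

/-- the canonical ring homomorphism `ℤ_[p] →+* R` for a complete local ring `R` with
`p ∈ 𝔪_R`. -/
noncomputable def S30ZP_zpLocal (hp : (p : R) ∈ IsLocalRing.maximalIdeal R) : ℤ_[p] →+* R :=
  S30ZP_zp p (IsLocalRing.maximalIdeal R) hp

theorem S30ZP_zpLocal_spec (hp : (p : R) ∈ IsLocalRing.maximalIdeal R) (x : ℤ_[p]) (n : ℕ) :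
    S30ZP_zpLocal p R hp x - ((x.appr n : ℕ) : R) ∈ IsLocalRing.maximalIdeal R ^ n :=
  S30ZP_zp_spec p _ hp x n

theorem S30ZP_zpLocal_unique (hp : (p : R) ∈ IsLocalRing.maximalIdeal R) (f : ℤ_[p] →+* R) :
    f = S30ZP_zpLocal p R hp :=
  S30ZP_zp_unique p _ hp f

/-- `zp` is a local homomorphism. -/
theorem S30ZP_zpLocal_mem_maximalIdeal (hp : (p : R) ∈ IsLocalRing.maximalIdeal R)
    {x : ℤ_[p]} (hx : x ∈ IsLocalRing.maximalIdeal ℤ_[p]) :
    S30ZP_zpLocal p R hp x ∈ IsLocalRing.maximalIdeal R := by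
  rw [PadicInt.maximalIdeal_eq_span_p] at hx
  have := S30ZP_map_mem p (IsLocalRing.maximalIdeal R) hp (S30ZP_zpLocal p R hp) (n := 1)
    (by simpa using hx)
  simpa using this

end local_case

end Fermat.Agent.S30_helper25_ZP
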