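import Mathlib
import Fermat.Agent.S30_helper23_HF
import Fermat.Agent.S30_helper23_EIGLAT
import Fermat.Agent.G_helper3_G2aLATTICE
import Fermat.Agent.S30_helper25_ZP
import Fermat.Agent.S30_helper1_TATEF

/-!
# S30: the eigenlattice of a character of the Hecke algebra is nontrivial (concrete form)

* `PG30_flat_padic`: a domain of characteristic `0` which is a `ℤ_[p]`-algebra is flat over
  `ℤ_[p]`.
* `PG30_eigenlattice_nontrivial`: for every `R`-module `Λ` (`R` a commutative ring, `𝒪` a flat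
  `R`-algebra which is a domain of characteristic `0`) with an additive map `θ : PG_M N →+ Λ`
  sending a `ℤ`-basis to an `R`-linearly independent family and operators `T ℓ` on `Λ`
  compatible with the Hecke operators `PG_E2F_TM N ℓ` of the lattice: every character
  `χ : heckeAlgebra N 2 S →+* 𝒪` has a nonzero eigenvector in `𝒪 ⊗[R] Λ`.
* `PG30_eigenlattice_tate`: the case of the Tate module `S30T_Tate (JZero N) p` with the maps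
  `Θ n : PG_M N →+ JZero N` of Project G at the moduli `p ^ n`.
-/

set_option autoImplicit false

open scoped TensorProduct
open Fermat.Agent.G_helper6_Defs Fermat.Agent.G_helper6_E2FINAL

noncomputable section

namespace Fermat.Agent.S30_helper23_EIGC

open Fermat.Agent.S30_helper23_HF Fermat.Agent.S30_helper23_EIGLAT
  Fermat.Agent.S30_helper1_TATE Fermat.Agent.S30_helper1_TATEF

/-- A domain of characteristic `0` is flat over `ℤ_[p]`. -/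
theorem PG30_flat_padic (p : ℕ) [Fact p.Prime] (𝒪 : Type*) [CommRing 𝒪] [IsDomain 𝒪]
    [CharZero 𝒪] [Algebra ℤ_[p] 𝒪] : Module.Flat ℤ_[p] 𝒪 := by
  have hinj : Function.Injective (algebraMap ℤ_[p] 𝒪) :=
    Fermat.Agent.S30_helper25_ZP.S30ZP_injective_of_charZero p (algebraMap ℤ_[p] 𝒪)
  haveI : FaithfulSMul ℤ_[p] 𝒪 := (faithfulSMul_iff_algebraMap_injective _ _).2 hinj
  infer_instance

/-- **Nontriviality of the eigenlattice**, for an abstract target `Λ`. -/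
theorem PG30_eigenlattice_nontrivial (N : ℕ) [NeZero N] (S : Set ℕ)
    (hNS : ∀ q : ℕ, q.Prime → q ∣ N → q ∈ S)
    {R : Type*} [CommRing R] {𝒪 : Type*} [CommRing 𝒪] [IsDomain 𝒪] [CharZero 𝒪] [Algebra R 𝒪]
    [Module.Flat R 𝒪] {Λ : Type*} [AddCommGroup Λ] [Module R Λ] (θ : PG_M N →+ Λ)
    {ι : Type*} (b : Module.Basis ι ℤ (PG_M N)) (hθ : LinearIndependent R (fun i => θ (b i)))
    (T : ℕ → Module.End R Λ)
    (hT : ∀ (ℓ : ℕ) (hℓ : ℓ.Prime), ¬ ℓ ∣ N → ℓ ∉ S → ∀ c : PG_M N,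
      haveI : NeZero ℓ := ⟨hℓ.ne_zero⟩
      T ℓ (θ c) = θ (PG_E2F_TM N ℓ c))
    (χ : CuspForm.heckeAlgebra N 2 S →+* 𝒪) :
    ∃ v : 𝒪 ⊗[R] Λ, v ≠ 0 ∧
      ∀ (ℓ : ℕ) (hℓ : ℓ.Prime) (hℓN : ¬ ℓ ∣ N) (hℓS : ℓ ∉ S),
        (T ℓ).baseChange 𝒪 v = χ (CuspForm.heckeAlgebra.T hℓ hℓN hℓS) • v := by
  obtain ⟨Ψ, hΨ, hΨT⟩ := PG30_hecke_faithful N S hNS
  haveI : Module.Finite ℤ (PG_M N) := (Fermat.Agent.G_helper3_G2aLATTICE.PG_lattice N).1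
  haveI : Module.Free ℤ (PG_M N) := (Fermat.Agent.G_helper3_G2aLATTICE.PG_lattice N).2.1
  obtain ⟨v, hv0, hv⟩ := PG30_eigenlattice_exists (R := R) (𝒪 := 𝒪) θ b hθ Ψ hΨ χ
    (I := {ℓ : ℕ // ℓ.Prime ∧ ¬ ℓ ∣ N ∧ ℓ ∉ S})
    (fun i => CuspForm.heckeAlgebra.T i.2.1 i.2.2.1 i.2.2.2) (fun i => T i.1)
    (fun i c => by
      rw [hΨT i.1 i.2.1 i.2.2.1 i.2.2.2]
      exact hT i.1 i.2.1 i.2.2.1 i.2.2.2 c)
  exact ⟨v, hv0, fun ℓ hℓ hℓN hℓS => hv ⟨ℓ, hℓ, hℓN, hℓS⟩⟩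

/-- **Nontriviality of the eigenlattice in the Tate module of `J₀(N)`**, from the maps
`Θ n : M →+ J₀(N)(ℚ̄)[p ^ n]` of Project G (only `tors`, `inj`, `hecke` of `PG_E2 N (p ^ n)` and
the compatibility are used). -/
theorem PG30_eigenlattice_tate (N : ℕ) [NeZero N] (S : Set ℕ)
    (hNS : ∀ q : ℕ, q.Prime → q ∣ N → q ∈ S) (p : ℕ) [Fact p.Prime]
    {𝒪 : Type*} [CommRing 𝒪] [IsDomain 𝒪] [CharZero 𝒪] [Algebra ℤ_[p] 𝒪]
    (Θ : ℕ → PG_M N →+ ModularCurve.JZero N)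
    (htors : ∀ (n : ℕ) (c : PG_M N), (p ^ n) • Θ n c = 0)
    (hcompat : ∀ (n : ℕ) (c : PG_M N), p • Θ (n + 1) c = Θ n c)
    (hinj : ∀ (n : ℕ) (c : PG_M N), Θ n c = 0 → ∃ c' : PG_M N, c = (p ^ n) • c')
    (hhecke : ∀ (n : ℕ) (ℓ : Nat.Primes) (c : PG_M N), ¬ (ℓ : ℕ) ∣ N →
      haveI : NeZero (ℓ : ℕ) := ⟨ℓ.2.ne_zero⟩
      ModularCurve.heckeOperatorBar N ℓ (Θ n c) = Θ n (PG_E2F_TM N ℓ c))
    (T : ℕ → Module.End ℤ_[p] (S30T_Tate (ModularCurve.JZero N) p))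
    (hT : ∀ (ℓ : Nat.Primes), ¬ (ℓ : ℕ) ∣ N → (ℓ : ℕ) ∉ S →
      ∀ (x : S30T_Tate (ModularCurve.JZero N) p) (n : ℕ),
        ((T ℓ x : S30T_Tate (ModularCurve.JZero N) p) : ℕ → ModularCurve.JZero N) n =
          ModularCurve.heckeOperatorBar N ℓ ((x : ℕ → ModularCurve.JZero N) n))
    (χ : CuspForm.heckeAlgebra N 2 S →+* 𝒪) :
    (∀ {ι : Type} [Fintype ι] (b : Module.Basis ι ℤ (PG_M N)),
        LinearIndependent ℤ_[p] (fun i => S30T_lift Θ htors hcompat (b i))) ∧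
    (∀ (ℓ : Nat.Primes), ¬ (ℓ : ℕ) ∣ N → (ℓ : ℕ) ∉ S → ∀ c : PG_M N,
        haveI : NeZero (ℓ : ℕ) := ⟨ℓ.2.ne_zero⟩
        T ℓ (S30T_lift Θ htors hcompat c) = S30T_lift Θ htors hcompat (PG_E2F_TM N ℓ c)) ∧
    ∃ v : 𝒪 ⊗[ℤ_[p]] (S30T_Tate (ModularCurve.JZero N) p), v ≠ 0 ∧
      ∀ (ℓ : ℕ) (hℓ : ℓ.Prime) (hℓN : ¬ ℓ ∣ N) (hℓS : ℓ ∉ S),
        (T ℓ).baseChange 𝒪 v = χ (CuspForm.heckeAlgebra.T hℓ hℓN hℓS) • v := by
  haveI : Module.Finite ℤ (PG_M N) := (Fermat.Agent.G_helper3_G2aLATTICE.PG_lattice N).1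
  haveI : Module.Free ℤ (PG_M N) := (Fermat.Agent.G_helper3_G2aLATTICE.PG_lattice N).2.1
  haveI : Module.Flat ℤ_[p] 𝒪 := PG30_flat_padic p 𝒪
  have hli : ∀ {ι : Type} [Fintype ι] (b : Module.Basis ι ℤ (PG_M N)),
      LinearIndependent ℤ_[p] (fun i => S30T_lift Θ htors hcompat (b i)) :=
    fun b => S30T_lift_linearIndependent b Θ htors hcompat hinj
  have heq : ∀ (ℓ : Nat.Primes), ¬ (ℓ : ℕ) ∣ N → (ℓ : ℕ) ∉ S → ∀ c : PG_M N,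
      haveI : NeZero (ℓ : ℕ) := ⟨ℓ.2.ne_zero⟩
      T ℓ (S30T_lift Θ htors hcompat c) = S30T_lift Θ htors hcompat (PG_E2F_TM N ℓ c) := by
    intro ℓ hℓN hℓS c
    apply S30T_ext
    intro n
    rw [hT ℓ hℓN hℓS, S30T_lift_apply, S30T_lift_apply]
    exact hhecke n ℓ c hℓN
  refine ⟨hli, heq, ?_⟩
  exact PG30_eigenlattice_nontrivial N S hNS (S30T_lift Θ htors hcompat)
    (Module.Free.chooseBasis ℤ (PG_M N)) (hli _) T
    (fun ℓ hℓ hℓN hℓS c => heq ⟨ℓ, hℓ⟩ hℓN hℓS c) χ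

/-- The same, from `PG_E2 N (p ^ n) (Θ n)` for all `n` and the compatibility
`p • Θ (n + 1) = Θ n`. -/
theorem PG30_eigenlattice_of_E2 (N : ℕ) [NeZero N] (S : Set ℕ)
    (hNS : ∀ q : ℕ, q.Prime → q ∣ N → q ∈ S) (p : ℕ) [Fact p.Prime]
    {𝒪 : Type*} [CommRing 𝒪] [IsDomain 𝒪] [CharZero 𝒪] [Algebra ℤ_[p] 𝒪]
    (Θ : ℕ → PG_M N →+ ModularCurve.JZero N)
    (hE2 : ∀ n : ℕ, PG_E2 N (p ^ n) (Θ n))
    (hcompat : ∀ (n : ℕ) (c : PG_M N), (p : ℤ) • Θ (n + 1) c = Θ n c)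
    (T : ℕ → Module.End ℤ_[p] (S30T_Tate (ModularCurve.JZero N) p))
    (hT : ∀ (ℓ : Nat.Primes), ¬ (ℓ : ℕ) ∣ N → (ℓ : ℕ) ∉ S →
      ∀ (x : S30T_Tate (ModularCurve.JZero N) p) (n : ℕ),
        ((T ℓ x : S30T_Tate (ModularCurve.JZero N) p) : ℕ → ModularCurve.JZero N) n =
          ModularCurve.heckeOperatorBar N ℓ ((x : ℕ → ModularCurve.JZero N) n))
    (χ : CuspForm.heckeAlgebra N 2 S →+* 𝒪) :
    ∃ v : 𝒪 ⊗[ℤ_[p]] (S30T_Tate (ModularCurve.JZero N) p), v ≠ 0 ∧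
      ∀ (ℓ : ℕ) (hℓ : ℓ.Prime) (hℓN : ¬ ℓ ∣ N) (hℓS : ℓ ∉ S),
        (T ℓ).baseChange 𝒪 v = χ (CuspForm.heckeAlgebra.T hℓ hℓN hℓS) • v := by
  have htors : ∀ (n : ℕ) (c : PG_M N), (p ^ n) • Θ n c = 0 := fun n c => by
    have h := (hE2 n).tors c
    rwa [natCast_zsmul] at h
  have hc : ∀ (n : ℕ) (c : PG_M N), p • Θ (n + 1) c = Θ n c := fun n c => by
    have h := hcompat n c
    rwa [natCast_zsmul] at h
  have hinj : ∀ (n : ℕ) (c : PG_M N), Θ n c = 0 → ∃ c' : PG_M N, c = (p ^ n) • c' :=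
    fun n c h => by
      obtain ⟨c', hc'⟩ := (hE2 n).inj c h
      exact ⟨c', by rw [hc', natCast_zsmul]⟩
  have hhecke : ∀ (n : ℕ) (ℓ : Nat.Primes) (c : PG_M N), ¬ (ℓ : ℕ) ∣ N →
      haveI : NeZero (ℓ : ℕ) := ⟨ℓ.2.ne_zero⟩
      ModularCurve.heckeOperatorBar N ℓ (Θ n c) = Θ n (PG_E2F_TM N ℓ c) :=
    fun n ℓ c hℓN => (hE2 n).hecke ℓ c _ hℓN rfl
  exact (PG30_eigenlattice_tate N S hNS p Θ htors hc hinj hhecke T hT χ).2.2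

end Fermat.Agent.S30_helper23_EIGC
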