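import Mathlib
import Fermat.Agent.G_helper12_OPENSTAB
import Fermat.Agent.G_helper7_CYC
import Fermat.Agent.G_helper29_WDefs

/-!
# S31 / S30, piece FIELD: the finite level of `J₀(N)(ℚ̄)[m] × μ_m`

* `S31F_finite_mul`, `S31F_finite_pow`: devissage, `J[m]` and `J[n]` finite `⟹` `J[m n]` finite;
* `S31F_level_of_finite`: a finite set of classes of `J₀(N)(ℚ̄)` is fixed pointwise by the
  fixator of a finite extension of `ℚ` (from the landed open-stabiliser statement);
* `S31F_level_mu`: the same for the `m`-th roots of unity;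
* `S31F_U N m`: the subgroup of `G_ℚ` acting trivially on `J₀(N)(ℚ̄)[m]` and on `μ_m`; it is
  normal, contains the fixator of a finite extension of `ℚ`, and (given the Eichler-Shimura
  statement `PG_E1_statement N m`) contains the inertia groups at all primes `q ∤ N m`.
-/

set_option autoImplicit false
set_option linter.unusedSectionVars false
set_option linter.style.haveILetI false

open ModularCurve AlgebraicCurve IntermediateField

namespace Fermat.Agent.S31_helper21_FIELD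

local notation "Qb" => AlgebraicClosure ℚ
local notation "GQ" => (AlgebraicClosure ℚ ≃ₐ[ℚ] AlgebraicClosure ℚ)

/-! ### Devissage -/

section Devissage

variable {J : Type*} [AddCommGroup J]

/-- The fibres of multiplication by `n` are finite when `J[n]` is. -/
theorem S31F_fiber_finite (n : ℕ) (hn : {x : J | n • x = 0}.Finite) (y : J) :
    {x : J | n • x = y}.Finite := by
  by_cases h : ∃ x0 : J, n • x0 = y
  · obtain ⟨x0, hx0⟩ := h
    refine (hn.image (fun z => x0 + z)).subset ?_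
    intro x hx
    refine ⟨x - x0, ?_, by simp⟩
    show n • (x - x0) = 0
    rw [smul_sub, hx0]
    exact sub_eq_zero.mpr hx
  · convert Set.finite_empty
    ext x
    constructor
    · exact fun hx => (h ⟨x, hx⟩).elim
    · exact fun hx => hx.elim

/-- Devissage: `J[m]` and `J[n]` finite `⟹` `J[m n]` finite. -/
theorem S31F_finite_mul (m n : ℕ) (hm : {x : J | m • x = 0}.Finite)
    (hn : {x : J | n • x = 0}.Finite) : {x : J | (m * n) • x = 0}.Finite := by
  refine (hm.biUnion (fun y _ => S31F_fiber_finite n hn y)).subset ?_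
  intro x hx
  rw [Set.mem_iUnion₂]
  refine ⟨n • x, ?_, rfl⟩
  show m • n • x = 0
  rw [← mul_smul]
  exact hx

/-- Devissage: `J[p]` finite `⟹` `J[p ^ k]` finite. -/
theorem S31F_finite_pow (p : ℕ) (hp : {x : J | p • x = 0}.Finite) (k : ℕ) :
    {x : J | (p ^ k) • x = 0}.Finite := by
  induction k with
  | zero =>
    refine (Set.finite_singleton (0 : J)).subset ?_
    intro x hx
    have h : (p ^ 0) • x = 0 := hx
    rw [pow_zero, one_smul] at h
    exact h
  | succ k ih =>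
    rw [pow_succ]
    exact S31F_finite_mul _ _ ih hp

theorem S31F_nsmul_iff_zsmul (m : ℕ) (x : J) : m • x = 0 ↔ (m : ℤ) • x = 0 := by
  rw [natCast_zsmul]

/-- The same with `ℤ`-multiples. -/
theorem S31F_finite_pow_int (p : ℕ) (hp : {x : J | (p : ℤ) • x = 0}.Finite) (k : ℕ) :
    {x : J | ((p ^ k : ℕ) : ℤ) • x = 0}.Finite := by
  have h1 : {x : J | p • x = 0}.Finite := by
    refine hp.subset ?_
    intro x hx
    exact (S31F_nsmul_iff_zsmul p x).mp hx
  refine (S31F_finite_pow p h1 k).subset ?_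
  intro x hx
  exact (S31F_nsmul_iff_zsmul (p ^ k) x).mpr hx

end Devissage

/-! ### Valuations and roots of unity -/

section Val

variable {L : Type*} [Field L] (A : ValuationSubring L)

/-- If `η ≠ 1` is an `m`-th root of unity congruent to `1` modulo the maximal ideal, then `m`
lies in the maximal ideal. -/
theorem S31F_val_natCast_lt {m : ℕ} {η : L} (hη : η ^ m = 1) (hne : η ≠ 1)
    (hv : A.valuation (1 - η) < 1) : A.valuation (m : L) < 1 := by
  rcases Nat.eq_zero_or_pos m with rfl | hm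
  · rw [Nat.cast_zero, map_zero]
    exact zero_lt_one
  have hvη : A.valuation η = 1 :=
    Fermat.Agent.G_helper7_CYC.PGCYC_val_eq_one_of_pow_eq_one A hm.ne' hη
  have hsum : ∑ i ∈ Finset.range m, η ^ i = 0 := by
    have h1 : (∑ i ∈ Finset.range m, η ^ i) * (η - 1) = 0 := by
      rw [geom_sum_mul, hη, sub_self]
    rcases mul_eq_zero.mp h1 with h | h
    · exact h
    · exact absurd (sub_eq_zero.mp h) hne
  have hcast : (m : L) = ∑ i ∈ Finset.range m, (1 - η ^ i) := by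
    rw [Finset.sum_sub_distrib, hsum, sub_zero]
    simp
  rw [hcast]
  refine Valuation.map_sum_lt _ one_ne_zero (fun i _ => ?_)
  have h2 : (1 : L) - η ^ i = (∑ j ∈ Finset.range i, η ^ j) * (1 - η) :=
    (geom_sum_mul_neg η i).symm
  rw [h2, map_mul]
  have h3 : A.valuation (∑ j ∈ Finset.range i, η ^ j) ≤ 1 := by
    refine Valuation.map_sum_le _ (fun j _ => ?_)
    rw [map_pow, hvη, one_pow]
  calc A.valuation (∑ j ∈ Finset.range i, η ^ j) * A.valuation (1 - η)
      ≤ 1 * A.valuation (1 - η) := mul_le_mul' h3 le_rfl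
    _ = A.valuation (1 - η) := one_mul _
    _ < 1 := hv

/-- Two `m`-th roots of unity which are congruent modulo the maximal ideal are equal, when `m`
is a unit of the valuation ring. -/
theorem S31F_eq_of_val_sub_lt {m : ℕ} (hmA : A.valuation (m : L) = 1) {ζ ζ' : L}
    (hζ : ζ ^ m = 1) (hζ' : ζ' ^ m = 1) (hv : A.valuation (ζ' - ζ) < 1) : ζ' = ζ := by
  by_contra hne
  have hm : m ≠ 0 := by
    rintro rfl
    rw [Nat.cast_zero, map_zero] at hmA
    exact zero_ne_one hmA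
  have hζ0 : ζ ≠ 0 := by
    rintro rfl
    rw [zero_pow hm] at hζ
    exact zero_ne_one hζ
  have hvζ : A.valuation ζ = 1 :=
    Fermat.Agent.G_helper7_CYC.PGCYC_val_eq_one_of_pow_eq_one A hm hζ
  set η : L := ζ' / ζ with hηdef
  have hη : η ^ m = 1 := by
    rw [hηdef, div_pow, hζ, hζ', div_one]
  have hη1 : η ≠ 1 := by
    intro h
    apply hne
    rw [hηdef, div_eq_one_iff_eq hζ0] at h
    exact h
  have hvη : A.valuation (1 - η) < 1 := by
    have e : (1 : L) - η = -((ζ' - ζ) / ζ) := by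
      rw [hηdef]
      field_simp
      ring
    rw [e, Valuation.map_neg, map_div₀, hvζ, div_one]
    exact hv
  have := S31F_val_natCast_lt A hη hη1 hvη
  rw [hmA] at this
  exact lt_irrefl _ this

end Val

/-! ### Inertia and roots of unity -/

/-- The inertia group at a prime `q` fixes the `m`-th roots of unity when `q ∤ m`. -/
theorem S31F_inertia_mu {q m : ℕ} (hq : q.Prime) (hqm : ¬ q ∣ m)
    (A : ValuationSubring Qb) (hA : A.LiesOverPrime q) (τ : GQ)
    (hτ : τ ∈ A.inertiaSubgroupIn ℚ) {ζ : Qb} (hζ : ζ ^ m = 1) : τ ζ = ζ := by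
  have hm : m ≠ 0 := by
    rintro rfl
    exact hqm (dvd_zero q)
  have hvq : A.valuation (q : Qb) < 1 := by
    have : (q : Qb) ∈ A.nonunits := hA
    exact (ValuationSubring.mem_nonunits_iff (A := A)).mp this
  have hmA : A.valuation (m : Qb) = 1 :=
    Fermat.Agent.G_helper7_CYC.PGCYC_val_natCast_eq_one A hvq
      ((Nat.Prime.coprime_iff_not_dvd hq).mpr hqm)
  have hζA : ζ ∈ A := Fermat.Agent.G_helper7_CYC.PGCYC_mem_of_pow_eq_one A hm hζ
  have h1 := (Fermat.Agent.S05_helper5_Inertia.inertia_spec_gen A τ hτ ζ hζA).2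
  have h2 : A.valuation (τ ζ - ζ) < 1 := (ValuationSubring.mem_nonunits_iff (A := A)).mp h1
  have hτζ : (τ ζ) ^ m = 1 := by rw [← map_pow, hζ, map_one]
  exact S31F_eq_of_val_sub_lt A hmA hζ hτζ h2

/-! ### Finite levels -/

/-- A finite set of classes is fixed pointwise by the fixator of a finite extension of `ℚ`. -/
theorem S31F_level_of_finite (N : ℕ) [NeZero N] (s : Set (JZero N)) (hs : s.Finite) :
    ∃ L : IntermediateField ℚ Qb, FiniteDimensional ℚ L ∧
      ∀ σ : GQ, (∀ a ∈ L, σ a = a) → ∀ z ∈ s, σ • z = z := by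
  classical
  choose L hLfin hL using Fermat.Agent.G_helper12_OPENSTAB.PG11_open_stabilizer N
  refine ⟨⨆ z ∈ hs.toFinset, L z, ?_, ?_⟩
  · exact IntermediateField.finiteDimensional_iSup_of_finset' (fun z _ => hLfin z)
  · intro σ hσ z hz
    apply hL z σ
    intro a ha
    apply hσ
    exact (le_iSup₂ (f := fun z (_ : z ∈ hs.toFinset) => L z) z (hs.mem_toFinset.mpr hz)) ha

/-- The `m`-th roots of unity are fixed by the fixator of a finite extension of `ℚ`. -/
theorem S31F_level_mu (m : ℕ) (hm : 0 < m) :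
    ∃ L : IntermediateField ℚ Qb, FiniteDimensional ℚ L ∧
      ∀ σ : GQ, (∀ a ∈ L, σ a = a) → ∀ ζ : Qb, ζ ^ m = 1 → σ ζ = ζ := by
  classical
  haveI : Algebra.IsAlgebraic ℚ Qb := AlgebraicClosure.isAlgebraic ℚ
  refine ⟨IntermediateField.adjoin ℚ ((Polynomial.nthRootsFinset m (1 : Qb) : Finset Qb) : Set Qb),
    ?_, ?_⟩
  · exact IntermediateField.finiteDimensional_adjoin
      (fun x _ => Algebra.IsIntegral.isIntegral x)
  · intro σ hσ ζ hζ
    apply hσ
    apply IntermediateField.subset_adjoin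
    rw [Finset.mem_coe, Polynomial.mem_nthRootsFinset hm]
    exact hζ

/-- The finite level of `J₀(N)(ℚ̄)[m] × μ_m`. -/
theorem S31F_level (N : ℕ) [NeZero N] (m : ℕ) (hm : 0 < m)
    (hfin : {z : JZero N | m • z = 0}.Finite) :
    ∃ L : IntermediateField ℚ Qb, FiniteDimensional ℚ L ∧
      ∀ σ : GQ, (∀ a ∈ L, σ a = a) →
        (∀ z : JZero N, m • z = 0 → σ • z = z) ∧ ∀ ζ : Qb, ζ ^ m = 1 → σ ζ = ζ := by
  obtain ⟨L1, hL1, h1⟩ := S31F_level_of_finite N _ hfin
  obtain ⟨L2, hL2, h2⟩ := S31F_level_mu m hm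
  refine ⟨L1 ⊔ L2, IntermediateField.finiteDimensional_sup L1 L2, fun σ hσ => ⟨?_, ?_⟩⟩
  · intro z hz
    exact h1 σ (fun a ha => hσ a ((le_sup_left : L1 ≤ L1 ⊔ L2) ha)) z hz
  · intro ζ hζ
    exact h2 σ (fun a ha => hσ a ((le_sup_right : L2 ≤ L1 ⊔ L2) ha)) ζ hζ

/-- The `fin` field of `PG_E2` in set form. -/
theorem S31F_finite_of_torsion (N : ℕ) [NeZero N] (p : ℕ)
    (hfin : (Pic0.torsion Qb (modularFunctionFieldBar N) p : Set (JZero N)).Finite) :
    {z : JZero N | p • z = 0}.Finite := by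
  refine hfin.subset ?_
  intro z hz
  rw [SetLike.mem_coe, Pic0.mem_torsion]
  exact (S31F_nsmul_iff_zsmul p z).mp hz

/-- `J₀(N)(ℚ̄)[p ^ k]` is finite when `J₀(N)(ℚ̄)[p]` is. -/
theorem S31F_torsion_pow_finite (N : ℕ) [NeZero N] (p : ℕ)
    (hfin : (Pic0.torsion Qb (modularFunctionFieldBar N) p : Set (JZero N)).Finite) (k : ℕ) :
    (Pic0.torsion Qb (modularFunctionFieldBar N) (p ^ k) : Set (JZero N)).Finite := by
  refine (S31F_finite_pow p (S31F_finite_of_torsion N p hfin) k).subset ?_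
  intro z hz
  rw [SetLike.mem_coe, Pic0.mem_torsion] at hz
  exact (S31F_nsmul_iff_zsmul (p ^ k) z).mpr hz

/-- The finite level of `J₀(N)(ℚ̄)[p ^ k] × μ_(p ^ k)`, from the finiteness of `J₀(N)(ℚ̄)[p]`. -/
theorem S31F_level_pow (N : ℕ) [NeZero N] (p : ℕ) (hp : 0 < p)
    (hfin : (Pic0.torsion Qb (modularFunctionFieldBar N) p : Set (JZero N)).Finite) (k : ℕ) :
    ∃ L : IntermediateField ℚ Qb, FiniteDimensional ℚ L ∧
      ∀ σ : GQ, (∀ a ∈ L, σ a = a) →
        (∀ z : JZero N, (p ^ k) • z = 0 → σ • z = z) ∧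
          ∀ ζ : Qb, ζ ^ (p ^ k) = 1 → σ ζ = ζ :=
  S31F_level N (p ^ k) (pow_pos hp k)
    (S31F_finite_pow p (S31F_finite_of_torsion N p hfin) k)

/-! ### The kernel of the action on `J₀(N)(ℚ̄)[m] × μ_m` -/

/-- The subgroup of `G_ℚ` acting trivially on `J₀(N)(ℚ̄)[m]` and on `μ_m`. -/
def S31F_U (N : ℕ) [NeZero N] (m : ℕ) : Subgroup GQ where
  carrier := {σ | (∀ z : JZero N, m • z = 0 → σ • z = z) ∧ ∀ ζ : Qb, ζ ^ m = 1 → σ ζ = ζ}
  one_mem' := ⟨fun z _ => one_smul _ z, fun _ _ => rfl⟩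
  mul_mem' := by
    rintro σ τ ⟨hσ1, hσ2⟩ ⟨hτ1, hτ2⟩
    refine ⟨fun z hz => ?_, fun ζ hζ => ?_⟩
    · rw [mul_smul, hτ1 z hz, hσ1 z hz]
    · rw [AlgEquiv.mul_apply, hτ2 ζ hζ, hσ2 ζ hζ]
  inv_mem' := by
    rintro σ ⟨hσ1, hσ2⟩
    refine ⟨fun z hz => ?_, fun ζ hζ => ?_⟩
    · rw [inv_smul_eq_iff, hσ1 z hz]
    · have h := hσ2 ζ hζ
      calc σ⁻¹ ζ = σ⁻¹ (σ ζ) := by rw [h]
        _ = ζ := by
          rw [← AlgEquiv.mul_apply, inv_mul_cancel, AlgEquiv.one_apply]

theorem S31F_mem_U (N : ℕ) [NeZero N] (m : ℕ) (σ : GQ) :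
    σ ∈ S31F_U N m ↔
      (∀ z : JZero N, m • z = 0 → σ • z = z) ∧ ∀ ζ : Qb, ζ ^ m = 1 → σ ζ = ζ :=
  Iff.rfl

theorem S31F_smul_torsion (N : ℕ) [NeZero N] (m : ℕ) (g : GQ) (z : JZero N)
    (hz : m • z = 0) : m • (g • z) = 0 := by
  have h := map_nsmul (DistribSMul.toAddMonoidHom (JZero N) g) m z
  simp only [DistribSMul.toAddMonoidHom_apply] at h
  rw [← h, hz, smul_zero]

instance S31F_U_normal (N : ℕ) [NeZero N] (m : ℕ) : (S31F_U N m).Normal where
  conj_mem := by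
    rintro σ ⟨hσ1, hσ2⟩ g
    refine ⟨fun z hz => ?_, fun ζ hζ => ?_⟩
    · rw [mul_smul, mul_smul, hσ1 _ (S31F_smul_torsion N m g⁻¹ z hz), smul_inv_smul]
    · have h1 : (g⁻¹ ζ) ^ m = 1 := by rw [← map_pow, hζ, map_one]
      rw [AlgEquiv.mul_apply, AlgEquiv.mul_apply, hσ2 _ h1, ← AlgEquiv.mul_apply,
        mul_inv_cancel, AlgEquiv.one_apply]

/-- `S31F_U N m` contains the fixator of a finite extension of `ℚ`. -/
theorem S31F_U_level (N : ℕ) [NeZero N] (m : ℕ) (hm : 0 < m)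
    (hfin : {z : JZero N | m • z = 0}.Finite) :
    ∃ L : IntermediateField ℚ Qb, FiniteDimensional ℚ L ∧
      ∀ σ : GQ, (∀ a ∈ L, σ a = a) → σ ∈ S31F_U N m :=
  S31F_level N m hm hfin

/-- `S31F_U N (p ^ k)` contains the fixator of a finite extension of `ℚ`, from the finiteness
of `J₀(N)(ℚ̄)[p]`. -/
theorem S31F_U_level_pow (N : ℕ) [NeZero N] (p : ℕ) (hp : 0 < p)
    (hfin : (Pic0.torsion Qb (modularFunctionFieldBar N) p : Set (JZero N)).Finite) (k : ℕ) :
    ∃ L : IntermediateField ℚ Qb, FiniteDimensional ℚ L ∧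
      ∀ σ : GQ, (∀ a ∈ L, σ a = a) → σ ∈ S31F_U N (p ^ k) :=
  S31F_level_pow N p hp hfin k

/-- Given the Eichler-Shimura statement at the modulus `m`, the inertia groups at the primes
`q ∤ N m` lie in `S31F_U N m`. -/
theorem S31F_U_inertia (N : ℕ) [NeZero N] (m : ℕ)
    (hE1 : Fermat.Agent.G_helper29_WDefs.PG_E1_statement N m)
    {q : ℕ} (hq : q.Prime) (hqNm : ¬ q ∣ N * m)
    (A : ValuationSubring Qb) (hA : A.LiesOverPrime q) (τ : GQ)
    (hτ : τ ∈ A.inertiaSubgroupIn ℚ) : τ ∈ S31F_U N m := by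
  refine ⟨fun z hz => ?_, fun ζ hζ => ?_⟩
  · exact (hE1 q hq hqNm A hA z hz).1 τ hτ
  · exact S31F_inertia_mu hq (fun h => hqNm (Dvd.dvd.mul_left h N)) A hA τ hτ hζ

/-- The same at the modulus `p ^ k`, for `q ∤ N` and `q ≠ p`. -/
theorem S31F_U_inertia_pow (N : ℕ) [NeZero N] (p : ℕ) (hp : p.Prime) (k : ℕ)
    (hE1 : Fermat.Agent.G_helper29_WDefs.PG_E1_statement N (p ^ k))
    {q : ℕ} (hq : q.Prime) (hqN : ¬ q ∣ N) (hqp : q ≠ p)
    (A : ValuationSubring Qb) (hA : A.LiesOverPrime q) (τ : GQ)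
    (hτ : τ ∈ A.inertiaSubgroupIn ℚ) : τ ∈ S31F_U N (p ^ k) := by
  refine S31F_U_inertia N (p ^ k) hE1 hq ?_ A hA τ hτ
  intro h
  rcases (Nat.Prime.dvd_mul hq).mp h with h1 | h1
  · exact hqN h1
  · exact hqp ((Nat.prime_dvd_prime_iff_eq hq hp).mp (hq.dvd_of_dvd_pow h1))

end Fermat.Agent.S31_helper21_FIELD
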