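import Mathlib
import Fermat.Prelude.Def_ModularCurve_HeckeModule
import Fermat.Agent.S30_helper1_TATEF
import Fermat.Agent.G_helper29_WDefs
import Fermat.Agent.G_helper8_GALHECKE
import Fermat.Agent.S31_helper21_FIELD

/-!
# S30, piece P3b: the Tate module of `J₀(N)`, concretely (helper27)

`Λ := S30T_Tate (JZero N) p` (helper1's generic Tate module of the additive group `J₀(N)(ℚ̄)`).

* `S30TC_rho N p : G_ℚ →* End_{ℤ_p} Λ`, the coordinatewise Galois action;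
* `S30TC_T N p ℓ : End_{ℤ_p} Λ`, the coordinatewise Hecke operator `T_ℓ` (`0` if `ℓ` is not prime);
* `S30TC_finite_free` : `Λ` is a finite free `ℤ_p`-module as soon as `J₀(N)[p]` is finite;
* `S30TC_comm` : the Hecke operators commute with the Galois action;
* `S30TC_cont` : `p`-adic continuity of the Galois action;
* `S30TC_unr`, `S30TC_ES` : from the Eichler–Shimura relations `(E1)` on every `J₀(N)[pⁿ]`:
  inertia at `q ∤ N p` acts trivially and Frobenius lifts at `ℓ ∤ N p` satisfy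
  `σ² - T_ℓ σ + ℓ = 0` on `Λ`.
-/

set_option autoImplicit false
set_option linter.unusedSectionVars false
set_option linter.unusedVariables false
set_option linter.style.haveILetI false

open ModularCurve AlgebraicCurve
open Fermat.Agent.S30_helper1_TATE Fermat.Agent.S30_helper1_TATEF
open Fermat.Agent.G_helper29_WDefs

noncomputable section

namespace Fermat.Agent.S30_helper27_TATEC

local notation "Qb" => AlgebraicClosure ℚ
local notation "GQ" => (AlgebraicClosure ℚ ≃ₐ[ℚ] AlgebraicClosure ℚ)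

variable (N : ℕ) [NeZero N] (p : ℕ) [hp : Fact p.Prime]

/-- The Galois action on the Tate module of `J₀(N)`. -/
def S30TC_rho : GQ →* Module.End ℤ_[p] (S30T_Tate (JZero N) p) :=
  (S30T_map (p := p) (J := JZero N)).toMonoidHom.comp
    (DistribMulAction.toAddMonoidEnd GQ (JZero N))

/-- The Hecke operator `T_ℓ` on the Tate module of `J₀(N)` (`0` if `ℓ` is not prime). -/
def S30TC_T : ℕ → Module.End ℤ_[p] (S30T_Tate (JZero N) p) := fun ℓ =>
  if h : ℓ.Prime then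
    S30T_map (p := p) (J := JZero N) (heckeOperatorBar N ⟨ℓ, h⟩).toAddMonoidHom
  else 0

variable {N p}

@[simp]
theorem S30TC_rho_apply (σ : GQ) (x : S30T_Tate (JZero N) p) (n : ℕ) :
    ((S30TC_rho N p σ x : S30T_Tate (JZero N) p) : ℕ → JZero N) n =
      σ • (x : ℕ → JZero N) n := rfl

theorem S30TC_T_of_prime {ℓ : ℕ} (hℓ : ℓ.Prime) :
    S30TC_T N p ℓ =
      S30T_map (p := p) (J := JZero N) (heckeOperatorBar N ⟨ℓ, hℓ⟩).toAddMonoidHom := by
  rw [S30TC_T, dif_pos hℓ]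

theorem S30TC_T_of_not_prime {ℓ : ℕ} (hℓ : ¬ ℓ.Prime) : S30TC_T N p ℓ = 0 := by
  rw [S30TC_T, dif_neg hℓ]

theorem S30TC_T_apply {ℓ : ℕ} (hℓ : ℓ.Prime) (x : S30T_Tate (JZero N) p) (n : ℕ) :
    ((S30TC_T N p ℓ x : S30T_Tate (JZero N) p) : ℕ → JZero N) n =
      heckeOperatorBar N ⟨ℓ, hℓ⟩ ((x : ℕ → JZero N) n) := by
  rw [S30TC_T_of_prime hℓ]
  rfl

variable (N p)

/-- `Λ` is a finite free `ℤ_p`-module (hypothesis = `PG_E2.fin` verbatim). -/
theorem S30TC_finite_free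
    (hfin : (Pic0.torsion Qb (modularFunctionFieldBar N) p : Set (JZero N)).Finite) :
    Module.Finite ℤ_[p] (S30T_Tate (JZero N) p) ∧ Module.Free ℤ_[p] (S30T_Tate (JZero N) p) := by
  apply S30T_finite_free_of_zsmul
  refine hfin.subset ?_
  intro y hy
  exact (Pic0.mem_torsion).2 hy

theorem S30TC_finite
    (hfin : (Pic0.torsion Qb (modularFunctionFieldBar N) p : Set (JZero N)).Finite) :
    Module.Finite ℤ_[p] (S30T_Tate (JZero N) p) := (S30TC_finite_free N p hfin).1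

theorem S30TC_free
    (hfin : (Pic0.torsion Qb (modularFunctionFieldBar N) p : Set (JZero N)).Finite) :
    Module.Free ℤ_[p] (S30T_Tate (JZero N) p) := (S30TC_finite_free N p hfin).2

/-- The Hecke operators commute with the Galois action. -/
theorem S30TC_comm (ℓ : ℕ) (g : GQ) (hℓ : ℓ.Prime) :
    S30TC_T N p ℓ * S30TC_rho N p g = S30TC_rho N p g * S30TC_T N p ℓ := by
  ext x n
  show ((S30TC_T N p ℓ (S30TC_rho N p g x) : S30T_Tate (JZero N) p) : ℕ → JZero N) n =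
    ((S30TC_rho N p g (S30TC_T N p ℓ x) : S30T_Tate (JZero N) p) : ℕ → JZero N) n
  rw [S30TC_T_apply hℓ, S30TC_rho_apply, S30TC_rho_apply, S30TC_T_apply hℓ]
  exact Fermat.Agent.G_helper8_GALHECKE.PG11_hecke_galois_comm N ⟨ℓ, hℓ⟩ g _

/-- `p`-adic continuity of the Galois action on `Λ`. -/
theorem S30TC_cont
    (hfin : (Pic0.torsion Qb (modularFunctionFieldBar N) p : Set (JZero N)).Finite) (n : ℕ) :
    ∃ L : IntermediateField ℚ Qb, FiniteDimensional ℚ L ∧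
      ∀ σ : GQ, (∀ x ∈ L, σ x = x) → ∀ v : S30T_Tate (JZero N) p,
        ∃ w : S30T_Tate (JZero N) p, S30TC_rho N p σ v - v = (p : ℤ_[p]) ^ n • w := by
  obtain ⟨L, hL, h⟩ :=
    Fermat.Agent.S31_helper21_FIELD.S31F_level_pow N p hp.out.pos hfin n
  refine ⟨L, hL, fun σ hσ v => ?_⟩
  apply (S30T_ker_proj (S30TC_rho N p σ v - v) n).1
  show σ • (v : ℕ → JZero N) n - (v : ℕ → JZero N) n = 0
  rw [(h σ hσ).1 _ (S30T_pow_smul_self v n), sub_self]

/-- Inertia at `q ∤ N p` acts trivially on `Λ`. -/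
theorem S30TC_unr (hE1 : ∀ n : ℕ, PG_E1_statement N (p ^ n)) :
    ∀ q : ℕ, q.Prime → ¬ q ∣ N * p → ∀ A : ValuationSubring Qb, A.LiesOverPrime q →
      ∀ σ ∈ A.inertiaSubgroupIn ℚ, S30TC_rho N p σ = 1 := by
  intro q hq hqNp A hA σ hσ
  have hdvd : ∀ n : ℕ, ¬ q ∣ N * p ^ n := by
    intro n h
    rcases (Nat.Prime.dvd_mul hq).1 h with h1 | h1
    · exact hqNp (Dvd.dvd.mul_right h1 p)
    · exact hqNp (Dvd.dvd.mul_left (hq.dvd_of_dvd_pow h1) N)
  apply S30T_map_eq_one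
  intro n y hy
  exact ((hE1 n) q hq (hdvd n) A hA y hy).1 σ hσ

/-- The Eichler–Shimura relation on `Λ` at Frobenius lifts. -/
theorem S30TC_ES (hE1 : ∀ n : ℕ, PG_E1_statement N (p ^ n)) :
    ∀ ℓ : ℕ, ℓ.Prime → ¬ ℓ ∣ N * p → ∀ A : ValuationSubring Qb, A.LiesOverPrime ℓ →
      ∀ σ : GQ, A.IsFrobeniusAt σ ℓ →
        S30TC_rho N p σ * S30TC_rho N p σ - S30TC_T N p ℓ * S30TC_rho N p σ
          + (ℓ : ℤ_[p]) • (1 : Module.End ℤ_[p] (S30T_Tate (JZero N) p)) = 0 := by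
  intro ℓ hℓ hℓNp A hA σ hσ
  have hdvd : ∀ n : ℕ, ¬ ℓ ∣ N * p ^ n := by
    intro n h
    rcases (Nat.Prime.dvd_mul hℓ).1 h with h1 | h1
    · exact hℓNp (Dvd.dvd.mul_right h1 p)
    · exact hℓNp (Dvd.dvd.mul_left (hℓ.dvd_of_dvd_pow h1) N)
  ext x n
  have h := ((hE1 n) ℓ hℓ (hdvd n) A hA ((x : ℕ → JZero N) n) (S30T_pow_smul_self x n)).2 σ hσ
  show ((S30TC_rho N p σ (S30TC_rho N p σ x) - S30TC_T N p ℓ (S30TC_rho N p σ x)
      + (ℓ : ℤ_[p]) • x : S30T_Tate (JZero N) p) : ℕ → JZero N) n = 0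
  show ((S30TC_rho N p σ (S30TC_rho N p σ x) : S30T_Tate (JZero N) p) : ℕ → JZero N) n
      - ((S30TC_T N p ℓ (S30TC_rho N p σ x) : S30T_Tate (JZero N) p) : ℕ → JZero N) n
      + (((ℓ : ℤ_[p]) • x : S30T_Tate (JZero N) p) : ℕ → JZero N) n = 0
  rw [S30TC_rho_apply, S30TC_rho_apply, S30TC_T_apply hℓ, S30TC_rho_apply,
    S30T_natCast_smul_apply]
  exact h

end Fermat.Agent.S30_helper27_TATEC
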