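import Mathlib
import Fermat.Agent.S37_helper8_ENDPLUG
import Fermat.Agent.S18
import Fermat.Agent.G_helper29_WDefs

/-!
# (E1) for Project G: the Eichler–Shimura relations on `J₀(N)[p]` from B1

`S37E1_of_RI`: if `ReductionInputsModL A N` holds for every `A | ℓ`, `ℓ ∤ N` (= block B1 of S37),
then helper29's `PG_E1_statement N p` holds for all `N`, `p` (S18 is plugged in).
-/

set_option autoImplicit false
set_option linter.unusedSectionVars false
set_option linter.unusedVariables false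
set_option linter.style.haveILetI false
set_option synthInstance.maxHeartbeats 400000
set_option maxHeartbeats 1000000

open AlgebraicCurve ModularCurve

noncomputable section

namespace Fermat.Agent.S37_helper8_E1

/-- the frozen statement S18 in the shape consumed by `S37EP_relations` -/
theorem S37E1_hS18 (N : ℕ) [NeZero N] :
    ∀ ℓ : ℕ, ℓ.Prime → ¬ ℓ ∣ N → ∀ A : ValuationSubring (AlgebraicClosure ℚ),
      A.LiesOverPrime ℓ → ReductionInputsModL A N → ∀ m : ℕ, ¬ ℓ ∣ m → ∀ z : JZero N,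
        m • z = 0 → reductionModL A N z = 0 → z = 0 :=
  fun ℓ hℓ hℓN A hA h m hm z hmz hz =>
    haveI : Fact ℓ.Prime := ⟨hℓ⟩
    Fermat.Agent.S18.result N hℓN A hA h m hm z hmz hz

/-- **(E1) at level `N`** from B1 at level `N`. -/
theorem S37E1_of_RI_level (N p : ℕ) [NeZero N]
    (hRI : ∀ ℓ : ℕ, ℓ.Prime → ¬ ℓ ∣ N → ∀ A : ValuationSubring (AlgebraicClosure ℚ),
      A.LiesOverPrime ℓ → ReductionInputsModL A N) :
    Fermat.Agent.G_helper29_WDefs.PG_E1_statement N p := by
  intro ℓ hℓ hℓNp A hA x hx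
  exact Fermat.Agent.S37EP.S37EP_relations N p hRI (S37E1_hS18 N) ℓ hℓ hℓNp A hA x 1
    (by rw [pow_one]; exact hx)

/-- **(E1) for all levels and primes** (= helper29's `PGS_E1_all`, unfolded) from B1. -/
theorem S37E1_of_RI
    (hRI : ∀ (N : ℕ) [NeZero N] (ℓ : ℕ), ℓ.Prime → ¬ ℓ ∣ N →
      ∀ A : ValuationSubring (AlgebraicClosure ℚ), A.LiesOverPrime ℓ →
        ReductionInputsModL A N) :
    ∀ (N p : ℕ) [NeZero N], p.Prime → Fermat.Agent.G_helper29_WDefs.PG_E1_statement N p :=
  fun N p _ _ => S37E1_of_RI_level N p (fun ℓ hℓ hℓN A hA => hRI N ℓ hℓ hℓN A hA)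

end Fermat.Agent.S37_helper8_E1
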