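import Mathlib
import Fermat.Agent.S37_helper4_B1
import Fermat.Agent.S37_helper8_E1

/-!
# (E1) at every modulus, unconditional

`S37E1M_all N m : PG_E1_statement N m` for EVERY modulus `m` (no primality): for a prime
`ℓ ∤ N * m`, a place `A | ℓ` of `ℚ̄` and `x ∈ J₀(N)[m]`: inertia at `A` fixes `x` and every
Frobenius `σ` at `A` satisfies `σ² x - T_ℓ (σ x) + ℓ x = 0`.  In particular at `m = p ^ n`
(`S37E1M_pow`), which is the input `hE1` of the S30 / S31 routes.
-/

set_option autoImplicit false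
set_option linter.unusedSectionVars false
set_option linter.unusedVariables false
set_option linter.style.haveILetI false
set_option synthInstance.maxHeartbeats 400000
set_option maxHeartbeats 1600000

open AlgebraicCurve ModularCurve

noncomputable section

namespace Fermat.Agent.S37_helper8_E1M

/-- **(E1) at every modulus `m`**, unconditional. -/
theorem S37E1M_all (N m : ℕ) [NeZero N] :
    Fermat.Agent.G_helper29_WDefs.PG_E1_statement N m :=
  Fermat.Agent.S37_helper8_E1.S37E1_of_RI_level N m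
    (fun ℓ hℓ hℓN A hA => Fermat.Agent.S37_helper4_B1.S37B1_reductionInputs N hℓ hℓN A hA)

/-- **(E1) at every prime power** `p ^ n` (the shape `hE1` of S30 P3b / S31 FIELD). -/
theorem S37E1M_pow (N p : ℕ) [NeZero N] :
    ∀ n : ℕ, Fermat.Agent.G_helper29_WDefs.PG_E1_statement N (p ^ n) :=
  fun n => S37E1M_all N (p ^ n)

/-- (E1) at every modulus, fully unfolded (no agent definitions in the statement). -/
theorem S37E1M_unfolded (N m : ℕ) [NeZero N] (ℓ : ℕ) (hℓ : ℓ.Prime) (hℓNm : ¬ ℓ ∣ N * m)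
    (A : ValuationSubring (AlgebraicClosure ℚ)) (hA : A.LiesOverPrime ℓ)
    (x : JZero N) (hx : m • x = 0) :
    (∀ σ ∈ A.inertiaSubgroupIn ℚ, σ • x = x) ∧
      ∀ σ : AlgebraicClosure ℚ ≃ₐ[ℚ] AlgebraicClosure ℚ, A.IsFrobeniusAt σ ℓ →
        σ • σ • x - heckeOperatorBar N ⟨ℓ, hℓ⟩ (σ • x) + ℓ • x = 0 :=
  S37E1M_all N m ℓ hℓ hℓNm A hA x hx

/-- the reduction inputs (block B1 of S37), re-exported. -/
theorem S37E1M_reductionInputs (N : ℕ) [NeZero N] {ℓ : ℕ} (hℓ : ℓ.Prime) (hℓN : ¬ ℓ ∣ N)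
    (A : ValuationSubring (AlgebraicClosure ℚ)) (hA : A.LiesOverPrime ℓ) :
    ReductionInputsModL A N :=
  Fermat.Agent.S37_helper4_B1.S37B1_reductionInputs N hℓ hℓN A hA

end Fermat.Agent.S37_helper8_E1M
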