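-- Statement S30 (row 29): a ring homomorphism from the weight-2 Hecke algebra of level N to a
-- complete p-adic discrete valuation ring has an attached 2-dimensional Galois representation.
-- Assembly (helper12): the Tate module of J₀(N) (helper1 TATEF, helper27 TATEC), the
-- Eichler–Shimura relations (E1) at the moduli pⁿ (helper8 E1M, on top of S37 / S18), the
-- lattice maps (E2) (helper6 E2PLUG), the nontrivial eigenlattice (helper23 EIGC, helper18 EL),
-- the density/limit argument (helper9 REL), the abstract wiring (helper19 AW), the cyclotomic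
-- character (helper17 CYC/CYCT), the structure map ℤ_p → 𝒪' (helper25 ZP) and the final plug
-- (helper12 FINAL).
import Fermat.Statements.S30
import Fermat.Agent.S30_helper12_FINAL
import Fermat.Agent.S30_helper25_ZP
import Fermat.Agent.S30_helper27_TATEC
import Fermat.Agent.S30_helper23_EIGC
import Fermat.Agent.S37_helper8_E1M
import Fermat.Agent.G_helper6_E2PLUG

set_option autoImplicit false
set_option linter.style.haveILetI false
open Polynomial
open CuspForm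

namespace Fermat.Agent.S30

theorem result :
    ∀ (p : ℕ) [Fact p.Prime] (N : ℕ) [NeZero N] (S : Finset ℕ)
      (_hpS : p ∈ S) (_hNS : ∀ q : ℕ, q.Prime → q ∣ N → q ∈ S)
      (𝒪' : Type) [CommRing 𝒪'] [IsDomain 𝒪'] [IsDiscreteValuationRing 𝒪']
      [IsAdicComplete (IsLocalRing.maximalIdeal 𝒪') 𝒪'] [Finite (IsLocalRing.ResidueField 𝒪')]
      [CharZero 𝒪'] (_hp𝒪' : (p : 𝒪') ∈ IsLocalRing.maximalIdeal 𝒪')
      (χ : CuspForm.heckeAlgebra N 2 (↑S : Set ℕ) →+* 𝒪'),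
      ∃ (𝒪'' : Type) (_ : CommRing 𝒪'') (_ : IsDomain 𝒪'') (_ : IsDiscreteValuationRing 𝒪'')
        (_ : IsAdicComplete (IsLocalRing.maximalIdeal 𝒪'') 𝒪'')
        (_ : Finite (IsLocalRing.ResidueField 𝒪'')) (_ : CharZero 𝒪'')
        (_ : Algebra 𝒪' 𝒪'') (_ : Module.Finite 𝒪' 𝒪'') (_ : IsLocalHom (algebraMap 𝒪' 𝒪'')),
      Function.Injective (algebraMap 𝒪' 𝒪'') ∧
      ∃ ρ : GaloisRepAdic 𝒪'',
        (∀ (ℓ : ℕ) (hℓ : ℓ.Prime) (hℓN : ¬ ℓ ∣ N) (hℓS : ℓ ∉ (↑S : Set ℕ)),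
          ∀ A : ValuationSubring (AlgebraicClosure ℚ), A.LiesOverPrime ℓ →
            ∀ σ : AlgebraicClosure ℚ ≃ₐ[ℚ] AlgebraicClosure ℚ, A.IsFrobeniusAt σ ℓ →
              LinearMap.charpoly (ρ.ρ σ) =
                X ^ 2 - C (algebraMap 𝒪' 𝒪'' (χ (CuspForm.heckeAlgebra.T hℓ hℓN hℓS))) * X
                  + C ((ℓ : 𝒪''))) ∧
        (∀ q : ℕ, q.Prime → ¬ q ∣ N → q ≠ p → ρ.IsUnramifiedAt q) := by
  intro p hp N _ S hpS hNS 𝒪' _ _ _ _ _ _ hp𝒪' χ
  letI : Algebra ℤ_[p] 𝒪' := (Fermat.Agent.S30_helper25_ZP.S30ZP_zpLocal p 𝒪' hp𝒪').toAlgebra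
  -- the input (E1) at the moduli `p ^ n`
  have hE1 := Fermat.Agent.S37_helper8_E1M.S37E1M_pow N p
  -- the input (E2): the compatible family of lattice maps
  obtain ⟨Θ, hΘ, hcompat⟩ := Fermat.Agent.G_helper6_E2PLUG.PG_E2PLUG_adic N p hp.out.pos
  -- finiteness of `J₀(N)[p]`
  have hfin : (AlgebraicCurve.Pic0.torsion (AlgebraicClosure ℚ)
      (ModularCurve.modularFunctionFieldBar N) p : Set (ModularCurve.JZero N)).Finite := by
    have h := (hΘ 1).fin
    rwa [pow_one] at h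
  haveI := Fermat.Agent.S30_helper27_TATEC.S30TC_finite N p hfin
  haveI := Fermat.Agent.S30_helper27_TATEC.S30TC_free N p hfin
  -- the nonzero eigenvector
  have hv := Fermat.Agent.S30_helper23_EIGC.PG30_eigenlattice_of_E2 (𝒪 := 𝒪') N (↑S : Set ℕ)
    (fun q hq hqN => Finset.mem_coe.2 (hNS q hq hqN)) p Θ hΘ hcompat
    (Fermat.Agent.S30_helper27_TATEC.S30TC_T N p)
    (fun ℓ _ _ x n => Fermat.Agent.S30_helper27_TATEC.S30TC_T_apply ℓ.2 x n) χ
  exact Fermat.Agent.S30_helper12_FINAL.S30FINAL_abstract S hpS hNS 𝒪' hp𝒪' χ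
    (Fermat.Agent.S30_helper1_TATE.S30T_Tate (ModularCurve.JZero N) p)
    (Fermat.Agent.S30_helper27_TATEC.S30TC_rho N p)
    (Fermat.Agent.S30_helper27_TATEC.S30TC_T N p)
    (fun ℓ g hℓ => Fermat.Agent.S30_helper27_TATEC.S30TC_comm N p ℓ g hℓ)
    (Fermat.Agent.S30_helper27_TATEC.S30TC_cont N p hfin)
    (Fermat.Agent.S30_helper27_TATEC.S30TC_unr N p hE1)
    (Fermat.Agent.S30_helper27_TATEC.S30TC_ES N p hE1) hv

end Fermat.Agent.S30
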