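import Mathlib

/-!
# S30, piece P6 (helper15): existence of eigenvectors

`Z` a commutative ring, `K` a field which is a flat `Z`-algebra, `Λ` a finite free `Z`-module,
`A` a commutative `Z`-algebra acting faithfully on `Λ` (for instance a commutative subalgebra
`B` of `End_Z Λ`) and `χ : A →ₐ[Z] K` a character.  Then there is a nonzero vector of
`K ⊗[Z] Λ` on which every `x : A` acts by the scalar `χ x`.

Integral twin: if `χ` takes values in a domain `𝒪` with fraction field `K`, the eigenvector can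
be taken in `𝒪 ⊗[Z] Λ`.

Proof: `K ⊗ A → K ⊗ End_Z Λ ≃ End_K (K ⊗ Λ)` is injective (flatness, `Λ` finite free), so
`R := K ⊗ A` is a finite-dimensional commutative `K`-algebra acting faithfully on
`V := K ⊗ Λ`; the kernel of `id ⊗ χ : R → K` is a maximal ideal of the Artinian ring `R`, hence
minimal over `Ann V = 0`, hence an associated prime of `V`.
-/

set_option autoImplicit false
set_option linter.unusedSectionVars false
set_option linter.unusedVariables false
set_option linter.style.haveILetI false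

open TensorProduct

noncomputable section

namespace Fermat.Agent.S30_helper15_EIGEN

/-- **The Artinian argument.**  A commutative `K`-algebra `R` acting faithfully on a
finite-dimensional `K`-vector space `V`, with a character `ψ : R → K`: there is a nonzero
`ψ`-eigenvector. -/
theorem S30P6_artin {K R V : Type*} [Field K] [CommRing R] [Algebra K R] [AddCommGroup V]
    [Module K V] [FiniteDimensional K V]
    (φ : R →ₐ[K] Module.End K V) (hφ : Function.Injective φ) (ψ : R →ₐ[K] K) :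
    ∃ v : V, v ≠ 0 ∧ ∀ r : R, φ r v = ψ r • v := by
  haveI : FiniteDimensional K R := FiniteDimensional.of_injective φ.toLinearMap hφ
  haveI : IsArtinianRing R := IsArtinianRing.of_finite K R
  haveI : IsNoetherianRing R := inferInstance
  letI : Module R V := Module.compHom V φ.toRingHom
  have hsmul : ∀ (r : R) (v : V), r • v = φ r v := fun _ _ => rfl
  haveI : IsScalarTower K R V := ⟨fun k r v => by
    rw [hsmul, hsmul, map_smul]; rfl⟩
  haveI : Module.Finite R V := Module.Finite.of_restrictScalars_finite K R V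
  have hann : Module.annihilator R V = ⊥ := by
    rw [eq_bot_iff]
    intro r hr
    rw [Module.mem_annihilator] at hr
    rw [Ideal.mem_bot]
    apply hφ
    rw [map_zero]
    ext v
    exact hr v
  have hsurj : Function.Surjective ψ := fun k => ⟨algebraMap K R k, by simp⟩
  haveI hmax : (RingHom.ker ψ).IsMaximal := RingHom.ker_isMaximal_of_surjective ψ hsurj
  haveI hprime : (RingHom.ker ψ).IsPrime := hmax.isPrime
  have hmin : RingHom.ker ψ ∈ (Module.annihilator R V).minimalPrimes := by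
    rw [hann]
    exact Ideal.mem_minimalPrimes_of_krullDimLE_zero (RingHom.ker ψ)
  have hass := Module.associatedPrimes.minimalPrimes_annihilator_subset_associatedPrimes R V hmin
  obtain ⟨-, x, hx⟩ := (Submodule.isAssociatedPrime_iff).1 hass
  refine ⟨x, ?_, fun r => ?_⟩
  · rintro rfl
    have h1 : (1 : R) ∈ RingHom.ker ψ := by
      rw [hx, Submodule.mem_colon_singleton]
      simp
    exact hmax.ne_top ((Ideal.eq_top_iff_one _).2 h1)
  · have h1 : r - algebraMap K R (ψ r) ∈ RingHom.ker ψ := by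
      rw [RingHom.mem_ker, map_sub]
      simp
    rw [hx, Submodule.mem_colon_singleton, Submodule.mem_bot, sub_smul, sub_eq_zero] at h1
    rw [← hsmul, h1, algebraMap_smul]

/-- The canonical map `K ⊗ End_Z Λ → End_K (K ⊗ Λ)` on pure tensors. -/
theorem S30P6_tpEnd_tmul (Z K Λ : Type*) [CommRing Z] [CommRing K] [Algebra Z K]
    [AddCommGroup Λ] [Module Z Λ] (k : K) (f : Module.End Z Λ) :
    LinearMap.tensorProductEnd Z K Λ (k ⊗ₜ[Z] f) = k • f.baseChange K := by
  ext l
  simp [LinearMap.tensorProductEnd, LinearMap.tensorProduct,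
        Algebra.TensorProduct.algHomOfLinearMapTensorProduct]

/-- For `Λ` finite free and `K` flat, `K ⊗ End_Z Λ → End_K (K ⊗ Λ)` is injective. -/
theorem S30P6_tpEnd_injective (Z K Λ : Type*) [CommRing Z] [CommRing K] [Algebra Z K]
    [Module.Flat Z K] [AddCommGroup Λ] [Module Z Λ] [Module.Free Z Λ] [Module.Finite Z Λ] :
    Function.Injective (LinearMap.tensorProductEnd Z K Λ) := by
  haveI : Module.FinitePresentation Z Λ := Module.finitePresentation_of_projective Z Λ
  have h : IsBaseChange K (LinearMap.baseChangeHom Z K Λ Λ) :=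
    Module.FinitePresentation.isBaseChange_map Z Λ Λ K
  have key : ∀ x, LinearMap.tensorProductEnd Z K Λ x = h.equiv x := by
    intro x
    induction x using TensorProduct.induction_on with
    | zero => simp
    | tmul k f => rw [IsBaseChange.equiv_tmul, S30P6_tpEnd_tmul]; rfl
    | add x y hx hy => rw [map_add, map_add, hx, hy]
  intro x y hxy
  rw [key, key] at hxy
  exact h.equiv.injective hxy

/-- **P6, algebra-hom shape.**  `A` a commutative `Z`-algebra acting faithfully on the finite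
free `Z`-module `Λ`, `K` a field flat over `Z`, `χ : A →ₐ[Z] K`: there is a nonzero
`χ`-eigenvector in `K ⊗[Z] Λ`. -/
theorem S30P6_exists_eigen_algHom {Z K Λ A : Type*} [CommRing Z] [Field K] [Algebra Z K]
    [Module.Flat Z K] [AddCommGroup Λ] [Module Z Λ] [Module.Free Z Λ] [Module.Finite Z Λ]
    [CommRing A] [Algebra Z A] (ρ : A →ₐ[Z] Module.End Z Λ) (hρ : Function.Injective ρ)
    (χ : A →ₐ[Z] K) :
    ∃ v : K ⊗[Z] Λ, v ≠ 0 ∧ ∀ x : A, (ρ x).baseChange K v = χ x • v := by
  let φ : K ⊗[Z] A →ₐ[K] Module.End K (K ⊗[Z] Λ) :=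
    (LinearMap.tensorProductEnd Z K Λ).comp (Algebra.TensorProduct.map (AlgHom.id K K) ρ)
  let ψ : K ⊗[Z] A →ₐ[K] K :=
    Algebra.TensorProduct.lift (AlgHom.id K K) χ (fun _ _ => Commute.all _ _)
  have hφ : Function.Injective φ := by
    have h1 : Function.Injective (Algebra.TensorProduct.map (AlgHom.id K K) ρ) := by
      have h2 : Function.Injective (LinearMap.lTensor K ρ.toLinearMap) :=
        Module.Flat.lTensor_preserves_injective_linearMap _ hρ
      have h3 : ∀ x, Algebra.TensorProduct.map (AlgHom.id K K) ρ x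
          = LinearMap.lTensor K ρ.toLinearMap x := by
        intro x
        induction x using TensorProduct.induction_on with
        | zero => simp
        | tmul k a => simp
        | add x y hx hy => rw [map_add, map_add, hx, hy]
      intro x y hxy
      rw [h3, h3] at hxy
      exact h2 hxy
    exact (S30P6_tpEnd_injective Z K Λ).comp h1
  obtain ⟨v, hv, h⟩ := S30P6_artin φ hφ ψ
  refine ⟨v, hv, fun x => ?_⟩
  have h1 := h (1 ⊗ₜ x)
  have h2 : φ (1 ⊗ₜ x) = (ρ x).baseChange K := by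
    show (LinearMap.tensorProductEnd Z K Λ) (Algebra.TensorProduct.map (AlgHom.id K K) ρ (1 ⊗ₜ x))
      = _
    rw [Algebra.TensorProduct.map_tmul, S30P6_tpEnd_tmul]
    simp
  have h3 : ψ (1 ⊗ₜ x) = χ x := by
    simp [ψ]
  rw [h2, h3] at h1
  exact h1

/-- **P6, subalgebra shape.**  `B` a commutative `Z`-subalgebra of `End_Z Λ`. -/
theorem S30P6_exists_eigen {Z K Λ : Type*} [CommRing Z] [Field K] [Algebra Z K]
    [Module.Flat Z K] [AddCommGroup Λ] [Module Z Λ] [Module.Free Z Λ] [Module.Finite Z Λ]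
    (B : Subalgebra Z (Module.End Z Λ)) (hB : ∀ x ∈ B, ∀ y ∈ B, x * y = y * x)
    (χ : B →ₐ[Z] K) :
    ∃ v : K ⊗[Z] Λ, v ≠ 0 ∧ ∀ b : B, (b : Module.End Z Λ).baseChange K v = χ b • v := by
  letI : CommRing B :=
    { (inferInstance : Ring B) with
      mul_comm := fun x y => Subtype.ext (hB x.1 x.2 y.1 y.2) }
  exact S30P6_exists_eigen_algHom (A := B) B.val Subtype.val_injective χ

/-- Commutativity of the subalgebra generated by a commuting family. -/
theorem S30P6_adjoin_comm {Z E I : Type*} [CommRing Z] [Ring E] [Algebra Z E] (T : I → E)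
    (hT : ∀ i j, T i * T j = T j * T i) :
    ∀ x ∈ Algebra.adjoin Z (Set.range T), ∀ y ∈ Algebra.adjoin Z (Set.range T),
      x * y = y * x := by
  intro x hx y hy
  have hc : ∀ a ∈ Set.range T, ∀ b ∈ Set.range T, a * b = b * a := by
    rintro _ ⟨i, rfl⟩ _ ⟨j, rfl⟩
    exact hT i j
  haveI := Algebra.isMulCommutative_adjoin Z hc
  have h : (⟨x, hx⟩ : Algebra.adjoin Z (Set.range T)) * ⟨y, hy⟩ = ⟨y, hy⟩ * ⟨x, hx⟩ :=
    mul_comm' _ _
  exact congrArg Subtype.val h

/-- **P6, family shape.**  A commuting family `T i` of endomorphisms of `Λ` and a character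
`χ` of the subalgebra they generate. -/
theorem S30P6_exists_eigen_family {Z K Λ I : Type*} [CommRing Z] [Field K] [Algebra Z K]
    [Module.Flat Z K] [AddCommGroup Λ] [Module Z Λ] [Module.Free Z Λ] [Module.Finite Z Λ]
    (T : I → Module.End Z Λ) (hT : ∀ i j, T i * T j = T j * T i)
    (χ : Algebra.adjoin Z (Set.range T) →ₐ[Z] K) :
    ∃ v : K ⊗[Z] Λ, v ≠ 0 ∧ ∀ i : I, (T i).baseChange K v
      = χ ⟨T i, Algebra.subset_adjoin (Set.mem_range_self i)⟩ • v := by
  obtain ⟨v, hv, h⟩ := S30P6_exists_eigen (Algebra.adjoin Z (Set.range T))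
    (S30P6_adjoin_comm T hT) χ
  exact ⟨v, hv, fun i => h ⟨T i, Algebra.subset_adjoin (Set.mem_range_self i)⟩⟩

/-! ### The integral twin -/

/-- The comparison map `𝒪 ⊗ Λ → K ⊗ Λ`. -/
def S30P6_j (Z 𝒪 K Λ : Type*) [CommRing Z] [CommRing 𝒪] [CommRing K] [Algebra Z 𝒪]
    [Algebra 𝒪 K] [Algebra Z K] [IsScalarTower Z 𝒪 K] [AddCommGroup Λ] [Module Z Λ] :
    𝒪 ⊗[Z] Λ →ₗ[Z] K ⊗[Z] Λ :=
  LinearMap.rTensor Λ (IsScalarTower.toAlgHom Z 𝒪 K).toLinearMap

section j
variable {Z 𝒪 K Λ : Type*} [CommRing Z] [CommRing 𝒪] [CommRing K] [Algebra Z 𝒪]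
    [Algebra 𝒪 K] [Algebra Z K] [IsScalarTower Z 𝒪 K] [AddCommGroup Λ] [Module Z Λ]

@[simp] theorem S30P6_j_tmul (o : 𝒪) (l : Λ) :
    S30P6_j Z 𝒪 K Λ (o ⊗ₜ l) = algebraMap 𝒪 K o ⊗ₜ l := by
  simp [S30P6_j]

theorem S30P6_j_smul (s : 𝒪) (w : 𝒪 ⊗[Z] Λ) :
    S30P6_j Z 𝒪 K Λ (s • w) = algebraMap 𝒪 K s • S30P6_j Z 𝒪 K Λ w := by
  induction w using TensorProduct.induction_on with
  | zero => simp
  | tmul o l =>
    rw [smul_tmul', S30P6_j_tmul, S30P6_j_tmul, smul_tmul', smul_eq_mul, smul_eq_mul, map_mul]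
  | add x y hx hy => rw [smul_add, map_add, map_add, smul_add, hx, hy]

theorem S30P6_j_baseChange (f : Module.End Z Λ) (w : 𝒪 ⊗[Z] Λ) :
    S30P6_j Z 𝒪 K Λ (f.baseChange 𝒪 w) = f.baseChange K (S30P6_j Z 𝒪 K Λ w) := by
  induction w using TensorProduct.induction_on with
  | zero => simp
  | tmul o l => simp
  | add x y hx hy => rw [map_add, map_add, map_add, map_add, hx, hy]

theorem S30P6_j_injective [Module.Flat Z Λ] (h : Function.Injective (algebraMap 𝒪 K)) :
    Function.Injective (S30P6_j Z 𝒪 K Λ) :=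
  Module.Flat.rTensor_preserves_injective_linearMap _ h

/-- Every vector of `K ⊗ Λ` has a nonzero `𝒪`-multiple coming from `𝒪 ⊗ Λ`. -/
theorem S30P6_clear_denominators [IsDomain 𝒪] [IsFractionRing 𝒪 K] (v : K ⊗[Z] Λ) :
    ∃ s : 𝒪, s ≠ 0 ∧ ∃ w : 𝒪 ⊗[Z] Λ, S30P6_j Z 𝒪 K Λ w = algebraMap 𝒪 K s • v := by
  induction v using TensorProduct.induction_on with
  | zero => exact ⟨1, one_ne_zero, 0, by simp⟩
  | tmul k l =>
    obtain ⟨⟨a, s⟩, hs⟩ := IsLocalization.surj (nonZeroDivisors 𝒪) k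
    refine ⟨s, nonZeroDivisors.coe_ne_zero s, a ⊗ₜ l, ?_⟩
    rw [S30P6_j_tmul, smul_tmul', smul_eq_mul, mul_comm]
    simp only at hs
    rw [hs]
  | add x y hx hy =>
    obtain ⟨s, hs, w, hw⟩ := hx
    obtain ⟨t, ht, u, hu⟩ := hy
    refine ⟨s * t, mul_ne_zero hs ht, t • w + s • u, ?_⟩
    rw [map_add, S30P6_j_smul, S30P6_j_smul, hw, hu, smul_add, map_mul, smul_smul, smul_smul,
      mul_comm (algebraMap 𝒪 K t)]

end j

/-- **P6, integral twin (algebra-hom shape).**  `𝒪` a domain with fraction field `K` flat over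
`Z`, `χ : A →ₐ[Z] 𝒪`: there is a nonzero `χ`-eigenvector in `𝒪 ⊗[Z] Λ`. -/
theorem S30P6_exists_eigen_integral_algHom {Z 𝒪 K Λ A : Type*} [CommRing Z] [CommRing 𝒪]
    [IsDomain 𝒪] [Field K] [Algebra Z 𝒪] [Algebra 𝒪 K] [IsFractionRing 𝒪 K] [Algebra Z K]
    [IsScalarTower Z 𝒪 K] [Module.Flat Z K] [AddCommGroup Λ] [Module Z Λ] [Module.Free Z Λ]
    [Module.Finite Z Λ] [CommRing A] [Algebra Z A] (ρ : A →ₐ[Z] Module.End Z Λ)
    (hρ : Function.Injective ρ) (χ : A →ₐ[Z] 𝒪) :
    ∃ v : 𝒪 ⊗[Z] Λ, v ≠ 0 ∧ ∀ x : A, (ρ x).baseChange 𝒪 v = χ x • v := by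
  obtain ⟨v, hv, h⟩ := S30P6_exists_eigen_algHom (K := K) ρ hρ
    ((IsScalarTower.toAlgHom Z 𝒪 K).comp χ)
  obtain ⟨s, hs, w, hw⟩ := S30P6_clear_denominators (Z := Z) (𝒪 := 𝒪) v
  have hinj : Function.Injective (S30P6_j Z 𝒪 K Λ) :=
    S30P6_j_injective (IsFractionRing.injective 𝒪 K)
  have hsK : algebraMap 𝒪 K s ≠ 0 := by
    intro h0
    exact hs (IsFractionRing.injective 𝒪 K (by rw [h0, map_zero]))
  refine ⟨w, ?_, fun x => ?_⟩
  · rintro rfl
    rw [map_zero] at hw
    exact hv ((smul_eq_zero.1 hw.symm).resolve_left hsK)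
  · apply hinj
    rw [S30P6_j_baseChange, S30P6_j_smul, hw, map_smul, h x, smul_comm]
    rfl

/-- **P6, integral twin (subalgebra shape).** -/
theorem S30P6_exists_eigen_integral {Z 𝒪 K Λ : Type*} [CommRing Z] [CommRing 𝒪]
    [IsDomain 𝒪] [Field K] [Algebra Z 𝒪] [Algebra 𝒪 K] [IsFractionRing 𝒪 K] [Algebra Z K]
    [IsScalarTower Z 𝒪 K] [Module.Flat Z K] [AddCommGroup Λ] [Module Z Λ] [Module.Free Z Λ]
    [Module.Finite Z Λ] (B : Subalgebra Z (Module.End Z Λ))
    (hB : ∀ x ∈ B, ∀ y ∈ B, x * y = y * x) (χ : B →ₐ[Z] 𝒪) :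
    ∃ v : 𝒪 ⊗[Z] Λ, v ≠ 0 ∧ ∀ b : B, (b : Module.End Z Λ).baseChange 𝒪 v = χ b • v := by
  letI : CommRing B :=
    { (inferInstance : Ring B) with
      mul_comm := fun x y => Subtype.ext (hB x.1 x.2 y.1 y.2) }
  exact S30P6_exists_eigen_integral_algHom (K := K) (A := B) B.val Subtype.val_injective χ

/-- **P6, integral twin (family shape).** -/
theorem S30P6_exists_eigen_integral_family {Z 𝒪 K Λ I : Type*} [CommRing Z] [CommRing 𝒪]
    [IsDomain 𝒪] [Field K] [Algebra Z 𝒪] [Algebra 𝒪 K] [IsFractionRing 𝒪 K] [Algebra Z K]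
    [IsScalarTower Z 𝒪 K] [Module.Flat Z K] [AddCommGroup Λ] [Module Z Λ] [Module.Free Z Λ]
    [Module.Finite Z Λ] (T : I → Module.End Z Λ) (hT : ∀ i j, T i * T j = T j * T i)
    (χ : Algebra.adjoin Z (Set.range T) →ₐ[Z] 𝒪) :
    ∃ v : 𝒪 ⊗[Z] Λ, v ≠ 0 ∧ ∀ i : I, (T i).baseChange 𝒪 v
      = χ ⟨T i, Algebra.subset_adjoin (Set.mem_range_self i)⟩ • v := by
  obtain ⟨v, hv, h⟩ := S30P6_exists_eigen_integral (K := K) (Algebra.adjoin Z (Set.range T))
    (S30P6_adjoin_comm T hT) χ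
  exact ⟨v, hv, fun i => h ⟨T i, Algebra.subset_adjoin (Set.mem_range_self i)⟩⟩

/-- Convenience: a domain `K` containing a Dedekind domain `Z` (injective structure map) is
flat over `Z`. -/
theorem S30P6_flat_of_injective (Z K : Type*) [CommRing Z] [IsDedekindDomain Z]
    [CommRing K] [IsDomain K] [Algebra Z K] (h : Function.Injective (algebraMap Z K)) :
    Module.Flat Z K := by
  haveI : FaithfulSMul Z K := (faithfulSMul_iff_algebraMap_injective Z K).2 h
  infer_instance

end Fermat.Agent.S30_helper15_EIGEN
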