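import Mathlib
import Fermat.Prelude.Def_GaloisRep_Adic
import Fermat.Agent.S30_helper12_Contracts3

/-!
# S30, piece EL2 (helper18): the eigenlattice in an abstract finite free module

The simultaneous eigenspace `E` of operators `T ℓ` (`ℓ` prime, `ℓ ∉ S`) with eigenvalues `a ℓ`
in a finite free module `V` over a discrete valuation ring `𝒪`, with an adic-continuous Galois
action commuting with the `T ℓ`, is a finite free module, stable under the Galois action,
saturated, and the restricted action is adic-continuous.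
-/

set_option autoImplicit false

open Polynomial

noncomputable section

namespace Fermat.Agent.S30_helper18_EL2

open Fermat.Agent.S30_helper12_Contracts

local notation "Qb" => AlgebraicClosure ℚ
local notation "GQ" => (AlgebraicClosure ℚ ≃ₐ[ℚ] AlgebraicClosure ℚ)

section Generic

variable {𝒪 V : Type*} [CommRing 𝒪] [AddCommGroup V] [Module 𝒪 V]

/-- The simultaneous eigenspace of a family of operators. -/
def S30EL2_eigen {I : Type*} (P : I → Prop) (T : I → Module.End 𝒪 V) (a : I → 𝒪) :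
    Submodule 𝒪 V where
  carrier := {v | ∀ i, P i → T i v = a i • v}
  add_mem' := fun {x y} hx hy i hi => by
    rw [map_add, hx i hi, hy i hi, smul_add]
  zero_mem' := fun i _ => by rw [map_zero, smul_zero]
  smul_mem' := fun c x hx i hi => by
    rw [map_smul, hx i hi, smul_comm]

theorem S30EL2_mem_eigen {I : Type*} (P : I → Prop) (T : I → Module.End 𝒪 V) (a : I → 𝒪)
    (v : V) : v ∈ S30EL2_eigen P T a ↔ ∀ i, P i → T i v = a i • v := Iff.rfl

/-- The eigenspace is stable under an operator commuting with the family. -/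
theorem S30EL2_stable {I : Type*} (P : I → Prop) (T : I → Module.End 𝒪 V) (a : I → 𝒪)
    (f : Module.End 𝒪 V) (hf : ∀ i, P i → T i * f = f * T i)
    (v : V) (hv : v ∈ S30EL2_eigen P T a) : f v ∈ S30EL2_eigen P T a := by
  intro i hi
  have h1 : T i (f v) = (T i * f) v := rfl
  have h2 : f (T i v) = (f * T i) v := rfl
  rw [h1, hf i hi, ← h2, hv i hi, map_smul]

/-- The eigenspace is saturated. -/
theorem S30EL2_saturated [IsDomain 𝒪] [Module.IsTorsionFree 𝒪 V] {I : Type*}
    (P : I → Prop) (T : I → Module.End 𝒪 V) (a : I → 𝒪) (c : 𝒪) (hc : c ≠ 0)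
    (v : V) (hv : c • v ∈ S30EL2_eigen P T a) : v ∈ S30EL2_eigen P T a := by
  intro i hi
  have h := hv i hi
  rw [map_smul, smul_comm (a i) c v] at h
  have h' : c • (T i v - a i • v) = 0 := by
    rw [smul_sub, h, sub_self]
  exact sub_eq_zero.mp ((smul_eq_zero_iff_right hc).mp h')

/-- Elements of `(ϖ ^ n) • ⊤` are multiples of `ϖ ^ n`. -/
theorem S30EL2_exists_smul (c : 𝒪) (x : V)
    (hx : x ∈ (Ideal.span {c} : Ideal 𝒪) • (⊤ : Submodule 𝒪 V)) : ∃ w : V, x = c • w := by
  refine Submodule.smul_induction_on (p := fun x => ∃ w : V, x = c • w) hx ?_ ?_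
  · intro r hr n _
    obtain ⟨s, rfl⟩ := Ideal.mem_span_singleton'.mp hr
    exact ⟨s • n, by rw [smul_smul, mul_comm]⟩
  · rintro x y ⟨w, rfl⟩ ⟨w', rfl⟩
    exact ⟨w + w', by rw [smul_add]⟩

end Generic

/-- **EL2.** The eigenlattice. -/
theorem S30_EL2 (𝒪 : Type) [CommRing 𝒪] [IsDomain 𝒪] [IsDiscreteValuationRing 𝒪] :
    S30_EL2_statement 𝒪 := by
  intro V _ _ _ _ r T S a hcomm hcont
  let P : ℕ → Prop := fun ℓ => ℓ.Prime ∧ ℓ ∉ S
  let E : Submodule 𝒪 V := S30EL2_eigen P T a
  have hcomm' : ∀ (g : GQ) (i : ℕ), P i → T i * r g = r g * T i :=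
    fun g i hi => hcomm i g hi.1 hi.2
  have hstab : ∀ (g : GQ), ∀ v ∈ E, r g v ∈ E :=
    fun g v hv => S30EL2_stable P T a (r g) (hcomm' g) v hv
  let rE : GQ →* Module.End 𝒪 E :=
    { toFun := fun g => (r g).restrict (hstab g)
      map_one' := by
        apply LinearMap.ext
        intro e
        apply Subtype.ext
        rw [LinearMap.coe_restrict_apply, map_one]
        rfl
      map_mul' := fun g h => by
        apply LinearMap.ext
        intro e
        apply Subtype.ext
        rw [LinearMap.coe_restrict_apply, map_mul]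
        rfl }
  have hrE : ∀ (g : GQ) (e : E), ((rE g e : E) : V) = r g (e : V) := fun g e => rfl
  obtain ⟨ϖ, hϖ⟩ := IsDiscreteValuationRing.exists_irreducible 𝒪
  have hmax : IsLocalRing.maximalIdeal 𝒪 = Ideal.span {ϖ} :=
    (IsDiscreteValuationRing.irreducible_iff_uniformizer ϖ).mp hϖ
  have hϖ0 : ∀ n : ℕ, ϖ ^ n ≠ 0 := fun n => pow_ne_zero n hϖ.ne_zero
  refine ⟨E, rE, inferInstance, @Module.free_of_finite_type_torsion_free' 𝒪 _ E _ _ _ _ _ _,
    ?_, hrE, ?_⟩
  · intro v
    constructor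
    · intro hv ℓ hℓ hℓS
      exact hv ℓ ⟨hℓ, hℓS⟩
    · intro hv ℓ hℓ
      exact hv ℓ hℓ.1 hℓ.2
  · intro n
    obtain ⟨L, hL, hσ⟩ := hcont n
    refine ⟨L, hL, fun σ hσL e => ?_⟩
    have h1 := hσ σ hσL (e : V)
    rw [hmax, Ideal.span_singleton_pow] at h1 ⊢
    obtain ⟨y, hy⟩ := S30EL2_exists_smul (ϖ ^ n) _ h1
    have hyE : y ∈ E := by
      apply S30EL2_saturated P T a (ϖ ^ n) (hϖ0 n)
      rw [← hy]
      exact E.sub_mem (hstab σ _ e.2) e.2
    have heq : rE σ e - e = (ϖ ^ n) • (⟨y, hyE⟩ : E) := by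
      apply Subtype.ext
      rw [Submodule.coe_sub, hrE, hy]
      rfl
    rw [heq]
    exact Submodule.smul_mem_smul (Ideal.mem_span_singleton_self _) Submodule.mem_top

end Fermat.Agent.S30_helper18_EL2
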