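import Mathlib
import Fermat.Prelude.Def_GaloisRep_Adic
import Fermat.Agent.S30_helper12_Contracts
import Fermat.Agent.S30_helper19_R2ODD

/-!
# S30 P9: the abstract wiring (helper1)

`S30_AW : S30_AW_statement 𝒪`: a nonzero finite free module `E` over a discrete valuation ring
`𝒪` of characteristic zero with an adic-continuous Galois action all of whose elements satisfy
`g² - t g + d g = 0` yields a `GaloisRepAdic 𝒪` with these characteristic polynomials.

Route: `K := FractionRing 𝒪`, `W := K ⊗ E`, the odd algebra lemma `S30R2_subspace` gives a stable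
subspace `W0` of dimension `2` or `1`; the lattice `E0 := E ∩ W0` is saturated, stable and free
of rank `dim W0`.
-/

open Polynomial
open scoped TensorProduct

noncomputable section

namespace Fermat.Agent.S30_helper1_AW

open Fermat.Agent.S30_helper12_Contracts Fermat.Agent.S30_helper19_R2ODD

section Lattice

variable {R : Type*} [CommRing R] [IsDomain R] {K : Type*} [Field K] [Algebra R K]
  [IsFractionRing R K] {E : Type*} [AddCommGroup E] [Module R E]
  {W : Type*} [AddCommGroup W] [Module K W] [Module R W] [IsScalarTower R K W]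
  (ι : E →ₗ[R] W) [hι : IsLocalizedModule (nonZeroDivisors R) ι]

omit [IsFractionRing R K] [Module K W] [IsScalarTower R K W] in
include hι in
theorem S30AW_ι_injective [Module.IsTorsionFree R E] : Function.Injective ι := by
  intro x y hxy
  obtain ⟨c, hc⟩ := (IsLocalizedModule.eq_iff_exists (nonZeroDivisors R) ι).1 hxy
  have hreg : IsRegular (c : R) := isRegular_iff_ne_zero.2 (nonZeroDivisors.coe_ne_zero c)
  exact hreg.isSMulRegular (M := E) hc

/-- The lattice `E ∩ W0`. -/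
def S30AW_lat (W0 : Submodule K W) : Submodule R E :=
  (W0.restrictScalars R).comap ι

omit [IsDomain R] [IsFractionRing R K] hι in
theorem S30AW_mem_lat (W0 : Submodule K W) (e : E) :
    e ∈ S30AW_lat ι W0 ↔ ι e ∈ W0 := Iff.rfl

omit [IsDomain R] hι in
/-- The lattice is saturated. -/
theorem S30AW_lat_saturated (W0 : Submodule K W) (a : R) (ha : a ≠ 0) (e : E)
    (h : a • e ∈ S30AW_lat ι W0) : e ∈ S30AW_lat ι W0 := by
  rw [S30AW_mem_lat] at h ⊢
  rw [map_smul, ← algebraMap_smul K a] at h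
  have ha' : algebraMap R K a ≠ 0 := by
    intro h0
    exact ha ((IsFractionRing.injective R K) (by rw [h0, map_zero]))
  have := W0.smul_mem (algebraMap R K a)⁻¹ h
  rwa [smul_smul, inv_mul_cancel₀ ha', one_smul] at this

/-- The map from the lattice to the subspace. -/
def S30AW_latMap (W0 : Submodule K W) : S30AW_lat ι W0 →ₗ[R] W0 where
  toFun e := ⟨ι (e : E), e.2⟩
  map_add' x y := by
    apply Subtype.ext
    simp
  map_smul' a x := by
    apply Subtype.ext
    simp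

omit [IsDomain R] [IsFractionRing R K] hι in
@[simp]
theorem S30AW_latMap_coe (W0 : Submodule K W) (e : S30AW_lat ι W0) :
    ((S30AW_latMap ι W0 e : W0) : W) = ι (e : E) := rfl

instance S30AW_latMap_isLocalizedModule [Module.IsTorsionFree R E]
    (W0 : Submodule K W) :
    IsLocalizedModule (nonZeroDivisors R) (S30AW_latMap ι W0) where
  map_units x := by
    have hx : algebraMap R K (x : R) ≠ 0 := by
      intro h0
      exact nonZeroDivisors.coe_ne_zero x
        ((IsFractionRing.injective R K) (by rw [h0, map_zero]))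
    rw [Module.End.isUnit_iff]
    constructor
    · intro w1 w2 h
      have h' : (x : R) • w1 = (x : R) • w2 := h
      rw [← algebraMap_smul K (x : R) w1, ← algebraMap_smul K (x : R) w2] at h'
      exact smul_right_injective _ hx h'
    · intro w
      refine ⟨(algebraMap R K (x : R))⁻¹ • w, ?_⟩
      show (x : R) • ((algebraMap R K (x : R))⁻¹ • w) = w
      rw [← algebraMap_smul K (x : R), smul_smul, mul_inv_cancel₀ hx, one_smul]
  surj y := by
    obtain ⟨⟨e, s⟩, hes⟩ := IsLocalizedModule.surj (nonZeroDivisors R) ι (y : W)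
    have he : e ∈ S30AW_lat ι W0 := by
      rw [S30AW_mem_lat, ← hes]
      have : (s : R) • (y : W) = algebraMap R K (s : R) • (y : W) :=
        (algebraMap_smul K (s : R) (y : W)).symm
      show (s : R) • (y : W) ∈ W0
      rw [this]
      exact W0.smul_mem _ y.2
    refine ⟨(⟨e, he⟩, s), ?_⟩
    apply Subtype.ext
    exact hes
  exists_of_eq := by
    intro x1 x2 h
    refine ⟨1, ?_⟩
    have h' : ι (x1 : E) = ι (x2 : E) := congrArg Subtype.val h
    have := S30AW_ι_injective ι h'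
    rw [one_smul, one_smul]
    exact Subtype.ext this

theorem S30AW_finrank_lat [Module.IsTorsionFree R E] (W0 : Submodule K W) :
    Module.finrank R (S30AW_lat ι W0) = Module.finrank K W0 := by
  have h1 := IsLocalizedModule.finrank_eq (M := S30AW_lat ι W0) (N := W0) (nonZeroDivisors R)
    (S30AW_latMap ι W0) le_rfl
  have h2 := IsLocalization.finrank_eq K (N := W0) (nonZeroDivisors R) le_rfl
  exact (h2.trans h1).symm

end Lattice

section Rep

variable {R : Type*} [CommRing R] [IsDomain R] {K : Type*} [Field K] [Algebra R K]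
  [IsFractionRing R K] {E : Type*} [AddCommGroup E] [Module R E]
  {W : Type*} [AddCommGroup W] [Module K W] [Module R W] [IsScalarTower R K W]
  (ι : E →ₗ[R] W) [hι : IsLocalizedModule (nonZeroDivisors R) ι]
  {G : Type*} [Group G] (r : G →* Module.End R E) (rK : G →* Module.End K W)
  (hrK : ∀ (g : G) (e : E), rK g (ι e) = ι (r g e))

omit [IsDomain R] [IsFractionRing R K] hι in
include hrK in
theorem S30AW_lat_stable (W0 : Submodule K W)
    (hW0 : ∀ g : G, ∀ w ∈ W0, rK g w ∈ W0) (g : G) (e : E)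
    (he : e ∈ S30AW_lat ι W0) : r g e ∈ S30AW_lat ι W0 := by
  rw [S30AW_mem_lat, ← hrK]
  exact hW0 g _ he

/-- The restriction of the representation to the lattice. -/
def S30AW_r0 (W0 : Submodule K W)
    (hW0 : ∀ g : G, ∀ w ∈ W0, rK g w ∈ W0) :
    G →* Module.End R (S30AW_lat ι W0) where
  toFun g := (r g).restrict (fun e he => S30AW_lat_stable ι r rK hrK W0 hW0 g e he)
  map_one' := by
    ext e
    show (r 1) (e : E) = e
    rw [map_one]
    rfl
  map_mul' g h := by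
    ext e
    show (r (g * h)) (e : E) = (r g) ((r h) (e : E))
    rw [map_mul]
    rfl

omit [IsDomain R] [IsFractionRing R K] hι in
@[simp]
theorem S30AW_r0_coe (W0 : Submodule K W)
    (hW0 : ∀ g : G, ∀ w ∈ W0, rK g w ∈ W0) (g : G) (e : S30AW_lat ι W0) :
    ((S30AW_r0 ι r rK hrK W0 hW0 g e : S30AW_lat ι W0) : E) = r g (e : E) := rfl

omit [IsDomain R] [IsFractionRing R K] hι in
theorem S30AW_latMap_r0 (W0 : Submodule K W)
    (hW0 : ∀ g : G, ∀ w ∈ W0, rK g w ∈ W0) (g : G) (e : S30AW_lat ι W0) :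
    S30AW_latMap ι W0 (S30AW_r0 ι r rK hrK W0 hW0 g e) =
      (rK g).restrict (hW0 g) (S30AW_latMap ι W0 e) := by
  apply Subtype.ext
  show ι (r g (e : E)) = rK g (ι (e : E))
  rw [hrK]

/-- The characteristic polynomial of the action on the lattice maps to the characteristic
polynomial of the action on the subspace. -/
theorem S30AW_charpoly_map [IsPrincipalIdealRing R] [Module.Finite R E] [Module.Free R E]
    [FiniteDimensional K W] (W0 : Submodule K W)
    (hW0 : ∀ g : G, ∀ w ∈ W0, rK g w ∈ W0) (g : G) :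
    (LinearMap.charpoly (S30AW_r0 ι r rK hrK W0 hW0 g)).map (algebraMap R K) =
      LinearMap.charpoly ((rK g).restrict (hW0 g)) := by
  classical
  let b := Module.Free.chooseBasis R (S30AW_lat ι W0)
  let bK := b.ofIsLocalizedModule K (nonZeroDivisors R) (S30AW_latMap ι W0)
  rw [← LinearMap.charpoly_toMatrix (S30AW_r0 ι r rK hrK W0 hW0 g) b,
    ← LinearMap.charpoly_toMatrix ((rK g).restrict (hW0 g)) bK,
    ← Matrix.charpoly_map]
  congr 1
  ext i j
  rw [Matrix.map_apply, LinearMap.toMatrix_apply, LinearMap.toMatrix_apply]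
  have h1 : bK j = S30AW_latMap ι W0 (b j) :=
    Module.Basis.ofIsLocalizedModule_apply K (nonZeroDivisors R) (S30AW_latMap ι W0) b j
  rw [h1, ← S30AW_latMap_r0]
  exact (Module.Basis.ofIsLocalizedModule_repr_apply K (nonZeroDivisors R)
    (S30AW_latMap ι W0) b _ i).symm

end Rep

section DVR

variable {R : Type*} [CommRing R] [IsDomain R] [IsDiscreteValuationRing R]

/-- In a discrete valuation ring with uniformizer `ϖ`, `𝔪 ^ n M = ϖ ^ n M`. -/
theorem S30AW_mem_pow_smul_top_iff {M : Type*} [AddCommGroup M] [Module R M] (ϖ : R)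
    (hϖ : Irreducible ϖ) (n : ℕ) (x : M) :
    x ∈ (IsLocalRing.maximalIdeal R ^ n) • (⊤ : Submodule R M) ↔ ∃ e : M, x = ϖ ^ n • e := by
  rw [hϖ.maximalIdeal_eq, Ideal.span_singleton_pow, Submodule.ideal_span_singleton_smul]
  constructor
  · intro h
    obtain ⟨e, -, he⟩ := (Submodule.mem_smul_pointwise_iff_exists _ _ _).1 h
    exact ⟨e, he.symm⟩
  · rintro ⟨e, rfl⟩
    exact Submodule.smul_mem_pointwise_smul _ _ _ Submodule.mem_top

theorem S30AW_mem_maximalIdeal_pow_iff (ϖ : R) (hϖ : Irreducible ϖ) (n : ℕ) (a : R) :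
    a ∈ IsLocalRing.maximalIdeal R ^ n ↔ ∃ b : R, a = ϖ ^ n * b := by
  rw [hϖ.maximalIdeal_eq, Ideal.span_singleton_pow, Ideal.mem_span_singleton']
  constructor
  · rintro ⟨b, hb⟩
    exact ⟨b, by rw [← hb, mul_comm]⟩
  · rintro ⟨b, hb⟩
    exact ⟨b, by rw [hb, mul_comm]⟩

variable {K : Type*} [Field K] [Algebra R K] [IsFractionRing R K]
  {E : Type*} [AddCommGroup E] [Module R E]
  {W : Type*} [AddCommGroup W] [Module K W] [Module R W] [IsScalarTower R K W]
  (ι : E →ₗ[R] W)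

/-- Saturation: an element of the lattice which is divisible by `𝔪 ^ n` in `E` is divisible by
`𝔪 ^ n` in the lattice. -/
theorem S30AW_lat_mem_pow_smul_top (W0 : Submodule K W) (n : ℕ) (x : S30AW_lat ι W0)
    (hx : (x : E) ∈ (IsLocalRing.maximalIdeal R ^ n) • (⊤ : Submodule R E)) :
    x ∈ (IsLocalRing.maximalIdeal R ^ n) • (⊤ : Submodule R (S30AW_lat ι W0)) := by
  obtain ⟨ϖ, hϖ⟩ := IsDiscreteValuationRing.exists_irreducible R
  rw [S30AW_mem_pow_smul_top_iff ϖ hϖ] at hx ⊢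
  obtain ⟨e, he⟩ := hx
  have he0 : e ∈ S30AW_lat ι W0 :=
    S30AW_lat_saturated ι W0 (ϖ ^ n) (pow_ne_zero n hϖ.ne_zero) e (he ▸ x.2)
  exact ⟨⟨e, he0⟩, Subtype.ext he⟩

end DVR

section Diag

variable {R : Type*} [CommRing R] {G : Type*} [Group G]

/-- The diagonal representation `u1 ⊕ u2` on `Fin 2 → R`. -/
def S30AW_diag (u1 u2 : G →* Rˣ) : G →* Module.End R (Fin 2 → R) where
  toFun g := Matrix.toLin' (Matrix.diagonal ![((u1 g : Rˣ) : R), ((u2 g : Rˣ) : R)])
  map_one' := by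
    have : (![((u1 1 : Rˣ) : R), ((u2 1 : Rˣ) : R)] : Fin 2 → R) = fun _ => 1 := by
      ext i
      fin_cases i <;> simp
    rw [this, Matrix.diagonal_one, Matrix.toLin'_one]
    rfl
  map_mul' g h := by
    have : (![((u1 (g * h) : Rˣ) : R), ((u2 (g * h) : Rˣ) : R)] : Fin 2 → R) =
        fun i => (![((u1 g : Rˣ) : R), ((u2 g : Rˣ) : R)] : Fin 2 → R) i *
          (![((u1 h : Rˣ) : R), ((u2 h : Rˣ) : R)] : Fin 2 → R) i := by
      ext i
      fin_cases i <;> simp
    rw [this, ← Matrix.diagonal_mul_diagonal, Matrix.toLin'_mul]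
    rfl

theorem S30AW_diag_apply (u1 u2 : G →* Rˣ) (g : G) (v : Fin 2 → R) (i : Fin 2) :
    S30AW_diag u1 u2 g v i = (![((u1 g : Rˣ) : R), ((u2 g : Rˣ) : R)] : Fin 2 → R) i * v i := by
  show (Matrix.toLin' (Matrix.diagonal ![((u1 g : Rˣ) : R), ((u2 g : Rˣ) : R)])) v i = _
  rw [Matrix.toLin'_apply, Matrix.mulVec_diagonal]

theorem S30AW_diag_charpoly [Nontrivial R] (u1 u2 : G →* Rˣ) (g : G) :
    LinearMap.charpoly (S30AW_diag u1 u2 g) =
      X ^ 2 - C (((u1 g : Rˣ) : R) + ((u2 g : Rˣ) : R)) * X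
        + C (((u1 g : Rˣ) : R) * ((u2 g : Rˣ) : R)) := by
  show LinearMap.charpoly
    (Matrix.toLin' (Matrix.diagonal ![((u1 g : Rˣ) : R), ((u2 g : Rˣ) : R)])) = _
  rw [Matrix.charpoly_toLin', Matrix.charpoly_fin_two]
  simp

theorem S30AW_diag_eq_one (u1 u2 : G →* Rˣ) (g : G) (h1 : u1 g = 1) (h2 : u2 g = 1) :
    S30AW_diag u1 u2 g = 1 := by
  refine LinearMap.ext fun v => funext fun i => ?_
  rw [S30AW_diag_apply, h1, h2]
  fin_cases i <;> simp

theorem S30AW_diag_sub_mem [IsDomain R] [IsDiscreteValuationRing R] (u1 u2 : G →* Rˣ) (g : G)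
    (n : ℕ) (h1 : ((u1 g : Rˣ) : R) - 1 ∈ IsLocalRing.maximalIdeal R ^ n)
    (h2 : ((u2 g : Rˣ) : R) - 1 ∈ IsLocalRing.maximalIdeal R ^ n) (v : Fin 2 → R) :
    S30AW_diag u1 u2 g v - v ∈
      (IsLocalRing.maximalIdeal R ^ n) • (⊤ : Submodule R (Fin 2 → R)) := by
  obtain ⟨ϖ, hϖ⟩ := IsDiscreteValuationRing.exists_irreducible R
  rw [S30AW_mem_maximalIdeal_pow_iff ϖ hϖ] at h1 h2
  obtain ⟨b1, hb1⟩ := h1
  obtain ⟨b2, hb2⟩ := h2
  rw [S30AW_mem_pow_smul_top_iff ϖ hϖ]
  refine ⟨fun i => (![b1, b2] : Fin 2 → R) i * v i, ?_⟩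
  ext i
  rw [Pi.sub_apply, S30AW_diag_apply, Pi.smul_apply, smul_eq_mul]
  fin_cases i
  · simp only [Fin.zero_eta, Matrix.cons_val_zero]
    linear_combination (v 0) * hb1
  · simp only [Fin.mk_one, Matrix.cons_val_one, Matrix.cons_val_zero]
    linear_combination (v 1) * hb2

end Diag

section Line

variable {R : Type*} [CommRing R] [IsDomain R] [IsDiscreteValuationRing R]
  {K : Type*} [Field K] [Algebra R K] [IsFractionRing R K]
  {E : Type*} [AddCommGroup E] [Module R E] [Module.Finite R E] [Module.Free R E]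
  {W : Type*} [AddCommGroup W] [Module K W] [Module R W] [IsScalarTower R K W]
  (ι : E →ₗ[R] W) [hι : IsLocalizedModule (nonZeroDivisors R) ι]
  {G : Type*} [Group G] (r : G →* Module.End R E) (rK : G →* Module.End K W)
  (hrK : ∀ (g : G) (e : E), rK g (ι e) = ι (r g e))

include hrK in
/-- The line case: the character is integral, and the lattice is generated by one element. -/
theorem S30AW_line (W0 : Submodule K W) (h1 : Module.finrank K W0 = 1) (ψ : G →* Kˣ)
    (hψ : ∀ g : G, ∀ w ∈ W0, rK g w = ((ψ g : Kˣ) : K) • w) :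
    ∃ (ψ0 : G →* Rˣ) (w0 : E), w0 ≠ 0 ∧ ι w0 ∈ W0 ∧
      (∀ g, algebraMap R K ((ψ0 g : Rˣ) : R) = ((ψ g : Kˣ) : K)) ∧
      (∀ g, r g w0 = ((ψ0 g : Rˣ) : R) • w0) ∧
      (∀ e : E, ι e ∈ W0 → ∃ a : R, e = a • w0) := by
  classical
  have hinj : Function.Injective (algebraMap R K) := IsFractionRing.injective R K
  have hfr : Module.finrank R (S30AW_lat ι W0) = 1 := by
    rw [S30AW_finrank_lat, h1]
  let b : Module.Basis Unit R (S30AW_lat ι W0) := Module.basisUnique Unit hfr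
  have hw0 : ((b () : S30AW_lat ι W0) : E) ≠ 0 := fun h => b.ne_zero () (Subtype.ext h)
  have hgen : ∀ e : S30AW_lat ι W0, e = b.repr e () • b () := by
    intro e
    have h := b.sum_repr e
    rw [Fintype.sum_unique] at h
    exact h.symm
  have hstab : ∀ g : G, ∀ w ∈ W0, rK g w ∈ W0 := by
    intro g w hw
    rw [hψ g w hw]
    exact W0.smul_mem _ hw
  have hι0 : ι ((b () : S30AW_lat ι W0) : E) ≠ 0 := by
    intro h
    exact hw0 (S30AW_ι_injective ι (h.trans (map_zero ι).symm))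
  have hsc : ∀ g : G, ∃ a : R, algebraMap R K a = ((ψ g : Kˣ) : K) ∧
      r g ((b () : S30AW_lat ι W0) : E) = a • ((b () : S30AW_lat ι W0) : E) := by
    intro g
    have hmem : r g ((b () : S30AW_lat ι W0) : E) ∈ S30AW_lat ι W0 :=
      S30AW_lat_stable ι r rK hrK W0 hstab g _ (b ()).2
    have h2 := congrArg Subtype.val (hgen ⟨_, hmem⟩)
    have h2' : r g ((b () : S30AW_lat ι W0) : E)
        = b.repr ⟨_, hmem⟩ () • ((b () : S30AW_lat ι W0) : E) := h2
    refine ⟨b.repr ⟨_, hmem⟩ (), ?_, h2'⟩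
    have h3 : ι (r g ((b () : S30AW_lat ι W0) : E))
        = ((ψ g : Kˣ) : K) • ι ((b () : S30AW_lat ι W0) : E) := by
      rw [← hrK]
      exact hψ g _ (b ()).2
    have h4 : ι (r g ((b () : S30AW_lat ι W0) : E))
        = algebraMap R K (b.repr ⟨_, hmem⟩ ()) • ι ((b () : S30AW_lat ι W0) : E) := by
      rw [algebraMap_smul, ← map_smul, ← h2']
    have h5 := h4.symm.trans h3
    exact smul_left_injective K hι0 h5
  choose a ha1 ha2 using hsc
  let ψ1 : G →* R :=
    { toFun := a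
      map_one' := hinj (by rw [ha1, map_one, map_one, Units.val_one])
      map_mul' := fun g h => hinj (by
        rw [ha1, map_mul, map_mul, ha1, ha1, Units.val_mul]) }
  refine ⟨ψ1.toHomUnits, ((b () : S30AW_lat ι W0) : E), hw0, (b ()).2, fun g => ha1 g,
    fun g => ha2 g, fun e he => ⟨b.repr ⟨e, he⟩ (), congrArg Subtype.val (hgen ⟨e, he⟩)⟩⟩

omit [Module.Finite R E] [Module.Free R E] hι in
/-- Continuity in the line case: if `a • w0` is divisible by `𝔪 ^ n` in `E`, then `a ∈ 𝔪 ^ n`. -/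
theorem S30AW_line_cont [Module.IsTorsionFree R E] (W0 : Submodule K W) (w0 : E) (hw0 : w0 ≠ 0)
    (hw0W : ι w0 ∈ W0) (hgen : ∀ e : E, ι e ∈ W0 → ∃ a : R, e = a • w0) (a : R) (n : ℕ)
    (h : a • w0 ∈ (IsLocalRing.maximalIdeal R ^ n) • (⊤ : Submodule R E)) :
    a ∈ IsLocalRing.maximalIdeal R ^ n := by
  obtain ⟨ϖ, hϖ⟩ := IsDiscreteValuationRing.exists_irreducible R
  rw [S30AW_mem_pow_smul_top_iff ϖ hϖ] at h
  rw [S30AW_mem_maximalIdeal_pow_iff ϖ hϖ]
  obtain ⟨e, he⟩ := h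
  have haw : a • w0 ∈ S30AW_lat ι W0 := (S30AW_lat ι W0).smul_mem a hw0W
  have he0 : e ∈ S30AW_lat ι W0 :=
    S30AW_lat_saturated ι W0 (ϖ ^ n) (pow_ne_zero n hϖ.ne_zero) e (he ▸ haw)
  obtain ⟨b, hb⟩ := hgen e he0
  refine ⟨b, ?_⟩
  have h1 : a • w0 = (ϖ ^ n * b) • w0 := by
    rw [he, hb, smul_smul]
  exact smul_left_injective R hw0 h1

end Line

section Main

local notation "GQ" => (AlgebraicClosure ℚ ≃ₐ[ℚ] AlgebraicClosure ℚ)
local notation "Qb" => AlgebraicClosure ℚ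

/-- The abstract wiring, for an arbitrary model `W` of `K ⊗ E`. -/
theorem S30AW_main (𝒪 : Type) [CommRing 𝒪] [IsDomain 𝒪] [IsDiscreteValuationRing 𝒪]
    [CharZero 𝒪] (K : Type) [Field K] [Algebra 𝒪 K] [IsFractionRing 𝒪 K]
    (E : Type) [AddCommGroup E] [Module 𝒪 E] [Module.Finite 𝒪 E] [Module.Free 𝒪 E]
    (W : Type) [AddCommGroup W] [Module K W] [Module 𝒪 W] [IsScalarTower 𝒪 K W]
    [FiniteDimensional K W] [Nontrivial W]
    (ι : E →ₗ[𝒪] W) [IsLocalizedModule (nonZeroDivisors 𝒪) ι]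
    (r : GQ →* Module.End 𝒪 E) (rK : GQ →* Module.End K W)
    (hrK : ∀ (g : GQ) (e : E), rK g (ι e) = ι (r g e))
    (hrel : ∀ (g : GQ) (t δ : 𝒪), r g * r g - t • r g + δ • (1 : Module.End 𝒪 E) = 0 →
      rK g * rK g - (algebraMap 𝒪 K t) • rK g
        + (algebraMap 𝒪 K δ) • (1 : Module.End K W) = 0)
    (d : GQ →* 𝒪ˣ) (c : GQ)
    (hcont : GaloisActionIsAdicContinuous 𝒪 r)
    (hd : ∀ n : ℕ, ∃ L : IntermediateField ℚ Qb, FiniteDimensional ℚ L ∧
      ∀ σ : GQ, (∀ x ∈ L, σ x = x) →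
        ((d σ : 𝒪ˣ) : 𝒪) - 1 ∈ IsLocalRing.maximalIdeal 𝒪 ^ n)
    (hc : c * c = 1) (hdc : ((d c : 𝒪ˣ) : 𝒪) = -1)
    (hq : ∀ g : GQ, ∃ t : 𝒪,
      r g * r g - t • r g + ((d g : 𝒪ˣ) : 𝒪) • (1 : Module.End 𝒪 E) = 0) :
    ∃ ρ : GaloisRepAdic 𝒪,
      (∀ g : GQ, r g = 1 → d g = 1 → ρ.ρ g = 1) ∧
      ∀ (g : GQ) (t : 𝒪),
        r g * r g - t • r g + ((d g : 𝒪ˣ) : 𝒪) • (1 : Module.End 𝒪 E) = 0 →
        LinearMap.charpoly (ρ.ρ g) = X ^ 2 - C t * X + C ((d g : 𝒪ˣ) : 𝒪) := by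
  classical
  have hinj : Function.Injective (algebraMap 𝒪 K) := IsFractionRing.injective 𝒪 K
  have hK0 : CharZero K := charZero_of_injective_algebraMap hinj
  have h2 : (2 : K) ≠ 0 := two_ne_zero
  let dK : GQ →* Kˣ := (Units.map (algebraMap 𝒪 K : 𝒪 →* K)).comp d
  have hdK : ∀ g, ((dK g : Kˣ) : K) = algebraMap 𝒪 K ((d g : 𝒪ˣ) : 𝒪) := fun g => rfl
  have hqK : ∀ g : GQ, ∃ t : K,
      rK g * rK g - t • rK g + ((dK g : Kˣ) : K) • (1 : Module.End K W) = 0 := by
    intro g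
    obtain ⟨t, ht⟩ := hq g
    exact ⟨algebraMap 𝒪 K t, hrel g t _ ht⟩
  have hdcK : ((dK c : Kˣ) : K) = -1 := by
    rw [hdK, hdc, map_neg, map_one]
  obtain ⟨W0, hW0, hne, -, hcase⟩ := S30R2_subspace rK dK h2 hqK c hc hdcK
  rcases hcase with ⟨hd2, -, hch⟩ | ⟨hd1, ψ, hψ, hψt⟩
  · -- the case of dimension `2`
    have hfr : Module.finrank 𝒪 (S30AW_lat ι W0) = 2 := by
      rw [S30AW_finrank_lat, hd2]
    refine ⟨{ V := S30AW_lat ι W0
              finrank_eq := hfr
              ρ := S30AW_r0 ι r rK hrK W0 hW0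
              isAdicContinuous := ?_ }, ?_, ?_⟩
    · intro n
      obtain ⟨L, hL, hLσ⟩ := hcont n
      refine ⟨L, hL, fun σ hσ v => ?_⟩
      apply S30AW_lat_mem_pow_smul_top
      exact hLσ σ hσ (v : E)
    · intro g hg _
      refine LinearMap.ext fun e => Subtype.ext ?_
      show r g (e : E) = e
      rw [hg]
      rfl
    · intro g t ht
      have h3 := hch g (algebraMap 𝒪 K t) (hrel g t _ ht)
      have h4 := S30AW_charpoly_map ι r rK hrK W0 hW0 g
      rw [h3] at h4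
      apply Polynomial.map_injective (algebraMap 𝒪 K) hinj
      show Polynomial.map (algebraMap 𝒪 K) (LinearMap.charpoly (S30AW_r0 ι r rK hrK W0 hW0 g))
        = _
      rw [h4]
      simp [hdK]
  · -- the case of dimension `1`
    obtain ⟨ψ0, w0, hw0, hw0W, hψ0, hrw0, hgen⟩ := S30AW_line ι r rK hrK W0 hd1 ψ hψ
    have hu2 : ∀ g, (((d / ψ0) g : 𝒪ˣ) : 𝒪) * ((ψ0 g : 𝒪ˣ) : 𝒪) = ((d g : 𝒪ˣ) : 𝒪) := by
      intro g
      rw [MonoidHom.div_apply, ← Units.val_mul, div_mul_cancel]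
    refine ⟨{ V := Fin 2 → 𝒪
              finrank_eq := Module.finrank_fin_fun 𝒪
              ρ := S30AW_diag ψ0 (d / ψ0)
              isAdicContinuous := ?_ }, ?_, ?_⟩
    · intro n
      obtain ⟨L1, hL1, h1⟩ := hcont n
      obtain ⟨L2, hL2, h2'⟩ := hd n
      refine ⟨L1 ⊔ L2, IntermediateField.finiteDimensional_sup L1 L2, fun σ hσ v => ?_⟩
      have hσ1 : ∀ x ∈ L1, σ x = x := fun x hx => hσ x ((le_sup_left : L1 ≤ L1 ⊔ L2) hx)
      have hσ2 : ∀ x ∈ L2, σ x = x := fun x hx => hσ x ((le_sup_right : L2 ≤ L1 ⊔ L2) hx)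
      have hψσ : ((ψ0 σ : 𝒪ˣ) : 𝒪) - 1 ∈ IsLocalRing.maximalIdeal 𝒪 ^ n := by
        apply S30AW_line_cont ι W0 w0 hw0 hw0W hgen
        have := h1 σ hσ1 w0
        rwa [hrw0, ← one_smul 𝒪 w0, smul_smul, mul_one, ← sub_smul] at this
      have hdσ := h2' σ hσ2
      apply S30AW_diag_sub_mem ψ0 (d / ψ0) σ n hψσ
      have hkey : (((d / ψ0) σ : 𝒪ˣ) : 𝒪) - 1
          = (((d σ : 𝒪ˣ) : 𝒪) - 1) * (((ψ0 σ)⁻¹ : 𝒪ˣ) : 𝒪)
            - (((ψ0 σ)⁻¹ : 𝒪ˣ) : 𝒪) * (((ψ0 σ : 𝒪ˣ) : 𝒪) - 1) := by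
        have hinv : (((ψ0 σ)⁻¹ : 𝒪ˣ) : 𝒪) * ((ψ0 σ : 𝒪ˣ) : 𝒪) = 1 := by
          rw [← Units.val_mul, inv_mul_cancel, Units.val_one]
        have hdiv : (((d / ψ0) σ : 𝒪ˣ) : 𝒪)
            = ((d σ : 𝒪ˣ) : 𝒪) * (((ψ0 σ)⁻¹ : 𝒪ˣ) : 𝒪) := by
          rw [MonoidHom.div_apply, div_eq_mul_inv, Units.val_mul]
        rw [hdiv]
        linear_combination hinv
      rw [hkey]
      exact Ideal.sub_mem _ (Ideal.mul_mem_right _ _ hdσ) (Ideal.mul_mem_left _ _ hψσ)
    · intro g hg hdg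
      have h1 : ψ0 g = 1 := by
        have h3 := hrw0 g
        rw [hg] at h3
        have h4 : (1 : 𝒪) • w0 = ((ψ0 g : 𝒪ˣ) : 𝒪) • w0 := by
          rw [one_smul]
          exact h3
        have h5 := smul_left_injective 𝒪 hw0 h4
        exact Units.ext h5.symm
      have h2'' : (d / ψ0) g = 1 := by
        rw [MonoidHom.div_apply, h1, hdg, div_one]
      exact S30AW_diag_eq_one ψ0 (d / ψ0) g h1 h2''
    · intro g t ht
      have h3 := hψt g (algebraMap 𝒪 K t) (hrel g t _ ht)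
      show LinearMap.charpoly (S30AW_diag ψ0 (d / ψ0) g) = _
      rw [S30AW_diag_charpoly]
      have hψne : ((ψ g : Kˣ) : K) ≠ 0 := Units.ne_zero _
      have ht' : t = ((ψ0 g : 𝒪ˣ) : 𝒪) + (((d / ψ0) g : 𝒪ˣ) : 𝒪) := by
        apply hinj
        rw [h3, map_add, hψ0 g]
        congr 1
        have h5 : algebraMap 𝒪 K (((d / ψ0) g : 𝒪ˣ) : 𝒪) * ((ψ g : Kˣ) : K)
            = ((dK g : Kˣ) : K) := by
          rw [← hψ0 g, ← map_mul, hu2 g, hdK]
        rw [← h5]
        field_simp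
      have hdet : ((ψ0 g : 𝒪ˣ) : 𝒪) * (((d / ψ0) g : 𝒪ˣ) : 𝒪) = ((d g : 𝒪ˣ) : 𝒪) := by
        rw [mul_comm]
        exact hu2 g
      rw [hdet, ← ht']

end Main

section Final

local notation "GQ" => (AlgebraicClosure ℚ ≃ₐ[ℚ] AlgebraicClosure ℚ)

variable {R : Type*} [CommRing R] (K : Type*) [Field K] [Algebra R K]
  {E : Type*} [AddCommGroup E] [Module R E] {G : Type*} [Group G]
  (r : G →* Module.End R E)

/-- The base change of a representation to the fraction field. -/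
def S30AW_rK : G →* Module.End K (K ⊗[R] E) :=
  ((Module.End.baseChangeHom R K E : Module.End R E →ₐ[R] Module.End K (K ⊗[R] E)) :
    Module.End R E →* Module.End K (K ⊗[R] E)).comp r

theorem S30AW_rK_apply (g : G) : S30AW_rK K r g = (r g).baseChange K := rfl

theorem S30AW_rK_mk (g : G) (e : E) :
    S30AW_rK K r g (TensorProduct.mk R K E 1 e) = TensorProduct.mk R K E 1 (r g e) := by
  rw [S30AW_rK_apply]
  exact LinearMap.baseChange_tmul _ _ _

/-- Transport of a quadratic relation to the fraction field. -/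
theorem S30AW_rK_rel (g : G) (t δ : R)
    (h : r g * r g - t • r g + δ • (1 : Module.End R E) = 0) :
    S30AW_rK K r g * S30AW_rK K r g - (algebraMap R K t) • S30AW_rK K r g
      + (algebraMap R K δ) • (1 : Module.End K (K ⊗[R] E)) = 0 := by
  have h1 := congrArg (Module.End.baseChangeHom R K E) h
  rw [map_add, map_sub, map_mul, map_smul, map_smul, map_one, map_zero] at h1
  rw [algebraMap_smul, algebraMap_smul]
  exact h1

/-- **S30, piece P9 (abstract wiring).** -/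
theorem S30_AW (𝒪 : Type) [CommRing 𝒪] [IsDomain 𝒪] [IsDiscreteValuationRing 𝒪]
    [IsAdicComplete (IsLocalRing.maximalIdeal 𝒪) 𝒪] [CharZero 𝒪] : S30_AW_statement 𝒪 := by
  intro E _ _ _ _ _ r d c hcont hd hc hdc hq
  have hpos : 0 < Module.finrank (FractionRing 𝒪) (FractionRing 𝒪 ⊗[𝒪] E) := by
    rw [Module.finrank_baseChange]
    exact Module.finrank_pos
  have hnt : Nontrivial (FractionRing 𝒪 ⊗[𝒪] E) := Module.nontrivial_of_finrank_pos hpos
  exact S30AW_main 𝒪 (FractionRing 𝒪) E (FractionRing 𝒪 ⊗[𝒪] E)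
    (TensorProduct.mk 𝒪 (FractionRing 𝒪) E 1) r (S30AW_rK (FractionRing 𝒪) r)
    (fun g e => S30AW_rK_mk (FractionRing 𝒪) r g e)
    (fun g t δ h => S30AW_rK_rel (FractionRing 𝒪) r g t δ h) d c hcont hd hc hdc hq

end Final

end Fermat.Agent.S30_helper1_AW
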