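import Mathlib
import Fermat.Agent.S30_helper23_HF
import Fermat.Agent.S30_helper23_EIGA
import Fermat.Agent.G_helper3_G2aLATTICE

/-!
# S30, piece (g2), part EIG: every character of the Hecke algebra occurs in `K ⊗ M`

`PG30_exists_eigen`: if `S` contains the primes dividing `N`, `K` is a field of characteristic `0`
and `χ : heckeAlgebra N 2 S →+* K` is a ring homomorphism, then `K ⊗[ℤ] PG_M N` contains a nonzero
vector `x` with `T_ℓ x = χ (T_ℓ) • x` for every prime `ℓ ∤ N`, `ℓ ∉ S`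
(`T_ℓ = PG_E2F_TM N ℓ`, the Hecke operator on the lattice of parabolic homomorphisms).



-/

set_option autoImplicit false

open scoped TensorProduct
open Fermat.Agent.G_helper6_Defs Fermat.Agent.G_helper6_E2FINAL

noncomputable section

namespace Fermat.Agent.S30_helper23_EIG

open Fermat.Agent.S30_helper23_HF Fermat.Agent.S30_helper23_EIGA

/-- **(EIG)** every character `χ` of the Hecke algebra (away from `S ⊇ {q ∣ N}`) with values in a
field of characteristic `0` has a nonzero eigenvector in `K ⊗ M`. -/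
theorem PG30_exists_eigen (N : ℕ) [NeZero N] (S : Set ℕ)
    (hNS : ∀ q : ℕ, q.Prime → q ∣ N → q ∈ S) {K : Type*} [Field K] [CharZero K]
    (χ : CuspForm.heckeAlgebra N 2 S →+* K) :
    ∃ x : K ⊗[ℤ] (PG_M N), x ≠ 0 ∧
      ∀ (ℓ : ℕ) (hℓ : ℓ.Prime) (hℓN : ¬ ℓ ∣ N) (hℓS : ℓ ∉ S),
        haveI : NeZero ℓ := ⟨hℓ.ne_zero⟩
        (PG_E2F_TM N ℓ).baseChange K x = χ (CuspForm.heckeAlgebra.T hℓ hℓN hℓS) • x := by
  obtain ⟨Ψ, hΨ, hT⟩ := PG30_hecke_faithful N S hNS
  haveI : Module.Finite ℤ (PG_M N) := (Fermat.Agent.G_helper3_G2aLATTICE.PG_lattice N).1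
  haveI : Module.Free ℤ (PG_M N) := (Fermat.Agent.G_helper3_G2aLATTICE.PG_lattice N).2.1
  obtain ⟨x, hx0, hx⟩ := PG30_eigen_abstract Ψ K hΨ χ
  refine ⟨x, hx0, fun ℓ hℓ hℓN hℓS => ?_⟩
  have h := hx (CuspForm.heckeAlgebra.T hℓ hℓN hℓS)
  rw [hT ℓ hℓ hℓN hℓS] at h
  exact h

end Fermat.Agent.S30_helper23_EIG
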