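import Mathlib
import Fermat.Agent.S30_helper23_EIGC
import Fermat.Agent.G_helper6_E2PLUG

/-!
# S30: the Tate module of `J₀(N)` and its eigenlattices, unconditionally

Consequences of Project G for the powers of `p` (`PG_E2PLUG_adic`, helper6) and of the
faithfulness of the Hecke algebra on the lattice (`PG30_hecke_faithful`):

* `PG30_tate_finite_free`: the Tate module `S30T_Tate (JZero N) p` is a finite free
  `ℤ_[p]`-module;
* `PG30_theta_adic`: there is `θ : PG_M N →+ S30T_Tate (JZero N) p`, Hecke-equivariant, sending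
  every `ℤ`-basis of the lattice to a `ℤ_[p]`-linearly independent family;
* `PG30_eigenlattice`: for every domain `𝒪` of characteristic `0` which is a `ℤ_[p]`-algebra and
  every character `χ : heckeAlgebra N 2 S →+* 𝒪` (`S` containing the primes dividing `N`), the
  `χ`-eigenspace of the Hecke operators in `𝒪 ⊗[ℤ_[p]] S30T_Tate (JZero N) p` is nonzero.
-/

set_option autoImplicit false

open scoped TensorProduct
open Fermat.Agent.G_helper6_Defs Fermat.Agent.G_helper6_E2FINAL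

noncomputable section

namespace Fermat.Agent.S30_helper23_EIGU

open Fermat.Agent.S30_helper23_EIGC Fermat.Agent.S30_helper1_TATE
  Fermat.Agent.S30_helper1_TATEF

/-- The Tate module of `J₀(N)` is a finite free `ℤ_[p]`-module. -/
theorem PG30_tate_finite_free (N : ℕ) [NeZero N] (p : ℕ) [hp : Fact p.Prime] :
    Module.Finite ℤ_[p] (S30T_Tate (ModularCurve.JZero N) p) ∧
      Module.Free ℤ_[p] (S30T_Tate (ModularCurve.JZero N) p) := by
  obtain ⟨Θ₀, hΘ₀⟩ := Fermat.Agent.G_helper6_E2PLUG.PG_E2PLUG_exists N p hp.out.pos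
  refine S30T_finite_free_of_zsmul (hΘ₀.fin.subset ?_)
  intro y hy
  exact AlgebraicCurve.Pic0.mem_torsion.2 hy

/-- **(P4)** the adic period map `θ : M → T_p J₀(N)`: Hecke-equivariant and sending `ℤ`-bases to
`ℤ_[p]`-linearly independent families. -/
theorem PG30_theta_adic (N : ℕ) [NeZero N] (p : ℕ) [hp : Fact p.Prime] :
    ∃ θ : PG_M N →+ S30T_Tate (ModularCurve.JZero N) p,
      (∀ {ι : Type} [Fintype ι] (b : Module.Basis ι ℤ (PG_M N)),
        LinearIndependent ℤ_[p] (fun i => θ (b i))) ∧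
      (∀ c : PG_M N, θ c = 0 → c = 0) ∧
      ∀ (ℓ : Nat.Primes), ¬ (ℓ : ℕ) ∣ N → ∀ (c : PG_M N) (n : ℕ),
        haveI : NeZero (ℓ : ℕ) := ⟨ℓ.2.ne_zero⟩
        ((θ (PG_E2F_TM N ℓ c) : S30T_Tate (ModularCurve.JZero N) p) :
            ℕ → ModularCurve.JZero N) n =
          ModularCurve.heckeOperatorBar N ℓ
            (((θ c : S30T_Tate (ModularCurve.JZero N) p) : ℕ → ModularCurve.JZero N) n) := by
  obtain ⟨Θ, hE2, hcompat⟩ := Fermat.Agent.G_helper6_E2PLUG.PG_E2PLUG_adic N p hp.out.pos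
  have htors : ∀ (n : ℕ) (c : PG_M N), (p ^ n) • Θ n c = 0 := fun n c => by
    have h := (hE2 n).tors c
    rwa [natCast_zsmul] at h
  have hc : ∀ (n : ℕ) (c : PG_M N), p • Θ (n + 1) c = Θ n c := fun n c => by
    have h := hcompat n c
    rwa [natCast_zsmul] at h
  have hinj : ∀ (n : ℕ) (c : PG_M N), Θ n c = 0 → ∃ c' : PG_M N, c = (p ^ n) • c' :=
    fun n c h => by
      obtain ⟨c', hc'⟩ := (hE2 n).inj c h
      exact ⟨c', by rw [hc', natCast_zsmul]⟩
  haveI : Module.Finite ℤ (PG_M N) := (Fermat.Agent.G_helper3_G2aLATTICE.PG_lattice N).1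
  haveI : Module.Free ℤ (PG_M N) := (Fermat.Agent.G_helper3_G2aLATTICE.PG_lattice N).2.1
  have hli : ∀ {ι : Type} [Fintype ι] (b : Module.Basis ι ℤ (PG_M N)),
      LinearIndependent ℤ_[p] (fun i => S30T_lift Θ htors hc (b i)) :=
    fun b => S30T_lift_linearIndependent b Θ htors hc hinj
  refine ⟨S30T_lift Θ htors hc, hli, fun c hc0 => ?_, fun ℓ hℓN c n => ?_⟩
  · -- injectivity: expand `c` in a basis
    classical
    let b := Module.Free.chooseBasis ℤ (PG_M N)
    have h1 : ∑ i, ((b.repr c i : ℤ) : ℤ_[p]) • S30T_lift Θ htors hc (b i) = 0 := by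
      have h2 : ∀ i, ((b.repr c i : ℤ) : ℤ_[p]) • S30T_lift Θ htors hc (b i) =
          S30T_lift Θ htors hc ((b.repr c i) • b i) := by
        intro i
        rw [map_zsmul]
        exact Int.cast_smul_eq_zsmul ℤ_[p] (b.repr c i) (S30T_lift Θ htors hc (b i))
      rw [Finset.sum_congr rfl (fun i _ => h2 i), ← map_sum, b.sum_repr, hc0]
    have h3 := (Fintype.linearIndependent_iff.1 (hli b)) _ h1
    have h4 : ∀ i, b.repr c i = 0 := fun i => by
      have := h3 i
      exact_mod_cast this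
    apply b.repr.injective
    ext i
    rw [h4 i]
    simp
  · rw [S30T_lift_apply, S30T_lift_apply]
    exact ((hE2 n).hecke ℓ c _ hℓN rfl).symm

/-- **The eigenlattice of every character of the Hecke algebra in the Tate module of `J₀(N)` is
nontrivial**: for operators `T ℓ` on the Tate module acting coordinatewise by the Hecke operators
`heckeOperatorBar N ℓ` (`ℓ ∤ N`, `ℓ ∉ S`). -/
theorem PG30_eigenlattice (N : ℕ) [NeZero N] (S : Set ℕ)
    (hNS : ∀ q : ℕ, q.Prime → q ∣ N → q ∈ S) (p : ℕ) [hp : Fact p.Prime]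
    {𝒪 : Type*} [CommRing 𝒪] [IsDomain 𝒪] [CharZero 𝒪] [Algebra ℤ_[p] 𝒪]
    (T : ℕ → Module.End ℤ_[p] (S30T_Tate (ModularCurve.JZero N) p))
    (hT : ∀ (ℓ : Nat.Primes), ¬ (ℓ : ℕ) ∣ N → (ℓ : ℕ) ∉ S →
      ∀ (x : S30T_Tate (ModularCurve.JZero N) p) (n : ℕ),
        ((T ℓ x : S30T_Tate (ModularCurve.JZero N) p) : ℕ → ModularCurve.JZero N) n =
          ModularCurve.heckeOperatorBar N ℓ ((x : ℕ → ModularCurve.JZero N) n))
    (χ : CuspForm.heckeAlgebra N 2 S →+* 𝒪) :
    ∃ v : 𝒪 ⊗[ℤ_[p]] (S30T_Tate (ModularCurve.JZero N) p), v ≠ 0 ∧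
      ∀ (ℓ : ℕ) (hℓ : ℓ.Prime) (hℓN : ¬ ℓ ∣ N) (hℓS : ℓ ∉ S),
        (T ℓ).baseChange 𝒪 v = χ (CuspForm.heckeAlgebra.T hℓ hℓN hℓS) • v := by
  obtain ⟨Θ, hE2, hcompat⟩ := Fermat.Agent.G_helper6_E2PLUG.PG_E2PLUG_adic N p hp.out.pos
  exact PG30_eigenlattice_of_E2 N S hNS p Θ hE2 hcompat T hT χ

end Fermat.Agent.S30_helper23_EIGU
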