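import Mathlib

/-!
# S30-OEXT (helper24): the integral closure of a complete DVR in a finite extension

For a discrete valuation ring `A` of characteristic zero, complete for its maximal ideal,
with fraction field `K`, and a finite extension `E` of `K`, the integral closure
`integralClosure A E` is again a complete discrete valuation ring, finite and free over `A`,
with fraction field `E`; its residue field is finite when that of `A` is, and the structure
map is local and injective.  Mathlib only.
-/

set_option autoImplicit false
set_option linter.style.haveILetI false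
set_option linter.unusedSectionVars false
set_option linter.unusedVariables false

namespace Fermat.Agent.S30_helper24_OEXT

open IsLocalRing Polynomial

section Complete

variable {A : Type*} [CommRing A] (I : Ideal A) {M : Type*} [AddCommGroup M] [Module A M]

/-- a linear form maps `J • ⊤` into `J` -/
theorem S30OE_linearForm_mem (J : Ideal A) (φ : M →ₗ[A] A) {x : M}
    (hx : x ∈ (J • ⊤ : Submodule A M)) : φ x ∈ J := by
  have h1 : (J • ⊤ : Submodule A M).map φ ≤ J • (⊤ : Submodule A A) := by
    rw [Submodule.map_smul'']
    exact smul_mono_right _ le_top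
  have h2 := h1 (Submodule.mem_map_of_mem hx)
  simpa using h2

/-- **Finite free modules over a precomplete ring are precomplete.** -/
theorem S30OE_isPrecomplete_of_basis {ι : Type*} [Finite ι] (b : Module.Basis ι A M)
    [IsPrecomplete I A] : IsPrecomplete I M := by
  classical
  have := Fintype.ofFinite ι
  refine ⟨fun f hf => ?_⟩
  have hc : ∀ i : ι, ∃ L : A, ∀ n, b.repr (f n) i ≡ L [SMOD (I ^ n • ⊤ : Submodule A A)] := by
    intro i
    refine IsPrecomplete.prec' (fun n => b.repr (f n) i) ?_
    intro m n hmn
    have h1 := hf hmn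
    rw [SModEq.sub_mem] at h1 ⊢
    have h2 := S30OE_linearForm_mem (I ^ m) (b.coord i) h1
    simpa using h2
  choose c hcs using hc
  refine ⟨∑ i, c i • b i, fun n => ?_⟩
  rw [SModEq.sub_mem]
  have h1 : f n - ∑ i, c i • b i = ∑ i, (b.repr (f n) i - c i) • b i := by
    conv_lhs => rw [← b.sum_repr (f n)]
    rw [← Finset.sum_sub_distrib]
    exact Finset.sum_congr rfl fun i _ => (sub_smul _ _ _).symm
  rw [h1]
  refine Submodule.sum_mem _ fun i _ => ?_
  have h2 := hcs i n
  rw [SModEq.sub_mem] at h2
  have h3 : b.repr (f n) i - c i ∈ I ^ n := by simpa using h2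
  exact Submodule.smul_mem_smul h3 Submodule.mem_top

end Complete

section Local

/-- An Artinian ring without nontrivial idempotents is local. -/
theorem S30OE_isLocalRing_of_artinian {R : Type*} [CommRing R] [Nontrivial R] [IsArtinianRing R]
    (h : ∀ e : R, IsIdempotentElem e → e = 0 ∨ e = 1) : IsLocalRing R := by
  classical
  by_contra hloc
  obtain ⟨m₁, m₂, hm₁, hm₂, hne⟩ := (IsLocalRing.not_isLocalRing_tfae.out 0 2).mp hloc
  let M₁ : MaximalSpectrum R := ⟨m₁, hm₁⟩
  let M₂ : MaximalSpectrum R := ⟨m₂, hm₂⟩
  have hM : M₂ ≠ M₁ := fun h => hne (congrArg MaximalSpectrum.asIdeal h).symm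
  let Φ := IsArtinianRing.quotNilradicalEquivPi R
  let ε : ∀ I : MaximalSpectrum R, R ⧸ I.asIdeal := Pi.single M₁ 1
  have hε : IsIdempotentElem ε := by
    show ε * ε = ε
    ext I
    by_cases hI : I = M₁
    · subst hI; simp [ε]
    · simp [ε, hI]
  let ē : R ⧸ nilradical R := Φ.symm ε
  have hē : IsIdempotentElem ē := by
    show ē * ē = ē
    rw [← map_mul, hε.eq]
  have hker : ∀ x ∈ RingHom.ker (Ideal.Quotient.mk (nilradical R)), IsNilpotent x := by
    intro x hx
    rwa [Ideal.mk_ker, mem_nilradical] at hx
  have hrange : ē ∈ (Ideal.Quotient.mk (nilradical R)).range := by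
    rw [RingHom.mem_range]
    exact Ideal.Quotient.mk_surjective ē
  obtain ⟨e, he, hee⟩ := exists_isIdempotentElem_eq_of_ker_isNilpotent
    (Ideal.Quotient.mk (nilradical R)) hker ē hrange hē
  have hΦ : Φ (Ideal.Quotient.mk (nilradical R) e) = ε := by
    rw [hee]; exact Φ.apply_symm_apply ε
  rcases h e he with h0 | h1
  · rw [h0, map_zero, map_zero] at hΦ
    have h2 := congrFun hΦ M₁
    simp only [Pi.zero_apply, ε, Pi.single_eq_same] at h2
    have : Nontrivial (R ⧸ M₁.asIdeal) := Ideal.Quotient.nontrivial_iff.mpr hm₁.ne_top
    exact zero_ne_one h2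
  · rw [h1, map_one, map_one] at hΦ
    have h2 := congrFun hΦ M₂
    simp only [Pi.one_apply, ε, Pi.single_eq_of_ne hM] at h2
    have : Nontrivial (R ⧸ M₂.asIdeal) := Ideal.Quotient.nontrivial_iff.mpr hm₂.ne_top
    exact one_ne_zero h2

/-- **Hensel**: a domain which is `I`-adically complete with Artinian quotient `B ⧸ I ≠ 0`
is a local ring. -/
theorem S30OE_isLocalRing_of_complete {B : Type*} [CommRing B] [IsDomain B] (I : Ideal B)
    [IsAdicComplete I B] [IsArtinianRing (B ⧸ I)] (hI : I ≠ ⊤) : IsLocalRing B := by
  haveI : Nontrivial (B ⧸ I) := Ideal.Quotient.nontrivial_iff.mpr hI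
  haveI : IsLocalRing (B ⧸ I) := by
    refine S30OE_isLocalRing_of_artinian fun e he => ?_
    obtain ⟨a₀, rfl⟩ := Ideal.Quotient.mk_surjective e
    have hH : HenselianRing B I := inferInstance
    have h1 : (X ^ 2 - X : B[X]).Monic := by
      apply Polynomial.monic_X_pow_sub
      rw [degree_X]
      norm_num
    have h2 : (X ^ 2 - X : B[X]).eval a₀ ∈ I := by
      rw [← Ideal.Quotient.eq_zero_iff_mem]
      simp only [eval_sub, eval_pow, eval_X, map_sub, map_pow]
      rw [pow_two, he.eq, sub_self]
    have h3 : IsUnit (Ideal.Quotient.mk I ((X ^ 2 - X : B[X]).derivative.eval a₀)) := by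
      have h4 : Ideal.Quotient.mk I ((X ^ 2 - X : B[X]).derivative.eval a₀)
          = 2 * Ideal.Quotient.mk I a₀ - 1 := by
        simp
        ring
      rw [h4]
      refine IsUnit.of_mul_eq_one (2 * Ideal.Quotient.mk I a₀ - 1) ?_
      have := he.eq
      linear_combination 4 * this
    obtain ⟨a, ha, haa⟩ := hH.is_henselian _ h1 a₀ h2 h3
    have ha' : a * (a - 1) = 0 := by
      have := ha
      simp only [IsRoot.def, eval_sub, eval_pow, eval_X] at this
      linear_combination this
    have hmk : Ideal.Quotient.mk I a = Ideal.Quotient.mk I a₀ := by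
      rw [← sub_eq_zero, ← map_sub, Ideal.Quotient.eq_zero_iff_mem]
      exact haa
    rcases mul_eq_zero.mp ha' with h0 | h1
    · left
      rw [← hmk, h0, map_zero]
    · right
      rw [← hmk, sub_eq_zero.mp h1, map_one]
  haveI := isLocalHom_of_le_jacobson_bot I (IsAdicComplete.le_jacobson_bot I)
  exact (Ideal.Quotient.mk I).domain_isLocalRing

end Local

section Topology

variable {B : Type*} [CommRing B]

/-- completeness for a power of an ideal implies precompleteness for the ideal -/
theorem S30OE_isPrecomplete_of_pow (J : Ideal B) (e : ℕ) (he : 0 < e)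
    [IsPrecomplete (J ^ e) B] : IsPrecomplete J B := by
  refine ⟨fun f hf => ?_⟩
  have hcauchy : ∀ {m n : ℕ}, m ≤ n →
      f (e * m) ≡ f (e * n) [SMOD ((J ^ e) ^ m • ⊤ : Submodule B B)] := by
    intro m n hmn
    have h1 := hf (Nat.mul_le_mul_left e hmn)
    rw [← pow_mul]
    exact h1
  obtain ⟨L, hL⟩ := IsPrecomplete.prec' (I := J ^ e) (fun k => f (e * k)) hcauchy
  refine ⟨L, fun n => ?_⟩
  have h1 : f n ≡ f (e * n) [SMOD (J ^ n • ⊤ : Submodule B B)] :=
    hf (Nat.le_mul_of_pos_left n he)
  have h2 : f (e * n) ≡ L [SMOD (J ^ n • ⊤ : Submodule B B)] := by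
    have h3 := hL n
    rw [← pow_mul] at h3
    rw [SModEq.sub_mem] at h3 ⊢
    have hle : (J ^ (e * n) • ⊤ : Submodule B B) ≤ J ^ n • ⊤ :=
      Submodule.smul_mono_left (Ideal.pow_le_pow_right (Nat.le_mul_of_pos_left n he))
    exact hle h3
  exact h1.trans h2

end Topology

section IntegralClosure

theorem S30OE_charZero_K (A : Type*) [CommRing A] [IsDomain A] [IsDiscreteValuationRing A]
    (K : Type*) [Field K] [Algebra A K] [IsFractionRing A K]
    (E : Type*) [Field E] [Algebra K E] [Algebra A E] [IsScalarTower A K E]
    [FiniteDimensional K E] [CharZero A] : CharZero K :=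
  charZero_of_injective_algebraMap (IsFractionRing.injective A K)

theorem S30OE_isSeparable (A : Type*) [CommRing A] [IsDomain A] [IsDiscreteValuationRing A]
    (K : Type*) [Field K] [Algebra A K] [IsFractionRing A K]
    (E : Type*) [Field E] [Algebra K E] [Algebra A E] [IsScalarTower A K E]
    [FiniteDimensional K E] [CharZero A] : Algebra.IsSeparable K E := by
  haveI := S30OE_charZero_K A K E
  infer_instance

theorem S30OE_algebraMap_injective (A : Type*) [CommRing A] [IsDomain A] [IsDiscreteValuationRing A]
    (K : Type*) [Field K] [Algebra A K] [IsFractionRing A K]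
    (E : Type*) [Field E] [Algebra K E] [Algebra A E] [IsScalarTower A K E]
    [FiniteDimensional K E] : Function.Injective (algebraMap A E) := by
  rw [IsScalarTower.algebraMap_eq A K E]
  exact (algebraMap K E).injective.comp (IsFractionRing.injective A K)

theorem S30OE_finite (A : Type*) [CommRing A] [IsDomain A] [IsDiscreteValuationRing A]
    (K : Type*) [Field K] [Algebra A K] [IsFractionRing A K]
    (E : Type*) [Field E] [Algebra K E] [Algebra A E] [IsScalarTower A K E]
    [FiniteDimensional K E] [CharZero A] : Module.Finite A (integralClosure A E) := by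
  haveI := S30OE_isSeparable A K E
  exact IsIntegralClosure.finite A K E (integralClosure A E)

theorem S30OE_isTorsionFree (A : Type*) [CommRing A] [IsDomain A] [IsDiscreteValuationRing A]
    (K : Type*) [Field K] [Algebra A K] [IsFractionRing A K]
    (E : Type*) [Field E] [Algebra K E] [Algebra A E] [IsScalarTower A K E]
    [FiniteDimensional K E] : Module.IsTorsionFree A E := by
  haveI : FaithfulSMul A E := (faithfulSMul_iff_algebraMap_injective A E).mpr
    (S30OE_algebraMap_injective A K E)
  infer_instance

theorem S30OE_free (A : Type*) [CommRing A] [IsDomain A] [IsDiscreteValuationRing A]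
    (K : Type*) [Field K] [Algebra A K] [IsFractionRing A K]
    (E : Type*) [Field E] [Algebra K E] [Algebra A E] [IsScalarTower A K E]
    [FiniteDimensional K E] [CharZero A] : Module.Free A (integralClosure A E) := by
  haveI := S30OE_isSeparable A K E
  haveI := S30OE_isTorsionFree A K E
  exact IsIntegralClosure.module_free A K E (integralClosure A E)

theorem S30OE_isDedekindDomain (A : Type*) [CommRing A] [IsDomain A] [IsDiscreteValuationRing A]
    (K : Type*) [Field K] [Algebra A K] [IsFractionRing A K]
    (E : Type*) [Field E] [Algebra K E] [Algebra A E] [IsScalarTower A K E]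
    [FiniteDimensional K E] [CharZero A] : IsDedekindDomain (integralClosure A E) := by
  haveI := S30OE_isSeparable A K E
  exact integralClosure.isDedekindDomain A K E

theorem S30OE_isFractionRing (A : Type*) [CommRing A] [IsDomain A] [IsDiscreteValuationRing A]
    (K : Type*) [Field K] [Algebra A K] [IsFractionRing A K]
    (E : Type*) [Field E] [Algebra K E] [Algebra A E] [IsScalarTower A K E]
    [FiniteDimensional K E] : IsFractionRing (integralClosure A E) E :=
  integralClosure.isFractionRing_of_finite_extension K E

theorem S30OE_injective (A : Type*) [CommRing A] [IsDomain A] [IsDiscreteValuationRing A]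
    (K : Type*) [Field K] [Algebra A K] [IsFractionRing A K]
    (E : Type*) [Field E] [Algebra K E] [Algebra A E] [IsScalarTower A K E]
    [FiniteDimensional K E] : Function.Injective (algebraMap A (integralClosure A E)) := by
  intro x y h
  apply S30OE_algebraMap_injective A K E
  have := congrArg (algebraMap (integralClosure A E) E) h
  rwa [← IsScalarTower.algebraMap_apply, ← IsScalarTower.algebraMap_apply] at this

/-- `B` is complete for the ideal generated by the maximal ideal of `A`. -/
theorem S30OE_isAdicComplete_map (A : Type*) [CommRing A] [IsDomain A] [IsDiscreteValuationRing A]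
    (K : Type*) [Field K] [Algebra A K] [IsFractionRing A K]
    (E : Type*) [Field E] [Algebra K E] [Algebra A E] [IsScalarTower A K E]
    [FiniteDimensional K E] [CharZero A] [IsAdicComplete (maximalIdeal A) A] :
    IsAdicComplete ((maximalIdeal A).map (algebraMap A (integralClosure A E)))
      (integralClosure A E) := by
  haveI := S30OE_finite A K E
  haveI := S30OE_free A K E
  rw [IsAdicComplete.map_algebraMap_iff]
  haveI : IsPrecomplete (maximalIdeal A) (integralClosure A E) :=
    S30OE_isPrecomplete_of_basis (maximalIdeal A)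
      (Module.Free.chooseBasis A (integralClosure A E))
  exact { }

theorem S30OE_map_ne_top (A : Type*) [CommRing A] [IsDomain A] [IsDiscreteValuationRing A]
    (K : Type*) [Field K] [Algebra A K] [IsFractionRing A K]
    (E : Type*) [Field E] [Algebra K E] [Algebra A E] [IsScalarTower A K E]
    [FiniteDimensional K E] [CharZero A] [IsAdicComplete (maximalIdeal A) A] :
    (maximalIdeal A).map (algebraMap A (integralClosure A E)) ≠ ⊤ := by
  haveI := S30OE_isAdicComplete_map A K E
  intro h
  have h1 := IsAdicComplete.le_jacobson_bot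
    ((maximalIdeal A).map (algebraMap A (integralClosure A E)))
  rw [h, top_le_iff, Ideal.jacobson_eq_top_iff] at h1
  exact bot_ne_top h1

theorem S30OE_finite_quot (A : Type*) [CommRing A] [IsDomain A] [IsDiscreteValuationRing A]
    (K : Type*) [Field K] [Algebra A K] [IsFractionRing A K]
    (E : Type*) [Field E] [Algebra K E] [Algebra A E] [IsScalarTower A K E]
    [FiniteDimensional K E] [CharZero A] :
    Module.Finite (A ⧸ maximalIdeal A)
      (integralClosure A E ⧸ (maximalIdeal A).map (algebraMap A (integralClosure A E))) := by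
  haveI := S30OE_finite A K E
  exact Module.Finite.of_restrictScalars_finite A _ _

theorem S30OE_isArtinianRing_quot (A : Type*) [CommRing A] [IsDomain A] [IsDiscreteValuationRing A]
    (K : Type*) [Field K] [Algebra A K] [IsFractionRing A K]
    (E : Type*) [Field E] [Algebra K E] [Algebra A E] [IsScalarTower A K E]
    [FiniteDimensional K E] [CharZero A] :
    IsArtinianRing
      (integralClosure A E ⧸ (maximalIdeal A).map (algebraMap A (integralClosure A E))) := by
  haveI := S30OE_finite_quot A K E
  letI : Field (A ⧸ maximalIdeal A) := Ideal.Quotient.field _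
  exact IsArtinianRing.of_finite (A ⧸ maximalIdeal A) _

theorem S30OE_isLocalRing (A : Type*) [CommRing A] [IsDomain A] [IsDiscreteValuationRing A]
    (K : Type*) [Field K] [Algebra A K] [IsFractionRing A K]
    (E : Type*) [Field E] [Algebra K E] [Algebra A E] [IsScalarTower A K E]
    [FiniteDimensional K E] [CharZero A] [IsAdicComplete (maximalIdeal A) A] :
    IsLocalRing (integralClosure A E) := by
  haveI := S30OE_isAdicComplete_map A K E
  haveI := S30OE_isArtinianRing_quot A K E
  exact S30OE_isLocalRing_of_complete _ (S30OE_map_ne_top A K E)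

theorem S30OE_not_isField (A : Type*) [CommRing A] [IsDomain A] [IsDiscreteValuationRing A]
    (K : Type*) [Field K] [Algebra A K] [IsFractionRing A K]
    (E : Type*) [Field E] [Algebra K E] [Algebra A E] [IsScalarTower A K E]
    [FiniteDimensional K E] : ¬ IsField (integralClosure A E) := by
  intro h
  exact IsDiscreteValuationRing.not_isField A
    (isField_of_isIntegral_of_isField (S30OE_injective A K E) h)

theorem S30OE_isDVR (A : Type*) [CommRing A] [IsDomain A] [IsDiscreteValuationRing A]
    (K : Type*) [Field K] [Algebra A K] [IsFractionRing A K]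
    (E : Type*) [Field E] [Algebra K E] [Algebra A E] [IsScalarTower A K E]
    [FiniteDimensional K E] [CharZero A] [IsAdicComplete (maximalIdeal A) A] :
    IsDiscreteValuationRing (integralClosure A E) := by
  haveI := S30OE_isLocalRing A K E
  haveI hD := S30OE_isDedekindDomain A K E
  have h := (IsDiscreteValuationRing.TFAE (integralClosure A E)
    (S30OE_not_isField A K E)).out 0 2
  exact h.mpr hD

theorem S30OE_map_ne_bot (A : Type*) [CommRing A] [IsDomain A] [IsDiscreteValuationRing A]
    (K : Type*) [Field K] [Algebra A K] [IsFractionRing A K]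
    (E : Type*) [Field E] [Algebra K E] [Algebra A E] [IsScalarTower A K E]
    [FiniteDimensional K E] :
    (maximalIdeal A).map (algebraMap A (integralClosure A E)) ≠ ⊥ := by
  intro h
  obtain ⟨π, hπ⟩ := IsDiscreteValuationRing.exists_irreducible A
  have h1 : algebraMap A (integralClosure A E) π ∈
      (maximalIdeal A).map (algebraMap A (integralClosure A E)) :=
    Ideal.mem_map_of_mem _ ((IsDiscreteValuationRing.irreducible_iff_uniformizer π).mp hπ ▸
      Ideal.mem_span_singleton_self π)
  rw [h, Ideal.mem_bot] at h1
  exact hπ.ne_zero (S30OE_injective A K E (by rw [h1, map_zero]))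

/-- the ideal generated by the maximal ideal of `A` is a positive power of the maximal ideal
of `B` -/
theorem S30OE_exists_pow (A : Type*) [CommRing A] [IsDomain A] [IsDiscreteValuationRing A]
    (K : Type*) [Field K] [Algebra A K] [IsFractionRing A K]
    (E : Type*) [Field E] [Algebra K E] [Algebra A E] [IsScalarTower A K E]
    [FiniteDimensional K E] [CharZero A] [IsAdicComplete (maximalIdeal A) A] :
    letI := S30OE_isLocalRing A K E
    ∃ e : ℕ, 0 < e ∧ (maximalIdeal A).map (algebraMap A (integralClosure A E))
      = maximalIdeal (integralClosure A E) ^ e := by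
  letI := S30OE_isLocalRing A K E
  haveI hV := S30OE_isDVR A K E
  have h := (IsDiscreteValuationRing.TFAE (integralClosure A E)
    (S30OE_not_isField A K E)).out 0 6
  obtain ⟨e, he⟩ := h.mp hV _ (S30OE_map_ne_bot A K E)
  refine ⟨e, ?_, he⟩
  rcases Nat.eq_zero_or_pos e with h0 | h0
  · exfalso
    rw [h0, pow_zero, Ideal.one_eq_top] at he
    exact S30OE_map_ne_top A K E he
  · exact h0

theorem S30OE_isAdicComplete (A : Type*) [CommRing A] [IsDomain A] [IsDiscreteValuationRing A]
    (K : Type*) [Field K] [Algebra A K] [IsFractionRing A K]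
    (E : Type*) [Field E] [Algebra K E] [Algebra A E] [IsScalarTower A K E]
    [FiniteDimensional K E] [CharZero A] [IsAdicComplete (maximalIdeal A) A] :
    letI := S30OE_isLocalRing A K E
    IsAdicComplete (maximalIdeal (integralClosure A E)) (integralClosure A E) := by
  letI := S30OE_isLocalRing A K E
  haveI := S30OE_isDVR A K E
  obtain ⟨e, he0, he⟩ := S30OE_exists_pow A K E
  haveI h1 := S30OE_isAdicComplete_map A K E
  rw [he] at h1
  haveI : IsPrecomplete (maximalIdeal (integralClosure A E) ^ e) (integralClosure A E) :=
    h1.toIsPrecomplete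
  haveI := S30OE_isPrecomplete_of_pow (maximalIdeal (integralClosure A E)) e he0
  exact { }

theorem S30OE_finite_residueField (A : Type*) [CommRing A] [IsDomain A] [IsDiscreteValuationRing A]
    (K : Type*) [Field K] [Algebra A K] [IsFractionRing A K]
    (E : Type*) [Field E] [Algebra K E] [Algebra A E] [IsScalarTower A K E]
    [FiniteDimensional K E] [CharZero A] [IsAdicComplete (maximalIdeal A) A]
    [Finite (ResidueField A)] :
    letI := S30OE_isLocalRing A K E
    Finite (ResidueField (integralClosure A E)) := by
  letI := S30OE_isLocalRing A K E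
  haveI := S30OE_finite_quot A K E
  haveI : Finite (A ⧸ maximalIdeal A) := ‹Finite (ResidueField A)›
  haveI : Finite (integralClosure A E ⧸
      (maximalIdeal A).map (algebraMap A (integralClosure A E))) :=
    Module.finite_of_finite (A ⧸ maximalIdeal A)
  have hle : (maximalIdeal A).map (algebraMap A (integralClosure A E)) ≤
      maximalIdeal (integralClosure A E) :=
    le_maximalIdeal (S30OE_map_ne_top A K E)
  exact Finite.of_surjective (Ideal.Quotient.factor hle) (Ideal.Quotient.factor_surjective hle)

theorem S30OE_charZero (A : Type*) [CommRing A] [IsDomain A] [IsDiscreteValuationRing A]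
    (K : Type*) [Field K] [Algebra A K] [IsFractionRing A K]
    (E : Type*) [Field E] [Algebra K E] [Algebra A E] [IsScalarTower A K E]
    [FiniteDimensional K E] [CharZero A] : CharZero (integralClosure A E) :=
  charZero_of_injective_algebraMap (S30OE_injective A K E)

theorem S30OE_isLocalHom (A : Type*) [CommRing A] [IsDomain A] [IsDiscreteValuationRing A]
    (K : Type*) [Field K] [Algebra A K] [IsFractionRing A K]
    (E : Type*) [Field E] [Algebra K E] [Algebra A E] [IsScalarTower A K E]
    [FiniteDimensional K E] : IsLocalHom (algebraMap A (integralClosure A E)) := by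
  haveI : FaithfulSMul A (integralClosure A E) :=
    (faithfulSMul_iff_algebraMap_injective A _).mpr (S30OE_injective A K E)
  infer_instance

end IntegralClosure

section Final

/-- Packaged in the shape of the existential of the frozen statement S30: a complete DVR `𝒪'`
of characteristic zero with finite residue field has, for every finite extension `E` of its
fraction field `K`, a complete DVR `𝒪''` finite, free, local and injective over `𝒪'`, with
fraction field `E` and whose image in `E` is exactly the set of elements integral over `𝒪'`. -/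
theorem S30OE_exists (𝒪' : Type) [CommRing 𝒪'] [IsDomain 𝒪'] [IsDiscreteValuationRing 𝒪']
    [IsAdicComplete (IsLocalRing.maximalIdeal 𝒪') 𝒪'] [Finite (IsLocalRing.ResidueField 𝒪')]
    [CharZero 𝒪']
    (K : Type*) [Field K] [Algebra 𝒪' K] [IsFractionRing 𝒪' K]
    (E : Type) [Field E] [Algebra K E] [Algebra 𝒪' E] [IsScalarTower 𝒪' K E]
    [FiniteDimensional K E] :
    ∃ (𝒪'' : Type) (_ : CommRing 𝒪'') (_ : IsDomain 𝒪'') (_ : IsDiscreteValuationRing 𝒪'')
      (_ : IsAdicComplete (IsLocalRing.maximalIdeal 𝒪'') 𝒪'')
      (_ : Finite (IsLocalRing.ResidueField 𝒪''))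
      (_ : CharZero 𝒪'') (_ : Algebra 𝒪' 𝒪'') (_ : Module.Finite 𝒪' 𝒪'')
      (_ : IsLocalHom (algebraMap 𝒪' 𝒪''))
      (_ : Algebra 𝒪'' E) (_ : IsScalarTower 𝒪' 𝒪'' E) (_ : IsFractionRing 𝒪'' E),
      Function.Injective (algebraMap 𝒪' 𝒪'') ∧ Module.Free 𝒪' 𝒪'' ∧
        ∀ x : E, IsIntegral 𝒪' x ↔ ∃ y : 𝒪'', algebraMap 𝒪'' E y = x := by
  refine ⟨integralClosure 𝒪' E, inferInstance, inferInstance, S30OE_isDVR 𝒪' K E,
    S30OE_isAdicComplete 𝒪' K E, S30OE_finite_residueField 𝒪' K E, S30OE_charZero 𝒪' K E,
    inferInstance, S30OE_finite 𝒪' K E, S30OE_isLocalHom 𝒪' K E, inferInstance, inferInstance,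
    S30OE_isFractionRing 𝒪' K E, S30OE_injective 𝒪' K E, S30OE_free 𝒪' K E, fun x => ?_⟩
  constructor
  · intro hx
    exact ⟨⟨x, hx⟩, rfl⟩
  · rintro ⟨y, rfl⟩
    exact y.2

end Final

end Fermat.Agent.S30_helper24_OEXT
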