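import Mathlib
import Fermat.Agent.S30_helper27_TATEC
import Fermat.Agent.G_helper6_Contracts
import Fermat.Agent.G_helper6_E2FINAL

/-!
# S30, piece P4: the adic theta map `Θ_∞ : M → T_p J₀(N)` (helper27)

From a compatible family `Θ n : M →+ J₀(N)(ℚ̄)` with `PG_E2 N (p ^ n) (Θ n)`
(= `PG_E2PLUG_adic`, Project G at all moduli `pⁿ`):

* `S30TH_theta N p Θ hΘ : PG_M N →+ S30T_Tate (JZero N) p`, `c ↦ (Θ n c)_n`;
* `S30TH_theta_hecke` : Hecke-equivariance, `T_ℓ (θ c) = θ (T_ℓ c)` for `ℓ` prime, `ℓ ∤ N`;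
* `S30TH_theta_linearIndependent` : `θ` maps a `ℤ`-basis of `M` to a `ℤ_p`-linearly independent
  family;
* `S30TH_theta_injective`.
-/

set_option autoImplicit false
set_option linter.unusedSectionVars false
set_option linter.unusedVariables false
set_option linter.style.haveILetI false

open ModularCurve AlgebraicCurve
open Fermat.Agent.S30_helper1_TATE Fermat.Agent.S30_helper1_TATEF
open Fermat.Agent.G_helper6_Defs Fermat.Agent.G_helper6_E2FINAL
open Fermat.Agent.S30_helper27_TATEC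

noncomputable section

namespace Fermat.Agent.S30_helper27_THETA

variable (N : ℕ) [NeZero N] (p : ℕ) [hp : Fact p.Prime]

/-- The adic theta map. -/
def S30TH_theta (Θ : ℕ → PG_M N →+ JZero N)
    (hΘ : (∀ n, PG_E2 N (p ^ n) (Θ n)) ∧ ∀ (n : ℕ) (c : PG_M N), (p : ℤ) • Θ (n + 1) c = Θ n c) :
    PG_M N →+ S30T_Tate (JZero N) p :=
  S30T_lift Θ
    (fun n c => by
      have h := (hΘ.1 n).tors c
      rw [natCast_zsmul] at h
      exact h)
    (fun n c => by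
      have h := hΘ.2 n c
      rw [natCast_zsmul] at h
      exact h)

variable {N p}

@[simp]
theorem S30TH_theta_apply (Θ : ℕ → PG_M N →+ JZero N)
    (hΘ : (∀ n, PG_E2 N (p ^ n) (Θ n)) ∧ ∀ (n : ℕ) (c : PG_M N), (p : ℤ) • Θ (n + 1) c = Θ n c)
    (c : PG_M N) (n : ℕ) :
    ((S30TH_theta N p Θ hΘ c : S30T_Tate (JZero N) p) : ℕ → JZero N) n = Θ n c := rfl

/-- Hecke-equivariance of the adic theta map. -/
theorem S30TH_theta_hecke (Θ : ℕ → PG_M N →+ JZero N)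
    (hΘ : (∀ n, PG_E2 N (p ^ n) (Θ n)) ∧ ∀ (n : ℕ) (c : PG_M N), (p : ℤ) • Θ (n + 1) c = Θ n c)
    (ℓ : ℕ) (hℓ : ℓ.Prime) (hℓN : ¬ ℓ ∣ N) (c : PG_M N) :
    haveI : NeZero ℓ := ⟨hℓ.ne_zero⟩
    S30TC_T N p ℓ (S30TH_theta N p Θ hΘ c) = S30TH_theta N p Θ hΘ (PG_E2F_TM N ℓ c) := by
  haveI : NeZero ℓ := ⟨hℓ.ne_zero⟩
  apply S30T_ext
  intro n
  rw [S30TC_T_apply hℓ, S30TH_theta_apply, S30TH_theta_apply]
  exact (hΘ.1 n).hecke ⟨ℓ, hℓ⟩ c (PG_E2F_TM N ℓ c) hℓN rfl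

/-- The adic theta map sends a `ℤ`-basis of `M` to a `ℤ_p`-linearly independent family. -/
theorem S30TH_theta_linearIndependent (Θ : ℕ → PG_M N →+ JZero N)
    (hΘ : (∀ n, PG_E2 N (p ^ n) (Θ n)) ∧ ∀ (n : ℕ) (c : PG_M N), (p : ℤ) • Θ (n + 1) c = Θ n c)
    {ι : Type*} [Fintype ι] (b : Module.Basis ι ℤ (PG_M N)) :
    LinearIndependent ℤ_[p] (fun i => S30TH_theta N p Θ hΘ (b i)) := by
  refine S30T_lift_linearIndependent b Θ _ _ ?_
  intro n c hc
  obtain ⟨c', hc'⟩ := (hΘ.1 n).inj c hc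
  refine ⟨c', ?_⟩
  rw [hc', natCast_zsmul]

/-- The adic theta map is injective. -/
theorem S30TH_theta_injective (Θ : ℕ → PG_M N →+ JZero N)
    (hΘ : (∀ n, PG_E2 N (p ^ n) (Θ n)) ∧ ∀ (n : ℕ) (c : PG_M N), (p : ℤ) • Θ (n + 1) c = Θ n c) :
    Function.Injective (S30TH_theta N p Θ hΘ) := by
  haveI : Module.Finite ℤ (PG_M N) := (Fermat.Agent.G_helper3_G2aLATTICE.PG_lattice N).1
  haveI : Module.Free ℤ (PG_M N) := (Fermat.Agent.G_helper3_G2aLATTICE.PG_lattice N).2.1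
  rw [injective_iff_map_eq_zero]
  intro c hc
  let b := Module.Free.chooseBasis ℤ (PG_M N)
  have hli := S30TH_theta_linearIndependent Θ hΘ b
  rw [Fintype.linearIndependent_iff] at hli
  have hrepr : c = ∑ i, b.repr c i • b i := (b.sum_repr c).symm
  have h1 : ∑ i, ((b.repr c i : ℤ) : ℤ_[p]) • S30TH_theta N p Θ hΘ (b i) = 0 := by
    have h2 : ∀ i, ((b.repr c i : ℤ) : ℤ_[p]) • S30TH_theta N p Θ hΘ (b i) =
        S30TH_theta N p Θ hΘ (b.repr c i • b i) := by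
      intro i
      rw [map_zsmul]
      exact Int.cast_smul_eq_zsmul ℤ_[p] (b.repr c i) (S30TH_theta N p Θ hΘ (b i))
    simp_rw [h2]
    rw [← map_sum, ← hrepr, hc]
  have h3 := hli _ h1
  have h4 : ∀ i, b.repr c i = 0 := by
    intro i
    have := h3 i
    exact_mod_cast this
  rw [hrepr]
  exact Finset.sum_eq_zero (fun i _ => by rw [h4 i, zero_smul])

end Fermat.Agent.S30_helper27_THETA
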