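import Mathlib
import Fermat.Agent.S30_helper9_P7

set_option autoImplicit false
set_option linter.unusedSectionVars false
set_option linter.unusedVariables false
set_option linter.deprecated false
set_option linter.style.haveILetI false

/-! # S30/S31, piece Q1 DICKSON-TRACE (helper9)

* `S30Q1_dickson_map` : Dickson polynomials commute with (semilinear) ring homomorphisms;
* `S30Q1_dickson_scalar` : `D_b(t • 1, l) = D_b(t, l) • 1`;
* `S30Q1_trace_pow` : if `charpoly f = X² - t X + d` on a finite free module then
  `trace (f ^ b) = D_b(t, d)`;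
* `S30Q1_quadratic_pow` : `f² - t f + d = 0` implies `(f^b)² - D_b(t,d) f^b + d^b = 0`.
-/

open Polynomial

namespace Fermat.Agent.S30_helper9_Q1

open Fermat.Agent.S30_helper9_P7

section Map

variable {R R' : Type*} [CommRing R] [CommRing R'] {E E' : Type*} [Ring E] [Ring E']
  [Algebra R E] [Algebra R' E']

theorem S30Q1_dickson_map (φ : E →+* E') (ψ : R →+* R')
    (hφ : ∀ (r : R) (e : E), φ (r • e) = ψ r • φ e) (T : E) (l : R) (b : ℕ) :
    φ (S30P7_dickson T l b) = S30P7_dickson (φ T) (ψ l) b := by
  induction b using Nat.strong_induction_on with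
  | _ b ih =>
    match b, ih with
    | 0, _ => rw [S30P7_dickson_zero, S30P7_dickson_zero]; exact map_ofNat φ 2
    | 1, _ => rw [S30P7_dickson_one, S30P7_dickson_one]
    | (b + 2), ih =>
      rw [S30P7_dickson_succ_succ, S30P7_dickson_succ_succ, map_sub, map_mul, hφ,
        ih (b + 1) (by omega), ih b (by omega)]

theorem S30Q1_dickson_algHom {E₂ : Type*} [Ring E₂] [Algebra R E₂] (φ : E →ₐ[R] E₂) (T : E)
    (l : R) (b : ℕ) : φ (S30P7_dickson T l b) = S30P7_dickson (φ T) l b :=
  S30Q1_dickson_map (φ : E →+* E₂) (RingHom.id R) (fun r e => by simp) T l b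

/-- `D_b(t • 1, l) = D_b(t, l) • 1` -/
theorem S30Q1_dickson_scalar (t l : R) (b : ℕ) :
    S30P7_dickson (t • (1 : E)) l b = (S30P7_dickson (E := R) t l b) • (1 : E) := by
  have h := S30Q1_dickson_map (R := R) (R' := R) (E := R) (E' := E) (algebraMap R E) (RingHom.id R)
    (fun r e => by simp [Algebra.smul_def]) t l b
  rw [Algebra.algebraMap_eq_smul_one, Algebra.algebraMap_eq_smul_one] at h
  exact h.symm

end Map

section Quadratic

variable {R : Type*} [CommRing R] {E : Type*} [Ring E] [Algebra R E]

/-- a quadratic relation for `x` gives one for `x ^ b`, with Dickson coefficient -/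
theorem S30Q1_quadratic_pow (x : E) (t d : R)
    (h : x * x - t • x + d • (1 : E) = 0) (b : ℕ) :
    x ^ b * x ^ b - (S30P7_dickson (E := R) t d b) • x ^ b + (d ^ b) • (1 : E) = 0 := by
  set y : E := t • (1 : E) - x with hy
  have hxy : x * y = d • (1 : E) := by
    have h0 : x * x - t • x = -(d • (1 : E)) := eq_neg_of_add_eq_zero_left h
    have : x * y = -(x * x - t • x) := by
      rw [hy, mul_sub, mul_smul_comm, mul_one]; abel
    rw [this, h0, neg_neg]
  have hcomm : x * y = y * x := by
    rw [hy, mul_sub, sub_mul, mul_smul_comm, mul_one, smul_mul_assoc, one_mul]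
  have hsum : x + y = t • (1 : E) := by rw [hy]; abel
  have hD := S30P7_pow_add_pow x y d hxy hcomm b
  rw [hsum, S30Q1_dickson_scalar] at hD
  have hpow : x ^ b * y ^ b = (d ^ b) • (1 : E) := by
    have hc : Commute x y := hcomm
    rw [← hc.mul_pow, hxy, _root_.smul_pow, one_pow]
  have e : (S30P7_dickson (E := R) t d b) • x ^ b = (x ^ b + y ^ b) * x ^ b := by
    rw [hD, smul_mul_assoc, one_mul]
  have hc' : Commute (x ^ b) (y ^ b) := (show Commute x y from hcomm).pow_pow b b
  rw [e, add_mul, ← hc'.eq, hpow]
  abel

end Quadratic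

section Trace

variable {R : Type*} [CommRing R] {V : Type*} [AddCommGroup V] [Module R V]
  [Module.Free R V] [Module.Finite R V]

theorem S30Q1_trace_eq (f : Module.End R V) (t d : R)
    (hf : LinearMap.charpoly f = X ^ 2 - C t * X + C d) : LinearMap.trace R V f = t := by
  classical
  rcases subsingleton_or_nontrivial R with hR | hR
  · exact Subsingleton.elim _ _
  let b := Module.Free.chooseBasis R V
  have h1 : LinearMap.trace R V f = Matrix.trace (LinearMap.toMatrix b b f) :=
    LinearMap.trace_eq_matrix_trace R b f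
  have h2 : (LinearMap.toMatrix b b f).charpoly = X ^ 2 - C t * X + C d := by
    rw [LinearMap.charpoly_toMatrix, hf]
  rw [h1, Matrix.trace_eq_neg_charpoly_nextCoeff, h2]
  have hdeg : (X ^ 2 - C t * X + C d : R[X]).natDegree = 2 := by
    compute_degree!
  rw [Polynomial.nextCoeff_of_natDegree_pos (by rw [hdeg]; norm_num), hdeg]
  simp [Polynomial.coeff_X_pow, Polynomial.coeff_C]

theorem S30Q1_finrank_eq_two [Nontrivial R] (f : Module.End R V) (t d : R)
    (hf : LinearMap.charpoly f = X ^ 2 - C t * X + C d) : Module.finrank R V = 2 := by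
  have h := LinearMap.charpoly_natDegree f
  rw [hf] at h
  have hdeg : (X ^ 2 - C t * X + C d : R[X]).natDegree = 2 := by
    compute_degree!
  rw [hdeg] at h
  exact h.symm

theorem S30Q1_relation (f : Module.End R V) (t d : R)
    (hf : LinearMap.charpoly f = X ^ 2 - C t * X + C d) :
    f * f - t • f + d • (1 : Module.End R V) = 0 := by
  have h := LinearMap.aeval_self_charpoly f
  rw [hf] at h
  simpa [pow_two, Algebra.smul_def] using h

/-- **Dickson trace formula**: `trace (f ^ b) = D_b(t, d)` if `charpoly f = X² - t X + d`. -/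
theorem S30Q1_trace_pow (f : Module.End R V) (t d : R)
    (hf : LinearMap.charpoly f = X ^ 2 - C t * X + C d) (b : ℕ) :
    LinearMap.trace R V (f ^ b) = S30P7_dickson (E := R) t d b := by
  rcases subsingleton_or_nontrivial R with hR | hR
  · exact Subsingleton.elim _ _
  have hrel := S30Q1_relation f t d hf
  induction b using Nat.strong_induction_on with
  | _ b ih =>
    match b, ih with
    | 0, _ =>
      rw [S30P7_dickson_zero, pow_zero, LinearMap.trace_one, S30Q1_finrank_eq_two f t d hf]
      norm_num
    | 1, _ => rw [S30P7_dickson_one, pow_one, S30Q1_trace_eq f t d hf]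
    | (b + 2), ih =>
      rw [S30P7_dickson_succ_succ, ← ih (b + 1) (by omega), ← ih b (by omega)]
      have h1 : f ^ (b + 2) = t • f ^ (b + 1) - d • f ^ b := by
        have h2 : f * f = t • f - d • (1 : Module.End R V) := by
          have := hrel
          rw [sub_add_eq_add_sub, sub_eq_zero] at this
          rw [← this]; abel
        calc f ^ (b + 2) = f ^ b * (f * f) := by rw [pow_add, pow_two]
          _ = f ^ b * (t • f - d • (1 : Module.End R V)) := by rw [h2]
          _ = t • f ^ (b + 1) - d • f ^ b := by
              rw [mul_sub, mul_smul_comm, mul_smul_comm, mul_one, ← pow_succ]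
      rw [h1, map_sub, map_smul, map_smul, smul_eq_mul, smul_eq_mul]

end Trace

end Fermat.Agent.S30_helper9_Q1
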