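import Mathlib

set_option linter.unusedSectionVars false

namespace Fermat.Agent.S53_helper18

open IsLocalRing Matrix

variable {G : Type*} {A : Type*} [CommRing A] [IsLocalRing A]

lemma map_residue_surjective (Y : Matrix (Fin 2) (Fin 2) (ResidueField A)) :
    ∃ X : Matrix (Fin 2) (Fin 2) A, X.map (residue A) = Y := by
  refine ⟨Y.map (Function.surjInv (residue_surjective (R := A))), ?_⟩
  ext i j
  simp [Function.surjInv_eq]

lemma map_residue_sub (X Y : Matrix (Fin 2) (Fin 2) A) :
    (X - Y).map (residue A) = X.map (residue A) - Y.map (residue A) := by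
  ext i j; simp

lemma map_residue_add (X Y : Matrix (Fin 2) (Fin 2) A) :
    (X + Y).map (residue A) = X.map (residue A) + Y.map (residue A) := by
  ext i j; simp

lemma map_residue_mul (X Y : Matrix (Fin 2) (Fin 2) A) :
    (X * Y).map (residue A) = X.map (residue A) * Y.map (residue A) := by
  ext i j; simp [Matrix.mul_apply]

lemma map_residue_smul (c : A) (X : Matrix (Fin 2) (Fin 2) A) :
    (c • X).map (residue A) = residue A c • X.map (residue A) := by
  ext i j; simp

lemma mem_smul_top_of_map_residue_eq_zero (X : Matrix (Fin 2) (Fin 2) A)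
    (h : X.map (residue A) = 0) :
    X ∈ (maximalIdeal A) • (⊤ : Submodule A (Matrix (Fin 2) (Fin 2) A)) := by
  have hX : ∀ i j, X i j ∈ maximalIdeal A := fun i j => by
    have := congrFun (congrFun h i) j
    simpa [Matrix.map_apply] using this
  rw [Matrix.matrix_eq_sum_single X]
  refine Submodule.sum_mem _ fun i _ => Submodule.sum_mem _ fun j _ => ?_
  have : Matrix.single i j (X i j) = (X i j) • Matrix.single i j (1 : A) := by
    simp [Matrix.smul_single]
  rw [this]
  exact Submodule.smul_mem_smul (hX i j) Submodule.mem_top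

/-- Nakayama: if the reductions span, the matrices span. -/
lemma span_eq_top_of_residue (r : G → Matrix (Fin 2) (Fin 2) A)
    (hspan : Submodule.span (ResidueField A)
      (Set.range fun s => (r s).map (residue A)) = ⊤) :
    Submodule.span A (Set.range r) = ⊤ := by
  rw [eq_top_iff]
  apply Submodule.le_of_le_smul_of_le_jacobson_bot (I := maximalIdeal A)
    Module.Finite.fg_top (maximalIdeal_le_jacobson _)
  intro X _
  have key : ∀ Y ∈ Submodule.span (ResidueField A) (Set.range fun s => (r s).map (residue A)),
      ∀ X : Matrix (Fin 2) (Fin 2) A, X.map (residue A) = Y →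
        X ∈ Submodule.span A (Set.range r) ⊔ maximalIdeal A • ⊤ := by
    intro Y hY
    induction hY using Submodule.span_induction with
    | mem Y hY =>
      obtain ⟨s, rfl⟩ := hY
      intro X hX
      have : X = r s + (X - r s) := by abel
      rw [this]
      refine Submodule.add_mem_sup (Submodule.subset_span ⟨s, rfl⟩)
        (mem_smul_top_of_map_residue_eq_zero _ ?_)
      rw [map_residue_sub, hX, sub_self]
    | zero =>
      intro X hX
      exact Submodule.mem_sup_right (mem_smul_top_of_map_residue_eq_zero _ hX)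
    | add Y₁ Y₂ _ _ h₁ h₂ =>
      intro X hX
      obtain ⟨X₁, hX₁⟩ := map_residue_surjective Y₁
      have h2 := h₂ (X - X₁) (by rw [map_residue_sub, hX, hX₁, add_sub_cancel_left])
      have h1 := h₁ X₁ hX₁
      have : X = X₁ + (X - X₁) := by abel
      rw [this]
      exact Submodule.add_mem _ h1 h2
    | smul c Y _ h =>
      intro X hX
      obtain ⟨X₁, hX₁⟩ := map_residue_surjective Y
      obtain ⟨c', rfl⟩ := residue_surjective c
      have h1 := h X₁ hX₁
      have : X = c' • X₁ + (X - c' • X₁) := by abel
      rw [this]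
      refine Submodule.add_mem _ (Submodule.smul_mem _ _ h1)
        (Submodule.mem_sup_right (mem_smul_top_of_map_residue_eq_zero _ ?_))
      rw [map_residue_sub, map_residue_smul, hX, hX₁, sub_self]
  exact key _ (hspan ▸ Submodule.mem_top) X rfl


/-- The trace form on `M₂(A)` is nondegenerate: testing against a spanning set suffices. -/
lemma eq_zero_of_trace_mul_eq_zero {B : Type*} [CommRing B] (r : G → Matrix (Fin 2) (Fin 2) B)
    (hspan : Submodule.span B (Set.range r) = ⊤) (Y : Matrix (Fin 2) (Fin 2) B)
    (h : ∀ s, (Y * r s).trace = 0) : Y = 0 := by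
  have hall : ∀ Z : Matrix (Fin 2) (Fin 2) B, (Y * Z).trace = 0 := by
    intro Z
    have hZ : Z ∈ Submodule.span B (Set.range r) := hspan ▸ Submodule.mem_top
    induction hZ using Submodule.span_induction with
    | mem Z hZ => obtain ⟨s, rfl⟩ := hZ; exact h s
    | zero => simp
    | add Z₁ Z₂ _ _ h₁ h₂ => rw [mul_add, Matrix.trace_add, h₁, h₂, add_zero]
    | smul c Z _ h₁ => rw [Matrix.mul_smul, Matrix.trace_smul, h₁, smul_zero]
  ext i j
  have := hall (Matrix.single j i 1)
  fin_cases i <;> fin_cases j <;>
    simpa [Matrix.trace, Matrix.mul_apply, Matrix.single, Fin.sum_univ_two] using this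

/-- Schur: a matrix commuting with a residually spanning family is scalar. -/
lemma exists_eq_scalar_of_commute (r : G → Matrix (Fin 2) (Fin 2) A)
    (hspan : Submodule.span (ResidueField A)
      (Set.range fun s => (r s).map (residue A)) = ⊤)
    (X : Matrix (Fin 2) (Fin 2) A) (hX : ∀ s, X * r s = r s * X) :
    ∃ a : A, X = Matrix.scalar (Fin 2) a := by
  have htop := span_eq_top_of_residue r hspan
  have hall : ∀ Z : Matrix (Fin 2) (Fin 2) A, X * Z = Z * X := by
    intro Z
    have hZ : Z ∈ Submodule.span A (Set.range r) := htop ▸ Submodule.mem_top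
    induction hZ using Submodule.span_induction with
    | mem Z hZ => obtain ⟨s, rfl⟩ := hZ; exact hX s
    | zero => simp
    | add Z₁ Z₂ _ _ h₁ h₂ => rw [mul_add, add_mul, h₁, h₂]
    | smul c Z _ h₁ => rw [Matrix.mul_smul, Matrix.smul_mul, h₁]
  obtain ⟨a, ha⟩ := Matrix.mem_range_scalar_of_commute_single (M := X)
    (fun i j _ => (hall _).symm)
  exact ⟨a, ha.symm⟩


section Transfer

variable [Monoid G]

/-- The linear-combination map `A[G] → M₂(A)`. -/
noncomputable def pmap (r : G → Matrix (Fin 2) (Fin 2) A) :
    (G →₀ A) →ₗ[A] Matrix (Fin 2) (Fin 2) A :=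
  Finsupp.linearCombination A r

lemma pmap_single (r : G → Matrix (Fin 2) (Fin 2) A) (s : G) :
    pmap r (Finsupp.single s 1) = r s := by
  simp [pmap]

lemma pmap_surjective (r : G → Matrix (Fin 2) (Fin 2) A)
    (hspan : Submodule.span A (Set.range r) = ⊤) : Function.Surjective (pmap r) := by
  rw [← LinearMap.range_eq_top, pmap, Finsupp.range_linearCombination, hspan]

lemma ker_pmap_le (r r' : G →* Matrix (Fin 2) (Fin 2) A)
    (hspan' : Submodule.span A (Set.range r') = ⊤)
    (htr : ∀ s, (r s).trace = (r' s).trace) :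
    LinearMap.ker (pmap (r : G → _)) ≤ LinearMap.ker (pmap (r' : G → _)) := by
  intro a ha
  rw [LinearMap.mem_ker] at ha ⊢
  apply eq_zero_of_trace_mul_eq_zero r' hspan'
  intro t
  have hfun : (Matrix.traceLinearMap (Fin 2) A A) ∘ₗ (LinearMap.mulRight A (r' t)) ∘ₗ
        pmap (r' : G → _) =
      (Matrix.traceLinearMap (Fin 2) A A) ∘ₗ (LinearMap.mulRight A (r t)) ∘ₗ
        pmap (r : G → _) := by
    apply Finsupp.lhom_ext'
    intro s
    ext
    simp [pmap, ← map_mul, htr]
  have := congrArg (fun f => f a) hfun
  simp only [LinearMap.coe_comp, Function.comp_apply, LinearMap.mulRight_apply,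
    Matrix.traceLinearMap_apply] at this
  rw [this, ha]
  simp

/-- The transfer map `Φ : M₂(A) → M₂(A)` with `Φ (r s) = r' s`. -/
noncomputable def transfer (r r' : G →* Matrix (Fin 2) (Fin 2) A)
    (hspan : Submodule.span A (Set.range r) = ⊤)
    (hker : LinearMap.ker (pmap (r : G → _)) ≤ LinearMap.ker (pmap (r' : G → _))) :
    Matrix (Fin 2) (Fin 2) A →ₗ[A] Matrix (Fin 2) (Fin 2) A :=
  (Submodule.liftQ _ (pmap (r' : G → _)) hker) ∘ₗ
    ((pmap (r : G → _)).quotKerEquivOfSurjective (pmap_surjective _ hspan)).symm.toLinearMap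

lemma transfer_pmap (r r' : G →* Matrix (Fin 2) (Fin 2) A)
    (hspan : Submodule.span A (Set.range r) = ⊤)
    (hker : LinearMap.ker (pmap (r : G → _)) ≤ LinearMap.ker (pmap (r' : G → _)))
    (a : G →₀ A) :
    transfer r r' hspan hker (pmap (r : G → _) a) = pmap (r' : G → _) a := by
  have h1 : ((pmap (r : G → _)).quotKerEquivOfSurjective (pmap_surjective _ hspan)).symm
      (pmap (r : G → _) a) = Submodule.Quotient.mk a := by
    rw [LinearEquiv.symm_apply_eq]
    rfl
  simp only [transfer, LinearMap.coe_comp, Function.comp_apply, LinearEquiv.coe_coe, h1,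
    Submodule.liftQ_apply]

lemma transfer_apply (r r' : G →* Matrix (Fin 2) (Fin 2) A)
    (hspan : Submodule.span A (Set.range r) = ⊤)
    (hker : LinearMap.ker (pmap (r : G → _)) ≤ LinearMap.ker (pmap (r' : G → _)))
    (s : G) :
    transfer r r' hspan hker (r s) = r' s := by
  rw [← pmap_single (r : G → _) s, transfer_pmap, pmap_single]

lemma transfer_mul (r r' : G →* Matrix (Fin 2) (Fin 2) A)
    (hspan : Submodule.span A (Set.range r) = ⊤)
    (hker : LinearMap.ker (pmap (r : G → _)) ≤ LinearMap.ker (pmap (r' : G → _)))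
    (X Y : Matrix (Fin 2) (Fin 2) A) :
    transfer r r' hspan hker (X * Y) =
      transfer r r' hspan hker X * transfer r r' hspan hker Y := by
  have hX : X ∈ Submodule.span A (Set.range r) := hspan ▸ Submodule.mem_top
  have hY : Y ∈ Submodule.span A (Set.range r) := hspan ▸ Submodule.mem_top
  induction hX using Submodule.span_induction with
  | mem X hX =>
    obtain ⟨s, rfl⟩ := hX
    induction hY using Submodule.span_induction with
    | mem Y hY =>
      obtain ⟨t, rfl⟩ := hY
      rw [← map_mul, transfer_apply, transfer_apply, transfer_apply, map_mul]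
    | zero => simp
    | add Y₁ Y₂ _ _ h₁ h₂ => rw [mul_add, map_add, map_add, mul_add, h₁, h₂]
    | smul c Y _ h₁ => rw [Matrix.mul_smul, map_smul, map_smul, Matrix.mul_smul, h₁]
  | zero => simp
  | add X₁ X₂ _ _ h₁ h₂ => rw [add_mul, map_add, map_add, add_mul, h₁, h₂]
  | smul c X _ h₁ => rw [Matrix.smul_mul, map_smul, map_smul, Matrix.smul_mul, h₁]

lemma transfer_map_residue (r r' : G →* Matrix (Fin 2) (Fin 2) A)
    (hspan : Submodule.span A (Set.range r) = ⊤)
    (hker : LinearMap.ker (pmap (r : G → _)) ≤ LinearMap.ker (pmap (r' : G → _)))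
    (hres : ∀ s, (r s).map (residue A) = (r' s).map (residue A))
    (X : Matrix (Fin 2) (Fin 2) A) :
    (transfer r r' hspan hker X).map (residue A) = X.map (residue A) := by
  have hX : X ∈ Submodule.span A (Set.range r) := hspan ▸ Submodule.mem_top
  induction hX using Submodule.span_induction with
  | mem X hX =>
    obtain ⟨s, rfl⟩ := hX
    rw [transfer_apply, hres]
  | zero => simp
  | add X₁ X₂ _ _ h₁ h₂ => rw [map_add, map_residue_add, map_residue_add, h₁, h₂]
  | smul c X _ h₁ => rw [map_smul, map_residue_smul, map_residue_smul, h₁]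

end Transfer


section ConjMat

/-- The conjugating matrix attached to a multiplicative map `Φ` of `M₂(A)`:
its columns are the first columns of `Φ E₀₀` and `Φ E₁₀`. -/
def conjMat {B : Type*} [CommRing B] (Φ : Matrix (Fin 2) (Fin 2) B → Matrix (Fin 2) (Fin 2) B) :
    Matrix (Fin 2) (Fin 2) B :=
  Matrix.of ![![Φ (Matrix.single 0 0 1) 0 0, Φ (Matrix.single 1 0 1) 0 0],
    ![Φ (Matrix.single 0 0 1) 1 0, Φ (Matrix.single 1 0 1) 1 0]]

lemma mul_conjMat {B : Type*} [CommRing B]
    (Φ : Matrix (Fin 2) (Fin 2) B →ₗ[B] Matrix (Fin 2) (Fin 2) B)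
    (hmul : ∀ X Y, Φ (X * Y) = Φ X * Φ Y) (X : Matrix (Fin 2) (Fin 2) B) :
    Φ X * conjMat Φ = conjMat Φ * X := by
  have h0 : X * Matrix.single 0 0 1 =
      X 0 0 • Matrix.single 0 0 (1 : B) + X 1 0 • Matrix.single 1 0 (1 : B) := by
    ext i j; fin_cases i <;> fin_cases j <;>
      simp [Matrix.mul_apply, Fin.sum_univ_two, Matrix.single]
  have h1 : X * Matrix.single 1 0 1 =
      X 0 1 • Matrix.single 0 0 (1 : B) + X 1 1 • Matrix.single 1 0 (1 : B) := by
    ext i j; fin_cases i <;> fin_cases j <;>
      simp [Matrix.mul_apply, Fin.sum_univ_two, Matrix.single]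
  have e0 := congrArg Φ h0
  have e1 := congrArg Φ h1
  rw [hmul, map_add, map_smul, map_smul] at e0 e1
  ext i j
  fin_cases j
  · have := congrFun (congrFun e0 i) 0
    simp only [Matrix.mul_apply, Fin.sum_univ_two, Matrix.add_apply, Matrix.smul_apply,
      smul_eq_mul] at this
    fin_cases i <;>
      simp only [conjMat, Matrix.mul_apply, Fin.sum_univ_two, Matrix.of_apply,
        Matrix.cons_val_zero, Matrix.cons_val_one, Fin.zero_eta, Fin.mk_one, Fin.isValue,
        Matrix.cons_val', Matrix.cons_val_fin_one] at this ⊢ <;>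
      linear_combination this
  · have := congrFun (congrFun e1 i) 0
    simp only [Matrix.mul_apply, Fin.sum_univ_two, Matrix.add_apply, Matrix.smul_apply,
      smul_eq_mul] at this
    fin_cases i <;>
      simp only [conjMat, Matrix.mul_apply, Fin.sum_univ_two, Matrix.of_apply,
        Matrix.cons_val_zero, Matrix.cons_val_one, Fin.zero_eta, Fin.mk_one, Fin.isValue,
        Matrix.cons_val', Matrix.cons_val_fin_one] at this ⊢ <;>
      linear_combination this

lemma conjMat_map_residue
    (Φ : Matrix (Fin 2) (Fin 2) A → Matrix (Fin 2) (Fin 2) A)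
    (hΦ : ∀ X, (Φ X).map (residue A) = X.map (residue A)) :
    (conjMat Φ).map (residue A) = 1 := by
  have h0 := hΦ (Matrix.single 0 0 1)
  have h1 := hΦ (Matrix.single 1 0 1)
  ext i j
  fin_cases i <;> fin_cases j
  · have := congrFun (congrFun h0 0) 0
    simpa [conjMat, Matrix.single] using this
  · have := congrFun (congrFun h1 0) 0
    simpa [conjMat, Matrix.single] using this
  · have := congrFun (congrFun h0 1) 0
    simpa [conjMat, Matrix.single] using this
  · have := congrFun (congrFun h1 1) 0
    simpa [conjMat, Matrix.single] using this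

lemma isUnit_of_map_residue_eq_one (u : Matrix (Fin 2) (Fin 2) A)
    (hu : u.map (residue A) = 1) : IsUnit u := by
  rw [Matrix.isUnit_iff_isUnit_det]
  have h : residue A u.det = 1 := by
    rw [RingHom.map_det, RingHom.mapMatrix_apply, hu, Matrix.det_one]
  by_contra hdet
  have : residue A u.det = 0 := (residue_eq_zero_iff _).mpr hdet
  rw [h] at this
  exact one_ne_zero this

end ConjMat

/-- **Carayol uniqueness.** Two matrix representations over a local ring with the same
(residually spanning) reduction and the same traces are conjugate by a matrix reducing to `1`. -/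
theorem conj_of_trace_eq [Monoid G] (r r' : G →* Matrix (Fin 2) (Fin 2) A)
    (hspan : Submodule.span (ResidueField A)
      (Set.range fun s => (r s).map (residue A)) = ⊤)
    (hres : ∀ s, (r s).map (residue A) = (r' s).map (residue A))
    (htr : ∀ s, (r s).trace = (r' s).trace) :
    ∃ u : Matrix (Fin 2) (Fin 2) A, IsUnit u ∧ u.map (residue A) = 1 ∧
      ∀ s, u * r s = r' s * u := by
  have hA := span_eq_top_of_residue (r : G → _) hspan
  have hspan' : Submodule.span (ResidueField A)
      (Set.range fun s => (r' s).map (residue A)) = ⊤ := by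
    have : (fun s => (r' s).map (residue A)) = fun s => (r s).map (residue A) :=
      funext fun s => (hres s).symm
    rw [this]; exact hspan
  have hA' := span_eq_top_of_residue (r' : G → _) hspan'
  have hker := ker_pmap_le r r' hA' htr
  set Φ := transfer r r' hA hker with hΦ
  have hmul := transfer_mul r r' hA hker
  have hred := transfer_map_residue r r' hA hker hres
  refine ⟨conjMat Φ, isUnit_of_map_residue_eq_one _ (conjMat_map_residue _ hred),
    conjMat_map_residue _ hred, fun s => ?_⟩
  rw [← mul_conjMat Φ hmul, hΦ, transfer_apply]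

end Fermat.Agent.S53_helper18
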