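import Mathlib
import Fermat.Prelude.Def_GaloisRep_DeformationRingData
import Fermat.Prelude.Def_GaloisRep_DeformationCondition

set_option autoImplicit false
set_option linter.style.haveILetI false

namespace Fermat.Agent.S53_helper26_H1

theorem burnside_algClosed {K : Type*} [Field K] [IsAlgClosed K] {W : Type*} [AddCommGroup W]
    [Module K W] (hW : Module.finrank K W = 2) (𝒜 : Subalgebra K (Module.End K W))
    (hirr : ∀ U : Submodule K W, (∀ a ∈ 𝒜, ∀ x ∈ U, a x ∈ U) → U = ⊥ ∨ U = ⊤) : 𝒜 = ⊤ := by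
  haveI : FiniteDimensional K W := Module.finite_of_finrank_eq_succ hW
  haveI : Nontrivial W := Module.nontrivial_of_finrank_pos (R := K) (by omega)
  -- transitivity
  have htrans : ∀ v : W, v ≠ 0 → ∀ u : W, ∃ b ∈ 𝒜, b v = u := by
    intro v hv u
    let U : Submodule K W := (Subalgebra.toSubmodule 𝒜).map (LinearMap.applyₗ v)
    have hU : ∀ x, x ∈ U ↔ ∃ a ∈ 𝒜, a v = x := by
      intro x
      simp only [U, Submodule.mem_map, Subalgebra.mem_toSubmodule, LinearMap.applyₗ_apply_apply]
    have hstab : ∀ a ∈ 𝒜, ∀ x ∈ U, a x ∈ U := by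
      intro a ha x hx
      obtain ⟨a', ha', rfl⟩ := (hU x).mp hx
      exact (hU _).mpr ⟨a * a', 𝒜.mul_mem ha ha', rfl⟩
    have hv' : v ∈ U := (hU v).mpr ⟨1, 𝒜.one_mem, rfl⟩
    rcases hirr U hstab with h | h
    · rw [h] at hv'; exact absurd ((Submodule.mem_bot K).mp hv') hv
    · have : u ∈ U := h ▸ Submodule.mem_top
      exact (hU u).mp this
  -- a non-injective nonzero element
  have hex : ∃ a ∈ 𝒜, a ≠ 0 ∧ ∃ v : W, v ≠ 0 ∧ a v = 0 := by
    by_contra hcon
    push Not at hcon
    obtain ⟨v₀, hv₀⟩ := exists_ne (0 : W)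
    have hscal : ∀ a ∈ 𝒜, ∃ μ : K, a = μ • (1 : Module.End K W) := by
      intro a ha
      obtain ⟨μ, hμ⟩ := Module.End.exists_eigenvalue a
      obtain ⟨v, hv⟩ := hμ.exists_hasEigenvector
      refine ⟨μ, ?_⟩
      by_contra hne
      have h1 : a - μ • (1 : Module.End K W) ∈ 𝒜 :=
        𝒜.sub_mem ha (𝒜.smul_mem 𝒜.one_mem μ)
      have h2 : a - μ • (1 : Module.End K W) ≠ 0 := sub_ne_zero.mpr hne
      refine hcon _ h1 h2 v hv.2 ?_
      simp [hv.apply_eq_smul]
    have hstab : ∀ a ∈ 𝒜, ∀ x ∈ Submodule.span K {v₀}, a x ∈ Submodule.span K {v₀} := by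
      intro a ha x hx
      obtain ⟨μ, rfl⟩ := hscal a ha
      simpa using Submodule.smul_mem _ μ hx
    rcases hirr _ hstab with h | h
    · exact hv₀ ((Submodule.span_singleton_eq_bot).mp h)
    · have := finrank_span_singleton (K := K) hv₀
      rw [h, finrank_top, hW] at this
      omega
  obtain ⟨a, ha, ha0, v, hv, hav⟩ := hex
  obtain ⟨w₀, hw₀⟩ : ∃ w₀, a w₀ ≠ 0 := by
    by_contra hcon
    push Not at hcon
    exact ha0 (LinearMap.ext hcon)
  -- (v, w₀) is a basis
  have hli : LinearIndependent K ![v, w₀] := by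
    rw [LinearIndependent.pair_iff]
    intro s t hst
    have h1 := congrArg a hst
    simp only [map_add, map_smul, hav, smul_zero, zero_add, map_zero] at h1
    have ht : t = 0 := by
      rcases smul_eq_zero.mp h1 with h | h
      · exact h
      · exact absurd h hw₀
    subst ht
    simp only [zero_smul, add_zero] at hst
    rcases smul_eq_zero.mp hst with h | h
    · exact ⟨h, rfl⟩
    · exact absurd h hv
  let b : Module.Basis (Fin 2) K W :=
    basisOfLinearIndependentOfCardEqFinrank hli (by simp [hW])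
  have hb0 : b 0 = v := by simp [b]
  have hb1 : b 1 = w₀ := by simp [b]
  obtain ⟨b₁, hb₁, hb₁w⟩ := htrans (a w₀) hw₀ v
  obtain ⟨b₂, hb₂, hb₂w⟩ := htrans (a w₀) hw₀ w₀
  obtain ⟨b₃, hb₃, hb₃w⟩ := htrans v hv w₀
  -- matrix units
  set e12 : Module.End K W := b₁ * a with he12
  set e22 : Module.End K W := b₂ * a with he22
  set e11 : Module.End K W := 1 - e22 with he11
  set e21 : Module.End K W := b₃ * e11 with he21
  have h12 : e12 ∈ 𝒜 := 𝒜.mul_mem hb₁ ha
  have h22 : e22 ∈ 𝒜 := 𝒜.mul_mem hb₂ ha
  have h11 : e11 ∈ 𝒜 := 𝒜.sub_mem 𝒜.one_mem h22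
  have h21 : e21 ∈ 𝒜 := 𝒜.mul_mem hb₃ h11
  have e12v : e12 v = 0 := by simp [he12, hav]
  have e12w : e12 w₀ = v := by simp [he12, hb₁w]
  have e22v : e22 v = 0 := by simp [he22, hav]
  have e22w : e22 w₀ = w₀ := by simp [he22, hb₂w]
  have e11v : e11 v = v := by simp [he11, e22v]
  have e11w : e11 w₀ = 0 := by simp [he11, e22w]
  have e21v : e21 v = w₀ := by simp [he21, e11v, hb₃w]
  have e21w : e21 w₀ = 0 := by simp [he21, e11w]
  rw [eq_top_iff]
  intro f _
  have hf : f = (b.repr (f v) 0) • e11 + (b.repr (f v) 1) • e21 +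
      (b.repr (f w₀) 0) • e12 + (b.repr (f w₀) 1) • e22 := by
    have key : ∀ x : W, x = (b.repr x 0) • v + (b.repr x 1) • w₀ := by
      intro x
      have := b.sum_repr x
      rw [Fin.sum_univ_two, hb0, hb1] at this
      exact this.symm
    apply b.ext
    intro i
    fin_cases i
    · simp only [Fin.zero_eta, hb0, LinearMap.add_apply, LinearMap.smul_apply, e11v, e21v, e12v,
        e22v, smul_zero, add_zero]
      exact key (f v)
    · simp only [Fin.mk_one, hb1, LinearMap.add_apply, LinearMap.smul_apply, e11w, e21w, e12w,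
        e22w, smul_zero, add_zero, zero_add]
      exact key (f w₀)
  rw [hf]
  exact 𝒜.add_mem (𝒜.add_mem (𝒜.add_mem (𝒜.smul_mem h11 _) (𝒜.smul_mem h21 _))
    (𝒜.smul_mem h12 _)) (𝒜.smul_mem h22 _)

open scoped TensorProduct in
/-- Descent of the spanning property along a field extension, via linear functionals. -/
theorem span_eq_top_of_baseChange {k K : Type*} [Field k] [Field K] [Algebra k K]
    {V : Type*} [AddCommGroup V] [Module k V] (b : Module.Basis (Fin 2) k V)
    (S : Set (Module.End k V))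
    (hS : Submodule.span K ((fun X : Module.End k V => X.baseChange K) '' S) =
      (⊤ : Submodule K (Module.End K (K ⊗[k] V)))) :
    Submodule.span k S = ⊤ := by
  classical
  by_contra hne
  obtain ⟨f, hf0, hf⟩ := Submodule.exists_le_ker_of_lt_top _ (lt_top_iff_ne_top.mpr hne)
  let E : Fin 2 → Fin 2 → Module.End k V := fun i j => Matrix.toLin b b (Matrix.single i j 1)
  have hexp : ∀ Y : Module.End k V,
      f Y = ∑ i, ∑ j, (LinearMap.toMatrix b b Y) i j * f (E i j) := by
    intro Y
    have hM : ∀ M : Matrix (Fin 2) (Fin 2) k,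
        Matrix.toLin b b M = ∑ i, ∑ j, M i j • E i j := by
      intro M
      conv_lhs => rw [Matrix.matrix_eq_sum_single M]
      simp only [map_sum]
      refine Finset.sum_congr rfl fun i _ => Finset.sum_congr rfl fun j _ => ?_
      rw [← map_smul]
      congr 1
      ext i' j'
      simp [Matrix.single_apply, Matrix.smul_apply]
    have h1 : Y = ∑ i, ∑ j, (LinearMap.toMatrix b b Y) i j • E i j := by
      rw [← hM, Matrix.toLin_toMatrix]
    conv_lhs => rw [h1]
    simp only [map_sum, map_smul, smul_eq_mul]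
  let bK := Algebra.TensorProduct.basis K b
  have hP : ∀ X ∈ Submodule.span K ((fun X : Module.End k V => X.baseChange K) '' S),
      ∑ i, ∑ j, (LinearMap.toMatrix bK bK X) i j * algebraMap k K (f (E i j)) = 0 := by
    intro X hX
    induction hX using Submodule.span_induction with
    | mem X hX =>
      obtain ⟨Y, hY, rfl⟩ := hX
      have hY0 : f Y = 0 := hf (Submodule.subset_span hY)
      rw [hexp Y] at hY0
      have := congrArg (algebraMap k K) hY0
      simp only [map_sum, map_mul, map_zero] at this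
      rw [LinearMap.toMatrix_baseChange]
      simpa using this
    | zero => simp
    | add X Y _ _ hX hY =>
      simp only [map_add, Matrix.add_apply, add_mul, Finset.sum_add_distrib, hX, hY, add_zero]
    | smul c X _ hX =>
      simp only [map_smul, Matrix.smul_apply, smul_eq_mul, mul_assoc, ← Finset.mul_sum, hX,
        mul_zero]
  apply hf0
  apply LinearMap.ext
  intro Y
  rw [hexp Y]
  refine Finset.sum_eq_zero fun i _ => Finset.sum_eq_zero fun j _ => ?_
  have h4 := hP (Matrix.toLin bK bK (Matrix.single i j 1)) (hS ▸ Submodule.mem_top)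
  rw [LinearMap.toMatrix_toLin] at h4
  have h5 : algebraMap k K (f (E i j)) = 0 := by
    rw [← h4]
    rw [Finset.sum_eq_single i, Finset.sum_eq_single j]
    · simp
    · intro j' _ hj'
      simp [hj'.symm]
    · intro h; exact absurd (Finset.mem_univ j) h
    · intro i' _ hi'
      refine Finset.sum_eq_zero fun j' _ => ?_
      simp [hi'.symm]
    · intro h; exact absurd (Finset.mem_univ i) h
  have h6 : f (E i j) = 0 := (map_eq_zero (algebraMap k K)).mp h5
  rw [h6, mul_zero]

/-- H1 (Burnside). -/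
theorem H1_burnside {k : Type} [Field k] (ρbar : ResidualGaloisRep k)
    (h : ρbar.IsAbsolutelyIrreducible) :
    Submodule.span k (Set.range ρbar.ρ) = (⊤ : Submodule k (Module.End k ρbar.V)) := by
  let K := AlgebraicClosure k
  let ρK := ρbar.baseChange K
  have hA := burnside_algClosed (K := K) (W := ρK.V) ρK.finrank_eq
    (Algebra.adjoin K (Set.range ρK.ρ)) (by
      intro U hU
      exact h U (fun σ x hx => hU _ (Algebra.subset_adjoin ⟨σ, rfl⟩) x hx))
  have h1 : Submodule.span K (Set.range ρK.ρ) = ⊤ := by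
    have h2 := Algebra.adjoin_eq_span (R := K) (Set.range ρK.ρ)
    rw [hA] at h2
    have h3 : (Submonoid.closure (Set.range ρK.ρ) : Set (Module.End K ρK.V)) =
        Set.range ρK.ρ := by
      have : Set.range ρK.ρ = ((MonoidHom.mrange ρK.ρ : Submonoid _) : Set _) := by
        ext x; simp
      rw [this, Submonoid.closure_eq]
    rw [h3] at h2
    rw [← h2]
    rfl
  refine span_eq_top_of_baseChange (K := K) (Module.finBasisOfFinrankEq k ρbar.V ρbar.finrank_eq)
    (Set.range ρbar.ρ) ?_
  rw [← h1]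
  congr 1
  ext X
  constructor
  · rintro ⟨_, ⟨σ, rfl⟩, rfl⟩
    exact ⟨σ, rfl⟩
  · rintro ⟨σ, rfl⟩
    exact ⟨ρbar.ρ σ, ⟨σ, rfl⟩, rfl⟩

theorem span_range_eq_top_of_absIrr {k : Type} [Field k] (rb : ResidualGaloisRep k)
    (h : rb.IsAbsolutelyIrreducible) :
    Submodule.span k (Set.range rb.ρ) = (⊤ : Submodule k (Module.End k rb.V)) :=
  H1_burnside rb h

/-- Matrix version of Burnside with respect to an arbitrary basis. -/
theorem span_toMatrix_eq_top {k : Type} [Field k] (rb : ResidualGaloisRep k)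
    (h : rb.IsAbsolutelyIrreducible) (b : Module.Basis (Fin 2) k rb.V) :
    Submodule.span k (Set.range fun σ => LinearMap.toMatrix b b (rb.ρ σ)) =
      (⊤ : Submodule k (Matrix (Fin 2) (Fin 2) k)) := by
  have h1 := H1_burnside rb h
  have h2 : (Set.range fun σ => LinearMap.toMatrix b b (rb.ρ σ)) =
      (LinearMap.toMatrix b b : Module.End k rb.V ≃ₗ[k] Matrix (Fin 2) (Fin 2) k) ''
        (Set.range rb.ρ) := by
    ext X
    constructor
    · rintro ⟨σ, rfl⟩
      exact ⟨rb.ρ σ, ⟨σ, rfl⟩, rfl⟩
    · rintro ⟨_, ⟨σ, rfl⟩, rfl⟩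
      exact ⟨σ, rfl⟩
  rw [h2, ← LinearEquiv.coe_coe, ← Submodule.map_span, h1, Submodule.map_top,
    LinearEquiv.range]

/-- Spanning all `2 × 2` matrices is preserved under extension of the coefficient field. -/
theorem span_range_map_eq_top {G : Type*} {k k' : Type*} [Field k] [Field k'] (κ : k →+* k')
    (r : G → Matrix (Fin 2) (Fin 2) k)
    (h : Submodule.span k (Set.range r) = (⊤ : Submodule k (Matrix (Fin 2) (Fin 2) k))) :
    Submodule.span k' (Set.range fun g => (r g).map κ) =
      (⊤ : Submodule k' (Matrix (Fin 2) (Fin 2) k')) := by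
  have hall : ∀ X : Matrix (Fin 2) (Fin 2) k,
      X.map κ ∈ Submodule.span k' (Set.range fun g => (r g).map κ) := by
    intro X
    have hX : X ∈ Submodule.span k (Set.range r) := h ▸ Submodule.mem_top
    induction hX using Submodule.span_induction with
    | mem X hX =>
      obtain ⟨g, rfl⟩ := hX
      exact Submodule.subset_span ⟨g, rfl⟩
    | zero =>
      have : (0 : Matrix (Fin 2) (Fin 2) k).map κ = 0 := by
        ext i j; simp
      rw [this]; exact Submodule.zero_mem _
    | add X Y _ _ hX hY =>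
      have : (X + Y).map κ = X.map κ + Y.map κ := by
        ext i j; simp
      rw [this]; exact Submodule.add_mem _ hX hY
    | smul c X _ hX =>
      have : (c • X).map κ = κ c • X.map κ := by
        ext i j; simp
      rw [this]; exact Submodule.smul_mem _ _ hX
  rw [eq_top_iff]
  intro Y _
  rw [Matrix.matrix_eq_sum_single Y]
  refine Submodule.sum_mem _ fun i _ => Submodule.sum_mem _ fun j _ => ?_
  have h1 : Matrix.single i j (Y i j) = Y i j • (Matrix.single i j (1 : k)).map κ := by
    ext i' j'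
    simp [Matrix.single_apply]
  rw [h1]
  exact Submodule.smul_mem _ _ (hall _)

end Fermat.Agent.S53_helper26_H1
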