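import Mathlib
import Fermat.Prelude.Def_CuspForm_HeckeGaloisRepDatum
import Fermat.Agent.S53_helper26_H1
import Fermat.Agent.S53_helper18_Carayol

/-!
# S31, piece P1 (trace criterion)

For an adic Galois representation `ρ` over a local ring `T` with absolutely irreducible
residual representation: if `tr ρ (σ g) = tr ρ (g)` for all `g`, then `ρ σ = 1`.
-/

set_option autoImplicit false
set_option linter.style.haveILetI false

open IsLocalRing
open scoped TensorProduct

namespace Fermat.Agent.S31_helper3_CAR

local notation "GQ" => (AlgebraicClosure ℚ ≃ₐ[ℚ] AlgebraicClosure ℚ)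

variable {T : Type} [CommRing T] [IsLocalRing T]

/-- The matrices of `ρ` span `M₂(T)` when the residual representation is absolutely
irreducible. -/
theorem S31CAR_span (ρ : GaloisRepAdic T) (habs : ρ.residual.IsAbsolutelyIrreducible)
    (b : Module.Basis (Fin 2) T ρ.V) :
    Submodule.span T (Set.range fun σ : GQ => LinearMap.toMatrix b b (ρ.ρ σ)) = ⊤ := by
  classical
  apply Fermat.Agent.S53_helper18.span_eq_top_of_residue
  have h1 := Fermat.Agent.S53_helper26_H1.span_toMatrix_eq_top ρ.residual habs
    (Algebra.TensorProduct.basis (ResidueField T) b)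
  convert h1 using 3
  funext σ
  have := LinearMap.toMatrix_baseChange (ResidueField T) (ρ.ρ σ) b b
  rw [ResidueField.algebraMap_eq] at this
  exact this.symm

/-- **Trace criterion.**  If `tr ρ (σ g) = tr ρ g` for all `g` then `ρ σ = 1`. -/
theorem S31CAR_eq_one (ρ : GaloisRepAdic T) (habs : ρ.residual.IsAbsolutelyIrreducible) (σ : GQ)
    (h : ∀ g : GQ, LinearMap.trace T ρ.V (ρ.ρ (σ * g)) = LinearMap.trace T ρ.V (ρ.ρ g)) :
    ρ.ρ σ = 1 := by
  classical
  let b : Module.Basis (Fin 2) T ρ.V := Module.finBasisOfFinrankEq T ρ.V ρ.finrank_eq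
  have hspan := S31CAR_span ρ habs b
  have hY : LinearMap.toMatrix b b (ρ.ρ σ) - 1 = 0 := by
    refine Fermat.Agent.S53_helper18.eq_zero_of_trace_mul_eq_zero
      (fun g : GQ => LinearMap.toMatrix b b (ρ.ρ g)) hspan _ fun g => ?_
    have hg := h g
    rw [LinearMap.trace_eq_matrix_trace T b, LinearMap.trace_eq_matrix_trace T b, map_mul,
      LinearMap.toMatrix_mul] at hg
    rw [sub_mul, one_mul, Matrix.trace_sub, hg, sub_self]
  have h1 : LinearMap.toMatrix b b (ρ.ρ σ) = LinearMap.toMatrix b b (1 : Module.End T ρ.V) := by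
    rw [LinearMap.toMatrix_one]
    exact sub_eq_zero.mp hY
  exact (LinearMap.toMatrix b b).injective h1

end Fermat.Agent.S31_helper3_CAR
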