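import Mathlib
import Fermat.Prelude.Def_CuspForm_HeckeGaloisRepDatum

/-!
# S31: definitions for the trace-congruence route

* `S31_dick t e b` : the Dickson sequence `D_0 = 2`, `D_1 = t`, `D_{b+2} = t D_{b+1} - e D_b`
  (so that `tr (A ^ b) = D_b (tr A, det A)` for `2 × 2` matrices and
  `F ^ b + G ^ b = D_b (F + G, F G)` for commuting `F`, `G`);
* `S31_HC N S p n` : the Hecke congruence property at level `n`: there is a normal subgroup `U`
  of the absolute Galois group, containing an open subgroup and all inertia groups at the primes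
  outside `S`, such that the elements `D_b (T_ℓ, ℓ)` of the Hecke algebra are congruent modulo
  `p ^ n` whenever the corresponding powers of Frobenius lifts agree modulo `U`.
-/

set_option autoImplicit false

namespace Fermat.Agent.S31_helper3_Defs

/-- The Dickson sequence. -/
def S31_dick {R : Type*} [Ring R] (t e : R) : ℕ → R
  | 0 => 2
  | 1 => t
  | (n + 2) => t * S31_dick t e (n + 1) - e * S31_dick t e n

@[simp] theorem S31_dick_zero {R : Type*} [Ring R] (t e : R) : S31_dick t e 0 = 2 := rfl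

@[simp] theorem S31_dick_one {R : Type*} [Ring R] (t e : R) : S31_dick t e 1 = t := rfl

theorem S31_dick_succ_succ {R : Type*} [Ring R] (t e : R) (n : ℕ) :
    S31_dick t e (n + 2) = t * S31_dick t e (n + 1) - e * S31_dick t e n := rfl

/-- Compatibility with ring homomorphisms. -/
theorem S31_dick_map {R R' : Type*} [Ring R] [Ring R'] (φ : R →+* R') (t e : R) (b : ℕ) :
    φ (S31_dick t e b) = S31_dick (φ t) (φ e) b := by
  induction b using Nat.strong_induction_on with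
  | _ b ih =>
    match b, ih with
    | 0, _ => rw [S31_dick_zero, S31_dick_zero, map_ofNat]
    | 1, _ => rw [S31_dick_one, S31_dick_one]
    | (n + 2), ih =>
      rw [S31_dick_succ_succ, S31_dick_succ_succ, map_sub, map_mul, map_mul,
        ih (n + 1) (by omega), ih n (by omega)]

/-- **The Hecke congruence property** at level `n`. -/
def S31_HC (N : ℕ) [NeZero N] (S : Finset ℕ) (p n : ℕ) : Prop :=
  ∃ U : Subgroup (AlgebraicClosure ℚ ≃ₐ[ℚ] AlgebraicClosure ℚ), U.Normal ∧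
    (∃ L : IntermediateField ℚ (AlgebraicClosure ℚ), FiniteDimensional ℚ L ∧
      ∀ τ : AlgebraicClosure ℚ ≃ₐ[ℚ] AlgebraicClosure ℚ, (∀ x ∈ L, τ x = x) → τ ∈ U) ∧
    (∀ q : ℕ, q.Prime → q ∉ S → ∀ A : ValuationSubring (AlgebraicClosure ℚ),
      A.LiesOverPrime q → ∀ τ ∈ A.inertiaSubgroupIn ℚ, τ ∈ U) ∧
    ∀ (ℓ ℓ' : ℕ) (hℓ : ℓ.Prime) (hℓ' : ℓ'.Prime) (hℓN : ¬ ℓ ∣ N) (hℓ'N : ¬ ℓ' ∣ N)
      (hℓS : ℓ ∉ (↑S : Set ℕ)) (hℓ'S : ℓ' ∉ (↑S : Set ℕ))
      (A A' : ValuationSubring (AlgebraicClosure ℚ))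
      (F F' : AlgebraicClosure ℚ ≃ₐ[ℚ] AlgebraicClosure ℚ) (b b' : ℕ),
      A.LiesOverPrime ℓ → A'.LiesOverPrime ℓ' → A.IsFrobeniusAt F ℓ → A'.IsFrobeniusAt F' ℓ' →
      (F ^ b)⁻¹ * F' ^ b' ∈ U →
      ∃ t : CuspForm.heckeAlgebra N 2 (↑S : Set ℕ),
        S31_dick (CuspForm.heckeAlgebra.T hℓ hℓN hℓS : CuspForm.heckeAlgebra N 2 (↑S : Set ℕ))
            ((ℓ : ℕ) : CuspForm.heckeAlgebra N 2 (↑S : Set ℕ)) b
          - S31_dick (CuspForm.heckeAlgebra.T hℓ' hℓ'N hℓ'S : CuspForm.heckeAlgebra N 2 (↑S : Set ℕ))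
            ((ℓ' : ℕ) : CuspForm.heckeAlgebra N 2 (↑S : Set ℕ)) b'
          = ((p ^ n : ℕ) : CuspForm.heckeAlgebra N 2 (↑S : Set ℕ)) * t

end Fermat.Agent.S31_helper3_Defs
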