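import Mathlib
import Fermat.Agent.S31_helper3_Defs

/-!
# S31, piece P2: traces of powers and the Dickson sequence
-/

set_option autoImplicit false
set_option linter.style.haveILetI false
set_option linter.unusedSectionVars false

open Polynomial

namespace Fermat.Agent.S31_helper3_TR

open Fermat.Agent.S31_helper3_Defs

/-- `F ^ b + G ^ b = D_b (F + G, F G)` for commuting `F`, `G`. -/
theorem S31TR_pow_add_pow {E : Type*} [Ring E] (F G : E) (h : Commute F G) (b : ℕ) :
    F ^ b + G ^ b = S31_dick (F + G) (F * G) b := by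
  induction b using Nat.strong_induction_on with
  | _ b ih =>
    match b, ih with
    | 0, _ => rw [S31_dick_zero, pow_zero, pow_zero, one_add_one_eq_two]
    | 1, _ => rw [S31_dick_one, pow_one, pow_one]
    | (n + 2), ih =>
      rw [S31_dick_succ_succ, ← ih (n + 1) (by omega), ← ih n (by omega)]
      have e1 : F ^ (n + 2) = F * F ^ (n + 1) := pow_succ' F (n + 1)
      have e2 : G ^ (n + 2) = G * G ^ (n + 1) := pow_succ' G (n + 1)
      have e3 : G * F ^ (n + 1) = F * G * F ^ n := by
        rw [pow_succ' F n, ← mul_assoc, h.eq]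
      have e4 : F * G ^ (n + 1) = F * G * G ^ n := by
        rw [pow_succ' G n, ← mul_assoc]
      rw [add_mul, mul_add, mul_add, mul_add, ← e1, ← e2, e3, e4]
      abel

/-- If `F * G = e` is central-like (commutes) then `F ^ b * (D_b (F + G, e) - F ^ b) = e ^ b`. -/
theorem S31TR_pow_mul_sub {E : Type*} [Ring E] (F G : E) (h : Commute F G) (b : ℕ) :
    F ^ b * (S31_dick (F + G) (F * G) b - F ^ b) = (F * G) ^ b := by
  rw [← S31TR_pow_add_pow F G h b, add_sub_cancel_left, h.mul_pow]

section Trace

variable {T : Type*} [CommRing T] {V : Type*} [AddCommGroup V] [Module T V]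
  [Module.Free T V] [Module.Finite T V]

/-- Trace from the characteristic polynomial in rank `2`. -/
theorem S31TR_trace_eq (hV : Module.finrank T V = 2) (f : Module.End T V) (a e : T)
    (hf : LinearMap.charpoly f = X ^ 2 - C a * X + C e) :
    LinearMap.trace T V f = a := by
  classical
  by_cases hT : Nontrivial T
  · let b : Module.Basis (Fin 2) T V := Module.finBasisOfFinrankEq T V hV
    rw [LinearMap.trace_eq_matrix_trace T b, Matrix.trace_eq_neg_charpoly_coeff,
      LinearMap.charpoly_toMatrix, hf]
    simp [coeff_C, coeff_X_pow]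
  · rw [not_nontrivial_iff_subsingleton] at hT
    exact Subsingleton.elim _ _

/-- Cayley–Hamilton in rank `2`. -/
theorem S31TR_sq_eq (f : Module.End T V) (a e : T)
    (hf : LinearMap.charpoly f = X ^ 2 - C a * X + C e) :
    f ^ 2 = a • f - e • (1 : Module.End T V) := by
  have h := LinearMap.aeval_self_charpoly f
  rw [hf] at h
  simp only [map_sub, map_add, map_mul, map_pow, aeval_X, aeval_C] at h
  rw [Algebra.algebraMap_eq_smul_one, Algebra.algebraMap_eq_smul_one, smul_mul_assoc,
    one_mul] at h
  rw [← sub_eq_zero, ← h]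
  abel

/-- **Traces of powers**: `tr (f ^ b) = D_b (a, e)` when `charpoly f = X² - a X + e`. -/
theorem S31TR_trace_pow (hV : Module.finrank T V = 2) (f : Module.End T V) (a e : T)
    (hf : LinearMap.charpoly f = X ^ 2 - C a * X + C e) (b : ℕ) :
    LinearMap.trace T V (f ^ b) = S31_dick a e b := by
  induction b using Nat.strong_induction_on with
  | _ b ih =>
    match b, ih with
    | 0, _ =>
      rw [pow_zero, LinearMap.trace_one, hV, S31_dick_zero]
      norm_num
    | 1, _ => rw [pow_one, S31_dick_one, S31TR_trace_eq hV f a e hf]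
    | (n + 2), ih =>
      have h2 := S31TR_sq_eq f a e hf
      have e1 : f ^ (n + 2) = a • f ^ (n + 1) - e • f ^ n := by
        rw [pow_add, h2, mul_sub, mul_smul_comm, mul_smul_comm, mul_one, ← pow_succ]
      rw [e1, map_sub, map_smul, map_smul, ih (n + 1) (by omega), ih n (by omega),
        S31_dick_succ_succ, smul_eq_mul, smul_eq_mul]

/-- Coordinates of elements of `I • ⊤` lie in `I`. -/
theorem S31TR_repr_mem {ι : Type*} (b : Module.Basis ι T V) (I : Ideal T) (x : V)
    (hx : x ∈ I • (⊤ : Submodule T V)) (i : ι) : b.repr x i ∈ I := by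
  refine Submodule.smul_induction_on (p := fun x => b.repr x i ∈ I) hx ?_ ?_
  · intro a ha v _
    rw [map_smul, Finsupp.smul_apply, smul_eq_mul]
    exact I.mul_mem_right _ ha
  · intro x y hx hy
    rw [map_add, Finsupp.add_apply]
    exact I.add_mem hx hy

/-- The trace of an endomorphism with image in `I • V` lies in `I`. -/
theorem S31TR_trace_mem (I : Ideal T) (φ : Module.End T V)
    (hφ : ∀ v : V, φ v ∈ I • (⊤ : Submodule T V)) : LinearMap.trace T V φ ∈ I := by
  classical
  let b := Module.Free.chooseBasis T V
  rw [LinearMap.trace_eq_matrix_trace T b, Matrix.trace]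
  refine I.sum_mem fun i _ => ?_
  rw [Matrix.diag_apply, LinearMap.toMatrix_apply]
  exact S31TR_repr_mem b I _ (hφ _) i

/-- Congruent endomorphisms have congruent traces. -/
theorem S31TR_trace_sub_mem (I : Ideal T) (φ ψ : Module.End T V)
    (h : ∀ v : V, ψ v - v ∈ I • (⊤ : Submodule T V)) :
    LinearMap.trace T V (φ * ψ) - LinearMap.trace T V φ ∈ I := by
  rw [← map_sub]
  apply S31TR_trace_mem
  intro v
  have : (φ * ψ - φ) v = φ (ψ v - v) := by
    rw [LinearMap.sub_apply, Module.End.mul_apply, map_sub]
  rw [this]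
  have hmap : ∀ x ∈ I • (⊤ : Submodule T V), φ x ∈ I • (⊤ : Submodule T V) := by
    intro x hx
    refine Submodule.smul_induction_on (p := fun x => φ x ∈ I • (⊤ : Submodule T V)) hx ?_ ?_
    · intro a ha w _
      rw [map_smul]
      exact Submodule.smul_mem_smul ha Submodule.mem_top
    · intro x y hx hy
      rw [map_add]
      exact Submodule.add_mem _ hx hy
  exact hmap _ (h v)

end Trace

end Fermat.Agent.S31_helper3_TR
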