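import Mathlib
import Fermat.Agent.S31_helper3_CAR
import Fermat.Agent.S31_helper3_TR
import Fermat.Agent.G_helper9_FROBDENS

/-!
# S31, piece P8: assembly

`S31` follows from the Hecke congruence property `S31_HC N S p n` (all `n`), the weak Frobenius
density theorem (G9), adic continuity and the trace criterion.
-/

set_option autoImplicit false
set_option linter.style.haveILetI false
set_option linter.unusedSectionVars false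

open IsLocalRing Polynomial

namespace Fermat.Agent.S31_helper3_ASM

open Fermat.Agent.S31_helper3_Defs Fermat.Agent.S31_helper3_TR Fermat.Agent.S31_helper3_CAR

local notation "GQ" => (AlgebraicClosure ℚ ≃ₐ[ℚ] AlgebraicClosure ℚ)

variable {p : ℕ} {N : ℕ} [NeZero N] {S : Finset ℕ}
  {𝒪 : Type} [CommRing 𝒪] [IsDomain 𝒪] [IsDiscreteValuationRing 𝒪]
  [IsAdicComplete (IsLocalRing.maximalIdeal 𝒪) 𝒪]
  {θ : CuspForm.heckeAlgebra N 2 (↑S : Set ℕ) →+* IsLocalRing.ResidueField 𝒪}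
  {T : Type} [CommRing T] [IsLocalRing T] [IsNoetherianRing T]
  [IsAdicComplete (IsLocalRing.maximalIdeal T) T] [Algebra 𝒪 T] [IsLocalHom (algebraMap 𝒪 T)]
  [Module.Finite 𝒪 T] [Module.Free 𝒪 T]

omit [IsDomain 𝒪] [IsDiscreteValuationRing 𝒪] [IsAdicComplete (IsLocalRing.maximalIdeal 𝒪) 𝒪]
  [IsNoetherianRing T] [IsAdicComplete (IsLocalRing.maximalIdeal T) T] [Module.Finite 𝒪 T]
  [Module.Free 𝒪 T] in
/-- `p` lies in the maximal ideal of `T`. -/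
theorem S31ASM_p_mem [IsLocalRing 𝒪] (hp𝒪 : (p : 𝒪) ∈ IsLocalRing.maximalIdeal 𝒪) :
    (p : T) ∈ IsLocalRing.maximalIdeal T := by
  rw [IsLocalRing.mem_maximalIdeal, mem_nonunits_iff] at hp𝒪 ⊢
  intro hu
  apply hp𝒪
  have : (p : T) = algebraMap 𝒪 T (p : 𝒪) := by rw [map_natCast]
  rw [this] at hu
  exact IsUnit.of_map (algebraMap 𝒪 T) _ hu

/-- The trace of `ρ (F ^ b)` for a Frobenius lift `F`. -/
theorem S31ASM_trace_frob (H : CuspForm.HeckeGaloisRepDatum N (↑S : Set ℕ) 𝒪 θ T)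
    (ℓ : ℕ) (hℓ : ℓ.Prime) (hℓN : ¬ ℓ ∣ N) (hℓS : ℓ ∉ (↑S : Set ℕ))
    (A : ValuationSubring (AlgebraicClosure ℚ)) (hA : A.LiesOverPrime ℓ) (F : GQ)
    (hF : A.IsFrobeniusAt F ℓ) (b : ℕ) :
    LinearMap.trace T H.ρ.V (H.ρ.ρ (F ^ b)) =
      H.π (S31_dick (CuspForm.heckeAlgebra.T hℓ hℓN hℓS : CuspForm.heckeAlgebra N 2 (↑S : Set ℕ))
        ((ℓ : ℕ) : CuspForm.heckeAlgebra N 2 (↑S : Set ℕ)) b) := by
  rw [map_pow, S31TR_trace_pow H.ρ.finrank_eq _ _ _ (H.charpoly_frob ℓ hℓ hℓN hℓS A hA F hF) b,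
    S31_dick_map, map_natCast]

/-- Elements agreeing on the continuity field have congruent traces. -/
theorem S31ASM_trace_congr (ρ : GaloisRepAdic T) (n : ℕ)
    (L : IntermediateField ℚ (AlgebraicClosure ℚ))
    (hL : ∀ σ : GQ, (∀ x ∈ L, σ x = x) →
      ∀ v : ρ.V, ρ.ρ σ v - v ∈ (IsLocalRing.maximalIdeal T ^ n) • (⊤ : Submodule T ρ.V))
    (g g' : GQ) (h : ∀ x ∈ L, g x = g' x) :
    LinearMap.trace T ρ.V (ρ.ρ g') - LinearMap.trace T ρ.V (ρ.ρ g) ∈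
      IsLocalRing.maximalIdeal T ^ n := by
  have hu : ∀ x ∈ L, (g⁻¹ * g') x = x := by
    intro x hx
    rw [AlgEquiv.mul_apply, ← h x hx]
    exact AlgEquiv.symm_apply_apply g x
  have e : ρ.ρ g' = ρ.ρ g * ρ.ρ (g⁻¹ * g') := by
    rw [← map_mul, mul_inv_cancel_left]
  rw [e]
  exact S31TR_trace_sub_mem _ _ _ (hL _ hu)

/-- **S31 from the Hecke congruence property.** -/
theorem S31ASM_of_HC (hp𝒪 : (p : 𝒪) ∈ IsLocalRing.maximalIdeal 𝒪)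
    (hNS : ∀ q : ℕ, q.Prime → q ∣ N → q ∈ S)
    (H : CuspForm.HeckeGaloisRepDatum N (↑S : Set ℕ) 𝒪 θ T)
    (hHC : ∀ n : ℕ, S31_HC N S p n)
    (q : ℕ) (hq : q.Prime) (hqS : q ∉ S) :
    H.ρ.IsUnramifiedAt q := by
  intro A hA σ hσ
  apply S31CAR_eq_one H.ρ H.residual_absIrr σ
  intro g
  have hH : IsHausdorff (IsLocalRing.maximalIdeal T) T := inferInstance
  rw [← sub_eq_zero]
  apply hH.haus
  intro n
  rw [SModEq.zero, smul_eq_mul, Ideal.mul_top]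
  -- the fields
  obtain ⟨L1, hL1fd, hL1⟩ := H.ρ.isAdicContinuous n
  obtain ⟨U, hUn, ⟨L2, hL2fd, hL2⟩, hUin, hUc⟩ := hHC n
  haveI := hL1fd
  haveI := hL2fd
  haveI : FiniteDimensional ℚ (L1 ⊔ L2 : IntermediateField ℚ (AlgebraicClosure ℚ)) :=
    IntermediateField.finiteDimensional_sup L1 L2
  -- Frobenius powers approximating `σ * g` and `g`
  obtain ⟨ℓ, A₁, F, b, hℓ, hℓS, hA₁, hF, hFg⟩ :=
    Fermat.Agent.G_helper9_FROBDENS.PG_frobenius_density (L1 ⊔ L2) (σ * g) S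
  obtain ⟨ℓ', A₂, F', b', hℓ', hℓ'S, hA₂, hF', hF'g⟩ :=
    Fermat.Agent.G_helper9_FROBDENS.PG_frobenius_density (L1 ⊔ L2) g S
  have hℓN : ¬ ℓ ∣ N := fun h => hℓS (hNS ℓ hℓ h)
  have hℓ'N : ¬ ℓ' ∣ N := fun h => hℓ'S (hNS ℓ' hℓ' h)
  have hℓS' : ℓ ∉ (↑S : Set ℕ) := fun h => hℓS (Finset.mem_coe.mp h)
  have hℓ'S' : ℓ' ∉ (↑S : Set ℕ) := fun h => hℓ'S (Finset.mem_coe.mp h)
  -- membership in `U`
  have hu1 : (σ * g)⁻¹ * F ^ b ∈ U := by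
    apply hL2
    intro x hx
    have hx' : x ∈ (L1 ⊔ L2 : IntermediateField ℚ (AlgebraicClosure ℚ)) :=
      (le_sup_right : L2 ≤ L1 ⊔ L2) hx
    rw [AlgEquiv.mul_apply, ← hFg x hx']
    exact AlgEquiv.symm_apply_apply (σ * g) x
  have hu2 : g⁻¹ * F' ^ b' ∈ U := by
    apply hL2
    intro x hx
    have hx' : x ∈ (L1 ⊔ L2 : IntermediateField ℚ (AlgebraicClosure ℚ)) :=
      (le_sup_right : L2 ≤ L1 ⊔ L2) hx
    rw [AlgEquiv.mul_apply, ← hF'g x hx']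
    exact AlgEquiv.symm_apply_apply g x
  have hσU : σ ∈ U := hUin q hq hqS A hA σ hσ
  have hconj : g⁻¹ * σ⁻¹ * g ∈ U := by
    have := hUn.conj_mem σ⁻¹ (U.inv_mem hσU) g⁻¹
    rwa [inv_inv] at this
  have hmem : (F ^ b)⁻¹ * F' ^ b' ∈ U := by
    have e : (F ^ b)⁻¹ * F' ^ b' =
        ((σ * g)⁻¹ * F ^ b)⁻¹ * (g⁻¹ * σ⁻¹ * g) * (g⁻¹ * F' ^ b') := by
      group
    rw [e]
    exact U.mul_mem (U.mul_mem (U.inv_mem hu1) hconj) hu2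
  obtain ⟨t, ht⟩ := hUc ℓ ℓ' hℓ hℓ' hℓN hℓ'N hℓS' hℓ'S' A₁ A₂ F F' b b' hA₁ hA₂ hF hF' hmem
  -- the three congruences
  have c1 := S31ASM_trace_congr H.ρ n L1 hL1 (σ * g) (F ^ b)
    (fun x hx => hFg x ((le_sup_left : L1 ≤ L1 ⊔ L2) hx))
  have c2 := S31ASM_trace_congr H.ρ n L1 hL1 g (F' ^ b')
    (fun x hx => hF'g x ((le_sup_left : L1 ≤ L1 ⊔ L2) hx))
  rw [S31ASM_trace_frob H ℓ hℓ hℓN hℓS' A₁ hA₁ F hF b] at c1
  rw [S31ASM_trace_frob H ℓ' hℓ' hℓ'N hℓ'S' A₂ hA₂ F' hF' b'] at c2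
  have c3 : H.π (S31_dick (CuspForm.heckeAlgebra.T hℓ hℓN hℓS' :
        CuspForm.heckeAlgebra N 2 (↑S : Set ℕ))
        ((ℓ : ℕ) : CuspForm.heckeAlgebra N 2 (↑S : Set ℕ)) b)
      - H.π (S31_dick (CuspForm.heckeAlgebra.T hℓ' hℓ'N hℓ'S' :
        CuspForm.heckeAlgebra N 2 (↑S : Set ℕ))
        ((ℓ' : ℕ) : CuspForm.heckeAlgebra N 2 (↑S : Set ℕ)) b') ∈
      IsLocalRing.maximalIdeal T ^ n := by
    rw [← map_sub, ht, map_mul, map_natCast, Nat.cast_pow]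
    exact Ideal.mul_mem_right _ _ (Ideal.pow_mem_pow (S31ASM_p_mem hp𝒪) n)
  have key : LinearMap.trace T H.ρ.V (H.ρ.ρ (σ * g)) - LinearMap.trace T H.ρ.V (H.ρ.ρ g) =
      -(H.π (S31_dick (CuspForm.heckeAlgebra.T hℓ hℓN hℓS' :
        CuspForm.heckeAlgebra N 2 (↑S : Set ℕ))
        ((ℓ : ℕ) : CuspForm.heckeAlgebra N 2 (↑S : Set ℕ)) b)
        - LinearMap.trace T H.ρ.V (H.ρ.ρ (σ * g)))
      + (H.π (S31_dick (CuspForm.heckeAlgebra.T hℓ hℓN hℓS' :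
        CuspForm.heckeAlgebra N 2 (↑S : Set ℕ))
        ((ℓ : ℕ) : CuspForm.heckeAlgebra N 2 (↑S : Set ℕ)) b)
      - H.π (S31_dick (CuspForm.heckeAlgebra.T hℓ' hℓ'N hℓ'S' :
        CuspForm.heckeAlgebra N 2 (↑S : Set ℕ))
        ((ℓ' : ℕ) : CuspForm.heckeAlgebra N 2 (↑S : Set ℕ)) b'))
      + (H.π (S31_dick (CuspForm.heckeAlgebra.T hℓ' hℓ'N hℓ'S' :
        CuspForm.heckeAlgebra N 2 (↑S : Set ℕ))
        ((ℓ' : ℕ) : CuspForm.heckeAlgebra N 2 (↑S : Set ℕ)) b')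
        - LinearMap.trace T H.ρ.V (H.ρ.ρ g)) := by
    ring
  rw [key]
  exact Ideal.add_mem _ (Ideal.add_mem _ (neg_mem c1) c3) c2

end Fermat.Agent.S31_helper3_ASM
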