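-- Statement S31 (row 30): in a Hecke-Galois datum of level N away from S, the Galois
-- representation is unramified at every prime outside S.
-- Proof: trace criterion (S31_helper3_CAR) + Frobenius density (G9) + the Hecke congruence
-- property (S31_helper3_HC), from the Eichler-Shimura relations on J0(N)[p^k] (S37 closure)
-- and the Hecke-equivariant embedding M / p^k M -> J0(N)[p^k] of Project G.
import Fermat.Statements.S31
import Fermat.Agent.S31_helper3_ASM
import Fermat.Agent.S31_helper3_HC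
import Fermat.Agent.S37_helper8_E1M
import Fermat.Agent.G_helper6_E2PLUG

set_option autoImplicit false
variable {p : ℕ} {N : ℕ} [NeZero N] {S : Finset ℕ}
  {𝒪 : Type} [CommRing 𝒪] [IsDomain 𝒪] [IsDiscreteValuationRing 𝒪]
  [IsAdicComplete (IsLocalRing.maximalIdeal 𝒪) 𝒪]
  {θ : CuspForm.heckeAlgebra N 2 (↑S : Set ℕ) →+* IsLocalRing.ResidueField 𝒪}
  {T : Type} [CommRing T] [IsLocalRing T] [IsNoetherianRing T]
  [IsAdicComplete (IsLocalRing.maximalIdeal T) T] [Algebra 𝒪 T] [IsLocalHom (algebraMap 𝒪 T)]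
  [Module.Finite 𝒪 T] [Module.Free 𝒪 T]
open CuspForm CuspForm.HeckeGaloisRepDatum

namespace Fermat.Agent.S31

theorem result (hp : p.Prime)
    (hp𝒪 : (p : 𝒪) ∈ IsLocalRing.maximalIdeal 𝒪) (hpS : p ∈ S)
    (hNS : ∀ q : ℕ, q.Prime → q ∣ N → q ∈ S)
    (H : CuspForm.HeckeGaloisRepDatum N (↑S : Set ℕ) 𝒪 θ T)
    (q : ℕ) (hq : q.Prime) (hqS : q ∉ S) :
    H.ρ.IsUnramifiedAt q := by
  exact Fermat.Agent.S31_helper3_ASM.S31ASM_of_HC hp𝒪 hNS H
    (Fermat.Agent.S31_helper3_HC.S31HC_main N S p hp hpS hNS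
      (Fermat.Agent.S37_helper8_E1M.S37E1M_pow N p)
      (fun k => Fermat.Agent.G_helper6_E2PLUG.PG_E2PLUG_exists N (p ^ k)
        (pow_pos hp.pos k)))
    q hq hqS

end Fermat.Agent.S31
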