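import Mathlib
import Fermat.Prelude.Def_CuspForm_HeckeGaloisRepDatum
import Fermat.Agent.G_helper9_FROBDENS
import Fermat.Agent.S53_helper18_Carayol
import Fermat.Agent.S53_helper26_H1

/-!
# S31, abstract endgame (helper20)

`S31A_unramified`: for a Hecke–Galois datum `H` of level `N` away from `S`, the representation
`H.ρ` is unramified at a prime `q ∉ S` as soon as the "trace pinning" property `S31A_HT` holds:
for every `n` there is a finite level `L` such that whenever two Frobenius powers `σ ^ b`,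
`σ' ^ b'` (at primes `ℓ, ℓ' ∉ S ∪ {q}`) agree on `L` up to an element of inertia at `q`, the
corresponding Hecke expressions `P_b (T_ℓ, ℓ)` and `P_b' (T_ℓ', ℓ')` agree modulo `p ^ n` in the
Hecke algebra.  No semisimplicity of the Hecke algebra is used.
-/

set_option autoImplicit false
set_option linter.unusedSectionVars false
set_option linter.unusedVariables false
set_option linter.style.haveILetI false
set_option linter.unusedSimpArgs false

open Polynomial IsLocalRing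

namespace Fermat.Agent.S31_helper20_ABS

/-- The Lucas sequence `t_0 = 2, t_1 = t, t_(n+2) = t t_(n+1) - d t_n`
(trace of the `n`-th power of a `2 × 2` matrix of trace `t` and determinant `d`). -/
def S31A_lucas {R : Type*} [CommRing R] (t d : R) : ℕ → R
  | 0 => 2
  | 1 => t
  | (n + 2) => t * S31A_lucas t d (n + 1) - d * S31A_lucas t d n

theorem S31A_lucas_zero {R : Type*} [CommRing R] (t d : R) : S31A_lucas t d 0 = 2 := rfl

theorem S31A_lucas_one {R : Type*} [CommRing R] (t d : R) : S31A_lucas t d 1 = t := rfl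

theorem S31A_lucas_succ_succ {R : Type*} [CommRing R] (t d : R) (n : ℕ) :
    S31A_lucas t d (n + 2) = t * S31A_lucas t d (n + 1) - d * S31A_lucas t d n := rfl

theorem S31A_lucas_map {R R' : Type*} [CommRing R] [CommRing R'] (φ : R →+* R') (t d : R) :
    ∀ n : ℕ, φ (S31A_lucas t d n) = S31A_lucas (φ t) (φ d) n
  | 0 => by rw [S31A_lucas_zero, S31A_lucas_zero, map_ofNat]
  | 1 => by rw [S31A_lucas_one, S31A_lucas_one]
  | (n + 2) => by
    rw [S31A_lucas_succ_succ, S31A_lucas_succ_succ, map_sub, map_mul, map_mul,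
      S31A_lucas_map φ t d (n + 1), S31A_lucas_map φ t d n]

/-- Cayley–Hamilton for `2 × 2` matrices. -/
theorem S31A_cayley {R : Type*} [CommRing R] (M : Matrix (Fin 2) (Fin 2) R) :
    M * M = M.trace • M - M.det • (1 : Matrix (Fin 2) (Fin 2) R) := by
  ext i j
  fin_cases i <;> fin_cases j <;>
    simp [Matrix.mul_apply, Fin.sum_univ_two, Matrix.trace_fin_two, Matrix.det_fin_two] <;> ring

theorem S31A_trace_pow {R : Type*} [CommRing R] (M : Matrix (Fin 2) (Fin 2) R) :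
    ∀ n : ℕ, (M ^ n).trace = S31A_lucas M.trace M.det n
  | 0 => by
    rw [pow_zero, S31A_lucas_zero, Matrix.trace_fin_two]
    simp; norm_num
  | 1 => by rw [pow_one, S31A_lucas_one]
  | (n + 2) => by
    have h : M ^ (n + 2) = M.trace • M ^ (n + 1) - M.det • M ^ n := by
      rw [pow_succ, pow_succ, mul_assoc, S31A_cayley, mul_sub, Matrix.mul_smul, Matrix.mul_smul,
        mul_one, ← pow_succ]
    rw [h, Matrix.trace_sub, Matrix.trace_smul, Matrix.trace_smul, S31A_trace_pow M (n + 1),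
      S31A_trace_pow M n, S31A_lucas_succ_succ, smul_eq_mul, smul_eq_mul]


/-! ### matrices of an adic representation -/

section Rep

variable {T : Type} [CommRing T] [IsLocalRing T]

/-- notation for the absolute Galois group -/
abbrev S31A_GQ : Type := AlgebraicClosure ℚ ≃ₐ[ℚ] AlgebraicClosure ℚ

/-- The matrix of `ρ g` in a basis. -/
noncomputable def S31A_mat (ρ : GaloisRepAdic T) (b : Module.Basis (Fin 2) T ρ.V)
    (g : S31A_GQ) : Matrix (Fin 2) (Fin 2) T :=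
  LinearMap.toMatrix b b (ρ.ρ g)

theorem S31A_mat_one (ρ : GaloisRepAdic T) (b : Module.Basis (Fin 2) T ρ.V) :
    S31A_mat ρ b 1 = 1 := by
  rw [S31A_mat, map_one]
  exact LinearMap.toMatrix_one b

theorem S31A_mat_mul (ρ : GaloisRepAdic T) (b : Module.Basis (Fin 2) T ρ.V) (g h : S31A_GQ) :
    S31A_mat ρ b (g * h) = S31A_mat ρ b g * S31A_mat ρ b h := by
  rw [S31A_mat, map_mul]
  exact LinearMap.toMatrix_mul b _ _

theorem S31A_mat_pow (ρ : GaloisRepAdic T) (b : Module.Basis (Fin 2) T ρ.V) (g : S31A_GQ) :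
    ∀ n : ℕ, S31A_mat ρ b (g ^ n) = S31A_mat ρ b g ^ n
  | 0 => by rw [pow_zero, pow_zero, S31A_mat_one]
  | (n + 1) => by rw [pow_succ, pow_succ, S31A_mat_mul, S31A_mat_pow ρ b g n]

/-- trace and determinant from the characteristic polynomial -/
theorem S31A_trace_det_of_charpoly (ρ : GaloisRepAdic T) (b : Module.Basis (Fin 2) T ρ.V)
    (g : S31A_GQ) (t d : T)
    (h : LinearMap.charpoly (ρ.ρ g) = X ^ 2 - C t * X + C d) :
    (S31A_mat ρ b g).trace = t ∧ (S31A_mat ρ b g).det = d := by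
  have h1 : (S31A_mat ρ b g).charpoly = X ^ 2 - C t * X + C d := by
    rw [S31A_mat, LinearMap.charpoly_toMatrix, h]
  rw [Matrix.charpoly_fin_two] at h1
  have c0 := congrArg (fun f : T[X] => f.coeff 0) h1
  have c1 := congrArg (fun f : T[X] => f.coeff 1) h1
  simp only [coeff_add, coeff_sub, coeff_X_pow, coeff_C_mul, coeff_X_zero, coeff_C_zero,
    coeff_X_one, coeff_C] at c0 c1
  simp at c0 c1
  exact ⟨c1, c0⟩

/-- coordinates of an element of `I • ⊤` lie in `I` -/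
theorem S31A_repr_mem {V : Type} [AddCommGroup V] [Module T V] (b : Module.Basis (Fin 2) T V)
    (I : Ideal T) (v : V) (hv : v ∈ I • (⊤ : Submodule T V)) (i : Fin 2) : b.repr v i ∈ I := by
  refine Submodule.smul_induction_on (p := fun v => b.repr v i ∈ I) hv ?_ ?_
  · intro a ha w _
    rw [map_smul, Finsupp.smul_apply, smul_eq_mul]
    exact I.mul_mem_right _ ha
  · intro x y hx hy
    rw [map_add, Finsupp.add_apply]
    exact I.add_mem hx hy

/-- If `ρ g` is congruent to the identity modulo `I`, the matrix of `g` is congruent to `1`. -/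
theorem S31A_mat_sub_one_mem (ρ : GaloisRepAdic T) (b : Module.Basis (Fin 2) T ρ.V)
    (I : Ideal T) (g : S31A_GQ)
    (h : ∀ v : ρ.V, ρ.ρ g v - v ∈ I • (⊤ : Submodule T ρ.V)) (i j : Fin 2) :
    (S31A_mat ρ b g - 1) i j ∈ I := by
  have h1 : (S31A_mat ρ b g - 1) i j = b.repr (ρ.ρ g (b j) - b j) i := by
    rw [Matrix.sub_apply, S31A_mat, LinearMap.toMatrix_apply, map_sub, Finsupp.sub_apply,
      Matrix.one_apply, Module.Basis.repr_self, Finsupp.single_apply]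
    by_cases hij : i = j
    · simp [hij]
    · simp [hij, Ne.symm hij]
  rw [h1]
  exact S31A_repr_mem b I _ (h (b j)) i

theorem S31A_trace_mul_mem {R : Type*} [CommRing R] (I : Ideal R)
    (X E : Matrix (Fin 2) (Fin 2) R) (hE : ∀ i j, E i j ∈ I) : (X * E).trace ∈ I := by
  rw [Matrix.trace_fin_two]
  simp only [Matrix.mul_apply, Fin.sum_univ_two]
  exact I.add_mem (I.add_mem (I.mul_mem_left _ (hE _ _)) (I.mul_mem_left _ (hE _ _)))
    (I.add_mem (I.mul_mem_left _ (hE _ _)) (I.mul_mem_left _ (hE _ _)))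

/-- traces of two elements agreeing on a continuity level are congruent -/
theorem S31A_trace_congr (ρ : GaloisRepAdic T) (b : Module.Basis (Fin 2) T ρ.V)
    (I : Ideal T) (L : IntermediateField ℚ (AlgebraicClosure ℚ))
    (hL : ∀ σ : S31A_GQ, (∀ x ∈ L, σ x = x) →
      ∀ v : ρ.V, ρ.ρ σ v - v ∈ I • (⊤ : Submodule T ρ.V))
    (g h : S31A_GQ) (hgh : ∀ x ∈ L, g x = h x) :
    (S31A_mat ρ b h).trace - (S31A_mat ρ b g).trace ∈ I := by
  have hfix : ∀ x ∈ L, (g⁻¹ * h) x = x := by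
    intro x hx
    rw [AlgEquiv.mul_apply, ← hgh x hx]
    exact g.symm_apply_apply x
  have hh : h = g * (g⁻¹ * h) := by rw [mul_inv_cancel_left]
  have h1 : S31A_mat ρ b h - S31A_mat ρ b g
      = S31A_mat ρ b g * (S31A_mat ρ b (g⁻¹ * h) - 1) := by
    rw [mul_sub, mul_one, ← S31A_mat_mul, ← hh]
  rw [← Matrix.trace_sub, h1]
  exact S31A_trace_mul_mem I _ _ (S31A_mat_sub_one_mem ρ b I _ (hL _ hfix))

/-- The matrices of a residually absolutely irreducible representation span `M₂(T)`. -/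
theorem S31A_span (ρ : GaloisRepAdic T) (b : Module.Basis (Fin 2) T ρ.V)
    (h : ρ.residual.IsAbsolutelyIrreducible) :
    Submodule.span T (Set.range (S31A_mat ρ b)) = ⊤ := by
  refine Fermat.Agent.S53_helper18.span_eq_top_of_residue (S31A_mat ρ b) ?_
  have h1 := Fermat.Agent.S53_helper26_H1.span_toMatrix_eq_top ρ.residual h
    (Algebra.TensorProduct.basis (ResidueField T) b)
  rw [← h1]
  congr 1
  ext X
  constructor
  · rintro ⟨σ, rfl⟩
    refine ⟨σ, ?_⟩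
    change LinearMap.toMatrix _ _ ((ρ.ρ σ).baseChange (ResidueField T)) = _
    rw [LinearMap.toMatrix_baseChange]
    rfl
  · rintro ⟨σ, rfl⟩
    refine ⟨σ, ?_⟩
    change _ = LinearMap.toMatrix _ _ ((ρ.ρ σ).baseChange (ResidueField T))
    rw [LinearMap.toMatrix_baseChange]
    rfl

/-- an element of a normal intermediate field stays in it under any automorphism -/
theorem S31A_mem_of_normal (L : IntermediateField ℚ (AlgebraicClosure ℚ)) [hL : Normal ℚ L]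
    (τ : S31A_GQ) {x : AlgebraicClosure ℚ} (hx : x ∈ L) : τ x ∈ L := by
  haveI halg : Algebra.IsAlgebraic ℚ (AlgebraicClosure ℚ) := AlgebraicClosure.isAlgebraic ℚ
  haveI hac : IsAlgClosure ℚ (AlgebraicClosure ℚ) := ⟨inferInstance, inferInstance⟩
  haveI hnQ : Normal ℚ (AlgebraicClosure ℚ) := IsAlgClosure.normal ℚ (AlgebraicClosure ℚ)
  have h := (IntermediateField.normal_iff_forall_fieldRange_le (F := ℚ) (K := L)
    (L := AlgebraicClosure ℚ)).1 hL ((τ : AlgebraicClosure ℚ →ₐ[ℚ] AlgebraicClosure ℚ).comp L.val)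
  exact h ⟨⟨x, hx⟩, rfl⟩

end Rep

/-! ### the trace-pinning hypothesis and the theorem -/

section Main

/-- **Trace pinning.**  For every `n` there is a finite level `L` such that whenever two
Frobenius powers `σ ^ b` (at `ℓ`) and `σ' ^ b'` (at `ℓ'`), `ℓ, ℓ' ∉ S ∪ {q}`, satisfy
`σ' ^ b' = σ ^ b ∘ τ` on `L` for some `τ` in an inertia group at `q`, then the Hecke expressions
of their traces agree modulo `p ^ n` in the Hecke algebra. -/
def S31A_HT (p N : ℕ) [NeZero N] (S : Finset ℕ) (q : ℕ) : Prop :=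
  ∀ n : ℕ, ∃ L : IntermediateField ℚ (AlgebraicClosure ℚ), FiniteDimensional ℚ L ∧
    ∀ (ℓ : ℕ) (hℓ : ℓ.Prime) (hℓN : ¬ ℓ ∣ N) (hℓS : ℓ ∉ (↑S : Set ℕ))
      (A : ValuationSubring (AlgebraicClosure ℚ)) (_ : A.LiesOverPrime ℓ)
      (σ : S31A_GQ) (_ : A.IsFrobeniusAt σ ℓ) (b : ℕ)
      (ℓ' : ℕ) (hℓ' : ℓ'.Prime) (hℓ'N : ¬ ℓ' ∣ N) (hℓ'S : ℓ' ∉ (↑S : Set ℕ))
      (A' : ValuationSubring (AlgebraicClosure ℚ)) (_ : A'.LiesOverPrime ℓ')
      (σ' : S31A_GQ) (_ : A'.IsFrobeniusAt σ' ℓ') (b' : ℕ)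
      (P : ValuationSubring (AlgebraicClosure ℚ)) (_ : P.LiesOverPrime q)
      (τ : S31A_GQ) (_ : τ ∈ P.inertiaSubgroupIn ℚ),
      ℓ ≠ q → ℓ' ≠ q →
      (∀ x ∈ L, (σ' ^ b') x = (σ ^ b) (τ x)) →
      ∃ w : CuspForm.heckeAlgebra N 2 (↑S : Set ℕ),
        S31A_lucas (CuspForm.heckeAlgebra.T hℓ' hℓ'N hℓ'S)
            ((ℓ' : ℕ) : CuspForm.heckeAlgebra N 2 (↑S : Set ℕ)) b'
          - S31A_lucas (CuspForm.heckeAlgebra.T hℓ hℓN hℓS)
            ((ℓ : ℕ) : CuspForm.heckeAlgebra N 2 (↑S : Set ℕ)) b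
          = (p : CuspForm.heckeAlgebra N 2 (↑S : Set ℕ)) ^ n * w

variable {p : ℕ} {N : ℕ} [NeZero N] {S : Finset ℕ}
  {𝒪 : Type} [CommRing 𝒪] [IsDomain 𝒪] [IsDiscreteValuationRing 𝒪]
  [IsAdicComplete (IsLocalRing.maximalIdeal 𝒪) 𝒪]
  {θ : CuspForm.heckeAlgebra N 2 (↑S : Set ℕ) →+* IsLocalRing.ResidueField 𝒪}
  {T : Type} [CommRing T] [IsLocalRing T] [IsNoetherianRing T]
  [IsAdicComplete (IsLocalRing.maximalIdeal T) T] [Algebra 𝒪 T] [IsLocalHom (algebraMap 𝒪 T)]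
  [Module.Finite 𝒪 T] [Module.Free 𝒪 T]

theorem S31A_natCast_mem (hp𝒪 : (p : 𝒪) ∈ IsLocalRing.maximalIdeal 𝒪) :
    (p : T) ∈ IsLocalRing.maximalIdeal T := by
  have h1 : (p : T) = algebraMap 𝒪 T (p : 𝒪) := by rw [map_natCast]
  rw [h1]
  exact map_nonunit (algebraMap 𝒪 T) _ hp𝒪

/-- traces are invariant under right multiplication by inertia at `q` -/
theorem S31A_trace_inertia (hp𝒪 : (p : 𝒪) ∈ IsLocalRing.maximalIdeal 𝒪)
    (hNS : ∀ q : ℕ, q.Prime → q ∣ N → q ∈ S)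
    (H : CuspForm.HeckeGaloisRepDatum N (↑S : Set ℕ) 𝒪 θ T)
    (q : ℕ) (hHT : S31A_HT p N S q)
    (b : Module.Basis (Fin 2) T H.ρ.V)
    (P : ValuationSubring (AlgebraicClosure ℚ)) (hP : P.LiesOverPrime q)
    (τ : S31A_GQ) (hτ : τ ∈ P.inertiaSubgroupIn ℚ) (g : S31A_GQ) :
    (S31A_mat H.ρ b (g * τ)).trace = (S31A_mat H.ρ b g).trace := by
  rw [← sub_eq_zero]
  have hkrull := Ideal.iInf_pow_eq_bot_of_isLocalRing (maximalIdeal T)
    (Ideal.IsPrime.ne_top inferInstance)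
  rw [← Ideal.mem_bot, ← hkrull, Ideal.mem_iInf]
  intro n
  obtain ⟨L1, hL1fd, hL1⟩ := hHT n
  obtain ⟨L2, hL2fd, hL2⟩ := H.ρ.isAdicContinuous n
  haveI := hL1fd
  haveI := hL2fd
  haveI halg : Algebra.IsAlgebraic ℚ (AlgebraicClosure ℚ) := AlgebraicClosure.isAlgebraic ℚ
  haveI hac : IsAlgClosure ℚ (AlgebraicClosure ℚ) := ⟨inferInstance, inferInstance⟩
  haveI hnQ : Normal ℚ (AlgebraicClosure ℚ) :=
    IsAlgClosure.normal ℚ (AlgebraicClosure ℚ)
  let L : IntermediateField ℚ (AlgebraicClosure ℚ) :=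
    IntermediateField.normalClosure ℚ (L1 ⊔ L2 : IntermediateField ℚ (AlgebraicClosure ℚ))
      (AlgebraicClosure ℚ)
  haveI hLfd : FiniteDimensional ℚ L := inferInstance
  haveI hLn : Normal ℚ L := normalClosure.normal ℚ _ (AlgebraicClosure ℚ)
  have hL12 : (L1 ⊔ L2 : IntermediateField ℚ (AlgebraicClosure ℚ)) ≤ L :=
    IntermediateField.le_normalClosure _
  have hL1L : L1 ≤ L := le_sup_left.trans hL12
  have hL2L : L2 ≤ L := le_sup_right.trans hL12
  obtain ⟨ℓ, A, σ, e, hℓ, hℓS, hA, hσ, hg⟩ :=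
    Fermat.Agent.G_helper9_FROBDENS.PG_frobenius_density L g (insert q S)
  obtain ⟨ℓ', A', σ', e', hℓ', hℓ'S, hA', hσ', hg'⟩ :=
    Fermat.Agent.G_helper9_FROBDENS.PG_frobenius_density L (g * τ) (insert q S)
  have hℓq : ℓ ≠ q := fun h => hℓS (h ▸ Finset.mem_insert_self _ _)
  have hℓ'q : ℓ' ≠ q := fun h => hℓ'S (h ▸ Finset.mem_insert_self _ _)
  have hℓS' : ℓ ∉ (↑S : Set ℕ) := fun h => hℓS (Finset.mem_insert_of_mem (Finset.mem_coe.1 h))
  have hℓ'S' : ℓ' ∉ (↑S : Set ℕ) :=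
    fun h => hℓ'S (Finset.mem_insert_of_mem (Finset.mem_coe.1 h))
  have hℓN : ¬ ℓ ∣ N := fun h => hℓS' (Finset.mem_coe.2 (hNS ℓ hℓ h))
  have hℓ'N : ¬ ℓ' ∣ N := fun h => hℓ'S' (Finset.mem_coe.2 (hNS ℓ' hℓ' h))
  have hagree : ∀ x ∈ L1, (σ' ^ e') x = (σ ^ e) (τ x) := by
    intro x hx
    rw [← hg' x (hL1L hx), AlgEquiv.mul_apply]
    exact hg (τ x) (S31A_mem_of_normal L τ (hL1L hx))
  obtain ⟨w, hw⟩ := hL1 ℓ hℓ hℓN hℓS' A hA σ hσ e ℓ' hℓ' hℓ'N hℓ'S' A' hA' σ' hσ' e' P hP τ hτ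
    hℓq hℓ'q hagree
  -- traces of the Frobenius powers
  have htr : ∀ (ℓ : ℕ) (hℓ : ℓ.Prime) (hℓN : ¬ ℓ ∣ N) (hℓS : ℓ ∉ (↑S : Set ℕ))
      (A : ValuationSubring (AlgebraicClosure ℚ)) (_ : A.LiesOverPrime ℓ)
      (σ : S31A_GQ) (_ : A.IsFrobeniusAt σ ℓ) (e : ℕ),
      (S31A_mat H.ρ b (σ ^ e)).trace =
        H.π (S31A_lucas (CuspForm.heckeAlgebra.T hℓ hℓN hℓS)
          ((ℓ : ℕ) : CuspForm.heckeAlgebra N 2 (↑S : Set ℕ)) e) := by
    intro ℓ hℓ hℓN hℓS A hA σ hσ e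
    obtain ⟨h1, h2⟩ := S31A_trace_det_of_charpoly H.ρ b σ _ _
      (H.charpoly_frob ℓ hℓ hℓN hℓS A hA σ hσ)
    rw [S31A_mat_pow, S31A_trace_pow, h1, h2, S31A_lucas_map, map_natCast]
  have hc1 := S31A_trace_congr H.ρ b (maximalIdeal T ^ n) L2 hL2 g (σ ^ e)
    (fun x hx => hg x (hL2L hx))
  have hc2 := S31A_trace_congr H.ρ b (maximalIdeal T ^ n) L2 hL2 (g * τ) (σ' ^ e')
    (fun x hx => hg' x (hL2L hx))
  rw [htr ℓ hℓ hℓN hℓS' A hA σ hσ e] at hc1
  rw [htr ℓ' hℓ' hℓ'N hℓ'S' A' hA' σ' hσ' e'] at hc2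
  have hmid : H.π (S31A_lucas (CuspForm.heckeAlgebra.T hℓ' hℓ'N hℓ'S')
        ((ℓ' : ℕ) : CuspForm.heckeAlgebra N 2 (↑S : Set ℕ)) e')
      - H.π (S31A_lucas (CuspForm.heckeAlgebra.T hℓ hℓN hℓS')
        ((ℓ : ℕ) : CuspForm.heckeAlgebra N 2 (↑S : Set ℕ)) e) ∈ maximalIdeal T ^ n := by
    rw [← map_sub, hw, map_mul, map_pow, map_natCast]
    exact Ideal.mul_mem_right _ _ (Ideal.pow_mem_pow (S31A_natCast_mem hp𝒪) n)
  have key : (S31A_mat H.ρ b (g * τ)).trace - (S31A_mat H.ρ b g).trace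
      = -(H.π (S31A_lucas (CuspForm.heckeAlgebra.T hℓ' hℓ'N hℓ'S')
          ((ℓ' : ℕ) : CuspForm.heckeAlgebra N 2 (↑S : Set ℕ)) e')
          - (S31A_mat H.ρ b (g * τ)).trace)
        + (H.π (S31A_lucas (CuspForm.heckeAlgebra.T hℓ' hℓ'N hℓ'S')
          ((ℓ' : ℕ) : CuspForm.heckeAlgebra N 2 (↑S : Set ℕ)) e')
          - H.π (S31A_lucas (CuspForm.heckeAlgebra.T hℓ hℓN hℓS')
          ((ℓ : ℕ) : CuspForm.heckeAlgebra N 2 (↑S : Set ℕ)) e))
        + (H.π (S31A_lucas (CuspForm.heckeAlgebra.T hℓ hℓN hℓS')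
          ((ℓ : ℕ) : CuspForm.heckeAlgebra N 2 (↑S : Set ℕ)) e)
          - (S31A_mat H.ρ b g).trace) := by ring
  rw [key]
  exact Ideal.add_mem _ (Ideal.add_mem _ ((Ideal.neg_mem_iff _).2 hc2) hmid) hc1

/-- **S31, abstract endgame**: trace pinning implies that `H.ρ` is unramified at `q`. -/
theorem S31A_unramified (hp𝒪 : (p : 𝒪) ∈ IsLocalRing.maximalIdeal 𝒪)
    (hNS : ∀ q : ℕ, q.Prime → q ∣ N → q ∈ S)
    (H : CuspForm.HeckeGaloisRepDatum N (↑S : Set ℕ) 𝒪 θ T)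
    (q : ℕ) (hHT : S31A_HT p N S q) :
    H.ρ.IsUnramifiedAt q := by
  intro P hP τ hτ
  let b : Module.Basis (Fin 2) T H.ρ.V := Module.finBasisOfFinrankEq T H.ρ.V H.ρ.finrank_eq
  have hspan := S31A_span H.ρ b H.residual_absIrr
  have hY : S31A_mat H.ρ b τ - 1 = 0 := by
    refine Fermat.Agent.S53_helper18.eq_zero_of_trace_mul_eq_zero (S31A_mat H.ρ b) hspan _ ?_
    intro g
    rw [sub_mul, one_mul, Matrix.trace_sub, Matrix.trace_mul_comm, ← S31A_mat_mul,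
      S31A_trace_inertia hp𝒪 hNS H q hHT b P hP τ hτ g, sub_self]
  have h1 : LinearMap.toMatrix b b (H.ρ.ρ τ) = LinearMap.toMatrix b b 1 := by
    rw [LinearMap.toMatrix_one]
    exact sub_eq_zero.1 hY
  exact (LinearMap.toMatrix b b).injective h1

end Main

end Fermat.Agent.S31_helper20_ABS
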