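import Mathlib
import Fermat.Agent.S31_helper3_TR

/-!
# S31, piece P5: saturation, and the abstract Frobenius argument

* `S31SAT_exists_const`, `S31SAT_pow` : if `Φ : A →+ E` is injective and `E` is a finitely
  generated torsion-free abelian group, there is `c` such that `Φ a ∈ p ^ k E` implies
  `a ∈ p ^ (k - c) A`.
* `S31SAT_exists_smul` : an endomorphism of a torsion-free module with values in `m M` is `m • e`.
* `S31SAT_dick_comm` : intertwining maps intertwine the Dickson sequences.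
* `S31SAT_frob` : the abstract Frobenius argument: if `F² - T F + ℓ = 0`, `F'² - T' F' + ℓ' = 0`,
  `F ^ b = F' ^ b'` is injective and `ℓ ^ b = ℓ' ^ b'` in the endomorphism ring, then
  `D_b (T, ℓ) = D_b' (T', ℓ')`.
-/

set_option autoImplicit false
set_option linter.style.haveILetI false
set_option linter.unusedSectionVars false

namespace Fermat.Agent.S31_helper3_SAT

open Fermat.Agent.S31_helper3_Defs Fermat.Agent.S31_helper3_TR

section Saturation

variable {A E : Type*} [AddCommGroup A] [AddCommGroup E]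

/-- The saturation of the image of `Φ`. -/
def S31SAT_sat (Φ : A →+ E) : Submodule ℤ E where
  carrier := {e | ∃ n : ℕ, 0 < n ∧ ∃ a : A, Φ a = n • e}
  zero_mem' := ⟨1, one_pos, 0, by simp⟩
  add_mem' := by
    rintro e₁ e₂ ⟨n₁, h₁, a₁, ha₁⟩ ⟨n₂, h₂, a₂, ha₂⟩
    refine ⟨n₁ * n₂, Nat.mul_pos h₁ h₂, n₂ • a₁ + n₁ • a₂, ?_⟩
    rw [map_add, map_nsmul, map_nsmul, ha₁, ha₂, smul_add, mul_smul, mul_smul,
      smul_comm n₂ n₁ e₁]
  smul_mem' := by
    rintro z e ⟨n, h, a, ha⟩
    refine ⟨n, h, z • a, ?_⟩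
    rw [map_zsmul, ha, smul_comm]

theorem S31SAT_mem_sat (Φ : A →+ E) (e : E) :
    e ∈ S31SAT_sat Φ ↔ ∃ n : ℕ, 0 < n ∧ ∃ a : A, Φ a = n • e := Iff.rfl

/-- A common denominator for the saturation. -/
theorem S31SAT_exists_denominator [Module.Finite ℤ E] (Φ : A →+ E) :
    ∃ c₀ : ℕ, 0 < c₀ ∧ ∀ e ∈ S31SAT_sat Φ, ∃ a : A, Φ a = c₀ • e := by
  classical
  have hfg : (S31SAT_sat Φ).FG := IsNoetherian.noetherian _
  obtain ⟨n, s, hs⟩ := Submodule.fg_iff_exists_fin_generating_family.1 hfg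
  have hmem : ∀ i, s i ∈ S31SAT_sat Φ := fun i => by
    rw [← hs]
    exact Submodule.subset_span ⟨i, rfl⟩
  choose d hd a ha using hmem
  refine ⟨∏ i, d i, Finset.prod_pos fun i _ => hd i, ?_⟩
  intro e he
  rw [← hs] at he
  induction he using Submodule.span_induction with
  | mem x hx =>
    obtain ⟨i, rfl⟩ := hx
    obtain ⟨q, hq⟩ : d i ∣ ∏ j, d j := Finset.dvd_prod_of_mem d (Finset.mem_univ i)
    refine ⟨q • a i, ?_⟩
    rw [map_nsmul, ha i, hq, mul_comm, mul_smul]
  | zero => exact ⟨0, by simp⟩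
  | add x y _ _ hx hy =>
    obtain ⟨ax, hax⟩ := hx
    obtain ⟨ay, hay⟩ := hy
    exact ⟨ax + ay, by rw [map_add, hax, hay, smul_add]⟩
  | smul z x _ hx =>
    obtain ⟨ax, hax⟩ := hx
    exact ⟨z • ax, by rw [map_zsmul, hax, smul_comm]⟩

/-- **Saturation constant.** -/
theorem S31SAT_exists_const [Module.Finite ℤ E] (Φ : A →+ E) (hΦ : Function.Injective Φ) :
    ∃ c₀ : ℕ, 0 < c₀ ∧ ∀ (a : A) (m : ℕ) (e : E), Φ a = m • e → ∃ a' : A, c₀ • a = m • a' := by
  obtain ⟨c₀, hc₀, h⟩ := S31SAT_exists_denominator Φ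
  refine ⟨c₀, hc₀, fun a m e hae => ?_⟩
  rcases Nat.eq_zero_or_pos m with rfl | hm
  · rw [zero_smul] at hae
    have ha0 : a = 0 := hΦ (by rw [hae, map_zero])
    exact ⟨0, by rw [ha0, smul_zero, smul_zero]⟩
  · obtain ⟨a', ha'⟩ := h e ⟨m, hm, a, hae⟩
    refine ⟨a', hΦ ?_⟩
    rw [map_nsmul, map_nsmul, hae, ha', smul_comm]

/-- **Saturation at a prime.** -/
theorem S31SAT_pow [Module.Finite ℤ E] (hE : ∀ n : ℕ, n ≠ 0 → ∀ e : E, n • e = 0 → e = 0)
    (Φ : A →+ E) (hΦ : Function.Injective Φ) (p : ℕ) (hp : p.Prime) :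
    ∃ c : ℕ, ∀ (a : A) (k : ℕ) (e : E), Φ a = (p ^ k) • e →
      ∃ a' : A, a = (p ^ (k - c)) • a' := by
  obtain ⟨c₀, hc₀, h⟩ := S31SAT_exists_const Φ hΦ
  obtain ⟨c, u, hu, hcu⟩ := Nat.exists_eq_pow_mul_and_not_dvd hc₀.ne' p hp.ne_one
  have hA : ∀ n : ℕ, n ≠ 0 → ∀ a : A, n • a = 0 → a = 0 := by
    intro n hn a ha
    apply hΦ
    rw [map_zero]
    apply hE n hn
    rw [← map_nsmul, ha, map_zero]
  refine ⟨c, fun a k e hae => ?_⟩
  obtain ⟨a', ha'⟩ := h a (p ^ k) e hae
  rcases le_or_gt k c with hkc | hkc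
  · refine ⟨a, ?_⟩
    rw [Nat.sub_eq_zero_of_le hkc, pow_zero, one_smul]
  · -- cancel `p ^ c`
    have h1 : u • a = (p ^ (k - c)) • a' := by
      have h2 : (p ^ c) • (u • a - (p ^ (k - c)) • a') = 0 := by
        rw [smul_sub, ← mul_smul, ← mul_smul, ← hcu, ← pow_add, Nat.add_sub_cancel' hkc.le, ha',
          sub_self]
      exact sub_eq_zero.mp (hA _ (pow_ne_zero c hp.ne_zero) _ h2)
    have hcop : Nat.Coprime u (p ^ (k - c)) :=
      Nat.Coprime.pow_right _ ((Nat.Prime.coprime_iff_not_dvd hp).2 hu).symm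
    have hbez := Int.gcd_eq_gcd_ab (u : ℤ) ((p ^ (k - c) : ℕ) : ℤ)
    rw [Int.gcd_natCast_natCast, hcop.gcd_eq_one] at hbez
    set x := Int.gcdA (u : ℤ) ((p ^ (k - c) : ℕ) : ℤ)
    set y := Int.gcdB (u : ℤ) ((p ^ (k - c) : ℕ) : ℤ)
    refine ⟨x • a' + y • a, ?_⟩
    calc a = ((1 : ℕ) : ℤ) • a := by rw [Nat.cast_one, one_smul]
      _ = ((u : ℤ) * x + ((p ^ (k - c) : ℕ) : ℤ) * y) • a := by rw [hbez]
      _ = x • (u • a) + y • ((p ^ (k - c)) • a) := by
        rw [add_smul, mul_comm (u : ℤ) x, mul_smul, mul_comm ((p ^ (k - c) : ℕ) : ℤ) y,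
          mul_smul, natCast_zsmul, natCast_zsmul]
      _ = (p ^ (k - c)) • (x • a' + y • a) := by
        rw [h1, smul_add, smul_comm (p ^ (k - c)) x a', smul_comm (p ^ (k - c)) y a]

end Saturation

section Divide

variable {M : Type*} [AddCommGroup M]

/-- An endomorphism of a torsion-free abelian group with values in `m M` is `m • e`. -/
theorem S31SAT_exists_smul (hM : ∀ n : ℕ, n ≠ 0 → ∀ x : M, n • x = 0 → x = 0)
    (f : Module.End ℤ M) (m : ℕ) (hm : m ≠ 0) (h : ∀ x : M, ∃ y : M, f x = m • y) :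
    ∃ e : Module.End ℤ M, f = m • e := by
  choose g hg using h
  have hinj : ∀ x y : M, m • x = m • y → x = y := by
    intro x y hxy
    have : m • (x - y) = 0 := by rw [smul_sub, hxy, sub_self]
    exact sub_eq_zero.mp (hM m hm _ this)
  let e : M →+ M :=
    { toFun := g
      map_zero' := by
        apply hinj
        rw [← hg, map_zero, smul_zero]
      map_add' := fun x y => by
        apply hinj
        rw [← hg, map_add, hg, hg, smul_add] }
  refine ⟨e.toIntLinearMap, ?_⟩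
  ext x
  rw [LinearMap.smul_apply]
  exact hg x

end Divide

section Intertwine

theorem S31SAT_two_apply {R : Type*} [CommRing R] {Z : Type*} [AddCommGroup Z] [Module R Z]
    (z : Z) : (2 : Module.End R Z) z = z + z := by
  rw [← one_add_one_eq_two, LinearMap.add_apply, Module.End.one_apply]

theorem S31SAT_natCast_apply {R : Type*} [CommRing R] {Z : Type*} [AddCommGroup Z] [Module R Z]
    (n : ℕ) (z : Z) : (n : Module.End R Z) z = n • z := by
  rw [← nsmul_one, LinearMap.smul_apply, Module.End.one_apply]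

variable {R : Type*} [CommRing R] {X Y : Type*} [AddCommGroup X] [Module R X]
  [AddCommGroup Y] [Module R Y]

/-- Intertwining maps intertwine the Dickson sequences. -/
theorem S31SAT_dick_comm (θ : X →ₗ[R] Y) (tX : Module.End R X) (tY : Module.End R Y)
    (h : ∀ x, θ (tX x) = tY (θ x)) (n b : ℕ) (x : X) :
    θ (S31_dick tX (n : Module.End R X) b x) = S31_dick tY (n : Module.End R Y) b (θ x) := by
  induction b using Nat.strong_induction_on generalizing x with
  | _ b ih =>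
    match b, ih with
    | 0, _ =>
      rw [S31_dick_zero, S31_dick_zero, S31SAT_two_apply, S31SAT_two_apply, map_add]
    | 1, _ => rw [S31_dick_one, S31_dick_one, h]
    | (k + 2), ih =>
      rw [S31_dick_succ_succ, S31_dick_succ_succ, LinearMap.sub_apply, LinearMap.sub_apply,
        Module.End.mul_apply, Module.End.mul_apply, Module.End.mul_apply, Module.End.mul_apply,
        map_sub, h, ih (k + 1) (by omega)]
      congr 1
      rw [S31SAT_natCast_apply, S31SAT_natCast_apply, map_nsmul, ih k (by omega)]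

end Intertwine

section Frobenius

variable {E : Type*} [Ring E]

/-- **The abstract Frobenius argument.** -/
theorem S31SAT_frob (F F' T T' : E) (ℓ ℓ' b b' : ℕ)
    (hFT : Commute F T) (hF'T' : Commute F' T')
    (hES : F * F - T * F + (ℓ : E) = 0) (hES' : F' * F' - T' * F' + (ℓ' : E) = 0)
    (hpow : F ^ b = F' ^ b') (hinj : ∀ z : E, F ^ b * z = 0 → z = 0)
    (hℓ : ((ℓ ^ b : ℕ) : E) = ((ℓ' ^ b' : ℕ) : E)) :
    S31_dick T (ℓ : E) b = S31_dick T' (ℓ' : E) b' := by
  have key : ∀ (F T : E) (ℓ b : ℕ), Commute F T → F * F - T * F + (ℓ : E) = 0 →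
      F ^ b * (S31_dick T (ℓ : E) b - F ^ b) = ((ℓ ^ b : ℕ) : E) := by
    intro F T ℓ b hFT hES
    have hG : F * (T - F) = (ℓ : E) := by
      have : T * F - F * F = (ℓ : E) := by
        calc T * F - F * F = (T * F - F * F) + 0 := by abel
          _ = (T * F - F * F) + (F * F - T * F + (ℓ : E)) := by rw [hES]
          _ = (ℓ : E) := by abel
      rw [mul_sub, hFT.eq]
      exact this
    have hc : Commute F (T - F) := hFT.sub_right (Commute.refl F)
    have h1 := S31TR_pow_mul_sub F (T - F) hc b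
    rw [add_sub_cancel, hG] at h1
    rw [h1, Nat.cast_pow]
  have h1 := key F T ℓ b hFT hES
  have h2 := key F' T' ℓ' b' hF'T' hES'
  rw [← hpow] at h2
  have h3 : F ^ b * (S31_dick T (ℓ : E) b - S31_dick T' (ℓ' : E) b') = 0 := by
    have : F ^ b * (S31_dick T (ℓ : E) b - S31_dick T' (ℓ' : E) b') =
        F ^ b * (S31_dick T (ℓ : E) b - F ^ b) - F ^ b * (S31_dick T' (ℓ' : E) b' - F ^ b) := by
      rw [← mul_sub]
      congr 1
      abel
    rw [this, h1, h2, hℓ, sub_self]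
  exact sub_eq_zero.mp (hinj _ h3)

end Frobenius

end Fermat.Agent.S31_helper3_SAT
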