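import Mathlib
import Fermat.Agent.S31_helper3_SAT
import Fermat.Agent.G_helper6_E2FINAL
import Fermat.Agent.G_helper24_G1cCOMM

/-!
# S31, pieces P4 + P5: the Hecke algebra of cusp forms versus the Hecke operators on the lattice

A pair `(t, e)` of an endomorphism `t` of `S₂(Γ₀(N))` and an endomorphism `e` of the lattice
`M = Hom_par (Γ₀(N), ℤ)` is *compatible* if they correspond under the two isomorphisms
`S₂ × S₂ ≃ Hom_par (Γ₀(N), ℂ) ≃ ℂ ⊗ M` (S21 and G2a).  The compatible pairs form a subring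
containing the pairs `(T_ℓ, T_ℓ)`; the first component of a compatible pair is determined by
the second one.  Together with the saturation lemma this gives the main theorem
`S31PAIR_main`: there is `c` such that if `D_b (T_ℓ, ℓ) - D_b' (T_ℓ', ℓ')` on `M` is divisible
by `p ^ k` in `End M`, then the same element of the Hecke algebra of cusp forms is divisible by
`p ^ (k - c)`.
-/

set_option autoImplicit false
set_option linter.style.haveILetI false
set_option linter.unusedSectionVars false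

open UpperHalfPlane ModularForm CongruenceSubgroup AlgebraicCurve
open scoped MatrixGroups ModularForm Manifold TensorProduct
open Fermat.Agent.G_helper6_Defs Fermat.Agent.G_helper6_E2FINAL
open Fermat.Agent.G_helper3_G1aHECKEHOM
open Fermat.Agent.S31_helper3_Defs Fermat.Agent.S31_helper3_SAT

noncomputable section

namespace Fermat.Agent.S31_helper3_PAIR

variable (N : ℕ) [NeZero N]

/-- Compatible pairs. -/
def S31PAIR_Compat (t : Module.End ℂ (CuspForm (Gamma0 N) 2)) (e : Module.End ℤ (PG_M N)) :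
    Prop :=
  ∀ (f g : CuspForm (Gamma0 N) 2) (w : ℂ ⊗[ℤ] (PG_M N)),
    PG_latticeMap N w = ModularCurve.periodHomPair N (f, g) →
      PG_latticeMap N (e.baseChange ℂ w) = ModularCurve.periodHomPair N (t f, t g)

/-- The subring of compatible pairs. -/
def S31PAIR_R :
    Subring (Module.End ℂ (CuspForm (Gamma0 N) 2) × Module.End ℤ (PG_M N)) where
  carrier := {x | S31PAIR_Compat N x.1 x.2}
  mul_mem' := by
    rintro ⟨t, e⟩ ⟨t', e'⟩ h h' f g w hw
    show PG_latticeMap N ((e * e').baseChange ℂ w) =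
      ModularCurve.periodHomPair N ((t * t') f, (t * t') g)
    rw [LinearMap.baseChange_mul, Module.End.mul_apply, Module.End.mul_apply,
      Module.End.mul_apply]
    exact h _ _ _ (h' f g w hw)
  one_mem' := by
    intro f g w hw
    show PG_latticeMap N ((1 : Module.End ℤ (PG_M N)).baseChange ℂ w) =
      ModularCurve.periodHomPair N ((1 : Module.End ℂ _) f, (1 : Module.End ℂ _) g)
    rw [LinearMap.baseChange_one, Module.End.one_apply, Module.End.one_apply,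
      Module.End.one_apply]
    exact hw
  add_mem' := by
    rintro ⟨t, e⟩ ⟨t', e'⟩ h h' f g w hw
    show PG_latticeMap N ((e + e').baseChange ℂ w) =
      ModularCurve.periodHomPair N ((t + t') f, (t + t') g)
    rw [LinearMap.baseChange_add, LinearMap.add_apply, map_add, h f g w hw, h' f g w hw,
      ← map_add]
    rfl
  zero_mem' := by
    intro f g w _
    show PG_latticeMap N ((0 : Module.End ℤ (PG_M N)).baseChange ℂ w) =
      ModularCurve.periodHomPair N ((0 : Module.End ℂ _) f, (0 : Module.End ℂ _) g)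
    rw [LinearMap.baseChange_zero, LinearMap.zero_apply, map_zero, LinearMap.zero_apply,
      LinearMap.zero_apply]
    exact (map_zero (ModularCurve.periodHomPair N)).symm
  neg_mem' := by
    rintro ⟨t, e⟩ h f g w hw
    show PG_latticeMap N ((-e).baseChange ℂ w) =
      ModularCurve.periodHomPair N ((-t) f, (-t) g)
    rw [LinearMap.baseChange_neg, LinearMap.neg_apply, map_neg, h f g w hw, ← map_neg]
    rfl

theorem S31PAIR_mem_R (x : Module.End ℂ (CuspForm (Gamma0 N) 2) × Module.End ℤ (PG_M N)) :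
    x ∈ S31PAIR_R N ↔ S31PAIR_Compat N x.1 x.2 := Iff.rfl

/-- The period pairing intertwines the Hecke operators. -/
theorem S31PAIR_period_hecke (ℓ : ℕ) [NeZero ℓ] (hℓ : ℓ.Prime) (hℓN : ¬ ℓ ∣ N)
    (f g : CuspForm (Gamma0 N) 2) :
    ModularCurve.periodHomPair N (CuspForm.heckeTLin 2 hℓ hℓN f, CuspForm.heckeTLin 2 hℓ hℓN g) =
      PG_heckeHom N ℓ (ModularCurve.periodHomPair N (f, g)) := by
  by_cases hE : ModularCurve.ExistsPeriodMapLinear N
  · obtain ⟨pml, hpml, hdef⟩ := ModularCurve.periodHomPair_def N hE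
    have hT : ∀ f, pml (CuspForm.heckeTLin 2 hℓ hℓN f) = PG_heckeHom N ℓ (pml f) := by
      intro f
      rw [hpml, hpml]
      exact Fermat.Agent.G_helper23_G1b.PG_period_hecke N ℓ hℓ hℓN f
    have hsub : ∀ a b : Additive (Gamma0 N) →+ ℂ,
        PG_heckeHom N ℓ (a - b) = PG_heckeHom N ℓ a - PG_heckeHom N ℓ b := by
      intro a b
      have h := PG_heckeHom_add N ℓ (a - b) b
      rw [sub_add_cancel] at h
      rw [h, add_sub_cancel_right]
    rw [hdef]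
    simp only [LinearMap.coprod_apply, LinearMap.comp_apply, LinearMap.add_apply,
      LinearMap.sub_apply, LinearMap.id_apply]
    rw [hT, hT, PG_heckeHom_add, PG_heckeHom_add, hsub,
      Fermat.Agent.G_helper24_G1cCOMM.PG_heckeHom_charInvolution N ℓ hℓ hℓN,
      Fermat.Agent.G_helper24_G1cCOMM.PG_heckeHom_charInvolution N ℓ hℓ hℓN]
  · have h0 : ModularCurve.periodHomPair N = 0 := by
      unfold ModularCurve.periodHomPair
      rw [dif_neg hE]
    rw [h0, LinearMap.zero_apply, LinearMap.zero_apply, PG_E2F_heckeHom_zero]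

/-- The pairs `(T_ℓ, T_ℓ)` are compatible. -/
theorem S31PAIR_hecke_mem (ℓ : ℕ) [NeZero ℓ] (hℓ : ℓ.Prime) (hℓN : ¬ ℓ ∣ N) :
    ((CuspForm.heckeTLin 2 hℓ hℓN, PG_E2F_TM N ℓ) :
      Module.End ℂ (CuspForm (Gamma0 N) 2) × Module.End ℤ (PG_M N)) ∈ S31PAIR_R N := by
  intro f g w hw
  show PG_latticeMap N ((PG_E2F_TM N ℓ).baseChange ℂ w) =
    ModularCurve.periodHomPair N (CuspForm.heckeTLin 2 hℓ hℓN f, CuspForm.heckeTLin 2 hℓ hℓN g)
  rw [PG_E2F_latticeMap_hecke, hw, S31PAIR_period_hecke]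

/-- The first component of a compatible pair is determined by the second one. -/
theorem S31PAIR_fst_eq {t t' : Module.End ℂ (CuspForm (Gamma0 N) 2)}
    {e : Module.End ℤ (PG_M N)} (h : S31PAIR_Compat N t e) (h' : S31PAIR_Compat N t' e) :
    t = t' := by
  obtain ⟨hinj, hrange⟩ := Fermat.Agent.S21.result N
  obtain ⟨-, -, -, hrange'⟩ := Fermat.Agent.G_helper3_G2aLATTICE.PG_lattice N
  refine LinearMap.ext fun f => ?_
  have hmem : ModularCurve.periodHomPair N (f, 0) ∈ LinearMap.range (PG_latticeMap N) := by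
    rw [hrange', ← hrange]
    exact ⟨_, rfl⟩
  obtain ⟨w, hw⟩ := hmem
  have h1 := h f 0 w hw
  have h2 := h' f 0 w hw
  have h3 := hinj (h1.symm.trans h2)
  exact congrArg Prod.fst h3

/-- The generators of the Hecke algebra away from `S`, as pairs. -/
def S31PAIR_gens (S : Finset ℕ) :
    Set (Module.End ℂ (CuspForm (Gamma0 N) 2) × Module.End ℤ (PG_M N)) :=
  {x | ∃ (ℓ : ℕ) (hℓ : ℓ.Prime) (hℓN : ¬ ℓ ∣ N), ℓ ∉ (↑S : Set ℕ) ∧
    x = (CuspForm.heckeTLin 2 hℓ hℓN,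
      haveI : NeZero ℓ := ⟨hℓ.ne_zero⟩
      PG_E2F_TM N ℓ)}

/-- The Hecke ring of pairs. -/
def S31PAIR_T (S : Finset ℕ) :
    Subring (Module.End ℂ (CuspForm (Gamma0 N) 2) × Module.End ℤ (PG_M N)) :=
  Subring.closure (S31PAIR_gens N S)

theorem S31PAIR_T_le (S : Finset ℕ) : S31PAIR_T N S ≤ S31PAIR_R N := by
  rw [S31PAIR_T, Subring.closure_le]
  rintro x ⟨ℓ, hℓ, hℓN, -, rfl⟩
  haveI : NeZero ℓ := ⟨hℓ.ne_zero⟩
  exact S31PAIR_hecke_mem N ℓ hℓ hℓN

theorem S31PAIR_gen_mem (S : Finset ℕ) (ℓ : ℕ) (hℓ : ℓ.Prime) (hℓN : ¬ ℓ ∣ N)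
    (hℓS : ℓ ∉ (↑S : Set ℕ)) :
    ((CuspForm.heckeTLin 2 hℓ hℓN,
      haveI : NeZero ℓ := ⟨hℓ.ne_zero⟩
      PG_E2F_TM N ℓ) :
      Module.End ℂ (CuspForm (Gamma0 N) 2) × Module.End ℤ (PG_M N)) ∈ S31PAIR_T N S :=
  Subring.subset_closure ⟨ℓ, hℓ, hℓN, hℓS, rfl⟩

/-- The first components of the Hecke ring of pairs lie in the Hecke algebra. -/
theorem S31PAIR_fst_mem (S : Finset ℕ)
    (x : Module.End ℂ (CuspForm (Gamma0 N) 2) × Module.End ℤ (PG_M N))
    (hx : x ∈ S31PAIR_T N S) : x.1 ∈ CuspForm.heckeAlgebra N 2 (↑S : Set ℕ) := by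
  induction hx using Subring.closure_induction with
  | mem x hx =>
    obtain ⟨ℓ, hℓ, hℓN, hℓS, rfl⟩ := hx
    exact CuspForm.heckeTLin_mem_heckeAlgebra hℓ hℓN hℓS
  | zero => exact Subalgebra.zero_mem _
  | one => exact Subalgebra.one_mem _
  | add x y _ _ hx hy => exact Subalgebra.add_mem _ hx hy
  | neg x _ hx => exact Subalgebra.neg_mem _ hx
  | mul x y _ _ hx hy => exact Subalgebra.mul_mem _ hx hy

/-- Dickson elements of a subring. -/
theorem S31PAIR_dick_mem {P : Type*} [Ring P] (A : Subring P) {t e : P} (ht : t ∈ A)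
    (he : e ∈ A) (b : ℕ) : S31_dick t e b ∈ A := by
  induction b using Nat.strong_induction_on with
  | _ b ih =>
    match b, ih with
    | 0, _ =>
      rw [S31_dick_zero, ← one_add_one_eq_two]
      exact A.add_mem A.one_mem A.one_mem
    | 1, _ => rw [S31_dick_one]; exact ht
    | (n + 2), ih =>
      rw [S31_dick_succ_succ]
      exact A.sub_mem (A.mul_mem ht (ih (n + 1) (by omega))) (A.mul_mem he (ih n (by omega)))

/-- The lattice is torsion-free. -/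
theorem S31PAIR_M_torsionFree (n : ℕ) (hn : n ≠ 0) (c : PG_M N) (h : n • c = 0) : c = 0 := by
  refine Subtype.ext (AddMonoidHom.ext fun γ => ?_)
  have h2 : ((n • c : PG_M N) : Additive (Gamma0 N) →+ ℤ) γ = 0 := by rw [h]; rfl
  have h3 : n • (((c : PG_M N) : Additive (Gamma0 N) →+ ℤ) γ) = 0 := h2
  rw [nsmul_eq_mul] at h3
  rcases mul_eq_zero.mp h3 with h4 | h4
  · exact absurd (by exact_mod_cast h4) hn
  · exact h4

/-- The endomorphism ring of the lattice is torsion-free. -/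
theorem S31PAIR_end_torsionFree (n : ℕ) (hn : n ≠ 0) (e : Module.End ℤ (PG_M N))
    (h : n • e = 0) : e = 0 := by
  refine LinearMap.ext fun c => ?_
  have h1 : (n • e) c = 0 := by rw [h]; rfl
  rw [LinearMap.smul_apply] at h1
  exact S31PAIR_M_torsionFree N n hn _ h1

/-- Components of the Dickson sequence in a product ring. -/
theorem S31PAIR_dick_fst {P₁ P₂ : Type*} [Ring P₁] [Ring P₂] (t₁ : P₁) (t₂ : P₂) (n b : ℕ) :
    (S31_dick ((t₁, t₂) : P₁ × P₂) ((n : ℕ) : P₁ × P₂) b).1 = S31_dick t₁ (n : P₁) b := by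
  have h := S31_dick_map (RingHom.fst P₁ P₂) (t₁, t₂) ((n : ℕ) : P₁ × P₂) b
  rw [map_natCast] at h
  exact h

theorem S31PAIR_dick_snd {P₁ P₂ : Type*} [Ring P₁] [Ring P₂] (t₁ : P₁) (t₂ : P₂) (n b : ℕ) :
    (S31_dick ((t₁, t₂) : P₁ × P₂) ((n : ℕ) : P₁ × P₂) b).2 = S31_dick t₂ (n : P₂) b := by
  have h := S31_dick_map (RingHom.snd P₁ P₂) (t₁, t₂) ((n : ℕ) : P₁ × P₂) b
  rw [map_natCast] at h
  exact h

/-- The Dickson sequence in the Hecke algebra, as an endomorphism. -/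
theorem S31PAIR_dick_coe (S : Finset ℕ) (ℓ : ℕ) (hℓ : ℓ.Prime) (hℓN : ¬ ℓ ∣ N)
    (hℓS : ℓ ∉ (↑S : Set ℕ)) (b : ℕ) :
    ((S31_dick (CuspForm.heckeAlgebra.T hℓ hℓN hℓS : CuspForm.heckeAlgebra N 2 (↑S : Set ℕ))
      ((ℓ : ℕ) : CuspForm.heckeAlgebra N 2 (↑S : Set ℕ)) b :
      CuspForm.heckeAlgebra N 2 (↑S : Set ℕ)) : Module.End ℂ (CuspForm (Gamma0 N) 2)) =
      S31_dick (CuspForm.heckeTLin 2 hℓ hℓN) ((ℓ : ℕ) : Module.End ℂ (CuspForm (Gamma0 N) 2)) b := by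
  have h := S31_dick_map (CuspForm.heckeAlgebra N 2 (↑S : Set ℕ)).val.toRingHom
    (CuspForm.heckeAlgebra.T hℓ hℓN hℓS) ((ℓ : ℕ) : CuspForm.heckeAlgebra N 2 (↑S : Set ℕ)) b
  rw [map_natCast] at h
  exact h

/-- The second projection of the Hecke ring of pairs. -/
def S31PAIR_Phi (S : Finset ℕ) : (S31PAIR_T N S) →+ Module.End ℤ (PG_M N) where
  toFun x := (x : Module.End ℂ (CuspForm (Gamma0 N) 2) × Module.End ℤ (PG_M N)).2
  map_zero' := rfl
  map_add' _ _ := rfl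

theorem S31PAIR_Phi_injective (S : Finset ℕ) : Function.Injective (S31PAIR_Phi N S) := by
  intro x y hxy
  have hx := S31PAIR_T_le N S x.2
  have hy := S31PAIR_T_le N S y.2
  have h2 : (x : Module.End ℂ (CuspForm (Gamma0 N) 2) × Module.End ℤ (PG_M N)).2 =
      (y : Module.End ℂ (CuspForm (Gamma0 N) 2) × Module.End ℤ (PG_M N)).2 := hxy
  rw [S31PAIR_mem_R] at hx hy
  rw [h2] at hx
  have h1 : (x : Module.End ℂ (CuspForm (Gamma0 N) 2) × Module.End ℤ (PG_M N)).1 =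
      (y : Module.End ℂ (CuspForm (Gamma0 N) 2) × Module.End ℤ (PG_M N)).1 :=
    S31PAIR_fst_eq N hx hy
  exact Subtype.ext (Prod.ext h1 h2)

/-- The saturation constant of the Hecke ring of pairs. -/
theorem S31PAIR_sat (S : Finset ℕ) (p : ℕ) (hp : p.Prime) :
    ∃ c : ℕ, ∀ (x : Module.End ℂ (CuspForm (Gamma0 N) 2) × Module.End ℤ (PG_M N)),
      x ∈ S31PAIR_T N S → ∀ (k : ℕ) (e : Module.End ℤ (PG_M N)), x.2 = (p ^ k) • e →
      ∃ t ∈ CuspForm.heckeAlgebra N 2 (↑S : Set ℕ), x.1 = (p ^ (k - c)) • t := by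
  classical
  obtain ⟨hMfin, hMfree, -, -⟩ := Fermat.Agent.G_helper3_G2aLATTICE.PG_lattice N
  haveI := hMfin
  haveI := hMfree
  haveI : Module.Finite ℤ (Module.End ℤ (PG_M N)) := Module.Finite.linearMap ℤ ℤ _ _
  obtain ⟨c, hc⟩ := S31SAT_pow (S31PAIR_end_torsionFree N) (S31PAIR_Phi N S)
    (S31PAIR_Phi_injective N S) p hp
  refine ⟨c, fun x hx k e he => ?_⟩
  obtain ⟨x', hx'⟩ := hc ⟨x, hx⟩ k e he
  refine ⟨(x' : Module.End ℂ (CuspForm (Gamma0 N) 2) × Module.End ℤ (PG_M N)).1,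
    S31PAIR_fst_mem N S _ x'.2, ?_⟩
  have h5 : x = (p ^ (k - c)) • (x' : Module.End ℂ (CuspForm (Gamma0 N) 2) ×
      Module.End ℤ (PG_M N)) := congrArg Subtype.val hx'
  rw [h5]
  rfl

/-- **Main theorem of the comparison.** -/
theorem S31PAIR_main (S : Finset ℕ) (p : ℕ) (hp : p.Prime) :
    ∃ c : ℕ, ∀ (k : ℕ) (ℓ ℓ' : ℕ) (hℓ : ℓ.Prime) (hℓ' : ℓ'.Prime) (hℓN : ¬ ℓ ∣ N)
      (hℓ'N : ¬ ℓ' ∣ N) (hℓS : ℓ ∉ (↑S : Set ℕ)) (hℓ'S : ℓ' ∉ (↑S : Set ℕ)) (b b' : ℕ)
      (e : Module.End ℤ (PG_M N)),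
      (haveI : NeZero ℓ := ⟨hℓ.ne_zero⟩
       haveI : NeZero ℓ' := ⟨hℓ'.ne_zero⟩
       S31_dick (PG_E2F_TM N ℓ) ((ℓ : ℕ) : Module.End ℤ (PG_M N)) b
        - S31_dick (PG_E2F_TM N ℓ') ((ℓ' : ℕ) : Module.End ℤ (PG_M N)) b' = (p ^ k) • e) →
      ∃ t : CuspForm.heckeAlgebra N 2 (↑S : Set ℕ),
        S31_dick (CuspForm.heckeAlgebra.T hℓ hℓN hℓS : CuspForm.heckeAlgebra N 2 (↑S : Set ℕ))
            ((ℓ : ℕ) : CuspForm.heckeAlgebra N 2 (↑S : Set ℕ)) b
          - S31_dick (CuspForm.heckeAlgebra.T hℓ' hℓ'N hℓ'S :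
              CuspForm.heckeAlgebra N 2 (↑S : Set ℕ))
            ((ℓ' : ℕ) : CuspForm.heckeAlgebra N 2 (↑S : Set ℕ)) b'
          = ((p ^ (k - c) : ℕ) : CuspForm.heckeAlgebra N 2 (↑S : Set ℕ)) * t := by
  obtain ⟨c, hc⟩ := S31PAIR_sat N S p hp
  refine ⟨c, ?_⟩
  intro k ℓ ℓ' hℓ hℓ' hℓN hℓ'N hℓS hℓ'S b b' e he
  haveI : NeZero ℓ := ⟨hℓ.ne_zero⟩
  haveI : NeZero ℓ' := ⟨hℓ'.ne_zero⟩
  have hmem := Subring.sub_mem _
      (S31PAIR_dick_mem _ (S31PAIR_gen_mem N S ℓ hℓ hℓN hℓS) (natCast_mem _ ℓ) b)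
      (S31PAIR_dick_mem _ (S31PAIR_gen_mem N S ℓ' hℓ' hℓ'N hℓ'S) (natCast_mem _ ℓ') b')
  obtain ⟨t, ht, hxt⟩ := hc _ hmem k e (by
    rw [Prod.snd_sub, S31PAIR_dick_snd, S31PAIR_dick_snd]
    exact he)
  refine ⟨⟨t, ht⟩, Subtype.ext ?_⟩
  rw [Prod.fst_sub, S31PAIR_dick_fst, S31PAIR_dick_fst] at hxt
  rw [Subalgebra.coe_sub, S31PAIR_dick_coe, S31PAIR_dick_coe, hxt, Subalgebra.coe_mul,
    nsmul_eq_mul]
  congr 1

end Fermat.Agent.S31_helper3_PAIR
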