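import Mathlib
import Fermat.Prelude.Def_EllipticCurve_FrobeniusTrace
import Fermat.Prelude.Def_FLTPrelim_Ramification
import Fermat.Prelude.Def_ModularCurve_ArithmeticGalois
import Fermat.Agent.G_helper7_CYC
import Fermat.Agent.G_helper12_OPENSTAB
import Fermat.Agent.G_helper29_WDefs

/-!
# S31, pieces P3 (CYCK) and P7 (FIELD): finite levels

* `S31L_frob_root`    : a Frobenius lift at `ℓ` raises every root of unity of order prime to `ℓ`
  to the power `ℓ`;
* `S31L_inertia_root` : inertia at `q` fixes every root of unity of order prime to `q`;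
* `S31L_pow_modEq`    : if two powers of Frobenius lifts agree on a primitive `m`-th root of
  unity, the corresponding powers of the primes are congruent modulo `m`;
* `S31L_fin_pow`      : devissage, finiteness of the `p`-torsion gives finiteness of the
  `p ^ k`-torsion;
* `S31L_level`        : a common finite level for the `m`-torsion of `J₀(N)` and for `μ_m`;
* `S31L_U`            : the normal subgroup of the absolute Galois group acting trivially on the
  `m`-torsion of `J₀(N)` and on `μ_m`, with its two basic properties.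
-/

set_option autoImplicit false
set_option linter.unusedSectionVars false

open Polynomial ModularCurve AlgebraicCurve

namespace Fermat.Agent.S31_helper5_LEVEL

noncomputable section

local notation "Qb" => AlgebraicClosure ℚ
local notation "GQ" => (AlgebraicClosure ℚ ≃ₐ[ℚ] AlgebraicClosure ℚ)

open Fermat.Agent.G_helper7_CYC

/-! ### Valuations of roots of unity of order prime to the residue characteristic -/

section Val

variable {L : Type*} [Field L] (A : ValuationSubring L)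

/-- If `m` is a unit of `A`, then `1 - μ` is a unit of `A` for every `m`-th root of unity
`μ ≠ 1`. -/
theorem S31L_val_one_sub_eq_one {m : ℕ} (hmA : A.valuation (m : L) = 1)
    {μ : L} (hμ : μ ^ m = 1) (hμ1 : μ ≠ 1) : A.valuation (1 - μ) = 1 := by
  classical
  have hm0 : m ≠ 0 := by
    rintro rfl
    rw [Nat.cast_zero, map_zero] at hmA
    exact zero_ne_one hmA
  -- the geometric sum `1 + μ + ... + μ^(m-1)` vanishes, hence `∏ (X - μ^i)`-type identity:
  -- we use `m = ∏_{i=1}^{m-1} (1 - ζ^i)` for a primitive root; avoid it by a direct argument: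
  -- `m = Σ_{i<m} 1 = Σ_{i<m} (1 - μ^i)` since `Σ μ^i = 0`; each `1 - μ^i` is divisible by `1 - μ`.
  have hgeom : (∑ i ∈ Finset.range m, μ ^ i) = 0 := by
    have h := mul_geom_sum μ m
    rw [hμ, sub_self] at h
    rcases mul_eq_zero.mp h with h0 | h0
    · exact absurd (sub_eq_zero.mp h0) hμ1
    · exact h0
  have hsum : (m : L) = ∑ i ∈ Finset.range m, (1 - μ ^ i) := by
    rw [Finset.sum_sub_distrib, hgeom, sub_zero, Finset.sum_const, Finset.card_range,
      nsmul_eq_mul, mul_one]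
  have hμv : A.valuation μ = 1 := PGCYC_val_eq_one_of_pow_eq_one A hm0 hμ
  have hle1 : A.valuation (1 - μ) ≤ 1 := by
    calc A.valuation (1 - μ) ≤ max (A.valuation 1) (A.valuation μ) := A.valuation.map_sub _ _
      _ ≤ 1 := by rw [map_one, hμv, max_self]
  refine le_antisymm hle1 ?_
  by_contra hlt
  rw [not_le] at hlt
  -- every `1 - μ^i` has valuation `< 1`
  have hi : ∀ i : ℕ, A.valuation (1 - μ ^ i) < 1 := by
    intro i
    have hfac : (1 - μ ^ i) = (1 - μ) * ∑ j ∈ Finset.range i, μ ^ j := by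
      have h := mul_neg_geom_sum μ i
      exact h.symm
    rw [hfac, map_mul]
    have hμA : μ ∈ A := (ValuationSubring.valuation_le_one_iff A μ).mp hμv.le
    have h2 : A.valuation (∑ j ∈ Finset.range i, μ ^ j) ≤ 1 := by
      rw [ValuationSubring.valuation_le_one_iff]
      exact sum_mem fun j _ => pow_mem hμA j
    calc A.valuation (1 - μ) * A.valuation (∑ j ∈ Finset.range i, μ ^ j)
        ≤ A.valuation (1 - μ) * 1 := mul_le_mul' le_rfl h2
      _ = A.valuation (1 - μ) := mul_one _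
      _ < 1 := hlt
  have hm : A.valuation (m : L) < 1 := by
    rw [hsum]
    have : (∑ i ∈ Finset.range m, (1 - μ ^ i)) ∈ A.nonunits := by
      have hmem : ∀ i ∈ Finset.range m, (1 - μ ^ i) ∈ A.nonunits := fun i _ =>
        (ValuationSubring.mem_nonunits_iff (A := A)).mpr (hi i)
      have hsub : ∀ s : Finset ℕ, (∀ i ∈ s, (1 - μ ^ i) ∈ A.nonunits) →
          (∑ i ∈ s, (1 - μ ^ i)) ∈ A.nonunits ∨ (∑ i ∈ s, (1 - μ ^ i)) = 0 := by
        intro s
        induction s using Finset.induction_on with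
        | empty => intro _; right; simp
        | insert a s ha ih =>
          intro h
          rw [Finset.sum_insert ha]
          have h1 := h a (Finset.mem_insert_self a s)
          rcases ih (fun i hi => h i (Finset.mem_insert_of_mem hi)) with h2 | h2
          · left
            rw [ValuationSubring.mem_nonunits_iff] at h1 h2 ⊢
            exact lt_of_le_of_lt (A.valuation.map_add _ _) (max_lt h1 h2)
          · left
            rw [h2, add_zero]
            exact h1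
      rcases hsub _ hmem with h | h
      · exact h
      · rw [← hsum] at h
        rw [h, map_zero] at hmA
        exact absurd hmA zero_ne_one
    exact (ValuationSubring.mem_nonunits_iff (A := A)).mp this
  rw [hmA] at hm
  exact lt_irrefl _ hm

/-- Two `m`-th roots of unity which are congruent modulo the maximal ideal are equal
(when `m` is a unit). -/
theorem S31L_eq_of_sub_mem {m : ℕ} (hmA : A.valuation (m : L) = 1)
    {x y : L} (hx : x ^ m = 1) (hy : y ^ m = 1) (h : x - y ∈ A.nonunits) : x = y := by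
  by_contra hne
  have hm0 : m ≠ 0 := by
    rintro rfl
    rw [Nat.cast_zero, map_zero] at hmA
    exact zero_ne_one hmA
  have hx0 : x ≠ 0 := by
    rintro rfl
    rw [zero_pow hm0] at hx
    exact zero_ne_one hx
  have hμ : (y / x) ^ m = 1 := by rw [div_pow, hx, hy, div_one]
  have hμ1 : y / x ≠ 1 := by
    intro h1
    apply hne
    rw [div_eq_one_iff_eq hx0] at h1
    exact h1.symm
  have h1 := S31L_val_one_sub_eq_one A hmA hμ hμ1
  have hxv : A.valuation x = 1 := PGCYC_val_eq_one_of_pow_eq_one A hm0 hx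
  have e : x - y = x * (1 - y / x) := by field_simp
  rw [ValuationSubring.mem_nonunits_iff, e, map_mul, hxv, h1, one_mul] at h
  exact lt_irrefl _ h

end Val

/-! ### Frobenius lifts and inertia on roots of unity -/

section Roots

/-- A natural number prime to the residue characteristic is a unit. -/
theorem S31L_unit_of_coprime (A : ValuationSubring Qb) {ℓ m : ℕ} (hA : A.LiesOverPrime ℓ)
    (hcop : Nat.Coprime ℓ m) : A.valuation (m : Qb) = 1 :=
  PGCYC_val_natCast_eq_one A ((ValuationSubring.mem_nonunits_iff (A := A)).mp hA) hcop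

theorem S31L_ne_zero_of_coprime (A : ValuationSubring Qb) {ℓ m : ℕ} (hA : A.LiesOverPrime ℓ)
    (hcop : Nat.Coprime ℓ m) : m ≠ 0 := by
  rintro rfl
  have h := S31L_unit_of_coprime A hA hcop
  rw [Nat.cast_zero, map_zero] at h
  exact zero_ne_one h

/-- **(CYCK-1)** A Frobenius lift at `ℓ` raises every root of unity of order prime to `ℓ` to
the power `ℓ`. -/
theorem S31L_frob_root {ℓ m : ℕ} (hcop : Nat.Coprime ℓ m) (A : ValuationSubring Qb)
    (hA : A.LiesOverPrime ℓ) (σ : GQ) (hσ : A.IsFrobeniusAt σ ℓ) {ζ : Qb} (hζ : ζ ^ m = 1) :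
    σ ζ = ζ ^ ℓ := by
  have hmA := S31L_unit_of_coprime A hA hcop
  have hm0 := S31L_ne_zero_of_coprime A hA hcop
  have hζA : ζ ∈ A := PGCYC_mem_of_pow_eq_one A hm0 hζ
  have h := PGCYC_frobenius_spec A σ ℓ hσ ζ hζA
  refine S31L_eq_of_sub_mem A hmA ?_ ?_ h
  · rw [← map_pow, hζ, map_one]
  · rw [← pow_mul, mul_comm, pow_mul, hζ, one_pow]

/-- Powers of a Frobenius lift on roots of unity. -/
theorem S31L_frob_pow_root {ℓ m : ℕ} (hcop : Nat.Coprime ℓ m) (A : ValuationSubring Qb)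
    (hA : A.LiesOverPrime ℓ) (σ : GQ) (hσ : A.IsFrobeniusAt σ ℓ) (b : ℕ) {ζ : Qb}
    (hζ : ζ ^ m = 1) : (σ ^ b) ζ = ζ ^ (ℓ ^ b) := by
  induction b with
  | zero => rw [pow_zero, pow_zero, pow_one]; rfl
  | succ b ih =>
    rw [pow_succ, AlgEquiv.mul_apply, S31L_frob_root hcop A hA σ hσ hζ, map_pow, ih, ← pow_mul,
      ← pow_succ]

/-- **(CYCK-2)** Inertia at `q` fixes every root of unity of order prime to `q`. -/
theorem S31L_inertia_root {q m : ℕ} (hcop : Nat.Coprime q m) (A : ValuationSubring Qb)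
    (hA : A.LiesOverPrime q) (τ : GQ) (hτ : τ ∈ A.inertiaSubgroupIn ℚ) {ζ : Qb}
    (hζ : ζ ^ m = 1) : τ ζ = ζ := by
  have hmA := S31L_unit_of_coprime A hA hcop
  have hm0 := S31L_ne_zero_of_coprime A hA hcop
  have hζA : ζ ∈ A := PGCYC_mem_of_pow_eq_one A hm0 hζ
  have h := (Fermat.Agent.S05_helper5_Inertia.inertia_spec A τ hτ ζ hζA).2
  refine S31L_eq_of_sub_mem A hmA ?_ hζ h
  rw [← map_pow, hζ, map_one]

/-- **(CYCK-3)** If two powers of Frobenius lifts agree on a primitive `m`-th root of unity,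
the corresponding powers of the primes are congruent modulo `m`. -/
theorem S31L_pow_modEq {ℓ ℓ' m : ℕ} (hcop : Nat.Coprime ℓ m) (hcop' : Nat.Coprime ℓ' m)
    (A A' : ValuationSubring Qb) (hA : A.LiesOverPrime ℓ) (hA' : A'.LiesOverPrime ℓ')
    (F F' : GQ) (hF : A.IsFrobeniusAt F ℓ) (hF' : A'.IsFrobeniusAt F' ℓ') (b b' : ℕ)
    {ζ : Qb} (hζ : IsPrimitiveRoot ζ m) (h : (F ^ b) ζ = (F' ^ b') ζ) :
    ℓ ^ b ≡ ℓ' ^ b' [MOD m] := by
  have hm0 := S31L_ne_zero_of_coprime A hA hcop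
  rw [S31L_frob_pow_root hcop A hA F hF b hζ.pow_eq_one,
    S31L_frob_pow_root hcop' A' hA' F' hF' b' hζ.pow_eq_one] at h
  have hfin : IsOfFinOrder ζ :=
    isOfFinOrder_iff_pow_eq_one.mpr ⟨m, Nat.pos_of_ne_zero hm0, hζ.pow_eq_one⟩
  have h2 := hfin.pow_eq_pow_iff_modEq.mp h
  rw [← hζ.eq_orderOf] at h2
  exact h2

/-- A finite level for the `m`-th roots of unity. -/
theorem S31L_level_roots (m : ℕ) (hm : m ≠ 0) :
    ∃ L : IntermediateField ℚ Qb, FiniteDimensional ℚ L ∧
      ∀ σ : GQ, (∀ a ∈ L, σ a = a) → ∀ ζ : Qb, ζ ^ m = 1 → σ ζ = ζ := by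
  have : NeZero m := ⟨hm⟩
  obtain ⟨ζ₀, hζ₀⟩ := PGCYC_exists_primitiveRoot m
  have hQb : Algebra.IsAlgebraic ℚ Qb := AlgebraicClosure.isAlgebraic ℚ
  refine ⟨IntermediateField.adjoin ℚ {ζ₀},
    IntermediateField.adjoin.finiteDimensional
      (Algebra.IsAlgebraic.isAlgebraic (R := ℚ) ζ₀).isIntegral, ?_⟩
  intro σ hσ ζ hζ
  have h1 : σ ζ₀ = ζ₀ := hσ ζ₀ (IntermediateField.mem_adjoin_simple_self ℚ ζ₀)
  obtain ⟨i, -, rfl⟩ := hζ₀.eq_pow_of_pow_eq_one hζ
  rw [map_pow, h1]

end Roots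

/-! ### Devissage -/

/-- **(FIELD-1)** If the `p`-torsion of an abelian group is finite, so is its
`p ^ k`-torsion. -/
theorem S31L_fin_pow {J : Type*} [AddCommGroup J] (p : ℕ)
    (h : {x : J | p • x = 0}.Finite) (k : ℕ) : {x : J | p ^ k • x = 0}.Finite := by
  induction k with
  | zero =>
    refine (Set.finite_singleton (0 : J)).subset ?_
    intro x hx
    rw [Set.mem_ofPred_eq, pow_zero, one_smul] at hx
    exact hx
  | succ k ih =>
    have hsub : {x : J | p ^ (k + 1) • x = 0} ⊆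
        (fun x : J => p • x) ⁻¹' {x : J | p ^ k • x = 0} := by
      intro x hx
      rw [Set.mem_ofPred_eq] at hx
      rw [Set.mem_preimage, Set.mem_ofPred_eq, ← mul_smul, ← pow_succ]
      exact hx
    refine (Set.Finite.preimage' ih ?_).subset hsub
    intro b _
    by_cases hb : ∃ x₀ : J, p • x₀ = b
    · obtain ⟨x₀, rfl⟩ := hb
      have hsub2 : (fun x : J => p • x) ⁻¹' {p • x₀} ⊆
          (fun y : J => x₀ + y) '' {y : J | p • y = 0} := by
        intro x hx
        rw [Set.mem_preimage, Set.mem_singleton_iff] at hx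
        refine ⟨x - x₀, ?_, add_sub_cancel x₀ x⟩
        rw [Set.mem_ofPred_eq, smul_sub, hx, sub_self]
      exact (h.image _).subset hsub2
    · have : (fun x : J => p • x) ⁻¹' {b} = ∅ := by
        ext x
        simp only [Set.mem_preimage, Set.mem_singleton_iff, Set.mem_empty_iff_false, iff_false]
        exact fun hx => hb ⟨x, hx⟩
      rw [this]
      exact Set.finite_empty

/-! ### The common level -/

section Level

variable (N : ℕ) [NeZero N]

/-- Finitely many classes of `J₀(N)` have a common finite level. -/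
theorem S31L_common_level (s : Set (JZero N)) (hs : s.Finite) :
    ∃ L : IntermediateField ℚ Qb, FiniteDimensional ℚ L ∧
      ∀ σ : GQ, (∀ a ∈ L, σ a = a) → ∀ x ∈ s, σ • x = x := by
  induction s, hs using Set.Finite.induction_on with
  | empty =>
    exact ⟨⊥, inferInstance, fun σ _ v hv => absurd hv (Set.notMem_empty v)⟩
  | @insert v s hv hs ih =>
    obtain ⟨L₁, hL₁, h₁⟩ := ih
    obtain ⟨L₂, hL₂, h₂⟩ := Fermat.Agent.G_helper12_OPENSTAB.PG11_open_stabilizer N v
    refine ⟨L₁ ⊔ L₂, inferInstance, fun σ hσ w hw => ?_⟩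
    rcases hw with rfl | hw
    · exact h₂ σ (fun a ha => hσ a ((le_sup_right : L₂ ≤ L₁ ⊔ L₂) ha))
    · exact h₁ σ (fun a ha => hσ a ((le_sup_left : L₁ ≤ L₁ ⊔ L₂) ha)) w hw

/-- **(FIELD-2)** A common finite level for the `m`-torsion of `J₀(N)` and for `μ_m`. -/
theorem S31L_level (m : ℕ) (hm : m ≠ 0)
    (hfin : (Pic0.torsion Qb (modularFunctionFieldBar N) m : Set (JZero N)).Finite) :
    ∃ L : IntermediateField ℚ Qb, FiniteDimensional ℚ L ∧
      ∀ σ : GQ, (∀ a ∈ L, σ a = a) →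
        (∀ x : JZero N, m • x = 0 → σ • x = x) ∧ ∀ ζ : Qb, ζ ^ m = 1 → σ ζ = ζ := by
  obtain ⟨L₁, hL₁, h₁⟩ := S31L_common_level N _ hfin
  obtain ⟨L₂, hL₂, h₂⟩ := S31L_level_roots m hm
  refine ⟨L₁ ⊔ L₂, inferInstance, fun σ hσ => ⟨fun x hx => ?_, fun ζ hζ => ?_⟩⟩
  · refine h₁ σ (fun a ha => hσ a ((le_sup_left : L₁ ≤ L₁ ⊔ L₂) ha)) x ?_
    rw [SetLike.mem_coe, Pic0.mem_torsion, natCast_zsmul]
    exact hx
  · exact h₂ σ (fun a ha => hσ a ((le_sup_right : L₂ ≤ L₁ ⊔ L₂) ha)) ζ hζ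

/-- The same from the finiteness of the `p`-torsion (`m = p ^ k`). -/
theorem S31L_level_pow (p k : ℕ) (hp : p ≠ 0)
    (hfin : (Pic0.torsion Qb (modularFunctionFieldBar N) p : Set (JZero N)).Finite) :
    ∃ L : IntermediateField ℚ Qb, FiniteDimensional ℚ L ∧
      ∀ σ : GQ, (∀ a ∈ L, σ a = a) →
        (∀ x : JZero N, p ^ k • x = 0 → σ • x = x) ∧ ∀ ζ : Qb, ζ ^ p ^ k = 1 → σ ζ = ζ := by
  refine S31L_level N (p ^ k) (pow_ne_zero k hp) ?_
  have h1 : {x : JZero N | p • x = 0}.Finite := by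
    refine hfin.subset fun x hx => ?_
    rw [SetLike.mem_coe, Pic0.mem_torsion, natCast_zsmul]
    exact hx
  refine (S31L_fin_pow p h1 k).subset fun x hx => ?_
  rw [SetLike.mem_coe, Pic0.mem_torsion, natCast_zsmul] at hx
  exact hx

end Level

/-! ### The subgroup `U` -/

section U

variable (N : ℕ) [NeZero N]

/-- **(FIELD-3)** The subgroup of the absolute Galois group acting trivially on the `m`-torsion
of `J₀(N)` and on the `m`-th roots of unity. -/
def S31L_U (m : ℕ) : Subgroup GQ where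
  carrier := {σ | (∀ x : JZero N, m • x = 0 → σ • x = x) ∧ ∀ ζ : Qb, ζ ^ m = 1 → σ ζ = ζ}
  one_mem' := ⟨fun x _ => one_smul _ x, fun _ _ => rfl⟩
  mul_mem' := by
    rintro σ τ ⟨hσ1, hσ2⟩ ⟨hτ1, hτ2⟩
    refine ⟨fun x hx => ?_, fun ζ hζ => ?_⟩
    · rw [mul_smul, hτ1 x hx, hσ1 x hx]
    · rw [AlgEquiv.mul_apply, hτ2 ζ hζ, hσ2 ζ hζ]
  inv_mem' := by
    rintro σ ⟨hσ1, hσ2⟩
    refine ⟨fun x hx => ?_, fun ζ hζ => ?_⟩
    · conv_lhs => rw [← hσ1 x hx]
      rw [inv_smul_smul]
    · conv_lhs => rw [← hσ2 ζ hζ]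
      exact σ.symm_apply_apply ζ

theorem S31L_mem_U {m : ℕ} {σ : GQ} :
    σ ∈ S31L_U N m ↔
      (∀ x : JZero N, m • x = 0 → σ • x = x) ∧ ∀ ζ : Qb, ζ ^ m = 1 → σ ζ = ζ :=
  Iff.rfl

theorem S31L_smul_torsion (m : ℕ) (g : GQ) {x : JZero N} (hx : m • x = 0) :
    m • (g • x) = 0 := by
  rw [smul_comm, hx]
  exact smul_zero (A := JZero N) g

instance S31L_U_normal (m : ℕ) : (S31L_U N m).Normal := by
  refine ⟨fun n hn g => ?_⟩
  obtain ⟨h1, h2⟩ := hn
  refine ⟨fun x hx => ?_, fun ζ hζ => ?_⟩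
  · rw [mul_smul, mul_smul, h1 _ (S31L_smul_torsion N m g⁻¹ hx), smul_inv_smul]
  · have hζ' : (g⁻¹ ζ) ^ m = 1 := by rw [← map_pow, hζ, map_one]
    rw [AlgEquiv.mul_apply, AlgEquiv.mul_apply, h2 _ hζ']
    exact g.apply_symm_apply ζ

/-- `U` contains the fixator of a finite extension. -/
theorem S31L_U_open (m : ℕ) (hm : m ≠ 0)
    (hfin : (Pic0.torsion Qb (modularFunctionFieldBar N) m : Set (JZero N)).Finite) :
    ∃ L : IntermediateField ℚ Qb, FiniteDimensional ℚ L ∧
      ∀ τ : GQ, (∀ a ∈ L, τ a = a) → τ ∈ S31L_U N m := by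
  obtain ⟨L, hL, h⟩ := S31L_level N m hm hfin
  exact ⟨L, hL, fun τ hτ => h τ hτ⟩

/-- `U` contains the inertia groups at the primes not dividing `N m` (from (E1)). -/
theorem S31L_U_inertia (m : ℕ)
    (hE1 : Fermat.Agent.G_helper29_WDefs.PG_E1_statement N m)
    (q : ℕ) (hq : q.Prime) (hqNm : ¬ q ∣ N * m) (A : ValuationSubring Qb)
    (hA : A.LiesOverPrime q) (τ : GQ) (hτ : τ ∈ A.inertiaSubgroupIn ℚ) :
    τ ∈ S31L_U N m := by
  have hcop : Nat.Coprime q m :=
    (Nat.Prime.coprime_iff_not_dvd hq).mpr fun h => hqNm (Dvd.dvd.mul_left h N)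
  refine ⟨fun x hx => ?_, fun ζ hζ => S31L_inertia_root hcop A hA τ hτ hζ⟩
  exact (hE1 q hq hqNm A hA x hx).1 τ hτ

/-- Elements congruent modulo `U` act in the same way on the `m`-torsion. -/
theorem S31L_U_smul_eq {m : ℕ} {g g' : GQ} (h : g⁻¹ * g' ∈ S31L_U N m) {x : JZero N}
    (hx : m • x = 0) : g • x = g' • x := by
  have h1 := h.1 x hx
  rw [mul_smul] at h1
  have h2 := congrArg (fun y => g • y) h1
  simp only [smul_inv_smul] at h2
  exact h2.symm

/-- Elements congruent modulo `U` act in the same way on the `m`-th roots of unity. -/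
theorem S31L_U_apply_eq {m : ℕ} {g g' : GQ} (h : g⁻¹ * g' ∈ S31L_U N m) {ζ : Qb}
    (hζ : ζ ^ m = 1) : g ζ = g' ζ := by
  have h1 := h.2 ζ hζ
  rw [AlgEquiv.mul_apply] at h1
  have h2 := congrArg g h1
  rw [show g (g⁻¹ (g' ζ)) = g' ζ from g.apply_symm_apply (g' ζ)] at h2
  exact h2.symm

/-- Powers of Frobenius lifts congruent modulo `U`: the powers of the primes are congruent
modulo `m`. -/
theorem S31L_U_modEq {ℓ ℓ' m : ℕ} (hcop : Nat.Coprime ℓ m) (hcop' : Nat.Coprime ℓ' m)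
    (A A' : ValuationSubring Qb) (hA : A.LiesOverPrime ℓ) (hA' : A'.LiesOverPrime ℓ')
    (F F' : GQ) (hF : A.IsFrobeniusAt F ℓ) (hF' : A'.IsFrobeniusAt F' ℓ') (b b' : ℕ)
    (h : (F ^ b)⁻¹ * F' ^ b' ∈ S31L_U N m) : ℓ ^ b ≡ ℓ' ^ b' [MOD m] := by
  have hm0 := S31L_ne_zero_of_coprime A hA hcop
  have : NeZero m := ⟨hm0⟩
  obtain ⟨ζ, hζ⟩ := PGCYC_exists_primitiveRoot m
  exact S31L_pow_modEq hcop hcop' A A' hA hA' F F' hF hF' b b' hζ
    (S31L_U_apply_eq N h hζ.pow_eq_one)

/-- **The head of `S31_HC`**: for `m = p ^ k` the subgroup `U` is normal, contains an open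
subgroup and all inertia groups at the primes outside `S` (`S ∋ p`, `S ⊇` primes of `N`). -/
theorem S31L_HC_head (S : Finset ℕ) (p k : ℕ) (hp : p.Prime) (hpS : p ∈ S)
    (hNS : ∀ q : ℕ, q.Prime → q ∣ N → q ∈ S)
    (hfin : (Pic0.torsion Qb (modularFunctionFieldBar N) (p ^ k) : Set (JZero N)).Finite)
    (hE1 : Fermat.Agent.G_helper29_WDefs.PG_E1_statement N (p ^ k)) :
    (S31L_U N (p ^ k)).Normal ∧
    (∃ L : IntermediateField ℚ Qb, FiniteDimensional ℚ L ∧
      ∀ τ : GQ, (∀ x ∈ L, τ x = x) → τ ∈ S31L_U N (p ^ k)) ∧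
    (∀ q : ℕ, q.Prime → q ∉ S → ∀ A : ValuationSubring Qb,
      A.LiesOverPrime q → ∀ τ ∈ A.inertiaSubgroupIn ℚ, τ ∈ S31L_U N (p ^ k)) := by
  refine ⟨S31L_U_normal N (p ^ k), S31L_U_open N (p ^ k) (pow_ne_zero k hp.ne_zero) hfin, ?_⟩
  intro q hq hqS A hA τ hτ
  refine S31L_U_inertia N (p ^ k) hE1 q hq ?_ A hA τ hτ
  intro hdvd
  rcases (Nat.Prime.dvd_mul hq).mp hdvd with h | h
  · exact hqS (hNS q hq h)
  · have := (Nat.prime_dvd_prime_iff_eq hq hp).mp (hq.dvd_of_dvd_pow h)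
    exact hqS (this ▸ hpS)

end U

end

end Fermat.Agent.S31_helper5_LEVEL
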