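import Mathlib
import Fermat.Agent.S31_helper3_PAIR
import Fermat.Agent.S31_helper5_LEVEL
import Fermat.Agent.G_helper8_GALHECKE

/-!
# S31, piece P6: the Hecke congruence property

`S31HC_main`: the Hecke congruence property `S31_HC N S p n` for all `n`, from

* `hE1 : ∀ k, PG_E1_statement N (p ^ k)` (Eichler-Shimura relations on `J₀(N)[p ^ k]`);
* `hE2 : ∀ k, ∃ Θ₀, PG_E2 N (p ^ k) Θ₀` (Project G at the modulus `p ^ k`).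

The subgroup `U` is `S31L_U N (p ^ k)` of `S31_helper5_LEVEL` (the elements acting trivially on
`J₀(N)[p ^ k]` and on the `p ^ k`-th roots of unity).
-/

set_option autoImplicit false
set_option linter.style.haveILetI false
set_option linter.unusedSectionVars false

open UpperHalfPlane ModularForm CongruenceSubgroup AlgebraicCurve ModularCurve
open scoped MatrixGroups ModularForm Manifold TensorProduct
open Fermat.Agent.G_helper6_Defs Fermat.Agent.G_helper6_E2FINAL Fermat.Agent.G_helper29_WDefs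
open Fermat.Agent.S31_helper3_Defs Fermat.Agent.S31_helper3_SAT Fermat.Agent.S31_helper3_PAIR
open Fermat.Agent.S31_helper5_LEVEL

noncomputable section

namespace Fermat.Agent.S31_helper3_HC

local notation "Qb" => AlgebraicClosure ℚ
local notation "GQ" => (AlgebraicClosure ℚ ≃ₐ[ℚ] AlgebraicClosure ℚ)

variable (N : ℕ) [NeZero N]

/-! ### The Galois action and the Hecke operators on the torsion -/

theorem S31HC_smul_mem (m : ℕ) (σ : GQ) {x : JZero N} (hx : x ∈ PG_Jp N m) :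
    σ • x ∈ PG_Jp N m := by
  have h := (PG_rp N m σ ⟨x, hx⟩).2
  rwa [PG_coe_rp_apply] at h

/-- The Galois action on the `m`-torsion, as an additive endomorphism. -/
def S31HC_gal (m : ℕ) (σ : GQ) : Module.End ℤ (PG_Jp N m) :=
  (PG_rp N m σ : PG_Jp N m →ₗ[ZMod m] PG_Jp N m).toAddMonoidHom.toIntLinearMap

theorem S31HC_gal_apply (m : ℕ) (σ : GQ) (x : PG_Jp N m) :
    S31HC_gal N m σ x = PG_rp N m σ x := rfl

theorem S31HC_gal_coe (m : ℕ) (σ : GQ) (x : PG_Jp N m) :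
    ((S31HC_gal N m σ x : PG_Jp N m) : JZero N) = σ • (x : JZero N) := rfl

theorem S31HC_gal_one (m : ℕ) : S31HC_gal N m 1 = 1 := by
  refine LinearMap.ext fun x => ?_
  rw [S31HC_gal_apply, map_one]
  rfl

theorem S31HC_gal_mul (m : ℕ) (σ τ : GQ) :
    S31HC_gal N m (σ * τ) = S31HC_gal N m σ * S31HC_gal N m τ := by
  refine LinearMap.ext fun x => ?_
  rw [S31HC_gal_apply, map_mul]
  rfl

theorem S31HC_gal_pow (m : ℕ) (σ : GQ) (b : ℕ) :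
    S31HC_gal N m (σ ^ b) = S31HC_gal N m σ ^ b := by
  induction b with
  | zero => rw [pow_zero, pow_zero, S31HC_gal_one]
  | succ n ih => rw [pow_succ, pow_succ, S31HC_gal_mul, ih]

/-- The Hecke operator on the `m`-torsion. -/
def S31HC_T (m : ℕ) (ℓ : Nat.Primes) : Module.End ℤ (PG_Jp N m) :=
  (PG_TpAdd N m ℓ).toIntLinearMap

theorem S31HC_T_coe (m : ℕ) (ℓ : Nat.Primes) (x : PG_Jp N m) :
    ((S31HC_T N m ℓ x : PG_Jp N m) : JZero N) = heckeOperatorBar N ℓ (x : JZero N) := rfl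

theorem S31HC_commute (m : ℕ) (ℓ : Nat.Primes) (σ : GQ) :
    Commute (S31HC_gal N m σ) (S31HC_T N m ℓ) := by
  refine LinearMap.ext fun x => Subtype.ext ?_
  rw [Module.End.mul_apply, Module.End.mul_apply, S31HC_gal_coe, S31HC_T_coe, S31HC_T_coe,
    S31HC_gal_coe]
  exact (Fermat.Agent.G_helper8_GALHECKE.PG11_hecke_galois_comm N ℓ σ (x : JZero N)).symm

/-! ### The Dickson expressions agree on the torsion -/

theorem S31HC_nsmul_torsion (m : ℕ) (x : PG_Jp N m) : m • x = 0 :=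
  Subtype.ext (PG_mem_Jp.mp x.2)

theorem S31HC_natCast_eq (m : ℕ) {a a' : ℕ} (h : a ≡ a' [MOD m]) :
    ((a : ℕ) : Module.End ℤ (PG_Jp N m)) = ((a' : ℕ) : Module.End ℤ (PG_Jp N m)) := by
  have key : ∀ (a : ℕ) (x : PG_Jp N m), a • x = (a % m) • x := by
    intro a x
    conv_lhs => rw [← Nat.mod_add_div a m]
    rw [add_smul, mul_comm m (a / m), mul_smul, S31HC_nsmul_torsion N m x, smul_zero, add_zero]
  refine LinearMap.ext fun x => ?_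
  rw [S31SAT_natCast_apply, S31SAT_natCast_apply, key a, key a']
  rw [show a % m = a' % m from h]

theorem S31HC_ES_apply (m : ℕ) (hE1 : PG_E1_statement N m) (ℓ : Nat.Primes)
    (hℓNm : ¬ (ℓ : ℕ) ∣ N * m) (A : ValuationSubring Qb) (hA : A.LiesOverPrime ℓ) (F : GQ)
    (hF : A.IsFrobeniusAt F ℓ) (x : PG_Jp N m) :
    S31HC_gal N m F (S31HC_gal N m F x) - S31HC_T N m ℓ (S31HC_gal N m F x)
      + (ℓ : ℕ) • x = 0 := by
  apply Subtype.ext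
  have h := (hE1 ℓ ℓ.2 hℓNm A hA (x : JZero N) (PG_mem_Jp.mp x.2)).2 F hF
  exact h

theorem S31HC_ES (m : ℕ) (hE1 : PG_E1_statement N m) (ℓ : Nat.Primes)
    (hℓNm : ¬ (ℓ : ℕ) ∣ N * m) (A : ValuationSubring Qb) (hA : A.LiesOverPrime ℓ) (F : GQ)
    (hF : A.IsFrobeniusAt F ℓ) :
    S31HC_gal N m F * S31HC_gal N m F - S31HC_T N m ℓ * S31HC_gal N m F
      + (((ℓ : ℕ) : ℕ) : Module.End ℤ (PG_Jp N m)) = 0 := by
  refine LinearMap.ext fun x => ?_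
  have e : (S31HC_gal N m F * S31HC_gal N m F - S31HC_T N m ℓ * S31HC_gal N m F
      + (((ℓ : ℕ) : ℕ) : Module.End ℤ (PG_Jp N m))) x =
      S31HC_gal N m F (S31HC_gal N m F x) - S31HC_T N m ℓ (S31HC_gal N m F x)
        + (((ℓ : ℕ) : ℕ) : Module.End ℤ (PG_Jp N m)) x := rfl
  rw [e, S31SAT_natCast_apply, LinearMap.zero_apply]
  exact S31HC_ES_apply N m hE1 ℓ hℓNm A hA F hF x

theorem S31HC_gal_inj (m : ℕ) (g : GQ) (z : Module.End ℤ (PG_Jp N m))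
    (h : S31HC_gal N m g * z = 0) : z = 0 := by
  have h1 : S31HC_gal N m g⁻¹ * (S31HC_gal N m g * z) = 0 := by rw [h, mul_zero]
  rwa [← mul_assoc, ← S31HC_gal_mul, inv_mul_cancel, S31HC_gal_one, one_mul] at h1

theorem S31HC_gal_congr (m : ℕ) (g g' : GQ) (hU : g⁻¹ * g' ∈ S31L_U N m) :
    S31HC_gal N m g = S31HC_gal N m g' := by
  refine LinearMap.ext fun x => Subtype.ext ?_
  exact S31L_U_smul_eq N hU (PG_mem_Jp.mp x.2)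

/-- **The Dickson expressions of two Frobenius powers which agree modulo `U` agree on the
`m`-torsion.** -/
theorem S31HC_dick_eq (m : ℕ) (hE1 : PG_E1_statement N m) (ℓ ℓ' : Nat.Primes)
    (hℓNm : ¬ (ℓ : ℕ) ∣ N * m) (hℓ'Nm : ¬ (ℓ' : ℕ) ∣ N * m)
    (A A' : ValuationSubring Qb) (F F' : GQ) (b b' : ℕ)
    (hA : A.LiesOverPrime ℓ) (hA' : A'.LiesOverPrime ℓ')
    (hF : A.IsFrobeniusAt F ℓ) (hF' : A'.IsFrobeniusAt F' ℓ')
    (hU : (F ^ b)⁻¹ * F' ^ b' ∈ S31L_U N m) :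
    S31_dick (S31HC_T N m ℓ) (((ℓ : ℕ) : ℕ) : Module.End ℤ (PG_Jp N m)) b =
      S31_dick (S31HC_T N m ℓ') (((ℓ' : ℕ) : ℕ) : Module.End ℤ (PG_Jp N m)) b' := by
  have hcop : Nat.Coprime (ℓ : ℕ) m :=
    (Nat.Prime.coprime_iff_not_dvd ℓ.2).mpr fun h => hℓNm (Dvd.dvd.mul_left h N)
  have hcop' : Nat.Coprime (ℓ' : ℕ) m :=
    (Nat.Prime.coprime_iff_not_dvd ℓ'.2).mpr fun h => hℓ'Nm (Dvd.dvd.mul_left h N)
  refine S31SAT_frob (S31HC_gal N m F) (S31HC_gal N m F') _ _ (ℓ : ℕ) (ℓ' : ℕ) b b'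
    (S31HC_commute N m ℓ F) (S31HC_commute N m ℓ' F')
    (S31HC_ES N m hE1 ℓ hℓNm A hA F hF) (S31HC_ES N m hE1 ℓ' hℓ'Nm A' hA' F' hF')
    ?_ ?_ ?_
  · rw [← S31HC_gal_pow, ← S31HC_gal_pow]
    exact S31HC_gal_congr N m _ _ hU
  · intro z hz
    rw [← S31HC_gal_pow] at hz
    exact S31HC_gal_inj N m _ z hz
  · exact S31HC_natCast_eq N m (S31L_U_modEq N hcop hcop' A A' hA hA' F F' hF hF' b b' hU)

/-! ### Transport to the lattice -/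

/-- `Θ₀` with values in the `m`-torsion, as a `ℤ`-linear map. -/
def S31HC_theta (m : ℕ) (Θ₀ : PG_M N →+ JZero N) (h : ∀ c : PG_M N, (m : ℤ) • Θ₀ c = 0) :
    PG_M N →ₗ[ℤ] PG_Jp N m :=
  (PG_E2F_theta N m Θ₀ h).toIntLinearMap

theorem S31HC_theta_coe (m : ℕ) (Θ₀ : PG_M N →+ JZero N) (h : ∀ c : PG_M N, (m : ℤ) • Θ₀ c = 0)
    (c : PG_M N) : ((S31HC_theta N m Θ₀ h c : PG_Jp N m) : JZero N) = Θ₀ c := rfl

theorem S31HC_theta_hecke (m : ℕ) (Θ₀ : PG_M N →+ JZero N) (hΘ₀ : PG_E2 N m Θ₀)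
    (ℓ : Nat.Primes) (hℓN : ¬ (ℓ : ℕ) ∣ N) [NeZero (ℓ : ℕ)] (c : PG_M N) :
    S31HC_theta N m Θ₀ hΘ₀.tors (PG_E2F_TM N (ℓ : ℕ) c) =
      S31HC_T N m ℓ (S31HC_theta N m Θ₀ hΘ₀.tors c) := by
  apply Subtype.ext
  exact (hΘ₀.hecke ℓ c (PG_E2F_TM N (ℓ : ℕ) c) hℓN rfl).symm

/-- **The Dickson expressions on the lattice are congruent modulo `m`.** -/
theorem S31HC_lattice (m : ℕ) (hm : m ≠ 0) (hE1 : PG_E1_statement N m)
    (Θ₀ : PG_M N →+ JZero N) (hΘ₀ : PG_E2 N m Θ₀) (ℓ ℓ' : Nat.Primes)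
    [NeZero (ℓ : ℕ)] [NeZero (ℓ' : ℕ)]
    (hℓN : ¬ (ℓ : ℕ) ∣ N) (hℓ'N : ¬ (ℓ' : ℕ) ∣ N) (hℓm : ¬ (ℓ : ℕ) ∣ m) (hℓ'm : ¬ (ℓ' : ℕ) ∣ m)
    (A A' : ValuationSubring Qb) (F F' : GQ) (b b' : ℕ)
    (hA : A.LiesOverPrime ℓ) (hA' : A'.LiesOverPrime ℓ')
    (hF : A.IsFrobeniusAt F ℓ) (hF' : A'.IsFrobeniusAt F' ℓ')
    (hU : (F ^ b)⁻¹ * F' ^ b' ∈ S31L_U N m) :
    ∃ e : Module.End ℤ (PG_M N),
      S31_dick (PG_E2F_TM N (ℓ : ℕ)) (((ℓ : ℕ) : ℕ) : Module.End ℤ (PG_M N)) b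
        - S31_dick (PG_E2F_TM N (ℓ' : ℕ)) (((ℓ' : ℕ) : ℕ) : Module.End ℤ (PG_M N)) b'
        = m • e := by
  have hℓNm : ¬ (ℓ : ℕ) ∣ N * m := fun h => (ℓ.2.dvd_mul.mp h).elim hℓN hℓm
  have hℓ'Nm : ¬ (ℓ' : ℕ) ∣ N * m := fun h => (ℓ'.2.dvd_mul.mp h).elim hℓ'N hℓ'm
  have hJ := S31HC_dick_eq N m hE1 ℓ ℓ' hℓNm hℓ'Nm A A' F F' b b' hA hA' hF hF' hU
  refine S31SAT_exists_smul (S31PAIR_M_torsionFree N) _ m hm fun c => ?_
  have h1 := S31SAT_dick_comm (S31HC_theta N m Θ₀ hΘ₀.tors) (PG_E2F_TM N (ℓ : ℕ))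
    (S31HC_T N m ℓ) (S31HC_theta_hecke N m Θ₀ hΘ₀ ℓ hℓN) (ℓ : ℕ) b c
  have h2 := S31SAT_dick_comm (S31HC_theta N m Θ₀ hΘ₀.tors) (PG_E2F_TM N (ℓ' : ℕ))
    (S31HC_T N m ℓ') (S31HC_theta_hecke N m Θ₀ hΘ₀ ℓ' hℓ'N) (ℓ' : ℕ) b' c
  have h3 : S31HC_theta N m Θ₀ hΘ₀.tors
      ((S31_dick (PG_E2F_TM N (ℓ : ℕ)) (((ℓ : ℕ) : ℕ) : Module.End ℤ (PG_M N)) b
        - S31_dick (PG_E2F_TM N (ℓ' : ℕ)) (((ℓ' : ℕ) : ℕ) : Module.End ℤ (PG_M N)) b') c)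
        = 0 := by
    rw [LinearMap.sub_apply, map_sub, h1, h2, hJ, sub_self]
  have h4 : Θ₀ ((S31_dick (PG_E2F_TM N (ℓ : ℕ)) (((ℓ : ℕ) : ℕ) : Module.End ℤ (PG_M N)) b
        - S31_dick (PG_E2F_TM N (ℓ' : ℕ)) (((ℓ' : ℕ) : ℕ) : Module.End ℤ (PG_M N)) b') c)
        = 0 := by
    have := congrArg (fun y : PG_Jp N m => (y : JZero N)) h3
    exact this
  obtain ⟨c', hc'⟩ := hΘ₀.inj _ h4
  exact ⟨c', by rw [hc', natCast_zsmul]⟩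

/-! ### The main theorem -/

/-- **The Hecke congruence property**, from (E1) and (E2) at the powers of `p`. -/
theorem S31HC_main (S : Finset ℕ) (p : ℕ) (hp : p.Prime) (hpS : p ∈ S)
    (hNS : ∀ q : ℕ, q.Prime → q ∣ N → q ∈ S)
    (hE1 : ∀ k : ℕ, PG_E1_statement N (p ^ k))
    (hE2 : ∀ k : ℕ, ∃ Θ₀ : PG_M N →+ JZero N, PG_E2 N (p ^ k) Θ₀) :
    ∀ n : ℕ, S31_HC N S p n := by
  obtain ⟨c, hc⟩ := S31PAIR_main N S p hp
  intro n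
  obtain ⟨Θ₀, hΘ₀⟩ := hE2 (n + c)
  obtain ⟨h1, h2, h3⟩ := S31L_HC_head N S p (n + c) hp hpS hNS hΘ₀.fin (hE1 (n + c))
  refine ⟨S31L_U N (p ^ (n + c)), h1, h2, h3, ?_⟩
  intro ℓ ℓ' hℓ hℓ' hℓN hℓ'N hℓS hℓ'S A A' F F' b b' hA hA' hF hF' hU
  have hℓp : ¬ ℓ ∣ p ^ (n + c) := fun h => by
    have := (Nat.prime_dvd_prime_iff_eq hℓ hp).mp (hℓ.dvd_of_dvd_pow h)
    exact hℓS (this ▸ Finset.mem_coe.mpr hpS)
  have hℓ'p : ¬ ℓ' ∣ p ^ (n + c) := fun h => by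
    have := (Nat.prime_dvd_prime_iff_eq hℓ' hp).mp (hℓ'.dvd_of_dvd_pow h)
    exact hℓ'S (this ▸ Finset.mem_coe.mpr hpS)
  haveI : NeZero ℓ := ⟨hℓ.ne_zero⟩
  haveI : NeZero ℓ' := ⟨hℓ'.ne_zero⟩
  obtain ⟨e, he⟩ := S31HC_lattice N (p ^ (n + c)) (pow_ne_zero _ hp.ne_zero) (hE1 (n + c)) Θ₀ hΘ₀
    (⟨ℓ, hℓ⟩ : Nat.Primes) (⟨ℓ', hℓ'⟩ : Nat.Primes) hℓN hℓ'N hℓp hℓ'p A A' F F' b b'
    hA hA' hF hF' hU
  have := hc (n + c) ℓ ℓ' hℓ hℓ' hℓN hℓ'N hℓS hℓ'S b b' e he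
  rwa [Nat.add_sub_cancel] at this

end Fermat.Agent.S31_helper3_HC
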