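import Mathlib

/-!
# S31, piece P5 (SAT): the saturation constant

Let `A` be a commutative ring acting faithfully on a finite free `ℤ`-module `M` through
`Ψ : A →+* Module.End ℤ M` and let `p` be a prime.  Then there is a constant `c` such that every
`u : A` with `Ψ u M ⊆ p ^ (n + c) M` is divisible by `p ^ n` in `A`.

* `S31S_exists_exponent` : the saturation of a subgroup of a finitely generated abelian group has
  finite exponent over it;
* `S31S_sat`             : the statement above;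
* `S31S_sat_sub`         : the same in the form `Ψ u M ⊆ p ^ k M → u ∈ p ^ (k - c) A`.
-/

set_option autoImplicit false
set_option linter.unusedSectionVars false

namespace Fermat.Agent.S31_helper5_SAT

/-- The saturation of a submodule of a finitely generated `ℤ`-module has finite exponent over
the submodule. -/
theorem S31S_exists_exponent {E : Type*} [AddCommGroup E] [Module.Finite ℤ E]
    (R : Submodule ℤ E) :
    ∃ D : ℕ, 0 < D ∧ ∀ (ν : E) (k : ℕ), 0 < k → k • ν ∈ R → D • ν ∈ R := by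
  classical
  -- the saturation
  let Sat : Submodule ℤ E :=
    { carrier := {ν | ∃ k : ℕ, 0 < k ∧ k • ν ∈ R}
      add_mem' := by
        rintro a b ⟨k, hk, ha⟩ ⟨l, hl, hb⟩
        refine ⟨k * l, Nat.mul_pos hk hl, ?_⟩
        rw [smul_add]
        refine R.add_mem ?_ ?_
        · rw [mul_comm, mul_smul]
          exact R.smul_of_tower_mem l ha
        · rw [mul_smul]
          exact R.smul_of_tower_mem k hb
      zero_mem' := ⟨1, Nat.one_pos, by rw [smul_zero]; exact R.zero_mem⟩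
      smul_mem' := by
        rintro z a ⟨k, hk, ha⟩
        refine ⟨k, hk, ?_⟩
        rw [smul_comm]
        exact R.smul_mem z ha }
  have hmem : ∀ ν : E, ν ∈ Sat ↔ ∃ k : ℕ, 0 < k ∧ k • ν ∈ R := fun ν => Iff.rfl
  have hfg : Sat.FG := IsNoetherian.noetherian Sat
  obtain ⟨s, hs⟩ := hfg
  have hsub : ∀ x ∈ s, ∃ k : ℕ, 0 < k ∧ k • x ∈ R := by
    intro x hx
    have : x ∈ Sat := by
      rw [← hs]
      exact Submodule.subset_span hx
    exact (hmem x).mp this
  choose! κ hκpos hκ using hsub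
  refine ⟨∏ x ∈ s, κ x, Finset.prod_pos fun x hx => hκpos x hx, ?_⟩
  have key : ∀ ν ∈ Submodule.span ℤ (s : Set E), (∏ x ∈ s, κ x) • ν ∈ R := by
    intro ν hνS
    induction hνS using Submodule.span_induction with
    | mem x hx =>
      have hx' : x ∈ s := hx
      rw [← Finset.mul_prod_erase s κ hx', mul_comm, mul_smul]
      exact R.smul_of_tower_mem _ (hκ x hx')
    | zero => rw [smul_zero]; exact R.zero_mem
    | add a b _ _ ha hb => rw [smul_add]; exact R.add_mem ha hb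
    | smul z a _ ha => rw [smul_comm]; exact R.smul_mem z ha
  intro ν k hk hν
  have hνS : ν ∈ Sat := (hmem ν).mpr ⟨k, hk, hν⟩
  rw [← hs] at hνS
  exact key ν hνS

section Main

variable {A M : Type*} [CommRing A] [AddCommGroup M] [Module.Free ℤ M] [Module.Finite ℤ M]

/-- An endomorphism with values in `m M` (`m ≠ 0`) is `m` times an endomorphism. -/
theorem S31S_exists_div (f : Module.End ℤ M) (m : ℕ) (hm : m ≠ 0)
    (h : ∀ x : M, ∃ y : M, f x = m • y) : ∃ ν : Module.End ℤ M, f = m • ν := by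
  classical
  have hinj : ∀ y y' : M, m • y = m • y' → y = y' := by
    intro y y' hyy
    have h0 : (m : ℤ) • (y - y') = 0 := by
      rw [smul_sub, natCast_zsmul, natCast_zsmul, hyy, sub_self]
    rcases smul_eq_zero.mp h0 with h1 | h1
    · exact absurd (by exact_mod_cast h1) hm
    · exact sub_eq_zero.mp h1
  choose g hg using h
  refine ⟨{ toFun := g
            map_add' := fun x x' => hinj _ _ (by rw [← hg, map_add, hg x, hg x', smul_add])
            map_smul' := fun z x => hinj _ _ (by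
              rw [← hg, map_smul, hg x, RingHom.id_apply, smul_comm]) }, ?_⟩
  ext x
  rw [hg x]
  rfl

/-- **(SAT)** the saturation constant of a faithful action on a finite free `ℤ`-module. -/
theorem S31S_sat (Ψ : A →+* Module.End ℤ M) (hΨ : Function.Injective Ψ) (p : ℕ)
    (hp : p.Prime) :
    ∃ c : ℕ, ∀ (n : ℕ) (u : A), (∀ x : M, ∃ y : M, Ψ u x = (p ^ (n + c) : ℕ) • y) →
      ∃ w : A, u = ((p ^ n : ℕ) : A) * w := by
  classical
  let R : Submodule ℤ (Module.End ℤ M) := AddSubgroup.toIntSubmodule Ψ.toAddMonoidHom.range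
  have hR : ∀ f : Module.End ℤ M, f ∈ R ↔ ∃ a : A, Ψ a = f := fun f => Iff.rfl
  obtain ⟨D, hD, hDsat⟩ := S31S_exists_exponent R
  obtain ⟨c, D', hD'p, hDeq⟩ := Nat.exists_eq_pow_mul_and_not_dvd hD.ne' p hp.ne_one
  refine ⟨c, fun n u hu => ?_⟩
  -- `Ψ` of a natural multiple
  have hΨnat : ∀ (k : ℕ) (a : A), Ψ ((k : A) * a) = k • Ψ a := by
    intro k a
    rw [map_mul, map_natCast, ← nsmul_eq_mul]
  -- multiplication by a nonzero natural number is injective on `A`
  have hAinj : ∀ (k : ℕ), k ≠ 0 → ∀ a b : A, (k : A) * a = (k : A) * b → a = b := by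
    intro k hk a b hab
    apply hΨ
    have h1 : k • Ψ a = k • Ψ b := by rw [← hΨnat, ← hΨnat, hab]
    have h2 : (k : ℤ) • (Ψ a - Ψ b) = 0 := by
      rw [smul_sub, natCast_zsmul, natCast_zsmul, h1, sub_self]
    rcases smul_eq_zero.mp h2 with h3 | h3
    · exact absurd (by exact_mod_cast h3) hk
    · exact sub_eq_zero.mp h3
  obtain ⟨ν, hν⟩ := S31S_exists_div (Ψ u) (p ^ (n + c)) (pow_ne_zero _ hp.ne_zero) hu
  have hνR : (p ^ (n + c)) • ν ∈ R := (hR _).mpr ⟨u, hν⟩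
  obtain ⟨w₀, hw₀⟩ := (hR _).mp (hDsat ν (p ^ (n + c)) (pow_pos hp.pos _) hνR)
  -- `D u = p^(n+c) w₀`
  have h1 : ((D : ℕ) : A) * u = ((p ^ (n + c) : ℕ) : A) * w₀ := by
    apply hΨ
    rw [hΨnat, hΨnat, hw₀, hν, smul_comm]
  -- cancel `p ^ c`
  have h2 : ((D' : ℕ) : A) * u = ((p ^ n : ℕ) : A) * w₀ := by
    apply hAinj (p ^ c) (pow_ne_zero _ hp.ne_zero)
    rw [← mul_assoc, ← mul_assoc, ← Nat.cast_mul, ← Nat.cast_mul, ← hDeq, h1, pow_add,
      mul_comm (p ^ n) (p ^ c)]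
  -- Bezout
  have hcop : Nat.Coprime D' (p ^ n) :=
    Nat.Coprime.pow_right n ((Nat.Prime.coprime_iff_not_dvd hp).mpr hD'p).symm
  have hb : (D' : ℤ) * Nat.gcdA D' (p ^ n) + ((p ^ n : ℕ) : ℤ) * Nat.gcdB D' (p ^ n) = 1 := by
    have := Nat.gcd_eq_gcd_ab D' (p ^ n)
    rw [hcop] at this
    exact_mod_cast this.symm
  have hbA : ((D' : ℕ) : A) * ((Nat.gcdA D' (p ^ n) : ℤ) : A) +
      ((p ^ n : ℕ) : A) * ((Nat.gcdB D' (p ^ n) : ℤ) : A) = 1 := by
    have := congrArg (fun z : ℤ => (z : A)) hb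
    simpa using this
  refine ⟨((Nat.gcdA D' (p ^ n) : ℤ) : A) * w₀ + ((Nat.gcdB D' (p ^ n) : ℤ) : A) * u, ?_⟩
  calc u = (((D' : ℕ) : A) * ((Nat.gcdA D' (p ^ n) : ℤ) : A) +
        ((p ^ n : ℕ) : A) * ((Nat.gcdB D' (p ^ n) : ℤ) : A)) * u := by rw [hbA, one_mul]
    _ = ((Nat.gcdA D' (p ^ n) : ℤ) : A) * (((D' : ℕ) : A) * u) +
        ((p ^ n : ℕ) : A) * (((Nat.gcdB D' (p ^ n) : ℤ) : A) * u) := by ring
    _ = ((p ^ n : ℕ) : A) *
        (((Nat.gcdA D' (p ^ n) : ℤ) : A) * w₀ + ((Nat.gcdB D' (p ^ n) : ℤ) : A) * u) := by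
      rw [h2]; ring

/-- **(SAT)**, subtraction form: `Ψ u M ⊆ p ^ k M → u ∈ p ^ (k - c) A`. -/
theorem S31S_sat_sub (Ψ : A →+* Module.End ℤ M) (hΨ : Function.Injective Ψ) (p : ℕ)
    (hp : p.Prime) :
    ∃ c : ℕ, ∀ (k : ℕ) (u : A), (∀ x : M, ∃ y : M, Ψ u x = (p ^ k : ℕ) • y) →
      ∃ w : A, u = ((p ^ (k - c) : ℕ) : A) * w := by
  obtain ⟨c, hc⟩ := S31S_sat Ψ hΨ p hp
  refine ⟨c, fun k u hu => ?_⟩
  by_cases hkc : c ≤ k
  · refine hc (k - c) u ?_
    rw [Nat.sub_add_cancel hkc]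
    exact hu
  · rw [Nat.sub_eq_zero_of_le (le_of_not_ge hkc), pow_zero, Nat.cast_one]
    exact ⟨u, (one_mul u).symm⟩

/-- **(SAT)** for all `n` at once, in the form used by the Hecke congruence property: for every
`n` there is `k` such that `Ψ u M ⊆ p ^ k M` implies `u ∈ p ^ n A`. -/
theorem S31S_sat_exists (Ψ : A →+* Module.End ℤ M) (hΨ : Function.Injective Ψ) (p : ℕ)
    (hp : p.Prime) (n : ℕ) :
    ∃ k : ℕ, n ≤ k ∧ ∀ u : A, (∀ x : M, ∃ y : M, Ψ u x = (p ^ k : ℕ) • y) →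
      ∃ w : A, u = ((p ^ n : ℕ) : A) * w := by
  obtain ⟨c, hc⟩ := S31S_sat Ψ hΨ p hp
  exact ⟨n + c, Nat.le_add_right n c, fun u hu => hc n u hu⟩

end Main

end Fermat.Agent.S31_helper5_SAT
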