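import Mathlib
import Fermat.Prelude.Def_GaloisRep_Adic
import Fermat.Prelude.Def_EllipticCurve_FrobeniusTrace
import Fermat.Prelude.Def_FLTPrelim_Ramification
import Fermat.Prelude.Def_CuspForm_HeckeGaloisRepDatum
import Fermat.Agent.G_helper9_FROBDENS
import Fermat.Agent.S30_helper9_P7
import Fermat.Agent.S30_helper9_Q1

set_option autoImplicit false
set_option linter.unusedSectionVars false
set_option linter.unusedVariables false
set_option linter.deprecated false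
set_option linter.style.haveILetI false

/-! # S31, piece W (helper9): traces of an adic Galois representation via Frobenius lifts

`S31W_trace_frob_abs` : for a `GaloisRepAdic T` whose Frobenius lifts outside a finite set `S₀` have
characteristic polynomial `X² - a_ℓ X + ℓ`, for every `g`, every level `n` and every finite
extension `L0` there is a Frobenius lift `σ` at some `ℓ ∉ S₀` and `b` with `g = σ^b` on `L0` and
`tr ρ(g) ≡ D_b(a_ℓ, ℓ) mod 𝔪^n`.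

`S31W_trace_frob` : the same for the representation of a `HeckeGaloisRepDatum`.
-/

open Polynomial

namespace Fermat.Agent.S31_helper9_W

open Fermat.Agent.S30_helper9_P7 Fermat.Agent.S30_helper9_Q1 Fermat.Agent.G_helper9_FROBDENS

section Linear

variable {R : Type*} [CommRing R] {V : Type*} [AddCommGroup V] [Module R V]

/-- linear maps preserve `I • ⊤` -/
theorem S31W_map_mem_smul_top (I : Ideal R) {W : Type*} [AddCommGroup W] [Module R W]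
    (f : V →ₗ[R] W) {x : V} (hx : x ∈ I • (⊤ : Submodule R V)) :
    f x ∈ I • (⊤ : Submodule R W) := by
  refine Submodule.smul_induction_on hx ?_ ?_
  · intro r hr m _
    rw [map_smul]
    exact Submodule.smul_mem_smul hr Submodule.mem_top
  · intro x y hx hy
    rw [map_add]
    exact Submodule.add_mem _ hx hy

theorem S31W_functional_mem (I : Ideal R) (f : V →ₗ[R] R) {x : V}
    (hx : x ∈ I • (⊤ : Submodule R V)) : f x ∈ I := by
  have h := S31W_map_mem_smul_top I f hx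
  rwa [Ideal.smul_top_eq_map, Algebra.algebraMap_self, Ideal.map_id] at h

variable [Module.Free R V] [Module.Finite R V]

/-- the trace of an endomorphism with values in `I V` lies in `I` -/
theorem S31W_trace_mem (I : Ideal R) (f : Module.End R V)
    (hf : ∀ v : V, f v ∈ I • (⊤ : Submodule R V)) : LinearMap.trace R V f ∈ I := by
  classical
  let b := Module.Free.chooseBasis R V
  rw [LinearMap.trace_eq_matrix_trace R b f, Matrix.trace]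
  apply Ideal.sum_mem
  intro i _
  rw [Matrix.diag_apply, LinearMap.toMatrix_apply]
  exact S31W_functional_mem I (b.coord i) (hf (b i))

end Linear

section Abs

variable {T : Type} [CommRing T] [IsLocalRing T]

theorem S31W_trace_frob_abs (ρ : GaloisRepAdic T) (S₀ : Finset ℕ) (a : ℕ → T)
    (hfrob : ∀ ℓ : ℕ, ℓ.Prime → ℓ ∉ S₀ → ∀ A : ValuationSubring (AlgebraicClosure ℚ),
      A.LiesOverPrime ℓ → ∀ σ : AlgebraicClosure ℚ ≃ₐ[ℚ] AlgebraicClosure ℚ,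
        A.IsFrobeniusAt σ ℓ →
          LinearMap.charpoly (ρ.ρ σ) = X ^ 2 - C (a ℓ) * X + C ((ℓ : T)))
    (n : ℕ) (g : AlgebraicClosure ℚ ≃ₐ[ℚ] AlgebraicClosure ℚ)
    (L0 : IntermediateField ℚ (AlgebraicClosure ℚ)) [FiniteDimensional ℚ L0] :
    ∃ (ℓ : ℕ) (A : ValuationSubring (AlgebraicClosure ℚ))
      (σ : AlgebraicClosure ℚ ≃ₐ[ℚ] AlgebraicClosure ℚ) (b : ℕ),
      ℓ.Prime ∧ ℓ ∉ S₀ ∧ A.LiesOverPrime ℓ ∧ A.IsFrobeniusAt σ ℓ ∧
      (∀ x ∈ L0, g x = (σ ^ b) x) ∧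
      LinearMap.trace T ρ.V (ρ.ρ g) - S30P7_dickson (E := T) (a ℓ) ((ℓ : T)) b ∈
        IsLocalRing.maximalIdeal T ^ n := by
  obtain ⟨L₁, hL₁, h₁⟩ := ρ.isAdicContinuous n
  haveI := hL₁
  haveI : FiniteDimensional ℚ (L₁ ⊔ L0 : IntermediateField ℚ (AlgebraicClosure ℚ)) :=
    IntermediateField.finiteDimensional_sup L₁ L0
  obtain ⟨ℓ, A, σ, b, hℓ, hℓS, hA, hσ, hg⟩ := PG_frobenius_density (L₁ ⊔ L0) g S₀
  refine ⟨ℓ, A, σ, b, hℓ, hℓS, hA, hσ, fun x hx => hg x ((le_sup_right : L0 ≤ L₁ ⊔ L0) hx), ?_⟩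
  set h : AlgebraicClosure ℚ ≃ₐ[ℚ] AlgebraicClosure ℚ := (σ ^ b)⁻¹ * g with hh
  have hfix : ∀ x ∈ L₁, h x = x := by
    intro x hx
    rw [hh, AlgEquiv.mul_apply, hg x ((le_sup_left : L₁ ≤ L₁ ⊔ L0) hx)]
    exact (σ ^ b).symm_apply_apply x
  have hg_eq : g = σ ^ b * h := by rw [hh]; group
  have hcp := hfrob ℓ hℓ hℓS A hA σ hσ
  have htr := S30Q1_trace_pow (ρ.ρ σ) (a ℓ) ((ℓ : T)) hcp b
  rw [← htr]
  have e1 : ρ.ρ g = (ρ.ρ σ) ^ b * ρ.ρ h := by rw [hg_eq, map_mul, map_pow]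
  have e2 : LinearMap.trace T ρ.V (ρ.ρ g) - LinearMap.trace T ρ.V ((ρ.ρ σ) ^ b) =
      LinearMap.trace T ρ.V ((ρ.ρ σ) ^ b * (ρ.ρ h - 1)) := by
    rw [e1, mul_sub, mul_one, map_sub]
  rw [e2]
  apply S31W_trace_mem
  intro v
  rw [Module.End.mul_apply]
  apply S31W_map_mem_smul_top
  rw [LinearMap.sub_apply, Module.End.one_apply]
  exact h₁ h hfix v

end Abs

section Datum

variable {p : ℕ} {N : ℕ} [NeZero N] {S : Finset ℕ}
  {𝒪 : Type} [CommRing 𝒪] [IsDomain 𝒪] [IsDiscreteValuationRing 𝒪]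
  [IsAdicComplete (IsLocalRing.maximalIdeal 𝒪) 𝒪]
  {θ : CuspForm.heckeAlgebra N 2 (↑S : Set ℕ) →+* IsLocalRing.ResidueField 𝒪}
  {T : Type} [CommRing T] [IsLocalRing T] [IsNoetherianRing T]
  [IsAdicComplete (IsLocalRing.maximalIdeal T) T] [Algebra 𝒪 T] [IsLocalHom (algebraMap 𝒪 T)]
  [Module.Finite 𝒪 T] [Module.Free 𝒪 T]

/-- the Hecke eigenvalue function of a datum (junk value `0` at the excluded primes) -/
noncomputable def S31W_a (H : CuspForm.HeckeGaloisRepDatum N (↑S : Set ℕ) 𝒪 θ T) (ℓ : ℕ) : T :=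
  if h : ℓ.Prime ∧ ¬ ℓ ∣ N ∧ ℓ ∉ (↑S : Set ℕ) then
    H.π (CuspForm.heckeAlgebra.T h.1 h.2.1 h.2.2) else 0

theorem S31W_a_eq (H : CuspForm.HeckeGaloisRepDatum N (↑S : Set ℕ) 𝒪 θ T) {ℓ : ℕ}
    (hℓ : ℓ.Prime) (hℓN : ¬ ℓ ∣ N) (hℓS : ℓ ∉ (↑S : Set ℕ)) :
    S31W_a H ℓ = H.π (CuspForm.heckeAlgebra.T hℓ hℓN hℓS) := by
  unfold S31W_a
  rw [dif_pos ⟨hℓ, hℓN, hℓS⟩]

theorem S31W_trace_frob (H : CuspForm.HeckeGaloisRepDatum N (↑S : Set ℕ) 𝒪 θ T)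
    (n : ℕ) (g : AlgebraicClosure ℚ ≃ₐ[ℚ] AlgebraicClosure ℚ)
    (L0 : IntermediateField ℚ (AlgebraicClosure ℚ)) [FiniteDimensional ℚ L0]
    (S' : Finset ℕ) :
    ∃ (ℓ : ℕ) (hℓ : ℓ.Prime) (hℓN : ¬ ℓ ∣ N) (hℓS : ℓ ∉ (↑S : Set ℕ))
      (A : ValuationSubring (AlgebraicClosure ℚ))
      (σ : AlgebraicClosure ℚ ≃ₐ[ℚ] AlgebraicClosure ℚ) (b : ℕ),
      ℓ ∉ S' ∧ A.LiesOverPrime ℓ ∧ A.IsFrobeniusAt σ ℓ ∧
      (∀ x ∈ L0, g x = (σ ^ b) x) ∧
      LinearMap.trace T H.ρ.V (H.ρ.ρ g) -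
          S30P7_dickson (E := T) (H.π (CuspForm.heckeAlgebra.T hℓ hℓN hℓS)) ((ℓ : T)) b ∈
        IsLocalRing.maximalIdeal T ^ n := by
  classical
  set S₀ : Finset ℕ := S ∪ S' ∪ N.primeFactors with hS₀
  have hsplit : ∀ ℓ : ℕ, ℓ.Prime → ℓ ∉ S₀ → (¬ ℓ ∣ N ∧ ℓ ∉ (↑S : Set ℕ) ∧ ℓ ∉ S') := by
    intro ℓ hℓ hℓS₀
    refine ⟨?_, ?_, ?_⟩
    · intro hdvd
      apply hℓS₀
      rw [hS₀]
      exact Finset.mem_union_right _ (Nat.mem_primeFactors.mpr ⟨hℓ, hdvd, NeZero.ne N⟩)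
    · intro hS
      apply hℓS₀
      rw [hS₀]
      exact Finset.mem_union_left _ (Finset.mem_union_left _ (Finset.mem_coe.mp hS))
    · intro hS
      apply hℓS₀
      rw [hS₀]
      exact Finset.mem_union_left _ (Finset.mem_union_right _ hS)
  have hfrob : ∀ ℓ : ℕ, ℓ.Prime → ℓ ∉ S₀ → ∀ A : ValuationSubring (AlgebraicClosure ℚ),
      A.LiesOverPrime ℓ → ∀ σ : AlgebraicClosure ℚ ≃ₐ[ℚ] AlgebraicClosure ℚ,
        A.IsFrobeniusAt σ ℓ →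
          LinearMap.charpoly (H.ρ.ρ σ) = X ^ 2 - C (S31W_a H ℓ) * X + C ((ℓ : T)) := by
    intro ℓ hℓ hℓS₀ A hA σ hσ
    obtain ⟨h1, h2, -⟩ := hsplit ℓ hℓ hℓS₀
    rw [S31W_a_eq H hℓ h1 h2]
    exact H.charpoly_frob ℓ hℓ h1 h2 A hA σ hσ
  obtain ⟨ℓ, A, σ, b, hℓ, hℓS₀, hA, hσ, hg, htr⟩ :=
    S31W_trace_frob_abs H.ρ S₀ (S31W_a H) hfrob n g L0
  obtain ⟨h1, h2, h3⟩ := hsplit ℓ hℓ hℓS₀
  refine ⟨ℓ, hℓ, h1, h2, A, σ, b, h3, hA, hσ, hg, ?_⟩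
  rw [← S31W_a_eq H hℓ h1 h2]
  exact htr

end Datum

end Fermat.Agent.S31_helper9_W
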