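import Mathlib
import Fermat.Agent.S18_helper9_CDefs

/-!
# S34, block C' (two minimal primes over `π`): definitions (helper12, integrator)

The abstract two-chart setting of S18 block C (`Fermat.Agent.S18_helper9_CDefs`) with the
valuation ring `V` replaced by a ring which is only *integrally closed in `F1`* with `π` in its
Jacobson radical (in the application `V = V_∞ ⊓ V_0`, the intersection of the two extensions of
the Gauss valuation ring to the function field of level `q N'`).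

* `S34C_Setup`  : the weak setup (what the global part of block C really uses);
* `S34C_Setup2` : the concrete two-valuation setup;
* `S34C_LocLift`: the local lift of `s = h / G` at a maximal ideal `m` of a chart, the only local
  input of the global argument;
* `S34C_Shape`  : the local shape of `f` at `m` (as in S18), sufficient for `S34C_LocLift`.
-/

set_option autoImplicit false

namespace Fermat.Agent.S34_helper12_CDefs

open Fermat.Agent.S18_helper9_CDefs

variable {L : Type*} [Field L]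

/-- The weak setup: `V` is a subring of `F1`, integrally closed in `F1`, with `π` in its Jacobson
radical and not a unit; `A0`, `Ainf` are charts (`Chart` of S18, verbatim) relative to `V`. -/
structure S34C_Setup (O : Subring L) (π j : L) (F1 : Subfield L) (V A0 Ainf : Subring L) :
    Prop where
  dvr : IsDiscreteValuationRing O
  π_mem : π ∈ O
  π_irr : ∀ hπ : π ∈ O, Irreducible (⟨π, hπ⟩ : O)
  algClosed : ∀ x : L, IsAlgebraic O x → ∃ a ∈ O, ∃ b ∈ O, b ≠ 0 ∧ x * b = a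
  j_trans : Transcendental O j
  j_mem : j ∈ F1
  O_le : (O : Set L) ⊆ F1
  finite : ∃ s : Finset L, ∀ x ∈ F1, ∃ c : L → L,
    (∀ y, c y ∈ Subfield.closure ((O : Set L) ∪ {j})) ∧ x = ∑ y ∈ s, c y * y
  V_le : (V : Set L) ⊆ F1
  V_ic : ∀ x ∈ F1, IsIntegral V x → x ∈ V
  V_rad : ∀ c ∈ V, (1 + π * c)⁻¹ ∈ V
  π_nonunit : π⁻¹ ∉ V
  chart0 : Chart O π j F1 V A0
  chartInf : Chart O π j⁻¹ F1 V Ainf

/-- The two-valuation setup: `V1`, `V2` are discrete valuation rings of `F1` with uniformiser `π`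
(the two extensions of the Gauss valuation), and the charts are charts relative to `V1 ⊓ V2`. -/
structure S34C_Setup2 (O : Subring L) (π j : L) (F1 : Subfield L) (V1 V2 A0 Ainf : Subring L) :
    Prop where
  dvr : IsDiscreteValuationRing O
  π_mem : π ∈ O
  π_irr : ∀ hπ : π ∈ O, Irreducible (⟨π, hπ⟩ : O)
  algClosed : ∀ x : L, IsAlgebraic O x → ∃ a ∈ O, ∃ b ∈ O, b ≠ 0 ∧ x * b = a
  j_trans : Transcendental O j
  j_mem : j ∈ F1
  O_le : (O : Set L) ⊆ F1
  finite : ∃ s : Finset L, ∀ x ∈ F1, ∃ c : L → L,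
    (∀ y, c y ∈ Subfield.closure ((O : Set L) ∪ {j})) ∧ x = ∑ y ∈ s, c y * y
  V1_le : (V1 : Set L) ⊆ F1
  V1_val : ∀ x ∈ F1, x ∈ V1 ∨ x⁻¹ ∈ V1
  V1_unif : ∀ x ∈ V1, x⁻¹ ∉ V1 → ∃ v ∈ V1, x = π * v
  V1_nonunit : π⁻¹ ∉ V1
  V2_le : (V2 : Set L) ⊆ F1
  V2_val : ∀ x ∈ F1, x ∈ V2 ∨ x⁻¹ ∈ V2
  V2_unif : ∀ x ∈ V2, x⁻¹ ∉ V2 → ∃ v ∈ V2, x = π * v
  V2_nonunit : π⁻¹ ∉ V2
  chart0 : Chart O π j F1 (V1 ⊓ V2) A0
  chartInf : Chart O π j⁻¹ F1 (V1 ⊓ V2) Ainf

/-- **The local lift** of `s = h / G` at the maximal ideal `m` of the chart `A`: up to a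
denominator `D ∉ m`, `s` is congruent modulo `π` (in the integral closure of `V` in `F1(h)`) to an
element integral over `A`. -/
def S34C_LocLift (π : L) (F1 : Subfield L) (V A : Subring L) (h G : L) (m : Ideal A) : Prop :=
  ∃ D : A, D ∉ m ∧ ∃ y ∈ icl A (fadj F1 h), ∃ w ∈ icl V (fadj F1 h),
    (D : L) * (h * G⁻¹) = y + π * w

/-- **The local shape** of `f` at `m` (the conclusion of S18 X-C-LOCRING, verbatim):
`f = u g ^ p` with `u` a unit at `m` and `g` a unit of `V`, and `G = g w (1 + π c)` with `w` a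
unit at `m` and `c ∈ V`. -/
def S34C_Shape (π : L) (F1 : Subfield L) (V A : Subring L) (p : ℕ) (f G : L) (m : Ideal A) :
    Prop :=
  ∃ u g w : L, (∃ a c : A, c ∉ m ∧ u * (c : L) = a) ∧ (∃ a c : A, c ∉ m ∧ u⁻¹ * (c : L) = a) ∧
    g ∈ F1 ∧ g ∈ V ∧ g⁻¹ ∈ V ∧ f = u * g ^ p ∧
    (∃ a c : A, c ∉ m ∧ w * (c : L) = a) ∧ (∃ a c : A, c ∉ m ∧ w⁻¹ * (c : L) = a) ∧
    ∃ c ∈ V, G = g * w * (1 + π * c)

end Fermat.Agent.S34_helper12_CDefs
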