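import Mathlib
import Fermat.Agent.S18_helper5_BASE3
import Fermat.Agent.S37_helper5_LEVEL
import Fermat.Agent.S31_helper5_LEVEL

/-!
# S34, piece X-K0: the unramified level and normal admissible levels

Fix a prime `q` and a valuation subring `A` of `ℚ̄` over `q`.

* `S34K0_K0 q = ℚ(roots of unity of order prime to q)`: it is admissible (`S34K0_admissible`),
  contained in every admissible level (`S34K0_le_of_admissible`), stable under the absolute
  Galois group (`S34K0_stable`), fixed pointwise by the inertia group of `A`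
  (`S34K0_inertia_fixed`), `q` is a uniformiser of `O0 = A ∩ K0` (`S34K0_unif`,
  `S34K0_val`), and the Frobenius lifts at `A` act on `O0` as `x ↦ x ^ q` modulo `q`
  (`S34K0_frob`, `S34K0_frob_dvd`);
* `S34K0_exists_normal`: every finite subset of `ℚ̄` lies in an admissible level which is stable
  under the absolute Galois group;
* `S34K0_exists_normal_level`, `S34K0_exists_normal_descent`: the normal versions of
  `S37LEVEL_exists` and `S37LEVEL_exists_descent` (rational places, descent of integral series).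
-/

set_option autoImplicit false
set_option linter.unusedSectionVars false
set_option linter.unusedVariables false
set_option linter.style.haveILetI false
set_option synthInstance.maxHeartbeats 400000
set_option maxHeartbeats 1600000

open IntermediateField ModularCurve AlgebraicCurve HahnSeries
open Fermat.Agent.S18_helper5_BASE Fermat.Agent.S18_helper25_COREDefs
  Fermat.Agent.S37_helper5_LEVEL Fermat.Agent.S31_helper5_LEVEL

noncomputable section

namespace Fermat.Agent.S34_helper5_K0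

local notation "Qb" => AlgebraicClosure ℚ
local notation "GQ" => (AlgebraicClosure ℚ ≃ₐ[ℚ] AlgebraicClosure ℚ)

/-! ### Galois-stable generating sets -/

/-- The subfield fixed by one automorphism. -/
def S34K0_fixed (τ : GQ) : IntermediateField ℚ Qb where
  carrier := {x | τ x = x}
  mul_mem' := by
    intro a b ha hb
    show τ (a * b) = a * b
    rw [map_mul, show τ a = a from ha, show τ b = b from hb]
  add_mem' := by
    intro a b ha hb
    show τ (a + b) = a + b
    rw [map_add, show τ a = a from ha, show τ b = b from hb]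
  algebraMap_mem' := fun r => τ.commutes r
  inv_mem' := by
    intro a ha
    show τ a⁻¹ = a⁻¹
    rw [map_inv₀, show τ a = a from ha]

theorem S34K0_mem_fixed {τ : GQ} {x : Qb} : x ∈ S34K0_fixed τ ↔ τ x = x := Iff.rfl

/-- The field generated by a Galois-stable set is Galois-stable. -/
theorem S34K0_adjoin_stable (T : Set Qb) (hT : ∀ σ : GQ, ∀ x ∈ T, σ x ∈ T) (σ : GQ) (x : Qb)
    (hx : x ∈ adjoin ℚ T) : σ x ∈ adjoin ℚ T := by
  have h1 : (adjoin ℚ T).map (σ : Qb →ₐ[ℚ] Qb) ≤ adjoin ℚ T := by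
    rw [IntermediateField.adjoin_map]
    apply IntermediateField.adjoin.mono
    rintro y ⟨x, hx, rfl⟩
    exact hT σ x hx
  exact h1 ⟨x, hx, rfl⟩

theorem S34K0_roots_stable (q : ℕ) (σ : GQ) (x : Qb) (hx : x ∈ S18A1_roots q) :
    σ x ∈ S18A1_roots q := by
  obtain ⟨n, hn, hζ⟩ := hx
  exact ⟨n, hn, by rw [← map_pow, hζ, map_one]⟩

/-- The (finite) set of all conjugates of the elements of a finite set. -/
def S34K0_conj (S : Finset Qb) : Set Qb := ⋃ s ∈ S, (minpoly ℚ s).rootSet Qb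

theorem S34K0_conj_finite (S : Finset Qb) : (S34K0_conj S).Finite :=
  Set.Finite.biUnion S.finite_toSet fun s _ => Polynomial.rootSet_finite _ _

theorem S34K0_subset_conj (S : Finset Qb) {s : Qb} (hs : s ∈ S) : s ∈ S34K0_conj S := by
  refine Set.mem_biUnion hs ?_
  rw [Polynomial.mem_rootSet]
  exact ⟨minpoly.ne_zero (S18A1_isIntegral s), minpoly.aeval ℚ s⟩

theorem S34K0_conj_stable (S : Finset Qb) (σ : GQ) (x : Qb) (hx : x ∈ S34K0_conj S) :
    σ x ∈ S34K0_conj S := by
  obtain ⟨s, hs, hxs⟩ := Set.mem_iUnion₂.1 hx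
  refine Set.mem_biUnion hs ?_
  rw [Polynomial.mem_rootSet] at hxs ⊢
  refine ⟨hxs.1, ?_⟩
  have h := congrArg σ hxs.2
  rw [map_zero] at h
  rw [← h]
  exact (Polynomial.aeval_algHom_apply (σ : Qb →ₐ[ℚ] Qb) x (minpoly ℚ s))

/-! ### The unramified level -/

/-- **The unramified level** `K0 = ℚ(roots of unity of order prime to q)`. -/
def S34K0_K0 (q : ℕ) : IntermediateField ℚ Qb := S18A1_K1 q ∅

theorem S34K0_K0_eq (q : ℕ) : S34K0_K0 q = adjoin ℚ (S18A1_roots q) := by
  unfold S34K0_K0 S18A1_K1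
  rw [Finset.coe_empty, Set.empty_union]

theorem S34K0_root_mem (q : ℕ) {n : ℕ} (hn : ¬ q ∣ n) {ζ : Qb} (hζ : ζ ^ n = 1) :
    ζ ∈ S34K0_K0 q :=
  S18A1_root_mem_K1 q ∅ hn hζ

/-- `K0` is admissible. -/
theorem S34K0_admissible {q : ℕ} (hq : q.Prime) (A : ValuationSubring Qb)
    (hA : A.LiesOverPrime q) : S18K_Admissible A (S34K0_K0 q) q :=
  S18A1_admissible hq A hA ∅

/-- `K0` is contained in every admissible level. -/
theorem S34K0_le_of_admissible {q : ℕ} (A : ValuationSubring Qb) (K1 : IntermediateField ℚ Qb)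
    (h : S18K_Admissible A K1 q) : S34K0_K0 q ≤ K1 := by
  rw [S34K0_K0_eq, adjoin_le_iff]
  rintro ζ ⟨n, hn, hζ⟩
  exact h.roots n hn ζ hζ

/-- `K0` is contained in every level `S18A1_K1 q S`. -/
theorem S34K0_le_K1 (q : ℕ) (S : Finset Qb) : S34K0_K0 q ≤ S18A1_K1 q S := by
  rw [S34K0_K0_eq]
  exact IntermediateField.adjoin.mono _ _ _ Set.subset_union_right

/-- `K0` is stable under the absolute Galois group. -/
theorem S34K0_stable (q : ℕ) (σ : GQ) (x : Qb) (hx : x ∈ S34K0_K0 q) : σ x ∈ S34K0_K0 q := by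
  rw [S34K0_K0_eq] at hx ⊢
  exact S34K0_adjoin_stable _ (S34K0_roots_stable q) σ x hx

/-- The inertia group of `A` fixes `K0` pointwise. -/
theorem S34K0_inertia_fixed {q : ℕ} (hq : q.Prime) (A : ValuationSubring Qb)
    (hA : A.LiesOverPrime q) (τ : GQ) (hτ : τ ∈ A.inertiaSubgroupIn ℚ) (x : Qb)
    (hx : x ∈ S34K0_K0 q) : τ x = x := by
  have h : S34K0_K0 q ≤ S34K0_fixed τ := by
    rw [S34K0_K0_eq, adjoin_le_iff]
    rintro ζ ⟨n, hn, hζ⟩
    exact S31L_inertia_root ((Nat.Prime.coprime_iff_not_dvd hq).2 hn) A hA τ hτ hζ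
  exact h hx

/-- `q` is a uniformiser of `ℚ = K0(∅)`. -/
theorem S34K0_isUnif {q : ℕ} (hq : q.Prime) (A : ValuationSubring Qb)
    (hA : A.LiesOverPrime q) : S18A1_IsUnif A (S18A1_K0 ∅) (q : Qb) where
  mem := _root_.natCast_mem _ q
  ne_zero := Nat.cast_ne_zero.2 hq.ne_zero
  lt_one := S18A1_val_l_lt A hA
  max := by
    intro x hx hlt
    have hx' : x ∈ (⊥ : IntermediateField ℚ Qb) := by
      have : S18A1_K0 ∅ = ⊥ := by
        unfold S18A1_K0
        rw [Finset.coe_empty, adjoin_empty]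
      rwa [this] at hx
    obtain ⟨r, rfl⟩ := IntermediateField.mem_bot.1 hx'
    by_cases hr : r = 0
    · subst hr
      rw [map_zero, map_zero]
      exact zero_le
    obtain ⟨a, b, hab⟩ := S18A1_val_rat A hq hA r hr
    set v := A.valuation (q : Qb) with hv
    have hv1 : v < 1 := S18A1_val_l_lt A hA
    have hv0 : 0 < v := S18A1_val_l_pos A hq
    have hv0' : v ≠ 0 := hv0.ne'
    -- `v ^ b < v ^ a`, hence `a < b`
    have h1 : v ^ b < v ^ a := by
      rw [← hab]
      calc v ^ a * A.valuation (algebraMap ℚ Qb r) < v ^ a * 1 :=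
            mul_lt_mul_of_pos_left hlt (pow_pos hv0 a)
        _ = v ^ a := mul_one _
    have hab' : a < b := by
      by_contra hle
      rw [not_lt] at hle
      have : v ^ a ≤ v ^ b := pow_le_pow_right_of_le_one' hv1.le hle
      exact absurd h1 (not_lt.2 this)
    obtain ⟨d, rfl⟩ : ∃ d, b = a + 1 + d := ⟨b - (a + 1), by omega⟩
    have h2 : A.valuation (algebraMap ℚ Qb r) = v ^ (1 + d) := by
      have h3 : v ^ a * A.valuation (algebraMap ℚ Qb r) = v ^ a * v ^ (1 + d) := by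
        rw [hab, ← _root_.pow_add, add_assoc]
      exact mul_left_cancel₀ (pow_ne_zero a hv0') h3
    rw [h2, _root_.pow_add, pow_one]
    calc v * v ^ d ≤ v * 1 := by
          gcongr
          exact pow_le_one' hv1.le d
      _ = v := mul_one _

/-- The valuations of the nonzero elements of `K0` are the integral powers of `v(q)`. -/
theorem S34K0_val {q : ℕ} (hq : q.Prime) (A : ValuationSubring Qb)
    (hA : A.LiesOverPrime q) (x : Qb) (hx : x ∈ S34K0_K0 q) (hx0 : x ≠ 0) :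
    ∃ k : ℤ, A.valuation x = A.valuation (q : Qb) ^ k :=
  S18A1_val_K1 A hq hA ∅ (S34K0_isUnif hq A hA) x hx hx0

/-- More generally: the valuations of the nonzero elements of `S18A1_K1 q S` are the integral
powers of the valuation of a uniformiser of the number field `ℚ(S)`. -/
theorem S34K0_val_K1 {q : ℕ} (hq : q.Prime) (A : ValuationSubring Qb)
    (hA : A.LiesOverPrime q) (S : Finset Qb) :
    ∃ π : Qb, S18A1_IsUnif A (S18A1_K0 S) π ∧ ∀ x ∈ S18A1_K1 q S, x ≠ 0 →
      ∃ k : ℤ, A.valuation x = A.valuation π ^ k := by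
  obtain ⟨π, hπ⟩ := S18A1_exists_isUnif A hq hA S
  exact ⟨π, hπ, fun x hx hx0 => S18A1_val_K1 A hq hA S hπ x hx hx0⟩

/-- **`q` is a uniformiser of `O0 = A ∩ K0`.** -/
theorem S34K0_unif {q : ℕ} (hq : q.Prime) (A : ValuationSubring Qb)
    (hA : A.LiesOverPrime q) (x : Qb) (hx : x ∈ S34K0_K0 q) (hlt : A.valuation x < 1) :
    ∃ y : Qb, y ∈ S34K0_K0 q ∧ y ∈ A ∧ x = (q : Qb) * y := by
  have hq0 : (q : Qb) ≠ 0 := Nat.cast_ne_zero.2 hq.ne_zero
  refine ⟨x * (q : Qb)⁻¹, mul_mem hx (inv_mem (_root_.natCast_mem _ q)), ?_, ?_⟩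
  · by_cases hx0 : x = 0
    · rw [hx0, zero_mul]; exact zero_mem _
    obtain ⟨k, hk⟩ := S34K0_val hq A hA x hx hx0
    set v := A.valuation (q : Qb) with hv
    have hv1 : v < 1 := S18A1_val_l_lt A hA
    have hv0 : 0 < v := S18A1_val_l_pos A hq
    have hk1 : 1 ≤ k := by
      by_contra hk0
      rw [not_le] at hk0
      have hk0' : k ≤ 0 := by omega
      have : (1 : A.ValueGroup) ≤ v ^ k := by
        obtain ⟨n, rfl⟩ : ∃ n : ℕ, k = -(n : ℤ) := ⟨(-k).toNat, by omega⟩
        rw [zpow_neg, zpow_natCast]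
        exact one_le_inv₀ (pow_pos hv0 n) |>.2 (pow_le_one' hv1.le n)
      rw [hk] at hlt
      exact absurd hlt (not_lt.2 this)
    rw [← ValuationSubring.valuation_le_one_iff, map_mul, map_inv₀, hk, ← hv]
    obtain ⟨n, rfl⟩ : ∃ n : ℕ, k = (n : ℤ) + 1 := ⟨(k - 1).toNat, by omega⟩
    rw [zpow_add₀ hv0.ne', zpow_one, zpow_natCast, mul_assoc, mul_inv_cancel₀ hv0.ne', mul_one]
    exact pow_le_one' hv1.le n
  · rw [mul_comm x, ← mul_assoc, mul_inv_cancel₀ hq0, one_mul]

/-- The maximal ideal of `O0` is generated by `q`. -/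
theorem S34K0_maximalIdeal {q : ℕ} (hq : q.Prime) (A : ValuationSubring Qb)
    (hA : A.LiesOverPrime q) :
    IsLocalRing.maximalIdeal (S18K_O1 A (S34K0_K0 q)) =
      Ideal.span {((q : ℕ) : S18K_O1 A (S34K0_K0 q))} := by
  apply le_antisymm
  · intro x hx
    have hx' : A.valuation ((x : S34K0_K0 q) : Qb) < 1 := by
      rw [← S18K_res_eq_zero_iff, S18K_res, RingHom.comp_apply,
        IsLocalRing.residue_eq_zero_iff, IsLocalRing.mem_maximalIdeal, mem_nonunits_iff] at hx
      by_contra hge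
      rw [not_lt] at hge
      have hxA : ((x : S34K0_K0 q) : Qb) ∈ A := x.2
      have h1 : A.valuation ((x : S34K0_K0 q) : Qb) = 1 :=
        le_antisymm ((A.valuation_le_one_iff _).2 hxA) hge
      apply hx
      have hu : IsUnit (⟨((x : S34K0_K0 q) : Qb), hxA⟩ : A) :=
        (ValuationSubring.valuation_eq_one_iff A ⟨_, hxA⟩).2 h1
      exact hu
    obtain ⟨y, hyK, hyA, hxy⟩ := S34K0_unif hq A hA _ (x : S34K0_K0 q).2 hx'
    rw [Ideal.mem_span_singleton]
    refine ⟨⟨⟨y, hyK⟩, hyA⟩, ?_⟩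
    apply Subtype.ext
    apply Subtype.ext
    show ((x : S34K0_K0 q) : Qb) = _
    rw [hxy]
    rfl
  · rw [Ideal.span_le, Set.singleton_subset_iff]
    show _ ∈ IsLocalRing.maximalIdeal _
    rw [← S18K_res_eq_zero_iff, S18K_res, RingHom.comp_apply, IsLocalRing.residue_eq_zero_iff,
      IsLocalRing.mem_maximalIdeal, mem_nonunits_iff]
    intro hu
    have h1 : A.valuation (q : Qb) = 1 := by
      have := (ValuationSubring.valuation_eq_one_iff A _).1 hu
      simpa using this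
    exact absurd (S18A1_val_l_lt A hA) (by rw [h1]; exact lt_irrefl _)

/-- **Frobenius on `O0`**: every Frobenius lift `σ` at `A` maps `A` to `A`, `K0` to `K0`, and
`σ x ≡ x ^ q` modulo `q O0` for `x ∈ O0`. -/
theorem S34K0_frob {q : ℕ} (hq : q.Prime) (A : ValuationSubring Qb)
    (hA : A.LiesOverPrime q) (σ : GQ) (hσ : A.IsFrobeniusAt σ q) (x : Qb)
    (hxK : x ∈ S34K0_K0 q) (hxA : x ∈ A) :
    σ x ∈ S34K0_K0 q ∧ σ x ∈ A ∧
      ∃ y : Qb, y ∈ S34K0_K0 q ∧ y ∈ A ∧ σ x - x ^ q = (q : Qb) * y := by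
  have h := Fermat.Agent.G_helper7_CYC.PGCYC_frobenius_spec A σ q hσ x hxA
  have hσK : σ x ∈ S34K0_K0 q := S34K0_stable q σ x hxK
  have hdiffA : σ x - x ^ q ∈ A := by
    rw [← ValuationSubring.valuation_le_one_iff]
    exact (A.mem_nonunits_iff.1 h).le
  have hσA : σ x ∈ A := by
    have : σ x = (σ x - x ^ q) + x ^ q := by ring
    rw [this]
    exact add_mem hdiffA (pow_mem hxA q)
  refine ⟨hσK, hσA, ?_⟩
  exact S34K0_unif hq A hA _ (sub_mem hσK (pow_mem hxK q)) (A.mem_nonunits_iff.1 h)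

/-- The uniformiser of `O1` chosen by the S18 carriers is irreducible. -/
theorem S34K0_pi_irreducible (A : ValuationSubring Qb) (K1 : IntermediateField ℚ Qb)
    [IsDiscreteValuationRing (S18K_O1 A K1)] : Irreducible (S18K_D A K1).π :=
  (IsDiscreteValuationRing.exists_irreducible (S18K_O1 A K1)).choose_spec

/-- At the unramified level the uniformiser of the S18 carriers is `q` up to a unit. -/
theorem S34K0_pi_associated {q : ℕ} (hq : q.Prime) (A : ValuationSubring Qb)
    (hA : A.LiesOverPrime q) :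
    letI := (S34K0_admissible hq A hA).dvr
    Associated (S18K_D A (S34K0_K0 q)).π ((q : ℕ) : S18K_O1 A (S34K0_K0 q)) := by
  letI := (S34K0_admissible hq A hA).dvr
  rw [← Ideal.span_singleton_eq_span_singleton, ← S34K0_maximalIdeal hq A hA]
  exact (S34K0_pi_irreducible A (S34K0_K0 q)).maximalIdeal_eq.symm

/-! ### Restriction of automorphisms to a stable level -/

/-- The restriction of `σ` to a Galois-stable level. -/
def S34K0_restrict (K1 : IntermediateField ℚ Qb) (hstab : ∀ σ : GQ, ∀ x ∈ K1, σ x ∈ K1)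
    (σ : GQ) : K1 ≃ₐ[ℚ] K1 where
  toFun x := ⟨σ x, hstab σ x x.2⟩
  invFun x := ⟨σ.symm x, hstab σ.symm x x.2⟩
  left_inv x := Subtype.ext (σ.symm_apply_apply x)
  right_inv x := Subtype.ext (σ.apply_symm_apply x)
  map_mul' x y := Subtype.ext (map_mul σ (x : Qb) (y : Qb))
  map_add' x y := Subtype.ext (map_add σ (x : Qb) (y : Qb))
  commutes' r := Subtype.ext (σ.commutes r)

@[simp] theorem S34K0_restrict_coe (K1 : IntermediateField ℚ Qb)
    (hstab : ∀ σ : GQ, ∀ x ∈ K1, σ x ∈ K1) (σ : GQ) (x : K1) :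
    ((S34K0_restrict K1 hstab σ x : K1) : Qb) = σ (x : Qb) := rfl

theorem S34K0_restrict_mul (K1 : IntermediateField ℚ Qb)
    (hstab : ∀ σ : GQ, ∀ x ∈ K1, σ x ∈ K1) (σ τ : GQ) (x : K1) :
    S34K0_restrict K1 hstab (σ * τ) x = S34K0_restrict K1 hstab σ (S34K0_restrict K1 hstab τ x) :=
  rfl

theorem S34K0_restrict_one (K1 : IntermediateField ℚ Qb)
    (hstab : ∀ σ : GQ, ∀ x ∈ K1, σ x ∈ K1) (x : K1) :
    S34K0_restrict K1 hstab 1 x = x := rfl

/-- Inertia preserves `O1` and acts trivially modulo the maximal ideal. -/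
theorem S34K0_restrict_inertia (A : ValuationSubring Qb) (K1 : IntermediateField ℚ Qb)
    (hstab : ∀ σ : GQ, ∀ x ∈ K1, σ x ∈ K1) (τ : GQ) (hτ : τ ∈ A.inertiaSubgroupIn ℚ)
    (x : K1) (hx : x ∈ S18K_O1 A K1) :
    ∃ h : S34K0_restrict K1 hstab τ x ∈ S18K_O1 A K1,
      S18K_res A K1 ⟨_, h⟩ = S18K_res A K1 ⟨x, hx⟩ := by
  obtain ⟨h1, h2⟩ := Fermat.Agent.S05_helper5_Inertia.inertia_spec A τ hτ (x : Qb) hx
  refine ⟨h1, ?_⟩
  rw [← sub_eq_zero, ← map_sub, S18K_res_eq_zero_iff, IsLocalRing.mem_maximalIdeal,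
    mem_nonunits_iff]
  intro hu
  have hu' := hu.map (S18K_incl A K1)
  have h3 : A.valuation (τ (x : Qb) - (x : Qb)) = 1 :=
    (ValuationSubring.valuation_eq_one_iff A _).1 hu'
  exact absurd (A.mem_nonunits_iff.1 h2) (by rw [h3]; exact lt_irrefl _)

/-- Inertia is the identity on the unramified level (restriction form). -/
theorem S34K0_restrict_inertia_K0 {q : ℕ} (hq : q.Prime) (A : ValuationSubring Qb)
    (hA : A.LiesOverPrime q) (τ : GQ) (hτ : τ ∈ A.inertiaSubgroupIn ℚ) (x : S34K0_K0 q) :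
    S34K0_restrict (S34K0_K0 q) (S34K0_stable q) τ x = x :=
  Subtype.ext (S34K0_inertia_fixed hq A hA τ hτ (x : Qb) x.2)

/-- Inertia fixes the elements of `K0` inside any stable level. -/
theorem S34K0_restrict_inertia_of_mem_K0 {q : ℕ} (hq : q.Prime) (A : ValuationSubring Qb)
    (hA : A.LiesOverPrime q) (K1 : IntermediateField ℚ Qb)
    (hstab : ∀ σ : GQ, ∀ x ∈ K1, σ x ∈ K1) (τ : GQ) (hτ : τ ∈ A.inertiaSubgroupIn ℚ)
    (x : K1) (hx : (x : Qb) ∈ S34K0_K0 q) : S34K0_restrict K1 hstab τ x = x :=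
  Subtype.ext (S34K0_inertia_fixed hq A hA τ hτ (x : Qb) hx)

/-! ### Normal admissible levels -/

/-- The normal level generated by a finite set: `ℚ(conjugates of S, roots of unity)`. -/
def S34K0_N (q : ℕ) (S : Finset Qb) : IntermediateField ℚ Qb :=
  S18A1_K1 q (S34K0_conj_finite S).toFinset

theorem S34K0_N_eq (q : ℕ) (S : Finset Qb) :
    S34K0_N q S = adjoin ℚ (S34K0_conj S ∪ S18A1_roots q) := by
  unfold S34K0_N S18A1_K1
  rw [Set.Finite.coe_toFinset]

theorem S34K0_mem_N (q : ℕ) (S : Finset Qb) {s : Qb} (hs : s ∈ S) : s ∈ S34K0_N q S :=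
  S18A1_mem_K1_of_mem q _ ((S34K0_conj_finite S).mem_toFinset.2 (S34K0_subset_conj S hs))

theorem S34K0_N_admissible {q : ℕ} (hq : q.Prime) (A : ValuationSubring Qb)
    (hA : A.LiesOverPrime q) (S : Finset Qb) : S18K_Admissible A (S34K0_N q S) q :=
  S18A1_admissible hq A hA _

theorem S34K0_N_stable (q : ℕ) (S : Finset Qb) (σ : GQ) (x : Qb) (hx : x ∈ S34K0_N q S) :
    σ x ∈ S34K0_N q S := by
  rw [S34K0_N_eq] at hx ⊢
  refine S34K0_adjoin_stable _ ?_ σ x hx
  rintro τ y (hy | hy)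
  · exact Or.inl (S34K0_conj_stable S τ y hy)
  · exact Or.inr (S34K0_roots_stable q τ y hy)

theorem S34K0_K0_le_N (q : ℕ) (S : Finset Qb) : S34K0_K0 q ≤ S34K0_N q S :=
  S34K0_le_K1 q _

/-- **Normal admissible levels**: every finite subset of `ℚ̄` is contained in an admissible level
which is stable under the absolute Galois group (and contains `K0`). -/
theorem S34K0_exists_normal {q : ℕ} (hq : q.Prime) (A : ValuationSubring Qb)
    (hA : A.LiesOverPrime q) (S : Finset Qb) :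
    ∃ K1 : IntermediateField ℚ Qb, (∀ s ∈ S, s ∈ K1) ∧ S18K_Admissible A K1 q ∧
      (∀ σ : GQ, ∀ x ∈ K1, σ x ∈ K1) ∧ S34K0_K0 q ≤ K1 :=
  ⟨S34K0_N q S, fun _ hs => S34K0_mem_N q S hs, S34K0_N_admissible hq A hA S,
    fun σ x hx => S34K0_N_stable q S σ x hx, S34K0_K0_le_N q S⟩

section Places

variable (N : ℕ) [NeZero N]

/-- **Normal version of `S37LEVEL_exists`**: a Galois-stable admissible level containing a given
finite set, over which finitely many given places of `F / ℚ̄` are rational. -/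
theorem S34K0_exists_normal_level {q : ℕ} (hq : q.Prime) (A : ValuationSubring Qb)
    (hA : A.LiesOverPrime q) (S : Finset Qb)
    (Ps : Finset (Place Qb (modularFunctionFieldBar N))) :
    ∃ K1 : IntermediateField ℚ Qb, (∀ s ∈ S, s ∈ K1) ∧ S18K_Admissible A K1 q ∧
      (∀ σ : GQ, ∀ x ∈ K1, σ x ∈ K1) ∧ S34K0_K0 q ≤ K1 ∧
      ∀ P ∈ Ps, S37LEVEL_IsRational N K1 P := by
  classical
  have hex : ∀ P : Place Qb (modularFunctionFieldBar N),
      ∃ (f : modularFunctionFieldBar N) (T : Finset Qb), P.ord f < 0 ∧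
        (∀ Q : Place Qb (modularFunctionFieldBar N), Q.ord f < 0 → Q = P) ∧
        ∀ K1 : IntermediateField ℚ Qb, (∀ s ∈ T, s ∈ K1) →
          ∃ w ∈ modularFunctionFieldFullC K1 N,
            coeffMap (algebraMap K1 Qb) w = (f : LaurentSeries Qb) := by
    intro P
    obtain ⟨f, -, hfP, huniq⟩ := S37LEVEL_exists_unique_pole N P
    have hfmem : (f : LaurentSeries Qb) ∈ modularFunctionFieldFullC Qb N := by
      rw [← Fermat.Agent.S18_helper25_GLUE.S18G_bar_eq N]
      exact f.2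
    obtain ⟨T, hT⟩ := Fermat.Agent.S18_helper25_GLUE.S18G_exists_finset (k₀ := ℚ) N hfmem
    exact ⟨f, T, hfP, huniq, hT⟩
  choose f T hfP huniq hT using hex
  obtain ⟨K1, hK1S, hadm, hstab, hK0⟩ := S34K0_exists_normal hq A hA (S ∪ Ps.biUnion T)
  refine ⟨K1, fun s hs => hK1S s (Finset.mem_union_left _ hs), hadm, hstab, hK0, ?_⟩
  intro P hP
  apply S37LEVEL_isRational_of_fixed N K1 P
  intro σ
  obtain ⟨w, -, hw⟩ := hT P K1 (fun s hs => hK1S s
    (Finset.mem_union_right _ (Finset.mem_biUnion.2 ⟨P, hP, hs⟩)))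
  exact S37LEVEL_gal_smul_place N K1 σ P (f P) (hfP P) (huniq P) w hw.symm

/-- **Normal version of `S37LEVEL_exists_descent`.** -/
theorem S34K0_exists_normal_descent {q : ℕ} (hq : q.Prime) (A : ValuationSubring Qb)
    (hA : A.LiesOverPrime q) (S : Finset Qb)
    (Ps : Finset (Place Qb (modularFunctionFieldBar N)))
    (y : LaurentSeries A) (hy : coeffMap A.subtype y ∈ modularFunctionFieldBar N) :
    ∃ K1 : IntermediateField ℚ Qb, (∀ s ∈ S, s ∈ K1) ∧ S18K_Admissible A K1 q ∧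
      (∀ σ : GQ, ∀ x ∈ K1, σ x ∈ K1) ∧ S34K0_K0 q ≤ K1 ∧
      (∀ P ∈ Ps, S37LEVEL_IsRational N K1 P) ∧
      ∃ y1 : LaurentSeries (S18K_O1 A K1),
        coeffMap (S18K_O1 A K1).subtype y1 ∈ modularFunctionFieldFullC K1 N ∧
        coeffMap (algebraMap K1 Qb) (coeffMap (S18K_O1 A K1).subtype y1) =
          coeffMap A.subtype y := by
  classical
  have hymem : coeffMap A.subtype y ∈ modularFunctionFieldFullC Qb N := by
    rw [← Fermat.Agent.S18_helper25_GLUE.S18G_bar_eq N]
    exact hy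
  obtain ⟨T, hT⟩ := Fermat.Agent.S18_helper25_GLUE.S18G_exists_finset (k₀ := ℚ) N hymem
  obtain ⟨K1, hK1S, hadm, hstab, hK0, hrat⟩ := S34K0_exists_normal_level N hq A hA (S ∪ T) Ps
  refine ⟨K1, fun s hs => hK1S s (Finset.mem_union_left _ hs), hadm, hstab, hK0, hrat, ?_⟩
  obtain ⟨w, hw, hwy⟩ := hT K1 (fun s hs => hK1S s (Finset.mem_union_right _ hs))
  have hcoeff : ∀ n, ∃ r : S18K_O1 A K1, (S18K_O1 A K1).subtype r = w.coeff n := by
    intro n
    have h1 : ((w.coeff n : K1) : Qb) = ((y.coeff n : A) : Qb) := by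
      have := congrArg (fun u : LaurentSeries Qb => u.coeff n) hwy
      simpa [coeffMap_coeff] using this
    have h2 : w.coeff n ∈ S18K_O1 A K1 := by
      rw [S18K_mem_O1, h1]
      exact (y.coeff n).2
    exact ⟨⟨w.coeff n, h2⟩, rfl⟩
  obtain ⟨y1, hy1⟩ := Fermat.Agent.S18_helper25_GLUE.S18G_exists_coeffMap_eq
    (S18K_O1 A K1).subtype w hcoeff
  refine ⟨y1, ?_, ?_⟩
  · rw [hy1]; exact hw
  · rw [hy1]; exact hwy

end Places

end Fermat.Agent.S34_helper5_K0
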