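import Mathlib
import Fermat.Prelude.Def_ModularCurve_ArithmeticGalois
import Fermat.Prelude.Def_FLTPrelim_Ramification

/-!
# S34, piece P6a (helper6): the formal top reduction

`S34R_Key N p q` is the divisor-level contract with the geometry:

  for a valuation ring `A` of `ℚ̄` over `q`, two elements `τ', τ` of its inertia group, a divisor
  `D` of `F̄_N`, a function `f` with `div f = p ^ k • D` and a function `h` with
  `div h = p • (τ' - 1)(τ - 1) D`, the divisor `(τ' - 1)(τ - 1) D` is principal.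

From it we deduce `(τ' - 1)(τ - 1) = 0` on `J₀(N)[p ^ k]` (`S34R_G34_two`) and, with `τ' = τ = s`,
`s • (s • x) - 2 • (s • x) + x = 0` (`S34R_G34`).  The reduction to a class of exact order `p`
is done here, so that the geometry only sees the prime `p`.
-/

set_option autoImplicit false

open AlgebraicCurve ModularCurve

noncomputable section

namespace Fermat.Agent.S34_helper6_RED

local notation "Qb" => AlgebraicClosure ℚ
local notation "GQ" => (AlgebraicClosure ℚ ≃ₐ[ℚ] AlgebraicClosure ℚ)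

variable (N : ℕ)

/-- the semilinear automorphism of `F̄_N` attached to `τ` (coefficientwise action). -/
abbrev S34R_g (τ : GQ) : SemilinearAut Qb (modularFunctionFieldBar N) :=
  arithmeticGalois (modularFunctionFieldFull N) τ

/-- the mixed second difference `(τ' - 1)(τ - 1) D` of a divisor. -/
def S34R_diff2 (τ' τ : GQ) (D : Divisor Qb (modularFunctionFieldBar N)) :
    Divisor Qb (modularFunctionFieldBar N) :=
  S34R_g N τ' • (S34R_g N τ • D) - S34R_g N τ' • D - S34R_g N τ • D + D

/-- **The contract with the geometry** (divisor level, prime `p`). -/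
def S34R_Key (p q : ℕ) : Prop :=
  ∀ (A : ValuationSubring Qb), A.LiesOverPrime q →
  ∀ τ' τ : GQ, τ' ∈ A.inertiaSubgroupIn ℚ → τ ∈ A.inertiaSubgroupIn ℚ →
  ∀ (k : ℕ) (D : Divisor Qb (modularFunctionFieldBar N)) (f h : modularFunctionFieldBar N),
    f ≠ 0 → h ≠ 0 →
    (∀ P : Place Qb (modularFunctionFieldBar N), P.ord f = (p : ℤ) ^ k * D P) →
    (∀ P : Place Qb (modularFunctionFieldBar N), P.ord h = (p : ℤ) * S34R_diff2 N τ' τ D P) →
    ∃ w : modularFunctionFieldBar N, w ≠ 0 ∧
      ∀ P : Place Qb (modularFunctionFieldBar N), P.ord w = S34R_diff2 N τ' τ D P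

variable {N}

theorem S34R_diff2_mem_degZero (τ' τ : GQ) {D : Divisor Qb (modularFunctionFieldBar N)}
    (hD : D ∈ Divisor.degZero (K := Qb) (F := modularFunctionFieldBar N)) :
    S34R_diff2 N τ' τ D ∈ Divisor.degZero (K := Qb) (F := modularFunctionFieldBar N) := by
  unfold S34R_diff2
  exact add_mem (sub_mem (sub_mem
    (SemilinearAut.smul_mem_degZero _ (SemilinearAut.smul_mem_degZero _ hD))
    (SemilinearAut.smul_mem_degZero _ hD)) (SemilinearAut.smul_mem_degZero _ hD)) hD

/-- the action of `τ` on `J₀(N)` as an additive map. -/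
def S34R_act (τ : GQ) : JZero N →+ JZero N := DistribSMul.toAddMonoidHom (JZero N) τ

theorem S34R_act_apply (τ : GQ) (x : JZero N) : S34R_act τ x = τ • x := rfl

/-- the mixed second difference on `J₀(N)`, as an additive map. -/
def S34R_delta (τ' τ : GQ) : JZero N →+ JZero N :=
  (S34R_act τ').comp (S34R_act τ) - S34R_act τ' - S34R_act τ + AddMonoidHom.id (JZero N)

theorem S34R_delta_apply (τ' τ : GQ) (x : JZero N) :
    S34R_delta τ' τ x = τ' • (τ • x) - τ' • x - τ • x + x := rfl

theorem S34R_delta_mk (τ' τ : GQ)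
    (D : Divisor.degZero (K := Qb) (F := modularFunctionFieldBar N)) :
    S34R_delta τ' τ (Pic0.mk D) =
      Pic0.mk ⟨S34R_diff2 N τ' τ (D : Divisor Qb (modularFunctionFieldBar N)),
        S34R_diff2_mem_degZero τ' τ D.2⟩ := by
  rw [S34R_delta_apply, galois_smul_pic0_def, galois_smul_pic0_def, galois_smul_pic0_def,
    SemilinearAut.pic0_smul_mk, SemilinearAut.pic0_smul_mk, SemilinearAut.pic0_smul_mk]
  rfl

theorem S34R_delta_nsmul (τ' τ : GQ) (n : ℕ) (x : JZero N) :
    S34R_delta τ' τ (n • x) = n • S34R_delta τ' τ x :=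
  map_nsmul (S34R_delta τ' τ) n x

theorem S34R_delta_zero (τ' τ : GQ) : S34R_delta τ' τ (0 : JZero N) = 0 :=
  map_zero (S34R_delta τ' τ)

/-- a class `mk D` is zero iff `D` is principal. -/
theorem S34R_mk_eq_zero_iff (D : Divisor.degZero (K := Qb) (F := modularFunctionFieldBar N)) :
    (Pic0.mk D : JZero N) = 0 ↔
      ∃ w : modularFunctionFieldBar N, w ≠ 0 ∧
        ∀ P : Place Qb (modularFunctionFieldBar N),
          (D : Divisor Qb (modularFunctionFieldBar N)) P = P.ord w := by
  unfold Pic0.mk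
  rw [QuotientAddGroup.eq_zero_iff, AddSubgroup.mem_addSubgroupOf, Divisor.mem_principal]
  rfl

/-- **(G34), two inertia elements**, from the contract. -/
theorem S34R_G34_two (p q : ℕ) (_hp : p.Prime) (h : S34R_Key N p q) :
    ∀ (k : ℕ) (A : ValuationSubring Qb), A.LiesOverPrime q →
      ∀ τ' ∈ A.inertiaSubgroupIn ℚ, ∀ τ ∈ A.inertiaSubgroupIn ℚ,
      ∀ x : JZero N, (p ^ k) • x = 0 → τ' • (τ • x) - τ' • x - τ • x + x = 0 := by
  intro k A hA τ' hτ' τ hτ x hx
  rw [← S34R_delta_apply]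
  by_contra hz
  -- the minimal `j` with `p ^ j • z = 0`
  have hex : ∃ j : ℕ, (p ^ j) • S34R_delta τ' τ x = 0 :=
    ⟨k, by rw [← S34R_delta_nsmul, hx, S34R_delta_zero]⟩
  classical
  set j := Nat.find hex with hj
  have hjz : (p ^ j) • S34R_delta τ' τ x = 0 := Nat.find_spec hex
  have hj0 : j ≠ 0 := by
    intro h0
    rw [h0, pow_zero, one_smul] at hjz
    exact hz hjz
  obtain ⟨i, hi⟩ : ∃ i, j = i + 1 := ⟨j - 1, by omega⟩
  have hmin : (p ^ i) • S34R_delta τ' τ x ≠ 0 := by
    intro h0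
    have := Nat.find_min' hex h0
    omega
  -- replace `x` by `x' = p ^ i • x`
  set x' := (p ^ i) • x with hx'
  have hx'k : (p ^ k) • x' = 0 := by
    rw [hx', smul_comm, hx, smul_zero]
  have hz' : S34R_delta τ' τ x' ≠ 0 := by
    rw [hx', S34R_delta_nsmul]; exact hmin
  have hpz' : p • S34R_delta τ' τ x' = 0 := by
    rw [hx', S34R_delta_nsmul, ← mul_smul, ← pow_succ', ← hi]
    exact hjz
  -- divisors
  obtain ⟨D, hD⟩ := Pic0.mk_surjective x'
  have hkD : (Pic0.mk ((p ^ k) • D) : JZero N) = 0 := by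
    have : (Pic0.mk ((p ^ k) • D) : JZero N) = (p ^ k) • Pic0.mk D := rfl
    rw [this, hD, hx'k]
  obtain ⟨f, hf0, hf⟩ := (S34R_mk_eq_zero_iff _).mp hkD
  have hpD : (Pic0.mk (p • (⟨S34R_diff2 N τ' τ (D : Divisor Qb (modularFunctionFieldBar N)),
      S34R_diff2_mem_degZero τ' τ D.2⟩ :
        Divisor.degZero (K := Qb) (F := modularFunctionFieldBar N))) : JZero N) = 0 := by
    have : (Pic0.mk (p • (⟨S34R_diff2 N τ' τ (D : Divisor Qb (modularFunctionFieldBar N)),
      S34R_diff2_mem_degZero τ' τ D.2⟩ :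
        Divisor.degZero (K := Qb) (F := modularFunctionFieldBar N))) : JZero N)
        = p • Pic0.mk ⟨S34R_diff2 N τ' τ (D : Divisor Qb (modularFunctionFieldBar N)),
      S34R_diff2_mem_degZero τ' τ D.2⟩ := rfl
    rw [this, ← S34R_delta_mk, hD, hpz']
  obtain ⟨h', hh'0, hh'⟩ := (S34R_mk_eq_zero_iff _).mp hpD
  obtain ⟨w, hw0, hw⟩ := h A hA τ' τ hτ' hτ k (D : Divisor Qb (modularFunctionFieldBar N)) f h'
    hf0 hh'0
    (fun P => by
      rw [← hf P]
      simp [Finsupp.smul_apply])
    (fun P => by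
      rw [← hh' P]
      simp [Finsupp.smul_apply])
  apply hz'
  rw [← hD, S34R_delta_mk, S34R_mk_eq_zero_iff]
  exact ⟨w, hw0, fun P => (hw P).symm⟩

/-- **(G34)** in the shape of the endgame: `(s - 1)² = 0` on `J₀(N)[p ^ k]`. -/
theorem S34R_G34 (p q : ℕ) (hp : p.Prime) (h : S34R_Key N p q) :
    ∀ (k : ℕ) (A : ValuationSubring Qb), A.LiesOverPrime q →
      ∀ s ∈ A.inertiaSubgroupIn ℚ, ∀ x : JZero N, (p ^ k) • x = 0 →
        s • (s • x) - (2 : ℤ) • (s • x) + x = 0 := by
  intro k A hA s hs x hx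
  have := S34R_G34_two p q hp h k A hA s hs s hs x hx
  rw [← this, two_zsmul]
  abel

end Fermat.Agent.S34_helper6_RED
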