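import Mathlib
import Fermat.Agent.S34_helper12_CDefs
import Fermat.Agent.S34_helper6_RED
import Fermat.Agent.S34_helper5_K0
import Fermat.Agent.S18_helper25_COREDefs
import Fermat.Agent.S18_helper3_LOCRING
import Fermat.Agent.S37_helper4_B1Defs

/-!
# S34: the contracts (owner file, helper4)

Definitions of `Prop`s only.  The chain (top to bottom):

* `S34.result`  ⇐  `(G34)`  ⇐  `Fermat.Agent.S34_helper6_RED.S34R_Key (N' * q) p q`
  (formal top: helper6 RED, helper3 ENDP, helper10 consumer);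
* `S34R_Key (N' * q) p q`  ⇐  `S34K_Geom N' q p A` for every `A` over `q`   (X-D, helper25);
* `S34K_Geom` = for every Galois-stable admissible level `K1` a second valuation ring `V2` with
  - `S34C_Setup2` for the S18K carriers of level `N' * q`                    (P1c, (V));
  - `S34K_Inert`: inertia preserves `V2` and is trivial modulo `π V2`        (P1c);
  - `S34K_N1`: regularity of the special fibre at the one-branch points      (P1d, (N1));
  - `S34K_Cross`: the local generator at the crossing points                 (X-CROSS).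

Carriers (all inside `L = LaurentSeries K1`): `O = S18K_O A K1`, `π = S18K_π A K1`,
`j = S18K_j K1`, `F1 = S18K_F1 K1 (N' * q)`, `V1 = S18K_V A K1 (N' * q)` (Gauss),
charts `S18K_A0 A K1 (N' * q)`, `S18K_Ainf A K1 (N' * q)`.
-/

set_option autoImplicit false

open AlgebraicCurve ModularCurve HahnSeries IntermediateField

noncomputable section

namespace Fermat.Agent.S34_Contracts

open Fermat.Agent.S18_helper9_CDefs Fermat.Agent.S18_helper25_COREDefs
  Fermat.Agent.S34_helper12_CDefs Fermat.Agent.S34_helper6_RED Fermat.Agent.S34_helper5_K0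
  Fermat.Agent.S18_helper3_LOCRING Fermat.Agent.S37_helper4_B1Defs
  Fermat.Agent.S37_helper5_LEVEL

local notation "Qb" => AlgebraicClosure ℚ
local notation "GQ" => (AlgebraicClosure ℚ ≃ₐ[ℚ] AlgebraicClosure ℚ)

section Abstract

variable {L : Type*} [Field L]

/-- The vertical prime `X ∩ π V` of the chart `X` is contained in `m`
(`m` lies on the component of the special fibre cut out by the valuation ring `V`). -/
def S34K_Thru (π : L) (V X : Subring L) (m : Ideal X) : Prop :=
  ∀ a : X, (∃ v ∈ V, (a : L) = π * v) → a ∈ m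

/-- **(N1)** on the chart `X`: at every maximal ideal `m ∋ π` which does NOT lie on both
components the special fibre is regular (`IGAt`, the S18 shape). -/
def S34K_N1 (π : L) (V1 V2 X : Subring L) : Prop :=
  ∀ (hπ : π ∈ X) (m : Ideal X), m.IsMaximal → (⟨π, hπ⟩ : X) ∈ m →
    ¬ (S34K_Thru π V1 X m ∧ S34K_Thru π V2 X m) → IGAt π X m

/-- **The crossing datum** for `f` at the maximal ideal `m` of the chart `X`: a function
`g ≡ 1 mod π (V1 ⊓ V2)` such that `f / g ^ p` is a unit of the local ring at `m`.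
(Exactly the hypothesis of `S34C_shape_of_cross`.) -/
def S34K_CrossAt (π : L) (F1 : Subfield L) (V1 V2 X : Subring L) (p : ℕ) (f : L)
    (m : Ideal X) [m.IsPrime] : Prop :=
  ∃ g ∈ F1, ∃ c ∈ (V1 ⊓ V2 : Subring L), g = 1 + π * c ∧
    f * (g ^ p)⁻¹ ∈ locRing X m ∧ (f * (g ^ p)⁻¹)⁻¹ ∈ locRing X m

end Abstract

section Concrete

variable (N : ℕ) [NeZero N] (p : ℕ) (A : ValuationSubring Qb)
  (K1 : IntermediateField ℚ Qb) [IsDiscreteValuationRing (S18K_O1 A K1)]

/-- **Inertia and the second valuation ring**: for a Galois-stable level `K1`, every inertia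
element (acting on the coefficients) preserves `V2` and is trivial modulo `π V2`. -/
def S34K_Inert (hstab : ∀ σ : GQ, ∀ x ∈ K1, σ x ∈ K1) (V2 : Subring (LaurentSeries K1)) : Prop :=
  ∀ τ : GQ, τ ∈ A.inertiaSubgroupIn ℚ → ∀ x ∈ V2,
    coeffMap ((S34K0_restrict K1 hstab τ : K1 ≃ₐ[ℚ] K1) : K1 →+* K1) x ∈ V2 ∧
    ∃ c ∈ V2, coeffMap ((S34K0_restrict K1 hstab τ : K1 ≃ₐ[ℚ] K1) : K1 →+* K1) x - x
      = S18K_π A K1 * c

/-- **X-CROSS** on the chart `X` (at level `K1`, level of the curve `N`): for every function `f`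
over `K1`, a unit for both valuations, whose divisor over `ℚ̄` is `p` times a mixed second
difference `(τ' - 1)(τ - 1) D` of a divisor `D` supported on `K1`-rational places, and every
crossing point `m` of `X`, the crossing datum exists. -/
def S34K_Cross (V2 X : Subring (LaurentSeries K1)) : Prop :=
  ∀ τ' τ : GQ, τ' ∈ A.inertiaSubgroupIn ℚ → τ ∈ A.inertiaSubgroupIn ℚ →
  ∀ D : Divisor Qb (modularFunctionFieldBar N),
    (∀ P : Place Qb (modularFunctionFieldBar N), D P ≠ 0 → S37LEVEL_IsRational N K1 P) →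
  ∀ f : LaurentSeries K1, f ∈ S18K_F1 K1 N → f ≠ 0 →
    f ∈ (S18K_V A K1 N ⊓ V2 : Subring (LaurentSeries K1)) →
    f⁻¹ ∈ (S18K_V A K1 N ⊓ V2 : Subring (LaurentSeries K1)) →
    (∀ P : Place Qb (modularFunctionFieldBar N),
      S37B1_ordP N K1 P f = (p : ℤ) * S34R_diff2 N τ' τ D P) →
  ∀ (hπ : S18K_π A K1 ∈ X) (m : Ideal X) (hm : m.IsMaximal), (⟨S18K_π A K1, hπ⟩ : X) ∈ m →
    S34K_Thru (S18K_π A K1) (S18K_V A K1 N) X m → S34K_Thru (S18K_π A K1) V2 X m →
    haveI := hm.isPrime
    S34K_CrossAt (S18K_π A K1) (S18K_F1 K1 N) (S18K_V A K1 N) V2 X p f m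

end Concrete

/-- **The geometric contract** at the place `A` over `q`, level `N' * q`, prime `p`:
over every Galois-stable admissible level `K1 ⊇ K0` there is a second valuation ring `V2`
with (V), inertia-stability, (N1) and X-CROSS on both charts. -/
def S34K_Geom (N' q p : ℕ) [NeZero (N' * q)] (A : ValuationSubring Qb) : Prop :=
  ∀ (K1 : IntermediateField ℚ Qb) (h : S18K_Admissible A K1 q)
    (hstab : ∀ σ : GQ, ∀ x ∈ K1, σ x ∈ K1),
    letI := h.dvr
    ∃ V2 : Subring (LaurentSeries K1),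
      S34C_Setup2 (S18K_O A K1) (S18K_π A K1) (S18K_j K1) (S18K_F1 K1 (N' * q))
        (S18K_V A K1 (N' * q)) V2 (S18K_A0 A K1 (N' * q)) (S18K_Ainf A K1 (N' * q)) ∧
      (∃ x ∈ S18K_V A K1 (N' * q), x ∉ V2) ∧
      S34K_Inert A K1 hstab V2 ∧
      S34K_N1 (S18K_π A K1) (S18K_V A K1 (N' * q)) V2 (S18K_A0 A K1 (N' * q)) ∧
      S34K_N1 (S18K_π A K1) (S18K_V A K1 (N' * q)) V2 (S18K_Ainf A K1 (N' * q)) ∧
      S34K_Cross (N' * q) p A K1 V2 (S18K_A0 A K1 (N' * q)) ∧
      S34K_Cross (N' * q) p A K1 V2 (S18K_Ainf A K1 (N' * q))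

/-- **The contract of X-D** (helper25): the geometric contract at every place over `q` gives the
divisor-level key statement of the formal top. -/
def S34K_XD (N' q p : ℕ) [NeZero (N' * q)] : Prop :=
  q.Prime → p.Prime → p ≠ q → ¬ q ∣ N' →
  (∀ A : ValuationSubring Qb, A.LiesOverPrime q → S34K_Geom N' q p A) →
  S34R_Key (N' * q) p q

/-- **The contract of the geometry**: `S34K_Geom` holds. -/
def S34K_GeomHolds (N' q p : ℕ) [NeZero (N' * q)] : Prop :=
  q.Prime → p.Prime → p ≠ q → ¬ q ∣ N' →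
  ∀ A : ValuationSubring Qb, A.LiesOverPrime q → S34K_Geom N' q p A

end Fermat.Agent.S34_Contracts
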