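import Mathlib
import Fermat.Agent.S34_Contracts

/-!
# S34: the sub-contracts of X-CROSS (owner file, helper4)

`S34K_Cross` (see `S34_Contracts`) is assembled by the owner from

* HARTOGS (helper2, landed: `S34H_unit_locRing`),
* `S34K_Vert`        (HARTOGS-K): the vertical DVR primes of a chart are the two Gauss primes;
* `S34K_PlacesAt`    (X-PLACES a): a horizontal DVR prime `𝔭 ≤ m` carries a place of `F̄ / ℚ̄`
  centred at `m`;
* `S34K_CentredInert` (X-PLACES b): inertia preserves the centre;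
* `S34K_LocGen`      (X-LOCGEN): the local generator `g_P` of `(τ' - 1)(τ - 1) P` at a crossing
  point, `≡ 1` on both branches.
-/

set_option autoImplicit false

open AlgebraicCurve ModularCurve HahnSeries IntermediateField

noncomputable section

namespace Fermat.Agent.S34_Contracts

open Fermat.Agent.S18_helper9_CDefs Fermat.Agent.S18_helper25_COREDefs
  Fermat.Agent.S34_helper12_CDefs Fermat.Agent.S34_helper6_RED Fermat.Agent.S34_helper5_K0
  Fermat.Agent.S18_helper3_LOCRING Fermat.Agent.S37_helper4_B1Defs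
  Fermat.Agent.S37_helper5_LEVEL

local notation "Qb" => AlgebraicClosure ℚ
local notation "GQ" => (AlgebraicClosure ℚ ≃ₐ[ℚ] AlgebraicClosure ℚ)

section Abstract

variable {L : Type*} [Field L]

/-- **HARTOGS-K**: a prime `𝔭 ∋ π` of the chart `X` whose local ring is a discrete valuation ring
is one of the two Gauss primes: its local ring contains `V1 ⊓ V2`. -/
def S34K_Vert (π : L) (V1 V2 X : Subring L) : Prop :=
  ∀ (hπ : π ∈ X) (𝔭 : Ideal X) [𝔭.IsPrime], (⟨π, hπ⟩ : X) ∈ 𝔭 →
    IsDiscreteValuationRing (locRing X 𝔭) → (V1 ⊓ V2 : Subring L) ≤ locRing X 𝔭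

end Abstract

section Concrete

variable (N : ℕ) [NeZero N] (A : ValuationSubring Qb)
  (K1 : IntermediateField ℚ Qb)

/-- the function `a` (a series over `K1`) is regular at the place `P` of `F̄ / ℚ̄` with value
`c ∈ ℚ̄`. -/
def S34K_ValueAt (P : Place Qb (modularFunctionFieldBar N)) (a : LaurentSeries K1) (c : Qb) :
    Prop :=
  ∃ z : modularFunctionFieldBar N,
    (z : LaurentSeries Qb) = coeffMap (algebraMap K1 Qb) a - HahnSeries.C c ∧
      (z = 0 ∨ 0 < P.ord z)

/-- the place `P` of `F̄ / ℚ̄` is **centred at the maximal ideal `m`** of the chart `X`: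
every `a ∈ X` has a value at `P`, the values lie in the valuation ring `A` of `ℚ̄`, and `m` is the
set of the elements whose value is a nonunit of `A`. -/
def S34K_Centred (X : Subring (LaurentSeries K1)) (m : Ideal X)
    (P : Place Qb (modularFunctionFieldBar N)) : Prop :=
  (∀ a : X, ∃ c ∈ A, S34K_ValueAt N K1 P (a : LaurentSeries K1) c) ∧
  ∀ a : X, ∀ c ∈ A, S34K_ValueAt N K1 P (a : LaurentSeries K1) c → (a ∈ m ↔ c ∈ A.nonunits)

variable [IsDiscreteValuationRing (S18K_O1 A K1)]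

/-- **X-PLACES (a)**: every horizontal prime `𝔭 ≤ m` of the chart `X` whose local ring is a
discrete valuation ring carries a place `P'` of `F̄ / ℚ̄` centred at `m`, and a function over `K1`
of order `0` at `P'` lies in the local ring at `𝔭`. -/
def S34K_PlacesAt (X : Subring (LaurentSeries K1)) : Prop :=
  ∀ (hπ : S18K_π A K1 ∈ X) (m : Ideal X), m.IsMaximal → (⟨S18K_π A K1, hπ⟩ : X) ∈ m →
  ∀ (𝔭 : Ideal X) [𝔭.IsPrime], 𝔭 ≤ m → 𝔭 ≠ ⊥ → (⟨S18K_π A K1, hπ⟩ : X) ∉ 𝔭 →
    IsDiscreteValuationRing (locRing X 𝔭) →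
    ∃ P' : Place Qb (modularFunctionFieldBar N), S34K_Centred N A K1 X m P' ∧
      ∀ x ∈ S18K_F1 K1 N, x ≠ 0 → S37B1_ordP N K1 P' x = 0 → x ∈ locRing X 𝔭

/-- **X-PLACES (b)**: inertia preserves the centre of a place. -/
def S34K_CentredInert (X : Subring (LaurentSeries K1)) : Prop :=
  ∀ τ : GQ, τ ∈ A.inertiaSubgroupIn ℚ →
  ∀ (m : Ideal X) (P : Place Qb (modularFunctionFieldBar N)),
    S34K_Centred N A K1 X m P → S34K_Centred N A K1 X m (S34R_g N τ • P)

/-- **X-LOCGEN**: at a crossing point `m` of the chart `X`, every `K1`-rational place `P`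
centred at `m` has a local generator of `(τ' - 1)(τ - 1) P`: a function `g ≡ 1 mod π (V1 ⊓ V2)`
whose order at every place `P'` centred at `m` is the coefficient of `P'` in
`(τ' - 1)(τ - 1) P`. -/
def S34K_LocGen (V2 X : Subring (LaurentSeries K1)) : Prop :=
  ∀ τ' τ : GQ, τ' ∈ A.inertiaSubgroupIn ℚ → τ ∈ A.inertiaSubgroupIn ℚ →
  ∀ (hπ : S18K_π A K1 ∈ X) (m : Ideal X), m.IsMaximal → (⟨S18K_π A K1, hπ⟩ : X) ∈ m →
    S34K_Thru (S18K_π A K1) (S18K_V A K1 N) X m → S34K_Thru (S18K_π A K1) V2 X m →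
  ∀ P : Place Qb (modularFunctionFieldBar N), S37LEVEL_IsRational N K1 P →
    S34K_Centred N A K1 X m P →
    ∃ g ∈ S18K_F1 K1 N, g ≠ 0 ∧
      (∃ c ∈ (S18K_V A K1 N ⊓ V2 : Subring (LaurentSeries K1)), g = 1 + S18K_π A K1 * c) ∧
      ∀ P' : Place Qb (modularFunctionFieldBar N), S34K_Centred N A K1 X m P' →
        S37B1_ordP N K1 P' g = S34R_diff2 N τ' τ (Finsupp.single P 1) P'

end Concrete

end Fermat.Agent.S34_Contracts
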