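import Mathlib
import Fermat.Agent.S18_helper3_LOCRING

/-!
# S34 generic brick: algebraic Hartogs for the local rings of a normal chart

`A` is a subring of a field `L` (in the application: a chart, i.e. the integral closure of
`O[j]` in the function field), noetherian and integrally closed in its fraction field.
For a prime `m` of `A` and `x` in the fraction field of `A`:

  if `x ∈ A_P` for every prime `P ≤ m`, `P ≠ ⊥`, such that `A_P` is a discrete valuation ring,
  then `x ∈ A_m`.

This replaces the factoriality (`LOCRING`, `[IG] ⟹ UFD`) used in S18 at the smooth points of the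
special fibre: at a node the local ring is normal but not factorial.
-/

set_option autoImplicit false

namespace Fermat.Agent.S34_helper2_HARTOGS

open Fermat.Agent.S18_helper3_LOCRING

variable {L : Type*} [Field L]

section Cond

variable (A : Subring L) (m : Ideal A) [hm : m.IsPrime]

/-- The saturated conductor `{r ∈ A | r * y ∈ A_m}`. -/
def S34H_cond (y : L) : Ideal A where
  carrier := {r | (r : L) * y ∈ locRing A m}
  add_mem' := by
    intro r s hr hs
    show ((r + s : A) : L) * y ∈ locRing A m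
    push_cast
    rw [add_mul]
    exact (locRing A m).add_mem hr hs
  zero_mem' := by
    show ((0 : A) : L) * y ∈ locRing A m
    simp
  smul_mem' := by
    intro c r hr
    show ((c • r : A) : L) * y ∈ locRing A m
    rw [smul_eq_mul]
    push_cast
    rw [mul_assoc]
    exact (locRing A m).mul_mem (le_locRing A m c.2) hr

theorem S34H_mem_cond {y : L} {r : A} :
    r ∈ S34H_cond A m y ↔ (r : L) * y ∈ locRing A m := Iff.rfl

theorem S34H_cond_le {y : L} (hy : y ∉ locRing A m) : S34H_cond A m y ≤ m := by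
  intro r hr
  by_contra hrm
  obtain ⟨a, c, hc, h⟩ := hr
  apply hy
  refine ⟨a, r * c, fun hmem => ?_, ?_⟩
  · rcases hm.mem_or_mem hmem with h1 | h1
    exacts [hrm h1, hc h1]
  · push_cast
    rw [← h]
    ring

/-- Localising at a smaller prime gives a bigger ring. -/
theorem S34H_locRing_mono {P : Ideal A} [hP : P.IsPrime] (hPm : P ≤ m) :
    locRing A m ≤ locRing A P := by
  rintro z ⟨a, c, hc, h⟩
  exact ⟨a, c, fun hcP => hc (hPm hcP), h⟩

/-- A finite product of elements outside a prime ideal is outside it. -/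
theorem S34H_prod_notMem {ι : Type*} (G : Finset ι) (s : ι → A) (hs : ∀ g ∈ G, s g ∉ m) :
    ∏ g ∈ G, s g ∉ m := by
  classical
  induction G using Finset.induction_on with
  | empty =>
    simp only [Finset.prod_empty]
    exact fun h1 => hm.ne_top ((Ideal.eq_top_iff_one m).2 h1)
  | insert a G ha ih =>
    rw [Finset.prod_insert ha]
    intro hmem
    rcases hm.mem_or_mem hmem with h1 | h1
    · exact hs a (Finset.mem_insert_self a G) h1
    · exact ih (fun g hg => hs g (Finset.mem_insert_of_mem hg)) h1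

end Cond

section Main

variable (A : Subring L) (m : Ideal A) [hm : m.IsPrime]

/-- **Case A** of the main argument: if `P = {r | r * y ∈ A_m} ≤ m` and `r * y` is a non-unit of
`A_P` for every `r ∈ P`, then `y` would be integral up to a denominator outside `m`;
contradiction with `y ∉ A_m` when `A` is integrally closed. -/
theorem S34H_caseA [IsNoetherianRing A]
    (hic : ∀ y : L, (∃ a b : A, b ≠ 0 ∧ y * (b : L) = a) → IsIntegral A y → y ∈ A)
    (y : L) (hyfrac : ∃ a b : A, b ≠ 0 ∧ y * (b : L) = a) (hy : y ∉ locRing A m)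
    (P : Ideal A) (hP : P = S34H_cond A m y) (hP0 : P ≠ ⊥)
    (hA : ∀ r ∈ P, ∀ a s : A, s ∉ m → (r : L) * y * (s : L) = a → a ∈ P) : False := by
  classical
  have hPm : P ≤ m := hP ▸ S34H_cond_le A m hy
  -- generators of `P`
  obtain ⟨G, hG⟩ := (isNoetherianRing_iff_ideal_fg A).1 inferInstance P
  have hGP : ∀ g ∈ G, g ∈ P := fun g hg => hG ▸ Ideal.subset_span hg
  -- denominators
  have hex : ∀ g : A, ∃ a s : A, g ∈ P → (s ∉ m ∧ (g : L) * y * (s : L) = a) := by
    intro g
    by_cases hg : g ∈ P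
    · have h1 : (g : L) * y ∈ locRing A m := by
        rw [hP] at hg
        exact hg
      obtain ⟨a, s, hs, h⟩ := h1
      exact ⟨a, s, fun _ => ⟨hs, h⟩⟩
    · exact ⟨0, 0, fun h => absurd h hg⟩
  choose a s has using hex
  set sG : A := ∏ g ∈ G, s g with hsG
  have hsGm : sG ∉ m := S34H_prod_notMem A m G s (fun g hg => (has g (hGP g hg)).1)
  -- the ideal of all `r` with `sG * y * r ∈ P`
  let T : Ideal A :=
    { carrier := {r | ∃ r' ∈ P, (r' : L) = (sG : L) * y * (r : L)}
      add_mem' := by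
        rintro r₁ r₂ ⟨r₁', h₁, e₁⟩ ⟨r₂', h₂, e₂⟩
        refine ⟨r₁' + r₂', P.add_mem h₁ h₂, ?_⟩
        push_cast
        rw [e₁, e₂]
        ring
      zero_mem' := ⟨0, P.zero_mem, by simp⟩
      smul_mem' := by
        rintro c r ⟨r', h, e⟩
        refine ⟨c * r', P.mul_mem_left c h, ?_⟩
        rw [smul_eq_mul]
        push_cast
        rw [e]
        ring }
  have hGT : (G : Set A) ⊆ T := by
    intro g hg
    have hgG : g ∈ G := hg
    have hgP := hGP g hgG
    obtain ⟨-, hgs⟩ := has g hgP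
    have haP : a g ∈ P := hA g hgP (a g) (s g) (has g hgP).1 hgs
    refine ⟨a g * ∏ g' ∈ G.erase g, s g', P.mul_mem_right _ haP, ?_⟩
    have hprod : sG = s g * ∏ g' ∈ G.erase g, s g' := by
      rw [hsG, Finset.mul_prod_erase G s hgG]
    rw [hprod]
    push_cast
    rw [← hgs]
    ring
  have hPT : P ≤ T := by
    rw [← hG]
    exact Ideal.span_le.2 hGT
  -- the `A`-submodule `N = P` of `L`
  let N : Submodule A L := Submodule.map (Algebra.linearMap A L) P
  have hN0 : N ≠ ⊥ := by
    intro h0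
    apply hP0
    rw [eq_bot_iff]
    intro r hr
    have h1 : (Algebra.linearMap A L) r ∈ N := Submodule.mem_map_of_mem hr
    rw [h0, Submodule.mem_bot] at h1
    have h2 : (r : L) = 0 := h1
    rw [Ideal.mem_bot]
    exact Subtype.ext h2
  have hNfg : N.FG := by
    have hPfg : Submodule.FG (P : Submodule A A) :=
      (isNoetherianRing_iff_ideal_fg A).1 inferInstance P
    exact Submodule.FG.map (Algebra.linearMap A L) hPfg
  have hstab : ∀ n ∈ N, ((sG : L) * y) • n ∈ N := by
    rintro n ⟨r, hr, rfl⟩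
    obtain ⟨r', hr', e⟩ := hPT hr
    refine ⟨r', hr', ?_⟩
    show (r' : L) = ((sG : L) * y) • (r : L)
    rw [e, smul_eq_mul]
  have hint : IsIntegral A ((sG : L) * y) :=
    isIntegral_of_smul_mem_submodule (R := A) (A := L) (M := L) N hN0 hNfg _ hstab
  have hfrac' : ∃ a b : A, b ≠ 0 ∧ ((sG : L) * y) * (b : L) = a := by
    obtain ⟨a₀, b₀, hb₀, h₀⟩ := hyfrac
    refine ⟨sG * a₀, b₀, hb₀, ?_⟩
    push_cast
    rw [← h₀]
    ring
  have hmem : (sG : L) * y ∈ A := hic _ hfrac' hint
  have hsGP : sG ∈ P := by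
    rw [hP]
    exact le_locRing A m hmem
  exact hsGm (hPm hsGP)

/-- **Case B**: if `P = {r | r * y ∈ A_m}` is prime and some `r * y` (`r ∈ P`) is a unit of
`A_P`, then the maximal ideal of `A_P` is generated by `r`, so `A_P` is a discrete valuation
ring. -/
theorem S34H_caseB [IsNoetherianRing A] (y : L)
    (P : Ideal A) [hPp : P.IsPrime] (hP : P = S34H_cond A m y) (hPm : P ≤ m)
    (r : A) (hr : r ∈ P) (a' s' : A) (ha' : a' ∉ P) (hs' : s' ∉ P)
    (hry : (r : L) * y * (s' : L) = a') :
    IsDiscreteValuationRing (locRing A P) := by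
  have ha'0 : (a' : L) ≠ 0 := coe_ne_zero_of_notMem A P ha'
  have hs'0 : (s' : L) ≠ 0 := coe_ne_zero_of_notMem A P hs'
  have hry0 : (r : L) * y ≠ 0 := by
    intro h0
    rw [h0, zero_mul] at hry
    exact ha'0 hry.symm
  have hr0L : (r : L) ≠ 0 := left_ne_zero_of_mul hry0
  have hy0 : y ≠ 0 := right_ne_zero_of_mul hry0
  have hr0 : r ≠ 0 := fun h => hr0L (by rw [h]; rfl)
  -- `(r y)⁻¹ ∈ A_P`
  have hinv : ((r : L) * y)⁻¹ ∈ locRing A P := by
    refine ⟨s', a', ha', ?_⟩
    rw [← hry]
    field_simp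
  have : IsNoetherianRing (locRing A P) := isNoetherianRing_locRing A P
  set ρ : locRing A P := incl A P r with hρ
  have hρm : ρ ∈ IsLocalRing.maximalIdeal (locRing A P) := incl_mem_maximalIdeal A P hr
  have hprinc : (IsLocalRing.maximalIdeal (locRing A P)).IsPrincipal := by
    refine ⟨⟨ρ, le_antisymm ?_ ?_⟩⟩
    · intro z hz
      obtain ⟨a, s, ha, hs, hzs⟩ := (mem_maximalIdeal_iff A P z).1 hz
      have hs0 : (s : L) ≠ 0 := coe_ne_zero_of_notMem A P hs
      have hay : (a : L) * y ∈ locRing A P := by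
        have h1 : a ∈ S34H_cond A m y := hP ▸ ha
        exact S34H_locRing_mono A m hPm h1
      have hsinv : ((s : L))⁻¹ ∈ locRing A P := inv_mem_locRing A P hs
      let w : locRing A P :=
        ⟨(a : L) * y * ((r : L) * y)⁻¹ * ((s : L))⁻¹,
          (locRing A P).mul_mem ((locRing A P).mul_mem hay hinv) hsinv⟩
      have hzw : z = w * ρ := by
        apply Subtype.ext
        show (z : L) = (a : L) * y * ((r : L) * y)⁻¹ * ((s : L))⁻¹ * (r : L)
        have hz' : (z : L) = (a : L) / (s : L) := by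
          rw [eq_div_iff hs0]
          exact hzs
        rw [hz']
        field_simp
      rw [Submodule.mem_span_singleton]
      exact ⟨w, by rw [hzw]; rfl⟩
    · rw [Submodule.span_le]
      intro z hz
      rw [Set.mem_singleton_iff] at hz
      rw [hz]
      exact hρm
  have hnf : ¬ IsField (locRing A P) := by
    intro hf
    have h1 : IsLocalRing.maximalIdeal (locRing A P) = ⊥ :=
      IsLocalRing.isField_iff_maximalIdeal_eq.1 hf
    have h2 : ρ = 0 := by
      have := hρm
      rw [h1, Ideal.mem_bot] at this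
      exact this
    apply hr0L
    have h3 : ((ρ : locRing A P) : L) = 0 := by rw [h2]; rfl
    exact h3
  exact ((IsDiscreteValuationRing.TFAE (locRing A P) hnf).out 0 4).2 hprinc

/-- **Algebraic Hartogs, local form** (element-wise hypotheses).  `A` noetherian, integrally
closed in its fraction field, `m` a prime of `A`, `x` in the fraction field of `A`.  If
`x ∈ A_P` for every prime `P ≤ m`, `P ≠ ⊥`, with `A_P` a discrete valuation ring, then
`x ∈ A_m`. -/
theorem S34H_mem_locRing_of_frac [IsNoetherianRing A]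
    (hic : ∀ y : L, (∃ a b : A, b ≠ 0 ∧ y * (b : L) = a) → IsIntegral A y → y ∈ A)
    (x : L) (hx : ∃ a b : A, b ≠ 0 ∧ x * (b : L) = a)
    (h : ∀ (P : Ideal A) [P.IsPrime], P ≤ m → P ≠ ⊥ →
      IsDiscreteValuationRing (locRing A P) → x ∈ locRing A P) :
    x ∈ locRing A m := by
  classical
  by_contra hxm
  obtain ⟨a₀, b₀, hb₀, hxb⟩ := hx
  -- the set of conductors of the multiples `c * x ∉ A_m`
  let S : Set (Ideal A) :=
    {J | ∃ c : A, (c : L) * x ∉ locRing A m ∧ J = S34H_cond A m ((c : L) * x)}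
  have hS : S.Nonempty := ⟨S34H_cond A m ((1 : A) * x), 1, by simpa using hxm, rfl⟩
  obtain ⟨P, ⟨c, hcx, hPdef⟩, hmax⟩ :=
    (wellFounded_gt : WellFounded ((· > ·) : Ideal A → Ideal A → Prop)).has_min S hS
  set y : L := (c : L) * x with hy
  have hPm : P ≤ m := hPdef ▸ S34H_cond_le A m hcx
  -- `P` is prime
  have hPprime : P.IsPrime := by
    refine ⟨fun htop => hm.ne_top (top_le_iff.1 (htop ▸ hPm)), ?_⟩
    intro r s hrs
    by_contra hne
    push Not at hne
    obtain ⟨hr, hs⟩ := hne
    have hsy : (s : L) * y ∉ locRing A m := by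
      intro h1
      apply hs
      rw [hPdef]
      exact h1
    have hmemS : S34H_cond A m ((s : L) * y) ∈ S := by
      refine ⟨s * c, ?_, ?_⟩
      · have : ((s * c : A) : L) * x = (s : L) * y := by push_cast; rw [hy]; ring
        rw [this]
        exact hsy
      · have : ((s * c : A) : L) * x = (s : L) * y := by push_cast; rw [hy]; ring
        rw [this]
    have hle : P ≤ S34H_cond A m ((s : L) * y) := by
      intro t ht
      have h1 : (t : L) * y ∈ locRing A m := by
        rw [hPdef] at ht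
        exact ht
      show (t : L) * ((s : L) * y) ∈ locRing A m
      have h2 : (t : L) * ((s : L) * y) = (s : L) * ((t : L) * y) := by ring
      rw [h2]
      exact (locRing A m).mul_mem (le_locRing A m s.2) h1
    have heq : S34H_cond A m ((s : L) * y) = P := by
      by_contra hne'
      exact hmax _ hmemS (lt_of_le_of_ne hle (Ne.symm hne'))
    apply hr
    rw [← heq]
    show (r : L) * ((s : L) * y) ∈ locRing A m
    have h3 : (r * s : A) ∈ S34H_cond A m y := hPdef ▸ hrs
    have h4 : ((r * s : A) : L) * y ∈ locRing A m := h3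
    have h5 : (r : L) * ((s : L) * y) = ((r * s : A) : L) * y := by push_cast; ring
    rw [h5]
    exact h4
  -- `b₀ ∈ P`, so `P ≠ ⊥`
  have hb₀P : b₀ ∈ P := by
    rw [hPdef]
    show (b₀ : L) * y ∈ locRing A m
    have : (b₀ : L) * y = ((c * a₀ : A) : L) := by
      push_cast
      rw [hy, ← hxb]
      ring
    rw [this]
    exact le_locRing A m (c * a₀).2
  have hP0 : P ≠ ⊥ := by
    intro h0
    rw [h0, Ideal.mem_bot] at hb₀P
    exact hb₀ hb₀P
  have hyfrac : ∃ a b : A, b ≠ 0 ∧ y * (b : L) = a := by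
    refine ⟨c * a₀, b₀, hb₀, ?_⟩
    push_cast
    rw [hy, ← hxb]
    ring
  -- case distinction
  by_cases hB : ∃ r ∈ P, ∃ a' s' : A, a' ∉ P ∧ s' ∉ P ∧ (r : L) * y * (s' : L) = a'
  · obtain ⟨r, hr, a', s', ha', hs', hry⟩ := hB
    have := hPprime
    have hdvr : IsDiscreteValuationRing (locRing A P) :=
      S34H_caseB A m y P hPdef hPm r hr a' s' ha' hs' hry
    obtain ⟨a, s, hs, hxs⟩ := h P hPm hP0 hdvr
    apply hs
    rw [hPdef]
    show (s : L) * y ∈ locRing A m
    have : (s : L) * y = ((c * a : A) : L) := by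
      push_cast
      rw [hy, ← hxs]
      ring
    rw [this]
    exact le_locRing A m (c * a).2
  · push Not at hB
    refine S34H_caseA A m hic y hyfrac hcx P hPdef hP0 ?_
    intro r hr a s hs hrs
    by_contra haP
    exact hB r hr a s haP (fun hsP => hs (hPm hsP)) hrs

/-- The same with the fraction field given as a subfield `F1` of `L`. -/
theorem S34H_mem_locRing [IsNoetherianRing A] (F1 : Subfield L)
    (hfrac : ∀ x ∈ F1, ∃ a b : A, b ≠ 0 ∧ x * (b : L) = a)
    (hic : ∀ x ∈ F1, IsIntegral A x → x ∈ A)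
    (hAF : ∀ a ∈ A, a ∈ F1)
    (x : L) (hx : x ∈ F1)
    (h : ∀ (P : Ideal A) [P.IsPrime], P ≤ m → P ≠ ⊥ →
      IsDiscreteValuationRing (locRing A P) → x ∈ locRing A P) :
    x ∈ locRing A m := by
  refine S34H_mem_locRing_of_frac A m ?_ x (hfrac x hx) h
  rintro y ⟨a, b, hb, hyb⟩ hint
  refine hic y ?_ hint
  have hb0 : (b : L) ≠ 0 := fun h0 => hb (Subtype.ext h0)
  have : y = (a : L) / (b : L) := by
    rw [eq_div_iff hb0]
    exact hyb
  rw [this]
  exact F1.div_mem (hAF a a.2) (hAF b b.2)

/-- **Unit form**: if `x ≠ 0` and both `x` and `x⁻¹` lie in `A_P` for every prime `P ≤ m`,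
`P ≠ ⊥`, with `A_P` a discrete valuation ring, then `x` and `x⁻¹` lie in `A_m`. -/
theorem S34H_unit_locRing [IsNoetherianRing A] (F1 : Subfield L)
    (hfrac : ∀ x ∈ F1, ∃ a b : A, b ≠ 0 ∧ x * (b : L) = a)
    (hic : ∀ x ∈ F1, IsIntegral A x → x ∈ A)
    (hAF : ∀ a ∈ A, a ∈ F1)
    (x : L) (hx : x ∈ F1)
    (h : ∀ (P : Ideal A) [P.IsPrime], P ≤ m → P ≠ ⊥ →
      IsDiscreteValuationRing (locRing A P) → x ∈ locRing A P ∧ x⁻¹ ∈ locRing A P) :
    x ∈ locRing A m ∧ x⁻¹ ∈ locRing A m :=
  ⟨S34H_mem_locRing A m F1 hfrac hic hAF x hx (fun P _ h1 h2 h3 => (h P h1 h2 h3).1),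
    S34H_mem_locRing A m F1 hfrac hic hAF x⁻¹ (F1.inv_mem hx)
      (fun P _ h1 h2 h3 => (h P h1 h2 h3).2)⟩

end Main

section Helpers

variable (A : Subring L)

/-- If `A_P` is a discrete valuation ring, it is a valuation ring of the fraction field
of `A`. -/
theorem S34H_val_of_dvr (P : Ideal A) [P.IsPrime]
    (hdvr : IsDiscreteValuationRing (locRing A P))
    (y : L) (hy : ∃ a b : A, b ≠ 0 ∧ y * (b : L) = a) :
    y ∈ locRing A P ∨ y⁻¹ ∈ locRing A P := by
  obtain ⟨a, b, hb, hyb⟩ := hy
  have hb0 : (b : L) ≠ 0 := fun h0 => hb (Subtype.ext h0)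
  have hyab : y = (a : L) / (b : L) := by
    rw [eq_div_iff hb0]
    exact hyb
  rcases ValuationRing.dvd_total (incl A P a) (incl A P b) with ⟨c, hc⟩ | ⟨c, hc⟩
  · -- `b = a * c`, so `y⁻¹ = c` (or `a = 0`)
    right
    have h1 : (b : L) = (a : L) * (c : L) := by
      have := congrArg (fun z : locRing A P => (z : L)) hc
      simpa using this
    have ha0 : (a : L) ≠ 0 := by
      intro h0
      rw [h0, zero_mul] at h1
      exact hb0 h1
    have : y⁻¹ = (c : L) := by
      rw [hyab, inv_div, h1]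
      field_simp
    rw [this]
    exact c.2
  · left
    have h1 : (a : L) = (b : L) * (c : L) := by
      have := congrArg (fun z : locRing A P => (z : L)) hc
      simpa using this
    have : y = (c : L) := by
      rw [hyab, h1]
      field_simp
    rw [this]
    exact c.2

/-- If `A_P` is a discrete valuation ring, `P` has height one: every nonzero prime `Q ≤ P`
equals `P`. -/
theorem S34H_eq_of_le_of_dvr (P Q : Ideal A) [hP : P.IsPrime] [hQ : Q.IsPrime]
    (hQP : Q ≤ P) (hQ0 : Q ≠ ⊥) (hdvr : IsDiscreteValuationRing (locRing A P)) : Q = P := by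
  refine le_antisymm hQP ?_
  intro p hp
  by_cases hp0 : p = 0
  · rw [hp0]
    exact Q.zero_mem
  obtain ⟨q, hqQ, hq0⟩ := Submodule.exists_mem_ne_zero_of_ne_bot hQ0
  obtain ⟨ϖ, hϖ⟩ := IsDiscreteValuationRing.exists_irreducible (locRing A P)
  have hq0' : incl A P q ≠ 0 := fun h => hq0 (incl_injective A P (by rw [h, map_zero]))
  have hp0' : incl A P p ≠ 0 := fun h => hp0 (incl_injective A P (by rw [h, map_zero]))
  obtain ⟨n, u, hu⟩ := IsDiscreteValuationRing.eq_unit_mul_pow_irreducible hq0' hϖ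
  obtain ⟨k, v, hv⟩ := IsDiscreteValuationRing.eq_unit_mul_pow_irreducible hp0' hϖ
  -- `k ≥ 1` because `p ∈ P`
  have hk : k ≠ 0 := by
    intro hk0
    rw [hk0, pow_zero, mul_one] at hv
    have h1 : IsUnit (incl A P p) := hv ▸ v.isUnit
    have h2 : incl A P p ∈ IsLocalRing.maximalIdeal (locRing A P) :=
      incl_mem_maximalIdeal A P hp
    exact (IsLocalRing.mem_maximalIdeal _).1 h2 h1
  -- `p ^ n = (v ^ n * u⁻¹ ^ k) * q ^ k`
  have hrel : incl A P p ^ n = ((v ^ n * u⁻¹ ^ k : (locRing A P)ˣ) : locRing A P) *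
      incl A P q ^ k := by
    rw [hu, hv]
    push_cast
    rw [mul_pow, mul_pow, ← pow_mul, ← pow_mul, mul_comm k n]
    have h1 : ((u⁻¹ : (locRing A P)ˣ) : locRing A P) ^ k * (u : locRing A P) ^ k = 1 := by
      rw [← mul_pow, Units.inv_mul, one_pow]
    linear_combination (-(v : locRing A P) ^ n * ϖ ^ (n * k)) * h1
  obtain ⟨a, s, hs, has⟩ := ((v ^ n * u⁻¹ ^ k : (locRing A P)ˣ) : locRing A P).2
  -- `s * p ^ n = a * q ^ k` in `A`
  have hA : s * p ^ n = a * q ^ k := by
    apply Subtype.ext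
    have h1 := congrArg (fun z : locRing A P => (z : L)) hrel
    simp only [Subring.coe_mul, Subring.coe_pow, coe_incl] at h1
    push_cast
    rw [h1, ← has]
    ring
  have h2 : s * p ^ n ∈ Q := by
    rw [hA]
    exact Q.mul_mem_left a (Q.pow_mem_of_mem hqQ k (Nat.pos_of_ne_zero hk))
  rcases hQ.mem_or_mem h2 with h3 | h3
  · exact absurd (hQP h3) hs
  · exact hQ.mem_of_pow_mem n h3

end Helpers

end Fermat.Agent.S34_helper2_HARTOGS
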