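import Mathlib
import Fermat.Agent.S18_helper9_CBasic
import Fermat.Agent.S34_helper2_HARTOGS
import Fermat.Agent.S34_Contracts2

/-!
# S34, HARTOGS-K (helper2): the vertical primes of a two-component chart, and the unit criterion

Setting: `S : S34C_Setup2 O π j F1 V1 V2 A0 Ainf` (helper12's two-valuation setup) and a chart
`X` relative to `V1 ⊓ V2` (`hC : Chart O π x F1 (V1 ⊓ V2) X`).

* `S34HK_notMem_of_unit` : an element `b ≠ 0` of `X` which is a unit of `V` (`b⁻¹ ∈ V`) lies in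
  no prime `𝔭 ∋ π` of `X` whose local ring is a discrete valuation ring (only `Chart.sat` is
  used: if `b ∈ 𝔭` then `b ^ e = π a / s` in the discrete valuation ring `X_𝔭`, so
  `s = π (a b⁻ᵉ)` with `a b⁻ᵉ ∈ V`, hence `s ∈ π X ⊆ 𝔭`);
* `S34HK_vert` : **the owner's contract `S34K_Vert π V1 V2 X`**: the local ring of `X` at such a
  prime contains `V1 ⊓ V2` (denominators from `Chart.loc`);
* `S34HK_O_le`, `S34HK_le_F1`, `S34HK_ic`, `S34HK_frac` : `O ≤ X ⊆ F1`, `X` is integrally closed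
  in `F1`, and `F1` is the fraction field of `X` (the hypotheses of the landed HARTOGS file);
* `S34HK_hor` : the local ring of `X` at a horizontal prime (`π ∉ 𝔭`) with discrete valuation
  local ring is a discrete valuation ring of `F1` of `PowDiv` type (`⊆ F1`, `O ≤ ·`, `π⁻¹ ∈ ·`,
  valuation ring of `F1`), it contains `X` and its centre on `X` is `𝔭`;
* `S34HK_unit` : **the unit criterion**: `u, u⁻¹ ∈ V1 ⊓ V2` and `u, u⁻¹ ∈ X_𝔭` for every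
  horizontal prime `𝔭 ≤ m` with discrete valuation local ring  ⟹  `u, u⁻¹ ∈ X_m`;
* `S34HK_unit_powDiv` : the same with the horizontal hypothesis in the language of `PowDiv`
  (every discrete valuation ring `P` of `F1` over `O[1/π]` containing `X` with centre inside `m`).
-/

set_option autoImplicit false

namespace Fermat.Agent.S34_helper2_HARTOGSK

open Fermat.Agent.S18_helper9_CDefs Fermat.Agent.S34_helper12_CDefs
  Fermat.Agent.S18_helper3_LOCRING Fermat.Agent.S34_helper2_HARTOGS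
  Fermat.Agent.S34_Contracts

variable {L : Type*} [Field L]

/-! ### The vertical primes -/

section Vertical

variable {π : L} {V X : Subring L}

/-- In a discrete valuation ring, a power of a nonunit is divisible by a given nonzero
element. -/
theorem S34HK_exists_pow_eq_mul {R : Type*} [CommRing R] [IsDomain R]
    [IsDiscreteValuationRing R] {a b : R} (ha : a ≠ 0)
    (hb : b ∈ IsLocalRing.maximalIdeal R) : ∃ (e : ℕ) (r : R), b ^ e = a * r := by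
  obtain ⟨ϖ, hϖ⟩ := IsDiscreteValuationRing.exists_irreducible R
  obtain ⟨e, u, hu⟩ := IsDiscreteValuationRing.eq_unit_mul_pow_irreducible ha hϖ
  have hdvd : ϖ ∣ b := by
    rw [(IsDiscreteValuationRing.irreducible_iff_uniformizer ϖ).1 hϖ] at hb
    exact Ideal.mem_span_singleton.1 hb
  obtain ⟨r, hr⟩ := hdvd
  refine ⟨e, ((u⁻¹ : Rˣ) : R) * r ^ e, ?_⟩
  rw [hu, hr, mul_pow]
  calc ϖ ^ e * r ^ e = ((u : R) * ((u⁻¹ : Rˣ) : R)) * (ϖ ^ e * r ^ e) := by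
        rw [Units.mul_inv, one_mul]
    _ = (u : R) * ϖ ^ e * (((u⁻¹ : Rˣ) : R) * r ^ e) := by ring

/-- **Units of `V` avoid the vertical primes.**  Let `X ≤ V` be saturated in `V`
(`Chart.sat`).  An element `b ≠ 0` of `X` with `b⁻¹ ∈ V` lies in no prime `𝔭 ∋ π` of `X` whose
local ring is a discrete valuation ring. -/
theorem S34HK_notMem_of_unit (hπ0 : π ≠ 0) (hle : X ≤ V)
    (hsat : ∀ v ∈ V, π * v ∈ X → v ∈ X) (hπ : π ∈ X) (𝔭 : Ideal X) [h𝔭 : 𝔭.IsPrime]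
    (hπ𝔭 : (⟨π, hπ⟩ : X) ∈ 𝔭) (hdvr : IsDiscreteValuationRing (locRing X 𝔭))
    (b : X) (hb0 : (b : L) ≠ 0) (hbinv : ((b : L))⁻¹ ∈ V) : b ∉ 𝔭 := by
  intro hb
  have hπ0' : incl X 𝔭 ⟨π, hπ⟩ ≠ 0 := by
    intro h
    apply hπ0
    have h1 : (⟨π, hπ⟩ : X) = 0 := incl_injective X 𝔭 (by rw [h, map_zero])
    exact congrArg Subtype.val h1
  have hbm : incl X 𝔭 b ∈ IsLocalRing.maximalIdeal (locRing X 𝔭) :=
    incl_mem_maximalIdeal X 𝔭 hb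
  obtain ⟨e, r, hr⟩ := S34HK_exists_pow_eq_mul hπ0' hbm
  -- in `L`: `b ^ e = π * r`, `r = a / s`
  have hrL : (b : L) ^ e = π * (r : L) := by
    have := congrArg (fun z : locRing X 𝔭 => (z : L)) hr
    simpa using this
  obtain ⟨a, s, hs, has⟩ := (mem_locRing_iff X 𝔭).1 r.2
  apply hs
  -- `s = π * (a * b⁻ᵉ)`
  have hbe : (b : L) ^ e ≠ 0 := pow_ne_zero _ hb0
  have hkey : (s : L) = π * ((a : L) * ((b : L)⁻¹) ^ e) := by
    have h1 : (b : L) ^ e * (s : L) = π * (a : L) := by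
      rw [hrL, mul_assoc, has]
    have h2 : (s : L) = ((b : L) ^ e)⁻¹ * (π * (a : L)) := by
      rw [← h1, ← mul_assoc, inv_mul_cancel₀ hbe, one_mul]
    rw [h2, inv_pow]
    ring
  have hvV : (a : L) * ((b : L)⁻¹) ^ e ∈ V := V.mul_mem (hle a.2) (V.pow_mem hbinv e)
  have hvX : (a : L) * ((b : L)⁻¹) ^ e ∈ X := hsat _ hvV (hkey ▸ s.2)
  have hs' : s = (⟨π, hπ⟩ : X) * ⟨_, hvX⟩ := Subtype.ext hkey
  rw [hs']
  exact 𝔭.mul_mem_right _ hπ𝔭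

/-- **The vertical primes, abstract form**: if `X ≤ V` satisfies `Chart.sat` and `Chart.loc`,
then the local ring of `X` at a prime `𝔭 ∋ π` with discrete valuation local ring contains
`V`. -/
theorem S34HK_vert_abs (hπ0 : π ≠ 0) (hle : X ≤ V)
    (hsat : ∀ v ∈ V, π * v ∈ X → v ∈ X)
    (hloc : ∀ v ∈ V, ∃ b ∈ X, b ≠ 0 ∧ b⁻¹ ∈ V ∧ v * b ∈ X)
    (hπ : π ∈ X) (𝔭 : Ideal X) [h𝔭 : 𝔭.IsPrime]
    (hπ𝔭 : (⟨π, hπ⟩ : X) ∈ 𝔭) (hdvr : IsDiscreteValuationRing (locRing X 𝔭)) :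
    V ≤ locRing X 𝔭 := by
  intro v hv
  obtain ⟨b, hbX, hb0, hbinv, hvb⟩ := hloc v hv
  have hb𝔭 : (⟨b, hbX⟩ : X) ∉ 𝔭 :=
    S34HK_notMem_of_unit hπ0 hle hsat hπ 𝔭 hπ𝔭 hdvr ⟨b, hbX⟩ hb0 hbinv
  exact (mem_locRing_iff X 𝔭).2 ⟨⟨v * b, hvb⟩, ⟨b, hbX⟩, hb𝔭, rfl⟩

end Vertical

variable {O : Subring L} {π j : L} {F1 : Subfield L} {V1 V2 A0 Ainf : Subring L}

/-- `π ≠ 0`. -/
theorem S34HK_pi_ne_zero (S : S34C_Setup2 O π j F1 V1 V2 A0 Ainf) : π ≠ 0 := by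
  intro h
  apply S.V1_nonunit
  rw [h, inv_zero]
  exact V1.zero_mem

/-- **HARTOGS-K, the owner's contract** (`S34K_Vert` of `S34_Contracts2`): a prime `𝔭 ∋ π` of
the chart `X` whose local ring is a discrete valuation ring is one of the two Gauss primes: its
local ring contains `V1 ⊓ V2`. -/
theorem S34HK_vert (S : S34C_Setup2 O π j F1 V1 V2 A0 Ainf) (x : L) (X : Subring L)
    (hC : Chart O π x F1 (V1 ⊓ V2) X) : S34K_Vert π V1 V2 X := by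
  intro hπ 𝔭 _ hπ𝔭 hdvr
  exact S34HK_vert_abs (S34HK_pi_ne_zero S) hC.le_V hC.sat hC.loc hπ 𝔭 hπ𝔭 hdvr

/-! ### The chart: `O ≤ X ⊆ F1`, integrally closed, fraction field `F1` -/

section Chart

variable {x : L} {X : Subring L}

/-- `O ≤ X` for a chart. -/
theorem S34HK_O_le (S : S34C_Setup2 O π j F1 V1 V2 A0 Ainf)
    (hC : Chart O π x F1 (V1 ⊓ V2) X) : O ≤ X := by
  intro y hy
  refine (hC.mem_iff y).2 ⟨?_, S.O_le hy⟩
  have hmem : y ∈ adj O x := Subring.subset_closure (Or.inl hy)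
  exact isIntegral_algebraMap (R := adj O x) (A := L) (x := ⟨y, hmem⟩)

/-- `π ∈ X`. -/
theorem S34HK_pi_mem (S : S34C_Setup2 O π j F1 V1 V2 A0 Ainf)
    (hC : Chart O π x F1 (V1 ⊓ V2) X) : π ∈ X := S34HK_O_le S hC S.π_mem

/-- `X ⊆ F1`. -/
theorem S34HK_le_F1 (hC : Chart O π x F1 (V1 ⊓ V2) X) : ∀ a ∈ X, a ∈ F1 :=
  fun a ha => ((hC.mem_iff a).1 ha).2

/-- `X` is integrally closed in `F1`. -/
theorem S34HK_ic (hC : Chart O π x F1 (V1 ⊓ V2) X) :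
    ∀ y ∈ F1, IsIntegral X y → y ∈ X := by
  intro y hyF hy
  refine (hC.mem_iff y).2 ⟨?_, hyF⟩
  exact Fermat.Agent.S18_helper9_CBasic.isIntegral_trans'
    (fun a ha => ((hC.mem_iff a).1 ha).1) hy

/-- `(1 + π w)⁻¹ ∈ W` for a valuation ring `W` with uniformiser `π`. -/
theorem S34HK_one_add_inv {W : Subring L} (hπW : π ∈ W)
    (hunif : ∀ x ∈ W, x⁻¹ ∉ W → ∃ v ∈ W, x = π * v) (hnon : π⁻¹ ∉ W) {w : L} (hw : w ∈ W) :
    (1 + π * w)⁻¹ ∈ W := by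
  by_contra hcon
  obtain ⟨v, hv, hvw⟩ := hunif (1 + π * w) (W.add_mem W.one_mem (W.mul_mem hπW hw)) hcon
  apply hnon
  have hπ0 : π ≠ 0 := by
    intro h
    apply hnon
    rw [h, inv_zero]
    exact W.zero_mem
  have h1 : π * (v - w) = 1 := by linear_combination -hvw
  have h2 : π⁻¹ = v - w := inv_eq_of_mul_eq_one_right h1
  rw [h2]
  exact W.sub_mem hv hw

/-- The mixed case of `S34HK_exists_den`: `y ∈ W1` and `y⁻¹ ∈ W2`. -/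
theorem S34HK_den_mixed {W1 W2 : Subring L} (hπ1 : π ∈ W1) (hπ2 : π ∈ W2)
    (hunif1 : ∀ x ∈ W1, x⁻¹ ∉ W1 → ∃ v ∈ W1, x = π * v) (hnon1 : π⁻¹ ∉ W1)
    (hunif2 : ∀ x ∈ W2, x⁻¹ ∉ W2 → ∃ v ∈ W2, x = π * v) (hnon2 : π⁻¹ ∉ W2)
    {y : L} (hy0 : y ≠ 0) (h1 : y ∈ W1) (h2 : y⁻¹ ∈ W2) :
    ∃ d : L, d ≠ 0 ∧ d ∈ W1 ∧ d ∈ W2 ∧ y * d ∈ W1 ∧ y * d ∈ W2 := by
  by_cases h1' : y⁻¹ ∈ W1
  · refine ⟨y⁻¹, inv_ne_zero hy0, h1', h2, ?_, ?_⟩
    · rw [mul_inv_cancel₀ hy0]; exact W1.one_mem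
    · rw [mul_inv_cancel₀ hy0]; exact W2.one_mem
  by_cases h2' : y ∈ W2
  · refine ⟨1, one_ne_zero, W1.one_mem, W2.one_mem, ?_, ?_⟩
    · rw [mul_one]; exact h1
    · rw [mul_one]; exact h2'
  obtain ⟨v, hv, hyv⟩ := hunif1 y h1 h1'
  obtain ⟨w, hw, hyw⟩ := hunif2 y⁻¹ h2 (by rw [inv_inv]; exact h2')
  have hne : 1 + y ≠ 0 := by
    intro h0
    apply h1'
    have : y = -1 := by linear_combination h0
    rw [this]
    have : ((-1 : L))⁻¹ = -1 := by norm_num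
    rw [this]
    exact W1.neg_mem W1.one_mem
  have hne' : 1 + y⁻¹ ≠ 0 := by
    intro h0
    apply hne
    have : y * (1 + y⁻¹) = 0 := by rw [h0, mul_zero]
    rw [mul_add, mul_one, mul_inv_cancel₀ hy0] at this
    linear_combination this
  have hd1 : (1 + y)⁻¹ ∈ W1 := by
    rw [hyv]
    exact S34HK_one_add_inv hπ1 hunif1 hnon1 hv
  have hd2' : (1 + y⁻¹)⁻¹ ∈ W2 := by
    rw [hyw]
    exact S34HK_one_add_inv hπ2 hunif2 hnon2 hw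
  have e0 : y * (1 + y⁻¹) = 1 + y := by
    rw [mul_add, mul_one, mul_inv_cancel₀ hy0, add_comm]
  have e1 : (1 + y)⁻¹ = y⁻¹ * (1 + y⁻¹)⁻¹ := by
    rw [← e0, mul_inv]
  have e2 : y * (1 + y)⁻¹ = (1 + y⁻¹)⁻¹ := by
    rw [e1, ← mul_assoc, mul_inv_cancel₀ hy0, one_mul]
  refine ⟨(1 + y)⁻¹, inv_ne_zero hne, hd1, ?_, W1.mul_mem h1 hd1, ?_⟩
  · rw [e1]
    exact W2.mul_mem h2 hd2'
  · rw [e2]
    exact hd2'

/-- Every element of `F1` is a quotient of two elements of `V1 ⊓ V2`. -/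
theorem S34HK_exists_den (S : S34C_Setup2 O π j F1 V1 V2 A0 Ainf)
    (hC : Chart O π x F1 (V1 ⊓ V2) X) {y : L} (hy : y ∈ F1) :
    ∃ d : L, d ≠ 0 ∧ d ∈ (V1 ⊓ V2 : Subring L) ∧ y * d ∈ (V1 ⊓ V2 : Subring L) := by
  have hπV : π ∈ (V1 ⊓ V2 : Subring L) := hC.le_V (S34HK_pi_mem S hC)
  by_cases hy0 : y = 0
  · exact ⟨1, one_ne_zero, Subring.one_mem _, by rw [hy0, zero_mul]; exact Subring.zero_mem _⟩
  rcases S.V1_val y hy with h1 | h1 <;> rcases S.V2_val y hy with h2 | h2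
  · exact ⟨1, one_ne_zero, Subring.one_mem _, by rw [mul_one]; exact ⟨h1, h2⟩⟩
  · obtain ⟨d, hd0, hd1, hd2, hyd1, hyd2⟩ := S34HK_den_mixed hπV.1 hπV.2 S.V1_unif
      S.V1_nonunit S.V2_unif S.V2_nonunit hy0 h1 h2
    exact ⟨d, hd0, ⟨hd1, hd2⟩, ⟨hyd1, hyd2⟩⟩
  · obtain ⟨d, hd0, hd2, hd1, hyd2, hyd1⟩ := S34HK_den_mixed hπV.2 hπV.1 S.V2_unif
      S.V2_nonunit S.V1_unif S.V1_nonunit hy0 h2 h1
    exact ⟨d, hd0, ⟨hd1, hd2⟩, ⟨hyd1, hyd2⟩⟩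
  · refine ⟨y⁻¹, inv_ne_zero hy0, ⟨h1, h2⟩, ?_⟩
    rw [mul_inv_cancel₀ hy0]
    exact Subring.one_mem _

/-- `F1` is the fraction field of the chart `X`. -/
theorem S34HK_frac (S : S34C_Setup2 O π j F1 V1 V2 A0 Ainf)
    (hC : Chart O π x F1 (V1 ⊓ V2) X) :
    ∀ y ∈ F1, ∃ a b : X, b ≠ 0 ∧ y * (b : L) = a := by
  intro y hy
  obtain ⟨d, hd0, hd, hyd⟩ := S34HK_exists_den S hC hy
  obtain ⟨b1, hb1X, hb10, -, hdb1⟩ := hC.loc d hd
  obtain ⟨b2, hb2X, hb20, -, hydb2⟩ := hC.loc (y * d) hyd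
  refine ⟨⟨y * d * b2, hydb2⟩ * ⟨b1, hb1X⟩, ⟨d * b1, hdb1⟩ * ⟨b2, hb2X⟩, ?_, ?_⟩
  · intro h0
    have h1 : (d * b1) * b2 = 0 := congrArg Subtype.val h0
    exact mul_ne_zero (mul_ne_zero hd0 hb10) hb20 h1
  · show y * ((d * b1) * b2) = (y * d * b2) * b1
    ring

end Chart

/-! ### The horizontal primes -/

section Horizontal

variable {x : L} {X : Subring L}

/-- **The local ring at a horizontal prime** `𝔭` (`π ∉ 𝔭`) of the chart `X` is a ring of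
`PowDiv` type: it is contained in `F1`, contains `O` and `π⁻¹`, and - if it is a discrete
valuation ring - it is a valuation ring of `F1`; it contains `X`, and its centre on `X` is
`𝔭`. -/
theorem S34HK_hor (S : S34C_Setup2 O π j F1 V1 V2 A0 Ainf)
    (hC : Chart O π x F1 (V1 ⊓ V2) X) (hπ : π ∈ X) (𝔭 : Ideal X) [h𝔭 : 𝔭.IsPrime]
    (hπ𝔭 : (⟨π, hπ⟩ : X) ∉ 𝔭) :
    ((locRing X 𝔭 : Subring L) : Set L) ⊆ F1 ∧ O ≤ locRing X 𝔭 ∧ π⁻¹ ∈ locRing X 𝔭 ∧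
      (IsDiscreteValuationRing (locRing X 𝔭) →
        ∀ y ∈ F1, y ∈ locRing X 𝔭 ∨ y⁻¹ ∈ locRing X 𝔭) ∧
      X ≤ locRing X 𝔭 ∧ ∀ a : X, ((a : L))⁻¹ ∉ locRing X 𝔭 → a ∈ 𝔭 := by
  refine ⟨?_, ?_, ?_, ?_, le_locRing X 𝔭, ?_⟩
  · intro y hy
    obtain ⟨a, s, hs, has⟩ := (mem_locRing_iff X 𝔭).1 hy
    have hs0 : (s : L) ≠ 0 := coe_ne_zero_of_notMem X 𝔭 hs
    have : y = (a : L) * ((s : L))⁻¹ := by
      rw [← has, mul_assoc, mul_inv_cancel₀ hs0, mul_one]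
    show y ∈ F1
    rw [this]
    exact F1.mul_mem (S34HK_le_F1 hC _ a.2) (F1.inv_mem (S34HK_le_F1 hC _ s.2))
  · exact fun y hy => le_locRing X 𝔭 (S34HK_O_le S hC hy)
  · exact inv_mem_locRing X 𝔭 hπ𝔭
  · intro hdvr y hy
    exact S34H_val_of_dvr X 𝔭 hdvr y (S34HK_frac S hC y hy)
  · intro a ha
    by_contra ha𝔭
    exact ha (inv_mem_locRing X 𝔭 ha𝔭)

end Horizontal

/-! ### The unit criterion -/

section Unit

variable {x : L} {X : Subring L}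

/-- **The unit criterion at a point of a two-component chart** (HARTOGS with the vertical primes
discharged).  Let `u` be a unit of `V1 ⊓ V2` such that `u, u⁻¹` lie in the local ring of `X` at
every HORIZONTAL prime `𝔭 ≤ m` (`𝔭 ≠ ⊥`, `π ∉ 𝔭`) whose local ring is a discrete valuation ring.
Then `u` is a unit of the local ring of `X` at `m`. -/
theorem S34HK_unit (S : S34C_Setup2 O π j F1 V1 V2 A0 Ainf)
    (hC : Chart O π x F1 (V1 ⊓ V2) X) (hN : IsNoetherianRing X)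
    (hπ : π ∈ X) (m : Ideal X) [hm : m.IsPrime]
    (u : L) (hu : u ∈ (V1 ⊓ V2 : Subring L)) (hu' : u⁻¹ ∈ (V1 ⊓ V2 : Subring L))
    (hhor : ∀ (𝔭 : Ideal X) [𝔭.IsPrime], 𝔭 ≤ m → 𝔭 ≠ ⊥ → (⟨π, hπ⟩ : X) ∉ 𝔭 →
      IsDiscreteValuationRing (locRing X 𝔭) → u ∈ locRing X 𝔭 ∧ u⁻¹ ∈ locRing X 𝔭) :
    u ∈ locRing X m ∧ u⁻¹ ∈ locRing X m := by
  have := hN
  refine S34H_unit_locRing X m F1 (S34HK_frac S hC) (S34HK_ic hC) (S34HK_le_F1 hC) u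
    (S.V1_le hu.1) ?_
  intro 𝔭 _ h𝔭m h𝔭0 hdvr
  by_cases hπ𝔭 : (⟨π, hπ⟩ : X) ∈ 𝔭
  · have hV := S34HK_vert S x X hC hπ 𝔭 hπ𝔭 hdvr
    exact ⟨hV hu, hV hu'⟩
  · exact hhor 𝔭 h𝔭m h𝔭0 hπ𝔭 hdvr

/-- **The horizontal hypothesis in the language of `PowDiv`**: `u` is a unit of every discrete
valuation ring `P` of `F1` of `PowDiv` type (`P ⊆ F1`, `O ≤ P`, `π⁻¹ ∈ P`, valuation ring of
`F1`) which contains the chart `X` and whose centre on `X` is contained in `m`. -/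
def S34HK_Hor (O : Subring L) (π : L) (F1 : Subfield L) (X : Subring L) (m : Ideal X)
    (u : L) : Prop :=
  ∀ P : Subring L, (P : Set L) ⊆ F1 → O ≤ P → π⁻¹ ∈ P → (∀ y ∈ F1, y ∈ P ∨ y⁻¹ ∈ P) →
    IsDiscreteValuationRing P → X ≤ P → (∀ a : X, ((a : L))⁻¹ ∉ P → a ∈ m) →
    u ∈ P ∧ u⁻¹ ∈ P

/-- **The unit criterion, `PowDiv` form** (the statement of the owner's post 1249). -/
theorem S34HK_unit_powDiv (S : S34C_Setup2 O π j F1 V1 V2 A0 Ainf)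
    (hC : Chart O π x F1 (V1 ⊓ V2) X) (hN : IsNoetherianRing X)
    (m : Ideal X) [hm : m.IsPrime]
    (u : L) (hu : u ∈ (V1 ⊓ V2 : Subring L)) (hu' : u⁻¹ ∈ (V1 ⊓ V2 : Subring L))
    (hhor : S34HK_Hor O π F1 X m u) :
    u ∈ locRing X m ∧ u⁻¹ ∈ locRing X m := by
  refine S34HK_unit S hC hN (S34HK_pi_mem S hC) m u hu hu' ?_
  intro 𝔭 _ h𝔭m _ hπ𝔭 hdvr
  obtain ⟨h1, h2, h3, h4, h5, h6⟩ := S34HK_hor S hC (S34HK_pi_mem S hC) 𝔭 hπ𝔭
  exact hhor (locRing X 𝔭) h1 h2 h3 (h4 hdvr) hdvr h5 (fun a ha => h𝔭m (h6 a ha))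

end Unit

end Fermat.Agent.S34_helper2_HARTOGSK
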