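import Mathlib

/-!
# S34, X-LOCGEN, dichotomy branch (B): the abstract core (helper11)

Setting: `R` is the local ring of the two-component chart at a crossing point (any level),
`O` the level ring with uniformiser `π`, and for every `n` we are given generators
`π, x n, y n` of the maximal ideal in the weak form `R = O + (π, x n, y n) R`.
Two points `φ, ψ : R → Ω` (ring homomorphisms agreeing on `O`) which are *infinitely close to
the crossing of the formal branches*, i.e. `φ (x n), φ (y n), ψ (x n), ψ (y n) ∈ ϖ ^ n Ω` for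
all `n` (`ϖ` the image of `π`), coincide as soon as `Ω` is `ϖ`-adically separated.

In the application `ψ = φ_{τ P}` for `τ` in the inertia group and the `x n, y n` are defined over
the unramified level (so `ψ (x n) = τ (φ (x n))`): the conclusion is `φ_{τ P} = φ_P`.
-/

set_option autoImplicit false

namespace Fermat.Agent.S34_helper11_DICHB

variable {O R Ω : Type*} [CommRing O] [CommRing R] [CommRing Ω] [Algebra O R]

/-- **One approximation step.** If the values of `x`, `y` at the two points `φ`, `ψ` (agreeing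
on `O`) lie in an ideal `J`, `ϖ I ⊆ J` and `φ - ψ` has values in `I`, then `φ r - ψ r ∈ J` for
every `r ∈ O + (π, x, y) R`. -/
theorem S34DB_step (π : O) (x y : R) (φ ψ : R →+* Ω)
    (hO : ∀ o : O, φ (algebraMap O R o) = ψ (algebraMap O R o))
    (I J : Ideal Ω) (hx : φ x ∈ J) (hy : φ y ∈ J) (hx' : ψ x ∈ J) (hy' : ψ y ∈ J)
    (hπI : ∀ z ∈ I, φ (algebraMap O R π) * z ∈ J)
    (ih : ∀ r : R, φ r - ψ r ∈ I)
    (r : R) (hr : ∃ (o : O) (r₁ r₂ r₃ : R),
      r = algebraMap O R o + algebraMap O R π * r₁ + x * r₂ + y * r₃) :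
    φ r - ψ r ∈ J := by
  obtain ⟨o, r₁, r₂, r₃, rfl⟩ := hr
  have h1 : φ (algebraMap O R o + algebraMap O R π * r₁ + x * r₂ + y * r₃) -
      ψ (algebraMap O R o + algebraMap O R π * r₁ + x * r₂ + y * r₃) =
      φ (algebraMap O R π) * (φ r₁ - ψ r₁) + φ x * φ r₂ + φ y * φ r₃
        - ψ x * ψ r₂ - ψ y * ψ r₃ := by
    simp only [map_add, map_mul, hO]
    ring
  rw [h1]
  refine J.sub_mem (J.sub_mem (J.add_mem (J.add_mem (hπI _ (ih r₁)) ?_) ?_) ?_) ?_
  · exact J.mul_mem_right _ hx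
  · exact J.mul_mem_right _ hy
  · exact J.mul_mem_right _ hx'
  · exact J.mul_mem_right _ hy'

/-- **Branch (B), congruence form.** `φ r ≡ ψ r` modulo `ϖ ^ M` for every `M`. -/
theorem S34DB_congr (π : O) (x y : ℕ → R)
    (hgen : ∀ n : ℕ, ∀ r : R, ∃ (o : O) (r₁ r₂ r₃ : R),
      r = algebraMap O R o + algebraMap O R π * r₁ + x n * r₂ + y n * r₃)
    (φ ψ : R →+* Ω) (hO : ∀ o : O, φ (algebraMap O R o) = ψ (algebraMap O R o))
    (hx : ∀ n, φ (x n) ∈ Ideal.span {φ (algebraMap O R π) ^ n})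
    (hy : ∀ n, φ (y n) ∈ Ideal.span {φ (algebraMap O R π) ^ n})
    (hx' : ∀ n, ψ (x n) ∈ Ideal.span {φ (algebraMap O R π) ^ n})
    (hy' : ∀ n, ψ (y n) ∈ Ideal.span {φ (algebraMap O R π) ^ n})
    (M : ℕ) (r : R) : φ r - ψ r ∈ Ideal.span {φ (algebraMap O R π) ^ M} := by
  induction M generalizing r with
  | zero => simp
  | succ M ih =>
    refine S34DB_step π (x (M + 1)) (y (M + 1)) φ ψ hO
      (Ideal.span {φ (algebraMap O R π) ^ M}) (Ideal.span {φ (algebraMap O R π) ^ (M + 1)})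
      (hx _) (hy _) (hx' _) (hy' _) ?_ ih r (hgen (M + 1) r)
    intro z hz
    rw [Ideal.mem_span_singleton] at hz ⊢
    obtain ⟨c, rfl⟩ := hz
    exact ⟨c, by rw [pow_succ]; ring⟩

/-- **Branch (B), abstract form.** Two points of `R = O + (π, x n, y n) R` (all `n`) which agree
on `O` and send `x n`, `y n` into `ϖ ^ n Ω` coincide, if `Ω` is `ϖ`-adically separated. -/
theorem S34DB_eq (π : O) (x y : ℕ → R)
    (hgen : ∀ n : ℕ, ∀ r : R, ∃ (o : O) (r₁ r₂ r₃ : R),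
      r = algebraMap O R o + algebraMap O R π * r₁ + x n * r₂ + y n * r₃)
    (φ ψ : R →+* Ω) (hO : ∀ o : O, φ (algebraMap O R o) = ψ (algebraMap O R o))
    (hx : ∀ n, φ (x n) ∈ Ideal.span {φ (algebraMap O R π) ^ n})
    (hy : ∀ n, φ (y n) ∈ Ideal.span {φ (algebraMap O R π) ^ n})
    (hx' : ∀ n, ψ (x n) ∈ Ideal.span {φ (algebraMap O R π) ^ n})
    (hy' : ∀ n, ψ (y n) ∈ Ideal.span {φ (algebraMap O R π) ^ n})
    (hsep : ∀ z : Ω, (∀ M : ℕ, z ∈ Ideal.span {φ (algebraMap O R π) ^ M}) → z = 0) :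
    φ = ψ := by
  ext r
  exact sub_eq_zero.1 (hsep _ fun M => S34DB_congr π x y hgen φ ψ hO hx hy hx' hy' M r)

/-- Separatedness in a rank-one valuation ring, elementwise form: if every nonzero `d` divides a
power of the nonunit `ϖ`, then `⋂ ϖ ^ M Ω = 0` (for a domain `Ω`). -/
theorem S34DB_sep [IsDomain Ω] (ϖ : Ω) (hϖ : ¬ IsUnit ϖ)
    (hrk : ∀ d : Ω, d ≠ 0 → ∃ M : ℕ, d ∣ ϖ ^ M)
    (z : Ω) (hz : ∀ M : ℕ, z ∈ Ideal.span {ϖ ^ M}) : z = 0 := by
  by_contra hz0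
  obtain ⟨M, hM⟩ := hrk z hz0
  have h1 := hz (M + 1)
  rw [Ideal.mem_span_singleton] at h1
  obtain ⟨c, hc⟩ := h1
  obtain ⟨d, hd⟩ := hM
  -- ϖ^M = z d = ϖ^(M+1) c d
  have h2 : ϖ ^ M * 1 = ϖ ^ M * (ϖ * (c * d)) := by
    rw [mul_one]
    conv_lhs => rw [hd, hc]
    ring
  have hϖne : ϖ ≠ 0 := by
    rintro rfl
    have h1 := hz 1
    rw [pow_one, Ideal.span_singleton_eq_bot.2 rfl, Ideal.mem_bot] at h1
    exact hz0 h1
  have hϖ0 : ϖ ^ M ≠ 0 := pow_ne_zero _ hϖne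
  have h3 := mul_left_cancel₀ hϖ0 h2
  exact hϖ (IsUnit.of_mul_eq_one _ h3.symm)

end Fermat.Agent.S34_helper11_DICHB
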