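import Mathlib
import Fermat.Agent.S37_helper4_B1Defs2
import Fermat.Agent.S37_helper19_PLACERES

/-!
# S37, block B1: the interface facts (F2) and (F4)

* `S37F24_F2 : S37B1_F2 N K1` : every place of `ℚ̄(X₀(N))` has a uniformiser defined over `K1`
  (constant field extensions are unramified).
* (F4) **as stated in `S37B1_F4` is false** (two branches through a node of `Spec R` have the same
  centre), so we prove it under the extra hypothesis that the centre is principal
  (`S37F24_F4_of_principal`, `S37F24_F4_of_principal'`: exactly the output shape of (F3)), and in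
  the domination form `S37F24_F4_of_le`.
-/

set_option autoImplicit false

open AlgebraicCurve ModularCurve HahnSeries IntermediateField

noncomputable section

namespace Fermat.Agent.S37_helper19_B1F24

open Fermat.Agent.S18_helper25_COREDefs Fermat.Agent.S18_helper19_PLACEMOD
  Fermat.Agent.S18_helper13_GAUSS Fermat.Agent.S37_helper5_LEVEL
  Fermat.Agent.S37_helper4_B1Defs Fermat.Agent.S37_helper19_PLACERES
  Fermat.Agent.S18_helper19_PLACEUNR Fermat.Agent.S24_helper6_A2

/-! ### Abstract part -/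

section Abstract

variable {K1 F1 : Type*} [Field K1] [Field F1] [Algebra K1 F1]

theorem S37F24_ord_pow_mul (P1 : Place K1 F1) {p y : F1} (hp : p ≠ 0) (hy : y ≠ 0) (n : ℕ) :
    P1.ord (p ^ n * y) = n * P1.ord p + P1.ord y := by
  rw [P1.ord_mul (pow_ne_zero n hp) hy, ← zpow_natCast, P1.ord_zpow]

/-- factorisation of an element of `R` as `p ^ n * y` with `y` a unit at `P1` -/
theorem S37F24_factor (P1 : Place K1 F1) (R : Subring F1) (p : F1) (hpR : p ∈ R)
    (hP : ∀ x ∈ R, x ≠ 0 → 0 ≤ P1.ord x)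
    (hp : ∀ x ∈ R, x ≠ 0 → (0 < P1.ord x ↔ ∃ y ∈ R, x = p * y)) :
    ∀ x ∈ R, x ≠ 0 → ∃ (n : ℕ) (y : F1), y ∈ R ∧ y ≠ 0 ∧ x = p ^ n * y ∧ P1.ord y = 0 := by
  intro x hx hx0
  induction' hk : (P1.ord x).toNat using Nat.strong_induction_on with k ih generalizing x
  by_cases hpos : 0 < P1.ord x
  · obtain ⟨y, hy, rfl⟩ := (hp x hx hx0).1 hpos
    have hp0 : p ≠ 0 := left_ne_zero_of_mul hx0
    have hy0 : y ≠ 0 := right_ne_zero_of_mul hx0
    have hpp : 0 < P1.ord p := (hp p hpR hp0).2 ⟨1, R.one_mem, (mul_one p).symm⟩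
    have hord : P1.ord (p * y) = P1.ord p + P1.ord y := P1.ord_mul hp0 hy0
    have hy_nonneg := hP y hy hy0
    obtain ⟨n, z, hz, hz0, hyz, hzord⟩ := ih (P1.ord y).toNat (by omega) y hy hy0 rfl
    exact ⟨n + 1, z, hz, hz0, by rw [hyz, pow_succ]; ring, hzord⟩
  · refine ⟨0, x, hx, hx0, by simp, ?_⟩
    have := hP x hx hx0
    omega

/-- **Key step of (F4).** If the elements of `R` which are positive at `P1` are the multiples of
one element `p`, then the ring of `P1` is contained in the ring of every place `P1'` which has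
the same positive elements on `R`. -/
theorem S37F24_le_of_principal (P1 P1' : Place K1 F1) (R : Subring F1) (p : F1) (hpR : p ∈ R)
    (hfrac : ∀ x : F1, ∃ a ∈ R, ∃ b ∈ R, b ≠ 0 ∧ x * b = a)
    (hP : ∀ x ∈ R, x ≠ 0 → 0 ≤ P1.ord x)
    (hP' : ∀ x ∈ R, x ≠ 0 → 0 ≤ P1'.ord x)
    (hpos : ∀ x ∈ R, x ≠ 0 → (0 < P1.ord x ↔ 0 < P1'.ord x))
    (hp : ∀ x ∈ R, x ≠ 0 → (0 < P1.ord x ↔ ∃ y ∈ R, x = p * y)) :
    ∀ x, x ∈ P1.toValuationSubring → x ∈ P1'.toValuationSubring := by
  intro x hx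
  rcases eq_or_ne x 0 with rfl | hx0
  · exact zero_mem _
  obtain ⟨a, ha, b, hb, hb0, hxb⟩ := hfrac x
  have ha0 : a ≠ 0 := by rw [← hxb]; exact mul_ne_zero hx0 hb0
  obtain ⟨n, a', ha', ha'0, haf, ha'ord⟩ := S37F24_factor P1 R p hpR hP hp a ha ha0
  obtain ⟨m, b', hb', hb'0, hbf, hb'ord⟩ := S37F24_factor P1 R p hpR hP hp b hb hb0
  have ha'ord' : P1'.ord a' = 0 := by
    have h1 := hP' a' ha' ha'0
    have h2 := (hpos a' ha' ha'0).not.1 (by omega)
    omega
  have hb'ord' : P1'.ord b' = 0 := by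
    have h1 := hP' b' hb' hb'0
    have h2 := (hpos b' hb' hb'0).not.1 (by omega)
    omega
  have hxord : P1.ord x + P1.ord b = P1.ord a := by rw [← hxb, P1.ord_mul hx0 hb0]
  have hxord' : P1'.ord x + P1'.ord b = P1'.ord a := by rw [← hxb, P1'.ord_mul hx0 hb0]
  have hx_nonneg := ord_nonneg_of_mem P1 hx
  apply mem_of_ord_nonneg
  by_cases hp0 : p = 0
  · -- then `n = m = 0`
    have hn : n = 0 := by
      by_contra hn
      apply ha0
      rw [haf, hp0, zero_pow hn, zero_mul]
    have hm : m = 0 := by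
      by_contra hm
      apply hb0
      rw [hbf, hp0, zero_pow hm, zero_mul]
    subst hn hm
    rw [pow_zero, one_mul] at haf hbf
    subst haf hbf
    omega
  · have hpp : 0 < P1.ord p := (hp p hpR hp0).2 ⟨1, R.one_mem, (mul_one p).symm⟩
    have hpp' : 0 < P1'.ord p := (hpos p hpR hp0).1 hpp
    have e1 : P1.ord a = n * P1.ord p + P1.ord a' := by
      rw [haf]; exact S37F24_ord_pow_mul P1 hp0 ha'0 n
    have e2 : P1.ord b = m * P1.ord p + P1.ord b' := by
      rw [hbf]; exact S37F24_ord_pow_mul P1 hp0 hb'0 m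
    have e1' : P1'.ord a = n * P1'.ord p + P1'.ord a' := by
      rw [haf]; exact S37F24_ord_pow_mul P1' hp0 ha'0 n
    have e2' : P1'.ord b = m * P1'.ord p + P1'.ord b' := by
      rw [hbf]; exact S37F24_ord_pow_mul P1' hp0 hb'0 m
    have hnm : (m : ℤ) ≤ n := by
      by_contra hlt
      push_neg at hlt
      have : (n : ℤ) * P1.ord p < m * P1.ord p := by nlinarith
      omega
    have : (m : ℤ) * P1'.ord p ≤ n * P1'.ord p := by nlinarith
    omega

/-- **(F4), abstract form**: two places with the same positive elements on `R`, a principal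
centre on `R` and `Frac R = F1` are equal. -/
theorem S37F24_eq_of_principal (P1 P1' : Place K1 F1) (R : Subring F1) (p : F1) (hpR : p ∈ R)
    (hfrac : ∀ x : F1, ∃ a ∈ R, ∃ b ∈ R, b ≠ 0 ∧ x * b = a)
    (hP : ∀ x ∈ R, x ≠ 0 → 0 ≤ P1.ord x)
    (hP' : ∀ x ∈ R, x ≠ 0 → 0 ≤ P1'.ord x)
    (hpos : ∀ x ∈ R, x ≠ 0 → (0 < P1.ord x ↔ 0 < P1'.ord x))
    (hp : ∀ x ∈ R, x ≠ 0 → (0 < P1.ord x ↔ ∃ y ∈ R, x = p * y)) :
    P1 = P1' := by
  apply Place.ext
  apply le_antisymm
  · exact S37F24_le_of_principal P1 P1' R p hpR hfrac hP hP' hpos hp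
  · exact S37F24_le_of_principal P1' P1 R p hpR hfrac hP' hP
      (fun x hx hx0 => (hpos x hx hx0).symm)
      (fun x hx hx0 => (hpos x hx hx0).symm.trans (hp x hx hx0))

end Abstract

/-! ### The modular function fields -/

section Concrete

variable (N : ℕ) [NeZero N] (K1 : IntermediateField ℚ (AlgebraicClosure ℚ))

/-- the restriction to `K1(X₀(N))` of a place of `ℚ̄(X₀(N))` -/
def S37F24_res (P : Place (AlgebraicClosure ℚ) (modularFunctionFieldBar N)) :
    Place K1 (modularFunctionFieldFullC K1 N) :=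
  S37UC_restrict N (algebraMap K1 (AlgebraicClosure ℚ))
    (S18A3C_inc N (algebraMap K1 (AlgebraicClosure ℚ)))
    (S18A3C_inc_coe N (algebraMap K1 (AlgebraicClosure ℚ))) P

theorem S37F24_ordP_eq_res (P : Place (AlgebraicClosure ℚ) (modularFunctionFieldBar N))
    (x : modularFunctionFieldFullC K1 N) :
    S37B1_ordP N K1 P (x : LaurentSeries K1) = (S37F24_res N K1 P).ord x := by
  rw [S37B1_ordP_eq]
  exact S37UC_ord_restrict N (algebraMap K1 (AlgebraicClosure ℚ))
    (S18A3C_inc N (algebraMap K1 (AlgebraicClosure ℚ)))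
    (S18A3C_inc_coe N (algebraMap K1 (AlgebraicClosure ℚ))) P x

theorem S37F24_ordP_eq_res' (P : Place (AlgebraicClosure ℚ) (modularFunctionFieldBar N))
    (x : LaurentSeries K1) (hx : x ∈ modularFunctionFieldFullC K1 N) :
    S37B1_ordP N K1 P x = (S37F24_res N K1 P).ord ⟨x, hx⟩ :=
  S37F24_ordP_eq_res N K1 P ⟨x, hx⟩

/-- **(F2)** uniformisers at level `K1`. -/
theorem S37F24_F2 : S37B1_F2 N K1 := by
  intro P
  obtain ⟨π, hπ⟩ :=
    IsDiscreteValuationRing.exists_irreducible (S37F24_res N K1 P).toValuationSubring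
  refine ⟨((π : modularFunctionFieldFullC K1 N) : LaurentSeries K1),
    (π : modularFunctionFieldFullC K1 N).2, ?_⟩
  rw [S37F24_ordP_eq_res]
  exact (S37F24_res N K1 P).ord_coe_irreducible hπ

/-- the restriction of a `K1`-rational place is rational -/
theorem S37F24_isRational_res (P : Place (AlgebraicClosure ℚ) (modularFunctionFieldBar N))
    (hrat : S37LEVEL_IsRational N K1 P) : S37U_IsRational (S37F24_res N K1 P) := by
  apply S37UC_isRational_restrict
  intro y hy
  obtain ⟨c, hc⟩ := S37LEVEL_exists_const N hrat (y : LaurentSeries K1) y.2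
    (S18A3C_inc N (algebraMap K1 (AlgebraicClosure ℚ)) y)
    (S18A3C_inc_coe N (algebraMap K1 (AlgebraicClosure ℚ)) y) hy
  refine ⟨c, ?_⟩
  rcases hc with hc | hc
  · exact S18A3_isN_of_ord_pos P hc
  · have h0 : S18A3C_inc N (algebraMap K1 (AlgebraicClosure ℚ)) y -
        algebraMap (AlgebraicClosure ℚ) (modularFunctionFieldBar N)
          (algebraMap K1 (AlgebraicClosure ℚ) c) = 0 := by
      rw [hc]; exact sub_self _
    rw [h0]
    exact ⟨zero_mem _, Or.inl rfl⟩

/-- a rational place is determined by its restriction to `K1(X₀(N))` -/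
theorem S37F24_eq_of_res_eq (P P' : Place (AlgebraicClosure ℚ) (modularFunctionFieldBar N))
    (hrat : S37LEVEL_IsRational N K1 P)
    (h : S37F24_res N K1 P = S37F24_res N K1 P') : P = P' :=
  (S37UC_restrict_injOn N (algebraMap K1 (AlgebraicClosure ℚ))
    (S18A3C_inc N (algebraMap K1 (AlgebraicClosure ℚ)))
    (S18A3C_inc_coe N (algebraMap K1 (AlgebraicClosure ℚ))) P P'
    (S37F24_isRational_res N K1 P hrat) h.symm).symm

/-- **(F4), domination form**: if every function over `K1` which is regular at the rational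
place `P` is regular at `P'`, then `P = P'`. -/
theorem S37F24_F4_of_le (P P' : Place (AlgebraicClosure ℚ) (modularFunctionFieldBar N))
    (hrat : S37LEVEL_IsRational N K1 P)
    (hle : ∀ x ∈ modularFunctionFieldFullC K1 N, x ≠ 0 → 0 ≤ S37B1_ordP N K1 P x →
      0 ≤ S37B1_ordP N K1 P' x) : P = P' := by
  apply S37F24_eq_of_res_eq N K1 P P' hrat
  symm
  apply S37UC_restrict_eq_of_hle
  intro y hy
  rcases eq_or_ne y 0 with rfl | hy0
  · rw [map_zero]; exact zero_mem _
  have h1 : 0 ≤ S37B1_ordP N K1 P (y : LaurentSeries K1) := by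
    rw [S37F24_ordP_eq_res]
    exact ord_nonneg_of_mem _ hy
  have h2 := hle y y.2 (fun h => hy0 (Subtype.ext h)) h1
  rw [S37B1_ordP_eq] at h2
  exact mem_of_ord_nonneg P' h2

/-- **(F4) with a principal centre** (hypothesis `hp` on `P`): the statement `S37B1_F4` with the
additional hypothesis that the elements of `R` which are positive at `P` are the multiples of one
element `p` of `R`. -/
theorem S37F24_F4_of_principal (R : Subring (LaurentSeries K1))
    (hR : ∀ x ∈ R, x ∈ modularFunctionFieldFullC K1 N)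
    (hfrac : ∀ x ∈ modularFunctionFieldFullC K1 N,
      ∃ a b : R, b ≠ 0 ∧ x * (b : LaurentSeries K1) = a)
    (P P' : Place (AlgebraicClosure ℚ) (modularFunctionFieldBar N))
    (hrat : S37LEVEL_IsRational N K1 P)
    (hP : ∀ x ∈ R, x ≠ 0 → 0 ≤ S37B1_ordP N K1 P x)
    (hP' : ∀ x ∈ R, x ≠ 0 → 0 ≤ S37B1_ordP N K1 P' x)
    (hpos : ∀ x ∈ R, x ≠ 0 → (0 < S37B1_ordP N K1 P x ↔ 0 < S37B1_ordP N K1 P' x))
    (hp : ∃ p : R, ∀ x : R, (x : LaurentSeries K1) ≠ 0 →
      (0 < S37B1_ordP N K1 P x ↔ p ∣ x)) :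
    P = P' := by
  apply S37F24_eq_of_res_eq N K1 P P' hrat
  obtain ⟨p, hp⟩ := hp
  -- the subring of `F1` corresponding to `R`
  let R' : Subring (modularFunctionFieldFullC K1 N) :=
    R.comap (modularFunctionFieldFullC K1 N).toSubfield.subtype
  have hmem : ∀ x : modularFunctionFieldFullC K1 N, x ∈ R' ↔ (x : LaurentSeries K1) ∈ R :=
    fun x => Iff.rfl
  have hne : ∀ x : modularFunctionFieldFullC K1 N, x ≠ 0 → (x : LaurentSeries K1) ≠ 0 :=
    fun x hx h => hx (Subtype.ext h)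
  refine S37F24_eq_of_principal (S37F24_res N K1 P) (S37F24_res N K1 P') R'
    ⟨(p : LaurentSeries K1), hR _ p.2⟩ p.2 ?_ ?_ ?_ ?_ ?_
  · intro x
    obtain ⟨a, b, hb0, hxb⟩ := hfrac (x : LaurentSeries K1) x.2
    refine ⟨⟨(a : LaurentSeries K1), hR _ a.2⟩, a.2, ⟨(b : LaurentSeries K1), hR _ b.2⟩, b.2,
      ?_, ?_⟩
    · intro h
      apply hb0
      apply Subtype.ext
      have h' := congrArg (Subtype.val : modularFunctionFieldFullC K1 N → LaurentSeries K1) h
      exact h'
    · apply Subtype.ext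
      exact hxb
  · intro x hx hx0
    rw [← S37F24_ordP_eq_res]
    exact hP _ hx (hne x hx0)
  · intro x hx hx0
    rw [← S37F24_ordP_eq_res]
    exact hP' _ hx (hne x hx0)
  · intro x hx hx0
    rw [← S37F24_ordP_eq_res, ← S37F24_ordP_eq_res]
    exact hpos _ hx (hne x hx0)
  · intro x hx hx0
    have h1 := hp ⟨(x : LaurentSeries K1), hx⟩ (hne x hx0)
    have h2 : S37B1_ordP N K1 P (x : LaurentSeries K1) = (S37F24_res N K1 P).ord x :=
      S37F24_ordP_eq_res N K1 P x
    rw [← h2]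
    refine h1.trans ?_
    constructor
    · rintro ⟨c, hc⟩
      refine ⟨⟨(c : LaurentSeries K1), hR _ c.2⟩, c.2, ?_⟩
      apply Subtype.ext
      have h' := congrArg (Subtype.val : R → LaurentSeries K1) hc
      exact h'
    · rintro ⟨y, hy, hxy⟩
      refine ⟨⟨(y : LaurentSeries K1), hy⟩, ?_⟩
      apply Subtype.ext
      have h' := congrArg (Subtype.val : modularFunctionFieldFullC K1 N → LaurentSeries K1) hxy
      exact h'

/-- **(F4) with a principal centre** (hypothesis `hp` on `P'`, the output shape of (F3)). -/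
theorem S37F24_F4_of_principal' (R : Subring (LaurentSeries K1))
    (hR : ∀ x ∈ R, x ∈ modularFunctionFieldFullC K1 N)
    (hfrac : ∀ x ∈ modularFunctionFieldFullC K1 N,
      ∃ a b : R, b ≠ 0 ∧ x * (b : LaurentSeries K1) = a)
    (P P' : Place (AlgebraicClosure ℚ) (modularFunctionFieldBar N))
    (hrat : S37LEVEL_IsRational N K1 P)
    (hP : ∀ x ∈ R, x ≠ 0 → 0 ≤ S37B1_ordP N K1 P x)
    (hP' : ∀ x ∈ R, x ≠ 0 → 0 ≤ S37B1_ordP N K1 P' x)
    (hpos : ∀ x ∈ R, x ≠ 0 → (0 < S37B1_ordP N K1 P x ↔ 0 < S37B1_ordP N K1 P' x))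
    (hp : ∃ p : R, ∀ x : R, (x : LaurentSeries K1) ≠ 0 →
      (0 < S37B1_ordP N K1 P' x ↔ p ∣ x)) :
    P = P' := by
  obtain ⟨p, hp⟩ := hp
  exact S37F24_F4_of_principal N K1 R hR hfrac P P' hrat hP hP' hpos
    ⟨p, fun x hx0 => (hpos x x.2 hx0).trans (hp x hx0)⟩

end Concrete

end Fermat.Agent.S37_helper19_B1F24
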