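import Mathlib
import Fermat.Agent.S18_helper9_CDefs
import Fermat.Agent.S18_helper25_COREDefs
import Fermat.Agent.S18_helper26_CONST
import Fermat.Agent.S24_helper6_A2
import Fermat.Agent.S37_helper19_B1F24

/-!
# S34, X-LOCGEN / X-PLACES: place extensionality on a normal chart

* `S34PX_place_ext_abs` : two places of a function field `F / K` which are regular at the
  transcendental element `x` and such that every function integral over `K[x]` vanishing at `v'`
  vanishes at `v`, coincide (centres on the Dedekind domain `FunctionField.ringOfIntegers`).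
* `S34PX_clear_abs` : clearing denominators: an element integral over `K1[x0]` has a nonzero
  constant multiple which is integral over `O1[x0]` (`K1 = Frac O1`).
* `S34PX_ext` : **place extensionality on a normal chart**: let `X ⊇ icl (O[x0]) F1` with
  `x0 ∈ {j, j⁻¹}`.  A `K1`-rational place `P` and a place `P'` of `F̄ / ℚ̄`, both regular at `x0`,
  such that every element of `X` which vanishes at `P'` vanishes at `P`, coincide.
  (No principal centre is needed; compare `S37F24_F4_of_principal`.)
-/

set_option autoImplicit false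
set_option linter.style.haveILetI false
set_option linter.unusedSectionVars false
set_option linter.unusedVariables false
set_option synthInstance.maxHeartbeats 400000
set_option maxHeartbeats 1600000

open AlgebraicCurve ModularCurve HahnSeries IntermediateField Polynomial

noncomputable section

namespace Fermat.Agent.S34_helper11_PLEXT

open Fermat.Agent.S24_helper6_A2

/-! ### Abstract place extensionality -/

section Abs

variable {K F : Type*} [Field K] [Field F] [Algebra K F]

theorem S34PX_place_ext_abs [CharZero K] (x : F) (hx : Transcendental K x)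
    [FiniteDimensional K⟮x⟯ F] (v v' : Place K F)
    (hv : x ∈ v.toValuationSubring) (hv' : x ∈ v'.toValuationSubring)
    (h : ∀ b : F, ((Polynomial.aeval x : K[X] →ₐ[K] F) : K[X] →+* F).IsIntegralElem b → b ≠ 0 →
      0 < v'.ord b → 0 < v.ord b) : v' = v := by
  obtain ⟨a1, a2, t1, t2, f2, sep, hX, -⟩ := exists_instances x hx
  have hmap : algebraMap K[X] F = ((Polynomial.aeval x : K[X] →ₐ[K] F) : K[X] →+* F) := by
    apply Polynomial.ringHom_ext
    · intro a
      have e1 : algebraMap K[X] F (C a) = algebraMap K F a := by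
        rw [← Polynomial.algebraMap_eq, ← IsScalarTower.algebraMap_apply]
      rw [e1]
      simp
    · rw [hX]
      simp
  have hcv : ContainsRing (FunctionField.ringOfIntegers K F) v :=
    containsRing_of_mem v (by rw [hX]; exact hv)
  have hcv' : ContainsRing (FunctionField.ringOfIntegers K F) v' :=
    containsRing_of_mem v' (by rw [hX]; exact hv')
  have hle : (center v' hcv').asIdeal ≤ (center v hcv).asIdeal := by
    intro b hb
    rcases eq_or_ne b 0 with rfl | hb0
    · exact Ideal.zero_mem _
    have hb0' : algebraMap (FunctionField.ringOfIntegers K F) F b ≠ 0 :=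
      (map_ne_zero_iff _ (IsFractionRing.injective (FunctionField.ringOfIntegers K F) F)).2 hb0
    have h1 : 0 < v'.ord (algebraMap (FunctionField.ringOfIntegers K F) F b) := by
      have := (ord_ofHeightOneSpectrum_pos_iff (K := K) (F := F) (center v' hcv') b hb0).2 hb
      rwa [ofHeightOneSpectrum_center] at this
    have hint : ((Polynomial.aeval x : K[X] →ₐ[K] F) : K[X] →+* F).IsIntegralElem
        (algebraMap (FunctionField.ringOfIntegers K F) F b) := by
      rw [← hmap]
      exact b.2
    have h2 := h _ hint hb0' h1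
    have := (ord_ofHeightOneSpectrum_pos_iff (K := K) (F := F) (center v hcv) b hb0).1
      (by rw [ofHeightOneSpectrum_center]; exact h2)
    exact this
  have heq : center v' hcv' = center v hcv := by
    apply IsDedekindDomain.HeightOneSpectrum.ext
    exact (center v' hcv').isMaximal.eq_of_le (center v hcv).isPrime.ne_top hle
  calc v' = Place.ofHeightOneSpectrum (K := K) (F := F) (center v' hcv') :=
        (ofHeightOneSpectrum_center v' hcv').symm
    _ = Place.ofHeightOneSpectrum (K := K) (F := F) (center v hcv) := by rw [heq]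
    _ = v := ofHeightOneSpectrum_center v hcv

end Abs

/-! ### Clearing denominators -/

section Clear

variable {O1 K1 L : Type*} [CommRing O1] [IsDomain O1] [Field K1] [Algebra O1 K1]
  [IsFractionRing O1 K1] [Field L] [Algebra K1 L]

/-- **Clearing denominators**: an element `b` which is integral over `K1[x0]` has a nonzero
constant multiple `c b`, `c ∈ O1`, which is integral over any subring containing `O1` and
`x0`. -/
theorem S34PX_clear_abs (x0 b : L) (S : Subring L)
    (hO : ∀ c : O1, algebraMap K1 L (algebraMap O1 K1 c) ∈ S) (hx0 : x0 ∈ S)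
    (hb : ((Polynomial.aeval x0 : K1[X] →ₐ[K1] L) : K1[X] →+* L).IsIntegralElem b) :
    ∃ c : O1, c ≠ 0 ∧ IsIntegral S (algebraMap K1 L (algebraMap O1 K1 c) * b) := by
  letI alg1 : Algebra O1[X] K1[X] := Polynomial.algebra O1 K1
  haveI loc : IsLocalization ((nonZeroDivisors O1).map (C : O1 →+* O1[X])) K1[X] :=
    Polynomial.isLocalization (nonZeroDivisors O1) K1
  letI alg2 : Algebra K1[X] L :=
    ((Polynomial.aeval x0 : K1[X] →ₐ[K1] L) : K1[X] →+* L).toAlgebra
  letI alg3 : Algebra O1[X] L := ((algebraMap K1[X] L).comp (algebraMap O1[X] K1[X])).toAlgebra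
  haveI tow : IsScalarTower O1[X] K1[X] L := IsScalarTower.of_algebraMap_eq (fun _ => rfl)
  have hb' : IsIntegral K1[X] b := hb
  obtain ⟨⟨m, hm⟩, hint⟩ := IsIntegral.exists_multiple_integral_of_isLocalization
    ((nonZeroDivisors O1).map (C : O1 →+* O1[X])) b hb'
  obtain ⟨c, hc, rfl⟩ := hm
  refine ⟨c, nonZeroDivisors.ne_zero hc, ?_⟩
  -- the structure map lands in `S`
  have hmapX : ∀ p : O1[X], algebraMap O1[X] L p ∈ S := by
    intro p
    have e : algebraMap O1[X] L p = Polynomial.aeval x0 (p.map (algebraMap O1 K1)) := rfl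
    rw [e, Polynomial.aeval_def, Polynomial.eval₂_map, Polynomial.eval₂_eq_sum_range]
    refine sum_mem (fun i _ => mul_mem ?_ (pow_mem hx0 _))
    exact hO _
  let g : O1[X] →+* S := (algebraMap O1[X] L).codRestrict S hmapX
  have hsm : (⟨(C : O1 →+* O1[X]) c, ⟨c, hc, rfl⟩⟩ :
      (nonZeroDivisors O1).map (C : O1 →+* O1[X])) • b =
      algebraMap K1 L (algebraMap O1 K1 c) * b := by
    rw [Submonoid.smul_def, Algebra.smul_def]
    congr 1
    show Polynomial.aeval x0 ((C c : O1[X]).map (algebraMap O1 K1)) = _
    rw [Polynomial.map_C, Polynomial.aeval_C]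
  rw [hsm] at hint
  obtain ⟨q, hq, hq0⟩ := hint
  refine ⟨q.map g, hq.map g, ?_⟩
  rw [Polynomial.eval₂_map]
  exact hq0

end Clear

/-! ### The modular function fields -/

section Ext

open Fermat.Agent.S18_helper9_CDefs Fermat.Agent.S18_helper25_COREDefs
  Fermat.Agent.S37_helper4_B1Defs Fermat.Agent.S37_helper5_LEVEL
  Fermat.Agent.S37_helper19_B1F24 Fermat.Agent.S18_helper26_CONST

local notation "Qb" => AlgebraicClosure ℚ

variable (N : ℕ) [NeZero N] (A : ValuationSubring Qb) (K1 : IntermediateField ℚ Qb)

/-- the coordinate `x0 ∈ {j, j⁻¹}` as a transcendental element of `F1` over which `F1` is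
finite. -/
theorem S34PX_coord (x0 : LaurentSeries K1) (hx0 : x0 = S18K_j K1 ∨ x0 = (S18K_j K1)⁻¹) :
    ∃ x : modularFunctionFieldFullC K1 N, (x : LaurentSeries K1) = x0 ∧ Transcendental K1 x ∧
      FiniteDimensional K1⟮x⟯ (modularFunctionFieldFullC K1 N) := by
  rcases hx0 with rfl | rfl
  · exact ⟨S18P15_jbar K1 N, rfl, S18P15_transcendental_jbar K1 N, S18P15_finiteDimensional K1 N⟩
  · haveI := S18P15_finiteDimensional K1 N
    exact ⟨(S18P15_jbar K1 N)⁻¹, rfl,
      transcendental_inv (S18P15_jbar K1 N) (S18P15_transcendental_jbar K1 N),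
      finiteDimensional_adjoin_inv (S18P15_jbar K1 N)⟩

/-- **Place extensionality on a normal chart.**  Let `X ⊇ icl (O[x0]) F1` with `x0 ∈ {j, j⁻¹}`.
A `K1`-rational place `P` and a place `P'`, both regular at `x0`, such that every element of `X`
which vanishes at `P'` vanishes at `P`, coincide. -/
theorem S34PX_ext (x0 : LaurentSeries K1) (hx0 : x0 = S18K_j K1 ∨ x0 = (S18K_j K1)⁻¹)
    (X : Subring (LaurentSeries K1))
    (hX : ∀ y : LaurentSeries K1, IsIntegral (adj (S18K_O A K1) x0) y → y ∈ S18K_F1 K1 N → y ∈ X)
    (P P' : Place Qb (modularFunctionFieldBar N)) (hrat : S37LEVEL_IsRational N K1 P)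
    (hP : 0 ≤ S37B1_ordP N K1 P x0) (hP' : 0 ≤ S37B1_ordP N K1 P' x0)
    (hpos : ∀ a ∈ X, a ≠ 0 → 0 < S37B1_ordP N K1 P' a → 0 < S37B1_ordP N K1 P a) :
    P' = P := by
  obtain ⟨x, hxc, hxt, hxf⟩ := S34PX_coord N K1 x0 hx0
  have hres : S37F24_res N K1 P' = S37F24_res N K1 P := by
    apply S34PX_place_ext_abs x hxt
    · apply mem_of_ord_nonneg
      rw [← S37F24_ordP_eq_res, hxc]
      exact hP
    · apply mem_of_ord_nonneg
      rw [← S37F24_ordP_eq_res, hxc]
      exact hP'
    · intro b hb hb0 hbpos
      -- integrality in `L`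
      have hb' : ((Polynomial.aeval x0 : K1[X] →ₐ[K1] LaurentSeries K1) :
          K1[X] →+* LaurentSeries K1).IsIntegralElem (b : LaurentSeries K1) := by
        obtain ⟨p, hp, hp0⟩ := hb
        refine ⟨p, hp, ?_⟩
        have h1 := congrArg (algebraMap (modularFunctionFieldFullC K1 N) (LaurentSeries K1)) hp0
        rw [map_zero, Polynomial.hom_eval₂] at h1
        have hcomp : (algebraMap (modularFunctionFieldFullC K1 N) (LaurentSeries K1)).comp
            ((Polynomial.aeval x : K1[X] →ₐ[K1] modularFunctionFieldFullC K1 N) :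
              K1[X] →+* modularFunctionFieldFullC K1 N) =
            ((Polynomial.aeval x0 : K1[X] →ₐ[K1] LaurentSeries K1) :
              K1[X] →+* LaurentSeries K1) := by
          apply Polynomial.ringHom_ext
          · intro a
            simp
          · simp [← hxc]
        rw [hcomp] at h1
        exact h1
      obtain ⟨c, hc0, hcint⟩ := S34PX_clear_abs (O1 := S18K_O1 A K1) (K1 := K1)
        (L := LaurentSeries K1) x0 (b : LaurentSeries K1) (adj (S18K_O A K1) x0)
        (fun c => Subring.subset_closure (Or.inl (by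
          show algebraMap K1 (LaurentSeries K1) (algebraMap (S18K_O1 A K1) K1 c) ∈ S18K_O A K1
          rw [S18K_mem_O]
          exact ⟨(c : K1), c.2, by rw [S18P15_C_eq_algebraMap]; rfl⟩)))
        (Subring.subset_closure (Or.inr rfl)) hb'
      have hc0' : (c : K1) ≠ 0 := fun h => hc0 (Subtype.ext h)
      have hcF0 : algebraMap K1 (modularFunctionFieldFullC K1 N) (c : K1) ≠ 0 :=
        (_root_.map_ne_zero _).2 hc0'
      have hyF : algebraMap K1 (LaurentSeries K1) (algebraMap (S18K_O1 A K1) K1 c) *
          (b : LaurentSeries K1) =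
          ((algebraMap K1 (modularFunctionFieldFullC K1 N) (c : K1) * b :
            modularFunctionFieldFullC K1 N) : LaurentSeries K1) := rfl
      rw [hyF] at hcint
      have hcb0 : algebraMap K1 (modularFunctionFieldFullC K1 N) (c : K1) * b ≠ 0 :=
        mul_ne_zero hcF0 hb0
      have hy0 : ((algebraMap K1 (modularFunctionFieldFullC K1 N) (c : K1) * b :
            modularFunctionFieldFullC K1 N) : LaurentSeries K1) ≠ 0 :=
        fun h => hcb0 (Subtype.ext h)
      have hyX := hX _ hcint (algebraMap K1 (modularFunctionFieldFullC K1 N) (c : K1) * b).2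
      have h1 : 0 < S37B1_ordP N K1 P'
          ((algebraMap K1 (modularFunctionFieldFullC K1 N) (c : K1) * b :
            modularFunctionFieldFullC K1 N) : LaurentSeries K1) := by
        rw [S37F24_ordP_eq_res, Place.ord_mul _ hcF0 hb0, ord_algebraMap_eq_zero, zero_add]
        exact hbpos
      have h2 := hpos _ hyX hy0 h1
      rw [S37F24_ordP_eq_res, Place.ord_mul _ hcF0 hb0, ord_algebraMap_eq_zero, zero_add] at h2
      exact h2
  exact (S37F24_eq_of_res_eq N K1 P P' hrat hres.symm).symm

end Ext

end Fermat.Agent.S34_helper11_PLEXT
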