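import Mathlib
import Fermat.Agent.S34_Contracts2
import Fermat.Agent.S37_helper15_HEXF
import Fermat.Agent.S34_helper2_HARTOGS

/-!
# S34, X-PLACES, no-conjugacy variant (helper17)

For a chart `X ⊆ F1 = K1(X₀(N))` with `Frac X = F1`:

* `S34PW_place_of_dvr` : a prime `𝔭` of `X` whose local ring is a discrete valuation ring
  containing the constants carries a place `P'` of `F̄ / ℚ̄` which is nonnegative on the local
  ring at `𝔭`, positive exactly on `𝔭`, and such that a function over `K1` of order `0` at `P'`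
  lies in the local ring at `𝔭`;
* `S34PW_placesAt` : the same in the shape of the contract `S34K_PlacesAt`, with
  "nonnegative on the local ring at `m`" (`S34PW_NonnegAt`) instead of "centred at `m`";
* `S34PW_valueMap`, `S34PW_ratCentred` : a `K1`-rational place which is nonnegative on the local
  ring at `m` is centred at `m` (contract `S34K_Centred`), with its value map.
-/

set_option autoImplicit false
set_option linter.style.haveILetI false
set_option linter.unusedSectionVars false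
set_option linter.unusedVariables false
set_option synthInstance.maxHeartbeats 400000
set_option maxHeartbeats 1600000

open AlgebraicCurve ModularCurve HahnSeries IntermediateField

noncomputable section

namespace Fermat.Agent.S34_helper17_PLW

open Fermat.Agent.S18_helper9_CDefs Fermat.Agent.S18_helper25_COREDefs
  Fermat.Agent.S18_helper13_GAUSS
  Fermat.Agent.S18_helper3_LOCRING Fermat.Agent.S37_helper4_B1Defs
  Fermat.Agent.S37_helper5_LEVEL Fermat.Agent.S34_Contracts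
  Fermat.Agent.S18_helper19_PLACEMOD Fermat.Agent.S34_helper2_HARTOGS
  Fermat.Agent.S37_helper15_HEXF

local notation "Qb" => AlgebraicClosure ℚ

section Generic

variable (N : ℕ) [NeZero N] (K1 : IntermediateField ℚ Qb)

/-- the place `P` is **nonnegative on the local ring at `m`** of the chart `X`. -/
def S34PW_NonnegAt (X : Subring (LaurentSeries K1)) (m : Ideal X) [m.IsPrime]
    (P : Place Qb (modularFunctionFieldBar N)) : Prop :=
  ∀ x ∈ locRing X m, x ≠ 0 → 0 ≤ S37B1_ordP N K1 P x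

theorem S34PW_locRing_le_F1 (X : Subring (LaurentSeries K1))
    (hXF : ∀ a ∈ X, a ∈ modularFunctionFieldFullC K1 N) (𝔭 : Ideal X) [𝔭.IsPrime] :
    ∀ x ∈ locRing X 𝔭, x ∈ modularFunctionFieldFullC K1 N := by
  rintro x ⟨a, c, hc, h⟩
  have hc0 : (c : LaurentSeries K1) ≠ 0 := coe_ne_zero_of_notMem X 𝔭 hc
  have : x = (a : LaurentSeries K1) * (c : LaurentSeries K1)⁻¹ := by
    rw [← h, mul_assoc, mul_inv_cancel₀ hc0, mul_one]
  rw [this]
  exact mul_mem (hXF a a.2) (inv_mem (hXF c c.2))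

theorem S34PW_ordP_inv (P : Place Qb (modularFunctionFieldBar N)) {x : LaurentSeries K1}
    (hx : x ∈ modularFunctionFieldFullC K1 N) :
    S37B1_ordP N K1 P x⁻¹ = - S37B1_ordP N K1 P x := by
  have h1 := S37B1_ordP_eq N K1 P ⟨x, hx⟩
  have h3 := S37B1_ordP_eq N K1 P (⟨x, hx⟩⁻¹)
  rw [map_inv₀, Place.ord_inv] at h3
  have e : ((⟨x, hx⟩⁻¹ : modularFunctionFieldFullC K1 N) : LaurentSeries K1) = x⁻¹ := rfl
  rw [e] at h3
  rw [h3, h1]

/-- **A place over a horizontal prime.** -/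
theorem S34PW_place_of_dvr (X : Subring (LaurentSeries K1))
    (hXF : ∀ a ∈ X, a ∈ modularFunctionFieldFullC K1 N)
    (hfrac : ∀ x ∈ modularFunctionFieldFullC K1 N,
      ∃ a b : X, b ≠ 0 ∧ x * (b : LaurentSeries K1) = a)
    (𝔭 : Ideal X) [𝔭.IsPrime]
    (hconst : ∀ c : K1, (HahnSeries.C c : LaurentSeries K1) ∈ locRing X 𝔭)
    (hdvr : IsDiscreteValuationRing (locRing X 𝔭)) :
    ∃ P' : Place Qb (modularFunctionFieldBar N),
      (∀ x ∈ locRing X 𝔭, x ≠ 0 → 0 ≤ S37B1_ordP N K1 P' x) ∧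
      (∀ a : X, (a : LaurentSeries K1) ≠ 0 → (0 < S37B1_ordP N K1 P' a ↔ a ∈ 𝔭)) ∧
      (∀ x ∈ modularFunctionFieldFullC K1 N, x ≠ 0 → S37B1_ordP N K1 P' x = 0 →
        x ∈ locRing X 𝔭) := by
  haveI := hdvr
  obtain ⟨ϖ, hϖ⟩ := IsDiscreteValuationRing.exists_irreducible (locRing X 𝔭)
  have hϖp : Prime ϖ := UniqueFactorizationMonoid.irreducible_iff_prime.mp hϖ
  have hRF := S34PW_locRing_le_F1 N K1 X hXF 𝔭
  have hfracR : ∀ x ∈ modularFunctionFieldFullC K1 N,
      ∃ a b : locRing X 𝔭, b ≠ 0 ∧ x * (b : LaurentSeries K1) = a := by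
    intro x hx
    obtain ⟨a, b, hb, hab⟩ := hfrac x hx
    refine ⟨incl X 𝔭 a, incl X 𝔭 b, ?_, hab⟩
    intro h
    exact hb (incl_injective X 𝔭 (by rw [h, map_zero]))
  have hc : ∀ c : K1, ∃ s a : locRing X 𝔭, ¬ ϖ ∣ s ∧
      (HahnSeries.C c : LaurentSeries K1) * (s : LaurentSeries K1) = a := by
    intro c
    refine ⟨1, ⟨HahnSeries.C c, hconst c⟩, fun h => hϖ.not_isUnit (isUnit_of_dvd_one h), ?_⟩
    simp
  obtain ⟨P', hP'⟩ := S37HEXF_F3 N K1 (locRing X 𝔭) inferInstance hRF hfracR ϖ hϖp hc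
  -- divisibility by the uniformiser
  have hdvd : ∀ x : locRing X 𝔭, ϖ ∣ x ↔ x ∈ IsLocalRing.maximalIdeal (locRing X 𝔭) := by
    intro x
    rw [hϖ.maximalIdeal_eq, Ideal.mem_span_singleton]
  refine ⟨P', fun x hx hx0 => (hP' ⟨x, hx⟩ hx0).1, fun a ha0 => ?_, fun x hxF hx0 hord => ?_⟩
  · have h1 := (hP' (incl X 𝔭 a) ha0).2
    have h2 : (incl X 𝔭 a : LaurentSeries K1) = a := rfl
    rw [h2] at h1
    rw [h1, hdvd, mem_maximalIdeal_iff]
    constructor
    · rintro ⟨b, c, hb, hc, h⟩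
      -- a * c = b, b ∈ 𝔭, c ∉ 𝔭
      have hh : a * c = b := by
        apply Subtype.ext
        push_cast
        exact h
      have : a * c ∈ 𝔭 := hh ▸ hb
      rcases (inferInstance : 𝔭.IsPrime).mem_or_mem this with h' | h'
      · exact h'
      · exact absurd h' hc
    · intro ha
      exact ⟨a, 1, ha, fun h1 => (inferInstance : 𝔭.IsPrime).ne_top
        ((Ideal.eq_top_iff_one 𝔭).2 h1), by simp [h2]⟩
  · rcases S34H_val_of_dvr X 𝔭 hdvr x (hfrac x hxF) with h | h
    · exact h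
    · -- `x⁻¹` is a unit of the local ring
      have hinv0 : x⁻¹ ≠ 0 := inv_ne_zero hx0
      have h1 := (hP' ⟨x⁻¹, h⟩ hinv0).2
      have h2 : S37B1_ordP N K1 P' x⁻¹ = 0 := by
        rw [S34PW_ordP_inv N K1 P' hxF, hord, neg_zero]
      have h3 : ¬ ϖ ∣ (⟨x⁻¹, h⟩ : locRing X 𝔭) := by
        rw [← h1]
        show ¬ 0 < S37B1_ordP N K1 P' x⁻¹
        rw [h2]
        exact lt_irrefl 0
      rw [hdvd] at h3
      have hu : IsUnit (⟨x⁻¹, h⟩ : locRing X 𝔭) := by
        by_contra hnu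
        exact h3 ((IsLocalRing.mem_maximalIdeal _).2 hnu)
      obtain ⟨u, hu⟩ := hu
      have h4 : ((u⁻¹ : (locRing X 𝔭)ˣ) : locRing X 𝔭) * (⟨x⁻¹, h⟩ : locRing X 𝔭) = 1 := by
        rw [← hu]
        exact u.inv_mul
      have h5 : (((u⁻¹ : (locRing X 𝔭)ˣ) : locRing X 𝔭) : LaurentSeries K1) * x⁻¹ = 1 := by
        have := congrArg (fun z : locRing X 𝔭 => (z : LaurentSeries K1)) h4
        simpa using this
      have h6 : x = (((u⁻¹ : (locRing X 𝔭)ˣ) : locRing X 𝔭) : LaurentSeries K1) := by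
        have := eq_inv_of_mul_eq_one_left h5
        rw [inv_inv] at this
        exact this.symm
      rw [h6]
      exact ((u⁻¹ : (locRing X 𝔭)ˣ) : locRing X 𝔭).2

end Generic

section Concrete

variable (N : ℕ) [NeZero N] (A : ValuationSubring Qb) (K1 : IntermediateField ℚ Qb)

theorem S34PW_nonunits_iff (x : S18K_O1 A K1) :
    (((x : K1)) : Qb) ∈ A.nonunits ↔ x ∈ IsLocalRing.maximalIdeal (S18K_O1 A K1) := by
  rw [← S18K_res_eq_zero_iff, S18K_res, RingHom.comp_apply, IsLocalRing.residue_eq_zero_iff,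
    ValuationSubring.mem_nonunits_iff_exists_mem_maximalIdeal]
  constructor
  · rintro ⟨ha, h⟩
    exact h
  · intro h
    exact ⟨x.2, h⟩

theorem S34PW_C_mem_O (o : S18K_O1 A K1) :
    (HahnSeries.C (o : K1) : LaurentSeries K1) ∈ S18K_O A K1 :=
  (S18K_mem_O A K1 _).2 ⟨o, o.2, rfl⟩

theorem S34PW_C_mem_F1 (c : K1) :
    (HahnSeries.C c : LaurentSeries K1) ∈ modularFunctionFieldFullC K1 N := by
  rw [Fermat.Agent.S18_helper26_CONST.S18P15_C_eq_algebraMap]
  exact (modularFunctionFieldFullC K1 N).algebraMap_mem c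

variable [IsDiscreteValuationRing (S18K_O1 A K1)]

theorem S34PW_pi_eq :
    S18K_π A K1 = HahnSeries.C (((S18K_D A K1).π : S18K_O1 A K1) : K1) := rfl

/-- the maximal ideal of `O1` consists of the multiples of the uniformiser. -/
theorem S34PW_mem_maximalIdeal_iff (x : S18K_O1 A K1) :
    x ∈ IsLocalRing.maximalIdeal (S18K_O1 A K1) ↔ ∃ y : S18K_O1 A K1, x = (S18K_D A K1).π * y := by
  rw [← S18K_res_eq_zero_iff]
  exact (S18K_D A K1).res_eq_zero_iff x

/-- **The constants lie in the local ring at a horizontal prime.** -/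
theorem S34PW_const_mem_locRing (X : Subring (LaurentSeries K1)) (hO : S18K_O A K1 ≤ X)
    (hπ : S18K_π A K1 ∈ X) (𝔭 : Ideal X) [h𝔭 : 𝔭.IsPrime]
    (hπ𝔭 : (⟨S18K_π A K1, hπ⟩ : X) ∉ 𝔭) (c : K1) :
    (HahnSeries.C c : LaurentSeries K1) ∈ locRing X 𝔭 := by
  by_cases hc : c ∈ S18K_O1 A K1
  · exact le_locRing X 𝔭 (hO (S34PW_C_mem_O A K1 ⟨c, hc⟩))
  · have hinv : c⁻¹ ∈ S18K_O1 A K1 := ((S18K_O1 A K1).mem_or_inv_mem c).resolve_left hc
    have hc0 : c ≠ 0 := fun h => hc (h ▸ (S18K_O1 A K1).zero_mem)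
    have ho0 : (⟨c⁻¹, hinv⟩ : S18K_O1 A K1) ≠ 0 :=
      fun h => inv_ne_zero hc0 (congrArg Subtype.val h)
    obtain ⟨n, u, hu, hures⟩ := (S18K_D A K1).exists_normalize _ ho0
    have hunit : IsUnit u := by
      by_contra hnu
      exact hures ((S18K_res_eq_zero_iff A K1 u).2 ((IsLocalRing.mem_maximalIdeal _).2 hnu))
    obtain ⟨v, hv⟩ := hunit.exists_right_inv
    have hu' : c⁻¹ = (((S18K_D A K1).π : S18K_O1 A K1) : K1) ^ n * (u : K1) := by
      have := congrArg Subtype.val hu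
      simpa using this
    have hv' : (u : K1) * (v : K1) = 1 := by
      have := congrArg Subtype.val hv
      simpa using this
    have hrel : c * (((S18K_D A K1).π : S18K_O1 A K1) : K1) ^ n = (v : K1) := by
      have h1 : c * c⁻¹ = 1 := mul_inv_cancel₀ hc0
      rw [hu'] at h1
      calc c * (((S18K_D A K1).π : S18K_O1 A K1) : K1) ^ n
          = c * (((S18K_D A K1).π : S18K_O1 A K1) : K1) ^ n * ((u : K1) * (v : K1)) := by
            rw [hv', mul_one]
        _ = (c * ((((S18K_D A K1).π : S18K_O1 A K1) : K1) ^ n * (u : K1))) * (v : K1) := by ring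
        _ = (v : K1) := by rw [h1, one_mul]
    refine ⟨⟨HahnSeries.C (v : K1), hO (S34PW_C_mem_O A K1 v)⟩, ⟨S18K_π A K1, hπ⟩ ^ n, ?_, ?_⟩
    · intro h
      exact hπ𝔭 (h𝔭.mem_of_pow_mem n h)
    · show (HahnSeries.C c : LaurentSeries K1) * ((⟨S18K_π A K1, hπ⟩ ^ n : X) : LaurentSeries K1)
        = HahnSeries.C (v : K1)
      rw [← hrel, map_mul, map_pow]
      rfl

/-- **X-PLACES (a), no-conjugacy form**: every horizontal prime `𝔭 ≤ m` of the chart `X` whose
local ring is a discrete valuation ring carries a place `P'` of `F̄ / ℚ̄` which is nonnegative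
on the local ring at `m`, positive exactly on `𝔭`, and a function over `K1` of order `0` at `P'`
lies in the local ring at `𝔭`. -/
theorem S34PW_placesAt (X : Subring (LaurentSeries K1))
    (hXF : ∀ a ∈ X, a ∈ S18K_F1 K1 N)
    (hfrac : ∀ x ∈ S18K_F1 K1 N, ∃ a b : X, b ≠ 0 ∧ x * (b : LaurentSeries K1) = a)
    (hO : S18K_O A K1 ≤ X)
    (hπ : S18K_π A K1 ∈ X) (m : Ideal X) (hm : m.IsMaximal)
    (𝔭 : Ideal X) [𝔭.IsPrime] (h𝔭m : 𝔭 ≤ m) (hπ𝔭 : (⟨S18K_π A K1, hπ⟩ : X) ∉ 𝔭)
    (hdvr : IsDiscreteValuationRing (locRing X 𝔭)) :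
    haveI := hm.isPrime
    ∃ P' : Place Qb (modularFunctionFieldBar N), S34PW_NonnegAt N K1 X m P' ∧
      (∀ a : X, (a : LaurentSeries K1) ≠ 0 → (0 < S37B1_ordP N K1 P' a ↔ a ∈ 𝔭)) ∧
      ∀ x ∈ S18K_F1 K1 N, x ≠ 0 → S37B1_ordP N K1 P' x = 0 → x ∈ locRing X 𝔭 := by
  haveI := hm.isPrime
  obtain ⟨P', h1, h2, h3⟩ := S34PW_place_of_dvr N K1 X hXF hfrac 𝔭
    (S34PW_const_mem_locRing A K1 X hO hπ 𝔭 hπ𝔭) hdvr
  exact ⟨P', fun x hx hx0 => h1 x (S34H_locRing_mono X m h𝔭m hx) hx0, h2, h3⟩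

/-- **The value map of a rational place which is nonnegative on the local ring at `m`**: it has
values in `O1`, the maximal ideal of the local ring is the preimage of the nonunits, and it
computes the values in the sense of `S34K_ValueAt`. -/
theorem S34PW_valueMap (X : Subring (LaurentSeries K1))
    (hXF : ∀ a ∈ X, a ∈ S18K_F1 K1 N) (hO : S18K_O A K1 ≤ X)
    (hπ : S18K_π A K1 ∈ X) (m : Ideal X) (hm : m.IsMaximal)
    (hπm : (⟨S18K_π A K1, hπ⟩ : X) ∈ m)
    (P : Place Qb (modularFunctionFieldBar N)) (hrat : S37LEVEL_IsRational N K1 P)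
    (hnn : haveI := hm.isPrime; S34PW_NonnegAt N K1 X m P) :
    haveI := hm.isPrime
    ∃ ψ : locRing X m →+* K1,
      (∀ (c : K1) (hc : (HahnSeries.C c : LaurentSeries K1) ∈ locRing X m),
        ψ ⟨HahnSeries.C c, hc⟩ = c) ∧
      (∀ x : locRing X m, (x : LaurentSeries K1) ≠ 0 →
        (ψ x = 0 ↔ 0 < S37B1_ordP N K1 P x)) ∧
      (∀ x : locRing X m, ψ x ∈ S18K_O1 A K1) ∧
      (∀ x : locRing X m, x ∈ IsLocalRing.maximalIdeal (locRing X m) ↔
        ((ψ x : K1) : Qb) ∈ A.nonunits) ∧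
      (∀ x : locRing X m, S34K_ValueAt N K1 P (x : LaurentSeries K1) ((ψ x : K1) : Qb)) ∧
      (∀ (x : locRing X m) (c : Qb), S34K_ValueAt N K1 P (x : LaurentSeries K1) c →
        c = ((ψ x : K1) : Qb)) := by
  haveI := hm.isPrime
  have hRF := S34PW_locRing_le_F1 N K1 X hXF m
  obtain ⟨ψ, hψ1, hψ2⟩ := S37HEXF_F1 N K1 P hrat (locRing X m) hRF hnn
  -- the kernel is contained in the maximal ideal
  have hker : ∀ x : locRing X m, ψ x = 0 → x ∈ IsLocalRing.maximalIdeal (locRing X m) := by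
    intro x hx
    rw [IsLocalRing.mem_maximalIdeal, mem_nonunits_iff]
    intro hu
    exact (hu.map ψ).ne_zero hx
  have hone : ∀ y : locRing X m, y ∈ IsLocalRing.maximalIdeal (locRing X m) → ψ y ≠ 1 := by
    intro y hy h1
    have h2 : ψ (y - 1) = 0 := by rw [map_sub, h1, map_one, sub_self]
    have h3 := hker _ h2
    have h4 := (IsLocalRing.maximalIdeal (locRing X m)).sub_mem hy h3
    rw [sub_sub_cancel] at h4
    exact (IsLocalRing.maximalIdeal (locRing X m)).ne_top_iff_one.1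
      (IsLocalRing.maximalIdeal.isMaximal _).ne_top h4
  -- constants of `O1`
  have hCR : ∀ o : S18K_O1 A K1, (HahnSeries.C (o : K1) : LaurentSeries K1) ∈ locRing X m :=
    fun o => le_locRing X m (hO (S34PW_C_mem_O A K1 o))
  have hπR : incl X m ⟨S18K_π A K1, hπ⟩ ∈ IsLocalRing.maximalIdeal (locRing X m) :=
    incl_mem_maximalIdeal X m hπm
  have hψπ : ψ (incl X m ⟨S18K_π A K1, hπ⟩) = (((S18K_D A K1).π : S18K_O1 A K1) : K1) := by
    have e : incl X m ⟨S18K_π A K1, hπ⟩ =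
        ⟨HahnSeries.C (((S18K_D A K1).π : S18K_O1 A K1) : K1), hCR _⟩ := Subtype.ext rfl
    rw [e, hψ1]
  -- values in `O1`
  have hval : ∀ x : locRing X m, ψ x ∈ S18K_O1 A K1 := by
    intro x
    by_contra hx
    have hinv : (ψ x)⁻¹ ∈ S18K_O1 A K1 := ((S18K_O1 A K1).mem_or_inv_mem _).resolve_left hx
    have hx0 : ψ x ≠ 0 := fun h => hx (h ▸ (S18K_O1 A K1).zero_mem)
    have hmax : (⟨(ψ x)⁻¹, hinv⟩ : S18K_O1 A K1) ∈ IsLocalRing.maximalIdeal (S18K_O1 A K1) := by
      rw [IsLocalRing.mem_maximalIdeal, mem_nonunits_iff]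
      intro hu
      obtain ⟨v, hv⟩ := hu.exists_right_inv
      have hv' : (ψ x)⁻¹ * (v : K1) = 1 := by
        have := congrArg Subtype.val hv
        simpa using this
      have : (v : K1) = ψ x := by
        have h1 : ψ x * ((ψ x)⁻¹ * (v : K1)) = ψ x := by rw [hv', mul_one]
        rw [← mul_assoc, mul_inv_cancel₀ hx0, one_mul] at h1
        exact h1
      exact hx (this ▸ v.2)
    obtain ⟨y, hy⟩ := (S34PW_mem_maximalIdeal_iff A K1 _).1 hmax
    have hy' : (ψ x)⁻¹ = (((S18K_D A K1).π : S18K_O1 A K1) : K1) * (y : K1) := by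
      have := congrArg Subtype.val hy
      simpa using this
    refine hone (incl X m ⟨S18K_π A K1, hπ⟩ * ⟨HahnSeries.C (y : K1), hCR y⟩ * x)
      (Ideal.mul_mem_right _ _ (Ideal.mul_mem_right _ _ hπR)) ?_
    rw [map_mul, map_mul, hψπ, hψ1, ← hy', inv_mul_cancel₀ hx0]
  -- the maximal ideal
  have hmaxiff : ∀ x : locRing X m, x ∈ IsLocalRing.maximalIdeal (locRing X m) ↔
      ((ψ x : K1) : Qb) ∈ A.nonunits := by
    intro x
    have e := S34PW_nonunits_iff A K1 ⟨ψ x, hval x⟩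
    rw [show ((ψ x : K1) : Qb) = (((⟨ψ x, hval x⟩ : S18K_O1 A K1) : K1) : Qb) from rfl, e]
    constructor
    · intro hx
      by_contra hnm
      rw [IsLocalRing.mem_maximalIdeal, mem_nonunits_iff, not_not] at hnm
      obtain ⟨v, hv⟩ := hnm.exists_right_inv
      have hv' : ψ x * (v : K1) = 1 := by
        have := congrArg Subtype.val hv
        simpa using this
      refine hone (⟨HahnSeries.C (v : K1), hCR v⟩ * x) (Ideal.mul_mem_left _ _ hx) ?_
      rw [map_mul, hψ1, mul_comm, hv']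
    · intro hx
      obtain ⟨y, hy⟩ := (S34PW_mem_maximalIdeal_iff A K1 _).1 hx
      have hy' : ψ x = (((S18K_D A K1).π : S18K_O1 A K1) : K1) * (y : K1) := by
        have := congrArg Subtype.val hy
        simpa using this
      have h1 : ψ (x - incl X m ⟨S18K_π A K1, hπ⟩ * ⟨HahnSeries.C (y : K1), hCR y⟩) = 0 := by
        rw [map_sub, map_mul, hψπ, hψ1, ← hy', sub_self]
      have h2 := hker _ h1
      have h3 := (IsLocalRing.maximalIdeal (locRing X m)).add_mem h2
        (Ideal.mul_mem_right ⟨HahnSeries.C (y : K1), hCR y⟩ _ hπR)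
      rwa [sub_add_cancel] at h3
  -- the values
  have hvalAt : ∀ x : locRing X m,
      S34K_ValueAt N K1 P (x : LaurentSeries K1) ((ψ x : K1) : Qb) := by
    intro x
    have hCx : (HahnSeries.C (ψ x) : LaurentSeries K1) ∈ locRing X m := hCR ⟨ψ x, hval x⟩
    have hwF : (x : LaurentSeries K1) - HahnSeries.C (ψ x) ∈ modularFunctionFieldFullC K1 N :=
      sub_mem (hRF x x.2) (S34PW_C_mem_F1 N K1 (ψ x))
    refine ⟨S18A3C_inc N (algebraMap K1 Qb) ⟨(x : LaurentSeries K1) - HahnSeries.C (ψ x), hwF⟩,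
      ?_, ?_⟩
    · rw [S18A3C_inc_coe]
      show coeffMap (algebraMap K1 Qb) ((x : LaurentSeries K1) - HahnSeries.C (ψ x)) = _
      rw [map_sub]
      congr 1
      rw [HahnSeries.C_apply, coeffMap_single, HahnSeries.C_apply]
      rfl
    · by_cases hw0 : (x : LaurentSeries K1) - HahnSeries.C (ψ x) = 0
      · left
        have : (⟨(x : LaurentSeries K1) - HahnSeries.C (ψ x), hwF⟩ :
            modularFunctionFieldFullC K1 N) = 0 := Subtype.ext hw0
        rw [this, map_zero]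
      · right
        have h1 : ψ (x - ⟨HahnSeries.C (ψ x), hCx⟩) = 0 := by
          rw [map_sub, hψ1, sub_self]
        have h2 := (hψ2 (x - ⟨HahnSeries.C (ψ x), hCx⟩) hw0).1 h1
        have h3 := S37B1_ordP_eq N K1 P ⟨(x : LaurentSeries K1) - HahnSeries.C (ψ x), hwF⟩
        rw [← h3]
        exact h2
  refine ⟨ψ, hψ1, hψ2, hval, hmaxiff, hvalAt, ?_⟩
  -- uniqueness of the value
  intro x c hc
  obtain ⟨z, hz, hzP⟩ := hc
  obtain ⟨z', hz', hzP'⟩ := hvalAt x
  have hN : ∀ w : modularFunctionFieldBar N, (w = 0 ∨ 0 < P.ord w) →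
      Fermat.Agent.S18_helper19_PLACEUNR.S18A3_IsN P w := by
    intro w hw
    rcases hw with h | h
    · rw [h]
      exact ⟨P.toValuationSubring.zero_mem, Or.inl rfl⟩
    · exact Fermat.Agent.S18_helper19_PLACEUNR.S18A3_isN_of_ord_pos P h
  have h1 := Fermat.Agent.S18_helper19_PLACEUNR.S18A3_isN_add P (hN z' hzP')
    (Fermat.Agent.S18_helper19_PLACEUNR.S18A3_isN_neg P (hN z hzP))
  have h2 : z' + -z = algebraMap Qb (modularFunctionFieldBar N) (c - ((ψ x : K1) : Qb)) := by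
    apply Subtype.ext
    show (z' : LaurentSeries Qb) + -(z : LaurentSeries Qb) =
      algebraMap Qb (LaurentSeries Qb) (c - ((ψ x : K1) : Qb))
    rw [hz, hz', ← Fermat.Agent.S18_helper26_CONST.S18P15_C_eq_algebraMap, map_sub]
    ring
  rw [h2] at h1
  by_contra hne
  have hne' : c - ((ψ x : K1) : Qb) ≠ 0 := sub_ne_zero.2 hne
  have hinj : Function.Injective (algebraMap Qb (modularFunctionFieldBar N)) :=
    (algebraMap Qb (modularFunctionFieldBar N)).injective
  have hne'' : algebraMap Qb (modularFunctionFieldBar N) (c - ((ψ x : K1) : Qb)) ≠ 0 :=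
    fun h => hne' (hinj (h.trans (map_zero _).symm))
  have h3 := Fermat.Agent.S18_helper19_PLACEUNR.S18A3_ord_pos_of_isN P h1 hne''
  have h4 := Fermat.Agent.S24_helper6_A2.ord_algebraMap_eq_zero P (c - ((ψ x : K1) : Qb))
  rw [h4] at h3
  exact lt_irrefl 0 h3

/-- **A rational place which is nonnegative on the local ring at `m` is centred at `m`.** -/
theorem S34PW_ratCentred (X : Subring (LaurentSeries K1))
    (hXF : ∀ a ∈ X, a ∈ S18K_F1 K1 N) (hO : S18K_O A K1 ≤ X)
    (hπ : S18K_π A K1 ∈ X) (m : Ideal X) (hm : m.IsMaximal)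
    (hπm : (⟨S18K_π A K1, hπ⟩ : X) ∈ m)
    (P : Place Qb (modularFunctionFieldBar N)) (hrat : S37LEVEL_IsRational N K1 P)
    (hnn : haveI := hm.isPrime; S34PW_NonnegAt N K1 X m P) :
    S34K_Centred N A K1 X m P := by
  haveI := hm.isPrime
  obtain ⟨ψ, -, -, hval, hmaxiff, hvalAt, huniq⟩ :=
    S34PW_valueMap N A K1 X hXF hO hπ m hm hπm P hrat hnn
  refine ⟨fun a => ⟨((ψ (incl X m a) : K1) : Qb), hval _, hvalAt (incl X m a)⟩,
    fun a c hc hca => ?_⟩
  have e := huniq (incl X m a) c hca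
  rw [e, ← hmaxiff, mem_maximalIdeal_iff]
  constructor
  · intro ha
    exact ⟨a, 1, ha, fun h1 => hm.ne_top ((Ideal.eq_top_iff_one m).2 h1), by
      show ((incl X m a : locRing X m) : LaurentSeries K1) * ((1 : X) : LaurentSeries K1) = a
      simp⟩
  · rintro ⟨b, c', hb, hc', h⟩
    have hh : a * c' = b := by
      apply Subtype.ext
      push_cast
      exact h
    have : a * c' ∈ m := hh ▸ hb
    rcases hm.isPrime.mem_or_mem this with h' | h'
    · exact h'
    · exact absurd h' hc'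

end Concrete

end Fermat.Agent.S34_helper17_PLW
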