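import Mathlib
import Fermat.Agent.S34_helper5_K0
import Fermat.Agent.S37_helper21_B2
import Fermat.Agent.S37_helper4_B1Defs
import Fermat.Agent.S37_helper5_LEVEL

/-!
# S34, piece X-ACT: the coefficientwise Galois action at a Galois-stable level

`K1` is an intermediate field of `ℚ̄ / ℚ` stable under `G_ℚ`.  Every `σ ∈ G_ℚ` acts on
`K1((q))` coefficientwise (`S34ACT_act`).  We prove:

* the action preserves the function field `F1 = K1(X₀(N))`, fixes `j(q^d)`, and is compatible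
  with the inclusion `F1 → F̄` and the prelude action of `G_ℚ` on `F̄` (`S34ACT_inc_act`);
* orders at places: `ord_(σ P) (σ x) = ord_P x` (`S34ACT_ordP`), rationality of `σ P`
  (`S34ACT_rational`), transport of values (`S34ACT_value`);
* for `σ` preserving `A`: the action preserves `O`, the Gauss ring and `S18K_V`
  (`S34ACT_mem_O`, `S34ACT_mem_Vring`, `S34ACT_mem_V`), and integral closures of `O[x]` in `F1`
  for fixed `x` (`S34ACT_mem_icl`);
* for `τ` in the inertia group of `A`: `τ x - x ∈ π · Vring` on the Gauss ring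
  (`S34ACT_inertia_Vring`), the same on a saturated chart (`S34ACT_inertia_chart`), hence every
  ideal of the chart containing `π` is `τ`-stable (`S34ACT_inertia_ideal`).
-/

set_option autoImplicit false
set_option linter.style.haveILetI false
set_option linter.unusedSectionVars false
set_option linter.unusedVariables false
set_option synthInstance.maxHeartbeats 400000
set_option maxHeartbeats 1600000

open AlgebraicCurve ModularCurve HahnSeries IntermediateField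
open Fermat.Agent.S18_helper25_COREDefs Fermat.Agent.S18_helper13_GAUSS
  Fermat.Agent.S18_helper9_CDefs Fermat.Agent.S18_helper19_PLACEMOD
  Fermat.Agent.S37_helper4_B1Defs Fermat.Agent.S37_helper5_LEVEL
  Fermat.Agent.S34_helper5_K0

noncomputable section

namespace Fermat.Agent.S34_helper21_ACT

local notation "Qb" => AlgebraicClosure ℚ
local notation "GQ" => (AlgebraicClosure ℚ ≃ₐ[ℚ] AlgebraicClosure ℚ)

variable (K1 : IntermediateField ℚ Qb) (hstab : ∀ σ : GQ, ∀ x ∈ K1, σ x ∈ K1)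

/-- The restriction of `σ` to `K1`, as a ring homomorphism. -/
def S34ACT_res (σ : GQ) : K1 →+* K1 :=
  ((S34K0_restrict K1 hstab σ : K1 ≃ₐ[ℚ] K1) : K1 →+* K1)

theorem S34ACT_res_coe (σ : GQ) (c : K1) :
    ((S34ACT_res K1 hstab σ c : K1) : Qb) = σ (c : Qb) := rfl

theorem S34ACT_res_mul (σ τ : GQ) :
    S34ACT_res K1 hstab (σ * τ) = (S34ACT_res K1 hstab σ).comp (S34ACT_res K1 hstab τ) :=
  RingHom.ext fun _ => rfl

theorem S34ACT_res_one : S34ACT_res K1 hstab 1 = RingHom.id K1 :=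
  RingHom.ext fun _ => rfl

/-- The coefficientwise action of `σ` on `K1((q))`. -/
def S34ACT_act (σ : GQ) : LaurentSeries K1 →+* LaurentSeries K1 :=
  coeffMap (S34ACT_res K1 hstab σ)

theorem S34ACT_act_coeff (σ : GQ) (x : LaurentSeries K1) (n : ℤ) :
    (S34ACT_act K1 hstab σ x).coeff n = S34ACT_res K1 hstab σ (x.coeff n) :=
  coeffMap_coeff _ _ _

theorem S34ACT_act_mul (σ τ : GQ) (x : LaurentSeries K1) :
    S34ACT_act K1 hstab (σ * τ) x = S34ACT_act K1 hstab σ (S34ACT_act K1 hstab τ x) := by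
  unfold S34ACT_act
  rw [coeffMap_coeffMap, S34ACT_res_mul]

theorem S34ACT_act_one (x : LaurentSeries K1) : S34ACT_act K1 hstab 1 x = x := by
  unfold S34ACT_act
  rw [S34ACT_res_one, coeffMap_id]

theorem S34ACT_act_inv_act (σ : GQ) (x : LaurentSeries K1) :
    S34ACT_act K1 hstab σ⁻¹ (S34ACT_act K1 hstab σ x) = x := by
  rw [← S34ACT_act_mul, inv_mul_cancel, S34ACT_act_one]

theorem S34ACT_act_act_inv (σ : GQ) (x : LaurentSeries K1) :
    S34ACT_act K1 hstab σ (S34ACT_act K1 hstab σ⁻¹ x) = x := by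
  rw [← S34ACT_act_mul, mul_inv_cancel, S34ACT_act_one]

theorem S34ACT_act_injective (σ : GQ) : Function.Injective (S34ACT_act K1 hstab σ) := by
  intro x y h
  have := congrArg (S34ACT_act K1 hstab σ⁻¹) h
  rwa [S34ACT_act_inv_act, S34ACT_act_inv_act] at this

theorem S34ACT_act_C (σ : GQ) (c : K1) :
    S34ACT_act K1 hstab σ (HahnSeries.C c) = HahnSeries.C (S34ACT_res K1 hstab σ c) := by
  unfold S34ACT_act
  rw [HahnSeries.C_apply, coeffMap_single, HahnSeries.C_apply]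

theorem S34ACT_act_jq (σ : GQ) : S34ACT_act K1 hstab σ (jqModC K1) = jqModC K1 :=
  coeffMap_jqModC _

/-- The action preserves the function field. -/
theorem S34ACT_mem_F1 (N : ℕ) [NeZero N] (σ : GQ) {x : LaurentSeries K1}
    (hx : x ∈ modularFunctionFieldFullC K1 N) :
    S34ACT_act K1 hstab σ x ∈ modularFunctionFieldFullC K1 N :=
  Fermat.Agent.S37_helper21_B2.S37B2_coeffMap_mem K1 N _ hx

theorem S34ACT_mem_F1_iff (N : ℕ) [NeZero N] (σ : GQ) {x : LaurentSeries K1} :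
    S34ACT_act K1 hstab σ x ∈ modularFunctionFieldFullC K1 N ↔
      x ∈ modularFunctionFieldFullC K1 N := by
  refine ⟨fun h => ?_, S34ACT_mem_F1 K1 hstab N σ⟩
  have := S34ACT_mem_F1 K1 hstab N σ⁻¹ h
  rwa [S34ACT_act_inv_act] at this

/-- Compatibility with the inclusion `K1((q)) → ℚ̄((q))`. -/
theorem S34ACT_inc_act (σ : GQ) (x : LaurentSeries K1) :
    coeffMap (algebraMap K1 Qb) (S34ACT_act K1 hstab σ x) =
      coeffMap (σ : Qb →+* Qb) (coeffMap (algebraMap K1 Qb) x) := by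
  unfold S34ACT_act
  rw [coeffMap_coeffMap, coeffMap_coeffMap]
  exact coeffMap_congr (RingHom.ext fun _ => rfl) _

/-- Compatibility with the prelude action of `G_ℚ` on `F̄`. -/
theorem S34ACT_inc_smul (N : ℕ) [NeZero N] (σ : GQ) (x : modularFunctionFieldFullC K1 N) :
    S18A3C_inc N (algebraMap K1 Qb)
        ⟨S34ACT_act K1 hstab σ (x : LaurentSeries K1), S34ACT_mem_F1 K1 hstab N σ x.2⟩ =
      arithmeticGalois (modularFunctionFieldFull N) σ • S18A3C_inc N (algebraMap K1 Qb) x := by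
  apply Subtype.ext
  rw [S18A3C_inc_coe, coe_arithmeticGalois_smul, S18A3C_inc_coe]
  exact S34ACT_inc_act K1 hstab σ _

/-- **Orders**: `ord_(σ P) (σ x) = ord_P x`. -/
theorem S34ACT_ordP (N : ℕ) [NeZero N] (σ : GQ)
    (P : Place Qb (modularFunctionFieldBar N)) (x : LaurentSeries K1) :
    S37B1_ordP N K1 (arithmeticGalois (modularFunctionFieldFull N) σ • P)
        (S34ACT_act K1 hstab σ x) = S37B1_ordP N K1 P x := by
  by_cases hx : x ∈ modularFunctionFieldFullC K1 N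
  · have hx' := S34ACT_mem_F1 K1 hstab N σ hx
    rw [S37B1_ordP, dif_pos hx', S37B1_ordP, dif_pos hx]
    have h := S34ACT_inc_smul K1 hstab N σ ⟨x, hx⟩
    rw [h]
    exact SemilinearAut.ord_smul _ P _
  · have hx' : S34ACT_act K1 hstab σ x ∉ modularFunctionFieldFullC K1 N := fun h =>
      hx ((S34ACT_mem_F1_iff K1 hstab N σ).mp h)
    rw [S37B1_ordP, dif_neg hx', S37B1_ordP, dif_neg hx]

/-- The same, with the action on the other side. -/
theorem S34ACT_ordP' (N : ℕ) [NeZero N] (σ : GQ)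
    (P : Place Qb (modularFunctionFieldBar N)) (x : LaurentSeries K1) :
    S37B1_ordP N K1 (arithmeticGalois (modularFunctionFieldFull N) σ • P) x =
      S37B1_ordP N K1 P (S34ACT_act K1 hstab σ⁻¹ x) := by
  have h := S34ACT_ordP K1 hstab N σ P (S34ACT_act K1 hstab σ⁻¹ x)
  rwa [S34ACT_act_act_inv] at h

include hstab in
/-- **Rationality** is preserved by the Galois action. -/
theorem S34ACT_rational (N : ℕ) [NeZero N] (σ : GQ)
    (P : Place Qb (modularFunctionFieldBar N)) (hP : S37LEVEL_IsRational N K1 P) :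
    S37LEVEL_IsRational N K1 (arithmeticGalois (modularFunctionFieldFull N) σ • P) := by
  intro x hx z c hz hzP
  set g := arithmeticGalois (modularFunctionFieldFull N) σ with hg
  -- transport by `σ⁻¹`
  have hx' := S34ACT_mem_F1 K1 hstab N σ⁻¹ hx
  have hz' : ((g⁻¹ • z : modularFunctionFieldBar N) : LaurentSeries Qb) =
      coeffMap (algebraMap K1 Qb) (S34ACT_act K1 hstab σ⁻¹ x) - HahnSeries.C (σ⁻¹ c) := by
    have e : g⁻¹ = arithmeticGalois (modularFunctionFieldFull N) σ⁻¹ := by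
      rw [hg, map_inv]
    rw [e, coe_arithmeticGalois_smul, hz, map_sub, S34ACT_inc_act]
    congr 1
    rw [HahnSeries.C_apply, coeffMap_single, HahnSeries.C_apply]
    rfl
  have hord : (0 < P.ord (g⁻¹ • z) ∨ g⁻¹ • z = 0) := by
    rcases hzP with h | h
    · left
      have := SemilinearAut.ord_smul g⁻¹ (g • P) z
      rw [inv_smul_smul] at this
      rw [this]
      exact h
    · right
      rw [h, smul_zero]
  have hc := hP _ hx' (g⁻¹ • z) (σ⁻¹ c) hz' hord
  have := hstab σ _ hc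
  rwa [show σ (σ⁻¹ c) = c from σ.apply_symm_apply c] at this

/-! ### Automorphisms preserving `A` -/

section Decomposition

variable (A : ValuationSubring Qb)

/-- The restriction of `σ` to `O1 = A ∩ K1`, for `σ` preserving `A`. -/
def S34ACT_resO (σ : GQ) (hσ : ∀ x ∈ A, σ x ∈ A) : S18K_O1 A K1 →+* S18K_O1 A K1 :=
  (S34ACT_res K1 hstab σ).restrict (S18K_O1 A K1) (S18K_O1 A K1) (fun x hx => hσ _ hx)

theorem S34ACT_resO_coe (σ : GQ) (hσ : ∀ x ∈ A, σ x ∈ A) (x : S18K_O1 A K1) :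
    ((S34ACT_resO K1 hstab A σ hσ x : S18K_O1 A K1) : K1) = S34ACT_res K1 hstab σ (x : K1) := rfl

/-- The action preserves the constants of `O`. -/
theorem S34ACT_mem_O (σ : GQ) (hσ : ∀ x ∈ A, σ x ∈ A) {x : LaurentSeries K1}
    (hx : x ∈ S18K_O A K1) : S34ACT_act K1 hstab σ x ∈ S18K_O A K1 := by
  rw [S18K_mem_O] at hx ⊢
  obtain ⟨c, hc, rfl⟩ := hx
  exact ⟨S34ACT_res K1 hstab σ c, hσ _ hc, (S34ACT_act_C K1 hstab σ c).symm⟩

variable [IsDiscreteValuationRing (S18K_O1 A K1)]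

theorem S34ACT_incS_resO (σ : GQ) (hσ : ∀ x ∈ A, σ x ∈ A) (a : LaurentSeries (S18K_O1 A K1)) :
    (S18K_D A K1).incS (coeffMap (S34ACT_resO K1 hstab A σ hσ) a) =
      S34ACT_act K1 hstab σ ((S18K_D A K1).incS a) := by
  unfold S34ACT_act GaussData.incS
  rw [coeffMap_coeffMap, coeffMap_coeffMap]
  exact coeffMap_congr (RingHom.ext fun _ => rfl) _

theorem S34ACT_redS_ne_zero_iff (b : LaurentSeries (S18K_O1 A K1)) :
    (S18K_D A K1).redS b ≠ 0 ↔ ∃ n : ℤ, IsUnit (b.coeff n) := by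
  constructor
  · intro h
    by_contra hcon
    push Not at hcon
    apply h
    ext n
    show (coeffMap (S18K_res A K1) b).coeff n = 0
    rw [coeffMap_coeff, S18K_res_eq_zero_iff, IsLocalRing.mem_maximalIdeal, mem_nonunits_iff]
    exact hcon n
  · rintro ⟨n, hn⟩ h
    have h1 : ((S18K_D A K1).redS b).coeff n = 0 := by rw [h]; rfl
    have h2 : S18K_res A K1 (b.coeff n) = 0 := h1
    rw [S18K_res_eq_zero_iff, IsLocalRing.mem_maximalIdeal, mem_nonunits_iff] at h2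
    exact h2 hn

theorem S34ACT_redS_resO_ne_zero (σ : GQ) (hσ : ∀ x ∈ A, σ x ∈ A)
    {b : LaurentSeries (S18K_O1 A K1)} (hb : (S18K_D A K1).redS b ≠ 0) :
    (S18K_D A K1).redS (coeffMap (S34ACT_resO K1 hstab A σ hσ) b) ≠ 0 := by
  rw [S34ACT_redS_ne_zero_iff] at hb ⊢
  obtain ⟨n, hn⟩ := hb
  refine ⟨n, ?_⟩
  rw [coeffMap_coeff]
  exact hn.map _

/-- The action preserves the Gauss valuation ring. -/
theorem S34ACT_mem_Vring (σ : GQ) (hσ : ∀ x ∈ A, σ x ∈ A) {x : LaurentSeries K1}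
    (hx : x ∈ (S18K_D A K1).Vring) : S34ACT_act K1 hstab σ x ∈ (S18K_D A K1).Vring := by
  obtain ⟨a, b, hb, hab⟩ := hx
  refine ⟨coeffMap (S34ACT_resO K1 hstab A σ hσ) a, coeffMap (S34ACT_resO K1 hstab A σ hσ) b,
    S34ACT_redS_resO_ne_zero K1 hstab A σ hσ hb, ?_⟩
  rw [S34ACT_incS_resO, S34ACT_incS_resO, ← map_mul, hab]

/-- The action preserves the Gauss valuation ring of `F1`. -/
theorem S34ACT_mem_V (N : ℕ) [NeZero N] (σ : GQ) (hσ : ∀ x ∈ A, σ x ∈ A) {x : LaurentSeries K1}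
    (hx : x ∈ S18K_V A K1 N) : S34ACT_act K1 hstab σ x ∈ S18K_V A K1 N := by
  rw [S18K_mem_V] at hx ⊢
  exact ⟨S34ACT_mem_Vring K1 hstab A σ hσ hx.1, S34ACT_mem_F1 K1 hstab N σ hx.2⟩

omit [IsDiscreteValuationRing (S18K_O1 A K1)] in
/-- The action preserves `O[x]` when it fixes `x`. -/
theorem S34ACT_mem_adj (σ : GQ) (hσ : ∀ x ∈ A, σ x ∈ A) (x0 : LaurentSeries K1)
    (hx0 : S34ACT_act K1 hstab σ x0 = x0) {y : LaurentSeries K1}
    (hy : y ∈ adj (S18K_O A K1) x0) : S34ACT_act K1 hstab σ y ∈ adj (S18K_O A K1) x0 := by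
  have h1 : (adj (S18K_O A K1) x0).map (S34ACT_act K1 hstab σ) ≤ adj (S18K_O A K1) x0 := by
    unfold adj
    rw [RingHom.map_closure, Subring.closure_le]
    rintro z ⟨w, hw, rfl⟩
    rcases hw with hw | hw
    · exact Subring.subset_closure (Or.inl (S34ACT_mem_O K1 hstab A σ hσ hw))
    · rw [Set.mem_singleton_iff] at hw
      rw [hw, hx0]
      exact Subring.subset_closure (Or.inr rfl)
  exact h1 ⟨y, hy, rfl⟩

omit [IsDiscreteValuationRing (S18K_O1 A K1)] in
/-- The action preserves the integral closure of `O[x]` in `F1` when it fixes `x`. -/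
theorem S34ACT_mem_icl (N : ℕ) [NeZero N] (σ : GQ) (hσ : ∀ x ∈ A, σ x ∈ A)
    (x0 : LaurentSeries K1) (hx0 : S34ACT_act K1 hstab σ x0 = x0) {y : LaurentSeries K1}
    (hy : y ∈ icl (adj (S18K_O A K1) x0) (S18K_F1 K1 N)) :
    S34ACT_act K1 hstab σ y ∈ icl (adj (S18K_O A K1) x0) (S18K_F1 K1 N) := by
  rw [mem_icl] at hy ⊢
  refine ⟨?_, S34ACT_mem_F1 K1 hstab N σ hy.2⟩
  let φ : adj (S18K_O A K1) x0 →+* adj (S18K_O A K1) x0 :=
    (S34ACT_act K1 hstab σ).restrict (adj (S18K_O A K1) x0) (adj (S18K_O A K1) x0)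
      (fun z hz => S34ACT_mem_adj K1 hstab A σ hσ x0 hx0 hz)
  exact IsIntegral.map_of_comp_eq φ (S34ACT_act K1 hstab σ) (RingHom.ext fun _ => rfl) hy.1

omit [IsDiscreteValuationRing (S18K_O1 A K1)] in
/-- The action preserves the chart `j ≠ ∞`. -/
theorem S34ACT_mem_A0 (N : ℕ) [NeZero N] (σ : GQ) (hσ : ∀ x ∈ A, σ x ∈ A)
    {y : LaurentSeries K1} (hy : y ∈ S18K_A0 A K1 N) :
    S34ACT_act K1 hstab σ y ∈ S18K_A0 A K1 N :=
  S34ACT_mem_icl K1 hstab A N σ hσ (S18K_j K1) (S34ACT_act_jq K1 hstab σ) hy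

omit [IsDiscreteValuationRing (S18K_O1 A K1)] in
/-- The action preserves the chart `j ≠ 0`. -/
theorem S34ACT_mem_Ainf (N : ℕ) [NeZero N] (σ : GQ) (hσ : ∀ x ∈ A, σ x ∈ A)
    {y : LaurentSeries K1} (hy : y ∈ S18K_Ainf A K1 N) :
    S34ACT_act K1 hstab σ y ∈ S18K_Ainf A K1 N := by
  refine S34ACT_mem_icl K1 hstab A N σ hσ (S18K_j K1)⁻¹ ?_ hy
  rw [map_inv₀]
  congr 1
  exact S34ACT_act_jq K1 hstab σ

end Decomposition

/-! ### Inertia -/

section Inertia

variable (A : ValuationSubring Qb) [IsDiscreteValuationRing (S18K_O1 A K1)]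
  (τ : GQ) (hτ : τ ∈ A.inertiaSubgroupIn ℚ)

include hτ in
theorem S34ACT_inertia_mem (x : Qb) (hx : x ∈ A) : τ x ∈ A :=
  (Fermat.Agent.S05_helper5_Inertia.inertia_spec A τ hτ x hx).1

include hτ in
/-- Inertia acts trivially on the residue field of `O1`. -/
theorem S34ACT_inertia_res (x : S18K_O1 A K1) :
    S18K_res A K1 (S34ACT_resO K1 hstab A τ (S34ACT_inertia_mem A τ hτ) x) = S18K_res A K1 x := by
  obtain ⟨h, e⟩ := S34K0_restrict_inertia A K1 hstab τ hτ (x : K1) x.2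
  exact e

include hτ in
theorem S34ACT_inertia_redS (a : LaurentSeries (S18K_O1 A K1)) :
    (S18K_D A K1).redS (coeffMap (S34ACT_resO K1 hstab A τ (S34ACT_inertia_mem A τ hτ)) a) =
      (S18K_D A K1).redS a := by
  unfold GaussData.redS
  rw [coeffMap_coeffMap]
  exact coeffMap_congr (RingHom.ext fun x => S34ACT_inertia_res K1 hstab A τ hτ x) _

include hτ in
/-- **Inertia does not change the Gauss reduction.** -/
theorem S34ACT_inertia_redFun {x : LaurentSeries K1} (hx : x ∈ (S18K_D A K1).Vring) :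
    (S18K_D A K1).redFun (S34ACT_act K1 hstab τ x) = (S18K_D A K1).redFun x := by
  obtain ⟨a, b, hb, hab⟩ := hx
  have hσ := S34ACT_inertia_mem A τ hτ
  have hb' : (S18K_D A K1).redS (coeffMap (S34ACT_resO K1 hstab A τ hσ) b) ≠ 0 := by
    rw [S34ACT_inertia_redS K1 hstab A τ hτ]
    exact hb
  have hab' : (S18K_D A K1).incS (coeffMap (S34ACT_resO K1 hstab A τ hσ) b) *
      S34ACT_act K1 hstab τ x =
      (S18K_D A K1).incS (coeffMap (S34ACT_resO K1 hstab A τ hσ) a) := by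
    rw [S34ACT_incS_resO, S34ACT_incS_resO, ← map_mul, hab]
  rw [(S18K_D A K1).redFun_eq hb' hab', (S18K_D A K1).redFun_eq hb hab,
    S34ACT_inertia_redS K1 hstab A τ hτ, S34ACT_inertia_redS K1 hstab A τ hτ]

include hτ in
/-- **Inertia is trivial modulo `π` on the Gauss valuation ring.** -/
theorem S34ACT_inertia_Vring {x : LaurentSeries K1} (hx : x ∈ (S18K_D A K1).Vring) :
    ∃ y ∈ (S18K_D A K1).Vring, S34ACT_act K1 hstab τ x - x = S18K_π A K1 * y := by
  have hσ := S34ACT_inertia_mem A τ hτ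
  have hx' := S34ACT_mem_Vring K1 hstab A τ hσ hx
  have h0 : (S18K_D A K1).redFun (S34ACT_act K1 hstab τ x - x) = 0 := by
    rw [(S18K_D A K1).redFun_sub hx' hx, S34ACT_inertia_redFun K1 hstab A τ hτ hx, sub_self]
  exact (S18K_D A K1).exists_eq_mul_of_redFun_eq_zero ((S18K_D A K1).Vring.sub_mem hx' hx) h0

include hτ in
/-- The same on the Gauss valuation ring of `F1`. -/
theorem S34ACT_inertia_V (N : ℕ) [NeZero N] {x : LaurentSeries K1} (hx : x ∈ S18K_V A K1 N) :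
    ∃ y ∈ S18K_V A K1 N, S34ACT_act K1 hstab τ x - x = S18K_π A K1 * y := by
  rw [S18K_mem_V] at hx
  obtain ⟨y, hy, e⟩ := S34ACT_inertia_Vring K1 hstab A τ hτ hx.1
  refine ⟨y, (S18K_mem_V A K1 N y).mpr ⟨hy, ?_⟩, e⟩
  have hπ0 : S18K_π A K1 ≠ 0 := (S18K_D A K1).πK_ne_zero
  have hπF : S18K_π A K1 ∈ modularFunctionFieldFullC K1 N := by
    show (S18K_D A K1).πK ∈ modularFunctionFieldFullC K1 N
    have h : (S18K_D A K1).πK
        = algebraMap K1 (LaurentSeries K1) ((S18K_D A K1).inc (S18K_D A K1).π) := by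
      rw [algebraMap_laurentSeries_eq_single]
      rfl
    rw [h]
    exact IntermediateField.algebraMap_mem _ _
  have hy' : y = (S18K_π A K1)⁻¹ * (S34ACT_act K1 hstab τ x - x) := by
    rw [e, ← mul_assoc, inv_mul_cancel₀ hπ0, one_mul]
  rw [hy']
  exact mul_mem (inv_mem hπF) (sub_mem (S34ACT_mem_F1 K1 hstab N τ hx.2) hx.2)

include hτ in
/-- **Inertia is trivial modulo `π` on a saturated chart.**  `V2` is any second ring on which
inertia is trivial modulo `π`; the chart `As` is contained in `V ⊓ V2`, saturated in it, and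
stable under `τ`. -/
theorem S34ACT_inertia_chart (N : ℕ) [NeZero N] (V2 As : Subring (LaurentSeries K1))
    (hV2 : ∀ x ∈ V2, ∃ y ∈ V2, S34ACT_act K1 hstab τ x - x = S18K_π A K1 * y)
    (hle : As ≤ S18K_V A K1 N ⊓ V2)
    (hsat : ∀ v ∈ S18K_V A K1 N ⊓ V2, S18K_π A K1 * v ∈ As → v ∈ As)
    (hstabA : ∀ a ∈ As, S34ACT_act K1 hstab τ a ∈ As) {a : LaurentSeries K1} (ha : a ∈ As) :
    ∃ b ∈ As, S34ACT_act K1 hstab τ a - a = S18K_π A K1 * b := by
  obtain ⟨y, hy, e⟩ := S34ACT_inertia_V K1 hstab A τ hτ N (hle ha).1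
  obtain ⟨y2, hy2, e2⟩ := hV2 a (hle ha).2
  have hπ0 : S18K_π A K1 ≠ 0 := (S18K_D A K1).πK_ne_zero
  have hyy : y = y2 := mul_left_cancel₀ hπ0 (by rw [← e, ← e2])
  refine ⟨y, hsat y ⟨hy, hyy ▸ hy2⟩ ?_, e⟩
  rw [← e]
  exact As.sub_mem (hstabA a ha) ha

/-- Every ideal of the chart containing `π` is stable under an automorphism which is trivial
modulo `π`. -/
theorem S34ACT_inertia_ideal (As : Subring (LaurentSeries K1))
    (φ : LaurentSeries K1 →+* LaurentSeries K1) (π : LaurentSeries K1)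
    (htriv : ∀ a ∈ As, ∃ b ∈ As, φ a - a = π * b)
    (hπ : π ∈ As) (m : Ideal As) (hπm : (⟨π, hπ⟩ : As) ∈ m) (a : As) (ha : a ∈ m) :
    ∃ h : φ (a : LaurentSeries K1) ∈ As, (⟨φ (a : LaurentSeries K1), h⟩ : As) ∈ m := by
  obtain ⟨b, hb, e⟩ := htriv a a.2
  have h1 : φ (a : LaurentSeries K1) = a + π * b := by rw [← e]; ring
  have h2 : φ (a : LaurentSeries K1) ∈ As := by
    rw [h1]
    exact As.add_mem a.2 (As.mul_mem hπ hb)
  refine ⟨h2, ?_⟩
  have h3 : (⟨φ (a : LaurentSeries K1), h2⟩ : As) = a + ⟨π, hπ⟩ * ⟨b, hb⟩ :=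
    Subtype.ext h1
  rw [h3]
  exact m.add_mem ha (m.mul_mem_right _ hπm)

end Inertia

/-! ### Values and centres of places -/

section Places

variable (N : ℕ) [NeZero N]

/-- `x` has the value `c` at the place `P` (level `K1`): `x - c` vanishes at `P`. -/
def S34ACT_Val (P : Place Qb (modularFunctionFieldBar N)) (x : LaurentSeries K1) (c : K1) :
    Prop :=
  x ∈ modularFunctionFieldFullC K1 N ∧
    (x = HahnSeries.C c ∨ 0 < S37B1_ordP N K1 P (x - HahnSeries.C c))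

/-- **Transport of values**: if `x` has the value `c` at `P`, then `σ x` has the value `σ c` at
`σ P`. -/
theorem S34ACT_value (σ : GQ) (P : Place Qb (modularFunctionFieldBar N))
    {x : LaurentSeries K1} {c : K1} (h : S34ACT_Val K1 N P x c) :
    S34ACT_Val K1 N (arithmeticGalois (modularFunctionFieldFull N) σ • P)
      (S34ACT_act K1 hstab σ x) (S34ACT_res K1 hstab σ c) := by
  refine ⟨S34ACT_mem_F1 K1 hstab N σ h.1, ?_⟩
  rcases h.2 with h2 | h2
  · left
    rw [h2, S34ACT_act_C]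
  · right
    rw [← S34ACT_act_C K1 hstab σ c, ← map_sub, S34ACT_ordP]
    exact h2

/-- `ψ` is a value map of the place `P` on the subring `R` of `F1` (the conclusion of the landed
`S37B1_F1`): it is the identity on constants and its kernel is the set of elements of positive
order. -/
def S34ACT_IsValueMap (P : Place Qb (modularFunctionFieldBar N))
    (R : Subring (LaurentSeries K1)) (ψ : R →+* K1) : Prop :=
  (∀ (c : K1) (hc : (HahnSeries.C c : LaurentSeries K1) ∈ R), ψ ⟨HahnSeries.C c, hc⟩ = c) ∧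
    ∀ x : R, (x : LaurentSeries K1) ≠ 0 → (ψ x = 0 ↔ 0 < S37B1_ordP N K1 P x)

/-- The transported value map `σ ∘ ψ ∘ σ⁻¹`. -/
def S34ACT_valueMap (σ : GQ) (R : Subring (LaurentSeries K1))
    (hR : ∀ x ∈ R, S34ACT_act K1 hstab σ⁻¹ x ∈ R) (ψ : R →+* K1) : R →+* K1 :=
  (S34ACT_res K1 hstab σ).comp (ψ.comp ((S34ACT_act K1 hstab σ⁻¹).restrict R R hR))

theorem S34ACT_valueMap_apply (σ : GQ) (R : Subring (LaurentSeries K1))
    (hR : ∀ x ∈ R, S34ACT_act K1 hstab σ⁻¹ x ∈ R) (ψ : R →+* K1) (x : R) :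
    S34ACT_valueMap K1 hstab σ R hR ψ x =
      S34ACT_res K1 hstab σ (ψ ⟨S34ACT_act K1 hstab σ⁻¹ (x : LaurentSeries K1), hR x x.2⟩) :=
  rfl

/-- **Value maps are transported by the Galois action**:
`ev_(σ P) (x) = σ (ev_P (σ⁻¹ x))`. -/
theorem S34ACT_isValueMap_smul (σ : GQ) (P : Place Qb (modularFunctionFieldBar N))
    (R : Subring (LaurentSeries K1)) (hR : ∀ x ∈ R, S34ACT_act K1 hstab σ⁻¹ x ∈ R)
    (ψ : R →+* K1) (hψ : S34ACT_IsValueMap K1 N P R ψ) :
    S34ACT_IsValueMap K1 N (arithmeticGalois (modularFunctionFieldFull N) σ • P) R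
      (S34ACT_valueMap K1 hstab σ R hR ψ) := by
  refine ⟨fun c hc => ?_, fun x hx0 => ?_⟩
  · rw [S34ACT_valueMap_apply]
    have e : S34ACT_act K1 hstab σ⁻¹ (HahnSeries.C c) =
        HahnSeries.C (S34ACT_res K1 hstab σ⁻¹ c) := S34ACT_act_C K1 hstab σ⁻¹ c
    have hc' : (HahnSeries.C (S34ACT_res K1 hstab σ⁻¹ c) : LaurentSeries K1) ∈ R := by
      rw [← e]; exact hR _ hc
    have e2 : (⟨S34ACT_act K1 hstab σ⁻¹ (HahnSeries.C c), hR _ hc⟩ : R) =
        ⟨HahnSeries.C (S34ACT_res K1 hstab σ⁻¹ c), hc'⟩ := Subtype.ext e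
    rw [e2, hψ.1 _ hc']
    apply Subtype.ext
    rw [S34ACT_res_coe, S34ACT_res_coe]
    exact σ.apply_symm_apply _
  · rw [S34ACT_valueMap_apply, S34ACT_ordP' K1 hstab]
    have hx0' : S34ACT_act K1 hstab σ⁻¹ (x : LaurentSeries K1) ≠ 0 := by
      intro h
      apply hx0
      apply S34ACT_act_injective K1 hstab σ⁻¹
      rw [h, map_zero]
    have key := hψ.2 ⟨S34ACT_act K1 hstab σ⁻¹ (x : LaurentSeries K1), hR x x.2⟩ hx0'
    rw [← key]
    constructor
    · intro h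
      have h1 : S34ACT_res K1 hstab σ
          (ψ ⟨S34ACT_act K1 hstab σ⁻¹ (x : LaurentSeries K1), hR x x.2⟩) =
          S34ACT_res K1 hstab σ 0 := by rw [h, map_zero]
      exact (S34ACT_res K1 hstab σ).injective h1
    · intro h
      rw [h, map_zero]

/-- **Centres are preserved by inertia** (horizontal prime form): if every element of the chart
`As` which vanishes at `P` lies in the ideal `m`, and `m` is stable under `τ`, then every element
of `As` which vanishes at `τ P` lies in `m`. -/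
theorem S34ACT_centred_smul (σ : GQ) (P : Place Qb (modularFunctionFieldBar N))
    (As : Subring (LaurentSeries K1)) (hAs : ∀ x ∈ As, S34ACT_act K1 hstab σ⁻¹ x ∈ As)
    (m : Ideal As)
    (hm : ∀ a : As, a ∈ m → ∃ h : S34ACT_act K1 hstab σ (a : LaurentSeries K1) ∈ As,
      (⟨S34ACT_act K1 hstab σ (a : LaurentSeries K1), h⟩ : As) ∈ m)
    (hP : ∀ a : As, 0 < S37B1_ordP N K1 P a → a ∈ m)
    (a : As) (ha : 0 < S37B1_ordP N K1 (arithmeticGalois (modularFunctionFieldFull N) σ • P) a) :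
    a ∈ m := by
  rw [S34ACT_ordP' K1 hstab] at ha
  have h1 := hP ⟨S34ACT_act K1 hstab σ⁻¹ (a : LaurentSeries K1), hAs a a.2⟩ ha
  obtain ⟨h2, h3⟩ := hm _ h1
  have e : (⟨S34ACT_act K1 hstab σ (S34ACT_act K1 hstab σ⁻¹ (a : LaurentSeries K1)), h2⟩ : As)
      = a := Subtype.ext (S34ACT_act_act_inv K1 hstab σ _)
  rw [← e]
  exact h3

/-- Regularity on the chart is preserved. -/
theorem S34ACT_regular_smul (σ : GQ) (P : Place Qb (modularFunctionFieldBar N))
    (As : Subring (LaurentSeries K1)) (hAs : ∀ x ∈ As, S34ACT_act K1 hstab σ⁻¹ x ∈ As)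
    (hP : ∀ a ∈ As, a ≠ 0 → 0 ≤ S37B1_ordP N K1 P a)
    (a : LaurentSeries K1) (ha : a ∈ As) (ha0 : a ≠ 0) :
    0 ≤ S37B1_ordP N K1 (arithmeticGalois (modularFunctionFieldFull N) σ • P) a := by
  rw [S34ACT_ordP' K1 hstab]
  refine hP _ (hAs a ha) ?_
  intro h
  apply ha0
  apply S34ACT_act_injective K1 hstab σ⁻¹
  rw [h, map_zero]

/-- **The centre in value-map form is preserved by inertia**: for a value map `ψ` with values in
`A` and an automorphism `τ` preserving `A` and its maximal ideal, trivial modulo `π` on the chart,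
the value `ev_(τ P)(a) = τ (ψ (τ⁻¹ a))` is a non-unit of `A` iff `ψ a` is. -/
theorem S34ACT_centre_valueMap (A : ValuationSubring Qb) (τ : GQ)
    (hτA : ∀ x : Qb, x ∈ A.nonunits ↔ τ x ∈ A.nonunits)
    (As : Subring (LaurentSeries K1)) (π : LaurentSeries K1) (hπ : π ∈ As)
    (hAs : ∀ x ∈ As, S34ACT_act K1 hstab τ⁻¹ x ∈ As)
    (htriv : ∀ a ∈ As, ∃ b ∈ As, S34ACT_act K1 hstab τ⁻¹ a - a = π * b)
    (ψ : As →+* K1) (hψA : ∀ a : As, ((ψ a : K1) : Qb) ∈ A)
    (hψπ : ((ψ ⟨π, hπ⟩ : K1) : Qb) ∈ A.nonunits) (a : As) :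
    ((S34ACT_valueMap K1 hstab τ As hAs ψ a : K1) : Qb) ∈ A.nonunits ↔
      ((ψ a : K1) : Qb) ∈ A.nonunits := by
  rw [S34ACT_valueMap_apply, S34ACT_res_coe, ← hτA]
  obtain ⟨b, hb, e⟩ := htriv a a.2
  have e1 : (⟨S34ACT_act K1 hstab τ⁻¹ (a : LaurentSeries K1), hAs a a.2⟩ : As) =
      a + ⟨π, hπ⟩ * ⟨b, hb⟩ := by
    apply Subtype.ext
    show S34ACT_act K1 hstab τ⁻¹ (a : LaurentSeries K1) = a + π * b
    rw [← e]; ring
  rw [e1, map_add, map_mul]
  have hmul : (((ψ ⟨π, hπ⟩ * ψ ⟨b, hb⟩ : K1)) : Qb) ∈ A.nonunits := by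
    have : (((ψ ⟨π, hπ⟩ * ψ ⟨b, hb⟩ : K1)) : Qb) =
        ((ψ ⟨π, hπ⟩ : K1) : Qb) * ((ψ ⟨b, hb⟩ : K1) : Qb) := rfl
    rw [this, ValuationSubring.mem_nonunits_iff, map_mul]
    have h1 := (ValuationSubring.mem_nonunits_iff (A := A)).mp hψπ
    have h2 := (A.valuation_le_one_iff _).mpr (hψA ⟨b, hb⟩)
    calc A.valuation ((ψ ⟨π, hπ⟩ : K1) : Qb) * A.valuation ((ψ ⟨b, hb⟩ : K1) : Qb)
        ≤ A.valuation ((ψ ⟨π, hπ⟩ : K1) : Qb) * 1 := by gcongr
      _ < 1 := by rw [mul_one]; exact h1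
  have hcoe : (((ψ a + ψ ⟨π, hπ⟩ * ψ ⟨b, hb⟩ : K1)) : Qb) =
      ((ψ a : K1) : Qb) + (((ψ ⟨π, hπ⟩ * ψ ⟨b, hb⟩ : K1)) : Qb) := rfl
  rw [hcoe]
  rw [ValuationSubring.mem_nonunits_iff, ValuationSubring.mem_nonunits_iff] at *
  constructor
  · intro h
    have := A.valuation.map_sub_le (x := ((ψ a : K1) : Qb) + (((ψ ⟨π, hπ⟩ * ψ ⟨b, hb⟩ : K1)) : Qb))
      (y := (((ψ ⟨π, hπ⟩ * ψ ⟨b, hb⟩ : K1)) : Qb)) (g := A.valuation
        (((ψ a : K1) : Qb) + (((ψ ⟨π, hπ⟩ * ψ ⟨b, hb⟩ : K1)) : Qb)) ⊔ A.valuation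
        (((ψ ⟨π, hπ⟩ * ψ ⟨b, hb⟩ : K1)) : Qb)) le_sup_left le_sup_right
    rw [add_sub_cancel_right] at this
    exact lt_of_le_of_lt this (max_lt h hmul)
  · intro h
    exact lt_of_le_of_lt (A.valuation.map_add _ _) (max_lt h hmul)

end Places

end Fermat.Agent.S34_helper21_ACT
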