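import Mathlib
import Fermat.Agent.S34_Contracts2
import Fermat.Agent.S34_helper21_ACT

/-!
# S34, X-LOCGEN: the typed sub-contracts (helper7, owner of X-LOCGEN)

Definitions of `Prop`s only.  `S34K_LocGen` (owner contract, `S34_Contracts2`) is assembled in
`S34_helper7_LOCGEN` from

* `S34LGK_Node`    (X-L2, helper3): node coordinates at a crossing point, for every bound `B`, in
  the STOP / GO form of helper17's `S34NA_iterate_chart`;
* `S34LGK_VM`      (value map of a rational centred place on the local ring);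
* `S34LGK_Ord`     (X-LOCGEN-ORD, helper26): exact orders of `T - C a` at the centred places;
* `S34LGK_BranchB` (X-LOCGEN-B, helper11): a place which is deep at every stage is fixed by
  inertia;
* `S34LGK_Red`     (X-LOCGEN-RED): the reduction `≡ 1 mod π (V1 ⊓ V2)` of the local generator.
-/

set_option autoImplicit false

open AlgebraicCurve ModularCurve HahnSeries IntermediateField

noncomputable section

namespace Fermat.Agent.S34_helper7_LGDefs

open Fermat.Agent.S18_helper9_CDefs Fermat.Agent.S18_helper25_COREDefs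
  Fermat.Agent.S34_helper12_CDefs Fermat.Agent.S34_helper6_RED Fermat.Agent.S34_helper5_K0
  Fermat.Agent.S18_helper3_LOCRING Fermat.Agent.S37_helper4_B1Defs
  Fermat.Agent.S37_helper5_LEVEL Fermat.Agent.S34_Contracts Fermat.Agent.S34_helper21_ACT

local notation "Qb" => AlgebraicClosure ℚ
local notation "GQ" => (AlgebraicClosure ℚ ≃ₐ[ℚ] AlgebraicClosure ℚ)

variable (N : ℕ) [NeZero N] (A : ValuationSubring Qb) (K1 : IntermediateField ℚ Qb)
  (hstab : ∀ σ : GQ, ∀ x ∈ K1, σ x ∈ K1)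

/-- **Node coordinates** at the prime `m` of the chart `X` (level `K1`): two inertia-fixed
elements `T, S` of the chart, `T` a unit of `V1`, `S` a unit of `V2`, with
`T S = ϖ ^ k c` (`ϖ` an inertia-fixed nonunit constant, `c` in the local ring, ARBITRARY) and
`m = (π, T, S)` locally. -/
structure S34LGK_NodeData [IsDiscreteValuationRing (S18K_O1 A K1)]
    (V2 X : Subring (LaurentSeries K1)) (m : Ideal X) [m.IsPrime]
    (ϖ : K1) (k : ℕ) (T S c : LaurentSeries K1) : Prop where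
  ϖ_fix : ∀ τ : GQ, τ ∈ A.inertiaSubgroupIn ℚ → τ (ϖ : Qb) = (ϖ : Qb)
  ϖ_nonunit : (ϖ : Qb) ∈ A.nonunits
  ϖ_ne : ϖ ≠ 0
  T_mem : T ∈ X
  S_mem : S ∈ X
  c_mem : c ∈ locRing X m
  mul_eq : T * S = HahnSeries.C (ϖ ^ k) * c
  T_fix : ∀ τ : GQ, τ ∈ A.inertiaSubgroupIn ℚ → S34ACT_act K1 hstab τ T = T
  S_fix : ∀ τ : GQ, τ ∈ A.inertiaSubgroupIn ℚ → S34ACT_act K1 hstab τ S = S
  T_ne : T ≠ 0
  T_inv : T⁻¹ ∈ S18K_V A K1 N
  S_ne : S ≠ 0
  S_inv : S⁻¹ ∈ V2
  gen : ∀ hπ : S18K_π A K1 ∈ X,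
    IsLocalRing.maximalIdeal (locRing X m) =
      Ideal.span ({incl X m ⟨S18K_π A K1, hπ⟩, incl X m ⟨T, T_mem⟩, incl X m ⟨S, S_mem⟩} :
        Set (locRing X m))

/-- The place `P` has **type `(ϖ ^ k, Z)` with value `a`**: `a ∈ K1` is the value of the
coordinate `Z` at `P` and `ϖ ^ k = a ρ` with `ρ` a nonunit (`v(a) < v(ϖ ^ k)`). -/
def S34LGK_Type (P : Place Qb (modularFunctionFieldBar N)) (ϖ : K1) (k : ℕ)
    (Z : LaurentSeries K1) (a : K1) : Prop :=
  S34K_ValueAt N K1 P Z (a : Qb) ∧ ∃ ρ : K1, ϖ ^ k = a * ρ ∧ (ρ : Qb) ∈ A.nonunits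

/-- The place `P` is **deep** at the stage `(ϖ ^ k, T, S)`: the values of both coordinates are
divisible by `ϖ ^ k`. -/
def S34LGK_Deep (P : Place Qb (modularFunctionFieldBar N)) (ϖ : K1) (k : ℕ)
    (T S : LaurentSeries K1) : Prop :=
  ∃ a b : K1, S34K_ValueAt N K1 P T (a : Qb) ∧ S34K_ValueAt N K1 P S (b : Qb) ∧
    (∃ a' : K1, (a' : Qb) ∈ A ∧ a = ϖ ^ k * a') ∧ ∃ b' : K1, (b' : Qb) ∈ A ∧ b = ϖ ^ k * b'

variable [IsDiscreteValuationRing (S18K_O1 A K1)]

/-- **X-L2** (node coordinates, STOP / GO): at every crossing point `m` of the chart `X` and for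
every bound `B` there are node coordinates with `c` a unit of the local ring (STOP) or with
`B ≤ k` (GO). -/
def S34LGK_Node (V2 X : Subring (LaurentSeries K1)) : Prop :=
  ∀ (hπ : S18K_π A K1 ∈ X) (m : Ideal X) (hm : m.IsMaximal), (⟨S18K_π A K1, hπ⟩ : X) ∈ m →
    S34K_Thru (S18K_π A K1) (S18K_V A K1 N) X m → S34K_Thru (S18K_π A K1) V2 X m →
  ∀ B : ℕ, ∃ (ϖ : K1) (k : ℕ) (T S c : LaurentSeries K1),
    haveI := hm.isPrime
    S34LGK_NodeData N A K1 hstab V2 X m ϖ k T S c ∧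
      ((c ≠ 0 ∧ c⁻¹ ∈ locRing X m) ∨ B ≤ k)

/-- **The value map** of a rational place centred at `m`, on the local ring at `m`. -/
def S34LGK_VM (X : Subring (LaurentSeries K1)) : Prop :=
  ∀ (hπ : S18K_π A K1 ∈ X) (m : Ideal X) (hm : m.IsMaximal), (⟨S18K_π A K1, hπ⟩ : X) ∈ m →
  ∀ P : Place Qb (modularFunctionFieldBar N), S37LEVEL_IsRational N K1 P →
    S34K_Centred N A K1 X m P →
    haveI := hm.isPrime
    ∃ ψ : locRing X m →+* K1,
      (∀ x : locRing X m, S34K_ValueAt N K1 P (x : LaurentSeries K1) ((ψ x : K1) : Qb)) ∧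
      (∀ x : locRing X m, ((ψ x : K1) : Qb) ∈ A) ∧
      (∀ x : locRing X m, x ∈ IsLocalRing.maximalIdeal (locRing X m) →
        ((ψ x : K1) : Qb) ∈ A.nonunits) ∧
      ∀ (c : K1) (hc : (HahnSeries.C c : LaurentSeries K1) ∈ locRing X m),
        ψ ⟨HahnSeries.C c, hc⟩ = c

/-- **X-LOCGEN-ORD** (exact orders): for node coordinates at a crossing point `m` and a
rational place `P` centred at `m` of type `(ϖ ^ k, T)` with value `a`, the function `T - C a` is
nonzero, has order `1` at `P` and order `0` at every other place centred at `m`; and the same for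
the coordinate `S`. -/
def S34LGK_Ord (V2 X : Subring (LaurentSeries K1)) : Prop :=
  ∀ (hπ : S18K_π A K1 ∈ X) (m : Ideal X) (hm : m.IsMaximal), (⟨S18K_π A K1, hπ⟩ : X) ∈ m →
    S34K_Thru (S18K_π A K1) (S18K_V A K1 N) X m → S34K_Thru (S18K_π A K1) V2 X m →
  ∀ (ϖ : K1) (k : ℕ) (T S c : LaurentSeries K1),
    (haveI := hm.isPrime; S34LGK_NodeData N A K1 hstab V2 X m ϖ k T S c) →
  ∀ P : Place Qb (modularFunctionFieldBar N), S37LEVEL_IsRational N K1 P →
    S34K_Centred N A K1 X m P →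
    (∀ a : K1, S34LGK_Type N A K1 P ϖ k T a →
      T - HahnSeries.C a ≠ 0 ∧
      ∀ P' : Place Qb (modularFunctionFieldBar N), S34K_Centred N A K1 X m P' →
        (P' = P → S37B1_ordP N K1 P' (T - HahnSeries.C a) = 1) ∧
        (P' ≠ P → S37B1_ordP N K1 P' (T - HahnSeries.C a) = 0)) ∧
    (∀ b : K1, S34LGK_Type N A K1 P ϖ k S b →
      S - HahnSeries.C b ≠ 0 ∧
      ∀ P' : Place Qb (modularFunctionFieldBar N), S34K_Centred N A K1 X m P' →
        (P' = P → S37B1_ordP N K1 P' (S - HahnSeries.C b) = 1) ∧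
        (P' ≠ P → S37B1_ordP N K1 P' (S - HahnSeries.C b) = 0))

/-- **X-LOCGEN-B** (dichotomy branch (B)): a rational place centred at a crossing point which is
deep at stages of arbitrarily large exponent is fixed by inertia. -/
def S34LGK_BranchB (V2 X : Subring (LaurentSeries K1)) : Prop :=
  ∀ (hπ : S18K_π A K1 ∈ X) (m : Ideal X) (hm : m.IsMaximal), (⟨S18K_π A K1, hπ⟩ : X) ∈ m →
    S34K_Thru (S18K_π A K1) (S18K_V A K1 N) X m → S34K_Thru (S18K_π A K1) V2 X m →
  ∀ P : Place Qb (modularFunctionFieldBar N), S37LEVEL_IsRational N K1 P →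
    S34K_Centred N A K1 X m P →
    (∀ n : ℕ, ∃ (ϖ : K1) (k : ℕ) (T S c : LaurentSeries K1), n ≤ k ∧
      (haveI := hm.isPrime; S34LGK_NodeData N A K1 hstab V2 X m ϖ k T S c) ∧
      S34LGK_Deep N A K1 P ϖ k T S) →
    ∀ τ : GQ, τ ∈ A.inertiaSubgroupIn ℚ → S34R_g N τ • P = P

/-- **X-LOCGEN-RED** (the reduction of the local generator, no places): for node coordinates at
a crossing point and a nonunit constant `a` with `ϖ ^ k = a ρ`, `ρ` a nonunit, the cross ratio of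
`T - a, T - τ a, T - τ' a, T - τ' τ a` is `≡ 1 mod π (V1 ⊓ V2)` (multiplicative form); and the
same for the coordinate `S`. -/
def S34LGK_Red (V2 X : Subring (LaurentSeries K1)) : Prop :=
  ∀ τ' τ : GQ, τ' ∈ A.inertiaSubgroupIn ℚ → τ ∈ A.inertiaSubgroupIn ℚ →
  ∀ (hπ : S18K_π A K1 ∈ X) (m : Ideal X) (hm : m.IsMaximal), (⟨S18K_π A K1, hπ⟩ : X) ∈ m →
    S34K_Thru (S18K_π A K1) (S18K_V A K1 N) X m → S34K_Thru (S18K_π A K1) V2 X m →
  ∀ (ϖ : K1) (k : ℕ) (T S c : LaurentSeries K1),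
    (haveI := hm.isPrime; S34LGK_NodeData N A K1 hstab V2 X m ϖ k T S c) →
  ∀ a ρ : K1, (a : Qb) ∈ A.nonunits → (ρ : Qb) ∈ A.nonunits → ϖ ^ k = a * ρ →
    (∃ c' ∈ (S18K_V A K1 N ⊓ V2 : Subring (LaurentSeries K1)),
      (T - HahnSeries.C a) *
          (T - HahnSeries.C (S34ACT_res K1 hstab τ' (S34ACT_res K1 hstab τ a))) =
        (1 + S18K_π A K1 * c') *
          ((T - HahnSeries.C (S34ACT_res K1 hstab τ a)) *
            (T - HahnSeries.C (S34ACT_res K1 hstab τ' a)))) ∧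
    (∃ c' ∈ (S18K_V A K1 N ⊓ V2 : Subring (LaurentSeries K1)),
      (S - HahnSeries.C a) *
          (S - HahnSeries.C (S34ACT_res K1 hstab τ' (S34ACT_res K1 hstab τ a))) =
        (1 + S18K_π A K1 * c') *
          ((S - HahnSeries.C (S34ACT_res K1 hstab τ a)) *
            (S - HahnSeries.C (S34ACT_res K1 hstab τ' a))))

end Fermat.Agent.S34_helper7_LGDefs
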