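import Mathlib
import Fermat.Agent.S34_helper17_PLW
import Fermat.Agent.S34_helper7_LGDefs
import Fermat.Agent.S34_helper2_HARTOGSK

/-!
# S34, X-LOCGEN (VM): the value map of a rational centred place (helper17)

* `S34VM_nonneg_of_centred` : a place centred at `m` is nonnegative on the local ring at `m`;
* `S34VM_main`  : the contract `S34LGK_VM` of `S34_helper7_LGDefs` for every subring
  `O ≤ X ⊆ F1`;
* `S34VM_chart` : the same for a chart of a two-valuation setup.
-/

set_option autoImplicit false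
set_option linter.style.haveILetI false
set_option linter.unusedSectionVars false
set_option linter.unusedVariables false
set_option synthInstance.maxHeartbeats 400000
set_option maxHeartbeats 1600000

open AlgebraicCurve ModularCurve HahnSeries IntermediateField

noncomputable section

namespace Fermat.Agent.S34_helper17_VM

open Fermat.Agent.S18_helper9_CDefs Fermat.Agent.S18_helper25_COREDefs
  Fermat.Agent.S18_helper13_GAUSS Fermat.Agent.S34_helper12_CDefs
  Fermat.Agent.S18_helper3_LOCRING Fermat.Agent.S37_helper4_B1Defs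
  Fermat.Agent.S37_helper5_LEVEL Fermat.Agent.S34_Contracts
  Fermat.Agent.S18_helper19_PLACEMOD Fermat.Agent.S18_helper19_PLACEUNR
  Fermat.Agent.S34_helper2_HARTOGS Fermat.Agent.S34_helper2_HARTOGSK
  Fermat.Agent.S34_helper17_PLW Fermat.Agent.S34_helper7_LGDefs

local notation "Qb" => AlgebraicClosure ℚ

variable (N : ℕ) [NeZero N] (A : ValuationSubring Qb) (K1 : IntermediateField ℚ Qb)

/-- A function with a value at `P` lies in the valuation ring of `P`; it is a unit there if the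
value is not zero. -/
theorem S34VM_of_valueAt (P : Place Qb (modularFunctionFieldBar N)) (a : LaurentSeries K1)
    (ha : a ∈ modularFunctionFieldFullC K1 N) (c : Qb) (h : S34K_ValueAt N K1 P a c) :
    0 ≤ S37B1_ordP N K1 P a ∧ (c ≠ 0 → S37B1_ordP N K1 P a = 0) := by
  obtain ⟨z, hz, hzP⟩ := h
  have hzN : S18A3_IsN P z := by
    rcases hzP with h | h
    · rw [h]
      exact ⟨P.toValuationSubring.zero_mem, Or.inl rfl⟩
    · exact S18A3_isN_of_ord_pos P h
  have e : S18A3C_inc N (algebraMap K1 Qb) ⟨a, ha⟩ =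
      z + algebraMap Qb (modularFunctionFieldBar N) c := by
    apply Subtype.ext
    show coeffMap (algebraMap K1 Qb) a = (z : LaurentSeries Qb) + algebraMap Qb (LaurentSeries Qb) c
    rw [hz, ← Fermat.Agent.S18_helper26_CONST.S18P15_C_eq_algebraMap]
    ring
  have hmem : S18A3C_inc N (algebraMap K1 Qb) ⟨a, ha⟩ ∈ P.toValuationSubring := by
    rw [e]
    exact P.toValuationSubring.add_mem _ _ hzN.1 (P.algebraMap_mem' c)
  have h1 := S37B1_ordP_eq N K1 P ⟨a, ha⟩
  have h1' : S37B1_ordP N K1 P a = P.ord (S18A3C_inc N (algebraMap K1 Qb) ⟨a, ha⟩) := h1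
  refine ⟨?_, fun hc0 => ?_⟩
  · rw [h1']
    exact Fermat.Agent.S24_helper6_A2.ord_nonneg_of_mem P hmem
  · rw [h1']
    rcases S18A3_isU_or_isN P hmem with hu | hn
    · exact S18A3_ord_of_isU P hu
    · exfalso
      have h2 := S18A3_isN_add P hn (S18A3_isN_neg P hzN)
      have h3 : S18A3C_inc N (algebraMap K1 Qb) ⟨a, ha⟩ + -z =
          algebraMap Qb (modularFunctionFieldBar N) c := by
        rw [e]
        ring
      rw [h3] at h2
      have hinj : Function.Injective (algebraMap Qb (modularFunctionFieldBar N)) :=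
        (algebraMap Qb (modularFunctionFieldBar N)).injective
      have hne : algebraMap Qb (modularFunctionFieldBar N) c ≠ 0 :=
        fun h => hc0 (hinj (h.trans (map_zero _).symm))
      have h4 := S18A3_ord_pos_of_isN P h2 hne
      have h5 := Fermat.Agent.S24_helper6_A2.ord_algebraMap_eq_zero P c
      rw [h5] at h4
      exact lt_irrefl 0 h4

theorem S34VM_ordP_mul (P : Place Qb (modularFunctionFieldBar N)) {x y : LaurentSeries K1}
    (hx : x ∈ modularFunctionFieldFullC K1 N)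
    (hy : y ∈ modularFunctionFieldFullC K1 N) (hx0 : x ≠ 0) (hy0 : y ≠ 0) :
    S37B1_ordP N K1 P (x * y) = S37B1_ordP N K1 P x + S37B1_ordP N K1 P y := by
  have h1 := S37B1_ordP_eq N K1 P ⟨x, hx⟩
  have h2 := S37B1_ordP_eq N K1 P ⟨y, hy⟩
  have h3 := S37B1_ordP_eq N K1 P (⟨x, hx⟩ * ⟨y, hy⟩)
  have hx' : (⟨x, hx⟩ : modularFunctionFieldFullC K1 N) ≠ 0 :=
    fun h => hx0 (congrArg Subtype.val h)
  have hy' : (⟨y, hy⟩ : modularFunctionFieldFullC K1 N) ≠ 0 :=
    fun h => hy0 (congrArg Subtype.val h)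
  have i1 : S18A3C_inc N (algebraMap K1 Qb) ⟨x, hx⟩ ≠ 0 :=
    (map_ne_zero_iff _ (S18A3C_inc N (algebraMap K1 Qb)).injective).2 hx'
  have i2 : S18A3C_inc N (algebraMap K1 Qb) ⟨y, hy⟩ ≠ 0 :=
    (map_ne_zero_iff _ (S18A3C_inc N (algebraMap K1 Qb)).injective).2 hy'
  rw [map_mul, Place.ord_mul P i1 i2] at h3
  simp only [MulMemClass.coe_mul] at h1 h2 h3
  rw [h3, h1, h2]

variable [IsDiscreteValuationRing (S18K_O1 A K1)]

/-- **A place centred at `m` is nonnegative on the local ring at `m`.** -/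
theorem S34VM_nonneg_of_centred (X : Subring (LaurentSeries K1))
    (hXF : ∀ a ∈ X, a ∈ S18K_F1 K1 N) (m : Ideal X) [hm : m.IsPrime]
    (P : Place Qb (modularFunctionFieldBar N)) (hP : S34K_Centred N A K1 X m P) :
    S34PW_NonnegAt N K1 X m P := by
  rintro x ⟨a, c, hc, hxc⟩ hx0
  have hc0 : (c : LaurentSeries K1) ≠ 0 := coe_ne_zero_of_notMem X m hc
  have hxF : x ∈ modularFunctionFieldFullC K1 N := by
    have : x = (a : LaurentSeries K1) * (c : LaurentSeries K1)⁻¹ := by
      rw [← hxc, mul_assoc, mul_inv_cancel₀ hc0, mul_one]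
    rw [this]
    exact mul_mem (hXF a a.2) (inv_mem (hXF c c.2))
  obtain ⟨va, hvaA, hva⟩ := hP.1 a
  obtain ⟨vc, hvcA, hvc⟩ := hP.1 c
  have hvc0 : vc ≠ 0 := by
    intro h0
    apply hc
    rw [hP.2 c vc hvcA hvc, h0, ValuationSubring.mem_nonunits_iff, map_zero]
    exact zero_lt_one
  have h1 := (S34VM_of_valueAt N K1 P a (hXF a a.2) va hva).1
  have h2 := (S34VM_of_valueAt N K1 P c (hXF c c.2) vc hvc).2 hvc0
  have h3 := S34VM_ordP_mul N K1 P hxF (hXF c c.2) hx0 hc0
  rw [hxc, h2, add_zero] at h3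
  rw [← h3]
  exact h1

/-- **X-LOCGEN (VM)**: the contract `S34LGK_VM` for every subring `O ≤ X ⊆ F1`. -/
theorem S34VM_main (X : Subring (LaurentSeries K1))
    (hXF : ∀ a ∈ X, a ∈ S18K_F1 K1 N) (hO : S18K_O A K1 ≤ X) :
    S34LGK_VM N A K1 X := by
  intro hπ m hm hπm P hrat hP
  haveI := hm.isPrime
  obtain ⟨ψ, hψ1, -, hval, hmaxiff, hvalAt, -⟩ :=
    S34PW_valueMap N A K1 X hXF hO hπ m hm hπm P hrat
      (S34VM_nonneg_of_centred N A K1 X hXF m P hP)
  exact ⟨ψ, hvalAt, fun x => hval x, fun x hx => (hmaxiff x).1 hx, hψ1⟩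

/-- **X-LOCGEN (VM)** for a chart of a two-valuation setup. -/
theorem S34VM_chart {V2 A0 Ainf X : Subring (LaurentSeries K1)} {j x : LaurentSeries K1}
    (S : S34C_Setup2 (S18K_O A K1) (S18K_π A K1) j (S18K_F1 K1 N) (S18K_V A K1 N) V2 A0 Ainf)
    (hC : Chart (S18K_O A K1) (S18K_π A K1) x (S18K_F1 K1 N) (S18K_V A K1 N ⊓ V2) X) :
    S34LGK_VM N A K1 X :=
  S34VM_main N A K1 X (S34HK_le_F1 hC) (S34HK_O_le S hC)

end Fermat.Agent.S34_helper17_VM
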