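import Mathlib
import Fermat.Agent.S34_Contracts2
import Fermat.Agent.S34_helper21_ACT

/-!
# S34, X-PLACES (b): inertia preserves the centre of a place

`S34CI_centredInert` : the contract `S34K_CentredInert N A K1 X` of `S34_Contracts2` for a chart
`X` which is contained in `V1 ⊓ V2`, saturated in it and stable under inertia, at a Galois-stable
level `K1`, given `S34K_Inert` for `V2`.  `S34CI_A0` / `S34CI_Ainf` : the two charts of a
`S34C_Setup2` on the S18K carriers.
-/

set_option autoImplicit false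
set_option linter.style.haveILetI false
set_option linter.unusedSectionVars false
set_option linter.unusedVariables false
set_option synthInstance.maxHeartbeats 400000
set_option maxHeartbeats 1600000

open AlgebraicCurve ModularCurve HahnSeries IntermediateField
open Fermat.Agent.S18_helper25_COREDefs Fermat.Agent.S18_helper13_GAUSS
  Fermat.Agent.S18_helper9_CDefs Fermat.Agent.S18_helper19_PLACEMOD
  Fermat.Agent.S37_helper4_B1Defs Fermat.Agent.S37_helper5_LEVEL
  Fermat.Agent.S34_helper5_K0 Fermat.Agent.S34_helper21_ACT Fermat.Agent.S34_Contracts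
  Fermat.Agent.S34_helper12_CDefs Fermat.Agent.S34_helper6_RED

noncomputable section

namespace Fermat.Agent.S34_helper21_CI

local notation "Qb" => AlgebraicClosure ℚ
local notation "GQ" => (AlgebraicClosure ℚ ≃ₐ[ℚ] AlgebraicClosure ℚ)

variable (N : ℕ) [NeZero N] (A : ValuationSubring Qb) (K1 : IntermediateField ℚ Qb)
  (hstab : ∀ σ : GQ, ∀ x ∈ K1, σ x ∈ K1)

/-- **Transport of values** in the shape of the contracts: if `a` has the value `c` at `P` then
`σ a` has the value `σ c` at `σ P`. -/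
theorem S34CI_valueAt (σ : GQ) (P : Place Qb (modularFunctionFieldBar N))
    {a : LaurentSeries K1} {c : Qb} (h : S34K_ValueAt N K1 P a c) :
    S34K_ValueAt N K1 (S34R_g N σ • P) (S34ACT_act K1 hstab σ a) (σ c) := by
  obtain ⟨z, hz, hzP⟩ := h
  refine ⟨S34R_g N σ • z, ?_, ?_⟩
  · show ((arithmeticGalois (modularFunctionFieldFull N) σ • z : modularFunctionFieldBar N) :
      LaurentSeries Qb) = _
    rw [coe_arithmeticGalois_smul, hz, map_sub, S34ACT_inc_act]
    congr 1
    rw [HahnSeries.C_apply, coeffMap_single, HahnSeries.C_apply]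
    rfl
  · rcases hzP with h0 | h0
    · left
      rw [h0, smul_zero]
    · right
      rw [SemilinearAut.ord_smul]
      exact h0

/-- The same with `σ⁻¹` on the other side. -/
theorem S34CI_valueAt' (σ : GQ) (P : Place Qb (modularFunctionFieldBar N))
    {a : LaurentSeries K1} {c : Qb} (h : S34K_ValueAt N K1 (S34R_g N σ • P) a c) :
    S34K_ValueAt N K1 P (S34ACT_act K1 hstab σ⁻¹ a) (σ⁻¹ c) := by
  have h1 := S34CI_valueAt N K1 hstab σ⁻¹ (S34R_g N σ • P) h
  have e : S34R_g N σ⁻¹ • S34R_g N σ • P = P := by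
    show arithmeticGalois (modularFunctionFieldFull N) σ⁻¹ •
      arithmeticGalois (modularFunctionFieldFull N) σ • P = P
    rw [map_inv, inv_smul_smul]
  rwa [e] at h1

variable [IsDiscreteValuationRing (S18K_O1 A K1)]

/-- The uniformiser, as an element of `ℚ̄`, is a nonunit of `A`. -/
theorem S34CI_pi_nonunit :
    (((S18K_D A K1).inc (S18K_D A K1).π : K1) : Qb) ∈ A.nonunits := by
  have h1 : S18K_res A K1 (S18K_D A K1).π = 0 := (S18K_D A K1).res_π
  rw [S18K_res, RingHom.comp_apply, IsLocalRing.residue_eq_zero_iff] at h1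
  have h2 : (S18K_incl A K1 (S18K_D A K1).π : A) ∈ IsLocalRing.maximalIdeal A := h1
  rw [IsLocalRing.mem_maximalIdeal, mem_nonunits_iff] at h2
  rw [ValuationSubring.mem_nonunits_iff]
  by_contra hge
  rw [not_lt] at hge
  have hle : A.valuation ((S18K_incl A K1 (S18K_D A K1).π : A) : Qb) ≤ 1 :=
    (A.valuation_le_one_iff _).mpr (S18K_incl A K1 (S18K_D A K1).π).2
  have heq : A.valuation ((S18K_incl A K1 (S18K_D A K1).π : A) : Qb) = 1 :=
    le_antisymm hle hge
  exact h2 ((ValuationSubring.valuation_eq_one_iff A _).mpr heq)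

/-- The value of `π` at any place is the uniformiser. -/
theorem S34CI_valueAt_pi (P : Place Qb (modularFunctionFieldBar N)) :
    S34K_ValueAt N K1 P (S18K_π A K1) (((S18K_D A K1).inc (S18K_D A K1).π : K1) : Qb) := by
  refine ⟨0, ?_, Or.inl rfl⟩
  show (0 : LaurentSeries Qb) = _
  have : S18K_π A K1 = HahnSeries.C ((S18K_D A K1).inc (S18K_D A K1).π) := rfl
  rw [this, HahnSeries.C_apply, coeffMap_single, ← HahnSeries.C_apply]
  exact (sub_self _).symm

include hstab in
/-- **X-PLACES (b)**: inertia preserves the centre. -/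
theorem S34CI_centredInert (V2 X : Subring (LaurentSeries K1))
    (hInert : S34K_Inert A K1 hstab V2)
    (hle : X ≤ S18K_V A K1 N ⊓ V2)
    (hsat : ∀ v ∈ (S18K_V A K1 N ⊓ V2 : Subring (LaurentSeries K1)), S18K_π A K1 * v ∈ X → v ∈ X)
    (hstabX : ∀ τ : GQ, τ ∈ A.inertiaSubgroupIn ℚ → ∀ a ∈ X, S34ACT_act K1 hstab τ a ∈ X)
    (hπ : S18K_π A K1 ∈ X) :
    S34K_CentredInert N A K1 X := by
  intro τ hτ m P hP
  have hτ' : τ⁻¹ ∈ A.inertiaSubgroupIn ℚ := Subgroup.inv_mem _ hτ
  have htriv : ∀ a ∈ X, ∃ b ∈ X, S34ACT_act K1 hstab τ⁻¹ a - a = S18K_π A K1 * b :=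
    fun a ha => S34ACT_inertia_chart K1 hstab A τ⁻¹ hτ' N V2 X
      (fun x hx => (hInert τ⁻¹ hτ' x hx).2) hle hsat (hstabX τ⁻¹ hτ') ha
  -- `π ∈ m`
  have hπm : (⟨S18K_π A K1, hπ⟩ : X) ∈ m :=
    (hP.2 ⟨S18K_π A K1, hπ⟩ _ (A.nonunits_le (S34CI_pi_nonunit A K1))
      (S34CI_valueAt_pi N A K1 P)).mpr (S34CI_pi_nonunit A K1)
  refine ⟨fun a => ?_, fun a c hc hval => ?_⟩
  · obtain ⟨c', hc', hval'⟩ := hP.1 ⟨S34ACT_act K1 hstab τ⁻¹ (a : LaurentSeries K1),
      hstabX τ⁻¹ hτ' a a.2⟩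
    refine ⟨τ c', S34ACT_inertia_mem A τ hτ c' hc', ?_⟩
    have := S34CI_valueAt N K1 hstab τ P hval'
    rwa [S34ACT_act_act_inv] at this
  · have hval' := S34CI_valueAt' N K1 hstab τ P hval
    have hc' : τ⁻¹ c ∈ A := S34ACT_inertia_mem A τ⁻¹ hτ' c hc
    have key := hP.2 ⟨S34ACT_act K1 hstab τ⁻¹ (a : LaurentSeries K1),
      hstabX τ⁻¹ hτ' a a.2⟩ (τ⁻¹ c) hc' hval'
    -- nonunits
    have hnu : τ⁻¹ c ∈ A.nonunits ↔ c ∈ A.nonunits := by
      have h1 := (Fermat.Agent.S05_helper5_Inertia.inertia_spec A τ⁻¹ hτ' c hc).2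
      rw [ValuationSubring.mem_nonunits_iff] at h1
      rw [ValuationSubring.mem_nonunits_iff, ValuationSubring.mem_nonunits_iff]
      constructor
      · intro h
        have := A.valuation.map_sub_le (x := τ⁻¹ c) (y := τ⁻¹ c - c)
          (g := max (A.valuation (τ⁻¹ c)) (A.valuation (τ⁻¹ c - c))) (le_max_left _ _)
          (le_max_right _ _)
        rw [sub_sub_cancel] at this
        exact lt_of_le_of_lt this (max_lt h h1)
      · intro h
        have e : τ⁻¹ c = (τ⁻¹ c - c) + c := by ring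
        rw [e]
        exact lt_of_le_of_lt (A.valuation.map_add _ _) (max_lt h1 h)
    -- the ideal
    obtain ⟨b, hb, e⟩ := htriv a a.2
    have e1 : (⟨S34ACT_act K1 hstab τ⁻¹ (a : LaurentSeries K1), hstabX τ⁻¹ hτ' a a.2⟩ : X) =
        a + ⟨S18K_π A K1, hπ⟩ * ⟨b, hb⟩ := by
      apply Subtype.ext
      show S34ACT_act K1 hstab τ⁻¹ (a : LaurentSeries K1) = a + S18K_π A K1 * b
      rw [← e]; ring
    have hmem : (⟨S34ACT_act K1 hstab τ⁻¹ (a : LaurentSeries K1), hstabX τ⁻¹ hτ' a a.2⟩ : X) ∈ m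
        ↔ a ∈ m := by
      rw [e1]
      constructor
      · intro h
        have := m.sub_mem h (m.mul_mem_right ⟨b, hb⟩ hπm)
        rwa [add_sub_cancel_right] at this
      · intro h
        exact m.add_mem h (m.mul_mem_right _ hπm)
    rw [← hmem, key, hnu]

include hstab in
/-- **X-PLACES (b)** on the chart `j ≠ ∞` of a two-valuation setup. -/
theorem S34CI_A0 (V2 : Subring (LaurentSeries K1))
    (S : S34C_Setup2 (S18K_O A K1) (S18K_π A K1) (S18K_j K1) (S18K_F1 K1 N) (S18K_V A K1 N) V2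
      (S18K_A0 A K1 N) (S18K_Ainf A K1 N))
    (hInert : S34K_Inert A K1 hstab V2) :
    S34K_CentredInert N A K1 (S18K_A0 A K1 N) := by
  have hπO : S18K_π A K1 ∈ S18K_O A K1 := S.π_mem
  have hπ : S18K_π A K1 ∈ S18K_A0 A K1 N := by
    rw [S.chart0.mem_iff]
    refine ⟨?_, S.O_le hπO⟩
    have h1 : S18K_π A K1 ∈ adj (S18K_O A K1) (S18K_j K1) :=
      Subring.subset_closure (Or.inl hπO)
    exact isIntegral_algebraMap (R := adj (S18K_O A K1) (S18K_j K1))
      (x := (⟨S18K_π A K1, h1⟩ : adj (S18K_O A K1) (S18K_j K1)))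
  exact S34CI_centredInert N A K1 hstab V2 _ hInert S.chart0.le_V S.chart0.sat
    (fun τ hτ a ha => S34ACT_mem_A0 K1 hstab A N τ (S34ACT_inertia_mem A τ hτ) ha) hπ

include hstab in
/-- **X-PLACES (b)** on the chart `j ≠ 0` of a two-valuation setup. -/
theorem S34CI_Ainf (V2 : Subring (LaurentSeries K1))
    (S : S34C_Setup2 (S18K_O A K1) (S18K_π A K1) (S18K_j K1) (S18K_F1 K1 N) (S18K_V A K1 N) V2
      (S18K_A0 A K1 N) (S18K_Ainf A K1 N))
    (hInert : S34K_Inert A K1 hstab V2) :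
    S34K_CentredInert N A K1 (S18K_Ainf A K1 N) := by
  have hπO : S18K_π A K1 ∈ S18K_O A K1 := S.π_mem
  have hπ : S18K_π A K1 ∈ S18K_Ainf A K1 N := by
    rw [S.chartInf.mem_iff]
    refine ⟨?_, S.O_le hπO⟩
    have h1 : S18K_π A K1 ∈ adj (S18K_O A K1) (S18K_j K1)⁻¹ :=
      Subring.subset_closure (Or.inl hπO)
    exact isIntegral_algebraMap (R := adj (S18K_O A K1) (S18K_j K1)⁻¹)
      (x := (⟨S18K_π A K1, h1⟩ : adj (S18K_O A K1) (S18K_j K1)⁻¹))
  exact S34CI_centredInert N A K1 hstab V2 _ hInert S.chartInf.le_V S.chartInf.sat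
    (fun τ hτ a ha => S34ACT_mem_Ainf K1 hstab A N τ (S34ACT_inertia_mem A τ hτ) ha) hπ

end Fermat.Agent.S34_helper21_CI
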