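import Mathlib
import Fermat.Agent.S18_helper3_LOCRING

/-!
# S34, X-LOCGEN-RED (helper6): the field-language reduction of the local generator

`L` is a field, `π ∈ L`, `V` a subring of `L` which is "valuation-like at `π`"
(`x ∈ V`, `x⁻¹ ∉ V` ⟹ `x ∈ π V`; `π⁻¹ ∉ V`).  For node coordinates `T`, `S` with `T S = Q c` and
four values `a₁, a₂, a₃, a₄ ∈ π V` the cross ratio

  `g = (T - a₁)(T - a₄) / ((T - a₂)(T - a₃))`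

is `≡ 1` modulo `π V`

* on the branch where `T` is a unit (`S34LR_unit_branch`), without any condition;
* on the branch where `S` is a unit (`S34LR_deep_branch`), if `a_i b_i = Q` with `b_i ∈ π V`
  and `a₁ a₄ = (1 + π δ) a₂ a₃`.

`S34LR_cross` is the statement for two valuation rings at once (`g = 1 + π c`, `c ∈ V1 ⊓ V2`),
`S34LR_locRing_le` says that the local ring of a chart at a crossing point lies in `V1 ⊓ V2`,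
and `S34LR_cross_chart` is the form with the node coordinates in a chart `X` and `c` in the
local ring of `X` at the crossing point `m`.
-/

set_option autoImplicit false

namespace Fermat.Agent.S34_helper6_LGRED

open Fermat.Agent.S18_helper3_LOCRING

variable {L : Type*} [Field L]

section OneValuation

variable (π : L) (V : Subring L)

/-- `π ≠ 0` as soon as `π⁻¹ ∉ V`. -/
theorem S34LR_pi_ne_zero (hπ : π⁻¹ ∉ V) : π ≠ 0 := by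
  rintro rfl
  rw [inv_zero] at hπ
  exact hπ V.zero_mem

/-- `1 - π u ≠ 0` for `u ∈ V`. -/
theorem S34LR_one_sub_ne_zero (hπ : π⁻¹ ∉ V) {u : L} (hu : u ∈ V) : 1 - π * u ≠ 0 := by
  intro h
  have hπ0 := S34LR_pi_ne_zero π V hπ
  apply hπ
  have h1 : π * u = 1 := by linear_combination -h
  have h2 : π⁻¹ = u := by
    rw [inv_eq_iff_eq_inv, eq_comm, inv_eq_iff_eq_inv, ← mul_inv_eq_one₀ (inv_ne_zero hπ0),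
      inv_inv, mul_comm]
    exact h1
  rw [h2]
  exact hu

/-- `(1 - π u)⁻¹ ∈ V` for `u ∈ V`. -/
theorem S34LR_one_sub_inv_mem (hπV : π ∈ V) (hπ : π⁻¹ ∉ V)
    (hunif : ∀ x ∈ V, x⁻¹ ∉ V → ∃ v ∈ V, x = π * v) {u : L} (hu : u ∈ V) :
    (1 - π * u)⁻¹ ∈ V := by
  by_contra hn
  have hx : 1 - π * u ∈ V := V.sub_mem V.one_mem (V.mul_mem hπV hu)
  obtain ⟨v, hv, e⟩ := hunif _ hx hn
  have hπ0 := S34LR_pi_ne_zero π V hπ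
  apply hπ
  have h1 : π * (u + v) = 1 := by linear_combination -e
  have h2 : π⁻¹ = u + v := by
    field_simp
    linear_combination -h1
  rw [h2]
  exact V.add_mem hu hv

/-- the basic computation: a cross ratio of elements `1 - π u_i` is `≡ 1` modulo `π V`. -/
theorem S34LR_ratio (hπV : π ∈ V) (hπ : π⁻¹ ∉ V)
    (hunif : ∀ x ∈ V, x⁻¹ ∉ V → ∃ v ∈ V, x = π * v) {u₁ u₂ u₃ u₄ : L}
    (h₁ : u₁ ∈ V) (h₂ : u₂ ∈ V) (h₃ : u₃ ∈ V) (h₄ : u₄ ∈ V) :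
    ∃ c ∈ V, (1 - π * u₁) * (1 - π * u₄) * ((1 - π * u₂) * (1 - π * u₃))⁻¹ = 1 + π * c := by
  have n₂ := S34LR_one_sub_ne_zero π V hπ h₂
  have n₃ := S34LR_one_sub_ne_zero π V hπ h₃
  have i₂ := S34LR_one_sub_inv_mem π V hπV hπ hunif h₂
  have i₃ := S34LR_one_sub_inv_mem π V hπV hπ hunif h₃
  refine ⟨((u₂ + u₃ - u₁ - u₄) + π * (u₁ * u₄ - u₂ * u₃)) * ((1 - π * u₂)⁻¹ * (1 - π * u₃)⁻¹),
    ?_, ?_⟩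
  · refine V.mul_mem (V.add_mem (V.sub_mem (V.sub_mem (V.add_mem h₂ h₃) h₁) h₄)
      (V.mul_mem hπV (V.sub_mem (V.mul_mem h₁ h₄) (V.mul_mem h₂ h₃)))) (V.mul_mem i₂ i₃)
  · field_simp
    ring

/-- **The branch where `T` is a unit.** -/
theorem S34LR_unit_branch (hπV : π ∈ V) (hπ : π⁻¹ ∉ V)
    (hunif : ∀ x ∈ V, x⁻¹ ∉ V → ∃ v ∈ V, x = π * v)
    {T : L} (hT0 : T ≠ 0) (hT' : T⁻¹ ∈ V) {a₁ a₂ a₃ a₄ : L}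
    (h₁ : ∃ o ∈ V, a₁ = π * o) (h₂ : ∃ o ∈ V, a₂ = π * o)
    (h₃ : ∃ o ∈ V, a₃ = π * o) (h₄ : ∃ o ∈ V, a₄ = π * o) :
    (T - a₁) * (T - a₄) ≠ 0 ∧ (T - a₂) * (T - a₃) ≠ 0 ∧
      ∃ c ∈ V, (T - a₁) * (T - a₄) * ((T - a₂) * (T - a₃))⁻¹ = 1 + π * c := by
  obtain ⟨o₁, ho₁, rfl⟩ := h₁
  obtain ⟨o₂, ho₂, rfl⟩ := h₂
  obtain ⟨o₃, ho₃, rfl⟩ := h₃
  obtain ⟨o₄, ho₄, rfl⟩ := h₄
  have u₁ : o₁ * T⁻¹ ∈ V := V.mul_mem ho₁ hT'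
  have u₂ : o₂ * T⁻¹ ∈ V := V.mul_mem ho₂ hT'
  have u₃ : o₃ * T⁻¹ ∈ V := V.mul_mem ho₃ hT'
  have u₄ : o₄ * T⁻¹ ∈ V := V.mul_mem ho₄ hT'
  have e : ∀ o : L, T - π * o = T * (1 - π * (o * T⁻¹)) := by
    intro o
    field_simp
  have n₁ := S34LR_one_sub_ne_zero π V hπ u₁
  have n₂ := S34LR_one_sub_ne_zero π V hπ u₂
  have n₃ := S34LR_one_sub_ne_zero π V hπ u₃
  have n₄ := S34LR_one_sub_ne_zero π V hπ u₄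
  obtain ⟨c, hc, hce⟩ := S34LR_ratio π V hπV hπ hunif u₁ u₂ u₃ u₄
  refine ⟨?_, ?_, c, hc, ?_⟩
  · rw [e o₁, e o₄]
    exact mul_ne_zero (mul_ne_zero hT0 n₁) (mul_ne_zero hT0 n₄)
  · rw [e o₂, e o₃]
    exact mul_ne_zero (mul_ne_zero hT0 n₂) (mul_ne_zero hT0 n₃)
  · rw [← hce, e o₁, e o₂, e o₃, e o₄]
    field_simp

/-- **The branch where `S` is a unit** (`T = Q c / S`). -/
theorem S34LR_deep_branch (hπV : π ∈ V) (hπ : π⁻¹ ∉ V)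
    (hunif : ∀ x ∈ V, x⁻¹ ∉ V → ∃ v ∈ V, x = π * v)
    {T S c Q : L} (hS0 : S ≠ 0) (hS' : S⁻¹ ∈ V) (hc : c ∈ V) (hQ : Q ≠ 0)
    (hTS : T * S = Q * c) {a₁ a₂ a₃ a₄ b₁ b₂ b₃ b₄ : L}
    (h₁ : a₁ * b₁ = Q) (h₂ : a₂ * b₂ = Q) (h₃ : a₃ * b₃ = Q) (h₄ : a₄ * b₄ = Q)
    (hb₁ : ∃ o ∈ V, b₁ = π * o) (hb₂ : ∃ o ∈ V, b₂ = π * o)
    (hb₃ : ∃ o ∈ V, b₃ = π * o) (hb₄ : ∃ o ∈ V, b₄ = π * o)
    (hprod : ∃ δ ∈ V, a₁ * a₄ = (1 + π * δ) * (a₂ * a₃)) :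
    (T - a₁) * (T - a₄) ≠ 0 ∧ (T - a₂) * (T - a₃) ≠ 0 ∧
      ∃ c' ∈ V, (T - a₁) * (T - a₄) * ((T - a₂) * (T - a₃))⁻¹ = 1 + π * c' := by
  obtain ⟨o₁, ho₁, rfl⟩ := hb₁
  obtain ⟨o₂, ho₂, rfl⟩ := hb₂
  obtain ⟨o₃, ho₃, rfl⟩ := hb₃
  obtain ⟨o₄, ho₄, rfl⟩ := hb₄
  obtain ⟨δ, hδ, hprod⟩ := hprod
  have ha₁ : a₁ ≠ 0 := by rintro rfl; rw [zero_mul] at h₁; exact hQ h₁.symm
  have ha₂ : a₂ ≠ 0 := by rintro rfl; rw [zero_mul] at h₂; exact hQ h₂.symm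
  have ha₃ : a₃ ≠ 0 := by rintro rfl; rw [zero_mul] at h₃; exact hQ h₃.symm
  have ha₄ : a₄ ≠ 0 := by rintro rfl; rw [zero_mul] at h₄; exact hQ h₄.symm
  have hcS : c * S⁻¹ ∈ V := V.mul_mem hc hS'
  have w₁ : o₁ * (c * S⁻¹) ∈ V := V.mul_mem ho₁ hcS
  have w₂ : o₂ * (c * S⁻¹) ∈ V := V.mul_mem ho₂ hcS
  have w₃ : o₃ * (c * S⁻¹) ∈ V := V.mul_mem ho₃ hcS
  have w₄ : o₄ * (c * S⁻¹) ∈ V := V.mul_mem ho₄ hcS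
  have hT : T = Q * c * S⁻¹ := by
    field_simp
    exact hTS
  have e : ∀ a o : L, a * (π * o) = Q → T - a = -a * (1 - π * (o * (c * S⁻¹))) := by
    intro a o h
    rw [hT, ← h]
    ring
  have n₁ := S34LR_one_sub_ne_zero π V hπ w₁
  have n₂ := S34LR_one_sub_ne_zero π V hπ w₂
  have n₃ := S34LR_one_sub_ne_zero π V hπ w₃
  have n₄ := S34LR_one_sub_ne_zero π V hπ w₄
  obtain ⟨c₀, hc₀, hce⟩ := S34LR_ratio π V hπV hπ hunif w₁ w₂ w₃ w₄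
  refine ⟨?_, ?_, δ + c₀ + π * (δ * c₀), ?_, ?_⟩
  · rw [e a₁ o₁ h₁, e a₄ o₄ h₄]
    exact mul_ne_zero (mul_ne_zero (neg_ne_zero.mpr ha₁) n₁)
      (mul_ne_zero (neg_ne_zero.mpr ha₄) n₄)
  · rw [e a₂ o₂ h₂, e a₃ o₃ h₃]
    exact mul_ne_zero (mul_ne_zero (neg_ne_zero.mpr ha₂) n₂)
      (mul_ne_zero (neg_ne_zero.mpr ha₃) n₃)
  · exact V.add_mem (V.add_mem hδ hc₀) (V.mul_mem hπV (V.mul_mem hδ hc₀))
  · have h5 : (T - a₁) * (T - a₄) * ((T - a₂) * (T - a₃))⁻¹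
        = (a₁ * a₄) * (a₂ * a₃)⁻¹ * ((1 - π * (o₁ * (c * S⁻¹))) * (1 - π * (o₄ * (c * S⁻¹))) *
            ((1 - π * (o₂ * (c * S⁻¹))) * (1 - π * (o₃ * (c * S⁻¹))))⁻¹) := by
      rw [e a₁ o₁ h₁, e a₂ o₂ h₂, e a₃ o₃ h₃, e a₄ o₄ h₄]
      field_simp
    rw [h5, hce, hprod]
    field_simp
    ring

end OneValuation

section TwoValuations

variable (π : L) (V1 V2 : Subring L)

/-- **The cross ratio at a crossing point, two valuations.**  `T` is a unit of `V1`, `S` is a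
unit of `V2`, `T S = Q c` with `c ∈ V2`; the four values are of "type `T`"
(`π ∣ a_i`, `a_i b_i = Q`, `π ∣ b_i`) and satisfy the character relation. -/
theorem S34LR_cross (hπV1 : π ∈ V1) (hπ1 : π⁻¹ ∉ V1)
    (hunif1 : ∀ x ∈ V1, x⁻¹ ∉ V1 → ∃ v ∈ V1, x = π * v)
    (hπV2 : π ∈ V2) (hπ2 : π⁻¹ ∉ V2)
    (hunif2 : ∀ x ∈ V2, x⁻¹ ∉ V2 → ∃ v ∈ V2, x = π * v)
    {T S c Q : L} (hT0 : T ≠ 0) (hT' : T⁻¹ ∈ V1) (hS0 : S ≠ 0) (hS' : S⁻¹ ∈ V2) (hc : c ∈ V2)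
    (hQ : Q ≠ 0) (hTS : T * S = Q * c) {a₁ a₂ a₃ a₄ b₁ b₂ b₃ b₄ : L}
    (ha₁ : ∃ o ∈ V1, a₁ = π * o) (ha₂ : ∃ o ∈ V1, a₂ = π * o)
    (ha₃ : ∃ o ∈ V1, a₃ = π * o) (ha₄ : ∃ o ∈ V1, a₄ = π * o)
    (h₁ : a₁ * b₁ = Q) (h₂ : a₂ * b₂ = Q) (h₃ : a₃ * b₃ = Q) (h₄ : a₄ * b₄ = Q)
    (hb₁ : ∃ o ∈ V2, b₁ = π * o) (hb₂ : ∃ o ∈ V2, b₂ = π * o)
    (hb₃ : ∃ o ∈ V2, b₃ = π * o) (hb₄ : ∃ o ∈ V2, b₄ = π * o)
    (hprod : ∃ δ ∈ V2, a₁ * a₄ = (1 + π * δ) * (a₂ * a₃)) :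
    (T - a₁) * (T - a₄) ≠ 0 ∧ (T - a₂) * (T - a₃) ≠ 0 ∧
      ∃ c' ∈ V1 ⊓ V2, (T - a₁) * (T - a₄) * ((T - a₂) * (T - a₃))⁻¹ = 1 + π * c' := by
  obtain ⟨n₁, n₂, c₁, hc₁, e₁⟩ :=
    S34LR_unit_branch π V1 hπV1 hπ1 hunif1 hT0 hT' ha₁ ha₂ ha₃ ha₄
  obtain ⟨-, -, c₂, hc₂, e₂⟩ :=
    S34LR_deep_branch π V2 hπV2 hπ2 hunif2 hS0 hS' hc hQ hTS h₁ h₂ h₃ h₄ hb₁ hb₂ hb₃ hb₄ hprod
  have hπ0 := S34LR_pi_ne_zero π V1 hπ1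
  have h12 : c₁ = c₂ := by
    have h : π * c₁ = π * c₂ := by
      have := e₁.symm.trans e₂
      linear_combination this
    exact mul_left_cancel₀ hπ0 h
  refine ⟨n₁, n₂, c₁, ⟨hc₁, ?_⟩, e₁⟩
  rw [h12]
  exact hc₂

end TwoValuations

section Chart

variable (π : L) (V X : Subring L) (m : Ideal X) [hm : m.IsPrime]

/-- **At a point of the component cut out by `V`, the local ring of the chart lies in `V`.** -/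
theorem S34LR_locRing_le (hXV : X ≤ V)
    (hunif : ∀ x ∈ V, x⁻¹ ∉ V → ∃ v ∈ V, x = π * v)
    (hthru : ∀ a : X, (∃ v ∈ V, (a : L) = π * v) → a ∈ m) : locRing X m ≤ V := by
  rintro y ⟨a, c, hc, hac⟩
  have hc0 : (c : L) ≠ 0 := coe_ne_zero_of_notMem X m hc
  have hcV : ((c : L))⁻¹ ∈ V := by
    by_contra hn
    exact hc (hthru c (hunif _ (hXV c.2) hn))
  have hy : y = (a : L) * ((c : L))⁻¹ := by
    rw [← hac]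
    field_simp
  rw [hy]
  exact V.mul_mem (hXV a.2) hcV

/-- an element of the chart outside the vertical prime `X ∩ π V` is a unit of `V`. -/
theorem S34LR_inv_mem_of_notMem (hXV : X ≤ V)
    (hunif : ∀ x ∈ V, x⁻¹ ∉ V → ∃ v ∈ V, x = π * v) {T : X}
    (hT : ¬ ∃ v ∈ V, (T : L) = π * v) : ((T : L))⁻¹ ∈ V := by
  by_contra hn
  exact hT (hunif _ (hXV T.2) hn)

/-- **The cross ratio at a crossing point of a chart.**  `X ≤ V1 ⊓ V2` is a chart, `m` a prime of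
`X` lying on the component of `V2`; `T, S ∈ X` with `T ∉ π V1`, `S ∉ π V2` and `T S = Q c`,
`c` in the local ring of `X` at `m`; the values `a_i`, `b_i`, `δ` lie in `X` (constants). -/
theorem S34LR_cross_chart (V1 V2 : Subring L) (X : Subring L) (m : Ideal X) [hm : m.IsPrime]
    (hX1 : X ≤ V1) (hX2 : X ≤ V2) (hπX : π ∈ X) (hπ1 : π⁻¹ ∉ V1) (hπ2 : π⁻¹ ∉ V2)
    (hunif1 : ∀ x ∈ V1, x⁻¹ ∉ V1 → ∃ v ∈ V1, x = π * v)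
    (hunif2 : ∀ x ∈ V2, x⁻¹ ∉ V2 → ∃ v ∈ V2, x = π * v)
    (hthru2 : ∀ a : X, (∃ v ∈ V2, (a : L) = π * v) → a ∈ m)
    {T S : L} (hTX : T ∈ X) (hSX : S ∈ X)
    (hT : ¬ ∃ v ∈ V1, T = π * v) (hS : ¬ ∃ v ∈ V2, S = π * v)
    {c Q : L} (hc : c ∈ locRing X m) (hQ : Q ≠ 0) (hTS : T * S = Q * c)
    {a₁ a₂ a₃ a₄ b₁ b₂ b₃ b₄ : L}
    (ha₁ : ∃ o ∈ X, a₁ = π * o) (ha₂ : ∃ o ∈ X, a₂ = π * o)
    (ha₃ : ∃ o ∈ X, a₃ = π * o) (ha₄ : ∃ o ∈ X, a₄ = π * o)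
    (h₁ : a₁ * b₁ = Q) (h₂ : a₂ * b₂ = Q) (h₃ : a₃ * b₃ = Q) (h₄ : a₄ * b₄ = Q)
    (hb₁ : ∃ o ∈ X, b₁ = π * o) (hb₂ : ∃ o ∈ X, b₂ = π * o)
    (hb₃ : ∃ o ∈ X, b₃ = π * o) (hb₄ : ∃ o ∈ X, b₄ = π * o)
    (hprod : ∃ δ ∈ X, a₁ * a₄ = (1 + π * δ) * (a₂ * a₃)) :
    (T - a₁) * (T - a₄) ≠ 0 ∧ (T - a₂) * (T - a₃) ≠ 0 ∧
      ∃ c' ∈ V1 ⊓ V2, (T - a₁) * (T - a₄) * ((T - a₂) * (T - a₃))⁻¹ = 1 + π * c' := by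
  have hT' : T⁻¹ ∈ V1 := by
    by_contra hn
    exact hT (hunif1 _ (hX1 hTX) hn)
  have hS' : S⁻¹ ∈ V2 := by
    by_contra hn
    exact hS (hunif2 _ (hX2 hSX) hn)
  have hT0 : T ≠ 0 := by
    rintro rfl
    exact hT ⟨0, V1.zero_mem, by rw [mul_zero]⟩
  have hS0 : S ≠ 0 := by
    rintro rfl
    exact hS ⟨0, V2.zero_mem, by rw [mul_zero]⟩
  have hcV : c ∈ V2 := S34LR_locRing_le π V2 X m hX2 hunif2 hthru2 hc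
  have l1 : ∀ {a : L}, (∃ o ∈ X, a = π * o) → ∃ o ∈ V1, a = π * o :=
    fun ⟨o, ho, e⟩ => ⟨o, hX1 ho, e⟩
  have l2 : ∀ {a : L}, (∃ o ∈ X, a = π * o) → ∃ o ∈ V2, a = π * o :=
    fun ⟨o, ho, e⟩ => ⟨o, hX2 ho, e⟩
  obtain ⟨δ, hδ, hδe⟩ := hprod
  exact S34LR_cross π V1 V2 (hX1 hπX) hπ1 hunif1 (hX2 hπX) hπ2 hunif2 hT0 hT' hS0 hS' hcV hQ hTS
    (l1 ha₁) (l1 ha₂) (l1 ha₃) (l1 ha₄) h₁ h₂ h₃ h₄ (l2 hb₁) (l2 hb₂) (l2 hb₃) (l2 hb₄)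
    ⟨δ, hX2 hδ, hδe⟩

end Chart

end Fermat.Agent.S34_helper6_LGRED
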