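import Mathlib
import Fermat.Agent.S34_helper6_LGRED
import Fermat.Agent.S34_helper21_ACT
import Fermat.Agent.S34_Contracts2
import Fermat.Agent.S34_helper7_LGDefs

/-!
# S34, X-LOCGEN-RED (helper6): the reduction of the local generator, concrete carriers

`A` a valuation subring of `ℚ̄`, `K1` a Galois-stable level with `O1 = A ∩ K1` a discrete
valuation ring, `τ', τ` in the inertia group of `A`.

## Inertia on `O1`

* `S34LRK_dvd_sub`    : `π ∣ τ x - x` for `x ∈ O1`;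
* `S34LRK_unit_ratio` : `τ a = ε a` with `ε` a unit of `O1`;
* `S34LRK_char`       : `a · τ'τ a = (1 + π δ) · (τ a · τ' a)` (the inertia character is a
  character: the only place where the second difference is used).

## The local generator

For a chart `X ≤ V1 ⊓ V2`, a prime `m` of `X` on the component of `V2`, node coordinates
`T, S ∈ X` (`T` a unit of `V1`, `S` a unit of `V2`, `T S = Q c`, `c ∈ locRing X m`, `Q ∈ O1`
fixed by `τ', τ`) and a value `a ∈ O1` of type `T` (`π ∣ a`, `a b = Q`, `π ∣ b`):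

  `S34LRK_g τ' τ T a = (T - a)(T - τ'τ a) / ((T - τ a)(T - τ' a))`

lies in `F1`, is nonzero, and is `1 + π c'` with `c' ∈ V1 ⊓ V2` (`S34LRK_main`).
`S34LRK_main'` is the mirror statement (`T` a unit of `V2`, `S` a unit of `V1`, `m` on the
component of `V1`), for the places which are cut out by the other coordinate.
-/

set_option autoImplicit false
set_option linter.unusedSectionVars false
set_option linter.unusedVariables false
set_option linter.style.haveILetI false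

open HahnSeries IntermediateField ModularCurve
open Fermat.Agent.S18_helper13_GAUSS Fermat.Agent.S18_helper25_COREDefs
  Fermat.Agent.S18_helper9_CDefs Fermat.Agent.S34_helper12_CDefs
  Fermat.Agent.S18_helper3_LOCRING Fermat.Agent.S34_helper5_K0 Fermat.Agent.S34_helper21_ACT
  Fermat.Agent.S34_helper6_LGRED Fermat.Agent.S34_Contracts Fermat.Agent.S34_helper7_LGDefs

noncomputable section

namespace Fermat.Agent.S34_helper6_LGREDK

local notation "Qb" => AlgebraicClosure ℚ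
local notation "GQ" => (AlgebraicClosure ℚ ≃ₐ[ℚ] AlgebraicClosure ℚ)

variable (A : ValuationSubring Qb) (K1 : IntermediateField ℚ Qb)
  (hstab : ∀ σ : GQ, ∀ x ∈ K1, σ x ∈ K1) [IsDiscreteValuationRing (S18K_O1 A K1)]

/-! ### Inertia on `O1` -/

section Inertia

variable (τ : GQ) (hτ : τ ∈ A.inertiaSubgroupIn ℚ)

/-- the action of an inertia element on `O1`. -/
def S34LRK_t : S18K_O1 A K1 →+* S18K_O1 A K1 :=
  S34ACT_resO K1 hstab A τ (S34ACT_inertia_mem A τ hτ)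

theorem S34LRK_t_coe (x : S18K_O1 A K1) :
    ((S34LRK_t A K1 hstab τ hτ x : S18K_O1 A K1) : K1) = S34ACT_res K1 hstab τ (x : K1) := rfl

/-- `res x = 0 ↔ π ∣ x`. -/
theorem S34LRK_res_eq_zero_iff (x : S18K_O1 A K1) :
    S18K_res A K1 x = 0 ↔ (S18K_D A K1).π ∣ x :=
  (S18K_D A K1).res_eq_zero_iff x

/-- `π ∣ τ x - x`. -/
theorem S34LRK_dvd_sub (x : S18K_O1 A K1) :
    (S18K_D A K1).π ∣ S34LRK_t A K1 hstab τ hτ x - x := by
  rw [← S34LRK_res_eq_zero_iff, map_sub, sub_eq_zero]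
  exact S34ACT_inertia_res K1 hstab A τ hτ x

/-- `π ∣ x → π ∣ τ x`. -/
theorem S34LRK_dvd_map {x : S18K_O1 A K1} (hx : (S18K_D A K1).π ∣ x) :
    (S18K_D A K1).π ∣ S34LRK_t A K1 hstab τ hτ x := by
  have h := (S34LRK_dvd_sub A K1 hstab τ hτ x).add hx
  simpa using h

/-- an element of `O1` is a unit iff `π` does not divide it. -/
theorem S34LRK_isUnit_iff (x : S18K_O1 A K1) : IsUnit x ↔ ¬ (S18K_D A K1).π ∣ x := by
  rw [← S34LRK_res_eq_zero_iff, S18K_res_eq_zero_iff, IsLocalRing.mem_maximalIdeal,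
    mem_nonunits_iff, not_not]

theorem S34LRK_pi_not_isUnit : ¬ IsUnit (S18K_D A K1).π := by
  rw [S34LRK_isUnit_iff, not_not]

end Inertia

section Inertia2

variable (τ : GQ) (hτ : τ ∈ A.inertiaSubgroupIn ℚ)

/-- `τ⁻¹ (τ x) = x` on `O1`. -/
theorem S34LRK_t_inv_t (x : S18K_O1 A K1) :
    S34LRK_t A K1 hstab τ⁻¹ (inv_mem hτ) (S34LRK_t A K1 hstab τ hτ x) = x := by
  apply Subtype.ext
  apply Subtype.ext
  show τ⁻¹ (τ ((x : K1) : Qb)) = ((x : K1) : Qb)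
  exact τ.symm_apply_apply _

/-- `τ π = π y` with `y` a unit. -/
theorem S34LRK_unit_pi :
    ∃ y : S18K_O1 A K1, IsUnit y ∧
      S34LRK_t A K1 hstab τ hτ (S18K_D A K1).π = (S18K_D A K1).π * y := by
  set π := (S18K_D A K1).π with hπ
  have hπ0 : π ≠ 0 := (S18K_D A K1).π_ne_zero
  obtain ⟨y, hy⟩ := S34LRK_dvd_map A K1 hstab τ hτ (dvd_refl π)
  obtain ⟨z, hz⟩ := S34LRK_dvd_map A K1 hstab τ⁻¹ (inv_mem hτ) (dvd_refl π)
  refine ⟨y, ?_, hy⟩
  -- `π = τ⁻¹ (τ π) = τ⁻¹ π * τ⁻¹ y = π * z * τ⁻¹ y`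
  have h1 := S34LRK_t_inv_t A K1 hstab τ hτ π
  rw [hy, map_mul, hz] at h1
  have h2 : z * S34LRK_t A K1 hstab τ⁻¹ (inv_mem hτ) y = 1 := by
    have h3 : π * (z * S34LRK_t A K1 hstab τ⁻¹ (inv_mem hτ) y) = π * 1 := by
      rw [mul_one, ← mul_assoc]
      exact h1
    exact mul_left_cancel₀ hπ0 h3
  have h4 : IsUnit (S34LRK_t A K1 hstab τ⁻¹ (inv_mem hτ) y) :=
    IsUnit.of_mul_eq_one z (by rw [mul_comm]; exact h2)
  have h5 := h4.map (S34LRK_t A K1 hstab τ (inv_inv τ ▸ inv_mem (inv_mem hτ)))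
  have h6 : S34LRK_t A K1 hstab τ (inv_inv τ ▸ inv_mem (inv_mem hτ))
      (S34LRK_t A K1 hstab τ⁻¹ (inv_mem hτ) y) = y := by
    apply Subtype.ext
    apply Subtype.ext
    show τ (τ⁻¹ ((y : K1) : Qb)) = ((y : K1) : Qb)
    exact τ.apply_symm_apply _
  rwa [h6] at h5

/-- **`τ a = ε a` with `ε` a unit of `O1`.** -/
theorem S34LRK_unit_ratio (a : S18K_O1 A K1) :
    ∃ ε : S18K_O1 A K1, IsUnit ε ∧ S34LRK_t A K1 hstab τ hτ a = ε * a := by
  by_cases ha : a = 0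
  · exact ⟨1, isUnit_one, by rw [ha, map_zero, mul_zero]⟩
  obtain ⟨n, u, hau, hu⟩ := (S18K_D A K1).exists_normalize a ha
  obtain ⟨y, hy, hπy⟩ := S34LRK_unit_pi A K1 hstab τ hτ
  have hu1 : IsUnit u := by
    rw [S34LRK_isUnit_iff, ← S34LRK_res_eq_zero_iff]
    exact hu
  have hu2 : IsUnit (S34LRK_t A K1 hstab τ hτ u) := hu1.map _
  obtain ⟨u', hu'⟩ := hu1
  refine ⟨y ^ n * S34LRK_t A K1 hstab τ hτ u * ((u'⁻¹ : (S18K_O1 A K1)ˣ) : S18K_O1 A K1),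
    ((hy.pow n).mul hu2).mul (Units.isUnit _), ?_⟩
  have h1 : ((u'⁻¹ : (S18K_O1 A K1)ˣ) : S18K_O1 A K1) * u = 1 := by
    rw [← hu']
    exact Units.inv_mul u'
  rw [hau, map_mul, map_pow, hπy, mul_pow]
  linear_combination (-((S18K_D A K1).π ^ n * y ^ n * S34LRK_t A K1 hstab τ hτ u)) * h1

end Inertia2

section Character

variable (τ' τ : GQ) (hτ' : τ' ∈ A.inertiaSubgroupIn ℚ) (hτ : τ ∈ A.inertiaSubgroupIn ℚ)

/-- **The inertia character is a character.** -/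
theorem S34LRK_char (a : S18K_O1 A K1) :
    ∃ δ : S18K_O1 A K1,
      a * S34LRK_t A K1 hstab τ' hτ' (S34LRK_t A K1 hstab τ hτ a) =
        (1 + (S18K_D A K1).π * δ) *
          (S34LRK_t A K1 hstab τ hτ a * S34LRK_t A K1 hstab τ' hτ' a) := by
  obtain ⟨ε, hε, e⟩ := S34LRK_unit_ratio A K1 hstab τ hτ a
  obtain ⟨d, hd⟩ := S34LRK_dvd_sub A K1 hstab τ' hτ' ε
  obtain ⟨u, rfl⟩ := hε
  refine ⟨((u⁻¹ : (S18K_O1 A K1)ˣ) : S18K_O1 A K1) * d, ?_⟩
  have h1 : S34LRK_t A K1 hstab τ' hτ' (u : S18K_O1 A K1) = (u : S18K_O1 A K1)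
      + (S18K_D A K1).π * d := by
    linear_combination hd
  have h2 : ((u⁻¹ : (S18K_O1 A K1)ˣ) : S18K_O1 A K1) * (u : S18K_O1 A K1) = 1 := Units.inv_mul u
  rw [e, map_mul, h1]
  linear_combination (-((S18K_D A K1).π * d * a * S34LRK_t A K1 hstab τ' hτ' a)) * h2

end Character

/-! ### Constants -/

section Constants

theorem S34LRK_pi_eq :
    S18K_π A K1 = HahnSeries.C ((((S18K_D A K1).π : S18K_O1 A K1) : K1)) := rfl

/-- the constant series of an element of `O1` lies in `O`. -/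
theorem S34LRK_C_mem (x : S18K_O1 A K1) :
    (HahnSeries.C ((x : K1)) : LaurentSeries K1) ∈ S18K_O A K1 :=
  (S18K_mem_O A K1 _).mpr ⟨(x : K1), x.2, rfl⟩

theorem S34LRK_C_mul (x y : S18K_O1 A K1) :
    (HahnSeries.C (((x * y : S18K_O1 A K1) : K1)) : LaurentSeries K1)
      = HahnSeries.C ((x : K1)) * HahnSeries.C ((y : K1)) := by
  rw [← map_mul]
  rfl

/-- `π ∣ x` in `O1` ⟹ `C x ∈ π X` for every ring `X ⊇ O`. -/
theorem S34LRK_C_dvd {X : Subring (LaurentSeries K1)} (hOX : S18K_O A K1 ≤ X)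
    {x : S18K_O1 A K1} (hx : (S18K_D A K1).π ∣ x) :
    ∃ o ∈ X, (HahnSeries.C ((x : K1)) : LaurentSeries K1) = S18K_π A K1 * o := by
  obtain ⟨o, rfl⟩ := hx
  exact ⟨HahnSeries.C ((o : K1)), hOX (S34LRK_C_mem A K1 o), by
    rw [S34LRK_C_mul, S34LRK_pi_eq]⟩

theorem S34LRK_C_ne_zero {x : S18K_O1 A K1} (hx : x ≠ 0) :
    (HahnSeries.C ((x : K1)) : LaurentSeries K1) ≠ 0 := by
  intro h
  apply hx
  apply Subtype.ext
  have h0 : (HahnSeries.C ((x : K1)) : LaurentSeries K1) = HahnSeries.C (0 : K1) := by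
    rw [h, map_zero]
  exact HahnSeries.C_injective h0

end Constants

/-! ### The local generator -/

section Generator

variable (τ' τ : GQ)

/-- the local generator attached to the coordinate `T` and the value `a`:
`(T - a)(T - τ'τ a) / ((T - τ a)(T - τ' a))`. -/
def S34LRK_g (T : LaurentSeries K1) (a : K1) : LaurentSeries K1 :=
  (T - HahnSeries.C a) *
      (T - HahnSeries.C (S34ACT_res K1 hstab τ' (S34ACT_res K1 hstab τ a))) *
    ((T - HahnSeries.C (S34ACT_res K1 hstab τ a)) *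
      (T - HahnSeries.C (S34ACT_res K1 hstab τ' a)))⁻¹

/-- the generator lies in every subfield containing `T` and the constants. -/
theorem S34LRK_g_mem (F : Subfield (LaurentSeries K1)) {T : LaurentSeries K1} (hT : T ∈ F)
    (hC : ∀ c : K1, (HahnSeries.C c : LaurentSeries K1) ∈ F) (a : K1) :
    S34LRK_g K1 hstab τ' τ T a ∈ F := by
  unfold S34LRK_g
  exact F.mul_mem (F.mul_mem (F.sub_mem hT (hC _)) (F.sub_mem hT (hC _)))
    (F.inv_mem (F.mul_mem (F.sub_mem hT (hC _)) (F.sub_mem hT (hC _))))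

/-- the constants lie in the function field. -/
theorem S34LRK_C_mem_F1 (N : ℕ) (c : K1) :
    (HahnSeries.C c : LaurentSeries K1) ∈ S18K_F1 K1 N := by
  have h : (HahnSeries.C c : LaurentSeries K1) = algebraMap K1 (LaurentSeries K1) c := by
    rw [algebraMap_laurentSeries_eq_single]
    rfl
  rw [h]
  exact IntermediateField.algebraMap_mem _ _

theorem S34LRK_g_mem_F1 (N : ℕ) {T : LaurentSeries K1} (hT : T ∈ S18K_F1 K1 N) (a : K1) :
    S34LRK_g K1 hstab τ' τ T a ∈ S18K_F1 K1 N :=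
  S34LRK_g_mem K1 hstab τ' τ (S18K_F1 K1 N) hT (S34LRK_C_mem_F1 K1 N) a

variable (hτ' : τ' ∈ A.inertiaSubgroupIn ℚ) (hτ : τ ∈ A.inertiaSubgroupIn ℚ)

/-- **THE REDUCTION OF THE LOCAL GENERATOR.**  `X ≤ V1 ⊓ V2` a ring containing the constants,
`m` a prime of `X` on the component of `V2`; `T, S ∈ X`, `T ∉ π V1`, `S ∉ π V2`, `T S = Q c` with
`c ∈ locRing X m` and `Q ∈ O1` fixed by `τ'` and `τ`; `a ∈ O1` a value of type `T`: `π ∣ a`,
`a b = Q`, `π ∣ b`.  Then the four factors of `g` are nonzero and `g = 1 + π c'` with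
`c' ∈ V1 ⊓ V2`. -/
theorem S34LRK_main (V1 V2 X : Subring (LaurentSeries K1)) (m : Ideal X) [hm : m.IsPrime]
    (hOX : S18K_O A K1 ≤ X) (hX1 : X ≤ V1) (hX2 : X ≤ V2)
    (hπ1 : (S18K_π A K1)⁻¹ ∉ V1) (hπ2 : (S18K_π A K1)⁻¹ ∉ V2)
    (hunif1 : ∀ x ∈ V1, x⁻¹ ∉ V1 → ∃ v ∈ V1, x = S18K_π A K1 * v)
    (hunif2 : ∀ x ∈ V2, x⁻¹ ∉ V2 → ∃ v ∈ V2, x = S18K_π A K1 * v)
    (hthru2 : S34K_Thru (S18K_π A K1) V2 X m)
    {T S : LaurentSeries K1} (hTX : T ∈ X) (hSX : S ∈ X)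
    (hT : ¬ ∃ v ∈ V1, T = S18K_π A K1 * v) (hS : ¬ ∃ v ∈ V2, S = S18K_π A K1 * v)
    {c : LaurentSeries K1} (hc : c ∈ locRing X m)
    (Q a b : S18K_O1 A K1) (hQ : Q ≠ 0)
    (hτQ : S34LRK_t A K1 hstab τ hτ Q = Q) (hτ'Q : S34LRK_t A K1 hstab τ' hτ' Q = Q)
    (hTS : T * S = HahnSeries.C ((Q : K1)) * c)
    (ha : (S18K_D A K1).π ∣ a) (hb : (S18K_D A K1).π ∣ b) (hab : a * b = Q) :
    (T - HahnSeries.C ((a : K1))) *
        (T - HahnSeries.C (S34ACT_res K1 hstab τ' (S34ACT_res K1 hstab τ (a : K1)))) ≠ 0 ∧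
      (T - HahnSeries.C (S34ACT_res K1 hstab τ (a : K1))) *
        (T - HahnSeries.C (S34ACT_res K1 hstab τ' (a : K1))) ≠ 0 ∧
      S34LRK_g K1 hstab τ' τ T (a : K1) ≠ 0 ∧
      ∃ c' ∈ V1 ⊓ V2, S34LRK_g K1 hstab τ' τ T (a : K1) = 1 + S18K_π A K1 * c' := by
  set t := S34LRK_t A K1 hstab τ hτ with ht
  set t' := S34LRK_t A K1 hstab τ' hτ' with ht'
  have hπX : S18K_π A K1 ∈ X := hOX (S34LRK_C_mem A K1 (S18K_D A K1).π)
  -- the four values and their partners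
  have d₂ : (S18K_D A K1).π ∣ t a := S34LRK_dvd_map A K1 hstab τ hτ ha
  have d₃ : (S18K_D A K1).π ∣ t' a := S34LRK_dvd_map A K1 hstab τ' hτ' ha
  have d₄ : (S18K_D A K1).π ∣ t' (t a) := S34LRK_dvd_map A K1 hstab τ' hτ' d₂
  have e₂ : (S18K_D A K1).π ∣ t b := S34LRK_dvd_map A K1 hstab τ hτ hb
  have e₃ : (S18K_D A K1).π ∣ t' b := S34LRK_dvd_map A K1 hstab τ' hτ' hb
  have e₄ : (S18K_D A K1).π ∣ t' (t b) := S34LRK_dvd_map A K1 hstab τ' hτ' e₂
  have p₂ : t a * t b = Q := by rw [← map_mul, hab, hτQ]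
  have p₃ : t' a * t' b = Q := by rw [← map_mul, hab, hτ'Q]
  have p₄ : t' (t a) * t' (t b) = Q := by rw [← map_mul, p₂, hτ'Q]
  obtain ⟨δ, hδ⟩ := S34LRK_char A K1 hstab τ' τ hτ' hτ a
  have toL : ∀ {x y z : S18K_O1 A K1}, x * y = z →
      (HahnSeries.C ((x : K1)) : LaurentSeries K1) * HahnSeries.C ((y : K1))
        = HahnSeries.C ((z : K1)) := by
    intro x y z h
    rw [← S34LRK_C_mul, h]
  have hprod : ∃ δ' ∈ X, (HahnSeries.C ((a : K1)) : LaurentSeries K1) *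
      HahnSeries.C (((t' (t a) : S18K_O1 A K1) : K1)) =
      (1 + S18K_π A K1 * δ') * (HahnSeries.C (((t a : S18K_O1 A K1) : K1)) *
        HahnSeries.C (((t' a : S18K_O1 A K1) : K1))) := by
    refine ⟨HahnSeries.C ((δ : K1)), hOX (S34LRK_C_mem A K1 δ), ?_⟩
    have h1 : (HahnSeries.C (((a * t' (t a) : S18K_O1 A K1) : K1)) : LaurentSeries K1)
        = HahnSeries.C ((((1 + (S18K_D A K1).π * δ) * (t a * t' a) : S18K_O1 A K1) : K1)) := by
      rw [hδ]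
    rw [S34LRK_C_mul, S34LRK_C_mul, S34LRK_C_mul] at h1
    rw [h1, S34LRK_pi_eq]
    congr 1
    rw [← S34LRK_C_mul]
    have : (HahnSeries.C (((1 + (S18K_D A K1).π * δ : S18K_O1 A K1) : K1)) : LaurentSeries K1)
        = HahnSeries.C ((1 : K1)) +
          HahnSeries.C (((((S18K_D A K1).π * δ : S18K_O1 A K1)) : K1)) := by
      rw [← map_add]
      rfl
    rw [this, map_one]
  have key := S34LR_cross_chart (S18K_π A K1) V1 V2 X m hX1 hX2 hπX hπ1 hπ2 hunif1 hunif2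
    hthru2 hTX hSX hT hS hc (S34LRK_C_ne_zero A K1 hQ) hTS
    (S34LRK_C_dvd A K1 hOX ha) (S34LRK_C_dvd A K1 hOX d₂) (S34LRK_C_dvd A K1 hOX d₃)
    (S34LRK_C_dvd A K1 hOX d₄) (toL hab) (toL p₂) (toL p₃) (toL p₄)
    (S34LRK_C_dvd A K1 hOX hb) (S34LRK_C_dvd A K1 hOX e₂) (S34LRK_C_dvd A K1 hOX e₃)
    (S34LRK_C_dvd A K1 hOX e₄) hprod
  obtain ⟨n₁, n₂, c', hc', e⟩ := key
  refine ⟨n₁, n₂, ?_, c', hc', e⟩
  exact mul_ne_zero n₁ (inv_ne_zero n₂)

end Generator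

/-! ### The contract `S34LGK_Red` of X-LOCGEN -/

section Contract

/-- a nonunit of `A` lying in `K1` is an element of `O1` divisible by `π`. -/
theorem S34LRK_dvd_of_nonunit {a : K1} (ha : (a : Qb) ∈ A.nonunits) :
    ∃ h : a ∈ S18K_O1 A K1, (S18K_D A K1).π ∣ (⟨a, h⟩ : S18K_O1 A K1) := by
  have hA : (a : Qb) ∈ A := A.nonunits_subset ha
  refine ⟨hA, ?_⟩
  by_contra hn
  have hu : IsUnit (⟨a, hA⟩ : S18K_O1 A K1) := (S34LRK_isUnit_iff A K1 _).mpr hn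
  have hu' := hu.map (S18K_incl A K1)
  have h3 : A.valuation (a : Qb) = 1 := (ValuationSubring.valuation_eq_one_iff A _).1 hu'
  exact absurd (A.mem_nonunits_iff.1 ha) (by rw [h3]; exact lt_irrefl _)

/-- a unit of `V` is not in `π V`. -/
theorem S34LRK_not_dvd_of_inv {π : LaurentSeries K1} {V : Subring (LaurentSeries K1)}
    (hπ : π⁻¹ ∉ V) {T : LaurentSeries K1} (hT0 : T ≠ 0) (hT : T⁻¹ ∈ V) :
    ¬ ∃ v ∈ V, T = π * v := by
  rintro ⟨v, hv, e⟩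
  apply hπ
  have hπ0 : π ≠ 0 := S34LR_pi_ne_zero π V hπ
  have h1 : π⁻¹ = v * T⁻¹ := by
    rw [e]
    have hv0 : v ≠ 0 := by
      rintro rfl
      rw [mul_zero] at e
      exact hT0 e
    field_simp
  rw [h1]
  exact V.mul_mem hv hT

variable (N : ℕ) [NeZero N]

/-- **X-LOCGEN-RED**: the contract `S34LGK_Red` holds for every chart of a two-valuation
setup. -/
theorem S34LR_red {x x' : LaurentSeries K1} {V2 A0 Ainf X : Subring (LaurentSeries K1)}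
    (S2 : S34C_Setup2 (S18K_O A K1) (S18K_π A K1) x (S18K_F1 K1 N) (S18K_V A K1 N) V2 A0 Ainf)
    (hC : Chart (S18K_O A K1) (S18K_π A K1) x' (S18K_F1 K1 N) (S18K_V A K1 N ⊓ V2) X) :
    S34LGK_Red N A K1 hstab V2 X := by
  intro τ' τ hτ' hτ hπ m hm hπm ht1 ht2 ϖ k T S c hND a ρ ha hρ hQ
  haveI := hm.isPrime
  have hOX : S18K_O A K1 ≤ X := by
    intro y hy
    rw [hC.mem_iff]
    refine ⟨?_, S2.O_le hy⟩
    have hy' : y ∈ adj (S18K_O A K1) x' := Subring.subset_closure (Or.inl hy)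
    have : IsIntegral (adj (S18K_O A K1) x') ((⟨y, hy'⟩ : adj (S18K_O A K1) x') :
        LaurentSeries K1) := isIntegral_algebraMap (x := (⟨y, hy'⟩ : adj (S18K_O A K1) x'))
    exact this
  have hX1 : X ≤ S18K_V A K1 N := fun y hy => (hC.le_V hy).1
  have hX2 : X ≤ V2 := fun y hy => (hC.le_V hy).2
  obtain ⟨haO, hda⟩ := S34LRK_dvd_of_nonunit A K1 ha
  obtain ⟨hρO, hdρ⟩ := S34LRK_dvd_of_nonunit A K1 hρ
  set aO : S18K_O1 A K1 := ⟨a, haO⟩ with haOdef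
  set ρO : S18K_O1 A K1 := ⟨ρ, hρO⟩ with hρOdef
  have hQco : ((aO * ρO : S18K_O1 A K1) : K1) = ϖ ^ k := hQ.symm
  have hQ0 : aO * ρO ≠ 0 := by
    intro h0
    have h1 : ((aO * ρO : S18K_O1 A K1) : K1) = 0 := by rw [h0]; rfl
    rw [hQco] at h1
    exact pow_ne_zero k hND.ϖ_ne h1
  have hfix : ∀ σ : GQ, ∀ hσ : σ ∈ A.inertiaSubgroupIn ℚ,
      S34LRK_t A K1 hstab σ hσ (aO * ρO) = aO * ρO := by
    intro σ hσ
    apply Subtype.ext
    apply Subtype.ext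
    show σ ((((aO * ρO : S18K_O1 A K1) : K1)) : Qb) = ((((aO * ρO : S18K_O1 A K1) : K1)) : Qb)
    rw [hQco]
    have : (((ϖ ^ k : K1)) : Qb) = ((ϖ : K1) : Qb) ^ k := rfl
    rw [this, map_pow, hND.ϖ_fix σ hσ]
  have hTS : T * S = HahnSeries.C ((((aO * ρO : S18K_O1 A K1)) : K1)) * c := by
    rw [hQco]
    exact hND.mul_eq
  have hST : S * T = HahnSeries.C ((((aO * ρO : S18K_O1 A K1)) : K1)) * c := by
    rw [mul_comm]
    exact hTS
  constructor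
  · obtain ⟨-, n₂, -, c', hc', e⟩ := S34LRK_main A K1 hstab τ' τ hτ' hτ (S18K_V A K1 N) V2 X m
      hOX hX1 hX2 S2.V1_nonunit S2.V2_nonunit S2.V1_unif S2.V2_unif ht2 hND.T_mem hND.S_mem
      (S34LRK_not_dvd_of_inv K1 S2.V1_nonunit hND.T_ne hND.T_inv)
      (S34LRK_not_dvd_of_inv K1 S2.V2_nonunit hND.S_ne hND.S_inv) hND.c_mem
      (aO * ρO) aO ρO hQ0 (hfix τ hτ) (hfix τ' hτ') hTS hda hdρ rfl
    refine ⟨c', hc', ?_⟩
    unfold S34LRK_g at e
    have key := (eq_mul_inv_iff_mul_eq₀ n₂).mp e.symm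
    exact key.symm
  · obtain ⟨-, n₂, -, c', hc', e⟩ := S34LRK_main A K1 hstab τ' τ hτ' hτ V2 (S18K_V A K1 N) X m
      hOX hX2 hX1 S2.V2_nonunit S2.V1_nonunit S2.V2_unif S2.V1_unif ht1 hND.S_mem hND.T_mem
      (S34LRK_not_dvd_of_inv K1 S2.V2_nonunit hND.S_ne hND.S_inv)
      (S34LRK_not_dvd_of_inv K1 S2.V1_nonunit hND.T_ne hND.T_inv) hND.c_mem
      (aO * ρO) aO ρO hQ0 (hfix τ hτ) (hfix τ' hτ') hST hda hdρ rfl
    refine ⟨c', ⟨hc'.2, hc'.1⟩, ?_⟩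
    unfold S34LRK_g at e
    have key := (eq_mul_inv_iff_mul_eq₀ n₂).mp e.symm
    exact key.symm

end Contract

end Fermat.Agent.S34_helper6_LGREDK
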