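import Mathlib
import Fermat.Agent.S34_helper7_LGDefs
import Fermat.Agent.S34_helper11_DICHB
import Fermat.Agent.S34_helper11_PLEXT
import Fermat.Agent.S34_helper17_PLW
import Fermat.Agent.S34_helper17_VM
import Fermat.Agent.S34_helper21_CI
import Fermat.Agent.S34_helper6_LGREDK

/-!
# S34, X-LOCGEN, branch (B) (helper6, twin of helper11's DICHBC): the contract `S34LGK_BranchB`

A `K1`-rational place `P` centred at a crossing point `m` of the chart `X` which is *deep* at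
stages of arbitrarily large exponent (the values of both node coordinates are divisible by
`ϖ ^ k`, `k ≥ n`, for every `n`) is fixed by the inertia group.

Proof: the value maps `ψ`, `ψ'` of `P` and `τ P` on `R = locRing X m` (helper17,
`S34PW_valueMap`) have values in `O1`, agree on the constants, and send the node coordinates
`T n`, `S n` into `π ^ n O1` (for `ψ'`: `ψ' (T n) = τ (ψ (T n))` because `T n` is `τ`-fixed).
Since `R = O1 + (π, T n, S n) R` for every `n` (the value map itself splits the residue field),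
helper11's `S34DB_eq` gives `ψ = ψ'`, and place extensionality (`S34PX_ext`) gives `τ P = P`.
-/

set_option autoImplicit false
set_option linter.unusedSectionVars false
set_option linter.unusedVariables false
set_option linter.style.haveILetI false
set_option maxHeartbeats 1600000

open AlgebraicCurve ModularCurve HahnSeries IntermediateField
open Fermat.Agent.S18_helper13_GAUSS Fermat.Agent.S18_helper25_COREDefs
  Fermat.Agent.S18_helper9_CDefs Fermat.Agent.S34_helper12_CDefs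
  Fermat.Agent.S18_helper3_LOCRING Fermat.Agent.S34_helper5_K0 Fermat.Agent.S34_helper21_ACT
  Fermat.Agent.S34_helper21_CI Fermat.Agent.S34_helper6_RED
  Fermat.Agent.S34_helper6_LGRED Fermat.Agent.S34_helper6_LGREDK
  Fermat.Agent.S34_Contracts Fermat.Agent.S34_helper7_LGDefs
  Fermat.Agent.S37_helper4_B1Defs Fermat.Agent.S37_helper5_LEVEL
  Fermat.Agent.S34_helper17_PLW Fermat.Agent.S34_helper17_VM
  Fermat.Agent.S34_helper11_DICHB Fermat.Agent.S34_helper11_PLEXT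

noncomputable section

namespace Fermat.Agent.S34_helper6_BB

local notation "Qb" => AlgebraicClosure ℚ
local notation "GQ" => (AlgebraicClosure ℚ ≃ₐ[ℚ] AlgebraicClosure ℚ)

variable (N : ℕ) [NeZero N] (A : ValuationSubring Qb) (K1 : IntermediateField ℚ Qb)
  (hstab : ∀ σ : GQ, ∀ x ∈ K1, σ x ∈ K1) [IsDiscreteValuationRing (S18K_O1 A K1)]

/-! ### The base ring -/

section Base

variable (X : Subring (LaurentSeries K1)) (hO : S18K_O A K1 ≤ X) (m : Ideal X) [hm : m.IsPrime]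

/-- the structure map `O1 → locRing X m`. -/
def S34BB_base : S18K_O1 A K1 →+* locRing X m :=
  ((HahnSeries.C : K1 →+* LaurentSeries K1).comp (S18K_O1 A K1).subtype).codRestrict
    (locRing X m) (fun o => le_locRing X m (hO (S34LRK_C_mem A K1 o)))

theorem S34BB_base_coe (o : S18K_O1 A K1) :
    ((S34BB_base A K1 X hO m o : locRing X m) : LaurentSeries K1) = HahnSeries.C ((o : K1)) :=
  rfl

end Base

/-! ### Separatedness of `O1` -/

theorem S34BB_sep (z : S18K_O1 A K1)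
    (hz : ∀ M : ℕ, z ∈ Ideal.span {(S18K_D A K1).π ^ M}) : z = 0 := by
  refine S34DB_sep (S18K_D A K1).π (S34LRK_pi_not_isUnit A K1) ?_ z hz
  intro d hd
  obtain ⟨n, u, hdu, hu⟩ := (S18K_D A K1).exists_normalize d hd
  have hu1 : IsUnit u := by
    rw [S34LRK_isUnit_iff, ← S34LRK_res_eq_zero_iff]
    exact hu
  obtain ⟨u', rfl⟩ := hu1
  refine ⟨n, ((u'⁻¹ : (S18K_O1 A K1)ˣ) : S18K_O1 A K1), ?_⟩
  rw [hdu, mul_assoc, Units.mul_inv, mul_one]

/-! ### Powers of a nonunit -/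

/-- a power `ϖ ^ k`, `n ≤ k`, of a nonunit `ϖ` of `A` lying in `K1`, times an element of `O1`,
is divisible by `π ^ n` in `O1`. -/
theorem S34BB_pow_dvd {ϖ : K1} (hϖ : (ϖ : Qb) ∈ A.nonunits) {n k : ℕ} (hnk : n ≤ k)
    (a' : S18K_O1 A K1) :
    ∃ d : S18K_O1 A K1, ϖ ^ k * (a' : K1) = (((S18K_D A K1).π ^ n * d : S18K_O1 A K1) : K1) := by
  obtain ⟨hϖO, w, hw⟩ := S34LRK_dvd_of_nonunit A K1 hϖ
  refine ⟨(S18K_D A K1).π ^ (k - n) * w ^ k * a', ?_⟩
  have h1 : ϖ = (((S18K_D A K1).π * w : S18K_O1 A K1) : K1) := by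
    rw [← hw]
  have h2 : (S18K_D A K1).π ^ n * ((S18K_D A K1).π ^ (k - n) * w ^ k * a')
      = ((S18K_D A K1).π * w) ^ k * a' := by
    rw [mul_pow]
    have : (S18K_D A K1).π ^ k = (S18K_D A K1).π ^ n * (S18K_D A K1).π ^ (k - n) := by
      rw [← _root_.pow_add]
      congr 1
      omega
    rw [this]
    ring
  rw [h2, h1]
  rfl

/-! ### The contract -/

/-- **X-LOCGEN-B**: the contract `S34LGK_BranchB` for a normal chart `X ⊇ icl (O[x0]) F1`,
`x0 ∈ {j, j⁻¹}`, on which inertia preserves the centres. -/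
theorem S34BB_branchB (V2 X : Subring (LaurentSeries K1))
    (hXF : ∀ a ∈ X, a ∈ S18K_F1 K1 N) (hO : S18K_O A K1 ≤ X)
    (x0 : LaurentSeries K1) (hx0 : x0 = S18K_j K1 ∨ x0 = (S18K_j K1)⁻¹)
    (hx0X : x0 ∈ X) (hx0ne : x0 ≠ 0)
    (hX : ∀ y : LaurentSeries K1, IsIntegral (adj (S18K_O A K1) x0) y → y ∈ S18K_F1 K1 N → y ∈ X)
    (hCI : S34K_CentredInert N A K1 X) :
    S34LGK_BranchB N A K1 hstab V2 X := by
  intro hπ m hm hπm ht1 ht2 P hrat hcen hdeep τ hτ
  haveI hmp : m.IsPrime := hm.isPrime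
  have hrat' : S37LEVEL_IsRational N K1 (S34R_g N τ • P) := S34ACT_rational K1 hstab N τ P hrat
  have hcen' : S34K_Centred N A K1 X m (S34R_g N τ • P) := hCI τ hτ m P hcen
  have hnn := S34VM_nonneg_of_centred N A K1 X hXF m P hcen
  have hnn' := S34VM_nonneg_of_centred N A K1 X hXF m (S34R_g N τ • P) hcen'
  obtain ⟨ψ, hψC, hψ0, hψO, hψm, hψv, hψu⟩ :=
    S34PW_valueMap N A K1 X hXF hO hπ m hm hπm P hrat hnn
  obtain ⟨ψ', hψ'C, hψ'0, hψ'O, hψ'm, hψ'v, hψ'u⟩ :=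
    S34PW_valueMap N A K1 X hXF hO hπ m hm hπm (S34R_g N τ • P) hrat' hnn'
  -- the value maps with values in `O1`
  set φ₁ : locRing X m →+* S18K_O1 A K1 := ψ.codRestrict (S18K_O1 A K1) hψO with hφ₁
  set φ₂ : locRing X m →+* S18K_O1 A K1 := ψ'.codRestrict (S18K_O1 A K1) hψ'O with hφ₂
  letI alg : Algebra (S18K_O1 A K1) (locRing X m) := (S34BB_base A K1 X hO m).toAlgebra
  have halg : ∀ o : S18K_O1 A K1,
      algebraMap (S18K_O1 A K1) (locRing X m) o = S34BB_base A K1 X hO m o := fun _ => rfl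
  have hφ₁base : ∀ o : S18K_O1 A K1, φ₁ (S34BB_base A K1 X hO m o) = o := by
    intro o
    apply Subtype.ext
    exact hψC (o : K1) _
  have hφ₂base : ∀ o : S18K_O1 A K1, φ₂ (S34BB_base A K1 X hO m o) = o := by
    intro o
    apply Subtype.ext
    exact hψ'C (o : K1) _
  -- the stages
  choose ϖ k T S c hk hND hDeep using hdeep
  set x : ℕ → locRing X m := fun n => ⟨T n, le_locRing X m (hND n).T_mem⟩ with hx
  set y : ℕ → locRing X m := fun n => ⟨S n, le_locRing X m (hND n).S_mem⟩ with hy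
  -- `R = O1 + (π, T n, S n) R`
  have hgen : ∀ n : ℕ, ∀ r : locRing X m, ∃ (o : S18K_O1 A K1) (r₁ r₂ r₃ : locRing X m),
      r = algebraMap (S18K_O1 A K1) (locRing X m) o +
        algebraMap (S18K_O1 A K1) (locRing X m) (S18K_D A K1).π * r₁ + x n * r₂ + y n * r₃ := by
    intro n r
    have hmem : r - S34BB_base A K1 X hO m (φ₁ r) ∈ IsLocalRing.maximalIdeal (locRing X m) := by
      rw [hψm]
      have h0 : ψ (r - S34BB_base A K1 X hO m (φ₁ r)) = 0 := by
        rw [map_sub]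
        have h1 : ψ (S34BB_base A K1 X hO m (φ₁ r)) = ((φ₁ r : S18K_O1 A K1) : K1) :=
          hψC ((φ₁ r : S18K_O1 A K1) : K1) _
        rw [h1]
        exact sub_self _
      rw [h0, ValuationSubring.mem_nonunits_iff]
      show A.valuation (0 : Qb) < 1
      rw [map_zero]
      exact zero_lt_one
    rw [(hND n).gen hπ] at hmem
    rw [Ideal.mem_span_insert] at hmem
    obtain ⟨r₁, z, hz, e⟩ := hmem
    rw [Ideal.mem_span_pair] at hz
    obtain ⟨r₂, r₃, rfl⟩ := hz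
    refine ⟨φ₁ r, r₁, r₂, r₃, ?_⟩
    have e1 : algebraMap (S18K_O1 A K1) (locRing X m) (S18K_D A K1).π =
        incl X m ⟨S18K_π A K1, hπ⟩ := Subtype.ext rfl
    have e2 : x n = incl X m ⟨T n, (hND n).T_mem⟩ := Subtype.ext rfl
    have e3 : y n = incl X m ⟨S n, (hND n).S_mem⟩ := Subtype.ext rfl
    rw [halg, e1, e2, e3]
    linear_combination e
  -- agreement on the constants
  have hOeq : ∀ o : S18K_O1 A K1, φ₁ (algebraMap (S18K_O1 A K1) (locRing X m) o) =
      φ₂ (algebraMap (S18K_O1 A K1) (locRing X m) o) := by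
    intro o
    rw [halg, hφ₁base, hφ₂base]
  have hπφ : φ₁ (algebraMap (S18K_O1 A K1) (locRing X m) (S18K_D A K1).π) = (S18K_D A K1).π := by
    rw [halg, hφ₁base]
  -- the values of the coordinates
  have hval : ∀ (n : ℕ) (Z : LaurentSeries K1) (hZ : Z ∈ locRing X m)
      (hfix : S34ACT_act K1 hstab τ Z = Z) (a : K1),
      S34K_ValueAt N K1 P Z (a : Qb) → (∃ a' : K1, (a' : Qb) ∈ A ∧ a = ϖ n ^ k n * a') →
      φ₁ ⟨Z, hZ⟩ ∈ Ideal.span {(S18K_D A K1).π ^ n} ∧
        φ₂ ⟨Z, hZ⟩ ∈ Ideal.span {(S18K_D A K1).π ^ n} := by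
    intro n Z hZ hfix a hva ⟨a', ha', hae⟩
    have hϖ := (hND n).ϖ_nonunit
    constructor
    · obtain ⟨d, hd⟩ := S34BB_pow_dvd A K1 hϖ (hk n) ⟨a', ha'⟩
      rw [Ideal.mem_span_singleton]
      refine ⟨d, ?_⟩
      apply Subtype.ext
      rw [← hd]
      have h1 : ((a : K1) : Qb) = ((ψ ⟨Z, hZ⟩ : K1) : Qb) := hψu ⟨Z, hZ⟩ _ hva
      have h2 : ψ ⟨Z, hZ⟩ = a := (Subtype.ext h1).symm
      show ψ ⟨Z, hZ⟩ = ϖ n ^ k n * a'
      rw [h2, hae]
    · have hτa' : τ (a' : Qb) ∈ A := S34ACT_inertia_mem A τ hτ _ ha'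
      have hmemK : S34ACT_res K1 hstab τ a' ∈ S18K_O1 A K1 := hτa'
      obtain ⟨d, hd⟩ := S34BB_pow_dvd A K1 hϖ (hk n) ⟨S34ACT_res K1 hstab τ a', hmemK⟩
      rw [Ideal.mem_span_singleton]
      refine ⟨d, ?_⟩
      apply Subtype.ext
      rw [← hd]
      have h0 := S34CI_valueAt N K1 hstab τ P hva
      rw [hfix] at h0
      have h1 : τ ((a : K1) : Qb) = ((ψ' ⟨Z, hZ⟩ : K1) : Qb) := hψ'u ⟨Z, hZ⟩ _ h0
      show ψ' ⟨Z, hZ⟩ = ϖ n ^ k n * S34ACT_res K1 hstab τ a'
      apply Subtype.ext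
      rw [← h1, hae]
      show τ (((ϖ n ^ k n * a' : K1)) : Qb) = _
      have e1 : (((ϖ n ^ k n * a' : K1)) : Qb) = ((ϖ n : K1) : Qb) ^ k n * (a' : Qb) := rfl
      have e2 : (((ϖ n ^ k n * S34ACT_res K1 hstab τ a' : K1)) : Qb)
          = ((ϖ n : K1) : Qb) ^ k n * τ (a' : Qb) := rfl
      rw [e1, e2, map_mul, map_pow, (hND n).ϖ_fix τ hτ]
  have hvx : ∀ n, φ₁ (x n) ∈ Ideal.span {(S18K_D A K1).π ^ n} ∧
      φ₂ (x n) ∈ Ideal.span {(S18K_D A K1).π ^ n} := by
    intro n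
    obtain ⟨a, b, hTa, hSb, ha, hb⟩ := hDeep n
    exact hval n (T n) _ ((hND n).T_fix τ hτ) a hTa ha
  have hvy : ∀ n, φ₁ (y n) ∈ Ideal.span {(S18K_D A K1).π ^ n} ∧
      φ₂ (y n) ∈ Ideal.span {(S18K_D A K1).π ^ n} := by
    intro n
    obtain ⟨a, b, hTa, hSb, ha, hb⟩ := hDeep n
    exact hval n (S n) _ ((hND n).S_fix τ hτ) b hSb hb
  have key : φ₁ = φ₂ := by
    refine S34DB_eq (S18K_D A K1).π x y hgen φ₁ φ₂ hOeq ?_ ?_ ?_ ?_ ?_
    · intro n; rw [hπφ]; exact (hvx n).1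
    · intro n; rw [hπφ]; exact (hvy n).1
    · intro n; rw [hπφ]; exact (hvx n).2
    · intro n; rw [hπφ]; exact (hvy n).2
    · intro z hz
      rw [hπφ] at hz
      exact S34BB_sep A K1 z hz
  have hψeq : ∀ r : locRing X m, ψ r = ψ' r := by
    intro r
    have := congrArg (fun f : locRing X m →+* S18K_O1 A K1 => ((f r : S18K_O1 A K1) : K1)) key
    exact this
  -- place extensionality
  have hx0R : x0 ∈ locRing X m := le_locRing X m hx0X
  refine S34PX_ext N A K1 x0 hx0 X hX P (S34R_g N τ • P) hrat (hnn x0 hx0R hx0ne)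
    (hnn' x0 hx0R hx0ne) ?_
  intro a ha ha0 hpos
  have haR : a ∈ locRing X m := le_locRing X m ha
  have h1 : ψ' ⟨a, haR⟩ = 0 := (hψ'0 ⟨a, haR⟩ ha0).mpr hpos
  rw [← hψeq] at h1
  exact (hψ0 ⟨a, haR⟩ ha0).mp h1

end Fermat.Agent.S34_helper6_BB
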