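import Mathlib
import Fermat.Agent.S34_helper6_BB
import Fermat.Agent.S34_helper2_HARTOGSK

/-!
# S34, X-LOCGEN, branch (B): the wrappers for the charts of a two-valuation setup (helper6)

* `S34BBW_chart` : the contract `S34LGK_BranchB` (helper7, `S34_helper7_LGDefs`) for every chart
  `X` of a two-valuation setup on which inertia preserves the centres;
* `S34BBW_A0`, `S34BBW_Ainf` : the same for `S18K_A0`, `S18K_Ainf` with `S34K_CentredInert` from
  `S34K_Inert` (helper21).

All three are instances of `S34BB_branchB` (`S34_helper6_BB`).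
-/

set_option autoImplicit false
set_option linter.unusedSectionVars false
set_option linter.unusedVariables false
set_option linter.style.haveILetI false
set_option maxHeartbeats 1000000

open AlgebraicCurve ModularCurve HahnSeries IntermediateField
open Fermat.Agent.S18_helper25_COREDefs
  Fermat.Agent.S18_helper9_CDefs Fermat.Agent.S34_helper12_CDefs
  Fermat.Agent.S34_Contracts Fermat.Agent.S34_helper7_LGDefs
  Fermat.Agent.S34_helper6_BB

noncomputable section

namespace Fermat.Agent.S34_helper6_BBW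

local notation "Qb" => AlgebraicClosure ℚ
local notation "GQ" => (AlgebraicClosure ℚ ≃ₐ[ℚ] AlgebraicClosure ℚ)

variable (N : ℕ) [NeZero N] (A : ValuationSubring Qb) (K1 : IntermediateField ℚ Qb)
  (hstab : ∀ σ : GQ, ∀ x ∈ K1, σ x ∈ K1) [IsDiscreteValuationRing (S18K_O1 A K1)]

/-- **X-LOCGEN-B for a chart of a two-valuation setup.** -/
theorem S34BBW_chart (V2 A0 Ainf : Subring (LaurentSeries K1))
    (S : S34C_Setup2 (S18K_O A K1) (S18K_π A K1) (S18K_j K1) (S18K_F1 K1 N) (S18K_V A K1 N) V2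
      A0 Ainf)
    (x : LaurentSeries K1) (hx : x = S18K_j K1 ∨ x = (S18K_j K1)⁻¹)
    (X : Subring (LaurentSeries K1))
    (hC : Chart (S18K_O A K1) (S18K_π A K1) x (S18K_F1 K1 N) (S18K_V A K1 N ⊓ V2) X)
    (hCI : S34K_CentredInert N A K1 X) :
    S34LGK_BranchB N A K1 hstab V2 X := by
  have hXF : ∀ a ∈ X, a ∈ S18K_F1 K1 N := fun a ha => ((hC.mem_iff a).1 ha).2
  have hO : S18K_O A K1 ≤ X := Fermat.Agent.S34_helper2_HARTOGSK.S34HK_O_le S hC
  have hj0 : S18K_j K1 ≠ 0 := by
    intro h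
    refine S.j_trans ?_
    rw [h]
    exact isAlgebraic_zero
  have hx0 : x ≠ 0 := by
    rcases hx with rfl | rfl
    · exact hj0
    · exact inv_ne_zero hj0
  have hxF : x ∈ S18K_F1 K1 N := by
    rcases hx with rfl | rfl
    · exact S.j_mem
    · exact (S18K_F1 K1 N).inv_mem S.j_mem
  have hxX : x ∈ X := by
    refine (hC.mem_iff x).2 ⟨?_, hxF⟩
    have hmem : x ∈ adj (S18K_O A K1) x := Subring.subset_closure (Or.inr rfl)
    exact isIntegral_algebraMap (R := adj (S18K_O A K1) x) (A := LaurentSeries K1)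
      (x := ⟨x, hmem⟩)
  exact S34BB_branchB N A K1 hstab V2 X hXF hO x hx hxX hx0
    (fun y hy hyF => (hC.mem_iff y).2 ⟨hy, hyF⟩) hCI

/-- **X-LOCGEN-B on the finite chart.** -/
theorem S34BBW_A0 (V2 : Subring (LaurentSeries K1))
    (S : S34C_Setup2 (S18K_O A K1) (S18K_π A K1) (S18K_j K1) (S18K_F1 K1 N) (S18K_V A K1 N) V2
      (S18K_A0 A K1 N) (S18K_Ainf A K1 N))
    (hInert : S34K_Inert A K1 hstab V2) :
    S34LGK_BranchB N A K1 hstab V2 (S18K_A0 A K1 N) :=
  S34BBW_chart N A K1 hstab V2 _ _ S _ (Or.inl rfl) _ S.chart0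
    (Fermat.Agent.S34_helper21_CI.S34CI_A0 N A K1 hstab V2 S hInert)

/-- **X-LOCGEN-B on the chart at infinity.** -/
theorem S34BBW_Ainf (V2 : Subring (LaurentSeries K1))
    (S : S34C_Setup2 (S18K_O A K1) (S18K_π A K1) (S18K_j K1) (S18K_F1 K1 N) (S18K_V A K1 N) V2
      (S18K_A0 A K1 N) (S18K_Ainf A K1 N))
    (hInert : S34K_Inert A K1 hstab V2) :
    S34LGK_BranchB N A K1 hstab V2 (S18K_Ainf A K1 N) :=
  S34BBW_chart N A K1 hstab V2 _ _ S _ (Or.inr rfl) _ S.chartInf
    (Fermat.Agent.S34_helper21_CI.S34CI_Ainf N A K1 hstab V2 S hInert)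

end Fermat.Agent.S34_helper6_BBW
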