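import Mathlib
import Fermat.Agent.S18_helper9_CDefs
import Fermat.Agent.S34_helper12_CDefs

/-!
# S34, piece X-CUSP (helper18): the cusps of the chart at infinity at level `q N'`

Setting: the two-valuation setup `S34C_Setup2 O π j F1 V1 V2 A0 Ainf` of the block C' integrator
(`V1 = V_∞`, `V2 = V_0`), `θ = j_q` the second coordinate, related to `j` by the modular equation
`M(j, θ) = 0`, `M = Y^(q+1) + ∑ a_i(X) Y^i` with `deg a_i ≤ q` for `1 ≤ i ≤ q` and `a_0` monic of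
degree `q + 1` (`S34CUSP_Rel`).

* `S34CUSP_H_mem`      : `H = j⁻¹ ^ q * θ ∈ Ainf`;
* `S34CUSP_S_mem`      : `S = d * θ⁻¹ ∈ Ainf`, `d = M(j,0) * j⁻¹ ^ (q+1) ∈ 1 + j⁻¹ O[j⁻¹]`;
* `S34CUSP_S_pow_mem`  : `S ^ (q+1) ∈ j⁻¹ * Ainf` (so `S` lies in every cusp);
* `S34CUSP_noCross`    : a maximal ideal `m ∋ π, j⁻¹` of `Ainf` lies on ONE component only, in the
  shape `(d, hdm, hd1, hd2)` consumed by the local lift at smooth points.
-/

set_option autoImplicit false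

namespace Fermat.Agent.S34_helper18_CUSP

open Polynomial Fermat.Agent.S18_helper9_CDefs Fermat.Agent.S34_helper12_CDefs

variable {L : Type*} [Field L]

/-! ### generic lemmas -/

/-- A root of a monic polynomial over `L` all of whose coefficients lie in the subring `B` is
integral over `B`. -/
theorem S34CUSP_isIntegral_of_coeff_mem (B : Subring L) (P : L[X]) (hP : P.Monic)
    (hc : ∀ i, P.coeff i ∈ B) (x : L) (hx : P.eval x = 0) : IsIntegral B x := by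
  have hl : P ∈ Polynomial.lifts B.subtype := by
    rw [Polynomial.lifts_iff_coeff_lifts]
    intro n
    exact ⟨⟨P.coeff n, hc n⟩, rfl⟩
  obtain ⟨Q, hQ, -, hQm⟩ := Polynomial.lifts_and_natDegree_eq_and_monic hl hP
  refine ⟨Q, hQm, ?_⟩
  have h1 : Polynomial.eval₂ B.subtype x Q = 0 := by
    rw [← Polynomial.eval_map, hQ, hx]
  exact h1

theorem S34CUSP_O_le_adj (O : Subring L) (x : L) : O ≤ adj O x := fun _ ha =>
  Subring.subset_closure (Or.inl ha)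

theorem S34CUSP_mem_adj (O : Subring L) (x : L) : x ∈ adj O x :=
  Subring.subset_closure (Or.inr rfl)

/-- `a(j) * j⁻¹ ^ n ∈ O[j⁻¹]` for a polynomial `a` over `O` of degree `≤ n`. -/
theorem S34CUSP_aeval_mul_pow_mem (O : Subring L) (j : L) (hj : j ≠ 0) (a : (O)[X]) (n : ℕ)
    (ha : a.natDegree ≤ n) : aeval j a * j⁻¹ ^ n ∈ adj O j⁻¹ := by
  rw [aeval_eq_sum_range' (Nat.lt_succ_of_le ha), Finset.sum_mul]
  refine Subring.sum_mem _ fun i hi => ?_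
  have hi' : i ≤ n := Nat.lt_succ_iff.mp (Finset.mem_range.mp hi)
  have h1 : (a.coeff i) • j ^ i * j⁻¹ ^ n = ((a.coeff i : O) : L) * j⁻¹ ^ (n - i) := by
    rw [Algebra.smul_def, mul_assoc]
    congr 1
    have : j⁻¹ ^ n = j⁻¹ ^ i * j⁻¹ ^ (n - i) := by
      rw [← pow_add]; congr 1; omega
    rw [this, ← mul_assoc, ← mul_pow, mul_inv_cancel₀ hj, one_pow, one_mul]
  rw [h1]
  exact Subring.mul_mem _ (S34CUSP_O_le_adj O _ (a.coeff i).2)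
    (Subring.pow_mem _ (S34CUSP_mem_adj O _) _)

/-- for `a` monic of degree `n + 1`: `a(j) * j⁻¹ ^ (n+1) = 1 + j⁻¹ * b` with `b ∈ O[j⁻¹]`. -/
theorem S34CUSP_monic_aeval_mul_pow (O : Subring L) (j : L) (hj : j ≠ 0) (a : (O)[X]) (n : ℕ)
    (ham : a.Monic) (han : a.natDegree = n + 1) :
    ∃ b ∈ adj O j⁻¹, aeval j a * j⁻¹ ^ (n + 1) = 1 + j⁻¹ * b := by
  have h1 : a.eraseLead + Polynomial.monomial a.natDegree a.leadingCoeff = a :=
    Polynomial.eraseLead_add_monomial_natDegree_leadingCoeff a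
  have h2 : a.eraseLead.natDegree ≤ n := by
    have := Polynomial.eraseLead_natDegree_le a
    omega
  refine ⟨aeval j a.eraseLead * j⁻¹ ^ n, S34CUSP_aeval_mul_pow_mem O j hj _ n h2, ?_⟩
  have h3 : aeval j a = aeval j a.eraseLead + j ^ (n + 1) := by
    conv_lhs => rw [← h1]
    rw [map_add, han, ham.leadingCoeff, Polynomial.aeval_monomial, map_one, one_mul]
  rw [h3, add_mul, ← mul_pow, mul_inv_cancel₀ hj, one_pow, pow_succ]
  ring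

/-! ### the modular relation -/

/-- The modular relation between `j` and `θ`: `θ` is a root of a monic polynomial `M` of degree
`q + 1` over `L` whose coefficients are `M_i = a_i(j)`, `a_i ∈ O[X]`, `deg a_i ≤ q` for
`1 ≤ i ≤ q`, `a_0` monic of degree `q + 1`. (For `θ = j_q`: `M = Φ_q(j, Y)`.) -/
def S34CUSP_Rel (O : Subring L) (j θ : L) (q : ℕ) : Prop :=
  ∃ M : L[X], M.Monic ∧ M.natDegree = q + 1 ∧ M.eval θ = 0 ∧
    (∀ i, 1 ≤ i → i ≤ q → ∃ a : (O)[X], a.natDegree ≤ q ∧ M.coeff i = aeval j a) ∧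
    ∃ a : (O)[X], a.Monic ∧ a.natDegree = q + 1 ∧ M.coeff 0 = aeval j a

/-- The modular relation in "sum form". -/
def S34CUSP_RelSum (O : Subring L) (j θ : L) (q : ℕ) : Prop :=
  ∃ a : ℕ → (O)[X], (∀ i, 1 ≤ i → i ≤ q → (a i).natDegree ≤ q) ∧ (a 0).Monic ∧
    (a 0).natDegree = q + 1 ∧
    θ ^ (q + 1) + ∑ i ∈ Finset.range (q + 1), aeval j (a i) * θ ^ i = 0

theorem S34CUSP_rel_of_relSum {O : Subring L} {j θ : L} {q : ℕ}
    (h : S34CUSP_RelSum O j θ q) : S34CUSP_Rel O j θ q := by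
  obtain ⟨a, ha, ha0m, ha0d, hrel⟩ := h
  set T : L[X] := ∑ i ∈ Finset.range (q + 1), Polynomial.C (aeval j (a i)) * Polynomial.X ^ i
    with hT
  have hTdeg : T.degree < ((q + 1 : ℕ) : WithBot ℕ) := by
    rw [hT, Finset.sum_range]
    exact Polynomial.degree_sum_fin_lt fun i : Fin (q + 1) => aeval j (a i)
  have hTcoeff : ∀ i, i ≤ q → T.coeff i = aeval j (a i) := by
    intro i hi
    rw [hT, Polynomial.finsetSum_coeff]
    rw [Finset.sum_eq_single i]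
    · rw [Polynomial.coeff_C_mul_X_pow, if_pos rfl]
    · intro k _ hki
      rw [Polynomial.coeff_C_mul_X_pow, if_neg (fun h => hki h.symm)]
    · intro hi'
      exact absurd (Finset.mem_range.mpr (Nat.lt_succ_of_le hi)) hi'
  have hM : (Polynomial.X ^ (q + 1) + T).Monic := Polynomial.monic_X_pow_add hTdeg
  have hMd : (Polynomial.X ^ (q + 1) + T).natDegree = q + 1 := by
    rw [Polynomial.natDegree_add_eq_left_of_degree_lt, Polynomial.natDegree_X_pow]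
    rw [Polynomial.degree_X_pow]
    exact hTdeg
  have hcoeff : ∀ i, i ≤ q → (Polynomial.X ^ (q + 1) + T).coeff i = aeval j (a i) := by
    intro i hi
    rw [Polynomial.coeff_add, Polynomial.coeff_X_pow, if_neg (by omega), zero_add, hTcoeff i hi]
  refine ⟨Polynomial.X ^ (q + 1) + T, hM, hMd, ?_, ?_, ?_⟩
  · rw [Polynomial.eval_add, Polynomial.eval_pow, Polynomial.eval_X, hT,
      Polynomial.eval_finsetSum]
    simpa using hrel
  · intro i hi1 hiq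
    exact ⟨a i, ha i hi1 hiq, hcoeff i hiq⟩
  · exact ⟨a 0, ha0m, ha0d, hcoeff 0 (Nat.zero_le _)⟩

/-! ### elementary consequences of the chart -/

section Chart

variable {O : Subring L} {π j : L} {F1 : Subfield L} {V A : Subring L}

theorem S34CUSP_adj_le_F1 (hO : (O : Set L) ⊆ F1) {x : L} (hx : x ∈ F1) :
    (adj O x : Set L) ⊆ F1 := by
  intro y hy
  have h : adj O x ≤ F1.toSubring := by
    refine Subring.closure_le.mpr ?_
    rintro z (hz | hz)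
    · exact hO hz
    · rw [Set.mem_singleton_iff] at hz; rw [hz]; exact hx
  exact h hy

theorem S34CUSP_adj_le_chart (hC : Chart O π j⁻¹ F1 V A) (hO : (O : Set L) ⊆ F1)
    (hj : j ∈ F1) : adj O j⁻¹ ≤ A := fun y hy =>
  (hC.mem_iff y).mpr ⟨isIntegral_algebraMap (x := (⟨y, hy⟩ : adj O j⁻¹)),
    S34CUSP_adj_le_F1 hO (F1.inv_mem hj) hy⟩

/-- the chart is integrally closed in `F1` -/
theorem S34CUSP_mem_of_isIntegral (hC : Chart O π j⁻¹ F1 V A) {y : L} (hy : y ∈ F1)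
    (h : IsIntegral (adj O j⁻¹) y) : y ∈ A :=
  (hC.mem_iff y).mpr ⟨h, hy⟩

end Chart

/-! ### the two integral elements at the cusps -/

section Integral

variable {O : Subring L} {π j θ : L} {F1 : Subfield L} {V A : Subring L} {q : ℕ}

/-- `H = j⁻¹ ^ q * θ` is integral over `O[j⁻¹]`. -/
theorem S34CUSP_H_isIntegral (hq : 1 ≤ q) (hj : j ≠ 0) (hrel : S34CUSP_Rel O j θ q) :
    IsIntegral (adj O j⁻¹) (j⁻¹ ^ q * θ) := by
  obtain ⟨M, hM, hMd, hMθ, hMi, a0, ha0m, ha0d, hM0⟩ := hrel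
  refine S34CUSP_isIntegral_of_coeff_mem _ (Polynomial.scaleRoots M (j⁻¹ ^ q))
    ((Polynomial.monic_scaleRoots_iff _).mpr hM) ?_ _ ?_
  · intro i
    rw [Polynomial.coeff_scaleRoots, hMd]
    rcases Nat.lt_or_ge (q + 1) i with hi | hi
    · rw [Polynomial.coeff_eq_zero_of_natDegree_lt (by omega), zero_mul]
      exact Subring.zero_mem _
    rcases Nat.eq_or_lt_of_le hi with hi | hi
    · rw [hi, ← hMd, hM.coeff_natDegree, Nat.sub_self, pow_zero, mul_one]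
      exact Subring.one_mem _
    rcases Nat.eq_zero_or_pos i with h0 | h0
    · subst h0
      rw [hM0, Nat.sub_zero, ← pow_mul]
      have h1 : q * (q + 1) = (q + 1) + (q * (q + 1) - (q + 1)) := by
        have : q + 1 ≤ q * (q + 1) := Nat.le_mul_of_pos_left _ (by omega)
        exact (Nat.add_sub_of_le this).symm
      rw [h1, pow_add, ← mul_assoc]
      exact Subring.mul_mem _ (S34CUSP_aeval_mul_pow_mem O j hj a0 (q + 1) ha0d.le)
        (Subring.pow_mem _ (S34CUSP_mem_adj O _) _)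
    · obtain ⟨a, had, hMa⟩ := hMi i h0 (by omega)
      rw [hMa, ← pow_mul]
      have h1 : q * (q + 1 - i) = q + (q * (q + 1 - i) - q) := by
        have : q ≤ q * (q + 1 - i) := Nat.le_mul_of_pos_right _ (by omega)
        exact (Nat.add_sub_of_le this).symm
      rw [h1, pow_add, ← mul_assoc]
      exact Subring.mul_mem _ (S34CUSP_aeval_mul_pow_mem O j hj a q had)
        (Subring.pow_mem _ (S34CUSP_mem_adj O _) _)
  · rw [Polynomial.scaleRoots_eval_mul, hMθ, mul_zero]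

/-- **The element `S = d * θ⁻¹`**: `d = M(j,0) * j⁻¹ ^ (q+1) = 1 + j⁻¹ b` with `b ∈ O[j⁻¹]`, and
`S` is a root of a monic polynomial `Q` of degree `q + 1` over `O[j⁻¹]` all of whose lower
coefficients are divisible by `j⁻¹`. -/
theorem S34CUSP_S_poly (hj : j ≠ 0) (hθ0 : θ ≠ 0) (htr : Transcendental O j)
    (hrel : S34CUSP_Rel O j θ q) :
    ∃ d b : L, b ∈ adj O j⁻¹ ∧ d = 1 + j⁻¹ * b ∧ ∃ Q : L[X], Q.Monic ∧ Q.natDegree = q + 1 ∧
      Q.eval (d * θ⁻¹) = 0 ∧ ∀ n, n ≤ q → ∃ c ∈ adj O j⁻¹, Q.coeff n = j⁻¹ * c := by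
  obtain ⟨M, hM, hMd, hMθ, hMi, a0, ha0m, ha0d, hM0⟩ := hrel
  have hu0 : j⁻¹ ≠ 0 := inv_ne_zero hj
  have hM00 : M.coeff 0 ≠ 0 := by
    rw [hM0]
    intro h
    exact htr ⟨a0, ha0m.ne_zero, h⟩
  obtain ⟨b, hb, hdb⟩ := S34CUSP_monic_aeval_mul_pow O j hj a0 q ha0m ha0d
  have hMtd : M.natTrailingDegree = 0 :=
    Polynomial.natTrailingDegree_eq_zero.mpr (Or.inr hM00)
  have hRd : M.reverse.natDegree = q + 1 := by
    rw [Polynomial.reverse_natDegree, hMtd, hMd, Nat.sub_zero]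
  have hRl : M.reverse.leadingCoeff = M.coeff 0 := by
    rw [Polynomial.reverse_leadingCoeff, Polynomial.trailingCoeff, hMtd]
  have hR0 : M.reverse ≠ 0 := by
    intro h
    rw [h, Polynomial.leadingCoeff_zero] at hRl
    exact hM00 hRl.symm
  have hRθ : M.reverse.eval θ⁻¹ = 0 := by
    let _ := invertibleOfNonzero hθ0
    have := (Polynomial.eval₂_reverse_eq_zero_iff (RingHom.id L) θ M).mpr hMθ
    rwa [invOf_eq_inv] at this
  set P₁ : L[X] := Polynomial.C (j⁻¹ ^ (q + 1)) * M.reverse with hP₁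
  have hc0 : j⁻¹ ^ (q + 1) ≠ 0 := pow_ne_zero _ hu0
  have hP₁d : P₁.natDegree = q + 1 := by
    rw [hP₁, Polynomial.natDegree_C_mul hc0, hRd]
  have hP₁l : P₁.leadingCoeff = M.coeff 0 * j⁻¹ ^ (q + 1) := by
    rw [hP₁, Polynomial.leadingCoeff_mul, Polynomial.leadingCoeff_C, hRl, mul_comm]
  have hP₁0 : P₁ ≠ 0 := mul_ne_zero (Polynomial.C_ne_zero.mpr hc0) hR0
  have hP₁θ : P₁.eval θ⁻¹ = 0 := by
    rw [hP₁, Polynomial.eval_mul, hRθ, mul_zero]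
  refine ⟨M.coeff 0 * j⁻¹ ^ (q + 1), b, hb, by rw [hM0, hdb], P₁.integralNormalization,
    Polynomial.monic_integralNormalization hP₁0, ?_, ?_, ?_⟩
  · rw [Polynomial.natDegree_integralNormalization, hP₁d]
  · have := Polynomial.integralNormalization_eval₂_eq_zero (RingHom.id L) (p := P₁)
      (z := θ⁻¹) hP₁θ (fun x hx => hx)
    rw [RingHom.id_apply, hP₁l] at this
    exact this
  · intro n hn
    have hd_mem : M.coeff 0 * j⁻¹ ^ (q + 1) ∈ adj O j⁻¹ := by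
      rw [hM0, hdb]
      exact Subring.add_mem _ (Subring.one_mem _)
        (Subring.mul_mem _ (S34CUSP_mem_adj O _) hb)
    rw [Polynomial.integralNormalization_coeff_ne_natDegree (by rw [hP₁d]; omega), hP₁l, hP₁d,
      hP₁, Polynomial.coeff_C_mul, Polynomial.coeff_reverse, hMd,
      Polynomial.revAt_le (by omega : n ≤ q + 1)]
    rcases Nat.eq_zero_or_pos n with h0 | h0
    · subst h0
      rw [Nat.sub_zero, ← hMd, hM.coeff_natDegree, mul_one, hMd]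
      refine ⟨j⁻¹ ^ q * (M.coeff 0 * j⁻¹ ^ (q + 1)) ^ (q + 1 - 1 - 0), ?_, ?_⟩
      · exact Subring.mul_mem _ (Subring.pow_mem _ (S34CUSP_mem_adj O _) _)
          (Subring.pow_mem _ hd_mem _)
      · rw [pow_succ]; ring
    · obtain ⟨a, had, hMa⟩ := hMi (q + 1 - n) (by omega) (by omega)
      refine ⟨(aeval j a * j⁻¹ ^ q) * (M.coeff 0 * j⁻¹ ^ (q + 1)) ^ (q + 1 - 1 - n), ?_, ?_⟩
      · exact Subring.mul_mem _ (S34CUSP_aeval_mul_pow_mem O j hj a q had)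
          (Subring.pow_mem _ hd_mem _)
      · rw [hMa, pow_succ]; ring

end Integral

/-! ### the chart at infinity of the two-valuation setup -/

section Main

variable {O : Subring L} {π j θ : L} {F1 : Subfield L} {V1 V2 A0 Ainf : Subring L} {q : ℕ}

theorem S34CUSP_j_ne_zero (S : S34C_Setup2 O π j F1 V1 V2 A0 Ainf) : j ≠ 0 := by
  intro h
  refine S.j_trans ⟨Polynomial.X, Polynomial.X_ne_zero, ?_⟩
  rw [Polynomial.aeval_X, h]

theorem S34CUSP_π_ne_zero (S : S34C_Setup2 O π j F1 V1 V2 A0 Ainf) : π ≠ 0 := by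
  intro h
  have := (S.π_irr S.π_mem).ne_zero
  exact this (Subtype.ext h)

theorem S34CUSP_adj_le_Ainf (S : S34C_Setup2 O π j F1 V1 V2 A0 Ainf) : adj O j⁻¹ ≤ Ainf :=
  S34CUSP_adj_le_chart S.chartInf S.O_le S.j_mem

theorem S34CUSP_jinv_mem (S : S34C_Setup2 O π j F1 V1 V2 A0 Ainf) : j⁻¹ ∈ Ainf :=
  S34CUSP_adj_le_Ainf S (S34CUSP_mem_adj O _)

/-- `H = j⁻¹ ^ q * θ` lies in the chart at infinity. -/
theorem S34CUSP_H_mem (S : S34C_Setup2 O π j F1 V1 V2 A0 Ainf) (hq : 1 ≤ q) (hθ : θ ∈ F1)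
    (hrel : S34CUSP_Rel O j θ q) : j⁻¹ ^ q * θ ∈ Ainf :=
  S34CUSP_mem_of_isIntegral S.chartInf
    (F1.mul_mem (F1.pow_mem (F1.inv_mem S.j_mem) q) hθ)
    (S34CUSP_H_isIntegral hq (S34CUSP_j_ne_zero S) hrel)

theorem S34CUSP_θ_ne_zero (S : S34C_Setup2 O π j F1 V1 V2 A0 Ainf)
    (hrel : S34CUSP_Rel O j θ q) : θ ≠ 0 := by
  obtain ⟨M, hM, hMd, hMθ, hMi, a0, ha0m, ha0d, hM0⟩ := hrel
  intro h
  rw [h, ← Polynomial.coeff_zero_eq_eval_zero, hM0] at hMθ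
  exact S.j_trans ⟨a0, ha0m.ne_zero, hMθ⟩

/-- **`1/θ` is integral over `O[1/j]` near the cusps**: `S = d * θ⁻¹ ∈ Ainf` with
`d = 1 + j⁻¹ b ∈ Ainf`, and `S ^ (q + 1) ∈ j⁻¹ * Ainf`. -/
theorem S34CUSP_S_mem (S : S34C_Setup2 O π j F1 V1 V2 A0 Ainf) (hθ : θ ∈ F1)
    (hrel : S34CUSP_Rel O j θ q) :
    ∃ d b : L, b ∈ Ainf ∧ d = 1 + j⁻¹ * b ∧ d ∈ Ainf ∧ d * θ⁻¹ ∈ Ainf ∧
      ∃ c ∈ Ainf, (d * θ⁻¹) ^ (q + 1) = j⁻¹ * c := by
  have hj0 := S34CUSP_j_ne_zero S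
  have hθ0 := S34CUSP_θ_ne_zero S hrel
  obtain ⟨d, b, hb, hdb, Q, hQm, hQd, hQS, hQc⟩ := S34CUSP_S_poly hj0 hθ0 S.j_trans hrel
  have hbA : b ∈ Ainf := S34CUSP_adj_le_Ainf S hb
  have huA := S34CUSP_jinv_mem S
  have hdA : d ∈ Ainf := by
    rw [hdb]
    exact Subring.add_mem _ (Subring.one_mem _) (Subring.mul_mem _ huA hbA)
  have hdF : d ∈ F1 := ((S.chartInf.mem_iff d).mp hdA).2
  have hSint : IsIntegral (adj O j⁻¹) (d * θ⁻¹) := by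
    refine S34CUSP_isIntegral_of_coeff_mem _ Q hQm ?_ _ hQS
    intro n
    rcases Nat.lt_or_ge q n with hn | hn
    · rcases Nat.eq_or_lt_of_le (Nat.succ_le_of_lt hn) with hn' | hn'
      · rw [← hn', Nat.succ_eq_add_one, ← hQd, hQm.coeff_natDegree]
        exact Subring.one_mem _
      · rw [Polynomial.coeff_eq_zero_of_natDegree_lt (by rw [hQd]; exact hn')]
        exact Subring.zero_mem _
    · obtain ⟨c, hc, hQn⟩ := hQc n hn
      rw [hQn]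
      exact Subring.mul_mem _ (S34CUSP_mem_adj O _) hc
  have hSA : d * θ⁻¹ ∈ Ainf :=
    S34CUSP_mem_of_isIntegral S.chartInf (F1.mul_mem hdF (F1.inv_mem hθ)) hSint
  refine ⟨d, b, hbA, hdb, hdA, hSA, ?_⟩
  choose! c hc hQn using hQc
  refine ⟨-∑ n ∈ Finset.range (q + 1), c n * (d * θ⁻¹) ^ n, ?_, ?_⟩
  · refine Subring.neg_mem _ (Subring.sum_mem _ fun n hn => ?_)
    have hn' : n ≤ q := Nat.lt_succ_iff.mp (Finset.mem_range.mp hn)
    exact Subring.mul_mem _ (S34CUSP_adj_le_Ainf S (hc n hn')) (Subring.pow_mem _ hSA _)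
  · have h1 := hQS
    rw [Polynomial.eval_eq_sum_range, hQd, Finset.sum_range_succ, ← hQd, hQm.coeff_natDegree,
      hQd, one_mul] at h1
    have h2 : ∑ n ∈ Finset.range (q + 1), Q.coeff n * (d * θ⁻¹) ^ n =
        j⁻¹ * ∑ n ∈ Finset.range (q + 1), c n * (d * θ⁻¹) ^ n := by
      rw [Finset.mul_sum]
      refine Finset.sum_congr rfl fun n hn => ?_
      have hn' : n ≤ q := Nat.lt_succ_iff.mp (Finset.mem_range.mp hn)
      rw [hQn n hn', mul_assoc]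
    rw [h2] at h1
    rw [mul_neg]
    exact eq_neg_of_add_eq_zero_right h1

/-- The decomposition behind "no crossing at the cusps": there are `x, y, z, D ∈ Ainf` with
`x ∈ π V1`, `y ∈ π V2`, `z ^ (q+1) ∈ j⁻¹ Ainf`, `D ∈ 1 + j⁻¹ Ainf` and
`x + y + z ^ (q² - 1) = D`. -/
theorem S34CUSP_decomp (S : S34C_Setup2 O π j F1 V1 V2 A0 Ainf) (hq : 1 ≤ q) (hθ : θ ∈ F1)
    (hrel : S34CUSP_Rel O j θ q)
    (hK1 : ∃ v ∈ V1, θ - j ^ q = π * v) (hK2 : ∃ v ∈ V2, j - θ ^ q = π * v)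
    (hθ2 : θ ∈ V2) (hθ2' : θ⁻¹ ∈ V2) :
    ∃ x y z D b c : L, x ∈ Ainf ∧ y ∈ Ainf ∧ z ∈ Ainf ∧ D ∈ Ainf ∧ b ∈ Ainf ∧ c ∈ Ainf ∧
      (∃ v ∈ V1, x = π * v) ∧ (∃ v ∈ V2, y = π * v) ∧ z ^ (q + 1) = j⁻¹ * c ∧
      D = 1 + j⁻¹ * b ∧ x + y + z ^ (q ^ 2 - 1) = D := by
  have hj0 := S34CUSP_j_ne_zero S
  have hθ0 := S34CUSP_θ_ne_zero S hrel
  have huA := S34CUSP_jinv_mem S
  have hHA := S34CUSP_H_mem S hq hθ hrel
  obtain ⟨d, b, hbA, hdb, hdA, hSA, c, hcA, hSc⟩ := S34CUSP_S_mem S hθ hrel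
  obtain ⟨v₁, hv₁, hK1⟩ := hK1
  obtain ⟨v₂, hv₂, hK2⟩ := hK2
  have hle1 : Ainf ≤ V1 := fun a ha => (S.chartInf.le_V ha).1
  have hle2 : Ainf ≤ V2 := fun a ha => (S.chartInf.le_V ha).2
  -- `D = d ^ (q² - 1) ∈ 1 + j⁻¹ Ainf`
  have hD : ∀ k : ℕ, ∃ b' ∈ Ainf, d ^ k = 1 + j⁻¹ * b' := by
    intro k
    induction k with
    | zero => exact ⟨0, Subring.zero_mem _, by simp⟩
    | succ k ih =>
      obtain ⟨b', hb', hk⟩ := ih
      refine ⟨b' + b + j⁻¹ * b' * b, ?_, ?_⟩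
      · exact Subring.add_mem _ (Subring.add_mem _ hb' hbA)
          (Subring.mul_mem _ (Subring.mul_mem _ huA hb') hbA)
      · rw [pow_succ, hk, hdb]; ring
  obtain ⟨bD, hbD, hDeq⟩ := hD (q ^ 2 - 1)
  have hDA : d ^ (q ^ 2 - 1) ∈ Ainf := Subring.pow_mem _ hdA _
  have huj : j⁻¹ ^ q * j ^ q = 1 := by rw [← mul_pow, inv_mul_cancel₀ hj0, one_pow]
  have hθs : θ * θ⁻¹ = 1 := mul_inv_cancel₀ hθ0
  refine ⟨d ^ (q ^ 2 - 1) * (1 - j⁻¹ ^ q * θ),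
    d ^ (q ^ 2 - 1) * (j⁻¹ ^ q * θ) - (d * θ⁻¹) ^ (q ^ 2 - 1), d * θ⁻¹, d ^ (q ^ 2 - 1), bD, c,
    ?_, ?_, hSA, hDA, hbD, hcA, ?_, ?_, hSc, hDeq, by ring⟩
  · exact Subring.mul_mem _ hDA (Subring.sub_mem _ (Subring.one_mem _) hHA)
  · exact Subring.sub_mem _ (Subring.mul_mem _ hDA hHA) (Subring.pow_mem _ hSA _)
  · refine ⟨-(d ^ (q ^ 2 - 1) * j⁻¹ ^ q * v₁), ?_, ?_⟩
    · exact Subring.neg_mem _ (Subring.mul_mem _
        (Subring.mul_mem _ (hle1 hDA) (Subring.pow_mem _ (hle1 huA) _)) hv₁)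
    · have h1 : 1 - j⁻¹ ^ q * θ = -(j⁻¹ ^ q * (θ - j ^ q)) := by
        rw [mul_sub, huj]; ring
      rw [h1, hK1]; ring
  · -- `y = d ^ (q²-1) * θ * (u ^ q - s ^ (q²))`, `u ^ q - (s^q)^q = (∑ ...) * (u - s ^ q)`
    have hq2 : q ^ 2 - 1 + 1 = q ^ 2 := Nat.sub_add_cancel (Nat.one_le_pow _ _ hq)
    have h1 : d ^ (q ^ 2 - 1) * (j⁻¹ ^ q * θ) - (d * θ⁻¹) ^ (q ^ 2 - 1) =
        d ^ (q ^ 2 - 1) * θ * (j⁻¹ ^ q - (θ⁻¹ ^ q) ^ q) := by
      have h2 : θ * (θ⁻¹ ^ q) ^ q = θ⁻¹ ^ (q ^ 2 - 1) := by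
        have : (θ⁻¹ ^ q) ^ q = θ⁻¹ ^ (q ^ 2 - 1) * θ⁻¹ := by
          rw [← pow_mul, ← sq, ← pow_succ, hq2]
        rw [this, mul_comm θ, mul_assoc, inv_mul_cancel₀ hθ0, mul_one]
      rw [mul_pow, ← h2]; ring
    have h3 : j⁻¹ - θ⁻¹ ^ q = -((j - θ ^ q) * j⁻¹ * θ⁻¹ ^ q) := by
      have : θ ^ q * θ⁻¹ ^ q = 1 := by rw [← mul_pow, hθs, one_pow]
      have hjj : j * j⁻¹ = 1 := mul_inv_cancel₀ hj0
      calc j⁻¹ - θ⁻¹ ^ q = -((j * j⁻¹) * θ⁻¹ ^ q - (θ ^ q * θ⁻¹ ^ q) * j⁻¹) := by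
            rw [this, hjj]; ring
        _ = -((j - θ ^ q) * j⁻¹ * θ⁻¹ ^ q) := by ring
    have h4 := geom_sum₂_mul j⁻¹ (θ⁻¹ ^ q) q
    refine ⟨d ^ (q ^ 2 - 1) * θ *
      ((∑ i ∈ Finset.range q, j⁻¹ ^ i * (θ⁻¹ ^ q) ^ (q - 1 - i)) *
        -(v₂ * j⁻¹ * θ⁻¹ ^ q)), ?_, ?_⟩
    · refine Subring.mul_mem _ (Subring.mul_mem _ (hle2 hDA) hθ2) (Subring.mul_mem _
        (Subring.sum_mem _ fun i _ => Subring.mul_mem _ (Subring.pow_mem _ (hle2 huA) _)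
          (Subring.pow_mem _ (Subring.pow_mem _ hθ2' _) _))
        (Subring.neg_mem _ (Subring.mul_mem _ (Subring.mul_mem _ hv₂ (hle2 huA))
          (Subring.pow_mem _ hθ2' _))))
    · rw [h1, ← h4, h3, hK2]; ring

/-- **Cusps are never crossing points.** A maximal ideal `m ∋ j⁻¹` of the chart at infinity lies
on ONE of the two components only: there is `d ∈ Ainf`, `d ∉ m`, which is a unit of `V1` and lies
in `π V2`, or the same with `V1`, `V2` exchanged (the shape `(d, hdm, hd1, hd2)` of the local lift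
at smooth points). -/
theorem S34CUSP_noCross (S : S34C_Setup2 O π j F1 V1 V2 A0 Ainf) (hq : 2 ≤ q) (hθ : θ ∈ F1)
    (hrel : S34CUSP_Rel O j θ q)
    (hK1 : ∃ v ∈ V1, θ - j ^ q = π * v) (hK2 : ∃ v ∈ V2, j - θ ^ q = π * v)
    (hθ2 : θ ∈ V2) (hθ2' : θ⁻¹ ∈ V2)
    (hπ : π ∈ Ainf) (hu : j⁻¹ ∈ Ainf) (m : Ideal Ainf) (hm : m.IsMaximal)
    (hπm : (⟨π, hπ⟩ : Ainf) ∈ m) (hum : (⟨j⁻¹, hu⟩ : Ainf) ∈ m) :
    (∃ d : Ainf, d ∉ m ∧ ((d : L))⁻¹ ∈ V1 ∧ ∃ v ∈ V2, (d : L) = π * v) ∨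
      (∃ d : Ainf, d ∉ m ∧ ((d : L))⁻¹ ∈ V2 ∧ ∃ v ∈ V1, (d : L) = π * v) := by
  obtain ⟨x, y, z, D, b, c, hx, hy, hz, hD, hb, hc, hx1, hy2, hzc, hDb, hsum⟩ :=
    S34CUSP_decomp S (by omega) hθ hrel hK1 hK2 hθ2 hθ2'
  have hπ0 := S34CUSP_π_ne_zero S
  have hmp : m.IsPrime := hm.isPrime
  have hle1 : Ainf ≤ V1 := fun a ha => (S.chartInf.le_V ha).1
  have hle2 : Ainf ≤ V2 := fun a ha => (S.chartInf.le_V ha).2
  -- `z ∈ m`
  have hzm : (⟨z, hz⟩ : Ainf) ∈ m := by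
    refine hmp.mem_of_pow_mem (q + 1) ?_
    have : (⟨z, hz⟩ : Ainf) ^ (q + 1) = ⟨j⁻¹, hu⟩ * ⟨c, hc⟩ := Subtype.ext (by simpa using hzc)
    rw [this]
    exact m.mul_mem_right _ hum
  -- `D ∉ m`
  have hDm : (⟨D, hD⟩ : Ainf) ∉ m := by
    intro h
    have h1 : (1 : Ainf) = ⟨D, hD⟩ - ⟨j⁻¹, hu⟩ * ⟨b, hb⟩ := Subtype.ext (by simp [hDb])
    exact hmp.ne_top ((Ideal.eq_top_iff_one m).mpr
      (h1 ▸ m.sub_mem h (m.mul_mem_right _ hum)))
  have hq2 : q ^ 2 - 1 ≠ 0 := by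
    have : 2 ^ 2 ≤ q ^ 2 := Nat.pow_le_pow_left hq 2
    omega
  have hxy : (⟨x, hx⟩ : Ainf) + ⟨y, hy⟩ ∉ m := by
    intro h
    have h1 : (⟨D, hD⟩ : Ainf) = (⟨x, hx⟩ + ⟨y, hy⟩) + ⟨z, hz⟩ ^ (q ^ 2 - 1) :=
      Subtype.ext (by simp [hsum])
    exact hDm (h1 ▸ m.add_mem h (m.pow_mem_of_mem hzm _ (Nat.pos_of_ne_zero hq2)))
  -- an element of `π V1 ∩ π V2 ∩ Ainf` lies in `m`
  have hboth : ∀ (t : L) (ht : t ∈ Ainf), (∃ v ∈ V1, t = π * v) → (∃ v ∈ V2, t = π * v) →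
      (⟨t, ht⟩ : Ainf) ∈ m := by
    rintro t ht ⟨v₁, hv₁, h1⟩ ⟨v₂, hv₂, h2⟩
    have hv : v₁ = v₂ := mul_left_cancel₀ hπ0 (h1.symm.trans h2)
    have hvA : v₁ ∈ Ainf := S.chartInf.sat v₁ ⟨hv₁, hv ▸ hv₂⟩ (h1 ▸ ht)
    have : (⟨t, ht⟩ : Ainf) = ⟨π, hπ⟩ * ⟨v₁, hvA⟩ := Subtype.ext h1
    rw [this]
    exact m.mul_mem_right _ hπm
  by_cases hym : (⟨y, hy⟩ : Ainf) ∈ m
  · right
    have hxm : (⟨x, hx⟩ : Ainf) ∉ m := fun h => hxy (m.add_mem h hym)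
    refine ⟨⟨x, hx⟩, hxm, ?_, hx1⟩
    by_contra hinv
    exact hxm (hboth x hx hx1 (S.V2_unif x (hle2 hx) hinv))
  · left
    refine ⟨⟨y, hy⟩, hym, ?_, hy2⟩
    by_contra hinv
    exact hym (hboth y hy (S.V1_unif y (hle1 hy) hinv) hy2)

end Main

end Fermat.Agent.S34_helper18_CUSP
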