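import Mathlib
import Fermat.Prelude.Thm_ModularCurve_coeffMap_qExpand
import Fermat.Prelude.Def_ModularCurve_JqCoeff
import Fermat.Agent.S18_helper9_CDefs
import Fermat.Agent.S34_helper18_CUSP

/-!
# S34: consumer wrappers of the modular equation (helper14)

`S34MEW_Hyp q` is the statement of the modular equation of prime level `q` with coefficients in
`ℤ` (the typed statement of helper8's `S34ME_exists`, board #1260): `θ = j(q^q)` and `j` satisfy
the same monic relation of degree `q + 1` in each other, with degree bounds.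

From it (as a hypothesis), for every field `K1` and every subring `O` of `K1((q))`:

* `S34MEW_relSum`, `S34MEW_rel` : helper18's `S34CUSP_RelSum` / `S34CUSP_Rel` for `(j, θ)` and
  for `(θ, j)`;
* `S34MEW_isIntegral`  : `θ` is integral over `O[j]`;
* `S34MEW_isIntegral'` : `j` is integral over `O[θ]`.
-/

set_option autoImplicit false
set_option linter.style.haveILetI false
set_option linter.unusedVariables false
set_option linter.unusedSectionVars false

open ModularCurve Polynomial

namespace Fermat.Agent.S34_helper14_MEW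

open Fermat.Agent.S18_helper9_CDefs Fermat.Agent.S34_helper18_CUSP

/-- The modular equation of level `q` with integer coefficients (statement; the evaluation of
integer polynomials is written with `eval₂ (Int.castRingHom _)`, so that no `Algebra ℤ _`
instance is involved). -/
def S34MEW_Hyp (q : ℕ) [NeZero q] : Prop :=
  ∃ a : ℕ → Polynomial ℤ, (∀ i, 1 ≤ i → i ≤ q → (a i).natDegree ≤ q) ∧ (a 0).Monic ∧
    (a 0).natDegree = q + 1 ∧
    (qExpand ℤ q (jqModC ℤ)) ^ (q + 1) + ∑ i ∈ Finset.range (q + 1),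
      Polynomial.eval₂ (Int.castRingHom (LaurentSeries ℤ)) (jqModC ℤ) (a i) *
        (qExpand ℤ q (jqModC ℤ)) ^ i = 0 ∧
    (jqModC ℤ) ^ (q + 1) + ∑ i ∈ Finset.range (q + 1),
      Polynomial.eval₂ (Int.castRingHom (LaurentSeries ℤ)) (qExpand ℤ q (jqModC ℤ)) (a i) *
        (jqModC ℤ) ^ i = 0

/-- `aeval` of an integer polynomial, for ANY `ℤ`-algebra structure, is `eval₂` along the
integer cast. -/
theorem S34MEW_aeval_eq {R : Type*} [CommRing R] [inst : Algebra ℤ R] (x : R)
    (p : Polynomial ℤ) :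
    Polynomial.aeval x p = Polynomial.eval₂ (Int.castRingHom R) x p := by
  rw [Polynomial.aeval_def]
  congr 1
  exact Subsingleton.elim _ _

/-- The hypothesis in `aeval` form (helper8's typed statement `S34ME_exists`, for whatever
`Algebra ℤ (LaurentSeries ℤ)` instance it was elaborated with) gives `S34MEW_Hyp`. -/
theorem S34MEW_hyp_of_aeval (q : ℕ) [NeZero q] [inst : Algebra ℤ (LaurentSeries ℤ)]
    (h : ∃ a : ℕ → Polynomial ℤ, (∀ i, 1 ≤ i → i ≤ q → (a i).natDegree ≤ q) ∧ (a 0).Monic ∧
      (a 0).natDegree = q + 1 ∧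
      (qExpand ℤ q (jqModC ℤ)) ^ (q + 1) + ∑ i ∈ Finset.range (q + 1),
        Polynomial.aeval (jqModC ℤ) (a i) * (qExpand ℤ q (jqModC ℤ)) ^ i = 0 ∧
      (jqModC ℤ) ^ (q + 1) + ∑ i ∈ Finset.range (q + 1),
        Polynomial.aeval (qExpand ℤ q (jqModC ℤ)) (a i) * (jqModC ℤ) ^ i = 0) :
    S34MEW_Hyp q := by
  obtain ⟨a, h1, h2, h3, h4, h5⟩ := h
  refine ⟨a, h1, h2, h3, ?_, ?_⟩
  · simpa only [S34MEW_aeval_eq] using h4
  · simpa only [S34MEW_aeval_eq] using h5

section Transport

variable {K : Type*} [CommRing K]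

/-- a ring homomorphism commutes with the evaluation of integer polynomials -/
theorem S34MEW_map_eval₂ {R S : Type*} [CommRing R] [CommRing S] (φ : R →+* S) (x : R)
    (p : Polynomial ℤ) :
    φ (Polynomial.eval₂ (Int.castRingHom R) x p) =
      Polynomial.eval₂ (Int.castRingHom S) (φ x) p := by
  rw [Polynomial.hom_eval₂]
  congr 1
  exact Subsingleton.elim _ _

theorem S34MEW_coeffMap_j : coeffMap (Int.castRingHom K) (jqModC ℤ) = jqModC K :=
  map_jqModC (Int.castRingHom K)

theorem S34MEW_coeffMap_theta (q : ℕ) [NeZero q] :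
    coeffMap (Int.castRingHom K) (qExpand ℤ q (jqModC ℤ)) = qExpand K q (jqModC K) := by
  rw [coeffMap_qExpand, S34MEW_coeffMap_j]

/-- **The modular equation over any coefficient ring.** -/
theorem S34MEW_rel_int (q : ℕ) [NeZero q] (h : S34MEW_Hyp q) :
    ∃ a : ℕ → Polynomial ℤ, (∀ i, 1 ≤ i → i ≤ q → (a i).natDegree ≤ q) ∧ (a 0).Monic ∧
      (a 0).natDegree = q + 1 ∧
      (qExpand K q (jqModC K)) ^ (q + 1) + ∑ i ∈ Finset.range (q + 1),
        Polynomial.eval₂ (Int.castRingHom (LaurentSeries K)) (jqModC K) (a i) *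
          (qExpand K q (jqModC K)) ^ i = 0 ∧
      (jqModC K) ^ (q + 1) + ∑ i ∈ Finset.range (q + 1),
        Polynomial.eval₂ (Int.castRingHom (LaurentSeries K)) (qExpand K q (jqModC K)) (a i) *
          (jqModC K) ^ i = 0 := by
  obtain ⟨a, h1, h2, h3, h4, h5⟩ := h
  refine ⟨a, h1, h2, h3, ?_, ?_⟩
  · have := congrArg (coeffMap (Int.castRingHom K)) h4
    simpa only [map_add, map_pow, map_sum, map_mul, map_zero, S34MEW_map_eval₂,
      S34MEW_coeffMap_j, S34MEW_coeffMap_theta] using this
  · have := congrArg (coeffMap (Int.castRingHom K)) h5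
    simpa only [map_add, map_pow, map_sum, map_mul, map_zero, S34MEW_map_eval₂,
      S34MEW_coeffMap_j, S34MEW_coeffMap_theta] using this

end Transport

section Field

variable {L : Type*} [Field L]

/-- evaluation of an integer polynomial, with coefficients pushed into a subring -/
theorem S34MEW_aeval_map (O : Subring L) (x : L) (p : Polynomial ℤ) :
    Polynomial.aeval x (p.map (Int.castRingHom O)) =
      Polynomial.eval₂ (Int.castRingHom L) x p := by
  rw [Polynomial.aeval_def, Polynomial.eval₂_map]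
  congr 1

/-- the sum form of the relation over a subring, from the relation with integer coefficients -/
theorem S34MEW_relSum_of (O : Subring L) (j θ : L) (q : ℕ) (a : ℕ → Polynomial ℤ)
    (h1 : ∀ i, 1 ≤ i → i ≤ q → (a i).natDegree ≤ q) (h2 : (a 0).Monic)
    (h3 : (a 0).natDegree = q + 1)
    (h4 : θ ^ (q + 1) + ∑ i ∈ Finset.range (q + 1),
      Polynomial.eval₂ (Int.castRingHom L) j (a i) * θ ^ i = 0) :
    S34CUSP_RelSum O j θ q := by
  refine ⟨fun i => (a i).map (Int.castRingHom O), ?_, ?_, ?_, ?_⟩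
  · intro i hi1 hiq
    exact (Polynomial.natDegree_map_le).trans (h1 i hi1 hiq)
  · exact h2.map _
  · rw [h2.natDegree_map, h3]
  · simp only [S34MEW_aeval_map]
    exact h4

/-- a root of a relation in sum form is integral over `O[j]` -/
theorem S34MEW_isIntegral_of_rel (O : Subring L) (j θ : L) (q : ℕ)
    (h : S34CUSP_Rel O j θ q) : IsIntegral (adj O j) θ := by
  obtain ⟨M, hM, hMd, hMθ, hmid, a0, -, -, hM0⟩ := h
  refine S34CUSP_isIntegral_of_coeff_mem (adj O j) M hM ?_ θ hMθ
  have haev : ∀ a : Polynomial O, Polynomial.aeval j a ∈ adj O j := by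
    intro a
    rw [Polynomial.aeval_eq_sum_range]
    refine Subring.sum_mem _ fun i _ => ?_
    rw [Algebra.smul_def]
    exact Subring.mul_mem _ (S34CUSP_O_le_adj O j (a.coeff i).2)
      (Subring.pow_mem _ (S34CUSP_mem_adj O j) i)
  intro i
  rcases Nat.lt_or_ge q i with hi | hi
  · rcases Nat.lt_or_ge (q + 1) i with hi' | hi'
    · rw [Polynomial.coeff_eq_zero_of_natDegree_lt (by omega)]
      exact Subring.zero_mem _
    · have hi1 : i = q + 1 := by omega
      have : M.coeff i = 1 := by
        rw [hi1, ← hMd]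
        exact hM.coeff_natDegree
      rw [this]
      exact Subring.one_mem _
  · rcases Nat.eq_zero_or_pos i with h0 | hpos
    · rw [h0, hM0]
      exact haev a0
    · obtain ⟨a, -, ha⟩ := hmid i hpos hi
      rw [ha]
      exact haev a

end Field

section Main

variable {K1 : Type*} [Field K1] (O : Subring (LaurentSeries K1)) (q : ℕ) [NeZero q]

/-- **helper18's `S34CUSP_RelSum`** for `(j, θ)` and for `(θ, j)`. -/
theorem S34MEW_relSum (h : S34MEW_Hyp q) :
    S34CUSP_RelSum O (jqModC K1) (qExpand K1 q (jqModC K1)) q ∧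
      S34CUSP_RelSum O (qExpand K1 q (jqModC K1)) (jqModC K1) q := by
  obtain ⟨a, h1, h2, h3, h4, h5⟩ := S34MEW_rel_int (K := K1) q h
  exact ⟨S34MEW_relSum_of O _ _ q a h1 h2 h3 h4, S34MEW_relSum_of O _ _ q a h1 h2 h3 h5⟩

/-- **helper18's `S34CUSP_Rel`** for `(j, θ)` and for `(θ, j)`. -/
theorem S34MEW_rel (h : S34MEW_Hyp q) :
    S34CUSP_Rel O (jqModC K1) (qExpand K1 q (jqModC K1)) q ∧
      S34CUSP_Rel O (qExpand K1 q (jqModC K1)) (jqModC K1) q :=
  ⟨S34CUSP_rel_of_relSum (S34MEW_relSum O q h).1, S34CUSP_rel_of_relSum (S34MEW_relSum O q h).2⟩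

/-- **`θ = j(q^q)` is integral over `O[j]`.** -/
theorem S34MEW_isIntegral (h : S34MEW_Hyp q) :
    IsIntegral (adj O (jqModC K1)) (qExpand K1 q (jqModC K1)) :=
  S34MEW_isIntegral_of_rel O _ _ q (S34MEW_rel O q h).1

/-- **`j` is integral over `O[θ]`.** -/
theorem S34MEW_isIntegral' (h : S34MEW_Hyp q) :
    IsIntegral (adj O (qExpand K1 q (jqModC K1))) (jqModC K1) :=
  S34MEW_isIntegral_of_rel O _ _ q (S34MEW_rel O q h).2

end Main

end Fermat.Agent.S34_helper14_MEW
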