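import Fermat.Agent.S37_helper20_KAPPAEMB

/-!
# S34, piece WQ (helper20): the Atkin–Lehner automorphism `w_q`

For `N = q * N'` with `q` coprime to `N'` and any field `K1` with an embedding into `ℚ̄`, the
function field `F1 = K1(j(q^d) : d ∣ N) ⊆ K1((q))` has a `K1`-automorphism `w` with

* `w (j(q^d)) = j(q^(q d))` and `w (j(q^(q d))) = j(q^d)` for `d ∣ N'`,
* `w ∘ w = id`,
* `w = qExpand q` (the substitution `q ↦ q^q`) on the function field of level `N'`.

Analytic input: the landed S24 embedding `MASTER_inf N γ` for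
`γ = [[1, -v], [N', q u]]`, `q u + v N' = 1` (so that `W z = γ (q z)` is the Atkin–Lehner
involution), and the expansion of `z ↦ j((a z + b) / d)` (`S37KE_laurentInf_tri`).
-/

set_option autoImplicit false
set_option linter.unusedSectionVars false
set_option linter.unusedVariables false
set_option linter.style.haveILetI false

noncomputable section

open UpperHalfPlane ModularForm CongruenceSubgroup
open scoped MatrixGroups ModularForm Manifold Real
open ModularCurve Fermat.Agent.S20 Fermat.Agent.S24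
open Fermat.Agent.S28_helper14_ADefs Fermat.Agent.S28_SUBST
open Fermat.Agent.S37_helper20_KAPPAEMB

namespace Fermat.Agent.S34_helper20_WQ

/-! ### Part 1: the matrix `γ` and the translates of the generators -/

section Matrix

/-- the matrix `[[1, -v], [N', q u]]` of determinant `q u + v N' = 1` -/
def S34WQ_gamma (q N' : ℕ) (u v : ℤ) (h : (q : ℤ) * u + v * (N' : ℤ) = 1) : SL(2, ℤ) :=
  ⟨!![1, -v; (N' : ℤ), (q : ℤ) * u], by
    rw [Matrix.det_fin_two_of]
    linear_combination h⟩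

/-- the matrix `[[q, -v d], [N'/d, u]]` of determinant `1` (for `d ∣ N'`) -/
def S34WQ_gamma2 (q N' d c : ℕ) (hc : N' = d * c) (u v : ℤ)
    (h : (q : ℤ) * u + v * (N' : ℤ) = 1) : SL(2, ℤ) :=
  ⟨!![(q : ℤ), -v * (d : ℤ); (c : ℤ), u], by
    rw [Matrix.det_fin_two_of]
    have : (N' : ℤ) = (d : ℤ) * (c : ℤ) := by exact_mod_cast hc
    rw [this] at h
    linear_combination h⟩

theorem S34WQ_gamma_mem (q N' : ℕ) (u v : ℤ) (h : (q : ℤ) * u + v * (N' : ℤ) = 1) :
    S34WQ_gamma q N' u v h ∈ Gamma0 N' := by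
  rw [Gamma0_mem]
  show (((N' : ℤ) : ℤ) : ZMod N') = 0
  simp

/-- `j_d ∘ γ = j_d` for `d ∣ N'` -/
theorem S34WQ_jd_old (q N' : ℕ) (hN' : 0 < N') (u v : ℤ) (h : (q : ℤ) * u + v * (N' : ℤ) = 1)
    {d : ℕ} (hd : d ∣ N') :
    jd d (S34WQ_gamma q N' u v h) = tri d 1 0 jfun := by
  have h1 := Fermat.Agent.S24_helper27_J1.jd_Gamma0 hd hN' (S34WQ_gamma q N' u v h)
    (S34WQ_gamma_mem q N' u v h) 1
  rw [mul_one] at h1
  rw [h1, Fermat.Agent.S24_helper24_JD.jd_one_eq_tri]

/-- `j_(qd) ∘ γ = (z ↦ j(d z / q))` for `d ∣ N'` -/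
theorem S34WQ_jd_new (q N' : ℕ) (hq : 0 < q) (hN' : 0 < N') (u v : ℤ)
    (h : (q : ℤ) * u + v * (N' : ℤ) = 1) {d : ℕ} (hd : d ∣ N') :
    jd (q * d) (S34WQ_gamma q N' u v h) = tri d q 0 jfun := by
  obtain ⟨c, hc⟩ := hd
  have hdpos : 0 < d := by
    rcases Nat.eq_zero_or_pos d with h0 | h0
    · subst h0; simp at hc; omega
    · exact h0
  funext z
  have hpos : 0 < (aff d q 0 (z : ℂ)).im := aff_im_pos hdpos hq 0 z.im_pos
  rw [tri_apply, ofComplex_apply_of_im_pos hpos]
  unfold jd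
  have key : dmul (q * d) (S34WQ_gamma q N' u v h • z) =
      S34WQ_gamma2 q N' d c hc u v h • (⟨aff d q 0 (z : ℂ), hpos⟩ : ℍ) := by
    apply UpperHalfPlane.ext
    rw [Fermat.Agent.S24_helper27_J1.dmul_coe (q * d) (Nat.mul_pos hq hdpos),
      UpperHalfPlane.coe_specialLinearGroup_apply, UpperHalfPlane.coe_specialLinearGroup_apply]
    have e00 : (S34WQ_gamma q N' u v h) 0 0 = 1 := rfl
    have e01 : (S34WQ_gamma q N' u v h) 0 1 = -v := rfl
    have e10 : (S34WQ_gamma q N' u v h) 1 0 = (N' : ℤ) := rfl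
    have e11 : (S34WQ_gamma q N' u v h) 1 1 = (q : ℤ) * u := rfl
    have f00 : (S34WQ_gamma2 q N' d c hc u v h) 0 0 = (q : ℤ) := rfl
    have f01 : (S34WQ_gamma2 q N' d c hc u v h) 0 1 = -v * (d : ℤ) := rfl
    have f10 : (S34WQ_gamma2 q N' d c hc u v h) 1 0 = (c : ℤ) := rfl
    have f11 : (S34WQ_gamma2 q N' d c hc u v h) 1 1 = u := rfl
    rw [e00, e01, e10, e11, f00, f01, f10, f11]
    have hden : ((algebraMap ℤ ℝ ((N' : ℤ)) : ℝ) : ℂ) * (z : ℂ) +
        ((algebraMap ℤ ℝ ((q : ℤ) * u) : ℝ) : ℂ) ≠ 0 := by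
      have := UpperHalfPlane.denom_ne_zero ((S34WQ_gamma q N' u v h : SL(2, ℤ)) : GL (Fin 2) ℝ) z
      rw [ModularGroup.denom_apply, e10, e11] at this
      simpa using this
    have hqc : (q : ℂ) ≠ 0 := by exact_mod_cast hq.ne'
    have hdc : (d : ℂ) ≠ 0 := by exact_mod_cast hdpos.ne'
    have hN'c : (N' : ℂ) = (d : ℂ) * (c : ℂ) := by exact_mod_cast congrArg (Nat.cast : ℕ → ℂ) hc
    show _ = _ / (_ * (aff d q 0 (z : ℂ)) + _)
    simp only [algebraMap_int_eq, Int.coe_castRingHom, Int.cast_mul, Int.cast_natCast,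
      Complex.ofReal_mul, Complex.ofReal_intCast, Complex.ofReal_natCast, Int.cast_one,
      Complex.ofReal_one, Int.cast_neg, Complex.ofReal_neg, one_mul, Nat.cast_mul] at hden ⊢
    unfold aff
    have hden2 : (c : ℂ) * (((d : ℂ) * (z : ℂ) + ((0 : ℤ) : ℂ)) / (q : ℂ)) + (u : ℂ) ≠ 0 := by
      intro h0
      apply hden
      have : (N' : ℂ) * (z : ℂ) + (q : ℂ) * (u : ℂ) =
          (q : ℂ) * ((c : ℂ) * (((d : ℂ) * (z : ℂ) + ((0 : ℤ) : ℂ)) / (q : ℂ)) + (u : ℂ)) := by
        rw [hN'c]; field_simp; push_cast; ring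
      rw [this, h0, mul_zero]
    rw [hN'c] at hden ⊢
    field_simp
    push_cast
    ring
  rw [key, Fermat.Agent.S24_helper27_J1.jfun_smul]

end Matrix

/-! ### Part 2: the expansions of the translates -/

section Expansions

theorem S34WQ_qExpand_congr {R : Type*} [CommRing R] {n m : ℕ} [NeZero n] [NeZero m]
    (h : n = m) (x : LaurentSeries R) : qExpand R n x = qExpand R m x := by
  subst h
  rfl

theorem S34WQ_w_zero (d : ℕ) : S37KE_w d 0 = 1 := by
  apply Units.ext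
  rw [S37KE_w_val]
  simp

/-- the expansion at `i∞` (in `t = q^(1/N)`) of `z ↦ j(a z / d)` is `j(t^(a N / d))` -/
theorem S34WQ_laurentInf_tri (N : ℕ) [NeZero N] {a d : ℕ} (ha : 0 < a) (hd : 0 < d)
    (hdN : d ∣ N) (hdiff : MDifferentiable 𝓘(ℂ) 𝓘(ℂ) (tri a d 0 jfun)) :
    haveI : NeZero (a * (N / d)) := ⟨Nat.mul_ne_zero ha.ne'
      (Nat.div_pos (Nat.le_of_dvd (Nat.pos_of_ne_zero (NeZero.ne N)) hdN) hd).ne'⟩
    laurentInf N (tri a d 0 jfun) = qExpand ℂ (a * (N / d)) (jqModC ℂ) := by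
  haveI : NeZero (a * (N / d)) := ⟨Nat.mul_ne_zero ha.ne'
    (Nat.div_pos (Nat.le_of_dvd (Nat.pos_of_ne_zero (NeZero.ne N)) hdN) hd).ne'⟩
  rw [S37KE_laurentInf_tri N ha hd hdN 0 (a * (N / d)) rfl hdiff, S34WQ_w_zero, S37KE_tw_one]

end Expansions

/-! ### Part 3: extensionality for ring homomorphisms out of the function field -/

section Ext

variable {K1 : Type*} [Field K1] (N : ℕ) [NeZero N]

/-- two ring homomorphisms out of the function field which agree on the constants and on the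
generators `j(q^d)` are equal -/
theorem S34WQ_ringHom_ext {M : Type*} [Field M]
    (f g : modularFunctionFieldFullC K1 N →+* M)
    (hC : ∀ (c : K1) (hc : HahnSeries.C c ∈ modularFunctionFieldFullC K1 N),
      f ⟨HahnSeries.C c, hc⟩ = g ⟨HahnSeries.C c, hc⟩)
    (hgen : ∀ (d : ℕ) [NeZero d] (hd : d ∣ N)
      (hm : qExpand K1 d (jqModC K1) ∈ modularFunctionFieldFullC K1 N),
      f ⟨qExpand K1 d (jqModC K1), hm⟩ = g ⟨qExpand K1 d (jqModC K1), hm⟩)
    (y : modularFunctionFieldFullC K1 N) : f y = g y := by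
  obtain ⟨x, hx⟩ := y
  have key : ∀ (x : LaurentSeries K1) (hx : x ∈ modularFunctionFieldFullC K1 N),
      f ⟨x, hx⟩ = g ⟨x, hx⟩ := by
    intro x hx
    unfold modularFunctionFieldFullC at hx
    induction hx using IntermediateField.adjoin_induction with
    | mem y hy =>
        obtain ⟨d, hd0, hd, rfl⟩ := hy
        exact hgen d hd _
    | algebraMap c =>
        have h2 : algebraMap K1 (LaurentSeries K1) c = HahnSeries.C c := by
          rw [algebraMap_laurentSeries_eq_single, HahnSeries.C_apply]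
        have hc : HahnSeries.C c ∈ modularFunctionFieldFullC K1 N := by
          rw [← h2]
          exact IntermediateField.algebraMap_mem _ c
        have h3 : (⟨algebraMap K1 (LaurentSeries K1) c,
            IntermediateField.algebraMap_mem _ c⟩ : modularFunctionFieldFullC K1 N) =
            ⟨HahnSeries.C c, hc⟩ := Subtype.ext h2
        rw [h3]
        exact hC c hc
    | add x y hx hy ihx ihy =>
        have h : (⟨x + y, add_mem hx hy⟩ : modularFunctionFieldFullC K1 N) =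
            ⟨x, hx⟩ + ⟨y, hy⟩ := rfl
        rw [h, map_add, map_add, ihx, ihy]
    | inv x hx ihx =>
        have h : (⟨x⁻¹, inv_mem hx⟩ : modularFunctionFieldFullC K1 N) = (⟨x, hx⟩)⁻¹ := rfl
        rw [h, map_inv₀, map_inv₀, ihx]
    | mul x y hx hy ihx ihy =>
        have h : (⟨x * y, mul_mem hx hy⟩ : modularFunctionFieldFullC K1 N) =
            ⟨x, hx⟩ * ⟨y, hy⟩ := rfl
        rw [h, map_mul, map_mul, ihx, ihy]
  exact key x hx

end Ext

/-! ### Part 4: divisors of `q N'` -/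

section Divisors

/-- the Atkin–Lehner dual of a divisor of `q N'`: `d ↦ q d` if `q ∤ d`, `q d' ↦ d'` -/
def S34WQ_dual (q d : ℕ) : ℕ := if q ∣ d then d / q else q * d

theorem S34WQ_dual_old {q d : ℕ} (h : ¬ q ∣ d) : S34WQ_dual q d = q * d := if_neg h

theorem S34WQ_dual_new {q : ℕ} (hq : 0 < q) (d : ℕ) : S34WQ_dual q (q * d) = d := by
  rw [S34WQ_dual, if_pos (dvd_mul_right q d), Nat.mul_div_cancel_left _ hq]

/-- a divisor of `q N'` (`q` prime, `q ∤ N'`) is `d'` or `q d'` with `d' ∣ N'` -/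
theorem S34WQ_divisor_cases {q N' d : ℕ} (hq : q.Prime) (hd : d ∣ q * N') :
    (¬ q ∣ d ∧ d ∣ N') ∨ ∃ d', d' ∣ N' ∧ d = q * d' := by
  by_cases h : q ∣ d
  · obtain ⟨d', rfl⟩ := h
    exact Or.inr ⟨d', (Nat.mul_dvd_mul_iff_left hq.pos).mp hd, rfl⟩
  · refine Or.inl ⟨h, ?_⟩
    have hcop : Nat.Coprime d q := (Nat.Coprime.symm ((Nat.Prime.coprime_iff_not_dvd hq).mpr h))
    exact hcop.dvd_of_dvd_mul_left hd

theorem S34WQ_dual_ne_zero {q d : ℕ} (hq : 0 < q) (hd : 0 < d) : S34WQ_dual q d ≠ 0 := by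
  unfold S34WQ_dual
  split_ifs with h
  · exact (Nat.div_pos (Nat.le_of_dvd hd h) hq).ne'
  · exact Nat.mul_ne_zero hq.ne' hd.ne'

theorem S34WQ_dual_dvd {q N' d : ℕ} (hq : q.Prime) (hd : d ∣ q * N') :
    S34WQ_dual q d ∣ q * N' := by
  rcases S34WQ_divisor_cases hq hd with ⟨hqd, hdN'⟩ | ⟨d', hd'N', rfl⟩
  · rw [S34WQ_dual_old hqd]
    exact Nat.mul_dvd_mul_left q hdN'
  · rw [S34WQ_dual_new hq.pos]
    exact hd'N'.trans (dvd_mul_left N' q)

theorem S34WQ_dual_dual {q N' d : ℕ} (hq : q.Prime) (hqN : ¬ q ∣ N') (hd : d ∣ q * N') :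
    S34WQ_dual q (S34WQ_dual q d) = d := by
  rcases S34WQ_divisor_cases hq hd with ⟨hqd, hdN'⟩ | ⟨d', hd'N', rfl⟩
  · rw [S34WQ_dual_old hqd, S34WQ_dual_new hq.pos]
  · rw [S34WQ_dual_new hq.pos]
    have h : ¬ q ∣ d' := fun h => hqN (h.trans hd'N')
    rw [S34WQ_dual_old h]

end Divisors

/-! ### Part 5: the automorphism -/

section Main

variable {K1 : Type*} [Field K1] (emb : K1 →+* Kbar)

/-- the map `K1((q)) → ℂ((t))`, `f(q) ↦ f(t^(N'))` on coefficients embedded into `ℂ` -/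
def S34WQ_psi (N' : ℕ) [NeZero N'] : LaurentSeries K1 →+* LaurentSeries ℂ :=
  (qExpand ℂ N').comp (coeffMap (phi0.comp emb))

theorem S34WQ_psi_injective (N' : ℕ) [NeZero N'] : Function.Injective (S34WQ_psi emb N') :=
  (S34WQ_psi emb N').injective

theorem S34WQ_psi_gen (N' : ℕ) [NeZero N'] (d : ℕ) [NeZero d] [NeZero (N' * d)] :
    S34WQ_psi emb N' (qExpand K1 d (jqModC K1)) = qExpand ℂ (N' * d) (jqModC ℂ) := by
  rw [S34WQ_psi, RingHom.comp_apply, coeffMap_qExpand, coeffMap_jqModC, qExpand_qExpand]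

theorem S34WQ_psi_C (N' : ℕ) [NeZero N'] (c : K1) :
    S34WQ_psi emb N' (HahnSeries.C c) = HahnSeries.C (phi0 (emb c)) := by
  rw [S34WQ_psi, RingHom.comp_apply, HahnSeries.C_apply, coeffMap_single, qExpand_single,
    mul_zero, HahnSeries.C_apply]
  rfl

variable (q N' N : ℕ) [NeZero N'] [NeZero N]

/-- **the images of the generators under the translate embedding**: for `d ∣ N = q N'`,
`ι (j(q^d)) = j(t^(N' · dual d))`. -/
theorem S34WQ_iota_gen (hq : q.Prime) (hqN : ¬ q ∣ N') (hN : N = q * N') (u v : ℤ)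
    (h : (q : ℤ) * u + v * (N' : ℤ) = 1)
    (ι : modularFunctionFieldBar N →+* LaurentSeries ℂ)
    (hι : ∀ (d : ℕ) [NeZero d] (hd : d ∣ N),
      ι (jF N d hd) = laurentInf N (jd d (S34WQ_gamma q N' u v h)))
    (d : ℕ) [NeZero d] (hd : d ∣ N) [NeZero (N' * S34WQ_dual q d)] :
    ι (jF N d hd) = qExpand ℂ (N' * S34WQ_dual q d) (jqModC ℂ) := by
  have hN'pos : 0 < N' := Nat.pos_of_ne_zero (NeZero.ne N')
  have hNpos : 0 < N := Nat.pos_of_ne_zero (NeZero.ne N)
  have hdpos : 0 < d := Nat.pos_of_ne_zero (NeZero.ne d)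
  rw [hι d hd]
  have hd' : d ∣ q * N' := hN ▸ hd
  rcases S34WQ_divisor_cases hq hd' with ⟨hqd, hdN'⟩ | ⟨d', hd'N', rfl⟩
  · -- old divisor
    have hdiff : MDifferentiable 𝓘(ℂ) 𝓘(ℂ) (tri d 1 0 jfun) := by
      rw [← S34WQ_jd_old q N' hN'pos u v h hdN']
      exact Fermat.Agent.S24_helper27_J1.jd_mdiff d hdpos _
    rw [S34WQ_jd_old q N' hN'pos u v h hdN',
      S34WQ_laurentInf_tri N hdpos one_pos (one_dvd N) hdiff]
    haveI : NeZero (d * (N / 1)) := ⟨by
      rw [Nat.div_one]; exact Nat.mul_ne_zero hdpos.ne' hNpos.ne'⟩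
    apply S34WQ_qExpand_congr
    rw [S34WQ_dual_old hqd, Nat.div_one, hN]
    ring
  · -- new divisor
    have hd'pos : 0 < d' := by
      rcases Nat.eq_zero_or_pos d' with h0 | h0
      · subst h0; simp at hdpos
      · exact h0
    have hqN' : q ∣ N := hN ▸ dvd_mul_right q N'
    have hdiff : MDifferentiable 𝓘(ℂ) 𝓘(ℂ) (tri d' q 0 jfun) := by
      rw [← S34WQ_jd_new q N' hq.pos hN'pos u v h hd'N']
      exact Fermat.Agent.S24_helper27_J1.jd_mdiff (q * d') hdpos _
    rw [S34WQ_jd_new q N' hq.pos hN'pos u v h hd'N',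
      S34WQ_laurentInf_tri N hd'pos hq.pos hqN' hdiff]
    haveI : NeZero (d' * (N / q)) := ⟨by
      rw [hN, Nat.mul_div_cancel_left _ hq.pos]; exact Nat.mul_ne_zero hd'pos.ne' hN'pos.ne'⟩
    apply S34WQ_qExpand_congr
    rw [S34WQ_dual_new hq.pos, hN, Nat.mul_div_cancel_left _ hq.pos]
    ring

include emb in
/-- **the Atkin–Lehner map, generator form.**  For `N = q N'`, `q` prime, `q ∤ N'`, there is a
ring endomorphism `w` of `F1 = K1(j(q^d) : d ∣ N)` which is the identity on the constants and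
sends `j(q^d)` to `j(q^(dual d))`. -/
theorem S34WQ_exists_hom (hq : q.Prime) (hqN : ¬ q ∣ N') (hN : N = q * N') :
    ∃ w : modularFunctionFieldFullC K1 N →+* modularFunctionFieldFullC K1 N,
      (∀ (c : K1) (hc : HahnSeries.C c ∈ modularFunctionFieldFullC K1 N),
        w ⟨HahnSeries.C c, hc⟩ = ⟨HahnSeries.C c, hc⟩) ∧
      (∀ (d : ℕ) [NeZero d] (hd : d ∣ N) [NeZero (S34WQ_dual q d)]
        (hm : qExpand K1 d (jqModC K1) ∈ modularFunctionFieldFullC K1 N),
        ((w ⟨qExpand K1 d (jqModC K1), hm⟩ : modularFunctionFieldFullC K1 N) :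
          LaurentSeries K1) = qExpand K1 (S34WQ_dual q d) (jqModC K1)) := by
  have hN'pos : 0 < N' := Nat.pos_of_ne_zero (NeZero.ne N')
  have hcop : IsCoprime (q : ℤ) (N' : ℤ) :=
    Nat.isCoprime_iff_coprime.mpr ((Nat.Prime.coprime_iff_not_dvd hq).mpr hqN)
  obtain ⟨u, v, huv⟩ := hcop
  have h : (q : ℤ) * u + v * (N' : ℤ) = 1 := by linear_combination huv
  obtain ⟨ι, hιC, hιj⟩ := Fermat.Agent.S24_helper17_EMB.MASTER_inf N (S34WQ_gamma q N' u v h)
  set Φ : modularFunctionFieldFullC K1 N →+* LaurentSeries ℂ :=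
    ι.comp (Fermat.Agent.S18_helper26_DEGK1.S18DEG_inc emb N) with hΦ
  have hΦC : ∀ (c : K1) (hc : HahnSeries.C c ∈ modularFunctionFieldFullC K1 N),
      Φ ⟨HahnSeries.C c, hc⟩ = S34WQ_psi emb N' (HahnSeries.C c) := by
    intro c hc
    have h2 : (⟨HahnSeries.C c, hc⟩ : modularFunctionFieldFullC K1 N) =
        algebraMap K1 (modularFunctionFieldFullC K1 N) c := by
      apply Subtype.ext
      show HahnSeries.C c = algebraMap K1 (LaurentSeries K1) c
      rw [algebraMap_laurentSeries_eq_single, HahnSeries.C_apply]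
    rw [hΦ, RingHom.comp_apply, h2,
      Fermat.Agent.S18_helper26_DEGK1.S18DEG_inc_algebraMap emb N c, hιC, S34WQ_psi_C]
  have hΦj : ∀ (d : ℕ) [NeZero d] (hd : d ∣ N) [NeZero (S34WQ_dual q d)]
      (hm : qExpand K1 d (jqModC K1) ∈ modularFunctionFieldFullC K1 N),
      Φ ⟨qExpand K1 d (jqModC K1), hm⟩ =
        S34WQ_psi emb N' (qExpand K1 (S34WQ_dual q d) (jqModC K1)) := by
    intro d _ hd _ hm
    haveI : NeZero (N' * S34WQ_dual q d) :=
      ⟨Nat.mul_ne_zero hN'pos.ne' (NeZero.ne (S34WQ_dual q d))⟩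
    have h1 : Fermat.Agent.S18_helper26_DEGK1.S18DEG_inc emb N
        ⟨qExpand K1 d (jqModC K1), hm⟩ = jF N d hd :=
      Fermat.Agent.S18_helper26_DEGK1.S18DEG_inc_jbard emb N d hd
    rw [hΦ, RingHom.comp_apply, h1, S34WQ_iota_gen q N' N hq hqN hN u v h ι hιj d hd,
      S34WQ_psi_gen]
  have hex : ∀ y, ∃ x, S34WQ_psi emb N' x = Φ y := by
    intro y
    have hmem : Φ y ∈ (S34WQ_psi emb N').fieldRange := by
      refine S37KE_ringHom_mem N Φ (S34WQ_psi emb N').fieldRange ?_ ?_ y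
      · intro c hc
        exact ⟨HahnSeries.C c, (hΦC c hc).symm⟩
      · intro d _ hd hm
        haveI : NeZero (S34WQ_dual q d) :=
          ⟨S34WQ_dual_ne_zero hq.pos (Nat.pos_of_ne_zero (NeZero.ne d))⟩
        exact ⟨qExpand K1 (S34WQ_dual q d) (jqModC K1), (hΦj d hd hm).symm⟩
    exact hmem
  obtain ⟨w₀, hw₀⟩ := S37KE_descend Φ (S34WQ_psi emb N') (S34WQ_psi_injective emb N') hex
  have hw₀C : ∀ (c : K1) (hc : HahnSeries.C c ∈ modularFunctionFieldFullC K1 N),
      w₀ ⟨HahnSeries.C c, hc⟩ = HahnSeries.C c := by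
    intro c hc
    apply S34WQ_psi_injective emb N'
    rw [hw₀, hΦC]
  have hw₀j : ∀ (d : ℕ) [NeZero d] (hd : d ∣ N) [NeZero (S34WQ_dual q d)]
      (hm : qExpand K1 d (jqModC K1) ∈ modularFunctionFieldFullC K1 N),
      w₀ ⟨qExpand K1 d (jqModC K1), hm⟩ = qExpand K1 (S34WQ_dual q d) (jqModC K1) := by
    intro d _ hd _ hm
    apply S34WQ_psi_injective emb N'
    rw [hw₀, hΦj d hd hm]
  have hrange : ∀ y, w₀ y ∈ modularFunctionFieldFullC K1 N := by
    intro y
    have := S37KE_ringHom_mem N w₀ (modularFunctionFieldFullC K1 N).toSubfield ?_ ?_ y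
    · exact this
    · intro c hc
      rw [hw₀C c hc]
      exact hc
    · intro d _ hd hm
      haveI : NeZero (S34WQ_dual q d) :=
        ⟨S34WQ_dual_ne_zero hq.pos (Nat.pos_of_ne_zero (NeZero.ne d))⟩
      rw [hw₀j d hd hm]
      have hd' : S34WQ_dual q d ∣ N := by
        rw [hN]
        exact S34WQ_dual_dvd hq (hN ▸ hd)
      exact jqModCd_mem_full K1 N hd'
  refine ⟨w₀.codRestrict (modularFunctionFieldFullC K1 N) hrange, ?_, ?_⟩
  · intro c hc
    apply Subtype.ext
    exact hw₀C c hc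
  · intro d _ hd _ hm
    exact hw₀j d hd hm

include emb in
/-- **the Atkin–Lehner involution `w_q`.**  For `N = q N'`, `q` prime, `q ∤ N'`, and any field
`K1` embedding into `ℚ̄`: a `K1`-algebra automorphism `w` of `F1 = K1(j(q^d) : d ∣ N)` with
`w ∘ w = id`, `w (j(q^d)) = j(q^(q d))` and `w (j(q^(q d))) = j(q^d)` for `d ∣ N'`, and
`w = qExpand q` (the substitution `q ↦ q^q`) on the function field of level `N'`. -/
theorem S34WQ_exists (hq : q.Prime) (hqN : ¬ q ∣ N') (hN : N = q * N') :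
    ∃ w : modularFunctionFieldFullC K1 N ≃ₐ[K1] modularFunctionFieldFullC K1 N,
      (∀ x, w (w x) = x) ∧
      (∀ (d : ℕ) [NeZero d] (hd : d ∣ N) [NeZero (S34WQ_dual q d)]
        (hm : qExpand K1 d (jqModC K1) ∈ modularFunctionFieldFullC K1 N),
        ((w ⟨qExpand K1 d (jqModC K1), hm⟩ : modularFunctionFieldFullC K1 N) :
          LaurentSeries K1) = qExpand K1 (S34WQ_dual q d) (jqModC K1)) ∧
      (∀ (d : ℕ) [NeZero d] [NeZero (q * d)] (hd : d ∣ N')
        (hm : qExpand K1 d (jqModC K1) ∈ modularFunctionFieldFullC K1 N),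
        ((w ⟨qExpand K1 d (jqModC K1), hm⟩ : modularFunctionFieldFullC K1 N) :
          LaurentSeries K1) = qExpand K1 (q * d) (jqModC K1)) ∧
      (∀ (d : ℕ) [NeZero d] [NeZero (q * d)] (hd : d ∣ N')
        (hm : qExpand K1 (q * d) (jqModC K1) ∈ modularFunctionFieldFullC K1 N),
        ((w ⟨qExpand K1 (q * d) (jqModC K1), hm⟩ : modularFunctionFieldFullC K1 N) :
          LaurentSeries K1) = qExpand K1 d (jqModC K1)) ∧
      (haveI : NeZero q := ⟨hq.ne_zero⟩
       ∀ x : modularFunctionFieldFullC K1 N,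
        (x : LaurentSeries K1) ∈ modularFunctionFieldFullC K1 N' →
          ((w x : modularFunctionFieldFullC K1 N) : LaurentSeries K1) =
            qExpand K1 q (x : LaurentSeries K1)) := by
  haveI : NeZero q := ⟨hq.ne_zero⟩
  obtain ⟨w₁, hwC, hwj⟩ := S34WQ_exists_hom (K1 := K1) emb q N' N hq hqN hN
  have hN'N : N' ∣ N := hN ▸ dvd_mul_left N' q
  -- old and new generators
  have hold : ∀ (d : ℕ) [NeZero d] [NeZero (q * d)] (hd : d ∣ N')
      (hm : qExpand K1 d (jqModC K1) ∈ modularFunctionFieldFullC K1 N),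
      ((w₁ ⟨qExpand K1 d (jqModC K1), hm⟩ : modularFunctionFieldFullC K1 N) :
        LaurentSeries K1) = qExpand K1 (q * d) (jqModC K1) := by
    intro d _ _ hd hm
    have hqd : ¬ q ∣ d := fun h => hqN (h.trans hd)
    haveI : NeZero (S34WQ_dual q d) := ⟨by
      rw [S34WQ_dual_old hqd]; exact NeZero.ne (q * d)⟩
    rw [hwj d (hd.trans hN'N) hm]
    exact S34WQ_qExpand_congr (S34WQ_dual_old hqd) _
  have hnew : ∀ (d : ℕ) [NeZero d] [NeZero (q * d)] (hd : d ∣ N')
      (hm : qExpand K1 (q * d) (jqModC K1) ∈ modularFunctionFieldFullC K1 N),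
      ((w₁ ⟨qExpand K1 (q * d) (jqModC K1), hm⟩ : modularFunctionFieldFullC K1 N) :
        LaurentSeries K1) = qExpand K1 d (jqModC K1) := by
    intro d _ _ hd hm
    haveI : NeZero (S34WQ_dual q (q * d)) := ⟨by
      rw [S34WQ_dual_new hq.pos]; exact NeZero.ne d⟩
    have hdN : q * d ∣ N := hN ▸ Nat.mul_dvd_mul_left q hd
    rw [hwj (q * d) hdN hm]
    exact S34WQ_qExpand_congr (S34WQ_dual_new hq.pos d) _
  -- involution
  have hinv : ∀ y, w₁ (w₁ y) = y := by
    intro y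
    refine S34WQ_ringHom_ext N (w₁.comp w₁) (RingHom.id _) ?_ ?_ y
    · intro c hc
      rw [RingHom.comp_apply, hwC c hc, hwC c hc]
      rfl
    · intro d _ hd hm
      have hdpos : 0 < d := Nat.pos_of_ne_zero (NeZero.ne d)
      haveI : NeZero (S34WQ_dual q d) := ⟨S34WQ_dual_ne_zero hq.pos hdpos⟩
      have hd' : S34WQ_dual q d ∣ N := by
        rw [hN]; exact S34WQ_dual_dvd hq (hN ▸ hd)
      have hm' : qExpand K1 (S34WQ_dual q d) (jqModC K1) ∈ modularFunctionFieldFullC K1 N :=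
        jqModCd_mem_full K1 N hd'
      have h1 : w₁ ⟨qExpand K1 d (jqModC K1), hm⟩ =
          ⟨qExpand K1 (S34WQ_dual q d) (jqModC K1), hm'⟩ := Subtype.ext (hwj d hd hm)
      have hdd : S34WQ_dual q (S34WQ_dual q d) = d := S34WQ_dual_dual hq hqN (hN ▸ hd)
      haveI : NeZero (S34WQ_dual q (S34WQ_dual q d)) := ⟨by rw [hdd]; exact NeZero.ne d⟩
      rw [RingHom.comp_apply, h1]
      apply Subtype.ext
      rw [hwj (S34WQ_dual q d) hd' hm']
      exact S34WQ_qExpand_congr hdd _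
  -- restriction to level N'
  have hres : ∀ (x : LaurentSeries K1) (hx' : x ∈ modularFunctionFieldFullC K1 N')
      (hx : x ∈ modularFunctionFieldFullC K1 N),
      ((w₁ ⟨x, hx⟩ : modularFunctionFieldFullC K1 N) : LaurentSeries K1) = qExpand K1 q x := by
    intro x hx'
    unfold modularFunctionFieldFullC at hx'
    induction hx' using IntermediateField.adjoin_induction with
    | mem y hy =>
        intro hx
        obtain ⟨d, hd0, hd, rfl⟩ := hy
        haveI : NeZero (q * d) := ⟨Nat.mul_ne_zero hq.ne_zero (NeZero.ne d)⟩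
        rw [hold d hd hx, qExpand_qExpand]
    | algebraMap c =>
        intro hx
        have h2 : algebraMap K1 (LaurentSeries K1) c = HahnSeries.C c := by
          rw [algebraMap_laurentSeries_eq_single, HahnSeries.C_apply]
        have hc : HahnSeries.C c ∈ modularFunctionFieldFullC K1 N := by
          rw [← h2]; exact hx
        have h3 : (⟨algebraMap K1 (LaurentSeries K1) c, hx⟩ : modularFunctionFieldFullC K1 N) =
            ⟨HahnSeries.C c, hc⟩ := Subtype.ext h2
        rw [h3, hwC c hc, h2]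
        show HahnSeries.C c = qExpand K1 q (HahnSeries.C c)
        rw [HahnSeries.C_apply, qExpand_single, mul_zero]
    | add x y hx hy ihx ihy =>
        intro hxy
        have hxN : x ∈ modularFunctionFieldFullC K1 N := full_degeneracyC_le K1 hN'N hx
        have hyN : y ∈ modularFunctionFieldFullC K1 N := full_degeneracyC_le K1 hN'N hy
        have h : (⟨x + y, hxy⟩ : modularFunctionFieldFullC K1 N) = ⟨x, hxN⟩ + ⟨y, hyN⟩ := rfl
        rw [h, map_add, map_add]
        show ((w₁ ⟨x, hxN⟩ : modularFunctionFieldFullC K1 N) : LaurentSeries K1) +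
          ((w₁ ⟨y, hyN⟩ : modularFunctionFieldFullC K1 N) : LaurentSeries K1) = _
        rw [ihx hxN, ihy hyN]
    | inv x hx ihx =>
        intro hxi
        have hxN : x ∈ modularFunctionFieldFullC K1 N := full_degeneracyC_le K1 hN'N hx
        have h : (⟨x⁻¹, hxi⟩ : modularFunctionFieldFullC K1 N) = (⟨x, hxN⟩)⁻¹ := rfl
        rw [h, map_inv₀, map_inv₀]
        show (((w₁ ⟨x, hxN⟩ : modularFunctionFieldFullC K1 N) : LaurentSeries K1))⁻¹ = _
        rw [ihx hxN]
    | mul x y hx hy ihx ihy =>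
        intro hxy
        have hxN : x ∈ modularFunctionFieldFullC K1 N := full_degeneracyC_le K1 hN'N hx
        have hyN : y ∈ modularFunctionFieldFullC K1 N := full_degeneracyC_le K1 hN'N hy
        have h : (⟨x * y, hxy⟩ : modularFunctionFieldFullC K1 N) = ⟨x, hxN⟩ * ⟨y, hyN⟩ := rfl
        rw [h, map_mul, map_mul]
        show ((w₁ ⟨x, hxN⟩ : modularFunctionFieldFullC K1 N) : LaurentSeries K1) *
          ((w₁ ⟨y, hyN⟩ : modularFunctionFieldFullC K1 N) : LaurentSeries K1) = _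
        rw [ihx hxN, ihy hyN]
  -- packaging
  have hcomp : w₁.comp w₁ = RingHom.id _ := RingHom.ext hinv
  have halg : ∀ c : K1, w₁ (algebraMap K1 (modularFunctionFieldFullC K1 N) c) =
      algebraMap K1 (modularFunctionFieldFullC K1 N) c := by
    intro c
    have h2 : algebraMap K1 (LaurentSeries K1) c = HahnSeries.C c := by
      rw [algebraMap_laurentSeries_eq_single, HahnSeries.C_apply]
    have hc : HahnSeries.C c ∈ modularFunctionFieldFullC K1 N := by
      rw [← h2]; exact IntermediateField.algebraMap_mem _ c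
    have h3 : algebraMap K1 (modularFunctionFieldFullC K1 N) c = ⟨HahnSeries.C c, hc⟩ :=
      Subtype.ext h2
    rw [h3, hwC c hc]
  refine ⟨AlgEquiv.ofRingEquiv (f := RingEquiv.ofRingHom w₁ w₁ hcomp hcomp) halg,
    hinv, hwj, hold, hnew, ?_⟩
  intro x hx'
  exact hres (x : LaurentSeries K1) hx' x.2

end Main

end Fermat.Agent.S34_helper20_WQ
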