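import Mathlib

/-!
# S34, piece X-V1-MODEQ (part a): generic algebra

* `S34ME_split`: a minimal polynomial with `[F : E]` pairwise distinct conjugates in a domain
  is the product of the `X - r_i`.
* `S34ME_prod_coeff_scaled`: scaled coefficients of `∏ (X - r_i)` lie in a subring `B` as soon
  as `t * r_i ∈ B`.
* `S34ME_exists_poly_of_regular`: an element of `ℚ(j)` which is regular at every complex point
  is a polynomial in `j`.
-/

set_option autoImplicit false

open Polynomial

namespace Fermat.Agent.S34_helper8_MODEQ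

/-- If `x` has `card ι ≥ [F : E]` pairwise distinct conjugates `e i x` over `ε`, then the minimal
polynomial of `x` maps to `∏ (X - e i x)`. -/
theorem S34ME_split {E F Ω ι : Type*} [Field E] [Field F] [Algebra E F] [FiniteDimensional E F]
    [CommRing Ω] [IsDomain Ω] [Fintype ι]
    (x : F) (ε : E →+* Ω) (e : ι → F →+* Ω) (he : ∀ i a, e i (algebraMap E F a) = ε a)
    (hinj : Function.Injective (fun i => e i x))
    (hcard : Module.finrank E F ≤ Fintype.card ι) :
    (minpoly E x).map ε = ∏ i, (X - C (e i x)) ∧ (minpoly E x).natDegree = Fintype.card ι := by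
  classical
  have hint : IsIntegral E x := IsIntegral.of_finite E x
  have hm : (minpoly E x).Monic := minpoly.monic hint
  have hm' : ((minpoly E x).map ε).Monic := hm.map ε
  have hdeg : ((minpoly E x).map ε).natDegree = (minpoly E x).natDegree := hm.natDegree_map ε
  have hle : (minpoly E x).natDegree ≤ Fintype.card ι :=
    (minpoly.natDegree_le x).trans hcard
  obtain ⟨s, hs⟩ : ∃ s : Multiset Ω, s = (Finset.univ : Finset ι).val.map (fun i => e i x) :=
    ⟨_, rfl⟩
  have hnodup : s.Nodup := by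
    rw [hs]
    exact Multiset.Nodup.map hinj Finset.univ.nodup
  have hroot : ∀ i, ((minpoly E x).map ε).IsRoot (e i x) := by
    intro i
    rw [IsRoot, eval_map]
    have h1 : ε = (e i).comp (algebraMap E F) := by
      ext a
      exact (he i a).symm
    rw [h1, ← hom_eval₂]
    have h2 : eval₂ (algebraMap E F) x (minpoly E x) = 0 := by
      rw [← aeval_def]
      exact minpoly.aeval E x
    rw [h2, map_zero]
  have hsub : s ≤ ((minpoly E x).map ε).roots := by
    rw [Multiset.le_iff_subset hnodup]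
    intro r hr
    rw [hs, Multiset.mem_map] at hr
    obtain ⟨i, -, rfl⟩ := hr
    exact (mem_roots hm'.ne_zero).2 (hroot i)
  have hscard : s.card = Fintype.card ι := by
    rw [hs, Multiset.card_map]
    rfl
  have hrc : ((minpoly E x).map ε).roots.card ≤ s.card := by
    rw [hscard]
    exact (card_roots' _).trans (hdeg.le.trans hle)
  have heq : s = ((minpoly E x).map ε).roots := Multiset.eq_of_le_of_card_le hsub hrc
  have hcardeq : ((minpoly E x).map ε).roots.card = ((minpoly E x).map ε).natDegree := by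
    apply le_antisymm (card_roots' _)
    rw [← heq, hscard, hdeg]
    exact hle
  have hprod := prod_multiset_X_sub_C_of_monic_of_roots_card_eq hm' hcardeq
  refine ⟨?_, ?_⟩
  · rw [← hprod, ← heq, hs, Multiset.map_map, Finset.prod_eq_multiset_prod]
    rfl
  · rw [← hdeg, ← hcardeq, ← heq, hscard]

theorem S34ME_sum_natDegree_le {Ω ι : Type*} [CommRing Ω] (s : Finset ι) (r : ι → Ω) :
    ∑ i ∈ s, (X - C (r i)).natDegree ≤ s.card := by
  have h : ∀ i ∈ s, (X - C (r i)).natDegree ≤ 1 := fun i _ => natDegree_X_sub_C_le (r i)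
  have h2 := Finset.sum_le_sum h
  simpa using h2

/-- Scaled coefficients of `∏ (X - r i)`. -/
theorem S34ME_prod_coeff_scaled {Ω ι : Type*} [CommRing Ω] (B : Subring Ω) (t : Ω)
    (s : Finset ι) (r : ι → Ω) (hr : ∀ i ∈ s, t * r i ∈ B) :
    ∀ k d : ℕ, k + d = s.card → t ^ d * (∏ i ∈ s, (X - C (r i))).coeff k ∈ B := by
  classical
  induction s using Finset.induction_on with
  | empty =>
    intro k d hkd
    rw [Finset.card_empty] at hkd
    obtain ⟨rfl, rfl⟩ : k = 0 ∧ d = 0 := by omega
    simp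
  | insert a s ha ih =>
    intro k d hkd
    rw [Finset.card_insert_of_notMem ha] at hkd
    rw [Finset.prod_insert ha]
    have hra : t * r a ∈ B := hr a (Finset.mem_insert_self a s)
    have ih' := ih (fun i hi => hr i (Finset.mem_insert_of_mem hi))
    set T : Polynomial Ω := ∏ i ∈ s, (X - C (r i)) with hT
    have hTdeg : T.natDegree ≤ s.card := by
      rw [hT]
      refine (natDegree_prod_le _ _).trans ?_
      exact S34ME_sum_natDegree_le s r
    have hexp : (X - C (r a)) * T = X * T - C (r a) * T := by ring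
    rw [hexp, coeff_sub, coeff_C_mul]
    rcases Nat.eq_zero_or_pos k with rfl | hk
    · rw [coeff_X_mul_zero, zero_sub]
      obtain ⟨d', rfl⟩ : ∃ d', d = d' + 1 := ⟨s.card, by omega⟩
      have h1 := ih' 0 d' (by omega)
      have h2 : t ^ (d' + 1) * -(r a * T.coeff 0) = -((t * r a) * (t ^ d' * T.coeff 0)) := by ring
      rw [h2]
      exact B.neg_mem (B.mul_mem hra h1)
    · obtain ⟨k', rfl⟩ : ∃ k', k = k' + 1 := ⟨k - 1, by omega⟩
      rw [coeff_X_mul]
      have h1 := ih' k' d (by omega)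
      rw [mul_sub]
      refine B.sub_mem h1 ?_
      rcases Nat.eq_zero_or_pos d with rfl | hd
      · have h0 : T.coeff (k' + 1) = 0 :=
          coeff_eq_zero_of_natDegree_lt (lt_of_le_of_lt hTdeg (by omega))
        rw [h0, mul_zero, mul_zero]
        exact B.zero_mem
      · obtain ⟨d', rfl⟩ : ∃ d', d = d' + 1 := ⟨d - 1, by omega⟩
        have h2 := ih' (k' + 1) d' (by omega)
        have h3 : t ^ (d' + 1) * (r a * T.coeff (k' + 1)) =
            (t * r a) * (t ^ d' * T.coeff (k' + 1)) := by ring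
        rw [h3]
        exact B.mul_mem hra h2

/-- Unscaled version. -/
theorem S34ME_prod_coeff_mem {Ω ι : Type*} [CommRing Ω] (B : Subring Ω)
    (s : Finset ι) (r : ι → Ω) (hr : ∀ i ∈ s, r i ∈ B) (k : ℕ) :
    (∏ i ∈ s, (X - C (r i))).coeff k ∈ B := by
  classical
  by_cases hk : k ≤ s.card
  · have h := S34ME_prod_coeff_scaled B 1 s r (fun i hi => by rw [one_mul]; exact hr i hi)
      k (s.card - k) (by omega)
    rwa [one_pow, one_mul] at h
  · have hdeg : (∏ i ∈ s, (X - C (r i))).natDegree ≤ s.card := by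
      refine (natDegree_prod_le _ _).trans ?_
      exact S34ME_sum_natDegree_le s r
    rw [coeff_eq_zero_of_natDegree_lt (lt_of_le_of_lt hdeg (by omega))]
    exact B.zero_mem

/-- the constant coefficient of `∏ (X - r i)` -/
theorem S34ME_prod_coeff_zero {Ω ι : Type*} [CommRing Ω] (s : Finset ι) (r : ι → Ω) :
    (∏ i ∈ s, (X - C (r i))).coeff 0 = ∏ i ∈ s, (- r i) := by
  rw [coeff_zero_eq_eval_zero, eval_prod]
  refine Finset.prod_congr rfl (fun i _ => ?_)
  simp


theorem S34ME_hom_aeval {F : Type*} [Field F] [Algebra ℚ F] (j : F)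
    (ι : F →+* LaurentSeries ℂ) (hι : ∀ a : ℚ, ι (algebraMap ℚ F a) = HahnSeries.C (a : ℂ))
    (τ : PowerSeries ℂ) (hτ : ι j = HahnSeries.ofPowerSeries ℤ ℂ τ) (p : Polynomial ℚ) :
    ι (aeval j p) = HahnSeries.ofPowerSeries ℤ ℂ
      (eval₂ ((PowerSeries.C : ℂ →+* PowerSeries ℂ).comp (algebraMap ℚ ℂ)) τ p) := by
  induction p using Polynomial.induction_on' with
  | add p q hp hq =>
    rw [map_add, map_add, hp, hq, eval₂_add, map_add]
  | monomial n a =>
    rw [aeval_monomial, map_mul, map_pow, hι, hτ, eval₂_monomial, map_mul, map_pow]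
    congr 1
    rw [RingHom.comp_apply]
    exact (HahnSeries.ofPowerSeries_C _).symm

theorem S34ME_constantCoeff_eval₂ (τ : PowerSeries ℂ) (p : Polynomial ℚ) :
    PowerSeries.constantCoeff
      (eval₂ ((PowerSeries.C : ℂ →+* PowerSeries ℂ).comp (algebraMap ℚ ℂ)) τ p) =
      eval₂ (algebraMap ℚ ℂ) (PowerSeries.constantCoeff τ) p := by
  rw [hom_eval₂]
  congr 1

/-- **Polynomiality.**  An element `b` of `ℚ(j)` such that for every complex number `c` there is
a ring homomorphism `ι : F → ℂ((s))`, the identity on constants, with `ι j ∈ ℂ[[s]]` of constant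
term `c` and `ι b ∈ ℂ[[s]]`, is a polynomial in `j` with rational coefficients. -/
theorem S34ME_exists_poly_of_regular {F : Type*} [Field F] [Algebra ℚ F] (j b : F)
    (hj : Transcendental ℚ j) (hb : b ∈ IntermediateField.adjoin ℚ {j})
    (hreg : ∀ c : ℂ, ∃ ι : F →+* LaurentSeries ℂ,
      (∀ a : ℚ, ι (algebraMap ℚ F a) = HahnSeries.C (a : ℂ)) ∧
      (∃ τ : PowerSeries ℂ, ι j = HahnSeries.ofPowerSeries ℤ ℂ τ ∧
        PowerSeries.constantCoeff τ = c) ∧
      (∃ β : PowerSeries ℂ, ι b = HahnSeries.ofPowerSeries ℤ ℂ β)) :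
    ∃ P : Polynomial ℚ, aeval j P = b := by
  classical
  obtain ⟨r, s, hrs⟩ := (IntermediateField.mem_adjoin_simple_iff ℚ b).1 hb
  by_cases hs0 : s = 0
  · refine ⟨0, ?_⟩
    rw [hrs, hs0, map_zero, div_zero]
  have hne : ∀ p : Polynomial ℚ, p ≠ 0 → aeval j p ≠ 0 := fun p hp h =>
    hj ⟨p, hp, h⟩
  -- a coprime representation
  obtain ⟨r', s', hs'0, ⟨u, v, huv⟩, hrel⟩ : ∃ r' s' : Polynomial ℚ, s' ≠ 0 ∧
      (∃ u v : Polynomial ℚ, u * r' + v * s' = 1) ∧ b * aeval j s' = aeval j r' := by
    obtain ⟨g, A, B, hg0, ⟨r', hr'⟩, ⟨s', hs'⟩, hbez⟩ : ∃ g A B : Polynomial ℚ, g ≠ 0 ∧ g ∣ r ∧ g ∣ s ∧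
        g = r * A + s * B :=
      ⟨EuclideanDomain.gcd r s, EuclideanDomain.gcdA r s, EuclideanDomain.gcdB r s,
        fun h => hs0 ((EuclideanDomain.gcd_eq_zero_iff.1 h).2),
        EuclideanDomain.gcd_dvd_left r s, EuclideanDomain.gcd_dvd_right r s,
        EuclideanDomain.gcd_eq_gcd_ab r s⟩
    refine ⟨r', s', ?_, ⟨A, B, ?_⟩, ?_⟩
    · rintro rfl
      apply hs0
      rw [hs', mul_zero]
    · apply mul_left_cancel₀ hg0
      calc g * (A * r' + B * s') = (g * r') * A + (g * s') * B := by ring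
        _ = r * A + s * B := by rw [← hr', ← hs']
        _ = g := hbez.symm
        _ = g * 1 := (mul_one g).symm
    · have h1 : aeval j s ≠ 0 := hne s hs0
      have h2 : b * aeval j s = aeval j r := by
        rw [hrs]
        exact div_mul_cancel₀ _ h1
      have h3 : aeval j g ≠ 0 := hne _ hg0
      apply mul_left_cancel₀ h3
      calc aeval j g * (b * aeval j s') = b * aeval j (g * s') := by rw [map_mul]; ring
        _ = aeval j (g * r') := by rw [← hs', ← hr', h2]
        _ = aeval j g * aeval j r' := map_mul _ _ _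
  by_cases hdeg : s'.natDegree = 0
  · obtain ⟨c, hc⟩ := natDegree_eq_zero.1 hdeg
    have hc0 : c ≠ 0 := by
      rintro rfl
      apply hs'0
      rw [← hc, map_zero]
    refine ⟨C c⁻¹ * r', ?_⟩
    rw [map_mul, aeval_C, ← hrel, ← hc, aeval_C]
    rw [mul_comm b, ← mul_assoc, ← map_mul, inv_mul_cancel₀ hc0, map_one, one_mul]
  · exfalso
    have hdeg' : (s'.map (algebraMap ℚ ℂ)).degree ≠ 0 := by
      rw [degree_map]
      intro h
      apply hdeg
      exact natDegree_eq_zero_iff_degree_le_zero.2 h.le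
    obtain ⟨c, hc⟩ := IsAlgClosed.exists_root (s'.map (algebraMap ℚ ℂ)) hdeg'
    have hc' : eval₂ (algebraMap ℚ ℂ) c s' = 0 := by
      rw [← eval_map]
      exact hc
    have hr'c : eval₂ (algebraMap ℚ ℂ) c r' ≠ 0 := by
      intro h
      have h1 := congrArg (eval₂ (algebraMap ℚ ℂ) c) huv
      rw [eval₂_add, eval₂_mul, eval₂_mul, eval₂_one, h, hc', mul_zero, mul_zero,
        add_zero] at h1
      exact zero_ne_one h1
    obtain ⟨ι, hι, ⟨τ, hτ, hτ0⟩, β, hβ⟩ := hreg c
    have h1 := congrArg ι hrel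
    rw [map_mul, S34ME_hom_aeval j ι hι τ hτ, S34ME_hom_aeval j ι hι τ hτ, hβ, ← map_mul] at h1
    have h2 := HahnSeries.ofPowerSeries_injective h1
    have h3 := congrArg PowerSeries.constantCoeff h2
    rw [map_mul, S34ME_constantCoeff_eval₂, S34ME_constantCoeff_eval₂, hτ0] at h3
    rw [hc', mul_zero] at h3
    exact hr'c h3.symm

end Fermat.Agent.S34_helper8_MODEQ
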