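import Mathlib
import Fermat.Prelude.Def_ModularCurve_X0ModL

/-!
# S34, piece X-V1-MODEQ (part b): polynomials in `j` and their `q`-expansions

* `S34ME_coeff_aeval`: the coefficient of `q^{-n}` of `P(j)` is `P.coeff n` for `deg P ≤ n`.
* `S34ME_exists_int_poly`: a rational polynomial `P₀` such that `P₀(j)` has integral
  `q`-expansion vanishing below `q^{-d}` has integer coefficients and degree at most `d`.
-/

set_option autoImplicit false

open Polynomial ModularCurve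

namespace Fermat.Agent.S34_helper8_MODEQ

theorem S34ME_coeff_algebraMap_mul (K : Type*) [Field K] (c : K) (x : LaurentSeries K)
    (m : ℤ) : (algebraMap K (LaurentSeries K) c * x).coeff m = c * x.coeff m := by
  rw [algebraMap_laurentSeries_eq_single, ← HahnSeries.C_apply, HahnSeries.C_mul_eq_smul,
    HahnSeries.coeff_smul, smul_eq_mul]

theorem S34ME_coeff_aeval (K : Type*) [Field K] (P : Polynomial K) (n : ℕ)
    (hn : P.natDegree ≤ n) :
    (aeval (jqModC K) P).coeff (-(n : ℤ)) = P.coeff n := by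
  rw [aeval_eq_sum_range, HahnSeries.coeff_sum]
  simp only [Algebra.smul_def, S34ME_coeff_algebraMap_mul]
  by_cases h : n ∈ Finset.range (P.natDegree + 1)
  · rw [Finset.sum_eq_single n]
    · rw [coeff_jqModC_pow_self, mul_one]
    · intro i hi hin
      rw [Finset.mem_range] at hi
      have hlt : i < n := lt_of_le_of_ne (by omega) hin
      rw [coeff_jqModC_pow_of_lt K (by exact_mod_cast (by omega : -(n : ℤ) < -(i : ℤ))),
        mul_zero]
    · intro h'
      exact absurd h h'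
  · rw [Finset.mem_range] at h
    have h0 : P.coeff n = 0 := coeff_eq_zero_of_natDegree_lt (by omega)
    rw [h0]
    apply Finset.sum_eq_zero
    intro i hi
    rw [Finset.mem_range] at hi
    rw [coeff_jqModC_pow_of_lt K (by exact_mod_cast (by omega : -(n : ℤ) < -(i : ℤ))),
      mul_zero]

theorem S34ME_natDegree_le_of_coeff (K : Type*) [Field K] (P : Polynomial K) (d : ℕ)
    (hd : ∀ m : ℤ, m < -(d : ℤ) → (aeval (jqModC K) P).coeff m = 0) : P.natDegree ≤ d := by
  by_contra hcon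
  push Not at hcon
  have h1 := S34ME_coeff_aeval K P P.natDegree le_rfl
  rw [hd _ (by exact_mod_cast (by omega : -(P.natDegree : ℤ) < -(d : ℤ)))] at h1
  have hP0 : P ≠ 0 := by
    rintro rfl
    simp at hcon
  exact (leadingCoeff_ne_zero.2 hP0) h1.symm

theorem S34ME_coeff_jq_pow_int (n : ℕ) (m : ℤ) :
    ∃ c : ℤ, ((jqModC ℚ) ^ n).coeff m = c := by
  refine ⟨((jqModC ℤ) ^ n).coeff m, ?_⟩
  rw [← coeffMap_jqModC (Int.castRingHom ℚ), ← map_pow, coeffMap_coeff]
  rfl

/-- integrality of the coefficients -/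
theorem S34ME_int_of_coeff : ∀ (n : ℕ) (P₀ : Polynomial ℚ), P₀.natDegree ≤ n →
    (∀ m : ℤ, ∃ c : ℤ, (aeval (jqModC ℚ) P₀).coeff m = c) →
    ∃ P : Polynomial ℤ, P.map (Int.castRingHom ℚ) = P₀ := by
  intro n
  induction n with
  | zero =>
    intro P₀ hdeg hint
    obtain ⟨c, hc⟩ := hint (-((0 : ℕ) : ℤ))
    rw [S34ME_coeff_aeval ℚ P₀ 0 hdeg] at hc
    refine ⟨C c, ?_⟩
    rw [Polynomial.map_C, eq_C_of_natDegree_le_zero hdeg, hc]
    rfl
  | succ n ih =>
    intro P₀ hdeg hint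
    obtain ⟨c, hc⟩ := hint (-((n + 1 : ℕ) : ℤ))
    rw [S34ME_coeff_aeval ℚ P₀ (n + 1) hdeg] at hc
    have hdeg1 : (P₀ - C (c : ℚ) * X ^ (n + 1)).natDegree ≤ n := by
      rw [natDegree_le_iff_coeff_eq_zero]
      intro N hN
      rw [coeff_sub, coeff_C_mul_X_pow]
      split_ifs with h
      · rw [h, hc, sub_self]
      · rw [coeff_eq_zero_of_natDegree_lt (by omega), sub_zero]
    have hint1 : ∀ m : ℤ, ∃ c' : ℤ,
        (aeval (jqModC ℚ) (P₀ - C (c : ℚ) * X ^ (n + 1))).coeff m = c' := by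
      intro m
      obtain ⟨a, ha⟩ := hint m
      obtain ⟨b, hb⟩ := S34ME_coeff_jq_pow_int (n + 1) m
      refine ⟨a - c * b, ?_⟩
      rw [map_sub, map_mul, aeval_C, aeval_X_pow, HahnSeries.coeff_sub, ha,
        S34ME_coeff_algebraMap_mul, hb]
      push_cast
      rfl
    obtain ⟨P₁, hP₁⟩ := ih _ hdeg1 hint1
    refine ⟨P₁ + C c * X ^ (n + 1), ?_⟩
    rw [Polynomial.map_add, hP₁, Polynomial.map_mul, Polynomial.map_pow, Polynomial.map_X,
      Polynomial.map_C]
    simp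

/-- **Integral polynomiality.** -/
theorem S34ME_exists_int_poly (b : LaurentSeries ℚ) (P₀ : Polynomial ℚ)
    (hP : aeval (jqModC ℚ) P₀ = b) (hint : ∀ m : ℤ, ∃ c : ℤ, b.coeff m = c) (d : ℕ)
    (hd : ∀ m : ℤ, m < -(d : ℤ) → b.coeff m = 0) :
    ∃ P : Polynomial ℤ, P.natDegree ≤ d ∧ aeval (jqModC ℚ) (P.map (Int.castRingHom ℚ)) = b ∧
      ((P.coeff d : ℤ) : ℚ) = b.coeff (-(d : ℤ)) := by
  have hdeg : P₀.natDegree ≤ d := S34ME_natDegree_le_of_coeff ℚ P₀ d (by rw [hP]; exact hd)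
  obtain ⟨P, hPmap⟩ := S34ME_int_of_coeff d P₀ hdeg (by rw [hP]; exact hint)
  refine ⟨P, ?_, ?_, ?_⟩
  · rw [← natDegree_map_eq_of_injective (RingHom.injective_int (Int.castRingHom ℚ)) P, hPmap]
    exact hdeg
  · rw [hPmap, hP]
  · rw [← hP, S34ME_coeff_aeval ℚ P₀ d hdeg, ← hPmap, coeff_map]
    rfl

end Fermat.Agent.S34_helper8_MODEQ
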