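import Mathlib
import Fermat.Prelude.Def_ModularCurve_X0ModL
import Fermat.Agent.S34_helper8_MODEQa

/-!
# S34, piece X-V1-MODEQ (part c): the conjugates at infinity, abstractly

`S34ME_B` is the ring of power series in `s` with algebraic integer coefficients, inside
`ℂ((s))`.  `S34ME_inf_main`: the coefficients of `∏ (X - r i)` for one root of order `-q²` and
`q` roots of order `-1`.
-/

set_option autoImplicit false

open Polynomial ModularCurve

namespace Fermat.Agent.S34_helper8_MODEQ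

noncomputable section

/-- a monic polynomial of degree at most `n` with `n` distinct roots -/
theorem S34ME_monic_eq_prod {Ω ι : Type*} [CommRing Ω] [IsDomain Ω] [Fintype ι]
    (p : Polynomial Ω) (hp : p.Monic) (r : ι → Ω) (hr : Function.Injective r)
    (hroot : ∀ i, p.IsRoot (r i)) (hdeg : p.natDegree ≤ Fintype.card ι) :
    p = ∏ i, (X - C (r i)) := by
  classical
  obtain ⟨s, hs⟩ : ∃ s : Multiset Ω, s = (Finset.univ : Finset ι).val.map r := ⟨_, rfl⟩
  have hnodup : s.Nodup := by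
    rw [hs]
    exact Multiset.Nodup.map hr Finset.univ.nodup
  have hsub : s ≤ p.roots := by
    rw [Multiset.le_iff_subset hnodup]
    intro x hx
    rw [hs, Multiset.mem_map] at hx
    obtain ⟨i, -, rfl⟩ := hx
    exact (mem_roots hp.ne_zero).2 (hroot i)
  have hscard : s.card = Fintype.card ι := by
    rw [hs, Multiset.card_map]
    rfl
  have hrc : p.roots.card ≤ s.card := by
    rw [hscard]
    exact (card_roots' _).trans hdeg
  have heq : s = p.roots := Multiset.eq_of_le_of_card_le hsub hrc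
  have hcardeq : p.roots.card = p.natDegree := by
    apply le_antisymm (card_roots' _)
    rw [← heq, hscard]
    exact hdeg
  have hprod := prod_multiset_X_sub_C_of_monic_of_roots_card_eq hp hcardeq
  rw [← hprod, ← heq, hs, Multiset.map_map, Finset.prod_eq_multiset_prod]
  rfl

/-- `∏_{b < q} (-(ζ^b)) = -1` for a primitive `q`-th root of unity. -/
theorem S34ME_prod_neg_pow (q : ℕ) (hq : 0 < q) (ζ : ℂ) (hζ : IsPrimitiveRoot ζ q) :
    ∏ b : Fin q, (-(ζ ^ (b : ℕ))) = -1 := by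
  have h1 : (X ^ q - 1 : Polynomial ℂ) = ∏ b : Fin q, (X - C (ζ ^ (b : ℕ))) := by
    apply S34ME_monic_eq_prod (X ^ q - 1) (monic_X_pow_sub_C (1 : ℂ) hq.ne')
      (fun b : Fin q => ζ ^ (b : ℕ))
    · intro a b hab
      exact Fin.ext (hζ.pow_inj a.2 b.2 hab)
    · intro b
      rw [IsRoot, eval_sub, eval_pow, eval_X, eval_one, ← pow_mul, mul_comm, pow_mul,
        hζ.pow_eq_one, one_pow, sub_self]
    · rw [Fintype.card_fin]
      exact (natDegree_X_pow_sub_C (n := q) (r := (1 : ℂ))).le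
  have h2 := congrArg (fun p : Polynomial ℂ => p.eval 0) h1
  simp only [eval_sub, eval_pow, eval_X, eval_one, eval_prod, eval_C, zero_pow hq.ne',
    zero_sub] at h2
  exact h2.symm

/-- algebraic integers in `ℂ` -/
def S34ME_Zc : Subring ℂ := (integralClosure ℤ ℂ).toSubring

theorem S34ME_mem_Zc (x : ℂ) : x ∈ S34ME_Zc ↔ IsIntegral ℤ x := Iff.rfl

theorem S34ME_intCast_mem_Zc (c : ℤ) : (c : ℂ) ∈ S34ME_Zc := intCast_mem S34ME_Zc c

theorem S34ME_root_mem_Zc (q : ℕ) (hq : 0 < q) (z : ℂ) (hz : z ^ q = 1) : z ∈ S34ME_Zc := by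
  rw [S34ME_mem_Zc]
  apply IsIntegral.of_pow hq
  rw [hz]
  exact isIntegral_one

theorem S34ME_rat_of_mem_Zc (a : ℚ) (h : (a : ℂ) ∈ S34ME_Zc) : ∃ c : ℤ, a = c := by
  rw [S34ME_mem_Zc] at h
  have h1 : IsIntegral ℤ a :=
    (isIntegral_algebraMap_iff (algebraMap ℚ ℂ).injective).1 h
  obtain ⟨c, hc⟩ := IsIntegrallyClosed.isIntegral_iff.1 h1
  exact ⟨c, hc.symm⟩

/-- the ring of power series in `s` with algebraic integer coefficients, inside `ℂ((s))` -/
def S34ME_B : Subring (LaurentSeries ℂ) :=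
  ((HahnSeries.ofPowerSeries ℤ ℂ).comp (PowerSeries.map S34ME_Zc.subtype)).range

theorem S34ME_mem_B (x : LaurentSeries ℂ) :
    x ∈ S34ME_B ↔ ∀ n : ℤ, x.coeff n ∈ S34ME_Zc ∧ (n < 0 → x.coeff n = 0) := by
  constructor
  · rintro ⟨P, rfl⟩ n
    rw [RingHom.comp_apply]
    rcases lt_or_ge n 0 with hn | hn
    · rw [ofPowerSeries_coeff_of_neg _ hn]
      exact ⟨S34ME_Zc.zero_mem, fun _ => rfl⟩
    · obtain ⟨k, rfl⟩ := Int.eq_ofNat_of_zero_le hn
      rw [HahnSeries.ofPowerSeries_apply_coeff, PowerSeries.coeff_map]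
      exact ⟨(PowerSeries.coeff k P).2, fun h => absurd h (by omega)⟩
  · intro h
    refine ⟨PowerSeries.mk (fun k => ⟨x.coeff k, (h k).1⟩), ?_⟩
    rw [RingHom.comp_apply]
    ext n
    rcases lt_or_ge n 0 with hn | hn
    · rw [ofPowerSeries_coeff_of_neg _ hn, (h n).2 hn]
    · obtain ⟨k, rfl⟩ := Int.eq_ofNat_of_zero_le hn
      rw [HahnSeries.ofPowerSeries_apply_coeff, PowerSeries.coeff_map, PowerSeries.coeff_mk]
      rfl

/-- the variable `s` -/
def S34ME_t : LaurentSeries ℂ := HahnSeries.single 1 1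

theorem S34ME_t_pow (D : ℕ) : S34ME_t ^ D = HahnSeries.single (D : ℤ) 1 := by
  rw [S34ME_t, HahnSeries.single_pow, one_pow]
  simp

theorem S34ME_coeff_t_pow_mul (D : ℕ) (x : LaurentSeries ℂ) (n : ℤ) :
    (S34ME_t ^ D * x).coeff n = x.coeff (n - D) := by
  rw [S34ME_t_pow]
  have h := HahnSeries.coeff_single_mul_add (r := (1 : ℂ)) (x := x) (a := n - D) (b := (D : ℤ))
  rw [sub_add_cancel, one_mul] at h
  exact h

theorem S34ME_t_mem_B : S34ME_t ∈ S34ME_B := by
  rw [S34ME_mem_B]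
  intro n
  rw [S34ME_t, HahnSeries.coeff_single]
  split_ifs with h
  · exact ⟨S34ME_Zc.one_mem, fun hn => absurd hn (by omega)⟩
  · exact ⟨S34ME_Zc.zero_mem, fun _ => rfl⟩

/-- `x` has coefficients in `Zc` and order at least `-D` -/
def S34ME_Bdd (D : ℕ) (x : LaurentSeries ℂ) : Prop :=
  ∀ n : ℤ, x.coeff n ∈ S34ME_Zc ∧ (n < -(D : ℤ) → x.coeff n = 0)

theorem S34ME_t_pow_mul_mem_B (D : ℕ) (x : LaurentSeries ℂ) :
    S34ME_t ^ D * x ∈ S34ME_B ↔ S34ME_Bdd D x := by
  rw [S34ME_mem_B]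
  constructor
  · intro h n
    have h1 := h (n + D)
    rw [S34ME_coeff_t_pow_mul, add_sub_cancel_right] at h1
    exact ⟨h1.1, fun hn => h1.2 (by omega)⟩
  · intro h n
    rw [S34ME_coeff_t_pow_mul]
    exact ⟨(h _).1, fun hn => (h _).2 (by omega)⟩

theorem S34ME_Bdd_neg (D : ℕ) (x : LaurentSeries ℂ) (h : S34ME_Bdd D x) : S34ME_Bdd D (-x) := by
  intro n
  rw [HahnSeries.coeff_neg]
  exact ⟨S34ME_Zc.neg_mem (h n).1, fun hn => by rw [(h n).2 hn, neg_zero]⟩

/-- the constant coefficient is multiplicative on `B` -/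
theorem S34ME_coeff_zero_mul (x y : LaurentSeries ℂ) (hx : x ∈ S34ME_B) (hy : y ∈ S34ME_B) :
    (x * y).coeff 0 = x.coeff 0 * y.coeff 0 := by
  obtain ⟨P, rfl⟩ := hx
  obtain ⟨Q, rfl⟩ := hy
  rw [← map_mul]
  simp only [RingHom.comp_apply]
  have h0 : ∀ T : PowerSeries ℂ, ((HahnSeries.ofPowerSeries ℤ ℂ) T).coeff 0 =
      PowerSeries.constantCoeff T := by
    intro T
    have := HahnSeries.ofPowerSeries_apply_coeff (Γ := ℤ) T 0
    rw [PowerSeries.coeff_zero_eq_constantCoeff] at this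
    exact_mod_cast this
  rw [h0, h0, h0, map_mul, map_mul]

theorem S34ME_coeff_zero_prod {ι : Type*} (s : Finset ι) (x : ι → LaurentSeries ℂ)
    (hx : ∀ i ∈ s, x i ∈ S34ME_B) :
    (∏ i ∈ s, x i).coeff 0 = ∏ i ∈ s, (x i).coeff 0 := by
  classical
  induction s using Finset.induction_on with
  | empty =>
    simp only [Finset.prod_empty]
    rw [HahnSeries.coeff_one]
    simp
  | insert a s ha ih =>
    rw [Finset.prod_insert ha, Finset.prod_insert ha,
      S34ME_coeff_zero_mul _ _ (hx a (Finset.mem_insert_self a s))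
        (Subring.prod_mem _ (fun i hi => hx i (Finset.mem_insert_of_mem hi))),
      ih (fun i hi => hx i (Finset.mem_insert_of_mem hi))]

theorem S34ME_Bdd_coeff_neg (D : ℕ) (x : LaurentSeries ℂ) :
    (S34ME_t ^ D * x).coeff 0 = x.coeff (-(D : ℤ)) := by
  rw [S34ME_coeff_t_pow_mul, zero_sub]

/-- **The coefficients at infinity.** -/
theorem S34ME_inf_main (q : ℕ) (hq : 0 < q) (ζ : ℂ) (hζ : IsPrimitiveRoot ζ q)
    (r : Option (Fin q) → LaurentSeries ℂ)
    (h0 : S34ME_Bdd (q * q) (r none)) (h0' : (r none).coeff (-((q * q : ℕ) : ℤ)) = 1)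
    (hb : ∀ b : Fin q, S34ME_Bdd 1 (r (some b)))
    (hb' : ∀ b : Fin q, (r (some b)).coeff (-((1 : ℕ) : ℤ)) = ζ ^ (b : ℕ)) :
    (∀ k : ℕ, k ≤ q → S34ME_Bdd (q * q + (q - k)) ((∏ i, (X - C (r i))).coeff k)) ∧
    ((∏ i, (X - C (r i))).coeff 0).coeff (-((q * q + q : ℕ) : ℤ)) = 1 := by
  classical
  have hqq : 0 < q * q := Nat.mul_pos hq hq
  have htb : ∀ b : Fin q, S34ME_t * r (some b) ∈ S34ME_B := by
    intro b
    have := (S34ME_t_pow_mul_mem_B 1 (r (some b))).2 (hb b)
    rwa [pow_one] at this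
  have ht0 : S34ME_t ^ (q * q) * r none ∈ S34ME_B := (S34ME_t_pow_mul_mem_B _ _).2 h0
  have hT : ∀ k d : ℕ, k + d = q →
      S34ME_t ^ d * (∏ b : Fin q, (X - C (r (some b)))).coeff k ∈ S34ME_B := by
    intro k d hkd
    refine S34ME_prod_coeff_scaled S34ME_B S34ME_t Finset.univ (fun b : Fin q => r (some b))
      (fun b _ => htb b) k d ?_
    rw [Finset.card_univ, Fintype.card_fin]
    exact hkd
  have hR : (∏ i, (X - C (r i))) =
      (X - C (r none)) * ∏ b : Fin q, (X - C (r (some b))) := Fintype.prod_option _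
  refine ⟨?_, ?_⟩
  · intro k hk
    rw [← S34ME_t_pow_mul_mem_B, hR]
    have hexp : (X - C (r none)) * (∏ b : Fin q, (X - C (r (some b)))) =
        X * (∏ b : Fin q, (X - C (r (some b)))) -
          C (r none) * (∏ b : Fin q, (X - C (r (some b)))) := by ring
    rw [hexp, coeff_sub, coeff_C_mul, mul_sub]
    refine S34ME_B.sub_mem ?_ ?_
    · rcases Nat.eq_zero_or_pos k with rfl | hk0
      · rw [coeff_X_mul_zero, mul_zero]
        exact S34ME_B.zero_mem
      · obtain ⟨k', rfl⟩ : ∃ k', k = k' + 1 := ⟨k - 1, by omega⟩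
        rw [coeff_X_mul]
        have h1 := hT k' (q - (k' + 1) + 1) (by omega)
        have h2 : S34ME_t ^ (q * q + (q - (k' + 1))) =
            S34ME_t ^ (q * q - 1) * S34ME_t ^ (q - (k' + 1) + 1) := by
          rw [← pow_add]
          congr 1
          omega
        rw [h2, mul_assoc]
        exact S34ME_B.mul_mem (S34ME_B.pow_mem S34ME_t_mem_B _) h1
    · have h1 := hT k (q - k) (by omega)
      have h2 : S34ME_t ^ (q * q + (q - k)) *
          (r none * (∏ b : Fin q, (X - C (r (some b)))).coeff k) =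
          (S34ME_t ^ (q * q) * r none) *
            (S34ME_t ^ (q - k) * (∏ b : Fin q, (X - C (r (some b)))).coeff k) := by
        rw [pow_add]; ring
      rw [h2]
      exact S34ME_B.mul_mem ht0 h1
  · rw [S34ME_prod_coeff_zero, Fintype.prod_option, ← S34ME_Bdd_coeff_neg]
    have h1 : S34ME_t ^ (q * q + q) * (-r none * ∏ b : Fin q, -r (some b)) =
        (S34ME_t ^ (q * q) * (-r none)) * ∏ b : Fin q, (S34ME_t * (-r (some b))) := by
      rw [Finset.prod_mul_distrib, Finset.prod_const, Finset.card_univ, Fintype.card_fin,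
        pow_add]
      ring
    have hm0 : S34ME_t ^ (q * q) * (-r none) ∈ S34ME_B :=
      (S34ME_t_pow_mul_mem_B _ _).2 (S34ME_Bdd_neg _ _ h0)
    have hmb : ∀ b ∈ (Finset.univ : Finset (Fin q)), S34ME_t * (-r (some b)) ∈ S34ME_B := by
      intro b _
      have := (S34ME_t_pow_mul_mem_B 1 (-r (some b))).2 (S34ME_Bdd_neg _ _ (hb b))
      rwa [pow_one] at this
    rw [h1, S34ME_coeff_zero_mul _ _ hm0 (Subring.prod_mem _ hmb),
      S34ME_coeff_zero_prod _ _ hmb, S34ME_Bdd_coeff_neg, HahnSeries.coeff_neg, h0']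
    have h3 : ∀ b : Fin q, (S34ME_t * -r (some b)).coeff 0 = -(ζ ^ (b : ℕ)) := by
      intro b
      have := S34ME_Bdd_coeff_neg 1 (-r (some b))
      rw [pow_one] at this
      rw [this, HahnSeries.coeff_neg, hb']
    rw [Finset.prod_congr rfl (fun b _ => h3 b), S34ME_prod_neg_pow q hq ζ hζ]
    norm_num

end

end Fermat.Agent.S34_helper8_MODEQ
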