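import Mathlib
import Fermat.Agent.S34_helper8_MODEQa
import Fermat.Agent.S34_helper8_MODEQb
import Fermat.Agent.S34_helper8_MODEQc
import Fermat.Agent.S37_helper8_K1c
import Fermat.Agent.S18_helper26_DEGK1
import Fermat.Agent.S24_helper10_LOCfin

/-!
# S34, piece X-V1-MODEQ (part d): the conjugates of `j(q^ℓ)` over `ℚ(j)`, concretely

Level `1 * q`, constants `ℚ`.  `F = ℚ(j, j(q^q)) ⊆ ℚ((q))`.

* `S34ME_inf`: the `q + 1` embeddings at infinity (`S37K1_embOpt 1 q`) and the shape of the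
  images of `j(q^q)`;
* `S34ME_fin`: the embeddings at a finite point (`iotaFin`), images are power series.
-/

set_option autoImplicit false
set_option linter.unusedSectionVars false
set_option linter.unusedVariables false
set_option linter.style.haveILetI false

open Polynomial IntermediateField ModularCurve
open Fermat.Agent.S20 Fermat.Agent.S24 Fermat.Agent.S24_helper16_B
open Fermat.Agent.S18_helper26_CONST Fermat.Agent.S18_helper26_DEGK1
open Fermat.Agent.S37K1 Fermat.Agent.S24_helper10_LOCfin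

namespace Fermat.Agent.S34_helper8_MODEQ

noncomputable section

/- the `ℚ`-algebra structure of the function field is the one of an intermediate field (as in
the statements over a general constant field) -/
attribute [local instance 100000] SubalgebraClass.toAlgebra

/-- two ring homomorphisms which agree at `x` agree on `ℚ(x)` -/
theorem S34ME_agree_adjoin {F Ω : Type*} [Field F] [Algebra ℚ F] [Field Ω]
    (f g : F →+* Ω) (x : F) (hx : f x = g x) (a : F) (ha : a ∈ ℚ⟮x⟯) : f a = g a := by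
  induction ha using IntermediateField.adjoin_induction with
  | mem y hy =>
    rw [Set.mem_singleton_iff] at hy
    rw [hy, hx]
  | algebraMap r =>
    have h : f.comp (algebraMap ℚ F) = g.comp (algebraMap ℚ F) := RingHom.ext_rat _ _
    exact congrArg (fun φ => φ r) h
  | add y z _ _ h1 h2 => rw [map_add, map_add, h1, h2]
  | inv y _ h1 => rw [map_inv₀, map_inv₀, h1]
  | mul y z _ _ h1 h2 => rw [map_mul, map_mul, h1, h2]

/-! ### the shape of the conjugates at infinity -/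

theorem S34ME_jqC_coeff_mem (n : ℤ) : (jqModC ℂ).coeff n ∈ S34ME_Zc := by
  rw [← coeffMap_jqModC (Int.castRingHom ℂ), coeffMap_coeff]
  exact S34ME_intCast_mem_Zc _

theorem S34ME_Bdd_qExpand (D : ℕ) [NeZero D] :
    S34ME_Bdd D (qExpand ℂ D (jqModC ℂ)) ∧
      (qExpand ℂ D (jqModC ℂ)).coeff (-((D : ℕ) : ℤ)) = 1 := by
  have hD : (0 : ℤ) < (D : ℤ) := by exact_mod_cast Nat.pos_of_ne_zero (NeZero.ne D)
  constructor
  · intro n
    by_cases hn : (D : ℤ) ∣ n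
    · obtain ⟨m, rfl⟩ := hn
      rw [qExpand_coeff_mul]
      refine ⟨S34ME_jqC_coeff_mem m, fun h => ?_⟩
      apply coeff_jqModC_of_lt
      by_contra hcon
      push Not at hcon
      have : (D : ℤ) * (-1) ≤ (D : ℤ) * m := mul_le_mul_of_nonneg_left hcon hD.le
      linarith
    · rw [qExpand_coeff_of_not_dvd D _ hn]
      exact ⟨S34ME_Zc.zero_mem, fun _ => rfl⟩
  · have h : (-((D : ℕ) : ℤ)) = (D : ℤ) * (-1) := by ring
    rw [h, qExpand_coeff_mul]
    exact coeff_jqModC_neg_one ℂ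

theorem S34ME_Bdd_lsScale (q : ℕ) (hq : 0 < q) (z : ℂˣ) (hz : z ^ q = 1) :
    S34ME_Bdd 1 (lsScale z (jqModC ℂ)) ∧
      (lsScale z (jqModC ℂ)).coeff (-((1 : ℕ) : ℤ)) = ((z⁻¹ : ℂˣ) : ℂ) := by
  constructor
  · intro n
    rw [coeff_lsScale]
    refine ⟨S34ME_Zc.mul_mem ?_ (S34ME_jqC_coeff_mem n), fun h => ?_⟩
    · apply S34ME_root_mem_Zc q hq
      have h1 : (z ^ n) ^ q = 1 := by
        rw [← zpow_natCast, ← zpow_mul, mul_comm, zpow_mul, zpow_natCast, hz, one_zpow]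
      have h2 := congrArg (fun u : ℂˣ => (u : ℂ)) h1
      simpa using h2
    · rw [coeff_jqModC_of_lt ℂ (by push_cast at h; linarith), mul_zero]
  · rw [coeff_lsScale]
    have h : (-((1 : ℕ) : ℤ)) = -1 := by norm_num
    rw [h, coeff_jqModC_neg_one, mul_one, zpow_neg_one]

/-! ### the level `1 * q` -/

section Level

variable (q : ℕ) [NeZero q]

/-- the function field `ℚ(j, j(q^q))` -/
abbrev S34ME_F : IntermediateField ℚ (LaurentSeries ℚ) := modularFunctionFieldFullC ℚ (1 * q)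

/-- `j` -/
abbrev S34ME_jb : S34ME_F q := S18P15_jbar ℚ (1 * q)

/-- `j(q^q)` -/
abbrev S34ME_tb : S34ME_F q := S18P15_jbard ℚ (1 * q) (1 * q) dvd_rfl

theorem S34ME_jb_coe : ((S34ME_jb q : S34ME_F q) : LaurentSeries ℚ) = jqModC ℚ := rfl

theorem S34ME_tb_coe :
    ((S34ME_tb q : S34ME_F q) : LaurentSeries ℚ) = qExpand ℚ (1 * q) (jqModC ℚ) := rfl

/-- the inclusion into the function field over `ℚ̄` -/
def S34ME_inc : S34ME_F q →+* modularFunctionFieldBar (1 * q) :=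
  S18DEG_inc (algebraMap ℚ Kbar) (1 * q)

theorem S34ME_inc_jb : S34ME_inc q (S34ME_jb q) = jElt (1 * q) :=
  S18DEG_inc_jbar (algebraMap ℚ Kbar) (1 * q)

theorem S34ME_inc_tb : S34ME_inc q (S34ME_tb q) = jF (1 * q) (1 * q) dvd_rfl :=
  S18DEG_inc_jbard (algebraMap ℚ Kbar) (1 * q) (1 * q) dvd_rfl

theorem S34ME_inc_tb' : S34ME_inc q (S34ME_tb q) = heckeBetaBar Kbar 1 q (jElt 1) := by
  rw [S34ME_inc_tb]
  exact (S37K1_beta_jF 1 q 1 (one_dvd 1)).symm

theorem S34ME_inc_jb' : S34ME_inc q (S34ME_jb q) = heckeAlphaBar Kbar 1 q (jElt 1) := by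
  rw [S34ME_inc_jb]
  exact Subtype.ext rfl

theorem S34ME_hxy : ((q : ℕ) : ℤ) * 1 - ((1 : ℕ) : ℤ) * ((q : ℤ) - 1) = 1 := by
  push_cast
  ring

/-- the `q + 1` embeddings at infinity -/
def S34ME_e (i : Option (Fin q)) : S34ME_F q →+* LaurentSeries ℂ :=
  (S37K1_embOpt 1 q 1 ((q : ℤ) - 1) (S34ME_hxy q) i).comp (S34ME_inc q)

theorem S34ME_e_none (z : S34ME_F q) :
    S34ME_e q none z =
      qExpand ℂ (1 * q) (coeffMap (algebraMap ℚ ℂ) (z : LaurentSeries ℚ)) := by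
  have h := S37K1_emb_one (1 * q) (S34ME_inc q z)
  have h1 : S34ME_e q none z = S37K1_emb (1 * q) 1 (S34ME_inc q z) := rfl
  rw [h1, h, S37K1_Theta_apply]
  have h2 : ((S34ME_inc q z : modularFunctionFieldBar (1 * q)) : LaurentSeries Kbar) =
      coeffMap (algebraMap ℚ Kbar) (z : LaurentSeries ℚ) := rfl
  rw [h2, coeffMap_coeffMap]
  have h3 : phi0.comp (algebraMap ℚ Kbar) = algebraMap ℚ ℂ := RingHom.ext_rat _ _
  rw [h3]

theorem S34ME_e_jb (i : Option (Fin q)) :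
    S34ME_e q i (S34ME_jb q) = qExpand ℂ (1 * q) (jqModC ℂ) := by
  have h1 : S34ME_e q i (S34ME_jb q) =
      S37K1_embOpt 1 q 1 ((q : ℤ) - 1) (S34ME_hxy q) i (S34ME_inc q (S34ME_jb q)) := rfl
  rw [h1, S34ME_inc_jb', S37K1_embOpt_alpha, S37K1_Theta_apply]
  have h2 : ((jElt 1 : modularFunctionFieldBar 1) : LaurentSeries Kbar) = jLaur 1 := rfl
  rw [h2, Fermat.Agent.S24_helper24_JD.coeffMap_phi0_jLaur, qExpand_one_apply]

theorem S34ME_e_tb_none :
    S34ME_e q none (S34ME_tb q) = qExpand ℂ (q * q) (jqModC ℂ) := by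
  rw [S34ME_e_none, S34ME_tb_coe, coeffMap_qExpand, coeffMap_jqModC, qExpand_qExpand]
  exact qExpand_congr (by ring) _

theorem S34ME_e_tb_some (b : Fin q) :
    S34ME_e q (some b) (S34ME_tb q) =
      lsScale (S37K1_zeta q ^ (((b : ℕ) : ℤ))) (jqModC ℂ) := by
  have h1 : S34ME_e q (some b) (S34ME_tb q) =
      S37K1_embOpt 1 q 1 ((q : ℤ) - 1) (S34ME_hxy q) (some b) (S34ME_inc q (S34ME_tb q)) := rfl
  rw [h1, S34ME_inc_tb', S37K1_embOpt_beta_some, S37K1_Sub_apply]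
  have h2 : ((jElt 1 : modularFunctionFieldBar 1) : LaurentSeries Kbar) = jLaur 1 := rfl
  rw [h2, Fermat.Agent.S24_helper24_JD.coeffMap_phi0_jLaur, qExpand_one_apply, qExpand_one_apply]

theorem S34ME_finrank (hq : q.Prime) :
    Module.finrank ℚ⟮S34ME_jb q⟯ (S34ME_F q) = q + 1 := by
  have h := S18DEG_finrank (algebraMap ℚ Kbar) (1 * q)
  have h2 : mu (1 * q) = q + 1 := by
    rw [Fermat.Agent.S20_helper29_A1.A1 (1 * q), mul_comm 1 q,
      Fermat.Agent.S20_helper29_A1.psi_mul_of_not_dvd q 1 hq one_ne_zero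
        (Nat.Prime.not_dvd_one hq), dedekindPsi_one, one_mul]
  rw [← h2]
  exact h

theorem S34ME_e_agree (i : Option (Fin q)) (a : ℚ⟮S34ME_jb q⟯) :
    S34ME_e q i (algebraMap ℚ⟮S34ME_jb q⟯ (S34ME_F q) a) =
      ((S34ME_e q none).comp (algebraMap ℚ⟮S34ME_jb q⟯ (S34ME_F q))) a :=
  S34ME_agree_adjoin (S34ME_e q i) (S34ME_e q none) (S34ME_jb q)
    (by rw [S34ME_e_jb, S34ME_e_jb]) _ a.2

theorem S34ME_e_tb_injective (hq : q.Prime) :
    Function.Injective (fun i => S34ME_e q i (S34ME_tb q)) := by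
  have hq0 : 0 < q := hq.pos
  have hq2 : 2 ≤ q := hq.two_le
  have hnone : (S34ME_e q none (S34ME_tb q)).coeff (-((1 : ℕ) : ℤ)) = 0 := by
    rw [S34ME_e_tb_none]
    apply qExpand_coeff_of_not_dvd
    rintro ⟨k, hk⟩
    have h1 : ((q * q : ℕ) : ℤ) ∣ 1 := ⟨-k, by push_cast at hk ⊢; linarith⟩
    have h3 : q * q ∣ 1 := by exact_mod_cast h1
    have := Nat.le_of_dvd one_pos h3
    nlinarith
  have hsome : ∀ b : Fin q, (S34ME_e q (some b) (S34ME_tb q)).coeff (-((1 : ℕ) : ℤ)) =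
      (((S37K1_zeta q ^ (((b : ℕ) : ℤ)))⁻¹ : ℂˣ) : ℂ) := by
    intro b
    rw [S34ME_e_tb_some]
    refine (S34ME_Bdd_lsScale q hq0 _ ?_).2
    rw [zpow_natCast, ← pow_mul, mul_comm, pow_mul, (S37K1_zeta_isPrimitiveRoot q).pow_eq_one,
      one_pow]
  intro i j hij
  have hij' : (S34ME_e q i (S34ME_tb q)).coeff (-((1 : ℕ) : ℤ)) =
      (S34ME_e q j (S34ME_tb q)).coeff (-((1 : ℕ) : ℤ)) := by
    have := congrArg (fun z : LaurentSeries ℂ => z.coeff (-((1 : ℕ) : ℤ))) hij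
    exact this
  cases i with
  | none =>
    cases j with
    | none => rfl
    | some b =>
      rw [hnone, hsome] at hij'
      exact absurd hij'.symm (Units.ne_zero _)
  | some b =>
    cases j with
    | none =>
      rw [hnone, hsome] at hij'
      exact absurd hij' (Units.ne_zero _)
    | some b' =>
      rw [hsome, hsome] at hij'
      have h3 : (S37K1_zeta q ^ (((b : ℕ) : ℤ)))⁻¹ = (S37K1_zeta q ^ (((b' : ℕ) : ℤ)))⁻¹ :=
        Units.ext hij'
      rw [inv_inj, zpow_natCast, zpow_natCast] at h3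
      have := (S37K1_zeta_isPrimitiveRoot q).pow_inj b.2 b'.2 h3
      rw [Fin.ext this]

/-- the minimal polynomial of `j(q^q)` over `ℚ(j)` -/
def S34ME_m : Polynomial ℚ⟮S34ME_jb q⟯ := minpoly ℚ⟮S34ME_jb q⟯ (S34ME_tb q)

/-- the `k`-th coefficient of the minimal polynomial, as an element of `F` -/
def S34ME_c (k : ℕ) : S34ME_F q :=
  algebraMap ℚ⟮S34ME_jb q⟯ (S34ME_F q) ((S34ME_m q).coeff k)

/-- the series of the `k`-th coefficient -/
def S34ME_beta (k : ℕ) : LaurentSeries ℚ := ((S34ME_c q k : S34ME_F q) : LaurentSeries ℚ)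

theorem S34ME_inf (hq : q.Prime) :
    (S34ME_m q).natDegree = q + 1 ∧
    (∀ k : ℕ, k ≤ q → S34ME_Bdd (q * q + (q - k))
      (qExpand ℂ (1 * q) (coeffMap (algebraMap ℚ ℂ) (S34ME_beta q k)))) ∧
    (qExpand ℂ (1 * q) (coeffMap (algebraMap ℚ ℂ) (S34ME_beta q 0))).coeff
      (-((q * q + q : ℕ) : ℤ)) = 1 := by
  classical
  have hq0 : 0 < q := hq.pos
  haveI := S18P15_finiteDimensional ℚ (1 * q)
  have hcard : Module.finrank ℚ⟮S34ME_jb q⟯ (S34ME_F q) ≤ Fintype.card (Option (Fin q)) := by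
    rw [S34ME_finrank q hq, Fintype.card_option, Fintype.card_fin]
  obtain ⟨hprod, hdeg⟩ := S34ME_split (S34ME_tb q)
    ((S34ME_e q none).comp (algebraMap ℚ⟮S34ME_jb q⟯ (S34ME_F q))) (S34ME_e q)
    (S34ME_e_agree q) (S34ME_e_tb_injective q hq) hcard
  rw [Fintype.card_option, Fintype.card_fin] at hdeg
  refine ⟨hdeg, ?_⟩
  obtain ⟨ζ, hζdef⟩ : ∃ ζ : ℂ, ζ = (((S37K1_zeta q)⁻¹ : ℂˣ) : ℂ) := ⟨_, rfl⟩
  have hζ : IsPrimitiveRoot ζ q := by
    rw [hζdef, IsPrimitiveRoot.coe_units_iff]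
    exact (S37K1_zeta_isPrimitiveRoot q).inv
  have hzpow : ∀ b : Fin q, (S37K1_zeta q ^ (((b : ℕ) : ℤ))) ^ q = 1 := by
    intro b
    rw [zpow_natCast, ← pow_mul, mul_comm, pow_mul, (S37K1_zeta_isPrimitiveRoot q).pow_eq_one,
      one_pow]
  have h0 := S34ME_Bdd_qExpand (q * q)
  have h1 : S34ME_Bdd (q * q) (S34ME_e q none (S34ME_tb q)) := by
    rw [S34ME_e_tb_none]; exact h0.1
  have h1' : (S34ME_e q none (S34ME_tb q)).coeff (-((q * q : ℕ) : ℤ)) = 1 := by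
    rw [S34ME_e_tb_none]; exact h0.2
  have h2 : ∀ b : Fin q, S34ME_Bdd 1 (S34ME_e q (some b) (S34ME_tb q)) := by
    intro b
    rw [S34ME_e_tb_some]; exact (S34ME_Bdd_lsScale q hq0 _ (hzpow b)).1
  have h2' : ∀ b : Fin q,
      (S34ME_e q (some b) (S34ME_tb q)).coeff (-((1 : ℕ) : ℤ)) = ζ ^ (b : ℕ) := by
    intro b
    rw [S34ME_e_tb_some, (S34ME_Bdd_lsScale q hq0 _ (hzpow b)).2, hζdef, zpow_natCast,
      ← inv_pow, Units.val_pow_eq_pow_val]
  have hmain := S34ME_inf_main q hq0 ζ hζ (fun i => S34ME_e q i (S34ME_tb q)) h1 h1' h2 h2'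
  have hcoef : ∀ k : ℕ, (∏ i, (X - C (S34ME_e q i (S34ME_tb q)))).coeff k =
      qExpand ℂ (1 * q) (coeffMap (algebraMap ℚ ℂ) (S34ME_beta q k)) := by
    intro k
    rw [← hprod, coeff_map, RingHom.comp_apply, S34ME_e_none]
    rfl
  refine ⟨fun k hk => ?_, ?_⟩
  · rw [← hcoef k]
    exact hmain.1 k hk
  · rw [← hcoef 0]
    exact hmain.2

theorem S34ME_beta_coeff (hq : q.Prime) (k : ℕ) (hk : k ≤ q) (n : ℤ) :
    (∃ c : ℤ, (S34ME_beta q k).coeff n = c) ∧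
    ((q : ℤ) * n < -((q * q + (q - k) : ℕ) : ℤ) → (S34ME_beta q k).coeff n = 0) := by
  have hB := (S34ME_inf q hq).2.1 k hk (((1 * q : ℕ) : ℤ) * n)
  rw [qExpand_coeff_mul, coeffMap_coeff] at hB
  constructor
  · have h1 : (((S34ME_beta q k).coeff n : ℚ) : ℂ) ∈ S34ME_Zc := by
      rw [← eq_ratCast (algebraMap ℚ ℂ)]
      exact hB.1
    exact S34ME_rat_of_mem_Zc _ h1
  · intro hn
    have h2 := hB.2 (by push_cast at hn ⊢; linarith)
    exact (algebraMap ℚ ℂ).injective (by rw [h2, map_zero])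

theorem S34ME_beta_vanish (hq : q.Prime) (k : ℕ) (hk1 : 1 ≤ k) (hk : k ≤ q) (n : ℤ)
    (hn : n < -((q : ℕ) : ℤ)) : (S34ME_beta q k).coeff n = 0 := by
  apply (S34ME_beta_coeff q hq k hk n).2
  have hq0 : (0 : ℤ) < (q : ℤ) := by exact_mod_cast hq.pos
  have h1 : (q : ℤ) * n ≤ (q : ℤ) * (-(q : ℤ) - 1) :=
    mul_le_mul_of_nonneg_left (by linarith) hq0.le
  have h2 : ((q * q + (q - k) : ℕ) : ℤ) = (q : ℤ) * q + ((q : ℤ) - k) := by
    push_cast [Nat.cast_sub hk]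
    ring
  have hk1' : (1 : ℤ) ≤ (k : ℤ) := by exact_mod_cast hk1
  rw [h2]
  nlinarith

theorem S34ME_beta_zero_vanish (hq : q.Prime) (n : ℤ)
    (hn : n < -((q + 1 : ℕ) : ℤ)) : (S34ME_beta q 0).coeff n = 0 := by
  apply (S34ME_beta_coeff q hq 0 (Nat.zero_le q) n).2
  have hq0 : (0 : ℤ) < (q : ℤ) := by exact_mod_cast hq.pos
  have h1 : (q : ℤ) * n ≤ (q : ℤ) * (-(q : ℤ) - 2) :=
    mul_le_mul_of_nonneg_left (by push_cast at hn; linarith) hq0.le
  have h2 : ((q * q + (q - 0) : ℕ) : ℤ) = (q : ℤ) * q + (q : ℤ) := by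
    rw [Nat.sub_zero]
    push_cast
    ring
  rw [h2]
  nlinarith

theorem S34ME_beta_zero_lead (hq : q.Prime) :
    (S34ME_beta q 0).coeff (-((q + 1 : ℕ) : ℤ)) = 1 := by
  have h := (S34ME_inf q hq).2.2
  have h1 : (-((q * q + q : ℕ) : ℤ)) = ((1 * q : ℕ) : ℤ) * (-((q + 1 : ℕ) : ℤ)) := by
    push_cast
    ring
  rw [h1, qExpand_coeff_mul, coeffMap_coeff] at h
  exact (algebraMap ℚ ℂ).injective (by rw [h, map_one])

/-! ### the finite points -/

theorem S34ME_fin (hq : q.Prime) (k : ℕ) (c : ℂ) :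
    ∃ ι : S34ME_F q →+* LaurentSeries ℂ,
      (∀ a : ℚ, ι (algebraMap ℚ (S34ME_F q) a) = HahnSeries.C (a : ℂ)) ∧
      (∃ τ : PowerSeries ℂ, ι (S34ME_jb q) = HahnSeries.ofPowerSeries ℤ ℂ τ ∧
        PowerSeries.constantCoeff τ = c) ∧
      (∃ β : PowerSeries ℂ, ι (S34ME_c q k) = HahnSeries.ofPowerSeries ℤ ℂ β) := by
  classical
  obtain ⟨z₀, hz₀⟩ := Fermat.Agent.S24_helper10_J.jfun_surjective c
  obtain ⟨f, hf⟩ : ∃ f : Q (1 * q) → S34ME_F q →+* LaurentSeries ℂ,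
      f = fun i => (iotaFin (1 * q) z₀ i).comp (S34ME_inc q) := ⟨_, rfl⟩
  have hjb : ∀ i, f i (S34ME_jb q) = laurentAt z₀ jfun := by
    intro i
    rw [hf]
    show iotaFin (1 * q) z₀ i (S34ME_inc q (S34ME_jb q)) = _
    rw [S34ME_inc_jb, iotaFin_jElt]
  have htb : ∀ i, f i (S34ME_tb q) = laurentAt z₀ (jd (1 * q) (i.out⁻¹)) := by
    intro i
    rw [hf]
    show iotaFin (1 * q) z₀ i (S34ME_inc q (S34ME_tb q)) = _
    rw [S34ME_inc_tb, iotaFin_jF]
  have hinj : Function.Injective (fun i => f i (S34ME_tb q)) := by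
    intro i i' h
    have h' : f i (S34ME_tb q) = f i' (S34ME_tb q) := h
    rw [hf] at h'
    have h'' : iotaFin (1 * q) z₀ i (S34ME_inc q (S34ME_tb q)) =
        iotaFin (1 * q) z₀ i' (S34ME_inc q (S34ME_tb q)) := h'
    rw [S34ME_inc_tb] at h''
    apply iotaFin_injective (1 * q) z₀
    refine Fermat.Agent.S24_helper23_GEN.ringHom_ext_FN (1 * q) _ _
      (fun a => by rw [iotaFin_const, iotaFin_const]) ?_
    intro d _ hd
    have hd' : d ∣ q := by rwa [one_mul] at hd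
    rcases (Nat.dvd_prime hq).1 hd' with h1 | h1
    · subst h1
      have : jF (1 * q) 1 hd = jElt (1 * q) := rfl
      rw [this, iotaFin_jElt, iotaFin_jElt]
    · obtain rfl : d = 1 * q := by rw [h1, one_mul]
      exact h''
  haveI := S18P15_finiteDimensional ℚ (1 * q)
  have hcard : Module.finrank ℚ⟮S34ME_jb q⟯ (S34ME_F q) ≤ Fintype.card (Q (1 * q)) :=
    (S18DEG_finrank_card (algebraMap ℚ Kbar) (1 * q)).le
  obtain ⟨i₀⟩ : Nonempty (Q (1 * q)) := ⟨QuotientGroup.mk 1⟩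
  have he : ∀ i (a : ℚ⟮S34ME_jb q⟯), f i (algebraMap ℚ⟮S34ME_jb q⟯ (S34ME_F q) a) =
      ((f i₀).comp (algebraMap ℚ⟮S34ME_jb q⟯ (S34ME_F q))) a := fun i a =>
    S34ME_agree_adjoin (f i) (f i₀) (S34ME_jb q) (by rw [hjb, hjb]) _ a.2
  obtain ⟨hprod, -⟩ := S34ME_split (S34ME_tb q)
    ((f i₀).comp (algebraMap ℚ⟮S34ME_jb q⟯ (S34ME_F q))) f he hinj hcard
  refine ⟨f i₀, ?_, ⟨taylorAt z₀ jfun, ?_, ?_⟩, ?_⟩
  · intro a
    rw [hf]
    show iotaFin (1 * q) z₀ i₀ (S34ME_inc q (algebraMap ℚ (S34ME_F q) a)) = _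
    have h1 : S34ME_inc q (algebraMap ℚ (S34ME_F q) a) =
        algebraMap Kbar (modularFunctionFieldBar (1 * q)) (algebraMap ℚ Kbar a) :=
      S18DEG_inc_algebraMap (algebraMap ℚ Kbar) (1 * q) a
    rw [h1, iotaFin_const]
    congr 1
    exact eq_ratCast (phi0.comp (algebraMap ℚ Kbar)) a
  · rw [hjb]
    rfl
  · rw [Fermat.Agent.S24_helper26_TAY.taylorAt_constantCoeff]
    exact hz₀
  · have hmem : (∏ i, (X - C (f i (S34ME_tb q)))).coeff k ∈
        (HahnSeries.ofPowerSeries ℤ ℂ).range :=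
      S34ME_prod_coeff_mem _ Finset.univ (fun i => f i (S34ME_tb q))
        (fun i _ => by rw [htb]; exact ⟨_, rfl⟩) k
    rw [← hprod, coeff_map] at hmem
    obtain ⟨β, hβ⟩ := hmem
    exact ⟨β, hβ.symm⟩

theorem S34ME_poly (hq : q.Prime) (k : ℕ) :
    ∃ P : Polynomial ℚ, aeval (S34ME_jb q) P = S34ME_c q k :=
  S34ME_exists_poly_of_regular (S34ME_jb q) (S34ME_c q k)
    (S18P15_transcendental_jbar ℚ (1 * q)) ((S34ME_m q).coeff k).2
    (S34ME_fin q hq k)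

end Level

end

end Fermat.Agent.S34_helper8_MODEQ
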