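import Mathlib
import Fermat.Agent.S34_helper8_MODEQd
import Fermat.Agent.S34_helper20_WQ

/-!
# S34, piece X-V1-MODEQ (part e): the modular equation in the function field

Level `1 * q`, constants `ℚ`, `F = ℚ(j, j(q^q)) ⊆ ℚ((q))`:

* `S34ME_intPoly`: the coefficients of the minimal polynomial of `j(q^q)` over `ℚ(j)` are
  integer polynomials in `j`, with degree bounds;
* `S34ME_relF`, `S34ME_relF'`: the relation and the swapped relation (Atkin-Lehner).
-/

set_option autoImplicit false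
set_option linter.unusedSectionVars false
set_option linter.unusedVariables false
set_option linter.style.haveILetI false

open Polynomial IntermediateField ModularCurve
open Fermat.Agent.S20 Fermat.Agent.S24
open Fermat.Agent.S18_helper26_CONST Fermat.Agent.S18_helper26_DEGK1

namespace Fermat.Agent.S34_helper8_MODEQ

noncomputable section

/- the `ℚ`-algebra structure of the function field is the one of an intermediate field (as in
the statements over a general constant field) -/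
attribute [local instance 100000] SubalgebraClass.toAlgebra

/-- a ring homomorphism commutes with the evaluation of integer polynomials -/
theorem S34ME_map_eval₂ {R S : Type*} [CommRing R] [CommRing S] (φ : R →+* S) (x : R)
    (p : Polynomial ℤ) :
    φ (Polynomial.eval₂ (Int.castRingHom R) x p) =
      Polynomial.eval₂ (Int.castRingHom S) (φ x) p := by
  rw [Polynomial.hom_eval₂]
  congr 1
  exact RingHom.ext_int _ _

theorem S34ME_aeval_map_int {S : Type*} [CommRing S] [Algebra ℚ S] (x : S) (p : Polynomial ℤ) :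
    aeval x (p.map (Int.castRingHom ℚ)) = Polynomial.eval₂ (Int.castRingHom S) x p := by
  rw [Polynomial.aeval_def, Polynomial.eval₂_map]
  congr 1
  exact RingHom.ext_int _ _

section Level

variable (q : ℕ) [NeZero q]

theorem S34ME_coe_eval₂ (x : S34ME_F q) (p : Polynomial ℤ) :
    ((Polynomial.eval₂ (Int.castRingHom (S34ME_F q)) x p : S34ME_F q) : LaurentSeries ℚ) =
      Polynomial.eval₂ (Int.castRingHom (LaurentSeries ℚ)) (x : LaurentSeries ℚ) p :=
  S34ME_map_eval₂ (S34ME_F q).val.toRingHom x p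

theorem S34ME_poly_series (hq : q.Prime) (k : ℕ) :
    ∃ P : Polynomial ℚ, aeval (jqModC ℚ) P = S34ME_beta q k := by
  obtain ⟨P, hP⟩ := S34ME_poly q hq k
  refine ⟨P, ?_⟩
  have h1 := Polynomial.aeval_algHom_apply (S34ME_F q).val (S34ME_jb q) P
  rw [hP] at h1
  exact h1

theorem S34ME_intPoly (hq : q.Prime) (k : ℕ) (hk : k ≤ q) :
    ∃ a : Polynomial ℤ, a.natDegree ≤ (if k = 0 then q + 1 else q) ∧
      (k = 0 → a.coeff (q + 1) = 1) ∧
      Polynomial.eval₂ (Int.castRingHom (S34ME_F q)) (S34ME_jb q) a = S34ME_c q k := by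
  obtain ⟨P, hP⟩ := S34ME_poly_series q hq k
  have hint : ∀ m : ℤ, ∃ c : ℤ, (S34ME_beta q k).coeff m = c :=
    fun m => (S34ME_beta_coeff q hq k hk m).1
  have hback : ∀ a : Polynomial ℤ,
      aeval (jqModC ℚ) (a.map (Int.castRingHom ℚ)) = S34ME_beta q k →
      Polynomial.eval₂ (Int.castRingHom (S34ME_F q)) (S34ME_jb q) a = S34ME_c q k := by
    intro a ha
    apply Subtype.ext
    rw [S34ME_coe_eval₂, ← S34ME_aeval_map_int]
    exact ha
  by_cases hk0 : k = 0
  · subst hk0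
    obtain ⟨a, ha1, ha2, ha3⟩ := S34ME_exists_int_poly (S34ME_beta q 0) P hP hint (q + 1)
      (S34ME_beta_zero_vanish q hq)
    refine ⟨a, by rw [if_pos rfl]; exact ha1, fun _ => ?_, hback a ha2⟩
    rw [S34ME_beta_zero_lead q hq] at ha3
    exact_mod_cast ha3
  · obtain ⟨a, ha1, ha2, -⟩ := S34ME_exists_int_poly (S34ME_beta q k) P hP hint q
      (S34ME_beta_vanish q hq k (Nat.pos_of_ne_zero hk0) hk)
    exact ⟨a, by rw [if_neg hk0]; exact ha1, fun h => absurd h hk0, hback a ha2⟩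

theorem S34ME_relF (hq : q.Prime) :
    (S34ME_tb q) ^ (q + 1) +
      ∑ i ∈ Finset.range (q + 1), S34ME_c q i * (S34ME_tb q) ^ i = 0 := by
  have hdeg := (S34ME_inf q hq).1
  haveI := S18P15_finiteDimensional ℚ (1 * q)
  have hint : IsIntegral ℚ⟮S34ME_jb q⟯ (S34ME_tb q) := IsIntegral.of_finite _ _
  have hmonic : (S34ME_m q).Monic := minpoly.monic hint
  have h0 : aeval (S34ME_tb q) (S34ME_m q) = 0 := minpoly.aeval _ _
  have hsum := hmonic.as_sum
  rw [hdeg] at hsum
  rw [Polynomial.aeval_def, hsum, eval₂_add, eval₂_pow, eval₂_X, eval₂_finsetSum] at h0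
  have h1 : ∀ i : ℕ, eval₂ (algebraMap ℚ⟮S34ME_jb q⟯ (S34ME_F q)) (S34ME_tb q)
      (C ((S34ME_m q).coeff i) * X ^ i) = S34ME_c q i * (S34ME_tb q) ^ i := by
    intro i
    rw [eval₂_mul, eval₂_C, eval₂_pow, eval₂_X]
    rfl
  rw [Finset.sum_congr rfl (fun i _ => h1 i)] at h0
  exact h0

/-- **The modular equation in the function field**, with integer coefficients. -/
theorem S34ME_core_F (hq : q.Prime) :
    ∃ a : ℕ → Polynomial ℤ, (∀ i, 1 ≤ i → i ≤ q → (a i).natDegree ≤ q) ∧ (a 0).Monic ∧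
      (a 0).natDegree = q + 1 ∧
      (S34ME_tb q) ^ (q + 1) + ∑ i ∈ Finset.range (q + 1),
        Polynomial.eval₂ (Int.castRingHom (S34ME_F q)) (S34ME_jb q) (a i) *
          (S34ME_tb q) ^ i = 0 := by
  classical
  have hex : ∀ k : ℕ, ∃ a : Polynomial ℤ, k ≤ q →
      (a.natDegree ≤ (if k = 0 then q + 1 else q) ∧ (k = 0 → a.coeff (q + 1) = 1) ∧
        Polynomial.eval₂ (Int.castRingHom (S34ME_F q)) (S34ME_jb q) a = S34ME_c q k) := by
    intro k
    by_cases hk : k ≤ q
    · obtain ⟨a, ha⟩ := S34ME_intPoly q hq k hk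
      exact ⟨a, fun _ => ha⟩
    · exact ⟨0, fun h => absurd h hk⟩
  choose a ha using hex
  have h1 := (ha 0 (Nat.zero_le q)).1
  rw [if_pos rfl] at h1
  have h2 := (ha 0 (Nat.zero_le q)).2.1 rfl
  have hnd : (a 0).natDegree = q + 1 :=
    le_antisymm h1 (le_natDegree_of_ne_zero (by rw [h2]; exact one_ne_zero))
  refine ⟨a, ?_, ?_, hnd, ?_⟩
  · intro i hi1 hiq
    have := (ha i hiq).1
    rwa [if_neg (by omega)] at this
  · show (a 0).leadingCoeff = 1
    rw [leadingCoeff, hnd, h2]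
  · have h := S34ME_relF q hq
    rw [Finset.sum_congr rfl (fun i hi => by
      rw [(ha i (by rw [Finset.mem_range] at hi; omega)).2.2] :
      ∀ i ∈ Finset.range (q + 1),
        Polynomial.eval₂ (Int.castRingHom (S34ME_F q)) (S34ME_jb q) (a i) * (S34ME_tb q) ^ i =
          S34ME_c q i * (S34ME_tb q) ^ i)]
    exact h

/-- the Atkin-Lehner involution exchanges `j` and `j(q^q)` -/
theorem S34ME_swap (hq : q.Prime) :
    ∃ w : S34ME_F q →+* S34ME_F q,
      w (S34ME_jb q) = S34ME_tb q ∧ w (S34ME_tb q) = S34ME_jb q := by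
  obtain ⟨w, -, -, hold, hnew, -⟩ := Fermat.Agent.S34_helper20_WQ.S34WQ_exists (K1 := ℚ)
    (algebraMap ℚ Kbar) q 1 (1 * q) hq (Nat.Prime.not_dvd_one hq) (by ring)
  have hm : qExpand ℚ 1 (jqModC ℚ) ∈ modularFunctionFieldFullC ℚ (1 * q) := by
    rw [qExpand_one_apply]
    exact (S34ME_jb q).2
  have hm' : qExpand ℚ (q * 1) (jqModC ℚ) ∈ modularFunctionFieldFullC ℚ (1 * q) := by
    rw [qExpand_congr (show q * 1 = 1 * q by ring)]
    exact (S34ME_tb q).2
  have hjb : S34ME_jb q = ⟨qExpand ℚ 1 (jqModC ℚ), hm⟩ :=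
    Subtype.ext (qExpand_one_apply _).symm
  have htb : S34ME_tb q = ⟨qExpand ℚ (q * 1) (jqModC ℚ), hm'⟩ :=
    Subtype.ext (qExpand_congr (show 1 * q = q * 1 by ring) _)
  refine ⟨(w : S34ME_F q →+* S34ME_F q), ?_, ?_⟩
  · apply Subtype.ext
    show ((w (S34ME_jb q) : S34ME_F q) : LaurentSeries ℚ) = _
    rw [hjb, hold 1 (one_dvd 1) hm]
    exact qExpand_congr (show q * 1 = 1 * q by ring) _
  · apply Subtype.ext
    show ((w (S34ME_tb q) : S34ME_F q) : LaurentSeries ℚ) = _
    rw [htb, hnew 1 (one_dvd 1) hm']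
    exact qExpand_one_apply _

theorem S34ME_rel_coe (a : ℕ → Polynomial ℤ) (x y : S34ME_F q)
    (h : x ^ (q + 1) + ∑ i ∈ Finset.range (q + 1),
      Polynomial.eval₂ (Int.castRingHom (S34ME_F q)) y (a i) * x ^ i = 0) :
    (x : LaurentSeries ℚ) ^ (q + 1) + ∑ i ∈ Finset.range (q + 1),
      Polynomial.eval₂ (Int.castRingHom (LaurentSeries ℚ)) (y : LaurentSeries ℚ) (a i) *
        (x : LaurentSeries ℚ) ^ i = 0 := by
  have h2 := congrArg (S34ME_F q).val.toRingHom h
  simp only [map_add, map_pow, map_sum, map_mul, map_zero, S34ME_map_eval₂] at h2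
  exact h2

theorem S34ME_rel_int (a : ℕ → Polynomial ℤ) (x y : LaurentSeries ℤ)
    (h : (coeffMap (Int.castRingHom ℚ) x) ^ (q + 1) + ∑ i ∈ Finset.range (q + 1),
      Polynomial.eval₂ (Int.castRingHom (LaurentSeries ℚ)) (coeffMap (Int.castRingHom ℚ) y)
        (a i) * (coeffMap (Int.castRingHom ℚ) x) ^ i = 0) :
    x ^ (q + 1) + ∑ i ∈ Finset.range (q + 1),
      Polynomial.eval₂ (Int.castRingHom (LaurentSeries ℤ)) y (a i) * x ^ i = 0 := by
  apply S18P15_coeffMap_injective (Int.castRingHom ℚ) Int.cast_injective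
  simp only [map_add, map_pow, map_sum, map_mul, map_zero, S34ME_map_eval₂]
  exact h

/-- **The modular equation of prime level `q`** over `ℤ`: `θ = j(q^q)` and `j` satisfy the same
monic relation of degree `q + 1` in each other, with degree bounds. -/
theorem S34ME_core (hq : q.Prime) :
    ∃ a : ℕ → Polynomial ℤ, (∀ i, 1 ≤ i → i ≤ q → (a i).natDegree ≤ q) ∧ (a 0).Monic ∧
      (a 0).natDegree = q + 1 ∧
      (qExpand ℤ q (jqModC ℤ)) ^ (q + 1) + ∑ i ∈ Finset.range (q + 1),
        Polynomial.eval₂ (Int.castRingHom (LaurentSeries ℤ)) (jqModC ℤ) (a i) *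
          (qExpand ℤ q (jqModC ℤ)) ^ i = 0 ∧
      (jqModC ℤ) ^ (q + 1) + ∑ i ∈ Finset.range (q + 1),
        Polynomial.eval₂ (Int.castRingHom (LaurentSeries ℤ)) (qExpand ℤ q (jqModC ℤ)) (a i) *
          (jqModC ℤ) ^ i = 0 := by
  obtain ⟨a, h1, h2, h3, hF1⟩ := S34ME_core_F q hq
  obtain ⟨w, hwj, hwt⟩ := S34ME_swap q hq
  have hF2 : (S34ME_jb q) ^ (q + 1) + ∑ i ∈ Finset.range (q + 1),
      Polynomial.eval₂ (Int.castRingHom (S34ME_F q)) (S34ME_tb q) (a i) *
        (S34ME_jb q) ^ i = 0 := by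
    have h := congrArg w hF1
    simp only [map_add, map_pow, map_sum, map_mul, map_zero, S34ME_map_eval₂, hwj, hwt] at h
    exact h
  have hS1 := S34ME_rel_coe q a _ _ hF1
  have hS2 := S34ME_rel_coe q a _ _ hF2
  rw [S34ME_tb_coe, S34ME_jb_coe, qExpand_congr (one_mul q) (jqModC ℚ)] at hS1 hS2
  refine ⟨a, h1, h2, h3, S34ME_rel_int q a _ _ ?_, S34ME_rel_int q a _ _ ?_⟩
  · rw [coeffMap_qExpand, coeffMap_jqModC]
    exact hS1
  · rw [coeffMap_qExpand, coeffMap_jqModC]
    exact hS2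

end Level

end

end Fermat.Agent.S34_helper8_MODEQ
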