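import Mathlib
import Fermat.Agent.S34_helper8_MODEQe
import Fermat.Agent.S34_helper14_MEW

/-!
# S34, piece X-V1-MODEQ: the modular equation of prime level `q` with integer coefficients

For a prime `q`, `j = j(q)` and `θ = j(q^q)` (as formal Laurent series in `q`) satisfy

  `θ^(q+1) + ∑_{i ≤ q} a_i(j) θ^i = 0`  and  `j^(q+1) + ∑_{i ≤ q} a_i(θ) j^i = 0`

with `a_i ∈ ℤ[X]`, `deg a_i ≤ q` for `1 ≤ i ≤ q`, and `a_0` monic of degree `q + 1`.

* `S34ME_hyp`       : helper14's `S34MEW_Hyp q` (hypothesis of all the `S34MEW_*` wrappers);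
* `S34ME_exists`    : the same with `aeval`;
* `S34ME_rel`       : over any coefficient ring;
* `S34ME_cuspRel`, `S34ME_cuspRelSum` : helper18's `S34CUSP_Rel` / `S34CUSP_RelSum` for `(j, θ)`
  and `(θ, j)`, over any subring `O` of `K1((q))`;
* `S34ME_isIntegral`, `S34ME_isIntegral'` : `θ` is integral over `O[j]`, `j` is integral over
  `O[θ]`.

Proof (parts a-e): the minimal polynomial of `θ` over `ℚ(j)` in `F = ℚ(j, θ) ⊆ ℚ((q))` has degree
`q + 1 = [F : ℚ(j)]`; its image under the `q + 1` embeddings at infinity is `∏ (X - θ_i)` with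
`θ_∞ = j(s^(q²))`, `θ_b = j(ζ^b s)` (variable `s = q^(1/q)`), which gives integrality of the
`q`-expansion coefficients and the pole orders; at every finite point the conjugates are power
series, so the coefficients are polynomials in `j`; the swapped relation is the image under the
Atkin-Lehner involution (helper20's `S34WQ_exists`).
-/

set_option autoImplicit false
set_option linter.unusedSectionVars false
set_option linter.unusedVariables false

open ModularCurve Polynomial
open Fermat.Agent.S18_helper9_CDefs Fermat.Agent.S34_helper18_CUSP Fermat.Agent.S34_helper14_MEW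

namespace Fermat.Agent.S34_helper8_MODEQ

/-- **The modular equation** in helper14's form `S34MEW_Hyp`. -/
theorem S34ME_hyp (q : ℕ) [NeZero q] (hq : q.Prime) : S34MEW_Hyp q :=
  S34ME_core q hq

/-- **The modular equation over `ℤ`** (`aeval` form). -/
theorem S34ME_exists (q : ℕ) [NeZero q] (hq : q.Prime) :
    ∃ a : ℕ → Polynomial ℤ, (∀ i, 1 ≤ i → i ≤ q → (a i).natDegree ≤ q) ∧ (a 0).Monic ∧
      (a 0).natDegree = q + 1 ∧
      (qExpand ℤ q (jqModC ℤ)) ^ (q + 1) + ∑ i ∈ Finset.range (q + 1),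
        aeval (jqModC ℤ) (a i) * (qExpand ℤ q (jqModC ℤ)) ^ i = 0 ∧
      (jqModC ℤ) ^ (q + 1) + ∑ i ∈ Finset.range (q + 1),
        aeval (qExpand ℤ q (jqModC ℤ)) (a i) * (jqModC ℤ) ^ i = 0 := by
  obtain ⟨a, h1, h2, h3, h4, h5⟩ := S34ME_core q hq
  refine ⟨a, h1, h2, h3, ?_, ?_⟩
  · simpa only [S34MEW_aeval_eq] using h4
  · simpa only [S34MEW_aeval_eq] using h5

/-- **The modular equation over any coefficient ring.** -/
theorem S34ME_rel (K : Type*) [CommRing K] (q : ℕ) [NeZero q] (hq : q.Prime) :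
    ∃ a : ℕ → Polynomial ℤ, (∀ i, 1 ≤ i → i ≤ q → (a i).natDegree ≤ q) ∧ (a 0).Monic ∧
      (a 0).natDegree = q + 1 ∧
      (qExpand K q (jqModC K)) ^ (q + 1) + ∑ i ∈ Finset.range (q + 1),
        Polynomial.eval₂ (Int.castRingHom (LaurentSeries K)) (jqModC K) (a i) *
          (qExpand K q (jqModC K)) ^ i = 0 ∧
      (jqModC K) ^ (q + 1) + ∑ i ∈ Finset.range (q + 1),
        Polynomial.eval₂ (Int.castRingHom (LaurentSeries K)) (qExpand K q (jqModC K)) (a i) *
          (jqModC K) ^ i = 0 :=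
  S34MEW_rel_int q (S34ME_hyp q hq)

section Field

variable {K1 : Type*} [Field K1] (O : Subring (LaurentSeries K1)) (q : ℕ) [NeZero q]

/-- helper18's `S34CUSP_RelSum` for `(j, θ)` and for `(θ, j)`. -/
theorem S34ME_cuspRelSum (hq : q.Prime) :
    S34CUSP_RelSum O (jqModC K1) (qExpand K1 q (jqModC K1)) q ∧
      S34CUSP_RelSum O (qExpand K1 q (jqModC K1)) (jqModC K1) q :=
  S34MEW_relSum O q (S34ME_hyp q hq)

/-- helper18's `S34CUSP_Rel` for `(j, θ)` and for `(θ, j)`. -/
theorem S34ME_cuspRel (hq : q.Prime) :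
    S34CUSP_Rel O (jqModC K1) (qExpand K1 q (jqModC K1)) q ∧
      S34CUSP_Rel O (qExpand K1 q (jqModC K1)) (jqModC K1) q :=
  S34MEW_rel O q (S34ME_hyp q hq)

/-- **`θ = j(q^q)` is integral over `O[j]`.** -/
theorem S34ME_isIntegral (hq : q.Prime) :
    IsIntegral (adj O (jqModC K1)) (qExpand K1 q (jqModC K1)) :=
  S34MEW_isIntegral O q (S34ME_hyp q hq)

/-- **`j` is integral over `O[θ]`.** -/
theorem S34ME_isIntegral' (hq : q.Prime) :
    IsIntegral (adj O (qExpand K1 q (jqModC K1))) (jqModC K1) :=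
  S34MEW_isIntegral' O q (S34ME_hyp q hq)

end Field

end Fermat.Agent.S34_helper8_MODEQ
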