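import Fermat.Agent.S34_helper27_FINAL4
import Fermat.Agent.S34_helper8_MODEQ
import Fermat.Agent.S34_helper6_BBW

/-!
# S34 (helper27): the final wiring, fifth form

The modular relation (helper8 `S34ME_cuspRel`) and branch (B) (helper6 `S34BBW_A0`) are
discharged.  The frozen statement of S34 follows from ONE input:

* `hnode` : `S34LGK_Node` (X-L2: node coordinates at the crossing points of the finite chart
  `S18K_A0 A K1 (N' * q)`, for `V2 = w(V1)`), at the places `A` over `q` and the admissible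
  Galois-stable levels `K1`.
-/

set_option autoImplicit false
set_option linter.unusedSectionVars false
set_option linter.unusedVariables false
set_option linter.style.haveILetI false

open IsLocalRing
open CuspForm CuspForm.HeckeGaloisRepDatum
open ModularCurve
open Fermat.Agent.S18_helper25_COREDefs Fermat.Agent.S34_Contracts
open Fermat.Agent.S34_helper27_P1C
open Fermat.Agent.S34_helper27_GEOM Fermat.Agent.S34_helper27_GEOM2
open Fermat.Agent.S34_helper18_CUSP Fermat.Agent.S34_helper27_FINAL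
open Fermat.Agent.S34_helper27_FINAL2 Fermat.Agent.S34_helper27_FINAL3
open Fermat.Agent.S34_helper27_FINAL4 Fermat.Agent.S34_helper7_LGDefs

namespace Fermat.Agent.S34_helper27_FINAL5

local notation "Qb" => AlgebraicClosure ℚ
local notation "GQ" => (AlgebraicClosure ℚ ≃ₐ[ℚ] AlgebraicClosure ℚ)

/-- **(I1)** the modular relation in both orders, at every level (helper8) -/
theorem S34FINAL5_rel (q : ℕ) (hq : q.Prime) (A : ValuationSubring Qb)
    (K1 : IntermediateField ℚ Qb) :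
    haveI : NeZero q := ⟨hq.ne_zero⟩
    S34CUSP_Rel (S18K_O A K1) (S18K_j K1) (qExpand K1 q (jqModC K1)) q ∧
      S34CUSP_Rel (S18K_O A K1) (qExpand K1 q (jqModC K1)) (S18K_j K1) q := by
  haveI : NeZero q := ⟨hq.ne_zero⟩
  exact Fermat.Agent.S34_helper8_MODEQ.S34ME_cuspRel (S18K_O A K1) q hq

section Level

variable (A : ValuationSubring Qb) (K1 : IntermediateField ℚ Qb)
  (hstab : ∀ σ : GQ, ∀ x ∈ K1, σ x ∈ K1) [IsDiscreteValuationRing (S18K_O1 A K1)]

/-- **(I3)** branch (B) on the finite chart (helper6) -/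
theorem S34FINAL5_branchB {q : ℕ} (hq : q.Prime) (hA : A.LiesOverPrime q) (N' : ℕ)
    [NeZero N'] [NeZero (N' * q)] (hqN : ¬ q ∣ N') :
    S34LGK_BranchB (N' * q) A K1 hstab (S34P1C_V2 A K1 hq N' hqN) (S18K_A0 A K1 (N' * q)) :=
  Fermat.Agent.S34_helper6_BBW.S34BBW_A0 (N' * q) A K1 hstab _
    (S34P1C_setup2 A K1 hq hA N' hqN) (S34GM_inert A K1 hstab hq N' hqN)

/-- X-CROSS on the finite chart from X-L2 alone -/
theorem S34FINAL5_cross0 {q : ℕ} (hq : q.Prime) (hA : A.LiesOverPrime q) (N' : ℕ)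
    [NeZero N'] [NeZero (N' * q)] (hqN : ¬ q ∣ N') (p : ℕ)
    (hnode : S34LGK_Node (N' * q) A K1 hstab (S34P1C_V2 A K1 hq N' hqN)
      (S18K_A0 A K1 (N' * q))) :
    S34K_Cross (N' * q) p A K1 (S34P1C_V2 A K1 hq N' hqN) (S18K_A0 A K1 (N' * q)) :=
  S34FINAL3_cross0 A K1 hstab hq hA N' hqN p
    (S34FINAL4_open3 A K1 hstab hq hA N' hqN
      ⟨hnode, S34FINAL5_branchB A K1 hstab hq hA N' hqN⟩)

end Level

/-- **the frozen statement of S34 from X-L2** (`S34LGK_Node` on the finite chart). -/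
theorem S34FINAL5_of_node
    (hnode : ∀ (N' q p : ℕ) [NeZero (N' * q)] (hq : q.Prime) (hp : p.Prime) (hpq : p ≠ q)
      (hqN : ¬ q ∣ N') (A : ValuationSubring Qb) (hA : A.LiesOverPrime q)
      (K1 : IntermediateField ℚ Qb) (h : S18K_Admissible A K1 q)
      (hstab : ∀ σ : GQ, ∀ x ∈ K1, σ x ∈ K1),
      letI := h.dvr
      haveI := S34GM_neZero N' q
      S34LGK_Node (N' * q) A K1 hstab (S34P1C_V2 A K1 hq N' hqN) (S18K_A0 A K1 (N' * q)))
    {𝒪 : Type} [CommRing 𝒪] [IsDomain 𝒪] [IsDiscreteValuationRing 𝒪]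
    [IsAdicComplete (maximalIdeal 𝒪) 𝒪] [Finite (ResidueField 𝒪)] [CharZero 𝒪]
    {p : ℕ} (hp : p.Prime) (hp𝒪 : (p : 𝒪) ∈ maximalIdeal 𝒪)
    {N : ℕ} [NeZero N] {S : Finset ℕ} (hpS : p ∈ S) (hNS : ∀ q : ℕ, q.Prime → q ∣ N → q ∈ S)
    {θ : CuspForm.heckeAlgebra N 2 (↑S : Set ℕ) →+* ResidueField 𝒪}
    {T : Type} [CommRing T] [IsLocalRing T] [IsNoetherianRing T]
    [IsAdicComplete (maximalIdeal T) T] [Algebra 𝒪 T] [IsLocalHom (algebraMap 𝒪 T)]
    [Module.Finite 𝒪 T] [Module.Free 𝒪 T]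
    (H : CuspForm.HeckeGaloisRepDatum N (↑S : Set ℕ) 𝒪 θ T)
    (q : ℕ) (hq : q.Prime) (hqp : q ≠ p) (hqN : q ∣ N) (hq2 : ¬ q ^ 2 ∣ N) :
    H.ρ.IsUnipotentOnInertiaAt q :=
  S34FINAL4_of_open (fun q hq A hA K1 h => S34FINAL5_rel q hq A K1)
    (fun N' q p _ hq hp hpq hqN A hA K1 h hstab => by
      letI := h.dvr
      haveI := S34GM_neZero N' q
      exact ⟨hnode N' q p hq hp hpq hqN A hA K1 h hstab,
        S34FINAL5_branchB A K1 hstab hq hA N' hqN⟩)
    hp hp𝒪 hpS hNS H q hq hqp hqN hq2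

end Fermat.Agent.S34_helper27_FINAL5
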