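import Fermat.Agent.S34_helper14_N1F

/-!
# S34, piece X-L2-SURJ: the two components of the special fibre are copies of the special
fibre of the smaller level (concrete carriers, any admissible level)

Level `N = q N'`, `q ∤ N'`, `A` over `q`, `K1` admissible (so the unramified level `K0` and the
ramified level `K1` of X-L2 are both instances).  `V1 = S18K_V A K1 N` (Gauss),
`V2 = S34V0K_V A K1 q N' N hq hqN hN = w(V1)`, `w = S34V0_wL`.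

* `S34N1SJ_surj_abs` : abstract Subring form of `S34N1_surj`: `A = A' + (A ∩ π V1)`;
* `S34N1SJ_sf`, `S34N1SJ_sf_inf` : `A0(N) = A0(N') + (A0(N) ∩ π V1)`, and the same for the chart
  at infinity (no hypothesis);
* `S34N1SJ_sg` : `A0(N) = w(A0(N')) + (A0(N) ∩ π V2)` (from the modular equation `hjq`);
* packaged forms (`Ideal`s `S34N1SJ_Pinf`, `S34N1SJ_P0` of the finite chart, ring homomorphisms
  `S34N1SJ_f`, `S34N1SJ_g`) = the hypotheses `hsf`, `hsg`, `hπinf`, `hπ0`, `hint`, `hfg` of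
  helper3's `S34L2_main_abs`.
-/

set_option autoImplicit false
set_option linter.style.haveILetI false
set_option linter.unusedVariables false
set_option linter.unusedSectionVars false
set_option synthInstance.maxHeartbeats 400000
set_option maxHeartbeats 1600000

open ModularCurve Fermat.Agent.S24
open Fermat.Agent.S18_helper13_GAUSS Fermat.Agent.S18_helper9_CDefs
  Fermat.Agent.S18_helper9_CBasic
open Fermat.Agent.S18_helper25_COREDefs Fermat.Agent.S34_helper12_CDefs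
open Fermat.Agent.S34_helper27_C2Defs Fermat.Agent.S34_helper20_WQ Fermat.Agent.S34_helper20_V0
open Fermat.Agent.S34_helper27_V3K Fermat.Agent.S34_helper20_V0K
open Fermat.Agent.S18_helper3_LOCRING Fermat.Agent.S34_Contracts
open Fermat.Agent.S34_helper14_N1S Fermat.Agent.S34_helper14_N1T Fermat.Agent.S34_helper14_N1K
open Fermat.Agent.S34_helper14_N1 Fermat.Agent.S34_helper12_DICH

noncomputable section

namespace Fermat.Agent.S34_helper14_N1SJ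

section Abs

variable {L : Type*} [Field L] {O : Subring L} {π j : L} {F1' F1 : Subfield L}
  {V' A0' Ainf' V1 V2 A0 Ainf : Subring L}

/-- **`A = A' + (A ∩ π V1)`** (Subring form of `S34N1_surj`): `S'` the S18 setup of level `N'`,
`S` the two-valuation setup of level `q N'`, `V' ≤ V1` of residue degree one, `A' ≤ A` the
charts with the same coordinate `x`, `[IG]` for `A'`. -/
theorem S34N1SJ_surj_abs (S' : Setup O π j F1' V' A0' Ainf')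
    (S : S34C_Setup2 O π j F1 V1 V2 A0 Ainf) (hF : F1' ≤ F1) (hV : V' ≤ V1)
    (hres : ∀ x ∈ V1, ∃ r ∈ V', ∃ v ∈ V1, x = r + π * v)
    (x : L) (hxF : x ∈ F1') (A' A : Subring L) (hC' : Chart O π x F1' V' A')
    (hC : Chart O π x F1 (V1 ⊓ V2) A) [IsNoetherianRing A'] (hIG : IG π A') :
    ∀ y ∈ A, ∃ a ∈ A', ∃ v ∈ V1, y - a = π * v := by
  have hA'A : A' ≤ A := S34N1S_chart_le hF hC' hC
  have hπA' : π ∈ A' := S34N1S_adj_le S' hxF hC' (le_adj O x S'.π_mem)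
  have hAV1 : A ≤ V1 := fun y hy => (hC.le_V hy).1
  obtain ⟨h1, h2, h3, h4, h5⟩ :=
    S34N1S_base S' S hF hV hres x hxF A' A hC' hC hIG hA'A hπA' hAV1
  have hP1 : (S34N1S_vert π V1 A hAV1).IsPrime :=
    S34N1S_vert_isPrime hAV1 S.V1_nonunit S.V1_unif
  have hsurj := S34N1_surj (Subring.inclusion hA'A) ⟨π, hπA'⟩ (S34N1S_vert π V1 A hAV1) hP1
    h1 h2 h3 h4 h5
  intro y hy
  obtain ⟨a, ha⟩ := hsurj ⟨y, hy⟩
  obtain ⟨v, hv, hav⟩ := ha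
  exact ⟨a, a.2, v, hv, hav⟩

/-- **An element of the chart on one branch only**: from a unit `c` of `W1` lying in `π W2`,
an element of `A ∩ π W2` which is not in `π W1`. -/
theorem S34N1SJ_branch_abs {W1 W2 A : Subring L} (hnu1 : π⁻¹ ∉ W1) (hπ2 : π ∈ W2)
    (hloc : ∀ v ∈ W1 ⊓ W2, ∃ b ∈ A, b ≠ 0 ∧ b⁻¹ ∈ W1 ⊓ W2 ∧ v * b ∈ A) (hAW : A ≤ W1 ⊓ W2)
    (c : L) (hc0 : c ≠ 0) (hc1 : c ∈ W1) (hci : c⁻¹ ∈ W1) (hc2 : ∃ v ∈ W2, c = π * v) :
    ∃ a ∈ A, (∃ v ∈ W2, a = π * v) ∧ ¬ ∃ v ∈ W1, a = π * v := by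
  obtain ⟨v, hv, hcv⟩ := hc2
  have hcW2 : c ∈ W2 := by rw [hcv]; exact W2.mul_mem hπ2 hv
  obtain ⟨b, hb, hb0, hbi, hcb⟩ := hloc c ⟨hc1, hcW2⟩
  refine ⟨c * b, hcb, ⟨v * b, W2.mul_mem hv (hAW hb).2, by rw [hcv]; ring⟩, ?_⟩
  rintro ⟨w, hw, hcw⟩
  apply hnu1
  have hcb0 : c * b ≠ 0 := mul_ne_zero hc0 hb0
  have hπ0 : π ≠ 0 := by
    rintro rfl
    rw [zero_mul] at hcw
    exact hcb0 hcw
  have : π⁻¹ = w * b⁻¹ * c⁻¹ := by
    have h1 : π * (w * b⁻¹ * c⁻¹) = 1 := by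
      rw [← mul_assoc, ← mul_assoc, ← hcw, mul_assoc c b, mul_inv_cancel₀ hb0, mul_one,
        mul_inv_cancel₀ hc0]
    exact inv_eq_of_mul_eq_one_right h1
  rw [this]
  exact W1.mul_mem (W1.mul_mem hw hbi.1) hci

end Abs

variable (A : ValuationSubring (AlgebraicClosure ℚ))
  (K1 : IntermediateField ℚ (AlgebraicClosure ℚ)) [IsDiscreteValuationRing (S18K_O1 A K1)]
  (q N' N : ℕ) [NeZero N'] [NeZero N]

/-! ### Elementwise forms -/

/-- **`A0(N) = A0(N') + (A0(N) ∩ π V1)`**, any second valuation ring `V2` with `S34C_Setup2` and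
residue degree one. -/
theorem S34N1SJ_sf_of (hq : q.Prime) (hqN : ¬ q ∣ N') (hN : N = q * N')
    (hA : A.LiesOverPrime q) (h : S18K_Admissible A K1 q)
    (V2 : Subring (LaurentSeries K1))
    (S : S34C_Setup2 (S18K_O A K1) (S18K_π A K1) (S18K_j K1) (S18K_F1 K1 N) (S18K_V A K1 N) V2
      (S18K_A0 A K1 N) (S18K_Ainf A K1 N))
    (hres : ∀ x ∈ S18K_V A K1 N, ∃ r ∈ S18K_V A K1 N', ∃ v ∈ S18K_V A K1 N,
      x = r + S18K_π A K1 * v) :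
    ∀ y ∈ S18K_A0 A K1 N, ∃ a ∈ S18K_A0 A K1 N', ∃ v ∈ S18K_V A K1 N,
      y - a = S18K_π A K1 * v := by
  have hdvd : N' ∣ N := S34V0K_dvd hN
  haveI := S34N1K_charZero K1
  haveI : Fact q.Prime := ⟨hq⟩
  have hAB := Fermat.Agent.S18_helper25_FINAL.S18K_blocksAB_of_blockB N' hqN A hA
    (Fermat.Agent.S18_helper12_TOP.S18TOP_blockB N' hqN A hA)
  obtain ⟨S', hIG0, -⟩ := hAB K1 h
  haveI : IsNoetherianRing (S18K_A0 A K1 N') :=
    Fermat.Agent.S18_helper27_CNOETH.S18CNOETH_chart_noetherian S' (S18K_j K1) (Or.inl rfl)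
      (S18K_A0 A K1 N') S'.chart0
  exact S34N1SJ_surj_abs S' S (S34V3K_F1_mono K1 hdvd) (S34V3K_V_mono A K1 hdvd) hres
    (S18K_j K1) S'.j_mem (S18K_A0 A K1 N') (S18K_A0 A K1 N) S'.chart0 S.chart0 hIG0

/-- the same for the chart at infinity -/
theorem S34N1SJ_sf_inf_of (hq : q.Prime) (hqN : ¬ q ∣ N') (hN : N = q * N')
    (hA : A.LiesOverPrime q) (h : S18K_Admissible A K1 q)
    (V2 : Subring (LaurentSeries K1))
    (S : S34C_Setup2 (S18K_O A K1) (S18K_π A K1) (S18K_j K1) (S18K_F1 K1 N) (S18K_V A K1 N) V2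
      (S18K_A0 A K1 N) (S18K_Ainf A K1 N))
    (hres : ∀ x ∈ S18K_V A K1 N, ∃ r ∈ S18K_V A K1 N', ∃ v ∈ S18K_V A K1 N,
      x = r + S18K_π A K1 * v) :
    ∀ y ∈ S18K_Ainf A K1 N, ∃ a ∈ S18K_Ainf A K1 N', ∃ v ∈ S18K_V A K1 N,
      y - a = S18K_π A K1 * v := by
  have hdvd : N' ∣ N := S34V0K_dvd hN
  haveI := S34N1K_charZero K1
  haveI : Fact q.Prime := ⟨hq⟩
  have hAB := Fermat.Agent.S18_helper25_FINAL.S18K_blocksAB_of_blockB N' hqN A hA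
    (Fermat.Agent.S18_helper12_TOP.S18TOP_blockB N' hqN A hA)
  obtain ⟨S', -, hIGinf⟩ := hAB K1 h
  haveI : IsNoetherianRing (S18K_Ainf A K1 N') :=
    Fermat.Agent.S18_helper27_CNOETH.S18CNOETH_chart_noetherian S' (S18K_j K1)⁻¹ (Or.inr rfl)
      (S18K_Ainf A K1 N') S'.chartInf
  exact S34N1SJ_surj_abs S' S (S34V3K_F1_mono K1 hdvd) (S34V3K_V_mono A K1 hdvd) hres
    (S18K_j K1)⁻¹ ((S18K_F1 K1 N').inv_mem S'.j_mem) (S18K_Ainf A K1 N') (S18K_Ainf A K1 N)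
    S'.chartInf S.chartInf hIGinf

/-- **`A0(N) = A0(N') + (A0(N) ∩ π V1)`**, no hypothesis left. -/
theorem S34N1SJ_sf (hq : q.Prime) (hqN : ¬ q ∣ N') (hN : N = q * N')
    (hA : A.LiesOverPrime q) (h : S18K_Admissible A K1 q) :
    ∀ y ∈ S18K_A0 A K1 N, ∃ a ∈ S18K_A0 A K1 N', ∃ v ∈ S18K_V A K1 N,
      y - a = S18K_π A K1 * v :=
  S34N1SJ_sf_of A K1 q N' N hq hqN hN hA h _
    (Fermat.Agent.S34_helper13_P1C.S34P1C_setup2 A K1 q N' N hq hqN hN hA)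
    (Fermat.Agent.S34_helper13_P1C.S34P1C_key A K1 q N' N hq hqN hN hA).2.2.2.2

/-- **`Ainf(N) = Ainf(N') + (Ainf(N) ∩ π V1)`**, no hypothesis left. -/
theorem S34N1SJ_sf_inf (hq : q.Prime) (hqN : ¬ q ∣ N') (hN : N = q * N')
    (hA : A.LiesOverPrime q) (h : S18K_Admissible A K1 q) :
    ∀ y ∈ S18K_Ainf A K1 N, ∃ a ∈ S18K_Ainf A K1 N', ∃ v ∈ S18K_V A K1 N,
      y - a = S18K_π A K1 * v :=
  S34N1SJ_sf_inf_of A K1 q N' N hq hqN hN hA h _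
    (Fermat.Agent.S34_helper13_P1C.S34P1C_setup2 A K1 q N' N hq hqN hN hA)
    (Fermat.Agent.S34_helper13_P1C.S34P1C_key A K1 q N' N hq hqN hN hA).2.2.2.2

/-- **`A0(N) = w(A0(N')) + (A0(N) ∩ π V2)`**, from the modular equation. -/
theorem S34N1SJ_sg (hq : q.Prime) (hqN : ¬ q ∣ N') (hN : N = q * N') [NeZero q]
    (hA : A.LiesOverPrime q) (h : S18K_Admissible A K1 q)
    (hjq : IsIntegral (adj (S18K_O A K1) (S18K_j K1)) (qExpand K1 q (jqModC K1))) :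
    ∀ y ∈ S18K_A0 A K1 N, ∃ a ∈ S18K_A0 A K1 N',
      ∃ v ∈ S34V0K_V A K1 q N' N hq hqN hN,
        y - S34V0_wL (S34V0K_emb K1) q N' N hq hqN hN a = S18K_π A K1 * v := by
  intro y hy
  have hdvd : N' ∣ N := S34V0K_dvd hN
  have hwy := S34N1K_wL_mem_A0 A K1 q N' N hq hqN hN hjq hy
  obtain ⟨a, ha, v, hv, hav⟩ := S34N1SJ_sf A K1 q N' N hq hqN hN hA h _ hwy
  have hyF : y ∈ modularFunctionFieldFullC K1 N := S34N1K_A0_le_F A K1 N hy
  have hvF : v ∈ modularFunctionFieldFullC K1 N := hv.2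
  have hπF := S34N1K_pi_mem_F A K1 N
  have haF : a ∈ modularFunctionFieldFullC K1 N :=
    (S34V3K_F1_mono K1 hdvd) (mem_icl.1 ha).2
  refine ⟨a, ha, S34V0_wL (S34V0K_emb K1) q N' N hq hqN hN v,
    S34V0_wL_mem_image (S34V0K_emb K1) q N' N hq hqN hN hvF hv, ?_⟩
  have h1 := congrArg (S34V0_wL (S34V0K_emb K1) q N' N hq hqN hN) hav
  have hwaF : S34V0_wL (S34V0K_emb K1) q N' N hq hqN hN a ∈ modularFunctionFieldFullC K1 N :=
    S34V0_wL_mem (S34V0K_emb K1) q N' N hq hqN hN a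
  have hwyF : S34V0_wL (S34V0K_emb K1) q N' N hq hqN hN y ∈ modularFunctionFieldFullC K1 N :=
    S34V0_wL_mem (S34V0K_emb K1) q N' N hq hqN hN y
  have h2 : S34V0_wL (S34V0K_emb K1) q N' N hq hqN hN y =
      a + S18K_π A K1 * v := by rw [← hav]; ring
  have h3 := congrArg (S34V0_wL (S34V0K_emb K1) q N' N hq hqN hN) h2
  rw [S34V0_wL_wL (S34V0K_emb K1) q N' N hq hqN hN hyF,
    S34V0_wL_add (S34V0K_emb K1) q N' N hq hqN hN haF
      ((modularFunctionFieldFullC K1 N).mul_mem hπF hvF),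
    S34V0_wL_mul (S34V0K_emb K1) q N' N hq hqN hN hπF hvF,
    S34N1K_wL_pi A K1 q N' N hq hqN hN] at h3
  rw [h3]; ring

/-- **`hne`**: an element of the finite chart on the component of `V2` only. -/
theorem S34N1SJ_ne (hq : q.Prime) (hqN : ¬ q ∣ N') (hN : N = q * N') [NeZero q]
    (hA : A.LiesOverPrime q) :
    ∃ a ∈ S18K_A0 A K1 N, (∃ v ∈ S34V0K_V A K1 q N' N hq hqN hN, a = S18K_π A K1 * v) ∧
      ¬ ∃ v ∈ S18K_V A K1 N, a = S18K_π A K1 * v := by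
  have S := Fermat.Agent.S34_helper13_P1C.S34P1C_setup2 A K1 q N' N hq hqN hN hA
  obtain ⟨c, hc0, hc, hci, hc2⟩ := S34V0K_sep A K1 q N' N hq hqN hN hA
  have hπ2 : S18K_π A K1 ∈ S34V0K_V A K1 q N' N hq hqN hN :=
    (S.chart0.le_V (S34N1T_O_le_A0 S S.π_mem)).2
  exact S34N1SJ_branch_abs S.V1_nonunit hπ2 S.chart0.loc S.chart0.le_V c hc0 hc hci hc2

/-- **`hne'`**: an element of the finite chart on the component of `V1` only. -/
theorem S34N1SJ_ne' (hq : q.Prime) (hqN : ¬ q ∣ N') (hN : N = q * N') [NeZero q]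
    (hA : A.LiesOverPrime q) :
    ∃ a ∈ S18K_A0 A K1 N, (∃ v ∈ S18K_V A K1 N, a = S18K_π A K1 * v) ∧
      ¬ ∃ v ∈ S34V0K_V A K1 q N' N hq hqN hN, a = S18K_π A K1 * v := by
  have S := Fermat.Agent.S34_helper13_P1C.S34P1C_setup2 A K1 q N' N hq hqN hN hA
  obtain ⟨c, hc0, hc, hci, v, hv, hcv⟩ := S34V0K_sep A K1 q N' N hq hqN hN hA
  have hπ1 : S18K_π A K1 ∈ S18K_V A K1 N :=
    (S.chart0.le_V (S34N1T_O_le_A0 S S.π_mem)).1
  have hcF : c ∈ modularFunctionFieldFullC K1 N := hc.2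
  have hciF : c⁻¹ ∈ modularFunctionFieldFullC K1 N := hci.2
  have hvF : v ∈ modularFunctionFieldFullC K1 N :=
    ((S34V0K_mem_V A K1 q N' N hq hqN hN).1 hv).1
  have hπF := S34N1K_pi_mem_F A K1 N
  have hloc : ∀ v ∈ (S34V0K_V A K1 q N' N hq hqN hN ⊓ S18K_V A K1 N :
      Subring (LaurentSeries K1)), ∃ b ∈ S18K_A0 A K1 N, b ≠ 0 ∧
      b⁻¹ ∈ (S34V0K_V A K1 q N' N hq hqN hN ⊓ S18K_V A K1 N : Subring (LaurentSeries K1)) ∧
      v * b ∈ S18K_A0 A K1 N := by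
    intro v hv
    obtain ⟨b, hb, hb0, hbi, hvb⟩ := S.chart0.loc v ⟨hv.2, hv.1⟩
    exact ⟨b, hb, hb0, ⟨hbi.2, hbi.1⟩, hvb⟩
  have hle : S18K_A0 A K1 N ≤
      (S34V0K_V A K1 q N' N hq hqN hN ⊓ S18K_V A K1 N : Subring (LaurentSeries K1)) :=
    fun a ha => ⟨(S.chart0.le_V ha).2, (S.chart0.le_V ha).1⟩
  refine S34N1SJ_branch_abs S.V2_nonunit hπ1 hloc hle
    (S34V0_wL (S34V0K_emb K1) q N' N hq hqN hN c) ?_ ?_ ?_ ?_
  · intro h0
    have h1 := congrArg (S34V0_wL (S34V0K_emb K1) q N' N hq hqN hN) h0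
    rw [S34V0_wL_wL (S34V0K_emb K1) q N' N hq hqN hN hcF, S34V0_wL_zero] at h1
    exact hc0 h1
  · exact S34V0_wL_mem_image (S34V0K_emb K1) q N' N hq hqN hN hcF hc
  · rw [← S34V0_wL_inv (S34V0K_emb K1) q N' N hq hqN hN hcF]
    exact S34V0_wL_mem_image (S34V0K_emb K1) q N' N hq hqN hN hciF hci
  · refine ⟨S34V0_wL (S34V0K_emb K1) q N' N hq hqN hN v,
      ((S34V0K_mem_V A K1 q N' N hq hqN hN).1 hv).2, ?_⟩
    rw [hcv, S34V0_wL_mul (S34V0K_emb K1) q N' N hq hqN hN hπF hvF,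
      S34N1K_wL_pi A K1 q N' N hq hqN hN]

/-! ### Packaged forms: the hypotheses of `S34L2_main_abs`

`Pinf`, `P0` ANY ideals of the finite chart with the expected membership, `f`, `g` ANY ring
homomorphisms from the chart of level `N'` with the expected values. -/

section Packaged

variable (Pinf P0 : Ideal (S18K_A0 A K1 N))
  (f g : S18K_A0 A K1 N' →+* S18K_A0 A K1 N)

/-- `hsf` -/
theorem S34N1SJ_hsf (hq : q.Prime) (hqN : ¬ q ∣ N') (hN : N = q * N')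
    (hA : A.LiesOverPrime q) (h : S18K_Admissible A K1 q)
    (hPinf : ∀ a : S18K_A0 A K1 N, (∃ v ∈ S18K_V A K1 N,
      (a : LaurentSeries K1) = S18K_π A K1 * v) → a ∈ Pinf)
    (hf : ∀ a : S18K_A0 A K1 N', ((f a : S18K_A0 A K1 N) : LaurentSeries K1) = a) :
    ∀ y : S18K_A0 A K1 N, ∃ a : S18K_A0 A K1 N', y - f a ∈ Pinf := by
  intro y
  obtain ⟨a, ha, v, hv, hav⟩ := S34N1SJ_sf A K1 q N' N hq hqN hN hA h _ y.2
  refine ⟨⟨a, ha⟩, hPinf _ ⟨v, hv, ?_⟩⟩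
  show (y : LaurentSeries K1) - ((f ⟨a, ha⟩ : S18K_A0 A K1 N) : LaurentSeries K1) = _
  rw [hf]
  exact hav

/-- `hsg` -/
theorem S34N1SJ_hsg (hq : q.Prime) (hqN : ¬ q ∣ N') (hN : N = q * N') [NeZero q]
    (hA : A.LiesOverPrime q) (h : S18K_Admissible A K1 q)
    (hjq : IsIntegral (adj (S18K_O A K1) (S18K_j K1)) (qExpand K1 q (jqModC K1)))
    (hP0 : ∀ a : S18K_A0 A K1 N, (∃ v ∈ S34V0K_V A K1 q N' N hq hqN hN,
      (a : LaurentSeries K1) = S18K_π A K1 * v) → a ∈ P0)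
    (hg : ∀ a : S18K_A0 A K1 N', ((g a : S18K_A0 A K1 N) : LaurentSeries K1) =
      S34V0_wL (S34V0K_emb K1) q N' N hq hqN hN a) :
    ∀ y : S18K_A0 A K1 N, ∃ a : S18K_A0 A K1 N', y - g a ∈ P0 := by
  intro y
  obtain ⟨a, ha, v, hv, hav⟩ := S34N1SJ_sg A K1 q N' N hq hqN hN hA h hjq _ y.2
  refine ⟨⟨a, ha⟩, hP0 _ ⟨v, hv, ?_⟩⟩
  show (y : LaurentSeries K1) - ((g ⟨a, ha⟩ : S18K_A0 A K1 N) : LaurentSeries K1) = _
  rw [hg]
  exact hav

/-- `hint` : `Pinf ⊓ P0 ≤ (π)` -/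
theorem S34N1SJ_hint (hq : q.Prime) (hqN : ¬ q ∣ N') (hN : N = q * N')
    (hA : A.LiesOverPrime q)
    (hPinf : ∀ a : S18K_A0 A K1 N, a ∈ Pinf → ∃ v ∈ S18K_V A K1 N,
      (a : LaurentSeries K1) = S18K_π A K1 * v)
    (hP0 : ∀ a : S18K_A0 A K1 N, a ∈ P0 → ∃ v ∈ S34V0K_V A K1 q N' N hq hqN hN,
      (a : LaurentSeries K1) = S18K_π A K1 * v)
    (ϖ : S18K_A0 A K1 N) (hϖ : (ϖ : LaurentSeries K1) = S18K_π A K1) :
    ∀ a ∈ Pinf ⊓ P0, a ∈ Ideal.span {ϖ} := by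
  rintro a ⟨h1, h2⟩
  have S := Fermat.Agent.S34_helper13_P1C.S34P1C_setup2 A K1 q N' N hq hqN hN hA
  obtain ⟨b, hb, hab⟩ := S34DI_inter S S.chart0 a.2 (hPinf a h1) (hP0 a h2)
  rw [Ideal.mem_span_singleton']
  exact ⟨⟨b, hb⟩, Subtype.ext (by rw [Subring.coe_mul, hab, hϖ, mul_comm])⟩

/-- `hne` -/
theorem S34N1SJ_hne (hq : q.Prime) (hqN : ¬ q ∣ N') (hN : N = q * N') [NeZero q]
    (hA : A.LiesOverPrime q)
    (hPinf : ∀ a : S18K_A0 A K1 N, a ∈ Pinf → ∃ v ∈ S18K_V A K1 N,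
      (a : LaurentSeries K1) = S18K_π A K1 * v)
    (hP0 : ∀ a : S18K_A0 A K1 N, (∃ v ∈ S34V0K_V A K1 q N' N hq hqN hN,
      (a : LaurentSeries K1) = S18K_π A K1 * v) → a ∈ P0) :
    ∃ a ∈ P0, a ∉ Pinf := by
  obtain ⟨a, ha, h2, h1⟩ := S34N1SJ_ne A K1 q N' N hq hqN hN hA
  exact ⟨⟨a, ha⟩, hP0 _ h2, fun h => h1 (hPinf _ h)⟩

/-- `hne'` -/
theorem S34N1SJ_hne' (hq : q.Prime) (hqN : ¬ q ∣ N') (hN : N = q * N') [NeZero q]
    (hA : A.LiesOverPrime q)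
    (hPinf : ∀ a : S18K_A0 A K1 N, (∃ v ∈ S18K_V A K1 N,
      (a : LaurentSeries K1) = S18K_π A K1 * v) → a ∈ Pinf)
    (hP0 : ∀ a : S18K_A0 A K1 N, a ∈ P0 → ∃ v ∈ S34V0K_V A K1 q N' N hq hqN hN,
      (a : LaurentSeries K1) = S18K_π A K1 * v) :
    ∃ a ∈ Pinf, a ∉ P0 := by
  obtain ⟨a, ha, h1, h2⟩ := S34N1SJ_ne' A K1 q N' N hq hqN hN hA
  exact ⟨⟨a, ha⟩, hPinf _ h1, fun h => h2 (hP0 _ h)⟩

end Packaged

end Fermat.Agent.S34_helper14_N1SJ
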