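import Mathlib

/-!
# S34, local theory at a node (Mathlib only)

Three elementary statements about a local ring `R` which looks like the local ring of an
arithmetic surface at an ordinary double point of its special fibre.

* `S34N_iterate`, `S34N_terminate`, `S34N_normal_form` : if the maximal ideal is `(q, U, V)` and
  `U V ∈ (q)`, then after finitely many explicit changes of coordinates `T ≡ U`, `S ≡ V` modulo
  `q` one has `T S = q ^ k · unit`, `1 ≤ k ≤ m`, as soon as there is an element `g` whose divisor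
  is `m` times one branch (`hG1`, `hG2`).
* `S34N_ker`, `S34N_unique`, `S34N_simple` : for `T S = Q · unit` and a section
  `φ : R →ₐ[O] O` centred at the node, with `a = φ T`: the kernel of `φ` is generated by `T - a`
  and `S - a'' c`, the section is determined by `a`, and `T - a` generates the kernel after
  inverting `a` (a simple zero).
-/

set_option autoImplicit false

namespace Fermat.Agent.S34_helper17_NODE

open IsLocalRing Ideal

/-! ### The normal form -/

section Iteration

variable {R : Type*} [CommRing R]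

theorem S34N_mem_span_triple {q U V x : R} :
    x ∈ Ideal.span ({q, U, V} : Set R) ↔ ∃ α β γ : R, x = α * q + β * U + γ * V := by
  constructor
  · intro h
    rw [Ideal.mem_span_insert] at h
    obtain ⟨α, z, hz, rfl⟩ := h
    rw [Ideal.mem_span_pair] at hz
    obtain ⟨β, γ, rfl⟩ := hz
    exact ⟨α, β, γ, by ring⟩
  · rintro ⟨α, β, γ, rfl⟩
    refine Ideal.add_mem _ (Ideal.add_mem _ ?_ ?_) ?_
    · exact Ideal.mul_mem_left _ _ (Ideal.subset_span (by simp))
    · exact Ideal.mul_mem_left _ _ (Ideal.subset_span (by simp))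
    · exact Ideal.mul_mem_left _ _ (Ideal.subset_span (by simp))

/-- Changing two generators modulo the first one does not change the ideal. -/
theorem S34N_span_congr {q U V T S : R} (hT : q ∣ T - U) (hS : q ∣ S - V) :
    Ideal.span ({q, T, S} : Set R) = Ideal.span ({q, U, V} : Set R) := by
  obtain ⟨δ, hδ⟩ := hT
  obtain ⟨δ', hδ'⟩ := hS
  have eT : T = U + q * δ := by rw [← hδ]; ring
  have eS : S = V + q * δ' := by rw [← hδ']; ring
  apply le_antisymm
  · rw [Ideal.span_le]
    intro x hx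
    simp only [Set.mem_insert_iff, Set.mem_singleton_iff] at hx
    rcases hx with rfl | rfl | rfl
    · exact Ideal.subset_span (by simp)
    · rw [eT]
      exact S34N_mem_span_triple.mpr ⟨δ, 1, 0, by ring⟩
    · rw [eS]
      exact S34N_mem_span_triple.mpr ⟨δ', 0, 1, by ring⟩
  · rw [Ideal.span_le]
    intro x hx
    simp only [Set.mem_insert_iff, Set.mem_singleton_iff] at hx
    rcases hx with rfl | rfl | rfl
    · exact Ideal.subset_span (by simp)
    · exact S34N_mem_span_triple.mpr ⟨-δ, 1, 0, by rw [eT]; ring⟩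
    · exact S34N_mem_span_triple.mpr ⟨-δ', 0, 1, by rw [eS]; ring⟩

/-- One step of the iteration. -/
theorem S34N_step {q U V c : R} (r : ℕ)
    (hc : c ∈ Ideal.span ({q, U, V} : Set R)) (hUV : U * V = q ^ (r + 1) * c) :
    ∃ U' V' c' : R, U' * V' = q ^ (r + 2) * c' ∧ q ∣ U' - U ∧ q ∣ V' - V := by
  obtain ⟨α, β, γ, hαβγ⟩ := S34N_mem_span_triple.mp hc
  refine ⟨U - q ^ (r + 1) * γ, V - q ^ (r + 1) * β, α + q ^ r * (β * γ), ?_, ?_, ?_⟩
  · have : (U - q ^ (r + 1) * γ) * (V - q ^ (r + 1) * β)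
        = U * V - q ^ (r + 1) * (β * U + γ * V) + q ^ (r + 1) * q ^ (r + 1) * (β * γ) := by ring
    rw [this, hUV, hαβγ]
    ring
  · exact ⟨-(q ^ r * γ), by ring⟩
  · exact ⟨-(q ^ r * β), by ring⟩

variable [IsLocalRing R]

/-- The iteration: either a normal form `T S = q ^ k · unit` with `k ≤ B` is reached, or the
product is divisible by `q ^ (B + 1)` for suitable coordinates. -/
theorem S34N_iterate {q U V c₁ : R}
    (hn : maximalIdeal R = Ideal.span ({q, U, V} : Set R)) (hUV : U * V = q * c₁) (B : ℕ) :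
    (∃ k : ℕ, 1 ≤ k ∧ k ≤ B ∧ ∃ T S c : R, IsUnit c ∧ T * S = q ^ k * c ∧
        q ∣ T - U ∧ q ∣ S - V) ∨
      (∃ T S c : R, T * S = q ^ (B + 1) * c ∧ q ∣ T - U ∧ q ∣ S - V) := by
  induction B with
  | zero =>
    right
    exact ⟨U, V, c₁, by rw [hUV]; ring, ⟨0, by ring⟩, ⟨0, by ring⟩⟩
  | succ B ih =>
    rcases ih with ⟨k, hk1, hkB, h⟩ | ⟨T, S, c, hTS, hT, hS⟩
    · left
      exact ⟨k, hk1, Nat.le_succ_of_le hkB, h⟩
    · by_cases hc : IsUnit c
      · left
        exact ⟨B + 1, Nat.succ_le_succ (Nat.zero_le B), le_rfl, T, S, c, hc, hTS, hT, hS⟩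
      · right
        have hc' : c ∈ Ideal.span ({q, T, S} : Set R) := by
          rw [S34N_span_congr hT hS, ← hn]
          exact (IsLocalRing.mem_maximalIdeal c).mpr hc
        obtain ⟨U', V', c', h1, h2, h3⟩ := S34N_step B hc' hTS
        refine ⟨U', V', c', h1, ?_, ?_⟩
        · have : U' - U = (U' - T) + (T - U) := by ring
          rw [this]; exact dvd_add h2 hT
        · have : V' - V = (V' - S) + (S - V) := by ring
          rw [this]; exact dvd_add h3 hS

variable [IsDomain R]

/-- Termination: an element `g` whose divisor is `m` times the branch `P0` bounds the thickness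
of the node by `m`. -/
theorem S34N_terminate {q g : R} (P0 Pinf : Ideal R) [P0.IsPrime] (hq : q ≠ 0)
    (hP0 : P0 ≤ maximalIdeal R) (m : ℕ)
    (hG1 : ∀ x s z : R, s ∉ P0 → s * x = q ^ m * z → g ∣ x)
    (hG2 : ∃ s' z' : R, s' ∉ P0 ∧ z' ∉ P0 ∧ s' * g = q ^ m * z')
    (hq0 : q ∈ P0) (hg : g ∈ maximalIdeal R)
    {T S c : R} (hTS : T * S = q ^ (m + 1) * c) (hT : T ∉ P0)
    (hS : S ∉ Pinf ⊔ maximalIdeal R ^ 2) : False := by
  have h1 : T * S = q ^ m * (q * c) := by rw [hTS]; ring
  obtain ⟨y, hy⟩ := hG1 S T (q * c) hT h1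
  obtain ⟨s', z', hs', hz', hsg⟩ := hG2
  have h2 : q ^ m * (z' * T * y) = q ^ m * (q * (c * s')) := by
    calc q ^ m * (z' * T * y) = (s' * g) * (T * y) := by rw [hsg]; ring
      _ = s' * (T * S) := by rw [hy]; ring
      _ = q ^ m * (q * (c * s')) := by rw [hTS]; ring
  have h3 : z' * T * y = q * (c * s') := mul_left_cancel₀ (pow_ne_zero m hq) h2
  have h4 : z' * T * y ∈ P0 := by
    rw [h3]; exact Ideal.mul_mem_right _ _ hq0
  have hy0 : y ∈ P0 := by
    rcases (Ideal.IsPrime.mem_or_mem inferInstance h4) with h5 | h5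
    · rcases (Ideal.IsPrime.mem_or_mem inferInstance h5) with h6 | h6
      · exact absurd h6 hz'
      · exact absurd h6 hT
    · exact h5
  apply hS
  refine Ideal.mem_sup_right ?_
  rw [hy, pow_two]
  exact Ideal.mul_mem_mul hg (hP0 hy0)

/-- **Normal form at a node.** -/
theorem S34N_normal_form {q U V c₁ g : R} (P0 Pinf : Ideal R) [P0.IsPrime] (hq : q ≠ 0)
    (hn : maximalIdeal R = Ideal.span ({q, U, V} : Set R)) (hUV : U * V = q * c₁)
    (hP0 : P0 ≤ maximalIdeal R) (hq0 : q ∈ P0) (hqinf : q ∈ Pinf) (m : ℕ)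
    (hG1 : ∀ x s z : R, s ∉ P0 → s * x = q ^ m * z → g ∣ x)
    (hG2 : ∃ s' z' : R, s' ∉ P0 ∧ z' ∉ P0 ∧ s' * g = q ^ m * z')
    (hg : g ∈ maximalIdeal R) (hU : U ∉ P0) (hV : V ∉ Pinf ⊔ maximalIdeal R ^ 2) :
    ∃ k : ℕ, 1 ≤ k ∧ k ≤ m ∧ ∃ T S c : R, IsUnit c ∧ T * S = q ^ k * c ∧
      q ∣ T - U ∧ q ∣ S - V ∧ maximalIdeal R = Ideal.span ({q, T, S} : Set R) := by
  rcases S34N_iterate hn hUV m with ⟨k, hk1, hkm, T, S, c, hc, hTS, hT, hS⟩ |
      ⟨T, S, c, hTS, hT, hS⟩
  · exact ⟨k, hk1, hkm, T, S, c, hc, hTS, hT, hS, by rw [S34N_span_congr hT hS, hn]⟩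
  · exfalso
    obtain ⟨δ, hδ⟩ := hT
    obtain ⟨δ', hδ'⟩ := hS
    refine S34N_terminate P0 Pinf hq hP0 m hG1 hG2 hq0 hg hTS ?_ ?_
    · intro hT0
      apply hU
      have : U = T - q * δ := by rw [← hδ]; ring
      rw [this]
      exact Ideal.sub_mem _ hT0 (Ideal.mul_mem_right _ _ hq0)
    · intro hS0
      apply hV
      have : V = S - q * δ' := by rw [← hδ']; ring
      rw [this]
      exact Ideal.sub_mem _ hS0 (Ideal.mem_sup_left (Ideal.mul_mem_right _ _ hqinf))

end Iteration

/-! ### Sections through a node -/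

section Node

set_option linter.unusedSectionVars false

variable {O R : Type*} [CommRing O] [IsDomain O] [CommRing R] [IsLocalRing R] [Algebra O R]

/-- The two generators of the kernel of a section. -/
def S34N_gens (T S c : R) (a a'' : O) : Set R :=
  {T - algebraMap O R a, S - algebraMap O R a'' * c}

/-- The second coordinate of a section: `a'' = φ S / φ c`, with `φ T * a'' = Q`. -/
theorem S34N_exists_second {π Q : O} {T S c : R}
    (hTS : T * S = algebraMap O R Q * c) (hc : IsUnit c)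
    (φ : R →ₐ[O] O) (hb : π ∣ φ S) :
    ∃ a'' : O, φ T * a'' = Q ∧ π ∣ a'' ∧ φ (S - algebraMap O R a'' * c) = 0 := by
  obtain ⟨u, hu⟩ := hc.map φ
  refine ⟨φ S * ((u⁻¹ : Oˣ) : O), ?_, Dvd.dvd.mul_right hb _, ?_⟩
  · have h1 : φ T * φ S = Q * φ c := by
      rw [← map_mul, hTS, map_mul, φ.commutes]
      rfl
    calc φ T * (φ S * ((u⁻¹ : Oˣ) : O)) = (φ T * φ S) * ((u⁻¹ : Oˣ) : O) := by ring
      _ = Q * (φ c * ((u⁻¹ : Oˣ) : O)) := by rw [h1]; ring
      _ = Q := by rw [← hu, Units.mul_inv, mul_one]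
  · rw [map_sub, map_mul, φ.commutes]
    have : (algebraMap O O) (φ S * ((u⁻¹ : Oˣ) : O)) = φ S * ((u⁻¹ : Oˣ) : O) := rfl
    rw [this, ← hu, mul_assoc, Units.inv_mul, mul_one, sub_self]

/-- The basic identity `a (S - a'' c) = -(T - a) S`. -/
theorem S34N_identity {Q a a'' : O} {T S c : R}
    (hTS : T * S = algebraMap O R Q * c) (haa : a * a'' = Q) :
    algebraMap O R a * (S - algebraMap O R a'' * c) = -((T - algebraMap O R a) * S) := by
  have : algebraMap O R Q = algebraMap O R a * algebraMap O R a'' := by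
    rw [← map_mul, haa]
  have h2 : algebraMap O R a * (S - algebraMap O R a'' * c)
      = algebraMap O R a * S - (algebraMap O R a * algebraMap O R a'') * c := by ring
  rw [h2, ← this, ← hTS]
  ring

/-- **(iii) The zero is simple**: after multiplication by `a`, every element of the ideal
generated by `T - a` and `S - a'' c` is a multiple of `T - a`. -/
theorem S34N_simple {Q a a'' : O} {T S c : R}
    (hTS : T * S = algebraMap O R Q * c) (haa : a * a'' = Q) {x : R}
    (hx : x ∈ Ideal.span (S34N_gens T S c a a'')) :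
    ∃ r : R, algebraMap O R a * x = r * (T - algebraMap O R a) := by
  rw [S34N_gens, Ideal.mem_span_pair] at hx
  obtain ⟨r₁, r₂, rfl⟩ := hx
  refine ⟨algebraMap O R a * r₁ - r₂ * S, ?_⟩
  have h := S34N_identity hTS haa
  calc algebraMap O R a * (r₁ * (T - algebraMap O R a) + r₂ * (S - algebraMap O R a'' * c))
      = algebraMap O R a * r₁ * (T - algebraMap O R a)
          + r₂ * (algebraMap O R a * (S - algebraMap O R a'' * c)) := by ring
    _ = (algebraMap O R a * r₁ - r₂ * S) * (T - algebraMap O R a) := by rw [h]; ring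

variable [IsNoetherianRing R]

/-- **(i) The kernel of a section through the node** is generated by `T - a` and
`S - a'' c`. -/
theorem S34N_ker {π : O} (hπ : π ≠ 0) {T S c : R}
    (hn : maximalIdeal R = Ideal.span ({algebraMap O R π, T, S} : Set R))
    (φ : R →ₐ[O] O) (ha : π ∣ φ T) {a'' : O} (ha'' : π ∣ a'')
    (h0 : φ (S - algebraMap O R a'' * c) = 0) :
    RingHom.ker (φ : R →+* O) = Ideal.span (S34N_gens T S c (φ T) a'') := by
  set 𝔮 : Ideal R := Ideal.span (S34N_gens T S c (φ T) a'') with h𝔮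
  have hle : 𝔮 ≤ RingHom.ker (φ : R →+* O) := by
    rw [h𝔮, Ideal.span_le]
    intro x hx
    simp only [S34N_gens, Set.mem_insert_iff, Set.mem_singleton_iff] at hx
    rcases hx with rfl | rfl
    · show φ (T - algebraMap O R (φ T)) = 0
      rw [map_sub, φ.commutes]
      exact sub_self _
    · exact h0
  have hker_ne : RingHom.ker (φ : R →+* O) ≠ ⊤ := RingHom.ker_ne_top _
  have hker_le : RingHom.ker (φ : R →+* O) ≤ maximalIdeal R :=
    IsLocalRing.le_maximalIdeal hker_ne
  have hπn : algebraMap O R π ∈ maximalIdeal R := by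
    rw [hn]; exact Ideal.subset_span (by simp)
  -- the maximal ideal is contained in `𝔮 + (π)`
  have hn_le : ∀ r ∈ maximalIdeal R, ∃ y ∈ 𝔮, ∃ r' : R, r = y + algebraMap O R π * r' := by
    intro r hr
    rw [hn] at hr
    obtain ⟨α, β, γ, rfl⟩ := S34N_mem_span_triple.mp hr
    obtain ⟨a₁, ha₁⟩ := ha
    obtain ⟨a₂, ha₂⟩ := ha''
    refine ⟨β * (T - algebraMap O R (φ T)) + γ * (S - algebraMap O R a'' * c), ?_,
      α + β * algebraMap O R a₁ + γ * (algebraMap O R a₂ * c), ?_⟩
    · refine Ideal.add_mem _ (Ideal.mul_mem_left _ _ (Ideal.subset_span ?_))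
        (Ideal.mul_mem_left _ _ (Ideal.subset_span ?_))
      · simp [S34N_gens]
      · simp [S34N_gens]
    · rw [ha₁, ha₂, map_mul, map_mul]
      ring
  apply le_antisymm _ hle
  intro x hx
  -- `x ∈ 𝔮 + π ^ j R` for all `j`
  have key : ∀ j : ℕ, ∃ y ∈ 𝔮, ∃ r : R, x = y + algebraMap O R π ^ j * r := by
    intro j
    induction j with
    | zero => exact ⟨0, 𝔮.zero_mem, x, by simp⟩
    | succ j ih =>
      obtain ⟨y, hy, r, hxr⟩ := ih
      have hφr : φ r = 0 := by
        have h1 : φ x = 0 := hx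
        rw [hxr, map_add, map_mul, map_pow, φ.commutes] at h1
        have h2 : φ y = 0 := hle hy
        rw [h2, zero_add] at h1
        have : (algebraMap O O) π = π := rfl
        rw [this] at h1
        rcases mul_eq_zero.mp h1 with h3 | h3
        · exact absurd (pow_eq_zero_iff (n := j) (by
            intro hj; subst hj; simp at h3) |>.mp h3) hπ
        · exact h3
      obtain ⟨y', hy', r', hr'⟩ := hn_le r (hker_le hφr)
      refine ⟨y + algebraMap O R π ^ j * y', Ideal.add_mem _ hy (Ideal.mul_mem_left _ _ hy'),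
        r', ?_⟩
      rw [hxr, hr']
      ring
  -- Krull's intersection theorem for the module `R ⧸ 𝔮`
  have hK := Ideal.iInf_pow_smul_eq_bot_of_isLocalRing (R := R) (M := R ⧸ 𝔮)
    (maximalIdeal R) (Ideal.IsPrime.ne_top inferInstance)
  have hmem : (Ideal.Quotient.mk 𝔮 x : R ⧸ 𝔮) ∈
      (⨅ i : ℕ, (maximalIdeal R) ^ i • (⊤ : Submodule R (R ⧸ 𝔮))) := by
    rw [Submodule.mem_iInf]
    intro j
    obtain ⟨y, hy, r, hxr⟩ := key j
    have h1 : (Ideal.Quotient.mk 𝔮 x : R ⧸ 𝔮)
        = (algebraMap O R π ^ j) • (Ideal.Quotient.mk 𝔮 r : R ⧸ 𝔮) := by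
      rw [hxr, map_add, Ideal.Quotient.eq_zero_iff_mem.mpr hy, zero_add, map_mul]
      rfl
    rw [h1]
    exact Submodule.smul_mem_smul (Ideal.pow_mem_pow hπn j) Submodule.mem_top
  rw [hK] at hmem
  exact Ideal.Quotient.eq_zero_iff_mem.mp ((Submodule.mem_bot _).mp hmem)

/-- **(ii) The section is determined by its first coordinate**: any other point
`φ' : R →ₐ[O] Ω` with the same value at `T` is `φ`. -/
theorem S34N_unique {π Q : O} (hπ : π ≠ 0) (hQ : Q ≠ 0) {T S c : R}
    (hn : maximalIdeal R = Ideal.span ({algebraMap O R π, T, S} : Set R))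
    (hTS : T * S = algebraMap O R Q * c) (hc : IsUnit c)
    (φ : R →ₐ[O] O) (ha : π ∣ φ T) (hb : π ∣ φ S)
    {Ω : Type*} [CommRing Ω] [IsDomain Ω] [Algebra O Ω]
    (hinj : Function.Injective (algebraMap O Ω))
    (φ' : R →ₐ[O] Ω) (h : φ' T = algebraMap O Ω (φ T)) (x : R) :
    φ' x = algebraMap O Ω (φ x) := by
  obtain ⟨a'', haa, ha'', h0⟩ := S34N_exists_second hTS hc φ hb
  have hker := S34N_ker hπ hn φ ha ha'' h0
  have ha0 : φ T ≠ 0 := by
    intro h1
    rw [h1, zero_mul] at haa
    exact hQ haa.symm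
  have ha0' : algebraMap O Ω (φ T) ≠ 0 := by
    intro h1
    exact ha0 (hinj (by rw [h1, map_zero]))
  -- `φ'` kills both generators
  have h1 : φ' (T - algebraMap O R (φ T)) = 0 := by
    rw [map_sub, φ'.commutes, h, sub_self]
  have h2 : φ' (S - algebraMap O R a'' * c) = 0 := by
    have h3 := congrArg φ' (S34N_identity hTS haa)
    rw [map_mul, map_neg, map_mul, h1, zero_mul, neg_zero, φ'.commutes] at h3
    rcases mul_eq_zero.mp h3 with h4 | h4
    · exact absurd h4 ha0'
    · exact h4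
  have hle : RingHom.ker (φ : R →+* O) ≤ RingHom.ker (φ' : R →+* Ω) := by
    rw [hker, Ideal.span_le]
    intro y hy
    simp only [S34N_gens, Set.mem_insert_iff, Set.mem_singleton_iff] at hy
    rcases hy with rfl | rfl
    · exact h1
    · exact h2
  have h5 : x - algebraMap O R (φ x) ∈ RingHom.ker (φ : R →+* O) := by
    show φ (x - algebraMap O R (φ x)) = 0
    rw [map_sub, φ.commutes]
    exact sub_self _
  have h6 : φ' (x - algebraMap O R (φ x)) = 0 := hle h5
  rw [map_sub, φ'.commutes, sub_eq_zero] at h6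
  exact h6

/-- The kernel of a section through a node, all in one: generators, and simplicity of the zero
of `T - a`. -/
theorem S34N_node {π Q : O} (hπ : π ≠ 0) {T S c : R}
    (hn : maximalIdeal R = Ideal.span ({algebraMap O R π, T, S} : Set R))
    (hTS : T * S = algebraMap O R Q * c) (hc : IsUnit c)
    (φ : R →ₐ[O] O) (ha : π ∣ φ T) (hb : π ∣ φ S) :
    ∃ a'' : O, φ T * a'' = Q ∧ π ∣ a'' ∧
      RingHom.ker (φ : R →+* O) = Ideal.span (S34N_gens T S c (φ T) a'') ∧
      ∀ x ∈ RingHom.ker (φ : R →+* O),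
        ∃ r : R, algebraMap O R (φ T) * x = r * (T - algebraMap O R (φ T)) := by
  obtain ⟨a'', haa, ha'', h0⟩ := S34N_exists_second hTS hc φ hb
  have hker := S34N_ker hπ hn φ ha ha'' h0
  refine ⟨a'', haa, ha'', hker, fun x hx => ?_⟩
  rw [hker] at hx
  exact S34N_simple hTS haa hx

end Node

end Fermat.Agent.S34_helper17_NODE
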