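import Mathlib

/-!
# S34, piece (N2): transversality of the two components at a node (abstract form)

Pure commutative algebra (Mathlib only).

* `S34N2_kill` : if `t ∈ m` and `t ^ n - t ∈ I` (`n ≥ 2`) then `t` lies in `I` locally at `m`.
* `S34N2_frob_sub` : the relation `a ^ (q ^ k) ≡ a` modulo an ideal containing `q` passes to
  differences.
* `S34N2_transversal` : if `m` is generated modulo `Pinf` by elements `a - c` with
  `a ^ (q^2) ≡ a`, `c ^ (q^2) ≡ c` modulo `Pinf ⊔ P0`, then `m = Pinf ⊔ P0` locally at `m`.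
* `S34N2_node` : the local structure of an ordinary node: `m = (π, x, y)` locally at `m` with
  `x ∈ P0`, `y ∈ Pinf`, `x * y ∈ (π)` locally.
-/

set_option autoImplicit false

namespace Fermat.Agent.S34_helper4_N2

variable {A : Type*} [CommRing A]

/-- If `t ∈ m`, `n ≥ 2` and `t ^ n - t ∈ I`, then `s * t ∈ I` for some `s ∉ m`. -/
theorem S34N2_kill (I m : Ideal A) (hm : m.IsPrime) (t : A) (ht : t ∈ m) (n : ℕ) (hn : 2 ≤ n)
    (h : t ^ n - t ∈ I) : ∃ s : A, s ∉ m ∧ s * t ∈ I := by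
  refine ⟨1 - t ^ (n - 1), ?_, ?_⟩
  · intro hs
    have h1 : t ^ (n - 1) ∈ m := Ideal.pow_mem_of_mem m ht (n - 1) (by omega)
    have : (1 : A) ∈ m := by
      have := m.add_mem hs h1
      simpa using this
    exact hm.ne_top ((Ideal.eq_top_iff_one m).2 this)
  · have h2 : (1 - t ^ (n - 1)) * t = -(t ^ n - t) := by
      have : t ^ n = t ^ (n - 1) * t := by
        rw [← pow_succ]; congr 1; omega
      rw [this]; ring
    rw [h2]
    exact I.neg_mem h

/-- Modulo an ideal containing the prime `q`, `x ↦ x ^ (q ^ k)` is additive. -/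
theorem S34N2_sub_pow_mem (I : Ideal A) (q : ℕ) (hq : q.Prime) (hqI : (q : A) ∈ I) (k : ℕ)
    (a c : A) : (a - c) ^ (q ^ k) - (a ^ (q ^ k) - c ^ (q ^ k)) ∈ I := by
  by_cases hI : I = ⊤
  · rw [hI]; trivial
  have hfact : Fact q.Prime := ⟨hq⟩
  have hnt : Nontrivial (A ⧸ I) := Ideal.Quotient.nontrivial_iff.2 hI
  have hchar : CharP (A ⧸ I) q := by
    have h0 : ((q : ℕ) : A ⧸ I) = 0 := by
      have : (Ideal.Quotient.mk I) (q : A) = 0 := Ideal.Quotient.eq_zero_iff_mem.2 hqI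
      simpa using this
    exact (CharP.charP_iff_prime_eq_zero hq).2 h0
  rw [← Ideal.Quotient.eq_zero_iff_mem]
  simp only [map_sub, map_pow]
  rw [sub_pow_char_pow, sub_self]

/-- The relation `a ^ (q ^ k) ≡ a (mod I)` passes to differences when `q ∈ I`. -/
theorem S34N2_frob_sub (I : Ideal A) (q : ℕ) (hq : q.Prime) (hqI : (q : A) ∈ I) (k : ℕ)
    (a c : A) (ha : a ^ (q ^ k) - a ∈ I) (hc : c ^ (q ^ k) - c ∈ I) :
    (a - c) ^ (q ^ k) - (a - c) ∈ I := by
  have h1 := S34N2_sub_pow_mem I q hq hqI k a c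
  have h2 : (a - c) ^ (q ^ k) - (a - c) =
      ((a - c) ^ (q ^ k) - (a ^ (q ^ k) - c ^ (q ^ k))) + (a ^ (q ^ k) - a) - (c ^ (q ^ k) - c) := by
    ring
  rw [h2]
  exact I.sub_mem (I.add_mem h1 ha) hc

/-- The set of elements of `A` which lie in `I` locally at the prime `m`. -/
def S34N2_locMem (I m : Ideal A) (b : A) : Prop := ∃ s : A, s ∉ m ∧ s * b ∈ I

theorem S34N2_locMem_of_mem (I m : Ideal A) (hm : m.IsPrime) {b : A} (hb : b ∈ I) :
    S34N2_locMem I m b :=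
  ⟨1, fun h => hm.ne_top ((Ideal.eq_top_iff_one m).2 h), by simpa using hb⟩

theorem S34N2_locMem_add (I m : Ideal A) (hm : m.IsPrime) {b c : A}
    (hb : S34N2_locMem I m b) (hc : S34N2_locMem I m c) : S34N2_locMem I m (b + c) := by
  obtain ⟨s, hs, hsb⟩ := hb
  obtain ⟨t, ht, htc⟩ := hc
  refine ⟨s * t, fun h => (hm.mem_or_mem h).elim hs ht, ?_⟩
  have : s * t * (b + c) = t * (s * b) + s * (t * c) := by ring
  rw [this]
  exact I.add_mem (I.mul_mem_left _ hsb) (I.mul_mem_left _ htc)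

theorem S34N2_locMem_mul_left (I m : Ideal A) {b : A} (r : A)
    (hb : S34N2_locMem I m b) : S34N2_locMem I m (r * b) := by
  obtain ⟨s, hs, hsb⟩ := hb
  refine ⟨s, hs, ?_⟩
  have : s * (r * b) = r * (s * b) := by ring
  rw [this]
  exact I.mul_mem_left _ hsb

theorem S34N2_locMem_span (I m : Ideal A) (hm : m.IsPrime) (T : Set A)
    (hT : ∀ t ∈ T, S34N2_locMem I m t) {b : A} (hb : b ∈ Ideal.span T) :
    S34N2_locMem I m b := by
  induction hb using Submodule.span_induction with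
  | mem x hx => exact hT x hx
  | zero => exact S34N2_locMem_of_mem I m hm I.zero_mem
  | add x y _ _ hx hy => exact S34N2_locMem_add I m hm hx hy
  | smul r x _ hx => exact S34N2_locMem_mul_left I m r hx

/-- **Transversality.**  `Pinf`, `P0` ideals contained in the maximal (prime) ideal `m`,
`q ∈ Pinf ⊔ P0`.  If `m` is generated modulo `Pinf` by a set `T ⊆ m` of elements satisfying
`t ^ (q ^ 2) ≡ t` modulo `Pinf ⊔ P0`, then every element of `m` lies in `Pinf ⊔ P0`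
locally at `m`. -/
theorem S34N2_transversal (Pinf P0 m : Ideal A) (hm : m.IsPrime) (q : ℕ) (hq : q.Prime)
    (T : Set A) (hTm : ∀ t ∈ T, t ∈ m)
    (hT : ∀ t ∈ T, t ^ (q ^ 2) - t ∈ Pinf ⊔ P0)
    (hgen : ∀ b ∈ m, b ∈ Pinf ⊔ Ideal.span T) :
    ∀ b ∈ m, S34N2_locMem (Pinf ⊔ P0) m b := by
  intro b hb
  obtain ⟨u, hu, v, hv, rfl⟩ := Submodule.mem_sup.1 (hgen b hb)
  refine S34N2_locMem_add _ m hm
    (S34N2_locMem_of_mem _ m hm (Ideal.mem_sup_left hu)) ?_
  refine S34N2_locMem_span _ m hm T (fun t ht => ?_) hv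
  have h2 : 2 ≤ q ^ 2 := by
    have := hq.two_le
    nlinarith
  exact S34N2_kill _ m hm t (hTm t ht) (q ^ 2) h2 (hT t ht)

/-- Variant of `S34N2_transversal` with generators of the form `a - c`: `a` ranges over a set `C`
with `a ^ (q^2) ≡ a`, and `c` is a "Teichmüller constant" with `c ^ (q^2) ≡ c`. -/
theorem S34N2_transversal' (Pinf P0 m : Ideal A) (hm : m.IsPrime) (q : ℕ) (hq : q.Prime)
    (hqI : (q : A) ∈ Pinf ⊔ P0)
    (C : Set A) (hC : ∀ a ∈ C, a ^ (q ^ 2) - a ∈ Pinf ⊔ P0)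
    (cst : A → A) (hcst : ∀ a ∈ C, cst a ^ (q ^ 2) - cst a ∈ Pinf ⊔ P0)
    (hval : ∀ a ∈ C, a - cst a ∈ m)
    (hgen : ∀ b ∈ m, b ∈ Pinf ⊔ Ideal.span ((fun a => a - cst a) '' C)) :
    ∀ b ∈ m, S34N2_locMem (Pinf ⊔ P0) m b := by
  refine S34N2_transversal Pinf P0 m hm q hq ((fun a => a - cst a) '' C) ?_ ?_ hgen
  · rintro _ ⟨a, ha, rfl⟩
    exact hval a ha
  · rintro _ ⟨a, ha, rfl⟩
    exact S34N2_frob_sub _ q hq hqI 2 a (cst a) (hC a ha) (hcst a ha)

/-! ## the ideal of elements lying in `K` locally at a prime `m` -/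

/-- `S34N2_loc K m` is the contraction to `A` of the extension of `K` to the localisation `A_m`:
the ideal of all `b` with `s * b ∈ K` for some `s ∉ m`. -/
def S34N2_loc (K m : Ideal A) (hm : m.IsPrime) : Ideal A where
  carrier := {b | S34N2_locMem K m b}
  add_mem' := fun hb hc => S34N2_locMem_add K m hm hb hc
  zero_mem' := S34N2_locMem_of_mem K m hm K.zero_mem
  smul_mem' := fun r _ hb => S34N2_locMem_mul_left K m r hb

theorem S34N2_mem_loc {K m : Ideal A} {hm : m.IsPrime} {b : A} :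
    b ∈ S34N2_loc K m hm ↔ ∃ s : A, s ∉ m ∧ s * b ∈ K := Iff.rfl

theorem S34N2_le_loc (K m : Ideal A) (hm : m.IsPrime) : K ≤ S34N2_loc K m hm :=
  fun _ hb => S34N2_locMem_of_mem K m hm hb

theorem S34N2_loc_mono {K K' : Ideal A} (h : K ≤ K') (m : Ideal A) (hm : m.IsPrime) :
    S34N2_loc K m hm ≤ S34N2_loc K' m hm := by
  rintro b ⟨s, hs, hsb⟩
  exact ⟨s, hs, h hsb⟩

/-- `S34N2_loc K m` is saturated with respect to the complement of `m`. -/
theorem S34N2_loc_sat (K m : Ideal A) (hm : m.IsPrime) {b s : A} (hs : s ∉ m)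
    (hb : s * b ∈ S34N2_loc K m hm) : b ∈ S34N2_loc K m hm := by
  obtain ⟨t, ht, htb⟩ := hb
  refine ⟨t * s, fun h => (hm.mem_or_mem h).elim ht hs, ?_⟩
  rw [mul_assoc]
  exact htb

theorem S34N2_loc_loc (K m : Ideal A) (hm : m.IsPrime) :
    S34N2_loc (S34N2_loc K m hm) m hm = S34N2_loc K m hm := by
  apply le_antisymm
  · rintro b ⟨s, hs, hsb⟩
    exact S34N2_loc_sat K m hm hs hsb
  · exact S34N2_le_loc _ m hm

/-- If `J ≤ loc K` then `loc J ≤ loc K`. -/
theorem S34N2_loc_le {J K m : Ideal A} {hm : m.IsPrime} (h : J ≤ S34N2_loc K m hm) :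
    S34N2_loc J m hm ≤ S34N2_loc K m hm := by
  rw [← S34N2_loc_loc K m hm]
  exact S34N2_loc_mono h m hm

/-- **Transversality, one-relation form** (variant suggested by helper1): if `m` is generated
modulo `Pinf` by ONE element `x₀` (locally at `m`) and `x₀` is a `q`-th power modulo `Pinf ⊔ P0`
for some `q ≥ 2`, then `m = Pinf ⊔ P0` locally at `m`. -/
theorem S34N2_transversal_frob (Pinf P0 m : Ideal A) (hm : m.IsPrime)
    (hinfm : Pinf ≤ m) (h0m : P0 ≤ m) (q : ℕ) (hq : 2 ≤ q)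
    (x₀ : A) (hx₀m : x₀ ∈ m) (hx₀ : m ≤ S34N2_loc (Pinf ⊔ Ideal.span {x₀}) m hm)
    (b : A) (hb : x₀ - b ^ q ∈ Pinf ⊔ P0) :
    m ≤ S34N2_loc (Pinf ⊔ P0) m hm := by
  have hsupm : Pinf ⊔ P0 ≤ m := sup_le hinfm h0m
  -- `b ∈ m`
  have hbm : b ∈ m := by
    have h1 : b ^ q ∈ m := by
      have : b ^ q = x₀ - (x₀ - b ^ q) := by ring
      rw [this]
      exact m.sub_mem hx₀m (hsupm hb)
    exact hm.mem_of_pow_mem q h1
  -- `s * b = a + r * x₀`
  obtain ⟨s, hs, hsb⟩ := hx₀ hbm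
  obtain ⟨a, ha, v, hv, hav⟩ := Submodule.mem_sup.1 hsb
  obtain ⟨r, rfl⟩ := Ideal.mem_span_singleton'.1 hv
  -- `(s * b) ^ q ≡ (r * x₀) ^ q` modulo `Pinf`
  have h2 : (s * b) ^ q - (r * x₀) ^ q ∈ Pinf := by
    have hdvd : (s * b) - (r * x₀) ∣ (s * b) ^ q - (r * x₀) ^ q := sub_dvd_pow_sub_pow _ _ q
    obtain ⟨c, hc⟩ := hdvd
    rw [hc]
    have : s * b - r * x₀ = a := by rw [← hav]; ring
    rw [this]
    exact Pinf.mul_mem_right _ ha
  -- the unit `s ^ q - r ^ q * x₀ ^ (q - 1)`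
  have hx₀loc : x₀ ∈ S34N2_loc (Pinf ⊔ P0) m hm := by
    refine ⟨s ^ q - r ^ q * x₀ ^ (q - 1), ?_, ?_⟩
    · intro h
      have h3 : r ^ q * x₀ ^ (q - 1) ∈ m :=
        m.mul_mem_left _ (Ideal.pow_mem_of_mem m hx₀m (q - 1) (by omega))
      have h4 : s ^ q ∈ m := by
        have := m.add_mem h h3
        simpa using this
      exact hs (hm.mem_of_pow_mem q h4)
    · have hx : x₀ ^ q = x₀ ^ (q - 1) * x₀ := by
        rw [← pow_succ]; congr 1; omega
      have h5 : (s ^ q - r ^ q * x₀ ^ (q - 1)) * x₀ =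
          s ^ q * (x₀ - b ^ q) + ((s * b) ^ q - (r * x₀) ^ q) := by
        rw [mul_pow, mul_pow, hx]; ring
      rw [h5]
      exact Submodule.add_mem _ (Ideal.mul_mem_left _ _ hb) (Ideal.mem_sup_left h2)
  refine hx₀.trans (S34N2_loc_le (sup_le ?_ ?_))
  · exact le_sup_left.trans (S34N2_le_loc _ m hm)
  · rw [Ideal.span_le, Set.singleton_subset_iff]
    exact hx₀loc

/-- **Local structure of an ordinary node.**  Let `Pinf`, `P0 ≤ m` be ideals with
`Pinf ⊓ P0 = (π)` locally at `m`, such that `m` is principal modulo `Pinf` and modulo `P0`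
(locally at `m`), and such that `m = Pinf ⊔ P0` locally at `m` (transversality).  Then there are
`x ∈ P0`, `y ∈ Pinf` with `m = (π, x, y)`, `P0 = (π, x)`, `Pinf = (π, y)` and `x * y ∈ (π)`,
all locally at `m`. -/
theorem S34N2_node (π : A) (Pinf P0 m : Ideal A) (hm : m.IsPrime)
    (hinfm : Pinf ≤ m) (h0m : P0 ≤ m)
    (hint : Pinf ⊓ P0 ≤ S34N2_loc (Ideal.span {π}) m hm)
    (hdvrinf : ∃ x₀ ∈ m, m ≤ S34N2_loc (Pinf ⊔ Ideal.span {x₀}) m hm)
    (hdvr0 : ∃ y₀ ∈ m, m ≤ S34N2_loc (P0 ⊔ Ideal.span {y₀}) m hm)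
    (htr : m ≤ S34N2_loc (Pinf ⊔ P0) m hm) :
    ∃ x ∈ P0, ∃ y ∈ Pinf,
      m ≤ S34N2_loc (Ideal.span {π, x, y}) m hm ∧
      P0 ≤ S34N2_loc (Ideal.span {π, x}) m hm ∧
      Pinf ≤ S34N2_loc (Ideal.span {π, y}) m hm ∧
      m ≤ S34N2_loc (Pinf ⊔ Ideal.span {x}) m hm ∧
      m ≤ S34N2_loc (P0 ⊔ Ideal.span {y}) m hm ∧
      x * y ∈ S34N2_loc (Ideal.span {π}) m hm := by
  obtain ⟨x₀, hx₀m, hx₀⟩ := hdvrinf
  obtain ⟨y₀, hy₀m, hy₀⟩ := hdvr0
  obtain ⟨s, hs, hsx⟩ := htr hx₀m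
  obtain ⟨a, ha, x, hx, hax⟩ := Submodule.mem_sup.1 hsx
  obtain ⟨t, ht, hty⟩ := htr hy₀m
  obtain ⟨y, hy, c, hc, hyc⟩ := Submodule.mem_sup.1 hty
  -- `m = Pinf + (x)` locally
  have hmx : m ≤ S34N2_loc (Pinf ⊔ Ideal.span {x}) m hm := by
    refine hx₀.trans (S34N2_loc_le (sup_le ?_ ?_))
    · exact le_sup_left.trans (S34N2_le_loc _ m hm)
    · rw [Ideal.span_le, Set.singleton_subset_iff]
      refine ⟨s, hs, ?_⟩
      rw [← hax]
      exact Submodule.add_mem _ (Ideal.mem_sup_left ha)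
        (Ideal.mem_sup_right (Ideal.subset_span rfl))
  -- `m = P0 + (y)` locally
  have hmy : m ≤ S34N2_loc (P0 ⊔ Ideal.span {y}) m hm := by
    refine hy₀.trans (S34N2_loc_le (sup_le ?_ ?_))
    · exact le_sup_left.trans (S34N2_le_loc _ m hm)
    · rw [Ideal.span_le, Set.singleton_subset_iff]
      refine ⟨t, ht, ?_⟩
      rw [← hyc]
      rw [add_comm]
      exact Submodule.add_mem _ (Ideal.mem_sup_left hc)
        (Ideal.mem_sup_right (Ideal.subset_span rfl))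
  -- `P0 = (π, x)` locally
  have hP0 : P0 ≤ S34N2_loc (Ideal.span {π, x}) m hm := by
    intro b hb
    obtain ⟨s', hs', hsb⟩ := hmx (h0m hb)
    obtain ⟨a', ha', v, hv, hav⟩ := Submodule.mem_sup.1 hsb
    obtain ⟨r, rfl⟩ := Ideal.mem_span_singleton'.1 hv
    apply S34N2_loc_sat _ m hm hs'
    rw [← hav]
    refine Submodule.add_mem _ ?_ ?_
    · have ha0 : a' ∈ P0 := by
        have : a' = s' * b - r * x := by rw [← hav]; ring
        rw [this]
        exact P0.sub_mem (P0.mul_mem_left _ hb) (P0.mul_mem_left _ hx)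
      refine S34N2_loc_mono ?_ m hm (hint ⟨ha', ha0⟩)
      exact Ideal.span_mono (by simp)
    · exact S34N2_le_loc _ m hm (Ideal.mul_mem_left _ _ (Ideal.subset_span (by simp)))
  -- `Pinf = (π, y)` locally
  have hPinf : Pinf ≤ S34N2_loc (Ideal.span {π, y}) m hm := by
    intro b hb
    obtain ⟨s', hs', hsb⟩ := hmy (hinfm hb)
    obtain ⟨a', ha', v, hv, hav⟩ := Submodule.mem_sup.1 hsb
    obtain ⟨r, rfl⟩ := Ideal.mem_span_singleton'.1 hv
    apply S34N2_loc_sat _ m hm hs'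
    rw [← hav]
    refine Submodule.add_mem _ ?_ ?_
    · have hainf : a' ∈ Pinf := by
        have : a' = s' * b - r * y := by rw [← hav]; ring
        rw [this]
        exact Pinf.sub_mem (Pinf.mul_mem_left _ hb) (Pinf.mul_mem_left _ hy)
      refine S34N2_loc_mono ?_ m hm (hint ⟨hainf, ha'⟩)
      exact Ideal.span_mono (by simp)
    · exact S34N2_le_loc _ m hm (Ideal.mul_mem_left _ _ (Ideal.subset_span (by simp)))
  refine ⟨x, hx, y, hy, ?_, hP0, hPinf, hmx, hmy, ?_⟩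
  · -- `m = (π, x, y)` locally
    refine hmx.trans (S34N2_loc_le (sup_le ?_ ?_))
    · refine hPinf.trans (S34N2_loc_mono (Ideal.span_mono ?_) m hm)
      intro z hz
      rcases hz with rfl | rfl
      · simp
      · simp
    · rw [Ideal.span_le, Set.singleton_subset_iff]
      exact S34N2_le_loc _ m hm (Ideal.subset_span (by simp))
  · exact hint ⟨Pinf.mul_mem_left _ hy, P0.mul_mem_right _ hx⟩

end Fermat.Agent.S34_helper4_N2
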