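import Mathlib
import Fermat.Agent.S18_helper3_LOCRING
import Fermat.Agent.S34_helper4_N2
import Fermat.Agent.S34_helper17_NODE

/-!
# S34, the node adapter: from the chart (ideal form) to the local ring

`S34N2_node` (helper4) describes a crossing point `m` of a chart `A` by ideals of `A`
("locally at `m`" is expressed by `S34N2_loc`).  The node lemmas (`S34_helper17_NODE`,
helper26's `UNIQ`, helper7's `LGEN`) are stated for a local ring `R`.  This file is the glue,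
for `R := locRing A m` (`S18_helper3_LOCRING`):

* `S34NA_incl_mem_map`, `S34NA_maximalIdeal_eq_map`, `S34NA_maximalIdeal_eq_span3`,
  `S34NA_maximalIdeal_eq_span2`, `S34NA_mul_eq`: ideal form ⟹ local ring form;
* `S34NA_notMem_of_ne`: the coordinate `x` of the branch `Pinf` does not vanish on `Pinf`;
* `S34NA_iterate`: the iteration of `S34N_iterate` inside `locRing A m`;
* `S34NA_locMap`: the ring homomorphism `locRing A₀ m₀ → locRing A₁ m₁` induced by a field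
  homomorphism `Φ` with `Φ A₀ ⊆ A₁`, `m₀ = Φ⁻¹ m₁`, and `S34NA_transport`: transport of the node
  coordinates along it.
-/

set_option autoImplicit false
set_option linter.unusedSectionVars false
set_option linter.unusedVariables false

open IsLocalRing

namespace Fermat.Agent.S34_helper17_NADAPT

open Fermat.Agent.S18_helper3_LOCRING Fermat.Agent.S34_helper4_N2
  Fermat.Agent.S34_helper17_NODE

variable {L : Type*} [Field L]

section Generic

variable (A : Subring L) (m : Ideal A) [hm : m.IsPrime]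

/-- An element of `A` outside `m` is a unit of the local ring. -/
theorem S34NA_isUnit_incl {s : A} (hs : s ∉ m) : IsUnit (incl A m s) := by
  refine IsUnit.of_mul_eq_one (⟨((s : L))⁻¹, inv_mem_locRing A m hs⟩ : locRing A m) ?_
  apply Subtype.ext
  show (s : L) * ((s : L))⁻¹ = 1
  exact mul_inv_cancel₀ (coe_ne_zero_of_notMem A m hs)

/-- Ideal form ⟹ local ring form: an element lying in `K` locally at `m` lies in the extension
of `K` to the local ring. -/
theorem S34NA_incl_mem_map {K : Ideal A} {b : A} (hb : b ∈ S34N2_loc K m hm) :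
    incl A m b ∈ Ideal.map (incl A m) K := by
  obtain ⟨s, hs, hsb⟩ := hb
  obtain ⟨u, hu⟩ := S34NA_isUnit_incl A m hs
  have h1 : incl A m (s * b) ∈ Ideal.map (incl A m) K := Ideal.mem_map_of_mem _ hsb
  have h2 : incl A m b = ((u⁻¹ : (locRing A m)ˣ) : locRing A m) * incl A m (s * b) := by
    rw [map_mul, ← hu, ← mul_assoc, Units.inv_mul, one_mul]
  rw [h2]
  exact Ideal.mul_mem_left _ _ h1

/-- The maximal ideal of the local ring is the extension of `m`. -/
theorem S34NA_maximalIdeal_eq_map :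
    maximalIdeal (locRing A m) = Ideal.map (incl A m) m := by
  apply le_antisymm
  · intro y hy
    obtain ⟨a, c, ha, hc, hac⟩ := (mem_maximalIdeal_iff A m y).1 hy
    obtain ⟨u, hu⟩ := S34NA_isUnit_incl A m hc
    have h2 : y = ((u⁻¹ : (locRing A m)ˣ) : locRing A m) * incl A m a := by
      have h3 : y * incl A m c = incl A m a := Subtype.ext hac
      rw [← h3, ← hu, mul_comm y, ← mul_assoc, Units.inv_mul, one_mul]
    rw [h2]
    exact Ideal.mul_mem_left _ _ (Ideal.mem_map_of_mem _ ha)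
  · rw [Ideal.map_le_iff_le_comap]
    intro a ha
    exact incl_mem_maximalIdeal A m ha

/-- If `m ≤ K` locally at `m` and `K ≤ m`, the maximal ideal of the local ring is the extension
of `K`. -/
theorem S34NA_maximalIdeal_eq_map_of_le {K : Ideal A} (hK : K ≤ m)
    (h : m ≤ S34N2_loc K m hm) :
    maximalIdeal (locRing A m) = Ideal.map (incl A m) K := by
  rw [S34NA_maximalIdeal_eq_map]
  apply le_antisymm
  · rw [Ideal.map_le_iff_le_comap]
    intro a ha
    exact S34NA_incl_mem_map A m (h ha)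
  · exact Ideal.map_mono hK

/-- **Three generators**: `m = (π, x, y)` locally at `m` ⟹ the maximal ideal of the local ring
is `(π, x, y)`. -/
theorem S34NA_maximalIdeal_eq_span3 {π x y : A} (hπ : π ∈ m) (hx : x ∈ m) (hy : y ∈ m)
    (h : m ≤ S34N2_loc (Ideal.span {π, x, y}) m hm) :
    maximalIdeal (locRing A m) =
      Ideal.span ({incl A m π, incl A m x, incl A m y} : Set (locRing A m)) := by
  have hK : Ideal.span ({π, x, y} : Set A) ≤ m := by
    rw [Ideal.span_le]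
    intro z hz
    simp only [Set.mem_insert_iff, Set.mem_singleton_iff] at hz
    rcases hz with rfl | rfl | rfl
    exacts [hπ, hx, hy]
  rw [S34NA_maximalIdeal_eq_map_of_le A m hK h, Ideal.map_span]
  congr 1
  ext z
  simp only [Set.mem_image, Set.mem_insert_iff, Set.mem_singleton_iff]
  constructor
  · rintro ⟨w, hw | hw | hw, rfl⟩
    · exact Or.inl (by rw [hw])
    · exact Or.inr (Or.inl (by rw [hw]))
    · exact Or.inr (Or.inr (by rw [hw]))
  · rintro (rfl | rfl | rfl)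
    · exact ⟨π, Or.inl rfl, rfl⟩
    · exact ⟨x, Or.inr (Or.inl rfl), rfl⟩
    · exact ⟨y, Or.inr (Or.inr rfl), rfl⟩

/-- **Two generators** (regular point): `m = (π, t)` locally at `m` ⟹ the maximal ideal of the
local ring is `(π, t)`. -/
theorem S34NA_maximalIdeal_eq_span2 {π t : A} (hπ : π ∈ m) (ht : t ∈ m)
    (h : m ≤ S34N2_loc (Ideal.span {π, t}) m hm) :
    maximalIdeal (locRing A m) =
      Ideal.span ({incl A m π, incl A m t} : Set (locRing A m)) := by
  have hK : Ideal.span ({π, t} : Set A) ≤ m := by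
    rw [Ideal.span_le]
    intro z hz
    simp only [Set.mem_insert_iff, Set.mem_singleton_iff] at hz
    rcases hz with rfl | rfl
    exacts [hπ, ht]
  rw [S34NA_maximalIdeal_eq_map_of_le A m hK h, Ideal.map_span]
  congr 1
  ext z
  simp only [Set.mem_image, Set.mem_insert_iff, Set.mem_singleton_iff]
  constructor
  · rintro ⟨w, hw | hw, rfl⟩
    · exact Or.inl (by rw [hw])
    · exact Or.inr (by rw [hw])
  · rintro (rfl | rfl)
    · exact ⟨π, Or.inl rfl, rfl⟩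
    · exact ⟨t, Or.inr rfl, rfl⟩

/-- `x y ∈ (π)` locally at `m` ⟹ `x y = π c` in the local ring. -/
theorem S34NA_mul_eq {π x y : A} (hxy : x * y ∈ S34N2_loc (Ideal.span {π}) m hm) :
    ∃ c : locRing A m, incl A m x * incl A m y = incl A m π * c := by
  have h := S34NA_incl_mem_map A m hxy
  rw [Ideal.map_span, Set.image_singleton, Ideal.mem_span_singleton'] at h
  obtain ⟨c, hc⟩ := h
  exact ⟨c, by rw [map_mul] at hc; rw [← hc, mul_comm]⟩

/-- A prime `P ≤ m` is saturated: `loc P = P`. -/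
theorem S34NA_loc_prime (P : Ideal A) [hP : P.IsPrime] (hPm : P ≤ m) :
    S34N2_loc P m hm = P := by
  apply le_antisymm
  · rintro b ⟨s, hs, hsb⟩
    rcases hP.mem_or_mem hsb with h | h
    · exact absurd (hPm h) hs
    · exact h
  · exact S34N2_le_loc P m hm

/-- The coordinate `x` of the branch `P` (`m = P + (x)` locally) does not lie in `P`, unless
`P = m`. -/
theorem S34NA_notMem_of_ne (P : Ideal A) [hP : P.IsPrime] (hPm : P ≤ m) (hne : P ≠ m) {x : A}
    (h : m ≤ S34N2_loc (P ⊔ Ideal.span {x}) m hm) : x ∉ P := by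
  intro hx
  apply hne
  apply le_antisymm hPm
  have h1 : P ⊔ Ideal.span {x} = P := by
    rw [sup_eq_left, Ideal.span_le, Set.singleton_subset_iff]
    exact hx
  rw [h1, S34NA_loc_prime A m P hPm] at h
  exact h

/-- **The iteration inside the local ring**: from `m = (π, x, y)` and `x y ∈ (π)` locally at `m`,
for every bound `B` either a normal form `T S = π ^ k · unit` with `1 ≤ k ≤ B` is reached, or
`T S ∈ π ^ (B + 1) R` for suitable coordinates `T ≡ x`, `S ≡ y` modulo `π`; in both cases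
`(π, T, S)` is the maximal ideal. -/
theorem S34NA_iterate {π x y : A} (hπ : π ∈ m) (hx : x ∈ m) (hy : y ∈ m)
    (h : m ≤ S34N2_loc (Ideal.span {π, x, y}) m hm)
    (hxy : x * y ∈ S34N2_loc (Ideal.span {π}) m hm) (B : ℕ) :
    (∃ k : ℕ, 1 ≤ k ∧ k ≤ B ∧ ∃ T S c : locRing A m, IsUnit c ∧
        T * S = incl A m π ^ k * c ∧ incl A m π ∣ T - incl A m x ∧
        incl A m π ∣ S - incl A m y ∧
        maximalIdeal (locRing A m) = Ideal.span ({incl A m π, T, S} : Set (locRing A m))) ∨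
      (∃ T S c : locRing A m, T * S = incl A m π ^ (B + 1) * c ∧
        incl A m π ∣ T - incl A m x ∧ incl A m π ∣ S - incl A m y ∧
        maximalIdeal (locRing A m) = Ideal.span ({incl A m π, T, S} : Set (locRing A m))) := by
  have hn := S34NA_maximalIdeal_eq_span3 A m hπ hx hy h
  obtain ⟨c₁, hc₁⟩ := S34NA_mul_eq A m hxy
  rcases S34N_iterate hn hc₁ B with ⟨k, hk1, hkB, T, S, c, hc, hTS, hT, hS⟩ |
    ⟨T, S, c, hTS, hT, hS⟩
  · left
    exact ⟨k, hk1, hkB, T, S, c, hc, hTS, hT, hS, by rw [hn]; exact (S34N_span_congr hT hS).symm⟩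
  · right
    exact ⟨T, S, c, hTS, hT, hS, by rw [hn]; exact (S34N_span_congr hT hS).symm⟩

end Generic

/-! ### Change of level -/

section Transport

variable {L₀ L₁ : Type*} [Field L₀] [Field L₁] (Φ : L₀ →+* L₁)
  (A₀ : Subring L₀) (A₁ : Subring L₁) (hΦ : ∀ a ∈ A₀, Φ a ∈ A₁)
  (m₀ : Ideal A₀) [hm₀ : m₀.IsPrime] (m₁ : Ideal A₁) [hm₁ : m₁.IsPrime]
  (hm : ∀ a : A₀, a ∈ m₀ ↔ (⟨Φ a, hΦ a a.2⟩ : A₁) ∈ m₁)

/-- `Φ` restricted to the charts. -/
def S34NA_chartMap : A₀ →+* A₁ :=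
  (Φ.comp A₀.subtype).codRestrict A₁ (fun a => hΦ a a.2)

@[simp] theorem S34NA_chartMap_coe (a : A₀) :
    ((S34NA_chartMap Φ A₀ A₁ hΦ a : A₁) : L₁) = Φ (a : L₀) := rfl

include hm in
theorem S34NA_map_mem_locRing {y : L₀} (hy : y ∈ locRing A₀ m₀) : Φ y ∈ locRing A₁ m₁ := by
  obtain ⟨a, c, hc, hac⟩ := hy
  refine ⟨⟨Φ a, hΦ a a.2⟩, ⟨Φ c, hΦ c c.2⟩, fun h => hc ((hm c).2 h), ?_⟩
  show Φ y * Φ (c : L₀) = Φ (a : L₀)
  rw [← map_mul, hac]

/-- **The map of local rings** `locRing A₀ m₀ → locRing A₁ m₁` induced by `Φ`, when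
`Φ A₀ ⊆ A₁` and `m₀ = Φ⁻¹ m₁`. -/
def S34NA_locMap : locRing A₀ m₀ →+* locRing A₁ m₁ :=
  (Φ.comp (locRing A₀ m₀).subtype).codRestrict (locRing A₁ m₁)
    (fun y => S34NA_map_mem_locRing Φ A₀ A₁ hΦ m₀ m₁ hm y.2)

@[simp] theorem S34NA_locMap_coe (y : locRing A₀ m₀) :
    ((S34NA_locMap Φ A₀ A₁ hΦ m₀ m₁ hm y : locRing A₁ m₁) : L₁) = Φ (y : L₀) := rfl

theorem S34NA_locMap_incl (a : A₀) :
    S34NA_locMap Φ A₀ A₁ hΦ m₀ m₁ hm (incl A₀ m₀ a) =
      incl A₁ m₁ (S34NA_chartMap Φ A₀ A₁ hΦ a) := rfl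

theorem S34NA_locMap_injective : Function.Injective (S34NA_locMap Φ A₀ A₁ hΦ m₀ m₁ hm) := by
  intro y z h
  apply Subtype.ext
  have := congrArg (fun w : locRing A₁ m₁ => (w : L₁)) h
  exact Φ.injective this

/-- The map of local rings is local. -/
theorem S34NA_locMap_mem_maximalIdeal {y : locRing A₀ m₀}
    (hy : y ∈ maximalIdeal (locRing A₀ m₀)) :
    S34NA_locMap Φ A₀ A₁ hΦ m₀ m₁ hm y ∈ maximalIdeal (locRing A₁ m₁) := by
  obtain ⟨a, c, ha, hc, hac⟩ := (mem_maximalIdeal_iff A₀ m₀ y).1 hy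
  refine (mem_maximalIdeal_iff A₁ m₁ _).2
    ⟨⟨Φ a, hΦ a a.2⟩, ⟨Φ c, hΦ c c.2⟩, (hm a).1 ha, fun h => hc ((hm c).2 h), ?_⟩
  show Φ (y : L₀) * Φ (c : L₀) = Φ (a : L₀)
  rw [← map_mul, hac]

/-- **Transport of node coordinates** from the level of `A₀` to the level of `A₁`: if
`T S = π₀ ^ n c` with `T ≡ x`, `S ≡ y` modulo `π₀` in `locRing A₀ m₀`, if `Φ π₀ ∈ π₁ A₁` and if
`(π₁, Φ x, Φ y)` is the maximal ideal of `locRing A₁ m₁`, then the images `T₁`, `S₁` satisfy
`T₁ S₁ = (Φ π₀) ^ n c₁`, `T₁ ≡ Φ x`, `S₁ ≡ Φ y` modulo `π₁`, and `(π₁, T₁, S₁)` is the maximal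
ideal of `locRing A₁ m₁`. -/
theorem S34NA_transport {π₀ x y : A₀} {π₁ : A₁} {T S c : locRing A₀ m₀} {n : ℕ}
    (hπ : ∃ u : A₁, S34NA_chartMap Φ A₀ A₁ hΦ π₀ = π₁ * u)
    (hTS : T * S = incl A₀ m₀ π₀ ^ n * c)
    (hT : incl A₀ m₀ π₀ ∣ T - incl A₀ m₀ x) (hS : incl A₀ m₀ π₀ ∣ S - incl A₀ m₀ y)
    (hn : maximalIdeal (locRing A₁ m₁) = Ideal.span ({incl A₁ m₁ π₁,
      incl A₁ m₁ (S34NA_chartMap Φ A₀ A₁ hΦ x),
      incl A₁ m₁ (S34NA_chartMap Φ A₀ A₁ hΦ y)} : Set (locRing A₁ m₁))) :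
    S34NA_locMap Φ A₀ A₁ hΦ m₀ m₁ hm T * S34NA_locMap Φ A₀ A₁ hΦ m₀ m₁ hm S =
        incl A₁ m₁ (S34NA_chartMap Φ A₀ A₁ hΦ π₀) ^ n * S34NA_locMap Φ A₀ A₁ hΦ m₀ m₁ hm c ∧
      incl A₁ m₁ π₁ ∣ S34NA_locMap Φ A₀ A₁ hΦ m₀ m₁ hm T -
        incl A₁ m₁ (S34NA_chartMap Φ A₀ A₁ hΦ x) ∧
      incl A₁ m₁ π₁ ∣ S34NA_locMap Φ A₀ A₁ hΦ m₀ m₁ hm S -
        incl A₁ m₁ (S34NA_chartMap Φ A₀ A₁ hΦ y) ∧
      maximalIdeal (locRing A₁ m₁) = Ideal.span ({incl A₁ m₁ π₁,
        S34NA_locMap Φ A₀ A₁ hΦ m₀ m₁ hm T,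
        S34NA_locMap Φ A₀ A₁ hΦ m₀ m₁ hm S} : Set (locRing A₁ m₁)) := by
  obtain ⟨u, hu⟩ := hπ
  have hdvd : incl A₁ m₁ π₁ ∣ S34NA_locMap Φ A₀ A₁ hΦ m₀ m₁ hm (incl A₀ m₀ π₀) := by
    rw [S34NA_locMap_incl, hu, map_mul]
    exact Dvd.intro _ rfl
  have h1 : incl A₁ m₁ π₁ ∣ S34NA_locMap Φ A₀ A₁ hΦ m₀ m₁ hm T -
      incl A₁ m₁ (S34NA_chartMap Φ A₀ A₁ hΦ x) := by
    have := map_dvd (S34NA_locMap Φ A₀ A₁ hΦ m₀ m₁ hm) hT
    rw [map_sub, S34NA_locMap_incl] at this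
    exact hdvd.trans this
  have h2 : incl A₁ m₁ π₁ ∣ S34NA_locMap Φ A₀ A₁ hΦ m₀ m₁ hm S -
      incl A₁ m₁ (S34NA_chartMap Φ A₀ A₁ hΦ y) := by
    have := map_dvd (S34NA_locMap Φ A₀ A₁ hΦ m₀ m₁ hm) hS
    rw [map_sub, S34NA_locMap_incl] at this
    exact hdvd.trans this
  refine ⟨?_, h1, h2, ?_⟩
  · have := congrArg (S34NA_locMap Φ A₀ A₁ hΦ m₀ m₁ hm) hTS
    rw [map_mul, map_mul, map_pow, S34NA_locMap_incl] at this
    exact this
  · rw [hn]
    exact (S34N_span_congr h1 h2).symm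

end Transport

/-! ### The base ring -/

section Base

variable (O A : Subring L) (hO : O ≤ A) (m : Ideal A) [hm : m.IsPrime]

/-- The structure map `O → locRing A m` for a subring `O ≤ A`. -/
def S34NA_base : O →+* locRing A m := (incl A m).comp (Subring.inclusion hO)

@[simp] theorem S34NA_base_coe (o : O) : ((S34NA_base O A hO m o : locRing A m) : L) = (o : L) :=
  rfl

/-- `locRing A m` as an algebra over a subring `O ≤ A` (a definition, to be installed with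
`letI`). -/
@[reducible] def S34NA_algebra : Algebra O (locRing A m) := (S34NA_base O A hO m).toAlgebra

end Base

end Fermat.Agent.S34_helper17_NADAPT
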