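import Mathlib
import Fermat.Agent.S34_helper17_NADAPT

/-!
# S34, the node adapter, part 2: coordinates in the chart

The iteration `S34NA_iterate` produces node coordinates `T`, `S` in the local ring
`locRing A m`.  Multiplying by denominators we get coordinates `X`, `Y` **in the chart `A`**:

* `S34NA_exists_chart_mul`: every element of the local ring is `t / s` with `s ∉ m`;
* `S34NA_span_unit_mul`: multiplying the generators by units does not change `(π, T, S)`;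
* `S34NA_contract_dvd`: an element of `A` divisible by `π` in the local ring lies in every prime
  `P ≤ m` containing `π`;
* `S34NA_iterate_chart`: for every bound `B`, either **(STOP)** `X Y = π ^ k · unit` with
  `1 ≤ k ≤ B`, or **(GO)** `X Y ∈ π ^ (B + 1) R`; in both cases `X, Y ∈ A`, `(π, X, Y)` is the
  maximal ideal of the local ring, `X ∈ P0`, `X ∉ Pinf`, `Y ∈ Pinf`, `Y ∉ P0`.

(The alternative **(STOP)** is the one which occurs for the modular curve; nothing in the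
consumers needs to know that.)
-/

set_option autoImplicit false
set_option linter.unusedSectionVars false
set_option linter.unusedVariables false

open IsLocalRing

namespace Fermat.Agent.S34_helper17_NADAPT

open Fermat.Agent.S18_helper3_LOCRING Fermat.Agent.S34_helper4_N2
  Fermat.Agent.S34_helper17_NODE

variable {L : Type*} [Field L] (A : Subring L) (m : Ideal A) [hm : m.IsPrime]

/-- Every element of the local ring is a fraction `t / s` with `s ∉ m`. -/
theorem S34NA_exists_chart_mul (T : locRing A m) :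
    ∃ s t : A, s ∉ m ∧ incl A m t = incl A m s * T := by
  obtain ⟨a, c, hc, hac⟩ := T.2
  refine ⟨c, a, hc, ?_⟩
  apply Subtype.ext
  show (a : L) = (c : L) * (T : L)
  rw [← hac, mul_comm]

/-- Multiplying the last two generators by units does not change the ideal. -/
theorem S34NA_span_unit_mul {R : Type*} [CommRing R] (π T S u v : R) (hu : IsUnit u)
    (hv : IsUnit v) :
    Ideal.span ({π, u * T, v * S} : Set R) = Ideal.span ({π, T, S} : Set R) := by
  obtain ⟨u', rfl⟩ := hu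
  obtain ⟨v', rfl⟩ := hv
  apply le_antisymm
  · rw [Ideal.span_le]
    intro z hz
    simp only [Set.mem_insert_iff, Set.mem_singleton_iff] at hz
    rcases hz with rfl | rfl | rfl
    · exact Ideal.subset_span (by simp)
    · exact Ideal.mul_mem_left _ _ (Ideal.subset_span (by simp))
    · exact Ideal.mul_mem_left _ _ (Ideal.subset_span (by simp))
  · rw [Ideal.span_le]
    intro z hz
    simp only [Set.mem_insert_iff, Set.mem_singleton_iff] at hz
    rcases hz with rfl | rfl | rfl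
    · exact Ideal.subset_span (by simp)
    · have h1 : z = ((u'⁻¹ : Rˣ) : R) * ((u' : R) * z) := by
        rw [← mul_assoc, Units.inv_mul, one_mul]
      rw [h1]
      exact Ideal.mul_mem_left _ _ (Ideal.subset_span (by simp))
    · have h1 : z = ((v'⁻¹ : Rˣ) : R) * ((v' : R) * z) := by
        rw [← mul_assoc, Units.inv_mul, one_mul]
      rw [h1]
      exact Ideal.mul_mem_left _ _ (Ideal.subset_span (by simp))

/-- An element of `A` which is divisible by `π` in the local ring lies in every prime `P ≤ m`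
containing `π`. -/
theorem S34NA_contract_dvd (P : Ideal A) [hP : P.IsPrime] (hPm : P ≤ m) {π a : A} (hπ : π ∈ P)
    (h : incl A m π ∣ incl A m a) : a ∈ P := by
  obtain ⟨r, hr⟩ := h
  obtain ⟨b, d, hd, hbd⟩ := r.2
  have h1 : ((d * a : A) : L) = ((π * b : A) : L) := by
    have h2 : (a : L) = (π : L) * (r : L) := congrArg Subtype.val hr
    push_cast
    rw [h2, ← hbd]
    ring
  have h3 : d * a = π * b := Subtype.ext h1
  have h4 : d * a ∈ P := h3 ▸ P.mul_mem_right _ hπ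
  rcases hP.mem_or_mem h4 with h5 | h5
  · exact absurd (hPm h5) hd
  · exact h5

/-- Membership in a prime `P ≤ m`, `π ∈ P`, only depends on the class modulo `π` in the local
ring, up to a factor outside `m`. -/
theorem S34NA_mem_iff_of_congr (P : Ideal A) [hP : P.IsPrime] (hPm : P ≤ m) {π x X s : A}
    (hπ : π ∈ P) (hs : s ∉ m) (h : incl A m π ∣ incl A m X - incl A m s * incl A m x) :
    X ∈ P ↔ x ∈ P := by
  have h1 : X - s * x ∈ P := by
    apply S34NA_contract_dvd A m P hPm hπ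
    rw [map_sub, map_mul]
    exact h
  constructor
  · intro hX
    have h2 : s * x ∈ P := by
      have : s * x = X - (X - s * x) := by ring
      rw [this]
      exact P.sub_mem hX h1
    rcases hP.mem_or_mem h2 with h3 | h3
    · exact absurd (hPm h3) hs
    · exact h3
  · intro hx
    have : X = (X - s * x) + s * x := by ring
    rw [this]
    exact P.add_mem h1 (P.mul_mem_left _ hx)

/-- Clearing the denominator of a coordinate. -/
theorem S34NA_clear {π x : A} (T : locRing A m) (hT : incl A m π ∣ T - incl A m x) :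
    ∃ s X : A, s ∉ m ∧ incl A m X = incl A m s * T ∧
      incl A m π ∣ incl A m X - incl A m s * incl A m x := by
  obtain ⟨s, X, hs, hX⟩ := S34NA_exists_chart_mul A m T
  refine ⟨s, X, hs, hX, ?_⟩
  rw [hX, ← mul_sub]
  exact Dvd.dvd.mul_left hT _

/-- **The iteration with coordinates in the chart.**  `P0`, `Pinf` are the two vertical primes
(`π ∈ P0 ⊓ Pinf`), `x ∈ P0 ∖ Pinf`, `y ∈ Pinf ∖ P0`, `m = (π, x, y)` and `x y ∈ (π)` locally at
`m`.  For every bound `B`: either **(STOP)** or **(GO)**. -/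
theorem S34NA_iterate_chart (P0 Pinf : Ideal A) [P0.IsPrime] [Pinf.IsPrime] (hP0m : P0 ≤ m)
    (hPinfm : Pinf ≤ m) {π x y : A} (hπ0 : π ∈ P0) (hπinf : π ∈ Pinf)
    (hx0 : x ∈ P0) (hxinf : x ∉ Pinf) (hyinf : y ∈ Pinf) (hy0 : y ∉ P0)
    (h : m ≤ S34N2_loc (Ideal.span {π, x, y}) m hm)
    (hxy : x * y ∈ S34N2_loc (Ideal.span {π}) m hm) (B : ℕ) :
    (∃ k : ℕ, 1 ≤ k ∧ k ≤ B ∧ ∃ X Y : A, ∃ c : locRing A m, IsUnit c ∧
        incl A m X * incl A m Y = incl A m π ^ k * c ∧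
        maximalIdeal (locRing A m) =
          Ideal.span ({incl A m π, incl A m X, incl A m Y} : Set (locRing A m)) ∧
        X ∈ P0 ∧ X ∉ Pinf ∧ Y ∈ Pinf ∧ Y ∉ P0 ∧
        (∃ s : A, s ∉ m ∧ incl A m π ∣ incl A m X - incl A m s * incl A m x) ∧
        (∃ s : A, s ∉ m ∧ incl A m π ∣ incl A m Y - incl A m s * incl A m y)) ∨
      (∃ X Y : A, ∃ c : locRing A m,
        incl A m X * incl A m Y = incl A m π ^ (B + 1) * c ∧
        maximalIdeal (locRing A m) =
          Ideal.span ({incl A m π, incl A m X, incl A m Y} : Set (locRing A m)) ∧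
        X ∈ P0 ∧ X ∉ Pinf ∧ Y ∈ Pinf ∧ Y ∉ P0 ∧
        (∃ s : A, s ∉ m ∧ incl A m π ∣ incl A m X - incl A m s * incl A m x) ∧
        (∃ s : A, s ∉ m ∧ incl A m π ∣ incl A m Y - incl A m s * incl A m y)) := by
  have hπm : π ∈ m := hP0m hπ0
  have key : ∀ (n : ℕ) (T S c : locRing A m), T * S = incl A m π ^ n * c →
      incl A m π ∣ T - incl A m x → incl A m π ∣ S - incl A m y →
      maximalIdeal (locRing A m) = Ideal.span ({incl A m π, T, S} : Set (locRing A m)) →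
      ∃ X Y : A, ∃ c' : locRing A m, (IsUnit c → IsUnit c') ∧
        incl A m X * incl A m Y = incl A m π ^ n * c' ∧
        maximalIdeal (locRing A m) =
          Ideal.span ({incl A m π, incl A m X, incl A m Y} : Set (locRing A m)) ∧
        X ∈ P0 ∧ X ∉ Pinf ∧ Y ∈ Pinf ∧ Y ∉ P0 ∧
        (∃ s : A, s ∉ m ∧ incl A m π ∣ incl A m X - incl A m s * incl A m x) ∧
        (∃ s : A, s ∉ m ∧ incl A m π ∣ incl A m Y - incl A m s * incl A m y) := by
    intro n T S c hTS hT hS hn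
    obtain ⟨s, X, hs, hX, hXc⟩ := S34NA_clear A m T hT
    obtain ⟨s', Y, hs', hY, hYc⟩ := S34NA_clear A m S hS
    have hus := S34NA_isUnit_incl A m hs
    have hus' := S34NA_isUnit_incl A m hs'
    refine ⟨X, Y, incl A m s * incl A m s' * c, fun hc => (hus.mul hus').mul hc, ?_, ?_,
      ?_, ?_, ?_, ?_, ⟨s, hs, hXc⟩, ⟨s', hs', hYc⟩⟩
    · rw [hX, hY]
      calc incl A m s * T * (incl A m s' * S) = incl A m s * incl A m s' * (T * S) := by ring
        _ = incl A m π ^ n * (incl A m s * incl A m s' * c) := by rw [hTS]; ring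
    · rw [hX, hY, S34NA_span_unit_mul _ _ _ _ _ hus hus']
      exact hn
    · exact (S34NA_mem_iff_of_congr A m P0 hP0m hπ0 hs hXc).2 hx0
    · exact fun hXinf => hxinf ((S34NA_mem_iff_of_congr A m Pinf hPinfm hπinf hs hXc).1 hXinf)
    · exact (S34NA_mem_iff_of_congr A m Pinf hPinfm hπinf hs' hYc).2 hyinf
    · exact fun hY0 => hy0 ((S34NA_mem_iff_of_congr A m P0 hP0m hπ0 hs' hYc).1 hY0)
  rcases S34NA_iterate A m hπm (hP0m hx0) (hPinfm hyinf) h hxy B with
    ⟨k, hk1, hkB, T, S, c, hc, hTS, hT, hS, hn⟩ | ⟨T, S, c, hTS, hT, hS, hn⟩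
  · left
    obtain ⟨X, Y, c', hc', h1, h2, h3, h4, h5, h6, h7, h8⟩ := key k T S c hTS hT hS hn
    exact ⟨k, hk1, hkB, X, Y, c', hc' hc, h1, h2, h3, h4, h5, h6, h7, h8⟩
  · right
    obtain ⟨X, Y, c', -, h1, h2, h3, h4, h5, h6, h7, h8⟩ := key (B + 1) T S c hTS hT hS hn
    exact ⟨X, Y, c', h1, h2, h3, h4, h5, h6, h7, h8⟩

/-! ### Change of level for coordinates in the chart -/

section Transport

variable {L₀ L₁ : Type*} [Field L₀] [Field L₁] (Φ : L₀ →+* L₁)
  (A₀ : Subring L₀) (A₁ : Subring L₁) (hΦ : ∀ a ∈ A₀, Φ a ∈ A₁)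
  (m₀ : Ideal A₀) [hm₀ : m₀.IsPrime] (m₁ : Ideal A₁) [hm₁ : m₁.IsPrime]
  (hm : ∀ a : A₀, a ∈ m₀ ↔ (⟨Φ a, hΦ a a.2⟩ : A₁) ∈ m₁)

include hm in
/-- **Transport of chart coordinates** from the level of `A₀` to the level of `A₁`: if
`X Y = π₀ ^ n c` in `locRing A₀ m₀` with `X ≡ s x`, `Y ≡ s' y` modulo `π₀` (`s, s' ∉ m₀`), if
`Φ π₀ ∈ π₁ A₁`, and if `(π₁, Φ x, Φ y)` is the maximal ideal of `locRing A₁ m₁`, then
`Φ X · Φ Y = (Φ π₀) ^ n c₁` and `(π₁, Φ X, Φ Y)` is the maximal ideal of `locRing A₁ m₁`. -/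
theorem S34NA_transport_chart {π₀ x y X Y : A₀} {π₁ : A₁} {c : locRing A₀ m₀} {n : ℕ}
    (hπ : ∃ u : A₁, S34NA_chartMap Φ A₀ A₁ hΦ π₀ = π₁ * u)
    (hXY : incl A₀ m₀ X * incl A₀ m₀ Y = incl A₀ m₀ π₀ ^ n * c)
    (hX : ∃ s : A₀, s ∉ m₀ ∧ incl A₀ m₀ π₀ ∣ incl A₀ m₀ X - incl A₀ m₀ s * incl A₀ m₀ x)
    (hY : ∃ s : A₀, s ∉ m₀ ∧ incl A₀ m₀ π₀ ∣ incl A₀ m₀ Y - incl A₀ m₀ s * incl A₀ m₀ y)
    (hn : maximalIdeal (locRing A₁ m₁) = Ideal.span ({incl A₁ m₁ π₁,
      incl A₁ m₁ (S34NA_chartMap Φ A₀ A₁ hΦ x),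
      incl A₁ m₁ (S34NA_chartMap Φ A₀ A₁ hΦ y)} : Set (locRing A₁ m₁))) :
    incl A₁ m₁ (S34NA_chartMap Φ A₀ A₁ hΦ X) * incl A₁ m₁ (S34NA_chartMap Φ A₀ A₁ hΦ Y) =
        incl A₁ m₁ (S34NA_chartMap Φ A₀ A₁ hΦ π₀) ^ n * S34NA_locMap Φ A₀ A₁ hΦ m₀ m₁ hm c ∧
      (IsUnit c → IsUnit (S34NA_locMap Φ A₀ A₁ hΦ m₀ m₁ hm c)) ∧
      maximalIdeal (locRing A₁ m₁) = Ideal.span ({incl A₁ m₁ π₁,
        incl A₁ m₁ (S34NA_chartMap Φ A₀ A₁ hΦ X),
        incl A₁ m₁ (S34NA_chartMap Φ A₀ A₁ hΦ Y)} : Set (locRing A₁ m₁)) := by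
  obtain ⟨u, hu⟩ := hπ
  obtain ⟨s, hs, hXs⟩ := hX
  obtain ⟨s', hs', hYs⟩ := hY
  set ψ := S34NA_locMap Φ A₀ A₁ hΦ m₀ m₁ hm with hψ
  have hdvd : incl A₁ m₁ π₁ ∣ ψ (incl A₀ m₀ π₀) := by
    rw [hψ, S34NA_locMap_incl, hu, map_mul]
    exact Dvd.intro _ rfl
  have hs₁ : S34NA_chartMap Φ A₀ A₁ hΦ s ∉ m₁ := fun h => hs ((hm s).2 h)
  have hs₁' : S34NA_chartMap Φ A₀ A₁ hΦ s' ∉ m₁ := fun h => hs' ((hm s').2 h)
  have hus := S34NA_isUnit_incl A₁ m₁ hs₁
  have hus' := S34NA_isUnit_incl A₁ m₁ hs₁'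
  have h1 : incl A₁ m₁ π₁ ∣ incl A₁ m₁ (S34NA_chartMap Φ A₀ A₁ hΦ X) -
      incl A₁ m₁ (S34NA_chartMap Φ A₀ A₁ hΦ s) * incl A₁ m₁ (S34NA_chartMap Φ A₀ A₁ hΦ x) := by
    have := map_dvd ψ hXs
    rw [map_sub, map_mul, hψ, S34NA_locMap_incl, S34NA_locMap_incl, S34NA_locMap_incl] at this
    exact hdvd.trans this
  have h2 : incl A₁ m₁ π₁ ∣ incl A₁ m₁ (S34NA_chartMap Φ A₀ A₁ hΦ Y) -
      incl A₁ m₁ (S34NA_chartMap Φ A₀ A₁ hΦ s') * incl A₁ m₁ (S34NA_chartMap Φ A₀ A₁ hΦ y) := by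
    have := map_dvd ψ hYs
    rw [map_sub, map_mul, hψ, S34NA_locMap_incl, S34NA_locMap_incl, S34NA_locMap_incl] at this
    exact hdvd.trans this
  refine ⟨?_, fun hc => hc.map ψ, ?_⟩
  · have := congrArg ψ hXY
    rw [map_mul, map_mul, map_pow, hψ, S34NA_locMap_incl, S34NA_locMap_incl,
      S34NA_locMap_incl] at this
    exact this
  · rw [hn, ← S34NA_span_unit_mul _ _ _ _ _ hus hus']
    exact (S34N_span_congr h1 h2).symm

end Transport

end Fermat.Agent.S34_helper17_NADAPT
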