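import Mathlib
import Fermat.Agent.S34_helper4_N2

/-!
# S34 (N2), variant with PRESCRIBED node coordinates (helper4)

`S34N2B_node` : the conclusion of `S34N2_node` for GIVEN `x ∈ P0`, `y ∈ Pinf` such that
`m = Pinf + (x)` and `m = P0 + (y)` locally at `m`.  No transversality hypothesis is needed
(it is implied).  Used to transfer node coordinates defined over the unramified level `K0`
to a ramified level `K1` (lead's (T2)).
-/

set_option autoImplicit false

namespace Fermat.Agent.S34_helper4_N2B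

open Fermat.Agent.S34_helper4_N2

variable {A : Type*} [CommRing A]

/-- **Node with prescribed coordinates.** -/
theorem S34N2B_node (π : A) (Pinf P0 m : Ideal A) (hm : m.IsPrime)
    (hinfm : Pinf ≤ m) (h0m : P0 ≤ m)
    (hint : Pinf ⊓ P0 ≤ S34N2_loc (Ideal.span {π}) m hm)
    (x y : A) (hx : x ∈ P0) (hy : y ∈ Pinf)
    (hmx : m ≤ S34N2_loc (Pinf ⊔ Ideal.span {x}) m hm)
    (hmy : m ≤ S34N2_loc (P0 ⊔ Ideal.span {y}) m hm) :
    m ≤ S34N2_loc (Ideal.span {π, x, y}) m hm ∧
      P0 ≤ S34N2_loc (Ideal.span {π, x}) m hm ∧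
      Pinf ≤ S34N2_loc (Ideal.span {π, y}) m hm ∧
      m ≤ S34N2_loc (Pinf ⊔ P0) m hm ∧
      x * y ∈ S34N2_loc (Ideal.span {π}) m hm := by
  -- `P0 = (π, x)` locally
  have hP0 : P0 ≤ S34N2_loc (Ideal.span {π, x}) m hm := by
    intro b hb
    obtain ⟨s', hs', hsb⟩ := hmx (h0m hb)
    obtain ⟨a', ha', v, hv, hav⟩ := Submodule.mem_sup.1 hsb
    obtain ⟨r, rfl⟩ := Ideal.mem_span_singleton'.1 hv
    apply S34N2_loc_sat _ m hm hs'
    rw [← hav]
    refine Submodule.add_mem _ ?_ ?_
    · have ha0 : a' ∈ P0 := by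
        have : a' = s' * b - r * x := by rw [← hav]; ring
        rw [this]
        exact P0.sub_mem (P0.mul_mem_left _ hb) (P0.mul_mem_left _ hx)
      refine S34N2_loc_mono ?_ m hm (hint ⟨ha', ha0⟩)
      exact Ideal.span_mono (by simp)
    · exact S34N2_le_loc _ m hm (Ideal.mul_mem_left _ _ (Ideal.subset_span (by simp)))
  -- `Pinf = (π, y)` locally
  have hPinf : Pinf ≤ S34N2_loc (Ideal.span {π, y}) m hm := by
    intro b hb
    obtain ⟨s', hs', hsb⟩ := hmy (hinfm hb)
    obtain ⟨a', ha', v, hv, hav⟩ := Submodule.mem_sup.1 hsb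
    obtain ⟨r, rfl⟩ := Ideal.mem_span_singleton'.1 hv
    apply S34N2_loc_sat _ m hm hs'
    rw [← hav]
    refine Submodule.add_mem _ ?_ ?_
    · have hainf : a' ∈ Pinf := by
        have : a' = s' * b - r * y := by rw [← hav]; ring
        rw [this]
        exact Pinf.sub_mem (Pinf.mul_mem_left _ hb) (Pinf.mul_mem_left _ hy)
      refine S34N2_loc_mono ?_ m hm (hint ⟨hainf, ha'⟩)
      exact Ideal.span_mono (by simp)
    · exact S34N2_le_loc _ m hm (Ideal.mul_mem_left _ _ (Ideal.subset_span (by simp)))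
  refine ⟨?_, hP0, hPinf, ?_, ?_⟩
  · -- `m = (π, x, y)` locally
    refine hmx.trans (S34N2_loc_le (sup_le ?_ ?_))
    · refine hPinf.trans (S34N2_loc_mono (Ideal.span_mono ?_) m hm)
      intro z hz
      rcases hz with rfl | rfl
      · simp
      · simp
    · rw [Ideal.span_le, Set.singleton_subset_iff]
      exact S34N2_le_loc _ m hm (Ideal.subset_span (by simp))
  · -- transversality
    refine hmx.trans (S34N2_loc_mono (sup_le le_sup_left ?_) m hm)
    rw [Ideal.span_le, Set.singleton_subset_iff]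
    exact Ideal.mem_sup_right hx
  · exact hint ⟨Pinf.mul_mem_left _ hy, P0.mul_mem_right _ hx⟩

/-- Change of the coordinate modulo `π`: if `x' - x ∈ (π)` locally and `m = Pinf + (x)` locally
(with `π ∈ Pinf`), then `m = Pinf + (x')` locally. -/
theorem S34N2B_congr (π : A) (Pinf m : Ideal A) (hm : m.IsPrime) (hπ : π ∈ Pinf)
    (x x' : A) (hxx' : x' - x ∈ S34N2_loc (Ideal.span {π}) m hm)
    (hmx : m ≤ S34N2_loc (Pinf ⊔ Ideal.span {x}) m hm) :
    m ≤ S34N2_loc (Pinf ⊔ Ideal.span {x'}) m hm := by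
  refine hmx.trans (S34N2_loc_le (sup_le ?_ ?_))
  · exact le_sup_left.trans (S34N2_le_loc _ m hm)
  · rw [Ideal.span_le, Set.singleton_subset_iff]
    have h1 : x' - x ∈ S34N2_loc (Pinf ⊔ Ideal.span {x'}) m hm := by
      refine S34N2_loc_mono ?_ m hm hxx'
      rw [Ideal.span_le, Set.singleton_subset_iff]
      exact Ideal.mem_sup_left hπ
    have h2 : x' ∈ S34N2_loc (Pinf ⊔ Ideal.span {x'}) m hm :=
      S34N2_le_loc _ m hm (Ideal.mem_sup_right (Ideal.subset_span rfl))
    have : x = x' - (x' - x) := by ring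
    rw [SetLike.mem_coe, this]
    exact Ideal.sub_mem _ h2 h1

end Fermat.Agent.S34_helper4_N2B
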