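import Mathlib
import Fermat.Agent.S18_helper3_LOCRING
import Fermat.Agent.S34_helper4_N2
import Fermat.Agent.S34_helper4_N2B
import Fermat.Agent.S34_helper17_NODE
import Fermat.Agent.S34_helper17_NADAPT
import Fermat.Agent.S34_helper17_NADAPT2

/-!
# S34, piece X-L2 (abstract core): node coordinates over the unramified level, transferred to
the ramified level

Two levels `0` (unramified, `K0`) and `1` (ramified, `K1`), a field homomorphism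
`Φ : L₀ → L₁` mapping the chart `A₀` into the chart `A₁`, a prime `m₁` of `A₁` and its
contraction `m₀`.  `Pinf_i`, `P0_i` are the two vertical primes of `A_i`
(`Pinf = A ∩ π V1`, `P0 = A ∩ π V2`), both contained in `m_i` (crossing point).

* `S34L2_loc_map`, `S34L2_gen_transfer`: transport of "locally at `m`" statements along `Φ`;
* `S34L2_node_transfer` (layer 1): from generators `x₀` of `m₀` modulo `Pinf₀` and `y₀` of `m₀`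
  modulo `P0₀` whose images generate `m₁` modulo `Pinf₁`, `P0₁`, and transversality at level `0`:
  for every bound `B` the alternative **(STOP)** / **(GO)** of `S34NA_iterate_chart`, at level
  `1`, with coordinates `Φ X`, `Φ Y`, `X, Y ∈ A₀`;
* `S34L2_comap_isMaximal`, `S34L2_gen_of_surj` (layer 2): the generator of `m` modulo `Pinf` is
  the image of an `[IG]` generator of the chart `A'` of the smaller level, as soon as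
  `A = f A' + Pinf` (`S34N1_surj` of helper14);
* `S34L2_main_abs`: the two layers combined, with the Frobenius congruence
  (`f₀ a ≡ b ^ q` modulo `Pinf₀ ⊔ P0₀`) giving transversality at level `0`.
-/

set_option autoImplicit false
set_option linter.unusedSectionVars false
set_option linter.style.haveILetI false

open IsLocalRing

namespace Fermat.Agent.S34_helper3_XL2

open Fermat.Agent.S18_helper3_LOCRING Fermat.Agent.S34_helper4_N2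
  Fermat.Agent.S34_helper4_N2B Fermat.Agent.S34_helper17_NODE
  Fermat.Agent.S34_helper17_NADAPT

/-! ### Layer 2: generators coming from the smaller level -/

section Layer2

variable {A' A : Type*} [CommRing A'] [CommRing A]

/-- If `A = f A' + Pinf` and `Pinf ≤ m`, `m` maximal, then `f⁻¹ m` is maximal. -/
theorem S34L2_comap_isMaximal (f : A' →+* A) (Pinf : Ideal A)
    (hsurj : ∀ y : A, ∃ a : A', y - f a ∈ Pinf)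
    (m : Ideal A) (hm : m.IsMaximal) (hPm : Pinf ≤ m) : (m.comap f).IsMaximal := by
  have h1 : Function.Surjective ((Ideal.Quotient.mk m).comp f) := by
    intro z
    obtain ⟨z₀, rfl⟩ := Ideal.Quotient.mk_surjective z
    obtain ⟨a, ha⟩ := hsurj z₀
    refine ⟨a, ?_⟩
    rw [RingHom.comp_apply, eq_comm, Ideal.Quotient.eq]
    exact hPm ha
  have h2 : m.comap f = RingHom.ker ((Ideal.Quotient.mk m).comp f) := by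
    ext a
    rw [Ideal.mem_comap, RingHom.mem_ker, RingHom.comp_apply, Ideal.Quotient.eq_zero_iff_mem]
  rw [h2]
  haveI := hm
  letI : Field (A ⧸ m) := Ideal.Quotient.field m
  exact RingHom.ker_isMaximal_of_surjective _ h1

/-- **The generator of `m` modulo `Pinf` comes from the smaller level**: if `A = f A' + Pinf`,
`f π ∈ Pinf ≤ m` and `y'` generates `f⁻¹ m` locally modulo `π`, then `m = Pinf + (f y')` locally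
at `m`. -/
theorem S34L2_gen_of_surj (f : A' →+* A) (π : A') (Pinf : Ideal A) (hπ : f π ∈ Pinf)
    (hsurj : ∀ y : A, ∃ a : A', y - f a ∈ Pinf)
    (m : Ideal A) (hm : m.IsPrime) (hPm : Pinf ≤ m) (y' : A')
    (hgen : ∀ x ∈ m.comap f, ∃ c : A', c ∉ m.comap f ∧ ∃ a b : A', c * x = a * π + b * y') :
    m ≤ S34N2_loc (Pinf ⊔ Ideal.span {f y'}) m hm := by
  intro b hb
  obtain ⟨a, ha⟩ := hsurj b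
  have ham : a ∈ m.comap f := by
    rw [Ideal.mem_comap]
    have : f a = b - (b - f a) := by ring
    rw [this]
    exact m.sub_mem hb (hPm ha)
  obtain ⟨c, hc, α, β, hrel⟩ := hgen a ham
  refine ⟨f c, hc, ?_⟩
  have h1 : f c * b = f c * (b - f a) + (f α * f π + f β * f y') := by
    rw [← map_mul, ← map_mul, ← map_add, ← hrel, map_mul]; ring
  rw [h1]
  refine Submodule.add_mem _ (Ideal.mem_sup_left (Pinf.mul_mem_left _ ha))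
    (Submodule.add_mem _ (Ideal.mem_sup_left (Pinf.mul_mem_left _ hπ))
      (Ideal.mem_sup_right (Ideal.mul_mem_left _ _ (Ideal.subset_span rfl))))

end Layer2

/-! ### Layer 1: transfer of the node -/

section Layer1

variable {L₀ L₁ : Type*} [Field L₀] [Field L₁] (Φ : L₀ →+* L₁)
  (A₀ : Subring L₀) (A₁ : Subring L₁) (hΦ : ∀ a ∈ A₀, Φ a ∈ A₁)
  (m₀ : Ideal A₀) [hm₀ : m₀.IsPrime] (m₁ : Ideal A₁) [hm₁ : m₁.IsPrime]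
  (hm : ∀ a : A₀, a ∈ m₀ ↔ (⟨Φ a, hΦ a a.2⟩ : A₁) ∈ m₁)

include hm in
/-- Transport of "locally at `m`" along the chart map. -/
theorem S34L2_loc_map {K₀ : Ideal A₀} {K₁ : Ideal A₁}
    (hK : ∀ a ∈ K₀, S34NA_chartMap Φ A₀ A₁ hΦ a ∈ K₁) {b : A₀}
    (hb : b ∈ S34N2_loc K₀ m₀ hm₀) :
    S34NA_chartMap Φ A₀ A₁ hΦ b ∈ S34N2_loc K₁ m₁ hm₁ := by
  obtain ⟨s, hs, hsb⟩ := hb
  refine ⟨S34NA_chartMap Φ A₀ A₁ hΦ s, fun h => hs ((hm s).2 h), ?_⟩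
  rw [← map_mul]
  exact hK _ hsb

include hm in
/-- Change of the generator at level `1`: if `x₀ ∈ P₀ + (x)` locally at level `0` and
`m₁ = P₁ + (Φ x₀)` locally, then `m₁ = P₁ + (Φ x)` locally. -/
theorem S34L2_gen_transfer {P₀ : Ideal A₀} {P₁ : Ideal A₁}
    (hP : ∀ a ∈ P₀, S34NA_chartMap Φ A₀ A₁ hΦ a ∈ P₁) {x₀ x : A₀}
    (hx₀ : x₀ ∈ S34N2_loc (P₀ ⊔ Ideal.span {x}) m₀ hm₀)
    (h₁ : m₁ ≤ S34N2_loc (P₁ ⊔ Ideal.span {S34NA_chartMap Φ A₀ A₁ hΦ x₀}) m₁ hm₁) :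
    m₁ ≤ S34N2_loc (P₁ ⊔ Ideal.span {S34NA_chartMap Φ A₀ A₁ hΦ x}) m₁ hm₁ := by
  refine h₁.trans (S34N2_loc_le (sup_le ?_ ?_))
  · exact le_sup_left.trans (S34N2_le_loc _ m₁ hm₁)
  · rw [Ideal.span_le, Set.singleton_subset_iff]
    refine S34L2_loc_map Φ A₀ A₁ hΦ m₀ m₁ hm ?_ hx₀
    intro a ha
    obtain ⟨u, hu, v, hv, rfl⟩ := Submodule.mem_sup.1 ha
    obtain ⟨r, rfl⟩ := Ideal.mem_span_singleton'.1 hv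
    rw [map_add, map_mul]
    exact Submodule.add_mem _ (Ideal.mem_sup_left (hP u hu))
      (Ideal.mem_sup_right (Ideal.mul_mem_left _ _ (Ideal.subset_span rfl)))

/-- The conclusion of X-L2 (for one bound `B`): coordinates `X, Y` in the chart `A₀` of the
small level whose images are node coordinates at `m₁`. -/
def S34L2_Concl (π₀ : A₀) (π₁ : A₁) (Pinf₀ P0₀ : Ideal A₀) (B : ℕ) : Prop :=
  (∃ k : ℕ, 1 ≤ k ∧ k ≤ B ∧ ∃ X Y : A₀, ∃ c : locRing A₁ m₁, IsUnit c ∧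
      incl A₁ m₁ (S34NA_chartMap Φ A₀ A₁ hΦ X) * incl A₁ m₁ (S34NA_chartMap Φ A₀ A₁ hΦ Y) =
        incl A₁ m₁ (S34NA_chartMap Φ A₀ A₁ hΦ π₀) ^ k * c ∧
      maximalIdeal (locRing A₁ m₁) = Ideal.span ({incl A₁ m₁ π₁,
        incl A₁ m₁ (S34NA_chartMap Φ A₀ A₁ hΦ X),
        incl A₁ m₁ (S34NA_chartMap Φ A₀ A₁ hΦ Y)} : Set (locRing A₁ m₁)) ∧
      X ∈ P0₀ ∧ X ∉ Pinf₀ ∧ Y ∈ Pinf₀ ∧ Y ∉ P0₀) ∨
    (∃ X Y : A₀, ∃ c : locRing A₁ m₁,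
      incl A₁ m₁ (S34NA_chartMap Φ A₀ A₁ hΦ X) * incl A₁ m₁ (S34NA_chartMap Φ A₀ A₁ hΦ Y) =
        incl A₁ m₁ (S34NA_chartMap Φ A₀ A₁ hΦ π₀) ^ (B + 1) * c ∧
      maximalIdeal (locRing A₁ m₁) = Ideal.span ({incl A₁ m₁ π₁,
        incl A₁ m₁ (S34NA_chartMap Φ A₀ A₁ hΦ X),
        incl A₁ m₁ (S34NA_chartMap Φ A₀ A₁ hΦ Y)} : Set (locRing A₁ m₁)) ∧
      X ∈ P0₀ ∧ X ∉ Pinf₀ ∧ Y ∈ Pinf₀ ∧ Y ∉ P0₀)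

include hm in
/-- **Layer 1: transfer of the node.** -/
theorem S34L2_node_transfer (π₀ : A₀) (π₁ : A₁)
    (hπ : ∃ u : A₁, S34NA_chartMap Φ A₀ A₁ hΦ π₀ = π₁ * u)
    (Pinf₀ P0₀ : Ideal A₀) [hPinf₀ : Pinf₀.IsPrime] [hP0₀ : P0₀.IsPrime]
    (Pinf₁ P0₁ : Ideal A₁)
    (hπinf₀ : π₀ ∈ Pinf₀) (hπ0₀ : π₀ ∈ P0₀) (hπinf₁ : π₁ ∈ Pinf₁)
    (hinf₀ : Pinf₀ ≤ m₀) (h0₀ : P0₀ ≤ m₀) (hinf₁ : Pinf₁ ≤ m₁) (h0₁ : P0₁ ≤ m₁)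
    (hne : ∃ a ∈ P0₀, a ∉ Pinf₀) (hne' : ∃ a ∈ Pinf₀, a ∉ P0₀)
    (hint₀ : Pinf₀ ⊓ P0₀ ≤ S34N2_loc (Ideal.span {π₀}) m₀ hm₀)
    (hint₁ : Pinf₁ ⊓ P0₁ ≤ S34N2_loc (Ideal.span {π₁}) m₁ hm₁)
    (hmapinf : ∀ a ∈ Pinf₀, S34NA_chartMap Φ A₀ A₁ hΦ a ∈ Pinf₁)
    (hmap0 : ∀ a ∈ P0₀, S34NA_chartMap Φ A₀ A₁ hΦ a ∈ P0₁)
    (x₀ : A₀) (hx₀m : x₀ ∈ m₀)
    (hx₀ : m₀ ≤ S34N2_loc (Pinf₀ ⊔ Ideal.span {x₀}) m₀ hm₀)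
    (hx₁ : m₁ ≤ S34N2_loc (Pinf₁ ⊔ Ideal.span {S34NA_chartMap Φ A₀ A₁ hΦ x₀}) m₁ hm₁)
    (y₀ : A₀) (hy₀m : y₀ ∈ m₀)
    (hy₀ : m₀ ≤ S34N2_loc (P0₀ ⊔ Ideal.span {y₀}) m₀ hm₀)
    (hy₁ : m₁ ≤ S34N2_loc (P0₁ ⊔ Ideal.span {S34NA_chartMap Φ A₀ A₁ hΦ y₀}) m₁ hm₁)
    (htr : m₀ ≤ S34N2_loc (Pinf₀ ⊔ P0₀) m₀ hm₀) (B : ℕ) :
    S34L2_Concl Φ A₀ A₁ hΦ m₁ π₀ π₁ Pinf₀ P0₀ B := by
  -- the node at level 0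
  obtain ⟨x, hx, y, hy, hmxy, -, -, hmx, hmy, hxy⟩ :=
    S34N2_node π₀ Pinf₀ P0₀ m₀ hm₀ hinf₀ h0₀ hint₀ ⟨x₀, hx₀m, hx₀⟩ ⟨y₀, hy₀m, hy₀⟩ htr
  -- `x ∉ Pinf₀`, `y ∉ P0₀`
  have hPinf_ne : Pinf₀ ≠ m₀ := by
    obtain ⟨a, ha0, hainf⟩ := hne
    intro h
    exact hainf (h ▸ h0₀ ha0)
  have hP0_ne : P0₀ ≠ m₀ := by
    obtain ⟨a, hainf, ha0⟩ := hne'
    intro h
    exact ha0 (h ▸ hinf₀ hainf)
  have hxinf : x ∉ Pinf₀ := S34NA_notMem_of_ne A₀ m₀ Pinf₀ hinf₀ hPinf_ne hmx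
  have hy0 : y ∉ P0₀ := S34NA_notMem_of_ne A₀ m₀ P0₀ h0₀ hP0_ne hmy
  -- the node at level 1, with the coordinates `Φ x`, `Φ y`
  have hmx₁ : m₁ ≤ S34N2_loc (Pinf₁ ⊔ Ideal.span {S34NA_chartMap Φ A₀ A₁ hΦ x}) m₁ hm₁ :=
    S34L2_gen_transfer Φ A₀ A₁ hΦ m₀ m₁ hm hmapinf (hmx hx₀m) hx₁
  have hmy₁ : m₁ ≤ S34N2_loc (P0₁ ⊔ Ideal.span {S34NA_chartMap Φ A₀ A₁ hΦ y}) m₁ hm₁ :=
    S34L2_gen_transfer Φ A₀ A₁ hΦ m₀ m₁ hm hmap0 (hmy hy₀m) hy₁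
  have hπm₁ : π₁ ∈ m₁ := hinf₁ hπinf₁
  have hxm₁ : S34NA_chartMap Φ A₀ A₁ hΦ x ∈ m₁ := h0₁ (hmap0 x hx)
  have hym₁ : S34NA_chartMap Φ A₀ A₁ hΦ y ∈ m₁ := hinf₁ (hmapinf y hy)
  obtain ⟨hnode₁, -, -, -, -⟩ := S34N2B_node π₁ Pinf₁ P0₁ m₁ hm₁ hinf₁ h0₁ hint₁
    (S34NA_chartMap Φ A₀ A₁ hΦ x) (S34NA_chartMap Φ A₀ A₁ hΦ y) (hmap0 x hx) (hmapinf y hy)
    hmx₁ hmy₁
  have hn := S34NA_maximalIdeal_eq_span3 A₁ m₁ hπm₁ hxm₁ hym₁ hnode₁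
  -- the iteration at level 0 and its transport
  rcases S34NA_iterate_chart A₀ m₀ P0₀ Pinf₀ h0₀ hinf₀ hπ0₀ hπinf₀ hx hxinf hy hy0 hmxy hxy B
    with ⟨k, hk1, hkB, X, Y, c, hc, hXY, -, hX0, hXinf, hYinf, hY0, hXs, hYs⟩ |
      ⟨X, Y, c, hXY, -, hX0, hXinf, hYinf, hY0, hXs, hYs⟩
  · left
    obtain ⟨h1, h2, h3⟩ := S34NA_transport_chart A₀ m₀ Φ A₀ A₁ hΦ m₀ m₁ hm hπ hXY hXs hYs hn
    exact ⟨k, hk1, hkB, X, Y, _, h2 hc, h1, h3, hX0, hXinf, hYinf, hY0⟩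
  · right
    obtain ⟨h1, h2, h3⟩ := S34NA_transport_chart A₀ m₀ Φ A₀ A₁ hΦ m₀ m₁ hm hπ hXY hXs hYs hn
    exact ⟨X, Y, _, h1, h3, hX0, hXinf, hYinf, hY0⟩

end Layer1

/-! ### The two layers combined -/

section Main

variable {L₀ L₁ : Type*} [Field L₀] [Field L₁] (Φ : L₀ →+* L₁)
  (A₀ : Subring L₀) (A₁ : Subring L₁) (hΦ : ∀ a ∈ A₀, Φ a ∈ A₁)
  (m₁ : Ideal A₁) [hm₁ : m₁.IsPrime]
  {A'₀ A'₁ : Type*} [CommRing A'₀] [CommRing A'₁]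

/-- **X-L2, abstract form.**  `A'_i` the charts of the smaller level `N'`, `f_i : A'_i → A_i`
the inclusion (component `Pinf`), `g_i : A'_i → A_i` the twisted inclusion (component `P0`),
`φ' : A'₀ → A'₁` the change of level, compatible with `Φ`.  Hypotheses:
`A_i = f_i A'_i + Pinf_i = g_i A'_i + P0_i` (N1), `[IG]` generators of `A'₁` come from `A'₀`
(IGMONO), every element of `f₀ A'₀` is a `q`-th power modulo `Pinf₀ ⊔ P0₀` (FROBCONG).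
Conclusion: at a maximal ideal `m₁ ⊇ Pinf₁ ⊔ P0₁`, for every `B` the alternative
**(STOP)**/**(GO)** with coordinates `Φ X`, `Φ Y`, `X ∈ P0₀ ∖ Pinf₀`, `Y ∈ Pinf₀ ∖ P0₀`. -/
theorem S34L2_main_abs (hmax : m₁.IsMaximal)
    (f₀ g₀ : A'₀ →+* A₀) (f₁ g₁ : A'₁ →+* A₁) (φ' : A'₀ →+* A'₁)
    (hcf : ∀ a : A'₀, S34NA_chartMap Φ A₀ A₁ hΦ (f₀ a) = f₁ (φ' a))
    (hcg : ∀ a : A'₀, S34NA_chartMap Φ A₀ A₁ hΦ (g₀ a) = g₁ (φ' a))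
    (π'₀ : A'₀) (π'₁ : A'₁) (hfg₀ : g₀ π'₀ = f₀ π'₀) (hfg₁ : g₁ π'₁ = f₁ π'₁)
    (hπ : ∃ u : A₁, S34NA_chartMap Φ A₀ A₁ hΦ (f₀ π'₀) = f₁ π'₁ * u)
    (Pinf₀ P0₀ : Ideal A₀) [hPinf₀ : Pinf₀.IsPrime] [hP0₀ : P0₀.IsPrime]
    (Pinf₁ P0₁ : Ideal A₁)
    (hπinf₀ : f₀ π'₀ ∈ Pinf₀) (hπ0₀ : f₀ π'₀ ∈ P0₀)
    (hπinf₁ : f₁ π'₁ ∈ Pinf₁) (hπ0₁ : f₁ π'₁ ∈ P0₁)
    (hinf₁ : Pinf₁ ≤ m₁) (h0₁ : P0₁ ≤ m₁)
    (hne : ∃ a ∈ P0₀, a ∉ Pinf₀) (hne' : ∃ a ∈ Pinf₀, a ∉ P0₀)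
    (hint₀ : ∀ a ∈ Pinf₀ ⊓ P0₀, a ∈ Ideal.span {f₀ π'₀})
    (hint₁ : ∀ a ∈ Pinf₁ ⊓ P0₁, a ∈ Ideal.span {f₁ π'₁})
    (hmapinf : ∀ a ∈ Pinf₀, S34NA_chartMap Φ A₀ A₁ hΦ a ∈ Pinf₁)
    (hmap0 : ∀ a ∈ P0₀, S34NA_chartMap Φ A₀ A₁ hΦ a ∈ P0₁)
    (hsf₀ : ∀ y : A₀, ∃ a : A'₀, y - f₀ a ∈ Pinf₀)
    (hsg₀ : ∀ y : A₀, ∃ a : A'₀, y - g₀ a ∈ P0₀)
    (hsf₁ : ∀ y : A₁, ∃ a : A'₁, y - f₁ a ∈ Pinf₁)
    (hsg₁ : ∀ y : A₁, ∃ a : A'₁, y - g₁ a ∈ P0₁)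
    (hIG : ∀ m' : Ideal A'₁, m'.IsMaximal → π'₁ ∈ m' → ∃ y₀ : A'₀,
      (y₀ ∈ m'.comap φ' ∧ ∀ x ∈ m'.comap φ', ∃ c : A'₀, c ∉ m'.comap φ' ∧
        ∃ a b : A'₀, c * x = a * π'₀ + b * y₀) ∧
      (φ' y₀ ∈ m' ∧ ∀ x ∈ m', ∃ c : A'₁, c ∉ m' ∧
        ∃ a b : A'₁, c * x = a * π'₁ + b * φ' y₀))
    (q : ℕ) (hq : 2 ≤ q)
    (hfrob : ∀ a : A'₀, ∃ b : A₀, f₀ a - b ^ q ∈ Pinf₀ ⊔ P0₀) (B : ℕ) :
    haveI : (m₁.comap (S34NA_chartMap Φ A₀ A₁ hΦ)).IsPrime := Ideal.comap_isPrime _ _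
    S34L2_Concl Φ A₀ A₁ hΦ m₁ (f₀ π'₀) (f₁ π'₁) Pinf₀ P0₀ B := by
  haveI hm₀ : (m₁.comap (S34NA_chartMap Φ A₀ A₁ hΦ)).IsPrime := Ideal.comap_isPrime _ _
  set φ := S34NA_chartMap Φ A₀ A₁ hΦ with hφ
  set m₀ : Ideal A₀ := m₁.comap φ with hm₀def
  have hm : ∀ a : A₀, a ∈ m₀ ↔ (⟨Φ a, hΦ a a.2⟩ : A₁) ∈ m₁ := fun a => Iff.rfl
  have hinf₀ : Pinf₀ ≤ m₀ := fun a ha => hinf₁ (hmapinf a ha)
  have h0₀ : P0₀ ≤ m₀ := fun a ha => h0₁ (hmap0 a ha)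
  -- the component `Pinf`
  have hmf₁ : (m₁.comap f₁).IsMaximal := S34L2_comap_isMaximal f₁ Pinf₁ hsf₁ m₁ hmax hinf₁
  obtain ⟨yf, ⟨hyf0, hgf0⟩, ⟨hyf1, hgf1⟩⟩ := hIG _ hmf₁ (hinf₁ hπinf₁)
  have hcomapf : (m₁.comap f₁).comap φ' = m₀.comap f₀ := by
    ext a
    simp only [Ideal.mem_comap, hm₀def]
    rw [hcf]
  have hx₀ : m₀ ≤ S34N2_loc (Pinf₀ ⊔ Ideal.span {f₀ yf}) m₀ hm₀ :=
    S34L2_gen_of_surj f₀ π'₀ Pinf₀ hπinf₀ hsf₀ m₀ hm₀ hinf₀ yf (hcomapf ▸ hgf0)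
  have hx₀m : f₀ yf ∈ m₀ := by
    have : yf ∈ m₀.comap f₀ := hcomapf ▸ hyf0
    exact this
  have hx₁ : m₁ ≤ S34N2_loc (Pinf₁ ⊔ Ideal.span {φ (f₀ yf)}) m₁ hm₁ := by
    rw [hcf]
    exact S34L2_gen_of_surj f₁ π'₁ Pinf₁ hπinf₁ hsf₁ m₁ hm₁ hinf₁ (φ' yf) hgf1
  -- the component `P0`
  have hmg₁ : (m₁.comap g₁).IsMaximal := S34L2_comap_isMaximal g₁ P0₁ hsg₁ m₁ hmax h0₁
  have hπg₁ : π'₁ ∈ m₁.comap g₁ := by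
    rw [Ideal.mem_comap, hfg₁]
    exact h0₁ hπ0₁
  obtain ⟨yg, ⟨hyg0, hgg0⟩, ⟨hyg1, hgg1⟩⟩ := hIG _ hmg₁ hπg₁
  have hcomapg : (m₁.comap g₁).comap φ' = m₀.comap g₀ := by
    ext a
    simp only [Ideal.mem_comap, hm₀def]
    rw [hcg]
  have hy₀ : m₀ ≤ S34N2_loc (P0₀ ⊔ Ideal.span {g₀ yg}) m₀ hm₀ :=
    S34L2_gen_of_surj g₀ π'₀ P0₀ (hfg₀ ▸ hπ0₀) hsg₀ m₀ hm₀ h0₀ yg (hcomapg ▸ hgg0)
  have hy₀m : g₀ yg ∈ m₀ := by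
    have : yg ∈ m₀.comap g₀ := hcomapg ▸ hyg0
    exact this
  have hy₁ : m₁ ≤ S34N2_loc (P0₁ ⊔ Ideal.span {φ (g₀ yg)}) m₁ hm₁ := by
    rw [hcg]
    exact S34L2_gen_of_surj g₁ π'₁ P0₁ (hfg₁ ▸ hπ0₁) hsg₁ m₁ hm₁ h0₁ (φ' yg) hgg1
  -- transversality at level 0
  obtain ⟨b, hb⟩ := hfrob yf
  have htr : m₀ ≤ S34N2_loc (Pinf₀ ⊔ P0₀) m₀ hm₀ :=
    S34N2_transversal_frob Pinf₀ P0₀ m₀ hm₀ hinf₀ h0₀ q hq (f₀ yf) hx₀m hx₀ b hb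
  exact S34L2_node_transfer Φ A₀ A₁ hΦ m₀ m₁ hm (f₀ π'₀) (f₁ π'₁) hπ Pinf₀ P0₀ Pinf₁ P0₁
    hπinf₀ hπ0₀ hπinf₁ hinf₀ h0₀ hinf₁ h0₁ hne hne'
    (fun a ha => S34N2_le_loc _ m₀ hm₀ (hint₀ a ha))
    (fun a ha => S34N2_le_loc _ m₁ hm₁ (hint₁ a ha))
    hmapinf hmap0 (f₀ yf) hx₀m hx₀ hx₁ (g₀ yg) hy₀m hy₀ hy₁ htr B

end Main

end Fermat.Agent.S34_helper3_XL2
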