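import Mathlib
import Fermat.Agent.S37_helper4_B1Defs2
import Fermat.Agent.S37_helper21_F5e
import Fermat.Agent.S18_helper5_BASE3

/-!
# S37, block B1, (F6): change of level

* `S37MONO_isDVR_of_le`, `S37MONO_admissible_of_le`, `S37MONO_admissible_inf`: a sublevel of an
  admissible level which contains the roots of unity is admissible; in particular the
  intersection of two admissible levels is admissible.
* `S37MONO_rational_of_le`, `S37MONO_rational_inf`: rationality of a place descends to the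
  intersection of two levels.
* `S37MONO_centred_A0`, `S37MONO_centred_Ainf`: a place centred at `Q` on a chart at level `K1`
  is centred at `Q` on the same chart at every sublevel `K0 ≤ K1`.
-/

set_option autoImplicit false
set_option linter.style.haveILetI false
set_option linter.unusedSectionVars false
set_option synthInstance.maxHeartbeats 400000

open AlgebraicCurve ModularCurve HahnSeries IntermediateField

noncomputable section

namespace Fermat.Agent.S37_helper21_MONO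

open Fermat.Agent.S18_helper25_COREDefs Fermat.Agent.S18_helper19_PLACEMOD
  Fermat.Agent.S18_helper13_GAUSS Fermat.Agent.S18_helper9_CDefs
  Fermat.Agent.S37_helper4_B1Defs Fermat.Agent.S37_helper5_LEVEL
  Fermat.Agent.S18_helper25_GLUE

local notation "Qb" => AlgebraicClosure ℚ

variable (A : ValuationSubring Qb) {K0 K1 : IntermediateField ℚ Qb}

/-! ### The inclusion of levels -/

/-- the inclusion `K0 → K1` -/
def S37MONO_ι (hle : K0 ≤ K1) : K0 →+* K1 := (IntermediateField.inclusion hle).toRingHom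

@[simp] theorem S37MONO_ι_coe (hle : K0 ≤ K1) (x : K0) :
    ((S37MONO_ι hle x : K1) : Qb) = (x : Qb) := rfl

theorem S37MONO_algebraMap_comp (hle : K0 ≤ K1) :
    (algebraMap K1 Qb).comp (S37MONO_ι hle) = algebraMap K0 Qb :=
  RingHom.ext fun _ => rfl

/-- the inclusion `O1(K0) → O1(K1)` -/
def S37MONO_ιO (hle : K0 ≤ K1) : S18K_O1 A K0 →+* S18K_O1 A K1 where
  toFun x := ⟨S37MONO_ι hle (x : K0), x.2⟩
  map_one' := rfl
  map_mul' _ _ := rfl
  map_zero' := rfl
  map_add' _ _ := rfl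

@[simp] theorem S37MONO_ιO_coe (hle : K0 ≤ K1) (x : S18K_O1 A K0) :
    ((S37MONO_ιO A hle x : S18K_O1 A K1) : K1) = S37MONO_ι hle (x : K0) := rfl

theorem S37MONO_res_comp (hle : K0 ≤ K1) :
    (S18K_res A K1).comp (S37MONO_ιO A hle) = S18K_res A K0 :=
  RingHom.ext fun _ => rfl

/-! ### Sublevels of admissible levels -/

/-- A sublevel of a discretely valued level is discretely valued (as soon as its valuation is
nontrivial). -/
theorem S37MONO_isDVR_of_le (hle : K0 ≤ K1) [IsDiscreteValuationRing (S18K_O1 A K1)]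
    (hnf : ∃ x : K0, x ≠ 0 ∧ (x : Qb) ∈ A ∧ ((x : Qb))⁻¹ ∉ A) :
    IsDiscreteValuationRing (S18K_O1 A K0) := by
  haveI : IsPrincipalIdealRing (S18K_O1 A K0) := by
    refine ⟨fun I => ?_⟩
    let f : I → ℕ∞ := fun x =>
      IsDiscreteValuationRing.addVal (S18K_O1 A K1) (S37MONO_ιO A hle (x : S18K_O1 A K0))
    obtain ⟨x0, hx0⟩ : ∃ x0 : I, ∀ y : I, f x0 ≤ f y := by
      have hwf : WellFounded ((· < ·) : ℕ∞ → ℕ∞ → Prop) := wellFounded_lt
      have hne : (Set.range f).Nonempty := ⟨f 0, ⟨0, rfl⟩⟩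
      obtain ⟨m, ⟨x0, rfl⟩, hmin⟩ := hwf.has_min (Set.range f) hne
      exact ⟨x0, fun y => not_lt.mp (hmin (f y) ⟨y, rfl⟩)⟩
    refine ⟨⟨(x0 : S18K_O1 A K0), ?_⟩⟩
    apply le_antisymm
    · intro y hy
      have h1 := hx0 ⟨y, hy⟩
      obtain ⟨t, ht⟩ := (IsDiscreteValuationRing.addVal_le_iff_dvd).1 h1
      rcases eq_or_ne (x0 : S18K_O1 A K0) 0 with h0 | h0
      · have hy0 : y = 0 := by
          apply Subtype.ext
          apply Subtype.ext
          have := congrArg (fun z : S18K_O1 A K1 => ((z : K1) : Qb)) ht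
          simp only [h0, map_zero, zero_mul] at this
          exact this
        rw [hy0]
        exact Submodule.zero_mem _
      · have hx0Q : (((x0 : S18K_O1 A K0) : K0) : Qb) ≠ 0 := by
          intro h
          apply h0
          apply Subtype.ext
          apply Subtype.ext
          exact h
        have htQ : ((t : K1) : Qb) = ((y : K0) : Qb) / (((x0 : S18K_O1 A K0) : K0) : Qb) := by
          have := congrArg (fun z : S18K_O1 A K1 => ((z : K1) : Qb)) ht
          have h2 : ((y : K0) : Qb) = (((x0 : S18K_O1 A K0) : K0) : Qb) * ((t : K1) : Qb) :=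
            this
          rw [h2]
          field_simp
        have htK0 : ((t : K1) : Qb) ∈ K0 := by
          rw [htQ]
          exact div_mem (y : K0).2 ((x0 : S18K_O1 A K0) : K0).2
        have htA : ((t : K1) : Qb) ∈ A := t.2
        let t0 : S18K_O1 A K0 := ⟨⟨((t : K1) : Qb), htK0⟩, htA⟩
        have hyt : y = t0 * (x0 : S18K_O1 A K0) := by
          apply Subtype.ext
          apply Subtype.ext
          show ((y : K0) : Qb) = ((t : K1) : Qb) * (((x0 : S18K_O1 A K0) : K0) : Qb)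
          rw [htQ]
          field_simp
        rw [hyt]
        exact Ideal.mul_mem_left _ _ (Ideal.subset_span (Set.mem_singleton _))
    · rw [Submodule.span_le]
      rintro y hy
      rw [Set.mem_singleton_iff] at hy
      rw [hy]
      exact x0.2
  refine { not_a_field' := ?_ }
  obtain ⟨x, hx0, hxA, hxinv⟩ := hnf
  intro hbot
  have hx : (⟨x, hxA⟩ : S18K_O1 A K0) ∈ IsLocalRing.maximalIdeal (S18K_O1 A K0) := by
    rw [IsLocalRing.mem_maximalIdeal, mem_nonunits_iff]
    rintro ⟨u, hu⟩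
    apply hxinv
    have h1 : (((u⁻¹ : (S18K_O1 A K0)ˣ) : S18K_O1 A K0) : K0) = x⁻¹ := by
      have h2 : (u : S18K_O1 A K0) * ((u⁻¹ : (S18K_O1 A K0)ˣ) : S18K_O1 A K0) = 1 := u.mul_inv
      have h3 := congrArg (fun z : S18K_O1 A K0 => (z : K0)) h2
      simp only [hu] at h3
      exact eq_inv_of_mul_eq_one_right h3
    have h4 : ((x : Qb))⁻¹ = (((((u⁻¹ : (S18K_O1 A K0)ˣ) : S18K_O1 A K0) : K0)) : Qb) := by
      rw [h1]
      simp
    rw [h4]
    exact ((u⁻¹ : (S18K_O1 A K0)ˣ) : S18K_O1 A K0).2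
  rw [hbot, Ideal.mem_bot] at hx
  exact hx0 (congrArg (fun z : S18K_O1 A K0 => (z : K0)) hx)

/-- The valuation of `A` is nontrivial on every level, when `A` lies over `ℓ`. -/
theorem S37MONO_exists_nonunit {ℓ : ℕ} (hℓ : ℓ.Prime) (hA : A.LiesOverPrime ℓ)
    (K0 : IntermediateField ℚ Qb) :
    ∃ x : K0, x ≠ 0 ∧ (x : Qb) ∈ A ∧ ((x : Qb))⁻¹ ∉ A := by
  have hlt : A.valuation (ℓ : Qb) < 1 := A.mem_nonunits_iff.1 hA
  have hl0 : (ℓ : Qb) ≠ 0 := by exact_mod_cast hℓ.ne_zero
  refine ⟨(ℓ : K0), ?_, ?_, ?_⟩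
  · exact_mod_cast hℓ.ne_zero
  · have : (((ℓ : K0) : K0) : Qb) = (ℓ : Qb) := by simp
    rw [this, ← A.valuation_le_one_iff]
    exact hlt.le
  · have : (((ℓ : K0) : K0) : Qb) = (ℓ : Qb) := by simp
    rw [this, ← A.valuation_le_one_iff, map_inv₀, not_le]
    exact (one_lt_inv₀ ((A.valuation).pos_iff.2 hl0)).2 hlt

/-- The residue map is surjective on every level containing the roots of unity of order prime
to `ℓ`. -/
theorem S37MONO_res_surj {ℓ : ℕ} (hℓ : ℓ.Prime) (hA : A.LiesOverPrime ℓ)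
    (K0 : IntermediateField ℚ Qb)
    (hroots : ∀ n : ℕ, ¬ ℓ ∣ n → ∀ ζ : Qb, ζ ^ n = 1 → ζ ∈ K0) :
    Function.Surjective (S18K_res A K0) := by
  have hle : Fermat.Agent.S18_helper5_BASE.S18A1_K1 ℓ ∅ ≤ K0 := by
    rw [Fermat.Agent.S18_helper5_BASE.S18A1_K1, IntermediateField.adjoin_le_iff]
    rintro ζ (h | ⟨n, hn, hζ⟩)
    · simp at h
    · exact hroots n hn ζ hζ
  intro y
  obtain ⟨x, hx⟩ := Fermat.Agent.S18_helper5_BASE.S18A1_res_surjective A hℓ hA ∅ y
  refine ⟨S37MONO_ιO A hle x, ?_⟩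
  rw [← hx]
  rfl

/-- A sublevel of an admissible level which contains the roots of unity is admissible. -/
theorem S37MONO_admissible_of_le {ℓ : ℕ} (hℓ : ℓ.Prime) (hA : A.LiesOverPrime ℓ)
    (hle : K0 ≤ K1) (h1 : S18K_Admissible A K1 ℓ)
    (hroots : ∀ n : ℕ, ¬ ℓ ∣ n → ∀ ζ : Qb, ζ ^ n = 1 → ζ ∈ K0) :
    S18K_Admissible A K0 ℓ where
  dvr := by
    haveI := h1.dvr
    exact S37MONO_isDVR_of_le A hle (S37MONO_exists_nonunit A hℓ hA K0)
  roots := hroots
  res_surj := S37MONO_res_surj A hℓ hA K0 hroots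

/-- **(inter)** The intersection of two admissible levels is admissible. -/
theorem S37MONO_admissible_inf {ℓ : ℕ} (hℓ : ℓ.Prime) (hA : A.LiesOverPrime ℓ)
    {K1 K2 : IntermediateField ℚ Qb} (h1 : S18K_Admissible A K1 ℓ)
    (h2 : S18K_Admissible A K2 ℓ) : S18K_Admissible A (K1 ⊓ K2) ℓ :=
  S37MONO_admissible_of_le A hℓ hA inf_le_left h1
    (fun n hn ζ hζ => ⟨h1.roots n hn ζ hζ, h2.roots n hn ζ hζ⟩)

/-! ### Rationality -/

section Rational

variable (N : ℕ) [NeZero N]

theorem S37MONO_coeffMap_comp (hle : K0 ≤ K1) (x : LaurentSeries K0) :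
    coeffMap (algebraMap K1 Qb) (coeffMap (S37MONO_ι hle) x) = coeffMap (algebraMap K0 Qb) x := by
  rw [coeffMap_coeffMap, S37MONO_algebraMap_comp]

/-- If `P` is rational at the levels `K1` and `K2`, and `K0 ≤ K1`, `K0 ≤ K2` with
`K1 ⊓ K2 ≤ K0`, then `P` is rational at the level `K0`. -/
theorem S37MONO_rational_of_le {K1 K2 : IntermediateField ℚ Qb} (hle1 : K0 ≤ K1)
    (hle2 : K0 ≤ K2) (hinf : K1 ⊓ K2 ≤ K0)
    (P : Place Qb (modularFunctionFieldBar N))
    (h1 : S37LEVEL_IsRational N K1 P) (h2 : S37LEVEL_IsRational N K2 P) :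
    S37LEVEL_IsRational N K0 P := by
  intro x hx z c hz hord
  refine hinf ⟨?_, ?_⟩
  · refine h1 (coeffMap (S37MONO_ι hle1) x) (S18G_coeffMap_mem _ N hx) z c ?_ hord
    rw [S37MONO_coeffMap_comp]
    exact hz
  · refine h2 (coeffMap (S37MONO_ι hle2) x) (S18G_coeffMap_mem _ N hx) z c ?_ hord
    rw [S37MONO_coeffMap_comp]
    exact hz

/-- **(inter)** Rationality descends to the intersection of two levels. -/
theorem S37MONO_rational_inf {K1 K2 : IntermediateField ℚ Qb}
    (P : Place Qb (modularFunctionFieldBar N))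
    (h1 : S37LEVEL_IsRational N K1 P) (h2 : S37LEVEL_IsRational N K2 P) :
    S37LEVEL_IsRational N (K1 ⊓ K2) P :=
  S37MONO_rational_of_le N inf_le_left inf_le_right le_rfl P h1 h2

end Rational

/-! ### Restriction of centres -/

section Mono

variable (N : ℕ) [NeZero N] (hle : K0 ≤ K1)

/-- the coefficientwise inclusion `K0((q)) → K1((q))` -/
def S37MONO_Φ : LaurentSeries K0 →+* LaurentSeries K1 := coeffMap (S37MONO_ι hle)

theorem S37MONO_Φ_injective : Function.Injective (S37MONO_Φ hle) :=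
  S18G_coeffMap_injective _

theorem S37MONO_Φ_C (c : K0) :
    S37MONO_Φ hle (HahnSeries.C c) = HahnSeries.C (S37MONO_ι hle c) := by
  rw [S37MONO_Φ, HahnSeries.C_apply, HahnSeries.C_apply, coeffMap_single]

theorem S37MONO_Φ_mem_O {x : LaurentSeries K0} (hx : x ∈ S18K_O A K0) :
    S37MONO_Φ hle x ∈ S18K_O A K1 := by
  obtain ⟨c, hc, rfl⟩ := hx
  exact ⟨S37MONO_ι hle c, hc, (S37MONO_Φ_C hle c).symm⟩

theorem S37MONO_Φ_j : S37MONO_Φ hle (S18K_j K0) = S18K_j K1 := by
  rw [S37MONO_Φ, S18K_j, S18K_j, coeffMap_jqModC]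

theorem S37MONO_Φ_mem_F1 {x : LaurentSeries K0} (hx : x ∈ modularFunctionFieldFullC K0 N) :
    S37MONO_Φ hle x ∈ modularFunctionFieldFullC K1 N :=
  S18G_coeffMap_mem _ N hx

/-- `Φ` maps `O0[x]` into `O1[Φ x]`. -/
theorem S37MONO_adj_le (x0 : LaurentSeries K0) :
    adj (S18K_O A K0) x0 ≤ (adj (S18K_O A K1) (S37MONO_Φ hle x0)).comap (S37MONO_Φ hle) := by
  rw [adj, Subring.closure_le]
  rintro y (hy | hy)
  · exact Subring.subset_closure (Or.inl (S37MONO_Φ_mem_O A hle hy))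
  · rw [Set.mem_singleton_iff] at hy
    subst hy
    exact Subring.subset_closure (Or.inr rfl)

/-- `Φ` maps the integral closure of `O0[x]` in `F1(K0)` into that of `O1[Φ x]` in `F1(K1)`. -/
theorem S37MONO_Φ_mem_icl (x0 : LaurentSeries K0) {a : LaurentSeries K0}
    (ha : a ∈ icl (adj (S18K_O A K0) x0) (S18K_F1 K0 N)) :
    S37MONO_Φ hle a ∈ icl (adj (S18K_O A K1) (S37MONO_Φ hle x0)) (S18K_F1 K1 N) := by
  obtain ⟨hint, hF⟩ := ha
  refine ⟨?_, S37MONO_Φ_mem_F1 N hle hF⟩
  let φ : adj (S18K_O A K0) x0 →+* adj (S18K_O A K1) (S37MONO_Φ hle x0) :=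
    ((S37MONO_Φ hle).comp (adj (S18K_O A K0) x0).subtype).codRestrict _
      (fun y => S37MONO_adj_le A hle x0 y.2)
  exact IsIntegral.map_of_comp_eq φ (S37MONO_Φ hle) (RingHom.ext fun _ => rfl) hint

theorem S37MONO_Φ_mem_A0 {a : LaurentSeries K0} (ha : a ∈ S18K_A0 A K0 N) :
    S37MONO_Φ hle a ∈ S18K_A0 A K1 N := by
  have h := S37MONO_Φ_mem_icl A N hle (S18K_j K0) ha
  rwa [S37MONO_Φ_j] at h

theorem S37MONO_Φ_mem_Ainf {a : LaurentSeries K0} (ha : a ∈ S18K_Ainf A K0 N) :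
    S37MONO_Φ hle a ∈ S18K_Ainf A K1 N := by
  have h := S37MONO_Φ_mem_icl A N hle (S18K_j K0)⁻¹ ha
  rwa [map_inv₀, S37MONO_Φ_j] at h

/-- `Φ` preserves the order at `P`. -/
theorem S37MONO_ordP (P : Place Qb (modularFunctionFieldBar N)) {a : LaurentSeries K0}
    (ha : a ∈ modularFunctionFieldFullC K0 N) :
    S37B1_ordP N K1 P (S37MONO_Φ hle a) = S37B1_ordP N K0 P a := by
  rw [S37B1_ordP, S37B1_ordP, dif_pos ha, dif_pos (S37MONO_Φ_mem_F1 N hle ha)]
  congr 1

section Gauss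

variable [IsDiscreteValuationRing (S18K_O1 A K0)] [IsDiscreteValuationRing (S18K_O1 A K1)]

theorem S37MONO_incS (γ : LaurentSeries (S18K_O1 A K0)) :
    (S18K_D A K1).incS (coeffMap (S37MONO_ιO A hle) γ) =
      S37MONO_Φ hle ((S18K_D A K0).incS γ) := by
  rw [GaussData.incS, GaussData.incS, S37MONO_Φ, coeffMap_coeffMap, coeffMap_coeffMap]
  rfl

theorem S37MONO_redS (γ : LaurentSeries (S18K_O1 A K0)) :
    (S18K_D A K1).redS (coeffMap (S37MONO_ιO A hle) γ) = (S18K_D A K0).redS γ := by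
  rw [GaussData.redS, GaussData.redS, coeffMap_coeffMap]
  rfl

/-- `Φ` is compatible with the Gauss valuation rings and with the reductions. -/
theorem S37MONO_redFun {a : LaurentSeries K0} (ha : a ∈ (S18K_D A K0).Vring) :
    S37MONO_Φ hle a ∈ (S18K_D A K1).Vring ∧
      (S18K_D A K1).redFun (S37MONO_Φ hle a) = (S18K_D A K0).redFun a := by
  obtain ⟨α, β, hβ, h⟩ := ha
  have hβ' : (S18K_D A K1).redS (coeffMap (S37MONO_ιO A hle) β) ≠ 0 := by
    rw [S37MONO_redS]; exact hβ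
  have h' : (S18K_D A K1).incS (coeffMap (S37MONO_ιO A hle) β) * S37MONO_Φ hle a =
      (S18K_D A K1).incS (coeffMap (S37MONO_ιO A hle) α) := by
    rw [S37MONO_incS, S37MONO_incS, ← map_mul, h]
  refine ⟨⟨_, _, hβ', h'⟩, ?_⟩
  rw [(S18K_D A K1).redFun_eq hβ' h', (S18K_D A K0).redFun_eq hβ h, S37MONO_redS, S37MONO_redS]

omit [IsDiscreteValuationRing (S18K_O1 A K1)] in
/-- `K0` is the fraction field of `O1(K0)`. -/
theorem S37MONO_hK (c : K0) :
    ∃ a b : S18K_O1 A K0, b ≠ 0 ∧ (S18K_D A K0).inc b * c = (S18K_D A K0).inc a := by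
  rcases A.mem_or_inv_mem (c : Qb) with h | h
  · exact ⟨⟨c, h⟩, 1, one_ne_zero, by rw [map_one, one_mul]; rfl⟩
  · have hc : (((c⁻¹ : K0) : K0) : Qb) ∈ A := by
      have : (((c⁻¹ : K0) : K0) : Qb) = ((c : K0) : Qb)⁻¹ := by simp
      rw [this]; exact h
    by_cases hc0 : c = 0
    · exact ⟨0, 1, one_ne_zero, by rw [hc0, mul_zero, map_zero]⟩
    · refine ⟨1, ⟨c⁻¹, hc⟩, ?_, ?_⟩
      · intro h0
        have := congrArg Subtype.val h0
        exact inv_ne_zero hc0 this
      · rw [map_one]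
        show c⁻¹ * c = 1
        exact inv_mul_cancel₀ hc0

omit [IsDiscreteValuationRing (S18K_O1 A K1)] in
/-- The integral closure of `O0[x]` in `F1` consists of Gauss-integral elements. -/
theorem S37MONO_icl_le_Vring (x0 : LaurentSeries K0) (hx0 : x0 ∈ (S18K_D A K0).Vring) :
    icl (adj (S18K_O A K0) x0) (S18K_F1 K0 N) ≤ (S18K_D A K0).Vring := by
  rintro a ⟨hint, hF⟩
  have hRV : adj (S18K_O A K0) x0 ≤ (S18K_D A K0).Vring := by
    rw [adj, Subring.closure_le]
    rintro y (hy | hy)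
    · exact Fermat.Agent.S37_helper21_F5e.S37F5e_O_le_Vring K0 A hy
    · rw [Set.mem_singleton_iff] at hy
      rw [hy]
      exact hx0
  have hint' : IsIntegral (S18K_D A K0).Vring a :=
    IsIntegral.map_of_comp_eq (Subring.inclusion hRV) (RingHom.id _)
      (RingHom.ext fun _ => rfl) hint
  exact (S18K_D A K0).mem_Vring_of_isIntegral
    ((S18K_D A K0).modularFunctionFieldFullC_le_fracField (S37MONO_hK A) N a hF) hint'

omit [IsDiscreteValuationRing (S18K_O1 A K1)] in
theorem S37MONO_A0_le_Vring : S18K_A0 A K0 N ≤ (S18K_D A K0).Vring :=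
  S37MONO_icl_le_Vring A N _ (S18K_D A K0).jqModC_mem_Vring

omit [IsDiscreteValuationRing (S18K_O1 A K1)] in
theorem S37MONO_Ainf_le_Vring : S18K_Ainf A K0 N ≤ (S18K_D A K0).Vring := by
  refine S37MONO_icl_le_Vring A N _ ((S18K_D A K0).inv_mem_Vring (S18K_D A K0).jqModC_mem_Vring ?_)
  rw [S18K_j, (S18K_D A K0).redFun_jqModC]
  exact jqModC_ne_zero_of_nontrivial _

/-- **(mono), abstract chart.** -/
theorem S37MONO_centred_of (As0 : Subring (LaurentSeries K0)) (As1 : Subring (LaurentSeries K1))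
    (hmap : ∀ a ∈ As0, S37MONO_Φ hle a ∈ As1)
    (hF : ∀ a ∈ As0, a ∈ modularFunctionFieldFullC K0 N)
    (hV : As0 ≤ (S18K_D A K0).Vring)
    (P : Place Qb (modularFunctionFieldBar N))
    (Q : Place (IsLocalRing.ResidueField A)
      (modularFunctionFieldFullC (IsLocalRing.ResidueField A) N))
    (h : S37B1_Centred N A K1 As1 P Q) : S37B1_Centred N A K0 As0 P Q := by
  intro a ha ha0
  have h1 := h (S37MONO_Φ hle a) (hmap a ha)
    ((map_ne_zero_iff _ (S37MONO_Φ_injective hle)).2 ha0)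
  rw [S37MONO_ordP N hle P (hF a ha), (S37MONO_redFun A hle (hV ha)).2] at h1
  exact h1

include hle in
/-- **(mono)** for the chart `j ≠ ∞`. -/
theorem S37MONO_centred_A0 (P : Place Qb (modularFunctionFieldBar N))
    (Q : Place (IsLocalRing.ResidueField A)
      (modularFunctionFieldFullC (IsLocalRing.ResidueField A) N))
    (h : S37B1_Centred N A K1 (S18K_A0 A K1 N) P Q) :
    S37B1_Centred N A K0 (S18K_A0 A K0 N) P Q :=
  S37MONO_centred_of A N hle _ _ (fun _ ha => S37MONO_Φ_mem_A0 A N hle ha)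
    (fun _ ha => ha.2) (S37MONO_A0_le_Vring A N) P Q h

include hle in
/-- **(mono)** for the chart `j ≠ 0`. -/
theorem S37MONO_centred_Ainf (P : Place Qb (modularFunctionFieldBar N))
    (Q : Place (IsLocalRing.ResidueField A)
      (modularFunctionFieldFullC (IsLocalRing.ResidueField A) N))
    (h : S37B1_Centred N A K1 (S18K_Ainf A K1 N) P Q) :
    S37B1_Centred N A K0 (S18K_Ainf A K0 N) P Q :=
  S37MONO_centred_of A N hle _ _ (fun _ ha => S37MONO_Φ_mem_Ainf A N hle ha)
    (fun _ ha => ha.2) (S37MONO_Ainf_le_Vring A N) P Q h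

end Gauss

end Mono

end Fermat.Agent.S37_helper21_MONO
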