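import Mathlib
import Fermat.Agent.S34_helper3_XL2
import Fermat.Agent.S34_helper7_LGDefs
import Fermat.Agent.S37_helper21_MONO
import Fermat.Agent.S34_helper21_CI

/-!
# S34, X-L2 (output half): from the STOP / GO alternative to the node data (helper17)

`S34L2_Concl` (helper3, `S34_helper3_XL2`) is the conclusion of X-L2 in the language of the chart
maps; `S34LGK_NodeData` / `S34LGK_Node` (helper7, `S34_helper7_LGDefs`) is the input of X-LOCGEN.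

* `S34LO2_act_Φ`   : inertia fixes the series with coefficients in the unramified level;
* `S34LO2_nodeData`: one bound `B`;
* `S34LO2_node`    : the contract `S34LGK_Node`.
-/

set_option autoImplicit false
set_option linter.style.haveILetI false
set_option linter.unusedSectionVars false
set_option linter.unusedVariables false
set_option synthInstance.maxHeartbeats 400000
set_option maxHeartbeats 1600000

open AlgebraicCurve ModularCurve HahnSeries IntermediateField IsLocalRing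

noncomputable section

namespace Fermat.Agent.S34_helper17_L2OUT

open Fermat.Agent.S18_helper9_CDefs Fermat.Agent.S18_helper25_COREDefs
  Fermat.Agent.S18_helper13_GAUSS Fermat.Agent.S18_helper3_LOCRING
  Fermat.Agent.S34_Contracts Fermat.Agent.S34_helper21_ACT Fermat.Agent.S34_helper21_CI
  Fermat.Agent.S34_helper7_LGDefs Fermat.Agent.S34_helper3_XL2
  Fermat.Agent.S34_helper17_NADAPT Fermat.Agent.S37_helper21_MONO

local notation "Qb" => AlgebraicClosure ℚ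
local notation "GQ" => (AlgebraicClosure ℚ ≃ₐ[ℚ] AlgebraicClosure ℚ)

variable (A : ValuationSubring Qb) {K0 K1 : IntermediateField ℚ Qb} (hle : K0 ≤ K1)
  (hstab : ∀ σ : GQ, ∀ x ∈ K1, σ x ∈ K1)

/-- An automorphism which fixes `K0` pointwise fixes the series with coefficients in `K0`. -/
theorem S34LO2_act_Φ (τ : GQ) (hτ : ∀ x ∈ K0, τ x = x) (x : LaurentSeries K0) :
    S34ACT_act K1 hstab τ (S37MONO_Φ hle x) = S37MONO_Φ hle x := by
  ext n
  rw [S34ACT_act_coeff]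
  have e : (S37MONO_Φ hle x).coeff n = S37MONO_ι hle (x.coeff n) := coeffMap_coeff _ _ _
  rw [e, S34ACT_res_coe]
  exact hτ _ (x.coeff n).2

variable [IsDiscreteValuationRing (S18K_O1 A K0)] [IsDiscreteValuationRing (S18K_O1 A K1)]
  (N : ℕ) [NeZero N]

/-- the uniformiser of the small level, as an element of the big level -/
def S34LO2_ϖ : K1 := S37MONO_ι hle (((S18K_D A K0).π : S18K_O1 A K0) : K0)

theorem S34LO2_Φ_π : S37MONO_Φ hle (S18K_π A K0) = HahnSeries.C (S34LO2_ϖ A hle) := by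
  have e0 : S18K_π A K0 = HahnSeries.C (((S18K_D A K0).π : S18K_O1 A K0) : K0) := rfl
  rw [e0, S37MONO_Φ_C]
  rfl

theorem S34LO2_ϖ_nonunit : ((S34LO2_ϖ A hle : K1) : Qb) ∈ A.nonunits :=
  S34CI_pi_nonunit A K0

theorem S34LO2_ϖ_ne : S34LO2_ϖ A hle ≠ 0 := by
  intro h
  have h1 : ((S34LO2_ϖ A hle : K1) : Qb) = 0 := by rw [h]; rfl
  have h2 : ((((S18K_D A K0).π : S18K_O1 A K0) : K0) : Qb) = 0 := h1
  have h3 : (((S18K_D A K0).π : S18K_O1 A K0) : K0) = 0 := by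
    apply Subtype.ext
    exact h2
  exact (S18K_D A K0).π_ne_zero (Subtype.ext h3)

/-- **X-L2, output adapter (one bound).** -/
theorem S34LO2_nodeData
    (X₀ : Subring (LaurentSeries K0)) (X : Subring (LaurentSeries K1))
    (hΦ : ∀ a ∈ X₀, S37MONO_Φ hle a ∈ X) (W1 W2 : Subring (LaurentSeries K0))
    (V2 : Subring (LaurentSeries K1)) (m₁ : Ideal X) [hm₁ : m₁.IsPrime]
    (hfix : ∀ τ : GQ, τ ∈ A.inertiaSubgroupIn ℚ → ∀ x ∈ K0, τ x = x)
    (hX₀ : X₀ ≤ W1 ⊓ W2)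
    (hW1 : ∀ v ∈ W1, S37MONO_Φ hle v ∈ S18K_V A K1 N)
    (hW2 : ∀ v ∈ W2, S37MONO_Φ hle v ∈ V2)
    (hu1 : ∀ x ∈ W1, x⁻¹ ∉ W1 → ∃ v ∈ W1, x = S18K_π A K0 * v)
    (hu2 : ∀ x ∈ W2, x⁻¹ ∉ W2 → ∃ v ∈ W2, x = S18K_π A K0 * v)
    (π₀ : X₀) (hπ₀ : (π₀ : LaurentSeries K0) = S18K_π A K0)
    (π₁ : X) (hπ₁ : (π₁ : LaurentSeries K1) = S18K_π A K1)
    (Pinf₀ P0₀ : Ideal X₀)
    (hPinf : ∀ a : X₀, (∃ v ∈ W1, (a : LaurentSeries K0) = S18K_π A K0 * v) → a ∈ Pinf₀)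
    (hP0 : ∀ a : X₀, (∃ v ∈ W2, (a : LaurentSeries K0) = S18K_π A K0 * v) → a ∈ P0₀)
    (B : ℕ)
    (h : S34L2_Concl (S37MONO_Φ hle) X₀ X hΦ m₁ π₀ π₁ Pinf₀ P0₀ B) :
    ∃ (ϖ : K1) (k : ℕ) (T S c : LaurentSeries K1),
      S34LGK_NodeData N A K1 hstab V2 X m₁ ϖ k T S c ∧
        ((c ≠ 0 ∧ c⁻¹ ∈ locRing X m₁) ∨ B ≤ k) := by
  -- the common part
  have key : ∀ (k : ℕ) (Xc Yc : X₀) (c : locRing X m₁),
      incl X m₁ (S34NA_chartMap (S37MONO_Φ hle) X₀ X hΦ Xc) *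
          incl X m₁ (S34NA_chartMap (S37MONO_Φ hle) X₀ X hΦ Yc) =
        incl X m₁ (S34NA_chartMap (S37MONO_Φ hle) X₀ X hΦ π₀) ^ k * c →
      maximalIdeal (locRing X m₁) = Ideal.span ({incl X m₁ π₁,
        incl X m₁ (S34NA_chartMap (S37MONO_Φ hle) X₀ X hΦ Xc),
        incl X m₁ (S34NA_chartMap (S37MONO_Φ hle) X₀ X hΦ Yc)} : Set (locRing X m₁)) →
      Xc ∉ Pinf₀ → Yc ∉ P0₀ →
      S34LGK_NodeData N A K1 hstab V2 X m₁ (S34LO2_ϖ A hle) k
        (S37MONO_Φ hle (Xc : LaurentSeries K0)) (S37MONO_Φ hle (Yc : LaurentSeries K0))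
        (c : LaurentSeries K1) := by
    intro k Xc Yc c hmul hgen hXinf hY0
    have hXW1 : (Xc : LaurentSeries K0) ∈ W1 := (hX₀ Xc.2).1
    have hYW2 : (Yc : LaurentSeries K0) ∈ W2 := (hX₀ Yc.2).2
    have hXinv : ((Xc : LaurentSeries K0))⁻¹ ∈ W1 := by
      by_contra hcon
      exact hXinf (hPinf Xc (hu1 _ hXW1 hcon))
    have hYinv : ((Yc : LaurentSeries K0))⁻¹ ∈ W2 := by
      by_contra hcon
      exact hY0 (hP0 Yc (hu2 _ hYW2 hcon))
    have hX0 : (Xc : LaurentSeries K0) ≠ 0 := by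
      intro h0
      apply hXinf
      have : Xc = 0 := Subtype.ext h0
      rw [this]
      exact Pinf₀.zero_mem
    have hY0' : (Yc : LaurentSeries K0) ≠ 0 := by
      intro h0
      apply hY0
      have : Yc = 0 := Subtype.ext h0
      rw [this]
      exact P0₀.zero_mem
    refine
      { ϖ_fix := fun τ hτ => hfix τ hτ _ (((S18K_D A K0).π : S18K_O1 A K0) : K0).2
        ϖ_nonunit := S34LO2_ϖ_nonunit A hle
        ϖ_ne := S34LO2_ϖ_ne A hle
        T_mem := hΦ _ Xc.2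
        S_mem := hΦ _ Yc.2
        c_mem := c.2
        mul_eq := ?_
        T_fix := fun τ hτ => S34LO2_act_Φ hle hstab τ (hfix τ hτ) _
        S_fix := fun τ hτ => S34LO2_act_Φ hle hstab τ (hfix τ hτ) _
        T_ne := (map_ne_zero_iff _ (S37MONO_Φ_injective hle)).2 hX0
        T_inv := ?_
        S_ne := (map_ne_zero_iff _ (S37MONO_Φ_injective hle)).2 hY0'
        S_inv := ?_
        gen := ?_ }
    · have h1 := congrArg (fun z : locRing X m₁ => (z : LaurentSeries K1)) hmul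
      simp only [Subring.coe_mul, Subring.coe_pow] at h1
      have e1 : ((incl X m₁ (S34NA_chartMap (S37MONO_Φ hle) X₀ X hΦ Xc) : locRing X m₁) :
          LaurentSeries K1) = S37MONO_Φ hle (Xc : LaurentSeries K0) := rfl
      have e2 : ((incl X m₁ (S34NA_chartMap (S37MONO_Φ hle) X₀ X hΦ Yc) : locRing X m₁) :
          LaurentSeries K1) = S37MONO_Φ hle (Yc : LaurentSeries K0) := rfl
      have e3 : ((incl X m₁ (S34NA_chartMap (S37MONO_Φ hle) X₀ X hΦ π₀) : locRing X m₁) :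
          LaurentSeries K1) = HahnSeries.C (S34LO2_ϖ A hle) := by
        show S37MONO_Φ hle (π₀ : LaurentSeries K0) = _
        rw [hπ₀, S34LO2_Φ_π]
      rw [e1, e2, e3] at h1
      rw [h1, map_pow]
    · rw [← map_inv₀]
      exact hW1 _ hXinv
    · rw [← map_inv₀]
      exact hW2 _ hYinv
    · intro hπ
      rw [hgen]
      have e : π₁ = ⟨S18K_π A K1, hπ⟩ := Subtype.ext hπ₁
      rw [e]
      rfl
  rcases h with ⟨k, hk1, hkB, Xc, Yc, c, hc, hmul, hgen, -, hXinf, -, hY0⟩ |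
    ⟨Xc, Yc, c, hmul, hgen, -, hXinf, -, hY0⟩
  · refine ⟨S34LO2_ϖ A hle, k, _, _, _, key k Xc Yc c hmul hgen hXinf hY0, Or.inl ⟨?_, ?_⟩⟩
    · intro h0
      have : c = 0 := Subtype.ext h0
      rw [this] at hc
      exact not_isUnit_zero hc
    · obtain ⟨u, hu⟩ := hc
      have h4 : ((u⁻¹ : (locRing X m₁)ˣ) : locRing X m₁) * c = 1 := by
        rw [← hu]
        exact u.inv_mul
      have h5 : (((u⁻¹ : (locRing X m₁)ˣ) : locRing X m₁) : LaurentSeries K1) *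
          (c : LaurentSeries K1) = 1 := by
        have := congrArg (fun z : locRing X m₁ => (z : LaurentSeries K1)) h4
        simpa using this
      have h6 : ((c : LaurentSeries K1))⁻¹ =
          (((u⁻¹ : (locRing X m₁)ˣ) : locRing X m₁) : LaurentSeries K1) :=
        (eq_inv_of_mul_eq_one_left h5).symm
      rw [h6]
      exact ((u⁻¹ : (locRing X m₁)ˣ) : locRing X m₁).2
  · exact ⟨S34LO2_ϖ A hle, B + 1, _, _, _, key (B + 1) Xc Yc c hmul hgen hXinf hY0,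
      Or.inr (Nat.le_succ B)⟩

/-- **X-L2, output adapter: the contract `S34LGK_Node`.** -/
theorem S34LO2_node
    (X₀ : Subring (LaurentSeries K0)) (X : Subring (LaurentSeries K1))
    (hΦ : ∀ a ∈ X₀, S37MONO_Φ hle a ∈ X) (W1 W2 : Subring (LaurentSeries K0))
    (V2 : Subring (LaurentSeries K1))
    (hfix : ∀ τ : GQ, τ ∈ A.inertiaSubgroupIn ℚ → ∀ x ∈ K0, τ x = x)
    (hX₀ : X₀ ≤ W1 ⊓ W2)
    (hW1 : ∀ v ∈ W1, S37MONO_Φ hle v ∈ S18K_V A K1 N)
    (hW2 : ∀ v ∈ W2, S37MONO_Φ hle v ∈ V2)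
    (hu1 : ∀ x ∈ W1, x⁻¹ ∉ W1 → ∃ v ∈ W1, x = S18K_π A K0 * v)
    (hu2 : ∀ x ∈ W2, x⁻¹ ∉ W2 → ∃ v ∈ W2, x = S18K_π A K0 * v)
    (π₀ : X₀) (hπ₀ : (π₀ : LaurentSeries K0) = S18K_π A K0)
    (Pinf₀ P0₀ : Ideal X₀)
    (hPinf : ∀ a : X₀, (∃ v ∈ W1, (a : LaurentSeries K0) = S18K_π A K0 * v) → a ∈ Pinf₀)
    (hP0 : ∀ a : X₀, (∃ v ∈ W2, (a : LaurentSeries K0) = S18K_π A K0 * v) → a ∈ P0₀)
    (hconcl : ∀ (hπ : S18K_π A K1 ∈ X) (m : Ideal X) (hm : m.IsMaximal),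
      (⟨S18K_π A K1, hπ⟩ : X) ∈ m →
      S34K_Thru (S18K_π A K1) (S18K_V A K1 N) X m → S34K_Thru (S18K_π A K1) V2 X m →
      ∀ B : ℕ, haveI := hm.isPrime
        S34L2_Concl (S37MONO_Φ hle) X₀ X hΦ m π₀ ⟨S18K_π A K1, hπ⟩ Pinf₀ P0₀ B) :
    S34LGK_Node N A K1 hstab V2 X := by
  intro hπ m hm hπm h1 h2 B
  haveI := hm.isPrime
  exact S34LO2_nodeData A hle hstab N X₀ X hΦ W1 W2 V2 m hfix hX₀ hW1 hW2 hu1 hu2 π₀ hπ₀
    ⟨S18K_π A K1, hπ⟩ rfl Pinf₀ P0₀ hPinf hP0 B (hconcl hπ m hm hπm h1 h2 B)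

end Fermat.Agent.S34_helper17_L2OUT
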