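import Mathlib
import Fermat.Agent.S18_helper12_TOP
import Fermat.Agent.S18_helper25_FINAL
import Fermat.Agent.S18_helper20_ASAT
import Fermat.Agent.S18_helper14_AK
import Fermat.Agent.S37_helper21_MONO

/-!
# S34, change of level for the smooth charts: `[IG]` generators are stable

Let `K0 ≤ K1` be two admissible levels for `(A, ℓ)` and `ℓ ∤ N`.  Let `X` be one of the two charts
(`S18K_A0`, `S18K_Ainf`) of level `N`, and `Φ : K0((q)) → K1((q))` the coefficientwise inclusion.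

* `S34IM_approx_A0`, `S34IM_approx_Ainf`: every element of `X(K1)` is congruent modulo `π₁ X(K1)`
  to `Φ z₀` for some `z₀ ∈ X(K0)` (the chart is `O₁ · C₀` and the two levels have the same residue
  field).
* `S34IM_gen_mono_A0`, `S34IM_gen_mono_Ainf`: if `y₀ ∈ X(K0)` generates, locally and modulo `π₀`,
  the contraction `m₀` of a maximal ideal `m₁ ∋ π₁` of `X(K1)`, then `Φ y₀` generates `m₁` locally
  modulo `π₁`.
* `S34IM_exists_A0`, `S34IM_exists_Ainf`: such a `y₀` exists.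

The abstract statement behind this is `S34IM_gen_transfer`.
-/

set_option autoImplicit false
set_option linter.unusedSectionVars false
set_option linter.unusedVariables false
set_option linter.style.haveILetI false

open ModularCurve HahnSeries

noncomputable section

namespace Fermat.Agent.S34_helper17_IGMONO

/-! ### The abstract transfer -/

section Abstract

variable {L : Type*} [Field L]

/-- `y` generates the ideal `m` of the subring `X`, locally at `m` and modulo `π`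
(the elementwise shape of block B's `[IG]`). -/
def S34IM_Gen (π : L) (X : Subring L) (m : Ideal X) (y : X) : Prop :=
  y ∈ m ∧ ∀ hπ : π ∈ X, ∀ x ∈ m, ∃ c : X, c ∉ m ∧ ∃ a b : X, c * x = a * ⟨π, hπ⟩ + b * y

/-- A generator in the sense of `S34IM_Gen` witnesses `IGAt` of `S18_helper3_LOCRING`. -/
theorem S34IM_igAt_of_gen {π : L} {X : Subring L} {m : Ideal X} {y : X}
    (h : S34IM_Gen π X m y) : Fermat.Agent.S18_helper3_LOCRING.IGAt π X m :=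
  fun hπ => ⟨y, h.1, h.2 hπ⟩

/-- A generator can be changed modulo `π`. -/
theorem S34IM_gen_congr {π : L} {X : Subring L} {m : Ideal X} {y y' : X} (hπ : π ∈ X)
    (hπm : (⟨π, hπ⟩ : X) ∈ m) (hy : S34IM_Gen π X m y) (w : X) (h : y = y' + ⟨π, hπ⟩ * w) :
    S34IM_Gen π X m y' := by
  refine ⟨?_, fun hπ' x hx => ?_⟩
  · have : y' = y - ⟨π, hπ⟩ * w := by rw [h]; ring
    rw [this]
    exact m.sub_mem hy.1 (m.mul_mem_right _ hπm)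
  · obtain ⟨c, hc, a, b, hab⟩ := hy.2 hπ x hx
    refine ⟨c, hc, a + b * w, b, ?_⟩
    rw [hab, h]
    ring

variable {L' : Type*} [Field L']

/-- **Transfer of generators** along a ring homomorphism `φ : X₀ → X₁`: if `X₁ = φ X₀ + π₁ X₁`,
`φ π₀ ∈ π₁ X₁`, and `m₁` has some local generator modulo `π₁`, then the image of every local
generator of `m₀ = φ⁻¹ m₁` modulo `π₀` is a local generator of `m₁` modulo `π₁`. -/
theorem S34IM_gen_transfer {π₀ : L} {π₁ : L'} {X₀ : Subring L} {X₁ : Subring L'}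
    (φ : X₀ →+* X₁) (hπ₀ : π₀ ∈ X₀) (hπ₁ : π₁ ∈ X₁)
    (hππ : ∃ u : X₁, φ ⟨π₀, hπ₀⟩ = ⟨π₁, hπ₁⟩ * u)
    (happ : ∀ y₁ : X₁, ∃ (z₀ : X₀) (w : X₁), y₁ = φ z₀ + ⟨π₁, hπ₁⟩ * w)
    (m₁ : Ideal X₁) (hm₁ : m₁.IsPrime) (hπm : (⟨π₁, hπ₁⟩ : X₁) ∈ m₁)
    (hIG : ∃ y₁ : X₁, S34IM_Gen π₁ X₁ m₁ y₁)
    (y₀ : X₀) (hy₀ : S34IM_Gen π₀ X₀ (m₁.comap φ) y₀) :
    S34IM_Gen π₁ X₁ m₁ (φ y₀) := by
  obtain ⟨y₁, hy₁⟩ := hIG
  obtain ⟨z₀, w, hzw⟩ := happ y₁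
  have hz₁ : S34IM_Gen π₁ X₁ m₁ (φ z₀) := S34IM_gen_congr hπ₁ hπm hy₁ w hzw
  have hz₀ : z₀ ∈ m₁.comap φ := hz₁.1
  obtain ⟨c, hc, a, b, hab⟩ := hy₀.2 hπ₀ z₀ hz₀
  obtain ⟨u, hu⟩ := hππ
  have hab' : φ c * φ z₀ = (φ a * u) * ⟨π₁, hπ₁⟩ + φ b * φ y₀ := by
    rw [← map_mul, hab, map_add, map_mul, map_mul, hu]
    ring
  refine ⟨hy₀.1, fun hπ' x hx => ?_⟩
  obtain ⟨c₁, hc₁, a₁, b₁, hab₁⟩ := hz₁.2 hπ₁ x hx
  refine ⟨φ c * c₁, fun hmem => ?_, φ c * a₁ + b₁ * (φ a * u), b₁ * φ b, ?_⟩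
  · rcases hm₁.mem_or_mem hmem with h | h
    · exact hc h
    · exact hc₁ h
  · calc φ c * c₁ * x = φ c * (c₁ * x) := by ring
      _ = φ c * (a₁ * ⟨π₁, hπ₁⟩ + b₁ * φ z₀) := by rw [hab₁]
      _ = φ c * a₁ * ⟨π₁, hπ₁⟩ + b₁ * (φ c * φ z₀) := by ring
      _ = (φ c * a₁ + b₁ * (φ a * u)) * ⟨π₁, hπ₁⟩ + b₁ * φ b * φ y₀ := by rw [hab']; ring

/-- The contraction of a maximal ideal containing `π₁` is maximal, when `X₁ = φ X₀ + π₁ X₁`. -/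
theorem S34IM_comap_isMaximal {π₁ : L'} {X₀ : Subring L} {X₁ : Subring L'}
    (φ : X₀ →+* X₁) (hπ₁ : π₁ ∈ X₁)
    (happ : ∀ y₁ : X₁, ∃ (z₀ : X₀) (w : X₁), y₁ = φ z₀ + ⟨π₁, hπ₁⟩ * w)
    (m₁ : Ideal X₁) (hm₁ : m₁.IsMaximal) (hπm : (⟨π₁, hπ₁⟩ : X₁) ∈ m₁) :
    (m₁.comap φ).IsMaximal := by
  haveI := hm₁.isPrime
  rw [Ideal.isMaximal_iff]
  refine ⟨fun h1 => ?_, fun J x hJ hx hxJ => ?_⟩
  · have : φ 1 ∈ m₁ := h1
    rw [map_one] at this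
    exact hm₁.ne_top ((Ideal.eq_top_iff_one _).2 this)
  · have hx' : φ x ∉ m₁ := hx
    obtain ⟨y₁, hy₁⟩ := hm₁.exists_inv hx'
    obtain ⟨i, hi, hyi⟩ : ∃ i ∈ m₁, y₁ * φ x + i = 1 := by
      obtain ⟨i, hi, h⟩ := hy₁
      exact ⟨i, hi, h⟩
    obtain ⟨z₀, w, hzw⟩ := happ y₁
    have hmem : 1 - z₀ * x ∈ m₁.comap φ := by
      show φ (1 - z₀ * x) ∈ m₁
      have e : φ (1 - z₀ * x) = i + ⟨π₁, hπ₁⟩ * (w * φ x) := by
        rw [map_sub, map_one, map_mul, ← hyi, hzw]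
        ring
      rw [e]
      exact m₁.add_mem hi (m₁.mul_mem_right _ hπm)
    have h1 : (1 : X₀) = (1 - z₀ * x) + z₀ * x := by ring
    rw [h1]
    exact J.add_mem (hJ hmem) (J.mul_mem_left _ hxJ)

end Abstract

/-! ### The two charts at two admissible levels -/

section Concrete

open Fermat.Agent.S18_helper25_COREDefs Fermat.Agent.S18_helper9_CDefs
  Fermat.Agent.S37_helper21_MONO Fermat.Agent.S18_helper18_TENSORO
  Fermat.Agent.S18_helper13_GAUSS Fermat.Agent.S18A Fermat.Agent.S18AK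
  Fermat.Agent.S28_helper14_Defs Fermat.Agent.S28_helper14_Res ModularCurve.IgusaScheme

local notation "Qb" => AlgebraicClosure ℚ

variable (A : ValuationSubring Qb) {K0 K1 : IntermediateField ℚ Qb} (N : ℕ) [NeZero N]
  (ℓ : ℕ) [Fact ℓ.Prime] (hle : K0 ≤ K1)

/-- `Φ` on constants of `O₀`. -/
theorem S34IM_Φ_cstO (c : S18K_O1 A K0) :
    S37MONO_Φ hle (cstO (↥K0) c) = cstO (↥K1) (S37MONO_ιO A hle c) := by
  rw [cstO, RingHom.comp_apply, S37MONO_Φ_C]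
  rfl

/-- `Φ` on `q`-expansions with rational coefficients. -/
theorem S34IM_Φ_embQ (x : LaurentSeries ℚ) :
    S37MONO_Φ hle (embQ (↥K0) x) = embQ (↥K1) x := by
  rw [S37MONO_Φ, embQ, embQ, coeffMap_coeffMap]
  congr 1

/-- `Φ` on the generators of the chart ring. -/
theorem S34IM_Φ_embC (C0 : Subalgebra (Rl ℓ) ↥(modularFunctionFieldFull N)) (x : C0) :
    S37MONO_Φ hle (embC N ℓ C0 (↥K0) x) = embC N ℓ C0 (↥K1) x := by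
  rw [embC_apply, embC_apply, S34IM_Φ_embQ]

variable [IsDiscreteValuationRing (S18K_O1 A K0)] [IsDiscreteValuationRing (S18K_O1 A K1)]

/-- the uniformiser of `O₁` as a constant of the chart ring -/
theorem S34IM_π_eq : S18K_π A K1 = cstO (↥K1) (S18K_D A K1).π := rfl

/-- an element of `O₁` with zero residue is a multiple of the uniformiser -/
theorem S34IM_dvd_of_res (c : S18K_O1 A K1) (hc : S18K_res A K1 c = 0) :
    ∃ d : S18K_O1 A K1, c = (S18K_D A K1).π * d :=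
  ((S18K_D A K1).res_eq_zero_iff c).1 hc

/-- **Approximation**: modulo `π₁`, the chart ring `O₁ · C₀` is the image of `O₀ · C₀`. -/
theorem S34IM_approx_chartO (hres : Function.Surjective (S18K_res A K0))
    (C0 : Subalgebra (Rl ℓ) ↥(modularFunctionFieldFull N)) {y₁ : LaurentSeries K1}
    (hy₁ : y₁ ∈ chartO N ℓ C0 (S18K_O1 A K1) (↥K1)) :
    ∃ z₀ ∈ chartO N ℓ C0 (S18K_O1 A K0) (↥K0), ∃ w ∈ chartO N ℓ C0 (S18K_O1 A K1) (↥K1),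
      y₁ = S37MONO_Φ hle z₀ + S18K_π A K1 * w := by
  refine chartO_induction N ℓ C0
    (P := fun y₁ => ∃ z₀ ∈ chartO N ℓ C0 (S18K_O1 A K0) (↥K0),
      ∃ w ∈ chartO N ℓ C0 (S18K_O1 A K1) (↥K1), y₁ = S37MONO_Φ hle z₀ + S18K_π A K1 * w)
    ?_ ?_ ?_ ?_ hy₁
  · exact ⟨0, Subring.zero_mem _, 0, Subring.zero_mem _, by simp⟩
  · intro c x
    obtain ⟨c₀, hc₀⟩ := hres (S18K_res A K1 c)
    have hz : S18K_res A K1 (c - S37MONO_ιO A hle c₀) = 0 := by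
      rw [map_sub, sub_eq_zero, ← hc₀]
      rfl
    obtain ⟨d, hd⟩ := S34IM_dvd_of_res A _ hz
    refine ⟨cstO (↥K0) c₀ * embC N ℓ C0 (↥K0) x, prod_mem_chartO N ℓ C0 c₀ x,
      cstO (↥K1) d * embC N ℓ C0 (↥K1) x, prod_mem_chartO N ℓ C0 d x, ?_⟩
    rw [map_mul, S34IM_Φ_cstO, S34IM_Φ_embC, S34IM_π_eq, ← mul_assoc, ← map_mul, ← hd, ← add_mul,
      ← map_add]
    congr 2
    ring
  · rintro _ _ ⟨z, hz, w, hw, rfl⟩ ⟨z', hz', w', hw', rfl⟩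
    refine ⟨z + z', Subring.add_mem _ hz hz', w + w', Subring.add_mem _ hw hw', ?_⟩
    rw [map_add]
    ring
  · rintro _ ⟨z, hz, w, hw, rfl⟩
    refine ⟨-z, Subring.neg_mem _ hz, -w, Subring.neg_mem _ hw, ?_⟩
    rw [map_neg]
    ring

/-! ### The charts are `O · C₀` -/

include ℓ in
/-- the finite chart at an admissible level is `O₁ · chartAlgFin` -/
theorem S34IM_A0_eq (hA : A.LiesOverPrime ℓ) (hℓN : ¬ ℓ ∣ N) :
    S18K_A0 A K1 N = chartFinO N ℓ (S18K_O1 A K1) (↥K1) := by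
  have hℓ : ℓ.Prime := Fact.out
  haveI : CharP (IsLocalRing.ResidueField A) ℓ :=
    Fermat.Agent.S18_helper5_BASE.S18A1_charP_residue A hℓ hA
  haveI : Algebra.IsAlgebraic ℚ ↥K1 :=
    Fermat.Agent.S18_helper5_BASE.S18A1_isAlgebraic_of_embedding ↥K1
      (algebraMap ↥K1 (AlgebraicClosure ℚ))
  rw [S18K_A0_eq]
  exact Fermat.Agent.S18_helper20_ASAT.A0L_eq_chartFinO N ℓ (S18K_res A K1)
    (S18K_res_eq_zero_iff A K1) hℓN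

include ℓ in
/-- the chart at infinity at an admissible level is `O₁ · chartAlgInf` -/
theorem S34IM_Ainf_eq (hA : A.LiesOverPrime ℓ) (hℓN : ¬ ℓ ∣ N) :
    S18K_Ainf A K1 N = chartInfO N ℓ (S18K_O1 A K1) (↥K1) := by
  have hℓ : ℓ.Prime := Fact.out
  haveI : CharP (IsLocalRing.ResidueField A) ℓ :=
    Fermat.Agent.S18_helper5_BASE.S18A1_charP_residue A hℓ hA
  haveI : Algebra.IsAlgebraic ℚ ↥K1 :=
    Fermat.Agent.S18_helper5_BASE.S18A1_isAlgebraic_of_embedding ↥K1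
      (algebraMap ↥K1 (AlgebraicClosure ℚ))
  rw [S18K_Ainf_eq]
  exact Fermat.Agent.S18_helper20_ASAT.AinfL_eq_chartInfO N ℓ (S18K_res A K1)
    (S18K_res_eq_zero_iff A K1) hℓN

include ℓ in
/-- **(a) Approximation, finite chart.** -/
theorem S34IM_approx_A0 (hA : A.LiesOverPrime ℓ) (hℓN : ¬ ℓ ∣ N)
    (hres : Function.Surjective (S18K_res A K0)) {y₁ : LaurentSeries K1}
    (hy₁ : y₁ ∈ S18K_A0 A K1 N) :
    ∃ z₀ ∈ S18K_A0 A K0 N, ∃ w ∈ S18K_A0 A K1 N,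
      y₁ = S37MONO_Φ hle z₀ + S18K_π A K1 * w := by
  rw [S34IM_A0_eq A N ℓ hA hℓN] at hy₁ ⊢
  rw [S34IM_A0_eq A N ℓ hA hℓN]
  exact S34IM_approx_chartO A N ℓ hle hres _ hy₁

include ℓ in
/-- **(a) Approximation, chart at infinity.** -/
theorem S34IM_approx_Ainf (hA : A.LiesOverPrime ℓ) (hℓN : ¬ ℓ ∣ N)
    (hres : Function.Surjective (S18K_res A K0)) {y₁ : LaurentSeries K1}
    (hy₁ : y₁ ∈ S18K_Ainf A K1 N) :
    ∃ z₀ ∈ S18K_Ainf A K0 N, ∃ w ∈ S18K_Ainf A K1 N,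
      y₁ = S37MONO_Φ hle z₀ + S18K_π A K1 * w := by
  rw [S34IM_Ainf_eq A N ℓ hA hℓN] at hy₁ ⊢
  rw [S34IM_Ainf_eq A N ℓ hA hℓN]
  exact S34IM_approx_chartO A N ℓ hle hres _ hy₁

/-- the uniformiser of `O₀` is a multiple of the uniformiser of `O₁` (by a constant) -/
theorem S34IM_Φ_π :
    ∃ d : S18K_O1 A K1, S37MONO_Φ hle (S18K_π A K0) = S18K_π A K1 * cstO (↥K1) d := by
  have h0 : S18K_res A K0 (S18K_D A K0).π = 0 :=
    ((S18K_D A K0).res_eq_zero_iff _).2 ⟨1, (mul_one _).symm⟩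
  have h1 : S18K_res A K1 (S37MONO_ιO A hle (S18K_D A K0).π) = 0 := h0
  obtain ⟨d, hd⟩ := S34IM_dvd_of_res A _ h1
  refine ⟨d, ?_⟩
  have e0 : S18K_π A K0 = cstO (↥K0) (S18K_D A K0).π := rfl
  rw [e0, S34IM_Φ_cstO, hd, map_mul]
  rfl

include ℓ in
/-- constants of `O₁` lie in the finite chart -/
theorem S34IM_cstO_mem_A0 (hA : A.LiesOverPrime ℓ) (hℓN : ¬ ℓ ∣ N) (d : S18K_O1 A K1) :
    cstO (↥K1) d ∈ S18K_A0 A K1 N := by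
  rw [S34IM_A0_eq A N ℓ hA hℓN]
  exact cstO_mem_chartO N ℓ _ d

include ℓ in
/-- constants of `O₁` lie in the chart at infinity -/
theorem S34IM_cstO_mem_Ainf (hA : A.LiesOverPrime ℓ) (hℓN : ¬ ℓ ∣ N) (d : S18K_O1 A K1) :
    cstO (↥K1) d ∈ S18K_Ainf A K1 N := by
  rw [S34IM_Ainf_eq A N ℓ hA hℓN]
  exact cstO_mem_chartO N ℓ _ d

/-! ### The maps between the charts -/

/-- `Φ` restricted to the finite charts -/
def S34IM_φ0 : S18K_A0 A K0 N →+* S18K_A0 A K1 N :=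
  ((S37MONO_Φ hle).comp (S18K_A0 A K0 N).subtype).codRestrict _
    (fun y => S37MONO_Φ_mem_A0 A N hle y.2)

/-- `Φ` restricted to the charts at infinity -/
def S34IM_φinf : S18K_Ainf A K0 N →+* S18K_Ainf A K1 N :=
  ((S37MONO_Φ hle).comp (S18K_Ainf A K0 N).subtype).codRestrict _
    (fun y => S37MONO_Φ_mem_Ainf A N hle y.2)

@[simp] theorem S34IM_φ0_coe (y : S18K_A0 A K0 N) :
    ((S34IM_φ0 A N hle y : S18K_A0 A K1 N) : LaurentSeries K1) = S37MONO_Φ hle (y : LaurentSeries K0) :=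
  rfl

@[simp] theorem S34IM_φinf_coe (y : S18K_Ainf A K0 N) :
    ((S34IM_φinf A N hle y : S18K_Ainf A K1 N) : LaurentSeries K1) =
      S37MONO_Φ hle (y : LaurentSeries K0) :=
  rfl

/-! ### The main statements -/

include ℓ in
/-- **(b) `[IG]` generators are stable under change of level, finite chart.**  If `y₀` generates
the contraction `m₀` of `m₁` locally modulo `π₀`, then `Φ y₀` generates `m₁` locally modulo
`π₁`. -/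
theorem S34IM_gen_mono_A0 (hA : A.LiesOverPrime ℓ) (hℓN : ¬ ℓ ∣ N)
    (h0 : S18K_Admissible A K0 ℓ) (h1 : S18K_Admissible A K1 ℓ)
    (m₁ : Ideal (S18K_A0 A K1 N)) (hm₁ : m₁.IsMaximal)
    (hπm : ∀ hπ : S18K_π A K1 ∈ S18K_A0 A K1 N, (⟨S18K_π A K1, hπ⟩ : S18K_A0 A K1 N) ∈ m₁)
    (y₀ : S18K_A0 A K0 N)
    (hy₀ : S34IM_Gen (S18K_π A K0) (S18K_A0 A K0 N) (m₁.comap (S34IM_φ0 A N hle)) y₀) :
    S34IM_Gen (S18K_π A K1) (S18K_A0 A K1 N) m₁ (S34IM_φ0 A N hle y₀) := by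
  have hπ₀ : S18K_π A K0 ∈ S18K_A0 A K0 N := by
    have e0 : S18K_π A K0 = cstO (↥K0) (S18K_D A K0).π := rfl
    rw [e0]
    exact S34IM_cstO_mem_A0 A N ℓ hA hℓN _
  have hπ₁ : S18K_π A K1 ∈ S18K_A0 A K1 N := by
    rw [S34IM_π_eq]
    exact S34IM_cstO_mem_A0 A N ℓ hA hℓN _
  refine S34IM_gen_transfer (S34IM_φ0 A N hle) hπ₀ hπ₁ ?_ ?_ m₁ hm₁.isPrime (hπm hπ₁) ?_ y₀ hy₀
  · obtain ⟨d, hd⟩ := S34IM_Φ_π A hle
    exact ⟨⟨cstO (↥K1) d, S34IM_cstO_mem_A0 A N ℓ hA hℓN d⟩, Subtype.ext hd⟩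
  · intro y₁
    obtain ⟨z₀, hz₀, w, hw, h⟩ := S34IM_approx_A0 A N ℓ hle hA hℓN h0.res_surj y₁.2
    exact ⟨⟨z₀, hz₀⟩, ⟨w, hw⟩, Subtype.ext h⟩
  · have hB := Fermat.Agent.S18_helper12_TOP.S18TOP_blockB N hℓN A hA K1 h1
    obtain ⟨y₁, hy₁m, hy₁⟩ := hB.1 hπ₁ m₁ hm₁ (hπm hπ₁)
    exact ⟨y₁, hy₁m, fun _ => hy₁⟩

include ℓ in
/-- **(b) `[IG]` generators are stable under change of level, chart at infinity.** -/
theorem S34IM_gen_mono_Ainf (hA : A.LiesOverPrime ℓ) (hℓN : ¬ ℓ ∣ N)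
    (h0 : S18K_Admissible A K0 ℓ) (h1 : S18K_Admissible A K1 ℓ)
    (m₁ : Ideal (S18K_Ainf A K1 N)) (hm₁ : m₁.IsMaximal)
    (hπm : ∀ hπ : S18K_π A K1 ∈ S18K_Ainf A K1 N,
      (⟨S18K_π A K1, hπ⟩ : S18K_Ainf A K1 N) ∈ m₁)
    (y₀ : S18K_Ainf A K0 N)
    (hy₀ : S34IM_Gen (S18K_π A K0) (S18K_Ainf A K0 N) (m₁.comap (S34IM_φinf A N hle)) y₀) :
    S34IM_Gen (S18K_π A K1) (S18K_Ainf A K1 N) m₁ (S34IM_φinf A N hle y₀) := by
  have hπ₀ : S18K_π A K0 ∈ S18K_Ainf A K0 N := by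
    have e0 : S18K_π A K0 = cstO (↥K0) (S18K_D A K0).π := rfl
    rw [e0]
    exact S34IM_cstO_mem_Ainf A N ℓ hA hℓN _
  have hπ₁ : S18K_π A K1 ∈ S18K_Ainf A K1 N := by
    rw [S34IM_π_eq]
    exact S34IM_cstO_mem_Ainf A N ℓ hA hℓN _
  refine S34IM_gen_transfer (S34IM_φinf A N hle) hπ₀ hπ₁ ?_ ?_ m₁ hm₁.isPrime (hπm hπ₁) ?_ y₀ hy₀
  · obtain ⟨d, hd⟩ := S34IM_Φ_π A hle
    exact ⟨⟨cstO (↥K1) d, S34IM_cstO_mem_Ainf A N ℓ hA hℓN d⟩, Subtype.ext hd⟩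
  · intro y₁
    obtain ⟨z₀, hz₀, w, hw, h⟩ := S34IM_approx_Ainf A N ℓ hle hA hℓN h0.res_surj y₁.2
    exact ⟨⟨z₀, hz₀⟩, ⟨w, hw⟩, Subtype.ext h⟩
  · have hB := Fermat.Agent.S18_helper12_TOP.S18TOP_blockB N hℓN A hA K1 h1
    obtain ⟨y₁, hy₁m, hy₁⟩ := hB.2 hπ₁ m₁ hm₁ (hπm hπ₁)
    exact ⟨y₁, hy₁m, fun _ => hy₁⟩

include ℓ in
/-- **The contraction of a maximal ideal over `π₁` is a maximal ideal over `π₀`, finite chart.** -/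
theorem S34IM_comap_A0 (hA : A.LiesOverPrime ℓ) (hℓN : ¬ ℓ ∣ N)
    (h0 : S18K_Admissible A K0 ℓ)
    (m₁ : Ideal (S18K_A0 A K1 N)) (hm₁ : m₁.IsMaximal)
    (hπm : ∀ hπ : S18K_π A K1 ∈ S18K_A0 A K1 N, (⟨S18K_π A K1, hπ⟩ : S18K_A0 A K1 N) ∈ m₁) :
    (m₁.comap (S34IM_φ0 A N hle)).IsMaximal ∧
      ∀ hπ : S18K_π A K0 ∈ S18K_A0 A K0 N,
        (⟨S18K_π A K0, hπ⟩ : S18K_A0 A K0 N) ∈ m₁.comap (S34IM_φ0 A N hle) := by
  have hπ₁ : S18K_π A K1 ∈ S18K_A0 A K1 N := by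
    rw [S34IM_π_eq]
    exact S34IM_cstO_mem_A0 A N ℓ hA hℓN _
  refine ⟨S34IM_comap_isMaximal (S34IM_φ0 A N hle) hπ₁ ?_ m₁ hm₁ (hπm hπ₁), fun hπ => ?_⟩
  · intro y₁
    obtain ⟨z₀, hz₀, w, hw, h⟩ := S34IM_approx_A0 A N ℓ hle hA hℓN h0.res_surj y₁.2
    exact ⟨⟨z₀, hz₀⟩, ⟨w, hw⟩, Subtype.ext h⟩
  · obtain ⟨d, hd⟩ := S34IM_Φ_π A hle
    show S34IM_φ0 A N hle ⟨S18K_π A K0, hπ⟩ ∈ m₁
    have e : S34IM_φ0 A N hle ⟨S18K_π A K0, hπ⟩ =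
        ⟨S18K_π A K1, hπ₁⟩ * ⟨cstO (↥K1) d, S34IM_cstO_mem_A0 A N ℓ hA hℓN d⟩ :=
      Subtype.ext hd
    rw [e]
    exact m₁.mul_mem_right _ (hπm hπ₁)

include ℓ in
/-- **The contraction of a maximal ideal over `π₁` is a maximal ideal over `π₀`, chart at
infinity.** -/
theorem S34IM_comap_Ainf (hA : A.LiesOverPrime ℓ) (hℓN : ¬ ℓ ∣ N)
    (h0 : S18K_Admissible A K0 ℓ)
    (m₁ : Ideal (S18K_Ainf A K1 N)) (hm₁ : m₁.IsMaximal)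
    (hπm : ∀ hπ : S18K_π A K1 ∈ S18K_Ainf A K1 N,
      (⟨S18K_π A K1, hπ⟩ : S18K_Ainf A K1 N) ∈ m₁) :
    (m₁.comap (S34IM_φinf A N hle)).IsMaximal ∧
      ∀ hπ : S18K_π A K0 ∈ S18K_Ainf A K0 N,
        (⟨S18K_π A K0, hπ⟩ : S18K_Ainf A K0 N) ∈ m₁.comap (S34IM_φinf A N hle) := by
  have hπ₁ : S18K_π A K1 ∈ S18K_Ainf A K1 N := by
    rw [S34IM_π_eq]
    exact S34IM_cstO_mem_Ainf A N ℓ hA hℓN _
  refine ⟨S34IM_comap_isMaximal (S34IM_φinf A N hle) hπ₁ ?_ m₁ hm₁ (hπm hπ₁), fun hπ => ?_⟩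
  · intro y₁
    obtain ⟨z₀, hz₀, w, hw, h⟩ := S34IM_approx_Ainf A N ℓ hle hA hℓN h0.res_surj y₁.2
    exact ⟨⟨z₀, hz₀⟩, ⟨w, hw⟩, Subtype.ext h⟩
  · obtain ⟨d, hd⟩ := S34IM_Φ_π A hle
    show S34IM_φinf A N hle ⟨S18K_π A K0, hπ⟩ ∈ m₁
    have e : S34IM_φinf A N hle ⟨S18K_π A K0, hπ⟩ =
        ⟨S18K_π A K1, hπ₁⟩ * ⟨cstO (↥K1) d, S34IM_cstO_mem_Ainf A N ℓ hA hℓN d⟩ :=
      Subtype.ext hd
    rw [e]
    exact m₁.mul_mem_right _ (hπm hπ₁)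

include ℓ in
/-- **Existence of a generator defined over the small level, finite chart**: for every maximal
ideal `m₁ ∋ π₁` of the chart over `K1` there is `y₀` in the chart over `K0` which generates the
contraction of `m₁` locally modulo `π₀`, and whose image generates `m₁` locally modulo `π₁`. -/
theorem S34IM_exists_A0 (hA : A.LiesOverPrime ℓ) (hℓN : ¬ ℓ ∣ N)
    (h0 : S18K_Admissible A K0 ℓ) (h1 : S18K_Admissible A K1 ℓ)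
    (m₁ : Ideal (S18K_A0 A K1 N)) (hm₁ : m₁.IsMaximal)
    (hπm : ∀ hπ : S18K_π A K1 ∈ S18K_A0 A K1 N, (⟨S18K_π A K1, hπ⟩ : S18K_A0 A K1 N) ∈ m₁) :
    ∃ y₀ : S18K_A0 A K0 N,
      S34IM_Gen (S18K_π A K0) (S18K_A0 A K0 N) (m₁.comap (S34IM_φ0 A N hle)) y₀ ∧
      S34IM_Gen (S18K_π A K1) (S18K_A0 A K1 N) m₁ (S34IM_φ0 A N hle y₀) := by
  obtain ⟨hmax, hπ0m⟩ := S34IM_comap_A0 A N ℓ hle hA hℓN h0 m₁ hm₁ hπm
  have hπ₀ : S18K_π A K0 ∈ S18K_A0 A K0 N := by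
    have e0 : S18K_π A K0 = cstO (↥K0) (S18K_D A K0).π := rfl
    rw [e0]
    exact S34IM_cstO_mem_A0 A N ℓ hA hℓN _
  have hB := Fermat.Agent.S18_helper12_TOP.S18TOP_blockB N hℓN A hA K0 h0
  obtain ⟨y₀, hy₀m, hy₀⟩ := hB.1 hπ₀ _ hmax (hπ0m hπ₀)
  have hgen : S34IM_Gen (S18K_π A K0) (S18K_A0 A K0 N) (m₁.comap (S34IM_φ0 A N hle)) y₀ :=
    ⟨hy₀m, fun _ => hy₀⟩
  exact ⟨y₀, hgen, S34IM_gen_mono_A0 A N ℓ hle hA hℓN h0 h1 m₁ hm₁ hπm y₀ hgen⟩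

include ℓ in
/-- **Existence of a generator defined over the small level, chart at infinity.** -/
theorem S34IM_exists_Ainf (hA : A.LiesOverPrime ℓ) (hℓN : ¬ ℓ ∣ N)
    (h0 : S18K_Admissible A K0 ℓ) (h1 : S18K_Admissible A K1 ℓ)
    (m₁ : Ideal (S18K_Ainf A K1 N)) (hm₁ : m₁.IsMaximal)
    (hπm : ∀ hπ : S18K_π A K1 ∈ S18K_Ainf A K1 N,
      (⟨S18K_π A K1, hπ⟩ : S18K_Ainf A K1 N) ∈ m₁) :
    ∃ y₀ : S18K_Ainf A K0 N,
      S34IM_Gen (S18K_π A K0) (S18K_Ainf A K0 N) (m₁.comap (S34IM_φinf A N hle)) y₀ ∧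
      S34IM_Gen (S18K_π A K1) (S18K_Ainf A K1 N) m₁ (S34IM_φinf A N hle y₀) := by
  obtain ⟨hmax, hπ0m⟩ := S34IM_comap_Ainf A N ℓ hle hA hℓN h0 m₁ hm₁ hπm
  have hπ₀ : S18K_π A K0 ∈ S18K_Ainf A K0 N := by
    have e0 : S18K_π A K0 = cstO (↥K0) (S18K_D A K0).π := rfl
    rw [e0]
    exact S34IM_cstO_mem_Ainf A N ℓ hA hℓN _
  have hB := Fermat.Agent.S18_helper12_TOP.S18TOP_blockB N hℓN A hA K0 h0
  obtain ⟨y₀, hy₀m, hy₀⟩ := hB.2 hπ₀ _ hmax (hπ0m hπ₀)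
  have hgen : S34IM_Gen (S18K_π A K0) (S18K_Ainf A K0 N) (m₁.comap (S34IM_φinf A N hle)) y₀ :=
    ⟨hy₀m, fun _ => hy₀⟩
  exact ⟨y₀, hgen, S34IM_gen_mono_Ainf A N ℓ hle hA hℓN h0 h1 m₁ hm₁ hπm y₀ hgen⟩

end Concrete

end Fermat.Agent.S34_helper17_IGMONO
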