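import Mathlib

/-!
# S34, piece P-QPOW (helper24): `q`-th powers in a separable extension of `k(x)`

`k` a perfect field of characteristic `q`, `L ⊇ k` a field, `x : L` which is NOT a `q`-th power
in `L`, and `κ` an intermediate field of `L / k` containing `x` all of whose elements are
separable over `k(x)`.  Then `κ ∩ L^q = κ^q`: an element `z : L` with `z ^ q ∈ κ` lies in `κ`.

Application (S34, (V2)): `L = k((t))`, `x = j̄`, `κ` the residue field of the Gauss valuation
of the function field of level `N'`; the elements of `κ ∩ k((t^q))` are `q`-th powers IN `κ`.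

Mathlib only.
-/

set_option autoImplicit false
set_option linter.style.haveILetI false

namespace Fermat.Agent.S34_helper24_QPOW

open Polynomial IntermediateField

section Repr

variable {L : Type*} [Field L]

/-- Elements of `K0(x)` are `K0`-polynomials in `x` of degree `< q` when `x ^ q ∈ K0`. -/
theorem S34QP_repr (K0 : Subfield L) (q : ℕ) (hq : 0 < q) (x : L) (hxq : x ^ q ∈ K0) (y : L)
    (hy : y ∈ IntermediateField.adjoin K0 {x}) :
    ∃ c : ℕ → L, (∀ r, c r ∈ K0) ∧ y = ∑ r ∈ Finset.range q, c r * x ^ r := by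
  -- the monic polynomial `X ^ q - x ^ q` over `K0`
  set m : Polynomial K0 := X ^ q - C (⟨x ^ q, hxq⟩ : K0) with hm
  have hmon : m.Monic := monic_X_pow_sub_C _ hq.ne'
  have hmx : aeval x m = 0 := by
    rw [hm, map_sub, map_pow, aeval_X, aeval_C]
    show x ^ q - ((⟨x ^ q, hxq⟩ : K0) : L) = 0
    exact sub_self _
  have halg : IsAlgebraic K0 x := ⟨m, hmon.ne_zero, hmx⟩
  have hy' : y ∈ (IntermediateField.adjoin K0 {x}).toSubalgebra := hy
  rw [IntermediateField.adjoin_simple_toSubalgebra_of_isAlgebraic halg,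
    Algebra.adjoin_singleton_eq_range_aeval] at hy'
  obtain ⟨p, hp⟩ := hy'
  have hp' : aeval x p = y := hp
  -- reduce modulo `m`
  have hred : aeval x (p %ₘ m) = y := by
    have h1 := modByMonic_add_div p m
    have h2 : aeval x p = aeval x (p %ₘ m) + aeval x m * aeval x (p /ₘ m) := by
      conv_lhs => rw [← h1]
      rw [map_add, map_mul]
    rw [hmx, zero_mul, add_zero] at h2
    rw [← h2, hp']
  have hdeg : (p %ₘ m).natDegree < q := by
    have h1 : m.natDegree = q := natDegree_X_pow_sub_C
    have hm1 : m ≠ 1 := by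
      intro h
      have := congrArg natDegree h
      rw [h1, natDegree_one] at this
      omega
    have := natDegree_modByMonic_lt p hmon hm1
    rwa [h1] at this
  refine ⟨fun r => (((p %ₘ m).coeff r : K0) : L), fun r => ((p %ₘ m).coeff r).2, ?_⟩
  rw [← hred, aeval_eq_sum_range' hdeg]
  refine Finset.sum_congr rfl fun r _ => ?_
  rw [Algebra.smul_def]
  rfl

end Repr

section Indep

variable {L : Type*} [Field L] (q : ℕ) [hq : Fact q.Prime] [CharP L q]

/-- `q`-th roots are unique in characteristic `q`. -/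
theorem S34QP_pow_inj {a b : L} (h : a ^ q = b ^ q) : a = b := by
  have : frobenius L q a = frobenius L q b := h
  exact frobenius_inj L q this

/-- If `x` is not a `q`-th power in `L`, then `1, x, …, x^(q-1)` are linearly independent over
`L^q`; in the form: a `q`-th power which is an `L^q`-combination of them equals the constant
term. -/
theorem S34QP_const_term (x : L) (hx : ∀ z : L, z ^ q ≠ x) (c : ℕ → L)
    (hc : ∀ r, ∃ z : L, z ^ q = c r) (y : L) (hy : ∃ z : L, z ^ q = y)
    (h : y = ∑ r ∈ Finset.range q, c r * x ^ r) : y = c 0 := by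
  classical
  -- the subfield `R = L^q`
  set R : Subfield L := (frobenius L q).fieldRange with hR
  have hmemR : ∀ a : L, (∃ z : L, z ^ q = a) → a ∈ R := by
    rintro a ⟨z, rfl⟩
    exact ⟨z, rfl⟩
  have hxqR : x ^ q ∈ R := hmemR _ ⟨x, rfl⟩
  -- the minimal polynomial of `x` over `R`
  set m : Polynomial R := X ^ q - C (⟨x ^ q, hxqR⟩ : R) with hm
  have hmon : m.Monic := monic_X_pow_sub_C _ hq.out.ne_zero
  have hmx : aeval x m = 0 := by
    rw [hm, map_sub, map_pow, aeval_X, aeval_C]
    show x ^ q - ((⟨x ^ q, hxqR⟩ : R) : L) = 0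
    exact sub_self _
  have hirr : Irreducible m := by
    apply X_pow_sub_C_irreducible_of_prime hq.out
    rintro ⟨b, hb⟩ hbq
    obtain ⟨z, rfl⟩ := hb
    have h1 : ((frobenius L q) z) ^ q = x ^ q := by
      have := congrArg (fun t : R => (t : L)) hbq
      simpa using this
    have h2 : (frobenius L q) z = x := S34QP_pow_inj q h1
    exact hx z h2
  have hmin : m = minpoly R x := minpoly.eq_of_irreducible_of_monic hirr hmx hmon
  have hdegm : (minpoly R x).degree = q := by
    rw [← hmin, hm, degree_X_pow_sub_C hq.out.pos]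
  -- the polynomial `g = ∑ c_r X^r - y`
  set cR : ℕ → R := fun r => ⟨c r, hmemR _ (hc r)⟩ with hcR
  set yR : R := ⟨y, hmemR _ hy⟩ with hyR
  set g : Polynomial R := (∑ r ∈ Finset.range q, C (cR r) * X ^ r) - C yR with hg
  have hgx : aeval x g = 0 := by
    rw [hg, map_sub, map_sum, aeval_C]
    have : ∀ r ∈ Finset.range q, aeval x (C (cR r) * X ^ r) = c r * x ^ r := by
      intro r _
      rw [map_mul, map_pow, aeval_X, aeval_C]
      rfl
    rw [Finset.sum_congr rfl this, ← h]
    show y - ((yR : R) : L) = 0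
    exact sub_self _
  have hgdeg : g.degree < q := by
    rw [hg]
    refine lt_of_le_of_lt (degree_sub_le _ _) (max_lt ?_ ?_)
    · refine lt_of_le_of_lt (degree_sum_le _ _) ?_
      rw [Finset.sup_lt_iff (by exact_mod_cast WithBot.bot_lt_coe q)]
      intro r hr
      refine lt_of_le_of_lt (degree_C_mul_X_pow_le r _) ?_
      exact_mod_cast Finset.mem_range.mp hr
    · refine lt_of_le_of_lt degree_C_le ?_
      exact_mod_cast hq.out.pos
  have hg0 : g = 0 := by
    by_contra hne
    have := minpoly.degree_le_of_ne_zero R x hne hgx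
    rw [hdegm] at this
    exact absurd (lt_of_le_of_lt this hgdeg) (lt_irrefl _)
  -- constant coefficient
  have hcoeff := congrArg (fun p : Polynomial R => p.coeff 0) hg0
  simp only [hg, coeff_sub, finsetSum_coeff, coeff_C_mul, coeff_X_pow, coeff_C_zero,
    coeff_zero] at hcoeff
  have hsum : ∑ r ∈ Finset.range q, cR r * (if 0 = r then (1 : R) else 0) = cR 0 := by
    rw [Finset.sum_eq_single 0]
    · simp
    · intro r _ hr
      rw [if_neg (Ne.symm hr), mul_zero]
    · intro h0
      exact absurd (Finset.mem_range.mpr hq.out.pos) h0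
  rw [hsum, sub_eq_zero] at hcoeff
  have := congrArg (fun t : R => (t : L)) hcoeff
  exact this.symm

end Indep

section Main

variable {k L : Type*} [Field k] [Field L] [Algebra k L] (q : ℕ) [hq : Fact q.Prime]
  [CharP k q] [PerfectField k]

/-- **P-QPOW.**  `κ ∩ L^q = κ^q` for an intermediate field `κ ∋ x` separable over `k(x)`, when `x`
is not a `q`-th power in `L` and `k` is perfect of characteristic `q`. -/
theorem S34QP_pow_mem (x : L) (hx : ∀ z : L, z ^ q ≠ x) (κ : IntermediateField k L)
    (hxκ : x ∈ κ) (hsep : ∀ a ∈ κ, IsSeparable k⟮x⟯ a) (z : L) (hz : z ^ q ∈ κ) : z ∈ κ := by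
  classical
  haveI : CharP L q := (Algebra.charP_iff k L q).mp inferInstance
  haveI : ExpChar L q := ExpChar.prime hq.out
  haveI : ExpChar k q := ExpChar.prime hq.out
  haveI : PerfectRing k q := PerfectField.toPerfectRing q
  -- the subfield `K0 = κ^q`
  set K0 : Subfield L := κ.toSubfield.map (frobenius L q) with hK0
  have hK0mem : ∀ a ∈ κ, a ^ q ∈ K0 := fun a ha => ⟨a, ha, rfl⟩
  have hK0pow : ∀ b ∈ K0, ∃ a ∈ κ, a ^ q = b := by
    rintro b ⟨a, ha, rfl⟩
    exact ⟨a, ha, rfl⟩
  -- `k ⊆ K0`
  have hkK0 : ∀ c : k, algebraMap k L c ∈ K0 := by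
    intro c
    obtain ⟨d, hd⟩ := surjective_frobenius k q c
    refine ⟨algebraMap k L d, κ.algebraMap_mem d, ?_⟩
    show (algebraMap k L d) ^ q = algebraMap k L c
    rw [← map_pow]
    congr 1
  -- the field `T = K0(x)` as a subfield of `L`
  set T : Subfield L := (IntermediateField.adjoin K0 {x}).toSubfield with hT
  have hK0T : ∀ b ∈ K0, b ∈ T := fun b hb =>
    (IntermediateField.adjoin K0 {x}).algebraMap_mem (⟨b, hb⟩ : K0)
  have hxT : x ∈ T := IntermediateField.mem_adjoin_simple_self K0 x
  -- `k(x) ⊆ T`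
  let Tk : IntermediateField k L := T.toIntermediateField (fun c => hK0T _ (hkK0 c))
  have hkxT : k⟮x⟯ ≤ Tk := by
    rw [IntermediateField.adjoin_le_iff]
    intro a ha
    rw [Set.mem_singleton_iff] at ha
    subst ha
    exact hxT
  let TF : IntermediateField k⟮x⟯ L :=
    T.toIntermediateField (fun c => hkxT c.2)
  -- `κ ⊆ k(x)(κ^q) ⊆ T`
  haveI : ExpChar k⟮x⟯ q := expChar_of_injective_algebraMap (algebraMap k k⟮x⟯).injective q
  haveI hsepA : Algebra.IsSeparable k⟮x⟯ (IntermediateField.adjoin k⟮x⟯ (κ : Set L)) :=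
    (IntermediateField.isSeparable_adjoin_iff_isSeparable k⟮x⟯ L).mpr hsep
  have hadj := IntermediateField.adjoin_eq_adjoin_pow_expChar_of_isSeparable k⟮x⟯ L (κ : Set L) q
  have hyT : z ^ q ∈ T := by
    have h1 : z ^ q ∈ IntermediateField.adjoin k⟮x⟯ (κ : Set L) :=
      IntermediateField.subset_adjoin _ _ hz
    rw [hadj] at h1
    have h2 : IntermediateField.adjoin k⟮x⟯ ((fun a => a ^ q) '' (κ : Set L)) ≤ TF := by
      rw [IntermediateField.adjoin_le_iff]
      rintro _ ⟨a, ha, rfl⟩
      exact hK0T _ (hK0mem a ha)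
    exact h2 h1
  -- representation and constant term
  obtain ⟨c, hc, hrepr⟩ := S34QP_repr K0 q hq.out.pos x (hK0mem x hxκ) (z ^ q) hyT
  have hcpow : ∀ r, ∃ w : L, w ^ q = c r := fun r => by
    obtain ⟨a, _, ha⟩ := hK0pow _ (hc r)
    exact ⟨a, ha⟩
  have h0 := S34QP_const_term q x hx c hcpow (z ^ q) ⟨z, rfl⟩ hrepr
  obtain ⟨a, ha, haq⟩ := hK0pow _ (hc 0)
  have : z = a := S34QP_pow_inj q (by rw [h0, haq])
  rw [this]
  exact ha

/-- Variant: an element of `κ` which is a `q`-th power in `L` is a `q`-th power in `κ`. -/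
theorem S34QP_exists_pow (x : L) (hx : ∀ z : L, z ^ q ≠ x) (κ : IntermediateField k L)
    (hxκ : x ∈ κ) (hsep : ∀ a ∈ κ, IsSeparable k⟮x⟯ a) (y : L) (hy : y ∈ κ)
    (hyq : ∃ z : L, z ^ q = y) : ∃ z ∈ κ, z ^ q = y := by
  obtain ⟨z, rfl⟩ := hyq
  exact ⟨z, S34QP_pow_mem q x hx κ hxκ hsep z hy, rfl⟩

end Main

end Fermat.Agent.S34_helper24_QPOW
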