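import Mathlib
import Fermat.Prelude.Def_ModularCurve_X0
import Fermat.Prelude.Def_ModularCurve_X0ModL
import Fermat.Agent.S34_helper24_QPOW
import Fermat.Agent.S37_helper8_K2
import Fermat.Agent.S18_helper1_SEP

/-!
# S34, piece P-QPOW, concrete form (helper24): Laurent series in characteristic `q`

`k` a perfect field of characteristic `q`, `κ ⊆ k((t))` an intermediate field containing
`j̄ = jqModC k` and algebraic over `k(j̄)`.  Then every element of `κ` of the form `f(t^q)`
(`= qExpand k q f`) is a `q`-th power of an element of `κ`.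

Inputs from main: `S37K2_pow_char` / `S37K2_qExpand_eq_pow` (helper8: freshman's dream for
Laurent series) and `S18SEP_isSeparable` (helper1: algebraic over `k(j̄)` ⟹ separable).
-/

set_option autoImplicit false
set_option linter.style.haveILetI false

namespace Fermat.Agent.S34_helper24_QPOWC

open ModularCurve IntermediateField Fermat.Agent.S34_helper24_QPOW

variable (k : Type*) [Field k] (q : ℕ) [hq : Fact q.Prime] [CharP k q]

/-- In characteristic `q`, the coefficients of a `q`-th power vanish at the exponents not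
divisible by `q`. -/
theorem S34QP_coeff_pow_of_not_dvd (z : LaurentSeries k) {n : ℤ} (hn : ¬ (q : ℤ) ∣ n) :
    (z ^ q).coeff n = 0 := by
  haveI : NeZero q := ⟨hq.out.ne_zero⟩
  haveI : ExpChar k q := ExpChar.prime hq.out
  rw [Fermat.Agent.S37K2.S37K2_pow_char k q z]
  exact qExpand_coeff_of_not_dvd q _ hn

/-- `j̄` is not a `q`-th power in `k((t))`. -/
theorem S34QP_jq_not_pow (z : LaurentSeries k) : z ^ q ≠ jqModC k := by
  intro h
  have h1 : (z ^ q).coeff (-1 : ℤ) = 0 := by
    apply S34QP_coeff_pow_of_not_dvd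
    intro hd
    have h2 : (q : ℤ) ∣ 1 := by
      have := (dvd_neg (a := (q : ℤ)) (b := 1)).mp hd
      exact this
    have h3 : q ∣ 1 := by exact_mod_cast h2
    exact hq.out.one_lt.ne' (Nat.dvd_one.mp h3)
  rw [h, coeff_jqModC_neg_one] at h1
  exact one_ne_zero h1

/-- The derivative of `j̄` is nonzero. -/
theorem S34QP_derivative_jq_ne_zero : LaurentSeries.derivative k (jqModC k) ≠ 0 := by
  apply Fermat.Agent.S18_helper1_SEP.S18SEP_derivative_ne_zero (jqModC k) (-1 : ℤ)
  · have : ((-1 : ℤ) : k) = -1 := by push_cast; ring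
    rw [this]
    exact neg_ne_zero.mpr one_ne_zero
  · rw [coeff_jqModC_neg_one]
    exact one_ne_zero

variable [PerfectField k]

/-- `f(t^q)` is a `q`-th power in `k((t))` (`k` perfect of characteristic `q`). -/
theorem S34QP_qExpand_is_pow (f : LaurentSeries k) :
    ∃ z : LaurentSeries k, z ^ q = qExpand k q f := by
  haveI : NeZero q := ⟨hq.out.ne_zero⟩
  haveI : ExpChar k q := ExpChar.prime hq.out
  haveI : PerfectRing k q := PerfectField.toPerfectRing q
  exact ⟨_, (Fermat.Agent.S37K2.S37K2_qExpand_eq_pow k q f).symm⟩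

/-- **P-QPOW, Laurent form.**  `κ ∩ k((t))^q = κ^q`. -/
theorem S34QP_laurent_pow_mem (κ : IntermediateField k (LaurentSeries k))
    (hj : jqModC k ∈ κ) (halg : ∀ a ∈ κ, IsAlgebraic k⟮jqModC k⟯ a)
    (z : LaurentSeries k) (hz : z ^ q ∈ κ) : z ∈ κ :=
  S34QP_pow_mem q (jqModC k) (S34QP_jq_not_pow k q) κ hj
    (fun a ha => Fermat.Agent.S18_helper1_SEP.S18SEP_isSeparable (jqModC k) a
      (S34QP_derivative_jq_ne_zero k) (halg a ha)) z hz

/-- **P-QPOW, row form.**  An element of `κ` of the form `f(t^q)` is the `q`-th power of an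
element of `κ`. -/
theorem S34QP_laurent (κ : IntermediateField k (LaurentSeries k))
    (hj : jqModC k ∈ κ) (halg : ∀ a ∈ κ, IsAlgebraic k⟮jqModC k⟯ a)
    (f : LaurentSeries k) (hf : qExpand k q f ∈ κ) :
    ∃ z ∈ κ, z ^ q = qExpand k q f := by
  obtain ⟨z, hz⟩ := S34QP_qExpand_is_pow k q f
  exact ⟨z, S34QP_laurent_pow_mem k q κ hj halg z (by rw [hz]; exact hf), hz⟩

/-- The same for an element known to be a `q`-th power in `k((t))`. -/
theorem S34QP_laurent' (κ : IntermediateField k (LaurentSeries k))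
    (hj : jqModC k ∈ κ) (halg : ∀ a ∈ κ, IsAlgebraic k⟮jqModC k⟯ a)
    (y : LaurentSeries k) (hy : y ∈ κ) (hyq : ∃ z : LaurentSeries k, z ^ q = y) :
    ∃ z ∈ κ, z ^ q = y := by
  obtain ⟨z, rfl⟩ := hyq
  exact ⟨z, S34QP_laurent_pow_mem k q κ hj halg z hy, rfl⟩

end Fermat.Agent.S34_helper24_QPOWC
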