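import Mathlib
import Fermat.Agent.S18_helper9_CDefs
import Fermat.Agent.S18_helper9_CBasic

set_option autoImplicit false
set_option linter.style.haveILetI false
set_option linter.unusedVariables false
set_option linter.unusedSectionVars false

/-!
# S34, abstract block C for a semi-local `V` (helper27): definitions

`S18_helper9_CDefs.Setup` describes a two-chart model whose special fibre is irreducible: `V` is
ONE valuation ring (fields `V_val`, `V_unif`).  For S34 the special fibre has two components and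
the relevant ring is `V = V_∞ ⊓ V_0`, the intersection of the two Gauss valuation rings.  The
block-C argument only uses

* `V_ic`      : `V` is integrally closed in `F1`;
* `V_one_add` : `1 + π c` is a unit of `V` for `c ∈ V`;

instead of `V_val` / `V_unif`.  `S34C2_Setup` is `Setup` with these two fields as replacement.
The structure `S18_helper9_CDefs.Chart` is used unchanged (with `V` semi-local).

* `S34C2_Setup.of_setup` : every `Setup` is an `S34C2_Setup`;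
* `S34C2_Val`            : a valuation ring of `F1` in which `π` is a non-unit (elementwise);
* `S34C2_ic_inf`, `S34C2_one_add_inf`, `S34C2_nonunit_inf`, `S34C2_loc_inf` : the fields
  `V_ic`, `V_one_add`, `π_nonunit` and `Chart.loc` for `V = W₁ ⊓ W₂`.
-/

namespace Fermat.Agent.S34_helper27_C2Defs

open Fermat.Agent.S18_helper9_CDefs Fermat.Agent.S18_helper9_CBasic

variable {L : Type*} [Field L]

/-- `Setup` for a semi-local `V` (e.g. `V = V_∞ ⊓ V_0`). -/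
structure S34C2_Setup (O : Subring L) (π j : L) (F1 : Subfield L) (V A0 Ainf : Subring L) :
    Prop where
  dvr : IsDiscreteValuationRing O
  π_mem : π ∈ O
  π_irr : ∀ hπ : π ∈ O, Irreducible (⟨π, hπ⟩ : O)
  algClosed : ∀ x : L, IsAlgebraic O x → ∃ a ∈ O, ∃ b ∈ O, b ≠ 0 ∧ x * b = a
  j_trans : Transcendental O j
  j_mem : j ∈ F1
  O_le : (O : Set L) ⊆ F1
  finite : ∃ s : Finset L, ∀ x ∈ F1, ∃ c : L → L,
    (∀ y, c y ∈ Subfield.closure ((O : Set L) ∪ {j})) ∧ x = ∑ y ∈ s, c y * y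
  V_le : (V : Set L) ⊆ F1
  V_ic : ∀ x ∈ F1, IsIntegral V x → x ∈ V
  V_one_add : ∀ c ∈ V, (1 + π * c)⁻¹ ∈ V
  π_nonunit : π⁻¹ ∉ V
  chart0 : Chart O π j F1 V A0
  chartInf : Chart O π j⁻¹ F1 V Ainf

/-- A valuation ring `W` of `F1` (elementwise) in which `π` is a non-unit. -/
structure S34C2_Val (π : L) (F1 : Subfield L) (W : Subring L) : Prop where
  le : (W : Set L) ⊆ F1
  val : ∀ x ∈ F1, x ∈ W ∨ x⁻¹ ∈ W
  π_mem : π ∈ W
  π_nonunit : π⁻¹ ∉ W

section Val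

variable {π : L} {F1 : Subfield L} {W W₁ W₂ : Subring L}

/-- a valuation ring is integrally closed in `F1` -/
theorem S34C2_Val.ic (H : S34C2_Val π F1 W) {y : L} (hyF : y ∈ F1) (hy : IsIntegral W y) :
    y ∈ W := by
  rcases H.val y hyF with h | hinv
  · exact h
  by_cases hy0 : y = 0
  · rw [hy0]; exact W.zero_mem
  obtain ⟨P, hP, hPy⟩ := hy
  have hn : P.natDegree ≠ 0 := by
    intro h0
    have h1 : P = 1 := Polynomial.eq_one_of_monic_natDegree_zero hP h0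
    rw [h1, Polynomial.eval₂_one] at hPy
    exact one_ne_zero hPy
  rw [Polynomial.eval₂_eq_sum_range, Finset.sum_range_succ, hP.coeff_natDegree, map_one,
    one_mul] at hPy
  obtain ⟨n, hn'⟩ := Nat.exists_eq_succ_of_ne_zero hn
  rw [hn'] at hPy
  simp only [Nat.succ_eq_add_one] at hPy
  have h1 : y ^ (n + 1) = - ∑ i ∈ Finset.range (n + 1), algebraMap W L (P.coeff i) * y ^ i := by
    linear_combination hPy
  have h2 : y = y ^ (n + 1) * (y⁻¹) ^ n := by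
    rw [pow_succ, inv_pow]
    field_simp
  have key : y = - ∑ i ∈ Finset.range (n + 1),
      (algebraMap W L (P.coeff i)) * (y⁻¹) ^ (n - i) := by
    calc y = y ^ (n + 1) * (y⁻¹) ^ n := h2
      _ = (- ∑ i ∈ Finset.range (n + 1), algebraMap W L (P.coeff i) * y ^ i) * (y⁻¹) ^ n := by
          rw [h1]
      _ = - ∑ i ∈ Finset.range (n + 1), (algebraMap W L (P.coeff i)) * (y⁻¹) ^ (n - i) := by
          rw [neg_mul, Finset.sum_mul]
          congr 1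
          refine Finset.sum_congr rfl fun i hi => ?_
          have hi' : i ≤ n := Nat.lt_succ_iff.mp (Finset.mem_range.mp hi)
          have h3 : y ^ i * (y⁻¹) ^ n = (y⁻¹) ^ (n - i) := by
            have : (y⁻¹) ^ n = (y⁻¹) ^ (n - i) * (y⁻¹) ^ i := by
              rw [← pow_add, Nat.sub_add_cancel hi']
            rw [this, inv_pow y i]
            field_simp
          rw [mul_assoc, h3]
  rw [key]
  refine W.neg_mem (W.sum_mem fun i _ => W.mul_mem ?_ (W.pow_mem hinv _))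
  exact (P.coeff i).2

/-- the sum of a unit and a non-unit of a valuation ring is a unit -/
theorem S34C2_Val.inv_add_mem (H : S34C2_Val π F1 W) {a b : L} (ha : a ∈ W) (ha' : a⁻¹ ∈ W)
    (ha0 : a ≠ 0) (hb : b ∈ W) (hb' : b⁻¹ ∉ W) : (a + b)⁻¹ ∈ W := by
  have haF : a ∈ F1 := H.le ha
  have hbF : b ∈ F1 := H.le hb
  rcases H.val (a + b)⁻¹ (F1.inv_mem (F1.add_mem haF hbF)) with h | h
  · exact h
  rw [inv_inv] at h
  by_contra hcon
  -- `t = a + b` is a non-unit and `b` is a non-unit; compare `t` and `b`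
  have hb0 : b ≠ 0 := by
    rintro rfl
    rw [add_zero] at hcon
    exact hcon ha'
  have ht0 : a + b ≠ 0 := by
    intro h0
    apply hb'
    have : b = -a := by linear_combination h0
    rw [this, inv_neg]
    exact W.neg_mem ha'
  rcases H.val ((a + b) * b⁻¹) (F1.mul_mem (F1.add_mem haF hbF) (F1.inv_mem hbF)) with h1 | h1
  · -- `t = b c`, so `a = b (c - 1)` and `b⁻¹ = a⁻¹ (c - 1)`
    apply hb'
    have : b⁻¹ = a⁻¹ * ((a + b) * b⁻¹ - 1) := by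
      field_simp
      ring
    rw [this]
    exact W.mul_mem ha' (W.sub_mem h1 W.one_mem)
  · -- `b = t c`, so `a = t (1 - c)` and `t⁻¹ = a⁻¹ (1 - c)`
    apply hcon
    have : (a + b)⁻¹ = a⁻¹ * (1 - ((a + b) * b⁻¹)⁻¹) := by
      field_simp
      ring
    rw [this]
    exact W.mul_mem ha' (W.sub_mem W.one_mem h1)

theorem S34C2_Val.π_ne_zero (H : S34C2_Val π F1 W) : π ≠ 0 := by
  rintro rfl
  exact H.π_nonunit (by rw [inv_zero]; exact W.zero_mem)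

/-- `1 + π c` is a unit of a valuation ring in which `π` is a non-unit -/
theorem S34C2_Val.one_add (H : S34C2_Val π F1 W) {c : L} (hc : c ∈ W) : (1 + π * c)⁻¹ ∈ W := by
  by_cases hc0 : π * c = 0
  · rw [hc0, add_zero, inv_one]; exact W.one_mem
  refine H.inv_add_mem W.one_mem (by rw [inv_one]; exact W.one_mem) one_ne_zero
    (W.mul_mem H.π_mem hc) ?_
  intro h
  apply H.π_nonunit
  have hπ0 := H.π_ne_zero
  have hc0' : c ≠ 0 := fun h0 => hc0 (by rw [h0, mul_zero])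
  have : π⁻¹ = c * (π * c)⁻¹ := by
    field_simp
  rw [this]
  exact W.mul_mem hc h

theorem S34C2_ic_inf (H₁ : S34C2_Val π F1 W₁) (H₂ : S34C2_Val π F1 W₂) :
    ∀ x ∈ F1, IsIntegral (W₁ ⊓ W₂ : Subring L) x → x ∈ (W₁ ⊓ W₂ : Subring L) := by
  intro x hxF hx
  exact ⟨H₁.ic hxF (isIntegral_mono inf_le_left hx), H₂.ic hxF (isIntegral_mono inf_le_right hx)⟩

theorem S34C2_one_add_inf (H₁ : S34C2_Val π F1 W₁) (H₂ : S34C2_Val π F1 W₂) :
    ∀ c ∈ (W₁ ⊓ W₂ : Subring L), (1 + π * c)⁻¹ ∈ (W₁ ⊓ W₂ : Subring L) :=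
  fun _ hc => ⟨H₁.one_add hc.1, H₂.one_add hc.2⟩

theorem S34C2_nonunit_inf (H₁ : S34C2_Val π F1 W₁) : π⁻¹ ∉ (W₁ ⊓ W₂ : Subring L) :=
  fun h => H₁.π_nonunit h.1

theorem S34C2_le_inf (H₁ : S34C2_Val π F1 W₁) : ((W₁ ⊓ W₂ : Subring L) : Set L) ⊆ F1 :=
  fun _ hx => H₁.le hx.1

/-- `Chart.loc` for `W₁ ⊓ W₂` from `loc` for `W₁` and for `W₂`. -/
theorem S34C2_loc_inf (H₁ : S34C2_Val π F1 W₁) (H₂ : S34C2_Val π F1 W₂) (A : Subring L)
    (hA₁ : A ≤ W₁) (hA₂ : A ≤ W₂)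
    (hloc₁ : ∀ v ∈ W₁, ∃ b ∈ A, b ≠ 0 ∧ b⁻¹ ∈ W₁ ∧ v * b ∈ A)
    (hloc₂ : ∀ v ∈ W₂, ∃ b ∈ A, b ≠ 0 ∧ b⁻¹ ∈ W₂ ∧ v * b ∈ A) :
    ∀ v ∈ (W₁ ⊓ W₂ : Subring L), ∃ b ∈ A, b ≠ 0 ∧ b⁻¹ ∈ (W₁ ⊓ W₂ : Subring L) ∧ v * b ∈ A := by
  rintro v ⟨hv₁, hv₂⟩
  obtain ⟨b₁, hb₁A, hb₁0, hb₁', hvb₁⟩ := hloc₁ v hv₁
  obtain ⟨b₂, hb₂A, hb₂0, hb₂', hvb₂⟩ := hloc₂ v hv₂
  by_cases h12 : b₁⁻¹ ∈ W₂
  · exact ⟨b₁, hb₁A, hb₁0, ⟨hb₁', h12⟩, hvb₁⟩
  by_cases h21 : b₂⁻¹ ∈ W₁
  · exact ⟨b₂, hb₂A, hb₂0, ⟨h21, hb₂'⟩, hvb₂⟩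
  have hu₁ : (b₁ + b₂)⁻¹ ∈ W₁ := H₁.inv_add_mem (hA₁ hb₁A) hb₁' hb₁0 (hA₁ hb₂A) h21
  have hu₂ : (b₁ + b₂)⁻¹ ∈ W₂ := by
    rw [add_comm]
    exact H₂.inv_add_mem (hA₂ hb₂A) hb₂' hb₂0 (hA₂ hb₁A) h12
  refine ⟨b₁ + b₂, A.add_mem hb₁A hb₂A, ?_, ⟨hu₁, hu₂⟩, ?_⟩
  · intro h0
    have hb : b₂ = -b₁ := by linear_combination h0
    apply h21
    rw [hb, inv_neg]
    exact W₁.neg_mem hb₁'
  · rw [mul_add]
    exact A.add_mem hvb₁ hvb₂

end Val

section Basic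

variable {O : Subring L} {π j x : L} {F1 : Subfield L} {V A0 Ainf A : Subring L}

/-- Every `Setup` is an `S34C2_Setup`. -/
theorem S34C2_Setup.of_setup (S : Setup O π j F1 V A0 Ainf) :
    S34C2_Setup O π j F1 V A0 Ainf where
  dvr := S.dvr
  π_mem := S.π_mem
  π_irr := S.π_irr
  algClosed := S.algClosed
  j_trans := S.j_trans
  j_mem := S.j_mem
  O_le := S.O_le
  finite := S.finite
  V_le := S.V_le
  V_ic := fun _ hxF hx =>
    S34C2_Val.ic (π := π) (F1 := F1) (W := V)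
      ⟨S.V_le, S.V_val, S.chart0.le_V ((S.chart0.mem_iff π).2
        ⟨isIntegral_of_mem _ (le_adj O j S.π_mem), S.O_le S.π_mem⟩), S.π_nonunit⟩ hxF hx
  V_one_add := fun _ hc =>
    S34C2_Val.one_add (π := π) (F1 := F1) (W := V)
      ⟨S.V_le, S.V_val, S.chart0.le_V ((S.chart0.mem_iff π).2
        ⟨isIntegral_of_mem _ (le_adj O j S.π_mem), S.O_le S.π_mem⟩), S.π_nonunit⟩ hc
  π_nonunit := S.π_nonunit
  chart0 := S.chart0
  chartInf := S.chartInf

theorem S34C2_pi_ne_zero (S : S34C2_Setup O π j F1 V A0 Ainf) : π ≠ 0 := by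
  intro h
  apply S.π_nonunit
  rw [h, inv_zero]
  exact V.zero_mem

theorem S34C2_j_ne_zero (S : S34C2_Setup O π j F1 V A0 Ainf) : j ≠ 0 := by
  intro h
  apply S.j_trans
  rw [h]
  exact isAlgebraic_zero

theorem S34C2_O_le (S : S34C2_Setup O π j F1 V A0 Ainf) (hC : Chart O π x F1 V A) : O ≤ A :=
  fun y hy => (hC.mem_iff y).2 ⟨isIntegral_of_mem _ (le_adj O x hy), S.O_le hy⟩

theorem S34C2_x_mem (hC : Chart O π x F1 V A) (hx : x ∈ F1) : x ∈ A :=
  (hC.mem_iff x).2 ⟨isIntegral_of_mem _ (mem_adj_self O x), hx⟩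

theorem S34C2_adj_le (S : S34C2_Setup O π j F1 V A0 Ainf) (hC : Chart O π x F1 V A)
    (hx : x ∈ F1) : adj O x ≤ A :=
  adj_le (S34C2_O_le S hC) (S34C2_x_mem hC hx)

theorem S34C2_le_F1 (hC : Chart O π x F1 V A) : ∀ y ∈ A, y ∈ F1 :=
  fun y hy => ((hC.mem_iff y).1 hy).2

theorem S34C2_O_le_V (S : S34C2_Setup O π j F1 V A0 Ainf) : O ≤ V :=
  (S34C2_O_le S S.chart0).trans S.chart0.le_V

theorem S34C2_j_mem_V (S : S34C2_Setup O π j F1 V A0 Ainf) : j ∈ V := by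
  have := S.chartInf.x_inv_mem
  rwa [inv_inv] at this

theorem S34C2_j_inv_mem_V (S : S34C2_Setup O π j F1 V A0 Ainf) : j⁻¹ ∈ V :=
  S.chart0.x_inv_mem

theorem S34C2_icl_eq (S : S34C2_Setup O π j F1 V A0 Ainf) (hC : Chart O π x F1 V A)
    (hx : x ∈ F1) (E : Subfield L) : icl A E = icl (adj O x) E := by
  apply le_antisymm
  · intro y hy
    exact ⟨isIntegral_trans' (fun a ha => ((hC.mem_iff a).1 ha).1) hy.1, hy.2⟩
  · exact icl_mono (S34C2_adj_le S hC hx) E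

end Basic

end Fermat.Agent.S34_helper27_C2Defs
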