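import Mathlib
import Fermat.Agent.S18_helper9_CDefs
import Fermat.Agent.S18_helper9_CBasic
import Fermat.Agent.S18_helper25_P3
import Fermat.Agent.S18_helper20_CSAT
import Fermat.Agent.S34_helper27_C2Defs

set_option autoImplicit false
set_option linter.style.haveILetI false
set_option linter.unusedVariables false
set_option linter.unusedSectionVars false

/-!
# S34, abstract block C for a semi-local `V` (helper27): saturation

* `S34C2_isIntegral_of_mul` : replacement of P3 without primality of `π`.  `R ⊆ F1` integrally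
  closed in `F1`, `R ≤ V`, `R` is `π`-saturated in `V`, `g ∈ R` a unit of `V`: if `π y` and `g y`
  are integral over `R` then so is `y`.
* `S34C2_sat_chart` : X-C-SAT (a) for an `S34C2_Setup`.
* `S34C2_sat_V`     : X-C-SAT (b) for an `S34C2_Setup`.
-/

namespace Fermat.Agent.S34_helper27_C2SAT

open Fermat.Agent.S18_helper9_CDefs Fermat.Agent.S18_helper9_CBasic
  Fermat.Agent.S18_helper25_P3 Fermat.Agent.S18_helper20_CSAT
  Fermat.Agent.S34_helper27_C2Defs Polynomial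

variable {L : Type*} [Field L]

/-- iterated saturation -/
theorem S34C2_sat_pow (R V : Subring L) (π : L) (hπ : π ∈ R) (hRV : R ≤ V)
    (hsat : ∀ v ∈ V, π * v ∈ R → v ∈ R) (n : ℕ) {c : L} (hc : c ∈ V)
    (h : c * π ^ n ∈ R) : c ∈ R := by
  induction n with
  | zero => simpa using h
  | succ n ih =>
    apply ih
    refine hsat _ (V.mul_mem hc (V.pow_mem (hRV hπ) n)) ?_
    have : π * (c * π ^ n) = c * π ^ (n + 1) := by ring
    rw [this]
    exact h

/-- coefficients of the minimal polynomial over `F1` of an `R`-integral element are in `R`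
(`R ⊆ F1` integrally closed in `F1`) -/
theorem S34C2_coeff_minpoly_mem (R : Subring L) (F1 : Subfield L) (hRF : ∀ x ∈ R, x ∈ F1)
    (hRic : ∀ x ∈ F1, IsIntegral R x → x ∈ R) (x : L) (hx : IsIntegral R x) (i : ℕ) :
    (((minpoly F1 x).coeff i : F1) : L) ∈ R := by
  let ι : R →+* F1 := (R.subtype).codRestrict F1 (fun x => hRF _ x.2)
  letI : Algebra R F1 := ι.toAlgebra
  haveI : IsScalarTower R F1 L := IsScalarTower.of_algebraMap_eq (fun _ => rfl)
  obtain ⟨P, hP, hPx⟩ := hx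
  have hxK : IsIntegral F1 x := ⟨P.map (algebraMap R F1), hP.map _, by
    rw [eval₂_map, ← IsScalarTower.algebraMap_eq]; exact hPx⟩
  have hdvd : minpoly F1 x ∣ P.map (algebraMap R F1) := by
    refine minpoly.dvd _ _ ?_
    rw [aeval_def, eval₂_map, ← IsScalarTower.algebraMap_eq]; exact hPx
  have hint := Polynomial.isIntegral_coeff_of_dvd P (minpoly F1 x) hP (minpoly.monic hxK) hdvd i
  have hint' : IsIntegral R (algebraMap F1 L ((minpoly F1 x).coeff i)) :=
    hint.map (IsScalarTower.toAlgHom R F1 L)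
  exact hRic _ ((minpoly F1 x).coeff i).2 hint'

/-- **P3 without primality.** -/
theorem S34C2_isIntegral_of_mul (R V : Subring L) (F1 : Subfield L) (hRF : ∀ x ∈ R, x ∈ F1)
    (hRic : ∀ x ∈ F1, IsIntegral R x → x ∈ R) (hRV : R ≤ V) (π g : L) (hπ : π ∈ R)
    (hπ0 : π ≠ 0) (hsat : ∀ v ∈ V, π * v ∈ R → v ∈ R) (hg : g ∈ R) (hg0 : g ≠ 0)
    (hginv : g⁻¹ ∈ V) (y : L) (hπy : IsIntegral R (π * y)) (hgy : IsIntegral R (g * y)) :
    IsIntegral R y := by
  let ι : R →+* F1 := (R.subtype).codRestrict F1 (fun x => hRF _ x.2)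
  letI : Algebra R F1 := ι.toAlgebra
  haveI : IsScalarTower R F1 L := IsScalarTower.of_algebraMap_eq (fun _ => rfl)
  have hπF : π ∈ F1 := hRF _ hπ
  have hgF : g ∈ F1 := hRF _ hg
  have hπyK : IsIntegral F1 (π * y) := hπy.tower_top
  have hyK : IsIntegral F1 y := by
    have h1 : y = algebraMap F1 L ⟨π⁻¹, F1.inv_mem hπF⟩ * (π * y) := by
      change y = π⁻¹ * (π * y)
      rw [← mul_assoc, inv_mul_cancel₀ hπ0, one_mul]
    rw [h1]
    exact isIntegral_algebraMap.mul hπyK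
  have hπK0 : (⟨π, hπF⟩ : F1) ≠ 0 := fun h => hπ0 (congrArg Subtype.val h)
  have hgK0 : (⟨g, hgF⟩ : F1) ≠ 0 := fun h => hg0 (congrArg Subtype.val h)
  have hmπ : minpoly F1 (π * y) = (minpoly F1 y).scaleRoots ⟨π, hπF⟩ :=
    S18P3_minpoly_mul (K := F1) (E := L) ⟨π, hπF⟩ hπK0 y hyK
  have hmg : minpoly F1 (g * y) = (minpoly F1 y).scaleRoots ⟨g, hgF⟩ :=
    S18P3_minpoly_mul (K := F1) (E := L) ⟨g, hgF⟩ hgK0 y hyK
  set d := (minpoly F1 y).natDegree with hd
  have hcoef : ∀ i, (((minpoly F1 y).coeff i : F1) : L) ∈ R := by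
    intro i
    have h1 := S34C2_coeff_minpoly_mem R F1 hRF hRic (π * y) hπy i
    have h2 := S34C2_coeff_minpoly_mem R F1 hRF hRic (g * y) hgy i
    rw [hmπ, coeff_scaleRoots] at h1
    rw [hmg, coeff_scaleRoots] at h2
    have h1' : (((minpoly F1 y).coeff i : F1) : L) * π ^ (d - i) ∈ R := h1
    have h2' : (((minpoly F1 y).coeff i : F1) : L) * g ^ (d - i) ∈ R := h2
    have hV : (((minpoly F1 y).coeff i : F1) : L) ∈ V := by
      have hgp : g ^ (d - i) ≠ 0 := pow_ne_zero _ hg0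
      have : (((minpoly F1 y).coeff i : F1) : L) =
          (((minpoly F1 y).coeff i : F1) : L) * g ^ (d - i) * (g⁻¹) ^ (d - i) := by
        rw [inv_pow]
        field_simp
      rw [this]
      exact V.mul_mem (hRV h2') (V.pow_mem hginv _)
    exact S34C2_sat_pow R V π hπ hRV hsat (d - i) hV h1'
  -- the minimal polynomial has coefficients in `R`
  set μ : L[X] := (minpoly F1 y).map (algebraMap F1 L) with hμ
  have hμc : (↑μ.coeffs : Set L) ⊆ R := by
    intro c hc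
    rw [Finset.mem_coe, mem_coeffs_iff] at hc
    obtain ⟨n, -, rfl⟩ := hc
    rw [hμ, coeff_map]
    exact hcoef n
  refine ⟨μ.toSubring R hμc, (monic_toSubring μ R hμc).mpr ((minpoly.monic hyK).map _), ?_⟩
  have h1 : eval₂ (algebraMap R L) y (μ.toSubring R hμc) =
      eval y ((μ.toSubring R hμc).map (Subring.subtype R)) := by
    rw [eval_map]
    rfl
  rw [h1, map_toSubring, hμ, eval_map, ← aeval_def]
  exact minpoly.aeval F1 y

section Setup

variable {O : Subring L} {π j : L} {F1 : Subfield L} {V A0 Ainf : Subring L}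

theorem S34C2_adjMid_le_V (S : S34C2_Setup O π j F1 V A0 Ainf) : adjMid O j ≤ V := by
  refine Subring.closure_le.mpr ?_
  rintro y (hy | hy)
  · exact S34C2_O_le_V S hy
  · rcases hy with rfl | hy
    · exact S34C2_j_mem_V S
    · rw [Set.mem_singleton_iff] at hy
      subst hy
      exact S34C2_j_inv_mem_V S

/-- a unit of `V` is not divisible by `π` in `V` -/
theorem S34C2_not_pi_dvd_unit (S : S34C2_Setup O π j F1 V A0 Ainf) {g a : L} (hg : g⁻¹ ∈ V)
    (ha : a ∈ V) (hg0 : g ≠ 0) : g ≠ π * a := by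
  intro h
  refine S.π_nonunit ?_
  have hπ0 := S34C2_pi_ne_zero S
  have : π⁻¹ = a * g⁻¹ := by
    rw [h]
    have ha0 : a ≠ 0 := by
      rintro rfl
      rw [mul_zero] at h
      exact hg0 h
    field_simp
  rw [this]
  exact V.mul_mem ha hg

/-- **X-C-SAT (a)** for a semi-local `V`. -/
theorem S34C2_sat_chart [CharZero L] (S : S34C2_Setup O π j F1 V A0 Ainf) (x : L)
    (hx : x = j ∨ x = j⁻¹)
    (E : Subfield L) (hE : F1 ≤ E) (y : L) (hy : y ∈ icl (adjMid O j) E)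
    (hπy : π * y ∈ icl (adj O x) E) : y ∈ icl (adj O x) E := by
  haveI := S.dvr
  have hj0 := S34C2_j_ne_zero S
  have hπ0 := S34C2_pi_ne_zero S
  have hxt : Transcendental O x := by
    rcases hx with rfl | rfl
    · exact S.j_trans
    · exact CSAT_transcendental_inv O j S.j_trans
  have hx0 : x ≠ 0 := by
    rcases hx with rfl | rfl
    · exact hj0
    · exact inv_ne_zero hj0
  have hxV : x ∈ V ∧ x⁻¹ ∈ V := by
    rcases hx with rfl | rfl
    · exact ⟨S34C2_j_mem_V S, S34C2_j_inv_mem_V S⟩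
    · exact ⟨S34C2_j_inv_mem_V S, by rw [inv_inv]; exact S34C2_j_mem_V S⟩
  have hadjV : adj O x ≤ V := by
    refine Subring.closure_le.mpr ?_
    rintro z (hz | hz)
    · exact S34C2_O_le_V S hz
    · rw [Set.mem_singleton_iff] at hz
      subst hz
      exact hxV.1
  -- clearing the denominators
  have hclear : ∀ r ∈ adjMid O j, ∃ n : ℕ, x ^ n * r ∈ adj O x := by
    intro r hr
    rcases hx with rfl | rfl
    · exact CSAT_pow_mul_mem_adj O _ hj0 hr
    · rw [← CSAT_adjMid_inv] at hr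
      exact CSAT_pow_mul_mem_adj O _ (inv_ne_zero hj0) hr
  obtain ⟨n, hb⟩ := CSAT_exists_pow_mul_isIntegral (adj O x) (adjMid O j) x (CSAT_mem_adj O x)
    hclear hy.1
  -- P3
  haveI := CSAT_isIntegrallyClosed_adj O x hxt
  letI := FractionRing.liftAlgebra (adj O x) L
  haveI := FractionRing.isScalarTower_liftAlgebra (adj O x) L
  have hprime := CSAT_prime_adj O x hxt π S.π_mem (S.π_irr S.π_mem)
  have hndvd : ¬ (⟨π, CSAT_O_le_adj O x S.π_mem⟩ : adj O x) ∣
      (⟨x, CSAT_mem_adj O x⟩ : adj O x) ^ n := by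
    rintro ⟨a, ha⟩
    have ha' : x ^ n = π * (a : L) := by
      have := congrArg (fun z : adj O x => (z : L)) ha
      simpa using this
    have hxn : (x ^ n)⁻¹ ∈ V := by
      rw [← inv_pow]
      exact V.pow_mem hxV.2 n
    exact S34C2_not_pi_dvd_unit S hxn (hadjV a.2) (pow_ne_zero n hx0) ha'
  obtain ⟨y', hy', hEq⟩ := S18P3_exists_eq_mul (R := adj O x) (E := L)
    (FractionRing (adj O x)) (⟨π, CSAT_O_le_adj O x S.π_mem⟩ : adj O x)
    ((⟨x, CSAT_mem_adj O x⟩ : adj O x) ^ n) hprime hndvd (π * y) (x ^ n * y) hπy.1 hb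
    (by
      show ((⟨x, CSAT_mem_adj O x⟩ : adj O x) ^ n : adj O x).1 * (π * y) = π * (x ^ n * y)
      rw [SubmonoidClass.coe_pow]
      ring)
  have hyy : y = y' := mul_left_cancel₀ hπ0 hEq
  exact ⟨hyy ▸ hy', hy.2⟩

/-! ### the middle chart `A_mid = icl (adjMid O j) F1` -/

theorem S34C2_A0_le_Amid (S : S34C2_Setup O π j F1 V A0 Ainf) : A0 ≤ icl (adjMid O j) F1 := by
  intro a ha
  obtain ⟨h1, h2⟩ := (S.chart0.mem_iff a).mp ha
  exact ⟨CSAT_isIntegral_mono (CSAT_adj_le_adjMid O j) h1, h2⟩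

/-- every element of `A_mid` is moved into `A0` by a power of `j` -/
theorem S34C2_pow_mul_mem_A0 (S : S34C2_Setup O π j F1 V A0 Ainf) {a : L}
    (ha : a ∈ icl (adjMid O j) F1) : ∃ n : ℕ, j ^ n * a ∈ A0 := by
  obtain ⟨n, hn⟩ := CSAT_exists_pow_mul_isIntegral (adj O j) (adjMid O j) j (CSAT_mem_adj O j)
    (fun r hr => CSAT_pow_mul_mem_adj O j (S34C2_j_ne_zero S) hr) ha.1
  exact ⟨n, (S.chart0.mem_iff _).mpr ⟨hn, F1.mul_mem (F1.pow_mem S.j_mem n) ha.2⟩⟩

theorem S34C2_Amid_le_V (S : S34C2_Setup O π j F1 V A0 Ainf) : icl (adjMid O j) F1 ≤ V := by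
  intro a ha
  obtain ⟨n, hn⟩ := S34C2_pow_mul_mem_A0 S ha
  have h1 : a = (j⁻¹) ^ n * (j ^ n * a) := by
    have hj0 := S34C2_j_ne_zero S
    rw [← mul_assoc, ← mul_pow, inv_mul_cancel₀ hj0, one_pow, one_mul]
  rw [h1]
  exact V.mul_mem (V.pow_mem (S34C2_j_inv_mem_V S) n) (S.chart0.le_V hn)

/-- `A_mid` is `π`-saturated in `V` -/
theorem S34C2_Amid_sat (S : S34C2_Setup O π j F1 V A0 Ainf) {v : L} (hv : v ∈ V)
    (hπv : π * v ∈ icl (adjMid O j) F1) : v ∈ icl (adjMid O j) F1 := by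
  have hj0 := S34C2_j_ne_zero S
  obtain ⟨n, hn⟩ := S34C2_pow_mul_mem_A0 S hπv
  have h1 : j ^ n * (π * v) = π * (j ^ n * v) := by ring
  rw [h1] at hn
  have h2 : j ^ n * v ∈ A0 := S.chart0.sat _ (V.mul_mem (V.pow_mem (S34C2_j_mem_V S) n) hv) hn
  have h3 := S34C2_A0_le_Amid S h2
  have hjinv : (j⁻¹) ^ n ∈ icl (adjMid O j) F1 := by
    have hmem : j⁻¹ ∈ adjMid O j := Subring.subset_closure (Or.inr (Or.inr rfl))
    have hmem' : j⁻¹ ∈ icl (adjMid O j) F1 :=
      mem_icl.mpr ⟨isIntegral_algebraMap (x := (⟨j⁻¹, hmem⟩ : adjMid O j)), F1.inv_mem S.j_mem⟩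
    exact Subring.pow_mem _ hmem' n
  have h4 : v = (j⁻¹) ^ n * (j ^ n * v) := by
    rw [← mul_assoc, ← mul_pow, inv_mul_cancel₀ hj0, one_pow, one_mul]
  rw [h4]
  exact Subring.mul_mem _ hjinv h3

theorem S34C2_pi_mem_Amid (S : S34C2_Setup O π j F1 V A0 Ainf) : π ∈ icl (adjMid O j) F1 :=
  S34C2_A0_le_Amid S (S34C2_O_le S S.chart0 S.π_mem)

theorem S34C2_adjMid_le_Amid (S : S34C2_Setup O π j F1 V A0 Ainf) :
    adjMid O j ≤ icl (adjMid O j) F1 := by
  intro a ha
  refine mem_icl.mpr ⟨isIntegral_algebraMap (x := (⟨a, ha⟩ : adjMid O j)), ?_⟩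
  have hle : adjMid O j ≤ F1.toSubring := by
    refine Subring.closure_le.mpr ?_
    rintro z (hz | hz)
    · exact S.O_le hz
    · rcases hz with rfl | hz
      · exact S.j_mem
      · rw [Set.mem_singleton_iff] at hz
        subst hz
        exact F1.inv_mem S.j_mem
  exact hle ha

/-- **X-C-SAT (b)** for a semi-local `V`: `y ∈ V[s]` with `π y` integral over `O[j, j⁻¹]` is
integral over `O[j, j⁻¹]`. -/
theorem S34C2_sat_V [CharZero L] (S : S34C2_Setup O π j F1 V A0 Ainf) (p : ℕ) (s : L)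
    (hs : s ^ p ∈ V)
    (E : Subfield L) (hE : F1 ≤ E) (y : L) (hy : y ∈ vadj V s p)
    (hπy : π * y ∈ icl (adjMid O j) E) : y ∈ icl (adjMid O j) E := by
  classical
  have hπ0 := S34C2_pi_ne_zero S
  have hyE : y ∈ E := by
    have hπE : π ∈ E := hE (S.O_le S.π_mem)
    have h : y = π⁻¹ * (π * y) := by
      rw [← mul_assoc, inv_mul_cancel₀ hπ0, one_mul]
    rw [h]
    exact E.mul_mem (E.inv_mem hπE) hπy.2
  refine mem_icl.mpr ⟨?_, hyE⟩
  obtain ⟨c, hc, rfl⟩ := hy
  rcases Nat.eq_zero_or_pos p with hp0 | hppos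
  · subst hp0
    simp only [Finset.range_zero, Finset.sum_empty]
    exact isIntegral_zero
  -- the ring `R = A_mid`
  set R : Subring L := icl (adjMid O j) F1 with hR
  have hA0R : A0 ≤ R := S34C2_A0_le_Amid S
  have hRV : R ≤ V := S34C2_Amid_le_V S
  have hintR : ∀ a ∈ R, IsIntegral R a := fun a ha =>
    isIntegral_algebraMap (x := (⟨a, ha⟩ : R))
  -- denominators
  have hloc := S.chart0.loc
  obtain ⟨β, hβA, hβ0, hβinv, hβs⟩ := hloc _ hs
  have hden : ∀ i, ∃ b ∈ A0, b ≠ 0 ∧ b⁻¹ ∈ V ∧ c i * b ∈ A0 := fun i => hloc _ (hc i)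
  choose b hbA hb0 hbinv hbc using hden
  -- `t = β s` is integral over `R`
  have htp : (β * s) ^ p ∈ A0 := by
    obtain ⟨m, rfl⟩ : ∃ m, p = m + 1 := ⟨p - 1, by omega⟩
    have : (β * s) ^ (m + 1) = β ^ m * (s ^ (m + 1) * β) := by ring
    rw [this]
    exact A0.mul_mem (A0.pow_mem hβA m) hβs
  have htint : IsIntegral R (β * s) :=
    IsIntegral.of_pow hppos (hintR _ (hA0R htp))
  -- the common denominator
  set g : L := (∏ i ∈ Finset.range p, b i) * β ^ p with hg
  have hgA : g ∈ A0 := A0.mul_mem (Subring.prod_mem _ fun i _ => hbA i) (A0.pow_mem hβA p)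
  have hg0 : g ≠ 0 :=
    mul_ne_zero (Finset.prod_ne_zero_iff.mpr fun i _ => hb0 i) (pow_ne_zero p hβ0)
  have hginv : g⁻¹ ∈ V := by
    rw [hg, mul_inv, ← Finset.prod_inv_distrib, ← inv_pow]
    exact V.mul_mem (Subring.prod_mem _ fun i _ => hbinv i) (V.pow_mem hβinv p)
  -- `g y` is integral over `R`
  have hterm : ∀ i ∈ Finset.range p, IsIntegral R (g * (c i * s ^ i)) := by
    intro i hi
    have hip : i < p := Finset.mem_range.mp hi
    obtain ⟨k, hk⟩ : ∃ k, p = i + k := ⟨p - i, by omega⟩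
    have hprod : b i * ∏ x ∈ (Finset.range p).erase i, b x = ∏ x ∈ Finset.range p, b x :=
      Finset.mul_prod_erase _ _ hi
    have heq : g * (c i * s ^ i) =
        ((∏ x ∈ (Finset.range p).erase i, b x) * (c i * b i) * β ^ k) * (β * s) ^ i := by
      rw [hg, ← hprod, hk, pow_add, mul_pow]
      ring
    rw [heq]
    have hcoef : (∏ x ∈ (Finset.range p).erase i, b x) * (c i * b i) * β ^ k ∈ A0 :=
      A0.mul_mem (A0.mul_mem (Subring.prod_mem _ fun x _ => hbA x) (hbc i)) (A0.pow_mem hβA k)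
    exact (hintR _ (hA0R hcoef)).mul (htint.pow i)
  have hgy : IsIntegral R (g * ∑ i ∈ Finset.range p, c i * s ^ i) := by
    rw [Finset.mul_sum]
    exact IsIntegral.sum _ hterm
  have hπyR : IsIntegral R (π * ∑ i ∈ Finset.range p, c i * s ^ i) :=
    CSAT_isIntegral_mono (S34C2_adjMid_le_Amid S) hπy.1
  -- `R` is integrally closed in `F1`
  have hRF : ∀ x ∈ R, x ∈ F1 := fun x hx => hx.2
  have hRic : ∀ x ∈ F1, IsIntegral R x → x ∈ R := fun x hxF hx =>
    mem_icl.mpr ⟨CSAT_isIntegral_of_icl (adjMid O j) F1 hx, hxF⟩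
  have hyR : IsIntegral R (∑ i ∈ Finset.range p, c i * s ^ i) :=
    S34C2_isIntegral_of_mul R V F1 hRF hRic hRV π g (S34C2_pi_mem_Amid S) hπ0
      (fun v hv hπv => S34C2_Amid_sat S hv hπv) (hA0R hgA) hg0 hginv _ hπyR hgy
  exact CSAT_isIntegral_of_icl (adjMid O j) F1 hyR

end Setup

end Fermat.Agent.S34_helper27_C2SAT
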