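import Mathlib
import Fermat.Agent.S18_helper9_CDefs
import Fermat.Agent.S18_helper9_CBasic
import Fermat.Agent.S34_helper12_CDefs
import Fermat.Agent.S34_helper27_C2Defs
import Fermat.Agent.S34_helper27_C2SAT

set_option autoImplicit false
set_option linter.style.haveILetI false
set_option linter.unusedVariables false
set_option linter.unusedSectionVars false

/-!
# S34, P1c / X-V3 (helper27): the two-valuation setup from the level-`N'` setup

Abstract assembly (carriers = subrings of one ambient field `L`).  Given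

* `S'` : the S18 `Setup` at level `N'` (function field `F1'`, Gauss valuation ring `V'`, charts
  `A0'`, `Ainf'`);
* a bigger function field `F1 ⊇ F1'`, finite over `Frac(O)(j)`;
* two valuation rings `V1`, `V2` of `F1` with uniformiser `π`, both containing `V'`;
* **(KEY)** every element of `V1 ⊓ V2` is integral over `V'` (i.e. `V1`, `V2` are ALL the
  extensions of `V'` to `F1`; output of V-COUNT);

the charts `A0 = icl (adj O j) F1`, `Ainf = icl (adj O j⁻¹) F1` form an `S34C_Setup2`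
(`S34V3_setup2`).

* `S34V3_clear` : clearing the denominators of an element integral over `V'` by a unit of `V'`
  lying in the chart `A'` of level `N'`;
* `S34V3_chart` : one chart;
* `S34V3_setup2`, `S34V3_setup` : the assembly (two-valuation form / weak form).
-/

namespace Fermat.Agent.S34_helper27_V3

open Fermat.Agent.S18_helper9_CDefs Fermat.Agent.S18_helper9_CBasic
  Fermat.Agent.S34_helper12_CDefs Fermat.Agent.S34_helper27_C2Defs
  Fermat.Agent.S34_helper27_C2SAT Polynomial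

variable {L : Type*} [Field L] {O : Subring L} {π j x : L} {F1' F1 : Subfield L}
  {V' A0' Ainf' A' V1 V2 V : Subring L}

/-- Clearing denominators: an element integral over `V'` becomes integral over the chart `A'`
after multiplication by an element of `A'` which is a unit of `V'`. -/
theorem S34V3_clear (hloc : ∀ v ∈ V', ∃ b ∈ A', b ≠ 0 ∧ b⁻¹ ∈ V' ∧ v * b ∈ A') {v : L}
    (hv : IsIntegral V' v) :
    ∃ s ∈ A', s ≠ 0 ∧ s⁻¹ ∈ V' ∧ IsIntegral A' (s * v) := by
  classical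
  obtain ⟨P, hP, hPv⟩ := hv
  set n := P.natDegree with hn
  have hden : ∀ i, ∃ b ∈ A', b ≠ 0 ∧ b⁻¹ ∈ V' ∧ ((P.coeff i : V') : L) * b ∈ A' :=
    fun i => hloc _ (P.coeff i).2
  choose b hbA hb0 hbinv hbc using hden
  set s : L := ∏ i ∈ Finset.range n, b i with hs
  have hsA : s ∈ A' := Subring.prod_mem _ fun i _ => hbA i
  have hs0 : s ≠ 0 := Finset.prod_ne_zero_iff.mpr fun i _ => hb0 i
  have hsinv : s⁻¹ ∈ V' := by
    rw [hs, ← Finset.prod_inv_distrib]
    exact Subring.prod_mem _ fun i _ => hbinv i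
  refine ⟨s, hsA, hs0, hsinv, ?_⟩
  -- the scaled polynomial
  set PL : L[X] := P.map (algebraMap V' L) with hPL
  have hPLm : PL.Monic := hP.map _
  have hPLn : PL.natDegree = n := hP.natDegree_map _
  set Q : L[X] := PL.scaleRoots s with hQ
  have hQm : Q.Monic := (monic_scaleRoots_iff s).mpr hPLm
  have hQv : Q.eval (s * v) = 0 := by
    have h1 : PL.eval v = 0 := by
      rw [hPL, eval_map]; exact hPv
    have h2 := scaleRoots_eval₂_mul (p := PL) (f := RingHom.id L) (r := v) (s := s)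
    rw [← hQ] at h2
    simp only [eval₂_id, RingHom.id_apply] at h2
    rw [h2, h1, mul_zero]
  have hcs : ∀ i, i < n → ((P.coeff i : V') : L) * s ∈ A' := by
    intro i hi
    have hi' : i ∈ Finset.range n := Finset.mem_range.mpr hi
    have hprod : b i * ∏ k ∈ (Finset.range n).erase i, b k = s := Finset.mul_prod_erase _ _ hi'
    rw [← hprod, ← mul_assoc]
    exact A'.mul_mem (hbc i) (Subring.prod_mem _ fun k _ => hbA k)
  have hQc : (↑Q.coeffs : Set L) ⊆ A' := by
    intro c hc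
    rw [Finset.mem_coe, mem_coeffs_iff] at hc
    obtain ⟨i, -, rfl⟩ := hc
    rw [hQ, coeff_scaleRoots, hPLn, hPL, coeff_map]
    rcases lt_trichotomy i n with hi | hi | hi
    · obtain ⟨k, hk⟩ : ∃ k, n - i = k + 1 := ⟨n - i - 1, by omega⟩
      rw [hk, pow_succ', ← mul_assoc]
      exact A'.mul_mem (hcs i hi) (A'.pow_mem hsA k)
    · subst hi
      have : P.coeff n = 1 := hP.coeff_natDegree
      rw [this]
      simp only [Nat.sub_self, pow_zero, mul_one, map_one]
      exact A'.one_mem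
    · have : P.coeff i = 0 := coeff_eq_zero_of_natDegree_lt hi
      rw [this]
      simp only [map_zero, zero_mul]
      exact A'.zero_mem
  refine ⟨Q.toSubring A' hQc, (monic_toSubring Q A' hQc).mpr hQm, ?_⟩
  have h1 : eval₂ (algebraMap A' L) (s * v) (Q.toSubring A' hQc) =
      eval (s * v) ((Q.toSubring A' hQc).map (Subring.subtype A')) := by
    rw [eval_map]
    rfl
  rw [h1, map_toSubring]
  exact hQv

/-- One chart of the two-valuation setup, from the chart of level `N'`. -/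
theorem S34V3_chart (hOF : (O : Set L) ⊆ F1') (hπO : π ∈ O) (hπ0 : π ≠ 0)
    (C' : Chart O π x F1' V' A') (hxF : x ∈ F1') (hF : F1' ≤ F1)
    (hVF : (V : Set L) ⊆ F1) (hVic : ∀ y ∈ F1, IsIntegral V y → y ∈ V)
    (hV'V : V' ≤ V) (hkey : ∀ v ∈ V, IsIntegral V' v) :
    Chart O π x F1 V (icl (adj O x) F1) := by
  have hOA' : O ≤ A' := fun y hy =>
    (C'.mem_iff y).2 ⟨isIntegral_of_mem _ (le_adj O x hy), hOF hy⟩
  have hxA' : x ∈ A' := (C'.mem_iff x).2 ⟨isIntegral_of_mem _ (mem_adj_self O x), hxF⟩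
  have hadjA' : adj O x ≤ A' := adj_le hOA' hxA'
  have hA'int : ∀ a ∈ A', IsIntegral (adj O x) a := fun a ha => ((C'.mem_iff a).1 ha).1
  have hA'F : ∀ a ∈ A', a ∈ F1' := fun a ha => ((C'.mem_iff a).1 ha).2
  have hA'A : A' ≤ icl (adj O x) F1 := fun a ha => ⟨hA'int a ha, hF (hA'F a ha)⟩
  have hadjV : adj O x ≤ V := hadjA'.trans (C'.le_V.trans hV'V)
  -- `loc` with integrality over `A'`
  have hloc' : ∀ v ∈ V, ∃ s ∈ A', s ≠ 0 ∧ s⁻¹ ∈ V' ∧ IsIntegral A' (s * v) :=
    fun v hv => S34V3_clear C'.loc (hkey v hv)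
  refine ⟨fun _ => Iff.rfl, hV'V C'.x_inv_mem, ?_, ?_, ?_⟩
  · -- le_V
    intro a ha
    exact hVic a ha.2 (isIntegral_mono hadjV ha.1)
  · -- sat
    intro v hv hπv
    obtain ⟨s, hsA, hs0, hsinv, hsv⟩ := hloc' v hv
    have hπvA' : IsIntegral A' (π * v) := isIntegral_mono hadjA' hπv.1
    have hvA' : IsIntegral A' v :=
      S34C2_isIntegral_of_mul A' V' F1' hA'F
        (fun y hyF hy => (C'.mem_iff y).2 ⟨isIntegral_trans' hA'int hy, hyF⟩)
        C'.le_V π s (hOA' hπO) hπ0 C'.sat hsA hs0 hsinv v hπvA' hsv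
    exact ⟨isIntegral_trans' hA'int hvA', hVF hv⟩
  · -- loc
    intro v hv
    obtain ⟨s, hsA, hs0, hsinv, hsv⟩ := hloc' v hv
    refine ⟨s, hA'A hsA, hs0, hV'V hsinv, ?_⟩
    rw [mul_comm]
    exact ⟨isIntegral_trans' hA'int hsv, F1.mul_mem (hF (hA'F s hsA)) (hVF hv)⟩

/-- **P1c / X-V3, weak form**: the `S34C_Setup` for a semi-local `V ⊇ V'` whose elements are
integral over `V'`. -/
theorem S34V3_setup (S' : Setup O π j F1' V' A0' Ainf') (hF : F1' ≤ F1)
    (hfin : ∃ s : Finset L, ∀ x ∈ F1, ∃ c : L → L,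
      (∀ y, c y ∈ Subfield.closure ((O : Set L) ∪ {j})) ∧ x = ∑ y ∈ s, c y * y)
    (hVF : (V : Set L) ⊆ F1) (hVic : ∀ y ∈ F1, IsIntegral V y → y ∈ V)
    (hVrad : ∀ c ∈ V, (1 + π * c)⁻¹ ∈ V) (hπV : π⁻¹ ∉ V)
    (hV'V : V' ≤ V) (hkey : ∀ v ∈ V, IsIntegral V' v) :
    S34C_Setup O π j F1 V (icl (adj O j) F1) (icl (adj O j⁻¹) F1) where
  dvr := S'.dvr
  π_mem := S'.π_mem
  π_irr := S'.π_irr
  algClosed := S'.algClosed
  j_trans := S'.j_trans
  j_mem := hF S'.j_mem
  O_le := fun _ hy => hF (S'.O_le hy)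
  finite := hfin
  V_le := hVF
  V_ic := hVic
  V_rad := hVrad
  π_nonunit := hπV
  chart0 := S34V3_chart S'.O_le S'.π_mem
    (fun h => hπV (by rw [h, inv_zero]; exact V.zero_mem)) S'.chart0 S'.j_mem hF hVF hVic
    hV'V hkey
  chartInf := S34V3_chart S'.O_le S'.π_mem
    (fun h => hπV (by rw [h, inv_zero]; exact V.zero_mem)) S'.chartInf (F1'.inv_mem S'.j_mem)
    hF hVF hVic hV'V hkey

/-- **P1c / X-V3**: the two-valuation setup from the level-`N'` setup, two valuation rings of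
`F1` containing `V'`, and KEY. -/
theorem S34V3_setup2 (S' : Setup O π j F1' V' A0' Ainf') (hF : F1' ≤ F1)
    (hfin : ∃ s : Finset L, ∀ x ∈ F1, ∃ c : L → L,
      (∀ y, c y ∈ Subfield.closure ((O : Set L) ∪ {j})) ∧ x = ∑ y ∈ s, c y * y)
    (h1 : S34C2_Val π F1 V1) (h1u : ∀ x ∈ V1, x⁻¹ ∉ V1 → ∃ v ∈ V1, x = π * v)
    (h2 : S34C2_Val π F1 V2) (h2u : ∀ x ∈ V2, x⁻¹ ∉ V2 → ∃ v ∈ V2, x = π * v)
    (hV1 : V' ≤ V1) (hV2 : V' ≤ V2)
    (hkey : ∀ v ∈ (V1 ⊓ V2 : Subring L), IsIntegral V' v) :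
    S34C_Setup2 O π j F1 V1 V2 (icl (adj O j) F1) (icl (adj O j⁻¹) F1) where
  dvr := S'.dvr
  π_mem := S'.π_mem
  π_irr := S'.π_irr
  algClosed := S'.algClosed
  j_trans := S'.j_trans
  j_mem := hF S'.j_mem
  O_le := fun _ hy => hF (S'.O_le hy)
  finite := hfin
  V1_le := h1.le
  V1_val := h1.val
  V1_unif := h1u
  V1_nonunit := h1.π_nonunit
  V2_le := h2.le
  V2_val := h2.val
  V2_unif := h2u
  V2_nonunit := h2.π_nonunit
  chart0 := S34V3_chart S'.O_le S'.π_mem h1.π_ne_zero S'.chart0 S'.j_mem hF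
    (S34C2_le_inf h1) (S34C2_ic_inf h1 h2) (le_inf hV1 hV2) hkey
  chartInf := S34V3_chart S'.O_le S'.π_mem h1.π_ne_zero S'.chartInf (F1'.inv_mem S'.j_mem) hF
    (S34C2_le_inf h1) (S34C2_ic_inf h1 h2) (le_inf hV1 hV2) hkey

end Fermat.Agent.S34_helper27_V3
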