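import Fermat.Agent.S18_helper14_SETUP
import Fermat.Agent.S34_helper12_CDefs
import Fermat.Agent.S34_helper27_C2Defs
import Fermat.Agent.S34_helper27_V3

set_option autoImplicit false
set_option linter.style.haveILetI false
set_option linter.unusedVariables false
set_option linter.unusedSectionVars false

/-!
# S34, P1c / X-V3 (helper27): the two-valuation setup for the concrete carriers `S18K_*`

`N = q N'`, `q ∤ N'`, `A` a valuation subring of `ℚ̄` over `q`, `K1` a level with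
`O1 = A ∩ K1` a discrete valuation ring.  `V1 := S18K_V A K1 N` is the Gauss valuation ring of
`F1 = S18K_F1 K1 N` (the `q`-expansion valuation `v_∞`).  For ANY second valuation ring `V2` of
`F1` with uniformiser `π` containing the Gauss ring of level `N'` and such that `V1 ⊓ V2` is
integral over the Gauss ring of level `N'` (KEY), the S18K carriers form an `S34C_Setup2`.

* `S34V3K_F1_mono` : `F1(N') ≤ F1(N)` for `N' ∣ N`;
* `S34V3K_V_mono`  : the Gauss ring of level `N'` is contained in that of level `N`;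
* `S34V3K_val1`, `S34V3K_unif1` : `V1` is a valuation ring of `F1` with uniformiser `π`
  (level-independent: no hypothesis `q ∤ N`);
* `S34V3K_fin`     : `Setup.finite` at every level;
* `S34V3K_setup2`  : the assembly.
-/

open ModularCurve Fermat.Agent.S18_helper13_GAUSS Fermat.Agent.S18_helper9_CDefs
open Fermat.Agent.S18_helper25_COREDefs Fermat.Agent.S34_helper12_CDefs
  Fermat.Agent.S34_helper27_C2Defs Fermat.Agent.S34_helper27_V3

noncomputable section

namespace Fermat.Agent.S34_helper27_V3K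

variable (A : ValuationSubring (AlgebraicClosure ℚ))
  (K1 : IntermediateField ℚ (AlgebraicClosure ℚ))

/-- `F1(N') ≤ F1(N)` for `N' ∣ N`. -/
theorem S34V3K_F1_mono {N' N : ℕ} (h : N' ∣ N) : S18K_F1 K1 N' ≤ S18K_F1 K1 N := by
  have hle : modularFunctionFieldFullC K1 N' ≤ modularFunctionFieldFullC K1 N := by
    refine IntermediateField.adjoin.mono _ _ _ ?_
    rintro x ⟨d, hd, hdN, rfl⟩
    exact ⟨d, hd, hdN.trans h, rfl⟩
  exact fun x hx => hle hx

variable [IsDiscreteValuationRing (S18K_O1 A K1)]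

/-- the Gauss ring of level `N'` is contained in the Gauss ring of level `N`. -/
theorem S34V3K_V_mono {N' N : ℕ} (h : N' ∣ N) : S18K_V A K1 N' ≤ S18K_V A K1 N :=
  fun x hx => ⟨hx.1, S34V3K_F1_mono K1 h hx.2⟩

/-- `π ∈ V1`. -/
theorem S34V3K_π_mem_V (N : ℕ) : S18K_π A K1 ∈ S18K_V A K1 N :=
  ⟨(S18K_D A K1).πK_mem_Vring,
    Fermat.Agent.S18A.πL_mem_F1L (S18K_res A K1) (S18K_res_eq_zero_iff A K1) N⟩

/-- `V1` is a valuation ring of `F1` in which `π` is a non-unit (any level). -/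
theorem S34V3K_val1 (N : ℕ) : S34C2_Val (S18K_π A K1) (S18K_F1 K1 N) (S18K_V A K1 N) where
  le := fun _ hx => hx.2
  val := fun _ hx =>
    Fermat.Agent.S18A.VL_val (S18K_res A K1) (S18K_res_eq_zero_iff A K1) N hx
  π_mem := S34V3K_π_mem_V A K1 N
  π_nonunit :=
    Fermat.Agent.S18A.πL_inv_notMem (S18K_res A K1) (S18K_res_eq_zero_iff A K1) N

/-- `π` is a uniformiser of `V1` (any level). -/
theorem S34V3K_unif1 (N : ℕ) :
    ∀ x ∈ S18K_V A K1 N, x⁻¹ ∉ S18K_V A K1 N → ∃ v ∈ S18K_V A K1 N, x = S18K_π A K1 * v :=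
  fun _ hx hx' =>
    Fermat.Agent.S18A.VL_unif (S18K_res A K1) (S18K_res_eq_zero_iff A K1) N hx hx'

/-- `Setup.finite` for the concrete carriers (any level). -/
theorem S34V3K_fin (N : ℕ) [NeZero N] :
    ∃ s : Finset (LaurentSeries K1), ∀ x ∈ S18K_F1 K1 N,
      ∃ c : LaurentSeries K1 → LaurentSeries K1,
        (∀ y, c y ∈ Subfield.closure ((S18K_O A K1 : Set (LaurentSeries K1)) ∪ {S18K_j K1})) ∧
          x = ∑ y ∈ s, c y * y := by
  rw [Fermat.Agent.S18AK.S18K_O_eq]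
  exact Fermat.Agent.S18_helper13_FIN.F1L_finite ↥(S18K_O1 A K1) ↥K1 N

set_option synthInstance.maxHeartbeats 400000 in
/-- **P1c / X-V3 for the concrete carriers.**  `N = q N'`, `q ∤ N'`. -/
theorem S34V3K_setup2 {q : ℕ} (hq : q.Prime) (hA : A.LiesOverPrime q) (N' N : ℕ) [NeZero N']
    [NeZero N] (hqN' : ¬ q ∣ N') (hN : N' ∣ N) (V2 : Subring (LaurentSeries K1))
    (h2 : S34C2_Val (S18K_π A K1) (S18K_F1 K1 N) V2)
    (h2u : ∀ x ∈ V2, x⁻¹ ∉ V2 → ∃ v ∈ V2, x = S18K_π A K1 * v)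
    (hV2 : S18K_V A K1 N' ≤ V2)
    (hkey : ∀ v ∈ (S18K_V A K1 N ⊓ V2 : Subring (LaurentSeries K1)),
      IsIntegral (S18K_V A K1 N') v) :
    S34C_Setup2 (S18K_O A K1) (S18K_π A K1) (S18K_j K1) (S18K_F1 K1 N) (S18K_V A K1 N) V2
      (S18K_A0 A K1 N) (S18K_Ainf A K1 N) :=
  S34V3_setup2 (Fermat.Agent.S18AK.setupK N' hq A hA hqN' K1) (S34V3K_F1_mono K1 hN)
    (S34V3K_fin A K1 N) (S34V3K_val1 A K1 N) (S34V3K_unif1 A K1 N) h2 h2u
    (S34V3K_V_mono A K1 hN) hV2 hkey

end Fermat.Agent.S34_helper27_V3K
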