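import Fermat.Agent.S34_helper20_V0
import Fermat.Agent.S34_helper27_V3K
import Fermat.Agent.S34_helper24_QPOWC

/-!
# S34, piece P1c-V0 (helper20): the second valuation ring for the concrete carriers `S18K_*`

`N = q N'`, `q ∤ N'`, `A` a valuation subring of `ℚ̄` over `q`, `K1` a level with `O1 = A ∩ K1`
a discrete valuation ring, `V1 = S18K_V A K1 N` the Gauss ring of `F1 = S18K_F1 K1 N`.

* `S34V0K_V`        : `V_0 := w(V1)`, `w` the Atkin–Lehner involution (`S34V0_w`);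
* `S34V0K_val`, `S34V0K_unif` : `V_0` is a valuation ring of `F1` with uniformiser `π`;
* `S34V0K_le`       : the Gauss ring of level `N'` is contained in `V_0`;
* `S34V0K_frob`     : `j - j(q^q)^q ∈ π V_0`;  `S34V0K_frob1` : `j(q^q) - j^q ∈ π V1`;
* `S34V0K_ne`       : `V_0 ≠ V1`, with explicit separating elements `S34V0K_sep`;
* `S34V0K_not_pow`  : `j` is not a `q`-th power modulo `π` in the Gauss ring;
* `S34V0K_setup2`   : `S34C_Setup2` for `(V1, V_0)` from KEY (helper27's `S34V3K_setup2`).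
-/

set_option autoImplicit false
set_option linter.unusedSectionVars false
set_option linter.unusedVariables false
set_option linter.style.haveILetI false

noncomputable section

open ModularCurve Fermat.Agent.S24
open Fermat.Agent.S18_helper13_GAUSS Fermat.Agent.S18_helper9_CDefs
open Fermat.Agent.S18_helper25_COREDefs Fermat.Agent.S34_helper12_CDefs
open Fermat.Agent.S34_helper27_C2Defs Fermat.Agent.S34_helper20_WQ Fermat.Agent.S34_helper20_V0
open Fermat.Agent.S34_helper27_V3K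

namespace Fermat.Agent.S34_helper20_V0K

/-! ### Gauss rings and `qExpand` -/

section Gauss

variable {O K κ : Type*} [CommRing O] [IsDomain O] [Field K] [Field κ] (D : GaussData O K κ)

/-- `f(q) ↦ f(q^n)` preserves the Gauss ring and commutes with the reduction -/
theorem S34V0K_qExpand_mem (n : ℕ) [NeZero n] {x : LaurentSeries K} (hx : x ∈ D.Vring) :
    qExpand K n x ∈ D.Vring ∧ D.redFun (qExpand K n x) = qExpand κ n (D.redFun x) := by
  obtain ⟨a, b, hb, h⟩ := hx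
  have hb' : D.redS (qExpand O n b) ≠ 0 := by
    show coeffMap D.res (qExpand O n b) ≠ 0
    rw [coeffMap_qExpand]
    intro h0
    exact hb ((map_eq_zero_iff _ (qExpand_injective n)).mp h0)
  have h' : D.incS (qExpand O n b) * qExpand K n x = D.incS (qExpand O n a) := by
    show coeffMap D.inc (qExpand O n b) * qExpand K n x = coeffMap D.inc (qExpand O n a)
    rw [coeffMap_qExpand, coeffMap_qExpand, ← map_mul]
    exact congrArg _ h
  refine ⟨⟨_, _, hb', h'⟩, ?_⟩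
  rw [D.redFun_eq hb' h', D.redFun_eq hb h]
  show coeffMap D.res (qExpand O n a) / coeffMap D.res (qExpand O n b) = _
  rw [coeffMap_qExpand, coeffMap_qExpand, map_div₀]
  rfl

/-- the Frobenius congruence `j(q^q) ≡ j^q` -/
theorem S34V0K_frob_red (q : ℕ) [NeZero q] [ExpChar κ q] :
    D.redFun (qExpand K q (jqModC K) - (jqModC K) ^ q) = 0 := by
  have hj := D.jqModC_mem_Vring
  have hjq := S34V0K_qExpand_mem D q hj
  rw [D.redFun_sub hjq.1 (D.Vring.pow_mem hj q), hjq.2, D.redFun_pow hj, D.redFun_jqModC,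
    Fermat.Agent.S37K2.S37K2_pow_char κ q (jqModC κ), coeffMap_jqModC, sub_self]

/-- `j - j(q^q)^q` has nonzero reduction -/
theorem S34V0K_unit_red (q : ℕ) [hqf : Fact q.Prime] [CharP κ q] :
    D.redFun (jqModC K - (qExpand K q (jqModC K)) ^ q) ≠ 0 := by
  haveI : NeZero q := ⟨hqf.out.ne_zero⟩
  have hj := D.jqModC_mem_Vring
  have hjq := S34V0K_qExpand_mem D q hj
  rw [D.redFun_sub hj (D.Vring.pow_mem hjq.1 q), D.redFun_pow hjq.1, hjq.2, D.redFun_jqModC]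
  intro h0
  exact Fermat.Agent.S34_helper24_QPOWC.S34QP_jq_not_pow κ q _ (sub_eq_zero.mp h0).symm

/-- `j` is not a `q`-th power modulo `π` -/
theorem S34V0K_not_pow_red (q : ℕ) [hqf : Fact q.Prime] [CharP κ q] {r v : LaurentSeries K}
    (hr : r ∈ D.Vring) (hv : v ∈ D.Vring) : r ^ q - jqModC K ≠ D.πK * v := by
  intro h
  have h1 : D.redFun (r ^ q - jqModC K) = 0 := by
    rw [h]; exact D.redFun_πK_mul hv
  rw [D.redFun_sub (D.Vring.pow_mem hr q) D.jqModC_mem_Vring, D.redFun_pow hr,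
    D.redFun_jqModC] at h1
  exact Fermat.Agent.S34_helper24_QPOWC.S34QP_jq_not_pow κ q _ (sub_eq_zero.mp h1)

end Gauss

/-! ### The concrete carriers -/

variable (A : ValuationSubring (AlgebraicClosure ℚ))
  (K1 : IntermediateField ℚ (AlgebraicClosure ℚ))

/-- the embedding `K1 → ℚ̄` used for the Atkin–Lehner involution -/
def S34V0K_emb : K1 →+* Kbar := algebraMap K1 (AlgebraicClosure ℚ)

/-- the residue field of a valuation ring over `q` has characteristic `q` -/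
theorem S34V0K_charP {q : ℕ} (hq : q.Prime) (hA : A.LiesOverPrime q) :
    CharP (IsLocalRing.ResidueField A) q := by
  have hE : ExpChar (IsLocalRing.ResidueField A) q := Fermat.Agent.S37K2.S37K2_expChar A q hq hA
  cases hE with
  | zero => exact absurd hq Nat.not_prime_one
  | prime hp => assumption

theorem S34V0K_dvd {q N' N : ℕ} (hN : N = q * N') : N' ∣ N := ⟨q, by rw [hN, mul_comm]⟩

variable [IsDiscreteValuationRing (S18K_O1 A K1)]

/-- `j ∈ V1` -/
theorem S34V0K_j_mem_V1 (N : ℕ) [NeZero N] : jqModC K1 ∈ S18K_V A K1 N :=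
  ⟨(S18K_D A K1).jqModC_mem_Vring, jqModC_mem_full K1 N⟩

/-- an element of `F1` which is `π` times an element of the big Gauss ring is `π` times an
element of `V1` -/
theorem S34V0K_div_mem (N : ℕ) [NeZero N] {x y : LaurentSeries K1}
    (hx : x ∈ modularFunctionFieldFullC K1 N)
    (hy : y ∈ (S18K_D A K1).Vring) (h : x = S18K_π A K1 * y) : y ∈ S18K_V A K1 N := by
  refine ⟨hy, ?_⟩
  show y ∈ modularFunctionFieldFullC K1 N
  have hπ0 : S18K_π A K1 ≠ 0 := (S18K_D A K1).πK_ne_zero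
  have hπF : S18K_π A K1 ∈ modularFunctionFieldFullC K1 N := S34V0_C_mem N _
  have e : y = (S18K_π A K1)⁻¹ * x := by
    rw [h, ← mul_assoc, inv_mul_cancel₀ hπ0, one_mul]
  rw [e]
  exact mul_mem (inv_mem hπF) hx

/-- `j` is not a `q`-th power modulo `π` in the Gauss ring (any level) -/
theorem S34V0K_not_pow {q : ℕ} (hq : q.Prime) (hA : A.LiesOverPrime q) (M : ℕ) :
    ∀ r ∈ S18K_V A K1 M, ∀ v ∈ S18K_V A K1 M, r ^ q - S18K_j K1 ≠ S18K_π A K1 * v := by
  haveI : Fact q.Prime := ⟨hq⟩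
  haveI : CharP (IsLocalRing.ResidueField A) q := S34V0K_charP A hq hA
  intro r hr v hv
  exact S34V0K_not_pow_red (S18K_D A K1) q hr.1 hv.1

variable (q N' N : ℕ) [NeZero N'] [NeZero N] (hq : q.Prime) (hqN : ¬ q ∣ N') (hN : N = q * N')

/-- **the second valuation ring** `V_0 = w(V_∞)` of `F1 = K1(j(q^d) : d ∣ N)` -/
def S34V0K_V : Subring (LaurentSeries K1) :=
  S34V0_image (S34V0K_emb K1) q N' N hq hqN hN (S18K_V A K1 N)

theorem S34V0K_mem_V {y : LaurentSeries K1} :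
    y ∈ S34V0K_V A K1 q N' N hq hqN hN ↔
      y ∈ modularFunctionFieldFullC K1 N ∧
        S34V0_wL (S34V0K_emb K1) q N' N hq hqN hN y ∈ S18K_V A K1 N := Iff.rfl

/-- `V_0` is a valuation ring of `F1` in which `π` is a non-unit -/
theorem S34V0K_val :
    S34C2_Val (S18K_π A K1) (S18K_F1 K1 N) (S34V0K_V A K1 q N' N hq hqN hN) :=
  S34V0_val (S34V0K_emb K1) q N' N hq hqN hN ⟨_, rfl⟩ (S34V3K_val1 A K1 N)

/-- `π` is a uniformiser of `V_0` -/
theorem S34V0K_unif :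
    ∀ x ∈ S34V0K_V A K1 q N' N hq hqN hN, x⁻¹ ∉ S34V0K_V A K1 q N' N hq hqN hN →
      ∃ v ∈ S34V0K_V A K1 q N' N hq hqN hN, x = S18K_π A K1 * v :=
  S34V0_unif (S34V0K_emb K1) q N' N hq hqN hN ⟨_, rfl⟩ (S18K_D A K1).πK_ne_zero
    (S34V3K_unif1 A K1 N)

include hq hqN hN

/-- on the function field of level `N'`, `w` is `f(q) ↦ f(q^q)` -/
theorem S34V0K_wL_level [NeZero q] {x : LaurentSeries K1}
    (hx : x ∈ modularFunctionFieldFullC K1 N') :
    S34V0_wL (S34V0K_emb K1) q N' N hq hqN hN x = qExpand K1 q x := by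
  have hxN : x ∈ modularFunctionFieldFullC K1 N :=
    S34V3K_F1_mono K1 (S34V0K_dvd hN) hx
  rw [S34V0_wL_of_mem (S34V0K_emb K1) q N' N hq hqN hN hxN]
  exact S34V0_w_level (S34V0K_emb K1) q N' N hq hqN hN ⟨x, hxN⟩ hx

/-- **the Gauss ring of level `N'` is contained in `V_0`** -/
theorem S34V0K_le : S18K_V A K1 N' ≤ S34V0K_V A K1 q N' N hq hqN hN := by
  haveI : NeZero q := ⟨hq.ne_zero⟩
  rintro x ⟨hxV, hxF⟩
  have hxF' : x ∈ modularFunctionFieldFullC K1 N' := hxF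
  have hxN : x ∈ modularFunctionFieldFullC K1 N :=
    S34V3K_F1_mono K1 (S34V0K_dvd hN) hxF'
  refine ⟨hxN, ?_, S34V0_wL_mem (S34V0K_emb K1) q N' N hq hqN hN x⟩
  rw [S34V0K_wL_level K1 q N' N hq hqN hN hxF']
  exact (S34V0K_qExpand_mem (S18K_D A K1) q hxV).1

/-- `j ∈ V_0` -/
theorem S34V0K_j_mem : jqModC K1 ∈ S34V0K_V A K1 q N' N hq hqN hN :=
  S34V0K_le A K1 q N' N hq hqN hN
    ⟨(S18K_D A K1).jqModC_mem_Vring, jqModC_mem_full K1 N'⟩

/-- `j(q^q) ∈ F1` -/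
theorem S34V0K_jq_mem_F [NeZero q] :
    qExpand K1 q (jqModC K1) ∈ modularFunctionFieldFullC K1 N := by
  rw [← S34V0_wL_j (S34V0K_emb K1) q N' N hq hqN hN]
  exact S34V0_wL_mem (S34V0K_emb K1) q N' N hq hqN hN _

/-- `j(q^q) ∈ V1` -/
theorem S34V0K_jq_mem_V1 [NeZero q] : qExpand K1 q (jqModC K1) ∈ S18K_V A K1 N :=
  ⟨(S34V0K_qExpand_mem (S18K_D A K1) q (S18K_D A K1).jqModC_mem_Vring).1,
    S34V0K_jq_mem_F K1 q N' N hq hqN hN⟩

/-- `j(q^q) ∈ V_0` -/
theorem S34V0K_jq_mem [NeZero q] :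
    qExpand K1 q (jqModC K1) ∈ S34V0K_V A K1 q N' N hq hqN hN := by
  refine ⟨S34V0K_jq_mem_F K1 q N' N hq hqN hN, ?_⟩
  rw [S34V0_wL_jq (S34V0K_emb K1) q N' N hq hqN hN]
  exact S34V0K_j_mem_V1 A K1 N

/-- **Frobenius congruence on `V1`**: `j(q^q) - j^q ∈ π V1` -/
theorem S34V0K_frob1 [NeZero q] (hA : A.LiesOverPrime q) :
    ∃ v ∈ S18K_V A K1 N, qExpand K1 q (jqModC K1) - jqModC K1 ^ q = S18K_π A K1 * v := by
  haveI : ExpChar (IsLocalRing.ResidueField A) q := Fermat.Agent.S37K2.S37K2_expChar A q hq hA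
  have hj := (S18K_D A K1).jqModC_mem_Vring
  have hjq := (S34V0K_qExpand_mem (S18K_D A K1) q hj).1
  obtain ⟨y, hy, hxy⟩ := (S18K_D A K1).exists_eq_mul_of_redFun_eq_zero
    (sub_mem hjq ((S18K_D A K1).Vring.pow_mem hj q)) (S34V0K_frob_red (S18K_D A K1) q)
  refine ⟨y, S34V0K_div_mem A K1 N ?_ hy hxy, hxy⟩
  exact sub_mem (S34V0K_jq_mem_F K1 q N' N hq hqN hN) (pow_mem (jqModC_mem_full K1 N) q)

/-- **Frobenius congruence on `V_0`**: `j - j(q^q)^q ∈ π V_0` -/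
theorem S34V0K_frob [NeZero q] (hA : A.LiesOverPrime q) :
    ∃ v ∈ S34V0K_V A K1 q N' N hq hqN hN,
      jqModC K1 - qExpand K1 q (jqModC K1) ^ q = S18K_π A K1 * v := by
  obtain ⟨v, hv, h⟩ := S34V0K_frob1 A K1 q N' N hq hqN hN hA
  exact S34V0_frob (S34V0K_emb K1) q N' N hq hqN hN ⟨_, rfl⟩ (S18K_D A K1).πK_ne_zero
    (jqModC_mem_full K1 N') hv h

/-- the shape consumed by V-COUNT / KEY: `y := j(q^q) ∈ V_0`, `y^q - j` is a non-unit of `V_0` -/
theorem S34V0K_frob_nonunit [NeZero q] (hA : A.LiesOverPrime q) :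
    qExpand K1 q (jqModC K1) ^ q - jqModC K1 = 0 ∨
      (qExpand K1 q (jqModC K1) ^ q - jqModC K1)⁻¹ ∉ S34V0K_V A K1 q N' N hq hqN hN := by
  obtain ⟨v, hv, h⟩ := S34V0K_frob A K1 q N' N hq hqN hN hA
  by_cases h0 : qExpand K1 q (jqModC K1) ^ q - jqModC K1 = 0
  · exact Or.inl h0
  refine Or.inr fun hinv => ?_
  have hπ0 : S18K_π A K1 ≠ 0 := (S18K_D A K1).πK_ne_zero
  have e : qExpand K1 q (jqModC K1) ^ q - jqModC K1 = S18K_π A K1 * (-v) := by
    linear_combination (-1 : LaurentSeries K1) * h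
  have hv0 : -v ≠ 0 := by
    intro hv0
    rw [hv0, mul_zero] at e
    exact h0 e
  have e2 : (S18K_π A K1)⁻¹ = (-v) * (qExpand K1 q (jqModC K1) ^ q - jqModC K1)⁻¹ := by
    rw [e, mul_inv, ← mul_assoc, mul_comm (-v), mul_assoc, mul_inv_cancel₀ hv0, mul_one]
  exact (S34V0K_val A K1 q N' N hq hqN hN).π_nonunit
    (by rw [e2]; exact mul_mem (neg_mem hv) hinv)

/-- `j - j(q^q)^q` is a unit of `V1` -/
theorem S34V0K_unit1 [NeZero q] (hA : A.LiesOverPrime q) :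
    jqModC K1 - qExpand K1 q (jqModC K1) ^ q ≠ 0 ∧
      (jqModC K1 - qExpand K1 q (jqModC K1) ^ q)⁻¹ ∈ S18K_V A K1 N := by
  haveI : Fact q.Prime := ⟨hq⟩
  haveI : CharP (IsLocalRing.ResidueField A) q := S34V0K_charP A hq hA
  have hj := (S18K_D A K1).jqModC_mem_Vring
  have hjq := (S34V0K_qExpand_mem (S18K_D A K1) q hj).1
  have hred := S34V0K_unit_red (S18K_D A K1) q
  refine ⟨?_, (S18K_D A K1).inv_mem_Vring (sub_mem hj ((S18K_D A K1).Vring.pow_mem hjq q))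
    hred, ?_⟩
  · intro h0
    rw [h0] at hred
    exact hred (S18K_D A K1).redFun_zero
  · show _ ∈ modularFunctionFieldFullC K1 N
    exact inv_mem (sub_mem (jqModC_mem_full K1 N)
      (pow_mem (S34V0K_jq_mem_F K1 q N' N hq hqN hN) q))

/-- **separating element**: `c = j - j(q^q)^q` is a unit of `V1` and lies in `π V_0` -/
theorem S34V0K_sep [NeZero q] (hA : A.LiesOverPrime q) :
    ∃ c : LaurentSeries K1, c ≠ 0 ∧ c ∈ S18K_V A K1 N ∧ c⁻¹ ∈ S18K_V A K1 N ∧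
      ∃ v ∈ S34V0K_V A K1 q N' N hq hqN hN, c = S18K_π A K1 * v := by
  refine ⟨jqModC K1 - qExpand K1 q (jqModC K1) ^ q,
    (S34V0K_unit1 A K1 q N' N hq hqN hN hA).1, ?_,
    (S34V0K_unit1 A K1 q N' N hq hqN hN hA).2, S34V0K_frob A K1 q N' N hq hqN hN hA⟩
  exact sub_mem (S34V0K_j_mem_V1 A K1 N) (pow_mem (S34V0K_jq_mem_V1 A K1 q N' N hq hqN hN) q)

/-- **`V_0 ≠ V_∞`** -/
theorem S34V0K_ne (hA : A.LiesOverPrime q) :
    S34V0K_V A K1 q N' N hq hqN hN ≠ S18K_V A K1 N := by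
  haveI : NeZero q := ⟨hq.ne_zero⟩
  intro heq
  obtain ⟨c, hc0, hc, hci, v, hv, hcv⟩ := S34V0K_sep A K1 q N' N hq hqN hN hA
  rw [heq] at hv
  have e : (S18K_π A K1)⁻¹ = v * c⁻¹ := by
    have hv0 : v ≠ 0 := by
      rintro rfl
      rw [mul_zero] at hcv
      exact hc0 hcv
    rw [hcv, mul_inv, ← mul_assoc, mul_comm v, mul_assoc, mul_inv_cancel₀ hv0, mul_one]
  exact (S34V3K_val1 A K1 N).π_nonunit (by rw [e]; exact mul_mem hv hci)

/-- **`S34C_Setup2` for `(V_∞, V_0)`** from KEY (wrapper of helper27's `S34V3K_setup2`) -/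
theorem S34V0K_setup2 (hA : A.LiesOverPrime q)
    (hkey : ∀ v ∈ (S18K_V A K1 N ⊓ S34V0K_V A K1 q N' N hq hqN hN : Subring (LaurentSeries K1)),
      IsIntegral (S18K_V A K1 N') v) :
    S34C_Setup2 (S18K_O A K1) (S18K_π A K1) (S18K_j K1) (S18K_F1 K1 N) (S18K_V A K1 N)
      (S34V0K_V A K1 q N' N hq hqN hN) (S18K_A0 A K1 N) (S18K_Ainf A K1 N) :=
  S34V3K_setup2 A K1 hq hA N' N hqN (S34V0K_dvd hN) (S34V0K_V A K1 q N' N hq hqN hN)
    (S34V0K_val A K1 q N' N hq hqN hN) (S34V0K_unif A K1 q N' N hq hqN hN)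
    (S34V0K_le A K1 q N' N hq hqN hN) hkey

end Fermat.Agent.S34_helper20_V0K
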