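import Mathlib
import Fermat.Agent.S34_helper17_IGMONO
import Fermat.Agent.S34_helper20_V0K
import Fermat.Agent.S37_helper21_MONO
import Fermat.Prelude.Thm_ModularCurve_coeffMap_qExpand

/-!
# S34, X-L2 (the change of level `Φ : K0((q)) → K1((q))`), helper17

Compatibilities of the coefficientwise inclusion `Φ` of two admissible levels `K0 ≤ K1` with the
objects of the two-valuation setup at level `N = q N'`:

* `S34LP_Φ_wL`  : `Φ ∘ w = w ∘ Φ` on the function field;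
* `S34LP_Φ_V1`, `S34LP_Φ_V2` : `Φ` maps the two valuation rings of level `K0` into those of level
  `K1`;
* `S34LP_Φ_π`   : `Φ π₀ = π₁ · (constant of O₁)`;
* `S34LP_map_vert1`, `S34LP_map_vert2` : `Φ` maps `π₀ V_i⁰` into `π₁ V_i`;
* `S34LP_IG`    : the `[IG]` generators of the level-`N'` chart at level `K1` come from level
  `K0` (the hypothesis `hIG` of `S34L2_main_abs`, elementwise in `π`).
-/

set_option autoImplicit false
set_option linter.style.haveILetI false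
set_option linter.unusedSectionVars false
set_option linter.unusedVariables false
set_option synthInstance.maxHeartbeats 400000
set_option maxHeartbeats 1600000

open AlgebraicCurve ModularCurve HahnSeries IntermediateField

noncomputable section

namespace Fermat.Agent.S34_helper17_L2PHI

open Fermat.Agent.S18_helper9_CDefs Fermat.Agent.S18_helper25_COREDefs
  Fermat.Agent.S18_helper13_GAUSS Fermat.Agent.S37_helper21_MONO
  Fermat.Agent.S34_helper20_V0 Fermat.Agent.S34_helper20_V0K Fermat.Agent.S34_helper20_WQ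
  Fermat.Agent.S34_helper17_IGMONO

local notation "Qb" => AlgebraicClosure ℚ

variable (A : ValuationSubring Qb) {K0 K1 : IntermediateField ℚ Qb} (hle : K0 ≤ K1)
  (q N' N : ℕ) [NeZero N'] [NeZero N] (hq : q.Prime) (hqN : ¬ q ∣ N') (hN : N = q * N')

/-- `Φ` restricted to the function fields. -/
def S34LP_ΦF : modularFunctionFieldFullC K0 N →+* modularFunctionFieldFullC K1 N :=
  ((S37MONO_Φ hle).comp (algebraMap (modularFunctionFieldFullC K0 N) (LaurentSeries K0))).codRestrict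
    (modularFunctionFieldFullC K1 N) (fun x => S37MONO_Φ_mem_F1 N hle x.2)

theorem S34LP_ΦF_coe (x : modularFunctionFieldFullC K0 N) :
    ((S34LP_ΦF hle N x : modularFunctionFieldFullC K1 N) : LaurentSeries K1) =
      S37MONO_Φ hle (x : LaurentSeries K0) := rfl

theorem S34LP_Φ_qExpand (d : ℕ) [NeZero d] :
    S37MONO_Φ hle (qExpand K0 d (jqModC K0)) = qExpand K1 d (jqModC K1) := by
  rw [S37MONO_Φ, ModularCurve.coeffMap_qExpand, coeffMap_jqModC]

/-- **`Φ` commutes with the Atkin–Lehner involution.** -/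
theorem S34LP_Φ_w (y : modularFunctionFieldFullC K0 N) :
    S37MONO_Φ hle
        ((S34V0_w (S34V0K_emb K0) q N' N hq hqN hN y : modularFunctionFieldFullC K0 N) :
          LaurentSeries K0) =
      ((S34V0_w (S34V0K_emb K1) q N' N hq hqN hN (S34LP_ΦF hle N y) :
        modularFunctionFieldFullC K1 N) : LaurentSeries K1) := by
  let f : modularFunctionFieldFullC K0 N →+* LaurentSeries K1 :=
    (S37MONO_Φ hle).comp
      ((algebraMap (modularFunctionFieldFullC K0 N) (LaurentSeries K0)).comp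
        ((S34V0_w (S34V0K_emb K0) q N' N hq hqN hN : modularFunctionFieldFullC K0 N ≃ₐ[K0]
          modularFunctionFieldFullC K0 N) : modularFunctionFieldFullC K0 N →+*
            modularFunctionFieldFullC K0 N))
  let g : modularFunctionFieldFullC K0 N →+* LaurentSeries K1 :=
    (algebraMap (modularFunctionFieldFullC K1 N) (LaurentSeries K1)).comp
      (((S34V0_w (S34V0K_emb K1) q N' N hq hqN hN : modularFunctionFieldFullC K1 N ≃ₐ[K1]
          modularFunctionFieldFullC K1 N) : modularFunctionFieldFullC K1 N →+*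
            modularFunctionFieldFullC K1 N).comp (S34LP_ΦF hle N))
  have key := S34WQ_ringHom_ext N f g ?_ ?_ y
  · exact key
  · intro c hc
    show S37MONO_Φ hle ((S34V0_w (S34V0K_emb K0) q N' N hq hqN hN ⟨HahnSeries.C c, hc⟩ :
        modularFunctionFieldFullC K0 N) : LaurentSeries K0) =
      ((S34V0_w (S34V0K_emb K1) q N' N hq hqN hN (S34LP_ΦF hle N ⟨HahnSeries.C c, hc⟩) :
        modularFunctionFieldFullC K1 N) : LaurentSeries K1)
    rw [S34V0_w_C]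
    have hc1 : (HahnSeries.C (S37MONO_ι hle c) : LaurentSeries K1) ∈
        modularFunctionFieldFullC K1 N := by
      rw [← S37MONO_Φ_C]
      exact S37MONO_Φ_mem_F1 N hle hc
    have e : S34LP_ΦF hle N ⟨HahnSeries.C c, hc⟩ = ⟨HahnSeries.C (S37MONO_ι hle c), hc1⟩ :=
      Subtype.ext (S37MONO_Φ_C hle c)
    rw [e, S34V0_w_C]
    exact S37MONO_Φ_C hle c
  · intro d _ hd hm
    haveI : NeZero (S34WQ_dual q d) :=
      ⟨S34WQ_dual_ne_zero hq.pos (Nat.pos_of_ne_zero (NeZero.ne d))⟩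
    show S37MONO_Φ hle ((S34V0_w (S34V0K_emb K0) q N' N hq hqN hN
        ⟨qExpand K0 d (jqModC K0), hm⟩ : modularFunctionFieldFullC K0 N) : LaurentSeries K0) =
      ((S34V0_w (S34V0K_emb K1) q N' N hq hqN hN
        (S34LP_ΦF hle N ⟨qExpand K0 d (jqModC K0), hm⟩) :
        modularFunctionFieldFullC K1 N) : LaurentSeries K1)
    rw [S34V0_w_gen (S34V0K_emb K0) q N' N hq hqN hN d hd hm, S34LP_Φ_qExpand]
    have hm1 : qExpand K1 d (jqModC K1) ∈ modularFunctionFieldFullC K1 N := by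
      rw [← S34LP_Φ_qExpand hle]
      exact S37MONO_Φ_mem_F1 N hle hm
    have e : S34LP_ΦF hle N ⟨qExpand K0 d (jqModC K0), hm⟩ = ⟨qExpand K1 d (jqModC K1), hm1⟩ :=
      Subtype.ext (S34LP_Φ_qExpand hle d)
    rw [e, S34V0_w_gen (S34V0K_emb K1) q N' N hq hqN hN d hd hm1]

/-- **`Φ ∘ w = w ∘ Φ`**, elementwise on `K0((q))`. -/
theorem S34LP_Φ_wL {y : LaurentSeries K0} (hy : y ∈ modularFunctionFieldFullC K0 N) :
    S37MONO_Φ hle (S34V0_wL (S34V0K_emb K0) q N' N hq hqN hN y) =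
      S34V0_wL (S34V0K_emb K1) q N' N hq hqN hN (S37MONO_Φ hle y) := by
  rw [S34V0_wL_of_mem (S34V0K_emb K0) q N' N hq hqN hN hy,
    S34V0_wL_of_mem (S34V0K_emb K1) q N' N hq hqN hN (S37MONO_Φ_mem_F1 N hle hy)]
  exact S34LP_Φ_w hle q N' N hq hqN hN ⟨y, hy⟩

variable [IsDiscreteValuationRing (S18K_O1 A K0)] [IsDiscreteValuationRing (S18K_O1 A K1)]

/-- `Φ` maps the Gauss valuation ring of level `K0` into that of level `K1`. -/
theorem S34LP_Φ_V1 {v : LaurentSeries K0} (hv : v ∈ S18K_V A K0 N) :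
    S37MONO_Φ hle v ∈ S18K_V A K1 N :=
  ⟨(S37MONO_redFun A hle hv.1).1, S37MONO_Φ_mem_F1 N hle hv.2⟩

/-- `Φ` maps the second valuation ring of level `K0` into that of level `K1`. -/
theorem S34LP_Φ_V2 {v : LaurentSeries K0} (hv : v ∈ S34V0K_V A K0 q N' N hq hqN hN) :
    S37MONO_Φ hle v ∈ S34V0K_V A K1 q N' N hq hqN hN := by
  obtain ⟨hvF, hwv⟩ := (S34V0K_mem_V A K0 q N' N hq hqN hN).1 hv
  refine (S34V0K_mem_V A K1 q N' N hq hqN hN).2 ⟨S37MONO_Φ_mem_F1 N hle hvF, ?_⟩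
  rw [← S34LP_Φ_wL hle q N' N hq hqN hN hvF]
  exact S34LP_Φ_V1 A hle N hwv

/-- `Φ π₀ = π₁ · C d` with `d ∈ O₁`. -/
theorem S34LP_Φ_π :
    ∃ d : S18K_O1 A K1, S37MONO_Φ hle (S18K_π A K0) = S18K_π A K1 * HahnSeries.C (d : K1) := by
  obtain ⟨d, hd⟩ := S34IM_Φ_π A hle
  exact ⟨d, hd⟩

theorem S34LP_C_mem_V1 (d : S18K_O1 A K1) :
    (HahnSeries.C (d : K1) : LaurentSeries K1) ∈ S18K_V A K1 N := by
  have h1 : (HahnSeries.C (d : K1) : LaurentSeries K1) ∈ S18K_O A K1 :=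
    (S18K_mem_O A K1 _).2 ⟨d, d.2, rfl⟩
  refine ⟨Fermat.Agent.S37_helper21_F5e.S37F5e_O_le_Vring K1 A h1, ?_⟩
  rw [Fermat.Agent.S18_helper26_CONST.S18P15_C_eq_algebraMap]
  exact (modularFunctionFieldFullC K1 N).algebraMap_mem _

/-- `Φ` maps `π₀ V1⁰` into `π₁ V1`. -/
theorem S34LP_map_vert1 {a : LaurentSeries K0}
    (ha : ∃ v ∈ S18K_V A K0 N, a = S18K_π A K0 * v) :
    ∃ v ∈ S18K_V A K1 N, S37MONO_Φ hle a = S18K_π A K1 * v := by
  obtain ⟨v, hv, rfl⟩ := ha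
  obtain ⟨d, hd⟩ := S34LP_Φ_π A hle
  refine ⟨HahnSeries.C (d : K1) * S37MONO_Φ hle v,
    Subring.mul_mem _ (S34LP_C_mem_V1 A N d) (S34LP_Φ_V1 A hle N hv), ?_⟩
  rw [map_mul, hd]
  ring

include hq hqN hN in
theorem S34LP_C_mem_V2 (d : S18K_O1 A K1) :
    (HahnSeries.C (d : K1) : LaurentSeries K1) ∈ S34V0K_V A K1 q N' N hq hqN hN := by
  refine (S34V0K_mem_V A K1 q N' N hq hqN hN).2 ⟨(S34LP_C_mem_V1 A N d).2, ?_⟩
  rw [S34V0_wL_C]
  exact S34LP_C_mem_V1 A N d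

/-- `Φ` maps `π₀ V2⁰` into `π₁ V2`. -/
theorem S34LP_map_vert2 {a : LaurentSeries K0}
    (ha : ∃ v ∈ S34V0K_V A K0 q N' N hq hqN hN, a = S18K_π A K0 * v) :
    ∃ v ∈ S34V0K_V A K1 q N' N hq hqN hN, S37MONO_Φ hle a = S18K_π A K1 * v := by
  obtain ⟨v, hv, rfl⟩ := ha
  obtain ⟨d, hd⟩ := S34LP_Φ_π A hle
  refine ⟨HahnSeries.C (d : K1) * S37MONO_Φ hle v,
    Subring.mul_mem _ (S34LP_C_mem_V2 A q N' N hq hqN hN d)
      (S34LP_Φ_V2 A hle q N' N hq hqN hN hv), ?_⟩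
  rw [map_mul, hd]
  ring

include hq hqN in
/-- **The hypothesis `hIG` of `S34L2_main_abs`**: the `[IG]` generators of the level-`N'` chart
at level `K1` come from level `K0`. -/
theorem S34LP_IG (hA : A.LiesOverPrime q)
    (h0 : S18K_Admissible A K0 q) (h1 : S18K_Admissible A K1 q)
    (hπ₀ : S18K_π A K0 ∈ S18K_A0 A K0 N') (hπ₁ : S18K_π A K1 ∈ S18K_A0 A K1 N')
    (m' : Ideal (S18K_A0 A K1 N')) (hm' : m'.IsMaximal)
    (hπm : (⟨S18K_π A K1, hπ₁⟩ : S18K_A0 A K1 N') ∈ m') :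
    ∃ y₀ : S18K_A0 A K0 N',
      (y₀ ∈ m'.comap (S34IM_φ0 A N' hle) ∧ ∀ x ∈ m'.comap (S34IM_φ0 A N' hle),
        ∃ c : S18K_A0 A K0 N', c ∉ m'.comap (S34IM_φ0 A N' hle) ∧
          ∃ a b : S18K_A0 A K0 N', c * x = a * ⟨S18K_π A K0, hπ₀⟩ + b * y₀) ∧
      (S34IM_φ0 A N' hle y₀ ∈ m' ∧ ∀ x ∈ m', ∃ c : S18K_A0 A K1 N', c ∉ m' ∧
        ∃ a b : S18K_A0 A K1 N', c * x = a * ⟨S18K_π A K1, hπ₁⟩ + b * S34IM_φ0 A N' hle y₀) := by
  haveI : Fact q.Prime := ⟨hq⟩
  obtain ⟨y₀, hg0, hg1⟩ := S34IM_exists_A0 A N' q hle hA hqN h0 h1 m' hm' (fun _ => hπm)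
  exact ⟨y₀, ⟨hg0.1, hg0.2 hπ₀⟩, ⟨hg1.1, hg1.2 hπ₁⟩⟩

end Fermat.Agent.S34_helper17_L2PHI
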