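import Mathlib
import Fermat.Agent.S34_Contracts

/-!
# S34: the geometric contract, final form (owner file, helper4)

`S34K_Geom3` = `S34K_Geom` (see `S34_Contracts`) with the two further facts about the second
valuation ring `V2` requested by helper6 (board #1281):

* `S34K_Fac2`  : `V2` is discrete with uniformiser `π` (every nonzero function is `π ^ a` times
  a unit of `V2`);
* `S34K_Root2` : the constants are algebraically closed in the residue field of `V2`
  (a unit of `V2` with a power congruent to a constant is congruent to a constant).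

`S34K_XD3` is the contract of X-D (helper25), `S34K_GeomHolds3` the contract of the geometry.
-/

set_option autoImplicit false

open AlgebraicCurve ModularCurve HahnSeries IntermediateField

noncomputable section

namespace Fermat.Agent.S34_Contracts

open Fermat.Agent.S18_helper9_CDefs Fermat.Agent.S18_helper25_COREDefs
  Fermat.Agent.S34_helper12_CDefs Fermat.Agent.S34_helper6_RED Fermat.Agent.S34_helper5_K0
  Fermat.Agent.S18_helper3_LOCRING Fermat.Agent.S37_helper4_B1Defs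
  Fermat.Agent.S37_helper5_LEVEL

local notation "Qb" => AlgebraicClosure ℚ
local notation "GQ" => (AlgebraicClosure ℚ ≃ₐ[ℚ] AlgebraicClosure ℚ)

section Concrete

variable (N : ℕ) (A : ValuationSubring Qb)
  (K1 : IntermediateField ℚ Qb) [IsDiscreteValuationRing (S18K_O1 A K1)]

/-- `V2` is discrete with uniformiser `π`. -/
def S34K_Fac2 (V2 : Subring (LaurentSeries K1)) : Prop :=
  ∀ f ∈ S18K_F1 K1 N, f ≠ 0 → ∃ (a : ℤ) (f₁ : LaurentSeries K1),
    f₁ ∈ V2 ∧ f₁⁻¹ ∈ V2 ∧ f₁ ≠ 0 ∧ f = S18K_π A K1 ^ a * f₁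

/-- the constants are algebraically closed in the residue field of `V2`. -/
def S34K_Root2 (V2 : Subring (LaurentSeries K1)) : Prop :=
  ∀ m : ℕ, m ≠ 0 → ∀ x ∈ V2, x⁻¹ ∈ V2 → ∀ c₀ : S18K_O1 A K1, IsUnit c₀ →
    (∃ y ∈ V2, x ^ m = HahnSeries.C ((c₀ : K1)) * (1 + S18K_π A K1 * y)) →
    ∃ γ : S18K_O1 A K1, IsUnit γ ∧ ∃ z ∈ V2, x = HahnSeries.C ((γ : K1)) + S18K_π A K1 * z

/-- All the facts about the second valuation ring `V2` at the level `K1`. -/
def S34K_GeomAt [NeZero N] (p : ℕ) (hstab : ∀ σ : GQ, ∀ x ∈ K1, σ x ∈ K1)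
    (V2 : Subring (LaurentSeries K1)) : Prop :=
  S34C_Setup2 (S18K_O A K1) (S18K_π A K1) (S18K_j K1) (S18K_F1 K1 N)
      (S18K_V A K1 N) V2 (S18K_A0 A K1 N) (S18K_Ainf A K1 N) ∧
    (∃ x ∈ S18K_V A K1 N, x ∉ V2) ∧
    S34K_Inert A K1 hstab V2 ∧
    S34K_Fac2 N A K1 V2 ∧
    S34K_Root2 A K1 V2 ∧
    S34K_N1 (S18K_π A K1) (S18K_V A K1 N) V2 (S18K_A0 A K1 N) ∧
    S34K_N1 (S18K_π A K1) (S18K_V A K1 N) V2 (S18K_Ainf A K1 N) ∧
    S34K_Cross N p A K1 V2 (S18K_A0 A K1 N) ∧
    S34K_Cross N p A K1 V2 (S18K_Ainf A K1 N)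

end Concrete

/-- **The geometric contract, final form.** -/
def S34K_Geom3 (N' q p : ℕ) [NeZero (N' * q)] (A : ValuationSubring Qb) : Prop :=
  ∀ (K1 : IntermediateField ℚ Qb) (h : S18K_Admissible A K1 q)
    (hstab : ∀ σ : GQ, ∀ x ∈ K1, σ x ∈ K1),
    letI := h.dvr
    ∃ V2 : Subring (LaurentSeries K1), S34K_GeomAt (N' * q) A K1 p hstab V2

/-- **The contract of X-D** (helper25), final form. -/
def S34K_XD3 (N' q p : ℕ) [NeZero (N' * q)] : Prop :=
  q.Prime → p.Prime → p ≠ q → ¬ q ∣ N' →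
  (∀ A : ValuationSubring Qb, A.LiesOverPrime q → S34K_Geom3 N' q p A) →
  S34R_Key (N' * q) p q

/-- **The contract of the geometry**, final form. -/
def S34K_GeomHolds3 (N' q p : ℕ) [NeZero (N' * q)] : Prop :=
  q.Prime → p.Prime → p ≠ q → ¬ q ∣ N' →
  ∀ A : ValuationSubring Qb, A.LiesOverPrime q → S34K_Geom3 N' q p A

end Fermat.Agent.S34_Contracts
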