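import Fermat.Agent.S34_helper20_WQ
import Fermat.Agent.S34_helper12_CDefs
import Fermat.Agent.S34_helper27_C2Defs

/-!
# S34, piece P1c-W (helper20): `V_0 := w(V_∞)` and transport by the Atkin–Lehner involution

* `S34V0_w`     : the canonical Atkin–Lehner involution of `F = K1(j(q^d) : d ∣ q N')`
                  (a choice from `S34WQ_exists`; unique by `S34V0_w_unique`);
* `S34V0_wL`    : the same map elementwise on `L = K1((q))` (junk `0` outside `F`);
* `S34V0_image` : `w(V ∩ F)` as a subring of `L`; in the application `V_0 = S34V0_image V_∞`;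
* transport of the valuation-ring fields (`S34C2_Val`, `V_unif`) from `V` to `S34V0_image V`;
* the chart fields `x_inv_mem`, `le_V` for `V ⊓ S34V0_image V` on both charts;
* `V_0 ≠ V_∞`.
-/

set_option autoImplicit false
set_option linter.unusedSectionVars false
set_option linter.unusedVariables false
set_option linter.style.haveILetI false

noncomputable section

open ModularCurve Fermat.Agent.S24
open Fermat.Agent.S18_helper9_CDefs Fermat.Agent.S34_helper12_CDefs
open Fermat.Agent.S34_helper27_C2Defs Fermat.Agent.S34_helper20_WQ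

namespace Fermat.Agent.S34_helper20_V0

variable {K1 : Type*} [Field K1] (emb : K1 →+* Kbar) (q N' N : ℕ) [NeZero N'] [NeZero N]
  (hq : q.Prime) (hqN : ¬ q ∣ N') (hN : N = q * N')

/-! ### The canonical `w` -/

/-- the Atkin–Lehner involution of `F = K1(j(q^d) : d ∣ N)`, `N = q N'` -/
def S34V0_w : modularFunctionFieldFullC K1 N ≃ₐ[K1] modularFunctionFieldFullC K1 N :=
  (S34WQ_exists emb q N' N hq hqN hN).choose

theorem S34V0_w_w (x : modularFunctionFieldFullC K1 N) :
    S34V0_w emb q N' N hq hqN hN (S34V0_w emb q N' N hq hqN hN x) = x :=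
  (S34WQ_exists emb q N' N hq hqN hN).choose_spec.1 x

theorem S34V0_w_gen (d : ℕ) [NeZero d] (hd : d ∣ N) [NeZero (S34WQ_dual q d)]
    (hm : qExpand K1 d (jqModC K1) ∈ modularFunctionFieldFullC K1 N) :
    ((S34V0_w emb q N' N hq hqN hN ⟨qExpand K1 d (jqModC K1), hm⟩ :
      modularFunctionFieldFullC K1 N) : LaurentSeries K1) =
      qExpand K1 (S34WQ_dual q d) (jqModC K1) :=
  (S34WQ_exists emb q N' N hq hqN hN).choose_spec.2.1 d hd hm

theorem S34V0_w_old (d : ℕ) [NeZero d] [NeZero (q * d)] (hd : d ∣ N')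
    (hm : qExpand K1 d (jqModC K1) ∈ modularFunctionFieldFullC K1 N) :
    ((S34V0_w emb q N' N hq hqN hN ⟨qExpand K1 d (jqModC K1), hm⟩ :
      modularFunctionFieldFullC K1 N) : LaurentSeries K1) =
      qExpand K1 (q * d) (jqModC K1) :=
  (S34WQ_exists emb q N' N hq hqN hN).choose_spec.2.2.1 d hd hm

theorem S34V0_w_new (d : ℕ) [NeZero d] [NeZero (q * d)] (hd : d ∣ N')
    (hm : qExpand K1 (q * d) (jqModC K1) ∈ modularFunctionFieldFullC K1 N) :
    ((S34V0_w emb q N' N hq hqN hN ⟨qExpand K1 (q * d) (jqModC K1), hm⟩ :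
      modularFunctionFieldFullC K1 N) : LaurentSeries K1) =
      qExpand K1 d (jqModC K1) :=
  (S34WQ_exists emb q N' N hq hqN hN).choose_spec.2.2.2.1 d hd hm

theorem S34V0_w_level [NeZero q] (x : modularFunctionFieldFullC K1 N)
    (hx : (x : LaurentSeries K1) ∈ modularFunctionFieldFullC K1 N') :
    ((S34V0_w emb q N' N hq hqN hN x : modularFunctionFieldFullC K1 N) : LaurentSeries K1) =
      qExpand K1 q (x : LaurentSeries K1) :=
  (S34WQ_exists emb q N' N hq hqN hN).choose_spec.2.2.2.2 x hx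

theorem S34V0_w_C (c : K1) (hc : HahnSeries.C c ∈ modularFunctionFieldFullC K1 N) :
    S34V0_w emb q N' N hq hqN hN ⟨HahnSeries.C c, hc⟩ = ⟨HahnSeries.C c, hc⟩ := by
  have h2 : algebraMap K1 (LaurentSeries K1) c = HahnSeries.C c := by
    rw [algebraMap_laurentSeries_eq_single, HahnSeries.C_apply]
  have h3 : (⟨HahnSeries.C c, hc⟩ : modularFunctionFieldFullC K1 N) =
      algebraMap K1 (modularFunctionFieldFullC K1 N) c := Subtype.ext h2.symm
  rw [h3, AlgEquiv.commutes]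

/-- **uniqueness**: a ring endomorphism of `F` fixing the constants and with the values of `w` on
the generators is `w` -/
theorem S34V0_w_unique (f : modularFunctionFieldFullC K1 N →+* modularFunctionFieldFullC K1 N)
    (hC : ∀ (c : K1) (hc : HahnSeries.C c ∈ modularFunctionFieldFullC K1 N),
      f ⟨HahnSeries.C c, hc⟩ = ⟨HahnSeries.C c, hc⟩)
    (hgen : ∀ (d : ℕ) [NeZero d] (hd : d ∣ N) [NeZero (S34WQ_dual q d)]
      (hm : qExpand K1 d (jqModC K1) ∈ modularFunctionFieldFullC K1 N),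
      ((f ⟨qExpand K1 d (jqModC K1), hm⟩ : modularFunctionFieldFullC K1 N) :
        LaurentSeries K1) = qExpand K1 (S34WQ_dual q d) (jqModC K1))
    (y : modularFunctionFieldFullC K1 N) : f y = S34V0_w emb q N' N hq hqN hN y := by
  refine S34WQ_ringHom_ext N f
    ((S34V0_w emb q N' N hq hqN hN : modularFunctionFieldFullC K1 N →+*
      modularFunctionFieldFullC K1 N)) ?_ ?_ y
  · intro c hc
    rw [hC c hc]
    exact (S34V0_w_C emb q N' N hq hqN hN c hc).symm
  · intro d _ hd hm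
    haveI : NeZero (S34WQ_dual q d) :=
      ⟨S34WQ_dual_ne_zero hq.pos (Nat.pos_of_ne_zero (NeZero.ne d))⟩
    apply Subtype.ext
    rw [hgen d hd hm]
    exact (S34V0_w_gen emb q N' N hq hqN hN d hd hm).symm

/-! ### The elementwise map on `L = K1((q))` -/

open Classical in
/-- `w` as a map `L → L` (`0` outside `F`) -/
def S34V0_wL (y : LaurentSeries K1) : LaurentSeries K1 :=
  if hy : y ∈ modularFunctionFieldFullC K1 N then
    ((S34V0_w emb q N' N hq hqN hN ⟨y, hy⟩ : modularFunctionFieldFullC K1 N) : LaurentSeries K1)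
  else 0

theorem S34V0_wL_of_mem {y : LaurentSeries K1} (hy : y ∈ modularFunctionFieldFullC K1 N) :
    S34V0_wL emb q N' N hq hqN hN y =
      ((S34V0_w emb q N' N hq hqN hN ⟨y, hy⟩ : modularFunctionFieldFullC K1 N) :
        LaurentSeries K1) := by
  rw [S34V0_wL, dif_pos hy]

theorem S34V0_wL_mem (y : LaurentSeries K1) :
    S34V0_wL emb q N' N hq hqN hN y ∈ modularFunctionFieldFullC K1 N := by
  by_cases hy : y ∈ modularFunctionFieldFullC K1 N
  · rw [S34V0_wL_of_mem emb q N' N hq hqN hN hy]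
    exact (S34V0_w emb q N' N hq hqN hN ⟨y, hy⟩).2
  · rw [S34V0_wL, dif_neg hy]
    exact zero_mem _

theorem S34V0_wL_wL {y : LaurentSeries K1} (hy : y ∈ modularFunctionFieldFullC K1 N) :
    S34V0_wL emb q N' N hq hqN hN (S34V0_wL emb q N' N hq hqN hN y) = y := by
  rw [S34V0_wL_of_mem emb q N' N hq hqN hN (S34V0_wL_mem emb q N' N hq hqN hN y)]
  have h : (⟨S34V0_wL emb q N' N hq hqN hN y, S34V0_wL_mem emb q N' N hq hqN hN y⟩ :
      modularFunctionFieldFullC K1 N) = S34V0_w emb q N' N hq hqN hN ⟨y, hy⟩ :=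
    Subtype.ext (S34V0_wL_of_mem emb q N' N hq hqN hN hy)
  rw [h, S34V0_w_w]

theorem S34V0_wL_add {x y : LaurentSeries K1} (hx : x ∈ modularFunctionFieldFullC K1 N)
    (hy : y ∈ modularFunctionFieldFullC K1 N) :
    S34V0_wL emb q N' N hq hqN hN (x + y) =
      S34V0_wL emb q N' N hq hqN hN x + S34V0_wL emb q N' N hq hqN hN y := by
  rw [S34V0_wL_of_mem emb q N' N hq hqN hN hx, S34V0_wL_of_mem emb q N' N hq hqN hN hy,
    S34V0_wL_of_mem emb q N' N hq hqN hN (add_mem hx hy)]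
  have h : (⟨x + y, add_mem hx hy⟩ : modularFunctionFieldFullC K1 N) = ⟨x, hx⟩ + ⟨y, hy⟩ := rfl
  rw [h, map_add]
  rfl

theorem S34V0_wL_mul {x y : LaurentSeries K1} (hx : x ∈ modularFunctionFieldFullC K1 N)
    (hy : y ∈ modularFunctionFieldFullC K1 N) :
    S34V0_wL emb q N' N hq hqN hN (x * y) =
      S34V0_wL emb q N' N hq hqN hN x * S34V0_wL emb q N' N hq hqN hN y := by
  rw [S34V0_wL_of_mem emb q N' N hq hqN hN hx, S34V0_wL_of_mem emb q N' N hq hqN hN hy,
    S34V0_wL_of_mem emb q N' N hq hqN hN (mul_mem hx hy)]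
  have h : (⟨x * y, mul_mem hx hy⟩ : modularFunctionFieldFullC K1 N) = ⟨x, hx⟩ * ⟨y, hy⟩ := rfl
  rw [h, map_mul]
  rfl

theorem S34V0_wL_neg {x : LaurentSeries K1} (hx : x ∈ modularFunctionFieldFullC K1 N) :
    S34V0_wL emb q N' N hq hqN hN (-x) = - S34V0_wL emb q N' N hq hqN hN x := by
  rw [S34V0_wL_of_mem emb q N' N hq hqN hN hx,
    S34V0_wL_of_mem emb q N' N hq hqN hN (neg_mem hx)]
  have h : (⟨-x, neg_mem hx⟩ : modularFunctionFieldFullC K1 N) = -⟨x, hx⟩ := rfl
  rw [h, map_neg]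
  rfl

theorem S34V0_wL_inv {x : LaurentSeries K1} (hx : x ∈ modularFunctionFieldFullC K1 N) :
    S34V0_wL emb q N' N hq hqN hN x⁻¹ = (S34V0_wL emb q N' N hq hqN hN x)⁻¹ := by
  rw [S34V0_wL_of_mem emb q N' N hq hqN hN hx,
    S34V0_wL_of_mem emb q N' N hq hqN hN (inv_mem hx)]
  have h : (⟨x⁻¹, inv_mem hx⟩ : modularFunctionFieldFullC K1 N) = (⟨x, hx⟩)⁻¹ := rfl
  rw [h, map_inv₀]
  rfl

theorem S34V0_wL_zero : S34V0_wL emb q N' N hq hqN hN 0 = 0 := by
  rw [S34V0_wL_of_mem emb q N' N hq hqN hN (zero_mem _)]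
  have h : (⟨0, zero_mem _⟩ : modularFunctionFieldFullC K1 N) = 0 := rfl
  rw [h, map_zero]
  rfl

theorem S34V0_wL_one : S34V0_wL emb q N' N hq hqN hN 1 = 1 := by
  rw [S34V0_wL_of_mem emb q N' N hq hqN hN (one_mem _)]
  have h : (⟨1, one_mem _⟩ : modularFunctionFieldFullC K1 N) = 1 := rfl
  rw [h, map_one]
  rfl

theorem S34V0_C_mem (c : K1) : HahnSeries.C c ∈ modularFunctionFieldFullC K1 N := by
  have h2 : algebraMap K1 (LaurentSeries K1) c = HahnSeries.C c := by
    rw [algebraMap_laurentSeries_eq_single, HahnSeries.C_apply]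
  rw [← h2]
  exact IntermediateField.algebraMap_mem _ c

theorem S34V0_wL_C (c : K1) : S34V0_wL emb q N' N hq hqN hN (HahnSeries.C c) = HahnSeries.C c := by
  rw [S34V0_wL_of_mem emb q N' N hq hqN hN (S34V0_C_mem N c), S34V0_w_C]

theorem S34V0_wL_pow {x : LaurentSeries K1} (hx : x ∈ modularFunctionFieldFullC K1 N) (n : ℕ) :
    S34V0_wL emb q N' N hq hqN hN (x ^ n) = (S34V0_wL emb q N' N hq hqN hN x) ^ n := by
  induction n with
  | zero => rw [pow_zero, pow_zero, S34V0_wL_one]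
  | succ n ih =>
      rw [pow_succ, pow_succ, S34V0_wL_mul emb q N' N hq hqN hN (pow_mem hx n) hx, ih]

/-- `w j = j(q^q)` -/
theorem S34V0_wL_j [NeZero q] :
    S34V0_wL emb q N' N hq hqN hN (jqModC K1) = qExpand K1 q (jqModC K1) := by
  have hm : jqModC K1 ∈ modularFunctionFieldFullC K1 N := jqModC_mem_full K1 N
  have hm' : qExpand K1 1 (jqModC K1) ∈ modularFunctionFieldFullC K1 N := by
    rw [qExpand_one_apply]; exact hm
  haveI : NeZero (q * 1) := ⟨by rw [mul_one]; exact hq.ne_zero⟩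
  have h := S34V0_w_old emb q N' N hq hqN hN 1 (one_dvd N') hm'
  rw [S34V0_wL_of_mem emb q N' N hq hqN hN hm]
  have e : (⟨jqModC K1, hm⟩ : modularFunctionFieldFullC K1 N) =
      ⟨qExpand K1 1 (jqModC K1), hm'⟩ := Subtype.ext (qExpand_one_apply _).symm
  rw [e, h]
  exact S34WQ_qExpand_congr (mul_one q) _

/-- `w (j(q^q)) = j` -/
theorem S34V0_wL_jq [NeZero q] :
    S34V0_wL emb q N' N hq hqN hN (qExpand K1 q (jqModC K1)) = jqModC K1 := by
  rw [← S34V0_wL_j emb q N' N hq hqN hN, S34V0_wL_wL emb q N' N hq hqN hN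
    (jqModC_mem_full K1 N)]

/-! ### `V_0 = w(V ∩ F)` -/

/-- the image `w(V ∩ F)` of a subring of `L` under the Atkin–Lehner involution -/
def S34V0_image (V : Subring (LaurentSeries K1)) : Subring (LaurentSeries K1) where
  carrier := {y | y ∈ modularFunctionFieldFullC K1 N ∧ S34V0_wL emb q N' N hq hqN hN y ∈ V}
  mul_mem' := by
    rintro x y ⟨hx, hx'⟩ ⟨hy, hy'⟩
    refine ⟨mul_mem hx hy, ?_⟩
    rw [S34V0_wL_mul emb q N' N hq hqN hN hx hy]
    exact V.mul_mem hx' hy'
  one_mem' := ⟨one_mem _, by rw [S34V0_wL_one]; exact V.one_mem⟩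
  add_mem' := by
    rintro x y ⟨hx, hx'⟩ ⟨hy, hy'⟩
    refine ⟨add_mem hx hy, ?_⟩
    rw [S34V0_wL_add emb q N' N hq hqN hN hx hy]
    exact V.add_mem hx' hy'
  zero_mem' := ⟨zero_mem _, by rw [S34V0_wL_zero]; exact V.zero_mem⟩
  neg_mem' := by
    rintro x ⟨hx, hx'⟩
    refine ⟨neg_mem hx, ?_⟩
    rw [S34V0_wL_neg emb q N' N hq hqN hN hx]
    exact V.neg_mem hx'

theorem S34V0_mem_image {V : Subring (LaurentSeries K1)} {y : LaurentSeries K1} :
    y ∈ S34V0_image emb q N' N hq hqN hN V ↔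
      y ∈ modularFunctionFieldFullC K1 N ∧ S34V0_wL emb q N' N hq hqN hN y ∈ V := Iff.rfl

/-- `w x ∈ V_0` for `x ∈ V ∩ F` -/
theorem S34V0_wL_mem_image {V : Subring (LaurentSeries K1)} {x : LaurentSeries K1}
    (hxF : x ∈ modularFunctionFieldFullC K1 N) (hx : x ∈ V) :
    S34V0_wL emb q N' N hq hqN hN x ∈ S34V0_image emb q N' N hq hqN hN V :=
  ⟨S34V0_wL_mem emb q N' N hq hqN hN x, by rw [S34V0_wL_wL emb q N' N hq hqN hN hxF]; exact hx⟩

/-- `w (w V) = V` for `V ≤ F` -/
theorem S34V0_image_image {V : Subring (LaurentSeries K1)}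
    (hV : ∀ x ∈ V, x ∈ modularFunctionFieldFullC K1 N) :
    S34V0_image emb q N' N hq hqN hN (S34V0_image emb q N' N hq hqN hN V) = V := by
  ext y
  constructor
  · rintro ⟨hy, -, h2⟩
    rw [S34V0_wL_wL emb q N' N hq hqN hN hy] at h2
    exact h2
  · intro hy
    have hyF := hV y hy
    exact ⟨hyF, S34V0_wL_mem emb q N' N hq hqN hN y, by
      rw [S34V0_wL_wL emb q N' N hq hqN hN hyF]; exact hy⟩

section Transport

variable {π : LaurentSeries K1} {V : Subring (LaurentSeries K1)}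

/-- **transport of the valuation-ring fields**: if `V` is a valuation ring of `F` in which the
constant `π` is a non-unit, so is `w(V)`. -/
theorem S34V0_val (hπ : ∃ c : K1, HahnSeries.C c = π)
    (H : S34C2_Val π (modularFunctionFieldFullC K1 N).toSubfield V) :
    S34C2_Val π (modularFunctionFieldFullC K1 N).toSubfield
      (S34V0_image emb q N' N hq hqN hN V) := by
  obtain ⟨c, rfl⟩ := hπ
  refine ⟨fun x hx => hx.1, ?_, ?_, ?_⟩
  · intro x hx
    have hxF : x ∈ modularFunctionFieldFullC K1 N := hx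
    rcases H.val _ (S34V0_wL_mem emb q N' N hq hqN hN x) with h | h
    · exact Or.inl ⟨hxF, h⟩
    · refine Or.inr ⟨inv_mem hxF, ?_⟩
      rw [S34V0_wL_inv emb q N' N hq hqN hN hxF]
      exact h
  · exact ⟨S34V0_C_mem N c, by rw [S34V0_wL_C]; exact H.π_mem⟩
  · rintro ⟨-, h⟩
    rw [S34V0_wL_inv emb q N' N hq hqN hN (S34V0_C_mem N c), S34V0_wL_C] at h
    exact H.π_nonunit h

/-- **transport of `V_unif`** -/
theorem S34V0_unif (hπ : ∃ c : K1, HahnSeries.C c = π) (hπ0 : π ≠ 0)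
    (hunif : ∀ x ∈ V, x⁻¹ ∉ V → ∃ v ∈ V, x = π * v) :
    ∀ x ∈ S34V0_image emb q N' N hq hqN hN V, x⁻¹ ∉ S34V0_image emb q N' N hq hqN hN V →
      ∃ v ∈ S34V0_image emb q N' N hq hqN hN V, x = π * v := by
  obtain ⟨c, rfl⟩ := hπ
  rintro x ⟨hxF, hx⟩ hxinv
  have h1 : (S34V0_wL emb q N' N hq hqN hN x)⁻¹ ∉ V := by
    intro h
    apply hxinv
    refine ⟨inv_mem hxF, ?_⟩
    rw [S34V0_wL_inv emb q N' N hq hqN hN hxF]
    exact h
  obtain ⟨v, hv, hxv⟩ := hunif _ hx h1
  have hcF : HahnSeries.C c ∈ modularFunctionFieldFullC K1 N := S34V0_C_mem N c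
  have hvF : v ∈ modularFunctionFieldFullC K1 N := by
    have : v = (HahnSeries.C c)⁻¹ * S34V0_wL emb q N' N hq hqN hN x := by
      rw [hxv, ← mul_assoc, inv_mul_cancel₀ hπ0, one_mul]
    rw [this]
    exact mul_mem (inv_mem hcF) (S34V0_wL_mem emb q N' N hq hqN hN x)
  refine ⟨S34V0_wL emb q N' N hq hqN hN v, S34V0_wL_mem_image emb q N' N hq hqN hN hvF hv, ?_⟩
  have h2 := congrArg (S34V0_wL emb q N' N hq hqN hN) hxv
  rw [S34V0_wL_wL emb q N' N hq hqN hN hxF, S34V0_wL_mul emb q N' N hq hqN hN hcF hvF,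
    S34V0_wL_C] at h2
  exact h2

end Transport

/-! ### Transport of integrality -/

section Integral

variable (O : Subring (LaurentSeries K1)) (hO : ∀ a ∈ O, ∃ c : K1, HahnSeries.C c = a)

include hO in
theorem S34V0_O_le : ∀ a ∈ O, a ∈ modularFunctionFieldFullC K1 N := by
  intro a ha
  obtain ⟨c, rfl⟩ := hO a ha
  exact S34V0_C_mem N c

include hO in
theorem S34V0_adj_le {g : LaurentSeries K1} (hg : g ∈ modularFunctionFieldFullC K1 N) :
    ∀ r ∈ adj O g, r ∈ modularFunctionFieldFullC K1 N := by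
  intro r hr
  have h : adj O g ≤ (modularFunctionFieldFullC K1 N).toSubfield.toSubring := by
    unfold adj
    rw [Subring.closure_le]
    rintro x (hx | hx)
    · exact S34V0_O_le N O hO x hx
    · rw [Set.mem_singleton_iff] at hx
      rw [hx]; exact hg
  exact h hr

include hO in
/-- `w` maps `O[g]` into `O[w g]` -/
theorem S34V0_wL_adj {g : LaurentSeries K1} (hg : g ∈ modularFunctionFieldFullC K1 N)
    {r : LaurentSeries K1} (hr : r ∈ adj O g) :
    S34V0_wL emb q N' N hq hqN hN r ∈ adj O (S34V0_wL emb q N' N hq hqN hN g) := by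
  have hle := S34V0_adj_le N O hO hg
  unfold adj at hr
  induction hr using Subring.closure_induction with
  | mem x hx =>
      rcases hx with hx | hx
      · obtain ⟨c, rfl⟩ := hO x hx
        rw [S34V0_wL_C]
        exact Subring.subset_closure (Or.inl hx)
      · rw [Set.mem_singleton_iff] at hx
        rw [hx]
        exact Subring.subset_closure (Or.inr rfl)
  | zero => rw [S34V0_wL_zero]; exact zero_mem _
  | one => rw [S34V0_wL_one]; exact one_mem _
  | add x y hx hy ihx ihy =>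
      rw [S34V0_wL_add emb q N' N hq hqN hN (hle x hx) (hle y hy)]
      exact add_mem ihx ihy
  | neg x hx ihx =>
      rw [S34V0_wL_neg emb q N' N hq hqN hN (hle x hx)]
      exact neg_mem ihx
  | mul x y hx hy ihx ihy =>
      rw [S34V0_wL_mul emb q N' N hq hqN hN (hle x hx) (hle y hy)]
      exact mul_mem ihx ihy

include hO in
/-- **transport of integrality**: if `x ∈ F` is integral over `O[g]`, then `w x` is integral over
`O[w g]`. -/
theorem S34V0_isIntegral_wL {g : LaurentSeries K1} (hg : g ∈ modularFunctionFieldFullC K1 N)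
    {x : LaurentSeries K1} (hxF : x ∈ modularFunctionFieldFullC K1 N)
    (hx : IsIntegral (adj O g) x) :
    IsIntegral (adj O (S34V0_wL emb q N' N hq hqN hN g)) (S34V0_wL emb q N' N hq hqN hN x) := by
  have hle := S34V0_adj_le N O hO hg
  -- the ring homomorphism `O[g] → O[w g]` induced by `w`
  let φ : adj O g →+* adj O (S34V0_wL emb q N' N hq hqN hN g) :=
    { toFun := fun r => ⟨S34V0_wL emb q N' N hq hqN hN (r : LaurentSeries K1),
        S34V0_wL_adj emb q N' N hq hqN hN O hO hg r.2⟩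
      map_one' := Subtype.ext (S34V0_wL_one emb q N' N hq hqN hN)
      map_mul' := fun a b => Subtype.ext
        (S34V0_wL_mul emb q N' N hq hqN hN (hle a a.2) (hle b b.2))
      map_zero' := Subtype.ext (S34V0_wL_zero emb q N' N hq hqN hN)
      map_add' := fun a b => Subtype.ext
        (S34V0_wL_add emb q N' N hq hqN hN (hle a a.2) (hle b b.2)) }
  obtain ⟨P, hP, hPx⟩ := hx
  refine ⟨P.map φ, hP.map φ, ?_⟩
  rw [Polynomial.eval₂_map, Polynomial.eval₂_eq_sum_range]
  rw [Polynomial.eval₂_eq_sum_range] at hPx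
  have key : ∀ (n : ℕ),
      S34V0_wL emb q N' N hq hqN hN
        (∑ i ∈ Finset.range n, algebraMap (adj O g) (LaurentSeries K1) (P.coeff i) * x ^ i) =
      ∑ i ∈ Finset.range n,
        ((algebraMap (adj O (S34V0_wL emb q N' N hq hqN hN g)) (LaurentSeries K1)).comp φ)
          (P.coeff i) * (S34V0_wL emb q N' N hq hqN hN x) ^ i ∧
      (∑ i ∈ Finset.range n, algebraMap (adj O g) (LaurentSeries K1) (P.coeff i) * x ^ i) ∈
        modularFunctionFieldFullC K1 N := by
    intro n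
    induction n with
    | zero =>
        simp only [Finset.range_zero, Finset.sum_empty]
        exact ⟨S34V0_wL_zero emb q N' N hq hqN hN, zero_mem _⟩
    | succ n ih =>
        have hcF : algebraMap (adj O g) (LaurentSeries K1) (P.coeff n) ∈
            modularFunctionFieldFullC K1 N := hle _ (P.coeff n).2
        have hterm : algebraMap (adj O g) (LaurentSeries K1) (P.coeff n) * x ^ n ∈
            modularFunctionFieldFullC K1 N :=
          mul_mem hcF (pow_mem hxF n)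
        rw [Finset.sum_range_succ, Finset.sum_range_succ,
          S34V0_wL_add emb q N' N hq hqN hN ih.2 hterm, ih.1,
          S34V0_wL_mul emb q N' N hq hqN hN hcF (pow_mem hxF n),
          S34V0_wL_pow emb q N' N hq hqN hN hxF]
        exact ⟨rfl, add_mem ih.2 hterm⟩
  rw [← (key (P.natDegree + 1)).1, hPx, S34V0_wL_zero]

end Integral

/-! ### The chart fields `x_inv_mem`, `le_V` for `V ⊓ w(V)` -/

section Chart

variable (O : Subring (LaurentSeries K1)) (hO : ∀ a ∈ O, ∃ c : K1, HahnSeries.C c = a)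
  {π : LaurentSeries K1} {V : Subring (LaurentSeries K1)}

include hO in
/-- **`le_V`**: the integral closure of `O[g]` in `F` lies in `V ⊓ w(V)` as soon as `g` and `w g`
lie in the valuation ring `V ⊇ O`. -/
theorem S34V0_icl_le (H : S34C2_Val π (modularFunctionFieldFullC K1 N).toSubfield V)
    (hOV : ∀ a ∈ O, a ∈ V) {g : LaurentSeries K1} (hgF : g ∈ modularFunctionFieldFullC K1 N)
    (hgV : g ∈ V) (hwgV : S34V0_wL emb q N' N hq hqN hN g ∈ V) :
    icl (adj O g) (modularFunctionFieldFullC K1 N).toSubfield ≤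
      V ⊓ S34V0_image emb q N' N hq hqN hN V := by
  have hadj : ∀ {g' : LaurentSeries K1}, g' ∈ V → adj O g' ≤ V := by
    intro g' hg'
    unfold adj
    rw [Subring.closure_le]
    rintro x (hx | hx)
    · exact hOV x hx
    · rw [Set.mem_singleton_iff] at hx
      rw [hx]; exact hg'
  intro y hy
  obtain ⟨hint, hyF⟩ := mem_icl.mp hy
  have hyF' : y ∈ modularFunctionFieldFullC K1 N := hyF
  refine ⟨H.ic hyF (Fermat.Agent.S18_helper9_CBasic.isIntegral_mono (hadj hgV) hint), hyF', ?_⟩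
  have h1 := S34V0_isIntegral_wL emb q N' N hq hqN hN O hO hgF hyF' hint
  exact H.ic (S34V0_wL_mem emb q N' N hq hqN hN y)
    (Fermat.Agent.S18_helper9_CBasic.isIntegral_mono (hadj hwgV) h1)

/-- **`x_inv_mem`** -/
theorem S34V0_inv_mem {g : LaurentSeries K1} (hgF : g ∈ modularFunctionFieldFullC K1 N)
    (hgV : g⁻¹ ∈ V) (hwgV : (S34V0_wL emb q N' N hq hqN hN g)⁻¹ ∈ V) :
    g⁻¹ ∈ V ⊓ S34V0_image emb q N' N hq hqN hN V := by
  refine ⟨hgV, inv_mem hgF, ?_⟩
  rw [S34V0_wL_inv emb q N' N hq hqN hN hgF]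
  exact hwgV

include hO in
/-- **the four chart fields at once** (`j`, `j⁻¹`, `j(q^q)`, `j(q^q)⁻¹ ∈ V`): `le_V` and
`x_inv_mem` of `Chart O π j F (V ⊓ w V) A0` and of `Chart O π j⁻¹ F (V ⊓ w V) Ainf`. -/
theorem S34V0_chart_fields [NeZero q]
    (H : S34C2_Val π (modularFunctionFieldFullC K1 N).toSubfield V)
    (hOV : ∀ a ∈ O, a ∈ V)
    (hj : jqModC K1 ∈ V) (hj' : (jqModC K1)⁻¹ ∈ V)
    (hjq : qExpand K1 q (jqModC K1) ∈ V) (hjq' : (qExpand K1 q (jqModC K1))⁻¹ ∈ V) :
    (icl (adj O (jqModC K1)) (modularFunctionFieldFullC K1 N).toSubfield ≤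
        V ⊓ S34V0_image emb q N' N hq hqN hN V) ∧
      (icl (adj O (jqModC K1)⁻¹) (modularFunctionFieldFullC K1 N).toSubfield ≤
        V ⊓ S34V0_image emb q N' N hq hqN hN V) ∧
      (jqModC K1)⁻¹ ∈ V ⊓ S34V0_image emb q N' N hq hqN hN V ∧
      ((jqModC K1)⁻¹)⁻¹ ∈ V ⊓ S34V0_image emb q N' N hq hqN hN V := by
  have hjF : jqModC K1 ∈ modularFunctionFieldFullC K1 N := jqModC_mem_full K1 N
  have hw : S34V0_wL emb q N' N hq hqN hN (jqModC K1) = qExpand K1 q (jqModC K1) :=
    S34V0_wL_j emb q N' N hq hqN hN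
  have hw' : S34V0_wL emb q N' N hq hqN hN (jqModC K1)⁻¹ = (qExpand K1 q (jqModC K1))⁻¹ := by
    rw [S34V0_wL_inv emb q N' N hq hqN hN hjF, hw]
  refine ⟨?_, ?_, ?_, ?_⟩
  · exact S34V0_icl_le emb q N' N hq hqN hN O hO H hOV hjF hj (by rw [hw]; exact hjq)
  · exact S34V0_icl_le emb q N' N hq hqN hN O hO H hOV (inv_mem hjF) hj'
      (by rw [hw']; exact hjq')
  · exact S34V0_inv_mem emb q N' N hq hqN hN hjF hj' (by rw [hw]; exact hjq')
  · exact S34V0_inv_mem emb q N' N hq hqN hN (inv_mem hjF) (by rw [inv_inv]; exact hj)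
      (by rw [hw', inv_inv]; exact hjq)

end Chart

/-! ### The Frobenius congruence on the second component and `V_0 ≠ V_∞` -/

section Frob

variable {π : LaurentSeries K1} {V : Subring (LaurentSeries K1)}

/-- **Frobenius congruence on `V_0`**: for `x` of level `N'`, if `x(q^q) ≡ x^q` modulo `π V`, then
`x ≡ (x(q^q))^q` modulo `π w(V)`. -/
theorem S34V0_frob [NeZero q] (hπ : ∃ c : K1, HahnSeries.C c = π) (hπ0 : π ≠ 0)
    {x : LaurentSeries K1} (hx : x ∈ modularFunctionFieldFullC K1 N')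
    {v : LaurentSeries K1} (hv : v ∈ V) (h : qExpand K1 q x - x ^ q = π * v) :
    ∃ v' ∈ S34V0_image emb q N' N hq hqN hN V, x - (qExpand K1 q x) ^ q = π * v' := by
  obtain ⟨c, rfl⟩ := hπ
  have hN'N : N' ∣ N := hN ▸ dvd_mul_left N' q
  have hxF : x ∈ modularFunctionFieldFullC K1 N := full_degeneracyC_le K1 hN'N hx
  have hcF : HahnSeries.C c ∈ modularFunctionFieldFullC K1 N := S34V0_C_mem N c
  have hwx : S34V0_wL emb q N' N hq hqN hN x = qExpand K1 q x := by
    rw [S34V0_wL_of_mem emb q N' N hq hqN hN hxF]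
    exact S34V0_w_level emb q N' N hq hqN hN ⟨x, hxF⟩ hx
  have hqxF : qExpand K1 q x ∈ modularFunctionFieldFullC K1 N := by
    rw [← hwx]; exact S34V0_wL_mem emb q N' N hq hqN hN x
  have hvF : v ∈ modularFunctionFieldFullC K1 N := by
    have : v = (HahnSeries.C c)⁻¹ * (qExpand K1 q x - x ^ q) := by
      rw [h, ← mul_assoc, inv_mul_cancel₀ hπ0, one_mul]
    rw [this]
    exact mul_mem (inv_mem hcF) (sub_mem hqxF (pow_mem hxF q))
  refine ⟨S34V0_wL emb q N' N hq hqN hN v,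
    S34V0_wL_mem_image emb q N' N hq hqN hN hvF hv, ?_⟩
  have h2 := congrArg (S34V0_wL emb q N' N hq hqN hN) h
  rw [S34V0_wL_mul emb q N' N hq hqN hN hcF hvF, S34V0_wL_C, sub_eq_add_neg,
    S34V0_wL_add emb q N' N hq hqN hN hqxF (neg_mem (pow_mem hxF q)),
    S34V0_wL_neg emb q N' N hq hqN hN (pow_mem hxF q),
    S34V0_wL_pow emb q N' N hq hqN hN hxF, ← hwx,
    S34V0_wL_wL emb q N' N hq hqN hN hxF, hwx, ← sub_eq_add_neg] at h2
  exact h2

/-- **`V_0 ≠ V_∞`**: if `j(q^q) ≡ j^q` modulo `π V` and `j - j^(q²)` is a unit of `V`, then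
`w(V) ≠ V`. -/
theorem S34V0_image_ne [NeZero q] (hπ : ∃ c : K1, HahnSeries.C c = π)
    (H : S34C2_Val π (modularFunctionFieldFullC K1 N).toSubfield V)
    (hj : jqModC K1 ∈ V) (hjq : qExpand K1 q (jqModC K1) ∈ V)
    (hK : ∃ v ∈ V, qExpand K1 q (jqModC K1) - (jqModC K1) ^ q = π * v)
    (hU : ∃ u ∈ V, u * (jqModC K1 - (jqModC K1) ^ (q ^ 2)) = 1) :
    S34V0_image emb q N' N hq hqN hN V ≠ V := by
  intro heq
  have hπ0 : π ≠ 0 := H.π_ne_zero
  obtain ⟨v, hv, hvK⟩ := hK
  obtain ⟨u, hu, huU⟩ := hU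
  have hjN' : jqModC K1 ∈ modularFunctionFieldFullC K1 N' := jqModC_mem_full K1 N'
  obtain ⟨v', hv', h1⟩ := S34V0_frob emb q N' N hq hqN hN hπ hπ0 hjN' hv hvK
  rw [heq] at hv'
  -- `jq ^ q - (j ^ q) ^ q ∈ π V`
  obtain ⟨c, hc⟩ := sub_dvd_pow_sub_pow (⟨qExpand K1 q (jqModC K1), hjq⟩ : V)
    (⟨(jqModC K1) ^ q, V.pow_mem hj q⟩ : V) q
  have hc' : (qExpand K1 q (jqModC K1)) ^ q - ((jqModC K1) ^ q) ^ q =
      (qExpand K1 q (jqModC K1) - (jqModC K1) ^ q) * (c : LaurentSeries K1) := by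
    have := congrArg (fun z : V => (z : LaurentSeries K1)) hc
    simpa using this
  have h3 : jqModC K1 - (jqModC K1) ^ (q ^ 2) = π * (v' + v * (c : LaurentSeries K1)) := by
    have e : (jqModC K1) ^ (q ^ 2) = ((jqModC K1) ^ q) ^ q := by rw [← pow_mul, pow_two]
    rw [e]
    have : jqModC K1 - ((jqModC K1) ^ q) ^ q =
        (jqModC K1 - (qExpand K1 q (jqModC K1)) ^ q) +
          ((qExpand K1 q (jqModC K1)) ^ q - ((jqModC K1) ^ q) ^ q) := by ring
    rw [this, h1, hc', hvK]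
    ring
  apply H.π_nonunit
  have h4 : π⁻¹ = u * (v' + v * (c : LaurentSeries K1)) := by
    rw [h3] at huU
    have h5 : π * (u * (v' + v * (c : LaurentSeries K1))) = 1 := by
      rw [← huU]; ring
    exact (eq_inv_of_mul_eq_one_right h5).symm ▸ rfl
  rw [h4]
  exact V.mul_mem hu (V.add_mem hv' (V.mul_mem hv c.2))

end Frob

end Fermat.Agent.S34_helper20_V0
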