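import Mathlib
import Fermat.Agent.S18_helper13_GAUSS
import Fermat.Agent.S18_helper13_GAUSS2
import Fermat.Agent.S18_helper25_GLUE

/-!
# S34, piece P6c (helper6): STEP 1

**Abstract part** (a field `L`, a subring `V`, an element `π`).  A ring endomorphism `σ` of `L` is
*trivial modulo `π` on `V`* (`S34S1_TrivMod π V σ`) if `σ x - x ∈ π V` for all `x ∈ V`.
If `σ`, its inverse `σi` and `σ'` are trivial modulo `π` on `V` and `f = π ^ a * f₁` with `f₁` a
unit of `V`, then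

  `σ' (σ f) * f = σ' f * σ f * (1 + π * c)`  with `c ∈ V`      (`S34S1_step1`).

(No condition on `σ π / π`: the constant `e = σ π / π` is a unit of `V` and `σ' e / e ≡ 1`.)

**Gauss part** (helper13's `GaussData`).  A ring endomorphism `s` of `K` which preserves `O` and
induces the identity on the residue field (`S34S1_ResTriv D s`) acts coefficientwise on `K((q))`
trivially modulo `π` on the Gauss valuation ring (`S34S1_gauss_trivMod`); STEP 1 for every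
nonzero `f` in the fraction field of `O((q))` is `S34S1_gauss_step1`.

**Roots** (`S34S1_gauss_root`): if `h ^ m = c * u` with `c` a nonzero constant and `u ≡ 1`, then
`h = π ^ a * (γ + π z)` with `γ` a unit constant, `z ∈ V` and `m * a = v(c)`.
-/

set_option autoImplicit false

open HahnSeries ModularCurve
open Fermat.Agent.S18_helper13_GAUSS

noncomputable section

namespace Fermat.Agent.S34_helper6_STEP1

/-! ### The abstract part -/

section Abstract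

variable {L : Type*} [Field L]

/-- `σ` is trivial modulo `π` on `V`: `σ x - x ∈ π V` for all `x ∈ V`. -/
def S34S1_TrivMod (π : L) (V : Subring L) (σ : L →+* L) : Prop :=
  ∀ x ∈ V, ∃ c ∈ V, σ x = x + π * c

variable {π : L} {V : Subring L}

theorem S34S1_TrivMod_mem {σ : L →+* L} (h : S34S1_TrivMod π V σ) (hπ : π ∈ V) {x : L}
    (hx : x ∈ V) : σ x ∈ V := by
  obtain ⟨c, hc, e⟩ := h x hx
  rw [e]
  exact add_mem hx (mul_mem hπ hc)

theorem S34S1_TrivMod_id : S34S1_TrivMod π V (RingHom.id L) := fun x _ =>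
  ⟨0, zero_mem V, by simp⟩

theorem S34S1_TrivMod_comp {σ σ' : L →+* L} (hπ : π ∈ V) (h : S34S1_TrivMod π V σ)
    (h' : S34S1_TrivMod π V σ') : S34S1_TrivMod π V (σ'.comp σ) := by
  intro x hx
  obtain ⟨c, hc, e⟩ := h x hx
  obtain ⟨c', hc', e'⟩ := h' (σ x) (S34S1_TrivMod_mem h hπ hx)
  refine ⟨c + c', add_mem hc hc', ?_⟩
  rw [RingHom.comp_apply, e', e]
  ring

/-- `x` is a unit of `V`. -/
def S34S1_U (V : Subring L) (x : L) : Prop := x ∈ V ∧ x⁻¹ ∈ V

theorem S34S1_U_mul {x y : L} (hx : S34S1_U V x) (hy : S34S1_U V y) : S34S1_U V (x * y) :=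
  ⟨mul_mem hx.1 hy.1, by rw [mul_inv]; exact mul_mem hx.2 hy.2⟩

theorem S34S1_U_inv {x : L} (hx : S34S1_U V x) : S34S1_U V x⁻¹ :=
  ⟨hx.2, by rw [inv_inv]; exact hx.1⟩

theorem S34S1_U_div {x y : L} (hx : S34S1_U V x) (hy : S34S1_U V y) : S34S1_U V (x / y) := by
  rw [div_eq_mul_inv]
  exact S34S1_U_mul hx (S34S1_U_inv hy)

theorem S34S1_U_pow {x : L} (hx : S34S1_U V x) (n : ℕ) : S34S1_U V (x ^ n) :=
  ⟨pow_mem hx.1 n, by rw [← inv_pow]; exact pow_mem hx.2 n⟩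

theorem S34S1_U_zpow {x : L} (hx : S34S1_U V x) (a : ℤ) : S34S1_U V (x ^ a) := by
  rcases Int.eq_nat_or_neg a with ⟨n, rfl | rfl⟩
  · rw [zpow_natCast]
    exact S34S1_U_pow hx n
  · rw [zpow_neg, zpow_natCast]
    exact S34S1_U_inv (S34S1_U_pow hx n)

theorem S34S1_U_map {σ : L →+* L} (h : S34S1_TrivMod π V σ) (hπ : π ∈ V) {x : L}
    (hx : S34S1_U V x) : S34S1_U V (σ x) :=
  ⟨S34S1_TrivMod_mem h hπ hx.1, by rw [← map_inv₀]; exact S34S1_TrivMod_mem h hπ hx.2⟩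

/-- on units, `σ g = g (1 + π c)`. -/
theorem S34S1_unit {σ : L →+* L} (h : S34S1_TrivMod π V σ) {g : L} (hg : S34S1_U V g)
    (hg0 : g ≠ 0) : ∃ c ∈ V, σ g = g * (1 + π * c) := by
  obtain ⟨c, hc, e⟩ := h g hg.1
  refine ⟨g⁻¹ * c, mul_mem hg.2 hc, ?_⟩
  rw [e]
  field_simp

/-- `σ π / π` is a unit of `V`. -/
theorem S34S1_U_pi (hπ0 : π ≠ 0) (hπ : π ∈ V) {σ σi : L →+* L} (hinv : σ (σi π) = π)
    (h : S34S1_TrivMod π V σ) (hi : S34S1_TrivMod π V σi) : S34S1_U V (σ π / π) := by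
  obtain ⟨c, hc, e⟩ := h π hπ
  obtain ⟨c', hc', e'⟩ := hi π hπ
  have hσπ0 : σ π ≠ 0 := (map_ne_zero σ).2 hπ0
  refine ⟨?_, ?_⟩
  · have : σ π / π = 1 + c := by
      rw [e]
      field_simp
    rw [this]
    exact add_mem (one_mem V) hc
  · have h1 : σ π * σ (1 + c') = π := by
      have h2 : σ (σi π) = σ (π * (1 + c')) := by
        rw [e']
        congr 1
        ring
      rw [← map_mul, ← h2, hinv]
    have : (σ π / π)⁻¹ = σ (1 + c') := by
      rw [inv_div, div_eq_iff hσπ0, mul_comm]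
      exact h1.symm
    rw [this]
    exact S34S1_TrivMod_mem h hπ (add_mem (one_mem V) hc')

/-- `σ f / f` is a unit of `V` for `f = π ^ a * f₁`, `f₁` a unit of `V`. -/
theorem S34S1_U_quot (hπ0 : π ≠ 0) (hπ : π ∈ V) {σ σi : L →+* L} (hinv : σ (σi π) = π)
    (h : S34S1_TrivMod π V σ) (hi : S34S1_TrivMod π V σi) (a : ℤ) {f₁ : L}
    (hf₁ : S34S1_U V f₁) (hf₁0 : f₁ ≠ 0) :
    S34S1_U V (σ (π ^ a * f₁) / (π ^ a * f₁)) := by
  have hσπ0 : σ π ≠ 0 := (map_ne_zero σ).2 hπ0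
  have e : σ (π ^ a * f₁) / (π ^ a * f₁) = (σ π / π) ^ a * (σ f₁ / f₁) := by
    rw [map_mul, map_zpow₀, div_zpow]
    field_simp
  rw [e]
  exact S34S1_U_mul (S34S1_U_zpow (S34S1_U_pi hπ0 hπ hinv h hi) a)
    (S34S1_U_div (S34S1_U_map h hπ hf₁) hf₁)

/-- **STEP 1, abstract form.** -/
theorem S34S1_step1 (hπ0 : π ≠ 0) (hπ : π ∈ V) {σ' σ σi : L →+* L} (hinv : σ (σi π) = π)
    (h' : S34S1_TrivMod π V σ') (h : S34S1_TrivMod π V σ) (hi : S34S1_TrivMod π V σi)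
    {f : L} (hfac : ∃ (a : ℤ) (f₁ : L), f₁ ∈ V ∧ f₁⁻¹ ∈ V ∧ f₁ ≠ 0 ∧ f = π ^ a * f₁) :
    ∃ c ∈ V, σ' (σ f) * f = σ' f * σ f * (1 + π * c) := by
  obtain ⟨a, f₁, hf₁, hf₁', hf₁0, rfl⟩ := hfac
  have hf0 : π ^ a * f₁ ≠ 0 := mul_ne_zero (zpow_ne_zero a hπ0) hf₁0
  have hU := S34S1_U_quot hπ0 hπ hinv h hi a ⟨hf₁, hf₁'⟩ hf₁0
  have hg0 : σ (π ^ a * f₁) / (π ^ a * f₁) ≠ 0 :=
    div_ne_zero ((map_ne_zero σ).2 hf0) hf0
  obtain ⟨c, hc, e⟩ := S34S1_unit h' hU hg0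
  refine ⟨c, hc, ?_⟩
  have hσ'0 : σ' (π ^ a * f₁) ≠ 0 := (map_ne_zero σ').2 hf0
  rw [map_div₀, div_eq_iff hσ'0] at e
  rw [e]
  field_simp

/-- **STEP 1, abstract form, for the intersection of two rings.** -/
theorem S34S1_step1_inf {V₁ V₂ : Subring L} (hπ0 : π ≠ 0) {u : L}
    (h₁ : ∃ c ∈ V₁, u = 1 + π * c) (h₂ : ∃ c ∈ V₂, u = 1 + π * c) :
    ∃ c ∈ V₁ ⊓ V₂, u = 1 + π * c := by
  obtain ⟨c₁, hc₁, e₁⟩ := h₁
  obtain ⟨c₂, hc₂, e₂⟩ := h₂
  have : c₁ = c₂ := by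
    have h : π * c₁ = π * c₂ := by
      have := e₁.symm.trans e₂
      exact add_left_cancel this
    exact mul_left_cancel₀ hπ0 h
  exact ⟨c₁, ⟨hc₁, this ▸ hc₂⟩, e₁⟩

end Abstract

/-! ### The Gauss part -/

section Gauss

variable {O K κ : Type*} [CommRing O] [IsDomain O] [Field K] [Field κ] (D : GaussData O K κ)

/-- `s` preserves `O` and induces the identity on the residue field. -/
def S34S1_ResTriv (s : K →+* K) : Prop :=
  ∀ a : O, ∃ b : O, D.inc b = s (D.inc a) ∧ D.res b = D.res a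

variable {D}

/-- coefficientwise lift of the action of `s` to `O((q))`, with the same reduction. -/
theorem S34S1_exists_lift {s : K →+* K} (hs : S34S1_ResTriv D s) (a : LaurentSeries O) :
    ∃ a' : LaurentSeries O, D.incS a' = coeffMap s (D.incS a) ∧ D.redS a' = D.redS a := by
  have h : ∀ n, ∃ r : O, D.inc r = (coeffMap s (D.incS a)).coeff n := by
    intro n
    obtain ⟨b, hb, -⟩ := hs (a.coeff n)
    exact ⟨b, by rw [hb, coeffMap_coeff]; rfl⟩
  obtain ⟨a', ha'⟩ := Fermat.Agent.S18_helper25_GLUE.S18G_exists_coeffMap_eq D.inc _ h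
  refine ⟨a', ha', ?_⟩
  ext n
  obtain ⟨b, hb, hb'⟩ := hs (a.coeff n)
  have h1 : D.inc (a'.coeff n) = D.inc b := by
    have := congrArg (fun z => z.coeff n) ha'
    simp only [coeffMap_coeff] at this
    rw [this, hb]
    rfl
  have h2 : a'.coeff n = b := D.inc_injective h1
  show D.res (a'.coeff n) = D.res (a.coeff n)
  rw [h2, hb']

/-- the coefficientwise action preserves the Gauss valuation ring and the reduction. -/
theorem S34S1_gauss_redFun {s : K →+* K} (hs : S34S1_ResTriv D s) {x : LaurentSeries K}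
    (hx : x ∈ D.Vring) : coeffMap s x ∈ D.Vring ∧ D.redFun (coeffMap s x) = D.redFun x := by
  obtain ⟨a, b, hb, hab⟩ := hx
  obtain ⟨a', ha', hra⟩ := S34S1_exists_lift hs a
  obtain ⟨b', hb', hrb⟩ := S34S1_exists_lift hs b
  have hb'0 : D.redS b' ≠ 0 := by rw [hrb]; exact hb
  have e : D.incS b' * coeffMap s x = D.incS a' := by
    rw [ha', hb', ← map_mul, hab]
  refine ⟨⟨a', b', hb'0, e⟩, ?_⟩
  rw [D.redFun_eq hb'0 e, D.redFun_eq hb hab, hra, hrb]

/-- the coefficientwise action is trivial modulo `π` on the Gauss valuation ring. -/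
theorem S34S1_gauss_trivMod {s : K →+* K} (hs : S34S1_ResTriv D s) :
    S34S1_TrivMod D.πK D.Vring (coeffMap s) := by
  intro x hx
  obtain ⟨h1, h2⟩ := S34S1_gauss_redFun hs hx
  have h3 : D.redFun (coeffMap s x - x) = 0 := by
    rw [D.redFun_sub h1 hx, h2, sub_self]
  obtain ⟨y, hy, e⟩ := D.exists_eq_mul_of_redFun_eq_zero (D.Vring.sub_mem h1 hx) h3
  exact ⟨y, hy, by rw [← e]; ring⟩

/-- the same on `V ⊓ F` for a subfield `F` stable under the action and containing `π`. -/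
theorem S34S1_gauss_trivMod_inf {s : K →+* K} (hs : S34S1_ResTriv D s)
    (F : Subfield (LaurentSeries K)) (hF : ∀ x ∈ F, coeffMap s x ∈ F) (hπF : D.πK ∈ F) :
    S34S1_TrivMod D.πK (D.Vring ⊓ F.toSubring) (coeffMap s) := by
  intro x hx
  obtain ⟨hxV, hxF⟩ := Subring.mem_inf.1 hx
  have hxF' : x ∈ F := hxF
  obtain ⟨y, hy, e⟩ := S34S1_gauss_trivMod hs x hxV
  have h1 : D.πK * y ∈ F := by
    have : D.πK * y = coeffMap s x - x := by rw [e]; ring
    rw [this]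
    exact F.sub_mem (hF x hxF') hxF'
  have h2 : y = (D.πK)⁻¹ * (D.πK * y) := by
    rw [← mul_assoc, inv_mul_cancel₀ D.πK_ne_zero, one_mul]
  have hyF : y ∈ F := by
    rw [h2]
    exact F.mul_mem (F.inv_mem hπF) h1
  exact ⟨y, Subring.mem_inf.2 ⟨hy, hyF⟩, e⟩

/-- factorisation `f = π ^ a * f₁` in the fraction field of `O((q))`. -/
theorem S34S1_gauss_fac {f : LaurentSeries K} (hf : f ∈ D.fracField) (hf0 : f ≠ 0) :
    ∃ (a : ℤ) (f₁ : LaurentSeries K), f₁ ∈ D.Vring ∧ f₁⁻¹ ∈ D.Vring ∧ f₁ ≠ 0 ∧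
      f = D.πK ^ a * f₁ := by
  obtain ⟨z, u, hu, hu0, e⟩ := D.exists_zpow_mul hf0 hf
  refine ⟨z, u, hu, D.inv_mem_Vring hu hu0, ?_, e⟩
  rintro rfl
  exact hu0 D.redFun_zero

/-- the same inside a subfield `F ∋ π`. -/
theorem S34S1_gauss_fac_inf (F : Subfield (LaurentSeries K)) (hπF : D.πK ∈ F)
    {f : LaurentSeries K} (hf : f ∈ D.fracField) (hfF : f ∈ F) (hf0 : f ≠ 0) :
    ∃ (a : ℤ) (f₁ : LaurentSeries K), f₁ ∈ D.Vring ⊓ F.toSubring ∧
      f₁⁻¹ ∈ D.Vring ⊓ F.toSubring ∧ f₁ ≠ 0 ∧ f = D.πK ^ a * f₁ := by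
  obtain ⟨a, f₁, h1, h2, h3, e⟩ := S34S1_gauss_fac hf hf0
  have hf₁F : f₁ ∈ F := by
    have : f₁ = (D.πK ^ a)⁻¹ * f := by
      rw [e, ← mul_assoc, inv_mul_cancel₀ (zpow_ne_zero a D.πK_ne_zero), one_mul]
    rw [this]
    exact F.mul_mem (F.inv_mem (F.zpow_mem hπF a)) hfF
  exact ⟨a, f₁, Subring.mem_inf.2 ⟨h1, hf₁F⟩, Subring.mem_inf.2 ⟨h2, F.inv_mem hf₁F⟩, h3, e⟩

/-- **STEP 1 for the Gauss valuation ring.** -/
theorem S34S1_gauss_step1 {s' s si : K →+* K} (hinv : s (si (D.inc D.π)) = D.inc D.π)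
    (hs' : S34S1_ResTriv D s') (hs : S34S1_ResTriv D s) (hsi : S34S1_ResTriv D si)
    {f : LaurentSeries K} (hf : f ∈ D.fracField) (hf0 : f ≠ 0) :
    ∃ c ∈ D.Vring, coeffMap s' (coeffMap s f) * f
      = coeffMap s' f * coeffMap s f * (1 + D.πK * c) := by
  refine S34S1_step1 D.πK_ne_zero D.πK_mem_Vring ?_ (S34S1_gauss_trivMod hs')
    (S34S1_gauss_trivMod hs) (S34S1_gauss_trivMod hsi) (S34S1_gauss_fac hf hf0)
  show coeffMap s (coeffMap si (HahnSeries.C (D.inc D.π))) = HahnSeries.C (D.inc D.π)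
  rw [HahnSeries.C_apply, coeffMap_single, coeffMap_single, hinv]

/-- **STEP 1 for the Gauss valuation ring of a subfield `F`.** -/
theorem S34S1_gauss_step1_inf {s' s si : K →+* K} (hinv : s (si (D.inc D.π)) = D.inc D.π)
    (hs' : S34S1_ResTriv D s') (hs : S34S1_ResTriv D s) (hsi : S34S1_ResTriv D si)
    (F : Subfield (LaurentSeries K)) (hπF : D.πK ∈ F)
    (hF' : ∀ x ∈ F, coeffMap s' x ∈ F) (hF : ∀ x ∈ F, coeffMap s x ∈ F)
    (hFi : ∀ x ∈ F, coeffMap si x ∈ F)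
    {f : LaurentSeries K} (hf : f ∈ D.fracField) (hfF : f ∈ F) (hf0 : f ≠ 0) :
    ∃ c ∈ D.Vring ⊓ F.toSubring, coeffMap s' (coeffMap s f) * f
      = coeffMap s' f * coeffMap s f * (1 + D.πK * c) := by
  refine S34S1_step1 D.πK_ne_zero (Subring.mem_inf.2 ⟨D.πK_mem_Vring, hπF⟩) ?_
    (S34S1_gauss_trivMod_inf hs' F hF' hπF) (S34S1_gauss_trivMod_inf hs F hF hπF)
    (S34S1_gauss_trivMod_inf hsi F hFi hπF) (S34S1_gauss_fac_inf F hπF hf hfF hf0)
  show coeffMap s (coeffMap si (HahnSeries.C (D.inc D.π))) = HahnSeries.C (D.inc D.π)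
  rw [HahnSeries.C_apply, coeffMap_single, coeffMap_single, hinv]

/-! ### Roots -/

theorem S34S1_redFun_C (c : O) : D.redFun (HahnSeries.C (D.inc c)) = HahnSeries.C (D.res c) := by
  have h : (HahnSeries.C (D.inc c) : LaurentSeries K) = D.incS (HahnSeries.C c) := by
    rw [HahnSeries.C_apply, HahnSeries.C_apply]
    exact (coeffMap_single D.inc 0 c).symm
  rw [h, D.redFun_incS]
  show coeffMap D.res (HahnSeries.C c) = HahnSeries.C (D.res c)
  rw [HahnSeries.C_apply, HahnSeries.C_apply, coeffMap_single]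

theorem S34S1_C_mem_Vring (c : O) : (HahnSeries.C (D.inc c) : LaurentSeries K) ∈ D.Vring := by
  have h : (HahnSeries.C (D.inc c) : LaurentSeries K) = D.incS (HahnSeries.C c) := by
    rw [HahnSeries.C_apply, HahnSeries.C_apply]
    exact (coeffMap_single D.inc 0 c).symm
  rw [h]
  exact D.incS_mem_Vring _

/-- a Gauss unit whose `m`-th power reduces to a constant reduces to a constant. -/
theorem S34S1_gauss_root_unit (hsurj : Function.Surjective D.res) {m : ℕ} (hm : m ≠ 0)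
    {x : LaurentSeries K} (hx : x ∈ D.Vring) (c₀ : κ) (hc₀ : c₀ ≠ 0)
    (hxm : D.redFun (x ^ m) = HahnSeries.C c₀) :
    ∃ γ : O, D.res γ ≠ 0 ∧ ∃ z ∈ D.Vring, x = HahnSeries.C (D.inc γ) + D.πK * z := by
  rw [D.redFun_pow hx] at hxm
  -- the reduction is algebraic over the constants, hence constant
  have halg : IsAlgebraic κ (D.redFun x) := by
    refine ⟨Polynomial.X ^ m - Polynomial.C c₀, ?_, ?_⟩
    · intro h0
      have := congrArg Polynomial.natDegree h0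
      rw [Polynomial.natDegree_X_pow_sub_C, Polynomial.natDegree_zero] at this
      exact hm this
    · rw [map_sub, map_pow, Polynomial.aeval_X, Polynomial.aeval_C, hxm,
        algebraMap_laurentSeries_eq_single, HahnSeries.C_apply, sub_self]
  obtain ⟨γ₀, hγ₀⟩ := mem_range_C_of_isAlgebraic halg
  have hγ₀0 : γ₀ ≠ 0 := by
    rintro rfl
    rw [hγ₀, map_zero, zero_pow hm] at hxm
    exact hc₀ (HahnSeries.C_injective (by rw [← hxm, map_zero]))
  obtain ⟨γ, rfl⟩ := hsurj γ₀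
  refine ⟨γ, hγ₀0, ?_⟩
  have h0 : D.redFun (x - HahnSeries.C (D.inc γ)) = 0 := by
    rw [D.redFun_sub hx (S34S1_C_mem_Vring γ), S34S1_redFun_C, hγ₀, sub_self]
  obtain ⟨z, hz, e⟩ := D.exists_eq_mul_of_redFun_eq_zero
    (D.Vring.sub_mem hx (S34S1_C_mem_Vring γ)) h0
  exact ⟨z, hz, by rw [← e]; ring⟩

/-- **Roots.**  If `h ^ m = c * u` with `u ≡ 1` modulo `π` and `c = π ^ n * c₀` a constant
(`c₀` a unit of `O`), then `h = π ^ a * (γ + π z)` with `m * a = n`, `γ` a unit of `O`,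
`z ∈ V`. -/
theorem S34S1_gauss_root (hsurj : Function.Surjective D.res) {m : ℕ} (hm : m ≠ 0)
    {h u : LaurentSeries K} (hh : h ∈ D.fracField) (hh0 : h ≠ 0)
    (hu : ∃ y ∈ D.Vring, u = 1 + D.πK * y) (n : ℤ) (c₀ : O) (hc₀ : D.res c₀ ≠ 0)
    (hhm : h ^ m = D.πK ^ n * HahnSeries.C (D.inc c₀) * u) :
    ∃ a : ℤ, (m : ℤ) * a = n ∧ ∃ γ : O, D.res γ ≠ 0 ∧ ∃ z ∈ D.Vring,
      h = D.πK ^ a * (HahnSeries.C (D.inc γ) + D.πK * z) := by
  obtain ⟨y, hy, rfl⟩ := hu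
  obtain ⟨a, x, hx, hx', hx0, rfl⟩ := S34S1_gauss_fac hh hh0
  have hπ0 : D.πK ≠ 0 := D.πK_ne_zero
  -- reductions
  have hredu : D.redFun (1 + D.πK * y) = 1 := by
    rw [D.redFun_add (one_mem _) (mul_mem D.πK_mem_Vring hy), D.redFun_one, D.redFun_πK_mul hy,
      add_zero]
  have hredx : D.redFun x ≠ 0 := by
    intro h0
    have h1 := D.redFun_mul hx hx'
    rw [mul_inv_cancel₀ hx0, D.redFun_one, h0, zero_mul] at h1
    exact one_ne_zero h1
  set w : LaurentSeries K := HahnSeries.C (D.inc c₀) * (1 + D.πK * y) with hw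
  have hwV : w ∈ D.Vring :=
    mul_mem (S34S1_C_mem_Vring c₀) (add_mem (one_mem _) (mul_mem D.πK_mem_Vring hy))
  have hredw : D.redFun w = HahnSeries.C (D.res c₀) := by
    rw [hw, D.redFun_mul (S34S1_C_mem_Vring c₀)
      (add_mem (one_mem _) (mul_mem D.πK_mem_Vring hy)), hredu, mul_one, S34S1_redFun_C]
  have hredw0 : D.redFun w ≠ 0 := by
    rw [hredw]
    intro h0
    exact hc₀ (HahnSeries.C_injective (by rw [h0, map_zero]))
  -- `π ^ (m a) * x ^ m = π ^ n * w`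
  have hkey : D.πK ^ ((m : ℤ) * a) * x ^ m = D.πK ^ n * w := by
    have e1 : (D.πK ^ a * x) ^ m = D.πK ^ ((m : ℤ) * a) * x ^ m := by
      rw [mul_pow, ← zpow_natCast (D.πK ^ a) m, ← zpow_mul, mul_comm a (m : ℤ)]
    rw [← e1, hhm, hw, mul_assoc]
  have hxm : D.redFun (x ^ m) ≠ 0 := by
    rw [D.redFun_pow hx]
    exact pow_ne_zero m hredx
  have hma : (m : ℤ) * a = n := by
    by_contra hne
    rcases lt_or_gt_of_ne hne with hlt | hgt
    · -- `x ^ m = π ^ (k + 1) * w`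
      obtain ⟨k, hk⟩ := Int.eq_ofNat_of_zero_le (show 0 ≤ n - (m : ℤ) * a - 1 by omega)
      have hn : n = (m : ℤ) * a + ((k + 1 : ℕ) : ℤ) := by push_cast; omega
      have e2 : x ^ m = D.πK * (D.πK ^ k * w) := by
        rw [hn, zpow_add₀ hπ0, mul_assoc] at hkey
        have h3 := mul_left_cancel₀ (zpow_ne_zero _ hπ0) hkey
        rw [h3, zpow_natCast, pow_succ']
        ring
      apply hxm
      rw [e2]
      exact D.redFun_πK_mul (mul_mem (pow_mem D.πK_mem_Vring k) hwV)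
    · obtain ⟨k, hk⟩ := Int.eq_ofNat_of_zero_le (show 0 ≤ (m : ℤ) * a - n - 1 by omega)
      have hn : (m : ℤ) * a = n + ((k + 1 : ℕ) : ℤ) := by push_cast; omega
      have e2 : w = D.πK * (D.πK ^ k * x ^ m) := by
        rw [hn, zpow_add₀ hπ0, mul_assoc] at hkey
        have h3 := mul_left_cancel₀ (zpow_ne_zero _ hπ0) hkey
        rw [← h3, zpow_natCast, pow_succ']
        ring
      apply hredw0
      rw [e2]
      exact D.redFun_πK_mul (mul_mem (pow_mem D.πK_mem_Vring k) (pow_mem hx m))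
  rw [hma] at hkey
  have hkey' : x ^ m = w := mul_left_cancel₀ (zpow_ne_zero _ hπ0) hkey
  obtain ⟨γ, hγ, z, hz, e⟩ := S34S1_gauss_root_unit hsurj hm hx (D.res c₀) hc₀
    (by rw [hkey', hredw])
  exact ⟨a, hma, γ, hγ, z, hz, by rw [e]⟩

end Gauss

end Fermat.Agent.S34_helper6_STEP1
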