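import Mathlib
import Fermat.Agent.S34_helper6_STEP1
import Fermat.Agent.S34_helper5_K0

/-!
# S34, piece P6c (helper6): STEP 1 for the concrete carriers

`A` a valuation subring of `ℚ̄`, `K1` a Galois-stable level with `O1 = A ∩ K1` a discrete
valuation ring, `τ', τ` in the inertia group of `A`, acting coefficientwise on `K1((q))` through
`S34K0_restrict` (helper5).  For the Gauss valuation ring `V1 = S18K_V A K1 N` of
`F1 = S18K_F1 K1 N`:

* `S34S1K_trivMod`  : `τ x - x ∈ π V1` for `x ∈ V1`;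
* `S34S1K_step1`    : `τ'τ f * f = τ' f * τ f * (1 + π c)`, `c ∈ V1`, for every `f ≠ 0` in `F1`;
* `S34S1K_fac`      : `f = π ^ a * f₁`, `f₁` a unit of `V1`;
* `S34S1K_root`     : `h ^ m = π ^ n * c₀ * u`, `u ≡ 1`  ⟹  `h = π ^ a * (γ + π z)`, `m a = n`.
-/

set_option autoImplicit false
set_option linter.unusedSectionVars false
set_option linter.style.haveILetI false

open HahnSeries IntermediateField ModularCurve
open Fermat.Agent.S18_helper13_GAUSS Fermat.Agent.S18_helper25_COREDefs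
  Fermat.Agent.S34_helper5_K0 Fermat.Agent.S34_helper6_STEP1

noncomputable section

namespace Fermat.Agent.S34_helper6_STEP1K

local notation "Qb" => AlgebraicClosure ℚ
local notation "GQ" => (AlgebraicClosure ℚ ≃ₐ[ℚ] AlgebraicClosure ℚ)

variable (A : ValuationSubring Qb) (K1 : IntermediateField ℚ Qb)
  (hstab : ∀ σ : GQ, ∀ x ∈ K1, σ x ∈ K1)

/-- the coefficientwise action of `σ` on `K1((q))`. -/
def S34S1K_act (σ : GQ) : LaurentSeries K1 →+* LaurentSeries K1 :=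
  coeffMap ((S34K0_restrict K1 hstab σ : K1 ≃ₐ[ℚ] K1) : K1 →+* K1)

theorem S34S1K_act_coeff (σ : GQ) (x : LaurentSeries K1) (n : ℤ) :
    (((S34S1K_act K1 hstab σ x).coeff n : K1) : Qb) = σ ((x.coeff n : K1) : Qb) := rfl

theorem S34S1K_act_act (σ τ : GQ) (x : LaurentSeries K1) :
    S34S1K_act K1 hstab σ (S34S1K_act K1 hstab τ x) = S34S1K_act K1 hstab (σ * τ) x := by
  ext n
  rfl

theorem S34S1K_act_one (x : LaurentSeries K1) : S34S1K_act K1 hstab 1 x = x := by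
  ext n
  rfl

/-- compatibility with the coefficientwise action over `ℚ̄`. -/
theorem S34S1K_act_bar (σ : GQ) (x : LaurentSeries K1) :
    coeffMap (algebraMap K1 Qb) (S34S1K_act K1 hstab σ x)
      = coeffMap (σ : Qb →+* Qb) (coeffMap (algebraMap K1 Qb) x) := by
  ext n
  rfl

/-- the action preserves the function field. -/
theorem S34S1K_act_mem_F1 (N : ℕ) (σ : GQ) {x : LaurentSeries K1} (hx : x ∈ S18K_F1 K1 N) :
    S34S1K_act K1 hstab σ x ∈ S18K_F1 K1 N :=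
  Fermat.Agent.S18_helper25_GLUE.S18G_coeffMap_mem _ N hx

/-- `K1` consists of fractions of `O1`. -/
theorem S34S1K_hK [IsDiscreteValuationRing (S18K_O1 A K1)] (c : K1) :
    ∃ a b : S18K_O1 A K1, b ≠ 0 ∧ (S18K_D A K1).inc b * c = (S18K_D A K1).inc a := by
  rcases A.mem_or_inv_mem (c : Qb) with h | h
  · exact ⟨⟨c, h⟩, 1, one_ne_zero, by rw [map_one, one_mul]; rfl⟩
  · have hc : (((c⁻¹ : K1) : K1) : Qb) ∈ A := by
      have : (((c⁻¹ : K1) : K1) : Qb) = ((c : K1) : Qb)⁻¹ := by simp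
      rw [this]; exact h
    by_cases hc0 : c = 0
    · exact ⟨0, 1, one_ne_zero, by rw [hc0, mul_zero, map_zero]⟩
    · refine ⟨1, ⟨c⁻¹, hc⟩, ?_, ?_⟩
      · intro h0
        have := congrArg Subtype.val h0
        exact inv_ne_zero hc0 this
      · rw [map_one]
        show c⁻¹ * c = 1
        exact inv_mul_cancel₀ hc0

variable [IsDiscreteValuationRing (S18K_O1 A K1)]

theorem S34S1K_mem_fracField (N : ℕ) {x : LaurentSeries K1} (hx : x ∈ S18K_F1 K1 N) :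
    x ∈ (S18K_D A K1).fracField :=
  (S18K_D A K1).modularFunctionFieldFullC_le_fracField (S34S1K_hK A K1) N x hx

theorem S34S1K_π_mem_F1 (N : ℕ) : (S18K_D A K1).πK ∈ S18K_F1 K1 N := by
  show (S18K_D A K1).πK ∈ modularFunctionFieldFullC K1 N
  have h : (S18K_D A K1).πK
      = algebraMap K1 (LaurentSeries K1) ((S18K_D A K1).inc (S18K_D A K1).π) := by
    rw [algebraMap_laurentSeries_eq_single]
    rfl
  rw [h]
  exact IntermediateField.algebraMap_mem _ _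

/-- inertia preserves `O1` and is trivial on the residue field. -/
theorem S34S1K_resTriv (τ : GQ) (hτ : τ ∈ A.inertiaSubgroupIn ℚ) :
    S34S1_ResTriv (S18K_D A K1) ((S34K0_restrict K1 hstab τ : K1 ≃ₐ[ℚ] K1) : K1 →+* K1) := by
  intro a
  obtain ⟨h, hres⟩ := S34K0_restrict_inertia A K1 hstab τ hτ (a : K1) a.2
  exact ⟨⟨_, h⟩, rfl, hres⟩

/-- **inertia is trivial modulo `π` on the Gauss valuation ring of `F1`.** -/
theorem S34S1K_trivMod (N : ℕ) (τ : GQ) (hτ : τ ∈ A.inertiaSubgroupIn ℚ) :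
    S34S1_TrivMod (S18K_π A K1) (S18K_V A K1 N) (S34S1K_act K1 hstab τ) :=
  S34S1_gauss_trivMod_inf (S34S1K_resTriv A K1 hstab τ hτ) (S18K_F1 K1 N)
    (fun _ hx => S34S1K_act_mem_F1 K1 hstab N τ hx) (S34S1K_π_mem_F1 A K1 N)

/-- factorisation in `F1`. -/
theorem S34S1K_fac (N : ℕ) {f : LaurentSeries K1} (hf : f ∈ S18K_F1 K1 N) (hf0 : f ≠ 0) :
    ∃ (a : ℤ) (f₁ : LaurentSeries K1), f₁ ∈ S18K_V A K1 N ∧ f₁⁻¹ ∈ S18K_V A K1 N ∧ f₁ ≠ 0 ∧
      f = S18K_π A K1 ^ a * f₁ :=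
  S34S1_gauss_fac_inf (S18K_F1 K1 N) (S34S1K_π_mem_F1 A K1 N)
    (S34S1K_mem_fracField A K1 N hf) hf hf0

/-- **STEP 1 at the Gauss valuation**: for `τ', τ` in the inertia group and `f ≠ 0` in `F1`,
`τ'τ f * f = τ' f * τ f * (1 + π c)` with `c ∈ V1`. -/
theorem S34S1K_step1 (N : ℕ) (τ' τ : GQ) (hτ' : τ' ∈ A.inertiaSubgroupIn ℚ)
    (hτ : τ ∈ A.inertiaSubgroupIn ℚ) {f : LaurentSeries K1} (hf : f ∈ S18K_F1 K1 N)
    (hf0 : f ≠ 0) :
    ∃ c ∈ S18K_V A K1 N,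
      S34S1K_act K1 hstab τ' (S34S1K_act K1 hstab τ f) * f
        = S34S1K_act K1 hstab τ' f * S34S1K_act K1 hstab τ f * (1 + S18K_π A K1 * c) := by
  have hτi : τ⁻¹ ∈ A.inertiaSubgroupIn ℚ := inv_mem hτ
  refine S34S1_gauss_step1_inf (si := ((S34K0_restrict K1 hstab τ⁻¹ : K1 ≃ₐ[ℚ] K1) : K1 →+* K1))
    ?_ (S34S1K_resTriv A K1 hstab τ' hτ') (S34S1K_resTriv A K1 hstab τ hτ)
    (S34S1K_resTriv A K1 hstab τ⁻¹ hτi) (S18K_F1 K1 N) (S34S1K_π_mem_F1 A K1 N)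
    (fun _ hx => S34S1K_act_mem_F1 K1 hstab N τ' hx)
    (fun _ hx => S34S1K_act_mem_F1 K1 hstab N τ hx)
    (fun _ hx => S34S1K_act_mem_F1 K1 hstab N τ⁻¹ hx)
    (S34S1K_mem_fracField A K1 N hf) hf hf0
  apply Subtype.ext
  show τ (τ⁻¹ _) = _
  exact τ.apply_symm_apply _

/-- **Roots at the Gauss valuation.** -/
theorem S34S1K_root (hsurj : Function.Surjective (S18K_res A K1)) (N : ℕ) {m : ℕ} (hm : m ≠ 0)
    {h u : LaurentSeries K1} (hh : h ∈ S18K_F1 K1 N) (hh0 : h ≠ 0)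
    (hu : ∃ y ∈ S18K_V A K1 N, u = 1 + S18K_π A K1 * y) (n : ℤ) (c₀ : S18K_O1 A K1)
    (hc₀ : IsUnit c₀)
    (hhm : h ^ m = S18K_π A K1 ^ n * HahnSeries.C (c₀ : K1) * u) :
    ∃ a : ℤ, (m : ℤ) * a = n ∧ ∃ γ : S18K_O1 A K1, IsUnit γ ∧ ∃ z ∈ S18K_V A K1 N,
      h = S18K_π A K1 ^ a * (HahnSeries.C (γ : K1) + S18K_π A K1 * z) := by
  have hunit : ∀ c : S18K_O1 A K1, IsUnit c ↔ (S18K_D A K1).res c ≠ 0 := by
    intro c
    show IsUnit c ↔ S18K_res A K1 c ≠ 0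
    rw [Ne, S18K_res_eq_zero_iff, IsLocalRing.mem_maximalIdeal, mem_nonunits_iff, not_not]
  obtain ⟨y, hy, rfl⟩ := hu
  obtain ⟨a, hma, γ, hγ, z, hz, e⟩ := S34S1_gauss_root (D := S18K_D A K1) hsurj hm
    (S34S1K_mem_fracField A K1 N hh) hh0 ⟨y, hy.1, rfl⟩ n c₀ ((hunit c₀).1 hc₀) hhm
  refine ⟨a, hma, γ, (hunit γ).2 hγ, z, ⟨hz, ?_⟩, e⟩
  -- `z ∈ F1`
  have hπF := S34S1K_π_mem_F1 A K1 N
  have hπ0 : (S18K_D A K1).πK ≠ 0 := (S18K_D A K1).πK_ne_zero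
  have hCF : (HahnSeries.C ((γ : K1)) : LaurentSeries K1) ∈ S18K_F1 K1 N := by
    show (HahnSeries.C ((γ : K1)) : LaurentSeries K1) ∈ modularFunctionFieldFullC K1 N
    have : (HahnSeries.C ((γ : K1)) : LaurentSeries K1)
        = algebraMap K1 (LaurentSeries K1) (γ : K1) := by
      rw [algebraMap_laurentSeries_eq_single]
      rfl
    rw [this]
    exact IntermediateField.algebraMap_mem _ _
  have hz' : z = ((S18K_D A K1).πK)⁻¹ *
      (((S18K_D A K1).πK ^ a)⁻¹ * h - HahnSeries.C ((γ : K1))) := by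
    have e' : h = (S18K_D A K1).πK ^ a * (HahnSeries.C (γ : K1) + (S18K_D A K1).πK * z) := e
    rw [e', ← mul_assoc, inv_mul_cancel₀ (zpow_ne_zero a hπ0), one_mul, add_sub_cancel_left,
      ← mul_assoc, inv_mul_cancel₀ hπ0, one_mul]
  show z ∈ S18K_F1 K1 N
  rw [hz']
  exact (S18K_F1 K1 N).mul_mem ((S18K_F1 K1 N).inv_mem hπF)
    ((S18K_F1 K1 N).sub_mem ((S18K_F1 K1 N).mul_mem
      ((S18K_F1 K1 N).inv_mem ((S18K_F1 K1 N).zpow_mem hπF a)) hh) hCF)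

end Fermat.Agent.S34_helper6_STEP1K
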