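import Mathlib
import Fermat.Agent.S34_helper6_STEP1K
import Fermat.Agent.S34_helper20_V0

/-!
# S34, piece P6c (helper6): STEP 1 at the second valuation ring `V2 = w(V1)`

`V2 := S34V0_image … V1` (helper20), the image of the Gauss valuation ring `V1` of `F1` under
the Atkin–Lehner involution `w`.  Everything known at `V1` is transported along `w`:

* `S34S1V_wL_coeffMap` : `w` commutes with the coefficientwise action of a field automorphism;
* `S34S1V_trivMod`     : `TrivMod π V (coeffMap s) → TrivMod π (w V) (coeffMap s)`;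
* `S34S1V_fac`         : factorisation `f = π ^ a * f₁`, `f₁` a unit of `w V`;
* concrete carriers: `S34S1V_inert` (`= S34K_Inert` of the contracts for this `V2`),
  `S34S1V_facK`, `S34S1V_step1K`, `S34S1V_rootK`, and the combined statement `S34S1V_both`.
-/

set_option autoImplicit false
set_option linter.unusedSectionVars false
set_option linter.unusedVariables false
set_option linter.style.haveILetI false

open HahnSeries IntermediateField ModularCurve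
open Fermat.Agent.S24
open Fermat.Agent.S18_helper13_GAUSS Fermat.Agent.S18_helper25_COREDefs
  Fermat.Agent.S34_helper5_K0 Fermat.Agent.S34_helper6_STEP1 Fermat.Agent.S34_helper6_STEP1K
  Fermat.Agent.S34_helper20_WQ Fermat.Agent.S34_helper20_V0

noncomputable section

namespace Fermat.Agent.S34_helper6_STEP1V2

local notation "Qb" => AlgebraicClosure ℚ
local notation "GQ" => (AlgebraicClosure ℚ ≃ₐ[ℚ] AlgebraicClosure ℚ)

/-! ### `w` commutes with the coefficientwise action -/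

section Generic

variable {K1 : Type*} [Field K1] (emb : K1 →+* Kbar) (q N' N : ℕ) [NeZero N'] [NeZero N]
  (hq : q.Prime) (hqN : ¬ q ∣ N') (hN : N = q * N')

/-- the coefficientwise action of a ring endomorphism of `K1` on `F`. -/
def S34S1V_cm (s : K1 →+* K1) :
    modularFunctionFieldFullC K1 N →+* modularFunctionFieldFullC K1 N where
  toFun x := ⟨coeffMap s (x : LaurentSeries K1),
    Fermat.Agent.S18_helper25_GLUE.S18G_coeffMap_mem s N x.2⟩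
  map_one' := Subtype.ext (map_one (coeffMap s))
  map_mul' x y := Subtype.ext (map_mul (coeffMap s) _ _)
  map_zero' := Subtype.ext (map_zero (coeffMap s))
  map_add' x y := Subtype.ext (map_add (coeffMap s) _ _)

theorem S34S1V_cm_coe (s : K1 →+* K1) (x : modularFunctionFieldFullC K1 N) :
    ((S34S1V_cm N s x : modularFunctionFieldFullC K1 N) : LaurentSeries K1)
      = coeffMap s (x : LaurentSeries K1) := rfl

theorem S34S1V_coeffMap_C (s : K1 →+* K1) (c : K1) :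
    coeffMap s (HahnSeries.C c : LaurentSeries K1) = HahnSeries.C (s c) := by
  rw [HahnSeries.C_apply, HahnSeries.C_apply, coeffMap_single]

/-- **`w` commutes with the coefficientwise action** of a pair of mutually inverse ring
endomorphisms `s`, `si` of `K1`. -/
theorem S34S1V_w_cm (s si : K1 →+* K1) (hsi : ∀ c, si (s c) = c)
    (y : modularFunctionFieldFullC K1 N) :
    S34V0_w emb q N' N hq hqN hN (S34S1V_cm N s y)
      = S34S1V_cm N s (S34V0_w emb q N' N hq hqN hN y) := by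
  have hcc : ∀ x : LaurentSeries K1, coeffMap si (coeffMap s x) = x := by
    intro x
    rw [coeffMap_coeffMap]
    have : si.comp s = RingHom.id K1 := RingHom.ext hsi
    rw [this, coeffMap_id]
  have hs_inj : Function.Injective (S34S1V_cm (K1 := K1) N si) := RingHom.injective _
  -- `f := si ∘ w ∘ s` is `w`
  have key := S34V0_w_unique emb q N' N hq hqN hN
    (((S34S1V_cm N si).comp
      ((S34V0_w emb q N' N hq hqN hN : modularFunctionFieldFullC K1 N →+*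
        modularFunctionFieldFullC K1 N))).comp (S34S1V_cm N s)) ?_ ?_ y
  · -- apply `s` on both sides
    have h1 : S34S1V_cm N si (S34V0_w emb q N' N hq hqN hN (S34S1V_cm N s y))
        = S34V0_w emb q N' N hq hqN hN y := key
    have h2 : S34S1V_cm N si (S34S1V_cm N s (S34V0_w emb q N' N hq hqN hN y))
        = S34V0_w emb q N' N hq hqN hN y := Subtype.ext (hcc _)
    exact hs_inj (h1.trans h2.symm)
  · intro c hc
    have e1 : S34S1V_cm N s ⟨HahnSeries.C c, hc⟩ = ⟨HahnSeries.C (s c), S34V0_C_mem N (s c)⟩ :=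
      Subtype.ext (S34S1V_coeffMap_C s c)
    show S34S1V_cm N si (S34V0_w emb q N' N hq hqN hN (S34S1V_cm N s ⟨HahnSeries.C c, hc⟩)) = _
    rw [e1, S34V0_w_C]
    apply Subtype.ext
    show coeffMap si (HahnSeries.C (s c)) = HahnSeries.C c
    rw [S34S1V_coeffMap_C, hsi]
  · intro d _ hd _ hm
    have e1 : S34S1V_cm N s ⟨qExpand K1 d (jqModC K1), hm⟩ = ⟨qExpand K1 d (jqModC K1), hm⟩ :=
      Subtype.ext (Fermat.Agent.S18_helper25_GLUE.S18G_coeffMap_gen s d)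
    show ((S34S1V_cm N si (S34V0_w emb q N' N hq hqN hN
      (S34S1V_cm N s ⟨qExpand K1 d (jqModC K1), hm⟩)) : modularFunctionFieldFullC K1 N) :
        LaurentSeries K1) = _
    rw [e1, S34S1V_cm_coe, S34V0_w_gen emb q N' N hq hqN hN d hd hm]
    exact Fermat.Agent.S18_helper25_GLUE.S18G_coeffMap_gen si (S34WQ_dual q d)

/-- the same for the elementwise map `wL`. -/
theorem S34S1V_wL_coeffMap (s si : K1 →+* K1) (hsi : ∀ c, si (s c) = c)
    {y : LaurentSeries K1} (hy : y ∈ modularFunctionFieldFullC K1 N) :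
    S34V0_wL emb q N' N hq hqN hN (coeffMap s y)
      = coeffMap s (S34V0_wL emb q N' N hq hqN hN y) := by
  have hsy : coeffMap s y ∈ modularFunctionFieldFullC K1 N :=
    Fermat.Agent.S18_helper25_GLUE.S18G_coeffMap_mem s N hy
  rw [S34V0_wL_of_mem emb q N' N hq hqN hN hsy, S34V0_wL_of_mem emb q N' N hq hqN hN hy]
  have h := S34S1V_w_cm emb q N' N hq hqN hN s si hsi ⟨y, hy⟩
  exact congrArg Subtype.val h

/-! ### Transport of the facts about a ring `V ⊆ F` to `w V` -/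

variable {V : Subring (LaurentSeries K1)}

theorem S34S1V_wL_zpow_C (c : K1) (a : ℤ) :
    S34V0_wL emb q N' N hq hqN hN ((HahnSeries.C c : LaurentSeries K1) ^ a)
      = (HahnSeries.C c : LaurentSeries K1) ^ a := by
  rw [← map_zpow₀, S34V0_wL_C]

/-- transport of `TrivMod`. -/
theorem S34S1V_trivMod (c₀ : K1)
    (hV : ∀ x ∈ V, x ∈ modularFunctionFieldFullC K1 N)
    (s si : K1 →+* K1) (hsi : ∀ c, si (s c) = c)
    (h : S34S1_TrivMod (HahnSeries.C c₀) V (coeffMap s)) :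
    S34S1_TrivMod (HahnSeries.C c₀) (S34V0_image emb q N' N hq hqN hN V) (coeffMap s) := by
  rintro x ⟨hxF, hx⟩
  obtain ⟨c, hc, e⟩ := h _ hx
  have hcF := hV c hc
  refine ⟨S34V0_wL emb q N' N hq hqN hN c,
    S34V0_wL_mem_image emb q N' N hq hqN hN hcF hc, ?_⟩
  -- apply `w` to `s (w x) = w x + π c`
  have h1 := congrArg (S34V0_wL emb q N' N hq hqN hN) e
  rw [← S34S1V_wL_coeffMap emb q N' N hq hqN hN s si hsi hxF,
    S34V0_wL_wL emb q N' N hq hqN hN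
      (Fermat.Agent.S18_helper25_GLUE.S18G_coeffMap_mem s N hxF),
    S34V0_wL_add emb q N' N hq hqN hN (S34V0_wL_mem emb q N' N hq hqN hN x)
      (mul_mem (S34V0_C_mem N c₀) hcF),
    S34V0_wL_wL emb q N' N hq hqN hN hxF,
    S34V0_wL_mul emb q N' N hq hqN hN (S34V0_C_mem N c₀) hcF, S34V0_wL_C] at h1
  exact h1

/-- transport of the factorisation. -/
theorem S34S1V_fac (c₀ : K1)
    (hV : ∀ x ∈ V, x ∈ modularFunctionFieldFullC K1 N)
    (hfac : ∀ f ∈ modularFunctionFieldFullC K1 N, f ≠ 0 →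
      ∃ (a : ℤ) (f₁ : LaurentSeries K1), f₁ ∈ V ∧ f₁⁻¹ ∈ V ∧ f₁ ≠ 0 ∧
        f = (HahnSeries.C c₀ : LaurentSeries K1) ^ a * f₁)
    {f : LaurentSeries K1} (hf : f ∈ modularFunctionFieldFullC K1 N) (hf0 : f ≠ 0) :
    ∃ (a : ℤ) (f₁ : LaurentSeries K1), f₁ ∈ S34V0_image emb q N' N hq hqN hN V ∧
      f₁⁻¹ ∈ S34V0_image emb q N' N hq hqN hN V ∧ f₁ ≠ 0 ∧
        f = (HahnSeries.C c₀ : LaurentSeries K1) ^ a * f₁ := by
  have hwf0 : S34V0_wL emb q N' N hq hqN hN f ≠ 0 := by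
    intro h0
    have := S34V0_wL_wL emb q N' N hq hqN hN hf
    rw [h0, S34V0_wL_zero] at this
    exact hf0 this.symm
  obtain ⟨a, g, hg, hg', hg0, e⟩ := hfac _ (S34V0_wL_mem emb q N' N hq hqN hN f) hwf0
  have hgF := hV g hg
  have hCa : (HahnSeries.C c₀ : LaurentSeries K1) ^ a ∈ modularFunctionFieldFullC K1 N :=
    zpow_mem (S34V0_C_mem N c₀) a
  refine ⟨a, S34V0_wL emb q N' N hq hqN hN g,
    S34V0_wL_mem_image emb q N' N hq hqN hN hgF hg, ?_, ?_, ?_⟩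
  · rw [← S34V0_wL_inv emb q N' N hq hqN hN hgF]
    exact S34V0_wL_mem_image emb q N' N hq hqN hN (inv_mem hgF) hg'
  · intro h0
    have := S34V0_wL_wL emb q N' N hq hqN hN hgF
    rw [h0, S34V0_wL_zero] at this
    exact hg0 this.symm
  · have h1 := congrArg (S34V0_wL emb q N' N hq hqN hN) e
    rw [S34V0_wL_wL emb q N' N hq hqN hN hf,
      S34V0_wL_mul emb q N' N hq hqN hN hCa hgF, S34S1V_wL_zpow_C] at h1
    exact h1

/-- transport of the root property. -/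
theorem S34S1V_root (c₀ : K1)
    (hV : ∀ x ∈ V, x ∈ modularFunctionFieldFullC K1 N)
    (P : K1 → Prop)
    (hroot : ∀ (m : ℕ), m ≠ 0 → ∀ x ∈ V, ∀ c : K1, P c →
      (∃ y ∈ V, x ^ m = HahnSeries.C c * (1 + HahnSeries.C c₀ * y)) →
      ∃ γ : K1, P γ ∧ ∃ z ∈ V, x = HahnSeries.C γ + HahnSeries.C c₀ * z)
    (m : ℕ) (hm : m ≠ 0) {x : LaurentSeries K1}
    (hx : x ∈ S34V0_image emb q N' N hq hqN hN V) (c : K1) (hc : P c)
    (hxm : ∃ y ∈ S34V0_image emb q N' N hq hqN hN V,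
      x ^ m = HahnSeries.C c * (1 + HahnSeries.C c₀ * y)) :
    ∃ γ : K1, P γ ∧ ∃ z ∈ S34V0_image emb q N' N hq hqN hN V,
      x = HahnSeries.C γ + HahnSeries.C c₀ * z := by
  obtain ⟨hxF, hxV⟩ := hx
  obtain ⟨y, ⟨hyF, hyV⟩, e⟩ := hxm
  have h1 := congrArg (S34V0_wL emb q N' N hq hqN hN) e
  rw [S34V0_wL_pow emb q N' N hq hqN hN hxF,
    S34V0_wL_mul emb q N' N hq hqN hN (S34V0_C_mem N c)
      (add_mem (one_mem _) (mul_mem (S34V0_C_mem N c₀) hyF)),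
    S34V0_wL_C,
    S34V0_wL_add emb q N' N hq hqN hN (one_mem _) (mul_mem (S34V0_C_mem N c₀) hyF),
    S34V0_wL_one, S34V0_wL_mul emb q N' N hq hqN hN (S34V0_C_mem N c₀) hyF, S34V0_wL_C] at h1
  obtain ⟨γ, hγ, z, hz, e2⟩ := hroot m hm _ hxV c hc ⟨_, hyV, h1⟩
  have hzF := hV z hz
  refine ⟨γ, hγ, S34V0_wL emb q N' N hq hqN hN z,
    S34V0_wL_mem_image emb q N' N hq hqN hN hzF hz, ?_⟩
  have h2 := congrArg (S34V0_wL emb q N' N hq hqN hN) e2
  rw [S34V0_wL_wL emb q N' N hq hqN hN hxF,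
    S34V0_wL_add emb q N' N hq hqN hN (S34V0_C_mem N γ) (mul_mem (S34V0_C_mem N c₀) hzF),
    S34V0_wL_C, S34V0_wL_mul emb q N' N hq hqN hN (S34V0_C_mem N c₀) hzF, S34V0_wL_C] at h2
  exact h2

/-- transport of the full root property. -/
theorem S34S1V_rootF (c₀ : K1)
    (hV : ∀ x ∈ V, x ∈ modularFunctionFieldFullC K1 N)
    (P : K1 → Prop)
    (hroot : ∀ (m : ℕ), m ≠ 0 → ∀ h ∈ modularFunctionFieldFullC K1 N, h ≠ 0 →
      ∀ (n : ℤ) (c : K1), P c →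
      (∃ y ∈ V, h ^ m = (HahnSeries.C c₀ : LaurentSeries K1) ^ n * HahnSeries.C c
        * (1 + HahnSeries.C c₀ * y)) →
      ∃ a : ℤ, (m : ℤ) * a = n ∧ ∃ γ : K1, P γ ∧ ∃ z ∈ V,
        h = (HahnSeries.C c₀ : LaurentSeries K1) ^ a * (HahnSeries.C γ + HahnSeries.C c₀ * z))
    (m : ℕ) (hm : m ≠ 0) {h : LaurentSeries K1} (hh : h ∈ modularFunctionFieldFullC K1 N)
    (hh0 : h ≠ 0) (n : ℤ) (c : K1) (hc : P c)
    (hhm : ∃ y ∈ S34V0_image emb q N' N hq hqN hN V,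
      h ^ m = (HahnSeries.C c₀ : LaurentSeries K1) ^ n * HahnSeries.C c
        * (1 + HahnSeries.C c₀ * y)) :
    ∃ a : ℤ, (m : ℤ) * a = n ∧ ∃ γ : K1, P γ ∧ ∃ z ∈ S34V0_image emb q N' N hq hqN hN V,
      h = (HahnSeries.C c₀ : LaurentSeries K1) ^ a * (HahnSeries.C γ + HahnSeries.C c₀ * z) := by
  obtain ⟨y, ⟨hyF, hyV⟩, e⟩ := hhm
  have hCn : (HahnSeries.C c₀ : LaurentSeries K1) ^ n ∈ modularFunctionFieldFullC K1 N :=
    zpow_mem (S34V0_C_mem N c₀) n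
  have hwh0 : S34V0_wL emb q N' N hq hqN hN h ≠ 0 := by
    intro h0
    have := S34V0_wL_wL emb q N' N hq hqN hN hh
    rw [h0, S34V0_wL_zero] at this
    exact hh0 this.symm
  have h1 := congrArg (S34V0_wL emb q N' N hq hqN hN) e
  rw [S34V0_wL_pow emb q N' N hq hqN hN hh,
    S34V0_wL_mul emb q N' N hq hqN hN (mul_mem hCn (S34V0_C_mem N c))
      (add_mem (one_mem _) (mul_mem (S34V0_C_mem N c₀) hyF)),
    S34V0_wL_mul emb q N' N hq hqN hN hCn (S34V0_C_mem N c), S34S1V_wL_zpow_C,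
    S34V0_wL_C,
    S34V0_wL_add emb q N' N hq hqN hN (one_mem _) (mul_mem (S34V0_C_mem N c₀) hyF),
    S34V0_wL_one, S34V0_wL_mul emb q N' N hq hqN hN (S34V0_C_mem N c₀) hyF, S34V0_wL_C] at h1
  obtain ⟨a, hma, γ, hγ, z, hz, e2⟩ := hroot m hm _ (S34V0_wL_mem emb q N' N hq hqN hN h) hwh0
    n c hc ⟨_, hyV, h1⟩
  have hzF := hV z hz
  have hCa : (HahnSeries.C c₀ : LaurentSeries K1) ^ a ∈ modularFunctionFieldFullC K1 N :=
    zpow_mem (S34V0_C_mem N c₀) a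
  refine ⟨a, hma, γ, hγ, S34V0_wL emb q N' N hq hqN hN z,
    S34V0_wL_mem_image emb q N' N hq hqN hN hzF hz, ?_⟩
  have h2 := congrArg (S34V0_wL emb q N' N hq hqN hN) e2
  rw [S34V0_wL_wL emb q N' N hq hqN hN hh,
    S34V0_wL_mul emb q N' N hq hqN hN hCa
      (add_mem (S34V0_C_mem N γ) (mul_mem (S34V0_C_mem N c₀) hzF)),
    S34S1V_wL_zpow_C,
    S34V0_wL_add emb q N' N hq hqN hN (S34V0_C_mem N γ) (mul_mem (S34V0_C_mem N c₀) hzF),
    S34V0_wL_C, S34V0_wL_mul emb q N' N hq hqN hN (S34V0_C_mem N c₀) hzF, S34V0_wL_C] at h2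
  exact h2

end Generic

/-! ### The concrete carriers -/

section Concrete

variable (A : ValuationSubring Qb) (K1 : IntermediateField ℚ Qb)
  (hstab : ∀ σ : GQ, ∀ x ∈ K1, σ x ∈ K1) [IsDiscreteValuationRing (S18K_O1 A K1)]
  (q N' N : ℕ) [NeZero N'] [NeZero N] (hq : q.Prime) (hqN : ¬ q ∣ N') (hN : N = q * N')

/-- **the second valuation ring** `V2 = w(V1)`, `V1` the Gauss valuation ring of `F1`. -/
def S34S1V_V2 : Subring (LaurentSeries K1) :=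
  S34V0_image (algebraMap K1 Qb) q N' N hq hqN hN (S18K_V A K1 N)

theorem S34S1V_π_eq :
    S18K_π A K1 = HahnSeries.C (((S18K_D A K1).π : S18K_O1 A K1) : K1) := rfl

theorem S34S1V_V1_le : ∀ x ∈ S18K_V A K1 N, x ∈ modularFunctionFieldFullC K1 N :=
  fun _ hx => hx.2

theorem S34S1V_restrict_inv (τ : GQ) (c : K1) :
    ((S34K0_restrict K1 hstab τ⁻¹ : K1 ≃ₐ[ℚ] K1) : K1 →+* K1)
      (((S34K0_restrict K1 hstab τ : K1 ≃ₐ[ℚ] K1) : K1 →+* K1) c) = c :=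
  Subtype.ext (τ.symm_apply_apply (c : Qb))

/-- inertia is trivial modulo `π` on `V2`. -/
theorem S34S1V_trivModK (τ : GQ) (hτ : τ ∈ A.inertiaSubgroupIn ℚ) :
    S34S1_TrivMod (S18K_π A K1) (S34S1V_V2 A K1 q N' N hq hqN hN)
      (S34S1K_act K1 hstab τ) :=
  S34S1V_trivMod (algebraMap K1 Qb) q N' N hq hqN hN _ (S34S1V_V1_le A K1 N) _ _
    (S34S1V_restrict_inv K1 hstab τ) (S34S1K_trivMod A K1 hstab N τ hτ)

/-- **`S34K_Inert` for `V2 = w(V1)`** (the shape of the contract file). -/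
theorem S34S1V_inert :
    ∀ τ : GQ, τ ∈ A.inertiaSubgroupIn ℚ → ∀ x ∈ S34S1V_V2 A K1 q N' N hq hqN hN,
      coeffMap ((S34K0_restrict K1 hstab τ : K1 ≃ₐ[ℚ] K1) : K1 →+* K1) x
          ∈ S34S1V_V2 A K1 q N' N hq hqN hN ∧
        ∃ c ∈ S34S1V_V2 A K1 q N' N hq hqN hN,
          coeffMap ((S34K0_restrict K1 hstab τ : K1 ≃ₐ[ℚ] K1) : K1 →+* K1) x - x
            = S18K_π A K1 * c := by
  intro τ hτ x hx
  have hπ2 : S18K_π A K1 ∈ S34S1V_V2 A K1 q N' N hq hqN hN := by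
    rw [S34S1V_π_eq]
    refine ⟨S34V0_C_mem N _, ?_⟩
    rw [S34V0_wL_C]
    exact ⟨(S18K_D A K1).πK_mem_Vring, S34S1K_π_mem_F1 A K1 N⟩
  obtain ⟨c, hc, e⟩ := S34S1V_trivModK A K1 hstab q N' N hq hqN hN τ hτ x hx
  refine ⟨?_, c, hc, ?_⟩
  · show S34S1K_act K1 hstab τ x ∈ _
    rw [e]
    exact add_mem hx (mul_mem hπ2 hc)
  · show S34S1K_act K1 hstab τ x - x = _
    rw [e]
    ring

/-- factorisation at `V2`. -/
theorem S34S1V_facK {f : LaurentSeries K1} (hf : f ∈ S18K_F1 K1 N) (hf0 : f ≠ 0) :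
    ∃ (a : ℤ) (f₁ : LaurentSeries K1), f₁ ∈ S34S1V_V2 A K1 q N' N hq hqN hN ∧
      f₁⁻¹ ∈ S34S1V_V2 A K1 q N' N hq hqN hN ∧ f₁ ≠ 0 ∧ f = S18K_π A K1 ^ a * f₁ :=
  S34S1V_fac (algebraMap K1 Qb) q N' N hq hqN hN _ (S34S1V_V1_le A K1 N)
    (fun g hg hg0 => S34S1K_fac A K1 N hg hg0) hf hf0

/-- **STEP 1 at `V2`.** -/
theorem S34S1V_step1K (τ' τ : GQ) (hτ' : τ' ∈ A.inertiaSubgroupIn ℚ)
    (hτ : τ ∈ A.inertiaSubgroupIn ℚ) {f : LaurentSeries K1} (hf : f ∈ S18K_F1 K1 N)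
    (hf0 : f ≠ 0) :
    ∃ c ∈ S34S1V_V2 A K1 q N' N hq hqN hN,
      S34S1K_act K1 hstab τ' (S34S1K_act K1 hstab τ f) * f
        = S34S1K_act K1 hstab τ' f * S34S1K_act K1 hstab τ f * (1 + S18K_π A K1 * c) := by
  have hπ2 : S18K_π A K1 ∈ S34S1V_V2 A K1 q N' N hq hqN hN := by
    rw [S34S1V_π_eq]
    refine ⟨S34V0_C_mem N _, ?_⟩
    rw [S34V0_wL_C]
    exact ⟨(S18K_D A K1).πK_mem_Vring, S34S1K_π_mem_F1 A K1 N⟩
  have hτi : τ⁻¹ ∈ A.inertiaSubgroupIn ℚ := inv_mem hτ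
  refine S34S1_step1 (S18K_D A K1).πK_ne_zero hπ2 (σi := S34S1K_act K1 hstab τ⁻¹) ?_
    (S34S1V_trivModK A K1 hstab q N' N hq hqN hN τ' hτ')
    (S34S1V_trivModK A K1 hstab q N' N hq hqN hN τ hτ)
    (S34S1V_trivModK A K1 hstab q N' N hq hqN hN τ⁻¹ hτi)
    (S34S1V_facK A K1 q N' N hq hqN hN hf hf0)
  rw [S34S1K_act_act, mul_inv_cancel, S34S1K_act_one]

/-- **STEP 1 at both valuations.** -/
theorem S34S1V_step1_both (τ' τ : GQ) (hτ' : τ' ∈ A.inertiaSubgroupIn ℚ)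
    (hτ : τ ∈ A.inertiaSubgroupIn ℚ) {f : LaurentSeries K1} (hf : f ∈ S18K_F1 K1 N)
    (hf0 : f ≠ 0) :
    ∃ c ∈ (S18K_V A K1 N ⊓ S34S1V_V2 A K1 q N' N hq hqN hN : Subring (LaurentSeries K1)),
      S34S1K_act K1 hstab τ' (S34S1K_act K1 hstab τ f) * f
        = S34S1K_act K1 hstab τ' f * S34S1K_act K1 hstab τ f * (1 + S18K_π A K1 * c) := by
  obtain ⟨c₁, hc₁, e₁⟩ := S34S1K_step1 A K1 hstab N τ' τ hτ' hτ hf hf0
  obtain ⟨c₂, hc₂, e₂⟩ := S34S1V_step1K A K1 hstab q N' N hq hqN hN τ' τ hτ' hτ hf hf0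
  have hd0 : S34S1K_act K1 hstab τ' f * S34S1K_act K1 hstab τ f ≠ 0 :=
    mul_ne_zero ((map_ne_zero _).2 hf0) ((map_ne_zero _).2 hf0)
  have h12 : c₁ = c₂ := by
    have h := e₁.symm.trans e₂
    have h' := mul_left_cancel₀ hd0 h
    exact mul_left_cancel₀ (S18K_D A K1).πK_ne_zero (add_left_cancel h')
  exact ⟨c₁, ⟨hc₁, h12 ▸ hc₂⟩, e₁⟩

/-- **Roots at `V2`.** -/
theorem S34S1V_rootK (hsurj : Function.Surjective (S18K_res A K1)) {m : ℕ} (hm : m ≠ 0)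
    {h u : LaurentSeries K1} (hh : h ∈ S18K_F1 K1 N) (hh0 : h ≠ 0)
    (hu : ∃ y ∈ S34S1V_V2 A K1 q N' N hq hqN hN, u = 1 + S18K_π A K1 * y) (n : ℤ)
    (c₀ : S18K_O1 A K1) (hc₀ : IsUnit c₀)
    (hhm : h ^ m = S18K_π A K1 ^ n * HahnSeries.C (c₀ : K1) * u) :
    ∃ a : ℤ, (m : ℤ) * a = n ∧ ∃ γ : S18K_O1 A K1, IsUnit γ ∧
      ∃ z ∈ S34S1V_V2 A K1 q N' N hq hqN hN,
        h = S18K_π A K1 ^ a * (HahnSeries.C (γ : K1) + S18K_π A K1 * z) := by
  obtain ⟨y, hy, rfl⟩ := hu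
  obtain ⟨a, hma, γ, ⟨γ', hγ', rfl⟩, z, hz, e⟩ :=
    S34S1V_rootF (algebraMap K1 Qb) q N' N hq hqN hN _ (S34S1V_V1_le A K1 N)
      (fun c : K1 => ∃ c' : S18K_O1 A K1, IsUnit c' ∧ (c' : K1) = c)
      (fun m hm h hh hh0 n c hc hy => by
        obtain ⟨c', hc', rfl⟩ := hc
        obtain ⟨y, hy, e⟩ := hy
        obtain ⟨a, hma, γ, hγ, z, hz, e'⟩ := S34S1K_root A K1 hsurj N hm hh hh0
          ⟨y, hy, rfl⟩ n c' hc' e
        exact ⟨a, hma, γ, ⟨γ, hγ, rfl⟩, z, hz, e'⟩)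
      m hm hh hh0 n (c₀ : K1) ⟨c₀, hc₀, rfl⟩ ⟨y, hy, hhm⟩
  exact ⟨a, hma, γ', hγ', z, hz, e⟩

/-- **Roots at both valuations**: the exponent `a` is the same. -/
theorem S34S1V_root_both (hsurj : Function.Surjective (S18K_res A K1)) {m : ℕ} (hm : m ≠ 0)
    {h u : LaurentSeries K1} (hh : h ∈ S18K_F1 K1 N) (hh0 : h ≠ 0)
    (hu : ∃ y ∈ (S18K_V A K1 N ⊓ S34S1V_V2 A K1 q N' N hq hqN hN :
      Subring (LaurentSeries K1)), u = 1 + S18K_π A K1 * y) (n : ℤ)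
    (c₀ : S18K_O1 A K1) (hc₀ : IsUnit c₀)
    (hhm : h ^ m = S18K_π A K1 ^ n * HahnSeries.C (c₀ : K1) * u) :
    ∃ a : ℤ, (m : ℤ) * a = n ∧
      (∃ γ : S18K_O1 A K1, IsUnit γ ∧ ∃ z ∈ S18K_V A K1 N,
        h = S18K_π A K1 ^ a * (HahnSeries.C (γ : K1) + S18K_π A K1 * z)) ∧
      (∃ γ : S18K_O1 A K1, IsUnit γ ∧ ∃ z ∈ S34S1V_V2 A K1 q N' N hq hqN hN,
        h = S18K_π A K1 ^ a * (HahnSeries.C (γ : K1) + S18K_π A K1 * z)) := by
  obtain ⟨y, hy, rfl⟩ := hu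
  obtain ⟨a, hma, h1⟩ := S34S1K_root A K1 hsurj N hm hh hh0 ⟨y, hy.1, rfl⟩ n c₀ hc₀ hhm
  obtain ⟨a', hma', h2⟩ := S34S1V_rootK A K1 q N' N hq hqN hN hsurj hm hh hh0
    ⟨y, hy.2, rfl⟩ n c₀ hc₀ hhm
  have haa : a' = a := by
    have hm' : (m : ℤ) ≠ 0 := by exact_mod_cast hm
    exact mul_left_cancel₀ hm' (hma'.trans hma.symm)
  exact ⟨a, hma, h1, haa ▸ h2⟩

end Concrete

end Fermat.Agent.S34_helper6_STEP1V2
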