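import Mathlib
import Fermat.Agent.S34_helper6_STEP1V2
import Fermat.Agent.S34_Contracts3

/-!
# S34 (helper6): the contract conjuncts about `V2 = w(V1)`

For `V2 := S34S1V_V2 A K1 q N' N hq hqN hN = S34V0_image … (S18K_V A K1 N)`:

* `S34V2F_inert` : `S34K_Inert A K1 hstab V2`;
* `S34V2F_fac2`  : `S34K_Fac2 N A K1 V2`;
* `S34V2F_root2` : `S34K_Root2 A K1 V2`;

with exactly the types of `Fermat.Agent.S34_Contracts` (Contracts / Contracts3).
-/

set_option autoImplicit false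
set_option linter.unusedSectionVars false
set_option linter.unusedVariables false
set_option linter.style.haveILetI false

open HahnSeries IntermediateField ModularCurve
open Fermat.Agent.S18_helper13_GAUSS Fermat.Agent.S18_helper25_COREDefs
  Fermat.Agent.S34_helper5_K0 Fermat.Agent.S34_helper6_STEP1 Fermat.Agent.S34_helper6_STEP1K
  Fermat.Agent.S34_helper6_STEP1V2 Fermat.Agent.S34_helper20_V0 Fermat.Agent.S34_Contracts

noncomputable section

namespace Fermat.Agent.S34_helper6_V2FACTS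

local notation "Qb" => AlgebraicClosure ℚ
local notation "GQ" => (AlgebraicClosure ℚ ≃ₐ[ℚ] AlgebraicClosure ℚ)

variable (A : ValuationSubring Qb) (K1 : IntermediateField ℚ Qb)
  (hstab : ∀ σ : GQ, ∀ x ∈ K1, σ x ∈ K1) [IsDiscreteValuationRing (S18K_O1 A K1)]
  (q N' N : ℕ) [NeZero N'] [NeZero N] (hq : q.Prime) (hqN : ¬ q ∣ N') (hN : N = q * N')

theorem S34V2F_V2_def :
    S34S1V_V2 A K1 q N' N hq hqN hN
      = S34V0_image (algebraMap K1 Qb) q N' N hq hqN hN (S18K_V A K1 N) := rfl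

/-- `V2 ⊆ F1`. -/
theorem S34V2F_le {x : LaurentSeries K1} (hx : x ∈ S34S1V_V2 A K1 q N' N hq hqN hN) :
    x ∈ S18K_F1 K1 N := hx.1

/-- `π⁻¹ ∉ V1`. -/
theorem S34V2F_pi_inv_notMem1 : (S18K_π A K1)⁻¹ ∉ (S18K_D A K1).Vring := by
  intro h
  have h1 := (S18K_D A K1).redFun_mul (S18K_D A K1).πK_mem_Vring h
  have hπ : S18K_π A K1 = (S18K_D A K1).πK := rfl
  rw [hπ] at h
  rw [hπ, mul_inv_cancel₀ (S18K_D A K1).πK_ne_zero, (S18K_D A K1).redFun_one] at h1
  have h2 : (S18K_D A K1).redFun (S18K_D A K1).πK = 0 := by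
    have := (S18K_D A K1).redFun_πK_mul (one_mem _)
    rwa [mul_one] at this
  rw [h2, zero_mul] at h1
  exact one_ne_zero h1

/-- `π⁻¹ ∉ V2`. -/
theorem S34V2F_pi_inv_notMem2 : (S18K_π A K1)⁻¹ ∉ S34S1V_V2 A K1 q N' N hq hqN hN := by
  rintro ⟨-, h⟩
  rw [S34S1V_π_eq, S34V0_wL_inv _ q N' N hq hqN hN (S34V0_C_mem N _), S34V0_wL_C] at h
  exact S34V2F_pi_inv_notMem1 A K1 h.1

/-- **`S34K_Inert`** for `V2 = w(V1)`. -/
theorem S34V2F_inert : S34K_Inert A K1 hstab (S34S1V_V2 A K1 q N' N hq hqN hN) :=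
  S34S1V_inert A K1 hstab q N' N hq hqN hN

/-- **`S34K_Fac2`** for `V2 = w(V1)`. -/
theorem S34V2F_fac2 : S34K_Fac2 N A K1 (S34S1V_V2 A K1 q N' N hq hqN hN) :=
  fun _ hf hf0 => S34S1V_facK A K1 q N' N hq hqN hN hf hf0

/-- **`S34K_Root2`** for `V2 = w(V1)`. -/
theorem S34V2F_root2 (hsurj : Function.Surjective (S18K_res A K1)) :
    S34K_Root2 A K1 (S34S1V_V2 A K1 q N' N hq hqN hN) := by
  intro m hm x hx hx' c₀ hc₀ hxm
  obtain ⟨y, hy, e⟩ := hxm
  have hc0 : (HahnSeries.C ((c₀ : K1)) : LaurentSeries K1) ≠ 0 := by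
    intro h0
    have h1 : ((c₀ : K1)) = 0 := HahnSeries.C_injective (by rw [h0, map_zero])
    have h2 : c₀ = 0 := Subtype.ext h1
    exact hc₀.ne_zero h2
  have hx0 : x ≠ 0 := by
    rintro rfl
    rw [zero_pow hm] at e
    have h1 : 1 + S18K_π A K1 * y = 0 := by
      rcases mul_eq_zero.mp e.symm with h | h
      · exact absurd h hc0
      · exact h
    have hπ0 : S18K_π A K1 ≠ 0 := (S18K_D A K1).πK_ne_zero
    have h2 : (S18K_π A K1)⁻¹ = -y := by
      have h3 : S18K_π A K1 * y = -1 := by linear_combination h1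
      have h4 : y = (S18K_π A K1)⁻¹ * (S18K_π A K1 * y) := by
        rw [← mul_assoc, inv_mul_cancel₀ hπ0, one_mul]
      rw [h4, h3]
      ring
    apply S34V2F_pi_inv_notMem2 A K1 q N' N hq hqN hN
    rw [h2]
    exact neg_mem hy
  obtain ⟨a, hma, γ, hγ, z, hz, e'⟩ := S34S1V_rootK A K1 q N' N hq hqN hN hsurj hm
    (S34V2F_le A K1 q N' N hq hqN hN hx) hx0 ⟨y, hy, rfl⟩ 0 c₀ hc₀
    (by rw [zpow_zero, one_mul]; exact e)
  have ha : a = 0 := by
    have hm' : (m : ℤ) ≠ 0 := by exact_mod_cast hm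
    rcases mul_eq_zero.mp hma with h | h
    · exact absurd h hm'
    · exact h
  rw [ha, zpow_zero, one_mul] at e'
  exact ⟨γ, hγ, z, hz, e'⟩

end Fermat.Agent.S34_helper6_V2FACTS
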