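import Fermat.Agent.S34_helper27_P1C
import Fermat.Agent.S34_helper6_V2FACTS
import Fermat.Agent.S34_Contracts3

/-!
# S34 (helper27): the assembler of the geometric contract `S34K_GeomHolds3`

For `V2 := S34P1C_V2 A K1 hq N' hqN` (`= w(V1)`, defeq helper20's `S34V0K_V` and helper6's
`S34S1V_V2` at `N := N' * q`, `hN := Nat.mul_comm N' q`) the first five conjuncts of the owner's
`S34K_GeomAt` are theorems:

1. `S34C_Setup2`                      (`S34P1C_setup2`),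
2. `∃ x ∈ V1, x ∉ V2`                 (`S34P1C_ne`),
3. `S34K_Inert`                       (helper6 `S34V2F_inert`),
4. `S34K_Fac2`                        (helper6 `S34V2F_fac2`),
5. `S34K_Root2`                       (helper6 `S34V2F_root2`, from `res_surj`).

What remains is `S34GM_Rest`: `(N1)` and X-CROSS on the two charts.

* `S34GM_geomAt`  : `S34GM_Rest → S34K_GeomAt (N' * q) A K1 p hstab V2`;
* `S34GM_geom3`   : `(∀ K1 admissible and Galois-stable, S34GM_Rest) → S34K_Geom3 N' q p A`;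
* `S34GM_holds3`  : `(∀ A over q, ∀ K1 …, S34GM_Rest) → S34K_GeomHolds3 N' q p`.
-/

set_option autoImplicit false
set_option linter.unusedSectionVars false
set_option linter.unusedVariables false
set_option linter.style.haveILetI false

noncomputable section

open ModularCurve
open Fermat.Agent.S18_helper13_GAUSS Fermat.Agent.S18_helper9_CDefs
open Fermat.Agent.S18_helper25_COREDefs Fermat.Agent.S34_helper12_CDefs
open Fermat.Agent.S34_helper27_C2Defs Fermat.Agent.S34_Contracts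
open Fermat.Agent.S34_helper27_P1C Fermat.Agent.S34_helper6_V2FACTS

namespace Fermat.Agent.S34_helper27_GEOM

local notation "Qb" => AlgebraicClosure ℚ
local notation "GQ" => (AlgebraicClosure ℚ ≃ₐ[ℚ] AlgebraicClosure ℚ)

/-- `N' ≠ 0` from `N' * q ≠ 0` -/
theorem S34GM_neZero (N' q : ℕ) [NeZero (N' * q)] : NeZero N' :=
  ⟨fun h => NeZero.ne (N' * q) (by rw [h, Nat.zero_mul])⟩

variable (A : ValuationSubring Qb) (K1 : IntermediateField ℚ Qb)
  [IsDiscreteValuationRing (S18K_O1 A K1)]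

/-- **what remains of the geometric contract** at the level `K1`, for `V2 = w(V1)`:
`(N1)` and X-CROSS on the two `j`-charts. -/
def S34GM_Rest (N' q p : ℕ) [NeZero N'] [NeZero (N' * q)] (hq : q.Prime) (hqN : ¬ q ∣ N') :
    Prop :=
  S34K_N1 (S18K_π A K1) (S18K_V A K1 (N' * q)) (S34P1C_V2 A K1 hq N' hqN)
      (S18K_A0 A K1 (N' * q)) ∧
    S34K_N1 (S18K_π A K1) (S18K_V A K1 (N' * q)) (S34P1C_V2 A K1 hq N' hqN)
      (S18K_Ainf A K1 (N' * q)) ∧
    S34K_Cross (N' * q) p A K1 (S34P1C_V2 A K1 hq N' hqN) (S18K_A0 A K1 (N' * q)) ∧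
    S34K_Cross (N' * q) p A K1 (S34P1C_V2 A K1 hq N' hqN) (S18K_Ainf A K1 (N' * q))

/-- the four remaining facts, separately -/
theorem S34GM_rest_intro (N' q p : ℕ) [NeZero N'] [NeZero (N' * q)] (hq : q.Prime)
    (hqN : ¬ q ∣ N')
    (hN0 : S34K_N1 (S18K_π A K1) (S18K_V A K1 (N' * q)) (S34P1C_V2 A K1 hq N' hqN)
      (S18K_A0 A K1 (N' * q)))
    (hNinf : S34K_N1 (S18K_π A K1) (S18K_V A K1 (N' * q)) (S34P1C_V2 A K1 hq N' hqN)
      (S18K_Ainf A K1 (N' * q)))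
    (hC0 : S34K_Cross (N' * q) p A K1 (S34P1C_V2 A K1 hq N' hqN) (S18K_A0 A K1 (N' * q)))
    (hCinf : S34K_Cross (N' * q) p A K1 (S34P1C_V2 A K1 hq N' hqN)
      (S18K_Ainf A K1 (N' * q))) :
    S34GM_Rest A K1 N' q p hq hqN :=
  ⟨hN0, hNinf, hC0, hCinf⟩

/-- conjuncts 3, 4, 5 of `S34K_GeomAt` for `V2 = w(V1)` (helper6), in the names of this file -/
theorem S34GM_inert (hstab : ∀ σ : GQ, ∀ x ∈ K1, σ x ∈ K1) {q : ℕ} (hq : q.Prime) (N' : ℕ)
    [NeZero N'] [NeZero (N' * q)] (hqN : ¬ q ∣ N') :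
    S34K_Inert A K1 hstab (S34P1C_V2 A K1 hq N' hqN) :=
  S34V2F_inert A K1 hstab q N' (N' * q) hq hqN (Nat.mul_comm N' q)

theorem S34GM_fac2 {q : ℕ} (hq : q.Prime) (N' : ℕ) [NeZero N'] [NeZero (N' * q)]
    (hqN : ¬ q ∣ N') :
    S34K_Fac2 (N' * q) A K1 (S34P1C_V2 A K1 hq N' hqN) :=
  S34V2F_fac2 A K1 q N' (N' * q) hq hqN (Nat.mul_comm N' q)

theorem S34GM_root2 {q : ℕ} (hq : q.Prime) (N' : ℕ) [NeZero N'] [NeZero (N' * q)]
    (hqN : ¬ q ∣ N') (hsurj : Function.Surjective (S18K_res A K1)) :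
    S34K_Root2 A K1 (S34P1C_V2 A K1 hq N' hqN) :=
  S34V2F_root2 A K1 q N' (N' * q) hq hqN (Nat.mul_comm N' q) hsurj

/-- **`S34K_GeomAt`** for `V2 = w(V1)` from `(N1)` and X-CROSS on the two charts. -/
theorem S34GM_geomAt (hstab : ∀ σ : GQ, ∀ x ∈ K1, σ x ∈ K1) {q : ℕ} (hq : q.Prime)
    (hA : A.LiesOverPrime q) (N' : ℕ) [NeZero N'] [NeZero (N' * q)] (hqN : ¬ q ∣ N') (p : ℕ)
    (hsurj : Function.Surjective (S18K_res A K1))
    (hrest : S34GM_Rest A K1 N' q p hq hqN) :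
    S34K_GeomAt (N' * q) A K1 p hstab (S34P1C_V2 A K1 hq N' hqN) :=
  ⟨S34P1C_setup2 A K1 hq hA N' hqN, S34P1C_ne A K1 hq hA N' hqN,
    S34GM_inert A K1 hstab hq N' hqN, S34GM_fac2 A K1 hq N' hqN,
    S34GM_root2 A K1 hq N' hqN hsurj, hrest.1, hrest.2.1, hrest.2.2.1, hrest.2.2.2⟩

/-- **`S34K_Geom3`** at the place `A` from `(N1)` and X-CROSS at every admissible
Galois-stable level. -/
theorem S34GM_geom3 (N' q p : ℕ) [NeZero (N' * q)] (hq : q.Prime) (hqN : ¬ q ∣ N')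
    (hA : A.LiesOverPrime q)
    (hrest : ∀ (K1 : IntermediateField ℚ Qb) (h : S18K_Admissible A K1 q)
      (hstab : ∀ σ : GQ, ∀ x ∈ K1, σ x ∈ K1),
      letI := h.dvr
      haveI := S34GM_neZero N' q
      S34GM_Rest A K1 N' q p hq hqN) :
    S34K_Geom3 N' q p A := by
  intro K1 h hstab
  letI := h.dvr
  haveI := S34GM_neZero N' q
  exact ⟨S34P1C_V2 A K1 hq N' hqN,
    S34GM_geomAt A K1 hstab hq hA N' hqN p h.res_surj (hrest K1 h hstab)⟩

/-- **`S34K_GeomHolds3`** from `(N1)` and X-CROSS. -/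
theorem S34GM_holds3 (N' q p : ℕ) [NeZero (N' * q)]
    (hrest : ∀ (hq : q.Prime) (hp : p.Prime) (hpq : p ≠ q) (hqN : ¬ q ∣ N')
      (A : ValuationSubring Qb) (hA : A.LiesOverPrime q)
      (K1 : IntermediateField ℚ Qb) (h : S18K_Admissible A K1 q)
      (hstab : ∀ σ : GQ, ∀ x ∈ K1, σ x ∈ K1),
      letI := h.dvr
      haveI := S34GM_neZero N' q
      S34GM_Rest A K1 N' q p hq hqN) :
    S34K_GeomHolds3 N' q p := by
  intro hq hp hpq hqN A hA
  exact S34GM_geom3 A N' q p hq hqN hA (hrest hq hp hpq hqN A hA)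

end Fermat.Agent.S34_helper27_GEOM
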