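import Mathlib

/-!
# S34, piece P1c-KEY, adapter for the degree input (helper13)

`S34KEYD_hdeg` : from a finite extension of fields `E'/E` of degree `≤ n`, realised inside an
ambient field `L` by ring homomorphisms `ι : E → L`, `ι' : E' → L` compatible with the algebra
map, a spanning set of at most `n` elements of `ι'(E')` over `ι(E)` in the elementwise form used
by `S34_helper13_KEY.S34KEY_abs` (hypothesis `hdeg`) and by the `finite` field of the S18 `Setup`.
-/

set_option autoImplicit false
set_option linter.style.haveILetI false
set_option linter.unusedSectionVars false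
set_option linter.unusedVariables false

namespace Fermat.Agent.S34_helper13_KEYD

variable {L : Type*} [Field L]

theorem S34KEYD_hdeg {E E' : Type*} [Field E] [Field E'] [Algebra E E']
    [FiniteDimensional E E'] (ι : E →+* L) (ι' : E' →+* L)
    (hcomp : ∀ e : E, ι' (algebraMap E E' e) = ι e) (F1' F1 : Subfield L)
    (hι : ∀ e : E, ι e ∈ F1') (hι' : ∀ x ∈ F1, ∃ e' : E', ι' e' = x) {n : ℕ}
    (hn : Module.finrank E E' ≤ n) :
    ∃ s : Finset L, s.card ≤ n ∧ ∀ x ∈ F1, ∃ c : L → L,
      (∀ y, c y ∈ F1') ∧ x = ∑ y ∈ s, c y * y := by
  classical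
  set b := Module.finBasis E E' with hb
  have hinj : Function.Injective (fun i => ι' (b i)) :=
    ι'.injective.comp b.injective
  refine ⟨Finset.univ.image (fun i => ι' (b i)), ?_, ?_⟩
  · calc (Finset.univ.image (fun i => ι' (b i))).card ≤ (Finset.univ : Finset (Fin _)).card :=
        Finset.card_image_le
      _ = Module.finrank E E' := by simp
      _ ≤ n := hn
  · intro x hx
    obtain ⟨e', rfl⟩ := hι' x hx
    refine ⟨fun y => if h : ∃ i, ι' (b i) = y then ι (b.repr e' h.choose) else 0, ?_, ?_⟩
    · intro y
      dsimp only
      split_ifs with h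
      · exact hι _
      · exact F1'.zero_mem
    · rw [Finset.sum_image (fun i _ j _ h => hinj h)]
      have h1 : ∀ i, (if h : ∃ k, ι' (b k) = ι' (b i) then ι (b.repr e' h.choose) else 0)
          = ι (b.repr e' i) := by
        intro i
        have hex : ∃ k, ι' (b k) = ι' (b i) := ⟨i, rfl⟩
        rw [dif_pos hex]
        have : hex.choose = i := hinj hex.choose_spec
        rw [this]
      simp only [h1]
      conv_lhs => rw [← b.sum_repr e']
      rw [map_sum]
      refine Finset.sum_congr rfl fun i _ => ?_
      rw [Algebra.smul_def, map_mul, hcomp]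

end Fermat.Agent.S34_helper13_KEYD
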