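import Mathlib
import Fermat.Agent.S18_helper26_DEGK1
import Fermat.Agent.S20_helper29_A1

/-!
# S34, piece P1c-DEG (helper15): the relative degree `[F_{N' q} : F_{N'}] = q + 1` at every level

For a field `K1` of characteristic zero with an embedding into `ℚ̄`, a level `N'` and a prime
`q ∤ N'`, the function field `F_{N' q} = K1(j(t^d) : d ∣ N' q)` has degree `q + 1` over
`F_{N'} = K1(j(t^d) : d ∣ N')` (both inside `K1((t))`).

The statement is given for the subtypes `↥(modularFunctionFieldFullC K1 N')` and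
`↥(modularFunctionFieldFullC K1 (N' * q))`, with the algebra structure `S34DEG_algebra` given by
the inclusion, i.e. in the generic-type shape consumed by the fundamental identity
`S34_helper13_VCOUNT.S34V_two`.

Proof: tower law over `K1(j)`, using `[F_N : K1(j)] = mu N` (landed `S18DEG_finrank`) at the two
levels, `mu = ψ` (S20 A1) and `ψ(q N') = ψ(N') (q + 1)`.
-/

set_option autoImplicit false
set_option linter.unusedSectionVars false
set_option linter.style.haveILetI false

open ModularCurve IntermediateField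
open Fermat.Agent.S20 Fermat.Agent.S18_helper26_CONST Fermat.Agent.S18_helper26_DEGK1

noncomputable section

namespace Fermat.Agent.S34_helper15_DEG

/-! ### Generic tower law -/

section Generic

variable {K E F' : Type*} [Field K] [Field E] [Field F'] [Algebra K E] [Algebra K F']

/-- **Tower law through an isomorphic copy of the bottom field.**  `ι : E → F'` a `K`-algebra
map of fields, `j ∈ E`: `[F' : K(ι j)] = [E : K(j)] · [F' : E]`. -/
theorem S34DEG_tower (ι : E →ₐ[K] F') (j : E) :
    letI := ι.toRingHom.toAlgebra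
    Module.finrank K⟮ι j⟯ F' = Module.finrank K⟮j⟯ E * Module.finrank E F' := by
  letI := ι.toRingHom.toAlgebra
  letI : Algebra K⟮j⟯ F' := ((algebraMap E F').comp (algebraMap K⟮j⟯ E)).toAlgebra
  haveI : IsScalarTower K⟮j⟯ E F' := IsScalarTower.of_algebraMap_eq (fun _ => rfl)
  have h1 : Module.finrank K⟮j⟯ E * Module.finrank E F' = Module.finrank K⟮j⟯ F' :=
    Module.finrank_mul_finrank K⟮j⟯ E F'
  rw [h1]
  have hmap : (K⟮j⟯).map ι = K⟮ι j⟯ := by
    rw [IntermediateField.adjoin_map, Set.image_singleton]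
  let i : K⟮j⟯ ≃+* K⟮ι j⟯ :=
    ((IntermediateField.equivMap K⟮j⟯ ι).trans (IntermediateField.equivOfEq hmap)).toRingEquiv
  symm
  refine Algebra.finrank_eq_of_equiv_equiv i (RingEquiv.refl F') ?_
  ext x
  rfl

/-- Finiteness over the top of the tower. -/
theorem S34DEG_tower_finite (ι : E →ₐ[K] F') (j : E) [FiniteDimensional K⟮ι j⟯ F'] :
    letI := ι.toRingHom.toAlgebra
    FiniteDimensional E F' := by
  letI := ι.toRingHom.toAlgebra
  letI : Algebra K⟮j⟯ F' := ((algebraMap E F').comp (algebraMap K⟮j⟯ E)).toAlgebra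
  haveI : IsScalarTower K⟮j⟯ E F' := IsScalarTower.of_algebraMap_eq (fun _ => rfl)
  have hmap : (K⟮j⟯).map ι = K⟮ι j⟯ := by
    rw [IntermediateField.adjoin_map, Set.image_singleton]
  let i : K⟮j⟯ ≃+* K⟮ι j⟯ :=
    ((IntermediateField.equivMap K⟮j⟯ ι).trans (IntermediateField.equivOfEq hmap)).toRingEquiv
  -- a finite spanning family over `K(ι j)` also spans over `E`
  obtain ⟨s, hs⟩ := (Module.finite_def (R := K⟮ι j⟯) (M := F')).1 inferInstance
  refine Module.finite_def.2 ⟨s, ?_⟩
  rw [eq_top_iff]
  intro x _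
  have hx : x ∈ Submodule.span K⟮ι j⟯ (s : Set F') := by rw [hs]; trivial
  refine Submodule.span_induction (p := fun y _ => y ∈ Submodule.span E (s : Set F'))
    (fun y hy => Submodule.subset_span hy) (Submodule.zero_mem _)
    (fun y z _ _ hy hz => Submodule.add_mem _ hy hz) (fun c y _ hy => ?_) hx
  have hc : c • y = ((i.symm c : K⟮j⟯) : E) • y := by
    rw [Algebra.smul_def, Algebra.smul_def]
    congr 1
    have h2 : ι ((i.symm c : K⟮j⟯) : E) = ((i (i.symm c) : K⟮ι j⟯) : F') := rfl
    rw [RingEquiv.apply_symm_apply] at h2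
    exact h2.symm
  rw [hc]
  exact Submodule.smul_mem _ _ hy

end Generic

/-! ### The concrete statement -/

section Concrete

variable (K1 : Type*) [Field K1] (N' q : ℕ) [NeZero N'] [NeZero (N' * q)]

/-- The inclusion `F_{N'} ⊆ F_{N' q}` of function fields inside `K1((t))`. -/
def S34DEG_incl :
    ↥(modularFunctionFieldFullC K1 N') →ₐ[K1] ↥(modularFunctionFieldFullC K1 (N' * q)) :=
  IntermediateField.inclusion (full_degeneracyC_le K1 (dvd_mul_right N' q))

theorem S34DEG_incl_coe (x : ↥(modularFunctionFieldFullC K1 N')) :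
    ((S34DEG_incl K1 N' q x : ↥(modularFunctionFieldFullC K1 (N' * q))) : LaurentSeries K1)
      = (x : LaurentSeries K1) :=
  IntermediateField.coe_inclusion _ x

theorem S34DEG_incl_jbar :
    S34DEG_incl K1 N' q (S18P15_jbar K1 N') = S18P15_jbar K1 (N' * q) :=
  Subtype.ext (S34DEG_incl_coe K1 N' q _)

/-- The algebra structure of `F_{N' q}` over `F_{N'}` given by the inclusion. -/
@[reducible] def S34DEG_algebra :
    Algebra ↥(modularFunctionFieldFullC K1 N') ↥(modularFunctionFieldFullC K1 (N' * q)) :=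
  (S34DEG_incl K1 N' q).toRingHom.toAlgebra

theorem S34DEG_algebraMap_eq :
    letI := S34DEG_algebra K1 N' q
    algebraMap ↥(modularFunctionFieldFullC K1 N') ↥(modularFunctionFieldFullC K1 (N' * q))
      = (S34DEG_incl K1 N' q).toRingHom := by
  letI := S34DEG_algebra K1 N' q
  exact RingHom.algebraMap_toAlgebra _

/-- The structure map is the identity on Laurent series. -/
theorem S34DEG_algebraMap_coe (x : ↥(modularFunctionFieldFullC K1 N')) :
    letI := S34DEG_algebra K1 N' q
    ((algebraMap ↥(modularFunctionFieldFullC K1 N') ↥(modularFunctionFieldFullC K1 (N' * q)) x :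
      ↥(modularFunctionFieldFullC K1 (N' * q))) : LaurentSeries K1) = (x : LaurentSeries K1) := by
  letI := S34DEG_algebra K1 N' q
  rw [S34DEG_algebraMap_eq]
  exact S34DEG_incl_coe K1 N' q x

theorem S34DEG_isScalarTower :
    letI := S34DEG_algebra K1 N' q
    IsScalarTower K1 ↥(modularFunctionFieldFullC K1 N')
      ↥(modularFunctionFieldFullC K1 (N' * q)) := by
  letI := S34DEG_algebra K1 N' q
  refine IsScalarTower.of_algebraMap_eq (fun c => ?_)
  rw [S34DEG_algebraMap_eq]
  exact ((S34DEG_incl K1 N' q).commutes c).symm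

/-- `F_{N' q}` is finite over `F_{N'}` (no hypothesis on `q`). -/
theorem S34DEG_finiteDimensional :
    letI := S34DEG_algebra K1 N' q
    FiniteDimensional ↥(modularFunctionFieldFullC K1 N')
      ↥(modularFunctionFieldFullC K1 (N' * q)) := by
  haveI h : FiniteDimensional K1⟮S34DEG_incl K1 N' q (S18P15_jbar K1 N')⟯
      ↥(modularFunctionFieldFullC K1 (N' * q)) := by
    rw [S34DEG_incl_jbar]
    exact S18P15_finiteDimensional K1 (N' * q)
  exact S34DEG_tower_finite (S34DEG_incl K1 N' q) (S18P15_jbar K1 N')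

/-- `F_{N' q}` is separable over `F_{N'}` (characteristic zero). -/
theorem S34DEG_isSeparable [CharZero K1] :
    letI := S34DEG_algebra K1 N' q
    Algebra.IsSeparable ↥(modularFunctionFieldFullC K1 N')
      ↥(modularFunctionFieldFullC K1 (N' * q)) := by
  letI := S34DEG_algebra K1 N' q
  haveI : CharZero ↥(modularFunctionFieldFullC K1 N') :=
    charZero_of_injective_algebraMap (algebraMap K1 ↥(modularFunctionFieldFullC K1 N')).injective
  haveI := S34DEG_finiteDimensional K1 N' q
  infer_instance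

/-- `mu (N' q) = mu N' · (q + 1)` for a prime `q ∤ N'`. -/
theorem S34DEG_mu_mul (hq : q.Prime) (hqN : ¬ q ∣ N') : mu (N' * q) = mu N' * (q + 1) := by
  rw [Fermat.Agent.S20_helper29_A1.A1 (N' * q), Fermat.Agent.S20_helper29_A1.A1 N', mul_comm N' q]
  exact Fermat.Agent.S20_helper29_A1.psi_mul_of_not_dvd q N' hq (NeZero.ne N') hqN

/-- **P1c-DEG.**  `[F_{N' q} : F_{N'}] = q + 1` at every level `K1`. -/
theorem S34DEG_finrank [CharZero K1] (emb : K1 →+* AlgebraicClosure ℚ) (hq : q.Prime)
    (hqN : ¬ q ∣ N') :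
    letI := S34DEG_algebra K1 N' q
    Module.finrank ↥(modularFunctionFieldFullC K1 N')
      ↥(modularFunctionFieldFullC K1 (N' * q)) = q + 1 := by
  letI := S34DEG_algebra K1 N' q
  have h1 := S34DEG_tower (S34DEG_incl K1 N' q) (S18P15_jbar K1 N')
  rw [S34DEG_incl_jbar] at h1
  have h2 : Module.finrank K1⟮S18P15_jbar K1 (N' * q)⟯
      ↥(modularFunctionFieldFullC K1 (N' * q)) = mu (N' * q) := S18DEG_finrank emb (N' * q)
  have h3 : Module.finrank K1⟮S18P15_jbar K1 N'⟯ ↥(modularFunctionFieldFullC K1 N') = mu N' :=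
    S18DEG_finrank emb N'
  rw [h2, h3, S34DEG_mu_mul N' q hq hqN] at h1
  have hpos : 0 < mu N' := by
    rw [← h3]
    haveI := S18P15_finiteDimensional K1 N'
    exact Module.finrank_pos
  exact (Nat.eq_of_mul_eq_mul_left hpos h1).symm

/-- The form `[F_{N' q} : F_{N'}] ≤ 1 + q` (hypothesis `hab` of `S34V_two` with `a = 1`,
`b = q`). -/
theorem S34DEG_finrank_le [CharZero K1] (emb : K1 →+* AlgebraicClosure ℚ) (hq : q.Prime)
    (hqN : ¬ q ∣ N') :
    letI := S34DEG_algebra K1 N' q
    Module.finrank ↥(modularFunctionFieldFullC K1 N')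
      ↥(modularFunctionFieldFullC K1 (N' * q)) ≤ 1 + q := by
  letI := S34DEG_algebra K1 N' q
  rw [S34DEG_finrank K1 N' q emb hq hqN, add_comm]

end Concrete

end Fermat.Agent.S34_helper15_DEG
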