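import Fermat.Agent.S34_helper13_KEYK
import Fermat.Agent.S34_helper13_KEYD
import Fermat.Agent.S34_helper20_V0K
import Fermat.Agent.S34_helper15_DEG

/-!
# S34, P1c assembled (helper13): the two-valuation setup `(V)` for the concrete carriers

`N = q N'`, `q ∤ N'`, `A` over `q`, `K1` a level with `O1 = A ∩ K1` a discrete valuation ring,
`V1 = S18K_V A K1 N` the Gauss ring, `V2 = S34V0K_V` its image under the Atkin–Lehner involution
(helper20).  All hypotheses of `S34KEYK_main` are discharged: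

* `S34P1C_hdeg`   : a spanning set of `q + 1` elements of `F1(N)` over `F1(N')` (helper15 DEG);
* `S34P1C_key`    : all conclusions of KEY for `(V1, V2)`;
* `S34P1C_setup2` : `S34C_Setup2` for `(V1, V2)`, unconditionally.
-/

set_option autoImplicit false
set_option linter.style.haveILetI false
set_option linter.unusedSectionVars false
set_option linter.unusedVariables false

open ModularCurve Fermat.Agent.S18_helper13_GAUSS Fermat.Agent.S18_helper9_CDefs
open Fermat.Agent.S18_helper25_COREDefs Fermat.Agent.S34_helper12_CDefs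
  Fermat.Agent.S34_helper27_C2Defs Fermat.Agent.S34_helper27_V3K Fermat.Agent.S34_helper13_KEY
  Fermat.Agent.S34_helper13_KEYK Fermat.Agent.S34_helper13_KEYD Fermat.Agent.S34_helper20_V0K
  Fermat.Agent.S34_helper15_DEG

noncomputable section

namespace Fermat.Agent.S34_helper13_P1C

variable (A : ValuationSubring (AlgebraicClosure ℚ))
  (K1 : IntermediateField ℚ (AlgebraicClosure ℚ)) [IsDiscreteValuationRing (S18K_O1 A K1)]
  (q N' N : ℕ) [NeZero N'] [NeZero N] (hq : q.Prime) (hqN : ¬ q ∣ N') (hN : N = q * N')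

set_option synthInstance.maxHeartbeats 400000 in
include hq hqN hN in
/-- the degree input in elementwise form -/
theorem S34P1C_hdeg :
    ∃ s : Finset (LaurentSeries K1), s.card ≤ q + 1 ∧ ∀ x ∈ S18K_F1 K1 N,
      ∃ c : LaurentSeries K1 → LaurentSeries K1,
        (∀ y, c y ∈ S18K_F1 K1 N') ∧ x = ∑ y ∈ s, c y * y := by
  have hN' : N = N' * q := by rw [hN, mul_comm]
  subst hN'
  letI := S34DEG_algebra K1 N' q
  haveI := S34DEG_finiteDimensional K1 N' q
  have hle := S34DEG_finrank_le K1 N' q (algebraMap K1 (AlgebraicClosure ℚ)) hq hqN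
  refine S34KEYD_hdeg (E := ↥(modularFunctionFieldFullC K1 N'))
    (E' := ↥(modularFunctionFieldFullC K1 (N' * q)))
    (modularFunctionFieldFullC K1 N').val.toRingHom
    (modularFunctionFieldFullC K1 (N' * q)).val.toRingHom
    (fun e => S34DEG_algebraMap_coe K1 N' q e) (S18K_F1 K1 N') (S18K_F1 K1 (N' * q))
    (fun e => e.2) (fun x hx => ⟨⟨x, hx⟩, rfl⟩) (by omega)

set_option synthInstance.maxHeartbeats 400000 in
/-- **KEY for `(V1, V2)`**, all inputs discharged. -/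
theorem S34P1C_key (hA : A.LiesOverPrime q) :
    (∀ v ∈ (S18K_V A K1 N ⊓ S34V0K_V A K1 q N' N hq hqN hN : Subring (LaurentSeries K1)),
      IsIntegral (S18K_V A K1 N') v) ∧
    (∀ v : LaurentSeries K1, v ∈ S18K_F1 K1 N → IsIntegral (S18K_V A K1 N') v →
      v ∈ S18K_V A K1 N ∧ v ∈ S34V0K_V A K1 q N' N hq hqN hN) ∧
    (∀ x ∈ S34V0K_V A K1 q N' N hq hqN hN, x⁻¹ ∉ S34V0K_V A K1 q N' N hq hqN hN →
      ∃ v ∈ S34V0K_V A K1 q N' N hq hqN hN, x = S18K_π A K1 * v) ∧
    (∀ W : Subring (LaurentSeries K1), S34C2_Val (S18K_π A K1) (S18K_F1 K1 N) W →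
      S18K_V A K1 N' ≤ W → W = S18K_V A K1 N ∨ W = S34V0K_V A K1 q N' N hq hqN hN) ∧
    (∀ x ∈ S18K_V A K1 N, ∃ r ∈ S18K_V A K1 N', ∃ v ∈ S18K_V A K1 N,
      x = r + S18K_π A K1 * v) := by
  haveI : NeZero q := ⟨hq.ne_zero⟩
  exact S34KEYK_main A K1 hq hA (S34V0K_dvd hN) (S34V0K_V A K1 q N' N hq hqN hN)
    (S34V0K_val A K1 q N' N hq hqN hN) (S34V0K_le A K1 q N' N hq hqN hN)
    (S34V0K_ne A K1 q N' N hq hqN hN hA).symm (S34P1C_hdeg K1 q N' N hq hqN hN)
    (S34V0K_jq_mem A K1 q N' N hq hqN hN) (S34V0K_frob_nonunit A K1 q N' N hq hqN hN hA)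

set_option synthInstance.maxHeartbeats 400000 in
/-- **(V) = `S34C_Setup2` for the concrete carriers**, unconditionally. -/
theorem S34P1C_setup2 (hA : A.LiesOverPrime q) :
    S34C_Setup2 (S18K_O A K1) (S18K_π A K1) (S18K_j K1) (S18K_F1 K1 N) (S18K_V A K1 N)
      (S34V0K_V A K1 q N' N hq hqN hN) (S18K_A0 A K1 N) (S18K_Ainf A K1 N) :=
  S34V0K_setup2 A K1 q N' N hq hqN hN hA (S34P1C_key A K1 q N' N hq hqN hN hA).1

/-- a separating element: a unit of `V1` which is not in `V2`... in the contract shape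
`∃ x ∈ V1, x ∉ V2`. -/
theorem S34P1C_sep (hA : A.LiesOverPrime q) :
    ∃ x ∈ S18K_V A K1 N, x ∉ S34V0K_V A K1 q N' N hq hqN hN := by
  haveI : NeZero q := ⟨hq.ne_zero⟩
  obtain ⟨c, hc0, hc, hci, v, hv, hcv⟩ := S34V0K_sep A K1 q N' N hq hqN hN hA
  refine ⟨c⁻¹, hci, fun h => ?_⟩
  -- `c = π v` with `v ∈ V2` and `c⁻¹ ∈ V2` gives `π⁻¹ = v c⁻¹ ∈ V2`
  have hv0 : v ≠ 0 := by
    rintro rfl
    rw [mul_zero] at hcv
    exact hc0 hcv
  have e : (S18K_π A K1)⁻¹ = v * c⁻¹ := by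
    rw [hcv, mul_inv, ← mul_assoc, mul_comm v, mul_assoc, mul_inv_cancel₀ hv0, mul_one]
  exact (S34V0K_val A K1 q N' N hq hqN hN).π_nonunit (by rw [e]; exact mul_mem hv h)

end Fermat.Agent.S34_helper13_P1C
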