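import Fermat.Agent.S34_helper13_HJQK
import Fermat.Agent.S34_helper13_P1C
import Fermat.Agent.S18_helper20_CSAT

/-!
# S34, piece X-HJQ (helper13): `hjq` - `θ = j(q^q)` is integral over `O[j]`

* `S34HJQ_descend` (abstract, any `S34C_Setup2`): an element `θ ∈ V1 ⊓ V2` which lies in every
  valuation ring of `F1` containing `A0` and `π⁻¹` (i.e. is integral over `A0[1/π]`) lies in `A0`;
* `S34HJQ_main` : `IsIntegral (adj (S18K_O A K1) (S18K_j K1)) (qExpand K1 q (S18K_j K1))`, the
  hypothesis `hjq` of `S34WA_*`, `S34N1K_*`, `S34FC_*`, unconditionally.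
-/

set_option autoImplicit false
set_option linter.style.haveILetI false
set_option linter.unusedSectionVars false
set_option linter.unusedVariables false

open ModularCurve Polynomial
open Fermat.Agent.S18_helper9_CDefs Fermat.Agent.S18_helper25_COREDefs
  Fermat.Agent.S34_helper12_CDefs Fermat.Agent.S18_helper20_CSAT
  Fermat.Agent.S34_helper13_HJQK Fermat.Agent.S34_helper13_P1C Fermat.Agent.S34_helper20_V0K

noncomputable section

namespace Fermat.Agent.S34_helper13_HJQM

section Abstract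

variable {L : Type*} [Field L] {O : Subring L} {π j : L} {F1 : Subfield L}
  {V1 V2 A0 Ainf : Subring L}

theorem S34HJQ_pi_ne_zero (S : S34C_Setup2 O π j F1 V1 V2 A0 Ainf) : π ≠ 0 := by
  intro h
  apply S.V1_nonunit
  rw [h, inv_zero]
  exact V1.zero_mem

theorem S34HJQ_O_le_A0 (S : S34C_Setup2 O π j F1 V1 V2 A0 Ainf) : O ≤ A0 := by
  intro x hx
  rw [S.chart0.mem_iff]
  refine ⟨?_, S.O_le hx⟩
  have hx' : x ∈ adj O j := Subring.subset_closure (Or.inl hx)
  exact isIntegral_algebraMap (R := adj O j) (A := L) (x := ⟨x, hx'⟩)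

/-- descending powers of `π` by saturation -/
theorem S34HJQ_sat_pow (S : S34C_Setup2 O π j F1 V1 V2 A0 Ainf) {θ : L} (hθ1 : θ ∈ V1)
    (hθ2 : θ ∈ V2) (n : ℕ) (h : π ^ n * θ ∈ A0) : θ ∈ A0 := by
  have hπA : π ∈ A0 := S34HJQ_O_le_A0 S S.π_mem
  have hπV : π ∈ (V1 ⊓ V2 : Subring L) := S.chart0.le_V hπA
  induction n with
  | zero => simpa using h
  | succ n ih =>
    apply ih
    apply S.chart0.sat
    · exact Subring.mul_mem _ (Subring.pow_mem _ hπV n) ⟨hθ1, hθ2⟩
    · have : π * (π ^ n * θ) = π ^ (n + 1) * θ := by ring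
      rw [this]
      exact h

/-- elements integral over `A0` in `F1` are in `A0` -/
theorem S34HJQ_A0_closed (S : S34C_Setup2 O π j F1 V1 V2 A0 Ainf) {y : L} (hyF : y ∈ F1)
    (hy : IsIntegral A0 y) : y ∈ A0 := by
  have hA0 : A0 = icl (adj O j) F1 := by
    ext x
    rw [S.chart0.mem_iff, mem_icl]
  rw [S.chart0.mem_iff]
  refine ⟨?_, hyF⟩
  apply CSAT_isIntegral_of_icl (adj O j) F1
  rw [← hA0]
  exact hy

/-- scaling the roots of a monic equation: if `y` is integral over a subring `B` of `F1` all of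
whose elements become elements of `A0` after multiplication by a power of `π`, then `π ^ n * y` is
integral over `A0` for some `n`. -/
theorem S34HJQ_scale (hπA : π ∈ A0) (B : Subring F1)
    (hB : ∀ z ∈ B, ∃ n : ℕ, π ^ n * (z : L) ∈ A0) {y : F1} (hy : IsIntegral B y) :
    ∃ n : ℕ, IsIntegral A0 (π ^ n * (y : L)) := by
  classical
  obtain ⟨p, hp, hpy⟩ := hy
  -- a common exponent for the coefficients
  have hmono : ∀ (z : L) (n m : ℕ), n ≤ m → π ^ n * z ∈ A0 → π ^ m * z ∈ A0 := by
    intro z n m hnm h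
    obtain ⟨k, rfl⟩ := Nat.exists_eq_add_of_le hnm
    have : π ^ (n + k) * z = π ^ k * (π ^ n * z) := by ring
    rw [this]
    exact A0.mul_mem (A0.pow_mem hπA k) h
  choose f hf using fun z : B => hB z z.2
  set N := (Finset.range (p.natDegree + 1)).sup (fun i => f (p.coeff i)) with hN
  have hcoef : ∀ i, π ^ N * (((p.coeff i : B) : F1) : L) ∈ A0 := by
    intro i
    by_cases hi : i < p.natDegree + 1
    · exact hmono _ _ _ (Finset.le_sup (f := fun i => f (p.coeff i)) (Finset.mem_range.2 hi))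
        (hf (p.coeff i))
    · rw [Polynomial.coeff_eq_zero_of_natDegree_lt (by omega)]
      simp
  refine ⟨N, ?_⟩
  -- the polynomial over `L`
  set φ : B →+* L := F1.subtype.comp B.subtype with hφ
  set P : L[X] := p.map φ with hP
  have hPm : P.Monic := hp.map φ
  have hPy : Polynomial.eval₂ (RingHom.id L) (y : L) P = 0 := by
    rw [hP, Polynomial.eval₂_map, RingHom.id_comp]
    have h3 := congrArg F1.subtype hpy
    rw [Polynomial.hom_eval₂, map_zero] at h3
    exact h3
  have hQ0 := Polynomial.scaleRoots_eval₂_eq_zero (RingHom.id L) (s := π ^ N) hPy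
  have hQm : (P.scaleRoots (π ^ N)).Monic := (Polynomial.monic_scaleRoots_iff _).2 hPm
  have hdeg : P.natDegree = p.natDegree := by
    rw [hP]
    have hinj : Function.Injective φ := by
      intro a b hab
      apply Subtype.ext
      apply Subtype.ext
      exact hab
    exact Polynomial.natDegree_map_eq_of_injective hinj p
  have hlift : P.scaleRoots (π ^ N) ∈ Polynomial.lifts A0.subtype := by
    rw [Polynomial.lifts_iff_coeff_lifts]
    intro i
    rw [Polynomial.coeff_scaleRoots]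
    have hci : P.coeff i = (((p.coeff i : B) : F1) : L) := by
      rw [hP, Polynomial.coeff_map]
      rfl
    have hmem : P.coeff i * (π ^ N) ^ (P.natDegree - i) ∈ A0 := by
      rcases lt_trichotomy i P.natDegree with hlt | heq | hgt
      · obtain ⟨k, hk⟩ : ∃ k, P.natDegree - i = k + 1 := ⟨P.natDegree - i - 1, by omega⟩
        rw [hk, hci]
        have e : (((p.coeff i : B) : F1) : L) * (π ^ N) ^ (k + 1) =
            (π ^ N * (((p.coeff i : B) : F1) : L)) * (π ^ N) ^ k := by ring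
        rw [e]
        exact A0.mul_mem (hcoef i) (A0.pow_mem (A0.pow_mem hπA N) k)
      · rw [heq, Nat.sub_self, pow_zero, mul_one]
        have : P.coeff P.natDegree = 1 := hPm
        rw [this]
        exact A0.one_mem
      · rw [Polynomial.coeff_eq_zero_of_natDegree_lt hgt, zero_mul]
        exact A0.zero_mem
    exact ⟨⟨_, hmem⟩, rfl⟩
  obtain ⟨Q, hQ, -, hQmon⟩ := Polynomial.lifts_and_natDegree_eq_and_monic hlift hQm
  refine ⟨Q, hQmon, ?_⟩
  have : Polynomial.eval₂ (algebraMap A0 L) (π ^ N * (y : L)) Q =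
      Polynomial.eval₂ (RingHom.id L) (π ^ N * (y : L)) (Q.map A0.subtype) := by
    rw [Polynomial.eval₂_map, RingHom.id_comp]
    rfl
  rw [this, hQ]
  exact hQ0

/-- **descent to the chart**: an element of `V1 ⊓ V2` which lies in every valuation ring of `F1`
containing `A0` and `π⁻¹` lies in `A0`. -/
theorem S34HJQ_descend (S : S34C_Setup2 O π j F1 V1 V2 A0 Ainf) {θ : L} (hθ1 : θ ∈ V1)
    (hθ2 : θ ∈ V2)
    (hval : ∀ W : Subring L, (∀ x ∈ W, x ∈ F1) → (∀ x ∈ F1, x ∈ W ∨ x⁻¹ ∈ W) → A0 ≤ W →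
      π⁻¹ ∈ W → θ ∈ W) :
    θ ∈ A0 := by
  have hπ0 := S34HJQ_pi_ne_zero S
  have hπA : π ∈ A0 := S34HJQ_O_le_A0 S S.π_mem
  have hπF : π ∈ F1 := S.O_le S.π_mem
  have hθF : θ ∈ F1 := S.V1_le hθ1
  have hA0F : ∀ a ∈ A0, a ∈ F1 := fun a ha => ((S.chart0.mem_iff a).1 ha).2
  set s : Set F1 := {x | (x : L) ∈ A0} ∪ {(⟨π, hπF⟩ : F1)⁻¹} with hs
  have h1 : (⟨θ, hθF⟩ : F1) ∈ (integralClosure (Subring.closure s) F1).toSubring := by
    rw [← iInf_valuationSubring_superset, Subring.mem_iInf]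
    rintro ⟨V, hV⟩
    have hθW : θ ∈ V.toSubring.map F1.subtype := by
      apply hval
      · rintro _ ⟨x, -, rfl⟩
        exact x.2
      · intro x hx
        rcases V.mem_or_inv_mem ⟨x, hx⟩ with h | h
        · exact Or.inl ⟨_, h, rfl⟩
        · exact Or.inr ⟨_, h, rfl⟩
      · intro a ha
        exact ⟨⟨a, hA0F a ha⟩, hV (Or.inl ha), rfl⟩
      · exact ⟨_, hV (Or.inr rfl), rfl⟩
    obtain ⟨x, hx, hxθ⟩ := hθW
    have : x = ⟨θ, hθF⟩ := Subtype.ext hxθ
    rw [← this]
    exact hx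
  have h2 : IsIntegral (Subring.closure s) (⟨θ, hθF⟩ : F1) := h1
  have hB : ∀ z ∈ Subring.closure s, ∃ n : ℕ, π ^ n * (z : L) ∈ A0 := by
    intro z hz
    induction hz using Subring.closure_induction with
    | mem x hx =>
      rcases hx with hx | hx
      · exact ⟨0, by rw [pow_zero, one_mul]; exact hx⟩
      · rw [Set.mem_singleton_iff] at hx
        refine ⟨1, ?_⟩
        rw [hx, pow_one]
        show π * π⁻¹ ∈ A0
        rw [mul_inv_cancel₀ hπ0]
        exact A0.one_mem
    | zero => exact ⟨0, by rw [pow_zero, one_mul]; exact A0.zero_mem⟩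
    | one => exact ⟨0, by rw [pow_zero, one_mul]; exact A0.one_mem⟩
    | add x y _ _ hx hy =>
      obtain ⟨n, hn⟩ := hx
      obtain ⟨m, hm⟩ := hy
      refine ⟨n + m, ?_⟩
      have e : π ^ (n + m) * ((x + y : F1) : L) =
          π ^ m * (π ^ n * (x : L)) + π ^ n * (π ^ m * (y : L)) := by
        push_cast
        ring
      rw [e]
      exact A0.add_mem (A0.mul_mem (A0.pow_mem hπA m) hn) (A0.mul_mem (A0.pow_mem hπA n) hm)
    | neg x _ hx =>
      obtain ⟨n, hn⟩ := hx
      refine ⟨n, ?_⟩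
      have e : π ^ n * ((-x : F1) : L) = -(π ^ n * (x : L)) := by
        push_cast
        ring
      rw [e]
      exact A0.neg_mem hn
    | mul x y _ _ hx hy =>
      obtain ⟨n, hn⟩ := hx
      obtain ⟨m, hm⟩ := hy
      refine ⟨n + m, ?_⟩
      have e : π ^ (n + m) * ((x * y : F1) : L) = (π ^ n * (x : L)) * (π ^ m * (y : L)) := by
        push_cast
        ring
      rw [e]
      exact A0.mul_mem hn hm
  obtain ⟨n, hn⟩ := S34HJQ_scale hπA (Subring.closure s) hB h2
  have h3 : π ^ n * θ ∈ A0 := S34HJQ_A0_closed S (F1.mul_mem (F1.pow_mem hπF n) hθF) hn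
  exact S34HJQ_sat_pow S hθ1 hθ2 n h3

/-- in a valuation ring containing `O` and `π⁻¹`, nonzero elements of `O` are units -/
theorem S34HJQ_inv_mem (S : S34C_Setup2 O π j F1 V1 V2 A0 Ainf) {W : Subring L} (hOW : O ≤ W)
    (hπW : π⁻¹ ∈ W) {b : L} (hb : b ∈ O) (hb0 : b ≠ 0) : b⁻¹ ∈ W := by
  haveI := S.dvr
  have hb0' : (⟨b, hb⟩ : O) ≠ 0 := fun h => hb0 (congrArg Subtype.val h)
  obtain ⟨n, u, hu⟩ := IsDiscreteValuationRing.eq_unit_mul_pow_irreducible hb0'
    (S.π_irr S.π_mem)
  have h1 : b = ((u : O) : L) * π ^ n := by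
    have := congrArg (fun x : O => (x : L)) hu
    simpa using this
  have h2 : ((u : O) : L) * (((u⁻¹ : Oˣ) : O) : L) = 1 := by
    have : ((u : O) * ((u⁻¹ : Oˣ) : O) : O) = 1 := u.mul_inv
    exact congrArg (fun x : O => (x : L)) this
  have h3 : b⁻¹ = (((u⁻¹ : Oˣ) : O) : L) * (π⁻¹) ^ n := by
    have hu0 : ((u : O) : L) ≠ 0 := left_ne_zero_of_mul_eq_one h2
    have hπ0 := S34HJQ_pi_ne_zero S
    rw [h1, mul_inv, inv_pow, ← eq_inv_of_mul_eq_one_right h2]
  rw [h3]
  exact W.mul_mem (hOW ((u⁻¹ : Oˣ) : O).2) (W.pow_mem hπW n)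

end Abstract

section Main

variable (A : ValuationSubring (AlgebraicClosure ℚ))
  (K1 : IntermediateField ℚ (AlgebraicClosure ℚ)) [IsDiscreteValuationRing (S18K_O1 A K1)]
  (q : ℕ) [NeZero q] (hq : q.Prime) (hA : A.LiesOverPrime q)

set_option synthInstance.maxHeartbeats 400000 in
include hq hA in
/-- **`hjq`**: `j(q^q)` is integral over `O[j]`. -/
theorem S34HJQ_main :
    IsIntegral (adj (S18K_O A K1) (S18K_j K1)) (qExpand K1 q (S18K_j K1)) := by
  haveI : NeZero (1 * q) := ⟨by rw [one_mul]; exact hq.ne_zero⟩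
  have hN : 1 * q = q * 1 := by ring
  have S := S34P1C_setup2 A K1 q 1 (1 * q) hq hq.not_dvd_one hN hA
  have hθ1 : qExpand K1 q (jqModC K1) ∈ S18K_V A K1 (1 * q) :=
    S34V0K_jq_mem_V1 A K1 q 1 (1 * q) hq hq.not_dvd_one hN
  have hθ2 : qExpand K1 q (jqModC K1) ∈ S34V0K_V A K1 q 1 (1 * q) hq hq.not_dvd_one hN :=
    S34V0K_jq_mem A K1 q 1 (1 * q) hq hq.not_dvd_one hN
  have h : qExpand K1 q (jqModC K1) ∈ S18K_A0 A K1 (1 * q) := by
    apply S34HJQ_descend S hθ1 hθ2
    intro W hWF hWval hA0W hπW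
    have hOW : S18K_O A K1 ≤ W := (S34HJQ_O_le_A0 S).trans hA0W
    -- the valuation subring of the function field cut out by `W`
    let Wv : ValuationSubring (modularFunctionFieldFullC K1 (1 * q)) :=
      { W.comap (modularFunctionFieldFullC K1 (1 * q)).val.toRingHom with
        mem_or_inv_mem' := fun x => by
          rcases hWval (x : LaurentSeries K1) x.2 with hx | hx
          · exact Or.inl hx
          · right
            show ((x⁻¹ : modularFunctionFieldFullC K1 (1 * q)) : LaurentSeries K1) ∈ W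
            simpa using hx }
    have hmem : ∀ x : modularFunctionFieldFullC K1 (1 * q),
        x ∈ Wv ↔ (x : LaurentSeries K1) ∈ W := fun _ => Iff.rfl
    have key := S34HJQ_val (K1 := K1) (S34V0K_emb K1) q hq Wv ?_ ?_
    · exact (hmem _).1 key
    · intro c
      rw [hmem]
      show algebraMap K1 (LaurentSeries K1) c ∈ W
      rw [algebraMap_laurentSeries_eq_single, ← HahnSeries.C_apply]
      rcases (S18K_O1 A K1).mem_or_inv_mem c with hc | hc
      · exact hOW ((S18K_mem_O A K1 _).2 ⟨c, hc, rfl⟩)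
      · by_cases hc0 : c = 0
        · rw [hc0, map_zero]; exact W.zero_mem
        have hb : HahnSeries.C c⁻¹ ∈ S18K_O A K1 := (S18K_mem_O A K1 _).2 ⟨c⁻¹, hc, rfl⟩
        have hb0 : (HahnSeries.C c⁻¹ : LaurentSeries K1) ≠ 0 := by
          intro h0
          have := HahnSeries.C_injective (Γ := ℤ) (R := K1) (by rw [h0, map_zero] :
            HahnSeries.C c⁻¹ = HahnSeries.C (0 : K1))
          exact inv_ne_zero hc0 this
        have := S34HJQ_inv_mem S hOW hπW hb hb0
        rw [map_inv₀, inv_inv] at this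
        exact this
    · rw [hmem]
      apply hA0W
      rw [S.chart0.mem_iff]
      refine ⟨?_, S.j_mem⟩
      have hj' : S18K_j K1 ∈ adj (S18K_O A K1) (S18K_j K1) :=
        Subring.subset_closure (Or.inr rfl)
      exact isIntegral_algebraMap (R := adj (S18K_O A K1) (S18K_j K1))
        (A := LaurentSeries K1) (x := ⟨S18K_j K1, hj'⟩)
  exact ((S.chart0.mem_iff _).1 h).1

end Main

end Fermat.Agent.S34_helper13_HJQM
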