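import Mathlib
import Fermat.Agent.S18_helper3_LOCRING
import Fermat.Agent.S34_helper12_CDefs

/-!
# S34, block C': the trichotomy of the closed points of a two-component chart (helper12)

`S : S34C_Setup2 O π j F1 V1 V2 A0 Ainf`, `A` a chart relative to `V1 ⊓ V2`, `m` a maximal ideal
of `A` containing `π`.  Put `P_i := {a ∈ A | a ∈ π V_i}` (the two minimal primes over `π`).

* `S34DI_inter` : `P_1 ∩ P_2 = π A` (this is `Chart.sat`);
* `S34DI_unit_of_notMem` : an element `d ∈ P_2`, `d ∉ m` is a unit of `V1`;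
* `S34DI_cases` : `m` lies on the first component only (with the element `d` needed by the local
  lift at one-component points), on the second component only (mirror), or on both (crossing
  point);
* `S34DI_shape_of_cross` : the typed target of the node pieces: a local generator `g ≡ 1` modulo
  `π (V1 ⊓ V2)` with `f / g ^ p` a unit of the local ring at `m` gives `S34C_Shape`.
-/

set_option autoImplicit false

namespace Fermat.Agent.S34_helper12_DICH

open Fermat.Agent.S18_helper9_CDefs Fermat.Agent.S34_helper12_CDefs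
  Fermat.Agent.S18_helper3_LOCRING

variable {L : Type*} [Field L]

variable {O : Subring L} {π j : L} {F1 : Subfield L} {V V1 V2 A0 Ainf : Subring L}

/-- `π ≠ 0`. -/
theorem S34DI_pi_ne_zero (S : S34C_Setup2 O π j F1 V1 V2 A0 Ainf) : π ≠ 0 := by
  intro h
  apply S.V1_nonunit
  rw [h, inv_zero]
  exact V1.zero_mem

/-- `P_1 ∩ P_2 = π A`: an element of the chart which is divisible by `π` in `V1` and in `V2` is
divisible by `π` in the chart. -/
theorem S34DI_inter (S : S34C_Setup2 O π j F1 V1 V2 A0 Ainf) {x : L} {A : Subring L}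
    (hC : Chart O π x F1 (V1 ⊓ V2) A) {a : L} (ha : a ∈ A)
    (h1 : ∃ v ∈ V1, a = π * v) (h2 : ∃ v ∈ V2, a = π * v) : ∃ b ∈ A, a = π * b := by
  obtain ⟨v1, hv1, e1⟩ := h1
  obtain ⟨v2, hv2, e2⟩ := h2
  have hπ0 := S34DI_pi_ne_zero S
  have hv : v1 = v2 := mul_left_cancel₀ hπ0 (e1.symm.trans e2)
  have hvV : v1 ∈ V1 ⊓ V2 := ⟨hv1, hv ▸ hv2⟩
  exact ⟨v1, hC.sat v1 hvV (e1 ▸ ha), e1⟩

/-- An element of the chart outside `m` which is divisible by `π` in `V2` is a unit of `V1`. -/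
theorem S34DI_unit_of_notMem (S : S34C_Setup2 O π j F1 V1 V2 A0 Ainf) {x : L} {A : Subring L}
    (hC : Chart O π x F1 (V1 ⊓ V2) A) (hπ : π ∈ A) (m : Ideal A)
    (hπm : (⟨π, hπ⟩ : A) ∈ m) (d : A) (hdm : d ∉ m) (hd2 : ∃ v ∈ V2, (d : L) = π * v) :
    ((d : L))⁻¹ ∈ V1 := by
  by_contra hinv
  have hdV1 : (d : L) ∈ V1 := (hC.le_V d.2).1
  obtain ⟨v, hv, hdv⟩ := S.V1_unif _ hdV1 hinv
  obtain ⟨b, hb, hdb⟩ := S34DI_inter S hC d.2 ⟨v, hv, hdv⟩ hd2
  apply hdm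
  have : d = (⟨π, hπ⟩ : A) * ⟨b, hb⟩ := Subtype.ext hdb
  rw [this]
  exact m.mul_mem_right _ hπm

/-- The mirror statement. -/
theorem S34DI_unit_of_notMem' (S : S34C_Setup2 O π j F1 V1 V2 A0 Ainf) {x : L} {A : Subring L}
    (hC : Chart O π x F1 (V1 ⊓ V2) A) (hπ : π ∈ A) (m : Ideal A)
    (hπm : (⟨π, hπ⟩ : A) ∈ m) (d : A) (hdm : d ∉ m) (hd1 : ∃ v ∈ V1, (d : L) = π * v) :
    ((d : L))⁻¹ ∈ V2 := by
  by_contra hinv
  have hdV2 : (d : L) ∈ V2 := (hC.le_V d.2).2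
  obtain ⟨v, hv, hdv⟩ := S.V2_unif _ hdV2 hinv
  obtain ⟨b, hb, hdb⟩ := S34DI_inter S hC d.2 hd1 ⟨v, hv, hdv⟩
  apply hdm
  have : d = (⟨π, hπ⟩ : A) * ⟨b, hb⟩ := Subtype.ext hdb
  rw [this]
  exact m.mul_mem_right _ hπm

/-- **The trichotomy.**  A maximal ideal `m ∋ π` of a two-component chart lies on the first
component only (first alternative, with the element `d`: a unit of `V1`, divisible by `π` in
`V2`, outside `m`), on the second component only (second alternative), or it is a crossing point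
(third alternative: `m` contains both minimal primes over `π`). -/
theorem S34DI_cases (S : S34C_Setup2 O π j F1 V1 V2 A0 Ainf) (x : L) (A : Subring L)
    (hC : Chart O π x F1 (V1 ⊓ V2) A) (hπ : π ∈ A) (m : Ideal A)
    (hπm : (⟨π, hπ⟩ : A) ∈ m) :
    (∃ d : A, d ∉ m ∧ ((d : L))⁻¹ ∈ V1 ∧ ∃ v ∈ V2, (d : L) = π * v) ∨
    (∃ d : A, d ∉ m ∧ ((d : L))⁻¹ ∈ V2 ∧ ∃ v ∈ V1, (d : L) = π * v) ∨
    ((∀ a : A, (∃ v ∈ V1, (a : L) = π * v) → a ∈ m) ∧
      (∀ a : A, (∃ v ∈ V2, (a : L) = π * v) → a ∈ m)) := by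
  by_cases h2 : ∀ a : A, (∃ v ∈ V2, (a : L) = π * v) → a ∈ m
  · by_cases h1 : ∀ a : A, (∃ v ∈ V1, (a : L) = π * v) → a ∈ m
    · exact Or.inr (Or.inr ⟨h1, h2⟩)
    · obtain ⟨d, hd⟩ := not_forall.1 h1
      obtain ⟨hd1, hdm⟩ := Classical.not_imp.1 hd
      exact Or.inr (Or.inl ⟨d, hdm, S34DI_unit_of_notMem' S hC hπ m hπm d hdm hd1, hd1⟩)
  · obtain ⟨d, hd⟩ := not_forall.1 h2
    obtain ⟨hd2, hdm⟩ := Classical.not_imp.1 hd
    exact Or.inl ⟨d, hdm, S34DI_unit_of_notMem S hC hπ m hπm d hdm hd2, hd2⟩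

/-- A maximal ideal containing `π` contains one of the two minimal primes over `π`. -/
theorem S34DI_le_or_le (S : S34C_Setup2 O π j F1 V1 V2 A0 Ainf) (x : L) (A : Subring L)
    (hC : Chart O π x F1 (V1 ⊓ V2) A) (hπ : π ∈ A) (m : Ideal A) [hm : m.IsPrime]
    (hπm : (⟨π, hπ⟩ : A) ∈ m) :
    (∀ a : A, (∃ v ∈ V1, (a : L) = π * v) → a ∈ m) ∨
      (∀ a : A, (∃ v ∈ V2, (a : L) = π * v) → a ∈ m) := by
  by_contra hcon
  obtain ⟨hc1, hc2⟩ := not_or.1 hcon
  obtain ⟨a1, hd1⟩ := not_forall.1 hc1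
  obtain ⟨⟨v1, hv1, e1⟩, ha1⟩ := Classical.not_imp.1 hd1
  obtain ⟨a2, hd2⟩ := not_forall.1 hc2
  obtain ⟨⟨v2, hv2, e2⟩, ha2⟩ := Classical.not_imp.1 hd2
  have h12 : a1 * a2 ∈ m := by
    obtain ⟨b, hb, hab⟩ := S34DI_inter S hC (a1 * a2).2
      ⟨v1 * (a2 : L), V1.mul_mem hv1 (hC.le_V a2.2).1, by
        rw [Subring.coe_mul, e1]; ring⟩
      ⟨(a1 : L) * v2, V2.mul_mem (hC.le_V a1.2).2 hv2, by
        rw [Subring.coe_mul, e2]; ring⟩
    have : a1 * a2 = (⟨π, hπ⟩ : A) * ⟨b, hb⟩ := Subtype.ext hab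
    rw [this]
    exact m.mul_mem_right _ hπm
  rcases hm.mem_or_mem h12 with h | h
  · exact ha1 h
  · exact ha2 h

/-- **The typed target of the node pieces.**  At a point `m` of the chart `A`: if `g ∈ F1` is
congruent to `1` modulo `π V` and `f / g ^ p` is a unit of the local ring of `A` at `m`, then `f`
has the local shape at `m` relative to every unit `G` of `O`. -/
theorem S34DI_shape_of_cross (S : S34C_Setup O π j F1 V A0 Ainf) {x : L} {A : Subring L}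
    (hC : Chart O π x F1 V A) (hOA : O ≤ A) (p : ℕ) (m : Ideal A) [hm : m.IsPrime]
    (f G g c : L) (hg : g ∈ F1) (hc : c ∈ V) (hgc : g = 1 + π * c)
    (hu : f * (g ^ p)⁻¹ ∈ locRing A m) (hu' : (f * (g ^ p)⁻¹)⁻¹ ∈ locRing A m)
    (hG : G ∈ O) (hG' : G⁻¹ ∈ O) :
    S34C_Shape π F1 V A p f G m := by
  have hπV : π ∈ V := hC.le_V (hOA S.π_mem)
  have hgV : g ∈ V := by
    rw [hgc]
    exact V.add_mem V.one_mem (V.mul_mem hπV hc)
  have hgV' : g⁻¹ ∈ V := by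
    rw [hgc]
    exact S.V_rad c hc
  have hg0 : g ≠ 0 := by
    intro h0
    apply S.π_nonunit
    have hπ0 : π ≠ 0 := by
      intro h
      apply S.π_nonunit
      rw [h, inv_zero]
      exact V.zero_mem
    have h1 : π * c = -1 := by
      have : 1 + π * c = 0 := by rw [← hgc, h0]
      linear_combination this
    have : π⁻¹ = -c := inv_eq_of_mul_eq_one_right (by linear_combination -h1)
    rw [this]
    exact V.neg_mem hc
  have h1m : (1 : A) ∉ m := fun h => hm.ne_top ((Ideal.eq_top_iff_one m).2 h)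
  refine ⟨f * (g ^ p)⁻¹, g, G, (mem_locRing_iff A m).1 hu, (mem_locRing_iff A m).1 hu', hg, hgV,
    hgV', ?_, ⟨⟨G, hOA hG⟩, 1, h1m, by simp⟩, ⟨⟨G⁻¹, hOA hG'⟩, 1, h1m, by simp⟩,
    -(c * g⁻¹), V.neg_mem (V.mul_mem hc hgV'), ?_⟩
  · have hgp : g ^ p ≠ 0 := pow_ne_zero _ hg0
    field_simp
  · have e : g * (1 + π * -(c * g⁻¹)) = 1 := by
      have : g * (1 + π * -(c * g⁻¹)) = g - π * c * (g * g⁻¹) := by ring
      rw [this, mul_inv_cancel₀ hg0, mul_one, hgc]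
      ring
    calc G = G * (g * (1 + π * -(c * g⁻¹))) := by rw [e, mul_one]
      _ = g * G * (1 + π * -(c * g⁻¹)) := by ring

end Fermat.Agent.S34_helper12_DICH
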