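import Mathlib
import Fermat.Agent.S34_helper4_N2

/-!
# S34, piece (N1), abstract half: the component through `∞` is the fibre of the smaller level

Pure commutative algebra (Mathlib + the definition `S34N2_loc` of `S34_helper4_N2`).

Setting: `f : A' →+* A` a ring homomorphism (`A'` = chart of level `N'`, `A` = chart of
level `q N'`; `f` = the inclusion for the component through `∞`, `f` = `w ∘` inclusion for the
other component), `π : A'`, `Pinf` a prime of `A` with `Pinf ∩ A' = π A'`, such that `A ⧸ Pinf`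
is integral over `A'` (hypothesis `hint`; automatic if `f` is integral) and of residue degree one
(every element of `A` is, modulo `Pinf`, a fraction of elements of `A'` with denominator prime to
`π`), `A'` noetherian with `[IG]` (every maximal ideal containing `π` is generated locally by `π`
and one more element).

* `S34N1_quot_isIntegrallyClosed` : `A' ⧸ π` is integrally closed;
* `S34N1_surj` : `A = f A' + Pinf`;
* `S34N1_dvr` : every maximal ideal `m ⊇ Pinf` of `A` is generated, locally at `m`, by `Pinf` and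
  one element coming from `A'` (input `hdvrinf` of `S34N2_node` / `S34N2_transversal_frob`);
* `S34N1_smooth` : at a maximal ideal `m ⊇ Pinf` not containing `P0`, where
  `Pinf ⊓ P0 = (π)` locally, `m` is generated locally by `π` and one element (`[IG]` at `m`);
* `S34N1_dvr_transport`, `S34N1_smooth_transport` : the same for the other component
  `P0 = σ (Pinf)`, `σ` an automorphism of `A`.
-/

set_option autoImplicit false
set_option linter.style.haveILetI false

namespace Fermat.Agent.S34_helper14_N1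

open Fermat.Agent.S34_helper4_N2

section IG

variable {A' : Type*} [CommRing A']

/-- `[IG]` for the ring `A'` and the element `π`: every maximal ideal `m ∋ π` is generated,
locally at `m`, by `π` and one more element. -/
def S34N1_IG (π : A') : Prop :=
  ∀ m : Ideal A', m.IsMaximal → π ∈ m →
    ∃ y ∈ m, ∀ x ∈ m, ∃ c : A', c ∉ m ∧ ∃ a b : A', c * x = a * π + b * y

/-- `[IG]` at one prime ideal `m` of `A'`. -/
def S34N1_IGAt (π : A') (m : Ideal A') : Prop :=
  ∃ y ∈ m, ∀ x ∈ m, ∃ c : A', c ∉ m ∧ ∃ a b : A', c * x = a * π + b * y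

/-- If `A'` is noetherian, `(π)` is prime and `[IG]` holds, then `A' ⧸ π` is integrally closed
(all its localisations at maximal ideals are fields or discrete valuation rings). -/
theorem S34N1_quot_isIntegrallyClosed [IsNoetherianRing A'] (π : A')
    (hprime : (Ideal.span {π}).IsPrime) (hIG : S34N1_IG π) :
    IsIntegrallyClosed (A' ⧸ Ideal.span {π}) := by
  haveI := hprime
  haveI : IsDomain (A' ⧸ Ideal.span {π}) := Ideal.Quotient.isDomain _
  refine IsIntegrallyClosed.of_localization_maximal (fun M _ hM => ?_)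
  haveI := hM
  set mk := Ideal.Quotient.mk (Ideal.span {π}) with hmk
  have hsurj : Function.Surjective mk := Ideal.Quotient.mk_surjective
  have hm : (M.comap mk).IsMaximal := Ideal.comap_isMaximal_of_surjective mk hsurj
  have hπ0 : mk π = 0 := Ideal.Quotient.eq_zero_iff_mem.2 (Ideal.mem_span_singleton_self π)
  have hπm : π ∈ M.comap mk := by
    rw [Ideal.mem_comap, hπ0]; exact M.zero_mem
  obtain ⟨y, hy, hgen⟩ := hIG _ hm hπm
  haveI : IsNoetherianRing (Localization.AtPrime M) :=
    IsLocalization.isNoetherianRing M.primeCompl _ inferInstance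
  have hprinc : (IsLocalRing.maximalIdeal (Localization.AtPrime M)).IsPrincipal := by
    refine ⟨algebraMap _ (Localization.AtPrime M) (mk y), ?_⟩
    rw [← Localization.AtPrime.map_eq_maximalIdeal]
    apply le_antisymm
    · rw [Ideal.map_le_iff_le_comap]
      intro x hx
      obtain ⟨x₀, rfl⟩ := hsurj x
      obtain ⟨c, hc, a, b, hrel⟩ := hgen x₀ hx
      have hcM : mk c ∈ M.primeCompl := hc
      have hu : IsUnit (algebraMap _ (Localization.AtPrime M) (mk c)) :=
        IsLocalization.map_units (Localization.AtPrime M) ⟨mk c, hcM⟩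
      rw [Ideal.mem_comap]
      have h1 : algebraMap _ (Localization.AtPrime M) (mk c) *
          algebraMap _ (Localization.AtPrime M) (mk x₀) =
          algebraMap _ (Localization.AtPrime M) (mk b) *
            algebraMap _ (Localization.AtPrime M) (mk y) := by
        rw [← map_mul, ← map_mul, ← map_mul, ← map_mul, hrel, map_add, map_mul, map_mul, hπ0,
          mul_zero, zero_add]
      have h2 : algebraMap _ (Localization.AtPrime M) (mk c) *
          algebraMap _ (Localization.AtPrime M) (mk x₀) ∈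
          Submodule.span (Localization.AtPrime M)
            {algebraMap _ (Localization.AtPrime M) (mk y)} := by
        rw [h1]
        exact Ideal.mul_mem_left _ _ (Ideal.subset_span rfl)
      exact (Ideal.unit_mul_mem_iff_mem _ hu).1 h2
    · change Ideal.span _ ≤ _
      rw [Ideal.span_le, Set.singleton_subset_iff]
      exact Ideal.mem_map_of_mem _ hy
  haveI : IsPrincipalIdealRing (Localization.AtPrime M) :=
    ((tfae_of_isNoetherianRing_of_isLocalRing_of_isDomain
      (R := Localization.AtPrime M)).out 4 0).1 hprinc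
  infer_instance

end IG

section Closed

variable {B' B : Type*} [CommRing B'] [CommRing B] [IsDomain B'] [IsDomain B]

/-- An element `y` of a domain `B ⊇ B'`, integral over the integrally closed domain `B'`, and
with `s y = r` for `r, s ∈ B'`, `s ≠ 0`, lies in `B'`. -/
theorem S34N1_mem_range_of_isIntegrallyClosed [IsIntegrallyClosed B'] (φ : B' →+* B)
    (hφ : Function.Injective φ) (y : B) (hy : φ.IsIntegralElem y) (s r : B') (hs : s ≠ 0)
    (h : φ s * y = φ r) : ∃ b : B', φ b = y := by
  letI := φ.toAlgebra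
  have hinj : Function.Injective (algebraMap B' (FractionRing B)) := by
    rw [IsScalarTower.algebraMap_eq B' B (FractionRing B)]
    exact (IsFractionRing.injective B (FractionRing B)).comp hφ
  have hinj' : Function.Injective (Algebra.ofId B' (FractionRing B)) := hinj
  let g : FractionRing B' →ₐ[B'] FractionRing B := IsFractionRing.liftAlgHom hinj'
  have hs' : algebraMap B' (FractionRing B') s ≠ 0 := by
    intro h0
    exact hs ((IsFractionRing.injective B' (FractionRing B')) (by rw [h0, map_zero]))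
  have hsK : algebraMap B' (FractionRing B) s ≠ 0 := by
    intro h0
    exact hs (hinj (by rw [h0, map_zero]))
  have hgz : g (algebraMap B' (FractionRing B') r / algebraMap B' (FractionRing B') s) =
      algebraMap B (FractionRing B) y := by
    rw [map_div₀, AlgHom.commutes, AlgHom.commutes, div_eq_iff hsK,
      IsScalarTower.algebraMap_apply B' B (FractionRing B) r,
      IsScalarTower.algebraMap_apply B' B (FractionRing B) s, ← map_mul]
    congr 1
    rw [mul_comm]
    exact h.symm
  have hyK : IsIntegral B' (algebraMap B (FractionRing B) y) :=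
    IsIntegral.algebraMap (hy : IsIntegral B' y)
  have hz : IsIntegral B' (algebraMap B' (FractionRing B') r / algebraMap B' (FractionRing B') s) :=
    (isIntegral_algHom_iff g g.toRingHom.injective).1 (hgz ▸ hyK)
  obtain ⟨b, hb⟩ := IsIntegrallyClosed.isIntegral_iff.1 hz
  refine ⟨b, ?_⟩
  have h1 : s * b = r := by
    apply IsFractionRing.injective B' (FractionRing B')
    rw [map_mul, hb, mul_div_cancel₀ _ hs']
  have h2 : φ s * (φ b - y) = 0 := by
    rw [mul_sub, ← map_mul, h1, h, sub_self]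
  have h3 : φ s ≠ 0 := fun h0 => hs (hφ (by rw [h0, map_zero]))
  rcases mul_eq_zero.1 h2 with h4 | h4
  · exact absurd h4 h3
  · exact sub_eq_zero.1 h4

end Closed

section Main

variable {A' A : Type*} [CommRing A'] [CommRing A]

/-- The hypothesis `hint` of the theorems below holds if `f` is integral. -/
theorem S34N1_hint_of_isIntegral (f : A' →+* A) (hf : f.IsIntegral) (Pinf : Ideal A) :
    ∀ y : A, ∃ P : Polynomial A', P.Monic ∧ Polynomial.eval₂ f y P ∈ Pinf := by
  intro y
  obtain ⟨P, hP, hPy⟩ := hf y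
  exact ⟨P, hP, by rw [hPy]; exact Pinf.zero_mem⟩

/-- **(N1), surjectivity.**  `A = f A' + Pinf`: the component `A ⧸ Pinf` is the fibre
`A' ⧸ π` of the smaller level. -/
theorem S34N1_surj [IsNoetherianRing A'] (f : A' →+* A) (π : A')
    (Pinf : Ideal A) (hPinf : Pinf.IsPrime) (hπ : f π ∈ Pinf)
    (hint : ∀ y : A, ∃ P : Polynomial A', P.Monic ∧ Polynomial.eval₂ f y P ∈ Pinf)
    (hcap : ∀ a : A', f a ∈ Pinf → a ∈ Ideal.span {π})
    (hIG : S34N1_IG π)
    (hres : ∀ y : A, ∃ a s : A', s ∉ Ideal.span {π} ∧ f s * y - f a ∈ Pinf) :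
    ∀ y : A, ∃ a : A', y - f a ∈ Pinf := by
  have hle : Ideal.span {π} ≤ Pinf.comap f := by
    rw [Ideal.span_le, Set.singleton_subset_iff]
    exact hπ
  have heq : Ideal.span {π} = Pinf.comap f := le_antisymm hle (fun a ha => hcap a ha)
  have hprime : (Ideal.span {π}).IsPrime := by
    rw [heq]; exact Ideal.comap_isPrime f Pinf
  haveI := hprime
  haveI := hPinf
  haveI : IsDomain (A' ⧸ Ideal.span {π}) := Ideal.Quotient.isDomain _
  haveI : IsDomain (A ⧸ Pinf) := Ideal.Quotient.isDomain _
  haveI : IsIntegrallyClosed (A' ⧸ Ideal.span {π}) := S34N1_quot_isIntegrallyClosed π hprime hIG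
  have hφmk : ∀ x : A', (Ideal.quotientMap Pinf f hle) (Ideal.Quotient.mk (Ideal.span {π}) x) =
      Ideal.Quotient.mk Pinf (f x) := fun x => Ideal.quotientMap_mk
  have hφinj : Function.Injective (Ideal.quotientMap Pinf f hle) := by
    rw [injective_iff_map_eq_zero]
    intro x hx
    obtain ⟨x₀, rfl⟩ := Ideal.Quotient.mk_surjective x
    rw [hφmk, Ideal.Quotient.eq_zero_iff_mem] at hx
    exact Ideal.Quotient.eq_zero_iff_mem.2 (hcap x₀ hx)
  have hφint : ∀ y : A,
      (Ideal.quotientMap Pinf f hle).IsIntegralElem (Ideal.Quotient.mk Pinf y) := by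
    intro y
    obtain ⟨P, hP, hPy⟩ := hint y
    refine ⟨P.map (Ideal.Quotient.mk _), hP.map _, ?_⟩
    rw [Polynomial.eval₂_map]
    have hcomp : (Ideal.quotientMap Pinf f hle).comp (Ideal.Quotient.mk (Ideal.span {π})) =
        (Ideal.Quotient.mk Pinf).comp f := by
      ext x; exact hφmk x
    rw [hcomp, ← Polynomial.hom_eval₂]
    exact Ideal.Quotient.eq_zero_iff_mem.2 hPy
  intro y
  obtain ⟨a, s, hs, hsa⟩ := hres y
  have hs0 : (Ideal.Quotient.mk (Ideal.span {π}) s) ≠ 0 := by
    rw [Ne, Ideal.Quotient.eq_zero_iff_mem]; exact hs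
  have hrel : (Ideal.quotientMap Pinf f hle) (Ideal.Quotient.mk _ s) *
      (Ideal.Quotient.mk Pinf y) = (Ideal.quotientMap Pinf f hle) (Ideal.Quotient.mk _ a) := by
    rw [hφmk, hφmk, ← map_mul, Ideal.Quotient.eq]
    exact hsa
  obtain ⟨b, hb⟩ := S34N1_mem_range_of_isIntegrallyClosed (Ideal.quotientMap Pinf f hle) hφinj
    (Ideal.Quotient.mk Pinf y) (hφint y) _ _ hs0 hrel
  obtain ⟨b₀, rfl⟩ := Ideal.Quotient.mk_surjective b
  refine ⟨b₀, ?_⟩
  rw [hφmk] at hb
  rw [← Ideal.Quotient.eq]
  exact hb.symm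

/-- **(N1), the component is a smooth curve.**  Every maximal ideal `m ⊇ Pinf` of `A` is
generated, locally at `m`, by `Pinf` and ONE element `f y'`, `y' ∈ A'` (the `[IG]` generator of
`m ∩ A'`). -/
theorem S34N1_dvr [IsNoetherianRing A'] (f : A' →+* A) (π : A')
    (Pinf : Ideal A) (hPinf : Pinf.IsPrime) (hπ : f π ∈ Pinf)
    (hint : ∀ y : A, ∃ P : Polynomial A', P.Monic ∧ Polynomial.eval₂ f y P ∈ Pinf)
    (hcap : ∀ a : A', f a ∈ Pinf → a ∈ Ideal.span {π})
    (hIG : S34N1_IG π)
    (hres : ∀ y : A, ∃ a s : A', s ∉ Ideal.span {π} ∧ f s * y - f a ∈ Pinf)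
    (m : Ideal A) (hm : m.IsMaximal) (hPm : Pinf ≤ m) :
    ∃ y' : A', f y' ∈ m ∧ m ≤ S34N2_loc (Pinf ⊔ Ideal.span {f y'}) m hm.isPrime := by
  have hsurj := S34N1_surj f π Pinf hPinf hπ hint hcap hIG hres
  have hm' : (m.comap f).IsMaximal := by
    have h1 : Function.Surjective ((Ideal.Quotient.mk m).comp f) := by
      intro z
      obtain ⟨z₀, rfl⟩ := Ideal.Quotient.mk_surjective z
      obtain ⟨a, ha⟩ := hsurj z₀
      refine ⟨a, ?_⟩
      rw [RingHom.comp_apply, eq_comm, Ideal.Quotient.eq]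
      exact hPm ha
    have h2 : m.comap f = RingHom.ker ((Ideal.Quotient.mk m).comp f) := by
      ext a
      rw [Ideal.mem_comap, RingHom.mem_ker, RingHom.comp_apply, Ideal.Quotient.eq_zero_iff_mem]
    rw [h2]
    haveI := hm
    letI : Field (A ⧸ m) := Ideal.Quotient.field m
    exact RingHom.ker_isMaximal_of_surjective _ h1
  have hπm : π ∈ m.comap f := hPm hπ
  obtain ⟨y', hy', hgen⟩ := hIG _ hm' hπm
  refine ⟨y', hy', fun b hb => ?_⟩
  obtain ⟨a, ha⟩ := hsurj b
  have ham : a ∈ m.comap f := by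
    rw [Ideal.mem_comap]
    have : f a = b - (b - f a) := by ring
    rw [this]
    exact m.sub_mem hb (hPm ha)
  obtain ⟨c, hc, α, β, hrel⟩ := hgen a ham
  refine ⟨f c, hc, ?_⟩
  have h1 : f c * b = f c * (b - f a) + (f α * f π + f β * f y') := by
    rw [← map_mul, ← map_mul, ← map_add, ← hrel, map_mul]; ring
  rw [h1]
  refine Submodule.add_mem _ (Ideal.mem_sup_left (Pinf.mul_mem_left _ ha))
    (Submodule.add_mem _ (Ideal.mem_sup_left (Pinf.mul_mem_left _ hπ))
      (Ideal.mem_sup_right (Ideal.mul_mem_left _ _ (Ideal.subset_span rfl))))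

/-- At a prime `m ⊇ Pinf` which does not contain `P0`, with `Pinf ⊓ P0 = (ϖ)` locally at `m`:
`Pinf = (ϖ)` locally at `m`. -/
theorem S34N1_Pinf_le_loc (ϖ : A) (Pinf P0 m : Ideal A) (hm : m.IsPrime)
    (hP0 : ¬ P0 ≤ m) (hint : Pinf ⊓ P0 ≤ S34N2_loc (Ideal.span {ϖ}) m hm) :
    Pinf ≤ S34N2_loc (Ideal.span {ϖ}) m hm := by
  obtain ⟨c, hc0, hcm⟩ := Set.not_subset.1 hP0
  intro b hb
  exact S34N2_loc_sat _ m hm hcm (hint ⟨Pinf.mul_mem_left _ hb, P0.mul_mem_right _ hc0⟩)

/-- **(N1), smooth points are regular.**  At a maximal ideal `m ⊇ Pinf` of `A` which does not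
contain `P0` (a smooth point of the component through `∞`), `m` is generated locally at `m` by
`π` and one element `f y'`: this is `[IG]` at `m`, the input of the local theory of S18. -/
theorem S34N1_smooth [IsNoetherianRing A'] (f : A' →+* A) (π : A')
    (Pinf : Ideal A) (hPinf : Pinf.IsPrime) (hπ : f π ∈ Pinf)
    (hint : ∀ y : A, ∃ P : Polynomial A', P.Monic ∧ Polynomial.eval₂ f y P ∈ Pinf)
    (hcap : ∀ a : A', f a ∈ Pinf → a ∈ Ideal.span {π})
    (hIG : S34N1_IG π)
    (hres : ∀ y : A, ∃ a s : A', s ∉ Ideal.span {π} ∧ f s * y - f a ∈ Pinf)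
    (m : Ideal A) (hm : m.IsMaximal) (hPm : Pinf ≤ m)
    (P0 : Ideal A) (hP0 : ¬ P0 ≤ m)
    (hinter : Pinf ⊓ P0 ≤ S34N2_loc (Ideal.span {f π}) m hm.isPrime) :
    ∃ y' : A', f y' ∈ m ∧ ∀ x ∈ m, ∃ c : A, c ∉ m ∧ ∃ a b : A, c * x = a * f π + b * f y' := by
  obtain ⟨y', hy', hgen⟩ := S34N1_dvr f π Pinf hPinf hπ hint hcap hIG hres m hm hPm
  refine ⟨y', hy', fun x hx => ?_⟩
  have hPinf_le := S34N1_Pinf_le_loc (f π) Pinf P0 m hm.isPrime hP0 hinter
  have h1 : Pinf ⊔ Ideal.span {f y'} ≤ S34N2_loc (Ideal.span {f π, f y'}) m hm.isPrime := by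
    refine sup_le (hPinf_le.trans (S34N2_loc_mono (Ideal.span_mono (by simp)) m hm.isPrime)) ?_
    refine (Ideal.span_mono ?_).trans (S34N2_le_loc _ m hm.isPrime)
    simp
  obtain ⟨c, hc, hcx⟩ := (hgen.trans (S34N2_loc_le h1)) hx
  obtain ⟨a, b, hab⟩ := Ideal.mem_span_pair.1 hcx
  exact ⟨c, hc, a, b, hab.symm⟩

end Main

section Transport

variable {A : Type*} [CommRing A]

/-- Transport of `S34N2_loc` along a ring automorphism. -/
theorem S34N1_loc_map (σ : A ≃+* A) (K m : Ideal A) (hm : m.IsPrime)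
    (hm' : (m.comap (σ : A →+* A)).IsPrime) {b : A}
    (hb : b ∈ S34N2_loc K (m.comap (σ : A →+* A)) hm') :
    σ b ∈ S34N2_loc (K.map (σ : A →+* A)) m hm := by
  obtain ⟨s, hs, hsb⟩ := hb
  refine ⟨σ s, hs, ?_⟩
  rw [← map_mul]
  exact Ideal.mem_map_of_mem (σ : A →+* A) hsb

/-- **(N1) for the other component.**  If `σ` is an automorphism of `A` and every maximal ideal
containing `Pinf` is generated locally by `Pinf` and one element, then the same holds for
`P0 = σ (Pinf)`. -/
theorem S34N1_dvr_transport (σ : A ≃+* A) (Pinf P0 : Ideal A)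
    (hσ : Pinf.map (σ : A →+* A) = P0)
    (hinf : ∀ (m : Ideal A) (hm : m.IsMaximal), Pinf ≤ m →
      ∃ x₀ ∈ m, m ≤ S34N2_loc (Pinf ⊔ Ideal.span {x₀}) m hm.isPrime)
    (m : Ideal A) (hm : m.IsMaximal) (hPm : P0 ≤ m) :
    ∃ y₀ ∈ m, m ≤ S34N2_loc (P0 ⊔ Ideal.span {y₀}) m hm.isPrime := by
  have hm' : (m.comap (σ : A →+* A)).IsMaximal :=
    Ideal.comap_isMaximal_of_surjective (σ : A →+* A) σ.surjective
  have hP : Pinf ≤ m.comap (σ : A →+* A) := by
    rw [← Ideal.map_le_iff_le_comap, hσ]; exact hPm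
  obtain ⟨x₀, hx₀, hgen⟩ := hinf _ hm' hP
  refine ⟨σ x₀, hx₀, fun b hb => ?_⟩
  have hb' : σ.symm b ∈ m.comap (σ : A →+* A) := by
    rw [Ideal.mem_comap]
    simpa using hb
  have h1 := S34N1_loc_map σ _ m hm.isPrime hm'.isPrime (hgen hb')
  have h2 : (Pinf ⊔ Ideal.span {x₀}).map (σ : A →+* A) = P0 ⊔ Ideal.span {σ x₀} := by
    rw [Ideal.map_sup, hσ, Ideal.map_span, Set.image_singleton]
    rfl
  rw [h2] at h1
  simpa using h1

end Transport

end Fermat.Agent.S34_helper14_N1
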