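import Mathlib
import Fermat.Agent.S18_helper9_CDefs
import Fermat.Agent.S18_helper9_CBasic
import Fermat.Agent.S18_helper3_LOCRING
import Fermat.Agent.S34_helper12_CDefs
import Fermat.Agent.S34_helper12_DICH
import Fermat.Agent.S34_helper14_N1

/-!
# S34, piece (N1): the one-branch points of a two-component chart are regular
(Subring-of-`L` wrapper of `S34_helper14_N1`)

* `S34N1S_twist_smooth` (type level): `S34N1_smooth` for the other component, twisted by an
  automorphism `σ` of the chart;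
* `S34N1S_vert` : the vertical ideal `A ∩ π V` of a chart `A ≤ V`;
* `S34N1S_thru1` : `S'` the S18 `Setup` of level `N'`, `S` the two-valuation setup of level
  `q N'`, `V' ≤ V1` with residue degree one; `A' ≤ A` charts with the same coordinate; `m` a
  maximal ideal of `A` containing `π` and NOT containing `A ∩ π V2`: then `IGAt π A m`;
* `S34N1S_thru2` : the mirror statement for a chart stable under an involution `w` exchanging
  `V1` and `V2`.
-/

set_option autoImplicit false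
set_option linter.style.haveILetI false
set_option linter.unusedVariables false
set_option linter.unusedSectionVars false

namespace Fermat.Agent.S34_helper14_N1S

open Fermat.Agent.S18_helper9_CDefs Fermat.Agent.S18_helper9_CBasic
  Fermat.Agent.S34_helper12_CDefs Fermat.Agent.S34_helper12_DICH
  Fermat.Agent.S18_helper3_LOCRING Fermat.Agent.S34_helper4_N2 Fermat.Agent.S34_helper14_N1

section Twist

variable {A' A : Type*} [CommRing A'] [CommRing A]

/-- **(N1) for the other component**, type level: the hypotheses of `S34N1_smooth` for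
`(f, Pinf)` give its conclusion for `(σ ∘ f, σ Pinf)`, `σ` an automorphism of `A` fixing `f π`. -/
theorem S34N1S_twist_smooth [IsNoetherianRing A'] (f : A' →+* A) (σ : A ≃+* A) (π : A')
    (Pinf : Ideal A) (hPinf : Pinf.IsPrime) (hπ : f π ∈ Pinf)
    (hint : ∀ y : A, ∃ P : Polynomial A', P.Monic ∧ Polynomial.eval₂ f y P ∈ Pinf)
    (hcap : ∀ a : A', f a ∈ Pinf → a ∈ Ideal.span {π})
    (hIG : S34N1_IG π)
    (hres : ∀ y : A, ∃ a s : A', s ∉ Ideal.span {π} ∧ f s * y - f a ∈ Pinf)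
    (P0 : Ideal A) (hσ : ∀ a : A, a ∈ P0 ↔ σ.symm a ∈ Pinf) (hσπ : σ (f π) = f π)
    (m : Ideal A) (hm : m.IsMaximal) (hPm : P0 ≤ m) (hPinfm : ¬ Pinf ≤ m)
    (hinter : P0 ⊓ Pinf ≤ S34N2_loc (Ideal.span {f π}) m hm.isPrime) :
    ∃ y' : A', σ (f y') ∈ m ∧
      ∀ x ∈ m, ∃ c : A, c ∉ m ∧ ∃ a b : A, c * x = a * f π + b * σ (f y') := by
  have hP0eq : P0 = Pinf.comap (σ.symm : A →+* A) := by
    ext a
    rw [hσ a, Ideal.mem_comap]
    rfl
  have hP0 : P0.IsPrime := by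
    rw [hP0eq]
    exact Ideal.comap_isPrime _ _
  have hmemσ : ∀ z : A, z ∈ Pinf → σ z ∈ P0 := by
    intro z hz
    rw [hσ, RingEquiv.symm_apply_apply]
    exact hz
  have h := S34N1_smooth ((σ : A →+* A).comp f) π P0 hP0 ?_ ?_ ?_ hIG ?_ m hm hPm Pinf hPinfm ?_
  · obtain ⟨y', hy', hgen⟩ := h
    refine ⟨y', hy', fun x hx => ?_⟩
    obtain ⟨c, hc, a, b, hab⟩ := hgen x hx
    refine ⟨c, hc, a, b, ?_⟩
    rw [hab]
    simp only [RingHom.comp_apply, RingHom.coe_coe, hσπ]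
  · -- `(σ ∘ f) π ∈ P0`
    simp only [RingHom.comp_apply, RingHom.coe_coe]
    exact hmemσ _ hπ
  · -- integrality
    intro y
    obtain ⟨P, hP, hPy⟩ := hint (σ.symm y)
    refine ⟨P, hP, ?_⟩
    have h1 : Polynomial.eval₂ ((σ : A →+* A).comp f) y P =
        σ (Polynomial.eval₂ f (σ.symm y) P) := by
      have := Polynomial.hom_eval₂ P f (σ : A →+* A) (σ.symm y)
      simp only [RingHom.coe_coe, RingEquiv.apply_symm_apply] at this
      exact this.symm
    rw [h1]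
    exact hmemσ _ hPy
  · -- `hcap`
    intro a ha
    apply hcap
    have := (hσ _).1 ha
    simpa using this
  · -- `hres`
    intro y
    obtain ⟨a, s, hs, hsa⟩ := hres (σ.symm y)
    refine ⟨a, s, hs, ?_⟩
    have h1 : ((σ : A →+* A).comp f) s * y - ((σ : A →+* A).comp f) a =
        σ (f s * σ.symm y - f a) := by
      simp only [RingHom.comp_apply, RingHom.coe_coe, map_sub, map_mul,
        RingEquiv.apply_symm_apply]
    rw [h1]
    exact hmemσ _ hsa
  · -- `hinter`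
    have hfπ : ((σ : A →+* A).comp f) π = f π := by
      simp only [RingHom.comp_apply, RingHom.coe_coe, hσπ]
    rw [hfπ]
    exact hinter

end Twist

section Vert

variable {L : Type*} [Field L]

/-- The vertical ideal `A ∩ π V` of a subring `A ≤ V`. -/
def S34N1S_vert (π : L) (V A : Subring L) (hAV : A ≤ V) : Ideal A where
  carrier := {a | ∃ v ∈ V, (a : L) = π * v}
  add_mem' := by
    rintro a b ⟨v, hv, ha⟩ ⟨w, hw, hb⟩
    exact ⟨v + w, V.add_mem hv hw, by rw [Subring.coe_add, ha, hb]; ring⟩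
  zero_mem' := ⟨0, V.zero_mem, by simp⟩
  smul_mem' := by
    rintro r a ⟨v, hv, ha⟩
    exact ⟨(r : L) * v, V.mul_mem (hAV r.2) hv, by
      rw [smul_eq_mul, Subring.coe_mul, ha]; ring⟩

theorem S34N1S_mem_vert {π : L} {V A : Subring L} {hAV : A ≤ V} {a : A} :
    a ∈ S34N1S_vert π V A hAV ↔ ∃ v ∈ V, (a : L) = π * v := Iff.rfl

/-- The vertical ideal of a valuation ring with uniformiser `π` is prime. -/
theorem S34N1S_vert_isPrime {π : L} {V A : Subring L} (hAV : A ≤ V)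
    (hnu : π⁻¹ ∉ V) (hunif : ∀ x ∈ V, x⁻¹ ∉ V → ∃ v ∈ V, x = π * v) :
    (S34N1S_vert π V A hAV).IsPrime := by
  have hπ0 : π ≠ 0 := by
    intro h
    apply hnu
    rw [h, inv_zero]
    exact V.zero_mem
  refine ⟨?_, ?_⟩
  · intro htop
    have h1 : (1 : A) ∈ S34N1S_vert π V A hAV := by rw [htop]; trivial
    obtain ⟨v, hv, h1v⟩ := h1
    apply hnu
    have : π⁻¹ = v := by
      rw [Subring.coe_one] at h1v
      exact inv_eq_of_mul_eq_one_right h1v.symm
    rw [this]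
    exact hv
  · intro a b hab
    obtain ⟨v, hv, habv⟩ := hab
    rw [Subring.coe_mul] at habv
    by_cases ha0 : (a : L) = 0
    · left
      exact ⟨0, V.zero_mem, by rw [ha0, mul_zero]⟩
    by_cases ha : ((a : L))⁻¹ ∈ V
    · right
      refine ⟨(a : L)⁻¹ * v, V.mul_mem ha hv, ?_⟩
      have : (b : L) = (a : L)⁻¹ * ((a : L) * (b : L)) := by
        rw [← mul_assoc, inv_mul_cancel₀ ha0, one_mul]
      rw [this, habv]; ring
    · left
      exact hunif _ (hAV a.2) ha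

end Vert

section Thru

variable {L : Type*} [Field L] {O : Subring L} {π j : L} {F1' F1 : Subfield L}
  {V' A0' Ainf' V1 V2 A0 Ainf : Subring L}

/-- `V1 ∩ F1' = V'`: a valuation ring of `F1'` with uniformiser `π` is the trace of every
valuation ring above it in which `π` is not a unit. -/
theorem S34N1S_mem_V' (S' : Setup O π j F1' V' A0' Ainf') (hV : V' ≤ V1) (hnu1 : π⁻¹ ∉ V1)
    {v : L} (hvF : v ∈ F1') (hv : v ∈ V1) : v ∈ V' := by
  rcases S'.V_val v hvF with h | h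
  · exact h
  · by_contra hcon
    obtain ⟨u, hu, hvu⟩ := S'.V_unif v⁻¹ h (by rwa [inv_inv])
    apply hnu1
    have hv0 : v ≠ 0 := fun h0 => hcon (h0 ▸ V'.zero_mem)
    have : π⁻¹ = u * v := by
      have h1 : π * (u * v) = 1 := by rw [← mul_assoc, ← hvu, inv_mul_cancel₀ hv0]
      exact inv_eq_of_mul_eq_one_right h1
    rw [this]
    exact V1.mul_mem (hV hu) hv

/-- The chart of level `N'` is contained in the chart of level `q N'` (same coordinate). -/
theorem S34N1S_chart_le (hF : F1' ≤ F1) {x : L} {A' A W : Subring L}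
    (hC' : Chart O π x F1' V' A') (hC : Chart O π x F1 W A) : A' ≤ A := fun y hy =>
  (hC.mem_iff y).2 ⟨((hC'.mem_iff y).1 hy).1, hF ((hC'.mem_iff y).1 hy).2⟩

/-- `O[x] ≤ A'`. -/
theorem S34N1S_adj_le (S' : Setup O π j F1' V' A0' Ainf') {x : L} (hxF : x ∈ F1')
    {A' : Subring L} (hC' : Chart O π x F1' V' A') : adj O x ≤ A' := fun y hy =>
  (hC'.mem_iff y).2 ⟨isIntegral_of_mem _ hy,
    (adj_le (R := F1'.toSubring) (fun _ h => S'.O_le h) hxF) hy⟩

/-- The common hypothesis block of `S34N1_smooth` for the inclusion of the chart of level `N'`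
into the chart of level `q N'` and the vertical prime of `V1`. -/
theorem S34N1S_base (S' : Setup O π j F1' V' A0' Ainf')
    (S : S34C_Setup2 O π j F1 V1 V2 A0 Ainf) (hF : F1' ≤ F1) (hV : V' ≤ V1)
    (hres : ∀ x ∈ V1, ∃ r ∈ V', ∃ v ∈ V1, x = r + π * v)
    (x : L) (hxF : x ∈ F1') (A' A : Subring L) (hC' : Chart O π x F1' V' A')
    (hC : Chart O π x F1 (V1 ⊓ V2) A) (hIG : IG π A')
    (hA'A : A' ≤ A) (hπA' : π ∈ A') (hAV1 : A ≤ V1) :
    (Subring.inclusion hA'A (⟨π, hπA'⟩ : A') ∈ S34N1S_vert π V1 A hAV1) ∧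
    (∀ y : A, ∃ P : Polynomial A', P.Monic ∧
      Polynomial.eval₂ (Subring.inclusion hA'A) y P ∈ S34N1S_vert π V1 A hAV1) ∧
    (∀ a : A', Subring.inclusion hA'A a ∈ S34N1S_vert π V1 A hAV1 →
      a ∈ Ideal.span {(⟨π, hπA'⟩ : A')}) ∧
    S34N1_IG (⟨π, hπA'⟩ : A') ∧
    (∀ y : A, ∃ a s : A', s ∉ Ideal.span {(⟨π, hπA'⟩ : A')} ∧
      Subring.inclusion hA'A s * y - Subring.inclusion hA'A a ∈ S34N1S_vert π V1 A hAV1) := by
  have hπ0 : π ≠ 0 := S34DI_pi_ne_zero S
  have hadj := S34N1S_adj_le S' hxF hC'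
  refine ⟨?_, ?_, ?_, ?_, ?_⟩
  · exact ⟨1, V1.one_mem, by simp [Subring.inclusion]⟩
  · intro y
    have h1 : IsIntegral A' (y : L) := isIntegral_mono hadj ((hC.mem_iff _).1 y.2).1
    obtain ⟨P, hP, hPy⟩ := h1
    refine ⟨P, hP, ?_⟩
    have h2 : Polynomial.eval₂ (Subring.inclusion hA'A) y P = 0 := by
      apply Subtype.ext
      have h3 := Polynomial.hom_eval₂ P (Subring.inclusion hA'A) A.subtype y
      have h4 : A.subtype.comp (Subring.inclusion hA'A) = algebraMap A' L := by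
        ext c
        rfl
      rw [h4] at h3
      have h5 : A.subtype y = (y : L) := rfl
      rw [h5, hPy] at h3
      exact h3
    rw [h2]
    exact Ideal.zero_mem _
  · rintro a ⟨v, hv, hav⟩
    have hav' : (a : L) = π * v := hav
    have haF : (a : L) ∈ F1' := ((hC'.mem_iff _).1 a.2).2
    have hπF : π ∈ F1' := S'.O_le S'.π_mem
    have hvF : v ∈ F1' := by
      have : v = π⁻¹ * (a : L) := by
        rw [hav', ← mul_assoc, inv_mul_cancel₀ hπ0, one_mul]
      rw [this]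
      exact F1'.mul_mem (F1'.inv_mem hπF) haF
    have hvV' : v ∈ V' := S34N1S_mem_V' S' hV S.V1_nonunit hvF hv
    have hvA' : v ∈ A' := hC'.sat v hvV' (hav' ▸ a.2)
    rw [Ideal.mem_span_singleton']
    exact ⟨⟨v, hvA'⟩, Subtype.ext (by rw [Subring.coe_mul, hav', mul_comm])⟩
  · exact fun m' hm' hπm' => hIG hπA' m' hm' hπm'
  · intro y
    obtain ⟨r, hr, v, hv, hy⟩ := hres (y : L) (hAV1 y.2)
    obtain ⟨b, hbA', hb0, hbinv, hrb⟩ := hC'.loc r hr
    refine ⟨⟨r * b, hrb⟩, ⟨b, hbA'⟩, ?_, ?_⟩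
    · intro hmem
      rw [Ideal.mem_span_singleton'] at hmem
      obtain ⟨c, hc⟩ := hmem
      have hc' : (c : L) * π = b := congrArg (fun z : A' => (z : L)) hc
      apply S'.π_nonunit
      have : π⁻¹ = (c : L) * b⁻¹ := by
        rw [← hc', mul_inv, ← mul_assoc, mul_comm (c : L) ((c : L))⁻¹]
        have hc0 : (c : L) ≠ 0 := by
          intro h0
          rw [h0, zero_mul] at hc'
          exact hb0 hc'.symm
        rw [inv_mul_cancel₀ hc0, one_mul]
      rw [this]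
      exact V'.mul_mem (hC'.le_V c.2) hbinv
    · refine ⟨b * v, V1.mul_mem (hV (hC'.le_V hbA')) hv, ?_⟩
      show b * (y : L) - r * b = π * (b * v)
      rw [hy]; ring

/-- **(N1) on the first component.**  `S'` the S18 setup of level `N'`, `S` the two-valuation
setup of level `q N'`, `V' ≤ V1` of residue degree one (`hres`), `A' ≤ A` the charts with the
same coordinate `x`, `[IG]` for `A'`.  At a maximal ideal `m ∋ π` of `A` which does not contain
the vertical prime of `V2` (witness `d`), the special fibre is regular: `IGAt π A m`. -/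
theorem S34N1S_thru1 (S' : Setup O π j F1' V' A0' Ainf')
    (S : S34C_Setup2 O π j F1 V1 V2 A0 Ainf) (hF : F1' ≤ F1) (hV : V' ≤ V1)
    (hres : ∀ x ∈ V1, ∃ r ∈ V', ∃ v ∈ V1, x = r + π * v)
    (x : L) (hxF : x ∈ F1') (A' A : Subring L) (hC' : Chart O π x F1' V' A')
    (hC : Chart O π x F1 (V1 ⊓ V2) A) [IsNoetherianRing A'] (hIG : IG π A')
    (hπ : π ∈ A) (m : Ideal A) (hm : m.IsMaximal) (hπm : (⟨π, hπ⟩ : A) ∈ m)
    (d : A) (hdm : d ∉ m) (hd2 : ∃ v ∈ V2, (d : L) = π * v) :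
    IGAt π A m := by
  have hA'A : A' ≤ A := S34N1S_chart_le hF hC' hC
  have hπA' : π ∈ A' := S34N1S_adj_le S' hxF hC' (le_adj O x S'.π_mem)
  have hAV1 : A ≤ V1 := fun y hy => (hC.le_V hy).1
  have hAV2 : A ≤ V2 := fun y hy => (hC.le_V hy).2
  obtain ⟨h1, h2, h3, h4, h5⟩ :=
    S34N1S_base S' S hF hV hres x hxF A' A hC' hC hIG hA'A hπA' hAV1
  have hP1 : (S34N1S_vert π V1 A hAV1).IsPrime :=
    S34N1S_vert_isPrime hAV1 S.V1_nonunit S.V1_unif
  have hP2m : ¬ S34N1S_vert π V2 A hAV2 ≤ m := fun hle => hdm (hle hd2)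
  have hP1m : S34N1S_vert π V1 A hAV1 ≤ m := by
    haveI := hm.isPrime
    rcases S34DI_le_or_le S x A hC hπ m hπm with h | h
    · exact fun a ha => h a ha
    · exact absurd (fun a ha => h a ha) hP2m
  have hfπ : Subring.inclusion hA'A (⟨π, hπA'⟩ : A') = (⟨π, hπ⟩ : A) := Subtype.ext rfl
  have hinter : S34N1S_vert π V1 A hAV1 ⊓ S34N1S_vert π V2 A hAV2 ≤
      S34N2_loc (Ideal.span {Subring.inclusion hA'A (⟨π, hπA'⟩ : A')}) m hm.isPrime := by
    rintro a ⟨ha1, ha2⟩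
    obtain ⟨b, hb, hab⟩ := S34DI_inter S hC a.2 ha1 ha2
    apply S34N2_le_loc
    rw [hfπ, Ideal.mem_span_singleton']
    exact ⟨⟨b, hb⟩, Subtype.ext (by rw [Subring.coe_mul, hab, mul_comm])⟩
  obtain ⟨y', hy', hgen⟩ := S34N1_smooth (Subring.inclusion hA'A) ⟨π, hπA'⟩
    (S34N1S_vert π V1 A hAV1) hP1 h1 h2 h3 h4 h5 m hm hP1m (S34N1S_vert π V2 A hAV2) hP2m hinter
  intro hπ'
  refine ⟨Subring.inclusion hA'A y', hy', fun z hz => ?_⟩
  obtain ⟨c, hc, a, b, hab⟩ := hgen z hz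
  exact ⟨c, hc, a, b, by rw [hab, hfπ]⟩

/-- **(N1) on the second component**, for a chart stable under an automorphism `σ` exchanging
the two vertical primes (`σ = w_q`).  Same hypotheses as `S34N1S_thru1`; `m` does not contain
the vertical prime of `V1` (witness `d`). -/
theorem S34N1S_thru2 (S' : Setup O π j F1' V' A0' Ainf')
    (S : S34C_Setup2 O π j F1 V1 V2 A0 Ainf) (hF : F1' ≤ F1) (hV : V' ≤ V1)
    (hres : ∀ x ∈ V1, ∃ r ∈ V', ∃ v ∈ V1, x = r + π * v)
    (x : L) (hxF : x ∈ F1') (A' A : Subring L) (hC' : Chart O π x F1' V' A')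
    (hC : Chart O π x F1 (V1 ⊓ V2) A) [IsNoetherianRing A'] (hIG : IG π A')
    (hπ : π ∈ A) (σ : A ≃+* A) (hσπ : σ ⟨π, hπ⟩ = ⟨π, hπ⟩)
    (hσ : ∀ a : A, (∃ v ∈ V2, (a : L) = π * v) ↔ ∃ v ∈ V1, ((σ.symm a : A) : L) = π * v)
    (m : Ideal A) (hm : m.IsMaximal) (hπm : (⟨π, hπ⟩ : A) ∈ m)
    (d : A) (hdm : d ∉ m) (hd1 : ∃ v ∈ V1, (d : L) = π * v) :
    IGAt π A m := by
  have hA'A : A' ≤ A := S34N1S_chart_le hF hC' hC
  have hπA' : π ∈ A' := S34N1S_adj_le S' hxF hC' (le_adj O x S'.π_mem)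
  have hAV1 : A ≤ V1 := fun y hy => (hC.le_V hy).1
  have hAV2 : A ≤ V2 := fun y hy => (hC.le_V hy).2
  obtain ⟨h1, h2, h3, h4, h5⟩ :=
    S34N1S_base S' S hF hV hres x hxF A' A hC' hC hIG hA'A hπA' hAV1
  have hP1 : (S34N1S_vert π V1 A hAV1).IsPrime :=
    S34N1S_vert_isPrime hAV1 S.V1_nonunit S.V1_unif
  have hP1m : ¬ S34N1S_vert π V1 A hAV1 ≤ m := fun hle => hdm (hle hd1)
  have hP2m : S34N1S_vert π V2 A hAV2 ≤ m := by
    haveI := hm.isPrime
    rcases S34DI_le_or_le S x A hC hπ m hπm with h | h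
    · exact absurd (fun a ha => h a ha) hP1m
    · exact fun a ha => h a ha
  have hfπ : Subring.inclusion hA'A (⟨π, hπA'⟩ : A') = (⟨π, hπ⟩ : A) := Subtype.ext rfl
  have hinter : S34N1S_vert π V2 A hAV2 ⊓ S34N1S_vert π V1 A hAV1 ≤
      S34N2_loc (Ideal.span {Subring.inclusion hA'A (⟨π, hπA'⟩ : A')}) m hm.isPrime := by
    rintro a ⟨ha2, ha1⟩
    obtain ⟨b, hb, hab⟩ := S34DI_inter S hC a.2 ha1 ha2
    apply S34N2_le_loc
    rw [hfπ, Ideal.mem_span_singleton']
    exact ⟨⟨b, hb⟩, Subtype.ext (by rw [Subring.coe_mul, hab, mul_comm])⟩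
  obtain ⟨y', hy', hgen⟩ := S34N1S_twist_smooth (Subring.inclusion hA'A) σ ⟨π, hπA'⟩
    (S34N1S_vert π V1 A hAV1) hP1 h1 h2 h3 h4 h5 (S34N1S_vert π V2 A hAV2)
    (fun a => hσ a) (by rw [hfπ]; exact hσπ) m hm hP2m hP1m hinter
  intro hπ'
  refine ⟨σ (Subring.inclusion hA'A y'), hy', fun z hz => ?_⟩
  obtain ⟨c, hc, a, b, hab⟩ := hgen z hz
  exact ⟨c, hc, a, b, by rw [hab, hfπ]⟩

end Thru

end Fermat.Agent.S34_helper14_N1S
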