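import Mathlib
import Fermat.Prelude.Def_ModularCurve_X0ModL
import Fermat.Prelude.Def_EllipticCurve_FrobeniusTrace
import Fermat.Agent.S18_helper13_GAUSS
import Fermat.Agent.S18_helper25_COREDefs
import Fermat.Agent.S37_helper2_K2ABS
import Fermat.Agent.G_helper1_FDLIFT
import Fermat.Agent.S18_helper5_BASE3
import Fermat.Agent.S37_helper8_FROB

/-!
# S34, piece N2-FROBCONG (P2 concrete): the Frobenius congruence on `q`-expansions

* Part 1 (generic `GaussData`): if `φ` is a ring endomorphism of `K` preserving `O` and inducing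
  the `q`-power Frobenius on the residue ring, then for every `x` in the Gauss ring
  `φ_*(x(t^q)) ≡ x^q` modulo `π`.
* Part 2: the coefficientwise action of a Frobenius element on the concrete carriers of S18.
* Part 3: the main theorem: every element `a` of the level-`N'` chart is a `q`-th power modulo
  `P_0 = w⁻¹(P_∞)`.
-/

set_option autoImplicit false
set_option linter.unusedSectionVars false
set_option linter.style.haveILetI false

open HahnSeries ModularCurve
open Fermat.Agent.S18_helper13_GAUSS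

noncomputable section

namespace Fermat.Agent.S34_helper1_FROBCONG

/-! ### Part 1: the congruence for Gauss data -/

section Gauss

variable {O K κ : Type*} [CommRing O] [IsDomain O] [Field K] [Field κ] (D : GaussData O K κ)

/-- `coeffMap` commutes with `incS` for compatible endomorphisms. -/
theorem S34FC_incS_comm (φO : O →+* O) (φK : K →+* K)
    (hcomp : ∀ c, D.inc (φO c) = φK (D.inc c)) (a : LaurentSeries O) :
    coeffMap φK (D.incS a) = D.incS (coeffMap φO a) := by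
  ext n
  simp only [coeffMap_coeff, GaussData.incS_coeff, hcomp]

/-- Reduction of the Frobenius twist: `red (φ_*(a(t^q))) = (red a)^q`. -/
theorem S34FC_redS_twist (q : ℕ) [NeZero q] [ExpChar κ q] (φO : O →+* O)
    (hfrob : ∀ c, D.res (φO c) = D.res c ^ q) (a : LaurentSeries O) :
    D.redS (coeffMap φO (qExpand O q a)) = D.redS a ^ q := by
  rw [Fermat.Agent.S37_helper2_K2ABS.S37K2_pow_eq_qExpand_frob q (D.redS a)]
  ext n
  by_cases hn : (q : ℤ) ∣ n
  · obtain ⟨m, rfl⟩ := hn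
    rw [GaussData.redS_coeff, coeffMap_coeff, qExpand_coeff_mul, qExpand_coeff_mul,
      coeffMap_coeff, GaussData.redS_coeff, hfrob]
    rfl
  · rw [GaussData.redS_coeff, coeffMap_coeff, qExpand_coeff_of_not_dvd _ _ hn,
      qExpand_coeff_of_not_dvd _ _ hn, map_zero, map_zero]

/-- **Frobenius congruence, membership and reduction.** -/
theorem S34FC_gauss_red (q : ℕ) [NeZero q] [ExpChar κ q] (φO : O →+* O) (φK : K →+* K)
    (hcomp : ∀ c, D.inc (φO c) = φK (D.inc c)) (hfrob : ∀ c, D.res (φO c) = D.res c ^ q)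
    {x : LaurentSeries K} (hx : x ∈ D.Vring) :
    coeffMap φK (qExpand K q x) ∈ D.Vring ∧
      D.redFun (coeffMap φK (qExpand K q x)) = D.redFun x ^ q := by
  obtain ⟨a, b, hb, hab⟩ := hx
  have hb' : D.redS (coeffMap φO (qExpand O q b)) ≠ 0 := by
    rw [S34FC_redS_twist D q φO hfrob]
    exact pow_ne_zero _ hb
  have hkey : D.incS (coeffMap φO (qExpand O q b)) * coeffMap φK (qExpand K q x)
      = D.incS (coeffMap φO (qExpand O q a)) := by
    rw [← S34FC_incS_comm D φO φK hcomp, ← S34FC_incS_comm D φO φK hcomp]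
    have h1 : ∀ c : LaurentSeries O, D.incS (qExpand O q c) = qExpand K q (D.incS c) := by
      intro c
      exact coeffMap_qExpand D.inc q c
    rw [h1, h1, ← map_mul, ← map_mul, hab]
  refine ⟨⟨_, _, hb', hkey⟩, ?_⟩
  rw [D.redFun_eq hb' hkey, D.redFun_eq hb hab, S34FC_redS_twist D q φO hfrob,
    S34FC_redS_twist D q φO hfrob, div_pow]

/-- **Frobenius congruence**: `φ_*(x(t^q)) - x^q ∈ π · V` for every `x` in the Gauss ring. -/
theorem S34FC_gauss (q : ℕ) [NeZero q] [ExpChar κ q] (φO : O →+* O) (φK : K →+* K)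
    (hcomp : ∀ c, D.inc (φO c) = φK (D.inc c)) (hfrob : ∀ c, D.res (φO c) = D.res c ^ q)
    {x : LaurentSeries K} (hx : x ∈ D.Vring) :
    ∃ y ∈ D.Vring, coeffMap φK (qExpand K q x) - x ^ q = D.πK * y := by
  obtain ⟨h1, h2⟩ := S34FC_gauss_red D q φO φK hcomp hfrob hx
  have hxq : x ^ q ∈ D.Vring := pow_mem hx q
  apply D.exists_eq_mul_of_redFun_eq_zero (sub_mem h1 hxq)
  rw [D.redFun_sub h1 hxq, h2, D.redFun_pow hx, sub_self]

/-- Coefficientwise endomorphisms preserving residue-units preserve the Gauss ring. -/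
theorem S34FC_coeffMap_mem_Vring (φO : O →+* O) (φK : K →+* K)
    (hcomp : ∀ c, D.inc (φO c) = φK (D.inc c)) (hunit : ∀ c, D.res c ≠ 0 → D.res (φO c) ≠ 0)
    {x : LaurentSeries K} (hx : x ∈ D.Vring) : coeffMap φK x ∈ D.Vring := by
  obtain ⟨a, b, hb, hab⟩ := hx
  refine ⟨coeffMap φO a, coeffMap φO b, ?_, ?_⟩
  · intro h0
    apply hb
    ext n
    by_contra hn
    have h1 : D.res (b.coeff n) ≠ 0 := by simpa using hn
    have h2 := hunit _ h1
    apply h2
    have := congrArg (fun s : LaurentSeries κ => s.coeff n) h0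
    simpa using this
  · rw [← S34FC_incS_comm D φO φK hcomp, ← S34FC_incS_comm D φO φK hcomp, ← map_mul, hab]

end Gauss

/-! ### Part 2: the coefficientwise action of a Galois element on the concrete carriers -/

section Concrete

local notation "Qb" => AlgebraicClosure ℚ
local notation "GQ" => (AlgebraicClosure ℚ ≃ₐ[ℚ] AlgebraicClosure ℚ)

open Fermat.Agent.S18_helper25_COREDefs Fermat.Agent.S18_helper9_CDefs

variable (A : ValuationSubring Qb) (K1 : IntermediateField ℚ Qb)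

/-- restriction of `σ` to a stable intermediate field -/
def S34FC_phiK (σ : GQ) (hst : ∀ x ∈ K1, σ x ∈ K1) : K1 →+* K1 where
  toFun x := ⟨σ (x : Qb), hst x x.2⟩
  map_one' := Subtype.ext (map_one σ)
  map_mul' x y := Subtype.ext (map_mul σ (x : Qb) (y : Qb))
  map_zero' := Subtype.ext (map_zero σ)
  map_add' x y := Subtype.ext (map_add σ (x : Qb) (y : Qb))

@[simp] theorem S34FC_phiK_coe (σ : GQ) (hst : ∀ x ∈ K1, σ x ∈ K1) (x : K1) :
    ((S34FC_phiK K1 σ hst x : K1) : Qb) = σ (x : Qb) := rfl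

/-- restriction of `σ` to `O1 = A ∩ K1` -/
def S34FC_phiO (σ : GQ) (hst : ∀ x ∈ K1, σ x ∈ K1) (hσA : ∀ a ∈ A, σ a ∈ A) :
    S18K_O1 A K1 →+* S18K_O1 A K1 where
  toFun x := ⟨S34FC_phiK K1 σ hst (x : K1), hσA _ x.2⟩
  map_one' := Subtype.ext (map_one (S34FC_phiK K1 σ hst))
  map_mul' x y := Subtype.ext (map_mul (S34FC_phiK K1 σ hst) (x : K1) (y : K1))
  map_zero' := Subtype.ext (map_zero (S34FC_phiK K1 σ hst))
  map_add' x y := Subtype.ext (map_add (S34FC_phiK K1 σ hst) (x : K1) (y : K1))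

@[simp] theorem S34FC_phiO_coe (σ : GQ) (hst : ∀ x ∈ K1, σ x ∈ K1) (hσA : ∀ a ∈ A, σ a ∈ A)
    (x : S18K_O1 A K1) :
    ((S34FC_phiO A K1 σ hst hσA x : S18K_O1 A K1) : K1) = S34FC_phiK K1 σ hst (x : K1) := rfl

/-- the coefficientwise action on `L = K1((t))` -/
def S34FC_Phi (σ : GQ) (hst : ∀ x ∈ K1, σ x ∈ K1) : LaurentSeries K1 →+* LaurentSeries K1 :=
  coeffMap (S34FC_phiK K1 σ hst)

theorem S34FC_coeffMap_C {R S : Type*} [CommRing R] [CommRing S] (f : R →+* S) (a : R) :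
    coeffMap f (HahnSeries.C a) = HahnSeries.C (f a) := by
  simp only [HahnSeries.C_apply, coeffMap_single]

theorem S34FC_algebraMap_eq_C (k : Type*) [Field k] (c : k) :
    algebraMap k (LaurentSeries k) c = HahnSeries.C c := by
  rw [HahnSeries.algebraMap_apply']
  simp

theorem S34FC_Phi_C (σ : GQ) (hst : ∀ x ∈ K1, σ x ∈ K1) (c : K1) :
    S34FC_Phi K1 σ hst (HahnSeries.C c) = HahnSeries.C (S34FC_phiK K1 σ hst c) :=
  S34FC_coeffMap_C _ c

theorem S34FC_Phi_j (σ : GQ) (hst : ∀ x ∈ K1, σ x ∈ K1) :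
    S34FC_Phi K1 σ hst (jqModC K1) = jqModC K1 :=
  coeffMap_jqModC _

theorem S34FC_Phi_qExpand (σ : GQ) (hst : ∀ x ∈ K1, σ x ∈ K1) (d : ℕ) [NeZero d]
    (x : LaurentSeries K1) :
    S34FC_Phi K1 σ hst (qExpand K1 d x) = qExpand K1 d (S34FC_Phi K1 σ hst x) :=
  coeffMap_qExpand _ d x

/-- `Φ_σ ∘ Φ_{σ⁻¹} = id` -/
theorem S34FC_Phi_symm (σ : GQ) (hst : ∀ x ∈ K1, σ x ∈ K1) (hst' : ∀ x ∈ K1, σ.symm x ∈ K1)
    (x : LaurentSeries K1) :
    S34FC_Phi K1 σ hst (S34FC_Phi K1 σ.symm hst' x) = x := by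
  ext n
  rw [S34FC_Phi, S34FC_Phi, coeffMap_coeff, coeffMap_coeff]
  show σ (σ.symm _) = _
  exact σ.apply_symm_apply _

/-- the coefficientwise action preserves the function field -/
theorem S34FC_Phi_mem_full (σ : GQ) (hst : ∀ x ∈ K1, σ x ∈ K1) (N : ℕ)
    {x : LaurentSeries K1} (hx : x ∈ modularFunctionFieldFullC K1 N) :
    S34FC_Phi K1 σ hst x ∈ modularFunctionFieldFullC K1 N := by
  have hle : (modularFunctionFieldFullC K1 N).toSubfield
      ≤ (modularFunctionFieldFullC K1 N).toSubfield.comap (S34FC_Phi K1 σ hst) := by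
    show Subfield.closure _ ≤ _
    rw [Subfield.closure_le]
    rintro y (⟨c, rfl⟩ | ⟨d, hne, hd, rfl⟩)
    · show S34FC_Phi K1 σ hst (algebraMap K1 (LaurentSeries K1) c) ∈ modularFunctionFieldFullC K1 N
      rw [S34FC_algebraMap_eq_C, S34FC_Phi_C, ← S34FC_algebraMap_eq_C]
      exact (modularFunctionFieldFullC K1 N).algebraMap_mem _
    · haveI := hne
      show S34FC_Phi K1 σ hst (qExpand K1 d (jqModC K1)) ∈ modularFunctionFieldFullC K1 N
      rw [S34FC_Phi_qExpand, S34FC_Phi_j]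
      exact jqModCd_mem_full K1 N hd
  exact hle hx

/-! ### Integrality transfer along ring endomorphisms of the ambient field -/

section Integral

variable {L : Type*} [Field L]

/-- integrality over a smaller subring implies integrality over a bigger one -/
theorem S34FC_isIntegral_mono {R R' : Subring L} (h : R ≤ R') {y : L} (hy : IsIntegral R y) :
    IsIntegral R' y := by
  obtain ⟨p, hp, hpy⟩ := hy
  refine ⟨p.map (Subring.inclusion h), hp.map _, ?_⟩
  rw [Polynomial.eval₂_map]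
  exact hpy

/-- transport of integrality along a ring endomorphism of the ambient field -/
theorem S34FC_isIntegral_map (Ψ : L →+* L) (R R' : Subring L) (hΨ : ∀ r ∈ R, Ψ r ∈ R')
    {y : L} (hy : IsIntegral R y) : IsIntegral R' (Ψ y) := by
  let f : R →+* R' := (Ψ.comp R.subtype).codRestrict R' (fun r => hΨ r r.2)
  exact hy.map_of_comp_eq f Ψ (by ext; rfl)

/-- transitivity: integral over `R[z]`-type subrings all of whose elements are integral -/
theorem S34FC_isIntegral_trans (R R' : Subring L) (h : ∀ r ∈ R', IsIntegral R r)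
    {y : L} (hy : IsIntegral R' y) : IsIntegral R y := by
  have hle : R' ≤ (integralClosure R L).toSubring := fun r hr => h r hr
  have h1 : IsIntegral (integralClosure R L).toSubring y := S34FC_isIntegral_mono hle hy
  have h2 : y ∈ (integralClosure R L).toSubring :=
    (Subring.isIntegrallyClosedIn_iff (S := (integralClosure R L).toSubring) (A := L)).mp
      inferInstance h1
  exact h2

/-- elements of `O[z]` are integral over `R` as soon as `O ≤ R` and `z` is integral over `R`. -/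
theorem S34FC_isIntegral_of_mem_adj (O R : Subring L) (hO : O ≤ R) (z : L) (hz : IsIntegral R z)
    {r : L} (hr : r ∈ adj O z) : IsIntegral R r := by
  have hle : adj O z ≤ (integralClosure R L).toSubring := by
    rw [adj, Subring.closure_le]
    rintro x (hx | hx)
    · exact isIntegral_algebraMap (R := R) (x := ⟨x, hO hx⟩)
    · rw [Set.mem_singleton_iff] at hx
      rw [hx]
      exact hz
  exact hle hr

/-- a ring endomorphism mapping `O` into `O'` and `x` to `x'` maps `O[x]` into `O'[x']`. -/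
theorem S34FC_map_adj (Ψ : L →+* L) (O O' : Subring L) (hO : ∀ c ∈ O, Ψ c ∈ O') (x x' : L)
    (hx : Ψ x = x') {r : L} (hr : r ∈ adj O x) : Ψ r ∈ adj O' x' := by
  have hle : adj O x ≤ (adj O' x').comap Ψ := by
    rw [adj, Subring.closure_le]
    rintro y (hy | hy)
    · exact Subring.subset_closure (Or.inl (hO y hy))
    · rw [Set.mem_singleton_iff] at hy
      show Ψ y ∈ adj O' x'
      rw [hy, hx]
      exact Subring.subset_closure (Or.inr rfl)
  exact hle hr

end Integral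

/-! ### The action on the concrete carriers -/

section Carriers

variable (σ : GQ) (hst : ∀ x ∈ K1, σ x ∈ K1) (hσA : ∀ a ∈ A, σ a ∈ A)

include hσA in
theorem S34FC_Phi_mem_O {c : LaurentSeries K1} (hc : c ∈ S18K_O A K1) :
    S34FC_Phi K1 σ hst c ∈ S18K_O A K1 := by
  rw [S18K_mem_O] at hc ⊢
  obtain ⟨c0, hc0, rfl⟩ := hc
  exact ⟨S34FC_phiK K1 σ hst c0, hσA _ hc0, (S34FC_Phi_C K1 σ hst c0).symm⟩

theorem S34FC_qExpand_mem_O (d : ℕ) [NeZero d] {c : LaurentSeries K1} (hc : c ∈ S18K_O A K1) :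
    qExpand K1 d c ∈ S18K_O A K1 := by
  rw [S18K_mem_O] at hc ⊢
  obtain ⟨c0, hc0, rfl⟩ := hc
  exact ⟨c0, hc0, (qExpand_C (R := K1) (N := d) c0).symm⟩

include hσA in
/-- the coefficientwise action preserves the chart `A0` -/
theorem S34FC_Phi_mem_A0 (N : ℕ) {a : LaurentSeries K1} (ha : a ∈ S18K_A0 A K1 N) :
    S34FC_Phi K1 σ hst a ∈ S18K_A0 A K1 N := by
  obtain ⟨h1, h2⟩ := ha
  refine ⟨?_, S34FC_Phi_mem_full K1 σ hst N h2⟩
  exact S34FC_isIntegral_map (S34FC_Phi K1 σ hst) _ _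
    (fun r hr => S34FC_map_adj (S34FC_Phi K1 σ hst) _ _
      (fun c hc => S34FC_Phi_mem_O A K1 σ hst hσA hc) _ _ (S34FC_Phi_j K1 σ hst) hr) h1

/-- `x ↦ x(t^q)` maps the level-`N` chart into the level-`N q` chart, if `j(t^q)` is integral
over `O[j]`. -/
theorem S34FC_qExpand_mem_A0 (N q : ℕ) [NeZero N] [NeZero q]
    (hjq : IsIntegral (adj (S18K_O A K1) (S18K_j K1)) (qExpand K1 q (S18K_j K1)))
    {a : LaurentSeries K1} (ha : a ∈ S18K_A0 A K1 N) :
    qExpand K1 q a ∈ S18K_A0 A K1 (N * q) := by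
  obtain ⟨h1, h2⟩ := ha
  refine ⟨?_, ?_⟩
  · have h3 : IsIntegral (adj (S18K_O A K1) (qExpand K1 q (S18K_j K1))) (qExpand K1 q a) :=
      S34FC_isIntegral_map (qExpand K1 q) _ _
        (fun r hr => S34FC_map_adj (qExpand K1 q) _ _
          (fun c hc => S34FC_qExpand_mem_O A K1 q hc) _ _ rfl hr) h1
    exact S34FC_isIntegral_trans _ _
      (fun r hr => S34FC_isIntegral_of_mem_adj _ _
        (fun c hc => Subring.subset_closure (Or.inl hc)) _ hjq hr) h3
  · exact full_degeneracyC_map_le K1 N q ⟨a, h2, rfl⟩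

end Carriers

/-! ### Part 3: the congruence for a Frobenius element, and the main theorem -/

section Main

variable [IsDiscreteValuationRing (S18K_O1 A K1)]

/-- a Frobenius element at `A` preserves `A`. -/
theorem S34FC_frob_mem (σ : GQ) (q : ℕ) (hσ : A.IsFrobeniusAt σ q) :
    ∀ a ∈ A, σ a ∈ A := by
  intro a ha
  have h1 := Fermat.Agent.G_helper1_FDLIFT.PG9d_frob_sub_mem A σ q hσ a ha
  have h2 : σ a - a ^ q ∈ A := (A.mem_nonunits_iff_exists_mem_maximalIdeal.mp h1).1
  have h3 : σ a = (σ a - a ^ q) + a ^ q := by ring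
  rw [h3]
  exact A.add_mem _ _ h2 (A.pow_mem ha q)

/-- **The Frobenius congruence on the concrete Gauss ring**: for a Frobenius element `σ` at `A`
stabilising `K1`, `σ_*(x(t^q)) - x^q ∈ π · V` for every `x` in the Gauss ring. -/
theorem S34FC_cong (q : ℕ) (hq : q.Prime) (hA : A.LiesOverPrime q) (σ : GQ)
    (hσ : A.IsFrobeniusAt σ q) (hst : ∀ x ∈ K1, σ x ∈ K1)
    {x : LaurentSeries K1} (hx : x ∈ (S18K_D A K1).Vring) :
    ∃ y ∈ (S18K_D A K1).Vring,
      S34FC_Phi K1 σ hst (@qExpand K1 _ q ⟨hq.ne_zero⟩ x) - x ^ q = S18K_π A K1 * y := by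
  haveI : NeZero q := ⟨hq.ne_zero⟩
  haveI : ExpChar (IsLocalRing.ResidueField A) q :=
    Fermat.Agent.S37_helper2_K2ABS.S37K2_expChar_residueField A hq hA
  have hσA := S34FC_frob_mem A σ q hσ
  refine S34FC_gauss (S18K_D A K1) q (S34FC_phiO A K1 σ hst hσA) (S34FC_phiK K1 σ hst)
    (fun c => rfl) (fun c => ?_) hx
  show S18K_res A K1 (S34FC_phiO A K1 σ hst hσA c) = S18K_res A K1 c ^ q
  rw [← map_pow, ← sub_eq_zero, ← map_sub, S18K_res, RingHom.comp_apply,
    IsLocalRing.residue_eq_zero_iff]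
  have h1 := Fermat.Agent.G_helper1_FDLIFT.PG9d_frob_sub_mem A σ q hσ
    (((c : S18K_O1 A K1) : K1) : Qb) c.2
  obtain ⟨h2, h3⟩ := A.mem_nonunits_iff_exists_mem_maximalIdeal.mp h1
  exact h3

/-- **N2-FROBCONG, main theorem.**  Let `σ` be a Frobenius element at `A` with `σ(K1) = K1`,
`N'` a level, and `w` a ring endomorphism of the function field of level `N' q` with
`w ∘ α = β` and `w ∘ β = α` on the level-`N'` field (`α` = inclusion, `β = (t ↦ t^q)`).  Assume
that `j(t^q)` is integral over `O[j]` and that the level-`N'` chart lies in the Gauss ring.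
Then for every `a` in the level-`N'` chart, `b := (σ⁻¹_* a)(t^q)` lies in the level-`N' q` chart
and `w (a - b^q) ∈ π · V`: **every element of the level-`N'` chart is a `q`-th power modulo
`P_0 = w⁻¹(P_∞)`**. -/
theorem S34FC_main (q : ℕ) (hq : q.Prime) (hA : A.LiesOverPrime q) (σ : GQ)
    (hσ : A.IsFrobeniusAt σ q) (hst : ∀ x ∈ K1, σ x ∈ K1) (hst' : ∀ x ∈ K1, σ.symm x ∈ K1)
    (hσA' : ∀ a ∈ A, σ.symm a ∈ A)
    (N' : ℕ) [NeZero N'] [NeZero q] [NeZero (N' * q)]
    (w : ↥(modularFunctionFieldFullC K1 (N' * q)) →+* ↥(modularFunctionFieldFullC K1 (N' * q)))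
    (hwα : ∀ (x : LaurentSeries K1) (hx : x ∈ modularFunctionFieldFullC K1 N'),
      ((w ⟨x, full_degeneracyC_le K1 (Dvd.intro q rfl) hx⟩ :
        ↥(modularFunctionFieldFullC K1 (N' * q))) : LaurentSeries K1) = qExpand K1 q x)
    (hwβ : ∀ (x : LaurentSeries K1) (hx : x ∈ modularFunctionFieldFullC K1 N'),
      ((w ⟨qExpand K1 q x, full_degeneracyC_map_le K1 N' q ⟨x, hx, rfl⟩⟩ :
        ↥(modularFunctionFieldFullC K1 (N' * q))) : LaurentSeries K1) = x)
    (hjq : IsIntegral (adj (S18K_O A K1) (S18K_j K1)) (qExpand K1 q (S18K_j K1)))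
    (hV : ∀ a ∈ S18K_A0 A K1 N', a ∈ (S18K_D A K1).Vring)
    (a : LaurentSeries K1) (ha : a ∈ S18K_A0 A K1 N') :
    ∃ b : ↥(modularFunctionFieldFullC K1 (N' * q)),
      (b : LaurentSeries K1) ∈ S18K_A0 A K1 (N' * q) ∧
      ∃ y ∈ (S18K_D A K1).Vring,
        ((w (⟨a, full_degeneracyC_le K1 (Dvd.intro q rfl) ha.2⟩ - b ^ q) :
          ↥(modularFunctionFieldFullC K1 (N' * q))) : LaurentSeries K1) = S18K_π A K1 * y := by
  -- `a' = σ⁻¹_* a`
  set a' : LaurentSeries K1 := S34FC_Phi K1 σ.symm hst' a with ha'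
  have ha'A0 : a' ∈ S18K_A0 A K1 N' := S34FC_Phi_mem_A0 A K1 σ.symm hst' hσA' N' ha
  have haa' : S34FC_Phi K1 σ hst a' = a := S34FC_Phi_symm K1 σ hst hst' a
  have hbF : qExpand K1 q a' ∈ modularFunctionFieldFullC K1 (N' * q) :=
    full_degeneracyC_map_le K1 N' q ⟨a', ha'A0.2, rfl⟩
  refine ⟨⟨qExpand K1 q a', hbF⟩, S34FC_qExpand_mem_A0 A K1 N' q hjq ha'A0, ?_⟩
  obtain ⟨y, hy, hxy⟩ := S34FC_cong A K1 q hq hA σ hσ hst (hV a' ha'A0)
  refine ⟨y, hy, ?_⟩
  rw [map_sub, map_pow]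
  have h1 := hwα a ha.2
  have h2 := hwβ a' ha'A0.2
  show ((w ⟨a, _⟩ : ↥(modularFunctionFieldFullC K1 (N' * q))) : LaurentSeries K1)
    - ((w ⟨qExpand K1 q a', hbF⟩ : ↥(modularFunctionFieldFullC K1 (N' * q))) :
        LaurentSeries K1) ^ q = _
  rw [h1, h2, ← hxy, S34FC_Phi_qExpand, haa']

/-- **N2-FROBCONG for an involution** (the shape of helper20's `S34WQ_exists`): `w` a
`K1`-algebra automorphism of the function field of level `N' q` with `w ∘ w = id` and
`w = (t ↦ t^q)` on the level-`N'` field.  Conclusion in the "`P_0`-form": for every `a` in the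
level-`N'` chart there are `b` in the level-`N' q` chart and `v ∈ F` with `w v` in the Gauss
valuation ring of `F` and `a - b^q = π · v`, i.e. `a - b^q ∈ π · w⁻¹(V_∞)`. -/
theorem S34FC_main_invol (q : ℕ) (hq : q.Prime) (hA : A.LiesOverPrime q) (σ : GQ)
    (hσ : A.IsFrobeniusAt σ q) (hst : ∀ x ∈ K1, σ x ∈ K1) (hst' : ∀ x ∈ K1, σ.symm x ∈ K1)
    (hσA' : ∀ a ∈ A, σ.symm a ∈ A)
    (N' : ℕ) [NeZero N'] [NeZero q] [NeZero (N' * q)]
    (w : ↥(modularFunctionFieldFullC K1 (N' * q)) ≃ₐ[K1]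
      ↥(modularFunctionFieldFullC K1 (N' * q)))
    (hww : ∀ x, w (w x) = x)
    (hwl : ∀ x : ↥(modularFunctionFieldFullC K1 (N' * q)),
      (x : LaurentSeries K1) ∈ modularFunctionFieldFullC K1 N' →
      ((w x : ↥(modularFunctionFieldFullC K1 (N' * q))) : LaurentSeries K1)
        = qExpand K1 q (x : LaurentSeries K1))
    (hjq : IsIntegral (adj (S18K_O A K1) (S18K_j K1)) (qExpand K1 q (S18K_j K1)))
    (hV : ∀ a ∈ S18K_A0 A K1 N', a ∈ (S18K_D A K1).Vring)
    (a : LaurentSeries K1) (ha : a ∈ S18K_A0 A K1 N') :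
    ∃ b : LaurentSeries K1, b ∈ S18K_A0 A K1 (N' * q) ∧
      ∃ v : ↥(modularFunctionFieldFullC K1 (N' * q)),
        ((w v : ↥(modularFunctionFieldFullC K1 (N' * q))) : LaurentSeries K1)
          ∈ S18K_V A K1 (N' * q) ∧
        a - b ^ q = S18K_π A K1 * (v : LaurentSeries K1) := by
  have hwα : ∀ (x : LaurentSeries K1) (hx : x ∈ modularFunctionFieldFullC K1 N'),
      (((w : ↥(modularFunctionFieldFullC K1 (N' * q)) →+*
          ↥(modularFunctionFieldFullC K1 (N' * q)))
          ⟨x, full_degeneracyC_le K1 (Dvd.intro q rfl) hx⟩ :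
        ↥(modularFunctionFieldFullC K1 (N' * q))) : LaurentSeries K1) = qExpand K1 q x :=
    fun x hx => hwl ⟨x, _⟩ hx
  have hwβ : ∀ (x : LaurentSeries K1) (hx : x ∈ modularFunctionFieldFullC K1 N'),
      (((w : ↥(modularFunctionFieldFullC K1 (N' * q)) →+*
          ↥(modularFunctionFieldFullC K1 (N' * q)))
          ⟨qExpand K1 q x, full_degeneracyC_map_le K1 N' q ⟨x, hx, rfl⟩⟩ :
        ↥(modularFunctionFieldFullC K1 (N' * q))) : LaurentSeries K1) = x := by
    intro x hx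
    have h1 : (⟨qExpand K1 q x, full_degeneracyC_map_le K1 N' q ⟨x, hx, rfl⟩⟩ :
        ↥(modularFunctionFieldFullC K1 (N' * q)))
        = w ⟨x, full_degeneracyC_le K1 (Dvd.intro q rfl) hx⟩ :=
      Subtype.ext (hwl ⟨x, _⟩ hx).symm
    show ((w ⟨qExpand K1 q x, _⟩ : ↥(modularFunctionFieldFullC K1 (N' * q))) :
      LaurentSeries K1) = x
    rw [h1, hww]
  obtain ⟨b, hb, y, hy, hby⟩ := S34FC_main A K1 q hq hA σ hσ hst hst' hσA' N'
    (w : ↥(modularFunctionFieldFullC K1 (N' * q)) →+* ↥(modularFunctionFieldFullC K1 (N' * q)))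
    hwα hwβ hjq hV a ha
  -- the element `a - b^q` of `F` and its quotient by `π`
  set π₀ : K1 := (S18K_D A K1).inc (S18K_D A K1).π with hπ₀
  have hπ₀0 : π₀ ≠ 0 := fun h =>
    (S18K_D A K1).π_ne_zero ((S18K_D A K1).inc_injective (by rw [map_zero]; exact h))
  have hπC : S18K_π A K1 = algebraMap K1 (LaurentSeries K1) π₀ := by
    rw [S34FC_algebraMap_eq_C]
    rfl
  have hsm : ∀ (c : K1) (z : ↥(modularFunctionFieldFullC K1 (N' * q))),
      ((c • z : ↥(modularFunctionFieldFullC K1 (N' * q))) : LaurentSeries K1)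
        = algebraMap K1 (LaurentSeries K1) c * (z : LaurentSeries K1) := by
    intro c z
    rw [Algebra.smul_def]
    rfl
  refine ⟨(b : LaurentSeries K1), hb,
    π₀⁻¹ • ((⟨a, full_degeneracyC_le K1 (Dvd.intro q rfl) ha.2⟩ :
      ↥(modularFunctionFieldFullC K1 (N' * q))) - b ^ q), ?_, ?_⟩
  · have h3 : ((w (π₀⁻¹ • ((⟨a, full_degeneracyC_le K1 (Dvd.intro q rfl) ha.2⟩ :
        ↥(modularFunctionFieldFullC K1 (N' * q))) - b ^ q)) :
          ↥(modularFunctionFieldFullC K1 (N' * q))) : LaurentSeries K1) = y := by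
      rw [Algebra.smul_def, map_mul, AlgEquiv.commutes, ← Algebra.smul_def, hsm]
      have h2 : ((w ((⟨a, full_degeneracyC_le K1 (Dvd.intro q rfl) ha.2⟩ :
        ↥(modularFunctionFieldFullC K1 (N' * q))) - b ^ q) :
          ↥(modularFunctionFieldFullC K1 (N' * q))) : LaurentSeries K1)
          = S18K_π A K1 * y := hby
      rw [h2, hπC, ← mul_assoc, ← map_mul, inv_mul_cancel₀ hπ₀0, map_one, one_mul]
    refine ⟨?_, ?_⟩
    · rw [h3]; exact hy
    · exact (w _).2
  · rw [hsm, hπC, ← mul_assoc, ← map_mul, mul_inv_cancel₀ hπ₀0, map_one, one_mul]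
    rfl

end Main

/-! ### Galois-stable admissible levels -/

section Levels

open Fermat.Agent.S18_helper5_BASE

open scoped Pointwise in
/-- elements of the decomposition group preserve `A` -/
theorem S34FC_decomp_mem (σ : GQ) (hσ : σ ∈ A.decompositionSubgroup ℚ) :
    ∀ a ∈ A, σ a ∈ A := by
  intro a ha
  have h1 : σ • A = A := hσ
  have h2 : σ • a ∈ σ • A := ValuationSubring.smul_mem_pointwise_smul σ a A ha
  rw [h1] at h2
  exact h2

/-- `K1 = ℚ(S, μ_{(ℓ')})` is stable under `G_ℚ` if `S` is. -/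
theorem S34FC_K1_stable (ℓ : ℕ) (S : Finset Qb) (hS : ∀ τ : GQ, ∀ s ∈ S, τ s ∈ S) (σ : GQ) :
    ∀ x ∈ S18A1_K1 ℓ S, σ x ∈ S18A1_K1 ℓ S := by
  have hle : S18A1_K1 ℓ S ≤ (S18A1_K1 ℓ S).comap (σ : Qb →ₐ[ℚ] Qb) := by
    rw [S18A1_K1, IntermediateField.adjoin_le_iff]
    rintro x (hx | ⟨n, hn, hx⟩)
    · exact IntermediateField.subset_adjoin ℚ _ (Or.inl (hS σ x hx))
    · refine IntermediateField.subset_adjoin ℚ _ (Or.inr ⟨n, hn, ?_⟩)
      show (σ x) ^ n = 1
      rw [← map_pow, hx, map_one]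
  exact fun x hx => hle hx

/-- **N2-FROBCONG at a `G_ℚ`-stable level** (`σ` eliminated; this is the consumer form).
`K1` any level with `O1 = A ∩ K1` a DVR which is stable under `G_ℚ` (e.g. the unramified level
`K0`, or any level produced by `S34K0_exists_normal`), `w` an involutive `K1`-automorphism of the
function field of level `N' q` which is `t ↦ t^q` on the level-`N'` field (`S34WQ_exists`).
For every `a` in the level-`N'` chart there are `b` in the level-`N' q` chart and `v ∈ F` with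
`w v` in the Gauss valuation ring and `a - b^q = π · v`: **`a` is a `q`-th power modulo
`P_0 = A ∩ π · w⁻¹(V_∞)`.** -/
theorem S34FC_main_normal (q : ℕ) (hq : q.Prime) (hA : A.LiesOverPrime q)
    [IsDiscreteValuationRing (S18K_O1 A K1)]
    (hK1 : ∀ τ : GQ, ∀ x ∈ K1, τ x ∈ K1)
    (N' : ℕ) [NeZero N'] [NeZero q] [NeZero (N' * q)]
    (w : ↥(modularFunctionFieldFullC K1 (N' * q)) ≃ₐ[K1]
      ↥(modularFunctionFieldFullC K1 (N' * q)))
    (hww : ∀ x, w (w x) = x)
    (hwl : ∀ x : ↥(modularFunctionFieldFullC K1 (N' * q)),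
      (x : LaurentSeries K1) ∈ modularFunctionFieldFullC K1 N' →
      ((w x : ↥(modularFunctionFieldFullC K1 (N' * q))) : LaurentSeries K1)
        = qExpand K1 q (x : LaurentSeries K1))
    (hjq : IsIntegral (adj (S18K_O A K1) (S18K_j K1)) (qExpand K1 q (S18K_j K1)))
    (hV : ∀ a ∈ S18K_A0 A K1 N', a ∈ (S18K_D A K1).Vring)
    (a : LaurentSeries K1) (ha : a ∈ S18K_A0 A K1 N') :
    ∃ b : LaurentSeries K1, b ∈ S18K_A0 A K1 (N' * q) ∧
      ∃ v : ↥(modularFunctionFieldFullC K1 (N' * q)),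
        ((w v : ↥(modularFunctionFieldFullC K1 (N' * q))) : LaurentSeries K1)
          ∈ S18K_V A K1 (N' * q) ∧
        a - b ^ q = S18K_π A K1 * (v : LaurentSeries K1) := by
  obtain ⟨σ, hσ⟩ := Fermat.Agent.S37FROB.S37FROB_exists_isFrobeniusAt A q hq hA
  have hdec : σ ∈ A.decompositionSubgroup ℚ := hσ.mem_decompositionSubgroup
  have hdec' : σ.symm ∈ A.decompositionSubgroup ℚ := by
    have := (A.decompositionSubgroup ℚ).inv_mem hdec
    exact this
  exact S34FC_main_invol A K1 q hq hA σ hσ (hK1 σ) (hK1 σ.symm)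
    (S34FC_decomp_mem A σ.symm hdec') N' w hww hwl hjq hV a ha

end Levels

end Concrete

end Fermat.Agent.S34_helper1_FROBCONG
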