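import Mathlib
import Fermat.Agent.S34_helper1_FROBCONG
import Fermat.Agent.S34_helper20_V0K
import Fermat.Agent.S34_helper14_N1S
import Fermat.Agent.S18_helper14_SETUP

/-!
# S34, X-L2-FROB (helper28): the Frobenius congruence in the shape of `hfrob` of X-L2

`hfrob` of helper3's `S34L2_main_abs` for the concrete carriers: at a level `K` which is stable
under the absolute Galois group and at which `O1 = A ∩ K` is a discrete valuation ring (e.g. the
unramified level `K0`), every element of the finite chart of level `N'` is a `q`-th power modulo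
the vertical prime `P0 = A0 ∩ π V2` of the finite chart of level `N = q N'`, `V2 = w(V1)`.

* `S34L2F_A0_le_Vring` : the finite chart of level `N'` lies in the Gauss ring;
* `S34L2F_frob`        : elementwise form, `a - b ^ q = π v` with `v ∈ V2`;
* `S34L2F_hfrob0`      : packaged form modulo `P0` (`f = Subring.inclusion`,
  `P0 = S34N1S_vert π V2 A0`);
* `S34L2F_hfrob`       : packaged form modulo `Pinf ⊔ P0` (= `hfrob` of `S34L2_main_abs`).

This is helper1's `S34FC_main_normal` for helper20's canonical involution `S34V0_w`.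
-/

set_option autoImplicit false
set_option linter.unusedSectionVars false
set_option linter.unusedVariables false
set_option linter.style.haveILetI false
set_option synthInstance.maxHeartbeats 400000
set_option maxHeartbeats 1600000

open ModularCurve
open Fermat.Agent.S18_helper9_CDefs Fermat.Agent.S18_helper25_COREDefs
  Fermat.Agent.S34_helper20_V0 Fermat.Agent.S34_helper20_V0K
  Fermat.Agent.S34_helper14_N1S

noncomputable section

namespace Fermat.Agent.S34_helper28_L2FROB

local notation "Qb" => AlgebraicClosure ℚ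
local notation "GQ" => (AlgebraicClosure ℚ ≃ₐ[ℚ] AlgebraicClosure ℚ)

variable (A : ValuationSubring Qb) (K : IntermediateField ℚ Qb)
  [IsDiscreteValuationRing (S18K_O1 A K)]

/-- the finite chart of a level prime to `q` lies in the Gauss ring. -/
theorem S34L2F_A0_le_Vring {q : ℕ} (hq : q.Prime) (hA : A.LiesOverPrime q) (N' : ℕ) [NeZero N']
    (hqN : ¬ q ∣ N') : ∀ a ∈ S18K_A0 A K N', a ∈ (S18K_D A K).Vring := by
  intro a ha
  have S' := Fermat.Agent.S18AK.setupK N' hq A hA hqN K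
  exact (S'.chart0.le_V ha).1

variable (q N' N : ℕ) [NeZero N'] [NeZero N] (hq : q.Prime) (hqN : ¬ q ∣ N') (hN : N = q * N')

/-- **X-L2-FROB, elementwise**: every element of the finite chart of level `N'` is a `q`-th
power of an element of the finite chart of level `N = q N'` modulo `π V2`, `V2 = w(V1)`. -/
theorem S34L2F_frob [NeZero q] (hA : A.LiesOverPrime q) (hK : ∀ τ : GQ, ∀ x ∈ K, τ x ∈ K)
    (hjq : IsIntegral (adj (S18K_O A K) (S18K_j K)) (qExpand K q (jqModC K))) :
    ∀ a ∈ S18K_A0 A K N', ∃ b ∈ S18K_A0 A K N, ∃ v ∈ S34V0K_V A K q N' N hq hqN hN,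
      a - b ^ q = S18K_π A K * v := by
  obtain rfl : N = N' * q := by rw [hN, Nat.mul_comm]
  intro a ha
  obtain ⟨b, hb, v, hv, hab⟩ :=
    Fermat.Agent.S34_helper1_FROBCONG.S34FC_main_normal A K q hq hA hK N'
      (S34V0_w (S34V0K_emb K) q N' (N' * q) hq hqN hN)
      (S34V0_w_w (S34V0K_emb K) q N' (N' * q) hq hqN hN)
      (fun x hx => S34V0_w_level (S34V0K_emb K) q N' (N' * q) hq hqN hN x hx)
      hjq (S34L2F_A0_le_Vring A K hq hA N' hqN) a ha
  refine ⟨b, hb, (v : LaurentSeries K), ?_, hab⟩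
  rw [S34V0K_mem_V]
  refine ⟨v.2, ?_⟩
  rw [S34V0_wL_of_mem (S34V0K_emb K) q N' (N' * q) hq hqN hN v.2]
  exact hv

/-- **X-L2-FROB, packaged modulo `P0`**: `f a - b ^ q ∈ P0` for `f` the inclusion of the chart
of level `N'` and `P0 = A0 ∩ π V2` the second vertical prime. -/
theorem S34L2F_hfrob0 [NeZero q] (hA : A.LiesOverPrime q) (hK : ∀ τ : GQ, ∀ x ∈ K, τ x ∈ K)
    (hjq : IsIntegral (adj (S18K_O A K) (S18K_j K)) (qExpand K q (jqModC K)))
    (hA'A : S18K_A0 A K N' ≤ S18K_A0 A K N)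
    (hAV2 : S18K_A0 A K N ≤ S34V0K_V A K q N' N hq hqN hN) :
    ∀ a : ↥(S18K_A0 A K N'), ∃ b : ↥(S18K_A0 A K N),
      Subring.inclusion hA'A a - b ^ q ∈
        S34N1S_vert (S18K_π A K) (S34V0K_V A K q N' N hq hqN hN) (S18K_A0 A K N) hAV2 := by
  intro a
  obtain ⟨b, hb, v, hv, hab⟩ := S34L2F_frob A K q N' N hq hqN hN hA hK hjq (a : LaurentSeries K) a.2
  refine ⟨⟨b, hb⟩, v, hv, ?_⟩
  show (a : LaurentSeries K) - b ^ q = S18K_π A K * v
  exact hab

/-- **X-L2-FROB, packaged** (= `hfrob` of `S34L2_main_abs`): `f a - b ^ q ∈ Pinf ⊔ P0`. -/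
theorem S34L2F_hfrob [NeZero q] (hA : A.LiesOverPrime q) (hK : ∀ τ : GQ, ∀ x ∈ K, τ x ∈ K)
    (hjq : IsIntegral (adj (S18K_O A K) (S18K_j K)) (qExpand K q (jqModC K)))
    (hA'A : S18K_A0 A K N' ≤ S18K_A0 A K N)
    (hAV1 : S18K_A0 A K N ≤ S18K_V A K N)
    (hAV2 : S18K_A0 A K N ≤ S34V0K_V A K q N' N hq hqN hN) :
    ∀ a : ↥(S18K_A0 A K N'), ∃ b : ↥(S18K_A0 A K N),
      Subring.inclusion hA'A a - b ^ q ∈
        S34N1S_vert (S18K_π A K) (S18K_V A K N) (S18K_A0 A K N) hAV1 ⊔
          S34N1S_vert (S18K_π A K) (S34V0K_V A K q N' N hq hqN hN) (S18K_A0 A K N) hAV2 := by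
  intro a
  obtain ⟨b, hb⟩ := S34L2F_hfrob0 A K q N' N hq hqN hN hA hK hjq hA'A hAV2 a
  exact ⟨b, Ideal.mem_sup_right hb⟩

end Fermat.Agent.S34_helper28_L2FROB
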