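import Mathlib
import Fermat.Agent.S34_helper28_L2FROB
import Fermat.Agent.S34_helper13_HJQM
import Fermat.Agent.S34_helper5_K0

/-!
# S34, X-L2-FROB, unconditional form (helper28)

`hfrob` of helper3's `S34L2_main_abs` for the concrete carriers with the modular equation
discharged by helper13's `S34HJQ_main`:

* `S34L2FU_frob`, `S34L2FU_hfrob0`, `S34L2FU_hfrob` : at any level `K` stable under the absolute
  Galois group with `O1 = A ∩ K` a discrete valuation ring;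
* `S34L2FU_frob_K0`, `S34L2FU_hfrob_K0` : at the unramified level `K0 = S34K0_K0 q`.
-/

set_option autoImplicit false
set_option linter.unusedSectionVars false
set_option linter.unusedVariables false
set_option linter.style.haveILetI false
set_option synthInstance.maxHeartbeats 400000
set_option maxHeartbeats 1600000

open ModularCurve
open Fermat.Agent.S18_helper9_CDefs Fermat.Agent.S18_helper25_COREDefs
  Fermat.Agent.S34_helper20_V0 Fermat.Agent.S34_helper20_V0K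
  Fermat.Agent.S34_helper14_N1S Fermat.Agent.S34_helper5_K0
  Fermat.Agent.S34_helper28_L2FROB

noncomputable section

namespace Fermat.Agent.S34_helper28_L2FROBU

local notation "Qb" => AlgebraicClosure ℚ
local notation "GQ" => (AlgebraicClosure ℚ ≃ₐ[ℚ] AlgebraicClosure ℚ)

section General

variable (A : ValuationSubring Qb) (K : IntermediateField ℚ Qb)
  [IsDiscreteValuationRing (S18K_O1 A K)]
  (q N' N : ℕ) [NeZero N'] [NeZero N] (hq : q.Prime) (hqN : ¬ q ∣ N') (hN : N = q * N')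

/-- **X-L2-FROB, elementwise, no hypothesis on the modular equation.** -/
theorem S34L2FU_frob [NeZero q] (hA : A.LiesOverPrime q) (hK : ∀ τ : GQ, ∀ x ∈ K, τ x ∈ K) :
    ∀ a ∈ S18K_A0 A K N', ∃ b ∈ S18K_A0 A K N, ∃ v ∈ S34V0K_V A K q N' N hq hqN hN,
      a - b ^ q = S18K_π A K * v :=
  S34L2F_frob A K q N' N hq hqN hN hA hK
    (Fermat.Agent.S34_helper13_HJQM.S34HJQ_main A K q hq hA)

/-- **X-L2-FROB, packaged modulo `P0`, no hypothesis on the modular equation.** -/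
theorem S34L2FU_hfrob0 [NeZero q] (hA : A.LiesOverPrime q) (hK : ∀ τ : GQ, ∀ x ∈ K, τ x ∈ K)
    (hA'A : S18K_A0 A K N' ≤ S18K_A0 A K N)
    (hAV2 : S18K_A0 A K N ≤ S34V0K_V A K q N' N hq hqN hN) :
    ∀ a : ↥(S18K_A0 A K N'), ∃ b : ↥(S18K_A0 A K N),
      Subring.inclusion hA'A a - b ^ q ∈
        S34N1S_vert (S18K_π A K) (S34V0K_V A K q N' N hq hqN hN) (S18K_A0 A K N) hAV2 :=
  S34L2F_hfrob0 A K q N' N hq hqN hN hA hK
    (Fermat.Agent.S34_helper13_HJQM.S34HJQ_main A K q hq hA) hA'A hAV2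

/-- **X-L2-FROB, packaged (= `hfrob` of `S34L2_main_abs`), no hypothesis on the modular
equation.** -/
theorem S34L2FU_hfrob [NeZero q] (hA : A.LiesOverPrime q) (hK : ∀ τ : GQ, ∀ x ∈ K, τ x ∈ K)
    (hA'A : S18K_A0 A K N' ≤ S18K_A0 A K N)
    (hAV1 : S18K_A0 A K N ≤ S18K_V A K N)
    (hAV2 : S18K_A0 A K N ≤ S34V0K_V A K q N' N hq hqN hN) :
    ∀ a : ↥(S18K_A0 A K N'), ∃ b : ↥(S18K_A0 A K N),
      Subring.inclusion hA'A a - b ^ q ∈
        S34N1S_vert (S18K_π A K) (S18K_V A K N) (S18K_A0 A K N) hAV1 ⊔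
          S34N1S_vert (S18K_π A K) (S34V0K_V A K q N' N hq hqN hN) (S18K_A0 A K N) hAV2 :=
  S34L2F_hfrob A K q N' N hq hqN hN hA hK
    (Fermat.Agent.S34_helper13_HJQM.S34HJQ_main A K q hq hA) hA'A hAV1 hAV2

end General

section K0

variable (A : ValuationSubring Qb)
  (q N' N : ℕ) [NeZero N'] [NeZero N] (hq : q.Prime) (hqN : ¬ q ∣ N') (hN : N = q * N')

/-- **X-L2-FROB at the unramified level `K0`**, elementwise.  The instance
`IsDiscreteValuationRing (S18K_O1 A (S34K0_K0 q))` is an argument, so that any instance in scope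
plugs. -/
theorem S34L2FU_frob_K0 [NeZero q] [IsDiscreteValuationRing (S18K_O1 A (S34K0_K0 q))]
    (hA : A.LiesOverPrime q) :
    ∀ a ∈ S18K_A0 A (S34K0_K0 q) N', ∃ b ∈ S18K_A0 A (S34K0_K0 q) N,
      ∃ v ∈ S34V0K_V A (S34K0_K0 q) q N' N hq hqN hN,
        a - b ^ q = S18K_π A (S34K0_K0 q) * v :=
  S34L2FU_frob A (S34K0_K0 q) q N' N hq hqN hN hA (S34K0_stable q)

/-- **X-L2-FROB at the unramified level `K0`**, packaged (= `hfrob` of `S34L2_main_abs`). -/
theorem S34L2FU_hfrob_K0 [NeZero q] [IsDiscreteValuationRing (S18K_O1 A (S34K0_K0 q))]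
    (hA : A.LiesOverPrime q)
    (hA'A : S18K_A0 A (S34K0_K0 q) N' ≤ S18K_A0 A (S34K0_K0 q) N)
    (hAV1 : S18K_A0 A (S34K0_K0 q) N ≤ S18K_V A (S34K0_K0 q) N)
    (hAV2 : S18K_A0 A (S34K0_K0 q) N ≤ S34V0K_V A (S34K0_K0 q) q N' N hq hqN hN) :
    ∀ a : ↥(S18K_A0 A (S34K0_K0 q) N'), ∃ b : ↥(S18K_A0 A (S34K0_K0 q) N),
      Subring.inclusion hA'A a - b ^ q ∈
        S34N1S_vert (S18K_π A (S34K0_K0 q)) (S18K_V A (S34K0_K0 q) N)
            (S18K_A0 A (S34K0_K0 q) N) hAV1 ⊔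
          S34N1S_vert (S18K_π A (S34K0_K0 q)) (S34V0K_V A (S34K0_K0 q) q N' N hq hqN hN)
            (S18K_A0 A (S34K0_K0 q) N) hAV2 :=
  S34L2FU_hfrob A (S34K0_K0 q) q N' N hq hqN hN hA (S34K0_stable q) hA'A hAV1 hAV2

end K0

end Fermat.Agent.S34_helper28_L2FROBU
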