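import Mathlib
import Fermat.Agent.S34_helper3_XL2
import Fermat.Agent.S34_helper17_L2OUT
import Fermat.Agent.S34_helper17_L2PHI
import Fermat.Agent.S34_helper14_N1SJ
import Fermat.Agent.S34_helper28_L2FROBU
import Fermat.Agent.S34_helper27_GEOM

/-!
# S34, X-L2-K (helper28, insurance twin of the assembly)

The node coordinates at the crossing points of the finite chart of level `N = q N'` over an
admissible Galois-stable level `K1`, from the unramified level `K0`: the contract `S34LGK_Node`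
of helper7, i.e. the input `hnode` of helper27's `S34FINAL5_of_node`.

* `S34L2T_abs`  : `S34L2_main_abs` (helper3) restated for SUBRINGS of two fields with all
  hypotheses elementwise, so that the concrete instantiation never compares carriers of
  different levels;
* `S34L2T_concl`: the STOP / GO alternative `S34L2_Concl` for the concrete carriers, two
  admissible levels `K0 ≤ K1`, `K0` stable under the absolute Galois group;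
* `S34L2T_node_gen` : `S34LGK_Node` at level `N = q N'` over `K1`, `K0` fixed by inertia;
* `S34L2T_node` : `S34LGK_Node (N' * q) A K1 hstab (S34P1C_V2 A K1 hq N' hqN)
  (S18K_A0 A K1 (N' * q))` for every admissible `K1` (`K0 := S34K0_K0 q`);
* `S34L2T_hnode` : the same in the shape of the hypothesis `hnode` of `S34FINAL5_of_node`.
-/

set_option autoImplicit false
set_option linter.unusedSectionVars false
set_option linter.unusedVariables false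
set_option linter.style.haveILetI false
set_option synthInstance.maxHeartbeats 400000
set_option maxHeartbeats 1600000

open IsLocalRing ModularCurve

noncomputable section

namespace Fermat.Agent.S34_helper28_L2T

open Fermat.Agent.S18_helper3_LOCRING Fermat.Agent.S34_helper3_XL2
  Fermat.Agent.S34_helper17_NADAPT Fermat.Agent.S34_helper14_N1S

section Abs

variable {L₀ L₁ : Type*} [Field L₀] [Field L₁] (Φ : L₀ →+* L₁) (π₀ : L₀) (π₁ : L₁)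
  (X'₀ X₀ W1 W2 : Subring L₀) (X'₁ X₁ V1 V2 : Subring L₁)

/-- **X-L2, abstract elementwise form.** -/
theorem S34L2T_abs
    (hΦ : ∀ a ∈ X₀, Φ a ∈ X₁)
    (hX'₀ : X'₀ ≤ X₀) (hX'₁ : X'₁ ≤ X₁)
    (hXW1 : X₀ ≤ W1) (hXW2 : X₀ ≤ W2) (hXV1 : X₁ ≤ V1) (hXV2 : X₁ ≤ V2)
    (hπ'₀ : π₀ ∈ X'₀) (hπ'₁ : π₁ ∈ X'₁)
    (φ' : X'₀ →+* X'₁) (hφ' : ∀ a : X'₀, ((φ' a : X'₁) : L₁) = Φ (a : L₀))
    (w₀ : L₀ → L₀) (w₁ : L₁ → L₁)
    (g₀ : X'₀ →+* X₀) (g₁ : X'₁ →+* X₁)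
    (hg₀ : ∀ a : X'₀, ((g₀ a : X₀) : L₀) = w₀ (a : L₀))
    (hg₁ : ∀ a : X'₁, ((g₁ a : X₁) : L₁) = w₁ (a : L₁))
    (hw : ∀ a ∈ X'₀, Φ (w₀ a) = w₁ (Φ a))
    (hwπ₀ : w₀ π₀ = π₀) (hwπ₁ : w₁ π₁ = π₁)
    (hπ : ∃ u ∈ X₁, Φ π₀ = π₁ * u)
    (hW1nu : π₀⁻¹ ∉ W1) (hW1unif : ∀ x ∈ W1, x⁻¹ ∉ W1 → ∃ v ∈ W1, x = π₀ * v)
    (hW2nu : π₀⁻¹ ∉ W2) (hW2unif : ∀ x ∈ W2, x⁻¹ ∉ W2 → ∃ v ∈ W2, x = π₀ * v)
    (hne : ∃ a ∈ X₀, (∃ v ∈ W2, a = π₀ * v) ∧ ¬ ∃ v ∈ W1, a = π₀ * v)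
    (hne' : ∃ a ∈ X₀, (∃ v ∈ W1, a = π₀ * v) ∧ ¬ ∃ v ∈ W2, a = π₀ * v)
    (hint₀ : ∀ a ∈ X₀, (∃ v ∈ W1, a = π₀ * v) → (∃ v ∈ W2, a = π₀ * v) →
      ∃ b ∈ X₀, a = π₀ * b)
    (hint₁ : ∀ a ∈ X₁, (∃ v ∈ V1, a = π₁ * v) → (∃ v ∈ V2, a = π₁ * v) →
      ∃ b ∈ X₁, a = π₁ * b)
    (hmap1 : ∀ a : L₀, (∃ v ∈ W1, a = π₀ * v) → ∃ v ∈ V1, Φ a = π₁ * v)
    (hmap2 : ∀ a : L₀, (∃ v ∈ W2, a = π₀ * v) → ∃ v ∈ V2, Φ a = π₁ * v)
    (hsf₀ : ∀ y ∈ X₀, ∃ a ∈ X'₀, ∃ v ∈ W1, y - a = π₀ * v)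
    (hsg₀ : ∀ y ∈ X₀, ∃ a ∈ X'₀, ∃ v ∈ W2, y - w₀ a = π₀ * v)
    (hsf₁ : ∀ y ∈ X₁, ∃ a ∈ X'₁, ∃ v ∈ V1, y - a = π₁ * v)
    (hsg₁ : ∀ y ∈ X₁, ∃ a ∈ X'₁, ∃ v ∈ V2, y - w₁ a = π₁ * v)
    (hIG : ∀ m' : Ideal X'₁, m'.IsMaximal → (⟨π₁, hπ'₁⟩ : X'₁) ∈ m' → ∃ y₀ : X'₀,
      (y₀ ∈ m'.comap φ' ∧ ∀ x ∈ m'.comap φ', ∃ c : X'₀, c ∉ m'.comap φ' ∧
        ∃ a b : X'₀, c * x = a * ⟨π₀, hπ'₀⟩ + b * y₀) ∧
      (φ' y₀ ∈ m' ∧ ∀ x ∈ m', ∃ c : X'₁, c ∉ m' ∧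
        ∃ a b : X'₁, c * x = a * ⟨π₁, hπ'₁⟩ + b * φ' y₀))
    (q : ℕ) (hq : 2 ≤ q)
    (hfrob : ∀ a ∈ X'₀, ∃ b ∈ X₀, ∃ v ∈ W2, a - b ^ q = π₀ * v)
    (m : Ideal X₁) (hm : m.IsMaximal)
    (h1 : ∀ a : X₁, (∃ v ∈ V1, (a : L₁) = π₁ * v) → a ∈ m)
    (h2 : ∀ a : X₁, (∃ v ∈ V2, (a : L₁) = π₁ * v) → a ∈ m) (B : ℕ) :
    haveI := hm.isPrime
    S34L2_Concl Φ X₀ X₁ hΦ m (⟨π₀, hX'₀ hπ'₀⟩ : X₀) (⟨π₁, hX'₁ hπ'₁⟩ : X₁)
      (S34N1S_vert π₀ W1 X₀ hXW1) (S34N1S_vert π₀ W2 X₀ hXW2) B := by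
  haveI := hm.isPrime
  haveI hP1 : (S34N1S_vert π₀ W1 X₀ hXW1).IsPrime := S34N1S_vert_isPrime hXW1 hW1nu hW1unif
  haveI hP2 : (S34N1S_vert π₀ W2 X₀ hXW2).IsPrime := S34N1S_vert_isPrime hXW2 hW2nu hW2unif
  obtain ⟨u, hu, hΦπ⟩ := hπ
  have hf₀ : ∀ a : X'₀, ((Subring.inclusion hX'₀ a : X₀) : L₀) = a :=
    fun a => Subring.coe_inclusion hX'₀ a
  have hf₁ : ∀ a : X'₁, ((Subring.inclusion hX'₁ a : X₁) : L₁) = a :=
    fun a => Subring.coe_inclusion hX'₁ a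
  have e₀ : Subring.inclusion hX'₀ (⟨π₀, hπ'₀⟩ : X'₀) = (⟨π₀, hX'₀ hπ'₀⟩ : X₀) :=
    Subtype.ext (hf₀ _)
  have e₁ : Subring.inclusion hX'₁ (⟨π₁, hπ'₁⟩ : X'₁) = (⟨π₁, hX'₁ hπ'₁⟩ : X₁) :=
    Subtype.ext (hf₁ _)
  have key := S34L2_main_abs Φ X₀ X₁ hΦ m hm
    (Subring.inclusion hX'₀) g₀ (Subring.inclusion hX'₁) g₁ φ'
    (fun a => Subtype.ext (by
      rw [S34NA_chartMap_coe, hf₀, hf₁, hφ']))
    (fun a => Subtype.ext (by
      rw [S34NA_chartMap_coe, hg₀, hg₁, hφ']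
      exact hw _ a.2))
    (⟨π₀, hπ'₀⟩ : X'₀) (⟨π₁, hπ'₁⟩ : X'₁)
    (Subtype.ext (by rw [hg₀, hf₀]; exact hwπ₀))
    (Subtype.ext (by rw [hg₁, hf₁]; exact hwπ₁))
    ⟨⟨u, hu⟩, Subtype.ext (by
      rw [S34NA_chartMap_coe, hf₀, Subring.coe_mul, hf₁]; exact hΦπ)⟩
    (S34N1S_vert π₀ W1 X₀ hXW1) (S34N1S_vert π₀ W2 X₀ hXW2)
    (S34N1S_vert π₁ V1 X₁ hXV1) (S34N1S_vert π₁ V2 X₁ hXV2)
    ⟨1, W1.one_mem, by rw [hf₀, mul_one]⟩
    ⟨1, W2.one_mem, by rw [hf₀, mul_one]⟩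
    ⟨1, V1.one_mem, by rw [hf₁, mul_one]⟩
    ⟨1, V2.one_mem, by rw [hf₁, mul_one]⟩
    (fun a ha => h1 a ha) (fun a ha => h2 a ha)
    (by
      obtain ⟨a, ha, h2', h1'⟩ := hne
      exact ⟨⟨a, ha⟩, h2', h1'⟩)
    (by
      obtain ⟨a, ha, h1', h2'⟩ := hne'
      exact ⟨⟨a, ha⟩, h1', h2'⟩)
    (by
      rintro a ⟨ha1, ha2⟩
      obtain ⟨b, hb, hab⟩ := hint₀ a a.2 ha1 ha2
      rw [Ideal.mem_span_singleton']
      exact ⟨⟨b, hb⟩, Subtype.ext (by rw [Subring.coe_mul, hf₀, hab, mul_comm])⟩)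
    (by
      rintro a ⟨ha1, ha2⟩
      obtain ⟨b, hb, hab⟩ := hint₁ a a.2 ha1 ha2
      rw [Ideal.mem_span_singleton']
      exact ⟨⟨b, hb⟩, Subtype.ext (by rw [Subring.coe_mul, hf₁, hab, mul_comm])⟩)
    (fun a ha => hmap1 _ ha) (fun a ha => hmap2 _ ha)
    (by
      intro y
      obtain ⟨a, ha, v, hv, hav⟩ := hsf₀ y y.2
      exact ⟨⟨a, ha⟩, v, hv, by rw [AddSubgroupClass.coe_sub, hf₀]; exact hav⟩)
    (by
      intro y
      obtain ⟨a, ha, v, hv, hav⟩ := hsg₀ y y.2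
      exact ⟨⟨a, ha⟩, v, hv, by rw [AddSubgroupClass.coe_sub, hg₀]; exact hav⟩)
    (by
      intro y
      obtain ⟨a, ha, v, hv, hav⟩ := hsf₁ y y.2
      exact ⟨⟨a, ha⟩, v, hv, by rw [AddSubgroupClass.coe_sub, hf₁]; exact hav⟩)
    (by
      intro y
      obtain ⟨a, ha, v, hv, hav⟩ := hsg₁ y y.2
      exact ⟨⟨a, ha⟩, v, hv, by rw [AddSubgroupClass.coe_sub, hg₁]; exact hav⟩)
    hIG q hq
    (by
      intro a
      obtain ⟨b, hb, v, hv, hab⟩ := hfrob a a.2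
      refine ⟨⟨b, hb⟩, Ideal.mem_sup_right ⟨v, hv, ?_⟩⟩
      rw [AddSubgroupClass.coe_sub, hf₀, Subring.coe_pow]
      exact hab)
    B
  rw [e₀, e₁] at key
  exact key

end Abs

/-! ### The concrete carriers -/

section Concrete

open Fermat.Agent.S18_helper9_CDefs Fermat.Agent.S18_helper25_COREDefs
  Fermat.Agent.S34_helper12_CDefs Fermat.Agent.S34_helper20_V0 Fermat.Agent.S34_helper20_V0K
  Fermat.Agent.S34_helper27_V3K Fermat.Agent.S34_helper14_N1K Fermat.Agent.S34_helper14_N1SJ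
  Fermat.Agent.S34_helper17_L2PHI Fermat.Agent.S34_helper17_L2OUT
  Fermat.Agent.S34_helper17_IGMONO Fermat.Agent.S37_helper21_MONO
  Fermat.Agent.S34_helper28_L2FROBU Fermat.Agent.S34_helper7_LGDefs
  Fermat.Agent.S34_Contracts Fermat.Agent.S34_helper5_K0

local notation "Qb" => AlgebraicClosure ℚ
local notation "GQ" => (AlgebraicClosure ℚ ≃ₐ[ℚ] AlgebraicClosure ℚ)

variable (A : ValuationSubring Qb)

/-- the finite chart of level `N'` is contained in the finite chart of level `N`, `N' ∣ N` -/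
theorem S34L2T_A0_le (K : IntermediateField ℚ Qb) {N' N : ℕ} (hdvd : N' ∣ N) :
    S18K_A0 A K N' ≤ S18K_A0 A K N :=
  fun a ha => mem_icl.2 ⟨(mem_icl.1 ha).1, S34V3K_F1_mono K hdvd (mem_icl.1 ha).2⟩

section Level

variable (K : IntermediateField ℚ Qb) [IsDiscreteValuationRing (S18K_O1 A K)]
  (q N' N : ℕ) [NeZero N'] [NeZero N] (hq : q.Prime) (hqN : ¬ q ∣ N') (hN : N = q * N')

/-- the twisted inclusion `w ∘ incl` of the chart of level `N'` into the chart of level `N` -/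
def S34L2T_g [NeZero q] (hA : A.LiesOverPrime q) : S18K_A0 A K N' →+* S18K_A0 A K N :=
  ((S34N1K_sigma A K q N' N hq hqN hN
      (Fermat.Agent.S34_helper13_HJQM.S34HJQ_main A K q hq hA) :
      S18K_A0 A K N ≃+* S18K_A0 A K N) : S18K_A0 A K N →+* S18K_A0 A K N).comp
    (Subring.inclusion (S34L2T_A0_le A K (S34V0K_dvd hN)))

theorem S34L2T_g_coe [NeZero q] (hA : A.LiesOverPrime q) (a : S18K_A0 A K N') :
    ((S34L2T_g A K q N' N hq hqN hN hA a : S18K_A0 A K N) : LaurentSeries K) =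
      S34V0_wL (S34V0K_emb K) q N' N hq hqN hN (a : LaurentSeries K) := by
  unfold S34L2T_g
  rw [RingHom.comp_apply, RingEquiv.coe_toRingHom, S34N1K_sigma_coe,
    Subring.coe_inclusion]

end Level

/-- `π` lies in the finite chart of any level -/
theorem S34L2T_pi_mem (K : IntermediateField ℚ Qb) [IsDiscreteValuationRing (S18K_O1 A K)]
    (M : ℕ) [NeZero M] : S18K_π A K ∈ S18K_A0 A K M :=
  S34N1K_O_le_A0 A K M
    ((S18K_mem_O A K _).2 ⟨(S18K_D A K).π, ((S18K_D A K).π).2, rfl⟩)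

variable {K0 K1 : IntermediateField ℚ Qb} (hle : K0 ≤ K1)
  [IsDiscreteValuationRing (S18K_O1 A K0)] [IsDiscreteValuationRing (S18K_O1 A K1)]
  (q N' N : ℕ) [NeZero N'] [NeZero N] (hq : q.Prime) (hqN : ¬ q ∣ N') (hN : N = q * N')

/-- **X-L2 for the concrete carriers**: the STOP / GO alternative at a maximal ideal of the
finite chart of level `N = q N'` over `K1` through both vertical primes, with coordinates coming
from the level `K0`. -/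
theorem S34L2T_concl [NeZero q] (hA : A.LiesOverPrime q)
    (h0 : S18K_Admissible A K0 q) (h1 : S18K_Admissible A K1 q)
    (hK0 : ∀ τ : GQ, ∀ x ∈ K0, τ x ∈ K0)
    (hπ₀ : S18K_π A K0 ∈ S18K_A0 A K0 N) (hπ₁ : S18K_π A K1 ∈ S18K_A0 A K1 N)
    (hΦ : ∀ a ∈ S18K_A0 A K0 N, S37MONO_Φ hle a ∈ S18K_A0 A K1 N)
    (hXW1 : S18K_A0 A K0 N ≤ S18K_V A K0 N)
    (hXW2 : S18K_A0 A K0 N ≤ S34V0K_V A K0 q N' N hq hqN hN)
    (m : Ideal (S18K_A0 A K1 N)) (hm : m.IsMaximal)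
    (hm1 : S34K_Thru (S18K_π A K1) (S18K_V A K1 N) (S18K_A0 A K1 N) m)
    (hm2 : S34K_Thru (S18K_π A K1) (S34V0K_V A K1 q N' N hq hqN hN) (S18K_A0 A K1 N) m)
    (B : ℕ) :
    haveI := hm.isPrime
    S34L2_Concl (S37MONO_Φ hle) (S18K_A0 A K0 N) (S18K_A0 A K1 N) hΦ m
      (⟨S18K_π A K0, hπ₀⟩ : S18K_A0 A K0 N) (⟨S18K_π A K1, hπ₁⟩ : S18K_A0 A K1 N)
      (S34N1S_vert (S18K_π A K0) (S18K_V A K0 N) (S18K_A0 A K0 N) hXW1)
      (S34N1S_vert (S18K_π A K0) (S34V0K_V A K0 q N' N hq hqN hN) (S18K_A0 A K0 N) hXW2)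
      B := by
  have hdvd : N' ∣ N := S34V0K_dvd hN
  have S0 := Fermat.Agent.S34_helper13_P1C.S34P1C_setup2 A K0 q N' N hq hqN hN hA
  have S1 := Fermat.Agent.S34_helper13_P1C.S34P1C_setup2 A K1 q N' N hq hqN hN hA
  have hjq0 := Fermat.Agent.S34_helper13_HJQM.S34HJQ_main A K0 q hq hA
  have hjq1 := Fermat.Agent.S34_helper13_HJQM.S34HJQ_main A K1 q hq hA
  have hπ'₀ : S18K_π A K0 ∈ S18K_A0 A K0 N' := S34L2T_pi_mem A K0 N'
  have hπ'₁ : S18K_π A K1 ∈ S18K_A0 A K1 N' := S34L2T_pi_mem A K1 N'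
  have hXV1 : S18K_A0 A K1 N ≤ S18K_V A K1 N := fun a ha => (S1.chart0.le_V ha).1
  have hXV2 : S18K_A0 A K1 N ≤ S34V0K_V A K1 q N' N hq hqN hN :=
    fun a ha => (S1.chart0.le_V ha).2
  have hw : ∀ a ∈ S18K_A0 A K0 N',
      S37MONO_Φ hle (S34V0_wL (S34V0K_emb K0) q N' N hq hqN hN a) =
        S34V0_wL (S34V0K_emb K1) q N' N hq hqN hN (S37MONO_Φ hle a) := fun a ha =>
    S34LP_Φ_wL hle q N' N hq hqN hN
      (S34N1K_A0_le_F A K0 N (S34L2T_A0_le A K0 hdvd ha))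
  have hπu : ∃ u ∈ S18K_A0 A K1 N, S37MONO_Φ hle (S18K_π A K0) = S18K_π A K1 * u := by
    obtain ⟨d, hd⟩ := S34LP_Φ_π A hle
    exact ⟨HahnSeries.C (d : K1),
      S34N1K_O_le_A0 A K1 N ((S18K_mem_O A K1 _).2 ⟨d, d.2, rfl⟩), hd⟩
  exact S34L2T_abs (S37MONO_Φ hle) (S18K_π A K0) (S18K_π A K1)
    (S18K_A0 A K0 N') (S18K_A0 A K0 N) (S18K_V A K0 N) (S34V0K_V A K0 q N' N hq hqN hN)
    (S18K_A0 A K1 N') (S18K_A0 A K1 N) (S18K_V A K1 N) (S34V0K_V A K1 q N' N hq hqN hN)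
    hΦ (S34L2T_A0_le A K0 hdvd) (S34L2T_A0_le A K1 hdvd) hXW1 hXW2 hXV1 hXV2 hπ'₀ hπ'₁
    (S34IM_φ0 A N' hle) (fun a => S34IM_φ0_coe A N' hle a)
    (S34V0_wL (S34V0K_emb K0) q N' N hq hqN hN) (S34V0_wL (S34V0K_emb K1) q N' N hq hqN hN)
    (S34L2T_g A K0 q N' N hq hqN hN hA) (S34L2T_g A K1 q N' N hq hqN hN hA)
    (S34L2T_g_coe A K0 q N' N hq hqN hN hA) (S34L2T_g_coe A K1 q N' N hq hqN hN hA)
    hw (S34N1K_wL_pi A K0 q N' N hq hqN hN) (S34N1K_wL_pi A K1 q N' N hq hqN hN)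
    hπu S0.V1_nonunit S0.V1_unif S0.V2_nonunit S0.V2_unif
    (S34N1SJ_ne A K0 q N' N hq hqN hN hA) (S34N1SJ_ne' A K0 q N' N hq hqN hN hA)
    (fun a ha h1' h2' => Fermat.Agent.S34_helper12_DICH.S34DI_inter S0 S0.chart0 ha h1' h2')
    (fun a ha h1' h2' => Fermat.Agent.S34_helper12_DICH.S34DI_inter S1 S1.chart0 ha h1' h2')
    (fun a ha => S34LP_map_vert1 A hle N ha)
    (fun a ha => S34LP_map_vert2 A hle q N' N hq hqN hN ha)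
    (S34N1SJ_sf A K0 q N' N hq hqN hN hA h0)
    (S34N1SJ_sg A K0 q N' N hq hqN hN hA h0 hjq0)
    (S34N1SJ_sf A K1 q N' N hq hqN hN hA h1)
    (S34N1SJ_sg A K1 q N' N hq hqN hN hA h1 hjq1)
    (fun m' hm' hπm => S34LP_IG A hle q N' hq hqN hA h0 h1 hπ'₀ hπ'₁ m' hm' hπm)
    q hq.two_le
    (S34L2FU_frob A K0 q N' N hq hqN hN hA hK0)
    m hm (fun a ha => hm1 a ha) (fun a ha => hm2 a ha) B

include hle in
/-- **X-L2-K, general form**: the contract `S34LGK_Node` for the finite chart of level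
`N = q N'` over the admissible level `K1`, from an admissible level `K0 ≤ K1` which is stable
under the absolute Galois group and fixed pointwise by the inertia group of `A`. -/
theorem S34L2T_node_gen (hstab : ∀ σ : GQ, ∀ x ∈ K1, σ x ∈ K1) [NeZero q]
    (hA : A.LiesOverPrime q)
    (h0 : S18K_Admissible A K0 q) (h1 : S18K_Admissible A K1 q)
    (hK0 : ∀ τ : GQ, ∀ x ∈ K0, τ x ∈ K0)
    (hfix : ∀ τ : GQ, τ ∈ A.inertiaSubgroupIn ℚ → ∀ x ∈ K0, τ x = x) :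
    S34LGK_Node N A K1 hstab (S34V0K_V A K1 q N' N hq hqN hN) (S18K_A0 A K1 N) := by
  have S0 := Fermat.Agent.S34_helper13_P1C.S34P1C_setup2 A K0 q N' N hq hqN hN hA
  have hπ₀ : S18K_π A K0 ∈ S18K_A0 A K0 N := S34L2T_pi_mem A K0 N
  have hΦ : ∀ a ∈ S18K_A0 A K0 N, S37MONO_Φ hle a ∈ S18K_A0 A K1 N :=
    fun a ha => S37MONO_Φ_mem_A0 A N hle ha
  have hXW1 : S18K_A0 A K0 N ≤ S18K_V A K0 N := fun a ha => (S0.chart0.le_V ha).1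
  have hXW2 : S18K_A0 A K0 N ≤ S34V0K_V A K0 q N' N hq hqN hN :=
    fun a ha => (S0.chart0.le_V ha).2
  exact S34LO2_node A hle hstab N (S18K_A0 A K0 N) (S18K_A0 A K1 N) hΦ
    (S18K_V A K0 N) (S34V0K_V A K0 q N' N hq hqN hN) (S34V0K_V A K1 q N' N hq hqN hN)
    hfix (fun a ha => S0.chart0.le_V ha)
    (fun v hv => S34LP_Φ_V1 A hle N hv)
    (fun v hv => S34LP_Φ_V2 A hle q N' N hq hqN hN hv)
    S0.V1_unif S0.V2_unif
    (⟨S18K_π A K0, hπ₀⟩ : S18K_A0 A K0 N) rfl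
    (S34N1S_vert (S18K_π A K0) (S18K_V A K0 N) (S18K_A0 A K0 N) hXW1)
    (S34N1S_vert (S18K_π A K0) (S34V0K_V A K0 q N' N hq hqN hN) (S18K_A0 A K0 N) hXW2)
    (fun a ha => ha) (fun a ha => ha)
    (fun hπ₁ m hm _ hm1 hm2 B =>
      S34L2T_concl A hle q N' N hq hqN hN hA h0 h1 hK0 hπ₀ hπ₁ hΦ hXW1 hXW2 m hm hm1 hm2 B)

end Concrete

/-! ### The unramified level `K0 = S34K0_K0 q` -/

section Final

open Fermat.Agent.S18_helper25_COREDefs Fermat.Agent.S34_helper20_V0K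
  Fermat.Agent.S34_helper7_LGDefs Fermat.Agent.S34_helper5_K0
  Fermat.Agent.S34_helper27_P1C Fermat.Agent.S34_helper27_GEOM

local notation "Qb" => AlgebraicClosure ℚ
local notation "GQ" => (AlgebraicClosure ℚ ≃ₐ[ℚ] AlgebraicClosure ℚ)

/-- **X-L2-K**: the contract `S34LGK_Node` at level `N = q N'` over every admissible level
`K1` (the unramified level is `K0 = S34K0_K0 q`). -/
theorem S34L2T_node_K (A : ValuationSubring Qb) (K1 : IntermediateField ℚ Qb)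
    (hstab : ∀ σ : GQ, ∀ x ∈ K1, σ x ∈ K1) [IsDiscreteValuationRing (S18K_O1 A K1)]
    (q N' N : ℕ) [NeZero N'] [NeZero N] (hq : q.Prime) (hqN : ¬ q ∣ N') (hN : N = q * N')
    (hA : A.LiesOverPrime q) (h1 : S18K_Admissible A K1 q) :
    S34LGK_Node N A K1 hstab (S34V0K_V A K1 q N' N hq hqN hN) (S18K_A0 A K1 N) := by
  haveI : NeZero q := ⟨hq.ne_zero⟩
  have h0 : S18K_Admissible A (S34K0_K0 q) q := S34K0_admissible hq A hA
  letI := h0.dvr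
  exact S34L2T_node_gen A (S34K0_le_of_admissible A K1 h1) q N' N hq hqN hN hstab hA h0 h1
    (S34K0_stable q) (fun τ hτ x hx => S34K0_inertia_fixed hq A hA τ hτ x hx)

/-- **X-L2-K in the vocabulary of helper27's P1C**: `V2 = S34P1C_V2`, level `N' * q`. -/
theorem S34L2T_node (A : ValuationSubring Qb) (K1 : IntermediateField ℚ Qb)
    (hstab : ∀ σ : GQ, ∀ x ∈ K1, σ x ∈ K1) [IsDiscreteValuationRing (S18K_O1 A K1)]
    {q : ℕ} (hq : q.Prime) (hA : A.LiesOverPrime q) (N' : ℕ) [NeZero N'] [NeZero (N' * q)]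
    (hqN : ¬ q ∣ N') (h1 : S18K_Admissible A K1 q) :
    S34LGK_Node (N' * q) A K1 hstab (S34P1C_V2 A K1 hq N' hqN) (S18K_A0 A K1 (N' * q)) :=
  S34L2T_node_K A K1 hstab q N' (N' * q) hq hqN (Nat.mul_comm N' q) hA h1

/-- **X-L2-K = the hypothesis `hnode` of helper27's `S34FINAL5_of_node`**, verbatim. -/
theorem S34L2T_hnode :
    ∀ (N' q p : ℕ) [NeZero (N' * q)] (hq : q.Prime) (hp : p.Prime) (hpq : p ≠ q)
      (hqN : ¬ q ∣ N') (A : ValuationSubring Qb) (hA : A.LiesOverPrime q)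
      (K1 : IntermediateField ℚ Qb) (h : S18K_Admissible A K1 q)
      (hstab : ∀ σ : GQ, ∀ x ∈ K1, σ x ∈ K1),
      letI := h.dvr
      haveI := S34GM_neZero N' q
      S34LGK_Node (N' * q) A K1 hstab (S34P1C_V2 A K1 hq N' hqN) (S18K_A0 A K1 (N' * q)) := by
  intro N' q p _ hq hp hpq hqN A hA K1 h hstab
  letI := h.dvr
  haveI := S34GM_neZero N' q
  exact S34L2T_node A K1 hstab hq hA N' hqN h

end Final

end Fermat.Agent.S34_helper28_L2T
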