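import Mathlib
import Fermat.Prelude.Def_CuspForm_HeckeGaloisRepDatum
import Fermat.Prelude.Def_GaloisRep_LocalConditions
import Fermat.Agent.S31_helper3_ASM

/-!
# S34, endgame (consumer half)

`S34` (unipotent inertia at a prime `q ≠ p` exactly dividing the level) follows from the
*Hecke congruence property at `q`* `S34E_HC N S p q n` (all `n`): whenever an inertia element `s`
at `q` agrees with a power `F ^ b` of a Frobenius lift at a good prime `ℓ` on a suitable finite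
level, then `D_b (T_ℓ, ℓ) ≡ 2` and `ℓ ^ b ≡ 1` modulo `p ^ n`.

The proof is the trace/determinant computation: `tr ρ(s) = 2`, `det ρ(s) = 1`, hence
`charpoly ρ(s) = (X - 1) ^ 2` in rank two.
-/

set_option autoImplicit false
set_option linter.style.haveILetI false
set_option linter.unusedSectionVars false

open IsLocalRing Polynomial

namespace Fermat.Agent.S34_helper10_END

open Fermat.Agent.S31_helper3_Defs Fermat.Agent.S31_helper3_TR Fermat.Agent.S31_helper3_ASM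

local notation "GQ" => (AlgebraicClosure ℚ ≃ₐ[ℚ] AlgebraicClosure ℚ)

/-- **The Hecke congruence property at an inertia group** (level `n`). -/
def S34E_HC (N : ℕ) [NeZero N] (S : Finset ℕ) (p q n : ℕ) : Prop :=
  ∃ L : IntermediateField ℚ (AlgebraicClosure ℚ), FiniteDimensional ℚ L ∧
    ∀ (ℓ : ℕ) (hℓ : ℓ.Prime) (hℓN : ¬ ℓ ∣ N) (hℓS : ℓ ∉ (↑S : Set ℕ))
      (A : ValuationSubring (AlgebraicClosure ℚ)) (F : GQ) (b : ℕ),
      A.LiesOverPrime ℓ → A.IsFrobeniusAt F ℓ →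
      ∀ (A' : ValuationSubring (AlgebraicClosure ℚ)) (s : GQ),
        A'.LiesOverPrime q → s ∈ A'.inertiaSubgroupIn ℚ → (∀ x ∈ L, s x = (F ^ b) x) →
        (∃ t : CuspForm.heckeAlgebra N 2 (↑S : Set ℕ),
          S31_dick (CuspForm.heckeAlgebra.T hℓ hℓN hℓS : CuspForm.heckeAlgebra N 2 (↑S : Set ℕ))
              ((ℓ : ℕ) : CuspForm.heckeAlgebra N 2 (↑S : Set ℕ)) b - 2
            = ((p ^ n : ℕ) : CuspForm.heckeAlgebra N 2 (↑S : Set ℕ)) * t) ∧
        (∃ z : ℤ, (ℓ : ℤ) ^ b - 1 = ((p ^ n : ℕ) : ℤ) * z)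

section Algebra

variable {T : Type*} [CommRing T] {V : Type*} [AddCommGroup V] [Module T V]
  [Module.Free T V] [Module.Finite T V]

/-- Determinant from the characteristic polynomial in rank `2`. -/
theorem S34E_det_eq (hV : Module.finrank T V = 2) (f : Module.End T V) (a e : T)
    (hf : LinearMap.charpoly f = X ^ 2 - C a * X + C e) :
    LinearMap.det f = e := by
  classical
  by_cases hT : Nontrivial T
  · rw [LinearMap.det_eq_sign_charpoly_coeff, hV, hf]
    simp [coeff_C, coeff_X_pow]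
  · rw [not_nontrivial_iff_subsingleton] at hT
    exact Subsingleton.elim _ _

/-- The characteristic polynomial in rank `2`. -/
theorem S34E_charpoly_eq [Nontrivial T] (hV : Module.finrank T V = 2) (f : Module.End T V) :
    LinearMap.charpoly f = X ^ 2 - C (LinearMap.trace T V f) * X + C (LinearMap.det f) := by
  classical
  let b : Module.Basis (Fin 2) T V := Module.finBasisOfFinrankEq T V hV
  rw [← LinearMap.charpoly_toMatrix f b, Matrix.charpoly_fin_two,
    LinearMap.trace_eq_matrix_trace T b, ← LinearMap.det_toMatrix b]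

/-- An endomorphism congruent to the identity modulo `I` has determinant `≡ 1` modulo `I`. -/
theorem S34E_det_sub_one_mem (I : Ideal T) (ψ : Module.End T V)
    (h : ∀ v : V, ψ v - v ∈ I • (⊤ : Submodule T V)) : LinearMap.det ψ - 1 ∈ I := by
  classical
  let b := Module.Free.chooseBasis T V
  rw [← LinearMap.det_toMatrix b, ← Ideal.Quotient.eq_zero_iff_mem, map_sub, map_one,
    sub_eq_zero, RingHom.map_det]
  have hM : (Ideal.Quotient.mk I).mapMatrix (LinearMap.toMatrix b b ψ) = 1 := by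
    ext i j
    rw [RingHom.mapMatrix_apply, Matrix.map_apply, LinearMap.toMatrix_apply, Matrix.one_apply]
    have h1 : b.repr (ψ (b j) - b j) i ∈ I := S31TR_repr_mem b I _ (h (b j)) i
    rw [map_sub, Finsupp.sub_apply, Module.Basis.repr_self, Finsupp.single_apply] at h1
    rw [← sub_eq_zero]
    by_cases hij : i = j
    · subst hij
      rw [if_pos rfl] at h1 ⊢
      rw [← map_one (Ideal.Quotient.mk I), ← map_sub]
      exact Ideal.Quotient.eq_zero_iff_mem.mpr h1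
    · rw [if_neg (fun e => hij e.symm)] at h1
      rw [if_neg hij, sub_zero]
      rw [sub_zero] at h1
      exact Ideal.Quotient.eq_zero_iff_mem.mpr h1
  rw [hM, Matrix.det_one]

/-- Congruent endomorphisms have congruent determinants. -/
theorem S34E_det_sub_mem (I : Ideal T) (φ ψ : Module.End T V)
    (h : ∀ v : V, ψ v - v ∈ I • (⊤ : Submodule T V)) :
    LinearMap.det (φ * ψ) - LinearMap.det φ ∈ I := by
  have e : LinearMap.det (φ * ψ) - LinearMap.det φ = LinearMap.det φ * (LinearMap.det ψ - 1) := by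
    rw [map_mul]
    ring
  rw [e]
  exact I.mul_mem_left _ (S34E_det_sub_one_mem I ψ h)

end Algebra

variable {p : ℕ} {N : ℕ} [NeZero N] {S : Finset ℕ}
  {𝒪 : Type} [CommRing 𝒪] [IsDomain 𝒪] [IsDiscreteValuationRing 𝒪]
  [IsAdicComplete (IsLocalRing.maximalIdeal 𝒪) 𝒪]
  {θ : CuspForm.heckeAlgebra N 2 (↑S : Set ℕ) →+* IsLocalRing.ResidueField 𝒪}
  {T : Type} [CommRing T] [IsLocalRing T] [IsNoetherianRing T]
  [IsAdicComplete (IsLocalRing.maximalIdeal T) T] [Algebra 𝒪 T] [IsLocalHom (algebraMap 𝒪 T)]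
  [Module.Finite 𝒪 T] [Module.Free 𝒪 T]

/-- Elements agreeing on the continuity field have congruent determinants. -/
theorem S34E_det_congr (ρ : GaloisRepAdic T) (n : ℕ)
    (L : IntermediateField ℚ (AlgebraicClosure ℚ))
    (hL : ∀ σ : GQ, (∀ x ∈ L, σ x = x) →
      ∀ v : ρ.V, ρ.ρ σ v - v ∈ (IsLocalRing.maximalIdeal T ^ n) • (⊤ : Submodule T ρ.V))
    (g g' : GQ) (h : ∀ x ∈ L, g x = g' x) :
    LinearMap.det (ρ.ρ g') - LinearMap.det (ρ.ρ g) ∈ IsLocalRing.maximalIdeal T ^ n := by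
  have hu : ∀ x ∈ L, (g⁻¹ * g') x = x := by
    intro x hx
    rw [AlgEquiv.mul_apply, ← h x hx]
    exact AlgEquiv.symm_apply_apply g x
  have e : ρ.ρ g' = ρ.ρ g * ρ.ρ (g⁻¹ * g') := by
    rw [← map_mul, mul_inv_cancel_left]
  rw [e]
  exact S34E_det_sub_mem _ _ _ (hL _ hu)

/-- The determinant of `ρ (F ^ b)` for a Frobenius lift `F`. -/
theorem S34E_det_frob (H : CuspForm.HeckeGaloisRepDatum N (↑S : Set ℕ) 𝒪 θ T)
    (ℓ : ℕ) (hℓ : ℓ.Prime) (hℓN : ¬ ℓ ∣ N) (hℓS : ℓ ∉ (↑S : Set ℕ))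
    (A : ValuationSubring (AlgebraicClosure ℚ)) (hA : A.LiesOverPrime ℓ) (F : GQ)
    (hF : A.IsFrobeniusAt F ℓ) (b : ℕ) :
    LinearMap.det (H.ρ.ρ (F ^ b)) = ((ℓ : T)) ^ b := by
  rw [map_pow, map_pow,
    S34E_det_eq H.ρ.finrank_eq _ _ _ (H.charpoly_frob ℓ hℓ hℓN hℓS A hA F hF)]

/-- **S34 from the Hecke congruence property at `q`.** -/
theorem S34E_of_HC (hp𝒪 : (p : 𝒪) ∈ IsLocalRing.maximalIdeal 𝒪)
    (hNS : ∀ q : ℕ, q.Prime → q ∣ N → q ∈ S)
    (H : CuspForm.HeckeGaloisRepDatum N (↑S : Set ℕ) 𝒪 θ T)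
    (q : ℕ) (hHC : ∀ n : ℕ, S34E_HC N S p q n) :
    H.ρ.IsUnipotentOnInertiaAt q := by
  intro P hP σ hσ
  have hH : IsHausdorff (IsLocalRing.maximalIdeal T) T := inferInstance
  -- the two congruences at every level
  have key : ∀ n : ℕ,
      LinearMap.trace T H.ρ.V (H.ρ.ρ σ) - 2 ∈ IsLocalRing.maximalIdeal T ^ n ∧
      LinearMap.det (H.ρ.ρ σ) - 1 ∈ IsLocalRing.maximalIdeal T ^ n := by
    intro n
    obtain ⟨L1, hL1fd, hL1⟩ := H.ρ.isAdicContinuous n
    obtain ⟨L2, hL2fd, hL2⟩ := hHC n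
    haveI := hL1fd
    haveI := hL2fd
    haveI : FiniteDimensional ℚ (L1 ⊔ L2 : IntermediateField ℚ (AlgebraicClosure ℚ)) :=
      IntermediateField.finiteDimensional_sup L1 L2
    obtain ⟨ℓ, A₁, F, b, hℓ, hℓS, hA₁, hF, hFg⟩ :=
      Fermat.Agent.G_helper9_FROBDENS.PG_frobenius_density (L1 ⊔ L2) σ S
    have hℓN : ¬ ℓ ∣ N := fun h => hℓS (hNS ℓ hℓ h)
    have hℓS' : ℓ ∉ (↑S : Set ℕ) := fun h => hℓS (Finset.mem_coe.mp h)
    obtain ⟨⟨t, ht⟩, ⟨z, hz⟩⟩ := hL2 ℓ hℓ hℓN hℓS' A₁ F b hA₁ hF P σ hP hσ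
      (fun x hx => hFg x ((le_sup_right : L2 ≤ L1 ⊔ L2) hx))
    have hpn : ((p ^ n : ℕ) : T) ∈ IsLocalRing.maximalIdeal T ^ n := by
      rw [Nat.cast_pow]
      exact Ideal.pow_mem_pow (S31ASM_p_mem hp𝒪) n
    constructor
    · have c1 := S31ASM_trace_congr H.ρ n L1 hL1 σ (F ^ b)
        (fun x hx => hFg x ((le_sup_left : L1 ≤ L1 ⊔ L2) hx))
      rw [S31ASM_trace_frob H ℓ hℓ hℓN hℓS' A₁ hA₁ F hF b] at c1
      have c3 : H.π (S31_dick (CuspForm.heckeAlgebra.T hℓ hℓN hℓS' :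
            CuspForm.heckeAlgebra N 2 (↑S : Set ℕ))
            ((ℓ : ℕ) : CuspForm.heckeAlgebra N 2 (↑S : Set ℕ)) b) - 2 ∈
          IsLocalRing.maximalIdeal T ^ n := by
        have : H.π (S31_dick (CuspForm.heckeAlgebra.T hℓ hℓN hℓS' :
            CuspForm.heckeAlgebra N 2 (↑S : Set ℕ))
            ((ℓ : ℕ) : CuspForm.heckeAlgebra N 2 (↑S : Set ℕ)) b) - 2 =
            H.π (S31_dick (CuspForm.heckeAlgebra.T hℓ hℓN hℓS' :
            CuspForm.heckeAlgebra N 2 (↑S : Set ℕ))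
            ((ℓ : ℕ) : CuspForm.heckeAlgebra N 2 (↑S : Set ℕ)) b - 2) := by
          rw [map_sub, map_ofNat]
        rw [this, ht, map_mul, map_natCast]
        exact Ideal.mul_mem_right _ _ hpn
      have e : LinearMap.trace T H.ρ.V (H.ρ.ρ σ) - 2 =
          -(H.π (S31_dick (CuspForm.heckeAlgebra.T hℓ hℓN hℓS' :
            CuspForm.heckeAlgebra N 2 (↑S : Set ℕ))
            ((ℓ : ℕ) : CuspForm.heckeAlgebra N 2 (↑S : Set ℕ)) b)
            - LinearMap.trace T H.ρ.V (H.ρ.ρ σ))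
          + (H.π (S31_dick (CuspForm.heckeAlgebra.T hℓ hℓN hℓS' :
            CuspForm.heckeAlgebra N 2 (↑S : Set ℕ))
            ((ℓ : ℕ) : CuspForm.heckeAlgebra N 2 (↑S : Set ℕ)) b) - 2) := by
        ring
      rw [e]
      exact Ideal.add_mem _ (neg_mem c1) c3
    · have d1 := S34E_det_congr H.ρ n L1 hL1 σ (F ^ b)
        (fun x hx => hFg x ((le_sup_left : L1 ≤ L1 ⊔ L2) hx))
      rw [S34E_det_frob H ℓ hℓ hℓN hℓS' A₁ hA₁ F hF b] at d1
      have d3 : ((ℓ : T)) ^ b - 1 ∈ IsLocalRing.maximalIdeal T ^ n := by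
        have : ((ℓ : T)) ^ b - 1 = (((ℓ : ℤ) ^ b - 1 : ℤ) : T) := by
          push_cast
          ring
        rw [this, hz]
        push_cast
        exact Ideal.mul_mem_right _ _ (by
          have := hpn
          rwa [Nat.cast_pow] at this)
      have e : LinearMap.det (H.ρ.ρ σ) - 1 =
          -(((ℓ : T)) ^ b - LinearMap.det (H.ρ.ρ σ)) + (((ℓ : T)) ^ b - 1) := by
        ring
      rw [e]
      exact Ideal.add_mem _ (neg_mem d1) d3
  have htr : LinearMap.trace T H.ρ.V (H.ρ.ρ σ) = 2 := by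
    rw [← sub_eq_zero]
    apply hH.haus
    intro n
    rw [SModEq.zero, smul_eq_mul, Ideal.mul_top]
    exact (key n).1
  have hdet : LinearMap.det (H.ρ.ρ σ) = 1 := by
    rw [← sub_eq_zero]
    apply hH.haus
    intro n
    rw [SModEq.zero, smul_eq_mul, Ideal.mul_top]
    exact (key n).2
  rw [S34E_charpoly_eq H.ρ.finrank_eq, htr, hdet]
  simp only [map_ofNat, map_one]
  ring

end Fermat.Agent.S34_helper10_END
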