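import Mathlib
import Fermat.Agent.S34_Contracts2
import Fermat.Agent.S34_helper21_CI
import Fermat.Agent.S34_helper11_DICHB
import Fermat.Agent.S34_helper11_PLEXT
import Fermat.Agent.S37_helper15_HEXF
import Fermat.Agent.S34_helper7_LGDefs

/-!
# S34, X-LOCGEN, dichotomy branch (B), concrete part

A `K1`-rational place `P` through a crossing point `m` of the chart `X` which is not isolated by
any of the node coordinates `T n`, `S n` (both values divisible by `ϖ ^ n` for all `n`) is fixed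
by inertia: `S34DBC_fixed`.  Hence it drops out of `(τ' - 1)(τ - 1) D`: `S34DBC_diff2` and the
local generator `g := 1`: `S34DBC_locGen`.
-/

set_option autoImplicit false
set_option linter.style.haveILetI false
set_option linter.unusedSectionVars false
set_option linter.unusedVariables false
set_option synthInstance.maxHeartbeats 400000
set_option maxHeartbeats 1600000

open AlgebraicCurve ModularCurve HahnSeries IntermediateField

noncomputable section

namespace Fermat.Agent.S34_helper11_DICHBC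

open Fermat.Agent.S18_helper9_CDefs Fermat.Agent.S18_helper25_COREDefs
  Fermat.Agent.S18_helper13_GAUSS Fermat.Agent.S18_helper19_PLACEMOD
  Fermat.Agent.S18_helper19_PLACEUNR Fermat.Agent.S18_helper26_CONST
  Fermat.Agent.S18_helper3_LOCRING Fermat.Agent.S24_helper6_A2
  Fermat.Agent.S37_helper4_B1Defs Fermat.Agent.S37_helper5_LEVEL
  Fermat.Agent.S34_helper5_K0 Fermat.Agent.S34_helper21_ACT Fermat.Agent.S34_helper21_CI
  Fermat.Agent.S34_Contracts Fermat.Agent.S34_helper6_RED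
  Fermat.Agent.S34_helper11_DICHB Fermat.Agent.S34_helper11_PLEXT

local notation "Qb" => AlgebraicClosure ℚ
local notation "GQ" => (AlgebraicClosure ℚ ≃ₐ[ℚ] AlgebraicClosure ℚ)

/-! ### Values: the three languages -/

section Adapters

variable (N : ℕ) [NeZero N] (K1 : IntermediateField ℚ Qb)

theorem S34DBC_C_mem (c : K1) :
    (HahnSeries.C c : LaurentSeries K1) ∈ modularFunctionFieldFullC K1 N := by
  rw [S18P15_C_eq_algebraMap]
  exact (modularFunctionFieldFullC K1 N).algebraMap_mem c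

theorem S34DBC_coeffMap_C (c : K1) :
    coeffMap (algebraMap K1 Qb) (HahnSeries.C c : LaurentSeries K1) =
      HahnSeries.C ((c : K1) : Qb) := by
  rw [HahnSeries.C_apply, coeffMap_single, HahnSeries.C_apply]
  rfl

theorem S34DBC_coe_algebraMap (c : Qb) :
    ((algebraMap Qb (modularFunctionFieldBar N) c : modularFunctionFieldBar N) :
      LaurentSeries Qb) = HahnSeries.C c := by
  rw [S18P15_C_eq_algebraMap]
  rfl

/-- the defining element of `S34K_ValueAt` -/
theorem S34DBC_valueAt_iff (P : Place Qb (modularFunctionFieldBar N)) {a : LaurentSeries K1}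
    (ha : a ∈ modularFunctionFieldFullC K1 N) (c : Qb) :
    S34K_ValueAt N K1 P a c ↔
      S18A3_IsN P (S18A3C_inc N (algebraMap K1 Qb) ⟨a, ha⟩ -
        algebraMap Qb (modularFunctionFieldBar N) c) := by
  have hcoe : ((S18A3C_inc N (algebraMap K1 Qb) ⟨a, ha⟩ -
      algebraMap Qb (modularFunctionFieldBar N) c : modularFunctionFieldBar N) :
      LaurentSeries Qb) = coeffMap (algebraMap K1 Qb) a - HahnSeries.C c := by
    have h1 : ((S18A3C_inc N (algebraMap K1 Qb) ⟨a, ha⟩ -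
      algebraMap Qb (modularFunctionFieldBar N) c : modularFunctionFieldBar N) :
      LaurentSeries Qb) = ((S18A3C_inc N (algebraMap K1 Qb) ⟨a, ha⟩ :
        modularFunctionFieldBar N) : LaurentSeries Qb) -
        ((algebraMap Qb (modularFunctionFieldBar N) c : modularFunctionFieldBar N) :
          LaurentSeries Qb) := rfl
    rw [h1, S18A3C_inc_coe, S34DBC_coe_algebraMap]
  constructor
  · rintro ⟨z, hz, hzP⟩
    have hz' : z = S18A3C_inc N (algebraMap K1 Qb) ⟨a, ha⟩ -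
        algebraMap Qb (modularFunctionFieldBar N) c := Subtype.ext (by rw [hz, hcoe])
    rw [← hz']
    rcases hzP with h0 | h0
    · rw [h0]
      exact ⟨zero_mem _, Or.inl rfl⟩
    · exact S18A3_isN_of_ord_pos P h0
  · intro h
    refine ⟨_, hcoe, ?_⟩
    by_cases h0 : S18A3C_inc N (algebraMap K1 Qb) ⟨a, ha⟩ -
        algebraMap Qb (modularFunctionFieldBar N) c = 0
    · exact Or.inl h0
    · exact Or.inr (S18A3_ord_pos_of_isN P h h0)

theorem S34DBC_inc_sub_C {a : LaurentSeries K1} (ha : a ∈ modularFunctionFieldFullC K1 N)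
    (c : K1) (hmem : a - HahnSeries.C c ∈ modularFunctionFieldFullC K1 N) :
    S18A3C_inc N (algebraMap K1 Qb) ⟨a - HahnSeries.C c, hmem⟩ =
      S18A3C_inc N (algebraMap K1 Qb) ⟨a, ha⟩ -
        algebraMap Qb (modularFunctionFieldBar N) ((c : K1) : Qb) := by
  have h1 : (⟨a - HahnSeries.C c, hmem⟩ : modularFunctionFieldFullC K1 N) =
      ⟨a, ha⟩ - ⟨HahnSeries.C c, S34DBC_C_mem N K1 c⟩ := rfl
  rw [h1, map_sub, Fermat.Agent.S37_helper15_HEXF.S37HEXF_inc_C]
  rfl

theorem S34DBC_inc_ne_zero {a : LaurentSeries K1} (ha : a ∈ modularFunctionFieldFullC K1 N)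
    (ha0 : a ≠ 0) : S18A3C_inc N (algebraMap K1 Qb) ⟨a, ha⟩ ≠ 0 := by
  rw [Ne, map_eq_zero]
  intro h
  exact ha0 (congrArg Subtype.val h)

/-- `S34ACT_Val` (values in `K1`, orders) versus `S34K_ValueAt` (values in `ℚ̄`). -/
theorem S34DBC_val_iff (P : Place Qb (modularFunctionFieldBar N)) {a : LaurentSeries K1}
    (ha : a ∈ modularFunctionFieldFullC K1 N) (c : K1) :
    S34ACT_Val K1 N P a c ↔ S34K_ValueAt N K1 P a ((c : K1) : Qb) := by
  rw [S34DBC_valueAt_iff N K1 P ha]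
  have hmem : a - HahnSeries.C c ∈ modularFunctionFieldFullC K1 N :=
    sub_mem ha (S34DBC_C_mem N K1 c)
  have hinc := S34DBC_inc_sub_C N K1 ha c hmem
  constructor
  · rintro ⟨-, h | h⟩
    · have h0 : (⟨a - HahnSeries.C c, hmem⟩ : modularFunctionFieldFullC K1 N) = 0 :=
        Subtype.ext (sub_eq_zero.2 h)
      rw [← hinc, h0, map_zero]
      exact ⟨zero_mem _, Or.inl rfl⟩
    · rw [S37B1_ordP, dif_pos hmem, hinc] at h
      exact S18A3_isN_of_ord_pos P h
  · intro h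
    refine ⟨ha, ?_⟩
    by_cases h0 : a = HahnSeries.C c
    · exact Or.inl h0
    · right
      rw [S37B1_ordP, dif_pos hmem, hinc]
      apply S18A3_ord_pos_of_isN P h
      rw [← hinc]
      exact S34DBC_inc_ne_zero N K1 hmem (sub_ne_zero.2 h0)

theorem S34DBC_mem_of_valueAt (P : Place Qb (modularFunctionFieldBar N)) {a : LaurentSeries K1}
    (ha : a ∈ modularFunctionFieldFullC K1 N) {c : Qb} (h : S34K_ValueAt N K1 P a c) :
    S18A3C_inc N (algebraMap K1 Qb) ⟨a, ha⟩ ∈ P.toValuationSubring := by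
  rw [S34DBC_valueAt_iff N K1 P ha] at h
  have e : S18A3C_inc N (algebraMap K1 Qb) ⟨a, ha⟩ =
      (S18A3C_inc N (algebraMap K1 Qb) ⟨a, ha⟩ -
        algebraMap Qb (modularFunctionFieldBar N) c) +
        algebraMap Qb (modularFunctionFieldBar N) c := by ring
  rw [e]
  exact add_mem h.1 (P.algebraMap_mem' c)

theorem S34DBC_ordP_nonneg_of_valueAt (P : Place Qb (modularFunctionFieldBar N))
    {a : LaurentSeries K1} (ha : a ∈ modularFunctionFieldFullC K1 N) {c : Qb}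
    (h : S34K_ValueAt N K1 P a c) : 0 ≤ S37B1_ordP N K1 P a := by
  rw [S37B1_ordP, dif_pos ha]
  exact ord_nonneg_of_mem P (S34DBC_mem_of_valueAt N K1 P ha h)

theorem S34DBC_ordP_eq_zero_of_valueAt (P : Place Qb (modularFunctionFieldBar N))
    {a : LaurentSeries K1} (ha : a ∈ modularFunctionFieldFullC K1 N) {c : Qb} (hc : c ≠ 0)
    (h : S34K_ValueAt N K1 P a c) : S37B1_ordP N K1 P a = 0 := by
  have hmem := S34DBC_mem_of_valueAt N K1 P ha h
  rw [S34DBC_valueAt_iff N K1 P ha] at h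
  rw [S37B1_ordP, dif_pos ha]
  rcases S18A3_isU_or_isN P hmem with hu | hn
  · exact S18A3_ord_of_isU P hu
  · exfalso
    have h1 := S18A3_isN_add P hn (S18A3_isN_neg P h)
    have e : S18A3C_inc N (algebraMap K1 Qb) ⟨a, ha⟩ +
        -(S18A3C_inc N (algebraMap K1 Qb) ⟨a, ha⟩ -
          algebraMap Qb (modularFunctionFieldBar N) c) =
        algebraMap Qb (modularFunctionFieldBar N) c := by ring
    rw [e] at h1
    rcases h1.2 with h2 | h2
    · exact hc ((map_eq_zero _).1 h2)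
    · apply h2
      rw [← map_inv₀]
      exact P.algebraMap_mem' _

theorem S34DBC_ordP_mul (P : Place Qb (modularFunctionFieldBar N)) {x y : LaurentSeries K1}
    (hx : x ∈ modularFunctionFieldFullC K1 N) (hy : y ∈ modularFunctionFieldFullC K1 N)
    (hx0 : x ≠ 0) (hy0 : y ≠ 0) :
    S37B1_ordP N K1 P (x * y) = S37B1_ordP N K1 P x + S37B1_ordP N K1 P y := by
  have e1 := S37B1_ordP_eq N K1 P (⟨x, hx⟩ * ⟨y, hy⟩ : modularFunctionFieldFullC K1 N)
  have e2 := S37B1_ordP_eq N K1 P (⟨x, hx⟩ : modularFunctionFieldFullC K1 N)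
  have e3 := S37B1_ordP_eq N K1 P (⟨y, hy⟩ : modularFunctionFieldFullC K1 N)
  have e1' : S37B1_ordP N K1 P (x * y) = _ := e1
  have e2' : S37B1_ordP N K1 P x = _ := e2
  have e3' : S37B1_ordP N K1 P y = _ := e3
  rw [e1', e2', e3', map_mul, Place.ord_mul _ (S34DBC_inc_ne_zero N K1 hx hx0)
    (S34DBC_inc_ne_zero N K1 hy hy0)]

/-- the value of a function over `K1` at a `K1`-rational place lies in `K1` -/
theorem S34DBC_value_rational (P : Place Qb (modularFunctionFieldBar N))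
    (hrat : S37LEVEL_IsRational N K1 P) {a : LaurentSeries K1}
    (ha : a ∈ modularFunctionFieldFullC K1 N) {c : Qb} (h : S34K_ValueAt N K1 P a c) :
    c ∈ K1 := by
  obtain ⟨z, hz, hzP⟩ := h
  exact hrat a ha z c hz hzP.symm

end Adapters

/-! ### Centred places: regularity and the value map on the local ring -/

section Centred

variable (N : ℕ) [NeZero N] (A : ValuationSubring Qb) (K1 : IntermediateField ℚ Qb)
  (X : Subring (LaurentSeries K1)) (hXF : ∀ a ∈ X, a ∈ modularFunctionFieldFullC K1 N)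
  (m : Ideal X) [hm : m.IsPrime] (P : Place Qb (modularFunctionFieldBar N))
  (hc : S34K_Centred N A K1 X m P)

include hXF in
theorem S34DBC_locRing_le : ∀ r ∈ locRing X m, r ∈ modularFunctionFieldFullC K1 N := by
  rintro r ⟨a, s, hs, h⟩
  have hs0 := coe_ne_zero_of_notMem X m hs
  have e : r = (a : LaurentSeries K1) * (s : LaurentSeries K1)⁻¹ := by
    rw [← h, mul_assoc, mul_inv_cancel₀ hs0, mul_one]
  rw [e]
  exact mul_mem (hXF _ a.2) (inv_mem (hXF _ s.2))

theorem S34DBC_zero_mem_nonunits : (0 : Qb) ∈ A.nonunits := by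
  rw [ValuationSubring.mem_nonunits_iff, map_zero]
  exact zero_lt_one

theorem S34DBC_inv_mem_of_notMem_nonunits {u : Qb} (hu : u ∈ A) (hnu : u ∉ A.nonunits) :
    u⁻¹ ∈ A := by
  rw [ValuationSubring.mem_nonunits_iff, not_lt] at hnu
  have h1 : A.valuation u ≤ 1 := (A.valuation_le_one_iff u).2 hu
  have h2 : A.valuation u = 1 := le_antisymm h1 hnu
  rw [← A.valuation_le_one_iff, map_inv₀, h2, inv_one]

include hXF hc in
theorem S34DBC_ordP_eq_zero_of_notMem (s : X) (hs : s ∉ m) :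
    S37B1_ordP N K1 P (s : LaurentSeries K1) = 0 := by
  obtain ⟨c, hcA, hval⟩ := hc.1 s
  have hnu : c ∉ A.nonunits := fun h => hs ((hc.2 s c hcA hval).2 h)
  have hc0 : c ≠ 0 := by
    rintro rfl
    exact hnu (S34DBC_zero_mem_nonunits A)
  exact S34DBC_ordP_eq_zero_of_valueAt N K1 P (hXF _ s.2) hc0 hval

include hXF hc in
/-- a place centred at `m` is nonnegative on the local ring at `m` -/
theorem S34DBC_nonneg : ∀ r ∈ locRing X m, r ≠ 0 → 0 ≤ S37B1_ordP N K1 P r := by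
  rintro r ⟨a, s, hs, h⟩ hr0
  have hs0 := coe_ne_zero_of_notMem X m hs
  obtain ⟨c, hcA, hval⟩ := hc.1 a
  have h1 := S34DBC_ordP_nonneg_of_valueAt N K1 P (hXF _ a.2) hval
  have h2 := S34DBC_ordP_eq_zero_of_notMem N A K1 X hXF m P hc s hs
  have hrF := S34DBC_locRing_le N K1 X hXF m r ⟨a, s, hs, h⟩
  have h3 := S34DBC_ordP_mul N K1 P hrF (hXF _ s.2) hr0 hs0
  rw [h, h2, add_zero] at h3
  rw [← h3]
  exact h1

variable (ψ : locRing X m →+* K1) (hψ : S34ACT_IsValueMap K1 N P (locRing X m) ψ)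

include hψ in
/-- a value map computes values -/
theorem S34DBC_psi_eq_of_val (r : locRing X m) (c : K1)
    (hcR : (HahnSeries.C c : LaurentSeries K1) ∈ locRing X m)
    (h : S34ACT_Val K1 N P (r : LaurentSeries K1) c) : ψ r = c := by
  have h1 : ψ (r - ⟨HahnSeries.C c, hcR⟩) = 0 := by
    by_cases h0 : (r : LaurentSeries K1) = HahnSeries.C c
    · have e : r - ⟨HahnSeries.C c, hcR⟩ = 0 := Subtype.ext (sub_eq_zero.2 h0)
      rw [e, map_zero]
    · have hpos : 0 < S37B1_ordP N K1 P ((r : LaurentSeries K1) - HahnSeries.C c) :=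
        h.2.resolve_left h0
      exact (hψ.2 (r - ⟨HahnSeries.C c, hcR⟩) (sub_ne_zero.2 h0)).2 hpos
  rw [map_sub, hψ.1 c hcR] at h1
  exact sub_eq_zero.1 h1

include hXF hψ in
/-- the value of a value map is a value -/
theorem S34DBC_val_psi (r : locRing X m)
    (hcR : (HahnSeries.C (ψ r) : LaurentSeries K1) ∈ locRing X m) :
    S34ACT_Val K1 N P (r : LaurentSeries K1) (ψ r) := by
  refine ⟨S34DBC_locRing_le N K1 X hXF m r r.2, ?_⟩
  by_cases h0 : (r : LaurentSeries K1) = HahnSeries.C (ψ r)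
  · exact Or.inl h0
  · right
    have h1 : ψ (r - ⟨HahnSeries.C (ψ r), hcR⟩) = 0 := by
      rw [map_sub, hψ.1 (ψ r) hcR, sub_self]
    exact (hψ.2 (r - ⟨HahnSeries.C (ψ r), hcR⟩) (sub_ne_zero.2 h0)).1 h1

variable (hrat : S37LEVEL_IsRational N K1 P) (hOX : S18K_O A K1 ≤ X)

include hOX in
theorem S34DBC_C_mem_locRing (c : K1) (hcA : ((c : K1) : Qb) ∈ A) :
    (HahnSeries.C c : LaurentSeries K1) ∈ locRing X m :=
  le_locRing X m (hOX ((S18K_mem_O A K1 _).2 ⟨c, hcA, rfl⟩))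

include hXF hc hψ hrat hOX in
/-- on the chart, the value map takes values in `A`, and `m` is the set of the elements with a
non-unit value -/
theorem S34DBC_psi_chart (a : X) :
    ((ψ (incl X m a) : K1) : Qb) ∈ A ∧
      (a ∈ m ↔ ((ψ (incl X m a) : K1) : Qb) ∈ A.nonunits) := by
  obtain ⟨c, hcA, hval⟩ := hc.1 a
  have hcK : c ∈ K1 := S34DBC_value_rational N K1 P hrat (hXF _ a.2) hval
  have hval' : S34ACT_Val K1 N P (a : LaurentSeries K1) ⟨c, hcK⟩ :=
    (S34DBC_val_iff N K1 P (hXF _ a.2) ⟨c, hcK⟩).2 hval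
  have e : ψ (incl X m a) = ⟨c, hcK⟩ :=
    S34DBC_psi_eq_of_val N K1 X m P ψ hψ (incl X m a) ⟨c, hcK⟩
      (S34DBC_C_mem_locRing A K1 X m hOX ⟨c, hcK⟩ hcA) hval'
  rw [e]
  exact ⟨hcA, hc.2 a c hcA hval⟩

include hXF hc hψ hrat hOX in
/-- the value map of a rational place centred at `m` takes values in `A` -/
theorem S34DBC_psi_mem (r : locRing X m) : ((ψ r : K1) : Qb) ∈ A := by
  obtain ⟨a, s, hs, h⟩ := r.2
  have h1 := S34DBC_psi_chart N A K1 X hXF m P hc ψ hψ hrat hOX a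
  have h2 := S34DBC_psi_chart N A K1 X hXF m P hc ψ hψ hrat hOX s
  have hnu : ((ψ (incl X m s) : K1) : Qb) ∉ A.nonunits := fun h' => hs (h2.2.2 h')
  have hu0 : ((ψ (incl X m s) : K1) : Qb) ≠ 0 := by
    intro h0
    rw [h0] at hnu
    exact hnu (S34DBC_zero_mem_nonunits A)
  have hinv := S34DBC_inv_mem_of_notMem_nonunits A h2.1 hnu
  have e : r * incl X m s = incl X m a := Subtype.ext h
  have e2 : ψ r * ψ (incl X m s) = ψ (incl X m a) := by rw [← map_mul, e]
  have e3 : ((ψ r : K1) : Qb) = ((ψ (incl X m a) : K1) : Qb) *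
      ((ψ (incl X m s) : K1) : Qb)⁻¹ := by
    rw [← e2]
    push_cast
    field_simp
  rw [e3]
  exact A.mul_mem _ _ h1.1 hinv

include hXF hc hψ hrat hOX in
/-- an element of the local ring whose value is a non-unit of `A` lies in the maximal ideal -/
theorem S34DBC_mem_maximalIdeal (r : locRing X m) (hr : ((ψ r : K1) : Qb) ∈ A.nonunits) :
    r ∈ IsLocalRing.maximalIdeal (locRing X m) := by
  obtain ⟨a, s, hs, h⟩ := r.2
  have h1 := S34DBC_psi_chart N A K1 X hXF m P hc ψ hψ hrat hOX a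
  have h2 := S34DBC_psi_chart N A K1 X hXF m P hc ψ hψ hrat hOX s
  have e : r * incl X m s = incl X m a := Subtype.ext h
  have e2 : ψ r * ψ (incl X m s) = ψ (incl X m a) := by rw [← map_mul, e]
  have ha : a ∈ m := by
    rw [h1.2, ← e2]
    push_cast
    rw [ValuationSubring.mem_nonunits_iff] at hr ⊢
    rw [map_mul]
    have hle : A.valuation ((ψ (incl X m s) : K1) : Qb) ≤ 1 :=
      (A.valuation_le_one_iff _).2 h2.1
    exact mul_lt_one_of_lt_of_le hr hle
  rw [IsLocalRing.mem_maximalIdeal, mem_nonunits_iff, not_isUnit_iff]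
  exact ⟨a, s, ha, hs, h⟩

end Centred

/-! ### The algebraic core: two value maps which are deep at every stage coincide -/

section Core

variable (A : ValuationSubring Qb) (K1 : IntermediateField ℚ Qb)
  [IsDiscreteValuationRing (S18K_O1 A K1)]

/-- a nonunit of `O1` is divisible by the uniformiser -/
theorem S34DBC_pi_dvd (x : S18K_O1 A K1) (hx : (((x : K1)) : Qb) ∈ A.nonunits) :
    ∃ y : S18K_O1 A K1, x = (S18K_D A K1).π * y := by
  apply ((S18K_D A K1).res_eq_zero_iff x).1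
  show S18K_res A K1 x = 0
  rw [S18K_res, RingHom.comp_apply, IsLocalRing.residue_eq_zero_iff,
    IsLocalRing.mem_maximalIdeal, mem_nonunits_iff]
  intro hu
  have h1 := (ValuationSubring.valuation_eq_one_iff A (S18K_incl A K1 x)).1 hu
  rw [ValuationSubring.mem_nonunits_iff] at hx
  rw [S18K_incl_coe] at h1
  rw [h1] at hx
  exact lt_irrefl _ hx

theorem S34DBC_pi_not_isUnit : ¬ IsUnit (S18K_D A K1).π := by
  have h1 : S18K_res A K1 (S18K_D A K1).π = 0 := (S18K_D A K1).res_π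
  rw [S18K_res_eq_zero_iff, IsLocalRing.mem_maximalIdeal, mem_nonunits_iff] at h1
  exact h1

theorem S34DBC_rank_one (d : S18K_O1 A K1) (hd : d ≠ 0) :
    ∃ M : ℕ, d ∣ (S18K_D A K1).π ^ M := by
  obtain ⟨n, u, hdu, hu⟩ := (S18K_D A K1).exists_normalize d hd
  have hu' : IsUnit u := by
    by_contra hnu
    apply hu
    show S18K_res A K1 u = 0
    rw [S18K_res_eq_zero_iff, IsLocalRing.mem_maximalIdeal, mem_nonunits_iff]
    exact hnu
  obtain ⟨v, hv⟩ := hu'.exists_right_inv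
  refine ⟨n, v, ?_⟩
  rw [hdu, mul_assoc, hv, mul_one]

variable (X : Subring (LaurentSeries K1)) (hOX : S18K_O A K1 ≤ X)
  (m : Ideal X) [hm : m.IsPrime]

/-- the structure map `O1 → locRing X m` -/
def S34DBC_cst : S18K_O1 A K1 →+* locRing X m :=
  ((HahnSeries.C : K1 →+* LaurentSeries K1).comp (S18K_O1 A K1).subtype).codRestrict
    (locRing X m) (fun c => S34DBC_C_mem_locRing A K1 X m hOX (c : K1) c.2)

theorem S34DBC_cst_coe (c : S18K_O1 A K1) :
    ((S34DBC_cst A K1 X hOX m c : locRing X m) : LaurentSeries K1) = HahnSeries.C (c : K1) :=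
  rfl

include hOX in
/-- **The algebraic core.**  Two ring homomorphisms `ψ, ψ' : locRing X m → K1` with values in
`A`, the identity on constants, such that the kernel of `ψ` lies in the maximal ideal, and whose
values at the node coordinates `T n`, `S n` are divisible by `π ^ n` for every `n`, coincide. -/
theorem S34DBC_eq_valueMaps (hπ : S18K_π A K1 ∈ X) (ψ ψ' : locRing X m →+* K1)
    (hψA : ∀ r, ((ψ r : K1) : Qb) ∈ A) (hψ'A : ∀ r, ((ψ' r : K1) : Qb) ∈ A)
    (hψC : ∀ (c : K1) (hc : (HahnSeries.C c : LaurentSeries K1) ∈ locRing X m),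
      ψ ⟨HahnSeries.C c, hc⟩ = c)
    (hψ'C : ∀ (c : K1) (hc : (HahnSeries.C c : LaurentSeries K1) ∈ locRing X m),
      ψ' ⟨HahnSeries.C c, hc⟩ = c)
    (hker : ∀ r, ψ r = 0 → r ∈ IsLocalRing.maximalIdeal (locRing X m))
    (T S : ℕ → locRing X m)
    (hgen : ∀ n, IsLocalRing.maximalIdeal (locRing X m) =
      Ideal.span ({incl X m ⟨S18K_π A K1, hπ⟩, T n, S n} : Set (locRing X m)))
    (hT : ∀ n, ∃ d : K1, (d : Qb) ∈ A ∧ ψ (T n) = (((S18K_D A K1).π : S18K_O1 A K1) : K1) ^ n * d)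
    (hS : ∀ n, ∃ d : K1, (d : Qb) ∈ A ∧ ψ (S n) = (((S18K_D A K1).π : S18K_O1 A K1) : K1) ^ n * d)
    (hT' : ∀ n, ∃ d : K1, (d : Qb) ∈ A ∧
      ψ' (T n) = (((S18K_D A K1).π : S18K_O1 A K1) : K1) ^ n * d)
    (hS' : ∀ n, ∃ d : K1, (d : Qb) ∈ A ∧
      ψ' (S n) = (((S18K_D A K1).π : S18K_O1 A K1) : K1) ^ n * d) :
    ψ = ψ' := by
  -- the maps into `O1`
  let φ : locRing X m →+* S18K_O1 A K1 :=
    ψ.codRestrict (S18K_O1 A K1).toSubring (fun r => hψA r)
  let φ' : locRing X m →+* S18K_O1 A K1 :=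
    ψ'.codRestrict (S18K_O1 A K1).toSubring (fun r => hψ'A r)
  have hφ : ∀ r, ((φ r : S18K_O1 A K1) : K1) = ψ r := fun r => rfl
  have hφ' : ∀ r, ((φ' r : S18K_O1 A K1) : K1) = ψ' r := fun r => rfl
  letI alg : Algebra (S18K_O1 A K1) (locRing X m) := (S34DBC_cst A K1 X hOX m).toAlgebra
  have halg : ∀ o : S18K_O1 A K1,
      algebraMap (S18K_O1 A K1) (locRing X m) o = S34DBC_cst A K1 X hOX m o := fun o => rfl
  have hφc : ∀ o : S18K_O1 A K1, φ (S34DBC_cst A K1 X hOX m o) = o := by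
    intro o
    apply Subtype.ext
    rw [hφ]
    exact hψC (o : K1) _
  have hφ'c : ∀ o : S18K_O1 A K1, φ' (S34DBC_cst A K1 X hOX m o) = o := by
    intro o
    apply Subtype.ext
    rw [hφ']
    exact hψ'C (o : K1) _
  have hπc : S34DBC_cst A K1 X hOX m (S18K_D A K1).π = incl X m ⟨S18K_π A K1, hπ⟩ :=
    Subtype.ext rfl
  have key : φ = φ' := by
    refine S34DB_eq (O := S18K_O1 A K1) (R := locRing X m) (Ω := S18K_O1 A K1)
      (S18K_D A K1).π T S ?_ φ φ' ?_ ?_ ?_ ?_ ?_ ?_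
    · -- hgen
      intro n r
      have hmem : r - S34DBC_cst A K1 X hOX m (φ r) ∈
          IsLocalRing.maximalIdeal (locRing X m) := by
        apply hker
        rw [map_sub]
        have : ψ (S34DBC_cst A K1 X hOX m (φ r)) = ((φ r : S18K_O1 A K1) : K1) :=
          hψC _ _
        rw [this, hφ, sub_self]
      rw [hgen n, Ideal.mem_span_insert] at hmem
      obtain ⟨r₁, z, hz, hrz⟩ := hmem
      rw [Ideal.mem_span_pair] at hz
      obtain ⟨u, v, huv⟩ := hz
      refine ⟨φ r, r₁, u, v, ?_⟩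
      rw [halg, halg, hπc]
      linear_combination hrz - huv
    · intro o
      rw [halg, hφc, hφ'c]
    · intro n
      rw [halg, hφc, Ideal.mem_span_singleton]
      obtain ⟨d, hd, hTd⟩ := hT n
      exact ⟨⟨d, hd⟩, Subtype.ext (by rw [hφ, hTd]; rfl)⟩
    · intro n
      rw [halg, hφc, Ideal.mem_span_singleton]
      obtain ⟨d, hd, hTd⟩ := hS n
      exact ⟨⟨d, hd⟩, Subtype.ext (by rw [hφ, hTd]; rfl)⟩
    · intro n
      rw [halg, hφc, Ideal.mem_span_singleton]
      obtain ⟨d, hd, hTd⟩ := hT' n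
      exact ⟨⟨d, hd⟩, Subtype.ext (by rw [hφ', hTd]; rfl)⟩
    · intro n
      rw [halg, hφc, Ideal.mem_span_singleton]
      obtain ⟨d, hd, hTd⟩ := hS' n
      exact ⟨⟨d, hd⟩, Subtype.ext (by rw [hφ', hTd]; rfl)⟩
    · intro z hz
      rw [halg, hφc] at hz
      exact S34DB_sep (S18K_D A K1).π (S34DBC_pi_not_isUnit A K1) (S34DBC_rank_one A K1) z hz
  ext r
  have := congrArg (fun f : locRing X m →+* S18K_O1 A K1 => ((f r : S18K_O1 A K1) : K1)) key
  exact congrArg (fun x : K1 => (x : Qb)) this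

end Core

/-! ### Branch (B): a place which is deep at every stage is fixed by inertia -/

section Main

variable (N : ℕ) [NeZero N] (A : ValuationSubring Qb) (K1 : IntermediateField ℚ Qb)
  (hstab : ∀ σ : GQ, ∀ x ∈ K1, σ x ∈ K1) [IsDiscreteValuationRing (S18K_O1 A K1)]

/-- inertia preserves the nonunits of `A` -/
theorem S34DBC_inertia_nonunits (τ : GQ) (hτ : τ ∈ A.inertiaSubgroupIn ℚ) {x : Qb}
    (hx : x ∈ A.nonunits) : τ x ∈ A.nonunits := by
  by_contra h
  have hxA : τ x ∈ A :=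
    (Fermat.Agent.S05_helper5_Inertia.inertia_spec A τ hτ x (A.nonunits_le hx)).1
  have hinv : (τ x)⁻¹ ∈ A := S34DBC_inv_mem_of_notMem_nonunits A hxA h
  have h2 := (Fermat.Agent.S05_helper5_Inertia.inertia_spec A τ⁻¹
    (Subgroup.inv_mem _ hτ) _ hinv).1
  have e : τ⁻¹ ((τ x)⁻¹) = x⁻¹ := by
    rw [map_inv₀]
    congr 1
    show τ.symm (τ x) = x
    exact τ.symm_apply_apply x
  rw [e] at h2
  rw [ValuationSubring.mem_nonunits_iff] at hx
  have h3 : A.valuation x⁻¹ ≤ 1 := (A.valuation_le_one_iff _).2 h2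
  rw [map_inv₀] at h3
  rcases eq_or_ne x 0 with rfl | hx0
  · apply h
    rw [map_zero]
    exact S34DBC_zero_mem_nonunits A
  · have hv0 : A.valuation x ≠ 0 := (Valuation.ne_zero_iff _).2 hx0
    have h4 : 1 ≤ A.valuation x := by
      have := mul_le_mul_left h3 (A.valuation x)
      rwa [inv_mul_cancel₀ hv0, one_mul] at this
    exact absurd hx (not_lt.2 h4)

include hstab in
/-- **Branch (B), sequence form.**  Let `P` be a `K1`-rational place centred at the prime `m` of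
the normal chart `X`, `τ` in the inertia group with `τ P` centred at `m`, and `T n`, `S n`
`τ`-fixed elements of `X` with `m = (π, T n, S n)` locally, whose values at `P` are divisible by
`π ^ n`, for every `n`.  Then `τ P = P`. -/
theorem S34DBC_fixed (x0 : LaurentSeries K1) (hx0 : x0 = S18K_j K1 ∨ x0 = (S18K_j K1)⁻¹)
    (X : Subring (LaurentSeries K1))
    (hXF : ∀ a ∈ X, a ∈ modularFunctionFieldFullC K1 N) (hOX : S18K_O A K1 ≤ X)
    (hx0X : x0 ∈ X)
    (hX : ∀ y : LaurentSeries K1, IsIntegral (adj (S18K_O A K1) x0) y → y ∈ S18K_F1 K1 N →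
      y ∈ X)
    (m : Ideal X) [hm : m.IsPrime] (hπ : S18K_π A K1 ∈ X)
    (P : Place Qb (modularFunctionFieldBar N)) (hrat : S37LEVEL_IsRational N K1 P)
    (hc : S34K_Centred N A K1 X m P)
    (τ : GQ) (hτ : τ ∈ A.inertiaSubgroupIn ℚ)
    (hcτ : S34K_Centred N A K1 X m (S34R_g N τ • P))
    (T S : ℕ → LaurentSeries K1) (hTX : ∀ n, T n ∈ X) (hSX : ∀ n, S n ∈ X)
    (hTfix : ∀ n, S34ACT_act K1 hstab τ (T n) = T n)
    (hSfix : ∀ n, S34ACT_act K1 hstab τ (S n) = S n)
    (hgen : ∀ n, IsLocalRing.maximalIdeal (locRing X m) =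
      Ideal.span ({incl X m ⟨S18K_π A K1, hπ⟩, incl X m ⟨T n, hTX n⟩,
        incl X m ⟨S n, hSX n⟩} : Set (locRing X m)))
    (hdeepT : ∀ n, ∃ d : K1, (d : Qb) ∈ A ∧ S34K_ValueAt N K1 P (T n)
      (((((S18K_D A K1).π : S18K_O1 A K1) : K1) ^ n * d : K1) : Qb))
    (hdeepS : ∀ n, ∃ d : K1, (d : Qb) ∈ A ∧ S34K_ValueAt N K1 P (S n)
      (((((S18K_D A K1).π : S18K_O1 A K1) : K1) ^ n * d : K1) : Qb)) :
    S34R_g N τ • P = P := by
  have hRF := S34DBC_locRing_le N K1 X hXF m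
  have hnn := S34DBC_nonneg N A K1 X hXF m P hc
  have hnn' := S34DBC_nonneg N A K1 X hXF m (S34R_g N τ • P) hcτ
  have hratτ : S37LEVEL_IsRational N K1 (S34R_g N τ • P) :=
    S34ACT_rational K1 hstab N τ P hrat
  obtain ⟨ψ, hψ⟩ := Fermat.Agent.S37_helper15_HEXF.S37HEXF_F1 N K1 P hrat (locRing X m) hRF hnn
  obtain ⟨ψ', hψ'⟩ := Fermat.Agent.S37_helper15_HEXF.S37HEXF_F1 N K1 (S34R_g N τ • P) hratτ
    (locRing X m) hRF hnn'
  have hψA := S34DBC_psi_mem N A K1 X hXF m P hc ψ hψ hrat hOX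
  have hψ'A := S34DBC_psi_mem N A K1 X hXF m (S34R_g N τ • P) hcτ ψ' hψ' hratτ hOX
  have hker : ∀ r, ψ r = 0 → r ∈ IsLocalRing.maximalIdeal (locRing X m) := by
    intro r h0
    apply S34DBC_mem_maximalIdeal N A K1 X hXF m P hc ψ hψ hrat hOX r
    rw [h0]
    exact S34DBC_zero_mem_nonunits A
  have hπA : (((((S18K_D A K1).π : S18K_O1 A K1) : K1)) : Qb) ∈ A := (S18K_D A K1).π.2
  -- the uniformiser and its conjugate
  have hπnu : (((((S18K_D A K1).π : S18K_O1 A K1) : K1)) : Qb) ∈ A.nonunits :=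
    S34CI_pi_nonunit A K1
  have hτπ : τ (((((S18K_D A K1).π : S18K_O1 A K1) : K1)) : Qb) ∈ A.nonunits :=
    S34DBC_inertia_nonunits A τ hτ hπnu
  obtain ⟨y, hy⟩ := S34DBC_pi_dvd A K1
    (⟨S34ACT_res K1 hstab τ (((S18K_D A K1).π : S18K_O1 A K1) : K1), A.nonunits_le hτπ⟩ :
      S18K_O1 A K1) hτπ
  have hy' : S34ACT_res K1 hstab τ (((S18K_D A K1).π : S18K_O1 A K1) : K1) =
      (((S18K_D A K1).π : S18K_O1 A K1) : K1) * (y : K1) :=
    congrArg (fun z : S18K_O1 A K1 => (z : K1)) hy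
  -- the values of a `τ`-fixed deep coordinate
  have hval : ∀ (Z : LaurentSeries K1) (hZX : Z ∈ X) (hZfix : S34ACT_act K1 hstab τ Z = Z)
      (n : ℕ) (d : K1) (hd : (d : Qb) ∈ A)
      (hv : S34K_ValueAt N K1 P Z
        (((((S18K_D A K1).π : S18K_O1 A K1) : K1) ^ n * d : K1) : Qb)),
      (∃ d : K1, (d : Qb) ∈ A ∧
        ψ (incl X m ⟨Z, hZX⟩) = (((S18K_D A K1).π : S18K_O1 A K1) : K1) ^ n * d) ∧
      (∃ d : K1, (d : Qb) ∈ A ∧
        ψ' (incl X m ⟨Z, hZX⟩) = (((S18K_D A K1).π : S18K_O1 A K1) : K1) ^ n * d) := by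
    intro Z hZX hZfix n d hd hv
    have hZF := hXF Z hZX
    have hcA : (((((S18K_D A K1).π : S18K_O1 A K1) : K1) ^ n * d : K1) : Qb) ∈ A := by
      push_cast
      exact A.mul_mem _ _ (pow_mem hπA n) hd
    constructor
    · refine ⟨d, hd, ?_⟩
      exact S34DBC_psi_eq_of_val N K1 X m P ψ hψ (incl X m ⟨Z, hZX⟩) _
        (S34DBC_C_mem_locRing A K1 X m hOX _ hcA) ((S34DBC_val_iff N K1 P hZF _).2 hv)
    · have hv' := S34CI_valueAt N K1 hstab τ P hv
      rw [hZfix] at hv'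
      have hv'' : S34K_ValueAt N K1 (S34R_g N τ • P) Z
          ((S34ACT_res K1 hstab τ
            ((((S18K_D A K1).π : S18K_O1 A K1) : K1) ^ n * d) : K1) : Qb) := hv'
      have hcA' : ((S34ACT_res K1 hstab τ
            ((((S18K_D A K1).π : S18K_O1 A K1) : K1) ^ n * d) : K1) : Qb) ∈ A :=
        S34ACT_inertia_mem A τ hτ _ hcA
      have e := S34DBC_psi_eq_of_val N K1 X m (S34R_g N τ • P) ψ' hψ' (incl X m ⟨Z, hZX⟩) _
        (S34DBC_C_mem_locRing A K1 X m hOX _ hcA')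
        ((S34DBC_val_iff N K1 (S34R_g N τ • P) hZF _).2 hv'')
      refine ⟨(y : K1) ^ n * S34ACT_res K1 hstab τ d, ?_, ?_⟩
      · push_cast
        exact A.mul_mem _ _ (pow_mem y.2 n) (S34ACT_inertia_mem A τ hτ _ hd)
      · rw [e, map_mul, map_pow, hy']
        ring
  have hψψ' : ψ = ψ' := by
    refine S34DBC_eq_valueMaps A K1 X hOX m hπ ψ ψ' hψA hψ'A hψ.1 hψ'.1 hker
      (fun n => incl X m ⟨T n, hTX n⟩) (fun n => incl X m ⟨S n, hSX n⟩) hgen ?_ ?_ ?_ ?_
    · intro n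
      obtain ⟨d, hd, hv⟩ := hdeepT n
      exact (hval (T n) (hTX n) (hTfix n) n d hd hv).1
    · intro n
      obtain ⟨d, hd, hv⟩ := hdeepS n
      exact (hval (S n) (hSX n) (hSfix n) n d hd hv).1
    · intro n
      obtain ⟨d, hd, hv⟩ := hdeepT n
      exact (hval (T n) (hTX n) (hTfix n) n d hd hv).2
    · intro n
      obtain ⟨d, hd, hv⟩ := hdeepS n
      exact (hval (S n) (hSX n) (hSfix n) n d hd hv).2
  -- place extensionality
  apply S34PX_ext N A K1 x0 hx0 X hX P (S34R_g N τ • P) hrat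
  · obtain ⟨c, -, hv⟩ := hc.1 ⟨x0, hx0X⟩
    exact S34DBC_ordP_nonneg_of_valueAt N K1 P (hXF _ hx0X) hv
  · obtain ⟨c, -, hv⟩ := hcτ.1 ⟨x0, hx0X⟩
    exact S34DBC_ordP_nonneg_of_valueAt N K1 (S34R_g N τ • P) (hXF _ hx0X) hv
  · intro a ha ha0 hpos
    have h1 : ψ' (incl X m ⟨a, ha⟩) = 0 := (hψ'.2 (incl X m ⟨a, ha⟩) ha0).2 hpos
    rw [← hψψ'] at h1
    exact (hψ.2 (incl X m ⟨a, ha⟩) ha0).1 h1

include hstab in
/-- **X-LOCGEN-B, the contract `S34LGK_BranchB`** for a normal chart `X ⊇ icl (O[x0]) F1`,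
`x0 ∈ {j, j⁻¹}`, on which inertia preserves centres. -/
theorem S34DBC_branchB (V2 X : Subring (LaurentSeries K1))
    (x0 : LaurentSeries K1) (hx0 : x0 = S18K_j K1 ∨ x0 = (S18K_j K1)⁻¹)
    (hXF : ∀ a ∈ X, a ∈ modularFunctionFieldFullC K1 N) (hOX : S18K_O A K1 ≤ X)
    (hx0X : x0 ∈ X)
    (hX : ∀ y : LaurentSeries K1, IsIntegral (adj (S18K_O A K1) x0) y → y ∈ S18K_F1 K1 N →
      y ∈ X)
    (hCI : S34K_CentredInert N A K1 X) :
    Fermat.Agent.S34_helper7_LGDefs.S34LGK_BranchB N A K1 hstab V2 X := by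
  intro hπ m hm hπm hThru1 hThru2 P hrat hc hdeep τ hτ
  haveI := hm.isPrime
  choose ϖ k T S c hk hND hDeep using hdeep
  have hπA : (((((S18K_D A K1).π : S18K_O1 A K1) : K1)) : Qb) ∈ A := (S18K_D A K1).π.2
  have hdiv : ∀ n, ∃ y : K1, (y : Qb) ∈ A ∧
      ϖ n ^ k n = (((S18K_D A K1).π : S18K_O1 A K1) : K1) ^ n * y := by
    intro n
    obtain ⟨y, hy⟩ := S34DBC_pi_dvd A K1
      (⟨ϖ n, A.nonunits_le (hND n).ϖ_nonunit⟩ : S18K_O1 A K1) (hND n).ϖ_nonunit
    have hy' : ϖ n = (((S18K_D A K1).π : S18K_O1 A K1) : K1) * (y : K1) :=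
      congrArg (fun z : S18K_O1 A K1 => (z : K1)) hy
    refine ⟨(((S18K_D A K1).π : S18K_O1 A K1) : K1) ^ (k n - n) * (y : K1) ^ k n, ?_, ?_⟩
    · push_cast
      exact A.mul_mem _ _ (pow_mem hπA _) (pow_mem y.2 _)
    · have e1 : (((S18K_D A K1).π : S18K_O1 A K1) : K1) ^ k n =
          (((S18K_D A K1).π : S18K_O1 A K1) : K1) ^ n *
            (((S18K_D A K1).π : S18K_O1 A K1) : K1) ^ (k n - n) := by
        rw [← _root_.pow_add, Nat.add_sub_of_le (hk n)]
      rw [hy', mul_pow, e1]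
      ring
  refine S34DBC_fixed N A K1 hstab x0 hx0 X hXF hOX hx0X hX m hπ P hrat hc τ hτ
    (hCI τ hτ m P hc) T S (fun n => (hND n).T_mem) (fun n => (hND n).S_mem)
    (fun n => (hND n).T_fix τ hτ) (fun n => (hND n).S_fix τ hτ)
    (fun n => (hND n).gen hπ) ?_ ?_
  · intro n
    obtain ⟨a, b, hTa, hSb, ⟨a', ha', haa'⟩, -⟩ := hDeep n
    obtain ⟨y, hyA, hy⟩ := hdiv n
    refine ⟨y * a', ?_, ?_⟩
    · push_cast
      exact A.mul_mem _ _ hyA ha'
    · have e : a = (((S18K_D A K1).π : S18K_O1 A K1) : K1) ^ n * (y * a') := by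
        rw [haa', hy]
        ring
      rw [← e]
      exact hTa
  · intro n
    obtain ⟨a, b, hTa, hSb, -, ⟨b', hb', hbb'⟩⟩ := hDeep n
    obtain ⟨y, hyA, hy⟩ := hdiv n
    refine ⟨y * b', ?_, ?_⟩
    · push_cast
      exact A.mul_mem _ _ hyA hb'
    · have e : b = (((S18K_D A K1).π : S18K_O1 A K1) : K1) ^ n * (y * b') := by
        rw [hbb', hy]
        ring
      rw [← e]
      exact hSb

include hstab in
/-- `S34LGK_BranchB` for the integral closure of `O[x0]` in `F1`, `x0 ∈ {j, j⁻¹}`. -/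
theorem S34DBC_branchB_icl (V2 : Subring (LaurentSeries K1))
    (x0 : LaurentSeries K1) (hx0 : x0 = S18K_j K1 ∨ x0 = (S18K_j K1)⁻¹)
    (hCI : S34K_CentredInert N A K1 (icl (adj (S18K_O A K1) x0) (S18K_F1 K1 N))) :
    Fermat.Agent.S34_helper7_LGDefs.S34LGK_BranchB N A K1 hstab V2
      (icl (adj (S18K_O A K1) x0) (S18K_F1 K1 N)) := by
  have hx0F : x0 ∈ modularFunctionFieldFullC K1 N := by
    rcases hx0 with rfl | rfl
    · exact jqModC_mem_full K1 N
    · exact inv_mem (jqModC_mem_full K1 N)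
  refine S34DBC_branchB N A K1 hstab V2 _ x0 hx0 (fun a ha => ha.2) ?_ ?_
    (fun y hy hyF => ⟨hy, hyF⟩) hCI
  · intro y hy
    refine ⟨?_, ?_⟩
    · have h1 : y ∈ adj (S18K_O A K1) x0 := Subring.subset_closure (Or.inl hy)
      exact isIntegral_algebraMap (R := adj (S18K_O A K1) x0)
        (x := (⟨y, h1⟩ : adj (S18K_O A K1) x0))
    · obtain ⟨c, -, rfl⟩ := (S18K_mem_O A K1 y).1 hy
      exact S34DBC_C_mem N K1 c
  · refine ⟨?_, hx0F⟩
    have h1 : x0 ∈ adj (S18K_O A K1) x0 := Subring.subset_closure (Or.inr rfl)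
    exact isIntegral_algebraMap (R := adj (S18K_O A K1) x0)
      (x := (⟨x0, h1⟩ : adj (S18K_O A K1) x0))

include hstab in
/-- **`S34LGK_BranchB` on the chart `j ≠ ∞`.** -/
theorem S34DBC_branchB_A0 (V2 : Subring (LaurentSeries K1))
    (hCI : S34K_CentredInert N A K1 (S18K_A0 A K1 N)) :
    Fermat.Agent.S34_helper7_LGDefs.S34LGK_BranchB N A K1 hstab V2 (S18K_A0 A K1 N) :=
  S34DBC_branchB_icl N A K1 hstab V2 (S18K_j K1) (Or.inl rfl) hCI

include hstab in
/-- **`S34LGK_BranchB` on the chart `j ≠ 0`.** -/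
theorem S34DBC_branchB_Ainf (V2 : Subring (LaurentSeries K1))
    (hCI : S34K_CentredInert N A K1 (S18K_Ainf A K1 N)) :
    Fermat.Agent.S34_helper7_LGDefs.S34LGK_BranchB N A K1 hstab V2 (S18K_Ainf A K1 N) :=
  S34DBC_branchB_icl N A K1 hstab V2 (S18K_j K1)⁻¹ (Or.inr rfl) hCI

end Main

end Fermat.Agent.S34_helper11_DICHBC
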