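import Mathlib
import Fermat.Agent.S18_helper9_CDefs
import Fermat.Agent.S18_helper27_CFIN
import Fermat.Agent.S18_helper27_CNOETH
import Fermat.Agent.S34_helper27_C2Defs

set_option autoImplicit false
set_option linter.style.haveILetI false
set_option linter.unusedVariables false
set_option linter.unusedSectionVars false

/-!
# S34, abstract block C for a semi-local `V` (helper27): finiteness and noetherianity

`S34C2_fin`, `S34C2_chart_noetherian`: the statements of `S18CFIN_fin` and
`S18CNOETH_chart_noetherian` for an `S34C2_Setup` (the proofs never use the valuation `V`).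
-/

namespace Fermat.Agent.S34_helper27_C2FIN

open Fermat.Agent.S18_helper9_CDefs Fermat.Agent.S18_helper27_CFIN
  Fermat.Agent.S18_helper27_CNOETH Fermat.Agent.S34_helper27_C2Defs Polynomial

variable {L : Type*} [Field L]

/-- **X-C-FIN.** The integral closure of `O[x]` (`x = j` or `x = j⁻¹`) in `F1(h)`, `h` algebraic
over `F1`, is a finitely generated `O[x]`-module (elementwise form). -/
theorem S34C2_fin [CharZero L] {O : Subring L} {π j : L} {F1 : Subfield L}
    {V A0 Ainf : Subring L}
    (S : S34C2_Setup O π j F1 V A0 Ainf) (x : L) (hx : x = j ∨ x = j⁻¹)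
    (h : L) (hh : IsAlgebraic F1 h) :
    ∃ s : Finset L, (↑s ⊆ (icl (adj O x) (fadj F1 h) : Set L)) ∧
      ∀ y ∈ icl (adj O x) (fadj F1 h), ∃ c : L → L,
        (∀ z, c z ∈ adj O x) ∧ y = ∑ z ∈ s, c z * z := by
  classical
  have := S.dvr
  -- x is transcendental
  have hxtr : Transcendental O x := by
    rcases hx with rfl | rfl
    · exact S.j_trans
    · intro halg
      apply S.j_trans
      have := halg.inv
      rwa [inv_inv] at this
  have hxF1 : x ∈ F1 := by
    rcases hx with rfl | rfl
    · exact S.j_mem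
    · exact F1.inv_mem S.j_mem
  -- the polynomial ring and its fraction field
  let φ : Polynomial O →+* L := (aeval x : Polynomial O →ₐ[O] L).toRingHom
  have hφinj : Function.Injective φ := transcendental_iff_injective.mp hxtr
  let algAL : Algebra (Polynomial O) L := φ.toAlgebra
  let ψ : FractionRing (Polynomial O) →+* L := IsFractionRing.lift (g := φ) hφinj
  let algKL : Algebra (FractionRing (Polynomial O)) L := ψ.toAlgebra
  have : IsScalarTower (Polynomial O) (FractionRing (Polynomial O)) L :=
    IsScalarTower.of_algebraMap_eq (fun a => (IsFractionRing.lift_algebraMap hφinj a).symm)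
  have : CharZero (FractionRing (Polynomial O)) := ψ.charZero
  have hφF1 : ∀ P : Polynomial O, φ P ∈ F1 := by
    intro P
    induction P using Polynomial.induction_on' with
    | add p q hp hq => rw [map_add]; exact F1.add_mem hp hq
    | monomial n a =>
      have : φ (monomial n a) = (a : L) * x ^ n := by
        change aeval x (monomial n a) = _
        rw [aeval_monomial]
        rfl
      rw [this]
      exact F1.mul_mem (S.O_le a.2) (F1.pow_mem hxF1 n)
  have hF1E : (F1 : Set L) ⊆ fadj F1 h := fun y hy => Subfield.subset_closure (Or.inl hy)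
  have hψE : ∀ k : FractionRing (Polynomial O),
      algebraMap (FractionRing (Polynomial O)) L k ∈ fadj F1 h := by
    intro k
    obtain ⟨a, b, hb, rfl⟩ := IsFractionRing.div_surjective (A := Polynomial O) k
    rw [map_div₀]
    refine (fadj F1 h).div_mem ?_ ?_
    · rw [← IsScalarTower.algebraMap_apply]
      exact hF1E (hφF1 a)
    · rw [← IsScalarTower.algebraMap_apply]
      exact hF1E (hφF1 b)
  let E' : IntermediateField (FractionRing (Polynomial O)) L :=
    Subfield.toIntermediateField (fadj F1 h) hψE
  have hE'mem : ∀ y : L, y ∈ E' ↔ y ∈ fadj F1 h := fun y => Iff.rfl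
  -- `Frac(O)(j)` is inside the range of `ψ`
  have hKj : ∀ c ∈ Subfield.closure ((O : Set L) ∪ {j}),
      ∃ k : FractionRing (Polynomial O), ψ k = c := by
    have hle : Subfield.closure ((O : Set L) ∪ {j}) ≤ ψ.fieldRange := by
      rw [Subfield.closure_le]
      rintro c (hc | hc)
      · refine ⟨algebraMap (Polynomial O) _ (C ⟨c, hc⟩), ?_⟩
        rw [IsFractionRing.lift_algebraMap]
        change aeval x (C (⟨c, hc⟩ : O)) = c
        rw [aeval_C]; rfl
      · rw [Set.mem_singleton_iff] at hc
        subst hc
        have hX : ψ (algebraMap (Polynomial O) _ X) = x := by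
          rw [IsFractionRing.lift_algebraMap]
          change aeval x (X : Polynomial O) = x
          rw [aeval_X]
        rcases hx with hx | hx
        · exact ⟨algebraMap (Polynomial O) _ X, by rw [hX, hx]⟩
        · refine ⟨(algebraMap (Polynomial O) _ X)⁻¹, ?_⟩
          rw [map_inv₀, hX, hx, inv_inv]
    intro c hc
    exact hle hc
  -- finite-dimensionality
  obtain ⟨s₁, hs₁⟩ := S.finite
  obtain ⟨t₁, ht₁⟩ := S18CFIN_fadj_span h hh
  let T : Finset L := (s₁ ×ˢ t₁).image (fun p => p.1 * p.2)
  have hspan : ∀ y ∈ fadj F1 h, y ∈ Submodule.span (FractionRing (Polynomial O)) (T : Set L) := by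
    intro y hy
    obtain ⟨f, hf, rfl⟩ := ht₁ y hy
    refine Submodule.sum_mem _ fun b hb => ?_
    obtain ⟨c, hc, hfb⟩ := hs₁ (f b) (hf b)
    rw [hfb, Finset.sum_mul]
    refine Submodule.sum_mem _ fun z hz => ?_
    obtain ⟨k, hk⟩ := hKj (c z) (hc z)
    have : c z * z * b = k • (z * b) := by
      rw [Algebra.smul_def, mul_assoc]
      congr 1
      exact hk.symm
    rw [this]
    refine Submodule.smul_mem _ _ (Submodule.subset_span ?_)
    rw [Finset.mem_coe, Finset.mem_image]
    exact ⟨(z, b), Finset.mem_product.mpr ⟨hz, hb⟩, rfl⟩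
  have : FiniteDimensional (FractionRing (Polynomial O))
      (Submodule.span (FractionRing (Polynomial O)) (T : Set L)) :=
    FiniteDimensional.span_finset _ T
  have hle : Subalgebra.toSubmodule E'.toSubalgebra ≤
      Submodule.span (FractionRing (Polynomial O)) (T : Set L) := fun y hy => hspan y hy
  have hfd : FiniteDimensional (FractionRing (Polynomial O)) E' :=
    Submodule.finiteDimensional_of_le hle
  -- the integral closure is finite
  have hfin : Module.Finite (Polynomial O) (integralClosure (Polynomial O) E') :=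
    IsIntegralClosure.finite (Polynomial O) (FractionRing (Polynomial O)) E' _
  obtain ⟨t, ht⟩ := Module.finite_def.mp hfin
  have : IsScalarTower (Polynomial O) E' L := IsScalarTower.of_algebraMap_eq (fun a => rfl)
  let ι : integralClosure (Polynomial O) E' → L := fun c => ((c : E') : L)
  have hιinj : Function.Injective ι := fun a b hab => Subtype.ext (Subtype.ext hab)
  have hint_iff : ∀ (y : L) (hy : y ∈ E'), IsIntegral (adj O x) y ↔
      IsIntegral (Polynomial O) (⟨y, hy⟩ : E') := by
    intro y hy
    rw [S18CFIN_isIntegral_iff]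
    have h1 : IsIntegral (Polynomial O) (⟨y, hy⟩ : E') ↔
        IsIntegral (Polynomial O) (algebraMap E' L ⟨y, hy⟩) :=
      (isIntegral_algebraMap_iff (algebraMap E' L).injective).symm
    rw [h1]
    rfl
  refine ⟨t.image ι, ?_, ?_⟩
  · intro z hz
    rw [Finset.mem_coe, Finset.mem_image] at hz
    obtain ⟨c, -, rfl⟩ := hz
    rw [SetLike.mem_coe, mem_icl]
    exact ⟨(hint_iff _ (c : E').2).mpr c.2, (c : E').2⟩
  · intro y hy
    rw [mem_icl] at hy
    obtain ⟨hyint, hyE⟩ := hy
    have hyC : (⟨y, hyE⟩ : E') ∈ integralClosure (Polynomial O) E' :=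
      (hint_iff y hyE).mp hyint
    have hmem : (⟨⟨y, hyE⟩, hyC⟩ : integralClosure (Polynomial O) E') ∈
        Submodule.span (Polynomial O) (t : Set _) := by
      rw [ht]; trivial
    obtain ⟨f, -, hf⟩ := Submodule.mem_span_finset.mp hmem
    refine ⟨fun z => if hz : ∃ c ∈ t, ι c = z then φ (f hz.choose) else 0, ?_, ?_⟩
    · intro z
      by_cases hz : ∃ c ∈ t, ι c = z
      · simp only [dif_pos hz]
        exact (S18CFIN_mem_adj_iff O x _).mpr ⟨_, rfl⟩
      · simp only [dif_neg hz]; exact Subring.zero_mem _
    · rw [Finset.sum_image (fun a _ b _ hab => hιinj hab)]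
      have hy2 : y = ι (∑ a ∈ t, f a • a) := by rw [hf]
      rw [hy2]
      have hsum : ι (∑ a ∈ t, f a • a) = ∑ a ∈ t, ι (f a • a) := by
        change (E'.val.toRingHom.comp (integralClosure (Polynomial O) E').val.toRingHom)
          (∑ a ∈ t, f a • a) = _
        rw [map_sum]
        rfl
      rw [hsum]
      refine Finset.sum_congr rfl fun b hb => ?_
      have hex : ∃ b' ∈ t, ι b' = ι b := ⟨b, hb, rfl⟩
      simp only [dif_pos hex]
      have hch : hex.choose = b := hιinj hex.choose_spec.2
      rw [hch]
      change ((f b • b : integralClosure (Polynomial O) E') : E').1 = φ (f b) * ι b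
      rw [Algebra.smul_def]
      rfl


/-- **X-C-NOETH.** The chart ring is noetherian. -/
theorem S34C2_chart_noetherian [CharZero L] {O : Subring L} {π j : L} {F1 : Subfield L}
    {V A0 Ainf : Subring L} (S : S34C2_Setup O π j F1 V A0 Ainf) (x : L) (hx : x = j ∨ x = j⁻¹)
    (A : Subring L) (hC : Chart O π x F1 V A) : IsNoetherianRing ↥A := by
  classical
  have := S.dvr
  obtain ⟨s, hs_sub, hs_gen⟩ := S34C2_fin S x hx 1 (isAlgebraic_one)
  have hA_iff : ∀ y : L, y ∈ A ↔ y ∈ icl (adj O x) (fadj F1 1) := by
    intro y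
    rw [mem_icl, hC.mem_iff, S18CNOETH_fadj_one]
  have hxF1 : x ∈ F1 := by
    rcases hx with rfl | rfl
    · exact S.j_mem
    · exact F1.inv_mem S.j_mem
  have hadjF1 : ∀ a ∈ adj O x, a ∈ F1 := by
    intro a ha
    have hle : adj O x ≤ F1.toSubring := by
      unfold adj
      rw [Subring.closure_le]
      rintro y (hy | hy)
      · exact S.O_le hy
      · rw [Set.mem_singleton_iff] at hy
        rw [hy]; exact hxF1
    exact hle ha
  have hadjA : ∀ a ∈ adj O x, a ∈ A := fun a ha =>
    (hC.mem_iff a).mpr ⟨isIntegral_algebraMap (R := adj O x) (x := ⟨a, ha⟩), hadjF1 a ha⟩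
  let f : Polynomial O →+* A :=
    (aeval x : Polynomial O →ₐ[O] L).toRingHom.codRestrict A
      (fun P => hadjA _ ((S18CFIN_mem_adj_iff O x _).mpr ⟨P, rfl⟩))
  let g : {z : L // z ∈ s} → A := fun z => ⟨z.1, (hA_iff _).mpr (hs_sub z.2)⟩
  let Φ : MvPolynomial {z : L // z ∈ s} (Polynomial O) →+* A := MvPolynomial.eval₂Hom f g
  have hsurj : Function.Surjective Φ := by
    rintro ⟨y, hy⟩
    obtain ⟨c, hc, hyc⟩ := hs_gen y ((hA_iff y).mp hy)
    choose P hP using fun z => (S18CFIN_mem_adj_iff O x _).mp (hc z)
    refine ⟨∑ z : {z : L // z ∈ s}, MvPolynomial.C (P z.1) * MvPolynomial.X z, ?_⟩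
    apply Subtype.ext
    rw [map_sum]
    simp only [map_mul, Φ, MvPolynomial.eval₂Hom_C, MvPolynomial.eval₂Hom_X']
    rw [hyc]
    have h1 : ∀ z : {z : L // z ∈ s}, ((f (P z.1) * g z : A) : L) = c z.1 * z.1 := by
      intro z
      change aeval x (P z.1) * z.1 = _
      rw [hP]
    rw [show ((∑ z : {z : L // z ∈ s}, f (P z.1) * g z : A) : L) =
      ∑ z : {z : L // z ∈ s}, ((f (P z.1) * g z : A) : L) from map_sum A.subtype _ _]
    simp only [h1]
    exact (Finset.sum_coe_sort s (fun z => c z * z))
  exact isNoetherianRing_of_surjective _ _ Φ hsurj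


end Fermat.Agent.S34_helper27_C2FIN
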