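import Mathlib
import Fermat.Agent.S18_helper9_CDefs
import Fermat.Agent.S18_helper9_CBasic
import Fermat.Agent.S18_helper23_CCORE
import Fermat.Agent.S18_helper28_H1
import Fermat.Agent.S18_helper2_H0C
import Fermat.Agent.S18_helper27_CFIN
import Fermat.Agent.S18_helper20_CSAT
import Fermat.Agent.S18_helper23_CLOC
import Fermat.Agent.S18_helper9_CASM
import Fermat.Agent.S34_helper27_C2Defs
import Fermat.Agent.S34_helper27_C2FIN
import Fermat.Agent.S34_helper27_C2SAT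

set_option autoImplicit false
set_option linter.style.haveILetI false
set_option linter.unusedVariables false
set_option linter.unusedSectionVars false

/-!
# S34, abstract block C for a semi-local `V` (helper27): the main theorem

Port of `S18_helper9_CASM.main_of` (S18 block C) from `Setup` (ONE valuation ring `V`) to
`S34C2_Setup` (`V` semi-local, e.g. `V = V_∞ ⊓ V_0` for a special fibre with two components).

* `S34C2_main_of_hloc` : if `f ∈ F1` is nonzero, `f = G ^ p (1 + π c)` with `G` a unit of `V`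
  and `c ∈ V` (`RedPow π V p f G`), and at every maximal ideal `m ∋ π` of the two charts the
  element `s = h / G` (`h ^ p = f`) has a local lift `D s = y + π w`, `D ∈ A ∖ m`, `y` integral
  over `A`, `w` integral over `V`, then `h ∈ F1`.
* `S34C2_main_of` : the same with the local lifts replaced by the local shape
  `S18_helper9_CASM.LocShape` (statement identical to `S18_helper9_CASM.main_of`).
-/

namespace Fermat.Agent.S34_helper27_C2MAIN

open Fermat.Agent.S18_helper9_CDefs Fermat.Agent.S18_helper9_CBasic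
  Fermat.Agent.S18_helper9_CASM Fermat.Agent.S18_helper23_CLOC
  Fermat.Agent.S34_helper27_C2Defs Fermat.Agent.S34_helper27_C2FIN
  Fermat.Agent.S34_helper27_C2SAT Polynomial Finset

variable {L : Type*} [Field L] {O : Subring L} {π j x : L} {F1 : Subfield L}
  {V A0 Ainf A : Subring L}

/-- a `p`-th root of an element of `F1` which is not in `F1`: its `p`-th power is not a `p`-th
power in `F1` (roots of unity of `L` are algebraic over `O`, hence in `F1`). -/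
theorem S34C2_not_pow_of_notMem (S : S34C2_Setup O π j F1 V A0 Ainf) {p : ℕ} (hp : 0 < p) (s : L)
    (hs : s ∉ F1) : ∀ b ∈ F1, b ^ p ≠ s ^ p := by
  intro b hb hbs
  have hb0 : b ≠ 0 := by
    rintro rfl
    rw [zero_pow hp.ne'] at hbs
    exact hs ((pow_eq_zero_iff hp.ne').1 hbs.symm ▸ F1.zero_mem)
  have hξ : (s / b) ^ p = 1 := by
    rw [div_pow, ← hbs, div_self (pow_ne_zero _ hb0)]
  have halg : IsAlgebraic O (s / b) := by
    refine ⟨X ^ p - C 1, X_pow_sub_C_ne_zero hp 1, ?_⟩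
    simp only [map_sub, map_pow, aeval_X, map_one, hξ, sub_self]
  obtain ⟨a, ha, b', hb', hb'0, hab⟩ := S.algClosed _ halg
  apply hs
  have : s = a / b' * b := by
    field_simp
    rw [← hab]
    field_simp
  rw [this]
  exact F1.mul_mem (F1.div_mem (S.O_le ha) (S.O_le hb')) hb

/-- (X-C-IDEM, part 2) nontriviality of the Kummer idempotent. -/
theorem S34C2_nontriv [CharZero L] (S : S34C2_Setup O π j F1 V A0 Ainf) {p : ℕ} (hp : p.Prime)
    (f h G : L) (hf : f ∈ F1) (hh : h ^ p = f) (hG : G ∈ F1) (hG0 : G ≠ 0) (hhF : h ∉ F1)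
    (γ : L) (hγ : γ ∈ V) : ¬ ∃ w ∈ vadj V (h / G) p, kumIdem p (h / G) - γ = π * w := by
  rintro ⟨w, ⟨c, hc, rfl⟩, heq⟩
  have hp0 : (p : L) ≠ 0 := Nat.cast_ne_zero.2 hp.ne_zero
  have hs : h / G ∉ F1 := by
    intro hs
    apply hhF
    have : h = h / G * G := by field_simp
    rw [this]
    exact F1.mul_mem hs hG
  have hsp : (h / G) ^ p ∈ F1 := by
    rw [div_pow, hh]
    exact F1.div_mem hf (F1.pow_mem hG p)
  have hnp := S34C2_not_pow_of_notMem S hp.pos (h / G) hs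
  have hπF : π ∈ F1 := S.O_le S.π_mem
  let b : ℕ → L := fun i => (p : L)⁻¹ - (if i = 0 then γ else 0) - π * c i
  have hb : ∀ i, b i ∈ F1 := by
    intro i
    refine F1.sub_mem (F1.sub_mem (F1.inv_mem (natCast_mem F1 p)) ?_)
      (F1.mul_mem hπF (S.V_le (hc i)))
    split_ifs
    · exact S.V_le hγ
    · exact F1.zero_mem
  have h0 : ∑ i ∈ range p, b i * (h / G) ^ i = 0 := by
    have hterm : ∀ i ∈ range p, b i * (h / G) ^ i =
        (p : L)⁻¹ * (h / G) ^ i - (if i = 0 then γ else 0) - π * (c i * (h / G) ^ i) := by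
      intro i _
      simp only [b]
      split_ifs with h0
      · subst h0; ring
      · ring
    rw [Finset.sum_congr rfl hterm, Finset.sum_sub_distrib, Finset.sum_sub_distrib,
      ← Finset.mul_sum, ← Finset.mul_sum, Finset.sum_ite_eq' (range p) 0 (fun _ => γ),
      if_pos (Finset.mem_range.2 hp.pos)]
    rw [kumIdem] at heq
    linear_combination heq
  have h1 := coeff_eq_zero_of_sum_eq_zero F1 p hp (h / G) hsp hnp b hb h0 1 hp.one_lt
  simp only [b, one_ne_zero, if_false, sub_zero] at h1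
  have hπ0 : π ≠ 0 := by
    rintro rfl
    exact S.π_nonunit (by rw [inv_zero]; exact V.zero_mem)
  apply S.π_nonunit
  have : π⁻¹ = c 1 * (p : L) := by
    field_simp
    have h2 : (p : L)⁻¹ = π * c 1 := by linear_combination h1
    have h3 : (p : L) * (p : L)⁻¹ = 1 := mul_inv_cancel₀ hp0
    rw [h2] at h3
    linear_combination -h3
  rw [this]
  exact V.mul_mem (hc 1) (natCast_mem V p)

/-- nontriviality against all of `icl V (fadj F1 h)` (what the assembly needs after the Čech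
lemma): combines `nontriv` with the normality of `V[h]` (helper6, `S18P12E_coeff_mem`). -/
theorem S34C2_nontriv_icl [CharZero L] (S : S34C2_Setup O π j F1 V A0 Ainf) {p : ℕ} (hp : p.Prime)
    (hpO : (p : L)⁻¹ ∈ O) (f h G : L) (hf0 : f ≠ 0) (hh : h ^ p = f)
    (hred : RedPow π V p f G) (hhF : h ∉ F1) (γ : L) (hγ : γ ∈ V) :
    ¬ ∃ w ∈ icl V (fadj F1 h), kumIdem p (h / G) - γ = π * w := by
  rintro ⟨w, hw, heq⟩
  obtain ⟨hGV, hGV', c₀, hc₀, hfG⟩ := hred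
  have hOV : O ≤ V := S34C2_O_le_V S
  have hπV : π ∈ V := hOV S.π_mem
  have hp0 : (p : L) ≠ 0 := Nat.cast_ne_zero.2 hp.ne_zero
  have hG0 : G ≠ 0 := by
    rintro rfl
    rw [zero_pow hp.ne_zero, zero_mul] at hfG
    exact hf0 hfG
  have hfV : f ∈ V := by
    rw [hfG]
    exact V.mul_mem (V.pow_mem hGV p) (V.add_mem V.one_mem (V.mul_mem hπV hc₀))
  have hfV' : f⁻¹ ∈ V := by
    rw [hfG, mul_inv, ← inv_pow]
    exact V.mul_mem (V.pow_mem hGV' p) (S.V_one_add _ hc₀)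
  have hnp : ∀ b ∈ F1, b ^ p ≠ f := by
    intro b hb
    rw [← hh]
    exact S34C2_not_pow_of_notMem S hp.pos h hhF b hb
  have hw1 : w ∈ vadj V h p :=
    icl_subset_vadj F1 V (fun x hx => S.V_le hx)
      S.V_ic p hp hp0 (hOV hpO) f h hfV
      hfV' hh hnp hw
  exact S34C2_nontriv S hp f h G (S.V_le hfV) hh (S.V_le hGV) hG0 hhF γ hγ
    ⟨w, vadj_div_subset V h G p hGV hG0 hw1, heq⟩

theorem S34C2_f_mem (S : S34C2_Setup O π j F1 V A0 Ainf) {p : ℕ} {f G : L} (hred : RedPow π V p f G) :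
    f ∈ V ∧ f⁻¹ ∈ V := by
  obtain ⟨hG, hG', c, hc, hf⟩ := hred
  have hπV : π ∈ V := S34C2_O_le_V S S.π_mem
  constructor
  · rw [hf]
    exact V.mul_mem (V.pow_mem hG _) (V.add_mem V.one_mem (V.mul_mem hπV hc))
  · rw [hf, mul_inv, ← inv_pow]
    exact V.mul_mem (V.pow_mem hG' _) (S.V_one_add _ hc)

/-- if `h ∉ F1` then `f = h ^ p` is not a `p`-th power in `F1`. -/
theorem S34C2_hnp (S : S34C2_Setup O π j F1 V A0 Ainf) {p : ℕ} (hp : p ≠ 0) {f h : L} (hf0 : f ≠ 0)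
    (hh : h ^ p = f) (hhF : h ∉ F1) : ∀ b ∈ F1, b ^ p ≠ f := by
  intro b hb hbf
  have hb0 : b ≠ 0 := by
    intro h0
    apply hf0
    rw [← hbf, h0, zero_pow hp]
  have h1 : (h * b⁻¹) ^ p = 1 := by
    rw [mul_pow, hh, inv_pow, hbf]
    exact mul_inv_cancel₀ hf0
  have halg : IsAlgebraic O (h * b⁻¹) := by
    refine ⟨Polynomial.X ^ p - 1, ?_, ?_⟩
    · exact (Polynomial.monic_X_pow_sub_C (1 : O) hp).ne_zero
    · simp [h1]
  obtain ⟨a, ha, d, hd, hd0, hmul⟩ := S.algClosed _ halg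
  apply hhF
  have : h = a * d⁻¹ * b := by
    field_simp
    field_simp at hmul
    linear_combination hmul
  rw [this]
  exact F1.mul_mem (F1.mul_mem (S.O_le ha) (F1.inv_mem (S.O_le hd))) hb

/-! ## local lifts from the local shape -/

theorem S34C2_hloc (S : S34C2_Setup O π j F1 V A0 Ainf) {p : ℕ} (hp : p.Prime)
    (hC : Chart O π x F1 V A) (f h G : L) (hf0 : f ≠ 0) (hh : h ^ p = f)
    (hred : RedPow π V p f G) (m : Ideal A) (hm : m.IsMaximal)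
    (hshape : ∃ u g w : L, (∃ a c : A, c ∉ m ∧ u * (c : L) = a) ∧
      (∃ a c : A, c ∉ m ∧ u⁻¹ * (c : L) = a) ∧
      g ∈ F1 ∧ g ∈ V ∧ g⁻¹ ∈ V ∧ f = u * g ^ p ∧
      (∃ a c : A, c ∉ m ∧ w * (c : L) = a) ∧ (∃ a c : A, c ∉ m ∧ w⁻¹ * (c : L) = a) ∧
      ∃ c ∈ V, G = g * w * (1 + π * c)) :
    ∃ D : A, D ∉ m ∧ ∃ y ∈ icl A (fadj F1 h), ∃ w ∈ icl V (fadj F1 h),
      (D : L) * (h * G⁻¹) = y + π * w := by
  obtain ⟨u, g, w, ⟨a1, c1, hc1, hu⟩, -, -, hgV, hgV', hfu, -, ⟨a2, c2, hc2, hw⟩, c, hc, hG⟩ :=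
    hshape
  have hG0 : G ≠ 0 := cm_G_ne_zero hp.ne_zero hf0 hred
  have hg0 : g ≠ 0 := by
    intro h0
    apply hG0
    rw [hG, h0, zero_mul, zero_mul]
  have hw0 : w ≠ 0 := by
    intro h0
    apply hG0
    rw [hG, h0, mul_zero, zero_mul]
  obtain ⟨hfV, hfV'⟩ := S34C2_f_mem S hred
  have hhV' : h ∈ icl V (fadj F1 h) :=
    ⟨IsIntegral.of_pow hp.pos (by rw [hh]; exact isIntegral_of_mem V hfV), mem_fadj_self F1 h⟩
  have hVV' : V ≤ icl V (fadj F1 h) :=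
    le_icl (fun y hy => le_fadj F1 h (S.V_le hy))
  have hroot : ∀ y ∈ icl V (fadj F1 h), y ^ p ∈ A → y ∈ icl A (fadj F1 h) := by
    intro y hy hyp
    exact ⟨IsIntegral.of_pow hp.pos (isIntegral_of_mem A hyp), hy.2⟩
  obtain ⟨y, hy, w', hw', hyw⟩ :=
    Fermat.Agent.S18_helper23_KUMIDEM.local_lift p hp.pos V (icl V (fadj F1 h)) A
      (icl A (fadj F1 h)) hC.le_V hVV' π f h G hh hhV' hred.2.1 hG0 hroot
      g (a1 : L) (c1 : L) (c2 : L) (a2 : L) (-(c * c2 * g)) hgV' hg0 a1.2 c1.2 a2.2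
      (V.neg_mem (V.mul_mem (V.mul_mem hc (hC.le_V c2.2)) hgV))
      (by rw [hfu, ← hu]; ring)
      (by
        have hw2 : (a2 : L) = w⁻¹ * c2 := hw.symm
        rw [hw2, hG]
        field_simp
        ring)
  refine ⟨c1 * c2, ?_, y, hy, w', hw', ?_⟩
  · intro hmem
    rcases hm.isPrime.mem_or_mem hmem with h1 | h1
    · exact hc1 h1
    · exact hc2 h1
  · rw [← hyw]
    push_cast
    ring

open Fermat.Agent.S18_helper28_H1 Fermat.Agent.S18_helper2_H0C Fermat.Agent.S18_helper27_CFIN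
  Fermat.Agent.S18_helper20_CSAT in
theorem S34C2_main_of_hloc [CharZero L] (S : S34C2_Setup O π j F1 V A0 Ainf) {p : ℕ}
    (hp : p.Prime)
    (hpO : (p : L)⁻¹ ∈ O) (f h G : L) (hf : f ∈ F1)
    (hf0 : f ≠ 0) (hh : h ^ p = f) (hred : RedPow π V p f G)
    (hloc0' : ∀ (hπ : π ∈ A0) (m : Ideal A0), m.IsMaximal → (⟨π, hπ⟩ : A0) ∈ m →
      ∃ D : A0, D ∉ m ∧ ∃ y ∈ icl A0 (fadj F1 h), ∃ w ∈ icl V (fadj F1 h),
        (D : L) * (h * G⁻¹) = y + π * w)
    (hlocInf' : ∀ (hπ : π ∈ Ainf) (m : Ideal Ainf), m.IsMaximal → (⟨π, hπ⟩ : Ainf) ∈ m →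
      ∃ D : Ainf, D ∉ m ∧ ∃ y ∈ icl Ainf (fadj F1 h), ∃ w ∈ icl V (fadj F1 h),
        (D : L) * (h * G⁻¹) = y + π * w) :
    h ∈ F1 := by
  by_contra hhF
  have hπ0 := S34C2_pi_ne_zero S
  have hj0 := S34C2_j_ne_zero S
  have hp0 : (p : L) ≠ 0 := Nat.cast_ne_zero.mpr hp.ne_zero
  have hG0 := cm_G_ne_zero hp.ne_zero hf0 hred
  obtain ⟨hfV, hfV'⟩ := S34C2_f_mem S hred
  have hred' := hred
  obtain ⟨hGV, hGV', c₀, hc₀, hfG⟩ := hred'
  have hF1F' : F1 ≤ fadj F1 h := le_fadj F1 h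
  have hjF1 : j ∈ F1 := S.j_mem
  have hjinvF1 : j⁻¹ ∈ F1 := F1.inv_mem S.j_mem
  have hOA0 : O ≤ A0 := S34C2_O_le S S.chart0
  have hOAinf : O ≤ Ainf := S34C2_O_le S S.chartInf
  have hA0B0 : A0 ≤ icl A0 (fadj F1 h) :=
    le_icl (fun y hy => hF1F' (S34C2_le_F1 S.chart0 y hy))
  have hAinfBinf : Ainf ≤ icl Ainf (fadj F1 h) :=
    le_icl (fun y hy => hF1F' (S34C2_le_F1 S.chartInf y hy))
  have hjA0 : j ∈ A0 := S34C2_x_mem S.chart0 hjF1
  have hjB0 : j ∈ icl A0 (fadj F1 h) := hA0B0 hjA0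
  have hjinvAinf : j⁻¹ ∈ Ainf := S34C2_x_mem S.chartInf hjinvF1
  have hB0eq : icl A0 (fadj F1 h) = icl (adj O j) (fadj F1 h) :=
    S34C2_icl_eq S S.chart0 hjF1 _
  have hBinfeq : icl Ainf (fadj F1 h) = icl (adj O j⁻¹) (fadj F1 h) :=
    S34C2_icl_eq S S.chartInf hjinvF1 _
  have hVV' : V ≤ icl V (fadj F1 h) := le_icl (fun y hy => hF1F' (S.V_le hy))
  have hB0V' : icl A0 (fadj F1 h) ≤ icl V (fadj F1 h) := icl_mono S.chart0.le_V _
  have hB0Bmid : icl A0 (fadj F1 h) ≤ midSubring (icl A0 (fadj F1 h)) j hjB0 :=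
    fun y hy => ⟨0, by simpa using hy⟩
  have hjinvV : j⁻¹ ∈ V := S.chart0.x_inv_mem
  have hjV : j ∈ V := S.chart0.le_V hjA0
  have hBmidV' : midSubring (icl A0 (fadj F1 h)) j hjB0 ≤ icl V (fadj F1 h) := by
    rintro y ⟨n, hn⟩
    have : y = (j⁻¹) ^ n * (j ^ n * y) := by
      rw [inv_pow]
      field_simp
    rw [this]
    exact Subring.mul_mem _ (Subring.pow_mem _ (hVV' hjinvV) n) (hB0V' hn)
  have hBinfBmid : icl Ainf (fadj F1 h) ≤ midSubring (icl A0 (fadj F1 h)) j hjB0 := by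
    intro y hy
    rw [hBinfeq] at hy
    obtain ⟨n, hn⟩ := S18CFIN_pole O j⁻¹ (inv_ne_zero hj0) y hy.1
    rw [inv_inv] at hn
    refine ⟨n, ?_⟩
    rw [hB0eq]
    exact ⟨hn, (fadj F1 h).mul_mem ((fadj F1 h).pow_mem (hF1F' hjF1) n) hy.2⟩
  have hhV' : h ∈ icl V (fadj F1 h) :=
    ⟨IsIntegral.of_pow hp.pos (by rw [hh]; exact isIntegral_of_mem V hfV), mem_fadj_self F1 h⟩
  have hs : h * G⁻¹ ∈ icl V (fadj F1 h) := Subring.mul_mem _ hhV' (hVV' hGV')
  have hsp : (h * G⁻¹) ^ p = 1 + π * c₀ := by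
    have hGp : G ^ p ≠ 0 := pow_ne_zero _ hG0
    rw [mul_pow, hh, hfG, inv_pow]
    field_simp
  -- saturation
  have hnp := S34C2_hnp S hp.ne_zero hf0 hh hhF
  have hV'vadj : (icl V (fadj F1 h) : Set L) ⊆ vadj V h p :=
    Fermat.Agent.S18_helper23_CLOC.icl_subset_vadj F1 V (fun x hx => S.V_le hx) S.V_ic p hp
      hp0 (S34C2_O_le_V S hpO) f h hfV hfV' hh hnp
  have hhpV : h ^ p ∈ V := by rw [hh]; exact hfV
  have hsatmid : ∀ y ∈ icl V (fadj F1 h), π * y ∈ icl (adjMid O j) (fadj F1 h) →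
      y ∈ icl (adjMid O j) (fadj F1 h) :=
    fun y hy hπy => S34C2_sat_V S p h hhpV _ hF1F' y (hV'vadj hy) hπy
  have hsat0 : ∀ y ∈ icl V (fadj F1 h), π * y ∈ icl A0 (fadj F1 h) →
      y ∈ icl A0 (fadj F1 h) := by
    intro y hy hπy
    rw [hB0eq] at hπy ⊢
    exact S34C2_sat_chart S j (Or.inl rfl) _ hF1F' y
      (hsatmid y hy (icl_mono (adj_le_adjMid O j) _ hπy)) hπy
  have hsat1 : ∀ y ∈ icl V (fadj F1 h), π * y ∈ icl Ainf (fadj F1 h) →
      y ∈ icl Ainf (fadj F1 h) := by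
    intro y hy hπy
    rw [hBinfeq] at hπy ⊢
    exact S34C2_sat_chart S j⁻¹ (Or.inr rfl) _ hF1F' y
      (hsatmid y hy (icl_mono (adj_inv_le_adjMid O j) _ hπy)) hπy
  have hsatB : ∀ y ∈ icl V (fadj F1 h), π * y ∈ midSubring (icl A0 (fadj F1 h)) j hjB0 →
      y ∈ midSubring (icl A0 (fadj F1 h)) j hjB0 := by
    rintro y hy ⟨n, hn⟩
    refine ⟨n, hsat0 _ (Subring.mul_mem _ (Subring.pow_mem _ (hVV' hjV) n) hy) ?_⟩
    have : π * (j ^ n * y) = j ^ n * (π * y) := by ring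
    rw [this]
    exact hn
  -- H0
  have hH0 : ∀ y, y ∈ icl A0 (fadj F1 h) → y ∈ icl Ainf (fadj F1 h) → y ∈ O := by
    intro y h0 h1
    rw [hB0eq] at h0
    rw [hBinfeq] at h1
    exact H0 O j S.dvr S.algClosed S.j_trans y h0.1 h1.1
  -- H1
  have hhalg : IsAlgebraic F1 h := by
    refine ⟨Polynomial.X ^ p - Polynomial.C (⟨f, hf⟩ : F1), ?_, ?_⟩
    · exact (Polynomial.monic_X_pow_sub_C _ hp.ne_zero).ne_zero
    · have : algebraMap F1 L ⟨f, hf⟩ = f := rfl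
      simp [hh, this]
  have hfin := S34C2_fin S j (Or.inl rfl) h hhalg
  rw [← hB0eq] at hfin
  have hpole : ∀ y ∈ icl A0 (fadj F1 h), ∃ n : ℕ, j⁻¹ ^ n * y ∈ icl Ainf (fadj F1 h) := by
    intro y hy
    rw [hB0eq] at hy
    obtain ⟨n, hn⟩ := S18CFIN_pole O j hj0 y hy.1
    refine ⟨n, ?_⟩
    rw [hBinfeq]
    exact ⟨hn, (fadj F1 h).mul_mem ((fadj F1 h).pow_mem (hF1F' hjinvF1) n) hy.2⟩
  have hON : IsNoetherianRing O := by
    have := S.dvr
    infer_instance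
  obtain ⟨c, hc⟩ := H1_all O π j hj0 hON S.π_mem (icl A0 (fadj F1 h)) (icl Ainf (fadj F1 h))
    (hOA0.trans hA0B0) (hOAinf.trans hAinfBinf) hjB0 (hAinfBinf hjinvAinf) hfin hpole
  have hH1 : ∀ y ∈ midSubring (icl A0 (fadj F1 h)) j hjB0, ∀ n : ℕ,
      (∃ a ∈ icl A0 (fadj F1 h), ∃ b ∈ icl Ainf (fadj F1 h), π ^ n * y = a - b) →
      ∃ a ∈ icl A0 (fadj F1 h), ∃ b ∈ icl Ainf (fadj F1 h), π ^ c * y = a - b := by
    rintro y ⟨k, hk⟩ n ⟨a, ha, b, hb, hab⟩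
    obtain ⟨u, hu, v, hv, huv⟩ := hc y ⟨k, hk⟩ n
      ⟨a, ha, -b, Subring.neg_mem _ hb, by rw [hab]; ring⟩
    exact ⟨u, hu, -v, Subring.neg_mem _ hv, by rw [huv]; ring⟩
  -- local lifts
  have hloc0 : ∀ m : Ideal A0, m.IsMaximal → (⟨π, hOA0 S.π_mem⟩ : A0) ∈ m →
      ∃ D : A0, D ∉ m ∧ ∃ y ∈ icl A0 (fadj F1 h), ∃ w ∈ icl V (fadj F1 h),
        (D : L) * (h * G⁻¹) = y + π * w := fun m hm hπm => hloc0' (hOA0 S.π_mem) m hm hπm
  have hloc1 : ∀ m : Ideal Ainf, m.IsMaximal → (⟨π, hOAinf S.π_mem⟩ : Ainf) ∈ m →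
      ∃ D : Ainf, D ∉ m ∧ ∃ y ∈ icl Ainf (fadj F1 h), ∃ w ∈ icl V (fadj F1 h),
        (D : L) * (h * G⁻¹) = y + π * w := fun m hm hπm => hlocInf' (hOAinf S.π_mem) m hm hπm
  obtain ⟨γ, hγ, w, hw, hγw⟩ := cm_core p O (icl V (fadj F1 h)) A0 Ainf (icl A0 (fadj F1 h))
    (icl Ainf (fadj F1 h)) (midSubring (icl A0 (fadj F1 h)) j hjB0) π (h * G⁻¹) c₀
    hOA0 hOAinf hA0B0 hAinfBinf hB0Bmid hBinfBmid hBmidV' S.π_mem hpO hp0 hs (hVV' hc₀) hsp
    hsat0 hsat1 hsatB hH0 c hH1 hloc0 hloc1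
  refine S34C2_nontriv_icl S hp hpO f h G hf0 hh hred hhF γ
    (S34C2_O_le_V S hγ) ⟨w, hw, ?_⟩
  rw [Fermat.Agent.S18_helper23_CLOC.kumIdem_eq, div_eq_mul_inv]
  exact hγw

/-- The main theorem of block C for a semi-local `V`, from the local shape at every closed
point of the special fibre (same statement as `S18_helper9_CASM.main_of`). -/
theorem S34C2_main_of [CharZero L] (S : S34C2_Setup O π j F1 V A0 Ainf) {p : ℕ} (hp : p.Prime)
    (hpO : (p : L)⁻¹ ∈ O) (f h G : L) (hf : f ∈ F1)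
    (hf0 : f ≠ 0) (hh : h ^ p = f) (hred : RedPow π V p f G)
    (hshape0 : ∀ (hπ : π ∈ A0) (m : Ideal A0), m.IsMaximal → (⟨π, hπ⟩ : A0) ∈ m →
      LocShape π F1 V A0 p f G m)
    (hshapeInf : ∀ (hπ : π ∈ Ainf) (m : Ideal Ainf), m.IsMaximal → (⟨π, hπ⟩ : Ainf) ∈ m →
      LocShape π F1 V Ainf p f G m) :
    h ∈ F1 :=
  S34C2_main_of_hloc S hp hpO f h G hf hf0 hh hred
    (fun hπ m hm hπm => S34C2_hloc S hp S.chart0 f h G hf0 hh hred m hm (hshape0 hπ m hm hπm))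
    (fun hπ m hm hπm =>
      S34C2_hloc S hp S.chartInf f h G hf0 hh hred m hm (hshapeInf hπ m hm hπm))

end Fermat.Agent.S34_helper27_C2MAIN
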