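import Mathlib
import Fermat.Agent.S18_helper9_CDefs
import Fermat.Agent.S18_helper9_CASM
import Fermat.Agent.S34_helper12_CDefs
import Fermat.Agent.S34_helper27_C2Defs
import Fermat.Agent.S34_helper27_C2FIN
import Fermat.Agent.S34_helper27_C2MAIN

set_option autoImplicit false
set_option linter.style.haveILetI false
set_option linter.unusedVariables false
set_option linter.unusedSectionVars false

/-!
# S34, block C': the abstract main theorem in the vocabulary of `S34_helper12_CDefs`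

helper12's `S34C_Setup` and helper27's `S34C2_Setup` have the same fields; this file provides the
translations and restates the landed main theorem `S34C2_main_of_hloc` for `S34C_Setup` /
`S34C_Setup2` with the local inputs `S34C_LocLift` / `S34C_Shape`.

* `S34CA_setup_of_setup2` : `S34C_Setup2 … V1 V2 …  →  S34C_Setup … (V1 ⊓ V2) …`;
* `S34CA_main`            : block C' from local lifts (`S34C_LocLift`);
* `S34CA_main_shape`      : block C' from local shapes (`S34C_Shape`);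
* `S34CA_main2`, `S34CA_main2_shape` : the same for `S34C_Setup2`;
* `S34CA_locLift_of_shape`: `S34C_Shape → S34C_LocLift`;
* `S34CA_chart_noetherian`: the charts are noetherian.
-/

namespace Fermat.Agent.S34_helper27_C2ADAPT

open Fermat.Agent.S18_helper9_CDefs Fermat.Agent.S34_helper12_CDefs
  Fermat.Agent.S34_helper27_C2Defs Fermat.Agent.S34_helper27_C2FIN
  Fermat.Agent.S34_helper27_C2MAIN

variable {L : Type*} [Field L] {O : Subring L} {π j x : L} {F1 : Subfield L}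
  {V V1 V2 A0 Ainf A : Subring L}

theorem S34CA_setup (S : S34C_Setup O π j F1 V A0 Ainf) : S34C2_Setup O π j F1 V A0 Ainf where
  dvr := S.dvr
  π_mem := S.π_mem
  π_irr := S.π_irr
  algClosed := S.algClosed
  j_trans := S.j_trans
  j_mem := S.j_mem
  O_le := S.O_le
  finite := S.finite
  V_le := S.V_le
  V_ic := S.V_ic
  V_one_add := S.V_rad
  π_nonunit := S.π_nonunit
  chart0 := S.chart0
  chartInf := S.chartInf

theorem S34CA_setup_symm (S : S34C2_Setup O π j F1 V A0 Ainf) :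
    S34C_Setup O π j F1 V A0 Ainf where
  dvr := S.dvr
  π_mem := S.π_mem
  π_irr := S.π_irr
  algClosed := S.algClosed
  j_trans := S.j_trans
  j_mem := S.j_mem
  O_le := S.O_le
  finite := S.finite
  V_le := S.V_le
  V_ic := S.V_ic
  V_rad := S.V_one_add
  π_nonunit := S.π_nonunit
  chart0 := S.chart0
  chartInf := S.chartInf

/-- the first valuation of an `S34C_Setup2` as an `S34C2_Val` -/
theorem S34CA_val1 (S : S34C_Setup2 O π j F1 V1 V2 A0 Ainf) : S34C2_Val π F1 V1 where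
  le := S.V1_le
  val := S.V1_val
  π_mem := (S.chart0.le_V ((S.chart0.mem_iff π).2
    ⟨Fermat.Agent.S18_helper9_CBasic.isIntegral_of_mem _
      (Fermat.Agent.S18_helper9_CBasic.le_adj O j S.π_mem), S.O_le S.π_mem⟩)).1
  π_nonunit := S.V1_nonunit

/-- the second valuation of an `S34C_Setup2` as an `S34C2_Val` -/
theorem S34CA_val2 (S : S34C_Setup2 O π j F1 V1 V2 A0 Ainf) : S34C2_Val π F1 V2 where
  le := S.V2_le
  val := S.V2_val
  π_mem := (S.chart0.le_V ((S.chart0.mem_iff π).2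
    ⟨Fermat.Agent.S18_helper9_CBasic.isIntegral_of_mem _
      (Fermat.Agent.S18_helper9_CBasic.le_adj O j S.π_mem), S.O_le S.π_mem⟩)).2
  π_nonunit := S.V2_nonunit

/-- **`S34C_Setup2 → S34C_Setup`** with `V = V1 ⊓ V2`. -/
theorem S34CA_setup_of_setup2 (S : S34C_Setup2 O π j F1 V1 V2 A0 Ainf) :
    S34C_Setup O π j F1 (V1 ⊓ V2) A0 Ainf where
  dvr := S.dvr
  π_mem := S.π_mem
  π_irr := S.π_irr
  algClosed := S.algClosed
  j_trans := S.j_trans
  j_mem := S.j_mem
  O_le := S.O_le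
  finite := S.finite
  V_le := S34C2_le_inf (S34CA_val1 S)
  V_ic := S34C2_ic_inf (S34CA_val1 S) (S34CA_val2 S)
  V_rad := S34C2_one_add_inf (S34CA_val1 S) (S34CA_val2 S)
  π_nonunit := S34C2_nonunit_inf (S34CA_val1 S)
  chart0 := S.chart0
  chartInf := S.chartInf

/-- `S34C_Shape → S34C_LocLift` (port of `S18_helper9_CASM.cm_hloc`). -/
theorem S34CA_locLift_of_shape (S : S34C_Setup O π j F1 V A0 Ainf) {p : ℕ} (hp : p.Prime)
    (hC : Chart O π x F1 V A) (f h G : L) (hf0 : f ≠ 0) (hh : h ^ p = f)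
    (hred : RedPow π V p f G) (m : Ideal A) (hm : m.IsMaximal)
    (hshape : S34C_Shape π F1 V A p f G m) : S34C_LocLift π F1 V A h G m :=
  S34C2_hloc (S34CA_setup S) hp hC f h G hf0 hh hred m hm hshape

/-- **Block C' (abstract main theorem), from local lifts.**  `f ∈ F1` nonzero with
`f = G ^ p (1 + π c)`, `G` a unit of `V`, `c ∈ V`; `h ^ p = f`; at every maximal ideal `m ∋ π` of
both charts `s = h / G` has a local lift.  Then `h ∈ F1`. -/
theorem S34CA_main [CharZero L] (S : S34C_Setup O π j F1 V A0 Ainf) {p : ℕ} (hp : p.Prime)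
    (hpO : (p : L)⁻¹ ∈ O) (f h G : L) (hf : f ∈ F1) (hf0 : f ≠ 0) (hh : h ^ p = f)
    (hred : RedPow π V p f G)
    (hloc0 : ∀ (hπ : π ∈ A0) (m : Ideal A0), m.IsMaximal → (⟨π, hπ⟩ : A0) ∈ m →
      S34C_LocLift π F1 V A0 h G m)
    (hlocInf : ∀ (hπ : π ∈ Ainf) (m : Ideal Ainf), m.IsMaximal → (⟨π, hπ⟩ : Ainf) ∈ m →
      S34C_LocLift π F1 V Ainf h G m) :
    h ∈ F1 :=
  S34C2_main_of_hloc (S34CA_setup S) hp hpO f h G hf hf0 hh hred hloc0 hlocInf

/-- **Block C' (abstract main theorem), from local shapes.** -/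
theorem S34CA_main_shape [CharZero L] (S : S34C_Setup O π j F1 V A0 Ainf) {p : ℕ}
    (hp : p.Prime)
    (hpO : (p : L)⁻¹ ∈ O) (f h G : L) (hf : f ∈ F1) (hf0 : f ≠ 0) (hh : h ^ p = f)
    (hred : RedPow π V p f G)
    (hshape0 : ∀ (hπ : π ∈ A0) (m : Ideal A0), m.IsMaximal → (⟨π, hπ⟩ : A0) ∈ m →
      S34C_Shape π F1 V A0 p f G m)
    (hshapeInf : ∀ (hπ : π ∈ Ainf) (m : Ideal Ainf), m.IsMaximal → (⟨π, hπ⟩ : Ainf) ∈ m →
      S34C_Shape π F1 V Ainf p f G m) :
    h ∈ F1 :=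
  S34C2_main_of (S34CA_setup S) hp hpO f h G hf hf0 hh hred hshape0 hshapeInf

/-- Block C' for two valuations, from local lifts. -/
theorem S34CA_main2 [CharZero L] (S : S34C_Setup2 O π j F1 V1 V2 A0 Ainf) {p : ℕ}
    (hp : p.Prime)
    (hpO : (p : L)⁻¹ ∈ O) (f h G : L) (hf : f ∈ F1) (hf0 : f ≠ 0) (hh : h ^ p = f)
    (hred : RedPow π (V1 ⊓ V2) p f G)
    (hloc0 : ∀ (hπ : π ∈ A0) (m : Ideal A0), m.IsMaximal → (⟨π, hπ⟩ : A0) ∈ m →
      S34C_LocLift π F1 (V1 ⊓ V2) A0 h G m)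
    (hlocInf : ∀ (hπ : π ∈ Ainf) (m : Ideal Ainf), m.IsMaximal → (⟨π, hπ⟩ : Ainf) ∈ m →
      S34C_LocLift π F1 (V1 ⊓ V2) Ainf h G m) :
    h ∈ F1 :=
  S34CA_main (S34CA_setup_of_setup2 S) hp hpO f h G hf hf0 hh hred hloc0 hlocInf

/-- Block C' for two valuations, from local shapes. -/
theorem S34CA_main2_shape [CharZero L] (S : S34C_Setup2 O π j F1 V1 V2 A0 Ainf) {p : ℕ}
    (hp : p.Prime)
    (hpO : (p : L)⁻¹ ∈ O) (f h G : L) (hf : f ∈ F1) (hf0 : f ≠ 0) (hh : h ^ p = f)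
    (hred : RedPow π (V1 ⊓ V2) p f G)
    (hshape0 : ∀ (hπ : π ∈ A0) (m : Ideal A0), m.IsMaximal → (⟨π, hπ⟩ : A0) ∈ m →
      S34C_Shape π F1 (V1 ⊓ V2) A0 p f G m)
    (hshapeInf : ∀ (hπ : π ∈ Ainf) (m : Ideal Ainf), m.IsMaximal → (⟨π, hπ⟩ : Ainf) ∈ m →
      S34C_Shape π F1 (V1 ⊓ V2) Ainf p f G m) :
    h ∈ F1 :=
  S34CA_main_shape (S34CA_setup_of_setup2 S) hp hpO f h G hf hf0 hh hred hshape0 hshapeInf

/-- The charts of an `S34C_Setup` are noetherian. -/
theorem S34CA_chart_noetherian [CharZero L] (S : S34C_Setup O π j F1 V A0 Ainf) (x : L)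
    (hx : x = j ∨ x = j⁻¹) (A : Subring L) (hC : Chart O π x F1 V A) : IsNoetherianRing ↥A :=
  S34C2_chart_noetherian (S34CA_setup S) x hx A hC

end Fermat.Agent.S34_helper27_C2ADAPT
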