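import Mathlib
import Fermat.Agent.S18_helper9_CDefs
import Fermat.Agent.S18_helper9_CBasic
import Fermat.Agent.S18_helper3_LOCRING
import Fermat.Agent.S18_helper23_KUMIDEM
import Fermat.Agent.S34_helper12_CDefs
import Fermat.Agent.S34_helper27_C2Defs
import Fermat.Agent.S34_helper27_C2SAT
import Fermat.Agent.S34_helper27_C2ADAPT

/-!
# S34, block C' : the local lift at a one-component point (P5-SMOOTH, helper19)

Setting: the two-valuation setup `S34C_Setup2` (`V1`, `V2` the two extensions of the Gauss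
valuation, charts relative to `V1 ⊓ V2`).  Let `m ∋ π` be a maximal ideal of a chart `A` lying on
the component of `V1` only, witnessed by an element `d ∈ A ∖ m` with `d ∈ π V2`.  Then the local
lift `S34C_LocLift π F1 (V1 ⊓ V2) A h G m` holds as soon as `[IG]` holds at `m`.

Proof.  The local ring `R = A_m` (`locRing A m` of S18) satisfies the hypotheses `LocHyp` of S18
X-C-LOCRING with respect to the SINGLE valuation ring `V1`:
* `R ≤ V1` : an element `c ∈ A` which is not a unit of `V1` satisfies `c d ∈ π A ⊆ m` (by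
  saturation of `A` in `V1 ⊓ V2`), hence `c ∈ m`;
* `R` is `π`-saturated in `V1` : if `π v c = a` then `v c d = a (d / π) ∈ V1 ⊓ V2` and
  `π (v c d) ∈ A`;
* `V1` is a localisation of `A` : from `Chart.loc` for `V1 ⊓ V2`.
Hence S18's `LocHyp.locring_core` gives the local shape of `f` with respect to `V1`, and S18's
`local_lift` gives `D₁ (h / G) = y + π w'` with `D₁ ∈ A ∖ m`, `y` integral over `A` and `w'`
integral over `V1`.  Multiplying by `d` we get `w = d w'`, which is integral over `V1` and, being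
equal to `(d / π) (D₁ (h / G) - y)`, also integral over `V2`; an element integral over `V1` and
over `V2` is integral over `V1 ⊓ V2` (coefficients of the minimal polynomial over `F1`).
-/

set_option autoImplicit false

namespace Fermat.Agent.S34_helper19_SMOOTH

open Fermat.Agent.S18_helper9_CDefs Fermat.Agent.S18_helper9_CBasic
  Fermat.Agent.S18_helper3_LOCRING Fermat.Agent.S34_helper12_CDefs
  Fermat.Agent.S34_helper27_C2Defs Fermat.Agent.S34_helper27_C2SAT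
  Fermat.Agent.S34_helper27_C2ADAPT

variable {L : Type*} [Field L]

/-- The abstract data: two valuation rings `W₁`, `W₂` of `F1` (the first one with principal
maximal ideal `(π)`), a ring `V` with `V = W₁ ∩ W₂` and a subring `A ≤ V` which is `π`-saturated
in `V` and of which `V` is a localisation. -/
structure S34SM_Data (π : L) (F1 : Subfield L) (W₁ W₂ V A : Subring L) : Prop where
  val₁ : S34C2_Val π F1 W₁
  val₂ : S34C2_Val π F1 W₂
  unif₁ : ∀ x ∈ W₁, x⁻¹ ∉ W₁ → ∃ v ∈ W₁, x = π * v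
  V_le₁ : V ≤ W₁
  V_le₂ : V ≤ W₂
  V_inf : ∀ x ∈ W₁, x ∈ W₂ → x ∈ V
  A_le : A ≤ V
  sat : ∀ v ∈ V, π * v ∈ A → v ∈ A
  loc : ∀ v ∈ V, ∃ b ∈ A, b ≠ 0 ∧ b⁻¹ ∈ V ∧ v * b ∈ A
  π_mem : π ∈ A

section Abstract

variable {π : L} {F1 : Subfield L} {W₁ W₂ V A : Subring L}

/-- Elements of `A` outside `m` are units of `W₁`. -/
theorem S34SM_inv_mem (D : S34SM_Data π F1 W₁ W₂ V A) (m : Ideal A) [hm : m.IsPrime]
    (hπm : ∀ hπ : π ∈ A, (⟨π, hπ⟩ : A) ∈ m) (d : A) (hdm : d ∉ m)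
    (hd2 : ∃ v ∈ W₂, (d : L) = π * v) {c : A} (hc : c ∉ m) : ((c : L))⁻¹ ∈ W₁ := by
  by_contra hcon
  have hcW : (c : L) ∈ W₁ := D.V_le₁ (D.A_le c.2)
  obtain ⟨v, hv, hcv⟩ := D.unif₁ _ hcW hcon
  obtain ⟨v₂, hv₂, hdv⟩ := hd2
  have ht1 : v * (d : L) ∈ W₁ := W₁.mul_mem hv (D.V_le₁ (D.A_le d.2))
  have ht2 : v * (d : L) ∈ W₂ := by
    have : v * (d : L) = (c : L) * v₂ := by rw [hdv, hcv]; ring
    rw [this]
    exact W₂.mul_mem (D.V_le₂ (D.A_le c.2)) hv₂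
  have htA : v * (d : L) ∈ A := D.sat _ (D.V_inf _ ht1 ht2) (by
    have : π * (v * (d : L)) = (c : L) * (d : L) := by rw [hcv]; ring
    rw [this]; exact A.mul_mem c.2 d.2)
  have hcd : c * d = ⟨π, D.π_mem⟩ * ⟨v * (d : L), htA⟩ := by
    apply Subtype.ext
    show (c : L) * (d : L) = π * (v * (d : L))
    rw [hcv]; ring
  have hmem : c * d ∈ m := by
    rw [hcd]; exact m.mul_mem_right _ (hπm D.π_mem)
  rcases hm.mem_or_mem hmem with h1 | h1
  exacts [hc h1, hdm h1]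

/-- The local ring `A_m` is contained in `W₁`. -/
theorem S34SM_locRing_le (D : S34SM_Data π F1 W₁ W₂ V A) (m : Ideal A) [hm : m.IsPrime]
    (hπm : ∀ hπ : π ∈ A, (⟨π, hπ⟩ : A) ∈ m) (d : A) (hdm : d ∉ m)
    (hd2 : ∃ v ∈ W₂, (d : L) = π * v) : locRing A m ≤ W₁ := by
  rintro y ⟨a, c, hc, hy⟩
  have hc0 := coe_ne_zero_of_notMem A m hc
  have : y = (a : L) * ((c : L))⁻¹ := by rw [← hy]; field_simp
  rw [this]
  exact W₁.mul_mem (D.V_le₁ (D.A_le a.2)) (S34SM_inv_mem D m hπm d hdm hd2 hc)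

/-- The local ring `A_m` is `π`-saturated in `W₁`. -/
theorem S34SM_sat (D : S34SM_Data π F1 W₁ W₂ V A) (m : Ideal A) [hm : m.IsPrime]
    (d : A) (hdm : d ∉ m) (hd2 : ∃ v ∈ W₂, (d : L) = π * v) {v : L} (hv : v ∈ W₁)
    (hπv : π * v ∈ locRing A m) : v ∈ locRing A m := by
  obtain ⟨a, c, hc, hac⟩ := hπv
  obtain ⟨v₂, hv₂, hdv⟩ := hd2
  have ht1 : v * (c : L) * (d : L) ∈ W₁ :=
    W₁.mul_mem (W₁.mul_mem hv (D.V_le₁ (D.A_le c.2))) (D.V_le₁ (D.A_le d.2))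
  have ht2 : v * (c : L) * (d : L) ∈ W₂ := by
    have : v * (c : L) * (d : L) = (a : L) * v₂ := by rw [hdv, ← hac]; ring
    rw [this]
    exact W₂.mul_mem (D.V_le₂ (D.A_le a.2)) hv₂
  have htA : v * (c : L) * (d : L) ∈ A := D.sat _ (D.V_inf _ ht1 ht2) (by
    have : π * (v * (c : L) * (d : L)) = (a : L) * (d : L) := by rw [← hac]; ring
    rw [this]; exact A.mul_mem a.2 d.2)
  refine ⟨⟨_, htA⟩, c * d, fun h => ?_, ?_⟩
  · rcases hm.mem_or_mem h with h1 | h1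
    exacts [hc h1, hdm h1]
  · push_cast
    ring

/-- `W₁` is a localisation of `A`. -/
theorem S34SM_loc (D : S34SM_Data π F1 W₁ W₂ V A) :
    ∀ v ∈ W₁, ∃ b ∈ A, b ≠ 0 ∧ b⁻¹ ∈ W₁ ∧ v * b ∈ A := by
  intro v hv
  by_cases hv2 : v ∈ W₂
  · obtain ⟨b, hb, hb0, hb', hvb⟩ := D.loc v (D.V_inf v hv hv2)
    exact ⟨b, hb, hb0, D.V_le₁ hb', hvb⟩
  have key : ∀ t : L, t ∈ W₁ → t⁻¹ ∈ W₁ → t ∉ W₂ →
      ∃ b ∈ A, b ≠ 0 ∧ b⁻¹ ∈ W₁ ∧ t * b ∈ A := by
    intro t ht ht' ht2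
    have ht0 : t ≠ 0 := by rintro rfl; exact ht2 W₂.zero_mem
    have htinv2 : t⁻¹ ∈ W₂ := (D.val₂.val t (D.val₁.le ht)).resolve_left ht2
    obtain ⟨b, hb, hb0, hb', hvb⟩ := D.loc t⁻¹ (D.V_inf _ ht' htinv2)
    refine ⟨t⁻¹ * b, hvb, mul_ne_zero (inv_ne_zero ht0) hb0, ?_, ?_⟩
    · rw [mul_inv, inv_inv]; exact W₁.mul_mem ht (D.V_le₁ hb')
    · rw [← mul_assoc, mul_inv_cancel₀ ht0, one_mul]; exact hb
  by_cases hv' : v⁻¹ ∈ W₁
  · exact key v hv hv' hv2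
  · obtain ⟨v', hv'W, hvv'⟩ := D.unif₁ v hv hv'
    have h1 : (1 + v)⁻¹ ∈ W₁ := by rw [hvv']; exact D.val₁.one_add hv'W
    have h2 : 1 + v ∉ W₂ := fun h => hv2 (by
      have := W₂.sub_mem h W₂.one_mem
      simpa using this)
    obtain ⟨b, hb, hb0, hb', hvb⟩ := key (1 + v) (W₁.add_mem W₁.one_mem hv) h1 h2
    refine ⟨b, hb, hb0, hb', ?_⟩
    have : v * b = (1 + v) * b - b := by ring
    rw [this]; exact A.sub_mem hvb hb

/-- The hypotheses of S18 X-C-LOCRING hold for the local ring `A_m` and the valuation ring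
`W₁`. -/
theorem S34SM_locHyp (D : S34SM_Data π F1 W₁ W₂ V A) (m : Ideal A) [hm : m.IsPrime]
    (hπm : ∀ hπ : π ∈ A, (⟨π, hπ⟩ : A) ∈ m) (d : A) (hdm : d ∉ m)
    (hd2 : ∃ v ∈ W₂, (d : L) = π * v) :
    LocHyp π W₁ (locRing A m) (IsLocalRing.maximalIdeal (locRing A m)) where
  π_mem := le_locRing A m D.π_mem
  π_mem_m := fun _ => incl_mem_maximalIdeal A m (hπm D.π_mem)
  le_V := S34SM_locRing_le D m hπm d hdm hd2
  sat := fun _ hv h => S34SM_sat D m d hdm hd2 hv h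
  V_unif := D.unif₁
  π_nonunit := D.val₁.π_nonunit
  loc := fun v hv => by
    obtain ⟨b, hb, hb0, hb', hvb⟩ := S34SM_loc D v hv
    exact ⟨b, le_locRing A m hb, hb0, hb', le_locRing A m hvb⟩

/-- `[IG]` at `m` passes to the local ring. -/
theorem S34SM_IGAt (m : Ideal A) [hm : m.IsPrime] (hπ : π ∈ A) (hIG : IGAt π A m) :
    IGAt π (locRing A m) (IsLocalRing.maximalIdeal (locRing A m)) := by
  intro hπR
  obtain ⟨y, hy, hgen⟩ := hIG hπ
  refine ⟨incl A m y, incl_mem_maximalIdeal A m hy, ?_⟩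
  intro x hx
  obtain ⟨a₀, c₀, ha₀, hc₀, hx₀⟩ := (mem_maximalIdeal_iff A m x).1 hx
  obtain ⟨c, hc, a, b, habc⟩ := hgen a₀ ha₀
  refine ⟨incl A m (c * c₀), ?_, incl A m a, incl A m b, ?_⟩
  · intro hmem
    obtain ⟨a', c', ha', hc', h'⟩ := (mem_maximalIdeal_iff A m _).1 hmem
    have h1 : c * c₀ * c' = a' := Subtype.ext (by
      push_cast
      simpa using h')
    have h2 : c * c₀ * c' ∈ m := h1 ▸ ha'
    rcases hm.mem_or_mem h2 with h3 | h3
    · rcases hm.mem_or_mem h3 with h4 | h4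
      exacts [hc h4, hc₀ h4]
    · exact hc' h3
  · apply Subtype.ext
    have h1 := congrArg (fun z : A => (z : L)) habc
    simp only [Subring.coe_mul, Subring.coe_add] at h1
    show ((c : L) * (c₀ : L)) * (x : L) = (a : L) * π + (b : L) * (y : L)
    rw [← h1, ← hx₀]
    ring

/-- Localising the local ring again changes nothing. -/
theorem S34SM_locRing_locRing_le (m : Ideal A) [hm : m.IsPrime] :
    locRing (locRing A m) (IsLocalRing.maximalIdeal (locRing A m)) ≤ locRing A m := by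
  rintro y ⟨a, c, hc, hy⟩
  have hcu : IsUnit c := by
    by_contra h
    exact hc ((IsLocalRing.mem_maximalIdeal c).2 (mem_nonunits_iff.2 h))
  obtain ⟨z, hz⟩ := hcu.exists_right_inv
  have h1 : (c : L) * (z : L) = 1 := congrArg Subtype.val hz
  have : y = (a : L) * (z : L) := by
    rw [← hy]
    linear_combination (-y) * h1
  rw [this]
  exact (locRing A m).mul_mem a.2 z.2

/-- An element which is integral over `W₁` and over `W₂` (both integrally closed in `F1`) is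
integral over `V = W₁ ∩ W₂`: the coefficients of its minimal polynomial over `F1` are in `V`. -/
theorem S34SM_isIntegral_inf (F1 : Subfield L) (W₁ W₂ V : Subring L)
    (h₁F : ∀ x ∈ W₁, x ∈ F1) (h₂F : ∀ x ∈ W₂, x ∈ F1)
    (h₁ic : ∀ x ∈ F1, IsIntegral W₁ x → x ∈ W₁) (h₂ic : ∀ x ∈ F1, IsIntegral W₂ x → x ∈ W₂)
    (hV : ∀ x ∈ W₁, x ∈ W₂ → x ∈ V) (y : L) (hy₁ : IsIntegral W₁ y) (hy₂ : IsIntegral W₂ y) :
    IsIntegral V y := by
  have hyK : IsIntegral F1 y := by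
    let ι : W₁ →+* F1 := (W₁.subtype).codRestrict F1 (fun x => h₁F _ x.2)
    letI : Algebra W₁ F1 := ι.toAlgebra
    haveI : IsScalarTower W₁ F1 L := IsScalarTower.of_algebraMap_eq (fun _ => rfl)
    exact hy₁.tower_top
  have hcoef : ∀ i, (((minpoly F1 y).coeff i : F1) : L) ∈ V := fun i =>
    hV _ (S34C2_coeff_minpoly_mem W₁ F1 h₁F h₁ic y hy₁ i)
      (S34C2_coeff_minpoly_mem W₂ F1 h₂F h₂ic y hy₂ i)
  set μ : Polynomial L := (minpoly F1 y).map (algebraMap F1 L) with hμ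
  have hμc : (↑μ.coeffs : Set L) ⊆ V := by
    intro c hc
    rw [Finset.mem_coe, Polynomial.mem_coeffs_iff] at hc
    obtain ⟨n, -, rfl⟩ := hc
    rw [hμ, Polynomial.coeff_map]
    exact hcoef n
  refine ⟨μ.toSubring V hμc, (Polynomial.monic_toSubring μ V hμc).mpr
    ((minpoly.monic hyK).map _), ?_⟩
  have h1 : Polynomial.eval₂ (algebraMap V L) y (μ.toSubring V hμc) =
      Polynomial.eval y ((μ.toSubring V hμc).map (Subring.subtype V)) := by
    rw [Polynomial.eval_map]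
    rfl
  rw [h1, Polynomial.map_toSubring, hμ, Polynomial.eval_map, ← Polynomial.aeval_def]
  exact minpoly.aeval F1 y

/-- **The abstract one-component local lift.** -/
theorem S34SM_core (D : S34SM_Data π F1 W₁ W₂ V A) [IsNoetherianRing A] (m : Ideal A)
    [hm : m.IsPrime] (hπm : ∀ hπ : π ∈ A, (⟨π, hπ⟩ : A) ∈ m) (d : A) (hdm : d ∉ m)
    (hd2 : ∃ v ∈ W₂, (d : L) = π * v) (hIG : IGAt π A m) (O : Subring L) (hOA : O ≤ A)
    {p : ℕ} (hp : p.Prime) (f h G : L) (hf0 : f ≠ 0) (hh : h ^ p = f)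
    (hdiv : PowDiv O π F1 p f) (hred : RedPow π V p f G) :
    S34C_LocLift π F1 V A h G m := by
  haveI : IsNoetherianRing (locRing A m) := isNoetherianRing_locRing A m
  have H := S34SM_locHyp D m hπm d hdm hd2
  have hIG' := S34SM_IGAt m D.π_mem hIG
  obtain ⟨hGV, hGV', c₀, hc₀, hfG⟩ := hred
  have hred1 : RedPow π W₁ p f G := ⟨D.V_le₁ hGV, D.V_le₁ hGV', c₀, D.V_le₁ hc₀, hfG⟩
  obtain ⟨u, w, g, -, hgV, hgV', hg0, hfug, c, hc, hG⟩ :=
    H.locring_core hIG' O F1 (hOA.trans (le_locRing A m)) D.val₁.le D.val₁.val p hp f G hf0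
      hdiv hred1
  -- `u` and `w⁻¹` as fractions over `A` with denominators outside `m`
  obtain ⟨a1, c1, hc1, hu⟩ := S34SM_locRing_locRing_le m (unit_mem_locRing u).1
  obtain ⟨a2, c2, hc2, hw⟩ := S34SM_locRing_locRing_le m (unit_mem_locRing w).2
  have hG0 : G ≠ 0 := by
    rintro rfl
    rw [zero_pow hp.ne_zero, zero_mul] at hfG
    exact hf0 hfG
  have hw0 : ((w : locRing (locRing A m) (IsLocalRing.maximalIdeal (locRing A m))) : L) ≠ 0 := by
    intro h0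
    apply hG0
    rw [hG, h0, mul_zero, zero_mul]
  have hAW₁ : A ≤ W₁ := D.A_le.trans D.V_le₁
  have hAW₂ : A ≤ W₂ := D.A_le.trans D.V_le₂
  have hfV : f ∈ V := by
    rw [hfG]
    exact V.mul_mem (V.pow_mem hGV p) (V.add_mem V.one_mem (V.mul_mem (D.A_le D.π_mem) hc₀))
  have hW₁F' : (W₁ : Set L) ⊆ fadj F1 h := fun y hy => le_fadj F1 h (D.val₁.le hy)
  have hAF' : (A : Set L) ⊆ fadj F1 h := fun y hy => hW₁F' (hAW₁ hy)
  have hhV' : h ∈ icl W₁ (fadj F1 h) :=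
    ⟨IsIntegral.of_pow hp.pos (by rw [hh]; exact isIntegral_of_mem W₁ (D.V_le₁ hfV)),
      mem_fadj_self F1 h⟩
  have hVV' : W₁ ≤ icl W₁ (fadj F1 h) := le_icl hW₁F'
  have hroot : ∀ y ∈ icl W₁ (fadj F1 h), y ^ p ∈ A → y ∈ icl A (fadj F1 h) := by
    intro y hy hyp
    exact ⟨IsIntegral.of_pow hp.pos (isIntegral_of_mem A hyp), hy.2⟩
  obtain ⟨y, hy, w', hw', hyw⟩ :=
    Fermat.Agent.S18_helper23_KUMIDEM.local_lift p hp.pos W₁ (icl W₁ (fadj F1 h)) A
      (icl A (fadj F1 h)) hAW₁ hVV' π f h G hh hhV' (D.V_le₁ hGV') hG0 hroot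
      g (a1 : L) (c1 : L) (c2 : L) (a2 : L) (-(c * c2 * g)) hgV' hg0 a1.2 c1.2 a2.2
      (W₁.neg_mem (W₁.mul_mem (W₁.mul_mem hc (hAW₁ c2.2)) hgV))
      (by rw [hfug, ← hu]; ring)
      (by
        have hw2 : (a2 : L) = (w : L)⁻¹ * c2 := hw.symm
        rw [hw2, hG]
        field_simp
        ring)
  -- multiply by `d`
  obtain ⟨v₂, hv₂, hdv⟩ := hd2
  have hs₂ : IsIntegral W₂ (h * G⁻¹) := by
    refine IsIntegral.of_pow hp.pos ?_
    rw [mul_pow, hh]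
    exact isIntegral_of_mem W₂ (D.V_le₂ (V.mul_mem hfV (V.pow_mem hGV' p)))
  have hw₁ : IsIntegral W₁ ((d : L) * w') := (isIntegral_of_mem W₁ (hAW₁ d.2)).mul hw'.1
  have hw₂ : IsIntegral W₂ ((d : L) * w') := by
    have h1 : (d : L) * w' = v₂ * (((c1 : L) * (c2 : L)) * (h * G⁻¹) - y) := by
      rw [hyw, hdv]; ring
    rw [h1]
    exact (isIntegral_of_mem W₂ hv₂).mul
      (((isIntegral_of_mem W₂ (W₂.mul_mem (hAW₂ c1.2) (hAW₂ c2.2))).mul hs₂).sub
        (isIntegral_mono hAW₂ hy.1))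
  refine ⟨d * (c1 * c2), fun hmem => ?_, (d : L) * y, ?_, (d : L) * w', ⟨?_, ?_⟩, ?_⟩
  · rcases hm.mem_or_mem hmem with h1 | h1
    · exact hdm h1
    · rcases hm.mem_or_mem h1 with h2 | h2
      exacts [hc1 h2, hc2 h2]
  · exact (icl A (fadj F1 h)).mul_mem (le_icl hAF' d.2) hy
  · exact S34SM_isIntegral_inf F1 W₁ W₂ V D.val₁.le D.val₂.le
      (fun x hx hi => D.val₁.ic hx hi) (fun x hx hi => D.val₂.ic hx hi) D.V_inf _ hw₁ hw₂
  · exact (fadj F1 h).mul_mem (hAF' d.2) hw'.2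
  · push_cast
    rw [mul_assoc, hyw]
    ring

end Abstract

section Concrete

variable {O : Subring L} {π j : L} {F1 : Subfield L} {V1 V2 A0 Ainf : Subring L}

/-- `O ≤ A` for every chart. -/
theorem S34SM_O_le (S : S34C_Setup2 O π j F1 V1 V2 A0 Ainf) {x : L} {A : Subring L}
    (hC : Chart O π x F1 (V1 ⊓ V2) A) : O ≤ A := by
  intro y hy
  refine (hC.mem_iff y).2 ⟨?_, S.O_le hy⟩
  exact isIntegral_of_mem (adj O x) (le_adj O x hy)

theorem S34SM_data (S : S34C_Setup2 O π j F1 V1 V2 A0 Ainf) {x : L} {A : Subring L}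
    (hC : Chart O π x F1 (V1 ⊓ V2) A) : S34SM_Data π F1 V1 V2 (V1 ⊓ V2) A where
  val₁ := S34CA_val1 S
  val₂ := S34CA_val2 S
  unif₁ := S.V1_unif
  V_le₁ := inf_le_left
  V_le₂ := inf_le_right
  V_inf := fun _ h1 h2 => ⟨h1, h2⟩
  A_le := hC.le_V
  sat := hC.sat
  loc := hC.loc
  π_mem := S34SM_O_le S hC S.π_mem

theorem S34SM_data' (S : S34C_Setup2 O π j F1 V1 V2 A0 Ainf) {x : L} {A : Subring L}
    (hC : Chart O π x F1 (V1 ⊓ V2) A) : S34SM_Data π F1 V2 V1 (V1 ⊓ V2) A where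
  val₁ := S34CA_val2 S
  val₂ := S34CA_val1 S
  unif₁ := S.V2_unif
  V_le₁ := inf_le_right
  V_le₂ := inf_le_left
  V_inf := fun _ h2 h1 => ⟨h1, h2⟩
  A_le := hC.le_V
  sat := hC.sat
  loc := hC.loc
  π_mem := S34SM_O_le S hC S.π_mem

/-- **P5-SMOOTH** (pieces row 440): the local lift at a maximal ideal `m ∋ π` of a chart lying on
the component of `V1` only (`d ∈ A ∖ m` is a unit of `V1` and divisible by `π` in `V2`). -/
theorem S34SM_locLift [CharZero L] (S : S34C_Setup2 O π j F1 V1 V2 A0 Ainf) {p : ℕ}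
    (hp : p.Prime) (hpO : (p : L)⁻¹ ∈ O) (x : L) (hx : x = j ∨ x = j⁻¹) (A : Subring L)
    (hC : Chart O π x F1 (V1 ⊓ V2) A) (hN : IsNoetherianRing A) (f h G : L) (hf0 : f ≠ 0)
    (hh : h ^ p = f) (hdiv : PowDiv O π F1 p f) (hred : RedPow π (V1 ⊓ V2) p f G)
    (hπ : π ∈ A) (m : Ideal A) (hm : m.IsMaximal) (hπm : (⟨π, hπ⟩ : A) ∈ m)
    (hIG : Fermat.Agent.S18_helper3_LOCRING.IGAt π A m) (d : A) (hdm : d ∉ m)
    (hd1 : ((d : L))⁻¹ ∈ V1) (hd2 : ∃ v ∈ V2, (d : L) = π * v) :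
    S34C_LocLift π F1 (V1 ⊓ V2) A h G m := by
  haveI := hN
  haveI : m.IsPrime := hm.isPrime
  exact S34SM_core (S34SM_data S hC) m (fun _ => hπm) d hdm hd2 hIG O (S34SM_O_le S hC) hp f h G
    hf0 hh hdiv hred

/-- **P5-SMOOTH, mirror form**: the local lift at a maximal ideal `m ∋ π` of a chart lying on
the component of `V2` only (`d ∈ A ∖ m` is a unit of `V2` and divisible by `π` in `V1`). -/
theorem S34SM_locLift' [CharZero L] (S : S34C_Setup2 O π j F1 V1 V2 A0 Ainf) {p : ℕ}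
    (hp : p.Prime) (hpO : (p : L)⁻¹ ∈ O) (x : L) (hx : x = j ∨ x = j⁻¹) (A : Subring L)
    (hC : Chart O π x F1 (V1 ⊓ V2) A) (hN : IsNoetherianRing A) (f h G : L) (hf0 : f ≠ 0)
    (hh : h ^ p = f) (hdiv : PowDiv O π F1 p f) (hred : RedPow π (V1 ⊓ V2) p f G)
    (hπ : π ∈ A) (m : Ideal A) (hm : m.IsMaximal) (hπm : (⟨π, hπ⟩ : A) ∈ m)
    (hIG : Fermat.Agent.S18_helper3_LOCRING.IGAt π A m) (d : A) (hdm : d ∉ m)
    (hd1 : ((d : L))⁻¹ ∈ V2) (hd2 : ∃ v ∈ V1, (d : L) = π * v) :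
    S34C_LocLift π F1 (V1 ⊓ V2) A h G m := by
  haveI := hN
  haveI : m.IsPrime := hm.isPrime
  exact S34SM_core (S34SM_data' S hC) m (fun _ => hπm) d hdm hd2 hIG O (S34SM_O_le S hC) hp f h G
    hf0 hh hdiv hred

end Concrete

end Fermat.Agent.S34_helper19_SMOOTH
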