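import Mathlib
import Fermat.Prelude.Def_ModularCurve_ArithmeticGalois
import Fermat.Prelude.Def_FLTPrelim_Ramification
import Fermat.Agent.S18_helper9_CDefs
import Fermat.Agent.S18_helper3_LOCRING
import Fermat.Agent.S18_helper19_PLACEMOD
import Fermat.Agent.S18_helper25_COREDefs
import Fermat.Agent.S34_helper12_CDefs
import Fermat.Agent.S34_helper5_K0
import Fermat.Agent.S34_helper6_RED
import Fermat.Agent.S37_helper5_LEVEL

/-!
# S34, X-D: the contracts consumed by the global assembly (helper25)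

The global assembly `X-D` proves helper6's divisor-level contract `S34R_Key N p q` from

* `S34XD_Geom`   : the geometric data at one admissible, Galois-stable level `K1`
  (two-valuation setup, one-branch points are regular, Step 1, crossing generators);
* abstract bricks of block C' (`S34XD_GammaRoot`, `S34XD_GammaGlue`, `S34XD_GammaCRT`,
  `S34XD_SmoothLift`, all statements about subrings of one field `L`).

Everything here is a definition of a `Prop`; no proofs.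

## Carriers at the level `K1` (`L := LaurentSeries K1`)

`O := S18K_O A K1`, `π := S18K_π A K1`, `F1 := S18K_F1 K1 N`, `V1 := S18K_V A K1 N` (Gauss);
`V2` (second valuation ring), `x` (coordinate), `A0`, `Ainf` (charts) are chosen by the geometry.
-/

set_option autoImplicit false

open HahnSeries IntermediateField AlgebraicCurve ModularCurve
open Fermat.Agent.S18_helper9_CDefs Fermat.Agent.S18_helper25_COREDefs
  Fermat.Agent.S34_helper12_CDefs Fermat.Agent.S34_helper5_K0 Fermat.Agent.S34_helper6_RED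
  Fermat.Agent.S37_helper5_LEVEL

noncomputable section

namespace Fermat.Agent.S34_helper25_Defs

local notation "Qb" => AlgebraicClosure ℚ
local notation "GQ" => (AlgebraicClosure ℚ ≃ₐ[ℚ] AlgebraicClosure ℚ)

/-! ### Abstract vocabulary (subrings of one field `L`) -/

section Abstract

variable {L : Type*} [Field L]

/-- `m` is a **crossing point** of the chart `A`: it contains both vertical primes
`A ∩ π V1` and `A ∩ π V2`. -/
def S34XD_IsCross (π : L) (V1 V2 A : Subring L) (m : Ideal A) : Prop :=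
  (∀ a : A, (∃ v ∈ V1, (a : L) = π * v) → a ∈ m) ∧
    (∀ a : A, (∃ v ∈ V2, (a : L) = π * v) → a ∈ m)

/-- `u` is a unit of the local ring of `A` at `m` (elementwise form, as in `S34C_Shape`). -/
def S34XD_UnitAt (A : Subring L) (m : Ideal A) (u : L) : Prop :=
  (∃ a c : A, c ∉ m ∧ u * (c : L) = a) ∧ (∃ a c : A, c ∉ m ∧ u⁻¹ * (c : L) = a)

/-- **The local generator at a crossing point**: `g ∈ F1`, `g ≡ 1` modulo `π V`, and `f / g ^ p`
is a unit at `m`. -/
def S34XD_CrossGen (π : L) (F1 : Subfield L) (V A : Subring L) (p : ℕ) (f : L) (m : Ideal A) :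
    Prop :=
  ∃ g ∈ F1, ∃ c ∈ V, g = 1 + π * c ∧ S34XD_UnitAt A m (f * (g ^ p)⁻¹)

/-- **(N1)** for one chart: every maximal ideal `m ∋ π` which is not a crossing point is
regular (`IGAt`: `m = (π, y)` locally). -/
def S34XD_N1 (π : L) (V1 V2 A : Subring L) : Prop :=
  ∀ (hπ : π ∈ A) (m : Ideal A), m.IsMaximal → (⟨π, hπ⟩ : A) ∈ m →
    ¬ S34XD_IsCross π V1 V2 A m → Fermat.Agent.S18_helper3_LOCRING.IGAt π A m

/-- **P5-SMOOTH** (helper19, pieces row 440), as a contract. -/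
def S34XD_SmoothLift (O : Subring L) (π : L) (F1 : Subfield L) (V1 V2 A : Subring L) : Prop :=
  ∀ (p : ℕ), p.Prime → (p : L)⁻¹ ∈ O → ∀ (f h G : L), f ≠ 0 → h ^ p = f →
    PowDiv O π F1 p f → RedPow π (V1 ⊓ V2) p f G →
    ∀ (hπ : π ∈ A) (m : Ideal A), m.IsMaximal → (⟨π, hπ⟩ : A) ∈ m →
      Fermat.Agent.S18_helper3_LOCRING.IGAt π A m →
      ∀ d : A, d ∉ m → ((d : L))⁻¹ ∈ V1 → (∃ v ∈ V2, (d : L) = π * v) →
        S34C_LocLift π F1 (V1 ⊓ V2) A h G m

/-- **X-GAMMA (c)**: a function whose `m`-th power is `≡ 1` modulo `π (V1 ⊓ V2)` has constant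
reductions on both branches (`O` contains a primitive `m`-th root of unity). -/
def S34XD_GammaRoot (O : Subring L) (π : L) (F1 : Subfield L) (V1 V2 : Subring L) : Prop :=
  ∀ (m : ℕ), 0 < m → (∃ ζ ∈ O, IsPrimitiveRoot ζ m) → ∀ h ∈ F1, ∀ e ∈ V1 ⊓ V2,
    h ^ m = 1 + π * e →
    ∃ a1 ∈ O, ∃ a2 ∈ O, a1⁻¹ ∈ O ∧ a2⁻¹ ∈ O ∧
      (∃ v ∈ V1, h = a1 + π * v) ∧ (∃ v ∈ V2, h = a2 + π * v)

/-- **X-GAMMA (b)**: at a crossing point the two constant reductions of a local unit agree. -/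
def S34XD_GammaGlue (O : Subring L) (π : L) (V1 V2 A : Subring L) : Prop :=
  ∀ (m : Ideal A), m.IsMaximal → S34XD_IsCross π V1 V2 A m →
    ∀ u : L, S34XD_UnitAt A m u → ∀ a1 ∈ O, ∀ a2 ∈ O,
      (∃ v ∈ V1, u = a1 + π * v) → (∃ v ∈ V2, u = a2 + π * v) → ∃ o ∈ O, a1 - a2 = π * o

/-- **X-GAMMA (a)**: the Chinese remainder theorem in `V1 ⊓ V2`. -/
def S34XD_GammaCRT (O : Subring L) (π : L) (V1 V2 : Subring L) : Prop :=
  ∀ a1 ∈ O, ∀ a2 ∈ O, a1⁻¹ ∈ O → a2⁻¹ ∈ O →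
    ∃ G : L, G ∈ V1 ⊓ V2 ∧ G⁻¹ ∈ V1 ⊓ V2 ∧
      (∃ v ∈ V1, G = a1 + π * v) ∧ (∃ v ∈ V2, G = a2 + π * v)

end Abstract

/-! ### The concrete contract at a level -/

section Concrete

variable (A : ValuationSubring Qb) (K1 : IntermediateField ℚ Qb) (N : ℕ) [NeZero N]

/-- the inclusion `F1(K1) → F̄` (coefficientwise). -/
abbrev S34XD_inc : modularFunctionFieldFullC K1 N →+* modularFunctionFieldBar N :=
  Fermat.Agent.S18_helper19_PLACEMOD.S18A3C_inc N (algebraMap K1 Qb)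

/-- the mixed second difference of a function at the level `K1`:
`u2 f = s's(f) · f / (s'(f) · s(f))`, `s', s` acting coefficientwise. -/
def S34XD_u2 (s' s : K1 →+* K1) (f : LaurentSeries K1) : LaurentSeries K1 :=
  coeffMap s' (coeffMap s f) * f * (coeffMap s' f * coeffMap s f)⁻¹

variable [IsDiscreteValuationRing (S18K_O1 A K1)]

/-- **THE GEOMETRIC CONTRACT AT THE LEVEL `K1`** for the carriers `V2, x, A0, Ainf`.

* `setup`  : (V) = P1c;
* `ne`     : the two valuation rings are different;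
* `n1_0`, `n1_inf` : (N1) = P1d (+ cusps);
* `step1`  : Step 1 for both valuations (helper6 STEP1 + transport by `w_q`);
* `cross_0`, `cross_inf` : X-CROSS (helper4): the local generator at the crossing points for a
  `V`-unit `h2` whose divisor over `ℚ̄` is `p • (τ' - 1)(τ - 1) D`, `D` with `K1`-rational
  support. -/
structure S34XD_Geom (hstab : ∀ σ : GQ, ∀ y ∈ K1, σ y ∈ K1) (p : ℕ)
    (V2 : Subring (LaurentSeries K1)) (x : LaurentSeries K1)
    (A0 Ainf : Subring (LaurentSeries K1)) : Prop where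
  setup : S34C_Setup2 (S18K_O A K1) (S18K_π A K1) x (S18K_F1 K1 N) (S18K_V A K1 N) V2 A0 Ainf
  ne : ∃ y ∈ V2, y ∉ S18K_V A K1 N
  n1_0 : S34XD_N1 (S18K_π A K1) (S18K_V A K1 N) V2 A0
  n1_inf : S34XD_N1 (S18K_π A K1) (S18K_V A K1 N) V2 Ainf
  step1 : ∀ τ' τ : GQ, τ' ∈ A.inertiaSubgroupIn ℚ → τ ∈ A.inertiaSubgroupIn ℚ →
    ∀ f ∈ S18K_F1 K1 N, f ≠ 0 →
      ∃ c ∈ S18K_V A K1 N ⊓ V2,
        S34XD_u2 K1 (S34K0_restrict K1 hstab τ' : K1 →+* K1)
          (S34K0_restrict K1 hstab τ : K1 →+* K1) f = 1 + S18K_π A K1 * c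
  cross_0 : ∀ τ' τ : GQ, τ' ∈ A.inertiaSubgroupIn ℚ → τ ∈ A.inertiaSubgroupIn ℚ →
    ∀ (D : Divisor Qb (modularFunctionFieldBar N)),
      (∀ P : Place Qb (modularFunctionFieldBar N), D P ≠ 0 → S37LEVEL_IsRational N K1 P) →
    ∀ (h2 : modularFunctionFieldFullC K1 N),
      (h2 : LaurentSeries K1) ∈ S18K_V A K1 N ⊓ V2 →
      ((h2 : LaurentSeries K1))⁻¹ ∈ S18K_V A K1 N ⊓ V2 →
      (∀ P : Place Qb (modularFunctionFieldBar N),
        P.ord (S34XD_inc K1 N h2) = (p : ℤ) * S34R_diff2 N τ' τ D P) →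
    ∀ (hπ : S18K_π A K1 ∈ A0) (m : Ideal A0), m.IsMaximal → (⟨S18K_π A K1, hπ⟩ : A0) ∈ m →
      S34XD_IsCross (S18K_π A K1) (S18K_V A K1 N) V2 A0 m →
      S34XD_CrossGen (S18K_π A K1) (S18K_F1 K1 N) (S18K_V A K1 N ⊓ V2) A0 p
        (h2 : LaurentSeries K1) m
  cross_inf : ∀ τ' τ : GQ, τ' ∈ A.inertiaSubgroupIn ℚ → τ ∈ A.inertiaSubgroupIn ℚ →
    ∀ (D : Divisor Qb (modularFunctionFieldBar N)),
      (∀ P : Place Qb (modularFunctionFieldBar N), D P ≠ 0 → S37LEVEL_IsRational N K1 P) →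
    ∀ (h2 : modularFunctionFieldFullC K1 N),
      (h2 : LaurentSeries K1) ∈ S18K_V A K1 N ⊓ V2 →
      ((h2 : LaurentSeries K1))⁻¹ ∈ S18K_V A K1 N ⊓ V2 →
      (∀ P : Place Qb (modularFunctionFieldBar N),
        P.ord (S34XD_inc K1 N h2) = (p : ℤ) * S34R_diff2 N τ' τ D P) →
    ∀ (hπ : S18K_π A K1 ∈ Ainf) (m : Ideal Ainf), m.IsMaximal →
      (⟨S18K_π A K1, hπ⟩ : Ainf) ∈ m →
      S34XD_IsCross (S18K_π A K1) (S18K_V A K1 N) V2 Ainf m →
      S34XD_CrossGen (S18K_π A K1) (S18K_F1 K1 N) (S18K_V A K1 N ⊓ V2) Ainf p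
        (h2 : LaurentSeries K1) m

end Concrete

/-- **THE CONTRACT OF THE GEOMETRY WITH X-D**: at every admissible Galois-stable level there are
carriers `V2, x, A0, Ainf` satisfying `S34XD_Geom`, and the abstract bricks of block C' hold for
them. -/
def S34XD_Contract (N : ℕ) [NeZero N] (p q : ℕ) : Prop :=
  ∀ (A : ValuationSubring Qb), A.LiesOverPrime q →
  ∀ (K1 : IntermediateField ℚ Qb) (hadm : S18K_Admissible A K1 q)
    (hstab : ∀ σ : GQ, ∀ y ∈ K1, σ y ∈ K1),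
    letI := hadm.dvr
    ∃ (V2 : Subring (LaurentSeries K1)) (x : LaurentSeries K1)
      (A0 Ainf : Subring (LaurentSeries K1)),
      S34XD_Geom A K1 N hstab p V2 x A0 Ainf ∧
      S34XD_SmoothLift (S18K_O A K1) (S18K_π A K1) (S18K_F1 K1 N) (S18K_V A K1 N) V2 A0 ∧
      S34XD_SmoothLift (S18K_O A K1) (S18K_π A K1) (S18K_F1 K1 N) (S18K_V A K1 N) V2 Ainf ∧
      S34XD_SmoothLift (S18K_O A K1) (S18K_π A K1) (S18K_F1 K1 N) V2 (S18K_V A K1 N) A0 ∧
      S34XD_SmoothLift (S18K_O A K1) (S18K_π A K1) (S18K_F1 K1 N) V2 (S18K_V A K1 N) Ainf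

end Fermat.Agent.S34_helper25_Defs
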