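import Mathlib
import Fermat.Agent.S34_helper12_CDefs

set_option autoImplicit false

/-! # S34 piece X-GAMMA: the constants (helper9)

Setting: `S34C_Setup2 O π j F1 V1 V2 A0 Ainf` (helper12), two valuation rings `V1`, `V2` of `F1`
with uniformiser `π`.

* `S34G_crt`   : (a) CRT in `V1 ⊓ V2`: if `V1 ≠ V2` then for units `a1 ∈ V1`, `a2 ∈ V2` lying in
  `V1 ⊓ V2` there is a unit `G` of `V1 ⊓ V2` with `G ≡ a1 mod π V1` and `G ≡ a2 mod π V2`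
  (`S34G_crt_const` : for constants `a1, a2 ∈ Oˣ`; `S34G_idem` : the "idempotent" `e`).
* `S34G_glue`  : (b) at a crossing point `m` (a maximal ideal of a chart containing both vertical
  primes) an element `u` of the local ring at `m` with `u ≡ a1 mod π V1`, `u ≡ a2 mod π V2`,
  `a1, a2 ∈ O` has `a1 ≡ a2 mod π O`.
* `S34G_const` : (c) a unit `f` of a valuation ring `V` with `f ^ n = a₀ ^ n (1 + π e)`, where `O`
  contains `a₀` and a primitive `n`-th root of unity, is congruent modulo `π V` to a constant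
  `a ∈ Oˣ` (`a = a₀ ζ ^ i`).
* `S34G_one_of_glue` : (b) + rescaling: `f ≡ a1`, `f ≡ a2` and a crossing point where `f / g ^ p`
  is regular for some `g ≡ 1` give `f / a1 = 1 + π c` with `c ∈ V1 ⊓ V2`.
-/

namespace Fermat.Agent.S34_helper9_GAMMA

open Fermat.Agent.S18_helper9_CDefs Fermat.Agent.S34_helper12_CDefs

variable {L : Type*} [Field L]

/-- A valuation ring `W` of `F1` (elementwise) with uniformiser `π`. -/
structure S34G_Val (π : L) (F1 : Subfield L) (W : Subring L) : Prop where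
  le : (W : Set L) ⊆ F1
  val : ∀ x ∈ F1, x ∈ W ∨ x⁻¹ ∈ W
  unif : ∀ x ∈ W, x⁻¹ ∉ W → ∃ v ∈ W, x = π * v
  π_mem : π ∈ W
  π_nonunit : π⁻¹ ∉ W

section Val

variable {π : L} {F1 : Subfield L} {W W1 W2 : Subring L}

theorem S34G_Val.π_ne_zero (H : S34G_Val π F1 W) : π ≠ 0 := by
  intro h
  apply H.π_nonunit
  rw [h, inv_zero]
  exact W.zero_mem

theorem S34G_Val.one_add_ne_zero (H : S34G_Val π F1 W) {c : L} (hc : c ∈ W) :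
    1 + π * c ≠ 0 := by
  intro h0
  apply H.π_nonunit
  have hπ0 := H.π_ne_zero
  have : π⁻¹ = -c := by
    field_simp
    linear_combination h0
  rw [this]
  exact W.neg_mem hc

theorem S34G_Val.one_add (H : S34G_Val π F1 W) {c : L} (hc : c ∈ W) : (1 + π * c)⁻¹ ∈ W := by
  by_contra h
  have hmem : 1 + π * c ∈ W := W.add_mem W.one_mem (W.mul_mem H.π_mem hc)
  obtain ⟨v, hv, hv'⟩ := H.unif _ hmem h
  apply H.π_nonunit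
  have hπ0 := H.π_ne_zero
  have : π⁻¹ = v - c := by
    field_simp
    linear_combination hv'
  rw [this]
  exact W.sub_mem hv hc

/-- `a` a unit of `W` and `G ≡ a mod π W` ⟹ `G` is a unit of `W`. -/
theorem S34G_Val.unit_of_congr (H : S34G_Val π F1 W) {a G w : L} (ha : a ∈ W) (ha' : a⁻¹ ∈ W)
    (ha0 : a ≠ 0) (hw : w ∈ W) (hG : G - a = π * w) : G ∈ W ∧ G⁻¹ ∈ W ∧ G ≠ 0 := by
  have hGa : G = a * (1 + π * (w * a⁻¹)) := by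
    field_simp
    linear_combination hG
  have hc : w * a⁻¹ ∈ W := W.mul_mem hw ha'
  refine ⟨?_, ?_, ?_⟩
  · rw [hGa]
    exact W.mul_mem ha (W.add_mem W.one_mem (W.mul_mem H.π_mem hc))
  · rw [hGa, mul_inv]
    exact W.mul_mem ha' (H.one_add hc)
  · rw [hGa]
    exact mul_ne_zero ha0 (H.one_add_ne_zero hc)

/-- the maximal ideal `π W` is prime. -/
theorem S34G_Val.mul_mem_pi (H : S34G_Val π F1 W) {x y : L} (hx : x ∈ W)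
    (hxy : ∃ v ∈ W, x * y = π * v) : (∃ v ∈ W, x = π * v) ∨ (∃ v ∈ W, y = π * v) := by
  by_cases hxu : x⁻¹ ∈ W
  · by_cases hx0 : x = 0
    · left
      exact ⟨0, W.zero_mem, by rw [hx0, mul_zero]⟩
    · right
      obtain ⟨v, hv, hv'⟩ := hxy
      refine ⟨x⁻¹ * v, W.mul_mem hxu hv, ?_⟩
      field_simp
      linear_combination hv'
  · left
    exact H.unif x hx hxu

/-- a finite product in `π W` has a factor in `π W`. -/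
theorem S34G_Val.prod_mem_pi (H : S34G_Val π F1 W) {ι : Type*} (s : Finset ι) (g : ι → L)
    (hg : ∀ i ∈ s, g i ∈ W) (h : ∃ v ∈ W, ∏ i ∈ s, g i = π * v) :
    ∃ i ∈ s, ∃ v ∈ W, g i = π * v := by
  classical
  induction s using Finset.induction_on with
  | empty =>
    exfalso
    obtain ⟨v, hv, hv'⟩ := h
    rw [Finset.prod_empty] at hv'
    apply H.π_nonunit
    have hπ0 := H.π_ne_zero
    have : π⁻¹ = v := by
      field_simp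
      linear_combination hv'
    rw [this]
    exact hv
  | insert a s ha ih =>
    rw [Finset.prod_insert ha] at h
    rcases H.mul_mem_pi (hg a (Finset.mem_insert_self a s)) h with h1 | h1
    · exact ⟨a, Finset.mem_insert_self a s, h1⟩
    · obtain ⟨i, hi, hi'⟩ := ih (fun i hi => hg i (Finset.mem_insert_of_mem hi)) h1
      exact ⟨i, Finset.mem_insert_of_mem hi, hi'⟩

/-- from `x ∈ W1 ∖ W2`: an element `t` which is a unit of `W1` and lies in `π W2`. -/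
theorem S34G_sep (H1 : S34G_Val π F1 W1) (H2 : S34G_Val π F1 W2) {x : L} (hx1 : x ∈ W1)
    (hx2 : x ∉ W2) : ∃ t : L, t ≠ 0 ∧ t ∈ W1 ∧ t⁻¹ ∈ W1 ∧ ∃ v ∈ W2, t = π * v := by
  have hx0 : x ≠ 0 := fun h => hx2 (h ▸ W2.zero_mem)
  have hxF : x ∈ F1 := H1.le hx1
  by_cases hxu : x⁻¹ ∈ W1
  · refine ⟨x⁻¹, inv_ne_zero hx0, hxu, by rwa [inv_inv], ?_⟩
    have h2 : x⁻¹ ∈ W2 := (H2.val x hxF).resolve_left hx2
    exact H2.unif _ h2 (by rwa [inv_inv])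
  · obtain ⟨v, hv, hxv⟩ := H1.unif x hx1 hxu
    have h1x2 : 1 + x ∉ W2 := fun h => hx2 (by
      have : x = (1 + x) - 1 := by ring
      rw [this]
      exact W2.sub_mem h W2.one_mem)
    have h1x0 : 1 + x ≠ 0 := fun h => h1x2 (h ▸ W2.zero_mem)
    have h1xF : 1 + x ∈ F1 := F1.add_mem F1.one_mem hxF
    refine ⟨(1 + x)⁻¹, inv_ne_zero h1x0, ?_, ?_, ?_⟩
    · rw [hxv]
      exact H1.one_add hv
    · rw [inv_inv]
      exact W1.add_mem W1.one_mem hx1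
    · have h2 : (1 + x)⁻¹ ∈ W2 := (H2.val _ h1xF).resolve_left h1x2
      exact H2.unif _ h2 (by rwa [inv_inv])

/-- `W1 ⊄ W2` implies `W2 ⊄ W1` (both have the non-unit `π`). -/
theorem S34G_swap (H1 : S34G_Val π F1 W1) (H2 : S34G_Val π F1 W2) {x : L} (hx1 : x ∈ W1)
    (hx2 : x ∉ W2) : ∃ y ∈ W2, y ∉ W1 := by
  have hx0 : x ≠ 0 := fun h => hx2 (h ▸ W2.zero_mem)
  have hxF : x ∈ F1 := H1.le hx1
  have h2 : x⁻¹ ∈ W2 := (H2.val x hxF).resolve_left hx2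
  obtain ⟨v, hv, hxv⟩ := H2.unif _ h2 (by rwa [inv_inv])
  refine ⟨v, hv, fun hv1 => H1.π_nonunit ?_⟩
  have hπ0 := H1.π_ne_zero
  have : π⁻¹ = x * v := by
    have h3 : x * (π * v) = 1 := by rw [← hxv]; exact mul_inv_cancel₀ hx0
    exact inv_eq_of_mul_eq_one_right (by linear_combination h3)
  rw [this]
  exact W1.mul_mem hx1 hv1

/-- **the "idempotent"**: `e ∈ W1 ⊓ W2` with `e ≡ 1 mod π W1` and `e ≡ 0 mod π W2`. -/
theorem S34G_idem_val (H1 : S34G_Val π F1 W1) (H2 : S34G_Val π F1 W2)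
    (hne : ∃ x ∈ W1, x ∉ W2) :
    ∃ e : L, e ∈ W1 ∧ e ∈ W2 ∧ (∃ v ∈ W1, e - 1 = π * v) ∧ ∃ v ∈ W2, e = π * v := by
  obtain ⟨x, hx1, hx2⟩ := hne
  obtain ⟨y, hy2, hy1⟩ := S34G_swap H1 H2 hx1 hx2
  obtain ⟨t, ht0, ht1, ht1', vt, hvt, htv⟩ := S34G_sep H1 H2 hx1 hx2
  obtain ⟨s, hs0, hs2, hs2', vs, hvs, hsv⟩ := S34G_sep H2 H1 hy2 hy1
  have ht2 : t ∈ W2 := htv ▸ W2.mul_mem H2.π_mem hvt
  have hs1 : s ∈ W1 := hsv ▸ W1.mul_mem H1.π_mem hvs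
  -- `t + s` is a unit of both
  have hc1 : vs * t⁻¹ ∈ W1 := W1.mul_mem hvs ht1'
  have hc2 : vt * s⁻¹ ∈ W2 := W2.mul_mem hvt hs2'
  have hts1 : t + s = t * (1 + π * (vs * t⁻¹)) := by
    field_simp
    rw [hsv]
  have hts2 : t + s = s * (1 + π * (vt * s⁻¹)) := by
    field_simp
    rw [htv]
    ring
  have hts0 : t + s ≠ 0 := by
    rw [hts1]
    exact mul_ne_zero ht0 (H1.one_add_ne_zero hc1)
  have hinv1 : (t + s)⁻¹ ∈ W1 := by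
    rw [hts1, mul_inv]
    exact W1.mul_mem ht1' (H1.one_add hc1)
  have hinv2 : (t + s)⁻¹ ∈ W2 := by
    rw [hts2, mul_inv]
    exact W2.mul_mem hs2' (H2.one_add hc2)
  refine ⟨t * (t + s)⁻¹, W1.mul_mem ht1 hinv1, W2.mul_mem ht2 hinv2,
    ⟨-(vs * (t + s)⁻¹), W1.neg_mem (W1.mul_mem hvs hinv1), ?_⟩,
    ⟨vt * (t + s)⁻¹, W2.mul_mem hvt hinv2, ?_⟩⟩
  · field_simp
    rw [hsv]
    ring
  · rw [htv]
    ring

/-- **(a) CRT in `W1 ⊓ W2`.** -/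
theorem S34G_crt_val (H1 : S34G_Val π F1 W1) (H2 : S34G_Val π F1 W2)
    (hne : ∃ x ∈ W1, x ∉ W2) (a1 a2 : L) (ha1 : a1 ∈ W1 ⊓ W2) (ha2 : a2 ∈ W1 ⊓ W2)
    (ha1' : a1⁻¹ ∈ W1) (ha2' : a2⁻¹ ∈ W2) (ha10 : a1 ≠ 0) (ha20 : a2 ≠ 0) :
    ∃ G : L, G ≠ 0 ∧ G ∈ W1 ⊓ W2 ∧ G⁻¹ ∈ W1 ⊓ W2 ∧ (∃ v ∈ W1, G - a1 = π * v) ∧
      ∃ v ∈ W2, G - a2 = π * v := by
  obtain ⟨e, he1, he2, ⟨v1, hv1, hev1⟩, v2, hv2, hev2⟩ := S34G_idem_val H1 H2 hne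
  obtain ⟨ha11, ha12⟩ := Subring.mem_inf.mp ha1
  obtain ⟨ha21, ha22⟩ := Subring.mem_inf.mp ha2
  have hG1 : (a2 + (a1 - a2) * e) - a1 = π * ((a1 - a2) * v1) := by
    linear_combination (a1 - a2) * hev1
  have hG2 : (a2 + (a1 - a2) * e) - a2 = π * ((a1 - a2) * v2) := by
    linear_combination (a1 - a2) * hev2
  have hw1 : (a1 - a2) * v1 ∈ W1 := W1.mul_mem (W1.sub_mem ha11 ha21) hv1
  have hw2 : (a1 - a2) * v2 ∈ W2 := W2.mul_mem (W2.sub_mem ha12 ha22) hv2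
  obtain ⟨hGW1, hGinv1, hG0⟩ := H1.unit_of_congr ha11 ha1' ha10 hw1 hG1
  obtain ⟨hGW2, hGinv2, -⟩ := H2.unit_of_congr ha22 ha2' ha20 hw2 hG2
  exact ⟨a2 + (a1 - a2) * e, hG0, Subring.mem_inf.mpr ⟨hGW1, hGW2⟩,
    Subring.mem_inf.mpr ⟨hGinv1, hGinv2⟩, ⟨_, hw1, hG1⟩, _, hw2, hG2⟩

/-- **(c) constant reductions.**  `f ∈ W` with `f ^ n = a₀ ^ n (1 + π e)`, `a₀` a unit of `W`
and `ζ ∈ W` a primitive `n`-th root of unity: `f ≡ a₀ ζ ^ i mod π W` for some `i < n`. -/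
theorem S34G_const_val (H : S34G_Val π F1 W) {n : ℕ} (hn : 0 < n) {ζ : L} (hζ : IsPrimitiveRoot ζ n)
    (hζW : ζ ∈ W) {a₀ f e : L} (ha₀ : a₀ ∈ W) (hf : f ∈ W) (he : e ∈ W)
    (hfe : f ^ n = a₀ ^ n * (1 + π * e)) :
    ∃ i < n, ∃ v ∈ W, f - a₀ * ζ ^ i = π * v := by
  classical
  have : NeZero n := ⟨hn.ne'⟩
  have hprod := hζ.pow_sub_pow_eq_prod_sub_mul f a₀ hn
  have hroot : ∀ η ∈ Polynomial.nthRootsFinset n (1 : L), ∃ i < n, ζ ^ i = η := by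
    intro η hη
    exact hζ.eq_pow_of_pow_eq_one ((Polynomial.mem_nthRootsFinset hn 1).mp hη)
  have hηW : ∀ η ∈ Polynomial.nthRootsFinset n (1 : L), η ∈ W := by
    intro η hη
    obtain ⟨i, -, rfl⟩ := hroot η hη
    exact W.pow_mem hζW i
  have hmem : ∃ v ∈ W, ∏ η ∈ Polynomial.nthRootsFinset n (1 : L), (f - η * a₀) = π * v := by
    refine ⟨a₀ ^ n * e, W.mul_mem (W.pow_mem ha₀ n) he, ?_⟩
    rw [← hprod, hfe]
    ring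
  obtain ⟨η, hη, v, hv, hηv⟩ := H.prod_mem_pi _ _
    (fun η hη => W.sub_mem hf (W.mul_mem (hηW η hη) ha₀)) hmem
  obtain ⟨i, hi, rfl⟩ := hroot η hη
  exact ⟨i, hi, v, hv, by rw [← hηv]; ring⟩

end Val


/-! ## the same for `S34C_Setup2` -/

section Setup2

variable {O : Subring L} {π j x : L} {F1 : Subfield L} {V1 V2 A0 Ainf A : Subring L}

theorem S34G_O_le (S : S34C_Setup2 O π j F1 V1 V2 A0 Ainf) (hC : Chart O π x F1 (V1 ⊓ V2) A) :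
    O ≤ A := fun y hy =>
  (hC.mem_iff y).2
    ⟨isIntegral_algebraMap (x := (⟨y, Subring.subset_closure (Or.inl hy)⟩ : adj O x)), S.O_le hy⟩

theorem S34G_O_le_V (S : S34C_Setup2 O π j F1 V1 V2 A0 Ainf) : O ≤ V1 ⊓ V2 :=
  (S34G_O_le S S.chart0).trans S.chart0.le_V

theorem S34G_val1 (S : S34C_Setup2 O π j F1 V1 V2 A0 Ainf) : S34G_Val π F1 V1 where
  le := S.V1_le
  val := S.V1_val
  unif := S.V1_unif
  π_mem := (Subring.mem_inf.mp (S34G_O_le_V S S.π_mem)).1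
  π_nonunit := S.V1_nonunit

theorem S34G_val2 (S : S34C_Setup2 O π j F1 V1 V2 A0 Ainf) : S34G_Val π F1 V2 where
  le := S.V2_le
  val := S.V2_val
  unif := S.V2_unif
  π_mem := (Subring.mem_inf.mp (S34G_O_le_V S S.π_mem)).2
  π_nonunit := S.V2_nonunit

/-- the "idempotent" of `V1 ⊓ V2`. -/
theorem S34G_idem (S : S34C_Setup2 O π j F1 V1 V2 A0 Ainf) (hne : ∃ x ∈ V1, x ∉ V2) :
    ∃ e : L, e ∈ V1 ⊓ V2 ∧ (∃ v ∈ V1, e - 1 = π * v) ∧ ∃ v ∈ V2, e = π * v := by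
  obtain ⟨e, h1, h2, h3, h4⟩ := S34G_idem_val (S34G_val1 S) (S34G_val2 S) hne
  exact ⟨e, Subring.mem_inf.mpr ⟨h1, h2⟩, h3, h4⟩

/-- **(a) CRT in `V1 ⊓ V2`**, general form. -/
theorem S34G_crt (S : S34C_Setup2 O π j F1 V1 V2 A0 Ainf) (hne : ∃ x ∈ V1, x ∉ V2)
    (a1 a2 : L) (ha1 : a1 ∈ V1 ⊓ V2) (ha2 : a2 ∈ V1 ⊓ V2) (ha1' : a1⁻¹ ∈ V1) (ha2' : a2⁻¹ ∈ V2)
    (ha10 : a1 ≠ 0) (ha20 : a2 ≠ 0) :
    ∃ G : L, G ≠ 0 ∧ G ∈ V1 ⊓ V2 ∧ G⁻¹ ∈ V1 ⊓ V2 ∧ (∃ v ∈ V1, G - a1 = π * v) ∧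
      ∃ v ∈ V2, G - a2 = π * v :=
  S34G_crt_val (S34G_val1 S) (S34G_val2 S) hne a1 a2 ha1 ha2 ha1' ha2' ha10 ha20

/-- **(a) CRT in `V1 ⊓ V2`** for constants `a1, a2 ∈ Oˣ`. -/
theorem S34G_crt_const (S : S34C_Setup2 O π j F1 V1 V2 A0 Ainf) (hne : ∃ x ∈ V1, x ∉ V2)
    (a1 a2 : L) (ha1 : a1 ∈ O) (ha1' : a1⁻¹ ∈ O) (ha10 : a1 ≠ 0) (ha2 : a2 ∈ O) (ha2' : a2⁻¹ ∈ O)
    (ha20 : a2 ≠ 0) :
    ∃ G : L, G ≠ 0 ∧ G ∈ V1 ⊓ V2 ∧ G⁻¹ ∈ V1 ⊓ V2 ∧ (∃ v ∈ V1, G - a1 = π * v) ∧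
      ∃ v ∈ V2, G - a2 = π * v :=
  S34G_crt S hne a1 a2 (S34G_O_le_V S ha1) (S34G_O_le_V S ha2)
    (Subring.mem_inf.mp (S34G_O_le_V S ha1')).1 (Subring.mem_inf.mp (S34G_O_le_V S ha2')).2
    ha10 ha20

/-- an element of `O` lying in a proper ideal of a chart is divisible by `π` in `O`. -/
theorem S34G_const_mem (S : S34C_Setup2 O π j F1 V1 V2 A0 Ainf)
    (hC : Chart O π x F1 (V1 ⊓ V2) A) (m : Ideal A) (hm : m ≠ ⊤) {d : L} (hd : d ∈ O)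
    (hdm : (⟨d, S34G_O_le S hC hd⟩ : A) ∈ m) : ∃ b ∈ O, d = π * b := by
  have := S.dvr
  have hirr := S.π_irr S.π_mem
  by_cases hu : IsUnit (⟨d, hd⟩ : O)
  · exfalso
    obtain ⟨u, hu⟩ := hu
    apply hm
    rw [Ideal.eq_top_iff_one]
    have h1 : (1 : A) = ⟨((u⁻¹ : Oˣ) : O).1, S34G_O_le S hC ((u⁻¹ : Oˣ) : O).2⟩ *
        ⟨d, S34G_O_le S hC hd⟩ := by
      apply Subtype.ext
      have h2 := congrArg (fun z : O => (z : L)) (Units.inv_mul u)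
      rw [hu] at h2
      simpa using h2.symm
    rw [h1]
    exact m.mul_mem_left _ hdm
  · have hmem : (⟨d, hd⟩ : O) ∈ IsLocalRing.maximalIdeal O :=
      (IsLocalRing.mem_maximalIdeal _).mpr hu
    rw [hirr.maximalIdeal_eq, Ideal.mem_span_singleton'] at hmem
    obtain ⟨b, hb⟩ := hmem
    refine ⟨b.1, b.2, ?_⟩
    have := congrArg (fun z : O => (z : L)) hb
    simp only [Subring.coe_mul] at this
    rw [← this]
    ring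

/-- **(b) GLUE at a crossing point.** -/
theorem S34G_glue (S : S34C_Setup2 O π j F1 V1 V2 A0 Ainf) (hC : Chart O π x F1 (V1 ⊓ V2) A)
    (m : Ideal A) (hm : m.IsMaximal)
    (hcross1 : ∀ a : A, (∃ v ∈ V1, (a : L) = π * v) → a ∈ m)
    (hcross2 : ∀ a : A, (∃ v ∈ V2, (a : L) = π * v) → a ∈ m)
    (u : L) (hu : ∃ a c : A, c ∉ m ∧ u * (c : L) = a) (a1 a2 : L) (ha1 : a1 ∈ O) (ha2 : a2 ∈ O)
    (h1 : ∃ v ∈ V1, u - a1 = π * v) (h2 : ∃ v ∈ V2, u - a2 = π * v) :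
    ∃ b ∈ O, a1 - a2 = π * b := by
  obtain ⟨a, c, hc, hu⟩ := hu
  obtain ⟨v1, hv1, hv1'⟩ := h1
  obtain ⟨v2, hv2, hv2'⟩ := h2
  have hOA := S34G_O_le S hC
  have hcV := Subring.mem_inf.mp (hC.le_V c.2)
  have hm1 : a - ⟨a1, hOA ha1⟩ * c ∈ m := by
    apply hcross1
    refine ⟨c * v1, V1.mul_mem hcV.1 hv1, ?_⟩
    push_cast
    rw [← hu]
    linear_combination (c : L) * hv1'
  have hm2 : a - ⟨a2, hOA ha2⟩ * c ∈ m := by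
    apply hcross2
    refine ⟨c * v2, V2.mul_mem hcV.2 hv2, ?_⟩
    push_cast
    rw [← hu]
    linear_combination (c : L) * hv2'
  have hm3 : (⟨a1 - a2, hOA (O.sub_mem ha1 ha2)⟩ : A) * c ∈ m := by
    have : (⟨a1 - a2, hOA (O.sub_mem ha1 ha2)⟩ : A) * c =
        (a - ⟨a2, hOA ha2⟩ * c) - (a - ⟨a1, hOA ha1⟩ * c) := by
      apply Subtype.ext
      push_cast
      ring
    rw [this]
    exact m.sub_mem hm2 hm1
  have hm4 : (⟨a1 - a2, hOA (O.sub_mem ha1 ha2)⟩ : A) ∈ m :=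
    (hm.isPrime.mem_or_mem hm3).resolve_right hc
  exact S34G_const_mem S hC m hm.ne_top (O.sub_mem ha1 ha2) hm4

/-- **(c) constant reductions**, for `V1`. -/
theorem S34G_const1 (S : S34C_Setup2 O π j F1 V1 V2 A0 Ainf) {n : ℕ} (hn : 0 < n) {ζ : L}
    (hζ : IsPrimitiveRoot ζ n) (hζO : ζ ∈ O) {a₀ f e : L} (ha₀ : a₀ ∈ O) (ha₀' : a₀⁻¹ ∈ O)
    (ha₀0 : a₀ ≠ 0) (hf : f ∈ V1) (he : e ∈ V1) (hfe : f ^ n = a₀ ^ n * (1 + π * e)) :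
    ∃ a ∈ O, a⁻¹ ∈ O ∧ a ≠ 0 ∧ ∃ v ∈ V1, f - a = π * v := by
  have hOV := S34G_O_le_V S
  obtain ⟨i, -, v, hv, hiv⟩ := S34G_const_val (S34G_val1 S) hn hζ
    (Subring.mem_inf.mp (hOV hζO)).1 (Subring.mem_inf.mp (hOV ha₀)).1 hf he hfe
  have hζ0 : ζ ≠ 0 := hζ.ne_zero hn.ne'
  have hζinv : ζ⁻¹ ∈ O := by
    have h1 : ζ⁻¹ = ζ ^ (n - 1) := by
      have h2 : ζ ^ (n - 1) * ζ = 1 := by
        rw [← pow_succ, Nat.sub_add_cancel hn, hζ.pow_eq_one]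
      exact inv_eq_of_mul_eq_one_left h2
    rw [h1]
    exact O.pow_mem hζO _
  refine ⟨a₀ * ζ ^ i, O.mul_mem ha₀ (O.pow_mem hζO i), ?_, mul_ne_zero ha₀0 (pow_ne_zero i hζ0),
    v, hv, hiv⟩
  rw [mul_inv, ← inv_pow]
  exact O.mul_mem ha₀' (O.pow_mem hζinv i)

/-- **(c) constant reductions**, for `V2`. -/
theorem S34G_const2 (S : S34C_Setup2 O π j F1 V1 V2 A0 Ainf) {n : ℕ} (hn : 0 < n) {ζ : L}
    (hζ : IsPrimitiveRoot ζ n) (hζO : ζ ∈ O) {a₀ f e : L} (ha₀ : a₀ ∈ O) (ha₀' : a₀⁻¹ ∈ O)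
    (ha₀0 : a₀ ≠ 0) (hf : f ∈ V2) (he : e ∈ V2) (hfe : f ^ n = a₀ ^ n * (1 + π * e)) :
    ∃ a ∈ O, a⁻¹ ∈ O ∧ a ≠ 0 ∧ ∃ v ∈ V2, f - a = π * v := by
  have hOV := S34G_O_le_V S
  obtain ⟨i, -, v, hv, hiv⟩ := S34G_const_val (S34G_val2 S) hn hζ
    (Subring.mem_inf.mp (hOV hζO)).2 (Subring.mem_inf.mp (hOV ha₀)).2 hf he hfe
  have hζ0 : ζ ≠ 0 := hζ.ne_zero hn.ne'
  have hζinv : ζ⁻¹ ∈ O := by
    have h1 : ζ⁻¹ = ζ ^ (n - 1) := by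
      have h2 : ζ ^ (n - 1) * ζ = 1 := by
        rw [← pow_succ, Nat.sub_add_cancel hn, hζ.pow_eq_one]
      exact inv_eq_of_mul_eq_one_left h2
    rw [h1]
    exact O.pow_mem hζO _
  refine ⟨a₀ * ζ ^ i, O.mul_mem ha₀ (O.pow_mem hζO i), ?_, mul_ne_zero ha₀0 (pow_ne_zero i hζ0),
    v, hv, hiv⟩
  rw [mul_inv, ← inv_pow]
  exact O.mul_mem ha₀' (O.pow_mem hζinv i)

/-- powers of `1 + π c`. -/
theorem S34G_one_add_pow (W : Subring L) (π : L) (hπ : π ∈ W) {c : L} (hc : c ∈ W) (n : ℕ) :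
    ∃ c' ∈ W, (1 + π * c) ^ n = 1 + π * c' := by
  induction n with
  | zero => exact ⟨0, W.zero_mem, by simp⟩
  | succ n ih =>
    obtain ⟨c', hc', h⟩ := ih
    refine ⟨c' + c + π * c' * c,
      W.add_mem (W.add_mem hc' hc) (W.mul_mem (W.mul_mem hπ hc') hc), ?_⟩
    rw [pow_succ, h]
    ring

/-- `G ≡ b mod π W` ⟹ `G ^ n ≡ b ^ n mod π W`. -/
theorem S34G_pow_congr (W : Subring L) (π : L) (hπ : π ∈ W) {G b v : L} (hb : b ∈ W)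
    (hv : v ∈ W) (h : G - b = π * v) (n : ℕ) : ∃ v' ∈ W, G ^ n - b ^ n = π * v' := by
  induction n with
  | zero => exact ⟨0, W.zero_mem, by simp⟩
  | succ n ih =>
    obtain ⟨v', hv', h'⟩ := ih
    have hG : G ∈ W := by
      have : G = b + π * v := by linear_combination h
      rw [this]
      exact W.add_mem hb (W.mul_mem hπ hv)
    refine ⟨v' * G + b ^ n * v, W.add_mem (W.mul_mem hv' hG) (W.mul_mem (W.pow_mem hb n) hv), ?_⟩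
    rw [pow_succ, pow_succ]
    linear_combination G * h' + b ^ n * h

/-- **(b'), the shape X-D consumes at a crossing point.**  `h ≡ a1 mod π V1`, `h ≡ a2 mod π V2`
(`a1, a2 ∈ O`, `a1` a unit), and at ONE crossing point `m` a local generator `g = 1 + π c` such
that `h / g ^ p` lies in the local ring at `m`.  Then `a1 ≡ a2 mod π O` and `h = a1 (1 + π c')`
with `c' ∈ V1 ⊓ V2`: after rescaling by the constant `a1`, `RedPow` holds with `G = 1`. -/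
theorem S34G_one_of_glue (S : S34C_Setup2 O π j F1 V1 V2 A0 Ainf)
    (hC : Chart O π x F1 (V1 ⊓ V2) A) (m : Ideal A) (hm : m.IsMaximal)
    (hcross1 : ∀ a : A, (∃ v ∈ V1, (a : L) = π * v) → a ∈ m)
    (hcross2 : ∀ a : A, (∃ v ∈ V2, (a : L) = π * v) → a ∈ m)
    (p : ℕ) (h g c : L) (hc : c ∈ V1 ⊓ V2) (hg : g = 1 + π * c)
    (hu : ∃ a d : A, d ∉ m ∧ (h / g ^ p) * (d : L) = a)
    (a1 a2 : L) (ha1 : a1 ∈ O) (ha1' : a1⁻¹ ∈ O) (ha10 : a1 ≠ 0) (ha2 : a2 ∈ O)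
    (h1 : ∃ v ∈ V1, h - a1 = π * v) (h2 : ∃ v ∈ V2, h - a2 = π * v) :
    (∃ b ∈ O, a1 - a2 = π * b) ∧ ∃ c' ∈ V1 ⊓ V2, h = a1 * (1 + π * c') := by
  have H1 := S34G_val1 S
  have H2 := S34G_val2 S
  have hOV := S34G_O_le_V S
  have hπ0 := H1.π_ne_zero
  obtain ⟨hc1, hc2⟩ := Subring.mem_inf.mp hc
  obtain ⟨v1, hv1, hv1'⟩ := h1
  obtain ⟨v2, hv2, hv2'⟩ := h2
  -- `g ^ p = 1 + π cp`
  obtain ⟨cp, hcp, hgp⟩ := S34G_one_add_pow (V1 ⊓ V2) π (hOV S.π_mem) hc p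
  obtain ⟨hcp1, hcp2⟩ := Subring.mem_inf.mp hcp
  rw [← hg] at hgp
  have hgp0 : g ^ p ≠ 0 := hgp ▸ H1.one_add_ne_zero hcp1
  have hgpinv1 : (g ^ p)⁻¹ ∈ V1 := hgp ▸ H1.one_add hcp1
  have hgpinv2 : (g ^ p)⁻¹ ∈ V2 := hgp ▸ H2.one_add hcp2
  have ha1V := Subring.mem_inf.mp (hOV ha1)
  have ha2V := Subring.mem_inf.mp (hOV ha2)
  have hu1 : ∃ v ∈ V1, h / g ^ p - a1 = π * v := by
    refine ⟨(v1 - a1 * cp) * (g ^ p)⁻¹,
      V1.mul_mem (V1.sub_mem hv1 (V1.mul_mem ha1V.1 hcp1)) hgpinv1, ?_⟩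
    field_simp
    rw [hgp]
    linear_combination hv1'
  have hu2 : ∃ v ∈ V2, h / g ^ p - a2 = π * v := by
    refine ⟨(v2 - a2 * cp) * (g ^ p)⁻¹,
      V2.mul_mem (V2.sub_mem hv2 (V2.mul_mem ha2V.2 hcp2)) hgpinv2, ?_⟩
    field_simp
    rw [hgp]
    linear_combination hv2'
  obtain ⟨b, hb, hab⟩ := S34G_glue S hC m hm hcross1 hcross2 (h / g ^ p) hu a1 a2 ha1 ha2 hu1 hu2
  refine ⟨⟨b, hb, hab⟩, v1 * a1⁻¹, ?_, ?_⟩
  · have hv12 : v1 = v2 - b := by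
      apply mul_left_cancel₀ hπ0
      linear_combination hv2' - hv1' - hab
    have hv1V2 : v1 ∈ V2 := by
      rw [hv12]
      exact V2.sub_mem hv2 (Subring.mem_inf.mp (hOV hb)).2
    exact (V1 ⊓ V2).mul_mem (Subring.mem_inf.mpr ⟨hv1, hv1V2⟩) (hOV ha1')
  · field_simp
    linear_combination hv1'

/-- **(a'), the shape X-D consumes when there is no crossing point.**  `h ≡ b1 ^ p mod π V1`,
`h ≡ b2 ^ p mod π V2` with `b1, b2 ∈ Oˣ` and `V1 ≠ V2`: `RedPow π (V1 ⊓ V2) p h G` for some `G`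
with `G ≡ b1 mod π V1`, `G ≡ b2 mod π V2`. -/
theorem S34G_redPow_crt (S : S34C_Setup2 O π j F1 V1 V2 A0 Ainf) (hne : ∃ x ∈ V1, x ∉ V2)
    (p : ℕ) (h b1 b2 : L) (hb1 : b1 ∈ O) (hb1' : b1⁻¹ ∈ O) (hb10 : b1 ≠ 0) (hb2 : b2 ∈ O)
    (hb2' : b2⁻¹ ∈ O) (hb20 : b2 ≠ 0)
    (h1 : ∃ v ∈ V1, h - b1 ^ p = π * v) (h2 : ∃ v ∈ V2, h - b2 ^ p = π * v) :
    ∃ G : L, RedPow π (V1 ⊓ V2) p h G ∧ (∃ v ∈ V1, G - b1 = π * v) ∧ ∃ v ∈ V2, G - b2 = π * v := by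
  have H1 := S34G_val1 S
  have H2 := S34G_val2 S
  have hOV := S34G_O_le_V S
  have hπ0 := H1.π_ne_zero
  obtain ⟨G, hG0, hGV, hGinv, ⟨w1, hw1, hGw1⟩, w2, hw2, hGw2⟩ :=
    S34G_crt_const S hne b1 b2 hb1 hb1' hb10 hb2 hb2' hb20
  obtain ⟨v1, hv1, hv1'⟩ := h1
  obtain ⟨v2, hv2, hv2'⟩ := h2
  obtain ⟨u1, hu1, hGu1⟩ := S34G_pow_congr V1 π H1.π_mem (Subring.mem_inf.mp (hOV hb1)).1 hw1
    hGw1 p
  obtain ⟨u2, hu2, hGu2⟩ := S34G_pow_congr V2 π H2.π_mem (Subring.mem_inf.mp (hOV hb2)).2 hw2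
    hGw2 p
  -- `h - G ^ p = π (v1 - u1) = π (v2 - u2)`
  have e1 : h - G ^ p = π * (v1 - u1) := by linear_combination hv1' - hGu1
  have e2 : h - G ^ p = π * (v2 - u2) := by linear_combination hv2' - hGu2
  have e12 : v1 - u1 = v2 - u2 := mul_left_cancel₀ hπ0 (e1.symm.trans e2)
  have hwV : v1 - u1 ∈ V1 ⊓ V2 :=
    Subring.mem_inf.mpr ⟨V1.sub_mem hv1 hu1, e12 ▸ V2.sub_mem hv2 hu2⟩
  have hGp0 : G ^ p ≠ 0 := pow_ne_zero p hG0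
  refine ⟨G, ⟨hGV, hGinv, (v1 - u1) * (G⁻¹) ^ p,
    (V1 ⊓ V2).mul_mem hwV ((V1 ⊓ V2).pow_mem hGinv p), ?_⟩, ⟨w1, hw1, hGw1⟩, w2, hw2, hGw2⟩
  rw [inv_pow]
  field_simp
  linear_combination e1

end Setup2

end Fermat.Agent.S34_helper9_GAMMA
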