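import Mathlib
import Fermat.Agent.S34_Contracts3
import Fermat.Agent.S34_helper25_Defs
import Fermat.Agent.S34_helper9_GAMMA
import Fermat.Agent.S34_helper6_STEP1
import Fermat.Agent.S34_helper6_STEP1K
import Fermat.Agent.S34_helper19_SMOOTH
import Fermat.Agent.S34_helper27_C2ADAPT
import Fermat.Agent.S34_helper12_DICH

/-!
# S34, X-D-ADAPT: the bridge between the two top contracts

The owner's geometric contract `S34K_GeomAt` / `S34K_Geom3` (`S34_Contracts3`) implies the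
contract `S34XD_Geom` / `S34XD_Contract` consumed by the global assembly X-D
(`S34_helper25_Defs`), with the coordinate `x := j` and the S18K charts.

* `S34AD_geom`     : `S34K_GeomAt → S34XD_Geom`;
* `S34AD_smooth`, `S34AD_smooth'` : the four `S34XD_SmoothLift` (helper19's P5-SMOOTH);
* `S34AD_contract` : `(∀ A over q, S34K_Geom3 N' q p A) → S34XD_Contract (N' * q) p q`;
* `S34AD_XD3`      : a theorem of the shape of `S34XD_key` gives the owner's `S34K_XD3`.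
-/

set_option autoImplicit false

open AlgebraicCurve ModularCurve HahnSeries IntermediateField

noncomputable section

namespace Fermat.Agent.S34_helper12_XDAD

open Fermat.Agent.S18_helper9_CDefs Fermat.Agent.S18_helper25_COREDefs
  Fermat.Agent.S34_helper12_CDefs Fermat.Agent.S34_helper6_RED Fermat.Agent.S34_helper5_K0
  Fermat.Agent.S18_helper3_LOCRING Fermat.Agent.S37_helper4_B1Defs
  Fermat.Agent.S37_helper5_LEVEL Fermat.Agent.S34_Contracts Fermat.Agent.S34_helper25_Defs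
  Fermat.Agent.S34_helper9_GAMMA Fermat.Agent.S34_helper6_STEP1
  Fermat.Agent.S34_helper6_STEP1K Fermat.Agent.S34_helper19_SMOOTH
  Fermat.Agent.S34_helper27_C2ADAPT Fermat.Agent.S34_helper12_DICH

local notation "Qb" => AlgebraicClosure ℚ
local notation "GQ" => (AlgebraicClosure ℚ ≃ₐ[ℚ] AlgebraicClosure ℚ)

/-! ### Abstract part -/

section Abstract

variable {L : Type*} [Field L]

variable {O : Subring L} {π j : L} {F1 : Subfield L} {V1 V2 A0 Ainf : Subring L}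

/-- (N1) in the two vocabularies. -/
theorem S34AD_n1 {X : Subring L} (h : S34K_N1 π V1 V2 X) : S34XD_N1 π V1 V2 X :=
  fun hπ m hm hπm hnc => h hπ m hm hπm hnc

/-- the crossing datum in the two vocabularies. -/
theorem S34AD_crossGen {X : Subring L} {p : ℕ} {f : L} (m : Ideal X) [m.IsPrime]
    (h : S34K_CrossAt π F1 V1 V2 X p f m) : S34XD_CrossGen π F1 (V1 ⊓ V2) X p f m := by
  obtain ⟨g, hg, c, hc, hgc, hu, hu'⟩ := h
  exact ⟨g, hg, c, hc, hgc, hu, hu'⟩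

/-- the crossing datum in the two vocabularies, converse. -/
theorem S34AD_crossAt {X : Subring L} {p : ℕ} {f : L} (m : Ideal X) [m.IsPrime]
    (h : S34XD_CrossGen π F1 (V1 ⊓ V2) X p f m) : S34K_CrossAt π F1 V1 V2 X p f m := by
  obtain ⟨g, hg, c, hc, hgc, hu, hu'⟩ := h
  exact ⟨g, hg, c, hc, hgc, hu, hu'⟩

/-- the zero function has the trivial crossing datum. -/
theorem S34AD_crossGen_zero {X V : Subring L} {p : ℕ} (m : Ideal X) [hm : m.IsPrime] :
    S34XD_CrossGen π F1 V X p 0 m := by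
  have h1 : (1 : X) ∉ m := fun h => hm.ne_top ((Ideal.eq_top_iff_one m).2 h)
  refine ⟨1, F1.one_mem, 0, V.zero_mem, by rw [mul_zero, add_zero], ?_, ?_⟩
  · exact ⟨0, 1, h1, by simp⟩
  · exact ⟨0, 1, h1, by simp⟩

/-- **P5-SMOOTH as a contract**, first component. -/
theorem S34AD_smooth [CharZero L] (S : S34C_Setup2 O π j F1 V1 V2 A0 Ainf) (x : L)
    (hx : x = j ∨ x = j⁻¹) (A : Subring L) (hC : Chart O π x F1 (V1 ⊓ V2) A) :
    S34XD_SmoothLift O π F1 V1 V2 A := by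
  intro p hp hpO f h G hf0 hh hdiv hred hπ m hm hπm hIG d hdm hd1 hd2
  exact S34SM_locLift S hp hpO x hx A hC
    (S34CA_chart_noetherian (S34CA_setup_of_setup2 S) x hx A hC) f h G hf0 hh hdiv hred hπ m hm
    hπm hIG d hdm hd1 hd2

/-- **P5-SMOOTH as a contract**, second component (the rings in the other order). -/
theorem S34AD_smooth' [CharZero L] (S : S34C_Setup2 O π j F1 V1 V2 A0 Ainf) (x : L)
    (hx : x = j ∨ x = j⁻¹) (A : Subring L) (hC : Chart O π x F1 (V1 ⊓ V2) A) :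
    S34XD_SmoothLift O π F1 V2 V1 A := by
  intro p hp hpO f h G hf0 hh hdiv hred hπ m hm hπm hIG d hdm hd1 hd2
  have e : (V2 ⊓ V1 : Subring L) = V1 ⊓ V2 := inf_comm _ _
  rw [e] at hred ⊢
  exact S34SM_locLift' S hp hpO x hx A hC
    (S34CA_chart_noetherian (S34CA_setup_of_setup2 S) x hx A hC) f h G hf0 hh hdiv hred hπ m hm
    hπm hIG d hdm hd1 hd2

/-- the second-difference quotient is `1 + π c` as soon as Step 1 holds in product form. -/
theorem S34AD_u2_of_step1 {V : Subring L} {a b c0 f u : L} (hab : a * b ≠ 0)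
    (h : ∃ c ∈ V, c0 * f = a * b * (1 + π * c)) (hu : u = c0 * f * (a * b)⁻¹) :
    ∃ c ∈ V, u = 1 + π * c := by
  obtain ⟨c, hc, e⟩ := h
  refine ⟨c, hc, ?_⟩
  rw [hu, e, mul_comm (a * b) (1 + π * c), mul_assoc, mul_inv_cancel₀ hab, mul_one]

end Abstract

/-! ### Concrete part -/

section Concrete

variable (N : ℕ) [NeZero N] (A : ValuationSubring Qb)
  (K1 : IntermediateField ℚ Qb) [IsDiscreteValuationRing (S18K_O1 A K1)]

theorem S34AD_charZero : CharZero (LaurentSeries K1) :=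
  charZero_of_injective_ringHom (HahnSeries.C_injective (Γ := ℤ) (R := K1))

/-- `S34K_Inert` gives the `TrivMod` hypothesis of STEP 1 for `V2`. -/
theorem S34AD_trivMod (hstab : ∀ σ : GQ, ∀ x ∈ K1, σ x ∈ K1)
    (V2 : Subring (LaurentSeries K1)) (hI : S34K_Inert A K1 hstab V2) (τ : GQ)
    (hτ : τ ∈ A.inertiaSubgroupIn ℚ) :
    S34S1_TrivMod (S18K_π A K1) V2 (S34S1K_act K1 hstab τ) := by
  intro x hx
  obtain ⟨-, c, hc, e⟩ := hI τ hτ x hx
  refine ⟨c, hc, ?_⟩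
  have e' : S34S1K_act K1 hstab τ x - x = S18K_π A K1 * c := e
  rw [← e']
  ring

omit [NeZero N] in
/-- **STEP 1 for both valuations**, from the owner's conjuncts. -/
theorem S34AD_step1 (hstab : ∀ σ : GQ, ∀ x ∈ K1, σ x ∈ K1)
    (V2 : Subring (LaurentSeries K1))
    (S : S34C_Setup2 (S18K_O A K1) (S18K_π A K1) (S18K_j K1) (S18K_F1 K1 N)
      (S18K_V A K1 N) V2 (S18K_A0 A K1 N) (S18K_Ainf A K1 N))
    (hI : S34K_Inert A K1 hstab V2) (hF : S34K_Fac2 N A K1 V2)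
    (τ' τ : GQ) (hτ' : τ' ∈ A.inertiaSubgroupIn ℚ) (hτ : τ ∈ A.inertiaSubgroupIn ℚ)
    (f : LaurentSeries K1) (hf : f ∈ S18K_F1 K1 N) (hf0 : f ≠ 0) :
    ∃ c ∈ S18K_V A K1 N ⊓ V2,
      S34XD_u2 K1 (S34K0_restrict K1 hstab τ' : K1 →+* K1)
        (S34K0_restrict K1 hstab τ : K1 →+* K1) f = 1 + S18K_π A K1 * c := by
  have hπ0 : S18K_π A K1 ≠ 0 := S34DI_pi_ne_zero S
  have hτi : τ⁻¹ ∈ A.inertiaSubgroupIn ℚ := inv_mem hτ
  have hab : S34S1K_act K1 hstab τ' f * S34S1K_act K1 hstab τ f ≠ 0 :=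
    mul_ne_zero ((map_ne_zero _).2 hf0) ((map_ne_zero _).2 hf0)
  have hu : S34XD_u2 K1 (S34K0_restrict K1 hstab τ' : K1 →+* K1)
        (S34K0_restrict K1 hstab τ : K1 →+* K1) f
      = S34S1K_act K1 hstab τ' (S34S1K_act K1 hstab τ f) * f *
        (S34S1K_act K1 hstab τ' f * S34S1K_act K1 hstab τ f)⁻¹ := rfl
  have h1 := S34AD_u2_of_step1 hab (S34S1K_step1 A K1 hstab N τ' τ hτ' hτ hf hf0) hu
  have hinv : S34S1K_act K1 hstab τ (S34S1K_act K1 hstab τ⁻¹ (S18K_π A K1)) = S18K_π A K1 := by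
    rw [S34S1K_act_act, mul_inv_cancel, S34S1K_act_one]
  have h2' := S34S1_step1 hπ0 (S34G_val2 S).π_mem hinv
    (S34AD_trivMod A K1 hstab V2 hI τ' hτ') (S34AD_trivMod A K1 hstab V2 hI τ hτ)
    (S34AD_trivMod A K1 hstab V2 hI τ⁻¹ hτi) (hF f hf hf0)
  have h2 := S34AD_u2_of_step1 hab h2' hu
  exact S34S1_step1_inf hπ0 h1 h2

/-- **The crossing contract in helper25's shape**, from the owner's `S34K_Cross`. -/
theorem S34AD_cross (p : ℕ) (V2 X : Subring (LaurentSeries K1))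
    (hX : S34K_Cross N p A K1 V2 X)
    (τ' τ : GQ) (hτ' : τ' ∈ A.inertiaSubgroupIn ℚ) (hτ : τ ∈ A.inertiaSubgroupIn ℚ)
    (D : Divisor Qb (modularFunctionFieldBar N))
    (hD : ∀ P : Place Qb (modularFunctionFieldBar N), D P ≠ 0 → S37LEVEL_IsRational N K1 P)
    (h2 : modularFunctionFieldFullC K1 N)
    (hh2 : (h2 : LaurentSeries K1) ∈ S18K_V A K1 N ⊓ V2)
    (hh2' : ((h2 : LaurentSeries K1))⁻¹ ∈ S18K_V A K1 N ⊓ V2)
    (hord : ∀ P : Place Qb (modularFunctionFieldBar N),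
      P.ord (S34XD_inc K1 N h2) = (p : ℤ) * S34R_diff2 N τ' τ D P)
    (hπ : S18K_π A K1 ∈ X) (m : Ideal X) (hm : m.IsMaximal)
    (hπm : (⟨S18K_π A K1, hπ⟩ : X) ∈ m)
    (hc : S34XD_IsCross (S18K_π A K1) (S18K_V A K1 N) V2 X m) :
    S34XD_CrossGen (S18K_π A K1) (S18K_F1 K1 N) (S18K_V A K1 N ⊓ V2) X p
      (h2 : LaurentSeries K1) m := by
  haveI := hm.isPrime
  by_cases h0 : (h2 : LaurentSeries K1) = 0
  · rw [h0]
    exact S34AD_crossGen_zero m
  · refine S34AD_crossGen m ?_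
    refine hX τ' τ hτ' hτ D hD (h2 : LaurentSeries K1) h2.2 h0 hh2 hh2' ?_ hπ m hm hπm hc.1 hc.2
    intro P
    rw [S37B1_ordP_eq N K1 P h2]
    exact hord P

/-- **The bridge at one level**: the owner's `S34K_GeomAt` gives helper25's `S34XD_Geom` with the
coordinate `j` and the S18K charts. -/
theorem S34AD_geom (p : ℕ) (hstab : ∀ σ : GQ, ∀ x ∈ K1, σ x ∈ K1)
    (V2 : Subring (LaurentSeries K1)) (hG : S34K_GeomAt N A K1 p hstab V2) :
    S34XD_Geom A K1 N hstab p V2 (S18K_j K1) (S18K_A0 A K1 N) (S18K_Ainf A K1 N) := by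
  obtain ⟨S, hne, hI, hF, -, hN0, hNinf, hX0, hXinf⟩ := hG
  refine ⟨S, ?_, S34AD_n1 hN0, S34AD_n1 hNinf, ?_, ?_, ?_⟩
  · obtain ⟨x, hx1, hx2⟩ := hne
    exact S34G_swap (S34G_val1 S) (S34G_val2 S) hx1 hx2
  · intro τ' τ hτ' hτ f hf hf0
    exact S34AD_step1 N A K1 hstab V2 S hI hF τ' τ hτ' hτ f hf hf0
  · intro τ' τ hτ' hτ D hD h2 hh2 hh2' hord hπ m hm hπm hc
    exact S34AD_cross N A K1 p V2 _ hX0 τ' τ hτ' hτ D hD h2 hh2 hh2' hord hπ m hm hπm hc
  · intro τ' τ hτ' hτ D hD h2 hh2 hh2' hord hπ m hm hπm hc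
    exact S34AD_cross N A K1 p V2 _ hXinf τ' τ hτ' hτ D hD h2 hh2 hh2' hord hπ m hm hπm hc

/-- **The bridge at one level, with the four smooth lifts.** -/
theorem S34AD_geom_smooth (p : ℕ) (hstab : ∀ σ : GQ, ∀ x ∈ K1, σ x ∈ K1)
    (V2 : Subring (LaurentSeries K1)) (hG : S34K_GeomAt N A K1 p hstab V2) :
    S34XD_Geom A K1 N hstab p V2 (S18K_j K1) (S18K_A0 A K1 N) (S18K_Ainf A K1 N) ∧
      S34XD_SmoothLift (S18K_O A K1) (S18K_π A K1) (S18K_F1 K1 N) (S18K_V A K1 N) V2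
        (S18K_A0 A K1 N) ∧
      S34XD_SmoothLift (S18K_O A K1) (S18K_π A K1) (S18K_F1 K1 N) (S18K_V A K1 N) V2
        (S18K_Ainf A K1 N) ∧
      S34XD_SmoothLift (S18K_O A K1) (S18K_π A K1) (S18K_F1 K1 N) V2 (S18K_V A K1 N)
        (S18K_A0 A K1 N) ∧
      S34XD_SmoothLift (S18K_O A K1) (S18K_π A K1) (S18K_F1 K1 N) V2 (S18K_V A K1 N)
        (S18K_Ainf A K1 N) := by
  haveI := S34AD_charZero K1
  have S := hG.1
  exact ⟨S34AD_geom N A K1 p hstab V2 hG,
    S34AD_smooth S _ (Or.inl rfl) _ S.chart0,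
    S34AD_smooth S _ (Or.inr rfl) _ S.chartInf,
    S34AD_smooth' S _ (Or.inl rfl) _ S.chart0,
    S34AD_smooth' S _ (Or.inr rfl) _ S.chartInf⟩

end Concrete

/-- **The bridge between the two top contracts.** -/
theorem S34AD_contract (N' q p : ℕ) [NeZero (N' * q)]
    (h : ∀ A : ValuationSubring Qb, A.LiesOverPrime q → S34K_Geom3 N' q p A) :
    S34XD_Contract (N' * q) p q := by
  intro A hA K1 hadm hstab
  letI := hadm.dvr
  obtain ⟨V2, hG⟩ := h A hA K1 hadm hstab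
  exact ⟨V2, S18K_j K1, S18K_A0 A K1 (N' * q), S18K_Ainf A K1 (N' * q),
    S34AD_geom_smooth (N' * q) A K1 p hstab V2 hG⟩

/-- The owner's contract of X-D from a theorem of the shape of `S34XD_key`. -/
theorem S34AD_XD3 (N' q p : ℕ) [NeZero (N' * q)]
    (hkey : p.Prime → q.Prime → p ≠ q → S34XD_Contract (N' * q) p q → S34R_Key (N' * q) p q) :
    S34K_XD3 N' q p :=
  fun hq hp hpq _ h => hkey hp hq hpq (S34AD_contract N' q p h)

end Fermat.Agent.S34_helper12_XDAD
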