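import Mathlib
import Fermat.Agent.S31_helper3_HC
import Fermat.Agent.S37_helper8_E1M
import Fermat.Agent.G_helper6_E2PLUG

/-!
# S34, endgame, producer half

`S34P_main`: if every inertia element `s` at `q` satisfies `(s - 1) ^ 2 = 0` on
`J₀(N)(ℚ̄)[p ^ k]` (all `k`), then for every `n` there is a finite level `L` such that for every
Frobenius power `F ^ b` (at a prime `ℓ ∉ S`, `ℓ ∤ N`) which agrees with `s` on `L`

* `D_b (T_ℓ, ℓ) - 2 ∈ p ^ n • heckeAlgebra N 2 S`  (Dickson polynomial `D_b`),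
* `ℓ ^ b ≡ 1` modulo `p ^ n`.

The proof is the one of the Hecke congruence property of S31 (`S31_helper3_HC`), with the
second Frobenius power replaced by `s` (which satisfies `s ^ 2 - 2 s + 1 = 0`).
-/

set_option autoImplicit false
set_option linter.style.haveILetI false
set_option linter.unusedSectionVars false

open UpperHalfPlane ModularForm CongruenceSubgroup AlgebraicCurve ModularCurve
open scoped MatrixGroups ModularForm Manifold TensorProduct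
open Fermat.Agent.G_helper6_Defs Fermat.Agent.G_helper6_E2FINAL Fermat.Agent.G_helper29_WDefs
open Fermat.Agent.S31_helper3_Defs Fermat.Agent.S31_helper3_SAT Fermat.Agent.S31_helper3_PAIR
open Fermat.Agent.S31_helper3_HC Fermat.Agent.S31_helper5_LEVEL

noncomputable section

namespace Fermat.Agent.S34_helper3_ENDP

local notation "Qb" => AlgebraicClosure ℚ
local notation "GQ" => (AlgebraicClosure ℚ ≃ₐ[ℚ] AlgebraicClosure ℚ)

/-! ### Roots of unity -/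

/-- If a power of a Frobenius lift at `ℓ` fixes a primitive `m`-th root of unity, then
`ℓ ^ b ≡ 1` modulo `m`. -/
theorem S34P_pow_modEq_one {ℓ m : ℕ} (hcop : Nat.Coprime ℓ m) (A : ValuationSubring Qb)
    (hA : A.LiesOverPrime ℓ) (F : GQ) (hF : A.IsFrobeniusAt F ℓ) (b : ℕ) {ζ : Qb}
    (hζ : IsPrimitiveRoot ζ m) (h : (F ^ b) ζ = ζ) : ℓ ^ b ≡ 1 [MOD m] := by
  have hm0 := S31L_ne_zero_of_coprime A hA hcop
  rw [S31L_frob_pow_root hcop A hA F hF b hζ.pow_eq_one] at h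
  have hfin : IsOfFinOrder ζ :=
    isOfFinOrder_iff_pow_eq_one.mpr ⟨m, Nat.pos_of_ne_zero hm0, hζ.pow_eq_one⟩
  have h' : ζ ^ (ℓ ^ b) = ζ ^ 1 := by rw [h, pow_one]
  have h2 := hfin.pow_eq_pow_iff_modEq.mp h'
  rw [← hζ.eq_orderOf] at h2
  exact h2

variable (N : ℕ) [NeZero N]

/-! ### The relation `(s - 1) ^ 2 = 0` on the torsion -/

theorem S34P_unipotent_apply (m : ℕ) (s : GQ)
    (hs : ∀ x : JZero N, m • x = 0 → s • (s • x) - (2 : ℤ) • (s • x) + x = 0)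
    (x : PG_Jp N m) :
    S31HC_gal N m s (S31HC_gal N m s x) - (S31HC_gal N m s x + S31HC_gal N m s x) + x = 0 := by
  apply Subtype.ext
  have h := hs (x : JZero N) (PG_mem_Jp.mp x.2)
  rw [two_zsmul] at h
  exact h

theorem S34P_unipotent (m : ℕ) (s : GQ)
    (hs : ∀ x : JZero N, m • x = 0 → s • (s • x) - (2 : ℤ) • (s • x) + x = 0) :
    S31HC_gal N m s * S31HC_gal N m s - 2 * S31HC_gal N m s
      + ((1 : ℕ) : Module.End ℤ (PG_Jp N m)) = 0 := by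
  refine LinearMap.ext fun x => ?_
  have e : (S31HC_gal N m s * S31HC_gal N m s - 2 * S31HC_gal N m s
      + ((1 : ℕ) : Module.End ℤ (PG_Jp N m))) x =
      S31HC_gal N m s (S31HC_gal N m s x) - (2 : Module.End ℤ (PG_Jp N m)) (S31HC_gal N m s x)
        + ((1 : ℕ) : Module.End ℤ (PG_Jp N m)) x := rfl
  have h2 : (2 : Module.End ℤ (PG_Jp N m)) (S31HC_gal N m s x) =
      S31HC_gal N m s x + S31HC_gal N m s x := S31SAT_two_apply _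
  have h1 : ((1 : ℕ) : Module.End ℤ (PG_Jp N m)) x = x :=
    (S31SAT_natCast_apply 1 x).trans (one_smul _ _)
  exact e.trans ((congrArg₂ (fun a b : PG_Jp N m =>
    S31HC_gal N m s (S31HC_gal N m s x) - a + b) h2 h1).trans
      (S34P_unipotent_apply N m s hs x))

/-- **The Dickson expression of a Frobenius power which agrees with a unipotent element `s`
on the `m`-torsion is `2` on the `m`-torsion.** -/
theorem S34P_dick_eq (m : ℕ) (hE1 : PG_E1_statement N m) (ℓ : Nat.Primes)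
    (hℓNm : ¬ (ℓ : ℕ) ∣ N * m) (A : ValuationSubring Qb) (F : GQ) (b : ℕ)
    (hA : A.LiesOverPrime ℓ) (hF : A.IsFrobeniusAt F ℓ) (s : GQ)
    (hs : ∀ x : JZero N, m • x = 0 → s • (s • x) - (2 : ℤ) • (s • x) + x = 0)
    (hsJ : S31HC_gal N m (F ^ b) = S31HC_gal N m s)
    (hℓb : (ℓ : ℕ) ^ b ≡ 1 [MOD m]) :
    S31_dick (S31HC_T N m ℓ) (((ℓ : ℕ) : ℕ) : Module.End ℤ (PG_Jp N m)) b =
      S31_dick (S31HC_T N m ℓ) (((ℓ : ℕ) : ℕ) : Module.End ℤ (PG_Jp N m)) 0 := by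
  have h := S31SAT_frob (S31HC_gal N m F) (S31HC_gal N m s) (S31HC_T N m ℓ)
    (2 : Module.End ℤ (PG_Jp N m)) (ℓ : ℕ) 1 b 1
    (S31HC_commute N m ℓ F) (Commute.ofNat_right _ 2)
    (S31HC_ES N m hE1 ℓ hℓNm A hA F hF) (S34P_unipotent N m s hs)
    (by rw [← S31HC_gal_pow, pow_one]; exact hsJ)
    (fun z hz => by
      rw [← S31HC_gal_pow] at hz
      exact S31HC_gal_inj N m _ z hz)
    (S31HC_natCast_eq N m (by rw [one_pow]; exact hℓb))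
  rw [h, S31_dick_one, S31_dick_zero]

/-! ### Transport to the lattice -/

/-- **Transport to the lattice**: Dickson expressions which agree on the `m`-torsion are
congruent modulo `m` on the lattice. -/
theorem S34P_lattice (m : ℕ) (hm : m ≠ 0) (Θ₀ : PG_M N →+ JZero N) (hΘ₀ : PG_E2 N m Θ₀)
    (ℓ ℓ' : Nat.Primes) [NeZero (ℓ : ℕ)] [NeZero (ℓ' : ℕ)]
    (hℓN : ¬ (ℓ : ℕ) ∣ N) (hℓ'N : ¬ (ℓ' : ℕ) ∣ N) (b b' : ℕ)
    (hJ : S31_dick (S31HC_T N m ℓ) (((ℓ : ℕ) : ℕ) : Module.End ℤ (PG_Jp N m)) b =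
      S31_dick (S31HC_T N m ℓ') (((ℓ' : ℕ) : ℕ) : Module.End ℤ (PG_Jp N m)) b') :
    ∃ e : Module.End ℤ (PG_M N),
      S31_dick (PG_E2F_TM N (ℓ : ℕ)) (((ℓ : ℕ) : ℕ) : Module.End ℤ (PG_M N)) b
        - S31_dick (PG_E2F_TM N (ℓ' : ℕ)) (((ℓ' : ℕ) : ℕ) : Module.End ℤ (PG_M N)) b'
        = m • e := by
  refine S31SAT_exists_smul (S31PAIR_M_torsionFree N) _ m hm fun c => ?_
  have h1 := S31SAT_dick_comm (S31HC_theta N m Θ₀ hΘ₀.tors) (PG_E2F_TM N (ℓ : ℕ))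
    (S31HC_T N m ℓ) (S31HC_theta_hecke N m Θ₀ hΘ₀ ℓ hℓN) (ℓ : ℕ) b c
  have h2 := S31SAT_dick_comm (S31HC_theta N m Θ₀ hΘ₀.tors) (PG_E2F_TM N (ℓ' : ℕ))
    (S31HC_T N m ℓ') (S31HC_theta_hecke N m Θ₀ hΘ₀ ℓ' hℓ'N) (ℓ' : ℕ) b' c
  have h3 : S31HC_theta N m Θ₀ hΘ₀.tors
      ((S31_dick (PG_E2F_TM N (ℓ : ℕ)) (((ℓ : ℕ) : ℕ) : Module.End ℤ (PG_M N)) b
        - S31_dick (PG_E2F_TM N (ℓ' : ℕ)) (((ℓ' : ℕ) : ℕ) : Module.End ℤ (PG_M N)) b') c)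
        = 0 := by
    rw [LinearMap.sub_apply, map_sub, h1, h2, hJ, sub_self]
  have h4 : Θ₀ ((S31_dick (PG_E2F_TM N (ℓ : ℕ)) (((ℓ : ℕ) : ℕ) : Module.End ℤ (PG_M N)) b
        - S31_dick (PG_E2F_TM N (ℓ' : ℕ)) (((ℓ' : ℕ) : ℕ) : Module.End ℤ (PG_M N)) b') c)
        = 0 := by
    have := congrArg (fun y : PG_Jp N m => (y : JZero N)) h3
    exact this
  obtain ⟨c', hc'⟩ := hΘ₀.inj _ h4
  exact ⟨c', by rw [hc', natCast_zsmul]⟩

/-! ### The main theorem -/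

/-- **The producer half of the endgame of S34**, from (E1), (E2) at the powers of `p` and the
relation `(s - 1) ^ 2 = 0` on `J₀(N)[p ^ k]` for the inertia elements `s` at `q`. -/
theorem S34P_main_of (S : Finset ℕ) (p q : ℕ) (hp : p.Prime) (hpS : p ∈ S)
    (hq : q.Prime) (hqp : q ≠ p)
    (hE1 : ∀ k : ℕ, PG_E1_statement N (p ^ k))
    (hE2 : ∀ k : ℕ, ∃ Θ₀ : PG_M N →+ JZero N, PG_E2 N (p ^ k) Θ₀)
    (hG : ∀ (k : ℕ) (A : ValuationSubring Qb), A.LiesOverPrime q →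
      ∀ s ∈ A.inertiaSubgroupIn ℚ, ∀ x : JZero N, (p ^ k) • x = 0 →
        s • (s • x) - (2 : ℤ) • (s • x) + x = 0) :
    ∀ n : ℕ, ∃ L : IntermediateField ℚ Qb, FiniteDimensional ℚ L ∧
      ∀ (ℓ : ℕ) (hℓ : ℓ.Prime) (hℓN : ¬ ℓ ∣ N) (hℓS : ℓ ∉ (↑S : Set ℕ))
        (A : ValuationSubring Qb) (F : GQ) (b : ℕ), A.LiesOverPrime ℓ → A.IsFrobeniusAt F ℓ →
        ∀ (A' : ValuationSubring Qb) (s : GQ), A'.LiesOverPrime q →
          s ∈ A'.inertiaSubgroupIn ℚ → (∀ x ∈ L, s x = (F ^ b) x) →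
          (∃ t : CuspForm.heckeAlgebra N 2 (↑S : Set ℕ),
            S31_dick (CuspForm.heckeAlgebra.T hℓ hℓN hℓS : CuspForm.heckeAlgebra N 2 (↑S : Set ℕ))
                ((ℓ : ℕ) : CuspForm.heckeAlgebra N 2 (↑S : Set ℕ)) b - 2
              = ((p ^ n : ℕ) : CuspForm.heckeAlgebra N 2 (↑S : Set ℕ)) * t) ∧
          (∃ z : ℤ, (ℓ : ℤ) ^ b - 1 = (p ^ n : ℤ) * z) := by
  obtain ⟨c, hc⟩ := S31PAIR_main N S p hp
  intro n
  obtain ⟨Θ₀, hΘ₀⟩ := hE2 (n + c)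
  have hm0 : p ^ (n + c) ≠ 0 := pow_ne_zero _ hp.ne_zero
  obtain ⟨L, hLfd, hL⟩ := S31L_U_open N (p ^ (n + c)) hm0 hΘ₀.fin
  refine ⟨L, hLfd, ?_⟩
  intro ℓ hℓ hℓN hℓS A F b hA hF A' s hA' hs hsL
  have hℓp : ¬ ℓ ∣ p ^ (n + c) := fun h => by
    have := (Nat.prime_dvd_prime_iff_eq hℓ hp).mp (hℓ.dvd_of_dvd_pow h)
    exact hℓS (this ▸ Finset.mem_coe.mpr hpS)
  have hℓNm : ¬ ℓ ∣ N * p ^ (n + c) := fun h => (hℓ.dvd_mul.mp h).elim hℓN hℓp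
  have hcop : Nat.Coprime ℓ (p ^ (n + c)) := (Nat.Prime.coprime_iff_not_dvd hℓ).mpr hℓp
  have hqcop : Nat.Coprime q (p ^ (n + c)) :=
    Nat.Coprime.pow_right _ ((Nat.coprime_primes hq hp).mpr hqp)
  -- `F ^ b` and `s` agree modulo `U`
  have hU : (F ^ b)⁻¹ * s ∈ S31L_U N (p ^ (n + c)) := by
    apply hL
    intro x hx
    rw [AlgEquiv.mul_apply, hsL x hx]
    exact AlgEquiv.symm_apply_apply (F ^ b) x
  -- the congruence `ℓ ^ b ≡ 1`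
  have hmod : ℓ ^ b ≡ 1 [MOD p ^ (n + c)] := by
    haveI : NeZero (p ^ (n + c)) := ⟨hm0⟩
    obtain ⟨ζ, hζ⟩ := Fermat.Agent.G_helper7_CYC.PGCYC_exists_primitiveRoot (p ^ (n + c))
    refine S34P_pow_modEq_one hcop A hA F hF b hζ ?_
    rw [S31L_U_apply_eq N hU hζ.pow_eq_one]
    exact S31L_inertia_root hqcop A' hA' s hs hζ.pow_eq_one
  haveI : NeZero ℓ := ⟨hℓ.ne_zero⟩
  refine ⟨?_, ?_⟩
  · have hJ := S34P_dick_eq N (p ^ (n + c)) (hE1 (n + c)) (⟨ℓ, hℓ⟩ : Nat.Primes) hℓNm A F b hA hF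
      s (hG (n + c) A' hA' s hs) (S31HC_gal_congr N _ _ _ hU) hmod
    obtain ⟨e, he⟩ := S34P_lattice N (p ^ (n + c)) hm0 Θ₀ hΘ₀ (⟨ℓ, hℓ⟩ : Nat.Primes)
      (⟨ℓ, hℓ⟩ : Nat.Primes) hℓN hℓN b 0 hJ
    have := hc (n + c) ℓ ℓ hℓ hℓ hℓN hℓN hℓS hℓS b 0 e he
    rwa [Nat.add_sub_cancel, S31_dick_zero] at this
  · have h1 : ((p ^ (n + c) : ℕ) : ℤ) ∣ ((ℓ ^ b : ℕ) : ℤ) - ((1 : ℕ) : ℤ) :=
      (Nat.modEq_iff_dvd.mp hmod.symm)
    obtain ⟨z, hz⟩ := h1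
    refine ⟨(p : ℤ) ^ c * z, ?_⟩
    push_cast at hz
    rw [hz, pow_add]
    ring

/-- **The producer half of the endgame of S34**, unconditional in (E1), (E2). -/
theorem S34P_main (S : Finset ℕ) (p q : ℕ) (hp : p.Prime) (hpS : p ∈ S)
    (_hNS : ∀ r : ℕ, r.Prime → r ∣ N → r ∈ S) (hq : q.Prime) (hqp : q ≠ p)
    (hG : ∀ (k : ℕ) (A : ValuationSubring Qb), A.LiesOverPrime q →
      ∀ s ∈ A.inertiaSubgroupIn ℚ, ∀ x : JZero N, (p ^ k) • x = 0 →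
        s • (s • x) - (2 : ℤ) • (s • x) + x = 0) :
    ∀ n : ℕ, ∃ L : IntermediateField ℚ Qb, FiniteDimensional ℚ L ∧
      ∀ (ℓ : ℕ) (hℓ : ℓ.Prime) (hℓN : ¬ ℓ ∣ N) (hℓS : ℓ ∉ (↑S : Set ℕ))
        (A : ValuationSubring Qb) (F : GQ) (b : ℕ), A.LiesOverPrime ℓ → A.IsFrobeniusAt F ℓ →
        ∀ (A' : ValuationSubring Qb) (s : GQ), A'.LiesOverPrime q →
          s ∈ A'.inertiaSubgroupIn ℚ → (∀ x ∈ L, s x = (F ^ b) x) →
          (∃ t : CuspForm.heckeAlgebra N 2 (↑S : Set ℕ),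
            S31_dick (CuspForm.heckeAlgebra.T hℓ hℓN hℓS : CuspForm.heckeAlgebra N 2 (↑S : Set ℕ))
                ((ℓ : ℕ) : CuspForm.heckeAlgebra N 2 (↑S : Set ℕ)) b - 2
              = ((p ^ n : ℕ) : CuspForm.heckeAlgebra N 2 (↑S : Set ℕ)) * t) ∧
          (∃ z : ℤ, (ℓ : ℤ) ^ b - 1 = (p ^ n : ℤ) * z) :=
  S34P_main_of N S p q hp hpS hq hqp (Fermat.Agent.S37_helper8_E1M.S37E1M_pow N p)
    (fun k => Fermat.Agent.G_helper6_E2PLUG.PG_E2PLUG_exists N (p ^ k) (pow_pos hp.pos k)) hG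

end Fermat.Agent.S34_helper3_ENDP
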