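import Mathlib
import Fermat.Agent.S31_helper3_ASM
import Fermat.Agent.S34_helper3_ENDP

/-!
# S34, endgame, consumer half

`S34C_main`: the frozen statement S34 (unipotent inertia at the primes `q ≠ p` exactly dividing
the level) from the geometric input

  (G34)  `(s - 1) ^ 2 = 0` on `J₀(N)(ℚ̄)[p ^ k]` for every inertia element `s` at `q`.

The trace of `ρ s` is `2` by the Hecke congruence mechanism of S31 (`S34P_main`), Frobenius
density and adic continuity; the determinant is `1` because `s ^ 2` is an inertia element as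
well and `tr (f ^ 2) = (tr f) ^ 2 - 2 det f` on a free module of rank two (`2` is a
non-zero-divisor of `T`).
-/

set_option autoImplicit false
set_option linter.style.haveILetI false
set_option linter.unusedSectionVars false

open IsLocalRing Polynomial

namespace Fermat.Agent.S34_helper3_ENDC

open Fermat.Agent.S31_helper3_Defs Fermat.Agent.S31_helper3_TR Fermat.Agent.S31_helper3_ASM
open Fermat.Agent.S34_helper3_ENDP

local notation "Qb" => AlgebraicClosure ℚ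
local notation "GQ" => (AlgebraicClosure ℚ ≃ₐ[ℚ] AlgebraicClosure ℚ)

section Rank2

variable {T : Type*} [CommRing T] {V : Type*} [AddCommGroup V] [Module T V]
  [Module.Free T V] [Module.Finite T V]

/-- The characteristic polynomial of an endomorphism of a free module of rank two. -/
theorem S34C_charpoly_eq (hV : Module.finrank T V = 2) (f : Module.End T V) :
    LinearMap.charpoly f = X ^ 2 - C (LinearMap.trace T V f) * X + C (LinearMap.det f) := by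
  classical
  by_cases hT : Nontrivial T
  · let b : Module.Basis (Fin 2) T V := Module.finBasisOfFinrankEq T V hV
    rw [← LinearMap.charpoly_toMatrix f b, Matrix.charpoly_fin_two,
      LinearMap.trace_eq_matrix_trace T b, ← LinearMap.det_toMatrix b]
  · haveI : Subsingleton T := not_nontrivial_iff_subsingleton.mp hT
    exact Subsingleton.elim _ _

/-- `tr (f ^ 2) = (tr f) ^ 2 - 2 det f` in rank two. -/
theorem S34C_trace_sq (hV : Module.finrank T V = 2) (f : Module.End T V) :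
    LinearMap.trace T V (f ^ 2) =
      LinearMap.trace T V f ^ 2 - 2 * LinearMap.det f := by
  have h := S31TR_sq_eq f _ _ (S34C_charpoly_eq hV f)
  rw [h, map_sub, map_smul, map_smul, LinearMap.trace_one, hV, smul_eq_mul, smul_eq_mul]
  push_cast
  ring

/-- If the traces of `f` and `f ^ 2` are `2` and `2` is a non-zero-divisor, then the
characteristic polynomial of `f` is `(X - 1) ^ 2`. -/
theorem S34C_charpoly_of_trace (hV : Module.finrank T V = 2) (f : Module.End T V)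
    (h2 : ∀ x : T, 2 * x = 0 → x = 0)
    (h1 : LinearMap.trace T V f = 2) (hsq : LinearMap.trace T V (f ^ 2) = 2) :
    LinearMap.charpoly f = (X - 1) ^ 2 := by
  have h := S34C_trace_sq hV f
  rw [h1, hsq] at h
  have hdet : LinearMap.det f = 1 := by
    have : 2 * (LinearMap.det f - 1) = 0 := by
      have e : (2 : T) * (LinearMap.det f - 1) = 2 ^ 2 - 2 - (2 ^ 2 - 2 * LinearMap.det f) := by
        ring
      rw [e, ← h]
      ring
    exact sub_eq_zero.mp (h2 _ this)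
  rw [S34C_charpoly_eq hV f, h1, hdet, map_ofNat, map_one]
  ring

end Rank2

variable {p : ℕ} {N : ℕ} [NeZero N] {S : Finset ℕ}
  {𝒪 : Type} [CommRing 𝒪] [IsDomain 𝒪] [IsDiscreteValuationRing 𝒪]
  [IsAdicComplete (IsLocalRing.maximalIdeal 𝒪) 𝒪]
  {θ : CuspForm.heckeAlgebra N 2 (↑S : Set ℕ) →+* IsLocalRing.ResidueField 𝒪}
  {T : Type} [CommRing T] [IsLocalRing T] [IsNoetherianRing T]
  [IsAdicComplete (IsLocalRing.maximalIdeal T) T] [Algebra 𝒪 T] [IsLocalHom (algebraMap 𝒪 T)]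
  [Module.Finite 𝒪 T] [Module.Free 𝒪 T]

/-- `2` is a non-zero-divisor of `T` (a free module over the domain `𝒪` of characteristic
zero). -/
theorem S34C_two_mul [CharZero 𝒪] (x : T) (h : 2 * x = 0) : x = 0 := by
  have h' : (2 : 𝒪) • x = 0 := by
    rw [Algebra.smul_def, map_ofNat]
    exact h
  have h0 : (2 : 𝒪) ≠ 0 := two_ne_zero
  let b := Module.Free.chooseBasis 𝒪 T
  apply b.repr.injective
  rw [map_zero]
  ext i
  have h3 := congrArg (fun y => b.repr y i) h'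
  simp only [map_smul, Finsupp.smul_apply, smul_eq_mul, map_zero, Finsupp.zero_apply] at h3
  rcases mul_eq_zero.mp h3 with h4 | h4
  · exact absurd h4 h0
  · simpa using h4

/-- **The trace of an inertia element is `2`**, from the Hecke congruences. -/
theorem S34C_trace_eq_two (hp𝒪 : (p : 𝒪) ∈ IsLocalRing.maximalIdeal 𝒪)
    (hNS : ∀ q : ℕ, q.Prime → q ∣ N → q ∈ S)
    (H : CuspForm.HeckeGaloisRepDatum N (↑S : Set ℕ) 𝒪 θ T) (q : ℕ)
    (hHC : ∀ n : ℕ, ∃ L : IntermediateField ℚ Qb, FiniteDimensional ℚ L ∧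
      ∀ (ℓ : ℕ) (hℓ : ℓ.Prime) (hℓN : ¬ ℓ ∣ N) (hℓS : ℓ ∉ (↑S : Set ℕ))
        (A : ValuationSubring Qb) (F : GQ) (b : ℕ), A.LiesOverPrime ℓ → A.IsFrobeniusAt F ℓ →
        ∀ (A' : ValuationSubring Qb) (s : GQ), A'.LiesOverPrime q →
          s ∈ A'.inertiaSubgroupIn ℚ → (∀ x ∈ L, s x = (F ^ b) x) →
          (∃ t : CuspForm.heckeAlgebra N 2 (↑S : Set ℕ),
            S31_dick (CuspForm.heckeAlgebra.T hℓ hℓN hℓS : CuspForm.heckeAlgebra N 2 (↑S : Set ℕ))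
                ((ℓ : ℕ) : CuspForm.heckeAlgebra N 2 (↑S : Set ℕ)) b - 2
              = ((p ^ n : ℕ) : CuspForm.heckeAlgebra N 2 (↑S : Set ℕ)) * t) ∧
          (∃ z : ℤ, (ℓ : ℤ) ^ b - 1 = (p ^ n : ℤ) * z))
    (A' : ValuationSubring Qb) (hA' : A'.LiesOverPrime q) (s : GQ)
    (hs : s ∈ A'.inertiaSubgroupIn ℚ) :
    LinearMap.trace T H.ρ.V (H.ρ.ρ s) = 2 := by
  have hH : IsHausdorff (IsLocalRing.maximalIdeal T) T := inferInstance
  rw [← sub_eq_zero]
  apply hH.haus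
  intro n
  rw [SModEq.zero, smul_eq_mul, Ideal.mul_top]
  obtain ⟨L1, hL1fd, hL1⟩ := H.ρ.isAdicContinuous n
  obtain ⟨L2, hL2fd, hL2⟩ := hHC n
  haveI := hL1fd
  haveI := hL2fd
  haveI : FiniteDimensional ℚ (L1 ⊔ L2 : IntermediateField ℚ (AlgebraicClosure ℚ)) :=
    IntermediateField.finiteDimensional_sup L1 L2
  obtain ⟨ℓ, A₁, F, b, hℓ, hℓS, hA₁, hF, hFg⟩ :=
    Fermat.Agent.G_helper9_FROBDENS.PG_frobenius_density (L1 ⊔ L2) s S
  have hℓN : ¬ ℓ ∣ N := fun h => hℓS (hNS ℓ hℓ h)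
  have hℓS' : ℓ ∉ (↑S : Set ℕ) := fun h => hℓS (Finset.mem_coe.mp h)
  obtain ⟨⟨t, ht⟩, -⟩ := hL2 ℓ hℓ hℓN hℓS' A₁ F b hA₁ hF A' s hA' hs
    (fun x hx => hFg x ((le_sup_right : L2 ≤ L1 ⊔ L2) hx))
  have c1 := S31ASM_trace_congr H.ρ n L1 hL1 s (F ^ b)
    (fun x hx => hFg x ((le_sup_left : L1 ≤ L1 ⊔ L2) hx))
  rw [S31ASM_trace_frob H ℓ hℓ hℓN hℓS' A₁ hA₁ F hF b] at c1
  have c3 : H.π (S31_dick (CuspForm.heckeAlgebra.T hℓ hℓN hℓS' :
        CuspForm.heckeAlgebra N 2 (↑S : Set ℕ))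
        ((ℓ : ℕ) : CuspForm.heckeAlgebra N 2 (↑S : Set ℕ)) b) - 2 ∈
      IsLocalRing.maximalIdeal T ^ n := by
    have e : H.π (S31_dick (CuspForm.heckeAlgebra.T hℓ hℓN hℓS' :
        CuspForm.heckeAlgebra N 2 (↑S : Set ℕ))
        ((ℓ : ℕ) : CuspForm.heckeAlgebra N 2 (↑S : Set ℕ)) b) - 2 =
        H.π (S31_dick (CuspForm.heckeAlgebra.T hℓ hℓN hℓS' :
        CuspForm.heckeAlgebra N 2 (↑S : Set ℕ))
        ((ℓ : ℕ) : CuspForm.heckeAlgebra N 2 (↑S : Set ℕ)) b - 2) := by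
      rw [map_sub, map_ofNat]
    rw [e, ht, map_mul, map_natCast, Nat.cast_pow]
    exact Ideal.mul_mem_right _ _ (Ideal.pow_mem_pow (S31ASM_p_mem hp𝒪) n)
  have key : LinearMap.trace T H.ρ.V (H.ρ.ρ s) - 2 =
      -(H.π (S31_dick (CuspForm.heckeAlgebra.T hℓ hℓN hℓS' :
        CuspForm.heckeAlgebra N 2 (↑S : Set ℕ))
        ((ℓ : ℕ) : CuspForm.heckeAlgebra N 2 (↑S : Set ℕ)) b)
        - LinearMap.trace T H.ρ.V (H.ρ.ρ s))
      + (H.π (S31_dick (CuspForm.heckeAlgebra.T hℓ hℓN hℓS' :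
        CuspForm.heckeAlgebra N 2 (↑S : Set ℕ))
        ((ℓ : ℕ) : CuspForm.heckeAlgebra N 2 (↑S : Set ℕ)) b) - 2) := by
    ring
  rw [key]
  exact Ideal.add_mem _ (neg_mem c1) c3

/-- **S34 from the Hecke congruences at the inertia elements.** -/
theorem S34C_of_HC [CharZero 𝒪] (hp𝒪 : (p : 𝒪) ∈ IsLocalRing.maximalIdeal 𝒪)
    (hNS : ∀ q : ℕ, q.Prime → q ∣ N → q ∈ S)
    (H : CuspForm.HeckeGaloisRepDatum N (↑S : Set ℕ) 𝒪 θ T) (q : ℕ)
    (hHC : ∀ n : ℕ, ∃ L : IntermediateField ℚ Qb, FiniteDimensional ℚ L ∧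
      ∀ (ℓ : ℕ) (hℓ : ℓ.Prime) (hℓN : ¬ ℓ ∣ N) (hℓS : ℓ ∉ (↑S : Set ℕ))
        (A : ValuationSubring Qb) (F : GQ) (b : ℕ), A.LiesOverPrime ℓ → A.IsFrobeniusAt F ℓ →
        ∀ (A' : ValuationSubring Qb) (s : GQ), A'.LiesOverPrime q →
          s ∈ A'.inertiaSubgroupIn ℚ → (∀ x ∈ L, s x = (F ^ b) x) →
          (∃ t : CuspForm.heckeAlgebra N 2 (↑S : Set ℕ),
            S31_dick (CuspForm.heckeAlgebra.T hℓ hℓN hℓS : CuspForm.heckeAlgebra N 2 (↑S : Set ℕ))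
                ((ℓ : ℕ) : CuspForm.heckeAlgebra N 2 (↑S : Set ℕ)) b - 2
              = ((p ^ n : ℕ) : CuspForm.heckeAlgebra N 2 (↑S : Set ℕ)) * t) ∧
          (∃ z : ℤ, (ℓ : ℤ) ^ b - 1 = (p ^ n : ℤ) * z)) :
    H.ρ.IsUnipotentOnInertiaAt q := by
  intro A hA s hs
  have h1 := S34C_trace_eq_two hp𝒪 hNS H q hHC A hA s hs
  have h2 := S34C_trace_eq_two hp𝒪 hNS H q hHC A hA (s * s) (mul_mem hs hs)
  rw [map_mul, ← sq] at h2
  exact S34C_charpoly_of_trace H.ρ.finrank_eq (H.ρ.ρ s)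
    (fun x hx => S34C_two_mul (𝒪 := 𝒪) x hx) h1 h2

/-- **S34 from (G34)**: the binders of the frozen statement, plus the geometric input. -/
theorem S34C_main [CharZero 𝒪] (hp : p.Prime) (hp𝒪 : (p : 𝒪) ∈ IsLocalRing.maximalIdeal 𝒪)
    (hpS : p ∈ S) (hNS : ∀ q : ℕ, q.Prime → q ∣ N → q ∈ S)
    (H : CuspForm.HeckeGaloisRepDatum N (↑S : Set ℕ) 𝒪 θ T)
    (q : ℕ) (hq : q.Prime) (hqp : q ≠ p)
    (hG : ∀ (k : ℕ) (A : ValuationSubring Qb), A.LiesOverPrime q →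
      ∀ s ∈ A.inertiaSubgroupIn ℚ, ∀ x : ModularCurve.JZero N, (p ^ k) • x = 0 →
        s • (s • x) - (2 : ℤ) • (s • x) + x = 0) :
    H.ρ.IsUnipotentOnInertiaAt q :=
  S34C_of_HC hp𝒪 hNS H q (S34P_main N S p q hp hpS hNS hq hqp hG)

end Fermat.Agent.S34_helper3_ENDC
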