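import Mathlib
import Fermat.Agent.S34_helper3_ENDC
import Fermat.Agent.S34_helper6_RED

/-!
# S34, endgame: the frozen statement from the contract with the geometry

`S34F_of_key`: the binders of the frozen statement S34 (the hypotheses `q ∣ N`, `¬ q ^ 2 ∣ N`
are only used by the geometry) plus the divisor-level contract `S34R_Key N p q` of
`S34_helper6_RED`.  So the final file is

  `theorem result … := S34F_of_key hp hp𝒪 hpS hNS H q hq hqp (<geometry> : S34R_Key N p q)`.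
-/

set_option autoImplicit false

open IsLocalRing

namespace Fermat.Agent.S34_helper3_ENDF

variable {p : ℕ} {N : ℕ} [NeZero N] {S : Finset ℕ}
  {𝒪 : Type} [CommRing 𝒪] [IsDomain 𝒪] [IsDiscreteValuationRing 𝒪]
  [IsAdicComplete (IsLocalRing.maximalIdeal 𝒪) 𝒪]
  {θ : CuspForm.heckeAlgebra N 2 (↑S : Set ℕ) →+* IsLocalRing.ResidueField 𝒪}
  {T : Type} [CommRing T] [IsLocalRing T] [IsNoetherianRing T]
  [IsAdicComplete (IsLocalRing.maximalIdeal T) T] [Algebra 𝒪 T] [IsLocalHom (algebraMap 𝒪 T)]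
  [Module.Finite 𝒪 T] [Module.Free 𝒪 T]

/-- **S34 from the contract with the geometry.** -/
theorem S34F_of_key [CharZero 𝒪] (hp : p.Prime) (hp𝒪 : (p : 𝒪) ∈ IsLocalRing.maximalIdeal 𝒪)
    (hpS : p ∈ S) (hNS : ∀ q : ℕ, q.Prime → q ∣ N → q ∈ S)
    (H : CuspForm.HeckeGaloisRepDatum N (↑S : Set ℕ) 𝒪 θ T)
    (q : ℕ) (hq : q.Prime) (hqp : q ≠ p)
    (hKey : Fermat.Agent.S34_helper6_RED.S34R_Key N p q) :
    H.ρ.IsUnipotentOnInertiaAt q :=
  Fermat.Agent.S34_helper3_ENDC.S34C_main hp hp𝒪 hpS hNS H q hq hqp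
    (Fermat.Agent.S34_helper6_RED.S34R_G34 p q hp hKey)

end Fermat.Agent.S34_helper3_ENDF
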