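import Mathlib
import Fermat.Agent.S34_helper3_ENDF
import Fermat.Agent.S34_helper12_XDAD

/-!
# S34: the final plug, tested against the two top contracts

`S34FIN_of` : the conclusion of S34 (binders of the frozen statement) from

* `hkey`  : a theorem of the shape of helper25's `S34XD_key`
  (`S34XD_Contract N p q → S34R_Key N p q`), and
* `hgeom` : the owner's geometric contract `S34K_GeomHolds3 N' q p`.

`S34FIN_of'` : the same from the owner's `S34K_XD3` and `S34K_GeomHolds3`.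
-/

set_option autoImplicit false

open IsLocalRing
open CuspForm CuspForm.HeckeGaloisRepDatum

namespace Fermat.Agent.S34_helper12_FIN

open Fermat.Agent.S34_Contracts Fermat.Agent.S34_helper25_Defs Fermat.Agent.S34_helper6_RED
  Fermat.Agent.S34_helper12_XDAD

/-- `q ∥ N`: `N = N' * q` with `q ∤ N'`. -/
theorem S34FIN_split {N q : ℕ} (_hq : q.Prime) (hqN : q ∣ N) (hq2 : ¬ q ^ 2 ∣ N) :
    ∃ N' : ℕ, N = N' * q ∧ ¬ q ∣ N' := by
  refine ⟨N / q, (Nat.div_mul_cancel hqN).symm, ?_⟩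
  intro h
  apply hq2
  have h1 : q * q ∣ N / q * q := mul_dvd_mul_right h q
  rw [Nat.div_mul_cancel hqN] at h1
  rw [pow_two]
  exact h1

/-- **The final plug from the owner's contracts.** -/
theorem S34FIN_of'
    (hXD : ∀ (N' q p : ℕ) [NeZero (N' * q)], S34K_XD3 N' q p)
    (hgeom : ∀ (N' q p : ℕ) [NeZero (N' * q)], S34K_GeomHolds3 N' q p)
    {𝒪 : Type} [CommRing 𝒪] [IsDomain 𝒪] [IsDiscreteValuationRing 𝒪]
    [IsAdicComplete (maximalIdeal 𝒪) 𝒪] [Finite (ResidueField 𝒪)] [CharZero 𝒪]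
    {p : ℕ} (hp : p.Prime) (hp𝒪 : (p : 𝒪) ∈ maximalIdeal 𝒪)
    {N : ℕ} [NeZero N] {S : Finset ℕ} (hpS : p ∈ S) (hNS : ∀ q : ℕ, q.Prime → q ∣ N → q ∈ S)
    {θ : CuspForm.heckeAlgebra N 2 (↑S : Set ℕ) →+* ResidueField 𝒪}
    {T : Type} [CommRing T] [IsLocalRing T] [IsNoetherianRing T]
    [IsAdicComplete (maximalIdeal T) T] [Algebra 𝒪 T] [IsLocalHom (algebraMap 𝒪 T)]
    [Module.Finite 𝒪 T] [Module.Free 𝒪 T]
    (H : CuspForm.HeckeGaloisRepDatum N (↑S : Set ℕ) 𝒪 θ T)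
    (q : ℕ) (hq : q.Prime) (hqp : q ≠ p) (hqN : q ∣ N) (hq2 : ¬ q ^ 2 ∣ N) :
    H.ρ.IsUnipotentOnInertiaAt q := by
  obtain ⟨N', hN', hqN'⟩ := S34FIN_split hq hqN hq2
  subst hN'
  exact Fermat.Agent.S34_helper3_ENDF.S34F_of_key hp hp𝒪 hpS hNS H q hq hqp
    (hXD N' q p hq hp hqp.symm hqN' (hgeom N' q p hq hp hqp.symm hqN'))

/-- **The final plug from helper25's key theorem and the owner's geometric contract.** -/
theorem S34FIN_of
    (hkey : ∀ (N p q : ℕ) [NeZero N], p.Prime → q.Prime → p ≠ q →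
      S34XD_Contract N p q → S34R_Key N p q)
    (hgeom : ∀ (N' q p : ℕ) [NeZero (N' * q)], S34K_GeomHolds3 N' q p)
    {𝒪 : Type} [CommRing 𝒪] [IsDomain 𝒪] [IsDiscreteValuationRing 𝒪]
    [IsAdicComplete (maximalIdeal 𝒪) 𝒪] [Finite (ResidueField 𝒪)] [CharZero 𝒪]
    {p : ℕ} (hp : p.Prime) (hp𝒪 : (p : 𝒪) ∈ maximalIdeal 𝒪)
    {N : ℕ} [NeZero N] {S : Finset ℕ} (hpS : p ∈ S) (hNS : ∀ q : ℕ, q.Prime → q ∣ N → q ∈ S)
    {θ : CuspForm.heckeAlgebra N 2 (↑S : Set ℕ) →+* ResidueField 𝒪}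
    {T : Type} [CommRing T] [IsLocalRing T] [IsNoetherianRing T]
    [IsAdicComplete (maximalIdeal T) T] [Algebra 𝒪 T] [IsLocalHom (algebraMap 𝒪 T)]
    [Module.Finite 𝒪 T] [Module.Free 𝒪 T]
    (H : CuspForm.HeckeGaloisRepDatum N (↑S : Set ℕ) 𝒪 θ T)
    (q : ℕ) (hq : q.Prime) (hqp : q ≠ p) (hqN : q ∣ N) (hq2 : ¬ q ^ 2 ∣ N) :
    H.ρ.IsUnipotentOnInertiaAt q :=
  S34FIN_of' (fun N' q p _ => S34AD_XD3 N' q p (hkey (N' * q) p q)) hgeom hp hp𝒪 hpS hNS H q hq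
    hqp hqN hq2

end Fermat.Agent.S34_helper12_FIN
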