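import Mathlib

/-!
# S34, piece X-LOCGEN-ORD (abstract core): exact orders at a horizontal prime (Mathlib only)

`R` is a subring-like domain with fraction field `F`, `φ : R → Ω` a "value map" and
`v : F → ℤ` an order function which is nonnegative on `R` and positive exactly on the kernel of
`φ`.  Assume that the kernel of `φ` is generated by `g` up to an element `a` with `φ a ≠ 0`
(`hunif`; this is the conclusion of `S34UH_unif`).  Then

* `S34LO_decomp` : every `r ≠ 0` in `R` satisfies `a ^ k * r = u * g ^ k` with `φ u ≠ 0`;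
* `S34LO_ord_eq` : `v r = k * v g`;
* `S34LO_ord_eq_one` : if `v` takes the value `1` then `v g = 1`;
* `S34LO_mem_of_nonneg` : a valuation subring `V'` of `F` containing `R`, in which the nonzero
  constants are units and `g` is a nonunit, contains every `y` with `0 ≤ v y`.
-/

set_option autoImplicit false
set_option linter.unusedSectionVars false
set_option linter.style.haveILetI false

namespace Fermat.Agent.S34_helper26_ORD

section Core

variable {F : Type*} [Field F] {R : Type*} [CommRing R] [Algebra R F]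
  {Ω : Type*} [CommRing Ω] [IsDomain Ω]

/-- The hypotheses on the order function `v` with respect to the value map `φ`. -/
structure S34LO_Ord (φ : R →+* Ω) (v : F → ℤ) : Prop where
  inj : Function.Injective (algebraMap R F)
  mul : ∀ x y : F, x ≠ 0 → y ≠ 0 → v (x * y) = v x + v y
  nonneg : ∀ r : R, r ≠ 0 → 0 ≤ v (algebraMap R F r)
  pos : ∀ r : R, r ≠ 0 → (0 < v (algebraMap R F r) ↔ φ r = 0)

variable {φ : R →+* Ω} {v : F → ℤ}

theorem S34LO_Ord.map_ne_zero (H : S34LO_Ord φ v) {r : R} (hr : r ≠ 0) :
    algebraMap R F r ≠ 0 := fun h => hr (H.inj (by rw [h, map_zero]))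

theorem S34LO_Ord.one (H : S34LO_Ord φ v) : v 1 = 0 := by
  have h := H.mul 1 1 one_ne_zero one_ne_zero
  rw [mul_one] at h
  linarith

theorem S34LO_Ord.pow (H : S34LO_Ord φ v) {x : F} (hx : x ≠ 0) (k : ℕ) :
    v (x ^ k) = k * v x := by
  induction k with
  | zero => simp [H.one]
  | succ k ih =>
    rw [pow_succ, H.mul _ _ (pow_ne_zero k hx) hx, ih]
    push_cast
    ring

theorem S34LO_Ord.inv (H : S34LO_Ord φ v) {x : F} (hx : x ≠ 0) : v x⁻¹ = - v x := by
  have h := H.mul x x⁻¹ hx (inv_ne_zero hx)
  rw [mul_inv_cancel₀ hx, H.one] at h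
  linarith

/-- An element with nonzero value has order `0`. -/
theorem S34LO_Ord.eq_zero (H : S34LO_Ord φ v) {r : R} (hr : φ r ≠ 0) :
    v (algebraMap R F r) = 0 := by
  have hr0 : r ≠ 0 := by
    rintro rfl
    exact hr (map_zero φ)
  have h1 := H.nonneg r hr0
  have h2 : ¬ 0 < v (algebraMap R F r) := fun h => hr ((H.pos r hr0).mp h)
  omega

theorem S34LO_Ord.isDomain (H : S34LO_Ord φ v) : IsDomain R :=
  H.inj.isDomain (algebraMap R F)

/-- **Decomposition**: `a ^ k * r = u * g ^ k` with `φ u ≠ 0`. -/
theorem S34LO_decomp (H : S34LO_Ord φ v) {a g : R} (ha : φ a ≠ 0) (hg : φ g = 0)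
    (hunif : ∀ x : R, φ x = 0 → ∃ r : R, a * x = r * g) :
    ∀ r : R, r ≠ 0 → ∃ (k : ℕ) (u : R), φ u ≠ 0 ∧ a ^ k * r = u * g ^ k := by
  haveI := H.isDomain
  have ha0 : a ≠ 0 := by
    rintro rfl
    exact ha (map_zero φ)
  have key : ∀ n : ℕ, ∀ r : R, r ≠ 0 → v (algebraMap R F r) ≤ n →
      ∃ (k : ℕ) (u : R), φ u ≠ 0 ∧ a ^ k * r = u * g ^ k := by
    intro n
    induction n with
    | zero =>
      intro r hr hn
      refine ⟨0, r, ?_, by simp⟩
      intro h0
      have := (H.pos r hr).mpr h0
      omega
    | succ n ih =>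
      intro r hr hn
      by_cases h0 : φ r = 0
      · obtain ⟨r1, hr1⟩ := hunif r h0
        have har : a * r ≠ 0 := mul_ne_zero ha0 hr
        have hr10 : r1 ≠ 0 := by
          rintro rfl
          rw [zero_mul] at hr1
          exact har hr1
        have hg0 : g ≠ 0 := by
          rintro rfl
          rw [mul_zero] at hr1
          exact har hr1
        have hvg : 0 < v (algebraMap R F g) := (H.pos g hg0).mpr hg
        have hva : v (algebraMap R F a) = 0 := H.eq_zero ha
        have h1 : v (algebraMap R F a) + v (algebraMap R F r)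
            = v (algebraMap R F r1) + v (algebraMap R F g) := by
          rw [← H.mul _ _ (H.map_ne_zero ha0) (H.map_ne_zero hr),
            ← H.mul _ _ (H.map_ne_zero hr10) (H.map_ne_zero hg0), ← map_mul, ← map_mul, hr1]
        have h2 : v (algebraMap R F r1) ≤ n := by
          push_cast at hn
          omega
        obtain ⟨k, u, hu, hk⟩ := ih r1 hr10 h2
        refine ⟨k + 1, u, hu, ?_⟩
        calc a ^ (k + 1) * r = a ^ k * (a * r) := by ring
          _ = a ^ k * (r1 * g) := by rw [hr1]
          _ = (a ^ k * r1) * g := by ring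
          _ = (u * g ^ k) * g := by rw [hk]
          _ = u * g ^ (k + 1) := by ring
      · exact ⟨0, r, h0, by simp⟩
  intro r hr
  exact key (v (algebraMap R F r)).toNat r hr (Int.self_le_toNat _)

/-- The order of `r` is the multiple `k * v g` given by the decomposition. -/
theorem S34LO_ord_eq_of_decomp (H : S34LO_Ord φ v) {a g r u : R} {k : ℕ} (ha : φ a ≠ 0)
    (hr : r ≠ 0) (hu : φ u ≠ 0) (hk : a ^ k * r = u * g ^ k) :
    v (algebraMap R F r) = k * v (algebraMap R F g) := by
  haveI := H.isDomain
  have ha0 : a ≠ 0 := by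
    rintro rfl
    exact ha (map_zero φ)
  have hu0 : u ≠ 0 := by
    rintro rfl
    exact hu (map_zero φ)
  have hak : a ^ k ≠ 0 := pow_ne_zero k ha0
  have hgk : g ^ k ≠ 0 := by
    intro h
    rw [h, mul_zero] at hk
    exact mul_ne_zero hak hr hk
  have h1 : v (algebraMap R F (a ^ k)) + v (algebraMap R F r)
      = v (algebraMap R F u) + v (algebraMap R F (g ^ k)) := by
    rw [← H.mul _ _ (H.map_ne_zero hak) (H.map_ne_zero hr),
      ← H.mul _ _ (H.map_ne_zero hu0) (H.map_ne_zero hgk), ← map_mul, ← map_mul, hk]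
  have h2 : v (algebraMap R F (a ^ k)) = 0 := by
    apply H.eq_zero
    rw [map_pow]
    exact pow_ne_zero k ha
  have h3 : v (algebraMap R F u) = 0 := H.eq_zero hu
  have h4 : v (algebraMap R F (g ^ k)) = k * v (algebraMap R F g) := by
    by_cases hk0 : k = 0
    · subst hk0
      simp [H.one]
    · have hg0 : g ≠ 0 := by
        rintro rfl
        exact hgk (zero_pow hk0)
      rw [map_pow]
      exact H.pow (H.map_ne_zero hg0) k
  omega

/-- Every order on `R` is a multiple of the order of `g`. -/
theorem S34LO_ord_eq (H : S34LO_Ord φ v) {a g : R} (ha : φ a ≠ 0) (hg : φ g = 0)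
    (hunif : ∀ x : R, φ x = 0 → ∃ r : R, a * x = r * g) (r : R) (hr : r ≠ 0) :
    ∃ k : ℕ, v (algebraMap R F r) = k * v (algebraMap R F g) := by
  obtain ⟨k, u, hu, hk⟩ := S34LO_decomp H ha hg hunif r hr
  exact ⟨k, S34LO_ord_eq_of_decomp H ha hr hu hk⟩

/-- **Simple zero**: if the order function takes the value `1` on `F = Frac R`, then `g` has
order `1` (and `g ≠ 0`). -/
theorem S34LO_ord_eq_one (H : S34LO_Ord φ v) {a g : R} (ha : φ a ≠ 0) (hg : φ g = 0)
    (hunif : ∀ x : R, φ x = 0 → ∃ r : R, a * x = r * g)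
    (hfrac : ∀ y : F, ∃ r s : R, s ≠ 0 ∧ y * algebraMap R F s = algebraMap R F r)
    (t : F) (ht0 : t ≠ 0) (ht : v t = 1) :
    g ≠ 0 ∧ v (algebraMap R F g) = 1 := by
  haveI := H.isDomain
  obtain ⟨r, s, hs, hrs⟩ := hfrac t
  have hs' := H.map_ne_zero hs
  have hr : r ≠ 0 := by
    rintro rfl
    rw [map_zero] at hrs
    exact mul_ne_zero ht0 hs' hrs
  obtain ⟨kr, hkr⟩ := S34LO_ord_eq H ha hg hunif r hr
  obtain ⟨ks, hks⟩ := S34LO_ord_eq H ha hg hunif s hs
  have h1 : v t + v (algebraMap R F s) = v (algebraMap R F r) := by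
    rw [← H.mul _ _ ht0 hs', hrs]
  have h2 : ((kr : ℤ) - ks) * v (algebraMap R F g) = 1 := by
    rw [sub_mul, ← hkr, ← hks]
    omega
  have hg0 : g ≠ 0 := by
    rintro rfl
    have h3 : ∀ x : R, x ≠ 0 → v (algebraMap R F x) = 0 := by
      intro x hx
      apply H.eq_zero
      intro h0
      obtain ⟨r', hr'⟩ := hunif x h0
      rw [mul_zero] at hr'
      have ha0 : a ≠ 0 := by
        rintro rfl
        exact ha (map_zero φ)
      exact mul_ne_zero ha0 hx hr'
    rw [h3 r hr, h3 s hs] at h1
    omega
  refine ⟨hg0, ?_⟩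
  have h3 : 0 ≤ v (algebraMap R F g) := H.nonneg g hg0
  rcases Int.eq_one_or_neg_one_of_mul_eq_one h2 with h | h
  · rw [h, one_mul] at h2
    exact h2
  · rw [h] at h2
    omega

end Core

section Le

variable {F : Type*} [Field F] {R : Type*} [CommRing R] [Algebra R F]
  {O : Type*} [CommRing O] [IsDomain O] [Algebra O R]

/-- In a valuation subring, an element of `R` whose value is nonzero is a unit, as soon as the
nonzero constants are units and the kernel of `φ` consists of nonunits. -/
theorem S34LO_unit_of_value (φ : R →ₐ[O] O) (V' : ValuationSubring F)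
    (hconst : ∀ o : O, o ≠ 0 → V'.valuation (algebraMap R F (algebraMap O R o)) = 1)
    (hker : ∀ x : R, φ x = 0 → V'.valuation (algebraMap R F x) < 1)
    (u : R) (hu : φ u ≠ 0) : V'.valuation (algebraMap R F u) = 1 := by
  have h1 : φ (u - algebraMap O R (φ u)) = 0 := by
    rw [map_sub, φ.commutes]
    exact sub_self _
  have h2 := hker _ h1
  have h3 := hconst _ hu
  have h4 : algebraMap R F u
      = algebraMap R F (algebraMap O R (φ u)) + algebraMap R F (u - algebraMap O R (φ u)) := by
    rw [← map_add]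
    congr 1
    ring
  rw [h4, Valuation.map_add_eq_of_lt_left _ (by rw [h3]; exact h2), h3]

/-- The kernel of `φ` consists of nonunits of `V'` as soon as `g` is a nonunit. -/
theorem S34LO_ker_nonunit (φ : R →ₐ[O] O) (V' : ValuationSubring F)
    (hR' : ∀ r : R, algebraMap R F r ∈ V')
    (hconst : ∀ o : O, o ≠ 0 → V'.valuation (algebraMap R F (algebraMap O R o)) = 1)
    {a : O} (ha : a ≠ 0) {g : R}
    (hunif : ∀ x : R, φ x = 0 → ∃ r : R, algebraMap O R a * x = r * g)
    (hg' : V'.valuation (algebraMap R F g) < 1)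
    (x : R) (hx : φ x = 0) : V'.valuation (algebraMap R F x) < 1 := by
  obtain ⟨r, hr⟩ := hunif x hx
  have h1 : V'.valuation (algebraMap R F (algebraMap O R a)) * V'.valuation (algebraMap R F x)
      = V'.valuation (algebraMap R F r) * V'.valuation (algebraMap R F g) := by
    rw [← map_mul, ← map_mul, ← map_mul, ← map_mul, hr]
  rw [hconst a ha, one_mul] at h1
  rw [h1]
  have h2 : V'.valuation (algebraMap R F r) ≤ 1 :=
    (ValuationSubring.valuation_le_one_iff V' _).mpr (hR' r)
  calc V'.valuation (algebraMap R F r) * V'.valuation (algebraMap R F g)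
      ≤ 1 * V'.valuation (algebraMap R F g) := mul_le_mul_left h2 _
    _ = V'.valuation (algebraMap R F g) := one_mul _
    _ < 1 := hg'

/-- **Comparison of the two valuation rings**: every `y` with `0 ≤ v y` lies in `V'`. -/
theorem S34LO_mem_of_nonneg (φ : R →ₐ[O] O) {v : F → ℤ}
    (H : S34LO_Ord (φ : R →+* O) v)
    (hfrac : ∀ y : F, ∃ r s : R, s ≠ 0 ∧ y * algebraMap R F s = algebraMap R F r)
    {a : O} (ha : a ≠ 0) {g : R} (hg : φ g = 0)
    (hunif : ∀ x : R, φ x = 0 → ∃ r : R, algebraMap O R a * x = r * g)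
    (V' : ValuationSubring F)
    (hR' : ∀ r : R, algebraMap R F r ∈ V')
    (hconst : ∀ o : O, o ≠ 0 → V'.valuation (algebraMap R F (algebraMap O R o)) = 1)
    (hg' : V'.valuation (algebraMap R F g) < 1)
    (y : F) (hy : 0 ≤ v y) : y ∈ V' := by
  haveI := H.isDomain
  by_cases hy0 : y = 0
  · rw [hy0]
    exact V'.zero_mem
  have haφ : (φ : R →+* O) (algebraMap O R a) ≠ 0 := by
    show φ (algebraMap O R a) ≠ 0
    rw [φ.commutes]
    exact ha
  have hgφ : (φ : R →+* O) g = 0 := hg
  have hunif' : ∀ x : R, (φ : R →+* O) x = 0 → ∃ r : R, algebraMap O R a * x = r * g :=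
    fun x hx => hunif x hx
  obtain ⟨r, s, hs, hrs⟩ := hfrac y
  have hs' := H.map_ne_zero hs
  have hr : r ≠ 0 := by
    rintro rfl
    rw [map_zero] at hrs
    exact mul_ne_zero hy0 hs' hrs
  obtain ⟨kr, ur, hur, hkr⟩ := S34LO_decomp H haφ hgφ hunif' r hr
  obtain ⟨ks, us, hus, hks⟩ := S34LO_decomp H haφ hgφ hunif' s hs
  have hvr := S34LO_ord_eq_of_decomp H haφ hr hur hkr
  have hvs := S34LO_ord_eq_of_decomp H haφ hs hus hks
  have h1 : v y + v (algebraMap R F s) = v (algebraMap R F r) := by
    rw [← H.mul _ _ hy0 hs', hrs]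
  have hker := S34LO_ker_nonunit φ V' hR' hconst ha hunif hg'
  have hunit := S34LO_unit_of_value φ V' hconst hker
  -- valuations in `V'`
  set w := V'.valuation with hw
  have hwa : w (algebraMap R F (algebraMap O R a)) = 1 := hconst a ha
  have hwur : w (algebraMap R F ur) ≤ 1 :=
    (ValuationSubring.valuation_le_one_iff V' _).mpr (hR' ur)
  have hwus : w (algebraMap R F us) = 1 := hunit us hus
  have hwg : w (algebraMap R F g) < 1 := hg'
  have hwr : w (algebraMap R F r) = w (algebraMap R F ur) * w (algebraMap R F g) ^ kr := by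
    have := congrArg (fun z => w (algebraMap R F z)) hkr
    simp only [map_mul, map_pow] at this
    rw [hwa, one_pow, one_mul] at this
    exact this
  have hws : w (algebraMap R F s) = w (algebraMap R F g) ^ ks := by
    have := congrArg (fun z => w (algebraMap R F z)) hks
    simp only [map_mul, map_pow] at this
    rw [hwa, one_pow, one_mul, hwus, one_mul] at this
    exact this
  have hwy : w y * w (algebraMap R F s) = w (algebraMap R F r) := by
    rw [← map_mul, hrs]
  rw [← ValuationSubring.valuation_le_one_iff, ← hw]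
  -- case distinction on the order of `g`
  by_cases hg0 : g = 0
  · -- then `φ` is injective and `s` is a unit of `V'`
    subst hg0
    have hks0 : ks = 0 := by
      by_contra hk
      rw [zero_pow hk, mul_zero] at hks
      have ha0 : algebraMap O R a ≠ 0 := by
        intro h
        apply haφ
        show φ (algebraMap O R a) = 0
        rw [h, map_zero]
      exact mul_ne_zero (pow_ne_zero ks ha0) hs hks
    rw [hks0, pow_zero] at hws
    rw [hws, mul_one] at hwy
    rw [hwy]
    exact (ValuationSubring.valuation_le_one_iff V' _).mpr (hR' r)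
  · have hvg : 0 < v (algebraMap R F g) := (H.pos g hg0).mpr hg
    have hle : ks ≤ kr := by
      have h2 : (ks : ℤ) * v (algebraMap R F g) ≤ kr * v (algebraMap R F g) := by
        rw [← hvr, ← hvs]
        omega
      have h3 := le_of_mul_le_mul_right h2 hvg
      exact_mod_cast h3
    have hwg0 : w (algebraMap R F g) ≠ 0 := by
      rw [Valuation.ne_zero_iff]
      exact H.map_ne_zero hg0
    have hwy' : w y = w (algebraMap R F ur) * w (algebraMap R F g) ^ (kr - ks) := by
      have h4 : w (algebraMap R F g) ^ ks ≠ 0 := pow_ne_zero _ hwg0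
      have h5 : w y * w (algebraMap R F g) ^ ks
          = (w (algebraMap R F ur) * w (algebraMap R F g) ^ (kr - ks))
            * w (algebraMap R F g) ^ ks := by
        calc w y * w (algebraMap R F g) ^ ks = w y * w (algebraMap R F s) := by rw [hws]
          _ = w (algebraMap R F ur) * w (algebraMap R F g) ^ kr := by rw [hwy, hwr]
          _ = w (algebraMap R F ur) * w (algebraMap R F g) ^ (kr - ks + ks) := by
              rw [Nat.sub_add_cancel hle]
          _ = (w (algebraMap R F ur) * w (algebraMap R F g) ^ (kr - ks))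
              * w (algebraMap R F g) ^ ks := by rw [pow_add, mul_assoc]
      exact mul_right_cancel₀ h4 h5
    rw [hwy']
    calc w (algebraMap R F ur) * w (algebraMap R F g) ^ (kr - ks)
        ≤ 1 * 1 := mul_le_mul' hwur (pow_le_one' hwg.le _)
      _ = 1 := one_mul 1

end Le

end Fermat.Agent.S34_helper26_ORD
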