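import Mathlib

/-!
# S34, piece P-UNIQ: places through a node, GENERAL `c` (Mathlib only)

Local ring `R` of an arithmetic surface at an ordinary double point of its special fibre:
the maximal ideal is `(π, X, Y)` and `X Y = π ^ k c` with `c` ARBITRARY (not assumed to be a
unit: no termination of the successive approximation, no thickness is needed).

Part A (approximation form; no localisation, no noetherian hypothesis): `R = O + (π, X, Y) R`.
* `S34U_approx`, `S34U_unique`, `S34U_unique_val` : two `O`-points `φ, ψ : R → A` with the same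
  value `a` at `X` coincide as soon as `π ^ k ∤ a`.
* `S34U_simple_D` : a bounded `O`-derivation at `φ` which kills `X` is zero (the zero of
  `X - a` at `φ` is simple).
* `S34U_rational` : if `π ^ k ∣ φ X` and `π ^ k ∣ φ Y` then all values of `φ` are congruent to
  elements of `O` modulo `π ^ k`.
* `S34U_harch_of_dvr`, `S34U_harch_of_rankOne`, `S34U_harch_c`, `S34U_harch_c1` : the
  archimedean hypothesis.

Part B (at the level of the point; `R` noetherian local, `φ : R →ₐ[O] O`):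
* `S34U_ker`, `S34U_key`, `S34U_simple`, `S34U_unique_node`.
-/

set_option autoImplicit false
set_option linter.unusedSectionVars false

namespace Fermat.Agent.S34_helper26_UNIQ

open Ideal IsLocalRing

section Approx

variable {O R A : Type*} [CommRing O] [CommRing R] [CommRing A] [Algebra O R] [Algebra O A]

/-- The ideal of `A` generated by the values of the generators `π, X, Y` of the maximal ideal
at the two points `φ`, `ψ` (which agree at `X`). -/
def S34U_c (π : O) (X Y : R) (φ ψ : R →ₐ[O] A) : Ideal A :=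
  Ideal.span {algebraMap O A π, φ X, φ Y, ψ Y}

theorem S34U_pi_mem_c (π : O) (X Y : R) (φ ψ : R →ₐ[O] A) :
    algebraMap O A π ∈ S34U_c π X Y φ ψ :=
  Ideal.subset_span (by simp)

theorem S34U_X_mem_c (π : O) (X Y : R) (φ ψ : R →ₐ[O] A) :
    φ X ∈ S34U_c π X Y φ ψ :=
  Ideal.subset_span (by simp)

theorem S34U_Y_mem_c (π : O) (X Y : R) (φ ψ : R →ₐ[O] A) :
    φ Y ∈ S34U_c π X Y φ ψ :=
  Ideal.subset_span (by simp)

theorem S34U_Y'_mem_c (π : O) (X Y : R) (φ ψ : R →ₐ[O] A) :
    ψ Y ∈ S34U_c π X Y φ ψ :=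
  Ideal.subset_span (by simp)

/-- Multiplying an element of `(d) + 𝔠 ^ M` by an element of `𝔠` lands in `(d) + 𝔠 ^ (M+1)`. -/
theorem S34U_mul_mem {d : A} {𝔠 : Ideal A} {M : ℕ} {x y : A} (hx : x ∈ 𝔠)
    (hy : y ∈ Ideal.span {d} ⊔ 𝔠 ^ M) : x * y ∈ Ideal.span {d} ⊔ 𝔠 ^ (M + 1) := by
  obtain ⟨u, hu, v, hv, rfl⟩ := Submodule.mem_sup.mp hy
  rw [mul_add]
  refine Submodule.add_mem_sup (Ideal.mul_mem_left _ _ hu) ?_
  rw [pow_succ']
  exact Ideal.mul_mem_mul hx hv

/-- **Approximation.** If `R = O + (π, X, Y) R` and the two `O`-points `φ`, `ψ` agree at `X`,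
then `φ f - ψ f ∈ (φ Y - ψ Y) + 𝔠 ^ M` for all `f` and all `M`. -/
theorem S34U_approx (π : O) (X Y : R)
    (hgen : ∀ r : R, ∃ (o : O) (r₁ r₂ r₃ : R),
      r = algebraMap O R o + algebraMap O R π * r₁ + X * r₂ + Y * r₃)
    (φ ψ : R →ₐ[O] A) (hX : φ X = ψ X) (M : ℕ) (f : R) :
    φ f - ψ f ∈ Ideal.span {φ Y - ψ Y} ⊔ (S34U_c π X Y φ ψ) ^ M := by
  induction M generalizing f with
  | zero => simp
  | succ M ih =>
    obtain ⟨o, r₁, r₂, r₃, rfl⟩ := hgen f
    have h1 := S34U_mul_mem (S34U_pi_mem_c π X Y φ ψ) (ih r₁)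
    have h2 := S34U_mul_mem (S34U_X_mem_c π X Y φ ψ) (ih r₂)
    have h3 := S34U_mul_mem (S34U_Y_mem_c π X Y φ ψ) (ih r₃)
    have h4 : (φ Y - ψ Y) * ψ r₃ ∈ Ideal.span {φ Y - ψ Y} ⊔ (S34U_c π X Y φ ψ) ^ (M + 1) :=
      Ideal.mem_sup_left (Ideal.mul_mem_right _ _ (Ideal.subset_span rfl))
    have key : φ (algebraMap O R o + algebraMap O R π * r₁ + X * r₂ + Y * r₃)
        - ψ (algebraMap O R o + algebraMap O R π * r₁ + X * r₂ + Y * r₃)
        = algebraMap O A π * (φ r₁ - ψ r₁) + φ X * (φ r₂ - ψ r₂) + φ Y * (φ r₃ - ψ r₃)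
          + (φ Y - ψ Y) * ψ r₃ := by
      simp only [map_add, map_mul, AlgHom.commutes]
      rw [← hX]
      ring
    rw [key]
    exact Ideal.add_mem _ (Ideal.add_mem _ (Ideal.add_mem _ h1 h2) h3) h4

/-- An element lying in all powers of a proper ideal `𝔠` of a domain, where the powers of `𝔠`
are cofinal among the nonzero principal ideals, is zero. -/
theorem S34U_eq_zero_of_forall_mem_pow [IsDomain A] {𝔠 : Ideal A}
    (harch : ∀ d : A, d ≠ 0 → ∃ M, 𝔠 ^ M ≤ Ideal.span {d}) (hproper : 𝔠 ≠ ⊤)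
    {x : A} (hx : ∀ M, x ∈ 𝔠 ^ M) : x = 0 := by
  by_contra hx0
  obtain ⟨M, hM⟩ := harch x hx0
  have h1 : x ∈ 𝔠 * Ideal.span {x} := by
    have h2 := hx (M + 1)
    rw [pow_succ'] at h2
    exact Ideal.mul_mono_right hM h2
  rw [Ideal.mem_mul_span_singleton] at h1
  obtain ⟨z, hz, hzx⟩ := h1
  have h3 : z = 1 := by
    have : (z - 1) * x = 0 := by rw [sub_mul, hzx, one_mul, sub_self]
    rcases mul_eq_zero.mp this with h | h
    · exact sub_eq_zero.mp h
    · exact absurd h hx0
  exact hproper ((Ideal.eq_top_iff_one _).mpr (h3 ▸ hz))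

/-- **Uniqueness (general `c`).** `R = O + (π, X, Y) R`, `X Y = π ^ k c` with `c` ARBITRARY.
Two `O`-points `φ`, `ψ : R → A` with the same value `a` at `X`, where `π ^ k` does not divide
`a`, coincide. -/
theorem S34U_unique [IsDomain A] (π : O) (X Y c : R) (k : ℕ)
    (hXY : X * Y = algebraMap O R π ^ k * c)
    (hgen : ∀ r : R, ∃ (o : O) (r₁ r₂ r₃ : R),
      r = algebraMap O R o + algebraMap O R π * r₁ + X * r₂ + Y * r₃)
    (φ ψ : R →ₐ[O] A) (hX : φ X = ψ X)
    (harch : ∀ d : A, d ≠ 0 → ∃ M, (S34U_c π X Y φ ψ) ^ M ≤ Ideal.span {d})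
    (hproper : S34U_c π X Y φ ψ ≠ ⊤)
    (ha : ¬ (algebraMap O A π) ^ k ∣ φ X) : φ = ψ := by
  -- first `φ Y = ψ Y`
  have hd : φ Y - ψ Y = 0 := by
    by_contra hd
    obtain ⟨M, hM⟩ := harch _ hd
    have h1 : φ c - ψ c ∈ Ideal.span {φ Y - ψ Y} := by
      have := S34U_approx π X Y hgen φ ψ hX M c
      exact (sup_le le_rfl hM) this
    obtain ⟨e, he⟩ := Ideal.mem_span_singleton'.mp h1
    have h2 : φ X * (φ Y - ψ Y) = algebraMap O A π ^ k * (φ c - ψ c) := by
      have e1 : φ X * φ Y = algebraMap O A π ^ k * φ c := by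
        rw [← map_mul, hXY, map_mul, map_pow, AlgHom.commutes]
      have e2 : ψ X * ψ Y = algebraMap O A π ^ k * ψ c := by
        rw [← map_mul, hXY, map_mul, map_pow, AlgHom.commutes]
      rw [mul_sub, mul_sub, e1, hX, e2]
    apply ha
    refine ⟨e, ?_⟩
    have h3 : (φ X - algebraMap O A π ^ k * e) * (φ Y - ψ Y) = 0 := by
      rw [sub_mul, h2, ← he]; ring
    rcases mul_eq_zero.mp h3 with h | h
    · exact sub_eq_zero.mp h
    · exact absurd h hd
  apply AlgHom.ext
  intro f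
  have h0 : ∀ M, φ f - ψ f ∈ (S34U_c π X Y φ ψ) ^ M := by
    intro M
    have := S34U_approx π X Y hgen φ ψ hX M f
    rw [hd] at this
    simpa using this
  exact sub_eq_zero.mp (S34U_eq_zero_of_forall_mem_pow harch hproper h0)

end Approx

/-! ## Part A, continued: derivations and rational points -/

section Deriv

variable {O R A Ω : Type*} [CommRing O] [CommRing R] [CommRing A] [IsDomain A] [Algebra O R]
  [Algebra O A] [Field Ω] [Algebra A Ω]

/-- The ideal generated by the values of `π, X, Y` at one point. -/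
def S34U_c1 (π : O) (X Y : R) (φ : R →ₐ[O] A) : Ideal A :=
  Ideal.span {algebraMap O A π, φ X, φ Y}

/-- **Approximation for a bounded derivation at `φ`** which kills `X`. -/
theorem S34U_approx_D (π : O) (X Y : R)
    (hgen : ∀ r : R, ∃ (o : O) (r₁ r₂ r₃ : R),
      r = algebraMap O R o + algebraMap O R π * r₁ + X * r₂ + Y * r₃)
    (φ : R →ₐ[O] A) (E : R → A)
    (hE : ∀ (o : O) (r₁ r₂ r₃ : R),
      E (algebraMap O R o + algebraMap O R π * r₁ + X * r₂ + Y * r₃)
        = algebraMap O A π * E r₁ + φ X * E r₂ + φ Y * E r₃ + φ r₃ * E Y)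
    (M : ℕ) (f : R) :
    E f ∈ Ideal.span {E Y} ⊔ (S34U_c1 π X Y φ) ^ M := by
  induction M generalizing f with
  | zero => simp
  | succ M ih =>
    obtain ⟨o, r₁, r₂, r₃, rfl⟩ := hgen f
    rw [hE]
    have hπ : algebraMap O A π ∈ S34U_c1 π X Y φ := Ideal.subset_span (by simp)
    have hXm : φ X ∈ S34U_c1 π X Y φ := Ideal.subset_span (by simp)
    have hYm : φ Y ∈ S34U_c1 π X Y φ := Ideal.subset_span (by simp)
    have h1 := S34U_mul_mem hπ (ih r₁)
    have h2 := S34U_mul_mem hXm (ih r₂)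
    have h3 := S34U_mul_mem hYm (ih r₃)
    have h4 : φ r₃ * E Y ∈ Ideal.span {E Y} ⊔ (S34U_c1 π X Y φ) ^ (M + 1) :=
      Ideal.mem_sup_left (Ideal.mul_mem_left _ _ (Ideal.subset_span rfl))
    exact Ideal.add_mem _ (Ideal.add_mem _ (Ideal.add_mem _ h1 h2) h3) h4

/-- **The zero of `X - a` is simple (derivation form, general `c`).**
`D` is an `O`-derivation of `R` at the point `φ` with values in a field `Ω ⊇ A`, bounded
(`δ D f ∈ A` for a fixed `δ ≠ 0`). If `X Y = π ^ k c`, `π ^ k ∤ φ X` and `D X = 0`, then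
`D = 0`. -/
theorem S34U_simple_D (hinj : Function.Injective (algebraMap A Ω))
    (π : O) (X Y c : R) (k : ℕ)
    (hXY : X * Y = algebraMap O R π ^ k * c)
    (hgen : ∀ r : R, ∃ (o : O) (r₁ r₂ r₃ : R),
      r = algebraMap O R o + algebraMap O R π * r₁ + X * r₂ + Y * r₃)
    (φ : R →ₐ[O] A)
    (D : R →+ Ω)
    (hD : ∀ f g : R, D (f * g) = algebraMap A Ω (φ f) * D g + algebraMap A Ω (φ g) * D f)
    (hDO : ∀ o : O, D (algebraMap O R o) = 0)
    (hbdd : ∃ δ : A, δ ≠ 0 ∧ ∀ f : R, ∃ y : A, algebraMap A Ω δ * D f = algebraMap A Ω y)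
    (harch : ∀ d : A, d ≠ 0 → ∃ M, (S34U_c1 π X Y φ) ^ M ≤ Ideal.span {d})
    (hproper : S34U_c1 π X Y φ ≠ ⊤)
    (ha : ¬ (algebraMap O A π) ^ k ∣ φ X) (hDX : D X = 0) (f : R) : D f = 0 := by
  obtain ⟨δ, hδ, hy⟩ := hbdd
  choose E hEdef using hy
  have hδΩ : algebraMap A Ω δ ≠ 0 := by
    intro h
    exact hδ (hinj (by rw [h, map_zero]))
  -- the recursion for `E`
  have hDpow : ∀ n : ℕ, D (algebraMap O R π ^ n) = 0 := by
    intro n
    rw [← map_pow]
    exact hDO _
  have hE : ∀ (o : O) (r₁ r₂ r₃ : R),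
      E (algebraMap O R o + algebraMap O R π * r₁ + X * r₂ + Y * r₃)
        = algebraMap O A π * E r₁ + φ X * E r₂ + φ Y * E r₃ + φ r₃ * E Y := by
    intro o r₁ r₂ r₃
    apply hinj
    rw [← hEdef]
    simp only [map_add, map_mul, hD, hDO, hDX, ← hEdef, AlgHom.commutes]
    ring
  -- `E Y = 0`
  have hEY : E Y = 0 := by
    by_contra hne
    obtain ⟨M, hM⟩ := harch _ hne
    have h1 : E c ∈ Ideal.span {E Y} :=
      (sup_le le_rfl hM) (S34U_approx_D π X Y hgen φ E hE M c)
    obtain ⟨e, he⟩ := Ideal.mem_span_singleton'.mp h1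
    have h2 : φ X * E Y = algebraMap O A π ^ k * E c := by
      apply hinj
      have e1 : D (X * Y) = algebraMap A Ω (φ X) * D Y := by
        rw [hD, hDX, mul_zero, add_zero]
      have e2 : D (algebraMap O R π ^ k * c) = algebraMap A Ω (algebraMap O A π ^ k) * D c := by
        rw [hD, hDpow, mul_zero, add_zero, map_pow, AlgHom.commutes]
      rw [map_mul, map_mul, ← hEdef, ← hEdef]
      rw [hXY, e2] at e1
      calc algebraMap A Ω (φ X) * (algebraMap A Ω δ * D Y)
          = algebraMap A Ω δ * (algebraMap A Ω (φ X) * D Y) := by ring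
        _ = algebraMap A Ω δ * (algebraMap A Ω (algebraMap O A π ^ k) * D c) := by rw [e1]
        _ = algebraMap A Ω (algebraMap O A π ^ k) * (algebraMap A Ω δ * D c) := by ring
    apply ha
    refine ⟨e, ?_⟩
    have h3 : (φ X - algebraMap O A π ^ k * e) * E Y = 0 := by
      rw [sub_mul, h2, ← he]; ring
    rcases mul_eq_zero.mp h3 with h | h
    · exact sub_eq_zero.mp h
    · exact absurd h hne
  have h0 : ∀ M, E f ∈ (S34U_c1 π X Y φ) ^ M := by
    intro M
    have := S34U_approx_D π X Y hgen φ E hE M f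
    rw [hEY] at this
    simpa using this
  have hEf : E f = 0 := S34U_eq_zero_of_forall_mem_pow harch hproper h0
  have := hEdef f
  rw [hEf, map_zero] at this
  rcases mul_eq_zero.mp this with h | h
  · exact absurd h hδΩ
  · exact h

end Deriv

section Rational

variable {O R A : Type*} [CommRing O] [CommRing R] [CommRing A] [Algebra O R] [Algebra O A]

/-- **Points infinitely close to the crossing of the formal branches are `O`-rational up to any
order.** If for a given `k` there are generators `X, Y` with `R = O + (π, X, Y) R` and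
`π ^ k ∣ φ X`, `π ^ k ∣ φ Y`, then every value `φ f` is congruent to an element of `O` modulo
`π ^ k`. -/
theorem S34U_rational (π : O) (k : ℕ) (X Y : R)
    (hgen : ∀ r : R, ∃ (o : O) (r₁ r₂ r₃ : R),
      r = algebraMap O R o + algebraMap O R π * r₁ + X * r₂ + Y * r₃)
    (φ : R →ₐ[O] A) (hX : algebraMap O A π ^ k ∣ φ X) (hY : algebraMap O A π ^ k ∣ φ Y)
    (f : R) : ∃ (o : O) (y : A), φ f = algebraMap O A o + algebraMap O A π ^ k * y := by
  have key : ∀ j : ℕ, j ≤ k → ∀ f : R,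
      ∃ (o : O) (y : A), φ f = algebraMap O A o + algebraMap O A π ^ j * y := by
    intro j
    induction j with
    | zero => intro _ f; exact ⟨0, φ f, by simp⟩
    | succ j ih =>
      intro hj f
      obtain ⟨o, r₁, r₂, r₃, rfl⟩ := hgen f
      obtain ⟨o₁, y₁, h₁⟩ := ih (Nat.le_of_succ_le hj) r₁
      obtain ⟨x, hx⟩ := hX
      obtain ⟨y, hy⟩ := hY
      obtain ⟨m, rfl⟩ := Nat.exists_eq_add_of_le hj
      refine ⟨o + π * o₁, y₁ + algebraMap O A π ^ m * x * φ r₂
        + algebraMap O A π ^ m * y * φ r₃, ?_⟩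
      simp only [map_add, map_mul, AlgHom.commutes, h₁, hx, hy]
      ring
  exact key k le_rfl f

end Rational

section Arch

variable {A : Type*} [CommRing A] [IsDomain A]

/-- The archimedean hypothesis in a discrete valuation ring: any ideal contained in the maximal
ideal works. -/
theorem S34U_harch_of_dvr [IsDiscreteValuationRing A] (𝔠 : Ideal A)
    (h𝔠 : 𝔠 ≤ IsLocalRing.maximalIdeal A) (d : A) (hd : d ≠ 0) :
    ∃ M, 𝔠 ^ M ≤ Ideal.span {d} := by
  obtain ⟨ϖ, hϖ⟩ := IsDiscreteValuationRing.exists_irreducible A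
  obtain ⟨n, u, hu⟩ := IsDiscreteValuationRing.eq_unit_mul_pow_irreducible hd hϖ
  refine ⟨n, ?_⟩
  have h1 : IsLocalRing.maximalIdeal A = Ideal.span {ϖ} :=
    (IsDiscreteValuationRing.irreducible_iff_uniformizer ϖ).mp hϖ
  calc 𝔠 ^ n ≤ (IsLocalRing.maximalIdeal A) ^ n := Ideal.pow_right_mono h𝔠 n
    _ = Ideal.span {ϖ ^ n} := by rw [h1, Ideal.span_singleton_pow]
    _ ≤ Ideal.span {d} := by
        rw [Ideal.span_singleton_le_span_singleton, hu]
        exact ⟨↑u⁻¹, by rw [mul_comm (↑u : A), mul_assoc, Units.mul_inv, mul_one]⟩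

/-- The archimedean hypothesis for a finitely generated ideal of nonunits, from the
elementwise rank-one property. -/
theorem S34U_harch_of_rankOne
    (hrk : ∀ x : A, ¬ IsUnit x → ∀ d : A, d ≠ 0 → ∃ M : ℕ, d ∣ x ^ M)
    (s : Finset A) (hs : ∀ x ∈ s, ¬ IsUnit x) (d : A) (hd : d ≠ 0) :
    ∃ M, (Ideal.span (s : Set A)) ^ M ≤ Ideal.span {d} := by
  classical
  induction s using Finset.induction_on with
  | empty =>
    refine ⟨1, ?_⟩
    simp
  | insert x s hx ih =>
    obtain ⟨M₂, hM₂⟩ := ih (fun y hy => hs y (Finset.mem_insert_of_mem hy))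
    obtain ⟨M₁, hM₁⟩ := hrk x (hs x (Finset.mem_insert_self x s)) d hd
    refine ⟨M₁ + M₂, ?_⟩
    have h1 : Ideal.span ((insert x s : Finset A) : Set A)
        = Ideal.span {x} ⊔ Ideal.span (s : Set A) := by
      rw [Finset.coe_insert, Ideal.span_insert]
    rw [h1]
    refine le_trans Ideal.sup_pow_add_le_pow_sup_pow (sup_le ?_ hM₂)
    rw [Ideal.span_singleton_pow, Ideal.span_singleton_le_span_singleton]
    exact hM₁


end Arch

section Glue

variable {O R A : Type*} [CommRing O] [CommRing R] [CommRing A] [IsDomain A] [Algebra O R]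
  [Algebra O A]

/-- The archimedean hypothesis for the ideal `S34U_c`, from the elementwise rank-one
property. -/
theorem S34U_harch_c
    (hrk : ∀ x : A, ¬ IsUnit x → ∀ d : A, d ≠ 0 → ∃ M : ℕ, d ∣ x ^ M)
    (π : O) (X Y : R) (φ ψ : R →ₐ[O] A)
    (hπ : ¬ IsUnit (algebraMap O A π)) (hXn : ¬ IsUnit (φ X)) (hYn : ¬ IsUnit (φ Y))
    (hY'n : ¬ IsUnit (ψ Y)) (d : A) (hd : d ≠ 0) :
    ∃ M, (S34U_c π X Y φ ψ) ^ M ≤ Ideal.span {d} := by
  classical
  have h := S34U_harch_of_rankOne hrk ({algebraMap O A π, φ X, φ Y, ψ Y} : Finset A)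
    (by
      intro x hx
      simp only [Finset.mem_insert, Finset.mem_singleton] at hx
      rcases hx with rfl | rfl | rfl | rfl <;> assumption) d hd
  simpa [S34U_c] using h

/-- The archimedean hypothesis for the ideal `S34U_c1`. -/
theorem S34U_harch_c1
    (hrk : ∀ x : A, ¬ IsUnit x → ∀ d : A, d ≠ 0 → ∃ M : ℕ, d ∣ x ^ M)
    (π : O) (X Y : R) (φ : R →ₐ[O] A)
    (hπ : ¬ IsUnit (algebraMap O A π)) (hXn : ¬ IsUnit (φ X)) (hYn : ¬ IsUnit (φ Y))
    (d : A) (hd : d ≠ 0) :
    ∃ M, (S34U_c1 π X Y φ) ^ M ≤ Ideal.span {d} := by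
  classical
  have h := S34U_harch_of_rankOne hrk ({algebraMap O A π, φ X, φ Y} : Finset A)
    (by
      intro x hx
      simp only [Finset.mem_insert, Finset.mem_singleton] at hx
      rcases hx with rfl | rfl | rfl <;> assumption) d hd
  simpa [S34U_c1] using h

variable [IsLocalRing A]

theorem S34U_c_ne_top (π : O) (X Y : R) (φ ψ : R →ₐ[O] A)
    (hπ : ¬ IsUnit (algebraMap O A π)) (hXn : ¬ IsUnit (φ X)) (hYn : ¬ IsUnit (φ Y))
    (hY'n : ¬ IsUnit (ψ Y)) : S34U_c π X Y φ ψ ≠ ⊤ := by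
  have hle : S34U_c π X Y φ ψ ≤ maximalIdeal A := by
    rw [S34U_c, Ideal.span_le]
    intro x hx
    simp only [Set.mem_insert_iff, Set.mem_singleton_iff] at hx
    rcases hx with rfl | rfl | rfl | rfl <;>
      exact (IsLocalRing.mem_maximalIdeal _).mpr ‹_›
  intro h
  rw [h] at hle
  exact (Ideal.IsPrime.ne_top (inferInstance : (maximalIdeal A).IsPrime))
    (top_le_iff.mp hle)

theorem S34U_c1_ne_top (π : O) (X Y : R) (φ : R →ₐ[O] A)
    (hπ : ¬ IsUnit (algebraMap O A π)) (hXn : ¬ IsUnit (φ X)) (hYn : ¬ IsUnit (φ Y)) :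
    S34U_c1 π X Y φ ≠ ⊤ := by
  have hle : S34U_c1 π X Y φ ≤ maximalIdeal A := by
    rw [S34U_c1, Ideal.span_le]
    intro x hx
    simp only [Set.mem_insert_iff, Set.mem_singleton_iff] at hx
    rcases hx with rfl | rfl | rfl <;>
      exact (IsLocalRing.mem_maximalIdeal _).mpr ‹_›
  intro h
  rw [h] at hle
  exact (Ideal.IsPrime.ne_top (inferInstance : (maximalIdeal A).IsPrime))
    (top_le_iff.mp hle)

/-- **Uniqueness, valuation-ring form (general `c`).** `A` a local domain with the elementwise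
rank-one property (e.g. a valuation ring of rank one), `φ, ψ : R → A` two `O`-points centred at
the node (the values of `π, X, Y` are nonunits) with `φ X = ψ X = a` and `π ^ k ∤ a`:
then `φ = ψ`. -/
theorem S34U_unique_val
    (hrk : ∀ x : A, ¬ IsUnit x → ∀ d : A, d ≠ 0 → ∃ M : ℕ, d ∣ x ^ M)
    (π : O) (X Y c : R) (k : ℕ)
    (hXY : X * Y = algebraMap O R π ^ k * c)
    (hgen : ∀ r : R, ∃ (o : O) (r₁ r₂ r₃ : R),
      r = algebraMap O R o + algebraMap O R π * r₁ + X * r₂ + Y * r₃)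
    (φ ψ : R →ₐ[O] A) (hX : φ X = ψ X)
    (hπ : ¬ IsUnit (algebraMap O A π)) (hXn : ¬ IsUnit (φ X)) (hYn : ¬ IsUnit (φ Y))
    (hY'n : ¬ IsUnit (ψ Y))
    (ha : ¬ (algebraMap O A π) ^ k ∣ φ X) : φ = ψ :=
  S34U_unique π X Y c k hXY hgen φ ψ hX
    (S34U_harch_c hrk π X Y φ ψ hπ hXn hYn hY'n)
    (S34U_c_ne_top π X Y φ ψ hπ hXn hYn hY'n) ha

end Glue

/-! ## Part B: at the level of the point -/

section Node

variable {O R : Type*} [CommRing O] [IsDomain O] [CommRing R] [IsLocalRing R] [Algebra O R]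

theorem S34U_mem_span_triple {p U V x : R} :
    x ∈ Ideal.span ({p, U, V} : Set R) ↔ ∃ α β γ : R, x = p * α + U * β + V * γ := by
  rw [Ideal.mem_span_insert]
  constructor
  · rintro ⟨α, z, hz, rfl⟩
    rw [Ideal.mem_span_pair] at hz
    obtain ⟨β, γ, rfl⟩ := hz
    exact ⟨α, β, γ, by ring⟩
  · rintro ⟨α, β, γ, rfl⟩
    exact ⟨α, U * β + V * γ, Ideal.mem_span_pair.mpr ⟨β, γ, by ring⟩, by ring⟩

variable [IsNoetherianRing R]

/-- **The kernel of a section through the node** is generated by `T - a` and `S - b`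
(`a = φ T`, `b = φ S`); no hypothesis on the product `T S`. -/
theorem S34U_ker {π : O} (hπ : π ≠ 0) {T S : R}
    (hn : maximalIdeal R = Ideal.span ({algebraMap O R π, T, S} : Set R))
    (φ : R →ₐ[O] O) (ha : π ∣ φ T) (hb : π ∣ φ S) :
    RingHom.ker (φ : R →+* O)
      = Ideal.span ({T - algebraMap O R (φ T), S - algebraMap O R (φ S)} : Set R) := by
  set 𝔮 : Ideal R := Ideal.span ({T - algebraMap O R (φ T), S - algebraMap O R (φ S)} : Set R)
    with h𝔮
  have hle : 𝔮 ≤ RingHom.ker (φ : R →+* O) := by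
    rw [h𝔮, Ideal.span_le]
    intro x hx
    simp only [Set.mem_insert_iff, Set.mem_singleton_iff] at hx
    rcases hx with rfl | rfl
    · show φ (T - algebraMap O R (φ T)) = 0
      rw [map_sub, φ.commutes]
      exact sub_self _
    · show φ (S - algebraMap O R (φ S)) = 0
      rw [map_sub, φ.commutes]
      exact sub_self _
  have hker_ne : RingHom.ker (φ : R →+* O) ≠ ⊤ := RingHom.ker_ne_top _
  have hker_le : RingHom.ker (φ : R →+* O) ≤ maximalIdeal R :=
    IsLocalRing.le_maximalIdeal hker_ne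
  have hπn : algebraMap O R π ∈ maximalIdeal R := by
    rw [hn]; exact Ideal.subset_span (by simp)
  have hn_le : ∀ r ∈ maximalIdeal R, ∃ y ∈ 𝔮, ∃ r' : R, r = y + algebraMap O R π * r' := by
    intro r hr
    rw [hn] at hr
    obtain ⟨α, β, γ, rfl⟩ := S34U_mem_span_triple.mp hr
    obtain ⟨a₁, ha₁⟩ := ha
    obtain ⟨a₂, ha₂⟩ := hb
    refine ⟨β * (T - algebraMap O R (φ T)) + γ * (S - algebraMap O R (φ S)), ?_,
      α + β * algebraMap O R a₁ + γ * algebraMap O R a₂, ?_⟩
    · refine Ideal.add_mem _ (Ideal.mul_mem_left _ _ (Ideal.subset_span ?_))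
        (Ideal.mul_mem_left _ _ (Ideal.subset_span ?_))
      · simp
      · simp
    · rw [ha₁, ha₂, map_mul, map_mul]
      ring
  apply le_antisymm _ hle
  intro x hx
  have key : ∀ j : ℕ, ∃ y ∈ 𝔮, ∃ r : R, x = y + algebraMap O R π ^ j * r := by
    intro j
    induction j with
    | zero => exact ⟨0, 𝔮.zero_mem, x, by simp⟩
    | succ j ih =>
      obtain ⟨y, hy, r, hxr⟩ := ih
      have hφr : φ r = 0 := by
        have h1 : φ x = 0 := hx
        rw [hxr, map_add, map_mul, map_pow, φ.commutes] at h1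
        have h2 : φ y = 0 := hle hy
        rw [h2, zero_add] at h1
        have : (algebraMap O O) π = π := rfl
        rw [this] at h1
        rcases mul_eq_zero.mp h1 with h3 | h3
        · exact absurd h3 (pow_ne_zero j hπ)
        · exact h3
      obtain ⟨y', hy', r', hr'⟩ := hn_le r (hker_le hφr)
      refine ⟨y + algebraMap O R π ^ j * y', Ideal.add_mem _ hy (Ideal.mul_mem_left _ _ hy'),
        r', ?_⟩
      rw [hxr, hr']
      ring
  have hK := Ideal.iInf_pow_smul_eq_bot_of_isLocalRing (R := R) (M := R ⧸ 𝔮)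
    (maximalIdeal R) (Ideal.IsPrime.ne_top inferInstance)
  have hmem : (Ideal.Quotient.mk 𝔮 x : R ⧸ 𝔮) ∈
      (⨅ i : ℕ, (maximalIdeal R) ^ i • (⊤ : Submodule R (R ⧸ 𝔮))) := by
    rw [Submodule.mem_iInf]
    intro j
    obtain ⟨y, hy, r, hxr⟩ := key j
    have h1 : (Ideal.Quotient.mk 𝔮 x : R ⧸ 𝔮)
        = (algebraMap O R π ^ j) • (Ideal.Quotient.mk 𝔮 r : R ⧸ 𝔮) := by
      rw [hxr, map_add, Ideal.Quotient.eq_zero_iff_mem.mpr hy, zero_add, map_mul]
      rfl
    rw [h1]
    exact Submodule.smul_mem_smul (Ideal.pow_mem_pow hπn j) Submodule.mem_top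
  rw [hK] at hmem
  exact Ideal.Quotient.eq_zero_iff_mem.mp ((Submodule.mem_bot _).mp hmem)

/-- **The key identity (general `c`).** With `c = φ c + α (T - a) + β (S - b)`:
`(a - Q β)(S - b) = (Q α - S)(T - a)`. -/
theorem S34U_identity {Q : O} {T S c α β : R} (φ : R →ₐ[O] O)
    (hTS : T * S = algebraMap O R Q * c)
    (hc : c = algebraMap O R (φ c) + α * (T - algebraMap O R (φ T))
      + β * (S - algebraMap O R (φ S))) :
    (algebraMap O R (φ T) - algebraMap O R Q * β) * (S - algebraMap O R (φ S))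
      = (algebraMap O R Q * α - S) * (T - algebraMap O R (φ T)) := by
  have h0 : φ T * φ S = Q * φ c := by
    have := congrArg φ hTS
    rw [map_mul, map_mul, φ.commutes] at this
    exact this
  have hab : algebraMap O R (φ T) * algebraMap O R (φ S)
      = algebraMap O R Q * algebraMap O R (φ c) := by
    rw [← map_mul (algebraMap O R), h0, map_mul]
  have h1 : T * S = algebraMap O R Q * (algebraMap O R (φ c)
      + α * (T - algebraMap O R (φ T)) + β * (S - algebraMap O R (φ S))) := by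
    rw [← hc]; exact hTS
  linear_combination h1 - hab

/-- **Sections through a node, GENERAL `c`** (no termination of the successive approximation is
needed). `R` a noetherian local `O`-algebra with maximal ideal `(π, T, S)`, `T S = Q c` with
`c` arbitrary, `φ` an `O`-rational point centred at the node whose first coordinate `a = φ T`
satisfies `Q = a ρ`, `π ∣ ρ` (i.e. `v(a) < v(Q)`). Then there is a unit `u` of `R` with
`a u (S - b) = (Q α - S) (T - a)`. -/
theorem S34U_key {π Q ρ : O} (hπ : π ≠ 0) {T S c : R}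
    (hn : maximalIdeal R = Ideal.span ({algebraMap O R π, T, S} : Set R))
    (hTS : T * S = algebraMap O R Q * c)
    (φ : R →ₐ[O] O) (ha : π ∣ φ T) (hb : π ∣ φ S)
    (hρ : Q = φ T * ρ) (hρπ : π ∣ ρ) :
    ∃ u w : R, IsUnit u ∧
      algebraMap O R (φ T) * u * (S - algebraMap O R (φ S))
        = w * (T - algebraMap O R (φ T)) := by
  have hker := S34U_ker hπ hn φ ha hb
  have hcmem : c - algebraMap O R (φ c) ∈ RingHom.ker (φ : R →+* O) := by
    show φ (c - algebraMap O R (φ c)) = 0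
    rw [map_sub, φ.commutes]
    exact sub_self _
  rw [hker, Ideal.mem_span_pair] at hcmem
  obtain ⟨α, β, hαβ⟩ := hcmem
  have hc : c = algebraMap O R (φ c) + α * (T - algebraMap O R (φ T))
      + β * (S - algebraMap O R (φ S)) := by
    linear_combination -hαβ
  have hid := S34U_identity φ hTS hc
  have hπn : algebraMap O R π ∈ maximalIdeal R := by
    rw [hn]; exact Ideal.subset_span (by simp)
  have hρn : algebraMap O R ρ * β ∈ maximalIdeal R := by
    obtain ⟨ρ', rfl⟩ := hρπ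
    rw [map_mul, mul_assoc]
    exact Ideal.mul_mem_right _ _ hπn
  have hu : IsUnit (1 - algebraMap O R ρ * β) := by
    have h1 : ¬ IsUnit (algebraMap O R ρ * β) := (IsLocalRing.mem_maximalIdeal _).mp hρn
    rcases IsLocalRing.isUnit_or_isUnit_one_sub_self (algebraMap O R ρ * β) with h | h
    · exact absurd h h1
    · exact h
  refine ⟨1 - algebraMap O R ρ * β, algebraMap O R Q * α - S, hu, ?_⟩
  rw [← hid, hρ, map_mul]
  ring

/-- **The zero of `T - a` at `φ` is simple (general `c`)**: every element of the kernel of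
`φ` becomes a multiple of `T - a` after multiplication by `a`. -/
theorem S34U_simple {π Q ρ : O} (hπ : π ≠ 0) {T S c : R}
    (hn : maximalIdeal R = Ideal.span ({algebraMap O R π, T, S} : Set R))
    (hTS : T * S = algebraMap O R Q * c)
    (φ : R →ₐ[O] O) (ha : π ∣ φ T) (hb : π ∣ φ S)
    (hρ : Q = φ T * ρ) (hρπ : π ∣ ρ) (x : R) (hx : x ∈ RingHom.ker (φ : R →+* O)) :
    ∃ r : R, algebraMap O R (φ T) * x = r * (T - algebraMap O R (φ T)) := by
  obtain ⟨u, w, hu, huw⟩ := S34U_key hπ hn hTS φ ha hb hρ hρπ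
  obtain ⟨v, hv⟩ := hu.exists_right_inv
  rw [S34U_ker hπ hn φ ha hb, Ideal.mem_span_pair] at hx
  obtain ⟨ξ, η, rfl⟩ := hx
  refine ⟨algebraMap O R (φ T) * ξ + η * v * w, ?_⟩
  have h1 : algebraMap O R (φ T) * (S - algebraMap O R (φ S))
      = v * w * (T - algebraMap O R (φ T)) := by
    calc algebraMap O R (φ T) * (S - algebraMap O R (φ S))
        = (u * v) * (algebraMap O R (φ T) * (S - algebraMap O R (φ S))) := by
          rw [hv, one_mul]
      _ = v * (algebraMap O R (φ T) * u * (S - algebraMap O R (φ S))) := by ring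
      _ = v * w * (T - algebraMap O R (φ T)) := by rw [huw]; ring
  calc algebraMap O R (φ T) * (ξ * (T - algebraMap O R (φ T)) + η * (S - algebraMap O R (φ S)))
      = algebraMap O R (φ T) * ξ * (T - algebraMap O R (φ T))
          + η * (algebraMap O R (φ T) * (S - algebraMap O R (φ S))) := by ring
    _ = (algebraMap O R (φ T) * ξ + η * v * w) * (T - algebraMap O R (φ T)) := by
        rw [h1]; ring

/-- **The section is determined by its first coordinate (general `c`)**: any other point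
`φ' : R →ₐ[O] Ω` with the same value at `T` is `φ`. -/
theorem S34U_unique_node {π Q ρ : O} (hπ : π ≠ 0) (hQ : Q ≠ 0) {T S c : R}
    (hn : maximalIdeal R = Ideal.span ({algebraMap O R π, T, S} : Set R))
    (hTS : T * S = algebraMap O R Q * c)
    (φ : R →ₐ[O] O) (ha : π ∣ φ T) (hb : π ∣ φ S)
    (hρ : Q = φ T * ρ) (hρπ : π ∣ ρ)
    {Ω : Type*} [CommRing Ω] [IsDomain Ω] [Algebra O Ω]
    (hinj : Function.Injective (algebraMap O Ω))
    (φ' : R →ₐ[O] Ω) (h : φ' T = algebraMap O Ω (φ T)) (x : R) :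
    φ' x = algebraMap O Ω (φ x) := by
  obtain ⟨u, w, hu, huw⟩ := S34U_key hπ hn hTS φ ha hb hρ hρπ
  have ha0 : φ T ≠ 0 := by
    intro h1
    rw [h1, zero_mul] at hρ
    exact hQ hρ
  have ha0' : algebraMap O Ω (φ T) ≠ 0 := by
    intro h1
    exact ha0 (hinj (by rw [h1, map_zero]))
  have h1 : φ' (T - algebraMap O R (φ T)) = 0 := by
    rw [map_sub, φ'.commutes, h, sub_self]
  have hu' : φ' u ≠ 0 := (hu.map φ').ne_zero
  have h2 : φ' (S - algebraMap O R (φ S)) = 0 := by
    have h3 := congrArg φ' huw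
    rw [map_mul, map_mul, map_mul, h1, mul_zero, φ'.commutes] at h3
    rcases mul_eq_zero.mp h3 with h4 | h4
    · rcases mul_eq_zero.mp h4 with h5 | h5
      · exact absurd h5 ha0'
      · exact absurd h5 hu'
    · exact h4
  have hle : RingHom.ker (φ : R →+* O) ≤ RingHom.ker (φ' : R →+* Ω) := by
    rw [S34U_ker hπ hn φ ha hb, Ideal.span_le]
    intro y hy
    simp only [Set.mem_insert_iff, Set.mem_singleton_iff] at hy
    rcases hy with rfl | rfl
    · exact h1
    · exact h2
  have h5 : x - algebraMap O R (φ x) ∈ RingHom.ker (φ : R →+* O) := by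
    show φ (x - algebraMap O R (φ x)) = 0
    rw [map_sub, φ.commutes]
    exact sub_self _
  have h6 : φ' (x - algebraMap O R (φ x)) = 0 := hle h5
  rw [map_sub, φ'.commutes, sub_eq_zero] at h6
  exact h6

end Node

end Fermat.Agent.S34_helper26_UNIQ
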