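import Mathlib
import Fermat.Agent.S34_helper26_UNIQ

/-!
# S34, piece P3-UNIQH: horizontal primes through a node, GENERAL `c` (dichotomy variant)

`R` is a noetherian local `O`-algebra with maximal ideal `(π, T, S)` and `T S = Q c`, `c`
ARBITRARY.  A section `φ : R →ₐ[O] O` is of *type `T`* if `Q = φ T * ρ` with `π ∣ ρ`
(i.e. `v(φ T) < v(Q)`), of *type `S`* if `Q = φ S * ρ` with `π ∣ ρ`.

* `S34UH_unif`, `S34UH_unif'` : `T - φ T` (resp. `S - φ S`) generates the kernel of a section of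
  type `T` (resp. `S`) up to the nonzero constant `φ T` (resp. `φ S`).
* `S34UH_prime_eq_ker`, `S34UH_prime_eq_ker'` : a prime of `R` which meets `O` trivially and
  contains `T - φ T` is the kernel of `φ`.
* `S34UH_notMem_ker`, `S34UH_notMem_ker'` : `T - φ T` does not vanish at any other section.
* `S34UH_trichotomy` : over a discrete valuation ring, every section is of type `T`, of type
  `S`, or both coordinates are divisible by `Q`.
* `S34UH_family`, `S34UH_family'` : the bookkeeping for a finite family of sections.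
-/

set_option autoImplicit false
set_option linter.unusedSectionVars false

namespace Fermat.Agent.S34_helper26_UNIQH

open Ideal IsLocalRing Fermat.Agent.S34_helper26_UNIQ

section Node

variable {O R : Type*} [CommRing O] [IsDomain O] [CommRing R] [IsLocalRing R] [Algebra O R]
  [IsNoetherianRing R]

/-- The generators of the maximal ideal may be permuted. -/
theorem S34UH_swap_hn {p T S : R}
    (hn : maximalIdeal R = Ideal.span ({p, T, S} : Set R)) :
    maximalIdeal R = Ideal.span ({p, S, T} : Set R) := by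
  rw [hn]
  congr 1
  ext z
  simp only [Set.mem_insert_iff, Set.mem_singleton_iff]
  tauto

/-- The first coordinate of a section of type `T` is nonzero. -/
theorem S34UH_ne_zero {Q ρ a : O} (hQ : Q ≠ 0) (hρ : Q = a * ρ) : a ≠ 0 := by
  rintro rfl
  rw [zero_mul] at hρ
  exact hQ hρ

/-- **Simple zero (type `T`)**: `T - φ T` generates `ker φ` up to the nonzero constant `φ T`. -/
theorem S34UH_unif {π Q ρ : O} (hπ : π ≠ 0) {T S c : R}
    (hn : maximalIdeal R = Ideal.span ({algebraMap O R π, T, S} : Set R))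
    (hTS : T * S = algebraMap O R Q * c)
    (φ : R →ₐ[O] O) (ha : π ∣ φ T) (hb : π ∣ φ S)
    (hρ : Q = φ T * ρ) (hρπ : π ∣ ρ) (x : R) (hx : φ x = 0) :
    ∃ r : R, algebraMap O R (φ T) * x = r * (T - algebraMap O R (φ T)) :=
  S34U_simple hπ hn hTS φ ha hb hρ hρπ x ((RingHom.mem_ker).mpr hx)

/-- **Simple zero (type `S`)**. -/
theorem S34UH_unif' {π Q ρ : O} (hπ : π ≠ 0) {T S c : R}
    (hn : maximalIdeal R = Ideal.span ({algebraMap O R π, T, S} : Set R))
    (hTS : T * S = algebraMap O R Q * c)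
    (φ : R →ₐ[O] O) (ha : π ∣ φ T) (hb : π ∣ φ S)
    (hρ : Q = φ S * ρ) (hρπ : π ∣ ρ) (x : R) (hx : φ x = 0) :
    ∃ r : R, algebraMap O R (φ S) * x = r * (S - algebraMap O R (φ S)) :=
  S34UH_unif hπ (S34UH_swap_hn hn) (by rw [mul_comm]; exact hTS) φ hb ha hρ hρπ x hx

/-- **A horizontal prime containing `T - φ T` is the kernel of `φ` (type `T`).** -/
theorem S34UH_prime_eq_ker {π Q ρ : O} (hπ : π ≠ 0) (hQ : Q ≠ 0) {T S c : R}
    (hn : maximalIdeal R = Ideal.span ({algebraMap O R π, T, S} : Set R))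
    (hTS : T * S = algebraMap O R Q * c)
    (φ : R →ₐ[O] O) (ha : π ∣ φ T) (hb : π ∣ φ S)
    (hρ : Q = φ T * ρ) (hρπ : π ∣ ρ)
    (𝔓 : Ideal R) [h𝔓 : 𝔓.IsPrime] (hO : ∀ o : O, algebraMap O R o ∈ 𝔓 → o = 0)
    (hT : T - algebraMap O R (φ T) ∈ 𝔓) :
    𝔓 = RingHom.ker (φ : R →+* O) := by
  have ha0 : φ T ≠ 0 := S34UH_ne_zero hQ hρ
  apply le_antisymm
  · intro x hx
    have h1 : x - algebraMap O R (φ x) ∈ 𝔓 := by
      obtain ⟨r, hr⟩ := S34UH_unif hπ hn hTS φ ha hb hρ hρπ (x - algebraMap O R (φ x))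
        (by rw [map_sub, φ.commutes]; exact sub_self _)
      have h2 : algebraMap O R (φ T) * (x - algebraMap O R (φ x)) ∈ 𝔓 := by
        rw [hr]
        exact 𝔓.mul_mem_left _ hT
      rcases h𝔓.mem_or_mem h2 with h3 | h3
      · exact absurd (hO _ h3) ha0
      · exact h3
    have h2 : algebraMap O R (φ x) ∈ 𝔓 := by
      have : algebraMap O R (φ x) = x - (x - algebraMap O R (φ x)) := by ring
      rw [this]
      exact 𝔓.sub_mem hx h1
    exact (RingHom.mem_ker).mpr (hO _ h2)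
  · intro x hx
    obtain ⟨r, hr⟩ := S34UH_unif hπ hn hTS φ ha hb hρ hρπ x ((RingHom.mem_ker).mp hx)
    have h2 : algebraMap O R (φ T) * x ∈ 𝔓 := by
      rw [hr]
      exact 𝔓.mul_mem_left _ hT
    rcases h𝔓.mem_or_mem h2 with h3 | h3
    · exact absurd (hO _ h3) ha0
    · exact h3

/-- **A horizontal prime containing `S - φ S` is the kernel of `φ` (type `S`).** -/
theorem S34UH_prime_eq_ker' {π Q ρ : O} (hπ : π ≠ 0) (hQ : Q ≠ 0) {T S c : R}
    (hn : maximalIdeal R = Ideal.span ({algebraMap O R π, T, S} : Set R))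
    (hTS : T * S = algebraMap O R Q * c)
    (φ : R →ₐ[O] O) (ha : π ∣ φ T) (hb : π ∣ φ S)
    (hρ : Q = φ S * ρ) (hρπ : π ∣ ρ)
    (𝔓 : Ideal R) [h𝔓 : 𝔓.IsPrime] (hO : ∀ o : O, algebraMap O R o ∈ 𝔓 → o = 0)
    (hS : S - algebraMap O R (φ S) ∈ 𝔓) :
    𝔓 = RingHom.ker (φ : R →+* O) :=
  S34UH_prime_eq_ker hπ hQ (S34UH_swap_hn hn) (by rw [mul_comm]; exact hTS) φ hb ha hρ hρπ 𝔓 hO hS

/-- **`T - φ T` does not vanish at any other section (type `T`).** -/
theorem S34UH_notMem_ker {π Q ρ : O} (hπ : π ≠ 0) (hQ : Q ≠ 0) {T S c : R}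
    (hn : maximalIdeal R = Ideal.span ({algebraMap O R π, T, S} : Set R))
    (hTS : T * S = algebraMap O R Q * c)
    (φ : R →ₐ[O] O) (ha : π ∣ φ T) (hb : π ∣ φ S)
    (hρ : Q = φ T * ρ) (hρπ : π ∣ ρ)
    (φ' : R →ₐ[O] O) (hne : φ' ≠ φ) :
    φ' (T - algebraMap O R (φ T)) ≠ 0 := by
  intro h0
  apply hne
  have h1 : φ' T = algebraMap O O (φ T) := by
    rw [map_sub, φ'.commutes, sub_eq_zero] at h0
    exact h0
  ext x
  have := S34U_unique_node hπ hQ hn hTS φ ha hb hρ hρπ (Ω := O)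
    (fun a b h => h) φ' h1 x
  simpa using this

/-- **`S - φ S` does not vanish at any other section (type `S`).** -/
theorem S34UH_notMem_ker' {π Q ρ : O} (hπ : π ≠ 0) (hQ : Q ≠ 0) {T S c : R}
    (hn : maximalIdeal R = Ideal.span ({algebraMap O R π, T, S} : Set R))
    (hTS : T * S = algebraMap O R Q * c)
    (φ : R →ₐ[O] O) (ha : π ∣ φ T) (hb : π ∣ φ S)
    (hρ : Q = φ S * ρ) (hρπ : π ∣ ρ)
    (φ' : R →ₐ[O] O) (hne : φ' ≠ φ) :
    φ' (S - algebraMap O R (φ S)) ≠ 0 :=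
  S34UH_notMem_ker hπ hQ (S34UH_swap_hn hn) (by rw [mul_comm]; exact hTS) φ hb ha hρ hρπ φ' hne

/-- Two sections of type `T` with the same first coordinate are equal. -/
theorem S34UH_eq_of_eq {π Q ρ : O} (hπ : π ≠ 0) (hQ : Q ≠ 0) {T S c : R}
    (hn : maximalIdeal R = Ideal.span ({algebraMap O R π, T, S} : Set R))
    (hTS : T * S = algebraMap O R Q * c)
    (φ : R →ₐ[O] O) (ha : π ∣ φ T) (hb : π ∣ φ S)
    (hρ : Q = φ T * ρ) (hρπ : π ∣ ρ)
    (φ' : R →ₐ[O] O) (h : φ' T = φ T) : φ' = φ := by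
  by_contra hne
  apply S34UH_notMem_ker hπ hQ hn hTS φ ha hb hρ hρπ φ' hne
  rw [map_sub, φ'.commutes, h]
  exact sub_self _

/-- Two sections of type `S` with the same second coordinate are equal. -/
theorem S34UH_eq_of_eq' {π Q ρ : O} (hπ : π ≠ 0) (hQ : Q ≠ 0) {T S c : R}
    (hn : maximalIdeal R = Ideal.span ({algebraMap O R π, T, S} : Set R))
    (hTS : T * S = algebraMap O R Q * c)
    (φ : R →ₐ[O] O) (ha : π ∣ φ T) (hb : π ∣ φ S)
    (hρ : Q = φ S * ρ) (hρπ : π ∣ ρ)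
    (φ' : R →ₐ[O] O) (h : φ' S = φ S) : φ' = φ :=
  S34UH_eq_of_eq hπ hQ (S34UH_swap_hn hn) (by rw [mul_comm]; exact hTS) φ hb ha hρ hρπ φ' h

/-- Every section through the node has both coordinates in the maximal ideal of `O`,
as soon as `O` is local with maximal ideal `(π)`. -/
theorem S34UH_dvd_of_section [IsLocalRing O] {π : O}
    (hmax : maximalIdeal O = Ideal.span {π}) {T S : R}
    (hn : maximalIdeal R = Ideal.span ({algebraMap O R π, T, S} : Set R))
    (φ : R →ₐ[O] O) : π ∣ φ T ∧ π ∣ φ S := by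
  have key : ∀ z ∈ maximalIdeal R, π ∣ φ z := by
    intro z hz
    have h1 : ¬ IsUnit (φ z) := by
      intro hu
      have hz' : ¬ IsUnit z := (IsLocalRing.mem_maximalIdeal z).mp hz
      -- `z` is a unit of `R` because `R` is local and `φ z` is a unit
      apply hz'
      by_contra hzu
      -- `1 - z * w` would be a unit for every `w`; take `w` with `φ z * φ w = 1`
      obtain ⟨v, hv⟩ := hu.exists_right_inv
      have h2 : z * algebraMap O R v ∈ maximalIdeal R :=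
        Ideal.mul_mem_right _ _ ((IsLocalRing.mem_maximalIdeal z).mpr hzu)
      have h3 : IsUnit (1 - z * algebraMap O R v) := by
        rcases IsLocalRing.isUnit_or_isUnit_one_sub_self (z * algebraMap O R v) with h | h
        · exact absurd h ((IsLocalRing.mem_maximalIdeal _).mp h2)
        · exact h
      have h4 : φ (1 - z * algebraMap O R v) = 0 := by
        rw [map_sub, map_one, map_mul, φ.commutes]
        show 1 - φ z * v = 0
        rw [hv, sub_self]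
      exact (h3.map φ).ne_zero h4
    have h5 : φ z ∈ maximalIdeal O := (IsLocalRing.mem_maximalIdeal _).mpr h1
    rw [hmax] at h5
    exact Ideal.mem_span_singleton.mp h5
  constructor
  · apply key
    rw [hn]
    exact Ideal.subset_span (by simp)
  · apply key
    rw [hn]
    exact Ideal.subset_span (by simp)

end Node

section Trichotomy

variable {O : Type*} [CommRing O] [IsDomain O] [IsDiscreteValuationRing O]

/-- In a discrete valuation ring with uniformiser `π`: either `v(a) < v(Q)` or `Q ∣ a`. -/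
theorem S34UH_lt_or_dvd {π : O} (hπ : Irreducible π) (Q a : O) :
    (∃ ρ : O, Q = a * ρ ∧ π ∣ ρ) ∨ Q ∣ a := by
  have hmax : maximalIdeal O = Ideal.span {π} :=
    (IsDiscreteValuationRing.irreducible_iff_uniformizer π).mp hπ
  rcases ValuationRing.dvd_total a Q with ⟨ρ, hρ⟩ | h
  · by_cases hu : IsUnit ρ
    · right
      obtain ⟨v, hv⟩ := hu.exists_right_inv
      refine ⟨v, ?_⟩
      rw [hρ, mul_assoc, hv, mul_one]
    · left
      refine ⟨ρ, hρ, ?_⟩
      have h1 : ρ ∈ maximalIdeal O := (IsLocalRing.mem_maximalIdeal _).mpr hu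
      rw [hmax] at h1
      exact Ideal.mem_span_singleton.mp h1
  · exact Or.inr h

/-- **Trichotomy**: type `T`, type `S`, or both coordinates divisible by `Q`. -/
theorem S34UH_trichotomy {π : O} (hπ : Irreducible π) (Q a b : O) :
    (∃ ρ : O, Q = a * ρ ∧ π ∣ ρ) ∨ (∃ ρ : O, Q = b * ρ ∧ π ∣ ρ) ∨ (Q ∣ a ∧ Q ∣ b) := by
  rcases S34UH_lt_or_dvd hπ Q a with h | h
  · exact Or.inl h
  · rcases S34UH_lt_or_dvd hπ Q b with h' | h'
    · exact Or.inr (Or.inl h')
    · exact Or.inr (Or.inr ⟨h, h'⟩)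

/-- The type is preserved by every ring endomorphism of `O` fixing `Q` and preserving `(π)`
(inertia). -/
theorem S34UH_type_map {π Q a ρ : O} (τ : O →+* O) (hτQ : τ Q = Q) (hτπ : π ∣ τ π)
    (hρ : Q = a * ρ) (hρπ : π ∣ ρ) : Q = τ a * τ ρ ∧ π ∣ τ ρ := by
  constructor
  · rw [← map_mul, ← hρ, hτQ]
  · obtain ⟨s, rfl⟩ := hρπ
    rw [map_mul]
    exact Dvd.dvd.mul_right hτπ _

/-- If `Q' ∣ Q` (a coarser stage of the iteration) the type `T` condition at `Q'` implies the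
one at `Q`. -/
theorem S34UH_type_mono {π Q Q' a ρ : O} (hQ : Q' ∣ Q)
    (hρ : Q' = a * ρ) (hρπ : π ∣ ρ) : ∃ ρ' : O, Q = a * ρ' ∧ π ∣ ρ' := by
  obtain ⟨s, rfl⟩ := hQ
  exact ⟨ρ * s, by rw [hρ]; ring, Dvd.dvd.mul_right hρπ _⟩

end Trichotomy

section Family

variable {O R : Type*} [CommRing O] [IsDomain O] [CommRing R] [IsLocalRing R] [Algebra O R]
  [IsNoetherianRing R]

/-- **Bookkeeping for a finite family of sections of type `T`.** Let `𝔓` be a horizontal prime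
of `R`. If `T - φ i T ∈ 𝔓` for some `i` then `𝔓 = ker (φ i)`, `T - φ i T` generates `𝔓` up to
the constant `φ i T ∉ 𝔓`, and `T - φ k T ∉ 𝔓` for every `k` with `φ k ≠ φ i`. -/
theorem S34UH_family {ι : Type*} {π Q : O} (hπ : π ≠ 0) (hQ : Q ≠ 0) {T S c : R}
    (hn : maximalIdeal R = Ideal.span ({algebraMap O R π, T, S} : Set R))
    (hTS : T * S = algebraMap O R Q * c)
    (φ : ι → (R →ₐ[O] O)) (ha : ∀ i, π ∣ φ i T) (hb : ∀ i, π ∣ φ i S)
    (hρ : ∀ i, ∃ ρ : O, Q = φ i T * ρ ∧ π ∣ ρ)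
    (𝔓 : Ideal R) [h𝔓 : 𝔓.IsPrime] (hO : ∀ o : O, algebraMap O R o ∈ 𝔓 → o = 0)
    (i : ι) (hi : T - algebraMap O R (φ i T) ∈ 𝔓) :
    𝔓 = RingHom.ker (φ i : R →+* O) ∧
      algebraMap O R (φ i T) ∉ 𝔓 ∧
      (∀ x ∈ 𝔓, ∃ r : R, algebraMap O R (φ i T) * x = r * (T - algebraMap O R (φ i T))) ∧
      ∀ k, φ k ≠ φ i → T - algebraMap O R (φ k T) ∉ 𝔓 := by
  obtain ⟨ρ, hρ1, hρ2⟩ := hρ i
  have hker := S34UH_prime_eq_ker hπ hQ hn hTS (φ i) (ha i) (hb i) hρ1 hρ2 𝔓 hO hi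
  refine ⟨hker, ?_, ?_, ?_⟩
  · intro h
    exact S34UH_ne_zero hQ hρ1 (hO _ h)
  · intro x hx
    rw [hker] at hx
    exact S34UH_unif hπ hn hTS (φ i) (ha i) (hb i) hρ1 hρ2 x ((RingHom.mem_ker).mp hx)
  · intro k hk hmem
    obtain ⟨ρ', hρ1', hρ2'⟩ := hρ k
    rw [hker] at hmem
    exact S34UH_notMem_ker hπ hQ hn hTS (φ k) (ha k) (hb k) hρ1' hρ2' (φ i) (Ne.symm hk)
      ((RingHom.mem_ker).mp hmem)

/-- **Bookkeeping, type `S`.** -/
theorem S34UH_family' {ι : Type*} {π Q : O} (hπ : π ≠ 0) (hQ : Q ≠ 0) {T S c : R}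
    (hn : maximalIdeal R = Ideal.span ({algebraMap O R π, T, S} : Set R))
    (hTS : T * S = algebraMap O R Q * c)
    (φ : ι → (R →ₐ[O] O)) (ha : ∀ i, π ∣ φ i T) (hb : ∀ i, π ∣ φ i S)
    (hρ : ∀ i, ∃ ρ : O, Q = φ i S * ρ ∧ π ∣ ρ)
    (𝔓 : Ideal R) [h𝔓 : 𝔓.IsPrime] (hO : ∀ o : O, algebraMap O R o ∈ 𝔓 → o = 0)
    (i : ι) (hi : S - algebraMap O R (φ i S) ∈ 𝔓) :
    𝔓 = RingHom.ker (φ i : R →+* O) ∧
      algebraMap O R (φ i S) ∉ 𝔓 ∧
      (∀ x ∈ 𝔓, ∃ r : R, algebraMap O R (φ i S) * x = r * (S - algebraMap O R (φ i S))) ∧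
      ∀ k, φ k ≠ φ i → S - algebraMap O R (φ k S) ∉ 𝔓 :=
  S34UH_family hπ hQ (S34UH_swap_hn hn) (by rw [mul_comm]; exact hTS) φ hb ha hρ 𝔓 hO i hi

/-- **Mixed case**: a section `φ` of type `T` and a section `ψ ≠ φ` of type `S`: the generator
`S - ψ S` of `ker ψ` does not vanish at `φ`, and `T - φ T` does not vanish at `ψ`. -/
theorem S34UH_mixed {π Q ρ ρ' : O} (hπ : π ≠ 0) (hQ : Q ≠ 0) {T S c : R}
    (hn : maximalIdeal R = Ideal.span ({algebraMap O R π, T, S} : Set R))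
    (hTS : T * S = algebraMap O R Q * c)
    (φ ψ : R →ₐ[O] O) (ha : π ∣ φ T) (hb : π ∣ φ S) (ha' : π ∣ ψ T) (hb' : π ∣ ψ S)
    (hρ : Q = φ T * ρ) (hρπ : π ∣ ρ) (hρ' : Q = ψ S * ρ') (hρπ' : π ∣ ρ') (hne : ψ ≠ φ) :
    ψ (T - algebraMap O R (φ T)) ≠ 0 ∧ φ (S - algebraMap O R (ψ S)) ≠ 0 :=
  ⟨S34UH_notMem_ker hπ hQ hn hTS φ ha hb hρ hρπ ψ hne,
    S34UH_notMem_ker' hπ hQ hn hTS ψ ha' hb' hρ' hρπ' φ (Ne.symm hne)⟩

end Family

end Fermat.Agent.S34_helper26_UNIQH
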