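import Mathlib
import Fermat.Agent.S34_Contracts2
import Fermat.Agent.S34_helper26_UNIQH
import Fermat.Agent.S34_helper26_ORD
import Fermat.Agent.S37_helper5_F2F4
import Fermat.Agent.S37_helper15_HEXF
import Fermat.Agent.S34_helper21_ACT

/-!
# S34, piece X-LOCGEN-ORD (concrete): exact orders at the places centred at a crossing point

`X` a chart at level `K1`, `m` a maximal ideal over `π`, `R = locRing X m` with node coordinates
`T`, `S` (`maximalIdeal R = (π, T, S)`, `T S = C Q c`).  For a `K1`-rational place `P` centred at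
`m` whose value `a` at `T` is of type `T` (`Q = a ρ`, `π ∣ ρ`) and EVERY place `P'` (rational or
not) which is nonnegative on `R`:

  `ord_{P'} (T - C a) = 1` if `P' = P`, and `0` otherwise.
-/

set_option autoImplicit false
set_option linter.style.haveILetI false
set_option linter.unusedSectionVars false
set_option linter.unusedVariables false
set_option synthInstance.maxHeartbeats 400000
set_option maxHeartbeats 1600000

open AlgebraicCurve ModularCurve HahnSeries IntermediateField
open Fermat.Agent.S18_helper25_COREDefs Fermat.Agent.S18_helper13_GAUSS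
  Fermat.Agent.S18_helper9_CDefs Fermat.Agent.S18_helper19_PLACEMOD
  Fermat.Agent.S18_helper19_PLACEUNR Fermat.Agent.S18_helper3_LOCRING
  Fermat.Agent.S37_helper4_B1Defs Fermat.Agent.S37_helper5_LEVEL
  Fermat.Agent.S37_helper5_F2F4 Fermat.Agent.S37_helper19_PLACERES
  Fermat.Agent.S34_Contracts Fermat.Agent.S34_helper26_UNIQH Fermat.Agent.S34_helper26_ORD
  Fermat.Agent.S34_helper21_ACT Fermat.Agent.S37_helper15_HEXF Fermat.Agent.S34_helper5_K0

noncomputable section

namespace Fermat.Agent.S34_helper26_ORDK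

local notation "Qb" => AlgebraicClosure ℚ

variable (N : ℕ) [NeZero N] (K1 : IntermediateField ℚ Qb)

/-! ### Part 1: values and orders -/

/-- constants lie in the function field -/
theorem S34LOK_C_mem (c : K1) : (HahnSeries.C c : LaurentSeries K1) ∈
    modularFunctionFieldFullC K1 N := by
  rw [Fermat.Agent.S18_helper26_CONST.S18P15_C_eq_algebraMap]
  exact (modularFunctionFieldFullC K1 N).algebraMap_mem c

/-- the order of a nonzero constant is `0` -/
theorem S34LOK_ordP_C (P : Place Qb (modularFunctionFieldBar N)) (c : K1) :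
    S37B1_ordP N K1 P (HahnSeries.C c) = 0 := by
  have h := S37F24_ordP_eq N K1 P ⟨HahnSeries.C c, S34LOK_C_mem N K1 c⟩
  rw [show ((⟨HahnSeries.C c, S34LOK_C_mem N K1 c⟩ : modularFunctionFieldFullC K1 N) :
    LaurentSeries K1) = HahnSeries.C c from rfl] at h
  rw [h]
  have h1 : (⟨HahnSeries.C c, S34LOK_C_mem N K1 c⟩ : modularFunctionFieldFullC K1 N) =
      algebraMap K1 (modularFunctionFieldFullC K1 N) c := by
    apply Subtype.ext
    show (HahnSeries.C c : LaurentSeries K1) = algebraMap K1 (LaurentSeries K1) c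
    rw [Fermat.Agent.S18_helper26_CONST.S18P15_C_eq_algebraMap]
  rw [h1]
  exact Fermat.Agent.S24_helper6_A2.ord_algebraMap_eq_zero _ c

/-- nonnegativity of the order, in terms of the restricted place -/
theorem S34LOK_ordP_nonneg_iff (P : Place Qb (modularFunctionFieldBar N))
    (x : modularFunctionFieldFullC K1 N) :
    0 ≤ S37B1_ordP N K1 P (x : LaurentSeries K1) ↔
      x ∈ (S37F24_res N K1 P).toValuationSubring := by
  rw [S37F24_ordP_eq]
  exact ⟨fun h => Fermat.Agent.S24_helper6_A2.mem_of_ord_nonneg _ h,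
    fun h => Fermat.Agent.S24_helper6_A2.ord_nonneg_of_mem _ h⟩

/-- A function with a value at `P` is regular at `P`. -/
theorem S34LOK_nonneg_of_valueAt (P : Place Qb (modularFunctionFieldBar N))
    {a : LaurentSeries K1} (ha : a ∈ modularFunctionFieldFullC K1 N) {c : Qb}
    (h : S34K_ValueAt N K1 P a c) : 0 ≤ S37B1_ordP N K1 P a := by
  obtain ⟨z, hz, hzP⟩ := h
  rw [S37B1_ordP, dif_pos ha]
  apply Fermat.Agent.S24_helper6_A2.ord_nonneg_of_mem
  have e : S18A3C_inc N (algebraMap K1 Qb) ⟨a, ha⟩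
      = z + algebraMap Qb (modularFunctionFieldBar N) c := by
    apply Subtype.ext
    show coeffMap (algebraMap K1 Qb) a = (z : LaurentSeries Qb) + algebraMap Qb (LaurentSeries Qb) c
    rw [hz, ← Fermat.Agent.S18_helper26_CONST.S18P15_C_eq_algebraMap]
    ring
  rw [e]
  refine P.toValuationSubring.add_mem _ _ ?_ (P.algebraMap_mem' c)
  rcases hzP with h0 | h0
  · rw [h0]
    exact P.toValuationSubring.zero_mem
  · exact Fermat.Agent.S24_helper6_A2.mem_of_ord_nonneg _ h0.le

/-- A function with a nonzero value at `P` has order `0` at `P`. -/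
theorem S34LOK_ord_eq_zero_of_valueAt (P : Place Qb (modularFunctionFieldBar N))
    {a : LaurentSeries K1} (ha : a ∈ modularFunctionFieldFullC K1 N) {c : Qb} (hc : c ≠ 0)
    (h : S34K_ValueAt N K1 P a c) : S37B1_ordP N K1 P a = 0 := by
  obtain ⟨z, hz, hzP⟩ := h
  rw [S37B1_ordP, dif_pos ha]
  have e : S18A3C_inc N (algebraMap K1 Qb) ⟨a, ha⟩
      = z + algebraMap Qb (modularFunctionFieldBar N) c := by
    apply Subtype.ext
    show coeffMap (algebraMap K1 Qb) a = (z : LaurentSeries Qb) + algebraMap Qb (LaurentSeries Qb) c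
    rw [hz, ← Fermat.Agent.S18_helper26_CONST.S18P15_C_eq_algebraMap]
    ring
  rcases hzP with h0 | h0
  · rw [e, h0, zero_add]
    exact Fermat.Agent.S24_helper6_A2.ord_algebraMap_eq_zero _ c
  · have h1 : 0 < P.ord (S18A3C_inc N (algebraMap K1 Qb) ⟨a, ha⟩
        - algebraMap Qb (modularFunctionFieldBar N) c) := by
      rw [e, add_sub_cancel_right]
      exact h0
    have h2 := Fermat.Agent.S24_helper6_A2.ord_sub_const_eq_zero_of_ne _ P hc h1
    rw [map_zero, sub_zero] at h2
    exact h2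

/-! ### Part 2: centred places on the local ring -/

section Centred

variable (A : ValuationSubring Qb) (X : Subring (LaurentSeries K1)) (m : Ideal X)
  [hm : m.IsPrime]

theorem S34LOK_locRing_le_F1 (hXF : ∀ x ∈ X, x ∈ modularFunctionFieldFullC K1 N) :
    ∀ x ∈ locRing X m, x ∈ modularFunctionFieldFullC K1 N := by
  rintro x ⟨a, c, hc, h⟩
  have hc0 : (c : LaurentSeries K1) ≠ 0 := coe_ne_zero_of_notMem X m hc
  have e : x = (a : LaurentSeries K1) * (c : LaurentSeries K1)⁻¹ := by
    rw [← h, mul_assoc, mul_inv_cancel₀ hc0, mul_one]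
  rw [e]
  exact (modularFunctionFieldFullC K1 N).mul_mem (hXF _ a.2)
    ((modularFunctionFieldFullC K1 N).inv_mem (hXF _ c.2))

/-- An element of the chart outside `m` has order `0` at every place centred at `m`. -/
theorem S34LOK_ord_eq_zero_of_notMem (hXF : ∀ x ∈ X, x ∈ modularFunctionFieldFullC K1 N)
    (P : Place Qb (modularFunctionFieldBar N)) (hcen : S34K_Centred N A K1 X m P)
    (c : X) (hc : c ∉ m) : S37B1_ordP N K1 P (c : LaurentSeries K1) = 0 := by
  obtain ⟨v, hvA, hval⟩ := hcen.1 c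
  have hnu : v ∉ A.nonunits := fun h => hc ((hcen.2 c v hvA hval).mpr h)
  have hv0 : v ≠ 0 := by
    rintro rfl
    apply hnu
    rw [ValuationSubring.mem_nonunits_iff, map_zero]
    exact zero_lt_one
  exact S34LOK_ord_eq_zero_of_valueAt N K1 P (hXF _ c.2) hv0 hval

/-- **A place centred at `m` is nonnegative on the local ring at `m`.** -/
theorem S34LOK_nonneg_of_centred (hXF : ∀ x ∈ X, x ∈ modularFunctionFieldFullC K1 N)
    (P : Place Qb (modularFunctionFieldBar N)) (hcen : S34K_Centred N A K1 X m P) :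
    ∀ x ∈ locRing X m, x ≠ 0 → 0 ≤ S37B1_ordP N K1 P x := by
  rintro x ⟨a, c, hc, h⟩ hx0
  have hc0 : (c : LaurentSeries K1) ≠ 0 := coe_ne_zero_of_notMem X m hc
  have hxF := S34LOK_locRing_le_F1 N K1 X m hXF x ⟨a, c, hc, h⟩
  have h1 := S37F24_ordP_mul N K1 P hxF (hXF _ c.2) hx0 hc0
  rw [h, S34LOK_ord_eq_zero_of_notMem N K1 A X m hXF P hcen c hc, add_zero] at h1
  rw [← h1]
  obtain ⟨v, hvA, hval⟩ := hcen.1 a
  exact S34LOK_nonneg_of_valueAt N K1 P (hXF _ a.2) hval

/-- The value map of a rational place centred at `m`, on the chart: the values lie in `A`, and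
the value is a nonunit exactly on `m`. -/
theorem S34LOK_value_chart (hXF : ∀ x ∈ X, x ∈ modularFunctionFieldFullC K1 N)
    (hO : S18K_O A K1 ≤ X)
    (P : Place Qb (modularFunctionFieldBar N)) (hrat : S37LEVEL_IsRational N K1 P)
    (hcen : S34K_Centred N A K1 X m P)
    (ψ : locRing X m →+* K1) (hψ : S34ACT_IsValueMap K1 N P (locRing X m) ψ) (a : X) :
    ((ψ (incl X m a) : K1) : Qb) ∈ A ∧
      (((ψ (incl X m a) : K1) : Qb) ∈ A.nonunits ↔ a ∈ m) := by
  obtain ⟨c, hcA, hval⟩ := hcen.1 a
  have hiff := hcen.2 a c hcA hval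
  obtain ⟨z, hz, hzP⟩ := hval
  have hcK : c ∈ K1 := hrat (a : LaurentSeries K1) (hXF _ a.2) z c hz (by tauto)
  have hc1O : (HahnSeries.C (⟨c, hcK⟩ : K1) : LaurentSeries K1) ∈ S18K_O A K1 :=
    (S18K_mem_O A K1 _).mpr ⟨⟨c, hcK⟩, hcA, rfl⟩
  have hc1R : (HahnSeries.C (⟨c, hcK⟩ : K1) : LaurentSeries K1) ∈ locRing X m :=
    le_locRing X m (hO hc1O)
  have key : ψ (incl X m a - ⟨HahnSeries.C (⟨c, hcK⟩ : K1), hc1R⟩) = 0 := by
    by_cases h0 : ((incl X m a - ⟨HahnSeries.C (⟨c, hcK⟩ : K1), hc1R⟩ : locRing X m) :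
        LaurentSeries K1) = 0
    · have : (incl X m a - ⟨HahnSeries.C (⟨c, hcK⟩ : K1), hc1R⟩ : locRing X m) = 0 :=
        Subtype.ext h0
      rw [this, map_zero]
    · rw [hψ.2 _ h0]
      have hmem : ((a : LaurentSeries K1) - HahnSeries.C (⟨c, hcK⟩ : K1)) ∈
          modularFunctionFieldFullC K1 N :=
        (modularFunctionFieldFullC K1 N).sub_mem (hXF _ a.2) (S34LOK_C_mem N K1 _)
      show 0 < S37B1_ordP N K1 P ((a : LaurentSeries K1) - HahnSeries.C (⟨c, hcK⟩ : K1))
      rw [S37B1_ordP, dif_pos hmem]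
      have e : S18A3C_inc N (algebraMap K1 Qb)
          ⟨(a : LaurentSeries K1) - HahnSeries.C (⟨c, hcK⟩ : K1), hmem⟩ = z := by
        apply Subtype.ext
        show coeffMap (algebraMap K1 Qb)
          ((a : LaurentSeries K1) - HahnSeries.C (⟨c, hcK⟩ : K1)) = (z : LaurentSeries Qb)
        rw [hz, map_sub]
        congr 1
        rw [HahnSeries.C_apply, coeffMap_single, ← HahnSeries.C_apply]
        rfl
      rw [e]
      rcases hzP with h1 | h1
      · exfalso
        apply h0
        rw [h1] at e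
        have h2 := (S18A3C_inc N (algebraMap K1 Qb)).injective
          (e.trans (map_zero (S18A3C_inc N (algebraMap K1 Qb))).symm)
        exact congrArg Subtype.val h2
      · exact h1
  have hψa : ψ (incl X m a) = ⟨c, hcK⟩ := by
    rw [map_sub, sub_eq_zero] at key
    rw [key, hψ.1 _ hc1R]
  rw [hψa]
  exact ⟨hcA, hiff.symm⟩

/-- **The value map of a rational place centred at `m` takes its values in `O1`.** -/
theorem S34LOK_value_mem (hXF : ∀ x ∈ X, x ∈ modularFunctionFieldFullC K1 N)
    (hO : S18K_O A K1 ≤ X)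
    (P : Place Qb (modularFunctionFieldBar N)) (hrat : S37LEVEL_IsRational N K1 P)
    (hcen : S34K_Centred N A K1 X m P)
    (ψ : locRing X m →+* K1) (hψ : S34ACT_IsValueMap K1 N P (locRing X m) ψ)
    (x : locRing X m) : ψ x ∈ S18K_O1 A K1 := by
  obtain ⟨a, c, hc, h⟩ := x.2
  have ha := S34LOK_value_chart N K1 A X m hXF hO P hrat hcen ψ hψ a
  have hcv := S34LOK_value_chart N K1 A X m hXF hO P hrat hcen ψ hψ c
  have hcnu : ((ψ (incl X m c) : K1) : Qb) ∉ A.nonunits := fun h1 => hc (hcv.2.mp h1)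
  have hxc : x * incl X m c = incl X m a := Subtype.ext h
  have hψ1 : ψ x * ψ (incl X m c) = ψ (incl X m a) := by rw [← map_mul, hxc]
  -- the value of `c` is a unit of `A`
  have hcval : A.valuation ((ψ (incl X m c) : K1) : Qb) = 1 := by
    have h1 : A.valuation ((ψ (incl X m c) : K1) : Qb) ≤ 1 :=
      (A.valuation_le_one_iff _).mpr hcv.1
    rw [ValuationSubring.mem_nonunits_iff, not_lt] at hcnu
    exact le_antisymm h1 hcnu
  rw [S18K_mem_O1, ← A.valuation_le_one_iff]
  have h2 : A.valuation ((ψ x : K1) : Qb) * A.valuation ((ψ (incl X m c) : K1) : Qb)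
      = A.valuation ((ψ (incl X m a) : K1) : Qb) := by
    rw [← map_mul, ← hψ1]
    rfl
  rw [hcval, mul_one] at h2
  rw [h2]
  exact (A.valuation_le_one_iff _).mpr ha.1

end Centred

/-! ### Part 3: the exact orders -/

section Main

variable (A : ValuationSubring Qb) [IsDiscreteValuationRing (S18K_O1 A K1)]
  (X : Subring (LaurentSeries K1)) (m : Ideal X) [hm : m.IsPrime]

/-- The structure map `O1 → locRing X m` (constants). -/
def S34LOK_base (hO : S18K_O A K1 ≤ X) : S18K_O1 A K1 →+* locRing X m :=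
  ((HahnSeries.C : K1 →+* LaurentSeries K1).comp (S18K_O1 A K1).subtype).codRestrict
    (locRing X m)
    (fun o => le_locRing X m (hO ((S18K_mem_O A K1 _).mpr ⟨(o : K1), o.2, rfl⟩)))

theorem S34LOK_base_coe (hO : S18K_O A K1 ≤ X) (o : S18K_O1 A K1) :
    ((S34LOK_base K1 A X m hO o : locRing X m) : LaurentSeries K1) = HahnSeries.C (o : K1) :=
  rfl

/-- A unit of a valuation subring has valuation `1`. -/
theorem S34LOK_valuation_eq_one {F : Type*} [Field F] (V : ValuationSubring F) {x : F}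
    (hx : x ∈ V) (hx' : x⁻¹ ∈ V) (hx0 : x ≠ 0) : V.valuation x = 1 := by
  have h1 : V.valuation x ≤ 1 := (V.valuation_le_one_iff _).mpr hx
  have h2 : V.valuation x⁻¹ ≤ 1 := (V.valuation_le_one_iff _).mpr hx'
  rw [map_inv₀] at h2
  have h3 : V.valuation x ≠ 0 := (Valuation.ne_zero_iff _).mpr hx0
  have h4 : 1 ≤ V.valuation x := by
    by_contra h
    rw [not_le] at h
    have h5 : 1 < (V.valuation x)⁻¹ := (one_lt_inv₀ (zero_lt_iff.mpr h3)).mpr h
    exact absurd h2 (not_le.mpr h5)
  exact le_antisymm h1 h4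

/-- **The exact orders of `T - C a`** (type `T`): order `1` at `P`, order `0` at every other
place which is nonnegative on the local ring. -/
theorem S34LOK_ord [IsNoetherianRing X]
    (hXF : ∀ x ∈ X, x ∈ modularFunctionFieldFullC K1 N)
    (hfrac : ∀ x ∈ modularFunctionFieldFullC K1 N,
      ∃ a b : X, b ≠ 0 ∧ x * (b : LaurentSeries K1) = a)
    (hO : S18K_O A K1 ≤ X) (hπ : S18K_π A K1 ∈ X)
    (T S c : locRing X m)
    (hn : IsLocalRing.maximalIdeal (locRing X m)
      = Ideal.span {incl X m ⟨S18K_π A K1, hπ⟩, T, S})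
    (Q : S18K_O1 A K1) (hQ : Q ≠ 0)
    (hTS : (T : LaurentSeries K1) * (S : LaurentSeries K1)
      = HahnSeries.C (Q : K1) * (c : LaurentSeries K1))
    (P : Place Qb (modularFunctionFieldBar N)) (hrat : S37LEVEL_IsRational N K1 P)
    (hcen : S34K_Centred N A K1 X m P)
    (a ρ : S18K_O1 A K1) (haT : S34ACT_Val K1 N P (T : LaurentSeries K1) (a : K1))
    (hρ : Q = a * ρ) (hρπ : (S18K_D A K1).π ∣ ρ) :
    (T : LaurentSeries K1) - HahnSeries.C (a : K1) ≠ 0 ∧
    S37B1_ordP N K1 P ((T : LaurentSeries K1) - HahnSeries.C (a : K1)) = 1 ∧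
    ∀ P' : Place Qb (modularFunctionFieldBar N),
      (∀ x ∈ locRing X m, x ≠ 0 → 0 ≤ S37B1_ordP N K1 P' x) → P' ≠ P →
      S37B1_ordP N K1 P' ((T : LaurentSeries K1) - HahnSeries.C (a : K1)) = 0 := by
  classical
  haveI hnoeth : IsNoetherianRing (locRing X m) := isNoetherianRing_locRing X m
  letI alg : Algebra (S18K_O1 A K1) (locRing X m) := (S34LOK_base K1 A X m hO).toAlgebra
  have halg : ∀ o : S18K_O1 A K1,
      ((algebraMap (S18K_O1 A K1) (locRing X m) o : locRing X m) : LaurentSeries K1)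
        = HahnSeries.C (o : K1) := fun o => rfl
  have hRF := S34LOK_locRing_le_F1 N K1 X m hXF
  have hnn := S34LOK_nonneg_of_centred N K1 A X m hXF P hcen
  obtain ⟨ψ, hψC, hψ0⟩ := S37HEXF_F1 N K1 P hrat (locRing X m) hRF hnn
  have hψ : S34ACT_IsValueMap K1 N P (locRing X m) ψ := ⟨hψC, hψ0⟩
  have hmem := S34LOK_value_mem N K1 A X m hXF hO P hrat hcen ψ hψ
  -- the section
  let φ : locRing X m →ₐ[S18K_O1 A K1] S18K_O1 A K1 :=
    { toRingHom := ψ.codRestrict (S18K_O1 A K1) hmem
      commutes' := fun o => Subtype.ext (hψC (o : K1) _) }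
  have hφ : ∀ x : locRing X m, ((φ x : S18K_O1 A K1) : K1) = ψ x := fun x => rfl
  -- the value of `T`
  have haR : (HahnSeries.C (a : K1) : LaurentSeries K1) ∈ locRing X m :=
    (algebraMap (S18K_O1 A K1) (locRing X m) a).2
  have hψT : ψ T = (a : K1) := by
    have key : ψ (T - ⟨HahnSeries.C (a : K1), haR⟩) = 0 := by
      by_cases h0 : ((T - ⟨HahnSeries.C (a : K1), haR⟩ : locRing X m) : LaurentSeries K1) = 0
      · have : (T - ⟨HahnSeries.C (a : K1), haR⟩ : locRing X m) = 0 := Subtype.ext h0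
        rw [this, map_zero]
      · rw [hψ0 _ h0]
        rcases haT.2 with h1 | h1
        · exfalso
          apply h0
          show (T : LaurentSeries K1) - HahnSeries.C (a : K1) = 0
          rw [h1, sub_self]
        · exact h1
    rw [map_sub, sub_eq_zero] at key
    rw [key, hψC _ haR]
  have hφT : φ T = a := Subtype.ext (by rw [hφ, hψT])
  -- the hypotheses of UNIQH
  have hπirr : Irreducible (S18K_D A K1).π := S34K0_pi_irreducible A K1
  have hmax : IsLocalRing.maximalIdeal (S18K_O1 A K1) = Ideal.span {(S18K_D A K1).π} :=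
    (IsDiscreteValuationRing.irreducible_iff_uniformizer _).mp hπirr
  have hπ0 : (S18K_D A K1).π ≠ 0 := hπirr.ne_zero
  have hπeq : algebraMap (S18K_O1 A K1) (locRing X m) (S18K_D A K1).π
      = incl X m ⟨S18K_π A K1, hπ⟩ := Subtype.ext rfl
  have hn' : IsLocalRing.maximalIdeal (locRing X m)
      = Ideal.span {algebraMap (S18K_O1 A K1) (locRing X m) (S18K_D A K1).π, T, S} := by
    rw [hπeq]
    exact hn
  have hTS' : T * S = algebraMap (S18K_O1 A K1) (locRing X m) Q * c := Subtype.ext hTS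
  obtain ⟨ha', hb'⟩ := S34UH_dvd_of_section hmax hn' φ
  have hρ' : Q = φ T * ρ := by rw [hφT]; exact hρ
  have ha0 : a ≠ 0 := by
    rintro rfl
    rw [zero_mul] at hρ
    exact hQ hρ
  have hunif : ∀ x : locRing X m, φ x = 0 → ∃ r : locRing X m,
      algebraMap (S18K_O1 A K1) (locRing X m) a * x
        = r * (T - algebraMap (S18K_O1 A K1) (locRing X m) a) := by
    intro x hx
    have := S34UH_unif hπ0 hn' hTS' φ ha' hb' hρ' hρπ x hx
    rw [hφT] at this
    exact this
  -- the function field and the order function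
  let ιR : locRing X m →+* modularFunctionFieldFullC K1 N :=
    (locRing X m).subtype.codRestrict (modularFunctionFieldFullC K1 N) (fun x => hRF x x.2)
  letI algF : Algebra (locRing X m) (modularFunctionFieldFullC K1 N) := ιR.toAlgebra
  have hιR : ∀ r : locRing X m,
      ((algebraMap (locRing X m) (modularFunctionFieldFullC K1 N) r :
        modularFunctionFieldFullC K1 N) : LaurentSeries K1) = (r : LaurentSeries K1) :=
    fun r => rfl
  have hv : ∀ (Pl : Place Qb (modularFunctionFieldBar N)) (r : locRing X m),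
      (S37F24_res N K1 Pl).ord (algebraMap (locRing X m) (modularFunctionFieldFullC K1 N) r)
        = S37B1_ordP N K1 Pl (r : LaurentSeries K1) := by
    intro Pl r
    rw [← S37F24_ordP_eq]
    rfl
  have hr0 : ∀ r : locRing X m, r ≠ 0 → (r : LaurentSeries K1) ≠ 0 :=
    fun r hr h => hr (Subtype.ext h)
  have H : S34LO_Ord (φ : locRing X m →+* S18K_O1 A K1) (S37F24_res N K1 P).ord := by
    refine ⟨?_, ?_, ?_, ?_⟩
    · intro x y hxy
      apply Subtype.ext
      have := congrArg (fun z : modularFunctionFieldFullC K1 N => (z : LaurentSeries K1)) hxy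
      exact this
    · intro x y hx hy
      exact (S37F24_res N K1 P).ord_mul hx hy
    · intro r hr
      rw [hv]
      exact hnn _ r.2 (hr0 r hr)
    · intro r hr
      rw [hv, ← hψ0 r (hr0 r hr)]
      constructor
      · intro h
        exact Subtype.ext h
      · intro h
        exact congrArg (fun z : S18K_O1 A K1 => (z : K1)) h
  have hfrac' : ∀ y : modularFunctionFieldFullC K1 N, ∃ r s : locRing X m, s ≠ 0 ∧
      y * algebraMap (locRing X m) (modularFunctionFieldFullC K1 N) s
        = algebraMap (locRing X m) (modularFunctionFieldFullC K1 N) r := by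
    intro y
    obtain ⟨a', b', hb0, hab⟩ := hfrac (y : LaurentSeries K1) y.2
    refine ⟨incl X m a', incl X m b', ?_, ?_⟩
    · intro h
      apply hb0
      exact incl_injective X m (by rw [h, map_zero])
    · apply Subtype.ext
      exact hab
  set g : locRing X m := T - algebraMap (S18K_O1 A K1) (locRing X m) a with hgdef
  have hgcoe : (g : LaurentSeries K1) = (T : LaurentSeries K1) - HahnSeries.C (a : K1) := rfl
  have hg : φ g = 0 := by
    rw [hgdef, map_sub, φ.commutes, hφT]
    exact sub_self _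
  have haφ : (φ : locRing X m →+* S18K_O1 A K1)
      (algebraMap (S18K_O1 A K1) (locRing X m) a) ≠ 0 := by
    show φ (algebraMap (S18K_O1 A K1) (locRing X m) a) ≠ 0
    rw [φ.commutes]
    exact ha0
  -- a uniformiser over `K1`
  obtain ⟨t, htF, ht1⟩ := S37F24_F2 N K1 P
  have ht1' : (S37F24_res N K1 P).ord (⟨t, htF⟩ : modularFunctionFieldFullC K1 N) = 1 := by
    rw [← S37F24_ordP_eq]
    exact ht1
  have ht0 : (⟨t, htF⟩ : modularFunctionFieldFullC K1 N) ≠ 0 := by
    intro h
    rw [h, Place.ord_zero] at ht1'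
    exact zero_ne_one ht1'
  obtain ⟨hg0, hg1⟩ := S34LO_ord_eq_one H haφ hg hunif hfrac' _ ht0 ht1'
  have hg0' : (T : LaurentSeries K1) - HahnSeries.C (a : K1) ≠ 0 := by
    rw [← hgcoe]
    exact hr0 g hg0
  refine ⟨hg0', ?_, ?_⟩
  · rw [← hgcoe, ← hv]
    exact hg1
  · intro P' hnn' hne
    have h1 : 0 ≤ S37B1_ordP N K1 P' (g : LaurentSeries K1) := hnn' _ g.2 (hr0 g hg0)
    rw [← hgcoe]
    by_contra h2
    have h3 : 0 < S37B1_ordP N K1 P' (g : LaurentSeries K1) := lt_of_le_of_ne h1 (Ne.symm h2)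
    apply hne
    symm
    -- the valuation ring of `P'`
    have hR' : ∀ r : locRing X m,
        algebraMap (locRing X m) (modularFunctionFieldFullC K1 N) r
          ∈ (S37F24_res N K1 P').toValuationSubring := by
      intro r
      by_cases hr : r = 0
      · rw [hr, map_zero]
        exact (S37F24_res N K1 P').toValuationSubring.zero_mem
      · apply Fermat.Agent.S24_helper6_A2.mem_of_ord_nonneg
        rw [hv]
        exact hnn' _ r.2 (hr0 r hr)
    have hconst : ∀ o : S18K_O1 A K1, o ≠ 0 →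
        (S37F24_res N K1 P').toValuationSubring.valuation
          (algebraMap (locRing X m) (modularFunctionFieldFullC K1 N)
            (algebraMap (S18K_O1 A K1) (locRing X m) o)) = 1 := by
      intro o ho
      have e : algebraMap (locRing X m) (modularFunctionFieldFullC K1 N)
          (algebraMap (S18K_O1 A K1) (locRing X m) o)
          = algebraMap K1 (modularFunctionFieldFullC K1 N) (o : K1) := by
        apply Subtype.ext
        show (HahnSeries.C (o : K1) : LaurentSeries K1) = algebraMap K1 (LaurentSeries K1) (o : K1)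
        rw [Fermat.Agent.S18_helper26_CONST.S18P15_C_eq_algebraMap]
      rw [e]
      have ho' : (o : K1) ≠ 0 := fun h => ho (Subtype.ext h)
      apply S34LOK_valuation_eq_one
      · exact (S37F24_res N K1 P').algebraMap_mem' _
      · rw [← map_inv₀]
        exact (S37F24_res N K1 P').algebraMap_mem' _
      · exact (map_ne_zero _).mpr ho'
    have hg' : (S37F24_res N K1 P').toValuationSubring.valuation
        (algebraMap (locRing X m) (modularFunctionFieldFullC K1 N) g) < 1 := by
      rw [← ValuationSubring.mem_nonunits_iff, ValuationSubring.mem_nonunits_iff_or]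
      have h4 : 0 < (S37F24_res N K1 P').ord
          (algebraMap (locRing X m) (modularFunctionFieldFullC K1 N) g) := by
        rw [hv]
        exact h3
      exact (S18A3_isN_of_ord_pos _ h4).2
    have hle := S34LO_mem_of_nonneg φ H hfrac' ha0 hg hunif
      (S37F24_res N K1 P').toValuationSubring hR' hconst hg'
    exact S37UC_place_unique N (algebraMap K1 Qb) (S18A3C_inc N (algebraMap K1 Qb))
      (S18A3C_inc_coe N (algebraMap K1 Qb)) (S37F24_res N K1 P)
      (S37F24_isRational_res N K1 hrat) P P' (fun _ hy => hy)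
      (fun y hy => hle y (Fermat.Agent.S24_helper6_A2.ord_nonneg_of_mem _ hy))

/-- **The exact orders of `S - C b`** (type `S`; the mirror of `S34LOK_ord`). -/
theorem S34LOK_ord' [IsNoetherianRing X]
    (hXF : ∀ x ∈ X, x ∈ modularFunctionFieldFullC K1 N)
    (hfrac : ∀ x ∈ modularFunctionFieldFullC K1 N,
      ∃ a b : X, b ≠ 0 ∧ x * (b : LaurentSeries K1) = a)
    (hO : S18K_O A K1 ≤ X) (hπ : S18K_π A K1 ∈ X)
    (T S c : locRing X m)
    (hn : IsLocalRing.maximalIdeal (locRing X m)
      = Ideal.span {incl X m ⟨S18K_π A K1, hπ⟩, T, S})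
    (Q : S18K_O1 A K1) (hQ : Q ≠ 0)
    (hTS : (T : LaurentSeries K1) * (S : LaurentSeries K1)
      = HahnSeries.C (Q : K1) * (c : LaurentSeries K1))
    (P : Place Qb (modularFunctionFieldBar N)) (hrat : S37LEVEL_IsRational N K1 P)
    (hcen : S34K_Centred N A K1 X m P)
    (b ρ : S18K_O1 A K1) (hbS : S34ACT_Val K1 N P (S : LaurentSeries K1) (b : K1))
    (hρ : Q = b * ρ) (hρπ : (S18K_D A K1).π ∣ ρ) :
    (S : LaurentSeries K1) - HahnSeries.C (b : K1) ≠ 0 ∧
    S37B1_ordP N K1 P ((S : LaurentSeries K1) - HahnSeries.C (b : K1)) = 1 ∧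
    ∀ P' : Place Qb (modularFunctionFieldBar N),
      (∀ x ∈ locRing X m, x ≠ 0 → 0 ≤ S37B1_ordP N K1 P' x) → P' ≠ P →
      S37B1_ordP N K1 P' ((S : LaurentSeries K1) - HahnSeries.C (b : K1)) = 0 :=
  S34LOK_ord N K1 A X m hXF hfrac hO hπ S T c
    (by haveI := isNoetherianRing_locRing X m; exact S34UH_swap_hn hn) Q hQ
    (by rw [mul_comm]; exact hTS) P hrat hcen b ρ hbS hρ hρπ

/-- `S34LOK_ord` with the hypothesis on `P'` in the form of the contracts. -/
theorem S34LOK_ord_centred [IsNoetherianRing X]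
    (hXF : ∀ x ∈ X, x ∈ modularFunctionFieldFullC K1 N)
    (hfrac : ∀ x ∈ modularFunctionFieldFullC K1 N,
      ∃ a b : X, b ≠ 0 ∧ x * (b : LaurentSeries K1) = a)
    (hO : S18K_O A K1 ≤ X) (hπ : S18K_π A K1 ∈ X)
    (T S c : locRing X m)
    (hn : IsLocalRing.maximalIdeal (locRing X m)
      = Ideal.span {incl X m ⟨S18K_π A K1, hπ⟩, T, S})
    (Q : S18K_O1 A K1) (hQ : Q ≠ 0)
    (hTS : (T : LaurentSeries K1) * (S : LaurentSeries K1)
      = HahnSeries.C (Q : K1) * (c : LaurentSeries K1))
    (P : Place Qb (modularFunctionFieldBar N)) (hrat : S37LEVEL_IsRational N K1 P)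
    (hcen : S34K_Centred N A K1 X m P)
    (a ρ : S18K_O1 A K1) (haT : S34ACT_Val K1 N P (T : LaurentSeries K1) (a : K1))
    (hρ : Q = a * ρ) (hρπ : (S18K_D A K1).π ∣ ρ)
    (P' : Place Qb (modularFunctionFieldBar N)) (hcen' : S34K_Centred N A K1 X m P') :
    S37B1_ordP N K1 P' ((T : LaurentSeries K1) - HahnSeries.C (a : K1))
      = (Finsupp.single P (1 : ℤ)) P' := by
  classical
  obtain ⟨-, h1, h2⟩ := S34LOK_ord N K1 A X m hXF hfrac hO hπ T S c hn Q hQ hTS P hrat hcen
    a ρ haT hρ hρπ
  by_cases hP : P' = P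
  · subst hP
    rw [Finsupp.single_eq_same]
    exact h1
  · rw [Finsupp.single_eq_of_ne (fun h => hP h)]
    exact h2 P' (S34LOK_nonneg_of_centred N K1 A X m hXF P' hcen') hP

/-- The mirror of `S34LOK_ord_centred`. -/
theorem S34LOK_ord_centred' [IsNoetherianRing X]
    (hXF : ∀ x ∈ X, x ∈ modularFunctionFieldFullC K1 N)
    (hfrac : ∀ x ∈ modularFunctionFieldFullC K1 N,
      ∃ a b : X, b ≠ 0 ∧ x * (b : LaurentSeries K1) = a)
    (hO : S18K_O A K1 ≤ X) (hπ : S18K_π A K1 ∈ X)
    (T S c : locRing X m)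
    (hn : IsLocalRing.maximalIdeal (locRing X m)
      = Ideal.span {incl X m ⟨S18K_π A K1, hπ⟩, T, S})
    (Q : S18K_O1 A K1) (hQ : Q ≠ 0)
    (hTS : (T : LaurentSeries K1) * (S : LaurentSeries K1)
      = HahnSeries.C (Q : K1) * (c : LaurentSeries K1))
    (P : Place Qb (modularFunctionFieldBar N)) (hrat : S37LEVEL_IsRational N K1 P)
    (hcen : S34K_Centred N A K1 X m P)
    (b ρ : S18K_O1 A K1) (hbS : S34ACT_Val K1 N P (S : LaurentSeries K1) (b : K1))
    (hρ : Q = b * ρ) (hρπ : (S18K_D A K1).π ∣ ρ)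
    (P' : Place Qb (modularFunctionFieldBar N)) (hcen' : S34K_Centred N A K1 X m P') :
    S37B1_ordP N K1 P' ((S : LaurentSeries K1) - HahnSeries.C (b : K1))
      = (Finsupp.single P (1 : ℤ)) P' :=
  S34LOK_ord_centred N K1 A X m hXF hfrac hO hπ S T c
    (by haveI := isNoetherianRing_locRing X m; exact S34UH_swap_hn hn) Q hQ
    (by rw [mul_comm]; exact hTS) P hrat hcen b ρ hbS hρ hρπ P' hcen'

/-- **Existence of values**: at a rational place centred at `m`, every element of the local
ring has a value in `O1`; the value of an element of the maximal ideal is divisible by `π`. -/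
theorem S34LOK_exists_value
    (hXF : ∀ x ∈ X, x ∈ modularFunctionFieldFullC K1 N)
    (hO : S18K_O A K1 ≤ X)
    (P : Place Qb (modularFunctionFieldBar N)) (hrat : S37LEVEL_IsRational N K1 P)
    (hcen : S34K_Centred N A K1 X m P) :
    ∃ ev : locRing X m →+* S18K_O1 A K1,
      (∀ o : S18K_O1 A K1, ev (S34LOK_base K1 A X m hO o) = o) ∧
      (∀ r : locRing X m, S34ACT_Val K1 N P (r : LaurentSeries K1) ((ev r : S18K_O1 A K1) : K1)) ∧
      (∀ r : locRing X m, (r : LaurentSeries K1) ≠ 0 →
        (ev r = 0 ↔ 0 < S37B1_ordP N K1 P (r : LaurentSeries K1))) ∧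
      (∀ r : locRing X m, r ∈ IsLocalRing.maximalIdeal (locRing X m) →
        (S18K_D A K1).π ∣ ev r) := by
  classical
  have hRF := S34LOK_locRing_le_F1 N K1 X m hXF
  have hnn := S34LOK_nonneg_of_centred N K1 A X m hXF P hcen
  obtain ⟨ψ, hψC, hψ0⟩ := S37HEXF_F1 N K1 P hrat (locRing X m) hRF hnn
  have hψ : S34ACT_IsValueMap K1 N P (locRing X m) ψ := ⟨hψC, hψ0⟩
  have hmem := S34LOK_value_mem N K1 A X m hXF hO P hrat hcen ψ hψ
  have hπirr : Irreducible (S18K_D A K1).π := S34K0_pi_irreducible A K1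
  have hmax : IsLocalRing.maximalIdeal (S18K_O1 A K1) = Ideal.span {(S18K_D A K1).π} :=
    (IsDiscreteValuationRing.irreducible_iff_uniformizer _).mp hπirr
  refine ⟨ψ.codRestrict (S18K_O1 A K1) hmem, ?_, ?_, ?_, ?_⟩
  · intro o
    exact Subtype.ext (hψC (o : K1) _)
  · intro r
    refine ⟨hRF r r.2, ?_⟩
    show (r : LaurentSeries K1) = HahnSeries.C (ψ r) ∨
      0 < S37B1_ordP N K1 P ((r : LaurentSeries K1) - HahnSeries.C (ψ r))
    have hCR : (HahnSeries.C (ψ r) : LaurentSeries K1) ∈ locRing X m :=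
      (S34LOK_base K1 A X m hO ⟨ψ r, hmem r⟩).2
    by_cases h0 : (r : LaurentSeries K1) - HahnSeries.C (ψ r) = 0
    · left
      exact sub_eq_zero.mp h0
    · right
      have h1 : ψ (r - ⟨HahnSeries.C (ψ r), hCR⟩) = 0 := by
        rw [map_sub, hψC _ hCR, sub_self]
      exact (hψ0 (r - ⟨HahnSeries.C (ψ r), hCR⟩) h0).mp h1
  · intro r hr
    rw [← hψ0 r hr]
    constructor
    · intro h
      exact congrArg (fun z : S18K_O1 A K1 => (z : K1)) h
    · intro h
      exact Subtype.ext h
  · intro r hr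
    have h1 : ¬ IsUnit (ψ.codRestrict (S18K_O1 A K1) hmem r) := by
      intro hu
      have hr' : ¬ IsUnit r := (IsLocalRing.mem_maximalIdeal r).mp hr
      apply hr'
      by_contra hru
      obtain ⟨v, hv⟩ := hu.exists_right_inv
      have h2 : r * S34LOK_base K1 A X m hO v ∈ IsLocalRing.maximalIdeal (locRing X m) :=
        Ideal.mul_mem_right _ _ ((IsLocalRing.mem_maximalIdeal r).mpr hru)
      have h3 : IsUnit (1 - r * S34LOK_base K1 A X m hO v) := by
        rcases IsLocalRing.isUnit_or_isUnit_one_sub_self (r * S34LOK_base K1 A X m hO v)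
          with h | h
        · exact absurd h ((IsLocalRing.mem_maximalIdeal _).mp h2)
        · exact h
      have h4 : ψ.codRestrict (S18K_O1 A K1) hmem (1 - r * S34LOK_base K1 A X m hO v) = 0 := by
        rw [map_sub, map_one, map_mul]
        have : ψ.codRestrict (S18K_O1 A K1) hmem (S34LOK_base K1 A X m hO v) = v :=
          Subtype.ext (hψC (v : K1) _)
        rw [this, hv, sub_self]
      exact (h3.map (ψ.codRestrict (S18K_O1 A K1) hmem)).ne_zero h4
    have h5 : ψ.codRestrict (S18K_O1 A K1) hmem r ∈ IsLocalRing.maximalIdeal (S18K_O1 A K1) :=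
      (IsLocalRing.mem_maximalIdeal _).mpr h1
    rw [hmax] at h5
    exact Ideal.mem_span_singleton.mp h5

end Main

end Fermat.Agent.S34_helper26_ORDK
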