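import Mathlib
import Fermat.Agent.S34_helper26_ORDK
import Fermat.Agent.S34_helper7_LGDefs
import Fermat.Agent.S34_helper27_C2ADAPT
import Fermat.Agent.S18_helper14_AFRAC

/-!
# S34, piece X-LOCGEN-ORD: the contract `S34LGK_Ord`

* `S34LOC_ord_main`  : the contract `S34LGK_Ord` of `S34_helper7_LGDefs` for every noetherian
  subring `O ≤ X ⊆ F1` with `Frac X = F1`;
* `S34LOC_ord_chart` : the same for a chart of a two-valuation setup.
-/

set_option autoImplicit false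
set_option linter.style.haveILetI false
set_option linter.unusedSectionVars false
set_option linter.unusedVariables false
set_option synthInstance.maxHeartbeats 400000
set_option maxHeartbeats 1600000

open AlgebraicCurve ModularCurve HahnSeries IntermediateField
open Fermat.Agent.S18_helper25_COREDefs Fermat.Agent.S18_helper13_GAUSS
  Fermat.Agent.S18_helper9_CDefs Fermat.Agent.S18_helper9_CBasic
  Fermat.Agent.S18_helper19_PLACEMOD
  Fermat.Agent.S18_helper19_PLACEUNR Fermat.Agent.S18_helper3_LOCRING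
  Fermat.Agent.S37_helper4_B1Defs Fermat.Agent.S37_helper5_LEVEL
  Fermat.Agent.S34_Contracts Fermat.Agent.S34_helper26_ORDK
  Fermat.Agent.S34_helper21_ACT Fermat.Agent.S34_helper5_K0
  Fermat.Agent.S34_helper7_LGDefs Fermat.Agent.S34_helper12_CDefs
  Fermat.Agent.S34_helper27_C2ADAPT Fermat.Agent.S34_helper27_C2Defs

noncomputable section

namespace Fermat.Agent.S34_helper26_ORDC

local notation "Qb" => AlgebraicClosure ℚ
local notation "GQ" => (AlgebraicClosure ℚ ≃ₐ[ℚ] AlgebraicClosure ℚ)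

variable (N : ℕ) [NeZero N] (A : ValuationSubring Qb) (K1 : IntermediateField ℚ Qb)

/-- `S34K_ValueAt` with a value in `K1` is `S34ACT_Val`. -/
theorem S34LOC_val_of_valueAt (P : Place Qb (modularFunctionFieldBar N))
    {Z : LaurentSeries K1} (hZ : Z ∈ modularFunctionFieldFullC K1 N) (a : K1)
    (h : S34K_ValueAt N K1 P Z (a : Qb)) : S34ACT_Val K1 N P Z a := by
  refine ⟨hZ, ?_⟩
  obtain ⟨z, hz, hzP⟩ := h
  have hmem : (Z - HahnSeries.C a) ∈ modularFunctionFieldFullC K1 N :=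
    (modularFunctionFieldFullC K1 N).sub_mem hZ (S34LOK_C_mem N K1 a)
  have e : S18A3C_inc N (algebraMap K1 Qb) ⟨Z - HahnSeries.C a, hmem⟩ = z := by
    apply Subtype.ext
    show coeffMap (algebraMap K1 Qb) (Z - HahnSeries.C a) = (z : LaurentSeries Qb)
    rw [hz, map_sub]
    congr 1
    rw [HahnSeries.C_apply, coeffMap_single, ← HahnSeries.C_apply]
    rfl
  rcases hzP with h1 | h1
  · left
    rw [h1] at e
    have h2 := (S18A3C_inc N (algebraMap K1 Qb)).injective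
      (e.trans (map_zero (S18A3C_inc N (algebraMap K1 Qb))).symm)
    exact sub_eq_zero.mp (congrArg Subtype.val h2)
  · right
    rw [S37B1_ordP, dif_pos hmem, e]
    exact h1

/-- The value of a function at a place is unique. -/
theorem S34LOC_valueAt_unique (P : Place Qb (modularFunctionFieldBar N))
    {Z : LaurentSeries K1} {c c' : Qb}
    (h : S34K_ValueAt N K1 P Z c) (h' : S34K_ValueAt N K1 P Z c') : c = c' := by
  obtain ⟨z, hz, hzP⟩ := h
  obtain ⟨z', hz', hzP'⟩ := h'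
  have hN : ∀ w : modularFunctionFieldBar N, (w = 0 ∨ 0 < P.ord w) → S18A3_IsN P w := by
    intro w hw
    rcases hw with h | h
    · rw [h]
      exact ⟨P.toValuationSubring.zero_mem, Or.inl rfl⟩
    · exact S18A3_isN_of_ord_pos P h
  have h1 := S18A3_isN_add P (hN z' hzP') (S18A3_isN_neg P (hN z hzP))
  have e : z' + -z = algebraMap Qb (modularFunctionFieldBar N) (c - c') := by
    apply Subtype.ext
    show (z' : LaurentSeries Qb) + -(z : LaurentSeries Qb) = algebraMap Qb (LaurentSeries Qb) (c - c')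
    rw [hz, hz', ← Fermat.Agent.S18_helper26_CONST.S18P15_C_eq_algebraMap, map_sub]
    ring
  rw [e] at h1
  by_contra hne
  have hne' : c - c' ≠ 0 := sub_ne_zero.mpr hne
  have h2 : algebraMap Qb (modularFunctionFieldBar N) (c - c') ≠ 0 :=
    (map_ne_zero _).mpr hne'
  have h3 := S18A3_ord_pos_of_isN P h1 h2
  rw [Fermat.Agent.S24_helper6_A2.ord_algebraMap_eq_zero P] at h3
  exact lt_irrefl 0 h3

variable [IsDiscreteValuationRing (S18K_O1 A K1)]

/-- A nonunit of `A` lying in `K1` is divisible by the uniformiser of `O1`. -/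
theorem S34LOC_pi_dvd (ρ : K1) (hρ : (ρ : Qb) ∈ A.nonunits) :
    (S18K_D A K1).π ∣ (⟨ρ, A.nonunits_le hρ⟩ : S18K_O1 A K1) := by
  have hπirr : Irreducible (S18K_D A K1).π := S34K0_pi_irreducible A K1
  have hmax : IsLocalRing.maximalIdeal (S18K_O1 A K1) = Ideal.span {(S18K_D A K1).π} :=
    (IsDiscreteValuationRing.irreducible_iff_uniformizer _).mp hπirr
  have h1 : (⟨ρ, A.nonunits_le hρ⟩ : S18K_O1 A K1) ∈ IsLocalRing.maximalIdeal (S18K_O1 A K1) := by
    rw [IsLocalRing.mem_maximalIdeal, mem_nonunits_iff]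
    intro hu
    obtain ⟨v, hv⟩ := hu.exists_right_inv
    have hv' : (ρ : Qb) * ((v : K1) : Qb) = 1 := by
      have := congrArg (fun z : S18K_O1 A K1 => (((z : K1)) : Qb)) hv
      simpa using this
    rw [ValuationSubring.mem_nonunits_iff] at hρ
    have h2 : A.valuation ((v : K1) : Qb) ≤ 1 := (A.valuation_le_one_iff _).mpr v.2
    have h3 : A.valuation (ρ : Qb) * A.valuation ((v : K1) : Qb) = 1 := by
      rw [← map_mul, hv', map_one]
    have h4 : A.valuation (ρ : Qb) * A.valuation ((v : K1) : Qb) < 1 := by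
      calc A.valuation (ρ : Qb) * A.valuation ((v : K1) : Qb)
          ≤ A.valuation (ρ : Qb) * 1 := mul_le_mul' le_rfl h2
        _ = A.valuation (ρ : Qb) := mul_one _
        _ < 1 := hρ
    rw [h3] at h4
    exact lt_irrefl 1 h4
  rw [hmax] at h1
  exact Ideal.mem_span_singleton.mp h1

variable (hstab : ∀ σ : GQ, ∀ x ∈ K1, σ x ∈ K1)

/-- **X-LOCGEN-ORD**: the contract `S34LGK_Ord` for every noetherian subring `O ≤ X ⊆ F1` with
fraction field `F1`. -/
theorem S34LOC_ord_main (V2 X : Subring (LaurentSeries K1)) [IsNoetherianRing X]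
    (hXF : ∀ x ∈ X, x ∈ modularFunctionFieldFullC K1 N)
    (hfrac : ∀ x ∈ modularFunctionFieldFullC K1 N,
      ∃ a b : X, b ≠ 0 ∧ x * (b : LaurentSeries K1) = a)
    (hO : S18K_O A K1 ≤ X) :
    S34LGK_Ord N A K1 hstab V2 X := by
  intro hπ m hm hπm hThru1 hThru2 ϖ k T S c hND P hrat hcen
  haveI := hm.isPrime
  have hϖA : (ϖ : Qb) ∈ A := A.nonunits_le hND.ϖ_nonunit
  have hQmem : ϖ ^ k ∈ S18K_O1 A K1 := (S18K_O1 A K1).pow_mem hϖA k
  have hQ0 : (⟨ϖ ^ k, hQmem⟩ : S18K_O1 A K1) ≠ 0 := by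
    intro h
    exact pow_ne_zero k hND.ϖ_ne (congrArg Subtype.val h)
  -- the value of an element of the chart lies in `A`
  have hvalA : ∀ (Z : LaurentSeries K1) (hZ : Z ∈ X) (a : K1),
      S34K_ValueAt N K1 P Z (a : Qb) → (a : Qb) ∈ A := by
    intro Z hZ a hval
    obtain ⟨c0, hc0, hval0⟩ := hcen.1 ⟨Z, hZ⟩
    rw [S34LOC_valueAt_unique N K1 P hval hval0]
    exact hc0
  constructor
  · rintro a ⟨hval, ρ, hρ, hρnu⟩
    have haA := hvalA T hND.T_mem a hval
    obtain ⟨h0, h1, h2⟩ := S34LOK_ord N K1 A X m hXF hfrac hO hπ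
      (incl X m ⟨T, hND.T_mem⟩) (incl X m ⟨S, hND.S_mem⟩) ⟨c, hND.c_mem⟩ (hND.gen hπ)
      ⟨ϖ ^ k, hQmem⟩ hQ0 hND.mul_eq P hrat hcen ⟨a, haA⟩ ⟨ρ, A.nonunits_le hρnu⟩
      (S34LOC_val_of_valueAt N K1 P (hXF _ hND.T_mem) a hval)
      (Subtype.ext hρ) (S34LOC_pi_dvd A K1 ρ hρnu)
    refine ⟨h0, fun P' hcen' => ⟨fun h => ?_, fun h => ?_⟩⟩
    · rw [h]
      exact h1
    · exact h2 P' (S34LOK_nonneg_of_centred N K1 A X m hXF P' hcen') h
  · rintro b ⟨hval, ρ, hρ, hρnu⟩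
    have hbA := hvalA S hND.S_mem b hval
    obtain ⟨h0, h1, h2⟩ := S34LOK_ord' N K1 A X m hXF hfrac hO hπ
      (incl X m ⟨T, hND.T_mem⟩) (incl X m ⟨S, hND.S_mem⟩) ⟨c, hND.c_mem⟩ (hND.gen hπ)
      ⟨ϖ ^ k, hQmem⟩ hQ0 hND.mul_eq P hrat hcen ⟨b, hbA⟩ ⟨ρ, A.nonunits_le hρnu⟩
      (S34LOC_val_of_valueAt N K1 P (hXF _ hND.S_mem) b hval)
      (Subtype.ext hρ) (S34LOC_pi_dvd A K1 ρ hρnu)
    refine ⟨h0, fun P' hcen' => ⟨fun h => ?_, fun h => ?_⟩⟩
    · rw [h]
      exact h1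
    · exact h2 P' (S34LOK_nonneg_of_centred N K1 A X m hXF P' hcen') h

/-- **X-LOCGEN-ORD** for a chart of a two-valuation setup. -/
theorem S34LOC_ord_chart (V2 A0 Ainf : Subring (LaurentSeries K1))
    (S : S34C_Setup2 (S18K_O A K1) (S18K_π A K1) (S18K_j K1) (S18K_F1 K1 N) (S18K_V A K1 N) V2
      A0 Ainf)
    (x : LaurentSeries K1) (hx : x = S18K_j K1 ∨ x = (S18K_j K1)⁻¹)
    (X : Subring (LaurentSeries K1))
    (hC : Chart (S18K_O A K1) (S18K_π A K1) x (S18K_F1 K1 N) (S18K_V A K1 N ⊓ V2) X) :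
    S34LGK_Ord N A K1 hstab V2 X := by
  haveI hcz : CharZero (LaurentSeries K1) :=
    charZero_of_injective_algebraMap (algebraMap ℚ (LaurentSeries K1)).injective
  have S1 := S34CA_setup_of_setup2 S
  have hOX : S18K_O A K1 ≤ X := S34C2_O_le (S34CA_setup S1) hC
  haveI hN : IsNoetherianRing X := S34CA_chart_noetherian S1 x hx X hC
  have hXF : ∀ a ∈ X, a ∈ modularFunctionFieldFullC K1 N :=
    fun a ha => ((hC.mem_iff a).1 ha).2
  have hfrac : ∀ y ∈ modularFunctionFieldFullC K1 N,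
      ∃ a b : X, b ≠ 0 ∧ y * (b : LaurentSeries K1) = a := by
    intro y hy
    obtain ⟨b, hb, hb0, hyb⟩ :=
      Fermat.Agent.S18A.frac_of_finite (S18K_O A K1) (S18K_j K1) (S18K_F1 K1 N)
        S.O_le S.j_mem S.finite x hx y hy
    have hbX : b ∈ X := (hC.mem_iff b).2 hb
    have hybX : y * b ∈ X := (hC.mem_iff _).2 hyb
    exact ⟨⟨y * b, hybX⟩, ⟨b, hbX⟩, fun h => hb0 (congrArg Subtype.val h), rfl⟩
  exact S34LOC_ord_main N A K1 hstab V2 X hXF hfrac hOX

/-- **X-LOCGEN-ORD** on the two charts of a two-valuation setup on the S18K carriers. -/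
theorem S34LOC_ord_A0 (V2 : Subring (LaurentSeries K1))
    (S : S34C_Setup2 (S18K_O A K1) (S18K_π A K1) (S18K_j K1) (S18K_F1 K1 N) (S18K_V A K1 N) V2
      (S18K_A0 A K1 N) (S18K_Ainf A K1 N)) :
    S34LGK_Ord N A K1 hstab V2 (S18K_A0 A K1 N) :=
  S34LOC_ord_chart N A K1 hstab V2 _ _ S _ (Or.inl rfl) _ S.chart0

theorem S34LOC_ord_Ainf (V2 : Subring (LaurentSeries K1))
    (S : S34C_Setup2 (S18K_O A K1) (S18K_π A K1) (S18K_j K1) (S18K_F1 K1 N) (S18K_V A K1 N) V2
      (S18K_A0 A K1 N) (S18K_Ainf A K1 N)) :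
    S34LGK_Ord N A K1 hstab V2 (S18K_Ainf A K1 N) :=
  S34LOC_ord_chart N A K1 hstab V2 _ _ S _ (Or.inr rfl) _ S.chartInf

end Fermat.Agent.S34_helper26_ORDC
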