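import Mathlib
import Fermat.Agent.S34_Contracts2
import Fermat.Agent.S18_helper26_POWDIV
import Fermat.Agent.S18_helper19_PLACEMOD
import Fermat.Agent.S18_helper25_CORE
import Fermat.Agent.S37_helper15_HEX
import Fermat.Agent.S37_helper5_LEVEL
import Fermat.Agent.S24_helper15_A1
import Fermat.Agent.S34_helper2_HARTOGS
import Fermat.Agent.S54_Frob
import Fermat.Agent.S18_helper14_AFRAC
import Fermat.Agent.S13_helper26_MKLIFT

/-!
# S34, piece X-PLACES (a) (helper29): horizontal primes of a chart carry places centred at `m`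

Owner contract: `Fermat.Agent.S34_Contracts.S34K_PlacesAt N A K1 X` (file `S34_Contracts2`).

Let `X` be a subring of `K1((q))` with `X ⊆ F1`, `O ≤ X` and `Frac X = F1`, let `m` be a maximal
ideal of `X` containing `π` and `𝔭 ≤ m` a prime with `π ∉ 𝔭` whose local ring is a discrete
valuation ring.  Then there is a place `P'` of `F̄ / ℚ̄` which is centred at `m`
(`S34K_Centred`: every `a ∈ X` has a value in `A` at `P'`, and `a ∈ m` iff that value is a
nonunit of `A`) and lies over `𝔭` (a function over `K1` of order `0` at `P'` lies in the local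
ring at `𝔭`).

Construction.
1. `locRing X 𝔭` is a place `P1` of `F1 / K1` (`S34PL_exists_place1`).
2. `P1` extends to a place `P0` of `F̄ / ℚ̄` with the same orders; its value map `ψ : X → ℚ̄`
   has kernel inside `𝔭` (`S34PL_exists_place0`).
3. The image of `m` in `ψ(X)` is a proper ideal, so some valuation subring `B` of `ℚ̄` contains
   `ψ(X)` and has the image of `m` in its maximal ideal; `B ∩ K1 = A ∩ K1` because `O ≤ X`,
   `π ∈ m` and `O1` is a discrete valuation ring.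
4. Conjugacy of the extensions of a valuation (`S34PL_conj_aux`): some `σ ∈ Gal(ℚ̄ / K1)` maps
   `B` into `A` and the nonunits of `B` into the nonunits of `A`.
5. `P' := σ • P0` (coefficientwise action) is the required place: the value of `a` at `P'` is
   `σ (ψ a)`, and the orders of the functions over `K1` are unchanged.

In general `P0` itself is NOT centred at `m`: the conjugation in step 4 is essential.

Main statements: `S34PL_placesAt_of` (generic chart), `S34PL_placesAt_icl` (integral closure of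
`O[j]` or `O[1/j]`), `S34PL_placesAt` (the two charts of an `S34C_Setup2`),
`S34PL_conj_aux` (conjugacy), `S34PL_valueAt_unique` (uniqueness of values).
-/

set_option autoImplicit false
set_option linter.style.haveILetI false
set_option linter.unusedVariables false
set_option linter.unusedSectionVars false
set_option synthInstance.maxHeartbeats 400000
set_option maxHeartbeats 1600000

open AlgebraicCurve ModularCurve HahnSeries IntermediateField

noncomputable section

namespace Fermat.Agent.S34_helper29_PLACES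

open Fermat.Agent.S18_helper9_CDefs Fermat.Agent.S18_helper25_COREDefs
  Fermat.Agent.S18_helper3_LOCRING Fermat.Agent.S37_helper4_B1Defs
  Fermat.Agent.S37_helper5_LEVEL Fermat.Agent.S34_Contracts
  Fermat.Agent.S18_helper19_PLACEMOD Fermat.Agent.S18_helper19_PLACEUNR
  Fermat.Agent.S18_helper26_POWDIV Fermat.Agent.S24_helper6_A2 Fermat.Agent.S24

local notation "Qb" => AlgebraicClosure ℚ
local notation "GQ" => (AlgebraicClosure ℚ ≃ₐ[ℚ] AlgebraicClosure ℚ)

section Conj

open scoped Pointwise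
open Fermat.Agent.S54Frob Fermat.Agent.S13_helper26_MKLIFT

attribute [local instance] isAlgQb isAlgClosureQb normalQb actZb smulComm_Zb topZb discrete_Zb
  contSMul_Zb isInvariant_Zb

/-- nonunits of a valuation subring in elementwise form -/
theorem S34PL_mem_nonunits_iff {K : Type*} [Field K] (A : ValuationSubring K) (x : K) :
    x ∈ A.nonunits ↔ x ∈ A ∧ (x = 0 ∨ x⁻¹ ∉ A) := by
  rw [ValuationSubring.mem_nonunits_iff]
  constructor
  · intro h
    refine ⟨(A.valuation_le_one_iff x).1 h.le, ?_⟩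
    by_cases hx : x = 0
    · exact Or.inl hx
    · right
      intro hinv
      have h2 := (A.valuation_le_one_iff _).2 hinv
      rw [map_inv₀] at h2
      have h3 : A.valuation x ≠ 0 := (Valuation.ne_zero_iff _).2 hx
      have h4 : (1 : A.ValueGroup) ≤ A.valuation x := by
        have := (inv_le_one₀ (zero_lt_iff.2 h3)).1 h2
        exact this
      exact absurd h (not_lt.2 h4)
  · rintro ⟨hx, h0 | hinv⟩
    · rw [h0, map_zero]; exact zero_lt_one
    · have h1 := (A.valuation_le_one_iff x).2 hx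
      rcases h1.lt_or_eq with h2 | h2
      · exact h2
      · exfalso
        apply hinv
        rw [← A.valuation_le_one_iff, map_inv₀, h2, inv_one]

/-- An element of `ℚ̄` fixed by the fixing subgroup of `K1` lies in `K1`. -/
theorem S34PL_mem_of_fixed (K1 : IntermediateField ℚ Qb) (x : Qb)
    (h : ∀ σ : GQ, σ ∈ K1.fixingSubgroup → σ x = x) : x ∈ K1 := by
  haveI : IsGalois ℚ Qb := IsAlgClosure.isGalois ℚ Qb
  have h1 : IntermediateField.fixedField (K1.fixingSubgroup) = K1 :=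
    InfiniteGalois.fixedField_fixingSubgroup K1
  rw [← h1]
  intro σ
  exact h σ.1 σ.2

set_option synthInstance.maxHeartbeats 400000 in
/-- Transitivity of a closed subgroup `U` of `G_ℚ` on the primes of `ℤ̄` with the same trace
on the `U`-invariants. -/
theorem S34PL_conj_U (U : Subgroup GQ) (hU : IsClosed (U : Set GQ))
    (P Q : Ideal Zb) [P.IsPrime] [Q.IsPrime]
    (h : ∀ a : Zb, (∀ u : GQ, u ∈ U → u • a = a) → (a ∈ P ↔ a ∈ Q)) :
    ∃ g : GQ, g ∈ U ∧ ∀ b : Zb, b ∈ P ↔ g • b ∈ Q := by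
  haveI : CompactSpace U := isCompact_iff_compactSpace.mp hU.isCompact
  haveI : Algebra.IsInvariant (FixedPoints.subalgebra ℤ Zb U) Zb U :=
    ⟨fun b hb => ⟨⟨b, hb⟩, rfl⟩⟩
  have hunder : P.under (FixedPoints.subalgebra ℤ Zb U) =
      Q.under (FixedPoints.subalgebra ℤ Zb U) := by
    ext a
    rw [Ideal.mem_comap, Ideal.mem_comap]
    change (a : Zb) ∈ P ↔ (a : Zb) ∈ Q
    apply h
    intro u hu
    exact a.2 ⟨u, hu⟩
  obtain ⟨g, hg⟩ := Algebra.IsInvariant.exists_smul_of_under_eq_of_profinite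
    (A := FixedPoints.subalgebra ℤ Zb U) (G := U) P Q hunder
  refine ⟨(g : GQ), g.2, ?_⟩
  intro b
  rw [hg]
  exact (Ideal.smul_mem_pointwise_smul_iff (a := g) (S := P) (x := b)).symm

/-- **Conjugacy of the extensions of a valuation.** Two valuation subrings of `ℚ̄` over `q`
with the same trace on `K1` are conjugate under `Gal(ℚ̄ / K1)`. -/
theorem S34PL_conj_aux (A A' : ValuationSubring Qb) (q : ℕ) (hq : q.Prime)
    (hA : A.LiesOverPrime q) (hA' : A'.LiesOverPrime q) (K1 : IntermediateField ℚ Qb)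
    (h : ∀ x ∈ K1, (x ∈ A' ↔ x ∈ A)) :
    ∃ σ : GQ, σ ∈ K1.fixingSubgroup ∧ (∀ x ∈ A', σ x ∈ A) ∧
      ∀ x ∈ A'.nonunits, σ x ∈ A.nonunits := by
  haveI hQ := mkliftPrime_isPrime A
  haveI hQ' := mkliftPrime_isPrime A'
  haveI : IsGalois ℚ Qb := IsAlgClosure.isGalois ℚ Qb
  have hUclosed : IsClosed (K1.fixingSubgroup : Set GQ) :=
    InfiniteGalois.fixingSubgroup_isClosed K1
  have hnon : ∀ x ∈ K1, (x ∈ A'.nonunits ↔ x ∈ A.nonunits) := by
    intro x hx
    rw [S34PL_mem_nonunits_iff, S34PL_mem_nonunits_iff, h x hx, h x⁻¹ (K1.inv_mem hx)]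
  obtain ⟨g, hgU, hmem⟩ := S34PL_conj_U K1.fixingSubgroup hUclosed (mkliftPrime A')
    (mkliftPrime A) (by
      intro a ha
      have haK : ((a : Zb) : Qb) ∈ K1 := by
        apply S34PL_mem_of_fixed
        intro σ hσ
        exact congrArg Subtype.val (ha σ hσ)
      rw [mem_mkliftPrime', mem_mkliftPrime']
      exact hnon _ haK)
  refine ⟨g, hgU, ?_, ?_⟩
  · intro x hx
    obtain ⟨s, b, hs, hsb⟩ := mklift_frac A' q hq hA' x hx
    have hσs : A.valuation (((g • s : Zb)) : Qb) = 1 :=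
      mklift_val_eq_one A _ (fun h => hs ((hmem s).2 h))
    have e : g x * (((g • s : Zb)) : Qb) = (((g • b : Zb)) : Qb) := by
      rw [actZb_coe, actZb_coe, ← map_mul, hsb]
    rw [← A.valuation_le_one_iff]
    have := congrArg A.valuation e
    rw [map_mul, hσs, mul_one] at this
    rw [this]
    exact mklift_val_le A _
  · intro x hx
    have hxA' : x ∈ A' := ((S34PL_mem_nonunits_iff A' x).1 hx).1
    obtain ⟨s, b, hs, hsb⟩ := mklift_frac A' q hq hA' x hxA'
    have hb : b ∈ mkliftPrime A' := by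
      rw [mem_mkliftPrime, ← hsb, map_mul, mklift_val_eq_one A' s hs, mul_one]
      exact (A'.mem_nonunits_iff).1 hx
    have hσs : A.valuation (((g • s : Zb)) : Qb) = 1 :=
      mklift_val_eq_one A _ (fun h => hs ((hmem s).2 h))
    have e : g x * (((g • s : Zb)) : Qb) = (((g • b : Zb)) : Qb) := by
      rw [actZb_coe, actZb_coe, ← map_mul, hsb]
    rw [A.mem_nonunits_iff]
    have := congrArg A.valuation e
    rw [map_mul, hσs, mul_one] at this
    rw [this]
    exact (mem_mkliftPrime A _).1 ((hmem b).1 hb)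


end Conj

section Step1

variable (N : ℕ) [NeZero N] (A : ValuationSubring Qb) (K1 : IntermediateField ℚ Qb)
  [IsDiscreteValuationRing (S18K_O1 A K1)]
  (X : Subring (LaurentSeries K1))

/-- the inclusion of a chart into the function field (as a type). -/
def S34PL_toF1 (hXF : ∀ a ∈ X, a ∈ S18K_F1 K1 N) : X →+* modularFunctionFieldFullC K1 N where
  toFun a := ⟨(a : LaurentSeries K1), hXF a a.2⟩
  map_one' := rfl
  map_mul' _ _ := rfl
  map_zero' := rfl
  map_add' _ _ := rfl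

@[simp] theorem S34PL_toF1_coe (hXF : ∀ a ∈ X, a ∈ S18K_F1 K1 N) (a : X) :
    ((S34PL_toF1 N K1 X hXF a : modularFunctionFieldFullC K1 N) : LaurentSeries K1) = a := rfl

/-- constants of `K1` lie in the local ring at a horizontal prime. -/
theorem S34PL_const_mem (hOX : S18K_O A K1 ≤ X) (hπ : S18K_π A K1 ∈ X)
    (𝔭 : Ideal X) [𝔭.IsPrime] (hπ𝔭 : (⟨S18K_π A K1, hπ⟩ : X) ∉ 𝔭) (c : K1) :
    algebraMap K1 (LaurentSeries K1) c ∈ locRing X 𝔭 := by
  obtain ⟨o, ho, n, hn⟩ := Fermat.Agent.S18_helper25_CORE.S18K_const_mul_pow A K1 c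
  have hπ0 : S18K_π A K1 ≠ 0 := Fermat.Agent.S18_helper25_CORE.S18K_π_ne_zero A K1
  have hpow : (⟨S18K_π A K1, hπ⟩ : X) ^ n ∉ 𝔭 := fun h =>
    hπ𝔭 (Ideal.IsPrime.mem_of_pow_mem inferInstance n h)
  refine ⟨⟨o, hOX ho⟩, (⟨S18K_π A K1, hπ⟩ : X) ^ n, hpow, ?_⟩
  push_cast
  exact hn

/-- **Step 1**: a horizontal prime with discrete valuation local ring is a place of `F1 / K1`. -/
theorem S34PL_exists_place1 (hXF : ∀ a ∈ X, a ∈ S18K_F1 K1 N) (hOX : S18K_O A K1 ≤ X)
    (hfrac : ∀ x ∈ S18K_F1 K1 N, ∃ a b : X, b ≠ 0 ∧ x * (b : LaurentSeries K1) = a)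
    (hπ : S18K_π A K1 ∈ X) (𝔭 : Ideal X) [𝔭.IsPrime]
    (hπ𝔭 : (⟨S18K_π A K1, hπ⟩ : X) ∉ 𝔭)
    (hdvr : IsDiscreteValuationRing (locRing X 𝔭)) :
    ∃ P1 : Place K1 (modularFunctionFieldFullC K1 N),
      ∀ x : modularFunctionFieldFullC K1 N,
        x ∈ P1.toValuationSubring ↔ (x : LaurentSeries K1) ∈ locRing X 𝔭 := by
  have hι : ∀ x : modularFunctionFieldFullC K1 N,
      (modularFunctionFieldFullC K1 N).val.toRingHom x ∈ S18K_F1 K1 N := fun x => x.2
  have hval : ∀ x ∈ S18K_F1 K1 N, x ∈ locRing X 𝔭 ∨ x⁻¹ ∈ locRing X 𝔭 := fun x hx =>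
    Fermat.Agent.S34_helper2_HARTOGS.S34H_val_of_dvr X 𝔭 hdvr x (hfrac x hx)
  have hsurj : ∀ y ∈ S18K_F1 K1 N, ∃ x : modularFunctionFieldFullC K1 N,
      (modularFunctionFieldFullC K1 N).val.toRingHom x = y := fun y hy => ⟨⟨y, hy⟩, rfl⟩
  have hP : ((locRing X 𝔭 : Subring (LaurentSeries K1)) : Set (LaurentSeries K1)) ⊆
      S18K_F1 K1 N := by
    rintro y ⟨a, c, hc, h⟩
    have hc0 : (c : LaurentSeries K1) ≠ 0 := coe_ne_zero_of_notMem X 𝔭 hc
    have : y = (a : LaurentSeries K1) / (c : LaurentSeries K1) := by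
      rw [eq_div_iff hc0]; exact h
    rw [this]
    exact (S18K_F1 K1 N).div_mem (hXF a a.2) (hXF c c.2)
  have hK : ∀ c : K1, (modularFunctionFieldFullC K1 N).val.toRingHom
      (algebraMap K1 (modularFunctionFieldFullC K1 N) c) ∈ locRing X 𝔭 := fun c =>
    S34PL_const_mem A K1 X hOX hπ 𝔭 hπ𝔭 c
  haveI := hdvr
  exact ⟨S18PD_place (K := K1) (locRing X 𝔭) (S18K_F1 K1 N)
    (modularFunctionFieldFullC K1 N).val.toRingHom hι hval hsurj hP hK, fun x => Iff.rfl⟩

end Step1

section Step2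

variable (N : ℕ) [NeZero N] (A : ValuationSubring Qb) (K1 : IntermediateField ℚ Qb)
  [IsDiscreteValuationRing (S18K_O1 A K1)]
  (X : Subring (LaurentSeries K1))

/-- the map `X → F̄`. -/
def S34PL_toFbar (hXF : ∀ a ∈ X, a ∈ S18K_F1 K1 N) : X →+* modularFunctionFieldBar N :=
  (S18A3C_inc N (algebraMap K1 Qb)).comp (S34PL_toF1 N K1 X hXF)

theorem S34PL_toFbar_coe (hXF : ∀ a ∈ X, a ∈ S18K_F1 K1 N) (a : X) :
    ((S34PL_toFbar N K1 X hXF a : modularFunctionFieldBar N) : LaurentSeries Qb) =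
      coeffMap (algebraMap K1 Qb) (a : LaurentSeries K1) := rfl

/-- constants as elements of `F̄`, on Laurent series. -/
theorem S34PL_algebraMap_coe (c : Qb) :
    ((algebraMap Qb (modularFunctionFieldBar N) c : modularFunctionFieldBar N) :
      LaurentSeries Qb) = HahnSeries.C c := by
  have h2 : ((algebraMap Qb (modularFunctionFieldBar N) c :
      modularFunctionFieldBar N) : LaurentSeries Qb) =
      algebraMap Qb (LaurentSeries Qb) c := rfl
  rw [h2, Fermat.Agent.S18_helper26_CONST.S18P15_C_eq_algebraMap]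

/-- **Steps 2 and 3**: a place `P0` of `F̄ / ℚ̄` over the horizontal prime `𝔭`, with its value
map `ψ : X → ℚ̄` (kernel inside `𝔭`, identity on the constants of `O`). -/
theorem S34PL_exists_place0 (hXF : ∀ a ∈ X, a ∈ S18K_F1 K1 N) (hOX : S18K_O A K1 ≤ X)
    (hfrac : ∀ x ∈ S18K_F1 K1 N, ∃ a b : X, b ≠ 0 ∧ x * (b : LaurentSeries K1) = a)
    (hπ : S18K_π A K1 ∈ X) (𝔭 : Ideal X) [𝔭.IsPrime]
    (hπ𝔭 : (⟨S18K_π A K1, hπ⟩ : X) ∉ 𝔭)
    (hdvr : IsDiscreteValuationRing (locRing X 𝔭)) :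
    ∃ (P0 : Place Qb (modularFunctionFieldBar N)) (ψ : X →+* Qb),
      (∀ x ∈ S18K_F1 K1 N, x ≠ 0 → S37B1_ordP N K1 P0 x = 0 → x ∈ locRing X 𝔭) ∧
      (∀ a : X, S18A3_IsN P0 (S34PL_toFbar N K1 X hXF a -
        algebraMap Qb (modularFunctionFieldBar N) (ψ a))) ∧
      (∀ a : X, ψ a = 0 → a ∈ 𝔭) ∧
      (∀ (c : K1) (hc : HahnSeries.C c ∈ X), ψ ⟨HahnSeries.C c, hc⟩ = (c : Qb)) := by
  obtain ⟨P1, hP1⟩ := S34PL_exists_place1 N A K1 X hXF hOX hfrac hπ 𝔭 hπ𝔭 hdvr
  obtain ⟨P0, hle, hord⟩ := S18A3C_exists_place_extension N (algebraMap K1 Qb)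
    (S18A3C_inc N (algebraMap K1 Qb)) (S18A3C_inc_coe N (algebraMap K1 Qb)) P1
  have hXP1 : ∀ a : X, S34PL_toF1 N K1 X hXF a ∈ P1.toValuationSubring := fun a =>
    (hP1 _).2 (le_locRing X 𝔭 a.2)
  have hXP0 : ∀ a : X, S34PL_toFbar N K1 X hXF a ∈ P0.toValuationSubring := fun a =>
    hle _ (hXP1 a)
  haveI := (Fermat.Agent.S24_helper23_DEG.DEG N).1
  have halg : Algebra.IsAlgebraic Qb⟮jElt N⟯ (modularFunctionFieldBar N) :=
    Algebra.IsAlgebraic.of_finite _ _
  have hval : ∀ a : X, ∃ c : Qb, S18A3_IsN P0 (S34PL_toFbar N K1 X hXF a -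
      algebraMap Qb (modularFunctionFieldBar N) ((RingHom.id Qb) c)) := by
    intro a
    obtain ⟨c, hc⟩ := Fermat.Agent.S24_helper15_A1.exists_const_sub_mem (jElt N) halg P0 _
      (hXP0 a)
    refine ⟨c, ?_⟩
    rcases hc with hc | hc
    · exact S18A3_isN_of_ord_pos P0 hc
    · rw [RingHom.id_apply, hc, sub_self]
      exact ⟨P0.toValuationSubring.zero_mem, Or.inl rfl⟩
  obtain ⟨ψ, -, hψ1, hψ0⟩ := Fermat.Agent.S37_helper15_HEX.S37HEX_exists_value_map
    (O1 := ℤ) (K1 := Qb) P0 (RingHom.id Qb) (S34PL_toFbar N K1 X hXF) hval (by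
      intro c
      simp)
  refine ⟨P0, ψ, ?_, (fun a => by simpa using hψ1 a), ?_, ?_⟩
  · intro x hx hx0 hordx
    have hx' : x ∈ modularFunctionFieldFullC K1 N := hx
    rw [S37B1_ordP, dif_pos hx', hord] at hordx
    have : (⟨x, hx'⟩ : modularFunctionFieldFullC K1 N) ∈ P1.toValuationSubring :=
      mem_of_ord_nonneg P1 (le_of_eq hordx.symm)
    exact (hP1 _).1 this
  · intro a ha
    by_contra hap
    have h1 : S18A3_IsN P0 (S34PL_toFbar N K1 X hXF a) := (hψ0 a).1 ha
    have h2 : ((a : LaurentSeries K1))⁻¹ ∈ locRing X 𝔭 := inv_mem_locRing X 𝔭 hap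
    have h3 : (S34PL_toF1 N K1 X hXF a)⁻¹ ∈ P1.toValuationSubring := (hP1 _).2 h2
    have h4 := hle _ h3
    rw [map_inv₀] at h4
    rcases h1.2 with h5 | h5
    · apply hap
      have : (S34PL_toF1 N K1 X hXF a) = 0 :=
        (S18A3C_inc N (algebraMap K1 Qb)).injective (by rw [map_zero]; exact h5)
      have h6 : a = 0 := by
        apply Subtype.ext
        exact congrArg (fun z : modularFunctionFieldFullC K1 N => (z : LaurentSeries K1)) this
      rw [h6]
      exact 𝔭.zero_mem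
    · exact h5 h4
  · intro c hc
    have h1 := hψ1 ⟨HahnSeries.C c, hc⟩
    have h2 : S34PL_toFbar N K1 X hXF ⟨HahnSeries.C c, hc⟩ =
        algebraMap Qb (modularFunctionFieldBar N) (c : Qb) := by
      apply Subtype.ext
      rw [S34PL_toFbar_coe, S34PL_algebraMap_coe]
      show coeffMap (algebraMap K1 Qb) (HahnSeries.C c) = HahnSeries.C (c : Qb)
      rw [HahnSeries.C_apply, coeffMap_single, HahnSeries.C_apply]
      rfl
    rw [h2, ← map_sub] at h1
    have h3 := Fermat.Agent.S37_helper15_HEX.S37HEX_const_eq_zero_of_isN P0 h1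
    exact (sub_eq_zero.1 h3).symm

end Step2

section Main

variable (N : ℕ) [NeZero N] (A : ValuationSubring Qb) (K1 : IntermediateField ℚ Qb)
  [IsDiscreteValuationRing (S18K_O1 A K1)]
  (X : Subring (LaurentSeries K1))

/-- a value in the sense of `S34K_ValueAt` gives a non-unit. -/
theorem S34PL_isN_of_valueAt {P : Place Qb (modularFunctionFieldBar N)}
    {z : modularFunctionFieldBar N} (h : z = 0 ∨ 0 < P.ord z) : S18A3_IsN P z := by
  rcases h with h | h
  · rw [h]; exact ⟨P.toValuationSubring.zero_mem, Or.inl rfl⟩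
  · exact S18A3_isN_of_ord_pos P h

/-- **Uniqueness of the value** of a function at a place. -/
theorem S34PL_valueAt_unique (P : Place Qb (modularFunctionFieldBar N))
    (a : LaurentSeries K1) (c c' : Qb)
    (h : S34K_ValueAt N K1 P a c) (h' : S34K_ValueAt N K1 P a c') : c = c' := by
  obtain ⟨z, hz, hzP⟩ := h
  obtain ⟨z', hz', hzP'⟩ := h'
  have h1 := Fermat.Agent.S37_helper15_HEX.S37HEX_isN_sub P (S34PL_isN_of_valueAt N hzP')
    (S34PL_isN_of_valueAt N hzP)
  have h2 : z' - z = algebraMap Qb (modularFunctionFieldBar N) (c - c') := by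
    apply Subtype.ext
    have h3 : ((z' - z : modularFunctionFieldBar N) : LaurentSeries Qb) =
        (z' : LaurentSeries Qb) - (z : LaurentSeries Qb) := rfl
    rw [h3, hz, hz', S34PL_algebraMap_coe, map_sub]
    ring
  rw [h2] at h1
  exact sub_eq_zero.1 (Fermat.Agent.S37_helper15_HEX.S37HEX_const_eq_zero_of_isN P h1)

/-- constants of `O1` in the maximal ideal of `O1` are multiples of `π`. -/
theorem S34PL_const_mem_of_nonunit (hOX : S18K_O A K1 ≤ X) (hπ : S18K_π A K1 ∈ X)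
    (m : Ideal X) (hπm : (⟨S18K_π A K1, hπ⟩ : X) ∈ m) (c : K1)
    (hc : (c : Qb) ∈ A.nonunits) :
    ∃ h : HahnSeries.C c ∈ X, (⟨HahnSeries.C c, h⟩ : X) ∈ m := by
  have hcA : (c : Qb) ∈ A := ((S34PL_mem_nonunits_iff A _).1 hc).1
  let c1 : S18K_O1 A K1 := ⟨c, hcA⟩
  have hc1 : c1 ∈ IsLocalRing.maximalIdeal (S18K_O1 A K1) := by
    rw [← S18K_res_eq_zero_iff]
    show IsLocalRing.residue A (S18K_incl A K1 c1) = 0
    rw [IsLocalRing.residue_eq_zero_iff]
    obtain ⟨h1, h2⟩ := ValuationSubring.mem_nonunits_iff_exists_mem_maximalIdeal.mp hc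
    exact h2
  have hirr : Irreducible (S18K_D A K1).π :=
    (IsDiscreteValuationRing.exists_irreducible (S18K_O1 A K1)).choose_spec
  rw [hirr.maximalIdeal_eq, Ideal.mem_span_singleton] at hc1
  obtain ⟨y, hy⟩ := hc1
  have hyX : HahnSeries.C (y : K1) ∈ X := hOX ((S18K_mem_O A K1 _).2 ⟨y, y.2, rfl⟩)
  have heq : (HahnSeries.C c : LaurentSeries K1) = S18K_π A K1 * HahnSeries.C (y : K1) := by
    have h3 : (c : K1) = (((S18K_D A K1).π : S18K_O1 A K1) : K1) * (y : K1) :=
      congrArg Subtype.val hy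
    rw [h3, map_mul]
    rfl
  have hcX : HahnSeries.C c ∈ X := by
    rw [heq]; exact X.mul_mem hπ hyX
  refine ⟨hcX, ?_⟩
  have : (⟨HahnSeries.C c, hcX⟩ : X) = ⟨S18K_π A K1, hπ⟩ * ⟨HahnSeries.C (y : K1), hyX⟩ :=
    Subtype.ext heq
  rw [this]
  exact m.mul_mem_right _ hπm

/-- **X-PLACES (a)**, generic chart: every horizontal prime `𝔭 ≤ m` of `X` whose local ring is a
discrete valuation ring carries a place of `F̄ / ℚ̄` centred at `m`. -/
theorem S34PL_placesAt_of {q : ℕ} (hq : q.Prime) (hA : A.LiesOverPrime q)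
    (hXF : ∀ a ∈ X, a ∈ S18K_F1 K1 N) (hOX : S18K_O A K1 ≤ X)
    (hfrac : ∀ x ∈ S18K_F1 K1 N, ∃ a b : X, b ≠ 0 ∧ x * (b : LaurentSeries K1) = a) :
    S34K_PlacesAt N A K1 X := by
  intro hπ m hm hπm 𝔭 _ h𝔭m h𝔭0 hπ𝔭 hdvr
  obtain ⟨P0, ψ, hloc, hψ1, hker, hconst⟩ :=
    S34PL_exists_place0 N A K1 X hXF hOX hfrac hπ 𝔭 hπ𝔭 hdvr
  -- the image of `m` in `ψ(X)` is a proper ideal
  have hI : Ideal.map ψ.rangeRestrict m ≠ ⊤ := by
    intro htop
    have h1 := Ideal.comap_map_of_surjective ψ.rangeRestrict ψ.rangeRestrict_surjective m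
    rw [htop, Ideal.comap_top] at h1
    have hle : Ideal.comap ψ.rangeRestrict ⊥ ≤ m := by
      intro a ha
      apply h𝔭m
      apply hker
      have h2 : ψ.rangeRestrict a = 0 := by simpa using ha
      exact congrArg Subtype.val h2
    have h3 : m ⊔ Ideal.comap ψ.rangeRestrict ⊥ = m := sup_eq_left.2 hle
    rw [h3] at h1
    exact hm.ne_top h1.symm
  obtain ⟨B, hXB, hmB⟩ := Ideal.image_subset_nonunits_valuationSubring
    (Ideal.map ψ.rangeRestrict m) hI
  have hψB : ∀ a : X, ψ a ∈ B := fun a => hXB ⟨a, rfl⟩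
  have hψm : ∀ a : X, a ∈ m → ψ a ∈ B.nonunits := fun a ha =>
    hmB ⟨ψ.rangeRestrict a, Ideal.mem_map_of_mem _ ha, rfl⟩
  -- `B` and `A` have the same trace on `K1`
  have hnonK : ∀ x : Qb, x ∈ K1 → x ∈ A.nonunits → x ∈ B.nonunits := by
    intro x hx hxA
    obtain ⟨hcX, hcm⟩ := S34PL_const_mem_of_nonunit A K1 X hOX hπ m hπm ⟨x, hx⟩ hxA
    have := hψm _ hcm
    rwa [hconst ⟨x, hx⟩ hcX] at this
  have hBK : ∀ x ∈ K1, (x ∈ B ↔ x ∈ A) := by
    intro x hx
    constructor
    · intro hxB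
      by_contra hxA
      have hx0 : x ≠ 0 := fun h => hxA (h ▸ A.zero_mem)
      have hinv : x⁻¹ ∈ A.nonunits := by
        rw [S34PL_mem_nonunits_iff]
        refine ⟨(A.mem_or_inv_mem x).resolve_left hxA, Or.inr ?_⟩
        rwa [inv_inv]
      have h1 := hnonK x⁻¹ (K1.inv_mem hx) hinv
      rw [S34PL_mem_nonunits_iff] at h1
      rcases h1.2 with h2 | h2
      · exact inv_ne_zero hx0 h2
      · rw [inv_inv] at h2
        exact h2 hxB
    · intro hxA
      have hcO : HahnSeries.C (⟨x, hx⟩ : K1) ∈ S18K_O A K1 :=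
        (S18K_mem_O A K1 _).2 ⟨⟨x, hx⟩, hxA, rfl⟩
      have := hψB ⟨_, hOX hcO⟩
      rwa [hconst ⟨x, hx⟩ (hOX hcO)] at this
  have hBq : B.LiesOverPrime q := by
    have hqK : ((q : ℕ) : Qb) ∈ K1 := IntermediateField.natCast_mem K1 q
    exact hnonK _ hqK hA
  obtain ⟨σ, hσU, hσA, hσn⟩ := S34PL_conj_aux A B q hq hA hBq K1 hBK
  let σ' : Qb ≃ₐ[K1] Qb := IntermediateField.fixingSubgroupEquiv K1 ⟨σ, hσU⟩
  have hσ' : ∀ x : Qb, σ' x = σ x := fun x => rfl
  let g := S37LEVEL_gal N K1 σ'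
  have hV : ∀ a : X, S34K_ValueAt N K1 (g • P0) (a : LaurentSeries K1) (σ (ψ a)) := by
    intro a
    refine ⟨g • (S34PL_toFbar N K1 X hXF a -
      algebraMap Qb (modularFunctionFieldBar N) (ψ a)), ?_, ?_⟩
    · rw [S37LEVEL_coe_gal_smul_sub N K1 σ' (a : LaurentSeries K1) (ψ a) _ (by
        have h3 : ((S34PL_toFbar N K1 X hXF a - algebraMap Qb (modularFunctionFieldBar N) (ψ a) :
            modularFunctionFieldBar N) : LaurentSeries Qb) =
            ((S34PL_toFbar N K1 X hXF a : modularFunctionFieldBar N) : LaurentSeries Qb) -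
            ((algebraMap Qb (modularFunctionFieldBar N) (ψ a) : modularFunctionFieldBar N) :
              LaurentSeries Qb) := rfl
        rw [h3, S34PL_toFbar_coe, S34PL_algebraMap_coe]), hσ']
    · have hN := hψ1 a
      by_cases h0 : S34PL_toFbar N K1 X hXF a -
          algebraMap Qb (modularFunctionFieldBar N) (ψ a) = 0
      · left
        rw [h0, smul_zero]
      · right
        rw [SemilinearAut.ord_smul]
        exact S18A3_ord_pos_of_isN P0 hN h0
  refine ⟨g • P0, ⟨?_, ?_⟩, ?_⟩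
  · -- every element of `X` has a value in `A`
    intro a
    exact ⟨σ (ψ a), hσA _ (hψB a), hV a⟩
  · -- the centre is `m`
    intro a c hcA hval
    have hc : c = σ (ψ a) := S34PL_valueAt_unique N K1 (g • P0) _ _ _ hval (hV a)
    rw [hc]
    constructor
    · intro ha
      exact hσn _ (hψm a ha)
    · intro hn
      by_contra ha
      obtain ⟨b, i, hi, hbi⟩ := hm.exists_inv ha
      have h1 : σ (ψ b) * σ (ψ a) + σ (ψ i) = 1 := by
        rw [← map_mul, ← map_add, ← map_mul, ← map_add, hbi, map_one, map_one]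
      have h2 : A.valuation (σ (ψ b) * σ (ψ a)) < 1 := by
        rw [map_mul]
        exact mul_lt_one_of_nonneg_of_lt_one_right
          ((A.valuation_le_one_iff _).2 (hσA _ (hψB b))) zero_le
          ((A.mem_nonunits_iff).1 hn)
      have h3 : A.valuation (σ (ψ i)) < 1 := (A.mem_nonunits_iff).1 (hσn _ (hψm i hi))
      have h4 : A.valuation (σ (ψ b) * σ (ψ a) + σ (ψ i)) < 1 :=
        lt_of_le_of_lt (A.valuation.map_add _ _) (max_lt h2 h3)
      rw [h1, map_one] at h4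
      exact lt_irrefl _ h4
  · -- orders on `F1`
    intro x hx hx0 hordx
    apply hloc x hx hx0
    have hx' : x ∈ modularFunctionFieldFullC K1 N := hx
    rw [S37B1_ordP, dif_pos hx'] at hordx ⊢
    have hfix : g • (S18A3C_inc N (algebraMap K1 Qb) ⟨x, hx'⟩) =
        S18A3C_inc N (algebraMap K1 Qb) ⟨x, hx'⟩ :=
      S37LEVEL_gal_smul_eq N K1 σ' x _ (S18A3C_inc_coe N _ _)
    rw [← hfix, SemilinearAut.ord_smul] at hordx
    exact hordx

end Main

section Charts

variable (N : ℕ) [NeZero N] (A : ValuationSubring Qb) (K1 : IntermediateField ℚ Qb)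
  [IsDiscreteValuationRing (S18K_O1 A K1)]

/-- **X-PLACES (a)** for the integral closure of `O[x]` in `F1`, `x = j` or `x = j⁻¹`. -/
theorem S34PL_placesAt_icl {q : ℕ} (hq : q.Prime) (hA : A.LiesOverPrime q)
    (hO : (S18K_O A K1 : Set (LaurentSeries K1)) ⊆ S18K_F1 K1 N)
    (hj : S18K_j K1 ∈ S18K_F1 K1 N)
    (hfin : ∃ s : Finset (LaurentSeries K1), ∀ x ∈ S18K_F1 K1 N,
      ∃ c : LaurentSeries K1 → LaurentSeries K1,
        (∀ y, c y ∈ Subfield.closure ((S18K_O A K1 : Set (LaurentSeries K1)) ∪ {S18K_j K1})) ∧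
        x = ∑ y ∈ s, c y * y)
    (x : LaurentSeries K1) (hx : x = S18K_j K1 ∨ x = (S18K_j K1)⁻¹) :
    S34K_PlacesAt N A K1 (icl (adj (S18K_O A K1) x) (S18K_F1 K1 N)) := by
  refine S34PL_placesAt_of N A K1 _ hq hA (fun a ha => ha.2) ?_ ?_
  · intro o ho
    refine ⟨?_, hO ho⟩
    have hmem : o ∈ adj (S18K_O A K1) x := Subring.subset_closure (Or.inl ho)
    exact isIntegral_algebraMap (R := adj (S18K_O A K1) x) (x := ⟨o, hmem⟩)
  · intro v hv
    obtain ⟨b, hb, hb0, hvb⟩ := Fermat.Agent.S18A.frac_of_finite (S18K_O A K1) (S18K_j K1)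
      (S18K_F1 K1 N) hO hj hfin x hx v hv
    exact ⟨⟨v * b, hvb⟩, ⟨b, hb⟩, fun h => hb0 (congrArg Subtype.val h), rfl⟩

/-- **X-PLACES (a)** for the two charts of a two-valuation setup (`S34C_Setup2`) with the
concrete carriers: this is the owner's contract `S34K_PlacesAt` for `S18K_A0` and `S18K_Ainf`. -/
theorem S34PL_placesAt {q : ℕ} (hq : q.Prime) (hA : A.LiesOverPrime q)
    {V1 V2 : Subring (LaurentSeries K1)}
    (S : Fermat.Agent.S34_helper12_CDefs.S34C_Setup2 (S18K_O A K1) (S18K_π A K1) (S18K_j K1)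
      (S18K_F1 K1 N) V1 V2 (S18K_A0 A K1 N) (S18K_Ainf A K1 N)) :
    S34K_PlacesAt N A K1 (S18K_A0 A K1 N) ∧ S34K_PlacesAt N A K1 (S18K_Ainf A K1 N) :=
  ⟨S34PL_placesAt_icl N A K1 hq hA S.O_le S.j_mem S.finite _ (Or.inl rfl),
    S34PL_placesAt_icl N A K1 hq hA S.O_le S.j_mem S.finite _ (Or.inr rfl)⟩

/-- The same from the one-valuation `Setup` of S18 (any level `N`). -/
theorem S34PL_placesAt_of_setup {q : ℕ} (hq : q.Prime) (hA : A.LiesOverPrime q)
    {V : Subring (LaurentSeries K1)}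
    (S : Setup (S18K_O A K1) (S18K_π A K1) (S18K_j K1)
      (S18K_F1 K1 N) V (S18K_A0 A K1 N) (S18K_Ainf A K1 N)) :
    S34K_PlacesAt N A K1 (S18K_A0 A K1 N) ∧ S34K_PlacesAt N A K1 (S18K_Ainf A K1 N) :=
  ⟨S34PL_placesAt_icl N A K1 hq hA S.O_le S.j_mem S.finite _ (Or.inl rfl),
    S34PL_placesAt_icl N A K1 hq hA S.O_le S.j_mem S.finite _ (Or.inr rfl)⟩

end Charts

end Fermat.Agent.S34_helper29_PLACES

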