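import Mathlib
import Fermat.Agent.S34_Contracts2
import Fermat.Agent.S34_helper2_HARTOGS

/-!
# S34, X-CROSS: assembly of the crossing contract (helper4)

`S34XC_cross` : the contract `S34K_Cross` (the local generator of a divisor
`p • (τ' - 1)(τ - 1) D` at a crossing point `m` of the chart `X`, `≡ 1` on both branches, with
`f / g ^ p` a unit of the local ring at `m`) from

* algebraic Hartogs (helper2, `S34H_unit_locRing`),
* `S34K_Vert`, `S34K_PlacesAt`, `S34K_CentredInert`, `S34K_LocGen` (see `S34_Contracts2`).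

`g := ∏ g_P ^ (D P)`, the product over the places `P` of the support of `D` centred at `m`.
-/

set_option autoImplicit false

open AlgebraicCurve ModularCurve HahnSeries IntermediateField

noncomputable section

namespace Fermat.Agent.S34_helper4_XCROSS

open Fermat.Agent.S18_helper9_CDefs Fermat.Agent.S18_helper25_COREDefs
  Fermat.Agent.S34_helper12_CDefs Fermat.Agent.S34_helper6_RED Fermat.Agent.S34_helper5_K0
  Fermat.Agent.S18_helper3_LOCRING Fermat.Agent.S37_helper4_B1Defs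
  Fermat.Agent.S37_helper5_LEVEL Fermat.Agent.S34_Contracts
  Fermat.Agent.S18_helper19_PLACEMOD Fermat.Agent.S34_helper2_HARTOGS

local notation "Qb" => AlgebraicClosure ℚ
local notation "GQ" => (AlgebraicClosure ℚ ≃ₐ[ℚ] AlgebraicClosure ℚ)

/-! ### The elements `≡ 1 mod π V` -/

section U

variable {L : Type*} [Field L] (π : L) (V : Subring L)

/-- `u ≡ 1 mod π V` -/
def S34XC_U (u : L) : Prop := ∃ c ∈ V, u = 1 + π * c

variable {π V}

theorem S34XC_U_one : S34XC_U π V 1 := ⟨0, V.zero_mem, by simp⟩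

theorem S34XC_U_mul (hπ : π ∈ V) {u v : L} (hu : S34XC_U π V u) (hv : S34XC_U π V v) :
    S34XC_U π V (u * v) := by
  obtain ⟨c, hc, rfl⟩ := hu
  obtain ⟨d, hd, rfl⟩ := hv
  exact ⟨c + d + π * c * d, V.add_mem (V.add_mem hc hd) (V.mul_mem (V.mul_mem hπ hc) hd), by ring⟩

theorem S34XC_U_mem (hπ : π ∈ V) {u : L} (hu : S34XC_U π V u) : u ∈ V := by
  obtain ⟨c, hc, rfl⟩ := hu
  exact V.add_mem V.one_mem (V.mul_mem hπ hc)

theorem S34XC_U_ne_zero (hπnu : π⁻¹ ∉ V) {u : L} (hu : S34XC_U π V u) : u ≠ 0 := by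
  obtain ⟨c, hc, rfl⟩ := hu
  intro h0
  apply hπnu
  have hπ0 : π ≠ 0 := by
    intro h
    rw [h, zero_mul, add_zero] at h0
    exact one_ne_zero h0
  have : π⁻¹ = -c := inv_eq_of_mul_eq_one_right (by linear_combination -h0)
  rw [this]
  exact V.neg_mem hc

theorem S34XC_U_inv (hπnu : π⁻¹ ∉ V) (hrad : ∀ c ∈ V, (1 + π * c)⁻¹ ∈ V) {u : L}
    (hu : S34XC_U π V u) : S34XC_U π V u⁻¹ := by
  have hu0 := S34XC_U_ne_zero hπnu hu
  obtain ⟨c, hc, rfl⟩ := hu
  refine ⟨-(c * (1 + π * c)⁻¹), V.neg_mem (V.mul_mem hc (hrad c hc)), ?_⟩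
  field_simp
  ring

theorem S34XC_U_pow (hπ : π ∈ V) {u : L} (hu : S34XC_U π V u) (n : ℕ) :
    S34XC_U π V (u ^ n) := by
  induction n with
  | zero => simpa using S34XC_U_one
  | succ n ih => rw [pow_succ]; exact S34XC_U_mul hπ ih hu

theorem S34XC_U_zpow (hπ : π ∈ V) (hπnu : π⁻¹ ∉ V) (hrad : ∀ c ∈ V, (1 + π * c)⁻¹ ∈ V)
    {u : L} (hu : S34XC_U π V u) (n : ℤ) : S34XC_U π V (u ^ n) := by
  rcases Int.eq_nat_or_neg n with ⟨k, rfl | rfl⟩
  · rw [zpow_natCast]; exact S34XC_U_pow hπ hu k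
  · rw [zpow_neg, zpow_natCast]; exact S34XC_U_inv hπnu hrad (S34XC_U_pow hπ hu k)

theorem S34XC_U_prod (hπ : π ∈ V) {ι : Type*} (s : Finset ι) (u : ι → L)
    (hu : ∀ i ∈ s, S34XC_U π V (u i)) : S34XC_U π V (∏ i ∈ s, u i) := by
  classical
  induction s using Finset.induction_on with
  | empty => simpa using S34XC_U_one
  | insert a s ha ih =>
    rw [Finset.prod_insert ha]
    exact S34XC_U_mul hπ (hu a (Finset.mem_insert_self a s))
      (ih fun i hi => hu i (Finset.mem_insert_of_mem hi))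

end U

/-! ### Orders of series over `K1` at the places of `F̄` -/

section Ord

variable (N : ℕ) [NeZero N] (K1 : IntermediateField ℚ Qb)
  (P : Place Qb (modularFunctionFieldBar N))

theorem S34XC_inc_ne_zero {x : modularFunctionFieldFullC K1 N} (hx : x ≠ 0) :
    S18A3C_inc N (algebraMap K1 Qb) x ≠ 0 :=
  (map_ne_zero_iff _ (S18A3C_inc N (algebraMap K1 Qb)).injective).2 hx

theorem S34XC_ordP_mul {x y : LaurentSeries K1} (hx : x ∈ modularFunctionFieldFullC K1 N)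
    (hy : y ∈ modularFunctionFieldFullC K1 N) (hx0 : x ≠ 0) (hy0 : y ≠ 0) :
    S37B1_ordP N K1 P (x * y) = S37B1_ordP N K1 P x + S37B1_ordP N K1 P y := by
  have h1 := S37B1_ordP_eq N K1 P ⟨x, hx⟩
  have h2 := S37B1_ordP_eq N K1 P ⟨y, hy⟩
  have h3 := S37B1_ordP_eq N K1 P (⟨x, hx⟩ * ⟨y, hy⟩)
  have hx' : (⟨x, hx⟩ : modularFunctionFieldFullC K1 N) ≠ 0 :=
    fun h => hx0 (congrArg Subtype.val h)
  have hy' : (⟨y, hy⟩ : modularFunctionFieldFullC K1 N) ≠ 0 :=
    fun h => hy0 (congrArg Subtype.val h)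
  rw [map_mul, Place.ord_mul P (S34XC_inc_ne_zero N K1 hx') (S34XC_inc_ne_zero N K1 hy')] at h3
  simp only [MulMemClass.coe_mul] at h1 h2 h3
  rw [h3, h1, h2]

theorem S34XC_ordP_one : S37B1_ordP N K1 P 1 = 0 := by
  have h3 := S37B1_ordP_eq N K1 P (1 : modularFunctionFieldFullC K1 N)
  rw [map_one, Place.ord_one] at h3
  simpa using h3

theorem S34XC_ordP_inv {x : LaurentSeries K1} (hx : x ∈ modularFunctionFieldFullC K1 N) :
    S37B1_ordP N K1 P x⁻¹ = - S37B1_ordP N K1 P x := by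
  have h1 := S37B1_ordP_eq N K1 P ⟨x, hx⟩
  have h3 := S37B1_ordP_eq N K1 P (⟨x, hx⟩⁻¹)
  rw [map_inv₀, Place.ord_inv] at h3
  have e : ((⟨x, hx⟩⁻¹ : modularFunctionFieldFullC K1 N) : LaurentSeries K1) = x⁻¹ := rfl
  rw [e] at h3
  rw [h3, h1]

theorem S34XC_ordP_pow {x : LaurentSeries K1} (hx : x ∈ modularFunctionFieldFullC K1 N)
    (hx0 : x ≠ 0) (n : ℕ) :
    S37B1_ordP N K1 P (x ^ n) = n * S37B1_ordP N K1 P x := by
  induction n with
  | zero => simp [S34XC_ordP_one]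
  | succ n ih =>
    rw [pow_succ, S34XC_ordP_mul N K1 P (pow_mem hx n) hx (pow_ne_zero n hx0) hx0, ih]
    push_cast
    ring

theorem S34XC_ordP_zpow {x : LaurentSeries K1} (hx : x ∈ modularFunctionFieldFullC K1 N)
    (hx0 : x ≠ 0) (n : ℤ) :
    S37B1_ordP N K1 P (x ^ n) = n * S37B1_ordP N K1 P x := by
  rcases Int.eq_nat_or_neg n with ⟨k, rfl | rfl⟩
  · rw [zpow_natCast, S34XC_ordP_pow N K1 P hx hx0]
  · rw [zpow_neg, zpow_natCast, S34XC_ordP_inv N K1 P (pow_mem hx k),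
      S34XC_ordP_pow N K1 P hx hx0]
    ring

theorem S34XC_ordP_prod {ι : Type*} (s : Finset ι) (u : ι → LaurentSeries K1)
    (hu : ∀ i ∈ s, u i ∈ modularFunctionFieldFullC K1 N) (hu0 : ∀ i ∈ s, u i ≠ 0) :
    S37B1_ordP N K1 P (∏ i ∈ s, u i) = ∑ i ∈ s, S37B1_ordP N K1 P (u i) := by
  classical
  induction s using Finset.induction_on with
  | empty => simp [S34XC_ordP_one]
  | insert a s ha ih =>
    rw [Finset.prod_insert ha, Finset.sum_insert ha,
      S34XC_ordP_mul N K1 P (hu a (Finset.mem_insert_self a s))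
        (prod_mem fun i hi => hu i (Finset.mem_insert_of_mem hi))
        (hu0 a (Finset.mem_insert_self a s))
        (Finset.prod_ne_zero_iff.mpr fun i hi => hu0 i (Finset.mem_insert_of_mem hi)),
      ih (fun i hi => hu i (Finset.mem_insert_of_mem hi))
        (fun i hi => hu0 i (Finset.mem_insert_of_mem hi))]

end Ord

/-! ### Linearity of the mixed second difference -/

section Diff2

variable (N : ℕ)

/-- the mixed second difference as an additive map. -/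
def S34XC_delta (τ' τ : GQ) :
    Divisor Qb (modularFunctionFieldBar N) →+ Divisor Qb (modularFunctionFieldBar N) where
  toFun := S34R_diff2 N τ' τ
  map_zero' := by simp [S34R_diff2]
  map_add' D E := by
    simp only [S34R_diff2, smul_add]
    abel

theorem S34XC_diff2_eq_sum (τ' τ : GQ) (D : Divisor Qb (modularFunctionFieldBar N))
    (P' : Place Qb (modularFunctionFieldBar N)) :
    S34R_diff2 N τ' τ D P' =
      ∑ P ∈ D.support, D P * S34R_diff2 N τ' τ (Finsupp.single P 1) P' := by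
  have h1 : D = ∑ P ∈ D.support, D P • (Finsupp.single P (1 : ℤ)) := by
    conv_lhs => rw [← Finsupp.sum_single D]
    rw [Finsupp.sum]
    refine Finset.sum_congr rfl fun P _ => ?_
    rw [Finsupp.smul_single, smul_eq_mul, mul_one]
  have h2 : S34XC_delta N τ' τ D =
      ∑ P ∈ D.support, D P • S34XC_delta N τ' τ (Finsupp.single P 1) := by
    conv_lhs => rw [h1]
    rw [map_sum]
    refine Finset.sum_congr rfl fun P _ => ?_
    rw [map_zsmul]
  have h3 := DFunLike.congr_fun h2 P'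
  rw [Finsupp.finset_sum_apply] at h3
  simp only [Finsupp.smul_apply, smul_eq_mul] at h3
  exact h3

theorem S34XC_diff2_single (τ' τ : GQ) (P P' : Place Qb (modularFunctionFieldBar N)) :
    S34R_diff2 N τ' τ (Finsupp.single P 1) P' =
      (Finsupp.single (S34R_g N τ' • S34R_g N τ • P) (1 : ℤ)) P'
        - (Finsupp.single (S34R_g N τ' • P) (1 : ℤ)) P'
        - (Finsupp.single (S34R_g N τ • P) (1 : ℤ)) P'
        + (Finsupp.single P (1 : ℤ)) P' := by
  simp only [S34R_diff2, SemilinearAut.smul_single, Finsupp.coe_add, Finsupp.coe_sub,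
    Pi.add_apply, Pi.sub_apply]

end Diff2

/-! ### The assembly -/

section Main

variable (N : ℕ) [NeZero N] (p : ℕ) (A : ValuationSubring Qb)
  (K1 : IntermediateField ℚ Qb) [IsDiscreteValuationRing (S18K_O1 A K1)]

theorem S34XC_centred_of_smul {X : Subring (LaurentSeries K1)}
    (hIn : S34K_CentredInert N A K1 X) (τ : GQ) (hτ : τ ∈ A.inertiaSubgroupIn ℚ)
    (m : Ideal X) (P : Place Qb (modularFunctionFieldBar N))
    (h : S34K_Centred N A K1 X m (S34R_g N τ • P)) : S34K_Centred N A K1 X m P := by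
  have h1 := hIn τ⁻¹ (inv_mem hτ) m _ h
  have h2 : S34R_g N τ⁻¹ • S34R_g N τ • P = P := by
    rw [← mul_smul, ← map_mul, inv_mul_cancel, map_one, one_smul]
  rwa [h2] at h1

theorem S34XC_diff2_single_eq_zero {X : Subring (LaurentSeries K1)}
    (hIn : S34K_CentredInert N A K1 X) (τ' τ : GQ) (hτ' : τ' ∈ A.inertiaSubgroupIn ℚ)
    (hτ : τ ∈ A.inertiaSubgroupIn ℚ) (m : Ideal X)
    (P P' : Place Qb (modularFunctionFieldBar N))
    (hP' : S34K_Centred N A K1 X m P') (hP : ¬ S34K_Centred N A K1 X m P) :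
    S34R_diff2 N τ' τ (Finsupp.single P 1) P' = 0 := by
  rw [S34XC_diff2_single]
  have e1 : S34R_g N τ' • S34R_g N τ • P ≠ P' := by
    intro h
    rw [← h] at hP'
    exact hP (S34XC_centred_of_smul N A K1 hIn τ hτ m P
      (S34XC_centred_of_smul N A K1 hIn τ' hτ' m _ hP'))
  have e2 : S34R_g N τ' • P ≠ P' := by
    intro h
    rw [← h] at hP'
    exact hP (S34XC_centred_of_smul N A K1 hIn τ' hτ' m P hP')
  have e3 : S34R_g N τ • P ≠ P' := by
    intro h
    rw [← h] at hP'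
    exact hP (S34XC_centred_of_smul N A K1 hIn τ hτ m P hP')
  have e4 : P ≠ P' := by
    intro h
    rw [← h] at hP'
    exact hP hP'
  rw [Finsupp.single_eq_of_ne' e1, Finsupp.single_eq_of_ne' e2, Finsupp.single_eq_of_ne' e3,
    Finsupp.single_eq_of_ne' e4]
  simp

/-- **X-CROSS, assembly.** -/
theorem S34XC_cross (V2 X : Subring (LaurentSeries K1))
    (hπV : S18K_π A K1 ∈ (S18K_V A K1 N ⊓ V2 : Subring (LaurentSeries K1)))
    (hπnu : (S18K_π A K1)⁻¹ ∉ (S18K_V A K1 N ⊓ V2 : Subring (LaurentSeries K1)))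
    (hrad : ∀ c ∈ (S18K_V A K1 N ⊓ V2 : Subring (LaurentSeries K1)),
      (1 + S18K_π A K1 * c)⁻¹ ∈ (S18K_V A K1 N ⊓ V2 : Subring (LaurentSeries K1)))
    (hN : IsNoetherianRing X)
    (hXF : ∀ a ∈ X, a ∈ S18K_F1 K1 N)
    (hfrac : ∀ x ∈ S18K_F1 K1 N, ∃ a b : X, b ≠ 0 ∧ x * (b : LaurentSeries K1) = a)
    (hic : ∀ x ∈ S18K_F1 K1 N, IsIntegral X x → x ∈ X)
    (hV : S34K_Vert (S18K_π A K1) (S18K_V A K1 N) V2 X)
    (hPl : S34K_PlacesAt N A K1 X) (hIn : S34K_CentredInert N A K1 X)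
    (hLG : S34K_LocGen N A K1 V2 X) :
    S34K_Cross N p A K1 V2 X := by
  classical
  intro τ' τ hτ' hτ D hD f hf hf0 hfV hfV' hdiv hπ m hm hπm h1 h2
  haveI := hm.isPrime
  -- the local generators
  have key : ∀ P : Place Qb (modularFunctionFieldBar N), ∃ g : LaurentSeries K1,
      g ∈ S18K_F1 K1 N ∧ g ≠ 0 ∧ S34XC_U (S18K_π A K1) (S18K_V A K1 N ⊓ V2) g ∧
      (D P ≠ 0 → S34K_Centred N A K1 X m P →
        ∀ P' : Place Qb (modularFunctionFieldBar N), S34K_Centred N A K1 X m P' →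
          S37B1_ordP N K1 P' g = S34R_diff2 N τ' τ (Finsupp.single P 1) P') := by
    intro P
    by_cases h : D P ≠ 0 ∧ S34K_Centred N A K1 X m P
    · obtain ⟨g, hgF, hg0, hgU, hg⟩ := hLG τ' τ hτ' hτ hπ m hm hπm h1 h2 P (hD P h.1) h.2
      exact ⟨g, hgF, hg0, hgU, fun _ _ => hg⟩
    · exact ⟨1, (S18K_F1 K1 N).one_mem, one_ne_zero, S34XC_U_one,
        fun h1 h2 => absurd ⟨h1, h2⟩ h⟩
  choose gP hgPF hgP0 hgPU hgPord using key
  set T : Finset (Place Qb (modularFunctionFieldBar N)) :=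
    D.support.filter (fun P => S34K_Centred N A K1 X m P) with hT
  set g : LaurentSeries K1 := ∏ P ∈ T, gP P ^ (D P) with hg
  have hgF : g ∈ S18K_F1 K1 N :=
    prod_mem fun P _ => zpow_mem (hgPF P) _
  have hgU : S34XC_U (S18K_π A K1) (S18K_V A K1 N ⊓ V2) g :=
    S34XC_U_prod hπV T _ fun P _ => S34XC_U_zpow hπV hπnu hrad (hgPU P) _
  have hg0 : g ≠ 0 := S34XC_U_ne_zero hπnu hgU
  have hgV : g ∈ (S18K_V A K1 N ⊓ V2 : Subring (LaurentSeries K1)) := S34XC_U_mem hπV hgU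
  have hgV' : g⁻¹ ∈ (S18K_V A K1 N ⊓ V2 : Subring (LaurentSeries K1)) :=
    S34XC_U_mem hπV (S34XC_U_inv hπnu hrad hgU)
  -- the order of `g` at the places centred at `m`
  have hgord : ∀ P' : Place Qb (modularFunctionFieldBar N), S34K_Centred N A K1 X m P' →
      S37B1_ordP N K1 P' g = S34R_diff2 N τ' τ D P' := by
    intro P' hP'
    rw [hg, S34XC_ordP_prod N K1 P' T _ (fun P _ => zpow_mem (hgPF P) _)
      (fun P _ => zpow_ne_zero _ (hgP0 P)), S34XC_diff2_eq_sum]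
    have hsub : T ⊆ D.support := Finset.filter_subset _ _
    rw [← Finset.sum_subset hsub]
    · refine Finset.sum_congr rfl fun P hP => ?_
      rw [S34XC_ordP_zpow N K1 P' (hgPF P) (hgP0 P)]
      have hP1 := Finset.mem_filter.1 hP
      rw [hgPord P (Finsupp.mem_support_iff.1 hP1.1) hP1.2 P' hP']
    · intro P hPs hPT
      have hnc : ¬ S34K_Centred N A K1 X m P := fun hc => hPT (Finset.mem_filter.2 ⟨hPs, hc⟩)
      rw [S34XC_diff2_single_eq_zero N A K1 hIn τ' τ hτ' hτ m P P' hP' hnc, mul_zero]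
  -- the unit
  have hgp0 : g ^ p ≠ 0 := pow_ne_zero p hg0
  have huF : f * (g ^ p)⁻¹ ∈ S18K_F1 K1 N :=
    (S18K_F1 K1 N).mul_mem hf ((S18K_F1 K1 N).inv_mem ((S18K_F1 K1 N).pow_mem hgF p))
  have hu0 : f * (g ^ p)⁻¹ ≠ 0 := mul_ne_zero hf0 (inv_ne_zero hgp0)
  have huord : ∀ P' : Place Qb (modularFunctionFieldBar N), S34K_Centred N A K1 X m P' →
      S37B1_ordP N K1 P' (f * (g ^ p)⁻¹) = 0 := by
    intro P' hP'
    rw [S34XC_ordP_mul N K1 P' hf ((S18K_F1 K1 N).inv_mem ((S18K_F1 K1 N).pow_mem hgF p)) hf0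
      (inv_ne_zero hgp0), S34XC_ordP_inv N K1 P' ((S18K_F1 K1 N).pow_mem hgF p),
      S34XC_ordP_pow N K1 P' hgF hg0, hdiv P', hgord P' hP']
    ring
  have huinv : (f * (g ^ p)⁻¹)⁻¹ = f⁻¹ * g ^ p := by
    rw [mul_inv, inv_inv]
  refine ⟨g, hgF, ?_⟩
  obtain ⟨c, hc, hgc⟩ := hgU
  refine ⟨c, hc, hgc, ?_⟩
  have hmain := S34H_unit_locRing X m (S18K_F1 K1 N) hfrac hic hXF (f * (g ^ p)⁻¹) huF ?_
  · exact hmain
  intro 𝔭 h𝔭 h𝔭m h𝔭0 hdvr
  by_cases hπ𝔭 : (⟨S18K_π A K1, hπ⟩ : X) ∈ 𝔭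
  · -- vertical prime
    have hle := hV hπ 𝔭 hπ𝔭 hdvr
    refine ⟨hle (Subring.mul_mem _ hfV (?_)), hle ?_⟩
    · have : (g ^ p)⁻¹ = (g⁻¹) ^ p := by rw [inv_pow]
      rw [this]
      exact Subring.pow_mem _ hgV' p
    · rw [huinv]
      exact Subring.mul_mem _ hfV' (Subring.pow_mem _ hgV p)
  · -- horizontal prime
    obtain ⟨P', hP', hloc⟩ := hPl hπ m hm hπm 𝔭 h𝔭m h𝔭0 hπ𝔭 hdvr
    refine ⟨hloc _ huF hu0 (huord P' hP'), hloc _ ((S18K_F1 K1 N).inv_mem huF)
      (inv_ne_zero hu0) ?_⟩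
    rw [S34XC_ordP_inv N K1 P' huF, huord P' hP', neg_zero]

end Main

end Fermat.Agent.S34_helper4_XCROSS
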