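import Mathlib
import Fermat.Agent.S34_helper4_XCROSS
import Fermat.Agent.S34_helper27_C2ADAPT
import Fermat.Agent.S34_helper21_CI
import Fermat.Agent.S18_helper14_AFRAC

/-!
# S34, X-CROSS for the concrete charts (helper4)

`S34XCK_chart` : `S34K_Cross` for any chart of a two-valuation setup at the S18K carriers, from the
three sub-contracts `S34K_Vert`, `S34K_PlacesAt`, `S34K_LocGen` and `S34K_CentredInert`
(the algebraic hypotheses of `S34XC_cross` are discharged from `S34C_Setup2`).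

`S34XCK_A0`, `S34XCK_Ainf` : the same for `S18K_A0` / `S18K_Ainf`, with `S34K_CentredInert` from
helper21's landed `S34CI_A0` / `S34CI_Ainf`.
-/

set_option autoImplicit false
set_option synthInstance.maxHeartbeats 400000

open AlgebraicCurve ModularCurve HahnSeries IntermediateField

noncomputable section

namespace Fermat.Agent.S34_helper4_XCROSSK

open Fermat.Agent.S18_helper9_CDefs Fermat.Agent.S18_helper9_CBasic
  Fermat.Agent.S18_helper25_COREDefs
  Fermat.Agent.S34_helper12_CDefs Fermat.Agent.S34_helper6_RED Fermat.Agent.S34_helper5_K0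
  Fermat.Agent.S18_helper3_LOCRING Fermat.Agent.S37_helper4_B1Defs
  Fermat.Agent.S37_helper5_LEVEL Fermat.Agent.S34_Contracts
  Fermat.Agent.S34_helper4_XCROSS Fermat.Agent.S34_helper27_C2ADAPT
  Fermat.Agent.S34_helper27_C2Defs

local notation "Qb" => AlgebraicClosure ℚ
local notation "GQ" => (AlgebraicClosure ℚ ≃ₐ[ℚ] AlgebraicClosure ℚ)

variable (N : ℕ) [NeZero N] (p : ℕ) (A : ValuationSubring Qb)
  (K1 : IntermediateField ℚ Qb) [IsDiscreteValuationRing (S18K_O1 A K1)]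

/-- **X-CROSS for a chart of a two-valuation setup.** -/
theorem S34XCK_chart (V2 A0 Ainf : Subring (LaurentSeries K1))
    (S : S34C_Setup2 (S18K_O A K1) (S18K_π A K1) (S18K_j K1) (S18K_F1 K1 N) (S18K_V A K1 N) V2
      A0 Ainf)
    (x : LaurentSeries K1) (hx : x = S18K_j K1 ∨ x = (S18K_j K1)⁻¹)
    (X : Subring (LaurentSeries K1))
    (hC : Chart (S18K_O A K1) (S18K_π A K1) x (S18K_F1 K1 N) (S18K_V A K1 N ⊓ V2) X)
    (hV : S34K_Vert (S18K_π A K1) (S18K_V A K1 N) V2 X)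
    (hPl : S34K_PlacesAt N A K1 X) (hIn : S34K_CentredInert N A K1 X)
    (hLG : S34K_LocGen N A K1 V2 X) :
    S34K_Cross N p A K1 V2 X := by
  haveI hcz : CharZero (LaurentSeries K1) :=
    charZero_of_injective_algebraMap (algebraMap ℚ (LaurentSeries K1)).injective
  have S1 := S34CA_setup_of_setup2 S
  have hOX : S18K_O A K1 ≤ X := S34C2_O_le (S34CA_setup S1) hC
  have hπV : S18K_π A K1 ∈ (S18K_V A K1 N ⊓ V2 : Subring (LaurentSeries K1)) :=
    hC.le_V (hOX S.π_mem)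
  have hN : IsNoetherianRing X := S34CA_chart_noetherian S1 x hx X hC
  have hXF : ∀ a ∈ X, a ∈ S18K_F1 K1 N := fun a ha => ((hC.mem_iff a).1 ha).2
  have hic : ∀ y ∈ S18K_F1 K1 N, IsIntegral X y → y ∈ X := by
    intro y hy hint
    exact (hC.mem_iff y).2 ⟨isIntegral_trans' (fun a ha => ((hC.mem_iff a).1 ha).1) hint, hy⟩
  have hfrac : ∀ y ∈ S18K_F1 K1 N, ∃ a b : X, b ≠ 0 ∧ y * (b : LaurentSeries K1) = a := by
    intro y hy
    obtain ⟨b, hb, hb0, hyb⟩ :=
      Fermat.Agent.S18A.frac_of_finite (S18K_O A K1) (S18K_j K1) (S18K_F1 K1 N)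
        S.O_le S.j_mem S.finite x hx y hy
    have hbX : b ∈ X := (hC.mem_iff b).2 hb
    have hybX : y * b ∈ X := (hC.mem_iff _).2 hyb
    exact ⟨⟨y * b, hybX⟩, ⟨b, hbX⟩, fun h => hb0 (congrArg Subtype.val h), rfl⟩
  exact S34XC_cross N p A K1 V2 X hπV S1.π_nonunit S1.V_rad hN hXF hfrac hic hV hPl hIn hLG

variable (hstab : ∀ σ : GQ, ∀ x ∈ K1, σ x ∈ K1)

/-- **X-CROSS on the finite chart.** -/
theorem S34XCK_A0 (V2 : Subring (LaurentSeries K1))
    (S : S34C_Setup2 (S18K_O A K1) (S18K_π A K1) (S18K_j K1) (S18K_F1 K1 N) (S18K_V A K1 N) V2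
      (S18K_A0 A K1 N) (S18K_Ainf A K1 N))
    (hInert : S34K_Inert A K1 hstab V2)
    (hV : S34K_Vert (S18K_π A K1) (S18K_V A K1 N) V2 (S18K_A0 A K1 N))
    (hPl : S34K_PlacesAt N A K1 (S18K_A0 A K1 N))
    (hLG : S34K_LocGen N A K1 V2 (S18K_A0 A K1 N)) :
    S34K_Cross N p A K1 V2 (S18K_A0 A K1 N) :=
  S34XCK_chart N p A K1 V2 _ _ S _ (Or.inl rfl) _ S.chart0 hV hPl
    (Fermat.Agent.S34_helper21_CI.S34CI_A0 N A K1 hstab V2 S hInert) hLG

/-- **X-CROSS on the chart at infinity.** -/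
theorem S34XCK_Ainf (V2 : Subring (LaurentSeries K1))
    (S : S34C_Setup2 (S18K_O A K1) (S18K_π A K1) (S18K_j K1) (S18K_F1 K1 N) (S18K_V A K1 N) V2
      (S18K_A0 A K1 N) (S18K_Ainf A K1 N))
    (hInert : S34K_Inert A K1 hstab V2)
    (hV : S34K_Vert (S18K_π A K1) (S18K_V A K1 N) V2 (S18K_Ainf A K1 N))
    (hPl : S34K_PlacesAt N A K1 (S18K_Ainf A K1 N))
    (hLG : S34K_LocGen N A K1 V2 (S18K_Ainf A K1 N)) :
    S34K_Cross N p A K1 V2 (S18K_Ainf A K1 N) :=
  S34XCK_chart N p A K1 V2 _ _ S _ (Or.inr rfl) _ S.chartInf hV hPl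
    (Fermat.Agent.S34_helper21_CI.S34CI_Ainf N A K1 hstab V2 S hInert) hLG

end Fermat.Agent.S34_helper4_XCROSSK
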