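import Mathlib
import Fermat.Agent.S34_helper7_LGDefs
import Fermat.Agent.S34_helper21_CI
import Fermat.Agent.S34_helper4_XCROSS
import Fermat.Agent.S34_helper26_UNIQH

/-!
# S34, X-LOCGEN: the assembly (helper7)

`S34LG_locGen` : the owner contract `S34K_LocGen` (`S34_Contracts2`) from the typed sub-contracts
of `S34_helper7_LGDefs`:

* `S34LGK_Node`    (node coordinates, STOP / GO),
* `S34LGK_VM`      (value map of a rational centred place),
* `S34LGK_Ord`     (exact orders),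
* `S34LGK_BranchB` (deep places are fixed by inertia),
* `S34LGK_Red`     (the reduction of the cross ratio),

and `S34K_CentredInert` (landed, helper21).

For a rational place `P` centred at the crossing point `m`:

* either `P` has a type at some stage: then `g` is the cross ratio of
  `Z - a, Z - τ a, Z - τ' a, Z - τ' τ a` (`Z` the coordinate, `a` its value at `P`);
* or `P` is deep at every stage: then `P` is fixed by inertia and `g = 1`.
-/

set_option autoImplicit false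
set_option linter.unusedSectionVars false
set_option maxHeartbeats 1000000
set_option synthInstance.maxHeartbeats 400000

open AlgebraicCurve ModularCurve HahnSeries IntermediateField

noncomputable section

namespace Fermat.Agent.S34_helper7_LOCGEN

open Fermat.Agent.S18_helper9_CDefs Fermat.Agent.S18_helper25_COREDefs
  Fermat.Agent.S34_helper12_CDefs Fermat.Agent.S34_helper6_RED Fermat.Agent.S34_helper5_K0
  Fermat.Agent.S18_helper3_LOCRING Fermat.Agent.S37_helper4_B1Defs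
  Fermat.Agent.S37_helper5_LEVEL Fermat.Agent.S34_Contracts Fermat.Agent.S34_helper21_ACT
  Fermat.Agent.S34_helper21_CI Fermat.Agent.S34_helper4_XCROSS
  Fermat.Agent.S34_helper7_LGDefs Fermat.Agent.S34_helper26_UNIQH

local notation "Qb" => AlgebraicClosure ℚ
local notation "GQ" => (AlgebraicClosure ℚ ≃ₐ[ℚ] AlgebraicClosure ℚ)

/-! ### Layer 1: nonunits -/

section Nonunits

variable (A : ValuationSubring Qb)

theorem S34LGK_mul_mem_nonunits {x y : Qb} (hx : x ∈ A.nonunits) (hy : y ∈ A) :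
    x * y ∈ A.nonunits := by
  rw [ValuationSubring.mem_nonunits_iff] at hx ⊢
  have hy1 : A.valuation y ≤ 1 := (A.valuation_le_one_iff y).2 hy
  rw [map_mul]
  calc A.valuation x * A.valuation y ≤ A.valuation x * 1 := mul_le_mul' le_rfl hy1
    _ = A.valuation x := mul_one _
    _ < 1 := hx

theorem S34LGK_inertia_nonunits (τ : GQ) (hτ : τ ∈ A.inertiaSubgroupIn ℚ) {x : Qb}
    (hx : x ∈ A.nonunits) : τ x ∈ A.nonunits := by
  have h1 := (Fermat.Agent.S05_helper5_Inertia.inertia_spec A τ hτ x (A.nonunits_le hx)).2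
  rw [ValuationSubring.mem_nonunits_iff] at h1 hx ⊢
  have e : τ x = (τ x - x) + x := by ring
  rw [e]
  exact lt_of_le_of_lt (A.valuation.map_add _ _) (max_lt h1 hx)

variable (K1 : IntermediateField ℚ Qb)

/-- a nonunit of `O1` is a nonunit of `A`. -/
theorem S34LGK_nonunit_of_not_isUnit (x : S18K_O1 A K1) (hx : ¬ IsUnit x) :
    (((x : K1) : Qb)) ∈ A.nonunits := by
  rw [ValuationSubring.mem_nonunits_iff]
  by_contra hge
  rw [not_lt] at hge
  have hle : A.valuation (((x : K1) : Qb)) ≤ 1 := (A.valuation_le_one_iff _).2 x.2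
  have heq : A.valuation (((x : K1) : Qb)) = 1 := le_antisymm hle hge
  have hx0 : ((x : K1) : Qb) ≠ 0 := by
    intro h0
    rw [h0, map_zero] at heq
    exact zero_ne_one heq
  have hxK : (x : K1) ≠ 0 := by
    intro h0
    apply hx0
    rw [h0]
    rfl
  have hinv : (((x : K1)⁻¹ : K1) : Qb) ∈ A := by
    rw [← A.valuation_le_one_iff]
    have : (((x : K1)⁻¹ : K1) : Qb) = (((x : K1) : Qb))⁻¹ := rfl
    rw [this, map_inv₀, heq, inv_one]
  apply hx
  refine ⟨⟨x, ⟨(x : K1)⁻¹, hinv⟩, ?_, ?_⟩, rfl⟩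
  · apply Subtype.ext
    show (x : K1) * (x : K1)⁻¹ = 1
    exact mul_inv_cancel₀ hxK
  · apply Subtype.ext
    show (x : K1)⁻¹ * (x : K1) = 1
    exact inv_mul_cancel₀ hxK

end Nonunits

/-! ### Layer 2: the trichotomy at one stage -/

section Cases

variable (N : ℕ) [NeZero N] (A : ValuationSubring Qb) (K1 : IntermediateField ℚ Qb)
  (hstab : ∀ σ : GQ, ∀ x ∈ K1, σ x ∈ K1) [IsDiscreteValuationRing (S18K_O1 A K1)]

/-- the typed value with a nonunit value (internal). -/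
def S34LGK_TypeN (P : Place Qb (modularFunctionFieldBar N)) (ϖ : K1) (k : ℕ)
    (Z : LaurentSeries K1) : Prop :=
  ∃ a ρ : K1, S34K_ValueAt N K1 P Z (a : Qb) ∧ (a : Qb) ∈ A.nonunits ∧
    (ρ : Qb) ∈ A.nonunits ∧ ϖ ^ k = a * ρ

theorem S34LGK_cases (V2 X : Subring (LaurentSeries K1)) (hO : S18K_O A K1 ≤ X)
    (hπ : S18K_π A K1 ∈ X) (m : Ideal X) [m.IsPrime]
    (P : Place Qb (modularFunctionFieldBar N))
    (ψ : locRing X m →+* K1)
    (hψv : ∀ x : locRing X m, S34K_ValueAt N K1 P (x : LaurentSeries K1) ((ψ x : K1) : Qb))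
    (hψA : ∀ x : locRing X m, ((ψ x : K1) : Qb) ∈ A)
    (hψm : ∀ x : locRing X m, x ∈ IsLocalRing.maximalIdeal (locRing X m) →
      ((ψ x : K1) : Qb) ∈ A.nonunits)
    (hψC : ∀ (c : K1) (hc : (HahnSeries.C c : LaurentSeries K1) ∈ locRing X m),
      ψ ⟨HahnSeries.C c, hc⟩ = c)
    (ϖ : K1) (k : ℕ) (T S c : LaurentSeries K1)
    (d : S34LGK_NodeData N A K1 hstab V2 X m ϖ k T S c)
    (B : ℕ) (hsg : (c ≠ 0 ∧ c⁻¹ ∈ locRing X m) ∨ B ≤ k) :
    S34LGK_TypeN N A K1 P ϖ k T ∨ S34LGK_TypeN N A K1 P ϖ k S ∨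
      (B ≤ k ∧ S34LGK_Deep N A K1 P ϖ k T S) := by
  have hle := le_locRing X m
  set Tl : locRing X m := ⟨T, hle d.T_mem⟩ with hTl
  set Sl : locRing X m := ⟨S, hle d.S_mem⟩ with hSl
  set cl : locRing X m := ⟨c, d.c_mem⟩ with hcl
  have hϖA : (ϖ : Qb) ∈ A := A.nonunits_le d.ϖ_nonunit
  have hQO : (HahnSeries.C (ϖ ^ k) : LaurentSeries K1) ∈ S18K_O A K1 := by
    rw [S18K_mem_O]
    refine ⟨ϖ ^ k, ?_, rfl⟩
    have : (((ϖ ^ k : K1)) : Qb) = (ϖ : Qb) ^ k := rfl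
    rw [this]
    exact A.pow_mem hϖA k
  have hQl : (HahnSeries.C (ϖ ^ k) : LaurentSeries K1) ∈ locRing X m := hle (hO hQO)
  -- the values
  have hmul : ψ Tl * ψ Sl = ϖ ^ k * ψ cl := by
    have e : Tl * Sl = ⟨HahnSeries.C (ϖ ^ k), hQl⟩ * cl := Subtype.ext d.mul_eq
    rw [← map_mul, e, map_mul, hψC]
  have hTm : Tl ∈ IsLocalRing.maximalIdeal (locRing X m) := by
    rw [d.gen hπ]
    exact Ideal.subset_span (Or.inr (Or.inl rfl))
  have hSm : Sl ∈ IsLocalRing.maximalIdeal (locRing X m) := by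
    rw [d.gen hπ]
    exact Ideal.subset_span (Or.inr (Or.inr rfl))
  have haN := hψm Tl hTm
  have hbN := hψm Sl hSm
  rcases hsg with ⟨hc0, hcinv⟩ | hBk
  · -- STOP: `c` is a unit, so `P` has type `T`
    left
    set ci : locRing X m := ⟨c⁻¹, hcinv⟩ with hci
    have h1 : ψ cl * ψ ci = 1 := by
      rw [← map_mul]
      have : cl * ci = 1 := Subtype.ext (mul_inv_cancel₀ hc0)
      rw [this, map_one]
    refine ⟨ψ Tl, ψ Sl * ψ ci, hψv Tl, haN, ?_, ?_⟩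
    · have : (((ψ Sl * ψ ci : K1)) : Qb) = ((ψ Sl : K1) : Qb) * ((ψ ci : K1) : Qb) := rfl
      rw [this]
      exact S34LGK_mul_mem_nonunits A hbN (hψA ci)
    · calc ϖ ^ k = ϖ ^ k * (ψ cl * ψ ci) := by rw [h1, mul_one]
        _ = (ϖ ^ k * ψ cl) * ψ ci := by ring
        _ = (ψ Tl * ψ Sl) * ψ ci := by rw [hmul]
        _ = ψ Tl * (ψ Sl * ψ ci) := by ring
  · -- GO: the trichotomy in the discrete valuation ring `O1`
    obtain ⟨π', hπ'⟩ := IsDiscreteValuationRing.exists_irreducible (S18K_O1 A K1)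
    have hdiv : ∀ ρ : S18K_O1 A K1, π' ∣ ρ → (((ρ : K1)) : Qb) ∈ A.nonunits := by
      rintro ρ ⟨y, rfl⟩
      have h1 := S34LGK_nonunit_of_not_isUnit A K1 π' hπ'.not_isUnit
      exact S34LGK_mul_mem_nonunits A h1 y.2
    rcases S34UH_trichotomy hπ' (⟨ϖ ^ k, by
        show (((ϖ ^ k : K1)) : Qb) ∈ A
        have : (((ϖ ^ k : K1)) : Qb) = (ϖ : Qb) ^ k := rfl
        rw [this]
        exact A.pow_mem hϖA k⟩ : S18K_O1 A K1)
      (⟨ψ Tl, hψA Tl⟩ : S18K_O1 A K1) (⟨ψ Sl, hψA Sl⟩ : S18K_O1 A K1) with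
      ⟨ρ, hρ, hρπ⟩ | ⟨ρ, hρ, hρπ⟩ | ⟨⟨a', ha'⟩, ⟨b', hb'⟩⟩
    · left
      exact ⟨ψ Tl, ρ, hψv Tl, haN, hdiv ρ hρπ, congrArg Subtype.val hρ⟩
    · right; left
      exact ⟨ψ Sl, ρ, hψv Sl, hbN, hdiv ρ hρπ, congrArg Subtype.val hρ⟩
    · right; right
      refine ⟨hBk, ψ Tl, ψ Sl, hψv Tl, hψv Sl, ⟨a', a'.2, congrArg Subtype.val ha'⟩,
        ⟨b', b'.2, congrArg Subtype.val hb'⟩⟩

end Cases

/-! ### Layer 3: the local generator of a typed place -/

section Gen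

variable (N : ℕ) [NeZero N] (A : ValuationSubring Qb) (K1 : IntermediateField ℚ Qb)
  (hstab : ∀ σ : GQ, ∀ x ∈ K1, σ x ∈ K1) [IsDiscreteValuationRing (S18K_O1 A K1)]

theorem S34LGK_C_mem (c : K1) :
    (HahnSeries.C c : LaurentSeries K1) ∈ modularFunctionFieldFullC K1 N := by
  rw [Fermat.Agent.S18_helper26_CONST.S18P15_C_eq_algebraMap]
  exact (modularFunctionFieldFullC K1 N).algebraMap_mem c

/-- the type is transported by inertia (the coordinate and `ϖ` are inertia-fixed). -/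
theorem S34LGK_type_smul (σ : GQ) (hσ : σ ∈ A.inertiaSubgroupIn ℚ)
    (P : Place Qb (modularFunctionFieldBar N)) (ϖ : K1) (k : ℕ)
    (hϖ : σ (ϖ : Qb) = (ϖ : Qb))
    (Z : LaurentSeries K1) (hZ : S34ACT_act K1 hstab σ Z = Z) (a : K1)
    (h : S34LGK_Type N A K1 P ϖ k Z a) :
    S34LGK_Type N A K1 (S34R_g N σ • P) ϖ k Z (S34ACT_res K1 hstab σ a) := by
  obtain ⟨hv, ρ, hρ, hρn⟩ := h
  refine ⟨?_, S34ACT_res K1 hstab σ ρ, ?_, ?_⟩
  · have := S34CI_valueAt N K1 hstab σ P hv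
    rw [hZ] at this
    exact this
  · have e : S34ACT_res K1 hstab σ ϖ = ϖ := Subtype.ext hϖ
    have := congrArg (S34ACT_res K1 hstab σ) hρ
    rw [map_pow, map_mul, e] at this
    exact this
  · exact S34LGK_inertia_nonunits A σ hσ hρn

theorem S34LGK_single_aux (Q P' : Place Qb (modularFunctionFieldBar N)) (o : ℤ)
    (h : (P' = Q → o = 1) ∧ (P' ≠ Q → o = 0)) : o = (Finsupp.single Q (1 : ℤ)) P' := by
  classical
  by_cases e : P' = Q
  · rw [h.1 e, e, Finsupp.single_eq_same]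
  · rw [h.2 e, Finsupp.single_apply, if_neg (fun e' => e e'.symm)]

/-- **The local generator of a typed place.** -/
theorem S34LGK_gen_of_type (V2 X : Subring (LaurentSeries K1))
    (hCI : S34K_CentredInert N A K1 X)
    (τ' τ : GQ) (hτ' : τ' ∈ A.inertiaSubgroupIn ℚ) (hτ : τ ∈ A.inertiaSubgroupIn ℚ)
    (m : Ideal X) (P : Place Qb (modularFunctionFieldBar N))
    (hrat : S37LEVEL_IsRational N K1 P) (hcen : S34K_Centred N A K1 X m P)
    (ϖ : K1) (k : ℕ) (hϖ : ∀ σ : GQ, σ ∈ A.inertiaSubgroupIn ℚ → σ (ϖ : Qb) = (ϖ : Qb))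
    (Z : LaurentSeries K1) (hZF : Z ∈ modularFunctionFieldFullC K1 N)
    (hZfix : ∀ σ : GQ, σ ∈ A.inertiaSubgroupIn ℚ → S34ACT_act K1 hstab σ Z = Z)
    (hOrdZ : ∀ P : Place Qb (modularFunctionFieldBar N), S37LEVEL_IsRational N K1 P →
      S34K_Centred N A K1 X m P → ∀ a : K1, S34LGK_Type N A K1 P ϖ k Z a →
        Z - HahnSeries.C a ≠ 0 ∧
        ∀ P' : Place Qb (modularFunctionFieldBar N), S34K_Centred N A K1 X m P' →
          (P' = P → S37B1_ordP N K1 P' (Z - HahnSeries.C a) = 1) ∧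
          (P' ≠ P → S37B1_ordP N K1 P' (Z - HahnSeries.C a) = 0))
    (a : K1) (hty : S34LGK_Type N A K1 P ϖ k Z a)
    (hRed : ∃ c' ∈ (S18K_V A K1 N ⊓ V2 : Subring (LaurentSeries K1)),
      (Z - HahnSeries.C a) *
          (Z - HahnSeries.C (S34ACT_res K1 hstab τ' (S34ACT_res K1 hstab τ a))) =
        (1 + S18K_π A K1 * c') *
          ((Z - HahnSeries.C (S34ACT_res K1 hstab τ a)) *
            (Z - HahnSeries.C (S34ACT_res K1 hstab τ' a)))) :
    ∃ g ∈ S18K_F1 K1 N, g ≠ 0 ∧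
      (∃ c ∈ (S18K_V A K1 N ⊓ V2 : Subring (LaurentSeries K1)), g = 1 + S18K_π A K1 * c) ∧
      ∀ P' : Place Qb (modularFunctionFieldBar N), S34K_Centred N A K1 X m P' →
        S37B1_ordP N K1 P' g = S34R_diff2 N τ' τ (Finsupp.single P 1) P' := by
  -- the four places
  have hty2 := S34LGK_type_smul N A K1 hstab τ hτ P ϖ k (hϖ τ hτ) Z (hZfix τ hτ) a hty
  have hty3 := S34LGK_type_smul N A K1 hstab τ' hτ' P ϖ k (hϖ τ' hτ') Z (hZfix τ' hτ') a hty
  have hty4 := S34LGK_type_smul N A K1 hstab τ' hτ' (S34R_g N τ • P) ϖ k (hϖ τ' hτ') Z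
    (hZfix τ' hτ') _ hty2
  have hrat2 : S37LEVEL_IsRational N K1 (S34R_g N τ • P) := S34ACT_rational K1 hstab N τ P hrat
  have hrat3 : S37LEVEL_IsRational N K1 (S34R_g N τ' • P) :=
    S34ACT_rational K1 hstab N τ' P hrat
  have hrat4 : S37LEVEL_IsRational N K1 (S34R_g N τ' • S34R_g N τ • P) :=
    S34ACT_rational K1 hstab N τ' _ hrat2
  have hcen2 := hCI τ hτ m P hcen
  have hcen3 := hCI τ' hτ' m P hcen
  have hcen4 := hCI τ' hτ' m _ hcen2
  obtain ⟨h1ne, h1o⟩ := hOrdZ P hrat hcen a hty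
  obtain ⟨h2ne, h2o⟩ := hOrdZ _ hrat2 hcen2 _ hty2
  obtain ⟨h3ne, h3o⟩ := hOrdZ _ hrat3 hcen3 _ hty3
  obtain ⟨h4ne, h4o⟩ := hOrdZ _ hrat4 hcen4 _ hty4
  set f1 := Z - HahnSeries.C a with hf1
  set f2 := Z - HahnSeries.C (S34ACT_res K1 hstab τ a) with hf2
  set f3 := Z - HahnSeries.C (S34ACT_res K1 hstab τ' a) with hf3
  set f4 := Z - HahnSeries.C (S34ACT_res K1 hstab τ' (S34ACT_res K1 hstab τ a)) with hf4
  have hF : ∀ c : K1, Z - HahnSeries.C c ∈ modularFunctionFieldFullC K1 N :=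
    fun c => sub_mem hZF (S34LGK_C_mem N K1 c)
  have hf1F : f1 ∈ modularFunctionFieldFullC K1 N := hF _
  have hf2F : f2 ∈ modularFunctionFieldFullC K1 N := hF _
  have hf3F : f3 ∈ modularFunctionFieldFullC K1 N := hF _
  have hf4F : f4 ∈ modularFunctionFieldFullC K1 N := hF _
  obtain ⟨c', hc', hred⟩ := hRed
  have h23 : f2 * f3 ≠ 0 := mul_ne_zero h2ne h3ne
  have h14 : f1 * f4 ≠ 0 := mul_ne_zero h1ne h4ne
  refine ⟨(f1 * f4) * (f2 * f3)⁻¹, ?_, ?_, ⟨c', hc', ?_⟩, ?_⟩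
  · exact mul_mem (mul_mem hf1F hf4F) (inv_mem (mul_mem hf2F hf3F))
  · exact mul_ne_zero h14 (inv_ne_zero h23)
  · rw [hred, mul_assoc, mul_inv_cancel₀ h23, mul_one]
  · intro P' hP'
    rw [S34XC_ordP_mul N K1 P' (mul_mem hf1F hf4F) (inv_mem (mul_mem hf2F hf3F)) h14
      (inv_ne_zero h23), S34XC_ordP_inv N K1 P' (mul_mem hf2F hf3F),
      S34XC_ordP_mul N K1 P' hf1F hf4F h1ne h4ne, S34XC_ordP_mul N K1 P' hf2F hf3F h2ne h3ne,
      S34XC_diff2_single,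
      S34LGK_single_aux N _ P' _ (h1o P' hP'), S34LGK_single_aux N _ P' _ (h2o P' hP'),
      S34LGK_single_aux N _ P' _ (h3o P' hP'), S34LGK_single_aux N _ P' _ (h4o P' hP')]
    ring

end Gen

/-! ### Layer 4: the assembly -/

section Main

variable (N : ℕ) [NeZero N] (A : ValuationSubring Qb) (K1 : IntermediateField ℚ Qb)
  (hstab : ∀ σ : GQ, ∀ x ∈ K1, σ x ∈ K1) [IsDiscreteValuationRing (S18K_O1 A K1)]

/-- **X-LOCGEN**: the owner contract `S34K_LocGen` from the typed sub-contracts. -/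
theorem S34LG_locGen (V2 X : Subring (LaurentSeries K1))
    (hXF : ∀ y ∈ X, y ∈ modularFunctionFieldFullC K1 N) (hO : S18K_O A K1 ≤ X)
    (hCI : S34K_CentredInert N A K1 X)
    (hVM : S34LGK_VM N A K1 X)
    (hNode : S34LGK_Node N A K1 hstab V2 X)
    (hOrd : S34LGK_Ord N A K1 hstab V2 X)
    (hB : S34LGK_BranchB N A K1 hstab V2 X)
    (hRed : S34LGK_Red N A K1 hstab V2 X) :
    S34K_LocGen N A K1 V2 X := by
  intro τ' τ hτ' hτ hπ m hm hπm ht1 ht2 P hrat hcen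
  have := hm.isPrime
  obtain ⟨ψ, hψv, hψA, hψm, hψC⟩ := hVM hπ m hm hπm P hrat hcen
  by_cases hA : ∃ (ϖ : K1) (k : ℕ) (T S c : LaurentSeries K1),
      S34LGK_NodeData N A K1 hstab V2 X m ϖ k T S c ∧
        (S34LGK_TypeN N A K1 P ϖ k T ∨ S34LGK_TypeN N A K1 P ϖ k S)
  · obtain ⟨ϖ, k, T, S, c, d, hT | hS⟩ := hA
    · obtain ⟨a, ρ, hv, han, hρn, hρ⟩ := hT
      exact S34LGK_gen_of_type N A K1 hstab V2 X hCI τ' τ hτ' hτ m P hrat hcen ϖ k d.ϖ_fix T
        (hXF T d.T_mem) d.T_fix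
        (fun P hr hc => (hOrd hπ m hm hπm ht1 ht2 ϖ k T S c d P hr hc).1) a ⟨hv, ρ, hρ, hρn⟩
        (hRed τ' τ hτ' hτ hπ m hm hπm ht1 ht2 ϖ k T S c d a ρ han hρn hρ).1
    · obtain ⟨a, ρ, hv, han, hρn, hρ⟩ := hS
      exact S34LGK_gen_of_type N A K1 hstab V2 X hCI τ' τ hτ' hτ m P hrat hcen ϖ k d.ϖ_fix S
        (hXF S d.S_mem) d.S_fix
        (fun P hr hc => (hOrd hπ m hm hπm ht1 ht2 ϖ k T S c d P hr hc).2) a ⟨hv, ρ, hρ, hρn⟩
        (hRed τ' τ hτ' hτ hπ m hm hπm ht1 ht2 ϖ k T S c d a ρ han hρn hρ).2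
  · -- deep at every stage: fixed by inertia
    have hfix : ∀ σ : GQ, σ ∈ A.inertiaSubgroupIn ℚ → S34R_g N σ • P = P := by
      apply hB hπ m hm hπm ht1 ht2 P hrat hcen
      intro n
      obtain ⟨ϖ, k, T, S, c, d, hsg⟩ := hNode hπ m hm hπm ht1 ht2 n
      refine ⟨ϖ, k, T, S, c, ?_⟩
      rcases S34LGK_cases N A K1 hstab V2 X hO hπ m P ψ hψv hψA hψm hψC ϖ k T S c d n hsg with
        h | h | ⟨h1, h2⟩
      · exact absurd ⟨ϖ, k, T, S, c, d, Or.inl h⟩ hA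
      · exact absurd ⟨ϖ, k, T, S, c, d, Or.inr h⟩ hA
      · exact ⟨h1, d, h2⟩
    refine ⟨1, one_mem _, one_ne_zero, ⟨0, zero_mem _, by simp⟩, ?_⟩
    intro P' _
    rw [S34XC_ordP_one, S34XC_diff2_single, hfix τ hτ, hfix τ' hτ']
    ring

end Main

end Fermat.Agent.S34_helper7_LOCGEN
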