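import Fermat.Agent.S34_helper27_FINAL2
import Fermat.Agent.S34_helper4_XCROSSK
import Fermat.Agent.S34_helper7_LOCGEN
import Fermat.Agent.S34_helper17_VM
import Fermat.Agent.S34_helper6_LGREDK
import Fermat.Agent.S34_helper26_ORDC
import Fermat.Agent.S34_helper2_HARTOGSK
import Fermat.Agent.S34_helper29_PLACES

/-!
# S34 (helper12): the frontier plug

Everything landed so far is wired here against the frozen binders of S34.  The frozen statement
follows from exactly three families of facts, each asked for ONLY at the pairs `(A, K1)` that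
occur in the proof (`A` over `q`, `K1` admissible and Galois stable, so that the ring of
integers of `K1` at `A` is a discrete valuation ring):

* `hrel`  : the modular relation between `j` and `j(q^q)` in both orders (`S34CUSP_Rel`);
* `hNode` : the node coordinates at the crossing points of the finite chart (`S34LGK_Node`);
* `hB`    : the deep branch (`S34LGK_BranchB`) on the finite chart.

The other inputs of X-CROSS (vertical primes, places, centred inertia, value map, exact orders,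
reduction of the local generator) and `(N1)` on both charts are discharged by the landed files.
-/

set_option autoImplicit false
set_option linter.unusedSectionVars false
set_option linter.unusedVariables false
set_option linter.style.haveILetI false

open IsLocalRing
open CuspForm CuspForm.HeckeGaloisRepDatum
open ModularCurve
open Fermat.Agent.S18_helper25_COREDefs Fermat.Agent.S34_Contracts
open Fermat.Agent.S34_helper27_P1C
open Fermat.Agent.S34_helper27_GEOM Fermat.Agent.S34_helper27_GEOM2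
open Fermat.Agent.S34_helper18_CUSP Fermat.Agent.S34_helper27_FINAL
open Fermat.Agent.S34_helper27_FINAL2

namespace Fermat.Agent.S34_helper12_FIN3

local notation "Qb" => AlgebraicClosure ℚ
local notation "GQ" => (AlgebraicClosure ℚ ≃ₐ[ℚ] AlgebraicClosure ℚ)

section Level

variable (A : ValuationSubring Qb) (K1 : IntermediateField ℚ Qb)
  [IsDiscreteValuationRing (S18K_O1 A K1)]

/-- **X-LOCGEN on the finite chart** from the node coordinates and the deep branch. -/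
theorem S34F3_locGen (hstab : ∀ σ : GQ, ∀ x ∈ K1, σ x ∈ K1) {q : ℕ} (hq : q.Prime)
    (hA : A.LiesOverPrime q) (N' : ℕ) [NeZero N'] [NeZero (N' * q)] (hqN : ¬ q ∣ N')
    (hNode : Fermat.Agent.S34_helper7_LGDefs.S34LGK_Node (N' * q) A K1 hstab
      (S34P1C_V2 A K1 hq N' hqN) (S18K_A0 A K1 (N' * q)))
    (hB : Fermat.Agent.S34_helper7_LGDefs.S34LGK_BranchB (N' * q) A K1 hstab
      (S34P1C_V2 A K1 hq N' hqN) (S18K_A0 A K1 (N' * q))) :
    S34K_LocGen (N' * q) A K1 (S34P1C_V2 A K1 hq N' hqN) (S18K_A0 A K1 (N' * q)) := by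
  have S := S34P1C_setup2 A K1 hq hA N' hqN
  exact Fermat.Agent.S34_helper7_LOCGEN.S34LG_locGen (N' * q) A K1 hstab _ _
    (Fermat.Agent.S34_helper2_HARTOGSK.S34HK_le_F1 S.chart0)
    (Fermat.Agent.S34_helper2_HARTOGSK.S34HK_O_le S S.chart0)
    (Fermat.Agent.S34_helper21_CI.S34CI_A0 (N' * q) A K1 hstab _ S
      (S34GM_inert A K1 hstab hq N' hqN))
    (Fermat.Agent.S34_helper17_VM.S34VM_chart (N' * q) A K1 S S.chart0)
    hNode
    (Fermat.Agent.S34_helper26_ORDC.S34LOC_ord_A0 (N' * q) A K1 hstab _ S)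
    hB
    (Fermat.Agent.S34_helper6_LGREDK.S34LR_red A K1 hstab (N' * q) S S.chart0)

/-- **X-CROSS on the finite chart** from the node coordinates and the deep branch. -/
theorem S34F3_cross (hstab : ∀ σ : GQ, ∀ x ∈ K1, σ x ∈ K1) {q : ℕ} (hq : q.Prime)
    (hA : A.LiesOverPrime q) (N' : ℕ) [NeZero N'] [NeZero (N' * q)] (hqN : ¬ q ∣ N') (p : ℕ)
    (hNode : Fermat.Agent.S34_helper7_LGDefs.S34LGK_Node (N' * q) A K1 hstab
      (S34P1C_V2 A K1 hq N' hqN) (S18K_A0 A K1 (N' * q)))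
    (hB : Fermat.Agent.S34_helper7_LGDefs.S34LGK_BranchB (N' * q) A K1 hstab
      (S34P1C_V2 A K1 hq N' hqN) (S18K_A0 A K1 (N' * q))) :
    S34K_Cross (N' * q) p A K1 (S34P1C_V2 A K1 hq N' hqN) (S18K_A0 A K1 (N' * q)) := by
  have S := S34P1C_setup2 A K1 hq hA N' hqN
  exact Fermat.Agent.S34_helper4_XCROSSK.S34XCK_A0 (N' * q) p A K1 hstab _ S
    (S34GM_inert A K1 hstab hq N' hqN)
    (Fermat.Agent.S34_helper2_HARTOGSK.S34HK_vert S _ _ S.chart0)
    (Fermat.Agent.S34_helper29_PLACES.S34PL_placesAt (N' * q) A K1 hq hA S).1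
    (S34F3_locGen A K1 hstab hq hA N' hqN hNode hB)

/-- **the remaining contract `S34GM_Rest`** at one admissible level, from the modular relation
in both orders and X-CROSS on the finite chart. -/
theorem S34F3_rest {q : ℕ} (hq : q.Prime) (hA : A.LiesOverPrime q) (N' : ℕ) [NeZero N']
    [NeZero (N' * q)] (hqN : ¬ q ∣ N') (p : ℕ) (h : S18K_Admissible A K1 q)
    (hrel : haveI : NeZero q := ⟨hq.ne_zero⟩
      S34CUSP_Rel (S18K_O A K1) (S18K_j K1) (qExpand K1 q (jqModC K1)) q)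
    (hrel' : haveI : NeZero q := ⟨hq.ne_zero⟩
      S34CUSP_Rel (S18K_O A K1) (qExpand K1 q (jqModC K1)) (S18K_j K1) q)
    (hC0 : S34K_Cross (N' * q) p A K1 (S34P1C_V2 A K1 hq N' hqN) (S18K_A0 A K1 (N' * q))) :
    S34GM_Rest A K1 N' q p hq hqN :=
  S34GM2_rest A K1 hq hA N' hqN p h.res_surj hrel
    (S34FINAL2_N1_A0 A K1 hq hA N' hqN h hrel)
    (S34FINAL2_N1_Ainf A K1 hq hA N' hqN h hrel hrel') hC0

end Level

/-- **the geometric contract** from the modular relation (asked for only at the pairs `(A, K1)`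
of the proof) and X-CROSS on the finite chart. -/
theorem S34F3_holds3_of_cross (N' q p : ℕ) [NeZero (N' * q)]
    (hrel : ∀ (hq : q.Prime) (A : ValuationSubring Qb) (hA : A.LiesOverPrime q)
      (K1 : IntermediateField ℚ Qb) (h : S18K_Admissible A K1 q)
      (hstab : ∀ σ : GQ, ∀ x ∈ K1, σ x ∈ K1),
      letI := h.dvr
      haveI : NeZero q := ⟨hq.ne_zero⟩
      S34CUSP_Rel (S18K_O A K1) (S18K_j K1) (qExpand K1 q (jqModC K1)) q ∧
        S34CUSP_Rel (S18K_O A K1) (qExpand K1 q (jqModC K1)) (S18K_j K1) q)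
    (hcross : ∀ (hq : q.Prime) (hp : p.Prime) (hpq : p ≠ q)
      (hqN : ¬ q ∣ N') (A : ValuationSubring Qb) (hA : A.LiesOverPrime q)
      (K1 : IntermediateField ℚ Qb) (h : S18K_Admissible A K1 q)
      (hstab : ∀ σ : GQ, ∀ x ∈ K1, σ x ∈ K1),
      letI := h.dvr
      haveI := S34GM_neZero N' q
      S34K_Cross (N' * q) p A K1 (S34P1C_V2 A K1 hq N' hqN) (S18K_A0 A K1 (N' * q))) :
    S34K_GeomHolds3 N' q p := by
  refine S34GM_holds3 N' q p (fun hq hp hpq hqN A hA K1 h hstab => ?_)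
  letI := h.dvr
  haveI := S34GM_neZero N' q
  obtain ⟨h1, h2⟩ := hrel hq A hA K1 h hstab
  exact S34F3_rest A K1 hq hA N' hqN p h h1 h2 (hcross hq hp hpq hqN A hA K1 h hstab)

/-- **the geometric contract** from the modular relation, the node coordinates and the deep
branch (each asked for only at the pairs `(A, K1)` of the proof). -/
theorem S34F3_holds3 (N' q p : ℕ) [NeZero (N' * q)]
    (hrel : ∀ (hq : q.Prime) (A : ValuationSubring Qb) (hA : A.LiesOverPrime q)
      (K1 : IntermediateField ℚ Qb) (h : S18K_Admissible A K1 q)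
      (hstab : ∀ σ : GQ, ∀ x ∈ K1, σ x ∈ K1),
      letI := h.dvr
      haveI : NeZero q := ⟨hq.ne_zero⟩
      S34CUSP_Rel (S18K_O A K1) (S18K_j K1) (qExpand K1 q (jqModC K1)) q ∧
        S34CUSP_Rel (S18K_O A K1) (qExpand K1 q (jqModC K1)) (S18K_j K1) q)
    (hNode : ∀ (hq : q.Prime) (hp : p.Prime) (hpq : p ≠ q)
      (hqN : ¬ q ∣ N') (A : ValuationSubring Qb) (hA : A.LiesOverPrime q)
      (K1 : IntermediateField ℚ Qb) (h : S18K_Admissible A K1 q)
      (hstab : ∀ σ : GQ, ∀ x ∈ K1, σ x ∈ K1),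
      letI := h.dvr
      haveI := S34GM_neZero N' q
      Fermat.Agent.S34_helper7_LGDefs.S34LGK_Node (N' * q) A K1 hstab
        (S34P1C_V2 A K1 hq N' hqN) (S18K_A0 A K1 (N' * q)))
    (hB : ∀ (hq : q.Prime) (hp : p.Prime) (hpq : p ≠ q)
      (hqN : ¬ q ∣ N') (A : ValuationSubring Qb) (hA : A.LiesOverPrime q)
      (K1 : IntermediateField ℚ Qb) (h : S18K_Admissible A K1 q)
      (hstab : ∀ σ : GQ, ∀ x ∈ K1, σ x ∈ K1),
      letI := h.dvr
      haveI := S34GM_neZero N' q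
      Fermat.Agent.S34_helper7_LGDefs.S34LGK_BranchB (N' * q) A K1 hstab
        (S34P1C_V2 A K1 hq N' hqN) (S18K_A0 A K1 (N' * q))) :
    S34K_GeomHolds3 N' q p :=
  S34F3_holds3_of_cross N' q p hrel
    (fun hq hp hpq hqN A hA K1 h hstab => by
      letI := h.dvr
      haveI := S34GM_neZero N' q
      exact S34F3_cross A K1 hstab hq hA N' hqN p
        (hNode hq hp hpq hqN A hA K1 h hstab) (hB hq hp hpq hqN A hA K1 h hstab))

/-- **the frozen statement of S34 from the frontier**: the modular relation, the node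
coordinates and the deep branch, each only at the pairs `(A, K1)` of the proof. -/
theorem S34F3_of_frontier
    (hrel : ∀ (q : ℕ) (hq : q.Prime) (A : ValuationSubring Qb) (hA : A.LiesOverPrime q)
      (K1 : IntermediateField ℚ Qb) (h : S18K_Admissible A K1 q)
      (hstab : ∀ σ : GQ, ∀ x ∈ K1, σ x ∈ K1),
      letI := h.dvr
      haveI : NeZero q := ⟨hq.ne_zero⟩
      S34CUSP_Rel (S18K_O A K1) (S18K_j K1) (qExpand K1 q (jqModC K1)) q ∧
        S34CUSP_Rel (S18K_O A K1) (qExpand K1 q (jqModC K1)) (S18K_j K1) q)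
    (hNode : ∀ (N' q p : ℕ) [NeZero (N' * q)] (hq : q.Prime) (hp : p.Prime) (hpq : p ≠ q)
      (hqN : ¬ q ∣ N') (A : ValuationSubring Qb) (hA : A.LiesOverPrime q)
      (K1 : IntermediateField ℚ Qb) (h : S18K_Admissible A K1 q)
      (hstab : ∀ σ : GQ, ∀ x ∈ K1, σ x ∈ K1),
      letI := h.dvr
      haveI := S34GM_neZero N' q
      Fermat.Agent.S34_helper7_LGDefs.S34LGK_Node (N' * q) A K1 hstab
        (S34P1C_V2 A K1 hq N' hqN) (S18K_A0 A K1 (N' * q)))
    (hB : ∀ (N' q p : ℕ) [NeZero (N' * q)] (hq : q.Prime) (hp : p.Prime) (hpq : p ≠ q)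
      (hqN : ¬ q ∣ N') (A : ValuationSubring Qb) (hA : A.LiesOverPrime q)
      (K1 : IntermediateField ℚ Qb) (h : S18K_Admissible A K1 q)
      (hstab : ∀ σ : GQ, ∀ x ∈ K1, σ x ∈ K1),
      letI := h.dvr
      haveI := S34GM_neZero N' q
      Fermat.Agent.S34_helper7_LGDefs.S34LGK_BranchB (N' * q) A K1 hstab
        (S34P1C_V2 A K1 hq N' hqN) (S18K_A0 A K1 (N' * q)))
    {𝒪 : Type} [CommRing 𝒪] [IsDomain 𝒪] [IsDiscreteValuationRing 𝒪]
    [IsAdicComplete (maximalIdeal 𝒪) 𝒪] [Finite (ResidueField 𝒪)] [CharZero 𝒪]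
    {p : ℕ} (hp : p.Prime) (hp𝒪 : (p : 𝒪) ∈ maximalIdeal 𝒪)
    {N : ℕ} [NeZero N] {S : Finset ℕ} (hpS : p ∈ S) (hNS : ∀ q : ℕ, q.Prime → q ∣ N → q ∈ S)
    {θ : CuspForm.heckeAlgebra N 2 (↑S : Set ℕ) →+* ResidueField 𝒪}
    {T : Type} [CommRing T] [IsLocalRing T] [IsNoetherianRing T]
    [IsAdicComplete (maximalIdeal T) T] [Algebra 𝒪 T] [IsLocalHom (algebraMap 𝒪 T)]
    [Module.Finite 𝒪 T] [Module.Free 𝒪 T]
    (H : CuspForm.HeckeGaloisRepDatum N (↑S : Set ℕ) 𝒪 θ T)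
    (q : ℕ) (hq : q.Prime) (hqp : q ≠ p) (hqN : q ∣ N) (hq2 : ¬ q ^ 2 ∣ N) :
    H.ρ.IsUnipotentOnInertiaAt q :=
  S34FINAL_of_geom
    (fun N' q p _ => S34F3_holds3 N' q p
      (fun hq A hA K1 h hstab => hrel q hq A hA K1 h hstab)
      (fun hq hp hpq hqN A hA K1 h hstab => hNode N' q p hq hp hpq hqN A hA K1 h hstab)
      (fun hq hp hpq hqN A hA K1 h hstab => hB N' q p hq hp hpq hqN A hA K1 h hstab))
    hp hp𝒪 hpS hNS H q hq hqp hqN hq2

/-- the same with X-CROSS on the finite chart as a single hypothesis. -/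
theorem S34F3_of_cross
    (hrel : ∀ (q : ℕ) (hq : q.Prime) (A : ValuationSubring Qb) (hA : A.LiesOverPrime q)
      (K1 : IntermediateField ℚ Qb) (h : S18K_Admissible A K1 q)
      (hstab : ∀ σ : GQ, ∀ x ∈ K1, σ x ∈ K1),
      letI := h.dvr
      haveI : NeZero q := ⟨hq.ne_zero⟩
      S34CUSP_Rel (S18K_O A K1) (S18K_j K1) (qExpand K1 q (jqModC K1)) q ∧
        S34CUSP_Rel (S18K_O A K1) (qExpand K1 q (jqModC K1)) (S18K_j K1) q)
    (hcross : ∀ (N' q p : ℕ) [NeZero (N' * q)] (hq : q.Prime) (hp : p.Prime) (hpq : p ≠ q)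
      (hqN : ¬ q ∣ N') (A : ValuationSubring Qb) (hA : A.LiesOverPrime q)
      (K1 : IntermediateField ℚ Qb) (h : S18K_Admissible A K1 q)
      (hstab : ∀ σ : GQ, ∀ x ∈ K1, σ x ∈ K1),
      letI := h.dvr
      haveI := S34GM_neZero N' q
      S34K_Cross (N' * q) p A K1 (S34P1C_V2 A K1 hq N' hqN) (S18K_A0 A K1 (N' * q)))
    {𝒪 : Type} [CommRing 𝒪] [IsDomain 𝒪] [IsDiscreteValuationRing 𝒪]
    [IsAdicComplete (maximalIdeal 𝒪) 𝒪] [Finite (ResidueField 𝒪)] [CharZero 𝒪]
    {p : ℕ} (hp : p.Prime) (hp𝒪 : (p : 𝒪) ∈ maximalIdeal 𝒪)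
    {N : ℕ} [NeZero N] {S : Finset ℕ} (hpS : p ∈ S) (hNS : ∀ q : ℕ, q.Prime → q ∣ N → q ∈ S)
    {θ : CuspForm.heckeAlgebra N 2 (↑S : Set ℕ) →+* ResidueField 𝒪}
    {T : Type} [CommRing T] [IsLocalRing T] [IsNoetherianRing T]
    [IsAdicComplete (maximalIdeal T) T] [Algebra 𝒪 T] [IsLocalHom (algebraMap 𝒪 T)]
    [Module.Finite 𝒪 T] [Module.Free 𝒪 T]
    (H : CuspForm.HeckeGaloisRepDatum N (↑S : Set ℕ) 𝒪 θ T)
    (q : ℕ) (hq : q.Prime) (hqp : q ≠ p) (hqN : q ∣ N) (hq2 : ¬ q ^ 2 ∣ N) :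
    H.ρ.IsUnipotentOnInertiaAt q :=
  S34FINAL_of_geom
    (fun N' q p _ => S34F3_holds3_of_cross N' q p
      (fun hq A hA K1 h hstab => hrel q hq A hA K1 h hstab)
      (fun hq hp hpq hqN A hA K1 h hstab => hcross N' q p hq hp hpq hqN A hA K1 h hstab))
    hp hp𝒪 hpS hNS H q hq hqp hqN hq2

end Fermat.Agent.S34_helper12_FIN3
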