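import Mathlib
import Fermat.Agent.S34_helper27_C2ADAPT
import Fermat.Agent.S34_helper12_DICH

/-!
# S34, block C': the constants (helper12, piece P5-GAMMA)

`S : S34C_Setup2 O π j F1 V1 V2 A0 Ainf`, `f` congruent to a constant `a1 ∈ O` modulo `π V1` and
to a constant `a2 ∈ O` modulo `π V2` (the two constant reductions of `f` along the two components
of the special fibre), `b_i ∈ O` units with `b_i ^ p ≡ a_i` modulo `π`.

* `S34GA_const_congr` : if `υ` lies in the local ring of a chart at a CROSSING point and is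
  congruent to `a1` modulo `π V1` and to `a2` modulo `π V2`, then `a1 ≡ a2` modulo `π O`;
* `S34GA_redPow_const` : `RedPow` for a constant `G`;
* `S34GA_exists_d` : if `V1 ≠ V2` there is `d ∈ V1 ⊓ V2`, a unit of `V1`, divisible by `π` in
  `V2`;
* `S34GA_redPow_crt` : `RedPow` for a `G ∈ V1 ⊓ V2` with the two prescribed reductions (CRT);
* `S34GA_main` : there is `G` with `RedPow π (V1 ⊓ V2) p f G` such that `f` has the local shape
  `S34C_Shape` relative to `G` at every crossing point where the node data exist.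
-/

set_option autoImplicit false
set_option linter.unusedVariables false
set_option linter.unusedSectionVars false

namespace Fermat.Agent.S34_helper12_GAMMA

open Fermat.Agent.S18_helper9_CDefs Fermat.Agent.S34_helper12_CDefs
  Fermat.Agent.S18_helper3_LOCRING Fermat.Agent.S34_helper27_C2Defs
  Fermat.Agent.S34_helper27_C2ADAPT Fermat.Agent.S34_helper12_DICH

variable {L : Type*} [Field L]

variable {O : Subring L} {π j : L} {F1 : Subfield L} {V1 V2 A0 Ainf : Subring L}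

/-! ### basics -/

theorem S34GA_O_le (S : S34C_Setup2 O π j F1 V1 V2 A0 Ainf) : O ≤ V1 ⊓ V2 :=
  S34C2_O_le_V (S34CA_setup (S34CA_setup_of_setup2 S))

theorem S34GA_pi_mem (S : S34C_Setup2 O π j F1 V1 V2 A0 Ainf) : π ∈ V1 ⊓ V2 :=
  S34GA_O_le S S.π_mem

/-- An element of `O` is a unit of `O` or divisible by `π` in `O`. -/
theorem S34GA_unit_or_dvd (S : S34C_Setup2 O π j F1 V1 V2 A0 Ainf) {a : L} (ha : a ∈ O) :
    a⁻¹ ∈ O ∨ ∃ o ∈ O, a = π * o := by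
  haveI := S.dvr
  by_cases hu : IsUnit (⟨a, ha⟩ : O)
  · left
    obtain ⟨u, hu⟩ := hu
    have h1 : a * (((u⁻¹ : Oˣ) : O) : L) = 1 := by
      have h2 : ((u : O) * ((u⁻¹ : Oˣ) : O) : O) = 1 := u.mul_inv
      have h3 := congrArg (fun z : O => (z : L)) h2
      rw [hu] at h3
      simpa using h3
    rw [inv_eq_of_mul_eq_one_right h1]
    exact Subtype.property _
  · right
    have hm : (⟨a, ha⟩ : O) ∈ IsLocalRing.maximalIdeal O :=
      (IsLocalRing.mem_maximalIdeal _).2 hu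
    rw [(S.π_irr S.π_mem).maximalIdeal_eq, Ideal.mem_span_singleton] at hm
    obtain ⟨o, ho⟩ := hm
    exact ⟨o, o.2, congrArg Subtype.val ho⟩

/-- congruence of `p`-th powers. -/
theorem S34GA_pow_congr (W : Subring L) {x y t : L} (hx : x ∈ W) (hy : y ∈ W) (ht : t ∈ W)
    (h : x - y = π * t) (p : ℕ) : ∃ t' ∈ W, x ^ p - y ^ p = π * t' := by
  induction p with
  | zero => exact ⟨0, W.zero_mem, by simp⟩
  | succ n ih =>
    obtain ⟨s, hs, hs'⟩ := ih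
    refine ⟨x ^ n * t + s * y, W.add_mem (W.mul_mem (W.pow_mem hx n) ht) (W.mul_mem hs hy), ?_⟩
    have : x ^ (n + 1) - y ^ (n + 1) = x ^ n * (x - y) + (x ^ n - y ^ n) * y := by ring
    rw [this, h, hs']
    ring

/-! ### the two constants agree at a crossing point -/

/-- **At a crossing point the two constant reductions agree.** -/
theorem S34GA_const_congr (S : S34C_Setup2 O π j F1 V1 V2 A0 Ainf) {x : L} {A : Subring L}
    (hC : Chart O π x F1 (V1 ⊓ V2) A) (hOA : O ≤ A) (m : Ideal A) [hm : m.IsPrime]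
    (h1 : ∀ a : A, (∃ v ∈ V1, (a : L) = π * v) → a ∈ m)
    (h2 : ∀ a : A, (∃ v ∈ V2, (a : L) = π * v) → a ∈ m)
    (υ a1 a2 : L) (hυ : υ ∈ locRing A m) (ha1 : a1 ∈ O) (ha2 : a2 ∈ O)
    (hυ1 : ∃ v ∈ V1, υ - a1 = π * v) (hυ2 : ∃ v ∈ V2, υ - a2 = π * v) :
    ∃ o ∈ O, a1 - a2 = π * o := by
  obtain ⟨a, c, hc, hυc⟩ := hυ
  obtain ⟨v1, hv1, e1⟩ := hυ1
  obtain ⟨v2, hv2, e2⟩ := hυ2
  have hcV : (c : L) ∈ V1 ⊓ V2 := hC.le_V c.2
  -- the two numerators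
  have hn1 : a - (⟨a1, hOA ha1⟩ : A) * c ∈ m := by
    apply h1
    refine ⟨v1 * (c : L), V1.mul_mem hv1 hcV.1, ?_⟩
    push_cast
    rw [← hυc]
    linear_combination (c : L) * e1
  have hn2 : a - (⟨a2, hOA ha2⟩ : A) * c ∈ m := by
    apply h2
    refine ⟨v2 * (c : L), V2.mul_mem hv2 hcV.2, ?_⟩
    push_cast
    rw [← hυc]
    linear_combination (c : L) * e2
  have hdiff : ((⟨a1, hOA ha1⟩ : A) - ⟨a2, hOA ha2⟩) * c ∈ m := by
    have : ((⟨a1, hOA ha1⟩ : A) - ⟨a2, hOA ha2⟩) * c =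
        (a - (⟨a2, hOA ha2⟩ : A) * c) - (a - (⟨a1, hOA ha1⟩ : A) * c) := by ring
    rw [this]
    exact m.sub_mem hn2 hn1
  have hmem : ((⟨a1, hOA ha1⟩ : A) - ⟨a2, hOA ha2⟩) ∈ m := by
    rcases hm.mem_or_mem hdiff with h | h
    · exact h
    · exact absurd h hc
  by_cases h0 : a1 - a2 = 0
  · exact ⟨0, O.zero_mem, by rw [h0, mul_zero]⟩
  rcases S34GA_unit_or_dvd S (O.sub_mem ha1 ha2) with hu | hd
  · exfalso
    apply hm.ne_top
    rw [Ideal.eq_top_iff_one]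
    have : (1 : A) = ((⟨a1, hOA ha1⟩ : A) - ⟨a2, hOA ha2⟩) * ⟨(a1 - a2)⁻¹, hOA hu⟩ := by
      apply Subtype.ext
      push_cast
      rw [mul_inv_cancel₀ h0]
    rw [this]
    exact m.mul_mem_right _ hmem
  · exact hd

/-! ### `RedPow` for a constant `G` -/

/-- **`RedPow` with a constant `G = b`.** -/
theorem S34GA_redPow_const (S : S34C_Setup2 O π j F1 V1 V2 A0 Ainf) (p : ℕ)
    (f a b : L) (hb : b ∈ O) (hb' : b⁻¹ ∈ O) (hb0 : b ≠ 0)
    (hr : ∃ o ∈ O, b ^ p - a = π * o) (hf : ∃ v ∈ V1 ⊓ V2, f - a = π * v) :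
    RedPow π (V1 ⊓ V2) p f b := by
  obtain ⟨o, ho, hbo⟩ := hr
  obtain ⟨v, hv, hfv⟩ := hf
  have hOV := S34GA_O_le S
  refine ⟨hOV hb, hOV hb', (v - o) * (b⁻¹) ^ p,
    Subring.mul_mem _ (Subring.sub_mem _ hv (hOV ho)) (Subring.pow_mem _ (hOV hb') p), ?_⟩
  have hbp : b ^ p * (b⁻¹) ^ p = 1 := by
    rw [← mul_pow, mul_inv_cancel₀ hb0, one_pow]
  have : b ^ p * (1 + π * ((v - o) * b⁻¹ ^ p)) = b ^ p + π * (v - o) * (b ^ p * b⁻¹ ^ p) := by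
    ring
  rw [this, hbp]
  linear_combination hfv - hbo

/-! ### the Chinese remainder element -/

/-- If `V1` is contained in `V2` then `V2` is contained in `V1`. -/
theorem S34GA_le_of_le (S : S34C_Setup2 O π j F1 V1 V2 A0 Ainf) (h : V1 ≤ V2) : V2 ≤ V1 := by
  intro x hx
  rcases S.V1_val x (S.V2_le hx) with h1 | h1
  · exact h1
  by_contra hx1
  have hx0 : x ≠ 0 := by
    rintro rfl
    exact hx1 V1.zero_mem
  obtain ⟨v, hv, hxv⟩ := S.V1_unif x⁻¹ h1 (by rwa [inv_inv])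
  apply S.V2_nonunit
  have hπ0 := S34DI_pi_ne_zero S
  have : π⁻¹ = v * x := by
    have h2 : π * (v * x) = 1 := by
      rw [← mul_assoc, ← hxv, inv_mul_cancel₀ hx0]
    exact inv_eq_of_mul_eq_one_right h2
  rw [this]
  exact V2.mul_mem (h hv) hx

/-- **The element `d`**: if `V1` is not contained in `V2`, there is `d ∈ V1 ⊓ V2`, a unit of
`V1`, divisible by `π` in `V2`. -/
theorem S34GA_exists_d (S : S34C_Setup2 O π j F1 V1 V2 A0 Ainf) (hne : ¬ V1 ≤ V2) :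
    ∃ d ∈ V1 ⊓ V2, d ≠ 0 ∧ d⁻¹ ∈ V1 ∧ ∃ v ∈ V2, d = π * v := by
  -- a unit of `V1` outside `V2`
  have key : ∃ z ∈ V1, z⁻¹ ∈ V1 ∧ z ∉ V2 := by
    obtain ⟨y, hy1, hy2⟩ := Set.not_subset.1 hne
    by_cases hyu : y⁻¹ ∈ V1
    · exact ⟨y, hy1, hyu, hy2⟩
    · obtain ⟨v, hv, hyv⟩ := S.V1_unif y hy1 hyu
      refine ⟨1 + y, V1.add_mem V1.one_mem hy1, ?_, ?_⟩
      · rw [hyv]
        exact (S34CA_val1 S).one_add hv
      · intro h
        apply hy2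
        have : y = (1 + y) - 1 := by ring
        rw [this]
        exact V2.sub_mem h V2.one_mem
  obtain ⟨z, hz1, hz1', hz2⟩ := key
  have hz0 : z ≠ 0 := by
    rintro rfl
    exact hz2 V2.zero_mem
  have hzinv2 : z⁻¹ ∈ V2 := by
    rcases S.V2_val z (S.V1_le hz1) with h | h
    · exact absurd h hz2
    · exact h
  obtain ⟨v, hv, hzv⟩ := S.V2_unif z⁻¹ hzinv2 (by rwa [inv_inv])
  exact ⟨z⁻¹, ⟨hz1', hzinv2⟩, inv_ne_zero hz0, by rwa [inv_inv], v, hv, hzv⟩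

/-- **The idempotent-like element `e`**: `e ≡ 1` modulo `π V1` and `e ≡ 0` modulo `π V2`. -/
theorem S34GA_exists_e (S : S34C_Setup2 O π j F1 V1 V2 A0 Ainf) (hne : ¬ V1 ≤ V2) :
    ∃ e ∈ V1 ⊓ V2, (∃ v ∈ V1, e - 1 = π * v) ∧ ∃ v ∈ V2, e = π * v := by
  obtain ⟨d, hd, hd0, hd1, v2, hv2, hdv⟩ := S34GA_exists_d S hne
  have hπ0 := S34DI_pi_ne_zero S
  have hπ1 : π ∈ V1 := (S34GA_pi_mem S).1
  have hπ2 : π ∈ V2 := (S34GA_pi_mem S).2
  -- `(d² + π)⁻¹` in `V1`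
  have hu1 : (1 + π * (d⁻¹ * d⁻¹))⁻¹ ∈ V1 := (S34CA_val1 S).one_add (V1.mul_mem hd1 hd1)
  have hu2 : (1 + π * (v2 * v2))⁻¹ ∈ V2 := (S34CA_val2 S).one_add (V2.mul_mem hv2 hv2)
  have hne1 : (1 + π * (d⁻¹ * d⁻¹)) ≠ 0 := by
    intro h0
    apply S.V1_nonunit
    have : π⁻¹ = -(d⁻¹ * d⁻¹) :=
      inv_eq_of_mul_eq_one_right (by linear_combination -h0)
    rw [this]
    exact V1.neg_mem (V1.mul_mem hd1 hd1)
  have hne2 : (1 + π * (v2 * v2)) ≠ 0 := by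
    intro h0
    apply S.V2_nonunit
    have : π⁻¹ = -(v2 * v2) :=
      inv_eq_of_mul_eq_one_right (by linear_combination -h0)
    rw [this]
    exact V2.neg_mem (V2.mul_mem hv2 hv2)
  have hsum1 : d * d + π = d * d * (1 + π * (d⁻¹ * d⁻¹)) := by
    field_simp
  have hsum2 : d * d + π = π * (1 + π * (v2 * v2)) := by
    rw [hdv]; ring
  have hsum0 : d * d + π ≠ 0 := by
    rw [hsum2]
    exact mul_ne_zero hπ0 hne2
  -- the element
  have he1 : d * d * (d * d + π)⁻¹ = (1 + π * (d⁻¹ * d⁻¹))⁻¹ := by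
    rw [hsum1, mul_inv, ← mul_assoc, mul_inv_cancel₀ (mul_ne_zero hd0 hd0), one_mul]
  have he2 : d * d * (d * d + π)⁻¹ = π * (v2 * v2 * (1 + π * (v2 * v2))⁻¹) := by
    rw [hsum2, mul_inv, hdv]
    field_simp
  refine ⟨d * d * (d * d + π)⁻¹, ⟨?_, ?_⟩, ⟨-((d⁻¹ * d⁻¹) * (1 + π * (d⁻¹ * d⁻¹))⁻¹), ?_, ?_⟩,
    ⟨v2 * v2 * (1 + π * (v2 * v2))⁻¹, V2.mul_mem (V2.mul_mem hv2 hv2) hu2, he2⟩⟩
  · rw [he1]; exact hu1
  · rw [he2]; exact V2.mul_mem hπ2 (V2.mul_mem (V2.mul_mem hv2 hv2) hu2)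
  · exact V1.neg_mem (V1.mul_mem (V1.mul_mem hd1 hd1) hu1)
  · rw [he1]
    have hu := mul_inv_cancel₀ hne1
    linear_combination hu

/-! ### `RedPow` by the Chinese remainder theorem -/

/-- a unit of `O` times `1 + π t` is a unit of a valuation ring `W ⊇ O`. -/
theorem S34GA_inv_mem_of_congr {W : Subring L} (H : S34C2_Val π F1 W) {G b t : L}
    (hb : b ∈ W) (hb' : b⁻¹ ∈ W) (hb0 : b ≠ 0) (ht : t ∈ W) (h : G - b = π * t) :
    G⁻¹ ∈ W ∧ G ≠ 0 := by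
  have hG : G = b * (1 + π * (b⁻¹ * t)) := by
    have : b * (1 + π * (b⁻¹ * t)) = b + π * t * (b * b⁻¹) := by ring
    rw [this, mul_inv_cancel₀ hb0, mul_one, ← h]
    ring
  have hu : (1 + π * (b⁻¹ * t))⁻¹ ∈ W := H.one_add (W.mul_mem hb' ht)
  have hne : (1 + π * (b⁻¹ * t)) ≠ 0 := by
    intro h0
    apply H.π_nonunit
    have : π⁻¹ = -(b⁻¹ * t) := inv_eq_of_mul_eq_one_right (by linear_combination -h0)
    rw [this]
    exact W.neg_mem (W.mul_mem hb' ht)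
  constructor
  · rw [hG, mul_inv]
    exact W.mul_mem hb' hu
  · rw [hG]
    exact mul_ne_zero hb0 hne

/-- **`RedPow` with a `G` having the two prescribed constant reductions.** -/
theorem S34GA_redPow_crt (S : S34C_Setup2 O π j F1 V1 V2 A0 Ainf) (hne : ¬ V1 ≤ V2) (p : ℕ)
    (f a1 a2 b1 b2 : L) (hb1 : b1 ∈ O) (hb1' : b1⁻¹ ∈ O) (hb10 : b1 ≠ 0)
    (hb2 : b2 ∈ O) (hb2' : b2⁻¹ ∈ O) (hb20 : b2 ≠ 0)
    (hr1 : ∃ o ∈ O, b1 ^ p - a1 = π * o) (hr2 : ∃ o ∈ O, b2 ^ p - a2 = π * o)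
    (hf1 : ∃ v ∈ V1, f - a1 = π * v) (hf2 : ∃ v ∈ V2, f - a2 = π * v) :
    ∃ G : L, RedPow π (V1 ⊓ V2) p f G := by
  obtain ⟨e, he, ⟨u1, hu1, he1⟩, ⟨u2, hu2, he2⟩⟩ := S34GA_exists_e S hne
  obtain ⟨o1, ho1, hbo1⟩ := hr1
  obtain ⟨o2, ho2, hbo2⟩ := hr2
  obtain ⟨v1, hv1, hfv1⟩ := hf1
  obtain ⟨v2, hv2, hfv2⟩ := hf2
  have hOV := S34GA_O_le S
  have hπ0 := S34DI_pi_ne_zero S
  set G : L := b2 + (b1 - b2) * e with hGdef
  have hGV : G ∈ V1 ⊓ V2 :=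
    Subring.add_mem _ (hOV hb2) (Subring.mul_mem _ (Subring.sub_mem _ (hOV hb1) (hOV hb2)) he)
  have hG1 : G - b1 = π * ((b1 - b2) * u1) := by
    rw [hGdef]
    linear_combination (b1 - b2) * he1
  have hG2 : G - b2 = π * ((b1 - b2) * u2) := by
    rw [hGdef]
    linear_combination (b1 - b2) * he2
  have ht1 : (b1 - b2) * u1 ∈ V1 := V1.mul_mem (V1.sub_mem (hOV hb1).1 (hOV hb2).1) hu1
  have ht2 : (b1 - b2) * u2 ∈ V2 := V2.mul_mem (V2.sub_mem (hOV hb1).2 (hOV hb2).2) hu2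
  obtain ⟨hGi1, hG0⟩ := S34GA_inv_mem_of_congr (S34CA_val1 S) (hOV hb1).1 (hOV hb1').1 hb10
    ht1 hG1
  obtain ⟨hGi2, -⟩ := S34GA_inv_mem_of_congr (S34CA_val2 S) (hOV hb2).2 (hOV hb2').2 hb20
    ht2 hG2
  obtain ⟨s1, hs1, hps1⟩ := S34GA_pow_congr (π := π) V1 hGV.1 (hOV hb1).1 ht1 hG1 p
  obtain ⟨s2, hs2, hps2⟩ := S34GA_pow_congr (π := π) V2 hGV.2 (hOV hb2).2 ht2 hG2 p
  -- `f - G ^ p = π w_i`
  have hw1 : f - G ^ p = π * (v1 - o1 - s1) := by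
    linear_combination hfv1 - hbo1 - hps1
  have hw2 : f - G ^ p = π * (v2 - o2 - s2) := by
    linear_combination hfv2 - hbo2 - hps2
  have hw : v1 - o1 - s1 = v2 - o2 - s2 := mul_left_cancel₀ hπ0 (hw1.symm.trans hw2)
  have hw1V : v1 - o1 - s1 ∈ V1 := V1.sub_mem (V1.sub_mem hv1 (hOV ho1).1) hs1
  have hw2V : v1 - o1 - s1 ∈ V2 := by
    rw [hw]
    exact V2.sub_mem (V2.sub_mem hv2 (hOV ho2).2) hs2
  have hGp0 : G ^ p ≠ 0 := pow_ne_zero _ hG0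
  refine ⟨G, hGV, ⟨hGi1, hGi2⟩, (v1 - o1 - s1) * (G⁻¹) ^ p, ⟨?_, ?_⟩, ?_⟩
  · exact V1.mul_mem hw1V (V1.pow_mem hGi1 p)
  · exact V2.mul_mem hw2V (V2.pow_mem hGi2 p)
  · have hGG : G ^ p * (G⁻¹) ^ p = 1 := by
      rw [← mul_pow, mul_inv_cancel₀ hG0, one_pow]
    have : G ^ p * (1 + π * ((v1 - o1 - s1) * G⁻¹ ^ p)) =
        G ^ p + π * (v1 - o1 - s1) * (G ^ p * G⁻¹ ^ p) := by ring
    rw [this, hGG]
    linear_combination hw1

/-! ### the main statement -/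

/-- `(g ^ p)⁻¹ ≡ 1` modulo `π W` if `g ≡ 1` modulo `π W`. -/
theorem S34GA_inv_pow_congr {W : Subring L} (H : S34C2_Val π F1 W) {g c : L} (hc : c ∈ W)
    (hgc : g = 1 + π * c) (p : ℕ) : ∃ c' ∈ W, (g ^ p)⁻¹ - 1 = π * c' := by
  have hgi : g⁻¹ ∈ W := by rw [hgc]; exact H.one_add hc
  have hg0 : g ≠ 0 := by
    intro h0
    apply H.π_nonunit
    have h1 : 1 + π * c = 0 := by rw [← hgc, h0]
    have : π⁻¹ = -c := inv_eq_of_mul_eq_one_right (by linear_combination -h1)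
    rw [this]
    exact W.neg_mem hc
  have h1 : g⁻¹ - 1 = π * (-(c * g⁻¹)) := by
    have hgg : g * g⁻¹ = 1 := mul_inv_cancel₀ hg0
    have : g⁻¹ - 1 = g⁻¹ - g * g⁻¹ := by rw [hgg]
    rw [this, hgc]
    ring
  obtain ⟨t, ht, hpt⟩ := S34GA_pow_congr (π := π) W hgi W.one_mem
    (W.neg_mem (W.mul_mem hc hgi)) h1 p
  refine ⟨t, ht, ?_⟩
  rw [← inv_pow, ← hpt, one_pow]

/-- **The constants of block C'.**  There is `G` with `RedPow π (V1 ⊓ V2) p f G` such that `f`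
has the local shape relative to `G` at every crossing point of every chart at which a local
generator `g ≡ 1` modulo `π (V1 ⊓ V2)` exists with `f / g ^ p` a unit of the local ring. -/
theorem S34GA_main (S : S34C_Setup2 O π j F1 V1 V2 A0 Ainf) (p : ℕ)
    (f a1 a2 b1 b2 : L) (ha1 : a1 ∈ O) (ha2 : a2 ∈ O)
    (hb1 : b1 ∈ O) (hb1' : b1⁻¹ ∈ O) (hb10 : b1 ≠ 0)
    (hb2 : b2 ∈ O) (hb2' : b2⁻¹ ∈ O) (hb20 : b2 ≠ 0)
    (hr1 : ∃ o ∈ O, b1 ^ p - a1 = π * o) (hr2 : ∃ o ∈ O, b2 ^ p - a2 = π * o)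
    (hf1 : ∃ v ∈ V1, f - a1 = π * v) (hf2 : ∃ v ∈ V2, f - a2 = π * v) :
    ∃ G : L, RedPow π (V1 ⊓ V2) p f G ∧
      ∀ (x : L) (A : Subring L) (_hC : Chart O π x F1 (V1 ⊓ V2) A) (_hOA : O ≤ A)
        (m : Ideal A) [m.IsPrime],
        (∀ a : A, (∃ v ∈ V1, (a : L) = π * v) → a ∈ m) →
        (∀ a : A, (∃ v ∈ V2, (a : L) = π * v) → a ∈ m) →
        ∀ g c : L, g ∈ F1 → c ∈ V1 ⊓ V2 → g = 1 + π * c →
          f * (g ^ p)⁻¹ ∈ locRing A m → (f * (g ^ p)⁻¹)⁻¹ ∈ locRing A m →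
          S34C_Shape π F1 (V1 ⊓ V2) A p f G m := by
  have hOV := S34GA_O_le S
  have hπ0 := S34DI_pi_ne_zero S
  obtain ⟨v1, hv1, hfv1⟩ := hf1
  obtain ⟨v2, hv2, hfv2⟩ := hf2
  by_cases hcong : ∃ o ∈ O, a1 - a2 = π * o
  · -- constant `G = b1`
    obtain ⟨o, ho, hao⟩ := hcong
    have hv12 : v1 = v2 - o := by
      apply mul_left_cancel₀ hπ0
      linear_combination hfv2 - hfv1 - hao
    refine ⟨b1, S34GA_redPow_const S p f a1 b1 hb1 hb1' hb10 hr1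
      ⟨v1, ⟨hv1, by rw [hv12]; exact V2.sub_mem hv2 (hOV ho).2⟩, hfv1⟩, ?_⟩
    intro x A hC hOA m _ _ _ g c hg hc hgc hu hu'
    exact S34DI_shape_of_cross (S34CA_setup_of_setup2 S) hC hOA p m f b1 g c hg hc hgc hu hu'
      hb1 hb1'
  · -- the two constants differ: `V1 ≠ V2`, CRT, and there is no crossing point with node data
    have hne : ¬ V1 ≤ V2 := by
      intro hle
      apply hcong
      by_cases h0 : a1 - a2 = 0
      · exact ⟨0, O.zero_mem, by rw [h0, mul_zero]⟩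
      rcases S34GA_unit_or_dvd S (O.sub_mem ha1 ha2) with hu | hd
      · exfalso
        apply S.V2_nonunit
        have h1 : a1 - a2 = π * (v2 - v1) := by linear_combination hfv2 - hfv1
        have : π⁻¹ = (v2 - v1) * (a1 - a2)⁻¹ := by
          apply inv_eq_of_mul_eq_one_right
          rw [← mul_assoc, ← h1, mul_inv_cancel₀ h0]
        rw [this]
        exact V2.mul_mem (V2.sub_mem hv2 (hle hv1)) (hOV hu).2
      · exact hd
    obtain ⟨G, hG⟩ := S34GA_redPow_crt S hne p f a1 a2 b1 b2 hb1 hb1' hb10 hb2 hb2' hb20 hr1 hr2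
      ⟨v1, hv1, hfv1⟩ ⟨v2, hv2, hfv2⟩
    refine ⟨G, hG, ?_⟩
    intro x A hC hOA m _ h1 h2 g c hg hc hgc hu hu'
    exfalso
    apply hcong
    obtain ⟨c1, hc1, hgc1⟩ := S34GA_inv_pow_congr (S34CA_val1 S) hc.1 hgc p
    obtain ⟨c2, hc2, hgc2⟩ := S34GA_inv_pow_congr (S34CA_val2 S) hc.2 hgc p
    have hgp1 : (g ^ p)⁻¹ ∈ V1 := by
      have : (g ^ p)⁻¹ = 1 + π * c1 := by linear_combination hgc1
      rw [this]
      exact V1.add_mem V1.one_mem (V1.mul_mem (S34GA_pi_mem S).1 hc1)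
    have hgp2 : (g ^ p)⁻¹ ∈ V2 := by
      have : (g ^ p)⁻¹ = 1 + π * c2 := by linear_combination hgc2
      rw [this]
      exact V2.add_mem V2.one_mem (V2.mul_mem (S34GA_pi_mem S).2 hc2)
    refine S34GA_const_congr S hC hOA m h1 h2 (f * (g ^ p)⁻¹) a1 a2 hu ha1 ha2
      ⟨v1 * (g ^ p)⁻¹ + a1 * c1, V1.add_mem (V1.mul_mem hv1 hgp1)
        (V1.mul_mem (hOV ha1).1 hc1), ?_⟩
      ⟨v2 * (g ^ p)⁻¹ + a2 * c2, V2.add_mem (V2.mul_mem hv2 hgp2)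
        (V2.mul_mem (hOV ha2).2 hc2), ?_⟩
    · linear_combination (g ^ p)⁻¹ * hfv1 + a1 * hgc1
    · linear_combination (g ^ p)⁻¹ * hfv2 + a2 * hgc2

end Fermat.Agent.S34_helper12_GAMMA
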