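import Mathlib
import Fermat.Agent.S34_helper25_Defs

/-!
# S34, X-D: the key statement at one level (interface between Part I and Part II)

`S34XB_KeyK1 N p q` : at every admissible Galois-stable level `K1`, for inertia elements
`τ', τ`, a divisor `D` with `K1`-rational support, functions `f0, h1` over `K1` with
`h1 ^ m = u2(f0)` (`m` prime to `q`), `div h1 = p • (τ' - 1)(τ - 1) D` and the leading coefficient
of `h1` a `p`-th power in `K1`: the function `h1` is a `p`-th power in `F1(K1)`.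

* Part I  (`S34_helper12_XB`)  : `S34XB_KeyK1 N p q → S34R_Key N p q`;
* Part II (helper25 / helper28) : `S34XD_Contract N p q → S34XB_KeyK1 N p q`.
-/

set_option autoImplicit false

open HahnSeries IntermediateField AlgebraicCurve ModularCurve
open Fermat.Agent.S18_helper25_COREDefs Fermat.Agent.S34_helper5_K0
  Fermat.Agent.S34_helper6_RED Fermat.Agent.S37_helper5_LEVEL Fermat.Agent.S34_helper25_Defs

noncomputable section

namespace Fermat.Agent.S34_helper12_K1Defs

local notation "Qb" => AlgebraicClosure ℚ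
local notation "GQ" => (AlgebraicClosure ℚ ≃ₐ[ℚ] AlgebraicClosure ℚ)

/-- **The key statement at one level.** -/
def S34XB_KeyK1 (N : ℕ) [NeZero N] (p q : ℕ) : Prop :=
  ∀ (A : ValuationSubring Qb), A.LiesOverPrime q →
  ∀ (K1 : IntermediateField ℚ Qb) (_hadm : S18K_Admissible A K1 q)
    (hstab : ∀ σ : GQ, ∀ y ∈ K1, σ y ∈ K1),
  ∀ τ' τ : GQ, τ' ∈ A.inertiaSubgroupIn ℚ → τ ∈ A.inertiaSubgroupIn ℚ →
  ∀ (D : Divisor Qb (modularFunctionFieldBar N)),
    (∀ P : Place Qb (modularFunctionFieldBar N), D P ≠ 0 → S37LEVEL_IsRational N K1 P) →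
  ∀ (m : ℕ), m ≠ 0 → ¬ q ∣ m →
  ∀ (f0 : LaurentSeries K1), f0 ∈ S18K_F1 K1 N → f0 ≠ 0 →
  ∀ (h1 : modularFunctionFieldFullC K1 N), (h1 : LaurentSeries K1) ≠ 0 →
    (h1 : LaurentSeries K1) ^ m =
      S34XD_u2 K1 (S34K0_restrict K1 hstab τ' : K1 →+* K1)
        (S34K0_restrict K1 hstab τ : K1 →+* K1) f0 →
    (∀ P : Place Qb (modularFunctionFieldBar N),
      P.ord (S34XD_inc K1 N h1) = (p : ℤ) * S34R_diff2 N τ' τ D P) →
    (∃ r : K1, r ^ p = (h1 : LaurentSeries K1).coeff (h1 : LaurentSeries K1).order) →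
    ∃ w : LaurentSeries K1, w ∈ S18K_F1 K1 N ∧ w ^ p = (h1 : LaurentSeries K1)

end Fermat.Agent.S34_helper12_K1Defs
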