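import Mathlib
import Fermat.Agent.S34_Contracts
import Fermat.Agent.S34_helper27_C2ADAPT
import Fermat.Agent.S34_helper19_SMOOTH
import Fermat.Agent.S34_helper12_DICH
import Fermat.Agent.S34_helper12_GAMMA

/-!
# S34, block C' : the consumer theorem (KUM)

The producer of the middle contract (KUM): in a two-valuation setup `S34C_Setup2` with the
regularity contract `S34K_N1` on both charts, a nonzero function `f ∈ F1` with `PowDiv`
(every divisorial order divisible by `p`), with constant reductions along both components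
(`f ≡ a_i mod π V_i`, `a_i ≡ b_i ^ p mod π O`), and with the crossing datum `S34K_CrossAt`
at every crossing point of both charts, has its `p`-th roots in `F1`.

* `S34KUM_locLift` : the local lift at EVERY maximal ideal over `π` of a chart
  (one-component points: helper19 P5-SMOOTH; crossing points: the shape of P5-GAMMA);
* `S34KUM_main`    : the general form (constants `a_1, a_2`);
* `S34KUM_one`     : the form `f = 1 + π c`, `c ∈ V1 ⊓ V2` (the shape produced by STEP 1).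
-/

set_option autoImplicit false

noncomputable section

namespace Fermat.Agent.S34_helper12_KUM

open Fermat.Agent.S18_helper9_CDefs Fermat.Agent.S34_helper12_CDefs
  Fermat.Agent.S18_helper3_LOCRING Fermat.Agent.S34_Contracts
  Fermat.Agent.S34_helper27_C2ADAPT Fermat.Agent.S34_helper19_SMOOTH
  Fermat.Agent.S34_helper12_DICH Fermat.Agent.S34_helper12_GAMMA

variable {L : Type*} [Field L]

variable {O : Subring L} {π j : L} {F1 : Subfield L} {V1 V2 A0 Ainf : Subring L}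

/-- `O` is contained in every chart. -/
theorem S34KUM_O_le (S : S34C_Setup2 O π j F1 V1 V2 A0 Ainf) {x : L} {A : Subring L}
    (hC : Chart O π x F1 (V1 ⊓ V2) A) : O ≤ A :=
  S34SM_O_le S hC

/-- **The local lift at every maximal ideal over `π` of a chart**, from (N1) at the
one-component points and the local shape at the crossing points. -/
theorem S34KUM_locLift [CharZero L] (S : S34C_Setup2 O π j F1 V1 V2 A0 Ainf) {p : ℕ}
    (hp : p.Prime) (hpO : (p : L)⁻¹ ∈ O) (x : L) (hx : x = j ∨ x = j⁻¹) (A : Subring L)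
    (hC : Chart O π x F1 (V1 ⊓ V2) A) (hN1 : S34K_N1 π V1 V2 A)
    (f h G : L) (hf0 : f ≠ 0) (hh : h ^ p = f) (hdiv : PowDiv O π F1 p f)
    (hred : RedPow π (V1 ⊓ V2) p f G)
    (hπ : π ∈ A) (m : Ideal A) (hm : m.IsMaximal) (hπm : (⟨π, hπ⟩ : A) ∈ m)
    (hshape : S34K_Thru π V1 A m → S34K_Thru π V2 A m → S34C_Shape π F1 (V1 ⊓ V2) A p f G m) :
    S34C_LocLift π F1 (V1 ⊓ V2) A h G m := by
  have hN : IsNoetherianRing A :=
    S34CA_chart_noetherian (S34CA_setup_of_setup2 S) x hx A hC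
  rcases S34DI_cases S x A hC hπ m hπm with ⟨d, hdm, hd1, hd2⟩ | ⟨d, hdm, hd1, hd2⟩ | ⟨h1, h2⟩
  · have hIG : IGAt π A m := by
      refine hN1 hπ m hm hπm ?_
      rintro ⟨-, hT2⟩
      exact hdm (hT2 d hd2)
    exact S34SM_locLift S hp hpO x hx A hC hN f h G hf0 hh hdiv hred hπ m hm hπm hIG d hdm
      hd1 hd2
  · have hIG : IGAt π A m := by
      refine hN1 hπ m hm hπm ?_
      rintro ⟨hT1, -⟩
      exact hdm (hT1 d hd2)
    exact S34SM_locLift' S hp hpO x hx A hC hN f h G hf0 hh hdiv hred hπ m hm hπm hIG d hdm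
      hd1 hd2
  · exact S34CA_locLift_of_shape (S34CA_setup_of_setup2 S) hp hC f h G hf0 hh hred m hm
      (hshape h1 h2)

/-- **(KUM), general constants.**  `f ∈ F1` nonzero, `h ^ p = f`, all divisorial orders of `f`
divisible by `p`, `f ≡ a_i mod π V_i` with constants `a_i ≡ b_i ^ p mod π O` (`b_i` units of
`O`), the regularity contract (N1) on both charts and the crossing datum at every crossing point
of both charts: then `h ∈ F1`. -/
theorem S34KUM_main [CharZero L] (S : S34C_Setup2 O π j F1 V1 V2 A0 Ainf)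
    (hN0 : S34K_N1 π V1 V2 A0) (hNinf : S34K_N1 π V1 V2 Ainf)
    {p : ℕ} (hp : p.Prime) (hpO : (p : L)⁻¹ ∈ O) (f h : L) (hf : f ∈ F1) (hf0 : f ≠ 0)
    (hh : h ^ p = f) (hdiv : PowDiv O π F1 p f)
    (a1 a2 b1 b2 : L) (ha1 : a1 ∈ O) (ha2 : a2 ∈ O)
    (hb1 : b1 ∈ O) (hb1i : b1⁻¹ ∈ O) (hb10 : b1 ≠ 0)
    (hb2 : b2 ∈ O) (hb2i : b2⁻¹ ∈ O) (hb20 : b2 ≠ 0)
    (hr1 : ∃ o ∈ O, b1 ^ p - a1 = π * o) (hr2 : ∃ o ∈ O, b2 ^ p - a2 = π * o)
    (hf1 : ∃ v ∈ V1, f - a1 = π * v) (hf2 : ∃ v ∈ V2, f - a2 = π * v)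
    (hX0 : ∀ (hπ : π ∈ A0) (m : Ideal A0) (hm : m.IsMaximal), (⟨π, hπ⟩ : A0) ∈ m →
      S34K_Thru π V1 A0 m → S34K_Thru π V2 A0 m →
      haveI := hm.isPrime
      S34K_CrossAt π F1 V1 V2 A0 p f m)
    (hXinf : ∀ (hπ : π ∈ Ainf) (m : Ideal Ainf) (hm : m.IsMaximal), (⟨π, hπ⟩ : Ainf) ∈ m →
      S34K_Thru π V1 Ainf m → S34K_Thru π V2 Ainf m →
      haveI := hm.isPrime
      S34K_CrossAt π F1 V1 V2 Ainf p f m) :
    h ∈ F1 := by
  obtain ⟨G, hred, hG⟩ := S34GA_main S p f a1 a2 b1 b2 ha1 ha2 hb1 hb1i hb10 hb2 hb2i hb20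
    hr1 hr2 hf1 hf2
  refine S34CA_main2 S hp hpO f h G hf hf0 hh hred ?_ ?_
  · intro hπ m hm hπm
    refine S34KUM_locLift S hp hpO j (Or.inl rfl) A0 S.chart0 hN0 f h G hf0 hh hdiv hred hπ m
      hm hπm ?_
    intro h1 h2
    haveI := hm.isPrime
    obtain ⟨g, hg, c, hc, hgc, hu, hu'⟩ := hX0 hπ m hm hπm h1 h2
    exact hG j A0 S.chart0 (S34KUM_O_le S S.chart0) m h1 h2 g c hg hc hgc hu hu'
  · intro hπ m hm hπm
    refine S34KUM_locLift S hp hpO j⁻¹ (Or.inr rfl) Ainf S.chartInf hNinf f h G hf0 hh hdiv hred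
      hπ m hm hπm ?_
    intro h1 h2
    haveI := hm.isPrime
    obtain ⟨g, hg, c, hc, hgc, hu, hu'⟩ := hXinf hπ m hm hπm h1 h2
    exact hG j⁻¹ Ainf S.chartInf (S34KUM_O_le S S.chartInf) m h1 h2 g c hg hc hgc hu hu'

/-- **(KUM), the form `f = 1 + π c`** with `c ∈ V1 ⊓ V2` (`G = 1`; this is the shape in which
STEP 1 delivers the rescaled function). -/
theorem S34KUM_one [CharZero L] (S : S34C_Setup2 O π j F1 V1 V2 A0 Ainf)
    (hN0 : S34K_N1 π V1 V2 A0) (hNinf : S34K_N1 π V1 V2 Ainf)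
    {p : ℕ} (hp : p.Prime) (hpO : (p : L)⁻¹ ∈ O) (f h : L) (hf : f ∈ F1) (hf0 : f ≠ 0)
    (hh : h ^ p = f) (hdiv : PowDiv O π F1 p f)
    (hc : ∃ c ∈ (V1 ⊓ V2 : Subring L), f = 1 + π * c)
    (hX0 : ∀ (hπ : π ∈ A0) (m : Ideal A0) (hm : m.IsMaximal), (⟨π, hπ⟩ : A0) ∈ m →
      S34K_Thru π V1 A0 m → S34K_Thru π V2 A0 m →
      haveI := hm.isPrime
      S34K_CrossAt π F1 V1 V2 A0 p f m)
    (hXinf : ∀ (hπ : π ∈ Ainf) (m : Ideal Ainf) (hm : m.IsMaximal), (⟨π, hπ⟩ : Ainf) ∈ m →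
      S34K_Thru π V1 Ainf m → S34K_Thru π V2 Ainf m →
      haveI := hm.isPrime
      S34K_CrossAt π F1 V1 V2 Ainf p f m) :
    h ∈ F1 := by
  obtain ⟨c, hcV, hfc⟩ := hc
  refine S34KUM_main S hN0 hNinf hp hpO f h hf hf0 hh hdiv 1 1 1 1 O.one_mem O.one_mem
    O.one_mem (by rw [inv_one]; exact O.one_mem) one_ne_zero
    O.one_mem (by rw [inv_one]; exact O.one_mem) one_ne_zero
    ⟨0, O.zero_mem, by rw [one_pow, sub_self, mul_zero]⟩
    ⟨0, O.zero_mem, by rw [one_pow, sub_self, mul_zero]⟩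
    ⟨c, hcV.1, by rw [hfc]; ring⟩ ⟨c, hcV.2, by rw [hfc]; ring⟩ hX0 hXinf

end Fermat.Agent.S34_helper12_KUM
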