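import Mathlib
import Fermat.Agent.S34_helper12_K1Defs
import Fermat.Agent.S34_helper21_ACT
import Fermat.Agent.S18_helper26_CONST
import Fermat.Agent.S18_helper25_CORE
import Fermat.Agent.S18_helper25_GLUE

/-!
# S34, X-D, Part I: the divisor-level key statement from the key statement at one level

`S34XB_key : S34XB_KeyK1 N p q → S34R_Key N p q` (for primes `p ≠ q`).

Over `ℚ̄`: `U := τ'τ f · f / (τ' f · τ f)` has divisor `p ^ k • (τ' - 1)(τ - 1) D`; for `k = 0`
it is the answer; for `k ≥ 1` the quotient `h ^ (p ^ (k-1)) / U` has zero divisor, so it is a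
constant `c`; after dividing `h` by a root `c1` of `c` one has `h1 ^ (p ^ (k-1)) = U`.  Then
everything is descended to a Galois-stable admissible level `K1` over which the support of `D` is
rational and the leading coefficient of `h1` is a `p`-th power; the key statement at the level
`K1` gives a `p`-th root of `h1` in `F1(K1)`, whose image over `ℚ̄` has divisor
`(τ' - 1)(τ - 1) D`.
-/

set_option autoImplicit false

open HahnSeries IntermediateField AlgebraicCurve ModularCurve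
open Fermat.Agent.S18_helper25_COREDefs Fermat.Agent.S34_helper5_K0
  Fermat.Agent.S34_helper6_RED Fermat.Agent.S37_helper5_LEVEL Fermat.Agent.S34_helper25_Defs
  Fermat.Agent.S34_helper12_K1Defs Fermat.Agent.S18_helper19_PLACEMOD
  Fermat.Agent.S18_helper25_GLUE Fermat.Agent.S34_helper21_ACT

noncomputable section

namespace Fermat.Agent.S34_helper12_XB

local notation "Qb" => AlgebraicClosure ℚ
local notation "GQ" => (AlgebraicClosure ℚ ≃ₐ[ℚ] AlgebraicClosure ℚ)

/-! ### Zero divisor implies constant, over `ℚ̄` -/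

theorem S34XB_const_aux (E E' : IntermediateField Qb (LaurentSeries Qb)) (h : E = E')
    (hE' : ∀ x : E', x ≠ 0 → (∀ P : Place Qb E', P.ord x = 0) →
      ∃ c : Qb, x = algebraMap Qb E' c) :
    ∀ x : E, x ≠ 0 → (∀ P : Place Qb E, P.ord x = 0) → ∃ c : Qb, x = algebraMap Qb E c := by
  subst h
  exact hE'

theorem S34XB_const (N : ℕ) [NeZero N] (x : modularFunctionFieldBar N) (hx : x ≠ 0)
    (h : ∀ P : Place Qb (modularFunctionFieldBar N), P.ord x = 0) :
    ∃ c : Qb, x = algebraMap Qb (modularFunctionFieldBar N) c :=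
  S34XB_const_aux (modularFunctionFieldBar N) (modularFunctionFieldFullC Qb N) (S18G_bar_eq N)
    (Fermat.Agent.S18_helper26_CONST.S18P15_const Qb N) x hx h

/-! ### The second difference quotient over `ℚ̄` -/

section Bar

variable (N : ℕ) [NeZero N]

/-- `U = τ'τ f · f / (τ' f · τ f)`. -/
def S34XB_U (τ' τ : GQ) (f : modularFunctionFieldBar N) : modularFunctionFieldBar N :=
  (S34R_g N τ' • (S34R_g N τ • f)) * f * ((S34R_g N τ' • f) * (S34R_g N τ • f))⁻¹

variable {N}

theorem S34XB_smul_ne_zero (g : SemilinearAut Qb (modularFunctionFieldBar N))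
    {f : modularFunctionFieldBar N} (hf : f ≠ 0) : g • f ≠ 0 := by
  intro h
  apply hf
  have := congrArg (fun z => g⁻¹ • z) h
  simpa using this

theorem S34XB_ord_smul (g : SemilinearAut Qb (modularFunctionFieldBar N))
    (P : Place Qb (modularFunctionFieldBar N)) (f : modularFunctionFieldBar N) :
    P.ord (g • f) = (g⁻¹ • P).ord f := by
  have h := SemilinearAut.ord_smul g (g⁻¹ • P) f
  rwa [smul_inv_smul] at h

theorem S34XB_U_ne_zero (τ' τ : GQ) {f : modularFunctionFieldBar N} (hf : f ≠ 0) :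
    S34XB_U N τ' τ f ≠ 0 := by
  unfold S34XB_U
  exact mul_ne_zero (mul_ne_zero (S34XB_smul_ne_zero _ (S34XB_smul_ne_zero _ hf)) hf)
    (inv_ne_zero (mul_ne_zero (S34XB_smul_ne_zero _ hf) (S34XB_smul_ne_zero _ hf)))

/-- the divisor of `U`. -/
theorem S34XB_ord_U (τ' τ : GQ) {f : modularFunctionFieldBar N} (hf : f ≠ 0) (n : ℤ)
    (D : Divisor Qb (modularFunctionFieldBar N))
    (hD : ∀ P : Place Qb (modularFunctionFieldBar N), P.ord f = n * D P)
    (P : Place Qb (modularFunctionFieldBar N)) :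
    P.ord (S34XB_U N τ' τ f) = n * S34R_diff2 N τ' τ D P := by
  have h1 := S34XB_smul_ne_zero (S34R_g N τ) hf
  have h2 := S34XB_smul_ne_zero (S34R_g N τ') hf
  have h3 := S34XB_smul_ne_zero (S34R_g N τ') h1
  unfold S34XB_U
  rw [Place.ord_mul _ (mul_ne_zero h3 hf) (inv_ne_zero (mul_ne_zero h2 h1)),
    Place.ord_mul _ h3 hf, Place.ord_inv, Place.ord_mul _ h2 h1,
    S34XB_ord_smul, S34XB_ord_smul, S34XB_ord_smul (S34R_g N τ') P f,
    S34XB_ord_smul (S34R_g N τ) P f, hD, hD, hD, hD]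
  unfold S34R_diff2
  simp only [Finsupp.coe_add, Finsupp.coe_sub, Pi.add_apply, Pi.sub_apply,
    SemilinearAut.divisor_smul_apply]
  ring

/-- the underlying series of `U`. -/
theorem S34XB_U_coe (τ' τ : GQ) (f : modularFunctionFieldBar N) :
    ((S34XB_U N τ' τ f : modularFunctionFieldBar N) : LaurentSeries Qb) =
      coeffMap (τ' : Qb →+* Qb) (coeffMap (τ : Qb →+* Qb) (f : LaurentSeries Qb)) *
        (f : LaurentSeries Qb) *
        (coeffMap (τ' : Qb →+* Qb) (f : LaurentSeries Qb) *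
          coeffMap (τ : Qb →+* Qb) (f : LaurentSeries Qb))⁻¹ := rfl

end Bar

/-! ### Descent of `U` to a level -/

section Level

variable (N : ℕ) [NeZero N] (K1 : IntermediateField ℚ Qb)
  (hstab : ∀ σ : GQ, ∀ y ∈ K1, σ y ∈ K1)

omit [NeZero N] in
/-- the image over `ℚ̄` of the second difference quotient at the level `K1`. -/
theorem S34XB_u2_coe (τ' τ : GQ) (f0 : LaurentSeries K1) :
    coeffMap (algebraMap K1 Qb)
        (S34XD_u2 K1 (S34K0_restrict K1 hstab τ' : K1 →+* K1)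
          (S34K0_restrict K1 hstab τ : K1 →+* K1) f0) =
      coeffMap (τ' : Qb →+* Qb) (coeffMap (τ : Qb →+* Qb) (coeffMap (algebraMap K1 Qb) f0)) *
        coeffMap (algebraMap K1 Qb) f0 *
        (coeffMap (τ' : Qb →+* Qb) (coeffMap (algebraMap K1 Qb) f0) *
          coeffMap (τ : Qb →+* Qb) (coeffMap (algebraMap K1 Qb) f0))⁻¹ := by
  have e : ∀ (σ : GQ) (x : LaurentSeries K1),
      coeffMap (algebraMap K1 Qb)
          (coeffMap ((S34K0_restrict K1 hstab σ : K1 ≃ₐ[ℚ] K1) : K1 →+* K1) x) =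
        coeffMap (σ : Qb →+* Qb) (coeffMap (algebraMap K1 Qb) x) :=
    fun σ x => S34ACT_inc_act K1 hstab σ x
  unfold S34XD_u2
  rw [map_mul, map_mul, map_inv₀, map_mul, e, e, e]

end Level

/-! ### The main theorem of Part I -/

set_option synthInstance.maxHeartbeats 400000 in
set_option maxHeartbeats 1600000 in
/-- **X-D, Part I**: the divisor-level key statement from the key statement at one level. -/
theorem S34XB_key (N : ℕ) [NeZero N] (p q : ℕ) (hp : p.Prime) (hq : q.Prime) (hpq : p ≠ q)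
    (hK1 : S34XB_KeyK1 N p q) : S34R_Key N p q := by
  intro A hA τ' τ hτ' hτ k D f h hf0 hh0 hf hh
  have hU0 := S34XB_U_ne_zero τ' τ hf0
  have hUord := S34XB_ord_U τ' τ hf0 ((p : ℤ) ^ k) D hf
  rcases Nat.eq_zero_or_pos k with hk | hk
  · subst hk
    refine ⟨S34XB_U N τ' τ f, hU0, fun P => ?_⟩
    rw [hUord P, pow_zero, one_mul]
  obtain ⟨k', rfl⟩ : ∃ k', k = k' + 1 := ⟨k - 1, by omega⟩
  have hpz : (p : ℤ) ≠ 0 := Int.natCast_ne_zero.2 hp.ne_zero
  have hm0 : p ^ k' ≠ 0 := pow_ne_zero _ hp.ne_zero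
  have hmq : ¬ q ∣ p ^ k' := fun hd =>
    hpq ((Nat.prime_dvd_prime_iff_eq hq hp).1 (hq.dvd_of_dvd_pow hd)).symm
  -- the constant
  have hquot0 : h ^ (p ^ k') * (S34XB_U N τ' τ f)⁻¹ ≠ 0 :=
    mul_ne_zero (pow_ne_zero _ hh0) (inv_ne_zero hU0)
  have hquot : ∀ P : Place Qb (modularFunctionFieldBar N),
      P.ord (h ^ (p ^ k') * (S34XB_U N τ' τ f)⁻¹) = 0 := by
    intro P
    rw [Place.ord_mul _ (pow_ne_zero _ hh0) (inv_ne_zero hU0), Place.ord_inv, hUord P,
      ← zpow_natCast, Place.ord_zpow, hh P]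
    push_cast
    ring
  obtain ⟨c, hc⟩ := S34XB_const N _ hquot0 hquot
  have hc0 : c ≠ 0 := by
    rintro rfl
    rw [map_zero] at hc
    exact hquot0 hc
  obtain ⟨c1, hc1⟩ := IsAlgClosed.exists_pow_nat_eq c (Nat.pos_of_ne_zero hm0)
  have hc10 : c1 ≠ 0 := by
    rintro rfl
    rw [zero_pow hm0] at hc1
    exact hc0 hc1.symm
  have hC10 : algebraMap Qb (modularFunctionFieldBar N) c1 ≠ 0 := by
    intro h0
    apply hc10
    exact (algebraMap Qb (modularFunctionFieldBar N)).injective (by rw [h0, map_zero])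
  -- the normalised function
  obtain ⟨h1, hh1⟩ : ∃ h1 : modularFunctionFieldBar N,
      h1 = h * (algebraMap Qb (modularFunctionFieldBar N) c1)⁻¹ := ⟨_, rfl⟩
  have hh10 : h1 ≠ 0 := by
    rw [hh1]
    exact mul_ne_zero hh0 (inv_ne_zero hC10)
  have hh1pow : h1 ^ (p ^ k') = S34XB_U N τ' τ f := by
    have e1 : h ^ (p ^ k') = algebraMap Qb (modularFunctionFieldBar N) c * S34XB_U N τ' τ f := by
      rw [← hc, mul_assoc, inv_mul_cancel₀ hU0, mul_one]
    rw [hh1, mul_pow, inv_pow, ← map_pow, hc1, e1, mul_comm, ← mul_assoc,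
      inv_mul_cancel₀, one_mul]
    intro h0
    apply hc0
    exact (algebraMap Qb (modularFunctionFieldBar N)).injective (by rw [h0, map_zero])
  have hh1ord : ∀ P : Place Qb (modularFunctionFieldBar N),
      P.ord h1 = (p : ℤ) * S34R_diff2 N τ' τ D P := by
    intro P
    have e1 : P.ord (h1 ^ (p ^ k')) = (p : ℤ) ^ (k' + 1) * S34R_diff2 N τ' τ D P := by
      rw [hh1pow]
      exact hUord P
    rw [← zpow_natCast, Place.ord_zpow] at e1
    have e2 : ((p ^ k' : ℕ) : ℤ) * P.ord h1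
        = ((p ^ k' : ℕ) : ℤ) * ((p : ℤ) * S34R_diff2 N τ' τ D P) := by
      rw [e1]
      push_cast
      ring
    exact mul_left_cancel₀ (Int.natCast_ne_zero.2 hm0) e2
  -- the root of the leading coefficient
  obtain ⟨r, hr⟩ := IsAlgClosed.exists_pow_nat_eq
    ((h1 : LaurentSeries Qb).coeff (h1 : LaurentSeries Qb).order) hp.pos
  -- the level
  obtain ⟨S₁, hS₁⟩ := S18G_exists_finset (k₀ := ℚ) N (S18G_bar_le N f.2)
  obtain ⟨S₂, hS₂⟩ := S18G_exists_finset (k₀ := ℚ) N (S18G_bar_le N h1.2)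
  classical
  obtain ⟨K1, hSK, hadm, hstab, -, hrat⟩ :=
    S34K0_exists_normal_level N hq A hA (S₁ ∪ S₂ ∪ {r}) D.support
  obtain ⟨f0, hf0F, hf0c⟩ := hS₁ K1 (fun s hs => hSK s (by simp [hs]))
  obtain ⟨h10, hh10F, hh10c⟩ := hS₂ K1 (fun s hs => hSK s (by simp [hs]))
  have hrK : r ∈ K1 := hSK r (by simp)
  have hinj := S18G_coeffMap_injective (algebraMap K1 Qb)
  have hf00 : f0 ≠ 0 := by
    rintro rfl
    rw [map_zero] at hf0c
    exact hf0 (Subtype.ext hf0c.symm)
  have hh100 : h10 ≠ 0 := by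
    rintro rfl
    rw [map_zero] at hh10c
    exact hh10 (Subtype.ext hh10c.symm)
  have hinc : S34XD_inc K1 N ⟨h10, hh10F⟩ = h1 := Subtype.ext hh10c
  have hpow : h10 ^ (p ^ k') =
      S34XD_u2 K1 (S34K0_restrict K1 hstab τ' : K1 →+* K1)
        (S34K0_restrict K1 hstab τ : K1 →+* K1) f0 := by
    apply hinj
    rw [map_pow, hh10c, S34XB_u2_coe K1 hstab τ' τ f0, hf0c, ← S34XB_U_coe τ' τ f, ← hh1pow]
    rfl
  have hord : ∀ P : Place Qb (modularFunctionFieldBar N),
      P.ord (S34XD_inc K1 N ⟨h10, hh10F⟩) = (p : ℤ) * S34R_diff2 N τ' τ D P := by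
    intro P
    rw [hinc]
    exact hh1ord P
  have hlead : ∃ r1 : K1, r1 ^ p = (h10 : LaurentSeries K1).coeff (h10 : LaurentSeries K1).order := by
    refine ⟨⟨r, hrK⟩, ?_⟩
    apply (algebraMap K1 Qb).injective
    rw [map_pow]
    show r ^ p = algebraMap K1 Qb ((h10 : LaurentSeries K1).coeff h10.order)
    rw [hr, ← coeffMap_coeff, ← Fermat.Agent.S18_helper25_CORE.S18K_order_coeffMap
      (algebraMap K1 Qb) h10, hh10c]
  obtain ⟨w, hwF, hw⟩ := hK1 A hA K1 hadm hstab τ' τ hτ' hτ D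
    (fun P hP => hrat P (Finsupp.mem_support_iff.2 hP)) (p ^ k') hm0 hmq f0 hf0F hf00
    ⟨h10, hh10F⟩ hh100 hpow hord hlead
  -- ascent
  have hWpow : (S34XD_inc K1 N ⟨w, hwF⟩) ^ p = h1 := by
    rw [← hinc, ← map_pow]
    congr 1
    exact Subtype.ext hw
  have hW0 : S34XD_inc K1 N ⟨w, hwF⟩ ≠ 0 := by
    intro h0
    rw [h0, zero_pow hp.ne_zero] at hWpow
    exact hh10 hWpow.symm
  refine ⟨S34XD_inc K1 N ⟨w, hwF⟩, hW0, fun P => ?_⟩
  have e1 : P.ord ((S34XD_inc K1 N ⟨w, hwF⟩) ^ p) = (p : ℤ) * S34R_diff2 N τ' τ D P := by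
    rw [hWpow]
    exact hh1ord P
  rw [← zpow_natCast, Place.ord_zpow] at e1
  exact mul_left_cancel₀ hpz e1

end Fermat.Agent.S34_helper12_XB
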