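import Mathlib
import Fermat.Agent.S34_helper12_K1Defs
import Fermat.Agent.S34_helper12_KUM
import Fermat.Agent.S34_helper12_XDAD
import Fermat.Agent.S34_helper9_GAMMA
import Fermat.Agent.S18_helper25_CORE
import Fermat.Agent.S18_helper5_BASE

/-!
# S34, X-D, Part II: the key statement at one level from the contract of the geometry

`S34XC2_keyK1 : S34XD_Contract N p q → S34XB_KeyK1 N p q` (for primes `p ≠ q`), and the
resulting `S34XC2_key : S34XD_Contract N p q → S34R_Key N p q`.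

At the level `K1`: `h1 ^ m = u2(f0) = 1 + π c` with `c ∈ V1 ⊓ V2` (Step 1), so `h1` is a unit of
both valuation rings whose reductions are `m`-th roots of unity `ζ ^ i₁`, `ζ ^ i₂`
(`ζ = ξ ^ p`, `ξ ∈ O` a primitive `m p`-th root of unity: the level is admissible and
`q ∤ m p`); these constants are `p`-th powers `(ξ ^ i) ^ p`.  Then block C' (`S34KUM_main`)
applies: `PowDiv` from the divisor, the crossing datum from the `cross` fields of the contract.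
-/

set_option autoImplicit false

open HahnSeries IntermediateField AlgebraicCurve ModularCurve
open Fermat.Agent.S18_helper9_CDefs Fermat.Agent.S18_helper25_COREDefs
  Fermat.Agent.S34_helper12_CDefs Fermat.Agent.S34_helper5_K0
  Fermat.Agent.S34_helper6_RED Fermat.Agent.S37_helper5_LEVEL Fermat.Agent.S34_helper25_Defs
  Fermat.Agent.S34_helper12_K1Defs Fermat.Agent.S34_helper9_GAMMA
  Fermat.Agent.S34_Contracts Fermat.Agent.S34_helper12_KUM Fermat.Agent.S34_helper12_XDAD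
  Fermat.Agent.S34_helper12_DICH

noncomputable section

namespace Fermat.Agent.S34_helper12_XB2

local notation "Qb" => AlgebraicClosure ℚ
local notation "GQ" => (AlgebraicClosure ℚ ≃ₐ[ℚ] AlgebraicClosure ℚ)

/-! ### Abstract lemmas -/

section Abstract

variable {L : Type*} [Field L] {π : L} {F1 : Subfield L} {W : Subring L}

/-- `1` is not divisible by `π` in `W`. -/
theorem S34XC2_one_ne (H : S34G_Val π F1 W) {w : L} (hw : w ∈ W) : (1 : L) ≠ π * w := by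
  intro h
  apply H.π_nonunit
  have : π⁻¹ = w := inv_eq_of_mul_eq_one_right h.symm
  rw [this]
  exact hw

/-- a function of `F1` with a power `≡ 1` modulo `π W` is a unit of `W`. -/
theorem S34XC2_unit_of_pow (H : S34G_Val π F1 W) {f c : L} {m : ℕ} (hm : m ≠ 0) (hf : f ∈ F1)
    (hc : c ∈ W) (hfc : f ^ m = 1 + π * c) : f ∈ W ∧ f⁻¹ ∈ W := by
  obtain ⟨m', rfl⟩ : ∃ m', m = m' + 1 := ⟨m - 1, by omega⟩
  have hπW := H.π_mem
  have hf0 : f ≠ 0 := by
    rintro rfl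
    rw [zero_pow hm] at hfc
    refine S34XC2_one_ne H (W.neg_mem hc) ?_
    linear_combination -hfc
  have hfW : f ∈ W := by
    by_contra hfW
    have hinv : f⁻¹ ∈ W := (H.val f hf).resolve_left hfW
    obtain ⟨v, hv, hfv⟩ := H.unif f⁻¹ hinv (by rwa [inv_inv])
    refine S34XC2_one_ne H
      (W.mul_mem (W.add_mem W.one_mem (W.mul_mem hπW hc))
        (W.mul_mem (W.pow_mem hπW m') (W.pow_mem hv (m' + 1)))) ?_
    have h1 : f ^ (m' + 1) * (f⁻¹) ^ (m' + 1) = 1 := by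
      rw [← mul_pow, mul_inv_cancel₀ hf0, one_pow]
    rw [hfc, hfv] at h1
    linear_combination -h1
  refine ⟨hfW, ?_⟩
  by_contra hinv
  obtain ⟨v, hv, hfv⟩ := H.unif f hfW hinv
  refine S34XC2_one_ne H
    (W.sub_mem (W.mul_mem (W.pow_mem hπW m') (W.pow_mem hv (m' + 1))) hc) ?_
  rw [hfv] at hfc
  linear_combination -hfc

end Abstract

/-! ### Roots of unity in `O` -/

section Roots

variable (A : ValuationSubring Qb) (K1 : IntermediateField ℚ Qb)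

/-- An admissible level contains a primitive `n`-th root of unity for `n` prime to `q`, and it
is a unit of `O`. -/
theorem S34XC2_exists_root {q : ℕ} (hadm : S18K_Admissible A K1 q) {n : ℕ} (hn0 : n ≠ 0)
    (hn : ¬ q ∣ n) :
    ∃ ξ : LaurentSeries K1, IsPrimitiveRoot ξ n ∧ ξ ∈ S18K_O A K1 ∧ ξ⁻¹ ∈ S18K_O A K1 := by
  haveI : NeZero ((n : ℕ) : ℚ) := ⟨by exact_mod_cast hn0⟩
  obtain ⟨ξ, hξ⟩ := HasEnoughRootsOfUnity.exists_primitiveRoot Qb n
  have hξK : ξ ∈ K1 := hadm.roots n hn ξ hξ.pow_eq_one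
  have hξA : ξ ∈ A := Fermat.Agent.S18_helper5_BASE.S18A1_root_mem_A A hn0 hξ.pow_eq_one
  have hK : IsPrimitiveRoot (⟨ξ, hξK⟩ : K1) n :=
    IsPrimitiveRoot.of_map_of_injective (f := algebraMap K1 Qb) hξ (algebraMap K1 Qb).injective
  have hL : IsPrimitiveRoot (HahnSeries.C (⟨ξ, hξK⟩ : K1) : LaurentSeries K1) n :=
    hK.map_of_injective (f := (HahnSeries.C : K1 →+* LaurentSeries K1)) HahnSeries.C_injective
  have hO : (HahnSeries.C (⟨ξ, hξK⟩ : K1) : LaurentSeries K1) ∈ S18K_O A K1 :=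
    (S18K_mem_O A K1 _).2 ⟨⟨ξ, hξK⟩, hξA, rfl⟩
  refine ⟨_, hL, hO, ?_⟩
  have h1 : (HahnSeries.C (⟨ξ, hξK⟩ : K1) : LaurentSeries K1)⁻¹
      = (HahnSeries.C (⟨ξ, hξK⟩ : K1) : LaurentSeries K1) ^ (n - 1) := by
    have h2 : (HahnSeries.C (⟨ξ, hξK⟩ : K1) : LaurentSeries K1) ^ (n - 1)
        * (HahnSeries.C (⟨ξ, hξK⟩ : K1) : LaurentSeries K1) = 1 := by
      rw [← pow_succ, Nat.sub_add_cancel (Nat.pos_of_ne_zero hn0), hL.pow_eq_one]
    exact inv_eq_of_mul_eq_one_left h2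
  rw [h1]
  exact (S18K_O A K1).pow_mem hO _

end Roots

/-! ### Part II -/

set_option synthInstance.maxHeartbeats 400000 in
set_option maxHeartbeats 1600000 in
/-- **X-D, Part II**: the key statement at one level from the contract of the geometry. -/
theorem S34XC2_keyK1 (N : ℕ) [NeZero N] (p q : ℕ) (hp : p.Prime) (hq : q.Prime) (hpq : p ≠ q)
    (hC : S34XD_Contract N p q) : S34XB_KeyK1 N p q := by
  intro A hA K1 hadm hstab τ' τ hτ' hτ D hD m hm0 hmq f0 hf0F hf00 h1 h10 hpow hord hlead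
  letI := hadm.dvr
  haveI : Fact q.Prime := ⟨hq⟩
  haveI := S34AD_charZero K1
  obtain ⟨V2, x, A0, Ainf, G, -⟩ := hC A hA K1 hadm hstab
  have S := G.setup
  have hπ0 : S18K_π A K1 ≠ 0 := S34DI_pi_ne_zero S
  -- Step 1
  obtain ⟨c, hc, hu2⟩ := G.step1 τ' τ hτ' hτ f0 hf0F hf00
  rw [hu2] at hpow
  have hcV := Subring.mem_inf.mp hc
  -- `h1` is a unit of both valuation rings
  obtain ⟨hh1V1, hh1V1'⟩ := S34XC2_unit_of_pow (S34G_val1 S) hm0 h1.2 hcV.1 hpow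
  obtain ⟨hh1V2, hh1V2'⟩ := S34XC2_unit_of_pow (S34G_val2 S) hm0 h1.2 hcV.2 hpow
  -- roots of unity
  have hmp0 : m * p ≠ 0 := mul_ne_zero hm0 hp.ne_zero
  have hmpq : ¬ q ∣ m * p := by
    intro hd
    rcases (Nat.Prime.dvd_mul hq).1 hd with h | h
    · exact hmq h
    · exact hpq ((Nat.prime_dvd_prime_iff_eq hq hp).1 h).symm
  obtain ⟨ξ, hξ, hξO, hξO'⟩ := S34XC2_exists_root A K1 hadm hmp0 hmpq
  have hζ : IsPrimitiveRoot (ξ ^ p) m :=
    IsPrimitiveRoot.pow (Nat.pos_of_ne_zero hmp0) hξ (mul_comm m p)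
  have hξ0 : ξ ≠ 0 := hξ.ne_zero hmp0
  have hOV := S34G_O_le_V S
  have hζO : ξ ^ p ∈ S18K_O A K1 := (S18K_O A K1).pow_mem hξO p
  have hpow' : (h1 : LaurentSeries K1) ^ m = 1 ^ m * (1 + S18K_π A K1 * c) := by
    rw [one_pow, one_mul]
    exact hpow
  -- constants
  obtain ⟨i1, -, v1, hv1, hi1⟩ := S34G_const_val (S34G_val1 S) (Nat.pos_of_ne_zero hm0) hζ
    (Subring.mem_inf.mp (hOV hζO)).1 (S18K_V A K1 N).one_mem hh1V1 hcV.1 hpow'
  obtain ⟨i2, -, v2, hv2, hi2⟩ := S34G_const_val (S34G_val2 S) (Nat.pos_of_ne_zero hm0) hζ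
    (Subring.mem_inf.mp (hOV hζO)).2 V2.one_mem hh1V2 hcV.2 hpow'
  have hconst : ∀ i : ℕ, (1 * (ξ ^ p) ^ i ∈ S18K_O A K1) ∧ ξ ^ i ∈ S18K_O A K1 ∧
      (ξ ^ i)⁻¹ ∈ S18K_O A K1 ∧ ξ ^ i ≠ 0 ∧
      ∃ o ∈ S18K_O A K1, (ξ ^ i) ^ p - 1 * (ξ ^ p) ^ i = S18K_π A K1 * o := by
    intro i
    refine ⟨?_, (S18K_O A K1).pow_mem hξO i, ?_, pow_ne_zero i hξ0,
      0, (S18K_O A K1).zero_mem, ?_⟩
    · rw [one_mul]
      exact (S18K_O A K1).pow_mem hζO i
    · rw [← inv_pow]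
      exact (S18K_O A K1).pow_mem hξO' i
    · rw [mul_zero, one_mul, ← pow_mul, ← pow_mul, mul_comm, sub_self]
  obtain ⟨ha1, hb1, hb1i, hb10, hr1⟩ := hconst i1
  obtain ⟨ha2, hb2, hb2i, hb20, hr2⟩ := hconst i2
  -- `PowDiv` and the `p`-th root in `L`
  have hF : coeffMap (algebraMap K1 Qb) (h1 : LaurentSeries K1) ∈ modularFunctionFieldBar N :=
    (S34XD_inc K1 N h1).2
  have hdiv : ∀ P : Place Qb (modularFunctionFieldBar N),
      (p : ℤ) ∣ P.ord ⟨coeffMap (algebraMap K1 Qb) (h1 : LaurentSeries K1), hF⟩ := by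
    intro P
    have e : (⟨coeffMap (algebraMap K1 Qb) (h1 : LaurentSeries K1), hF⟩ :
        modularFunctionFieldBar N) = S34XD_inc K1 N h1 := Subtype.ext rfl
    rw [e, hord P]
    exact dvd_mul_right _ _
  obtain ⟨hPow, hordq⟩ := Fermat.Agent.S18_helper25_CORE.S18K_powDiv_and_order
    (algebraMap K1 Qb) N (S18K_O A K1) (S18K_π A K1) hπ0
    (fun c => Fermat.Agent.S18_helper25_CORE.S18K_const_mul_pow A K1 c) p
    (h1 : LaurentSeries K1) h1.2 h10 hF hdiv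
  have hp0 : (p : K1) ≠ 0 := Nat.cast_ne_zero.mpr hp.ne_zero
  obtain ⟨h', hh'⟩ := Fermat.Agent.S18_helper25_COREA.S18K_exists_root p hp0
    (h1 : LaurentSeries K1) h10 hordq hlead
  have hpO : ((p : LaurentSeries K1))⁻¹ ∈ S18K_O A K1 :=
    Fermat.Agent.S18_helper25_CORE.S18K_natCast_inv_mem A K1 hA p hp hpq
  -- block C'
  have hmain : h' ∈ S18K_F1 K1 N := by
    refine S34KUM_main S (fun hπ m hm hπm hnc => G.n1_0 hπ m hm hπm hnc)
      (fun hπ m hm hπm hnc => G.n1_inf hπ m hm hπm hnc) hp hpO (h1 : LaurentSeries K1) h'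
      h1.2 h10 hh' hPow (1 * (ξ ^ p) ^ i1) (1 * (ξ ^ p) ^ i2) (ξ ^ i1) (ξ ^ i2)
      ha1 ha2 hb1 hb1i hb10 hb2 hb2i hb20 hr1 hr2 ⟨v1, hv1, hi1⟩ ⟨v2, hv2, hi2⟩ ?_ ?_
    · intro hπ m hm hπm hT1 hT2
      haveI := hm.isPrime
      exact S34AD_crossAt m (G.cross_0 τ' τ hτ' hτ D hD h1 (Subring.mem_inf.mpr ⟨hh1V1, hh1V2⟩)
        (Subring.mem_inf.mpr ⟨hh1V1', hh1V2'⟩) hord hπ m hm hπm ⟨hT1, hT2⟩)
    · intro hπ m hm hπm hT1 hT2
      haveI := hm.isPrime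
      exact S34AD_crossAt m (G.cross_inf τ' τ hτ' hτ D hD h1
        (Subring.mem_inf.mpr ⟨hh1V1, hh1V2⟩)
        (Subring.mem_inf.mpr ⟨hh1V1', hh1V2'⟩) hord hπ m hm hπm ⟨hT1, hT2⟩)
  exact ⟨h', hmain, hh'⟩

end Fermat.Agent.S34_helper12_XB2
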