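import Mathlib
import Fermat.Agent.S34_helper12_XB
import Fermat.Agent.S34_helper12_XB2
import Fermat.Agent.S34_helper12_FIN

/-!
# S34, X-D: the global assembly (Part I ∘ Part II) and the final plug from the geometry

* `S34XK_key`  : `S34XD_Contract N p q → S34R_Key N p q`      (the contract of X-D, helper25's
  `S34XD_key` shape);
* `S34XK_XD3`  : the owner's `S34K_XD3 N' q p`;
* `S34XK_of_geom` : the conclusion of S34 (frozen binders) from the owner's geometric contract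
  `S34K_GeomHolds3` alone.
-/

set_option autoImplicit false

open IsLocalRing
open CuspForm CuspForm.HeckeGaloisRepDatum

namespace Fermat.Agent.S34_helper12_XDKEY

open Fermat.Agent.S34_Contracts Fermat.Agent.S34_helper25_Defs Fermat.Agent.S34_helper6_RED
  Fermat.Agent.S34_helper12_XDAD Fermat.Agent.S34_helper12_XB Fermat.Agent.S34_helper12_XB2
  Fermat.Agent.S34_helper12_FIN

/-- **X-D**: the divisor-level key statement from the contract of the geometry. -/
theorem S34XK_key (N : ℕ) [NeZero N] (p q : ℕ) (hp : p.Prime) (hq : q.Prime) (hpq : p ≠ q)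
    (hC : S34XD_Contract N p q) : S34R_Key N p q :=
  S34XB_key N p q hp hq hpq (S34XC2_keyK1 N p q hp hq hpq hC)

/-- **X-D**, the owner's contract. -/
theorem S34XK_XD3 (N' q p : ℕ) [NeZero (N' * q)] : S34K_XD3 N' q p :=
  S34AD_XD3 N' q p (fun hp hq hpq hC => S34XK_key (N' * q) p q hp hq hpq hC)

/-- **S34 from the geometric contract alone.** -/
theorem S34XK_of_geom
    (hgeom : ∀ (N' q p : ℕ) [NeZero (N' * q)], S34K_GeomHolds3 N' q p)
    {𝒪 : Type} [CommRing 𝒪] [IsDomain 𝒪] [IsDiscreteValuationRing 𝒪]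
    [IsAdicComplete (maximalIdeal 𝒪) 𝒪] [Finite (ResidueField 𝒪)] [CharZero 𝒪]
    {p : ℕ} (hp : p.Prime) (hp𝒪 : (p : 𝒪) ∈ maximalIdeal 𝒪)
    {N : ℕ} [NeZero N] {S : Finset ℕ} (hpS : p ∈ S) (hNS : ∀ q : ℕ, q.Prime → q ∣ N → q ∈ S)
    {θ : CuspForm.heckeAlgebra N 2 (↑S : Set ℕ) →+* ResidueField 𝒪}
    {T : Type} [CommRing T] [IsLocalRing T] [IsNoetherianRing T]
    [IsAdicComplete (maximalIdeal T) T] [Algebra 𝒪 T] [IsLocalHom (algebraMap 𝒪 T)]
    [Module.Finite 𝒪 T] [Module.Free 𝒪 T]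
    (H : CuspForm.HeckeGaloisRepDatum N (↑S : Set ℕ) 𝒪 θ T)
    (q : ℕ) (hq : q.Prime) (hqp : q ≠ p) (hqN : q ∣ N) (hq2 : ¬ q ^ 2 ∣ N) :
    H.ρ.IsUnipotentOnInertiaAt q :=
  S34FIN_of' (fun N' q p _ => S34XK_XD3 N' q p) hgeom hp hp𝒪 hpS hNS H q hq hqp hqN hq2

end Fermat.Agent.S34_helper12_XDKEY
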