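import Mathlib

/-!
# S34, generic brick of (V): the fundamental identity over a discrete valuation ring with two
given extensions (helper13)

`R` is a discrete valuation ring with fraction field `F`, `F'/F` is a finite separable extension.
A valuation subring `W` of `F'` *dominates* `R` (`S34V_Dom R W`) if it contains the image of `R`
and the image of the maximal ideal of `R` consists of non-units of `W`.  Residue degree bounds are
stated elementwise (`S34V_ResDegGe R W a`: there are `a` elements of `W` that are linearly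
independent over `R` modulo the non-units of `W`).

Main statements (Mathlib only; `S := integralClosure R F'` is a Dedekind domain and Mathlib's
`Ideal.sum_ramification_inertia_eq_finrank` is the engine):

* `S34V_isIntegral_iff_forall` : `x` is integral over `R` iff `x` lies in every dominating `W`;
* `S34V_two` : for two distinct dominating `Woo`, `W0` with `f(Woo) ≥ a`, `f(W0) ≥ b` and
  `[F' : F] ≤ a + b`: there is no third dominating valuation subring, a uniformiser of `R`
  generates the non-units of `Woo` and of `W0` (`e = 1`), the residue degrees are exactly `a` and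
  `b`, the integral closure of `R` in `F'` is `Woo ∩ W0`, and `[F' : F] = a + b`;
* `S34V_two_residue` : in the case `a = 1` every element of `Woo` is congruent to an element of
  `R` modulo the non-units;
* `S34V_resDegGe_of_pow` : `y ∈ W`, `y ^ q ≡ x`, `x ∈ R` not a `q`-th power in the residue field,
  `q` prime, gives `f(W | R) ≥ q`.
-/

set_option autoImplicit false
set_option linter.style.haveILetI false
set_option linter.unusedSectionVars false

open IsDedekindDomain IsDedekindDomain.HeightOneSpectrum WithZero Polynomial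

namespace Fermat.Agent.S34_helper13_VCOUNT

section Defs

variable (R : Type*) {F' : Type*} [CommRing R] [IsDomain R] [IsDiscreteValuationRing R]
  [Field F'] [Algebra R F']

/-- `W` dominates `R`. -/
def S34V_Dom (W : ValuationSubring F') : Prop :=
  (∀ r : R, algebraMap R F' r ∈ W) ∧
    ∀ r : R, r ∈ IsLocalRing.maximalIdeal R → algebraMap R F' r ∈ W.nonunits

/-- Elementwise lower bound `a ≤ f(W | R)` for the residue degree. -/
def S34V_ResDegGe (W : ValuationSubring F') (a : ℕ) : Prop :=
  ∃ y : Fin a → F', (∀ i, y i ∈ W) ∧ ∀ c : Fin a → R,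
    (∑ i, algebraMap R F' (c i) * y i) ∈ W.nonunits → ∀ i, c i ∈ IsLocalRing.maximalIdeal R

/-- The integral closure of `R` in `F'`. -/
abbrev S34V_S (R F' : Type*) [CommRing R] [Field F'] [Algebra R F'] : Type _ :=
  integralClosure R F'

end Defs

section Setup

variable (R F F' : Type*) [CommRing R] [IsDomain R] [IsDiscreteValuationRing R]
  [Field F] [Field F'] [Algebra R F] [IsFractionRing R F] [Algebra F F'] [Algebra R F']
  [IsScalarTower R F F'] [FiniteDimensional F F'] [Algebra.IsSeparable F F']

include F in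
theorem S34V_isDedekind : IsDedekindDomain (S34V_S R F') :=
  integralClosure.isDedekindDomain R F F'

include R F in
theorem S34V_isFrac : IsFractionRing (S34V_S R F') F' :=
  integralClosure.isFractionRing_of_finite_extension F F'

include F in
theorem S34V_finite : Module.Finite R (S34V_S R F') :=
  IsIntegralClosure.finite R F F' _

include F in
theorem S34V_faithful : FaithfulSMul R F' := by
  rw [faithfulSMul_iff_algebraMap_injective, IsScalarTower.algebraMap_eq R F F']
  exact (algebraMap F F').injective.comp (IsFractionRing.injective R F)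

include F in
theorem S34V_torsionFree : Module.IsTorsionFree R (S34V_S R F') := by
  haveI := S34V_faithful R F F'
  infer_instance

include F in
theorem S34V_flat : Module.Flat R (S34V_S R F') := by
  haveI := S34V_torsionFree R F F'
  infer_instance

end Setup

section Core

variable {R : Type*} (S : Type*) {F' : Type*} [CommRing R] [IsDomain R] [IsDiscreteValuationRing R]
  [CommRing S] [IsDedekindDomain S] [Field F'] [Algebra R F'] [FaithfulSMul R F']
  [Algebra R S] [Algebra S F'] [IsScalarTower R S F'] [IsFractionRing S F']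
  [IsIntegralClosure S R F']
  (W : ValuationSubring F')

omit [IsDomain R] [IsDiscreteValuationRing R] [IsDedekindDomain S] [IsFractionRing S F']
  [CommRing S] [Algebra R S] [Algebra S F'] [IsScalarTower R S F'] [IsIntegralClosure S R F']
  [FaithfulSMul R F'] in
theorem S34V_mem_of_isIntegral (hW : ∀ r : R, algebraMap R F' r ∈ W) {x : F'}
    (hx : IsIntegral R x) : x ∈ W := by
  obtain ⟨p, hp, hpx⟩ := hx
  let φ : R →+* W := (algebraMap R F').codRestrict W.toSubring hW
  have hint : IsIntegral W x := by
    refine ⟨p.map φ, hp.map _, ?_⟩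
    rw [Polynomial.eval₂_map]
    exact hpx
  obtain ⟨y, hy⟩ := (IsIntegrallyClosed.isIntegral_iff (R := W) (K := F')).1 hint
  rw [← hy]
  exact y.2

variable {S}

omit [IsDomain R] [IsDiscreteValuationRing R] [IsDedekindDomain S] [IsFractionRing S F']
  [FaithfulSMul R F'] in
theorem S34V_algebraMap_mem (hW : ∀ r : R, algebraMap R F' r ∈ W) (s : S) :
    algebraMap S F' s ∈ W :=
  S34V_mem_of_isIntegral W hW ((IsIntegralClosure.isIntegral_iff (A := S)).2 ⟨s, rfl⟩)

variable (S)

/-- The ring homomorphism `S → W`. -/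
def S34V_toW (hW : ∀ r : R, algebraMap R F' r ∈ W) : S →+* W :=
  (algebraMap S F').codRestrict W.toSubring (S34V_algebraMap_mem W hW)

omit [IsDomain R] [IsDiscreteValuationRing R] [IsDedekindDomain S] [IsFractionRing S F']
  [FaithfulSMul R F'] in
@[simp] theorem S34V_toW_coe (hW : ∀ r : R, algebraMap R F' r ∈ W) (s : S) :
    ((S34V_toW S W hW s : W) : F') = algebraMap S F' s := rfl

/-- The centre of `W` on `S`. -/
def S34V_centreIdeal (hW : ∀ r : R, algebraMap R F' r ∈ W) : Ideal S :=
  (IsLocalRing.maximalIdeal W).comap (S34V_toW S W hW)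

omit [IsDomain R] [IsDiscreteValuationRing R] [IsDedekindDomain S] [IsFractionRing S F']
  [FaithfulSMul R F'] in
theorem S34V_mem_centreIdeal (hW : ∀ r : R, algebraMap R F' r ∈ W) (s : S) :
    s ∈ S34V_centreIdeal S W hW ↔ algebraMap S F' s ∈ W.nonunits := by
  unfold S34V_centreIdeal
  rw [Ideal.mem_comap, ← ValuationSubring.coe_mem_nonunits_iff]
  rfl

omit [IsDomain R] [IsDiscreteValuationRing R] [IsDedekindDomain S] [IsFractionRing S F']
  [FaithfulSMul R F'] in
theorem S34V_centreIdeal_isPrime (hW : ∀ r : R, algebraMap R F' r ∈ W) :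
    (S34V_centreIdeal S W hW).IsPrime :=
  Ideal.comap_isPrime _ _

omit [IsDedekindDomain S] [IsFractionRing S F'] in
theorem S34V_centreIdeal_ne_bot (hW : S34V_Dom R W) :
    S34V_centreIdeal S W hW.1 ≠ ⊥ := by
  obtain ⟨ϖ, hϖ⟩ := IsDiscreteValuationRing.exists_irreducible R
  have hm : ϖ ∈ IsLocalRing.maximalIdeal R := by
    rw [IsLocalRing.mem_maximalIdeal]; exact hϖ.not_isUnit
  intro h
  have h1 : algebraMap R S ϖ ∈ S34V_centreIdeal S W hW.1 := by
    rw [S34V_mem_centreIdeal, ← IsScalarTower.algebraMap_apply]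
    exact hW.2 ϖ hm
  rw [h, Ideal.mem_bot] at h1
  have h2 : algebraMap R F' ϖ = 0 := by
    rw [IsScalarTower.algebraMap_apply R S F', h1, map_zero]
  exact hϖ.ne_zero ((FaithfulSMul.algebraMap_eq_zero_iff R F').1 h2)

/-- The centre of a dominating valuation subring, as a height-one prime. -/
def S34V_hos (hW : S34V_Dom R W) : HeightOneSpectrum S where
  asIdeal := S34V_centreIdeal S W hW.1
  isPrime := S34V_centreIdeal_isPrime S W hW.1
  ne_bot := S34V_centreIdeal_ne_bot S W hW

omit [IsDedekindDomain S] [IsFractionRing S F']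
  [CommRing S] [Algebra R S] [Algebra S F'] [IsScalarTower R S F'] [IsIntegralClosure S R F'] in
theorem S34V_ne_top (hW : S34V_Dom R W) (hR : ∃ ϖ : R, ϖ ≠ 0 ∧ ϖ ∈ IsLocalRing.maximalIdeal R) :
    W ≠ ⊤ := by
  obtain ⟨ϖ, h0, hm⟩ := hR
  rintro rfl
  have h := hW.2 ϖ hm
  rw [ValuationSubring.mem_nonunits_iff_or] at h
  rcases h with h | h
  · exact h0 ((FaithfulSMul.algebraMap_eq_zero_iff R F').1 h)
  · exact h (ValuationSubring.mem_top _)

theorem S34V_atPrime_le (hW : S34V_Dom R W) :
    valuationSubringAtPrime F' (S34V_hos S W hW) ≤ W := by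
  rintro x ⟨a, s, hs, rfl⟩
  have ha : algebraMap S F' a ∈ W := S34V_algebraMap_mem W hW.1 a
  have hs1 : algebraMap S F' s ∈ W := S34V_algebraMap_mem W hW.1 s
  have hs2 : algebraMap S F' s ∉ W.nonunits := by
    rw [← S34V_mem_centreIdeal S W hW.1]
    exact hs
  have hs3 : (algebraMap S F' s)⁻¹ ∈ W := by
    by_contra hcon
    exact hs2 ((ValuationSubring.mem_nonunits_iff_or W).2 (Or.inr hcon))
  exact W.mul_mem _ _ ha hs3

theorem S34V_eq_valuationSubring (hW : S34V_Dom R W) :
    W = ((S34V_hos S W hW).valuation F').valuationSubring := by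
  have hR : ∃ ϖ : R, ϖ ≠ 0 ∧ ϖ ∈ IsLocalRing.maximalIdeal R := by
    obtain ⟨ϖ, hϖ⟩ := IsDiscreteValuationRing.exists_irreducible R
    exact ⟨ϖ, hϖ.ne_zero, by rw [IsLocalRing.mem_maximalIdeal]; exact hϖ.not_isUnit⟩
  rw [← valuationSubringAtPrime_eq_valuationSubring]
  exact (ValuationSubring.eq_of_le_of_ne_top _ (S34V_atPrime_le S W hW)
    (S34V_ne_top W hW hR)).symm

theorem S34V_mem_iff (hW : S34V_Dom R W) (x : F') :
    x ∈ W ↔ (S34V_hos S W hW).valuation F' x ≤ 1 := by
  conv_lhs => rw [S34V_eq_valuationSubring S W hW]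
  exact Valuation.mem_valuationSubring_iff _ _

theorem S34V_mem_nonunits_iff (hW : S34V_Dom R W) (x : F') :
    x ∈ W.nonunits ↔ (S34V_hos S W hW).valuation F' x < 1 := by
  rw [ValuationSubring.mem_nonunits_iff_or]
  rcases eq_or_ne x 0 with rfl | hx
  · simp
  · rw [S34V_mem_iff S W hW, map_inv₀]
    constructor
    · rintro (h | h)
      · exact absurd h hx
      · rw [not_le] at h
        have h0 : (S34V_hos S W hW).valuation F' x ≠ 0 := by simpa using hx
        by_contra hcon
        rw [not_lt] at hcon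
        have := inv_le_one_of_one_le₀ hcon
        exact absurd this (not_le.2 h)
    · intro h
      right
      rw [not_le]
      have h0 : (S34V_hos S W hW).valuation F' x ≠ 0 := by simpa using hx
      exact (one_lt_inv₀ (zero_lt_iff.2 h0)).2 h

end Core

section Core2

variable {R : Type*} (S : Type*) {F' : Type*} [CommRing R] [IsDomain R] [IsDiscreteValuationRing R]
  [CommRing S] [IsDedekindDomain S] [Field F'] [Algebra R F'] [FaithfulSMul R F']
  [Algebra R S] [Algebra S F'] [IsScalarTower R S F'] [IsFractionRing S F']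
  [IsIntegralClosure S R F']

theorem S34V_hos_injective {W W' : ValuationSubring F'} (hW : S34V_Dom R W)
    (hW' : S34V_Dom R W') (h : S34V_hos S W hW = S34V_hos S W' hW') : W = W' := by
  rw [S34V_eq_valuationSubring S W hW, S34V_eq_valuationSubring S W' hW', h]

variable {S}

omit [Field F'] [Algebra R F'] [FaithfulSMul R F'] [Algebra S F'] [IsScalarTower R S F']
  [IsFractionRing S F'] [IsIntegralClosure S R F'] in
theorem S34V_liesOver [Algebra.IsIntegral R S] (P : HeightOneSpectrum S) :
    P.asIdeal.LiesOver (IsLocalRing.maximalIdeal R) := by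
  haveI := P.isMaximal
  constructor
  have h1 : (P.asIdeal.comap (algebraMap R S)).IsMaximal :=
    Ideal.isMaximal_comap_of_isIntegral_of_isMaximal P.asIdeal
  exact (IsLocalRing.eq_maximalIdeal h1).symm

theorem S34V_dom_of_hos (P : HeightOneSpectrum S) :
    S34V_Dom R (P.valuation F').valuationSubring := by
  constructor
  · intro r
    rw [Valuation.mem_valuationSubring_iff, IsScalarTower.algebraMap_apply R S F']
    exact P.valuation_le_one _
  · intro r hr
    rw [ValuationSubring.mem_nonunits_iff_or]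
    rcases eq_or_ne (algebraMap R F' r) 0 with h0 | h0
    · exact Or.inl h0
    right
    rw [Valuation.mem_valuationSubring_iff, map_inv₀, not_le,
      one_lt_inv₀ (zero_lt_iff.2 (by simpa using h0)),
      IsScalarTower.algebraMap_apply R S F', valuation_lt_one_iff_mem]
    haveI : Algebra.IsIntegral R S := IsIntegralClosure.isIntegral_algebra R F'
    have := (S34V_liesOver (R := R) P).over
    have h2 : r ∈ P.asIdeal.under R := by rw [← this]; exact hr
    exact h2

theorem S34V_hos_of_hos (P : HeightOneSpectrum S) :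
    S34V_hos S (P.valuation F').valuationSubring (S34V_dom_of_hos (R := R) P) = P := by
  apply HeightOneSpectrum.ext
  ext s
  show s ∈ S34V_centreIdeal S _ _ ↔ _
  rw [S34V_mem_centreIdeal, ValuationSubring.mem_nonunits_iff_or]
  rcases eq_or_ne s 0 with rfl | hs
  · simp
  have h0 : algebraMap S F' s ≠ 0 := by
    simpa using hs
  rw [Valuation.mem_valuationSubring_iff, map_inv₀, not_le,
      one_lt_inv₀ (zero_lt_iff.2 (by simpa using h0)), valuation_lt_one_iff_mem]
  simp [h0]

end Core2

section Core3

variable {R : Type*} (S : Type*) {F' : Type*} [CommRing R] [IsDomain R] [IsDiscreteValuationRing R]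
  [CommRing S] [IsDedekindDomain S] [Field F'] [Algebra R F'] [FaithfulSMul R F']
  [Algebra R S] [Algebra S F'] [IsScalarTower R S F'] [IsFractionRing S F']
  [IsIntegralClosure S R F']
  (W : ValuationSubring F')

/-- The residue field of `W` is `S / P`: every element of `W` is congruent to an element of `S`. -/
theorem S34V_exists_sub_mem_nonunits (hW : S34V_Dom R W) {x : F'} (hx : x ∈ W) :
    ∃ s : S, x - algebraMap S F' s ∈ W.nonunits := by
  set P := S34V_hos S W hW with hP
  have hv : P.valuation F' x ≤ 1 := (S34V_mem_iff S W hW x).1 hx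
  obtain ⟨n, d, hnd⟩ := exists_primeCompl_mul_eq_of_integer P x hv
  haveI := P.isMaximal
  obtain ⟨d', i, hi, hdi⟩ := Ideal.IsMaximal.exists_inv (I := P.asIdeal) inferInstance d.2
  refine ⟨n * d', ?_⟩
  have h1 : x - algebraMap S F' (n * d') = x * algebraMap S F' i := by
    have h2 : algebraMap S F' (d' * (d : S) + i) = 1 := by rw [hdi, map_one]
    rw [map_add, map_mul] at h2
    rw [map_mul, ← hnd]
    linear_combination (-x) * h2
  rw [h1, S34V_mem_nonunits_iff S W hW, map_mul]
  have h3 : P.valuation F' (algebraMap S F' i) < 1 := (valuation_lt_one_iff_mem P i).2 hi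
  calc P.valuation F' x * P.valuation F' (algebraMap S F' i)
      ≤ 1 * P.valuation F' (algebraMap S F' i) := mul_le_mul_left hv _
    _ < 1 := by rwa [one_mul]

omit [IsDomain R] [IsDiscreteValuationRing R] [IsDedekindDomain S] [IsFractionRing S F']
  [CommRing S] [Algebra R S] [Algebra S F'] [IsScalarTower R S F'] [IsIntegralClosure S R F']
  [FaithfulSMul R F'] in
theorem S34V_nonunits_mul_mem {x y : F'} (hx : x ∈ W) (hy : y ∈ W.nonunits) :
    x * y ∈ W.nonunits := by
  rw [ValuationSubring.mem_nonunits_iff] at hy ⊢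
  rw [map_mul]
  have h1 : W.valuation x ≤ 1 := (W.valuation_le_one_iff x).2 hx
  calc W.valuation x * W.valuation y ≤ 1 * W.valuation y := mul_le_mul_left h1 _
    _ < 1 := by rwa [one_mul]

theorem S34V_le_inertiaDeg [Module.Finite R S] (hW : S34V_Dom R W) {a : ℕ}
    (ha : S34V_ResDegGe R W a) : a ≤ (S34V_hos S W hW).asIdeal.inertiaDeg R := by
  classical
  set P := S34V_hos S W hW with hP
  haveI : Algebra.IsIntegral R S := IsIntegralClosure.isIntegral_algebra R F'
  haveI := S34V_liesOver (R := R) P
  haveI := P.isMaximal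
  rw [Ideal.inertiaDeg_eq_of_isMaximal (IsLocalRing.maximalIdeal R) P.asIdeal]
  obtain ⟨y, hyW, hy⟩ := ha
  choose s hs using fun i => S34V_exists_sub_mem_nonunits S W hW (hyW i)
  have hli : LinearIndependent (R ⧸ IsLocalRing.maximalIdeal R)
      (fun i => Ideal.Quotient.mk P.asIdeal (s i)) := by
    rw [Fintype.linearIndependent_iff]
    intro g hg i
    choose c hc using fun i => Ideal.Quotient.mk_surjective (g i)
    have h1 : (∑ i, algebraMap R S (c i) * s i) ∈ P.asIdeal := by
      rw [← Ideal.Quotient.eq_zero_iff_mem, map_sum, ← hg]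
      refine Finset.sum_congr rfl fun i _ => ?_
      rw [← hc i, Algebra.smul_def, Ideal.Quotient.algebraMap_mk_of_liesOver, map_mul]
    have h2 : algebraMap S F' (∑ i, algebraMap R S (c i) * s i) ∈ W.nonunits :=
      (S34V_mem_centreIdeal S W hW.1 _).1 h1
    have h3 : (∑ i, algebraMap R F' (c i) * y i) ∈ W.nonunits := by
      have h4 : (∑ i, algebraMap R F' (c i) * y i)
          = algebraMap S F' (∑ i, algebraMap R S (c i) * s i)
            + ∑ i, algebraMap R F' (c i) * (y i - algebraMap S F' (s i)) := by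
        rw [map_sum, ← Finset.sum_add_distrib]
        refine Finset.sum_congr rfl fun i _ => ?_
        rw [map_mul, ← IsScalarTower.algebraMap_apply R S F']
        ring
      rw [h4]
      refine W.nonunits.add_mem h2 (W.nonunits.sum_mem fun i _ => ?_)
      exact S34V_nonunits_mul_mem W (hW.1 _) (hs i)
    have h5 := hy c h3 i
    rw [← hc i]
    exact Ideal.Quotient.eq_zero_iff_mem.2 h5
  simpa using hli.fintype_card_le_finrank

end Core3

section Core4

variable {R : Type*} (S : Type*) {F' : Type*} [CommRing R] [IsDomain R] [IsDiscreteValuationRing R]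
  [CommRing S] [IsDedekindDomain S] [Field F'] [Algebra R F'] [FaithfulSMul R F']
  [Algebra R S] [Algebra S F'] [IsScalarTower R S F'] [IsFractionRing S F']
  [IsIntegralClosure S R F']
  (W : ValuationSubring F')

/-- The maximal ideal of the discrete valuation ring `R` as a height-one prime. -/
def S34V_hosR (R : Type*) [CommRing R] [IsDomain R] [IsDiscreteValuationRing R] :
    HeightOneSpectrum R where
  asIdeal := IsLocalRing.maximalIdeal R
  isPrime := inferInstance
  ne_bot := IsDiscreteValuationRing.not_a_field R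


omit [FaithfulSMul R F'] [IsIntegralClosure S R F'] [IsFractionRing S F'] [Field F'] [Algebra R F']
  [Algebra S F'] [IsScalarTower R S F'] in
theorem S34V_intValuation_unif [Module.IsTorsionFree R S] (P : HeightOneSpectrum S)
    [P.asIdeal.LiesOver (IsLocalRing.maximalIdeal R)]
    (he : P.asIdeal.ramificationIdx R = 1) {ϖ : R} (hϖ : Irreducible ϖ) :
    P.intValuation (algebraMap R S ϖ) = exp (-1 : ℤ) := by
  haveI : P.asIdeal.LiesOver (S34V_hosR R).asIdeal := ‹_›
  have h1 := intValuation_liesOver (S34V_hosR R) P ϖ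
  have h2 : (S34V_hosR R).intValuation ϖ = exp (-1 : ℤ) :=
    intValuation_singleton _ hϖ.ne_zero (by
      show IsLocalRing.maximalIdeal R = _
      rw [hϖ.maximalIdeal_eq])
  have h3 : (S34V_hosR R).asIdeal.ramificationIdx' P.asIdeal = P.asIdeal.ramificationIdx R :=
    Ideal.ramificationIdx'_eq_ramificationIdx _ _ (S34V_hosR R).ne_bot
  rw [h3, he, pow_one, h2] at h1
  exact h1.symm

theorem S34V_unif [Module.IsTorsionFree R S] (hW : S34V_Dom R W)
    (he : (S34V_hos S W hW).asIdeal.ramificationIdx R = 1) {ϖ : R} (hϖ : Irreducible ϖ)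
    {x : F'} (hx : x ∈ W.nonunits) : ∃ y ∈ W, x = algebraMap R F' ϖ * y := by
  set P := S34V_hos S W hW with hP
  haveI : Algebra.IsIntegral R S := IsIntegralClosure.isIntegral_algebra R F'
  haveI := S34V_liesOver (R := R) P
  have h1 : P.valuation F' (algebraMap R F' ϖ) = exp (-1 : ℤ) := by
    rw [IsScalarTower.algebraMap_apply R S F', valuation_of_algebraMap]
    exact S34V_intValuation_unif S P he hϖ
  have h2 : P.valuation F' x < 1 := (S34V_mem_nonunits_iff S W hW x).1 hx
  have h3 : P.valuation F' x ≤ exp (-1 : ℤ) := by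
    rw [← lt_mul_exp_iff_le (by simp)]
    rw [← exp_add]
    simpa using h2
  have hne : algebraMap R F' ϖ ≠ 0 := by
    intro h
    exact hϖ.ne_zero ((FaithfulSMul.algebraMap_eq_zero_iff R F').1 h)
  refine ⟨x / algebraMap R F' ϖ, ?_, ?_⟩
  · rw [S34V_mem_iff S W hW, map_div₀, h1]
    exact div_le_one_of_le₀ h3 zero_le
  · field_simp

include S in
theorem S34V_isIntegral_of_forall_mem {x : F'}
    (h : ∀ W : ValuationSubring F', S34V_Dom R W → x ∈ W) : IsIntegral R x := by
  have h1 : ∀ P : HeightOneSpectrum S, P.valuation F' x ≤ 1 := fun P =>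
    (Valuation.mem_valuationSubring_iff _ _).1 (h _ (S34V_dom_of_hos P))
  obtain ⟨s, hs⟩ := mem_integers_of_valuation_le_one F' x h1
  exact (IsIntegralClosure.isIntegral_iff (A := S)).2 ⟨s, hs⟩

end Core4

section Count

variable {R : Type*} (S : Type*) {F' : Type*} [CommRing R] [IsDomain R] [IsDiscreteValuationRing R]
  [CommRing S] [IsDedekindDomain S] [Field F'] [Algebra R F'] [FaithfulSMul R F']
  [Algebra R S] [Algebra S F'] [IsScalarTower R S F'] [IsFractionRing S F']
  [IsIntegralClosure S R F'] [Module.Finite R S] [Module.Flat R S]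

/-- A height-one prime of `S` as an element of `primesOver`. -/
def S34V_toPrimesOver [Algebra.IsIntegral R S] (P : HeightOneSpectrum S) :
    (IsLocalRing.maximalIdeal R).primesOver S :=
  ⟨P.asIdeal, P.isPrime, S34V_liesOver P⟩

omit [Field F'] [Algebra R F'] [FaithfulSMul R F'] [Algebra S F'] [IsScalarTower R S F']
  [IsFractionRing S F'] [IsIntegralClosure S R F'] [Module.Flat R S] in
theorem S34V_toPrimesOver_injective [Algebra.IsIntegral R S] :
    Function.Injective (S34V_toPrimesOver (R := R) S) := by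
  intro P Q h
  apply HeightOneSpectrum.ext
  exact congrArg Subtype.val h

omit [Field F'] [Algebra R F'] [FaithfulSMul R F'] [Algebra S F'] [IsScalarTower R S F']
  [IsFractionRing S F'] [IsIntegralClosure S R F'] in
/-- Arithmetic core: two distinct primes with `a ≤ f`, `b ≤ f'` and `n ≤ a + b`. -/
theorem S34V_count_core [Algebra.IsIntegral R S] (P Q : HeightOneSpectrum S) (hPQ : P ≠ Q)
    {a b : ℕ} (hab : Module.finrank R S ≤ a + b)
    (ha : a ≤ P.asIdeal.inertiaDeg R) (hb : b ≤ Q.asIdeal.inertiaDeg R) :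
    (∀ T : HeightOneSpectrum S, T = P ∨ T = Q) ∧
      P.asIdeal.ramificationIdx R = 1 ∧ Q.asIdeal.ramificationIdx R = 1 ∧
      P.asIdeal.inertiaDeg R = a ∧ Q.asIdeal.inertiaDeg R = b := by
  classical
  letI : Fintype ((IsLocalRing.maximalIdeal R).primesOver S) :=
    (Algebra.QuasiFinite.finite_primesOver _).fintype
  have hsum := Ideal.sum_ramification_inertia_eq_finrank (IsLocalRing.maximalIdeal R) S
  set t : (IsLocalRing.maximalIdeal R).primesOver S → ℕ :=
    fun q => q.1.ramificationIdx R * q.1.inertiaDeg R with ht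
  have hpos : ∀ q : (IsLocalRing.maximalIdeal R).primesOver S, 1 ≤ t q := by
    intro q
    haveI := q.2.1
    have h1 : 0 < q.1.ramificationIdx R := Ideal.ramificationIdx_pos q.1 R
    have h2 : 0 < q.1.inertiaDeg R := Ideal.inertiaDeg_pos q.1 R
    exact Nat.mul_pos h1 h2
  set qP := S34V_toPrimesOver (R := R) S P with hqP
  set qQ := S34V_toPrimesOver (R := R) S Q with hqQ
  have hne : qP ≠ qQ := fun h => hPQ (S34V_toPrimesOver_injective S h)
  have heP : 0 < P.asIdeal.ramificationIdx R := Ideal.ramificationIdx_pos P.asIdeal R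
  have heQ : 0 < Q.asIdeal.ramificationIdx R := Ideal.ramificationIdx_pos Q.asIdeal R
  have hfP : 0 < P.asIdeal.inertiaDeg R := Ideal.inertiaDeg_pos P.asIdeal R
  have hfQ : 0 < Q.asIdeal.inertiaDeg R := Ideal.inertiaDeg_pos Q.asIdeal R
  -- the two terms
  have h2 : t qP + t qQ + ∑ q ∈ (Finset.univ.erase qP).erase qQ, t q = Module.finrank R S := by
    rw [← hsum, ← Finset.add_sum_erase Finset.univ t (Finset.mem_univ qP),
      ← Finset.add_sum_erase (Finset.univ.erase qP) t
        (Finset.mem_erase.2 ⟨hne.symm, Finset.mem_univ qQ⟩), add_assoc]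
  have htP : t qP = P.asIdeal.ramificationIdx R * P.asIdeal.inertiaDeg R := rfl
  have htQ : t qQ = Q.asIdeal.ramificationIdx R * Q.asIdeal.inertiaDeg R := rfl
  have h3 : P.asIdeal.inertiaDeg R ≤ t qP := by
    rw [htP]; exact Nat.le_mul_of_pos_left _ heP
  have h4 : Q.asIdeal.inertiaDeg R ≤ t qQ := by
    rw [htQ]; exact Nat.le_mul_of_pos_left _ heQ
  have h5 : ∑ q ∈ (Finset.univ.erase qP).erase qQ, t q = 0 := by omega
  have h6 : t qP = P.asIdeal.inertiaDeg R := by omega
  have h7 : t qQ = Q.asIdeal.inertiaDeg R := by omega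
  refine ⟨?_, ?_, ?_, by omega, by omega⟩
  · intro T
    by_contra hT
    rw [not_or] at hT
    have hT1 : S34V_toPrimesOver (R := R) S T ∈ (Finset.univ.erase qP).erase qQ := by
      refine Finset.mem_erase.2 ⟨fun h => hT.2 (S34V_toPrimesOver_injective S h),
        Finset.mem_erase.2 ⟨fun h => hT.1 (S34V_toPrimesOver_injective S h), Finset.mem_univ _⟩⟩
    have := Finset.single_le_sum (f := t) (fun _ _ => Nat.zero_le _) hT1
    have := hpos (S34V_toPrimesOver (R := R) S T)
    omega
  · rw [htP] at h6
    have := Nat.eq_of_mul_eq_mul_right hfP (by rw [h6, one_mul] :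
      P.asIdeal.ramificationIdx R * P.asIdeal.inertiaDeg R = 1 * P.asIdeal.inertiaDeg R)
    exact this
  · rw [htQ] at h7
    have := Nat.eq_of_mul_eq_mul_right hfQ (by rw [h7, one_mul] :
      Q.asIdeal.ramificationIdx R * Q.asIdeal.inertiaDeg R = 1 * Q.asIdeal.inertiaDeg R)
    exact this

end Count

section Dep

variable {R : Type*} (S : Type*) {F' : Type*} [CommRing R] [IsDomain R] [IsDiscreteValuationRing R]
  [CommRing S] [IsDedekindDomain S] [Field F'] [Algebra R F'] [FaithfulSMul R F']
  [Algebra R S] [Algebra S F'] [IsScalarTower R S F'] [IsFractionRing S F']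
  [IsIntegralClosure S R F']
  (W : ValuationSubring F')

theorem S34V_dependent_of_inertiaDeg_lt [Module.Finite R S] (hW : S34V_Dom R W) {a : ℕ}
    (ha : (S34V_hos S W hW).asIdeal.inertiaDeg R < a) (y : Fin a → F') (hyW : ∀ i, y i ∈ W) :
    ∃ c : Fin a → R, (∃ i, c i ∉ IsLocalRing.maximalIdeal R) ∧
      (∑ i, algebraMap R F' (c i) * y i) ∈ W.nonunits := by
  classical
  set P := S34V_hos S W hW with hP
  haveI : Algebra.IsIntegral R S := IsIntegralClosure.isIntegral_algebra R F'
  haveI := S34V_liesOver (R := R) P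
  haveI := P.isMaximal
  rw [Ideal.inertiaDeg_eq_of_isMaximal (IsLocalRing.maximalIdeal R) P.asIdeal] at ha
  choose s hs using fun i => S34V_exists_sub_mem_nonunits S W hW (hyW i)
  have hnli : ¬ LinearIndependent (R ⧸ IsLocalRing.maximalIdeal R)
      (fun i => Ideal.Quotient.mk P.asIdeal (s i)) := by
    intro hli
    have := hli.fintype_card_le_finrank
    simp only [Fintype.card_fin] at this
    omega
  rw [Fintype.not_linearIndependent_iff] at hnli
  obtain ⟨g, hg, i0, hi0⟩ := hnli
  choose c hc using fun i => Ideal.Quotient.mk_surjective (g i)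
  refine ⟨c, ⟨i0, fun h => hi0 ?_⟩, ?_⟩
  · rw [← hc i0]
    exact Ideal.Quotient.eq_zero_iff_mem.2 h
  · have h1 : (∑ i, algebraMap R S (c i) * s i) ∈ P.asIdeal := by
      rw [← Ideal.Quotient.eq_zero_iff_mem, map_sum, ← hg]
      refine Finset.sum_congr rfl fun i _ => ?_
      rw [← hc i, Algebra.smul_def, Ideal.Quotient.algebraMap_mk_of_liesOver, map_mul]
    have h2 : algebraMap S F' (∑ i, algebraMap R S (c i) * s i) ∈ W.nonunits :=
      (S34V_mem_centreIdeal S W hW.1 _).1 h1
    have h4 : (∑ i, algebraMap R F' (c i) * y i)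
        = algebraMap S F' (∑ i, algebraMap R S (c i) * s i)
          + ∑ i, algebraMap R F' (c i) * (y i - algebraMap S F' (s i)) := by
      rw [map_sum, ← Finset.sum_add_distrib]
      refine Finset.sum_congr rfl fun i _ => ?_
      rw [map_mul, ← IsScalarTower.algebraMap_apply R S F']
      ring
    rw [h4]
    refine W.nonunits.add_mem h2 (W.nonunits.sum_mem fun i _ => ?_)
    exact S34V_nonunits_mul_mem W (hW.1 _) (hs i)

omit [IsDedekindDomain S] [IsFractionRing S F']
  [CommRing S] [Algebra R S] [Algebra S F'] [IsScalarTower R S F'] [IsIntegralClosure S R F']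
  [FaithfulSMul R F'] in
/-- Elements of `R` that become non-units in a dominating `W` are non-units of `R`. -/
theorem S34V_mem_maximalIdeal_of_mem_nonunits (hW : S34V_Dom R W) {r : R}
    (hr : algebraMap R F' r ∈ W.nonunits) : r ∈ IsLocalRing.maximalIdeal R := by
  rw [IsLocalRing.mem_maximalIdeal]
  intro hu
  obtain ⟨u, rfl⟩ := hu
  have h1 : algebraMap R F' (↑u⁻¹ : R) ∈ W := hW.1 _
  have h2 := S34V_nonunits_mul_mem W h1 hr
  rw [← map_mul, Units.inv_mul, map_one] at h2
  exact (ValuationSubring.mem_nonunits_iff W).1 h2 |>.ne (map_one _)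

end Dep

section Final

variable (R F : Type*) {F' : Type*} [CommRing R] [IsDomain R] [IsDiscreteValuationRing R]
  [Field F] [Field F'] [Algebra R F] [IsFractionRing R F] [Algebra F F'] [Algebra R F']
  [IsScalarTower R F F'] [FiniteDimensional F F'] [Algebra.IsSeparable F F']

include F in
/-- **Integral closure = intersection of the dominating valuation rings.** -/
theorem S34V_isIntegral_iff_forall (x : F') :
    IsIntegral R x ↔ ∀ W : ValuationSubring F', S34V_Dom R W → x ∈ W := by
  haveI := S34V_isDedekind R F F'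
  haveI := S34V_isFrac R F F'
  haveI := S34V_faithful R F F'
  constructor
  · intro hx W hW
    exact S34V_mem_of_isIntegral W hW.1 hx
  · intro h
    exact S34V_isIntegral_of_forall_mem (S34V_S R F') h

include F in
/-- **The fundamental identity with two given extensions.**  `R` a discrete valuation ring with
fraction field `F`, `F'/F` finite separable of degree `≤ a + b`, `Woo ≠ W0` valuation subrings of
`F'` dominating `R` with residue degrees `≥ a` and `≥ b`.  Then there is no third dominating
valuation subring, `e = 1` for both, the residue degrees are exactly `a` and `b`, the integral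
closure of `R` in `F'` is `Woo ∩ W0`, and `[F' : F] = a + b`. -/
theorem S34V_two (Woo W0 : ValuationSubring F') (hoo : S34V_Dom R Woo) (h0 : S34V_Dom R W0)
    (hne : Woo ≠ W0) {a b : ℕ} (hab : Module.finrank F F' ≤ a + b)
    (ha : S34V_ResDegGe R Woo a) (hb : S34V_ResDegGe R W0 b) :
    (∀ W : ValuationSubring F', S34V_Dom R W → W = Woo ∨ W = W0) ∧
    (∀ ϖ : R, Irreducible ϖ → ∀ x ∈ Woo.nonunits, ∃ y ∈ Woo, x = algebraMap R F' ϖ * y) ∧
    (∀ ϖ : R, Irreducible ϖ → ∀ x ∈ W0.nonunits, ∃ y ∈ W0, x = algebraMap R F' ϖ * y) ∧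
    (∀ y : Fin (a + 1) → F', (∀ i, y i ∈ Woo) →
      ∃ c : Fin (a + 1) → R, (∃ i, c i ∉ IsLocalRing.maximalIdeal R) ∧
        (∑ i, algebraMap R F' (c i) * y i) ∈ Woo.nonunits) ∧
    (∀ y : Fin (b + 1) → F', (∀ i, y i ∈ W0) →
      ∃ c : Fin (b + 1) → R, (∃ i, c i ∉ IsLocalRing.maximalIdeal R) ∧
        (∑ i, algebraMap R F' (c i) * y i) ∈ W0.nonunits) ∧
    (∀ x : F', IsIntegral R x ↔ x ∈ Woo ∧ x ∈ W0) ∧
    Module.finrank F F' = a + b := by
  haveI := S34V_isDedekind R F F'
  haveI := S34V_isFrac R F F'
  haveI := S34V_faithful R F F'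
  haveI := S34V_finite R F F'
  haveI := S34V_torsionFree R F F'
  haveI := S34V_flat R F F'
  haveI : Algebra.IsIntegral R (S34V_S R F') := IsIntegralClosure.isIntegral_algebra R F'
  have hn : Module.finrank R (S34V_S R F') = Module.finrank F F' :=
    (IsFractionRing.finrank_eq R F (S34V_S R F') F').symm
  set P := S34V_hos (S34V_S R F') Woo hoo with hP
  set Q := S34V_hos (S34V_S R F') W0 h0 with hQ
  have hPQ : P ≠ Q := fun h => hne (S34V_hos_injective (S34V_S R F') hoo h0 h)
  have haP := S34V_le_inertiaDeg (S34V_S R F') Woo hoo ha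
  have hbQ := S34V_le_inertiaDeg (S34V_S R F') W0 h0 hb
  obtain ⟨hall, heP, heQ, hfP, hfQ⟩ :=
    S34V_count_core (R := R) (S34V_S R F') P Q hPQ (hn ▸ hab) haP hbQ
  have hW : ∀ W : ValuationSubring F', S34V_Dom R W → W = Woo ∨ W = W0 := by
    intro W hW
    rcases hall (S34V_hos (S34V_S R F') W hW) with h | h
    · exact Or.inl (S34V_hos_injective (S34V_S R F') hW hoo h)
    · exact Or.inr (S34V_hos_injective (S34V_S R F') hW h0 h)
  refine ⟨hW, ?_, ?_, ?_, ?_, ?_, ?_⟩
  · intro ϖ hϖ x hx
    exact S34V_unif (S34V_S R F') Woo hoo heP hϖ hx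
  · intro ϖ hϖ x hx
    exact S34V_unif (S34V_S R F') W0 h0 heQ hϖ hx
  · intro y hy
    exact S34V_dependent_of_inertiaDeg_lt (S34V_S R F') Woo hoo (by rw [← hP, hfP]; omega) y hy
  · intro y hy
    exact S34V_dependent_of_inertiaDeg_lt (S34V_S R F') W0 h0 (by rw [← hQ, hfQ]; omega) y hy
  · intro x
    rw [S34V_isIntegral_iff_forall R F x]
    constructor
    · intro h
      exact ⟨h Woo hoo, h W0 h0⟩
    · rintro ⟨h1, h2⟩ W hWd
      rcases hW W hWd with rfl | rfl
      · exact h1
      · exact h2
  · -- `n = ∑ e f = a + b`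
    classical
    letI : Fintype ((IsLocalRing.maximalIdeal R).primesOver (S34V_S R F')) :=
      (Algebra.QuasiFinite.finite_primesOver _).fintype
    have hsum := Ideal.sum_ramification_inertia_eq_finrank (IsLocalRing.maximalIdeal R)
      (S34V_S R F')
    rw [hn] at hsum
    apply le_antisymm hab
    rw [← hsum]
    set qP := S34V_toPrimesOver (R := R) (S34V_S R F') P with hqP
    set qQ := S34V_toPrimesOver (R := R) (S34V_S R F') Q with hqQ
    have hne' : qP ≠ qQ := fun h => hPQ (S34V_toPrimesOver_injective (S34V_S R F') h)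
    rw [← Finset.add_sum_erase Finset.univ _ (Finset.mem_univ qP),
      ← Finset.add_sum_erase (Finset.univ.erase qP) _
        (Finset.mem_erase.2 ⟨hne'.symm, Finset.mem_univ qQ⟩)]
    have e1 : qP.1.ramificationIdx R * qP.1.inertiaDeg R = a := by
      show P.asIdeal.ramificationIdx R * P.asIdeal.inertiaDeg R = a
      rw [heP, hfP, one_mul]
    have e2 : qQ.1.ramificationIdx R * qQ.1.inertiaDeg R = b := by
      show Q.asIdeal.ramificationIdx R * Q.asIdeal.inertiaDeg R = b
      rw [heQ, hfQ, one_mul]
    rw [e1, e2]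
    omega

include F in
/-- The case `a = 1`: the residue field of `Woo` is that of `R`. -/
theorem S34V_two_residue (Woo W0 : ValuationSubring F') (hoo : S34V_Dom R Woo)
    (h0 : S34V_Dom R W0) (hne : Woo ≠ W0) {b : ℕ} (hab : Module.finrank F F' ≤ 1 + b)
    (hb : S34V_ResDegGe R W0 b) {x : F'} (hx : x ∈ Woo) :
    ∃ r : R, x - algebraMap R F' r ∈ Woo.nonunits := by
  have ha : S34V_ResDegGe R Woo 1 := by
    refine ⟨fun _ => 1, fun _ => Woo.one_mem, fun c hc i => ?_⟩
    have : i = 0 := Subsingleton.elim _ _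
    subst this
    simp only [Finset.univ_unique, Fin.default_eq_zero, Fin.isValue, mul_one,
      Finset.sum_singleton] at hc
    exact S34V_mem_maximalIdeal_of_mem_nonunits Woo hoo hc
  obtain ⟨-, -, -, hdep, -, -, -⟩ := S34V_two R F Woo W0 hoo h0 hne hab ha hb
  obtain ⟨c, ⟨i, hi⟩, hc⟩ := hdep ![1, x] (by
    intro i
    fin_cases i
    · exact Woo.one_mem
    · exact hx)
  simp only [Nat.reduceAdd, Fin.sum_univ_two, Fin.isValue, Matrix.cons_val_zero, mul_one,
    Matrix.cons_val_one] at hc
  -- `c 1` is a unit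
  have hc1 : c 1 ∉ IsLocalRing.maximalIdeal R := by
    intro h1
    have h2 : algebraMap R F' (c 1) * x ∈ Woo.nonunits := by
      rw [mul_comm]
      exact S34V_nonunits_mul_mem Woo hx (hoo.2 _ h1)
    have h3 : algebraMap R F' (c 0) ∈ Woo.nonunits := by
      have := Woo.nonunits.sub_mem hc h2
      simpa using this
    have h4 := S34V_mem_maximalIdeal_of_mem_nonunits Woo hoo h3
    fin_cases i
    · exact hi h4
    · exact hi h1
  rw [IsLocalRing.mem_maximalIdeal, mem_nonunits_iff, not_not] at hc1
  obtain ⟨u, hu⟩ := hc1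
  refine ⟨-(↑u⁻¹ * c 0), ?_⟩
  have h5 : x - algebraMap R F' (-(↑u⁻¹ * c 0))
      = algebraMap R F' (↑u⁻¹ : R) * (algebraMap R F' (c 0) + algebraMap R F' (c 1) * x) := by
    have hu1 : algebraMap R F' (↑u⁻¹ : R) * algebraMap R F' (↑u : R) = 1 := by
      rw [← map_mul, Units.inv_mul, map_one]
    rw [← hu, map_neg, map_mul]
    linear_combination (-x) * hu1
  rw [h5]
  exact S34V_nonunits_mul_mem Woo (hoo.1 _) hc

end Final

section Pow

variable {R : Type*} {F' : Type*} [CommRing R] [IsDomain R] [IsDiscreteValuationRing R]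
  [Field F'] [Algebra R F'] (W : ValuationSubring F')

/-- The ring homomorphism `R → W` of a dominating valuation subring. -/
def S34V_RtoW (hW : ∀ r : R, algebraMap R F' r ∈ W) : R →+* W :=
  (algebraMap R F').codRestrict W.toSubring hW

theorem S34V_RtoW_isLocalHom (hW : S34V_Dom R W) : IsLocalHom (S34V_RtoW W hW.1) := by
  constructor
  intro a ha
  by_contra hcon
  have h1 : a ∈ IsLocalRing.maximalIdeal R := by
    rw [IsLocalRing.mem_maximalIdeal]; exact hcon
  have h2 := hW.2 a h1
  have h3 : ((S34V_RtoW W hW.1 a : W) : F') ∈ W.nonunits := h2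
  rw [ValuationSubring.coe_mem_nonunits_iff, IsLocalRing.mem_maximalIdeal] at h3
  exact h3 ha

/-- **Residue degree from a `q`-th root.**  If `y ∈ W` satisfies `y ^ q ≡ x` modulo the maximal
ideal of `W` with `x ∈ R` not a `q`-th power modulo the maximal ideal of `R` (`q` prime), then
`1, y, …, y ^ (q - 1)` are linearly independent over the residue field of `R`:
`q ≤ f(W | R)`. -/
theorem S34V_resDegGe_of_pow (hW : S34V_Dom R W) {q : ℕ} (hq : q.Prime) {y : F'} (hy : y ∈ W)
    {x : R} (hyx : y ^ q - algebraMap R F' x ∈ W.nonunits)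
    (hx : ∀ r : R, r ^ q - x ∉ IsLocalRing.maximalIdeal R) : S34V_ResDegGe R W q := by
  classical
  refine ⟨fun i => y ^ (i : ℕ), fun i => pow_mem hy _, fun c hc i => ?_⟩
  haveI := S34V_RtoW_isLocalHom W hW
  let φ : R →+* W := S34V_RtoW W hW.1
  let ψ : IsLocalRing.ResidueField R →+* IsLocalRing.ResidueField W :=
    IsLocalRing.ResidueField.map φ
  letI : Algebra (IsLocalRing.ResidueField R) (IsLocalRing.ResidueField W) := ψ.toAlgebra
  set ybar : IsLocalRing.ResidueField W := IsLocalRing.residue W ⟨y, hy⟩ with hybar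
  set xbar : IsLocalRing.ResidueField R := IsLocalRing.residue R x with hxbar
  have hψ : ∀ r : R, algebraMap (IsLocalRing.ResidueField R) (IsLocalRing.ResidueField W)
      (IsLocalRing.residue R r) = IsLocalRing.residue W (φ r) := fun r => rfl
  have hirr : Irreducible (X ^ q - C xbar : (IsLocalRing.ResidueField R)[X]) := by
    refine X_pow_sub_C_irreducible_of_prime hq fun b hb => ?_
    obtain ⟨r, rfl⟩ := IsLocalRing.residue_surjective b
    have h1 : IsLocalRing.residue R (r ^ q - x) = 0 := by
      rw [map_sub, map_pow, hb, sub_self]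
    rw [IsLocalRing.residue_eq_zero_iff] at h1
    exact hx r h1
  have hmonic : (X ^ q - C xbar : (IsLocalRing.ResidueField R)[X]).Monic :=
    monic_X_pow_sub_C _ hq.ne_zero
  have hroot : aeval ybar (X ^ q - C xbar : (IsLocalRing.ResidueField R)[X]) = 0 := by
    rw [map_sub, map_pow, aeval_X, aeval_C, hψ, ← map_pow, ← map_sub,
      IsLocalRing.residue_eq_zero_iff, ← ValuationSubring.coe_mem_nonunits_iff]
    exact hyx
  have hmin : minpoly (IsLocalRing.ResidueField R) ybar = X ^ q - C xbar :=
    (minpoly.eq_of_irreducible_of_monic hirr hroot hmonic).symm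
  have hli := linearIndependent_pow (K := IsLocalRing.ResidueField R) ybar
  rw [hmin, natDegree_X_pow_sub_C] at hli
  rw [Fintype.linearIndependent_iff] at hli
  have h2 := hli (fun i => IsLocalRing.residue R (c i)) (by
    have h3 : IsLocalRing.residue W ⟨∑ i, algebraMap R F' (c i) * y ^ (i : ℕ),
        ValuationSubring.nonunits_subset hc⟩ = 0 := by
      rw [IsLocalRing.residue_eq_zero_iff, ← ValuationSubring.coe_mem_nonunits_iff]
      exact hc
    rw [← h3]
    have h4 : (⟨∑ i, algebraMap R F' (c i) * y ^ (i : ℕ),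
        ValuationSubring.nonunits_subset hc⟩ : W) = ∑ i : Fin q, φ (c i) * ⟨y, hy⟩ ^ (i : ℕ) := by
      apply Subtype.ext
      simp only [AddSubmonoidClass.coe_finsetSum, MulMemClass.coe_mul, SubmonoidClass.coe_pow]
      rfl
    rw [h4, map_sum]
    refine Finset.sum_congr rfl fun i _ => ?_
    rw [Algebra.smul_def, hψ, map_mul, map_pow]) i
  exact (IsLocalRing.residue_eq_zero_iff _).1 h2

end Pow

end Fermat.Agent.S34_helper13_VCOUNT
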