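import Mathlib
import Fermat.Agent.S34_helper13_VCOUNT
import Fermat.Agent.S34_helper27_C2Defs

/-!
# S34, piece P1c-KEY (abstract form): the fundamental identity in the `Subring L` vocabulary

`L` a field of characteristic zero, `F1' ≤ F1` subfields with a spanning set of at most `q + 1`
elements, `V'` a discrete valuation ring of `F1'` with uniformiser `π` (elementwise: every
nonzero element of `F1'` is `π ^ z` times a unit of `V'`), `V1 ≠ V2` valuation rings of `F1`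
(`S34C2_Val`) containing `V'`, and an element `y ∈ V2` with `y ^ q ≡ x` modulo the non-units of
`V2`, where `x ∈ V'` is not a `q`-th power modulo `π` in `V'`.

`S34KEY_abs` : then every element of `V1 ⊓ V2` is integral over `V'` (and conversely), `π`
generates the non-units of `V1` and of `V2`, there is no third valuation ring of `F1` over `V'`
in which `π` is a non-unit, and every element of `V1` is congruent modulo `π V1` to an element
of `V'`.

This is `S34_helper13_VCOUNT.S34V_two` for `R := V'`, `F := F1'`, `F' := F1`, `a = 1`, `b = q`.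
-/

set_option autoImplicit false
set_option linter.style.haveILetI false
set_option linter.unusedSectionVars false
set_option linter.unusedVariables false

namespace Fermat.Agent.S34_helper13_KEY

open Fermat.Agent.S34_helper13_VCOUNT Fermat.Agent.S34_helper27_C2Defs

variable {L : Type*} [Field L]

section VS

variable {π : L} {F : Subfield L} {W : Subring L}

/-- The valuation subring of `↥F` cut out by a valuation ring `W` of `F` (elementwise). -/
def S34KEY_vs (h : S34C2_Val π F W) : ValuationSubring ↥F :=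
  { W.comap F.subtype with
    mem_or_inv_mem' := fun x => by
      rcases h.val (x : L) x.2 with hx | hx
      · exact Or.inl hx
      · right
        show ((x⁻¹ : ↥F) : L) ∈ W
        simpa using hx }

theorem S34KEY_mem_vs (h : S34C2_Val π F W) (x : ↥F) : x ∈ S34KEY_vs h ↔ (x : L) ∈ W := Iff.rfl

theorem S34KEY_mem_nonunits (h : S34C2_Val π F W) (x : ↥F) :
    x ∈ (S34KEY_vs h).nonunits ↔ (x : L) = 0 ∨ (x : L)⁻¹ ∉ W := by
  rw [ValuationSubring.mem_nonunits_iff_or, S34KEY_mem_vs]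
  constructor
  · rintro (h0 | h0)
    · left; rw [h0]; rfl
    · right; simpa using h0
  · rintro (h0 | h0)
    · left; exact Subtype.ext h0
    · right; simpa using h0

/-- A multiple of `π` is a non-unit. -/
theorem S34KEY_pi_mul_nonunit (h : S34C2_Val π F W) {v : L} (hv : v ∈ W) :
    π * v = 0 ∨ (π * v)⁻¹ ∉ W := by
  by_cases h0 : π * v = 0
  · exact Or.inl h0
  right
  intro hcon
  apply h.π_nonunit
  have hπ0 : π ≠ 0 := left_ne_zero_of_mul h0
  have : π⁻¹ = v * (π * v)⁻¹ := by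
    have hv0 : v ≠ 0 := right_ne_zero_of_mul h0
    field_simp
  rw [this]
  exact W.mul_mem hv hcon

end VS

section DVR

variable {π : L} {F : Subfield L} {V : Subring L}

theorem S34KEY_pi_ne_zero (hV : S34C2_Val π F V) : π ≠ 0 := by
  rintro rfl
  exact hV.π_nonunit (by rw [inv_zero]; exact V.zero_mem)

/-- In a ring with the factorisation property, elements of `V` have non-negative valuation. -/
theorem S34KEY_nat_of_mem (hV : S34C2_Val π F V)
    (hsep : ∀ x ∈ F, x ≠ 0 → ∃ (z : ℤ) (u : L), u ∈ V ∧ u⁻¹ ∈ V ∧ x = π ^ z * u)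
    {x : L} (hx : x ∈ V) (hx0 : x ≠ 0) :
    ∃ (n : ℕ) (u : L), u ∈ V ∧ u⁻¹ ∈ V ∧ x = π ^ n * u := by
  obtain ⟨z, u, hu, hu', rfl⟩ := hsep x (hV.le hx) hx0
  have hπ0 := S34KEY_pi_ne_zero hV
  have hu0 : u ≠ 0 := right_ne_zero_of_mul hx0
  rcases le_or_gt 0 z with hz | hz
  · obtain ⟨n, rfl⟩ := Int.eq_ofNat_of_zero_le hz
    exact ⟨n, u, hu, hu', by rw [zpow_natCast]⟩
  · exfalso
    obtain ⟨m, hm⟩ := Int.eq_ofNat_of_zero_le (show 0 ≤ -z - 1 by omega)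
    apply hV.π_nonunit
    have h1 : π⁻¹ = π ^ m * (π ^ z * u) * u⁻¹ := by
      have hz' : z = -(m : ℤ) - 1 := by omega
      rw [hz', zpow_sub₀ hπ0, zpow_neg, zpow_natCast, zpow_one]
      field_simp
    rw [h1]
    exact V.mul_mem (V.mul_mem (V.pow_mem hV.π_mem m) hx) hu'

/-- `π` as an element of the valuation subring. -/
def S34KEY_pi (hV : S34C2_Val π F V) : ↥(S34KEY_vs hV) :=
  ⟨⟨π, hV.le hV.π_mem⟩, hV.π_mem⟩

theorem S34KEY_isUnit_iff (hV : S34C2_Val π F V) (a : ↥(S34KEY_vs hV)) :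
    IsUnit a ↔ ((a : ↥F) : L) ≠ 0 ∧ ((a : ↥F) : L)⁻¹ ∈ V := by
  constructor
  · intro h
    have h1 : (a : ↥F) ∉ (S34KEY_vs hV).nonunits := by
      rw [ValuationSubring.coe_mem_nonunits_iff, IsLocalRing.mem_maximalIdeal, mem_nonunits_iff,
        not_not]
      exact h
    rw [S34KEY_mem_nonunits, not_or, not_not] at h1
    exact h1
  · rintro ⟨h0, h1⟩
    by_contra hcon
    have h2 : (a : ↥F) ∈ (S34KEY_vs hV).nonunits := by
      rw [ValuationSubring.coe_mem_nonunits_iff, IsLocalRing.mem_maximalIdeal, mem_nonunits_iff]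
      exact hcon
    rw [S34KEY_mem_nonunits] at h2
    rcases h2 with h2 | h2
    · exact h0 h2
    · exact h2 h1

theorem S34KEY_pi_not_isUnit (hV : S34C2_Val π F V) : ¬ IsUnit (S34KEY_pi hV) := by
  rw [S34KEY_isUnit_iff]
  rintro ⟨-, h⟩
  exact hV.π_nonunit h

theorem S34KEY_assoc (hV : S34C2_Val π F V)
    (hsep : ∀ x ∈ F, x ≠ 0 → ∃ (z : ℤ) (u : L), u ∈ V ∧ u⁻¹ ∈ V ∧ x = π ^ z * u)
    (a : ↥(S34KEY_vs hV)) (ha : a ≠ 0) :
    ∃ (n : ℕ) (u : ↥(S34KEY_vs hV)), IsUnit u ∧ a = S34KEY_pi hV ^ n * u := by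
  have ha0 : ((a : ↥F) : L) ≠ 0 := by
    intro h
    apply ha
    exact Subtype.ext (Subtype.ext h)
  obtain ⟨n, u, hu, hu', hau⟩ := S34KEY_nat_of_mem hV hsep a.2 ha0
  have hπ0 := S34KEY_pi_ne_zero hV
  have hu0 : u ≠ 0 := by
    rintro rfl
    rw [mul_zero] at hau
    exact ha0 hau
  refine ⟨n, ⟨⟨u, hV.le hu⟩, hu⟩, (S34KEY_isUnit_iff hV _).2 ⟨hu0, hu'⟩, ?_⟩
  apply Subtype.ext
  apply Subtype.ext
  exact hau

theorem S34KEY_pi_irreducible (hV : S34C2_Val π F V)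
    (hsep : ∀ x ∈ F, x ≠ 0 → ∃ (z : ℤ) (u : L), u ∈ V ∧ u⁻¹ ∈ V ∧ x = π ^ z * u) :
    Irreducible (S34KEY_pi hV) := by
  have hp0 : S34KEY_pi hV ≠ 0 := by
    intro h
    have := congrArg (fun a : ↥(S34KEY_vs hV) => ((a : ↥F) : L)) h
    exact S34KEY_pi_ne_zero hV this
  refine ⟨S34KEY_pi_not_isUnit hV, fun a b hab => ?_⟩
  have ha : a ≠ 0 := by rintro rfl; rw [zero_mul] at hab; exact hp0 hab
  have hb : b ≠ 0 := by rintro rfl; rw [mul_zero] at hab; exact hp0 hab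
  obtain ⟨m, u, hu, rfl⟩ := S34KEY_assoc hV hsep a ha
  obtain ⟨n, v, hv, rfl⟩ := S34KEY_assoc hV hsep b hb
  rcases Nat.eq_zero_or_pos m with rfl | hm
  · left; simpa using hu
  rcases Nat.eq_zero_or_pos n with rfl | hn
  · right; simpa using hv
  exfalso
  apply S34KEY_pi_not_isUnit hV
  obtain ⟨k, hk⟩ : ∃ k, m + n = k + 2 := ⟨m + n - 2, by omega⟩
  have h1 : S34KEY_pi hV * (S34KEY_pi hV ^ k * (u * v)) = 1 := by
    have h2 : S34KEY_pi hV * (S34KEY_pi hV * (S34KEY_pi hV ^ k * (u * v))) = S34KEY_pi hV * 1 := by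
      rw [mul_one]
      calc S34KEY_pi hV * (S34KEY_pi hV * (S34KEY_pi hV ^ k * (u * v)))
          = S34KEY_pi hV ^ (k + 2) * (u * v) := by ring
        _ = S34KEY_pi hV ^ m * u * (S34KEY_pi hV ^ n * v) := by rw [← hk]; ring
        _ = S34KEY_pi hV := hab.symm
    exact mul_left_cancel₀ hp0 h2
  exact IsUnit.of_mul_eq_one _ h1

theorem S34KEY_isDVR (hV : S34C2_Val π F V)
    (hsep : ∀ x ∈ F, x ≠ 0 → ∃ (z : ℤ) (u : L), u ∈ V ∧ u⁻¹ ∈ V ∧ x = π ^ z * u) :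
    IsDiscreteValuationRing ↥(S34KEY_vs hV) := by
  apply IsDiscreteValuationRing.ofHasUnitMulPowIrreducibleFactorization
  refine ⟨S34KEY_pi hV, S34KEY_pi_irreducible hV hsep, fun {x} hx => ?_⟩
  obtain ⟨n, u, hu, rfl⟩ := S34KEY_assoc hV hsep x hx
  obtain ⟨u', rfl⟩ := hu
  exact ⟨n, ⟨u', rfl⟩⟩

end DVR

section Fin

variable {F1' F1 : Subfield L} (hF : F1' ≤ F1)

/-- The algebra structure of `F1` over the smaller subfield `F1'`. -/
@[reducible] def S34KEY_alg : Algebra ↥F1' ↥F1 := (Subfield.inclusion hF).toAlgebra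

theorem S34KEY_finrank_le {n : ℕ}
    (hdeg : ∃ s : Finset L, s.card ≤ n ∧ ∀ x ∈ F1, ∃ c : L → L,
      (∀ y, c y ∈ F1') ∧ x = ∑ y ∈ s, c y * y) :
    letI := S34KEY_alg hF
    FiniteDimensional ↥F1' ↥F1 ∧ Module.finrank ↥F1' ↥F1 ≤ n := by
  classical
  letI := S34KEY_alg hF
  obtain ⟨s, hs, hspan⟩ := hdeg
  -- the subtype map as an `F1'`-linear map
  let φ : ↥F1 →ₗ[↥F1'] L :=
    { toFun := fun x => (x : L)
      map_add' := fun _ _ => rfl
      map_smul' := fun c x => by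
        show ((c • x : ↥F1) : L) = (c : L) * (x : L)
        rfl }
  have hφ : Function.Injective φ := fun x y h => Subtype.ext h
  have hrange : LinearMap.range φ ≤ Submodule.span ↥F1' (s : Set L) := by
    rintro _ ⟨x, rfl⟩
    obtain ⟨c, hc, hx⟩ := hspan (x : L) x.2
    show (x : L) ∈ _
    rw [hx]
    refine Submodule.sum_mem _ fun y hy => ?_
    have : c y * y = (⟨c y, hc y⟩ : ↥F1') • y := rfl
    rw [this]
    exact Submodule.smul_mem _ _ (Submodule.subset_span hy)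
  haveI hfs : Module.Finite ↥F1' (Submodule.span ↥F1' (s : Set L)) :=
    Module.Finite.span_of_finite _ s.finite_toSet
  haveI hfr : Module.Finite ↥F1' (LinearMap.range φ) :=
    Submodule.finiteDimensional_of_le hrange
  have e : ↥F1 ≃ₗ[↥F1'] LinearMap.range φ := LinearEquiv.ofInjective φ hφ
  haveI : Module.Finite ↥F1' ↥F1 := Module.Finite.equiv e.symm
  refine ⟨inferInstance, ?_⟩
  rw [e.finrank_eq]
  calc Module.finrank ↥F1' (LinearMap.range φ)
      ≤ Module.finrank ↥F1' (Submodule.span ↥F1' (s : Set L)) := Submodule.finrank_mono hrange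
    _ ≤ s.card := finrank_span_finset_le_card s
    _ ≤ n := hs

end Fin

section Int

variable {π : L} {F1' F1 : Subfield L} (hF : F1' ≤ F1) {V' : Subring L}

/-- The algebra structure of `F1` over the valuation subring of `F1'`. -/
@[reducible] def S34KEY_algR (hV' : S34C2_Val π F1' V') : Algebra ↥(S34KEY_vs hV') ↥F1 :=
  ((Subfield.inclusion hF).comp (algebraMap ↥(S34KEY_vs hV') ↥F1')).toAlgebra

/-- `R → ↥V'`. -/
def S34KEY_toV (hV' : S34C2_Val π F1' V') : ↥(S34KEY_vs hV') →+* ↥V' where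
  toFun r := ⟨((r : ↥F1') : L), r.2⟩
  map_one' := rfl
  map_mul' _ _ := rfl
  map_zero' := rfl
  map_add' _ _ := rfl

/-- `↥V' → R`. -/
def S34KEY_ofV (hV' : S34C2_Val π F1' V') : ↥V' →+* ↥(S34KEY_vs hV') where
  toFun r := ⟨⟨(r : L), hV'.le r.2⟩, r.2⟩
  map_one' := rfl
  map_mul' _ _ := rfl
  map_zero' := rfl
  map_add' _ _ := rfl

theorem S34KEY_isIntegral_of (hV' : S34C2_Val π F1' V') (v : ↥F1)
    (h : letI := S34KEY_algR hF hV'; IsIntegral ↥(S34KEY_vs hV') v) : IsIntegral ↥V' (v : L) := by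
  letI := S34KEY_algR hF hV'
  obtain ⟨p, hp, hpv⟩ := h
  refine ⟨p.map (S34KEY_toV hV'), hp.map _, ?_⟩
  rw [Polynomial.eval₂_map]
  have h1 := congrArg F1.subtype hpv
  rw [Polynomial.hom_eval₂, map_zero] at h1
  exact h1

theorem S34KEY_isIntegral_to (hV' : S34C2_Val π F1' V') (v : ↥F1)
    (h : IsIntegral ↥V' (v : L)) :
    letI := S34KEY_algR hF hV'; IsIntegral ↥(S34KEY_vs hV') v := by
  letI := S34KEY_algR hF hV'
  obtain ⟨p, hp, hpv⟩ := h
  refine ⟨p.map (S34KEY_ofV hV'), hp.map _, ?_⟩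
  rw [Polynomial.eval₂_map]
  apply F1.subtype_injective
  rw [Polynomial.hom_eval₂, map_zero]
  exact hpv

end Int

section Main

variable {π : L} {F1' F1 : Subfield L} (hF : F1' ≤ F1) {V' : Subring L}

/-- non-units of the base ring are multiples of `π` -/
theorem S34KEY_mem_maximalIdeal (hV' : S34C2_Val π F1' V')
    (hsep : ∀ x ∈ F1', x ≠ 0 → ∃ (z : ℤ) (u : L), u ∈ V' ∧ u⁻¹ ∈ V' ∧ x = π ^ z * u)
    (r : ↥(S34KEY_vs hV')) :
    r ∈ IsLocalRing.maximalIdeal ↥(S34KEY_vs hV') ↔ ∃ v ∈ V', ((r : ↥F1') : L) = π * v := by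
  rw [IsLocalRing.mem_maximalIdeal, mem_nonunits_iff, S34KEY_isUnit_iff]
  constructor
  · intro h
    by_cases h0 : ((r : ↥F1') : L) = 0
    · exact ⟨0, V'.zero_mem, by rw [h0, mul_zero]⟩
    obtain ⟨n, u, hu, hu', hru⟩ := S34KEY_nat_of_mem hV' hsep
      (show ((r : ↥F1') : L) ∈ V' from r.2) h0
    rcases Nat.eq_zero_or_pos n with rfl | hn
    · exfalso
      apply h
      refine ⟨h0, ?_⟩
      rw [hru, pow_zero, one_mul]
      exact hu'
    · obtain ⟨k, rfl⟩ : ∃ k, n = k + 1 := ⟨n - 1, by omega⟩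
      exact ⟨π ^ k * u, V'.mul_mem (V'.pow_mem hV'.π_mem k) hu, by rw [hru]; ring⟩
  · rintro ⟨v, hv, hrv⟩ ⟨h0, h1⟩
    rcases S34KEY_pi_mul_nonunit hV' hv with h | h
    · exact h0 (hrv.trans h)
    · rw [hrv] at h1
      exact h h1

theorem S34KEY_dom (hV' : S34C2_Val π F1' V')
    (hsep : ∀ x ∈ F1', x ≠ 0 → ∃ (z : ℤ) (u : L), u ∈ V' ∧ u⁻¹ ∈ V' ∧ x = π ^ z * u)
    {W : Subring L} (hW : S34C2_Val π F1 W) (hVW : V' ≤ W) :
    letI := S34KEY_algR hF hV'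
    haveI := S34KEY_isDVR hV' hsep
    S34V_Dom ↥(S34KEY_vs hV') (S34KEY_vs hW) := by
  letI := S34KEY_algR hF hV'
  haveI := S34KEY_isDVR hV' hsep
  refine ⟨fun r => hVW r.2, fun r hr => ?_⟩
  rw [S34KEY_mem_maximalIdeal hV' hsep] at hr
  obtain ⟨v, hv, hrv⟩ := hr
  rw [S34KEY_mem_nonunits]
  have : ((algebraMap ↥(S34KEY_vs hV') ↥F1 r : ↥F1) : L) = π * v := hrv
  rw [this]
  exact S34KEY_pi_mul_nonunit hW (hVW hv)

end Main

section Final

variable {π : L} {F1' F1 : Subfield L} {V' V1 V2 : Subring L}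

theorem S34KEY_vs_injective (h1 : S34C2_Val π F1 V1) (h2 : S34C2_Val π F1 V2)
    (h : S34KEY_vs h1 = S34KEY_vs h2) : V1 = V2 := by
  ext x
  constructor
  · intro hx
    have : (⟨x, h1.le hx⟩ : ↥F1) ∈ S34KEY_vs h1 := hx
    rw [h] at this
    exact this
  · intro hx
    have : (⟨x, h2.le hx⟩ : ↥F1) ∈ S34KEY_vs h2 := hx
    rw [← h] at this
    exact this

/-- **P1c-KEY, abstract form.** -/
theorem S34KEY_abs [CharZero L] (hF : F1' ≤ F1)
    (hV' : S34C2_Val π F1' V')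
    (hsep : ∀ x ∈ F1', x ≠ 0 → ∃ (z : ℤ) (u : L), u ∈ V' ∧ u⁻¹ ∈ V' ∧ x = π ^ z * u)
    (h1 : S34C2_Val π F1 V1) (h2 : S34C2_Val π F1 V2) (hV1 : V' ≤ V1) (hV2 : V' ≤ V2)
    (hne : V1 ≠ V2) {q : ℕ} (hq : q.Prime)
    (hdeg : ∃ s : Finset L, s.card ≤ q + 1 ∧ ∀ x ∈ F1, ∃ c : L → L,
      (∀ y, c y ∈ F1') ∧ x = ∑ y ∈ s, c y * y)
    {y x : L} (hy : y ∈ V2) (hx : x ∈ V') (hyx : y ^ q - x = 0 ∨ (y ^ q - x)⁻¹ ∉ V2)
    (hxq : ∀ r ∈ V', ∀ v ∈ V', r ^ q - x ≠ π * v) :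
    (∀ v ∈ (V1 ⊓ V2 : Subring L), IsIntegral V' v) ∧
    (∀ v : L, v ∈ F1 → IsIntegral V' v → v ∈ V1 ∧ v ∈ V2) ∧
    (∀ x ∈ V1, x⁻¹ ∉ V1 → ∃ v ∈ V1, x = π * v) ∧
    (∀ x ∈ V2, x⁻¹ ∉ V2 → ∃ v ∈ V2, x = π * v) ∧
    (∀ W : Subring L, S34C2_Val π F1 W → V' ≤ W → W = V1 ∨ W = V2) ∧
    (∀ x ∈ V1, ∃ r ∈ V', ∃ v ∈ V1, x = r + π * v) := by
  classical
  letI := S34KEY_alg hF
  obtain ⟨hfd, hfr⟩ := S34KEY_finrank_le hF hdeg
  haveI := hfd
  haveI : CharZero ↥F1' := by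
    refine ⟨fun a b hab => ?_⟩
    have := congrArg (fun t : ↥F1' => (t : L)) hab
    simpa using this
  haveI : Algebra.IsSeparable ↥F1' ↥F1 := Algebra.IsAlgebraic.isSeparable_of_perfectField
  haveI := S34KEY_isDVR hV' hsep
  letI := S34KEY_algR hF hV'
  haveI : IsScalarTower ↥(S34KEY_vs hV') ↥F1' ↥F1 := IsScalarTower.of_algebraMap_eq (fun _ => rfl)
  have hd1 := S34KEY_dom hF hV' hsep h1 hV1
  have hd2 := S34KEY_dom hF hV' hsep h2 hV2
  have hne' : S34KEY_vs h1 ≠ S34KEY_vs h2 := fun h => hne (S34KEY_vs_injective h1 h2 h)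
  have hab : Module.finrank ↥F1' ↥F1 ≤ 1 + q := by omega
  -- residue degree of `V2`
  have hb : S34V_ResDegGe ↥(S34KEY_vs hV') (S34KEY_vs h2) q := by
    refine S34V_resDegGe_of_pow (S34KEY_vs h2) hd2 hq (y := ⟨y, h2.le hy⟩) hy
      (x := S34KEY_ofV hV' ⟨x, hx⟩) ?_ ?_
    · rw [S34KEY_mem_nonunits]
      exact hyx
    · intro r hr
      rw [S34KEY_mem_maximalIdeal hV' hsep] at hr
      obtain ⟨v, hv, hrv⟩ := hr
      exact hxq _ r.2 v hv hrv
  have ha : S34V_ResDegGe ↥(S34KEY_vs hV') (S34KEY_vs h1) 1 := by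
    refine ⟨fun _ => 1, fun _ => (S34KEY_vs h1).one_mem, fun c hc i => ?_⟩
    have : i = 0 := Subsingleton.elim _ _
    subst this
    simp only [Finset.univ_unique, Fin.default_eq_zero, Fin.isValue, mul_one,
      Finset.sum_singleton] at hc
    exact S34V_mem_maximalIdeal_of_mem_nonunits (S34KEY_vs h1) hd1 hc
  obtain ⟨hall, hu1, hu2, -, -, hint, -⟩ :=
    S34V_two ↥(S34KEY_vs hV') ↥F1' (S34KEY_vs h1) (S34KEY_vs h2) hd1 hd2 hne' hab ha hb
  have hπirr := S34KEY_pi_irreducible hV' hsep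
  refine ⟨?_, ?_, ?_, ?_, ?_, ?_⟩
  · rintro v ⟨hv1, hv2⟩
    have hvF : v ∈ F1 := h1.le hv1
    exact S34KEY_isIntegral_of hF hV' ⟨v, hvF⟩ ((hint ⟨v, hvF⟩).2 ⟨hv1, hv2⟩)
  · intro v hvF hv
    exact (hint ⟨v, hvF⟩).1 (S34KEY_isIntegral_to hF hV' ⟨v, hvF⟩ hv)
  · intro z hz hz'
    obtain ⟨w, hw, hzw⟩ := hu1 _ hπirr ⟨z, h1.le hz⟩
      ((S34KEY_mem_nonunits h1 _).2 (Or.inr hz'))
    exact ⟨(w : L), hw, congrArg (fun t : ↥F1 => (t : L)) hzw⟩
  · intro z hz hz'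
    obtain ⟨w, hw, hzw⟩ := hu2 _ hπirr ⟨z, h2.le hz⟩
      ((S34KEY_mem_nonunits h2 _).2 (Or.inr hz'))
    exact ⟨(w : L), hw, congrArg (fun t : ↥F1 => (t : L)) hzw⟩
  · intro W hW hVW
    have hdW := S34KEY_dom hF hV' hsep hW hVW
    rcases hall (S34KEY_vs hW) hdW with h | h
    · exact Or.inl (S34KEY_vs_injective hW h1 h)
    · exact Or.inr (S34KEY_vs_injective hW h2 h)
  · intro z hz
    obtain ⟨r, hr⟩ := S34V_two_residue ↥(S34KEY_vs hV') ↥F1' (S34KEY_vs h1) (S34KEY_vs h2)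
      hd1 hd2 hne' hab hb (x := ⟨z, h1.le hz⟩) hz
    obtain ⟨w, hw, hzw⟩ := hu1 _ hπirr _ hr
    refine ⟨((r : ↥F1') : L), r.2, (w : L), hw, ?_⟩
    have := congrArg (fun t : ↥F1 => (t : L)) hzw
    have h3 : z - ((r : ↥F1') : L) = π * (w : L) := this
    linear_combination h3

end Final

end Fermat.Agent.S34_helper13_KEY
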