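import Mathlib
import Fermat.Agent.S34_helper13_VCOUNT
import Fermat.Agent.S34_helper13_KEY

/-!
# S34, piece X-HJQ (generic part): the fundamental identity with one ramified extension

`R` a discrete valuation ring with fraction field `F`, `F'/F` finite separable of degree
`≤ a + 1`, `Wram ≠ W1` valuation subrings of `F'` dominating `R`, and a uniformiser of `R` is
`u t ^ a` with `u ∈ Wram`, `t` a non-unit of `Wram` (so `e(Wram | R) ≥ a`).  Then there is no third
valuation subring of `F'` dominating `R` (`S34HJQ_two`); `S34HJQ_abs` is the same statement in the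
`Subring L` vocabulary of `S34C2_Val`.
-/

set_option autoImplicit false
set_option linter.style.haveILetI false
set_option linter.unusedSectionVars false
set_option linter.unusedVariables false

open IsDedekindDomain IsDedekindDomain.HeightOneSpectrum WithZero Polynomial

namespace Fermat.Agent.S34_helper13_HJQ

open Fermat.Agent.S34_helper13_VCOUNT Fermat.Agent.S34_helper13_KEY
  Fermat.Agent.S34_helper27_C2Defs

section Ram

variable {R : Type*} (S : Type*) {F' : Type*} [CommRing R] [IsDomain R] [IsDiscreteValuationRing R]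
  [CommRing S] [IsDedekindDomain S] [Field F'] [Algebra R F'] [FaithfulSMul R F']
  [Algebra R S] [Algebra S F'] [IsScalarTower R S F'] [IsFractionRing S F']
  [IsIntegralClosure S R F']
  (W : ValuationSubring F')

/-- a uniformiser of `R` which is `u t ^ a` in `W` forces `e(W | R) ≥ a` -/
theorem S34HJQ_le_ramificationIdx [Module.IsTorsionFree R S] (hW : S34V_Dom R W)
    {ϖ : R} (hϖ : Irreducible ϖ) {a : ℕ} {u t : F'} (hu : u ∈ W) (ht : t ∈ W.nonunits)
    (h : algebraMap R F' ϖ = u * t ^ a) :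
    a ≤ (S34V_hos S W hW).asIdeal.ramificationIdx R := by
  set P := S34V_hos S W hW with hP
  haveI : Algebra.IsIntegral R S := IsIntegralClosure.isIntegral_algebra R F'
  haveI := S34V_liesOver (R := R) P
  haveI : P.asIdeal.LiesOver (S34V_hosR R).asIdeal := ‹_›
  have h1 := intValuation_liesOver (S34V_hosR R) P ϖ
  have h2 : (S34V_hosR R).intValuation ϖ = exp (-1 : ℤ) :=
    intValuation_singleton _ hϖ.ne_zero (by
      show IsLocalRing.maximalIdeal R = _
      rw [hϖ.maximalIdeal_eq])
  have h3 : (S34V_hosR R).asIdeal.ramificationIdx' P.asIdeal = P.asIdeal.ramificationIdx R :=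
    Ideal.ramificationIdx'_eq_ramificationIdx _ _ (S34V_hosR R).ne_bot
  rw [h3, h2] at h1
  have h4 : P.valuation F' (algebraMap R F' ϖ) =
      exp (-1 : ℤ) ^ (P.asIdeal.ramificationIdx R) := by
    rw [IsScalarTower.algebraMap_apply R S F', valuation_of_algebraMap]
    exact h1.symm
  have h5 : P.valuation F' t < 1 := (S34V_mem_nonunits_iff S W hW t).1 ht
  have h6 : P.valuation F' t ≤ exp (-1 : ℤ) := by
    rw [← lt_mul_exp_iff_le (by simp)]
    rw [← exp_add]
    simpa using h5
  have h7 : P.valuation F' u ≤ 1 := (S34V_mem_iff S W hW u).1 hu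
  have h8 : P.valuation F' (algebraMap R F' ϖ) ≤ exp (-1 : ℤ) ^ a := by
    rw [h, map_mul, map_pow]
    calc P.valuation F' u * P.valuation F' t ^ a ≤ 1 * exp (-1 : ℤ) ^ a :=
          mul_le_mul' h7 (pow_le_pow_left₀ zero_le h6 a)
      _ = exp (-1 : ℤ) ^ a := one_mul _
  rw [h4] at h8
  by_contra hcon
  rw [not_le] at hcon
  have h9 : exp (-1 : ℤ) ^ a < exp (-1 : ℤ) ^ (P.asIdeal.ramificationIdx R) := by
    apply pow_lt_pow_right_of_lt_one₀ _ _ hcon
    · simp
    · rw [← exp_zero]
      exact exp_lt_exp.2 (by norm_num)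
  exact absurd h8 (not_le.2 h9)

end Ram

section Count

variable {R : Type*} (S : Type*) {F' : Type*} [CommRing R] [IsDomain R] [IsDiscreteValuationRing R]
  [CommRing S] [IsDedekindDomain S] [Field F'] [Algebra R F'] [FaithfulSMul R F']
  [Algebra R S] [Algebra S F'] [IsScalarTower R S F'] [IsFractionRing S F']
  [IsIntegralClosure S R F'] [Module.Finite R S] [Module.Flat R S]

omit [Field F'] [Algebra R F'] [FaithfulSMul R F'] [Algebra S F'] [IsScalarTower R S F']
  [IsFractionRing S F'] [IsIntegralClosure S R F'] in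
/-- Arithmetic core: two distinct primes, one with `a ≤ e`, and `n ≤ a + 1`. -/
theorem S34HJQ_count_core [Algebra.IsIntegral R S] (P Q : HeightOneSpectrum S) (hPQ : P ≠ Q)
    {a : ℕ} (hab : Module.finrank R S ≤ a + 1)
    (ha : a ≤ P.asIdeal.ramificationIdx R) :
    ∀ T : HeightOneSpectrum S, T = P ∨ T = Q := by
  classical
  letI : Fintype ((IsLocalRing.maximalIdeal R).primesOver S) :=
    (Algebra.QuasiFinite.finite_primesOver _).fintype
  have hsum := Ideal.sum_ramification_inertia_eq_finrank (IsLocalRing.maximalIdeal R) S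
  set t : (IsLocalRing.maximalIdeal R).primesOver S → ℕ :=
    fun q => q.1.ramificationIdx R * q.1.inertiaDeg R with ht
  have hpos : ∀ q : (IsLocalRing.maximalIdeal R).primesOver S, 1 ≤ t q := by
    intro q
    haveI := q.2.1
    have h1 : 0 < q.1.ramificationIdx R := Ideal.ramificationIdx_pos q.1 R
    have h2 : 0 < q.1.inertiaDeg R := Ideal.inertiaDeg_pos q.1 R
    exact Nat.mul_pos h1 h2
  set qP := S34V_toPrimesOver (R := R) S P with hqP
  set qQ := S34V_toPrimesOver (R := R) S Q with hqQ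
  have hne : qP ≠ qQ := fun h => hPQ (S34V_toPrimesOver_injective S h)
  have hfP : 0 < P.asIdeal.inertiaDeg R := Ideal.inertiaDeg_pos P.asIdeal R
  have h2 : t qP + t qQ + ∑ q ∈ (Finset.univ.erase qP).erase qQ, t q = Module.finrank R S := by
    rw [← hsum, ← Finset.add_sum_erase Finset.univ t (Finset.mem_univ qP),
      ← Finset.add_sum_erase (Finset.univ.erase qP) t
        (Finset.mem_erase.2 ⟨hne.symm, Finset.mem_univ qQ⟩), add_assoc]
  have htP : t qP = P.asIdeal.ramificationIdx R * P.asIdeal.inertiaDeg R := rfl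
  have h3 : P.asIdeal.ramificationIdx R ≤ t qP := by
    rw [htP]; exact Nat.le_mul_of_pos_right _ hfP
  have h4 : 1 ≤ t qQ := hpos qQ
  have h5 : ∑ q ∈ (Finset.univ.erase qP).erase qQ, t q = 0 := by omega
  intro T
  by_contra hT
  rw [not_or] at hT
  have hT1 : S34V_toPrimesOver (R := R) S T ∈ (Finset.univ.erase qP).erase qQ := by
    refine Finset.mem_erase.2 ⟨fun h => hT.2 (S34V_toPrimesOver_injective S h),
      Finset.mem_erase.2 ⟨fun h => hT.1 (S34V_toPrimesOver_injective S h), Finset.mem_univ _⟩⟩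
  have := Finset.single_le_sum (f := t) (fun _ _ => Nat.zero_le _) hT1
  have := hpos (S34V_toPrimesOver (R := R) S T)
  omega

end Count

section Two

variable (R F : Type*) {F' : Type*} [CommRing R] [IsDomain R] [IsDiscreteValuationRing R]
  [Field F] [Field F'] [Algebra R F] [IsFractionRing R F] [Algebra F F'] [Algebra R F']
  [IsScalarTower R F F'] [FiniteDimensional F F'] [Algebra.IsSeparable F F']

include F in
/-- **The fundamental identity with one ramified extension.** -/
theorem S34HJQ_two (Wram W1 : ValuationSubring F') (hram : S34V_Dom R Wram)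
    (h1 : S34V_Dom R W1) (hne : Wram ≠ W1) {a : ℕ} (hab : Module.finrank F F' ≤ a + 1)
    {ϖ : R} (hϖ : Irreducible ϖ) {u t : F'} (hu : u ∈ Wram) (ht : t ∈ Wram.nonunits)
    (h : algebraMap R F' ϖ = u * t ^ a) :
    ∀ W : ValuationSubring F', S34V_Dom R W → W = Wram ∨ W = W1 := by
  haveI := S34V_isDedekind R F F'
  haveI := S34V_isFrac R F F'
  haveI := S34V_faithful R F F'
  haveI := S34V_finite R F F'
  haveI := S34V_torsionFree R F F'
  haveI := S34V_flat R F F'
  haveI : Algebra.IsIntegral R (S34V_S R F') := IsIntegralClosure.isIntegral_algebra R F'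
  have hn : Module.finrank R (S34V_S R F') = Module.finrank F F' :=
    (IsFractionRing.finrank_eq R F (S34V_S R F') F').symm
  set P := S34V_hos (S34V_S R F') Wram hram with hP
  set Q := S34V_hos (S34V_S R F') W1 h1 with hQ
  have hPQ : P ≠ Q := fun h => hne (S34V_hos_injective (S34V_S R F') hram h1 h)
  have haP := S34HJQ_le_ramificationIdx (S34V_S R F') Wram hram hϖ hu ht h
  have hall := S34HJQ_count_core (R := R) (S34V_S R F') P Q hPQ (hn ▸ hab) haP
  intro W hW
  rcases hall (S34V_hos (S34V_S R F') W hW) with h | h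
  · exact Or.inl (S34V_hos_injective (S34V_S R F') hW hram h)
  · exact Or.inr (S34V_hos_injective (S34V_S R F') hW h1 h)

end Two

section Abs

variable {L : Type*} [Field L] {π : L} {F1' F1 : Subfield L} {V' Vram V1 : Subring L}

/-- **X-HJQ, abstract form**: no third valuation ring of `F1` over the discrete valuation ring
`V'` of `F1'`, when `[F1 : F1'] ≤ a + 1` and `π = u t ^ a` in `Vram`. -/
theorem S34HJQ_abs [CharZero L] (hF : F1' ≤ F1)
    (hV' : S34C2_Val π F1' V')
    (hsep : ∀ x ∈ F1', x ≠ 0 → ∃ (z : ℤ) (u : L), u ∈ V' ∧ u⁻¹ ∈ V' ∧ x = π ^ z * u)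
    (hram : S34C2_Val π F1 Vram) (h1 : S34C2_Val π F1 V1) (hVram : V' ≤ Vram) (hV1 : V' ≤ V1)
    (hne : Vram ≠ V1) {a : ℕ}
    (hdeg : ∃ s : Finset L, s.card ≤ a + 1 ∧ ∀ x ∈ F1, ∃ c : L → L,
      (∀ y, c y ∈ F1') ∧ x = ∑ y ∈ s, c y * y)
    {u t : L} (hu : u ∈ Vram) (ht : t ∈ Vram) (ht' : t⁻¹ ∉ Vram) (hπ : π = u * t ^ a) :
    ∀ W : Subring L, S34C2_Val π F1 W → V' ≤ W → W = Vram ∨ W = V1 := by
  classical
  letI := S34KEY_alg hF
  obtain ⟨hfd, hfr⟩ := S34KEY_finrank_le hF hdeg
  haveI := hfd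
  haveI : CharZero ↥F1' := by
    refine ⟨fun a b hab => ?_⟩
    have := congrArg (fun t : ↥F1' => (t : L)) hab
    simpa using this
  haveI : Algebra.IsSeparable ↥F1' ↥F1 := Algebra.IsAlgebraic.isSeparable_of_perfectField
  haveI := S34KEY_isDVR hV' hsep
  letI := S34KEY_algR hF hV'
  haveI : IsScalarTower ↥(S34KEY_vs hV') ↥F1' ↥F1 := IsScalarTower.of_algebraMap_eq (fun _ => rfl)
  have hdr := S34KEY_dom hF hV' hsep hram hVram
  have hd1 := S34KEY_dom hF hV' hsep h1 hV1
  have hne' : S34KEY_vs hram ≠ S34KEY_vs h1 := fun h => hne (S34KEY_vs_injective hram h1 h)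
  have hπirr := S34KEY_pi_irreducible hV' hsep
  have hall := S34HJQ_two ↥(S34KEY_vs hV') ↥F1' (S34KEY_vs hram) (S34KEY_vs h1) hdr hd1 hne' hfr
    hπirr (u := ⟨u, hram.le hu⟩) (t := ⟨t, hram.le ht⟩) hu
    ((S34KEY_mem_nonunits hram _).2 (Or.inr ht')) (Subtype.ext hπ)
  intro W hW hVW
  have hdW := S34KEY_dom hF hV' hsep hW hVW
  rcases hall (S34KEY_vs hW) hdW with h | h
  · exact Or.inl (S34KEY_vs_injective hW hram h)
  · exact Or.inr (S34KEY_vs_injective hW h1 h)

end Abs

end Fermat.Agent.S34_helper13_HJQ
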