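import Fermat.Agent.S34_helper13_HJQ
import Fermat.Agent.S34_helper20_V0
import Fermat.Agent.S34_helper15_DEG
import Fermat.Agent.S18_helper25_CORE

/-!
# S34, piece X-HJQ (helper13): `θ = j(q^q)` is integral over `K1[j]` - valuation-theoretic form

`F = K1(j, θ)` (level `q`), `E = K1(j)`.  The two cusps `W_∞ = {ord_q ≥ 0}` and `W_0 = w(W_∞)` are
the only valuation rings of `F` containing `K1` in which `j⁻¹` is a non-unit
(`S34HJQ_two_cusps`: `e(W_0) ≥ q`, `[F : E] ≤ q + 1`), and `θ` lies in neither.  Hence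

* `S34HJQ_val`  : a valuation ring of `F` containing `K1` and `j` contains `θ`;
* `S34HJQ_val'` : a valuation ring of `F` containing `K1` and `θ` contains `j`.
-/

set_option autoImplicit false
set_option linter.style.haveILetI false
set_option linter.unusedSectionVars false
set_option linter.unusedVariables false

open ModularCurve Polynomial
open Fermat.Agent.S34_helper13_VCOUNT Fermat.Agent.S34_helper13_HJQ
  Fermat.Agent.S34_helper20_V0 Fermat.Agent.S34_helper15_DEG
  Fermat.Agent.S18_helper25_COREA Fermat.Agent.S18_helper25_CORE Fermat.Agent.S24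

noncomputable section

namespace Fermat.Agent.S34_helper13_HJQK

/-! ### Rational functions in a pole of a valuation -/

section RatFun

variable {K F Γ₀ : Type*} [Field K] [Field F] [Algebra K F]
  [LinearOrderedCommGroupWithZero Γ₀]

theorem S34HJQ_val_const (v : Valuation F Γ₀) (hc : ∀ c : K, v (algebraMap K F c) ≤ 1)
    {c : K} (h0 : c ≠ 0) : v (algebraMap K F c) = 1 := by
  apply le_antisymm (hc c)
  have h1 := hc c⁻¹
  rw [map_inv₀, map_inv₀] at h1
  have hx : v (algebraMap K F c) ≠ 0 := by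
    rw [Valuation.ne_zero_iff]
    intro h
    exact h0 ((algebraMap K F).injective (by rw [h, map_zero]))
  exact (inv_le_one₀ (zero_lt_iff.2 hx)).1 h1

/-- the leading term dominates at a pole -/
theorem S34HJQ_val_aeval (v : Valuation F Γ₀) (hc : ∀ c : K, v (algebraMap K F c) ≤ 1)
    {j : F} (hj : 1 < v j) (r : K[X]) (hr : r ≠ 0) :
    v (aeval j r) = v j ^ r.natDegree := by
  rw [aeval_eq_sum_range, Finset.sum_range_succ]
  have hlead : v (r.coeff r.natDegree • j ^ r.natDegree) = v j ^ r.natDegree := by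
    have hl : r.coeff r.natDegree ≠ 0 := leadingCoeff_ne_zero.2 hr
    rw [Algebra.smul_def, map_mul, map_pow, S34HJQ_val_const v hc hl, one_mul]
  have hj0 : v j ≠ 0 := ne_of_gt (lt_trans zero_lt_one hj)
  have hlow : v (∑ i ∈ Finset.range r.natDegree, r.coeff i • j ^ i) < v j ^ r.natDegree := by
    apply Valuation.map_sum_lt v (pow_ne_zero _ hj0)
    intro i hi
    rw [Algebra.smul_def, map_mul, map_pow]
    calc v (algebraMap K F (r.coeff i)) * v j ^ i ≤ 1 * v j ^ i :=
          mul_le_mul_left (hc _) _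
      _ = v j ^ i := one_mul _
      _ < v j ^ r.natDegree := pow_lt_pow_right₀ hj (Finset.mem_range.1 hi)
  rw [Valuation.map_add_eq_of_lt_right v (by rw [hlead]; exact hlow), hlead]

/-- membership of a rational function of `j` in a valuation ring with a pole at `j` -/
theorem S34HJQ_ratfun_mem_iff (W : ValuationSubring F) (hc : ∀ c : K, algebraMap K F c ∈ W)
    {j : F} (hj : j ∉ W) (p s : K[X]) (hp : p ≠ 0) (hs : s ≠ 0) :
    aeval j p / aeval j s ∈ W ↔ p.natDegree ≤ s.natDegree := by
  have hc' : ∀ c : K, W.valuation (algebraMap K F c) ≤ 1 := fun c =>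
    (W.valuation_le_one_iff _).2 (hc c)
  have hj' : 1 < W.valuation j := by
    rw [← not_le, W.valuation_le_one_iff]
    exact hj
  have hj0 : W.valuation j ≠ 0 := ne_of_gt (lt_trans zero_lt_one hj')
  rw [← W.valuation_le_one_iff, map_div₀, S34HJQ_val_aeval _ hc' hj' p hp,
    S34HJQ_val_aeval _ hc' hj' s hs,
    div_le_one₀ (pow_pos (zero_lt_iff.2 hj0) _)]
  exact pow_le_pow_iff_right₀ hj'

/-- two valuation rings with a pole at `j` cut out the same subring of `K(j)` -/
theorem S34HJQ_ratfun_mem_congr (W W' : ValuationSubring F)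
    (hc : ∀ c : K, algebraMap K F c ∈ W) (hc' : ∀ c : K, algebraMap K F c ∈ W')
    {j : F} (hj : j ∉ W) (hj' : j ∉ W') (p s : K[X]) :
    aeval j p / aeval j s ∈ W ↔ aeval j p / aeval j s ∈ W' := by
  by_cases hp : p = 0
  · rw [hp, map_zero, zero_div]
    exact ⟨fun _ => W'.zero_mem, fun _ => W.zero_mem⟩
  by_cases hs : s = 0
  · rw [hs, map_zero, div_zero]
    exact ⟨fun _ => W'.zero_mem, fun _ => W.zero_mem⟩
  rw [S34HJQ_ratfun_mem_iff W hc hj p s hp hs, S34HJQ_ratfun_mem_iff W' hc' hj' p s hp hs]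

end RatFun

/-! ### Orders -/

section Order

variable {K1 : Type*} [Field K1]

theorem S34HJQ_order_j : (jqModC K1).order = -1 := by
  have h1 : ((jqModC K1)⁻¹ : LaurentSeries K1).order = 1 := S18K_order_jqModC_inv
  rw [S18K_order_inv] at h1
  omega

theorem S34HJQ_j_ne_zero : jqModC K1 ≠ 0 := by
  intro h
  have := S34HJQ_order_j (K1 := K1)
  rw [h, HahnSeries.order_zero] at this
  omega

theorem S34HJQ_order_qExpand (n : ℕ) [NeZero n] (x : LaurentSeries K1) :
    (qExpand K1 n x).order = (n : ℤ) * x.order := by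
  by_cases hx : x = 0
  · rw [hx, map_zero, HahnSeries.order_zero, mul_zero]
  have hn : (0 : ℤ) < n := by exact_mod_cast Nat.pos_of_ne_zero (NeZero.ne n)
  have hqx : qExpand K1 n x ≠ 0 := fun h => hx (qExpand_injective n (by rw [h, map_zero]))
  apply le_antisymm
  · apply HahnSeries.order_le_of_coeff_ne_zero
    rw [qExpand_coeff_mul]
    exact HahnSeries.coeff_order_eq_zero.not.mpr hx
  · by_contra hlt
    rw [not_le] at hlt
    apply HahnSeries.coeff_order_eq_zero.not.mpr hqx
    by_cases hdvd : (n : ℤ) ∣ (qExpand K1 n x).order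
    · obtain ⟨k, hk⟩ := hdvd
      rw [hk, qExpand_coeff_mul]
      apply HahnSeries.coeff_eq_zero_of_lt_order
      rw [hk] at hlt
      exact lt_of_mul_lt_mul_left hlt hn.le
    · exact qExpand_coeff_of_not_dvd n x hdvd

theorem S34HJQ_order_th (q : ℕ) [NeZero q] : (qExpand K1 q (jqModC K1)).order = -(q : ℤ) := by
  rw [S34HJQ_order_qExpand, S34HJQ_order_j]
  ring

theorem S34HJQ_th_ne_zero (q : ℕ) [NeZero q] : qExpand K1 q (jqModC K1) ≠ 0 :=
  fun h => S34HJQ_j_ne_zero (qExpand_injective q (by rw [h, map_zero]))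

/-- level one is `K1(j)` -/
theorem S34HJQ_level_one : modularFunctionFieldFullC K1 1 =
    IntermediateField.adjoin K1 {jqModC K1} := by
  have : divisorExpansionsC K1 1 = {jqModC K1} := by
    ext x
    constructor
    · rintro ⟨d, hd, hd1, rfl⟩
      have : d = 1 := Nat.dvd_one.1 hd1
      subst this
      rw [Set.mem_singleton_iff, qExpand_one_apply]
    · intro hx
      rw [Set.mem_singleton_iff] at hx
      exact ⟨1, inferInstance, dvd_refl 1, by rw [hx, qExpand_one_apply]⟩
  rw [modularFunctionFieldFullC, this]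

end Order

/-! ### The two cusps of `X_0(q)` -/

section Concrete

variable (K1 : Type*) [Field K1] [CharZero K1] (emb : K1 →+* Kbar) (q : ℕ) [NeZero q]
  [NeZero (1 * q)] (hq : q.Prime)

/-- `j ∈ F` -/
def S34HJQ_j : modularFunctionFieldFullC K1 (1 * q) := ⟨jqModC K1, jqModC_mem_full K1 _⟩

/-- `θ ∈ F` -/
def S34HJQ_th : modularFunctionFieldFullC K1 (1 * q) :=
  ⟨qExpand K1 q (jqModC K1), jqModCd_mem_full K1 _ (Dvd.intro_left 1 rfl)⟩

variable {K1}

/-- the Atkin–Lehner involution of `F` -/
def S34HJQ_w : modularFunctionFieldFullC K1 (1 * q) ≃ₐ[K1] modularFunctionFieldFullC K1 (1 * q) :=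
  S34V0_w emb q 1 (1 * q) hq hq.not_dvd_one (by ring)

theorem S34HJQ_w_j : S34HJQ_w emb q hq (S34HJQ_j K1 q) = S34HJQ_th K1 q := by
  apply Subtype.ext
  have h := S34V0_wL_j emb q 1 (1 * q) hq hq.not_dvd_one (by ring) (K1 := K1)
  rw [S34V0_wL_of_mem emb q 1 (1 * q) hq hq.not_dvd_one (by ring) (jqModC_mem_full K1 _)] at h
  exact h

theorem S34HJQ_w_w (x : modularFunctionFieldFullC K1 (1 * q)) :
    S34HJQ_w emb q hq (S34HJQ_w emb q hq x) = x :=
  S34V0_w_w emb q 1 (1 * q) hq hq.not_dvd_one (by ring) x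

theorem S34HJQ_w_th : S34HJQ_w emb q hq (S34HJQ_th K1 q) = S34HJQ_j K1 q := by
  rw [← S34HJQ_w_j emb q hq, S34HJQ_w_w]

theorem S34HJQ_w_level (x : modularFunctionFieldFullC K1 (1 * q))
    (hx : (x : LaurentSeries K1) ∈ modularFunctionFieldFullC K1 1) :
    ((S34HJQ_w emb q hq x : modularFunctionFieldFullC K1 (1 * q)) : LaurentSeries K1) =
      qExpand K1 q (x : LaurentSeries K1) :=
  S34V0_w_level emb q 1 (1 * q) hq hq.not_dvd_one (by ring) x hx

variable (K1) in
/-- the cusp `∞` -/
def S34HJQ_Woo : ValuationSubring (modularFunctionFieldFullC K1 (1 * q)) :=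
  S18K_cuspVS (modularFunctionFieldFullC K1 (1 * q))

/-- the cusp `0` -/
def S34HJQ_W0 : ValuationSubring (modularFunctionFieldFullC K1 (1 * q)) :=
  (S18K_cuspVS (modularFunctionFieldFullC K1 (1 * q))).comap
    ((S34HJQ_w emb q hq).toRingEquiv.toRingHom)

theorem S34HJQ_mem_Woo (x : modularFunctionFieldFullC K1 (1 * q)) :
    x ∈ S34HJQ_Woo K1 q ↔ 0 ≤ (x : LaurentSeries K1).order := Iff.rfl

theorem S34HJQ_mem_W0 (x : modularFunctionFieldFullC K1 (1 * q)) :
    x ∈ S34HJQ_W0 emb q hq ↔
      0 ≤ ((S34HJQ_w emb q hq x : modularFunctionFieldFullC K1 (1 * q)) :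
        LaurentSeries K1).order := Iff.rfl

theorem S34HJQ_th_notMem_Woo : S34HJQ_th K1 q ∉ S34HJQ_Woo K1 q := by
  rw [S34HJQ_mem_Woo]
  show ¬ 0 ≤ (qExpand K1 q (jqModC K1)).order
  rw [S34HJQ_order_th]
  have : (0 : ℤ) < q := by exact_mod_cast Nat.pos_of_ne_zero (NeZero.ne q)
  omega

theorem S34HJQ_th_notMem_W0 : S34HJQ_th K1 q ∉ S34HJQ_W0 emb q hq := by
  rw [S34HJQ_mem_W0, S34HJQ_w_th]
  show ¬ 0 ≤ (jqModC K1).order
  rw [S34HJQ_order_j]
  omega

/-- elements of `E = K1(j)` as rational functions of `j ∈ F` -/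
theorem S34HJQ_exists_ratfun (x : modularFunctionFieldFullC K1 (1 * q))
    (hx : (x : LaurentSeries K1) ∈ modularFunctionFieldFullC K1 1) :
    ∃ p s : K1[X], x = aeval (S34HJQ_j K1 q) p / aeval (S34HJQ_j K1 q) s := by
  rw [S34HJQ_level_one, IntermediateField.mem_adjoin_simple_iff] at hx
  obtain ⟨p, s, hps⟩ := hx
  refine ⟨p, s, ?_⟩
  apply Subtype.ext
  rw [hps]
  have h1 : ∀ r : K1[X], (((aeval (S34HJQ_j K1 q) r : modularFunctionFieldFullC K1 (1 * q))) :
      LaurentSeries K1) = aeval (jqModC K1) r := by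
    intro r
    have := Polynomial.aeval_algHom_apply (modularFunctionFieldFullC K1 (1 * q)).val
      (S34HJQ_j K1 q) r
    exact this.symm
  show _ = (((aeval (S34HJQ_j K1 q) p / aeval (S34HJQ_j K1 q) s :
    modularFunctionFieldFullC K1 (1 * q))) : LaurentSeries K1)
  rw [IntermediateField.coe_div, h1, h1]

set_option maxHeartbeats 1600000 in
set_option synthInstance.maxHeartbeats 400000 in
/-- **The two cusps**: a valuation ring of `F = K1(j, θ)` containing `K1` and not `j` is the
cusp `0` or the cusp `∞`. -/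
theorem S34HJQ_two_cusps (W : ValuationSubring (modularFunctionFieldFullC K1 (1 * q)))
    (hc : ∀ c : K1, algebraMap K1 (modularFunctionFieldFullC K1 (1 * q)) c ∈ W)
    (hj : S34HJQ_j K1 q ∉ W) :
    W = S34HJQ_W0 emb q hq ∨ W = S34HJQ_Woo K1 q := by
  classical
  letI := S34DEG_algebra K1 1 q
  haveI := S34DEG_finiteDimensional K1 1 q
  haveI := S34DEG_isSeparable K1 1 q
  haveI := S34DEG_isScalarTower K1 1 q
  have hq0 : (0 : ℤ) < q := by exact_mod_cast hq.pos
  have hq2 : (2 : ℤ) ≤ q := by exact_mod_cast hq.two_le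
  -- the base discrete valuation ring
  let t : modularFunctionFieldFullC K1 1 := ⟨(jqModC K1)⁻¹, inv_mem (jqModC_mem_full K1 1)⟩
  have ht : (t : LaurentSeries K1).order = 1 := S18K_order_jqModC_inv
  haveI : IsDiscreteValuationRing (S18K_cuspVS (modularFunctionFieldFullC K1 1)) :=
    S18K_cuspVS_isDVR t ht
  letI algR : Algebra (S18K_cuspVS (modularFunctionFieldFullC K1 1))
      (modularFunctionFieldFullC K1 (1 * q)) :=
    ((algebraMap (modularFunctionFieldFullC K1 1) (modularFunctionFieldFullC K1 (1 * q))).comp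
      (algebraMap (S18K_cuspVS (modularFunctionFieldFullC K1 1))
        (modularFunctionFieldFullC K1 1))).toAlgebra
  haveI : IsScalarTower (S18K_cuspVS (modularFunctionFieldFullC K1 1))
      (modularFunctionFieldFullC K1 1) (modularFunctionFieldFullC K1 (1 * q)) :=
    IsScalarTower.of_algebraMap_eq (fun _ => rfl)
  have hcoe : ∀ x : modularFunctionFieldFullC K1 1,
      ((algebraMap (modularFunctionFieldFullC K1 1) (modularFunctionFieldFullC K1 (1 * q)) x :
        modularFunctionFieldFullC K1 (1 * q)) : LaurentSeries K1) = (x : LaurentSeries K1) :=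
    fun x => S34DEG_algebraMap_coe K1 1 q x
  have hcoeE : ∀ x : modularFunctionFieldFullC K1 1,
      ((algebraMap (modularFunctionFieldFullC K1 1) (modularFunctionFieldFullC K1 (1 * q)) x :
        modularFunctionFieldFullC K1 (1 * q)) : LaurentSeries K1) ∈
        modularFunctionFieldFullC K1 1 := fun x => by rw [hcoe]; exact x.2
  -- non-units of the base
  have hmax : ∀ r : S18K_cuspVS (modularFunctionFieldFullC K1 1),
      r ∈ IsLocalRing.maximalIdeal (S18K_cuspVS (modularFunctionFieldFullC K1 1)) →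
      r = 0 ∨ 0 < ((r : modularFunctionFieldFullC K1 1) : LaurentSeries K1).order := by
    intro r hr
    by_cases h0 : r = 0
    · exact Or.inl h0
    right
    have h1 : 0 ≤ ((r : modularFunctionFieldFullC K1 1) : LaurentSeries K1).order := r.2
    rcases h1.lt_or_eq with h | h
    · exact h
    · exfalso
      rw [IsLocalRing.mem_maximalIdeal, mem_nonunits_iff] at hr
      exact hr (S18K_isUnit_cuspVS _ r h.symm h0)
  -- criterion for domination
  have hdom : ∀ W' : ValuationSubring (modularFunctionFieldFullC K1 (1 * q)),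
      (∀ x : modularFunctionFieldFullC K1 1, 0 ≤ (x : LaurentSeries K1).order →
        algebraMap (modularFunctionFieldFullC K1 1) (modularFunctionFieldFullC K1 (1 * q)) x
          ∈ W') →
      (∀ x : modularFunctionFieldFullC K1 1, 0 < (x : LaurentSeries K1).order →
        (algebraMap (modularFunctionFieldFullC K1 1) (modularFunctionFieldFullC K1 (1 * q)) x)⁻¹
          ∉ W') →
      S34V_Dom (S18K_cuspVS (modularFunctionFieldFullC K1 1)) W' := by
    intro W' h1 h2
    refine ⟨fun r => h1 (r : modularFunctionFieldFullC K1 1) r.2, fun r hr => ?_⟩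
    rw [ValuationSubring.mem_nonunits_iff_or]
    rcases hmax r hr with h | h
    · left; rw [h, map_zero]
    · right; exact h2 (r : modularFunctionFieldFullC K1 1) h
  -- the cusp `∞`
  have hdoo : S34V_Dom (S18K_cuspVS (modularFunctionFieldFullC K1 1)) (S34HJQ_Woo K1 q) := by
    apply hdom
    · intro x hx
      rw [S34HJQ_mem_Woo, hcoe]
      exact hx
    · intro x hx
      rw [S34HJQ_mem_Woo, IntermediateField.coe_inv, S18K_order_inv, hcoe]
      omega
  -- the cusp `0`
  have hd0 : S34V_Dom (S18K_cuspVS (modularFunctionFieldFullC K1 1)) (S34HJQ_W0 emb q hq) := by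
    apply hdom
    · intro x hx
      rw [S34HJQ_mem_W0, S34HJQ_w_level emb q hq _ (hcoeE x), S34HJQ_order_qExpand, hcoe]
      positivity
    · intro x hx
      rw [S34HJQ_mem_W0, map_inv₀, IntermediateField.coe_inv, S18K_order_inv,
        S34HJQ_w_level emb q hq _ (hcoeE x), S34HJQ_order_qExpand, hcoe]
      have : 0 < (q : ℤ) * (x : LaurentSeries K1).order := mul_pos hq0 hx
      omega
  -- an arbitrary `W` with a pole at `j`
  have hjoo : S34HJQ_j K1 q ∉ S34HJQ_Woo K1 q := by
    rw [S34HJQ_mem_Woo]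
    show ¬ 0 ≤ (jqModC K1).order
    rw [S34HJQ_order_j]
    omega
  have hcoo : ∀ c : K1, algebraMap K1 (modularFunctionFieldFullC K1 (1 * q)) c ∈
      S34HJQ_Woo K1 q := by
    intro c
    rw [S34HJQ_mem_Woo]
    show 0 ≤ (algebraMap K1 (LaurentSeries K1) c).order
    rw [algebraMap_laurentSeries_eq_single, ← HahnSeries.C_apply, HahnSeries.order_C]
  have hdW : S34V_Dom (S18K_cuspVS (modularFunctionFieldFullC K1 1)) W := by
    apply hdom
    · intro x hx
      obtain ⟨p, s, hps⟩ := S34HJQ_exists_ratfun q _ (hcoeE x)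
      rw [hps, S34HJQ_ratfun_mem_congr W (S34HJQ_Woo K1 q) hc hcoo hj hjoo p s, ← hps]
      exact hdoo.1 ⟨x, hx⟩
    · intro x hx
      obtain ⟨p, s, hps⟩ := S34HJQ_exists_ratfun q _ (hcoeE x)
      rw [hps, inv_div, S34HJQ_ratfun_mem_congr W (S34HJQ_Woo K1 q) hc hcoo hj hjoo s p,
        ← inv_div, ← hps, S34HJQ_mem_Woo, IntermediateField.coe_inv, S18K_order_inv, hcoe]
      omega
  -- the uniformiser
  have htm : t ∈ S18K_cuspVS (modularFunctionFieldFullC K1 1) := by
    rw [S18K_mem_cuspVS, ht]; exact zero_le_one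
  have hϖ : Irreducible (⟨t, htm⟩ : S18K_cuspVS (modularFunctionFieldFullC K1 1)) := by
    refine ⟨fun hu => ?_, fun a b hab => ?_⟩
    · have := S18K_order_of_isUnit_cuspVS _ _ hu
      rw [ht] at this
      exact one_ne_zero this
    · have hab' : (t : LaurentSeries K1) =
          ((a : modularFunctionFieldFullC K1 1) : LaurentSeries K1) *
            ((b : modularFunctionFieldFullC K1 1) : LaurentSeries K1) := by
        have := congrArg (fun x : S18K_cuspVS (modularFunctionFieldFullC K1 1) =>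
          ((x : modularFunctionFieldFullC K1 1) : LaurentSeries K1)) hab
        simpa using this
      have ht0 : (t : LaurentSeries K1) ≠ 0 := by
        intro h
        rw [h, HahnSeries.order_zero] at ht
        exact zero_ne_one ht
      have ha0 : ((a : modularFunctionFieldFullC K1 1) : LaurentSeries K1) ≠ 0 := by
        intro h; rw [h, zero_mul] at hab'; exact ht0 hab'
      have hb0 : ((b : modularFunctionFieldFullC K1 1) : LaurentSeries K1) ≠ 0 := by
        intro h; rw [h, mul_zero] at hab'; exact ht0 hab'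
      have hord := HahnSeries.order_mul ha0 hb0
      rw [← hab', ht] at hord
      have ha1 : 0 ≤ ((a : modularFunctionFieldFullC K1 1) : LaurentSeries K1).order := a.2
      have hb1 : 0 ≤ ((b : modularFunctionFieldFullC K1 1) : LaurentSeries K1).order := b.2
      have hcases : ((a : modularFunctionFieldFullC K1 1) : LaurentSeries K1).order = 0 ∨
          ((b : modularFunctionFieldFullC K1 1) : LaurentSeries K1).order = 0 := by omega
      rcases hcases with h | h
      · left
        exact S18K_isUnit_cuspVS _ a h (fun h0 => ha0 (by rw [h0]; rfl))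
      · right
        exact S18K_isUnit_cuspVS _ b h (fun h0 => hb0 (by rw [h0]; rfl))
  -- ramification at the cusp `0`
  have hθ0 : S34HJQ_th K1 q ≠ 0 := fun h =>
    S34HJQ_th_ne_zero (K1 := K1) q (congrArg Subtype.val h)
  have hj0 : S34HJQ_j K1 q ≠ 0 := fun h =>
    S34HJQ_j_ne_zero (K1 := K1) (congrArg Subtype.val h)
  have hordu : (((S34HJQ_j K1 q) ^ q * (S34HJQ_th K1 q)⁻¹ :
      modularFunctionFieldFullC K1 (1 * q)) : LaurentSeries K1).order = 0 := by
    show ((jqModC K1) ^ q * (qExpand K1 q (jqModC K1))⁻¹).order = 0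
    rw [HahnSeries.order_mul (pow_ne_zero _ S34HJQ_j_ne_zero)
      (inv_ne_zero (S34HJQ_th_ne_zero q)), HahnSeries.order_pow, S18K_order_inv,
      S34HJQ_order_th, S34HJQ_order_j]
    simp
  have hu : (S34HJQ_th K1 q) ^ q * (S34HJQ_j K1 q)⁻¹ ∈ S34HJQ_W0 emb q hq := by
    rw [S34HJQ_mem_W0, map_mul, map_pow, map_inv₀, S34HJQ_w_th, S34HJQ_w_j, hordu]
  have htn : (S34HJQ_th K1 q)⁻¹ ∈ (S34HJQ_W0 emb q hq).nonunits := by
    rw [ValuationSubring.mem_nonunits_iff_or]
    right
    rw [inv_inv]
    exact S34HJQ_th_notMem_W0 emb q hq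
  have hfac : algebraMap (S18K_cuspVS (modularFunctionFieldFullC K1 1))
      (modularFunctionFieldFullC K1 (1 * q)) ⟨t, htm⟩ =
      ((S34HJQ_th K1 q) ^ q * (S34HJQ_j K1 q)⁻¹) * ((S34HJQ_th K1 q)⁻¹) ^ q := by
    apply Subtype.ext
    show ((algebraMap (modularFunctionFieldFullC K1 1) (modularFunctionFieldFullC K1 (1 * q)) t :
        modularFunctionFieldFullC K1 (1 * q)) : LaurentSeries K1) = _
    rw [hcoe]
    show (jqModC K1)⁻¹ = (qExpand K1 q (jqModC K1)) ^ q * (jqModC K1)⁻¹ *
      ((qExpand K1 q (jqModC K1))⁻¹) ^ q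
    have := S34HJQ_th_ne_zero (K1 := K1) q
    rw [inv_pow, mul_assoc, mul_comm (jqModC K1)⁻¹, ← mul_assoc,
      mul_inv_cancel₀ (pow_ne_zero _ this), one_mul]
  have hne : S34HJQ_W0 emb q hq ≠ S34HJQ_Woo K1 q := by
    intro h
    have h1 : (S34HJQ_th K1 q) ^ q * (S34HJQ_j K1 q)⁻¹ ∈ S34HJQ_Woo K1 q := h ▸ hu
    rw [S34HJQ_mem_Woo] at h1
    have h2 : (((S34HJQ_th K1 q) ^ q * (S34HJQ_j K1 q)⁻¹ :
        modularFunctionFieldFullC K1 (1 * q)) : LaurentSeries K1).order = -(q : ℤ) * q + 1 := by
      show ((qExpand K1 q (jqModC K1)) ^ q * (jqModC K1)⁻¹).order = _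
      rw [HahnSeries.order_mul (pow_ne_zero _ (S34HJQ_th_ne_zero q))
        (inv_ne_zero S34HJQ_j_ne_zero), HahnSeries.order_pow, S18K_order_inv,
        S34HJQ_order_th, S34HJQ_order_j]
      simp
    rw [h2] at h1
    nlinarith
  have hab : Module.finrank (modularFunctionFieldFullC K1 1)
      (modularFunctionFieldFullC K1 (1 * q)) ≤ q + 1 := by
    have := S34DEG_finrank_le K1 1 q emb hq hq.not_dvd_one
    omega
  exact S34HJQ_two (S18K_cuspVS (modularFunctionFieldFullC K1 1))
    (modularFunctionFieldFullC K1 1) (S34HJQ_W0 emb q hq) (S34HJQ_Woo K1 q) hd0 hdoo hne hab hϖ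
    hu htn hfac W hdW

include emb hq in
/-- a valuation ring of `F` containing `K1` and `θ` contains `j` -/
theorem S34HJQ_val' (W : ValuationSubring (modularFunctionFieldFullC K1 (1 * q)))
    (hc : ∀ c : K1, algebraMap K1 (modularFunctionFieldFullC K1 (1 * q)) c ∈ W)
    (hθ : S34HJQ_th K1 q ∈ W) : S34HJQ_j K1 q ∈ W := by
  by_contra hj
  rcases S34HJQ_two_cusps emb q hq W hc hj with h | h
  · exact S34HJQ_th_notMem_W0 emb q hq (h ▸ hθ)
  · exact S34HJQ_th_notMem_Woo q (h ▸ hθ)

include emb hq in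
/-- **(V)**: a valuation ring of `F` containing `K1` and `j` contains `θ = j(q^q)` -/
theorem S34HJQ_val (W : ValuationSubring (modularFunctionFieldFullC K1 (1 * q)))
    (hc : ∀ c : K1, algebraMap K1 (modularFunctionFieldFullC K1 (1 * q)) c ∈ W)
    (hj : S34HJQ_j K1 q ∈ W) : S34HJQ_th K1 q ∈ W := by
  have h := S34HJQ_val' emb q hq (W.comap ((S34HJQ_w emb q hq).toRingEquiv.toRingHom))
    (fun c => by
      rw [ValuationSubring.mem_comap]
      show S34HJQ_w emb q hq (algebraMap K1 _ c) ∈ W
      rw [AlgEquiv.commutes]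
      exact hc c)
    (by
      rw [ValuationSubring.mem_comap]
      show S34HJQ_w emb q hq (S34HJQ_th K1 q) ∈ W
      rw [S34HJQ_w_th]
      exact hj)
  rw [ValuationSubring.mem_comap] at h
  have h' : S34HJQ_w emb q hq (S34HJQ_j K1 q) ∈ W := h
  rw [S34HJQ_w_j] at h'
  exact h'

include emb hq in
/-- `θ` is integral over the subring of `F` generated by `K1` and `j` -/
theorem S34HJQ_isIntegral_closure :
    IsIntegral (Subring.closure (Set.range (algebraMap K1 (modularFunctionFieldFullC K1 (1 * q)))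
      ∪ {S34HJQ_j K1 q})) (S34HJQ_th K1 q) := by
  have h1 : S34HJQ_th K1 q ∈ (integralClosure (Subring.closure
      (Set.range (algebraMap K1 (modularFunctionFieldFullC K1 (1 * q))) ∪ {S34HJQ_j K1 q}))
      (modularFunctionFieldFullC K1 (1 * q))).toSubring := by
    rw [← iInf_valuationSubring_superset, Subring.mem_iInf]
    rintro ⟨V, hV⟩
    exact S34HJQ_val emb q hq V (fun c => hV (Or.inl ⟨c, rfl⟩)) (hV (Or.inr rfl))
  exact h1

end Concrete

section Generic

variable {K1 : Type*} [Field K1] [CharZero K1] (emb : K1 →+* Kbar) (q : ℕ) [NeZero q]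
  (hq : q.Prime)

include emb hq in
/-- **(G)**: `θ = j(q^q)` is integral over `K1[j]`. -/
theorem S34HJQ_generic :
    IsIntegral (Algebra.adjoin K1 {jqModC K1}) (qExpand K1 q (jqModC K1)) := by
  haveI : NeZero (1 * q) := ⟨by rw [one_mul]; exact hq.ne_zero⟩
  have hle : Subring.closure (Set.range (algebraMap K1 (modularFunctionFieldFullC K1 (1 * q)))
      ∪ {S34HJQ_j K1 q}) ≤
      (Algebra.adjoin K1 {jqModC K1}).toSubring.comap
        (modularFunctionFieldFullC K1 (1 * q)).val.toRingHom := by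
    rw [Subring.closure_le]
    rintro x (⟨c, rfl⟩ | hx)
    · show ((algebraMap K1 (modularFunctionFieldFullC K1 (1 * q)) c :
        modularFunctionFieldFullC K1 (1 * q)) : LaurentSeries K1) ∈
        Algebra.adjoin K1 {jqModC K1}
      exact Subalgebra.algebraMap_mem _ c
    · rw [Set.mem_singleton_iff] at hx
      subst hx
      exact Algebra.subset_adjoin rfl
  let φ : Subring.closure (Set.range (algebraMap K1 (modularFunctionFieldFullC K1 (1 * q)))
      ∪ {S34HJQ_j K1 q}) →+* Algebra.adjoin K1 {jqModC K1} :=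
    { toFun := fun x => ⟨((x : modularFunctionFieldFullC K1 (1 * q)) : LaurentSeries K1),
        hle x.2⟩
      map_one' := rfl
      map_mul' := fun _ _ => rfl
      map_zero' := rfl
      map_add' := fun _ _ => rfl }
  obtain ⟨p, hp, hpv⟩ := S34HJQ_isIntegral_closure emb q hq
  refine ⟨p.map φ, hp.map _, ?_⟩
  rw [Polynomial.eval₂_map]
  have h3 := congrArg (modularFunctionFieldFullC K1 (1 * q)).val.toRingHom hpv
  rw [Polynomial.hom_eval₂, map_zero] at h3
  exact h3

end Generic

end Fermat.Agent.S34_helper13_HJQK
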