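import Mathlib
import Fermat.Agent.S34_helper24_QPOWC
import Fermat.Agent.S18_helper25_COREDefs
import Fermat.Agent.S18_helper12_BRIDGE

/-!
# S34, piece P-QPOW, plug for the Gauss ring (helper24)

`j` is not a `q`-th power modulo `π` in the Gauss valuation ring (residue characteristic `q`):
there are no `r, v` in the Gauss ring with `r ^ q - j = π * v`.  This is the hypothesis `hxq`
of helper13's `S34KEY_abs` (P1c-KEY), in the `GaussData` form and for the concrete carriers
`S18K_V A K1 N`, `S18K_j K1`, `S18K_π A K1`.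
-/

set_option autoImplicit false
set_option linter.style.haveILetI false

namespace Fermat.Agent.S34_helper24_QPOWK

open ModularCurve Fermat.Agent.S18_helper13_GAUSS Fermat.Agent.S18_helper25_COREDefs
  Fermat.Agent.S34_helper24_QPOWC

/-- `j` is not a `q`-th power modulo `π` in the Gauss ring of a `GaussData` whose residue field
has characteristic `q`. -/
theorem S34QPK_hxq_gauss {O K κ : Type*} [CommRing O] [IsDomain O] [Field K] [Field κ]
    (D : GaussData O K κ) (q : ℕ) [Fact q.Prime] [CharP κ q] :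
    ∀ r ∈ D.Vring, ∀ v ∈ D.Vring, r ^ q - jqModC K ≠ D.πK * v := by
  intro r hr v hv h
  have h1 := congrArg D.redFun h
  rw [D.redFun_sub (D.Vring.pow_mem hr q) D.jqModC_mem_Vring, D.redFun_pow hr,
    D.redFun_jqModC, D.redFun_πK_mul hv, sub_eq_zero] at h1
  exact S34QP_jq_not_pow κ q _ h1

/-- the reduction of a `q`-th power that is congruent to an element `x` of the Gauss ring:
general form (`x` arbitrary with reduction not a `q`-th power). -/
theorem S34QPK_hxq_gauss_of {O K κ : Type*} [CommRing O] [IsDomain O] [Field K] [Field κ]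
    (D : GaussData O K κ) (q : ℕ) {x : LaurentSeries K} (hx : x ∈ D.Vring)
    (hxq : ∀ z : LaurentSeries κ, z ^ q ≠ D.redFun x) :
    ∀ r ∈ D.Vring, ∀ v ∈ D.Vring, r ^ q - x ≠ D.πK * v := by
  intro r hr v hv h
  have h1 := congrArg D.redFun h
  rw [D.redFun_sub (D.Vring.pow_mem hr q) hx, D.redFun_pow hr, D.redFun_πK_mul hv,
    sub_eq_zero] at h1
  exact hxq _ h1

variable (A : ValuationSubring (AlgebraicClosure ℚ))
  (K1 : IntermediateField ℚ (AlgebraicClosure ℚ)) [IsDiscreteValuationRing (S18K_O1 A K1)]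

/-- **`hxq` for the concrete carriers**: `j` is not a `q`-th power modulo `π` in the Gauss ring
`S18K_V A K1 N` of any level `N`, for `A` over `q`. -/
theorem S34QPK_hxq {q : ℕ} (hq : q.Prime) (hA : A.LiesOverPrime q) (N : ℕ) :
    ∀ r ∈ S18K_V A K1 N, ∀ v ∈ S18K_V A K1 N, r ^ q - S18K_j K1 ≠ S18K_π A K1 * v := by
  haveI : Fact q.Prime := ⟨hq⟩
  haveI : CharP (IsLocalRing.ResidueField A) q :=
    Fermat.Agent.S18_helper12_BRIDGE.S18BR_charP A hq hA
  intro r hr v hv
  exact S34QPK_hxq_gauss (S18K_D A K1) q r hr.1 v hv.1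

/-- the same with `r, v` only in the big Gauss ring of `K1((q))` (no function field). -/
theorem S34QPK_hxq' {q : ℕ} (hq : q.Prime) (hA : A.LiesOverPrime q) :
    ∀ r ∈ (S18K_D A K1).Vring, ∀ v ∈ (S18K_D A K1).Vring,
      r ^ q - S18K_j K1 ≠ S18K_π A K1 * v := by
  haveI : Fact q.Prime := ⟨hq⟩
  haveI : CharP (IsLocalRing.ResidueField A) q :=
    Fermat.Agent.S18_helper12_BRIDGE.S18BR_charP A hq hA
  exact S34QPK_hxq_gauss (S18K_D A K1) q

end Fermat.Agent.S34_helper24_QPOWK
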