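import Fermat.Agent.S34_helper13_KEY
import Fermat.Agent.S34_helper27_V3K
import Fermat.Agent.S34_helper24_QPOWK

/-!
# S34, piece P1c-KEY (concrete plug): the key statement for the carriers `S18K_*`
-/

set_option autoImplicit false
set_option linter.style.haveILetI false
set_option linter.unusedSectionVars false
set_option linter.unusedVariables false

open ModularCurve Fermat.Agent.S18_helper13_GAUSS Fermat.Agent.S18_helper9_CDefs
open Fermat.Agent.S18_helper25_COREDefs Fermat.Agent.S34_helper12_CDefs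
  Fermat.Agent.S34_helper27_C2Defs Fermat.Agent.S34_helper27_V3K Fermat.Agent.S34_helper13_KEY

noncomputable section

namespace Fermat.Agent.S34_helper13_KEYK

section Gen

variable {O K1 : Type*} [CommRing O] [IsDomain O] [IsDiscreteValuationRing O] [Field K1]
  [Algebra O K1] [IsFractionRing O K1]
variable {k : Type*} [Field k] (ρ : O →+* k)
  (hρ : ∀ x : O, ρ x = 0 ↔ x ∈ IsLocalRing.maximalIdeal O) (N : ℕ)

open Fermat.Agent.S18A in
/-- the Gauss ring of `F1` is a discrete valuation ring with uniformiser `π`, elementwise -/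
theorem S34KEYK_sep_gen {x : LaurentSeries K1} (hx : x ∈ F1L K1 N) (hx0 : x ≠ 0) :
    ∃ (z : ℤ) (u : LaurentSeries K1), u ∈ VL O K1 ρ hρ N ∧ u⁻¹ ∈ VL O K1 ρ hρ N ∧
      x = πL O K1 ρ hρ ^ z * u := by
  obtain ⟨z, u, hu, hu0, hxu⟩ :=
    (gd O K1 ρ hρ).exists_zpow_mul hx0 (mem_fracField_of_mem_F1L ρ hρ N hx)
  have hπ0 : πL O K1 ρ hρ ≠ 0 := πL_ne_zero ρ hρ
  have huF : u ∈ F1L K1 N := by
    have : u = (πL O K1 ρ hρ ^ z)⁻¹ * x := by
      rw [hxu]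
      show u = ((gd O K1 ρ hρ).πK ^ z)⁻¹ * ((gd O K1 ρ hρ).πK ^ z * u)
      rw [← mul_assoc, inv_mul_cancel₀ (zpow_ne_zero z (gd O K1 ρ hρ).πK_ne_zero), one_mul]
    rw [this]
    exact (F1L K1 N).mul_mem ((F1L K1 N).inv_mem ((F1L K1 N).zpow_mem (πL_mem_F1L ρ hρ N) z)) hx
  exact ⟨z, u, ⟨hu, huF⟩, inv_mem_VL ρ hρ N ⟨hu, huF⟩ hu0, hxu⟩

end Gen

variable (A : ValuationSubring (AlgebraicClosure ℚ))
  (K1 : IntermediateField ℚ (AlgebraicClosure ℚ)) [IsDiscreteValuationRing (S18K_O1 A K1)]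

/-- `hsep` for the concrete Gauss ring (any level). -/
theorem S34KEYK_sep (N : ℕ) : ∀ x ∈ S18K_F1 K1 N, x ≠ 0 →
    ∃ (z : ℤ) (u : LaurentSeries K1), u ∈ S18K_V A K1 N ∧ u⁻¹ ∈ S18K_V A K1 N ∧
      x = S18K_π A K1 ^ z * u :=
  fun _ hx hx0 => S34KEYK_sep_gen (S18K_res A K1) (S18K_res_eq_zero_iff A K1) N hx hx0

set_option synthInstance.maxHeartbeats 400000 in
/-- **P1c-KEY for the concrete carriers.**  `N' ∣ N`, `[F1(N) : F1(N')] ≤ q + 1` (elementwise),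
`V2` a valuation ring of `F1(N)` containing the Gauss ring of level `N'`, different from the
Gauss ring of level `N`, and containing an element `y` with `y ^ q ≡ j` modulo its non-units. -/
theorem S34KEYK_main {q : ℕ} (hq : q.Prime) (hA : A.LiesOverPrime q) {N' N : ℕ} (hN : N' ∣ N)
    (V2 : Subring (LaurentSeries K1))
    (h2 : S34C2_Val (S18K_π A K1) (S18K_F1 K1 N) V2)
    (hV2 : S18K_V A K1 N' ≤ V2) (hne : S18K_V A K1 N ≠ V2)
    (hdeg : ∃ s : Finset (LaurentSeries K1), s.card ≤ q + 1 ∧ ∀ x ∈ S18K_F1 K1 N,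
      ∃ c : LaurentSeries K1 → LaurentSeries K1,
        (∀ y, c y ∈ S18K_F1 K1 N') ∧ x = ∑ y ∈ s, c y * y)
    {y : LaurentSeries K1} (hy : y ∈ V2)
    (hyx : y ^ q - S18K_j K1 = 0 ∨ (y ^ q - S18K_j K1)⁻¹ ∉ V2) :
    (∀ v ∈ (S18K_V A K1 N ⊓ V2 : Subring (LaurentSeries K1)), IsIntegral (S18K_V A K1 N') v) ∧
    (∀ v : LaurentSeries K1, v ∈ S18K_F1 K1 N → IsIntegral (S18K_V A K1 N') v →
      v ∈ S18K_V A K1 N ∧ v ∈ V2) ∧
    (∀ x ∈ V2, x⁻¹ ∉ V2 → ∃ v ∈ V2, x = S18K_π A K1 * v) ∧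
    (∀ W : Subring (LaurentSeries K1), S34C2_Val (S18K_π A K1) (S18K_F1 K1 N) W →
      S18K_V A K1 N' ≤ W → W = S18K_V A K1 N ∨ W = V2) ∧
    (∀ x ∈ S18K_V A K1 N, ∃ r ∈ S18K_V A K1 N', ∃ v ∈ S18K_V A K1 N,
      x = r + S18K_π A K1 * v) := by
  haveI hcz : CharZero (LaurentSeries K1) :=
    charZero_of_injective_ringHom (HahnSeries.C_injective (Γ := ℤ) (R := K1))
  have hj : S18K_j K1 ∈ S18K_V A K1 N' :=
    ⟨(S18K_D A K1).jqModC_mem_Vring, jqModC_mem_full K1 N'⟩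
  obtain ⟨c1, c2, -, c4, c5, c6⟩ := S34KEY_abs (S34V3K_F1_mono K1 hN) (S34V3K_val1 A K1 N')
    (S34KEYK_sep A K1 N') (S34V3K_val1 A K1 N) h2 (S34V3K_V_mono A K1 hN) hV2 hne hq hdeg hy hj
    hyx (Fermat.Agent.S34_helper24_QPOWK.S34QPK_hxq A K1 hq hA N')
  exact ⟨c1, c2, c4, c5, c6⟩

set_option synthInstance.maxHeartbeats 400000 in
/-- **P1c assembled**: `S34C_Setup2` for the concrete carriers from the second valuation ring
`V2` (no `V2_unif`, no KEY hypothesis: both come from `S34KEYK_main`). -/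
theorem S34KEYK_setup2 {q : ℕ} (hq : q.Prime) (hA : A.LiesOverPrime q) (N' N : ℕ) [NeZero N']
    [NeZero N] (hqN' : ¬ q ∣ N') (hN : N' ∣ N) (V2 : Subring (LaurentSeries K1))
    (h2 : S34C2_Val (S18K_π A K1) (S18K_F1 K1 N) V2)
    (hV2 : S18K_V A K1 N' ≤ V2) (hne : S18K_V A K1 N ≠ V2)
    (hdeg : ∃ s : Finset (LaurentSeries K1), s.card ≤ q + 1 ∧ ∀ x ∈ S18K_F1 K1 N,
      ∃ c : LaurentSeries K1 → LaurentSeries K1,
        (∀ y, c y ∈ S18K_F1 K1 N') ∧ x = ∑ y ∈ s, c y * y)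
    {y : LaurentSeries K1} (hy : y ∈ V2)
    (hyx : y ^ q - S18K_j K1 = 0 ∨ (y ^ q - S18K_j K1)⁻¹ ∉ V2) :
    S34C_Setup2 (S18K_O A K1) (S18K_π A K1) (S18K_j K1) (S18K_F1 K1 N) (S18K_V A K1 N) V2
      (S18K_A0 A K1 N) (S18K_Ainf A K1 N) := by
  obtain ⟨hkey, -, h2u, -, -⟩ := S34KEYK_main A K1 hq hA hN V2 h2 hV2 hne hdeg hy hyx
  exact S34V3K_setup2 A K1 hq hA N' N hqN' hN V2 h2 h2u hV2 hkey

end Fermat.Agent.S34_helper13_KEYK
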