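import Fermat.Agent.S34_helper14_N1K
import Fermat.Agent.S34_helper13_P1C

/-!
# S34, piece (N1): the contract `S34K_N1` for the concrete carriers, (V) and KEY discharged

Level `N = q N'`, `q ∤ N'`, `A` over `q`, `K1` admissible, `V1 = S18K_V A K1 N` (Gauss),
`V2 = S34V0K_V A K1 q N' N hq hqN hN` (helper20's `w(V1)`).  The two-valuation setup and the
residue degree one are helper13's `S34P1C_setup2` / `S34P1C_key`.  Remaining inputs:

* `hjq`   : the modular equation (`j(q^q)` is integral over `O[j]`);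
* `hcusp` : `IGAt` at the cusps of the chart at infinity which lie on the component of `V2` only.
-/

set_option autoImplicit false
set_option linter.style.haveILetI false
set_option linter.unusedVariables false
set_option linter.unusedSectionVars false
set_option synthInstance.maxHeartbeats 400000
set_option maxHeartbeats 1600000

open ModularCurve
open Fermat.Agent.S18_helper9_CDefs Fermat.Agent.S18_helper25_COREDefs
  Fermat.Agent.S34_helper12_CDefs Fermat.Agent.S34_helper20_V0K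
  Fermat.Agent.S18_helper3_LOCRING Fermat.Agent.S34_Contracts
  Fermat.Agent.S34_helper14_N1K Fermat.Agent.S34_helper14_N1T

noncomputable section

namespace Fermat.Agent.S34_helper14_N1F

variable (A : ValuationSubring (AlgebraicClosure ℚ))
  (K1 : IntermediateField ℚ (AlgebraicClosure ℚ)) [IsDiscreteValuationRing (S18K_O1 A K1)]
  (q N' N : ℕ) [NeZero N'] [NeZero N] (hq : q.Prime) (hqN : ¬ q ∣ N') (hN : N = q * N')

/-- **`S34K_N1` for the finite chart** from the modular equation. -/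
theorem S34N1F_A0 [NeZero q] (hA : A.LiesOverPrime q) (h : S18K_Admissible A K1 q)
    (hjq : IsIntegral (adj (S18K_O A K1) (S18K_j K1)) (qExpand K1 q (jqModC K1))) :
    S34K_N1 (S18K_π A K1) (S18K_V A K1 N) (S34V0K_V A K1 q N' N hq hqN hN)
      (S18K_A0 A K1 N) :=
  S34N1K_A0 A K1 q N' N hq hqN hN hA h
    (Fermat.Agent.S34_helper13_P1C.S34P1C_setup2 A K1 q N' N hq hqN hN hA)
    (Fermat.Agent.S34_helper13_P1C.S34P1C_key A K1 q N' N hq hqN hN hA).2.2.2.2 hjq

/-- **`S34K_N1` for the chart at infinity** from the modular equation and `IGAt` at the cusps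
lying on the component of `V2` only. -/
theorem S34N1F_Ainf [NeZero q] (hA : A.LiesOverPrime q) (h : S18K_Admissible A K1 q)
    (hjq : IsIntegral (adj (S18K_O A K1) (S18K_j K1)) (qExpand K1 q (jqModC K1)))
    (hcusp : ∀ (hπ : S18K_π A K1 ∈ S18K_Ainf A K1 N) (m : Ideal (S18K_Ainf A K1 N)),
      m.IsMaximal → (⟨S18K_π A K1, hπ⟩ : S18K_Ainf A K1 N) ∈ m →
      (⟨(S18K_j K1)⁻¹, S34N1T_jinv_mem
        (Fermat.Agent.S34_helper13_P1C.S34P1C_setup2 A K1 q N' N hq hqN hN hA)⟩ :
          S18K_Ainf A K1 N) ∈ m →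
      ¬ S34K_Thru (S18K_π A K1) (S18K_V A K1 N) (S18K_Ainf A K1 N) m →
      IGAt (S18K_π A K1) (S18K_Ainf A K1 N) m) :
    S34K_N1 (S18K_π A K1) (S18K_V A K1 N) (S34V0K_V A K1 q N' N hq hqN hN)
      (S18K_Ainf A K1 N) :=
  S34N1K_Ainf A K1 q N' N hq hqN hN hA h
    (Fermat.Agent.S34_helper13_P1C.S34P1C_setup2 A K1 q N' N hq hqN hN hA)
    (Fermat.Agent.S34_helper13_P1C.S34P1C_key A K1 q N' N hq hqN hN hA).2.2.2.2 hjq hcusp

/-- **The points on the component of `V1`** (both charts, cusps included), no hypothesis left: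
`IGAt` at every maximal ideal `m ∋ π` which does not contain the vertical prime of `V2`. -/
theorem S34N1F_thru1 (hA : A.LiesOverPrime q) (h : S18K_Admissible A K1 q) :
    (∀ (hπ : S18K_π A K1 ∈ S18K_A0 A K1 N) (m : Ideal (S18K_A0 A K1 N)), m.IsMaximal →
      (⟨S18K_π A K1, hπ⟩ : S18K_A0 A K1 N) ∈ m →
      ¬ S34K_Thru (S18K_π A K1) (S34V0K_V A K1 q N' N hq hqN hN) (S18K_A0 A K1 N) m →
      IGAt (S18K_π A K1) (S18K_A0 A K1 N) m) ∧
    (∀ (hπ : S18K_π A K1 ∈ S18K_Ainf A K1 N) (m : Ideal (S18K_Ainf A K1 N)), m.IsMaximal →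
      (⟨S18K_π A K1, hπ⟩ : S18K_Ainf A K1 N) ∈ m →
      ¬ S34K_Thru (S18K_π A K1) (S34V0K_V A K1 q N' N hq hqN hN) (S18K_Ainf A K1 N) m →
      IGAt (S18K_π A K1) (S18K_Ainf A K1 N) m) := by
  have S := Fermat.Agent.S34_helper13_P1C.S34P1C_setup2 A K1 q N' N hq hqN hN hA
  have hres := (Fermat.Agent.S34_helper13_P1C.S34P1C_key A K1 q N' N hq hqN hN hA).2.2.2.2
  have hdvd : N' ∣ N := S34V0K_dvd hN
  exact ⟨fun hπ m hm hπm h2 =>
      S34N1K_thru1_A0 A K1 hq hA N' N hqN hdvd h _ S hres hπ m hm hπm h2,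
    fun hπ m hm hπm h2 =>
      S34N1K_thru1_Ainf A K1 hq hA N' N hqN hdvd h _ S hres hπ m hm hπm h2⟩

end Fermat.Agent.S34_helper14_N1F
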