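import Mathlib
import Fermat.Agent.S18_helper9_CDefs
import Fermat.Agent.S18_helper9_CBasic
import Fermat.Agent.S18_helper3_LOCRING
import Fermat.Agent.S18_helper18_IGMID
import Fermat.Agent.S18_helper18_IGINF
import Fermat.Agent.S18_helper20_CSAT
import Fermat.Agent.S34_helper12_CDefs

/-!
# S34, piece (N1): transfer of `IGAt` from the finite chart to the non-cuspidal points of the
chart at infinity (two-valuation setting)

`S : S34C_Setup2 O π j F1 V1 V2 A0 Ainf`, `W` a subring containing `j` (in the application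
`W = V1` or `W = V2`).  If `IGAt π A0 m0` holds at every maximal ideal `m0 ∋ π` of the finite
chart which does not contain `A0 ∩ π W`, then `IGAt π Ainf m` holds at every maximal ideal
`m ∋ π` of the chart at infinity with `j⁻¹ ∉ m` which does not contain `Ainf ∩ π W`.

Pure reuse of the pointwise lemmas of `S18_helper18_IGMID` (`idealZero`, `gen_transfer`).
-/

set_option autoImplicit false
set_option linter.style.haveILetI false
set_option linter.unusedVariables false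
set_option linter.unusedSectionVars false

namespace Fermat.Agent.S34_helper14_N1T

open Fermat.Agent.S18_helper9_CDefs Fermat.Agent.S18_helper9_CBasic
  Fermat.Agent.S34_helper12_CDefs Fermat.Agent.S18_helper3_LOCRING
  Fermat.Agent.S18_helper18_IGMID Fermat.Agent.S18_helper20_CSAT
  Fermat.Agent.S18_helper18_IGINF

variable {L : Type} [Field L] {O : Subring L} {π j : L} {F1 : Subfield L}
  {V1 V2 A0 Ainf : Subring L}

theorem S34N1T_j_ne_zero (S : S34C_Setup2 O π j F1 V1 V2 A0 Ainf) : j ≠ 0 := by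
  intro h
  refine S.j_trans ?_
  rw [h]
  exact isAlgebraic_zero

theorem S34N1T_O_le_A0 (S : S34C_Setup2 O π j F1 V1 V2 A0 Ainf) : O ≤ A0 := fun a ha =>
  (S.chart0.mem_iff a).mpr
    ⟨isIntegral_algebraMap (x := (⟨a, CSAT_O_le_adj O j ha⟩ : adj O j)), S.O_le ha⟩

theorem S34N1T_O_le_Ainf (S : S34C_Setup2 O π j F1 V1 V2 A0 Ainf) : O ≤ Ainf := fun a ha =>
  (S.chartInf.mem_iff a).mpr
    ⟨isIntegral_algebraMap (x := (⟨a, CSAT_O_le_adj O j⁻¹ ha⟩ : adj O j⁻¹)), S.O_le ha⟩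

theorem S34N1T_j_mem (S : S34C_Setup2 O π j F1 V1 V2 A0 Ainf) : j ∈ A0 :=
  (S.chart0.mem_iff j).mpr
    ⟨isIntegral_algebraMap (x := (⟨j, CSAT_mem_adj O j⟩ : adj O j)), S.j_mem⟩

theorem S34N1T_jinv_mem (S : S34C_Setup2 O π j F1 V1 V2 A0 Ainf) : j⁻¹ ∈ Ainf :=
  (S.chartInf.mem_iff j⁻¹).mpr
    ⟨isIntegral_algebraMap (x := (⟨j⁻¹, CSAT_mem_adj O j⁻¹⟩ : adj O j⁻¹)), F1.inv_mem S.j_mem⟩

/-- every element of the chart at infinity is moved into the finite chart by a power of `j` -/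
theorem S34N1T_poleInf (S : S34C_Setup2 O π j F1 V1 V2 A0 Ainf) :
    ∀ z ∈ Ainf, ∃ n : ℕ, j ^ n * z ∈ A0 := by
  intro z hz
  obtain ⟨h1, h2⟩ := (S.chartInf.mem_iff z).mp hz
  have h3 : IsIntegral (adjMid O j) z := CSAT_isIntegral_mono (CSAT_adj_inv_le_adjMid O j) h1
  obtain ⟨n, hn⟩ := CSAT_exists_pow_mul_isIntegral (adj O j) (adjMid O j) j (CSAT_mem_adj O j)
    (fun r hr => CSAT_pow_mul_mem_adj O j (S34N1T_j_ne_zero S) hr) h3
  exact ⟨n, (S.chart0.mem_iff _).mpr ⟨hn, F1.mul_mem (F1.pow_mem S.j_mem n) h2⟩⟩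

/-- every element of the finite chart is moved into the chart at infinity by a power of `j⁻¹` -/
theorem S34N1T_pole0 (S : S34C_Setup2 O π j F1 V1 V2 A0 Ainf) :
    ∀ a ∈ A0, ∃ n : ℕ, j⁻¹ ^ n * a ∈ Ainf := by
  intro a ha
  obtain ⟨h1, h2⟩ := (S.chart0.mem_iff a).mp ha
  have h3 : IsIntegral (adjMid O j) a := CSAT_isIntegral_mono (CSAT_adj_le_adjMid O j) h1
  obtain ⟨n, hn⟩ := CSAT_exists_pow_mul_isIntegral (adj O j⁻¹) (adjMid O j) j⁻¹
    (CSAT_mem_adj O j⁻¹)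
    (fun r hr => CSAT_pow_mul_mem_adj O j⁻¹ (inv_ne_zero (S34N1T_j_ne_zero S))
      (by rw [CSAT_adjMid_inv]; exact hr)) h3
  exact ⟨n, (S.chartInf.mem_iff _).mpr
    ⟨hn, F1.mul_mem (F1.pow_mem (F1.inv_mem S.j_mem) n) h2⟩⟩

/-- the maximal ideal of `O` is generated by `π` -/
theorem S34N1T_pi_gen (S : S34C_Setup2 O π j F1 V1 V2 A0 Ainf) [IsLocalRing O] :
    ∀ c ∈ IsLocalRing.maximalIdeal O, ∃ c' : O, c = (⟨π, S.π_mem⟩ : O) * c' := by
  have := S.dvr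
  intro c hc
  have h1 : IsLocalRing.maximalIdeal O = Ideal.span {(⟨π, S.π_mem⟩ : O)} :=
    (IsDiscreteValuationRing.irreducible_iff_uniformizer _).mp (S.π_irr S.π_mem)
  rw [h1, Ideal.mem_span_singleton] at hc
  exact hc

/-- **Transfer of `IGAt`** from the finite chart to the non-cuspidal one-branch points of the
chart at infinity. -/
theorem S34N1T_transfer (S : S34C_Setup2 O π j F1 V1 V2 A0 Ainf) [IsLocalRing O]
    [IsAlgClosed (IsLocalRing.ResidueField O)] (W : Subring L) (hjW : j ∈ W)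
    (hIG0 : ∀ (hπ : π ∈ A0) (m0 : Ideal A0), m0.IsMaximal → (⟨π, hπ⟩ : A0) ∈ m0 →
      (∃ d : A0, d ∉ m0 ∧ ∃ v ∈ W, (d : L) = π * v) → IGAt π A0 m0)
    (hπ : π ∈ Ainf) (m : Ideal Ainf) (hm : m.IsMaximal) (hπm : (⟨π, hπ⟩ : Ainf) ∈ m)
    (hjm : (⟨j⁻¹, S34N1T_jinv_mem S⟩ : Ainf) ∉ m)
    (d : Ainf) (hdm : d ∉ m) (hdW : ∃ v ∈ W, (d : L) = π * v) :
    IGAt π Ainf m := by
  have hj0 := S34N1T_j_ne_zero S
  have hO0 := S34N1T_O_le_A0 S
  have hOinf := S34N1T_O_le_Ainf S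
  have hjinv := S34N1T_jinv_mem S
  have hpole0 := S34N1T_pole0 S
  have hpoleInf := S34N1T_poleInf S
  have hπO := S.π_mem
  have hres : ∀ z : Ainf, ∃ c : L, ∃ hc : c ∈ O, z - ⟨c, hOinf hc⟩ ∈ m := fun z =>
    S18IGINF_hres_gen j⁻¹ Ainf S.π_mem (S34N1T_pi_gen S) hOinf hjinv
      (fun y hy => ((S.chartInf.mem_iff y).mp hy).1) m hm hπm z
  have hm0 := idealZero_isMaximal hO0 hOinf hjinv hpole0 m hm hjm hres
  have hπm0 := pi_mem_idealZero hO0 hOinf hπO hjinv hpole0 m hπm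
  -- the witness `d0 = j ^ k * d`
  obtain ⟨k, hk⟩ := hpoleInf d d.2
  have hjm' : ¬ InIdeal Ainf m j⁻¹ := fun h => hjm ((InIdeal.mk_iff hjinv).1 h)
  have hd0 : (⟨j ^ k * (d : L), hk⟩ : A0) ∉ idealZero A0 Ainf j hjinv hpole0 m := by
    rintro ⟨n, hn⟩
    have h1 : j⁻¹ ^ k * (j ^ k * (d : L)) = d := by
      rw [← mul_assoc, ← mul_pow, inv_mul_cancel₀ hj0, one_pow, one_mul]
    have h2 : InIdeal Ainf m (j⁻¹ ^ k * (j ^ k * (d : L))) :=
      inIdeal_of_pow_mul (hjinv := hjinv) hm.isPrime hjm' hn (by rw [h1]; exact d.2)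
    rw [h1] at h2
    exact hdm ((InIdeal.iff_mem d).1 h2)
  obtain ⟨v, hv, hdv⟩ := hdW
  have hd0W : ∃ v' ∈ W, ((⟨j ^ k * (d : L), hk⟩ : A0) : L) = π * v' :=
    ⟨j ^ k * v, W.mul_mem (W.pow_mem hjW k) hv, by
      show j ^ k * (d : L) = π * (j ^ k * v)
      rw [hdv]; ring⟩
  obtain ⟨y0, ⟨N, hN⟩, hgen⟩ := hIG0 (hO0 hπO) _ hm0 hπm0 ⟨_, hd0, hd0W⟩ (hO0 hπO)
  intro hπ'
  exact ⟨⟨j⁻¹ ^ N * (y0 : L), hN.1⟩, hN.2,
    gen_transfer hj0 hO0 hOinf hπO hjinv hpole0 hpoleInf m y0 N hN hgen⟩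

end Fermat.Agent.S34_helper14_N1T
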