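import Fermat.Agent.S34_Contracts
import Fermat.Agent.S34_helper14_N1S
import Fermat.Agent.S34_helper14_N1T
import Fermat.Agent.S34_helper20_V0K
import Fermat.Agent.S18_helper27_CNOETH
import Fermat.Agent.S18_helper25_FINAL
import Fermat.Agent.S18_helper12_TOP
import Fermat.Agent.S18_helper18_IGINFL

/-!
# S34, piece (N1), concrete plug: the contract `S34K_N1` for the carriers `S18K_*`

Level `N' * q`, `q ∤ N'`, `A` over `q`, `K1` admissible.  `V1 = S18K_V A K1 (N' * q)` (Gauss).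

* `S34N1K_thru1_A0`, `S34N1K_thru1_Ainf` : `IGAt` at the points of the two charts which do not
  lie on the component of `V2` (ANY second valuation ring `V2` with `S34C_Setup2` and residue
  degree one of `V1` over the Gauss ring of level `N'`), cusps included;
* `S34N1K_sigma` : the Atkin–Lehner involution as an automorphism of the finite chart;
* `S34N1K_A0` : the contract `S34K_N1` for the finite chart, `V2 = S34V0K_V` (helper20);
* `S34N1K_Ainf` : the contract `S34K_N1` for the chart at infinity, from `IGAt` at the cusps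
  lying on the component of `V2` only.
-/

set_option autoImplicit false
set_option linter.style.haveILetI false
set_option linter.unusedVariables false
set_option linter.unusedSectionVars false
set_option synthInstance.maxHeartbeats 400000
set_option maxHeartbeats 1600000

open ModularCurve Fermat.Agent.S24
open Fermat.Agent.S18_helper13_GAUSS Fermat.Agent.S18_helper9_CDefs
  Fermat.Agent.S18_helper9_CBasic
open Fermat.Agent.S18_helper25_COREDefs Fermat.Agent.S34_helper12_CDefs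
open Fermat.Agent.S34_helper27_C2Defs Fermat.Agent.S34_helper20_WQ Fermat.Agent.S34_helper20_V0
open Fermat.Agent.S34_helper27_V3K Fermat.Agent.S34_helper20_V0K
open Fermat.Agent.S18_helper3_LOCRING Fermat.Agent.S34_Contracts
open Fermat.Agent.S34_helper14_N1S Fermat.Agent.S34_helper14_N1T

noncomputable section

namespace Fermat.Agent.S34_helper14_N1K

variable (A : ValuationSubring (AlgebraicClosure ℚ))
  (K1 : IntermediateField ℚ (AlgebraicClosure ℚ)) [IsDiscreteValuationRing (S18K_O1 A K1)]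

/-- `CharZero` for the ambient field. -/
theorem S34N1K_charZero : CharZero (LaurentSeries K1) :=
  charZero_of_injective_ringHom (HahnSeries.C_injective (Γ := ℤ) (R := K1))

/-- **(N1), first component, finite chart**: `IGAt` at the maximal ideals of the finite chart
which do not contain the vertical prime of `V2`. -/
theorem S34N1K_thru1_A0 {q : ℕ} (hq : q.Prime) (hA : A.LiesOverPrime q) (N' N : ℕ) [NeZero N']
    [NeZero N] (hqN' : ¬ q ∣ N') (hN : N' ∣ N) (h : S18K_Admissible A K1 q)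
    (V2 : Subring (LaurentSeries K1))
    (S : S34C_Setup2 (S18K_O A K1) (S18K_π A K1) (S18K_j K1) (S18K_F1 K1 N) (S18K_V A K1 N) V2
      (S18K_A0 A K1 N) (S18K_Ainf A K1 N))
    (hres : ∀ x ∈ S18K_V A K1 N, ∃ r ∈ S18K_V A K1 N', ∃ v ∈ S18K_V A K1 N,
      x = r + S18K_π A K1 * v)
    (hπ : S18K_π A K1 ∈ S18K_A0 A K1 N) (m : Ideal (S18K_A0 A K1 N)) (hm : m.IsMaximal)
    (hπm : (⟨S18K_π A K1, hπ⟩ : S18K_A0 A K1 N) ∈ m)
    (h2 : ¬ S34K_Thru (S18K_π A K1) V2 (S18K_A0 A K1 N) m) :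
    IGAt (S18K_π A K1) (S18K_A0 A K1 N) m := by
  haveI := S34N1K_charZero K1
  haveI : Fact q.Prime := ⟨hq⟩
  have hAB := Fermat.Agent.S18_helper25_FINAL.S18K_blocksAB_of_blockB N' hqN' A hA
    (Fermat.Agent.S18_helper12_TOP.S18TOP_blockB N' hqN' A hA)
  obtain ⟨S', hIG0, -⟩ := hAB K1 h
  haveI : IsNoetherianRing (S18K_A0 A K1 N') :=
    Fermat.Agent.S18_helper27_CNOETH.S18CNOETH_chart_noetherian S' (S18K_j K1) (Or.inl rfl)
      (S18K_A0 A K1 N') S'.chart0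
  obtain ⟨d, hd⟩ := not_forall.1 h2
  obtain ⟨hd2, hdm⟩ := Classical.not_imp.1 hd
  exact S34N1S_thru1 S' S (S34V3K_F1_mono K1 hN) (S34V3K_V_mono A K1 hN) hres (S18K_j K1)
    S'.j_mem (S18K_A0 A K1 N') (S18K_A0 A K1 N) S'.chart0 S.chart0 hIG0 hπ m hm hπm d hdm hd2

/-- **(N1), first component, chart at infinity** (cusps included). -/
theorem S34N1K_thru1_Ainf {q : ℕ} (hq : q.Prime) (hA : A.LiesOverPrime q) (N' N : ℕ)
    [NeZero N'] [NeZero N] (hqN' : ¬ q ∣ N') (hN : N' ∣ N) (h : S18K_Admissible A K1 q)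
    (V2 : Subring (LaurentSeries K1))
    (S : S34C_Setup2 (S18K_O A K1) (S18K_π A K1) (S18K_j K1) (S18K_F1 K1 N) (S18K_V A K1 N) V2
      (S18K_A0 A K1 N) (S18K_Ainf A K1 N))
    (hres : ∀ x ∈ S18K_V A K1 N, ∃ r ∈ S18K_V A K1 N', ∃ v ∈ S18K_V A K1 N,
      x = r + S18K_π A K1 * v)
    (hπ : S18K_π A K1 ∈ S18K_Ainf A K1 N) (m : Ideal (S18K_Ainf A K1 N)) (hm : m.IsMaximal)
    (hπm : (⟨S18K_π A K1, hπ⟩ : S18K_Ainf A K1 N) ∈ m)
    (h2 : ¬ S34K_Thru (S18K_π A K1) V2 (S18K_Ainf A K1 N) m) :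
    IGAt (S18K_π A K1) (S18K_Ainf A K1 N) m := by
  haveI := S34N1K_charZero K1
  haveI : Fact q.Prime := ⟨hq⟩
  have hAB := Fermat.Agent.S18_helper25_FINAL.S18K_blocksAB_of_blockB N' hqN' A hA
    (Fermat.Agent.S18_helper12_TOP.S18TOP_blockB N' hqN' A hA)
  obtain ⟨S', -, hIGinf⟩ := hAB K1 h
  haveI : IsNoetherianRing (S18K_Ainf A K1 N') :=
    Fermat.Agent.S18_helper27_CNOETH.S18CNOETH_chart_noetherian S' (S18K_j K1)⁻¹ (Or.inr rfl)
      (S18K_Ainf A K1 N') S'.chartInf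
  obtain ⟨d, hd⟩ := not_forall.1 h2
  obtain ⟨hd2, hdm⟩ := Classical.not_imp.1 hd
  exact S34N1S_thru1 S' S (S34V3K_F1_mono K1 hN) (S34V3K_V_mono A K1 hN) hres (S18K_j K1)⁻¹
    ((S18K_F1 K1 N').inv_mem S'.j_mem) (S18K_Ainf A K1 N') (S18K_Ainf A K1 N) S'.chartInf
    S.chartInf hIGinf hπ m hm hπm d hdm hd2

/-! ### The Atkin–Lehner involution on the finite chart -/

section Sigma

variable (q N' N : ℕ) [NeZero N'] [NeZero N] (hq : q.Prime) (hqN : ¬ q ∣ N') (hN : N = q * N')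

/-- the constants are constants -/
theorem S34N1K_hO : ∀ a ∈ S18K_O A K1, ∃ c : K1, HahnSeries.C c = a := by
  intro a ha
  obtain ⟨c, -, hc⟩ := (S18K_mem_O A K1 a).1 ha
  exact ⟨c, hc⟩

/-- `O ≤ A0` -/
theorem S34N1K_O_le_A0 : S18K_O A K1 ≤ S18K_A0 A K1 N := fun a ha =>
  mem_icl.2 ⟨isIntegral_of_mem _ (le_adj _ _ ha), by
    obtain ⟨c, rfl⟩ := S34N1K_hO A K1 a ha
    exact S34V0_C_mem N c⟩

/-- `w` maps the finite chart into itself, as soon as `j(q^q)` is integral over `O[j]`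
(modular equation). -/
theorem S34N1K_wL_mem_A0 [NeZero q]
    (hjq : IsIntegral (adj (S18K_O A K1) (S18K_j K1)) (qExpand K1 q (jqModC K1)))
    {a : LaurentSeries K1} (ha : a ∈ S18K_A0 A K1 N) :
    S34V0_wL (S34V0K_emb K1) q N' N hq hqN hN a ∈ S18K_A0 A K1 N := by
  obtain ⟨hint, haF⟩ := mem_icl.1 ha
  have hjF : S18K_j K1 ∈ modularFunctionFieldFullC K1 N := jqModC_mem_full K1 N
  have h1 := S34V0_isIntegral_wL (S34V0K_emb K1) q N' N hq hqN hN (S18K_O A K1)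
    (S34N1K_hO A K1) hjF haF hint
  have hwj : S34V0_wL (S34V0K_emb K1) q N' N hq hqN hN (S18K_j K1) =
      qExpand K1 q (jqModC K1) := S34V0_wL_j (S34V0K_emb K1) q N' N hq hqN hN
  rw [hwj] at h1
  have hjqA0 : qExpand K1 q (jqModC K1) ∈ S18K_A0 A K1 N :=
    mem_icl.2 ⟨hjq, by
      rw [← hwj]; exact S34V0_wL_mem (S34V0K_emb K1) q N' N hq hqN hN _⟩
  have hle : adj (S18K_O A K1) (qExpand K1 q (jqModC K1)) ≤ S18K_A0 A K1 N :=
    adj_le (S34N1K_O_le_A0 A K1 N) hjqA0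
  have h2 : IsIntegral (S18K_A0 A K1 N) (S34V0_wL (S34V0K_emb K1) q N' N hq hqN hN a) :=
    isIntegral_mono hle h1
  have h3 : IsIntegral (adj (S18K_O A K1) (S18K_j K1))
      (S34V0_wL (S34V0K_emb K1) q N' N hq hqN hN a) :=
    isIntegral_trans' (fun b hb => (mem_icl.1 hb).1) h2
  exact mem_icl.2 ⟨h3, S34V0_wL_mem (S34V0K_emb K1) q N' N hq hqN hN a⟩

/-- elements of the finite chart lie in `F` -/
theorem S34N1K_A0_le_F {a : LaurentSeries K1} (ha : a ∈ S18K_A0 A K1 N) :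
    a ∈ modularFunctionFieldFullC K1 N := (mem_icl.1 ha).2

/-- **The Atkin–Lehner involution as an automorphism of the finite chart.** -/
def S34N1K_sigma [NeZero q]
    (hjq : IsIntegral (adj (S18K_O A K1) (S18K_j K1)) (qExpand K1 q (jqModC K1))) :
    S18K_A0 A K1 N ≃+* S18K_A0 A K1 N where
  toFun a := ⟨S34V0_wL (S34V0K_emb K1) q N' N hq hqN hN (a : LaurentSeries K1),
    S34N1K_wL_mem_A0 A K1 q N' N hq hqN hN hjq a.2⟩
  invFun a := ⟨S34V0_wL (S34V0K_emb K1) q N' N hq hqN hN (a : LaurentSeries K1),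
    S34N1K_wL_mem_A0 A K1 q N' N hq hqN hN hjq a.2⟩
  left_inv a := Subtype.ext
    (S34V0_wL_wL (S34V0K_emb K1) q N' N hq hqN hN (S34N1K_A0_le_F A K1 N a.2))
  right_inv a := Subtype.ext
    (S34V0_wL_wL (S34V0K_emb K1) q N' N hq hqN hN (S34N1K_A0_le_F A K1 N a.2))
  map_mul' a b := Subtype.ext
    (S34V0_wL_mul (S34V0K_emb K1) q N' N hq hqN hN (S34N1K_A0_le_F A K1 N a.2)
      (S34N1K_A0_le_F A K1 N b.2))
  map_add' a b := Subtype.ext
    (S34V0_wL_add (S34V0K_emb K1) q N' N hq hqN hN (S34N1K_A0_le_F A K1 N a.2)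
      (S34N1K_A0_le_F A K1 N b.2))

theorem S34N1K_sigma_coe [NeZero q]
    (hjq : IsIntegral (adj (S18K_O A K1) (S18K_j K1)) (qExpand K1 q (jqModC K1)))
    (a : S18K_A0 A K1 N) :
    ((S34N1K_sigma A K1 q N' N hq hqN hN hjq a : S18K_A0 A K1 N) : LaurentSeries K1) =
      S34V0_wL (S34V0K_emb K1) q N' N hq hqN hN (a : LaurentSeries K1) := rfl

theorem S34N1K_sigma_symm_coe [NeZero q]
    (hjq : IsIntegral (adj (S18K_O A K1) (S18K_j K1)) (qExpand K1 q (jqModC K1)))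
    (a : S18K_A0 A K1 N) :
    (((S34N1K_sigma A K1 q N' N hq hqN hN hjq).symm a : S18K_A0 A K1 N) : LaurentSeries K1) =
      S34V0_wL (S34V0K_emb K1) q N' N hq hqN hN (a : LaurentSeries K1) := rfl

/-- `w π = π`. -/
theorem S34N1K_wL_pi :
    S34V0_wL (S34V0K_emb K1) q N' N hq hqN hN (S18K_π A K1) = S18K_π A K1 :=
  S34V0_wL_C (S34V0K_emb K1) q N' N hq hqN hN _

/-- `π ∈ F`. -/
theorem S34N1K_pi_mem_F : S18K_π A K1 ∈ modularFunctionFieldFullC K1 N :=
  S34V0_C_mem N _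

/-- `σ` exchanges the two vertical primes. -/
theorem S34N1K_sigma_vert [NeZero q]
    (hjq : IsIntegral (adj (S18K_O A K1) (S18K_j K1)) (qExpand K1 q (jqModC K1)))
    (a : S18K_A0 A K1 N) :
    (∃ v ∈ S34V0K_V A K1 q N' N hq hqN hN, (a : LaurentSeries K1) = S18K_π A K1 * v) ↔
      ∃ v ∈ S18K_V A K1 N,
        (((S34N1K_sigma A K1 q N' N hq hqN hN hjq).symm a : S18K_A0 A K1 N) :
          LaurentSeries K1) = S18K_π A K1 * v := by
  rw [S34N1K_sigma_symm_coe]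
  have hπF := S34N1K_pi_mem_F A K1 N
  constructor
  · rintro ⟨v, hv, hav⟩
    obtain ⟨hvF, hwv⟩ := (S34V0K_mem_V A K1 q N' N hq hqN hN).1 hv
    refine ⟨_, hwv, ?_⟩
    rw [hav, S34V0_wL_mul (S34V0K_emb K1) q N' N hq hqN hN hπF hvF,
      S34N1K_wL_pi A K1 q N' N hq hqN hN]
  · rintro ⟨v, hv, hav⟩
    have hvF : v ∈ modularFunctionFieldFullC K1 N := hv.2
    refine ⟨S34V0_wL (S34V0K_emb K1) q N' N hq hqN hN v,
      S34V0_wL_mem_image (S34V0K_emb K1) q N' N hq hqN hN hvF hv, ?_⟩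
    have h1 := congrArg (S34V0_wL (S34V0K_emb K1) q N' N hq hqN hN) hav
    rw [S34V0_wL_wL (S34V0K_emb K1) q N' N hq hqN hN (S34N1K_A0_le_F A K1 N a.2),
      S34V0_wL_mul (S34V0K_emb K1) q N' N hq hqN hN hπF hvF,
      S34N1K_wL_pi A K1 q N' N hq hqN hN] at h1
    exact h1

end Sigma

/-! ### The contract `S34K_N1` -/

section Contract

variable (q N' N : ℕ) [NeZero N'] [NeZero N] (hq : q.Prime) (hqN : ¬ q ∣ N') (hN : N = q * N')

/-- **The contract `S34K_N1` for the finite chart** (`V2 = S34V0K_V`, the `w`-image of the Gauss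
ring).  Inputs: (V) = `S34C_Setup2`, the residue degree one of the Gauss ring of level `N`
over the Gauss ring of level `N'` (KEY), and the modular equation (`j(q^q)` integral over
`O[j]`). -/
theorem S34N1K_A0 [NeZero q] (hA : A.LiesOverPrime q) (h : S18K_Admissible A K1 q)
    (S : S34C_Setup2 (S18K_O A K1) (S18K_π A K1) (S18K_j K1) (S18K_F1 K1 N) (S18K_V A K1 N)
      (S34V0K_V A K1 q N' N hq hqN hN) (S18K_A0 A K1 N) (S18K_Ainf A K1 N))
    (hres : ∀ x ∈ S18K_V A K1 N, ∃ r ∈ S18K_V A K1 N', ∃ v ∈ S18K_V A K1 N,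
      x = r + S18K_π A K1 * v)
    (hjq : IsIntegral (adj (S18K_O A K1) (S18K_j K1)) (qExpand K1 q (jqModC K1))) :
    S34K_N1 (S18K_π A K1) (S18K_V A K1 N) (S34V0K_V A K1 q N' N hq hqN hN)
      (S18K_A0 A K1 N) := by
  intro hπ m hm hπm hnot
  have hdvd : N' ∣ N := S34V0K_dvd hN
  by_cases h2 : S34K_Thru (S18K_π A K1) (S34V0K_V A K1 q N' N hq hqN hN) (S18K_A0 A K1 N) m
  · have h1 : ¬ S34K_Thru (S18K_π A K1) (S18K_V A K1 N) (S18K_A0 A K1 N) m :=
      fun h1 => hnot ⟨h1, h2⟩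
    obtain ⟨d, hd⟩ := not_forall.1 h1
    obtain ⟨hd1, hdm⟩ := Classical.not_imp.1 hd
    haveI := S34N1K_charZero K1
    haveI : Fact q.Prime := ⟨hq⟩
    have hAB := Fermat.Agent.S18_helper25_FINAL.S18K_blocksAB_of_blockB N' hqN A hA
      (Fermat.Agent.S18_helper12_TOP.S18TOP_blockB N' hqN A hA)
    obtain ⟨S', hIG0, -⟩ := hAB K1 h
    haveI : IsNoetherianRing (S18K_A0 A K1 N') :=
      Fermat.Agent.S18_helper27_CNOETH.S18CNOETH_chart_noetherian S' (S18K_j K1) (Or.inl rfl)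
        (S18K_A0 A K1 N') S'.chart0
    exact S34N1S_thru2 S' S (S34V3K_F1_mono K1 hdvd) (S34V3K_V_mono A K1 hdvd) hres
      (S18K_j K1) S'.j_mem (S18K_A0 A K1 N') (S18K_A0 A K1 N) S'.chart0 S.chart0 hIG0 hπ
      (S34N1K_sigma A K1 q N' N hq hqN hN hjq)
      (Subtype.ext (S34N1K_wL_pi A K1 q N' N hq hqN hN))
      (S34N1K_sigma_vert A K1 q N' N hq hqN hN hjq) m hm hπm d hdm hd1
  · exact S34N1K_thru1_A0 A K1 hq hA N' N hqN hdvd h _ S hres hπ m hm hπm h2

/-- the residue field of the constants is algebraically closed -/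
theorem S34N1K_isAlgClosed (h : S18K_Admissible A K1 q) [IsLocalRing (S18K_O A K1)] :
    IsAlgClosed (IsLocalRing.ResidueField (S18K_O A K1)) := by
  haveI : IsAlgClosed (IsLocalRing.ResidueField A) :=
    Fermat.Agent.S18_helper27_RESALGCL.S18RES_isAlgClosed_residueField_Qbar A
  have key : ∀ (O' : Subring (LaurentSeries K1)),
      Fermat.Agent.S18A.OL (S18K_O1 A K1) K1 = O' → ∀ [IsLocalRing O'],
      IsAlgClosed (IsLocalRing.ResidueField O') := by
    intro O' hO'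
    subst hO'
    intro inst
    exact Fermat.Agent.S18_helper18_IGINFL.S18IGINFL_isAlgClosed_OL (O := S18K_O1 A K1)
      (K1 := K1) (S18K_res A K1) (S18K_res_eq_zero_iff A K1) h.res_surj
  exact key _ (Fermat.Agent.S18_helper12_BRIDGE.S18BR_OL_eq A K1)

/-- **The contract `S34K_N1` for the chart at infinity**, from `IGAt` at the cusps which lie on
the component of `V2` only (`hcusp`, helper18's X-CUSP).  The points on the component of `V1`
(cusps included) come from the chart at infinity of level `N'`; the non-cuspidal points on the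
component of `V2` are transferred from the finite chart. -/
theorem S34N1K_Ainf [NeZero q] (hA : A.LiesOverPrime q) (h : S18K_Admissible A K1 q)
    (S : S34C_Setup2 (S18K_O A K1) (S18K_π A K1) (S18K_j K1) (S18K_F1 K1 N) (S18K_V A K1 N)
      (S34V0K_V A K1 q N' N hq hqN hN) (S18K_A0 A K1 N) (S18K_Ainf A K1 N))
    (hres : ∀ x ∈ S18K_V A K1 N, ∃ r ∈ S18K_V A K1 N', ∃ v ∈ S18K_V A K1 N,
      x = r + S18K_π A K1 * v)
    (hjq : IsIntegral (adj (S18K_O A K1) (S18K_j K1)) (qExpand K1 q (jqModC K1)))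
    (hcusp : ∀ (hπ : S18K_π A K1 ∈ S18K_Ainf A K1 N) (m : Ideal (S18K_Ainf A K1 N)),
      m.IsMaximal → (⟨S18K_π A K1, hπ⟩ : S18K_Ainf A K1 N) ∈ m →
      (⟨(S18K_j K1)⁻¹, S34N1T_jinv_mem S⟩ : S18K_Ainf A K1 N) ∈ m →
      ¬ S34K_Thru (S18K_π A K1) (S18K_V A K1 N) (S18K_Ainf A K1 N) m →
      IGAt (S18K_π A K1) (S18K_Ainf A K1 N) m) :
    S34K_N1 (S18K_π A K1) (S18K_V A K1 N) (S34V0K_V A K1 q N' N hq hqN hN)
      (S18K_Ainf A K1 N) := by
  intro hπ m hm hπm hnot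
  have hdvd : N' ∣ N := S34V0K_dvd hN
  by_cases h2 : S34K_Thru (S18K_π A K1) (S34V0K_V A K1 q N' N hq hqN hN) (S18K_Ainf A K1 N) m
  · have h1 : ¬ S34K_Thru (S18K_π A K1) (S18K_V A K1 N) (S18K_Ainf A K1 N) m :=
      fun h1 => hnot ⟨h1, h2⟩
    by_cases hjm : (⟨(S18K_j K1)⁻¹, S34N1T_jinv_mem S⟩ : S18K_Ainf A K1 N) ∈ m
    · exact hcusp hπ m hm hπm hjm h1
    · obtain ⟨d, hd⟩ := not_forall.1 h1
      obtain ⟨hd1, hdm⟩ := Classical.not_imp.1 hd
      haveI : IsDiscreteValuationRing (S18K_O A K1) := S.dvr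
      haveI : IsAlgClosed (IsLocalRing.ResidueField (S18K_O A K1)) :=
        S34N1K_isAlgClosed A K1 q h
      have hjV1 : S18K_j K1 ∈ S18K_V A K1 N := S34V0K_j_mem_V1 A K1 N
      refine S34N1T_transfer S (S18K_V A K1 N) hjV1 ?_ hπ m hm hπm hjm d hdm hd1
      intro hπ0 m0 hm0 hπm0 hd0
      obtain ⟨d0, hd0m, hd0W⟩ := hd0
      exact S34N1K_A0 A K1 q N' N hq hqN hN hA h S hres hjq hπ0 m0 hm0 hπm0
        (fun hboth => hd0m (hboth.1 d0 hd0W))
  · exact S34N1K_thru1_Ainf A K1 hq hA N' N hqN hdvd h _ S hres hπ m hm hπm h2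

end Contract

end Fermat.Agent.S34_helper14_N1K
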