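import Fermat.Agent.S34_helper25_RELA
import Fermat.Agent.S34_helper20_V0K
import Fermat.Agent.S18_helper26_DEGK1
import Fermat.Agent.S34_helper15_DEG
import Fermat.Agent.S18_helper13_FIN
import Fermat.Agent.S28_helper2_INDEPC_Order
import Fermat.Agent.S34_helper18_CUSP

/-!
# S34, piece X-REL (helper15): the modular relation with degree bounds from `hjq`

Concrete plug of helper25's abstract core `S34RELA_main`: for the `S18K` carriers
(`O = S18K_O A K1`, `j = S18K_j K1`, `θ = j(q^q)`), integrality of `θ` over `O[j]` (`hjq`) gives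
helper18's `S34CUSP_RelSum` / `S34CUSP_Rel` in BOTH orders `(j, θ)` and `(θ, j)`, with the same
coefficients.

Inputs: helper20's Atkin–Lehner involution `w` (level `q = q * 1`), the degree bound
`S18DEG_stepA` (`mu q = q + 1`), transcendence of `j`, and the orders of `j`, `θ` at the cusp.
-/

set_option autoImplicit false
set_option linter.unusedSectionVars false
set_option linter.unusedVariables false
set_option linter.style.haveILetI false

noncomputable section

open Polynomial ModularCurve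
open scoped Polynomial.Bivariate
open Fermat.Agent.S24 Fermat.Agent.S20
open Fermat.Agent.S18_helper9_CDefs Fermat.Agent.S18_helper9_CBasic
open Fermat.Agent.S18_helper25_COREDefs
open Fermat.Agent.S34_helper20_WQ Fermat.Agent.S34_helper20_V0 Fermat.Agent.S34_helper20_V0K
open Fermat.Agent.S34_helper25_RELA Fermat.Agent.S34_helper18_CUSP

namespace Fermat.Agent.S34_helper15_REL

/-! ### The valuation at the cusp -/

section Val

variable (K1 : Type*) [Field K1]

/-- constants have nonnegative order -/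
theorem S34REL_val_C (c : K1) :
    0 ≤ HahnSeries.addVal ℤ K1 (HahnSeries.C c) := by
  rw [HahnSeries.addVal_apply]
  exact HahnSeries.orderTop_single_le

/-- `ord j = -1` -/
theorem S34REL_val_j :
    HahnSeries.addVal ℤ K1 (jqModC K1) = ((-1 : ℤ) : WithTop ℤ) := by
  rw [HahnSeries.addVal_apply]
  exact Fermat.Agent.S28_INDEPC.orderTop_jqModC K1

/-- `ord j(q^q) = -q` -/
theorem S34REL_val_θ (q : ℕ) [NeZero q] :
    HahnSeries.addVal ℤ K1 (qExpand K1 q (jqModC K1)) = ((-(q : ℤ) : ℤ) : WithTop ℤ) := by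
  rw [HahnSeries.addVal_apply]
  apply Fermat.Agent.S28_INDEPC.orderTop_eq_of_coeff
  · have h : (-(q : ℤ)) = (q : ℤ) * (-1) := by ring
    rw [h, qExpand_coeff_mul, coeff_jqModC_neg_one]
    exact one_ne_zero
  · intro m hm
    by_cases hd : (q : ℤ) ∣ m
    · obtain ⟨k, rfl⟩ := hd
      rw [qExpand_coeff_mul]
      apply coeff_jqModC_of_lt
      have hq0 : (0 : ℤ) < q := by exact_mod_cast Nat.pos_of_ne_zero (NeZero.ne q)
      by_contra hk
      push Not at hk
      have : -(q : ℤ) ≤ (q : ℤ) * k := by nlinarith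
      omega
    · exact qExpand_coeff_of_not_dvd q _ hd

/-- `j(q^q) ≠ j` for `q ≥ 2` -/
theorem S34REL_θ_ne_j (q : ℕ) [NeZero q] (hq : 2 ≤ q) :
    qExpand K1 q (jqModC K1) ≠ jqModC K1 := by
  intro h
  have h1 := S34REL_val_θ K1 q
  rw [h, S34REL_val_j] at h1
  have h2 : (-1 : ℤ) = -(q : ℤ) := WithTop.coe_injective h1
  omega

end Val

/-! ### The generic plug -/

section Generic

variable {K1 : Type*} [Field K1] [CharZero K1] (emb : K1 →+* Kbar)
  {A : Type*} [CommRing A] [IsDomain A] [IsIntegrallyClosed A[X]] [Algebra A K1]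
  [IsFractionRing A K1]

/-- the constants `A → K1 → K1((q))` -/
def S34REL_c (K1 : Type*) [Field K1] (A : Type*) [CommRing A] [Algebra A K1] :
    A →+* LaurentSeries K1 :=
  (HahnSeries.C : K1 →+* LaurentSeries K1).comp (algebraMap A K1)

theorem S34REL_c_apply (a : A) : S34REL_c K1 A a = HahnSeries.C (algebraMap A K1 a) := rfl

/-- `j` is transcendental over the constants -/
theorem S34REL_hj : Function.Injective
    (eval₂RingHom (S34REL_c K1 A) (jqModC K1)) := by
  have h1 : Function.Injective (Polynomial.aeval (R := K1) (jqModC K1)) :=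
    transcendental_iff_injective.mp (Fermat.Agent.S18_helper13_FIN.S18FIN_transcendental K1)
  have h2 : Function.Injective (Polynomial.mapRingHom (algebraMap A K1)) :=
    Polynomial.map_injective _ (IsFractionRing.injective A K1)
  have h3 : (eval₂RingHom (S34REL_c K1 A) (jqModC K1) : A[X] →+* LaurentSeries K1) =
      ((Polynomial.aeval (R := K1) (jqModC K1)).toRingHom).comp
        (Polynomial.mapRingHom (algebraMap A K1)) := by
    apply Polynomial.ringHom_ext
    · intro a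
      simp only [coe_eval₂RingHom, eval₂_C, RingHom.comp_apply, coe_mapRingHom, map_C,
        AlgHom.toRingHom_eq_coe, RingHom.coe_coe, aeval_C, S34REL_c_apply]
      rw [algebraMap_laurentSeries_eq_single, HahnSeries.C_apply]
    · simp
  rw [h3]
  exact h1.comp h2

variable (q : ℕ) [NeZero q] (hq : q.Prime)

include emb hq in
/-- **the symmetry**: the relations between `j` and `θ` are stable under the exchange of `j` and
`θ` (Atkin–Lehner involution at level `q = q * 1`). -/
theorem S34REL_hsw (P : A[X][Y])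
    (h : S34RELA_ev (S34REL_c K1 A) (jqModC K1) (qExpand K1 q (jqModC K1)) P = 0) :
    S34RELA_ev (S34REL_c K1 A) (qExpand K1 q (jqModC K1)) (jqModC K1) P = 0 := by
  have h1 : ¬ q ∣ 1 := hq.not_dvd_one
  have hN : q = q * 1 := (mul_one q).symm
  set F := modularFunctionFieldFullC K1 q with hF
  set w := S34V0_w emb q 1 q hq h1 hN with hw
  have hjF : jqModC K1 ∈ F := jqModC_mem_full K1 q
  have hθF : qExpand K1 q (jqModC K1) ∈ F := jqModCd_mem_full K1 q (dvd_refl q)
  -- the constants, with values in `F`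
  let cF : A →+* F := (S34REL_c K1 A).codRestrict F.toSubring
    (fun a => S34V0_C_mem q (algebraMap A K1 a))
  let incl : F →+* LaurentSeries K1 := F.toSubring.subtype
  have hincl : ∀ (x y : F) (P : A[X][Y]),
      incl (S34RELA_ev cF x y P) = S34RELA_ev (S34REL_c K1 A) (x : LaurentSeries K1)
        (y : LaurentSeries K1) P := by
    intro x y P
    exact S34RELA_ev_map cF (S34REL_c K1 A) incl (fun a => rfl) x y P
  have hinj : Function.Injective incl := Subtype.val_injective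
  -- `w` fixes the constants and exchanges `j` and `θ`
  have hwc : ∀ a : A, (w : F →+* F) (cF a) = cF a := by
    intro a
    exact S34V0_w_C emb q 1 q hq h1 hN (algebraMap A K1 a) _
  have hwj : w ⟨jqModC K1, hjF⟩ = ⟨qExpand K1 q (jqModC K1), hθF⟩ := by
    apply Subtype.ext
    have := S34V0_wL_j emb q 1 q hq h1 hN
    rw [S34V0_wL_of_mem emb q 1 q hq h1 hN hjF] at this
    exact this
  have hwθ : w ⟨qExpand K1 q (jqModC K1), hθF⟩ = ⟨jqModC K1, hjF⟩ := by
    rw [← hwj]
    exact S34V0_w_w emb q 1 q hq h1 hN _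
  -- the relation inside `F`
  have h0 : S34RELA_ev cF ⟨jqModC K1, hjF⟩ ⟨qExpand K1 q (jqModC K1), hθF⟩ P = 0 := by
    apply hinj
    rw [hincl, map_zero]
    exact h
  have h2 := S34RELA_ev_map cF cF (w : F →+* F) hwc ⟨jqModC K1, hjF⟩
    ⟨qExpand K1 q (jqModC K1), hθF⟩ P
  rw [h0, map_zero] at h2
  have h3 : S34RELA_ev cF ⟨qExpand K1 q (jqModC K1), hθF⟩ ⟨jqModC K1, hjF⟩ P = 0 := by
    have e1 : (w : F →+* F) ⟨jqModC K1, hjF⟩ = ⟨qExpand K1 q (jqModC K1), hθF⟩ := hwj
    have e2 : (w : F →+* F) ⟨qExpand K1 q (jqModC K1), hθF⟩ = ⟨jqModC K1, hjF⟩ := hwθ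
    rw [e1, e2] at h2
    exact h2.symm
  have h4 := hincl ⟨qExpand K1 q (jqModC K1), hθF⟩ ⟨jqModC K1, hjF⟩ P
  rw [h3, map_zero] at h4
  exact h4.symm

/-- `mu q = q + 1` -/
theorem S34REL_mu (hq : q.Prime) : mu q = q + 1 := by
  rw [Fermat.Agent.S20_helper29_A1.A1 q]
  have h := Fermat.Agent.S20_helper29_A1.psi_mul_of_not_dvd q 1 hq one_ne_zero hq.not_dvd_one
  rw [mul_one, dedekindPsi_one, one_mul] at h
  exact h

include emb hq in
/-- **one relation of degree `≤ q + 1`** over `K1` -/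
theorem S34REL_exists_Q :
    ∃ Q : K1[X][Y], Q ≠ 0 ∧ Q.natDegree ≤ q + 1 ∧
      S34RELA_ev (HahnSeries.C : K1 →+* LaurentSeries K1) (jqModC K1)
        (qExpand K1 q (jqModC K1)) Q = 0 := by
  have hθF : qExpand K1 q (jqModC K1) ∈ modularFunctionFieldFullC K1 q :=
    jqModCd_mem_full K1 q (dvd_refl q)
  obtain ⟨Q, hQ0, hQd, hQ⟩ :=
    Fermat.Agent.S18_helper26_DEGK1.S18DEG_stepA emb q ⟨qExpand K1 q (jqModC K1), hθF⟩
  refine ⟨Q, hQ0, ?_, hQ⟩
  rw [← S34REL_mu q hq]
  exact hQd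

include emb hq in
/-- **X-REL, generic form.**  `A` a domain with fraction field `K1`, `A[X]` integrally closed;
if `θ = j(q^q)` satisfies a monic relation over `A[j]`, then the modular relation with degree
bounds holds in both orders. -/
theorem S34REL_generic
    (hint : ∃ G : A[X][Y], G.Monic ∧
      S34RELA_ev (S34REL_c K1 A) (jqModC K1) (qExpand K1 q (jqModC K1)) G = 0) :
    ∃ a : ℕ → A[X], (∀ i, 1 ≤ i → i ≤ q → (a i).natDegree ≤ q) ∧ (a 0).Monic ∧
      (a 0).natDegree = q + 1 ∧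
      (qExpand K1 q (jqModC K1)) ^ (q + 1) + ∑ i ∈ Finset.range (q + 1),
        (a i).eval₂ (S34REL_c K1 A) (jqModC K1) * (qExpand K1 q (jqModC K1)) ^ i = 0 ∧
      (jqModC K1) ^ (q + 1) + ∑ i ∈ Finset.range (q + 1),
        (a i).eval₂ (S34REL_c K1 A) (qExpand K1 q (jqModC K1)) * (jqModC K1) ^ i = 0 := by
  haveI : CharZero A := (algebraMap A K1).charZero
  obtain ⟨Q, hQ0, hQd, hQ⟩ := S34REL_exists_Q emb q hq
  exact S34RELA_main (S34REL_c K1 A) (HahnSeries.C : K1 →+* LaurentSeries K1)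
    (fun a => rfl) (jqModC K1) (qExpand K1 q (jqModC K1)) S34REL_hj
    (S34REL_θ_ne_j K1 q hq.two_le) hint (fun P hP => S34REL_hsw emb q hq P hP)
    q hq.two_le Q hQ0 hQd hQ (HahnSeries.addVal ℤ K1)
    (fun a => S34REL_val_C K1 _) (S34REL_val_j K1) (S34REL_val_θ K1 q)

end Generic

/-! ### The concrete carriers -/

section Concrete

variable (A : ValuationSubring (AlgebraicClosure ℚ))
  (K1 : IntermediateField ℚ (AlgebraicClosure ℚ))

/-- the isomorphism of `O1 = A ∩ K1` onto the constants `O ⊆ K1((q))`, as a ring homomorphism -/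
def S34REL_e : ↥(S18K_O1 A K1) →+* ↥(S18K_O A K1) :=
  (S34REL_c K1 ↥(S18K_O1 A K1)).codRestrict (S18K_O A K1)
    (fun a => (S18K_mem_O A K1 _).mpr ⟨(a : K1), a.2, rfl⟩)

theorem S34REL_e_coe (a : ↥(S18K_O1 A K1)) :
    ((S34REL_e A K1 a : ↥(S18K_O A K1)) : LaurentSeries K1) = S34REL_c K1 ↥(S18K_O1 A K1) a :=
  rfl

/-- evaluation of a polynomial over `O1` and of its image over `O` -/
theorem S34REL_aeval_map (x : LaurentSeries K1) (p : (↥(S18K_O1 A K1))[X]) :
    Polynomial.aeval x (p.map (S34REL_e A K1)) =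
      p.eval₂ (S34REL_c K1 ↥(S18K_O1 A K1)) x := by
  rw [Polynomial.aeval_def, Polynomial.eval₂_map]
  rfl

/-- every element of `O[j]` is a polynomial in `j` with coefficients in `O1` -/
theorem S34REL_adj_le :
    ∀ r ∈ adj (S18K_O A K1) (S18K_j K1),
      ∃ p : (↥(S18K_O1 A K1))[X],
        eval₂RingHom (S34REL_c K1 ↥(S18K_O1 A K1)) (jqModC K1) p = r := by
  have hle : adj (S18K_O A K1) (S18K_j K1) ≤
      (eval₂RingHom (S34REL_c K1 ↥(S18K_O1 A K1)) (jqModC K1)).range := by
    unfold adj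
    rw [Subring.closure_le]
    rintro x (hx | hx)
    · obtain ⟨c, hc, rfl⟩ := (S18K_mem_O A K1 x).mp hx
      refine ⟨Polynomial.C (⟨c, hc⟩ : ↥(S18K_O1 A K1)), ?_⟩
      simp only [coe_eval₂RingHom, eval₂_C]
      rfl
    · rw [Set.mem_singleton_iff] at hx
      rw [hx]
      exact ⟨Polynomial.X, by simp [S18K_j]⟩
  intro r hr
  exact RingHom.mem_range.mp (hle hr)

variable [IsDiscreteValuationRing (S18K_O1 A K1)] (q : ℕ) [NeZero q] (hq : q.Prime)

include hq in
/-- **X-REL** for the `S18K` carriers, with the SAME coefficients in both orders: if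
`θ = j(q^q)` is integral over `O[j]`, then `θ^(q+1) + ∑ a_i(j) θ^i = 0` and
`j^(q+1) + ∑ a_i(θ) j^i = 0` with `a_i ∈ O[X]`, `deg a_i ≤ q` for `1 ≤ i ≤ q`, `a_0` monic of
degree `q + 1`. -/
theorem S34REL_relSum_same
    (hjq : IsIntegral (adj (S18K_O A K1) (S18K_j K1)) (qExpand K1 q (S18K_j K1))) :
    ∃ a : ℕ → (↥(S18K_O A K1))[X],
      (∀ i, 1 ≤ i → i ≤ q → (a i).natDegree ≤ q) ∧ (a 0).Monic ∧ (a 0).natDegree = q + 1 ∧
      (qExpand K1 q (jqModC K1)) ^ (q + 1) + ∑ i ∈ Finset.range (q + 1),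
        Polynomial.aeval (S18K_j K1) (a i) * (qExpand K1 q (jqModC K1)) ^ i = 0 ∧
      (S18K_j K1) ^ (q + 1) + ∑ i ∈ Finset.range (q + 1),
        Polynomial.aeval (qExpand K1 q (jqModC K1)) (a i) * (S18K_j K1) ^ i = 0 := by
  have hint : ∃ G : (↥(S18K_O1 A K1))[X][Y], G.Monic ∧
      S34RELA_ev (S34REL_c K1 ↥(S18K_O1 A K1)) (jqModC K1) (qExpand K1 q (jqModC K1)) G = 0 :=
    S34RELA_hint (eval₂RingHom (S34REL_c K1 ↥(S18K_O1 A K1)) (jqModC K1))
      (adj (S18K_O A K1) (S18K_j K1)) (S34REL_adj_le A K1) _ hjq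
  obtain ⟨a, ha, ha0, ha0d, h1, h2⟩ :=
    S34REL_generic (K1 := K1) (A := ↥(S18K_O1 A K1)) (S34V0K_emb K1) q hq hint
  refine ⟨fun i => (a i).map (S34REL_e A K1), ?_, ha0.map _, ?_, ?_, ?_⟩
  · intro i hi hiq
    exact (Polynomial.natDegree_map_le).trans (ha i hi hiq)
  · rw [ha0.natDegree_map, ha0d]
  · simp only [S34REL_aeval_map]
    exact h1
  · simp only [S34REL_aeval_map]
    exact h2

include hq in
/-- helper18's sum form of the modular relation, in both orders -/
theorem S34REL_relSum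
    (hjq : IsIntegral (adj (S18K_O A K1) (S18K_j K1)) (qExpand K1 q (S18K_j K1))) :
    S34CUSP_RelSum (S18K_O A K1) (S18K_j K1) (qExpand K1 q (jqModC K1)) q ∧
      S34CUSP_RelSum (S18K_O A K1) (qExpand K1 q (jqModC K1)) (S18K_j K1) q := by
  obtain ⟨a, ha, ha0, ha0d, h1, h2⟩ := S34REL_relSum_same A K1 q hq hjq
  exact ⟨⟨a, ha, ha0, ha0d, h1⟩, ⟨a, ha, ha0, ha0d, h2⟩⟩

include hq in
/-- **`hrel`**: helper18's `S34CUSP_Rel` for `(j, θ)` -/
theorem S34REL_rel
    (hjq : IsIntegral (adj (S18K_O A K1) (S18K_j K1)) (qExpand K1 q (S18K_j K1))) :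
    S34CUSP_Rel (S18K_O A K1) (S18K_j K1) (qExpand K1 q (jqModC K1)) q :=
  S34CUSP_rel_of_relSum (S34REL_relSum A K1 q hq hjq).1

include hq in
/-- **`hrel'`**: helper18's `S34CUSP_Rel` for `(θ, j)` -/
theorem S34REL_rel'
    (hjq : IsIntegral (adj (S18K_O A K1) (S18K_j K1)) (qExpand K1 q (S18K_j K1))) :
    S34CUSP_Rel (S18K_O A K1) (qExpand K1 q (jqModC K1)) (S18K_j K1) q :=
  S34CUSP_rel_of_relSum (S34REL_relSum A K1 q hq hjq).2

end Concrete

end Fermat.Agent.S34_helper15_REL
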