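import Fermat.Agent.S34_helper15_REL
import Fermat.Agent.S34_helper13_HJQM

/-!
# S34, piece X-REL (helper15): the modular relation with degree bounds, unconditionally

`S34_helper15_REL` (the relation from `hjq`) fed with helper13's `S34HJQ_main` (`hjq` proved for
every valuation subring `A` of `ℚ̄` over `q` and every level `K1` with `O1 = A ∩ K1` a discrete
valuation ring): helper18's `S34CUSP_Rel` holds in both orders, with no hypothesis left.
-/

set_option autoImplicit false
set_option linter.unusedSectionVars false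
set_option linter.unusedVariables false

noncomputable section

open Polynomial ModularCurve
open Fermat.Agent.S18_helper9_CDefs Fermat.Agent.S18_helper25_COREDefs
open Fermat.Agent.S34_helper18_CUSP Fermat.Agent.S34_helper15_REL
open Fermat.Agent.S34_helper13_HJQM

namespace Fermat.Agent.S34_helper15_RELM

variable (A : ValuationSubring (AlgebraicClosure ℚ))
  (K1 : IntermediateField ℚ (AlgebraicClosure ℚ)) [IsDiscreteValuationRing (S18K_O1 A K1)]
  (q : ℕ) [NeZero q] (hq : q.Prime) (hA : A.LiesOverPrime q)

include hq hA in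
/-- **`hjq`** (helper13), restated -/
theorem S34RELM_hjq :
    IsIntegral (adj (S18K_O A K1) (S18K_j K1)) (qExpand K1 q (S18K_j K1)) :=
  S34HJQ_main A K1 q hq hA

include hq hA in
/-- the modular relation in both orders, with the same coefficients -/
theorem S34RELM_relSum_same :
    ∃ a : ℕ → (↥(S18K_O A K1))[X],
      (∀ i, 1 ≤ i → i ≤ q → (a i).natDegree ≤ q) ∧ (a 0).Monic ∧ (a 0).natDegree = q + 1 ∧
      (qExpand K1 q (jqModC K1)) ^ (q + 1) + ∑ i ∈ Finset.range (q + 1),
        Polynomial.aeval (S18K_j K1) (a i) * (qExpand K1 q (jqModC K1)) ^ i = 0 ∧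
      (S18K_j K1) ^ (q + 1) + ∑ i ∈ Finset.range (q + 1),
        Polynomial.aeval (qExpand K1 q (jqModC K1)) (a i) * (S18K_j K1) ^ i = 0 :=
  S34REL_relSum_same A K1 q hq (S34HJQ_main A K1 q hq hA)

include hq hA in
/-- **`hrel`, unconditional**: `S34CUSP_Rel O j θ q` -/
theorem S34RELM_rel :
    S34CUSP_Rel (S18K_O A K1) (S18K_j K1) (qExpand K1 q (jqModC K1)) q :=
  S34REL_rel A K1 q hq (S34HJQ_main A K1 q hq hA)

include hq hA in
/-- **`hrel'`, unconditional**: `S34CUSP_Rel O θ j q` -/
theorem S34RELM_rel' :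
    S34CUSP_Rel (S18K_O A K1) (qExpand K1 q (jqModC K1)) (S18K_j K1) q :=
  S34REL_rel' A K1 q hq (S34HJQ_main A K1 q hq hA)

end Fermat.Agent.S34_helper15_RELM
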