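import Fermat.Agent.S34_helper20_V0K

/-!
# S34, piece X-SIGMA (helper15): the ring isomorphisms induced by `w` on the charts

`N = q N'`, `q ∤ N'`, `w = S34V0_w` the Atkin–Lehner involution of `F = K1(j(q^d) : d ∣ N)`
(helper20), `wL` its elementwise form on `L = K1((q))`.

Generic part (`K1 : Type*`):

* `S34SIG_hom`, `S34SIG_equiv` : for subrings `X, Y ⊆ F` of `L` with `wL X ⊆ Y` and `wL Y ⊆ X`,
  the ring isomorphism `X ≃+* Y`, `a ↦ wL a` (inverse `b ↦ wL b`);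
* `S34SIG_icl` : `wL` maps `icl (adj O g) F` into `icl (adj O (wL g)) F`;
* `S34SIG_icl_le` : `icl (adj O g') F ≤ icl (adj O g) F` if `g'` is integral over `O[g]`.

Concrete part (the `S18K` carriers, `V1 = S18K_V A K1 N` the Gauss ring, `V2 = S34V0K_V = w(V1)`):

* `S34SIG_A0` : from `hjq : j(q^q)` integral over `O[j]` (helper8's MODEQ), the automorphism `σ`
  of the finite chart `A0 = S18K_A0 A K1 N`, in the exact shape of the hypotheses `hσπ`, `hσ` of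
  helper14's `S34N1S_thru2`;
* `S34SIG_Ainf` : the isomorphism `σ : Ainf ≃+* At`, `At = icl (adj O j(q^q)⁻¹) F1`
  (no hypothesis), with `σ π = π`, `σ j⁻¹ = j(q^q)⁻¹` and the exchange of the vertical primes.
-/

set_option autoImplicit false
set_option linter.unusedSectionVars false
set_option linter.unusedVariables false
set_option linter.style.haveILetI false

noncomputable section

open ModularCurve Fermat.Agent.S24
open Fermat.Agent.S18_helper13_GAUSS Fermat.Agent.S18_helper9_CDefs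
open Fermat.Agent.S18_helper9_CBasic
open Fermat.Agent.S18_helper25_COREDefs Fermat.Agent.S34_helper12_CDefs
open Fermat.Agent.S34_helper27_C2Defs Fermat.Agent.S34_helper20_WQ Fermat.Agent.S34_helper20_V0
open Fermat.Agent.S34_helper27_V3K Fermat.Agent.S34_helper20_V0K

namespace Fermat.Agent.S34_helper15_SIGMA

/-! ### Generic part -/

section Generic

variable {K1 : Type*} [Field K1] (emb : K1 →+* Kbar) (q N' N : ℕ) [NeZero N'] [NeZero N]
  (hq : q.Prime) (hqN : ¬ q ∣ N') (hN : N = q * N')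

/-- the ring homomorphism `X → Y`, `a ↦ w a`, for subrings `X, Y` of `L` with `X ⊆ F` and
`w X ⊆ Y` -/
def S34SIG_hom (X Y : Subring (LaurentSeries K1))
    (hXF : ∀ a ∈ X, a ∈ modularFunctionFieldFullC K1 N)
    (hXY : ∀ a ∈ X, S34V0_wL emb q N' N hq hqN hN a ∈ Y) : X →+* Y where
  toFun a := ⟨S34V0_wL emb q N' N hq hqN hN (a : LaurentSeries K1), hXY a a.2⟩
  map_one' := Subtype.ext (S34V0_wL_one emb q N' N hq hqN hN)
  map_mul' a b := Subtype.ext
    (S34V0_wL_mul emb q N' N hq hqN hN (hXF a a.2) (hXF b b.2))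
  map_zero' := Subtype.ext (S34V0_wL_zero emb q N' N hq hqN hN)
  map_add' a b := Subtype.ext
    (S34V0_wL_add emb q N' N hq hqN hN (hXF a a.2) (hXF b b.2))

theorem S34SIG_hom_coe (X Y : Subring (LaurentSeries K1))
    (hXF : ∀ a ∈ X, a ∈ modularFunctionFieldFullC K1 N)
    (hXY : ∀ a ∈ X, S34V0_wL emb q N' N hq hqN hN a ∈ Y) (a : X) :
    ((S34SIG_hom emb q N' N hq hqN hN X Y hXF hXY a : Y) : LaurentSeries K1) =
      S34V0_wL emb q N' N hq hqN hN (a : LaurentSeries K1) := rfl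

/-- the ring isomorphism `X ≃+* Y`, `a ↦ w a`, for subrings `X, Y ⊆ F` of `L` exchanged by `w` -/
def S34SIG_equiv (X Y : Subring (LaurentSeries K1))
    (hXF : ∀ a ∈ X, a ∈ modularFunctionFieldFullC K1 N)
    (hYF : ∀ a ∈ Y, a ∈ modularFunctionFieldFullC K1 N)
    (hXY : ∀ a ∈ X, S34V0_wL emb q N' N hq hqN hN a ∈ Y)
    (hYX : ∀ a ∈ Y, S34V0_wL emb q N' N hq hqN hN a ∈ X) : X ≃+* Y :=
  RingEquiv.ofRingHom (S34SIG_hom emb q N' N hq hqN hN X Y hXF hXY)
    (S34SIG_hom emb q N' N hq hqN hN Y X hYF hYX)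
    (RingHom.ext fun b => Subtype.ext (S34V0_wL_wL emb q N' N hq hqN hN (hYF b b.2)))
    (RingHom.ext fun a => Subtype.ext (S34V0_wL_wL emb q N' N hq hqN hN (hXF a a.2)))

theorem S34SIG_equiv_coe (X Y : Subring (LaurentSeries K1))
    (hXF : ∀ a ∈ X, a ∈ modularFunctionFieldFullC K1 N)
    (hYF : ∀ a ∈ Y, a ∈ modularFunctionFieldFullC K1 N)
    (hXY : ∀ a ∈ X, S34V0_wL emb q N' N hq hqN hN a ∈ Y)
    (hYX : ∀ a ∈ Y, S34V0_wL emb q N' N hq hqN hN a ∈ X) (a : X) :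
    ((S34SIG_equiv emb q N' N hq hqN hN X Y hXF hYF hXY hYX a : Y) : LaurentSeries K1) =
      S34V0_wL emb q N' N hq hqN hN (a : LaurentSeries K1) := rfl

theorem S34SIG_equiv_symm_coe (X Y : Subring (LaurentSeries K1))
    (hXF : ∀ a ∈ X, a ∈ modularFunctionFieldFullC K1 N)
    (hYF : ∀ a ∈ Y, a ∈ modularFunctionFieldFullC K1 N)
    (hXY : ∀ a ∈ X, S34V0_wL emb q N' N hq hqN hN a ∈ Y)
    (hYX : ∀ a ∈ Y, S34V0_wL emb q N' N hq hqN hN a ∈ X) (b : Y) :
    (((S34SIG_equiv emb q N' N hq hqN hN X Y hXF hYF hXY hYX).symm b : X) : LaurentSeries K1) =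
      S34V0_wL emb q N' N hq hqN hN (b : LaurentSeries K1) := rfl

/-- `w` maps the integral closure of `O[g]` in `F` into the integral closure of `O[w g]` -/
theorem S34SIG_icl (O : Subring (LaurentSeries K1))
    (hO : ∀ a ∈ O, ∃ c : K1, HahnSeries.C c = a)
    {g : LaurentSeries K1} (hg : g ∈ modularFunctionFieldFullC K1 N) :
    ∀ a ∈ icl (adj O g) (modularFunctionFieldFullC K1 N).toSubfield,
      S34V0_wL emb q N' N hq hqN hN a ∈
        icl (adj O (S34V0_wL emb q N' N hq hqN hN g))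
          (modularFunctionFieldFullC K1 N).toSubfield := by
  intro a ha
  obtain ⟨hint, haF⟩ := mem_icl.mp ha
  have haF' : a ∈ modularFunctionFieldFullC K1 N := haF
  exact mem_icl.mpr ⟨S34V0_isIntegral_wL emb q N' N hq hqN hN O hO hg haF' hint,
    S34V0_wL_mem emb q N' N hq hqN hN a⟩

/-- `icl (O[g']) ≤ icl (O[g])` as soon as `g'` is integral over `O[g]` -/
theorem S34SIG_icl_le {L : Type*} [Field L] (O : Subring L) (E : Subfield L) {g g' : L}
    (h : IsIntegral (adj O g) g') : icl (adj O g') E ≤ icl (adj O g) E := by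
  intro x hx
  obtain ⟨hint, hxE⟩ := mem_icl.mp hx
  refine mem_icl.mpr ⟨?_, hxE⟩
  have hle : adj O g' ≤ (integralClosure (adj O g) L).toSubring := by
    refine adj_le ?_ h
    intro a ha
    exact isIntegral_of_mem (adj O g) (le_adj O g ha)
  exact isIntegral_trans' (fun a ha => hle ha) hint

end Generic

/-! ### The exchange of the vertical primes (generic) -/

section Exchange

variable {K1 : Type*} [Field K1] (emb : K1 →+* Kbar) (q N' N : ℕ) [NeZero N'] [NeZero N]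
  (hq : q.Prime) (hqN : ¬ q ∣ N') (hN : N = q * N')

/-- `y ∈ π w(V) ↔ w y ∈ π V` for `y ∈ F`, `V ⊆ F`, `π` a constant -/
theorem S34SIG_exchange {π : LaurentSeries K1} (hπ : ∃ c : K1, HahnSeries.C c = π)
    {V : Subring (LaurentSeries K1)} (hV : ∀ x ∈ V, x ∈ modularFunctionFieldFullC K1 N)
    {y : LaurentSeries K1} (hy : y ∈ modularFunctionFieldFullC K1 N) :
    (∃ v ∈ S34V0_image emb q N' N hq hqN hN V, y = π * v) ↔
      ∃ v ∈ V, S34V0_wL emb q N' N hq hqN hN y = π * v := by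
  obtain ⟨c, rfl⟩ := hπ
  have hπF : HahnSeries.C c ∈ modularFunctionFieldFullC K1 N := S34V0_C_mem N c
  constructor
  · rintro ⟨v, ⟨hvF, hv⟩, rfl⟩
    refine ⟨_, hv, ?_⟩
    rw [S34V0_wL_mul emb q N' N hq hqN hN hπF hvF, S34V0_wL_C]
  · rintro ⟨v, hv, h⟩
    have hvF := hV v hv
    refine ⟨S34V0_wL emb q N' N hq hqN hN v,
      S34V0_wL_mem_image emb q N' N hq hqN hN hvF hv, ?_⟩
    have h2 := congrArg (S34V0_wL emb q N' N hq hqN hN) h
    rw [S34V0_wL_wL emb q N' N hq hqN hN hy,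
      S34V0_wL_mul emb q N' N hq hqN hN hπF hvF, S34V0_wL_C] at h2
    exact h2

/-- the mirror: `y ∈ π V ↔ w y ∈ π w(V)` -/
theorem S34SIG_exchange' {π : LaurentSeries K1} (hπ : ∃ c : K1, HahnSeries.C c = π)
    {V : Subring (LaurentSeries K1)} (hV : ∀ x ∈ V, x ∈ modularFunctionFieldFullC K1 N)
    {y : LaurentSeries K1} (hy : y ∈ modularFunctionFieldFullC K1 N) :
    (∃ v ∈ V, y = π * v) ↔
      ∃ v ∈ S34V0_image emb q N' N hq hqN hN V, S34V0_wL emb q N' N hq hqN hN y = π * v := by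
  have h := S34SIG_exchange emb q N' N hq hqN hN hπ hV
    (S34V0_wL_mem emb q N' N hq hqN hN y)
  rw [S34V0_wL_wL emb q N' N hq hqN hN hy] at h
  exact h.symm

end Exchange

/-! ### The concrete carriers -/

section Concrete

variable (A : ValuationSubring (AlgebraicClosure ℚ))
  (K1 : IntermediateField ℚ (AlgebraicClosure ℚ))

/-- the elements of `O` are constants -/
theorem S34SIG_hO : ∀ a ∈ S18K_O A K1, ∃ c : K1, HahnSeries.C c = a := by
  intro a ha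
  obtain ⟨c, -, rfl⟩ := (S18K_mem_O A K1 a).mp ha
  exact ⟨c, rfl⟩

variable [IsDiscreteValuationRing (S18K_O1 A K1)]

/-- `π` is a constant -/
theorem S34SIG_hπ : ∃ c : K1, HahnSeries.C c = S18K_π A K1 := ⟨_, rfl⟩

/-- the Gauss ring lies in `F` -/
theorem S34SIG_V1_le (N : ℕ) : ∀ x ∈ S18K_V A K1 N, x ∈ modularFunctionFieldFullC K1 N :=
  fun x hx => hx.2

/-- **the chart `At = icl (O[1/j(q^q)])`**, the image of the chart at infinity under `w` -/
def S34SIG_At (q N : ℕ) [NeZero q] : Subring (LaurentSeries K1) :=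
  icl (adj (S18K_O A K1) (qExpand K1 q (S18K_j K1))⁻¹) (S18K_F1 K1 N)

theorem S34SIG_At_le (q N : ℕ) [NeZero q] :
    ∀ a ∈ S34SIG_At A K1 q N, a ∈ modularFunctionFieldFullC K1 N :=
  fun a ha => (mem_icl.mp ha).2

variable (q N' N : ℕ) [NeZero N'] [NeZero N] (hq : q.Prime) (hqN : ¬ q ∣ N') (hN : N = q * N')

/-- `w π = π` -/
theorem S34SIG_wL_π :
    S34V0_wL (S34V0K_emb K1) q N' N hq hqN hN (S18K_π A K1) = S18K_π A K1 := by
  obtain ⟨c, hc⟩ := S34SIG_hπ A K1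
  rw [← hc, S34V0_wL_C]

/-- the finite chart lies in `F` -/
theorem S34SIG_A0_le : ∀ a ∈ S18K_A0 A K1 N, a ∈ modularFunctionFieldFullC K1 N :=
  fun a ha => (mem_icl.mp ha).2

/-- the chart at infinity lies in `F` -/
theorem S34SIG_Ainf_le : ∀ a ∈ S18K_Ainf A K1 N, a ∈ modularFunctionFieldFullC K1 N :=
  fun a ha => (mem_icl.mp ha).2

/-- **`w(A0) ⊆ A0`** as soon as `j(q^q)` is integral over `O[j]` -/
theorem S34SIG_A0_mem [NeZero q]
    (hjq : IsIntegral (adj (S18K_O A K1) (S18K_j K1)) (qExpand K1 q (S18K_j K1))) :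
    ∀ a ∈ S18K_A0 A K1 N, S34V0_wL (S34V0K_emb K1) q N' N hq hqN hN a ∈ S18K_A0 A K1 N := by
  intro a ha
  have h1 := S34SIG_icl (S34V0K_emb K1) q N' N hq hqN hN (S18K_O A K1) (S34SIG_hO A K1)
    (jqModC_mem_full K1 N) a ha
  rw [S34V0_wL_j] at h1
  exact S34SIG_icl_le (S18K_O A K1) (S18K_F1 K1 N) hjq h1

/-- `w(Ainf) ⊆ At` -/
theorem S34SIG_Ainf_mem [NeZero q] :
    ∀ a ∈ S18K_Ainf A K1 N,
      S34V0_wL (S34V0K_emb K1) q N' N hq hqN hN a ∈ S34SIG_At A K1 q N := by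
  intro a ha
  have hjF : jqModC K1 ∈ modularFunctionFieldFullC K1 N := jqModC_mem_full K1 N
  have h1 := S34SIG_icl (S34V0K_emb K1) q N' N hq hqN hN (S18K_O A K1) (S34SIG_hO A K1)
    (inv_mem hjF) a ha
  rw [S34V0_wL_inv (S34V0K_emb K1) q N' N hq hqN hN hjF, S34V0_wL_j] at h1
  exact h1

/-- `w(At) ⊆ Ainf` -/
theorem S34SIG_At_mem [NeZero q] :
    ∀ a ∈ S34SIG_At A K1 q N,
      S34V0_wL (S34V0K_emb K1) q N' N hq hqN hN a ∈ S18K_Ainf A K1 N := by
  intro a ha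
  have hθF : qExpand K1 q (jqModC K1) ∈ modularFunctionFieldFullC K1 N :=
    S34V0K_jq_mem_F K1 q N' N hq hqN hN
  have h1 := S34SIG_icl (S34V0K_emb K1) q N' N hq hqN hN (S18K_O A K1) (S34SIG_hO A K1)
    (inv_mem hθF) a ha
  rw [S34V0_wL_inv (S34V0K_emb K1) q N' N hq hqN hN hθF, S34V0_wL_jq] at h1
  exact h1

/-- **X-SIGMA, finite chart.**  If `j(q^q)` is integral over `O[j]` (helper8's MODEQ), the
Atkin–Lehner involution restricts to an automorphism `σ` of the finite chart `A0` of level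
`N = q N'`; it fixes `π` and exchanges the two vertical primes `A0 ∩ π V1`, `A0 ∩ π V2`
(`V1` the Gauss ring, `V2 = w(V1)`).  The last two conjuncts are `hσπ`, `hσ` of helper14's
`S34N1S_thru2`. -/
theorem S34SIG_A0 [NeZero q]
    (hjq : IsIntegral (adj (S18K_O A K1) (S18K_j K1)) (qExpand K1 q (S18K_j K1))) :
    ∃ σ : ↥(S18K_A0 A K1 N) ≃+* ↥(S18K_A0 A K1 N),
      (∀ a : ↥(S18K_A0 A K1 N), ((σ a : ↥(S18K_A0 A K1 N)) : LaurentSeries K1) =
        S34V0_wL (S34V0K_emb K1) q N' N hq hqN hN (a : LaurentSeries K1)) ∧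
      (∀ a : ↥(S18K_A0 A K1 N), ((σ.symm a : ↥(S18K_A0 A K1 N)) : LaurentSeries K1) =
        S34V0_wL (S34V0K_emb K1) q N' N hq hqN hN (a : LaurentSeries K1)) ∧
      (∀ hπ : S18K_π A K1 ∈ S18K_A0 A K1 N,
        σ ⟨S18K_π A K1, hπ⟩ = ⟨S18K_π A K1, hπ⟩) ∧
      (∀ a : ↥(S18K_A0 A K1 N),
        (∃ v ∈ S34V0K_V A K1 q N' N hq hqN hN, (a : LaurentSeries K1) = S18K_π A K1 * v) ↔
          ∃ v ∈ S18K_V A K1 N,
            ((σ.symm a : ↥(S18K_A0 A K1 N)) : LaurentSeries K1) = S18K_π A K1 * v) ∧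
      (∀ a : ↥(S18K_A0 A K1 N),
        (∃ v ∈ S18K_V A K1 N, (a : LaurentSeries K1) = S18K_π A K1 * v) ↔
          ∃ v ∈ S34V0K_V A K1 q N' N hq hqN hN,
            ((σ.symm a : ↥(S18K_A0 A K1 N)) : LaurentSeries K1) = S18K_π A K1 * v) := by
  have hmem := S34SIG_A0_mem A K1 q N' N hq hqN hN hjq
  have hle := S34SIG_A0_le A K1 N
  refine ⟨S34SIG_equiv (S34V0K_emb K1) q N' N hq hqN hN _ _ hle hle hmem hmem,
    fun a => rfl, fun a => rfl, fun hπ => Subtype.ext ?_, fun a => ?_, fun a => ?_⟩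
  · exact S34SIG_wL_π A K1 q N' N hq hqN hN
  · exact S34SIG_exchange (S34V0K_emb K1) q N' N hq hqN hN (S34SIG_hπ A K1)
      (S34SIG_V1_le A K1 N) (hle a a.2)
  · exact S34SIG_exchange' (S34V0K_emb K1) q N' N hq hqN hN (S34SIG_hπ A K1)
      (S34SIG_V1_le A K1 N) (hle a a.2)

/-- **X-SIGMA, chart at infinity.**  The Atkin–Lehner involution induces a ring isomorphism
`σ : Ainf ≃+* At`, `At = icl (O[1/j(q^q)])`; it fixes `π`, maps `j⁻¹` to `j(q^q)⁻¹` and
exchanges the vertical primes. -/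
theorem S34SIG_Ainf [NeZero q] :
    ∃ σ : ↥(S18K_Ainf A K1 N) ≃+* ↥(S34SIG_At A K1 q N),
      (∀ a : ↥(S18K_Ainf A K1 N), ((σ a : ↥(S34SIG_At A K1 q N)) : LaurentSeries K1) =
        S34V0_wL (S34V0K_emb K1) q N' N hq hqN hN (a : LaurentSeries K1)) ∧
      (∀ b : ↥(S34SIG_At A K1 q N), ((σ.symm b : ↥(S18K_Ainf A K1 N)) : LaurentSeries K1) =
        S34V0_wL (S34V0K_emb K1) q N' N hq hqN hN (b : LaurentSeries K1)) ∧
      (∀ hπ : S18K_π A K1 ∈ S18K_Ainf A K1 N,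
        ((σ ⟨S18K_π A K1, hπ⟩ : ↥(S34SIG_At A K1 q N)) : LaurentSeries K1) = S18K_π A K1) ∧
      (∀ hj : (S18K_j K1)⁻¹ ∈ S18K_Ainf A K1 N,
        ((σ ⟨(S18K_j K1)⁻¹, hj⟩ : ↥(S34SIG_At A K1 q N)) : LaurentSeries K1) =
          (qExpand K1 q (S18K_j K1))⁻¹) ∧
      (∀ a : ↥(S18K_Ainf A K1 N),
        (∃ v ∈ S34V0K_V A K1 q N' N hq hqN hN, (a : LaurentSeries K1) = S18K_π A K1 * v) ↔
          ∃ v ∈ S18K_V A K1 N,
            ((σ a : ↥(S34SIG_At A K1 q N)) : LaurentSeries K1) = S18K_π A K1 * v) ∧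
      (∀ a : ↥(S18K_Ainf A K1 N),
        (∃ v ∈ S18K_V A K1 N, (a : LaurentSeries K1) = S18K_π A K1 * v) ↔
          ∃ v ∈ S34V0K_V A K1 q N' N hq hqN hN,
            ((σ a : ↥(S34SIG_At A K1 q N)) : LaurentSeries K1) = S18K_π A K1 * v) := by
  have hle := S34SIG_Ainf_le A K1 N
  have hjF : jqModC K1 ∈ modularFunctionFieldFullC K1 N := jqModC_mem_full K1 N
  refine ⟨S34SIG_equiv (S34V0K_emb K1) q N' N hq hqN hN _ _ hle (S34SIG_At_le A K1 q N)
      (S34SIG_Ainf_mem A K1 q N' N hq hqN hN) (S34SIG_At_mem A K1 q N' N hq hqN hN),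
    fun a => rfl, fun b => rfl, fun hπ => ?_, fun hj => ?_, fun a => ?_, fun a => ?_⟩
  · exact S34SIG_wL_π A K1 q N' N hq hqN hN
  · show S34V0_wL (S34V0K_emb K1) q N' N hq hqN hN (jqModC K1)⁻¹ = _
    rw [S34V0_wL_inv (S34V0K_emb K1) q N' N hq hqN hN hjF, S34V0_wL_j]
    rfl
  · exact S34SIG_exchange (S34V0K_emb K1) q N' N hq hqN hN (S34SIG_hπ A K1)
      (S34SIG_V1_le A K1 N) (hle a a.2)
  · exact S34SIG_exchange' (S34V0K_emb K1) q N' N hq hqN hN (S34SIG_hπ A K1)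
      (S34SIG_V1_le A K1 N) (hle a a.2)

end Concrete

end Fermat.Agent.S34_helper15_SIGMA
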