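import Mathlib
import Fermat.Agent.S18_helper9_CDefs
import Fermat.Agent.S18_helper20_CSAT
import Fermat.Agent.S34_helper12_CDefs

/-!
# S34, piece X-XFER (helper16): chart transfer of the local lift

Block C' (`S34CA_main`) asks for `S34C_LocLift` at EVERY maximal ideal over `π` of BOTH charts.
The node / smooth analysis of S34 lives on the finite chart `A0` (which is stable under the
Atkin-Lehner automorphism), and the cusps are treated separately.  This file transfers the local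
lift from one chart to the points of another chart at which a comparison element `d` is a unit.

* `S34XF_core`: generic core.  `A`, `B` subrings of `L`, `d ∈ B` with `A ⊆ B[1/d]` (in the form
  `∀ a ∈ A, ∃ n, d ^ n * a ∈ B`, and the same for the integral closures in `E`).  If the local
  lift exists at all maximal ideals of `A` over `π`, then it exists at every prime ideal `m` of
  `B` over `π` with `d ∉ m`.  (No maximality of the contracted ideal is needed: a denominator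
  outside a maximal ideal ABOVE the contracted ideal is outside the contracted ideal.)
* `S34XF_locLift_inf`: the instance `A0 → Ainf`, `d = j⁻¹` (non-cuspidal points of the chart at
  infinity), for the weak setup `S34C_Setup`.
* `S34XF_locLift_zero`: the mirror instance `Ainf → A0`, `d = j`.
-/

set_option autoImplicit false

namespace Fermat.Agent.S34_helper16_XFER

open Fermat.Agent.S18_helper9_CDefs Fermat.Agent.S18_helper20_CSAT
  Fermat.Agent.S34_helper12_CDefs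

variable {L : Type*} [Field L]

/-- The contracted ideal `m · B[1/d] ∩ A`. -/
def S34XF_contract (A B : Subring L) (d : L) (hdB : d ∈ B)
    (hpole : ∀ a ∈ A, ∃ n : ℕ, d ^ n * a ∈ B) (m : Ideal B) : Ideal A where
  carrier := {a | ∃ (n : ℕ) (h : d ^ n * (a : L) ∈ B), (⟨d ^ n * (a : L), h⟩ : B) ∈ m}
  zero_mem' := ⟨0, by simp [B.zero_mem], by
    have : (⟨d ^ 0 * ((0 : A) : L), by simp [B.zero_mem]⟩ : B) = 0 := by
      apply Subtype.ext; simp
    rw [this]; exact m.zero_mem⟩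
  add_mem' := by
    rintro a b ⟨n, hn, hnm⟩ ⟨k, hk, hkm⟩
    have h1 : d ^ (n + k) * ((a + b : A) : L) =
        d ^ k * (d ^ n * (a : L)) + d ^ n * (d ^ k * (b : L)) := by
      push_cast; ring
    have hmem : d ^ (n + k) * ((a + b : A) : L) ∈ B := by
      rw [h1]
      exact B.add_mem (B.mul_mem (B.pow_mem hdB k) hn) (B.mul_mem (B.pow_mem hdB n) hk)
    refine ⟨n + k, hmem, ?_⟩
    have h2 : (⟨d ^ (n + k) * ((a + b : A) : L), hmem⟩ : B) =
        ⟨d ^ k, B.pow_mem hdB k⟩ * ⟨d ^ n * (a : L), hn⟩ +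
          ⟨d ^ n, B.pow_mem hdB n⟩ * ⟨d ^ k * (b : L), hk⟩ := by
      apply Subtype.ext
      exact h1
    rw [h2]
    exact m.add_mem (m.mul_mem_left _ hnm) (m.mul_mem_left _ hkm)
  smul_mem' := by
    rintro c a ⟨n, hn, hnm⟩
    obtain ⟨r, hr⟩ := hpole c c.2
    have h1 : d ^ (r + n) * ((c • a : A) : L) = (d ^ r * (c : L)) * (d ^ n * (a : L)) := by
      simp only [smul_eq_mul, Subring.coe_mul]; ring
    have hmem : d ^ (r + n) * ((c • a : A) : L) ∈ B := by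
      rw [h1]; exact B.mul_mem hr hn
    refine ⟨r + n, hmem, ?_⟩
    have h2 : (⟨d ^ (r + n) * ((c • a : A) : L), hmem⟩ : B) =
        ⟨d ^ r * (c : L), hr⟩ * ⟨d ^ n * (a : L), hn⟩ := by
      apply Subtype.ext
      exact h1
    rw [h2]
    exact m.mul_mem_left _ hnm

theorem S34XF_mem_contract {A B : Subring L} {d : L} {hdB : d ∈ B}
    {hpole : ∀ a ∈ A, ∃ n : ℕ, d ^ n * a ∈ B} {m : Ideal B} {a : A} :
    a ∈ S34XF_contract A B d hdB hpole m ↔
      ∃ (n : ℕ) (h : d ^ n * (a : L) ∈ B), (⟨d ^ n * (a : L), h⟩ : B) ∈ m :=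
  Iff.rfl

/-- The contracted ideal is proper when `d ∉ m`. -/
theorem S34XF_contract_ne_top {A B : Subring L} {d : L} (hdB : d ∈ B)
    (hpole : ∀ a ∈ A, ∃ n : ℕ, d ^ n * a ∈ B) (m : Ideal B) (hm : m.IsPrime)
    (hdm : (⟨d, hdB⟩ : B) ∉ m) : S34XF_contract A B d hdB hpole m ≠ ⊤ := by
  intro htop
  have h1 : (1 : A) ∈ S34XF_contract A B d hdB hpole m := by rw [htop]; trivial
  obtain ⟨n, hn, hnm⟩ := h1
  have h2 : (⟨d ^ n * ((1 : A) : L), hn⟩ : B) = (⟨d, hdB⟩ : B) ^ n := by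
    apply Subtype.ext
    simp
  rw [h2] at hnm
  exact hdm (hm.mem_of_pow_mem n hnm)

/-- **Generic core of the chart transfer.** -/
theorem S34XF_core (A B V : Subring L) (E : Subfield L) (π d s : L)
    (hdB : d ∈ B) (hdV : d ∈ V) (hdE : d ∈ E) (hπA : π ∈ A) (hπB : π ∈ B)
    (hpole : ∀ a ∈ A, ∃ n : ℕ, d ^ n * a ∈ B)
    (hpoleE : ∀ y ∈ icl A E, ∃ n : ℕ, d ^ n * y ∈ icl B E)
    (hlocA : ∀ m0 : Ideal A, m0.IsMaximal → (⟨π, hπA⟩ : A) ∈ m0 →
      ∃ D : A, D ∉ m0 ∧ ∃ y ∈ icl A E, ∃ w ∈ icl V E, (D : L) * s = y + π * w)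
    (m : Ideal B) (hm : m.IsPrime) (hπm : (⟨π, hπB⟩ : B) ∈ m) (hdm : (⟨d, hdB⟩ : B) ∉ m) :
    ∃ D : B, D ∉ m ∧ ∃ y ∈ icl B E, ∃ w ∈ icl V E, (D : L) * s = y + π * w := by
  classical
  set m0 := S34XF_contract A B d hdB hpole m with hm0
  have hne : m0 ≠ ⊤ := S34XF_contract_ne_top hdB hpole m hm hdm
  obtain ⟨M, hM, hle⟩ := Ideal.exists_le_maximal m0 hne
  have hπm0 : (⟨π, hπA⟩ : A) ∈ m0 := by
    refine ⟨0, by simpa using hπB, ?_⟩
    have : (⟨d ^ 0 * ((⟨π, hπA⟩ : A) : L), by simpa using hπB⟩ : B) = ⟨π, hπB⟩ := by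
      apply Subtype.ext; simp
    rw [this]; exact hπm
  obtain ⟨D, hD, y, hy, w, hw, hEq⟩ := hlocA M hM (hle hπm0)
  have hDm0 : D ∉ m0 := fun h => hD (hle h)
  obtain ⟨n1, hn1⟩ := hpole D D.2
  obtain ⟨n2, hn2⟩ := hpoleE y hy
  -- `d` lies in both integral closures
  have hdBE : d ∈ icl B E :=
    mem_icl.mpr ⟨isIntegral_algebraMap (x := (⟨d, hdB⟩ : B)), hdE⟩
  have hdVE : d ∈ icl V E :=
    mem_icl.mpr ⟨isIntegral_algebraMap (x := (⟨d, hdV⟩ : V)), hdE⟩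
  have hDB : d ^ (n1 + n2) * (D : L) ∈ B := by
    have : d ^ (n1 + n2) * (D : L) = d ^ n2 * (d ^ n1 * (D : L)) := by ring
    rw [this]; exact B.mul_mem (B.pow_mem hdB n2) hn1
  refine ⟨⟨d ^ (n1 + n2) * (D : L), hDB⟩, ?_, d ^ (n1 + n2) * y, ?_, d ^ (n1 + n2) * w, ?_, ?_⟩
  · intro h
    exact hDm0 ⟨n1 + n2, hDB, h⟩
  · have : d ^ (n1 + n2) * y = d ^ n1 * (d ^ n2 * y) := by ring
    rw [this]; exact (icl B E).mul_mem ((icl B E).pow_mem hdBE n1) hn2
  · exact (icl V E).mul_mem ((icl V E).pow_mem hdVE _) hw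
  · show d ^ (n1 + n2) * (D : L) * s = d ^ (n1 + n2) * y + π * (d ^ (n1 + n2) * w)
    have : d ^ (n1 + n2) * (D : L) * s = d ^ (n1 + n2) * ((D : L) * s) := by ring
    rw [this, hEq]; ring

/-! ### The two charts of the weak setup -/

section Setup

variable {O : Subring L} {π j : L} {F1 : Subfield L} {V A0 Ainf : Subring L}

theorem S34XF_j_ne_zero (S : S34C_Setup O π j F1 V A0 Ainf) : j ≠ 0 := by
  intro h
  apply S.j_trans
  rw [h]
  exact isAlgebraic_zero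

theorem S34XF_O_le_A0 (S : S34C_Setup O π j F1 V A0 Ainf) : O ≤ A0 := fun a ha =>
  (S.chart0.mem_iff a).mpr
    ⟨isIntegral_algebraMap (x := (⟨a, CSAT_O_le_adj O j ha⟩ : adj O j)), S.O_le ha⟩

theorem S34XF_O_le_Ainf (S : S34C_Setup O π j F1 V A0 Ainf) : O ≤ Ainf := fun a ha =>
  (S.chartInf.mem_iff a).mpr
    ⟨isIntegral_algebraMap (x := (⟨a, CSAT_O_le_adj O j⁻¹ ha⟩ : adj O j⁻¹)), S.O_le ha⟩

theorem S34XF_j_mem (S : S34C_Setup O π j F1 V A0 Ainf) : j ∈ A0 :=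
  (S.chart0.mem_iff j).mpr
    ⟨isIntegral_algebraMap (x := (⟨j, CSAT_mem_adj O j⟩ : adj O j)), S.j_mem⟩

theorem S34XF_jinv_mem (S : S34C_Setup O π j F1 V A0 Ainf) : j⁻¹ ∈ Ainf :=
  (S.chartInf.mem_iff j⁻¹).mpr
    ⟨isIntegral_algebraMap (x := (⟨j⁻¹, CSAT_mem_adj O j⁻¹⟩ : adj O j⁻¹)), F1.inv_mem S.j_mem⟩

/-- integrality over a chart is integrality over `O[x]` -/
theorem S34XF_isIntegral_of_chart {x : L} {A : Subring L} (hC : Chart O π x F1 V A) {y : L}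
    (hy : IsIntegral A y) : IsIntegral (adj O x) y := by
  have hA : A = icl (adj O x) F1 := by
    ext z
    rw [hC.mem_iff z, mem_icl]
  rw [hA] at hy
  exact CSAT_isIntegral_of_icl _ _ hy

/-- `O[x] ≤ A` for a chart -/
theorem S34XF_adj_le_chart {x : L} {A : Subring L} (hC : Chart O π x F1 V A) (hOF : (O : Set L) ⊆ F1)
    (hx : x ∈ F1) : adj O x ≤ A := by
  refine Subring.closure_le.mpr ?_
  rintro y (hy | hy)
  · exact (hC.mem_iff y).mpr
      ⟨isIntegral_algebraMap (x := (⟨y, CSAT_O_le_adj O x hy⟩ : adj O x)), hOF hy⟩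
  · rw [Set.mem_singleton_iff] at hy
    rw [hy]
    exact (hC.mem_iff x).mpr
      ⟨isIntegral_algebraMap (x := (⟨x, CSAT_mem_adj O x⟩ : adj O x)), hx⟩

/-- an element integral over `O[x]` is moved by a power of `x⁻¹` to an element integral over
`O[x⁻¹]` -/
theorem S34XF_pow_mul_isIntegral (O : Subring L) (x : L) (hx : x ≠ 0) {y : L}
    (hy : IsIntegral (adj O x) y) : ∃ n : ℕ, IsIntegral (adj O x⁻¹) (x⁻¹ ^ n * y) := by
  have h1 : IsIntegral (adjMid O x) y := CSAT_isIntegral_mono (CSAT_adj_le_adjMid O x) hy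
  exact CSAT_exists_pow_mul_isIntegral (adj O x⁻¹) (adjMid O x) x⁻¹ (CSAT_mem_adj O x⁻¹)
    (fun r hr => CSAT_pow_mul_mem_adj O x⁻¹ (inv_ne_zero hx)
      (by rw [CSAT_adjMid_inv]; exact hr)) h1

/-- pole lemma between two charts with inverse coordinates, for the integral closures in any
subfield `E ⊇ F1`-independent statement: only `x ∈ E` is used -/
theorem S34XF_poleE {x : L} {A B : Subring L} (hx0 : x ≠ 0) (hCA : Chart O π x F1 V A)
    (hCB : Chart O π x⁻¹ F1 V B) (hOF : (O : Set L) ⊆ F1) (hxF : x ∈ F1)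
    (E : Subfield L) (hxE : x ∈ E) :
    ∀ y ∈ icl A E, ∃ n : ℕ, x⁻¹ ^ n * y ∈ icl B E := by
  intro y hy
  obtain ⟨hy1, hy2⟩ := mem_icl.mp hy
  have h1 : IsIntegral (adj O x) y := S34XF_isIntegral_of_chart hCA hy1
  obtain ⟨n, hn⟩ := S34XF_pow_mul_isIntegral O x hx0 h1
  refine ⟨n, mem_icl.mpr ⟨?_, E.mul_mem (E.pow_mem (E.inv_mem hxE) n) hy2⟩⟩
  exact CSAT_isIntegral_mono (S34XF_adj_le_chart hCB hOF (F1.inv_mem hxF)) hn

/-- pole lemma between two charts with inverse coordinates -/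
theorem S34XF_pole {x : L} {A B : Subring L} (hx0 : x ≠ 0) (hCA : Chart O π x F1 V A)
    (hCB : Chart O π x⁻¹ F1 V B) (hxF : x ∈ F1) :
    ∀ a ∈ A, ∃ n : ℕ, x⁻¹ ^ n * a ∈ B := by
  intro a ha
  obtain ⟨h1, h2⟩ := (hCA.mem_iff a).mp ha
  obtain ⟨n, hn⟩ := S34XF_pow_mul_isIntegral O x hx0 h1
  exact ⟨n, (hCB.mem_iff _).mpr ⟨hn, F1.mul_mem (F1.pow_mem (F1.inv_mem hxF) n) h2⟩⟩

/-- **Chart transfer, generic pair of charts with inverse coordinates.** -/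
theorem S34XF_locLift_chart {x : L} {A B : Subring L} (hx0 : x ≠ 0)
    (hCA : Chart O π x F1 V A) (hCB : Chart O π x⁻¹ F1 V B) (hOF : (O : Set L) ⊆ F1)
    (hxF : x ∈ F1) (hπO : π ∈ O) (h G : L)
    (hlocA : ∀ (hπ : π ∈ A) (m0 : Ideal A), m0.IsMaximal → (⟨π, hπ⟩ : A) ∈ m0 →
      S34C_LocLift π F1 V A h G m0)
    (hπ : π ∈ B) (hx : x⁻¹ ∈ B) (m : Ideal B) (hm : m.IsPrime) (hπm : (⟨π, hπ⟩ : B) ∈ m)
    (hxm : (⟨x⁻¹, hx⟩ : B) ∉ m) : S34C_LocLift π F1 V B h G m := by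
  have hπA : π ∈ A := S34XF_adj_le_chart hCA hOF hxF (CSAT_O_le_adj O x hπO)
  have hxE : x ∈ fadj F1 h := Subfield.subset_closure (Or.inl hxF)
  have hxV : x⁻¹ ∈ V := hCA.x_inv_mem
  exact S34XF_core A B V (fadj F1 h) π x⁻¹ (h * G⁻¹) hx hxV ((fadj F1 h).inv_mem hxE) hπA hπ
    (S34XF_pole hx0 hCA hCB hxF)
    (S34XF_poleE hx0 hCA hCB hOF hxF (fadj F1 h) hxE)
    (fun m0 hm0 hπm0 => hlocA hπA m0 hm0 hπm0) m hm hπm hxm

/-- **X-XFER, non-cuspidal points of the chart at infinity**: the local lift at a prime `m` of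
`Ainf` over `π` with `j⁻¹ ∉ m` follows from the local lifts at the maximal ideals of the finite
chart `A0`. -/
theorem S34XF_locLift_inf (S : S34C_Setup O π j F1 V A0 Ainf) (h G : L)
    (hloc0 : ∀ (hπ : π ∈ A0) (m0 : Ideal A0), m0.IsMaximal → (⟨π, hπ⟩ : A0) ∈ m0 →
      S34C_LocLift π F1 V A0 h G m0)
    (hπ : π ∈ Ainf) (hj : j⁻¹ ∈ Ainf) (m : Ideal Ainf) (hm : m.IsPrime)
    (hπm : (⟨π, hπ⟩ : Ainf) ∈ m) (hjm : (⟨j⁻¹, hj⟩ : Ainf) ∉ m) :
    S34C_LocLift π F1 V Ainf h G m :=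
  S34XF_locLift_chart (S34XF_j_ne_zero S) S.chart0 S.chartInf S.O_le S.j_mem S.π_mem h G hloc0
    hπ hj m hm hπm hjm

/-- **X-XFER, mirror**: the local lift at a prime `m` of `A0` over `π` with `j ∉ m` follows from
the local lifts at the maximal ideals of the chart at infinity. -/
theorem S34XF_locLift_zero (S : S34C_Setup O π j F1 V A0 Ainf) (h G : L)
    (hlocInf : ∀ (hπ : π ∈ Ainf) (m0 : Ideal Ainf), m0.IsMaximal → (⟨π, hπ⟩ : Ainf) ∈ m0 →
      S34C_LocLift π F1 V Ainf h G m0)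
    (hπ : π ∈ A0) (hj : j ∈ A0) (m : Ideal A0) (hm : m.IsPrime)
    (hπm : (⟨π, hπ⟩ : A0) ∈ m) (hjm : (⟨j, hj⟩ : A0) ∉ m) :
    S34C_LocLift π F1 V A0 h G m := by
  have hC0 : Chart O π (j⁻¹)⁻¹ F1 V A0 := by rw [inv_inv]; exact S.chart0
  have hj' : (j⁻¹)⁻¹ ∈ A0 := by rw [inv_inv]; exact hj
  have hjm' : (⟨(j⁻¹)⁻¹, hj'⟩ : A0) ∉ m := by
    have : (⟨(j⁻¹)⁻¹, hj'⟩ : A0) = ⟨j, hj⟩ := Subtype.ext (inv_inv j)
    rw [this]; exact hjm
  exact S34XF_locLift_chart (inv_ne_zero (S34XF_j_ne_zero S)) S.chartInf hC0 S.O_le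
    (F1.inv_mem S.j_mem) S.π_mem h G hlocInf hπ hj' m hm hπm hjm'

end Setup

end Fermat.Agent.S34_helper16_XFER
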