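import Fermat.Agent.S34_helper20_V0K

/-!
# S34, piece X-WA0 (helper20): the Atkin–Lehner involution on the finite chart `A0`

* `S34WA_equivOf`  : for a subring `X ⊆ F` stable under `w`, the ring automorphism `σ = w|X`;
  `σ.symm = σ`, `σ` fixes the constants, and `σ` exchanges the vertical ideals
  `X ∩ π V` and `X ∩ π w(V)` (`S34WA_equivOf_vert`, `S34WA_equivOf_vert'`);
* `S34WA_A0_stable` : `w(A0) ⊆ A0` for `A0 = ` the integral closure of `O[j]` in `F1`, from the
  ONE integrality statement `hjq : j(q^q)` is integral over `O[j]` (modular equation);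
* `S34WA_sigma`    : `σ : A0 ≃+* A0`, with `S34WA_sigma_pi`, `S34WA_sigma_vert` — exactly the
  hypotheses `σ`, `hσπ`, `hσ` of helper14's `S34N1S_thru2`.
-/

set_option autoImplicit false
set_option linter.unusedSectionVars false
set_option linter.unusedVariables false
set_option linter.style.haveILetI false

noncomputable section

open ModularCurve Fermat.Agent.S24
open Fermat.Agent.S18_helper13_GAUSS Fermat.Agent.S18_helper9_CDefs
open Fermat.Agent.S18_helper25_COREDefs Fermat.Agent.S34_helper12_CDefs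
open Fermat.Agent.S34_helper27_C2Defs Fermat.Agent.S34_helper20_WQ Fermat.Agent.S34_helper20_V0
open Fermat.Agent.S34_helper27_V3K Fermat.Agent.S34_helper20_V0K

namespace Fermat.Agent.S34_helper20_WA0

/-! ### Generic part -/

section Generic

variable {K1 : Type*} [Field K1] (emb : K1 →+* Kbar) (q N' N : ℕ) [NeZero N'] [NeZero N]
  (hq : q.Prime) (hqN : ¬ q ∣ N') (hN : N = q * N')

/-- the automorphism `σ = w|X` of a `w`-stable subring `X` of `F` -/
def S34WA_equivOf (X : Subring (LaurentSeries K1))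
    (hXF : ∀ x ∈ X, x ∈ modularFunctionFieldFullC K1 N)
    (hX : ∀ x ∈ X, S34V0_wL emb q N' N hq hqN hN x ∈ X) : X ≃+* X where
  toFun a := ⟨S34V0_wL emb q N' N hq hqN hN a, hX a a.2⟩
  invFun a := ⟨S34V0_wL emb q N' N hq hqN hN a, hX a a.2⟩
  left_inv a := Subtype.ext (S34V0_wL_wL emb q N' N hq hqN hN (hXF a a.2))
  right_inv a := Subtype.ext (S34V0_wL_wL emb q N' N hq hqN hN (hXF a a.2))
  map_mul' a b := Subtype.ext (S34V0_wL_mul emb q N' N hq hqN hN (hXF a a.2) (hXF b b.2))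
  map_add' a b := Subtype.ext (S34V0_wL_add emb q N' N hq hqN hN (hXF a a.2) (hXF b b.2))

variable (X : Subring (LaurentSeries K1))
  (hXF : ∀ x ∈ X, x ∈ modularFunctionFieldFullC K1 N)
  (hX : ∀ x ∈ X, S34V0_wL emb q N' N hq hqN hN x ∈ X)

theorem S34WA_equivOf_coe (a : X) :
    ((S34WA_equivOf emb q N' N hq hqN hN X hXF hX a : X) : LaurentSeries K1) =
      S34V0_wL emb q N' N hq hqN hN a := rfl

theorem S34WA_equivOf_symm_coe (a : X) :
    (((S34WA_equivOf emb q N' N hq hqN hN X hXF hX).symm a : X) : LaurentSeries K1) =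
      S34V0_wL emb q N' N hq hqN hN a := rfl

theorem S34WA_equivOf_symm :
    (S34WA_equivOf emb q N' N hq hqN hN X hXF hX).symm =
      S34WA_equivOf emb q N' N hq hqN hN X hXF hX := by
  ext a
  rfl

theorem S34WA_equivOf_invol (a : X) :
    S34WA_equivOf emb q N' N hq hqN hN X hXF hX
      (S34WA_equivOf emb q N' N hq hqN hN X hXF hX a) = a :=
  (S34WA_equivOf emb q N' N hq hqN hN X hXF hX).left_inv a

/-- `σ` fixes the constants -/
theorem S34WA_equivOf_C (c : K1) (hc : HahnSeries.C c ∈ X) :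
    S34WA_equivOf emb q N' N hq hqN hN X hXF hX ⟨HahnSeries.C c, hc⟩ = ⟨HahnSeries.C c, hc⟩ :=
  Subtype.ext (S34V0_wL_C emb q N' N hq hqN hN c)

/-- `σ` fixes a constant `π` -/
theorem S34WA_equivOf_pi {π : LaurentSeries K1} (hπ : ∃ c : K1, HahnSeries.C c = π)
    (hπX : π ∈ X) :
    S34WA_equivOf emb q N' N hq hqN hN X hXF hX ⟨π, hπX⟩ = ⟨π, hπX⟩ := by
  obtain ⟨c, rfl⟩ := hπ
  exact S34WA_equivOf_C emb q N' N hq hqN hN X hXF hX c hπX

/-- **`σ` exchanges the vertical ideals** (the shape `hσ` of `S34N1S_thru2`):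
`a ∈ π w(V) ↔ σ⁻¹ a ∈ π V`. -/
theorem S34WA_equivOf_vert {π : LaurentSeries K1} (hπ : ∃ c : K1, HahnSeries.C c = π)
    (V : Subring (LaurentSeries K1)) (hV : ∀ x ∈ V, x ∈ modularFunctionFieldFullC K1 N)
    (a : X) :
    (∃ v ∈ S34V0_image emb q N' N hq hqN hN V, (a : LaurentSeries K1) = π * v) ↔
      ∃ v ∈ V, (((S34WA_equivOf emb q N' N hq hqN hN X hXF hX).symm a : X) :
        LaurentSeries K1) = π * v := by
  obtain ⟨c, rfl⟩ := hπ
  have hcF : HahnSeries.C c ∈ modularFunctionFieldFullC K1 N := S34V0_C_mem N c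
  rw [S34WA_equivOf_symm_coe]
  constructor
  · rintro ⟨v, ⟨hvF, hv⟩, hav⟩
    refine ⟨_, hv, ?_⟩
    rw [hav, S34V0_wL_mul emb q N' N hq hqN hN hcF hvF, S34V0_wL_C]
  · rintro ⟨v, hv, hav⟩
    have hvF := hV v hv
    refine ⟨S34V0_wL emb q N' N hq hqN hN v,
      S34V0_wL_mem_image emb q N' N hq hqN hN hvF hv, ?_⟩
    have h2 := congrArg (S34V0_wL emb q N' N hq hqN hN) hav
    rw [S34V0_wL_wL emb q N' N hq hqN hN (hXF a a.2),
      S34V0_wL_mul emb q N' N hq hqN hN hcF hvF, S34V0_wL_C] at h2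
    exact h2

/-- the mirror statement: `a ∈ π V ↔ σ a ∈ π w(V)`. -/
theorem S34WA_equivOf_vert' {π : LaurentSeries K1} (hπ : ∃ c : K1, HahnSeries.C c = π)
    (V : Subring (LaurentSeries K1)) (hV : ∀ x ∈ V, x ∈ modularFunctionFieldFullC K1 N)
    (a : X) :
    (∃ v ∈ V, (a : LaurentSeries K1) = π * v) ↔
      ∃ v ∈ S34V0_image emb q N' N hq hqN hN V,
        ((S34WA_equivOf emb q N' N hq hqN hN X hXF hX a : X) : LaurentSeries K1) = π * v := by
  have h := S34WA_equivOf_vert emb q N' N hq hqN hN X hXF hX hπ V hV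
    (S34WA_equivOf emb q N' N hq hqN hN X hXF hX a)
  rw [RingEquiv.symm_apply_apply] at h
  exact h.symm

end Generic

/-! ### Integrality -/

section Integral

variable {L : Type*} [Field L]

/-- if `g'` is integral over `O[g]`, every element integral over `O[g']` is integral over
`O[g]` -/
theorem S34WA_isIntegral_adj (O : Subring L) {g g' : L} (hg' : IsIntegral (adj O g) g')
    {x : L} (hx : IsIntegral (adj O g') x) : IsIntegral (adj O g) x := by
  refine Fermat.Agent.S18_helper9_CBasic.isIntegral_trans' (A := adj O g') ?_ hx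
  intro a ha
  unfold adj at ha
  induction ha using Subring.closure_induction with
  | mem y hy =>
      rcases hy with hy | hy
      · exact Fermat.Agent.S18_helper9_CBasic.isIntegral_of_mem _
          (Fermat.Agent.S18_helper9_CBasic.le_adj O g hy)
      · rw [Set.mem_singleton_iff] at hy
        rw [hy]; exact hg'
  | zero => exact isIntegral_zero
  | one => exact isIntegral_one
  | add y z _ _ ihy ihz => exact ihy.add ihz
  | neg y _ ihy => exact ihy.neg
  | mul y z _ _ ihy ihz => exact ihy.mul ihz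

end Integral

/-! ### The concrete chart `A0` -/

section Concrete

variable (A : ValuationSubring (AlgebraicClosure ℚ))
  (K1 : IntermediateField ℚ (AlgebraicClosure ℚ))
  [IsDiscreteValuationRing (S18K_O1 A K1)]
  (q N' N : ℕ) [NeZero N'] [NeZero N] (hq : q.Prime) (hqN : ¬ q ∣ N') (hN : N = q * N')

theorem S34WA_O_const : ∀ a ∈ S18K_O A K1, ∃ c : K1, HahnSeries.C c = a := by
  intro a ha
  obtain ⟨c, -, hc⟩ := (S18K_mem_O A K1 a).mp ha
  exact ⟨c, hc⟩

theorem S34WA_A0_le_F : ∀ x ∈ S18K_A0 A K1 N, x ∈ modularFunctionFieldFullC K1 N :=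
  fun x hx => (mem_icl.mp hx).2

include hq hqN hN in
/-- **`w(A0) ⊆ A0`** from the integrality of `j(q^q)` over `O[j]` -/
theorem S34WA_A0_stable [NeZero q]
    (hjq : IsIntegral (adj (S18K_O A K1) (jqModC K1)) (qExpand K1 q (jqModC K1))) :
    ∀ x ∈ S18K_A0 A K1 N, S34V0_wL (S34V0K_emb K1) q N' N hq hqN hN x ∈ S18K_A0 A K1 N := by
  intro x hx
  obtain ⟨hint, hxF⟩ := mem_icl.mp hx
  have hxF' : x ∈ modularFunctionFieldFullC K1 N := hxF
  refine mem_icl.mpr ⟨?_, S34V0_wL_mem (S34V0K_emb K1) q N' N hq hqN hN x⟩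
  have h1 := S34V0_isIntegral_wL (S34V0K_emb K1) q N' N hq hqN hN (S18K_O A K1)
    (S34WA_O_const A K1) (jqModC_mem_full K1 N) hxF' hint
  rw [S34V0_wL_j] at h1
  exact S34WA_isIntegral_adj (S18K_O A K1) hjq h1

/-- **the automorphism `σ = w|A0` of the finite chart** -/
def S34WA_sigma [NeZero q]
    (hjq : IsIntegral (adj (S18K_O A K1) (jqModC K1)) (qExpand K1 q (jqModC K1))) :
    S18K_A0 A K1 N ≃+* S18K_A0 A K1 N :=
  S34WA_equivOf (S34V0K_emb K1) q N' N hq hqN hN (S18K_A0 A K1 N) (S34WA_A0_le_F A K1 N)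
    (S34WA_A0_stable A K1 q N' N hq hqN hN hjq)

variable [NeZero q]
  (hjq : IsIntegral (adj (S18K_O A K1) (jqModC K1)) (qExpand K1 q (jqModC K1)))

theorem S34WA_sigma_coe (a : S18K_A0 A K1 N) :
    ((S34WA_sigma A K1 q N' N hq hqN hN hjq a : S18K_A0 A K1 N) : LaurentSeries K1) =
      S34V0_wL (S34V0K_emb K1) q N' N hq hqN hN a := rfl

theorem S34WA_sigma_symm :
    (S34WA_sigma A K1 q N' N hq hqN hN hjq).symm = S34WA_sigma A K1 q N' N hq hqN hN hjq :=
  S34WA_equivOf_symm _ q N' N hq hqN hN _ _ _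

/-- `σ π = π` (the shape `hσπ` of `S34N1S_thru2`) -/
theorem S34WA_sigma_pi (hπ : S18K_π A K1 ∈ S18K_A0 A K1 N) :
    S34WA_sigma A K1 q N' N hq hqN hN hjq ⟨S18K_π A K1, hπ⟩ = ⟨S18K_π A K1, hπ⟩ :=
  S34WA_equivOf_pi _ q N' N hq hqN hN _ _ _ ⟨_, rfl⟩ hπ

/-- **`σ` exchanges the two vertical primes** (the shape `hσ` of `S34N1S_thru2`, verbatim for
`V1 = S18K_V A K1 N`, `V2 = S34V0K_V`). -/
theorem S34WA_sigma_vert (a : S18K_A0 A K1 N) :
    (∃ v ∈ S34V0K_V A K1 q N' N hq hqN hN, (a : LaurentSeries K1) = S18K_π A K1 * v) ↔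
      ∃ v ∈ S18K_V A K1 N,
        (((S34WA_sigma A K1 q N' N hq hqN hN hjq).symm a : S18K_A0 A K1 N) :
          LaurentSeries K1) = S18K_π A K1 * v :=
  S34WA_equivOf_vert _ q N' N hq hqN hN _ _ _ ⟨_, rfl⟩ (S18K_V A K1 N) (fun _ hx => hx.2) a

/-- the mirror: `a ∈ π V1 ↔ σ a ∈ π V2` -/
theorem S34WA_sigma_vert' (a : S18K_A0 A K1 N) :
    (∃ v ∈ S18K_V A K1 N, (a : LaurentSeries K1) = S18K_π A K1 * v) ↔
      ∃ v ∈ S34V0K_V A K1 q N' N hq hqN hN,
        ((S34WA_sigma A K1 q N' N hq hqN hN hjq a : S18K_A0 A K1 N) :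
          LaurentSeries K1) = S18K_π A K1 * v :=
  S34WA_equivOf_vert' _ q N' N hq hqN hN _ _ _ ⟨_, rfl⟩ (S18K_V A K1 N) (fun _ hx => hx.2) a

/-- `σ j = j(q^q)` -/
theorem S34WA_sigma_j (hj : jqModC K1 ∈ S18K_A0 A K1 N) :
    ((S34WA_sigma A K1 q N' N hq hqN hN hjq ⟨jqModC K1, hj⟩ : S18K_A0 A K1 N) :
      LaurentSeries K1) = qExpand K1 q (jqModC K1) := by
  rw [S34WA_sigma_coe]
  exact S34V0_wL_j (S34V0K_emb K1) q N' N hq hqN hN

/-- on elements of level `N'`, `σ` is `f(q) ↦ f(q^q)` -/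
theorem S34WA_sigma_level (a : S18K_A0 A K1 N)
    (ha : (a : LaurentSeries K1) ∈ modularFunctionFieldFullC K1 N') :
    ((S34WA_sigma A K1 q N' N hq hqN hN hjq a : S18K_A0 A K1 N) : LaurentSeries K1) =
      qExpand K1 q (a : LaurentSeries K1) := by
  rw [S34WA_sigma_coe]
  exact S34V0K_wL_level K1 q N' N hq hqN hN ha

end Concrete

end Fermat.Agent.S34_helper20_WA0
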