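import Mathlib
import Fermat.Agent.S34_helper17_L2OUT
import Fermat.Agent.S34_helper17_L2PHI
import Fermat.Agent.S34_helper20_WA0
import Fermat.Agent.S34_helper14_N1S
import Fermat.Agent.S34_helper13_P1C
import Fermat.Agent.S34_helper28_L2FROB

/-!
# S34, X-L2 (concrete assembly), helper17

The contract `S34LGK_Node` on the finite chart of level `N = q N'` at an admissible level `K1`,
from the abstract core `S34L2_main_abs` (helper3) at the pair of levels `K0 ≤ K1`, the output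
adapter `S34LO2_node` and the change of level `Φ` (`S34_helper17_L2PHI`).

Remaining inputs (elementwise): the two decompositions `A = A' + (A ∩ π V1)`,
`A = w(A') + (A ∩ π V2)` at both levels, and the integrality of `j(q^q)` over `O[j]`.
-/

set_option autoImplicit false
set_option linter.style.haveILetI false
set_option linter.unusedSectionVars false
set_option linter.unusedVariables false
set_option synthInstance.maxHeartbeats 400000
set_option maxHeartbeats 1600000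

open AlgebraicCurve ModularCurve HahnSeries IntermediateField IsLocalRing

noncomputable section

namespace Fermat.Agent.S34_helper17_L2K

open Fermat.Agent.S18_helper9_CDefs Fermat.Agent.S18_helper25_COREDefs
  Fermat.Agent.S18_helper13_GAUSS Fermat.Agent.S18_helper3_LOCRING
  Fermat.Agent.S34_Contracts Fermat.Agent.S34_helper7_LGDefs Fermat.Agent.S34_helper3_XL2
  Fermat.Agent.S34_helper17_NADAPT Fermat.Agent.S37_helper21_MONO
  Fermat.Agent.S34_helper20_V0 Fermat.Agent.S34_helper20_V0K Fermat.Agent.S34_helper20_WA0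
  Fermat.Agent.S34_helper27_V3K Fermat.Agent.S34_helper14_N1S
  Fermat.Agent.S34_helper12_CDefs Fermat.Agent.S34_helper17_IGMONO
  Fermat.Agent.S34_helper17_L2OUT Fermat.Agent.S34_helper17_L2PHI
  Fermat.Agent.S34_helper28_L2FROB

local notation "Qb" => AlgebraicClosure ℚ
local notation "GQ" => (AlgebraicClosure ℚ ≃ₐ[ℚ] AlgebraicClosure ℚ)

section Generic

variable {L : Type*} [Field L]

/-- the base ring lies in every chart -/
theorem S34L2K_O_le_chart {O : Subring L} {π x : L} {F1 : Subfield L} {V X : Subring L}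
    (hC : Chart O π x F1 V X) (hO : (O : Set L) ⊆ F1) : O ≤ X := fun y hy =>
  (hC.mem_iff y).2 ⟨isIntegral_algebraMap
    (x := (⟨y, Subring.subset_closure (Or.inl hy)⟩ : adj O x)), hO hy⟩

end Generic

section OneLevel

variable (A : ValuationSubring Qb) (K : IntermediateField ℚ Qb)
  [IsDiscreteValuationRing (S18K_O1 A K)]
  (q N' N : ℕ) [NeZero N'] [NeZero N] (hq : q.Prime) (hqN : ¬ q ∣ N') (hN : N = q * N')

include hN in
/-- the chart of level `N'` lies in the chart of level `N = q N'` -/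
theorem S34L2K_A0_le : S18K_A0 A K N' ≤ S18K_A0 A K N := by
  intro x hx
  obtain ⟨h1, h2⟩ := mem_icl.mp hx
  exact mem_icl.mpr ⟨h1, S34V3K_F1_mono K (S34V0K_dvd hN) h2⟩

/-- the separating element `j - j(q^q)^q` lies in the finite chart -/
theorem S34L2K_sep_mem [NeZero q]
    (hjq : IsIntegral (adj (S18K_O A K) (S18K_j K)) (qExpand K q (jqModC K)))
    (S : S34C_Setup2 (S18K_O A K) (S18K_π A K) (S18K_j K) (S18K_F1 K N) (S18K_V A K N)
      (S34V0K_V A K q N' N hq hqN hN) (S18K_A0 A K N) (S18K_Ainf A K N)) :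
    jqModC K - qExpand K q (jqModC K) ^ q ∈ S18K_A0 A K N := by
  have hj : jqModC K ∈ S18K_A0 A K N := by
    refine (S.chart0.mem_iff _).2 ⟨?_, S.j_mem⟩
    exact isIntegral_algebraMap (x := (⟨S18K_j K, Subring.subset_closure (Or.inr rfl)⟩ :
      adj (S18K_O A K) (S18K_j K)))
  have hθ : qExpand K q (jqModC K) ∈ S18K_A0 A K N :=
    (S.chart0.mem_iff _).2 ⟨hjq, S34V0K_jq_mem_F K q N' N hq hqN hN⟩
  exact sub_mem hj (pow_mem hθ q)

/-- the value of the twisted inclusion `g = σ ∘ f` -/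
theorem S34L2K_g_coe [NeZero q]
    (hjq : IsIntegral (adj (S18K_O A K) (jqModC K)) (qExpand K q (jqModC K)))
    (hAA : S18K_A0 A K N' ≤ S18K_A0 A K N) (a : S18K_A0 A K N') :
    (((((S34WA_sigma A K q N' N hq hqN hN hjq).toRingHom.comp (Subring.inclusion hAA)) a :
      S18K_A0 A K N)) : LaurentSeries K) =
      S34V0_wL (S34V0K_emb K) q N' N hq hqN hN (a : LaurentSeries K) := by
  rw [RingHom.comp_apply, RingEquiv.toRingHom_eq_coe, RingEquiv.coe_toRingHom, S34WA_sigma_coe,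
    Subring.coe_inclusion]

/-- `hne` of `S34L2_main_abs`: an element of `A ∩ π V2` outside `A ∩ π V1` -/
theorem S34L2K_hne [NeZero q] (hA : A.LiesOverPrime q)
    (hjq : IsIntegral (adj (S18K_O A K) (S18K_j K)) (qExpand K q (jqModC K)))
    (S : S34C_Setup2 (S18K_O A K) (S18K_π A K) (S18K_j K) (S18K_F1 K N) (S18K_V A K N)
      (S34V0K_V A K q N' N hq hqN hN) (S18K_A0 A K N) (S18K_Ainf A K N)) :
    ∃ a : S18K_A0 A K N,
      (∃ v ∈ S34V0K_V A K q N' N hq hqN hN, (a : LaurentSeries K) = S18K_π A K * v) ∧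
      ¬ ∃ v ∈ S18K_V A K N, (a : LaurentSeries K) = S18K_π A K * v := by
  obtain ⟨hc0, hci⟩ := S34V0K_unit1 A K q N' N hq hqN hN hA
  refine ⟨⟨_, S34L2K_sep_mem A K q N' N hq hqN hN hjq S⟩,
    S34V0K_frob A K q N' N hq hqN hN hA, ?_⟩
  rintro ⟨v, hv, hcv⟩
  have hcv' : jqModC K - qExpand K q (jqModC K) ^ q = S18K_π A K * v := hcv
  have hv0 : v ≠ 0 := by
    rintro rfl
    rw [mul_zero] at hcv'
    exact hc0 hcv'
  have e : (S18K_π A K)⁻¹ = v * (jqModC K - qExpand K q (jqModC K) ^ q)⁻¹ := by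
    rw [hcv', mul_inv, ← mul_assoc, mul_comm v, mul_assoc, mul_inv_cancel₀ hv0, mul_one]
  exact S.V1_nonunit (by rw [e]; exact mul_mem hv hci)

/-- `hne'` of `S34L2_main_abs`: an element of `A ∩ π V1` outside `A ∩ π V2` -/
theorem S34L2K_hne' [NeZero q] (hA : A.LiesOverPrime q)
    (hjq : IsIntegral (adj (S18K_O A K) (S18K_j K)) (qExpand K q (jqModC K)))
    (S : S34C_Setup2 (S18K_O A K) (S18K_π A K) (S18K_j K) (S18K_F1 K N) (S18K_V A K N)
      (S34V0K_V A K q N' N hq hqN hN) (S18K_A0 A K N) (S18K_Ainf A K N)) :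
    ∃ a : S18K_A0 A K N,
      (∃ v ∈ S18K_V A K N, (a : LaurentSeries K) = S18K_π A K * v) ∧
      ¬ ∃ v ∈ S34V0K_V A K q N' N hq hqN hN, (a : LaurentSeries K) = S18K_π A K * v := by
  obtain ⟨a, ha2, ha1⟩ := S34L2K_hne A K q N' N hq hqN hN hA hjq S
  have hjq' : IsIntegral (adj (S18K_O A K) (jqModC K)) (qExpand K q (jqModC K)) := hjq
  have e1 : (S34WA_sigma A K q N' N hq hqN hN hjq').symm
      ((S34WA_sigma A K q N' N hq hqN hN hjq').symm a) =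
      (S34WA_sigma A K q N' N hq hqN hN hjq')
        ((S34WA_sigma A K q N' N hq hqN hN hjq').symm a) := by
    rw [S34WA_sigma_symm]
  have e : (S34WA_sigma A K q N' N hq hqN hN hjq').symm
      ((S34WA_sigma A K q N' N hq hqN hN hjq').symm a) = a :=
    e1.trans ((S34WA_sigma A K q N' N hq hqN hN hjq').apply_symm_apply a)
  refine ⟨(S34WA_sigma A K q N' N hq hqN hN hjq').symm a, ?_, ?_⟩
  · exact (S34WA_sigma_vert A K q N' N hq hqN hN hjq' a).1 ha2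
  · intro h
    apply ha1
    have h2 := (S34WA_sigma_vert A K q N' N hq hqN hN hjq'
      ((S34WA_sigma A K q N' N hq hqN hN hjq').symm a)).1 h
    rw [e] at h2
    exact h2

end OneLevel

section TwoLevels

variable (A : ValuationSubring Qb) {K0 K1 : IntermediateField ℚ Qb} (hle : K0 ≤ K1)
  (hstab : ∀ σ : GQ, ∀ x ∈ K1, σ x ∈ K1)
  [IsDiscreteValuationRing (S18K_O1 A K0)] [IsDiscreteValuationRing (S18K_O1 A K1)]
  (q N' N : ℕ) [NeZero N'] [NeZero N] (hq : q.Prime) (hqN : ¬ q ∣ N') (hN : N = q * N')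

include hle in
/-- **X-L2, concrete assembly.**  The contract `S34LGK_Node` on the finite chart of level
`N = q N'` at the level `K1`, from the unramified level `K0 ≤ K1`. -/
theorem S34L2K_node [NeZero q] (hA : A.LiesOverPrime q)
    (h0 : S18K_Admissible A K0 q) (h1 : S18K_Admissible A K1 q)
    (hK0 : ∀ τ : GQ, ∀ x ∈ K0, τ x ∈ K0)
    (hfix : ∀ τ : GQ, τ ∈ A.inertiaSubgroupIn ℚ → ∀ x ∈ K0, τ x = x)
    (hjq0 : IsIntegral (adj (S18K_O A K0) (S18K_j K0)) (qExpand K0 q (jqModC K0)))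
    (hjq1 : IsIntegral (adj (S18K_O A K1) (S18K_j K1)) (qExpand K1 q (jqModC K1)))
    (hsf0 : ∀ y ∈ S18K_A0 A K0 N, ∃ a ∈ S18K_A0 A K0 N', ∃ v ∈ S18K_V A K0 N,
      y - a = S18K_π A K0 * v)
    (hsg0 : ∀ y ∈ S18K_A0 A K0 N, ∃ a ∈ S18K_A0 A K0 N',
      ∃ v ∈ S34V0K_V A K0 q N' N hq hqN hN,
        y - S34V0_wL (S34V0K_emb K0) q N' N hq hqN hN a = S18K_π A K0 * v)
    (hsf1 : ∀ y ∈ S18K_A0 A K1 N, ∃ a ∈ S18K_A0 A K1 N', ∃ v ∈ S18K_V A K1 N,
      y - a = S18K_π A K1 * v)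
    (hsg1 : ∀ y ∈ S18K_A0 A K1 N, ∃ a ∈ S18K_A0 A K1 N',
      ∃ v ∈ S34V0K_V A K1 q N' N hq hqN hN,
        y - S34V0_wL (S34V0K_emb K1) q N' N hq hqN hN a = S18K_π A K1 * v) :
    S34LGK_Node N A K1 hstab (S34V0K_V A K1 q N' N hq hqN hN) (S18K_A0 A K1 N) := by
  have S0 := Fermat.Agent.S34_helper13_P1C.S34P1C_setup2 A K0 q N' N hq hqN hN hA
  have S1 := Fermat.Agent.S34_helper13_P1C.S34P1C_setup2 A K1 q N' N hq hqN hN hA
  have hjq0' : IsIntegral (adj (S18K_O A K0) (jqModC K0)) (qExpand K0 q (jqModC K0)) := hjq0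
  have hjq1' : IsIntegral (adj (S18K_O A K1) (jqModC K1)) (qExpand K1 q (jqModC K1)) := hjq1
  have hAA0 : S18K_A0 A K0 N' ≤ S18K_A0 A K0 N := S34L2K_A0_le A K0 q N' N hN
  have hAA1 : S18K_A0 A K1 N' ≤ S18K_A0 A K1 N := S34L2K_A0_le A K1 q N' N hN
  have S0' := Fermat.Agent.S18AK.setupK N' hq A hA hqN K0
  have S1' := Fermat.Agent.S18AK.setupK N' hq A hA hqN K1
  have hπ0' : S18K_π A K0 ∈ S18K_A0 A K0 N' :=
    S34L2K_O_le_chart S0'.chart0 S0'.O_le S0'.π_mem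
  have hπ1' : S18K_π A K1 ∈ S18K_A0 A K1 N' :=
    S34L2K_O_le_chart S1'.chart0 S1'.O_le S1'.π_mem
  have hO1 : S18K_O A K1 ≤ S18K_A0 A K1 N := S34L2K_O_le_chart S1.chart0 S1.O_le
  have hπ0 : S18K_π A K0 ∈ S18K_A0 A K0 N := hAA0 hπ0'
  have hV1_0 : S18K_A0 A K0 N ≤ S18K_V A K0 N := fun x hx => (S0.chart0.le_V hx).1
  have hV2_0 : S18K_A0 A K0 N ≤ S34V0K_V A K0 q N' N hq hqN hN :=
    fun x hx => (S0.chart0.le_V hx).2
  have hV1_1 : S18K_A0 A K1 N ≤ S18K_V A K1 N := fun x hx => (S1.chart0.le_V hx).1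
  have hV2_1 : S18K_A0 A K1 N ≤ S34V0K_V A K1 q N' N hq hqN hN :=
    fun x hx => (S1.chart0.le_V hx).2
  refine S34LO2_node A hle hstab N (S18K_A0 A K0 N) (S18K_A0 A K1 N)
    (fun a ha => S37MONO_Φ_mem_A0 A N hle ha) (S18K_V A K0 N)
    (S34V0K_V A K0 q N' N hq hqN hN) (S34V0K_V A K1 q N' N hq hqN hN) hfix S0.chart0.le_V
    (fun v hv => S34LP_Φ_V1 A hle N hv) (fun v hv => S34LP_Φ_V2 A hle q N' N hq hqN hN hv)
    S0.V1_unif S0.V2_unif ⟨S18K_π A K0, hπ0⟩ rfl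
    (S34N1S_vert (S18K_π A K0) (S18K_V A K0 N) (S18K_A0 A K0 N) hV1_0)
    (S34N1S_vert (S18K_π A K0) (S34V0K_V A K0 q N' N hq hqN hN) (S18K_A0 A K0 N) hV2_0)
    (fun a h => h) (fun a h => h) ?_
  intro hπ m hm hπm hthru1 hthru2 B
  haveI := hm.isPrime
  haveI hP1 : (S34N1S_vert (S18K_π A K0) (S18K_V A K0 N) (S18K_A0 A K0 N) hV1_0).IsPrime :=
    S34N1S_vert_isPrime hV1_0 S0.V1_nonunit S0.V1_unif
  haveI hP2 : (S34N1S_vert (S18K_π A K0) (S34V0K_V A K0 q N' N hq hqN hN)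
      (S18K_A0 A K0 N) hV2_0).IsPrime :=
    S34N1S_vert_isPrime hV2_0 S0.V2_nonunit S0.V2_unif
  -- the hypotheses of the abstract core
  have hcf : ∀ a : S18K_A0 A K0 N',
      S34NA_chartMap (S37MONO_Φ hle) (S18K_A0 A K0 N) (S18K_A0 A K1 N)
        (fun a ha => S37MONO_Φ_mem_A0 A N hle ha) (Subring.inclusion hAA0 a) =
      Subring.inclusion hAA1 (S34IM_φ0 A N' hle a) := by
    intro a
    apply Subtype.ext
    rw [S34NA_chartMap_coe, Subring.coe_inclusion, Subring.coe_inclusion, S34IM_φ0_coe]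
  have hcg : ∀ a : S18K_A0 A K0 N',
      S34NA_chartMap (S37MONO_Φ hle) (S18K_A0 A K0 N) (S18K_A0 A K1 N)
        (fun a ha => S37MONO_Φ_mem_A0 A N hle ha)
        (((S34WA_sigma A K0 q N' N hq hqN hN hjq0').toRingHom.comp
          (Subring.inclusion hAA0)) a) =
      ((S34WA_sigma A K1 q N' N hq hqN hN hjq1').toRingHom.comp (Subring.inclusion hAA1))
        (S34IM_φ0 A N' hle a) := by
    intro a
    apply Subtype.ext
    rw [S34NA_chartMap_coe, S34L2K_g_coe A K0 q N' N hq hqN hN hjq0' hAA0,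
      S34L2K_g_coe A K1 q N' N hq hqN hN hjq1' hAA1, S34IM_φ0_coe]
    exact S34LP_Φ_wL hle q N' N hq hqN hN (S34WA_A0_le_F A K0 N _ (hAA0 a.2))
  have hfg0 : ((S34WA_sigma A K0 q N' N hq hqN hN hjq0').toRingHom.comp
      (Subring.inclusion hAA0)) ⟨S18K_π A K0, hπ0'⟩ =
      Subring.inclusion hAA0 ⟨S18K_π A K0, hπ0'⟩ :=
    S34WA_sigma_pi A K0 q N' N hq hqN hN hjq0' hπ0
  have hfg1 : ((S34WA_sigma A K1 q N' N hq hqN hN hjq1').toRingHom.comp
      (Subring.inclusion hAA1)) ⟨S18K_π A K1, hπ1'⟩ =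
      Subring.inclusion hAA1 ⟨S18K_π A K1, hπ1'⟩ :=
    S34WA_sigma_pi A K1 q N' N hq hqN hN hjq1' hπ
  have hπu : ∃ u : S18K_A0 A K1 N,
      S34NA_chartMap (S37MONO_Φ hle) (S18K_A0 A K0 N) (S18K_A0 A K1 N)
        (fun a ha => S37MONO_Φ_mem_A0 A N hle ha)
        (Subring.inclusion hAA0 ⟨S18K_π A K0, hπ0'⟩) =
      Subring.inclusion hAA1 ⟨S18K_π A K1, hπ1'⟩ * u := by
    obtain ⟨d, hd⟩ := S34LP_Φ_π A hle
    exact ⟨⟨HahnSeries.C (d : K1), hO1 ((S18K_mem_O A K1 _).2 ⟨d, d.2, rfl⟩)⟩, Subtype.ext hd⟩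
  have hπv0 : ∀ W : Subring (LaurentSeries K0),
      ∃ v ∈ W, S18K_π A K0 = S18K_π A K0 * v := fun W => ⟨1, W.one_mem, (mul_one _).symm⟩
  have hπv1 : ∀ W : Subring (LaurentSeries K1),
      ∃ v ∈ W, S18K_π A K1 = S18K_π A K1 * v := fun W => ⟨1, W.one_mem, (mul_one _).symm⟩
  have hint0 : ∀ a ∈ S34N1S_vert (S18K_π A K0) (S18K_V A K0 N) (S18K_A0 A K0 N) hV1_0 ⊓
      S34N1S_vert (S18K_π A K0) (S34V0K_V A K0 q N' N hq hqN hN) (S18K_A0 A K0 N) hV2_0,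
      a ∈ Ideal.span {Subring.inclusion hAA0 ⟨S18K_π A K0, hπ0'⟩} := by
    rintro a ⟨⟨v, hv, hav⟩, ⟨w, hw, haw⟩⟩
    have hπne : S18K_π A K0 ≠ 0 := by
      intro h
      apply S0.V1_nonunit
      rw [h, inv_zero]
      exact Subring.zero_mem _
    have hvw : v = w := mul_left_cancel₀ hπne (hav.symm.trans haw)
    have hvA : v ∈ S18K_A0 A K0 N :=
      S0.chart0.sat v ⟨hv, hvw ▸ hw⟩ (hav ▸ a.2)
    rw [Ideal.mem_span_singleton']
    exact ⟨⟨v, hvA⟩, Subtype.ext (by rw [hav, mul_comm]; rfl)⟩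
  have hint1 : ∀ a ∈ S34N1S_vert (S18K_π A K1) (S18K_V A K1 N) (S18K_A0 A K1 N) hV1_1 ⊓
      S34N1S_vert (S18K_π A K1) (S34V0K_V A K1 q N' N hq hqN hN) (S18K_A0 A K1 N) hV2_1,
      a ∈ Ideal.span {Subring.inclusion hAA1 ⟨S18K_π A K1, hπ1'⟩} := by
    rintro a ⟨⟨v, hv, hav⟩, ⟨w, hw, haw⟩⟩
    have hπne : S18K_π A K1 ≠ 0 := by
      intro h
      apply S1.V1_nonunit
      rw [h, inv_zero]
      exact Subring.zero_mem _
    have hvw : v = w := mul_left_cancel₀ hπne (hav.symm.trans haw)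
    have hvA : v ∈ S18K_A0 A K1 N :=
      S1.chart0.sat v ⟨hv, hvw ▸ hw⟩ (hav ▸ a.2)
    rw [Ideal.mem_span_singleton']
    exact ⟨⟨v, hvA⟩, Subtype.ext (by rw [hav, mul_comm]; rfl)⟩
  have hne0 : ∃ a ∈ S34N1S_vert (S18K_π A K0) (S34V0K_V A K0 q N' N hq hqN hN)
      (S18K_A0 A K0 N) hV2_0,
      a ∉ S34N1S_vert (S18K_π A K0) (S18K_V A K0 N) (S18K_A0 A K0 N) hV1_0 := by
    obtain ⟨a, h2, h1⟩ := S34L2K_hne A K0 q N' N hq hqN hN hA hjq0 S0
    exact ⟨a, h2, h1⟩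
  have hne0' : ∃ a ∈ S34N1S_vert (S18K_π A K0) (S18K_V A K0 N) (S18K_A0 A K0 N) hV1_0,
      a ∉ S34N1S_vert (S18K_π A K0) (S34V0K_V A K0 q N' N hq hqN hN)
        (S18K_A0 A K0 N) hV2_0 := by
    obtain ⟨a, h1, h2⟩ := S34L2K_hne' A K0 q N' N hq hqN hN hA hjq0 S0
    exact ⟨a, h1, h2⟩
  exact S34L2_main_abs (S37MONO_Φ hle) (S18K_A0 A K0 N) (S18K_A0 A K1 N)
    (fun a ha => S37MONO_Φ_mem_A0 A N hle ha) m hm
    (Subring.inclusion hAA0)
    ((S34WA_sigma A K0 q N' N hq hqN hN hjq0').toRingHom.comp (Subring.inclusion hAA0))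
    (Subring.inclusion hAA1)
    ((S34WA_sigma A K1 q N' N hq hqN hN hjq1').toRingHom.comp (Subring.inclusion hAA1))
    (S34IM_φ0 A N' hle) hcf hcg ⟨S18K_π A K0, hπ0'⟩ ⟨S18K_π A K1, hπ1'⟩ hfg0 hfg1 hπu
    (S34N1S_vert (S18K_π A K0) (S18K_V A K0 N) (S18K_A0 A K0 N) hV1_0)
    (S34N1S_vert (S18K_π A K0) (S34V0K_V A K0 q N' N hq hqN hN) (S18K_A0 A K0 N) hV2_0)
    (S34N1S_vert (S18K_π A K1) (S18K_V A K1 N) (S18K_A0 A K1 N) hV1_1)
    (S34N1S_vert (S18K_π A K1) (S34V0K_V A K1 q N' N hq hqN hN) (S18K_A0 A K1 N) hV2_1)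
    (hπv0 _) (hπv0 _) (hπv1 _) (hπv1 _)
    (fun a ha => hthru1 a ha) (fun a ha => hthru2 a ha) hne0 hne0' hint0 hint1
    (fun a ha => S34LP_map_vert1 A hle N ha)
    (fun a ha => S34LP_map_vert2 A hle q N' N hq hqN hN ha)
    (fun y => by
      obtain ⟨a, ha, v, hv, h⟩ := hsf0 y y.2
      exact ⟨⟨a, ha⟩, v, hv, h⟩)
    (fun y => by
      obtain ⟨a, ha, v, hv, h⟩ := hsg0 y y.2
      exact ⟨⟨a, ha⟩, v, hv, h⟩)
    (fun y => by
      obtain ⟨a, ha, v, hv, h⟩ := hsf1 y y.2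
      exact ⟨⟨a, ha⟩, v, hv, h⟩)
    (fun y => by
      obtain ⟨a, ha, v, hv, h⟩ := hsg1 y y.2
      exact ⟨⟨a, ha⟩, v, hv, h⟩)
    (fun m' hm' hπm' => S34LP_IG A hle q N' hq hqN hA h0 h1 hπ0' hπ1' m' hm' hπm')
    q hq.two_le
    (S34L2F_hfrob A K0 q N' N hq hqN hN hA hK0 hjq0 hAA0 hV1_0 hV2_0) B

end TwoLevels

end Fermat.Agent.S34_helper17_L2K
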