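import Fermat.Agent.S34_helper13_KEYK
import Fermat.Agent.S34_helper13_KEYD
import Fermat.Agent.S34_helper15_DEG
import Fermat.Agent.S34_helper20_V0K

/-!
# S34, piece P1c-FINAL (helper27): the two-valuation setup at level `N' * q`, no hypotheses left

`A` a valuation subring of `ℚ̄` over the prime `q`, `K1` a level with `O1 = A ∩ K1` a discrete
valuation ring, `q ∤ N'`.  With

* `V1 := S18K_V A K1 (N' * q)`  (the Gauss valuation ring of `F1 = K1(j(q^d) : d ∣ N' q)`),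
* `V2 := S34P1C_V2 A K1 hq N' hqN` (`= w(V1)`, helper20's `S34V0K_V`),

we prove

* `S34P1C_hdeg`   : `[F1(N' q) : F1(N')] ≤ q + 1` in the elementwise form (helper15's degree
  through helper13's adapter);
* `S34P1C_setup2` : `S34C_Setup2` for `(V1, V2)` and the two `j`-charts;
* `S34P1C_ne`     : `∃ x ∈ V1, x ∉ V2`;
* `S34P1C_geomAt_12` : the first two conjuncts of the owner's `S34K_GeomAt`.
-/

set_option autoImplicit false
set_option linter.unusedSectionVars false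
set_option linter.unusedVariables false
set_option linter.style.haveILetI false

noncomputable section

open ModularCurve
open Fermat.Agent.S18_helper13_GAUSS Fermat.Agent.S18_helper9_CDefs
open Fermat.Agent.S18_helper25_COREDefs Fermat.Agent.S34_helper12_CDefs
open Fermat.Agent.S34_helper27_C2Defs Fermat.Agent.S34_helper20_V0
open Fermat.Agent.S34_helper27_V3K Fermat.Agent.S34_helper20_V0K
open Fermat.Agent.S34_helper13_KEYK Fermat.Agent.S34_helper13_KEYD
open Fermat.Agent.S34_helper15_DEG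

namespace Fermat.Agent.S34_helper27_P1C

variable (A : ValuationSubring (AlgebraicClosure ℚ))
  (K1 : IntermediateField ℚ (AlgebraicClosure ℚ))

set_option synthInstance.maxHeartbeats 400000 in
/-- **the degree input**: `F1(N' q)` is spanned over `F1(N')` by at most `q + 1` elements -/
theorem S34P1C_hdeg {q : ℕ} (hq : q.Prime) (N' : ℕ) [NeZero N'] [NeZero (N' * q)]
    (hqN : ¬ q ∣ N') :
    ∃ s : Finset (LaurentSeries K1), s.card ≤ q + 1 ∧ ∀ x ∈ S18K_F1 K1 (N' * q),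
      ∃ c : LaurentSeries K1 → LaurentSeries K1,
        (∀ y, c y ∈ S18K_F1 K1 N') ∧ x = ∑ y ∈ s, c y * y := by
  letI := S34DEG_algebra K1 N' q
  haveI := S34DEG_finiteDimensional K1 N' q
  have hle : Module.finrank ↥(modularFunctionFieldFullC K1 N')
      ↥(modularFunctionFieldFullC K1 (N' * q)) ≤ q + 1 := by
    have := S34DEG_finrank_le K1 N' q (algebraMap K1 (AlgebraicClosure ℚ)) hq hqN
    omega
  refine S34KEYD_hdeg
    (E := ↥(modularFunctionFieldFullC K1 N')) (E' := ↥(modularFunctionFieldFullC K1 (N' * q)))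
    (algebraMap ↥(modularFunctionFieldFullC K1 N') (LaurentSeries K1))
    (algebraMap ↥(modularFunctionFieldFullC K1 (N' * q)) (LaurentSeries K1))
    (fun e => S34DEG_algebraMap_coe K1 N' q e) (S18K_F1 K1 N') (S18K_F1 K1 (N' * q))
    (fun e => e.2) (fun x hx => ⟨⟨x, hx⟩, rfl⟩) hle

variable [IsDiscreteValuationRing (S18K_O1 A K1)]

/-- the second valuation ring at level `N' * q` (helper20's `V_0 = w(V_∞)`) -/
def S34P1C_V2 {q : ℕ} (hq : q.Prime) (N' : ℕ) [NeZero N'] [NeZero (N' * q)]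
    (hqN : ¬ q ∣ N') : Subring (LaurentSeries K1) :=
  S34V0K_V A K1 q N' (N' * q) hq hqN (Nat.mul_comm N' q)

theorem S34P1C_V2_eq {q : ℕ} (hq : q.Prime) (N' : ℕ) [NeZero N'] [NeZero (N' * q)]
    (hqN : ¬ q ∣ N') :
    S34P1C_V2 A K1 hq N' hqN =
      S34V0_image (algebraMap K1 (AlgebraicClosure ℚ)) q N' (N' * q) hq hqN (Nat.mul_comm N' q)
        (S18K_V A K1 (N' * q)) := rfl

set_option synthInstance.maxHeartbeats 400000 in
/-- **P1c, final form**: `S34C_Setup2` for the Gauss ring `V1` and `V2 = w(V1)` at level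
`N' * q`, with the two `j`-charts. -/
theorem S34P1C_setup2 {q : ℕ} (hq : q.Prime) (hA : A.LiesOverPrime q) (N' : ℕ) [NeZero N']
    [NeZero (N' * q)] (hqN : ¬ q ∣ N') :
    S34C_Setup2 (S18K_O A K1) (S18K_π A K1) (S18K_j K1) (S18K_F1 K1 (N' * q))
      (S18K_V A K1 (N' * q)) (S34P1C_V2 A K1 hq N' hqN)
      (S18K_A0 A K1 (N' * q)) (S18K_Ainf A K1 (N' * q)) := by
  haveI : NeZero q := ⟨hq.ne_zero⟩
  exact S34KEYK_setup2 A K1 hq hA N' (N' * q) hqN (dvd_mul_right N' q)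
    (S34V0K_V A K1 q N' (N' * q) hq hqN (Nat.mul_comm N' q))
    (S34V0K_val A K1 q N' (N' * q) hq hqN (Nat.mul_comm N' q))
    (S34V0K_le A K1 q N' (N' * q) hq hqN (Nat.mul_comm N' q))
    (S34V0K_ne A K1 q N' (N' * q) hq hqN (Nat.mul_comm N' q) hA).symm
    (S34P1C_hdeg K1 hq N' hqN)
    (S34V0K_jq_mem A K1 q N' (N' * q) hq hqN (Nat.mul_comm N' q))
    (S34V0K_frob_nonunit A K1 q N' (N' * q) hq hqN (Nat.mul_comm N' q) hA)

/-- **`V1 ⊄ V2`**: an element of the Gauss ring which is not in `V2` -/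
theorem S34P1C_ne {q : ℕ} (hq : q.Prime) (hA : A.LiesOverPrime q) (N' : ℕ) [NeZero N']
    [NeZero (N' * q)] (hqN : ¬ q ∣ N') :
    ∃ x ∈ S18K_V A K1 (N' * q), x ∉ S34P1C_V2 A K1 hq N' hqN := by
  haveI : NeZero q := ⟨hq.ne_zero⟩
  obtain ⟨c, hc0, hc, hci, v, hv, hcv⟩ :=
    S34V0K_sep A K1 q N' (N' * q) hq hqN (Nat.mul_comm N' q) hA
  refine ⟨c⁻¹, hci, fun hmem => ?_⟩
  have hv0 : v ≠ 0 := by
    rintro rfl
    rw [mul_zero] at hcv
    exact hc0 hcv
  have e : (S18K_π A K1)⁻¹ = v * c⁻¹ := by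
    rw [hcv, mul_inv, ← mul_assoc, mul_comm v, mul_assoc, mul_inv_cancel₀ hv0, mul_one]
  exact (S34V0K_val A K1 q N' (N' * q) hq hqN (Nat.mul_comm N' q)).π_nonunit
    (by rw [e]; exact mul_mem hv hmem)

/-- the mirror: an element of `V2` which is not in the Gauss ring -/
theorem S34P1C_ne' {q : ℕ} (hq : q.Prime) (hA : A.LiesOverPrime q) (N' : ℕ) [NeZero N']
    [NeZero (N' * q)] (hqN : ¬ q ∣ N') :
    ∃ x ∈ S34P1C_V2 A K1 hq N' hqN, x ∉ S18K_V A K1 (N' * q) := by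
  haveI : NeZero q := ⟨hq.ne_zero⟩
  obtain ⟨c, hc0, hc, hci, v, hv, hcv⟩ :=
    S34V0K_sep A K1 q N' (N' * q) hq hqN (Nat.mul_comm N' q) hA
  refine ⟨v, hv, fun hmem => ?_⟩
  have hv0 : v ≠ 0 := by
    rintro rfl
    rw [mul_zero] at hcv
    exact hc0 hcv
  have e : (S18K_π A K1)⁻¹ = v * c⁻¹ := by
    rw [hcv, mul_inv, ← mul_assoc, mul_comm v, mul_assoc, mul_inv_cancel₀ hv0, mul_one]
  exact (S34V3K_val1 A K1 (N' * q)).π_nonunit (by rw [e]; exact mul_mem hmem hci)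

/-- conjuncts 1 and 2 of the owner's `S34K_GeomAt (N' * q) A K1 p hstab V2`, for `V2 = w(V1)` -/
theorem S34P1C_geomAt_12 {q : ℕ} (hq : q.Prime) (hA : A.LiesOverPrime q) (N' : ℕ) [NeZero N']
    [NeZero (N' * q)] (hqN : ¬ q ∣ N') :
    S34C_Setup2 (S18K_O A K1) (S18K_π A K1) (S18K_j K1) (S18K_F1 K1 (N' * q))
        (S18K_V A K1 (N' * q)) (S34P1C_V2 A K1 hq N' hqN)
        (S18K_A0 A K1 (N' * q)) (S18K_Ainf A K1 (N' * q)) ∧
      (∃ x ∈ S18K_V A K1 (N' * q), x ∉ S34P1C_V2 A K1 hq N' hqN) :=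
  ⟨S34P1C_setup2 A K1 hq hA N' hqN, S34P1C_ne A K1 hq hA N' hqN⟩

end Fermat.Agent.S34_helper27_P1C
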