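import Mathlib
import Fermat.Agent.S34_helper17_L2K
import Fermat.Agent.S34_helper14_N1SJ
import Fermat.Agent.S34_helper13_HJQM
import Fermat.Agent.S34_helper5_K0
import Fermat.Agent.S34_helper27_P1C
import Fermat.Agent.S34_helper27_GEOM

/-!
# S34, X-L2 (concrete, final form), helper17

`S34LGK_Node` on the finite chart of level `N' * q` at every admissible level `K1`, with no
hypothesis left: the assembly `S34L2K_node` at the pair of levels `K0 ≤ K1`, `K0` the unramified
level (helper5), with the decompositions of helper14 (`S34N1SJ_sf`, `S34N1SJ_sg`) and the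
integrality of `j(q^q)` over `O[j]` (helper13, `S34HJQ_main`).

* `S34L2KF_node_gen` : level `N` with `N = q * N'`, second valuation ring `S34V0K_V`;
* `S34L2KF_node`     : level `N' * q` literally, second valuation ring `S34P1C_V2`.
-/

set_option autoImplicit false
set_option linter.style.haveILetI false
set_option linter.unusedSectionVars false
set_option linter.unusedVariables false
set_option synthInstance.maxHeartbeats 400000
set_option maxHeartbeats 1600000

open AlgebraicCurve ModularCurve HahnSeries IntermediateField IsLocalRing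

noncomputable section

namespace Fermat.Agent.S34_helper17_L2KF

open Fermat.Agent.S18_helper9_CDefs Fermat.Agent.S18_helper25_COREDefs
  Fermat.Agent.S18_helper13_GAUSS Fermat.Agent.S18_helper3_LOCRING
  Fermat.Agent.S34_Contracts Fermat.Agent.S34_helper7_LGDefs
  Fermat.Agent.S34_helper20_V0 Fermat.Agent.S34_helper20_V0K
  Fermat.Agent.S34_helper5_K0 Fermat.Agent.S34_helper14_N1SJ
  Fermat.Agent.S34_helper13_HJQM Fermat.Agent.S34_helper17_L2K
  Fermat.Agent.S34_helper27_P1C Fermat.Agent.S34_helper27_GEOM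

local notation "Qb" => AlgebraicClosure ℚ
local notation "GQ" => (AlgebraicClosure ℚ ≃ₐ[ℚ] AlgebraicClosure ℚ)

/-- **X-L2 concrete, general level `N = q N'`.** -/
theorem S34L2KF_node_gen (q N' N : ℕ) [NeZero N'] [NeZero N] (hq : q.Prime) (hqN : ¬ q ∣ N')
    (hN : N = q * N') (A : ValuationSubring Qb) (hA : A.LiesOverPrime q)
    (K1 : IntermediateField ℚ Qb) (h : S18K_Admissible A K1 q)
    (hstab : ∀ σ : GQ, ∀ x ∈ K1, σ x ∈ K1) :
    letI := h.dvr
    S34LGK_Node N A K1 hstab (S34V0K_V A K1 q N' N hq hqN hN) (S18K_A0 A K1 N) := by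
  letI := h.dvr
  haveI : NeZero q := ⟨hq.ne_zero⟩
  have h0 : S18K_Admissible A (S34K0_K0 q) q := S34K0_admissible hq A hA
  letI := h0.dvr
  have hle : S34K0_K0 q ≤ K1 := S34K0_le_of_admissible A K1 h
  exact S34L2K_node A hle hstab q N' N hq hqN hN hA h0 h
    (fun τ x hx => S34K0_stable q τ x hx)
    (fun τ hτ x hx => S34K0_inertia_fixed hq A hA τ hτ x hx)
    (S34HJQ_main A (S34K0_K0 q) q hq hA) (S34HJQ_main A K1 q hq hA)
    (S34N1SJ_sf A (S34K0_K0 q) q N' N hq hqN hN hA h0)
    (S34N1SJ_sg A (S34K0_K0 q) q N' N hq hqN hN hA h0 (S34HJQ_main A (S34K0_K0 q) q hq hA))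
    (S34N1SJ_sf A K1 q N' N hq hqN hN hA h)
    (S34N1SJ_sg A K1 q N' N hq hqN hN hA h (S34HJQ_main A K1 q hq hA))

/-- **X-L2 concrete** in the shape of the final wiring (`hnode` of `S34FINAL5_of_node`). -/
theorem S34L2KF_node (N' q : ℕ) [NeZero (N' * q)] (hq : q.Prime) (hqN : ¬ q ∣ N')
    (A : ValuationSubring Qb) (hA : A.LiesOverPrime q)
    (K1 : IntermediateField ℚ Qb) (h : S18K_Admissible A K1 q)
    (hstab : ∀ σ : GQ, ∀ x ∈ K1, σ x ∈ K1) :
    letI := h.dvr
    haveI := S34GM_neZero N' q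
    S34LGK_Node (N' * q) A K1 hstab (S34P1C_V2 A K1 hq N' hqN) (S18K_A0 A K1 (N' * q)) := by
  letI := h.dvr
  haveI := S34GM_neZero N' q
  exact S34L2KF_node_gen q N' (N' * q) hq hqN (Nat.mul_comm N' q) A hA K1 h hstab

end Fermat.Agent.S34_helper17_L2KF
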