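import Mathlib
import Fermat.Agent.S18_helper3_LOCRING

/-!
# S34, piece X-INF (helper18), generic part: two subrings with the same local ring

`A`, `B` subrings of a field `L`, `m` a prime ideal of `A`, `e ∈ A \ m` with `B ⊆ A[1/e]`
(`hpole`), and every `a ∈ A` has a denominator `t ∈ B` which is a unit at `m` (`hclear`).
Then `mt = {b ∈ B | e ^ n * b ∈ m for some n}` is a prime ideal of `B` with the same local ring,
and `[IG]` (shape `IGAt`), membership of vertical primes, and maximality transfer.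

Instances: `(A, B, e) = (Ainf, A0, j⁻¹)` at the non-cuspidal points of the chart at infinity, and
`(A, B, e) = (Ainf, icl O[1/θ], d(1/j))` at the cusps.
-/

set_option autoImplicit false

namespace Fermat.Agent.S34_helper18_CMP

open Fermat.Agent.S18_helper3_LOCRING

variable {L : Type*} [Field L]

/-- Membership of an element of the ambient field in an ideal of a subring. -/
def S34CMP_In (A : Subring L) (m : Ideal A) (z : L) : Prop := ∃ h : z ∈ A, (⟨z, h⟩ : A) ∈ m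

namespace S34CMP_In

variable {A : Subring L} {m : Ideal A} {z w : L}

theorem of_mem (z : A) (h : z ∈ m) : S34CMP_In A m (z : L) := ⟨z.2, h⟩

theorem zero : S34CMP_In A m 0 := ⟨A.zero_mem, m.zero_mem⟩

theorem add (hz : S34CMP_In A m z) (hw : S34CMP_In A m w) : S34CMP_In A m (z + w) :=
  ⟨A.add_mem hz.1 hw.1, m.add_mem hz.2 hw.2⟩

theorem sub (hz : S34CMP_In A m z) (hw : S34CMP_In A m w) : S34CMP_In A m (z - w) :=
  ⟨A.sub_mem hz.1 hw.1, m.sub_mem hz.2 hw.2⟩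

theorem mul_left {c : L} (hc : c ∈ A) (hz : S34CMP_In A m z) : S34CMP_In A m (c * z) :=
  ⟨A.mul_mem hc hz.1, m.mul_mem_left ⟨c, hc⟩ hz.2⟩

theorem mul_right {c : L} (hc : c ∈ A) (hz : S34CMP_In A m z) : S34CMP_In A m (z * c) :=
  ⟨A.mul_mem hz.1 hc, m.mul_mem_right ⟨c, hc⟩ hz.2⟩

theorem of_eq {z' : L} (hz : S34CMP_In A m z) (h : z = z') : S34CMP_In A m z' := h ▸ hz

theorem prime (hm : m.IsPrime) (hz : z ∈ A) (hw : w ∈ A) (h : S34CMP_In A m (z * w)) :
    S34CMP_In A m z ∨ S34CMP_In A m w := by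
  have h1 : (⟨z, hz⟩ : A) * ⟨w, hw⟩ ∈ m := h.2
  rcases hm.mem_or_mem h1 with h2 | h2
  · exact Or.inl ⟨hz, h2⟩
  · exact Or.inr ⟨hw, h2⟩

theorem of_pow (hm : m.IsPrime) (hz : z ∈ A) (n : ℕ) (h : S34CMP_In A m (z ^ n)) :
    S34CMP_In A m z := by
  have h1 : (⟨z, hz⟩ : A) ^ n ∈ m := h.2
  exact ⟨hz, hm.mem_of_pow_mem n h1⟩

end S34CMP_In

section Ideal

variable (A B : Subring L) (e : L)

/-- The contraction to `B` of `m · A_m`. -/
def S34CMP_ideal (he : e ∈ A) (hpole : ∀ b ∈ B, ∃ n : ℕ, e ^ n * b ∈ A) (m : Ideal A) :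
    Ideal B where
  carrier := {b | ∃ n : ℕ, S34CMP_In A m (e ^ n * (b : L))}
  zero_mem' := ⟨0, by simpa using S34CMP_In.zero⟩
  add_mem' := by
    rintro a b ⟨n, hn⟩ ⟨k, hk⟩
    refine ⟨n + k, ?_⟩
    have h1 := (hn.mul_left (A.pow_mem he k)).add (hk.mul_left (A.pow_mem he n))
    refine h1.of_eq ?_
    push_cast
    ring
  smul_mem' := by
    rintro c a ⟨n, hn⟩
    obtain ⟨r, hr⟩ := hpole c c.2
    refine ⟨r + n, ?_⟩
    refine (hn.mul_left hr).of_eq ?_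
    simp only [smul_eq_mul, Subring.coe_mul]
    ring

variable {A B e}

theorem S34CMP_mem_ideal {he : e ∈ A} {hpole : ∀ b ∈ B, ∃ n : ℕ, e ^ n * b ∈ A} {m : Ideal A}
    {b : B} : b ∈ S34CMP_ideal A B e he hpole m ↔ ∃ n : ℕ, S34CMP_In A m (e ^ n * (b : L)) :=
  Iff.rfl

/-- Independence of the exponent. -/
theorem S34CMP_inIdeal_of_pow_mul (he : e ∈ A) {m : Ideal A} (hm : m.IsPrime)
    (hem : ¬ S34CMP_In A m e) {a : L} {n k : ℕ} (hn : S34CMP_In A m (e ^ n * a))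
    (hk : e ^ k * a ∈ A) : S34CMP_In A m (e ^ k * a) := by
  have h1 : S34CMP_In A m (e ^ n * (e ^ k * a)) :=
    (hn.mul_left (A.pow_mem he k)).of_eq (by ring)
  rcases S34CMP_In.prime hm (A.pow_mem he n) hk h1 with h2 | h2
  · exact absurd (S34CMP_In.of_pow hm he n h2) hem
  · exact h2

theorem S34CMP_pow_not_inIdeal (he : e ∈ A) {m : Ideal A} (hm : m.IsPrime)
    (hem : ¬ S34CMP_In A m e) (n : ℕ) : ¬ S34CMP_In A m (e ^ n) := fun h =>
  hem (S34CMP_In.of_pow hm he n h)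

end Ideal

section Core

variable {A B : Subring L} {e : L} (he : e ∈ A) (hpole : ∀ b ∈ B, ∃ n : ℕ, e ^ n * b ∈ A)
  (m : Ideal A) (hm : m.IsPrime) (hem : ¬ S34CMP_In A m e)
  (hclear : ∀ a ∈ A, ∃ t ∈ B, t * a ∈ B ∧ ∃ k : ℕ, e ^ k * t ∈ A ∧ ¬ S34CMP_In A m (e ^ k * t))

include hm hem in
/-- an element of `B` which is a unit at `m` is not in `mt` -/
theorem S34CMP_unit_notMem {t : L} (ht : t ∈ B) {k : ℕ} (hk : e ^ k * t ∈ A)
    (hkm : ¬ S34CMP_In A m (e ^ k * t)) : (⟨t, ht⟩ : B) ∉ S34CMP_ideal A B e he hpole m := by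
  rintro ⟨n, hn⟩
  exact hkm (S34CMP_inIdeal_of_pow_mul he hm hem hn hk)

include hm hem in
theorem S34CMP_isPrime : (S34CMP_ideal A B e he hpole m).IsPrime := by
  refine ⟨?_, ?_⟩
  · intro h
    have h1 : (1 : B) ∈ S34CMP_ideal A B e he hpole m := by rw [h]; trivial
    obtain ⟨n, hn⟩ := h1
    refine S34CMP_pow_not_inIdeal he hm hem n (hn.of_eq ?_)
    simp
  · intro x y hxy
    obtain ⟨n, hn⟩ := hxy
    obtain ⟨n1, h1⟩ := hpole x x.2
    obtain ⟨n2, h2⟩ := hpole y y.2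
    have h3 : S34CMP_In A m ((e ^ n1 * (x : L)) * (e ^ n2 * (y : L)) * e ^ n) :=
      (hn.mul_left (A.pow_mem he (n1 + n2))).of_eq (by push_cast; ring)
    rcases S34CMP_In.prime hm (A.mul_mem h1 h2) (A.pow_mem he n) h3 with h4 | h4
    · rcases S34CMP_In.prime hm h1 h2 h4 with h5 | h5
      · exact Or.inl ⟨n1, h5⟩
      · exact Or.inr ⟨n2, h5⟩
    · exact absurd h4 (S34CMP_pow_not_inIdeal he hm hem n)

include hm hem hclear in
/-- **The local rings agree** (elementwise form). -/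
theorem S34CMP_loc_iff (y : L) :
    (∃ a c : B, c ∉ S34CMP_ideal A B e he hpole m ∧ y * (c : L) = a) ↔
      ∃ a c : A, c ∉ m ∧ y * (c : L) = a := by
  constructor
  · rintro ⟨a, c, hc, h⟩
    obtain ⟨n1, h1⟩ := hpole a a.2
    obtain ⟨n2, h2⟩ := hpole c c.2
    have h1' : e ^ (n1 + n2) * (a : L) ∈ A := by
      rw [pow_add, mul_comm (e ^ n1), mul_assoc]; exact A.mul_mem (A.pow_mem he _) h1
    have h2' : e ^ (n1 + n2) * (c : L) ∈ A := by
      rw [pow_add, mul_assoc]; exact A.mul_mem (A.pow_mem he _) h2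
    refine ⟨⟨_, h1'⟩, ⟨_, h2'⟩, fun hmem => hc ⟨n1 + n2, ⟨h2', hmem⟩⟩, ?_⟩
    show y * (e ^ (n1 + n2) * (c : L)) = e ^ (n1 + n2) * (a : L)
    rw [← h]; ring
  · rintro ⟨a, c, hc, h⟩
    obtain ⟨t1, ht1, h1, k1, hk1, hkm1⟩ := hclear a a.2
    obtain ⟨t2, ht2, h2, k2, hk2, hkm2⟩ := hclear c c.2
    have ha' : t1 * t2 * (a : L) ∈ B := by
      rw [mul_comm t1, mul_assoc]; exact B.mul_mem ht2 h1
    have hc' : t1 * t2 * (c : L) ∈ B := by
      rw [mul_assoc]; exact B.mul_mem ht1 h2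
    refine ⟨⟨_, ha'⟩, ⟨_, hc'⟩, ?_, ?_⟩
    · rintro ⟨n, hn⟩
      have h3 : S34CMP_In A m ((e ^ k1 * t1) * (e ^ k2 * t2) * ((c : L) * e ^ n)) :=
        (hn.mul_left (A.pow_mem he (k1 + k2))).of_eq (by push_cast; ring)
      rcases S34CMP_In.prime hm (A.mul_mem hk1 hk2) (A.mul_mem c.2 (A.pow_mem he n)) h3
        with h4 | h4
      · rcases S34CMP_In.prime hm hk1 hk2 h4 with h5 | h5
        · exact hkm1 h5
        · exact hkm2 h5
      · rcases S34CMP_In.prime hm c.2 (A.pow_mem he n) h4 with h5 | h5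
        · exact hc h5.2
        · exact S34CMP_pow_not_inIdeal he hm hem n h5
    · show y * (t1 * t2 * (c : L)) = t1 * t2 * (a : L)
      rw [← h]; ring

include hm hem hclear in
/-- **The local rings agree.** -/
theorem S34CMP_locRing_eq :
    @locRing L _ B (S34CMP_ideal A B e he hpole m) (S34CMP_isPrime he hpole m hm hem) =
      @locRing L _ A m hm := by
  ext y
  exact S34CMP_loc_iff he hpole m hm hem hclear y

include hm hem in
/-- an element of `A ⊓ B` lies in `mt` iff it lies in `m` -/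
theorem S34CMP_mem_iff {z : L} (hzA : z ∈ A) (hzB : z ∈ B) :
    (⟨z, hzB⟩ : B) ∈ S34CMP_ideal A B e he hpole m ↔ (⟨z, hzA⟩ : A) ∈ m := by
  constructor
  · rintro ⟨n, hn⟩
    rcases S34CMP_In.prime hm (A.pow_mem he n) hzA hn with h | h
    · exact absurd h (S34CMP_pow_not_inIdeal he hm hem n)
    · exact h.2
  · intro h
    have h0 : S34CMP_In A m z := ⟨hzA, h⟩
    exact ⟨0, h0.of_eq (by simp)⟩

include hm hem hclear in
/-- **Transfer of `[IG]`** from `(B, mt)` to `(A, m)`. -/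
theorem S34CMP_IGAt (π : L) (hπB : π ∈ B)
    (h : IGAt π B (S34CMP_ideal A B e he hpole m)) : IGAt π A m := by
  intro hπA
  obtain ⟨y, ⟨N, hN⟩, hgen⟩ := h hπB
  refine ⟨⟨_, hN.1⟩, hN.2, ?_⟩
  intro x hx
  obtain ⟨t, ht, htx, k, hk, hkm⟩ := hclear x x.2
  have htxm : (⟨t * (x : L), htx⟩ : B) ∈ S34CMP_ideal A B e he hpole m := by
    refine ⟨k, ?_⟩
    have : S34CMP_In A m ((e ^ k * t) * (x : L)) := (S34CMP_In.of_mem x hx).mul_left hk
    exact this.of_eq (by ring)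
  obtain ⟨c, hc, a, b, hcab⟩ := hgen _ htxm
  have hcab' : (c : L) * (t * (x : L)) = (a : L) * π + (b : L) * (y : L) := by
    have := congrArg (Subtype.val) hcab
    simpa using this
  obtain ⟨nc, hnc⟩ := hpole c c.2
  obtain ⟨na, hna⟩ := hpole a a.2
  obtain ⟨nb, hnb⟩ := hpole b b.2
  -- the multiplier `e ^ (nc + k + na + nb + N) * c * t`
  have hct : e ^ (nc + k + na + nb + N) * ((c : L) * t) ∈ A := by
    have : e ^ (nc + k + na + nb + N) * ((c : L) * t) =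
        e ^ (na + nb + N) * ((e ^ nc * (c : L)) * (e ^ k * t)) := by ring
    rw [this]
    exact A.mul_mem (A.pow_mem he _) (A.mul_mem hnc hk)
  have ha' : e ^ (nc + k + na + nb + N) * (a : L) ∈ A := by
    have : e ^ (nc + k + na + nb + N) * (a : L) = e ^ (nc + k + nb + N) * (e ^ na * (a : L)) := by
      ring
    rw [this]
    exact A.mul_mem (A.pow_mem he _) hna
  have hb' : e ^ (nc + k + na + nb) * (b : L) ∈ A := by
    have : e ^ (nc + k + na + nb) * (b : L) = e ^ (nc + k + na) * (e ^ nb * (b : L)) := by ring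
    rw [this]
    exact A.mul_mem (A.pow_mem he _) hnb
  refine ⟨⟨_, hct⟩, ?_, ⟨_, ha'⟩, ⟨_, hb'⟩, ?_⟩
  · intro hmem
    have h0 : S34CMP_In A m (e ^ (nc + k + na + nb + N) * ((c : L) * t)) := ⟨hct, hmem⟩
    have h1 : S34CMP_In A m (e ^ (na + nb + N) * ((e ^ nc * (c : L)) * (e ^ k * t))) :=
      h0.of_eq (by ring)
    rcases S34CMP_In.prime hm (A.pow_mem he _) (A.mul_mem hnc hk) h1 with h2 | h2
    · exact S34CMP_pow_not_inIdeal he hm hem _ h2
    · rcases S34CMP_In.prime hm hnc hk h2 with h3 | h3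
      · exact hc ⟨nc, h3⟩
      · exact hkm h3
  · apply Subtype.ext
    show e ^ (nc + k + na + nb + N) * ((c : L) * t) * (x : L) =
      e ^ (nc + k + na + nb + N) * (a : L) * π + e ^ (nc + k + na + nb) * (b : L) *
        (e ^ N * (y : L))
    have : e ^ (nc + k + na + nb + N) * ((c : L) * t) * (x : L) =
        e ^ (nc + k + na + nb + N) * ((c : L) * (t * (x : L))) := by ring
    rw [this, hcab']
    ring

include hm hem hclear in
/-- **Transfer of the vertical primes**: `B ∩ π V ⊆ mt` iff `A ∩ π V ⊆ m`. -/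
theorem S34CMP_thru_iff (π : L) (V : Subring L) (hAV : A ≤ V) (hBV : B ≤ V) :
    (∀ b : B, (∃ v ∈ V, (b : L) = π * v) → b ∈ S34CMP_ideal A B e he hpole m) ↔
      ∀ a : A, (∃ v ∈ V, (a : L) = π * v) → a ∈ m := by
  constructor
  · rintro h a ⟨v, hv, hav⟩
    obtain ⟨t, ht, hta, k, hk, hkm⟩ := hclear a a.2
    obtain ⟨n, hn⟩ := h ⟨t * (a : L), hta⟩ ⟨t * v, V.mul_mem (hBV ht) hv, by
      show t * (a : L) = π * (t * v)
      rw [hav]; ring⟩
    have h1 : S34CMP_In A m ((e ^ k * t) * ((a : L) * e ^ n)) :=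
      (hn.mul_left (A.pow_mem he k)).of_eq (by ring)
    rcases S34CMP_In.prime hm hk (A.mul_mem a.2 (A.pow_mem he n)) h1 with h2 | h2
    · exact absurd h2 hkm
    · rcases S34CMP_In.prime hm a.2 (A.pow_mem he n) h2 with h3 | h3
      · exact h3.2
      · exact absurd h3 (S34CMP_pow_not_inIdeal he hm hem n)
  · rintro h b ⟨v, hv, hbv⟩
    obtain ⟨n, hn⟩ := hpole b b.2
    exact ⟨n, hn, h ⟨_, hn⟩ ⟨e ^ n * v, V.mul_mem (V.pow_mem (hAV he) n) hv, by
      show e ^ n * (b : L) = π * (e ^ n * v)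
      rw [hbv]; ring⟩⟩

include hem in
/-- **Maximality**: if `m` is maximal with residue field the image of `O`, so is `mt`. -/
theorem S34CMP_isMaximal (O : Subring L) (hOA : O ≤ A) (hOB : O ≤ B) (hmax : m.IsMaximal)
    (hres : ∀ z : A, ∃ c : L, ∃ hc : c ∈ O, z - ⟨c, hOA hc⟩ ∈ m)
    (hOunit : ∀ (c : L) (hc : c ∈ O), (⟨c, hOA hc⟩ : A) ∉ m → c⁻¹ ∈ O) :
    (S34CMP_ideal A B e he hpole m).IsMaximal := by
  have hmp : m.IsPrime := hmax.isPrime
  have hres' : ∀ z ∈ A, ∃ c ∈ O, S34CMP_In A m (z - c) := by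
    intro z hz
    obtain ⟨c, hc, h⟩ := hres ⟨z, hz⟩
    exact ⟨c, hc, ⟨A.sub_mem hz (hOA hc), h⟩⟩
  rw [Ideal.isMaximal_iff]
  refine ⟨?_, ?_⟩
  · rintro ⟨n, hn⟩
    exact S34CMP_pow_not_inIdeal he hmp hem n (hn.of_eq (by simp))
  · intro J b hJ hb hbJ
    obtain ⟨n, hn⟩ := hpole b b.2
    have hbn : ¬ S34CMP_In A m (e ^ n * (b : L)) := fun h => hb ⟨n, h⟩
    obtain ⟨c, hc, hcm⟩ := hres' _ hn
    obtain ⟨ce, hce, hcem⟩ := hres' e he
    have hc0 : (⟨c, hOA hc⟩ : A) ∉ m := by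
      intro h
      have h1 : S34CMP_In A m c := ⟨hOA hc, h⟩
      exact hbn ((hcm.add h1).of_eq (by ring))
    have hcinv := hOunit c hc hc0
    have hcne : c ≠ 0 := by
      rintro rfl
      exact hc0 (by
        have : (⟨(0 : L), hOA hc⟩ : A) = 0 := rfl
        rw [this]; exact m.zero_mem)
    have hoO : ce ^ n * c⁻¹ ∈ O := O.mul_mem (O.pow_mem hce n) hcinv
    have hpow : S34CMP_In A m (e ^ n - ce ^ n) := by
      have h3 : ((⟨e, he⟩ : A) ^ n - (⟨ce, hOA hce⟩ : A) ^ n) ∈ m :=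
        m.mem_of_dvd (sub_dvd_pow_sub_pow _ _ n) hcem.2
      exact ⟨_, h3⟩
    have hkey : b * ⟨ce ^ n * c⁻¹, hOB hoO⟩ - 1 ∈ S34CMP_ideal A B e he hpole m := by
      refine ⟨n, ?_⟩
      have h1 : S34CMP_In A m ((e ^ n * (b : L) - c) * (ce ^ n * c⁻¹)) :=
        hcm.mul_right (hOA hoO)
      refine (h1.sub hpow).of_eq ?_
      push_cast
      field_simp
      ring
    have h1 : (1 : B) = b * ⟨ce ^ n * c⁻¹, hOB hoO⟩ - (b * ⟨ce ^ n * c⁻¹, hOB hoO⟩ - 1) := by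
      ring
    rw [h1]
    exact J.sub_mem (J.mul_mem_right _ hbJ) (hJ hkey)

end Core

end Fermat.Agent.S34_helper18_CMP
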