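import Mathlib
import Fermat.Agent.S18_helper20_CSAT
import Fermat.Agent.S34_helper18_CUSP
import Fermat.Agent.S34_helper18_CMP

/-!
# S34, piece X-INF (R3) (helper18): `[IG]` at the cusps of the second component

Setting: `S : S34C_Setup2 O π j F1 V1 V2 A0 Ainf`, `θ` the second coordinate with the modular
relation in both directions, `At` the integral closure of `O[θ⁻¹]` in `F1`
(`= w(Ainf)` in the application), `σ : Ainf ≃+* At` the ring isomorphism induced by `w`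
(it fixes `π`, maps `j⁻¹` to `θ⁻¹` and exchanges the vertical primes).

* `S34CIG_pole`     : `At ⊆ Ainf[1/d]` (`d = d(j⁻¹)` of `S34CUSP_S_mem`) and the mirror;
* `S34CIG_transfer` : `IGAt` at the maximal ideal of `At` below a cusp `m` of `Ainf` gives
  `IGAt π Ainf m`;
* `S34CIG_main`     : `IGAt` at the cusps of `Ainf` on the first component only (`d ∈ π V2`,
  `d ∉ m`) gives `IGAt` at the cusps of `Ainf` on the second component only.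
-/

set_option autoImplicit false

namespace Fermat.Agent.S34_helper18_CUSPIG

open Polynomial Fermat.Agent.S18_helper9_CDefs Fermat.Agent.S34_helper12_CDefs
  Fermat.Agent.S18_helper3_LOCRING Fermat.Agent.S18_helper20_CSAT
  Fermat.Agent.S34_helper18_CUSP Fermat.Agent.S34_helper18_CMP

variable {L : Type*} [Field L]

/-! ### generic: clearing denominators with `d` -/

/-- if `d, d * s ∈ R` then every element of `O[s]` is moved into `R` by a power of `d` -/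
theorem S34CIG_pole_adj (O R : Subring L) (hOR : O ≤ R) (s d : L) (hd : d ∈ R)
    (hds : d * s ∈ R) : ∀ r ∈ adj O s, ∃ n : ℕ, d ^ n * r ∈ R := by
  intro r hr
  induction hr using Subring.closure_induction with
  | mem x hx =>
    rcases hx with hx | hx
    · exact ⟨0, by simpa using hOR hx⟩
    · rw [Set.mem_singleton_iff] at hx
      exact ⟨1, by rw [hx, pow_one]; exact hds⟩
  | zero => exact ⟨0, by simp⟩
  | one => exact ⟨0, by simp⟩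
  | add x y _ _ hx hy =>
    obtain ⟨n, hn⟩ := hx
    obtain ⟨k, hk⟩ := hy
    refine ⟨n + k, ?_⟩
    have : d ^ (n + k) * (x + y) = d ^ k * (d ^ n * x) + d ^ n * (d ^ k * y) := by ring
    rw [this]
    exact R.add_mem (R.mul_mem (R.pow_mem hd k) hn) (R.mul_mem (R.pow_mem hd n) hk)
  | neg x _ hx =>
    obtain ⟨n, hn⟩ := hx
    exact ⟨n, by rw [mul_neg]; exact R.neg_mem hn⟩
  | mul x y _ _ hx hy =>
    obtain ⟨n, hn⟩ := hx
    obtain ⟨k, hk⟩ := hy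
    refine ⟨n + k, ?_⟩
    have : d ^ (n + k) * (x * y) = (d ^ n * x) * (d ^ k * y) := by ring
    rw [this]
    exact R.mul_mem hn hk

/-- **`X' ⊆ X[1/d]`** for `X = icl O[u]`, `X' = icl O[s]` (in `F1`) when `d, d * s ∈ X`. -/
theorem S34CIG_pole (O : Subring L) (F1 : Subfield L) (u s d : L) (X X' : Subring L)
    (hX : ∀ y, y ∈ X ↔ IsIntegral (adj O u) y ∧ y ∈ F1)
    (hX' : ∀ y, y ∈ X' ↔ IsIntegral (adj O s) y ∧ y ∈ F1)
    (hOX : O ≤ X) (hd : d ∈ X) (hds : d * s ∈ X) :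
    ∀ y ∈ X', ∃ n : ℕ, d ^ n * y ∈ X := by
  intro y hy
  obtain ⟨h1, h2⟩ := (hX' y).mp hy
  obtain ⟨n, hn⟩ := CSAT_exists_pow_mul_isIntegral X (adj O s) d hd
    (S34CIG_pole_adj O X hOX s d hd hds) h1
  have hXeq : X = icl (adj O u) F1 := Subring.ext fun z => (hX z).trans mem_icl.symm
  have hn' : IsIntegral (adj O u) (d ^ n * y) := by
    rw [hXeq] at hn
    exact CSAT_isIntegral_of_icl (adj O u) F1 hn
  have hdF : d ∈ F1 := ((hX d).mp hd).2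
  exact ⟨n, (hX _).mpr ⟨hn', F1.mul_mem (F1.pow_mem hdF n) h2⟩⟩

/-- **`1/θ` near the cusps, generic chart**: the statement of `S34CUSP_S_mem` for any subring
`X` which is the integral closure of `O[j⁻¹]` in `F1`. -/
theorem S34CIG_S_mem (O : Subring L) (F1 : Subfield L) (j θ : L) (q : ℕ) (X : Subring L)
    (hX : ∀ y, y ∈ X ↔ IsIntegral (adj O j⁻¹) y ∧ y ∈ F1)
    (hOF : (O : Set L) ⊆ F1) (hjF : j ∈ F1) (hθF : θ ∈ F1) (hj0 : j ≠ 0) (hθ0 : θ ≠ 0)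
    (htr : Transcendental O j) (hrel : S34CUSP_Rel O j θ q) :
    ∃ d b : L, b ∈ X ∧ d = 1 + j⁻¹ * b ∧ d ∈ X ∧ d * θ⁻¹ ∈ X ∧
      ∃ c ∈ X, (d * θ⁻¹) ^ (q + 1) = j⁻¹ * c := by
  have hadj : adj O j⁻¹ ≤ X := fun y hy =>
    (hX y).mpr ⟨isIntegral_algebraMap (x := (⟨y, hy⟩ : adj O j⁻¹)),
      S34CUSP_adj_le_F1 hOF (F1.inv_mem hjF) hy⟩
  obtain ⟨d, b, hb, hdb, Q, hQm, hQd, hQS, hQc⟩ := S34CUSP_S_poly hj0 hθ0 htr hrel
  have hbA : b ∈ X := hadj hb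
  have huA : j⁻¹ ∈ X := hadj (S34CUSP_mem_adj O _)
  have hdA : d ∈ X := by
    rw [hdb]
    exact Subring.add_mem _ (Subring.one_mem _) (Subring.mul_mem _ huA hbA)
  have hdF : d ∈ F1 := ((hX d).mp hdA).2
  have hSint : IsIntegral (adj O j⁻¹) (d * θ⁻¹) := by
    refine S34CUSP_isIntegral_of_coeff_mem _ Q hQm ?_ _ hQS
    intro n
    rcases Nat.lt_or_ge q n with hn | hn
    · rcases Nat.eq_or_lt_of_le (Nat.succ_le_of_lt hn) with hn' | hn'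
      · rw [← hn', Nat.succ_eq_add_one, ← hQd, hQm.coeff_natDegree]
        exact Subring.one_mem _
      · rw [Polynomial.coeff_eq_zero_of_natDegree_lt (by rw [hQd]; exact hn')]
        exact Subring.zero_mem _
    · obtain ⟨c, hc, hQn⟩ := hQc n hn
      rw [hQn]
      exact Subring.mul_mem _ (S34CUSP_mem_adj O _) hc
  have hSA : d * θ⁻¹ ∈ X := (hX _).mpr ⟨hSint, F1.mul_mem hdF (F1.inv_mem hθF)⟩
  refine ⟨d, b, hbA, hdb, hdA, hSA, ?_⟩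
  choose! c hc hQn using hQc
  refine ⟨-∑ n ∈ Finset.range (q + 1), c n * (d * θ⁻¹) ^ n, ?_, ?_⟩
  · refine Subring.neg_mem _ (Subring.sum_mem _ fun n hn => ?_)
    have hn' : n ≤ q := Nat.lt_succ_iff.mp (Finset.mem_range.mp hn)
    exact Subring.mul_mem _ (hadj (hc n hn')) (Subring.pow_mem _ hSA _)
  · have h1 := hQS
    rw [Polynomial.eval_eq_sum_range, hQd, Finset.sum_range_succ, ← hQd, hQm.coeff_natDegree,
      hQd, one_mul] at h1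
    have h2 : ∑ n ∈ Finset.range (q + 1), Q.coeff n * (d * θ⁻¹) ^ n =
        j⁻¹ * ∑ n ∈ Finset.range (q + 1), c n * (d * θ⁻¹) ^ n := by
      rw [Finset.mul_sum]
      refine Finset.sum_congr rfl fun n hn => ?_
      have hn' : n ≤ q := Nat.lt_succ_iff.mp (Finset.mem_range.mp hn)
      rw [hQn n hn', mul_assoc]
    rw [h2] at h1
    rw [mul_neg]
    exact eq_neg_of_add_eq_zero_right h1

/-! ### transport of `[IG]` along a ring isomorphism -/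

theorem S34CIG_IGAt_equiv (A B : Subring L) (σ : A ≃+* B) (π : L) (hπA : π ∈ A)
    (hπB : π ∈ B) (hσπ : σ ⟨π, hπA⟩ = ⟨π, hπB⟩) (mB : Ideal B)
    (h : IGAt π A (Ideal.comap (σ : A →+* B) mB)) : IGAt π B mB := by
  intro hπ'
  obtain ⟨y, hy, hgen⟩ := h hπA
  refine ⟨σ y, by simpa [Ideal.mem_comap] using hy, ?_⟩
  intro x hx
  have hx' : σ.symm x ∈ Ideal.comap (σ : A →+* B) mB := by
    rw [Ideal.mem_comap]
    simpa using hx
  obtain ⟨c, hc, a, b, hcab⟩ := hgen _ hx'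
  refine ⟨σ c, fun hmem => hc (by rw [Ideal.mem_comap]; simpa using hmem), σ a, σ b, ?_⟩
  have h1 := congrArg σ hcab
  rw [map_mul, map_add, map_mul, map_mul, hσπ, RingEquiv.apply_symm_apply] at h1
  exact h1

/-! ### the comparison at a cusp -/

section Transfer

variable {O : Subring L} {π j θ : L} {F1 : Subfield L} {V1 V2 A0 Ainf At : Subring L} {q : ℕ}

/-- The denominators of `Ainf` in `At` are units at a cusp. -/
theorem S34CIG_clear (d b' d' : L) (hd : d ∈ Ainf) (hS : d * θ⁻¹ ∈ Ainf)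
    (hb' : b' ∈ At) (hdb' : d' = 1 + θ⁻¹ * b') (hd' : d' ∈ At)
    (hpole : ∀ y ∈ At, ∃ n : ℕ, d ^ n * y ∈ Ainf)
    (hpole' : ∀ a ∈ Ainf, ∃ n : ℕ, d' ^ n * a ∈ At)
    (m : Ideal Ainf) (hm : m.IsPrime) (hem : ¬ S34CMP_In Ainf m d)
    (hSm : S34CMP_In Ainf m (d * θ⁻¹)) :
    ∀ a ∈ Ainf, ∃ t ∈ At, t * a ∈ At ∧ ∃ k : ℕ, d ^ k * t ∈ Ainf ∧
      ¬ S34CMP_In Ainf m (d ^ k * t) := by
  obtain ⟨k0, hk0⟩ := hpole b' hb'
  have hE : d ^ (k0 + 1) * d' = d ^ (k0 + 1) + (d * θ⁻¹) * (d ^ k0 * b') := by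
    rw [hdb', pow_succ]; ring
  have hEA : d ^ (k0 + 1) * d' ∈ Ainf := by
    rw [hE]
    exact Ainf.add_mem (Ainf.pow_mem hd _) (Ainf.mul_mem hS hk0)
  have hEm : ¬ S34CMP_In Ainf m (d ^ (k0 + 1) * d') := by
    intro h
    have h1 : S34CMP_In Ainf m ((d * θ⁻¹) * (d ^ k0 * b')) := hSm.mul_right hk0
    have h2 : S34CMP_In Ainf m (d ^ (k0 + 1)) := (h.sub h1).of_eq (by rw [hE]; ring)
    exact S34CMP_pow_not_inIdeal hd hm hem _ h2
  intro a ha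
  obtain ⟨n, hn⟩ := hpole' a ha
  have hpow : d ^ ((k0 + 1) * n) * d' ^ n = (d ^ (k0 + 1) * d') ^ n := by
    rw [mul_pow, ← pow_mul]
  refine ⟨d' ^ n, At.pow_mem hd' n, hn, (k0 + 1) * n, ?_, ?_⟩
  · rw [hpow]; exact Ainf.pow_mem hEA n
  · rw [hpow]
    intro h
    exact hEm (S34CMP_In.of_pow hm hEA n h)

/-- **(R3)** `[IG]` at the cusps of the SECOND component (`d ∈ π V1`, `d ∉ m`) of the chart at
infinity, from `[IG]` at the cusps of the FIRST component (`d ∈ π V2`, `d ∉ m`) and the ring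
isomorphism `σ : Ainf ≃ At` induced by the Atkin-Lehner automorphism. -/
theorem S34CIG_main (S : S34C_Setup2 O π j F1 V1 V2 A0 Ainf) (hθ : θ ∈ F1)
    (htrθ : Transcendental O θ)
    (hrel : S34CUSP_Rel O j θ q) (hrel' : S34CUSP_Rel O θ j q)
    (hAt : ∀ y, y ∈ At ↔ IsIntegral (adj O θ⁻¹) y ∧ y ∈ F1) (hAtV1 : At ≤ V1)
    (hπ : π ∈ Ainf) (hu : j⁻¹ ∈ Ainf) (hπt : π ∈ At) (hut : θ⁻¹ ∈ At) (hOinf : O ≤ Ainf)
    (hOt : O ≤ At)
    (hres : ∀ (m : Ideal Ainf), m.IsMaximal → (⟨π, hπ⟩ : Ainf) ∈ m →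
      ∀ z : Ainf, ∃ c : L, ∃ hc : c ∈ O, z - ⟨c, hOinf hc⟩ ∈ m)
    (hOunit : ∀ (m : Ideal Ainf), m.IsMaximal → (⟨π, hπ⟩ : Ainf) ∈ m →
      ∀ (c : L) (hc : c ∈ O), (⟨c, hOinf hc⟩ : Ainf) ∉ m → c⁻¹ ∈ O)
    (σ : Ainf ≃+* At) (hσπ : σ ⟨π, hπ⟩ = ⟨π, hπt⟩) (hσu : σ ⟨j⁻¹, hu⟩ = ⟨θ⁻¹, hut⟩)
    (hσ : ∀ a : Ainf, (∃ v ∈ V2, (a : L) = π * v) ↔ ∃ v ∈ V1, ((σ a : At) : L) = π * v)
    (hIG1 : ∀ (m' : Ideal Ainf), m'.IsMaximal → (⟨π, hπ⟩ : Ainf) ∈ m' →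
      (⟨j⁻¹, hu⟩ : Ainf) ∈ m' → (∃ d : Ainf, d ∉ m' ∧ ∃ v ∈ V2, (d : L) = π * v) →
      IGAt π Ainf m')
    (m : Ideal Ainf) (hm : m.IsMaximal) (hπm : (⟨π, hπ⟩ : Ainf) ∈ m)
    (hum : (⟨j⁻¹, hu⟩ : Ainf) ∈ m) (hd1 : ∃ d : Ainf, d ∉ m ∧ ∃ v ∈ V1, (d : L) = π * v) :
    IGAt π Ainf m := by
  have hmp : m.IsPrime := hm.isPrime
  have hj0 := S34CUSP_j_ne_zero S
  have hθ0 := S34CUSP_θ_ne_zero S hrel
  obtain ⟨d, b, hb, hdb, hd, hS, c, hc, hSc⟩ := S34CUSP_S_mem S hθ hrel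
  obtain ⟨d', b', hb', hdb', hd', hS', -⟩ :=
    S34CIG_S_mem O F1 θ j q At hAt S.O_le hθ S.j_mem hθ0 hj0 htrθ hrel'
  have hpole : ∀ y ∈ At, ∃ n : ℕ, d ^ n * y ∈ Ainf :=
    S34CIG_pole O F1 j⁻¹ θ⁻¹ d Ainf At S.chartInf.mem_iff hAt hOinf hd hS
  have hpole' : ∀ a ∈ Ainf, ∃ n : ℕ, d' ^ n * a ∈ At :=
    S34CIG_pole O F1 θ⁻¹ j⁻¹ d' At Ainf hAt S.chartInf.mem_iff hOt hd' hS'
  have hem : ¬ S34CMP_In Ainf m d := by
    rintro ⟨h, hmem⟩
    have h1 : (1 : Ainf) = ⟨d, h⟩ - ⟨j⁻¹, hu⟩ * ⟨b, hb⟩ := Subtype.ext (by simp [hdb])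
    exact hmp.ne_top ((Ideal.eq_top_iff_one m).mpr
      (h1 ▸ m.sub_mem hmem (m.mul_mem_right _ hum)))
  have hSm : S34CMP_In Ainf m (d * θ⁻¹) := by
    refine ⟨hS, hmp.mem_of_pow_mem (q + 1) ?_⟩
    have : (⟨d * θ⁻¹, hS⟩ : Ainf) ^ (q + 1) = ⟨j⁻¹, hu⟩ * ⟨c, hc⟩ :=
      Subtype.ext (by simpa using hSc)
    rw [this]
    exact m.mul_mem_right _ hum
  have hclear := S34CIG_clear d b' d' hd hS hb' hdb' hd' hpole hpole' m hmp hem hSm
  -- the maximal ideal of `At` below `m`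
  have hmax : (S34CMP_ideal Ainf At d hd hpole m).IsMaximal :=
    S34CMP_isMaximal hd hpole m hem O hOinf hOt hm (hres m hm hπm) (hOunit m hm hπm)
  have hπmt : (⟨π, hπt⟩ : At) ∈ S34CMP_ideal Ainf At d hd hpole m :=
    (S34CMP_mem_iff hd hpole m hmp hem hπ hπt).mpr hπm
  have humt : (⟨θ⁻¹, hut⟩ : At) ∈ S34CMP_ideal Ainf At d hd hpole m :=
    ⟨1, hSm.of_eq (by rw [pow_one])⟩
  -- `mt` is not on the first component
  have hle1 : Ainf ≤ V1 := fun a ha => (S.chartInf.le_V ha).1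
  have hnot : ¬ ∀ b : At, (∃ v ∈ V1, (b : L) = π * v) → b ∈ S34CMP_ideal Ainf At d hd hpole m := by
    intro h
    obtain ⟨d1, hd1m, hd1v⟩ := hd1
    exact hd1m ((S34CMP_thru_iff hd hpole m hmp hem hclear π V1 hle1 hAtV1).mp h d1 hd1v)
  obtain ⟨dt, hdt⟩ := not_forall.mp hnot
  obtain ⟨hdtv, hdtm⟩ := Classical.not_imp.mp hdt
  -- pull back along `σ`
  have hmax' : (Ideal.comap (σ : Ainf →+* At) (S34CMP_ideal Ainf At d hd hpole m)).IsMaximal :=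
    Ideal.comap_isMaximal_of_surjective (σ : Ainf →+* At) σ.surjective
  have hIG' := hIG1 _ hmax' (by rw [Ideal.mem_comap]; simpa [hσπ] using hπmt)
    (by rw [Ideal.mem_comap]; simpa [hσu] using humt)
    ⟨σ.symm dt, by rw [Ideal.mem_comap]; simpa using hdtm,
      (hσ (σ.symm dt)).mpr (by simpa using hdtv)⟩
  exact S34CMP_IGAt hd hpole m hmp hem hclear π hπt
    (S34CIG_IGAt_equiv Ainf At σ π hπ hπt hσπ _ hIG')

end Transfer

end Fermat.Agent.S34_helper18_CUSPIG
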