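import Mathlib
import Fermat.Agent.S18_helper20_CSAT
import Fermat.Agent.S34_Contracts
import Fermat.Agent.S34_helper18_CUSP
import Fermat.Agent.S34_helper18_CMP

/-!
# S34, piece X-INF (helper18): the chart at infinity from the finite chart and the cusps

In the two-valuation setup `S34C_Setup2 O π j F1 V1 V2 A0 Ainf`:

* `S34INF_N1`      : `S34K_N1` on `Ainf` from `S34K_N1` on `A0` and `[IG]` at the cusps;
* `S34INF_crossAt` : the crossing datum at the crossing points of `Ainf` from the crossing datum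
  at the crossing points of `A0` (the crossing points of `Ainf` are not cusps);
* `S34INF_cusp_not_thru` : cusps are never crossing points (contract form of `S34CUSP_noCross`).
-/

set_option autoImplicit false

namespace Fermat.Agent.S34_helper18_INF

open Fermat.Agent.S18_helper9_CDefs Fermat.Agent.S34_helper12_CDefs
  Fermat.Agent.S18_helper3_LOCRING Fermat.Agent.S18_helper20_CSAT Fermat.Agent.S34_Contracts
  Fermat.Agent.S34_helper18_CUSP Fermat.Agent.S34_helper18_CMP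

variable {L : Type*} [Field L]
variable {O : Subring L} {π j : L} {F1 : Subfield L} {V1 V2 A0 Ainf : Subring L}

/-! ### elementary consequences of `S34C_Setup2` -/

theorem S34INF_O_le_Ainf (S : S34C_Setup2 O π j F1 V1 V2 A0 Ainf) : O ≤ Ainf := fun _ ha =>
  S34CUSP_adj_le_Ainf S (S34CUSP_O_le_adj O _ ha)

theorem S34INF_adj_le_A0 (S : S34C_Setup2 O π j F1 V1 V2 A0 Ainf) : adj O j ≤ A0 := fun y hy =>
  (S.chart0.mem_iff y).mpr ⟨isIntegral_algebraMap (x := (⟨y, hy⟩ : adj O j)),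
    S34CUSP_adj_le_F1 S.O_le S.j_mem hy⟩

theorem S34INF_O_le_A0 (S : S34C_Setup2 O π j F1 V1 V2 A0 Ainf) : O ≤ A0 := fun _ ha =>
  S34INF_adj_le_A0 S (S34CUSP_O_le_adj O _ ha)

theorem S34INF_j_mem (S : S34C_Setup2 O π j F1 V1 V2 A0 Ainf) : j ∈ A0 :=
  S34INF_adj_le_A0 S (S34CUSP_mem_adj O _)

/-- every element of the finite chart is moved into the chart at infinity by a power of `j⁻¹` -/
theorem S34INF_pole0 (S : S34C_Setup2 O π j F1 V1 V2 A0 Ainf) :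
    ∀ a ∈ A0, ∃ n : ℕ, j⁻¹ ^ n * a ∈ Ainf := by
  intro a ha
  obtain ⟨h1, h2⟩ := (S.chart0.mem_iff a).mp ha
  have h3 : IsIntegral (adjMid O j) a := CSAT_isIntegral_mono (CSAT_adj_le_adjMid O j) h1
  obtain ⟨n, hn⟩ := CSAT_exists_pow_mul_isIntegral (adj O j⁻¹) (adjMid O j) j⁻¹
    (CSAT_mem_adj O j⁻¹)
    (fun r hr => CSAT_pow_mul_mem_adj O j⁻¹ (inv_ne_zero (S34CUSP_j_ne_zero S))
      (by rw [CSAT_adjMid_inv]; exact hr)) h3
  exact ⟨n, (S.chartInf.mem_iff _).mpr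
    ⟨hn, F1.mul_mem (F1.pow_mem (F1.inv_mem S.j_mem) n) h2⟩⟩

/-- every element of the chart at infinity is moved into the finite chart by a power of `j` -/
theorem S34INF_poleInf (S : S34C_Setup2 O π j F1 V1 V2 A0 Ainf) :
    ∀ z ∈ Ainf, ∃ n : ℕ, j ^ n * z ∈ A0 := by
  intro z hz
  obtain ⟨h1, h2⟩ := (S.chartInf.mem_iff z).mp hz
  have h3 : IsIntegral (adjMid O j) z := CSAT_isIntegral_mono (CSAT_adj_inv_le_adjMid O j) h1
  obtain ⟨n, hn⟩ := CSAT_exists_pow_mul_isIntegral (adj O j) (adjMid O j) j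
    (CSAT_mem_adj O j)
    (fun r hr => CSAT_pow_mul_mem_adj O j (S34CUSP_j_ne_zero S) hr) h3
  exact ⟨n, (S.chart0.mem_iff _).mpr ⟨hn, F1.mul_mem (F1.pow_mem S.j_mem n) h2⟩⟩

/-- a constant outside a prime over `π` is a unit of `O` -/
theorem S34INF_inv_mem_O (S : S34C_Setup2 O π j F1 V1 V2 A0 Ainf) (X : Subring L)
    (hOX : O ≤ X) (m : Ideal X) (hπm : (⟨π, hOX S.π_mem⟩ : X) ∈ m) (c : L) (hc : c ∈ O)
    (hcm : (⟨c, hOX hc⟩ : X) ∉ m) : c⁻¹ ∈ O := by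
  have := S.dvr
  by_cases hu : IsUnit (⟨c, hc⟩ : O)
  · obtain ⟨u, hu⟩ := hu
    have h1 : (⟨c, hc⟩ : O) * (↑u⁻¹ : O) = 1 := by rw [← hu]; exact u.mul_inv
    have h2 : c * ((↑u⁻¹ : O) : L) = 1 := by
      have := congrArg Subtype.val h1
      simpa using this
    have h3 : c⁻¹ = ((↑u⁻¹ : O) : L) := by
      rw [← mul_one c⁻¹, ← h2, ← mul_assoc, inv_mul_cancel₀, one_mul]
      rintro rfl
      rw [zero_mul] at h2
      exact zero_ne_one h2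
    rw [h3]
    exact (↑u⁻¹ : O).2
  · exfalso
    have h1 : (⟨c, hc⟩ : O) ∈ IsLocalRing.maximalIdeal O := hu
    have h2 : IsLocalRing.maximalIdeal O = Ideal.span {(⟨π, S.π_mem⟩ : O)} :=
      (IsDiscreteValuationRing.irreducible_iff_uniformizer _).mp (S.π_irr S.π_mem)
    rw [h2, Ideal.mem_span_singleton] at h1
    obtain ⟨c', hc'⟩ := h1
    apply hcm
    have h3 : (⟨c, hOX hc⟩ : X) = ⟨π, hOX S.π_mem⟩ * ⟨(c' : L), hOX c'.2⟩ := by
      apply Subtype.ext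
      have := congrArg Subtype.val hc'
      simpa using this
    rw [h3]
    exact m.mul_mem_right _ hπm

/-! ### the non-cuspidal points of the chart at infinity -/

section NonCusp

variable (S : S34C_Setup2 O π j F1 V1 V2 A0 Ainf)

/-- the maximal ideal of the finite chart below a non-cuspidal maximal ideal of `Ainf` -/
def S34INF_m0 (m : Ideal Ainf) : Ideal A0 :=
  S34CMP_ideal Ainf A0 j⁻¹ (S34CUSP_jinv_mem S) (S34INF_pole0 S) m

include S in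
theorem S34INF_clear (m : Ideal Ainf) (hm : m.IsPrime) :
    ∀ a ∈ Ainf, ∃ t ∈ A0, t * a ∈ A0 ∧ ∃ k : ℕ, j⁻¹ ^ k * t ∈ Ainf ∧
      ¬ S34CMP_In Ainf m (j⁻¹ ^ k * t) := by
  intro a ha
  obtain ⟨n, hn⟩ := S34INF_poleInf S a ha
  have h1 : j⁻¹ ^ n * j ^ n = 1 := by
    rw [← mul_pow, inv_mul_cancel₀ (S34CUSP_j_ne_zero S), one_pow]
  refine ⟨j ^ n, A0.pow_mem (S34INF_j_mem S) n, hn, n, ?_, ?_⟩
  · rw [h1]; exact Ainf.one_mem
  · rw [h1]
    rintro ⟨h, hmem⟩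
    exact hm.ne_top ((Ideal.eq_top_iff_one m).mpr hmem)

theorem S34INF_hem (m : Ideal Ainf)
    (hjm : (⟨j⁻¹, S34CUSP_jinv_mem S⟩ : Ainf) ∉ m) : ¬ S34CMP_In Ainf m j⁻¹ :=
  fun h => hjm h.2

/-- **(R1)** `S34K_N1` on the chart at infinity from `S34K_N1` on the finite chart and `[IG]` at
the cusps. `hres`: the residue fields of `Ainf` at the maximal ideals over `π` are the image of
`O` (landed `S18IGINF_hres_gen` for the concrete carriers). -/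
theorem S34INF_N1
    (hres : ∀ (m : Ideal Ainf), m.IsMaximal → (⟨π, S34INF_O_le_Ainf S S.π_mem⟩ : Ainf) ∈ m →
      ∀ z : Ainf, ∃ c : L, ∃ hc : c ∈ O, z - ⟨c, S34INF_O_le_Ainf S hc⟩ ∈ m)
    (h0 : S34K_N1 π V1 V2 A0)
    (hcusp : ∀ (m : Ideal Ainf), m.IsMaximal → (⟨π, S34INF_O_le_Ainf S S.π_mem⟩ : Ainf) ∈ m →
      (⟨j⁻¹, S34CUSP_jinv_mem S⟩ : Ainf) ∈ m →
      ¬ (S34K_Thru π V1 Ainf m ∧ S34K_Thru π V2 Ainf m) → IGAt π Ainf m) :
    S34K_N1 π V1 V2 Ainf := by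
  intro hπ m hm hπm hnot
  by_cases hjm : (⟨j⁻¹, S34CUSP_jinv_mem S⟩ : Ainf) ∈ m
  · exact hcusp m hm hπm hjm hnot
  have hmp : m.IsPrime := hm.isPrime
  have hem := S34INF_hem S m hjm
  have hclear := S34INF_clear S m hmp
  have hmax : (S34INF_m0 S m).IsMaximal :=
    S34CMP_isMaximal (S34CUSP_jinv_mem S) (S34INF_pole0 S) m hem O (S34INF_O_le_Ainf S)
      (S34INF_O_le_A0 S) hm (hres m hm hπm)
      (fun c hc hcm => S34INF_inv_mem_O S Ainf (S34INF_O_le_Ainf S) m hπm c hc hcm)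
  have hπ0 : π ∈ A0 := S34INF_O_le_A0 S S.π_mem
  have hπm0 : (⟨π, hπ0⟩ : A0) ∈ S34INF_m0 S m :=
    (S34CMP_mem_iff (S34CUSP_jinv_mem S) (S34INF_pole0 S) m hmp hem hπ hπ0).mpr hπm
  have hle1 : Ainf ≤ V1 := fun a ha => (S.chartInf.le_V ha).1
  have hle2 : Ainf ≤ V2 := fun a ha => (S.chartInf.le_V ha).2
  have hle1' : A0 ≤ V1 := fun a ha => (S.chart0.le_V ha).1
  have hle2' : A0 ≤ V2 := fun a ha => (S.chart0.le_V ha).2
  have hnot0 : ¬ (S34K_Thru π V1 A0 (S34INF_m0 S m) ∧ S34K_Thru π V2 A0 (S34INF_m0 S m)) := by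
    rintro ⟨h1, h2⟩
    exact hnot ⟨(S34CMP_thru_iff (S34CUSP_jinv_mem S) (S34INF_pole0 S) m hmp hem hclear π V1
        hle1 hle1').mp h1,
      (S34CMP_thru_iff (S34CUSP_jinv_mem S) (S34INF_pole0 S) m hmp hem hclear π V2
        hle2 hle2').mp h2⟩
  exact S34CMP_IGAt (S34CUSP_jinv_mem S) (S34INF_pole0 S) m hmp hem hclear π hπ0
    (h0 hπ0 _ hmax hπm0 hnot0)

/-- **(R2)** The crossing datum at a NON-CUSPIDAL crossing point of the chart at infinity from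
the crossing data at the crossing points of the finite chart. -/
theorem S34INF_crossAt_of_noncusp
    (hres : ∀ (m : Ideal Ainf), m.IsMaximal → (⟨π, S34INF_O_le_Ainf S S.π_mem⟩ : Ainf) ∈ m →
      ∀ z : Ainf, ∃ c : L, ∃ hc : c ∈ O, z - ⟨c, S34INF_O_le_Ainf S hc⟩ ∈ m)
    (p : ℕ) (f : L)
    (h0 : ∀ (hπ : π ∈ A0) (m0 : Ideal A0) (hm0 : m0.IsMaximal), (⟨π, hπ⟩ : A0) ∈ m0 →
      S34K_Thru π V1 A0 m0 → S34K_Thru π V2 A0 m0 →
      haveI := hm0.isPrime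
      S34K_CrossAt π F1 V1 V2 A0 p f m0)
    (hπ : π ∈ Ainf) (m : Ideal Ainf) (hm : m.IsMaximal) (hπm : (⟨π, hπ⟩ : Ainf) ∈ m)
    (hjm : (⟨j⁻¹, S34CUSP_jinv_mem S⟩ : Ainf) ∉ m)
    (h1 : S34K_Thru π V1 Ainf m) (h2 : S34K_Thru π V2 Ainf m) :
    haveI := hm.isPrime
    S34K_CrossAt π F1 V1 V2 Ainf p f m := by
  have hmp : m.IsPrime := hm.isPrime
  have hem := S34INF_hem S m hjm
  have hclear := S34INF_clear S m hmp
  have hmax : (S34INF_m0 S m).IsMaximal :=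
    S34CMP_isMaximal (S34CUSP_jinv_mem S) (S34INF_pole0 S) m hem O (S34INF_O_le_Ainf S)
      (S34INF_O_le_A0 S) hm (hres m hm hπm)
      (fun c hc hcm => S34INF_inv_mem_O S Ainf (S34INF_O_le_Ainf S) m hπm c hc hcm)
  have hπ0 : π ∈ A0 := S34INF_O_le_A0 S S.π_mem
  have hπm0 : (⟨π, hπ0⟩ : A0) ∈ S34INF_m0 S m :=
    (S34CMP_mem_iff (S34CUSP_jinv_mem S) (S34INF_pole0 S) m hmp hem hπ hπ0).mpr hπm
  have hle1 : Ainf ≤ V1 := fun a ha => (S.chartInf.le_V ha).1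
  have hle2 : Ainf ≤ V2 := fun a ha => (S.chartInf.le_V ha).2
  have hle1' : A0 ≤ V1 := fun a ha => (S.chart0.le_V ha).1
  have hle2' : A0 ≤ V2 := fun a ha => (S.chart0.le_V ha).2
  have ht1 := (S34CMP_thru_iff (S34CUSP_jinv_mem S) (S34INF_pole0 S) m hmp hem hclear π V1
        hle1 hle1').mpr h1
  have ht2 := (S34CMP_thru_iff (S34CUSP_jinv_mem S) (S34INF_pole0 S) m hmp hem hclear π V2
        hle2 hle2').mpr h2
  obtain ⟨g, hg, c, hc, hgc, hloc1, hloc2⟩ := h0 hπ0 _ hmax hπm0 ht1 ht2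
  refine ⟨g, hg, c, hc, hgc, ?_, ?_⟩
  · exact (S34CMP_loc_iff (S34CUSP_jinv_mem S) (S34INF_pole0 S) m hmp hem hclear _).mp hloc1
  · exact (S34CMP_loc_iff (S34CUSP_jinv_mem S) (S34INF_pole0 S) m hmp hem hclear _).mp hloc2

end NonCusp

/-! ### the cusps are never crossing points (contract form) -/

section Cusp

variable {θ : L} {q : ℕ}

/-- **Cusps are never crossing points**, in the vocabulary of the owner's contracts. -/
theorem S34INF_cusp_not_thru (S : S34C_Setup2 O π j F1 V1 V2 A0 Ainf) (hq : 2 ≤ q)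
    (hθ : θ ∈ F1) (hrel : S34CUSP_Rel O j θ q)
    (hK1 : ∃ v ∈ V1, θ - j ^ q = π * v) (hK2 : ∃ v ∈ V2, j - θ ^ q = π * v)
    (hθ2 : θ ∈ V2) (hθ2' : θ⁻¹ ∈ V2)
    (hπ : π ∈ Ainf) (hu : j⁻¹ ∈ Ainf) (m : Ideal Ainf) (hm : m.IsMaximal)
    (hπm : (⟨π, hπ⟩ : Ainf) ∈ m) (hum : (⟨j⁻¹, hu⟩ : Ainf) ∈ m) :
    ¬ (S34K_Thru π V1 Ainf m ∧ S34K_Thru π V2 Ainf m) := by
  rintro ⟨h1, h2⟩
  rcases S34CUSP_noCross S hq hθ hrel hK1 hK2 hθ2 hθ2' hπ hu m hm hπm hum with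
    ⟨d, hdm, -, hd⟩ | ⟨d, hdm, -, hd⟩
  · exact hdm (h2 d hd)
  · exact hdm (h1 d hd)

/-- **(R2)** The crossing datum at EVERY crossing point of the chart at infinity from the
crossing data at the crossing points of the finite chart. -/
theorem S34INF_crossAt (S : S34C_Setup2 O π j F1 V1 V2 A0 Ainf) (hq : 2 ≤ q)
    (hθ : θ ∈ F1) (hrel : S34CUSP_Rel O j θ q)
    (hK1 : ∃ v ∈ V1, θ - j ^ q = π * v) (hK2 : ∃ v ∈ V2, j - θ ^ q = π * v)
    (hθ2 : θ ∈ V2) (hθ2' : θ⁻¹ ∈ V2)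
    (hres : ∀ (m : Ideal Ainf), m.IsMaximal → (⟨π, S34INF_O_le_Ainf S S.π_mem⟩ : Ainf) ∈ m →
      ∀ z : Ainf, ∃ c : L, ∃ hc : c ∈ O, z - ⟨c, S34INF_O_le_Ainf S hc⟩ ∈ m)
    (p : ℕ) (f : L)
    (h0 : ∀ (hπ : π ∈ A0) (m0 : Ideal A0) (hm0 : m0.IsMaximal), (⟨π, hπ⟩ : A0) ∈ m0 →
      S34K_Thru π V1 A0 m0 → S34K_Thru π V2 A0 m0 →
      haveI := hm0.isPrime
      S34K_CrossAt π F1 V1 V2 A0 p f m0)
    (hπ : π ∈ Ainf) (m : Ideal Ainf) (hm : m.IsMaximal) (hπm : (⟨π, hπ⟩ : Ainf) ∈ m)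
    (h1 : S34K_Thru π V1 Ainf m) (h2 : S34K_Thru π V2 Ainf m) :
    haveI := hm.isPrime
    S34K_CrossAt π F1 V1 V2 Ainf p f m := by
  have hjm : (⟨j⁻¹, S34CUSP_jinv_mem S⟩ : Ainf) ∉ m := fun hum =>
    S34INF_cusp_not_thru S hq hθ hrel hK1 hK2 hθ2 hθ2' hπ (S34CUSP_jinv_mem S) m hm hπm hum
      ⟨h1, h2⟩
  exact S34INF_crossAt_of_noncusp S hres p f h0 hπ m hm hπm hjm h1 h2

end Cusp

end Fermat.Agent.S34_helper18_INF
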