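import Fermat.Agent.S34_Contracts
import Fermat.Agent.S34_helper14_N1K
import Fermat.Agent.S34_helper18_CUSPIG
import Fermat.Agent.S34_helper18_INF

/-!
# S34, piece X-INF (R3), concrete plug (helper18): `hcusp` of `S34N1K_Ainf`

Level `N = q * N'`, `q ∤ N'`, carriers `S18K_*`, `V1 = S18K_V A K1 N` (Gauss),
`V2 = S34V0K_V A K1 q N' N hq hqN hN = w(V1)`, `θ = j(q^q) = qExpand K1 q (jqModC K1) = w(j)`.

* `S34CUSPK_At`      : the chart `At = icl O[θ⁻¹] F1 = w(Ainf)`;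
* `S34CUSPK_sigma`   : `w` restricted to the chart at infinity, `Ainf ≃+* At`;
* `S34CUSPK_trans`   : `θ` is transcendental over `O`;
* `S34CUSPK_At_le`   : `At ≤ V1`;
* `S34CUSPK_hcusp`   : **the hypothesis `hcusp` of helper14's `S34N1K_Ainf`, verbatim**, from
  `S34C_Setup2`, the KEY residue statement `hres` and the modular relation in both directions
  (`S34CUSP_Rel`, helper8's MODEQ).
-/

set_option autoImplicit false
set_option linter.style.haveILetI false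
set_option linter.unusedVariables false
set_option linter.unusedSectionVars false
set_option synthInstance.maxHeartbeats 400000
set_option maxHeartbeats 1600000

open ModularCurve Fermat.Agent.S24
open Fermat.Agent.S18_helper13_GAUSS Fermat.Agent.S18_helper9_CDefs
  Fermat.Agent.S18_helper9_CBasic
open Fermat.Agent.S18_helper25_COREDefs Fermat.Agent.S34_helper12_CDefs
open Fermat.Agent.S34_helper27_C2Defs Fermat.Agent.S34_helper20_WQ Fermat.Agent.S34_helper20_V0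
open Fermat.Agent.S34_helper27_V3K Fermat.Agent.S34_helper20_V0K
open Fermat.Agent.S18_helper3_LOCRING Fermat.Agent.S34_Contracts
open Fermat.Agent.S34_helper14_N1S Fermat.Agent.S34_helper14_N1T
open Fermat.Agent.S34_helper14_N1K
open Fermat.Agent.S34_helper18_CUSP Fermat.Agent.S34_helper18_CMP
  Fermat.Agent.S34_helper18_CUSPIG Fermat.Agent.S34_helper18_INF

noncomputable section

namespace Fermat.Agent.S34_helper18_CUSPK

variable (A : ValuationSubring (AlgebraicClosure ℚ))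
  (K1 : IntermediateField ℚ (AlgebraicClosure ℚ)) [IsDiscreteValuationRing (S18K_O1 A K1)]

variable (q N' N : ℕ) [NeZero N'] [NeZero N] (hq : q.Prime) (hqN : ¬ q ∣ N') (hN : N = q * N')

/-- the chart `At`: the integral closure of `O[θ⁻¹]` in `F1`, `θ = j(q^q)` -/
def S34CUSPK_At [NeZero q] : Subring (LaurentSeries K1) :=
  icl (adj (S18K_O A K1) (qExpand K1 q (jqModC K1))⁻¹) (S18K_F1 K1 N)

theorem S34CUSPK_mem_At [NeZero q] (y : LaurentSeries K1) :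
    y ∈ S34CUSPK_At A K1 q N ↔
      IsIntegral (adj (S18K_O A K1) (qExpand K1 q (jqModC K1))⁻¹) y ∧ y ∈ S18K_F1 K1 N :=
  Iff.rfl

/-- `w (j⁻¹) = θ⁻¹` -/
theorem S34CUSPK_wL_jinv [NeZero q] :
    S34V0_wL (S34V0K_emb K1) q N' N hq hqN hN (S18K_j K1)⁻¹ = (qExpand K1 q (jqModC K1))⁻¹ := by
  have hjF : S18K_j K1 ∈ modularFunctionFieldFullC K1 N := jqModC_mem_full K1 N
  rw [S34V0_wL_inv (S34V0K_emb K1) q N' N hq hqN hN hjF]
  exact congrArg _ (S34V0_wL_j (S34V0K_emb K1) q N' N hq hqN hN)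

/-- `w (θ⁻¹) = j⁻¹` -/
theorem S34CUSPK_wL_tinv [NeZero q] :
    S34V0_wL (S34V0K_emb K1) q N' N hq hqN hN (qExpand K1 q (jqModC K1))⁻¹ = (S18K_j K1)⁻¹ := by
  rw [S34V0_wL_inv (S34V0K_emb K1) q N' N hq hqN hN (S34V0K_jq_mem_F K1 q N' N hq hqN hN)]
  exact congrArg _ (S34V0_wL_jq (S34V0K_emb K1) q N' N hq hqN hN)

/-- `w` maps the chart at infinity into `At` -/
theorem S34CUSPK_wL_mem_At [NeZero q] {a : LaurentSeries K1} (ha : a ∈ S18K_Ainf A K1 N) :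
    S34V0_wL (S34V0K_emb K1) q N' N hq hqN hN a ∈ S34CUSPK_At A K1 q N := by
  obtain ⟨hint, haF⟩ := mem_icl.1 ha
  have hjF : S18K_j K1 ∈ modularFunctionFieldFullC K1 N := jqModC_mem_full K1 N
  have h1 := S34V0_isIntegral_wL (S34V0K_emb K1) q N' N hq hqN hN (S18K_O A K1)
    (S34N1K_hO A K1) (inv_mem hjF) haF hint
  rw [S34CUSPK_wL_jinv K1 q N' N hq hqN hN] at h1
  exact mem_icl.2 ⟨h1, S34V0_wL_mem (S34V0K_emb K1) q N' N hq hqN hN a⟩

/-- `w` maps `At` into the chart at infinity -/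
theorem S34CUSPK_wL_mem_Ainf [NeZero q] {b : LaurentSeries K1} (hb : b ∈ S34CUSPK_At A K1 q N) :
    S34V0_wL (S34V0K_emb K1) q N' N hq hqN hN b ∈ S18K_Ainf A K1 N := by
  obtain ⟨hint, hbF⟩ := mem_icl.1 hb
  have h1 := S34V0_isIntegral_wL (S34V0K_emb K1) q N' N hq hqN hN (S18K_O A K1)
    (S34N1K_hO A K1) (inv_mem (S34V0K_jq_mem_F K1 q N' N hq hqN hN)) hbF hint
  rw [S34CUSPK_wL_tinv K1 q N' N hq hqN hN] at h1
  exact mem_icl.2 ⟨h1, S34V0_wL_mem (S34V0K_emb K1) q N' N hq hqN hN b⟩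

theorem S34CUSPK_Ainf_le_F {a : LaurentSeries K1} (ha : a ∈ S18K_Ainf A K1 N) :
    a ∈ modularFunctionFieldFullC K1 N := (mem_icl.1 ha).2

theorem S34CUSPK_At_le_F [NeZero q] {a : LaurentSeries K1} (ha : a ∈ S34CUSPK_At A K1 q N) :
    a ∈ modularFunctionFieldFullC K1 N := (mem_icl.1 ha).2

/-- **The Atkin–Lehner involution as an isomorphism of the chart at infinity onto `At`.** -/
def S34CUSPK_sigma [NeZero q] : S18K_Ainf A K1 N ≃+* S34CUSPK_At A K1 q N where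
  toFun a := ⟨S34V0_wL (S34V0K_emb K1) q N' N hq hqN hN (a : LaurentSeries K1),
    S34CUSPK_wL_mem_At A K1 q N' N hq hqN hN a.2⟩
  invFun b := ⟨S34V0_wL (S34V0K_emb K1) q N' N hq hqN hN (b : LaurentSeries K1),
    S34CUSPK_wL_mem_Ainf A K1 q N' N hq hqN hN b.2⟩
  left_inv a := Subtype.ext
    (S34V0_wL_wL (S34V0K_emb K1) q N' N hq hqN hN (S34CUSPK_Ainf_le_F A K1 N a.2))
  right_inv b := Subtype.ext
    (S34V0_wL_wL (S34V0K_emb K1) q N' N hq hqN hN (S34CUSPK_At_le_F A K1 q N b.2))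
  map_mul' a b := Subtype.ext
    (S34V0_wL_mul (S34V0K_emb K1) q N' N hq hqN hN (S34CUSPK_Ainf_le_F A K1 N a.2)
      (S34CUSPK_Ainf_le_F A K1 N b.2))
  map_add' a b := Subtype.ext
    (S34V0_wL_add (S34V0K_emb K1) q N' N hq hqN hN (S34CUSPK_Ainf_le_F A K1 N a.2)
      (S34CUSPK_Ainf_le_F A K1 N b.2))

theorem S34CUSPK_sigma_coe [NeZero q] (a : S18K_Ainf A K1 N) :
    ((S34CUSPK_sigma A K1 q N' N hq hqN hN a : S34CUSPK_At A K1 q N) : LaurentSeries K1) =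
      S34V0_wL (S34V0K_emb K1) q N' N hq hqN hN (a : LaurentSeries K1) := rfl

theorem S34CUSPK_sigma_symm_coe [NeZero q] (b : S34CUSPK_At A K1 q N) :
    (((S34CUSPK_sigma A K1 q N' N hq hqN hN).symm b : S18K_Ainf A K1 N) : LaurentSeries K1) =
      S34V0_wL (S34V0K_emb K1) q N' N hq hqN hN (b : LaurentSeries K1) := rfl

/-- `σ` exchanges the two vertical primes -/
theorem S34CUSPK_sigma_vert [NeZero q] (a : S18K_Ainf A K1 N) :
    (∃ v ∈ S34V0K_V A K1 q N' N hq hqN hN, (a : LaurentSeries K1) = S18K_π A K1 * v) ↔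
      ∃ v ∈ S18K_V A K1 N,
        ((S34CUSPK_sigma A K1 q N' N hq hqN hN a : S34CUSPK_At A K1 q N) :
          LaurentSeries K1) = S18K_π A K1 * v := by
  rw [S34CUSPK_sigma_coe]
  have hπF := S34N1K_pi_mem_F A K1 N
  constructor
  · rintro ⟨v, hv, hav⟩
    obtain ⟨hvF, hwv⟩ := (S34V0K_mem_V A K1 q N' N hq hqN hN).1 hv
    refine ⟨_, hwv, ?_⟩
    rw [hav, S34V0_wL_mul (S34V0K_emb K1) q N' N hq hqN hN hπF hvF,
      S34N1K_wL_pi A K1 q N' N hq hqN hN]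
  · rintro ⟨v, hv, hav⟩
    have hvF : v ∈ modularFunctionFieldFullC K1 N := hv.2
    refine ⟨S34V0_wL (S34V0K_emb K1) q N' N hq hqN hN v,
      S34V0_wL_mem_image (S34V0K_emb K1) q N' N hq hqN hN hvF hv, ?_⟩
    have h1 := congrArg (S34V0_wL (S34V0K_emb K1) q N' N hq hqN hN) hav
    rw [S34V0_wL_wL (S34V0K_emb K1) q N' N hq hqN hN (S34CUSPK_Ainf_le_F A K1 N a.2),
      S34V0_wL_mul (S34V0K_emb K1) q N' N hq hqN hN hπF hvF,
      S34N1K_wL_pi A K1 q N' N hq hqN hN] at h1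
    exact h1

/-- `σ` exchanges the two vertical primes, other direction -/
theorem S34CUSPK_sigma_vert' [NeZero q] (a : S18K_Ainf A K1 N) :
    (∃ v ∈ S18K_V A K1 N, (a : LaurentSeries K1) = S18K_π A K1 * v) ↔
      ∃ v ∈ S34V0K_V A K1 q N' N hq hqN hN,
        ((S34CUSPK_sigma A K1 q N' N hq hqN hN a : S34CUSPK_At A K1 q N) :
          LaurentSeries K1) = S18K_π A K1 * v := by
  rw [S34CUSPK_sigma_coe]
  have hπF := S34N1K_pi_mem_F A K1 N
  constructor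
  · rintro ⟨v, hv, hav⟩
    have hvF : v ∈ modularFunctionFieldFullC K1 N := hv.2
    refine ⟨S34V0_wL (S34V0K_emb K1) q N' N hq hqN hN v,
      S34V0_wL_mem_image (S34V0K_emb K1) q N' N hq hqN hN hvF hv, ?_⟩
    rw [hav, S34V0_wL_mul (S34V0K_emb K1) q N' N hq hqN hN hπF hvF,
      S34N1K_wL_pi A K1 q N' N hq hqN hN]
  · rintro ⟨v, hv, hav⟩
    obtain ⟨hvF, hwv⟩ := (S34V0K_mem_V A K1 q N' N hq hqN hN).1 hv
    refine ⟨_, hwv, ?_⟩
    have h1 := congrArg (S34V0_wL (S34V0K_emb K1) q N' N hq hqN hN) hav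
    rw [S34V0_wL_wL (S34V0K_emb K1) q N' N hq hqN hN (S34CUSPK_Ainf_le_F A K1 N a.2),
      S34V0_wL_mul (S34V0K_emb K1) q N' N hq hqN hN hπF hvF,
      S34N1K_wL_pi A K1 q N' N hq hqN hN] at h1
    exact h1

/-- `θ = j(q^q)` is transcendental over the constants -/
theorem S34CUSPK_trans [NeZero q] (hj : Transcendental (S18K_O A K1) (S18K_j K1)) :
    Transcendental (S18K_O A K1) (qExpand K1 q (jqModC K1)) := by
  rintro ⟨P, hP0, hP⟩
  refine hj ⟨P, hP0, ?_⟩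
  have hcomp : (qExpand K1 q).comp (algebraMap (S18K_O A K1) (LaurentSeries K1)) =
      algebraMap (S18K_O A K1) (LaurentSeries K1) := by
    ext1 a
    obtain ⟨c, hc⟩ := S34N1K_hO A K1 (a : LaurentSeries K1) a.2
    show qExpand K1 q (a : LaurentSeries K1) = (a : LaurentSeries K1)
    rw [← hc, qExpand_C]
  have h1 : qExpand K1 q (Polynomial.aeval (S18K_j K1) P) = 0 := by
    rw [Polynomial.aeval_def, Polynomial.hom_eval₂, hcomp]
    rw [Polynomial.aeval_def] at hP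
    exact hP
  exact qExpand_injective q (by rw [h1, map_zero])

/-- `θ⁻¹ ∈ V1` (from `j⁻¹ ∈ V2 = w(V1)`) -/
theorem S34CUSPK_tinv_mem_V1 [NeZero q]
    (hj2 : (S18K_j K1)⁻¹ ∈ S34V0K_V A K1 q N' N hq hqN hN) :
    (qExpand K1 q (jqModC K1))⁻¹ ∈ S18K_V A K1 N := by
  have h := ((S34V0K_mem_V A K1 q N' N hq hqN hN).1 hj2).2
  rw [S34CUSPK_wL_jinv K1 q N' N hq hqN hN] at h
  exact h

/-- `At ≤ V1`: the Gauss ring is integrally closed in `F1` and contains `O[θ⁻¹]` -/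
theorem S34CUSPK_At_le [NeZero q]
    (hOV : ∀ a ∈ S18K_O A K1, a ∈ S18K_V A K1 N)
    (hj1 : (S18K_j K1)⁻¹ ∈ S18K_V A K1 N)
    (hj2 : (S18K_j K1)⁻¹ ∈ S34V0K_V A K1 q N' N hq hqN hN) :
    S34CUSPK_At A K1 q N ≤ S18K_V A K1 N := by
  intro y hy
  have h := S34V0_icl_le (S34V0K_emb K1) q N' N hq hqN hN (S18K_O A K1) (S34N1K_hO A K1)
    (S34V3K_val1 A K1 N) hOV (inv_mem (S34V0K_jq_mem_F K1 q N' N hq hqN hN))
    (S34CUSPK_tinv_mem_V1 A K1 q N' N hq hqN hN hj2)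
    (by rw [S34CUSPK_wL_tinv K1 q N' N hq hqN hN]; exact hj1)
  exact (h hy).1

/-- **`hcusp` of `S34N1K_Ainf`, verbatim**: `IGAt` at the cusps of the chart at infinity which
do not lie on the component of `V1`.  Inputs: `S34C_Setup2`, the KEY residue statement and the
modular relation between `j` and `θ = j(q^q)` in both directions. -/
theorem S34CUSPK_hcusp [NeZero q] (hA : A.LiesOverPrime q) (h : S18K_Admissible A K1 q)
    (S : S34C_Setup2 (S18K_O A K1) (S18K_π A K1) (S18K_j K1) (S18K_F1 K1 N) (S18K_V A K1 N)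
      (S34V0K_V A K1 q N' N hq hqN hN) (S18K_A0 A K1 N) (S18K_Ainf A K1 N))
    (hres : ∀ x ∈ S18K_V A K1 N, ∃ r ∈ S18K_V A K1 N', ∃ v ∈ S18K_V A K1 N,
      x = r + S18K_π A K1 * v)
    (hrel : S34CUSP_Rel (S18K_O A K1) (S18K_j K1) (qExpand K1 q (jqModC K1)) q)
    (hrel' : S34CUSP_Rel (S18K_O A K1) (qExpand K1 q (jqModC K1)) (S18K_j K1) q) :
    ∀ (hπ : S18K_π A K1 ∈ S18K_Ainf A K1 N) (m : Ideal (S18K_Ainf A K1 N)),
      m.IsMaximal → (⟨S18K_π A K1, hπ⟩ : S18K_Ainf A K1 N) ∈ m →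
      (⟨(S18K_j K1)⁻¹, S34N1T_jinv_mem S⟩ : S18K_Ainf A K1 N) ∈ m →
      ¬ S34K_Thru (S18K_π A K1) (S18K_V A K1 N) (S18K_Ainf A K1 N) m →
      IGAt (S18K_π A K1) (S18K_Ainf A K1 N) m := by
  intro hπ m hm hπm hum h1
  have hdvd : N' ∣ N := S34V0K_dvd hN
  haveI : IsDiscreteValuationRing (S18K_O A K1) := S.dvr
  haveI : IsAlgClosed (IsLocalRing.ResidueField (S18K_O A K1)) := S34N1K_isAlgClosed A K1 q h
  have hOinf : S18K_O A K1 ≤ S18K_Ainf A K1 N := S34N1T_O_le_Ainf S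
  have hjinv : (S18K_j K1)⁻¹ ∈ S18K_Ainf A K1 N := S34N1T_jinv_mem S
  have hθF : qExpand K1 q (jqModC K1) ∈ S18K_F1 K1 N := S34V0K_jq_mem_F K1 q N' N hq hqN hN
  have hOV : ∀ a ∈ S18K_O A K1, a ∈ S18K_V A K1 N := fun a ha =>
    (S.chartInf.le_V (hOinf ha)).1
  have hj1 : (S18K_j K1)⁻¹ ∈ S18K_V A K1 N := (S.chart0.x_inv_mem).1
  have hj2 : (S18K_j K1)⁻¹ ∈ S34V0K_V A K1 q N' N hq hqN hN := (S.chart0.x_inv_mem).2
  have hOt : S18K_O A K1 ≤ S34CUSPK_At A K1 q N := fun a ha =>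
    mem_icl.2 ⟨isIntegral_of_mem _ (le_adj _ _ ha), S.O_le ha⟩
  have hπt : S18K_π A K1 ∈ S34CUSPK_At A K1 q N := hOt S.π_mem
  have hut : (qExpand K1 q (jqModC K1))⁻¹ ∈ S34CUSPK_At A K1 q N :=
    mem_icl.2 ⟨isIntegral_of_mem _ (mem_adj_self _ _), (S18K_F1 K1 N).inv_mem hθF⟩
  have hresA : ∀ (m : Ideal (S18K_Ainf A K1 N)), m.IsMaximal →
      (⟨S18K_π A K1, hπ⟩ : S18K_Ainf A K1 N) ∈ m →
      ∀ z : S18K_Ainf A K1 N, ∃ c : LaurentSeries K1, ∃ hc : c ∈ S18K_O A K1,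
        z - ⟨c, hOinf hc⟩ ∈ m := fun m hm hπm z =>
    Fermat.Agent.S18_helper18_IGINF.S18IGINF_hres_gen (S18K_j K1)⁻¹ (S18K_Ainf A K1 N)
      S.π_mem (S34N1T_pi_gen S) hOinf hjinv
      (fun y hy => ((S.chartInf.mem_iff y).mp hy).1) m hm hπm z
  have hOunit : ∀ (m : Ideal (S18K_Ainf A K1 N)), m.IsMaximal →
      (⟨S18K_π A K1, hπ⟩ : S18K_Ainf A K1 N) ∈ m →
      ∀ (c : LaurentSeries K1) (hc : c ∈ S18K_O A K1),
        (⟨c, hOinf hc⟩ : S18K_Ainf A K1 N) ∉ m → c⁻¹ ∈ S18K_O A K1 := fun m hm hπm c hc hcm =>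
    S34INF_inv_mem_O S (S18K_Ainf A K1 N) hOinf m hπm c hc hcm
  obtain ⟨d, hd⟩ := not_forall.1 h1
  obtain ⟨hd1, hdm⟩ := Classical.not_imp.1 hd
  refine S34CIG_main (At := S34CUSPK_At A K1 q N) S hθF
    (S34CUSPK_trans A K1 q S.j_trans) hrel hrel'
    (S34CUSPK_mem_At A K1 q N)
    (S34CUSPK_At_le A K1 q N' N hq hqN hN hOV hj1 hj2)
    hπ hjinv hπt hut hOinf hOt hresA hOunit
    (S34CUSPK_sigma A K1 q N' N hq hqN hN)
    (Subtype.ext (S34N1K_wL_pi A K1 q N' N hq hqN hN))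
    (Subtype.ext (S34CUSPK_wL_jinv K1 q N' N hq hqN hN))
    (S34CUSPK_sigma_vert A K1 q N' N hq hqN hN)
    ?_ m hm hπm hum ⟨d, hdm, hd1⟩
  rintro m' hm' hπm' - ⟨d', hdm', hd2⟩
  exact S34N1K_thru1_Ainf A K1 hq hA N' N hqN hdvd h _ S hres hπ m' hm' hπm'
    (fun hthru => hdm' (hthru d' hd2))

/-! ### The modular relation gives integrality (`hjq` of `S34N1K_A0` / `S34N1K_Ainf`) -/

/-- the value of a polynomial over `O` at `x` lies in `O[x]` -/
theorem S34CUSPK_aeval_mem_adj {L : Type*} [Field L] (O : Subring L) (x : L)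
    (a : Polynomial O) : Polynomial.aeval x a ∈ adj O x := by
  rw [Polynomial.aeval_eq_sum_range]
  refine Subring.sum_mem _ fun i _ => ?_
  rw [Algebra.smul_def]
  exact (adj O x).mul_mem (le_adj O x (a.coeff i).2) ((adj O x).pow_mem (mem_adj_self O x) i)

/-- the modular relation makes `θ` integral over `O[j]` -/
theorem S34CUSPK_isIntegral_of_rel {L : Type*} [Field L] {O : Subring L} {j θ : L} {q : ℕ}
    (hrel : S34CUSP_Rel O j θ q) : IsIntegral (adj O j) θ := by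
  obtain ⟨M, hM, hdeg, hev, hmid, a0, -, -, h0⟩ := hrel
  refine S34CUSP_isIntegral_of_coeff_mem (adj O j) M hM ?_ θ hev
  intro i
  rcases Nat.eq_zero_or_pos i with rfl | hi
  · rw [h0]; exact S34CUSPK_aeval_mem_adj O j a0
  · rcases Nat.lt_or_ge q i with hlt | hle
    · rcases Nat.eq_or_lt_of_le (Nat.succ_le_of_lt hlt) with heq | hgt
      · have : M.coeff i = 1 := by
          rw [← heq, ← Nat.add_one, ← hdeg]; exact hM.coeff_natDegree
        rw [this]; exact (adj O j).one_mem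
      · have : M.coeff i = 0 :=
          Polynomial.coeff_eq_zero_of_natDegree_lt (by rw [hdeg]; exact hgt)
        rw [this]; exact (adj O j).zero_mem
    · obtain ⟨a, -, ha⟩ := hmid i hi hle
      rw [ha]; exact S34CUSPK_aeval_mem_adj O j a

/-- **The contract `S34K_N1` for the chart at infinity** from `S34C_Setup2`, the KEY residue
statement and the modular relation in both directions (helper14's `S34N1K_Ainf` with `hcusp`
and `hjq` discharged). -/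
theorem S34CUSPK_N1_Ainf [NeZero q] (hA : A.LiesOverPrime q) (h : S18K_Admissible A K1 q)
    (S : S34C_Setup2 (S18K_O A K1) (S18K_π A K1) (S18K_j K1) (S18K_F1 K1 N) (S18K_V A K1 N)
      (S34V0K_V A K1 q N' N hq hqN hN) (S18K_A0 A K1 N) (S18K_Ainf A K1 N))
    (hres : ∀ x ∈ S18K_V A K1 N, ∃ r ∈ S18K_V A K1 N', ∃ v ∈ S18K_V A K1 N,
      x = r + S18K_π A K1 * v)
    (hrel : S34CUSP_Rel (S18K_O A K1) (S18K_j K1) (qExpand K1 q (jqModC K1)) q)
    (hrel' : S34CUSP_Rel (S18K_O A K1) (qExpand K1 q (jqModC K1)) (S18K_j K1) q) :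
    S34K_N1 (S18K_π A K1) (S18K_V A K1 N) (S34V0K_V A K1 q N' N hq hqN hN)
      (S18K_Ainf A K1 N) :=
  S34N1K_Ainf A K1 q N' N hq hqN hN hA h S hres (S34CUSPK_isIntegral_of_rel hrel)
    (S34CUSPK_hcusp A K1 q N' N hq hqN hN hA h S hres hrel hrel')

/-- **The contract `S34K_N1` for the finite chart** from the same inputs (helper14's
`S34N1K_A0` with `hjq` discharged by the modular relation). -/
theorem S34CUSPK_N1_A0 [NeZero q] (hA : A.LiesOverPrime q) (h : S18K_Admissible A K1 q)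
    (S : S34C_Setup2 (S18K_O A K1) (S18K_π A K1) (S18K_j K1) (S18K_F1 K1 N) (S18K_V A K1 N)
      (S34V0K_V A K1 q N' N hq hqN hN) (S18K_A0 A K1 N) (S18K_Ainf A K1 N))
    (hres : ∀ x ∈ S18K_V A K1 N, ∃ r ∈ S18K_V A K1 N', ∃ v ∈ S18K_V A K1 N,
      x = r + S18K_π A K1 * v)
    (hrel : S34CUSP_Rel (S18K_O A K1) (S18K_j K1) (qExpand K1 q (jqModC K1)) q) :
    S34K_N1 (S18K_π A K1) (S18K_V A K1 N) (S34V0K_V A K1 q N' N hq hqN hN)
      (S18K_A0 A K1 N) :=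
  S34N1K_A0 A K1 q N' N hq hqN hN hA h S hres (S34CUSPK_isIntegral_of_rel hrel)

/-! ### Cusps are not crossing points; X-CROSS on the chart at infinity from the finite chart -/

/-- `θ⁻¹ ∈ V2` (from `j⁻¹ ∈ V1`) -/
theorem S34CUSPK_tinv_mem_V2 [NeZero q] (hj1 : (S18K_j K1)⁻¹ ∈ S18K_V A K1 N) :
    (qExpand K1 q (jqModC K1))⁻¹ ∈ S34V0K_V A K1 q N' N hq hqN hN := by
  refine (S34V0K_mem_V A K1 q N' N hq hqN hN).2
    ⟨inv_mem (S34V0K_jq_mem_F K1 q N' N hq hqN hN), ?_⟩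
  rw [S34CUSPK_wL_tinv K1 q N' N hq hqN hN]
  exact hj1

/-- **Cusps of the chart at infinity are never crossing points** (concrete carriers). -/
theorem S34CUSPK_cusp_not_thru [NeZero q] (hA : A.LiesOverPrime q)
    (S : S34C_Setup2 (S18K_O A K1) (S18K_π A K1) (S18K_j K1) (S18K_F1 K1 N) (S18K_V A K1 N)
      (S34V0K_V A K1 q N' N hq hqN hN) (S18K_A0 A K1 N) (S18K_Ainf A K1 N))
    (hrel : S34CUSP_Rel (S18K_O A K1) (S18K_j K1) (qExpand K1 q (jqModC K1)) q)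
    (hπ : S18K_π A K1 ∈ S18K_Ainf A K1 N) (hu : (S18K_j K1)⁻¹ ∈ S18K_Ainf A K1 N)
    (m : Ideal (S18K_Ainf A K1 N)) (hm : m.IsMaximal)
    (hπm : (⟨S18K_π A K1, hπ⟩ : S18K_Ainf A K1 N) ∈ m)
    (hum : (⟨(S18K_j K1)⁻¹, hu⟩ : S18K_Ainf A K1 N) ∈ m) :
    ¬ (S34K_Thru (S18K_π A K1) (S18K_V A K1 N) (S18K_Ainf A K1 N) m ∧
      S34K_Thru (S18K_π A K1) (S34V0K_V A K1 q N' N hq hqN hN) (S18K_Ainf A K1 N) m) :=
  S34INF_cusp_not_thru S hq.two_le (S34V0K_jq_mem_F K1 q N' N hq hqN hN) hrel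
    (S34V0K_frob1 A K1 q N' N hq hqN hN hA) (S34V0K_frob A K1 q N' N hq hqN hN hA)
    (S34V0K_jq_mem A K1 q N' N hq hqN hN)
    (S34CUSPK_tinv_mem_V2 A K1 q N' N hq hqN hN (S.chart0.x_inv_mem).1) hπ hu m hm hπm hum

/-- **X-CROSS on the chart at infinity from X-CROSS on the finite chart** (concrete carriers):
the cusps are not crossing points, and the crossing datum at a non-cuspidal crossing point is
transferred from the finite chart. -/
theorem S34CUSPK_cross_inf [NeZero q] (p : ℕ) (hA : A.LiesOverPrime q)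
    (h : S18K_Admissible A K1 q)
    (S : S34C_Setup2 (S18K_O A K1) (S18K_π A K1) (S18K_j K1) (S18K_F1 K1 N) (S18K_V A K1 N)
      (S34V0K_V A K1 q N' N hq hqN hN) (S18K_A0 A K1 N) (S18K_Ainf A K1 N))
    (hrel : S34CUSP_Rel (S18K_O A K1) (S18K_j K1) (qExpand K1 q (jqModC K1)) q)
    (h0 : S34K_Cross N p A K1 (S34V0K_V A K1 q N' N hq hqN hN) (S18K_A0 A K1 N)) :
    S34K_Cross N p A K1 (S34V0K_V A K1 q N' N hq hqN hN) (S18K_Ainf A K1 N) := by
  intro τ' τ hτ' hτ D hD f hfF hf0 hfV hfV' hord hπ m hm hπm ht1 ht2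
  haveI : IsDiscreteValuationRing (S18K_O A K1) := S.dvr
  haveI : IsAlgClosed (IsLocalRing.ResidueField (S18K_O A K1)) := S34N1K_isAlgClosed A K1 q h
  have hOinf : S18K_O A K1 ≤ S18K_Ainf A K1 N := S34N1T_O_le_Ainf S
  have hjinv : (S18K_j K1)⁻¹ ∈ S18K_Ainf A K1 N := S34N1T_jinv_mem S
  refine S34INF_crossAt S hq.two_le (S34V0K_jq_mem_F K1 q N' N hq hqN hN) hrel
    (S34V0K_frob1 A K1 q N' N hq hqN hN hA) (S34V0K_frob A K1 q N' N hq hqN hN hA)
    (S34V0K_jq_mem A K1 q N' N hq hqN hN)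
    (S34CUSPK_tinv_mem_V2 A K1 q N' N hq hqN hN (S.chart0.x_inv_mem).1)
    (fun m hm hπm z =>
      Fermat.Agent.S18_helper18_IGINF.S18IGINF_hres_gen (S18K_j K1)⁻¹ (S18K_Ainf A K1 N)
        S.π_mem (S34N1T_pi_gen S) hOinf hjinv
        (fun y hy => ((S.chartInf.mem_iff y).mp hy).1) m hm hπm z)
    p f
    (fun hπ0 m0 hm0 hπm0 t1 t2 =>
      h0 τ' τ hτ' hτ D hD f hfF hf0 hfV hfV' hord hπ0 m0 hm0 hπm0 t1 t2)
    hπ m hm hπm ht1 ht2

end Fermat.Agent.S34_helper18_CUSPK
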