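import Fermat.Agent.S34_helper18_RELNa
import Fermat.Agent.S34_helper18_CUSP
import Fermat.Agent.S34_helper15_DEG
import Fermat.Agent.S34_helper20_V0K
import Fermat.Agent.S18_helper20_CSAT

/-!
# S34, X-RELN (helper18): the modular relation with degree bounds from integrality

`θ = j(q^q)` integral over `O[j]` (`hjq`, the output of ANY of the modular-equation pieces)
implies the full relation `S34CUSP_Rel O j θ q` consumed by the cusp analysis, in both orders.

* `S34RELN_frac`     : every element of `K1(j)` is a fraction of elements of `O[j]`;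
* `S34RELN_deg_le`   : the minimal polynomial of `θ` over `O[j]` has degree `≤ q + 1`;
* `S34RELN_relSum`   : `S34CUSP_RelSum O j θ q ∧ S34CUSP_RelSum O θ j q`;
* `S34RELN_rel`      : `S34CUSP_Rel O j θ q ∧ S34CUSP_Rel O θ j q`.
-/

set_option autoImplicit false
set_option linter.style.haveILetI false
set_option linter.unusedVariables false
set_option linter.unusedSectionVars false
set_option synthInstance.maxHeartbeats 400000
set_option maxHeartbeats 1600000

open ModularCurve Fermat.Agent.S24
open Fermat.Agent.S18_helper9_CDefs Fermat.Agent.S18_helper9_CBasic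
open Fermat.Agent.S18_helper25_COREDefs Fermat.Agent.S34_helper12_CDefs
open Fermat.Agent.S34_helper20_WQ Fermat.Agent.S34_helper20_V0
open Fermat.Agent.S34_helper20_V0K Fermat.Agent.S18_helper20_CSAT
open Fermat.Agent.S34_helper18_CUSP Fermat.Agent.S34_helper18_RELNa
open Fermat.Agent.S34_helper15_DEG

noncomputable section

namespace Fermat.Agent.S34_helper18_RELN

variable (A : ValuationSubring (AlgebraicClosure ℚ))
  (K1 : IntermediateField ℚ (AlgebraicClosure ℚ)) [IsDiscreteValuationRing (S18K_O1 A K1)]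

/-- the constants are constants -/
theorem S34RELN_hO : ∀ a ∈ S18K_O A K1, ∃ c : K1, HahnSeries.C c = a := by
  intro a ha
  obtain ⟨c, -, hc⟩ := (S18K_mem_O A K1 a).1 ha
  exact ⟨c, hc⟩

/-- every constant of `K1` lies in the subfield generated by `O` -/
theorem S34RELN_C_mem (c : K1) :
    (HahnSeries.C c : LaurentSeries K1) ∈
      Subfield.closure ((S18K_O A K1 : Set (LaurentSeries K1)) ∪ {S18K_j K1}) := by
  rcases (S18K_O1 A K1).mem_or_inv_mem c with h | h
  · exact Subfield.subset_closure (Or.inl ((S18K_mem_O A K1 _).2 ⟨c, h, rfl⟩))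
  · have h1 : (HahnSeries.C c⁻¹ : LaurentSeries K1) ∈
        Subfield.closure ((S18K_O A K1 : Set (LaurentSeries K1)) ∪ {S18K_j K1}) :=
      Subfield.subset_closure (Or.inl ((S18K_mem_O A K1 _).2 ⟨c⁻¹, h, rfl⟩))
    have h2 := inv_mem h1
    rwa [← map_inv₀, inv_inv] at h2

/-- `K1(j)` lies in the subfield generated by `O` and `j` -/
theorem S34RELN_F1_le {e : LaurentSeries K1} (he : e ∈ modularFunctionFieldFullC K1 1) :
    e ∈ Subfield.closure ((S18K_O A K1 : Set (LaurentSeries K1)) ∪ {S18K_j K1}) := by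
  let T : IntermediateField K1 (LaurentSeries K1) :=
    (Subfield.closure ((S18K_O A K1 : Set (LaurentSeries K1)) ∪ {S18K_j K1})).toIntermediateField
      (fun c => by
        rw [algebraMap_laurentSeries_eq_single]
        exact S34RELN_C_mem A K1 c)
  have hle : modularFunctionFieldFullC K1 1 ≤ T := by
    unfold modularFunctionFieldFullC
    rw [IntermediateField.adjoin_le_iff]
    rintro x ⟨d, hd0, hd, rfl⟩
    have hd1 : d = 1 := Nat.dvd_one.mp hd
    subst hd1
    rw [qExpand_one_apply]
    exact Subfield.subset_closure (Or.inr rfl)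
  exact hle he

/-- **every element of `K1(j)` is a fraction of elements of `O[j]`** -/
theorem S34RELN_frac {e : LaurentSeries K1} (he : e ∈ modularFunctionFieldFullC K1 1) :
    ∃ z ∈ adj (S18K_O A K1) (S18K_j K1), z ≠ 0 ∧ z * e ∈ adj (S18K_O A K1) (S18K_j K1) := by
  obtain ⟨y, hy, z, hz, hyz⟩ := Subfield.mem_closure_iff.mp (S34RELN_F1_le A K1 he)
  by_cases hz0 : z = 0
  · refine ⟨1, one_mem _, one_ne_zero, ?_⟩
    rw [← hyz, hz0, div_zero, mul_zero]
    exact zero_mem _
  · refine ⟨z, hz, hz0, ?_⟩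
    rw [← hyz, mul_div_cancel₀ _ hz0]
    exact hy

/-- `θ` is a root of a nonzero polynomial of degree `≤ q + 1` with coefficients in `K1(j)`,
written in `L`: the coefficient function `e`, with `e n = 1`. -/
theorem S34RELN_relE (q : ℕ) [NeZero q] (hq : q.Prime) :
    ∃ (n : ℕ) (e : ℕ → LaurentSeries K1), n ≤ q + 1 ∧ e n = 1 ∧
      (∀ i, e i ∈ modularFunctionFieldFullC K1 1) ∧
      ∑ i ∈ Finset.range (n + 1), e i * (qExpand K1 q (jqModC K1)) ^ i = 0 := by
  haveI : NeZero (1 * q) := ⟨by rw [one_mul]; exact NeZero.ne q⟩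
  have hqN : ¬ q ∣ 1 := Nat.Prime.not_dvd_one hq
  letI := S34DEG_algebra K1 1 q
  haveI := S34DEG_finiteDimensional K1 1 q
  have hfr := S34DEG_finrank K1 1 q (S34V0K_emb K1) hq hqN
  have hθF : qExpand K1 q (jqModC K1) ∈ modularFunctionFieldFullC K1 (1 * q) :=
    S34V0K_jq_mem_F K1 q 1 (1 * q) hq hqN (Nat.mul_comm 1 q)
  set θF : ↥(modularFunctionFieldFullC K1 (1 * q)) := ⟨qExpand K1 q (jqModC K1), hθF⟩ with hθFdef
  have hint : IsIntegral ↥(modularFunctionFieldFullC K1 1) θF :=
    Algebra.IsIntegral.isIntegral θF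
  have hdeg : (minpoly ↥(modularFunctionFieldFullC K1 1) θF).natDegree ≤ q + 1 := by
    rw [← hfr]; exact minpoly.natDegree_le θF
  have hmonic := minpoly.monic hint
  have hroot := minpoly.aeval ↥(modularFunctionFieldFullC K1 1) θF
  refine ⟨(minpoly ↥(modularFunctionFieldFullC K1 1) θF).natDegree,
    fun i => (((minpoly ↥(modularFunctionFieldFullC K1 1) θF).coeff i :
      ↥(modularFunctionFieldFullC K1 1)) : LaurentSeries K1), hdeg, ?_,
    fun i => ((minpoly ↥(modularFunctionFieldFullC K1 1) θF).coeff i).2, ?_⟩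
  · show ((((minpoly ↥(modularFunctionFieldFullC K1 1) θF).coeff _ :
      ↥(modularFunctionFieldFullC K1 1)) : LaurentSeries K1)) = 1
    rw [Polynomial.Monic.coeff_natDegree hmonic]
    rfl
  · rw [Polynomial.aeval_eq_sum_range] at hroot
    have h1 : ((∑ i ∈ Finset.range
        ((minpoly ↥(modularFunctionFieldFullC K1 1) θF).natDegree + 1),
        (minpoly ↥(modularFunctionFieldFullC K1 1) θF).coeff i • θF ^ i :
          ↥(modularFunctionFieldFullC K1 (1 * q))) : LaurentSeries K1) = 0 := by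
      rw [hroot]; rfl
    rw [← h1]
    have hcoe : ∀ (s : Finset ℕ) (f : ℕ → ↥(modularFunctionFieldFullC K1 (1 * q))),
        ((∑ i ∈ s, f i : ↥(modularFunctionFieldFullC K1 (1 * q))) : LaurentSeries K1) =
          ∑ i ∈ s, (f i : LaurentSeries K1) := by
      intro s f
      exact map_sum (modularFunctionFieldFullC K1 (1 * q)).val f s
    rw [hcoe]
    refine Finset.sum_congr rfl fun i _ => ?_
    rw [Algebra.smul_def]
    show _ = ((algebraMap ↥(modularFunctionFieldFullC K1 1)
      ↥(modularFunctionFieldFullC K1 (1 * q)) _ :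
        ↥(modularFunctionFieldFullC K1 (1 * q))) : LaurentSeries K1) *
      ((θF ^ i : ↥(modularFunctionFieldFullC K1 (1 * q))) : LaurentSeries K1)
    rw [S34DEG_algebraMap_coe]
    rfl

/-- **the minimal polynomial of `θ` over `O[j]` has degree at most `q + 1`** -/
theorem S34RELN_deg_le (q : ℕ) [NeZero q] (hq : q.Prime)
    (hdvr : IsDiscreteValuationRing (S18K_O A K1))
    (hjtr : Transcendental (S18K_O A K1) (S18K_j K1))
    (hjq : IsIntegral (adj (S18K_O A K1) (S18K_j K1)) (qExpand K1 q (jqModC K1))) :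
    (minpoly (adj (S18K_O A K1) (S18K_j K1)) (qExpand K1 q (jqModC K1))).natDegree ≤ q + 1 := by
  classical
  haveI := hdvr
  haveI : IsIntegrallyClosed (adj (S18K_O A K1) (S18K_j K1)) :=
    CSAT_isIntegrallyClosed_adj _ _ hjtr
  obtain ⟨n, e, hn, hen, heF, hrel⟩ := S34RELN_relE K1 q hq
  choose z hzR hz0 hze using fun i => S34RELN_frac A K1 (heF i)
  set Z := ∏ i ∈ Finset.range (n + 1), z i with hZdef
  have hZ0 : Z ≠ 0 := Finset.prod_ne_zero_iff.mpr (fun i _ => hz0 i)
  have hZe : ∀ i ∈ Finset.range (n + 1), Z * e i ∈ adj (S18K_O A K1) (S18K_j K1) := by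
    intro i hi
    have h1 : Z = z i * ∏ k ∈ (Finset.range (n + 1)).erase i, z k :=
      (Finset.mul_prod_erase _ _ hi).symm
    have h2 : Z * e i = (∏ k ∈ (Finset.range (n + 1)).erase i, z k) * (z i * e i) := by
      rw [h1]; ring
    rw [h2]
    exact Subring.mul_mem _ (Subring.prod_mem _ fun k _ => hzR k) (hze i)
  let c : ℕ → adj (S18K_O A K1) (S18K_j K1) := fun i =>
    if h : Z * e i ∈ adj (S18K_O A K1) (S18K_j K1) then ⟨Z * e i, h⟩ else 0
  have hc : ∀ i ∈ Finset.range (n + 1), ((c i : adj (S18K_O A K1) (S18K_j K1)) :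
      LaurentSeries K1) = Z * e i := by
    intro i hi
    simp only [c]
    rw [dif_pos (hZe i hi)]
  let p : Polynomial (adj (S18K_O A K1) (S18K_j K1)) :=
    ∑ i ∈ Finset.range (n + 1), Polynomial.monomial i (c i)
  have hp : Polynomial.aeval (qExpand K1 q (jqModC K1)) p = 0 := by
    simp only [p, map_sum, Polynomial.aeval_monomial]
    have h1 : ∀ i ∈ Finset.range (n + 1),
        algebraMap (adj (S18K_O A K1) (S18K_j K1)) (LaurentSeries K1) (c i) *
          (qExpand K1 q (jqModC K1)) ^ i = Z * (e i * (qExpand K1 q (jqModC K1)) ^ i) := by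
      intro i hi
      have : algebraMap (adj (S18K_O A K1) (S18K_j K1)) (LaurentSeries K1) (c i) =
          ((c i : adj (S18K_O A K1) (S18K_j K1)) : LaurentSeries K1) := rfl
      rw [this, hc i hi, mul_assoc]
    rw [Finset.sum_congr rfl h1, ← Finset.mul_sum, hrel, mul_zero]
  have hpn : p.coeff n = c n := by
    simp only [p, Polynomial.finset_sum_coeff, Polynomial.coeff_monomial]
    rw [Finset.sum_ite_eq' (Finset.range (n + 1)) n, if_pos (Finset.mem_range.mpr (by omega))]
  have hp0 : p ≠ 0 := by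
    intro h
    have h1 : p.coeff n = 0 := by rw [h]; simp
    rw [hpn] at h1
    have h2 : ((c n : adj (S18K_O A K1) (S18K_j K1)) : LaurentSeries K1) = 0 := by
      rw [h1]; rfl
    rw [hc n (Finset.mem_range.mpr (by omega)), hen, mul_one] at h2
    exact hZ0 h2
  have hdeg : p.natDegree ≤ n :=
    Polynomial.natDegree_sum_le_of_forall_le _ _ (fun i hi =>
      (Polynomial.natDegree_monomial_le _).trans (by
        have := Finset.mem_range.mp hi; omega))
  have hdvd := minpoly.isIntegrallyClosed_dvd hjq hp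
  exact (Polynomial.natDegree_le_of_dvd hdvd hp0).trans (hdeg.trans hn)

/-! ### constants -/

/-- the constant term: `O → K1` -/
def S34RELN_kappa : S18K_O A K1 →+* K1 where
  toFun a := (a : LaurentSeries K1).coeff 0
  map_one' := by
    show (1 : LaurentSeries K1).coeff 0 = 1
    have h : (1 : LaurentSeries K1) = HahnSeries.C (1 : K1) := (map_one _).symm
    rw [h, HahnSeries.C_apply, HahnSeries.coeff_single_same]
  map_mul' a b := by
    obtain ⟨c, hc⟩ := S34RELN_hO A K1 a a.2
    obtain ⟨c', hc'⟩ := S34RELN_hO A K1 b b.2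
    show ((a : LaurentSeries K1) * (b : LaurentSeries K1)).coeff 0 =
      (a : LaurentSeries K1).coeff 0 * (b : LaurentSeries K1).coeff 0
    rw [← hc, ← hc', ← map_mul, HahnSeries.C_apply, HahnSeries.C_apply, HahnSeries.C_apply,
      HahnSeries.coeff_single_same, HahnSeries.coeff_single_same, HahnSeries.coeff_single_same]
  map_zero' := rfl
  map_add' a b := rfl

theorem S34RELN_C_kappa (a : S18K_O A K1) :
    (HahnSeries.C (S34RELN_kappa A K1 a) : LaurentSeries K1) = (a : LaurentSeries K1) := by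
  obtain ⟨c, hc⟩ := S34RELN_hO A K1 a a.2
  show HahnSeries.C ((a : LaurentSeries K1).coeff 0) = (a : LaurentSeries K1)
  have h : (HahnSeries.C c : LaurentSeries K1).coeff 0 = c := by
    rw [HahnSeries.C_apply, HahnSeries.coeff_single_same]
  rw [← hc, h]

theorem S34RELN_kappa_injective : Function.Injective (S34RELN_kappa A K1) := by
  intro a b h
  apply Subtype.ext
  rw [← S34RELN_C_kappa A K1 a, ← S34RELN_C_kappa A K1 b, h]

/-- evaluation of a polynomial over `O` in terms of its image over `K1` -/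
theorem S34RELN_aeval_eq (x : LaurentSeries K1) (a : Polynomial (S18K_O A K1)) :
    Polynomial.aeval x a =
      Polynomial.eval₂ (HahnSeries.C : K1 →+* LaurentSeries K1) x
        (a.map (S34RELN_kappa A K1)) := by
  rw [Polynomial.aeval_def, Polynomial.eval₂_map]
  congr 1
  ext1 c
  exact (S34RELN_C_kappa A K1 c).symm

/-! ### the Atkin–Lehner involution exchanges the two relations -/

/-- if `∑ A_i(j) θ^i = 0` then `∑ A_i(θ) j^i = 0` -/
theorem S34RELN_swap (q : ℕ) [NeZero q] (hq : q.Prime) (n : ℕ) (B : ℕ → Polynomial K1)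
    (hrel : ∑ i ∈ Finset.range (n + 1),
      Polynomial.eval₂ (HahnSeries.C : K1 →+* LaurentSeries K1) (jqModC K1) (B i) *
        (qExpand K1 q (jqModC K1)) ^ i = 0) :
    ∑ i ∈ Finset.range (n + 1),
      Polynomial.eval₂ (HahnSeries.C : K1 →+* LaurentSeries K1) (qExpand K1 q (jqModC K1))
        (B i) * (jqModC K1) ^ i = 0 := by
  haveI : NeZero (1 * q) := ⟨by rw [one_mul]; exact NeZero.ne q⟩
  have hqN : ¬ q ∣ 1 := Nat.Prime.not_dvd_one hq
  have hN : 1 * q = q * 1 := Nat.mul_comm 1 q
  have hjF : jqModC K1 ∈ modularFunctionFieldFullC K1 (1 * q) := jqModC_mem_full K1 (1 * q)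
  have hθF : qExpand K1 q (jqModC K1) ∈ modularFunctionFieldFullC K1 (1 * q) :=
    S34V0K_jq_mem_F K1 q 1 (1 * q) hq hqN hN
  set jF : ↥(modularFunctionFieldFullC K1 (1 * q)) := ⟨jqModC K1, hjF⟩ with hjFdef
  set θF : ↥(modularFunctionFieldFullC K1 (1 * q)) := ⟨qExpand K1 q (jqModC K1), hθF⟩
    with hθFdef
  set w := S34V0_w (S34V0K_emb K1) q 1 (1 * q) hq hqN hN with hwdef
  have hwj : w jF = θF := by
    apply Subtype.ext
    rw [← S34V0_wL_of_mem (S34V0K_emb K1) q 1 (1 * q) hq hqN hN hjF]
    exact S34V0_wL_j (S34V0K_emb K1) q 1 (1 * q) hq hqN hN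
  have hwθ : w θF = jF := by
    apply Subtype.ext
    rw [← S34V0_wL_of_mem (S34V0K_emb K1) q 1 (1 * q) hq hqN hN hθF]
    exact S34V0_wL_jq (S34V0K_emb K1) q 1 (1 * q) hq hqN hN
  have hC : (algebraMap K1 (LaurentSeries K1)) = (HahnSeries.C : K1 →+* LaurentSeries K1) := by
    ext1 c
    rw [algebraMap_laurentSeries_eq_single, HahnSeries.C_apply]
  have hcoe : ∀ (x : ↥(modularFunctionFieldFullC K1 (1 * q))) (P : Polynomial K1),
      ((Polynomial.aeval x P : ↥(modularFunctionFieldFullC K1 (1 * q))) : LaurentSeries K1) =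
        Polynomial.eval₂ (HahnSeries.C : K1 →+* LaurentSeries K1) (x : LaurentSeries K1) P := by
    intro x P
    have h1 := Polynomial.aeval_algHom_apply (modularFunctionFieldFullC K1 (1 * q)).val x P
    rw [← hC, ← Polynomial.aeval_def]
    exact h1.symm
  have hsum : ∀ (x y : ↥(modularFunctionFieldFullC K1 (1 * q))),
      ((∑ i ∈ Finset.range (n + 1), Polynomial.aeval x (B i) * y ^ i :
        ↥(modularFunctionFieldFullC K1 (1 * q))) : LaurentSeries K1) =
      ∑ i ∈ Finset.range (n + 1),
        Polynomial.eval₂ (HahnSeries.C : K1 →+* LaurentSeries K1) (x : LaurentSeries K1) (B i) *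
          (y : LaurentSeries K1) ^ i := by
    intro x y
    rw [show ((∑ i ∈ Finset.range (n + 1), Polynomial.aeval x (B i) * y ^ i :
        ↥(modularFunctionFieldFullC K1 (1 * q))) : LaurentSeries K1) =
      ∑ i ∈ Finset.range (n + 1), ((Polynomial.aeval x (B i) * y ^ i :
        ↥(modularFunctionFieldFullC K1 (1 * q))) : LaurentSeries K1) from
      map_sum (modularFunctionFieldFullC K1 (1 * q)).val _ _]
    refine Finset.sum_congr rfl fun i _ => ?_
    show ((Polynomial.aeval x (B i) : ↥(modularFunctionFieldFullC K1 (1 * q))) :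
      LaurentSeries K1) * ((y ^ i : ↥(modularFunctionFieldFullC K1 (1 * q))) :
        LaurentSeries K1) = _
    rw [hcoe]
    rfl
  have hF : (∑ i ∈ Finset.range (n + 1), Polynomial.aeval jF (B i) * θF ^ i :
      ↥(modularFunctionFieldFullC K1 (1 * q))) = 0 := by
    apply Subtype.ext
    rw [hsum]
    exact hrel
  have hF' := congrArg w hF
  rw [map_zero, map_sum] at hF'
  have hF'' : (∑ i ∈ Finset.range (n + 1), Polynomial.aeval θF (B i) * jF ^ i :
      ↥(modularFunctionFieldFullC K1 (1 * q))) = 0 := by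
    rw [← hF']
    refine Finset.sum_congr rfl fun i _ => ?_
    have h1 : w (Polynomial.aeval jF (B i)) = Polynomial.aeval θF (B i) := by
      have h := Polynomial.aeval_algHom_apply
        (w : ↥(modularFunctionFieldFullC K1 (1 * q)) →ₐ[K1]
          ↥(modularFunctionFieldFullC K1 (1 * q))) jF (B i)
      rw [← hwj]
      exact h.symm
    rw [map_mul, map_pow, hwθ, h1]
  have h2 : ((∑ i ∈ Finset.range (n + 1), Polynomial.aeval θF (B i) * jF ^ i :
      ↥(modularFunctionFieldFullC K1 (1 * q))) : LaurentSeries K1) = 0 := by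
    rw [hF'']; rfl
  rw [hsum] at h2
  exact h2

/-! ### the relation -/

/-- **The modular relation in sum form, in both orders, from integrality.** -/
theorem S34RELN_relSum (q : ℕ) [NeZero q] (hq : q.Prime)
    (hdvr : IsDiscreteValuationRing (S18K_O A K1))
    (hjtr : Transcendental (S18K_O A K1) (S18K_j K1))
    (hjq : IsIntegral (adj (S18K_O A K1) (S18K_j K1)) (qExpand K1 q (jqModC K1))) :
    S34CUSP_RelSum (S18K_O A K1) (S18K_j K1) (qExpand K1 q (jqModC K1)) q ∧
      S34CUSP_RelSum (S18K_O A K1) (qExpand K1 q (jqModC K1)) (S18K_j K1) q := by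
  classical
  have hn := S34RELN_deg_le A K1 q hq hdvr hjtr hjq
  have hmonic := minpoly.monic hjq
  have hroot := minpoly.aeval (adj (S18K_O A K1) (S18K_j K1)) (qExpand K1 q (jqModC K1))
  set μ := minpoly (adj (S18K_O A K1) (S18K_j K1)) (qExpand K1 q (jqModC K1)) with hμ
  set n := μ.natDegree with hndef
  -- the coefficients as polynomials in `j`
  let a : ℕ → Polynomial (S18K_O A K1) := fun i =>
    (CSAT_adjEquiv (S18K_O A K1) (S18K_j K1) hjtr).symm (μ.coeff i)
  have ha : ∀ i, Polynomial.aeval (S18K_j K1) (a i) =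
      ((μ.coeff i : adj (S18K_O A K1) (S18K_j K1)) : LaurentSeries K1) := by
    intro i
    rw [← CSAT_adjEquiv_apply (S18K_O A K1) (S18K_j K1) hjtr (a i)]
    simp only [a, RingEquiv.apply_symm_apply]
  have han : a n = 1 := by
    simp only [a]
    rw [hndef, Polynomial.Monic.coeff_natDegree hmonic, map_one]
  let B : ℕ → Polynomial K1 := fun i => (a i).map (S34RELN_kappa A K1)
  have hBn : B n = 1 := by
    simp only [B]
    rw [han, Polynomial.map_one]
  have hdegB : ∀ i, (B i).natDegree = (a i).natDegree := fun i =>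
    Polynomial.natDegree_map_eq_of_injective (S34RELN_kappa_injective A K1) (a i)
  -- the relation at infinity
  have hrelI : ∑ i ∈ Finset.range (n + 1),
      Polynomial.eval₂ (HahnSeries.C : K1 →+* LaurentSeries K1) (jqModC K1) (B i) *
        (qExpand K1 q (jqModC K1)) ^ i = 0 := by
    rw [Polynomial.aeval_eq_sum_range] at hroot
    rw [← hroot]
    refine Finset.sum_congr rfl fun i _ => ?_
    rw [Algebra.smul_def]
    congr 1
    rw [← S34RELN_aeval_eq A K1 (jqModC K1) (a i)]
    exact ha i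
  have hrel0 := S34RELN_swap K1 q hq n B hrelI
  have hq2 : 2 ≤ q := hq.two_le
  have hLj : S34RELN_Lead (jqModC K1) ((1 : ℕ) : ℤ) 1 := by
    have := S34RELN_Lead_j (K := K1)
    rwa [← Nat.cast_one] at this
  have hLθ : S34RELN_Lead (qExpand K1 q (jqModC K1)) (q : ℤ) 1 := S34RELN_Lead_jq q
  obtain ⟨hnq, hd0, hdq, hdi⟩ := S34RELN_degrees hq2 hn B hBn hLj hLθ hrelI hrel0
  rw [hnq] at hrelI hrel0 hBn hdi han
  have hlc := S34RELN_lc hq2 B hBn hd0 hdq hdi hLj hLθ hrelI hrel0
  have ha0deg : (a 0).natDegree = q + 1 := by rw [← hdegB]; exact hd0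
  have ha0m : (a 0).Monic := by
    unfold Polynomial.Monic Polynomial.leadingCoeff
    rw [ha0deg]
    apply S34RELN_kappa_injective A K1
    rw [map_one, ← hlc]
    simp only [B]
    rw [Polynomial.coeff_map]
  have hai : ∀ i, 1 ≤ i → i ≤ q → (a i).natDegree ≤ q := fun i h1 h2 => by
    rw [← hdegB]; exact hdi i h1 (by omega)
  refine ⟨⟨a, hai, ha0m, ha0deg, ?_⟩, ⟨a, hai, ha0m, ha0deg, ?_⟩⟩
  · rw [Finset.sum_range_succ] at hrelI
    simp only [B] at hrelI
    rw [han, Polynomial.map_one, Polynomial.eval₂_one, one_mul, add_comm] at hrelI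
    rw [← hrelI]
    congr 1
    refine Finset.sum_congr rfl fun i _ => ?_
    rw [S34RELN_aeval_eq A K1]
    rfl
  · rw [Finset.sum_range_succ] at hrel0
    simp only [B] at hrel0
    rw [han, Polynomial.map_one, Polynomial.eval₂_one, one_mul, add_comm] at hrel0
    rw [← hrel0]
    congr 1
    refine Finset.sum_congr rfl fun i _ => ?_
    rw [S34RELN_aeval_eq A K1]
    rfl

/-- **X-RELN: the modular relation with degree bounds, in both orders, from the integrality
of `θ = j(q^q)` over `O[j]`.** -/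
theorem S34RELN_rel (q : ℕ) [NeZero q] (hq : q.Prime)
    (hdvr : IsDiscreteValuationRing (S18K_O A K1))
    (hjtr : Transcendental (S18K_O A K1) (S18K_j K1))
    (hjq : IsIntegral (adj (S18K_O A K1) (S18K_j K1)) (qExpand K1 q (jqModC K1))) :
    S34CUSP_Rel (S18K_O A K1) (S18K_j K1) (qExpand K1 q (jqModC K1)) q ∧
      S34CUSP_Rel (S18K_O A K1) (qExpand K1 q (jqModC K1)) (S18K_j K1) q :=
  ⟨S34CUSP_rel_of_relSum (S34RELN_relSum A K1 q hq hdvr hjtr hjq).1,
    S34CUSP_rel_of_relSum (S34RELN_relSum A K1 q hq hdvr hjtr hjq).2⟩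

end Fermat.Agent.S34_helper18_RELN
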