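import Mathlib
import Fermat.Prelude.Def_ModularCurve_X0ModL

/-!
# S34, X-RELN part a (helper18): leading terms of `q`-expansions

A small calculus "pole order at most `w`, coefficient `c` at `q^(-w)`" on `K((q))`, the leading
terms of `j` and `j(q^n)`, and of polynomials in them.
-/

set_option autoImplicit false

namespace Fermat.Agent.S34_helper18_RELNa

open ModularCurve

variable {K : Type*} [Field K]

/-- `y` has pole order at most `w`, and the coefficient of `q^(-w)` is `c` -/
def S34RELN_Lead (y : LaurentSeries K) (w : ℤ) (c : K) : Prop :=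
  (∀ m : ℤ, m < -w → y.coeff m = 0) ∧ y.coeff (-w) = c

theorem S34RELN_Lead.unique {y : LaurentSeries K} {w : ℤ} {c c' : K}
    (h : S34RELN_Lead y w c) (h' : S34RELN_Lead y w c') : c = c' := by
  rw [← h.2, ← h'.2]

theorem S34RELN_Lead.zero (w : ℤ) : S34RELN_Lead (0 : LaurentSeries K) w 0 :=
  ⟨fun _ _ => rfl, rfl⟩

theorem S34RELN_Lead.eq_zero {w : ℤ} {c : K} (h : S34RELN_Lead (0 : LaurentSeries K) w c) :
    c = 0 := h.unique (S34RELN_Lead.zero w)

theorem S34RELN_Lead.add {x y : LaurentSeries K} {w : ℤ} {c c' : K}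
    (hx : S34RELN_Lead x w c) (hy : S34RELN_Lead y w c') : S34RELN_Lead (x + y) w (c + c') := by
  refine ⟨fun m hm => ?_, ?_⟩
  · rw [HahnSeries.coeff_add, hx.1 m hm, hy.1 m hm, add_zero]
  · rw [HahnSeries.coeff_add, hx.2, hy.2]

theorem S34RELN_Lead.mono {x : LaurentSeries K} {w w' : ℤ} {c : K}
    (hx : S34RELN_Lead x w c) (h : w < w') : S34RELN_Lead x w' 0 :=
  ⟨fun m hm => hx.1 m (by omega), hx.1 _ (by omega)⟩

theorem S34RELN_Lead.sum {ι : Type*} (s : Finset ι) (f : ι → LaurentSeries K) (w : ℤ)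
    (c : ι → K) (h : ∀ i ∈ s, S34RELN_Lead (f i) w (c i)) :
    S34RELN_Lead (∑ i ∈ s, f i) w (∑ i ∈ s, c i) := by
  classical
  induction s using Finset.induction_on with
  | empty => simpa using S34RELN_Lead.zero (K := K) w
  | insert a s ha ih =>
    rw [Finset.sum_insert ha, Finset.sum_insert ha]
    exact (h a (Finset.mem_insert_self a s)).add
      (ih fun i hi => h i (Finset.mem_insert_of_mem hi))

theorem S34RELN_Lead.mul {x y : LaurentSeries K} {w w' : ℤ} {c c' : K}
    (hx : S34RELN_Lead x w c) (hy : S34RELN_Lead y w' c') :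
    S34RELN_Lead (x * y) (w + w') (c * c') := by
  have key : ∀ (n : ℤ) (ij : ℤ × ℤ),
      ij ∈ Finset.antidiagonal x.isPWO_support y.isPWO_support n →
      -w ≤ ij.1 ∧ -w' ≤ ij.2 ∧ ij.1 + ij.2 = n := by
    intro n ij hij
    rw [Finset.mem_antidiagonal] at hij
    obtain ⟨h1, h2, h3⟩ := hij
    refine ⟨?_, ?_, h3⟩
    · by_contra hlt
      exact (HahnSeries.mem_support _ _).1 h1 (hx.1 _ (by omega))
    · by_contra hlt
      exact (HahnSeries.mem_support _ _).1 h2 (hy.1 _ (by omega))
  refine ⟨fun m hm => ?_, ?_⟩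
  · rw [HahnSeries.coeff_mul]
    refine Finset.sum_eq_zero fun ij hij => ?_
    obtain ⟨h1, h2, h3⟩ := key m ij hij
    omega
  · rw [HahnSeries.coeff_mul]
    rw [Finset.sum_eq_single ((-w, -w') : ℤ × ℤ)]
    · show x.coeff (-w) * y.coeff (-w') = c * c'
      rw [hx.2, hy.2]
    · intro ij hij hne
      obtain ⟨h1, h2, h3⟩ := key _ ij hij
      exfalso
      apply hne
      ext
      · show ij.1 = -w
        omega
      · show ij.2 = -w'
        omega
    · intro hnot
      rw [Finset.mem_antidiagonal] at hnot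
      show x.coeff (-w) * y.coeff (-w') = 0
      by_cases h1 : x.coeff (-w) = 0
      · rw [h1, zero_mul]
      · by_cases h2 : y.coeff (-w') = 0
        · rw [h2, mul_zero]
        · exact absurd ⟨(HahnSeries.mem_support _ _).2 h1, (HahnSeries.mem_support _ _).2 h2,
            by show -w + -w' = -(w + w'); ring⟩ hnot

theorem S34RELN_Lead.C (c : K) : S34RELN_Lead (HahnSeries.C c : LaurentSeries K) 0 c := by
  refine ⟨fun m hm => ?_, ?_⟩
  · rw [HahnSeries.C_apply, HahnSeries.coeff_single_of_ne (by omega)]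
  · rw [HahnSeries.C_apply, neg_zero, HahnSeries.coeff_single_same]

theorem S34RELN_Lead.one : S34RELN_Lead (1 : LaurentSeries K) 0 1 := by
  have := S34RELN_Lead.C (K := K) 1
  rwa [map_one] at this

theorem S34RELN_Lead.pow {x : LaurentSeries K} {w : ℤ} {c : K} (hx : S34RELN_Lead x w c)
    (k : ℕ) : S34RELN_Lead (x ^ k) (k * w) (c ^ k) := by
  induction k with
  | zero => simpa using S34RELN_Lead.one (K := K)
  | succ k ih =>
    rw [pow_succ, pow_succ]
    have := ih.mul hx
    have e : ((k : ℤ) * w + w) = ((k + 1 : ℕ) : ℤ) * w := by push_cast; ring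
    rwa [e] at this

/-- `j = q⁻¹ + …` -/
theorem S34RELN_Lead_j : S34RELN_Lead (jqModC K) 1 1 :=
  ⟨fun m hm => coeff_jqModC_of_lt K hm, coeff_jqModC_neg_one K⟩

/-- `j(q^n) = q^(-n) + …` -/
theorem S34RELN_Lead_jq (n : ℕ) [NeZero n] : S34RELN_Lead (qExpand K n (jqModC K)) n 1 := by
  refine ⟨fun m hm => ?_, ?_⟩
  · by_cases hd : (n : ℤ) ∣ m
    · obtain ⟨k, rfl⟩ := hd
      rw [qExpand_coeff_mul]
      apply coeff_jqModC_of_lt
      have hn : (0 : ℤ) < n := by exact_mod_cast Nat.pos_of_ne_zero (NeZero.ne n)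
      by_contra hk
      have : (n : ℤ) * (-1) ≤ n * k := mul_le_mul_of_nonneg_left (by omega) hn.le
      omega
    · exact qExpand_coeff_of_not_dvd n _ hd
  · have : (-(n : ℤ)) = (n : ℤ) * (-1) := by ring
    rw [this, qExpand_coeff_mul]
    exact coeff_jqModC_neg_one K

/-! ### leading terms of polynomials in a series with a pole -/

/-- the leading term of `A(x)` when `x = q^(-a) + …`, `a ≥ 1` -/
theorem S34RELN_Lead_aeval {x : LaurentSeries K} {a : ℕ} (ha : 1 ≤ a)
    (hx : S34RELN_Lead x a 1) (A : Polynomial K) (D : ℕ) (hD : A.natDegree ≤ D) :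
    S34RELN_Lead (Polynomial.eval₂ (HahnSeries.C : K →+* LaurentSeries K) x A)
      ((a * D : ℕ) : ℤ) (A.coeff D) := by
  rw [Polynomial.eval₂_eq_sum_range' _ (Nat.lt_succ_of_le hD)]
  have hterm : ∀ k ∈ Finset.range (D + 1),
      S34RELN_Lead ((HahnSeries.C : K →+* LaurentSeries K) (A.coeff k) * x ^ k)
        ((a * D : ℕ) : ℤ) (if k = D then A.coeff D else 0) := by
    intro k hk
    have hk' : k ≤ D := Nat.lt_succ_iff.mp (Finset.mem_range.mp hk)
    have h1 : S34RELN_Lead ((HahnSeries.C : K →+* LaurentSeries K) (A.coeff k) * x ^ k)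
        ((k : ℤ) * a) (A.coeff k) := by
      have := (S34RELN_Lead.C (A.coeff k)).mul (hx.pow k)
      rwa [zero_add, one_pow, mul_one] at this
    by_cases hkD : k = D
    · subst hkD
      rw [if_pos rfl]
      have e : ((k : ℤ) * a) = ((a * k : ℕ) : ℤ) := by push_cast; ring
      rwa [e] at h1
    · rw [if_neg hkD]
      refine h1.mono ?_
      have hlt : k < D := lt_of_le_of_ne hk' hkD
      have : a * k < a * D := Nat.mul_lt_mul_of_pos_left hlt (by omega)
      have e : ((k : ℤ) * a) = ((a * k : ℕ) : ℤ) := by push_cast; ring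
      rw [e]
      exact_mod_cast this
  have := S34RELN_Lead.sum (Finset.range (D + 1))
    (fun k => (HahnSeries.C : K →+* LaurentSeries K) (A.coeff k) * x ^ k) _ _ hterm
  rw [Finset.sum_ite_eq' (Finset.range (D + 1)) D (fun _ => A.coeff D),
    if_pos (Finset.mem_range.mpr (Nat.lt_succ_self D))] at this
  exact this

/-- **The coefficient identity**: if `∑ A_i(x) y^i = 0` with `x = q^(-a) + …`,
`y = q^(-b) + …` and `W` bounds all the weights `a deg A_i + b i`, then the sum of the
coefficients of weight exactly `W` vanishes. -/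
theorem S34RELN_coeff_id {x y : LaurentSeries K} {a b : ℕ} (ha : 1 ≤ a)
    (hx : S34RELN_Lead x a 1) (hy : S34RELN_Lead y b 1) (n : ℕ) (A : ℕ → Polynomial K)
    (hrel : ∑ i ∈ Finset.range (n + 1), Polynomial.eval₂ (HahnSeries.C : K →+* LaurentSeries K) x (A i) * y ^ i = 0)
    (W : ℕ) (hW : ∀ i ≤ n, a * (A i).natDegree + b * i ≤ W) :
    ∑ i ∈ Finset.range (n + 1),
      (if a ∣ (W - b * i) then (A i).coeff ((W - b * i) / a) else 0) = 0 := by
  have hterm : ∀ i ∈ Finset.range (n + 1),
      S34RELN_Lead (Polynomial.eval₂ (HahnSeries.C : K →+* LaurentSeries K) x (A i) * y ^ i) (W : ℤ)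
        (if a ∣ (W - b * i) then (A i).coeff ((W - b * i) / a) else 0) := by
    intro i hi
    have hi' : i ≤ n := Nat.lt_succ_iff.mp (Finset.mem_range.mp hi)
    have hWi := hW i hi'
    by_cases hdvd : a ∣ (W - b * i)
    · rw [if_pos hdvd]
      obtain ⟨D, hD⟩ := hdvd
      have hDdiv : (W - b * i) / a = D := by
        rw [hD]; exact Nat.mul_div_cancel_left D (by omega)
      rw [hDdiv]
      have hdeg : (A i).natDegree ≤ D := by
        have h1 : a * (A i).natDegree ≤ a * D := by omega
        exact Nat.le_of_mul_le_mul_left h1 (by omega)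
      have h1 := (S34RELN_Lead_aeval ha hx (A i) D hdeg).mul (hy.pow i)
      rw [one_pow, mul_one] at h1
      have e : (((a * D : ℕ) : ℤ) + (i : ℤ) * b) = (W : ℤ) := by
        have : a * D + b * i = W := by omega
        have h2 : ((a * D + b * i : ℕ) : ℤ) = (W : ℤ) := by exact_mod_cast this
        rw [← h2]; push_cast; ring
      rwa [e] at h1
    · rw [if_neg hdvd]
      have h1 := (S34RELN_Lead_aeval ha hx (A i) _ le_rfl).mul (hy.pow i)
      refine h1.mono ?_
      have hne : a * (A i).natDegree + b * i ≠ W := by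
        intro h
        exact hdvd ⟨(A i).natDegree, by omega⟩
      have hlt : a * (A i).natDegree + b * i < W := lt_of_le_of_ne hWi hne
      have h2 : ((a * (A i).natDegree + b * i : ℕ) : ℤ) < (W : ℤ) := by exact_mod_cast hlt
      have e : (((a * (A i).natDegree : ℕ) : ℤ) + (i : ℤ) * b) =
          ((a * (A i).natDegree + b * i : ℕ) : ℤ) := by push_cast; ring
      rw [e]
      exact h2
  have h := S34RELN_Lead.sum (Finset.range (n + 1)) _ (W : ℤ) _ hterm
  rw [hrel] at h
  exact h.eq_zero

/-! ### the maximal weight is attained twice -/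

/-- **The maximal weight is attained at least twice.** -/
theorem S34RELN_two_max {x y : LaurentSeries K} {a b : ℕ} (ha : 1 ≤ a) (hb : 1 ≤ b)
    (hx : S34RELN_Lead x a 1) (hy : S34RELN_Lead y b 1) (n : ℕ) (A : ℕ → Polynomial K)
    (hAn : A n = 1)
    (hrel : ∑ i ∈ Finset.range (n + 1),
      Polynomial.eval₂ (HahnSeries.C : K →+* LaurentSeries K) x (A i) * y ^ i = 0) :
    ∃ k k' : ℕ, k < k' ∧ k' ≤ n ∧
      a * (A k).natDegree + b * k = a * (A k').natDegree + b * k' ∧
      ∀ i ≤ n, a * (A i).natDegree + b * i ≤ a * (A k).natDegree + b * k := by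
  classical
  obtain ⟨k, hk, hmax⟩ := Finset.exists_max_image (Finset.range (n + 1))
    (fun i => a * (A i).natDegree + b * i) ⟨0, Finset.mem_range.mpr (Nat.succ_pos n)⟩
  have hkn : k ≤ n := Nat.lt_succ_iff.mp (Finset.mem_range.mp hk)
  have hmax' : ∀ i ≤ n, a * (A i).natDegree + b * i ≤ a * (A k).natDegree + b * k :=
    fun i hi => hmax i (Finset.mem_range.mpr (Nat.lt_succ_of_le hi))
  have hid := S34RELN_coeff_id ha hx hy n A hrel _ hmax'
  have hex : ∃ i ≤ n, i ≠ k ∧
      a * (A i).natDegree + b * i = a * (A k).natDegree + b * k := by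
    by_contra hno
    have hlt : ∀ i ≤ n, i ≠ k →
        a * (A i).natDegree + b * i < a * (A k).natDegree + b * k := by
      intro i hi hik
      refine lt_of_le_of_ne (hmax' i hi) fun h => hno ⟨i, hi, hik, h⟩
    rw [Finset.sum_eq_single k] at hid
    · have hdvd : a ∣ (a * (A k).natDegree + b * k - b * k) := ⟨(A k).natDegree, by omega⟩
      rw [if_pos hdvd] at hid
      have hdiv : (a * (A k).natDegree + b * k - b * k) / a = (A k).natDegree := by
        have : a * (A k).natDegree + b * k - b * k = a * (A k).natDegree := by omega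
        rw [this]; exact Nat.mul_div_cancel_left _ (by omega)
      rw [hdiv] at hid
      have hAk : A k = 0 := Polynomial.leadingCoeff_eq_zero.mp hid
      have hkn' : k ≠ n := by
        intro h
        rw [h, hAn] at hAk
        exact one_ne_zero hAk
      have h1 := hlt n le_rfl (Ne.symm hkn')
      rw [hAk, hAn, Polynomial.natDegree_zero, Polynomial.natDegree_one] at h1
      have h2 : b * k ≤ b * n := Nat.mul_le_mul_left b hkn
      omega
    · intro i hi hik
      have hi' : i ≤ n := Nat.lt_succ_iff.mp (Finset.mem_range.mp hi)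
      have h1 := hlt i hi' hik
      by_cases hdvd : a ∣ (a * (A k).natDegree + b * k - b * i)
      · rw [if_pos hdvd]
        obtain ⟨D, hD⟩ := hdvd
        have hDdiv : (a * (A k).natDegree + b * k - b * i) / a = D := by
          rw [hD]; exact Nat.mul_div_cancel_left D (by omega)
        rw [hDdiv]
        apply Polynomial.coeff_eq_zero_of_natDegree_lt
        have h2 : a * (A i).natDegree < a * D := by omega
        exact Nat.lt_of_mul_lt_mul_left h2
      · rw [if_neg hdvd]
    · intro hk'
      exact absurd hk hk'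
  obtain ⟨i, hi, hik, he⟩ := hex
  rcases Nat.lt_or_gt_of_ne hik with h | h
  · exact ⟨i, k, h, hkn, he, fun i' hi' => he ▸ hmax' i' hi'⟩
  · exact ⟨k, i, h, hi, he.symm, hmax'⟩

/-- arithmetic: two indices with the same weight `q d + k` -/
theorem S34RELN_arith0 {q d d' k k' : ℕ} (hq : 2 ≤ q) (h : q * d + k = q * d' + k')
    (hk : k < k') (hk' : k' ≤ q + 1) : d = d' + 1 ∧ k' = k + q := by
  have h1 : d' < d := by
    by_contra hle
    have : q * d ≤ q * d' := Nat.mul_le_mul_left q (not_lt.mp hle)
    omega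
  have h2 : d < d' + 2 := by
    by_contra hge
    have : q * (d' + 2) ≤ q * d := Nat.mul_le_mul_left q (not_lt.mp hge)
    have e : q * (d' + 2) = q * d' + 2 * q := by ring
    omega
  have hd : d = d' + 1 := by omega
  subst hd
  have e : q * (d' + 1) = q * d' + q := by ring
  omega

/-! ### the degrees -/

/-- **The shape of the relation (degrees)**: a relation `∑ A_i(x) y^i = 0` of `y`-degree
`n ≤ q + 1`, monic in `y`, which also holds with `x` and `y` exchanged, where
`x = q^(-1) + …` and `y = q^(-q) + …`, has `n = q + 1`, `deg A_0 = q + 1`, `deg A_q = q` and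
`deg A_i ≤ q` for `1 ≤ i`. -/
theorem S34RELN_degrees {q n : ℕ} (hq : 2 ≤ q) (hn : n ≤ q + 1) (A : ℕ → Polynomial K)
    (hAn : A n = 1) {x y : LaurentSeries K}
    (hx : S34RELN_Lead x ((1 : ℕ) : ℤ) 1) (hy : S34RELN_Lead y (q : ℤ) 1)
    (hrel : ∑ i ∈ Finset.range (n + 1),
      Polynomial.eval₂ (HahnSeries.C : K →+* LaurentSeries K) x (A i) * y ^ i = 0)
    (hrel' : ∑ i ∈ Finset.range (n + 1),
      Polynomial.eval₂ (HahnSeries.C : K →+* LaurentSeries K) y (A i) * x ^ i = 0) :
    n = q + 1 ∧ (A 0).natDegree = q + 1 ∧ (A q).natDegree = q ∧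
      ∀ i, 1 ≤ i → i ≤ n → (A i).natDegree ≤ q := by
  have hq1 : 1 ≤ q := by omega
  have hqq : 2 * q ≤ q * q := Nat.mul_le_mul_right q hq
  have hdn : (A n).natDegree = 0 := by rw [hAn]; exact Polynomial.natDegree_one
  obtain ⟨i0, i1, hi01, hi1n, he0, hmax0⟩ :=
    S34RELN_two_max hq1 le_rfl hy hx n A hAn hrel'
  obtain ⟨l0, l1, hl01, hl1n, heI, hmaxI⟩ :=
    S34RELN_two_max le_rfl hq1 hx hy n A hAn hrel
  simp only [one_mul] at he0 hmax0 heI hmaxI
  obtain ⟨hd01, hi1⟩ := S34RELN_arith0 hq he0 hi01 (hi1n.trans hn)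
  -- `d l0 ≥ d l1 + q`
  have hl_mul : q * l0 + q ≤ q * l1 := by
    have := Nat.mul_le_mul_left q (Nat.succ_le_of_lt hl01)
    rwa [Nat.mul_succ] at this
  have hdl0 : (A l1).natDegree + q ≤ (A l0).natDegree := by omega
  rcases Nat.eq_zero_or_pos i0 with hi0 | hi0
  · -- `i0 = 0`, `i1 = q`
    subst hi0
    have hi1q : i1 = q := by omega
    subst hi1q
    have hP1 : ∀ i, 1 ≤ i → i ≤ n → (A i).natDegree ≤ (A i1).natDegree := by
      intro i hi hin
      by_contra hgt
      have h1 : (A 0).natDegree ≤ (A i).natDegree := by omega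
      have h2 : i1 * (A 0).natDegree ≤ i1 * (A i).natDegree := Nat.mul_le_mul_left i1 h1
      have h3 := hmax0 i hin
      omega
    rcases Nat.eq_zero_or_pos l0 with hl0 | hl0
    · subst hl0
      have h1 := hmaxI i1 hi1n
      omega
    · have h1 : (A l0).natDegree ≤ (A i1).natDegree := hP1 l0 hl0 (hl01.le.trans hl1n)
      have h2 := hmaxI i1 hi1n
      have h3 : i1 * i1 ≤ i1 * l0 := by omega
      have h4 : i1 ≤ l0 := Nat.le_of_mul_le_mul_left h3 (by omega)
      have hl0q : l0 = i1 := by omega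
      have hl1q : l1 = i1 + 1 := by omega
      have hnq : n = i1 + 1 := by omega
      subst hl0q
      have hdl1 : (A l1).natDegree = 0 := by rw [hl1q, ← hnq]; exact hdn
      have e1 : l0 * l1 = l0 * l0 + l0 := by rw [hl1q]; ring
      have hdq : (A l0).natDegree = l0 := by omega
      refine ⟨hnq, by omega, hdq, fun i hi hin => ?_⟩
      have := hP1 i hi hin
      omega
  · -- `i0 = 1` is impossible
    exfalso
    have hi0' : i0 = 1 := by omega
    subst hi0'
    have hnq : n = q + 1 := by omega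
    have hi1' : i1 = n := by omega
    have hd1 : (A 1).natDegree = 1 := by rw [hd01, hi1', hdn]
    have h1 := hmax0 l0 (hl01.le.trans hl1n)
    rw [hd1] at h1
    have h2 : q * q ≤ q * (A l0).natDegree := Nat.mul_le_mul_left q (by omega)
    omega

/-! ### the leading coefficients -/

/-- **The shape of the relation (leading coefficient of `A_0`)**. -/
theorem S34RELN_lc {q : ℕ} (hq : 2 ≤ q) (A : ℕ → Polynomial K)
    (hAn : A (q + 1) = 1) (hd0 : (A 0).natDegree = q + 1) (hdq : (A q).natDegree = q)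
    (hdi : ∀ i, 1 ≤ i → i ≤ q + 1 → (A i).natDegree ≤ q) {x y : LaurentSeries K}
    (hx : S34RELN_Lead x ((1 : ℕ) : ℤ) 1) (hy : S34RELN_Lead y (q : ℤ) 1)
    (hrel : ∑ i ∈ Finset.range (q + 1 + 1),
      Polynomial.eval₂ (HahnSeries.C : K →+* LaurentSeries K) x (A i) * y ^ i = 0)
    (hrel' : ∑ i ∈ Finset.range (q + 1 + 1),
      Polynomial.eval₂ (HahnSeries.C : K →+* LaurentSeries K) y (A i) * x ^ i = 0) :
    (A 0).coeff (q + 1) = 1 := by
  have hq1 : 1 ≤ q := by omega
  have hqq : 2 * q ≤ q * q := Nat.mul_le_mul_right q hq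
  have hdn : (A (q + 1)).natDegree = 0 := by rw [hAn]; exact Polynomial.natDegree_one
  have hmul : ∀ i, i ≤ q → q * i ≤ q * q := fun i hi => Nat.mul_le_mul_left q hi
  have hsucc : q * (q + 1) = q * q + q := by ring
  -- at infinity
  have hWI : ∀ i ≤ q + 1, 1 * (A i).natDegree + q * i ≤ q * q + q := by
    intro i hi
    rcases Nat.eq_zero_or_pos i with h0 | h0
    · subst h0; omega
    · rcases Nat.eq_or_lt_of_le hi with h1 | h1
      · subst h1; omega
      · have := hdi i h0 hi
        have := hmul i (by omega)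
        omega
  have hI := S34RELN_coeff_id le_rfl hx hy (q + 1) A hrel (q * q + q) hWI
  rw [Finset.sum_eq_add (q + 1) q (by omega)] at hI
  · have e1 : q * q + q - q * (q + 1) = 0 := by omega
    have e2 : q * q + q - q * q = q := by omega
    rw [if_pos (one_dvd _), if_pos (one_dvd _), Nat.div_one, Nat.div_one, e1, e2, hAn,
      Polynomial.coeff_one_zero] at hI
    -- at zero
    have hW0 : ∀ i ≤ q + 1, q * (A i).natDegree + 1 * i ≤ q * q + q := by
      intro i hi
      rcases Nat.eq_zero_or_pos i with h0 | h0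
      · subst h0; rw [hd0]; omega
      · rcases Nat.eq_or_lt_of_le hi with h1 | h1
        · subst h1; rw [hdn]; omega
        · have := hmul _ (hdi i h0 hi)
          omega
    have h0 := S34RELN_coeff_id hq1 hy hx (q + 1) A hrel' (q * q + q) hW0
    rw [Finset.sum_eq_add 0 q (by omega)] at h0
    · have e3 : q * q + q - 1 * 0 = q * (q + 1) := by omega
      have e4 : q * q + q - 1 * q = q * q := by omega
      rw [e3, e4, if_pos (Dvd.intro _ rfl), if_pos (Dvd.intro _ rfl),
        Nat.mul_div_cancel_left _ (by omega : 0 < q),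
        Nat.mul_div_cancel_left _ (by omega : 0 < q)] at h0
      have h5 : (A q).coeff q = -1 := by
        have := hI
        exact eq_neg_of_add_eq_zero_right this
      rw [h5] at h0
      exact eq_of_sub_eq_zero (by rw [sub_eq_add_neg]; exact h0)
    · intro i hi hne
      have hi' : i ≤ q + 1 := Nat.lt_succ_iff.mp (Finset.mem_range.mp hi)
      rw [if_neg]
      intro hdvd
      have hqW : q ∣ q * q + q := ⟨q + 1, by ring⟩
      have hle : 1 * i ≤ q * q + q := by omega
      have h6 : q ∣ 1 * i := (Nat.dvd_sub_iff_right hle hqW).mp hdvd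
      rw [one_mul] at h6
      rcases Nat.eq_zero_or_pos i with hz | hz
      · exact hne.1 hz
      · have h7 : q ≤ i := Nat.le_of_dvd hz h6
        have h8 : i = q + 1 := by omega
        rw [h8] at h6
        have h9 : q ∣ 1 := (Nat.dvd_add_right (dvd_refl q)).mp h6
        have := Nat.le_of_dvd Nat.one_pos h9
        omega
    · intro h; exact absurd (Finset.mem_range.mpr (by omega)) h
    · intro h; exact absurd (Finset.mem_range.mpr (by omega)) h
  · intro i hi hne
    have hi' : i ≤ q + 1 := Nat.lt_succ_iff.mp (Finset.mem_range.mp hi)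
    rw [if_pos (one_dvd _), Nat.div_one]
    apply Polynomial.coeff_eq_zero_of_natDegree_lt
    have hiq : i + 1 ≤ q := by omega
    have hm : q * (i + 1) ≤ q * q := hmul _ hiq
    have e : q * (i + 1) = q * i + q := by ring
    rcases Nat.eq_zero_or_pos i with hz | hz
    · subst hz; rw [hd0]; omega
    · have := hdi i hz hi'
      omega
  · intro h; exact absurd (Finset.mem_range.mpr (by omega)) h
  · intro h; exact absurd (Finset.mem_range.mpr (by omega)) h

end Fermat.Agent.S34_helper18_RELNa
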