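import Mathlib

/-!
# S34, X-PLACES: conjugacy of the extensions of a valuation (helper19)

`K ⊆ Ω` a Galois extension of fields (possibly infinite), `A`, `W` valuation subrings of `Ω` with
the same restriction to `K`.  Then `W` and `A` are conjugate under `Gal(Ω/K)`.

Proof.  Let `B` be the intersection of all valuation subrings of `Ω` containing
`O = A ∩ K` (a `Gal(Ω/K)`-stable subring of `Ω`).  Every valuation subring `V` of `Ω` with
`V ∩ K = O` is the localisation of `B` at the prime `B ∩ m_V` (`S34CJ_loc`), and `Gal(Ω/K)` acts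
transitively on the primes of `B` with the same restriction to `B ∩ K`
(Mathlib: `Algebra.IsInvariant.exists_smul_of_under_eq_of_profinite`).
-/

set_option autoImplicit false

namespace Fermat.Agent.S34_helper19_CONJ

open scoped Pointwise

section Elementwise

variable (K : Type*) {Ω : Type*} [Field K] [Field Ω] [Algebra K Ω]

/-- The intersection of all valuation subrings of `Ω` containing `A ∩ K`. -/
def S34CJ_B (A : ValuationSubring Ω) : Subring Ω where
  carrier := {y | ∀ V : ValuationSubring Ω,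
    (∀ x : K, algebraMap K Ω x ∈ A → algebraMap K Ω x ∈ V) → y ∈ V}
  mul_mem' := fun ha hb V hV => V.mul_mem _ _ (ha V hV) (hb V hV)
  one_mem' := fun V _ => V.one_mem
  add_mem' := fun ha hb V hV => V.add_mem _ _ (ha V hV) (hb V hV)
  zero_mem' := fun V _ => V.zero_mem
  neg_mem' := fun ha V hV => V.neg_mem _ (ha V hV)

variable {K}

theorem S34CJ_mem_B {A : ValuationSubring Ω} {y : Ω} :
    y ∈ S34CJ_B K A ↔ ∀ V : ValuationSubring Ω,
      (∀ x : K, algebraMap K Ω x ∈ A → algebraMap K Ω x ∈ V) → y ∈ V := Iff.rfl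

theorem S34CJ_B_le (A V : ValuationSubring Ω)
    (hV : ∀ x : K, algebraMap K Ω x ∈ A → algebraMap K Ω x ∈ V) {y : Ω}
    (hy : y ∈ S34CJ_B K A) : y ∈ V := hy V hV

theorem S34CJ_algebraMap_mem_B (A : ValuationSubring Ω) {x : K} (hx : algebraMap K Ω x ∈ A) :
    algebraMap K Ω x ∈ S34CJ_B K A := fun _ hV => hV x hx

/-- `B` is stable under `Gal(Ω/K)`. -/
theorem S34CJ_B_stable (A : ValuationSubring Ω) (g : Ω ≃ₐ[K] Ω) {y : Ω}
    (hy : y ∈ S34CJ_B K A) : g y ∈ S34CJ_B K A := by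
  intro V hV
  have h1 : y ∈ V.comap (g : Ω →+* Ω) := by
    refine hy (V.comap (g : Ω →+* Ω)) fun x hx => ?_
    rw [ValuationSubring.mem_comap]
    have : (g : Ω →+* Ω) (algebraMap K Ω x) = algebraMap K Ω x := g.commutes x
    rw [this]
    exact hV x hx
  exact ValuationSubring.mem_comap.1 h1

/-- The key computation: from a relation `∑ α i x ^ i = 0` whose coefficient `α k` is `1` and
whose higher coefficients are nonunits of `W ∋ x`, the element `x` is a quotient `c / b` of two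
elements lying in every valuation subring containing the `α i`, with `b` a unit of `W`. -/
theorem S34CJ_loc_seq (W : ValuationSubring Ω) {x : Ω} (hx : x ∈ W) (hx0 : x ≠ 0)
    (α : ℕ → Ω) (k m : ℕ)
    (hrel : ∑ i ∈ Finset.range (k + (m + 1)), α i * x ^ i = 0) (hk : α k = 1)
    (hhigh : ∀ j, j < m → α (k + (j + 1)) ∈ W.nonunits) :
    ∃ b c : Ω, x * b = c ∧ b ∉ W.nonunits ∧
      ∀ V : ValuationSubring Ω, (∀ i, α i ∈ V) → b ∈ V ∧ c ∈ V := by
  set b : Ω := ∑ j ∈ Finset.range (m + 1), α (k + j) * x ^ j with hb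
  set c : Ω := - ∑ i ∈ Finset.range k, α i * (x⁻¹) ^ (k - 1 - i) with hc
  have hsplit : ∑ i ∈ Finset.range k, α i * x ^ i + x ^ k * b = 0 := by
    rw [← hrel, Finset.sum_range_add, hb, Finset.mul_sum]
    congr 1
    refine Finset.sum_congr rfl fun j _ => ?_
    rw [pow_add]; ring
  have hxc : x ^ k * c = - (x * ∑ i ∈ Finset.range k, α i * x ^ i) := by
    rw [hc, mul_neg, Finset.mul_sum, Finset.mul_sum]
    congr 1
    refine Finset.sum_congr rfl fun i hi => ?_
    have hik : i < k := Finset.mem_range.1 hi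
    have h2 : x ^ k * (x⁻¹) ^ (k - 1 - i) = x ^ (i + 1) := by
      obtain ⟨e, he⟩ : ∃ e, k - 1 - i = e := ⟨_, rfl⟩
      rw [he]
      have h1 : k = e + (i + 1) := by omega
      rw [h1, pow_add, inv_pow]
      field_simp
    calc x ^ k * (α i * (x⁻¹) ^ (k - 1 - i)) = α i * (x ^ k * (x⁻¹) ^ (k - 1 - i)) := by ring
      _ = α i * x ^ (i + 1) := by rw [h2]
      _ = x * (α i * x ^ i) := by rw [pow_succ]; ring
  have hxb : x * b = c := by
    have hxk : x ^ k ≠ 0 := pow_ne_zero _ hx0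
    apply mul_left_cancel₀ hxk
    rw [hxc]
    linear_combination x * hsplit
  refine ⟨b, c, hxb, ?_, fun V hV => ?_⟩
  · -- `b` is a unit of `W`
    rw [W.mem_nonunits_iff]
    have hb1 : b = 1 + ∑ j ∈ Finset.range m, α (k + (j + 1)) * x ^ (j + 1) := by
      rw [hb, Finset.sum_range_succ', add_zero, hk, pow_zero, mul_one, add_comm]
    have hlt : W.valuation (∑ j ∈ Finset.range m, α (k + (j + 1)) * x ^ (j + 1)) < 1 := by
      refine Valuation.map_sum_lt _ one_ne_zero fun j hj => ?_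
      have h1 : W.valuation (α (k + (j + 1))) < 1 :=
        (W.mem_nonunits_iff).1 (hhigh j (Finset.mem_range.1 hj))
      have h2 : W.valuation (x ^ (j + 1)) ≤ 1 :=
        (W.valuation_le_one_iff _).2 (pow_mem hx _)
      rw [map_mul]
      exact mul_lt_one_of_lt_of_le h1 h2
    rw [hb1, Valuation.map_one_add_of_lt _ hlt]
    exact lt_irrefl _
  · -- `b`, `c` lie in every valuation subring containing the coefficients
    have hbV : x ∈ V → b ∈ V := fun hxV =>
      sum_mem fun j _ => V.mul_mem _ _ (hV _) (pow_mem hxV _)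
    have hcV : x⁻¹ ∈ V → c ∈ V := fun hxV =>
      V.neg_mem _ (sum_mem fun i _ => V.mul_mem _ _ (hV _) (pow_mem hxV _))
    rcases V.mem_or_inv_mem x with h | h
    · exact ⟨hbV h, hxb ▸ V.mul_mem _ _ h (hbV h)⟩
    · refine ⟨?_, hcV h⟩
      have : b = x⁻¹ * c := by
        rw [← hxb, ← mul_assoc, inv_mul_cancel₀ hx0, one_mul]
      rw [this]
      exact V.mul_mem _ _ h (hcV h)

/-- **Localisation**: a valuation subring `W` of `Ω` with `W ∩ K = A ∩ K` is the localisation of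
`B` at the prime `B ∩ m_W`. -/
theorem S34CJ_loc [Algebra.IsAlgebraic K Ω] (A W : ValuationSubring Ω)
    (h : ∀ x : K, algebraMap K Ω x ∈ W ↔ algebraMap K Ω x ∈ A) {x : Ω} (hx : x ∈ W) :
    ∃ b ∈ S34CJ_B K A, ∃ c ∈ S34CJ_B K A, b ∉ W.nonunits ∧ x * b = c := by
  classical
  by_cases hx0 : x = 0
  · refine ⟨1, (S34CJ_B K A).one_mem, 0, (S34CJ_B K A).zero_mem, ?_, by rw [hx0, zero_mul]⟩
    rw [W.mem_nonunits_iff, map_one]
    exact lt_irrefl _
  have hint : IsIntegral K x := (Algebra.IsAlgebraic.isAlgebraic x).isIntegral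
  set p := minpoly K x with hp
  set n := p.natDegree with hn
  have hmonic : p.Monic := minpoly.monic hint
  set φ : ℕ → W.ValueGroup := fun i => W.valuation (algebraMap K Ω (p.coeff i)) with hφ
  obtain ⟨i0, hi0, hmax⟩ := Finset.exists_max_image (Finset.range (n + 1)) φ
    ⟨0, Finset.mem_range.2 (Nat.succ_pos _)⟩
  set S := (Finset.range (n + 1)).filter (fun i => φ i = φ i0) with hS
  have hSne : S.Nonempty := ⟨i0, Finset.mem_filter.2 ⟨hi0, rfl⟩⟩
  set k := S.max' hSne with hk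
  have hkS : k ∈ S := Finset.max'_mem _ _
  obtain ⟨hkn, hφk⟩ := Finset.mem_filter.1 hkS
  have hkn' : k ≤ n := Nat.lt_succ_iff.1 (Finset.mem_range.1 hkn)
  have hle : ∀ i, φ i ≤ φ k := by
    intro i
    by_cases hi : i ∈ Finset.range (n + 1)
    · rw [hφk]; exact hmax i hi
    · have hi' : n < i := by
        rw [Finset.mem_range, not_lt] at hi
        exact hi
      have : p.coeff i = 0 := Polynomial.coeff_eq_zero_of_natDegree_lt hi'
      simp only [hφ, this, map_zero]
      exact zero_le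
  have hlt : ∀ i, k < i → φ i < φ k := by
    intro i hki
    refine lt_of_le_of_ne (hle i) fun heq => ?_
    by_cases hi : i ∈ Finset.range (n + 1)
    · have : i ∈ S := Finset.mem_filter.2 ⟨hi, heq.trans hφk⟩
      exact absurd (Finset.le_max' S i this) (not_le.2 hki)
    · have hi' : n < i := by
        rw [Finset.mem_range, not_lt] at hi
        exact hi
      have h0 : p.coeff i = 0 := Polynomial.coeff_eq_zero_of_natDegree_lt hi'
      have h1 : φ i = 0 := by simp only [hφ, h0, map_zero]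
      have h2 : φ n = 1 := by
        simp only [hφ]
        rw [hn, hmonic.coeff_natDegree, map_one, map_one]
      have h3 : φ n ≤ φ k := hle n
      rw [h2, ← heq, h1] at h3
      exact absurd h3 (not_le.2 zero_lt_one)
  have hφk0 : 0 < φ k := by
    have h2 : φ n = 1 := by
      simp only [hφ]
      rw [hn, hmonic.coeff_natDegree, map_one, map_one]
    exact lt_of_lt_of_le (by rw [h2]; exact zero_lt_one) (hle n)
  have hck0 : algebraMap K Ω (p.coeff k) ≠ 0 := by
    intro h0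
    simp only [hφ, h0, map_zero] at hφk0
    exact lt_irrefl _ hφk0
  set α : ℕ → Ω := fun i => algebraMap K Ω (p.coeff i / p.coeff k) with hα
  have hαv : ∀ i, W.valuation (α i) = φ i / φ k := by
    intro i
    simp only [hα, hφ, map_div₀]
  have hαW : ∀ i, α i ∈ W := by
    intro i
    rw [← W.valuation_le_one_iff, hαv]
    exact (div_le_one₀ hφk0).2 (hle i)
  obtain ⟨m, hm⟩ : ∃ m, n = k + m := ⟨n - k, by omega⟩
  have hrel : ∑ i ∈ Finset.range (k + (m + 1)), α i * x ^ i = 0 := by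
    have h1 : Polynomial.aeval x p = 0 := minpoly.aeval K x
    rw [Polynomial.aeval_eq_sum_range, ← hn, hm] at h1
    have h2 : ∑ i ∈ Finset.range (k + (m + 1)), α i * x ^ i =
        (algebraMap K Ω (p.coeff k))⁻¹ *
          ∑ i ∈ Finset.range (k + m + 1), p.coeff i • x ^ i := by
      rw [Finset.mul_sum]
      refine Finset.sum_congr rfl fun i _ => ?_
      simp only [hα, map_div₀, Algebra.smul_def]
      field_simp
    rw [h2, h1, mul_zero]
  have hαk : α k = 1 := by
    simp only [hα]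
    have : p.coeff k ≠ 0 := fun h0 => hck0 (by rw [h0, map_zero])
    rw [div_self this, map_one]
  have hhigh : ∀ j, j < m → α (k + (j + 1)) ∈ W.nonunits := by
    intro j _
    rw [W.mem_nonunits_iff, hαv]
    exact (div_lt_one₀ hφk0).2 (hlt _ (by omega))
  obtain ⟨b, c, hxb, hb, hV⟩ := S34CJ_loc_seq W hx hx0 α k m hrel hαk hhigh
  have hαV : ∀ V : ValuationSubring Ω,
      (∀ y : K, algebraMap K Ω y ∈ A → algebraMap K Ω y ∈ V) → ∀ i, α i ∈ V :=
    fun V hVA i => hVA _ ((h _).1 (hαW i))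
  exact ⟨b, fun V hVA => (hV V (hαV V hVA)).1, c, fun V hVA => (hV V (hαV V hVA)).2, hb, hxb⟩

end Elementwise

section Galois

variable {K Ω : Type*} [Field K] [Field Ω] [Algebra K Ω]

/-- The action of `Gal(Ω/K)` on `B`. -/
@[reducible] def S34CJ_action (A : ValuationSubring Ω) :
    MulSemiringAction (Ω ≃ₐ[K] Ω) ↥(S34CJ_B K A) where
  smul g b := ⟨g b.1, S34CJ_B_stable A g b.2⟩
  one_smul _ := Subtype.ext rfl
  mul_smul _ _ _ := Subtype.ext rfl
  smul_zero g := Subtype.ext (map_zero g)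
  smul_add g _ _ := Subtype.ext (map_add g _ _)
  smul_one g := Subtype.ext (map_one g)
  smul_mul g _ _ := Subtype.ext (map_mul g _ _)

/-- The base ring `B ∩ K`. -/
def S34CJ_R0 (K : Type*) {Ω : Type*} [Field K] [Field Ω] [Algebra K Ω]
    (A : ValuationSubring Ω) : Subring Ω :=
  S34CJ_B K A ⊓ (algebraMap K Ω).range

theorem S34CJ_R0_le (A : ValuationSubring Ω) : S34CJ_R0 K A ≤ S34CJ_B K A := inf_le_left

/-- The prime of `B` cut out by a valuation subring `V ⊇ B`. -/
def S34CJ_prime (A V : ValuationSubring Ω)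
    (hV : ∀ x : K, algebraMap K Ω x ∈ A → algebraMap K Ω x ∈ V) : Ideal ↥(S34CJ_B K A) where
  carrier := {b | (b : Ω) ∈ V.nonunits}
  add_mem' := fun ha hb => V.nonunits.add_mem ha hb
  zero_mem' := V.nonunits.zero_mem
  smul_mem' := by
    intro c b hb
    show ((c : Ω) * (b : Ω)) ∈ V.nonunits
    have hb' : V.valuation (b : Ω) < 1 := (V.mem_nonunits_iff).1 hb
    have hc' : V.valuation (c : Ω) ≤ 1 := (V.valuation_le_one_iff _).2 (S34CJ_B_le A V hV c.2)
    rw [V.mem_nonunits_iff, map_mul, mul_comm]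
    exact mul_lt_one_of_lt_of_le hb' hc'

theorem S34CJ_mem_prime (A V : ValuationSubring Ω)
    (hV : ∀ x : K, algebraMap K Ω x ∈ A → algebraMap K Ω x ∈ V) (b : ↥(S34CJ_B K A)) :
    b ∈ S34CJ_prime A V hV ↔ (b : Ω) ∈ V.nonunits := Iff.rfl

theorem S34CJ_prime_isPrime (A V : ValuationSubring Ω)
    (hV : ∀ x : K, algebraMap K Ω x ∈ A → algebraMap K Ω x ∈ V) :
    (S34CJ_prime A V hV).IsPrime := by
  refine ⟨fun htop => ?_, fun {a b} hab => ?_⟩
  · have h1 : (1 : ↥(S34CJ_B K A)) ∈ S34CJ_prime A V hV := by rw [htop]; trivial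
    have h2 : V.valuation (1 : Ω) < 1 := (V.mem_nonunits_iff).1 h1
    rw [map_one] at h2
    exact lt_irrefl _ h2
  · have h1 : V.valuation ((a : Ω) * (b : Ω)) < 1 := (V.mem_nonunits_iff).1 hab
    have ha : V.valuation (a : Ω) ≤ 1 := (V.valuation_le_one_iff _).2 (S34CJ_B_le A V hV a.2)
    have hb : V.valuation (b : Ω) ≤ 1 := (V.valuation_le_one_iff _).2 (S34CJ_B_le A V hV b.2)
    by_contra hcon
    rw [not_or] at hcon
    have ha1 : V.valuation (a : Ω) = 1 :=
      le_antisymm ha (not_lt.1 fun h => hcon.1 ((V.mem_nonunits_iff).2 h))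
    have hb1 : V.valuation (b : Ω) = 1 :=
      le_antisymm hb (not_lt.1 fun h => hcon.2 ((V.mem_nonunits_iff).2 h))
    rw [map_mul, ha1, hb1, mul_one] at h1
    exact lt_irrefl _ h1

/-- **Conjugacy of the extensions of a valuation** to a Galois extension `Ω / K`: two valuation
subrings of `Ω` with the same restriction to `K` are conjugate under `Gal(Ω/K)`. -/
theorem S34CJ_conj [IsGalois K Ω] (A W : ValuationSubring Ω)
    (h : ∀ x : K, algebraMap K Ω x ∈ W ↔ algebraMap K Ω x ∈ A) :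
    ∃ σ : Ω ≃ₐ[K] Ω, ∀ x : Ω, x ∈ W ↔ σ x ∈ A := by
  classical
  letI act : MulSemiringAction (Ω ≃ₐ[K] Ω) ↥(S34CJ_B K A) := S34CJ_action A
  letI alg : Algebra ↥(S34CJ_R0 K A) ↥(S34CJ_B K A) :=
    (Subring.inclusion (S34CJ_R0_le A)).toAlgebra
  haveI : SMulCommClass (Ω ≃ₐ[K] Ω) ↥(S34CJ_R0 K A) ↥(S34CJ_B K A) := ⟨fun g a b => by
    apply Subtype.ext
    show g ((a : Ω) * (b : Ω)) = (a : Ω) * g (b : Ω)
    obtain ⟨y, hy⟩ := a.2.2
    rw [map_mul, ← hy, g.commutes]⟩
  haveI : Algebra.IsInvariant ↥(S34CJ_R0 K A) ↥(S34CJ_B K A) (Ω ≃ₐ[K] Ω) := ⟨fun b hb => by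
    have h1 : (b : Ω) ∈ Set.range (algebraMap K Ω) := by
      rw [InfiniteGalois.mem_range_algebraMap_iff_fixed]
      intro f
      exact congrArg Subtype.val (hb f)
    exact ⟨⟨b, ⟨b.2, h1⟩⟩, Subtype.ext rfl⟩⟩
  letI : TopologicalSpace ↥(S34CJ_B K A) := ⊥
  haveI : DiscreteTopology ↥(S34CJ_B K A) := ⟨rfl⟩
  haveI : ContinuousSMul (Ω ≃ₐ[K] Ω) ↥(S34CJ_B K A) := by
    rw [continuousSMul_iff_stabilizer_isOpen]
    intro b
    have h1 := stabilizer_isOpen_of_isIntegral (K := K) (L := Ω) (b : Ω)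
    convert h1 using 1
    ext g
    simp only [SetLike.mem_coe, MulAction.mem_stabilizer_iff]
    constructor
    · intro hg; exact congrArg Subtype.val hg
    · intro hg; exact Subtype.ext hg
  have hA : ∀ x : K, algebraMap K Ω x ∈ A → algebraMap K Ω x ∈ A := fun _ hx => hx
  have hW : ∀ x : K, algebraMap K Ω x ∈ A → algebraMap K Ω x ∈ W := fun x hx => (h x).2 hx
  haveI := S34CJ_prime_isPrime A A hA
  haveI := S34CJ_prime_isPrime A W hW
  have hPQ : (S34CJ_prime A W hW).under ↥(S34CJ_R0 K A) =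
      (S34CJ_prime A A hA).under ↥(S34CJ_R0 K A) := by
    ext a
    show (a : Ω) ∈ W.nonunits ↔ (a : Ω) ∈ A.nonunits
    obtain ⟨y, hy⟩ := a.2.2
    rw [W.mem_nonunits_iff_or, A.mem_nonunits_iff_or, ← hy, ← map_inv₀, h]
  obtain ⟨g, hg⟩ := Algebra.IsInvariant.exists_smul_of_under_eq_of_profinite
    (A := ↥(S34CJ_R0 K A)) (G := Ω ≃ₐ[K] Ω) (S34CJ_prime A W hW) (S34CJ_prime A A hA) hPQ
  have key : ∀ b : ↥(S34CJ_B K A), (b : Ω) ∈ W.nonunits ↔ g (b : Ω) ∈ A.nonunits := by
    intro b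
    have h1 : g • b ∈ S34CJ_prime A A hA ↔ b ∈ S34CJ_prime A W hW := by
      rw [hg, Ideal.smul_mem_pointwise_smul_iff]
    exact h1.symm
  refine ⟨g, fun x => ⟨fun hx => ?_, fun hx => ?_⟩⟩
  · obtain ⟨b, hb, c, hc, hbW, hxb⟩ := S34CJ_loc A W h hx
    have hgb : g b ∉ A.nonunits := fun hcon => hbW ((key ⟨b, hb⟩).2 hcon)
    rw [A.mem_nonunits_iff_or, not_or, not_not] at hgb
    have hgc : g c ∈ A := S34CJ_B_le A A hA (S34CJ_B_stable A g hc)
    have : g x = g c * (g b)⁻¹ := by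
      rw [← hxb, map_mul, mul_assoc, mul_inv_cancel₀ hgb.1, mul_one]
    rw [this]
    exact A.mul_mem _ _ hgc hgb.2
  · obtain ⟨b, hb, c, hc, hbA, hxb⟩ := S34CJ_loc (K := K) A A (fun _ => Iff.rfl) hx
    have hb' : g.symm b ∈ S34CJ_B K A := S34CJ_B_stable A g.symm hb
    have hc' : g.symm c ∈ S34CJ_B K A := S34CJ_B_stable A g.symm hc
    have hgb : g.symm b ∉ W.nonunits := fun hcon => hbA (by
      have := (key ⟨g.symm b, hb'⟩).1 hcon
      simpa using this)
    rw [W.mem_nonunits_iff_or, not_or, not_not] at hgb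
    have hcW : g.symm c ∈ W := S34CJ_B_le A W hW hc'
    have : x = g.symm c * (g.symm b)⁻¹ := by
      rw [← hxb, map_mul, g.symm_apply_apply, mul_assoc, mul_inv_cancel₀ hgb.1, mul_one]
    rw [this]
    exact W.mul_mem _ _ hcW hgb.2

/-- nonunits are transported by an isomorphism of valuation subrings. -/
theorem S34CJ_nonunits_iff {Ω' : Type*} [Field Ω'] (A W : ValuationSubring Ω') (σ : Ω' ≃+* Ω')
    (h : ∀ x : Ω', x ∈ W ↔ σ x ∈ A) (y : Ω') : y ∈ W.nonunits ↔ σ y ∈ A.nonunits := by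
  rw [W.mem_nonunits_iff_or, A.mem_nonunits_iff_or, h, map_inv₀, map_eq_zero_iff σ σ.injective]

end Galois

section Qbar

local notation "Qb" => AlgebraicClosure ℚ

/-- **Conjugacy inside `ℚ̄`**: two valuation subrings of `ℚ̄` with the same restriction to the
intermediate field `K1` are conjugate by an element of `G_ℚ` fixing `K1` pointwise. -/
theorem S34CJ_conj_Qb (K1 : IntermediateField ℚ Qb) (A W : ValuationSubring Qb)
    (h : ∀ x ∈ K1, x ∈ W ↔ x ∈ A) :
    ∃ σ : Qb ≃ₐ[ℚ] Qb, (∀ x ∈ K1, σ x = x) ∧ ∀ x : Qb, x ∈ W ↔ σ x ∈ A := by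
  haveI : Algebra.IsAlgebraic ℚ Qb := AlgebraicClosure.isAlgebraic ℚ
  haveI : IsAlgClosure ℚ Qb := ⟨inferInstance, inferInstance⟩
  haveI : IsGalois ℚ Qb := IsAlgClosure.isGalois ℚ Qb
  haveI : IsGalois ↥K1 Qb := IsGalois.tower_top_intermediateField K1
  obtain ⟨σ, hσ⟩ := S34CJ_conj (K := ↥K1) A W (fun x => h (x : Qb) x.2)
  exact ⟨σ.restrictScalars ℚ, fun x hx => σ.commutes ⟨x, hx⟩, hσ⟩

/-- **The centred value map.**  Let `ev : X → ℚ̄` be a ring homomorphism whose kernel is contained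
in the maximal ideal `m` of `X`, such that every element of `A ∩ K1` is a value and every nonunit
of `A ∩ K1` is the value of an element of `m`.  Then `ev` can be twisted by an element `σ` of
`G_ℚ` fixing `K1` such that the values of `σ ∘ ev` lie in `A` and `m` is the preimage of the
nonunits of `A`. -/
theorem S34CJ_centred (K1 : IntermediateField ℚ Qb) (A : ValuationSubring Qb) {X : Type*}
    [CommRing X] (ev : X →+* Qb) (m : Ideal X) (hm : m.IsMaximal) (hker : RingHom.ker ev ≤ m)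
    (hO : ∀ c ∈ K1, c ∈ A → ∃ a : X, ev a = c)
    (hmO : ∀ c ∈ K1, c ∈ A.nonunits → ∃ a ∈ m, ev a = c) :
    ∃ σ : Qb ≃ₐ[ℚ] Qb, (∀ x ∈ K1, σ x = x) ∧ (∀ a : X, σ (ev a) ∈ A) ∧
      ∀ a : X, (a ∈ m ↔ σ (ev a) ∈ A.nonunits) := by
  classical
  set I : Ideal ↥ev.range := Ideal.map ev.rangeRestrict m with hI
  have hmemI : ∀ a ∈ m, ev.rangeRestrict a ∈ I := fun a ha => Ideal.mem_map_of_mem _ ha
  have hItop : I ≠ ⊤ := by
    intro htop
    have h1 : (1 : ↥ev.range) ∈ I := by rw [htop]; trivial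
    rw [hI, Ideal.mem_map_iff_of_surjective _ ev.rangeRestrict_surjective] at h1
    obtain ⟨a, ha, ha1⟩ := h1
    have h2 : ev a = 1 := congrArg Subtype.val ha1
    have h3 : a - 1 ∈ RingHom.ker ev := by
      rw [RingHom.mem_ker, map_sub, h2, map_one, sub_self]
    have h4 : (1 : X) ∈ m := by
      have := m.sub_mem ha (hker h3)
      simpa using this
    exact hm.ne_top ((Ideal.eq_top_iff_one m).2 h4)
  obtain ⟨W, hW, hWI⟩ := Ideal.image_subset_nonunits_valuationSubring I hItop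
  have hevW : ∀ a : X, ev a ∈ W := fun a => hW ⟨a, rfl⟩
  have hmW : ∀ a ∈ m, ev a ∈ W.nonunits := fun a ha =>
    hWI ⟨ev.rangeRestrict a, hmemI a ha, rfl⟩
  have hWA : ∀ c ∈ K1, c ∈ W ↔ c ∈ A := by
    intro c hc
    constructor
    · intro hcW
      by_contra hcA
      have hc0 : c ≠ 0 := by
        rintro rfl
        exact hcA A.zero_mem
      have h1 : c⁻¹ ∈ A.nonunits := by
        rw [A.inv_mem_nonunits_iff]
        exact Or.inr hcA
      obtain ⟨a, ha, hac⟩ := hmO c⁻¹ (K1.inv_mem hc) h1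
      have h2 : c⁻¹ ∈ W.nonunits := hac ▸ hmW a ha
      rw [W.inv_mem_nonunits_iff] at h2
      rcases h2 with h2 | h2
      exacts [hc0 h2, h2 hcW]
    · intro hcA
      obtain ⟨a, hac⟩ := hO c hc hcA
      exact hac ▸ hevW a
  obtain ⟨σ, hσK, hσ⟩ := S34CJ_conj_Qb K1 A W hWA
  have hnu : ∀ y : Qb, y ∈ W.nonunits ↔ σ y ∈ A.nonunits :=
    fun y => S34CJ_nonunits_iff A W σ.toRingEquiv hσ y
  refine ⟨σ, hσK, fun a => (hσ _).1 (hevW a), fun a => ⟨fun ha => (hnu _).1 (hmW a ha),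
    fun ha => ?_⟩⟩
  by_contra ham
  obtain ⟨y, i, hi, hyi⟩ := hm.exists_inv ham
  have h1 : σ (ev y) * σ (ev a) + σ (ev i) = 1 := by
    rw [← map_mul, ← map_add, ← map_mul, ← map_add, hyi, map_one, map_one]
  have h2 : σ (ev i) ∈ A.nonunits := (hnu _).1 (hmW i hi)
  have h3 : σ (ev y) * σ (ev a) ∈ A.nonunits := by
    have hy' : A.valuation (σ (ev y)) ≤ 1 := (A.valuation_le_one_iff _).2 ((hσ _).1 (hevW y))
    have ha' : A.valuation (σ (ev a)) < 1 := (A.mem_nonunits_iff).1 ha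
    rw [A.mem_nonunits_iff, map_mul, mul_comm]
    exact mul_lt_one_of_lt_of_le ha' hy'
  have h4 : (1 : Qb) ∈ A.nonunits := h1 ▸ A.nonunits.add_mem h3 h2
  rw [A.mem_nonunits_iff, map_one] at h4
  exact lt_irrefl _ h4

end Qbar

end Fermat.Agent.S34_helper19_CONJ
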