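import Mathlib
import Fermat.Agent.S34_Contracts2
import Fermat.Agent.S34_helper19_CONJ
import Fermat.Agent.S37_helper15_HEX
import Fermat.Agent.S37_helper5_LEVEL

/-!
# S34, X-PLACES (a): the centred conjugate of a place (helper19)

Let `P0` be a place of `F̄ / ℚ̄` with a value map `ev : X → ℚ̄` on the chart `X` (every `a ∈ X` has
the value `ev a` at `P0`), whose kernel is contained in the maximal ideal `m` of `X`.  Then a
conjugate `P'` of `P0` under `Gal(ℚ̄ / K1)` is centred at `m` with respect to the given valuation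
ring `A` of `ℚ̄` (`S34K_Centred`), and `P'` has the same orders as `P0` on the functions over `K1`.
-/

set_option autoImplicit false
set_option linter.style.haveILetI false
set_option linter.unusedSectionVars false
set_option linter.unusedVariables false

open AlgebraicCurve ModularCurve HahnSeries IntermediateField
open Fermat.Agent.S18_helper19_PLACEMOD Fermat.Agent.S18_helper19_PLACEUNR
  Fermat.Agent.S37_helper4_B1Defs Fermat.Agent.S37_helper5_LEVEL Fermat.Agent.S37_helper15_HEX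
  Fermat.Agent.S34_Contracts Fermat.Agent.S34_helper19_CONJ

noncomputable section

namespace Fermat.Agent.S34_helper19_CENT

local notation "Qb" => AlgebraicClosure ℚ

variable (N : ℕ) [NeZero N] (K1 : IntermediateField ℚ Qb)

/-- the elements `z` of `F̄` with `z = 0 ∨ 0 < ord_P z` are the non-units of the place. -/
theorem S34CT_isN (P : Place Qb (modularFunctionFieldBar N)) {z : modularFunctionFieldBar N}
    (h : z = 0 ∨ 0 < P.ord z) : S18A3_IsN P z := by
  rcases h with h | h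
  · rw [h]
    exact ⟨P.toValuationSubring.zero_mem, Or.inl rfl⟩
  · exact S18A3_isN_of_ord_pos P h

/-- **Uniqueness of the value** of a function at a place. -/
theorem S34CT_valueAt_unique (P : Place Qb (modularFunctionFieldBar N))
    {a : LaurentSeries K1} {c c' : Qb} (h : S34K_ValueAt N K1 P a c)
    (h' : S34K_ValueAt N K1 P a c') : c = c' := by
  obtain ⟨z, hz, hzP⟩ := h
  obtain ⟨z', hz', hzP'⟩ := h'
  have hN : S18A3_IsN P (z' - z) := S37HEX_isN_sub P (S34CT_isN N P hzP') (S34CT_isN N P hzP)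
  have hw : z' - z = algebraMap Qb (modularFunctionFieldBar N) (c - c') := by
    apply Subtype.ext
    show (z' : LaurentSeries Qb) - (z : LaurentSeries Qb) =
      algebraMap Qb (LaurentSeries Qb) (c - c')
    rw [hz, hz', ← Fermat.Agent.S18_helper26_CONST.S18P15_C_eq_algebraMap, map_sub]
    ring
  rw [hw] at hN
  have := S37HEX_const_eq_zero_of_isN P hN
  exact sub_eq_zero.1 this

/-- Transport of a value by `σ ∈ Gal(ℚ̄ / K1)`: functions over `K1` are fixed. -/
theorem S34CT_valueAt_gal (σ : Qb ≃ₐ[K1] Qb) (P : Place Qb (modularFunctionFieldBar N))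
    {a : LaurentSeries K1} {c : Qb} (h : S34K_ValueAt N K1 P a c) :
    S34K_ValueAt N K1 (S37LEVEL_gal N K1 σ • P) a (σ c) := by
  obtain ⟨z, hz, hzP⟩ := h
  refine ⟨S37LEVEL_gal N K1 σ • z, S37LEVEL_coe_gal_smul_sub N K1 σ a c z hz, ?_⟩
  rcases hzP with h0 | h0
  · left
    rw [h0, smul_zero]
  · right
    rw [SemilinearAut.ord_smul]
    exact h0

/-- `Gal(ℚ̄ / K1)` does not change the orders of the functions over `K1`. -/
theorem S34CT_ordP_gal (σ : Qb ≃ₐ[K1] Qb) (P : Place Qb (modularFunctionFieldBar N))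
    (x : LaurentSeries K1) :
    S37B1_ordP N K1 (S37LEVEL_gal N K1 σ • P) x = S37B1_ordP N K1 P x := by
  by_cases hx : x ∈ modularFunctionFieldFullC K1 N
  · rw [S37B1_ordP, dif_pos hx, S37B1_ordP, dif_pos hx]
    have h1 : S37LEVEL_gal N K1 σ • (S18A3C_inc N (algebraMap K1 Qb) ⟨x, hx⟩) =
        S18A3C_inc N (algebraMap K1 Qb) ⟨x, hx⟩ :=
      S37LEVEL_gal_smul_eq N K1 σ x _ (S18A3C_inc_coe N (algebraMap K1 Qb) ⟨x, hx⟩)
    have h2 := SemilinearAut.ord_smul (S37LEVEL_gal N K1 σ) P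
      (S18A3C_inc N (algebraMap K1 Qb) ⟨x, hx⟩)
    rw [h1] at h2
    exact h2
  · rw [S37B1_ordP, dif_neg hx, S37B1_ordP, dif_neg hx]

/-- **The centred conjugate.** -/
theorem S34CT_centred (A : ValuationSubring Qb) (X : Subring (LaurentSeries K1)) (m : Ideal X)
    (hm : m.IsMaximal) (P0 : Place Qb (modularFunctionFieldBar N)) (ev : X →+* Qb)
    (hev : ∀ a : X, S34K_ValueAt N K1 P0 (a : LaurentSeries K1) (ev a))
    (hker : RingHom.ker ev ≤ m)
    (hO : ∀ c ∈ K1, c ∈ A → ∃ a : X, ev a = c)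
    (hmO : ∀ c ∈ K1, c ∈ A.nonunits → ∃ a ∈ m, ev a = c) :
    ∃ P' : Place Qb (modularFunctionFieldBar N), S34K_Centred N A K1 X m P' ∧
      (∀ x : LaurentSeries K1, S37B1_ordP N K1 P' x = S37B1_ordP N K1 P0 x) ∧
      ∃ σ : Qb ≃ₐ[K1] Qb, P' = S37LEVEL_gal N K1 σ • P0 ∧
        ∀ a : X, S34K_ValueAt N K1 P' (a : LaurentSeries K1) (σ (ev a)) := by
  obtain ⟨σ, hσK, hσA, hσm⟩ := S34CJ_centred K1 A ev m hm hker hO hmO
  let σ' : Qb ≃ₐ[K1] Qb := AlgEquiv.ofRingEquiv (f := σ.toRingEquiv) (fun x => hσK x x.2)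
  have hσσ' : ∀ y : Qb, σ' y = σ y := fun _ => rfl
  have hval : ∀ a : X, S34K_ValueAt N K1 (S37LEVEL_gal N K1 σ' • P0) (a : LaurentSeries K1)
      (σ' (ev a)) := fun a => S34CT_valueAt_gal N K1 σ' P0 (hev a)
  refine ⟨S37LEVEL_gal N K1 σ' • P0, ⟨fun a => ⟨σ' (ev a), hσA a, hval a⟩, fun a c _ hc => ?_⟩,
    fun x => S34CT_ordP_gal N K1 σ' P0 x, σ', rfl, hval⟩
  have : c = σ' (ev a) := S34CT_valueAt_unique N K1 _ hc (hval a)
  rw [this]
  exact hσm a

end Fermat.Agent.S34_helper19_CENT
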