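import Mathlib
import Fermat.Agent.S34_Contracts2
import Fermat.Agent.S34_helper19_CENT
import Fermat.Agent.S34_helper17_PLW
import Fermat.Agent.S34_helper2_HARTOGSK

/-!
# S34, X-PLACES (a): the contract `S34K_PlacesAt` (helper19)

Every horizontal prime `𝔭 ≤ m` of a chart `X` whose local ring is a discrete valuation ring
carries a place `P'` of `F̄ / ℚ̄` centred at `m`, and a function over `K1` of order `0` at `P'`
lies in the local ring at `𝔭`.

* `S34PA_valueMap` : the value map `X → ℚ̄` of a place which is nonnegative on `X`;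
* `S34PA_placesAt` : the contract `S34K_PlacesAt`, for every subring `X` of `K1((q))` with
  `O ≤ X ⊆ F1` and `Frac X = F1`;
* `S34PA_chart`, `S34PA_A0`, `S34PA_Ainf` : the contract for the charts of a two-valuation setup.

The place over `𝔭` is helper17's `S34PW_place_of_dvr`; it is made centred at `m` by a
conjugation under `Gal(ℚ̄ / K1)` (`S34CT_centred`).
-/

set_option autoImplicit false
set_option linter.style.haveILetI false
set_option linter.unusedSectionVars false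
set_option linter.unusedVariables false
set_option synthInstance.maxHeartbeats 400000
set_option maxHeartbeats 1600000

open AlgebraicCurve ModularCurve HahnSeries IntermediateField

noncomputable section

namespace Fermat.Agent.S34_helper19_PLACESAT

open Fermat.Agent.S18_helper9_CDefs Fermat.Agent.S18_helper25_COREDefs
  Fermat.Agent.S18_helper3_LOCRING Fermat.Agent.S37_helper4_B1Defs
  Fermat.Agent.S37_helper5_LEVEL Fermat.Agent.S34_Contracts
  Fermat.Agent.S18_helper19_PLACEMOD Fermat.Agent.S18_helper19_PLACEUNR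
  Fermat.Agent.S34_helper2_HARTOGS Fermat.Agent.S34_helper2_HARTOGSK
  Fermat.Agent.S37_helper15_HEX Fermat.Agent.S37_helper15_HEXF
  Fermat.Agent.S34_helper17_PLW Fermat.Agent.S34_helper19_CENT
  Fermat.Agent.S34_helper12_CDefs Fermat.Agent.S24_helper6_A2

local notation "Qb" => AlgebraicClosure ℚ

section Generic

variable (N : ℕ) [NeZero N] (K1 : IntermediateField ℚ Qb)

/-- the value of a constant. -/
theorem S34PA_valueAt_C (P : Place Qb (modularFunctionFieldBar N)) (c : K1) :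
    S34K_ValueAt N K1 P (HahnSeries.C c : LaurentSeries K1) ((c : K1) : Qb) := by
  refine ⟨0, ?_, Or.inl rfl⟩
  show ((0 : modularFunctionFieldBar N) : LaurentSeries Qb) = _
  rw [HahnSeries.C_apply, coeffMap_single, HahnSeries.C_apply]
  show (0 : LaurentSeries Qb) = _
  rw [eq_comm, sub_eq_zero]
  rfl

/-- **The value map of a place which is nonnegative on `X`**, with values in `ℚ̄`. -/
theorem S34PA_valueMap (X : Subring (LaurentSeries K1))
    (hXF : ∀ a ∈ X, a ∈ modularFunctionFieldFullC K1 N)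
    (P : Place Qb (modularFunctionFieldBar N))
    (hnn : ∀ a : X, (a : LaurentSeries K1) ≠ 0 → 0 ≤ S37B1_ordP N K1 P a) :
    ∃ ev : X →+* Qb, (∀ a : X, S34K_ValueAt N K1 P (a : LaurentSeries K1) (ev a)) ∧
      ∀ a : X, (a : LaurentSeries K1) ≠ 0 → (ev a = 0 ↔ 0 < S37B1_ordP N K1 P a) := by
  set f : X →+* modularFunctionFieldBar N :=
    (S18A3C_inc N (algebraMap K1 Qb)).comp (S37HEXF_incl N X hXF) with hf
  have hfmem : ∀ x : X, f x ∈ P.toValuationSubring := by
    intro x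
    by_cases hx : (x : LaurentSeries K1) = 0
    · have hx0 : x = 0 := Subtype.ext hx
      rw [hx0, map_zero]; exact P.toValuationSubring.zero_mem
    · apply mem_of_ord_nonneg P
      have := hnn x hx
      rwa [S37HEXF_ordP_eq N K1 P X hXF x] at this
  have hzeroN : S18A3_IsN P (0 : modularFunctionFieldBar N) :=
    ⟨P.toValuationSubring.zero_mem, Or.inl rfl⟩
  have hval : ∀ x : X, ∃ a : Qb, S18A3_IsN P
      (f x - algebraMap Qb (modularFunctionFieldBar N) ((RingHom.id Qb) a)) := by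
    intro x
    haveI := (Fermat.Agent.S24_helper23_DEG.DEG N).1
    have halg : Algebra.IsAlgebraic Qb⟮Fermat.Agent.S24.jElt N⟯ (modularFunctionFieldBar N) :=
      Algebra.IsAlgebraic.of_finite _ _
    obtain ⟨c, hc⟩ :=
      Fermat.Agent.S24_helper15_A1.exists_const_sub_mem (Fermat.Agent.S24.jElt N) halg P (f x) (hfmem x)
    refine ⟨c, ?_⟩
    rcases hc with hc | hc
    · exact S18A3_isN_of_ord_pos P hc
    · have h0 : f x - algebraMap Qb (modularFunctionFieldBar N) ((RingHom.id Qb) c) = 0 :=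
        sub_eq_zero.2 hc
      rw [h0]
      exact hzeroN
  have hO : ∀ c : ℤ, f (algebraMap ℤ X c) =
      algebraMap Qb (modularFunctionFieldBar N) ((RingHom.id Qb) (algebraMap ℤ Qb c)) := by
    intro c
    simp
  obtain ⟨ψ, -, hψv, hψ0⟩ := S37HEX_exists_value_map (O1 := ℤ) P (RingHom.id Qb) f hval hO
  refine ⟨ψ, fun a => ?_, fun a ha => ?_⟩
  · refine ⟨f a - algebraMap Qb (modularFunctionFieldBar N) (ψ a), ?_, ?_⟩
    · show ((f a : modularFunctionFieldBar N) : LaurentSeries Qb) -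
        algebraMap Qb (LaurentSeries Qb) (ψ a) = _
      rw [← Fermat.Agent.S18_helper26_CONST.S18P15_C_eq_algebraMap]
      congr 1
    · by_cases h0 : f a - algebraMap Qb (modularFunctionFieldBar N) (ψ a) = 0
      · exact Or.inl h0
      · exact Or.inr (S18A3_ord_pos_of_isN P (hψv a) h0)
  · have hfa : f a ≠ 0 := by
      intro h0
      apply ha
      have h1 : S37HEXF_incl N X hXF a = 0 :=
        (S18A3C_inc N (algebraMap K1 Qb)).injective (by rw [map_zero]; exact h0)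
      exact congrArg (fun z : modularFunctionFieldFullC K1 N => (z : LaurentSeries K1)) h1
    rw [hψ0 a, S37HEXF_ordP_eq N K1 P X hXF a]
    exact ⟨fun h => S18A3_ord_pos_of_isN P h hfa, fun h => S18A3_isN_of_ord_pos P h⟩

end Generic

section Concrete

variable (N : ℕ) [NeZero N] (A : ValuationSubring Qb) (K1 : IntermediateField ℚ Qb)
  [IsDiscreteValuationRing (S18K_O1 A K1)]

/-- **X-PLACES (a)**, the contract `S34K_PlacesAt`, for a subring `X` of `K1((q))` with
`O ≤ X ⊆ F1` and `Frac X = F1`. -/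
theorem S34PA_placesAt (X : Subring (LaurentSeries K1))
    (hXF : ∀ a ∈ X, a ∈ S18K_F1 K1 N)
    (hfrac : ∀ x ∈ S18K_F1 K1 N, ∃ a b : X, b ≠ 0 ∧ x * (b : LaurentSeries K1) = a)
    (hO : S18K_O A K1 ≤ X) : S34K_PlacesAt N A K1 X := by
  intro hπ m hm hπm 𝔭 h𝔭 h𝔭m h𝔭bot hπ𝔭 hdvr
  obtain ⟨P0, hnn, hpos, hzero⟩ := S34PW_place_of_dvr N K1 X hXF hfrac 𝔭
    (S34PW_const_mem_locRing A K1 X hO hπ 𝔭 hπ𝔭) hdvr
  have hnnX : ∀ a : X, (a : LaurentSeries K1) ≠ 0 → 0 ≤ S37B1_ordP N K1 P0 a :=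
    fun a ha => hnn a (le_locRing X 𝔭 a.2) ha
  obtain ⟨ev, hev, hev0⟩ := S34PA_valueMap N K1 X hXF P0 hnnX
  -- the kernel of the value map is `𝔭`
  have hker : RingHom.ker ev ≤ m := by
    intro a ha
    rw [RingHom.mem_ker] at ha
    by_cases ha0 : (a : LaurentSeries K1) = 0
    · have : a = 0 := Subtype.ext ha0
      rw [this]
      exact m.zero_mem
    · exact h𝔭m ((hpos a ha0).1 ((hev0 a ha0).1 ha))
  -- the values of the constants
  have hevC : ∀ (c : K1) (hc : (HahnSeries.C c : LaurentSeries K1) ∈ X),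
      ev ⟨HahnSeries.C c, hc⟩ = ((c : K1) : Qb) := fun c hc =>
    S34CT_valueAt_unique N K1 P0 (hev ⟨HahnSeries.C c, hc⟩) (S34PA_valueAt_C N K1 P0 c)
  have hCX : ∀ o : S18K_O1 A K1, (HahnSeries.C (o : K1) : LaurentSeries K1) ∈ X :=
    fun o => hO (S34PW_C_mem_O A K1 o)
  have hO' : ∀ c : Qb, c ∈ K1 → c ∈ A → ∃ a : X, ev a = c := by
    intro c hcK hcA
    have hcO : (⟨c, hcK⟩ : K1) ∈ S18K_O1 A K1 := (S18K_mem_O1 A K1 _).2 hcA
    exact ⟨⟨HahnSeries.C (⟨c, hcK⟩ : K1), hCX ⟨⟨c, hcK⟩, hcO⟩⟩, hevC _ _⟩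
  have hmO : ∀ c : Qb, c ∈ K1 → c ∈ A.nonunits → ∃ a ∈ m, ev a = c := by
    intro c hcK hcn
    have hcA : c ∈ A := A.nonunits_subset hcn
    have hcO : (⟨c, hcK⟩ : K1) ∈ S18K_O1 A K1 := (S18K_mem_O1 A K1 _).2 hcA
    have hmax : (⟨⟨c, hcK⟩, hcO⟩ : S18K_O1 A K1) ∈ IsLocalRing.maximalIdeal (S18K_O1 A K1) :=
      (S34PW_nonunits_iff A K1 ⟨⟨c, hcK⟩, hcO⟩).1 hcn
    obtain ⟨y, hy⟩ := (S34PW_mem_maximalIdeal_iff A K1 _).1 hmax
    have hy' : (⟨c, hcK⟩ : K1) = (((S18K_D A K1).π : S18K_O1 A K1) : K1) * (y : K1) := by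
      have := congrArg Subtype.val hy
      simpa using this
    refine ⟨⟨S18K_π A K1, hπ⟩ * ⟨HahnSeries.C (y : K1), hCX y⟩, Ideal.mul_mem_right _ _ hπm, ?_⟩
    have e : (⟨S18K_π A K1, hπ⟩ * ⟨HahnSeries.C (y : K1), hCX y⟩ : X) =
        ⟨HahnSeries.C (⟨c, hcK⟩ : K1), hCX ⟨⟨c, hcK⟩, hcO⟩⟩ := by
      apply Subtype.ext
      show S18K_π A K1 * HahnSeries.C (y : K1) = HahnSeries.C (⟨c, hcK⟩ : K1)
      rw [hy', map_mul]
      rfl
    rw [e]
    exact hevC _ _
  obtain ⟨P', hcent, hord, -⟩ := S34CT_centred N K1 A X m hm P0 ev hev hker hO' hmO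
  refine ⟨P', hcent, fun x hxF hx0 hx => hzero x hxF hx0 ?_⟩
  rw [← hord x]
  exact hx

/-- **X-PLACES (a)** for a chart of a two-valuation setup. -/
theorem S34PA_chart {V2 A0 Ainf X : Subring (LaurentSeries K1)} {j x : LaurentSeries K1}
    (S : S34C_Setup2 (S18K_O A K1) (S18K_π A K1) j (S18K_F1 K1 N) (S18K_V A K1 N) V2 A0 Ainf)
    (hC : Chart (S18K_O A K1) (S18K_π A K1) x (S18K_F1 K1 N) (S18K_V A K1 N ⊓ V2) X) :
    S34K_PlacesAt N A K1 X :=
  S34PA_placesAt N A K1 X (S34HK_le_F1 hC) (S34HK_frac S hC) (S34HK_O_le S hC)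

/-- **X-PLACES (a)** on the finite chart. -/
theorem S34PA_A0 {V2 : Subring (LaurentSeries K1)} {j : LaurentSeries K1}
    (S : S34C_Setup2 (S18K_O A K1) (S18K_π A K1) j (S18K_F1 K1 N) (S18K_V A K1 N) V2
      (S18K_A0 A K1 N) (S18K_Ainf A K1 N)) :
    S34K_PlacesAt N A K1 (S18K_A0 A K1 N) :=
  S34PA_chart N A K1 S S.chart0

/-- **X-PLACES (a)** on the chart at infinity. -/
theorem S34PA_Ainf {V2 : Subring (LaurentSeries K1)} {j : LaurentSeries K1}
    (S : S34C_Setup2 (S18K_O A K1) (S18K_π A K1) j (S18K_F1 K1 N) (S18K_V A K1 N) V2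
      (S18K_A0 A K1 N) (S18K_Ainf A K1 N)) :
    S34K_PlacesAt N A K1 (S18K_Ainf A K1 N) :=
  S34PA_chart N A K1 S S.chartInf

end Concrete

end Fermat.Agent.S34_helper19_PLACESAT
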