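import Mathlib
import Fermat.Agent.S34_helper19_SMOOTH
import Fermat.Agent.S34_helper25_Defs

/-!
# S34: P5-SMOOTH in the vocabulary of the X-D contract (helper19)

`Fermat.Agent.S34_helper25_Defs.S34XD_SmoothLift O π F1 V1 V2 A` (the black box consumed by X-D)
holds for every chart of an `S34C_Setup2`, for both orders of the two valuation rings.  Hence the
four `S34XD_SmoothLift` conjuncts of `S34XD_Contract` follow from the field `setup` of
`S34XD_Geom` alone.
-/

set_option autoImplicit false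

namespace Fermat.Agent.S34_helper19_SMOOTHK

open Fermat.Agent.S18_helper9_CDefs Fermat.Agent.S18_helper9_CBasic
  Fermat.Agent.S18_helper3_LOCRING Fermat.Agent.S34_helper12_CDefs
  Fermat.Agent.S34_helper27_C2Defs Fermat.Agent.S34_helper27_C2ADAPT
  Fermat.Agent.S34_helper19_SMOOTH Fermat.Agent.S34_helper25_Defs

section Abstract

variable {L : Type*} [Field L] {O : Subring L} {π j : L} {F1 : Subfield L}
  {V1 V2 A0 Ainf : Subring L}

/-- the data of `S34SM_core` for the order `(V1, V2)` and `V = V1 ⊓ V2`. -/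
theorem S34SMK_data12 (S : S34C_Setup2 O π j F1 V1 V2 A0 Ainf) {x : L} {A : Subring L}
    (hC : Chart O π x F1 (V1 ⊓ V2) A) : S34SM_Data π F1 V1 V2 (V1 ⊓ V2) A :=
  S34SM_data S hC

/-- the data of `S34SM_core` for the order `(V2, V1)` and `V = V2 ⊓ V1`. -/
theorem S34SMK_data21 (S : S34C_Setup2 O π j F1 V1 V2 A0 Ainf) {x : L} {A : Subring L}
    (hC : Chart O π x F1 (V1 ⊓ V2) A) : S34SM_Data π F1 V2 V1 (V2 ⊓ V1) A where
  val₁ := S34CA_val2 S
  val₂ := S34CA_val1 S
  unif₁ := S.V2_unif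
  V_le₁ := inf_le_left
  V_le₂ := inf_le_right
  V_inf := fun _ h2 h1 => ⟨h2, h1⟩
  A_le := fun _ ha => ⟨(hC.le_V ha).2, (hC.le_V ha).1⟩
  sat := fun v hv h => hC.sat v ⟨hv.2, hv.1⟩ h
  loc := fun v hv => by
    obtain ⟨b, hb, hb0, hb', hvb⟩ := hC.loc v ⟨hv.2, hv.1⟩
    exact ⟨b, hb, hb0, ⟨hb'.2, hb'.1⟩, hvb⟩
  π_mem := S34SM_O_le S hC S.π_mem

/-- **P5-SMOOTH as the X-D contract**, order `(V1, V2)`, any noetherian chart. -/
theorem S34SMK_smoothLift12 (S : S34C_Setup2 O π j F1 V1 V2 A0 Ainf) {x : L} {A : Subring L}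
    (hC : Chart O π x F1 (V1 ⊓ V2) A) (hN : IsNoetherianRing A) :
    S34XD_SmoothLift O π F1 V1 V2 A := by
  intro p hp _ f h G hf0 hh hdiv hred hπ m hm hπm hIG d hdm _ hd2
  haveI := hN
  haveI : m.IsPrime := hm.isPrime
  exact S34SM_core (S34SMK_data12 S hC) m (fun _ => hπm) d hdm hd2 hIG O (S34SM_O_le S hC) hp
    f h G hf0 hh hdiv hred

/-- **P5-SMOOTH as the X-D contract**, order `(V2, V1)`, any noetherian chart. -/
theorem S34SMK_smoothLift21 (S : S34C_Setup2 O π j F1 V1 V2 A0 Ainf) {x : L} {A : Subring L}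
    (hC : Chart O π x F1 (V1 ⊓ V2) A) (hN : IsNoetherianRing A) :
    S34XD_SmoothLift O π F1 V2 V1 A := by
  intro p hp _ f h G hf0 hh hdiv hred hπ m hm hπm hIG d hdm _ hd2
  haveI := hN
  haveI : m.IsPrime := hm.isPrime
  exact S34SM_core (S34SMK_data21 S hC) m (fun _ => hπm) d hdm hd2 hIG O (S34SM_O_le S hC) hp
    f h G hf0 hh hdiv hred

/-- **The four `S34XD_SmoothLift` conjuncts of `S34XD_Contract`** from the two-valuation setup
alone (the charts are noetherian by helper27's `S34CA_chart_noetherian`). -/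
theorem S34SMK_all [CharZero L] (S : S34C_Setup2 O π j F1 V1 V2 A0 Ainf) :
    S34XD_SmoothLift O π F1 V1 V2 A0 ∧ S34XD_SmoothLift O π F1 V1 V2 Ainf ∧
      S34XD_SmoothLift O π F1 V2 V1 A0 ∧ S34XD_SmoothLift O π F1 V2 V1 Ainf := by
  have hN0 : IsNoetherianRing A0 :=
    S34CA_chart_noetherian (S34CA_setup_of_setup2 S) j (Or.inl rfl) A0 S.chart0
  have hNinf : IsNoetherianRing Ainf :=
    S34CA_chart_noetherian (S34CA_setup_of_setup2 S) j⁻¹ (Or.inr rfl) Ainf S.chartInf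
  exact ⟨S34SMK_smoothLift12 S S.chart0 hN0, S34SMK_smoothLift12 S S.chartInf hNinf,
    S34SMK_smoothLift21 S S.chart0 hN0, S34SMK_smoothLift21 S S.chartInf hNinf⟩

end Abstract

section Concrete

open HahnSeries IntermediateField Fermat.Agent.S18_helper25_COREDefs

/-- The four `S34XD_SmoothLift` conjuncts of `S34XD_Contract` for the concrete carriers, from the
field `setup` of `S34XD_Geom`. -/
theorem S34SMK_concrete (A : ValuationSubring (AlgebraicClosure ℚ))
    (K1 : IntermediateField ℚ (AlgebraicClosure ℚ)) (N : ℕ) [NeZero N]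
    [IsDiscreteValuationRing (S18K_O1 A K1)]
    (V2 : Subring (LaurentSeries K1)) (x : LaurentSeries K1)
    (A0 Ainf : Subring (LaurentSeries K1))
    (S : S34C_Setup2 (S18K_O A K1) (S18K_π A K1) x (S18K_F1 K1 N) (S18K_V A K1 N) V2 A0 Ainf) :
    S34XD_SmoothLift (S18K_O A K1) (S18K_π A K1) (S18K_F1 K1 N) (S18K_V A K1 N) V2 A0 ∧
    S34XD_SmoothLift (S18K_O A K1) (S18K_π A K1) (S18K_F1 K1 N) (S18K_V A K1 N) V2 Ainf ∧
    S34XD_SmoothLift (S18K_O A K1) (S18K_π A K1) (S18K_F1 K1 N) V2 (S18K_V A K1 N) A0 ∧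
    S34XD_SmoothLift (S18K_O A K1) (S18K_π A K1) (S18K_F1 K1 N) V2 (S18K_V A K1 N) Ainf := by
  haveI : CharZero (LaurentSeries K1) :=
    charZero_of_injective_algebraMap (algebraMap K1 (LaurentSeries K1)).injective
  exact S34SMK_all S

end Concrete

end Fermat.Agent.S34_helper19_SMOOTHK
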