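import Mathlib

/-!
# S34, piece X-V1-MODEQ-TWIN (helper1), part A: generic polynomial algebra

* `S34MT_dvd_of_min`  : a primitive element of minimal degree of the kernel of a ring hom
  `ev : K[X][Y] → L` (injective on `K[X]`) divides every element of the kernel;
* `S34MT_exists_gen`  : existence of such a generator, with a degree bound;
* `S34MT_swap_eq`     : if the kernel is stable under `swap`, the generator is symmetric up to a
  constant `c` with `c ^ 2 = 1`.
-/

set_option autoImplicit false
set_option linter.style.haveILetI false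
set_option linter.unusedSectionVars false

noncomputable section

open Polynomial

namespace Fermat.Agent.S34_helper1_MODEQT

section Generator

variable {K : Type*} [Field K] {L : Type*} [CommRing L] [IsDomain L]

/-- Gauss: a primitive polynomial dividing `C a * G` (`a ≠ 0`) divides `G`. -/
theorem S34MT_dvd_of_dvd_C_mul {P G : K[X][X]} (hprim : P.IsPrimitive) {a : K[X]} (ha : a ≠ 0)
    (h : P ∣ C a * G) : P ∣ G := by
  classical
  letI : NormalizedGCDMonoid K[X] := UniqueFactorizationMonoid.toNormalizedGCDMonoid _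
  by_cases hG : G = 0
  · rw [hG]; exact dvd_zero _
  have hC0 : (C a : K[X][X]) ≠ 0 := by rwa [Ne, C_eq_zero]
  rw [← hprim.dvd_primPart_iff_dvd (mul_ne_zero hC0 hG)] at h
  have h2 : P ∣ G.primPart := by
    refine h.trans (Associated.dvd ?_)
    refine (associated_primPart_mul (mul_ne_zero hC0 hG)).trans ?_
    exact associated_unit_mul_left _ _ (isUnit_primPart_C _)
  exact h2.trans (primPart_dvd G)

/-- a primitive element of minimal degree of the kernel generates the kernel -/
theorem S34MT_dvd_of_min (ev : K[X][X] →+* L) (hC : ∀ c : K[X], c ≠ 0 → ev (C c) ≠ 0)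
    (P : K[X][X]) (hP0 : P ≠ 0) (hPev : ev P = 0) (hprim : P.IsPrimitive)
    (hmin : ∀ G : K[X][X], G ≠ 0 → ev G = 0 → P.natDegree ≤ G.natDegree) :
    ∀ G : K[X][X], ev G = 0 → P ∣ G := by
  have hPpos : 0 < P.natDegree := by
    by_contra h
    have h0 : P.natDegree = 0 := by omega
    rw [natDegree_eq_zero] at h0
    obtain ⟨c, rfl⟩ := h0
    exact hC c (by rintro rfl; exact hP0 (by simp)) hPev
  have key : ∀ d : ℕ, ∀ G : K[X][X], G.natDegree = d → ev G = 0 → P ∣ G := by
    intro d
    induction d using Nat.strong_induction_on with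
    | _ d ih =>
      intro G hd hG
      by_cases hG0 : G = 0
      · rw [hG0]; exact dvd_zero _
      have hle : P.natDegree ≤ G.natDegree := hmin G hG0 hG
      have hGpos : 0 < G.natDegree := lt_of_lt_of_le hPpos hle
      have hlt := natDegree_cancelLeads_lt_of_natDegree_le_natDegree hle hGpos
      have hev : ev (P.cancelLeads G) = 0 := by
        simp only [cancelLeads, map_sub, map_mul, hG, hPev, mul_zero, sub_zero]
      have h1 : P ∣ P.cancelLeads G := ih _ (hd ▸ hlt) _ rfl hev
      rw [cancelLeads, tsub_eq_zero_iff_le.mpr hle, pow_zero, mul_one] at h1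
      have h2 := dvd_add h1
        (Dvd.intro_left (C (leadingCoeff G) * X ^ (natDegree G - natDegree P)) rfl)
      rw [sub_add_cancel] at h2
      exact S34MT_dvd_of_dvd_C_mul hprim (leadingCoeff_ne_zero.mpr hP0) h2
  intro G hG
  exact key _ G rfl hG

/-- existence of a primitive generator of the kernel, with a degree bound -/
theorem S34MT_exists_gen (ev : K[X][X] →+* L) (hC : ∀ c : K[X], c ≠ 0 → ev (C c) ≠ 0)
    (B : ℕ) (hex : ∃ G : K[X][X], G ≠ 0 ∧ G.natDegree ≤ B ∧ ev G = 0) :
    ∃ P : K[X][X], P ≠ 0 ∧ ev P = 0 ∧ P.IsPrimitive ∧ 0 < P.natDegree ∧ P.natDegree ≤ B ∧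
      ∀ G : K[X][X], ev G = 0 → P ∣ G := by
  classical
  letI : NormalizedGCDMonoid K[X] := UniqueFactorizationMonoid.toNormalizedGCDMonoid _
  have hex' : ∃ n : ℕ, ∃ G : K[X][X], G ≠ 0 ∧ G.natDegree = n ∧ ev G = 0 := by
    obtain ⟨G, h0, _, h⟩ := hex
    exact ⟨_, G, h0, rfl, h⟩
  obtain ⟨P₀, hP₀0, hP₀d, hP₀ev⟩ := Nat.find_spec hex'
  have hmin₀ : ∀ G : K[X][X], G ≠ 0 → ev G = 0 → P₀.natDegree ≤ G.natDegree := by
    intro G hG0 hG
    rw [hP₀d]
    exact Nat.find_min' hex' ⟨G, hG0, rfl, hG⟩
  have hB : P₀.natDegree ≤ B := by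
    obtain ⟨G, h0, hd, h⟩ := hex
    exact (hmin₀ G h0 h).trans hd
  have hcont : P₀.content ≠ 0 := by rwa [Ne, content_eq_zero_iff]
  have hP0 : P₀.primPart ≠ 0 := (isPrimitive_primPart P₀).ne_zero
  have hev : ev P₀.primPart = 0 := by
    have h1 : ev (C P₀.content * P₀.primPart) = 0 := by
      rw [← eq_C_content_mul_primPart]; exact hP₀ev
    rw [map_mul] at h1
    exact (mul_eq_zero.mp h1).resolve_left (hC _ hcont)
  have hmin : ∀ G : K[X][X], G ≠ 0 → ev G = 0 → P₀.primPart.natDegree ≤ G.natDegree := by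
    intro G hG0 hG
    rw [natDegree_primPart]
    exact hmin₀ G hG0 hG
  have hpos : 0 < P₀.primPart.natDegree := by
    by_contra h
    have h0 : P₀.primPart.natDegree = 0 := by omega
    rw [natDegree_eq_zero] at h0
    obtain ⟨c, hc⟩ := h0
    refine hC c ?_ (by rw [hc]; exact hev)
    rintro rfl
    exact hP0 (by rw [← hc]; simp)
  refine ⟨P₀.primPart, hP0, hev, isPrimitive_primPart _, hpos, ?_, ?_⟩
  · rw [natDegree_primPart]; exact hB
  · exact S34MT_dvd_of_min ev hC _ hP0 hev (isPrimitive_primPart _) hmin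

end Generator

end Fermat.Agent.S34_helper1_MODEQT
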