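import Fermat.Agent.S34_helper1_MODEQA
import Fermat.Agent.S24_helper28_DEGleAlg

/-!
# S34, piece X-V1-MODEQ-TWIN (helper1), part B: symmetry and the Newton polygon at infinity
-/

set_option autoImplicit false
set_option linter.style.haveILetI false
set_option linter.unusedSectionVars false
set_option linter.unusedVariables false

noncomputable section

open Polynomial Fermat.Agent.S24_helper28_DEGleAlg

namespace Fermat.Agent.S34_helper1_MODEQT

section Swap

variable {K : Type*} [Field K]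

theorem S34MT_coeff_swap (P : K[X][X]) (a b : ℕ) :
    ((Bivariate.swap P).coeff a).coeff b = (P.coeff b).coeff a := by
  induction P using Polynomial.induction_on' with
  | add p r hp hr => simp only [map_add, coeff_add, hp, hr]
  | monomial n f =>
    induction f using Polynomial.induction_on' with
    | add p r hp hr =>
      simp only [map_add, coeff_add] at hp hr ⊢
      rw [hp, hr]
    | monomial m c =>
      rw [Bivariate.swap_monomial_monomial, coeff_monomial, coeff_monomial]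
      by_cases h1 : m = a <;> by_cases h2 : n = b <;> simp [h1, h2, coeff_monomial]

theorem S34MT_swap_eq (P : K[X][X]) (hP0 : P ≠ 0) (hdvd : P ∣ Bivariate.swap P) :
    ∃ c : K, c * c = 1 ∧ Bivariate.swap P = C (C c) * P := by
  obtain ⟨H, hH⟩ := hdvd
  have h1 : P = P * (H * Bivariate.swap H) := by
    have h0 := congrArg Bivariate.swap hH
    rw [Bivariate.swap_swap_apply, map_mul, hH] at h0
    calc P = P * H * Bivariate.swap H := h0
      _ = P * (H * Bivariate.swap H) := by ring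
  have h2 : H * Bivariate.swap H = 1 := by
    have h3 : P * (H * Bivariate.swap H) = P * 1 := by rw [mul_one]; exact h1.symm
    exact mul_left_cancel₀ hP0 h3
  have hu : IsUnit H := IsUnit.of_mul_eq_one _ h2
  obtain ⟨h₁, hh₁, rfl⟩ := Polynomial.isUnit_iff.mp hu
  obtain ⟨c, hc, rfl⟩ := Polynomial.isUnit_iff.mp hh₁
  refine ⟨c, ?_, ?_⟩
  · rw [Bivariate.swap_C_C, ← C_mul, ← C_mul] at h2
    have h4 : (C (C (c * c)) : K[X][X]) = C (C 1) := by rw [h2]; simp
    exact C_injective (C_injective h4)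
  · rw [hH, mul_comm]

theorem S34MT_ev2_swap (u v : LaurentSeries K) (G : K[X][X]) :
    ev2 u v (Bivariate.swap G) = ev2 v u G := by
  induction G using Polynomial.induction_on' with
  | add p r hp hr => rw [map_add, map_add, map_add, hp, hr]
  | monomial n f =>
    induction f using Polynomial.induction_on' with
    | add p r hp hr =>
      rw [map_add, map_add, map_add, map_add, hp, hr]
    | monomial m c =>
      rw [Bivariate.swap_monomial_monomial, ev2_monomial, ev2_monomial, mul_comm]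

end Swap

section Newton

variable {K : Type*} [Field K]

theorem S34MT_term_ne_zero {x y : LaurentSeries K} (hx0 : x ≠ 0) (hy0 : y ≠ 0) (a b : ℕ)
    {c : K} (hc : c ≠ 0) : c • (x ^ a * y ^ b) ≠ 0 := by
  rw [← HahnSeries.C_mul_eq_smul]
  refine mul_ne_zero ?_ (mul_ne_zero (pow_ne_zero _ hx0) (pow_ne_zero _ hy0))
  intro h
  exact hc (HahnSeries.C_injective (by rw [h, map_zero]))

theorem S34MT_term_order {x y : LaurentSeries K} (q : ℕ) (hx0 : x ≠ 0) (hy0 : y ≠ 0)
    (hx : x.order = -1) (hy : y.order = -(q : ℤ)) (a b : ℕ) {c : K} (hc : c ≠ 0) :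
    (c • (x ^ a * y ^ b)).order = -((a + q * b : ℕ) : ℤ) := by
  have hC : (HahnSeries.C c : LaurentSeries K) ≠ 0 := by
    intro h
    exact hc (HahnSeries.C_injective (by rw [h, map_zero]))
  rw [← HahnSeries.C_mul_eq_smul, HahnSeries.order_mul hC
    (mul_ne_zero (pow_ne_zero _ hx0) (pow_ne_zero _ hy0)), HahnSeries.order_C,
    HahnSeries.order_mul (pow_ne_zero _ hx0) (pow_ne_zero _ hy0), HahnSeries.order_pow,
    HahnSeries.order_pow, hx, hy]
  simp only [nsmul_eq_mul, zero_add]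
  push_cast
  ring

/-- **Newton polygon**: a relation cannot have a unique monomial of maximal weight. -/
theorem S34MT_newton (x y : LaurentSeries K) (q : ℕ) (hx0 : x ≠ 0) (hy0 : y ≠ 0)
    (hx : x.order = -1) (hy : y.order = -(q : ℤ)) (P : K[X][X]) (a₀ b₀ : ℕ)
    (h₀ : (P.coeff b₀).coeff a₀ ≠ 0)
    (huniq : ∀ a b, (P.coeff b).coeff a ≠ 0 → (a ≠ a₀ ∨ b ≠ b₀) → a + q * b < a₀ + q * b₀) :
    ev2 x y P ≠ 0 := by
  classical
  obtain ⟨A, hA⟩ : ∃ A : ℕ, ∀ b, (P.coeff b).natDegree < A := by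
    refine ⟨(Bivariate.swap P).natDegree + 1, fun b => ?_⟩
    rw [Nat.lt_succ_iff, natDegree_le_iff_coeff_eq_zero]
    intro a ha
    rw [← S34MT_coeff_swap, coeff_eq_zero_of_natDegree_lt ha, coeff_zero]
  have ha₀ : a₀ < A := by
    by_contra h
    exact h₀ (coeff_eq_zero_of_natDegree_lt (lt_of_lt_of_le (hA b₀) (not_lt.mp h)))
  have hb₀ : b₀ < P.natDegree + 1 := by
    by_contra h
    apply h₀
    have hlt : P.natDegree < b₀ := by omega
    rw [coeff_eq_zero_of_natDegree_lt hlt, coeff_zero]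
  rw [ev2_eq_sum x y P A (P.natDegree + 1) (Nat.lt_succ_self _) hA]
  intro hsum
  have h1 := congrArg (fun z : LaurentSeries K => z.coeff (-((a₀ + q * b₀ : ℕ) : ℤ))) hsum
  simp only [HahnSeries.coeff_sum, HahnSeries.coeff_zero] at h1
  rw [Finset.sum_eq_single (⟨⟨a₀, ha₀⟩, ⟨b₀, hb₀⟩⟩ : Fin A × Fin (P.natDegree + 1))] at h1
  · have h2 := S34MT_term_order q hx0 hy0 hx hy a₀ b₀ h₀
    have h3 := S34MT_term_ne_zero hx0 hy0 a₀ b₀ h₀
    rw [← h2] at h1
    exact (HahnSeries.coeff_order_eq_zero.not.mpr h3) h1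
  · rintro ⟨⟨a, ha⟩, ⟨b, hb⟩⟩ _ hne
    by_cases hc : (P.coeff b).coeff a = 0
    · simp [hc]
    · have hne' : a ≠ a₀ ∨ b ≠ b₀ := by
        by_contra h
        push Not at h
        apply hne
        obtain ⟨rfl, rfl⟩ := h
        rfl
      have hlt := huniq a b hc hne'
      apply HahnSeries.coeff_eq_zero_of_lt_order
      rw [S34MT_term_order q hx0 hy0 hx hy a b hc]
      have : ((a + q * b : ℕ) : ℤ) < ((a₀ + q * b₀ : ℕ) : ℤ) := by exact_mod_cast hlt
      exact neg_lt_neg this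
  · intro h
    exact absurd (Finset.mem_univ _) h

end Newton


section Shape

variable {K : Type*} [Field K]

theorem S34MT_arith1 (q n e a b : ℕ) (hq : 2 ≤ q) (hn : n ≤ q + 1) (he : 1 ≤ e)
    (han : a ≤ n) (hbn : b ≤ n) (h1 : b = n → a ≤ e) (h2 : a = n → b ≤ e)
    (hne : a ≠ e ∨ b ≠ n) : a + q * b < e + q * n := by
  rcases Nat.eq_or_lt_of_le hbn with hb | hb
  · subst hb
    have := h1 rfl
    rcases hne with h | h
    · omega
    · exact absurd rfl h
  · obtain ⟨k, rfl⟩ : ∃ k, n = b + 1 + k := ⟨n - (b + 1), by omega⟩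
    have e1 : q * (b + 1 + k) = q * b + q + q * k := by ring
    rw [e1]
    rcases Nat.eq_or_lt_of_le han with ha | ha
    · have hbe := h2 ha
      rcases Nat.lt_or_ge e (b + 1 + k) with hlt | hge
      · -- e < n
        obtain ⟨m, hm⟩ : ∃ m, b + 1 + k = e + 1 + m := ⟨b + 1 + k - (e + 1), by omega⟩
        obtain ⟨r, rfl⟩ : ∃ r, e = b + r := ⟨e - b, by omega⟩
        have hkr : k = r + m := by omega
        subst hkr
        have e2 : q * (r + m) = q * r + q * m := by ring
        have h3 : 2 * r ≤ q * r := Nat.mul_le_mul_right _ hq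
        have h4 : 2 * m ≤ q * m := Nat.mul_le_mul_right _ hq
        omega
      · omega
    · have h5 : 0 ≤ q * k := Nat.zero_le _
      omega

theorem S34MT_arith2 (q n a b : ℕ) (hq : 2 ≤ q) (hn1 : 1 ≤ n) (hn : n ≤ q)
    (han : a ≤ n) (hbn : b ≤ n) (h1 : b = n → a = 0) (h2 : a = n → b = 0)
    (hne : a ≠ 0 ∨ b ≠ n) : a + q * b < 0 + q * n := by
  rcases Nat.eq_or_lt_of_le hbn with hb | hb
  · subst hb
    have := h1 rfl
    rcases hne with h | h
    · omega
    · exact absurd rfl h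
  · obtain ⟨k, rfl⟩ : ∃ k, n = b + 1 + k := ⟨n - (b + 1), by omega⟩
    have e1 : q * (b + 1 + k) = q * b + q + q * k := by ring
    rw [e1]
    rcases Nat.eq_or_lt_of_le han with ha | ha
    · have hb0 := h2 ha
      subst hb0
      have h3 : 2 * k ≤ q * k := Nat.mul_le_mul_right _ hq
      omega
    · have h5 : 0 ≤ q * k := Nat.zero_le _
      omega

/-- symmetry of the coefficients -/
theorem S34MT_coeff_symm (P : K[X][X]) (c : K) (hsw : Bivariate.swap P = C (C c) * P)
    (a b : ℕ) : (P.coeff b).coeff a = c * (P.coeff a).coeff b := by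
  rw [← S34MT_coeff_swap, hsw, coeff_C_mul, coeff_C_mul]

/-- **the shape of a symmetric relation of degree `≤ q + 1`** -/
theorem S34MT_shape (x y : LaurentSeries K) (q : ℕ) (hq : 2 ≤ q) (hx0 : x ≠ 0) (hy0 : y ≠ 0)
    (hx : x.order = -1) (hy : y.order = -(q : ℤ)) (P : K[X][X]) (hP0 : P ≠ 0)
    (hev : ev2 x y P = 0) (hn1 : 0 < P.natDegree) (hn : P.natDegree ≤ q + 1)
    (c : K) (hc : c * c = 1) (hsw : Bivariate.swap P = C (C c) * P) :
    P.natDegree = q + 1 ∧ (∃ c₀ : K, c₀ ≠ 0 ∧ P.leadingCoeff = C c₀ ∧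
        (P.coeff 0).coeff (q + 1) = c * c₀) ∧
      (∀ b, 1 ≤ b → (P.coeff b).natDegree ≤ q) ∧ (P.coeff 0).natDegree ≤ q + 1 := by
  have hc0 : c ≠ 0 := by
    rintro rfl
    simp at hc
  have hsym := S34MT_coeff_symm P c hsw
  have hsupp_b : ∀ a b, (P.coeff b).coeff a ≠ 0 → b ≤ P.natDegree := by
    intro a b h
    by_contra hlt
    apply h
    rw [coeff_eq_zero_of_natDegree_lt (not_le.mp hlt), coeff_zero]
  have hsupp_a : ∀ a b, (P.coeff b).coeff a ≠ 0 → a ≤ P.natDegree := by
    intro a b h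
    apply hsupp_b b a
    intro h0
    apply h
    rw [hsym, h0, mul_zero]
  set n := P.natDegree with hnd
  set e := (P.coeff n).natDegree with hed
  have hlc : P.coeff n ≠ 0 := by
    rw [hnd]
    exact leadingCoeff_ne_zero.mpr hP0
  have hpe : (P.coeff n).coeff e ≠ 0 := by
    rw [hed]
    exact leadingCoeff_ne_zero.mpr hlc
  have htop : ∀ a, (P.coeff n).coeff a ≠ 0 → a ≤ e := by
    intro a h
    by_contra hlt
    exact h (coeff_eq_zero_of_natDegree_lt (not_le.mp hlt))
  have hright : ∀ b, (P.coeff b).coeff n ≠ 0 → b ≤ e := by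
    intro b h
    apply htop
    intro h0
    apply h
    rw [hsym, h0, mul_zero]
  have he0 : e = 0 := by
    by_contra he
    have he1 : 1 ≤ e := Nat.one_le_iff_ne_zero.mpr he
    refine S34MT_newton x y q hx0 hy0 hx hy P e n hpe ?_ hev
    intro a b hab hne
    refine S34MT_arith1 q n e a b hq hn he1 (hsupp_a a b hab) (hsupp_b a b hab) ?_ ?_ hne
    · rintro rfl
      exact htop a hab
    · rintro rfl
      exact hright b hab
  have hnq : n = q + 1 := by
    by_contra hne
    have hle : n ≤ q := by omega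
    rw [he0] at hpe htop hright
    refine S34MT_newton x y q hx0 hy0 hx hy P 0 n hpe ?_ hev
    intro a b hab hne'
    refine S34MT_arith2 q n a b hq hn1 hle (hsupp_a a b hab) (hsupp_b a b hab) ?_ ?_ hne'
    · rintro rfl
      exact Nat.le_zero.mp (htop a hab)
    · rintro rfl
      exact Nat.le_zero.mp (hright b hab)
  have hlcC : P.coeff n = C ((P.coeff n).coeff 0) := by
    apply eq_C_of_natDegree_eq_zero
    rw [← hed, he0]
  refine ⟨hnq, ⟨(P.coeff n).coeff 0, ?_, ?_, ?_⟩, ?_, ?_⟩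
  · rw [he0] at hpe
    exact hpe
  · show P.coeff P.natDegree = _
    rw [← hnd]
    exact hlcC
  · rw [hsym (q + 1) 0, ← hnq]
  · intro b hb
    rw [natDegree_le_iff_coeff_eq_zero]
    intro a ha
    by_contra hab
    have h1 := hsupp_a a b hab
    have h2 : a = n := by omega
    subst h2
    have := hright b hab
    omega
  · rw [natDegree_le_iff_coeff_eq_zero]
    intro a ha
    by_contra hab
    have h1 := hsupp_a a 0 hab
    omega

end Shape


section ModEqK

variable {K : Type*} [Field K]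

/-- `x` of order `-1` is transcendental: `ev2 x y` is injective on `K[X]`. -/
theorem S34MT_evC_ne_zero (x y : LaurentSeries K) (q : ℕ) (hx0 : x ≠ 0) (hy0 : y ≠ 0)
    (hx : x.order = -1) (hy : y.order = -(q : ℤ)) (c : K[X]) (hc : c ≠ 0) :
    ev2 x y (C c) ≠ 0 := by
  refine S34MT_newton x y q hx0 hy0 hx hy (C c) c.natDegree 0 ?_ ?_
  · rw [coeff_C_zero]
    exact leadingCoeff_ne_zero.mpr hc
  · intro a b hab hne
    have hb : b = 0 := by
      by_contra hb
      apply hab
      rw [coeff_C, if_neg hb, coeff_zero]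
    subst hb
    rw [coeff_C_zero] at hab
    have ha : a ≤ c.natDegree := by
      by_contra hlt
      exact hab (coeff_eq_zero_of_natDegree_lt (not_le.mp hlt))
    rcases hne with h | h
    · omega
    · exact absurd rfl h

/-- the diagonal `G ↦ G(X, X)` is invariant under `swap` -/
theorem S34MT_diag_swap (G : K[X][X]) : (Bivariate.swap G).eval X = G.eval X := by
  induction G using Polynomial.induction_on' with
  | add p r hp hr => rw [map_add, eval_add, eval_add, hp, hr]
  | monomial n f =>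
    induction f using Polynomial.induction_on' with
    | add p r hp hr =>
      rw [map_add, map_add, eval_add] at *
      rw [hp, hr, eval_add]
    | monomial m c =>
      rw [Bivariate.swap_monomial_monomial, eval_monomial, eval_monomial,
        ← C_mul_X_pow_eq_monomial, ← C_mul_X_pow_eq_monomial]
      ring

/-- the sign of the symmetry is `+` -/
theorem S34MT_sign (x y : LaurentSeries K) (hxy : x ≠ y) (P : K[X][X]) (hP0 : P ≠ 0)
    (hdvd : ∀ G : K[X][X], ev2 x y G = 0 → P ∣ G) (hev : ev2 x y P = 0)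
    (c : K) (hsw : Bivariate.swap P = C (C c) * P) : c = 1 := by
  by_contra hc
  have h1 : P.eval X = C c * P.eval X := by
    conv_lhs => rw [← S34MT_diag_swap, hsw, eval_mul, eval_C]
  have h2 : (1 - C c) * P.eval (X : K[X]) = 0 := by
    rw [sub_mul, one_mul, ← h1, sub_self]
  have h3 : (1 - C c : K[X]) ≠ 0 := by
    intro h
    apply hc
    have : (C c : K[X]) = C 1 := by rw [C_1]; exact (sub_eq_zero.mp h).symm
    exact C_injective this
  have h4 : P.eval (X : K[X]) = 0 := (mul_eq_zero.mp h2).resolve_left h3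
  have h5 : (X - C (X : K[X]) : K[X][X]) ∣ P := dvd_iff_isRoot.mpr h4
  obtain ⟨H, hH⟩ := h5
  have h6 : ev2 x y (X - C (X : K[X])) = y - x := by
    simp [ev2]
  have h7 : ev2 x y H = 0 := by
    have := hev
    rw [hH, map_mul, h6] at this
    exact (mul_eq_zero.mp this).resolve_left (sub_ne_zero.mpr (Ne.symm hxy))
  obtain ⟨H', hH'⟩ := hdvd H h7
  have h8 : P * 1 = P * ((X - C (X : K[X])) * H') := by
    rw [mul_one]
    conv_lhs => rw [hH, hH']
    ring
  have h9 := mul_left_cancel₀ hP0 h8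
  have h10 : IsUnit (X - C (X : K[X]) : K[X][X]) := IsUnit.of_mul_eq_one _ h9.symm
  have h11 := natDegree_eq_zero_of_isUnit h10
  rw [natDegree_X_sub_C] at h11
  exact one_ne_zero h11

/-- **The modular equation over a field**: from the degree bound and the symmetry of the kernel. -/
theorem S34MT_modeq_K (x y : LaurentSeries K) (q : ℕ) (hq : 2 ≤ q) (hx0 : x ≠ 0) (hy0 : y ≠ 0)
    (hx : x.order = -1) (hy : y.order = -(q : ℤ)) (hxy : x ≠ y)
    (hex : ∃ G : K[X][X], G ≠ 0 ∧ G.natDegree ≤ q + 1 ∧ ev2 x y G = 0)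
    (hsym : ∀ G : K[X][X], ev2 x y G = 0 → ev2 y x G = 0) :
    ∃ P : K[X][X], P.Monic ∧ P.natDegree = q + 1 ∧ ev2 x y P = 0 ∧ Bivariate.swap P = P ∧
      (∀ b, 1 ≤ b → (P.coeff b).natDegree ≤ q) ∧ (P.coeff 0).Monic ∧
      (P.coeff 0).natDegree = q + 1 := by
  obtain ⟨P₀, hP₀0, hP₀ev, -, hpos, hB, hdvd⟩ := S34MT_exists_gen (ev2 x y)
    (S34MT_evC_ne_zero x y q hx0 hy0 hx hy) (q + 1) hex
  have hswker : ev2 x y (Bivariate.swap P₀) = 0 := by
    rw [S34MT_ev2_swap]; exact hsym P₀ hP₀ev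
  obtain ⟨c, hcc, hsw⟩ := S34MT_swap_eq P₀ hP₀0 (hdvd _ hswker)
  obtain ⟨hn, ⟨c₀, hc₀, hlc, hc00⟩, hmid, h0le⟩ :=
    S34MT_shape x y q hq hx0 hy0 hx hy P₀ hP₀0 hP₀ev hpos hB c hcc hsw
  have hc1 : c = 1 := S34MT_sign x y hxy P₀ hP₀0 hdvd hP₀ev c hsw
  subst hc1
  rw [one_mul] at hc00
  rw [C_1, C_1, one_mul] at hsw
  have hu : (C (C c₀⁻¹) : K[X][X]) ≠ 0 := by
    rw [Ne, C_eq_zero, C_eq_zero]; exact inv_ne_zero hc₀
  have hu' : (C c₀⁻¹ : K[X]) ≠ 0 := by
    rw [Ne, C_eq_zero]; exact inv_ne_zero hc₀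
  have hcoeff : ∀ b, (C (C c₀⁻¹) * P₀).coeff b = C c₀⁻¹ * P₀.coeff b := fun b => coeff_C_mul _
  refine ⟨C (C c₀⁻¹) * P₀, ?_, ?_, ?_, ?_, ?_, ?_, ?_⟩
  · rw [Monic, leadingCoeff_mul, leadingCoeff_C, hlc, ← C_mul, inv_mul_cancel₀ hc₀, C_1]
  · rw [natDegree_C_mul hu', hn]
  · rw [map_mul, hP₀ev, mul_zero]
  · rw [map_mul, Bivariate.swap_C_C, hsw]
  · intro b hb
    rw [hcoeff, natDegree_C_mul (inv_ne_zero hc₀)]
    exact hmid b hb
  · have hdeg : (P₀.coeff 0).natDegree = q + 1 := by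
      refine le_antisymm h0le ?_
      apply le_natDegree_of_ne_zero
      rw [hc00]; exact hc₀
    rw [hcoeff, Monic, leadingCoeff_mul, leadingCoeff_C, leadingCoeff, hdeg, hc00,
      inv_mul_cancel₀ hc₀]
  · rw [hcoeff, natDegree_C_mul (inv_ne_zero hc₀)]
    refine le_antisymm h0le ?_
    apply le_natDegree_of_ne_zero
    rw [hc00]; exact hc₀

end ModEqK

end Fermat.Agent.S34_helper1_MODEQT
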