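import Fermat.Agent.S34_helper1_MODEQB

/-!
# S34, piece X-V1-MODEQ-TWIN (helper1), part C: Gauss descent in residue characteristic `q`

* `S34MT_red_zero` : over a field `κ`, a polynomial of `X`-degree `≤ q` vanishing at
  `(j, j ^ q)` and at `(j ^ q, j)` (`ord j = -1`) is zero;
* `S34MT_descent`  : a symmetric relation with unit corner coefficient whose reductions satisfy
  the two Frobenius relations has coefficients in the valuation ring.
-/

set_option autoImplicit false
set_option linter.style.haveILetI false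
set_option linter.unusedSectionVars false
set_option linter.unusedVariables false

noncomputable section

open Polynomial Fermat.Agent.S24_helper28_DEGleAlg

namespace Fermat.Agent.S34_helper1_MODEQT

section Residue

variable {κ : Type*} [Field κ]

theorem S34MT_ev2_C (u v : LaurentSeries κ) (c : κ[X]) :
    ev2 u v (C c) = eval₂ (HahnSeries.C : κ →+* LaurentSeries κ) u c := by
  simp [ev2]

theorem S34MT_ev2_map_C (u v : LaurentSeries κ) (g : κ[X]) :
    ev2 u v (g.map C) = eval₂ (HahnSeries.C : κ →+* LaurentSeries κ) v g := by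
  unfold ev2
  rw [coe_eval₂RingHom, eval₂_map]
  congr 1
  ext c
  simp

theorem S34MT_ev2_eval (u : LaurentSeries κ) (r : κ[X]) (P : κ[X][X]) :
    ev2 u (eval₂ (HahnSeries.C : κ →+* LaurentSeries κ) u r) P =
      eval₂ (HahnSeries.C : κ →+* LaurentSeries κ) u (P.eval r) := by
  unfold ev2
  rw [coe_eval₂RingHom]
  have := eval₂_hom (p := P) (eval₂RingHom (HahnSeries.C : κ →+* LaurentSeries κ) u) r
  rw [coe_eval₂RingHom] at this
  exact this

/-- the key lemma in characteristic `q` (no hypothesis on the characteristic is needed) -/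
theorem S34MT_red_zero (j : LaurentSeries κ) (q : ℕ) (hq : 2 ≤ q) (hj0 : j ≠ 0)
    (hord : j.order = -1) (Pb : κ[X][X])
    (hX : ∀ a b, q + 1 ≤ a → (Pb.coeff b).coeff a = 0)
    (h1 : ev2 j (j ^ q) Pb = 0) (h2 : ev2 (j ^ q) j Pb = 0) : Pb = 0 := by
  have hjq0 : j ^ q ≠ 0 := pow_ne_zero _ hj0
  have hjqord : (j ^ q).order = -(q : ℤ) := by
    rw [HahnSeries.order_pow, hord]; simp
  have htr : ∀ c : κ[X], eval₂ (HahnSeries.C : κ →+* LaurentSeries κ) j c = 0 → c = 0 := by
    intro c hc
    by_contra hc0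
    exact S34MT_evC_ne_zero j (j ^ q) q hj0 hjq0 hord hjqord c hc0
      (by rw [S34MT_ev2_C]; exact hc)
  -- step 1: `X ^ q` is a root
  have hroot : Pb.IsRoot (X ^ q : κ[X]) := by
    apply htr
    rw [← S34MT_ev2_eval, eval₂_pow, eval₂_X]
    exact h1
  obtain ⟨G, hG⟩ := dvd_iff_isRoot.mpr hroot
  by_contra hPb
  have hG0 : G ≠ 0 := by
    rintro rfl
    exact hPb (by rw [hG, mul_zero])
  -- step 3: the `X`-degree
  have hsw : Bivariate.swap (X - C (X ^ q : κ[X]) : κ[X][X]) = -(X ^ q - C (X : κ[X])) := by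
    rw [map_sub, Bivariate.swap_Y, Bivariate.swap_C, Polynomial.map_pow, map_X]
    ring
  have hdeg1 : (Bivariate.swap (X - C (X ^ q : κ[X]) : κ[X][X])).natDegree = q := by
    rw [hsw, natDegree_neg, natDegree_X_pow_sub_C]
  have hne1 : Bivariate.swap (X - C (X ^ q : κ[X]) : κ[X][X]) ≠ 0 := by
    intro h
    rw [h, natDegree_zero] at hdeg1
    omega
  have hGs0 : Bivariate.swap G ≠ 0 := by
    intro h
    apply hG0
    have := congrArg Bivariate.swap h
    rwa [Bivariate.swap_swap_apply, map_zero] at this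
  have hdeg2 : (Bivariate.swap Pb).natDegree = q + (Bivariate.swap G).natDegree := by
    rw [hG, map_mul, natDegree_mul hne1 hGs0, hdeg1]
  have hdeg3 : (Bivariate.swap Pb).natDegree ≤ q := by
    rw [natDegree_le_iff_coeff_eq_zero]
    intro a ha
    ext b
    rw [S34MT_coeff_swap, coeff_zero]
    exact hX a b ha
  have hdeg4 : (Bivariate.swap G).natDegree = 0 := by omega
  obtain ⟨g₀, hg₀⟩ := natDegree_eq_zero.mp hdeg4
  have hGg : G = g₀.map C := by
    have := congrArg Bivariate.swap hg₀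
    rw [Bivariate.swap_swap_apply, Bivariate.swap_C] at this
    exact this.symm
  -- step 4
  have h3 : ev2 (j ^ q) j (X - C (X ^ q : κ[X]) : κ[X][X]) = j - (j ^ q) ^ q := by
    rw [map_sub, S34MT_ev2_C, eval₂_pow, eval₂_X]
    simp [ev2]
  have h4 : j - (j ^ q) ^ q ≠ 0 := by
    intro h
    have h5 : j = (j ^ q) ^ q := sub_eq_zero.mp h
    have h6 := congrArg HahnSeries.order h5
    rw [HahnSeries.order_pow, hjqord, hord] at h6
    simp only [nsmul_eq_mul] at h6
    have h7 : (2 : ℤ) ≤ q := by exact_mod_cast hq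
    nlinarith
  rw [hG, map_mul, h3, hGg, S34MT_ev2_map_C] at h2
  have h8 := htr g₀ ((mul_eq_zero.mp h2).resolve_left h4)
  apply hG0
  rw [hGg, h8, Polynomial.map_zero]

end Residue

section Descent

variable {K κ : Type*} [Field K] [Field κ]

/-- **Gauss descent** -/
theorem S34MT_descent (O1 : ValuationSubring K) (res : O1 →+* κ)
    (hres : ∀ x : O1, res x = 0 ↔ x ∈ IsLocalRing.maximalIdeal O1)
    (j θ : LaurentSeries K) (jb : LaurentSeries κ) (q : ℕ) (hq : 2 ≤ q) (hjb0 : jb ≠ 0)
    (hjb : jb.order = -1)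
    (hR1 : ∀ G : (O1)[X][X], ev2 j θ (G.map (mapRingHom O1.subtype)) = 0 →
      ev2 jb (jb ^ q) (G.map (mapRingHom res)) = 0)
    (hR2 : ∀ G : (O1)[X][X], ev2 θ j (G.map (mapRingHom O1.subtype)) = 0 →
      ev2 (jb ^ q) jb (G.map (mapRingHom res)) = 0)
    (P : K[X][X]) (hev1 : ev2 j θ P = 0) (hev2 : ev2 θ j P = 0)
    (hX : ∀ a b, q + 1 < a → (P.coeff b).coeff a = 0)
    (hX1 : ∀ b, 1 ≤ b → (P.coeff b).coeff (q + 1) = 0)
    (hX0 : (P.coeff 0).coeff (q + 1) = 1) :
    ∃ G : (O1)[X][X], G.map (mapRingHom O1.subtype) = P := by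
  classical
  -- lifting criterion
  have hlift : ∀ P' : K[X][X], (∀ a b, (P'.coeff b).coeff a ∈ O1) →
      ∃ G : (O1)[X][X], G.map (mapRingHom O1.subtype) = P' := by
    intro P' h
    rw [← mem_lifts, lifts_iff_coeff_lifts]
    intro b
    have : P'.coeff b ∈ lifts O1.subtype := by
      rw [lifts_iff_coeff_lifts]
      intro a
      exact ⟨⟨_, h a b⟩, rfl⟩
    obtain ⟨g, hg⟩ := (mem_lifts _).mp this
    exact ⟨g, hg⟩
  by_contra hcon
  have hbad : ∃ a b, (P.coeff b).coeff a ∉ O1 := by
    by_contra h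
    push Not at h
    exact hcon (hlift P h)
  obtain ⟨a', b', hab'⟩ := hbad
  set I : Finset (ℕ × ℕ) := Finset.range (q + 2) ×ˢ Finset.range (P.natDegree + 1) with hI
  have hmemI : ∀ a b, (P.coeff b).coeff a ≠ 0 → (a, b) ∈ I := by
    intro a b h
    rw [hI, Finset.mem_product, Finset.mem_range, Finset.mem_range]
    constructor
    · by_contra hlt
      exact h (hX a b (by omega))
    · by_contra hlt
      apply h
      have hlt' : P.natDegree < b := by omega
      rw [coeff_eq_zero_of_natDegree_lt hlt', coeff_zero]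
  have hI0 : I.Nonempty := ⟨(a', b'), hmemI a' b' (fun h => hab' (by rw [h]; exact zero_mem _))⟩
  obtain ⟨⟨a₁, b₁⟩, hi₁, hmax⟩ := Finset.exists_max_image I
    (fun i => O1.valuation ((P.coeff i.2).coeff i.1)) hI0
  set s := (P.coeff b₁).coeff a₁ with hs
  have hvs : 1 < O1.valuation s := by
    have h1 := hmax (a', b') (hmemI a' b' (fun h => hab' (by rw [h]; exact zero_mem _)))
    have h2 : ¬ O1.valuation ((P.coeff b').coeff a') ≤ 1 := by
      rw [ValuationSubring.valuation_le_one_iff]; exact hab'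
    exact lt_of_lt_of_le (not_le.mp h2) h1
  have hs0 : s ≠ 0 := by
    rintro h
    rw [h, map_zero] at hvs
    exact not_lt.mpr zero_le hvs
  have hvs0 : O1.valuation s ≠ 0 := (Valuation.ne_zero_iff _).mpr hs0
  set P' : K[X][X] := C (C s⁻¹) * P with hP'
  have hcoeff : ∀ a b, (P'.coeff b).coeff a = s⁻¹ * (P.coeff b).coeff a := by
    intro a b
    rw [hP', coeff_C_mul, coeff_C_mul]
  have hmem : ∀ a b, (P'.coeff b).coeff a ∈ O1 := by
    intro a b
    rw [hcoeff]
    by_cases h0 : (P.coeff b).coeff a = 0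
    · rw [h0, mul_zero]; exact zero_mem _
    · rw [← ValuationSubring.valuation_le_one_iff, map_mul, map_inv₀]
      have := hmax (a, b) (hmemI a b h0)
      exact (inv_mul_le_one₀ (zero_lt_iff.mpr hvs0)).mpr this
  obtain ⟨G, hG⟩ := hlift P' hmem
  have hGcoeff : ∀ a b, (((G.coeff b).coeff a : O1) : K) = s⁻¹ * (P.coeff b).coeff a := by
    intro a b
    rw [← hcoeff, ← hG, coeff_map, coe_mapRingHom, coeff_map]
    rfl
  set Pb : κ[X][X] := G.map (mapRingHom res) with hPb
  have hPbcoeff : ∀ a b, (Pb.coeff b).coeff a = res ((G.coeff b).coeff a) := by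
    intro a b
    rw [hPb, coeff_map, coe_mapRingHom, coeff_map]
  -- the reduction is nonzero
  have hPb0 : Pb ≠ 0 := by
    intro h
    have h1 : (Pb.coeff b₁).coeff a₁ = 0 := by rw [h, coeff_zero, coeff_zero]
    rw [hPbcoeff] at h1
    have h2 : (G.coeff b₁).coeff a₁ = 1 := by
      apply Subtype.ext
      rw [hGcoeff, ← hs, inv_mul_cancel₀ hs0]
      rfl
    rw [h2, map_one] at h1
    exact one_ne_zero h1
  -- the `X`-degree of the reduction is at most `q`
  have hXb : ∀ a b, q + 1 ≤ a → (Pb.coeff b).coeff a = 0 := by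
    intro a b ha
    rw [hPbcoeff, hres, ValuationSubring.valuation_lt_one_iff, hGcoeff]
    rcases Nat.eq_or_lt_of_le ha with h | h
    · subst h
      rcases Nat.eq_zero_or_pos b with hb | hb
      · subst hb
        rw [hX0, mul_one, map_inv₀]
        exact inv_lt_one_of_one_lt₀ hvs
      · rw [hX1 b hb, mul_zero, map_zero]
        exact zero_lt_one
    · rw [hX a b h, mul_zero, map_zero]
      exact zero_lt_one
  -- the two relations
  have hr1 : ev2 jb (jb ^ q) Pb = 0 := by
    apply hR1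
    rw [hG, hP', map_mul, hev1, mul_zero]
  have hr2 : ev2 (jb ^ q) jb Pb = 0 := by
    apply hR2
    rw [hG, hP', map_mul, hev2, mul_zero]
  exact hPb0 (S34MT_red_zero jb q hq hjb0 hjb Pb hXb hr1 hr2)

end Descent

end Fermat.Agent.S34_helper1_MODEQT
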