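import Fermat.Agent.S34_helper1_MODEQC
import Fermat.Agent.S18_helper26_DEGK1
import Fermat.Agent.S34_helper20_V0K
import Fermat.Agent.S34_helper18_CUSP
import Fermat.Agent.S16_helper4_SMALL

/-!
# S34, piece X-V1-MODEQ-TWIN (helper1): the modular equation of prime level `q` over `O1`

Purely algebraic route: kernel generator (part A), Atkin–Lehner symmetry + Newton polygon at
infinity (part B), Gauss descent in residue characteristic `q` (part C).

* `S34MT_modeq_K1`  : the modular equation over any field `K1` of characteristic zero embedded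
                      in `ℚ̄`;
* `S34MT_modeq_O1`  : the same with coefficients in `O1 = A ∩ K1`, `A` over `q`;
* `S34MT_relSum`, `S34MT_relSum'` : helper18's `S34CUSP_RelSum` for `(j, θ)` and `(θ, j)`;
* `S34MT_isIntegral`, `S34MT_isIntegral'` : `θ` is integral over `O[j]`, `j` over `O[θ]`.
-/

set_option autoImplicit false
set_option linter.style.haveILetI false
set_option linter.unusedSectionVars false
set_option linter.unusedVariables false

noncomputable section

open Polynomial ModularCurve Fermat.Agent.S24 Fermat.Agent.S24_helper28_DEGleAlg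
open Fermat.Agent.S18_helper13_GAUSS Fermat.Agent.S18_helper9_CDefs
open Fermat.Agent.S18_helper25_COREDefs Fermat.Agent.S34_helper20_V0
open Fermat.Agent.S34_helper20_V0K Fermat.Agent.S34_helper18_CUSP

namespace Fermat.Agent.S34_helper1_MODEQT

section Orders

variable (K : Type*) [Field K]

theorem S34MT_order_j : (jqModC K).order = -1 := by
  have h0 : jqModC K ≠ 0 := jqModC_ne_zero_of_nontrivial K
  apply le_antisymm
  · apply HahnSeries.order_le_of_coeff_ne_zero
    rw [coeff_jqModC_neg_one]
    exact one_ne_zero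
  · by_contra hlt
    rw [not_le] at hlt
    exact HahnSeries.coeff_order_eq_zero.not.mpr h0 (coeff_jqModC_of_lt K hlt)

theorem S34MT_order_qExpand (n : ℕ) [NeZero n] {x : LaurentSeries K} (hx : x ≠ 0) :
    (qExpand K n x).order = (n : ℤ) * x.order := by
  have hx' : qExpand K n x ≠ 0 := fun h => hx (qExpand_injective n (by rw [h, map_zero]))
  have hn : (0 : ℤ) < n := by exact_mod_cast Nat.pos_of_ne_zero (NeZero.ne n)
  apply le_antisymm
  · apply HahnSeries.order_le_of_coeff_ne_zero
    rw [qExpand_coeff_mul]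
    exact HahnSeries.coeff_order_eq_zero.not.mpr hx
  · by_contra hlt
    rw [not_le] at hlt
    apply HahnSeries.coeff_order_eq_zero.not.mpr hx'
    by_cases hdvd : (n : ℤ) ∣ (qExpand K n x).order
    · obtain ⟨k, hk⟩ := hdvd
      rw [hk, qExpand_coeff_mul]
      apply HahnSeries.coeff_eq_zero_of_lt_order
      rw [hk] at hlt
      exact lt_of_mul_lt_mul_left hlt hn.le
    · exact qExpand_coeff_of_not_dvd n x hdvd

theorem S34MT_order_theta (q : ℕ) [NeZero q] :
    (qExpand K q (jqModC K)).order = -(q : ℤ) := by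
  rw [S34MT_order_qExpand K q (jqModC_ne_zero_of_nontrivial K), S34MT_order_j]
  ring

theorem S34MT_theta_ne_zero (q : ℕ) [NeZero q] : qExpand K q (jqModC K) ≠ 0 :=
  fun h => jqModC_ne_zero_of_nontrivial K (qExpand_injective q (by rw [h, map_zero]))

theorem S34MT_j_ne_theta (q : ℕ) [NeZero q] (hq : 2 ≤ q) :
    jqModC K ≠ qExpand K q (jqModC K) := by
  intro h
  have h1 := congrArg HahnSeries.order h
  rw [S34MT_order_j, S34MT_order_theta] at h1
  have : (2 : ℤ) ≤ q := by exact_mod_cast hq
  omega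

end Orders


section KLevel

variable {K1 : Type*} [Field K1] [CharZero K1] (emb : K1 →+* Kbar) (q : ℕ) [NeZero q]
  (hq : q.Prime)

include emb hq in
/-- a nonzero relation of degree `≤ q + 1` (landed `S18DEG_stepA`) -/
theorem S34MT_hex : ∃ G : K1[X][X], G ≠ 0 ∧ G.natDegree ≤ q + 1 ∧
    ev2 (jqModC K1) (qExpand K1 q (jqModC K1)) G = 0 := by
  obtain ⟨Q, hQ0, hQd, hQ⟩ := Fermat.Agent.S18_helper26_DEGK1.S18DEG_stepA emb q
    (⟨qExpand K1 q (jqModC K1), jqModCd_mem_full K1 q (dvd_refl q)⟩ :
      modularFunctionFieldFullC K1 q)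
  refine ⟨Q, hQ0, ?_, hQ⟩
  rw [Fermat.Agent.S20_helper29_A1.A1 q, Fermat.Agent.S16_helper4_SMALL.dedekindPsi_prime hq]
    at hQd
  exact hQd

include emb hq in
/-- the kernel is symmetric (helper20's Atkin–Lehner involution at `N' = 1`) -/
theorem S34MT_hsym (G : K1[X][X])
    (h : ev2 (jqModC K1) (qExpand K1 q (jqModC K1)) G = 0) :
    ev2 (qExpand K1 q (jqModC K1)) (jqModC K1) G = 0 := by
  have hqN : ¬ q ∣ 1 := fun h => hq.one_lt.ne' (Nat.dvd_one.mp h)
  have hN : q = q * 1 := (mul_one q).symm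
  have hjm : jqModC K1 ∈ modularFunctionFieldFullC K1 q := jqModC_mem_full K1 q
  have hθm : qExpand K1 q (jqModC K1) ∈ modularFunctionFieldFullC K1 q :=
    jqModCd_mem_full K1 q (dvd_refl q)
  set w := S34V0_w emb q 1 q hq hqN hN with hw
  set jF : modularFunctionFieldFullC K1 q := ⟨jqModC K1, hjm⟩ with hjF
  set θF : modularFunctionFieldFullC K1 q := ⟨qExpand K1 q (jqModC K1), hθm⟩ with hθF
  have hwj : w jF = θF := by
    apply Subtype.ext
    rw [hw, hjF, ← S34V0_wL_of_mem emb q 1 q hq hqN hN hjm]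
    exact S34V0_wL_j emb q 1 q hq hqN hN
  have hwθ : w θF = jF := by
    apply Subtype.ext
    rw [hw, hθF, ← S34V0_wL_of_mem emb q 1 q hq hqN hN hθm]
    exact S34V0_wL_jq emb q 1 q hq hqN hN
  set sub : modularFunctionFieldFullC K1 q →+* LaurentSeries K1 :=
    algebraMap (modularFunctionFieldFullC K1 q) (LaurentSeries K1) with hsub
  set evF : K1[X][X] →+* modularFunctionFieldFullC K1 q :=
    eval₂RingHom (eval₂RingHom (algebraMap K1 (modularFunctionFieldFullC K1 q)) jF) θF with hevF
  have hC : ∀ c : K1, sub (algebraMap K1 (modularFunctionFieldFullC K1 q) c) =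
      HahnSeries.C c := by
    intro c
    rw [Fermat.Agent.S18_helper26_CONST.S18P15_C_eq_algebraMap]
    rfl
  have hwC : ∀ c : K1, w (algebraMap K1 (modularFunctionFieldFullC K1 q) c) =
      algebraMap K1 (modularFunctionFieldFullC K1 q) c := fun c => w.commutes c
  have h1 : sub.comp evF = ev2 (jqModC K1) (qExpand K1 q (jqModC K1)) := by
    apply Polynomial.ringHom_ext
    · intro f
      have e1 : (sub.comp evF) (C f) =
          sub (eval₂ (algebraMap K1 (modularFunctionFieldFullC K1 q)) jF f) := by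
        simp [hevF]
      have e2 : ev2 (jqModC K1) (qExpand K1 q (jqModC K1)) (C f) =
          eval₂ (HahnSeries.C : K1 →+* LaurentSeries K1) (jqModC K1) f := by
        simp [ev2]
      rw [e1, e2, hom_eval₂]
      congr 1
      exact RingHom.ext hC
    · simp [hevF, ev2, hsub, hθF]
  have h2 : (sub.comp (w : modularFunctionFieldFullC K1 q →+* modularFunctionFieldFullC K1 q)).comp
      evF = ev2 (qExpand K1 q (jqModC K1)) (jqModC K1) := by
    apply Polynomial.ringHom_ext
    · intro f
      have e1 : ((sub.comp (w : modularFunctionFieldFullC K1 q →+*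
          modularFunctionFieldFullC K1 q)).comp evF) (C f) =
          sub (w (eval₂ (algebraMap K1 (modularFunctionFieldFullC K1 q)) jF f)) := by
        simp [hevF]
      have e2 : ev2 (qExpand K1 q (jqModC K1)) (jqModC K1) (C f) =
          eval₂ (HahnSeries.C : K1 →+* LaurentSeries K1) (qExpand K1 q (jqModC K1)) f := by
        simp [ev2]
      rw [e1, e2]
      have e3 : w (eval₂ (algebraMap K1 (modularFunctionFieldFullC K1 q)) jF f) =
          eval₂ (algebraMap K1 (modularFunctionFieldFullC K1 q)) θF f := by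
        have := hom_eval₂ f (algebraMap K1 (modularFunctionFieldFullC K1 q))
          (w : modularFunctionFieldFullC K1 q →+* modularFunctionFieldFullC K1 q) jF
        rw [RingHom.coe_coe, hwj] at this
        rw [this]
        congr 1
        exact RingHom.ext hwC
      rw [e3, hom_eval₂]
      congr 1
      exact RingHom.ext hC
    · have : ((sub.comp (w : modularFunctionFieldFullC K1 q →+*
          modularFunctionFieldFullC K1 q)).comp evF) X = sub (w θF) := by
        simp [hevF]
      rw [this, hwθ]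
      simp [ev2, hsub, hjF]
  have h3 : evF G = 0 := by
    have : sub (evF G) = 0 := by
      have := congrArg (fun φ : K1[X][X] →+* LaurentSeries K1 => φ G) h1
      simp only [RingHom.comp_apply] at this
      rw [this]; exact h
    exact (map_eq_zero_iff sub sub.injective).mp this
  have := congrArg (fun φ : K1[X][X] →+* LaurentSeries K1 => φ G) h2
  simp only [RingHom.comp_apply] at this
  rw [← this, h3, map_zero, map_zero]

include emb hq in
/-- **the modular equation of level `q` over `K1`** -/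
theorem S34MT_modeq_K1 :
    ∃ P : K1[X][X], P.Monic ∧ P.natDegree = q + 1 ∧
      ev2 (jqModC K1) (qExpand K1 q (jqModC K1)) P = 0 ∧ Bivariate.swap P = P ∧
      (∀ b, 1 ≤ b → (P.coeff b).natDegree ≤ q) ∧ (P.coeff 0).Monic ∧
      (P.coeff 0).natDegree = q + 1 :=
  S34MT_modeq_K (jqModC K1) (qExpand K1 q (jqModC K1)) q hq.two_le
    (jqModC_ne_zero_of_nontrivial K1) (S34MT_theta_ne_zero K1 q) (S34MT_order_j K1)
    (S34MT_order_theta K1 q) (S34MT_j_ne_theta K1 q hq.two_le) (S34MT_hex emb q hq)
    (S34MT_hsym emb q hq)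

end KLevel


section Reduction

variable {O K κ : Type*} [CommRing O] [IsDomain O] [Field K] [Field κ] (D : GaussData O K κ)

theorem S34MT_coeffMap_C {R S : Type*} [CommRing R] [CommRing S] (f : R →+* S) (a : R) :
    coeffMap f (HahnSeries.C a) = HahnSeries.C (f a) := by
  simp only [HahnSeries.C_apply, coeffMap_single]

theorem S34MT_C_mem_Vring (c : O) : HahnSeries.C (D.inc c) ∈ D.Vring := by
  rw [← S34MT_coeffMap_C]
  exact D.incS_mem_Vring _

theorem S34MT_redFun_C (c : O) : D.redFun (HahnSeries.C (D.inc c)) = HahnSeries.C (D.res c) := by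
  rw [← S34MT_coeffMap_C]
  show D.redFun (D.incS _) = _
  rw [D.redFun_incS]
  exact S34MT_coeffMap_C _ c

/-- reduction commutes with two-variable evaluation -/
theorem S34MT_red_ev2 {u v : LaurentSeries K} (hu : u ∈ D.Vring) (hv : v ∈ D.Vring)
    (G : O[X][X]) :
    ev2 u v (G.map (mapRingHom D.inc)) ∈ D.Vring ∧
      D.redFun (ev2 u v (G.map (mapRingHom D.inc))) =
        ev2 (D.redFun u) (D.redFun v) (G.map (mapRingHom D.res)) := by
  induction G using Polynomial.induction_on' with
  | add p r hp hr =>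
    rw [Polynomial.map_add, Polynomial.map_add, map_add, map_add]
    exact ⟨D.Vring.add_mem hp.1 hr.1, by rw [D.redFun_add hp.1 hr.1, hp.2, hr.2]⟩
  | monomial n f =>
    induction f using Polynomial.induction_on' with
    | add p r hp hr =>
      rw [map_add, Polynomial.map_add, Polynomial.map_add, map_add, map_add]
      exact ⟨D.Vring.add_mem hp.1 hr.1, by rw [D.redFun_add hp.1 hr.1, hp.2, hr.2]⟩
    | monomial m c =>
      rw [map_monomial, map_monomial, coe_mapRingHom, coe_mapRingHom, map_monomial,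
        map_monomial, ev2_monomial, ev2_monomial, ← HahnSeries.C_mul_eq_smul,
        ← HahnSeries.C_mul_eq_smul]
      have h1 : u ^ m * v ^ n ∈ D.Vring :=
        D.Vring.mul_mem (D.Vring.pow_mem hu m) (D.Vring.pow_mem hv n)
      refine ⟨D.Vring.mul_mem (S34MT_C_mem_Vring D c) h1, ?_⟩
      rw [D.redFun_mul (S34MT_C_mem_Vring D c) h1, S34MT_redFun_C,
        D.redFun_mul (D.Vring.pow_mem hu m) (D.Vring.pow_mem hv n), D.redFun_pow hu,
        D.redFun_pow hv]

end Reduction

section OLevel

variable (A : ValuationSubring (AlgebraicClosure ℚ))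
  (K1 : IntermediateField ℚ (AlgebraicClosure ℚ)) [IsDiscreteValuationRing (S18K_O1 A K1)]
  (q : ℕ) [NeZero q] (hq : q.Prime) (hA : A.LiesOverPrime q)

include hq hA in
/-- **the modular equation of level `q` with coefficients in `O1 = A ∩ K1`** (`A` over `q`) -/
theorem S34MT_modeq_O1 :
    ∃ G : (S18K_O1 A K1)[X][X], G.Monic ∧ G.natDegree = q + 1 ∧
      ev2 (jqModC K1) (qExpand K1 q (jqModC K1))
        (G.map (mapRingHom (S18K_O1 A K1).subtype)) = 0 ∧
      ev2 (qExpand K1 q (jqModC K1)) (jqModC K1)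
        (G.map (mapRingHom (S18K_O1 A K1).subtype)) = 0 ∧
      (∀ b, 1 ≤ b → (G.coeff b).natDegree ≤ q) ∧ (G.coeff 0).Monic ∧
      (G.coeff 0).natDegree = q + 1 := by
  obtain ⟨P, hPm, hPd, hPev, hPsw, hPmid, hP0m, hP0d⟩ :=
    S34MT_modeq_K1 (S34V0K_emb K1) q hq
  have hPev2 : ev2 (qExpand K1 q (jqModC K1)) (jqModC K1) P = 0 := by
    rw [← S34MT_ev2_swap, hPsw]; exact hPev
  haveI : ExpChar (IsLocalRing.ResidueField A) q := Fermat.Agent.S37K2.S37K2_expChar A q hq hA
  set D := S18K_D A K1 with hD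
  have hj : jqModC K1 ∈ D.Vring := D.jqModC_mem_Vring
  have hθ := S34V0K_qExpand_mem D q hj
  have hredj : D.redFun (jqModC K1) = jqModC (IsLocalRing.ResidueField A) := D.redFun_jqModC
  have hredθ : D.redFun (qExpand K1 q (jqModC K1)) =
      (jqModC (IsLocalRing.ResidueField A)) ^ q := by
    have h := S34V0K_frob_red D q
    rw [D.redFun_sub hθ.1 (D.Vring.pow_mem hj q), D.redFun_pow hj, hredj, sub_eq_zero] at h
    exact h
  have hsymcoeff := S34MT_coeff_symm P 1 (by rw [C_1, C_1, one_mul]; exact hPsw)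
  obtain ⟨G, hG⟩ := S34MT_descent (S18K_O1 A K1) (S18K_res A K1) (S18K_res_eq_zero_iff A K1)
    (jqModC K1) (qExpand K1 q (jqModC K1)) (jqModC (IsLocalRing.ResidueField A)) q hq.two_le
    (jqModC_ne_zero_of_nontrivial _) (S34MT_order_j _)
    (fun G h => by
      have := (S34MT_red_ev2 D hj hθ.1 G).2
      rw [hredj, hredθ] at this
      have h' : ev2 (jqModC K1) (qExpand K1 q (jqModC K1)) (G.map (mapRingHom D.inc)) = 0 := h
      rw [h', D.redFun_zero] at this
      exact this.symm)
    (fun G h => by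
      have := (S34MT_red_ev2 D hθ.1 hj G).2
      rw [hredj, hredθ] at this
      have h' : ev2 (qExpand K1 q (jqModC K1)) (jqModC K1) (G.map (mapRingHom D.inc)) = 0 := h
      rw [h', D.redFun_zero] at this
      exact this.symm)
    P hPev hPev2
    (fun a b ha => by
      rw [hsymcoeff, one_mul]
      have : P.natDegree < a := by omega
      rw [coeff_eq_zero_of_natDegree_lt this, coeff_zero])
    (fun b hb => coeff_eq_zero_of_natDegree_lt (lt_of_le_of_lt (hPmid b hb) (Nat.lt_succ_self q)))
    (by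
      have := hP0m
      rw [Monic, leadingCoeff, hP0d] at this
      exact this)
  have hinj : Function.Injective (S18K_O1 A K1).subtype := Subtype.val_injective
  have hinj2 : Function.Injective (mapRingHom (S18K_O1 A K1).subtype) :=
    Polynomial.map_injective _ hinj
  have hcoeff : ∀ b, P.coeff b = (G.coeff b).map (S18K_O1 A K1).subtype := by
    intro b
    rw [← hG, coeff_map, coe_mapRingHom]
  refine ⟨G, ?_, ?_, ?_, ?_, ?_, ?_, ?_⟩
  · exact monic_of_injective hinj2 (by rw [hG]; exact hPm)
  · rw [← hPd, ← hG, natDegree_map_eq_of_injective hinj2]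
  · rw [hG]; exact hPev
  · rw [hG]; exact hPev2
  · intro b hb
    have := hPmid b hb
    rwa [hcoeff, natDegree_map_eq_of_injective hinj] at this
  · exact monic_of_injective hinj (by rw [← hcoeff]; exact hP0m)
  · rw [← hP0d, hcoeff, natDegree_map_eq_of_injective hinj]

end OLevel


section Shapes

variable (A : ValuationSubring (AlgebraicClosure ℚ))
  (K1 : IntermediateField ℚ (AlgebraicClosure ℚ)) [IsDiscreteValuationRing (S18K_O1 A K1)]

/-- the constants `O1 → O ⊆ L` -/
def S34MT_iota : (S18K_O1 A K1) →+* (S18K_O A K1) :=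
  ((HahnSeries.C : K1 →+* LaurentSeries K1).comp (S18K_O1 A K1).subtype).codRestrict
    (S18K_O A K1) (fun c => ⟨(c : K1), c.2, rfl⟩)

theorem S34MT_iota_coe (c : S18K_O1 A K1) :
    ((S34MT_iota A K1 c : S18K_O A K1) : LaurentSeries K1) = HahnSeries.C (c : K1) := rfl

theorem S34MT_iota_injective : Function.Injective (S34MT_iota A K1) := by
  intro a b h
  have h1 := congrArg (fun z : S18K_O A K1 => (z : LaurentSeries K1)) h
  simp only [S34MT_iota_coe] at h1
  exact Subtype.ext (HahnSeries.C_injective h1)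

theorem S34MT_aeval_iota (x : LaurentSeries K1) (g : (S18K_O1 A K1)[X]) :
    aeval x (g.map (S34MT_iota A K1)) =
      eval₂ (HahnSeries.C : K1 →+* LaurentSeries K1) x (g.map (S18K_O1 A K1).subtype) := by
  rw [aeval_def, eval₂_map, eval₂_map]
  rfl

theorem S34MT_eval₂_mem_adj (x : LaurentSeries K1) (g : (S18K_O1 A K1)[X]) :
    eval₂ (HahnSeries.C : K1 →+* LaurentSeries K1) x (g.map (S18K_O1 A K1).subtype) ∈
      adj (S18K_O A K1) x := by
  rw [eval₂_map, eval₂_eq_sum_range]
  refine Subring.sum_mem _ fun i _ => ?_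
  refine Subring.mul_mem _ (S34CUSP_O_le_adj _ _ ?_) (Subring.pow_mem _ (S34CUSP_mem_adj _ _) _)
  exact ⟨((g.coeff i : S18K_O1 A K1) : K1), (g.coeff i).2, rfl⟩

/-- from a monic two-variable relation over `O1` to the sum form and to integrality -/
theorem S34MT_of_rel (q : ℕ) (x y : LaurentSeries K1) (G : (S18K_O1 A K1)[X][X]) (hGm : G.Monic)
    (hGd : G.natDegree = q + 1)
    (hev : ev2 x y (G.map (mapRingHom (S18K_O1 A K1).subtype)) = 0)
    (hmid : ∀ b, 1 ≤ b → (G.coeff b).natDegree ≤ q) (h0m : (G.coeff 0).Monic)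
    (h0d : (G.coeff 0).natDegree = q + 1) :
    S34CUSP_RelSum (S18K_O A K1) x y q ∧ IsIntegral (adj (S18K_O A K1) x) y := by
  have hinj := S34MT_iota_injective A K1
  have hsum : y ^ (q + 1) + ∑ i ∈ Finset.range (q + 1),
      eval₂ (HahnSeries.C : K1 →+* LaurentSeries K1) x
        ((G.coeff i).map (S18K_O1 A K1).subtype) * y ^ i = 0 := by
    have h1 := hev
    unfold ev2 at h1
    rw [coe_eval₂RingHom, eval₂_map, eval₂_eq_sum_range, hGd, Finset.sum_range_succ] at h1
    have h2 : G.coeff (q + 1) = 1 := by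
      rw [← hGd]; exact hGm.coeff_natDegree
    rw [h2] at h1
    simp only [RingHom.comp_apply, coe_mapRingHom, coe_eval₂RingHom, Polynomial.map_one,
      eval₂_one, one_mul] at h1
    rw [add_comm]
    exact h1
  constructor
  · refine ⟨fun i => (G.coeff i).map (S34MT_iota A K1), ?_, ?_, ?_, ?_⟩
    · intro i hi _
      rw [natDegree_map_eq_of_injective hinj]
      exact hmid i hi
    · exact h0m.map _
    · rw [natDegree_map_eq_of_injective hinj]
      exact h0d
    · simp only [S34MT_aeval_iota]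
      exact hsum
  · set M : (LaurentSeries K1)[X] := (G.map (mapRingHom (S18K_O1 A K1).subtype)).map
      (eval₂RingHom (HahnSeries.C : K1 →+* LaurentSeries K1) x) with hM
    refine S34CUSP_isIntegral_of_coeff_mem _ M ?_ ?_ y ?_
    · exact (hGm.map _).map _
    · intro i
      rw [hM, coeff_map, coeff_map, coe_mapRingHom, coe_eval₂RingHom]
      exact S34MT_eval₂_mem_adj A K1 x _
    · rw [hM, eval_map]
      exact hev

variable (q : ℕ) [NeZero q] (hq : q.Prime) (hA : A.LiesOverPrime q)

include hq hA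

/-- **helper18's modular relation, sum form, for `(j, θ)` and for `(θ, j)`** -/
theorem S34MT_relSum :
    S34CUSP_RelSum (S18K_O A K1) (S18K_j K1) (qExpand K1 q (S18K_j K1)) q ∧
      S34CUSP_RelSum (S18K_O A K1) (qExpand K1 q (S18K_j K1)) (S18K_j K1) q := by
  obtain ⟨G, hGm, hGd, hev1, hev2, hmid, h0m, h0d⟩ := S34MT_modeq_O1 A K1 q hq hA
  exact ⟨(S34MT_of_rel A K1 q _ _ G hGm hGd hev1 hmid h0m h0d).1,
    (S34MT_of_rel A K1 q _ _ G hGm hGd hev2 hmid h0m h0d).1⟩

/-- helper18's modular relation `S34CUSP_Rel` for `(j, θ)` and `(θ, j)` -/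
theorem S34MT_rel :
    S34CUSP_Rel (S18K_O A K1) (S18K_j K1) (qExpand K1 q (S18K_j K1)) q ∧
      S34CUSP_Rel (S18K_O A K1) (qExpand K1 q (S18K_j K1)) (S18K_j K1) q :=
  ⟨S34CUSP_rel_of_relSum (S34MT_relSum A K1 q hq hA).1,
    S34CUSP_rel_of_relSum (S34MT_relSum A K1 q hq hA).2⟩

/-- **`θ = j(q^q)` is integral over `O[j]`** (= `hjq` of `S34FC_main_normal`) -/
theorem S34MT_isIntegral :
    IsIntegral (adj (S18K_O A K1) (S18K_j K1)) (qExpand K1 q (S18K_j K1)) := by
  obtain ⟨G, hGm, hGd, hev1, hev2, hmid, h0m, h0d⟩ := S34MT_modeq_O1 A K1 q hq hA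
  exact (S34MT_of_rel A K1 q _ _ G hGm hGd hev1 hmid h0m h0d).2

/-- **`j` is integral over `O[θ]`** -/
theorem S34MT_isIntegral' :
    IsIntegral (adj (S18K_O A K1) (qExpand K1 q (S18K_j K1))) (S18K_j K1) := by
  obtain ⟨G, hGm, hGd, hev1, hev2, hmid, h0m, h0d⟩ := S34MT_modeq_O1 A K1 q hq hA
  exact (S34MT_of_rel A K1 q _ _ G hGm hGd hev2 hmid h0m h0d).2

end Shapes

end Fermat.Agent.S34_helper1_MODEQT
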