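import Mathlib
import Fermat.Agent.S34_helper13_VCOUNT
import Fermat.Agent.S34_helper13_KEY
import Fermat.Agent.S34_helper27_C2Defs

/-!
# S34, piece X-HOR, abstract part (helper20): the fundamental identity with a ramification bound

`R` a discrete valuation ring with fraction field `F`, `F'/F` finite separable of degree
`≤ 1 + b`, `Woo ≠ W0` valuation subrings of `F'` dominating `R` such that a uniformiser of `R`
is `t ^ b * u` with `t` a non-unit of `W0` and `u ∈ W0` (so `e(W0 | R) ≥ b`).  Then there is no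
third valuation subring of `F'` dominating `R`.

* `S34HOR_le_ramificationIdx`, `S34HOR_count_core`, `S34HOR_two` : the `ValuationSubring` form
  (on top of helper13's `S34_helper13_VCOUNT`);
* `S34HOR_abs` : the `Subring L` form (on top of helper13's `S34_helper13_KEY`), with
  `S34C2_Val π F W` for "`W` is a valuation ring of `F` in which `π` is a non-unit".
-/

set_option autoImplicit false
set_option linter.style.haveILetI false
set_option linter.unusedSectionVars false
set_option linter.unusedVariables false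

open IsDedekindDomain IsDedekindDomain.HeightOneSpectrum WithZero Polynomial

namespace Fermat.Agent.S34_helper20_HOR

open Fermat.Agent.S34_helper13_VCOUNT Fermat.Agent.S34_helper13_KEY
  Fermat.Agent.S34_helper27_C2Defs

section Count

variable {R : Type*} (S : Type*) {F' : Type*} [CommRing R] [IsDomain R]
  [IsDiscreteValuationRing R]
  [CommRing S] [IsDedekindDomain S] [Field F'] [Algebra R F'] [FaithfulSMul R F']
  [Algebra R S] [Algebra S F'] [IsScalarTower R S F'] [IsFractionRing S F']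
  [IsIntegralClosure S R F'] [Module.Finite R S] [Module.Flat R S]

omit [Field F'] [Algebra R F'] [FaithfulSMul R F'] [Algebra S F'] [IsScalarTower R S F']
  [IsFractionRing S F'] [IsIntegralClosure S R F'] in
/-- Arithmetic core: two distinct primes, `b ≤ e(Q)` and `n ≤ 1 + b`: there is no third one. -/
theorem S34HOR_count_core [Algebra.IsIntegral R S] (P Q : HeightOneSpectrum S) (hPQ : P ≠ Q)
    {b : ℕ} (hab : Module.finrank R S ≤ 1 + b) (hb : b ≤ Q.asIdeal.ramificationIdx R) :
    ∀ T : HeightOneSpectrum S, T = P ∨ T = Q := by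
  classical
  letI : Fintype ((IsLocalRing.maximalIdeal R).primesOver S) :=
    (Algebra.QuasiFinite.finite_primesOver _).fintype
  have hsum := Ideal.sum_ramification_inertia_eq_finrank (IsLocalRing.maximalIdeal R) S
  set t : (IsLocalRing.maximalIdeal R).primesOver S → ℕ :=
    fun q => q.1.ramificationIdx R * q.1.inertiaDeg R with ht
  have hpos : ∀ q : (IsLocalRing.maximalIdeal R).primesOver S, 1 ≤ t q := by
    intro q
    haveI := q.2.1
    have h1 : 0 < q.1.ramificationIdx R := Ideal.ramificationIdx_pos q.1 R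
    have h2 : 0 < q.1.inertiaDeg R := Ideal.inertiaDeg_pos q.1 R
    exact Nat.mul_pos h1 h2
  set qP := S34V_toPrimesOver (R := R) S P with hqP
  set qQ := S34V_toPrimesOver (R := R) S Q with hqQ
  have hne : qP ≠ qQ := fun h => hPQ (S34V_toPrimesOver_injective S h)
  have hfQ : 0 < Q.asIdeal.inertiaDeg R := Ideal.inertiaDeg_pos Q.asIdeal R
  have h2 : t qP + t qQ + ∑ q ∈ (Finset.univ.erase qP).erase qQ, t q = Module.finrank R S := by
    rw [← hsum, ← Finset.add_sum_erase Finset.univ t (Finset.mem_univ qP),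
      ← Finset.add_sum_erase (Finset.univ.erase qP) t
        (Finset.mem_erase.2 ⟨hne.symm, Finset.mem_univ qQ⟩), add_assoc]
  have htQ : t qQ = Q.asIdeal.ramificationIdx R * Q.asIdeal.inertiaDeg R := rfl
  have h4 : b ≤ t qQ := by
    rw [htQ]
    exact hb.trans (Nat.le_mul_of_pos_right _ hfQ)
  have h3 := hpos qP
  have h5 : ∑ q ∈ (Finset.univ.erase qP).erase qQ, t q = 0 := by omega
  intro T
  by_contra hT
  rw [not_or] at hT
  have hT1 : S34V_toPrimesOver (R := R) S T ∈ (Finset.univ.erase qP).erase qQ := by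
    refine Finset.mem_erase.2 ⟨fun h => hT.2 (S34V_toPrimesOver_injective S h),
      Finset.mem_erase.2 ⟨fun h => hT.1 (S34V_toPrimesOver_injective S h), Finset.mem_univ _⟩⟩
  have := Finset.single_le_sum (f := t) (fun _ _ => Nat.zero_le _) hT1
  have := hpos (S34V_toPrimesOver (R := R) S T)
  omega

end Count

section Ram

variable {R : Type*} (S : Type*) {F' : Type*} [CommRing R] [IsDomain R]
  [IsDiscreteValuationRing R]
  [CommRing S] [IsDedekindDomain S] [Field F'] [Algebra R F'] [FaithfulSMul R F']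
  [Algebra R S] [Algebra S F'] [IsScalarTower R S F'] [IsFractionRing S F']
  [IsIntegralClosure S R F']
  (W : ValuationSubring F')

/-- the valuation of a uniformiser of `R` at a prime of `S` over it -/
theorem S34HOR_valuation_unif [Module.IsTorsionFree R S] (P : HeightOneSpectrum S)
    [P.asIdeal.LiesOver (IsLocalRing.maximalIdeal R)] {ϖ : R} (hϖ : Irreducible ϖ) :
    P.valuation F' (algebraMap R F' ϖ) = exp (-1 : ℤ) ^ (P.asIdeal.ramificationIdx R) := by
  haveI : P.asIdeal.LiesOver (S34V_hosR R).asIdeal := ‹_›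
  have h1 := intValuation_liesOver (S34V_hosR R) P ϖ
  have h2 : (S34V_hosR R).intValuation ϖ = exp (-1 : ℤ) :=
    intValuation_singleton _ hϖ.ne_zero (by
      show IsLocalRing.maximalIdeal R = _
      rw [hϖ.maximalIdeal_eq])
  have h3 : (S34V_hosR R).asIdeal.ramificationIdx' P.asIdeal = P.asIdeal.ramificationIdx R :=
    Ideal.ramificationIdx'_eq_ramificationIdx _ _ (S34V_hosR R).ne_bot
  rw [h3, h2] at h1
  rw [IsScalarTower.algebraMap_apply R S F', valuation_of_algebraMap]
  exact h1.symm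

/-- **ramification bound**: if a uniformiser of `R` is `t ^ b * u` with `t` a non-unit of `W`
and `u ∈ W`, then `b ≤ e(W | R)`. -/
theorem S34HOR_le_ramificationIdx [Module.IsTorsionFree R S] (hW : S34V_Dom R W)
    {ϖ : R} (hϖ : Irreducible ϖ) {b : ℕ} {t u : F'} (ht : t ∈ W.nonunits) (hu : u ∈ W)
    (h : algebraMap R F' ϖ = t ^ b * u) :
    b ≤ (S34V_hos S W hW).asIdeal.ramificationIdx R := by
  set P := S34V_hos S W hW with hP
  haveI : Algebra.IsIntegral R S := IsIntegralClosure.isIntegral_algebra R F'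
  haveI := S34V_liesOver (R := R) P
  have h1 := S34HOR_valuation_unif (F' := F') S P hϖ
  have h2 : P.valuation F' t < 1 := (S34V_mem_nonunits_iff S W hW t).1 ht
  have h3 : P.valuation F' t ≤ exp (-1 : ℤ) := by
    rw [← lt_mul_exp_iff_le (by simp)]
    rw [← exp_add]
    simpa using h2
  have h4 : P.valuation F' u ≤ 1 := (S34V_mem_iff S W hW u).1 hu
  have h5 : exp (-1 : ℤ) ^ (P.asIdeal.ramificationIdx R) ≤ exp (-1 : ℤ) ^ b := by
    rw [← h1, h, map_mul, map_pow]
    calc P.valuation F' t ^ b * P.valuation F' u ≤ exp (-1 : ℤ) ^ b * 1 :=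
          mul_le_mul' (pow_le_pow_left' h3 b) h4
      _ = exp (-1 : ℤ) ^ b := mul_one _
  by_contra hcon
  rw [not_le] at hcon
  have h6 : exp (-1 : ℤ) ^ b < exp (-1 : ℤ) ^ (P.asIdeal.ramificationIdx R) := by
    rw [← exp_nsmul, ← exp_nsmul, exp_lt_exp]
    simp only [smul_eq_mul, nsmul_eq_mul, mul_neg, mul_one, neg_lt_neg_iff]
    exact_mod_cast hcon
  exact absurd h5 (not_le.mpr h6)

end Ram

section Two

variable (R F : Type*) {F' : Type*} [CommRing R] [IsDomain R] [IsDiscreteValuationRing R]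
  [Field F] [Field F'] [Algebra R F] [IsFractionRing R F] [Algebra F F'] [Algebra R F']
  [IsScalarTower R F F'] [FiniteDimensional F F'] [Algebra.IsSeparable F F']

include F in
/-- **The fundamental identity with a ramification bound.** -/
theorem S34HOR_two (Woo W0 : ValuationSubring F') (hoo : S34V_Dom R Woo) (h0 : S34V_Dom R W0)
    (hne : Woo ≠ W0) {b : ℕ} (hab : Module.finrank F F' ≤ 1 + b)
    {ϖ : R} (hϖ : Irreducible ϖ) {t u : F'} (ht : t ∈ W0.nonunits) (hu : u ∈ W0)
    (h : algebraMap R F' ϖ = t ^ b * u) :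
    ∀ W : ValuationSubring F', S34V_Dom R W → W = Woo ∨ W = W0 := by
  haveI := S34V_isDedekind R F F'
  haveI := S34V_isFrac R F F'
  haveI := S34V_faithful R F F'
  haveI := S34V_finite R F F'
  haveI := S34V_torsionFree R F F'
  haveI := S34V_flat R F F'
  haveI : Algebra.IsIntegral R (S34V_S R F') := IsIntegralClosure.isIntegral_algebra R F'
  have hn : Module.finrank R (S34V_S R F') = Module.finrank F F' :=
    (IsFractionRing.finrank_eq R F (S34V_S R F') F').symm
  set P := S34V_hos (S34V_S R F') Woo hoo with hP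
  set Q := S34V_hos (S34V_S R F') W0 h0 with hQ
  have hPQ : P ≠ Q := fun h => hne (S34V_hos_injective (S34V_S R F') hoo h0 h)
  have hb := S34HOR_le_ramificationIdx (S34V_S R F') W0 h0 hϖ ht hu h
  have hall := S34HOR_count_core (R := R) (S34V_S R F') P Q hPQ (hn ▸ hab) hb
  intro W hW
  rcases hall (S34V_hos (S34V_S R F') W hW) with h | h
  · exact Or.inl (S34V_hos_injective (S34V_S R F') hW hoo h)
  · exact Or.inr (S34V_hos_injective (S34V_S R F') hW h0 h)

end Two

section Abs

variable {L : Type*} [Field L] {π : L} {F1' F1 : Subfield L} {V' V1 V2 : Subring L}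

/-- **X-HOR, abstract form** (`Subring L` vocabulary): `V'` a discrete valuation ring of `F1'`
with uniformiser `π`, `F1/F1'` of degree `≤ b + 1`, `V1 ≠ V2` valuation rings of `F1` containing
`V'` in which `π` is a non-unit, and `π = t ^ b * u` with `t` a non-unit of `V2`, `u ∈ V2`.
Then `V1`, `V2` are the only valuation rings of `F1` containing `V'` in which `π` is a non-unit. -/
theorem S34HOR_abs [CharZero L] (hF : F1' ≤ F1)
    (hV' : S34C2_Val π F1' V')
    (hsep : ∀ x ∈ F1', x ≠ 0 → ∃ (z : ℤ) (u : L), u ∈ V' ∧ u⁻¹ ∈ V' ∧ x = π ^ z * u)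
    (h1 : S34C2_Val π F1 V1) (h2 : S34C2_Val π F1 V2) (hV1 : V' ≤ V1) (hV2 : V' ≤ V2)
    (hne : V1 ≠ V2) {b : ℕ}
    (hdeg : ∃ s : Finset L, s.card ≤ b + 1 ∧ ∀ x ∈ F1, ∃ c : L → L,
      (∀ y, c y ∈ F1') ∧ x = ∑ y ∈ s, c y * y)
    {t u : L} (ht : t ∈ V2) (ht' : t = 0 ∨ t⁻¹ ∉ V2) (hu : u ∈ V2) (hπ : π = t ^ b * u) :
    ∀ W : Subring L, S34C2_Val π F1 W → V' ≤ W → W = V1 ∨ W = V2 := by
  classical
  letI := S34KEY_alg hF
  obtain ⟨hfd, hfr⟩ := S34KEY_finrank_le hF hdeg
  haveI := hfd
  haveI : CharZero ↥F1' := by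
    refine ⟨fun a b hab => ?_⟩
    have := congrArg (fun t : ↥F1' => (t : L)) hab
    simpa using this
  haveI : Algebra.IsSeparable ↥F1' ↥F1 := Algebra.IsAlgebraic.isSeparable_of_perfectField
  haveI := S34KEY_isDVR hV' hsep
  letI := S34KEY_algR hF hV'
  haveI : IsScalarTower ↥(S34KEY_vs hV') ↥F1' ↥F1 := IsScalarTower.of_algebraMap_eq (fun _ => rfl)
  have hd1 := S34KEY_dom hF hV' hsep h1 hV1
  have hd2 := S34KEY_dom hF hV' hsep h2 hV2
  have hne' : S34KEY_vs h1 ≠ S34KEY_vs h2 := fun h => hne (S34KEY_vs_injective h1 h2 h)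
  have hab : Module.finrank ↥F1' ↥F1 ≤ 1 + b := by omega
  have hπirr := S34KEY_pi_irreducible hV' hsep
  have htn : (⟨t, h2.le ht⟩ : ↥F1) ∈ (S34KEY_vs h2).nonunits := by
    rw [S34KEY_mem_nonunits]
    exact ht'
  have hun : (⟨u, h2.le hu⟩ : ↥F1) ∈ S34KEY_vs h2 := hu
  have hπ' : algebraMap ↥(S34KEY_vs hV') ↥F1 (S34KEY_pi hV') =
      (⟨t, h2.le ht⟩ : ↥F1) ^ b * (⟨u, h2.le hu⟩ : ↥F1) := by
    apply Subtype.ext
    exact hπ
  have hall := S34HOR_two ↥(S34KEY_vs hV') ↥F1' (S34KEY_vs h1) (S34KEY_vs h2) hd1 hd2 hne' hab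
    hπirr htn hun hπ'
  intro W hW hVW
  have hdW := S34KEY_dom hF hV' hsep hW hVW
  rcases hall (S34KEY_vs hW) hdW with h | h
  · exact Or.inl (S34KEY_vs_injective hW h1 h)
  · exact Or.inr (S34KEY_vs_injective hW h2 h)

end Abs

end Fermat.Agent.S34_helper20_HOR
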