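import Mathlib

/-!
# S34, piece X-HOR, generic bricks (helper20)

* `S34HOR_restrict_unique` : two valuation subrings of `F ⊇ k` containing `k` in which a
  transcendental `x` is a non-unit have the same restriction to `k(x)`;
* `S34HOR_isIntegral_of_forall` : an element of a field lying in every valuation subring that
  contains a set `s` is integral over the subring generated by `s`.
-/

set_option autoImplicit false
set_option linter.style.haveILetI false
set_option linter.unusedSectionVars false
set_option linter.unusedVariables false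

open Polynomial IntermediateField

namespace Fermat.Agent.S34_helper20_HORU

section Unique

variable {k F : Type*} [Field k] [Field F] [Algebra k F]

/-- Polynomials in `x` lie in `V`. -/
theorem S34HOR_aeval_mem (V : ValuationSubring F) (hk : ∀ a : k, algebraMap k F a ∈ V) (x : F)
    (hxV : x ∈ V) (q : k[X]) : aeval x q ∈ V := by
  induction q using Polynomial.induction_on with
  | C a => rw [aeval_C]; exact hk a
  | add p q hp hq => rw [map_add]; exact V.add_mem _ _ hp hq
  | monomial n a h =>
    rw [pow_succ, ← mul_assoc, map_mul, aeval_X]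
    exact V.mul_mem _ _ h hxV

/-- Nonzero constants have valuation one. -/
theorem S34HOR_valuation_const (V : ValuationSubring F) (hk : ∀ a : k, algebraMap k F a ∈ V)
    {a : k} (ha : a ≠ 0) : V.valuation (algebraMap k F a) = 1 := by
  have h1 : V.valuation (algebraMap k F a) ≤ 1 := (V.valuation_le_one_iff _).2 (hk a)
  have h2 : V.valuation (algebraMap k F a⁻¹) ≤ 1 := (V.valuation_le_one_iff _).2 (hk a⁻¹)
  have h3 : V.valuation (algebraMap k F a) * V.valuation (algebraMap k F a⁻¹) = 1 := by
    rw [← map_mul, ← map_mul, mul_inv_cancel₀ ha, map_one, map_one]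
  refine le_antisymm h1 ?_
  calc (1 : V.ValueGroup) = V.valuation (algebraMap k F a) * V.valuation (algebraMap k F a⁻¹) :=
        h3.symm
    _ ≤ V.valuation (algebraMap k F a) * 1 := by gcongr
    _ = _ := mul_one _

/-- The valuation of a nonzero polynomial in a non-unit `x` is `v(x) ^ (order of vanishing at 0)`. -/
theorem S34HOR_valuation_aeval (V : ValuationSubring F) (hk : ∀ a : k, algebraMap k F a ∈ V)
    (x : F) (hxV : V.valuation x < 1) (q : k[X]) (hq : q ≠ 0) :
    V.valuation (aeval x q) = V.valuation x ^ (q.rootMultiplicity 0) := by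
  have hxmem : x ∈ V := (V.valuation_le_one_iff _).1 hxV.le
  obtain ⟨w, hw, hnd⟩ := Polynomial.exists_eq_pow_rootMultiplicity_mul_and_not_dvd q hq 0
  have hw0 : w.coeff 0 ≠ 0 := by
    intro h0
    apply hnd
    rw [C_0, sub_zero]
    exact Polynomial.X_dvd_iff.2 h0
  have hwv : V.valuation (aeval x w) = 1 := by
    have h1 : aeval x w = aeval x (divX w) * x + algebraMap k F (w.coeff 0) := by
      conv_lhs => rw [← Polynomial.divX_mul_X_add w]
      rw [map_add, map_mul, aeval_X, aeval_C]
    have h2 : V.valuation (aeval x (divX w) * x) < 1 := by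
      rw [map_mul]
      have h3 : V.valuation (aeval x (divX w)) ≤ 1 :=
        (V.valuation_le_one_iff _).2 (S34HOR_aeval_mem V hk x hxmem _)
      calc V.valuation (aeval x (divX w)) * V.valuation x
          ≤ 1 * V.valuation x := by gcongr
        _ = V.valuation x := one_mul _
        _ < 1 := hxV
    rw [h1, add_comm]
    have h4 := S34HOR_valuation_const V hk hw0
    rw [Valuation.map_add_eq_of_lt_left _ (by rw [h4]; exact h2), h4]
  conv_lhs => rw [hw]
  rw [map_mul, map_mul, map_pow, C_0, sub_zero, aeval_X, hwv, mul_one, map_pow]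

/-- The valuation of `r(x) / s(x)` compared with `1`, in terms of the orders of vanishing. -/
theorem S34HOR_valuation_div (V : ValuationSubring F) (hk : ∀ a : k, algebraMap k F a ∈ V)
    (x : F) (hx : Transcendental k x) (hxV : V.valuation x < 1) (r s : k[X]) (hr : r ≠ 0)
    (hs : s ≠ 0) :
    (V.valuation (aeval x r / aeval x s) ≤ 1 ↔ s.rootMultiplicity 0 ≤ r.rootMultiplicity 0) ∧
      (V.valuation (aeval x r / aeval x s) < 1 ↔
        s.rootMultiplicity 0 < r.rootMultiplicity 0) := by
  have hx0 : V.valuation x ≠ 0 := by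
    rw [Valuation.ne_zero_iff]
    rintro rfl
    exact hx ⟨X, X_ne_zero, by simp⟩
  have hpos : 0 < V.valuation x := zero_lt_iff.mpr hx0
  have hspos : 0 < V.valuation x ^ (s.rootMultiplicity 0) := pow_pos hpos _
  rw [map_div₀, S34HOR_valuation_aeval V hk x hxV r hr, S34HOR_valuation_aeval V hk x hxV s hs]
  constructor
  · rw [div_le_one₀ hspos]
    exact pow_le_pow_iff_right_of_lt_one₀ hpos hxV
  · rw [div_lt_one₀ hspos]
    exact pow_lt_pow_iff_right_of_lt_one₀ hpos hxV

/-- **uniqueness of the restriction to `k(x)`** -/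
theorem S34HOR_restrict_unique (V V' : ValuationSubring F)
    (hk : ∀ a : k, algebraMap k F a ∈ V) (hk' : ∀ a : k, algebraMap k F a ∈ V')
    (x : F) (hx : Transcendental k x) (hxV : V.valuation x < 1) (hxV' : V'.valuation x < 1)
    (a : F) (ha : a ∈ k⟮x⟯) :
    (a ∈ V ↔ a ∈ V') ∧ (a ∈ V.nonunits ↔ a ∈ V'.nonunits) := by
  by_cases ha0 : a = 0
  · subst ha0
    refine ⟨⟨fun _ => V'.zero_mem, fun _ => V.zero_mem⟩, ?_⟩
    rw [V.mem_nonunits_iff, V'.mem_nonunits_iff, map_zero, map_zero]
    exact ⟨fun _ => zero_lt_one, fun _ => zero_lt_one⟩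
  obtain ⟨r, s, rfl⟩ := (IntermediateField.mem_adjoin_simple_iff k a).1 ha
  have hr : r ≠ 0 := by
    rintro rfl
    simp at ha0
  have hs : s ≠ 0 := by
    rintro rfl
    simp at ha0
  have h1 := S34HOR_valuation_div V hk x hx hxV r s hr hs
  have h2 := S34HOR_valuation_div V' hk' x hx hxV' r s hr hs
  refine ⟨?_, ?_⟩
  · rw [← V.valuation_le_one_iff, ← V'.valuation_le_one_iff, h1.1, h2.1]
  · rw [V.mem_nonunits_iff, V'.mem_nonunits_iff, h1.2, h2.2]

end Unique

section Integral

variable {K : Type*} [Field K]

/-- an element lying in every valuation subring containing `s` is integral over the subring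
generated by `s` -/
theorem S34HOR_isIntegral_of_forall (s : Set K) (x : K)
    (h : ∀ V : ValuationSubring K, s ⊆ (V : Set K) → x ∈ V) :
    IsIntegral (Subring.closure s) x := by
  have h1 : x ∈ (⨅ V : {V : ValuationSubring K // s ⊆ V.toSubring}, V.1.toSubring) := by
    rw [Subring.mem_iInf]
    rintro ⟨V, hV⟩
    exact h V hV
  rw [iInf_valuationSubring_superset] at h1
  exact h1

end Integral

end Fermat.Agent.S34_helper20_HORU
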