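import Mathlib
import Fermat.Agent.S34_helper20_HOR
import Fermat.Agent.S34_helper20_HORU
import Fermat.Agent.S34_helper20_V0
import Fermat.Agent.S34_helper15_DEG
import Fermat.Agent.S18_helper25_CORE

/-!
# S34, piece X-HOR, concrete horizontal half (helper20)

`θ := j(q^q)` is integral over `K1[j]`, for every field `K1` of characteristic zero embedded in
`Qbar` and every prime `q` : pole counting at the two cusps of `X_0(q)`.
-/

set_option autoImplicit false
set_option linter.style.haveILetI false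
set_option linter.unusedSectionVars false
set_option linter.unusedVariables false

open ModularCurve IntermediateField Polynomial
open Fermat.Agent.S34_helper13_VCOUNT
open Fermat.Agent.S34_helper20_HOR Fermat.Agent.S34_helper20_HORU Fermat.Agent.S34_helper20_V0
open Fermat.Agent.S34_helper15_DEG Fermat.Agent.S18_helper25_COREA
open Fermat.Agent.S18_helper26_CONST Fermat.Agent.S18_helper25_CORE

namespace Fermat.Agent.S34_helper20_HORK

section Orders

variable {K : Type*} [Field K]

theorem S34HORK_order_qExpand (N : ℕ) [NeZero N] {x : LaurentSeries K} (hx : x ≠ 0) :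
    (qExpand K N x).order = (N : ℤ) * x.order := by
  have hN : (0 : ℤ) < N := by exact_mod_cast Nat.pos_of_ne_zero (NeZero.ne N)
  have hne : qExpand K N x ≠ 0 := fun h => hx (qExpand_injective (R := K) N (by rw [h, map_zero]))
  apply le_antisymm
  · apply HahnSeries.order_le_of_coeff_ne_zero
    rw [qExpand_coeff_mul]
    exact fun h0 => hx (HahnSeries.coeff_order_eq_zero.mp h0)
  · by_contra hcon
    rw [not_le] at hcon
    have h1 : (qExpand K N x).coeff (qExpand K N x).order ≠ 0 :=
      fun h0 => hne (HahnSeries.coeff_order_eq_zero.mp h0)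
    by_cases hdvd : (N : ℤ) ∣ (qExpand K N x).order
    · obtain ⟨k, hk⟩ := hdvd
      rw [hk, qExpand_coeff_mul] at h1
      rw [hk] at hcon
      have hk' : k < x.order := lt_of_mul_lt_mul_left hcon hN.le
      exact h1 (HahnSeries.coeff_eq_zero_of_lt_order hk')
    · exact h1 (qExpand_coeff_of_not_dvd N x hdvd)

theorem S34HORK_order_j : (jqModC K).order = -1 := by
  have h := S18K_order_jqModC_inv (K := K)
  rw [S18K_order_inv] at h
  omega

theorem S34HORK_j_ne : jqModC K ≠ 0 := jqModC_ne_zero_of_nontrivial K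

theorem S34HORK_order_theta (q : ℕ) [NeZero q] : (qExpand K q (jqModC K)).order = -(q : ℤ) := by
  rw [S34HORK_order_qExpand q S34HORK_j_ne, S34HORK_order_j]
  ring

theorem S34HORK_theta_ne (q : ℕ) [NeZero q] : qExpand K q (jqModC K) ≠ 0 :=
  fun h => S34HORK_j_ne (qExpand_injective (R := K) q (by rw [h, map_zero]))

theorem S34HORK_order_mul {x y : LaurentSeries K} (hx : x ≠ 0) (hy : y ≠ 0) :
    (x * y).order = x.order + y.order := HahnSeries.order_mul hx hy

theorem S34HORK_order_pow (x : LaurentSeries K) (n : ℕ) : (x ^ n).order = n * x.order := by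
  rw [HahnSeries.order_pow]
  simp

variable (F : IntermediateField K (LaurentSeries K))

theorem S34HORK_nonunits_cusp (x : F) :
    x ∈ (S18K_cuspVS F).nonunits ↔ x = 0 ∨ 0 < (x : LaurentSeries K).order := by
  rw [ValuationSubring.mem_nonunits_iff_or, S18K_mem_cuspVS, IntermediateField.coe_inv,
    S18K_order_inv]
  constructor
  · rintro (h | h)
    · exact Or.inl h
    · right; omega
  · rintro (h | h)
    · exact Or.inl h
    · right; omega

theorem S34HORK_irreducible (t : S18K_cuspVS F)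
    (ht : ((t : F) : LaurentSeries K).order = 1) : Irreducible t := by
  have ht0 : ((t : F) : LaurentSeries K) ≠ 0 := by
    intro h
    rw [h, HahnSeries.order_zero] at ht
    exact zero_ne_one ht
  refine ⟨?_, ?_⟩
  · intro hu
    have := S18K_order_of_isUnit_cuspVS F _ hu
    rw [ht] at this
    exact one_ne_zero this
  · intro a b hab
    have hab' : ((t : F) : LaurentSeries K) =
        ((a : F) : LaurentSeries K) * ((b : F) : LaurentSeries K) := by
      have := congrArg (fun x : S18K_cuspVS F => ((x : F) : LaurentSeries K)) hab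
      simpa using this
    have ha0 : ((a : F) : LaurentSeries K) ≠ 0 := by
      intro h; rw [h, zero_mul] at hab'; exact ht0 hab'
    have hb0 : ((b : F) : LaurentSeries K) ≠ 0 := by
      intro h; rw [h, mul_zero] at hab'; exact ht0 hab'
    have hord := HahnSeries.order_mul ha0 hb0
    rw [← hab', ht] at hord
    have ha1 : 0 ≤ ((a : F) : LaurentSeries K).order := a.2
    have hb1 : 0 ≤ ((b : F) : LaurentSeries K).order := b.2
    have hcases : ((a : F) : LaurentSeries K).order = 0 ∨
        ((b : F) : LaurentSeries K).order = 0 := by omega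
    rcases hcases with h | h
    · left
      exact S18K_isUnit_cuspVS F a h (fun h0 => ha0 (by rw [h0]; rfl))
    · right
      exact S18K_isUnit_cuspVS F b h (fun h0 => hb0 (by rw [h0]; rfl))

end Orders

section Main

variable (K1 : Type*) [Field K1] [CharZero K1] (emb : K1 →+* AlgebraicClosure ℚ) (q : ℕ)
  [NeZero q] [NeZero (1 * q)] (hq : q.Prime)

theorem S34HORK_hqN (hq : q.Prime) : ¬ q ∣ 1 := fun h => hq.ne_one (Nat.dvd_one.1 h)

/-- `j` in `F_q` -/
noncomputable def S34HORK_j : modularFunctionFieldFullC K1 (1 * q) :=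
  ⟨jqModC K1, jqModC_mem_full K1 (1 * q)⟩

/-- `θ = j(q^q)` in `F_q` -/
noncomputable def S34HORK_th : modularFunctionFieldFullC K1 (1 * q) :=
  ⟨qExpand K1 q (jqModC K1), jqModCd_mem_full K1 (1 * q) (Dvd.intro_left 1 rfl)⟩

/-- the Atkin–Lehner involution of `F_q` -/
noncomputable def S34HORK_w :
    modularFunctionFieldFullC K1 (1 * q) ≃ₐ[K1] modularFunctionFieldFullC K1 (1 * q) :=
  S34V0_w emb q 1 (1 * q) hq (S34HORK_hqN q hq) (Nat.mul_comm 1 q)

theorem S34HORK_coe_j : ((S34HORK_j K1 q : modularFunctionFieldFullC K1 (1 * q)) :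
    LaurentSeries K1) = jqModC K1 := rfl

theorem S34HORK_coe_th : ((S34HORK_th K1 q : modularFunctionFieldFullC K1 (1 * q)) :
    LaurentSeries K1) = qExpand K1 q (jqModC K1) := rfl

theorem S34HORK_j_ne0 : S34HORK_j K1 q ≠ 0 :=
  fun h => S34HORK_j_ne (K := K1) (congrArg Subtype.val h)

theorem S34HORK_th_ne0 : S34HORK_th K1 q ≠ 0 :=
  fun h => S34HORK_theta_ne (K := K1) q (congrArg Subtype.val h)

theorem S34HORK_w_w (x : modularFunctionFieldFullC K1 (1 * q)) :
    S34HORK_w K1 emb q hq (S34HORK_w K1 emb q hq x) = x :=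
  S34V0_w_w emb q 1 (1 * q) hq (S34HORK_hqN q hq) (Nat.mul_comm 1 q) x

theorem S34HORK_w_j : S34HORK_w K1 emb q hq (S34HORK_j K1 q) = S34HORK_th K1 q := by
  apply Subtype.ext
  have h := S34V0_wL_j emb q 1 (1 * q) hq (S34HORK_hqN q hq) (Nat.mul_comm 1 q)
  rw [S34V0_wL_of_mem emb q 1 (1 * q) hq (S34HORK_hqN q hq) (Nat.mul_comm 1 q)
    (jqModC_mem_full K1 (1 * q))] at h
  exact h

theorem S34HORK_w_th : S34HORK_w K1 emb q hq (S34HORK_th K1 q) = S34HORK_j K1 q := by
  rw [← S34HORK_w_j K1 emb q hq, S34HORK_w_w]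

/-- on the level-one field `w` is `f(q) ↦ f(q^q)` -/
theorem S34HORK_w_level (x : modularFunctionFieldFullC K1 (1 * q))
    (hx : (x : LaurentSeries K1) ∈ modularFunctionFieldFullC K1 1) :
    ((S34HORK_w K1 emb q hq x : modularFunctionFieldFullC K1 (1 * q)) : LaurentSeries K1) =
      qExpand K1 q (x : LaurentSeries K1) :=
  S34V0_w_level emb q 1 (1 * q) hq (S34HORK_hqN q hq) (Nat.mul_comm 1 q) x hx

/-- the level-one field is `K1(j)` -/
theorem S34HORK_level_one_le :
    modularFunctionFieldFullC K1 1 ≤ K1⟮jqModC K1⟯ := by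
  rw [modularFunctionFieldFullC, adjoin_le_iff]
  rintro x ⟨d, hne, hd, rfl⟩
  have hd1 : d = 1 := Nat.dvd_one.1 hd
  subst hd1
  rw [qExpand_one_apply]
  exact mem_adjoin_simple_self K1 _

/-- elements of the level-one field lie in `K1(1/j)` inside `F_q` -/
theorem S34HORK_mem_adjoin (x : modularFunctionFieldFullC K1 (1 * q))
    (hx : (x : LaurentSeries K1) ∈ modularFunctionFieldFullC K1 1) :
    x ∈ K1⟮(S34HORK_j K1 q)⁻¹⟯ := by
  have h1 := S34HORK_level_one_le K1 hx
  obtain ⟨r, s, hrs⟩ := (IntermediateField.mem_adjoin_simple_iff K1 _).1 h1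
  have h2 : x = aeval (S34HORK_j K1 q) r / aeval (S34HORK_j K1 q) s := by
    apply Subtype.ext
    rw [hrs]
    have e : ∀ p : K1[X], ((aeval (S34HORK_j K1 q) p : modularFunctionFieldFullC K1 (1 * q)) :
        LaurentSeries K1) = aeval (jqModC K1) p := by
      intro p
      exact (Polynomial.aeval_algHom_apply (modularFunctionFieldFullC K1 (1 * q)).val
        (S34HORK_j K1 q) p).symm
    rw [IntermediateField.coe_div, e, e]
  have h3 : K1⟮S34HORK_j K1 q⟯ ≤ K1⟮(S34HORK_j K1 q)⁻¹⟯ := by
    rw [adjoin_simple_le_iff]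
    have := inv_mem (mem_adjoin_simple_self K1 (S34HORK_j K1 q)⁻¹)
    rwa [inv_inv] at this
  apply h3
  rw [h2]
  exact (IntermediateField.mem_adjoin_simple_iff K1 _).2 ⟨r, s, rfl⟩

theorem S34HORK_transcendental : Transcendental K1 (S34HORK_j K1 q)⁻¹ := by
  intro h
  exact S18P15_transcendental_jbar K1 (1 * q) (IsAlgebraic.inv_iff.1 h)

/-- the cusp valuation ring of `K1(j)` is a discrete valuation ring -/
theorem S34HORK_isDVR :
    IsDiscreteValuationRing ↥(S18K_cuspVS (modularFunctionFieldFullC K1 1)) :=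
  S18K_cuspVS_isDVR
    (⟨(jqModC K1)⁻¹, inv_mem (jqModC_mem_full K1 1)⟩ : modularFunctionFieldFullC K1 1)
    S18K_order_jqModC_inv

/-- the structure map from the cusp valuation ring of `K1(j)` to `F_q` -/
@[reducible] noncomputable def S34HORK_algR :
    Algebra ↥(S18K_cuspVS (modularFunctionFieldFullC K1 1))
      ↥(modularFunctionFieldFullC K1 (1 * q)) :=
  letI := S34DEG_algebra K1 1 q
  ((algebraMap ↥(modularFunctionFieldFullC K1 1) ↥(modularFunctionFieldFullC K1 (1 * q))).comp
    (algebraMap ↥(S18K_cuspVS (modularFunctionFieldFullC K1 1))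
      ↥(modularFunctionFieldFullC K1 1))).toAlgebra

theorem S34HORK_algR_coe (r : ↥(S18K_cuspVS (modularFunctionFieldFullC K1 1))) :
    letI := S34HORK_algR K1 q
    ((algebraMap ↥(S18K_cuspVS (modularFunctionFieldFullC K1 1))
      ↥(modularFunctionFieldFullC K1 (1 * q)) r : ↥(modularFunctionFieldFullC K1 (1 * q))) :
        LaurentSeries K1) = ((r : ↥(modularFunctionFieldFullC K1 1)) : LaurentSeries K1) := by
  letI := S34DEG_algebra K1 1 q
  letI := S34HORK_algR K1 q
  exact S34DEG_algebraMap_coe K1 1 q (r : ↥(modularFunctionFieldFullC K1 1))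

/-- the valuation ring at the cusp `∞` of `F_q` -/
noncomputable def S34HORK_Woo : ValuationSubring ↥(modularFunctionFieldFullC K1 (1 * q)) :=
  S18K_cuspVS (modularFunctionFieldFullC K1 (1 * q))

/-- the valuation ring at the cusp `0` of `F_q` -/
noncomputable def S34HORK_W0 : ValuationSubring ↥(modularFunctionFieldFullC K1 (1 * q)) :=
  (S34HORK_Woo K1 q).comap
    (S34HORK_w K1 emb q hq : ↥(modularFunctionFieldFullC K1 (1 * q)) →+*
      ↥(modularFunctionFieldFullC K1 (1 * q)))

theorem S34HORK_mem_Woo (x : ↥(modularFunctionFieldFullC K1 (1 * q))) :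
    x ∈ S34HORK_Woo K1 q ↔ 0 ≤ (x : LaurentSeries K1).order := Iff.rfl

theorem S34HORK_mem_W0 (x : ↥(modularFunctionFieldFullC K1 (1 * q))) :
    x ∈ S34HORK_W0 K1 emb q hq ↔ S34HORK_w K1 emb q hq x ∈ S34HORK_Woo K1 q := Iff.rfl

theorem S34HORK_nonunits_Woo (x : ↥(modularFunctionFieldFullC K1 (1 * q))) :
    x ∈ (S34HORK_Woo K1 q).nonunits ↔ x = 0 ∨ 0 < (x : LaurentSeries K1).order :=
  S34HORK_nonunits_cusp _ x

/-- non-units of a valuation ring twisted by `w` -/
theorem S34HORK_nonunits_comap (W : ValuationSubring ↥(modularFunctionFieldFullC K1 (1 * q)))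
    (x : ↥(modularFunctionFieldFullC K1 (1 * q))) :
    x ∈ (W.comap (S34HORK_w K1 emb q hq : ↥(modularFunctionFieldFullC K1 (1 * q)) →+*
      ↥(modularFunctionFieldFullC K1 (1 * q)))).nonunits ↔
      S34HORK_w K1 emb q hq x ∈ W.nonunits := by
  rw [ValuationSubring.mem_nonunits_iff_or, ValuationSubring.mem_nonunits_iff_or,
    ValuationSubring.mem_comap]
  have h1 : S34HORK_w K1 emb q hq x = 0 ↔ x = 0 := by
    constructor
    · intro h
      have := congrArg (S34HORK_w K1 emb q hq) h
      rw [S34HORK_w_w, map_zero] at this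
      exact this
    · rintro rfl
      exact map_zero _
  have h2 : (S34HORK_w K1 emb q hq : ↥(modularFunctionFieldFullC K1 (1 * q)) →+*
      ↥(modularFunctionFieldFullC K1 (1 * q))) x⁻¹ = (S34HORK_w K1 emb q hq x)⁻¹ := map_inv₀ _ _
  rw [h1, h2]

theorem S34HORK_nonunits_W0 (x : ↥(modularFunctionFieldFullC K1 (1 * q))) :
    x ∈ (S34HORK_W0 K1 emb q hq).nonunits ↔
      S34HORK_w K1 emb q hq x ∈ (S34HORK_Woo K1 q).nonunits :=
  S34HORK_nonunits_comap K1 emb q hq _ x

theorem S34HORK_const_Woo (c : K1) :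
    algebraMap K1 ↥(modularFunctionFieldFullC K1 (1 * q)) c ∈ S34HORK_Woo K1 q := by
  rw [S34HORK_mem_Woo]
  have h : ((algebraMap K1 ↥(modularFunctionFieldFullC K1 (1 * q)) c :
      ↥(modularFunctionFieldFullC K1 (1 * q))) : LaurentSeries K1) = HahnSeries.C c := by
    show algebraMap K1 (LaurentSeries K1) c = HahnSeries.C c
    rw [algebraMap_laurentSeries_eq_single, HahnSeries.C_apply]
  rw [h, HahnSeries.order_C]

theorem S34HORK_const_comap (W : ValuationSubring ↥(modularFunctionFieldFullC K1 (1 * q)))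
    (hW : ∀ c : K1, algebraMap K1 ↥(modularFunctionFieldFullC K1 (1 * q)) c ∈ W) (c : K1) :
    algebraMap K1 ↥(modularFunctionFieldFullC K1 (1 * q)) c ∈
      W.comap (S34HORK_w K1 emb q hq : ↥(modularFunctionFieldFullC K1 (1 * q)) →+*
        ↥(modularFunctionFieldFullC K1 (1 * q))) := by
  rw [ValuationSubring.mem_comap]
  show S34HORK_w K1 emb q hq (algebraMap K1 _ c) ∈ W
  rw [AlgEquiv.commutes]
  exact hW c

include hq in
theorem S34HORK_th_not_mem_Woo : S34HORK_th K1 q ∉ S34HORK_Woo K1 q := by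
  rw [S34HORK_mem_Woo, S34HORK_coe_th, S34HORK_order_theta]
  have := hq.pos
  omega

theorem S34HORK_th_not_mem_W0 : S34HORK_th K1 q ∉ S34HORK_W0 K1 emb q hq := by
  rw [S34HORK_mem_W0, S34HORK_w_th, S34HORK_mem_Woo, S34HORK_coe_j, S34HORK_order_j]
  omega

/-- the order of `w x` for `x` in the level-one field -/
theorem S34HORK_order_w_level (x : modularFunctionFieldFullC K1 (1 * q))
    (hx : (x : LaurentSeries K1) ∈ modularFunctionFieldFullC K1 1) :
    ((S34HORK_w K1 emb q hq x : modularFunctionFieldFullC K1 (1 * q)) : LaurentSeries K1).order =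
      (q : ℤ) * (x : LaurentSeries K1).order := by
  rw [S34HORK_w_level K1 emb q hq x hx]
  by_cases h0 : (x : LaurentSeries K1) = 0
  · rw [h0, map_zero, HahnSeries.order_zero, mul_zero]
  · exact S34HORK_order_qExpand q h0

/-- `1/θ · j ∈ W_∞ \ W_0` -/
theorem S34HORK_Woo_ne_W0 : S34HORK_Woo K1 q ≠ S34HORK_W0 K1 emb q hq := by
  have hq2 := hq.two_le
  have hj := S34HORK_j_ne (K := K1)
  have hth := S34HORK_theta_ne (K := K1) q
  intro h
  have h1 : (S34HORK_th K1 q)⁻¹ * S34HORK_j K1 q ∈ S34HORK_Woo K1 q := by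
    rw [S34HORK_mem_Woo, MulMemClass.coe_mul, IntermediateField.coe_inv, S34HORK_coe_th,
      S34HORK_coe_j, S34HORK_order_mul (inv_ne_zero hth) hj, S18K_order_inv,
      S34HORK_order_theta, S34HORK_order_j]
    omega
  rw [h, S34HORK_mem_W0, map_mul, map_inv₀, S34HORK_w_th, S34HORK_w_j, S34HORK_mem_Woo,
    MulMemClass.coe_mul, IntermediateField.coe_inv, S34HORK_coe_th,
    S34HORK_coe_j, S34HORK_order_mul (inv_ne_zero hj) hth, S18K_order_inv,
    S34HORK_order_theta, S34HORK_order_j] at h1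
  omega

/-- **no third cusp**: a valuation ring of `F_q` containing the constants in which `1/j` is a
non-unit is the valuation ring of the cusp `∞` or of the cusp `0`. -/
theorem S34HORK_two (W : ValuationSubring ↥(modularFunctionFieldFullC K1 (1 * q)))
    (hWK : ∀ c : K1, algebraMap K1 ↥(modularFunctionFieldFullC K1 (1 * q)) c ∈ W)
    (hWt : (S34HORK_j K1 q)⁻¹ ∈ W.nonunits) :
    W = S34HORK_Woo K1 q ∨ W = S34HORK_W0 K1 emb q hq := by
  have hq2 := hq.two_le
  have hj := S34HORK_j_ne (K := K1)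
  have hth := S34HORK_theta_ne (K := K1) q
  letI := S34DEG_algebra K1 1 q
  haveI := S34DEG_finiteDimensional K1 1 q
  haveI := S34DEG_isSeparable K1 1 q
  haveI := S34HORK_isDVR K1
  letI := S34HORK_algR K1 q
  haveI : IsScalarTower ↥(S18K_cuspVS (modularFunctionFieldFullC K1 1))
      ↥(modularFunctionFieldFullC K1 1) ↥(modularFunctionFieldFullC K1 (1 * q)) :=
    IsScalarTower.of_algebraMap_eq (fun _ => rfl)
  have hcoe := S34HORK_algR_coe K1 q
  have hlev : ∀ r : ↥(S18K_cuspVS (modularFunctionFieldFullC K1 1)),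
      ((algebraMap ↥(S18K_cuspVS (modularFunctionFieldFullC K1 1))
        ↥(modularFunctionFieldFullC K1 (1 * q)) r : ↥(modularFunctionFieldFullC K1 (1 * q))) :
        LaurentSeries K1) ∈ modularFunctionFieldFullC K1 1 := by
    intro r
    rw [hcoe]
    exact (r : ↥(modularFunctionFieldFullC K1 1)).2
  -- positivity of the order on the maximal ideal
  have hmax : ∀ r : ↥(S18K_cuspVS (modularFunctionFieldFullC K1 1)),
      r ∈ IsLocalRing.maximalIdeal ↥(S18K_cuspVS (modularFunctionFieldFullC K1 1)) →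
      r = 0 ∨ 0 < ((r : ↥(modularFunctionFieldFullC K1 1)) : LaurentSeries K1).order := by
    intro r hr
    by_cases hr0 : r = 0
    · exact Or.inl hr0
    right
    have h1 : 0 ≤ ((r : ↥(modularFunctionFieldFullC K1 1)) : LaurentSeries K1).order := r.2
    rcases h1.lt_or_eq with h | h
    · exact h
    · exact absurd (S18K_isUnit_cuspVS _ r h.symm hr0)
        ((IsLocalRing.mem_maximalIdeal _).1 hr)
  have hoo : S34V_Dom ↥(S18K_cuspVS (modularFunctionFieldFullC K1 1)) (S34HORK_Woo K1 q) := by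
    refine ⟨fun r => ?_, fun r hr => ?_⟩
    · rw [S34HORK_mem_Woo, hcoe]
      exact r.2
    · rw [S34HORK_nonunits_Woo]
      rcases hmax r hr with h | h
      · left; rw [h, map_zero]
      · right; rw [hcoe]; exact h
  have h0 : S34V_Dom ↥(S18K_cuspVS (modularFunctionFieldFullC K1 1))
      (S34HORK_W0 K1 emb q hq) := by
    refine ⟨fun r => ?_, fun r hr => ?_⟩
    · rw [S34HORK_mem_W0, S34HORK_mem_Woo, S34HORK_order_w_level K1 emb q hq _ (hlev r), hcoe]
      have h1 : 0 ≤ ((r : ↥(modularFunctionFieldFullC K1 1)) : LaurentSeries K1).order := r.2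
      positivity
    · rw [S34HORK_nonunits_W0, S34HORK_nonunits_Woo]
      rcases hmax r hr with h | h
      · left; rw [h, map_zero, map_zero]
      · right
        rw [S34HORK_order_w_level K1 emb q hq _ (hlev r), hcoe]
        have hq0 : (0 : ℤ) < q := by exact_mod_cast hq.pos
        positivity
  have hne := S34HORK_Woo_ne_W0 K1 emb q hq
  have hab := S34DEG_finrank_le K1 1 q emb hq (S34HORK_hqN q hq)
  -- the uniformiser `1/j`
  have htm : (⟨(jqModC K1)⁻¹, inv_mem (jqModC_mem_full K1 1)⟩ :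
      ↥(modularFunctionFieldFullC K1 1)) ∈ S18K_cuspVS (modularFunctionFieldFullC K1 1) := by
    rw [S18K_mem_cuspVS]
    show 0 ≤ ((jqModC K1)⁻¹ : LaurentSeries K1).order
    rw [S18K_order_jqModC_inv]
    exact zero_le_one
  have hϖ : Irreducible (⟨_, htm⟩ : ↥(S18K_cuspVS (modularFunctionFieldFullC K1 1))) :=
    S34HORK_irreducible _ _ S18K_order_jqModC_inv
  have hϖ' : algebraMap ↥(S18K_cuspVS (modularFunctionFieldFullC K1 1))
      ↥(modularFunctionFieldFullC K1 (1 * q)) ⟨_, htm⟩ = (S34HORK_j K1 q)⁻¹ := by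
    apply Subtype.ext
    rw [hcoe]
    rfl
  have ht : (S34HORK_th K1 q)⁻¹ ∈ (S34HORK_W0 K1 emb q hq).nonunits := by
    rw [S34HORK_nonunits_W0, map_inv₀, S34HORK_w_th, S34HORK_nonunits_Woo]
    right
    rw [IntermediateField.coe_inv, S34HORK_coe_j, S18K_order_jqModC_inv]
    exact zero_lt_one
  have hu : (S34HORK_j K1 q)⁻¹ * (S34HORK_th K1 q) ^ q ∈ S34HORK_W0 K1 emb q hq := by
    rw [S34HORK_mem_W0, map_mul, map_inv₀, map_pow, S34HORK_w_th, S34HORK_w_j, S34HORK_mem_Woo,
      MulMemClass.coe_mul, IntermediateField.coe_inv, SubmonoidClass.coe_pow, S34HORK_coe_th,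
      S34HORK_coe_j, S34HORK_order_mul (inv_ne_zero hth) (pow_ne_zero q hj), S18K_order_inv,
      S34HORK_order_theta, S34HORK_order_pow, S34HORK_order_j]
    omega
  have h : algebraMap ↥(S18K_cuspVS (modularFunctionFieldFullC K1 1))
      ↥(modularFunctionFieldFullC K1 (1 * q)) ⟨_, htm⟩ =
      ((S34HORK_th K1 q)⁻¹) ^ q * ((S34HORK_j K1 q)⁻¹ * (S34HORK_th K1 q) ^ q) := by
    rw [hϖ', mul_left_comm, ← mul_pow, inv_mul_cancel₀ (S34HORK_th_ne0 K1 q), one_pow, mul_one]
  have key := S34HOR_two ↥(S18K_cuspVS (modularFunctionFieldFullC K1 1))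
    ↥(modularFunctionFieldFullC K1 1) (S34HORK_Woo K1 q) (S34HORK_W0 K1 emb q hq) hoo h0 hne hab
    hϖ ht hu h
  apply key W
  -- `W` dominates `R` since it agrees with `W_∞` on `K1(1/j)`
  have htoo : (S34HORK_j K1 q)⁻¹ ∈ (S34HORK_Woo K1 q).nonunits := by
    rw [S34HORK_nonunits_Woo]
    right
    rw [IntermediateField.coe_inv, S34HORK_coe_j, S18K_order_jqModC_inv]
    exact zero_lt_one
  have hru := fun a ha => S34HOR_restrict_unique W (S34HORK_Woo K1 q) hWK
    (S34HORK_const_Woo K1 q) (S34HORK_j K1 q)⁻¹ (S34HORK_transcendental K1 q)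
    ((ValuationSubring.mem_nonunits_iff _).1 hWt) ((ValuationSubring.mem_nonunits_iff _).1 htoo)
    a ha
  refine ⟨fun r => ?_, fun r hr => ?_⟩
  · exact (hru _ (S34HORK_mem_adjoin K1 q _ (hlev r))).1.2 (hoo.1 r)
  · exact (hru _ (S34HORK_mem_adjoin K1 q _ (hlev r))).2.2 (hoo.2 r hr)

include emb hq in
/-- **(V)**: a valuation ring of `F_q` containing the constants and `j` contains `θ`. -/
theorem S34HORK_V (W : ValuationSubring ↥(modularFunctionFieldFullC K1 (1 * q)))
    (hWK : ∀ c : K1, algebraMap K1 ↥(modularFunctionFieldFullC K1 (1 * q)) c ∈ W)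
    (hj : S34HORK_j K1 q ∈ W) : S34HORK_th K1 q ∈ W := by
  by_contra hth
  have hW't : (S34HORK_j K1 q)⁻¹ ∈ (W.comap (S34HORK_w K1 emb q hq :
      ↥(modularFunctionFieldFullC K1 (1 * q)) →+*
      ↥(modularFunctionFieldFullC K1 (1 * q)))).nonunits := by
    rw [S34HORK_nonunits_comap, map_inv₀, S34HORK_w_j, ValuationSubring.mem_nonunits_iff_or]
    right
    rw [inv_inv]
    exact hth
  have hmem : S34HORK_th K1 q ∈ W.comap (S34HORK_w K1 emb q hq :
      ↥(modularFunctionFieldFullC K1 (1 * q)) →+*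
      ↥(modularFunctionFieldFullC K1 (1 * q))) := by
    rw [ValuationSubring.mem_comap]
    show S34HORK_w K1 emb q hq (S34HORK_th K1 q) ∈ W
    rw [S34HORK_w_th]
    exact hj
  rcases S34HORK_two K1 emb q hq _ (S34HORK_const_comap K1 emb q hq W hWK) hW't with h | h
  · rw [h] at hmem
    exact S34HORK_th_not_mem_Woo K1 q hq hmem
  · rw [h] at hmem
    exact S34HORK_th_not_mem_W0 K1 emb q hq hmem

include emb hq in
/-- `θ` is integral over `K1[j]`, inside `F_q` -/
theorem S34HORK_isIntegral_F :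
    IsIntegral ↥(Subring.closure
      (Set.range (algebraMap K1 ↥(modularFunctionFieldFullC K1 (1 * q))) ∪ {S34HORK_j K1 q}))
      (S34HORK_th K1 q) :=
  S34HOR_isIntegral_of_forall _ _ (fun V hV =>
    S34HORK_V K1 emb q hq V (fun c => hV (Or.inl ⟨c, rfl⟩)) (hV (Or.inr rfl)))

end Main

section Final

variable {K1 : Type*} [Field K1] [CharZero K1] (emb : K1 →+* AlgebraicClosure ℚ) (q : ℕ)
  [NeZero q] (hq : q.Prime)

include emb hq in
/-- **X-HOR (GA), horizontal half of `hjq`**: `θ = j(q^q)` is integral over `K1[j]`, for every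
field `K1` of characteristic zero embedded in `Qbar` and every prime `q`. -/
theorem S34HOR_isIntegral_K :
    IsIntegral ↥(Subring.closure
      (Set.range (HahnSeries.C : K1 → LaurentSeries K1) ∪ {jqModC K1}))
      (qExpand K1 q (jqModC K1)) := by
  haveI : NeZero (1 * q) := ⟨by rw [one_mul]; exact hq.ne_zero⟩
  have h := S34HORK_isIntegral_F K1 emb q hq
  have hC : ∀ c : K1, ((algebraMap K1 ↥(modularFunctionFieldFullC K1 (1 * q)) c :
      ↥(modularFunctionFieldFullC K1 (1 * q))) : LaurentSeries K1) = HahnSeries.C c := by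
    intro c
    show algebraMap K1 (LaurentSeries K1) c = HahnSeries.C c
    rw [algebraMap_laurentSeries_eq_single, HahnSeries.C_apply]
  have hle : Subring.closure
      (Set.range (algebraMap K1 ↥(modularFunctionFieldFullC K1 (1 * q))) ∪ {S34HORK_j K1 q}) ≤
      (Subring.closure
        (Set.range (HahnSeries.C : K1 → LaurentSeries K1) ∪ {jqModC K1})).comap
        (algebraMap ↥(modularFunctionFieldFullC K1 (1 * q)) (LaurentSeries K1)) := by
    rw [Subring.closure_le]
    rintro y (⟨c, rfl⟩ | rfl)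
    · exact Subring.subset_closure (Or.inl ⟨c, (hC c).symm⟩)
    · exact Subring.subset_closure (Or.inr rfl)
  have := IsIntegral.map_of_comp_eq
    (((algebraMap ↥(modularFunctionFieldFullC K1 (1 * q)) (LaurentSeries K1)).comp
      (Subring.subtype _)).codRestrict
      (Subring.closure (Set.range (HahnSeries.C : K1 → LaurentSeries K1) ∪ {jqModC K1}))
      (fun x => hle x.2))
    (algebraMap ↥(modularFunctionFieldFullC K1 (1 * q)) (LaurentSeries K1))
    (by ext x; rfl) h
  exact this

include emb hq in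
/-- the same statement over the `K1`-subalgebra generated by `j` -/
theorem S34HOR_isIntegral_adjoin :
    IsIntegral ↥(Algebra.adjoin K1 {jqModC K1}) (qExpand K1 q (jqModC K1)) := by
  have h := S34HOR_isIntegral_K emb q hq
  have hle : Subring.closure
      (Set.range (HahnSeries.C : K1 → LaurentSeries K1) ∪ {jqModC K1}) ≤
      (Algebra.adjoin K1 {jqModC K1}).toSubring := by
    rw [Subring.closure_le]
    rintro y (⟨c, rfl⟩ | rfl)
    · have : (HahnSeries.C c : LaurentSeries K1) = algebraMap K1 (LaurentSeries K1) c := by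
        rw [algebraMap_laurentSeries_eq_single, HahnSeries.C_apply]
      rw [this]
      exact Subalgebra.algebraMap_mem _ c
    · exact Algebra.subset_adjoin rfl
  obtain ⟨p, hp, hp0⟩ := h
  refine ⟨p.map (Subring.inclusion hle), hp.map _, ?_⟩
  rw [Polynomial.eval₂_map]
  exact hp0

end Final

end Fermat.Agent.S34_helper20_HORK
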