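import Fermat.Agent.S34_helper20_V0K
import Fermat.Agent.S34_helper13_KEYK
import Fermat.Agent.S34_helper13_KEYD
import Fermat.Agent.S34_helper15_DEG
import Fermat.Agent.S34_helper6_STEP1V2
import Fermat.Agent.S34_Contracts3

/-!
# S34, piece P1c (V), final assembly (helper20)

For the concrete carriers `S18K_*` at the level `N = N' * q` (`q` prime, `q ∤ N'`, `A` over `q`)
and the second valuation ring `V2 = w(V1)` (`S34S1V_V2`, helper6's name for
`S34V0_image … (S18K_V A K1 N)`), with NO hypothesis left: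

* `S34VF_hdeg`   : a spanning set of `≤ q + 1` elements of `F1(N' q)` over `F1(N')`;
* `S34VF_setup2` : `S34C_Setup2` (first conjunct of `S34K_GeomAt`);
* `S34VF_ne`     : `∃ x ∈ V1, x ∉ V2` (second conjunct of `S34K_GeomAt`);
* `S34VF_ne'`    : `∃ y ∈ V2, y ∉ V1` (the field `ne` of `S34XD_Geom`).
-/

set_option autoImplicit false
set_option linter.unusedSectionVars false
set_option linter.unusedVariables false
set_option linter.style.haveILetI false

noncomputable section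

open ModularCurve Fermat.Agent.S24
open Fermat.Agent.S18_helper13_GAUSS Fermat.Agent.S18_helper9_CDefs
open Fermat.Agent.S18_helper25_COREDefs Fermat.Agent.S34_helper12_CDefs
open Fermat.Agent.S34_helper27_C2Defs Fermat.Agent.S34_helper20_WQ Fermat.Agent.S34_helper20_V0
open Fermat.Agent.S34_helper27_V3K Fermat.Agent.S34_helper20_V0K
open Fermat.Agent.S34_helper13_KEYK Fermat.Agent.S34_helper13_KEYD Fermat.Agent.S34_helper15_DEG
open Fermat.Agent.S34_helper6_STEP1V2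

namespace Fermat.Agent.S34_helper20_VFIN

local notation "Qb" => AlgebraicClosure ℚ

variable (A : ValuationSubring Qb) (K1 : IntermediateField ℚ Qb)
  (q N' : ℕ) [NeZero N'] [NeZero (N' * q)] (hq : q.Prime) (hqN : ¬ q ∣ N')

include hq hqN in
/-- a spanning set of at most `q + 1` elements of `F1(N' q)` over `F1(N')` -/
theorem S34VF_hdeg :
    ∃ s : Finset (LaurentSeries K1), s.card ≤ q + 1 ∧ ∀ x ∈ S18K_F1 K1 (N' * q),
      ∃ c : LaurentSeries K1 → LaurentSeries K1,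
        (∀ y, c y ∈ S18K_F1 K1 N') ∧ x = ∑ y ∈ s, c y * y := by
  letI := S34DEG_algebra K1 N' q
  haveI := S34DEG_finiteDimensional K1 N' q
  have h := S34DEG_finrank_le K1 N' q (algebraMap K1 Qb) hq hqN
  refine S34KEYD_hdeg (E := ↥(modularFunctionFieldFullC K1 N'))
    (E' := ↥(modularFunctionFieldFullC K1 (N' * q)))
    ((modularFunctionFieldFullC K1 N').val.toRingHom)
    ((modularFunctionFieldFullC K1 (N' * q)).val.toRingHom)
    (fun e => S34DEG_algebraMap_coe K1 N' q e) (S18K_F1 K1 N') (S18K_F1 K1 (N' * q))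
    (fun e => e.2) (fun x hx => ⟨⟨x, hx⟩, rfl⟩) (n := q + 1) ?_
  rw [add_comm]
  exact h

variable [IsDiscreteValuationRing (S18K_O1 A K1)]

/-- helper6's `V2` is helper20's `V_0` -/
theorem S34VF_V2_eq :
    S34S1V_V2 A K1 q N' (N' * q) hq hqN (mul_comm N' q) =
      S34V0K_V A K1 q N' (N' * q) hq hqN (mul_comm N' q) := rfl

set_option synthInstance.maxHeartbeats 400000 in
/-- **(V): `S34C_Setup2` for `V1 = ` Gauss, `V2 = w(V1)`** — first conjunct of `S34K_GeomAt`. -/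
theorem S34VF_setup2 (hA : A.LiesOverPrime q) :
    S34C_Setup2 (S18K_O A K1) (S18K_π A K1) (S18K_j K1) (S18K_F1 K1 (N' * q))
      (S18K_V A K1 (N' * q)) (S34S1V_V2 A K1 q N' (N' * q) hq hqN (mul_comm N' q))
      (S18K_A0 A K1 (N' * q)) (S18K_Ainf A K1 (N' * q)) := by
  haveI : NeZero q := ⟨hq.ne_zero⟩
  rw [S34VF_V2_eq]
  exact S34KEYK_setup2 A K1 hq hA N' (N' * q) hqN (dvd_mul_right N' q) _
    (S34V0K_val A K1 q N' (N' * q) hq hqN (mul_comm N' q))
    (S34V0K_le A K1 q N' (N' * q) hq hqN (mul_comm N' q))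
    (S34V0K_ne A K1 q N' (N' * q) hq hqN (mul_comm N' q) hA).symm
    (S34VF_hdeg K1 q N' hq hqN)
    (S34V0K_jq_mem A K1 q N' (N' * q) hq hqN (mul_comm N' q))
    (S34V0K_frob_nonunit A K1 q N' (N' * q) hq hqN (mul_comm N' q) hA)

/-- **`∃ x ∈ V1, x ∉ V2`** — second conjunct of `S34K_GeomAt`. -/
theorem S34VF_ne (hA : A.LiesOverPrime q) :
    ∃ x ∈ S18K_V A K1 (N' * q), x ∉ S34S1V_V2 A K1 q N' (N' * q) hq hqN (mul_comm N' q) := by
  haveI : NeZero q := ⟨hq.ne_zero⟩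
  rw [S34VF_V2_eq]
  obtain ⟨c, hc0, hc, hci, v, hv, hcv⟩ :=
    S34V0K_sep A K1 q N' (N' * q) hq hqN (mul_comm N' q) hA
  refine ⟨c⁻¹, hci, fun hmem => ?_⟩
  have hv0 : v ≠ 0 := by
    rintro rfl
    rw [mul_zero] at hcv
    exact hc0 hcv
  have e : (S18K_π A K1)⁻¹ = v * c⁻¹ := by
    rw [hcv, mul_inv, ← mul_assoc, mul_comm v, mul_assoc, mul_inv_cancel₀ hv0, mul_one]
  exact (S34V0K_val A K1 q N' (N' * q) hq hqN (mul_comm N' q)).π_nonunit
    (by rw [e]; exact mul_mem hv hmem)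

/-- **`∃ y ∈ V2, y ∉ V1`** — the field `ne` of `S34XD_Geom`. -/
theorem S34VF_ne' (hA : A.LiesOverPrime q) :
    ∃ y ∈ S34S1V_V2 A K1 q N' (N' * q) hq hqN (mul_comm N' q), y ∉ S18K_V A K1 (N' * q) := by
  haveI : NeZero q := ⟨hq.ne_zero⟩
  rw [S34VF_V2_eq]
  obtain ⟨hc0, hci⟩ := S34V0K_unit1 A K1 q N' (N' * q) hq hqN (mul_comm N' q) hA
  obtain ⟨v1, hv1, h1⟩ := S34V0K_frob1 A K1 q N' (N' * q) hq hqN (mul_comm N' q) hA
  set emb := S34V0K_emb K1
  have hjF : jqModC K1 ∈ modularFunctionFieldFullC K1 (N' * q) := jqModC_mem_full K1 (N' * q)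
  have hjqF := S34V0K_jq_mem_F K1 q N' (N' * q) hq hqN (mul_comm N' q)
  have hcF : jqModC K1 - qExpand K1 q (jqModC K1) ^ q ∈ modularFunctionFieldFullC K1 (N' * q) :=
    sub_mem hjF (pow_mem hjqF q)
  -- `w c = j(q^q) - j^q`
  have hwc : S34V0_wL emb q N' (N' * q) hq hqN (mul_comm N' q)
      (jqModC K1 - qExpand K1 q (jqModC K1) ^ q) = qExpand K1 q (jqModC K1) - jqModC K1 ^ q := by
    rw [sub_eq_add_neg, S34V0_wL_add emb q N' (N' * q) hq hqN (mul_comm N' q) hjF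
      (neg_mem (pow_mem hjqF q)), S34V0_wL_neg emb q N' (N' * q) hq hqN (mul_comm N' q)
      (pow_mem hjqF q), S34V0_wL_pow emb q N' (N' * q) hq hqN (mul_comm N' q) hjqF,
      S34V0_wL_j, S34V0_wL_jq, ← sub_eq_add_neg]
  have hwci : S34V0_wL emb q N' (N' * q) hq hqN (mul_comm N' q)
      (jqModC K1 - qExpand K1 q (jqModC K1) ^ q)⁻¹ =
        (qExpand K1 q (jqModC K1) - jqModC K1 ^ q)⁻¹ := by
    rw [S34V0_wL_inv emb q N' (N' * q) hq hqN (mul_comm N' q) hcF, hwc]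
  have hw0 : qExpand K1 q (jqModC K1) - jqModC K1 ^ q ≠ 0 := by
    intro h0
    have h2 := S34V0_wL_wL emb q N' (N' * q) hq hqN (mul_comm N' q) hcF
    rw [hwc, h0, S34V0_wL_zero] at h2
    exact hc0 h2.symm
  refine ⟨(qExpand K1 q (jqModC K1) - jqModC K1 ^ q)⁻¹, ?_, fun hmem => ?_⟩
  · rw [← hwci]
    exact S34V0_wL_mem_image emb q N' (N' * q) hq hqN (mul_comm N' q) (inv_mem hcF) hci
  · have hv0 : v1 ≠ 0 := by
      rintro rfl
      rw [mul_zero] at h1
      exact hw0 h1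
    have e : (S18K_π A K1)⁻¹ = v1 * (qExpand K1 q (jqModC K1) - jqModC K1 ^ q)⁻¹ := by
      rw [h1, mul_inv, ← mul_assoc, mul_comm v1, mul_assoc, mul_inv_cancel₀ hv0, mul_one]
    exact (S34V3K_val1 A K1 (N' * q)).π_nonunit (by rw [e]; exact mul_mem hv1 hmem)

end Fermat.Agent.S34_helper20_VFIN
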