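import Mathlib
import Fermat.Prelude.Def_ModularCurve_ArithmeticGalois
import Fermat.Prelude.Def_FLTPrelim_Ramification

/-!
# S34, piece P6-D (block D): from function fields to `J₀(N)`

`(G34)`, the statement `(s - 1)² = 0` on `J₀(N)(ℚ̄)[p ^ k]` for `s` in an inertia group at `q`,
follows from a statement about FUNCTIONS: for every `f ≠ 0` in the function field whose divisor
is divisible by `p ^ k`, the function `s(s f) · f / (s f)²` is a constant times a `p ^ k`-th power.

* `S34D_ord_smul` : `ord_v (g • f) = ord_(g⁻¹ v) f` for a semilinear automorphism `g`;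
* `S34D_abstract` : the abstract statement for `Pic0 K F` and a semilinear automorphism;
* `S34D_ord_const` : constants have order `0`;
* `S34D_Core N p q` : the function field contract;
* `S34D_G34_of_core` : `S34D_Core N p q → (G34)`.
-/

set_option autoImplicit false
set_option linter.style.haveILetI false
set_option linter.unusedSectionVars false
set_option synthInstance.maxHeartbeats 400000
set_option maxHeartbeats 800000

open AlgebraicCurve ModularCurve

noncomputable section

namespace Fermat.Agent.S34_helper21_D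

section Abstract

variable {K F : Type*} [Field K] [Field F] [Algebra K F]

/-- `ord_v (g • f) = ord_(g⁻¹ • v) f`. -/
theorem S34D_ord_smul (g : SemilinearAut K F) (v : Place K F) (f : F) :
    v.ord (g • f) = (g⁻¹ • v).ord f := by
  have h := SemilinearAut.ord_smul g (g⁻¹ • v) f
  rwa [smul_inv_smul] at h

/-- Constants have order `0`. -/
theorem S34D_ord_const (v : Place K F) (c : K) (hc : c ≠ 0) :
    v.ord (algebraMap K F c) = 0 := by
  have h1 : algebraMap K F c ∈ v.toValuationSubring := v.algebraMap_mem' c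
  have h2 : algebraMap K F c⁻¹ ∈ v.toValuationSubring := v.algebraMap_mem' c⁻¹
  have hmul : (⟨algebraMap K F c, h1⟩ : v.toValuationSubring) * ⟨algebraMap K F c⁻¹, h2⟩ = 1 := by
    apply Subtype.ext
    show algebraMap K F c * algebraMap K F c⁻¹ = 1
    rw [← map_mul, mul_inv_cancel₀ hc, map_one]
  have hu : IsUnit (⟨algebraMap K F c, h1⟩ : v.toValuationSubring) :=
    IsUnit.of_mul_eq_one _ hmul
  have := v.ord_coe_unit hu.unit
  rwa [IsUnit.unit_spec] at this

/-- **Block D, abstract form.**  If `m x = 0` in `Pic0` and, for every function `f` whose divisor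
is divisible by `m`, the orders of `g(g f) · f / (g f)²` are `m` times the orders of a function
`w`, then `g (g x) - 2 (g x) + x = 0`. -/
theorem S34D_abstract (g : SemilinearAut K F) (m : ℕ) (hm : m ≠ 0)
    (hcore : ∀ f : F, f ≠ 0 → (∀ v : Place K F, (m : ℤ) ∣ v.ord f) →
      ∃ w : F, w ≠ 0 ∧ ∀ v : Place K F,
        v.ord (g • g • f) - 2 * v.ord (g • f) + v.ord f = (m : ℤ) * v.ord w)
    (x : Pic0 K F) (hx : (m : ℤ) • x = 0) :
    g • (g • x) - (2 : ℤ) • (g • x) + x = 0 := by
  obtain ⟨D, rfl⟩ := Pic0.mk_surjective x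
  -- `m D` is principal
  have h1 : (m : ℤ) • D ∈
      (Divisor.principal (K := K) (F := F)).addSubgroupOf (Divisor.degZero (K := K) (F := F)) := by
    have : Pic0.mk ((m : ℤ) • D) = 0 := hx
    exact (QuotientAddGroup.eq_zero_iff _).mp this
  rw [AddSubgroup.mem_addSubgroupOf] at h1
  obtain ⟨f, hf0, hf⟩ := h1
  have hfD : ∀ v : Place K F, v.ord f = (m : ℤ) * (D : Divisor K F) v := by
    intro v
    rw [← hf v]
    simp
  obtain ⟨w, hw0, hw⟩ := hcore f hf0 (fun v => ⟨_, hfD v⟩)
  -- the class
  rw [SemilinearAut.pic0_smul_mk, SemilinearAut.pic0_smul_mk]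
  have e : Pic0.mk (SemilinearAut.degZeroSMulHom g (SemilinearAut.degZeroSMulHom g D))
      - (2 : ℤ) • Pic0.mk (SemilinearAut.degZeroSMulHom g D) + Pic0.mk D
      = Pic0.mk (SemilinearAut.degZeroSMulHom g (SemilinearAut.degZeroSMulHom g D)
          - (2 : ℤ) • SemilinearAut.degZeroSMulHom g D + D) := rfl
  rw [e]
  apply (QuotientAddGroup.eq_zero_iff _).mpr
  rw [AddSubgroup.mem_addSubgroupOf]
  refine ⟨w, hw0, fun v => ?_⟩
  have hm' : (m : ℤ) ≠ 0 := Int.natCast_ne_zero.mpr hm
  apply mul_left_cancel₀ hm'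
  rw [← hw v, S34D_ord_smul g v (g • f), S34D_ord_smul g (g⁻¹ • v) f, S34D_ord_smul g v f,
    hfD, hfD, hfD]
  have e1 : ((SemilinearAut.degZeroSMulHom g (SemilinearAut.degZeroSMulHom g D)
      - (2 : ℤ) • SemilinearAut.degZeroSMulHom g D + D : Divisor.degZero (K := K) (F := F)) :
        Divisor K F) v
      = (D : Divisor K F) (g⁻¹ • g⁻¹ • v) - 2 * (D : Divisor K F) (g⁻¹ • v)
        + (D : Divisor K F) v := by
    simp only [AddSubgroup.coe_add, AddSubgroup.coe_sub, AddSubgroup.coe_zsmul,
      SemilinearAut.coe_degZeroSMulHom, Finsupp.add_apply, Finsupp.sub_apply,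
      Finsupp.smul_apply, SemilinearAut.divisor_smul_apply, smul_eq_mul]
  rw [e1]
  ring

/-- The same, with the conclusion of the core in the form `g(g f) · f = c · w ^ m · (g f)²`. -/
theorem S34D_abstract' (g : SemilinearAut K F) (m : ℕ) (hm : m ≠ 0)
    (hcore : ∀ f : F, f ≠ 0 → (∀ v : Place K F, (m : ℤ) ∣ v.ord f) →
      ∃ (w : F) (c : K), w ≠ 0 ∧ c ≠ 0 ∧
        (g • g • f) * f = algebraMap K F c * (w ^ m * (g • f) ^ 2))
    (x : Pic0 K F) (hx : (m : ℤ) • x = 0) :
    g • (g • x) - (2 : ℤ) • (g • x) + x = 0 := by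
  refine S34D_abstract g m hm (fun f hf0 hf => ?_) x hx
  obtain ⟨w, c, hw0, hc0, h⟩ := hcore f hf0 hf
  refine ⟨w, hw0, fun v => ?_⟩
  have hgf : g • f ≠ 0 := by
    rw [SemilinearAut.smul_def]
    exact (map_ne_zero_iff _ (SemilinearAut.toRingAut g).injective).mpr hf0
  have hggf : g • g • f ≠ 0 := by
    rw [SemilinearAut.smul_def]
    exact (map_ne_zero_iff _ (SemilinearAut.toRingAut g).injective).mpr hgf
  have hc : algebraMap K F c ≠ 0 := (map_ne_zero_iff _ (algebraMap K F).injective).mpr hc0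
  have h2 := congrArg v.ord h
  rw [v.ord_mul hggf hf0, v.ord_mul hc (mul_ne_zero (pow_ne_zero _ hw0) (pow_ne_zero _ hgf)),
    v.ord_mul (pow_ne_zero _ hw0) (pow_ne_zero _ hgf), S34D_ord_const v c hc0] at h2
  have e1 : v.ord (w ^ m) = (m : ℤ) * v.ord w := by
    have := v.ord_zpow w (m : ℤ)
    rwa [zpow_natCast] at this
  have e2 : v.ord ((g • f) ^ 2) = 2 * v.ord (g • f) := by
    have := v.ord_zpow (g • f) (2 : ℤ)
    rw [show ((g • f) ^ (2 : ℤ)) = (g • f) ^ 2 from zpow_ofNat _ 2] at this
    exact this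
  rw [e1, e2] at h2
  linarith

end Abstract

/-! ### The modular curve -/

local notation "Qb" => AlgebraicClosure ℚ
local notation "GQ" => (AlgebraicClosure ℚ ≃ₐ[ℚ] AlgebraicClosure ℚ)

/-- **The function field contract of S34** at the level `N`, for the primes `p` (torsion) and `q`
(inertia): for `s` in an inertia group at `q` and a function `f ≠ 0` whose divisor is divisible by
`p ^ k`, the function `s(s f) · f / (s f)²` is a constant times a `p ^ k`-th power. -/
def S34D_Core (N p q : ℕ) [NeZero N] : Prop :=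
  ∀ (k : ℕ) (A : ValuationSubring Qb), A.LiesOverPrime q → ∀ s ∈ A.inertiaSubgroupIn ℚ,
    ∀ f : modularFunctionFieldBar N, f ≠ 0 →
      (∀ P : Place Qb (modularFunctionFieldBar N), ((p ^ k : ℕ) : ℤ) ∣ P.ord f) →
      ∃ (w : modularFunctionFieldBar N) (c : Qb), w ≠ 0 ∧ c ≠ 0 ∧
        (arithmeticGalois (modularFunctionFieldFull N) s •
            arithmeticGalois (modularFunctionFieldFull N) s • f) * f =
          algebraMap Qb (modularFunctionFieldBar N) c *
            (w ^ (p ^ k) * (arithmeticGalois (modularFunctionFieldFull N) s • f) ^ 2)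

/-- **Block D of S34**: the function field contract implies `(G34)`. -/
theorem S34D_G34_of_core (N p q : ℕ) [NeZero N] (hp : p ≠ 0) (hcore : S34D_Core N p q)
    (k : ℕ) (A : ValuationSubring Qb) (hA : A.LiesOverPrime q) (s : GQ)
    (hs : s ∈ A.inertiaSubgroupIn ℚ) (x : JZero N) (hx : (p ^ k) • x = 0) :
    s • (s • x) - (2 : ℤ) • (s • x) + x = 0 := by
  have hx' : ((p ^ k : ℕ) : ℤ) • x = 0 := by
    rw [natCast_zsmul]
    exact hx
  have key := S34D_abstract' (arithmeticGalois (modularFunctionFieldFull N) s) (p ^ k)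
    (pow_ne_zero k hp) (fun f hf0 hf => hcore k A hA s hs f hf0 hf) x hx'
  exact key

end Fermat.Agent.S34_helper21_D
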