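import Mathlib
import Fermat.Agent.S34_Contracts2
import Fermat.Agent.S34_helper21_ACT
import Fermat.Agent.S34_helper21_CI
import Fermat.Agent.S34_helper4_XCROSS

/-!
# S34, piece X-LOCGEN-VAL: the four values of a node coordinate

`T` is a function on the chart fixed by the inertia group (a node coordinate defined over the
unramified level), `P` a `K1`-rational place with value `a = T(P)`.  The values of `T` at
`τ P`, `τ' P`, `τ' τ P` are `τ a`, `τ' a`, `τ' (τ a)` (`S34VAL_places`).  If `a` is of *type `T`*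
for the constant `Q` (`a ∈ π O`, `Q / a ∈ π O`), so are the three others, and
`a · τ'(τ a) = (1 + π δ) · τ a · τ' a` (`S34VAL_consts`): these are the hypotheses `h₁ … h₄`,
`hprod` of `S34LGF_main` (helper7).  Finally the order of
`g = (T - a₁)(T - a₄) / ((T - a₂)(T - a₃))` at the places centred at `m` is the coefficient of
`(τ' - 1)(τ - 1) P`, as soon as each factor vanishes exactly at its place, to order one
(`S34VAL_gen`).
-/

set_option autoImplicit false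
set_option linter.style.haveILetI false
set_option linter.unusedSectionVars false
set_option linter.unusedVariables false
set_option synthInstance.maxHeartbeats 400000
set_option maxHeartbeats 1600000

open AlgebraicCurve ModularCurve HahnSeries IntermediateField
open Fermat.Agent.S18_helper25_COREDefs Fermat.Agent.S18_helper13_GAUSS
  Fermat.Agent.S18_helper9_CDefs Fermat.Agent.S18_helper19_PLACEMOD
  Fermat.Agent.S37_helper4_B1Defs Fermat.Agent.S37_helper5_LEVEL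
  Fermat.Agent.S34_helper5_K0 Fermat.Agent.S34_helper6_RED
  Fermat.Agent.S34_Contracts Fermat.Agent.S34_helper21_ACT Fermat.Agent.S34_helper21_CI
  Fermat.Agent.S34_helper4_XCROSS Fermat.Agent.S18_helper19_PLACEUNR
  Fermat.Agent.S18_helper19_PLACEEXT

noncomputable section

namespace Fermat.Agent.S34_helper21_VAL

local notation "Qb" => AlgebraicClosure ℚ
local notation "GQ" => (AlgebraicClosure ℚ ≃ₐ[ℚ] AlgebraicClosure ℚ)

/-! ### Abstract part: endomorphisms congruent to the identity modulo `ϖ` -/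

section Abstract

variable {O : Type*} [CommRing O] [IsDomain O]

/-- an invertible endomorphism congruent to the identity modulo `ϖ` maps `ϖ` to `ϖ` times a
unit. -/
theorem S34VAL_unit (ϖ : O) (hϖ : ϖ ≠ 0) (t s : O →+* O) (hst : ∀ x, s (t x) = x)
    (hts : ∀ x, t (s x) = x) (ht : ∀ x, ϖ ∣ t x - x) (hs : ∀ x, ϖ ∣ s x - x) :
    ∃ w : O, IsUnit w ∧ t ϖ = ϖ * w := by
  obtain ⟨d, hd⟩ := ht ϖ
  obtain ⟨d', hd'⟩ := hs ϖ
  have h1 : t ϖ = ϖ * (1 + d) := by linear_combination hd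
  have h2 : s ϖ = ϖ * (1 + d') := by linear_combination hd'
  have h3 : ϖ * ((1 + d') * s (1 + d)) = ϖ * 1 := by
    have := hst ϖ
    rw [h1, map_mul, h2] at this
    rw [mul_one]
    linear_combination this
  have h4 : (1 + d') * s (1 + d) = 1 := mul_left_cancel₀ hϖ h3
  have h5 : IsUnit (s (1 + d)) := IsUnit.of_mul_eq_one _ (by rw [mul_comm]; exact h4)
  have h6 : IsUnit (t (s (1 + d))) := h5.map t
  rw [hts] at h6
  exact ⟨1 + d, h6, h1⟩

/-- an invertible endomorphism congruent to the identity modulo `ϖ` multiplies every nonzero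
element by a unit. -/
theorem S34VAL_eps (ϖ : O) (hϖ : ϖ ≠ 0) (t s : O →+* O) (hst : ∀ x, s (t x) = x)
    (hts : ∀ x, t (s x) = x) (ht : ∀ x, ϖ ∣ t x - x) (hs : ∀ x, ϖ ∣ s x - x)
    (hnorm : ∀ x : O, x ≠ 0 → ∃ (n : ℕ) (u : O), x = ϖ ^ n * u ∧ IsUnit u)
    (a : O) (ha : a ≠ 0) : ∃ ε : O, IsUnit ε ∧ t a = ε * a := by
  obtain ⟨w, hw, hwϖ⟩ := S34VAL_unit ϖ hϖ t s hst hts ht hs
  obtain ⟨n, u, rfl, hu⟩ := hnorm a ha
  obtain ⟨u', rfl⟩ := hu
  refine ⟨w ^ n * t (u' : O) * ((u'⁻¹ : Oˣ) : O),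
    ((hw.pow n).mul (u'.isUnit.map t)).mul (u'⁻¹).isUnit, ?_⟩
  have h2 : ((u'⁻¹ : Oˣ) : O) * (u' : O) = 1 := Units.inv_mul u'
  rw [map_mul, map_pow, hwϖ]
  linear_combination (-(ϖ ^ n * w ^ n * t (u' : O))) * h2

/-- the type (`a ∈ ϖ O`, `Q / a ∈ ϖ O`) is preserved by an endomorphism congruent to the
identity modulo `ϖ` which fixes `Q`. -/
theorem S34VAL_type (ϖ : O) (r : O →+* O) (hr : ∀ x, ϖ ∣ r x - x) (a Q : O) (hQ : r Q = Q)
    (ha : ∃ a' : O, a = ϖ * a') (hb : ∃ b' : O, a * (ϖ * b') = Q) :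
    (∃ a' : O, r a = ϖ * a') ∧ ∃ b' : O, r a * (ϖ * b') = Q := by
  obtain ⟨a', rfl⟩ := ha
  obtain ⟨b', hb⟩ := hb
  obtain ⟨d, hd⟩ := hr ϖ
  have h1 : r ϖ = ϖ * (1 + d) := by linear_combination hd
  refine ⟨⟨(1 + d) * r a', by rw [map_mul, h1]; ring⟩, (1 + d) * r b', ?_⟩
  have h2 := congrArg r hb
  rw [hQ, map_mul, map_mul (f := r) ϖ b', h1] at h2
  rw [← h2]
  ring

/-- **The four values, abstract form.** -/
theorem S34VAL_consts_abs (ϖ : O) (hϖ : ϖ ≠ 0) (t s t' : O →+* O) (hst : ∀ x, s (t x) = x)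
    (hts : ∀ x, t (s x) = x) (ht : ∀ x, ϖ ∣ t x - x) (hs : ∀ x, ϖ ∣ s x - x)
    (ht' : ∀ x, ϖ ∣ t' x - x)
    (hnorm : ∀ x : O, x ≠ 0 → ∃ (n : ℕ) (u : O), x = ϖ ^ n * u ∧ IsUnit u)
    (a Q : O) (hQ0 : Q ≠ 0) (hQt : t Q = Q) (hQt' : t' Q = Q)
    (ha : ∃ a' : O, a = ϖ * a') (hb : ∃ b' : O, a * (ϖ * b') = Q) :
    ((∃ a' : O, t a = ϖ * a') ∧ ∃ b' : O, t a * (ϖ * b') = Q) ∧
    ((∃ a' : O, t' a = ϖ * a') ∧ ∃ b' : O, t' a * (ϖ * b') = Q) ∧
    ((∃ a' : O, t' (t a) = ϖ * a') ∧ ∃ b' : O, t' (t a) * (ϖ * b') = Q) ∧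
    ∃ δ : O, a * t' (t a) = (1 + ϖ * δ) * (t a * t' a) := by
  have h2 := S34VAL_type ϖ t ht a Q hQt ha hb
  have h3 := S34VAL_type ϖ t' ht' a Q hQt' ha hb
  have h4 := S34VAL_type ϖ t' ht' (t a) Q hQt' h2.1 h2.2
  refine ⟨h2, h3, h4, ?_⟩
  have ha0 : a ≠ 0 := by
    rintro rfl
    obtain ⟨b', hb'⟩ := hb
    exact hQ0 (by rw [← hb', zero_mul])
  obtain ⟨ε, hε, hεa⟩ := S34VAL_eps ϖ hϖ t s hst hts ht hs hnorm a ha0
  obtain ⟨u, rfl⟩ := hε
  obtain ⟨d, hd⟩ := ht' (u : O)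
  refine ⟨((u⁻¹ : Oˣ) : O) * d, ?_⟩
  have h1 : t' (u : O) = (u : O) + ϖ * d := by linear_combination hd
  have h5 : ((u⁻¹ : Oˣ) : O) * (u : O) = 1 := Units.inv_mul u
  rw [hεa, map_mul, h1]
  linear_combination (-(ϖ * d * a * t' a)) * h5

end Abstract

/-! ### The constants of the level `K1` -/

section Consts

variable (A : ValuationSubring Qb) (K1 : IntermediateField ℚ Qb)
  (hstab : ∀ σ : GQ, ∀ x ∈ K1, σ x ∈ K1) [IsDiscreteValuationRing (S18K_O1 A K1)]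

theorem S34VAL_pi_eq :
    S18K_π A K1 = HahnSeries.C ((((S18K_D A K1).π : S18K_O1 A K1) : K1)) := rfl

theorem S34VAL_C_mem (x : S18K_O1 A K1) :
    (HahnSeries.C (x : K1) : LaurentSeries K1) ∈ S18K_O A K1 :=
  (S18K_mem_O A K1 _).2 ⟨x, x.2, rfl⟩

theorem S34VAL_exists_of_mem {y : LaurentSeries K1} (hy : y ∈ S18K_O A K1) :
    ∃ x : S18K_O1 A K1, (HahnSeries.C (x : K1) : LaurentSeries K1) = y := by
  obtain ⟨c, hc, rfl⟩ := (S18K_mem_O A K1 _).1 hy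
  exact ⟨⟨c, hc⟩, rfl⟩

theorem S34VAL_C_injective : Function.Injective (HahnSeries.C : K1 → LaurentSeries K1) :=
  HahnSeries.C_injective

/-- every nonzero element of `O1` is a power of the uniformiser times a unit. -/
theorem S34VAL_norm (x : S18K_O1 A K1) (hx : x ≠ 0) :
    ∃ (n : ℕ) (u : S18K_O1 A K1), x = (S18K_D A K1).π ^ n * u ∧ IsUnit u := by
  obtain ⟨n, u, hxu, hu⟩ := (S18K_D A K1).exists_normalize x hx
  refine ⟨n, u, hxu, ?_⟩
  have h1 : ¬ (u ∈ IsLocalRing.maximalIdeal (S18K_O1 A K1)) := fun h =>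
    hu ((S18K_res_eq_zero_iff A K1 u).2 h)
  exact IsLocalRing.notMem_maximalIdeal.1 h1

variable (τ : GQ) (hτ : τ ∈ A.inertiaSubgroupIn ℚ)

include hτ in
/-- inertia is the identity modulo the uniformiser of `O1`. -/
theorem S34VAL_dvd (x : S18K_O1 A K1) :
    (S18K_D A K1).π ∣ S34ACT_resO K1 hstab A τ (S34ACT_inertia_mem A τ hτ) x - x := by
  have h := S34ACT_inertia_res K1 hstab A τ hτ x
  have h0 : (S18K_D A K1).res
      (S34ACT_resO K1 hstab A τ (S34ACT_inertia_mem A τ hτ) x - x) = 0 := by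
    rw [map_sub]
    exact sub_eq_zero.2 h
  obtain ⟨y, hy⟩ := ((S18K_D A K1).res_eq_zero_iff _).1 h0
  exact ⟨y, hy⟩

include hτ in
theorem S34VAL_inv_comp (x : S18K_O1 A K1) :
    S34ACT_resO K1 hstab A τ⁻¹ (S34ACT_inertia_mem A τ⁻¹ (inv_mem hτ))
      (S34ACT_resO K1 hstab A τ (S34ACT_inertia_mem A τ hτ) x) = x := by
  apply Subtype.ext
  apply Subtype.ext
  show τ⁻¹ (τ ((x : K1) : Qb)) = ((x : K1) : Qb)
  exact τ.symm_apply_apply _

include hτ in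
theorem S34VAL_comp_inv (x : S18K_O1 A K1) :
    S34ACT_resO K1 hstab A τ (S34ACT_inertia_mem A τ hτ)
      (S34ACT_resO K1 hstab A τ⁻¹ (S34ACT_inertia_mem A τ⁻¹ (inv_mem hτ)) x) = x := by
  apply Subtype.ext
  apply Subtype.ext
  show τ (τ⁻¹ ((x : K1) : Qb)) = ((x : K1) : Qb)
  exact τ.apply_symm_apply _

/-- the constants of `O1` as constant series. -/
def S34VAL_φ : S18K_O1 A K1 →+* LaurentSeries K1 :=
  (HahnSeries.C : K1 →+* LaurentSeries K1).comp (S18K_O1 A K1).subtype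

theorem S34VAL_φ_apply (x : S18K_O1 A K1) :
    S34VAL_φ A K1 x = HahnSeries.C (x : K1) := rfl

theorem S34VAL_φ_mem (x : S18K_O1 A K1) : S34VAL_φ A K1 x ∈ S18K_O A K1 :=
  S34VAL_C_mem A K1 x

theorem S34VAL_φ_π : S34VAL_φ A K1 (S18K_D A K1).π = S18K_π A K1 := rfl

theorem S34VAL_φ_injective : Function.Injective (S34VAL_φ A K1) := by
  intro x y h
  exact Subtype.ext (HahnSeries.C_injective h)

theorem S34VAL_φ_resO (σ : GQ) (hσ : ∀ x ∈ A, σ x ∈ A) (x : S18K_O1 A K1) :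
    S34VAL_φ A K1 (S34ACT_resO K1 hstab A σ hσ x) =
      HahnSeries.C (S34ACT_res K1 hstab σ (x : K1)) := rfl

theorem S34VAL_φ_act (σ : GQ) (hσ : ∀ x ∈ A, σ x ∈ A) (x : S18K_O1 A K1) :
    S34VAL_φ A K1 (S34ACT_resO K1 hstab A σ hσ x) =
      S34ACT_act K1 hstab σ (S34VAL_φ A K1 x) := by
  rw [S34VAL_φ_resO, S34VAL_φ_apply, S34ACT_act_C]

variable (τ' : GQ) (hτ' : τ' ∈ A.inertiaSubgroupIn ℚ)

include hτ hτ' in
/-- **The four values** (`= h₁ … h₄` and `hprod` of `S34LGF_main`): if the value `a` of the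
inertia-fixed coordinate `T` at `P` is of type `T` for the inertia-fixed constant `Q`, so are
`τ a`, `τ' a`, `τ' (τ a)`, and `a · τ'(τ a) = (1 + π δ) · τ a · τ' a`. -/
theorem S34VAL_consts (a : K1) (Q : LaurentSeries K1) (hQ0 : Q ≠ 0)
    (hQτ : S34ACT_act K1 hstab τ Q = Q) (hQτ' : S34ACT_act K1 hstab τ' Q = Q)
    (ha : ∃ a' ∈ S18K_O A K1, (HahnSeries.C a : LaurentSeries K1) = S18K_π A K1 * a')
    (hb : ∃ b' ∈ S18K_O A K1, (HahnSeries.C a : LaurentSeries K1) * (S18K_π A K1 * b') = Q) :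
    ((∃ a' ∈ S18K_O A K1,
        (HahnSeries.C (S34ACT_res K1 hstab τ a) : LaurentSeries K1) = S18K_π A K1 * a') ∧
      ∃ b' ∈ S18K_O A K1,
        (HahnSeries.C (S34ACT_res K1 hstab τ a) : LaurentSeries K1) * (S18K_π A K1 * b') = Q) ∧
    ((∃ a' ∈ S18K_O A K1,
        (HahnSeries.C (S34ACT_res K1 hstab τ' a) : LaurentSeries K1) = S18K_π A K1 * a') ∧
      ∃ b' ∈ S18K_O A K1,
        (HahnSeries.C (S34ACT_res K1 hstab τ' a) : LaurentSeries K1) * (S18K_π A K1 * b') = Q) ∧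
    ((∃ a' ∈ S18K_O A K1,
        (HahnSeries.C (S34ACT_res K1 hstab τ' (S34ACT_res K1 hstab τ a)) : LaurentSeries K1) =
          S18K_π A K1 * a') ∧
      ∃ b' ∈ S18K_O A K1,
        (HahnSeries.C (S34ACT_res K1 hstab τ' (S34ACT_res K1 hstab τ a)) : LaurentSeries K1) *
          (S18K_π A K1 * b') = Q) ∧
    ∃ δ ∈ S18K_O A K1,
      (HahnSeries.C a : LaurentSeries K1) *
          HahnSeries.C (S34ACT_res K1 hstab τ' (S34ACT_res K1 hstab τ a)) =
        (1 + S18K_π A K1 * δ) *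
          (HahnSeries.C (S34ACT_res K1 hstab τ a) * HahnSeries.C (S34ACT_res K1 hstab τ' a)) := by
  obtain ⟨a', ha', ea⟩ := ha
  obtain ⟨a0, rfl⟩ := S34VAL_exists_of_mem A K1 ha'
  obtain ⟨b', hb', eb⟩ := hb
  obtain ⟨b0, rfl⟩ := S34VAL_exists_of_mem A K1 hb'
  obtain ⟨ϖ, hϖ⟩ : ∃ ϖ : S18K_O1 A K1, ϖ = (S18K_D A K1).π := ⟨_, rfl⟩
  have hϖφ : S34VAL_φ A K1 ϖ = S18K_π A K1 := by rw [hϖ]; rfl
  have hϖ0 : ϖ ≠ 0 := by rw [hϖ]; exact (S18K_D A K1).π_ne_zero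
  obtain ⟨aO, haO⟩ : ∃ aO : S18K_O1 A K1, aO = ϖ * a0 := ⟨_, rfl⟩
  obtain ⟨QO, hQO⟩ : ∃ QO : S18K_O1 A K1, QO = aO * (ϖ * b0) := ⟨_, rfl⟩
  have eaO : S34VAL_φ A K1 aO = HahnSeries.C a := by
    rw [haO, map_mul, hϖφ, S34VAL_φ_apply, ← ea]
  have eaK : ((aO : S18K_O1 A K1) : K1) = a := HahnSeries.C_injective eaO
  have eQ : S34VAL_φ A K1 QO = Q := by
    rw [hQO, map_mul, map_mul, eaO, hϖφ, S34VAL_φ_apply, eb]
  have hQO0 : QO ≠ 0 := by
    intro h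
    apply hQ0
    rw [← eQ, h, map_zero]
  obtain ⟨t, ht⟩ : ∃ t : S18K_O1 A K1 →+* S18K_O1 A K1,
      t = S34ACT_resO K1 hstab A τ (S34ACT_inertia_mem A τ hτ) := ⟨_, rfl⟩
  obtain ⟨s, hs⟩ : ∃ s : S18K_O1 A K1 →+* S18K_O1 A K1,
      s = S34ACT_resO K1 hstab A τ⁻¹ (S34ACT_inertia_mem A τ⁻¹ (inv_mem hτ)) := ⟨_, rfl⟩
  obtain ⟨t', ht'⟩ : ∃ t' : S18K_O1 A K1 →+* S18K_O1 A K1,
      t' = S34ACT_resO K1 hstab A τ' (S34ACT_inertia_mem A τ' hτ') := ⟨_, rfl⟩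
  have hQt : t QO = QO := by
    apply S34VAL_φ_injective A K1
    rw [ht, S34VAL_φ_act, eQ, hQτ]
  have hQt' : t' QO = QO := by
    apply S34VAL_φ_injective A K1
    rw [ht', S34VAL_φ_act, eQ, hQτ']
  have hst : ∀ x, s (t x) = x := by
    intro x; rw [hs, ht]; exact S34VAL_inv_comp A K1 hstab τ hτ x
  have hts : ∀ x, t (s x) = x := by
    intro x; rw [hs, ht]; exact S34VAL_comp_inv A K1 hstab τ hτ x
  have htd : ∀ x, ϖ ∣ t x - x := by
    intro x; rw [hϖ, ht]; exact S34VAL_dvd A K1 hstab τ hτ x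
  have hsd : ∀ x, ϖ ∣ s x - x := by
    intro x; rw [hϖ, hs]; exact S34VAL_dvd A K1 hstab τ⁻¹ (inv_mem hτ) x
  have ht'd : ∀ x, ϖ ∣ t' x - x := by
    intro x; rw [hϖ, ht']; exact S34VAL_dvd A K1 hstab τ' hτ' x
  have hnorm : ∀ x : S18K_O1 A K1, x ≠ 0 →
      ∃ (n : ℕ) (u : S18K_O1 A K1), x = ϖ ^ n * u ∧ IsUnit u := by
    intro x hx; rw [hϖ]; exact S34VAL_norm A K1 x hx
  obtain ⟨⟨⟨x2, e2⟩, y2, f2⟩, ⟨⟨x3, e3⟩, y3, f3⟩, ⟨⟨x4, e4⟩, y4, f4⟩, δ, hδ⟩ :=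
    S34VAL_consts_abs ϖ hϖ0 t s t' hst hts htd hsd ht'd hnorm aO QO hQO0 hQt hQt'
      ⟨a0, haO⟩ ⟨b0, hQO.symm⟩
  have v2 : S34VAL_φ A K1 (t aO) = HahnSeries.C (S34ACT_res K1 hstab τ a) := by
    rw [ht, S34VAL_φ_resO, eaK]
  have v3 : S34VAL_φ A K1 (t' aO) = HahnSeries.C (S34ACT_res K1 hstab τ' a) := by
    rw [ht', S34VAL_φ_resO, eaK]
  have v4 : S34VAL_φ A K1 (t' (t aO)) =
      HahnSeries.C (S34ACT_res K1 hstab τ' (S34ACT_res K1 hstab τ a)) := by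
    rw [ht', S34VAL_φ_resO, ht, S34ACT_resO_coe, eaK]
  refine ⟨⟨⟨_, S34VAL_φ_mem A K1 x2, ?_⟩, _, S34VAL_φ_mem A K1 y2, ?_⟩,
    ⟨⟨_, S34VAL_φ_mem A K1 x3, ?_⟩, _, S34VAL_φ_mem A K1 y3, ?_⟩,
    ⟨⟨_, S34VAL_φ_mem A K1 x4, ?_⟩, _, S34VAL_φ_mem A K1 y4, ?_⟩,
    _, S34VAL_φ_mem A K1 δ, ?_⟩
  · rw [← v2, e2, map_mul, hϖφ]
  · rw [← v2, ← eQ, ← f2, map_mul, map_mul, hϖφ]
  · rw [← v3, e3, map_mul, hϖφ]
  · rw [← v3, ← eQ, ← f3, map_mul, map_mul, hϖφ]
  · rw [← v4, e4, map_mul, hϖφ]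
  · rw [← v4, ← eQ, ← f4, map_mul, map_mul, hϖφ]
  · have := congrArg (S34VAL_φ A K1) hδ
    rw [map_mul, map_mul, map_mul, map_add, map_one, map_mul, hϖφ, v2, v3, v4, eaO]
      at this
    exact this

end Consts

/-! ### The values at the translated places -/

section Places

variable (N : ℕ) [NeZero N] (K1 : IntermediateField ℚ Qb)
  (hstab : ∀ σ : GQ, ∀ x ∈ K1, σ x ∈ K1)

/-- the value of a `σ`-fixed function at `σ P` is `σ` of its value at `P`. -/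
theorem S34VAL_valueAt (σ : GQ) (P : Place Qb (modularFunctionFieldBar N))
    (T : LaurentSeries K1) (hT : S34ACT_act K1 hstab σ T = T) (a : K1)
    (h : S34K_ValueAt N K1 P T ((a : K1) : Qb)) :
    S34K_ValueAt N K1 (S34R_g N σ • P) T (((S34ACT_res K1 hstab σ a : K1)) : Qb) := by
  have := S34CI_valueAt N K1 hstab σ P h
  rw [hT] at this
  exact this

/-- **The values of an inertia-fixed coordinate at the four places** `P`, `τ P`, `τ' P`,
`τ' τ P`, and the rationality of the translates. -/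
theorem S34VAL_places (τ' τ : GQ) (P : Place Qb (modularFunctionFieldBar N))
    (hrat : S37LEVEL_IsRational N K1 P)
    (T : LaurentSeries K1) (hTτ : S34ACT_act K1 hstab τ T = T)
    (hTτ' : S34ACT_act K1 hstab τ' T = T) (a : K1)
    (h : S34K_ValueAt N K1 P T ((a : K1) : Qb)) :
    S34K_ValueAt N K1 (S34R_g N τ • P) T (((S34ACT_res K1 hstab τ a : K1)) : Qb) ∧
    S34K_ValueAt N K1 (S34R_g N τ' • P) T (((S34ACT_res K1 hstab τ' a : K1)) : Qb) ∧
    S34K_ValueAt N K1 (S34R_g N τ' • S34R_g N τ • P) T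
      (((S34ACT_res K1 hstab τ' (S34ACT_res K1 hstab τ a) : K1)) : Qb) ∧
    S37LEVEL_IsRational N K1 (S34R_g N τ • P) ∧
    S37LEVEL_IsRational N K1 (S34R_g N τ' • P) ∧
    S37LEVEL_IsRational N K1 (S34R_g N τ' • S34R_g N τ • P) := by
  have h2 := S34VAL_valueAt N K1 hstab τ P T hTτ a h
  have r2 := S34ACT_rational K1 hstab N τ P hrat
  exact ⟨h2, S34VAL_valueAt N K1 hstab τ' P T hTτ' a h,
    S34VAL_valueAt N K1 hstab τ' _ T hTτ' _ h2, r2,
    S34ACT_rational K1 hstab N τ' P hrat, S34ACT_rational K1 hstab N τ' _ r2⟩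

/-- a constant has at most one value... the value of a function at a place is unique. -/
theorem S34VAL_value_unique (P : Place Qb (modularFunctionFieldBar N))
    (T : LaurentSeries K1) (c c' : Qb) (h : S34K_ValueAt N K1 P T c)
    (h' : S34K_ValueAt N K1 P T c') : c = c' := by
  obtain ⟨z, hz, hzP⟩ := h
  obtain ⟨z', hz', hzP'⟩ := h'
  by_contra hne
  have hd : c' - c ≠ 0 := sub_ne_zero.2 (Ne.symm hne)
  -- `z - z'` is the nonzero constant `c' - c`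
  have e : z - z' = algebraMap Qb (modularFunctionFieldBar N) (c' - c) := by
    apply Subtype.ext
    have h1 : ((z - z' : modularFunctionFieldBar N) : LaurentSeries Qb) =
        (z : LaurentSeries Qb) - (z' : LaurentSeries Qb) := rfl
    have h2 : ((algebraMap Qb (modularFunctionFieldBar N) (c' - c) :
        modularFunctionFieldBar N) : LaurentSeries Qb) =
        algebraMap Qb (LaurentSeries Qb) (c' - c) := rfl
    rw [h1, h2, hz, hz', ← Fermat.Agent.S18_helper26_CONST.S18P15_C_eq_algebraMap, map_sub]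
    ring
  have hN1 : S18A3_IsN P z := by
    rcases hzP with h0 | h0
    · rw [h0]; exact ⟨P.toValuationSubring.zero_mem, Or.inl rfl⟩
    · exact Fermat.Agent.S18_helper19_PLACEUNR.S18A3_isN_of_ord_pos P h0
  have hN2 : S18A3_IsN P z' := by
    rcases hzP' with h0 | h0
    · rw [h0]; exact ⟨P.toValuationSubring.zero_mem, Or.inl rfl⟩
    · exact Fermat.Agent.S18_helper19_PLACEUNR.S18A3_isN_of_ord_pos P h0
  have hN3 : S18A3_IsN P (z - z') := by
    have := Fermat.Agent.S18_helper19_PLACEUNR.S18A3_isN_add P hN1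
      (Fermat.Agent.S18_helper19_PLACEUNR.S18A3_isN_neg P hN2)
    rwa [← sub_eq_add_neg] at this
  rw [e] at hN3
  have hpos := Fermat.Agent.S18_helper19_PLACEUNR.S18A3_ord_pos_of_isN P hN3
    (by rw [Ne, map_eq_zero]; exact hd)
  have h0 : P.ord (algebraMap Qb (modularFunctionFieldBar N) (c' - c)) = 0 := by
    apply S18A3_ord_eq_zero_of_mem P (P.algebraMap_mem' _)
    rw [← map_inv₀]
    exact P.algebraMap_mem' _
  omega

end Places

/-! ### The orders of the local generator -/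

section Orders

variable (N : ℕ) [NeZero N] (K1 : IntermediateField ℚ Qb)

/-- the order of a factor, in `Finsupp.single` form. -/
theorem S34VAL_ord_single (P₀ P' : Place Qb (modularFunctionFieldBar N)) (x : LaurentSeries K1)
    (h : (P' = P₀ → S37B1_ordP N K1 P' x = 1) ∧ (P' ≠ P₀ → S37B1_ordP N K1 P' x = 0)) :
    S37B1_ordP N K1 P' x = (Finsupp.single P₀ (1 : ℤ)) P' := by
  classical
  by_cases e : P' = P₀
  · rw [h.1 e, e, Finsupp.single_eq_same]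
  · rw [h.2 e, Finsupp.single_eq_of_ne' (fun h' => e h'.symm)]

/-- **The order of the local generator**: if each of the four factors `T - a_i` vanishes, among
the places satisfying `G`, exactly at its place and to order one, then the order of
`g = (T - a₁)(T - a₄) / ((T - a₂)(T - a₃))` at such a place is the coefficient of
`(τ' - 1)(τ - 1) P`. -/
theorem S34VAL_gen (G : Place Qb (modularFunctionFieldBar N) → Prop) (τ' τ : GQ)
    (P : Place Qb (modularFunctionFieldBar N))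
    (T a₁ a₂ a₃ a₄ : LaurentSeries K1)
    (hF1 : T - a₁ ∈ S18K_F1 K1 N) (hF2 : T - a₂ ∈ S18K_F1 K1 N)
    (hF3 : T - a₃ ∈ S18K_F1 K1 N) (hF4 : T - a₄ ∈ S18K_F1 K1 N)
    (hne1 : T - a₁ ≠ 0) (hne2 : T - a₂ ≠ 0) (hne3 : T - a₃ ≠ 0) (hne4 : T - a₄ ≠ 0)
    (h1 : ∀ P', G P' → (P' = P → S37B1_ordP N K1 P' (T - a₁) = 1) ∧
      (P' ≠ P → S37B1_ordP N K1 P' (T - a₁) = 0))
    (h2 : ∀ P', G P' → (P' = S34R_g N τ • P → S37B1_ordP N K1 P' (T - a₂) = 1) ∧
      (P' ≠ S34R_g N τ • P → S37B1_ordP N K1 P' (T - a₂) = 0))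
    (h3 : ∀ P', G P' → (P' = S34R_g N τ' • P → S37B1_ordP N K1 P' (T - a₃) = 1) ∧
      (P' ≠ S34R_g N τ' • P → S37B1_ordP N K1 P' (T - a₃) = 0))
    (h4 : ∀ P', G P' →
      (P' = S34R_g N τ' • S34R_g N τ • P → S37B1_ordP N K1 P' (T - a₄) = 1) ∧
      (P' ≠ S34R_g N τ' • S34R_g N τ • P → S37B1_ordP N K1 P' (T - a₄) = 0)) :
    ∀ P', G P' →
      S37B1_ordP N K1 P' ((T - a₁) * (T - a₄) / ((T - a₂) * (T - a₃))) =
        S34R_diff2 N τ' τ (Finsupp.single P 1) P' := by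
  intro P' hP'
  have m1 : T - a₁ ∈ modularFunctionFieldFullC K1 N := hF1
  have m2 : T - a₂ ∈ modularFunctionFieldFullC K1 N := hF2
  have m3 : T - a₃ ∈ modularFunctionFieldFullC K1 N := hF3
  have m4 : T - a₄ ∈ modularFunctionFieldFullC K1 N := hF4
  rw [div_eq_mul_inv,
    S34XC_ordP_mul N K1 P' (mul_mem m1 m4) (inv_mem (mul_mem m2 m3))
      (mul_ne_zero hne1 hne4) (inv_ne_zero (mul_ne_zero hne2 hne3)),
    S34XC_ordP_inv N K1 P' (mul_mem m2 m3),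
    S34XC_ordP_mul N K1 P' m1 m4 hne1 hne4, S34XC_ordP_mul N K1 P' m2 m3 hne2 hne3,
    S34VAL_ord_single N K1 _ P' _ (h1 P' hP'), S34VAL_ord_single N K1 _ P' _ (h2 P' hP'),
    S34VAL_ord_single N K1 _ P' _ (h3 P' hP'), S34VAL_ord_single N K1 _ P' _ (h4 P' hP'),
    S34XC_diff2_single]
  ring

/-- **The trivial generator**: if `τ` fixes `P`, then `(τ' - 1)(τ - 1) P = 0`. -/
theorem S34VAL_fixed (τ' τ : GQ) (P P' : Place Qb (modularFunctionFieldBar N))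
    (h : S34R_g N τ • P = P) : S34R_diff2 N τ' τ (Finsupp.single P 1) P' = 0 := by
  rw [S34XC_diff2_single, h]
  ring

/-- the same if `τ'` fixes both `P` and `τ P`. -/
theorem S34VAL_fixed' (τ' τ : GQ) (P P' : Place Qb (modularFunctionFieldBar N))
    (h : S34R_g N τ' • P = P) (h' : S34R_g N τ' • S34R_g N τ • P = S34R_g N τ • P) :
    S34R_diff2 N τ' τ (Finsupp.single P 1) P' = 0 := by
  rw [S34XC_diff2_single, h, h']
  ring

end Orders

end Fermat.Agent.S34_helper21_VAL
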