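import Mathlib
import Fermat.Agent.S34_helper20_V0K
import Fermat.Agent.S37_helper21_MONO
import Fermat.Agent.S34_helper21_CI
import Fermat.Agent.S34_helper14_N1K
import Fermat.Agent.S34_helper17_IGMONO
import Fermat.Agent.S34_helper17_NADAPT

/-!
# S34, piece X-L2-WCOMM (helper21): the change of level commutes with the Atkin–Lehner involution

`K0 ≤ K1` two levels, `Φ = S37MONO_Φ : K0((q)) → K1((q))` the coefficientwise inclusion,
`w_i = S34V0_wL (S34V0K_emb K_i) q N' N ..` the Atkin–Lehner involution of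
`F_i = K_i(j(q^d) : d ∣ N)`, `N = q N'`.

* `S34WC_comm`   : `Φ (w_0 x) = w_1 (Φ x)` for `x ∈ F_0`;
* `S34WC_V1`, `S34WC_V2` : `Φ` maps the two valuation rings of level `K0` into those of level
  `K1`;
* `S34WC_pi`     : `Φ π_0 = π_1 * u`, `u` a constant of `O1`;
* `S34WC_mapinf`, `S34WC_map0` : `Φ` maps `π_0 V_i(K0)` into `π_1 V_i(K1)`.
-/

set_option autoImplicit false
set_option linter.style.haveILetI false
set_option linter.unusedSectionVars false
set_option linter.unusedVariables false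
set_option synthInstance.maxHeartbeats 400000
set_option maxHeartbeats 1600000

open AlgebraicCurve ModularCurve HahnSeries IntermediateField

noncomputable section

namespace Fermat.Agent.S34_helper21_WCOMM

open Fermat.Agent.S18_helper9_CDefs Fermat.Agent.S18_helper25_COREDefs
  Fermat.Agent.S18_helper13_GAUSS Fermat.Agent.S34_helper20_WQ Fermat.Agent.S34_helper20_V0
  Fermat.Agent.S34_helper20_V0K Fermat.Agent.S37_helper21_MONO Fermat.Agent.S34_helper21_CI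
  Fermat.Agent.S34_helper14_N1K Fermat.Agent.S34_helper14_N1S Fermat.Agent.S34_helper17_IGMONO
  Fermat.Agent.S34_helper17_NADAPT

local notation "Qb" => AlgebraicClosure ℚ

variable (A : ValuationSubring Qb) {K0 K1 : IntermediateField ℚ Qb} (hle : K0 ≤ K1)
  (q N' N : ℕ) [NeZero N'] [NeZero N] (hq : q.Prime) (hqN : ¬ q ∣ N') (hN : N = q * N')

/-! ### `Φ` and the generators -/

theorem S34WC_Φ_qExpand (d : ℕ) [NeZero d] (x : LaurentSeries K0) :
    S37MONO_Φ hle (qExpand K0 d x) = qExpand K1 d (S37MONO_Φ hle x) := by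
  rw [S37MONO_Φ, coeffMap_qExpand]

theorem S34WC_Φ_gen (d : ℕ) [NeZero d] :
    S37MONO_Φ hle (qExpand K0 d (jqModC K0)) = qExpand K1 d (jqModC K1) := by
  rw [S34WC_Φ_qExpand, S37MONO_Φ, coeffMap_jqModC]

/-- `Φ` restricted to the function fields -/
def S34WC_Φr : modularFunctionFieldFullC K0 N →+* modularFunctionFieldFullC K1 N where
  toFun y := ⟨S37MONO_Φ hle (y : LaurentSeries K0), S37MONO_Φ_mem_F1 N hle y.2⟩
  map_one' := Subtype.ext (map_one _)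
  map_mul' a b := Subtype.ext (map_mul _ _ _)
  map_zero' := Subtype.ext (map_zero _)
  map_add' a b := Subtype.ext (map_add _ _ _)

/-- the two composites `F_0 → K1((q))` -/
def S34WC_f : modularFunctionFieldFullC K0 N →+* LaurentSeries K1 :=
  (S37MONO_Φ hle).comp ((algebraMap (modularFunctionFieldFullC K0 N) (LaurentSeries K0)).comp
    (S34V0_w (S34V0K_emb K0) q N' N hq hqN hN : modularFunctionFieldFullC K0 N →+*
      modularFunctionFieldFullC K0 N))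

def S34WC_g : modularFunctionFieldFullC K0 N →+* LaurentSeries K1 :=
  (algebraMap (modularFunctionFieldFullC K1 N) (LaurentSeries K1)).comp
    ((S34V0_w (S34V0K_emb K1) q N' N hq hqN hN : modularFunctionFieldFullC K1 N →+*
      modularFunctionFieldFullC K1 N).comp (S34WC_Φr hle N))

theorem S34WC_f_apply (y : modularFunctionFieldFullC K0 N) :
    S34WC_f hle q N' N hq hqN hN y =
      S37MONO_Φ hle ((S34V0_w (S34V0K_emb K0) q N' N hq hqN hN y :
        modularFunctionFieldFullC K0 N) : LaurentSeries K0) := rfl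

theorem S34WC_g_apply (y : modularFunctionFieldFullC K0 N) :
    S34WC_g hle q N' N hq hqN hN y =
      ((S34V0_w (S34V0K_emb K1) q N' N hq hqN hN (S34WC_Φr hle N y) :
        modularFunctionFieldFullC K1 N) : LaurentSeries K1) := rfl

theorem S34WC_fg (y : modularFunctionFieldFullC K0 N) :
    S34WC_f hle q N' N hq hqN hN y = S34WC_g hle q N' N hq hqN hN y := by
  refine S34WQ_ringHom_ext N _ _ ?_ ?_ y
  · intro c hc
    rw [S34WC_f_apply, S34WC_g_apply, S34V0_w_C]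
    have e : S34WC_Φr hle N ⟨HahnSeries.C c, hc⟩ =
        ⟨HahnSeries.C (S37MONO_ι hle c), S34V0_C_mem N _⟩ :=
      Subtype.ext (S37MONO_Φ_C hle c)
    rw [e, S34V0_w_C]
    exact S37MONO_Φ_C hle c
  · intro d _ hd hm
    haveI : NeZero (S34WQ_dual q d) :=
      ⟨S34WQ_dual_ne_zero hq.pos (Nat.pos_of_ne_zero (NeZero.ne d))⟩
    rw [S34WC_f_apply, S34WC_g_apply, S34V0_w_gen (S34V0K_emb K0) q N' N hq hqN hN d hd hm]
    have hm1 : qExpand K1 d (jqModC K1) ∈ modularFunctionFieldFullC K1 N := by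
      rw [← S34WC_Φ_gen hle d]
      exact S37MONO_Φ_mem_F1 N hle hm
    have e : S34WC_Φr hle N ⟨qExpand K0 d (jqModC K0), hm⟩ = ⟨qExpand K1 d (jqModC K1), hm1⟩ :=
      Subtype.ext (S34WC_Φ_gen hle d)
    rw [e, S34V0_w_gen (S34V0K_emb K1) q N' N hq hqN hN d hd hm1]
    exact S34WC_Φ_gen hle (S34WQ_dual q d)

/-- **(W1) the change of level commutes with the Atkin–Lehner involution** -/
theorem S34WC_comm {x : LaurentSeries K0} (hx : x ∈ modularFunctionFieldFullC K0 N) :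
    S37MONO_Φ hle (S34V0_wL (S34V0K_emb K0) q N' N hq hqN hN x) =
      S34V0_wL (S34V0K_emb K1) q N' N hq hqN hN (S37MONO_Φ hle x) := by
  rw [S34V0_wL_of_mem (S34V0K_emb K0) q N' N hq hqN hN hx,
    S34V0_wL_of_mem (S34V0K_emb K1) q N' N hq hqN hN (S37MONO_Φ_mem_F1 N hle hx)]
  exact S34WC_fg hle q N' N hq hqN hN ⟨x, hx⟩

/-! ### The two valuation rings -/

section Gauss

variable [IsDiscreteValuationRing (S18K_O1 A K0)] [IsDiscreteValuationRing (S18K_O1 A K1)]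

/-- **(W2)** `Φ` maps the Gauss ring of level `K0` into the Gauss ring of level `K1` -/
theorem S34WC_V1 {v : LaurentSeries K0} (hv : v ∈ S18K_V A K0 N) :
    S37MONO_Φ hle v ∈ S18K_V A K1 N :=
  ⟨(S37MONO_redFun A hle hv.1).1, S37MONO_Φ_mem_F1 N hle hv.2⟩

/-- **(W2)** `Φ` maps the second valuation ring `V_0 = w(V_∞)` of level `K0` into that of level
`K1` -/
theorem S34WC_V2 {v : LaurentSeries K0} (hv : v ∈ S34V0K_V A K0 q N' N hq hqN hN) :
    S37MONO_Φ hle v ∈ S34V0K_V A K1 q N' N hq hqN hN := by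
  obtain ⟨hF, hw⟩ := hv
  refine ⟨S37MONO_Φ_mem_F1 N hle hF, ?_⟩
  rw [← S34WC_comm hle q N' N hq hqN hN hF]
  exact S34WC_V1 A hle N hw

/-- the uniformiser of the small level is a multiple of the uniformiser of the big level -/
theorem S34WC_pi_dvd : ∃ u : S18K_O1 A K1,
    S37MONO_ι hle (((S18K_D A K0).π : S18K_O1 A K0) : K0) =
      (((S18K_D A K1).π : S18K_O1 A K1) : K1) * (u : K1) := by
  have hn : ((S37MONO_ι hle (((S18K_D A K0).π : S18K_O1 A K0) : K0) : K1) : Qb) ∈ A.nonunits :=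
    S34CI_pi_nonunit A K0
  obtain ⟨hmem, hmax⟩ := (ValuationSubring.mem_nonunits_iff_exists_mem_maximalIdeal).1 hn
  have h0 : (S18K_D A K1).res
      (⟨S37MONO_ι hle (((S18K_D A K0).π : S18K_O1 A K0) : K0), hmem⟩ : S18K_O1 A K1) = 0 := by
    show S18K_res A K1 _ = 0
    rw [S18K_res, RingHom.comp_apply, IsLocalRing.residue_eq_zero_iff]
    exact hmax
  obtain ⟨y, hy⟩ := ((S18K_D A K1).res_eq_zero_iff _).1 h0
  refine ⟨y, ?_⟩
  have := congrArg (fun z : S18K_O1 A K1 => (z : K1)) hy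
  exact this

/-- **(W5)** `Φ π_0 = π_1 * u`, `u` a constant of `O1` -/
theorem S34WC_pi : ∃ u : K1, (u : Qb) ∈ A ∧
    S37MONO_Φ hle (S18K_π A K0) = S18K_π A K1 * HahnSeries.C u := by
  obtain ⟨u, hu⟩ := S34WC_pi_dvd A hle
  refine ⟨u, u.2, ?_⟩
  have e0 : S18K_π A K0 = HahnSeries.C (((S18K_D A K0).π : S18K_O1 A K0) : K0) := rfl
  have e1 : S18K_π A K1 = HahnSeries.C (((S18K_D A K1).π : S18K_O1 A K1) : K1) := rfl
  rw [e0, e1, S37MONO_Φ_C, hu, map_mul]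

/-- **(W5)**, chart form -/
theorem S34WC_pi_O : ∃ u ∈ S18K_O A K1, S37MONO_Φ hle (S18K_π A K0) = S18K_π A K1 * u := by
  obtain ⟨u, hu, h⟩ := S34WC_pi A hle
  exact ⟨HahnSeries.C u, (S18K_mem_O A K1 _).2 ⟨u, hu, rfl⟩, h⟩

/-- constants of `O1` lie in the Gauss ring -/
theorem S34WC_C_mem_V1 {u : K1} (hu : (u : Qb) ∈ A) : HahnSeries.C u ∈ S18K_V A K1 N :=
  ⟨Fermat.Agent.S37_helper21_F5e.S37F5e_O_le_Vring K1 A ((S18K_mem_O A K1 _).2 ⟨u, hu, rfl⟩),
    S34V0_C_mem N u⟩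

include hq hqN hN in
/-- constants of `O1` lie in the second valuation ring -/
theorem S34WC_C_mem_V2 {u : K1} (hu : (u : Qb) ∈ A) :
    HahnSeries.C u ∈ S34V0K_V A K1 q N' N hq hqN hN :=
  S34V0K_le A K1 q N' N hq hqN hN (S34WC_C_mem_V1 A N' hu)

/-- **(W3)** `Φ` maps `π_0 V_∞(K0)` into `π_1 V_∞(K1)` -/
theorem S34WC_mapinf {a : LaurentSeries K0}
    (h : ∃ v ∈ S18K_V A K0 N, a = S18K_π A K0 * v) :
    ∃ v ∈ S18K_V A K1 N, S37MONO_Φ hle a = S18K_π A K1 * v := by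
  obtain ⟨v, hv, rfl⟩ := h
  obtain ⟨u, hu, hπ⟩ := S34WC_pi A hle
  refine ⟨HahnSeries.C u * S37MONO_Φ hle v,
    mul_mem (S34WC_C_mem_V1 A N hu) (S34WC_V1 A hle N hv), ?_⟩
  rw [map_mul, hπ, mul_assoc]

/-- **(W3)** `Φ` maps `π_0 V_0(K0)` into `π_1 V_0(K1)` -/
theorem S34WC_map0 {a : LaurentSeries K0}
    (h : ∃ v ∈ S34V0K_V A K0 q N' N hq hqN hN, a = S18K_π A K0 * v) :
    ∃ v ∈ S34V0K_V A K1 q N' N hq hqN hN, S37MONO_Φ hle a = S18K_π A K1 * v := by
  obtain ⟨v, hv, rfl⟩ := h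
  obtain ⟨u, hu, hπ⟩ := S34WC_pi A hle
  refine ⟨HahnSeries.C u * S37MONO_Φ hle v,
    mul_mem (S34WC_C_mem_V2 A q N' N hq hqN hN hu) (S34WC_V2 A hle q N' N hq hqN hN hv), ?_⟩
  rw [map_mul, hπ, mul_assoc]

end Gauss

/-! ### The chart maps: `hcf`, `hcg`, `hmapinf`, `hmap0`, `hπ` of `S34L2_main_abs` -/

section Charts

variable [IsDiscreteValuationRing (S18K_O1 A K0)] [IsDiscreteValuationRing (S18K_O1 A K1)]

/-- **(W4)** `Φ` commutes with the Atkin–Lehner automorphism of the finite chart, elementwise -/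
theorem S34WC_sigma [NeZero q]
    (hjq0 : IsIntegral (adj (S18K_O A K0) (S18K_j K0)) (qExpand K0 q (jqModC K0)))
    (hjq1 : IsIntegral (adj (S18K_O A K1) (S18K_j K1)) (qExpand K1 q (jqModC K1)))
    (a : S18K_A0 A K0 N) (ha : S37MONO_Φ hle (a : LaurentSeries K0) ∈ S18K_A0 A K1 N) :
    S37MONO_Φ hle ((S34N1K_sigma A K0 q N' N hq hqN hN hjq0 a : S18K_A0 A K0 N) :
        LaurentSeries K0) =
      ((S34N1K_sigma A K1 q N' N hq hqN hN hjq1 ⟨S37MONO_Φ hle (a : LaurentSeries K0), ha⟩ :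
        S18K_A0 A K1 N) : LaurentSeries K1) := by
  rw [S34N1K_sigma_coe, S34N1K_sigma_coe]
  exact S34WC_comm hle q N' N hq hqN hN (S34N1K_A0_le_F A K0 N a.2)

/-- **`hcf`**: `Φ` commutes with the inclusion of the chart of level `N'` -/
theorem S34WC_hcf (hΦ : ∀ a ∈ S18K_A0 A K0 N, S37MONO_Φ hle a ∈ S18K_A0 A K1 N)
    (h0 : S18K_A0 A K0 N' ≤ S18K_A0 A K0 N) (h1 : S18K_A0 A K1 N' ≤ S18K_A0 A K1 N)
    (a : S18K_A0 A K0 N') :
    S34NA_chartMap (S37MONO_Φ hle) (S18K_A0 A K0 N) (S18K_A0 A K1 N) hΦ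
        (Subring.inclusion h0 a) =
      Subring.inclusion h1 (S34IM_φ0 A N' hle a) := by
  apply Subtype.ext
  rw [S34NA_chartMap_coe, Subring.coe_inclusion, Subring.coe_inclusion, S34IM_φ0_coe]

/-- **`hcg`**: `Φ` commutes with the twisted inclusion `σ ∘ incl` of the chart of level `N'` -/
theorem S34WC_hcg [NeZero q]
    (hjq0 : IsIntegral (adj (S18K_O A K0) (S18K_j K0)) (qExpand K0 q (jqModC K0)))
    (hjq1 : IsIntegral (adj (S18K_O A K1) (S18K_j K1)) (qExpand K1 q (jqModC K1)))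
    (hΦ : ∀ a ∈ S18K_A0 A K0 N, S37MONO_Φ hle a ∈ S18K_A0 A K1 N)
    (h0 : S18K_A0 A K0 N' ≤ S18K_A0 A K0 N) (h1 : S18K_A0 A K1 N' ≤ S18K_A0 A K1 N)
    (a : S18K_A0 A K0 N') :
    S34NA_chartMap (S37MONO_Φ hle) (S18K_A0 A K0 N) (S18K_A0 A K1 N) hΦ
        (((S34N1K_sigma A K0 q N' N hq hqN hN hjq0).toRingHom.comp (Subring.inclusion h0)) a) =
      ((S34N1K_sigma A K1 q N' N hq hqN hN hjq1).toRingHom.comp (Subring.inclusion h1))
        (S34IM_φ0 A N' hle a) := by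
  apply Subtype.ext
  rw [S34NA_chartMap_coe]
  simp only [RingHom.comp_apply, RingEquiv.toRingHom_eq_coe, RingEquiv.coe_toRingHom,
    S34N1K_sigma_coe, Subring.coe_inclusion, S34IM_φ0_coe]
  exact S34WC_comm hle q N' N hq hqN hN
    (S34N1K_A0_le_F A K0 N (h0 a.2))

/-- **`hmapinf`**: `Φ` maps the vertical prime `A0 ∩ π V_∞` of level `K0` into that of level
`K1` -/
theorem S34WC_hmapinf (X₀ : Subring (LaurentSeries K0)) (X₁ : Subring (LaurentSeries K1))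
    (hΦ : ∀ a ∈ X₀, S37MONO_Φ hle a ∈ X₁)
    (hV0 : X₀ ≤ S18K_V A K0 N) (hV1 : X₁ ≤ S18K_V A K1 N) :
    ∀ a ∈ S34N1S_vert (S18K_π A K0) (S18K_V A K0 N) X₀ hV0,
      S34NA_chartMap (S37MONO_Φ hle) X₀ X₁ hΦ a ∈
        S34N1S_vert (S18K_π A K1) (S18K_V A K1 N) X₁ hV1 :=
  fun _ ha => S34WC_mapinf A hle N ha

/-- **`hmap0`**: `Φ` maps the vertical prime `A0 ∩ π V_0` of level `K0` into that of level
`K1` -/
theorem S34WC_hmap0 (X₀ : Subring (LaurentSeries K0)) (X₁ : Subring (LaurentSeries K1))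
    (hΦ : ∀ a ∈ X₀, S37MONO_Φ hle a ∈ X₁)
    (hV0 : X₀ ≤ S34V0K_V A K0 q N' N hq hqN hN) (hV1 : X₁ ≤ S34V0K_V A K1 q N' N hq hqN hN) :
    ∀ a ∈ S34N1S_vert (S18K_π A K0) (S34V0K_V A K0 q N' N hq hqN hN) X₀ hV0,
      S34NA_chartMap (S37MONO_Φ hle) X₀ X₁ hΦ a ∈
        S34N1S_vert (S18K_π A K1) (S34V0K_V A K1 q N' N hq hqN hN) X₁ hV1 :=
  fun _ ha => S34WC_map0 A hle q N' N hq hqN hN ha

/-- **`hπ`**: `Φ π_0 = π_1 * u` in the chart, as soon as the chart contains the constants -/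
theorem S34WC_hπ (X₀ : Subring (LaurentSeries K0)) (X₁ : Subring (LaurentSeries K1))
    (hΦ : ∀ a ∈ X₀, S37MONO_Φ hle a ∈ X₁) (hO : S18K_O A K1 ≤ X₁)
    (π₀ : X₀) (hπ₀ : (π₀ : LaurentSeries K0) = S18K_π A K0)
    (π₁ : X₁) (hπ₁ : (π₁ : LaurentSeries K1) = S18K_π A K1) :
    ∃ u : X₁, S34NA_chartMap (S37MONO_Φ hle) X₀ X₁ hΦ π₀ = π₁ * u := by
  obtain ⟨u, hu, h⟩ := S34WC_pi_O A hle
  refine ⟨⟨u, hO hu⟩, Subtype.ext ?_⟩
  show S37MONO_Φ hle (π₀ : LaurentSeries K0) = (π₁ : LaurentSeries K1) * u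
  rw [hπ₀, hπ₁, h]

end Charts

end Fermat.Agent.S34_helper21_WCOMM
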