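import Mathlib

/-!
# S34 piece P-FATOU (helper24): Fatou's lemma over a discrete valuation ring

`O` a discrete valuation ring with fraction field `K`.  A rational function `P / Q` over `K`
whose Taylor expansion at `0` has all coefficients in `O` can be written `P' / Q'` with
`P', Q'` polynomials over `O` and `Q'(0)` a unit of `O` (so `P / Q` lies in the localisation of
`O[u]` at the maximal ideal `(π, u)`).

Main statements:
* `S34FA_fatou` : the power-series form.
* `S34FA_fatou_coeff` : the same for a power series over `K` with coefficients in the range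
  of `algebraMap O K`.
* `S34FA_core` : the integral core (no fraction field).
* `S34FA_prime_dvd_mul`, `S34FA_exists_C_mul`, `S34FA_clear_denoms` : bricks.

Mathlib only.
-/

namespace Fermat.Agent.S34_helper24_FATOU

open Polynomial

/-- A power series all of whose coefficients are divisible by `a` is `C a * _`. -/
theorem S34FA_exists_C_mul {R : Type*} [CommRing R] (a : R) (g : PowerSeries R)
    (h : ∀ i, a ∣ PowerSeries.coeff i g) : ∃ g' : PowerSeries R, g = PowerSeries.C a * g' := by
  choose c hc using h
  refine ⟨PowerSeries.mk c, ?_⟩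
  ext i
  rw [PowerSeries.coeff_C_mul, PowerSeries.coeff_mk, hc i]

/-- Gauss' lemma for power series and a prime element: if all coefficients of `φ * ψ` are
divisible by the prime `π`, then so are all coefficients of `φ` or all coefficients of `ψ`. -/
theorem S34FA_prime_dvd_mul {R : Type*} [CommRing R] [IsDomain R] {π : R} (hπ : Prime π)
    (φ ψ : PowerSeries R) (h : ∀ i, π ∣ PowerSeries.coeff i (φ * ψ)) :
    (∀ i, π ∣ PowerSeries.coeff i φ) ∨ (∀ i, π ∣ PowerSeries.coeff i ψ) := by
  have hprime : (Ideal.span {π}).IsPrime := (Ideal.span_singleton_prime hπ.ne_zero).mpr hπ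
  have key : ∀ χ : PowerSeries R,
      PowerSeries.map (Ideal.Quotient.mk (Ideal.span {π})) χ = 0 ↔
        ∀ i, π ∣ PowerSeries.coeff i χ := by
    intro χ
    constructor
    · intro h0 i
      have := congrArg (PowerSeries.coeff i) h0
      rw [PowerSeries.coeff_map, map_zero] at this
      exact Ideal.mem_span_singleton.mp (Ideal.Quotient.eq_zero_iff_mem.mp this)
    · intro h0
      ext i
      rw [PowerSeries.coeff_map, map_zero]
      exact Ideal.Quotient.eq_zero_iff_mem.mpr (Ideal.mem_span_singleton.mpr (h0 i))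
  have h0 : PowerSeries.map (Ideal.Quotient.mk (Ideal.span {π})) φ *
      PowerSeries.map (Ideal.Quotient.mk (Ideal.span {π})) ψ = 0 := by
    rw [← map_mul]; exact (key _).mpr h
  rcases mul_eq_zero.mp h0 with h1 | h1
  · exact Or.inl ((key _).mp h1)
  · exact Or.inr ((key _).mp h1)

/-- The integral core of Fatou's lemma: if `Q * f = P` and `Q * g = c` is a nonzero constant
(`c` associated to `π ^ n`), then `f = P' / Q'` with `Q'(0)` a unit. -/
theorem S34FA_core {O : Type*} [CommRing O] [IsDomain O] [IsDiscreteValuationRing O]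
    {π : O} (hπ : Irreducible π) (n : ℕ) :
    ∀ (Q P : Polynomial O) (f g : PowerSeries O) (c : O), Associated c (π ^ n) →
      (Q : PowerSeries O) * f = (P : PowerSeries O) →
      (Q : PowerSeries O) * g = PowerSeries.C c →
      ∃ P' Q' : Polynomial O, IsUnit (Q'.coeff 0) ∧
        (Q' : PowerSeries O) * f = (P' : PowerSeries O) := by
  have hπp : Prime π := hπ.prime
  have hCπ : (PowerSeries.C π : PowerSeries O) ≠ 0 := by
    intro h0
    have := congrArg (PowerSeries.coeff 0) h0
    rw [PowerSeries.coeff_zero_C, map_zero] at this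
    exact hπp.ne_zero this
  induction n with
  | zero =>
    intro Q P f g c hc hf hg
    refine ⟨P, Q, ?_, hf⟩
    rw [pow_zero] at hc
    have hcu : IsUnit c := (associated_one_iff_isUnit).mp hc
    have h0 := congrArg PowerSeries.constantCoeff hg
    rw [map_mul, Polynomial.constantCoeff_coe, PowerSeries.constantCoeff_C] at h0
    exact isUnit_of_mul_isUnit_left (h0 ▸ hcu)
  | succ n ih =>
    intro Q P f g c hc hf hg
    -- `c = π * c1`
    have hπc : π ∣ c := by
      have : π ∣ π ^ (n + 1) := dvd_pow_self π (Nat.succ_ne_zero n)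
      exact (hc.symm.dvd_iff_dvd_right).mp this
    obtain ⟨c1, rfl⟩ := hπc
    have hc1 : Associated c1 (π ^ n) := by
      rw [pow_succ'] at hc
      exact Associated.of_mul_left hc (Associated.refl π) hπp.ne_zero
    have hdiv : ∀ i, π ∣ PowerSeries.coeff i ((Q : PowerSeries O) * g) := by
      intro i
      rw [hg, PowerSeries.coeff_C]
      split_ifs
      · exact dvd_mul_right _ _
      · exact dvd_zero _
    rcases S34FA_prime_dvd_mul hπp _ _ hdiv with hQ | hG
    · -- `π ∣ Q`
      have hQ' : ∀ i, π ∣ Q.coeff i := fun i => by simpa using hQ i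
      obtain ⟨Q1, rfl⟩ := (Polynomial.C_dvd_iff_dvd_coeff π Q).mpr hQ'
      have hP' : ∀ i, π ∣ P.coeff i := by
        intro i
        have h1 := congrArg (PowerSeries.coeff i) hf
        rw [Polynomial.coeff_coe] at h1
        rw [← h1, Polynomial.coe_mul, Polynomial.coe_C, mul_assoc, PowerSeries.coeff_C_mul]
        exact dvd_mul_right _ _
      obtain ⟨P1, rfl⟩ := (Polynomial.C_dvd_iff_dvd_coeff π P).mpr hP'
      have hf1 : (Q1 : PowerSeries O) * f = (P1 : PowerSeries O) := by
        apply mul_left_cancel₀ hCπ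
        rw [← mul_assoc, ← Polynomial.coe_C, ← Polynomial.coe_mul, hf, Polynomial.coe_mul]
      have hg1 : (Q1 : PowerSeries O) * g = PowerSeries.C c1 := by
        apply mul_left_cancel₀ hCπ
        rw [← mul_assoc, ← Polynomial.coe_C, ← Polynomial.coe_mul, hg, Polynomial.coe_C,
          map_mul]
      exact ih Q1 P1 f g c1 hc1 hf1 hg1
    · -- `π ∣ g`
      obtain ⟨g1, rfl⟩ := S34FA_exists_C_mul π g hG
      have hg1 : (Q : PowerSeries O) * g1 = PowerSeries.C c1 := by
        apply mul_left_cancel₀ hCπ
        rw [mul_left_comm, hg, map_mul]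
      exact ih Q P f g1 c1 hc1 hf hg1

/-- Common denominator for two polynomials over the fraction field. -/
theorem S34FA_clear_denoms {O K : Type*} [CommRing O] [IsDomain O] [Field K] [Algebra O K]
    [IsFractionRing O K] (p q : Polynomial K) :
    ∃ (b : O) (p0 q0 : Polynomial O), b ≠ 0 ∧
      p0.map (algebraMap O K) = C (algebraMap O K b) * p ∧
      q0.map (algebraMap O K) = C (algebraMap O K b) * q := by
  obtain ⟨b1, hb1, h1⟩ := IsLocalization.integerNormalization_spec (nonZeroDivisors O) p
  obtain ⟨b2, hb2, h2⟩ := IsLocalization.integerNormalization_spec (nonZeroDivisors O) q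
  have e : ∀ (b : O) (r : Polynomial K), b • r = C (algebraMap O K b) * r := by
    intro b r
    rw [← Polynomial.smul_eq_C_mul, algebraMap_smul]
  refine ⟨b1 * b2, C b2 * IsLocalization.integerNormalization (nonZeroDivisors O) p,
    C b1 * IsLocalization.integerNormalization (nonZeroDivisors O) q,
    mul_ne_zero (nonZeroDivisors.ne_zero hb1) (nonZeroDivisors.ne_zero hb2), ?_, ?_⟩
  · rw [Polynomial.map_mul, Polynomial.map_C, h1, e, map_mul, map_mul]; ring
  · rw [Polynomial.map_mul, Polynomial.map_C, h2, e, map_mul, map_mul]; ring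

/-- **Fatou's lemma over a discrete valuation ring.**  If the rational function `P / Q` over
`K = Frac O` has Taylor series `f` with coefficients in `O`, then `P / Q = P' / Q'` with
`P', Q'` over `O` and `Q'(0)` a unit of `O`. -/
theorem S34FA_fatou {O K : Type*} [CommRing O] [IsDomain O] [IsDiscreteValuationRing O] [Field K]
    [Algebra O K] [IsFractionRing O K] (P Q : Polynomial K) (hQ : Q ≠ 0) (f : PowerSeries O)
    (h : (Q : PowerSeries K) * f.map (algebraMap O K) = (P : PowerSeries K)) :
    ∃ P' Q' : Polynomial O, IsUnit (Q'.coeff 0) ∧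
      P'.map (algebraMap O K) * Q = P * Q'.map (algebraMap O K) ∧
      (Q' : PowerSeries O) * f = (P' : PowerSeries O) := by
  classical
  let _ : GCDMonoid (Polynomial K) := EuclideanDomain.gcdMonoid (Polynomial K)
  have hinjK : Function.Injective (algebraMap O K) := IsFractionRing.injective O K
  -- lowest terms
  have hD : GCDMonoid.gcd P Q ≠ 0 := gcd_ne_zero_of_right hQ
  obtain ⟨A, B, hAB⟩ : IsCoprime (P / GCDMonoid.gcd P Q) (Q / GCDMonoid.gcd P Q) :=
    isCoprime_div_gcd_div_gcd hQ
  have hP1 : GCDMonoid.gcd P Q * (P / GCDMonoid.gcd P Q) = P :=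
    EuclideanDomain.mul_div_cancel' hD (gcd_dvd_left _ _)
  have hQ1 : GCDMonoid.gcd P Q * (Q / GCDMonoid.gcd P Q) = Q :=
    EuclideanDomain.mul_div_cancel' hD (gcd_dvd_right _ _)
  generalize GCDMonoid.gcd P Q = D at hD hAB hP1 hQ1
  generalize P / D = P1 at hAB hP1
  generalize Q / D = Q1 at hAB hQ1
  have hDc : ((D : Polynomial K) : PowerSeries K) ≠ 0 := by
    rwa [Ne, Polynomial.coe_eq_zero_iff]
  have h1 : (Q1 : PowerSeries K) * f.map (algebraMap O K) = (P1 : PowerSeries K) := by
    apply mul_left_cancel₀ hDc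
    rw [← mul_assoc, ← Polynomial.coe_mul, ← Polynomial.coe_mul, hQ1, hP1, h]
  -- clear denominators
  obtain ⟨b, P0, Q0, hb, hP0, hQ0⟩ := S34FA_clear_denoms (O := O) P1 Q1
  obtain ⟨a, A0, B0, ha, hA0, hB0⟩ := S34FA_clear_denoms (O := O) A B
  have hmapinj : Function.Injective (PowerSeries.map (algebraMap O K)) := by
    intro x y hxy
    ext i
    have := congrArg (PowerSeries.coeff i) hxy
    rw [PowerSeries.coeff_map, PowerSeries.coeff_map] at this
    exact hinjK this
  have hcoe : ∀ p : Polynomial O, PowerSeries.map (algebraMap O K) (p : PowerSeries O) =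
      ((p.map (algebraMap O K) : Polynomial K) : PowerSeries K) := fun p =>
    (Polynomial.polynomial_map_coe (φ := algebraMap O K) (f := p)).symm
  have h2 : (Q0 : PowerSeries O) * f = (P0 : PowerSeries O) := by
    apply hmapinj
    rw [map_mul, hcoe, hcoe, hQ0, hP0, Polynomial.coe_mul, Polynomial.coe_mul, mul_assoc, h1]
  have h3 : A0 * P0 + B0 * Q0 = C (a * b) := by
    apply Polynomial.map_injective _ hinjK
    rw [Polynomial.map_add, Polynomial.map_mul, Polynomial.map_mul, hA0, hB0, hP0, hQ0,
      Polynomial.map_C, map_mul, map_mul]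
    calc C (algebraMap O K a) * A * (C (algebraMap O K b) * P1) +
          C (algebraMap O K a) * B * (C (algebraMap O K b) * Q1)
        = C (algebraMap O K a) * C (algebraMap O K b) * (A * P1 + B * Q1) := by ring
      _ = C (algebraMap O K a) * C (algebraMap O K b) := by rw [hAB, mul_one]
  have h4 : (Q0 : PowerSeries O) * ((A0 : PowerSeries O) * f + (B0 : PowerSeries O)) =
      PowerSeries.C (a * b) := by
    rw [← Polynomial.coe_C, ← h3, Polynomial.coe_add, Polynomial.coe_mul, Polynomial.coe_mul,
      ← h2]
    ring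
  obtain ⟨π, hπ⟩ := IsDiscreteValuationRing.exists_irreducible O
  obtain ⟨n, hn⟩ := IsDiscreteValuationRing.associated_pow_irreducible (mul_ne_zero ha hb) hπ
  obtain ⟨P', Q', hu, hf'⟩ := S34FA_core hπ n Q0 P0 f _ (a * b) hn h2 h4
  refine ⟨P', Q', hu, ?_, hf'⟩
  apply Polynomial.coe_injective
  rw [Polynomial.coe_mul, Polynomial.coe_mul, ← hcoe, ← hcoe, ← hf', map_mul, ← h, hcoe]
  ring

/-- Fatou's lemma for a power series over `K` all of whose coefficients are integral. -/
theorem S34FA_fatou_coeff {O K : Type*} [CommRing O] [IsDomain O] [IsDiscreteValuationRing O]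
    [Field K] [Algebra O K] [IsFractionRing O K] (P Q : Polynomial K) (hQ : Q ≠ 0)
    (F : PowerSeries K) (hF : ∀ i, PowerSeries.coeff i F ∈ (algebraMap O K).range)
    (h : (Q : PowerSeries K) * F = (P : PowerSeries K)) :
    ∃ P' Q' : Polynomial O, IsUnit (Q'.coeff 0) ∧
      P'.map (algebraMap O K) * Q = P * Q'.map (algebraMap O K) ∧
      ((Q'.map (algebraMap O K) : Polynomial K) : PowerSeries K) * F =
        ((P'.map (algebraMap O K) : Polynomial K) : PowerSeries K) := by
  choose c hc using hF
  have hFc : F = (PowerSeries.mk c).map (algebraMap O K) := by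
    ext i
    rw [PowerSeries.coeff_map, PowerSeries.coeff_mk, hc i]
  obtain ⟨P', Q', hu, h1, h2⟩ := S34FA_fatou P Q hQ (PowerSeries.mk c) (hFc ▸ h)
  refine ⟨P', Q', hu, h1, ?_⟩
  have := congrArg (PowerSeries.map (algebraMap O K)) h2
  rw [map_mul, ← Polynomial.polynomial_map_coe, ← Polynomial.polynomial_map_coe, ← hFc] at this
  exact this

end Fermat.Agent.S34_helper24_FATOU
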