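import Mathlib

/-!
# S34, piece X-REL, abstract core (helper25): the symmetric relation of minimal degree

`A` a domain of characteristic zero (the constants), `c : A →+* L` the constants of a field `L`,
`j θ : L`.  `S34RELA_ev c j θ : A[X][Y] →+* L` is the evaluation `P ↦ P(j, θ)`.

* `S34RELA_exists`  : if `A[X]` is integrally closed, `P ↦ P(j, ·)` is injective on `A[X]` and `θ`
  satisfies a monic relation over `A[j]`, there is a monic `M` with `M(j, θ) = 0` dividing every
  relation (the minimal polynomial of `θ` over `A[j]`);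
* `S34RELA_symm`    : if the relations are stable under the exchange of the two variables
  (Atkin–Lehner involution) and `θ ≠ j`, then `M` is symmetric: `swap M = M`;
* `S34RELA_bounds`  : a symmetric monic `M` of degree `n` has `a_0` monic of degree `n` and
  `deg a_i ≤ n - 1` for `i ≥ 1`;
* `S34RELA_upper`   : `n ≤ deg_Y Q` for every nonzero relation `Q` with coefficients in the
  fraction field of `A`;
* `S34RELA_lower`   : `q + 1 ≤ n` from an additive valuation with `v j = -1`, `v θ = -q`.
-/

set_option autoImplicit false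
set_option linter.style.haveILetI false

open Polynomial

open scoped Polynomial.Bivariate

namespace Fermat.Agent.S34_helper25_RELA

section Eval

variable {A L : Type*} [CommRing A] [CommRing L]

/-- the evaluation `P ↦ P(x, y)` of a two-variable polynomial with constants `c`. -/
noncomputable def S34RELA_ev (c : A →+* L) (x y : L) : A[X][Y] →+* L :=
  eval₂RingHom (eval₂RingHom c x) y

theorem S34RELA_ev_apply (c : A →+* L) (x y : L) (P : A[X][Y]) :
    S34RELA_ev c x y P = P.eval₂ (eval₂RingHom c x) y := rfl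

@[simp] theorem S34RELA_ev_Y (c : A →+* L) (x y : L) : S34RELA_ev c x y Y = y := by
  simp [S34RELA_ev]

@[simp] theorem S34RELA_ev_C (c : A →+* L) (x y : L) (p : A[X]) :
    S34RELA_ev c x y (C p) = p.eval₂ c x := by
  simp [S34RELA_ev]

@[simp] theorem S34RELA_ev_CX (c : A →+* L) (x y : L) : S34RELA_ev c x y (C X) = x := by
  simp [S34RELA_ev]

@[simp] theorem S34RELA_ev_CC (c : A →+* L) (x y : L) (a : A) :
    S34RELA_ev c x y (C (C a)) = c a := by
  simp [S34RELA_ev]

/-- two ring homomorphisms on `A[X][Y]` which agree on the constants, on `X` and on `Y` are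
equal. -/
theorem S34RELA_hom_ext {S : Type*} [Semiring S] {f g : A[X][Y] →+* S}
    (hC : ∀ a : A, f (C (C a)) = g (C (C a))) (hX : f (C X) = g (C X)) (hY : f Y = g Y) :
    f = g := by
  refine Polynomial.ringHom_ext' ?_ hY
  refine Polynomial.ringHom_ext' ?_ hX
  ext a
  exact hC a

/-- evaluating `swap P` at `(x, y)` is evaluating `P` at `(y, x)`. -/
theorem S34RELA_ev_swap (c : A →+* L) (x y : L) (P : A[X][Y]) :
    S34RELA_ev c x y (Bivariate.swap P) = S34RELA_ev c y x P := by
  have h : (S34RELA_ev c x y).comp (Bivariate.swap (R := A)).toAlgHom.toRingHom =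
      S34RELA_ev c y x := by
    refine S34RELA_hom_ext ?_ ?_ ?_
    · intro a
      simp [Bivariate.swap_C_C]
    · simp [Bivariate.swap_X]
    · simp [Bivariate.swap_Y]
  exact congrArg (fun f => f P) h

/-- a ring homomorphism fixing the constants commutes with the evaluation. -/
theorem S34RELA_ev_map {L' : Type*} [CommRing L'] (c : A →+* L) (c' : A →+* L') (w : L →+* L')
    (hw : ∀ a, w (c a) = c' a) (x y : L) (P : A[X][Y]) :
    w (S34RELA_ev c x y P) = S34RELA_ev c' (w x) (w y) P := by
  have h : w.comp (S34RELA_ev c x y) = S34RELA_ev c' (w x) (w y) := by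
    refine S34RELA_hom_ext ?_ ?_ ?_
    · intro a
      simp [hw]
    · simp
    · simp
  exact congrArg (fun f => f P) h

/-- the diagonal evaluation `P ↦ P(X, X)` is symmetric. -/
theorem S34RELA_eval_X_swap (P : A[X][Y]) :
    (Bivariate.swap P).eval (X : A[X]) = P.eval (X : A[X]) := by
  have h : (evalRingHom (X : A[X])).comp (Bivariate.swap (R := A)).toAlgHom.toRingHom =
      evalRingHom (X : A[X]) := by
    refine S34RELA_hom_ext ?_ ?_ ?_
    · intro a
      simp [Bivariate.swap_C_C]
    · simp [Bivariate.swap_X]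
    · simp [Bivariate.swap_Y]
  exact congrArg (fun f => f P) h

/-- the coefficients of `swap P`. -/
theorem S34RELA_coeff_swap (P : A[X][Y]) (i k : ℕ) :
    ((Bivariate.swap P).coeff i).coeff k = (P.coeff k).coeff i := by
  induction P using Polynomial.induction_on' with
  | add p q hp hq => simp [hp, hq]
  | monomial n a =>
    induction a using Polynomial.induction_on' with
    | add p q hp hq => simp only [map_add, coeff_add, hp, hq]
    | monomial m r =>
      rw [Bivariate.swap_monomial_monomial]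
      simp only [coeff_monomial]
      by_cases h1 : m = i <;> by_cases h2 : n = k <;>
        simp [h1, h2, coeff_monomial]

/-- integrality over a subring contained in the image of `φ` gives a monic relation with
coefficients in the source of `φ` (shape of the hypothesis `hint` of `S34RELA_exists`). -/
theorem S34RELA_hint (φ : A[X] →+* L) (R' : Subring L) (hR : ∀ r ∈ R', ∃ p, φ p = r) (θ : L)
    (h : IsIntegral R' θ) : ∃ G : A[X][Y], G.Monic ∧ G.eval₂ φ θ = 0 := by
  obtain ⟨G0, hG0, hG0θ⟩ := h
  -- lift `G0` along the surjection `A[X] → φ.range`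
  have hle : R' ≤ φ.range := fun r hr => by
    obtain ⟨p, hp⟩ := hR r hr
    exact ⟨p, hp⟩
  set G1 : (φ.range)[X] := G0.map (Subring.inclusion hle) with hG1
  have hG1m : G1.Monic := hG0.map _
  have hG1θ : G1.eval₂ (φ.range.subtype) θ = 0 := by
    rw [hG1, eval₂_map]
    exact hG0θ
  have hsurj : Function.Surjective φ.rangeRestrict := φ.rangeRestrict_surjective
  have hlift : G1 ∈ Polynomial.lifts φ.rangeRestrict := by
    rw [Polynomial.lifts_iff_coeff_lifts]
    intro n
    exact hsurj _
  obtain ⟨G, hGmap, -, hGm⟩ := Polynomial.lifts_and_natDegree_eq_and_monic hlift hG1m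
  refine ⟨G, hGm, ?_⟩
  have : G.eval₂ φ θ = (G.map φ.rangeRestrict).eval₂ (φ.range.subtype) θ := by
    rw [eval₂_map]
    rfl
  rw [this, hGmap]
  exact hG1θ

end Eval

section Main

variable {A L : Type*} [CommRing A] [IsDomain A] [Field L]

/-- **the minimal relation**: the minimal polynomial of `θ` over `A[j]`. -/
theorem S34RELA_exists [IsIntegrallyClosed A[X]] (c : A →+* L) (j θ : L)
    (hj : Function.Injective (eval₂RingHom c j))
    (hint : ∃ G : A[X][Y], G.Monic ∧ S34RELA_ev c j θ G = 0) :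
    ∃ M : A[X][Y], M.Monic ∧ S34RELA_ev c j θ M = 0 ∧
      ∀ P : A[X][Y], S34RELA_ev c j θ P = 0 → M ∣ P := by
  letI : Algebra A[X] L := (eval₂RingHom c j).toAlgebra
  have halg : algebraMap A[X] L = eval₂RingHom c j := rfl
  have hθ : IsIntegral A[X] θ := by
    obtain ⟨G, hG, hGθ⟩ := hint
    exact ⟨G, hG, hGθ⟩
  haveI : Module.IsTorsionFree A[X] L :=
    Module.isTorsionFree_iff_algebraMap_injective.2 hj
  refine ⟨minpoly A[X] θ, minpoly.monic hθ, ?_, fun P hP => ?_⟩
  · have := minpoly.aeval A[X] θ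
    rwa [aeval_def, halg] at this
  · refine minpoly.isIntegrallyClosed_dvd hθ ?_
    rw [aeval_def, halg]
    exact hP

/-- **symmetry of the minimal relation**. -/
theorem S34RELA_symm [CharZero A] (c : A →+* L) (j θ : L) (hne : θ ≠ j)
    (M : A[X][Y]) (hM : M.Monic) (hMθ : S34RELA_ev c j θ M = 0)
    (hdvd : ∀ P : A[X][Y], S34RELA_ev c j θ P = 0 → M ∣ P)
    (hsw : ∀ P : A[X][Y], S34RELA_ev c j θ P = 0 → S34RELA_ev c θ j P = 0) :
    Bivariate.swap M = M := by
  have hM0 : M ≠ 0 := hM.ne_zero
  have hsM : S34RELA_ev c j θ (Bivariate.swap M) = 0 := by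
    rw [S34RELA_ev_swap]
    exact hsw M hMθ
  obtain ⟨G, hG⟩ := hdvd _ hsM
  have hsM0 : Bivariate.swap M ≠ 0 := by
    intro h
    apply hM0
    have := congrArg Bivariate.swap h
    rwa [Bivariate.swap_swap_apply, map_zero] at this
  have hG0 : G ≠ 0 := by
    rintro rfl
    rw [mul_zero] at hG
    exact hsM0 hG
  have hsG0 : Bivariate.swap G ≠ 0 := by
    intro h
    apply hG0
    have := congrArg Bivariate.swap h
    rwa [Bivariate.swap_swap_apply, map_zero] at this
  have h1 : (Bivariate.swap M).natDegree = M.natDegree + G.natDegree := by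
    rw [hG, natDegree_mul hM0 hG0]
  have hM' : M = Bivariate.swap M * Bivariate.swap G := by
    have := congrArg Bivariate.swap hG
    rwa [Bivariate.swap_swap_apply, map_mul] at this
  have h2 : M.natDegree = (Bivariate.swap M).natDegree + (Bivariate.swap G).natDegree := by
    conv_lhs => rw [hM']
    exact natDegree_mul hsM0 hsG0
  have hGd : G.natDegree = 0 := by omega
  have hsGd : (Bivariate.swap G).natDegree = 0 := by omega
  obtain ⟨g, rfl⟩ : ∃ g, G = C g := ⟨G.coeff 0, eq_C_of_natDegree_eq_zero hGd⟩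
  rw [Bivariate.swap_C, natDegree_map_eq_of_injective C_injective] at hsGd
  obtain ⟨a, rfl⟩ : ∃ a, g = C a := ⟨g.coeff 0, eq_C_of_natDegree_eq_zero hsGd⟩
  -- `swap M = M * C (C a)` and `a * a = 1`
  have h3 : M * 1 = M * (C (C a) * C (C a)) := by
    have := congrArg Bivariate.swap hG
    rw [Bivariate.swap_swap_apply, map_mul, Bivariate.swap_C_C, hG] at this
    rw [mul_one, ← mul_assoc]
    exact this
  have h4 : (1 : A[X][Y]) = C (C a) * C (C a) := mul_left_cancel₀ hM0 h3
  have haa : a * a = 1 := by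
    have h5 : (C (C (a * a)) : A[X][Y]) = C (C 1) := by
      rw [C_mul, C_mul, ← h4, C_1, C_1]
    exact C_injective (C_injective h5)
  rcases mul_self_eq_one_iff.1 haa with rfl | rfl
  · rw [hG, C_1, C_1, mul_one]
  · exfalso
    have hneg : Bivariate.swap M = -M := by
      rw [hG, map_neg, map_neg, C_1, C_1]
      ring
    have hMX : M.eval (X : A[X]) = 0 := by
      have h6 := S34RELA_eval_X_swap M
      rw [hneg, eval_neg] at h6
      have h7 : (2 : A[X]) * M.eval (X : A[X]) = 0 := by linear_combination -h6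
      exact (mul_eq_zero.1 h7).resolve_left two_ne_zero
    obtain ⟨H, hH⟩ := dvd_iff_isRoot.2 hMX
    have hH0 : H ≠ 0 := by
      rintro rfl
      rw [mul_zero] at hH
      exact hM0 hH
    have hev : (θ - j) * S34RELA_ev c j θ H = 0 := by
      have := congrArg (S34RELA_ev c j θ) hH
      rw [hMθ, map_mul, map_sub, S34RELA_ev_Y, S34RELA_ev_CX] at this
      exact this.symm
    have hHθ : S34RELA_ev c j θ H = 0 :=
      (mul_eq_zero.1 hev).resolve_left (sub_ne_zero.2 hne)
    have hdH := natDegree_le_of_dvd (hdvd H hHθ) hH0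
    have hdM : M.natDegree = 1 + H.natDegree := by
      conv_lhs => rw [hH]
      rw [natDegree_mul (X_sub_C_ne_zero _) hH0, natDegree_X_sub_C]
    omega

/-- **degree bounds** for a symmetric monic polynomial. -/
theorem S34RELA_bounds (M : A[X][Y]) (hM : M.Monic) (hsymm : Bivariate.swap M = M) :
    (M.coeff 0).Monic ∧ (M.coeff 0).natDegree = M.natDegree ∧
      (∀ i, (M.coeff i).natDegree ≤ M.natDegree) ∧
      ∀ i, 1 ≤ i → (M.coeff i).natDegree ≤ M.natDegree - 1 := by
  have hsym : ∀ i k, (M.coeff i).coeff k = (M.coeff k).coeff i := by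
    intro i k
    conv_lhs => rw [← hsymm]
    exact S34RELA_coeff_swap M i k
  have hlead : M.coeff M.natDegree = 1 := hM.coeff_natDegree
  have hle : ∀ i, (M.coeff i).natDegree ≤ M.natDegree := by
    intro i
    rw [natDegree_le_iff_coeff_eq_zero]
    intro k hk
    rw [hsym, coeff_eq_zero_of_natDegree_lt hk, coeff_zero]
  have htop : ∀ i, (M.coeff i).coeff M.natDegree = if i = 0 then 1 else 0 := by
    intro i
    rw [hsym, hlead, coeff_one]
  have h0 : (M.coeff 0).natDegree = M.natDegree := by
    refine le_antisymm (hle 0) ?_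
    refine le_natDegree_of_ne_zero ?_
    rw [htop 0, if_pos rfl]
    exact one_ne_zero
  refine ⟨?_, h0, hle, ?_⟩
  · rw [Monic, leadingCoeff, h0, htop 0]
    simp
  · intro i hi
    by_cases hn : M.natDegree = 0
    · rw [hn]
      have := hle i
      omega
    rw [natDegree_le_iff_coeff_eq_zero]
    intro k hk
    rcases Nat.lt_or_ge M.natDegree k with h | h
    · exact coeff_eq_zero_of_natDegree_lt (lt_of_le_of_lt (hle i) h)
    · have hk' : k = M.natDegree := by omega
      rw [hk', htop i, if_neg (by omega)]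

end Main

/-! ### The upper bound: clearing denominators -/

section Upper

variable {A L K : Type*} [CommRing A] [IsDomain A] [Field L] [Field K] [Algebra A K]
  [IsFractionRing A K]

/-- clearing the denominators of a two-variable polynomial. -/
theorem S34RELA_clear (Q : K[X][Y]) :
    ∃ d : A, d ≠ 0 ∧ ∃ Q' : A[X][Y],
      Q'.map (mapRingHom (algebraMap A K)) = C (C (algebraMap A K d)) * Q := by
  induction Q using Polynomial.induction_on' with
  | add p r hp hr =>
    obtain ⟨d1, hd1, P1, hP1⟩ := hp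
    obtain ⟨d2, hd2, P2, hP2⟩ := hr
    refine ⟨d1 * d2, mul_ne_zero hd1 hd2, C (C d2) * P1 + C (C d1) * P2, ?_⟩
    rw [Polynomial.map_add, Polynomial.map_mul, Polynomial.map_mul, hP1, hP2, map_C, map_C,
      coe_mapRingHom, map_C, map_C, map_mul, C_mul, C_mul]
    ring
  | monomial n p =>
    obtain ⟨b, hb, hbp⟩ := IsLocalization.integerNormalization_spec (nonZeroDivisors A) p
    refine ⟨b, nonZeroDivisors.ne_zero hb,
      monomial n (IsLocalization.integerNormalization (nonZeroDivisors A) p), ?_⟩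
    rw [map_monomial, coe_mapRingHom, hbp, C_mul_monomial, Algebra.smul_def,
      Polynomial.algebraMap_apply]

omit [IsDomain A] [IsFractionRing A K] in
/-- the evaluation of a polynomial with coefficients in `A` computed over `K`. -/
theorem S34RELA_ev_map_base (c : A →+* L) (cK : K →+* L)
    (hc : ∀ a, cK (algebraMap A K a) = c a) (x y : L) (P : A[X][Y]) :
    S34RELA_ev cK x y (P.map (mapRingHom (algebraMap A K))) = S34RELA_ev c x y P := by
  have h : (S34RELA_ev cK x y).comp (mapRingHom (mapRingHom (algebraMap A K))) =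
      S34RELA_ev c x y := by
    refine S34RELA_hom_ext ?_ ?_ ?_
    · intro a
      simp [hc]
    · simp
    · simp
  exact congrArg (fun f => f P) h

/-- **upper bound**: the minimal relation has degree at most the degree of any nonzero relation
with coefficients in the fraction field. -/
theorem S34RELA_upper (c : A →+* L) (cK : K →+* L) (hc : ∀ a, cK (algebraMap A K a) = c a)
    (j θ : L) (M : A[X][Y])
    (hdvd : ∀ P : A[X][Y], S34RELA_ev c j θ P = 0 → M ∣ P)
    (Q : K[X][Y]) (hQ0 : Q ≠ 0) (hQ : S34RELA_ev cK j θ Q = 0) :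
    M.natDegree ≤ Q.natDegree := by
  obtain ⟨d, hd, Q', hQ'⟩ := S34RELA_clear (A := A) Q
  have hinj : Function.Injective (mapRingHom (algebraMap A K)) :=
    Polynomial.map_injective _ (IsFractionRing.injective A K)
  have hd' : (C (C (algebraMap A K d)) : K[X][Y]) ≠ 0 := by
    rw [Ne, C_eq_zero, C_eq_zero]
    exact fun h => hd ((IsFractionRing.injective A K) (by rw [h, map_zero]))
  have hQ'0 : Q' ≠ 0 := by
    rintro rfl
    rw [Polynomial.map_zero] at hQ'
    exact mul_ne_zero hd' hQ0 hQ'.symm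
  have hev : S34RELA_ev c j θ Q' = 0 := by
    rw [← S34RELA_ev_map_base c cK hc, hQ', map_mul, hQ, mul_zero]
  have h1 := natDegree_le_of_dvd (hdvd Q' hev) hQ'0
  have h2 : Q'.natDegree = Q.natDegree := by
    rw [← natDegree_map_eq_of_injective hinj Q', hQ', natDegree_mul hd' hQ0, natDegree_C,
      zero_add]
  omega

end Upper

/-! ### The lower bound: counting orders -/

section Lower

variable {A L : Type*} [CommRing A] [Field L]

/-- a polynomial in `j` with constants of nonnegative valuation has valuation `≥ - deg`. -/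
theorem S34RELA_val_poly (c : A →+* L) (j : L) (v : AddValuation L (WithTop ℤ))
    (hvc : ∀ a, 0 ≤ v (c a)) (hvj : v j = ((-1 : ℤ) : WithTop ℤ)) (a : A[X]) :
    ((-(a.natDegree : ℤ) : ℤ) : WithTop ℤ) ≤ v (a.eval₂ c j) := by
  rw [eval₂_eq_sum_range]
  refine AddValuation.map_le_sum v ?_
  intro k hk
  rw [Finset.mem_range] at hk
  rw [AddValuation.map_mul, AddValuation.map_pow, hvj]
  have h1 : ((-(a.natDegree : ℤ) : ℤ) : WithTop ℤ) ≤ ((-(k : ℤ) : ℤ) : WithTop ℤ) := by
    rw [WithTop.coe_le_coe]
    omega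
  have h2 : (k • ((-1 : ℤ) : WithTop ℤ)) = ((-(k : ℤ) : ℤ) : WithTop ℤ) := by
    rw [← WithTop.coe_nsmul]
    congr 1
    simp
  rw [h2]
  calc ((-(a.natDegree : ℤ) : ℤ) : WithTop ℤ) ≤ ((-(k : ℤ) : ℤ) : WithTop ℤ) := h1
    _ = 0 + ((-(k : ℤ) : ℤ) : WithTop ℤ) := (zero_add _).symm
    _ ≤ v (c (a.coeff k)) + ((-(k : ℤ) : ℤ) : WithTop ℤ) := by gcongr; exact hvc _

/-- **lower bound**: a monic relation of degree `n` between `j` (order `-1`) and `θ`
(order `-q`) with `deg a_0 ≤ n`, `deg a_i ≤ n - 1` (`i ≥ 1`) has `n ≥ q + 1`. -/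
theorem S34RELA_lower (c : A →+* L) (j θ : L) (v : AddValuation L (WithTop ℤ))
    (hvc : ∀ a, 0 ≤ v (c a)) (hvj : v j = ((-1 : ℤ) : WithTop ℤ)) (q : ℕ) (hq : 2 ≤ q)
    (hvθ : v θ = ((-(q : ℤ) : ℤ) : WithTop ℤ))
    (M : A[X][Y]) (hM : M.Monic) (hMθ : S34RELA_ev c j θ M = 0)
    (hb0 : (M.coeff 0).natDegree ≤ M.natDegree)
    (hb : ∀ i, 1 ≤ i → (M.coeff i).natDegree ≤ M.natDegree - 1) :
    q + 1 ≤ M.natDegree := by
  by_contra hcon
  rw [not_le] at hcon
  set n := M.natDegree with hn
  have hn1 : 1 ≤ n := by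
    by_contra h0
    have hn0 : M.natDegree = 0 := by omega
    have hM1 : M = 1 := by
      have := eq_C_of_natDegree_eq_zero hn0
      rw [this, ← hn0, hM.coeff_natDegree, C_1]
    rw [hM1, map_one] at hMθ
    exact one_ne_zero hMθ
  -- the expansion
  have hexp : S34RELA_ev c j θ M =
      θ ^ n + ∑ i ∈ Finset.range n, (M.coeff i).eval₂ c j * θ ^ i := by
    rw [S34RELA_ev_apply, eval₂_eq_sum_range, Finset.sum_range_succ, ← hn,
      hM.coeff_natDegree, add_comm]
    simp
  have hpow : ∀ i : ℕ, v (θ ^ i) = ((-((q * i : ℕ) : ℤ) : ℤ) : WithTop ℤ) := by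
    intro i
    rw [AddValuation.map_pow, hvθ, ← WithTop.coe_nsmul]
    congr 1
    simp
    ring
  have hlt : ∀ i ∈ Finset.range n,
      ((-((q * n : ℕ) : ℤ) : ℤ) : WithTop ℤ) < v ((M.coeff i).eval₂ c j * θ ^ i) := by
    intro i hi
    rw [Finset.mem_range] at hi
    rw [AddValuation.map_mul, hpow]
    have h1 := S34RELA_val_poly c j v hvc hvj (M.coeff i)
    have h2 : ((-((q * n : ℕ) : ℤ) : ℤ) : WithTop ℤ) <
        ((-((M.coeff i).natDegree : ℤ) : ℤ) : WithTop ℤ) +
          ((-((q * i : ℕ) : ℤ) : ℤ) : WithTop ℤ) := by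
      rw [← WithTop.coe_add, WithTop.coe_lt_coe]
      have hdeg : (M.coeff i).natDegree + q * i < q * n := by
        rcases Nat.eq_zero_or_pos i with h0 | hpos
        · subst h0
          have : n < q * n := by nlinarith
          omega
        · have h3 := hb i hpos
          have h4 : q * (i + 1) ≤ q * n := Nat.mul_le_mul_left q hi
          have h5 : q * (i + 1) = q * i + q := by ring
          omega
      push_cast
      have : ((M.coeff i).natDegree : ℤ) + (q : ℤ) * (i : ℤ) < (q : ℤ) * (n : ℤ) := by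
        exact_mod_cast hdeg
      linarith
    exact lt_of_lt_of_le h2 (by gcongr)
  have hsum : ((-((q * n : ℕ) : ℤ) : ℤ) : WithTop ℤ) <
      v (∑ i ∈ Finset.range n, (M.coeff i).eval₂ c j * θ ^ i) :=
    AddValuation.map_lt_sum v WithTop.coe_ne_top hlt
  have hne : v (θ ^ n) ≠ v (∑ i ∈ Finset.range n, (M.coeff i).eval₂ c j * θ ^ i) := by
    rw [hpow]
    exact ne_of_lt hsum
  have hval := AddValuation.map_add_of_distinct_val v hne
  have hmin : min (v (θ ^ n)) (v (∑ i ∈ Finset.range n, (M.coeff i).eval₂ c j * θ ^ i)) =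
      v (θ ^ n) := by
    refine min_eq_left (le_of_lt ?_)
    rw [hpow]
    exact hsum
  rw [← hexp, hMθ, AddValuation.map_zero, hmin, hpow] at hval
  exact WithTop.coe_ne_top hval.symm

end Lower

/-! ### The relation -/

section Final

variable {A L K : Type*} [CommRing A] [IsDomain A] [CharZero A] [IsIntegrallyClosed A[X]]
  [Field L] [Field K] [Algebra A K] [IsFractionRing A K]

/-- **X-REL, abstract form**: the modular relation with degree bounds, in both orders, from
integrality, the involution, one relation of degree `≤ q + 1` and the orders at the cusp. -/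
theorem S34RELA_main (c : A →+* L) (cK : K →+* L) (hc : ∀ a, cK (algebraMap A K a) = c a)
    (j θ : L) (hj : Function.Injective (eval₂RingHom c j)) (hne : θ ≠ j)
    (hint : ∃ G : A[X][Y], G.Monic ∧ S34RELA_ev c j θ G = 0)
    (hsw : ∀ P : A[X][Y], S34RELA_ev c j θ P = 0 → S34RELA_ev c θ j P = 0)
    (q : ℕ) (hq : 2 ≤ q)
    (Q : K[X][Y]) (hQ0 : Q ≠ 0) (hQd : Q.natDegree ≤ q + 1) (hQ : S34RELA_ev cK j θ Q = 0)
    (v : AddValuation L (WithTop ℤ)) (hvc : ∀ a, 0 ≤ v (c a))
    (hvj : v j = ((-1 : ℤ) : WithTop ℤ)) (hvθ : v θ = ((-(q : ℤ) : ℤ) : WithTop ℤ)) :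
    ∃ a : ℕ → A[X], (∀ i, 1 ≤ i → i ≤ q → (a i).natDegree ≤ q) ∧ (a 0).Monic ∧
      (a 0).natDegree = q + 1 ∧
      θ ^ (q + 1) + ∑ i ∈ Finset.range (q + 1), (a i).eval₂ c j * θ ^ i = 0 ∧
      j ^ (q + 1) + ∑ i ∈ Finset.range (q + 1), (a i).eval₂ c θ * j ^ i = 0 := by
  obtain ⟨M, hM, hMθ, hdvd⟩ := S34RELA_exists c j θ hj hint
  have hsymm := S34RELA_symm c j θ hne M hM hMθ hdvd hsw
  obtain ⟨h0m, h0d, hle, hb⟩ := S34RELA_bounds M hM hsymm
  have hup : M.natDegree ≤ q + 1 :=
    (S34RELA_upper c cK hc j θ M hdvd Q hQ0 hQ).trans hQd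
  have hlo : q + 1 ≤ M.natDegree :=
    S34RELA_lower c j θ v hvc hvj q hq hvθ M hM hMθ (hle 0) hb
  have hn : M.natDegree = q + 1 := le_antisymm hup hlo
  have hexp : ∀ x y : L, S34RELA_ev c x y M =
      y ^ (q + 1) + ∑ i ∈ Finset.range (q + 1), (M.coeff i).eval₂ c x * y ^ i := by
    intro x y
    rw [S34RELA_ev_apply, eval₂_eq_sum_range, Finset.sum_range_succ, hn, ← hn,
      hM.coeff_natDegree, add_comm]
    simp
  refine ⟨fun i => M.coeff i, ?_, h0m, by rw [h0d, hn], ?_, ?_⟩
  · intro i hi _
    have := hb i hi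
    rw [hn] at this
    simpa using this
  · rw [← hexp]
    exact hMθ
  · rw [← hexp]
    exact hsw M hMθ

end Final

end Fermat.Agent.S34_helper25_RELA
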