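import Mathlib
import Fermat.Agent.S34_helper25_RELA
import Fermat.Agent.S34_helper18_CUSP
import Fermat.Agent.S34_helper20_V0K
import Fermat.Agent.S18_helper26_DEGK1
import Fermat.Agent.S20_helper29_A1

/-!
# S34, piece X-REL, concrete plug (helper25): the modular relation from `hjq`

For `A` a valuation ring of `ℚ̄`, `K1` a level with `O1 = A ∩ K1` a discrete valuation ring and
`q` a prime: if `θ = j(q^q)` is integral over `O[j]` (`hjq`), then `j` and `θ` satisfy the
modular relation `S34CUSP_Rel` (helper18) in both orders, with the same coefficients.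

Inputs: the abstract core `S34RELA_main`, the Atkin–Lehner involution of helper20
(`S34V0_w` at level `q = q * 1`), the degree bound `S18DEG_stepA` and the orders of `j`, `θ` at
the cusp `∞`.
-/

set_option autoImplicit false
set_option linter.unusedSectionVars false
set_option linter.style.haveILetI false

noncomputable section

open Polynomial ModularCurve Fermat.Agent.S20 Fermat.Agent.S24
open Fermat.Agent.S18_helper9_CDefs Fermat.Agent.S18_helper25_COREDefs
open Fermat.Agent.S34_helper20_V0 Fermat.Agent.S34_helper20_V0K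
open Fermat.Agent.S34_helper18_CUSP Fermat.Agent.S34_helper25_RELA
open Fermat.Agent.S18_helper26_DEGK1 Fermat.Agent.S18_helper26_CONST
open Fermat.Agent.S24_helper28_DEGleAlg

namespace Fermat.Agent.S34_helper25_RELK

local notation "Qb" => AlgebraicClosure ℚ

/-! ### generic facts on Laurent series -/

section Generic

variable (K : Type*) [Field K]

theorem S34RELK_mu_prime (q : ℕ) [NeZero q] (hq : q.Prime) : mu q = q + 1 := by
  rw [Fermat.Agent.S20_helper29_A1.A1 q]
  have h := Fermat.Agent.S20_helper29_A1.psi_mul_of_not_dvd q 1 hq one_ne_zero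
    (fun h => hq.one_lt.ne' (Nat.dvd_one.1 h))
  rw [mul_one] at h
  rw [h]
  have h1 : ModularCurve.dedekindPsi 1 = 1 := by
    unfold ModularCurve.dedekindPsi
    simp [Finset.filter_singleton]
  rw [h1, one_mul]

theorem S34RELK_orderTop_j : (jqModC K).orderTop = ((-1 : ℤ) : WithTop ℤ) := by
  refine HahnSeries.orderTop_eq_of_le ?_ ?_
  · rw [HahnSeries.mem_support, coeff_jqModC_neg_one]
    exact one_ne_zero
  · intro m hm
    by_contra h
    push Not at h
    exact (HahnSeries.mem_support _ _).1 hm (coeff_jqModC_of_lt K h)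

theorem S34RELK_orderTop_qExpand (q : ℕ) [NeZero q] (f : LaurentSeries K) (n : ℤ)
    (hf : f.orderTop = (n : WithTop ℤ)) :
    (qExpand K q f).orderTop = (((q : ℤ) * n : ℤ) : WithTop ℤ) := by
  have h : (qExpand K q f).orderTop =
      WithTop.map (fun k : ℤ => (q : ℤ) * k) f.orderTop := by
    show (HahnSeries.embDomain _ f).orderTop = _
    rw [HahnSeries.orderTop_embDomain]
    rfl
  rw [h, hf, WithTop.map_coe]

theorem S34RELK_orderTop_C (a : K) : 0 ≤ (HahnSeries.C a : LaurentSeries K).orderTop := by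
  rw [HahnSeries.zero_le_orderTop_iff, HahnSeries.order_C]

end Generic

/-! ### the concrete plug -/

section Concrete

variable (A : ValuationSubring Qb) (K1 : IntermediateField ℚ Qb)

/-- the constants `O1 → K1((q))`. -/
def S34RELK_c : ↥(S18K_O1 A K1) →+* LaurentSeries K1 :=
  (HahnSeries.C : K1 →+* LaurentSeries K1).comp (S18K_O1 A K1).subtype

theorem S34RELK_c_apply (a : ↥(S18K_O1 A K1)) :
    S34RELK_c A K1 a = HahnSeries.C (a : K1) := rfl

theorem S34RELK_c_mem (a : ↥(S18K_O1 A K1)) : S34RELK_c A K1 a ∈ S18K_O A K1 :=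
  (S18K_mem_O A K1 _).2 ⟨(a : K1), a.2, rfl⟩

/-- the constants `O1 → O`. -/
def S34RELK_cO : ↥(S18K_O1 A K1) →+* ↥(S18K_O A K1) :=
  (S34RELK_c A K1).codRestrict (S18K_O A K1) (S34RELK_c_mem A K1)

theorem S34RELK_cO_injective : Function.Injective (S34RELK_cO A K1) := by
  intro a b h
  have h1 : HahnSeries.C (a : K1) = (HahnSeries.C (b : K1) : LaurentSeries K1) :=
    congrArg Subtype.val h
  exact Subtype.ext (HahnSeries.C_injective h1)

theorem S34RELK_algebraMap_cO :
    (algebraMap ↥(S18K_O A K1) (LaurentSeries K1)).comp (S34RELK_cO A K1) = S34RELK_c A K1 :=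
  rfl

/-- `j` is transcendental over the constants. -/
theorem S34RELK_hj :
    Function.Injective (eval₂RingHom (S34RELK_c A K1) (jqModC K1)) := by
  rw [injective_iff_map_eq_zero]
  intro p hp
  have htr : Transcendental K1 (jqModC K1) :=
    Fermat.Agent.S18_helper13_FIN.S18FIN_transcendental K1
  rw [transcendental_iff] at htr
  have h1 : aeval (jqModC K1) (p.map (S18K_O1 A K1).subtype) = 0 := by
    rw [aeval_def, eval₂_map, ← S18P15_C_eq_algebraMap]
    exact hp
  have h2 := htr _ h1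
  exact Polynomial.map_injective _ Subtype.val_injective (by rw [h2, Polynomial.map_zero])

/-- every element of `O[j]` is a polynomial in `j` with coefficients in `O1`. -/
theorem S34RELK_adj (r : LaurentSeries K1) (hr : r ∈ adj (S18K_O A K1) (jqModC K1)) :
    ∃ p : (↥(S18K_O1 A K1))[X], eval₂RingHom (S34RELK_c A K1) (jqModC K1) p = r := by
  induction hr using Subring.closure_induction with
  | mem x hx =>
    rcases hx with hx | hx
    · obtain ⟨c, hc, rfl⟩ := (S18K_mem_O A K1 x).1 hx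
      exact ⟨C ⟨c, hc⟩, by simp [S34RELK_c]⟩
    · rw [Set.mem_singleton_iff] at hx
      exact ⟨X, by simp [hx]⟩
  | zero => exact ⟨0, map_zero _⟩
  | one => exact ⟨1, map_one _⟩
  | add x y _ _ hx hy =>
    obtain ⟨p, rfl⟩ := hx
    obtain ⟨p', rfl⟩ := hy
    exact ⟨p + p', map_add _ _ _⟩
  | neg x _ hx =>
    obtain ⟨p, rfl⟩ := hx
    exact ⟨-p, map_neg _ _⟩
  | mul x y _ _ hx hy =>
    obtain ⟨p, rfl⟩ := hx
    obtain ⟨p', rfl⟩ := hy
    exact ⟨p * p', map_mul _ _ _⟩

variable (q : ℕ) [NeZero q] (hq : q.Prime)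

include hq in
theorem S34RELK_hne : qExpand K1 q (jqModC K1) ≠ jqModC K1 := by
  intro h
  have h1 := S34RELK_orderTop_qExpand K1 q (jqModC K1) (-1) (S34RELK_orderTop_j K1)
  rw [h, S34RELK_orderTop_j, WithTop.coe_eq_coe] at h1
  have := hq.two_le
  have h2 : (2 : ℤ) ≤ q := by exact_mod_cast this
  omega

include hq in
/-- the involution exchanges the relations. -/
theorem S34RELK_hsw (P : (↥(S18K_O1 A K1))[X][X])
    (hP : S34RELA_ev (S34RELK_c A K1) (jqModC K1) (qExpand K1 q (jqModC K1)) P = 0) :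
    S34RELA_ev (S34RELK_c A K1) (qExpand K1 q (jqModC K1)) (jqModC K1) P = 0 := by
  haveI : NeZero (1 : ℕ) := ⟨one_ne_zero⟩
  have hqN : ¬ q ∣ 1 := fun h => hq.one_lt.ne' (Nat.dvd_one.1 h)
  have hN : q = q * 1 := (mul_one q).symm
  set w := S34V0_w (S34V0K_emb K1) q 1 q hq hqN hN with hw
  have hjm : jqModC K1 ∈ modularFunctionFieldFullC K1 q := jqModC_mem_full K1 q
  have hθm : qExpand K1 q (jqModC K1) ∈ modularFunctionFieldFullC K1 q :=
    S34V0K_jq_mem_F K1 q 1 q hq hqN hN
  set jF : ↥(modularFunctionFieldFullC K1 q) := ⟨jqModC K1, hjm⟩ with hjF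
  set θF : ↥(modularFunctionFieldFullC K1 q) := ⟨qExpand K1 q (jqModC K1), hθm⟩ with hθF
  have hwj : w jF = θF := by
    apply Subtype.ext
    have h1 := S34V0_wL_j (S34V0K_emb K1) q 1 q hq hqN hN
    rw [S34V0_wL_of_mem (S34V0K_emb K1) q 1 q hq hqN hN hjm] at h1
    exact h1
  have hwθ : w θF = jF := by
    apply Subtype.ext
    have h1 := S34V0_wL_jq (S34V0K_emb K1) q 1 q hq hqN hN
    rw [S34V0_wL_of_mem (S34V0K_emb K1) q 1 q hq hqN hN hθm] at h1
    exact h1
  -- the constants in `F`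
  set cF : ↥(S18K_O1 A K1) →+* ↥(modularFunctionFieldFullC K1 q) :=
    (algebraMap K1 ↥(modularFunctionFieldFullC K1 q)).comp (S18K_O1 A K1).subtype with hcF
  set ι : ↥(modularFunctionFieldFullC K1 q) →+* LaurentSeries K1 :=
    algebraMap ↥(modularFunctionFieldFullC K1 q) (LaurentSeries K1) with hι
  have hιc : ∀ a, ι (cF a) = S34RELK_c A K1 a := by
    intro a
    show algebraMap K1 (LaurentSeries K1) (a : K1) = HahnSeries.C (a : K1)
    rw [← S18P15_C_eq_algebraMap]
  have hιinj : Function.Injective ι := Subtype.val_injective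
  have h1 : ι (S34RELA_ev cF jF θF P) =
      S34RELA_ev (S34RELK_c A K1) (jqModC K1) (qExpand K1 q (jqModC K1)) P :=
    S34RELA_ev_map cF (S34RELK_c A K1) ι hιc jF θF P
  have h2 : S34RELA_ev cF jF θF P = 0 := by
    apply hιinj
    rw [h1, hP, map_zero]
  have h3 : (w : ↥(modularFunctionFieldFullC K1 q) →+* ↥(modularFunctionFieldFullC K1 q))
      (S34RELA_ev cF jF θF P) = S34RELA_ev cF (w jF) (w θF) P :=
    S34RELA_ev_map cF cF (w : ↥(modularFunctionFieldFullC K1 q) →+*
      ↥(modularFunctionFieldFullC K1 q)) (fun a => w.commutes _) jF θF P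
  rw [h2, map_zero, hwj, hwθ] at h3
  have h4 : ι (S34RELA_ev cF θF jF P) =
      S34RELA_ev (S34RELK_c A K1) (qExpand K1 q (jqModC K1)) (jqModC K1) P :=
    S34RELA_ev_map cF (S34RELK_c A K1) ι hιc θF jF P
  rw [← h4, ← h3, map_zero]

variable [IsDiscreteValuationRing (S18K_O1 A K1)]

include hq in
/-- **X-REL**: the modular relation in "sum form", in both orders, with the same coefficients,
from `hjq`. -/
theorem S34RELK_relSum
    (hjq : IsIntegral ↥(adj (S18K_O A K1) (S18K_j K1)) (qExpand K1 q (jqModC K1))) :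
    ∃ a : ℕ → (↥(S18K_O A K1))[X], (∀ i, 1 ≤ i → i ≤ q → (a i).natDegree ≤ q) ∧ (a 0).Monic ∧
      (a 0).natDegree = q + 1 ∧
      qExpand K1 q (jqModC K1) ^ (q + 1) +
        ∑ i ∈ Finset.range (q + 1), aeval (jqModC K1) (a i) * qExpand K1 q (jqModC K1) ^ i
          = 0 ∧
      jqModC K1 ^ (q + 1) +
        ∑ i ∈ Finset.range (q + 1), aeval (qExpand K1 q (jqModC K1)) (a i) * jqModC K1 ^ i
          = 0 := by
  haveI : CharZero ↥(S18K_O1 A K1) := ⟨fun m n h => by
    have := congrArg (fun x : ↥(S18K_O1 A K1) => (x : K1)) h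
    simpa using this⟩
  have hqN : ¬ q ∣ 1 := fun h => hq.one_lt.ne' (Nat.dvd_one.1 h)
  have hN : q = q * 1 := (mul_one q).symm
  haveI : NeZero (1 : ℕ) := ⟨one_ne_zero⟩
  have hθm : qExpand K1 q (jqModC K1) ∈ modularFunctionFieldFullC K1 q :=
    S34V0K_jq_mem_F K1 q 1 q hq hqN hN
  -- the relation of degree `≤ q + 1`
  obtain ⟨Q, hQ0, hQd, hQ⟩ := S18DEG_stepA (S34V0K_emb K1) q
    (⟨qExpand K1 q (jqModC K1), hθm⟩ : ↥(modularFunctionFieldFullC K1 q))
  rw [S34RELK_mu_prime q hq] at hQd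
  -- integrality
  have hint : ∃ G : (↥(S18K_O1 A K1))[X][X], G.Monic ∧
      S34RELA_ev (S34RELK_c A K1) (jqModC K1) (qExpand K1 q (jqModC K1)) G = 0 :=
    S34RELA_hint (eval₂RingHom (S34RELK_c A K1) (jqModC K1)) _
      (fun r hr => S34RELK_adj A K1 r hr) _ hjq
  obtain ⟨a, ha, ha0m, ha0d, hrel, hrel'⟩ := S34RELA_main (K := K1) (S34RELK_c A K1)
    (HahnSeries.C : K1 →+* LaurentSeries K1) (fun _ => rfl) (jqModC K1)
    (qExpand K1 q (jqModC K1)) (S34RELK_hj A K1) (S34RELK_hne K1 q hq) hint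
    (S34RELK_hsw A K1 q hq) q hq.two_le Q hQ0 hQd hQ (HahnSeries.addVal ℤ K1)
    (fun c => by rw [HahnSeries.addVal_apply]; exact S34RELK_orderTop_C K1 _)
    (by rw [HahnSeries.addVal_apply]; exact S34RELK_orderTop_j K1)
    (by
      rw [HahnSeries.addVal_apply,
        S34RELK_orderTop_qExpand K1 q (jqModC K1) (-1) (S34RELK_orderTop_j K1)]
      congr 1
      ring)
  have hev : ∀ (x : LaurentSeries K1) (p : (↥(S18K_O1 A K1))[X]),
      aeval x (p.map (S34RELK_cO A K1)) = p.eval₂ (S34RELK_c A K1) x := by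
    intro x p
    rw [aeval_def, eval₂_map, S34RELK_algebraMap_cO]
  refine ⟨fun i => (a i).map (S34RELK_cO A K1), ?_, ha0m.map _, ?_, ?_, ?_⟩
  · intro i h1 h2
    rw [natDegree_map_eq_of_injective (S34RELK_cO_injective A K1)]
    exact ha i h1 h2
  · rw [natDegree_map_eq_of_injective (S34RELK_cO_injective A K1)]
    exact ha0d
  · simp only [hev]
    exact hrel
  · simp only [hev]
    exact hrel'

include hq in
/-- **X-REL**: `S34CUSP_Rel` for `(j, θ)` and for `(θ, j)` from `hjq`. -/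
theorem S34RELK_rel
    (hjq : IsIntegral ↥(adj (S18K_O A K1) (S18K_j K1)) (qExpand K1 q (jqModC K1))) :
    S34CUSP_Rel (S18K_O A K1) (S18K_j K1) (qExpand K1 q (jqModC K1)) q ∧
      S34CUSP_Rel (S18K_O A K1) (qExpand K1 q (jqModC K1)) (S18K_j K1) q := by
  obtain ⟨a, ha, ha0m, ha0d, hrel, hrel'⟩ := S34RELK_relSum A K1 q hq hjq
  exact ⟨S34CUSP_rel_of_relSum ⟨a, ha, ha0m, ha0d, hrel⟩,
    S34CUSP_rel_of_relSum ⟨a, ha, ha0m, ha0d, hrel'⟩⟩

end Concrete

end Fermat.Agent.S34_helper25_RELK
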