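import Mathlib
import Fermat.Agent.S34_helper25_Defs
import Fermat.Agent.S34_helper12_KUM
import Fermat.Agent.S34_helper9_GAMMA
import Fermat.Agent.S34_helper21_ACT
import Fermat.Agent.S34_helper21_D
import Fermat.Agent.S18_helper25_CORE
import Fermat.Agent.S18_helper26_CONST

/-!
# S34, X-D: the global assembly (helper25)

`S34XD_key : p.Prime → q.Prime → p ≠ q → S34XD_Contract N p q → S34R_Key N p q`.

Given `D`, `f` with `div f = p ^ k • D` and `h` with `div h = p • (τ' - 1)(τ - 1) D` over `ℚ̄`: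

1. `h ^ (p ^ (k - 1))` and the second difference `u2bar f` of `f` have the same divisor, so they
   differ by a constant `c` (`S34XD_const_bar`); choose `c1` with `c1 ^ (p ^ (k - 1)) = c`;
2. choose a Galois-stable admissible level `K1` over which `f`, `h`, `c1`, a `p`-th root of the
   leading coefficient of `h / c1` and the support of `D` are defined (helper5 X-K0);
3. `h2 := h1 / c1` satisfies `h2 ^ (p ^ (k - 1)) = u2 f1 = 1 + π e` (Step 1 of the contract), so
   `h2` is congruent to roots of unity on both branches (helper9 X-GAMMA);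
4. the Kummer step (helper12 P5-KUM, block C' of helper27) with the crossing generators of the
   contract gives a `p`-th root of `h2` in `F1`;
5. its image over `ℚ̄` has divisor `(τ' - 1)(τ - 1) D`.
-/

set_option autoImplicit false
set_option linter.unusedVariables false
set_option linter.unusedSectionVars false
set_option linter.style.haveILetI false

open HahnSeries IntermediateField AlgebraicCurve ModularCurve
open Fermat.Agent.S18_helper9_CDefs Fermat.Agent.S18_helper25_COREDefs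
  Fermat.Agent.S34_helper12_CDefs Fermat.Agent.S34_helper5_K0 Fermat.Agent.S34_helper6_RED
  Fermat.Agent.S37_helper5_LEVEL Fermat.Agent.S34_helper25_Defs
  Fermat.Agent.S18_helper25_GLUE Fermat.Agent.S18_helper19_PLACEMOD

noncomputable section

namespace Fermat.Agent.S34_helper25_XD

local notation "Qb" => AlgebraicClosure ℚ
local notation "GQ" => (AlgebraicClosure ℚ ≃ₐ[ℚ] AlgebraicClosure ℚ)

/-! ### The top level: functions and divisors over `ℚ̄` -/

section Top

variable (N : ℕ) [NeZero N]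

/-- a function over `ℚ̄` without zeros and poles is a constant. -/
theorem S34XD_const_bar :
    ∀ x : modularFunctionFieldBar N, x ≠ 0 →
      (∀ P : Place Qb (modularFunctionFieldBar N), P.ord x = 0) →
      ∃ c : Qb, x = algebraMap Qb (modularFunctionFieldBar N) c := by
  have h := Fermat.Agent.S18_helper26_CONST.S18P15_const_unfolded Qb N
  have e := Fermat.Agent.S18_helper25_GLUE.S18G_bar_eq N
  exact e ▸ h

/-- the mixed second difference of a function over `ℚ̄`. -/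
def S34XD_u2bar (τ' τ : GQ) (f : modularFunctionFieldBar N) : modularFunctionFieldBar N :=
  (S34R_g N τ' • (S34R_g N τ • f)) * f * ((S34R_g N τ' • f) * (S34R_g N τ • f))⁻¹

variable {N}

theorem S34XD_smul_ne_zero (τ : GQ) {f : modularFunctionFieldBar N} (hf : f ≠ 0) :
    S34R_g N τ • f ≠ 0 := by
  intro h
  exact hf ((smul_eq_zero_iff_eq (S34R_g N τ)).1 h)

theorem S34XD_u2bar_ne_zero (τ' τ : GQ) {f : modularFunctionFieldBar N} (hf : f ≠ 0) :
    S34XD_u2bar N τ' τ f ≠ 0 := by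
  unfold S34XD_u2bar
  exact mul_ne_zero (mul_ne_zero (S34XD_smul_ne_zero τ' (S34XD_smul_ne_zero τ hf)) hf)
    (inv_ne_zero (mul_ne_zero (S34XD_smul_ne_zero τ' hf) (S34XD_smul_ne_zero τ hf)))

/-- the divisor of the second difference of `f` is the second difference of the divisor. -/
theorem S34XD_ord_u2bar (τ' τ : GQ) (D : Divisor Qb (modularFunctionFieldBar N)) (n : ℤ)
    (f : modularFunctionFieldBar N) (hf0 : f ≠ 0)
    (hordf : ∀ P : Place Qb (modularFunctionFieldBar N), P.ord f = n * D P)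
    (P : Place Qb (modularFunctionFieldBar N)) :
    P.ord (S34XD_u2bar N τ' τ f) = n * S34R_diff2 N τ' τ D P := by
  have h1 := S34XD_smul_ne_zero τ hf0
  have h2 := S34XD_smul_ne_zero τ' hf0
  have h3 := S34XD_smul_ne_zero τ' h1
  unfold S34XD_u2bar
  rw [Place.ord_mul P (mul_ne_zero h3 hf0) (inv_ne_zero (mul_ne_zero h2 h1)),
    Place.ord_mul P h3 hf0, Place.ord_inv, Place.ord_mul P h2 h1,
    Fermat.Agent.S34_helper21_D.S34D_ord_smul (S34R_g N τ') P (S34R_g N τ • f),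
    Fermat.Agent.S34_helper21_D.S34D_ord_smul (S34R_g N τ) _ f,
    Fermat.Agent.S34_helper21_D.S34D_ord_smul (S34R_g N τ') P f,
    Fermat.Agent.S34_helper21_D.S34D_ord_smul (S34R_g N τ) P f,
    hordf, hordf, hordf, hordf]
  unfold S34R_diff2
  simp only [Finsupp.add_apply, Finsupp.sub_apply, SemilinearAut.divisor_smul_apply]
  ring

end Top

/-! ### Roots of unity -/

section Roots

variable (A : ValuationSubring Qb) (K1 : IntermediateField ℚ Qb)

/-- a root of unity lies in every valuation subring. -/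
theorem S34XD_root_mem (ζ : Qb) (n : ℕ) (hn : 0 < n) (hζ : ζ ^ n = 1) : ζ ∈ A := by
  rcases A.mem_or_inv_mem ζ with h | h
  · exact h
  · have h1 : ζ = (ζ⁻¹) ^ (n - 1) := by
      have hζ0 : ζ ≠ 0 := by
        rintro rfl
        rw [zero_pow hn.ne'] at hζ
        exact zero_ne_one hζ
      have h2 : ζ ^ (n - 1) * ζ = 1 := by
        rw [← pow_succ, Nat.sub_add_cancel hn, hζ]
      rw [inv_pow]
      exact (eq_inv_of_mul_eq_one_right h2)
    rw [h1]
    exact A.pow_mem h _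

/-- the constant series attached to a root of unity of `K1` lies in `O`, with its inverse. -/
theorem S34XD_C_root_mem (ζ : K1) (n : ℕ) (hn : 0 < n) (hζ : ζ ^ n = 1) :
    (HahnSeries.C ζ : LaurentSeries K1) ∈ S18K_O A K1 ∧
      (HahnSeries.C ζ : LaurentSeries K1)⁻¹ ∈ S18K_O A K1 ∧
      (HahnSeries.C ζ : LaurentSeries K1) ≠ 0 := by
  have hζ' : ((ζ : K1) : Qb) ^ n = 1 := by
    have := congrArg (fun z : K1 => (z : Qb)) hζ
    simpa using this
  have hζ0 : ζ ≠ 0 := by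
    rintro rfl
    rw [zero_pow hn.ne'] at hζ
    exact zero_ne_one hζ
  refine ⟨?_, ?_, ?_⟩
  · rw [S18K_mem_O]
    exact ⟨ζ, S34XD_root_mem A _ n hn hζ', rfl⟩
  · rw [S18K_mem_O]
    refine ⟨ζ⁻¹, ?_, by rw [map_inv₀]⟩
    have h1 : (((ζ⁻¹ : K1) : K1) : Qb) ^ n = 1 := by
      have h2 : (ζ⁻¹ : K1) ^ n = 1 := by rw [inv_pow, hζ, inv_one]
      have := congrArg (fun z : K1 => (z : Qb)) h2
      simpa using this
    exact S34XD_root_mem A _ n hn h1
  · intro h
    apply hζ0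
    have : (HahnSeries.C ζ : LaurentSeries K1) = HahnSeries.C 0 := by rw [h, map_zero]
    exact HahnSeries.C_injective this

end Roots

/-! ### Compatibility of the second differences -/

section Compat

variable (N : ℕ) [NeZero N] (K1 : IntermediateField ℚ Qb)
  (hstab : ∀ σ : GQ, ∀ y ∈ K1, σ y ∈ K1)

theorem S34XD_coe_smul (τ : GQ) (z : modularFunctionFieldBar N) :
    ((S34R_g N τ • z : modularFunctionFieldBar N) : LaurentSeries Qb)
      = coeffMap (τ : Qb →+* Qb) (z : LaurentSeries Qb) := rfl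

theorem S34XD_inc_restrict (τ : GQ) (x : LaurentSeries K1) :
    coeffMap (algebraMap K1 Qb)
        (coeffMap ((S34K0_restrict K1 hstab τ : K1 ≃ₐ[ℚ] K1) : K1 →+* K1) x)
      = coeffMap (τ : Qb →+* Qb) (coeffMap (algebraMap K1 Qb) x) :=
  Fermat.Agent.S34_helper21_ACT.S34ACT_inc_act K1 hstab τ x

/-- the inclusion `F1(K1) → F̄` is compatible with the second differences. -/
theorem S34XD_inc_u2 (τ' τ : GQ) (f1 : modularFunctionFieldFullC K1 N) :
    coeffMap (algebraMap K1 Qb)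
        (S34XD_u2 K1 ((S34K0_restrict K1 hstab τ' : K1 ≃ₐ[ℚ] K1) : K1 →+* K1)
          ((S34K0_restrict K1 hstab τ : K1 ≃ₐ[ℚ] K1) : K1 →+* K1) (f1 : LaurentSeries K1))
      = ((S34XD_u2bar N τ' τ (S34XD_inc K1 N f1) : modularFunctionFieldBar N) :
          LaurentSeries Qb) := by
  unfold S34XD_u2 S34XD_u2bar
  rw [map_mul, map_mul, map_inv₀, map_mul, S34XD_inc_restrict, S34XD_inc_restrict,
    S34XD_inc_restrict]
  rfl

end Compat

/-! ### The main theorem -/

section Main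

variable (N : ℕ) [NeZero N]

/-- the `S34G_Val` structure of a valuation ring of an `S34C_Setup2` (first). -/
theorem S34XD_val1 {L : Type*} [Field L] {O : Subring L} {π j : L} {F1 : Subfield L}
    {V1 V2 A0 Ainf : Subring L} (S : S34C_Setup2 O π j F1 V1 V2 A0 Ainf) :
    Fermat.Agent.S34_helper9_GAMMA.S34G_Val π F1 V1 where
  le := S.V1_le
  val := S.V1_val
  unif := S.V1_unif
  π_mem := (Fermat.Agent.S34_helper27_C2ADAPT.S34CA_val1 S).π_mem
  π_nonunit := S.V1_nonunit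

/-- the `S34G_Val` structure of a valuation ring of an `S34C_Setup2` (second). -/
theorem S34XD_val2 {L : Type*} [Field L] {O : Subring L} {π j : L} {F1 : Subfield L}
    {V1 V2 A0 Ainf : Subring L} (S : S34C_Setup2 O π j F1 V1 V2 A0 Ainf) :
    Fermat.Agent.S34_helper9_GAMMA.S34G_Val π F1 V2 where
  le := S.V2_le
  val := S.V2_val
  unif := S.V2_unif
  π_mem := (Fermat.Agent.S34_helper27_C2ADAPT.S34CA_val2 S).π_mem
  π_nonunit := S.V2_nonunit

/-- **constant reduction on one branch**: `h ∈ F1` with `h ^ n = 1 + π e`, `ζ ∈ O` a primitive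
`n`-th root of unity: `h ≡ ζ ^ i` modulo `π W`, and `h` is a unit of `W`. -/
theorem S34XD_const_branch {L : Type*} [Field L] {π : L} {F1 : Subfield L} {W : Subring L}
    (H : Fermat.Agent.S34_helper9_GAMMA.S34G_Val π F1 W) {n : ℕ} (hn : 0 < n) {ζ : L}
    (hζ : IsPrimitiveRoot ζ n) (hζW : ζ ∈ W) (h e : L) (hF : h ∈ F1) (he : e ∈ W)
    (hpow : h ^ n = 1 + π * e) :
    ∃ i < n, (∃ v ∈ W, h - ζ ^ i = π * v) ∧ h ∈ W ∧ h⁻¹ ∈ W := by
  have hW : h ∈ W := by
    rcases H.val h hF with h1 | h1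
    · exact h1
    · -- `h⁻¹ ∈ W`: then `h = (h⁻¹)^(n-1) (1 + π e)`
      by_cases h0 : h = 0
      · rw [h0]; exact W.zero_mem
      have e1 : h = (h⁻¹) ^ (n - 1) * (1 + π * e) := by
        rw [← hpow, inv_pow]
        have : h ^ n = h ^ (n - 1) * h := by rw [← pow_succ, Nat.sub_add_cancel hn]
        rw [this]
        field_simp
      rw [e1]
      exact W.mul_mem (W.pow_mem h1 _) (W.add_mem W.one_mem (W.mul_mem H.π_mem he))
  obtain ⟨i, hi, v, hv, hiv⟩ := Fermat.Agent.S34_helper9_GAMMA.S34G_const_val H hn hζ hζW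
    (a₀ := 1) W.one_mem hW he (by rw [one_pow, one_mul]; exact hpow)
  rw [one_mul] at hiv
  have hζi : ζ ^ i ∈ W := W.pow_mem hζW i
  have hζi' : (ζ ^ i)⁻¹ ∈ W := by
    have : (ζ ^ i)⁻¹ = ζ ^ (i * (n - 1)) := by
      have h1 : ζ ^ i * ζ ^ (i * (n - 1)) = 1 := by
        rw [← _root_.pow_add]
        have : i + i * (n - 1) = n * i := by
          obtain ⟨n', rfl⟩ : ∃ n', n = n' + 1 := ⟨n - 1, by omega⟩
          simp
          ring
        rw [this, pow_mul, hζ.pow_eq_one, one_pow]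
      exact (eq_inv_of_mul_eq_one_right h1).symm ▸ rfl
    rw [this]
    exact W.pow_mem hζW _
  have hζi0 : ζ ^ i ≠ 0 := pow_ne_zero _ (hζ.ne_zero hn.ne')
  obtain ⟨-, hinv, -⟩ := H.unit_of_congr hζi hζi' hζi0 hv hiv
  exact ⟨i, hi, ⟨v, hv, hiv⟩, hW, hinv⟩

set_option synthInstance.maxHeartbeats 400000 in
set_option maxHeartbeats 3200000 in
/-- **X-D**: the divisor-level key statement of the formal top follows from the geometric
contract. -/
theorem S34XD_key (p q : ℕ) (hp : p.Prime) (hq : q.Prime) (hpq : p ≠ q)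
    (hgeom : S34XD_Contract N p q) : S34R_Key N p q := by
  intro A hA τ' τ hτ' hτ k D f h hf0 hh0 hordf hordh
  classical
  haveI : Fact q.Prime := ⟨hq⟩
  have hu0 := S34XD_u2bar_ne_zero τ' τ hf0
  have hordu := S34XD_ord_u2bar τ' τ D ((p : ℤ) ^ k) f hf0 hordf
  rcases Nat.eq_zero_or_pos k with hk | hk
  · -- `k = 0`: the second difference of `f` itself
    subst hk
    refine ⟨S34XD_u2bar N τ' τ f, hu0, fun P => ?_⟩
    rw [hordu P, pow_zero, one_mul]
  obtain ⟨m, rfl⟩ : ∃ m, k = m + 1 := ⟨k - 1, by omega⟩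
  have hp0 : (p : ℤ) ≠ 0 := by exact_mod_cast hp.ne_zero
  -- the constant `c` with `h ^ (p ^ m) = c · u2bar f`
  have hz0 : h ^ (p ^ m) * (S34XD_u2bar N τ' τ f)⁻¹ ≠ 0 :=
    mul_ne_zero (pow_ne_zero _ hh0) (inv_ne_zero hu0)
  have hordpow : ∀ (P : Place Qb (modularFunctionFieldBar N)) (z : modularFunctionFieldBar N)
      (n : ℕ), P.ord (z ^ n) = (n : ℤ) * P.ord z := by
    intro P z n
    rw [← zpow_natCast, Place.ord_zpow]
  have hzord : ∀ P : Place Qb (modularFunctionFieldBar N),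
      P.ord (h ^ (p ^ m) * (S34XD_u2bar N τ' τ f)⁻¹) = 0 := by
    intro P
    rw [Place.ord_mul P (pow_ne_zero _ hh0) (inv_ne_zero hu0), Place.ord_inv, hordu P,
      hordpow, hordh P]
    push_cast
    ring
  obtain ⟨c, hc⟩ := S34XD_const_bar N _ hz0 hzord
  have hc0 : c ≠ 0 := by
    rintro rfl
    rw [map_zero] at hc
    exact hz0 hc
  have hhc : h ^ (p ^ m) = algebraMap Qb (modularFunctionFieldBar N) c * S34XD_u2bar N τ' τ f := by
    rw [← hc]
    field_simp
  -- roots of the constants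
  obtain ⟨c1, hc1⟩ := IsAlgClosed.exists_pow_nat_eq c (pow_pos hp.pos m)
  have hc10 : c1 ≠ 0 := by
    rintro rfl
    rw [zero_pow (pow_pos hp.pos m).ne'] at hc1
    exact hc0 hc1.symm
  set hq_ : LaurentSeries Qb :=
    (h : LaurentSeries Qb) * (algebraMap Qb (LaurentSeries Qb) c1)⁻¹ with hq_def
  obtain ⟨r, hr⟩ := IsAlgClosed.exists_pow_nat_eq (hq_.coeff hq_.order) hp.pos
  -- a primitive root of unity of order `p ^ (m + 1)`
  haveI : NeZero (p ^ (m + 1)) := ⟨(pow_pos hp.pos _).ne'⟩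
  obtain ⟨ζ', hζ'⟩ := HasEnoughRootsOfUnity.exists_primitiveRoot Qb (p ^ (m + 1))
  -- the level
  obtain ⟨S₁, hS₁⟩ := S18G_exists_finset (k₀ := ℚ) N (S18G_bar_le N f.2)
  obtain ⟨S₂, hS₂⟩ := S18G_exists_finset (k₀ := ℚ) N (S18G_bar_le N h.2)
  obtain ⟨K1, hSK, hadm, hstab, hK0, hrat⟩ :=
    S34K0_exists_normal_level N hq A hA (S₁ ∪ S₂ ∪ {c1, r}) D.support
  have := hadm.dvr
  obtain ⟨f1, hf1F, hf1⟩ := hS₁ K1 (fun s hs => hSK s (by simp [hs]))
  obtain ⟨h1, hh1F, hh1⟩ := hS₂ K1 (fun s hs => hSK s (by simp [hs]))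
  have hc1K : c1 ∈ K1 := hSK c1 (by simp)
  have hrK : r ∈ K1 := hSK r (by simp)
  have hqn : ¬ q ∣ p ^ (m + 1) := by
    intro hdvd
    exact hpq ((Nat.prime_dvd_prime_iff_eq hq hp).1 (hq.dvd_of_dvd_pow hdvd)).symm
  have hζ'K : ζ' ∈ K1 := hadm.roots (p ^ (m + 1)) hqn ζ' hζ'.pow_eq_one
  -- the functions over `K1`
  have hf10 : f1 ≠ 0 := by
    rintro rfl
    rw [map_zero] at hf1
    exact hf0 (Subtype.ext hf1.symm)
  have hh10 : h1 ≠ 0 := by
    rintro rfl
    rw [map_zero] at hh1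
    exact hh0 (Subtype.ext hh1.symm)
  set cK : K1 := ⟨c1, hc1K⟩ with hcK
  have hcK0 : cK ≠ 0 := fun h0 => hc10 (congrArg Subtype.val h0)
  set h2 : LaurentSeries K1 := h1 * (algebraMap K1 (LaurentSeries K1) cK)⁻¹ with hh2
  have hh2F : h2 ∈ modularFunctionFieldFullC K1 N :=
    mul_mem hh1F (inv_mem (IntermediateField.algebraMap_mem _ _))
  have hh20 : h2 ≠ 0 :=
    mul_ne_zero hh10 (inv_ne_zero (by
      intro h0
      apply hcK0
      have := (algebraMap K1 (LaurentSeries K1)).injective (h0.trans (map_zero _).symm)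
      exact this))
  have hinc2 : coeffMap (algebraMap K1 Qb) h2 = hq_ := by
    rw [hh2, map_mul, map_inv₀, hh1, S18G_coeffMap_algebraMap]
    rfl
  -- the geometric contract at the level `K1`
  obtain ⟨V2, x, A0, Ainf, hG, -, -, -, -⟩ := hgeom A hA K1 hadm hstab
  have hS := hG.setup
  have hH1 := S34XD_val1 hS
  have hH2 := S34XD_val2 hS
  -- Step 1
  obtain ⟨e, he, hue⟩ := hG.step1 τ' τ hτ' hτ f1 hf1F hf10
  -- `h2 ^ (p ^ m) = u2 f1`
  have hf1inc : S34XD_inc K1 N ⟨f1, hf1F⟩ = f := Subtype.ext hf1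
  have hpow : h2 ^ (p ^ m) = 1 + S18K_π A K1 * e := by
    rw [← hue]
    apply S18G_coeffMap_injective (algebraMap K1 Qb)
    rw [map_pow, hinc2, S34XD_inc_u2 N K1 hstab τ' τ ⟨f1, hf1F⟩, hf1inc]
    have h3 : ((h ^ (p ^ m) : modularFunctionFieldBar N) : LaurentSeries Qb)
        = algebraMap Qb (LaurentSeries Qb) c *
          ((S34XD_u2bar N τ' τ f : modularFunctionFieldBar N) : LaurentSeries Qb) := by
      rw [hhc]
      rfl
    have h4 : ((h ^ (p ^ m) : modularFunctionFieldBar N) : LaurentSeries Qb)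
        = (h : LaurentSeries Qb) ^ (p ^ m) := rfl
    have hc1' : algebraMap Qb (LaurentSeries Qb) c1 ≠ 0 := by
      intro h0
      exact hc10 ((algebraMap Qb (LaurentSeries Qb)).injective (h0.trans (map_zero _).symm))
    rw [hq_def, mul_pow, inv_pow, ← map_pow, hc1, ← h4, h3]
    have hc' : algebraMap Qb (LaurentSeries Qb) c ≠ 0 := by
      intro h0
      exact hc0 ((algebraMap Qb (LaurentSeries Qb)).injective (h0.trans (map_zero _).symm))
    field_simp
  -- roots of unity in `O`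
  have hpm : 0 < p ^ m := pow_pos hp.pos m
  have hpm1 : 0 < p ^ (m + 1) := pow_pos hp.pos _
  set ζ'K : K1 := ⟨ζ', hζ'K⟩ with hζ'Kdef
  have hζ'Kprim : IsPrimitiveRoot ζ'K (p ^ (m + 1)) :=
    IsPrimitiveRoot.of_map_of_injective (f := algebraMap K1 Qb) hζ' (algebraMap K1 Qb).injective
  have hζKprim : IsPrimitiveRoot (ζ'K ^ p) (p ^ m) :=
    hζ'Kprim.pow hpm1 (by rw [pow_succ, mul_comm])
  set Z' : LaurentSeries K1 := HahnSeries.C ζ'K with hZ'
  set Z : LaurentSeries K1 := HahnSeries.C (ζ'K ^ p) with hZ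
  have hZZ' : Z = Z' ^ p := by rw [hZ, hZ', map_pow]
  have hZprim : IsPrimitiveRoot Z (p ^ m) :=
    hζKprim.map_of_injective (f := (HahnSeries.C : K1 →+* LaurentSeries K1))
      HahnSeries.C_injective
  have hOV : S18K_O A K1 ≤ S18K_V A K1 N ⊓ V2 := Fermat.Agent.S34_helper9_GAMMA.S34G_O_le_V hS
  have hZO : Z ∈ S18K_O A K1 := (S34XD_C_root_mem A K1 (ζ'K ^ p) (p ^ m) hpm hζKprim.pow_eq_one).1
  have hZ'pow : ∀ i : ℕ, Z' ^ i ∈ S18K_O A K1 ∧ (Z' ^ i)⁻¹ ∈ S18K_O A K1 ∧ Z' ^ i ≠ 0 := by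
    intro i
    have h1 : (ζ'K ^ i) ^ (p ^ (m + 1)) = 1 := by
      rw [← pow_mul, mul_comm, pow_mul, hζ'Kprim.pow_eq_one, one_pow]
    have := S34XD_C_root_mem A K1 (ζ'K ^ i) (p ^ (m + 1)) hpm1 h1
    rwa [map_pow] at this
  -- constant reductions on both branches
  obtain ⟨i1, -, ⟨v1, hv1, hv1e⟩, hh2V1, hh2V1'⟩ :=
    S34XD_const_branch hH1 hpm hZprim (hOV hZO).1 h2 e hh2F he.1 hpow
  obtain ⟨i2, -, ⟨v2, hv2, hv2e⟩, hh2V2, hh2V2'⟩ :=
    S34XD_const_branch hH2 hpm hZprim (hOV hZO).2 h2 e hh2F he.2 hpow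
  -- the divisor of `h2` over `ℚ̄`
  have hinc2' : S34XD_inc K1 N ⟨h2, hh2F⟩
      = h * (algebraMap Qb (modularFunctionFieldBar N) c1)⁻¹ := by
    apply Subtype.ext
    show coeffMap (algebraMap K1 Qb) h2 = _
    rw [hinc2]
    rfl
  have hord2 : ∀ P : Place Qb (modularFunctionFieldBar N),
      P.ord (S34XD_inc K1 N ⟨h2, hh2F⟩) = (p : ℤ) * S34R_diff2 N τ' τ D P := by
    intro P
    have hc1'' : algebraMap Qb (modularFunctionFieldBar N) c1 ≠ 0 := by
      intro h0
      exact hc10 ((algebraMap Qb (modularFunctionFieldBar N)).injective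
        (h0.trans (map_zero _).symm))
    rw [hinc2', Place.ord_mul P hh0 (inv_ne_zero hc1''), Place.ord_inv,
      Fermat.Agent.S34_helper21_D.S34D_ord_const P c1 hc10, hordh P]
    ring
  -- `PowDiv` and the order at the cusp
  have hF2 : coeffMap (algebraMap K1 Qb) h2 ∈ modularFunctionFieldBar N :=
    S18G_le_bar N (S18G_coeffMap_mem _ N hh2F)
  have hdiv' : ∀ P : Place Qb (modularFunctionFieldBar N),
      (p : ℤ) ∣ P.ord ⟨coeffMap (algebraMap K1 Qb) h2, hF2⟩ := by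
    intro P
    have := hord2 P
    exact ⟨_, this⟩
  obtain ⟨hPow, hordq⟩ := Fermat.Agent.S18_helper25_CORE.S18K_powDiv_and_order
    (algebraMap K1 Qb) N (S18K_O A K1) (S18K_π A K1)
    (Fermat.Agent.S18_helper25_CORE.S18K_π_ne_zero A K1)
    (fun c => Fermat.Agent.S18_helper25_CORE.S18K_const_mul_pow A K1 c) p h2 hh2F hh20 hF2 hdiv'
  -- the `p`-th root in `K1((q))`
  have hlead : ∃ r1 : K1, r1 ^ p = h2.coeff h2.order := by
    refine ⟨⟨r, hrK⟩, ?_⟩
    apply (algebraMap K1 Qb).injective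
    rw [map_pow]
    show r ^ p = algebraMap K1 Qb (h2.coeff h2.order)
    rw [hr, ← coeffMap_coeff,
      ← Fermat.Agent.S18_helper25_CORE.S18K_order_coeffMap (algebraMap K1 Qb) h2, hinc2]
  have hpK : (p : K1) ≠ 0 := Nat.cast_ne_zero.mpr hp.ne_zero
  obtain ⟨h', hh'⟩ := Fermat.Agent.S18_helper25_COREA.S18K_exists_root p hpK h2 hh20 hordq hlead
  -- the Kummer step
  haveI hcz : CharZero (LaurentSeries K1) :=
    charZero_of_injective_algebraMap (algebraMap K1 (LaurentSeries K1)).injective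
  have hh'F : h' ∈ S18K_F1 K1 N := by
    refine Fermat.Agent.S34_helper12_KUM.S34KUM_main hS hG.n1_0 hG.n1_inf hp
      (Fermat.Agent.S18_helper25_CORE.S18K_natCast_inv_mem A K1 hA p hp hpq) h2 h' hh2F hh20 hh'
      hPow (Z ^ i1) (Z ^ i2) (Z' ^ i1) (Z' ^ i2)
      ((S18K_O A K1).pow_mem hZO i1) ((S18K_O A K1).pow_mem hZO i2)
      (hZ'pow i1).1 (hZ'pow i1).2.1 (hZ'pow i1).2.2
      (hZ'pow i2).1 (hZ'pow i2).2.1 (hZ'pow i2).2.2
      ⟨0, (S18K_O A K1).zero_mem, by rw [hZZ', ← pow_mul, ← pow_mul, mul_comm, sub_self, mul_zero]⟩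
      ⟨0, (S18K_O A K1).zero_mem, by rw [hZZ', ← pow_mul, ← pow_mul, mul_comm, sub_self, mul_zero]⟩
      ⟨v1, hv1, hv1e⟩ ⟨v2, hv2, hv2e⟩ ?_ ?_
    · intro hπ mI hm hπm hT1 hT2
      obtain ⟨g, hg, c', hc', hgc, hu1, hu2⟩ := hG.cross_0 τ' τ hτ' hτ D
        (fun P hP => hrat P (Finsupp.mem_support_iff.2 hP)) ⟨h2, hh2F⟩ ⟨hh2V1, hh2V2⟩
        ⟨hh2V1', hh2V2'⟩ hord2 hπ mI hm hπm ⟨hT1, hT2⟩
      exact ⟨g, hg, c', hc', hgc, hu1, hu2⟩
    · intro hπ mI hm hπm hT1 hT2
      obtain ⟨g, hg, c', hc', hgc, hu1, hu2⟩ := hG.cross_inf τ' τ hτ' hτ D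
        (fun P hP => hrat P (Finsupp.mem_support_iff.2 hP)) ⟨h2, hh2F⟩ ⟨hh2V1, hh2V2⟩
        ⟨hh2V1', hh2V2'⟩ hord2 hπ mI hm hπm ⟨hT1, hT2⟩
      exact ⟨g, hg, c', hc', hgc, hu1, hu2⟩
  -- ascent
  have hh'0 : h' ≠ 0 := by
    rintro rfl
    rw [zero_pow hp.ne_zero] at hh'
    exact hh20 hh'.symm
  refine ⟨S34XD_inc K1 N ⟨h', hh'F⟩, ?_, fun P => ?_⟩
  · intro h0
    apply hh'0
    have h1 : coeffMap (algebraMap K1 Qb) h' = 0 := congrArg Subtype.val h0
    exact S18G_coeffMap_injective (algebraMap K1 Qb) (h1.trans (map_zero _).symm)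
  · have hpw : (S34XD_inc K1 N ⟨h', hh'F⟩) ^ p = S34XD_inc K1 N ⟨h2, hh2F⟩ := by
      rw [← map_pow]
      congr 1
      exact Subtype.ext hh'
    have h1 := hord2 P
    rw [← hpw, hordpow] at h1
    exact mul_left_cancel₀ hp0 h1

end Main

end Fermat.Agent.S34_helper25_XD
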