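import Fermat.Statements.S34
import Fermat.Agent.S34_helper3_ENDF
import Fermat.Agent.S34_Contracts3
import Fermat.Agent.S34_helper25_Defs

/-!
# S34: the final plug, as a theorem with the two top contracts as hypotheses (helper28)

The frozen statement of S34 (binders verbatim) from

* `S34TOP_of_key`       : helper6's divisor-level contract `S34R_Key (N' * q) p q` for every
  decomposition `N = N' * q`, `q ∤ N'`;
* `S34TOP_of_contracts` : the owner's two top contracts `S34K_XD3` (X-D) and `S34K_GeomHolds3`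
  (the geometry);
* `S34TOP_of_XD`        : helper25's `S34XD_Contract` and a theorem of the shape of `S34XD_key`.

So `Fermat/Agent/S34.lean` is one line as soon as either pair of contracts is proved.  The only
content is the bookkeeping `q ∣ N`, `¬ q ^ 2 ∣ N`  ⟹  `N = N' * q`, `¬ q ∣ N'` (with the
instance `NeZero (N' * q)` obtained by `subst`).
-/

set_option autoImplicit false

open IsLocalRing
open CuspForm CuspForm.HeckeGaloisRepDatum

namespace Fermat.Agent.S34_helper28_TOP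

open Fermat.Agent.S34_Contracts Fermat.Agent.S34_helper25_Defs Fermat.Agent.S34_helper6_RED

/-- the frozen statement of S34 from `S34R_Key (N' * q) p q`. -/
theorem S34TOP_of_key
    (hKey : ∀ (N' q p : ℕ) [NeZero (N' * q)], q.Prime → p.Prime → p ≠ q → ¬ q ∣ N' →
      S34R_Key (N' * q) p q)
    {𝒪 : Type} [CommRing 𝒪] [IsDomain 𝒪] [IsDiscreteValuationRing 𝒪]
    [IsAdicComplete (maximalIdeal 𝒪) 𝒪] [Finite (ResidueField 𝒪)] [CharZero 𝒪]
    {p : ℕ} (hp : p.Prime) (hp𝒪 : (p : 𝒪) ∈ maximalIdeal 𝒪)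
    {N : ℕ} [NeZero N] {S : Finset ℕ} (hpS : p ∈ S) (hNS : ∀ q : ℕ, q.Prime → q ∣ N → q ∈ S)
    {θ : CuspForm.heckeAlgebra N 2 (↑S : Set ℕ) →+* ResidueField 𝒪}
    {T : Type} [CommRing T] [IsLocalRing T] [IsNoetherianRing T]
    [IsAdicComplete (maximalIdeal T) T] [Algebra 𝒪 T] [IsLocalHom (algebraMap 𝒪 T)]
    [Module.Finite 𝒪 T] [Module.Free 𝒪 T]
    (H : CuspForm.HeckeGaloisRepDatum N (↑S : Set ℕ) 𝒪 θ T)
    (q : ℕ) (hq : q.Prime) (hqp : q ≠ p) (hqN : q ∣ N) (hq2 : ¬ q ^ 2 ∣ N) :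
    H.ρ.IsUnipotentOnInertiaAt q := by
  refine Fermat.Agent.S34_helper3_ENDF.S34F_of_key hp hp𝒪 hpS hNS H q hq hqp ?_
  obtain ⟨N', hN'⟩ : ∃ N', N = N' * q := ⟨N / q, (Nat.div_mul_cancel hqN).symm⟩
  subst hN'
  have hqN' : ¬ q ∣ N' := by
    intro h
    apply hq2
    obtain ⟨c, rfl⟩ := h
    exact ⟨c, by ring⟩
  exact hKey N' q p hq hp hqp.symm hqN'

/-- the frozen statement of S34 from the owner's top contracts `S34K_XD3` and
`S34K_GeomHolds3`. -/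
theorem S34TOP_of_contracts
    (hXD : ∀ (N' q p : ℕ) [NeZero (N' * q)], S34K_XD3 N' q p)
    (hGeom : ∀ (N' q p : ℕ) [NeZero (N' * q)], S34K_GeomHolds3 N' q p)
    {𝒪 : Type} [CommRing 𝒪] [IsDomain 𝒪] [IsDiscreteValuationRing 𝒪]
    [IsAdicComplete (maximalIdeal 𝒪) 𝒪] [Finite (ResidueField 𝒪)] [CharZero 𝒪]
    {p : ℕ} (hp : p.Prime) (hp𝒪 : (p : 𝒪) ∈ maximalIdeal 𝒪)
    {N : ℕ} [NeZero N] {S : Finset ℕ} (hpS : p ∈ S) (hNS : ∀ q : ℕ, q.Prime → q ∣ N → q ∈ S)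
    {θ : CuspForm.heckeAlgebra N 2 (↑S : Set ℕ) →+* ResidueField 𝒪}
    {T : Type} [CommRing T] [IsLocalRing T] [IsNoetherianRing T]
    [IsAdicComplete (maximalIdeal T) T] [Algebra 𝒪 T] [IsLocalHom (algebraMap 𝒪 T)]
    [Module.Finite 𝒪 T] [Module.Free 𝒪 T]
    (H : CuspForm.HeckeGaloisRepDatum N (↑S : Set ℕ) 𝒪 θ T)
    (q : ℕ) (hq : q.Prime) (hqp : q ≠ p) (hqN : q ∣ N) (hq2 : ¬ q ^ 2 ∣ N) :
    H.ρ.IsUnipotentOnInertiaAt q :=
  S34TOP_of_key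
    (fun N' q p _ hq hp hpq hqN' => hXD N' q p hq hp hpq hqN' (hGeom N' q p hq hp hpq hqN'))
    hp hp𝒪 hpS hNS H q hq hqp hqN hq2

/-- the frozen statement of S34 from helper25's contract `S34XD_Contract` and a theorem of the
shape of `S34XD_key`. -/
theorem S34TOP_of_XD
    (hkey : ∀ (N : ℕ) [NeZero N] (p q : ℕ), p.Prime → q.Prime → p ≠ q →
      S34XD_Contract N p q → S34R_Key N p q)
    (hC : ∀ (N' q p : ℕ) [NeZero (N' * q)], q.Prime → p.Prime → p ≠ q → ¬ q ∣ N' →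
      S34XD_Contract (N' * q) p q)
    {𝒪 : Type} [CommRing 𝒪] [IsDomain 𝒪] [IsDiscreteValuationRing 𝒪]
    [IsAdicComplete (maximalIdeal 𝒪) 𝒪] [Finite (ResidueField 𝒪)] [CharZero 𝒪]
    {p : ℕ} (hp : p.Prime) (hp𝒪 : (p : 𝒪) ∈ maximalIdeal 𝒪)
    {N : ℕ} [NeZero N] {S : Finset ℕ} (hpS : p ∈ S) (hNS : ∀ q : ℕ, q.Prime → q ∣ N → q ∈ S)
    {θ : CuspForm.heckeAlgebra N 2 (↑S : Set ℕ) →+* ResidueField 𝒪}
    {T : Type} [CommRing T] [IsLocalRing T] [IsNoetherianRing T]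
    [IsAdicComplete (maximalIdeal T) T] [Algebra 𝒪 T] [IsLocalHom (algebraMap 𝒪 T)]
    [Module.Finite 𝒪 T] [Module.Free 𝒪 T]
    (H : CuspForm.HeckeGaloisRepDatum N (↑S : Set ℕ) 𝒪 θ T)
    (q : ℕ) (hq : q.Prime) (hqp : q ≠ p) (hqN : q ∣ N) (hq2 : ¬ q ^ 2 ∣ N) :
    H.ρ.IsUnipotentOnInertiaAt q :=
  S34TOP_of_key
    (fun N' q p _ hq hp hpq hqN' => hkey (N' * q) p q hp hq hpq (hC N' q p hq hp hpq hqN'))
    hp hp𝒪 hpS hNS H q hq hqp hqN hq2

end Fermat.Agent.S34_helper28_TOP
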