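import Fermat.Agent.S34_helper27_GEOM2
import Fermat.Agent.S34_helper28_TOP
import Fermat.Agent.S34_helper12_XDAD
import Fermat.Agent.S34_helper25_XD

/-!
# S34 (helper27): the final wiring

The frozen statement of S34 from what is left of the geometry:

* `hrel`  : the modular relation between `j` and `j(q^q)` (helper8's MODEQ, `S34CUSP_Rel`);
* `hrest` : `S34GM2_Rest` = `(N1)` on the two `j`-charts and X-CROSS on the finite chart, at
  every place `A` over `q` and every admissible Galois-stable level `K1`, for `V2 = w(V1)`.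

Chain: `S34GM2_holds3` (geometry, this seat) → `S34AD_contract` (helper12) → `S34XD_key`
(helper25) → `S34TOP_of_XD` (helper28) → `S34F_of_key` (helper3).
-/

set_option autoImplicit false
set_option linter.unusedSectionVars false
set_option linter.unusedVariables false
set_option linter.style.haveILetI false

open IsLocalRing
open CuspForm CuspForm.HeckeGaloisRepDatum
open ModularCurve
open Fermat.Agent.S18_helper25_COREDefs Fermat.Agent.S34_Contracts
open Fermat.Agent.S34_helper27_GEOM Fermat.Agent.S34_helper27_GEOM2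
open Fermat.Agent.S34_helper18_CUSP

namespace Fermat.Agent.S34_helper27_FINAL

local notation "Qb" => AlgebraicClosure ℚ
local notation "GQ" => (AlgebraicClosure ℚ ≃ₐ[ℚ] AlgebraicClosure ℚ)

/-- the divisor-level key statement from the geometric contract -/
theorem S34FINAL_key_of_geom (N' q p : ℕ) [NeZero (N' * q)] (hq : q.Prime) (hp : p.Prime)
    (hpq : p ≠ q) (hqN : ¬ q ∣ N') (hG : S34K_GeomHolds3 N' q p) :
    Fermat.Agent.S34_helper6_RED.S34R_Key (N' * q) p q :=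
  Fermat.Agent.S34_helper25_XD.S34XD_key (N' * q) p q hp hq hpq
    (Fermat.Agent.S34_helper12_XDAD.S34AD_contract N' q p (hG hq hp hpq hqN))

/-- **the frozen statement of S34 from the geometric contract** `S34K_GeomHolds3`. -/
theorem S34FINAL_of_geom
    (hG : ∀ (N' q p : ℕ) [NeZero (N' * q)], S34K_GeomHolds3 N' q p)
    {𝒪 : Type} [CommRing 𝒪] [IsDomain 𝒪] [IsDiscreteValuationRing 𝒪]
    [IsAdicComplete (maximalIdeal 𝒪) 𝒪] [Finite (ResidueField 𝒪)] [CharZero 𝒪]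
    {p : ℕ} (hp : p.Prime) (hp𝒪 : (p : 𝒪) ∈ maximalIdeal 𝒪)
    {N : ℕ} [NeZero N] {S : Finset ℕ} (hpS : p ∈ S) (hNS : ∀ q : ℕ, q.Prime → q ∣ N → q ∈ S)
    {θ : CuspForm.heckeAlgebra N 2 (↑S : Set ℕ) →+* ResidueField 𝒪}
    {T : Type} [CommRing T] [IsLocalRing T] [IsNoetherianRing T]
    [IsAdicComplete (maximalIdeal T) T] [Algebra 𝒪 T] [IsLocalHom (algebraMap 𝒪 T)]
    [Module.Finite 𝒪 T] [Module.Free 𝒪 T]
    (H : CuspForm.HeckeGaloisRepDatum N (↑S : Set ℕ) 𝒪 θ T)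
    (q : ℕ) (hq : q.Prime) (hqp : q ≠ p) (hqN : q ∣ N) (hq2 : ¬ q ^ 2 ∣ N) :
    H.ρ.IsUnipotentOnInertiaAt q :=
  Fermat.Agent.S34_helper28_TOP.S34TOP_of_key
    (fun N' q p _ hq hp hpq hqN' => S34FINAL_key_of_geom N' q p hq hp hpq hqN' (hG N' q p))
    hp hp𝒪 hpS hNS H q hq hqp hqN hq2

/-- **the frozen statement of S34 from the four remaining inputs**: the modular relation,
`(N1)` on the two charts and X-CROSS on the finite chart. -/
theorem S34FINAL_of_rest
    (hrel : ∀ (q : ℕ) (hq : q.Prime) (A : ValuationSubring Qb) (K1 : IntermediateField ℚ Qb),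
      haveI : NeZero q := ⟨hq.ne_zero⟩
      S34CUSP_Rel (S18K_O A K1) (S18K_j K1) (qExpand K1 q (jqModC K1)) q)
    (hrest : ∀ (N' q p : ℕ) [NeZero (N' * q)] (hq : q.Prime) (hp : p.Prime) (hpq : p ≠ q)
      (hqN : ¬ q ∣ N') (A : ValuationSubring Qb) (hA : A.LiesOverPrime q)
      (K1 : IntermediateField ℚ Qb) (h : S18K_Admissible A K1 q)
      (hstab : ∀ σ : GQ, ∀ x ∈ K1, σ x ∈ K1),
      letI := h.dvr
      haveI := S34GM_neZero N' q
      S34GM2_Rest A K1 N' q p hq hqN)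
    {𝒪 : Type} [CommRing 𝒪] [IsDomain 𝒪] [IsDiscreteValuationRing 𝒪]
    [IsAdicComplete (maximalIdeal 𝒪) 𝒪] [Finite (ResidueField 𝒪)] [CharZero 𝒪]
    {p : ℕ} (hp : p.Prime) (hp𝒪 : (p : 𝒪) ∈ maximalIdeal 𝒪)
    {N : ℕ} [NeZero N] {S : Finset ℕ} (hpS : p ∈ S) (hNS : ∀ q : ℕ, q.Prime → q ∣ N → q ∈ S)
    {θ : CuspForm.heckeAlgebra N 2 (↑S : Set ℕ) →+* ResidueField 𝒪}
    {T : Type} [CommRing T] [IsLocalRing T] [IsNoetherianRing T]
    [IsAdicComplete (maximalIdeal T) T] [Algebra 𝒪 T] [IsLocalHom (algebraMap 𝒪 T)]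
    [Module.Finite 𝒪 T] [Module.Free 𝒪 T]
    (H : CuspForm.HeckeGaloisRepDatum N (↑S : Set ℕ) 𝒪 θ T)
    (q : ℕ) (hq : q.Prime) (hqp : q ≠ p) (hqN : q ∣ N) (hq2 : ¬ q ^ 2 ∣ N) :
    H.ρ.IsUnipotentOnInertiaAt q :=
  S34FINAL_of_geom
    (fun N' q p _ => S34GM2_holds3 N' q p (fun hq A K1 => hrel q hq A K1)
      (fun hq hp hpq hqN A hA K1 h hstab => hrest N' q p hq hp hpq hqN A hA K1 h hstab))
    hp hp𝒪 hpS hNS H q hq hqp hqN hq2

end Fermat.Agent.S34_helper27_FINAL
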