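import Fermat.Agent.S34_helper27_FINAL
import Fermat.Agent.S34_helper18_CUSPK
import Fermat.Agent.S34_helper13_P1C

/-!
# S34 (helper27): the final wiring, second form

`(N1)` on both charts is discharged (helper14 `N1K` + helper18 `CUSPK` + helper13 KEY), so the
frozen statement of S34 follows from

* `hrel`, `hrel'` : the modular relation between `j` and `θ = j(q^q)` in both orders
  (helper8's MODEQ, `S34CUSP_Rel`);
* `hcross`        : X-CROSS on the FINITE chart `S18K_A0 A K1 (N' * q)`, for `V2 = w(V1)`.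
-/

set_option autoImplicit false
set_option linter.unusedSectionVars false
set_option linter.unusedVariables false
set_option linter.style.haveILetI false

open IsLocalRing
open CuspForm CuspForm.HeckeGaloisRepDatum
open ModularCurve
open Fermat.Agent.S18_helper25_COREDefs Fermat.Agent.S34_Contracts
open Fermat.Agent.S34_helper27_P1C
open Fermat.Agent.S34_helper27_GEOM Fermat.Agent.S34_helper27_GEOM2
open Fermat.Agent.S34_helper18_CUSP Fermat.Agent.S34_helper27_FINAL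

namespace Fermat.Agent.S34_helper27_FINAL2

local notation "Qb" => AlgebraicClosure ℚ
local notation "GQ" => (AlgebraicClosure ℚ ≃ₐ[ℚ] AlgebraicClosure ℚ)

section Level

variable (A : ValuationSubring Qb) (K1 : IntermediateField ℚ Qb)
  [IsDiscreteValuationRing (S18K_O1 A K1)]

/-- the residue field of the Gauss ring of level `N' * q` is that of level `N'`
(last conjunct of helper13's KEY) -/
theorem S34FINAL2_hres {q : ℕ} (hq : q.Prime) (hA : A.LiesOverPrime q) (N' : ℕ) [NeZero N']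
    [NeZero (N' * q)] (hqN : ¬ q ∣ N') :
    ∀ x ∈ S18K_V A K1 (N' * q), ∃ r ∈ S18K_V A K1 N', ∃ v ∈ S18K_V A K1 (N' * q),
      x = r + S18K_π A K1 * v :=
  (Fermat.Agent.S34_helper13_P1C.S34P1C_key A K1 q N' (N' * q) hq hqN
    (Nat.mul_comm N' q) hA).2.2.2.2

/-- **(N1) on the finite chart**, from the modular relation -/
theorem S34FINAL2_N1_A0 {q : ℕ} (hq : q.Prime) (hA : A.LiesOverPrime q) (N' : ℕ) [NeZero N']
    [NeZero (N' * q)] (hqN : ¬ q ∣ N') (h : S18K_Admissible A K1 q)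
    (hrel : haveI : NeZero q := ⟨hq.ne_zero⟩
      S34CUSP_Rel (S18K_O A K1) (S18K_j K1) (qExpand K1 q (jqModC K1)) q) :
    S34K_N1 (S18K_π A K1) (S18K_V A K1 (N' * q)) (S34P1C_V2 A K1 hq N' hqN)
      (S18K_A0 A K1 (N' * q)) := by
  haveI : NeZero q := ⟨hq.ne_zero⟩
  exact Fermat.Agent.S34_helper18_CUSPK.S34CUSPK_N1_A0 A K1 q N' (N' * q) hq hqN
    (Nat.mul_comm N' q) hA h (S34P1C_setup2 A K1 hq hA N' hqN)
    (S34FINAL2_hres A K1 hq hA N' hqN) hrel

/-- **(N1) on the chart at infinity**, from the modular relation in both orders -/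
theorem S34FINAL2_N1_Ainf {q : ℕ} (hq : q.Prime) (hA : A.LiesOverPrime q) (N' : ℕ)
    [NeZero N'] [NeZero (N' * q)] (hqN : ¬ q ∣ N') (h : S18K_Admissible A K1 q)
    (hrel : haveI : NeZero q := ⟨hq.ne_zero⟩
      S34CUSP_Rel (S18K_O A K1) (S18K_j K1) (qExpand K1 q (jqModC K1)) q)
    (hrel' : haveI : NeZero q := ⟨hq.ne_zero⟩
      S34CUSP_Rel (S18K_O A K1) (qExpand K1 q (jqModC K1)) (S18K_j K1) q) :
    S34K_N1 (S18K_π A K1) (S18K_V A K1 (N' * q)) (S34P1C_V2 A K1 hq N' hqN)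
      (S18K_Ainf A K1 (N' * q)) := by
  haveI : NeZero q := ⟨hq.ne_zero⟩
  exact Fermat.Agent.S34_helper18_CUSPK.S34CUSPK_N1_Ainf A K1 q N' (N' * q) hq hqN
    (Nat.mul_comm N' q) hA h (S34P1C_setup2 A K1 hq hA N' hqN)
    (S34FINAL2_hres A K1 hq hA N' hqN) hrel hrel'

/-- **`S34GM2_Rest`** from the modular relation and X-CROSS on the finite chart -/
theorem S34FINAL2_rest {q : ℕ} (hq : q.Prime) (hA : A.LiesOverPrime q) (N' : ℕ) [NeZero N']
    [NeZero (N' * q)] (hqN : ¬ q ∣ N') (p : ℕ) (h : S18K_Admissible A K1 q)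
    (hrel : haveI : NeZero q := ⟨hq.ne_zero⟩
      S34CUSP_Rel (S18K_O A K1) (S18K_j K1) (qExpand K1 q (jqModC K1)) q)
    (hrel' : haveI : NeZero q := ⟨hq.ne_zero⟩
      S34CUSP_Rel (S18K_O A K1) (qExpand K1 q (jqModC K1)) (S18K_j K1) q)
    (hC0 : S34K_Cross (N' * q) p A K1 (S34P1C_V2 A K1 hq N' hqN) (S18K_A0 A K1 (N' * q))) :
    S34GM2_Rest A K1 N' q p hq hqN :=
  ⟨S34FINAL2_N1_A0 A K1 hq hA N' hqN h hrel,
    S34FINAL2_N1_Ainf A K1 hq hA N' hqN h hrel hrel', hC0⟩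

end Level

/-- **the frozen statement of S34 from the modular relation and X-CROSS on the finite
chart.** -/
theorem S34FINAL2_of_cross
    (hrel : ∀ (q : ℕ) (hq : q.Prime) (A : ValuationSubring Qb) (K1 : IntermediateField ℚ Qb),
      haveI : NeZero q := ⟨hq.ne_zero⟩
      S34CUSP_Rel (S18K_O A K1) (S18K_j K1) (qExpand K1 q (jqModC K1)) q)
    (hrel' : ∀ (q : ℕ) (hq : q.Prime) (A : ValuationSubring Qb) (K1 : IntermediateField ℚ Qb),
      haveI : NeZero q := ⟨hq.ne_zero⟩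
      S34CUSP_Rel (S18K_O A K1) (qExpand K1 q (jqModC K1)) (S18K_j K1) q)
    (hcross : ∀ (N' q p : ℕ) [NeZero (N' * q)] (hq : q.Prime) (hp : p.Prime) (hpq : p ≠ q)
      (hqN : ¬ q ∣ N') (A : ValuationSubring Qb) (hA : A.LiesOverPrime q)
      (K1 : IntermediateField ℚ Qb) (h : S18K_Admissible A K1 q)
      (hstab : ∀ σ : GQ, ∀ x ∈ K1, σ x ∈ K1),
      letI := h.dvr
      haveI := S34GM_neZero N' q
      S34K_Cross (N' * q) p A K1 (S34P1C_V2 A K1 hq N' hqN) (S18K_A0 A K1 (N' * q)))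
    {𝒪 : Type} [CommRing 𝒪] [IsDomain 𝒪] [IsDiscreteValuationRing 𝒪]
    [IsAdicComplete (maximalIdeal 𝒪) 𝒪] [Finite (ResidueField 𝒪)] [CharZero 𝒪]
    {p : ℕ} (hp : p.Prime) (hp𝒪 : (p : 𝒪) ∈ maximalIdeal 𝒪)
    {N : ℕ} [NeZero N] {S : Finset ℕ} (hpS : p ∈ S) (hNS : ∀ q : ℕ, q.Prime → q ∣ N → q ∈ S)
    {θ : CuspForm.heckeAlgebra N 2 (↑S : Set ℕ) →+* ResidueField 𝒪}
    {T : Type} [CommRing T] [IsLocalRing T] [IsNoetherianRing T]
    [IsAdicComplete (maximalIdeal T) T] [Algebra 𝒪 T] [IsLocalHom (algebraMap 𝒪 T)]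
    [Module.Finite 𝒪 T] [Module.Free 𝒪 T]
    (H : CuspForm.HeckeGaloisRepDatum N (↑S : Set ℕ) 𝒪 θ T)
    (q : ℕ) (hq : q.Prime) (hqp : q ≠ p) (hqN : q ∣ N) (hq2 : ¬ q ^ 2 ∣ N) :
    H.ρ.IsUnipotentOnInertiaAt q :=
  S34FINAL_of_rest hrel
    (fun N' q p _ hq hp hpq hqN A hA K1 h hstab => by
      letI := h.dvr
      haveI := S34GM_neZero N' q
      exact S34FINAL2_rest A K1 hq hA N' hqN p h (hrel q hq A K1) (hrel' q hq A K1)
        (hcross N' q p hq hp hpq hqN A hA K1 h hstab))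
    hp hp𝒪 hpS hNS H q hq hqp hqN hq2

end Fermat.Agent.S34_helper27_FINAL2
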