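import Fermat.Agent.S34_helper27_FINAL2
import Fermat.Agent.S34_helper4_XCROSSK
import Fermat.Agent.S34_helper7_LOCGEN
import Fermat.Agent.S34_helper2_HARTOGSK
import Fermat.Agent.S34_helper29_PLACES
import Fermat.Agent.S34_helper17_VM
import Fermat.Agent.S34_helper6_LGREDK

/-!
# S34 (helper27): the final wiring, third form

X-CROSS on the finite chart is unfolded into its sub-contracts.  Landed and plugged here:
`S34K_Vert` (helper2), `S34K_PlacesAt` (helper29), `S34K_CentredInert` (helper21),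
`S34LGK_VM` (helper17), `S34LGK_Red` (helper6), the assemblies `S34LG_locGen` (helper7) and
`S34XCK_A0` (helper4).  The frozen statement of S34 follows from

* `hrel`, `hrel'` : the modular relation (at the places over `q` and admissible levels);
* `S34FINAL3_Open` : the three sub-contracts `S34LGK_Node` (X-L2), `S34LGK_Ord`,
  `S34LGK_BranchB` on the finite chart `S18K_A0 A K1 (N' * q)`, for `V2 = w(V1)`.
-/

set_option autoImplicit false
set_option linter.unusedSectionVars false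
set_option linter.unusedVariables false
set_option linter.style.haveILetI false

open IsLocalRing
open CuspForm CuspForm.HeckeGaloisRepDatum
open ModularCurve
open Fermat.Agent.S18_helper25_COREDefs Fermat.Agent.S34_Contracts
open Fermat.Agent.S34_helper27_P1C
open Fermat.Agent.S34_helper27_GEOM Fermat.Agent.S34_helper27_GEOM2
open Fermat.Agent.S34_helper18_CUSP Fermat.Agent.S34_helper27_FINAL
open Fermat.Agent.S34_helper27_FINAL2 Fermat.Agent.S34_helper7_LGDefs

namespace Fermat.Agent.S34_helper27_FINAL3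

local notation "Qb" => AlgebraicClosure ℚ
local notation "GQ" => (AlgebraicClosure ℚ ≃ₐ[ℚ] AlgebraicClosure ℚ)

section Level

variable (A : ValuationSubring Qb) (K1 : IntermediateField ℚ Qb)
  (hstab : ∀ σ : GQ, ∀ x ∈ K1, σ x ∈ K1) [IsDiscreteValuationRing (S18K_O1 A K1)]

/-- **the open sub-contracts of X-LOCGEN** on the finite chart, for `V2 = w(V1)` -/
def S34FINAL3_Open (N' q : ℕ) [NeZero N'] [NeZero (N' * q)] (hq : q.Prime)
    (hqN : ¬ q ∣ N') : Prop :=
  S34LGK_Node (N' * q) A K1 hstab (S34P1C_V2 A K1 hq N' hqN) (S18K_A0 A K1 (N' * q)) ∧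
    S34LGK_Ord (N' * q) A K1 hstab (S34P1C_V2 A K1 hq N' hqN) (S18K_A0 A K1 (N' * q)) ∧
    S34LGK_BranchB (N' * q) A K1 hstab (S34P1C_V2 A K1 hq N' hqN) (S18K_A0 A K1 (N' * q))

/-- **the owner contract `S34K_LocGen`** on the finite chart from the open sub-contracts -/
theorem S34FINAL3_locGen {q : ℕ} (hq : q.Prime) (hA : A.LiesOverPrime q) (N' : ℕ)
    [NeZero N'] [NeZero (N' * q)] (hqN : ¬ q ∣ N')
    (hopen : S34FINAL3_Open A K1 hstab N' q hq hqN) :
    S34K_LocGen (N' * q) A K1 (S34P1C_V2 A K1 hq N' hqN) (S18K_A0 A K1 (N' * q)) := by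
  have S := S34P1C_setup2 A K1 hq hA N' hqN
  exact Fermat.Agent.S34_helper7_LOCGEN.S34LG_locGen (N' * q) A K1 hstab _ _
    (fun y hy => ((S.chart0.mem_iff y).1 hy).2)
    (Fermat.Agent.S34_helper18_INF.S34INF_O_le_A0 S)
    (Fermat.Agent.S34_helper21_CI.S34CI_A0 (N' * q) A K1 hstab _ S
      (S34GM_inert A K1 hstab hq N' hqN))
    (Fermat.Agent.S34_helper17_VM.S34VM_chart (N' * q) A K1 S S.chart0)
    hopen.1 hopen.2.1 hopen.2.2
    (Fermat.Agent.S34_helper6_LGREDK.S34LR_red A K1 hstab (N' * q) S S.chart0)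

/-- **X-CROSS on the finite chart** from the open sub-contracts -/
theorem S34FINAL3_cross0 {q : ℕ} (hq : q.Prime) (hA : A.LiesOverPrime q) (N' : ℕ)
    [NeZero N'] [NeZero (N' * q)] (hqN : ¬ q ∣ N') (p : ℕ)
    (hopen : S34FINAL3_Open A K1 hstab N' q hq hqN) :
    S34K_Cross (N' * q) p A K1 (S34P1C_V2 A K1 hq N' hqN) (S18K_A0 A K1 (N' * q)) := by
  have S := S34P1C_setup2 A K1 hq hA N' hqN
  exact Fermat.Agent.S34_helper4_XCROSSK.S34XCK_A0 (N' * q) p A K1 hstab _ S
    (S34GM_inert A K1 hstab hq N' hqN)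
    (Fermat.Agent.S34_helper2_HARTOGSK.S34HK_vert S _ _ S.chart0)
    (Fermat.Agent.S34_helper29_PLACES.S34PL_placesAt (N' * q) A K1 hq hA S).1
    (S34FINAL3_locGen A K1 hstab hq hA N' hqN hopen)

end Level

/-- **the frozen statement of S34 from the modular relation and the three open sub-contracts of
X-LOCGEN** (`Node` = X-L2, `Ord`, `BranchB`) on the finite chart. -/
theorem S34FINAL3_of_open
    (hrel : ∀ (q : ℕ) (hq : q.Prime) (A : ValuationSubring Qb) (hA : A.LiesOverPrime q)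
      (K1 : IntermediateField ℚ Qb) (h : S18K_Admissible A K1 q),
      haveI : NeZero q := ⟨hq.ne_zero⟩
      S34CUSP_Rel (S18K_O A K1) (S18K_j K1) (qExpand K1 q (jqModC K1)) q ∧
        S34CUSP_Rel (S18K_O A K1) (qExpand K1 q (jqModC K1)) (S18K_j K1) q)
    (hopen : ∀ (N' q p : ℕ) [NeZero (N' * q)] (hq : q.Prime) (hp : p.Prime) (hpq : p ≠ q)
      (hqN : ¬ q ∣ N') (A : ValuationSubring Qb) (hA : A.LiesOverPrime q)
      (K1 : IntermediateField ℚ Qb) (h : S18K_Admissible A K1 q)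
      (hstab : ∀ σ : GQ, ∀ x ∈ K1, σ x ∈ K1),
      letI := h.dvr
      haveI := S34GM_neZero N' q
      S34FINAL3_Open A K1 hstab N' q hq hqN)
    {𝒪 : Type} [CommRing 𝒪] [IsDomain 𝒪] [IsDiscreteValuationRing 𝒪]
    [IsAdicComplete (maximalIdeal 𝒪) 𝒪] [Finite (ResidueField 𝒪)] [CharZero 𝒪]
    {p : ℕ} (hp : p.Prime) (hp𝒪 : (p : 𝒪) ∈ maximalIdeal 𝒪)
    {N : ℕ} [NeZero N] {S : Finset ℕ} (hpS : p ∈ S) (hNS : ∀ q : ℕ, q.Prime → q ∣ N → q ∈ S)
    {θ : CuspForm.heckeAlgebra N 2 (↑S : Set ℕ) →+* ResidueField 𝒪}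
    {T : Type} [CommRing T] [IsLocalRing T] [IsNoetherianRing T]
    [IsAdicComplete (maximalIdeal T) T] [Algebra 𝒪 T] [IsLocalHom (algebraMap 𝒪 T)]
    [Module.Finite 𝒪 T] [Module.Free 𝒪 T]
    (H : CuspForm.HeckeGaloisRepDatum N (↑S : Set ℕ) 𝒪 θ T)
    (q : ℕ) (hq : q.Prime) (hqp : q ≠ p) (hqN : q ∣ N) (hq2 : ¬ q ^ 2 ∣ N) :
    H.ρ.IsUnipotentOnInertiaAt q :=
  S34FINAL_of_geom
    (fun N' q p _ => S34GM_holds3 N' q p (fun hq hp hpq hqN A hA K1 h hstab => by
      letI := h.dvr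
      haveI := S34GM_neZero N' q
      obtain ⟨h1, h2⟩ := hrel q hq A hA K1 h
      exact S34GM2_rest A K1 hq hA N' hqN p h.res_surj h1
        (S34FINAL2_N1_A0 A K1 hq hA N' hqN h h1)
        (S34FINAL2_N1_Ainf A K1 hq hA N' hqN h h1 h2)
        (S34FINAL3_cross0 A K1 hstab hq hA N' hqN p
          (hopen N' q p hq hp hpq hqN A hA K1 h hstab))))
    hp hp𝒪 hpS hNS H q hq hqp hqN hq2

end Fermat.Agent.S34_helper27_FINAL3
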