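import Fermat.Agent.S34_helper27_FINAL3
import Fermat.Agent.S34_helper26_ORDC

/-!
# S34 (helper27): the final wiring, fourth form

`S34LGK_Ord` is discharged (helper26 `S34LOC_ord_A0`).  The frozen statement of S34 follows from

* `hrel`  : the modular relation `S34CUSP_Rel` in both orders (places over `q`, admissible
  levels);
* `hnode` : `S34LGK_Node` (X-L2: node coordinates at the crossing points of the finite chart);
* `hB`    : `S34LGK_BranchB` (a rational place which is deep at every stage is fixed by inertia).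
-/

set_option autoImplicit false
set_option linter.unusedSectionVars false
set_option linter.unusedVariables false
set_option linter.style.haveILetI false

open IsLocalRing
open CuspForm CuspForm.HeckeGaloisRepDatum
open ModularCurve
open Fermat.Agent.S18_helper25_COREDefs Fermat.Agent.S34_Contracts
open Fermat.Agent.S34_helper27_P1C
open Fermat.Agent.S34_helper27_GEOM Fermat.Agent.S34_helper27_GEOM2
open Fermat.Agent.S34_helper18_CUSP Fermat.Agent.S34_helper27_FINAL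
open Fermat.Agent.S34_helper27_FINAL2 Fermat.Agent.S34_helper27_FINAL3
open Fermat.Agent.S34_helper7_LGDefs

namespace Fermat.Agent.S34_helper27_FINAL4

local notation "Qb" => AlgebraicClosure ℚ
local notation "GQ" => (AlgebraicClosure ℚ ≃ₐ[ℚ] AlgebraicClosure ℚ)

section Level

variable (A : ValuationSubring Qb) (K1 : IntermediateField ℚ Qb)
  (hstab : ∀ σ : GQ, ∀ x ∈ K1, σ x ∈ K1) [IsDiscreteValuationRing (S18K_O1 A K1)]

/-- **the open sub-contracts** on the finite chart, for `V2 = w(V1)`: X-L2 and branch (B) -/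
def S34FINAL4_Open (N' q : ℕ) [NeZero N'] [NeZero (N' * q)] (hq : q.Prime)
    (hqN : ¬ q ∣ N') : Prop :=
  S34LGK_Node (N' * q) A K1 hstab (S34P1C_V2 A K1 hq N' hqN) (S18K_A0 A K1 (N' * q)) ∧
    S34LGK_BranchB (N' * q) A K1 hstab (S34P1C_V2 A K1 hq N' hqN) (S18K_A0 A K1 (N' * q))

/-- `S34LGK_Ord` on the finite chart (helper26) -/
theorem S34FINAL4_ord {q : ℕ} (hq : q.Prime) (hA : A.LiesOverPrime q) (N' : ℕ)
    [NeZero N'] [NeZero (N' * q)] (hqN : ¬ q ∣ N') :
    S34LGK_Ord (N' * q) A K1 hstab (S34P1C_V2 A K1 hq N' hqN) (S18K_A0 A K1 (N' * q)) :=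
  Fermat.Agent.S34_helper26_ORDC.S34LOC_ord_A0 (N' * q) A K1 hstab _
    (S34P1C_setup2 A K1 hq hA N' hqN)

theorem S34FINAL4_open3 {q : ℕ} (hq : q.Prime) (hA : A.LiesOverPrime q) (N' : ℕ)
    [NeZero N'] [NeZero (N' * q)] (hqN : ¬ q ∣ N')
    (hopen : S34FINAL4_Open A K1 hstab N' q hq hqN) :
    S34FINAL3_Open A K1 hstab N' q hq hqN :=
  ⟨hopen.1, S34FINAL4_ord A K1 hstab hq hA N' hqN, hopen.2⟩

end Level

/-- **the frozen statement of S34 from the modular relation, X-L2 and branch (B).** -/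
theorem S34FINAL4_of_open
    (hrel : ∀ (q : ℕ) (hq : q.Prime) (A : ValuationSubring Qb) (hA : A.LiesOverPrime q)
      (K1 : IntermediateField ℚ Qb) (h : S18K_Admissible A K1 q),
      haveI : NeZero q := ⟨hq.ne_zero⟩
      S34CUSP_Rel (S18K_O A K1) (S18K_j K1) (qExpand K1 q (jqModC K1)) q ∧
        S34CUSP_Rel (S18K_O A K1) (qExpand K1 q (jqModC K1)) (S18K_j K1) q)
    (hopen : ∀ (N' q p : ℕ) [NeZero (N' * q)] (hq : q.Prime) (hp : p.Prime) (hpq : p ≠ q)
      (hqN : ¬ q ∣ N') (A : ValuationSubring Qb) (hA : A.LiesOverPrime q)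
      (K1 : IntermediateField ℚ Qb) (h : S18K_Admissible A K1 q)
      (hstab : ∀ σ : GQ, ∀ x ∈ K1, σ x ∈ K1),
      letI := h.dvr
      haveI := S34GM_neZero N' q
      S34FINAL4_Open A K1 hstab N' q hq hqN)
    {𝒪 : Type} [CommRing 𝒪] [IsDomain 𝒪] [IsDiscreteValuationRing 𝒪]
    [IsAdicComplete (maximalIdeal 𝒪) 𝒪] [Finite (ResidueField 𝒪)] [CharZero 𝒪]
    {p : ℕ} (hp : p.Prime) (hp𝒪 : (p : 𝒪) ∈ maximalIdeal 𝒪)
    {N : ℕ} [NeZero N] {S : Finset ℕ} (hpS : p ∈ S) (hNS : ∀ q : ℕ, q.Prime → q ∣ N → q ∈ S)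
    {θ : CuspForm.heckeAlgebra N 2 (↑S : Set ℕ) →+* ResidueField 𝒪}
    {T : Type} [CommRing T] [IsLocalRing T] [IsNoetherianRing T]
    [IsAdicComplete (maximalIdeal T) T] [Algebra 𝒪 T] [IsLocalHom (algebraMap 𝒪 T)]
    [Module.Finite 𝒪 T] [Module.Free 𝒪 T]
    (H : CuspForm.HeckeGaloisRepDatum N (↑S : Set ℕ) 𝒪 θ T)
    (q : ℕ) (hq : q.Prime) (hqp : q ≠ p) (hqN : q ∣ N) (hq2 : ¬ q ^ 2 ∣ N) :
    H.ρ.IsUnipotentOnInertiaAt q :=
  S34FINAL3_of_open hrel
    (fun N' q p _ hq hp hpq hqN A hA K1 h hstab => by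
      letI := h.dvr
      haveI := S34GM_neZero N' q
      exact S34FINAL4_open3 A K1 hstab hq hA N' hqN
        (hopen N' q p hq hp hpq hqN A hA K1 h hstab))
    hp hp𝒪 hpS hNS H q hq hqp hqN hq2

end Fermat.Agent.S34_helper27_FINAL4
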