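import Fermat.Agent.S34_helper27_GEOM
import Fermat.Agent.S34_helper18_INF
import Fermat.Agent.S18_helper18_IGINFL
import Fermat.Agent.S18_helper12_BRIDGE

/-!
# S34 (helper27): the chart at infinity in the geometric assembly

For the concrete carriers at level `N' * q` and `V2 = w(V1)`:

* `S34GM2_isAlgClosed` : the residue field of the constants `S18K_O A K1` is algebraically
  closed (admissible `K1`);
* `S34GM2_hres`       : every element of the chart at infinity is congruent to a constant modulo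
  a maximal ideal containing `π`;
* `S34GM2_cuspData`   : the cusp inputs of helper18's `S34INF_crossAt` for `θ = j(q^q)`
  (`θ ∈ F1`, Kronecker congruences at `V1` and `V2`, `θ, θ⁻¹ ∈ V2`);
* `S34GM2_crossInf`   : `S34K_Cross` on the finite chart ⟹ `S34K_Cross` on the chart at infinity
  (only input: the modular relation `hrel`, helper8's MODEQ);
* `S34GM2_N1inf`      : `S34K_N1` on the finite chart + `IGAt` at the cusps ⟹ `S34K_N1` on the
  chart at infinity;
* `S34GM2_rest`, `S34GM2_holds3` : the assembler with the half at infinity discharged.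
-/

set_option autoImplicit false
set_option linter.unusedSectionVars false
set_option linter.unusedVariables false
set_option linter.style.haveILetI false

noncomputable section

open ModularCurve
open Fermat.Agent.S18_helper13_GAUSS Fermat.Agent.S18_helper9_CDefs
open Fermat.Agent.S18_helper25_COREDefs Fermat.Agent.S34_helper12_CDefs
open Fermat.Agent.S34_helper27_C2Defs Fermat.Agent.S34_Contracts
open Fermat.Agent.S34_helper27_P1C Fermat.Agent.S34_helper27_GEOM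
open Fermat.Agent.S34_helper20_V0 Fermat.Agent.S34_helper20_V0K
open Fermat.Agent.S34_helper18_INF Fermat.Agent.S34_helper18_CUSP
open Fermat.Agent.S18_helper3_LOCRING

namespace Fermat.Agent.S34_helper27_GEOM2

local notation "Qb" => AlgebraicClosure ℚ
local notation "GQ" => (AlgebraicClosure ℚ ≃ₐ[ℚ] AlgebraicClosure ℚ)

variable (A : ValuationSubring Qb) (K1 : IntermediateField ℚ Qb)

set_option synthInstance.maxHeartbeats 400000 in
/-- the residue field of the ring of constants is algebraically closed -/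
theorem S34GM2_isAlgClosed [IsDiscreteValuationRing (S18K_O1 A K1)]
    (hsurj : Function.Surjective (S18K_res A K1)) [IsLocalRing (S18K_O A K1)] :
    IsAlgClosed (IsLocalRing.ResidueField (S18K_O A K1)) := by
  haveI : IsAlgClosed (IsLocalRing.ResidueField A) :=
    Fermat.Agent.S18_helper27_RESALGCL.S18RES_isAlgClosed_residueField_Qbar A
  have key : ∀ (X : Subring (LaurentSeries K1)),
      Fermat.Agent.S18A.OL (S18K_O1 A K1) K1 = X → ∀ [IsLocalRing X],
        IsAlgClosed (IsLocalRing.ResidueField X) := by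
    intro X hX
    subst hX
    intro _
    exact Fermat.Agent.S18_helper18_IGINFL.S18IGINFL_isAlgClosed_OL
      (S18K_res A K1) (S18K_res_eq_zero_iff A K1) hsurj
  exact key _ (Fermat.Agent.S18_helper12_BRIDGE.S18BR_OL_eq A K1)

section Abstract

variable {L : Type} [Field L] {O : Subring L} {π j : L} {F1 : Subfield L}
  {V1 V2 A0 Ainf : Subring L}

/-- the maximal ideal of `O` is generated by `π` (two-valuation setup) -/
theorem S34GM2_pi_gen (S : S34C_Setup2 O π j F1 V1 V2 A0 Ainf) [IsLocalRing O] :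
    ∀ c ∈ IsLocalRing.maximalIdeal O, ∃ c' : O, c = (⟨π, S.π_mem⟩ : O) * c' := by
  have := S.dvr
  intro c hc
  have h1 : IsLocalRing.maximalIdeal O = Ideal.span {(⟨π, S.π_mem⟩ : O)} :=
    (IsDiscreteValuationRing.irreducible_iff_uniformizer _).mp (S.π_irr S.π_mem)
  rw [h1, Ideal.mem_span_singleton] at hc
  exact hc

/-- **`hres`** for the chart at infinity of a two-valuation setup -/
theorem S34GM2_hres_abs (S : S34C_Setup2 O π j F1 V1 V2 A0 Ainf) [IsLocalRing O]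
    [IsAlgClosed (IsLocalRing.ResidueField O)]
    (m : Ideal Ainf) (hm : m.IsMaximal)
    (hπm : (⟨π, S34INF_O_le_Ainf S S.π_mem⟩ : Ainf) ∈ m) (z : Ainf) :
    ∃ c : L, ∃ hc : c ∈ O, z - ⟨c, S34INF_O_le_Ainf S hc⟩ ∈ m :=
  Fermat.Agent.S18_helper18_IGINF.S18IGINF_hres_gen j⁻¹ Ainf S.π_mem (S34GM2_pi_gen S)
    (S34INF_O_le_Ainf S) (S34CUSP_jinv_mem S)
    (fun y hy => ((S.chartInf.mem_iff y).mp hy).1) m hm hπm z

/-- **`hres`** for the finite chart of a two-valuation setup -/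
theorem S34GM2_hres0_abs (S : S34C_Setup2 O π j F1 V1 V2 A0 Ainf) [IsLocalRing O]
    [IsAlgClosed (IsLocalRing.ResidueField O)]
    (m : Ideal A0) (hm : m.IsMaximal)
    (hπm : (⟨π, S34INF_O_le_A0 S S.π_mem⟩ : A0) ∈ m) (z : A0) :
    ∃ c : L, ∃ hc : c ∈ O, z - ⟨c, S34INF_O_le_A0 S hc⟩ ∈ m :=
  Fermat.Agent.S18_helper18_IGINF.S18IGINF_hres_gen j A0 S.π_mem (S34GM2_pi_gen S)
    (S34INF_O_le_A0 S) (S34INF_j_mem S)
    (fun y hy => ((S.chart0.mem_iff y).mp hy).1) m hm hπm z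

end Abstract

variable [IsDiscreteValuationRing (S18K_O1 A K1)]

/-- **the cusp data** for `θ = j(q^q)`: the inputs of helper18's `S34INF_crossAt` /
`S34INF_cusp_not_thru` other than the modular relation. -/
theorem S34GM2_cuspData {q : ℕ} [NeZero q] (hq : q.Prime) (hA : A.LiesOverPrime q) (N' : ℕ)
    [NeZero N'] [NeZero (N' * q)] (hqN : ¬ q ∣ N') :
    qExpand K1 q (jqModC K1) ∈ S18K_F1 K1 (N' * q) ∧
      (∃ v ∈ S18K_V A K1 (N' * q),
        qExpand K1 q (jqModC K1) - S18K_j K1 ^ q = S18K_π A K1 * v) ∧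
      (∃ v ∈ S34P1C_V2 A K1 hq N' hqN,
        S18K_j K1 - qExpand K1 q (jqModC K1) ^ q = S18K_π A K1 * v) ∧
      qExpand K1 q (jqModC K1) ∈ S34P1C_V2 A K1 hq N' hqN ∧
      (qExpand K1 q (jqModC K1))⁻¹ ∈ S34P1C_V2 A K1 hq N' hqN := by
  have hθF : qExpand K1 q (jqModC K1) ∈ modularFunctionFieldFullC K1 (N' * q) :=
    S34V0K_jq_mem_F K1 q N' (N' * q) hq hqN (Nat.mul_comm N' q)
  refine ⟨hθF, S34V0K_frob1 A K1 q N' (N' * q) hq hqN (Nat.mul_comm N' q) hA,
    S34V0K_frob A K1 q N' (N' * q) hq hqN (Nat.mul_comm N' q) hA,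
    S34V0K_jq_mem A K1 q N' (N' * q) hq hqN (Nat.mul_comm N' q), ?_⟩
  refine ⟨inv_mem hθF, ?_⟩
  rw [S34V0_wL_inv (S34V0K_emb K1) q N' (N' * q) hq hqN (Nat.mul_comm N' q) hθF,
    S34V0_wL_jq (S34V0K_emb K1) q N' (N' * q) hq hqN (Nat.mul_comm N' q)]
  exact ((S34P1C_setup2 A K1 hq hA N' hqN).chart0.x_inv_mem).1

/-- **`hres`** for the concrete chart at infinity -/
theorem S34GM2_hres {q : ℕ} (hq : q.Prime) (hA : A.LiesOverPrime q) (N' : ℕ) [NeZero N']
    [NeZero (N' * q)] (hqN : ¬ q ∣ N') (hsurj : Function.Surjective (S18K_res A K1))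
    (m : Ideal (S18K_Ainf A K1 (N' * q))) (hm : m.IsMaximal)
    (hπm : (⟨S18K_π A K1, S34INF_O_le_Ainf (S34P1C_setup2 A K1 hq hA N' hqN)
      (S34P1C_setup2 A K1 hq hA N' hqN).π_mem⟩ : S18K_Ainf A K1 (N' * q)) ∈ m)
    (z : S18K_Ainf A K1 (N' * q)) :
    ∃ c : LaurentSeries K1, ∃ hc : c ∈ S18K_O A K1,
      z - ⟨c, S34INF_O_le_Ainf (S34P1C_setup2 A K1 hq hA N' hqN) hc⟩ ∈ m := by
  have S := S34P1C_setup2 A K1 hq hA N' hqN
  haveI := S.dvr
  haveI : IsAlgClosed (IsLocalRing.ResidueField (S18K_O A K1)) :=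
    S34GM2_isAlgClosed A K1 hsurj
  exact S34GM2_hres_abs S m hm hπm z

/-- **X-CROSS on the chart at infinity** from X-CROSS on the finite chart.
The only input is the modular relation between `j` and `θ = j(q^q)` (helper8's MODEQ). -/
theorem S34GM2_crossInf {q : ℕ} (hq : q.Prime) (hA : A.LiesOverPrime q) (N' : ℕ) [NeZero N']
    [NeZero (N' * q)] (hqN : ¬ q ∣ N') (p : ℕ) (hsurj : Function.Surjective (S18K_res A K1))
    (hrel : haveI : NeZero q := ⟨hq.ne_zero⟩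
      S34CUSP_Rel (S18K_O A K1) (S18K_j K1) (qExpand K1 q (jqModC K1)) q)
    (hC0 : S34K_Cross (N' * q) p A K1 (S34P1C_V2 A K1 hq N' hqN) (S18K_A0 A K1 (N' * q))) :
    S34K_Cross (N' * q) p A K1 (S34P1C_V2 A K1 hq N' hqN) (S18K_Ainf A K1 (N' * q)) := by
  haveI : NeZero q := ⟨hq.ne_zero⟩
  have S := S34P1C_setup2 A K1 hq hA N' hqN
  obtain ⟨hθ, hK1, hK2, hθ2, hθ2'⟩ := S34GM2_cuspData A K1 hq hA N' hqN
  intro τ' τ hτ' hτ D hD f hf hf0 hfV hfV' hord hπ m hm hπm h1 h2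
  exact S34INF_crossAt S hq.two_le hθ hrel hK1 hK2 hθ2 hθ2'
    (fun m hm hπm z => S34GM2_hres A K1 hq hA N' hqN hsurj m hm hπm z) p f
    (fun hπ0 m0 hm0 hπm0 h10 h20 =>
      hC0 τ' τ hτ' hτ D hD f hf hf0 hfV hfV' hord hπ0 m0 hm0 hπm0 h10 h20)
    hπ m hm hπm h1 h2

/-- **(N1) on the chart at infinity** from (N1) on the finite chart and `IGAt` at the cusps
(wrapper of helper18's `S34INF_N1`). -/
theorem S34GM2_N1inf {q : ℕ} (hq : q.Prime) (hA : A.LiesOverPrime q) (N' : ℕ) [NeZero N']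
    [NeZero (N' * q)] (hqN : ¬ q ∣ N') (hsurj : Function.Surjective (S18K_res A K1))
    (hN0 : S34K_N1 (S18K_π A K1) (S18K_V A K1 (N' * q)) (S34P1C_V2 A K1 hq N' hqN)
      (S18K_A0 A K1 (N' * q)))
    (hcusp : ∀ (hπ : S18K_π A K1 ∈ S18K_Ainf A K1 (N' * q))
      (hu : (S18K_j K1)⁻¹ ∈ S18K_Ainf A K1 (N' * q))
      (m : Ideal (S18K_Ainf A K1 (N' * q))), m.IsMaximal →
      (⟨S18K_π A K1, hπ⟩ : S18K_Ainf A K1 (N' * q)) ∈ m →
      (⟨(S18K_j K1)⁻¹, hu⟩ : S18K_Ainf A K1 (N' * q)) ∈ m →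
      ¬ (S34K_Thru (S18K_π A K1) (S18K_V A K1 (N' * q)) (S18K_Ainf A K1 (N' * q)) m ∧
        S34K_Thru (S18K_π A K1) (S34P1C_V2 A K1 hq N' hqN) (S18K_Ainf A K1 (N' * q)) m) →
      IGAt (S18K_π A K1) (S18K_Ainf A K1 (N' * q)) m) :
    S34K_N1 (S18K_π A K1) (S18K_V A K1 (N' * q)) (S34P1C_V2 A K1 hq N' hqN)
      (S18K_Ainf A K1 (N' * q)) := by
  have S := S34P1C_setup2 A K1 hq hA N' hqN
  exact S34INF_N1 S (fun m hm hπm z => S34GM2_hres A K1 hq hA N' hqN hsurj m hm hπm z) hN0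
    (fun m hm hπm hjm hnot => hcusp _ _ m hm hπm hjm hnot)

/-- **the remaining contract** with X-CROSS at infinity discharged -/
theorem S34GM2_rest {q : ℕ} (hq : q.Prime) (hA : A.LiesOverPrime q) (N' : ℕ) [NeZero N']
    [NeZero (N' * q)] (hqN : ¬ q ∣ N') (p : ℕ) (hsurj : Function.Surjective (S18K_res A K1))
    (hrel : haveI : NeZero q := ⟨hq.ne_zero⟩
      S34CUSP_Rel (S18K_O A K1) (S18K_j K1) (qExpand K1 q (jqModC K1)) q)
    (hN0 : S34K_N1 (S18K_π A K1) (S18K_V A K1 (N' * q)) (S34P1C_V2 A K1 hq N' hqN)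
      (S18K_A0 A K1 (N' * q)))
    (hNinf : S34K_N1 (S18K_π A K1) (S18K_V A K1 (N' * q)) (S34P1C_V2 A K1 hq N' hqN)
      (S18K_Ainf A K1 (N' * q)))
    (hC0 : S34K_Cross (N' * q) p A K1 (S34P1C_V2 A K1 hq N' hqN) (S18K_A0 A K1 (N' * q))) :
    S34GM_Rest A K1 N' q p hq hqN :=
  ⟨hN0, hNinf, hC0, S34GM2_crossInf A K1 hq hA N' hqN p hsurj hrel hC0⟩

/-- what remains after the chart at infinity has been dealt with: the modular relation,
`(N1)` on both charts and X-CROSS on the finite chart. -/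
def S34GM2_Rest (N' q p : ℕ) [NeZero N'] [NeZero (N' * q)] (hq : q.Prime) (hqN : ¬ q ∣ N') :
    Prop :=
  S34K_N1 (S18K_π A K1) (S18K_V A K1 (N' * q)) (S34P1C_V2 A K1 hq N' hqN)
      (S18K_A0 A K1 (N' * q)) ∧
    S34K_N1 (S18K_π A K1) (S18K_V A K1 (N' * q)) (S34P1C_V2 A K1 hq N' hqN)
      (S18K_Ainf A K1 (N' * q)) ∧
    S34K_Cross (N' * q) p A K1 (S34P1C_V2 A K1 hq N' hqN) (S18K_A0 A K1 (N' * q))

end Fermat.Agent.S34_helper27_GEOM2

namespace Fermat.Agent.S34_helper27_GEOM2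

local notation "Qb" => AlgebraicClosure ℚ
local notation "GQ" => (AlgebraicClosure ℚ ≃ₐ[ℚ] AlgebraicClosure ℚ)

/-- **`S34K_GeomHolds3`** from the modular relation, `(N1)` on both charts and X-CROSS on the
finite chart. -/
theorem S34GM2_holds3 (N' q p : ℕ) [NeZero (N' * q)]
    (hrel : ∀ (hq : q.Prime) (A : ValuationSubring Qb) (K1 : IntermediateField ℚ Qb),
      haveI : NeZero q := ⟨hq.ne_zero⟩
      S34CUSP_Rel (S18K_O A K1) (S18K_j K1) (qExpand K1 q (jqModC K1)) q)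
    (hrest : ∀ (hq : q.Prime) (hp : p.Prime) (hpq : p ≠ q) (hqN : ¬ q ∣ N')
      (A : ValuationSubring Qb) (hA : A.LiesOverPrime q)
      (K1 : IntermediateField ℚ Qb) (h : S18K_Admissible A K1 q)
      (hstab : ∀ σ : GQ, ∀ x ∈ K1, σ x ∈ K1),
      letI := h.dvr
      haveI := S34GM_neZero N' q
      S34GM2_Rest A K1 N' q p hq hqN) :
    S34K_GeomHolds3 N' q p := by
  refine S34GM_holds3 N' q p (fun hq hp hpq hqN A hA K1 h hstab => ?_)
  letI := h.dvr
  haveI := S34GM_neZero N' q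
  obtain ⟨h1, h2, h3⟩ := hrest hq hp hpq hqN A hA K1 h hstab
  exact S34GM2_rest A K1 hq hA N' hqN p h.res_surj (hrel hq A K1) h1 h2 h3

end Fermat.Agent.S34_helper27_GEOM2
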