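import Mathlib
import Fermat.Agent.S18_helper9_CDefs
import Fermat.Agent.S18_helper9_CBasic
import Fermat.Agent.S18_helper3_LOCRING
import Fermat.Agent.S18_helper25_P3
import Fermat.Agent.S18_helper20_CSAT
import Fermat.Agent.S34_helper12_CDefs
import Fermat.Agent.S34_helper27_C2Defs
import Fermat.Agent.S34_helper27_V3

set_option autoImplicit false
set_option linter.style.haveILetI false
set_option linter.unusedVariables false
set_option linter.unusedSectionVars false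

/-!
# S34, P1c (helper27): charts in an ARBITRARY coordinate from "no third valuation"

`O` a discrete valuation ring with uniformiser `π`, `x` transcendental over `O`, `F1 ∋ x` a field
algebraic over `Frac(O)(x)`.  The *Gauss ring* of `O[x]` is the localisation
`S34V3G_gauss = O[x]_(π)`.  Let `V ⊆ F1` be integrally closed in `F1`, containing `O[x]`, with
`π` a non-unit, such that

* `hGV` : Gauss units of `O[x]` are units of `V`;
* `hnt` : every valuation ring `W` of `F1` above the Gauss ring contains `V`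
  ("`V` is the intersection of ALL extensions of the Gauss valuation");

then `V` is integral over the Gauss ring (`S34V3G_key`) and `icl (adj O x) F1` is a chart relative
to `V` (`S34V3G_chart`: `le_V`, `sat`, `loc`).
-/

namespace Fermat.Agent.S34_helper27_V3G

open Fermat.Agent.S18_helper9_CDefs Fermat.Agent.S18_helper9_CBasic
  Fermat.Agent.S18_helper3_LOCRING Fermat.Agent.S18_helper25_P3
  Fermat.Agent.S18_helper20_CSAT Fermat.Agent.S34_helper12_CDefs
  Fermat.Agent.S34_helper27_C2Defs Fermat.Agent.S34_helper27_V3 Polynomial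

variable {L : Type*} [Field L]

section Gauss

variable (O : Subring L) [hO : IsDiscreteValuationRing O] (π x : L) (hπO : π ∈ O)
  (hπirr : Irreducible (⟨π, hπO⟩ : O)) (hxt : Transcendental O x)

/-- `π` as an element of `O[x]` -/
def S34V3G_πx : adj O x := ⟨π, CSAT_O_le_adj O x hπO⟩

include hπirr hxt in
theorem S34V3G_prime : Prime (S34V3G_πx O π x hπO) := CSAT_prime_adj O x hxt π hπO hπirr

include hπirr hxt in
theorem S34V3G_isPrime : (Ideal.span {S34V3G_πx O π x hπO}).IsPrime :=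
  (Ideal.span_singleton_prime (S34V3G_prime O π x hπO hπirr hxt).ne_zero).mpr
    (S34V3G_prime O π x hπO hπirr hxt)

omit hO in
theorem S34V3G_notMem_iff (s : adj O x) :
    s ∉ Ideal.span {S34V3G_πx O π x hπO} ↔ ∀ a ∈ adj O x, (s : L) ≠ π * a := by
  rw [Ideal.mem_span_singleton]
  constructor
  · intro h a ha hs
    exact h ⟨⟨a, ha⟩, Subtype.ext hs⟩
  · rintro h ⟨a, ha⟩
    exact h a a.2 (by rw [ha]; rfl)

end Gauss

section Main

variable {O : Subring L} {π x : L} {F1 : Subfield L} {V : Subring L}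

/-- factorisation `d = π ^ n * s` with `s` a Gauss unit -/
theorem S34V3G_factor (hO : IsDiscreteValuationRing O) (hπO : π ∈ O)
    (hπirr : Irreducible (⟨π, hπO⟩ : O)) (hxt : Transcendental O x) (d : adj O x) (hd : d ≠ 0) :
    ∃ (n : ℕ) (s : adj O x), s ∉ Ideal.span {S34V3G_πx O π x hπO} ∧
      d = S34V3G_πx O π x hπO ^ n * s := by
  haveI := hO
  haveI : UniqueFactorizationMonoid (adj O x) :=
    (CSAT_adjEquiv O x hxt).toMulEquiv.uniqueFactorizationMonoid inferInstance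
  have hirr : Irreducible (S34V3G_πx O π x hπO) := (S34V3G_prime O π x hπO hπirr hxt).irreducible
  obtain ⟨n, s, hs, hds⟩ := WfDvdMonoid.max_power_factor hd hirr
  exact ⟨n, s, fun h => hs (Ideal.mem_span_singleton.mp h), hds⟩


/-- the Gauss ring `O[x]_(π)` as a subring of `L` -/
def S34V3G_gauss (O : Subring L) (π x : L) (hO : IsDiscreteValuationRing O) (hπO : π ∈ O)
    (hπirr : Irreducible (⟨π, hπO⟩ : O)) (hxt : Transcendental O x) : Subring L :=
  @locRing L _ (adj O x) (Ideal.span {S34V3G_πx O π x hπO})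
    (@S34V3G_isPrime L _ O hO π x hπO hπirr hxt)

theorem S34V3G_mem_gauss (hO : IsDiscreteValuationRing O) (hπO : π ∈ O)
    (hπirr : Irreducible (⟨π, hπO⟩ : O)) (hxt : Transcendental O x) {y : L} :
    y ∈ S34V3G_gauss O π x hO hπO hπirr hxt ↔
      ∃ a s : adj O x, s ∉ Ideal.span {S34V3G_πx O π x hπO} ∧ y * (s : L) = a := Iff.rfl

theorem S34V3G_adj_le_gauss (hO : IsDiscreteValuationRing O) (hπO : π ∈ O)
    (hπirr : Irreducible (⟨π, hπO⟩ : O)) (hxt : Transcendental O x) :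
    adj O x ≤ S34V3G_gauss O π x hO hπO hπirr hxt := by
  haveI := @S34V3G_isPrime L _ O hO π x hπO hπirr hxt
  exact le_locRing (adj O x) _

theorem S34V3G_inv_mem_gauss (hO : IsDiscreteValuationRing O) (hπO : π ∈ O)
    (hπirr : Irreducible (⟨π, hπO⟩ : O)) (hxt : Transcendental O x) {s : adj O x}
    (hs : s ∉ Ideal.span {S34V3G_πx O π x hπO}) :
    ((s : L))⁻¹ ∈ S34V3G_gauss O π x hO hπO hπirr hxt := by
  haveI := @S34V3G_isPrime L _ O hO π x hπO hπirr hxt
  exact inv_mem_locRing (adj O x) _ hs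

theorem S34V3G_adj_le_F1 (hOF : (O : Set L) ⊆ F1) (hxF : x ∈ F1) : ∀ a ∈ adj O x, a ∈ F1 := by
  have hle : adj O x ≤ F1.toSubring := by
    unfold adj
    rw [Subring.closure_le]
    rintro y (hy | hy)
    · exact hOF hy
    · rw [Set.mem_singleton_iff] at hy
      rw [hy]; exact hxF
  exact fun a ha => hle ha

theorem S34V3G_gauss_le_F1 (hO : IsDiscreteValuationRing O) (hπO : π ∈ O)
    (hπirr : Irreducible (⟨π, hπO⟩ : O)) (hxt : Transcendental O x)
    (hOF : (O : Set L) ⊆ F1) (hxF : x ∈ F1) :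
    ∀ y ∈ S34V3G_gauss O π x hO hπO hπirr hxt, y ∈ F1 := by
  rintro y ⟨a, s, hs, hys⟩
  have hs0 : (s : L) ≠ 0 := by
    intro h0
    apply hs
    have : s = 0 := Subtype.ext h0
    rw [this]
    exact Ideal.zero_mem _
  have : y = (a : L) * ((s : L))⁻¹ := by
    rw [← hys]; field_simp
  rw [this]
  exact F1.mul_mem (S34V3G_adj_le_F1 hOF hxF _ a.2)
    (F1.inv_mem (S34V3G_adj_le_F1 hOF hxF _ s.2))

/-- the Gauss ring is contained in `V` -/
theorem S34V3G_gauss_le (hO : IsDiscreteValuationRing O) (hπO : π ∈ O)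
    (hπirr : Irreducible (⟨π, hπO⟩ : O)) (hxt : Transcendental O x)
    (hadjV : adj O x ≤ V)
    (hGV : ∀ s ∈ adj O x, (∀ a ∈ adj O x, s ≠ π * a) → s⁻¹ ∈ V) :
    S34V3G_gauss O π x hO hπO hπirr hxt ≤ V := by
  rintro y ⟨a, s, hs, hys⟩
  have hs0 : (s : L) ≠ 0 := by
    intro h0
    apply hs
    have : s = 0 := Subtype.ext h0
    rw [this]
    exact Ideal.zero_mem _
  have : y = (a : L) * ((s : L))⁻¹ := by
    rw [← hys]; field_simp
  rw [this]
  exact V.mul_mem (hadjV a.2) (hGV _ s.2 ((S34V3G_notMem_iff O π x hπO s).mp hs))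

/-- transfer of integrality between `L` and the subfield `F1` -/
theorem S34V3G_isIntegral_sub (G : Subring L) (hGF : ∀ y ∈ G, y ∈ F1) (y : F1) :
    IsIntegral (G.comap F1.subtype) y ↔ IsIntegral G (y : L) := by
  constructor
  · intro h
    let φ : G.comap F1.subtype →+* G :=
      (F1.subtype.comp (G.comap F1.subtype).subtype).codRestrict G (fun z => z.2)
    exact h.map_of_comp_eq φ F1.subtype (by ext; rfl)
  · rintro ⟨P, hP, hPy⟩
    let φ' : G →+* G.comap F1.subtype :=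
      ((G.subtype).codRestrict F1 (fun z => hGF _ z.2)).codRestrict (G.comap F1.subtype)
        (fun z => z.2)
    refine ⟨P.map φ', hP.map _, ?_⟩
    rw [eval₂_map]
    apply F1.subtype_injective
    rw [Polynomial.hom_eval₂, map_zero]
    exact hPy

/-- **KEY in an arbitrary coordinate**: if every valuation ring of `F1` above the Gauss ring of
`O[x]` contains `V`, then `V` is integral over the Gauss ring. -/
theorem S34V3G_key (hO : IsDiscreteValuationRing O) (hπO : π ∈ O)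
    (hπirr : Irreducible (⟨π, hπO⟩ : O)) (hxt : Transcendental O x)
    (hOF : (O : Set L) ⊆ F1) (hxF : x ∈ F1)
    (halg : ∀ v ∈ F1, IsAlgebraic (adj O x) v) (hVF : (V : Set L) ⊆ F1)
    (hnt : ∀ W : Subring L, S34C2_Val π F1 W → adj O x ≤ W →
      (∀ s ∈ adj O x, (∀ a ∈ adj O x, s ≠ π * a) → s⁻¹ ∈ W) → V ≤ W) :
    ∀ v ∈ V, IsIntegral (S34V3G_gauss O π x hO hπO hπirr hxt) v := by
  intro v hvV
  by_contra hv
  set Gx := S34V3G_gauss O π x hO hπO hπirr hxt with hGx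
  have hGF : ∀ y ∈ Gx, y ∈ F1 := S34V3G_gauss_le_F1 hO hπO hπirr hxt hOF hxF
  have hadjG : adj O x ≤ Gx := S34V3G_adj_le_gauss hO hπO hπirr hxt
  have hadjF := S34V3G_adj_le_F1 hOF hxF
  set GK : Subring F1 := Gx.comap F1.subtype with hGK
  set R : Subring F1 := (integralClosure GK F1).toSubring with hR
  have hmemR : ∀ y : F1, y ∈ R ↔ IsIntegral Gx (y : L) := fun y =>
    S34V3G_isIntegral_sub Gx hGF y
  have hvR : (⟨v, hVF hvV⟩ : F1) ∉ R := fun h => hv ((hmemR _).mp h)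
  haveI : IsIntegrallyClosedIn R F1 :=
    inferInstanceAs (IsIntegrallyClosedIn (integralClosure GK F1) F1)
  obtain ⟨W, hRW, hvW⟩ := Subring.exists_le_valuationSubring_of_isIntegrallyClosedIn hvR
  -- elements of `F1` integral over `Gx` lie in `W`
  have hintW : ∀ y : L, ∀ hy : y ∈ F1, IsIntegral Gx y → (⟨y, hy⟩ : F1) ∈ W := fun y hy h =>
    hRW ((hmemR ⟨y, hy⟩).mpr h)
  have hGW : ∀ y : L, ∀ hy : y ∈ Gx, (⟨y, hGF y hy⟩ : F1) ∈ W := fun y hy =>
    hintW y _ (isIntegral_of_mem Gx hy)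
  set WL : Subring L := W.toSubring.map F1.subtype with hWL
  have hmemWL : ∀ y : L, y ∈ WL ↔ ∃ hy : y ∈ F1, (⟨y, hy⟩ : F1) ∈ W := by
    intro y
    constructor
    · rintro ⟨y', hy', rfl⟩
      exact ⟨y'.2, hy'⟩
    · rintro ⟨hy, hyW⟩
      exact ⟨⟨y, hy⟩, hyW, rfl⟩
  have hGWL : Gx ≤ WL := fun y hy => (hmemWL y).mpr ⟨hGF y hy, hGW y hy⟩
  have hvWL : v ∉ WL := fun h => by
    obtain ⟨hy, hyW⟩ := (hmemWL v).mp h
    exact hvW hyW
  have hGunit : ∀ s ∈ adj O x, (∀ a ∈ adj O x, s ≠ π * a) → s⁻¹ ∈ WL := by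
    intro s hs hsπ
    exact hGWL (S34V3G_inv_mem_gauss hO hπO hπirr hxt
      ((S34V3G_notMem_iff O π x hπO ⟨s, hs⟩).mpr hsπ))
  have hπWL : π ∈ WL := hGWL (hadjG (CSAT_O_le_adj O x hπO))
  by_cases hπinv : π⁻¹ ∈ WL
  · -- `W` contains the fraction field of `O[x]`
    apply hvWL
    obtain ⟨d, hd0, hdv⟩ := (halg v (hVF hvV)).exists_integral_multiple
    have hdv' : IsIntegral (adj O x) ((d : L) * v) := by
      rw [Algebra.smul_def] at hdv
      exact hdv
    have hdvW : (d : L) * v ∈ WL :=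
      (hmemWL _).mpr ⟨F1.mul_mem (hadjF _ d.2) (hVF hvV),
        hintW _ _ (isIntegral_mono hadjG hdv')⟩
    obtain ⟨n, s, hs, hds⟩ := S34V3G_factor hO hπO hπirr hxt d hd0
    have hdL : (d : L) = π ^ n * (s : L) := by
      have := congrArg (fun z : adj O x => (z : L)) hds
      simpa [S34V3G_πx] using this
    have hs0 : (s : L) ≠ 0 := by
      intro h0
      apply hd0
      apply Subtype.ext
      rw [hdL, h0, mul_zero]
      rfl
    have hπ0 : π ≠ 0 := by
      intro h0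
      have : (⟨π, hπO⟩ : O) = 0 := Subtype.ext h0
      exact hπirr.ne_zero this
    have hdinv : ((d : L))⁻¹ ∈ WL := by
      rw [hdL, mul_inv, ← inv_pow]
      exact WL.mul_mem (WL.pow_mem hπinv n)
        (hGWL (S34V3G_inv_mem_gauss hO hπO hπirr hxt hs))
    have hd0L : (d : L) ≠ 0 := by
      rw [hdL]
      exact mul_ne_zero (pow_ne_zero n hπ0) hs0
    have : v = ((d : L))⁻¹ * ((d : L) * v) := by
      rw [← mul_assoc, inv_mul_cancel₀ hd0L, one_mul]
    rw [this]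
    exact WL.mul_mem hdinv hdvW
  · -- `W` is a valuation ring of `F1` above the Gauss ring
    apply hvWL
    refine hnt WL ⟨?_, ?_, hπWL, hπinv⟩ (hadjG.trans hGWL) hGunit hvV
    · rintro y hy
      obtain ⟨hyF, -⟩ := (hmemWL y).mp hy
      exact hyF
    · intro y hy
      rcases W.mem_or_inv_mem ⟨y, hy⟩ with h | h
      · exact Or.inl ((hmemWL y).mpr ⟨hy, h⟩)
      · exact Or.inr ((hmemWL _).mpr ⟨F1.inv_mem hy, h⟩)


/-- **Chart in an arbitrary coordinate** from "no third valuation above the Gauss ring". -/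
theorem S34V3G_chart (hO : IsDiscreteValuationRing O) (hπO : π ∈ O)
    (hπirr : Irreducible (⟨π, hπO⟩ : O)) (hxt : Transcendental O x)
    (hOF : (O : Set L) ⊆ F1) (hxF : x ∈ F1)
    (halg : ∀ v ∈ F1, IsAlgebraic (adj O x) v) (hVF : (V : Set L) ⊆ F1)
    (hVic : ∀ y ∈ F1, IsIntegral V y → y ∈ V)
    (hOV : O ≤ V) (hxV : x ∈ V) (hxV' : x⁻¹ ∈ V) (hπV : π⁻¹ ∉ V)
    (hGV : ∀ s ∈ adj O x, (∀ a ∈ adj O x, s ≠ π * a) → s⁻¹ ∈ V)
    (hnt : ∀ W : Subring L, S34C2_Val π F1 W → adj O x ≤ W →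
      (∀ s ∈ adj O x, (∀ a ∈ adj O x, s ≠ π * a) → s⁻¹ ∈ W) → V ≤ W) :
    Chart O π x F1 V (icl (adj O x) F1) := by
  haveI := hO
  set Gx := S34V3G_gauss O π x hO hπO hπirr hxt with hGx
  have hadjV : adj O x ≤ V := adj_le hOV hxV
  have hGxV : Gx ≤ V := S34V3G_gauss_le hO hπO hπirr hxt hadjV hGV
  have hadjF := S34V3G_adj_le_F1 hOF hxF
  have hπ0 : π ≠ 0 := by
    intro h0
    have : (⟨π, hπO⟩ : O) = 0 := Subtype.ext h0
    exact hπirr.ne_zero this
  have hkey := S34V3G_key hO hπO hπirr hxt hOF hxF halg hVF hnt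
  -- denominators
  have hlocG : ∀ c ∈ Gx, ∃ b ∈ adj O x, b ≠ 0 ∧ b⁻¹ ∈ Gx ∧ c * b ∈ adj O x := by
    rintro c ⟨a, s, hs, hcs⟩
    refine ⟨s, s.2, ?_, S34V3G_inv_mem_gauss hO hπO hπirr hxt hs, by rw [hcs]; exact a.2⟩
    intro h0
    apply hs
    have : s = 0 := Subtype.ext h0
    rw [this]
    exact Ideal.zero_mem _
  have hclear : ∀ v ∈ V, ∃ s ∈ adj O x, s ≠ 0 ∧ s⁻¹ ∈ Gx ∧ IsIntegral (adj O x) (s * v) :=
    fun v hv => S34V3_clear hlocG (hkey v hv)
  refine ⟨fun _ => Iff.rfl, hxV', ?_, ?_, ?_⟩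
  · -- le_V
    intro a ha
    exact hVic a ha.2 (isIntegral_mono hadjV ha.1)
  · -- sat
    intro v hv hπv
    obtain ⟨s, hs, hs0, hsinv, hsv⟩ := hclear v hv
    haveI := CSAT_isIntegrallyClosed_adj O x hxt
    letI := FractionRing.liftAlgebra (adj O x) L
    haveI := FractionRing.isScalarTower_liftAlgebra (adj O x) L
    have hprime := CSAT_prime_adj O x hxt π hπO hπirr
    have hndvd : ¬ (⟨π, CSAT_O_le_adj O x hπO⟩ : adj O x) ∣ (⟨s, hs⟩ : adj O x) := by
      rintro ⟨a, ha⟩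
      have ha' : s = π * (a : L) := by
        have := congrArg (fun z : adj O x => (z : L)) ha
        simpa using this
      apply hπV
      have : π⁻¹ = (a : L) * s⁻¹ := by
        rw [ha']
        have ha0 : (a : L) ≠ 0 := by
          intro h0
          rw [h0, mul_zero] at ha'
          exact hs0 ha'
        field_simp
      rw [this]
      exact V.mul_mem (hadjV a.2) (hGxV hsinv)
    obtain ⟨y', hy', hEq⟩ := S18P3_exists_eq_mul (R := adj O x) (E := L)
      (FractionRing (adj O x)) (⟨π, CSAT_O_le_adj O x hπO⟩ : adj O x)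
      (⟨s, hs⟩ : adj O x) hprime hndvd (π * v) (s * v) hπv.1 hsv
      (by
        show s * (π * v) = π * (s * v)
        ring)
    have hyy : v = y' := mul_left_cancel₀ hπ0 hEq
    exact ⟨hyy ▸ hy', hVF hv⟩
  · -- loc
    intro v hv
    obtain ⟨s, hs, hs0, hsinv, hsv⟩ := hclear v hv
    refine ⟨s, ⟨isIntegral_of_mem _ hs, hadjF s hs⟩, hs0, hGxV hsinv, ?_⟩
    rw [mul_comm]
    exact ⟨hsv, F1.mul_mem (hadjF s hs) (hVF hv)⟩

/-- **Weak setup in an arbitrary coordinate** `x` (`x` plays the role of `j`). -/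
theorem S34V3G_setup (hO : IsDiscreteValuationRing O) (hπO : π ∈ O)
    (hπirr : ∀ hπ : π ∈ O, Irreducible (⟨π, hπ⟩ : O))
    (halgO : ∀ y : L, IsAlgebraic O y → ∃ a ∈ O, ∃ b ∈ O, b ≠ 0 ∧ y * b = a)
    (hxt : Transcendental O x) (hOF : (O : Set L) ⊆ F1) (hxF : x ∈ F1)
    (hfin : ∃ s : Finset L, ∀ y ∈ F1, ∃ c : L → L,
      (∀ z, c z ∈ Subfield.closure ((O : Set L) ∪ {x})) ∧ y = ∑ z ∈ s, c z * z)
    (halg : ∀ v ∈ F1, IsAlgebraic (adj O x) v)
    (halg' : ∀ v ∈ F1, IsAlgebraic (adj O x⁻¹) v)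
    (hVF : (V : Set L) ⊆ F1) (hVic : ∀ y ∈ F1, IsIntegral V y → y ∈ V)
    (hVrad : ∀ c ∈ V, (1 + π * c)⁻¹ ∈ V)
    (hOV : O ≤ V) (hxV : x ∈ V) (hxV' : x⁻¹ ∈ V) (hπV : π⁻¹ ∉ V)
    (hGV : ∀ s ∈ adj O x, (∀ a ∈ adj O x, s ≠ π * a) → s⁻¹ ∈ V)
    (hGV' : ∀ s ∈ adj O x⁻¹, (∀ a ∈ adj O x⁻¹, s ≠ π * a) → s⁻¹ ∈ V)
    (hnt : ∀ W : Subring L, S34C2_Val π F1 W → adj O x ≤ W →
      (∀ s ∈ adj O x, (∀ a ∈ adj O x, s ≠ π * a) → s⁻¹ ∈ W) → V ≤ W)
    (hnt' : ∀ W : Subring L, S34C2_Val π F1 W → adj O x⁻¹ ≤ W →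
      (∀ s ∈ adj O x⁻¹, (∀ a ∈ adj O x⁻¹, s ≠ π * a) → s⁻¹ ∈ W) → V ≤ W) :
    S34C_Setup O π x F1 V (icl (adj O x) F1) (icl (adj O x⁻¹) F1) where
  dvr := hO
  π_mem := hπO
  π_irr := hπirr
  algClosed := halgO
  j_trans := hxt
  j_mem := hxF
  O_le := hOF
  finite := hfin
  V_le := hVF
  V_ic := hVic
  V_rad := hVrad
  π_nonunit := hπV
  chart0 := S34V3G_chart hO hπO (hπirr hπO) hxt hOF hxF halg hVF hVic hOV hxV hxV' hπV hGV hnt
  chartInf := S34V3G_chart hO hπO (hπirr hπO) (CSAT_transcendental_inv O x hxt) hOF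
    (F1.inv_mem hxF) halg' hVF hVic hOV hxV' (by rw [inv_inv]; exact hxV) hπV hGV' hnt'

end Main

end Fermat.Agent.S34_helper27_V3G
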