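import Fermat.Agent.S34_helper28_TOP
import Fermat.Agent.S34_helper27_GEOM
import Fermat.Agent.S34_helper12_XDAD
import Fermat.Agent.S34_helper4_XCROSSK
import Fermat.Agent.S34_helper18_INF

/-!
# S34 (owner file, helper4): the complete plug, with the OPEN pieces as hypotheses

* `S34DRY_crossInf` : X-CROSS on the chart at infinity from X-CROSS on the finite chart
  (helper18's transfer `S34INF_crossAt`; the crossing points are not cusps);
* `S34DRY_rest`     : helper27's `S34GM_Rest` from `(N1)` on both charts, the three open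
  sub-contracts of X-CROSS on the finite chart (`S34K_Vert`, `S34K_PlacesAt`, `S34K_LocGen`) and
  the cusp data of the transfer;
* `S34DRY_of_rest`  : the frozen statement of S34 from a theorem of the shape of helper25's
  `S34XD_key` and `S34GM_Rest` at every admissible Galois-stable level.
-/

set_option autoImplicit false
set_option linter.unusedSectionVars false
set_option linter.unusedVariables false
set_option linter.style.haveILetI false

noncomputable section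

open IsLocalRing
open CuspForm CuspForm.HeckeGaloisRepDatum
open ModularCurve
open Fermat.Agent.S18_helper9_CDefs Fermat.Agent.S18_helper25_COREDefs
  Fermat.Agent.S34_helper12_CDefs Fermat.Agent.S34_Contracts
  Fermat.Agent.S34_helper27_P1C Fermat.Agent.S34_helper27_GEOM
  Fermat.Agent.S34_helper25_Defs Fermat.Agent.S34_helper6_RED
  Fermat.Agent.S34_helper18_CUSP Fermat.Agent.S34_helper18_INF

namespace Fermat.Agent.S34_helper4_DRY

local notation "Qb" => AlgebraicClosure ℚ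
local notation "GQ" => (AlgebraicClosure ℚ ≃ₐ[ℚ] AlgebraicClosure ℚ)

section Level

variable (N : ℕ) [NeZero N] (p : ℕ) (A : ValuationSubring Qb)
  (K1 : IntermediateField ℚ Qb) [IsDiscreteValuationRing (S18K_O1 A K1)]

/-- **X-CROSS on the chart at infinity from X-CROSS on the finite chart.** -/
theorem S34DRY_crossInf (V2 : Subring (LaurentSeries K1))
    (S : S34C_Setup2 (S18K_O A K1) (S18K_π A K1) (S18K_j K1) (S18K_F1 K1 N) (S18K_V A K1 N) V2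
      (S18K_A0 A K1 N) (S18K_Ainf A K1 N))
    {θ : LaurentSeries K1} {q : ℕ} (hq : 2 ≤ q)
    (hθ : θ ∈ S18K_F1 K1 N) (hrel : S34CUSP_Rel (S18K_O A K1) (S18K_j K1) θ q)
    (hK1 : ∃ v ∈ S18K_V A K1 N, θ - (S18K_j K1) ^ q = S18K_π A K1 * v)
    (hK2 : ∃ v ∈ V2, S18K_j K1 - θ ^ q = S18K_π A K1 * v)
    (hθ2 : θ ∈ V2) (hθ2' : θ⁻¹ ∈ V2)
    (hres : ∀ (m : Ideal (S18K_Ainf A K1 N)), m.IsMaximal →
      (⟨S18K_π A K1, S34INF_O_le_Ainf S S.π_mem⟩ : S18K_Ainf A K1 N) ∈ m →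
      ∀ z : S18K_Ainf A K1 N, ∃ c : LaurentSeries K1, ∃ hc : c ∈ S18K_O A K1,
        z - ⟨c, S34INF_O_le_Ainf S hc⟩ ∈ m)
    (h0 : S34K_Cross N p A K1 V2 (S18K_A0 A K1 N)) :
    S34K_Cross N p A K1 V2 (S18K_Ainf A K1 N) := by
  intro τ' τ hτ' hτ D hD f hf hf0 hfV hfV' hord hπ m hm hπm h1 h2
  exact S34INF_crossAt S hq hθ hrel hK1 hK2 hθ2 hθ2' hres p f
    (fun hπ0 m0 hm0 hπm0 ht1 ht2 =>
      h0 τ' τ hτ' hτ D hD f hf hf0 hfV hfV' hord hπ0 m0 hm0 hπm0 ht1 ht2)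
    hπ m hm hπm h1 h2

end Level

section Rest

variable (A : ValuationSubring Qb) (K1 : IntermediateField ℚ Qb)
  [IsDiscreteValuationRing (S18K_O1 A K1)]

/-- **`S34GM_Rest` from the open pieces**: `(N1)` on both charts, the three sub-contracts of
X-CROSS on the finite chart, and the cusp data. -/
theorem S34DRY_rest (hstab : ∀ σ : GQ, ∀ x ∈ K1, σ x ∈ K1) (N' q p : ℕ) [NeZero N']
    [NeZero (N' * q)] (hq : q.Prime) (hA : A.LiesOverPrime q) (hqN : ¬ q ∣ N')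
    (hN0 : S34K_N1 (S18K_π A K1) (S18K_V A K1 (N' * q)) (S34P1C_V2 A K1 hq N' hqN)
      (S18K_A0 A K1 (N' * q)))
    (hNinf : S34K_N1 (S18K_π A K1) (S18K_V A K1 (N' * q)) (S34P1C_V2 A K1 hq N' hqN)
      (S18K_Ainf A K1 (N' * q)))
    (hV : S34K_Vert (S18K_π A K1) (S18K_V A K1 (N' * q)) (S34P1C_V2 A K1 hq N' hqN)
      (S18K_A0 A K1 (N' * q)))
    (hPl : S34K_PlacesAt (N' * q) A K1 (S18K_A0 A K1 (N' * q)))
    (hLG : S34K_LocGen (N' * q) A K1 (S34P1C_V2 A K1 hq N' hqN) (S18K_A0 A K1 (N' * q)))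
    {θ : LaurentSeries K1}
    (hθ : θ ∈ S18K_F1 K1 (N' * q)) (hrel : S34CUSP_Rel (S18K_O A K1) (S18K_j K1) θ q)
    (hK1 : ∃ v ∈ S18K_V A K1 (N' * q), θ - (S18K_j K1) ^ q = S18K_π A K1 * v)
    (hK2 : ∃ v ∈ S34P1C_V2 A K1 hq N' hqN, S18K_j K1 - θ ^ q = S18K_π A K1 * v)
    (hθ2 : θ ∈ S34P1C_V2 A K1 hq N' hqN) (hθ2' : θ⁻¹ ∈ S34P1C_V2 A K1 hq N' hqN)
    (hres : ∀ (m : Ideal (S18K_Ainf A K1 (N' * q))), m.IsMaximal →
      (⟨S18K_π A K1, S34INF_O_le_Ainf (S34P1C_setup2 A K1 hq hA N' hqN)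
        (S34P1C_setup2 A K1 hq hA N' hqN).π_mem⟩ : S18K_Ainf A K1 (N' * q)) ∈ m →
      ∀ z : S18K_Ainf A K1 (N' * q), ∃ c : LaurentSeries K1, ∃ hc : c ∈ S18K_O A K1,
        z - ⟨c, S34INF_O_le_Ainf (S34P1C_setup2 A K1 hq hA N' hqN) hc⟩ ∈ m) :
    S34GM_Rest A K1 N' q p hq hqN := by
  have S := S34P1C_setup2 A K1 hq hA N' hqN
  have hC0 : S34K_Cross (N' * q) p A K1 (S34P1C_V2 A K1 hq N' hqN) (S18K_A0 A K1 (N' * q)) :=
    Fermat.Agent.S34_helper4_XCROSSK.S34XCK_A0 (N' * q) p A K1 hstab _ S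
      (S34GM_inert A K1 hstab hq N' hqN) hV hPl hLG
  exact S34GM_rest_intro A K1 N' q p hq hqN hN0 hNinf hC0
    (S34DRY_crossInf (N' * q) p A K1 _ S hq.two_le hθ hrel hK1 hK2 hθ2 hθ2' hres hC0)

end Rest

/-- **The frozen statement of S34** from a theorem of the shape of helper25's `S34XD_key` and
`S34GM_Rest` at every admissible Galois-stable level. -/
theorem S34DRY_of_rest
    (hkey : ∀ (N : ℕ) [NeZero N] (p q : ℕ), p.Prime → q.Prime → p ≠ q →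
      S34XD_Contract N p q → S34R_Key N p q)
    (hrest : ∀ (N' q p : ℕ) [NeZero (N' * q)] (hq : q.Prime) (hp : p.Prime) (hpq : p ≠ q)
      (hqN : ¬ q ∣ N') (A : ValuationSubring Qb) (hA : A.LiesOverPrime q)
      (K1 : IntermediateField ℚ Qb) (h : S18K_Admissible A K1 q)
      (hstab : ∀ σ : GQ, ∀ x ∈ K1, σ x ∈ K1),
      letI := h.dvr
      haveI := S34GM_neZero N' q
      S34GM_Rest A K1 N' q p hq hqN)
    {𝒪 : Type} [CommRing 𝒪] [IsDomain 𝒪] [IsDiscreteValuationRing 𝒪]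
    [IsAdicComplete (maximalIdeal 𝒪) 𝒪] [Finite (ResidueField 𝒪)] [CharZero 𝒪]
    {p : ℕ} (hp : p.Prime) (hp𝒪 : (p : 𝒪) ∈ maximalIdeal 𝒪)
    {N : ℕ} [NeZero N] {S : Finset ℕ} (hpS : p ∈ S) (hNS : ∀ q : ℕ, q.Prime → q ∣ N → q ∈ S)
    {θ : CuspForm.heckeAlgebra N 2 (↑S : Set ℕ) →+* ResidueField 𝒪}
    {T : Type} [CommRing T] [IsLocalRing T] [IsNoetherianRing T]
    [IsAdicComplete (maximalIdeal T) T] [Algebra 𝒪 T] [IsLocalHom (algebraMap 𝒪 T)]
    [Module.Finite 𝒪 T] [Module.Free 𝒪 T]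
    (H : CuspForm.HeckeGaloisRepDatum N (↑S : Set ℕ) 𝒪 θ T)
    (q : ℕ) (hq : q.Prime) (hqp : q ≠ p) (hqN : q ∣ N) (hq2 : ¬ q ^ 2 ∣ N) :
    H.ρ.IsUnipotentOnInertiaAt q :=
  Fermat.Agent.S34_helper28_TOP.S34TOP_of_XD hkey
    (fun N' q p _ hq hp hpq hqN' =>
      Fermat.Agent.S34_helper12_XDAD.S34AD_contract N' q p
        (fun A hA => S34GM_holds3 N' q p (hrest N' q p) hq hp hpq hqN' A hA))
    hp hp𝒪 hpS hNS H q hq hqp hqN hq2

end Fermat.Agent.S34_helper4_DRY
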