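import Mathlib
import Fermat.Prelude.Def_FLTPrelim_Ramification
import Fermat.Agent.S54_Frob
import Fermat.Agent.S13_helper26_MKLIFT

/-!
# S34, X-PLACES (helper5): conjugacy of the extensions of a valuation

`A`, `A'` valuation subrings of `ℚ̄` over the prime `q`, `K1` an intermediate field.  If `A` and
`A'` have the same nonunits among the algebraic integers of `K1` (e.g. if `A ∩ K1 = A' ∩ K1`),
there is `σ ∈ Gal(ℚ̄ / K1)` with `σ(A') = A`.

Proof: the profinite group `U = Gal(ℚ̄ / K1)` acts on `ℤ̄` with invariants `ℤ̄ ∩ K1`; the primes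
of `ℤ̄` cut out by `A` and `A'` have the same contraction, so they are conjugate under `U`
(Mathlib, `Algebra.IsInvariant.exists_smul_of_under_eq_of_profinite`); a valuation subring over
`q` is the localisation of `ℤ̄` at its prime (`mklift_frac`, landed).
-/

set_option autoImplicit false
set_option linter.style.haveILetI false
set_option linter.unusedVariables false

open scoped Pointwise

namespace Fermat.Agent.S34_helper5_CONJ

open Fermat.Agent.S54Frob Fermat.Agent.S13_helper26_MKLIFT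

attribute [local instance] isAlgQb isAlgClosureQb normalQb actZb smulComm_Zb topZb discrete_Zb
  contSMul_Zb isInvariant_Zb

/-- an automorphism mapping the prime of `A'` onto the prime of `A` maps `A'` into `A` -/
theorem S34PC_map_mem (A A' : ValuationSubring Qb) (q : ℕ) (hq : q.Prime)
    (hA' : A'.LiesOverPrime q) (σ : GQ)
    (hσ : ∀ b : Zb, b ∈ mkliftPrime A' ↔ σ • b ∈ mkliftPrime A)
    (x : Qb) (hx : x ∈ A') : σ x ∈ A := by
  obtain ⟨s, b, hs, hsb⟩ := mklift_frac A' q hq hA' x hx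
  have hσs : A.valuation ((σ • s : Zb) : Qb) = 1 :=
    mklift_val_eq_one A _ (fun h => hs ((hσ s).2 h))
  have e : σ x * ((σ • s : Zb) : Qb) = ((σ • b : Zb) : Qb) := by
    rw [actZb_coe, actZb_coe, ← map_mul, hsb]
  rw [← A.valuation_le_one_iff]
  have := congrArg A.valuation e
  rw [map_mul, hσs, mul_one] at this
  rw [this]
  exact mklift_val_le A _

/-- membership in the nonunits in terms of membership -/
theorem S34PC_mem_nonunits_iff (A : ValuationSubring Qb) (x : Qb) :
    x ∈ A.nonunits ↔ x = 0 ∨ x⁻¹ ∉ A := by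
  rw [ValuationSubring.mem_nonunits_iff]
  by_cases hx : x = 0
  · simp [hx]
  · rw [← A.valuation_le_one_iff, map_inv₀]
    constructor
    · intro h
      right
      intro h'
      have h1 : A.valuation x ≠ 0 := (Valuation.ne_zero_iff _).2 hx
      have h2 : (1 : _) ≤ A.valuation x := by
        have := mul_le_mul_left h' (A.valuation x)
        rwa [inv_mul_cancel₀ h1, one_mul] at this
      exact absurd h (not_lt.mpr h2)
    · rintro (h | h)
      · exact absurd h hx
      · by_contra hcon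
        apply h
        have h1 : A.valuation x ≠ 0 := (Valuation.ne_zero_iff _).2 hx
        have h2 : (1 : _) ≤ A.valuation x := not_lt.mp hcon
        have := mul_le_mul_left h2 (A.valuation x)⁻¹
        rwa [one_mul, mul_inv_cancel₀ h1] at this

set_option synthInstance.maxHeartbeats 400000 in
set_option maxHeartbeats 1600000 in
/-- **Conjugacy under a closed subgroup** `U` of `G_ℚ`: if the primes of `ℤ̄` cut out by `A`
and `A'` contain the same `U`-invariant algebraic integers, some `σ ∈ U` maps `A'` onto `A`. -/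
theorem S34PC_conj_subgroup (U : Subgroup GQ) (hU : IsClosed (U : Set GQ))
    (A A' : ValuationSubring Qb) (q : ℕ) (hq : q.Prime)
    (hA : A.LiesOverPrime q) (hA' : A'.LiesOverPrime q)
    (h : ∀ b : Zb, (∀ u ∈ U, u (b : Qb) = (b : Qb)) →
      ((b : Qb) ∈ A'.nonunits ↔ (b : Qb) ∈ A.nonunits)) :
    ∃ σ ∈ U, (∀ x, x ∈ A' ↔ σ x ∈ A) ∧ (∀ x, x ∈ A'.nonunits ↔ σ x ∈ A.nonunits) := by
  haveI hP := mkliftPrime_isPrime A
  haveI hP' := mkliftPrime_isPrime A'
  haveI : CompactSpace U := isCompact_iff_compactSpace.mp hU.isCompact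
  haveI : Algebra.IsInvariant (FixedPoints.subalgebra ℤ Zb U) Zb U :=
    ⟨fun b hb => ⟨⟨b, hb⟩, rfl⟩⟩
  have hunder : (mkliftPrime A').under (FixedPoints.subalgebra ℤ Zb U) =
      (mkliftPrime A).under (FixedPoints.subalgebra ℤ Zb U) := by
    ext a
    rw [Ideal.mem_comap, Ideal.mem_comap]
    show (a : Zb) ∈ mkliftPrime A' ↔ (a : Zb) ∈ mkliftPrime A
    rw [mem_mkliftPrime', mem_mkliftPrime']
    refine h _ (fun u hu => ?_)
    have := a.2 ⟨u, hu⟩
    exact congrArg Subtype.val this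
  obtain ⟨g, hg⟩ := Algebra.IsInvariant.exists_smul_of_under_eq_of_profinite
    (A := FixedPoints.subalgebra ℤ Zb U) (G := U) (mkliftPrime A') (mkliftPrime A) hunder
  have hσ : ∀ b : Zb, b ∈ mkliftPrime A' ↔ (g : GQ) • b ∈ mkliftPrime A := by
    intro b
    rw [hg]
    exact (Ideal.smul_mem_pointwise_smul_iff (a := g) (S := mkliftPrime A') (x := b)).symm
  have hσ' : ∀ b : Zb, b ∈ mkliftPrime A ↔ ((g : GQ)⁻¹) • b ∈ mkliftPrime A' := by
    intro b
    rw [hσ, smul_inv_smul]
  have hmem : ∀ x, x ∈ A' ↔ (g : GQ) x ∈ A := by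
    intro x
    constructor
    · exact S34PC_map_mem A A' q hq hA' g hσ x
    · intro hx
      have := S34PC_map_mem A' A q hq hA (g : GQ)⁻¹ hσ' _ hx
      simpa using this
  refine ⟨g, g.2, hmem, fun x => ?_⟩
  rw [S34PC_mem_nonunits_iff, S34PC_mem_nonunits_iff, hmem, map_inv₀]
  constructor
  · rintro (h0 | h0)
    · left; rw [h0, map_zero]
    · right; exact h0
  · rintro (h0 | h0)
    · left
      exact (map_eq_zero_iff _ (g : GQ).injective).mp h0
    · right; exact h0

/-- **Conjugacy of the extensions of a valuation** (form with `σ ∈ G_ℚ` fixing `K1`). -/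
theorem S34PC_conj (A A' : ValuationSubring Qb) (q : ℕ) (hq : q.Prime)
    (hA : A.LiesOverPrime q) (hA' : A'.LiesOverPrime q) (K1 : IntermediateField ℚ Qb)
    (h : ∀ x ∈ K1, IsIntegral ℤ x → (x ∈ A'.nonunits ↔ x ∈ A.nonunits)) :
    ∃ σ : GQ, (∀ x ∈ K1, σ x = x) ∧ (∀ x, x ∈ A' ↔ σ x ∈ A) ∧
      (∀ x, x ∈ A'.nonunits ↔ σ x ∈ A.nonunits) := by
  obtain ⟨σ, hσU, h1, h2⟩ := S34PC_conj_subgroup K1.fixingSubgroup
    (InfiniteGalois.fixingSubgroup_isClosed K1) A A' q hq hA hA' (fun b hb => by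
      refine h _ ?_ b.2
      have h1 : (b : Qb) ∈ IntermediateField.fixedField K1.fixingSubgroup := by
        rw [IntermediateField.mem_fixedField_iff]
        exact hb
      rwa [InfiniteGalois.fixedField_fixingSubgroup] at h1)
  exact ⟨σ, fun x hx => hσU ⟨x, hx⟩, h1, h2⟩

/-- a valuation subring of `ℚ̄` in which no prime number is a nonunit is everything -/
theorem S34PC_eq_top (A : ValuationSubring Qb)
    (h : ∀ q : ℕ, q.Prime → (q : Qb) ∉ A.nonunits) (x : Qb) : x ∈ A := by
  have hint : ∀ n : ℤ, (n : Qb) ∈ A := fun n => by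
    have : ((n : ℤ) : Qb) = algebraMap ℤ Qb n := by simp
    rw [this]
    exact mklift_int_mem A _ isIntegral_algebraMap
  have hnat : ∀ n : ℕ, n ≠ 0 → A.valuation (n : Qb) = 1 := by
    intro n
    induction n using Nat.recOnMul with
    | zero => intro h0; exact absurd rfl h0
    | one => intro _; simp
    | prime p hp =>
        intro _
        have h1 := h p hp
        rw [ValuationSubring.mem_nonunits_iff, not_lt] at h1
        have h2 : A.valuation (p : Qb) ≤ 1 := by
          rw [A.valuation_le_one_iff]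
          have := hint (p : ℤ)
          simp only [Int.cast_natCast] at this
          exact this
        exact le_antisymm h2 h1
    | mul a b ha hb =>
        intro hab
        have ha0 : a ≠ 0 := fun h0 => hab (by rw [h0, zero_mul])
        have hb0 : b ≠ 0 := fun h0 => hab (by rw [h0, mul_zero])
        push_cast
        rw [map_mul, ha ha0, hb hb0, one_mul]
  have hrat : ∀ r : ℚ, algebraMap ℚ Qb r ∈ A := by
    intro r
    have hr : algebraMap ℚ Qb r = (r.num : Qb) * ((r.den : ℕ) : Qb)⁻¹ := by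
      conv_lhs => rw [← Rat.num_div_den r]
      simp [div_eq_mul_inv]
    rw [hr, ← A.valuation_le_one_iff, map_mul, map_inv₀, hnat r.den r.den_nz, inv_one, mul_one,
      A.valuation_le_one_iff]
    exact hint _
  have hx : IsIntegral ℚ x := (isAlgQb.isAlgebraic x).isIntegral
  have hxA : IsIntegral A x := by
    obtain ⟨P, hP, hPx⟩ := hx
    let f : ℚ →+* A := (algebraMap ℚ Qb).codRestrict A.toSubring hrat
    refine ⟨P.map f, hP.map f, ?_⟩
    have hcomp : (algebraMap A Qb).comp f = algebraMap ℚ Qb := RingHom.ext fun r => rfl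
    rw [Polynomial.eval₂_map, hcomp]
    exact hPx
  obtain ⟨y, rfl⟩ := IsIntegrallyClosed.isIntegral_iff.mp hxA
  exact y.2

/-- **Conjugacy of the extensions of a valuation**: two valuation subrings of `ℚ̄` with the same
intersection with `K1` are conjugate under `Gal(ℚ̄ / K1)`.  No hypothesis on the residue
characteristic. -/
theorem S34PC_conj_of_inter (K1 : IntermediateField ℚ Qb) (A A' : ValuationSubring Qb)
    (h : ∀ x ∈ K1, x ∈ A' ↔ x ∈ A) :
    ∃ σ : GQ, (∀ x ∈ K1, σ x = x) ∧ (∀ x, x ∈ A' ↔ σ x ∈ A) ∧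
      (∀ x, x ∈ A'.nonunits ↔ σ x ∈ A.nonunits) := by
  have hnu : ∀ x ∈ K1, x ∈ A'.nonunits ↔ x ∈ A.nonunits := by
    intro x hx
    rw [S34PC_mem_nonunits_iff, S34PC_mem_nonunits_iff, h _ (inv_mem hx)]
  have hnat : ∀ n : ℕ, (n : Qb) ∈ K1 := fun n => natCast_mem K1 n
  by_cases hq : ∃ q : ℕ, q.Prime ∧ (q : Qb) ∈ A.nonunits
  · obtain ⟨q, hq, hA⟩ := hq
    have hA' : (q : Qb) ∈ A'.nonunits := (hnu _ (hnat q)).mpr hA
    exact S34PC_conj A A' q hq hA hA' K1 (fun x hx _ => hnu x hx)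
  · have hA : ∀ q : ℕ, q.Prime → (q : Qb) ∉ A.nonunits := fun q hq' hq'' => hq ⟨q, hq', hq''⟩
    have hA' : ∀ q : ℕ, q.Prime → (q : Qb) ∉ A'.nonunits :=
      fun q hq' hq'' => hq ⟨q, hq', (hnu _ (hnat q)).mp hq''⟩
    refine ⟨1, fun _ _ => rfl, fun x => ?_, fun x => ?_⟩
    · exact ⟨fun _ => S34PC_eq_top A hA _, fun _ => S34PC_eq_top A' hA' _⟩
    · rw [S34PC_mem_nonunits_iff, S34PC_mem_nonunits_iff]
      show x = 0 ∨ x⁻¹ ∉ A' ↔ x = 0 ∨ x⁻¹ ∉ A
      constructor
      · rintro (h0 | h0)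
        · exact Or.inl h0
        · exact absurd (S34PC_eq_top A' hA' _) h0
      · rintro (h0 | h0)
        · exact Or.inl h0
        · exact absurd (S34PC_eq_top A hA _) h0

/-- the automorphism of `ℚ̄` over `K1` attached to `σ ∈ G_ℚ` fixing `K1` pointwise -/
noncomputable def S34PC_algEquiv (K1 : IntermediateField ℚ Qb) (σ : GQ) (hσ : ∀ x ∈ K1, σ x = x) :
    Qb ≃ₐ[K1] Qb :=
  { σ.toRingEquiv with
    commutes' := fun x => hσ x x.2 }

@[simp]
theorem S34PC_algEquiv_apply (K1 : IntermediateField ℚ Qb) (σ : GQ) (hσ : ∀ x ∈ K1, σ x = x)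
    (x : Qb) : S34PC_algEquiv K1 σ hσ x = σ x := rfl

/-- **Conjugacy**, in the form with `σ : ℚ̄ ≃ₐ[K1] ℚ̄` (the argument of `S37LEVEL_gal`). -/
theorem S34PC_conj_algEquiv (K1 : IntermediateField ℚ Qb) (A A' : ValuationSubring Qb)
    (h : ∀ x ∈ K1, x ∈ A' ↔ x ∈ A) :
    ∃ σ : Qb ≃ₐ[K1] Qb, (∀ x, x ∈ A' ↔ σ x ∈ A) ∧
      (∀ x, x ∈ A'.nonunits ↔ σ x ∈ A.nonunits) := by
  obtain ⟨σ, hσ, h1, h2⟩ := S34PC_conj_of_inter K1 A A' h
  exact ⟨S34PC_algEquiv K1 σ hσ, h1, h2⟩

end Fermat.Agent.S34_helper5_CONJ
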