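import Fermat.Agent.S34_helper20_V0
import Fermat.Agent.S34_helper5_K0
import Fermat.Agent.S34_Contracts
import Fermat.Agent.S34_helper21_ACT

/-!
# S34, piece P1c-INERT (helper5): inertia and the second valuation ring `V_0 = w(V_∞)`

The coefficientwise action of a field automorphism `s` of the level `K1` on `L = K1((q))`
* preserves the function field `F = K1(j(q^d) : d ∣ N)` (`S34IN_coeffMap_mem`);
* **commutes with the Atkin–Lehner involution** `w` of helper20 (`S34IN_comm`, `S34IN_comm_wL`):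
  `s⁻¹ ∘ w ∘ s` is a ring endomorphism of `F` which fixes the constants and has the values of `w`
  on the generators, so it is `w` (`S34V0_w_unique`);
* hence preserves `w(V)` as soon as it preserves `V` (`S34IN_image_stable`), and is trivial modulo
  `π w(V)` as soon as it is trivial modulo `π V` (`S34IN_image_congr`).

Concretely (`S34IN_inert`): the contract `S34K_Inert` of the owner file for
`V2 = S34V0_image (S18K_V A K1 N)`, given the corresponding statement for the Gauss ring
`V1 = S18K_V A K1 N`; and `S34IN_inert_main`: the same without hypothesis (the statement for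
`V1` is helper21's `S34ACT_mem_V` / `S34ACT_inertia_V`).  Also `S34IN_inert_V1`: the contract
for `V1` itself.
-/

set_option autoImplicit false
set_option linter.unusedSectionVars false
set_option linter.unusedVariables false
set_option linter.style.haveILetI false

noncomputable section

open ModularCurve Fermat.Agent.S24
open Fermat.Agent.S34_helper20_WQ Fermat.Agent.S34_helper20_V0

namespace Fermat.Agent.S34_helper5_INERT

section Generic

variable {K1 : Type*} [Field K1]

/-- the generators `j(q^d)` have rational coefficients: they are fixed by `coeffMap s` -/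
theorem S34IN_coeffMap_gen (s : K1 →+* K1) (d : ℕ) [NeZero d] :
    coeffMap s (qExpand K1 d (jqModC K1)) = qExpand K1 d (jqModC K1) := by
  rw [coeffMap_qExpand, coeffMap_jqModC]

theorem S34IN_coeffMap_C (s : K1 →+* K1) (c : K1) :
    coeffMap s (HahnSeries.C c) = HahnSeries.C (s c) := by
  rw [HahnSeries.C_apply, HahnSeries.C_apply, coeffMap_single]

/-- `coeffMap s` maps `F = K1(j(q^d) : d ∣ N)` into itself -/
theorem S34IN_coeffMap_mem (s : K1 →+* K1) (N : ℕ) {x : LaurentSeries K1}
    (hx : x ∈ modularFunctionFieldFullC K1 N) :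
    coeffMap s x ∈ modularFunctionFieldFullC K1 N := by
  unfold modularFunctionFieldFullC at hx ⊢
  induction hx using IntermediateField.adjoin_induction with
  | mem y hy =>
      obtain ⟨d, hd0, hd, rfl⟩ := hy
      haveI := hd0
      rw [S34IN_coeffMap_gen]
      exact IntermediateField.subset_adjoin _ _ ⟨d, hd0, hd, rfl⟩
  | algebraMap c =>
      rw [coeffMap_algebraMap]
      exact IntermediateField.algebraMap_mem _ _
  | add x y hx hy ihx ihy =>
      rw [map_add]
      exact add_mem ihx ihy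
  | inv x hx ihx =>
      rw [map_inv₀]
      exact inv_mem ihx
  | mul x y hx hy ihx ihy =>
      rw [map_mul]
      exact mul_mem ihx ihy

/-- `coeffMap s` as a ring endomorphism of `F` -/
def S34IN_act (s : K1 →+* K1) (N : ℕ) :
    modularFunctionFieldFullC K1 N →+* modularFunctionFieldFullC K1 N where
  toFun x := ⟨coeffMap s (x : LaurentSeries K1), S34IN_coeffMap_mem s N x.2⟩
  map_one' := Subtype.ext (by simp)
  map_mul' x y := Subtype.ext (by simp)
  map_zero' := Subtype.ext (by simp)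
  map_add' x y := Subtype.ext (by simp)

@[simp]
theorem S34IN_act_coe (s : K1 →+* K1) (N : ℕ) (x : modularFunctionFieldFullC K1 N) :
    ((S34IN_act s N x : modularFunctionFieldFullC K1 N) : LaurentSeries K1) =
      coeffMap s (x : LaurentSeries K1) := rfl

theorem S34IN_coeffMap_symm (s : K1 ≃+* K1) (x : LaurentSeries K1) :
    coeffMap (s.symm : K1 →+* K1) (coeffMap (s : K1 →+* K1) x) = x := by
  rw [coeffMap_coeffMap]
  have h : (s.symm : K1 →+* K1).comp (s : K1 →+* K1) = RingHom.id K1 :=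
    RingHom.ext fun c => s.symm_apply_apply c
  rw [coeffMap_congr h, coeffMap_id]

theorem S34IN_coeffMap_symm' (s : K1 ≃+* K1) (x : LaurentSeries K1) :
    coeffMap (s : K1 →+* K1) (coeffMap (s.symm : K1 →+* K1) x) = x := by
  rw [coeffMap_coeffMap]
  have h : (s : K1 →+* K1).comp (s.symm : K1 →+* K1) = RingHom.id K1 :=
    RingHom.ext fun c => s.apply_symm_apply c
  rw [coeffMap_congr h, coeffMap_id]

/-- membership in `F` is invariant under `coeffMap s` for an automorphism `s` -/
theorem S34IN_coeffMap_mem_iff (s : K1 ≃+* K1) (N : ℕ) {x : LaurentSeries K1} :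
    coeffMap (s : K1 →+* K1) x ∈ modularFunctionFieldFullC K1 N ↔
      x ∈ modularFunctionFieldFullC K1 N := by
  constructor
  · intro h
    have := S34IN_coeffMap_mem (s.symm : K1 →+* K1) N h
    rwa [S34IN_coeffMap_symm] at this
  · exact S34IN_coeffMap_mem _ N

variable (emb : K1 →+* Kbar) (q N' N : ℕ) [NeZero N'] [NeZero N]
  (hq : q.Prime) (hqN : ¬ q ∣ N') (hN : N = q * N')

/-- **the coefficientwise action commutes with the Atkin–Lehner involution** -/
theorem S34IN_comm (s : K1 ≃+* K1) (y : modularFunctionFieldFullC K1 N) :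
    S34V0_w emb q N' N hq hqN hN (S34IN_act (s : K1 →+* K1) N y) =
      S34IN_act (s : K1 →+* K1) N (S34V0_w emb q N' N hq hqN hN y) := by
  -- `f := s⁻¹ ∘ w ∘ s`
  set f : modularFunctionFieldFullC K1 N →+* modularFunctionFieldFullC K1 N :=
    (S34IN_act (s.symm : K1 →+* K1) N).comp
      (((S34V0_w emb q N' N hq hqN hN : modularFunctionFieldFullC K1 N →+*
        modularFunctionFieldFullC K1 N)).comp (S34IN_act (s : K1 →+* K1) N)) with hf
  have key : f y = S34V0_w emb q N' N hq hqN hN y := by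
    refine S34V0_w_unique emb q N' N hq hqN hN f ?_ ?_ y
    · intro c hc
      have h1 : S34IN_act (s : K1 →+* K1) N ⟨HahnSeries.C c, hc⟩ =
          ⟨HahnSeries.C (s c), S34V0_C_mem N (s c)⟩ :=
        Subtype.ext (S34IN_coeffMap_C _ c)
      have h2 : S34IN_act (s.symm : K1 →+* K1) N ⟨HahnSeries.C (s c), S34V0_C_mem N (s c)⟩ =
          ⟨HahnSeries.C c, hc⟩ := by
        apply Subtype.ext
        rw [S34IN_act_coe, S34IN_coeffMap_C]
        show HahnSeries.C (s.symm (s c)) = HahnSeries.C c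
        rw [s.symm_apply_apply]
      rw [hf, RingHom.comp_apply, RingHom.comp_apply, h1]
      show S34IN_act (s.symm : K1 →+* K1) N
        (S34V0_w emb q N' N hq hqN hN ⟨HahnSeries.C (s c), S34V0_C_mem N (s c)⟩) = _
      rw [S34V0_w_C, h2]
    · intro d _ hd _ hm
      have h1 : S34IN_act (s : K1 →+* K1) N ⟨qExpand K1 d (jqModC K1), hm⟩ =
          ⟨qExpand K1 d (jqModC K1), hm⟩ :=
        Subtype.ext (S34IN_coeffMap_gen _ d)
      rw [hf, RingHom.comp_apply, RingHom.comp_apply, h1]
      show coeffMap (s.symm : K1 →+* K1)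
        ((S34V0_w emb q N' N hq hqN hN ⟨qExpand K1 d (jqModC K1), hm⟩ :
          modularFunctionFieldFullC K1 N) : LaurentSeries K1) = _
      rw [S34V0_w_gen emb q N' N hq hqN hN d hd hm, S34IN_coeffMap_gen]
  apply Subtype.ext
  have h3 := congrArg (fun z : modularFunctionFieldFullC K1 N =>
    coeffMap (s : K1 →+* K1) (z : LaurentSeries K1)) key
  simp only [hf, RingHom.comp_apply, S34IN_act_coe, S34IN_coeffMap_symm'] at h3
  rw [S34IN_act_coe]
  exact h3

/-- the commutation, elementwise on `L` (both sides are `0` outside `F`) -/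
theorem S34IN_comm_wL (s : K1 ≃+* K1) (x : LaurentSeries K1) :
    S34V0_wL emb q N' N hq hqN hN (coeffMap (s : K1 →+* K1) x) =
      coeffMap (s : K1 →+* K1) (S34V0_wL emb q N' N hq hqN hN x) := by
  by_cases hx : x ∈ modularFunctionFieldFullC K1 N
  · have hsx : coeffMap (s : K1 →+* K1) x ∈ modularFunctionFieldFullC K1 N :=
      S34IN_coeffMap_mem _ N hx
    rw [S34V0_wL_of_mem emb q N' N hq hqN hN hsx, S34V0_wL_of_mem emb q N' N hq hqN hN hx]
    have := congrArg (fun z : modularFunctionFieldFullC K1 N => (z : LaurentSeries K1))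
      (S34IN_comm emb q N' N hq hqN hN s ⟨x, hx⟩)
    exact this
  · have hsx : coeffMap (s : K1 →+* K1) x ∉ modularFunctionFieldFullC K1 N := fun h =>
      hx ((S34IN_coeffMap_mem_iff s N).mp h)
    rw [S34V0_wL, dif_neg hsx, S34V0_wL, dif_neg hx, map_zero]

/-- `coeffMap s` preserves `w(V)` as soon as it preserves `V` -/
theorem S34IN_image_stable (s : K1 ≃+* K1) (V : Subring (LaurentSeries K1))
    (hV : ∀ x ∈ V, coeffMap (s : K1 →+* K1) x ∈ V) :
    ∀ x ∈ S34V0_image emb q N' N hq hqN hN V,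
      coeffMap (s : K1 →+* K1) x ∈ S34V0_image emb q N' N hq hqN hN V := by
  rintro x ⟨hxF, hx⟩
  refine ⟨S34IN_coeffMap_mem _ N hxF, ?_⟩
  rw [S34IN_comm_wL]
  exact hV _ hx

/-- `coeffMap s` is trivial modulo `π w(V)` as soon as it is trivial modulo `π V` on `V ∩ F` -/
theorem S34IN_image_congr (s : K1 ≃+* K1) (V : Subring (LaurentSeries K1)) (c₀ : K1)
    (hc₀ : c₀ ≠ 0)
    (hV : ∀ x ∈ V, x ∈ modularFunctionFieldFullC K1 N →
      ∃ c ∈ V, coeffMap (s : K1 →+* K1) x - x = HahnSeries.C c₀ * c) :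
    ∀ x ∈ S34V0_image emb q N' N hq hqN hN V,
      ∃ c ∈ S34V0_image emb q N' N hq hqN hN V,
        coeffMap (s : K1 →+* K1) x - x = HahnSeries.C c₀ * c := by
  rintro x ⟨hxF, hx⟩
  have hwF : S34V0_wL emb q N' N hq hqN hN x ∈ modularFunctionFieldFullC K1 N :=
    S34V0_wL_mem emb q N' N hq hqN hN x
  obtain ⟨c, hc, hxc⟩ := hV _ hx hwF
  have hC0 : (HahnSeries.C c₀ : LaurentSeries K1) ≠ 0 := by
    intro h
    apply hc₀
    have := congrArg (fun z : LaurentSeries K1 => z.coeff 0) h
    simpa using this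
  have hCF : HahnSeries.C c₀ ∈ modularFunctionFieldFullC K1 N := S34V0_C_mem N c₀
  have hcF : c ∈ modularFunctionFieldFullC K1 N := by
    have : c = (HahnSeries.C c₀)⁻¹ *
        (coeffMap (s : K1 →+* K1) (S34V0_wL emb q N' N hq hqN hN x) -
          S34V0_wL emb q N' N hq hqN hN x) := by
      rw [hxc, ← mul_assoc, inv_mul_cancel₀ hC0, one_mul]
    rw [this]
    exact mul_mem (inv_mem hCF) (sub_mem (S34IN_coeffMap_mem _ N hwF) hwF)
  refine ⟨S34V0_wL emb q N' N hq hqN hN c, S34V0_wL_mem_image emb q N' N hq hqN hN hcF hc, ?_⟩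
  have hsxF : coeffMap (s : K1 →+* K1) x ∈ modularFunctionFieldFullC K1 N :=
    S34IN_coeffMap_mem _ N hxF
  have h1 := congrArg (S34V0_wL emb q N' N hq hqN hN) hxc
  rw [S34V0_wL_mul emb q N' N hq hqN hN hCF hcF, S34V0_wL_C, ← S34IN_comm_wL,
    sub_eq_add_neg, S34V0_wL_add emb q N' N hq hqN hN
      (S34V0_wL_mem emb q N' N hq hqN hN _) (neg_mem hwF),
    S34V0_wL_neg emb q N' N hq hqN hN hwF, S34V0_wL_wL emb q N' N hq hqN hN hsxF,
    S34V0_wL_wL emb q N' N hq hqN hN hxF, ← sub_eq_add_neg] at h1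
  exact h1

end Generic

section Concrete

open Fermat.Agent.S18_helper25_COREDefs Fermat.Agent.S18_helper13_GAUSS
  Fermat.Agent.S34_helper5_K0 Fermat.Agent.S34_Contracts

local notation "Qb" => AlgebraicClosure ℚ
local notation "GQ" => (AlgebraicClosure ℚ ≃ₐ[ℚ] AlgebraicClosure ℚ)

variable (A : ValuationSubring Qb) (K1 : IntermediateField ℚ Qb)
  [IsDiscreteValuationRing (S18K_O1 A K1)]
  (hstab : ∀ σ : GQ, ∀ x ∈ K1, σ x ∈ K1)
  (emb : K1 →+* Kbar) (q N' N : ℕ) [NeZero N'] [NeZero N]
  (hq : q.Prime) (hqN : ¬ q ∣ N') (hN : N = q * N')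

/-- the shape of `S34K_Inert` for one element `τ` and an arbitrary ring `V` -/
def S34IN_InertAt (τ : GQ) (V : Subring (LaurentSeries K1)) : Prop :=
  ∀ x ∈ V,
    coeffMap ((S34K0_restrict K1 hstab τ : K1 ≃ₐ[ℚ] K1) : K1 →+* K1) x ∈ V ∧
    ∃ c ∈ V, coeffMap ((S34K0_restrict K1 hstab τ : K1 ≃ₐ[ℚ] K1) : K1 →+* K1) x - x
      = S18K_π A K1 * c

theorem S34IN_coeffMap_restrict (τ : GQ) (x : LaurentSeries K1) :
    coeffMap ((S34K0_restrict K1 hstab τ : K1 ≃ₐ[ℚ] K1) : K1 →+* K1) x =
      coeffMap (((S34K0_restrict K1 hstab τ : K1 ≃ₐ[ℚ] K1).toRingEquiv : K1 ≃+* K1) :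
        K1 →+* K1) x :=
  coeffMap_congr (RingHom.ext fun _ => rfl) x

/-- **transport of the inertia statement from `V` to `w(V)`**, one element at a time -/
theorem S34IN_inertAt_image (τ : GQ) (V : Subring (LaurentSeries K1))
    (hV : S34IN_InertAt A K1 hstab τ V) :
    S34IN_InertAt A K1 hstab τ (S34V0_image emb q N' N hq hqN hN V) := by
  intro x hx
  rw [S34IN_coeffMap_restrict]
  constructor
  · refine S34IN_image_stable emb q N' N hq hqN hN _ V (fun y hy => ?_) x hx
    rw [← S34IN_coeffMap_restrict]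
    exact (hV y hy).1
  · have hπ : S18K_π A K1 = HahnSeries.C ((S18K_D A K1).inc (S18K_D A K1).π) := rfl
    rw [hπ]
    refine S34IN_image_congr emb q N' N hq hqN hN _ V _ ?_ (fun y hy _ => ?_) x hx
    · intro h0
      exact (S18K_D A K1).π_ne_zero ((S18K_D A K1).inc_injective (by rw [h0, map_zero]))
    · rw [← S34IN_coeffMap_restrict]
      exact (hV y hy).2

/-- **P1c-INERT**: the contract `S34K_Inert` for `V2 = w(V1)`, from the same statement for the
Gauss ring `V1 = S18K_V A K1 N`. -/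
theorem S34IN_inert
    (hV1 : ∀ τ : GQ, τ ∈ A.inertiaSubgroupIn ℚ → ∀ x ∈ S18K_V A K1 N,
      coeffMap ((S34K0_restrict K1 hstab τ : K1 ≃ₐ[ℚ] K1) : K1 →+* K1) x ∈ S18K_V A K1 N ∧
      ∃ c ∈ S18K_V A K1 N,
        coeffMap ((S34K0_restrict K1 hstab τ : K1 ≃ₐ[ℚ] K1) : K1 →+* K1) x - x
          = S18K_π A K1 * c) :
    S34K_Inert A K1 hstab (S34V0_image emb q N' N hq hqN hN (S18K_V A K1 N)) :=
  fun τ hτ => S34IN_inertAt_image A K1 hstab emb q N' N hq hqN hN τ _ (hV1 τ hτ)

open Fermat.Agent.S34_helper21_ACT in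
/-- the inertia statement for the Gauss ring `V1` (helper21's X-ACT, in the contract's shape) -/
theorem S34IN_inert_V1 : S34K_Inert A K1 hstab (S18K_V A K1 N) := by
  intro τ hτ x hx
  refine ⟨S34ACT_mem_V K1 hstab A N τ (S34ACT_inertia_mem A τ hτ) hx, ?_⟩
  obtain ⟨y, hy, e⟩ := S34ACT_inertia_V K1 hstab A τ hτ N hx
  exact ⟨y, hy, e⟩

/-- **P1c-INERT, final form**: `S34K_Inert` for `V2 = w(V1)`, `V1` the Gauss ring of level `N`,
`N = q N'`, `q ∤ N'`; any admissible `G_ℚ`-stable level `K1`. -/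
theorem S34IN_inert_main :
    S34K_Inert A K1 hstab (S34V0_image emb q N' N hq hqN hN (S18K_V A K1 N)) :=
  S34IN_inert A K1 hstab emb q N' N hq hqN hN (S34IN_inert_V1 A K1 hstab N)

/-- the same for the level written `N' * q` (the convention of the owner contracts) -/
theorem S34IN_inert_main' [NeZero (N' * q)] :
    S34K_Inert A K1 hstab
      (S34V0_image emb q N' (N' * q) hq hqN (Nat.mul_comm N' q) (S18K_V A K1 (N' * q))) :=
  S34IN_inert_main A K1 hstab emb q N' (N' * q) hq hqN (Nat.mul_comm N' q)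

end Concrete

end Fermat.Agent.S34_helper5_INERT
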