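import Mathlib
import Fermat.Agent.S34_helper18_CUSP
import Fermat.Agent.S34_helper20_V0
import Fermat.Agent.S18_helper26_DEGK1
import Fermat.Agent.S18_helper25_COREDefs
import Fermat.Agent.S18_helper13_FIN

/-!
# S34, piece X-REL-FROM-HJQ (helper5): the modular relation from integrality alone

`S34CUSP_Rel O j θ q` (helper18, `S34_helper18_CUSP`), in both orders, for `θ = j(q^q)` and
`O = S18K_O A K1`, from the single hypothesis `hjq : θ is integral over O[j]`.

* `S34REL_sym` (abstract): for an integrally closed polynomial ring `R[X]`, `j` transcendental,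
  `θ` integral over `R[j]`, and a symmetry of the relations (`G(j, θ) = 0 → G(θ, j) = 0`), the
  minimal polynomial `P` of `θ` over `R[j]` is SYMMETRIC: `swap P = P`.  (It divides `swap P`;
  compare degrees; the sign `-1` is excluded because `Y - X` would divide `P`.)
* `S34REL_shape`, `S34REL_rel_of_sym`: a monic symmetric `P` of degree `n ≤ q + 1` has constant
  coefficient monic of degree `n` and all other coefficients of degree `≤ n - 1`; after padding
  with `Y ^ k + X ^ k`, `k = q + 1 - n`, it gives `S34CUSP_Rel`.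
* `S34REL_clear`: clearing denominators of a two-variable polynomial.
* `S34REL_main`: the concrete statement; the symmetry is helper20's Atkin-Lehner involution
  (`S34V0_w` at `N' = 1`), the degree bound is `S18DEG_stepA`.
-/

set_option autoImplicit false
set_option linter.style.haveILetI false

open Polynomial

namespace Fermat.Agent.S34_helper5_REL

section Swap

variable {R : Type*} [CommRing R]

/-- the coefficients of `swap P` -/
theorem S34REL_coeff_swap (P : R[X][X]) (a b : ℕ) :
    ((Bivariate.swap P).coeff a).coeff b = (P.coeff b).coeff a := by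
  induction P using Polynomial.induction_on' with
  | add p q hp hq => simp only [map_add, coeff_add, hp, hq]
  | monomial n f =>
    induction f using Polynomial.induction_on' with
    | add p q hp hq => simp only [map_add, coeff_add, hp, hq]
    | monomial m r =>
      rw [Bivariate.swap_monomial_monomial]
      by_cases h1 : m = a <;> by_cases h2 : n = b <;> simp [coeff_monomial, h1, h2]

/-- evaluation on the diagonal is invariant under `swap` -/
theorem S34REL_eval_swap (P : R[X][X]) :
    (Bivariate.swap P).eval (X : R[X]) = P.eval (X : R[X]) := by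
  induction P using Polynomial.induction_on' with
  | add p q hp hq => simp only [map_add, eval_add, hp, hq]
  | monomial n f =>
    induction f using Polynomial.induction_on' with
    | add p q hp hq => simp only [map_add, eval_add, hp, hq]
    | monomial m r =>
      rw [Bivariate.swap_monomial_monomial, eval_monomial, eval_monomial,
        ← C_mul_X_pow_eq_monomial, ← C_mul_X_pow_eq_monomial]
      ring

end Swap

section Sym

variable {R L : Type*} [CommRing R] [Field L] [Algebra R L]

/-- the `R[X]`-algebra evaluation at `θ` is the two-variable evaluation -/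
theorem S34REL_aeval_eq (j θ : L) (G : R[X][X]) :
    letI : Algebra R[X] L := (aeval j : R[X] →ₐ[R] L).toRingHom.toAlgebra
    aeval θ G = aevalAeval j θ G := by
  letI : Algebra R[X] L := (aeval j : R[X] →ₐ[R] L).toRingHom.toAlgebra
  induction G using Polynomial.induction_on' with
  | add p q hp hq => simp only [map_add, hp, hq]
  | monomial n f =>
    rw [aeval_monomial, ← C_mul_X_pow_eq_monomial, map_mul, map_pow, aevalAeval_C, aevalAeval_Y]
    rfl

theorem S34REL_icl_of_ufd (R : Type*) [CommRing R] [IsDomain R] [UniqueFactorizationMonoid R] :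
    IsIntegrallyClosed R[X] := inferInstance

variable [IsDomain R] [IsIntegrallyClosed R[X]]

/-- **The minimal polynomial is symmetric.** -/
theorem S34REL_sym (j θ : L) (hj : Function.Injective (aeval j : R[X] → L))
    (h2 : (2 : R) ≠ 0) (hne : θ ≠ j)
    (hint : ∃ Q : R[X][X], Q.Monic ∧ aevalAeval j θ Q = 0)
    (hsw : ∀ G : R[X][X], aevalAeval j θ G = 0 → aevalAeval θ j G = 0) :
    ∃ P : R[X][X], P.Monic ∧ aevalAeval j θ P = 0 ∧ Bivariate.swap P = P ∧
      ∀ G : R[X][X], aevalAeval j θ G = 0 → P ∣ G := by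
  letI alg : Algebra R[X] L := (aeval j : R[X] →ₐ[R] L).toRingHom.toAlgebra
  haveI : FaithfulSMul R[X] L := (faithfulSMul_iff_algebraMap_injective R[X] L).mpr hj
  have hev : ∀ G : R[X][X], aeval θ G = aevalAeval j θ G := S34REL_aeval_eq j θ
  obtain ⟨Q, hQm, hQ⟩ := hint
  have hθ : IsIntegral R[X] θ := ⟨Q, hQm, by rw [← aeval_def, hev]; exact hQ⟩
  have hPm : (minpoly R[X] θ).Monic := minpoly.monic hθ
  have hP0 : aevalAeval j θ (minpoly R[X] θ) = 0 := by rw [← hev]; exact minpoly.aeval _ _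
  have hdvd : ∀ G, aevalAeval j θ G = 0 → minpoly R[X] θ ∣ G :=
    fun G hG => minpoly.isIntegrallyClosed_dvd hθ (by rw [hev]; exact hG)
  generalize minpoly R[X] θ = P at hPm hP0 hdvd
  have hPne : P ≠ 0 := hPm.ne_zero
  have hsP : aevalAeval j θ (Bivariate.swap P) = 0 := by
    rw [Bivariate.aevalAeval_swap]; exact hsw P hP0
  obtain ⟨G, hG⟩ := hdvd _ hsP
  have hsPne : Bivariate.swap P ≠ 0 := fun h => hPne (by
    have := congrArg Bivariate.swap h
    rwa [Bivariate.swap_swap_apply, map_zero] at this)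
  have hGne : G ≠ 0 := fun h => hsPne (by rw [hG, h, mul_zero])
  have hsGne : Bivariate.swap G ≠ 0 := fun h => hGne (by
    have := congrArg Bivariate.swap h
    rwa [Bivariate.swap_swap_apply, map_zero] at this)
  have hd1 : (Bivariate.swap P).natDegree = P.natDegree + G.natDegree := by
    rw [hG, natDegree_mul hPne hGne]
  have hd2 : P.natDegree = (Bivariate.swap P).natDegree + (Bivariate.swap G).natDegree := by
    have h1 : P = Bivariate.swap P * Bivariate.swap G := by
      conv_lhs => rw [← Bivariate.swap_swap_apply P, hG, map_mul]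
    conv_lhs => rw [h1]
    rw [natDegree_mul hsPne hsGne]
  have hG0 : G.natDegree = 0 := by omega
  have hsG0 : (Bivariate.swap G).natDegree = 0 := by omega
  obtain ⟨g, hg⟩ := natDegree_eq_zero.mp hG0
  have hg0 : g.natDegree = 0 := by
    rw [← hg, Bivariate.swap_C, natDegree_map_eq_of_injective C_injective] at hsG0
    exact hsG0
  obtain ⟨c, hc⟩ := natDegree_eq_zero.mp hg0
  have hGc : G = C (C c) := by rw [← hg, ← hc]
  rw [hGc] at hG
  -- `c ^ 2 = 1`
  have hcc : c * c = 1 := by
    have h1 : P = P * C (C (c * c)) := by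
      conv_lhs => rw [← Bivariate.swap_swap_apply P, hG, map_mul, Bivariate.swap_C_C, hG]
      rw [mul_assoc, ← C_mul, ← C_mul]
    have h3 : P * (1 - C (C (c * c))) = 0 := by
      rw [mul_sub, mul_one, ← h1, sub_self]
    rcases mul_eq_zero.mp h3 with h | h
    · exact absurd h hPne
    · have h4 : (C (C (c * c)) : R[X][X]) = C (C 1) := by
        rw [C_1, C_1]; exact (sub_eq_zero.mp h).symm
      exact C_injective (C_injective h4)
  have hc1 : c = 1 ∨ c = -1 := by
    have : (c - 1) * (c + 1) = 0 := by ring_nf; rw [sq, hcc]; ring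
    rcases mul_eq_zero.mp this with h | h
    · exact Or.inl (sub_eq_zero.mp h)
    · exact Or.inr (eq_neg_of_add_eq_zero_left h)
  rcases hc1 with hc1 | hc1
  · refine ⟨P, hPm, hP0, ?_, hdvd⟩
    rw [hG, hc1, C_1, C_1, mul_one]
  · exfalso
    have hneg : Bivariate.swap P = -P := by
      rw [hG, hc1, C_neg, C_neg, C_1, C_1, mul_neg, mul_one]
    have hD : P.eval (X : R[X]) = 0 := by
      have h1 := S34REL_eval_swap P
      rw [hneg, eval_neg] at h1
      have h3 : (2 : R[X]) * P.eval (X : R[X]) = 0 := by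
        rw [two_mul]; nth_rewrite 1 [← h1]; exact neg_add_cancel _
      rcases mul_eq_zero.mp h3 with h | h
      · exfalso
        have h4 := congrArg (fun p : R[X] => p.coeff 0) h
        simp only [coeff_zero] at h4
        exact h2 (by simpa using h4)
      · exact h
    obtain ⟨P1, hP1⟩ := dvd_iff_isRoot.mpr hD
    have hP1ne : P1 ≠ 0 := fun h => hPne (by rw [hP1, h, mul_zero])
    have h5 : aevalAeval j θ P1 = 0 := by
      have h6 := hP0
      rw [hP1, map_mul, map_sub, aevalAeval_Y, aevalAeval_X] at h6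
      rcases mul_eq_zero.mp h6 with h | h
      · exact absurd (sub_eq_zero.mp h) hne
      · exact h
    have h7 := natDegree_le_of_dvd (hdvd P1 h5) hP1ne
    have h8 : P.natDegree = 1 + P1.natDegree := by
      rw [hP1, natDegree_mul (X_sub_C_ne_zero _) hP1ne, natDegree_X_sub_C]
    omega

end Sym


section Shape

open Fermat.Agent.S34_helper18_CUSP

variable {L : Type*} [Field L]

/-- from a two-variable polynomial of the right shape to `S34CUSP_Rel` -/
theorem S34REL_rel_of_shape (O : Subring L) (j θ : L) (q : ℕ) (P : (O)[X][X]) (hPm : P.Monic)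
    (hPd : P.natDegree = q + 1) (hP0 : aevalAeval j θ P = 0)
    (h0m : (P.coeff 0).Monic) (h0d : (P.coeff 0).natDegree = q + 1)
    (hi : ∀ i, 1 ≤ i → i ≤ q → (P.coeff i).natDegree ≤ q) : S34CUSP_Rel O j θ q := by
  refine ⟨P.map (aeval j : (O)[X] →ₐ[O] L).toRingHom, hPm.map _, ?_, ?_, ?_, ?_⟩
  · rw [hPm.natDegree_map, hPd]
  · rw [eval_map]
    have h := S34REL_aeval_eq (R := O) j θ P
    rw [hP0] at h
    exact h
  · intro i h1 h2
    exact ⟨P.coeff i, hi i h1 h2, by rw [coeff_map]; rfl⟩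
  · exact ⟨P.coeff 0, h0m, h0d, by rw [coeff_map]; rfl⟩

/-- the shape of a monic symmetric polynomial -/
theorem S34REL_shape {R : Type*} [CommRing R] [Nontrivial R] (P : R[X][X]) (hPm : P.Monic)
    (hsym : Bivariate.swap P = P) :
    (∀ a, (P.coeff a).natDegree ≤ P.natDegree) ∧
    (∀ a, 1 ≤ a → 1 ≤ P.natDegree → (P.coeff a).natDegree ≤ P.natDegree - 1) ∧
    (P.coeff 0).Monic ∧ (P.coeff 0).natDegree = P.natDegree := by
  have hs : ∀ a b, (P.coeff a).coeff b = (P.coeff b).coeff a := by
    intro a b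
    conv_lhs => rw [← hsym]
    exact S34REL_coeff_swap P a b
  have hle : ∀ a, (P.coeff a).natDegree ≤ P.natDegree := by
    intro a
    rw [natDegree_le_iff_coeff_eq_zero]
    intro b hb
    rw [hs, coeff_eq_zero_of_natDegree_lt hb, coeff_zero]
  have htop : ∀ a, (P.coeff a).coeff P.natDegree = if a = 0 then 1 else 0 := by
    intro a
    rw [hs, hPm.coeff_natDegree, coeff_one]
  refine ⟨hle, ?_, ?_, ?_⟩
  · intro a ha hn
    rw [natDegree_le_iff_coeff_eq_zero]
    intro b hb
    rcases Nat.lt_or_ge P.natDegree b with h | h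
    · rw [hs, coeff_eq_zero_of_natDegree_lt h, coeff_zero]
    · have hbn : b = P.natDegree := by omega
      rw [hbn, htop, if_neg (by omega)]
  · exact monic_of_natDegree_le_of_coeff_eq_one _ (hle 0) (by rw [htop, if_pos rfl])
  · refine le_antisymm (hle 0) (le_natDegree_of_ne_zero ?_)
    rw [htop, if_pos rfl]
    exact one_ne_zero

/-- **From the symmetric minimal polynomial to the modular relation.** -/
theorem S34REL_rel_of_sym (O : Subring L) (j θ : L) (q : ℕ) (P : (O)[X][X]) (hPm : P.Monic)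
    (hnq : P.natDegree ≤ q + 1) (hP0 : aevalAeval j θ P = 0)
    (hsym : Bivariate.swap P = P) : S34CUSP_Rel O j θ q := by
  obtain ⟨hle, hlt, h0m, h0d⟩ := S34REL_shape P hPm hsym
  have hn1 : 1 ≤ P.natDegree := by
    by_contra h
    have h0 : P.natDegree = 0 := by omega
    have h1 : P = 1 := hPm.natDegree_eq_zero.mp h0
    rw [h1, map_one] at hP0
    exact one_ne_zero hP0
  rcases Nat.eq_or_lt_of_le hnq with hn | hn
  · refine S34REL_rel_of_shape O j θ q P hPm hn hP0 h0m (by rw [h0d, hn]) ?_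
    intro i h1 _
    have := hlt i h1 hn1
    omega
  · -- padding
    set n := P.natDegree with hn_def
    set k := q + 1 - n with hk
    have hk1 : 1 ≤ k := by omega
    have hT : ((X : (O)[X][X]) ^ k + C ((X : (O)[X]) ^ k)).Monic := by
      refine monic_X_pow_add ?_
      rw [degree_C (pow_ne_zero _ X_ne_zero)]
      exact_mod_cast hk1
    have hTd : ((X : (O)[X][X]) ^ k + C ((X : (O)[X]) ^ k)).natDegree = k := by
      rw [natDegree_add_eq_left_of_natDegree_lt, natDegree_X_pow]
      rw [natDegree_C, natDegree_X_pow]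
      exact hk1
    have hcoeff : ∀ i, (P * ((X : (O)[X][X]) ^ k + C ((X : (O)[X]) ^ k))).coeff i =
        (if k ≤ i then P.coeff (i - k) else 0) + P.coeff i * (X : (O)[X]) ^ k := by
      intro i
      rw [mul_add, coeff_add, coeff_mul_X_pow', coeff_mul_C]
    refine S34REL_rel_of_shape O j θ q _ (hPm.mul hT) ?_ ?_ ?_ ?_ ?_
    · rw [hPm.natDegree_mul hT, hTd]
      omega
    · rw [map_mul, hP0, zero_mul]
    · rw [hcoeff 0, if_neg (by omega), zero_add]
      exact h0m.mul (monic_X_pow k)
    · rw [hcoeff 0, if_neg (by omega), zero_add, h0m.natDegree_mul (monic_X_pow k),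
        natDegree_X_pow, h0d]
      omega
    · intro i h1 h2
      rw [hcoeff i]
      refine (natDegree_add_le _ _).trans (max_le ?_ ?_)
      · split_ifs
        · exact (hle _).trans (by omega)
        · simp
      · refine natDegree_mul_le.trans ?_
        rw [natDegree_X_pow]
        have := hlt i h1 hn1
        omega

end Shape

section Clear

variable {R K : Type*} [CommRing R] [Field K]

/-- the two-variable `R`-algebra evaluation as an iterated `eval₂` -/
theorem S34REL_aevalAeval_eq_eval₂ {A : Type*} [CommRing A] [Algebra R A] (x y : A)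
    (G : R[X][X]) :
    aevalAeval x y G = eval₂ (eval₂RingHom (algebraMap R A) x) y G := by
  induction G using Polynomial.induction_on' with
  | add p q hp hq => simp only [map_add, eval₂_add, hp, hq]
  | monomial n f =>
    rw [← C_mul_X_pow_eq_monomial, map_mul, map_pow, aevalAeval_C, aevalAeval_Y, eval₂_mul,
      eval₂_pow, eval₂_C, eval₂_X]
    rfl

/-- clearing the denominators of a two-variable polynomial -/
theorem S34REL_clear (ι : R →+* K)
    (hfrac : ∀ c : K, ∃ a b : R, ι b ≠ 0 ∧ ι b * c = ι a) (Q : K[X][X]) :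
    ∃ d : R, ι d ≠ 0 ∧ ∃ G : R[X][X], G.map (mapRingHom ι) = C (C (ι d)) * Q := by
  have hadd : ∀ Q₁ Q₂ : K[X][X],
      (∃ d : R, ι d ≠ 0 ∧ ∃ G : R[X][X], G.map (mapRingHom ι) = C (C (ι d)) * Q₁) →
      (∃ d : R, ι d ≠ 0 ∧ ∃ G : R[X][X], G.map (mapRingHom ι) = C (C (ι d)) * Q₂) →
      ∃ d : R, ι d ≠ 0 ∧ ∃ G : R[X][X], G.map (mapRingHom ι) = C (C (ι d)) * (Q₁ + Q₂) := by
    rintro Q₁ Q₂ ⟨d₁, hd₁, G₁, hG₁⟩ ⟨d₂, hd₂, G₂, hG₂⟩
    refine ⟨d₁ * d₂, by rw [map_mul]; exact mul_ne_zero hd₁ hd₂,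
      C (C d₂) * G₁ + C (C d₁) * G₂, ?_⟩
    rw [Polynomial.map_add, Polynomial.map_mul, Polynomial.map_mul, hG₁, hG₂, map_C, map_C,
      coe_mapRingHom, map_C, map_C, map_mul, C_mul, C_mul]
    ring
  induction Q using Polynomial.induction_on' with
  | add p q hp hq => exact hadd p q hp hq
  | monomial n f =>
    induction f using Polynomial.induction_on' with
    | add p q hp hq =>
      rw [map_add]
      exact hadd _ _ hp hq
    | monomial m c =>
      obtain ⟨a, b, hb, hab⟩ := hfrac c
      refine ⟨b, hb, monomial n (monomial m a), ?_⟩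
      rw [map_monomial, coe_mapRingHom, map_monomial, C_mul_monomial, C_mul_monomial, hab]

end Clear

section Concrete

open ModularCurve Fermat.Agent.S18_helper25_COREDefs Fermat.Agent.S18_helper9_CDefs
  Fermat.Agent.S34_helper18_CUSP Fermat.Agent.S34_helper20_V0
  Fermat.Agent.S24_helper28_DEGleAlg

variable (A : ValuationSubring (AlgebraicClosure ℚ))
  (K1 : IntermediateField ℚ (AlgebraicClosure ℚ))

/-- the ring isomorphism `O1 ≃ O` -/
noncomputable def S34REL_e : ↥(S18K_O1 A K1).toSubring ≃+* ↥(S18K_O A K1) :=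
  (S18K_O1 A K1).toSubring.equivMapOfInjective (HahnSeries.C : K1 →+* LaurentSeries K1)
    HahnSeries.C_injective

/-- the constants of `O` as elements of `K1` -/
noncomputable def S34REL_ι : ↥(S18K_O A K1) →+* K1 :=
  (S18K_O1 A K1).toSubring.subtype.comp (S34REL_e A K1).symm.toRingHom

theorem S34REL_C_ι (a : ↥(S18K_O A K1)) :
    HahnSeries.C (S34REL_ι A K1 a) = (a : LaurentSeries K1) := by
  have h := Subring.coe_equivMapOfInjective_apply (s := (S18K_O1 A K1).toSubring)
    (f := (HahnSeries.C : K1 →+* LaurentSeries K1)) HahnSeries.C_injective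
    ((S34REL_e A K1).symm a)
  have h2 : (S34REL_e A K1) ((S34REL_e A K1).symm a) = a := RingEquiv.apply_symm_apply _ _
  calc HahnSeries.C (S34REL_ι A K1 a)
      = ((S34REL_e A K1 ((S34REL_e A K1).symm a) : ↥(S18K_O A K1)) : LaurentSeries K1) := h.symm
    _ = (a : LaurentSeries K1) := by rw [h2]

theorem S34REL_ι_injective : Function.Injective (S34REL_ι A K1) := by
  intro a b hab
  apply Subtype.ext
  rw [← S34REL_C_ι, ← S34REL_C_ι, hab]

theorem S34REL_ι_mem (a : ↥(S18K_O A K1)) : S34REL_ι A K1 a ∈ S18K_O1 A K1 :=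
  ((S34REL_e A K1).symm a).2

theorem S34REL_comp_ι :
    (algebraMap K1 (LaurentSeries K1)).comp (S34REL_ι A K1) =
      algebraMap ↥(S18K_O A K1) (LaurentSeries K1) := by
  ext1 a
  have h1 : algebraMap K1 (LaurentSeries K1) (S34REL_ι A K1 a) =
      HahnSeries.C (S34REL_ι A K1 a) := by
    rw [algebraMap_laurentSeries_eq_single, HahnSeries.C_apply]
  rw [RingHom.comp_apply, h1, S34REL_C_ι]
  rfl

theorem S34REL_frac (c : K1) :
    ∃ a b : ↥(S18K_O A K1), S34REL_ι A K1 b ≠ 0 ∧ S34REL_ι A K1 b * c = S34REL_ι A K1 a := by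
  have key : ∀ x : K1, x ∈ S18K_O1 A K1 →
      ∃ a : ↥(S18K_O A K1), S34REL_ι A K1 a = x := by
    intro x hx
    refine ⟨S34REL_e A K1 ⟨x, hx⟩, ?_⟩
    simp [S34REL_ι]
  rcases (S18K_O1 A K1).mem_or_inv_mem c with h | h
  · obtain ⟨a, ha⟩ := key c h
    obtain ⟨b, hb⟩ := key 1 (one_mem _)
    exact ⟨a, b, by rw [hb]; exact one_ne_zero, by rw [hb, ha, one_mul]⟩
  · by_cases hc : c = 0
    · obtain ⟨b, hb⟩ := key 1 (one_mem _)
      obtain ⟨a, ha⟩ := key 0 (zero_mem _)
      exact ⟨a, b, by rw [hb]; exact one_ne_zero, by rw [hb, ha, hc, mul_zero]⟩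
    · obtain ⟨b, hb⟩ := key c⁻¹ h
      obtain ⟨a, ha⟩ := key 1 (one_mem _)
      exact ⟨a, b, by rw [hb]; exact inv_ne_zero hc, by rw [hb, ha, inv_mul_cancel₀ hc]⟩

/-- `j` is transcendental over `O` -/
theorem S34REL_inj :
    Function.Injective (aeval (S18K_j K1) : (↥(S18K_O A K1))[X] → LaurentSeries K1) := by
  rw [injective_iff_map_eq_zero]
  intro p hp
  have h1 : aeval (jqModC K1) (p.map (S34REL_ι A K1)) = 0 := by
    rw [aeval_def, eval₂_map, S34REL_comp_ι]
    exact hp
  have h2 := (transcendental_iff.mp (Fermat.Agent.S18_helper13_FIN.S18FIN_transcendental K1))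
    _ h1
  exact Polynomial.map_injective _ (S34REL_ι_injective A K1) (by rw [h2, Polynomial.map_zero])

/-- `θ ≠ j` -/
theorem S34REL_ne (q : ℕ) [NeZero q] (hq : q.Prime) :
    qExpand K1 q (jqModC K1) ≠ S18K_j K1 := by
  intro h
  have h1 : (qExpand K1 q (jqModC K1)).coeff (-1) = 0 := by
    apply qExpand_coeff_of_not_dvd
    intro hd
    have h2 : (q : ℤ) ∣ 1 := (Int.dvd_neg).mp hd
    have h3 := Int.le_of_dvd one_pos h2
    have h4 := hq.two_le
    omega
  rw [h] at h1
  have h2 : (S18K_j K1).coeff (-1) = 1 := coeff_jqModC_neg_one K1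
  rw [h2] at h1
  exact one_ne_zero h1

end Concrete

section Lift

open Fermat.Agent.S18_helper9_CDefs

variable {L : Type*} [Field L]

theorem S34REL_aeval_mem_adj (O : Subring L) (j : L) (p : (↥O)[X]) : aeval j p ∈ adj O j := by
  induction p using Polynomial.induction_on' with
  | add p q hp hq => rw [map_add]; exact Subring.add_mem _ hp hq
  | monomial n a =>
    rw [aeval_monomial]
    exact Subring.mul_mem _ (Fermat.Agent.S34_helper18_CUSP.S34CUSP_O_le_adj O j a.2)
      (Subring.pow_mem _ (Fermat.Agent.S34_helper18_CUSP.S34CUSP_mem_adj O j) _)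

theorem S34REL_exists_aeval (O : Subring L) (j : L) {y : L} (hy : y ∈ adj O j) :
    ∃ p : (↥O)[X], aeval j p = y := by
  have hy' : y ∈ Subring.closure ((O : Set L) ∪ {j}) := hy
  refine Subring.closure_induction (s := (O : Set L) ∪ {j})
    (p := fun (y : L) (_ : y ∈ Subring.closure ((O : Set L) ∪ {j})) =>
      ∃ p : (↥O)[X], aeval j p = y) ?_ ?_ ?_ ?_ ?_ ?_ hy'
  · rintro x (hx | hx)
    · exact ⟨C ⟨x, hx⟩, by rw [aeval_C]; rfl⟩
    · rw [Set.mem_singleton_iff] at hx
      exact ⟨X, by rw [aeval_X, hx]⟩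
  · exact ⟨0, map_zero _⟩
  · exact ⟨1, map_one _⟩
  · rintro x y _ _ ⟨p, hp⟩ ⟨q, hq⟩
    exact ⟨p + q, by rw [map_add, hp, hq]⟩
  · rintro x _ ⟨p, hp⟩
    exact ⟨-p, by rw [map_neg, hp]⟩
  · rintro x y _ _ ⟨p, hp⟩ ⟨q, hq⟩
    exact ⟨p * q, by rw [map_mul, hp, hq]⟩

/-- an element integral over `O[j]` is a root of a two-variable polynomial over `O`, monic in
the second variable -/
theorem S34REL_lift (O : Subring L) (j θ : L) (h : IsIntegral ↥(adj O j) θ) :
    ∃ Q : (↥O)[X][X], Q.Monic ∧ aevalAeval j θ Q = 0 := by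
  obtain ⟨p, hpm, hp⟩ := h
  let f : (↥O)[X] →+* ↥(adj O j) :=
    (aeval j : (↥O)[X] →ₐ[↥O] L).toRingHom.codRestrict (adj O j)
      (fun p => S34REL_aeval_mem_adj O j p)
  have hf : ∀ y : ↥(adj O j), ∃ p : (↥O)[X], f p = y := by
    intro y
    obtain ⟨p, hp⟩ := S34REL_exists_aeval O j y.2
    exact ⟨p, Subtype.ext hp⟩
  have hl : p ∈ lifts f := by
    rw [lifts_iff_coeff_lifts]
    intro n
    obtain ⟨c, hc⟩ := hf (p.coeff n)
    exact ⟨c, hc⟩
  obtain ⟨Q, hQ, -, hQm⟩ := lifts_and_natDegree_eq_and_monic hl hpm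
  refine ⟨Q, hQm, ?_⟩
  rw [S34REL_aevalAeval_eq_eval₂, ← hp, ← hQ, eval₂_map]
  rfl

end Lift

section SwapGeneric

variable {K L : Type*} [Field K] [Field L] [Algebra K L]

theorem S34REL_val_eval₂ (F : IntermediateField K L) (x y : F) (G : K[X][X]) :
    ((eval₂ (eval₂RingHom (algebraMap K F) x) y G : F) : L) =
      eval₂ (eval₂RingHom (algebraMap K L) (x : L)) (y : L) G := by
  have h := hom_eval₂ G (eval₂RingHom (algebraMap K F) x) (algebraMap F L) y
  have hc : (algebraMap F L).comp (eval₂RingHom (algebraMap K F) x) =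
      eval₂RingHom (algebraMap K L) (x : L) := by
    apply Polynomial.ringHom_ext
    · intro a
      simp only [RingHom.comp_apply, coe_eval₂RingHom, eval₂_C]
      rfl
    · simp only [RingHom.comp_apply, coe_eval₂RingHom, eval₂_X]
      rfl
  rw [hc] at h
  exact h

/-- a relation `G(x, y) = 0` is transported by an automorphism exchanging `x` and `y` -/
theorem S34REL_sw_generic (F : IntermediateField K L) (w : F ≃ₐ[K] F) (x y : F)
    (hx : w x = y) (hy : w y = x) (G : K[X][X])
    (h : eval₂ (eval₂RingHom (algebraMap K L) (x : L)) (y : L) G = 0) :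
    eval₂ (eval₂RingHom (algebraMap K L) (y : L)) (x : L) G = 0 := by
  rw [← S34REL_val_eval₂] at h ⊢
  have h0 : eval₂ (eval₂RingHom (algebraMap K F) x) y G = 0 := by
    apply Subtype.ext
    rw [h]
    rfl
  have h1 := hom_eval₂ G (eval₂RingHom (algebraMap K F) x) (w : F →+* F) y
  have hc : (w : F →+* F).comp (eval₂RingHom (algebraMap K F) x) =
      eval₂RingHom (algebraMap K F) y := by
    apply Polynomial.ringHom_ext
    · intro a
      simp only [RingHom.comp_apply, coe_eval₂RingHom, eval₂_C]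
      exact w.commutes a
    · simp only [RingHom.comp_apply, coe_eval₂RingHom, eval₂_X]
      exact hx
  rw [hc, h0, map_zero] at h1
  have h2 : (w : F →+* F) y = x := hy
  rw [h2] at h1
  rw [← h1]
  rfl

end SwapGeneric

section Main

open ModularCurve Fermat.Agent.S18_helper25_COREDefs Fermat.Agent.S18_helper9_CDefs
  Fermat.Agent.S34_helper18_CUSP Fermat.Agent.S34_helper20_V0
  Fermat.Agent.S24_helper28_DEGleAlg

variable (A : ValuationSubring (AlgebraicClosure ℚ))
  (K1 : IntermediateField ℚ (AlgebraicClosure ℚ))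

/-- the evaluation of a polynomial over `O` through its image over `K1` -/
theorem S34REL_bridge (x y : LaurentSeries K1) (G : (↥(S18K_O A K1))[X][X]) :
    aevalAeval x y G =
      eval₂ (eval₂RingHom (algebraMap K1 (LaurentSeries K1)) x) y
        (G.map (mapRingHom (S34REL_ι A K1))) := by
  rw [S34REL_aevalAeval_eq_eval₂, eval₂_map]
  congr 1
  apply Polynomial.ringHom_ext
  · intro a
    simp only [RingHom.comp_apply, coe_eval₂RingHom, eval₂_C, coe_mapRingHom, map_C]
    exact (congrArg (fun f => f a) (S34REL_comp_ι A K1)).symm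
  · simp only [RingHom.comp_apply, coe_eval₂RingHom, eval₂_X, coe_mapRingHom, map_X]

theorem S34REL_ev2_eq (x y : LaurentSeries K1) (Q : K1[X][X]) :
    ev2 x y Q = eval₂ (eval₂RingHom (algebraMap K1 (LaurentSeries K1)) x) y Q := by
  unfold ev2
  rw [coe_eval₂RingHom]
  congr 1
  apply Polynomial.ringHom_ext
  · intro a
    simp only [coe_eval₂RingHom, eval₂_C]
    rw [algebraMap_laurentSeries_eq_single, HahnSeries.C_apply]
  · simp only [coe_eval₂RingHom, eval₂_X]

theorem S34REL_θ_mem (q : ℕ) [NeZero q] (hq : q.Prime) :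
    qExpand K1 q (jqModC K1) ∈ modularFunctionFieldFullC K1 q := by
  have hqN : ¬ q ∣ 1 := fun h => hq.one_lt.ne' (Nat.dvd_one.mp h)
  have hN : q = q * 1 := (mul_one q).symm
  rw [← S34V0_wL_j (algebraMap K1 (AlgebraicClosure ℚ)) q 1 q hq hqN hN]
  exact S34V0_wL_mem _ _ _ _ _ _ _ _

/-- the relations between `j` and `θ` are symmetric -/
theorem S34REL_swap_zero (q : ℕ) [NeZero q] (hq : q.Prime) (G : (↥(S18K_O A K1))[X][X])
    (h : aevalAeval (S18K_j K1) (qExpand K1 q (jqModC K1)) G = 0) :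
    aevalAeval (qExpand K1 q (jqModC K1)) (S18K_j K1) G = 0 := by
  have hqN : ¬ q ∣ 1 := fun h => hq.one_lt.ne' (Nat.dvd_one.mp h)
  have hN : q = q * 1 := (mul_one q).symm
  have hjF : jqModC K1 ∈ modularFunctionFieldFullC K1 q := jqModC_mem_full K1 q
  have hθF := S34REL_θ_mem K1 q hq
  rw [S34REL_bridge] at h ⊢
  refine S34REL_sw_generic (modularFunctionFieldFullC K1 q)
    (S34V0_w (algebraMap K1 (AlgebraicClosure ℚ)) q 1 q hq hqN hN)
    ⟨jqModC K1, hjF⟩ ⟨qExpand K1 q (jqModC K1), hθF⟩ ?_ ?_ _ h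
  · apply Subtype.ext
    rw [← S34V0_wL_of_mem (algebraMap K1 (AlgebraicClosure ℚ)) q 1 q hq hqN hN hjF]
    exact S34V0_wL_j _ _ _ _ _ _ _
  · apply Subtype.ext
    rw [← S34V0_wL_of_mem (algebraMap K1 (AlgebraicClosure ℚ)) q 1 q hq hqN hN hθF]
    exact S34V0_wL_jq _ _ _ _ _ _ _

theorem S34REL_mu (q : ℕ) [NeZero q] (hq : q.Prime) : Fermat.Agent.S20.mu q = q + 1 := by
  rw [Fermat.Agent.S20_helper29_A1.A1 q]
  have h := Fermat.Agent.S20_helper29_A1.psi_mul_of_not_dvd q 1 hq one_ne_zero
    (fun h => hq.one_lt.ne' (Nat.dvd_one.mp h))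
  rw [mul_one, ModularCurve.dedekindPsi_one, one_mul] at h
  exact h

/-- a nonzero relation of degree `≤ q + 1` over `O` -/
theorem S34REL_deg (q : ℕ) [NeZero q] (hq : q.Prime) :
    ∃ G : (↥(S18K_O A K1))[X][X], G ≠ 0 ∧ G.natDegree ≤ q + 1 ∧
      aevalAeval (S18K_j K1) (qExpand K1 q (jqModC K1)) G = 0 := by
  obtain ⟨Q, hQ0, hQd, hQ⟩ := Fermat.Agent.S18_helper26_DEGK1.S18DEG_stepA
    (algebraMap K1 (AlgebraicClosure ℚ)) q ⟨qExpand K1 q (jqModC K1), S34REL_θ_mem K1 q hq⟩
  rw [S34REL_mu q hq] at hQd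
  obtain ⟨d, hd, G, hG⟩ := S34REL_clear (S34REL_ι A K1) (S34REL_frac A K1) Q
  have hCd : (C (C (S34REL_ι A K1 d)) : K1[X][X]) ≠ 0 := by
    rw [Ne, C_eq_zero, C_eq_zero]; exact hd
  have hinj : Function.Injective (mapRingHom (S34REL_ι A K1)) :=
    Polynomial.map_injective _ (S34REL_ι_injective A K1)
  refine ⟨G, ?_, ?_, ?_⟩
  · intro h0
    rw [h0, Polynomial.map_zero] at hG
    exact (mul_ne_zero hCd hQ0) hG.symm
  · have h1 : (G.map (mapRingHom (S34REL_ι A K1))).natDegree = G.natDegree :=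
      natDegree_map_eq_of_injective hinj G
    rw [← h1, hG, natDegree_C_mul (by rw [Ne, C_eq_zero]; exact hd)]
    exact hQd
  · have h1 : ev2 (S18K_j K1) (qExpand K1 q (jqModC K1)) Q = 0 := hQ
    rw [S34REL_ev2_eq] at h1
    rw [S34REL_bridge, hG, eval₂_mul, h1, mul_zero]

variable [IsDiscreteValuationRing (S18K_O1 A K1)]

theorem S34REL_isIntegrallyClosed : IsIntegrallyClosed (↥(S18K_O A K1))[X] := by
  haveI h1 : IsDiscreteValuationRing ↥(S18K_O1 A K1).toSubring :=
    inferInstanceAs (IsDiscreteValuationRing ↥(S18K_O1 A K1))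
  haveI h2 : UniqueFactorizationMonoid ↥(S18K_O A K1) :=
    (S34REL_e A K1).toMulEquiv.uniqueFactorizationMonoid inferInstance
  exact S34REL_icl_of_ufd _

set_option synthInstance.maxHeartbeats 400000 in
/-- **X-REL-FROM-HJQ.**  The modular relation `S34CUSP_Rel` between `j` and `θ = j(q^q)`, in both
orders, from the integrality of `θ` over `O[j]` alone. -/
theorem S34REL_main (q : ℕ) [NeZero q] (hq : q.Prime)
    (hjq : IsIntegral ↥(adj (S18K_O A K1) (S18K_j K1)) (qExpand K1 q (jqModC K1))) :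
    S34CUSP_Rel (S18K_O A K1) (S18K_j K1) (qExpand K1 q (jqModC K1)) q ∧
      S34CUSP_Rel (S18K_O A K1) (qExpand K1 q (jqModC K1)) (S18K_j K1) q := by
  haveI := S34REL_isIntegrallyClosed A K1
  have h2 : (2 : ↥(S18K_O A K1)) ≠ 0 := by
    intro h
    have h3 := congrArg (S34REL_ι A K1) h
    rw [map_ofNat, map_zero] at h3
    exact two_ne_zero h3
  obtain ⟨P, hPm, hP0, hsym, hdvd⟩ := S34REL_sym (S18K_j K1) (qExpand K1 q (jqModC K1))
    (S34REL_inj A K1) h2 (S34REL_ne K1 q hq) (S34REL_lift _ _ _ hjq)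
    (S34REL_swap_zero A K1 q hq)
  obtain ⟨G, hG0, hGd, hG⟩ := S34REL_deg A K1 q hq
  have hn : P.natDegree ≤ q + 1 := (natDegree_le_of_dvd (hdvd G hG) hG0).trans hGd
  refine ⟨S34REL_rel_of_sym _ _ _ q P hPm hn hP0 hsym,
    S34REL_rel_of_sym _ _ _ q P hPm hn ?_ hsym⟩
  rw [← Bivariate.aevalAeval_swap, hsym]
  exact hP0

end Main

end Fermat.Agent.S34_helper5_REL
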