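import Fermat.Agent.S34_helper12_FIN3
import Fermat.Agent.S34_helper6_BBW

/-!
# S34 (helper6): the deep branch plugged into the frontier

* `S34BBP_hB` : the input `hB` of helper12's `S34F3_of_frontier`, verbatim (binders included),
  from `S34BBW_A0`;
* `S34BBP_of_two` : the frozen statement of S34 from the TWO remaining families of facts:
  the modular relation `hrel` and the node coordinates `hNode`.
-/

set_option autoImplicit false
set_option linter.unusedSectionVars false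
set_option linter.unusedVariables false
set_option linter.style.haveILetI false

open IsLocalRing
open CuspForm CuspForm.HeckeGaloisRepDatum
open ModularCurve
open Fermat.Agent.S18_helper25_COREDefs Fermat.Agent.S34_Contracts
open Fermat.Agent.S34_helper27_P1C
open Fermat.Agent.S34_helper27_GEOM Fermat.Agent.S34_helper27_GEOM2
open Fermat.Agent.S34_helper18_CUSP Fermat.Agent.S34_helper27_FINAL
open Fermat.Agent.S34_helper27_FINAL2 Fermat.Agent.S34_helper12_FIN3

namespace Fermat.Agent.S34_helper6_BBPLUG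

local notation "Qb" => AlgebraicClosure ℚ
local notation "GQ" => (AlgebraicClosure ℚ ≃ₐ[ℚ] AlgebraicClosure ℚ)

/-- the input `hB` of `S34F3_of_frontier`. -/
theorem S34BBP_hB (N' q p : ℕ) [NeZero (N' * q)] (hq : q.Prime) (hp : p.Prime) (hpq : p ≠ q)
    (hqN : ¬ q ∣ N') (A : ValuationSubring Qb) (hA : A.LiesOverPrime q)
    (K1 : IntermediateField ℚ Qb) (h : S18K_Admissible A K1 q)
    (hstab : ∀ σ : GQ, ∀ x ∈ K1, σ x ∈ K1) :
    letI := h.dvr
    haveI := S34GM_neZero N' q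
    Fermat.Agent.S34_helper7_LGDefs.S34LGK_BranchB (N' * q) A K1 hstab
      (S34P1C_V2 A K1 hq N' hqN) (S18K_A0 A K1 (N' * q)) := by
  letI := h.dvr
  haveI := S34GM_neZero N' q
  exact Fermat.Agent.S34_helper6_BBW.S34BBW_A0 (N' * q) A K1 hstab _
    (S34P1C_setup2 A K1 hq hA N' hqN) (S34GM_inert A K1 hstab hq N' hqN)

/-- **the frozen statement of S34 from the modular relation and the node coordinates.** -/
theorem S34BBP_of_two
    (hrel : ∀ (q : ℕ) (hq : q.Prime) (A : ValuationSubring Qb) (hA : A.LiesOverPrime q)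
      (K1 : IntermediateField ℚ Qb) (h : S18K_Admissible A K1 q)
      (hstab : ∀ σ : GQ, ∀ x ∈ K1, σ x ∈ K1),
      letI := h.dvr
      haveI : NeZero q := ⟨hq.ne_zero⟩
      S34CUSP_Rel (S18K_O A K1) (S18K_j K1) (qExpand K1 q (jqModC K1)) q ∧
        S34CUSP_Rel (S18K_O A K1) (qExpand K1 q (jqModC K1)) (S18K_j K1) q)
    (hNode : ∀ (N' q p : ℕ) [NeZero (N' * q)] (hq : q.Prime) (hp : p.Prime) (hpq : p ≠ q)
      (hqN : ¬ q ∣ N') (A : ValuationSubring Qb) (hA : A.LiesOverPrime q)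
      (K1 : IntermediateField ℚ Qb) (h : S18K_Admissible A K1 q)
      (hstab : ∀ σ : GQ, ∀ x ∈ K1, σ x ∈ K1),
      letI := h.dvr
      haveI := S34GM_neZero N' q
      Fermat.Agent.S34_helper7_LGDefs.S34LGK_Node (N' * q) A K1 hstab
        (S34P1C_V2 A K1 hq N' hqN) (S18K_A0 A K1 (N' * q)))
    {𝒪 : Type} [CommRing 𝒪] [IsDomain 𝒪] [IsDiscreteValuationRing 𝒪]
    [IsAdicComplete (maximalIdeal 𝒪) 𝒪] [Finite (ResidueField 𝒪)] [CharZero 𝒪]
    {p : ℕ} (hp : p.Prime) (hp𝒪 : (p : 𝒪) ∈ maximalIdeal 𝒪)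
    {N : ℕ} [NeZero N] {S : Finset ℕ} (hpS : p ∈ S) (hNS : ∀ q : ℕ, q.Prime → q ∣ N → q ∈ S)
    {θ : CuspForm.heckeAlgebra N 2 (↑S : Set ℕ) →+* ResidueField 𝒪}
    {T : Type} [CommRing T] [IsLocalRing T] [IsNoetherianRing T]
    [IsAdicComplete (maximalIdeal T) T] [Algebra 𝒪 T] [IsLocalHom (algebraMap 𝒪 T)]
    [Module.Finite 𝒪 T] [Module.Free 𝒪 T]
    (H : CuspForm.HeckeGaloisRepDatum N (↑S : Set ℕ) 𝒪 θ T)
    (q : ℕ) (hq : q.Prime) (hqp : q ≠ p) (hqN : q ∣ N) (hq2 : ¬ q ^ 2 ∣ N) :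
    H.ρ.IsUnipotentOnInertiaAt q :=
  S34F3_of_frontier hrel hNode
    (fun N' q p _ hq hp hpq hqN A hA K1 h hstab => S34BBP_hB N' q p hq hp hpq hqN A hA K1 h hstab)
    hp hp𝒪 hpS hNS H q hq hqp hqN hq2

end Fermat.Agent.S34_helper6_BBPLUG
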