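import Mathlib
import Fermat.Agent.S34_helper17_NODE

/-!
# S34, the local generator at a node (Mathlib + `S34_helper17_NODE` only)

`R` is the local ring of the arithmetic surface at a crossing point `n` of the two components of
the special fibre, `O` the ring of integers of the level, `π` its uniformiser, and
`𝔪_R = (π, T, S)`, `T S = Q c` with `Q ∈ O` (the normal form of `S34_helper17_NODE`; in the
vertical part `c` is arbitrary).  `P0` and `Pinf` are the two vertical primes: `π` lies in both,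
`T ∉ P0`, `S ∉ Pinf`.

* `S34LG_oneMod π P N D` : fraction-free form of `N / D ∈ 1 + π R_P`; it is closed under products,
  powers, finite products and under swapping `N` and `D`.
* `S34LG_vert0`, `S34LG_vertInf` : the quotient
  `((T - a₁)(T - a₄)) / ((T - a₂)(T - a₃))` is `≡ 1` modulo `π` on both branches as soon as
  `a₁ a₄ = (1 + π δ) a₂ a₃`.
* `S34LG_char` : that relation for `a₁ = a`, `a₂ = τ a = ε a`, `a₃ = τ' a`, `a₄ = τ' (τ a)`, for
  an endomorphism `τ'` of `O` which is the identity modulo `π` (an element of the inertia group).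
* `S34LG_prime_eq_ker`, `S34LG_unif` : `T - φ T` cuts out exactly the section `φ`, with
  multiplicity one.
* `S34LG_main` : the family version, with multiplicities.
-/

set_option autoImplicit false

namespace Fermat.Agent.S34_helper7_LGEN

open IsLocalRing Ideal Fermat.Agent.S34_helper17_NODE

/-! ### The relation `N / D ≡ 1 mod π` at a prime, fraction-free -/

section Cong

variable {R : Type*} [CommRing R]

/-- `N / D ∈ 1 + π R_P`, written without fractions. -/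
def S34LG_oneMod (π : R) (P : Ideal R) (N D : R) : Prop :=
  ∃ σ ρ : R, σ ∉ P ∧ σ * (N - D) = π * ρ * D

theorem S34LG_oneMod_refl (π : R) {P : Ideal R} (hP : P ≠ ⊤) (N : R) :
    S34LG_oneMod π P N N :=
  ⟨1, 0, (Ideal.ne_top_iff_one P).mp hP, by ring⟩

/-- If `N ≡ D` modulo `π R` and `D` is a unit at `P`, then `N / D ≡ 1`. -/
theorem S34LG_oneMod_of_dvd {π : R} {P : Ideal R} {N D : R} (hD : D ∉ P)
    (h : π ∣ N - D) : S34LG_oneMod π P N D := by
  obtain ⟨ρ, hρ⟩ := h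
  exact ⟨D, ρ, hD, by rw [hρ]; ring⟩

theorem S34LG_oneMod_symm {π : R} {P : Ideal R} [P.IsPrime] (hπ : π ∈ P) {N D : R}
    (h : S34LG_oneMod π P N D) : S34LG_oneMod π P D N := by
  obtain ⟨σ, ρ, hσ, h⟩ := h
  refine ⟨σ + π * ρ, -ρ, ?_, ?_⟩
  · intro hmem
    apply hσ
    have h1 : π * ρ ∈ P := Ideal.mul_mem_right _ _ hπ
    have h2 : σ + π * ρ - π * ρ ∈ P := Ideal.sub_mem _ hmem h1
    simpa using h2
  · linear_combination (-1 : R) * h

theorem S34LG_oneMod_mul {π : R} {P : Ideal R} [P.IsPrime] {N₁ D₁ N₂ D₂ : R}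
    (h₁ : S34LG_oneMod π P N₁ D₁) (h₂ : S34LG_oneMod π P N₂ D₂) :
    S34LG_oneMod π P (N₁ * N₂) (D₁ * D₂) := by
  obtain ⟨σ₁, ρ₁, hσ₁, h₁⟩ := h₁
  obtain ⟨σ₂, ρ₂, hσ₂, h₂⟩ := h₂
  refine ⟨σ₁ * σ₂, ρ₁ * (σ₂ + π * ρ₂) + σ₁ * ρ₂, ?_, ?_⟩
  · intro hmem
    rcases (Ideal.IsPrime.mem_or_mem inferInstance hmem) with h | h
    · exact hσ₁ h
    · exact hσ₂ h
  · linear_combination (σ₂ * N₂) * h₁ + (σ₁ * D₁ + π * ρ₁ * D₁) * h₂

theorem S34LG_oneMod_one (π : R) {P : Ideal R} [hP : P.IsPrime] :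
    S34LG_oneMod π P 1 1 :=
  S34LG_oneMod_refl π hP.ne_top 1

theorem S34LG_oneMod_pow {π : R} {P : Ideal R} [P.IsPrime] {N D : R}
    (h : S34LG_oneMod π P N D) (n : ℕ) : S34LG_oneMod π P (N ^ n) (D ^ n) := by
  induction n with
  | zero => simpa using S34LG_oneMod_one π
  | succ n ih =>
    rw [pow_succ, pow_succ]
    exact S34LG_oneMod_mul ih h

theorem S34LG_oneMod_prod {π : R} {P : Ideal R} [P.IsPrime] {ι : Type*} (s : Finset ι)
    (N D : ι → R) (h : ∀ i ∈ s, S34LG_oneMod π P (N i) (D i)) :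
    S34LG_oneMod π P (∏ i ∈ s, N i) (∏ i ∈ s, D i) := by
  classical
  induction s using Finset.induction_on with
  | empty => simpa using S34LG_oneMod_one π
  | insert a s ha ih =>
    rw [Finset.prod_insert ha, Finset.prod_insert ha]
    exact S34LG_oneMod_mul (h a (Finset.mem_insert_self a s))
      (ih fun i hi => h i (Finset.mem_insert_of_mem hi))

/-- A unit at `P` on one side forces a unit at `P` on the other side. -/
theorem S34LG_oneMod_notMem {π : R} {P : Ideal R} [P.IsPrime] (hπ : π ∈ P) {N D : R}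
    (h : S34LG_oneMod π P N D) (hD : D ∉ P) : N ∉ P := by
  obtain ⟨σ, ρ, hσ, h⟩ := h
  intro hN
  have h1 : σ * D ∈ P := by
    have h2 : σ * D = σ * N - π * ρ * D := by linear_combination (-1 : R) * h
    rw [h2]
    exact Ideal.sub_mem _ (Ideal.mul_mem_left _ _ hN)
      (Ideal.mul_mem_right _ _ (Ideal.mul_mem_right _ _ hπ))
  rcases (Ideal.IsPrime.mem_or_mem inferInstance h1) with h | h
  · exact hσ h
  · exact hD h

/-- Field language: in a field `L` containing `R`, `N / D = 1 + π (ρ / σ)` with `σ ∉ P`. -/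
theorem S34LG_oneMod_field {L : Type*} [Field L] [Algebra R L] {π : R} {P : Ideal R}
    {N D : R} (h : S34LG_oneMod π P N D) (hD : algebraMap R L D ≠ 0)
    (hP : ∀ σ : R, σ ∉ P → algebraMap R L σ ≠ 0) :
    ∃ σ ρ : R, σ ∉ P ∧ algebraMap R L N / algebraMap R L D
      = 1 + algebraMap R L π * (algebraMap R L ρ / algebraMap R L σ) := by
  obtain ⟨σ, ρ, hσ, h⟩ := h
  refine ⟨σ, ρ, hσ, ?_⟩
  have hσ0 := hP σ hσ
  have h1 := congrArg (algebraMap R L) h
  simp only [map_mul, map_sub] at h1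
  field_simp
  linear_combination h1

end Cong

/-! ### The two vertical primes -/

section Vertical

variable {O R : Type*} [CommRing O] [CommRing R] [Algebra O R]

/-- An element `T - α` with `α ∈ π O` is a unit at `P0` as soon as `T` is. -/
theorem S34LG_sub_notMem {π : O} {T : R} (P0 : Ideal R) (hπ0 : algebraMap O R π ∈ P0)
    (hT0 : T ∉ P0) (α : O) (hα : π ∣ α) : T - algebraMap O R α ∉ P0 := by
  obtain ⟨α', rfl⟩ := hα
  intro h
  apply hT0
  have h1 : algebraMap O R (π * α') ∈ P0 := by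
    rw [map_mul]
    exact Ideal.mul_mem_right _ _ hπ0
  have h2 : T - algebraMap O R (π * α') + algebraMap O R (π * α') ∈ P0 := Ideal.add_mem _ h h1
  simpa using h2

/-- **Vertical, branch `P0`** (where `T` is a unit): `(T - α) / (T - β) ≡ 1` modulo `π` for
`α, β ∈ π O`. -/
theorem S34LG_vert0 {π : O} {T : R} (P0 : Ideal R) (hπ0 : algebraMap O R π ∈ P0)
    (hT0 : T ∉ P0) (α β : O) (hα : π ∣ α) (hβ : π ∣ β) :
    S34LG_oneMod (algebraMap O R π) P0 (T - algebraMap O R α) (T - algebraMap O R β) := by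
  refine S34LG_oneMod_of_dvd (S34LG_sub_notMem P0 hπ0 hT0 β hβ) ?_
  obtain ⟨α', rfl⟩ := hα
  obtain ⟨β', rfl⟩ := hβ
  refine ⟨algebraMap O R (β' - α'), ?_⟩
  simp only [map_mul, map_sub]
  ring

/-- The basic identity on the branch `Pinf`: `S (T - a) = a (a'' c - S)` if `a a'' = Q`. -/
theorem S34LG_mul_sub {Q : O} {T S c : R} (hTS : T * S = algebraMap O R Q * c) (a a'' : O)
    (haa : a * a'' = Q) :
    S * (T - algebraMap O R a) = algebraMap O R a * (algebraMap O R a'' * c - S) := by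
  have h1 : algebraMap O R a * algebraMap O R a'' = algebraMap O R Q := by
    rw [← map_mul, haa]
  linear_combination hTS - c * h1

/-- `a'' c - S` is a unit at `Pinf`. -/
theorem S34LG_second_notMem {π : O} {S c : R} (Pinf : Ideal R)
    (hπinf : algebraMap O R π ∈ Pinf) (hSinf : S ∉ Pinf) (a'' : O) (ha'' : π ∣ a'') :
    algebraMap O R a'' * c - S ∉ Pinf := by
  obtain ⟨b, rfl⟩ := ha''
  intro h
  apply hSinf
  have h1 : algebraMap O R (π * b) * c ∈ Pinf := by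
    rw [map_mul]
    exact Ideal.mul_mem_right _ _ (Ideal.mul_mem_right _ _ hπinf)
  have h2 : algebraMap O R (π * b) * c - (algebraMap O R (π * b) * c - S) ∈ Pinf :=
    Ideal.sub_mem _ h1 h
  simpa using h2

/-- **Vertical, branch `Pinf`** (where `S` is a unit and `T = Q c / S`): the cross ratio
`((T - a₁)(T - a₄)) / ((T - a₂)(T - a₃))` is `≡ 1` modulo `π` as soon as
`a₁ a₄ = (1 + π δ) a₂ a₃`.  Here `c` is arbitrary. -/
theorem S34LG_vertInf {π Q : O} {T S c : R} (Pinf : Ideal R) [Pinf.IsPrime]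
    (hπinf : algebraMap O R π ∈ Pinf) (hSinf : S ∉ Pinf)
    (hTS : T * S = algebraMap O R Q * c)
    (a₁ a₂ a₃ a₄ b₁ b₂ b₃ b₄ δ : O)
    (h₁ : a₁ * b₁ = Q) (h₂ : a₂ * b₂ = Q) (h₃ : a₃ * b₃ = Q) (h₄ : a₄ * b₄ = Q)
    (hb₁ : π ∣ b₁) (hb₂ : π ∣ b₂) (hb₃ : π ∣ b₃) (hb₄ : π ∣ b₄)
    (hprod : a₁ * a₄ = (1 + π * δ) * (a₂ * a₃)) :
    S34LG_oneMod (algebraMap O R π) Pinf
      ((T - algebraMap O R a₁) * (T - algebraMap O R a₄))
      ((T - algebraMap O R a₂) * (T - algebraMap O R a₃)) := by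
  have e₁ := S34LG_mul_sub hTS a₁ b₁ h₁
  have e₂ := S34LG_mul_sub hTS a₂ b₂ h₂
  have e₃ := S34LG_mul_sub hTS a₃ b₃ h₃
  have e₄ := S34LG_mul_sub hTS a₄ b₄ h₄
  have n₂ := S34LG_second_notMem (c := c) Pinf hπinf hSinf b₂ hb₂
  have n₃ := S34LG_second_notMem (c := c) Pinf hπinf hSinf b₃ hb₃
  obtain ⟨d₁, rfl⟩ := hb₁
  obtain ⟨d₂, rfl⟩ := hb₂
  obtain ⟨d₃, rfl⟩ := hb₃
  obtain ⟨d₄, rfl⟩ := hb₄
  have hP : algebraMap O R a₁ * algebraMap O R a₄
      = (1 + algebraMap O R π * algebraMap O R δ) * (algebraMap O R a₂ * algebraMap O R a₃) := by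
    rw [← map_mul, hprod]
    simp only [map_mul, map_add, map_one]
  simp only [map_mul] at e₁ e₂ e₃ e₄ n₂ n₃
  set p := algebraMap O R π with hp
  set A₁ := algebraMap O R a₁
  set A₂ := algebraMap O R a₂
  set A₃ := algebraMap O R a₃
  set A₄ := algebraMap O R a₄
  set D₁ := algebraMap O R d₁
  set D₂ := algebraMap O R d₂
  set D₃ := algebraMap O R d₃
  set D₄ := algebraMap O R d₄
  set Δ := algebraMap O R δ
  -- the two "second coordinates"
  set σN : R := (p * D₁ * c - S) * (p * D₄ * c - S) with hσN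
  set σD : R := (p * D₂ * c - S) * (p * D₃ * c - S) with hσD
  have eN : S ^ 2 * ((T - A₁) * (T - A₄)) = A₁ * A₄ * σN := by
    rw [hσN]
    linear_combination (S * (T - A₄)) * e₁ + (A₁ * (p * D₁ * c - S)) * e₄
  have eD : S ^ 2 * ((T - A₂) * (T - A₃)) = A₂ * A₃ * σD := by
    rw [hσD]
    linear_combination (S * (T - A₃)) * e₂ + (A₂ * (p * D₂ * c - S)) * e₃
  set ρ₁ : R := c ^ 2 * p * (D₁ * D₄ - D₂ * D₃) - c * S * (D₁ + D₄ - D₂ - D₃) with hρ₁
  have hdiff : σN - σD = p * ρ₁ := by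
    rw [hσN, hσD, hρ₁]
    ring
  refine ⟨S ^ 2 * σD, S ^ 2 * (Δ * σN + ρ₁), ?_, ?_⟩
  · intro hmem
    rcases (Ideal.IsPrime.mem_or_mem inferInstance hmem) with h | h
    · exact hSinf (Ideal.IsPrime.mem_of_pow_mem inferInstance 2 h)
    · rcases (Ideal.IsPrime.mem_or_mem inferInstance h) with h' | h'
      · exact n₂ h'
      · exact n₃ h'
  · linear_combination σD * eN - (σD + p * (Δ * σN + ρ₁)) * eD
      + (σD * σN) * hP + (σD * A₂ * A₃) * hdiff

end Vertical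

/-! ### The inertia character -/

section Character

variable {O : Type*} [CommRing O]

/-- The relation between the four `T`-coordinates, in its bare form. -/
theorem S34LG_char' (π a a₃ ε ε' : O) (hε : IsUnit ε) (h : π ∣ ε' - ε) :
    ∃ δ : O, a * (ε' * a₃) = (1 + π * δ) * ((ε * a) * a₃) := by
  obtain ⟨u, rfl⟩ := hε
  obtain ⟨d, hd⟩ := h
  refine ⟨((u⁻¹ : Oˣ) : O) * d, ?_⟩
  have h1 : ε' = (u : O) + π * d := by linear_combination hd
  have h2 : ((u⁻¹ : Oˣ) : O) * (u : O) = 1 := Units.inv_mul u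
  rw [h1]
  linear_combination (-(π * d * a * a₃)) * h2

/-- **The inertia character is a character**: if `τ'` is the identity modulo `π` and
`τ a = ε a` with `ε` a unit, then for `a₁ = a`, `a₂ = τ a = ε a`, `a₃ = τ' a`,
`a₄ = τ' (τ a)` one has `a₁ a₄ = (1 + π δ) a₂ a₃`. -/
theorem S34LG_char (π : O) (τ' : O →+* O) (hτ' : ∀ x, π ∣ τ' x - x) (a ε : O) (hε : IsUnit ε) :
    ∃ δ : O, a * τ' (ε * a) = (1 + π * δ) * ((ε * a) * τ' a) := by
  rw [map_mul]
  exact S34LG_char' π a (τ' a) ε (τ' ε) hε (hτ' ε)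

end Character

/-! ### The horizontal part: `T - φ T` cuts out the section `φ`, with multiplicity one -/

section Section

variable {O R : Type*} [CommRing O] [CommRing R] [IsLocalRing R] [Algebra O R]

/-- A section `φ : R →ₐ[O] O` of a local `O`-algebra is a local homomorphism: it maps the
maximal ideal of `R` into the maximal ideal `(π)` of `O`. -/
theorem S34LG_section_dvd [IsLocalRing O] {π : O} (hO : maximalIdeal O = Ideal.span {π})
    (φ : R →ₐ[O] O) {x : R} (hx : x ∈ maximalIdeal R) : π ∣ φ x := by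
  rw [← Ideal.mem_span_singleton, ← hO, IsLocalRing.mem_maximalIdeal, mem_nonunits_iff]
  intro hu
  obtain ⟨u, hu⟩ := hu
  have hker : RingHom.ker (φ : R →+* O) ≤ maximalIdeal R :=
    IsLocalRing.le_maximalIdeal (RingHom.ker_ne_top _)
  have h1 : x * algebraMap O R ((u⁻¹ : Oˣ) : O) - 1 ∈ RingHom.ker (φ : R →+* O) := by
    show φ (x * algebraMap O R ((u⁻¹ : Oˣ) : O) - 1) = 0
    rw [map_sub, map_mul, φ.commutes, map_one, ← hu]
    have : (algebraMap O O) ((u⁻¹ : Oˣ) : O) = ((u⁻¹ : Oˣ) : O) := rfl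
    rw [this, Units.mul_inv, sub_self]
  have h2 : x * algebraMap O R ((u⁻¹ : Oˣ) : O) ∈ maximalIdeal R :=
    Ideal.mul_mem_right _ _ hx
  have h3 : (1 : R) ∈ maximalIdeal R := by
    have h4 : x * algebraMap O R ((u⁻¹ : Oˣ) : O)
        - (x * algebraMap O R ((u⁻¹ : Oˣ) : O) - 1) = 1 := by ring
    rw [← h4]
    exact Ideal.sub_mem _ h2 (hker h1)
  exact (Ideal.ne_top_iff_one (maximalIdeal R)).mp (Ideal.IsPrime.ne_top inferInstance) h3

end Section

section Horizontal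

variable {O R : Type*} [CommRing O] [IsDomain O] [CommRing R] [IsLocalRing R] [Algebra O R]
  [IsNoetherianRing R]

/-- The `T`-coordinate of a section through the node: `π ∣ a`, and `a a'' = Q` with
`π ∣ a''`. -/
def S34LG_IsCoord (π Q a : O) : Prop :=
  π ∣ a ∧ ∃ b : O, π ∣ b ∧ a * b = Q

omit [IsNoetherianRing R] in
/-- The `T`-coordinate of a section is a coordinate. -/
theorem S34LG_isCoord_of_section {π Q : O} {T S c : R}
    (hTS : T * S = algebraMap O R Q * c) (hc : IsUnit c)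
    (φ : R →ₐ[O] O) (ha : π ∣ φ T) (hb : π ∣ φ S) : S34LG_IsCoord π Q (φ T) := by
  obtain ⟨a'', haa, ha'', -⟩ := S34N_exists_second hTS hc φ hb
  exact ⟨ha, a'', ha'', haa⟩

/-- **Uniqueness, in the language of primes**: a prime `𝔓` of `R` which meets `O` trivially
(a horizontal prime) and contains `T - φ T` is the kernel of the section `φ`.  Hence `T - φ T`
is a unit at every other horizontal prime through the node. -/
theorem S34LG_prime_eq_ker {π Q : O} (hπ : π ≠ 0) (hQ : Q ≠ 0) {T S c : R}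
    (hn : maximalIdeal R = Ideal.span ({algebraMap O R π, T, S} : Set R))
    (hTS : T * S = algebraMap O R Q * c) (hc : IsUnit c)
    (φ : R →ₐ[O] O) (ha : π ∣ φ T) (hb : π ∣ φ S)
    (𝔓 : Ideal R) [𝔓.IsPrime] (hO : ∀ o : O, algebraMap O R o ∈ 𝔓 → o = 0)
    (hT : T - algebraMap O R (φ T) ∈ 𝔓) : 𝔓 = RingHom.ker (φ : R →+* O) := by
  have hinj : Function.Injective (algebraMap O (R ⧸ 𝔓)) := by
    rw [injective_iff_map_eq_zero]
    intro o ho
    apply hO
    rw [← Ideal.Quotient.eq_zero_iff_mem]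
    exact ho
  have hφ' : (Ideal.Quotient.mkₐ O 𝔓) T = algebraMap O (R ⧸ 𝔓) (φ T) := by
    have h1 : (Ideal.Quotient.mk 𝔓) (T - algebraMap O R (φ T)) = 0 :=
      Ideal.Quotient.eq_zero_iff_mem.mpr hT
    rw [map_sub, sub_eq_zero] at h1
    exact h1
  have key := S34N_unique hπ hQ hn hTS hc φ ha hb hinj (Ideal.Quotient.mkₐ O 𝔓) hφ'
  ext x
  rw [RingHom.mem_ker]
  constructor
  · intro hx
    have h1 : (Ideal.Quotient.mkₐ O 𝔓) x = 0 := Ideal.Quotient.eq_zero_iff_mem.mpr hx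
    rw [key x] at h1
    have h2 : φ x = 0 := hinj (by rw [h1, map_zero])
    exact h2
  · intro hx
    have h1 := key x
    have h2 : (φ : R →+* O) x = φ x := rfl
    rw [h2] at hx
    rw [hx, map_zero] at h1
    exact Ideal.Quotient.eq_zero_iff_mem.mp h1

/-- `T - φ T` is a unit at every horizontal prime different from `ker φ`. -/
theorem S34LG_notMem_of_ne {π Q : O} (hπ : π ≠ 0) (hQ : Q ≠ 0) {T S c : R}
    (hn : maximalIdeal R = Ideal.span ({algebraMap O R π, T, S} : Set R))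
    (hTS : T * S = algebraMap O R Q * c) (hc : IsUnit c)
    (φ : R →ₐ[O] O) (ha : π ∣ φ T) (hb : π ∣ φ S)
    (𝔓 : Ideal R) [𝔓.IsPrime] (hO : ∀ o : O, algebraMap O R o ∈ 𝔓 → o = 0)
    (hne : 𝔓 ≠ RingHom.ker (φ : R →+* O)) : T - algebraMap O R (φ T) ∉ 𝔓 :=
  fun hT => hne (S34LG_prime_eq_ker hπ hQ hn hTS hc φ ha hb 𝔓 hO hT)

/-- **Multiplicity one**: `T - φ T` generates `ker φ` after inverting an element outside
`ker φ` (namely `φ T`). -/
theorem S34LG_unif {π Q : O} (hπ : π ≠ 0) (hQ : Q ≠ 0) {T S c : R}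
    (hn : maximalIdeal R = Ideal.span ({algebraMap O R π, T, S} : Set R))
    (hTS : T * S = algebraMap O R Q * c) (hc : IsUnit c)
    (φ : R →ₐ[O] O) (ha : π ∣ φ T) (hb : π ∣ φ S) (x : R) (hx : φ x = 0) :
    ∃ s r : R, s ∉ RingHom.ker (φ : R →+* O) ∧ s * x = r * (T - algebraMap O R (φ T)) := by
  obtain ⟨a'', haa, -, -, hsimple⟩ := S34N_node hπ hn hTS hc φ ha hb
  obtain ⟨r, hr⟩ := hsimple x hx
  refine ⟨algebraMap O R (φ T), r, ?_, hr⟩
  intro hmem
  have h1 : φ (algebraMap O R (φ T)) = 0 := hmem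
  rw [φ.commutes] at h1
  have h2 : φ T = 0 := h1
  rw [h2, zero_mul] at haa
  exact hQ haa.symm

/-- Two sections through the node with the same `T`-coordinate are equal. -/
theorem S34LG_section_ext {π Q : O} (hπ : π ≠ 0) (hQ : Q ≠ 0) {T S c : R}
    (hn : maximalIdeal R = Ideal.span ({algebraMap O R π, T, S} : Set R))
    (hTS : T * S = algebraMap O R Q * c) (hc : IsUnit c)
    (φ φ' : R →ₐ[O] O) (ha : π ∣ φ T) (hb : π ∣ φ S) (h : φ' T = φ T) : φ' = φ := by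
  apply AlgHom.ext
  intro x
  exact S34N_unique hπ hQ hn hTS hc φ ha hb (Ω := O) (fun _ _ h => h) φ' h x

end Horizontal

/-! ### The local generator -/

section Main

variable {O R : Type*} [CommRing O] [CommRing R] [Algebra O R]

/-- **The local generator, one place.**  For four coordinates `a₁ = a`, `a₂ = τ a`, `a₃ = τ' a`,
`a₄ = τ' τ a` with `a₁ a₄ = (1 + π δ) a₂ a₃`, the function
`g = ((T - a₁)(T - a₄)) / ((T - a₂)(T - a₃))` is `≡ 1` modulo `π` on both branches. -/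
theorem S34LG_one {π Q : O} {T S c : R} (P0 Pinf : Ideal R) [P0.IsPrime] [Pinf.IsPrime]
    (hπ0 : algebraMap O R π ∈ P0) (hT0 : T ∉ P0)
    (hπinf : algebraMap O R π ∈ Pinf) (hSinf : S ∉ Pinf)
    (hTS : T * S = algebraMap O R Q * c)
    (a₁ a₂ a₃ a₄ : O)
    (h₁ : π ∣ a₁ ∧ ∃ b : O, π ∣ b ∧ a₁ * b = Q) (h₂ : π ∣ a₂ ∧ ∃ b : O, π ∣ b ∧ a₂ * b = Q)
    (h₃ : π ∣ a₃ ∧ ∃ b : O, π ∣ b ∧ a₃ * b = Q) (h₄ : π ∣ a₄ ∧ ∃ b : O, π ∣ b ∧ a₄ * b = Q)
    (hprod : ∃ δ : O, a₁ * a₄ = (1 + π * δ) * (a₂ * a₃)) :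
    S34LG_oneMod (algebraMap O R π) P0
        ((T - algebraMap O R a₁) * (T - algebraMap O R a₄))
        ((T - algebraMap O R a₂) * (T - algebraMap O R a₃)) ∧
      S34LG_oneMod (algebraMap O R π) Pinf
        ((T - algebraMap O R a₁) * (T - algebraMap O R a₄))
        ((T - algebraMap O R a₂) * (T - algebraMap O R a₃)) ∧
      (T - algebraMap O R a₁) * (T - algebraMap O R a₄) ∉ P0 ∧
      (T - algebraMap O R a₂) * (T - algebraMap O R a₃) ∉ P0 := by
  obtain ⟨ha₁, b₁, hb₁, hab₁⟩ := h₁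
  obtain ⟨ha₂, b₂, hb₂, hab₂⟩ := h₂
  obtain ⟨ha₃, b₃, hb₃, hab₃⟩ := h₃
  obtain ⟨ha₄, b₄, hb₄, hab₄⟩ := h₄
  obtain ⟨δ, hδ⟩ := hprod
  have n₁ := S34LG_sub_notMem P0 hπ0 hT0 a₁ ha₁
  have n₂ := S34LG_sub_notMem P0 hπ0 hT0 a₂ ha₂
  have n₃ := S34LG_sub_notMem P0 hπ0 hT0 a₃ ha₃
  have n₄ := S34LG_sub_notMem P0 hπ0 hT0 a₄ ha₄
  refine ⟨S34LG_oneMod_mul (S34LG_vert0 P0 hπ0 hT0 a₁ a₂ ha₁ ha₂)
      (S34LG_vert0 P0 hπ0 hT0 a₄ a₃ ha₄ ha₃),
    S34LG_vertInf Pinf hπinf hSinf hTS a₁ a₂ a₃ a₄ b₁ b₂ b₃ b₄ δ hab₁ hab₂ hab₃ hab₄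
      hb₁ hb₂ hb₃ hb₄ hδ, ?_, ?_⟩
  · intro h
    rcases (Ideal.IsPrime.mem_or_mem inferInstance h) with h | h
    · exact n₁ h
    · exact n₄ h
  · intro h
    rcases (Ideal.IsPrime.mem_or_mem inferInstance h) with h | h
    · exact n₂ h
    · exact n₃ h

/-- **The local generator, family version with multiplicities.** -/
theorem S34LG_main {ι : Type*} {π Q : O} {T S c : R} (P0 Pinf : Ideal R) [P0.IsPrime]
    [Pinf.IsPrime]
    (hπ0 : algebraMap O R π ∈ P0) (hT0 : T ∉ P0)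
    (hπinf : algebraMap O R π ∈ Pinf) (hSinf : S ∉ Pinf)
    (hTS : T * S = algebraMap O R Q * c)
    (s : Finset ι) (n : ι → ℕ) (a₁ a₂ a₃ a₄ : ι → O)
    (h₁ : ∀ i ∈ s, π ∣ a₁ i ∧ ∃ b : O, π ∣ b ∧ a₁ i * b = Q)
    (h₂ : ∀ i ∈ s, π ∣ a₂ i ∧ ∃ b : O, π ∣ b ∧ a₂ i * b = Q)
    (h₃ : ∀ i ∈ s, π ∣ a₃ i ∧ ∃ b : O, π ∣ b ∧ a₃ i * b = Q)
    (h₄ : ∀ i ∈ s, π ∣ a₄ i ∧ ∃ b : O, π ∣ b ∧ a₄ i * b = Q)
    (hprod : ∀ i ∈ s, ∃ δ : O, a₁ i * a₄ i = (1 + π * δ) * (a₂ i * a₃ i)) :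
    S34LG_oneMod (algebraMap O R π) P0
        (∏ i ∈ s, ((T - algebraMap O R (a₁ i)) * (T - algebraMap O R (a₄ i))) ^ n i)
        (∏ i ∈ s, ((T - algebraMap O R (a₂ i)) * (T - algebraMap O R (a₃ i))) ^ n i) ∧
      S34LG_oneMod (algebraMap O R π) Pinf
        (∏ i ∈ s, ((T - algebraMap O R (a₁ i)) * (T - algebraMap O R (a₄ i))) ^ n i)
        (∏ i ∈ s, ((T - algebraMap O R (a₂ i)) * (T - algebraMap O R (a₃ i))) ^ n i) ∧
      (∏ i ∈ s, ((T - algebraMap O R (a₁ i)) * (T - algebraMap O R (a₄ i))) ^ n i) ∉ P0 ∧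
      (∏ i ∈ s, ((T - algebraMap O R (a₂ i)) * (T - algebraMap O R (a₃ i))) ^ n i) ∉ P0 := by
  have key := fun i (hi : i ∈ s) =>
    S34LG_one P0 Pinf hπ0 hT0 hπinf hSinf hTS (a₁ i) (a₂ i) (a₃ i) (a₄ i)
      (h₁ i hi) (h₂ i hi) (h₃ i hi) (h₄ i hi) (hprod i hi)
  have hD : (∏ i ∈ s, ((T - algebraMap O R (a₂ i)) * (T - algebraMap O R (a₃ i))) ^ n i)
      ∉ P0 := by
    intro h
    obtain ⟨i, hi, hmem⟩ := (Ideal.IsPrime.prod_mem_iff (hp := inferInstance)).mp h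
    exact (key i hi).2.2.2 (Ideal.IsPrime.mem_of_pow_mem inferInstance _ hmem)
  have h0 := S34LG_oneMod_prod (π := algebraMap O R π) (P := P0) s _ _
    (fun i hi => S34LG_oneMod_pow (key i hi).1 (n i))
  exact ⟨h0, S34LG_oneMod_prod (π := algebraMap O R π) (P := Pinf) s _ _
    (fun i hi => S34LG_oneMod_pow (key i hi).2.1 (n i)),
    S34LG_oneMod_notMem hπ0 h0 hD, hD⟩

end Main

/-! ### The local generator attached to sections and two inertia elements -/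

section Sections

variable {O R : Type*} [CommRing O] [IsDomain O] [IsLocalRing O] [CommRing R] [IsLocalRing R]
  [Algebra O R]

/-- Every section through the node has a coordinate in the sense of `S34LG_IsCoord`. -/
theorem S34LG_isCoord {π Q : O} (hO : maximalIdeal O = Ideal.span {π}) {T S c : R}
    (hn : maximalIdeal R = Ideal.span ({algebraMap O R π, T, S} : Set R))
    (hTS : T * S = algebraMap O R Q * c) (hc : IsUnit c) (φ : R →ₐ[O] O) :
    S34LG_IsCoord π Q (φ T) := by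
  have hT : T ∈ maximalIdeal R := by
    rw [hn]; exact Ideal.subset_span (by simp)
  have hS : S ∈ maximalIdeal R := by
    rw [hn]; exact Ideal.subset_span (by simp)
  exact S34LG_isCoord_of_section hTS hc φ (S34LG_section_dvd hO φ hT) (S34LG_section_dvd hO φ hS)

/-- **The local generator of `(τ' - 1)(τ - 1) D` at a node.**  `P_i` (`i ∈ s`) are sections
through the node with multiplicities `n i`; `φ₁ i = P_i`, `φ₂ i = τ P_i`, `φ₃ i = τ' P_i`,
`φ₄ i = τ' τ P_i`, and the `T`-coordinates satisfy `T(τ P) = ε · T(P)` with `ε` a unit,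
`T(τ' P) = τ' (T(P))`, `T(τ' τ P) = τ' (T(τ P))`, where `τ'` is the identity modulo `π`.
Then `g = ∏ (((T - T(P))(T - T(τ'τP))) / ((T - T(τP))(T - T(τ'P)))) ^ n` is `≡ 1` modulo `π`
at both vertical primes. -/
theorem S34LG_main_sections {ι : Type*} {π Q : O} (hO : maximalIdeal O = Ideal.span {π})
    {T S c : R}
    (hn : maximalIdeal R = Ideal.span ({algebraMap O R π, T, S} : Set R))
    (hTS : T * S = algebraMap O R Q * c) (hc : IsUnit c)
    (P0 Pinf : Ideal R) [P0.IsPrime] [Pinf.IsPrime]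
    (hπ0 : algebraMap O R π ∈ P0) (hT0 : T ∉ P0)
    (hπinf : algebraMap O R π ∈ Pinf) (hSinf : S ∉ Pinf)
    (τ' : O →+* O) (hτ' : ∀ x, π ∣ τ' x - x)
    (s : Finset ι) (n : ι → ℕ) (φ₁ φ₂ φ₃ φ₄ : ι → (R →ₐ[O] O)) (ε : ι → O)
    (hε : ∀ i ∈ s, IsUnit (ε i))
    (h₂ : ∀ i ∈ s, φ₂ i T = ε i * φ₁ i T)
    (h₃ : ∀ i ∈ s, φ₃ i T = τ' (φ₁ i T))
    (h₄ : ∀ i ∈ s, φ₄ i T = τ' (φ₂ i T)) :
    S34LG_oneMod (algebraMap O R π) P0
        (∏ i ∈ s, ((T - algebraMap O R (φ₁ i T)) * (T - algebraMap O R (φ₄ i T))) ^ n i)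
        (∏ i ∈ s, ((T - algebraMap O R (φ₂ i T)) * (T - algebraMap O R (φ₃ i T))) ^ n i) ∧
      S34LG_oneMod (algebraMap O R π) Pinf
        (∏ i ∈ s, ((T - algebraMap O R (φ₁ i T)) * (T - algebraMap O R (φ₄ i T))) ^ n i)
        (∏ i ∈ s, ((T - algebraMap O R (φ₂ i T)) * (T - algebraMap O R (φ₃ i T))) ^ n i) ∧
      (∏ i ∈ s, ((T - algebraMap O R (φ₁ i T)) * (T - algebraMap O R (φ₄ i T))) ^ n i) ∉ P0 ∧
      (∏ i ∈ s, ((T - algebraMap O R (φ₂ i T)) * (T - algebraMap O R (φ₃ i T))) ^ n i) ∉ P0 := by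
  refine S34LG_main P0 Pinf hπ0 hT0 hπinf hSinf hTS s n (fun i => φ₁ i T) (fun i => φ₂ i T)
    (fun i => φ₃ i T) (fun i => φ₄ i T)
    (fun i _ => S34LG_isCoord hO hn hTS hc (φ₁ i))
    (fun i _ => S34LG_isCoord hO hn hTS hc (φ₂ i))
    (fun i _ => S34LG_isCoord hO hn hTS hc (φ₃ i))
    (fun i _ => S34LG_isCoord hO hn hTS hc (φ₄ i)) ?_
  intro i hi
  obtain ⟨δ, hδ⟩ := S34LG_char π τ' hτ' (φ₁ i T) (ε i) (hε i hi)
  refine ⟨δ, ?_⟩
  show φ₁ i T * φ₄ i T = (1 + π * δ) * (φ₂ i T * φ₃ i T)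
  rw [h₄ i hi, h₃ i hi, h₂ i hi]
  exact hδ

end Sections

end Fermat.Agent.S34_helper7_LGEN
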