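import Mathlib

/-!
# S34, the local generator at a node in field language (Mathlib only)

`L` is a field, `V1`, `V2` two valuation rings of (a subfield of) `L` with the same uniformiser
`π` (only `π ∈ V`, `π⁻¹ ∉ V` and `V_unif` are used), `O ≤ V1 ⊓ V2` the constants.
`T`, `S`, `c ∈ V1 ⊓ V2` are node coordinates: `T S = Q c`, `T` is a unit of `V1`, `S` is a unit
of `V2`.  For constants `a₁, …, a₄ ∈ π O` with `a_i b_i = Q`, `b_i ∈ π O`, and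
`a₁ a₄ = (1 + π δ) a₂ a₃`, the function

`g = ((T - a₁)(T - a₄)) / ((T - a₂)(T - a₃))`

is `≡ 1` modulo `π` for both valuations: `g = 1 + π c'` with `c' ∈ V1 ⊓ V2`
(`S34LGF_main`).  This is the field-language twin of `S34LG_one` of `S34_helper7_LGEN`.
-/

set_option autoImplicit false

namespace Fermat.Agent.S34_helper7_LGF

variable {L : Type*} [Field L]

/-- `x ∈ 1 + π V`. -/
def S34LGF_OneAdd (π : L) (V : Subring L) (x : L) : Prop :=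
  ∃ v ∈ V, x = 1 + π * v

theorem S34LGF_oneAdd_one (π : L) (V : Subring L) : S34LGF_OneAdd π V 1 :=
  ⟨0, V.zero_mem, by ring⟩

theorem S34LGF_oneAdd_mul {π : L} {V : Subring L} (hπ : π ∈ V) {x y : L}
    (hx : S34LGF_OneAdd π V x) (hy : S34LGF_OneAdd π V y) : S34LGF_OneAdd π V (x * y) := by
  obtain ⟨v, hv, rfl⟩ := hx
  obtain ⟨w, hw, rfl⟩ := hy
  exact ⟨v + w + π * v * w, V.add_mem (V.add_mem hv hw) (V.mul_mem (V.mul_mem hπ hv) hw),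
    by ring⟩

/-- `1 + π v` is a unit of `V`. -/
theorem S34LGF_inv_mem {π : L} {V : Subring L} (hπ : π ∈ V) (hnu : π⁻¹ ∉ V)
    (hunif : ∀ x ∈ V, x⁻¹ ∉ V → ∃ v ∈ V, x = π * v) {v : L} (hv : v ∈ V) :
    (1 + π * v)⁻¹ ∈ V := by
  by_contra h
  obtain ⟨w, hw, hw'⟩ := hunif (1 + π * v) (V.add_mem V.one_mem (V.mul_mem hπ hv)) h
  apply hnu
  have hπ0 : π ≠ 0 := by
    rintro rfl
    rw [zero_mul, add_zero, zero_mul] at hw'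
    exact one_ne_zero hw'
  have h1 : π⁻¹ = w - v := by
    field_simp
    linear_combination hw'
  rw [h1]
  exact V.sub_mem hw hv

theorem S34LGF_oneAdd_ne_zero {π : L} {V : Subring L} (hnu : π⁻¹ ∉ V) {x : L}
    (hx : S34LGF_OneAdd π V x) : x ≠ 0 := by
  obtain ⟨v, hv, rfl⟩ := hx
  intro h0
  apply hnu
  have hπ0 : π ≠ 0 := by
    rintro rfl
    rw [zero_mul, add_zero] at h0
    exact one_ne_zero h0
  have h1 : π⁻¹ = -v := by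
    field_simp
    linear_combination h0
  rw [h1]
  exact V.neg_mem hv

theorem S34LGF_oneAdd_inv {π : L} {V : Subring L} (hπ : π ∈ V) (hnu : π⁻¹ ∉ V)
    (hunif : ∀ x ∈ V, x⁻¹ ∉ V → ∃ v ∈ V, x = π * v) {x : L}
    (hx : S34LGF_OneAdd π V x) : S34LGF_OneAdd π V x⁻¹ := by
  have hx0 := S34LGF_oneAdd_ne_zero hnu hx
  obtain ⟨v, hv, rfl⟩ := hx
  refine ⟨-(v * (1 + π * v)⁻¹), V.neg_mem (V.mul_mem hv (S34LGF_inv_mem hπ hnu hunif hv)), ?_⟩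
  field_simp
  ring

theorem S34LGF_oneAdd_div {π : L} {V : Subring L} (hπ : π ∈ V) (hnu : π⁻¹ ∉ V)
    (hunif : ∀ x ∈ V, x⁻¹ ∉ V → ∃ v ∈ V, x = π * v) {x y : L}
    (hx : S34LGF_OneAdd π V x) (hy : S34LGF_OneAdd π V y) : S34LGF_OneAdd π V (x / y) := by
  rw [div_eq_mul_inv]
  exact S34LGF_oneAdd_mul hπ hx (S34LGF_oneAdd_inv hπ hnu hunif hy)

theorem S34LGF_oneAdd_pow {π : L} {V : Subring L} (hπ : π ∈ V) {x : L}
    (hx : S34LGF_OneAdd π V x) (n : ℕ) : S34LGF_OneAdd π V (x ^ n) := by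
  induction n with
  | zero => simpa using S34LGF_oneAdd_one π V
  | succ n ih =>
    rw [pow_succ]
    exact S34LGF_oneAdd_mul hπ ih hx

theorem S34LGF_oneAdd_zpow {π : L} {V : Subring L} (hπ : π ∈ V) (hnu : π⁻¹ ∉ V)
    (hunif : ∀ x ∈ V, x⁻¹ ∉ V → ∃ v ∈ V, x = π * v) {x : L}
    (hx : S34LGF_OneAdd π V x) (n : ℤ) : S34LGF_OneAdd π V (x ^ n) := by
  cases n with
  | ofNat n =>
    simpa using S34LGF_oneAdd_pow hπ hx n
  | negSucc n =>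
    rw [zpow_negSucc]
    exact S34LGF_oneAdd_inv hπ hnu hunif (S34LGF_oneAdd_pow hπ hx (n + 1))

theorem S34LGF_oneAdd_prod {π : L} {V : Subring L} (hπ : π ∈ V) {ι : Type*} (s : Finset ι)
    (x : ι → L) (hx : ∀ i ∈ s, S34LGF_OneAdd π V (x i)) :
    S34LGF_OneAdd π V (∏ i ∈ s, x i) := by
  classical
  induction s using Finset.induction_on with
  | empty => simpa using S34LGF_oneAdd_one π V
  | insert a s ha ih =>
    rw [Finset.prod_insert ha]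
    exact S34LGF_oneAdd_mul hπ (hx a (Finset.mem_insert_self a s))
      (ih fun i hi => hx i (Finset.mem_insert_of_mem hi))

/-- An element which is `≡ 1` modulo `π` for both valuations is `1 + π c` with
`c ∈ V1 ⊓ V2`. -/
theorem S34LGF_oneAdd_inf {π : L} {V1 V2 : Subring L} (hπ0 : π ≠ 0) {x : L}
    (h1 : S34LGF_OneAdd π V1 x) (h2 : S34LGF_OneAdd π V2 x) :
    ∃ c ∈ (V1 ⊓ V2 : Subring L), x = 1 + π * c := by
  obtain ⟨v, hv, hxv⟩ := h1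
  obtain ⟨w, hw, hxw⟩ := h2
  have hvw : v = w := by
    have h3 : π * v = π * w := by
      have : 1 + π * v = 1 + π * w := by rw [← hxv, ← hxw]
      linear_combination this
    exact mul_left_cancel₀ hπ0 h3
  refine ⟨v, Subring.mem_inf.mpr ⟨hv, ?_⟩, hxv⟩
  rw [hvw]
  exact hw

/-! ### The two branches -/

/-- **Branch where `T` is a unit**: `(T - a) / T ∈ 1 + π V` for `a ∈ π V`. -/
theorem S34LGF_unit_branch {π : L} {V : Subring L} {T a' : L} (hTi : T⁻¹ ∈ V)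
    (hT0 : T ≠ 0) (ha' : a' ∈ V) :
    S34LGF_OneAdd π V ((T - π * a') / T) := by
  refine ⟨-(a' * T⁻¹), V.neg_mem (V.mul_mem ha' hTi), ?_⟩
  field_simp
  ring

/-- **Branch where `S` is a unit** (and `T = Q c / S`): `(T - a) / (-a) ∈ 1 + π V` if
`a * (π b') = Q`. -/
theorem S34LGF_other_branch {π : L} {V : Subring L} {T S c Q a b' : L} (hSi : S⁻¹ ∈ V)
    (hS0 : S ≠ 0) (hc : c ∈ V) (hb' : b' ∈ V) (ha0 : a ≠ 0) (hTS : T * S = Q * c)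
    (hab : a * (π * b') = Q) :
    S34LGF_OneAdd π V ((T - a) / (-a)) := by
  refine ⟨-(b' * c * S⁻¹), V.neg_mem (V.mul_mem (V.mul_mem hb' hc) hSi), ?_⟩
  have h1 : T = Q * c * S⁻¹ := by
    field_simp
    exact hTS
  rw [h1, ← hab]
  field_simp
  ring

/-- **The local generator is `≡ 1` on both branches** (field language).  `c` is arbitrary. -/
theorem S34LGF_main {π : L} {O V1 V2 : Subring L}
    (hO1 : O ≤ V1) (hO2 : O ≤ V2) (hπO : π ∈ O)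
    (hnu1 : π⁻¹ ∉ V1) (hunif1 : ∀ x ∈ V1, x⁻¹ ∉ V1 → ∃ v ∈ V1, x = π * v)
    (hnu2 : π⁻¹ ∉ V2) (hunif2 : ∀ x ∈ V2, x⁻¹ ∉ V2 → ∃ v ∈ V2, x = π * v)
    {T S c Q : L} (hQ0 : Q ≠ 0) (hT0 : T ≠ 0) (hS0 : S ≠ 0)
    (hT1 : T⁻¹ ∈ V1) (hS2 : S⁻¹ ∈ V2) (hc2 : c ∈ V2) (hTS : T * S = Q * c)
    {a₁ a₂ a₃ a₄ : L}
    (h₁ : (∃ a' ∈ O, a₁ = π * a') ∧ ∃ b' ∈ O, a₁ * (π * b') = Q)
    (h₂ : (∃ a' ∈ O, a₂ = π * a') ∧ ∃ b' ∈ O, a₂ * (π * b') = Q)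
    (h₃ : (∃ a' ∈ O, a₃ = π * a') ∧ ∃ b' ∈ O, a₃ * (π * b') = Q)
    (h₄ : (∃ a' ∈ O, a₄ = π * a') ∧ ∃ b' ∈ O, a₄ * (π * b') = Q)
    (hprod : ∃ δ ∈ O, a₁ * a₄ = (1 + π * δ) * (a₂ * a₃)) :
    (T - a₁ ≠ 0 ∧ T - a₂ ≠ 0 ∧ T - a₃ ≠ 0 ∧ T - a₄ ≠ 0) ∧
      ∃ c' ∈ (V1 ⊓ V2 : Subring L),
        ((T - a₁) * (T - a₄)) / ((T - a₂) * (T - a₃)) = 1 + π * c' := by
  have hπ1 : π ∈ V1 := hO1 hπO
  have hπ2 : π ∈ V2 := hO2 hπO
  have hπ0 : π ≠ 0 := by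
    rintro rfl
    apply hnu1
    rw [inv_zero]
    exact V1.zero_mem
  obtain ⟨⟨a₁', ha₁', e₁⟩, b₁', hb₁', f₁⟩ := h₁
  obtain ⟨⟨a₂', ha₂', e₂⟩, b₂', hb₂', f₂⟩ := h₂
  obtain ⟨⟨a₃', ha₃', e₃⟩, b₃', hb₃', f₃⟩ := h₃
  obtain ⟨⟨a₄', ha₄', e₄⟩, b₄', hb₄', f₄⟩ := h₄
  obtain ⟨δ, hδ, hprod⟩ := hprod
  have n₁ : a₁ ≠ 0 := fun h => hQ0 (by rw [← f₁, h, zero_mul])
  have n₂ : a₂ ≠ 0 := fun h => hQ0 (by rw [← f₂, h, zero_mul])
  have n₃ : a₃ ≠ 0 := fun h => hQ0 (by rw [← f₃, h, zero_mul])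
  have n₄ : a₄ ≠ 0 := fun h => hQ0 (by rw [← f₄, h, zero_mul])
  -- branch 1
  have u₁ : S34LGF_OneAdd π V1 ((T - a₁) / T) := by
    rw [e₁]; exact S34LGF_unit_branch hT1 hT0 (hO1 ha₁')
  have u₂ : S34LGF_OneAdd π V1 ((T - a₂) / T) := by
    rw [e₂]; exact S34LGF_unit_branch hT1 hT0 (hO1 ha₂')
  have u₃ : S34LGF_OneAdd π V1 ((T - a₃) / T) := by
    rw [e₃]; exact S34LGF_unit_branch hT1 hT0 (hO1 ha₃')
  have u₄ : S34LGF_OneAdd π V1 ((T - a₄) / T) := by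
    rw [e₄]; exact S34LGF_unit_branch hT1 hT0 (hO1 ha₄')
  have m₁ : T - a₁ ≠ 0 := fun h => S34LGF_oneAdd_ne_zero hnu1 u₁ (by rw [h, zero_div])
  have m₂ : T - a₂ ≠ 0 := fun h => S34LGF_oneAdd_ne_zero hnu1 u₂ (by rw [h, zero_div])
  have m₃ : T - a₃ ≠ 0 := fun h => S34LGF_oneAdd_ne_zero hnu1 u₃ (by rw [h, zero_div])
  have m₄ : T - a₄ ≠ 0 := fun h => S34LGF_oneAdd_ne_zero hnu1 u₄ (by rw [h, zero_div])
  have g1 : S34LGF_OneAdd π V1 (((T - a₁) * (T - a₄)) / ((T - a₂) * (T - a₃))) := by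
    have h := S34LGF_oneAdd_div hπ1 hnu1 hunif1 (S34LGF_oneAdd_mul hπ1 u₁ u₄)
      (S34LGF_oneAdd_mul hπ1 u₂ u₃)
    have e : ((T - a₁) / T * ((T - a₄) / T)) / ((T - a₂) / T * ((T - a₃) / T))
        = ((T - a₁) * (T - a₄)) / ((T - a₂) * (T - a₃)) := by
      field_simp
    rw [e] at h
    exact h
  -- branch 2
  have w₁ : S34LGF_OneAdd π V2 ((T - a₁) / (-a₁)) :=
    S34LGF_other_branch hS2 hS0 hc2 (hO2 hb₁') n₁ hTS f₁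
  have w₂ : S34LGF_OneAdd π V2 ((T - a₂) / (-a₂)) :=
    S34LGF_other_branch hS2 hS0 hc2 (hO2 hb₂') n₂ hTS f₂
  have w₃ : S34LGF_OneAdd π V2 ((T - a₃) / (-a₃)) :=
    S34LGF_other_branch hS2 hS0 hc2 (hO2 hb₃') n₃ hTS f₃
  have w₄ : S34LGF_OneAdd π V2 ((T - a₄) / (-a₄)) :=
    S34LGF_other_branch hS2 hS0 hc2 (hO2 hb₄') n₄ hTS f₄
  have hδ' : S34LGF_OneAdd π V2 (1 + π * δ) := ⟨δ, hO2 hδ, rfl⟩
  have g2 : S34LGF_OneAdd π V2 (((T - a₁) * (T - a₄)) / ((T - a₂) * (T - a₃))) := by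
    have h := S34LGF_oneAdd_mul hπ2 hδ'
      (S34LGF_oneAdd_div hπ2 hnu2 hunif2 (S34LGF_oneAdd_mul hπ2 w₁ w₄)
        (S34LGF_oneAdd_mul hπ2 w₂ w₃))
    have e : (1 + π * δ) * (((T - a₁) / (-a₁) * ((T - a₄) / (-a₄)))
          / ((T - a₂) / (-a₂) * ((T - a₃) / (-a₃))))
        = ((T - a₁) * (T - a₄)) / ((T - a₂) * (T - a₃)) := by
      have h23 : a₂ * a₃ ≠ 0 := mul_ne_zero n₂ n₃
      have h1 : (1 + π * δ) = a₁ * a₄ / (a₂ * a₃) := by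
        rw [hprod]
        field_simp
      rw [h1]
      field_simp
    rw [e] at h
    exact h
  exact ⟨⟨m₁, m₂, m₃, m₄⟩, S34LGF_oneAdd_inf hπ0 g1 g2⟩

end Fermat.Agent.S34_helper7_LGF
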