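import Mathlib
import Fermat.Agent.S34_helper7_LGDefs
import Fermat.Agent.S34_helper26_ORDK
import Fermat.Agent.S34_helper6_LGREDK
import Fermat.Agent.S34_helper19_CENT
import Fermat.Agent.S34_helper27_C2ADAPT
import Fermat.Agent.S18_helper14_AFRAC

/-!
# S34, X-LOCGEN: the contract `S34LGK_Ord` from helper26's `S34LOK_ord_centred` (helper7)

Adapter only: `S34K_ValueAt ⟹ S34ACT_Val`, the value of a centred place lies in `O1`,
a nonunit of `A` in `K1` is divisible by the uniformiser, and the reshaping of the conclusion.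
-/

set_option autoImplicit false
set_option linter.unusedSectionVars false
set_option linter.style.haveILetI false
set_option maxHeartbeats 1000000
set_option synthInstance.maxHeartbeats 400000

open AlgebraicCurve ModularCurve HahnSeries IntermediateField

noncomputable section

namespace Fermat.Agent.S34_helper7_LGORD

open Fermat.Agent.S18_helper9_CDefs Fermat.Agent.S18_helper9_CBasic
  Fermat.Agent.S18_helper25_COREDefs
  Fermat.Agent.S34_helper12_CDefs Fermat.Agent.S34_helper6_RED Fermat.Agent.S34_helper5_K0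
  Fermat.Agent.S18_helper3_LOCRING Fermat.Agent.S37_helper4_B1Defs
  Fermat.Agent.S37_helper5_LEVEL Fermat.Agent.S34_Contracts Fermat.Agent.S34_helper21_ACT
  Fermat.Agent.S34_helper7_LGDefs Fermat.Agent.S34_helper26_ORDK
  Fermat.Agent.S34_helper6_LGREDK Fermat.Agent.S34_helper19_CENT
  Fermat.Agent.S34_helper27_C2ADAPT Fermat.Agent.S34_helper27_C2Defs
  Fermat.Agent.S18_helper19_PLACEMOD

local notation "Qb" => AlgebraicClosure ℚ
local notation "GQ" => (AlgebraicClosure ℚ ≃ₐ[ℚ] AlgebraicClosure ℚ)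

variable (N : ℕ) [NeZero N] (A : ValuationSubring Qb) (K1 : IntermediateField ℚ Qb)
  (hstab : ∀ σ : GQ, ∀ x ∈ K1, σ x ∈ K1)

/-- `S34K_ValueAt` with a value in `K1` is `S34ACT_Val`. -/
theorem S34LGO_val_of_valueAt (P : Place Qb (modularFunctionFieldBar N))
    {Z : LaurentSeries K1} (hZ : Z ∈ modularFunctionFieldFullC K1 N) (a : K1)
    (h : S34K_ValueAt N K1 P Z (a : Qb)) : S34ACT_Val K1 N P Z a := by
  refine ⟨hZ, ?_⟩
  obtain ⟨z, hz, hzP⟩ := h
  have hmem : Z - HahnSeries.C a ∈ modularFunctionFieldFullC K1 N :=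
    (modularFunctionFieldFullC K1 N).sub_mem hZ (S34LOK_C_mem N K1 a)
  have e : S18A3C_inc N (algebraMap K1 Qb) ⟨Z - HahnSeries.C a, hmem⟩ = z := by
    apply Subtype.ext
    show coeffMap (algebraMap K1 Qb) (Z - HahnSeries.C a) = (z : LaurentSeries Qb)
    rw [hz, map_sub]
    congr 1
    rw [HahnSeries.C_apply, coeffMap_single, ← HahnSeries.C_apply]
    rfl
  rcases hzP with h1 | h1
  · left
    rw [h1] at e
    have h2 := (S18A3C_inc N (algebraMap K1 Qb)).injective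
      (e.trans (map_zero (S18A3C_inc N (algebraMap K1 Qb))).symm)
    exact sub_eq_zero.mp (congrArg Subtype.val h2)
  · right
    rw [S37B1_ordP, dif_pos hmem, e]
    exact h1

variable [IsDiscreteValuationRing (S18K_O1 A K1)]

/-- **The contract `S34LGK_Ord`** for a noetherian chart with `Frac X = F1`. -/
theorem S34LGO_ord_of (V2 X : Subring (LaurentSeries K1)) [IsNoetherianRing X]
    (hXF : ∀ x ∈ X, x ∈ modularFunctionFieldFullC K1 N)
    (hfrac : ∀ x ∈ modularFunctionFieldFullC K1 N,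
      ∃ a b : X, b ≠ 0 ∧ x * (b : LaurentSeries K1) = a)
    (hO : S18K_O A K1 ≤ X) :
    S34LGK_Ord N A K1 hstab V2 X := by
  intro hπ m hm hπm _ _ ϖ k T S c d P hrat hcen
  haveI := hm.isPrime
  have hle := le_locRing X m
  -- the constant `Q = ϖ ^ k`
  have hϖA : (ϖ : Qb) ∈ A := A.nonunits_le d.ϖ_nonunit
  have hQA : (ϖ ^ k : K1) ∈ S18K_O1 A K1 := by
    show (((ϖ ^ k : K1)) : Qb) ∈ A
    have : (((ϖ ^ k : K1)) : Qb) = (ϖ : Qb) ^ k := rfl
    rw [this]
    exact A.pow_mem hϖA k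
  have hQ0 : (⟨ϖ ^ k, hQA⟩ : S18K_O1 A K1) ≠ 0 := by
    intro h
    exact pow_ne_zero k d.ϖ_ne (congrArg Subtype.val h)
  -- the value of an element of the chart lies in `A`
  have hvalA : ∀ (Z : LaurentSeries K1), Z ∈ X → ∀ a : K1,
      S34K_ValueAt N K1 P Z (a : Qb) → (a : Qb) ∈ A := by
    intro Z hZ a hv
    obtain ⟨c', hc'A, hv'⟩ := hcen.1 ⟨Z, hZ⟩
    have := S34CT_valueAt_unique N K1 P hv hv'
    rw [this]
    exact hc'A
  have key : ∀ (Z W : LaurentSeries K1) (hZ : Z ∈ X) (hW : W ∈ X),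
      IsLocalRing.maximalIdeal (locRing X m) =
        Ideal.span ({incl X m ⟨S18K_π A K1, hπ⟩, (⟨Z, hle hZ⟩ : locRing X m),
          (⟨W, hle hW⟩ : locRing X m)} : Set (locRing X m)) →
      Z * W = HahnSeries.C (ϖ ^ k) * c →
      ∀ a : K1, S34LGK_Type N A K1 P ϖ k Z a →
        Z - HahnSeries.C a ≠ 0 ∧
        ∀ P' : Place Qb (modularFunctionFieldBar N), S34K_Centred N A K1 X m P' →
          (P' = P → S37B1_ordP N K1 P' (Z - HahnSeries.C a) = 1) ∧
          (P' ≠ P → S37B1_ordP N K1 P' (Z - HahnSeries.C a) = 0) := by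
    intro Z W hZ hW hn hmul a ⟨hv, ρ, hρ, hρn⟩
    have haA : a ∈ S18K_O1 A K1 := hvalA Z hZ a hv
    obtain ⟨hρA, hρπ⟩ := S34LRK_dvd_of_nonunit A K1 hρn
    have hval : S34ACT_Val K1 N P Z a := S34LGO_val_of_valueAt N K1 P (hXF Z hZ) a hv
    have hρ' : (⟨ϖ ^ k, hQA⟩ : S18K_O1 A K1) = ⟨a, haA⟩ * ⟨ρ, hρA⟩ := Subtype.ext hρ
    have h1 := S34LOK_ord N K1 A X m hXF hfrac hO hπ (⟨Z, hle hZ⟩ : locRing X m)
      (⟨W, hle hW⟩ : locRing X m) (⟨c, d.c_mem⟩ : locRing X m) hn ⟨ϖ ^ k, hQA⟩ hQ0 hmul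
      P hrat hcen ⟨a, haA⟩ ⟨ρ, hρA⟩ hval hρ' hρπ
    refine ⟨h1.1, fun P' hP' => ⟨fun e => ?_, fun e => ?_⟩⟩
    · rw [e]
      exact h1.2.1
    · exact h1.2.2 P' (S34LOK_nonneg_of_centred N K1 A X m hXF P' hP') e
  refine ⟨key T S d.T_mem d.S_mem (d.gen hπ) d.mul_eq, key S T d.S_mem d.T_mem ?_ ?_⟩
  · rw [d.gen hπ]
    congr 1
    ext y
    simp only [Set.mem_insert_iff, Set.mem_singleton_iff]
    tauto
  · rw [mul_comm]
    exact d.mul_eq

/-- **The contract `S34LGK_Ord`** for every chart of a two-valuation setup. -/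
theorem S34LGO_ord (V2 A0 Ainf : Subring (LaurentSeries K1))
    (S : S34C_Setup2 (S18K_O A K1) (S18K_π A K1) (S18K_j K1) (S18K_F1 K1 N) (S18K_V A K1 N) V2
      A0 Ainf)
    (x : LaurentSeries K1) (hx : x = S18K_j K1 ∨ x = (S18K_j K1)⁻¹)
    (X : Subring (LaurentSeries K1))
    (hC : Chart (S18K_O A K1) (S18K_π A K1) x (S18K_F1 K1 N) (S18K_V A K1 N ⊓ V2) X) :
    S34LGK_Ord N A K1 hstab V2 X := by
  haveI hcz : CharZero (LaurentSeries K1) :=
    charZero_of_injective_algebraMap (algebraMap ℚ (LaurentSeries K1)).injective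
  have S1 := S34CA_setup_of_setup2 S
  have hOX : S18K_O A K1 ≤ X := S34C2_O_le (S34CA_setup S1) hC
  haveI hN : IsNoetherianRing X := S34CA_chart_noetherian S1 x hx X hC
  have hXF : ∀ a ∈ X, a ∈ modularFunctionFieldFullC K1 N := fun a ha => ((hC.mem_iff a).1 ha).2
  have hfrac : ∀ y ∈ modularFunctionFieldFullC K1 N,
      ∃ a b : X, b ≠ 0 ∧ y * (b : LaurentSeries K1) = a := by
    intro y hy
    obtain ⟨b, hb, hb0, hyb⟩ :=
      Fermat.Agent.S18A.frac_of_finite (S18K_O A K1) (S18K_j K1) (S18K_F1 K1 N)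
        S.O_le S.j_mem S.finite x hx y hy
    have hbX : b ∈ X := (hC.mem_iff b).2 hb
    have hybX : y * b ∈ X := (hC.mem_iff _).2 hyb
    exact ⟨⟨y * b, hybX⟩, ⟨b, hbX⟩, fun h => hb0 (congrArg Subtype.val h), rfl⟩
  exact S34LGO_ord_of N A K1 hstab V2 X hXF hfrac hOX

end Fermat.Agent.S34_helper7_LGORD
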