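import Mathlib
import Fermat.Agent.S34_helper7_LOCGEN
import Fermat.Agent.S34_helper7_LGORD
import Fermat.Agent.S34_helper17_VM
import Fermat.Agent.S34_helper6_LGREDK

/-!
# S34, X-LOCGEN: the wrapper for the charts of a two-valuation setup (helper7)

`S34LGW_chart` : the owner contract `S34K_LocGen` for every chart of a two-valuation setup from
the two remaining sub-contracts `S34LGK_Node` (X-L2) and `S34LGK_BranchB` (X-LOCGEN-B), and
`S34K_CentredInert`; the value map (helper17), the reduction (helper6) and the exact orders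
(helper26) are discharged.

`S34LGW_A0`, `S34LGW_Ainf` : the same for `S18K_A0`, `S18K_Ainf` with `S34K_CentredInert` from
`S34K_Inert` (helper21).
-/

set_option autoImplicit false
set_option linter.unusedSectionVars false
set_option linter.style.haveILetI false
set_option maxHeartbeats 1000000
set_option synthInstance.maxHeartbeats 400000

open AlgebraicCurve ModularCurve HahnSeries IntermediateField

noncomputable section

namespace Fermat.Agent.S34_helper7_LGW

open Fermat.Agent.S18_helper9_CDefs Fermat.Agent.S18_helper25_COREDefs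
  Fermat.Agent.S34_helper12_CDefs Fermat.Agent.S34_helper6_RED Fermat.Agent.S34_helper5_K0
  Fermat.Agent.S18_helper3_LOCRING Fermat.Agent.S37_helper4_B1Defs
  Fermat.Agent.S37_helper5_LEVEL Fermat.Agent.S34_Contracts Fermat.Agent.S34_helper21_ACT
  Fermat.Agent.S34_helper7_LGDefs Fermat.Agent.S34_helper7_LOCGEN
  Fermat.Agent.S34_helper7_LGORD

local notation "Qb" => AlgebraicClosure ℚ
local notation "GQ" => (AlgebraicClosure ℚ ≃ₐ[ℚ] AlgebraicClosure ℚ)

variable (N : ℕ) [NeZero N] (A : ValuationSubring Qb) (K1 : IntermediateField ℚ Qb)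
  (hstab : ∀ σ : GQ, ∀ x ∈ K1, σ x ∈ K1) [IsDiscreteValuationRing (S18K_O1 A K1)]

/-- **X-LOCGEN for a chart of a two-valuation setup**, from the node coordinates and the
branch (B). -/
theorem S34LGW_chart (V2 A0 Ainf : Subring (LaurentSeries K1))
    (S : S34C_Setup2 (S18K_O A K1) (S18K_π A K1) (S18K_j K1) (S18K_F1 K1 N) (S18K_V A K1 N) V2
      A0 Ainf)
    (x : LaurentSeries K1) (hx : x = S18K_j K1 ∨ x = (S18K_j K1)⁻¹)
    (X : Subring (LaurentSeries K1))
    (hC : Chart (S18K_O A K1) (S18K_π A K1) x (S18K_F1 K1 N) (S18K_V A K1 N ⊓ V2) X)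
    (hCI : S34K_CentredInert N A K1 X)
    (hNode : S34LGK_Node N A K1 hstab V2 X)
    (hB : S34LGK_BranchB N A K1 hstab V2 X) :
    S34K_LocGen N A K1 V2 X := by
  have hXF : ∀ a ∈ X, a ∈ modularFunctionFieldFullC K1 N := fun a ha => ((hC.mem_iff a).1 ha).2
  have hO : S18K_O A K1 ≤ X := Fermat.Agent.S34_helper2_HARTOGSK.S34HK_O_le S hC
  exact S34LG_locGen N A K1 hstab V2 X hXF hO hCI
    (Fermat.Agent.S34_helper17_VM.S34VM_main N A K1 X hXF hO) hNode
    (S34LGO_ord N A K1 hstab V2 A0 Ainf S x hx X hC) hB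
    (Fermat.Agent.S34_helper6_LGREDK.S34LR_red A K1 hstab N S hC)

/-- **X-LOCGEN on the finite chart.** -/
theorem S34LGW_A0 (V2 : Subring (LaurentSeries K1))
    (S : S34C_Setup2 (S18K_O A K1) (S18K_π A K1) (S18K_j K1) (S18K_F1 K1 N) (S18K_V A K1 N) V2
      (S18K_A0 A K1 N) (S18K_Ainf A K1 N))
    (hInert : S34K_Inert A K1 hstab V2)
    (hNode : S34LGK_Node N A K1 hstab V2 (S18K_A0 A K1 N))
    (hB : S34LGK_BranchB N A K1 hstab V2 (S18K_A0 A K1 N)) :
    S34K_LocGen N A K1 V2 (S18K_A0 A K1 N) :=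
  S34LGW_chart N A K1 hstab V2 _ _ S _ (Or.inl rfl) _ S.chart0
    (Fermat.Agent.S34_helper21_CI.S34CI_A0 N A K1 hstab V2 S hInert) hNode hB

/-- **X-LOCGEN on the chart at infinity.** -/
theorem S34LGW_Ainf (V2 : Subring (LaurentSeries K1))
    (S : S34C_Setup2 (S18K_O A K1) (S18K_π A K1) (S18K_j K1) (S18K_F1 K1 N) (S18K_V A K1 N) V2
      (S18K_A0 A K1 N) (S18K_Ainf A K1 N))
    (hInert : S34K_Inert A K1 hstab V2)
    (hNode : S34LGK_Node N A K1 hstab V2 (S18K_Ainf A K1 N))
    (hB : S34LGK_BranchB N A K1 hstab V2 (S18K_Ainf A K1 N)) :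
    S34K_LocGen N A K1 V2 (S18K_Ainf A K1 N) :=
  S34LGW_chart N A K1 hstab V2 _ _ S _ (Or.inr rfl) _ S.chartInf
    (Fermat.Agent.S34_helper21_CI.S34CI_Ainf N A K1 hstab V2 S hInert) hNode hB

end Fermat.Agent.S34_helper7_LGW
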