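import Mathlib
import Fermat.Agent.S18_helper9_CDefs

set_option autoImplicit false

/-! # S34 piece P-C2: the two-chart setting of S18 block C for SEVERAL vertical valuations

S18 block C (`Fermat.Agent.S18_helper9_CDefs.Setup`) assumes that the special fibre is irreducible:
`V` is THE Gauss valuation ring of `F1`, a discrete valuation ring with uniformiser `π`.  For
`X₀(qN')` at `q` the special fibre has two components.  Here:

* `SetupW O π j F1 W A0 Ainf` : the abstract version in which the valuation ring `V` is replaced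
  by a SEMI-LOCAL ring `W` (in the application `W = V_∞ ⊓ V_0`).  Only four properties of `W` are
  kept: `W ⊆ F1`, `W` is integrally closed in `F1`, `π` lies in the Jacobson radical of `W`
  (`(1 + π c)⁻¹ ∈ W`), and `π⁻¹ ∉ W`.  The charts are the S18 `Chart`s VERBATIM with `V := W`
  (so `sat` says `A ∩ π W = π A`, i.e. `π A` is the intersection of the vertical primes, each with
  `e = 1`, and `loc` says `W = S⁻¹ A`).
* `Setup2 O π j F1 Vinf V0 A0 Ainf` : the concrete two-valuation form (what X-V3 proves);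
  `Setup2.toSetupW` turns it into `SetupW O π j F1 (Vinf ⊓ V0) A0 Ainf`.
* `Setup.toSetupW` : S18's `Setup` is the special case `W = V`.
-/

namespace Fermat.Agent.S34_helper9_C2Defs

open Fermat.Agent.S18_helper9_CDefs

variable {L : Type*} [Field L]

/-- Block A for a semi-local vertical ring `W`. -/
structure SetupW (O : Subring L) (π j : L) (F1 : Subfield L) (W A0 Ainf : Subring L) : Prop where
  dvr : IsDiscreteValuationRing O
  π_mem : π ∈ O
  π_irr : ∀ hπ : π ∈ O, Irreducible (⟨π, hπ⟩ : O)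
  algClosed : ∀ x : L, IsAlgebraic O x → ∃ a ∈ O, ∃ b ∈ O, b ≠ 0 ∧ x * b = a
  j_trans : Transcendental O j
  j_mem : j ∈ F1
  O_le : (O : Set L) ⊆ F1
  finite : ∃ s : Finset L, ∀ x ∈ F1, ∃ c : L → L,
    (∀ y, c y ∈ Subfield.closure ((O : Set L) ∪ {j})) ∧ x = ∑ y ∈ s, c y * y
  W_le : (W : Set L) ⊆ F1
  W_ic : ∀ y ∈ F1, IsIntegral W y → y ∈ W
  W_rad : ∀ c ∈ W, (1 + π * c)⁻¹ ∈ W
  π_nonunit : π⁻¹ ∉ W
  chart0 : Chart O π j F1 W A0
  chartInf : Chart O π j⁻¹ F1 W Ainf

/-- Block A for two vertical valuations `Vinf`, `V0` (both with uniformiser `π`, i.e. `e = 1`). -/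
structure Setup2 (O : Subring L) (π j : L) (F1 : Subfield L) (Vinf V0 A0 Ainf : Subring L) :
    Prop where
  dvr : IsDiscreteValuationRing O
  π_mem : π ∈ O
  π_irr : ∀ hπ : π ∈ O, Irreducible (⟨π, hπ⟩ : O)
  algClosed : ∀ x : L, IsAlgebraic O x → ∃ a ∈ O, ∃ b ∈ O, b ≠ 0 ∧ x * b = a
  j_trans : Transcendental O j
  j_mem : j ∈ F1
  O_le : (O : Set L) ⊆ F1
  finite : ∃ s : Finset L, ∀ x ∈ F1, ∃ c : L → L,
    (∀ y, c y ∈ Subfield.closure ((O : Set L) ∪ {j})) ∧ x = ∑ y ∈ s, c y * y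
  Vinf_le : (Vinf : Set L) ⊆ F1
  Vinf_val : ∀ x ∈ F1, x ∈ Vinf ∨ x⁻¹ ∈ Vinf
  Vinf_unif : ∀ x ∈ Vinf, x⁻¹ ∉ Vinf → ∃ v ∈ Vinf, x = π * v
  πinf_nonunit : π⁻¹ ∉ Vinf
  V0_val : ∀ x ∈ F1, x ∈ V0 ∨ x⁻¹ ∈ V0
  V0_unif : ∀ x ∈ V0, x⁻¹ ∉ V0 → ∃ v ∈ V0, x = π * v
  π0_nonunit : π⁻¹ ∉ V0
  chart0 : Chart O π j F1 (Vinf ⊓ V0) A0
  chartInf : Chart O π j⁻¹ F1 (Vinf ⊓ V0) Ainf

/-- a valuation ring is integrally closed (elementwise). -/
theorem S34C2_mem_of_isIntegral_of_inv_mem (V : Subring L) {y : L} (hy : IsIntegral V y)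
    (hinv : y⁻¹ ∈ V) : y ∈ V := by
  by_cases hy0 : y = 0
  · rw [hy0]; exact V.zero_mem
  obtain ⟨P, hP, hPy⟩ := hy
  have hn : P.natDegree ≠ 0 := by
    intro h0
    have h1 : P = 1 := Polynomial.eq_one_of_monic_natDegree_zero hP h0
    rw [h1, Polynomial.eval₂_one] at hPy
    exact one_ne_zero hPy
  rw [Polynomial.eval₂_eq_sum_range, Finset.sum_range_succ, hP.coeff_natDegree, map_one,
    one_mul] at hPy
  obtain ⟨n, hn'⟩ := Nat.exists_eq_succ_of_ne_zero hn
  rw [hn'] at hPy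
  simp only [Nat.succ_eq_add_one] at hPy
  have h1 : y ^ (n + 1) = - ∑ i ∈ Finset.range (n + 1), algebraMap V L (P.coeff i) * y ^ i := by
    linear_combination hPy
  have h2 : y = y ^ (n + 1) * (y⁻¹) ^ n := by
    rw [pow_succ, inv_pow]
    field_simp
  have key : y = - ∑ i ∈ Finset.range (n + 1),
      (algebraMap V L (P.coeff i)) * (y⁻¹) ^ (n - i) := by
    calc y = y ^ (n + 1) * (y⁻¹) ^ n := h2
      _ = (- ∑ i ∈ Finset.range (n + 1), algebraMap V L (P.coeff i) * y ^ i) * (y⁻¹) ^ n := by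
          rw [h1]
      _ = - ∑ i ∈ Finset.range (n + 1), (algebraMap V L (P.coeff i)) * (y⁻¹) ^ (n - i) := by
          rw [neg_mul, Finset.sum_mul]
          congr 1
          refine Finset.sum_congr rfl fun i hi => ?_
          have hi' : i ≤ n := Nat.lt_succ_iff.mp (Finset.mem_range.mp hi)
          have h3 : y ^ i * (y⁻¹) ^ n = (y⁻¹) ^ (n - i) := by
            have : (y⁻¹) ^ n = (y⁻¹) ^ (n - i) * (y⁻¹) ^ i := by
              rw [← pow_add, Nat.sub_add_cancel hi']
            rw [this, inv_pow y i]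
            field_simp
          rw [mul_assoc, h3]
  rw [key]
  refine V.neg_mem (V.sum_mem fun i _ => V.mul_mem ?_ (V.pow_mem hinv _))
  exact (P.coeff i).2

/-- integrality is monotone in the base subring -/
theorem S34C2_isIntegral_mono {R R' : Subring L} (h : R ≤ R') {y : L} (hy : IsIntegral R y) :
    IsIntegral R' y := by
  obtain ⟨P, hP, hPy⟩ := hy
  refine ⟨P.map (Subring.inclusion h), hP.map _, ?_⟩
  rw [Polynomial.eval₂_map]
  exact hPy

/-- in a valuation ring with uniformiser `π` (non-unit), `1 + π c` is a unit. -/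
theorem S34C2_one_add_inv_mem (V : Subring L) (π : L) (hπV : π ∈ V)
    (hunif : ∀ x ∈ V, x⁻¹ ∉ V → ∃ v ∈ V, x = π * v) (hnon : π⁻¹ ∉ V) {c : L} (hc : c ∈ V) :
    (1 + π * c)⁻¹ ∈ V := by
  by_contra h
  have hmem : 1 + π * c ∈ V := V.add_mem V.one_mem (V.mul_mem hπV hc)
  obtain ⟨v, hv, hv'⟩ := hunif _ hmem h
  apply hnon
  have hπ0 : π ≠ 0 := by
    intro h0
    apply hnon
    rw [h0, inv_zero]
    exact V.zero_mem
  have : π⁻¹ = v - c := by
    field_simp
    linear_combination hv'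
  rw [this]
  exact V.sub_mem hv hc

theorem Setup2.toSetupW {O : Subring L} {π j : L} {F1 : Subfield L}
    {Vinf V0 A0 Ainf : Subring L} (S : Setup2 O π j F1 Vinf V0 A0 Ainf) :
    SetupW O π j F1 (Vinf ⊓ V0) A0 Ainf := by
  have hOA0 : O ≤ A0 := fun y hy =>
    (S.chart0.mem_iff y).2
      ⟨isIntegral_algebraMap (x := (⟨y, Subring.subset_closure (Or.inl hy)⟩ : adj O j)),
        S.O_le hy⟩
  have hπW : π ∈ Vinf ⊓ V0 := S.chart0.le_V (hOA0 S.π_mem)
  refine
    { dvr := S.dvr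
      π_mem := S.π_mem
      π_irr := S.π_irr
      algClosed := S.algClosed
      j_trans := S.j_trans
      j_mem := S.j_mem
      O_le := S.O_le
      finite := S.finite
      W_le := fun x hx => S.Vinf_le (Subring.mem_inf.mp hx).1
      W_ic := ?_
      W_rad := ?_
      π_nonunit := fun h => S.πinf_nonunit (Subring.mem_inf.mp h).1
      chart0 := S.chart0
      chartInf := S.chartInf }
  · intro y hy hint
    refine Subring.mem_inf.mpr ⟨?_, ?_⟩
    · rcases S.Vinf_val y hy with h | h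
      · exact h
      · exact S34C2_mem_of_isIntegral_of_inv_mem Vinf (S34C2_isIntegral_mono inf_le_left hint) h
    · rcases S.V0_val y hy with h | h
      · exact h
      · exact S34C2_mem_of_isIntegral_of_inv_mem V0 (S34C2_isIntegral_mono inf_le_right hint) h
  · intro c hc
    obtain ⟨hc1, hc2⟩ := Subring.mem_inf.mp hc
    obtain ⟨hπ1, hπ2⟩ := Subring.mem_inf.mp hπW
    exact Subring.mem_inf.mpr
      ⟨S34C2_one_add_inv_mem Vinf π hπ1 S.Vinf_unif S.πinf_nonunit hc1,
        S34C2_one_add_inv_mem V0 π hπ2 S.V0_unif S.π0_nonunit hc2⟩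

/-- S18's `Setup` is the special case `W = V`. -/
theorem S34C2_Setup_toSetupW {O : Subring L} {π j : L} {F1 : Subfield L}
    {V A0 Ainf : Subring L} (S : Setup O π j F1 V A0 Ainf) : SetupW O π j F1 V A0 Ainf := by
  have hOA0 : O ≤ A0 := fun y hy =>
    (S.chart0.mem_iff y).2
      ⟨isIntegral_algebraMap (x := (⟨y, Subring.subset_closure (Or.inl hy)⟩ : adj O j)),
        S.O_le hy⟩
  have hπV : π ∈ V := S.chart0.le_V (hOA0 S.π_mem)
  exact
    { dvr := S.dvr
      π_mem := S.π_mem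
      π_irr := S.π_irr
      algClosed := S.algClosed
      j_trans := S.j_trans
      j_mem := S.j_mem
      O_le := S.O_le
      finite := S.finite
      W_le := S.V_le
      W_ic := fun y hy hint => by
        rcases S.V_val y hy with h | h
        · exact h
        · exact S34C2_mem_of_isIntegral_of_inv_mem V hint h
      W_rad := fun c hc => S34C2_one_add_inv_mem V π hπV S.V_unif S.π_nonunit hc
      π_nonunit := S.π_nonunit
      chart0 := S.chart0
      chartInf := S.chartInf }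

/-- The local shape of `f` at a maximal ideal `m` of the chart `A` (same as
`Fermat.Agent.S18_helper9_CASM.LocShape`, with `V := W`): `f = u g ^ p`, `u` a unit of `A_m`,
`g` a unit of `W`, and the reduction `G` of a `p`-th root satisfies `G ≡ g w mod π W` with
`w` a unit of `A_m`. -/
def LocShapeW (π : L) (F1 : Subfield L) (W A : Subring L) (p : ℕ) (f G : L) (m : Ideal A) :
    Prop :=
  ∃ u g w : L, (∃ a c : A, c ∉ m ∧ u * (c : L) = a) ∧ (∃ a c : A, c ∉ m ∧ u⁻¹ * (c : L) = a) ∧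
    g ∈ F1 ∧ g ∈ W ∧ g⁻¹ ∈ W ∧ f = u * g ^ p ∧
    (∃ a c : A, c ∉ m ∧ w * (c : L) = a) ∧ (∃ a c : A, c ∉ m ∧ w⁻¹ * (c : L) = a) ∧
    ∃ c ∈ W, G = g * w * (1 + π * c)

/-- The form in which the S34 consumers produce the local shape: a LOCAL GENERATOR `g ≡ 1 mod π W`
of the `p`-th root of the divisor of `f` at `m` (so that `f / g ^ p` is a unit of `A_m`: HARTOGS),
and the reduction `G` is a unit of `A_m` (e.g. a constant of `O`). -/
theorem LocShapeW_of_gen {O : Subring L} {π j : L} {F1 : Subfield L} {W A0 Ainf A : Subring L}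
    (S : SetupW O π j F1 W A0 Ainf) {p : ℕ} {f G : L} {m : Ideal A}
    (g : L) (hgF : g ∈ F1) (c : L) (hc : c ∈ W) (hg : g = 1 + π * c)
    (hu : ∃ a d : A, d ∉ m ∧ (f / g ^ p) * (d : L) = a)
    (hu' : ∃ a d : A, d ∉ m ∧ (f / g ^ p)⁻¹ * (d : L) = a)
    (hG : ∃ a d : A, d ∉ m ∧ G * (d : L) = a) (hG' : ∃ a d : A, d ∉ m ∧ G⁻¹ * (d : L) = a) :
    LocShapeW π F1 W A p f G m := by
  have hOA0 : O ≤ A0 := fun y hy =>
    (S.chart0.mem_iff y).2
      ⟨isIntegral_algebraMap (x := (⟨y, Subring.subset_closure (Or.inl hy)⟩ : adj O j)),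
        S.O_le hy⟩
  have hπW : π ∈ W := S.chart0.le_V (hOA0 S.π_mem)
  have hπ0 : π ≠ 0 := by
    intro h0
    apply S.π_nonunit
    rw [h0, inv_zero]
    exact W.zero_mem
  have hginv : g⁻¹ ∈ W := hg ▸ S.W_rad c hc
  have hgW : g ∈ W := hg ▸ W.add_mem W.one_mem (W.mul_mem hπW hc)
  have hg0 : g ≠ 0 := by
    intro h0
    apply S.π_nonunit
    have h1 : (1 : L) + π * c = 0 := by rw [← hg, h0]
    have h2 : π⁻¹ = -c := by
      field_simp
      linear_combination h1
    rw [h2]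
    exact W.neg_mem hc
  refine ⟨f / g ^ p, g, G, hu, hu', hgF, hgW, hginv, ?_, hG, hG', -(c * g⁻¹),
    W.neg_mem (W.mul_mem hc hginv), ?_⟩
  · field_simp
  · have h3 : g * (1 + π * -(c * g⁻¹)) = 1 := by
      have : g * (1 + π * -(c * g⁻¹)) = g - π * c * (g * g⁻¹) := by ring
      rw [this, mul_inv_cancel₀ hg0, hg]
      ring
    calc G = G * (g * (1 + π * -(c * g⁻¹))) := by rw [h3, mul_one]
      _ = g * G * (1 + π * -(c * g⁻¹)) := by ring

end Fermat.Agent.S34_helper9_C2Defs
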