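import Mathlib

/-!
# S35, GEO-REDF1 (helper17): Red-Frob for `s - 1`, abstract core

`L` a field, `V` a valuation-like subring with uniformiser `π` (`π⁻¹ ∉ V`, `1 + π V ⊆ Vˣ`),
`R ≤ V` a local subring, `σ` an endomorphism of `L` with inverse `σ'`, both preserving `R`,
`σ` preserving `V`, `σ π = π ε`.

* `S35RF_LU`    : the class `g = w (1 + π c)`, `w` a unit of `R`, `c ∈ V`;
* `S35RF_unit`  : if `Z` is a coordinate which is a unit of `V` and the nonunits of `R` are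
  generated by `π, Z, Y` with `Y ∈ π V`, then `σ (Z - α) / (Z - α)` is in the class, for
  `α ∈ π R`;
* `S35RF_deep`  : if `Z = α π t` with `t ∈ V` and `σ α = κ α`, `κ` a unit of `R`, then
  `σ (Z - α) / (Z - α)` is in the class.
-/

set_option autoImplicit false

namespace Fermat.Agent.S35_helper17_REDF1A

variable {L : Type*} [Field L]

/-- `g` is congruent to a unit of `R` modulo `π V` (multiplicatively). -/
def S35RF_LU (π : L) (V R : Subring L) (g : L) : Prop :=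
  ∃ w : L, w ∈ R ∧ w⁻¹ ∈ R ∧ ∃ c ∈ V, g = w * (1 + π * c)

theorem S35RF_one_add_ne_zero (π : L) (V : Subring L) (hπnu : π⁻¹ ∉ V) {c : L} (hc : c ∈ V) :
    1 + π * c ≠ 0 := by
  intro h0
  apply hπnu
  have hπ0 : π ≠ 0 := by
    intro h
    rw [h, zero_mul, add_zero] at h0
    exact one_ne_zero h0
  have : π⁻¹ = -c := inv_eq_of_mul_eq_one_right (by linear_combination -h0)
  rw [this]
  exact V.neg_mem hc

/-- the quotient of two principal units is a principal unit. -/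
theorem S35RF_pu_div (π : L) (V : Subring L) (hπnu : π⁻¹ ∉ V)
    (hrad : ∀ c ∈ V, (1 + π * c)⁻¹ ∈ V) {c1 c2 : L} (h1 : c1 ∈ V) (h2 : c2 ∈ V) :
    ∃ c ∈ V, (1 + π * c2) * (1 + π * c1)⁻¹ = 1 + π * c := by
  have hne := S35RF_one_add_ne_zero π V hπnu h1
  refine ⟨(c2 - c1) * (1 + π * c1)⁻¹, V.mul_mem (V.sub_mem h2 h1) (hrad c1 h1), ?_⟩
  field_simp
  ring

/-- `1 + π c` is a unit of a valuation-like ring with uniformiser `π`. -/
theorem S35RF_rad (π : L) (V : Subring L) (hπV : π ∈ V) (hπnu : π⁻¹ ∉ V)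
    (hunif : ∀ x ∈ V, x⁻¹ ∉ V → ∃ v ∈ V, x = π * v) :
    ∀ c ∈ V, (1 + π * c)⁻¹ ∈ V := by
  intro c hc
  by_contra h
  obtain ⟨v, hv, e⟩ := hunif _ (V.add_mem V.one_mem (V.mul_mem hπV hc)) h
  apply hπnu
  have h1 : π * (v - c) = 1 := by linear_combination -e
  have : π⁻¹ = v - c := inv_eq_of_mul_eq_one_right h1
  rw [this]
  exact V.sub_mem hv hc

/-- the nonunits of a subring of a field, in field language. -/
theorem S35RF_nu_iff (R : Subring L) (r : L) (hr : r ∈ R) :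
    (r = 0 ∨ r⁻¹ ∉ R) ↔ ¬ IsUnit (⟨r, hr⟩ : R) := by
  constructor
  · intro h hu
    obtain ⟨u, hu⟩ := hu.exists_right_inv
    have h1 : r * (u : L) = 1 := congrArg Subtype.val hu
    have hr0 : r ≠ 0 := by
      rintro rfl
      rw [zero_mul] at h1
      exact zero_ne_one h1
    rcases h with h | h
    · exact hr0 h
    · apply h
      rw [inv_eq_of_mul_eq_one_right h1]
      exact u.2
  · intro h
    by_contra hcon
    push Not at hcon
    obtain ⟨hr0, hinv⟩ := hcon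
    exact h (IsUnit.of_mul_eq_one (⟨r⁻¹, hinv⟩ : R) (Subtype.ext (mul_inv_cancel₀ hr0)))

/-- the nonunits of a local subring are closed under addition. -/
theorem S35RF_loc (R : Subring L) [IsLocalRing R] :
    ∀ a ∈ R, ∀ b ∈ R, (a = 0 ∨ a⁻¹ ∉ R) → (b = 0 ∨ b⁻¹ ∉ R) →
      (a + b = 0 ∨ (a + b)⁻¹ ∉ R) := by
  intro a ha b hb na nb
  rw [S35RF_nu_iff R a ha] at na
  rw [S35RF_nu_iff R b hb] at nb
  rw [S35RF_nu_iff R (a + b) (R.add_mem ha hb)]
  have := IsLocalRing.nonunits_add (a := (⟨a, ha⟩ : R)) (b := (⟨b, hb⟩ : R)) na nb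
  exact this

/-- the nonunits of a local subring whose maximal ideal is generated by three elements. -/
theorem S35RF_gen (R : Subring L) [IsLocalRing R] (p Z Y : R)
    (h : IsLocalRing.maximalIdeal R = Ideal.span ({p, Z, Y} : Set R)) :
    ∀ r ∈ R, (r = 0 ∨ r⁻¹ ∉ R) →
      ∃ x ∈ R, ∃ y ∈ R, ∃ z ∈ R, r = (p : L) * x + (Z : L) * y + (Y : L) * z := by
  intro r hr nr
  rw [S35RF_nu_iff R r hr] at nr
  have hmem : (⟨r, hr⟩ : R) ∈ IsLocalRing.maximalIdeal R := nr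
  rw [h, Ideal.mem_span_insert] at hmem
  obtain ⟨x, w, hw, e⟩ := hmem
  rw [Ideal.mem_span_pair] at hw
  obtain ⟨y, z, rfl⟩ := hw
  refine ⟨x, x.2, y, y.2, z, z.2, ?_⟩
  have := congrArg Subtype.val e
  simp only [Subring.coe_add, Subring.coe_mul] at this
  rw [this]
  ring

/-- **The deep branch.** -/
theorem S35RF_deep (π : L) (V R : Subring L) (hRV : R ≤ V) (hπnu : π⁻¹ ∉ V)
    (hrad : ∀ c ∈ V, (1 + π * c)⁻¹ ∈ V) (σ : L →+* L) (hσV : ∀ v ∈ V, σ v ∈ V)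
    (ε : L) (hε : ε ∈ R) (hσπ : σ π = π * ε)
    (Z α κ t : L) (hα : α ≠ 0) (ht : t ∈ V) (hZ : Z = α * π * t)
    (hκ : κ ∈ R) (hκ' : κ⁻¹ ∈ R) (hσα : σ α = κ * α) :
    S35RF_LU π V R (σ (Z - α) * (Z - α)⁻¹) := by
  have h1 : -t ∈ V := V.neg_mem ht
  have h2 : ε * σ (-t) ∈ V := V.mul_mem (hRV hε) (hσV _ h1)
  obtain ⟨c, hc, e⟩ := S35RF_pu_div π V hπnu hrad h1 h2
  have hne := S35RF_one_add_ne_zero π V hπnu h1
  refine ⟨κ, hκ, hκ', c, hc, ?_⟩
  rw [← e]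
  have e1 : Z - α = (-α) * (1 + π * (-t)) := by rw [hZ]; ring
  have e2 : σ (Z - α) = (-(κ * α)) * (1 + π * (ε * σ (-t))) := by
    rw [e1, map_mul, map_add, map_mul, map_one, map_neg, hσα, hσπ]
    ring
  rw [e2, e1, mul_inv]
  have hα' : -α ≠ 0 := neg_ne_zero.2 hα
  field_simp

/-- **The unit branch.** -/
theorem S35RF_unit (π : L) (V R : Subring L) (hRV : R ≤ V) (hπnu : π⁻¹ ∉ V)
    (hrad : ∀ c ∈ V, (1 + π * c)⁻¹ ∈ V)
    (hloc : ∀ a ∈ R, ∀ b ∈ R, (a = 0 ∨ a⁻¹ ∉ R) → (b = 0 ∨ b⁻¹ ∉ R) →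
      (a + b = 0 ∨ (a + b)⁻¹ ∉ R))
    (σ σ' : L →+* L) (hσσ' : ∀ x, σ (σ' x) = x)
    (hσR : ∀ y ∈ R, σ y ∈ R) (hσ'R : ∀ y ∈ R, σ' y ∈ R) (hσV : ∀ v ∈ V, σ v ∈ V)
    (ε : L) (hε : ε ∈ R) (hσπ : σ π = π * ε)
    (Z Y : L) (hZ0 : Z ≠ 0) (hZV : Z⁻¹ ∈ V) (hZnu : Z⁻¹ ∉ R)
    (vY : L) (hvY : vY ∈ V) (hY : Y = π * vY)
    (hgen : ∀ r ∈ R, (r = 0 ∨ r⁻¹ ∉ R) →
      ∃ x ∈ R, ∃ y ∈ R, ∃ z ∈ R, r = π * x + Z * y + Y * z)
    (hZR : Z ∈ R) (α a' : L) (ha' : a' ∈ R) (hα : α = π * a') :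
    S35RF_LU π V R (σ (Z - α) * (Z - α)⁻¹) := by
  have hσ'σ : ∀ x, σ' (σ x) = x := fun x => σ.injective (hσσ' (σ x))
  -- `σ Z` and `σ' Z` are nonunits of `R`
  have n1 : σ Z = 0 ∨ (σ Z)⁻¹ ∉ R := by
    right
    intro h
    have := hσ'R _ h
    rw [map_inv₀, hσ'σ] at this
    exact hZnu this
  have n2 : σ' Z = 0 ∨ (σ' Z)⁻¹ ∉ R := by
    right
    intro h
    have := hσR _ h
    rw [map_inv₀, hσσ'] at this
    exact hZnu this
  obtain ⟨x, hx, y, hy, z, hz, E1⟩ := hgen _ (hσR Z hZR) n1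
  obtain ⟨x', hx', y', hy', z', hz', E2⟩ := hgen _ (hσ'R Z hZR) n2
  have hZZ : Z * Z⁻¹ = 1 := mul_inv_cancel₀ hZ0
  -- `Z = σ Z * σ y' + π (...)`
  have E3 : Z = π * ε * σ x' + σ Z * σ y' + π * ε * σ vY * σ z' := by
    have := congrArg σ E2
    rw [hσσ', map_add, map_add, map_mul, map_mul, map_mul, hY, map_mul, hσπ] at this
    exact this
  set W : L := ε * σ x' + (x + vY * z) * σ y' + ε * σ vY * σ z' with hW
  have hWV : W ∈ V :=
    V.add_mem (V.add_mem (V.mul_mem (hRV hε) (hRV (hσR _ hx')))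
      (V.mul_mem (V.add_mem (hRV hx) (V.mul_mem hvY (hRV hz))) (hRV (hσR _ hy'))))
      (V.mul_mem (V.mul_mem (hRV hε) (hσV _ hvY)) (hRV (hσR _ hz')))
  have E4 : Z = Z * y * σ y' + π * W := by
    rw [hW]
    rw [E1, hY] at E3
    linear_combination E3
  have key : 1 - y * σ y' = π * (Z⁻¹ * W) := by
    linear_combination Z⁻¹ * E4 - (1 - y * σ y') * hZZ
  -- `y` is a unit of `R`
  have hyu : y ≠ 0 ∧ y⁻¹ ∈ R := by
    by_contra hcon
    have hnu : y = 0 ∨ y⁻¹ ∉ R := by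
      by_cases hy0 : y = 0
      · exact Or.inl hy0
      · exact Or.inr fun h => hcon ⟨hy0, h⟩
    have ha : y * σ y' = 0 ∨ (y * σ y')⁻¹ ∉ R := by
      by_cases h0 : y * σ y' = 0
      · exact Or.inl h0
      · right
        intro h
        rcases hnu with hy0 | hyn
        · exact h0 (by rw [hy0, zero_mul])
        · apply hyn
          have hy0 : y ≠ 0 := left_ne_zero_of_mul h0
          have hs0 : σ y' ≠ 0 := right_ne_zero_of_mul h0
          have : y⁻¹ = σ y' * (y * σ y')⁻¹ := by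
            field_simp
          rw [this]
          exact R.mul_mem (hσR _ hy') h
    have hbR : π * (Z⁻¹ * W) ∈ R := by
      rw [← key]
      exact R.sub_mem R.one_mem (R.mul_mem hy (hσR _ hy'))
    have hb : π * (Z⁻¹ * W) = 0 ∨ (π * (Z⁻¹ * W))⁻¹ ∉ R := by
      by_cases h0 : π * (Z⁻¹ * W) = 0
      · exact Or.inl h0
      · right
        intro h
        apply hπnu
        have hπ0 : π ≠ 0 := left_ne_zero_of_mul h0
        have hw0 : Z⁻¹ * W ≠ 0 := right_ne_zero_of_mul h0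
        have : π⁻¹ = (Z⁻¹ * W) * (π * (Z⁻¹ * W))⁻¹ := by
          rw [mul_inv, mul_left_comm, mul_inv_cancel₀ hw0, mul_one]
        rw [this]
        exact V.mul_mem (V.mul_mem hZV hWV) (hRV h)
    have h1 := hloc _ (R.mul_mem hy (hσR _ hy')) _ hbR ha hb
    have h2 : y * σ y' + π * (Z⁻¹ * W) = 1 := by linear_combination -key
    rw [h2] at h1
    rcases h1 with h1 | h1
    · exact one_ne_zero h1
    · apply h1
      rw [inv_one]
      exact R.one_mem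
  obtain ⟨hy0, hyinv⟩ := hyu
  -- the two principal units
  have c1V : -(a' * Z⁻¹) ∈ V := V.neg_mem (V.mul_mem (hRV ha') hZV)
  have c2V : (x + vY * z - ε * σ a') * Z⁻¹ * y⁻¹ ∈ V :=
    V.mul_mem (V.mul_mem (V.sub_mem (V.add_mem (hRV hx) (V.mul_mem hvY (hRV hz)))
      (V.mul_mem (hRV hε) (hRV (hσR _ ha')))) hZV) (hRV hyinv)
  obtain ⟨c, hc, e⟩ := S35RF_pu_div π V hπnu hrad c1V c2V
  have hne := S35RF_one_add_ne_zero π V hπnu c1V
  refine ⟨y, hy, hyinv, c, hc, ?_⟩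
  rw [← e]
  have e1 : Z - α = Z * (1 + π * (-(a' * Z⁻¹))) := by
    rw [hα]
    field_simp
    ring
  have e2 : σ (Z - α) = Z * y * (1 + π * ((x + vY * z - ε * σ a') * Z⁻¹ * y⁻¹)) := by
    rw [map_sub, hα, map_mul, hσπ, E1, hY]
    field_simp
    ring
  rw [e2, e1, mul_inv]
  field_simp

end Fermat.Agent.S35_helper17_REDF1A
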