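import Mathlib
import Fermat.Agent.S34_helper7_LGDefs

/-!
# S35, GEO (operator route): the Frobenius local generator, typed sub-contracts (helper7)

Definitions of `Prop`s only.  Everything is generic in an element `s` of the absolute Galois
group (the consumer takes `s = σ ^ 2`, `σ` a Frobenius lift) and in a polynomial
`p : Polynomial ℤ` (the consumer takes `p = (X - q ^ 2) (X - 1)`).  The operators are written
without auxiliary definitions:

* on functions : `Θ_p u = ∏ i ∈ p.support, (S34ACT_act K1 hstab (s ^ i) u) ^ (p.coeff i)`;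
* on divisors  : `Θ_p D = ∑ i ∈ p.support, p.coeff i • (S34R_g N (s ^ i) • D)`.

* `S35LGK_LU`       : the class of the functions `≡` a unit of the local ring at `m` modulo
  `π (V1 ⊓ V2)`;
* `S35LGK_BranchBF` : a place which is deep at every stage is fixed by `s`;
* `S35LGK_RedF`     : `Θ_p (Z - C a)` is in the class `S35LGK_LU` for a typed value `a`;
* `S35K_LocGenF`    : the local generator of `Θ_p P` at a crossing point.
-/

set_option autoImplicit false

open AlgebraicCurve ModularCurve HahnSeries IntermediateField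

noncomputable section

namespace Fermat.Agent.S35_helper7_LGFDefs

open Fermat.Agent.S18_helper9_CDefs Fermat.Agent.S18_helper25_COREDefs
  Fermat.Agent.S34_helper12_CDefs Fermat.Agent.S34_helper6_RED Fermat.Agent.S34_helper5_K0
  Fermat.Agent.S18_helper3_LOCRING Fermat.Agent.S37_helper4_B1Defs
  Fermat.Agent.S37_helper5_LEVEL Fermat.Agent.S34_Contracts Fermat.Agent.S34_helper21_ACT
  Fermat.Agent.S34_helper7_LGDefs

local notation "Qb" => AlgebraicClosure ℚ
local notation "GQ" => (AlgebraicClosure ℚ ≃ₐ[ℚ] AlgebraicClosure ℚ)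

section Abstract

variable {L : Type*} [Field L]

/-- `g` is congruent to a unit of the local ring at `m` modulo `π V`:
`g = w (1 + π c)` with `w, w⁻¹ ∈ locRing X m` and `c ∈ V`. -/
def S35LGK_LU (π : L) (V X : Subring L) (m : Ideal X) [m.IsPrime] (g : L) : Prop :=
  ∃ w : L, w ∈ locRing X m ∧ w⁻¹ ∈ locRing X m ∧ ∃ c ∈ V, g = w * (1 + π * c)

end Abstract

variable (N : ℕ) [NeZero N] (A : ValuationSubring Qb) (K1 : IntermediateField ℚ Qb)
  (hstab : ∀ σ : GQ, ∀ x ∈ K1, σ x ∈ K1) [IsDiscreteValuationRing (S18K_O1 A K1)]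
  (s : GQ) (p : Polynomial ℤ)

/-- **BranchB-Frob**: a rational place centred at a crossing point which is deep at stages of
arbitrarily large exponent is fixed by `s`.  (The hypotheses of the landed `S34LGK_BranchB`
verbatim; the conclusion for the one element `s`.) -/
def S35LGK_BranchBF (V2 X : Subring (LaurentSeries K1)) : Prop :=
  ∀ (hπ : S18K_π A K1 ∈ X) (m : Ideal X) (hm : m.IsMaximal), (⟨S18K_π A K1, hπ⟩ : X) ∈ m →
    S34K_Thru (S18K_π A K1) (S18K_V A K1 N) X m → S34K_Thru (S18K_π A K1) V2 X m →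
  ∀ P : Place Qb (modularFunctionFieldBar N), S37LEVEL_IsRational N K1 P →
    S34K_Centred N A K1 X m P →
    (∀ n : ℕ, ∃ (ϖ : K1) (k : ℕ) (T S c : LaurentSeries K1), n ≤ k ∧
      (haveI := hm.isPrime; S34LGK_NodeData N A K1 hstab V2 X m ϖ k T S c) ∧
      S34LGK_Deep N A K1 P ϖ k T S) →
    S34R_g N s • P = P

/-- **Red-Frob**: for node coordinates at a crossing point `m` and a nonunit constant `a` with
`ϖ ^ k = a ρ`, `ρ` a nonunit, the function `Θ_p (T - C a)` is congruent to a unit of the local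
ring at `m` modulo `π (V1 ⊓ V2)`; and the same for the coordinate `S`.
(The binders of the landed `S34LGK_Red`.) -/
def S35LGK_RedF (V2 X : Subring (LaurentSeries K1)) : Prop :=
  ∀ (hπ : S18K_π A K1 ∈ X) (m : Ideal X) (hm : m.IsMaximal), (⟨S18K_π A K1, hπ⟩ : X) ∈ m →
    S34K_Thru (S18K_π A K1) (S18K_V A K1 N) X m → S34K_Thru (S18K_π A K1) V2 X m →
  ∀ (ϖ : K1) (k : ℕ) (T S c : LaurentSeries K1),
    (haveI := hm.isPrime; S34LGK_NodeData N A K1 hstab V2 X m ϖ k T S c) →
  ∀ a ρ : K1, (a : Qb) ∈ A.nonunits → (ρ : Qb) ∈ A.nonunits → ϖ ^ k = a * ρ →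
    (haveI := hm.isPrime
     S35LGK_LU (S18K_π A K1) (S18K_V A K1 N ⊓ V2) X m
      (∏ i ∈ p.support, (S34ACT_act K1 hstab (s ^ i) (T - HahnSeries.C a)) ^ (p.coeff i))) ∧
    (haveI := hm.isPrime
     S35LGK_LU (S18K_π A K1) (S18K_V A K1 N ⊓ V2) X m
      (∏ i ∈ p.support, (S34ACT_act K1 hstab (s ^ i) (S - HahnSeries.C a)) ^ (p.coeff i)))

/-- **The Frobenius local generator** (the hypothesis `hLG` of the generic X-CROSS): at a
crossing point `m` of the chart `X`, every `K1`-rational place `P` centred at `m` has a local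
generator of `Θ_p P`: a function `g`, congruent to a unit of the local ring at `m` modulo
`π (V1 ⊓ V2)`, whose order at every place `P'` centred at `m` is the coefficient of `P'` in
`Θ_p P`. -/
def S35K_LocGenF (V2 X : Subring (LaurentSeries K1)) : Prop :=
  ∀ (hπ : S18K_π A K1 ∈ X) (m : Ideal X) (hm : m.IsMaximal), (⟨S18K_π A K1, hπ⟩ : X) ∈ m →
    S34K_Thru (S18K_π A K1) (S18K_V A K1 N) X m → S34K_Thru (S18K_π A K1) V2 X m →
  ∀ P : Place Qb (modularFunctionFieldBar N), S37LEVEL_IsRational N K1 P →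
    S34K_Centred N A K1 X m P →
    ∃ g ∈ S18K_F1 K1 N,
      (haveI := hm.isPrime; S35LGK_LU (S18K_π A K1) (S18K_V A K1 N ⊓ V2) X m g) ∧
      ∀ P' : Place Qb (modularFunctionFieldBar N), S34K_Centred N A K1 X m P' →
        S37B1_ordP N K1 P' g =
          (∑ i ∈ p.support, p.coeff i • (S34R_g N (s ^ i) • Finsupp.single P (1 : ℤ))) P'

end Fermat.Agent.S35_helper7_LGFDefs
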