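import Mathlib
import Fermat.Agent.S35_helper17_REDF1A
import Fermat.Agent.S34_helper6_LGREDK
import Fermat.Agent.S35_helper7_LGFDefs

/-!
# S35, GEO-REDF1 (helper17): Red-Frob for `s - 1` in the class `LU2`, concrete carriers

`A` a valuation subring of `ℚ̄`, `K1` a Galois-stable level with `O1 = A ∩ K1` a discrete
valuation ring, `s` an element of the Galois group with `s A ⊆ A`, `s⁻¹ A ⊆ A`.

* `S35RF_unit_pi`, `S35RF_unit_ratio` : `s a = ε a` with `ε` a unit of `O1`, for `a ∈ O1`;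
* `S35RF_redU_gen` : for a chart `X` of a two-valuation setup and a crossing point `m` such that
  `s`, `s⁻¹` preserve the local ring at `m` and `s` preserves `V2`: for node coordinates
  `(ϖ, k, T, S, c)` at `m` and a nonunit `a` with `ϖ ^ k = a ρ`, `ρ` a nonunit, the functions
  `s (T - a) / (T - a)` and `s (S - a) / (S - a)` are congruent to a unit of the local ring at
  `m` modulo `π V1` and modulo `π V2` (the hypothesis `hRedU` of `S35X2_cross_chart`, verbatim).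
-/

set_option autoImplicit false
set_option linter.unusedSectionVars false
set_option linter.unusedVariables false
set_option linter.style.haveILetI false
set_option maxHeartbeats 1000000
set_option synthInstance.maxHeartbeats 400000

open HahnSeries IntermediateField ModularCurve
open Fermat.Agent.S18_helper13_GAUSS Fermat.Agent.S18_helper25_COREDefs
  Fermat.Agent.S18_helper9_CDefs Fermat.Agent.S34_helper12_CDefs
  Fermat.Agent.S18_helper3_LOCRING Fermat.Agent.S34_helper5_K0 Fermat.Agent.S34_helper21_ACT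
  Fermat.Agent.S34_helper6_LGRED Fermat.Agent.S34_helper6_LGREDK Fermat.Agent.S34_Contracts
  Fermat.Agent.S34_helper7_LGDefs Fermat.Agent.S35_helper7_LGFDefs
  Fermat.Agent.S35_helper17_REDF1A

noncomputable section

namespace Fermat.Agent.S35_helper17_REDF1

local notation "Qb" => AlgebraicClosure ℚ
local notation "GQ" => (AlgebraicClosure ℚ ≃ₐ[ℚ] AlgebraicClosure ℚ)

variable (A : ValuationSubring Qb) (K1 : IntermediateField ℚ Qb)
  (hstab : ∀ σ : GQ, ∀ x ∈ K1, σ x ∈ K1) [IsDiscreteValuationRing (S18K_O1 A K1)]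

/-! ### The decomposition group on `O1` -/

section Decomp

variable (s s' : GQ) (hsA : ∀ a ∈ A, s a ∈ A) (hs'A : ∀ a ∈ A, s' a ∈ A)

include hsA hs'A

/-- `s' (s x) = x` on `O1`. -/
theorem S35RF_t_inv_t (h1 : ∀ x : Qb, s' (s x) = x) (x : S18K_O1 A K1) :
    S34ACT_resO K1 hstab A s' hs'A (S34ACT_resO K1 hstab A s hsA x) = x := by
  apply Subtype.ext
  apply Subtype.ext
  show s' (s ((x : K1) : Qb)) = ((x : K1) : Qb)
  exact h1 _

/-- `π ∣ x → π ∣ s x`. -/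
theorem S35RF_dvd_map (h1 : ∀ x : Qb, s' (s x) = x) {x : S18K_O1 A K1}
    (hx : (S18K_D A K1).π ∣ x) : (S18K_D A K1).π ∣ S34ACT_resO K1 hstab A s hsA x := by
  by_contra hn
  have hu : IsUnit (S34ACT_resO K1 hstab A s hsA x) := (S34LRK_isUnit_iff A K1 _).mpr hn
  have hu' := hu.map (S34ACT_resO K1 hstab A s' hs'A)
  rw [S35RF_t_inv_t A K1 hstab s s' hsA hs'A h1] at hu'
  exact (S34LRK_isUnit_iff A K1 _).mp hu' hx

/-- `s π = π y` with `y` a unit. -/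
theorem S35RF_unit_pi (h1 : ∀ x : Qb, s' (s x) = x) (h2 : ∀ x : Qb, s (s' x) = x) :
    ∃ y : S18K_O1 A K1, IsUnit y ∧
      S34ACT_resO K1 hstab A s hsA (S18K_D A K1).π = (S18K_D A K1).π * y := by
  set π := (S18K_D A K1).π with hπ
  have hπ0 : π ≠ 0 := (S18K_D A K1).π_ne_zero
  obtain ⟨y, hy⟩ := S35RF_dvd_map A K1 hstab s s' hsA hs'A h1 (dvd_refl π)
  obtain ⟨z, hz⟩ := S35RF_dvd_map A K1 hstab s' s hs'A hsA h2 (dvd_refl π)
  refine ⟨y, ?_, hy⟩
  have e1 := S35RF_t_inv_t A K1 hstab s s' hsA hs'A h1 π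
  rw [hy, map_mul, hz] at e1
  have e2 : z * S34ACT_resO K1 hstab A s' hs'A y = 1 := by
    have e3 : π * (z * S34ACT_resO K1 hstab A s' hs'A y) = π * 1 := by
      rw [mul_one, ← mul_assoc]
      exact e1
    exact mul_left_cancel₀ hπ0 e3
  have e4 : IsUnit (S34ACT_resO K1 hstab A s' hs'A y) :=
    IsUnit.of_mul_eq_one z (by rw [mul_comm]; exact e2)
  have e5 := e4.map (S34ACT_resO K1 hstab A s hsA)
  rwa [S35RF_t_inv_t A K1 hstab s' s hs'A hsA h2] at e5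

/-- **`s a = ε a` with `ε` a unit of `O1`.** -/
theorem S35RF_unit_ratio (h1 : ∀ x : Qb, s' (s x) = x) (h2 : ∀ x : Qb, s (s' x) = x)
    (a : S18K_O1 A K1) :
    ∃ ε : S18K_O1 A K1, IsUnit ε ∧ S34ACT_resO K1 hstab A s hsA a = ε * a := by
  by_cases ha : a = 0
  · exact ⟨1, isUnit_one, by rw [ha, map_zero, mul_zero]⟩
  obtain ⟨n, u, hau, hu⟩ := (S18K_D A K1).exists_normalize a ha
  obtain ⟨y, hy, hπy⟩ := S35RF_unit_pi A K1 hstab s s' hsA hs'A h1 h2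
  have hu1 : IsUnit u := by
    rw [S34LRK_isUnit_iff, ← S34LRK_res_eq_zero_iff]
    exact hu
  have hu2 : IsUnit (S34ACT_resO K1 hstab A s hsA u) := hu1.map _
  obtain ⟨u', hu'⟩ := hu1
  refine ⟨y ^ n * S34ACT_resO K1 hstab A s hsA u * ((u'⁻¹ : (S18K_O1 A K1)ˣ) : S18K_O1 A K1),
    ((hy.pow n).mul hu2).mul (Units.isUnit _), ?_⟩
  have e1 : ((u'⁻¹ : (S18K_O1 A K1)ˣ) : S18K_O1 A K1) * u = 1 := by
    rw [← hu']
    exact Units.inv_mul u'
  rw [hau, map_mul, map_pow, hπy, mul_pow]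
  linear_combination (-((S18K_D A K1).π ^ n * y ^ n * S34ACT_resO K1 hstab A s hsA u)) * e1

/-- `s π = π ε` with `ε` a constant of `O`. -/
theorem S35RF_act_pi (h1 : ∀ x : Qb, s' (s x) = x) (h2 : ∀ x : Qb, s (s' x) = x) :
    ∃ ε ∈ S18K_O A K1, S34ACT_act K1 hstab s (S18K_π A K1) = S18K_π A K1 * ε := by
  obtain ⟨y, -, hy⟩ := S35RF_unit_pi A K1 hstab s s' hsA hs'A h1 h2
  refine ⟨HahnSeries.C ((y : K1)), S34LRK_C_mem A K1 y, ?_⟩
  rw [S34LRK_pi_eq, S34ACT_act_C, ← S34LRK_C_mul, ← hy]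
  rfl

/-- `s (C a) = κ (C a)` with `κ` a unit of `O`. -/
theorem S35RF_act_C (h1 : ∀ x : Qb, s' (s x) = x) (h2 : ∀ x : Qb, s (s' x) = x)
    (a : S18K_O1 A K1) :
    ∃ κ ∈ S18K_O A K1, κ⁻¹ ∈ S18K_O A K1 ∧
      S34ACT_act K1 hstab s (HahnSeries.C ((a : K1))) = κ * HahnSeries.C ((a : K1)) := by
  obtain ⟨ε, hε, e⟩ := S35RF_unit_ratio A K1 hstab s s' hsA hs'A h1 h2 a
  obtain ⟨u, rfl⟩ := hε
  have e1 : (HahnSeries.C (((u : S18K_O1 A K1) : K1)) : LaurentSeries K1) *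
      HahnSeries.C ((((u⁻¹ : (S18K_O1 A K1)ˣ) : S18K_O1 A K1) : K1)) = 1 := by
    rw [← S34LRK_C_mul, Units.mul_inv]
    exact map_one _
  refine ⟨HahnSeries.C (((u : S18K_O1 A K1) : K1)), S34LRK_C_mem A K1 _, ?_, ?_⟩
  · rw [inv_eq_of_mul_eq_one_right e1]
    exact S34LRK_C_mem A K1 _
  · rw [S34ACT_act_C, ← S34LRK_C_mul, ← e]
    rfl

end Decomp

/-! ### Red-Frob -/

section Main

variable (N : ℕ) [NeZero N]

theorem S35RF_LU_iff {L : Type*} [Field L] (π : L) (V X : Subring L) (m : Ideal X) [m.IsPrime]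
    (g : L) : S35LGK_LU π V X m g ↔ S35RF_LU π V (locRing X m) g := Iff.rfl

/-- **GEO-REDF1**: Red-Frob for `s - 1` in the class `LU2`, for every chart of a two-valuation
setup and every `s` which preserves `A`, `V2` and the local ring at `m` (with its inverse). -/
theorem S35RF_redU_gen {x x' : LaurentSeries K1} {V2 A0 Ainf X : Subring (LaurentSeries K1)}
    (S2 : S34C_Setup2 (S18K_O A K1) (S18K_π A K1) x (S18K_F1 K1 N) (S18K_V A K1 N) V2 A0 Ainf)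
    (hC : Chart (S18K_O A K1) (S18K_π A K1) x' (S18K_F1 K1 N) (S18K_V A K1 N ⊓ V2) X)
    (s : GQ) (hsA : ∀ a ∈ A, s a ∈ A) (hsA' : ∀ a ∈ A, s⁻¹ a ∈ A)
    (hsV2 : ∀ a ∈ V2, S34ACT_act K1 hstab s a ∈ V2)
    (hπ : S18K_π A K1 ∈ X) (m : Ideal X) (hm : m.IsMaximal)
    (ht1 : S34K_Thru (S18K_π A K1) (S18K_V A K1 N) X m)
    (ht2 : S34K_Thru (S18K_π A K1) V2 X m)
    (hsR : haveI := hm.isPrime
      ∀ y ∈ locRing X m, S34ACT_act K1 hstab s y ∈ locRing X m)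
    (hsR' : haveI := hm.isPrime
      ∀ y ∈ locRing X m, S34ACT_act K1 hstab s⁻¹ y ∈ locRing X m) :
    ∀ (ϖ : K1) (k : ℕ) (T S' c : LaurentSeries K1),
      (haveI := hm.isPrime; S34LGK_NodeData N A K1 hstab V2 X m ϖ k T S' c) →
      ∀ a ρ : K1, (a : Qb) ∈ A.nonunits → (ρ : Qb) ∈ A.nonunits → ϖ ^ k = a * ρ →
        (haveI := hm.isPrime
         S35LGK_LU (S18K_π A K1) (S18K_V A K1 N) X m
            (S34ACT_act K1 hstab s (T - HahnSeries.C a) * (T - HahnSeries.C a)⁻¹) ∧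
          S35LGK_LU (S18K_π A K1) V2 X m
            (S34ACT_act K1 hstab s (T - HahnSeries.C a) * (T - HahnSeries.C a)⁻¹)) ∧
        (haveI := hm.isPrime
         S35LGK_LU (S18K_π A K1) (S18K_V A K1 N) X m
            (S34ACT_act K1 hstab s (S' - HahnSeries.C a) * (S' - HahnSeries.C a)⁻¹) ∧
          S35LGK_LU (S18K_π A K1) V2 X m
            (S34ACT_act K1 hstab s (S' - HahnSeries.C a) * (S' - HahnSeries.C a)⁻¹)) := by
  intro ϖ k T S' c hND a ρ ha hρ hQ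
  haveI := hm.isPrime
  -- the chart
  have hOX : S18K_O A K1 ≤ X := by
    intro y hy
    rw [hC.mem_iff]
    refine ⟨?_, S2.O_le hy⟩
    have hy' : y ∈ adj (S18K_O A K1) x' := Subring.subset_closure (Or.inl hy)
    have : IsIntegral (adj (S18K_O A K1) x') ((⟨y, hy'⟩ : adj (S18K_O A K1) x') :
        LaurentSeries K1) := isIntegral_algebraMap (x := (⟨y, hy'⟩ : adj (S18K_O A K1) x'))
    exact this
  have hX1 : X ≤ S18K_V A K1 N := fun y hy => (hC.le_V hy).1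
  have hX2 : X ≤ V2 := fun y hy => (hC.le_V hy).2
  have hXR : X ≤ locRing X m := le_locRing X m
  have hR1 : locRing X m ≤ S18K_V A K1 N :=
    S34LR_locRing_le (S18K_π A K1) (S18K_V A K1 N) X m hX1 S2.V1_unif ht1
  have hR2 : locRing X m ≤ V2 := S34LR_locRing_le (S18K_π A K1) V2 X m hX2 S2.V2_unif ht2
  have hrad1 := S35RF_rad (S18K_π A K1) (S18K_V A K1 N) (hX1 hπ) S2.V1_nonunit S2.V1_unif
  have hrad2 := S35RF_rad (S18K_π A K1) V2 (hX2 hπ) S2.V2_nonunit S2.V2_unif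
  have hloc := S35RF_loc (locRing X m)
  -- the action
  have h1 : ∀ y : Qb, s⁻¹ (s y) = y := fun y => s.symm_apply_apply y
  have h2 : ∀ y : Qb, s (s⁻¹ y) = y := fun y => s.apply_symm_apply y
  have hσσ' : ∀ y, S34ACT_act K1 hstab s (S34ACT_act K1 hstab s⁻¹ y) = y :=
    S34ACT_act_act_inv K1 hstab s
  have hσV1 : ∀ v ∈ S18K_V A K1 N, S34ACT_act K1 hstab s v ∈ S18K_V A K1 N :=
    fun v hv => S34ACT_mem_V K1 hstab A N s hsA hv
  obtain ⟨ε, hεO, hσπ⟩ := S35RF_act_pi A K1 hstab s s⁻¹ hsA hsA' h1 h2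
  have hε : ε ∈ locRing X m := hXR (hOX hεO)
  -- the constants
  obtain ⟨haO, hda⟩ := S34LRK_dvd_of_nonunit A K1 ha
  obtain ⟨hρO, hdρ⟩ := S34LRK_dvd_of_nonunit A K1 hρ
  obtain ⟨oa, hoa, ea⟩ := S34LRK_C_dvd A K1 hOX hda
  obtain ⟨oρ, hoρ, eρ⟩ := S34LRK_C_dvd A K1 hOX hdρ
  have ea' : (HahnSeries.C a : LaurentSeries K1) = S18K_π A K1 * oa := ea
  have eρ' : (HahnSeries.C ρ : LaurentSeries K1) = S18K_π A K1 * oρ := eρ
  have hCρX : (HahnSeries.C ρ : LaurentSeries K1) ∈ X :=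
    hOX (S34LRK_C_mem A K1 (⟨ρ, hρO⟩ : S18K_O1 A K1))
  have hQ0 : a * ρ ≠ 0 := by
    rw [← hQ]
    exact pow_ne_zero k hND.ϖ_ne
  have ha0 : a ≠ 0 := left_ne_zero_of_mul hQ0
  have hCa0 : (HahnSeries.C a : LaurentSeries K1) ≠ 0 := by
    intro h
    apply ha0
    have h0 : (HahnSeries.C a : LaurentSeries K1) = HahnSeries.C (0 : K1) := by
      rw [h, map_zero]
    exact HahnSeries.C_injective h0
  obtain ⟨κ, hκO, hκO', eκ⟩ :=
    S35RF_act_C A K1 hstab s s⁻¹ hsA hsA' h1 h2 (⟨a, haO⟩ : S18K_O1 A K1)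
  have eκ' : S34ACT_act K1 hstab s (HahnSeries.C a) = κ * HahnSeries.C a := eκ
  have hκ : κ ∈ locRing X m := hXR (hOX hκO)
  have hκ' : κ⁻¹ ∈ locRing X m := hXR (hOX hκO')
  -- the node coordinates
  have hT0 := hND.T_ne
  have hS0 := hND.S_ne
  have hTS : T * S' = HahnSeries.C a * HahnSeries.C ρ * c := by
    rw [hND.mul_eq, hQ, map_mul]
  have hgen := S35RF_gen (locRing X m) (incl X m ⟨S18K_π A K1, hπ⟩) (incl X m ⟨T, hND.T_mem⟩)
    (incl X m ⟨S', hND.S_mem⟩) (hND.gen hπ)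
  have hgenTS : ∀ r ∈ locRing X m, (r = 0 ∨ r⁻¹ ∉ locRing X m) →
      ∃ x ∈ locRing X m, ∃ y ∈ locRing X m, ∃ z ∈ locRing X m,
        r = S18K_π A K1 * x + T * y + S' * z := hgen
  have hgenST : ∀ r ∈ locRing X m, (r = 0 ∨ r⁻¹ ∉ locRing X m) →
      ∃ x ∈ locRing X m, ∃ y ∈ locRing X m, ∃ z ∈ locRing X m,
        r = S18K_π A K1 * x + S' * y + T * z := by
    intro r hr nr
    obtain ⟨x, hx, y, hy, z, hz, e⟩ := hgenTS r hr nr
    exact ⟨x, hx, z, hz, y, hy, by rw [e]; ring⟩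
  have hTnu : T⁻¹ ∉ locRing X m := by
    have hmem : incl X m ⟨T, hND.T_mem⟩ ∈ IsLocalRing.maximalIdeal (locRing X m) := by
      rw [hND.gen hπ]
      exact Ideal.subset_span (by simp)
    have hnu : ¬ IsUnit (incl X m ⟨T, hND.T_mem⟩) := hmem
    have := (S35RF_nu_iff (locRing X m) T (hXR hND.T_mem)).2 hnu
    rcases this with h | h
    · exact absurd h hT0
    · exact h
  have hSnu : S'⁻¹ ∉ locRing X m := by
    have hmem : incl X m ⟨S', hND.S_mem⟩ ∈ IsLocalRing.maximalIdeal (locRing X m) := by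
      rw [hND.gen hπ]
      exact Ideal.subset_span (by simp)
    have hnu : ¬ IsUnit (incl X m ⟨S', hND.S_mem⟩) := hmem
    have := (S35RF_nu_iff (locRing X m) S' (hXR hND.S_mem)).2 hnu
    rcases this with h | h
    · exact absurd h hS0
    · exact h
  -- `S ∈ π V1`, `T ∈ π V2`
  have hS1 : S' = S18K_π A K1 * (oa * HahnSeries.C ρ * c * T⁻¹) := by
    have : S' = T⁻¹ * (T * S') := by field_simp
    rw [this, hTS, ea']
    ring
  have hT2 : T = S18K_π A K1 * (oa * HahnSeries.C ρ * c * S'⁻¹) := by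
    have : T = (T * S') * S'⁻¹ := by field_simp
    rw [this, hTS, ea']
    ring
  have hvS : oa * HahnSeries.C ρ * c * T⁻¹ ∈ S18K_V A K1 N :=
    (S18K_V A K1 N).mul_mem ((S18K_V A K1 N).mul_mem ((S18K_V A K1 N).mul_mem (hX1 hoa)
      (hX1 hCρX)) (hR1 hND.c_mem)) hND.T_inv
  have hvT : oa * HahnSeries.C ρ * c * S'⁻¹ ∈ V2 :=
    V2.mul_mem (V2.mul_mem (V2.mul_mem (hX2 hoa) (hX2 hCρX)) (hR2 hND.c_mem)) hND.S_inv
  -- the deep forms
  have hS1d : S' = HahnSeries.C a * S18K_π A K1 * (oρ * c * T⁻¹) := by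
    have : S' = T⁻¹ * (T * S') := by field_simp
    rw [this, hTS, eρ']
    ring
  have hT2d : T = HahnSeries.C a * S18K_π A K1 * (oρ * c * S'⁻¹) := by
    have : T = (T * S') * S'⁻¹ := by field_simp
    rw [this, hTS, eρ']
    ring
  have ht1V : oρ * c * T⁻¹ ∈ S18K_V A K1 N :=
    (S18K_V A K1 N).mul_mem ((S18K_V A K1 N).mul_mem (hX1 hoρ) (hR1 hND.c_mem)) hND.T_inv
  have ht2V : oρ * c * S'⁻¹ ∈ V2 :=
    V2.mul_mem (V2.mul_mem (hX2 hoρ) (hR2 hND.c_mem)) hND.S_inv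
  refine ⟨⟨?_, ?_⟩, ?_, ?_⟩
  · exact S35RF_unit (S18K_π A K1) (S18K_V A K1 N) (locRing X m) hR1 S2.V1_nonunit hrad1 hloc
      (S34ACT_act K1 hstab s) (S34ACT_act K1 hstab s⁻¹) hσσ' hsR hsR' hσV1 ε hε hσπ
      T S' hT0 hND.T_inv hTnu _ hvS hS1 hgenTS (hXR hND.T_mem) (HahnSeries.C a) oa (hXR hoa) ea'
  · exact S35RF_deep (S18K_π A K1) V2 (locRing X m) hR2 S2.V2_nonunit hrad2
      (S34ACT_act K1 hstab s) hsV2 ε hε hσπ T (HahnSeries.C a) κ _ hCa0 ht2V hT2d hκ hκ' eκ'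
  · exact S35RF_deep (S18K_π A K1) (S18K_V A K1 N) (locRing X m) hR1 S2.V1_nonunit hrad1
      (S34ACT_act K1 hstab s) hσV1 ε hε hσπ S' (HahnSeries.C a) κ _ hCa0 ht1V hS1d hκ hκ' eκ'
  · exact S35RF_unit (S18K_π A K1) V2 (locRing X m) hR2 S2.V2_nonunit hrad2 hloc
      (S34ACT_act K1 hstab s) (S34ACT_act K1 hstab s⁻¹) hσσ' hsR hsR' hsV2 ε hε hσπ
      S' T hS0 hND.S_inv hSnu _ hvT hT2 hgenST (hXR hND.S_mem) (HahnSeries.C a) oa (hXR hoa) ea'

end Main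

end Fermat.Agent.S35_helper17_REDF1
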