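import Mathlib
import Fermat.Agent.S34_helper4_XCROSS

/-!
# S35, GEO: the generic X-CROSS (helper11)

The S35 twin of `Fermat.Agent.S34_helper4_XCROSS.S34XC_cross`, generic in

* the additive operator `Θ` on the divisors of `F̄_N` (in S34: the mixed second difference
  `(τ' - 1)(τ - 1)`; in S35: a polynomial in a Frobenius lift), and
* the multiplicative class `U` of units of `V1 ⊓ V2` in which the local generators live
  (in S34: `≡ 1 mod π (V1 ⊓ V2)`; in S35: congruent to a local unit at `m` modulo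
  `π (V1 ⊓ V2)`, the class `S35XC_LU`).

* `S35XC_gen`   : the crossing datum `g` (`f / g ^ p` a unit of the local ring at `m`);
* `S35XC_LU`    : the class "congruent to a local unit at `m` modulo `π V`", closure lemmas;
* `S35XC_shape` : `S34C_Shape` for `f` relative to every `G` in the class `S35XC_LU`;
* `S35XC_opPoly`, `S35XC_loc_opPoly` : the polynomial packaging of the operator and its locality.
-/

set_option autoImplicit false
set_option linter.style.haveILetI false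
set_option linter.deprecated false
set_option linter.unusedSectionVars false

open AlgebraicCurve ModularCurve HahnSeries IntermediateField

noncomputable section

namespace Fermat.Agent.S35_helper11_XCG

open Fermat.Agent.S18_helper9_CDefs Fermat.Agent.S18_helper25_COREDefs
  Fermat.Agent.S34_helper12_CDefs Fermat.Agent.S34_helper6_RED Fermat.Agent.S34_helper5_K0
  Fermat.Agent.S18_helper3_LOCRING Fermat.Agent.S37_helper4_B1Defs
  Fermat.Agent.S37_helper5_LEVEL Fermat.Agent.S34_Contracts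
  Fermat.Agent.S18_helper19_PLACEMOD Fermat.Agent.S34_helper2_HARTOGS
  Fermat.Agent.S34_helper4_XCROSS

local notation "Qb" => AlgebraicClosure ℚ
local notation "GQ" => (AlgebraicClosure ℚ ≃ₐ[ℚ] AlgebraicClosure ℚ)

/-! ### Multiplicative classes -/

section Class

variable {L : Type*} [Field L] (U : L → Prop)

theorem S35XC_class_pow (hU1 : U 1) (hUmul : ∀ a b, U a → U b → U (a * b)) {u : L} (hu : U u)
    (n : ℕ) : U (u ^ n) := by
  induction n with
  | zero => simpa using hU1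
  | succ n ih => rw [pow_succ]; exact hUmul _ _ ih hu

theorem S35XC_class_zpow (hU1 : U 1) (hUmul : ∀ a b, U a → U b → U (a * b))
    (hUinv : ∀ a, U a → U a⁻¹) {u : L} (hu : U u) (n : ℤ) : U (u ^ n) := by
  rcases Int.eq_nat_or_neg n with ⟨k, rfl | rfl⟩
  · rw [zpow_natCast]; exact S35XC_class_pow U hU1 hUmul hu k
  · rw [zpow_neg, zpow_natCast]; exact hUinv _ (S35XC_class_pow U hU1 hUmul hu k)

theorem S35XC_class_prod (hU1 : U 1) (hUmul : ∀ a b, U a → U b → U (a * b)) {ι : Type*}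
    (s : Finset ι) (u : ι → L) (hu : ∀ i ∈ s, U (u i)) : U (∏ i ∈ s, u i) := by
  classical
  induction s using Finset.induction_on with
  | empty => simpa using hU1
  | insert a s ha ih =>
    rw [Finset.prod_insert ha]
    exact hUmul _ _ (hu a (Finset.mem_insert_self a s))
      (ih fun i hi => hu i (Finset.mem_insert_of_mem hi))

end Class

/-! ### Additive operators on divisors -/

section Op

variable (N : ℕ)

theorem S35XC_op_eq_sum
    (Θ : Divisor Qb (modularFunctionFieldBar N) →+ Divisor Qb (modularFunctionFieldBar N))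
    (D : Divisor Qb (modularFunctionFieldBar N)) (P' : Place Qb (modularFunctionFieldBar N)) :
    Θ D P' = ∑ P ∈ D.support, D P * Θ (Finsupp.single P 1) P' := by
  have h1 : D = ∑ P ∈ D.support, D P • (Finsupp.single P (1 : ℤ)) := by
    conv_lhs => rw [← Finsupp.sum_single D]
    rw [Finsupp.sum]
    refine Finset.sum_congr rfl fun P _ => ?_
    rw [Finsupp.smul_single, smul_eq_mul, mul_one]
  have h2 : Θ D = ∑ P ∈ D.support, D P • Θ (Finsupp.single P 1) := by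
    conv_lhs => rw [h1]
    rw [map_sum]
    refine Finset.sum_congr rfl fun P _ => ?_
    rw [map_zsmul]
  have h3 := DFunLike.congr_fun h2 P'
  rw [Finsupp.finset_sum_apply] at h3
  simp only [Finsupp.smul_apply, smul_eq_mul] at h3
  exact h3

end Op

/-! ### The generic crossing datum -/

section Main

variable (N : ℕ) [NeZero N] (p : ℕ) (A : ValuationSubring Qb)
  (K1 : IntermediateField ℚ Qb) [IsDiscreteValuationRing (S18K_O1 A K1)]

/-- **Hartogs at a point**, operator-free: if `f` and `g` are units of `V1 ⊓ V2` and the order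
of `f` at every place centred at `m` is `p` times the order of `g`, then `f / g ^ p` is a unit of
the local ring at `m`. -/
theorem S35XC_unit (V2 X : Subring (LaurentSeries K1)) (hN : IsNoetherianRing X)
    (hXF : ∀ a ∈ X, a ∈ S18K_F1 K1 N)
    (hfrac : ∀ x ∈ S18K_F1 K1 N, ∃ a b : X, b ≠ 0 ∧ x * (b : LaurentSeries K1) = a)
    (hic : ∀ x ∈ S18K_F1 K1 N, IsIntegral X x → x ∈ X)
    (hV : S34K_Vert (S18K_π A K1) (S18K_V A K1 N) V2 X)
    (hPl : S34K_PlacesAt N A K1 X)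
    (hπ : S18K_π A K1 ∈ X) (m : Ideal X) (hm : m.IsMaximal)
    (hπm : (⟨S18K_π A K1, hπ⟩ : X) ∈ m)
    (f g : LaurentSeries K1) (hf : f ∈ S18K_F1 K1 N) (hf0 : f ≠ 0)
    (hfV : f ∈ (S18K_V A K1 N ⊓ V2 : Subring (LaurentSeries K1)))
    (hfV' : f⁻¹ ∈ (S18K_V A K1 N ⊓ V2 : Subring (LaurentSeries K1)))
    (hg : g ∈ S18K_F1 K1 N) (hg0 : g ≠ 0)
    (hgV : g ∈ (S18K_V A K1 N ⊓ V2 : Subring (LaurentSeries K1)))
    (hgV' : g⁻¹ ∈ (S18K_V A K1 N ⊓ V2 : Subring (LaurentSeries K1)))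
    (hord : ∀ P' : Place Qb (modularFunctionFieldBar N), S34K_Centred N A K1 X m P' →
      S37B1_ordP N K1 P' f = (p : ℤ) * S37B1_ordP N K1 P' g) :
    haveI := hm.isPrime
    f * (g ^ p)⁻¹ ∈ locRing X m ∧ (f * (g ^ p)⁻¹)⁻¹ ∈ locRing X m := by
  classical
  haveI := hm.isPrime
  have hgp0 : g ^ p ≠ 0 := pow_ne_zero p hg0
  have huF : f * (g ^ p)⁻¹ ∈ S18K_F1 K1 N :=
    (S18K_F1 K1 N).mul_mem hf ((S18K_F1 K1 N).inv_mem ((S18K_F1 K1 N).pow_mem hg p))
  have hu0 : f * (g ^ p)⁻¹ ≠ 0 := mul_ne_zero hf0 (inv_ne_zero hgp0)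
  have huord : ∀ P' : Place Qb (modularFunctionFieldBar N), S34K_Centred N A K1 X m P' →
      S37B1_ordP N K1 P' (f * (g ^ p)⁻¹) = 0 := by
    intro P' hP'
    rw [S34XC_ordP_mul N K1 P' hf ((S18K_F1 K1 N).inv_mem ((S18K_F1 K1 N).pow_mem hg p)) hf0
      (inv_ne_zero hgp0), S34XC_ordP_inv N K1 P' ((S18K_F1 K1 N).pow_mem hg p),
      S34XC_ordP_pow N K1 P' hg hg0, hord P' hP']
    ring
  have huinv : (f * (g ^ p)⁻¹)⁻¹ = f⁻¹ * g ^ p := by
    rw [mul_inv, inv_inv]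
  refine S34H_unit_locRing X m (S18K_F1 K1 N) hfrac hic hXF (f * (g ^ p)⁻¹) huF ?_
  intro 𝔭 h𝔭 h𝔭m h𝔭0 hdvr
  by_cases hπ𝔭 : (⟨S18K_π A K1, hπ⟩ : X) ∈ 𝔭
  · -- vertical prime
    have hle := hV hπ 𝔭 hπ𝔭 hdvr
    refine ⟨hle (Subring.mul_mem _ hfV (?_)), hle ?_⟩
    · have : (g ^ p)⁻¹ = (g⁻¹) ^ p := by rw [inv_pow]
      rw [this]
      exact Subring.pow_mem _ hgV' p
    · rw [huinv]
      exact Subring.mul_mem _ hfV' (Subring.pow_mem _ hgV p)
  · -- horizontal prime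
    obtain ⟨P', hP', hloc⟩ := hPl hπ m hm hπm 𝔭 h𝔭m h𝔭0 hπ𝔭 hdvr
    refine ⟨hloc _ huF hu0 (huord P' hP'), hloc _ ((S18K_F1 K1 N).inv_mem huF)
      (inv_ne_zero hu0) ?_⟩
    rw [S34XC_ordP_inv N K1 P' huF, huord P' hP', neg_zero]

/-- **The generic X-CROSS.**  For an additive operator `Θ` on divisors which is local at `m`, a
multiplicative class `U` of units of `V1 ⊓ V2`, and local generators in `U` of `Θ (single P)` at
the places `P` of the support of `D` centred at `m`: every `f`, a unit of `V1 ⊓ V2`, with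
`div f = p • Θ D` has a crossing datum `g ∈ U` at `m`. -/
theorem S35XC_gen (V2 X : Subring (LaurentSeries K1)) (hN : IsNoetherianRing X)
    (hXF : ∀ a ∈ X, a ∈ S18K_F1 K1 N)
    (hfrac : ∀ x ∈ S18K_F1 K1 N, ∃ a b : X, b ≠ 0 ∧ x * (b : LaurentSeries K1) = a)
    (hic : ∀ x ∈ S18K_F1 K1 N, IsIntegral X x → x ∈ X)
    (hV : S34K_Vert (S18K_π A K1) (S18K_V A K1 N) V2 X)
    (hPl : S34K_PlacesAt N A K1 X)
    (Θ : Divisor Qb (modularFunctionFieldBar N) →+ Divisor Qb (modularFunctionFieldBar N))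
    (U : LaurentSeries K1 → Prop) (hU1 : U 1) (hUmul : ∀ a b, U a → U b → U (a * b))
    (hUinv : ∀ a, U a → U a⁻¹)
    (hUV : ∀ a, U a → a ≠ 0 ∧ a ∈ (S18K_V A K1 N ⊓ V2 : Subring (LaurentSeries K1)) ∧
      a⁻¹ ∈ (S18K_V A K1 N ⊓ V2 : Subring (LaurentSeries K1)))
    (hπ : S18K_π A K1 ∈ X) (m : Ideal X) (hm : m.IsMaximal)
    (hπm : (⟨S18K_π A K1, hπ⟩ : X) ∈ m)
    (hloc : ∀ P P' : Place Qb (modularFunctionFieldBar N), S34K_Centred N A K1 X m P' →
      ¬ S34K_Centred N A K1 X m P → Θ (Finsupp.single P 1) P' = 0)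
    (D : Divisor Qb (modularFunctionFieldBar N))
    (hLG : ∀ P : Place Qb (modularFunctionFieldBar N), D P ≠ 0 → S34K_Centred N A K1 X m P →
      ∃ g ∈ S18K_F1 K1 N, U g ∧
        ∀ P' : Place Qb (modularFunctionFieldBar N), S34K_Centred N A K1 X m P' →
          S37B1_ordP N K1 P' g = Θ (Finsupp.single P 1) P')
    (f : LaurentSeries K1) (hf : f ∈ S18K_F1 K1 N) (hf0 : f ≠ 0)
    (hfV : f ∈ (S18K_V A K1 N ⊓ V2 : Subring (LaurentSeries K1)))
    (hfV' : f⁻¹ ∈ (S18K_V A K1 N ⊓ V2 : Subring (LaurentSeries K1)))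
    (hdiv : ∀ P : Place Qb (modularFunctionFieldBar N),
      S37B1_ordP N K1 P f = (p : ℤ) * Θ D P) :
    haveI := hm.isPrime
    ∃ g ∈ S18K_F1 K1 N, U g ∧
      (∀ P' : Place Qb (modularFunctionFieldBar N), S34K_Centred N A K1 X m P' →
        S37B1_ordP N K1 P' g = Θ D P') ∧
      f * (g ^ p)⁻¹ ∈ locRing X m ∧ (f * (g ^ p)⁻¹)⁻¹ ∈ locRing X m := by
  classical
  haveI := hm.isPrime
  -- the local generators
  have key : ∀ P : Place Qb (modularFunctionFieldBar N), ∃ g : LaurentSeries K1,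
      g ∈ S18K_F1 K1 N ∧ U g ∧
      (D P ≠ 0 → S34K_Centred N A K1 X m P →
        ∀ P' : Place Qb (modularFunctionFieldBar N), S34K_Centred N A K1 X m P' →
          S37B1_ordP N K1 P' g = Θ (Finsupp.single P 1) P') := by
    intro P
    by_cases h : D P ≠ 0 ∧ S34K_Centred N A K1 X m P
    · obtain ⟨g, hgF, hgU, hg⟩ := hLG P h.1 h.2
      exact ⟨g, hgF, hgU, fun _ _ => hg⟩
    · exact ⟨1, (S18K_F1 K1 N).one_mem, hU1, fun h1 h2 => absurd ⟨h1, h2⟩ h⟩
  choose gP hgPF hgPU hgPord using key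
  set T : Finset (Place Qb (modularFunctionFieldBar N)) :=
    D.support.filter (fun P => S34K_Centred N A K1 X m P) with hT
  set g : LaurentSeries K1 := ∏ P ∈ T, gP P ^ (D P) with hg
  have hgF : g ∈ S18K_F1 K1 N :=
    prod_mem fun P _ => zpow_mem (hgPF P) _
  have hgU : U g :=
    S35XC_class_prod U hU1 hUmul T _ fun P _ =>
      S35XC_class_zpow U hU1 hUmul hUinv (hgPU P) _
  have hg0 : g ≠ 0 := (hUV g hgU).1
  have hgV : g ∈ (S18K_V A K1 N ⊓ V2 : Subring (LaurentSeries K1)) := (hUV g hgU).2.1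
  have hgV' : g⁻¹ ∈ (S18K_V A K1 N ⊓ V2 : Subring (LaurentSeries K1)) := (hUV g hgU).2.2
  -- the order of `g` at the places centred at `m`
  have hgord : ∀ P' : Place Qb (modularFunctionFieldBar N), S34K_Centred N A K1 X m P' →
      S37B1_ordP N K1 P' g = Θ D P' := by
    intro P' hP'
    rw [hg, S34XC_ordP_prod N K1 P' T _ (fun P _ => zpow_mem (hgPF P) _)
      (fun P _ => zpow_ne_zero _ (hUV _ (hgPU P)).1), S35XC_op_eq_sum]
    have hsub : T ⊆ D.support := Finset.filter_subset _ _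
    rw [← Finset.sum_subset hsub]
    · refine Finset.sum_congr rfl fun P hP => ?_
      rw [S34XC_ordP_zpow N K1 P' (hgPF P) (hUV _ (hgPU P)).1]
      have hP1 := Finset.mem_filter.1 hP
      rw [hgPord P (Finsupp.mem_support_iff.1 hP1.1) hP1.2 P' hP']
    · intro P hPs hPT
      have hnc : ¬ S34K_Centred N A K1 X m P := fun hc => hPT (Finset.mem_filter.2 ⟨hPs, hc⟩)
      rw [hloc P P' hP' hnc, mul_zero]
  refine ⟨g, hgF, hgU, hgord, ?_⟩
  exact S35XC_unit N p A K1 V2 X hN hXF hfrac hic hV hPl hπ m hm hπm f g hf hf0 hfV hfV' hgF hg0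
    hgV hgV' (fun P' hP' => by rw [hdiv P', hgord P' hP'])

end Main

/-! ### The class "congruent to a local unit at `m` modulo `π V`" -/

section LU

variable {L : Type*} [Field L] (π : L) (V X : Subring L) (m : Ideal X) [hm : m.IsPrime]

/-- `u` is congruent to a unit of the local ring of `X` at `m` modulo `π V`
(multiplicatively): `u = w (1 + π c)`, `w` a unit at `m`, `c ∈ V`. -/
def S35XC_LU (u : L) : Prop :=
  ∃ w : L, w ∈ locRing X m ∧ w⁻¹ ∈ locRing X m ∧ ∃ c ∈ V, u = w * (1 + π * c)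

theorem S35XC_LU_iff (u : L) :
    S35XC_LU π V X m u ↔
      ∃ w : L, w ∈ locRing X m ∧ w⁻¹ ∈ locRing X m ∧ ∃ c ∈ V, u = w * (1 + π * c) :=
  Iff.rfl

variable {π V X m}

theorem S35XC_LU_one : S35XC_LU π V X m 1 :=
  ⟨1, (locRing X m).one_mem, by simp, 0, V.zero_mem, by simp⟩

theorem S35XC_LU_of_unit {w : L} (hw : w ∈ locRing X m) (hw' : w⁻¹ ∈ locRing X m) :
    S35XC_LU π V X m w :=
  ⟨w, hw, hw', 0, V.zero_mem, by simp⟩

theorem S35XC_LU_of_one_add {c : L} (hc : c ∈ V) : S35XC_LU π V X m (1 + π * c) :=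
  ⟨1, (locRing X m).one_mem, by simp, c, hc, by simp⟩

theorem S35XC_LU_mul (hπ : π ∈ V) {u v : L} (hu : S35XC_LU π V X m u)
    (hv : S35XC_LU π V X m v) : S35XC_LU π V X m (u * v) := by
  obtain ⟨w, hw, hw', c, hc, rfl⟩ := hu
  obtain ⟨w2, hw2, hw2', d, hd, rfl⟩ := hv
  refine ⟨w * w2, (locRing X m).mul_mem hw hw2, ?_,
    c + d + π * c * d, V.add_mem (V.add_mem hc hd) (V.mul_mem (V.mul_mem hπ hc) hd), by ring⟩
  rw [mul_inv]
  exact (locRing X m).mul_mem hw' hw2'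

theorem S35XC_one_add_ne_zero (hπnu : π⁻¹ ∉ V) {c : L} (hc : c ∈ V) : 1 + π * c ≠ 0 := by
  intro h0
  apply hπnu
  have hπ0 : π ≠ 0 := by
    intro h
    rw [h, zero_mul, add_zero] at h0
    exact one_ne_zero h0
  have : π⁻¹ = -c := inv_eq_of_mul_eq_one_right (by linear_combination -h0)
  rw [this]
  exact V.neg_mem hc

theorem S35XC_LU_inv (hπnu : π⁻¹ ∉ V) (hrad : ∀ c ∈ V, (1 + π * c)⁻¹ ∈ V) {u : L}
    (hu : S35XC_LU π V X m u) : S35XC_LU π V X m u⁻¹ := by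
  obtain ⟨w, hw, hw', c, hc, rfl⟩ := hu
  have h1 := S35XC_one_add_ne_zero hπnu hc
  refine ⟨w⁻¹, hw', by rwa [inv_inv], -(c * (1 + π * c)⁻¹),
    V.neg_mem (V.mul_mem hc (hrad c hc)), ?_⟩
  rw [mul_inv]
  congr 1
  field_simp
  ring

theorem S35XC_LU_pow (hπ : π ∈ V) {u : L} (hu : S35XC_LU π V X m u) (n : ℕ) :
    S35XC_LU π V X m (u ^ n) :=
  S35XC_class_pow _ S35XC_LU_one (fun _ _ ha hb => S35XC_LU_mul hπ ha hb) hu n

theorem S35XC_LU_zpow (hπ : π ∈ V) (hπnu : π⁻¹ ∉ V) (hrad : ∀ c ∈ V, (1 + π * c)⁻¹ ∈ V)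
    {u : L} (hu : S35XC_LU π V X m u) (n : ℤ) : S35XC_LU π V X m (u ^ n) :=
  S35XC_class_zpow _ S35XC_LU_one (fun _ _ ha hb => S35XC_LU_mul hπ ha hb)
    (fun _ ha => S35XC_LU_inv hπnu hrad ha) hu n

theorem S35XC_LU_prod (hπ : π ∈ V) {ι : Type*} (s : Finset ι) (u : ι → L)
    (hu : ∀ i ∈ s, S35XC_LU π V X m (u i)) : S35XC_LU π V X m (∏ i ∈ s, u i) :=
  S35XC_class_prod _ S35XC_LU_one (fun _ _ ha hb => S35XC_LU_mul hπ ha hb) s u hu

theorem S35XC_LU_mem (hπ : π ∈ V) (hRV : locRing X m ≤ V) {u : L}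
    (hu : S35XC_LU π V X m u) : u ∈ V := by
  obtain ⟨w, hw, _, c, hc, rfl⟩ := hu
  exact V.mul_mem (hRV hw) (V.add_mem V.one_mem (V.mul_mem hπ hc))

/-- the hypotheses `hU1 hUmul hUinv hUV` of `S35XC_gen` for the class of the NONZERO elements
of `S35XC_LU`. -/
theorem S35XC_LU_class (hπ : π ∈ V) (hπnu : π⁻¹ ∉ V) (hrad : ∀ c ∈ V, (1 + π * c)⁻¹ ∈ V)
    (hRV : locRing X m ≤ V) :
    ((1 : L) ≠ 0 ∧ S35XC_LU π V X m 1) ∧
    (∀ a b : L, (a ≠ 0 ∧ S35XC_LU π V X m a) → (b ≠ 0 ∧ S35XC_LU π V X m b) →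
      (a * b ≠ 0 ∧ S35XC_LU π V X m (a * b))) ∧
    (∀ a : L, (a ≠ 0 ∧ S35XC_LU π V X m a) → (a⁻¹ ≠ 0 ∧ S35XC_LU π V X m a⁻¹)) ∧
    (∀ a : L, (a ≠ 0 ∧ S35XC_LU π V X m a) → a ≠ 0 ∧ a ∈ V ∧ a⁻¹ ∈ V) :=
  ⟨⟨one_ne_zero, S35XC_LU_one⟩,
    fun _ _ ha hb => ⟨mul_ne_zero ha.1 hb.1, S35XC_LU_mul hπ ha.2 hb.2⟩,
    fun _ ha => ⟨inv_ne_zero ha.1, S35XC_LU_inv hπnu hrad ha.2⟩,
    fun _ ha => ⟨ha.1, S35XC_LU_mem hπ hRV ha.2,
      S35XC_LU_mem hπ hRV (S35XC_LU_inv hπnu hrad ha.2)⟩⟩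

/-- the class `≡ 1 mod π V` of S34 is contained in `S35XC_LU`. -/
theorem S35XC_LU_of_U {u : L} (hu : S34XC_U π V u) : S35XC_LU π V X m u := by
  obtain ⟨c, hc, rfl⟩ := hu
  exact S35XC_LU_of_one_add hc

/-- at a point `m` of the chart `X ≤ V1 ⊓ V2` lying on both components, the local ring at `m`
is contained in `V1 ⊓ V2`. -/
theorem S35XC_locRing_le (V1 V2 : Subring L) (hX : X ≤ V1 ⊓ V2)
    (h1u : ∀ x ∈ V1, x⁻¹ ∉ V1 → ∃ v ∈ V1, x = π * v)
    (h2u : ∀ x ∈ V2, x⁻¹ ∉ V2 → ∃ v ∈ V2, x = π * v)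
    (h1 : S34K_Thru π V1 X m) (h2 : S34K_Thru π V2 X m) :
    locRing X m ≤ V1 ⊓ V2 := by
  rintro y ⟨a, c, hc, h⟩
  have hc0 := coe_ne_zero_of_notMem X m hc
  have hy : y = (a : L) * ((c : L))⁻¹ := by
    rw [← h]; field_simp
  have hcV1 : ((c : L))⁻¹ ∈ V1 := by
    by_contra hcon
    obtain ⟨v, hv, e⟩ := h1u _ (hX c.2).1 hcon
    exact hc (h1 c ⟨v, hv, e⟩)
  have hcV2 : ((c : L))⁻¹ ∈ V2 := by
    by_contra hcon
    obtain ⟨v, hv, e⟩ := h2u _ (hX c.2).2 hcon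
    exact hc (h2 c ⟨v, hv, e⟩)
  rw [hy]
  exact ⟨V1.mul_mem (hX a.2).1 hcV1, V2.mul_mem (hX a.2).2 hcV2⟩

/-- **The shape from a crossing datum in the class `S35XC_LU`**: if `g ≠ 0` and `G` are
congruent to local units at `m` modulo `π V` and `f / g ^ p` is a unit of the local ring at `m`,
then `f` has the local shape at `m` relative to `G`. -/
theorem S35XC_shape_of_LU (F1 : Subfield L) (hπ : π ∈ V) (hπnu : π⁻¹ ∉ V)
    (hrad : ∀ c ∈ V, (1 + π * c)⁻¹ ∈ V) (hRV : locRing X m ≤ V) (p : ℕ) (f G g : L)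
    (hgF : g ∈ F1) (hg0 : g ≠ 0) (hg : S35XC_LU π V X m g) (hG : S35XC_LU π V X m G)
    (hu : f * (g ^ p)⁻¹ ∈ locRing X m) (hu' : (f * (g ^ p)⁻¹)⁻¹ ∈ locRing X m) :
    S34C_Shape π F1 V X p f G m := by
  have hgV : g ∈ V := S35XC_LU_mem hπ hRV hg
  have hgV' : g⁻¹ ∈ V := S35XC_LU_mem hπ hRV (S35XC_LU_inv hπnu hrad hg)
  -- `G / g` is in the class
  have hGg : S35XC_LU π V X m (G * g⁻¹) := S35XC_LU_mul hπ hG (S35XC_LU_inv hπnu hrad hg)
  obtain ⟨w, hw, hw', c, hc, e⟩ := hGg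
  refine ⟨f * (g ^ p)⁻¹, g, w, (mem_locRing_iff X m).1 hu, (mem_locRing_iff X m).1 hu', hgF,
    hgV, hgV', ?_, (mem_locRing_iff X m).1 hw, (mem_locRing_iff X m).1 hw', c, hc, ?_⟩
  · have hgp : g ^ p ≠ 0 := pow_ne_zero _ hg0
    field_simp
  · calc G = g * (G * g⁻¹) := by field_simp
      _ = g * w * (1 + π * c) := by rw [e]; ring

end LU

/-! ### The generic X-CROSS with the class `S35XC_LU`: the shape -/

section Shape

variable (N : ℕ) [NeZero N] (p : ℕ) (A : ValuationSubring Qb)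
  (K1 : IntermediateField ℚ Qb) [IsDiscreteValuationRing (S18K_O1 A K1)]

theorem S35XC_ordP_zero (P : Place Qb (modularFunctionFieldBar N)) :
    S37B1_ordP N K1 P 0 = 0 := by
  have h3 := S37B1_ordP_eq N K1 P (0 : modularFunctionFieldFullC K1 N)
  rw [map_zero, Place.ord_zero] at h3
  simpa using h3

/-- **The generic X-CROSS, crossing datum in the class `S35XC_LU`.**  The local generators are
only asked to be congruent to local units at `m` modulo `π (V1 ⊓ V2)` (no nonvanishing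
hypothesis: a zero generator is replaced by `1`). -/
theorem S35XC_cross_LU (V2 X : Subring (LaurentSeries K1)) (hN : IsNoetherianRing X)
    (hπV : S18K_π A K1 ∈ (S18K_V A K1 N ⊓ V2 : Subring (LaurentSeries K1)))
    (hπnu : (S18K_π A K1)⁻¹ ∉ (S18K_V A K1 N ⊓ V2 : Subring (LaurentSeries K1)))
    (hrad : ∀ c ∈ (S18K_V A K1 N ⊓ V2 : Subring (LaurentSeries K1)),
      (1 + S18K_π A K1 * c)⁻¹ ∈ (S18K_V A K1 N ⊓ V2 : Subring (LaurentSeries K1)))
    (hXF : ∀ a ∈ X, a ∈ S18K_F1 K1 N)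
    (hfrac : ∀ x ∈ S18K_F1 K1 N, ∃ a b : X, b ≠ 0 ∧ x * (b : LaurentSeries K1) = a)
    (hic : ∀ x ∈ S18K_F1 K1 N, IsIntegral X x → x ∈ X)
    (hV : S34K_Vert (S18K_π A K1) (S18K_V A K1 N) V2 X)
    (hPl : S34K_PlacesAt N A K1 X)
    (Θ : Divisor Qb (modularFunctionFieldBar N) →+ Divisor Qb (modularFunctionFieldBar N))
    (hπ : S18K_π A K1 ∈ X) (m : Ideal X) (hm : m.IsMaximal)
    (hπm : (⟨S18K_π A K1, hπ⟩ : X) ∈ m)
    (hRV : haveI := hm.isPrime
      locRing X m ≤ (S18K_V A K1 N ⊓ V2 : Subring (LaurentSeries K1)))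
    (hloc : ∀ P P' : Place Qb (modularFunctionFieldBar N), S34K_Centred N A K1 X m P' →
      ¬ S34K_Centred N A K1 X m P → Θ (Finsupp.single P 1) P' = 0)
    (D : Divisor Qb (modularFunctionFieldBar N))
    (hLG : haveI := hm.isPrime
      ∀ P : Place Qb (modularFunctionFieldBar N), D P ≠ 0 → S34K_Centred N A K1 X m P →
      ∃ g ∈ S18K_F1 K1 N, S35XC_LU (S18K_π A K1) (S18K_V A K1 N ⊓ V2) X m g ∧
        ∀ P' : Place Qb (modularFunctionFieldBar N), S34K_Centred N A K1 X m P' →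
          S37B1_ordP N K1 P' g = Θ (Finsupp.single P 1) P')
    (f : LaurentSeries K1) (hf : f ∈ S18K_F1 K1 N) (hf0 : f ≠ 0)
    (hfV : f ∈ (S18K_V A K1 N ⊓ V2 : Subring (LaurentSeries K1)))
    (hfV' : f⁻¹ ∈ (S18K_V A K1 N ⊓ V2 : Subring (LaurentSeries K1)))
    (hdiv : ∀ P : Place Qb (modularFunctionFieldBar N),
      S37B1_ordP N K1 P f = (p : ℤ) * Θ D P) :
    haveI := hm.isPrime
    ∃ g ∈ S18K_F1 K1 N, g ≠ 0 ∧ S35XC_LU (S18K_π A K1) (S18K_V A K1 N ⊓ V2) X m g ∧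
      (∀ P' : Place Qb (modularFunctionFieldBar N), S34K_Centred N A K1 X m P' →
        S37B1_ordP N K1 P' g = Θ D P') ∧
      f * (g ^ p)⁻¹ ∈ locRing X m ∧ (f * (g ^ p)⁻¹)⁻¹ ∈ locRing X m := by
  haveI := hm.isPrime
  obtain ⟨h1, h2, h3, h4⟩ := S35XC_LU_class (m := m) hπV hπnu hrad hRV
  have hLG' : ∀ P : Place Qb (modularFunctionFieldBar N), D P ≠ 0 →
      S34K_Centred N A K1 X m P →
      ∃ g ∈ S18K_F1 K1 N, (g ≠ 0 ∧ S35XC_LU (S18K_π A K1) (S18K_V A K1 N ⊓ V2) X m g) ∧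
        ∀ P' : Place Qb (modularFunctionFieldBar N), S34K_Centred N A K1 X m P' →
          S37B1_ordP N K1 P' g = Θ (Finsupp.single P 1) P' := by
    intro P hDP hP
    obtain ⟨g, hgF, hgU, hgo⟩ := hLG P hDP hP
    by_cases hg0 : g = 0
    · refine ⟨1, (S18K_F1 K1 N).one_mem, h1, fun P' hP' => ?_⟩
      rw [S34XC_ordP_one, ← hgo P' hP', hg0, S35XC_ordP_zero]
    · exact ⟨g, hgF, ⟨hg0, hgU⟩, hgo⟩
  obtain ⟨g, hgF, hgU, hgo, hu, hu'⟩ := S35XC_gen N p A K1 V2 X hN hXF hfrac hic hV hPl Θ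
    (fun u => u ≠ 0 ∧ S35XC_LU (S18K_π A K1) (S18K_V A K1 N ⊓ V2) X m u) h1 h2 h3 h4 hπ m hm
    hπm hloc D hLG' f hf hf0 hfV hfV' hdiv
  exact ⟨g, hgF, hgU.1, hgU.2, hgo, hu, hu'⟩

/-- **The generic X-CROSS, shape form.**  With local generators congruent to local units at `m`
modulo `π (V1 ⊓ V2)`, and `G` congruent to a local unit at `m` modulo `π (V1 ⊓ V2)`: the local
shape `S34C_Shape` of `f` relative to `G` at `m` (the local input of block C'). -/
theorem S35XC_shape (V2 X : Subring (LaurentSeries K1)) (hN : IsNoetherianRing X)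
    (hπV : S18K_π A K1 ∈ (S18K_V A K1 N ⊓ V2 : Subring (LaurentSeries K1)))
    (hπnu : (S18K_π A K1)⁻¹ ∉ (S18K_V A K1 N ⊓ V2 : Subring (LaurentSeries K1)))
    (hrad : ∀ c ∈ (S18K_V A K1 N ⊓ V2 : Subring (LaurentSeries K1)),
      (1 + S18K_π A K1 * c)⁻¹ ∈ (S18K_V A K1 N ⊓ V2 : Subring (LaurentSeries K1)))
    (hXF : ∀ a ∈ X, a ∈ S18K_F1 K1 N)
    (hfrac : ∀ x ∈ S18K_F1 K1 N, ∃ a b : X, b ≠ 0 ∧ x * (b : LaurentSeries K1) = a)
    (hic : ∀ x ∈ S18K_F1 K1 N, IsIntegral X x → x ∈ X)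
    (hV : S34K_Vert (S18K_π A K1) (S18K_V A K1 N) V2 X)
    (hPl : S34K_PlacesAt N A K1 X)
    (Θ : Divisor Qb (modularFunctionFieldBar N) →+ Divisor Qb (modularFunctionFieldBar N))
    (hπ : S18K_π A K1 ∈ X) (m : Ideal X) (hm : m.IsMaximal)
    (hπm : (⟨S18K_π A K1, hπ⟩ : X) ∈ m)
    (hRV : haveI := hm.isPrime
      locRing X m ≤ (S18K_V A K1 N ⊓ V2 : Subring (LaurentSeries K1)))
    (hloc : ∀ P P' : Place Qb (modularFunctionFieldBar N), S34K_Centred N A K1 X m P' →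
      ¬ S34K_Centred N A K1 X m P → Θ (Finsupp.single P 1) P' = 0)
    (D : Divisor Qb (modularFunctionFieldBar N))
    (hLG : haveI := hm.isPrime
      ∀ P : Place Qb (modularFunctionFieldBar N), D P ≠ 0 → S34K_Centred N A K1 X m P →
      ∃ g ∈ S18K_F1 K1 N, S35XC_LU (S18K_π A K1) (S18K_V A K1 N ⊓ V2) X m g ∧
        ∀ P' : Place Qb (modularFunctionFieldBar N), S34K_Centred N A K1 X m P' →
          S37B1_ordP N K1 P' g = Θ (Finsupp.single P 1) P')
    (f : LaurentSeries K1) (hf : f ∈ S18K_F1 K1 N) (hf0 : f ≠ 0)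
    (hfV : f ∈ (S18K_V A K1 N ⊓ V2 : Subring (LaurentSeries K1)))
    (hfV' : f⁻¹ ∈ (S18K_V A K1 N ⊓ V2 : Subring (LaurentSeries K1)))
    (hdiv : ∀ P : Place Qb (modularFunctionFieldBar N),
      S37B1_ordP N K1 P f = (p : ℤ) * Θ D P)
    (G : LaurentSeries K1)
    (hG : haveI := hm.isPrime
      S35XC_LU (S18K_π A K1) (S18K_V A K1 N ⊓ V2) X m G) :
    S34C_Shape (S18K_π A K1) (S18K_F1 K1 N) (S18K_V A K1 N ⊓ V2) X p f G m := by
  haveI := hm.isPrime
  obtain ⟨g, hgF, hg0, hgU, -, hu, hu'⟩ := S35XC_cross_LU N p A K1 V2 X hN hπV hπnu hrad hXF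
    hfrac hic hV hPl Θ hπ m hm hπm hRV hloc D hLG f hf hf0 hfV hfV' hdiv
  exact S35XC_shape_of_LU (S18K_F1 K1 N) hπV hπnu hrad hRV p f G g hgF hg0 hgU hG hu hu'

end Shape

/-! ### The polynomial packaging of the operator -/

section Poly

variable (N : ℕ)

/-- the action of `s ∈ G_ℚ` on divisors, as an additive map. -/
def S35XC_actDiv (s : GQ) :
    Divisor Qb (modularFunctionFieldBar N) →+ Divisor Qb (modularFunctionFieldBar N) where
  toFun D := S34R_g N s • D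
  map_zero' := smul_zero _
  map_add' D E := smul_add _ D E

/-- the operator `Q(s) = ∑ i, (Q.coeff i) s ^ i` on divisors, for `Q ∈ ℤ[X]` and `s ∈ G_ℚ`. -/
def S35XC_opPoly (s : GQ) (Q : Polynomial ℤ) :
    Divisor Qb (modularFunctionFieldBar N) →+ Divisor Qb (modularFunctionFieldBar N) :=
  ∑ i ∈ Q.support, Q.coeff i • S35XC_actDiv N (s ^ i)

theorem S35XC_opPoly_apply (s : GQ) (Q : Polynomial ℤ)
    (D : Divisor Qb (modularFunctionFieldBar N)) :
    S35XC_opPoly N s Q D = ∑ i ∈ Q.support, Q.coeff i • (S34R_g N (s ^ i) • D) := by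
  simp only [S35XC_opPoly, AddMonoidHom.finset_sum_apply, AddMonoidHom.smul_apply]
  rfl

theorem S35XC_opPoly_single (s : GQ) (Q : Polynomial ℤ)
    (P P' : Place Qb (modularFunctionFieldBar N)) :
    S35XC_opPoly N s Q (Finsupp.single P 1) P' =
      ∑ i ∈ Q.support, Q.coeff i * (Finsupp.single (S34R_g N (s ^ i) • P) (1 : ℤ)) P' := by
  rw [S35XC_opPoly_apply, Finsupp.finset_sum_apply]
  refine Finset.sum_congr rfl fun i _ => ?_
  rw [Finsupp.smul_apply, SemilinearAut.smul_single, smul_eq_mul]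

variable [NeZero N] (A : ValuationSubring Qb) (K1 : IntermediateField ℚ Qb)

/-- **Locality of a polynomial operator**: if `s⁻¹` preserves the centre `m`, then `Q(s)` of a
place not centred at `m` has no component at the places centred at `m`. -/
theorem S35XC_loc_opPoly (X : Subring (LaurentSeries K1)) (m : Ideal X) (s : GQ)
    (hs : ∀ P : Place Qb (modularFunctionFieldBar N), S34K_Centred N A K1 X m P →
      S34K_Centred N A K1 X m (S34R_g N s⁻¹ • P))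
    (Q : Polynomial ℤ) (P P' : Place Qb (modularFunctionFieldBar N))
    (hP' : S34K_Centred N A K1 X m P') (hP : ¬ S34K_Centred N A K1 X m P) :
    S35XC_opPoly N s Q (Finsupp.single P 1) P' = 0 := by
  have hpow : ∀ (i : ℕ) (R : Place Qb (modularFunctionFieldBar N)),
      S34K_Centred N A K1 X m (S34R_g N (s ^ i) • R) → S34K_Centred N A K1 X m R := by
    intro i
    induction i with
    | zero =>
      intro R h
      simpa [S34R_g] using h
    | succ i ih =>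
      intro R h
      apply ih
      have h1 := hs _ h
      have e : S34R_g N s⁻¹ • S34R_g N (s ^ (i + 1)) • R = S34R_g N (s ^ i) • R := by
        rw [← mul_smul, ← map_mul, pow_succ', ← mul_assoc, inv_mul_cancel, one_mul]
      rwa [e] at h1
  rw [S35XC_opPoly_single]
  refine Finset.sum_eq_zero fun i _ => ?_
  have hne : S34R_g N (s ^ i) • P ≠ P' := by
    intro h
    rw [← h] at hP'
    exact hP (hpow i P hP')
  rw [Finsupp.single_eq_of_ne' hne, mul_zero]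

/-- **The generic X-CROSS for a polynomial operator** `Q(s)`, shape form, DEF-FREE statement
(the operator is written as the explicit sum, the class as the explicit existential): `hloc` is
discharged by `S35XC_loc_opPoly` from "`s⁻¹` preserves the centre `m`". -/
theorem S35XC_shape_poly [IsDiscreteValuationRing (S18K_O1 A K1)] (p : ℕ)
    (V2 X : Subring (LaurentSeries K1)) (hN : IsNoetherianRing X)
    (hπV : S18K_π A K1 ∈ (S18K_V A K1 N ⊓ V2 : Subring (LaurentSeries K1)))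
    (hπnu : (S18K_π A K1)⁻¹ ∉ (S18K_V A K1 N ⊓ V2 : Subring (LaurentSeries K1)))
    (hrad : ∀ c ∈ (S18K_V A K1 N ⊓ V2 : Subring (LaurentSeries K1)),
      (1 + S18K_π A K1 * c)⁻¹ ∈ (S18K_V A K1 N ⊓ V2 : Subring (LaurentSeries K1)))
    (hXF : ∀ a ∈ X, a ∈ S18K_F1 K1 N)
    (hfrac : ∀ x ∈ S18K_F1 K1 N, ∃ a b : X, b ≠ 0 ∧ x * (b : LaurentSeries K1) = a)
    (hic : ∀ x ∈ S18K_F1 K1 N, IsIntegral X x → x ∈ X)
    (hV : S34K_Vert (S18K_π A K1) (S18K_V A K1 N) V2 X)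
    (hPl : S34K_PlacesAt N A K1 X)
    (s : GQ) (Q : Polynomial ℤ)
    (hπ : S18K_π A K1 ∈ X) (m : Ideal X) (hm : m.IsMaximal)
    (hπm : (⟨S18K_π A K1, hπ⟩ : X) ∈ m)
    (hRV : haveI := hm.isPrime
      locRing X m ≤ (S18K_V A K1 N ⊓ V2 : Subring (LaurentSeries K1)))
    (hs : ∀ P : Place Qb (modularFunctionFieldBar N), S34K_Centred N A K1 X m P →
      S34K_Centred N A K1 X m (S34R_g N s⁻¹ • P))
    (D : Divisor Qb (modularFunctionFieldBar N))
    (hLG : haveI := hm.isPrime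
      ∀ P : Place Qb (modularFunctionFieldBar N), D P ≠ 0 → S34K_Centred N A K1 X m P →
      ∃ g ∈ S18K_F1 K1 N,
        (∃ w : LaurentSeries K1, w ∈ locRing X m ∧ w⁻¹ ∈ locRing X m ∧
          ∃ c ∈ (S18K_V A K1 N ⊓ V2 : Subring (LaurentSeries K1)),
            g = w * (1 + S18K_π A K1 * c)) ∧
        ∀ P' : Place Qb (modularFunctionFieldBar N), S34K_Centred N A K1 X m P' →
          S37B1_ordP N K1 P' g =
            (∑ i ∈ Q.support, Q.coeff i • (S34R_g N (s ^ i) • Finsupp.single P (1 : ℤ))) P')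
    (f : LaurentSeries K1) (hf : f ∈ S18K_F1 K1 N) (hf0 : f ≠ 0)
    (hfV : f ∈ (S18K_V A K1 N ⊓ V2 : Subring (LaurentSeries K1)))
    (hfV' : f⁻¹ ∈ (S18K_V A K1 N ⊓ V2 : Subring (LaurentSeries K1)))
    (hdiv : ∀ P : Place Qb (modularFunctionFieldBar N),
      S37B1_ordP N K1 P f =
        (p : ℤ) * (∑ i ∈ Q.support, Q.coeff i • (S34R_g N (s ^ i) • D)) P)
    (G : LaurentSeries K1)
    (hG : haveI := hm.isPrime
      ∃ w : LaurentSeries K1, w ∈ locRing X m ∧ w⁻¹ ∈ locRing X m ∧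
        ∃ c ∈ (S18K_V A K1 N ⊓ V2 : Subring (LaurentSeries K1)),
          G = w * (1 + S18K_π A K1 * c)) :
    S34C_Shape (S18K_π A K1) (S18K_F1 K1 N) (S18K_V A K1 N ⊓ V2) X p f G m := by
  haveI := hm.isPrime
  refine S35XC_shape N p A K1 V2 X hN hπV hπnu hrad hXF hfrac hic hV hPl (S35XC_opPoly N s Q)
    hπ m hm hπm hRV (fun P P' hP' hP => S35XC_loc_opPoly N A K1 X m s hs Q P P' hP' hP) D ?_ f
    hf hf0 hfV hfV' ?_ G hG
  · intro P hDP hP
    obtain ⟨g, hgF, hgU, hgo⟩ := hLG P hDP hP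
    refine ⟨g, hgF, hgU, fun P' hP' => ?_⟩
    rw [hgo P' hP', S35XC_opPoly_apply]
  · intro P
    rw [hdiv P, S35XC_opPoly_apply]

end Poly

end Fermat.Agent.S35_helper11_XCG
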