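import Mathlib
import Fermat.Agent.S35_helper7_LGFDefs
import Fermat.Agent.S34_helper7_LOCGEN

/-!
# S35, GEO (operator route): the Frobenius local generator, assembly (helper7)

`S35LG_locGenF` : the contract `S35K_LocGenF` (`S35_helper7_LGFDefs`) from

* the landed contracts `S34LGK_Node`, `S34LGK_VM`, `S34LGK_Ord` (used verbatim),
* `S35LGK_BranchBF` (deep places are fixed by `s`),
* `S35LGK_RedF`     (the reduction of `Θ_p (Z - C a)`),
* the stability of the centre under `s` and `s⁻¹`.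

For a rational place `P` centred at the crossing point `m`:

* either `P` has a type at some stage, with coordinate `Z` and value `a`: then
  `g = Θ_p (Z - C a) = ∏ i ∈ p.support, (s ^ i) (Z - C a) ^ (p.coeff i)`;
* or `P` is deep at every stage: then `s P = P`, `Θ_p P = p(1) P = 0` and `g = 1`.
-/

set_option autoImplicit false
set_option linter.unusedSectionVars false
set_option maxHeartbeats 1000000
set_option synthInstance.maxHeartbeats 400000

open AlgebraicCurve ModularCurve HahnSeries IntermediateField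

noncomputable section

namespace Fermat.Agent.S35_helper7_LOCGENF

open Fermat.Agent.S18_helper9_CDefs Fermat.Agent.S18_helper25_COREDefs
  Fermat.Agent.S34_helper12_CDefs Fermat.Agent.S34_helper6_RED Fermat.Agent.S34_helper5_K0
  Fermat.Agent.S18_helper3_LOCRING Fermat.Agent.S37_helper4_B1Defs
  Fermat.Agent.S37_helper5_LEVEL Fermat.Agent.S34_Contracts Fermat.Agent.S34_helper21_ACT
  Fermat.Agent.S34_helper21_CI Fermat.Agent.S34_helper4_XCROSS
  Fermat.Agent.S34_helper7_LGDefs Fermat.Agent.S34_helper7_LOCGEN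
  Fermat.Agent.S35_helper7_LGFDefs

local notation "Qb" => AlgebraicClosure ℚ
local notation "GQ" => (AlgebraicClosure ℚ ≃ₐ[ℚ] AlgebraicClosure ℚ)

/-! ### Layer 1: the class `LU` -/

section LU

variable {L : Type*} [Field L] (π : L) (V X : Subring L) (m : Ideal X) [m.IsPrime]

theorem S35LG_LU_one : S35LGK_LU π V X m 1 :=
  ⟨1, one_mem _, by rw [inv_one]; exact one_mem _, 0, V.zero_mem, by simp⟩

end LU

/-! ### Layer 2: the operator on the divisor of a fixed place -/

section Op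

variable (N : ℕ) [NeZero N]

theorem S35LG_g_mul (σ τ : GQ) (P : Place Qb (modularFunctionFieldBar N)) :
    S34R_g N (σ * τ) • P = S34R_g N σ • S34R_g N τ • P := by
  show arithmeticGalois (modularFunctionFieldFull N) (σ * τ) • P =
    arithmeticGalois (modularFunctionFieldFull N) σ •
      arithmeticGalois (modularFunctionFieldFull N) τ • P
  rw [map_mul, mul_smul]

theorem S35LG_g_one (P : Place Qb (modularFunctionFieldBar N)) :
    S34R_g N 1 • P = P := by
  show arithmeticGalois (modularFunctionFieldFull N) 1 • P = P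
  rw [map_one, one_smul]

theorem S35LG_g_inv_smul (σ : GQ) (P : Place Qb (modularFunctionFieldBar N)) :
    S34R_g N σ⁻¹ • S34R_g N σ • P = P := by
  rw [← S35LG_g_mul, inv_mul_cancel, S35LG_g_one]

theorem S35LG_g_smul_inv (σ : GQ) (P : Place Qb (modularFunctionFieldBar N)) :
    S34R_g N σ • S34R_g N σ⁻¹ • P = P := by
  rw [← S35LG_g_mul, mul_inv_cancel, S35LG_g_one]

theorem S35LG_pow_fixed (s : GQ) (P : Place Qb (modularFunctionFieldBar N))
    (h : S34R_g N s • P = P) (i : ℕ) : S34R_g N (s ^ i) • P = P := by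
  induction i with
  | zero => rw [pow_zero, S35LG_g_one]
  | succ i ih => rw [pow_succ, S35LG_g_mul, h, ih]

/-- the operator on a place fixed by `s`. -/
theorem S35LG_op_fixed (s : GQ) (p : Polynomial ℤ) (hp1 : p.eval 1 = 0)
    (P : Place Qb (modularFunctionFieldBar N)) (h : S34R_g N s • P = P) :
    (∑ i ∈ p.support, p.coeff i • (S34R_g N (s ^ i) • Finsupp.single P (1 : ℤ))) = 0 := by
  have e : ∀ i ∈ p.support, p.coeff i • (S34R_g N (s ^ i) • Finsupp.single P (1 : ℤ)) =
      p.coeff i • Finsupp.single P (1 : ℤ) := by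
    intro i _
    rw [SemilinearAut.smul_single, S35LG_pow_fixed N s P h i]
  rw [Finset.sum_congr rfl e, ← Finset.sum_smul]
  have h1 : ∑ i ∈ p.support, p.coeff i = p.eval 1 := by
    rw [Polynomial.eval_eq_sum, Polynomial.sum]
    simp
  rw [h1, hp1, zero_smul]

end Op

/-! ### Layer 3: orders of the translates -/

section Ord

variable (N : ℕ) [NeZero N] (A : ValuationSubring Qb) (K1 : IntermediateField ℚ Qb)
  (hstab : ∀ σ : GQ, ∀ x ∈ K1, σ x ∈ K1)

theorem S35LG_centred_pow {X : Subring (LaurentSeries K1)} (s : GQ)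
    (hCs : ∀ (m : Ideal X) (P : Place Qb (modularFunctionFieldBar N)),
      S34K_Centred N A K1 X m P → S34K_Centred N A K1 X m (S34R_g N s • P))
    (i : ℕ) (m : Ideal X) (P : Place Qb (modularFunctionFieldBar N))
    (h : S34K_Centred N A K1 X m P) : S34K_Centred N A K1 X m (S34R_g N (s ^ i) • P) := by
  induction i with
  | zero => rw [pow_zero, S35LG_g_one]; exact h
  | succ i ih => rw [pow_succ', S35LG_g_mul]; exact hCs m _ ih

/-- **Orders of a translate**: if `u` has order `1` at `P` and `0` at the other places centred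
at `m`, then `σ u` has order `1` at `σ P` and `0` at the other places centred at `m`. -/
theorem S35LG_ord_act {X : Subring (LaurentSeries K1)} (m : Ideal X) (σ : GQ)
    (P P' : Place Qb (modularFunctionFieldBar N)) (u : LaurentSeries K1)
    (hu : ∀ P'' : Place Qb (modularFunctionFieldBar N), S34K_Centred N A K1 X m P'' →
      (P'' = P → S37B1_ordP N K1 P'' u = 1) ∧ (P'' ≠ P → S37B1_ordP N K1 P'' u = 0))
    (hc : S34K_Centred N A K1 X m (S34R_g N σ⁻¹ • P')) :
    S37B1_ordP N K1 P' (S34ACT_act K1 hstab σ u) =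
      (Finsupp.single (S34R_g N σ • P) (1 : ℤ)) P' := by
  classical
  have h1 := S34ACT_ordP K1 hstab N σ (S34R_g N σ⁻¹ • P') u
  have e : arithmeticGalois (modularFunctionFieldFull N) σ • (S34R_g N σ⁻¹ • P') = P' :=
    S35LG_g_smul_inv N σ P'
  rw [e] at h1
  rw [h1]
  by_cases hP : S34R_g N σ⁻¹ • P' = P
  · rw [(hu _ hc).1 hP]
    have : S34R_g N σ • P = P' := by rw [← hP, S35LG_g_smul_inv]
    rw [this, Finsupp.single_eq_same]
  · rw [(hu _ hc).2 hP]
    have : S34R_g N σ • P ≠ P' := by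
      intro h
      apply hP
      rw [← h, S35LG_g_inv_smul]
    rw [Finsupp.single_eq_of_ne' this]

end Ord

/-! ### Layer 4: the local generator of a typed place -/

section Gen

variable (N : ℕ) [NeZero N] (A : ValuationSubring Qb) (K1 : IntermediateField ℚ Qb)
  (hstab : ∀ σ : GQ, ∀ x ∈ K1, σ x ∈ K1) [IsDiscreteValuationRing (S18K_O1 A K1)]

/-- **The orders of `Θ_p u`** at the places centred at `m`. -/
theorem S35LG_ord_op {X : Subring (LaurentSeries K1)} (s : GQ) (p : Polynomial ℤ)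
    (hCs' : ∀ (m : Ideal X) (P : Place Qb (modularFunctionFieldBar N)),
      S34K_Centred N A K1 X m P → S34K_Centred N A K1 X m (S34R_g N s⁻¹ • P))
    (m : Ideal X) (P : Place Qb (modularFunctionFieldBar N)) (u : LaurentSeries K1)
    (huF : u ∈ modularFunctionFieldFullC K1 N) (hu0 : u ≠ 0)
    (hu : ∀ P'' : Place Qb (modularFunctionFieldBar N), S34K_Centred N A K1 X m P'' →
      (P'' = P → S37B1_ordP N K1 P'' u = 1) ∧ (P'' ≠ P → S37B1_ordP N K1 P'' u = 0)) :
    (∏ i ∈ p.support, (S34ACT_act K1 hstab (s ^ i) u) ^ (p.coeff i)) ∈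
        modularFunctionFieldFullC K1 N ∧
      (∏ i ∈ p.support, (S34ACT_act K1 hstab (s ^ i) u) ^ (p.coeff i)) ≠ 0 ∧
      ∀ P' : Place Qb (modularFunctionFieldBar N), S34K_Centred N A K1 X m P' →
        S37B1_ordP N K1 P' (∏ i ∈ p.support, (S34ACT_act K1 hstab (s ^ i) u) ^ (p.coeff i)) =
          (∑ i ∈ p.support, p.coeff i • (S34R_g N (s ^ i) • Finsupp.single P (1 : ℤ))) P' := by
  have hF : ∀ i : ℕ, S34ACT_act K1 hstab (s ^ i) u ∈ modularFunctionFieldFullC K1 N :=
    fun i => S34ACT_mem_F1 K1 hstab N (s ^ i) huF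
  have h0 : ∀ i : ℕ, S34ACT_act K1 hstab (s ^ i) u ≠ 0 := fun i h =>
    hu0 (S34ACT_act_injective K1 hstab (s ^ i) (by rw [h, map_zero]))
  refine ⟨prod_mem fun i _ => zpow_mem (hF i) _,
    Finset.prod_ne_zero_iff.mpr fun i _ => zpow_ne_zero _ (h0 i), ?_⟩
  intro P' hP'
  rw [S34XC_ordP_prod N K1 P' p.support _ (fun i _ => zpow_mem (hF i) _)
    (fun i _ => zpow_ne_zero _ (h0 i)), Finsupp.finsetSum_apply]
  refine Finset.sum_congr rfl fun i _ => ?_
  rw [S34XC_ordP_zpow N K1 P' (hF i) (h0 i), Finsupp.smul_apply, SemilinearAut.smul_single,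
    smul_eq_mul]
  congr 1
  apply S35LG_ord_act N A K1 hstab m (s ^ i) P P' u hu
  rw [← inv_pow]
  exact S35LG_centred_pow N A K1 s⁻¹ hCs' i m P' hP'

end Gen

/-! ### Layer 5: the assembly -/

section Main

variable (N : ℕ) [NeZero N] (A : ValuationSubring Qb) (K1 : IntermediateField ℚ Qb)
  (hstab : ∀ σ : GQ, ∀ x ∈ K1, σ x ∈ K1) [IsDiscreteValuationRing (S18K_O1 A K1)]

/-- **The Frobenius local generator**: the contract `S35K_LocGenF` from the typed
sub-contracts. -/
theorem S35LG_locGenF (s : GQ) (p : Polynomial ℤ) (hp1 : p.eval 1 = 0)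
    (V2 X : Subring (LaurentSeries K1))
    (hXF : ∀ y ∈ X, y ∈ modularFunctionFieldFullC K1 N) (hO : S18K_O A K1 ≤ X)
    (hCs' : ∀ (m : Ideal X) (P : Place Qb (modularFunctionFieldBar N)),
      S34K_Centred N A K1 X m P → S34K_Centred N A K1 X m (S34R_g N s⁻¹ • P))
    (hVM : S34LGK_VM N A K1 X)
    (hNode : S34LGK_Node N A K1 hstab V2 X)
    (hOrd : S34LGK_Ord N A K1 hstab V2 X)
    (hBF : S35LGK_BranchBF N A K1 hstab s V2 X)
    (hRedF : S35LGK_RedF N A K1 hstab s p V2 X) :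
    S35K_LocGenF N A K1 s p V2 X := by
  intro hπ m hm hπm ht1 ht2 P hrat hcen
  have := hm.isPrime
  obtain ⟨ψ, hψv, hψA, hψm, hψC⟩ := hVM hπ m hm hπm P hrat hcen
  by_cases hA : ∃ (ϖ : K1) (k : ℕ) (T S c : LaurentSeries K1),
      S34LGK_NodeData N A K1 hstab V2 X m ϖ k T S c ∧
        (S34LGK_TypeN N A K1 P ϖ k T ∨ S34LGK_TypeN N A K1 P ϖ k S)
  · obtain ⟨ϖ, k, T, S, c, d, hT | hS⟩ := hA
    · obtain ⟨a, ρ, hv, han, hρn, hρ⟩ := hT
      obtain ⟨hne, hord⟩ := (hOrd hπ m hm hπm ht1 ht2 ϖ k T S c d P hrat hcen).1 a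
        ⟨hv, ρ, hρ, hρn⟩
      have huF : T - HahnSeries.C a ∈ modularFunctionFieldFullC K1 N :=
        sub_mem (hXF T d.T_mem) (S34LGK_C_mem N K1 a)
      obtain ⟨hgF, -, hgo⟩ := S35LG_ord_op N A K1 hstab s p hCs' m P _ huF hne hord
      exact ⟨_, hgF, (hRedF hπ m hm hπm ht1 ht2 ϖ k T S c d a ρ han hρn hρ).1, hgo⟩
    · obtain ⟨a, ρ, hv, han, hρn, hρ⟩ := hS
      obtain ⟨hne, hord⟩ := (hOrd hπ m hm hπm ht1 ht2 ϖ k T S c d P hrat hcen).2 a
        ⟨hv, ρ, hρ, hρn⟩
      have huF : S - HahnSeries.C a ∈ modularFunctionFieldFullC K1 N :=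
        sub_mem (hXF S d.S_mem) (S34LGK_C_mem N K1 a)
      obtain ⟨hgF, -, hgo⟩ := S35LG_ord_op N A K1 hstab s p hCs' m P _ huF hne hord
      exact ⟨_, hgF, (hRedF hπ m hm hπm ht1 ht2 ϖ k T S c d a ρ han hρn hρ).2, hgo⟩
  · -- deep at every stage: fixed by `s`
    have hfix : S34R_g N s • P = P := by
      apply hBF hπ m hm hπm ht1 ht2 P hrat hcen
      intro n
      obtain ⟨ϖ, k, T, S, c, d, hsg⟩ := hNode hπ m hm hπm ht1 ht2 n
      refine ⟨ϖ, k, T, S, c, ?_⟩
      rcases S34LGK_cases N A K1 hstab V2 X hO hπ m P ψ hψv hψA hψm hψC ϖ k T S c d n hsg with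
        h | h | ⟨h1, h2⟩
      · exact absurd ⟨ϖ, k, T, S, c, d, Or.inl h⟩ hA
      · exact absurd ⟨ϖ, k, T, S, c, d, Or.inr h⟩ hA
      · exact ⟨h1, d, h2⟩
    refine ⟨1, one_mem _, S35LG_LU_one _ _ _ _, ?_⟩
    intro P' _
    rw [S34XC_ordP_one, S35LG_op_fixed N s p hp1 P hfix]
    rfl

end Main

end Fermat.Agent.S35_helper7_LOCGENF
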