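import Mathlib
import Fermat.Agent.S35_helper7_LOCGENF

/-!
# S35, GEO (operator route): the local generator with the class as a parameter (helper7)

GEO plan v1 (helper19): the class `U` of the admissible local generators is a parameter, and the
instance used by GEO is the operator `s - 1` (`p = X - 1`).

* `S35LGU_locGenU` : the polynomial operator `Θ_p`, any class `U` containing `1`;
* `S35LGU_locGen1` : the operator `s - 1` in explicit form: `g = (s u) / u` with `u = Z - C a`,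
  orders `(s • single P 1 - single P 1) P'` at the places `P'` centred at `m`;
* `S35LGU_locGen1'`: the same with `(s u) * u⁻¹`.

All statements are at ONE crossing point `m`; the hypotheses on the class (`hRedU`) and on the
deep places (`hdeep`) are asked at `m` only.
-/

set_option autoImplicit false
set_option linter.unusedSectionVars false
set_option maxHeartbeats 1000000
set_option synthInstance.maxHeartbeats 400000

open AlgebraicCurve ModularCurve HahnSeries IntermediateField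

noncomputable section

namespace Fermat.Agent.S35_helper7_LOCGENU

open Fermat.Agent.S18_helper9_CDefs Fermat.Agent.S18_helper25_COREDefs
  Fermat.Agent.S34_helper12_CDefs Fermat.Agent.S34_helper6_RED Fermat.Agent.S34_helper5_K0
  Fermat.Agent.S18_helper3_LOCRING Fermat.Agent.S37_helper4_B1Defs
  Fermat.Agent.S37_helper5_LEVEL Fermat.Agent.S34_Contracts Fermat.Agent.S34_helper21_ACT
  Fermat.Agent.S34_helper21_CI Fermat.Agent.S34_helper4_XCROSS
  Fermat.Agent.S34_helper7_LGDefs Fermat.Agent.S34_helper7_LOCGEN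
  Fermat.Agent.S35_helper7_LGFDefs Fermat.Agent.S35_helper7_LOCGENF

local notation "Qb" => AlgebraicClosure ℚ
local notation "GQ" => (AlgebraicClosure ℚ ≃ₐ[ℚ] AlgebraicClosure ℚ)

variable (N : ℕ) [NeZero N] (A : ValuationSubring Qb) (K1 : IntermediateField ℚ Qb)
  (hstab : ∀ σ : GQ, ∀ x ∈ K1, σ x ∈ K1) [IsDiscreteValuationRing (S18K_O1 A K1)]

/-- **The dichotomy at a crossing point** (operator-free): a rational place `P` centred at `m`
either has a type at some stage (coordinate `Z ∈ X`, value `a`, with the exact orders of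
`Z - C a` at the places centred at `m`), or is deep at stages of arbitrarily large exponent. -/
theorem S35LGU_dichotomy (V2 X : Subring (LaurentSeries K1))
    (hXF : ∀ y ∈ X, y ∈ modularFunctionFieldFullC K1 N) (hO : S18K_O A K1 ≤ X)
    (hVM : S34LGK_VM N A K1 X)
    (hNode : S34LGK_Node N A K1 hstab V2 X)
    (hOrd : S34LGK_Ord N A K1 hstab V2 X)
    (hπ : S18K_π A K1 ∈ X) (m : Ideal X) (hm : m.IsMaximal)
    (hπm : (⟨S18K_π A K1, hπ⟩ : X) ∈ m)
    (ht1 : S34K_Thru (S18K_π A K1) (S18K_V A K1 N) X m)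
    (ht2 : S34K_Thru (S18K_π A K1) V2 X m)
    (P : Place Qb (modularFunctionFieldBar N)) (hrat : S37LEVEL_IsRational N K1 P)
    (hcen : S34K_Centred N A K1 X m P) :
    (∃ (ϖ : K1) (k : ℕ) (T S c : LaurentSeries K1) (a ρ : K1),
      (haveI := hm.isPrime; S34LGK_NodeData N A K1 hstab V2 X m ϖ k T S c) ∧
      (a : Qb) ∈ A.nonunits ∧ (ρ : Qb) ∈ A.nonunits ∧ ϖ ^ k = a * ρ ∧
      ∃ Z : LaurentSeries K1, (Z = T ∨ Z = S) ∧ Z ∈ modularFunctionFieldFullC K1 N ∧
        Z - HahnSeries.C a ≠ 0 ∧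
        ∀ P' : Place Qb (modularFunctionFieldBar N), S34K_Centred N A K1 X m P' →
          (P' = P → S37B1_ordP N K1 P' (Z - HahnSeries.C a) = 1) ∧
          (P' ≠ P → S37B1_ordP N K1 P' (Z - HahnSeries.C a) = 0)) ∨
    (∀ n : ℕ, ∃ (ϖ : K1) (k : ℕ) (T S c : LaurentSeries K1), n ≤ k ∧
      (haveI := hm.isPrime; S34LGK_NodeData N A K1 hstab V2 X m ϖ k T S c) ∧
      S34LGK_Deep N A K1 P ϖ k T S) := by
  have := hm.isPrime
  obtain ⟨ψ, hψv, hψA, hψm, hψC⟩ := hVM hπ m hm hπm P hrat hcen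
  by_cases hA : ∃ (ϖ : K1) (k : ℕ) (T S c : LaurentSeries K1),
      S34LGK_NodeData N A K1 hstab V2 X m ϖ k T S c ∧
        (S34LGK_TypeN N A K1 P ϖ k T ∨ S34LGK_TypeN N A K1 P ϖ k S)
  · left
    obtain ⟨ϖ, k, T, S, c, d, hT | hS⟩ := hA
    · obtain ⟨a, ρ, hv, han, hρn, hρ⟩ := hT
      obtain ⟨hne, hord⟩ := (hOrd hπ m hm hπm ht1 ht2 ϖ k T S c d P hrat hcen).1 a
        ⟨hv, ρ, hρ, hρn⟩
      exact ⟨ϖ, k, T, S, c, a, ρ, d, han, hρn, hρ, T, Or.inl rfl, hXF T d.T_mem, hne, hord⟩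
    · obtain ⟨a, ρ, hv, han, hρn, hρ⟩ := hS
      obtain ⟨hne, hord⟩ := (hOrd hπ m hm hπm ht1 ht2 ϖ k T S c d P hrat hcen).2 a
        ⟨hv, ρ, hρ, hρn⟩
      exact ⟨ϖ, k, T, S, c, a, ρ, d, han, hρn, hρ, S, Or.inr rfl, hXF S d.S_mem, hne, hord⟩
  · right
    intro n
    obtain ⟨ϖ, k, T, S, c, d, hsg⟩ := hNode hπ m hm hπm ht1 ht2 n
    refine ⟨ϖ, k, T, S, c, ?_⟩
    rcases S34LGK_cases N A K1 hstab V2 X hO hπ m P ψ hψv hψA hψm hψC ϖ k T S c d n hsg with
      h | h | ⟨h1, h2⟩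
    · exact absurd ⟨ϖ, k, T, S, c, d, Or.inl h⟩ hA
    · exact absurd ⟨ϖ, k, T, S, c, d, Or.inr h⟩ hA
    · exact ⟨h1, d, h2⟩

/-- **The local generator of `Θ_p P`, class as a parameter** (at one crossing point `m`). -/
theorem S35LGU_locGenU (s : GQ) (p : Polynomial ℤ) (hp1 : p.eval 1 = 0)
    (V2 X : Subring (LaurentSeries K1))
    (hXF : ∀ y ∈ X, y ∈ modularFunctionFieldFullC K1 N) (hO : S18K_O A K1 ≤ X)
    (hVM : S34LGK_VM N A K1 X)
    (hNode : S34LGK_Node N A K1 hstab V2 X)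
    (hOrd : S34LGK_Ord N A K1 hstab V2 X)
    (hπ : S18K_π A K1 ∈ X) (m : Ideal X) (hm : m.IsMaximal)
    (hπm : (⟨S18K_π A K1, hπ⟩ : X) ∈ m)
    (ht1 : S34K_Thru (S18K_π A K1) (S18K_V A K1 N) X m)
    (ht2 : S34K_Thru (S18K_π A K1) V2 X m)
    (hCs' : ∀ P : Place Qb (modularFunctionFieldBar N),
      S34K_Centred N A K1 X m P → S34K_Centred N A K1 X m (S34R_g N s⁻¹ • P))
    (hdeep : ∀ P : Place Qb (modularFunctionFieldBar N), S37LEVEL_IsRational N K1 P →
      S34K_Centred N A K1 X m P →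
      (∀ n : ℕ, ∃ (ϖ : K1) (k : ℕ) (T S c : LaurentSeries K1), n ≤ k ∧
        (haveI := hm.isPrime; S34LGK_NodeData N A K1 hstab V2 X m ϖ k T S c) ∧
        S34LGK_Deep N A K1 P ϖ k T S) →
      S34R_g N s • P = P)
    (U : LaurentSeries K1 → Prop) (hU1 : U 1)
    (hRedU : ∀ (ϖ : K1) (k : ℕ) (T S c : LaurentSeries K1),
      (haveI := hm.isPrime; S34LGK_NodeData N A K1 hstab V2 X m ϖ k T S c) →
      ∀ a ρ : K1, (a : Qb) ∈ A.nonunits → (ρ : Qb) ∈ A.nonunits → ϖ ^ k = a * ρ →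
        U (∏ i ∈ p.support, (S34ACT_act K1 hstab (s ^ i) (T - HahnSeries.C a)) ^ (p.coeff i)) ∧
        U (∏ i ∈ p.support, (S34ACT_act K1 hstab (s ^ i) (S - HahnSeries.C a)) ^ (p.coeff i)))
    (P : Place Qb (modularFunctionFieldBar N)) (hrat : S37LEVEL_IsRational N K1 P)
    (hcen : S34K_Centred N A K1 X m P) :
    ∃ g ∈ S18K_F1 K1 N, U g ∧
      ∀ P' : Place Qb (modularFunctionFieldBar N), S34K_Centred N A K1 X m P' →
        S37B1_ordP N K1 P' g =
          (∑ i ∈ p.support, p.coeff i • (S34R_g N (s ^ i) • Finsupp.single P (1 : ℤ))) P' := by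
  have := hm.isPrime
  -- the centre is stable under the powers of `s⁻¹` (at `m`)
  have hpow : ∀ (i : ℕ) (P' : Place Qb (modularFunctionFieldBar N)),
      S34K_Centred N A K1 X m P' → S34K_Centred N A K1 X m (S34R_g N (s ^ i)⁻¹ • P') := by
    intro i
    induction i with
    | zero => intro P' h; rw [pow_zero, inv_one, S35LG_g_one]; exact h
    | succ i ih =>
      intro P' h
      have e : (s ^ (i + 1))⁻¹ = s⁻¹ * (s ^ i)⁻¹ := by rw [pow_succ, mul_inv_rev]
      rw [e, S35LG_g_mul]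
      exact hCs' _ (ih P' h)
  rcases S35LGU_dichotomy N A K1 hstab V2 X hXF hO hVM hNode hOrd hπ m hm hπm ht1 ht2 P hrat
    hcen with ⟨ϖ, k, T, S, c, a, ρ, d, han, hρn, hρ, Z, hZ, hZF, hne, hord⟩ | hd
  · have huF : Z - HahnSeries.C a ∈ modularFunctionFieldFullC K1 N :=
      sub_mem hZF (S34LGK_C_mem N K1 a)
    have hF : ∀ i : ℕ, S34ACT_act K1 hstab (s ^ i) (Z - HahnSeries.C a) ∈
        modularFunctionFieldFullC K1 N := fun i => S34ACT_mem_F1 K1 hstab N (s ^ i) huF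
    have h0 : ∀ i : ℕ, S34ACT_act K1 hstab (s ^ i) (Z - HahnSeries.C a) ≠ 0 := fun i h =>
      hne (S34ACT_act_injective K1 hstab (s ^ i) (by rw [h, map_zero]))
    refine ⟨∏ i ∈ p.support, (S34ACT_act K1 hstab (s ^ i) (Z - HahnSeries.C a)) ^ (p.coeff i),
      prod_mem fun i _ => zpow_mem (hF i) _, ?_, ?_⟩
    · rcases hZ with rfl | rfl
      · exact (hRedU ϖ k _ S c d a ρ han hρn hρ).1
      · exact (hRedU ϖ k T _ c d a ρ han hρn hρ).2
    · intro P' hP'
      rw [S34XC_ordP_prod N K1 P' p.support _ (fun i _ => zpow_mem (hF i) _)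
        (fun i _ => zpow_ne_zero _ (h0 i)), Finsupp.finsetSum_apply]
      refine Finset.sum_congr rfl fun i _ => ?_
      rw [S34XC_ordP_zpow N K1 P' (hF i) (h0 i), Finsupp.smul_apply,
        SemilinearAut.smul_single, smul_eq_mul]
      congr 1
      exact S35LG_ord_act N A K1 hstab m (s ^ i) P P' _ hord (hpow i P' hP')
  · have hfix := hdeep P hrat hcen hd
    refine ⟨1, one_mem _, hU1, ?_⟩
    intro P' _
    rw [S34XC_ordP_one, S35LG_op_fixed N s p hp1 P hfix]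
    rfl

/-- **The local generator of `(s - 1) P`, class as a parameter** (at one crossing point `m`):
`g = (s u) / u` with `u = Z - C a`, `Z` a node coordinate, `a` the value of `Z` at `P`. -/
theorem S35LGU_locGen1 (s : GQ)
    (V2 X : Subring (LaurentSeries K1))
    (hXF : ∀ y ∈ X, y ∈ modularFunctionFieldFullC K1 N) (hO : S18K_O A K1 ≤ X)
    (hVM : S34LGK_VM N A K1 X)
    (hNode : S34LGK_Node N A K1 hstab V2 X)
    (hOrd : S34LGK_Ord N A K1 hstab V2 X)
    (hπ : S18K_π A K1 ∈ X) (m : Ideal X) (hm : m.IsMaximal)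
    (hπm : (⟨S18K_π A K1, hπ⟩ : X) ∈ m)
    (ht1 : S34K_Thru (S18K_π A K1) (S18K_V A K1 N) X m)
    (ht2 : S34K_Thru (S18K_π A K1) V2 X m)
    (hCs' : ∀ P : Place Qb (modularFunctionFieldBar N),
      S34K_Centred N A K1 X m P → S34K_Centred N A K1 X m (S34R_g N s⁻¹ • P))
    (hdeep : ∀ P : Place Qb (modularFunctionFieldBar N), S37LEVEL_IsRational N K1 P →
      S34K_Centred N A K1 X m P →
      (∀ n : ℕ, ∃ (ϖ : K1) (k : ℕ) (T S c : LaurentSeries K1), n ≤ k ∧
        (haveI := hm.isPrime; S34LGK_NodeData N A K1 hstab V2 X m ϖ k T S c) ∧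
        S34LGK_Deep N A K1 P ϖ k T S) →
      S34R_g N s • P = P)
    (U : LaurentSeries K1 → Prop) (hU1 : U 1)
    (hRedU : ∀ (ϖ : K1) (k : ℕ) (T S c : LaurentSeries K1),
      (haveI := hm.isPrime; S34LGK_NodeData N A K1 hstab V2 X m ϖ k T S c) →
      ∀ a ρ : K1, (a : Qb) ∈ A.nonunits → (ρ : Qb) ∈ A.nonunits → ϖ ^ k = a * ρ →
        U (S34ACT_act K1 hstab s (T - HahnSeries.C a) / (T - HahnSeries.C a)) ∧
        U (S34ACT_act K1 hstab s (S - HahnSeries.C a) / (S - HahnSeries.C a)))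
    (P : Place Qb (modularFunctionFieldBar N)) (hrat : S37LEVEL_IsRational N K1 P)
    (hcen : S34K_Centred N A K1 X m P) :
    ∃ g ∈ S18K_F1 K1 N, g ≠ 0 ∧ U g ∧
      ∀ P' : Place Qb (modularFunctionFieldBar N), S34K_Centred N A K1 X m P' →
        S37B1_ordP N K1 P' g =
          (S34R_g N s • Finsupp.single P (1 : ℤ) - Finsupp.single P (1 : ℤ)) P' := by
  have := hm.isPrime
  rcases S35LGU_dichotomy N A K1 hstab V2 X hXF hO hVM hNode hOrd hπ m hm hπm ht1 ht2 P hrat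
    hcen with ⟨ϖ, k, T, S, c, a, ρ, d, han, hρn, hρ, Z, hZ, hZF, hne, hord⟩ | hd
  · have huF : Z - HahnSeries.C a ∈ modularFunctionFieldFullC K1 N :=
      sub_mem hZF (S34LGK_C_mem N K1 a)
    have hF : S34ACT_act K1 hstab s (Z - HahnSeries.C a) ∈ modularFunctionFieldFullC K1 N :=
      S34ACT_mem_F1 K1 hstab N s huF
    have h0 : S34ACT_act K1 hstab s (Z - HahnSeries.C a) ≠ 0 := fun h =>
      hne (S34ACT_act_injective K1 hstab s (by rw [h, map_zero]))
    refine ⟨S34ACT_act K1 hstab s (Z - HahnSeries.C a) / (Z - HahnSeries.C a),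
      div_mem hF huF, div_ne_zero h0 hne, ?_, ?_⟩
    · rcases hZ with rfl | rfl
      · exact (hRedU ϖ k _ S c d a ρ han hρn hρ).1
      · exact (hRedU ϖ k T _ c d a ρ han hρn hρ).2
    · intro P' hP'
      rw [div_eq_mul_inv, S34XC_ordP_mul N K1 P' hF (inv_mem huF) h0 (inv_ne_zero hne),
        S34XC_ordP_inv N K1 P' huF,
        S35LG_ord_act N A K1 hstab m s P P' _ hord (hCs' P' hP'),
        S34LGK_single_aux N P P' _ (hord P' hP'), SemilinearAut.smul_single,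
        Finsupp.sub_apply]
      ring
  · have hfix := hdeep P hrat hcen hd
    refine ⟨1, one_mem _, one_ne_zero, hU1, ?_⟩
    intro P' _
    rw [S34XC_ordP_one, SemilinearAut.smul_single, hfix, sub_self]
    rfl

/-- The same with `(s u) * u⁻¹` in the class hypothesis. -/
theorem S35LGU_locGen1' (s : GQ)
    (V2 X : Subring (LaurentSeries K1))
    (hXF : ∀ y ∈ X, y ∈ modularFunctionFieldFullC K1 N) (hO : S18K_O A K1 ≤ X)
    (hVM : S34LGK_VM N A K1 X)
    (hNode : S34LGK_Node N A K1 hstab V2 X)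
    (hOrd : S34LGK_Ord N A K1 hstab V2 X)
    (hπ : S18K_π A K1 ∈ X) (m : Ideal X) (hm : m.IsMaximal)
    (hπm : (⟨S18K_π A K1, hπ⟩ : X) ∈ m)
    (ht1 : S34K_Thru (S18K_π A K1) (S18K_V A K1 N) X m)
    (ht2 : S34K_Thru (S18K_π A K1) V2 X m)
    (hCs' : ∀ P : Place Qb (modularFunctionFieldBar N),
      S34K_Centred N A K1 X m P → S34K_Centred N A K1 X m (S34R_g N s⁻¹ • P))
    (hdeep : ∀ P : Place Qb (modularFunctionFieldBar N), S37LEVEL_IsRational N K1 P →
      S34K_Centred N A K1 X m P →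
      (∀ n : ℕ, ∃ (ϖ : K1) (k : ℕ) (T S c : LaurentSeries K1), n ≤ k ∧
        (haveI := hm.isPrime; S34LGK_NodeData N A K1 hstab V2 X m ϖ k T S c) ∧
        S34LGK_Deep N A K1 P ϖ k T S) →
      S34R_g N s • P = P)
    (U : LaurentSeries K1 → Prop) (hU1 : U 1)
    (hRedU : ∀ (ϖ : K1) (k : ℕ) (T S c : LaurentSeries K1),
      (haveI := hm.isPrime; S34LGK_NodeData N A K1 hstab V2 X m ϖ k T S c) →
      ∀ a ρ : K1, (a : Qb) ∈ A.nonunits → (ρ : Qb) ∈ A.nonunits → ϖ ^ k = a * ρ →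
        U (S34ACT_act K1 hstab s (T - HahnSeries.C a) * (T - HahnSeries.C a)⁻¹) ∧
        U (S34ACT_act K1 hstab s (S - HahnSeries.C a) * (S - HahnSeries.C a)⁻¹))
    (P : Place Qb (modularFunctionFieldBar N)) (hrat : S37LEVEL_IsRational N K1 P)
    (hcen : S34K_Centred N A K1 X m P) :
    ∃ g ∈ S18K_F1 K1 N, g ≠ 0 ∧ U g ∧
      ∀ P' : Place Qb (modularFunctionFieldBar N), S34K_Centred N A K1 X m P' →
        S37B1_ordP N K1 P' g =
          (S34R_g N s • Finsupp.single P (1 : ℤ) - Finsupp.single P (1 : ℤ)) P' :=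
  S35LGU_locGen1 N A K1 hstab s V2 X hXF hO hVM hNode hOrd hπ m hm hπm ht1 ht2 hCs' hdeep U hU1
    (fun ϖ k T S c d a ρ han hρn hρ => by
      have h := hRedU ϖ k T S c d a ρ han hρn hρ
      rw [div_eq_mul_inv, div_eq_mul_inv]
      exact h) P hrat hcen

end Fermat.Agent.S35_helper7_LOCGENU
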