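import Mathlib

/-!
# S35, GEO-DEEP (helper9): the abstract core of intrinsic deepness

Mathlib only.  `R` is the local ring of a chart at a crossing point, `V` one of the two valuation
rings of the special fibre, `π` the uniformiser, `T`, `S` node coordinates (`T ∈ π ^ K V`,
`S` a unit of `V`, `m_R = (π, T, S)`).

* `S35DA_vert`     : Nakayama: an ideal `I ∌ 1` of a noetherian local ring with
  `m_R = (π, T, S)`, `π, T ∈ I` and `S r ∈ I → r ∈ I` is `(π, T)`;
* `S35DA_vert_sub` : the subring form, `I = R ∩ π V`;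
* `S35DA_val`      : the induction: a ring homomorphism `ψ` on `R` with `ψ T ∈ (ψ π) ^ K` maps
  `R ∩ π ^ j V` into `(ψ π) ^ j`, for every `j ≤ K` (**intrinsic deepness**: the statement does
  not mention the node coordinates any more).
-/

set_option autoImplicit false

namespace Fermat.Agent.S35_helper9_DEEPA

/-- **Nakayama at a node.** -/
theorem S35DA_vert {R : Type*} [CommRing R] [IsLocalRing R] [IsNoetherianRing R]
    (I : Ideal R) (π T S : R)
    (hmax : IsLocalRing.maximalIdeal R = Ideal.span {π, T, S})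
    (hπI : π ∈ I) (hTI : T ∈ I) (hI : I ≠ ⊤)
    (hS : ∀ r : R, S * r ∈ I → r ∈ I) :
    I = Ideal.span {π, T} := by
  apply le_antisymm
  · have hle : I ≤ IsLocalRing.maximalIdeal R := IsLocalRing.le_maximalIdeal hI
    refine Submodule.le_of_le_smul_of_le_jacobson_bot (I := IsLocalRing.maximalIdeal R)
      (IsNoetherian.noetherian I) ?_ ?_
    · rw [IsLocalRing.jacobson_eq_maximalIdeal ⊥ bot_ne_top]
    · intro x hx
      have hxm := hle hx
      rw [hmax, Ideal.mem_span_insert] at hxm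
      obtain ⟨a, z, hz, e⟩ := hxm
      rw [Ideal.mem_span_pair] at hz
      obtain ⟨b, c, rfl⟩ := hz
      have hc : c ∈ I := by
        apply hS
        have e2 : S * c = x - a * π - b * T := by rw [e]; ring
        rw [e2]
        exact I.sub_mem (I.sub_mem hx (I.mul_mem_left _ hπI)) (I.mul_mem_left _ hTI)
      have hSm : S ∈ IsLocalRing.maximalIdeal R := by
        rw [hmax]
        exact Ideal.subset_span (by simp)
      refine Submodule.mem_sup.2 ⟨a * π + b * T, ?_, S * c, ?_, ?_⟩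
      · exact Ideal.add_mem _ (Ideal.mul_mem_left _ _ (Ideal.subset_span (by simp)))
          (Ideal.mul_mem_left _ _ (Ideal.subset_span (by simp)))
      · exact Submodule.smul_mem_smul hSm hc
      · rw [e]; ring
  · rw [Ideal.span_le]
    rintro y (rfl | rfl)
    · exact hπI
    · exact hTI

section Sub

variable {L : Type*} [Field L]

/-- **`R ∩ π V = (π, T) R`** at a node, elementwise. -/
theorem S35DA_vert_sub (R V : Subring L) [IsLocalRing R] [IsNoetherianRing R] (hRV : R ≤ V)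
    (π T S : R) (hπV : ((π : R) : L)⁻¹ ∉ V)
    (hmax : IsLocalRing.maximalIdeal R = Ideal.span {π, T, S})
    (hT : ∃ v ∈ V, (T : L) = (π : L) * v) (hS : ((S : R) : L)⁻¹ ∈ V) (hS0 : (S : L) ≠ 0)
    (x : R) (hx : ∃ v ∈ V, (x : L) = (π : L) * v) :
    ∃ r₁ r₂ : R, x = π * r₁ + T * r₂ := by
  classical
  let I : Ideal R :=
    { carrier := {y : R | ∃ v ∈ V, (y : L) = (π : L) * v}
      add_mem' := by
        rintro a b ⟨v, hv, ea⟩ ⟨w, hw, eb⟩
        refine ⟨v + w, V.add_mem hv hw, ?_⟩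
        rw [Subring.coe_add, ea, eb]; ring
      zero_mem' := ⟨0, V.zero_mem, by simp⟩
      smul_mem' := by
        rintro c a ⟨v, hv, ea⟩
        refine ⟨(c : L) * v, V.mul_mem (hRV c.2) hv, ?_⟩
        rw [smul_eq_mul, Subring.coe_mul, ea]; ring }
  have hmemI : ∀ y : R, y ∈ I ↔ ∃ v ∈ V, (y : L) = (π : L) * v := fun y => Iff.rfl
  have hπ0 : (π : L) ≠ 0 := by
    intro h
    apply hπV
    rw [h, inv_zero]
    exact V.zero_mem
  have hI : I ≠ ⊤ := by
    intro h
    have h1 : (1 : R) ∈ I := by rw [h]; trivial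
    obtain ⟨v, hv, e⟩ := (hmemI 1).1 h1
    apply hπV
    have : ((π : R) : L)⁻¹ = v := by
      rw [Subring.coe_one] at e
      rw [inv_eq_iff_eq_inv]
      exact eq_inv_of_mul_eq_one_left e.symm
    rw [this]
    exact hv
  have hπI : π ∈ I := (hmemI π).2 ⟨1, V.one_mem, by rw [mul_one]⟩
  have hTI : T ∈ I := (hmemI T).2 hT
  have hSI : ∀ r : R, S * r ∈ I → r ∈ I := by
    rintro r ⟨v, hv, e⟩
    refine ⟨((S : R) : L)⁻¹ * v, V.mul_mem hS hv, ?_⟩
    rw [Subring.coe_mul] at e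
    have : (r : L) = ((S : R) : L)⁻¹ * ((S : L) * (r : L)) := by
      field_simp
    rw [this, e]; ring
  have key := S35DA_vert I π T S hmax hπI hTI hI hSI
  have hxI : x ∈ I := (hmemI x).2 hx
  rw [key, Ideal.mem_span_pair] at hxI
  obtain ⟨a, b, e⟩ := hxI
  exact ⟨a, b, by rw [← e]; ring⟩

/-- **Intrinsic deepness** (abstract form): if `ψ T ∈ (ψ π) ^ K` for ONE node coordinate `T`
with `T ∈ π ^ K V`, then `ψ (R ∩ π ^ j V) ⊆ (ψ π) ^ j` for every `j ≤ K`. -/
theorem S35DA_val (R V : Subring L) [IsLocalRing R] [IsNoetherianRing R] (hRV : R ≤ V)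
    (π T S : R) (hπV : ((π : R) : L)⁻¹ ∉ V)
    (hmax : IsLocalRing.maximalIdeal R = Ideal.span {π, T, S})
    (K : ℕ) (hT : ∃ v ∈ V, (T : L) = (π : L) ^ K * v)
    (hS : ((S : R) : L)⁻¹ ∈ V) (hS0 : (S : L) ≠ 0)
    {Ω : Type*} [CommRing Ω] (ψ : R →+* Ω) (hψT : ψ T ∈ Ideal.span {ψ π ^ K}) :
    ∀ j ≤ K, ∀ x : R, (∃ v ∈ V, (x : L) = (π : L) ^ j * v) → ψ x ∈ Ideal.span {ψ π ^ j} := by
  have hπ0 : (π : L) ≠ 0 := by
    intro h
    apply hπV
    rw [h, inv_zero]
    exact V.zero_mem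
  intro j
  induction j with
  | zero =>
    intro _ x _
    rw [pow_zero, Ideal.span_singleton_one]
    trivial
  | succ j ih =>
    intro hj x hx
    obtain ⟨v, hv, ex⟩ := hx
    obtain ⟨t, ht, eT⟩ := hT
    have hK : K = (K - 1) + 1 := by omega
    have hT1 : ∃ v ∈ V, (T : L) = (π : L) * v := by
      refine ⟨(π : L) ^ (K - 1) * t, V.mul_mem (V.pow_mem (hRV π.2) _) ht, ?_⟩
      rw [eT]
      conv_lhs => rw [hK]
      ring
    have hx1 : ∃ v ∈ V, (x : L) = (π : L) * v := by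
      refine ⟨(π : L) ^ j * v, V.mul_mem (V.pow_mem (hRV π.2) _) hv, ?_⟩
      rw [ex]; ring
    obtain ⟨r₁, r₂, e⟩ := S35DA_vert_sub R V hRV π T S hπV hmax hT1 hS hS0 x hx1
    -- `r₁ ∈ π ^ j V`
    have hKj : K = (j + 1) + (K - (j + 1)) := by omega
    have hr₁ : ∃ v ∈ V, (r₁ : L) = (π : L) ^ j * v := by
      refine ⟨v - (π : L) ^ (K - (j + 1)) * t * (r₂ : L),
        V.sub_mem hv (V.mul_mem (V.mul_mem (V.pow_mem (hRV π.2) _) ht) (hRV r₂.2)), ?_⟩
      have e' : (x : L) = (π : L) * (r₁ : L) + (T : L) * (r₂ : L) := by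
        have := congrArg (fun y : R => (y : L)) e
        simpa using this
      have e2 : (π : L) * (r₁ : L) = (π : L) * ((π : L) ^ j *
          (v - (π : L) ^ (K - (j + 1)) * t * (r₂ : L))) := by
        have e3 : (π : L) * (r₁ : L) = (x : L) - (T : L) * (r₂ : L) := by rw [e']; ring
        rw [e3, ex, eT]
        conv_lhs => rw [hKj]
        ring
      exact mul_left_cancel₀ hπ0 e2
    have h1 := ih (by omega) r₁ hr₁
    rw [e, map_add, map_mul, map_mul]
    refine Ideal.add_mem _ ?_ ?_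
    · rw [Ideal.mem_span_singleton] at h1 ⊢
      obtain ⟨d, hd⟩ := h1
      exact ⟨d, by rw [hd]; ring⟩
    · rw [Ideal.mem_span_singleton] at hψT ⊢
      obtain ⟨d, hd⟩ := hψT
      refine ⟨ψ π ^ (K - (j + 1)) * d * ψ r₂, ?_⟩
      rw [hd]
      conv_lhs => rw [hKj]
      ring

end Sub

end Fermat.Agent.S35_helper9_DEEPA
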