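import Mathlib
import Fermat.Agent.S34_helper6_BB
import Fermat.Agent.S34_helper2_HARTOGSK
import Fermat.Agent.S34_helper27_C2ADAPT
import Fermat.Agent.S35_helper9_DEEPA

/-!
# S35, GEO-DEEP (helper9): intrinsic deepness and branch (B) for an arbitrary `g ∈ G_ℚ`

The S35 twin of helper6's `S34BB_branchB` (inertia): a `K1`-rational place `P` centred at a
crossing point `m` of the chart `X` which is *deep* at stages of arbitrarily large exponent is
fixed by EVERY `g ∈ G_ℚ` which preserves `A`, the valuation ring `V2`, the chart `X` and the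
centre of `P` (consumer: `g = σ ^ 2`, `σ` a Frobenius lift at `A`).

The node coordinates `T n`, `S n` of the stages are only inertia-fixed (X-L2, landed), so
`ψ_(g P) (T n) = g (ψ_P (g⁻¹ (T n)))` is NOT the value of `T n` at `P` transported by `g`.
The way out is that deepness is **intrinsic**: for a stage `(ϖ ^ k, T, S)` at which `P` is deep,

  `ψ_P (R ∩ π ^ j V_i) ⊆ π ^ j O1` for every `j ≤ k`, `i = 1, 2`, `R = locRing X m`

(`S35DEEP_val`; from `R ∩ π V2 = (π, T) R`, Nakayama, and `T ∈ π ^ k V2`).  Since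
`g⁻¹ (T n) ∈ R ∩ π ^ n V2`, the value of `T n` at `g P` lies in `π ^ n O1`, and helper11's
`S34DB_eq` + `S34PX_ext` apply as in the inertia case.

* `S35DEEP_BranchB` : the contract (a `Prop`);
* `S35DEEP_val`     : intrinsic deepness at one stage;
* `S35DEEP_fixed`   : the contract for a noetherian chart `X ≤ V1 ⊓ V2`;
* `S35DEEP_chart`   : the contract for every chart of a two-valuation setup.
-/

set_option autoImplicit false
set_option linter.unusedSectionVars false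
set_option linter.unusedVariables false
set_option linter.style.haveILetI false
set_option maxHeartbeats 1600000
set_option synthInstance.maxHeartbeats 400000

open AlgebraicCurve ModularCurve HahnSeries IntermediateField
open Fermat.Agent.S18_helper13_GAUSS Fermat.Agent.S18_helper25_COREDefs
  Fermat.Agent.S18_helper9_CDefs Fermat.Agent.S34_helper12_CDefs
  Fermat.Agent.S18_helper3_LOCRING Fermat.Agent.S34_helper5_K0 Fermat.Agent.S34_helper21_ACT
  Fermat.Agent.S34_helper21_CI Fermat.Agent.S34_helper6_RED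
  Fermat.Agent.S34_helper6_LGRED Fermat.Agent.S34_helper6_LGREDK
  Fermat.Agent.S34_Contracts Fermat.Agent.S34_helper7_LGDefs
  Fermat.Agent.S37_helper4_B1Defs Fermat.Agent.S37_helper5_LEVEL
  Fermat.Agent.S34_helper17_PLW Fermat.Agent.S34_helper17_VM
  Fermat.Agent.S34_helper11_DICHB Fermat.Agent.S34_helper11_PLEXT
  Fermat.Agent.S34_helper6_BB Fermat.Agent.S35_helper9_DEEPA
  Fermat.Agent.S34_helper27_C2ADAPT Fermat.Agent.S34_helper27_C2Defs

noncomputable section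

namespace Fermat.Agent.S35_helper9_DEEP

local notation "Qb" => AlgebraicClosure ℚ
local notation "GQ" => (AlgebraicClosure ℚ ≃ₐ[ℚ] AlgebraicClosure ℚ)

/-! ### The local ring at a point of a component lies in the valuation ring -/

section Abs

variable {L : Type*} [Field L]

/-- if `m` lies on the component cut out by the valuation ring `V ⊇ X` (uniformiser `π`), then
the local ring of `X` at `m` is contained in `V`. -/
theorem S35DEEP_locRing_le (π : L) (V X : Subring L) (hXV : X ≤ V)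
    (hunif : ∀ x ∈ V, x⁻¹ ∉ V → ∃ v ∈ V, x = π * v) (m : Ideal X) [hm : m.IsPrime]
    (ht : S34K_Thru π V X m) : locRing X m ≤ V := by
  rintro y ⟨a, c, hc, e⟩
  have hc0 := coe_ne_zero_of_notMem X m hc
  have hcinv : (c : L)⁻¹ ∈ V := by
    by_contra h
    exact hc (ht c (hunif _ (hXV c.2) h))
  have e' : y = (a : L) * (c : L)⁻¹ := by
    rw [← e, mul_assoc, mul_inv_cancel₀ hc0, mul_one]
  rw [e']
  exact V.mul_mem (hXV a.2) hcinv

end Abs

variable (N : ℕ) [NeZero N] (A : ValuationSubring Qb) (K1 : IntermediateField ℚ Qb)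
  (hstab : ∀ σ : GQ, ∀ x ∈ K1, σ x ∈ K1) [IsDiscreteValuationRing (S18K_O1 A K1)]

/-! ### The contract -/

/-- **X-LOCGEN-B-FROB** (the contract): a rational place centred at a crossing point which is
deep at stages of arbitrarily large exponent is fixed by every `g ∈ G_ℚ` which preserves `A`
(in both directions), the valuation ring `V2` and the centre of the place. -/
def S35DEEP_BranchB (V2 X : Subring (LaurentSeries K1)) : Prop :=
  ∀ (hπ : S18K_π A K1 ∈ X) (m : Ideal X) (hm : m.IsMaximal), (⟨S18K_π A K1, hπ⟩ : X) ∈ m →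
    S34K_Thru (S18K_π A K1) (S18K_V A K1 N) X m → S34K_Thru (S18K_π A K1) V2 X m →
  ∀ P : Place Qb (modularFunctionFieldBar N), S37LEVEL_IsRational N K1 P →
    S34K_Centred N A K1 X m P →
    (∀ n : ℕ, ∃ (ϖ : K1) (k : ℕ) (T S c : LaurentSeries K1), n ≤ k ∧
      (haveI := hm.isPrime; S34LGK_NodeData N A K1 hstab V2 X m ϖ k T S c) ∧
      S34LGK_Deep N A K1 P ϖ k T S) →
    ∀ g : GQ, (∀ x ∈ A, g x ∈ A) → (∀ x ∈ A, g⁻¹ x ∈ A) →
      (∀ a ∈ V2, S34ACT_act K1 hstab g⁻¹ a ∈ V2) →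
      S34K_Centred N A K1 X m (S34R_g N g • P) → S34R_g N g • P = P

/-! ### Automorphisms preserving `A`, on `O1` -/

/-- `g⁻¹ (g x) = x` on `O1`. -/
theorem S35DEEP_resO_inv (g : GQ) (hg : ∀ x ∈ A, g x ∈ A) (hg' : ∀ x ∈ A, g⁻¹ x ∈ A)
    (x : S18K_O1 A K1) :
    S34ACT_resO K1 hstab A g⁻¹ hg' (S34ACT_resO K1 hstab A g hg x) = x := by
  apply Subtype.ext
  apply Subtype.ext
  show g⁻¹ (g ((x : K1) : Qb)) = ((x : K1) : Qb)
  exact g.symm_apply_apply _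

/-- an automorphism preserving `A` in both directions maps the uniformiser of `O1` to a multiple
of the uniformiser. -/
theorem S35DEEP_resO_pi (g : GQ) (hg : ∀ x ∈ A, g x ∈ A) (hg' : ∀ x ∈ A, g⁻¹ x ∈ A) :
    (S18K_D A K1).π ∣ S34ACT_resO K1 hstab A g hg (S18K_D A K1).π := by
  by_contra h
  have hu : IsUnit (S34ACT_resO K1 hstab A g hg (S18K_D A K1).π) :=
    (S34LRK_isUnit_iff A K1 _).mpr h
  have hu' := hu.map (S34ACT_resO K1 hstab A g⁻¹ hg')
  rw [S35DEEP_resO_inv] at hu'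
  exact S34LRK_pi_not_isUnit A K1 hu'

/-- such an automorphism preserves the ideals `π ^ n O1`. -/
theorem S35DEEP_resO_span (g : GQ) (hg : ∀ x ∈ A, g x ∈ A) (hg' : ∀ x ∈ A, g⁻¹ x ∈ A) (n : ℕ)
    (z : S18K_O1 A K1) (hz : z ∈ Ideal.span {(S18K_D A K1).π ^ n}) :
    S34ACT_resO K1 hstab A g hg z ∈ Ideal.span {(S18K_D A K1).π ^ n} := by
  rw [Ideal.mem_span_singleton] at hz ⊢
  obtain ⟨d, rfl⟩ := hz
  obtain ⟨w, hw⟩ := S35DEEP_resO_pi A K1 hstab g hg hg'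
  refine ⟨w ^ n * S34ACT_resO K1 hstab A g hg d, ?_⟩
  rw [map_mul, map_pow, hw]
  ring

/-- the action of such an automorphism on the series `π`. -/
theorem S35DEEP_act_pi (g : GQ) (hg : ∀ x ∈ A, g x ∈ A) (hg' : ∀ x ∈ A, g⁻¹ x ∈ A) :
    ∃ w : S18K_O1 A K1, S34ACT_act K1 hstab g (S18K_π A K1) =
      S18K_π A K1 * HahnSeries.C ((w : K1)) := by
  obtain ⟨w, hw⟩ := S35DEEP_resO_pi A K1 hstab g hg hg'
  refine ⟨w, ?_⟩
  rw [S34LRK_pi_eq, S34ACT_act_C, ← map_mul]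
  congr 1
  have := congrArg (fun z : S18K_O1 A K1 => (z : K1)) hw
  exact this

/-! ### One stage -/

section Stage

variable (V X : Subring (LaurentSeries K1)) (hO : S18K_O A K1 ≤ X) (hXV : X ≤ V)
  (hVu : ∀ x ∈ V, x⁻¹ ∉ V → ∃ v ∈ V, x = S18K_π A K1 * v)
  (hπ : S18K_π A K1 ∈ X) (m : Ideal X) [hmp : m.IsPrime]
  (ht : S34K_Thru (S18K_π A K1) V X m)

include hO hXV hVu ht in
/-- the node coordinate which vanishes on the component of `V` lies in `π ^ k V`. -/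
theorem S35DEEP_T_mem (ϖ : K1) (hϖ : (ϖ : Qb) ∈ A.nonunits) (k : ℕ)
    (T S c : LaurentSeries K1) (hc : c ∈ locRing X m)
    (hmul : T * S = HahnSeries.C (ϖ ^ k) * c) (hS0 : S ≠ 0) (hSinv : S⁻¹ ∈ V) :
    ∃ v ∈ V, T = S18K_π A K1 ^ k * v := by
  obtain ⟨hϖO, w, hw⟩ := S34LRK_dvd_of_nonunit A K1 hϖ
  have hRV := S35DEEP_locRing_le (S18K_π A K1) V X hXV hVu m ht
  have hCw : (HahnSeries.C ((w : K1)) : LaurentSeries K1) ∈ V :=
    hXV (hO (S34LRK_C_mem A K1 w))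
  refine ⟨HahnSeries.C ((w : K1)) ^ k * c * S⁻¹,
    V.mul_mem (V.mul_mem (V.pow_mem hCw k) (hRV hc)) hSinv, ?_⟩
  have e1 : (HahnSeries.C ϖ : LaurentSeries K1) = S18K_π A K1 * HahnSeries.C ((w : K1)) := by
    rw [S34LRK_pi_eq, ← map_mul]
    congr 1
    have := congrArg (fun z : S18K_O1 A K1 => (z : K1)) hw
    exact this
  have e2 : T = HahnSeries.C (ϖ ^ k) * c * S⁻¹ := by
    rw [← hmul, mul_assoc, mul_inv_cancel₀ hS0, mul_one]
  rw [e2, map_pow, e1]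
  ring

include hO hXV hVu ht in
/-- **Intrinsic deepness at one stage**: if the value map `φ` sends the node coordinate `T`
(vanishing on the component of `V`) into `π ^ k`, then it sends `R ∩ π ^ j V` into `π ^ j`, for
every `j ≤ k`. -/
theorem S35DEEP_val [IsNoetherianRing X] (hVn : (S18K_π A K1)⁻¹ ∉ V)
    (ϖ : K1) (hϖ : (ϖ : Qb) ∈ A.nonunits) (k : ℕ)
    (T S c : LaurentSeries K1) (hT : T ∈ X) (hS : S ∈ X) (hc : c ∈ locRing X m)
    (hmul : T * S = HahnSeries.C (ϖ ^ k) * c) (hS0 : S ≠ 0) (hSinv : S⁻¹ ∈ V)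
    (hgen : IsLocalRing.maximalIdeal (locRing X m) =
      Ideal.span ({incl X m ⟨S18K_π A K1, hπ⟩, incl X m ⟨T, hT⟩, incl X m ⟨S, hS⟩} :
        Set (locRing X m)))
    {Ω : Type*} [CommRing Ω] (φ : locRing X m →+* Ω)
    (hφT : φ (incl X m ⟨T, hT⟩) ∈ Ideal.span {φ (incl X m ⟨S18K_π A K1, hπ⟩) ^ k}) :
    ∀ j ≤ k, ∀ x : locRing X m,
      (∃ v ∈ V, (x : LaurentSeries K1) = S18K_π A K1 ^ j * v) →
      φ x ∈ Ideal.span {φ (incl X m ⟨S18K_π A K1, hπ⟩) ^ j} := by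
  haveI hnoeth : IsNoetherianRing (locRing X m) := isNoetherianRing_locRing X m
  have hRV := S35DEEP_locRing_le (S18K_π A K1) V X hXV hVu m ht
  have hTm := S35DEEP_T_mem A K1 V X hO hXV hVu m ht ϖ hϖ k T S c hc hmul hS0 hSinv
  exact S35DA_val (locRing X m) V hRV (incl X m ⟨S18K_π A K1, hπ⟩) (incl X m ⟨T, hT⟩)
    (incl X m ⟨S, hS⟩) hVn hgen k hTm hSinv hS0 φ hφT

end Stage

/-! ### Branch (B) for an arbitrary automorphism -/

/-- **X-LOCGEN-B-FROB** for a noetherian normal chart `X ≤ V1 ⊓ V2`, `X ⊇ icl (O[x0]) F1`,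
`x0 ∈ {j, j⁻¹}`. -/
theorem S35DEEP_fixed (V2 X : Subring (LaurentSeries K1)) [IsNoetherianRing X]
    (hXF : ∀ a ∈ X, a ∈ S18K_F1 K1 N) (hO : S18K_O A K1 ≤ X)
    (x0 : LaurentSeries K1) (hx0 : x0 = S18K_j K1 ∨ x0 = (S18K_j K1)⁻¹)
    (hx0X : x0 ∈ X) (hx0ne : x0 ≠ 0)
    (hX : ∀ y : LaurentSeries K1, IsIntegral (adj (S18K_O A K1) x0) y → y ∈ S18K_F1 K1 N → y ∈ X)
    (hXV1 : X ≤ S18K_V A K1 N) (hXV2 : X ≤ V2)
    (hV1u : ∀ x ∈ S18K_V A K1 N, x⁻¹ ∉ S18K_V A K1 N →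
      ∃ v ∈ S18K_V A K1 N, x = S18K_π A K1 * v)
    (hV2u : ∀ x ∈ V2, x⁻¹ ∉ V2 → ∃ v ∈ V2, x = S18K_π A K1 * v)
    (hV1n : (S18K_π A K1)⁻¹ ∉ S18K_V A K1 N) (hV2n : (S18K_π A K1)⁻¹ ∉ V2)
    (hgX : ∀ g : GQ, (∀ x ∈ A, g x ∈ A) → ∀ a ∈ X, S34ACT_act K1 hstab g a ∈ X) :
    S35DEEP_BranchB N A K1 hstab V2 X := by
  intro hπ m hm hπm ht1 ht2 P hrat hcen hdeep g hgA hgA' hgV2 hcen'
  haveI hmp : m.IsPrime := hm.isPrime
  have hrat' : S37LEVEL_IsRational N K1 (S34R_g N g • P) := S34ACT_rational K1 hstab N g P hrat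
  have hnn := S34VM_nonneg_of_centred N A K1 X hXF m P hcen
  have hnn' := S34VM_nonneg_of_centred N A K1 X hXF m (S34R_g N g • P) hcen'
  obtain ⟨ψ, hψC, hψ0, hψO, hψm, hψv, hψu⟩ :=
    S34PW_valueMap N A K1 X hXF hO hπ m hm hπm P hrat hnn
  obtain ⟨ψ', hψ'C, hψ'0, hψ'O, hψ'm, hψ'v, hψ'u⟩ :=
    S34PW_valueMap N A K1 X hXF hO hπ m hm hπm (S34R_g N g • P) hrat' hnn'
  -- the value maps with values in `O1`
  set φ₁ : locRing X m →+* S18K_O1 A K1 := ψ.codRestrict (S18K_O1 A K1) hψO with hφ₁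
  set φ₂ : locRing X m →+* S18K_O1 A K1 := ψ'.codRestrict (S18K_O1 A K1) hψ'O with hφ₂
  letI alg : Algebra (S18K_O1 A K1) (locRing X m) := (S34BB_base A K1 X hO m).toAlgebra
  have halg : ∀ o : S18K_O1 A K1,
      algebraMap (S18K_O1 A K1) (locRing X m) o = S34BB_base A K1 X hO m o := fun _ => rfl
  have hφ₁base : ∀ o : S18K_O1 A K1, φ₁ (S34BB_base A K1 X hO m o) = o := by
    intro o
    apply Subtype.ext
    exact hψC (o : K1) _
  have hφ₂base : ∀ o : S18K_O1 A K1, φ₂ (S34BB_base A K1 X hO m o) = o := by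
    intro o
    apply Subtype.ext
    exact hψ'C (o : K1) _
  have hπincl : incl X m ⟨S18K_π A K1, hπ⟩ = S34BB_base A K1 X hO m (S18K_D A K1).π :=
    Subtype.ext rfl
  have hφ₁π : φ₁ (incl X m ⟨S18K_π A K1, hπ⟩) = (S18K_D A K1).π := by
    rw [hπincl, hφ₁base]
  -- the stages
  choose ϖ k T S c hk hND hDeep using hdeep
  set x : ℕ → locRing X m := fun n => ⟨T n, le_locRing X m (hND n).T_mem⟩ with hx
  set y : ℕ → locRing X m := fun n => ⟨S n, le_locRing X m (hND n).S_mem⟩ with hy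
  -- `R = O1 + (π, T n, S n) R`
  have hgen : ∀ n : ℕ, ∀ r : locRing X m, ∃ (o : S18K_O1 A K1) (r₁ r₂ r₃ : locRing X m),
      r = algebraMap (S18K_O1 A K1) (locRing X m) o +
        algebraMap (S18K_O1 A K1) (locRing X m) (S18K_D A K1).π * r₁ + x n * r₂ + y n * r₃ := by
    intro n r
    have hmem : r - S34BB_base A K1 X hO m (φ₁ r) ∈ IsLocalRing.maximalIdeal (locRing X m) := by
      rw [hψm]
      have h0 : ψ (r - S34BB_base A K1 X hO m (φ₁ r)) = 0 := by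
        rw [map_sub]
        have h1 : ψ (S34BB_base A K1 X hO m (φ₁ r)) = ((φ₁ r : S18K_O1 A K1) : K1) :=
          hψC ((φ₁ r : S18K_O1 A K1) : K1) _
        rw [h1]
        exact sub_self _
      rw [h0, ValuationSubring.mem_nonunits_iff]
      show A.valuation (0 : Qb) < 1
      rw [map_zero]
      exact zero_lt_one
    rw [(hND n).gen hπ] at hmem
    rw [Ideal.mem_span_insert] at hmem
    obtain ⟨r₁, z, hz, e⟩ := hmem
    rw [Ideal.mem_span_pair] at hz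
    obtain ⟨r₂, r₃, rfl⟩ := hz
    refine ⟨φ₁ r, r₁, r₂, r₃, ?_⟩
    have e1 : algebraMap (S18K_O1 A K1) (locRing X m) (S18K_D A K1).π =
        incl X m ⟨S18K_π A K1, hπ⟩ := Subtype.ext rfl
    have e2 : x n = incl X m ⟨T n, (hND n).T_mem⟩ := Subtype.ext rfl
    have e3 : y n = incl X m ⟨S n, (hND n).S_mem⟩ := Subtype.ext rfl
    rw [halg, e1, e2, e3]
    linear_combination e
  -- agreement on the constants
  have hOeq : ∀ o : S18K_O1 A K1, φ₁ (algebraMap (S18K_O1 A K1) (locRing X m) o) =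
      φ₂ (algebraMap (S18K_O1 A K1) (locRing X m) o) := by
    intro o
    rw [halg, hφ₁base, hφ₂base]
  have hπφ : φ₁ (algebraMap (S18K_O1 A K1) (locRing X m) (S18K_D A K1).π) = (S18K_D A K1).π := by
    rw [halg, hφ₁base]
  -- the values of the coordinates at `P`: divisible by `π ^ (k n)`
  have hval : ∀ (n : ℕ) (Z : LaurentSeries K1) (hZ : Z ∈ locRing X m) (a : K1),
      S34K_ValueAt N K1 P Z (a : Qb) → (∃ a' : K1, (a' : Qb) ∈ A ∧ a = ϖ n ^ k n * a') →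
      φ₁ ⟨Z, hZ⟩ ∈ Ideal.span {(S18K_D A K1).π ^ k n} := by
    intro n Z hZ a hva ⟨a', ha', hae⟩
    have hϖ := (hND n).ϖ_nonunit
    obtain ⟨d, hd⟩ := S34BB_pow_dvd A K1 hϖ (le_refl (k n)) ⟨a', ha'⟩
    rw [Ideal.mem_span_singleton]
    refine ⟨d, ?_⟩
    apply Subtype.ext
    rw [← hd]
    have h1 : ((a : K1) : Qb) = ((ψ ⟨Z, hZ⟩ : K1) : Qb) := hψu ⟨Z, hZ⟩ _ hva
    have h2 : ψ ⟨Z, hZ⟩ = a := (Subtype.ext h1).symm
    show ψ ⟨Z, hZ⟩ = ϖ n ^ k n * a'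
    rw [h2, hae]
  have hvxk : ∀ n, φ₁ (x n) ∈ Ideal.span {(S18K_D A K1).π ^ k n} := by
    intro n
    obtain ⟨a, b, hTa, hSb, ha, hb⟩ := hDeep n
    exact hval n (T n) _ a hTa ha
  have hvyk : ∀ n, φ₁ (y n) ∈ Ideal.span {(S18K_D A K1).π ^ k n} := by
    intro n
    obtain ⟨a, b, hTa, hSb, ha, hb⟩ := hDeep n
    exact hval n (S n) _ b hSb hb
  have hspan_le : ∀ n, Ideal.span {(S18K_D A K1).π ^ k n} ≤
      Ideal.span {(S18K_D A K1).π ^ n} := by
    intro n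
    rw [Ideal.span_singleton_le_span_singleton]
    exact pow_dvd_pow _ (hk n)
  -- intrinsic deepness on both components
  have hint2 : ∀ n, ∀ j ≤ k n, ∀ r : locRing X m,
      (∃ v ∈ V2, (r : LaurentSeries K1) = S18K_π A K1 ^ j * v) →
      φ₁ r ∈ Ideal.span {(S18K_D A K1).π ^ j} := by
    intro n j hj r hr
    have h := S35DEEP_val A K1 V2 X hO hXV2 hV2u hπ m ht2 hV2n (ϖ n) (hND n).ϖ_nonunit (k n)
      (T n) (S n) (c n) (hND n).T_mem (hND n).S_mem (hND n).c_mem (hND n).mul_eq (hND n).S_ne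
      (hND n).S_inv ((hND n).gen hπ) φ₁ (by rw [hφ₁π]; exact hvxk n) j hj r hr
    rwa [hφ₁π] at h
  have hint1 : ∀ n, ∀ j ≤ k n, ∀ r : locRing X m,
      (∃ v ∈ S18K_V A K1 N, (r : LaurentSeries K1) = S18K_π A K1 ^ j * v) →
      φ₁ r ∈ Ideal.span {(S18K_D A K1).π ^ j} := by
    intro n j hj r hr
    have hgen' : IsLocalRing.maximalIdeal (locRing X m) =
        Ideal.span ({incl X m ⟨S18K_π A K1, hπ⟩, incl X m ⟨S n, (hND n).S_mem⟩,
          incl X m ⟨T n, (hND n).T_mem⟩} : Set (locRing X m)) := by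
      rw [(hND n).gen hπ]
      congr 1
      ext z
      simp only [Set.mem_insert_iff, Set.mem_singleton_iff]
      tauto
    have hmul' : S n * T n = HahnSeries.C (ϖ n ^ k n) * c n := by
      rw [mul_comm]
      exact (hND n).mul_eq
    have h := S35DEEP_val A K1 (S18K_V A K1 N) X hO hXV1 hV1u hπ m ht1 hV1n (ϖ n)
      (hND n).ϖ_nonunit (k n)
      (S n) (T n) (c n) (hND n).S_mem (hND n).T_mem (hND n).c_mem hmul' (hND n).T_ne
      (hND n).T_inv hgen' φ₁ (by rw [hφ₁π]; exact hvyk n) j hj r hr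
    rwa [hφ₁π] at h
  -- the transport of the value maps
  have htrans : ∀ (Z : LaurentSeries K1) (hZ : Z ∈ locRing X m)
      (hZ' : S34ACT_act K1 hstab g⁻¹ Z ∈ locRing X m),
      φ₂ ⟨Z, hZ⟩ = S34ACT_resO K1 hstab A g hgA (φ₁ ⟨S34ACT_act K1 hstab g⁻¹ Z, hZ'⟩) := by
    intro Z hZ hZ'
    have h0 := S34CI_valueAt N K1 hstab g P (hψv ⟨S34ACT_act K1 hstab g⁻¹ Z, hZ'⟩)
    rw [S34ACT_act_act_inv] at h0
    have h1 := hψ'u ⟨Z, hZ⟩ _ h0
    apply Subtype.ext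
    apply Subtype.ext
    exact h1.symm
  -- `g⁻¹` of an element of `π ^ j V` lies in `π ^ j V`
  have hginv : ∀ (V : Subring (LaurentSeries K1)), S18K_O A K1 ≤ V →
      (∀ a ∈ V, S34ACT_act K1 hstab g⁻¹ a ∈ V) → ∀ (j : ℕ) (Z : LaurentSeries K1),
      (∃ v ∈ V, Z = S18K_π A K1 ^ j * v) →
      ∃ v ∈ V, S34ACT_act K1 hstab g⁻¹ Z = S18K_π A K1 ^ j * v := by
    rintro V hOV hV j Z ⟨v, hv, rfl⟩
    obtain ⟨w, hw⟩ := S35DEEP_act_pi A K1 hstab g⁻¹ hgA' (by rw [inv_inv]; exact hgA)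
    refine ⟨HahnSeries.C ((w : K1)) ^ j * S34ACT_act K1 hstab g⁻¹ v,
      V.mul_mem (V.pow_mem (hOV (S34LRK_C_mem A K1 w)) j) (hV v hv), ?_⟩
    rw [map_mul, map_pow, hw]
    ring
  have hgV1 : ∀ a ∈ S18K_V A K1 N, S34ACT_act K1 hstab g⁻¹ a ∈ S18K_V A K1 N :=
    fun a ha => S34ACT_mem_V K1 hstab A N g⁻¹ hgA' ha
  have hpow_le : ∀ (V : Subring (LaurentSeries K1)), S18K_π A K1 ∈ V → ∀ (n K : ℕ), n ≤ K →
      ∀ Z : LaurentSeries K1, (∃ v ∈ V, Z = S18K_π A K1 ^ K * v) →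
      ∃ v ∈ V, Z = S18K_π A K1 ^ n * v := by
    rintro V hπV n K hnK Z ⟨v, hv, rfl⟩
    refine ⟨S18K_π A K1 ^ (K - n) * v, V.mul_mem (V.pow_mem hπV _) hv, ?_⟩
    rw [← mul_assoc, ← _root_.pow_add]
    congr 2
    omega
  have hvx2 : ∀ n, φ₂ (x n) ∈ Ideal.span {(S18K_D A K1).π ^ n} := by
    intro n
    have hZX : S34ACT_act K1 hstab g⁻¹ (T n) ∈ X := hgX g⁻¹ hgA' _ (hND n).T_mem
    have hTm := S35DEEP_T_mem A K1 V2 X hO hXV2 hV2u m ht2 (ϖ n) (hND n).ϖ_nonunit (k n)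
      (T n) (S n) (c n) (hND n).c_mem (hND n).mul_eq (hND n).S_ne (hND n).S_inv
    have h1 := hginv V2 (hO.trans hXV2) hgV2 (k n) (T n) hTm
    have h2 := hpow_le V2 (hXV2 hπ) n (k n) (hk n) _ h1
    have h3 := hint2 n n (hk n) ⟨S34ACT_act K1 hstab g⁻¹ (T n), le_locRing X m hZX⟩ h2
    have h4 := htrans (T n) (le_locRing X m (hND n).T_mem) (le_locRing X m hZX)
    show φ₂ ⟨T n, _⟩ ∈ _
    rw [h4]
    exact S35DEEP_resO_span A K1 hstab g hgA hgA' n _ h3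
  have hvy2 : ∀ n, φ₂ (y n) ∈ Ideal.span {(S18K_D A K1).π ^ n} := by
    intro n
    have hZX : S34ACT_act K1 hstab g⁻¹ (S n) ∈ X := hgX g⁻¹ hgA' _ (hND n).S_mem
    have hmul' : S n * T n = HahnSeries.C (ϖ n ^ k n) * c n := by
      rw [mul_comm]
      exact (hND n).mul_eq
    have hSm := S35DEEP_T_mem A K1 (S18K_V A K1 N) X hO hXV1 hV1u m ht1 (ϖ n)
      (hND n).ϖ_nonunit (k n)
      (S n) (T n) (c n) (hND n).c_mem hmul' (hND n).T_ne (hND n).T_inv
    have h1 := hginv (S18K_V A K1 N) (hO.trans hXV1) hgV1 (k n) (S n) hSm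
    have h2 := hpow_le (S18K_V A K1 N) (hXV1 hπ) n (k n) (hk n) _ h1
    have h3 := hint1 n n (hk n) ⟨S34ACT_act K1 hstab g⁻¹ (S n), le_locRing X m hZX⟩ h2
    have h4 := htrans (S n) (le_locRing X m (hND n).S_mem) (le_locRing X m hZX)
    show φ₂ ⟨S n, _⟩ ∈ _
    rw [h4]
    exact S35DEEP_resO_span A K1 hstab g hgA hgA' n _ h3
  have key : φ₁ = φ₂ := by
    refine S34DB_eq (S18K_D A K1).π x y hgen φ₁ φ₂ hOeq ?_ ?_ ?_ ?_ ?_
    · intro n; rw [hπφ]; exact hspan_le n (hvxk n)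
    · intro n; rw [hπφ]; exact hspan_le n (hvyk n)
    · intro n; rw [hπφ]; exact hvx2 n
    · intro n; rw [hπφ]; exact hvy2 n
    · intro z hz
      rw [hπφ] at hz
      exact S34BB_sep A K1 z hz
  have hψeq : ∀ r : locRing X m, ψ r = ψ' r := by
    intro r
    have := congrArg (fun f : locRing X m →+* S18K_O1 A K1 => ((f r : S18K_O1 A K1) : K1)) key
    exact this
  -- place extensionality
  have hx0R : x0 ∈ locRing X m := le_locRing X m hx0X
  refine S34PX_ext N A K1 x0 hx0 X hX P (S34R_g N g • P) hrat (hnn x0 hx0R hx0ne)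
    (hnn' x0 hx0R hx0ne) ?_
  intro a ha ha0 hpos
  have haR : a ∈ locRing X m := le_locRing X m ha
  have h1 : ψ' ⟨a, haR⟩ = 0 := (hψ'0 ⟨a, haR⟩ ha0).mpr hpos
  rw [← hψeq] at h1
  exact (hψ0 ⟨a, haR⟩ ha0).mp h1

/-- **X-LOCGEN-B-FROB for a chart of a two-valuation setup.** -/
theorem S35DEEP_chart (V2 A0 Ainf : Subring (LaurentSeries K1))
    (S : S34C_Setup2 (S18K_O A K1) (S18K_π A K1) (S18K_j K1) (S18K_F1 K1 N) (S18K_V A K1 N) V2
      A0 Ainf)
    (x : LaurentSeries K1) (hx : x = S18K_j K1 ∨ x = (S18K_j K1)⁻¹)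
    (X : Subring (LaurentSeries K1))
    (hC : Chart (S18K_O A K1) (S18K_π A K1) x (S18K_F1 K1 N) (S18K_V A K1 N ⊓ V2) X) :
    S35DEEP_BranchB N A K1 hstab V2 X := by
  haveI hcz : CharZero (LaurentSeries K1) :=
    charZero_of_injective_algebraMap (algebraMap ℚ (LaurentSeries K1)).injective
  have S1 := S34CA_setup_of_setup2 S
  haveI hN : IsNoetherianRing X := S34CA_chart_noetherian S1 x hx X hC
  have hXF : ∀ a ∈ X, a ∈ S18K_F1 K1 N := fun a ha => ((hC.mem_iff a).1 ha).2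
  have hO : S18K_O A K1 ≤ X := Fermat.Agent.S34_helper2_HARTOGSK.S34HK_O_le S hC
  have hj0 : S18K_j K1 ≠ 0 := by
    intro h
    refine S.j_trans ?_
    rw [h]
    exact isAlgebraic_zero
  have hx0 : x ≠ 0 := by
    rcases hx with rfl | rfl
    · exact hj0
    · exact inv_ne_zero hj0
  have hxF : x ∈ S18K_F1 K1 N := by
    rcases hx with rfl | rfl
    · exact S.j_mem
    · exact (S18K_F1 K1 N).inv_mem S.j_mem
  have hxX : x ∈ X := by
    refine (hC.mem_iff x).2 ⟨?_, hxF⟩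
    have hmem : x ∈ adj (S18K_O A K1) x := Subring.subset_closure (Or.inr rfl)
    exact isIntegral_algebraMap (R := adj (S18K_O A K1) x) (A := LaurentSeries K1)
      (x := ⟨x, hmem⟩)
  have hfix : ∀ g : GQ, S34ACT_act K1 hstab g x = x := by
    intro g
    rcases hx with rfl | rfl
    · exact S34ACT_act_jq K1 hstab g
    · rw [map_inv₀]
      congr 1
      exact S34ACT_act_jq K1 hstab g
  have hgX : ∀ g : GQ, (∀ z ∈ A, g z ∈ A) → ∀ a ∈ X, S34ACT_act K1 hstab g a ∈ X := by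
    intro g hg a ha
    have h1 : a ∈ icl (adj (S18K_O A K1) x) (S18K_F1 K1 N) := (hC.mem_iff a).1 ha
    exact (hC.mem_iff _).2 (S34ACT_mem_icl K1 hstab A N g hg x (hfix g) h1)
  exact S35DEEP_fixed N A K1 hstab V2 X hXF hO x hx hxX hx0
    (fun y hy hyF => (hC.mem_iff y).2 ⟨hy, hyF⟩)
    (fun a ha => (hC.le_V ha).1) (fun a ha => (hC.le_V ha).2)
    S.V1_unif S.V2_unif S.V1_nonunit S.V2_nonunit hgX

end Fermat.Agent.S35_helper9_DEEP
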