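import Mathlib
import Fermat.Agent.S35_helper7_LOCGENU
import Fermat.Agent.S35_helper11_XCG
import Fermat.Agent.S35_helper9_DEEP
import Fermat.Agent.S34_helper19_PLACESAT
import Fermat.Agent.S34_helper17_VM
import Fermat.Agent.S34_helper26_ORDC
import Fermat.Agent.S34_helper4_XCROSSK

/-!
# S35, GEO (operator route): the crossing datum of `(s - 1) D` in the class `LU2` (helper7)

Step [LOCGEN''] + generic X-CROSS of GEO plan v1, for every chart `X` of a two-valuation setup at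
the S18K carriers: at a crossing point `m` of `X`, for a divisor `D` supported on `K1`-rational
places and a function `f`, a unit of `V1 ⊓ V2`, with `div f = n • (s D - D)`, there is
`g ∈ F1`, `g ≠ 0`, congruent to a unit of the local ring at `m` modulo `π V1` AND modulo `π V2`
(two possibly different units: the class `LU2`), with `f / g ^ n` a unit of the local ring at `m`.

Inputs which are NOT discharged here (they are the Frobenius inputs):

* `hsA`, `hsA'`, `hsV2'` : `s`, `s⁻¹` preserve `A`, and `s⁻¹` preserves `V2`;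
* `hCs`, `hCs'`         : `s` and `s⁻¹` preserve the centre `m` (CentredFrob);
* `hRedU`               : Red-Frob for `s - 1` in the class `LU2` (GEO-REDF1);
* `hNode`               : the node coordinates (landed for the finite chart: X-L2).

Discharged from main: Hartogs, `S34K_Vert`, `S34K_PlacesAt`, the value map, the exact orders, the
deep places (`S35DEEP_chart`), the generic X-CROSS (`S35XC_gen`).
-/

set_option autoImplicit false
set_option linter.unusedSectionVars false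
set_option linter.style.haveILetI false
set_option maxHeartbeats 1000000
set_option synthInstance.maxHeartbeats 400000

open AlgebraicCurve ModularCurve HahnSeries IntermediateField

noncomputable section

namespace Fermat.Agent.S35_helper7_CROSS2

open Fermat.Agent.S18_helper9_CDefs Fermat.Agent.S18_helper9_CBasic
  Fermat.Agent.S18_helper25_COREDefs
  Fermat.Agent.S34_helper12_CDefs Fermat.Agent.S34_helper6_RED Fermat.Agent.S34_helper5_K0
  Fermat.Agent.S18_helper3_LOCRING Fermat.Agent.S37_helper4_B1Defs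
  Fermat.Agent.S37_helper5_LEVEL Fermat.Agent.S34_Contracts Fermat.Agent.S34_helper21_ACT
  Fermat.Agent.S34_helper4_XCROSS Fermat.Agent.S34_helper27_C2ADAPT
  Fermat.Agent.S34_helper27_C2Defs Fermat.Agent.S34_helper2_HARTOGSK
  Fermat.Agent.S34_helper7_LGDefs Fermat.Agent.S35_helper7_LGFDefs
  Fermat.Agent.S35_helper7_LOCGENF Fermat.Agent.S35_helper7_LOCGENU
  Fermat.Agent.S35_helper11_XCG Fermat.Agent.S35_helper9_DEEP

local notation "Qb" => AlgebraicClosure ℚ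
local notation "GQ" => (AlgebraicClosure ℚ ≃ₐ[ℚ] AlgebraicClosure ℚ)

/-! ### The class `LU2` -/

section Class

variable {L : Type*} [Field L]

/-- `1 + π c` is a unit of a valuation ring with uniformiser `π`. -/
theorem S35X2_rad (π : L) (V : Subring L) (hπV : π ∈ V) (hnu : π⁻¹ ∉ V)
    (hunif : ∀ x ∈ V, x⁻¹ ∉ V → ∃ v ∈ V, x = π * v) :
    ∀ c ∈ V, (1 + π * c)⁻¹ ∈ V := by
  intro c hc
  by_contra h
  obtain ⟨v, hv, e⟩ := hunif _ (V.add_mem V.one_mem (V.mul_mem hπV hc)) h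
  apply hnu
  have h1 : π * (v - c) = 1 := by linear_combination -e
  have : π⁻¹ = v - c := inv_eq_of_mul_eq_one_right h1
  rw [this]
  exact V.sub_mem hv hc

/-- the class `LU2` at `m`: nonzero, congruent to a unit of the local ring at `m` modulo `π V1`
and modulo `π V2`. -/
def S35X2_LU2 (π : L) (V1 V2 X : Subring L) (m : Ideal X) [m.IsPrime] (z : L) : Prop :=
  z ≠ 0 ∧ S35LGK_LU π V1 X m z ∧ S35LGK_LU π V2 X m z

variable (π : L) (V1 V2 X : Subring L) (m : Ideal X) [m.IsPrime]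

/-- the four closure properties of the class `LU2` (the hypotheses `hU1 hUmul hUinv hUV` of the
generic X-CROSS). -/
theorem S35X2_class (hπ1 : π ∈ V1) (hπ2 : π ∈ V2) (hnu1 : π⁻¹ ∉ V1) (hnu2 : π⁻¹ ∉ V2)
    (hrad1 : ∀ c ∈ V1, (1 + π * c)⁻¹ ∈ V1) (hrad2 : ∀ c ∈ V2, (1 + π * c)⁻¹ ∈ V2)
    (hR1 : locRing X m ≤ V1) (hR2 : locRing X m ≤ V2) :
    S35X2_LU2 π V1 V2 X m 1 ∧
    (∀ a b : L, S35X2_LU2 π V1 V2 X m a → S35X2_LU2 π V1 V2 X m b →
      S35X2_LU2 π V1 V2 X m (a * b)) ∧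
    (∀ a : L, S35X2_LU2 π V1 V2 X m a → S35X2_LU2 π V1 V2 X m a⁻¹) ∧
    (∀ a : L, S35X2_LU2 π V1 V2 X m a →
      a ≠ 0 ∧ a ∈ (V1 ⊓ V2 : Subring L) ∧ a⁻¹ ∈ (V1 ⊓ V2 : Subring L)) := by
  obtain ⟨⟨_, a1⟩, a2, a3, a4⟩ := S35XC_LU_class (m := m) hπ1 hnu1 hrad1 hR1
  obtain ⟨⟨_, b1⟩, b2, b3, b4⟩ := S35XC_LU_class (m := m) hπ2 hnu2 hrad2 hR2
  refine ⟨⟨one_ne_zero, a1, b1⟩, ?_, ?_, ?_⟩
  · rintro a b ⟨ha0, ha1, ha2⟩ ⟨hb0, hb1, hb2⟩
    exact ⟨mul_ne_zero ha0 hb0, (a2 a b ⟨ha0, ha1⟩ ⟨hb0, hb1⟩).2,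
      (b2 a b ⟨ha0, ha2⟩ ⟨hb0, hb2⟩).2⟩
  · rintro a ⟨ha0, ha1, ha2⟩
    exact ⟨inv_ne_zero ha0, (a3 a ⟨ha0, ha1⟩).2, (b3 a ⟨ha0, ha2⟩).2⟩
  · rintro a ⟨ha0, ha1, ha2⟩
    obtain ⟨-, x1, x2⟩ := a4 a ⟨ha0, ha1⟩
    obtain ⟨-, y1, y2⟩ := b4 a ⟨ha0, ha2⟩
    exact ⟨ha0, ⟨x1, y1⟩, ⟨x2, y2⟩⟩

end Class

/-! ### The operator `s - 1` on divisors -/

section Op

variable (N : ℕ)

/-- the operator `s - 1` on divisors, as an additive map. -/
def S35X2_op (s : GQ) :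
    Divisor Qb (modularFunctionFieldBar N) →+ Divisor Qb (modularFunctionFieldBar N) :=
  S35XC_actDiv N s - AddMonoidHom.id _

theorem S35X2_op_apply (s : GQ) (D : Divisor Qb (modularFunctionFieldBar N)) :
    S35X2_op N s D = S34R_g N s • D - D := rfl

variable [NeZero N] (A : ValuationSubring Qb) (K1 : IntermediateField ℚ Qb)

/-- locality of `s - 1` at a centre preserved by `s⁻¹`. -/
theorem S35X2_loc (X : Subring (LaurentSeries K1)) (m : Ideal X) (s : GQ)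
    (hCs' : ∀ P : Place Qb (modularFunctionFieldBar N), S34K_Centred N A K1 X m P →
      S34K_Centred N A K1 X m (S34R_g N s⁻¹ • P))
    (P P' : Place Qb (modularFunctionFieldBar N))
    (hP' : S34K_Centred N A K1 X m P') (hP : ¬ S34K_Centred N A K1 X m P) :
    S35X2_op N s (Finsupp.single P 1) P' = 0 := by
  classical
  rw [S35X2_op_apply, Finsupp.sub_apply, SemilinearAut.smul_single]
  have e1 : S34R_g N s • P ≠ P' := by
    intro h
    apply hP
    have h1 := hCs' P' hP'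
    rwa [← h, S35LG_g_inv_smul] at h1
  have e2 : P ≠ P' := by
    intro h
    rw [← h] at hP'
    exact hP hP'
  rw [Finsupp.single_eq_of_ne' e1, Finsupp.single_eq_of_ne' e2, sub_zero]

end Op

/-! ### The crossing datum -/

section Main

variable (N : ℕ) [NeZero N] (A : ValuationSubring Qb) (K1 : IntermediateField ℚ Qb)
  (hstab : ∀ σ : GQ, ∀ x ∈ K1, σ x ∈ K1) [IsDiscreteValuationRing (S18K_O1 A K1)]

/-- **The crossing datum of `(s - 1) D` in the class `LU2`**, for a chart of a two-valuation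
setup. -/
theorem S35X2_cross_chart (V2 A0 Ainf : Subring (LaurentSeries K1))
    (S : S34C_Setup2 (S18K_O A K1) (S18K_π A K1) (S18K_j K1) (S18K_F1 K1 N) (S18K_V A K1 N) V2
      A0 Ainf)
    (x : LaurentSeries K1) (hx : x = S18K_j K1 ∨ x = (S18K_j K1)⁻¹)
    (X : Subring (LaurentSeries K1))
    (hC : Chart (S18K_O A K1) (S18K_π A K1) x (S18K_F1 K1 N) (S18K_V A K1 N ⊓ V2) X)
    (hNode : S34LGK_Node N A K1 hstab V2 X)
    (s : GQ) (hsA : ∀ a ∈ A, s a ∈ A) (hsA' : ∀ a ∈ A, s⁻¹ a ∈ A)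
    (hsV2' : ∀ a ∈ V2, S34ACT_act K1 hstab s⁻¹ a ∈ V2)
    (hπ : S18K_π A K1 ∈ X) (m : Ideal X) (hm : m.IsMaximal)
    (hπm : (⟨S18K_π A K1, hπ⟩ : X) ∈ m)
    (ht1 : S34K_Thru (S18K_π A K1) (S18K_V A K1 N) X m)
    (ht2 : S34K_Thru (S18K_π A K1) V2 X m)
    (hCs : ∀ P : Place Qb (modularFunctionFieldBar N),
      S34K_Centred N A K1 X m P → S34K_Centred N A K1 X m (S34R_g N s • P))
    (hCs' : ∀ P : Place Qb (modularFunctionFieldBar N),
      S34K_Centred N A K1 X m P → S34K_Centred N A K1 X m (S34R_g N s⁻¹ • P))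
    (hRedU : ∀ (ϖ : K1) (k : ℕ) (T S' c : LaurentSeries K1),
      (haveI := hm.isPrime; S34LGK_NodeData N A K1 hstab V2 X m ϖ k T S' c) →
      ∀ a ρ : K1, (a : Qb) ∈ A.nonunits → (ρ : Qb) ∈ A.nonunits → ϖ ^ k = a * ρ →
        (haveI := hm.isPrime
         S35LGK_LU (S18K_π A K1) (S18K_V A K1 N) X m
            (S34ACT_act K1 hstab s (T - HahnSeries.C a) * (T - HahnSeries.C a)⁻¹) ∧
          S35LGK_LU (S18K_π A K1) V2 X m
            (S34ACT_act K1 hstab s (T - HahnSeries.C a) * (T - HahnSeries.C a)⁻¹)) ∧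
        (haveI := hm.isPrime
         S35LGK_LU (S18K_π A K1) (S18K_V A K1 N) X m
            (S34ACT_act K1 hstab s (S' - HahnSeries.C a) * (S' - HahnSeries.C a)⁻¹) ∧
          S35LGK_LU (S18K_π A K1) V2 X m
            (S34ACT_act K1 hstab s (S' - HahnSeries.C a) * (S' - HahnSeries.C a)⁻¹)))
    (n : ℕ) (D : Divisor Qb (modularFunctionFieldBar N))
    (hD : ∀ P : Place Qb (modularFunctionFieldBar N), D P ≠ 0 → S37LEVEL_IsRational N K1 P)
    (f : LaurentSeries K1) (hf : f ∈ S18K_F1 K1 N) (hf0 : f ≠ 0)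
    (hfV : f ∈ (S18K_V A K1 N ⊓ V2 : Subring (LaurentSeries K1)))
    (hfV' : f⁻¹ ∈ (S18K_V A K1 N ⊓ V2 : Subring (LaurentSeries K1)))
    (hdiv : ∀ P : Place Qb (modularFunctionFieldBar N),
      S37B1_ordP N K1 P f = (n : ℤ) * (S34R_g N s • D - D) P) :
    haveI := hm.isPrime
    ∃ g ∈ S18K_F1 K1 N, g ≠ 0 ∧
      S35LGK_LU (S18K_π A K1) (S18K_V A K1 N) X m g ∧
      S35LGK_LU (S18K_π A K1) V2 X m g ∧
      (∀ P' : Place Qb (modularFunctionFieldBar N), S34K_Centred N A K1 X m P' →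
        S37B1_ordP N K1 P' g = (S34R_g N s • D - D) P') ∧
      f * (g ^ n)⁻¹ ∈ locRing X m ∧ (f * (g ^ n)⁻¹)⁻¹ ∈ locRing X m := by
  haveI := hm.isPrime
  haveI hcz : CharZero (LaurentSeries K1) :=
    charZero_of_injective_algebraMap (algebraMap ℚ (LaurentSeries K1)).injective
  have S1 := S34CA_setup_of_setup2 S
  have hOX : S18K_O A K1 ≤ X := S34C2_O_le (S34CA_setup S1) hC
  have hπV : S18K_π A K1 ∈ (S18K_V A K1 N ⊓ V2 : Subring (LaurentSeries K1)) :=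
    hC.le_V (hOX S.π_mem)
  have hN : IsNoetherianRing X := S34CA_chart_noetherian S1 x hx X hC
  have hXF : ∀ a ∈ X, a ∈ S18K_F1 K1 N := fun a ha => ((hC.mem_iff a).1 ha).2
  have hic : ∀ y ∈ S18K_F1 K1 N, IsIntegral X y → y ∈ X := by
    intro y hy hint
    exact (hC.mem_iff y).2 ⟨isIntegral_trans' (fun a ha => ((hC.mem_iff a).1 ha).1) hint, hy⟩
  have hfrac : ∀ y ∈ S18K_F1 K1 N, ∃ a b : X, b ≠ 0 ∧ y * (b : LaurentSeries K1) = a := by
    intro y hy
    obtain ⟨b, hb, hb0, hyb⟩ :=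
      Fermat.Agent.S18A.frac_of_finite (S18K_O A K1) (S18K_j K1) (S18K_F1 K1 N)
        S.O_le S.j_mem S.finite x hx y hy
    have hbX : b ∈ X := (hC.mem_iff b).2 hb
    have hybX : y * b ∈ X := (hC.mem_iff _).2 hyb
    exact ⟨⟨y * b, hybX⟩, ⟨b, hbX⟩, fun h => hb0 (congrArg Subtype.val h), rfl⟩
  have hV : S34K_Vert (S18K_π A K1) (S18K_V A K1 N) V2 X := S34HK_vert S x X hC
  have hPl : S34K_PlacesAt N A K1 X :=
    Fermat.Agent.S34_helper19_PLACESAT.S34PA_chart N A K1 S hC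
  have hVM : S34LGK_VM N A K1 X := Fermat.Agent.S34_helper17_VM.S34VM_chart N A K1 S hC
  have hOrd : S34LGK_Ord N A K1 hstab V2 X :=
    Fermat.Agent.S34_helper26_ORDC.S34LOC_ord_chart N A K1 hstab V2 A0 Ainf S x hx X hC
  have hDeep : S35DEEP_BranchB N A K1 hstab V2 X :=
    S35DEEP_chart N A K1 hstab V2 A0 Ainf S x hx X hC
  have hR1 : locRing X m ≤ S18K_V A K1 N :=
    S35DEEP_locRing_le (S18K_π A K1) (S18K_V A K1 N) X (fun a ha => (hC.le_V ha).1) S.V1_unif m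
      ht1
  have hR2 : locRing X m ≤ V2 :=
    S35DEEP_locRing_le (S18K_π A K1) V2 X (fun a ha => (hC.le_V ha).2) S.V2_unif m ht2
  obtain ⟨c1, c2, c3, c4⟩ := S35X2_class (S18K_π A K1) (S18K_V A K1 N) V2 X m hπV.1 hπV.2
    S.V1_nonunit S.V2_nonunit
    (S35X2_rad _ _ hπV.1 S.V1_nonunit S.V1_unif) (S35X2_rad _ _ hπV.2 S.V2_nonunit S.V2_unif)
    hR1 hR2
  have hdeep : ∀ P : Place Qb (modularFunctionFieldBar N), S37LEVEL_IsRational N K1 P →
      S34K_Centred N A K1 X m P →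
      (∀ n : ℕ, ∃ (ϖ : K1) (k : ℕ) (T S' c : LaurentSeries K1), n ≤ k ∧
        S34LGK_NodeData N A K1 hstab V2 X m ϖ k T S' c ∧ S34LGK_Deep N A K1 P ϖ k T S') →
      S34R_g N s • P = P := fun P hrat hcen hd =>
    hDeep hπ m hm hπm ht1 ht2 P hrat hcen hd s hsA hsA' hsV2' (hCs P hcen)
  have hLG : ∀ P : Place Qb (modularFunctionFieldBar N), D P ≠ 0 →
      S34K_Centred N A K1 X m P →
      ∃ g ∈ S18K_F1 K1 N, S35X2_LU2 (S18K_π A K1) (S18K_V A K1 N) V2 X m g ∧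
        ∀ P' : Place Qb (modularFunctionFieldBar N), S34K_Centred N A K1 X m P' →
          S37B1_ordP N K1 P' g = S35X2_op N s (Finsupp.single P 1) P' := by
    intro P hDP hcen
    obtain ⟨g, hgF, hg0, hgU, hgo⟩ := S35LGU_locGen1' N A K1 hstab s V2 X
      (fun y hy => hXF y hy) hOX hVM hNode hOrd hπ m hm hπm ht1 ht2 hCs' hdeep
      (fun z => S35LGK_LU (S18K_π A K1) (S18K_V A K1 N) X m z ∧
        S35LGK_LU (S18K_π A K1) V2 X m z)
      ⟨c1.2.1, c1.2.2⟩ hRedU P (hD P hDP) hcen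
    exact ⟨g, hgF, ⟨hg0, hgU.1, hgU.2⟩, hgo⟩
  obtain ⟨g, hgF, ⟨hg0, hg1, hg2⟩, hgo, hu, hu'⟩ := S35XC_gen N n A K1 V2 X hN hXF hfrac hic hV
    hPl (S35X2_op N s) (S35X2_LU2 (S18K_π A K1) (S18K_V A K1 N) V2 X m) c1 c2 c3 c4 hπ m hm hπm
    (fun P P' hP' hP => S35X2_loc N A K1 X m s hCs' P P' hP' hP) D hLG f hf hf0 hfV hfV' hdiv
  exact ⟨g, hgF, hg0, hg1, hg2, hgo, hu, hu'⟩

end Main

end Fermat.Agent.S35_helper7_CROSS2
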