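import Mathlib
import Fermat.Agent.S34_helper1_FROBCONG
import Fermat.Agent.S34_helper21_ACT
import Fermat.Agent.S34_helper5_INERT
import Fermat.Agent.S34_helper20_V0K
import Fermat.Agent.S34_helper14_N1SJ
import Fermat.Agent.S34_helper13_HJQM
import Fermat.Agent.S34_helper28_L2FROB
import Fermat.Agent.S34_Contracts

/-!
# S35, piece GEO-FC-CHART (helper8): the Frobenius congruences on the finite chart

Level `N = q N'`, `q ∤ N'`, `A` a valuation ring of `ℚ̄` over `q`, `K1` an admissible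
`G_ℚ`-stable level, `σ` a Frobenius element at `A`.  `V1 = S18K_V A K1 N` is the Gauss ring,
`V2 = S34V0K_V = w(V1)` the second valuation ring, `A0 = S18K_A0 A K1 N` the finite chart,
`Pinf = A0 ∩ π V1`, `P0 = A0 ∩ π V2` the two vertical primes.

* `S35FCC_stable_V1`, `S35FCC_stable_V2` : the decomposition group preserves `π V1`, `π V2`;
* `S35FCC_sq_level` : for `a` in the chart of level `N'`, with the explicit `b = w (σ a)`:
  `σ² a ≡ b ^ q mod π V2` and `b ^ q ≡ a ^ (q ^ 2) mod π V1`;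
* `S35FCC_sq`, `S35FCC_sq_vert` : `σ² y ≡ y ^ (q ^ 2) mod Pinf ⊔ P0` for every `y ∈ A0`;
* `S35FCC_cross`, `S35FCC_cross_inv` : every prime `m` of `A0` through both components is
  stable under `σ²`, and `σ²` is the `q²`-power map modulo `m`;
* `S35FCC_hAs`, `S35FCC_hm` : the hypotheses of helper21's `S34ACT_centred_smul` for `σ * σ`.
-/

set_option autoImplicit false
set_option linter.unusedSectionVars false
set_option linter.unusedVariables false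
set_option linter.style.haveILetI false
set_option synthInstance.maxHeartbeats 400000
set_option maxHeartbeats 1600000

open ModularCurve HahnSeries
open Fermat.Agent.S18_helper13_GAUSS Fermat.Agent.S18_helper9_CDefs
  Fermat.Agent.S18_helper25_COREDefs
  Fermat.Agent.S34_helper20_V0 Fermat.Agent.S34_helper20_V0K
  Fermat.Agent.S34_helper14_N1S Fermat.Agent.S34_helper14_N1K Fermat.Agent.S34_helper14_N1SJ
  Fermat.Agent.S34_helper14_N1T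
  Fermat.Agent.S34_helper21_ACT Fermat.Agent.S34_helper1_FROBCONG
  Fermat.Agent.S34_helper5_INERT Fermat.Agent.S34_helper5_K0
  Fermat.Agent.S34_helper12_CDefs Fermat.Agent.S34_Contracts Fermat.Agent.S34_helper27_V3K

noncomputable section

namespace Fermat.Agent.S35_helper8_FCCHART

local notation "Qb" => AlgebraicClosure ℚ
local notation "GQ" => (AlgebraicClosure ℚ ≃ₐ[ℚ] AlgebraicClosure ℚ)

variable (A : ValuationSubring Qb) (K1 : IntermediateField ℚ Qb)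
  (hstab : ∀ σ : GQ, ∀ x ∈ K1, σ x ∈ K1)

/-! ### Bookkeeping -/

/-- helper1's `Φ` is helper21's action. -/
theorem S35FCC_Phi_eq (σ : GQ) (x : LaurentSeries K1) :
    S34FC_Phi K1 σ (hstab σ) x = S34ACT_act K1 hstab σ x :=
  coeffMap_congr (RingHom.ext fun _ => rfl) x

/-- elements of the decomposition group preserve `A`, and so do their inverses. -/
theorem S35FCC_decomp (τ : GQ) (hτ : τ ∈ A.decompositionSubgroup ℚ) :
    (∀ a ∈ A, τ a ∈ A) ∧ (∀ a ∈ A, τ⁻¹ a ∈ A) :=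
  ⟨S34FC_decomp_mem A τ hτ, S34FC_decomp_mem A τ⁻¹ ((A.decompositionSubgroup ℚ).inv_mem hτ)⟩

section Comm

variable (q N' N : ℕ) [NeZero N'] [NeZero N] (hq : q.Prime) (hqN : ¬ q ∣ N') (hN : N = q * N')

/-- the Atkin–Lehner involution commutes with the Galois action. -/
theorem S35FCC_comm (τ : GQ) (x : LaurentSeries K1) :
    S34V0_wL (S34V0K_emb K1) q N' N hq hqN hN (S34ACT_act K1 hstab τ x) =
      S34ACT_act K1 hstab τ (S34V0_wL (S34V0K_emb K1) q N' N hq hqN hN x) := by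
  have h := S34IN_comm_wL (S34V0K_emb K1) q N' N hq hqN hN
    ((S34K0_restrict K1 hstab τ : K1 ≃ₐ[ℚ] K1).toRingEquiv : K1 ≃+* K1) x
  have e : ∀ y : LaurentSeries K1, S34ACT_act K1 hstab τ y =
      coeffMap (((S34K0_restrict K1 hstab τ : K1 ≃ₐ[ℚ] K1).toRingEquiv : K1 ≃+* K1) :
        K1 →+* K1) y := fun y => coeffMap_congr (RingHom.ext fun _ => rfl) y
  rw [e, e]
  exact h

end Comm

section Main

variable [IsDiscreteValuationRing (S18K_O1 A K1)]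

/-- the decomposition group multiplies `π` by a constant of `O`. -/
theorem S35FCC_pi (τ : GQ) (hτ : τ ∈ A.decompositionSubgroup ℚ) :
    ∃ e ∈ S18K_O A K1, S34ACT_act K1 hstab τ (S18K_π A K1) = S18K_π A K1 * e := by
  obtain ⟨hτA, hτA'⟩ := S35FCC_decomp A τ hτ
  have hπ : S18K_π A K1 = HahnSeries.C ((S18K_D A K1).inc (S18K_D A K1).π) := rfl
  have hϖ : ¬ IsUnit (S18K_D A K1).π := by
    have h0 : (S18K_D A K1).res (S18K_D A K1).π = 0 :=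
      ((S18K_D A K1).res_eq_zero_iff _).2 ⟨1, (mul_one _).symm⟩
    have h1 : S18K_res A K1 (S18K_D A K1).π = 0 := h0
    rw [S18K_res_eq_zero_iff, IsLocalRing.mem_maximalIdeal, mem_nonunits_iff] at h1
    exact h1
  have h1 : (S18K_D A K1).res (S34ACT_resO K1 hstab A τ hτA (S18K_D A K1).π) = 0 := by
    show S18K_res A K1 (S34ACT_resO K1 hstab A τ hτA (S18K_D A K1).π) = 0
    rw [S18K_res_eq_zero_iff, IsLocalRing.mem_maximalIdeal, mem_nonunits_iff]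
    intro hu
    apply hϖ
    have h2 := hu.map (S34ACT_resO K1 hstab A τ⁻¹ hτA')
    have e : S34ACT_resO K1 hstab A τ⁻¹ hτA' (S34ACT_resO K1 hstab A τ hτA (S18K_D A K1).π) =
        (S18K_D A K1).π := by
      apply Subtype.ext
      apply Subtype.ext
      show τ⁻¹ (τ _) = _
      exact τ.symm_apply_apply _
    rwa [e] at h2
  obtain ⟨y, hy⟩ := ((S18K_D A K1).res_eq_zero_iff _).1 h1
  refine ⟨HahnSeries.C ((S18K_D A K1).inc y), ?_, ?_⟩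
  · rw [S18K_mem_O]
    exact ⟨(S18K_D A K1).inc y, y.2, rfl⟩
  · rw [hπ, S34ACT_act_C, ← map_mul]
    congr 1
    have h3 := congrArg (S18K_D A K1).inc hy
    rw [map_mul] at h3
    rw [← h3]
    rfl

variable (q N' N : ℕ) [NeZero N'] [NeZero N] [NeZero q] (hq : q.Prime) (hqN : ¬ q ∣ N')
  (hN : N = q * N')

/-- the constants of `O` lie in both valuation rings. -/
theorem S35FCC_O_le (hA : A.LiesOverPrime q) {e : LaurentSeries K1} (he : e ∈ S18K_O A K1) :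
    e ∈ S18K_A0 A K1 N ∧ e ∈ S18K_V A K1 N ∧ e ∈ S34V0K_V A K1 q N' N hq hqN hN := by
  have S := Fermat.Agent.S34_helper13_P1C.S34P1C_setup2 A K1 q N' N hq hqN hN hA
  have h0 := S34N1T_O_le_A0 S he
  exact ⟨h0, (S.chart0.le_V h0).1, (S.chart0.le_V h0).2⟩

/-- the Galois action of an element preserving `A` preserves `V2 = w(V1)`. -/
theorem S35FCC_mem_V2 (τ : GQ) (hτA : ∀ a ∈ A, τ a ∈ A) {x : LaurentSeries K1}
    (hx : x ∈ S34V0K_V A K1 q N' N hq hqN hN) :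
    S34ACT_act K1 hstab τ x ∈ S34V0K_V A K1 q N' N hq hqN hN := by
  rw [S34V0K_mem_V] at hx ⊢
  refine ⟨S34ACT_mem_F1 K1 hstab N τ hx.1, ?_⟩
  rw [S35FCC_comm]
  exact S34ACT_mem_V K1 hstab A N τ hτA hx.2

include hq hqN hN in
/-- **(i)** the decomposition group preserves `π V1`. -/
theorem S35FCC_stable_V1 (hA : A.LiesOverPrime q) (τ : GQ)
    (hτ : τ ∈ A.decompositionSubgroup ℚ) :
    ∀ v ∈ S18K_V A K1 N, ∃ v' ∈ S18K_V A K1 N,
      S34ACT_act K1 hstab τ (S18K_π A K1 * v) = S18K_π A K1 * v' := by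
  intro v hv
  obtain ⟨e, he, hπe⟩ := S35FCC_pi A K1 hstab τ hτ
  refine ⟨e * S34ACT_act K1 hstab τ v,
    mul_mem (S35FCC_O_le A K1 q N' N hq hqN hN hA he).2.1
      (S34ACT_mem_V K1 hstab A N τ (S35FCC_decomp A τ hτ).1 hv), ?_⟩
  rw [map_mul, hπe, mul_assoc]

/-- **(i)** the decomposition group preserves `π V2`. -/
theorem S35FCC_stable_V2 (hA : A.LiesOverPrime q) (τ : GQ)
    (hτ : τ ∈ A.decompositionSubgroup ℚ) :
    ∀ v ∈ S34V0K_V A K1 q N' N hq hqN hN, ∃ v' ∈ S34V0K_V A K1 q N' N hq hqN hN,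
      S34ACT_act K1 hstab τ (S18K_π A K1 * v) = S18K_π A K1 * v' := by
  intro v hv
  obtain ⟨e, he, hπe⟩ := S35FCC_pi A K1 hstab τ hτ
  refine ⟨e * S34ACT_act K1 hstab τ v,
    mul_mem (S35FCC_O_le A K1 q N' N hq hqN hN hA he).2.2
      (S35FCC_mem_V2 A K1 hstab q N' N hq hqN hN τ (S35FCC_decomp A τ hτ).1 hv), ?_⟩
  rw [map_mul, hπe, mul_assoc]

/-! ### The two congruences on the Gauss ring of level `N'` -/

/-- a congruence modulo `π V` is preserved by powers. -/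
theorem S35FCC_pow_congr {L : Type*} [Field L] (π : L) (V : Subring L) {x y : L} (hx : x ∈ V)
    (hy : y ∈ V) (h : ∃ v ∈ V, x - y = π * v) (n : ℕ) :
    ∃ v ∈ V, x ^ n - y ^ n = π * v := by
  obtain ⟨v, hv, hxy⟩ := h
  obtain ⟨c, hc⟩ := sub_dvd_pow_sub_pow (⟨x, hx⟩ : V) ⟨y, hy⟩ n
  refine ⟨v * c, V.mul_mem hv c.2, ?_⟩
  have h1 := congrArg (Subtype.val : V → L) hc
  have h2 : x ^ n - y ^ n = (x - y) * (c : L) := h1
  rw [h2, hxy, mul_assoc]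

include hN in
/-- the chart of level `N'` is contained in the chart of level `N`. -/
theorem S35FCC_A0_le : S18K_A0 A K1 N' ≤ S18K_A0 A K1 N := by
  intro y hy
  obtain ⟨h1, h2⟩ := mem_icl.1 hy
  exact mem_icl.2 ⟨h1, S34V3K_F1_mono K1 (S34V0K_dvd hN) h2⟩

variable (σ : GQ)

/-- **(FC1)** `w (σ x) ≡ x ^ q mod π V1` for `x` in the Gauss ring of level `N'`. -/
theorem S35FCC_fc1 (hA : A.LiesOverPrime q) (hσ : A.IsFrobeniusAt σ q) :
    ∀ x ∈ S18K_V A K1 N', ∃ v ∈ S18K_V A K1 N,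
      S34V0_wL (S34V0K_emb K1) q N' N hq hqN hN (S34ACT_act K1 hstab σ x) - x ^ q =
        S18K_π A K1 * v := by
  intro x hx
  obtain ⟨y, hy, e⟩ := S34FC_cong A K1 q hq hA σ hσ (hstab σ) hx.1
  have hxF' : x ∈ modularFunctionFieldFullC K1 N' := hx.2
  have hxF : x ∈ modularFunctionFieldFullC K1 N := S34V3K_F1_mono K1 (S34V0K_dvd hN) hxF'
  have e1 : S34V0_wL (S34V0K_emb K1) q N' N hq hqN hN (S34ACT_act K1 hstab σ x) =
      S34FC_Phi K1 σ (hstab σ) (@qExpand K1 _ q ⟨hq.ne_zero⟩ x) := by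
    rw [S35FCC_comm, S34V0K_wL_level K1 q N' N hq hqN hN hxF', S35FCC_Phi_eq]
  rw [e1, e]
  refine ⟨y, S34V0K_div_mem A K1 N ?_ hy e, rfl⟩
  rw [← e1]
  exact sub_mem (S34V0_wL_mem (S34V0K_emb K1) q N' N hq hqN hN _) (pow_mem hxF q)

/-- **(FC2)** `σ x ≡ (w x) ^ q mod π V2` for `x` in the Gauss ring of level `N'`. -/
theorem S35FCC_fc2 (hA : A.LiesOverPrime q) (hσ : A.IsFrobeniusAt σ q) :
    ∀ x ∈ S18K_V A K1 N', ∃ v ∈ S34V0K_V A K1 q N' N hq hqN hN,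
      S34ACT_act K1 hstab σ x -
        (S34V0_wL (S34V0K_emb K1) q N' N hq hqN hN x) ^ q = S18K_π A K1 * v := by
  intro x hx
  obtain ⟨y, hy, e⟩ := S35FCC_fc1 A K1 hstab q N' N hq hqN hN σ hA hσ x hx
  have hxF' : x ∈ modularFunctionFieldFullC K1 N' := hx.2
  have hxF : x ∈ modularFunctionFieldFullC K1 N := S34V3K_F1_mono K1 (S34V0K_dvd hN) hxF'
  have hsxF : S34ACT_act K1 hstab σ x ∈ modularFunctionFieldFullC K1 N :=
    S34ACT_mem_F1 K1 hstab N σ hxF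
  have hyF : y ∈ modularFunctionFieldFullC K1 N := hy.2
  have hπF := S34N1K_pi_mem_F A K1 N
  refine ⟨S34V0_wL (S34V0K_emb K1) q N' N hq hqN hN y,
    S34V0_wL_mem_image (S34V0K_emb K1) q N' N hq hqN hN hyF hy, ?_⟩
  have h1 := congrArg (S34V0_wL (S34V0K_emb K1) q N' N hq hqN hN) e
  rw [sub_eq_add_neg, S34V0_wL_add (S34V0K_emb K1) q N' N hq hqN hN
      (S34V0_wL_mem (S34V0K_emb K1) q N' N hq hqN hN _) (neg_mem (pow_mem hxF q)),
    S34V0_wL_neg (S34V0K_emb K1) q N' N hq hqN hN (pow_mem hxF q),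
    S34V0_wL_wL (S34V0K_emb K1) q N' N hq hqN hN hsxF,
    S34V0_wL_pow (S34V0K_emb K1) q N' N hq hqN hN hxF,
    S34V0_wL_mul (S34V0K_emb K1) q N' N hq hqN hN hπF hyF,
    S34N1K_wL_pi A K1 q N' N hq hqN hN, ← sub_eq_add_neg] at h1
  exact h1

/-! ### The square of Frobenius on the charts -/

/-- **(ii)** level `N'`: with the explicit `b = w (σ a)` in the chart of level `N`,
`σ² a ≡ b ^ q mod π V2` and `b ^ q ≡ a ^ (q ^ 2) mod π V1`. -/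
theorem S35FCC_sq_level (hA : A.LiesOverPrime q) (hσ : A.IsFrobeniusAt σ q) :
    ∀ a ∈ S18K_A0 A K1 N',
      S34V0_wL (S34V0K_emb K1) q N' N hq hqN hN (S34ACT_act K1 hstab σ a) ∈ S18K_A0 A K1 N ∧
      (∃ v2 ∈ S34V0K_V A K1 q N' N hq hqN hN,
        S34ACT_act K1 hstab σ (S34ACT_act K1 hstab σ a) -
          (S34V0_wL (S34V0K_emb K1) q N' N hq hqN hN (S34ACT_act K1 hstab σ a)) ^ q =
            S18K_π A K1 * v2) ∧
      (∃ v1 ∈ S18K_V A K1 N,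
        (S34V0_wL (S34V0K_emb K1) q N' N hq hqN hN (S34ACT_act K1 hstab σ a)) ^ q -
          a ^ (q ^ 2) = S18K_π A K1 * v1) := by
  intro a ha
  have hσA := S34FC_frob_mem A σ q hσ
  have hjq := Fermat.Agent.S34_helper13_HJQM.S34HJQ_main A K1 q hq hA
  have S := Fermat.Agent.S34_helper13_P1C.S34P1C_setup2 A K1 q N' N hq hqN hN hA
  have haV' : a ∈ S18K_V A K1 N' :=
    ⟨Fermat.Agent.S34_helper28_L2FROB.S34L2F_A0_le_Vring A K1 hq hA N' hqN a ha,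
      (mem_icl.1 ha).2⟩
  have hsa : S34ACT_act K1 hstab σ a ∈ S18K_A0 A K1 N' := S34ACT_mem_A0 K1 hstab A N' σ hσA ha
  have hsaV' : S34ACT_act K1 hstab σ a ∈ S18K_V A K1 N' :=
    ⟨Fermat.Agent.S34_helper28_L2FROB.S34L2F_A0_le_Vring A K1 hq hA N' hqN _ hsa,
      (mem_icl.1 hsa).2⟩
  have hb : S34V0_wL (S34V0K_emb K1) q N' N hq hqN hN (S34ACT_act K1 hstab σ a) ∈
      S18K_A0 A K1 N :=
    S34N1K_wL_mem_A0 A K1 q N' N hq hqN hN hjq (S35FCC_A0_le A K1 q N' N hN hsa)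
  refine ⟨hb, S35FCC_fc2 A K1 hstab q N' N hq hqN hN σ hA hσ _ hsaV', ?_⟩
  have h1 := S35FCC_fc1 A K1 hstab q N' N hq hqN hN σ hA hσ a haV'
  have haq : a ^ q ∈ S18K_V A K1 N :=
    pow_mem (S34V3K_V_mono A K1 (S34V0K_dvd hN) haV') q
  have h2 := S35FCC_pow_congr (S18K_π A K1) (S18K_V A K1 N) (S.chart0.le_V hb).1 haq h1 q
  rw [← pow_mul, ← sq] at h2
  exact h2

/-- **(iii)** `σ² y ≡ y ^ (q ^ 2)` modulo `π V2 + π V1`, for every `y` in the chart of level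
`N = q N'`. -/
theorem S35FCC_sq (hA : A.LiesOverPrime q) (h : S18K_Admissible A K1 q)
    (hσ : A.IsFrobeniusAt σ q) :
    ∀ y ∈ S18K_A0 A K1 N, ∃ c ∈ S18K_A0 A K1 N,
      (∃ v2 ∈ S34V0K_V A K1 q N' N hq hqN hN,
        S34ACT_act K1 hstab σ (S34ACT_act K1 hstab σ y) - c = S18K_π A K1 * v2) ∧
      (∃ v1 ∈ S18K_V A K1 N, c - y ^ (q ^ 2) = S18K_π A K1 * v1) := by
  intro y hy
  have hσA := S34FC_frob_mem A σ q hσ
  have hdec : σ ∈ A.decompositionSubgroup ℚ := hσ.mem_decompositionSubgroup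
  have S := Fermat.Agent.S34_helper13_P1C.S34P1C_setup2 A K1 q N' N hq hqN hN hA
  obtain ⟨a, ha, v, hv, hyav⟩ := S34N1SJ_sf A K1 q N' N hq hqN hN hA h y hy
  obtain ⟨hb, ⟨v2, hv2, e2⟩, ⟨v1, hv1, e1⟩⟩ :=
    S35FCC_sq_level A K1 hstab q N' N hq hqN hN σ hA hσ a ha
  have haN : a ∈ S18K_A0 A K1 N := S35FCC_A0_le A K1 q N' N hN ha
  -- `σ² (π v) ∈ π V1`
  obtain ⟨w1, hw1, ew1⟩ := S35FCC_stable_V1 A K1 hstab q N' N hq hqN hN hA σ hdec v hv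
  obtain ⟨w2, hw2, ew2⟩ := S35FCC_stable_V1 A K1 hstab q N' N hq hqN hN hA σ hdec w1 hw1
  -- `a ^ (q ^ 2) - y ^ (q ^ 2) ∈ π V1`
  obtain ⟨w3, hw3, ew3⟩ := S35FCC_pow_congr (S18K_π A K1) (S18K_V A K1 N)
    (S.chart0.le_V hy).1 (S.chart0.le_V haN).1 ⟨v, hv, hyav⟩ (q ^ 2)
  have hss : ∀ z ∈ S18K_A0 A K1 N,
      S34ACT_act K1 hstab σ (S34ACT_act K1 hstab σ z) ∈ S18K_A0 A K1 N := fun z hz =>
    S34ACT_mem_A0 K1 hstab A N σ hσA (S34ACT_mem_A0 K1 hstab A N σ hσA hz)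
  have hy' : y = a + S18K_π A K1 * v := by rw [← hyav]; ring
  have hsy : S34ACT_act K1 hstab σ (S34ACT_act K1 hstab σ y) =
      S34ACT_act K1 hstab σ (S34ACT_act K1 hstab σ a) + S18K_π A K1 * w2 := by
    conv_lhs => rw [hy']
    rw [map_add, map_add, ew1, ew2]
  refine ⟨S34ACT_act K1 hstab σ (S34ACT_act K1 hstab σ y) -
      (S34ACT_act K1 hstab σ (S34ACT_act K1 hstab σ a) -
        (S34V0_wL (S34V0K_emb K1) q N' N hq hqN hN (S34ACT_act K1 hstab σ a)) ^ q), ?_, ?_, ?_⟩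
  · exact sub_mem (hss y hy) (sub_mem (hss a haN) (pow_mem hb q))
  · exact ⟨v2, hv2, by rw [← e2]; ring⟩
  · refine ⟨w2 + v1 - w3, sub_mem (add_mem hw2 hv1) hw3, ?_⟩
    rw [mul_sub, mul_add, ← e1, ← ew3, hsy]
    ring

/-- **(iii), packaged**: `σ² y - y ^ (q ^ 2) ∈ Pinf ⊔ P0` on the chart of level `N`. -/
theorem S35FCC_sq_vert (hA : A.LiesOverPrime q) (h : S18K_Admissible A K1 q)
    (hσ : A.IsFrobeniusAt σ q)
    (hAV1 : S18K_A0 A K1 N ≤ S18K_V A K1 N)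
    (hAV2 : S18K_A0 A K1 N ≤ S34V0K_V A K1 q N' N hq hqN hN) :
    ∀ y : ↥(S18K_A0 A K1 N),
      ∃ hy : S34ACT_act K1 hstab σ (S34ACT_act K1 hstab σ (y : LaurentSeries K1)) ∈
          S18K_A0 A K1 N,
        (⟨_, hy⟩ : ↥(S18K_A0 A K1 N)) - y ^ (q ^ 2) ∈
          S34N1S_vert (S18K_π A K1) (S18K_V A K1 N) (S18K_A0 A K1 N) hAV1 ⊔
            S34N1S_vert (S18K_π A K1) (S34V0K_V A K1 q N' N hq hqN hN) (S18K_A0 A K1 N)
              hAV2 := by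
  intro y
  have hσA := S34FC_frob_mem A σ q hσ
  have hy : S34ACT_act K1 hstab σ (S34ACT_act K1 hstab σ (y : LaurentSeries K1)) ∈
      S18K_A0 A K1 N :=
    S34ACT_mem_A0 K1 hstab A N σ hσA (S34ACT_mem_A0 K1 hstab A N σ hσA y.2)
  obtain ⟨c, hc, ⟨v2, hv2, e2⟩, ⟨v1, hv1, e1⟩⟩ :=
    S35FCC_sq A K1 hstab q N' N hq hqN hN σ hA h hσ (y : LaurentSeries K1) y.2
  refine ⟨hy, ?_⟩
  have e : (⟨_, hy⟩ : ↥(S18K_A0 A K1 N)) - y ^ (q ^ 2) =
      ((⟨c, hc⟩ : ↥(S18K_A0 A K1 N)) - y ^ (q ^ 2)) +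
        ((⟨_, hy⟩ : ↥(S18K_A0 A K1 N)) - ⟨c, hc⟩) := by ring
  rw [e]
  exact Submodule.add_mem_sup (show _ ∈ S34N1S_vert _ _ _ hAV1 from ⟨v1, hv1, e1⟩)
    (show _ ∈ S34N1S_vert _ _ _ hAV2 from ⟨v2, hv2, e2⟩)

/-- **(iv)** every prime `m` of the chart through both components of the special fibre (a
crossing point) is stable under `σ²`, and `σ²` is the `q²`-power map modulo `m`. -/
theorem S35FCC_cross (hA : A.LiesOverPrime q) (h : S18K_Admissible A K1 q)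
    (hσ : A.IsFrobeniusAt σ q) (m : Ideal ↥(S18K_A0 A K1 N)) [m.IsPrime]
    (h1 : S34K_Thru (S18K_π A K1) (S18K_V A K1 N) (S18K_A0 A K1 N) m)
    (h2 : S34K_Thru (S18K_π A K1) (S34V0K_V A K1 q N' N hq hqN hN) (S18K_A0 A K1 N) m)
    (y : ↥(S18K_A0 A K1 N)) :
    ∃ hy : S34ACT_act K1 hstab (σ * σ) (y : LaurentSeries K1) ∈ S18K_A0 A K1 N,
      ((⟨_, hy⟩ : ↥(S18K_A0 A K1 N)) - y ^ (q ^ 2) ∈ m) ∧
        ((⟨_, hy⟩ : ↥(S18K_A0 A K1 N)) ∈ m ↔ y ∈ m) := by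
  have hσA := S34FC_frob_mem A σ q hσ
  have hy : S34ACT_act K1 hstab (σ * σ) (y : LaurentSeries K1) ∈ S18K_A0 A K1 N := by
    rw [S34ACT_act_mul]
    exact S34ACT_mem_A0 K1 hstab A N σ hσA (S34ACT_mem_A0 K1 hstab A N σ hσA y.2)
  obtain ⟨c, hc, ⟨v2, hv2, e2⟩, ⟨v1, hv1, e1⟩⟩ :=
    S35FCC_sq A K1 hstab q N' N hq hqN hN σ hA h hσ (y : LaurentSeries K1) y.2
  rw [← S34ACT_act_mul] at e2
  have hd : (⟨_, hy⟩ : ↥(S18K_A0 A K1 N)) - y ^ (q ^ 2) ∈ m := by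
    have e : (⟨_, hy⟩ : ↥(S18K_A0 A K1 N)) - y ^ (q ^ 2) =
        ((⟨c, hc⟩ : ↥(S18K_A0 A K1 N)) - y ^ (q ^ 2)) +
          ((⟨_, hy⟩ : ↥(S18K_A0 A K1 N)) - ⟨c, hc⟩) := by ring
    rw [e]
    exact m.add_mem (h1 _ ⟨v1, hv1, e1⟩) (h2 _ ⟨v2, hv2, e2⟩)
  refine ⟨hy, hd, ?_, ?_⟩
  · intro hm
    have h3 : y ^ (q ^ 2) ∈ m := by
      have e : y ^ (q ^ 2) = (⟨_, hy⟩ : ↥(S18K_A0 A K1 N)) -
          ((⟨_, hy⟩ : ↥(S18K_A0 A K1 N)) - y ^ (q ^ 2)) := by ring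
      rw [e]
      exact m.sub_mem hm hd
    exact Ideal.IsPrime.mem_of_pow_mem inferInstance _ h3
  · intro hm
    have h3 : y ^ (q ^ 2) ∈ m :=
      Ideal.pow_mem_of_mem m hm _ (pow_pos hq.pos 2)
    have e : (⟨_, hy⟩ : ↥(S18K_A0 A K1 N)) =
        ((⟨_, hy⟩ : ↥(S18K_A0 A K1 N)) - y ^ (q ^ 2)) + y ^ (q ^ 2) := by ring
    rw [e]
    exact m.add_mem hd h3

/-- **(iv), inverse**: a crossing point is stable under `σ⁻²`. -/
theorem S35FCC_cross_inv (hA : A.LiesOverPrime q) (h : S18K_Admissible A K1 q)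
    (hσ : A.IsFrobeniusAt σ q) (m : Ideal ↥(S18K_A0 A K1 N)) [m.IsPrime]
    (h1 : S34K_Thru (S18K_π A K1) (S18K_V A K1 N) (S18K_A0 A K1 N) m)
    (h2 : S34K_Thru (S18K_π A K1) (S34V0K_V A K1 q N' N hq hqN hN) (S18K_A0 A K1 N) m)
    (y : ↥(S18K_A0 A K1 N)) :
    ∃ hy : S34ACT_act K1 hstab (σ * σ)⁻¹ (y : LaurentSeries K1) ∈ S18K_A0 A K1 N,
      ((⟨_, hy⟩ : ↥(S18K_A0 A K1 N)) ∈ m ↔ y ∈ m) := by
  have hdec : σ ∈ A.decompositionSubgroup ℚ := hσ.mem_decompositionSubgroup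
  have hdec2 : σ * σ ∈ A.decompositionSubgroup ℚ := (A.decompositionSubgroup ℚ).mul_mem hdec hdec
  have hy : S34ACT_act K1 hstab (σ * σ)⁻¹ (y : LaurentSeries K1) ∈ S18K_A0 A K1 N :=
    S34ACT_mem_A0 K1 hstab A N _ (S35FCC_decomp A _ hdec2).2 y.2
  obtain ⟨hz, -, hiff⟩ := S35FCC_cross A K1 hstab q N' N hq hqN hN σ hA h hσ m h1 h2 ⟨_, hy⟩
  refine ⟨hy, ?_⟩
  have e : (⟨S34ACT_act K1 hstab (σ * σ)
      ((⟨_, hy⟩ : ↥(S18K_A0 A K1 N)) : LaurentSeries K1), hz⟩ : ↥(S18K_A0 A K1 N)) = y :=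
    Subtype.ext (S34ACT_act_act_inv K1 hstab (σ * σ) _)
  rw [e] at hiff
  exact hiff.symm

/-- the hypothesis `hAs` of helper21's `S34ACT_centred_smul` for `s = σ * σ` (any element of the
decomposition group). -/
theorem S35FCC_hAs (τ : GQ) (hτ : τ ∈ A.decompositionSubgroup ℚ) :
    ∀ x ∈ S18K_A0 A K1 N, S34ACT_act K1 hstab τ⁻¹ x ∈ S18K_A0 A K1 N := fun x hx =>
  S34ACT_mem_A0 K1 hstab A N _ (S35FCC_decomp A _ hτ).2 hx

/-- the hypothesis `hm` of helper21's `S34ACT_centred_smul` for `s = σ * σ` at a crossing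
point. -/
theorem S35FCC_hm (hA : A.LiesOverPrime q) (h : S18K_Admissible A K1 q)
    (hσ : A.IsFrobeniusAt σ q) (m : Ideal ↥(S18K_A0 A K1 N)) [m.IsPrime]
    (h1 : S34K_Thru (S18K_π A K1) (S18K_V A K1 N) (S18K_A0 A K1 N) m)
    (h2 : S34K_Thru (S18K_π A K1) (S34V0K_V A K1 q N' N hq hqN hN) (S18K_A0 A K1 N) m) :
    ∀ a : ↥(S18K_A0 A K1 N), a ∈ m →
      ∃ ha : S34ACT_act K1 hstab (σ * σ) (a : LaurentSeries K1) ∈ S18K_A0 A K1 N,
        (⟨S34ACT_act K1 hstab (σ * σ) (a : LaurentSeries K1), ha⟩ : ↥(S18K_A0 A K1 N)) ∈ m := by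
  intro a ham
  obtain ⟨ha, -, hiff⟩ := S35FCC_cross A K1 hstab q N' N hq hqN hN σ hA h hσ m h1 h2 a
  exact ⟨ha, hiff.2 ham⟩

/-- the hypothesis `hm` of helper21's `S34ACT_centred_smul` for `s = (σ * σ)⁻¹` at a crossing
point. -/
theorem S35FCC_hm_inv (hA : A.LiesOverPrime q) (h : S18K_Admissible A K1 q)
    (hσ : A.IsFrobeniusAt σ q) (m : Ideal ↥(S18K_A0 A K1 N)) [m.IsPrime]
    (h1 : S34K_Thru (S18K_π A K1) (S18K_V A K1 N) (S18K_A0 A K1 N) m)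
    (h2 : S34K_Thru (S18K_π A K1) (S34V0K_V A K1 q N' N hq hqN hN) (S18K_A0 A K1 N) m) :
    ∀ a : ↥(S18K_A0 A K1 N), a ∈ m →
      ∃ ha : S34ACT_act K1 hstab (σ * σ)⁻¹ (a : LaurentSeries K1) ∈ S18K_A0 A K1 N,
        (⟨S34ACT_act K1 hstab (σ * σ)⁻¹ (a : LaurentSeries K1), ha⟩ :
          ↥(S18K_A0 A K1 N)) ∈ m := by
  intro a ham
  obtain ⟨ha, hiff⟩ := S35FCC_cross_inv A K1 hstab q N' N hq hqN hN σ hA h hσ m h1 h2 a
  exact ⟨ha, hiff.2 ham⟩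

end Main

end Fermat.Agent.S35_helper8_FCCHART
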