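import Mathlib
import Fermat.Agent.S35_helper9_DEEP
import Fermat.Agent.S34_helper27_P1C
import Fermat.Agent.S34_helper6_STEP1V2

/-!
# S35, GEO-DEEP (helper9): the concrete plug of branch (B) at level `N' * q`

* `S35DEEPK_decomp_mem`, `S35DEEPK_decomp_mem_inv` : the decomposition group preserves `A`;
* `S35DEEPK_V2_stable` : the coefficientwise action of every `g` preserving `A` preserves
  `V2 = w(V1)` (`w` commutes with the action on the coefficients);
* `S35DEEPK_A0`, `S35DEEPK_Ainf` : the contract `S35DEEP_BranchB` on the two `j`-charts of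
  level `N' * q`, for `V2 = S34P1C_V2`;
* `S35DEEPK_hdeep` : the hypothesis `hdeep` of helper7's `S35LGU_locGen1`, VERBATIM, for every
  `s` in the decomposition group of `A` which preserves the places centred at `m`
  (consumer: `s = σ * σ`, `σ` a Frobenius lift at `A`, with CentredFrob for `s`).
-/

set_option autoImplicit false
set_option linter.unusedSectionVars false
set_option linter.unusedVariables false
set_option linter.style.haveILetI false
set_option maxHeartbeats 1600000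
set_option synthInstance.maxHeartbeats 400000

open AlgebraicCurve ModularCurve HahnSeries IntermediateField
open Fermat.Agent.S18_helper13_GAUSS Fermat.Agent.S18_helper25_COREDefs
  Fermat.Agent.S18_helper9_CDefs Fermat.Agent.S34_helper12_CDefs
  Fermat.Agent.S18_helper3_LOCRING Fermat.Agent.S34_helper5_K0 Fermat.Agent.S34_helper21_ACT
  Fermat.Agent.S34_helper6_RED
  Fermat.Agent.S34_Contracts Fermat.Agent.S34_helper7_LGDefs
  Fermat.Agent.S37_helper4_B1Defs Fermat.Agent.S37_helper5_LEVEL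
  Fermat.Agent.S34_helper20_V0 Fermat.Agent.S34_helper20_V0K
  Fermat.Agent.S34_helper6_STEP1V2 Fermat.Agent.S34_helper27_P1C
  Fermat.Agent.S35_helper9_DEEP

noncomputable section

namespace Fermat.Agent.S35_helper9_DEEPK

local notation "Qb" => AlgebraicClosure ℚ
local notation "GQ" => (AlgebraicClosure ℚ ≃ₐ[ℚ] AlgebraicClosure ℚ)

variable (A : ValuationSubring Qb) (K1 : IntermediateField ℚ Qb)
  (hstab : ∀ σ : GQ, ∀ x ∈ K1, σ x ∈ K1)

open scoped Pointwise in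
/-- elements of the decomposition group preserve `A`. -/
theorem S35DEEPK_decomp_mem (g : GQ) (hg : g ∈ A.decompositionSubgroup ℚ) :
    ∀ a ∈ A, g a ∈ A := by
  intro a ha
  have h1 : g • A = A := hg
  have h2 : g • a ∈ g • A := ValuationSubring.smul_mem_pointwise_smul g a A ha
  rw [h1] at h2
  exact h2

/-- inverses of elements of the decomposition group preserve `A`. -/
theorem S35DEEPK_decomp_mem_inv (g : GQ) (hg : g ∈ A.decompositionSubgroup ℚ) :
    ∀ a ∈ A, g⁻¹ a ∈ A :=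
  S35DEEPK_decomp_mem A g⁻¹ ((A.decompositionSubgroup ℚ).inv_mem hg)

section V2

variable [IsDiscreteValuationRing (S18K_O1 A K1)]
  (q N' N : ℕ) [NeZero N'] [NeZero N] (hq : q.Prime) (hqN : ¬ q ∣ N') (hN : N = q * N')

/-- **`V2 = w(V1)` is stable** under the coefficientwise action of every `g` preserving `A`. -/
theorem S35DEEPK_V2_stable (g : GQ) (hg : ∀ x ∈ A, g x ∈ A) :
    ∀ a ∈ S34V0K_V A K1 q N' N hq hqN hN,
      S34ACT_act K1 hstab g a ∈ S34V0K_V A K1 q N' N hq hqN hN := by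
  intro a ha
  rw [S34V0K_mem_V] at ha ⊢
  refine ⟨S34ACT_mem_F1 K1 hstab N g ha.1, ?_⟩
  have h := S34S1V_wL_coeffMap (S34V0K_emb K1) q N' N hq hqN hN (S34ACT_res K1 hstab g)
    (S34ACT_res K1 hstab g⁻¹) (fun c => Subtype.ext (g.symm_apply_apply (c : Qb))) ha.1
  have e : S34ACT_act K1 hstab g a = coeffMap (S34ACT_res K1 hstab g) a := rfl
  rw [e, h]
  exact S34ACT_mem_V K1 hstab A N g hg ha.2

end V2

section Plug

variable (N : ℕ) [NeZero N] [IsDiscreteValuationRing (S18K_O1 A K1)]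

/-- **the hypothesis `hdeep` of the Frobenius local generator** from the contract
`S35DEEP_BranchB`. -/
theorem S35DEEPK_hdeep_of (V2 X : Subring (LaurentSeries K1))
    (hB : S35DEEP_BranchB N A K1 hstab V2 X)
    (s : GQ) (hs : ∀ x ∈ A, s x ∈ A) (hs' : ∀ x ∈ A, s⁻¹ x ∈ A)
    (hsV2 : ∀ a ∈ V2, S34ACT_act K1 hstab s⁻¹ a ∈ V2)
    (hπ : S18K_π A K1 ∈ X) (m : Ideal X) (hm : m.IsMaximal)
    (hπm : (⟨S18K_π A K1, hπ⟩ : X) ∈ m)
    (ht1 : S34K_Thru (S18K_π A K1) (S18K_V A K1 N) X m)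
    (ht2 : S34K_Thru (S18K_π A K1) V2 X m)
    (hCs : ∀ P : Place Qb (modularFunctionFieldBar N),
      S34K_Centred N A K1 X m P → S34K_Centred N A K1 X m (S34R_g N s • P)) :
    ∀ P : Place Qb (modularFunctionFieldBar N), S37LEVEL_IsRational N K1 P →
      S34K_Centred N A K1 X m P →
      (∀ n : ℕ, ∃ (ϖ : K1) (k : ℕ) (T S c : LaurentSeries K1), n ≤ k ∧
        (haveI := hm.isPrime; S34LGK_NodeData N A K1 hstab V2 X m ϖ k T S c) ∧
        S34LGK_Deep N A K1 P ϖ k T S) →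
      S34R_g N s • P = P :=
  fun P hrat hcen hd =>
    hB hπ m hm hπm ht1 ht2 P hrat hcen hd s hs hs' hsV2 (hCs P hcen)

end Plug

section Level

variable [IsDiscreteValuationRing (S18K_O1 A K1)]

/-- **X-LOCGEN-B-FROB on the finite chart** of level `N' * q`. -/
theorem S35DEEPK_A0 {q : ℕ} (hq : q.Prime) (hA : A.LiesOverPrime q) (N' : ℕ)
    [NeZero N'] [NeZero (N' * q)] (hqN : ¬ q ∣ N') :
    S35DEEP_BranchB (N' * q) A K1 hstab (S34P1C_V2 A K1 hq N' hqN) (S18K_A0 A K1 (N' * q)) :=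
  S35DEEP_chart (N' * q) A K1 hstab _ _ _ (S34P1C_setup2 A K1 hq hA N' hqN) _ (Or.inl rfl) _
    (S34P1C_setup2 A K1 hq hA N' hqN).chart0

/-- **X-LOCGEN-B-FROB on the chart at infinity** of level `N' * q`. -/
theorem S35DEEPK_Ainf {q : ℕ} (hq : q.Prime) (hA : A.LiesOverPrime q) (N' : ℕ)
    [NeZero N'] [NeZero (N' * q)] (hqN : ¬ q ∣ N') :
    S35DEEP_BranchB (N' * q) A K1 hstab (S34P1C_V2 A K1 hq N' hqN) (S18K_Ainf A K1 (N' * q)) :=
  S35DEEP_chart (N' * q) A K1 hstab _ _ _ (S34P1C_setup2 A K1 hq hA N' hqN) _ (Or.inr rfl) _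
    (S34P1C_setup2 A K1 hq hA N' hqN).chartInf

/-- **`hdeep` of helper7's `S35LGU_locGen1`, VERBATIM, on the finite chart**: for `s` in the
decomposition group of `A` preserving the places centred at the crossing point `m`. -/
theorem S35DEEPK_hdeep {q : ℕ} (hq : q.Prime) (hA : A.LiesOverPrime q) (N' : ℕ)
    [NeZero N'] [NeZero (N' * q)] (hqN : ¬ q ∣ N')
    (s : GQ) (hs : s ∈ A.decompositionSubgroup ℚ)
    (hπ : S18K_π A K1 ∈ S18K_A0 A K1 (N' * q)) (m : Ideal (S18K_A0 A K1 (N' * q)))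
    (hm : m.IsMaximal) (hπm : (⟨S18K_π A K1, hπ⟩ : S18K_A0 A K1 (N' * q)) ∈ m)
    (ht1 : S34K_Thru (S18K_π A K1) (S18K_V A K1 (N' * q)) (S18K_A0 A K1 (N' * q)) m)
    (ht2 : S34K_Thru (S18K_π A K1) (S34P1C_V2 A K1 hq N' hqN) (S18K_A0 A K1 (N' * q)) m)
    (hCs : ∀ P : Place Qb (modularFunctionFieldBar (N' * q)),
      S34K_Centred (N' * q) A K1 (S18K_A0 A K1 (N' * q)) m P →
      S34K_Centred (N' * q) A K1 (S18K_A0 A K1 (N' * q)) m (S34R_g (N' * q) s • P)) :
    ∀ P : Place Qb (modularFunctionFieldBar (N' * q)), S37LEVEL_IsRational (N' * q) K1 P →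
      S34K_Centred (N' * q) A K1 (S18K_A0 A K1 (N' * q)) m P →
      (∀ n : ℕ, ∃ (ϖ : K1) (k : ℕ) (T S c : LaurentSeries K1), n ≤ k ∧
        (haveI := hm.isPrime; S34LGK_NodeData (N' * q) A K1 hstab (S34P1C_V2 A K1 hq N' hqN)
          (S18K_A0 A K1 (N' * q)) m ϖ k T S c) ∧
        S34LGK_Deep (N' * q) A K1 P ϖ k T S) →
      S34R_g (N' * q) s • P = P := by
  haveI : NeZero q := ⟨hq.ne_zero⟩
  exact S35DEEPK_hdeep_of A K1 hstab (N' * q) _ _ (S35DEEPK_A0 A K1 hstab hq hA N' hqN) s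
    (S35DEEPK_decomp_mem A s hs) (S35DEEPK_decomp_mem_inv A s hs)
    (S35DEEPK_V2_stable A K1 hstab q N' (N' * q) hq hqN (Nat.mul_comm N' q) s⁻¹
      (S35DEEPK_decomp_mem_inv A s hs))
    hπ m hm hπm ht1 ht2 hCs

/-- the same on the chart at infinity. -/
theorem S35DEEPK_hdeep_inf {q : ℕ} (hq : q.Prime) (hA : A.LiesOverPrime q) (N' : ℕ)
    [NeZero N'] [NeZero (N' * q)] (hqN : ¬ q ∣ N')
    (s : GQ) (hs : s ∈ A.decompositionSubgroup ℚ)
    (hπ : S18K_π A K1 ∈ S18K_Ainf A K1 (N' * q)) (m : Ideal (S18K_Ainf A K1 (N' * q)))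
    (hm : m.IsMaximal) (hπm : (⟨S18K_π A K1, hπ⟩ : S18K_Ainf A K1 (N' * q)) ∈ m)
    (ht1 : S34K_Thru (S18K_π A K1) (S18K_V A K1 (N' * q)) (S18K_Ainf A K1 (N' * q)) m)
    (ht2 : S34K_Thru (S18K_π A K1) (S34P1C_V2 A K1 hq N' hqN) (S18K_Ainf A K1 (N' * q)) m)
    (hCs : ∀ P : Place Qb (modularFunctionFieldBar (N' * q)),
      S34K_Centred (N' * q) A K1 (S18K_Ainf A K1 (N' * q)) m P →
      S34K_Centred (N' * q) A K1 (S18K_Ainf A K1 (N' * q)) m (S34R_g (N' * q) s • P)) :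
    ∀ P : Place Qb (modularFunctionFieldBar (N' * q)), S37LEVEL_IsRational (N' * q) K1 P →
      S34K_Centred (N' * q) A K1 (S18K_Ainf A K1 (N' * q)) m P →
      (∀ n : ℕ, ∃ (ϖ : K1) (k : ℕ) (T S c : LaurentSeries K1), n ≤ k ∧
        (haveI := hm.isPrime; S34LGK_NodeData (N' * q) A K1 hstab (S34P1C_V2 A K1 hq N' hqN)
          (S18K_Ainf A K1 (N' * q)) m ϖ k T S c) ∧
        S34LGK_Deep (N' * q) A K1 P ϖ k T S) →
      S34R_g (N' * q) s • P = P := by
  haveI : NeZero q := ⟨hq.ne_zero⟩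
  exact S35DEEPK_hdeep_of A K1 hstab (N' * q) _ _ (S35DEEPK_Ainf A K1 hstab hq hA N' hqN) s
    (S35DEEPK_decomp_mem A s hs) (S35DEEPK_decomp_mem_inv A s hs)
    (S35DEEPK_V2_stable A K1 hstab q N' (N' * q) hq hqN (Nat.mul_comm N' q) s⁻¹
      (S35DEEPK_decomp_mem_inv A s hs))
    hπ m hm hπm ht1 ht2 hCs

end Level

end Fermat.Agent.S35_helper9_DEEPK
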