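import Mathlib
import Fermat.Agent.S35_helper7_CROSS2
import Fermat.Agent.S35_helper8_FCCHART
import Fermat.Agent.S35_helper9_DEEPK
import Fermat.Agent.S34_helper28_L2T
import Fermat.Agent.S34_helper27_P1C

/-!
# S35, GEO (operator route): CentredFrob and the crossing datum on the finite chart (helper7)

* `S35X2K_centred`     : **CentredFrob, generic form**: if `s`, `s⁻¹` preserve `A`, `s⁻¹`
  preserves the chart `X` and the maximal ideal `m` (`s⁻¹ a ∈ m ↔ a ∈ m`), then `s` maps the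
  places centred at `m` to places centred at `m` (contract form `S34K_Centred`);
* `S35X2K_centred_sq`, `S35X2K_centred_sq_inv` : the instances `s = σ * σ`, `s = (σ * σ)⁻¹` for a
  Frobenius element `σ` at `A`, at a crossing point `m` of the finite chart of level `N' * q`
  (from helper8's `S35FCC_cross`, `S35FCC_cross_inv`);
* `S35X2K_cross_A0`    : the crossing datum of `(σ² - 1) D` in the class `LU2` on the finite
  chart, with ONE open input: Red-Frob `hRedU` (GEO-REDF1).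
-/

set_option autoImplicit false
set_option linter.unusedSectionVars false
set_option linter.style.haveILetI false
set_option maxHeartbeats 1000000
set_option synthInstance.maxHeartbeats 400000

open AlgebraicCurve ModularCurve HahnSeries IntermediateField

noncomputable section

namespace Fermat.Agent.S35_helper7_CROSS2K

open Fermat.Agent.S18_helper9_CDefs Fermat.Agent.S18_helper25_COREDefs
  Fermat.Agent.S34_helper12_CDefs Fermat.Agent.S34_helper6_RED Fermat.Agent.S34_helper5_K0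
  Fermat.Agent.S18_helper3_LOCRING Fermat.Agent.S37_helper4_B1Defs
  Fermat.Agent.S37_helper5_LEVEL Fermat.Agent.S34_Contracts Fermat.Agent.S34_helper21_ACT
  Fermat.Agent.S34_helper21_CI Fermat.Agent.S34_helper20_V0K
  Fermat.Agent.S34_helper7_LGDefs Fermat.Agent.S35_helper7_LGFDefs
  Fermat.Agent.S35_helper7_LOCGENF Fermat.Agent.S35_helper7_CROSS2
  Fermat.Agent.S35_helper8_FCCHART Fermat.Agent.S35_helper9_DEEPK
  Fermat.Agent.S34_helper27_P1C

local notation "Qb" => AlgebraicClosure ℚ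
local notation "GQ" => (AlgebraicClosure ℚ ≃ₐ[ℚ] AlgebraicClosure ℚ)

/-! ### Nonunits of `A` under an automorphism preserving `A` -/

section Nonunits

variable (A : ValuationSubring Qb)

theorem S35X2K_mem_nonunits_iff (x : Qb) : x ∈ A.nonunits ↔ (x = 0 ∨ x⁻¹ ∉ A) := by
  rw [ValuationSubring.mem_nonunits_iff]
  by_cases hx : x = 0
  · simp [hx]
  · have hv : A.valuation x ≠ 0 := (Valuation.ne_zero_iff _).2 hx
    have hpos : 0 < A.valuation x := zero_lt_iff.2 hv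
    rw [← A.valuation_le_one_iff, map_inv₀, inv_le_one₀ hpos]
    constructor
    · intro h
      exact Or.inr (not_le.2 h)
    · rintro (h | h)
      · exact absurd h hx
      · exact not_le.1 h

/-- an automorphism `s` with inverse `t`, both preserving `A`, preserves the nonunits. -/
theorem S35X2K_nonunits (s t : GQ) (hts : ∀ x : Qb, t (s x) = x)
    (hsA : ∀ c ∈ A, s c ∈ A) (htA : ∀ c ∈ A, t c ∈ A) (c : Qb) :
    s c ∈ A.nonunits ↔ c ∈ A.nonunits := by
  rw [S35X2K_mem_nonunits_iff, S35X2K_mem_nonunits_iff]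
  have e0 : s c = 0 ↔ c = 0 := by
    constructor
    · intro h
      have := congrArg t h
      rwa [hts, map_zero] at this
    · intro h
      rw [h, map_zero]
  have e1 : (s c)⁻¹ ∈ A ↔ c⁻¹ ∈ A := by
    rw [← map_inv₀]
    constructor
    · intro h
      have := htA _ h
      rwa [hts] at this
    · intro h
      exact hsA _ h
  rw [e0, e1]

end Nonunits

/-! ### CentredFrob, generic form -/

section Centred

variable (N : ℕ) [NeZero N] (A : ValuationSubring Qb) (K1 : IntermediateField ℚ Qb)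
  (hstab : ∀ σ : GQ, ∀ x ∈ K1, σ x ∈ K1) [IsDiscreteValuationRing (S18K_O1 A K1)]

/-- **CentredFrob, generic form.** -/
theorem S35X2K_centred (s t : GQ) (ht : t = s⁻¹)
    (hsA : ∀ c ∈ A, s c ∈ A) (htA : ∀ c ∈ A, t c ∈ A)
    (X : Subring (LaurentSeries K1)) (htX : ∀ a ∈ X, S34ACT_act K1 hstab t a ∈ X)
    (m : Ideal X)
    (htm : ∀ a : X, ((⟨S34ACT_act K1 hstab t (a : LaurentSeries K1), htX a a.2⟩ : X) ∈ m ↔
      a ∈ m))
    (P : Place Qb (modularFunctionFieldBar N)) (hP : S34K_Centred N A K1 X m P) :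
    S34K_Centred N A K1 X m (S34R_g N s • P) := by
  subst ht
  refine ⟨fun a => ?_, fun a c hc hval => ?_⟩
  · obtain ⟨c', hc', hval'⟩ := hP.1 ⟨S34ACT_act K1 hstab s⁻¹ (a : LaurentSeries K1),
      htX a a.2⟩
    refine ⟨s c', hsA c' hc', ?_⟩
    have := S34CI_valueAt N K1 hstab s P hval'
    rwa [S34ACT_act_act_inv] at this
  · have hval' := S34CI_valueAt' N K1 hstab s P hval
    have hc' : s⁻¹ c ∈ A := htA c hc
    have key := hP.2 ⟨S34ACT_act K1 hstab s⁻¹ (a : LaurentSeries K1), htX a a.2⟩ (s⁻¹ c) hc'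
      hval'
    have hnu : s⁻¹ c ∈ A.nonunits ↔ c ∈ A.nonunits :=
      S35X2K_nonunits A s⁻¹ s (fun x => s.apply_symm_apply x) htA hsA c
    rw [← htm a, key, hnu]

end Centred

/-! ### The finite chart of level `N' * q` -/

section Level

variable (A : ValuationSubring Qb) (K1 : IntermediateField ℚ Qb)
  (hstab : ∀ σ : GQ, ∀ x ∈ K1, σ x ∈ K1) [IsDiscreteValuationRing (S18K_O1 A K1)]
  {q : ℕ} (hq : q.Prime) (hA : A.LiesOverPrime q) (h : S18K_Admissible A K1 q)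
  (N' : ℕ) [NeZero N'] [NeZero (N' * q)] (hqN : ¬ q ∣ N')
  (σ : GQ) (hσ : A.IsFrobeniusAt σ q)

include hstab hq hA h hσ in
/-- **CentredFrob for `σ²`** at a crossing point of the finite chart. -/
theorem S35X2K_centred_sq (m : Ideal (S18K_A0 A K1 (N' * q))) [m.IsPrime]
    (ht1 : S34K_Thru (S18K_π A K1) (S18K_V A K1 (N' * q)) (S18K_A0 A K1 (N' * q)) m)
    (ht2 : S34K_Thru (S18K_π A K1) (S34P1C_V2 A K1 hq N' hqN) (S18K_A0 A K1 (N' * q)) m)
    (P : Place Qb (modularFunctionFieldBar (N' * q)))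
    (hP : S34K_Centred (N' * q) A K1 (S18K_A0 A K1 (N' * q)) m P) :
    S34K_Centred (N' * q) A K1 (S18K_A0 A K1 (N' * q)) m (S34R_g (N' * q) (σ * σ) • P) := by
  haveI : NeZero q := ⟨hq.ne_zero⟩
  have hdec : σ ∈ A.decompositionSubgroup ℚ := hσ.mem_decompositionSubgroup
  have hdec2 : σ * σ ∈ A.decompositionSubgroup ℚ :=
    (A.decompositionSubgroup ℚ).mul_mem hdec hdec
  have htX : ∀ a ∈ S18K_A0 A K1 (N' * q),
      S34ACT_act K1 hstab (σ * σ)⁻¹ a ∈ S18K_A0 A K1 (N' * q) :=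
    S35FCC_hAs A K1 hstab (N' * q) (σ * σ) hdec2
  refine S35X2K_centred (N' * q) A K1 hstab (σ * σ) (σ * σ)⁻¹ rfl
    (S35DEEPK_decomp_mem A _ hdec2) (S35DEEPK_decomp_mem_inv A _ hdec2) _ htX m ?_ P hP
  intro a
  obtain ⟨hy, hiff⟩ := S35FCC_cross_inv A K1 hstab q N' (N' * q) hq hqN (Nat.mul_comm N' q) σ hA
    h hσ m ht1 ht2 a
  exact hiff

include hstab hq hA h hσ in
/-- **CentredFrob for `σ⁻²`** at a crossing point of the finite chart. -/
theorem S35X2K_centred_sq_inv (m : Ideal (S18K_A0 A K1 (N' * q))) [m.IsPrime]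
    (ht1 : S34K_Thru (S18K_π A K1) (S18K_V A K1 (N' * q)) (S18K_A0 A K1 (N' * q)) m)
    (ht2 : S34K_Thru (S18K_π A K1) (S34P1C_V2 A K1 hq N' hqN) (S18K_A0 A K1 (N' * q)) m)
    (P : Place Qb (modularFunctionFieldBar (N' * q)))
    (hP : S34K_Centred (N' * q) A K1 (S18K_A0 A K1 (N' * q)) m P) :
    S34K_Centred (N' * q) A K1 (S18K_A0 A K1 (N' * q)) m
      (S34R_g (N' * q) (σ * σ)⁻¹ • P) := by
  haveI : NeZero q := ⟨hq.ne_zero⟩
  have hdec : σ ∈ A.decompositionSubgroup ℚ := hσ.mem_decompositionSubgroup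
  have hdec2 : σ * σ ∈ A.decompositionSubgroup ℚ :=
    (A.decompositionSubgroup ℚ).mul_mem hdec hdec
  have hσA := S35DEEPK_decomp_mem A _ hdec
  have htX : ∀ a ∈ S18K_A0 A K1 (N' * q),
      S34ACT_act K1 hstab (σ * σ) a ∈ S18K_A0 A K1 (N' * q) := by
    intro a ha
    rw [S34ACT_act_mul]
    exact S34ACT_mem_A0 K1 hstab A (N' * q) σ hσA (S34ACT_mem_A0 K1 hstab A (N' * q) σ hσA ha)
  refine S35X2K_centred (N' * q) A K1 hstab (σ * σ)⁻¹ (σ * σ) (inv_inv _).symm
    (S35DEEPK_decomp_mem_inv A _ hdec2) (S35DEEPK_decomp_mem A _ hdec2) _ htX m ?_ P hP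
  intro a
  obtain ⟨hy, -, hiff⟩ := S35FCC_cross A K1 hstab q N' (N' * q) hq hqN (Nat.mul_comm N' q) σ hA
    h hσ m ht1 ht2 a
  exact hiff

include hA h hσ in
/-- **The crossing datum of `(σ² - 1) D` in the class `LU2` on the finite chart** of level
`N' * q`, at a crossing point `m`; the only open input is Red-Frob (`hRedU`). -/
theorem S35X2K_cross_A0
    (hπ : S18K_π A K1 ∈ S18K_A0 A K1 (N' * q)) (m : Ideal (S18K_A0 A K1 (N' * q)))
    (hm : m.IsMaximal) (hπm : (⟨S18K_π A K1, hπ⟩ : S18K_A0 A K1 (N' * q)) ∈ m)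
    (ht1 : S34K_Thru (S18K_π A K1) (S18K_V A K1 (N' * q)) (S18K_A0 A K1 (N' * q)) m)
    (ht2 : S34K_Thru (S18K_π A K1) (S34P1C_V2 A K1 hq N' hqN) (S18K_A0 A K1 (N' * q)) m)
    (hRedU : ∀ (ϖ : K1) (k : ℕ) (T S' c : LaurentSeries K1),
      (haveI := hm.isPrime; S34LGK_NodeData (N' * q) A K1 hstab (S34P1C_V2 A K1 hq N' hqN)
        (S18K_A0 A K1 (N' * q)) m ϖ k T S' c) →
      ∀ a ρ : K1, (a : Qb) ∈ A.nonunits → (ρ : Qb) ∈ A.nonunits → ϖ ^ k = a * ρ →
        (haveI := hm.isPrime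
         S35LGK_LU (S18K_π A K1) (S18K_V A K1 (N' * q)) (S18K_A0 A K1 (N' * q)) m
            (S34ACT_act K1 hstab (σ * σ) (T - HahnSeries.C a) * (T - HahnSeries.C a)⁻¹) ∧
          S35LGK_LU (S18K_π A K1) (S34P1C_V2 A K1 hq N' hqN) (S18K_A0 A K1 (N' * q)) m
            (S34ACT_act K1 hstab (σ * σ) (T - HahnSeries.C a) * (T - HahnSeries.C a)⁻¹)) ∧
        (haveI := hm.isPrime
         S35LGK_LU (S18K_π A K1) (S18K_V A K1 (N' * q)) (S18K_A0 A K1 (N' * q)) m
            (S34ACT_act K1 hstab (σ * σ) (S' - HahnSeries.C a) * (S' - HahnSeries.C a)⁻¹) ∧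
          S35LGK_LU (S18K_π A K1) (S34P1C_V2 A K1 hq N' hqN) (S18K_A0 A K1 (N' * q)) m
            (S34ACT_act K1 hstab (σ * σ) (S' - HahnSeries.C a) * (S' - HahnSeries.C a)⁻¹)))
    (n : ℕ) (D : Divisor Qb (modularFunctionFieldBar (N' * q)))
    (hD : ∀ P : Place Qb (modularFunctionFieldBar (N' * q)), D P ≠ 0 →
      S37LEVEL_IsRational (N' * q) K1 P)
    (f : LaurentSeries K1) (hf : f ∈ S18K_F1 K1 (N' * q)) (hf0 : f ≠ 0)
    (hfV : f ∈ (S18K_V A K1 (N' * q) ⊓ S34P1C_V2 A K1 hq N' hqN :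
      Subring (LaurentSeries K1)))
    (hfV' : f⁻¹ ∈ (S18K_V A K1 (N' * q) ⊓ S34P1C_V2 A K1 hq N' hqN :
      Subring (LaurentSeries K1)))
    (hdiv : ∀ P : Place Qb (modularFunctionFieldBar (N' * q)),
      S37B1_ordP (N' * q) K1 P f = (n : ℤ) * (S34R_g (N' * q) (σ * σ) • D - D) P) :
    haveI := hm.isPrime
    ∃ g ∈ S18K_F1 K1 (N' * q), g ≠ 0 ∧
      S35LGK_LU (S18K_π A K1) (S18K_V A K1 (N' * q)) (S18K_A0 A K1 (N' * q)) m g ∧
      S35LGK_LU (S18K_π A K1) (S34P1C_V2 A K1 hq N' hqN) (S18K_A0 A K1 (N' * q)) m g ∧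
      (∀ P' : Place Qb (modularFunctionFieldBar (N' * q)),
        S34K_Centred (N' * q) A K1 (S18K_A0 A K1 (N' * q)) m P' →
        S37B1_ordP (N' * q) K1 P' g = (S34R_g (N' * q) (σ * σ) • D - D) P') ∧
      f * (g ^ n)⁻¹ ∈ locRing (S18K_A0 A K1 (N' * q)) m ∧
      (f * (g ^ n)⁻¹)⁻¹ ∈ locRing (S18K_A0 A K1 (N' * q)) m := by
  haveI := hm.isPrime
  haveI : NeZero q := ⟨hq.ne_zero⟩
  have hdec : σ ∈ A.decompositionSubgroup ℚ := hσ.mem_decompositionSubgroup
  have hdec2 : σ * σ ∈ A.decompositionSubgroup ℚ :=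
    (A.decompositionSubgroup ℚ).mul_mem hdec hdec
  have S := S34P1C_setup2 A K1 hq hA N' hqN
  exact S35X2_cross_chart (N' * q) A K1 hstab _ _ _ S _ (Or.inl rfl) _ S.chart0
    (Fermat.Agent.S34_helper28_L2T.S34L2T_node A K1 hstab hq hA N' hqN h)
    (σ * σ) (S35DEEPK_decomp_mem A _ hdec2) (S35DEEPK_decomp_mem_inv A _ hdec2)
    (S35DEEPK_V2_stable A K1 hstab q N' (N' * q) hq hqN (Nat.mul_comm N' q) (σ * σ)⁻¹
      (S35DEEPK_decomp_mem_inv A _ hdec2))
    hπ m hm hπm ht1 ht2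
    (fun P hP => S35X2K_centred_sq A K1 hstab hq hA h N' hqN σ hσ m ht1 ht2 P hP)
    (fun P hP => S35X2K_centred_sq_inv A K1 hstab hq hA h N' hqN σ hσ m ht1 ht2 P hP)
    hRedU n D hD f hf hf0 hfV hfV' hdiv

end Level

end Fermat.Agent.S35_helper7_CROSS2K
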