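import Mathlib
import Fermat.Agent.S35_helper8_FCCHART
import Fermat.Agent.S34_helper21_CI
import Fermat.Agent.S18_helper3_LOCRING

/-!
# S35, piece GEO-FC-LOC (helper8): the square of Frobenius at a crossing point

Level `N = q N'`, `q ∤ N'`, `A` over `q`, `K1` an admissible `G_ℚ`-stable level, `σ` a Frobenius
element at `A`, `s = σ * σ`, `Q = q ^ 2`.  `m` is a prime ideal of the finite chart
`A0 = S18K_A0 A K1 N` through both components of the special fibre (a crossing point),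
`R = locRing A0 m`.

* `S35FCL_sR`, `S35FCL_sR_inv` : `s` and `s⁻¹` preserve `R`;
* `S35FCL_frob`, `S35FCL_frobNU` : `s y - y ^ Q` lies in the maximal ideal of `R`, for `y ∈ R`;
* `S35FCL_spi`, `S35FCL_sF`, `S35FCL_sV1`, `S35FCL_sV2` : the remaining structural facts on `s`;
* `S35FCL_centred_of_stable` : an element of the decomposition group preserves the centre `m`
  of a place as soon as it preserves the chart and the ideal `m`;
* `S35FCL_centredFrob`, `S35FCL_centredFrob_inv` : **CENTRED-FROB**, `σ²` and `σ⁻²` preserve the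
  centre of a place at a crossing point.
-/

set_option autoImplicit false
set_option linter.unusedSectionVars false
set_option linter.unusedVariables false
set_option linter.style.haveILetI false
set_option synthInstance.maxHeartbeats 400000
set_option maxHeartbeats 1600000

open AlgebraicCurve ModularCurve HahnSeries
open Fermat.Agent.S18_helper13_GAUSS Fermat.Agent.S18_helper9_CDefs
  Fermat.Agent.S18_helper25_COREDefs Fermat.Agent.S18_helper3_LOCRING
  Fermat.Agent.S34_helper20_V0 Fermat.Agent.S34_helper20_V0K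
  Fermat.Agent.S34_helper21_ACT Fermat.Agent.S34_helper21_CI
  Fermat.Agent.S34_helper12_CDefs Fermat.Agent.S34_Contracts
  Fermat.Agent.S34_helper6_RED
  Fermat.Agent.S35_helper8_FCCHART

noncomputable section

namespace Fermat.Agent.S35_helper8_FCLOC

local notation "Qb" => AlgebraicClosure ℚ
local notation "GQ" => (AlgebraicClosure ℚ ≃ₐ[ℚ] AlgebraicClosure ℚ)

variable (A : ValuationSubring Qb) (K1 : IntermediateField ℚ Qb)
  (hstab : ∀ σ : GQ, ∀ x ∈ K1, σ x ∈ K1)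

/-! ### The decomposition group and the nonunits of `A` -/

/-- an element preserving `A` together with its inverse preserves the nonunits of `A`. -/
theorem S35FCL_nonunits (g : GQ) (hg : ∀ a ∈ A, g a ∈ A) (hg' : ∀ a ∈ A, g⁻¹ a ∈ A) (c : Qb) :
    g c ∈ A.nonunits ↔ c ∈ A.nonunits := by
  have key : ∀ (τ : GQ), (∀ a ∈ A, τ a ∈ A) → (∀ a ∈ A, τ⁻¹ a ∈ A) → ∀ x : Qb,
      x ∈ A.nonunits → τ x ∈ A.nonunits := by
    intro τ hτ hτ' x hx
    rw [ValuationSubring.mem_nonunits_iff] at hx ⊢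
    by_contra hge
    rw [not_lt] at hge
    have hxA : x ∈ A := (A.valuation_le_one_iff x).1 hx.le
    have hτx : τ x ∈ A := hτ x hxA
    have heq : A.valuation (τ x) = 1 :=
      le_antisymm ((A.valuation_le_one_iff _).2 hτx) hge
    have hx0 : τ x ≠ 0 := by
      intro h0
      rw [h0, map_zero] at heq
      exact zero_ne_one heq
    have hinv : (τ x)⁻¹ ∈ A := by
      rw [← A.valuation_le_one_iff, map_inv₀, heq, inv_one]
    have h1 : τ⁻¹ ((τ x)⁻¹) ∈ A := hτ' _ hinv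
    have h2 : τ⁻¹ ((τ x)⁻¹) = x⁻¹ := by
      rw [map_inv₀]
      congr 1
      exact τ.symm_apply_apply x
    rw [h2] at h1
    have h3 : A.valuation x⁻¹ ≤ 1 := (A.valuation_le_one_iff _).2 h1
    have hx0' : x ≠ 0 := fun h0 => hx0 (by rw [h0, map_zero])
    rw [map_inv₀] at h3
    have hv0 : A.valuation x ≠ 0 := (Valuation.ne_zero_iff _).2 hx0'
    have h5 : 1 < (A.valuation x)⁻¹ := (one_lt_inv₀ (zero_lt_iff.2 hv0)).2 hx
    exact absurd h3 (not_le.2 h5)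
  constructor
  · intro h
    have := key g⁻¹ hg' (by rw [inv_inv]; exact hg) (g c) h
    rwa [show g⁻¹ (g c) = c from g.symm_apply_apply c] at this
  · exact key g hg hg' c

/-! ### The centre of a place under the decomposition group -/

section Centred

variable (N : ℕ) [NeZero N]

/-- **The centre is preserved by an element of the decomposition group which preserves the
chart and the ideal `m`.** -/
theorem S35FCL_centred_of_stable (g : GQ) (hg : g ∈ A.decompositionSubgroup ℚ)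
    (X : Subring (LaurentSeries K1)) (m : Ideal X)
    (hX : ∀ a ∈ X, S34ACT_act K1 hstab g⁻¹ a ∈ X)
    (hm : ∀ a : X, (⟨S34ACT_act K1 hstab g⁻¹ (a : LaurentSeries K1), hX a a.2⟩ : X) ∈ m ↔ a ∈ m)
    (P : Place Qb (modularFunctionFieldBar N)) (hP : S34K_Centred N A K1 X m P) :
    S34K_Centred N A K1 X m (S34R_g N g • P) := by
  obtain ⟨hgA, hgA'⟩ := S35FCC_decomp A g hg
  refine ⟨fun a => ?_, fun a c hc hval => ?_⟩
  · obtain ⟨c', hc', hval'⟩ := hP.1 ⟨S34ACT_act K1 hstab g⁻¹ (a : LaurentSeries K1), hX a a.2⟩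
    refine ⟨g c', hgA c' hc', ?_⟩
    have := S34CI_valueAt N K1 hstab g P hval'
    rwa [S34ACT_act_act_inv] at this
  · have hval' := S34CI_valueAt' N K1 hstab g P hval
    have hc' : g⁻¹ c ∈ A := hgA' c hc
    have key := hP.2 ⟨S34ACT_act K1 hstab g⁻¹ (a : LaurentSeries K1), hX a a.2⟩ (g⁻¹ c) hc' hval'
    have hnu : g⁻¹ c ∈ A.nonunits ↔ c ∈ A.nonunits :=
      S35FCL_nonunits A g⁻¹ hgA' (by rw [inv_inv]; exact hgA) c
    rw [← hm a, key, hnu]

end Centred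

section Main

variable [IsDiscreteValuationRing (S18K_O1 A K1)]
  (q N' N : ℕ) [NeZero N'] [NeZero N] [NeZero q] (hq : q.Prime) (hqN : ¬ q ∣ N')
  (hN : N = q * N') (σ : GQ)

include hstab in
/-- **CENTRED-FROB**: `σ²` preserves the centre of a place at a crossing point. -/
theorem S35FCL_centredFrob (hA : A.LiesOverPrime q) (h : S18K_Admissible A K1 q)
    (hσ : A.IsFrobeniusAt σ q) (m : Ideal ↥(S18K_A0 A K1 N)) [m.IsPrime]
    (h1 : S34K_Thru (S18K_π A K1) (S18K_V A K1 N) (S18K_A0 A K1 N) m)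
    (h2 : S34K_Thru (S18K_π A K1) (S34V0K_V A K1 q N' N hq hqN hN) (S18K_A0 A K1 N) m)
    (P : Place Qb (modularFunctionFieldBar N)) (hP : S34K_Centred N A K1 (S18K_A0 A K1 N) m P) :
    S34K_Centred N A K1 (S18K_A0 A K1 N) m (S34R_g N (σ * σ) • P) := by
  have hdec : σ ∈ A.decompositionSubgroup ℚ := hσ.mem_decompositionSubgroup
  have hdec2 : σ * σ ∈ A.decompositionSubgroup ℚ :=
    (A.decompositionSubgroup ℚ).mul_mem hdec hdec
  refine S35FCL_centred_of_stable A K1 hstab N (σ * σ) hdec2 _ m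
    (S35FCC_hAs A K1 hstab N (σ * σ) hdec2) (fun a => ?_) P hP
  obtain ⟨hy, hiff⟩ := S35FCC_cross_inv A K1 hstab q N' N hq hqN hN σ hA h hσ m h1 h2 a
  exact hiff

include hstab in
/-- **CENTRED-FROB, inverse**: `σ⁻²` preserves the centre of a place at a crossing point. -/
theorem S35FCL_centredFrob_inv (hA : A.LiesOverPrime q) (h : S18K_Admissible A K1 q)
    (hσ : A.IsFrobeniusAt σ q) (m : Ideal ↥(S18K_A0 A K1 N)) [m.IsPrime]
    (h1 : S34K_Thru (S18K_π A K1) (S18K_V A K1 N) (S18K_A0 A K1 N) m)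
    (h2 : S34K_Thru (S18K_π A K1) (S34V0K_V A K1 q N' N hq hqN hN) (S18K_A0 A K1 N) m)
    (P : Place Qb (modularFunctionFieldBar N)) (hP : S34K_Centred N A K1 (S18K_A0 A K1 N) m P) :
    S34K_Centred N A K1 (S18K_A0 A K1 N) m (S34R_g N (σ * σ)⁻¹ • P) := by
  have hdec : σ ∈ A.decompositionSubgroup ℚ := hσ.mem_decompositionSubgroup
  have hdec2 : (σ * σ)⁻¹ ∈ A.decompositionSubgroup ℚ :=
    (A.decompositionSubgroup ℚ).inv_mem ((A.decompositionSubgroup ℚ).mul_mem hdec hdec)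
  refine S35FCL_centred_of_stable A K1 hstab N (σ * σ)⁻¹ hdec2 _ m
    (S35FCC_hAs A K1 hstab N (σ * σ)⁻¹ hdec2) (fun a => ?_) P hP
  obtain ⟨hy, -, hiff⟩ := S35FCC_cross A K1 hstab q N' N hq hqN hN σ hA h hσ m h1 h2 a
  have e : ∀ (hx : S34ACT_act K1 hstab (σ * σ)⁻¹⁻¹ (a : LaurentSeries K1) ∈ S18K_A0 A K1 N),
      (⟨S34ACT_act K1 hstab (σ * σ)⁻¹⁻¹ (a : LaurentSeries K1), hx⟩ : ↥(S18K_A0 A K1 N)) =
        ⟨S34ACT_act K1 hstab (σ * σ) (a : LaurentSeries K1), hy⟩ := by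
    intro hx
    apply Subtype.ext
    show S34ACT_act K1 hstab (σ * σ)⁻¹⁻¹ (a : LaurentSeries K1) = _
    rw [inv_inv]
  rw [e]
  exact hiff

/-! ### The local ring at a crossing point -/

/-- `s = σ²` preserves the local ring at a crossing point. -/
theorem S35FCL_sR (hA : A.LiesOverPrime q) (h : S18K_Admissible A K1 q)
    (hσ : A.IsFrobeniusAt σ q) (m : Ideal ↥(S18K_A0 A K1 N)) [m.IsPrime]
    (h1 : S34K_Thru (S18K_π A K1) (S18K_V A K1 N) (S18K_A0 A K1 N) m)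
    (h2 : S34K_Thru (S18K_π A K1) (S34V0K_V A K1 q N' N hq hqN hN) (S18K_A0 A K1 N) m) :
    ∀ y ∈ locRing (S18K_A0 A K1 N) m,
      S34ACT_act K1 hstab (σ * σ) y ∈ locRing (S18K_A0 A K1 N) m := by
  rintro y ⟨a, c, hc, hy⟩
  obtain ⟨ha', -, -⟩ := S35FCC_cross A K1 hstab q N' N hq hqN hN σ hA h hσ m h1 h2 a
  obtain ⟨hc', -, hiff⟩ := S35FCC_cross A K1 hstab q N' N hq hqN hN σ hA h hσ m h1 h2 c
  refine ⟨⟨_, ha'⟩, ⟨_, hc'⟩, fun hmem => hc (hiff.1 hmem), ?_⟩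
  show S34ACT_act K1 hstab (σ * σ) y * S34ACT_act K1 hstab (σ * σ) (c : LaurentSeries K1) =
    S34ACT_act K1 hstab (σ * σ) (a : LaurentSeries K1)
  rw [← map_mul, hy]

/-- `s⁻¹ = σ⁻²` preserves the local ring at a crossing point. -/
theorem S35FCL_sR_inv (hA : A.LiesOverPrime q) (h : S18K_Admissible A K1 q)
    (hσ : A.IsFrobeniusAt σ q) (m : Ideal ↥(S18K_A0 A K1 N)) [m.IsPrime]
    (h1 : S34K_Thru (S18K_π A K1) (S18K_V A K1 N) (S18K_A0 A K1 N) m)
    (h2 : S34K_Thru (S18K_π A K1) (S34V0K_V A K1 q N' N hq hqN hN) (S18K_A0 A K1 N) m) :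
    ∀ y ∈ locRing (S18K_A0 A K1 N) m,
      S34ACT_act K1 hstab (σ * σ)⁻¹ y ∈ locRing (S18K_A0 A K1 N) m := by
  rintro y ⟨a, c, hc, hy⟩
  obtain ⟨ha', -⟩ := S35FCC_cross_inv A K1 hstab q N' N hq hqN hN σ hA h hσ m h1 h2 a
  obtain ⟨hc', hiff⟩ := S35FCC_cross_inv A K1 hstab q N' N hq hqN hN σ hA h hσ m h1 h2 c
  refine ⟨⟨_, ha'⟩, ⟨_, hc'⟩, fun hmem => hc (hiff.1 hmem), ?_⟩
  show S34ACT_act K1 hstab (σ * σ)⁻¹ y * S34ACT_act K1 hstab (σ * σ)⁻¹ (c : LaurentSeries K1) =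
    S34ACT_act K1 hstab (σ * σ)⁻¹ (a : LaurentSeries K1)
  rw [← map_mul, hy]

/-- **FC in the local ring**: `s y - y ^ Q` is a fraction with numerator in `m`. -/
theorem S35FCL_frob (hA : A.LiesOverPrime q) (h : S18K_Admissible A K1 q)
    (hσ : A.IsFrobeniusAt σ q) (m : Ideal ↥(S18K_A0 A K1 N)) [hmp : m.IsPrime]
    (h1 : S34K_Thru (S18K_π A K1) (S18K_V A K1 N) (S18K_A0 A K1 N) m)
    (h2 : S34K_Thru (S18K_π A K1) (S34V0K_V A K1 q N' N hq hqN hN) (S18K_A0 A K1 N) m) :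
    ∀ y ∈ locRing (S18K_A0 A K1 N) m, ∃ a c : ↥(S18K_A0 A K1 N), c ∉ m ∧ a ∈ m ∧
      (S34ACT_act K1 hstab (σ * σ) y - y ^ (q ^ 2)) * (c : LaurentSeries K1) = a := by
  rintro y ⟨a, c, hc, hy⟩
  obtain ⟨ha', hda, -⟩ := S35FCC_cross A K1 hstab q N' N hq hqN hN σ hA h hσ m h1 h2 a
  obtain ⟨hc', hdc, hiff⟩ := S35FCC_cross A K1 hstab q N' N hq hqN hN σ hA h hσ m h1 h2 c
  refine ⟨((⟨_, ha'⟩ : ↥(S18K_A0 A K1 N)) - a ^ (q ^ 2)) * c ^ (q ^ 2) -
      a ^ (q ^ 2) * ((⟨_, hc'⟩ : ↥(S18K_A0 A K1 N)) - c ^ (q ^ 2)),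
    (⟨_, hc'⟩ : ↥(S18K_A0 A K1 N)) * c ^ (q ^ 2), ?_, ?_, ?_⟩
  · intro hmem
    rcases hmp.mem_or_mem hmem with h3 | h3
    · exact hc (hiff.1 h3)
    · exact hc (hmp.mem_of_pow_mem _ h3)
  · exact m.sub_mem (m.mul_mem_right _ hda) (m.mul_mem_left _ hdc)
  · have e1 : S34ACT_act K1 hstab (σ * σ) (a : LaurentSeries K1) =
        S34ACT_act K1 hstab (σ * σ) y * S34ACT_act K1 hstab (σ * σ) (c : LaurentSeries K1) := by
      rw [← map_mul, hy]
    show (S34ACT_act K1 hstab (σ * σ) y - y ^ (q ^ 2)) *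
        (S34ACT_act K1 hstab (σ * σ) (c : LaurentSeries K1) * (c : LaurentSeries K1) ^ (q ^ 2)) =
      (S34ACT_act K1 hstab (σ * σ) (a : LaurentSeries K1) - (a : LaurentSeries K1) ^ (q ^ 2)) *
          (c : LaurentSeries K1) ^ (q ^ 2) -
        (a : LaurentSeries K1) ^ (q ^ 2) *
          (S34ACT_act K1 hstab (σ * σ) (c : LaurentSeries K1) - (c : LaurentSeries K1) ^ (q ^ 2))
    rw [e1, ← hy]
    ring

/-- **FC in the local ring**, in the shape of the field `frob` of helper19's `S35LOC_Setup`: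
`s y - y ^ Q` is a non-unit of the local ring. -/
theorem S35FCL_frobNU (hA : A.LiesOverPrime q) (h : S18K_Admissible A K1 q)
    (hσ : A.IsFrobeniusAt σ q) (m : Ideal ↥(S18K_A0 A K1 N)) [hmp : m.IsPrime]
    (h1 : S34K_Thru (S18K_π A K1) (S18K_V A K1 N) (S18K_A0 A K1 N) m)
    (h2 : S34K_Thru (S18K_π A K1) (S34V0K_V A K1 q N' N hq hqN hN) (S18K_A0 A K1 N) m) :
    ∀ y ∈ locRing (S18K_A0 A K1 N) m,
      (S34ACT_act K1 hstab (σ * σ) y - y ^ (q ^ 2)) ∈ locRing (S18K_A0 A K1 N) m ∧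
      ((S34ACT_act K1 hstab (σ * σ) y - y ^ (q ^ 2)) = 0 ∨
        (S34ACT_act K1 hstab (σ * σ) y - y ^ (q ^ 2))⁻¹ ∉ locRing (S18K_A0 A K1 N) m) := by
  intro y hy
  obtain ⟨n, d, hd, hn, e⟩ := S35FCL_frob A K1 hstab q N' N hq hqN hN σ hA h hσ m h1 h2 y hy
  refine ⟨⟨n, d, hd, e⟩, ?_⟩
  by_cases hx0 : S34ACT_act K1 hstab (σ * σ) y - y ^ (q ^ 2) = 0
  · exact Or.inl hx0
  · right
    rintro ⟨a', c', hc', e'⟩
    have h3 : ((d * c' : ↥(S18K_A0 A K1 N)) : LaurentSeries K1) = ((n * a' : ↥(S18K_A0 A K1 N)) :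
        LaurentSeries K1) := by
      push_cast
      rw [← e, ← e']
      field_simp
    have h4 : d * c' = n * a' := Subtype.ext h3
    have h5 : d * c' ∈ m := by rw [h4]; exact m.mul_mem_right _ hn
    rcases hmp.mem_or_mem h5 with h6 | h6
    · exact hd h6
    · exact hc' h6

include hq hqN hN in
/-- `s π = π ε` with `ε` in the local ring. -/
theorem S35FCL_spi (hA : A.LiesOverPrime q) (hσ : A.IsFrobeniusAt σ q)
    (m : Ideal ↥(S18K_A0 A K1 N)) [m.IsPrime] :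
    ∃ ε ∈ locRing (S18K_A0 A K1 N) m,
      S34ACT_act K1 hstab (σ * σ) (S18K_π A K1) = S18K_π A K1 * ε := by
  have hdec : σ ∈ A.decompositionSubgroup ℚ := hσ.mem_decompositionSubgroup
  have hdec2 : σ * σ ∈ A.decompositionSubgroup ℚ :=
    (A.decompositionSubgroup ℚ).mul_mem hdec hdec
  obtain ⟨e, he, hπe⟩ := S35FCC_pi A K1 hstab (σ * σ) hdec2
  exact ⟨e, le_locRing _ m (S35FCC_O_le A K1 q N' N hq hqN hN hA he).1, hπe⟩

/-- `s` preserves the function field. -/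
theorem S35FCL_sF : ∀ y ∈ S18K_F1 K1 N, S34ACT_act K1 hstab (σ * σ) y ∈ S18K_F1 K1 N :=
  fun y hy => S34ACT_mem_F1 K1 hstab N (σ * σ) hy

/-- `s` preserves the Gauss ring `V1`. -/
theorem S35FCL_sV1 (hσ : A.IsFrobeniusAt σ q) :
    ∀ v ∈ S18K_V A K1 N, S34ACT_act K1 hstab (σ * σ) v ∈ S18K_V A K1 N := by
  have hdec : σ ∈ A.decompositionSubgroup ℚ := hσ.mem_decompositionSubgroup
  have hdec2 : σ * σ ∈ A.decompositionSubgroup ℚ :=
    (A.decompositionSubgroup ℚ).mul_mem hdec hdec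
  exact fun v hv => S34ACT_mem_V K1 hstab A N (σ * σ) (S35FCC_decomp A _ hdec2).1 hv

/-- `s` preserves the second valuation ring `V2 = w(V1)`. -/
theorem S35FCL_sV2 (hσ : A.IsFrobeniusAt σ q) :
    ∀ v ∈ S34V0K_V A K1 q N' N hq hqN hN,
      S34ACT_act K1 hstab (σ * σ) v ∈ S34V0K_V A K1 q N' N hq hqN hN := by
  have hdec : σ ∈ A.decompositionSubgroup ℚ := hσ.mem_decompositionSubgroup
  have hdec2 : σ * σ ∈ A.decompositionSubgroup ℚ :=
    (A.decompositionSubgroup ℚ).mul_mem hdec hdec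
  exact fun v hv =>
    S35FCC_mem_V2 A K1 hstab q N' N hq hqN hN (σ * σ) (S35FCC_decomp A _ hdec2).1 hv

end Main

end Fermat.Agent.S35_helper8_FCLOC
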