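import Mathlib
import Fermat.Agent.S35_helper17_REDF1
import Fermat.Agent.S35_helper7_CROSS2K
import Fermat.Agent.S35_helper8_FCLOC

/-!
# S35, GEO-REDF1 (helper17): Red-Frob on the finite chart, and the crossing datum of
`(σ² - 1) D` without open inputs

* `S35RFK_redU`     : the hypothesis `hRedU` of `S35X2K_cross_A0`, verbatim (level `N' * q`,
  finite chart, `s = σ * σ` for a Frobenius element `σ` at `A`);
* `S35RFK_cross_A0` : `S35X2K_cross_A0` with `hRedU` discharged.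
-/

set_option autoImplicit false
set_option linter.unusedSectionVars false
set_option linter.unusedVariables false
set_option linter.style.haveILetI false
set_option maxHeartbeats 1000000
set_option synthInstance.maxHeartbeats 400000

open AlgebraicCurve ModularCurve HahnSeries IntermediateField

noncomputable section

namespace Fermat.Agent.S35_helper17_REDF1K

open Fermat.Agent.S18_helper9_CDefs Fermat.Agent.S18_helper25_COREDefs
  Fermat.Agent.S34_helper12_CDefs Fermat.Agent.S34_helper6_RED Fermat.Agent.S34_helper5_K0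
  Fermat.Agent.S18_helper3_LOCRING Fermat.Agent.S37_helper4_B1Defs
  Fermat.Agent.S37_helper5_LEVEL Fermat.Agent.S34_Contracts Fermat.Agent.S34_helper21_ACT
  Fermat.Agent.S34_helper21_CI Fermat.Agent.S34_helper20_V0K
  Fermat.Agent.S34_helper7_LGDefs Fermat.Agent.S35_helper7_LGFDefs
  Fermat.Agent.S35_helper7_LOCGENF Fermat.Agent.S35_helper7_CROSS2
  Fermat.Agent.S35_helper7_CROSS2K
  Fermat.Agent.S35_helper8_FCCHART Fermat.Agent.S35_helper8_FCLOC Fermat.Agent.S35_helper9_DEEPK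
  Fermat.Agent.S34_helper27_P1C Fermat.Agent.S35_helper17_REDF1

local notation "Qb" => AlgebraicClosure ℚ
local notation "GQ" => (AlgebraicClosure ℚ ≃ₐ[ℚ] AlgebraicClosure ℚ)

variable (A : ValuationSubring Qb) (K1 : IntermediateField ℚ Qb)
  (hstab : ∀ σ : GQ, ∀ x ∈ K1, σ x ∈ K1) [IsDiscreteValuationRing (S18K_O1 A K1)]
  {q : ℕ} (hq : q.Prime) (hA : A.LiesOverPrime q) (h : S18K_Admissible A K1 q)
  (N' : ℕ) [NeZero N'] [NeZero (N' * q)] (hqN : ¬ q ∣ N')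
  (σ : GQ) (hσ : A.IsFrobeniusAt σ q)

include hA h hσ in
/-- **GEO-REDF1 on the finite chart**: the hypothesis `hRedU` of `S35X2K_cross_A0`. -/
theorem S35RFK_redU
    (hπ : S18K_π A K1 ∈ S18K_A0 A K1 (N' * q)) (m : Ideal (S18K_A0 A K1 (N' * q)))
    (hm : m.IsMaximal)
    (ht1 : S34K_Thru (S18K_π A K1) (S18K_V A K1 (N' * q)) (S18K_A0 A K1 (N' * q)) m)
    (ht2 : S34K_Thru (S18K_π A K1) (S34P1C_V2 A K1 hq N' hqN) (S18K_A0 A K1 (N' * q)) m) :
    ∀ (ϖ : K1) (k : ℕ) (T S' c : LaurentSeries K1),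
      (haveI := hm.isPrime; S34LGK_NodeData (N' * q) A K1 hstab (S34P1C_V2 A K1 hq N' hqN)
        (S18K_A0 A K1 (N' * q)) m ϖ k T S' c) →
      ∀ a ρ : K1, (a : Qb) ∈ A.nonunits → (ρ : Qb) ∈ A.nonunits → ϖ ^ k = a * ρ →
        (haveI := hm.isPrime
         S35LGK_LU (S18K_π A K1) (S18K_V A K1 (N' * q)) (S18K_A0 A K1 (N' * q)) m
            (S34ACT_act K1 hstab (σ * σ) (T - HahnSeries.C a) * (T - HahnSeries.C a)⁻¹) ∧
          S35LGK_LU (S18K_π A K1) (S34P1C_V2 A K1 hq N' hqN) (S18K_A0 A K1 (N' * q)) m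
            (S34ACT_act K1 hstab (σ * σ) (T - HahnSeries.C a) * (T - HahnSeries.C a)⁻¹)) ∧
        (haveI := hm.isPrime
         S35LGK_LU (S18K_π A K1) (S18K_V A K1 (N' * q)) (S18K_A0 A K1 (N' * q)) m
            (S34ACT_act K1 hstab (σ * σ) (S' - HahnSeries.C a) * (S' - HahnSeries.C a)⁻¹) ∧
          S35LGK_LU (S18K_π A K1) (S34P1C_V2 A K1 hq N' hqN) (S18K_A0 A K1 (N' * q)) m
            (S34ACT_act K1 hstab (σ * σ) (S' - HahnSeries.C a) * (S' - HahnSeries.C a)⁻¹)) := by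
  haveI := hm.isPrime
  haveI : NeZero q := ⟨hq.ne_zero⟩
  have hdec : σ ∈ A.decompositionSubgroup ℚ := hσ.mem_decompositionSubgroup
  have hdec2 : σ * σ ∈ A.decompositionSubgroup ℚ :=
    (A.decompositionSubgroup ℚ).mul_mem hdec hdec
  have S := S34P1C_setup2 A K1 hq hA N' hqN
  exact S35RF_redU_gen A K1 hstab (N' * q) S S.chart0 (σ * σ)
    (S35DEEPK_decomp_mem A _ hdec2) (S35DEEPK_decomp_mem_inv A _ hdec2)
    (S35DEEPK_V2_stable A K1 hstab q N' (N' * q) hq hqN (Nat.mul_comm N' q) (σ * σ)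
      (S35DEEPK_decomp_mem A _ hdec2))
    hπ m hm ht1 ht2
    (S35FCL_sR A K1 hstab q N' (N' * q) hq hqN (Nat.mul_comm N' q) σ hA h hσ m ht1 ht2)
    (S35FCL_sR_inv A K1 hstab q N' (N' * q) hq hqN (Nat.mul_comm N' q) σ hA h hσ m ht1 ht2)

include hstab hA h hσ in
/-- **The crossing datum of `(σ² - 1) D` in the class `LU2` on the finite chart**, no open
input (`S35X2K_cross_A0` with Red-Frob discharged). -/
theorem S35RFK_cross_A0
    (hπ : S18K_π A K1 ∈ S18K_A0 A K1 (N' * q)) (m : Ideal (S18K_A0 A K1 (N' * q)))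
    (hm : m.IsMaximal) (hπm : (⟨S18K_π A K1, hπ⟩ : S18K_A0 A K1 (N' * q)) ∈ m)
    (ht1 : S34K_Thru (S18K_π A K1) (S18K_V A K1 (N' * q)) (S18K_A0 A K1 (N' * q)) m)
    (ht2 : S34K_Thru (S18K_π A K1) (S34P1C_V2 A K1 hq N' hqN) (S18K_A0 A K1 (N' * q)) m)
    (n : ℕ) (D : Divisor Qb (modularFunctionFieldBar (N' * q)))
    (hD : ∀ P : Place Qb (modularFunctionFieldBar (N' * q)), D P ≠ 0 →
      S37LEVEL_IsRational (N' * q) K1 P)
    (f : LaurentSeries K1) (hf : f ∈ S18K_F1 K1 (N' * q)) (hf0 : f ≠ 0)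
    (hfV : f ∈ (S18K_V A K1 (N' * q) ⊓ S34P1C_V2 A K1 hq N' hqN :
      Subring (LaurentSeries K1)))
    (hfV' : f⁻¹ ∈ (S18K_V A K1 (N' * q) ⊓ S34P1C_V2 A K1 hq N' hqN :
      Subring (LaurentSeries K1)))
    (hdiv : ∀ P : Place Qb (modularFunctionFieldBar (N' * q)),
      S37B1_ordP (N' * q) K1 P f = (n : ℤ) * (S34R_g (N' * q) (σ * σ) • D - D) P) :
    haveI := hm.isPrime
    ∃ g ∈ S18K_F1 K1 (N' * q), g ≠ 0 ∧
      S35LGK_LU (S18K_π A K1) (S18K_V A K1 (N' * q)) (S18K_A0 A K1 (N' * q)) m g ∧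
      S35LGK_LU (S18K_π A K1) (S34P1C_V2 A K1 hq N' hqN) (S18K_A0 A K1 (N' * q)) m g ∧
      (∀ P' : Place Qb (modularFunctionFieldBar (N' * q)),
        S34K_Centred (N' * q) A K1 (S18K_A0 A K1 (N' * q)) m P' →
        S37B1_ordP (N' * q) K1 P' g = (S34R_g (N' * q) (σ * σ) • D - D) P') ∧
      f * (g ^ n)⁻¹ ∈ locRing (S18K_A0 A K1 (N' * q)) m ∧
      (f * (g ^ n)⁻¹)⁻¹ ∈ locRing (S18K_A0 A K1 (N' * q)) m :=
  S35X2K_cross_A0 A K1 hstab hq hA h N' hqN σ hσ hπ m hm hπm ht1 ht2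
    (S35RFK_redU A K1 hstab hq hA h N' hqN σ hσ hπ m hm ht1 ht2)
    n D hD f hf hf0 hfV hfV' hdiv

end Fermat.Agent.S35_helper17_REDF1K
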