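import Mathlib
import Fermat.Agent.G_helper8_GALHECKE
import Fermat.Agent.G_helper21_B0L

/-!
# S35, (P6)[a] (helper6): the two degeneracy push-forwards `J₀(M' q) → J₀(M')`

* generic: `S35PU_pic0 ψ hψ hfin hN : Pic0 K F' →+ Pic0 K F`, the push-forward of divisor classes
  along a finite extension `ψ : F → F'` of function fields (norm formula), and its compatibility
  with compatible semilinear automorphisms (`S35PU_pic0_smul`);
* modular, over any algebraically closed `L ⊇ ℚ`: `S35PU_alphaL`, `S35PU_betaL`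
  (`Pic0 (F_L (N ℓ)) →+ Pic0 (F_L N)`), Galois equivariant;
* over `ℚ̄`: `S35PU_alpha N ℓ`, `S35PU_beta N ℓ : JZero (N * ℓ) →+ JZero N`,
  `S35PU_alpha_smul`, `S35PU_beta_smul` (Galois equivariance), `S35PU_alpha_mk`,
  `S35PU_beta_mk` (the value on the class of a divisor), and the criterion
  `S35PU_alpha_eq_zero_iff` : `α_* [D] = 0 ↔ α_* D` is principal.
-/

set_option autoImplicit false
set_option linter.style.haveILetI false
set_option linter.unusedSectionVars false
set_option linter.unusedVariables false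

open AlgebraicCurve ModularCurve IntermediateField

namespace Fermat.Agent.S35_helper6_PUSH

noncomputable section

/-! ### generic push-forward on `Pic⁰` -/

section Generic

variable {K F F' : Type*} [Field K] [Field F] [Field F'] [Algebra K F] [Algebra K F']
variable (ψ : F →ₐ[K] F') (hψ : ψ.toRingHom.IsIntegral)

/-- the push-forward on divisors of degree zero. -/
def S35PU_degZero : Divisor.degZero (K := K) (F := F') →+ Divisor.degZero (K := K) (F := F) :=
  ((Divisor.pushforwardAlong ψ hψ).domRestrict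
    (Divisor.degZero (K := K) (F := F'))).codRestrict _
    (fun D => Divisor.pushforwardAlong_mem_degZero ψ hψ D.2)

@[simp]
theorem S35PU_coe_degZero (D : Divisor.degZero (K := K) (F := F')) :
    (S35PU_degZero ψ hψ D : Divisor K F) = Divisor.pushforwardAlong ψ hψ (D : Divisor K F') :=
  rfl

variable (hfin : FiniteAlong K ψ) (hN : NormFormulaAlong K ψ hfin)

/-- **the push-forward on `Pic⁰`** along a finite extension of function fields. -/
def S35PU_pic0 : Pic0 K F' →+ Pic0 K F :=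
  QuotientAddGroup.map _ _ (S35PU_degZero ψ hψ) (by
    rintro ⟨D, hD0⟩ hD
    simp only [AddSubgroup.mem_addSubgroupOf] at hD ⊢
    exact Divisor.isPrincipal_pushforwardAlong ψ hψ hfin hN hD)

theorem S35PU_pic0_mk (D : Divisor.degZero (K := K) (F := F')) :
    S35PU_pic0 ψ hψ hfin hN (Pic0.mk D) = Pic0.mk (S35PU_degZero ψ hψ D) :=
  rfl

/-- the push-forward commutes with compatible semilinear automorphisms. -/
theorem S35PU_pic0_smul (g : SemilinearAut K F) (g' : SemilinearAut K F')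
    (h : ∀ x : F, g' • ψ x = ψ (g • x)) (x : Pic0 K F') :
    S35PU_pic0 ψ hψ hfin hN (g' • x) = g • S35PU_pic0 ψ hψ hfin hN x := by
  obtain ⟨D, rfl⟩ := Pic0.mk_surjective x
  rw [SemilinearAut.pic0_smul_mk, S35PU_pic0_mk, S35PU_pic0_mk, SemilinearAut.pic0_smul_mk]
  congr 1
  apply Subtype.ext
  rw [S35PU_coe_degZero, SemilinearAut.coe_degZeroSMulHom, SemilinearAut.coe_degZeroSMulHom,
    S35PU_coe_degZero]
  exact Fermat.Agent.G_helper8_GALHECKE.PG11_pushforwardAlong_smul ψ hψ g g' h D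

end Generic

/-! ### the modular push-forwards over an algebraically closed field -/

section Modular

open Fermat.Agent.G_helper21_B0L

variable (L : Type*) [Field L] [Algebra ℚ L] [IsAlgClosed L] (N ℓ : ℕ) [NeZero N] [NeZero ℓ]

theorem S35PU_normFormula_alpha :
    NormFormulaAlong L (heckeAlphaBar L N ℓ) (PG_B0L_finiteAlong_alpha L N ℓ) := by
  haveI := PG_B0L_charZero L
  haveI hP : HasPrincipalDivisors L (laurentBaseChange L (modularFunctionFieldFull (N * ℓ))) :=
    PG_B0L_hasPrincipalDivisors L (N * ℓ)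
  haveI hfN : FiniteDimensional L⟮PG_B0L_jElt L N⟯ (PG_B0L_F L N) :=
    PG_B0L_finiteDimensional L N
  letI := algebraAlong (heckeAlphaBar L N ℓ)
  haveI := isScalarTower_along (heckeAlphaBar L N ℓ)
  haveI : FiniteDimensional (laurentBaseChange L (modularFunctionFieldFull N))
      (laurentBaseChange L (modularFunctionFieldFull (N * ℓ))) :=
    PG_B0L_finiteAlong_alpha L N ℓ
  exact Fermat.Agent.S37_helper11_NORM.S37B0_pushforwardNormFormula L _ _ (PG_B0L_jElt L N)
    (PG_B0L_transcendental L N)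

theorem S35PU_normFormula_beta :
    NormFormulaAlong L (heckeBetaBar L N ℓ) (PG_B0L_finiteAlong_beta L N ℓ) := by
  haveI := PG_B0L_charZero L
  haveI hP : HasPrincipalDivisors L (laurentBaseChange L (modularFunctionFieldFull (N * ℓ))) :=
    PG_B0L_hasPrincipalDivisors L (N * ℓ)
  haveI hfN : FiniteDimensional L⟮PG_B0L_jElt L N⟯ (PG_B0L_F L N) :=
    PG_B0L_finiteDimensional L N
  letI := algebraAlong (heckeBetaBar L N ℓ)
  haveI := isScalarTower_along (heckeBetaBar L N ℓ)
  haveI : FiniteDimensional (laurentBaseChange L (modularFunctionFieldFull N))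
      (laurentBaseChange L (modularFunctionFieldFull (N * ℓ))) :=
    PG_B0L_finiteAlong_beta L N ℓ
  exact Fermat.Agent.S37_helper11_NORM.S37B0_pushforwardNormFormula L _ _ (PG_B0L_jElt L N)
    (PG_B0L_transcendental L N)

/-- `α_*` on `Pic⁰`, over `L`. -/
def S35PU_alphaL :
    Pic0 L (laurentBaseChange L (modularFunctionFieldFull (N * ℓ))) →+
      Pic0 L (laurentBaseChange L (modularFunctionFieldFull N)) :=
  S35PU_pic0 (heckeAlphaBar L N ℓ) (PG_B0L_heckeAlphaBarIntegral L N ℓ)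
    (PG_B0L_finiteAlong_alpha L N ℓ) (S35PU_normFormula_alpha L N ℓ)

/-- `β_*` on `Pic⁰`, over `L`. -/
def S35PU_betaL :
    Pic0 L (laurentBaseChange L (modularFunctionFieldFull (N * ℓ))) →+
      Pic0 L (laurentBaseChange L (modularFunctionFieldFull N)) :=
  S35PU_pic0 (heckeBetaBar L N ℓ) (PG_B0L_heckeBetaBarIntegral L N ℓ)
    (PG_B0L_finiteAlong_beta L N ℓ) (S35PU_normFormula_beta L N ℓ)

theorem S35PU_alphaL_smul (σ : L ≃ₐ[ℚ] L)
    (x : Pic0 L (laurentBaseChange L (modularFunctionFieldFull (N * ℓ)))) :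
    S35PU_alphaL L N ℓ (σ • x) = σ • S35PU_alphaL L N ℓ x :=
  S35PU_pic0_smul _ _ _ _ (arithmeticGalois (modularFunctionFieldFull N) σ)
    (arithmeticGalois (modularFunctionFieldFull (N * ℓ)) σ)
    (Fermat.Agent.G_helper8_GALHECKE.PG11_alpha_compat L N ℓ σ) x

theorem S35PU_betaL_smul (σ : L ≃ₐ[ℚ] L)
    (x : Pic0 L (laurentBaseChange L (modularFunctionFieldFull (N * ℓ)))) :
    S35PU_betaL L N ℓ (σ • x) = σ • S35PU_betaL L N ℓ x :=
  S35PU_pic0_smul _ _ _ _ (arithmeticGalois (modularFunctionFieldFull N) σ)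
    (arithmeticGalois (modularFunctionFieldFull (N * ℓ)) σ)
    (Fermat.Agent.G_helper8_GALHECKE.PG11_beta_compat L N ℓ σ) x

end Modular

/-! ### `J₀` over `ℚ̄` -/

section JZeroSection

open Fermat.Agent.G_helper21_B0L

local notation "Qb" => AlgebraicClosure ℚ
local notation "GQ" => (AlgebraicClosure ℚ ≃ₐ[ℚ] AlgebraicClosure ℚ)

variable (N ℓ : ℕ) [NeZero N] [NeZero ℓ]

/-- **`α_* : J₀(N ℓ) → J₀(N)`** (push-forward along the inclusion of function fields). -/
def S35PU_alpha : JZero (N * ℓ) →+ JZero N := S35PU_alphaL Qb N ℓ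

/-- **`β_* : J₀(N ℓ) → J₀(N)`** (push-forward along `f(q) ↦ f(q ^ ℓ)`). -/
def S35PU_beta : JZero (N * ℓ) →+ JZero N := S35PU_betaL Qb N ℓ

/-- `α_*` is Galois equivariant. -/
theorem S35PU_alpha_smul (σ : GQ) (x : JZero (N * ℓ)) :
    S35PU_alpha N ℓ (σ • x) = σ • S35PU_alpha N ℓ x := S35PU_alphaL_smul Qb N ℓ σ x

/-- `β_*` is Galois equivariant. -/
theorem S35PU_beta_smul (σ : GQ) (x : JZero (N * ℓ)) :
    S35PU_beta N ℓ (σ • x) = σ • S35PU_beta N ℓ x := S35PU_betaL_smul Qb N ℓ σ x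

theorem S35PU_alpha_mk (D : Divisor.degZero (K := Qb) (F := modularFunctionFieldBar (N * ℓ))) :
    S35PU_alpha N ℓ (Pic0.mk D) =
      Pic0.mk (S35PU_degZero (heckeAlphaBar Qb N ℓ) (PG_B0L_heckeAlphaBarIntegral Qb N ℓ) D) :=
  rfl

theorem S35PU_beta_mk (D : Divisor.degZero (K := Qb) (F := modularFunctionFieldBar (N * ℓ))) :
    S35PU_beta N ℓ (Pic0.mk D) =
      Pic0.mk (S35PU_degZero (heckeBetaBar Qb N ℓ) (PG_B0L_heckeBetaBarIntegral Qb N ℓ) D) :=
  rfl

/-- `α_* [D] = 0` iff the push-forward of `D` is principal. -/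
theorem S35PU_alpha_eq_zero_iff
    (D : Divisor.degZero (K := Qb) (F := modularFunctionFieldBar (N * ℓ))) :
    S35PU_alpha N ℓ (Pic0.mk D) = 0 ↔
      (Divisor.pushforwardAlong (heckeAlphaBar Qb N ℓ) (PG_B0L_heckeAlphaBarIntegral Qb N ℓ)
        (D : Divisor Qb (modularFunctionFieldBar (N * ℓ)))).IsPrincipal := by
  rw [S35PU_alpha_mk]
  unfold Pic0.mk
  rw [QuotientAddGroup.eq_zero_iff, AddSubgroup.mem_addSubgroupOf]
  rfl

/-- `β_* [D] = 0` iff the push-forward of `D` is principal. -/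
theorem S35PU_beta_eq_zero_iff
    (D : Divisor.degZero (K := Qb) (F := modularFunctionFieldBar (N * ℓ))) :
    S35PU_beta N ℓ (Pic0.mk D) = 0 ↔
      (Divisor.pushforwardAlong (heckeBetaBar Qb N ℓ) (PG_B0L_heckeBetaBarIntegral Qb N ℓ)
        (D : Divisor Qb (modularFunctionFieldBar (N * ℓ)))).IsPrincipal := by
  rw [S35PU_beta_mk]
  unfold Pic0.mk
  rw [QuotientAddGroup.eq_zero_iff, AddSubgroup.mem_addSubgroupOf]
  rfl

/-- the push-forwards commute with `n •` (they are additive). -/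
theorem S35PU_alpha_nsmul (n : ℕ) (x : JZero (N * ℓ)) :
    S35PU_alpha N ℓ (n • x) = n • S35PU_alpha N ℓ x := map_nsmul _ n x

theorem S35PU_beta_nsmul (n : ℕ) (x : JZero (N * ℓ)) :
    S35PU_beta N ℓ (n • x) = n • S35PU_beta N ℓ x := map_nsmul _ n x

end JZeroSection

end

end Fermat.Agent.S35_helper6_PUSH
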