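import Mathlib
import Fermat.Agent.S34_helper6_RED
import Fermat.Agent.S35_helper6_PUSH

/-!
# S35, GEO-TOP (helper6): the formal top reduction of (GEO)

`S35GT_Key N' q lam` is the divisor-level contract with the geometry (prime `lam` only):

  for a valuation ring `A` of `ℚ̄` over `q`, a Frobenius lift `σ` at `A`, a divisor `D` of degree
  `0` of `F̄_{N' q}` whose two push-forwards to level `N'` are principal (`D` is NEW), a function
  `f` with `div f = lam ^ k • D` (`1 ≤ k`) and a function `h` with `div h = lam • Θ D`, the divisor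
  `Θ D` is principal, where `Θ = (σ² - q²)(σ² - 1)(σ - 1)`.

From it: `Θ = 0` on the new part of `J₀(N' q)[lam ^ k]` for every `k` (`S35GT_geo`).  The reduction
to a class of exact order `lam` is done here (`S35GT_abs`, for an arbitrary additive operator and
an arbitrary predicate stable under multiples).
-/

set_option autoImplicit false
set_option linter.unusedSectionVars false
set_option linter.unusedVariables false

open AlgebraicCurve ModularCurve
open Fermat.Agent.S34_helper6_RED Fermat.Agent.S35_helper6_PUSH Fermat.Agent.G_helper21_B0L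

noncomputable section

namespace Fermat.Agent.S35_helper6_GEOTOP

local notation "Qb" => AlgebraicClosure ℚ
local notation "GQ" => (AlgebraicClosure ℚ ≃ₐ[ℚ] AlgebraicClosure ℚ)

/-! ### the abstract reduction to exact order `p` -/

/-- **abstract top**: an additive operator `Θ` which kills every NEW class `x` of `p`-power order
as soon as `p • Θ x = 0`, kills every new class of `p`-power order. -/
theorem S35GT_abs {J : Type*} [AddCommGroup J] (Θ : J →+ J) (New : J → Prop)
    (hNew : ∀ (n : ℕ) (x : J), New x → New (n • x)) (p : ℕ)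
    (key : ∀ (k : ℕ) (x : J), 1 ≤ k → (p ^ k) • x = 0 → New x → p • Θ x = 0 → Θ x = 0) :
    ∀ (k : ℕ) (x : J), (p ^ k) • x = 0 → New x → Θ x = 0 := by
  intro k x hx hnew
  by_contra hz
  have hk : 1 ≤ k := by
    rcases Nat.eq_zero_or_pos k with h0 | h0
    · exfalso
      rw [h0, pow_zero, one_smul] at hx
      exact hz (by rw [hx, map_zero])
    · exact h0
  have hex : ∃ j : ℕ, (p ^ j) • Θ x = 0 := ⟨k, by rw [← map_nsmul, hx, map_zero]⟩
  classical
  set j := Nat.find hex with hj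
  have hjz : (p ^ j) • Θ x = 0 := Nat.find_spec hex
  have hj0 : j ≠ 0 := by
    intro h0
    rw [h0, pow_zero, one_smul] at hjz
    exact hz hjz
  obtain ⟨i, hi⟩ : ∃ i, j = i + 1 := ⟨j - 1, by omega⟩
  have hmin : (p ^ i) • Θ x ≠ 0 := by
    intro h0
    have := Nat.find_min' hex h0
    omega
  have hx'k : (p ^ k) • ((p ^ i) • x) = 0 := by
    rw [smul_comm, hx, smul_zero]
  have hpz' : p • Θ ((p ^ i) • x) = 0 := by
    rw [map_nsmul, ← mul_smul, ← pow_succ', ← hi]
    exact hjz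
  have := key k ((p ^ i) • x) hk hx'k (hNew _ _ hnew) hpz'
  rw [map_nsmul] at this
  exact hmin this

/-! ### the operator on divisors and on `J₀` -/

variable (N : ℕ)

/-- `(τ - e) D` on divisors of `F̄_N`. -/
def S35GT_dOp (τ : GQ) (e : ℤ) (D : Divisor Qb (modularFunctionFieldBar N)) :
    Divisor Qb (modularFunctionFieldBar N) :=
  S34R_g N τ • D - e • D

/-- **`Θ D = (σ² - q²)(σ² - 1)(σ - 1) D`** on divisors of `F̄_N`. -/
def S35GT_thetaD (q : ℕ) (σ : GQ) (D : Divisor Qb (modularFunctionFieldBar N)) :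
    Divisor Qb (modularFunctionFieldBar N) :=
  S35GT_dOp N (σ * σ) ((q : ℤ) ^ 2) (S35GT_dOp N (σ * σ) 1 (S35GT_dOp N σ 1 D))

variable {N}

theorem S35GT_dOp_apply (τ : GQ) (e : ℤ) (D : Divisor Qb (modularFunctionFieldBar N)) :
    S35GT_dOp N τ e D = S34R_g N τ • D - e • D := rfl

theorem S35GT_dOp_one (τ : GQ) (D : Divisor Qb (modularFunctionFieldBar N)) :
    S35GT_dOp N τ 1 D = S34R_g N τ • D - D := by
  rw [S35GT_dOp_apply, one_smul]

/-- the explicit three-step formula for `Θ D`. -/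
theorem S35GT_thetaD_apply (q : ℕ) (σ : GQ) (D : Divisor Qb (modularFunctionFieldBar N)) :
    S35GT_thetaD N q σ D =
      S34R_g N (σ * σ) • (S34R_g N (σ * σ) • (S34R_g N σ • D - D) - (S34R_g N σ • D - D))
        - ((q : ℤ) ^ 2) • (S34R_g N (σ * σ) • (S34R_g N σ • D - D) - (S34R_g N σ • D - D)) := by
  unfold S35GT_thetaD
  rw [S35GT_dOp_one, S35GT_dOp_one, S35GT_dOp_apply]

/-- `σ * σ` acts as `σ` twice. -/
theorem S35GT_g_mul (σ τ : GQ) (D : Divisor Qb (modularFunctionFieldBar N)) :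
    S34R_g N (σ * τ) • D = S34R_g N σ • (S34R_g N τ • D) := by
  show arithmeticGalois (modularFunctionFieldFull N) (σ * τ) • D = _
  rw [map_mul, mul_smul]

theorem S35GT_dOp_mem_degZero (τ : GQ) (e : ℤ) {D : Divisor Qb (modularFunctionFieldBar N)}
    (hD : D ∈ Divisor.degZero (K := Qb) (F := modularFunctionFieldBar N)) :
    S35GT_dOp N τ e D ∈ Divisor.degZero (K := Qb) (F := modularFunctionFieldBar N) := by
  unfold S35GT_dOp
  exact sub_mem (SemilinearAut.smul_mem_degZero _ hD) (AddSubgroup.zsmul_mem _ hD e)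

theorem S35GT_thetaD_mem_degZero (q : ℕ) (σ : GQ) {D : Divisor Qb (modularFunctionFieldBar N)}
    (hD : D ∈ Divisor.degZero (K := Qb) (F := modularFunctionFieldBar N)) :
    S35GT_thetaD N q σ D ∈ Divisor.degZero (K := Qb) (F := modularFunctionFieldBar N) :=
  S35GT_dOp_mem_degZero _ _ (S35GT_dOp_mem_degZero _ _ (S35GT_dOp_mem_degZero _ _ hD))

/-- `τ - e` on `J₀(N)`, as an additive map. -/
def S35GT_jOp (τ : GQ) (e : ℤ) : JZero N →+ JZero N :=
  S34R_act τ - e • AddMonoidHom.id (JZero N)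

theorem S35GT_jOp_apply (τ : GQ) (e : ℤ) (x : JZero N) :
    S35GT_jOp τ e x = τ • x - e • x := rfl

theorem S35GT_jOp_mk (τ : GQ) (e : ℤ)
    (D : Divisor.degZero (K := Qb) (F := modularFunctionFieldBar N)) :
    S35GT_jOp τ e (Pic0.mk D) =
      Pic0.mk ⟨S35GT_dOp N τ e (D : Divisor Qb (modularFunctionFieldBar N)),
        S35GT_dOp_mem_degZero τ e D.2⟩ := by
  rw [S35GT_jOp_apply, galois_smul_pic0_def, SemilinearAut.pic0_smul_mk]
  rfl

variable (N)

/-- **`Θ = (σ² - q²)(σ² - 1)(σ - 1)`** on `J₀(N)`, as an additive map. -/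
def S35GT_thetaJ (q : ℕ) (σ : GQ) : JZero N →+ JZero N :=
  (S35GT_jOp (σ * σ) ((q : ℤ) ^ 2)).comp ((S35GT_jOp (σ * σ) 1).comp (S35GT_jOp σ 1))

variable {N}

theorem S35GT_thetaJ_apply (q : ℕ) (σ : GQ) (x : JZero N) :
    S35GT_thetaJ N q σ x =
      S35GT_jOp (σ * σ) ((q : ℤ) ^ 2) (S35GT_jOp (σ * σ) 1 (S35GT_jOp σ 1 x)) := rfl

theorem S35GT_thetaJ_mk (q : ℕ) (σ : GQ)
    (D : Divisor.degZero (K := Qb) (F := modularFunctionFieldBar N)) :
    S35GT_thetaJ N q σ (Pic0.mk D) =
      Pic0.mk ⟨S35GT_thetaD N q σ (D : Divisor Qb (modularFunctionFieldBar N)),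
        S35GT_thetaD_mem_degZero q σ D.2⟩ := by
  rw [S35GT_thetaJ_apply, S35GT_jOp_mk, S35GT_jOp_mk, S35GT_jOp_mk]
  rfl

/-- the explicit formula on `J₀(N)` (with `σ • σ • _` instead of `(σ * σ) • _`). -/
theorem S35GT_thetaJ_explicit (q : ℕ) (σ : GQ) (x : JZero N) :
    S35GT_thetaJ N q σ x =
      σ • σ • (σ • σ • (σ • x - x) - (σ • x - x))
        - ((q : ℤ) ^ 2) • (σ • σ • (σ • x - x) - (σ • x - x)) := by
  rw [S35GT_thetaJ_apply, S35GT_jOp_apply, S35GT_jOp_apply, S35GT_jOp_apply, one_smul, one_smul,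
    mul_smul, mul_smul]

/-! ### the contract and the reduction -/

variable (N' q : ℕ) [NeZero N'] [NeZero q]

/-- **the contract with the geometry** (divisor level, prime `lam` only, `D` new). -/
def S35GT_Key (lam : ℕ) : Prop :=
  ∀ (A : ValuationSubring Qb), A.LiesOverPrime q → ∀ σ : GQ, A.IsFrobeniusAt σ q →
  ∀ (k : ℕ) (D : Divisor Qb (modularFunctionFieldBar (N' * q)))
    (f h : modularFunctionFieldBar (N' * q)),
    1 ≤ k → D ∈ Divisor.degZero (K := Qb) (F := modularFunctionFieldBar (N' * q)) →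
    f ≠ 0 → h ≠ 0 →
    (∀ P : Place Qb (modularFunctionFieldBar (N' * q)), P.ord f = (lam : ℤ) ^ k * D P) →
    (Divisor.pushforwardAlong (heckeAlphaBar Qb N' q) (PG_B0L_heckeAlphaBarIntegral Qb N' q)
      D).IsPrincipal →
    (Divisor.pushforwardAlong (heckeBetaBar Qb N' q) (PG_B0L_heckeBetaBarIntegral Qb N' q)
      D).IsPrincipal →
    (∀ P : Place Qb (modularFunctionFieldBar (N' * q)),
      P.ord h = (lam : ℤ) * S35GT_thetaD (N' * q) q σ D P) →
    ∃ w : modularFunctionFieldBar (N' * q), w ≠ 0 ∧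
      ∀ P : Place Qb (modularFunctionFieldBar (N' * q)),
        P.ord w = S35GT_thetaD (N' * q) q σ D P

/-- **GEO-TOP**: from the contract, `Θ = 0` on the new part of `J₀(N' q)[lam ^ k]`. -/
theorem S35GT_geo (lam : ℕ) (hKey : S35GT_Key N' q lam)
    (A : ValuationSubring Qb) (hA : A.LiesOverPrime q) (σ : GQ) (hσ : A.IsFrobeniusAt σ q) :
    ∀ (k : ℕ) (x : JZero (N' * q)), (lam ^ k) • x = 0 →
      S35PU_alpha N' q x = 0 → S35PU_beta N' q x = 0 → S35GT_thetaJ (N' * q) q σ x = 0 := by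
  intro k x hx hα hβ
  refine S35GT_abs (S35GT_thetaJ (N' * q) q σ)
    (fun y => S35PU_alpha N' q y = 0 ∧ S35PU_beta N' q y = 0) ?_ lam ?_ k x hx ⟨hα, hβ⟩
  · rintro n y ⟨h1, h2⟩
    exact ⟨by rw [map_nsmul, h1, smul_zero], by rw [map_nsmul, h2, smul_zero]⟩
  · rintro k x hk hx ⟨hα, hβ⟩ hp
    obtain ⟨D, hD⟩ := Pic0.mk_surjective x
    have hkD : (Pic0.mk ((lam ^ k) • D) : JZero (N' * q)) = 0 := by
      have : (Pic0.mk ((lam ^ k) • D) : JZero (N' * q)) = (lam ^ k) • Pic0.mk D := rfl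
      rw [this, hD, hx]
    obtain ⟨f, hf0, hf⟩ := (S34R_mk_eq_zero_iff _).mp hkD
    have hpD : (Pic0.mk (lam • (⟨S35GT_thetaD (N' * q) q σ
        (D : Divisor Qb (modularFunctionFieldBar (N' * q))),
        S35GT_thetaD_mem_degZero q σ D.2⟩ :
          Divisor.degZero (K := Qb) (F := modularFunctionFieldBar (N' * q)))) :
          JZero (N' * q)) = 0 := by
      have : (Pic0.mk (lam • (⟨S35GT_thetaD (N' * q) q σ
        (D : Divisor Qb (modularFunctionFieldBar (N' * q))),
        S35GT_thetaD_mem_degZero q σ D.2⟩ :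
          Divisor.degZero (K := Qb) (F := modularFunctionFieldBar (N' * q)))) :
          JZero (N' * q))
          = lam • Pic0.mk ⟨S35GT_thetaD (N' * q) q σ
        (D : Divisor Qb (modularFunctionFieldBar (N' * q))),
        S35GT_thetaD_mem_degZero q σ D.2⟩ := rfl
      rw [this, ← S35GT_thetaJ_mk, hD, hp]
    obtain ⟨h', hh'0, hh'⟩ := (S34R_mk_eq_zero_iff _).mp hpD
    rw [← hD] at hα hβ
    obtain ⟨w, hw0, hw⟩ := hKey A hA σ hσ k (D : Divisor Qb (modularFunctionFieldBar (N' * q)))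
      f h' hk D.2 hf0 hh'0
      (fun P => by
        rw [← hf P]
        simp [Finsupp.smul_apply])
      ((S35PU_alpha_eq_zero_iff N' q D).mp hα)
      ((S35PU_beta_eq_zero_iff N' q D).mp hβ)
      (fun P => by
        rw [← hh' P]
        simp [Finsupp.smul_apply])
    rw [← hD, S35GT_thetaJ_mk, S34R_mk_eq_zero_iff]
    exact ⟨w, hw0, fun P => (hw P).symm⟩

end Fermat.Agent.S35_helper6_GEOTOP
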