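import Fermat.Agent.S35_helper15_TORIC
import Fermat.Agent.S35_helper6_GEOTOP
import Fermat.Agent.S35_helper7_LGFDefs
import Fermat.Agent.S34_helper27_P1C
import Fermat.Agent.S34_helper25_Defs
import Fermat.Agent.S34_Contracts

/-!
# S35 (helper27): X-D-FROB, the interfaces of Part II (definitions only)

Level `N' * q` (`q ∤ N'`), `A` a valuation ring of `ℚ̄` over `q`, `σ` a Frobenius lift at `A`,
`K1` an admissible Galois-stable level.  Carriers as in S34: `L = K1((q))`, `O = S18K_O A K1`,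
`π = S18K_π A K1`, `F1 = S18K_F1 K1 (N' * q)`, `V1 = S18K_V A K1 (N' * q)` (Gauss),
`V2 = S34P1C_V2 A K1 hq N' hqN = w(V1)`, finite chart `A0 = S18K_A0 A K1 (N' * q)`.

Multiplicative operators on `L` (`act τ = S34ACT_act K1 hstab τ`, coefficientwise):

* `S35XD2_d τ f  = act τ f * f⁻¹`                         (`(τ - 1) · f`);
* `S35XD2_f2 σ f = S35XD2_d (σ * σ) (S35XD2_d σ f)`       (`(σ² - 1)(σ - 1) · f`, the `f''` of the plan);
* `S35XD2_f3 σ q f = act (σ * σ) f'' * (f'' ^ (q ^ 2))⁻¹` (`Θ · f`, `Θ = (σ² - q²)(σ² - 1)(σ - 1)`).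

* `S35XD2_NewAlpha`, `S35XD2_NewBeta` : newness at the level of functions over `K1`
  (`N_α f = C c · h ^ n`, `N_α (w f) = C c · h ^ n`, `h` of level `N'`): the output of NORM-BRIDGE
  and the input of REDNEW / TORIC.
* `S35XD2_KeyK1` : **the key statement at one level** = the interface between Part I (descent
  `ℚ̄ → K1`, `S35XD2_KeyK1 → S35GT_Key`) and Part II (`S35XD2_Contract → S35XD2_KeyK1`).
* `S35XD2_Contract` : **the contract of Part II with the bricks** at one `(A, K1, σ)`: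
  `ord2` (ACTF), `toric` (REDNEW / TORIC), `const` (CONST), `redU` (REDF1).  The other bricks
  (CROSS2K, LOCALK, LOCAL, INF, (N1), KUM, block C') are landed and plugged inside Part II.
-/

set_option autoImplicit false
set_option linter.unusedSectionVars false
set_option linter.unusedVariables false
set_option linter.style.haveILetI false

open AlgebraicCurve ModularCurve HahnSeries IntermediateField
open Fermat.Agent.S18_helper9_CDefs Fermat.Agent.S18_helper25_COREDefs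
  Fermat.Agent.S34_helper12_CDefs Fermat.Agent.S34_helper6_RED Fermat.Agent.S34_helper5_K0
  Fermat.Agent.S18_helper3_LOCRING Fermat.Agent.S37_helper4_B1Defs
  Fermat.Agent.S37_helper5_LEVEL Fermat.Agent.S34_Contracts Fermat.Agent.S34_helper21_ACT
  Fermat.Agent.S34_helper20_V0 Fermat.Agent.S34_helper20_V0K
  Fermat.Agent.S34_helper27_V3K Fermat.Agent.S34_helper13_KEY
  Fermat.Agent.S34_helper7_LGDefs Fermat.Agent.S35_helper7_LGFDefs
  Fermat.Agent.S34_helper27_P1C Fermat.Agent.S34_helper25_Defs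
  Fermat.Agent.S35_helper6_GEOTOP

noncomputable section

namespace Fermat.Agent.S35_helper27_XD2Defs

local notation "Qb" => AlgebraicClosure ℚ
local notation "GQ" => (AlgebraicClosure ℚ ≃ₐ[ℚ] AlgebraicClosure ℚ)

section Operators

variable (K1 : IntermediateField ℚ Qb) (hstab : ∀ σ : GQ, ∀ x ∈ K1, σ x ∈ K1)

/-- `(τ - 1) · f = τ f / f` (multiplicative). -/
def S35XD2_d (τ : GQ) (f : LaurentSeries K1) : LaurentSeries K1 :=
  S34ACT_act K1 hstab τ f * f⁻¹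

/-- `f'' = (σ² - 1)(σ - 1) · f`. -/
def S35XD2_f2 (σ : GQ) (f : LaurentSeries K1) : LaurentSeries K1 :=
  S35XD2_d K1 hstab (σ * σ) (S35XD2_d K1 hstab σ f)

/-- `Θ · f = (σ² - q²)(σ² - 1)(σ - 1) · f`. -/
def S35XD2_f3 (σ : GQ) (q : ℕ) (f : LaurentSeries K1) : LaurentSeries K1 :=
  S34ACT_act K1 hstab (σ * σ) (S35XD2_f2 K1 hstab σ f) * (S35XD2_f2 K1 hstab σ f ^ (q ^ 2))⁻¹

end Operators

section New

variable (K1 : IntermediateField ℚ Qb) (q N' : ℕ) [NeZero N'] [NeZero (N' * q)]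
  (hq : q.Prime) (hqN : ¬ q ∣ N')

/-- **newness along `α`** at the level of functions over `K1`: the norm of `f` from level
`N' * q` to level `N'` is a constant times an `n`-th power. -/
def S35XD2_NewAlpha (n : ℕ) (f : LaurentSeries K1) (hf : f ∈ S18K_F1 K1 (N' * q)) : Prop :=
  letI := S34KEY_alg (S34V3K_F1_mono K1 (S34V0K_dvd (Nat.mul_comm N' q)))
  ∃ c : K1, c ≠ 0 ∧ ∃ h ∈ S18K_F1 K1 N', h ≠ 0 ∧
    ((Algebra.norm ↥(S18K_F1 K1 N') (⟨f, hf⟩ : ↥(S18K_F1 K1 (N' * q))) : ↥(S18K_F1 K1 N')) :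
      LaurentSeries K1) = HahnSeries.C c * h ^ n

/-- **newness along `β`**: the same for the Atkin–Lehner transform `w f`. -/
def S35XD2_NewBeta (n : ℕ) (f : LaurentSeries K1) : Prop :=
  letI := S34KEY_alg (S34V3K_F1_mono K1 (S34V0K_dvd (Nat.mul_comm N' q)))
  ∃ c : K1, c ≠ 0 ∧ ∃ h ∈ S18K_F1 K1 N', h ≠ 0 ∧
    ((Algebra.norm ↥(S18K_F1 K1 N')
      (⟨S34V0_wL (S34V0K_emb K1) q N' (N' * q) hq hqN (Nat.mul_comm N' q) f,
        S34V0_wL_mem (S34V0K_emb K1) q N' (N' * q) hq hqN (Nat.mul_comm N' q) f⟩ :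
          ↥(S18K_F1 K1 (N' * q))) : ↥(S18K_F1 K1 N')) : LaurentSeries K1) =
      HahnSeries.C c * h ^ n

end New

/-- **The key statement at one level** (interface Part I / Part II).  `D` has `K1`-rational
support, `f0` is a function over `K1` with `div f0 = lam ^ k • D` (`1 ≤ k`), new along `α` and
`β`; `h1` is a function over `K1` with `h1 ^ (lam ^ (k - 1)) = Θ · f0` EXACTLY (no constant),
`div h1 = lam • Θ D`, leading coefficient a `lam`-th power in `K1`.  Then `h1` is a `lam`-th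
power in `F1(K1)`. -/
def S35XD2_KeyK1 (N' q lam : ℕ) [NeZero N'] [NeZero (N' * q)] (hq : q.Prime)
    (hqN : ¬ q ∣ N') : Prop :=
  ∀ (A : ValuationSubring Qb), A.LiesOverPrime q →
  ∀ (K1 : IntermediateField ℚ Qb) (_hadm : S18K_Admissible A K1 q)
    (hstab : ∀ σ : GQ, ∀ y ∈ K1, σ y ∈ K1),
  ∀ σ : GQ, A.IsFrobeniusAt σ q →
  ∀ (D : Divisor Qb (modularFunctionFieldBar (N' * q))),
    (∀ P : Place Qb (modularFunctionFieldBar (N' * q)), D P ≠ 0 →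
      S37LEVEL_IsRational (N' * q) K1 P) →
  ∀ (k : ℕ), 1 ≤ k →
  ∀ (f0 : LaurentSeries K1) (hf0 : f0 ∈ S18K_F1 K1 (N' * q)), f0 ≠ 0 →
    (∀ P : Place Qb (modularFunctionFieldBar (N' * q)),
      S37B1_ordP (N' * q) K1 P f0 = ((lam ^ k : ℕ) : ℤ) * D P) →
    S35XD2_NewAlpha K1 q N' (lam ^ k) f0 hf0 →
    S35XD2_NewBeta K1 q N' hq hqN (lam ^ k) f0 →
  ∀ (h1 : modularFunctionFieldFullC K1 (N' * q)), (h1 : LaurentSeries K1) ≠ 0 →
    (h1 : LaurentSeries K1) ^ (lam ^ (k - 1)) = S35XD2_f3 K1 hstab σ q f0 →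
    (∀ P : Place Qb (modularFunctionFieldBar (N' * q)),
      P.ord (S34XD_inc K1 (N' * q) h1) = (lam : ℤ) * S35GT_thetaD (N' * q) q σ D P) →
    (∃ r : K1, r ^ lam = (h1 : LaurentSeries K1).coeff (h1 : LaurentSeries K1).order) →
    ∃ w : LaurentSeries K1, w ∈ S18K_F1 K1 (N' * q) ∧ w ^ lam = (h1 : LaurentSeries K1)

section Contract

variable (A : ValuationSubring Qb) (K1 : IntermediateField ℚ Qb)
  (hstab : ∀ σ : GQ, ∀ x ∈ K1, σ x ∈ K1) [IsDiscreteValuationRing (S18K_O1 A K1)]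
  {q : ℕ} (hq : q.Prime) (N' : ℕ) [NeZero N'] [NeZero (N' * q)] (hqN : ¬ q ∣ N') (σ : GQ)

/-- **The contract of Part II with the bricks**, at one place `A`, one level `K1`, one Frobenius
lift `σ`, for the prime `lam`. -/
structure S35XD2_Contract (lam : ℕ) : Prop where
  /-- ACTF (AF2, twice): the divisor of `f'' = (σ² - 1)(σ - 1) · f0`. -/
  ord2 : ∀ (n : ℕ) (D : Divisor Qb (modularFunctionFieldBar (N' * q))) (f0 : LaurentSeries K1),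
    f0 ∈ S18K_F1 K1 (N' * q) → f0 ≠ 0 →
    (∀ P : Place Qb (modularFunctionFieldBar (N' * q)),
      S37B1_ordP (N' * q) K1 P f0 = (n : ℤ) * D P) →
    ∀ P : Place Qb (modularFunctionFieldBar (N' * q)),
      S37B1_ordP (N' * q) K1 P (S35XD2_f2 K1 hstab σ f0) =
        (n : ℤ) * (S34R_g (N' * q) (σ * σ) • (S34R_g (N' * q) σ • D - D)
          - (S34R_g (N' * q) σ • D - D)) P
  /-- REDNEW / TORIC: the toric shape of `f''` on both branches. -/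
  toric : ∀ (n : ℕ) (f0 : LaurentSeries K1) (hf0 : f0 ∈ S18K_F1 K1 (N' * q)), f0 ≠ 0 →
    S35XD2_NewAlpha K1 q N' n f0 hf0 → S35XD2_NewBeta K1 q N' hq hqN n f0 →
    ∃ c1 c2 H1 H2 : LaurentSeries K1,
      c1 ∈ S18K_O A K1 ∧ c1⁻¹ ∈ S18K_O A K1 ∧ c2 ∈ S18K_O A K1 ∧ c2⁻¹ ∈ S18K_O A K1 ∧
      H1 ∈ S18K_F1 K1 (N' * q) ∧ H2 ∈ S18K_F1 K1 (N' * q) ∧
      H1 ∈ (S18K_V A K1 (N' * q) ⊓ S34P1C_V2 A K1 hq N' hqN : Subring (LaurentSeries K1)) ∧
      H1⁻¹ ∈ (S18K_V A K1 (N' * q) ⊓ S34P1C_V2 A K1 hq N' hqN : Subring (LaurentSeries K1)) ∧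
      H2 ∈ (S18K_V A K1 (N' * q) ⊓ S34P1C_V2 A K1 hq N' hqN : Subring (LaurentSeries K1)) ∧
      H2⁻¹ ∈ (S18K_V A K1 (N' * q) ⊓ S34P1C_V2 A K1 hq N' hqN : Subring (LaurentSeries K1)) ∧
      (∃ v ∈ S18K_V A K1 (N' * q),
        S35XD2_f2 K1 hstab σ f0 = c1 * H1 ^ n * (1 + S18K_π A K1 * v)) ∧
      (∃ v ∈ S34P1C_V2 A K1 hq N' hqN,
        S35XD2_f2 K1 hstab σ f0 = c2 * H2 ^ n * (1 + S18K_π A K1 * v))
  /-- CONST: the branch constants of `h` and the global root `G`. -/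
  const : ∀ (n' : ℕ), 0 < n' → ∀ (f2 h c1 c2 H1 H2 : LaurentSeries K1),
    f2 ∈ S18K_F1 K1 (N' * q) → h ∈ S18K_F1 K1 (N' * q) → h ≠ 0 →
    h ∈ (S18K_V A K1 (N' * q) ⊓ S34P1C_V2 A K1 hq N' hqN : Subring (LaurentSeries K1)) →
    h⁻¹ ∈ (S18K_V A K1 (N' * q) ⊓ S34P1C_V2 A K1 hq N' hqN : Subring (LaurentSeries K1)) →
    c1 ∈ S18K_O A K1 → c1⁻¹ ∈ S18K_O A K1 → c2 ∈ S18K_O A K1 → c2⁻¹ ∈ S18K_O A K1 →
    H1 ∈ S18K_F1 K1 (N' * q) → H2 ∈ S18K_F1 K1 (N' * q) →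
    H1 ∈ (S18K_V A K1 (N' * q) ⊓ S34P1C_V2 A K1 hq N' hqN : Subring (LaurentSeries K1)) →
    H1⁻¹ ∈ (S18K_V A K1 (N' * q) ⊓ S34P1C_V2 A K1 hq N' hqN : Subring (LaurentSeries K1)) →
    H2 ∈ (S18K_V A K1 (N' * q) ⊓ S34P1C_V2 A K1 hq N' hqN : Subring (LaurentSeries K1)) →
    H2⁻¹ ∈ (S18K_V A K1 (N' * q) ⊓ S34P1C_V2 A K1 hq N' hqN : Subring (LaurentSeries K1)) →
    (∃ v ∈ S18K_V A K1 (N' * q), f2 = c1 * H1 ^ (lam * n') * (1 + S18K_π A K1 * v)) →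
    (∃ v ∈ S34P1C_V2 A K1 hq N' hqN, f2 = c2 * H2 ^ (lam * n') * (1 + S18K_π A K1 * v)) →
    h ^ n' = S34ACT_act K1 hstab (σ * σ) f2 * (f2 ^ (q ^ 2))⁻¹ →
    ∃ γ1 γ2 b1 b2 G : LaurentSeries K1,
      γ1 ∈ S18K_O A K1 ∧ γ2 ∈ S18K_O A K1 ∧
      b1 ∈ S18K_O A K1 ∧ b1⁻¹ ∈ S18K_O A K1 ∧ b2 ∈ S18K_O A K1 ∧
      ((∃ o ∈ S18K_O A K1, γ1 - γ2 = S18K_π A K1 * o) → b1 = b2) ∧
      G ≠ 0 ∧
      RedPow (S18K_π A K1) (S18K_V A K1 (N' * q) ⊓ S34P1C_V2 A K1 hq N' hqN) lam h G ∧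
      (∃ v ∈ S18K_V A K1 (N' * q),
        h = γ1 * (S34ACT_act K1 hstab (σ * σ) H1 * (H1 ^ (q ^ 2))⁻¹) ^ lam *
          (1 + S18K_π A K1 * v)) ∧
      (∃ v ∈ S34P1C_V2 A K1 hq N' hqN,
        h = γ2 * (S34ACT_act K1 hstab (σ * σ) H2 * (H2 ^ (q ^ 2))⁻¹) ^ lam *
          (1 + S18K_π A K1 * v)) ∧
      (∃ v ∈ S18K_V A K1 (N' * q),
        G = b1 * (S34ACT_act K1 hstab (σ * σ) H1 * (H1 ^ (q ^ 2))⁻¹) *
          (1 + S18K_π A K1 * v)) ∧
      (∃ v ∈ S34P1C_V2 A K1 hq N' hqN,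
        G = b2 * (S34ACT_act K1 hstab (σ * σ) H2 * (H2 ^ (q ^ 2))⁻¹) *
          (1 + S18K_π A K1 * v))
  /-- REDF1 = `hRedU` of helper7's `S35X2K_cross_A0`, verbatim, at every crossing point of the
  finite chart. -/
  redU : ∀ (hπ : S18K_π A K1 ∈ S18K_A0 A K1 (N' * q)) (m : Ideal (S18K_A0 A K1 (N' * q)))
    (hm : m.IsMaximal), (⟨S18K_π A K1, hπ⟩ : S18K_A0 A K1 (N' * q)) ∈ m →
    S34K_Thru (S18K_π A K1) (S18K_V A K1 (N' * q)) (S18K_A0 A K1 (N' * q)) m →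
    S34K_Thru (S18K_π A K1) (S34P1C_V2 A K1 hq N' hqN) (S18K_A0 A K1 (N' * q)) m →
    ∀ (ϖ : K1) (k : ℕ) (T S' c : LaurentSeries K1),
      (haveI := hm.isPrime; S34LGK_NodeData (N' * q) A K1 hstab (S34P1C_V2 A K1 hq N' hqN)
        (S18K_A0 A K1 (N' * q)) m ϖ k T S' c) →
      ∀ a ρ : K1, (a : Qb) ∈ A.nonunits → (ρ : Qb) ∈ A.nonunits → ϖ ^ k = a * ρ →
        (haveI := hm.isPrime
         S35LGK_LU (S18K_π A K1) (S18K_V A K1 (N' * q)) (S18K_A0 A K1 (N' * q)) m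
            (S34ACT_act K1 hstab (σ * σ) (T - HahnSeries.C a) * (T - HahnSeries.C a)⁻¹) ∧
          S35LGK_LU (S18K_π A K1) (S34P1C_V2 A K1 hq N' hqN) (S18K_A0 A K1 (N' * q)) m
            (S34ACT_act K1 hstab (σ * σ) (T - HahnSeries.C a) * (T - HahnSeries.C a)⁻¹)) ∧
        (haveI := hm.isPrime
         S35LGK_LU (S18K_π A K1) (S18K_V A K1 (N' * q)) (S18K_A0 A K1 (N' * q)) m
            (S34ACT_act K1 hstab (σ * σ) (S' - HahnSeries.C a) * (S' - HahnSeries.C a)⁻¹) ∧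
          S35LGK_LU (S18K_π A K1) (S34P1C_V2 A K1 hq N' hqN) (S18K_A0 A K1 (N' * q)) m
            (S34ACT_act K1 hstab (σ * σ) (S' - HahnSeries.C a) * (S' - HahnSeries.C a)⁻¹))

end Contract

end Fermat.Agent.S35_helper27_XD2Defs
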