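import Mathlib
import Fermat.Agent.S35_helper17_REDF1K
import Fermat.Agent.S35_helper27_XD2Defs

/-!
# S35, GEO-REDF1 in contract shape (helper17)

`S35RFX_redU` : the field `redU` of helper27's `S35XD2_Contract` (Part II of X-D-FROB), verbatim,
from the landed `S35RFK_redU`.
-/

set_option autoImplicit false
set_option linter.unusedSectionVars false
set_option linter.unusedVariables false
set_option linter.style.haveILetI false
set_option maxHeartbeats 1000000
set_option synthInstance.maxHeartbeats 400000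

open AlgebraicCurve ModularCurve HahnSeries IntermediateField

noncomputable section

namespace Fermat.Agent.S35_helper17_REDUX

open Fermat.Agent.S18_helper9_CDefs Fermat.Agent.S18_helper25_COREDefs
  Fermat.Agent.S34_helper12_CDefs Fermat.Agent.S18_helper3_LOCRING
  Fermat.Agent.S34_Contracts Fermat.Agent.S34_helper21_ACT
  Fermat.Agent.S34_helper7_LGDefs Fermat.Agent.S35_helper7_LGFDefs
  Fermat.Agent.S34_helper27_P1C Fermat.Agent.S35_helper17_REDF1K
  Fermat.Agent.S35_helper27_XD2Defs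

local notation "Qb" => AlgebraicClosure ℚ
local notation "GQ" => (AlgebraicClosure ℚ ≃ₐ[ℚ] AlgebraicClosure ℚ)

variable (A : ValuationSubring Qb) (K1 : IntermediateField ℚ Qb)
  (hstab : ∀ σ : GQ, ∀ x ∈ K1, σ x ∈ K1) [IsDiscreteValuationRing (S18K_O1 A K1)]
  {q : ℕ} (hq : q.Prime) (N' : ℕ) [NeZero N'] [NeZero (N' * q)] (hqN : ¬ q ∣ N') (σ : GQ)

/-- **The field `redU` of `S35XD2_Contract`**, verbatim. -/
theorem S35RFX_redU (hA : A.LiesOverPrime q) (h : S18K_Admissible A K1 q)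
    (hσ : A.IsFrobeniusAt σ q) :
    ∀ (hπ : S18K_π A K1 ∈ S18K_A0 A K1 (N' * q)) (m : Ideal (S18K_A0 A K1 (N' * q)))
    (hm : m.IsMaximal), (⟨S18K_π A K1, hπ⟩ : S18K_A0 A K1 (N' * q)) ∈ m →
    S34K_Thru (S18K_π A K1) (S18K_V A K1 (N' * q)) (S18K_A0 A K1 (N' * q)) m →
    S34K_Thru (S18K_π A K1) (S34P1C_V2 A K1 hq N' hqN) (S18K_A0 A K1 (N' * q)) m →
    ∀ (ϖ : K1) (k : ℕ) (T S' c : LaurentSeries K1),
      (haveI := hm.isPrime; S34LGK_NodeData (N' * q) A K1 hstab (S34P1C_V2 A K1 hq N' hqN)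
        (S18K_A0 A K1 (N' * q)) m ϖ k T S' c) →
      ∀ a ρ : K1, (a : Qb) ∈ A.nonunits → (ρ : Qb) ∈ A.nonunits → ϖ ^ k = a * ρ →
        (haveI := hm.isPrime
         S35LGK_LU (S18K_π A K1) (S18K_V A K1 (N' * q)) (S18K_A0 A K1 (N' * q)) m
            (S34ACT_act K1 hstab (σ * σ) (T - HahnSeries.C a) * (T - HahnSeries.C a)⁻¹) ∧
          S35LGK_LU (S18K_π A K1) (S34P1C_V2 A K1 hq N' hqN) (S18K_A0 A K1 (N' * q)) m
            (S34ACT_act K1 hstab (σ * σ) (T - HahnSeries.C a) * (T - HahnSeries.C a)⁻¹)) ∧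
        (haveI := hm.isPrime
         S35LGK_LU (S18K_π A K1) (S18K_V A K1 (N' * q)) (S18K_A0 A K1 (N' * q)) m
            (S34ACT_act K1 hstab (σ * σ) (S' - HahnSeries.C a) * (S' - HahnSeries.C a)⁻¹) ∧
          S35LGK_LU (S18K_π A K1) (S34P1C_V2 A K1 hq N' hqN) (S18K_A0 A K1 (N' * q)) m
            (S34ACT_act K1 hstab (σ * σ) (S' - HahnSeries.C a) * (S' - HahnSeries.C a)⁻¹)) :=
  fun hπ m hm _ ht1 ht2 => S35RFK_redU A K1 hstab hq hA h N' hqN σ hσ hπ m hm ht1 ht2

/-- plug test: `S35RFX_redU` is accepted as the field `redU` of the contract. -/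
theorem S35RFX_contract (lam : ℕ) (hA : A.LiesOverPrime q) (h : S18K_Admissible A K1 q)
    (hσ : A.IsFrobeniusAt σ q) (C0 : S35XD2_Contract A K1 hstab hq N' hqN σ lam) :
    S35XD2_Contract A K1 hstab hq N' hqN σ lam :=
  { ord2 := C0.ord2
    toric := C0.toric
    const := C0.const
    redU := S35RFX_redU A K1 hstab hq N' hqN σ hA h hσ }

end Fermat.Agent.S35_helper17_REDUX
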