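import Mathlib
import Fermat.Agent.S35_helper6_PUSH
import Fermat.Agent.G_helper7_G8g

/-!
# S35, (P6), step (w2) (helper10): `β_* ∘ w = α_*`

Abstract form: let `φ ψ : F →ₐ[K] F'` be two embeddings of function fields and `g'` a semilinear
automorphism of `F'` with `g' ∘ φ = ψ`.  Then, on places, `(g' • P)|_ψ = P|_φ`; on divisors,
`ψ_* (g' • D) = φ_* D`; on `Pic⁰`, `ψ_* (g' • x) = φ_* x` (all places of degree one).

Modular form: for an automorphism `g'` of the function field of level `N ℓ` over an algebraically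
closed field with `g' ∘ α = β` (Atkin-Lehner), `β_* (g' • x) = α_* x`.
-/

set_option autoImplicit false
set_option linter.style.haveILetI false
set_option linter.unusedSectionVars false
set_option linter.unusedVariables false

open AlgebraicCurve ModularCurve IntermediateField

namespace Fermat.Agent.S35_helper10_W2

open Fermat.Agent.S35_helper6_PUSH Fermat.Agent.G_helper7_G8g

noncomputable section

section Generic

open scoped Pointwise

variable {K F F' : Type*} [Field K] [Field F] [Field F'] [Algebra K F] [Algebra K F']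
variable (φ ψ : F →ₐ[K] F') (hφ : φ.toRingHom.IsIntegral) (hψ : ψ.toRingHom.IsIntegral)
variable (g' : SemilinearAut K F')

/-- the restriction along `ψ = g' ∘ φ` of `g' • P` is the restriction of `P` along `φ`. -/
theorem S35W2_restrictAlong (h : ∀ x : F, g' • φ x = ψ x) (P : Place K F') :
    (g' • P).restrictAlong ψ hψ = P.restrictAlong φ hφ := by
  apply Place.ext
  ext x
  rw [PG8g_mem_restrictAlong, PG8g_mem_restrictAlong, SemilinearAut.smul_toValuationSubring,
    ValuationSubring.mem_pointwise_smul_iff_inv_smul_mem, ← h x, inv_smul_smul]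

/-- the inertia degrees agree (all places of degree one). -/
theorem S35W2_inertiaDegAlong (hdeg : ∀ v : Place K F, v.deg = 1)
    (hdeg' : ∀ v : Place K F', v.deg = 1) (P : Place K F') :
    (g' • P).inertiaDegAlong ψ hψ = P.inertiaDegAlong φ hφ := by
  rw [PG8g_inertiaDegAlong_eq_one ψ hψ (g' • P) (hdeg _) (hdeg' _),
    PG8g_inertiaDegAlong_eq_one φ hφ P (hdeg _) (hdeg' _)]

/-- **divisor level**: `ψ_* (g' • D) = φ_* D` when `g' ∘ φ = ψ`. -/
theorem S35W2_pushforwardAlong (hdeg : ∀ v : Place K F, v.deg = 1)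
    (hdeg' : ∀ v : Place K F', v.deg = 1) (h : ∀ x : F, g' • φ x = ψ x) (D : Divisor K F') :
    Divisor.pushforwardAlong ψ hψ (g' • D) = Divisor.pushforwardAlong φ hφ D := by
  induction D using Finsupp.induction with
  | zero => simp
  | single_add w n D _ _ ih =>
    rw [smul_add, map_add, map_add, ih, SemilinearAut.smul_single,
      Divisor.pushforwardAlong_single, Divisor.pushforwardAlong_single,
      S35W2_restrictAlong φ ψ hφ hψ g' h, S35W2_inertiaDegAlong φ ψ hφ hψ g' hdeg hdeg']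

/-- **divisor level, inverse direction**: `φ_* (g'⁻¹ • D) = ψ_* D` when `g' ∘ φ = ψ`. -/
theorem S35W2_pushforwardAlong_inv (hdeg : ∀ v : Place K F, v.deg = 1)
    (hdeg' : ∀ v : Place K F', v.deg = 1) (h : ∀ x : F, g' • φ x = ψ x) (D : Divisor K F') :
    Divisor.pushforwardAlong φ hφ (g'⁻¹ • D) = Divisor.pushforwardAlong ψ hψ D := by
  rw [← S35W2_pushforwardAlong φ ψ hφ hψ g' hdeg hdeg' h (g'⁻¹ • D), smul_inv_smul]

variable (hfinφ : FiniteAlong K φ) (hNφ : NormFormulaAlong K φ hfinφ)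
variable (hfinψ : FiniteAlong K ψ) (hNψ : NormFormulaAlong K ψ hfinψ)

/-- **`Pic⁰` level**: `ψ_* (g' • x) = φ_* x` when `g' ∘ φ = ψ`. -/
theorem S35W2_pic0 (hdeg : ∀ v : Place K F, v.deg = 1) (hdeg' : ∀ v : Place K F', v.deg = 1)
    (h : ∀ x : F, g' • φ x = ψ x) (x : Pic0 K F') :
    S35PU_pic0 ψ hψ hfinψ hNψ (g' • x) = S35PU_pic0 φ hφ hfinφ hNφ x := by
  obtain ⟨D, rfl⟩ := Pic0.mk_surjective x
  rw [SemilinearAut.pic0_smul_mk, S35PU_pic0_mk, S35PU_pic0_mk]
  congr 1
  apply Subtype.ext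
  rw [S35PU_coe_degZero, SemilinearAut.coe_degZeroSMulHom, S35PU_coe_degZero]
  exact S35W2_pushforwardAlong φ ψ hφ hψ g' hdeg hdeg' h D

/-- **`Pic⁰` level, inverse direction**: `φ_* (g'⁻¹ • x) = ψ_* x` when `g' ∘ φ = ψ`. -/
theorem S35W2_pic0_inv (hdeg : ∀ v : Place K F, v.deg = 1) (hdeg' : ∀ v : Place K F', v.deg = 1)
    (h : ∀ x : F, g' • φ x = ψ x) (x : Pic0 K F') :
    S35PU_pic0 φ hφ hfinφ hNφ (g'⁻¹ • x) = S35PU_pic0 ψ hψ hfinψ hNψ x := by
  rw [← S35W2_pic0 φ ψ hφ hψ g' hfinφ hNφ hfinψ hNψ hdeg hdeg' h (g'⁻¹ • x), smul_inv_smul]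

end Generic

/-! ### the modular form: `β_* (g' • x) = α_* x` -/

section Modular

open Fermat.Agent.G_helper21_B0L

variable (L : Type*) [Field L] [Algebra ℚ L] [IsAlgClosed L]

/-- every place of the function field of `X₀(N)` over `L` has degree one. -/
theorem S35W2_deg_eq_one (N : ℕ) [NeZero N]
    (v : Place L (laurentBaseChange L (modularFunctionFieldFull N))) : v.deg = 1 := by
  haveI := PG_B0L_finiteDimensional L N
  exact Fermat.Agent.S24_helper15_A1.deg_eq_one (PG_B0L_jElt L N)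
    (Algebra.IsAlgebraic.of_finite _ _) v

variable (N ℓ : ℕ) [NeZero N] [NeZero ℓ]

/-- **(w2), divisor level.** -/
theorem S35W2_beta_pushforward
    (g' : SemilinearAut L (laurentBaseChange L (modularFunctionFieldFull (N * ℓ))))
    (h : ∀ x : laurentBaseChange L (modularFunctionFieldFull N),
      g' • heckeAlphaBar L N ℓ x = heckeBetaBar L N ℓ x)
    (D : Divisor L (laurentBaseChange L (modularFunctionFieldFull (N * ℓ)))) :
    Divisor.pushforwardAlong (heckeBetaBar L N ℓ) (PG_B0L_heckeBetaBarIntegral L N ℓ) (g' • D) =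
      Divisor.pushforwardAlong (heckeAlphaBar L N ℓ) (PG_B0L_heckeAlphaBarIntegral L N ℓ) D :=
  S35W2_pushforwardAlong _ _ _ _ g' (S35W2_deg_eq_one L N) (S35W2_deg_eq_one L (N * ℓ)) h D

/-- **(w2)**: `β_* (g' • x) = α_* x` for an automorphism `g'` of the function field of level
`N ℓ` with `g' ∘ α = β`. -/
theorem S35W2_betaL
    (g' : SemilinearAut L (laurentBaseChange L (modularFunctionFieldFull (N * ℓ))))
    (h : ∀ x : laurentBaseChange L (modularFunctionFieldFull N),
      g' • heckeAlphaBar L N ℓ x = heckeBetaBar L N ℓ x)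
    (x : Pic0 L (laurentBaseChange L (modularFunctionFieldFull (N * ℓ)))) :
    S35PU_betaL L N ℓ (g' • x) = S35PU_alphaL L N ℓ x :=
  S35W2_pic0 _ _ _ _ g' _ _ _ _ (S35W2_deg_eq_one L N) (S35W2_deg_eq_one L (N * ℓ)) h x

/-- **(w2), inverse direction**: `α_* (g'⁻¹ • x) = β_* x`. -/
theorem S35W2_alphaL_inv
    (g' : SemilinearAut L (laurentBaseChange L (modularFunctionFieldFull (N * ℓ))))
    (h : ∀ x : laurentBaseChange L (modularFunctionFieldFull N),
      g' • heckeAlphaBar L N ℓ x = heckeBetaBar L N ℓ x)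
    (x : Pic0 L (laurentBaseChange L (modularFunctionFieldFull (N * ℓ)))) :
    S35PU_alphaL L N ℓ (g'⁻¹ • x) = S35PU_betaL L N ℓ x :=
  S35W2_pic0_inv _ _ _ _ g' _ _ _ _ (S35W2_deg_eq_one L N) (S35W2_deg_eq_one L (N * ℓ)) h x

/-- **(w2) for an involution** (`g' ∘ β = α` as well): `α_* (g' • x) = β_* x`. -/
theorem S35W2_alphaL
    (g' : SemilinearAut L (laurentBaseChange L (modularFunctionFieldFull (N * ℓ))))
    (h : ∀ x : laurentBaseChange L (modularFunctionFieldFull N),
      g' • heckeBetaBar L N ℓ x = heckeAlphaBar L N ℓ x)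
    (x : Pic0 L (laurentBaseChange L (modularFunctionFieldFull (N * ℓ)))) :
    S35PU_alphaL L N ℓ (g' • x) = S35PU_betaL L N ℓ x :=
  S35W2_pic0 _ _ _ _ g' _ _ _ _ (S35W2_deg_eq_one L N) (S35W2_deg_eq_one L (N * ℓ)) h x

/-- the same with an algebra automorphism `w` of the function field. -/
theorem S35W2_betaL_algEquiv
    (w : laurentBaseChange L (modularFunctionFieldFull (N * ℓ)) ≃ₐ[L]
      laurentBaseChange L (modularFunctionFieldFull (N * ℓ)))
    (h : ∀ x : laurentBaseChange L (modularFunctionFieldFull N),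
      w (heckeAlphaBar L N ℓ x) = heckeBetaBar L N ℓ x)
    (x : Pic0 L (laurentBaseChange L (modularFunctionFieldFull (N * ℓ)))) :
    S35PU_betaL L N ℓ (SemilinearAut.ofAlgAut w • x) = S35PU_alphaL L N ℓ x :=
  S35W2_betaL L N ℓ (SemilinearAut.ofAlgAut w) h x

end Modular

end

end Fermat.Agent.S35_helper10_W2
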