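import Mathlib
import Fermat.Agent.G_helper8_K1Cb
import Fermat.Agent.S34_helper20_WQ

/-!
# S35, (P6)-B-beta (w1) (helper12): the Atkin–Lehner automorphism over `ℂ`

For `ℓ` prime, `ℓ ∤ N`, the function field `F_ℂ(N ℓ) = PG_B0L_F ℂ (N * ℓ)` has a
`ℂ`-automorphism `w` with

* `w ∘ w = id`,
* `w ∘ heckeAlphaBar ℂ N ℓ = heckeBetaBar ℂ N ℓ` and `w ∘ heckeBetaBar = heckeAlphaBar`,
* `w (j(q^d)) = j(q^(dual d))` for `d ∣ N ℓ`,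
* **the expansion link** `qExpand ℂ N (w x) = PGK1C_emb (N * ℓ) γ_W x`, where
  `γ_W = S34WQ_gamma ℓ N u v h = [[1, -v], [N, ℓ u]]` (`ℓ u + v N = 1`), so that
  `W z = γ_W (ℓ z)` is the Atkin–Lehner involution.

This is helper20's `S34WQ_exists` (coefficients in a subfield of `ℚ̄`) re-run over `ℂ` on
helper8's cusp embeddings `PGK1C_emb`.
-/

set_option autoImplicit false
set_option linter.unusedSectionVars false
set_option linter.unusedVariables false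
set_option linter.style.haveILetI false

noncomputable section

open UpperHalfPlane ModularForm CongruenceSubgroup
open scoped MatrixGroups ModularForm Manifold Real
open ModularCurve Fermat.Agent.S20 Fermat.Agent.S24
open Fermat.Agent.S28_helper14_ADefs Fermat.Agent.S28_SUBST
open Fermat.Agent.S37_helper20_KAPPAEMB Fermat.Agent.S34_helper20_WQ
open Fermat.Agent.G_helper21_B0L Fermat.Agent.G_helper8_K1C

namespace Fermat.Agent.S35_helper12_WC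

/-- a ring homomorphism out of `F_ℂ(M)` maps into a subfield as soon as it does so on the
constants and on the generators -/
theorem S35WC_ringHom_mem (M : ℕ) [NeZero M] {Ω : Type*} [Field Ω]
    (f : PG_B0L_F ℂ M →+* Ω) (T : Subfield Ω)
    (hK : ∀ a : ℂ, f (algebraMap ℂ _ a) ∈ T)
    (hj : ∀ (d : ℕ) [NeZero d] (hd : d ∣ M), f (PG_B0L_jF ℂ M d hd) ∈ T)
    (y : PG_B0L_F ℂ M) : f y ∈ T := by
  have key : ∀ x : LaurentSeries ℂ,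
      x ∈ IntermediateField.adjoin ℂ (PG_B0L_gens ℂ M) →
      ∀ hx' : x ∈ PG_B0L_F ℂ M, f ⟨x, hx'⟩ ∈ T := by
    intro x hx
    induction hx using IntermediateField.adjoin_induction with
    | mem y hy =>
      intro hy'
      obtain ⟨d, hd0, hd, rfl⟩ := hy
      exact hj d hd
    | algebraMap a =>
      intro ha'
      exact hK a
    | add x y hx hy h1 h2 =>
      intro hxy
      have hx' : x ∈ PG_B0L_F ℂ M := by rw [PG_B0L_gen]; exact hx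
      have hy' : y ∈ PG_B0L_F ℂ M := by rw [PG_B0L_gen]; exact hy
      have e : (⟨x + y, hxy⟩ : PG_B0L_F ℂ M) = ⟨x, hx'⟩ + ⟨y, hy'⟩ := rfl
      rw [e, map_add]
      exact add_mem (h1 hx') (h2 hy')
    | inv x hx h =>
      intro hxi
      have hx' : x ∈ PG_B0L_F ℂ M := by rw [PG_B0L_gen]; exact hx
      have e : (⟨x⁻¹, hxi⟩ : PG_B0L_F ℂ M) = (⟨x, hx'⟩ : PG_B0L_F ℂ M)⁻¹ := rfl
      rw [e, map_inv₀]
      exact inv_mem (h hx')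
    | mul x y hx hy h1 h2 =>
      intro hxy
      have hx' : x ∈ PG_B0L_F ℂ M := by rw [PG_B0L_gen]; exact hx
      have hy' : y ∈ PG_B0L_F ℂ M := by rw [PG_B0L_gen]; exact hy
      have e : (⟨x * y, hxy⟩ : PG_B0L_F ℂ M) = ⟨x, hx'⟩ * ⟨y, hy'⟩ := rfl
      rw [e, map_mul]
      exact mul_mem (h1 hx') (h2 hy')
  obtain ⟨x, hx⟩ := y
  exact key x (by rw [← PG_B0L_gen]; exact hx) hx

variable (N ℓ : ℕ) [NeZero N] [NeZero ℓ]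

/-- the substitution `x(q) ↦ x(t^N)` on `F_ℂ(N ℓ)` -/
def S35WC_psi : PG_B0L_F ℂ (N * ℓ) →+* LaurentSeries ℂ :=
  (qExpand ℂ N).comp (PG_B0L_F ℂ (N * ℓ)).val.toRingHom

theorem S35WC_psi_apply (x : PG_B0L_F ℂ (N * ℓ)) :
    S35WC_psi N ℓ x = qExpand ℂ N (x : LaurentSeries ℂ) := rfl

theorem S35WC_psi_injective : Function.Injective (S35WC_psi N ℓ) :=
  (S35WC_psi N ℓ).injective

theorem S35WC_psi_jF (d : ℕ) [NeZero d] (hd : d ∣ N * ℓ) [NeZero (N * d)] :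
    S35WC_psi N ℓ (PG_B0L_jF ℂ (N * ℓ) d hd) = qExpand ℂ (N * d) (jqModC ℂ) := by
  rw [S35WC_psi_apply]
  show qExpand ℂ N (PG_B0L_jLaur ℂ d) = _
  rw [PGK1C_jLaur_eq, qExpand_qExpand]

/-- **the images of the generators under the cusp embedding at `γ_W`**. -/
theorem S35WC_emb_gen (hℓ : ℓ.Prime) (hℓN : ¬ ℓ ∣ N) (u v : ℤ)
    (h : (ℓ : ℤ) * u + v * (N : ℤ) = 1)
    (d : ℕ) [NeZero d] (hd : d ∣ N * ℓ) [NeZero (N * S34WQ_dual ℓ d)] :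
    PGK1C_emb (N * ℓ) (S34WQ_gamma ℓ N u v h) (PG_B0L_jF ℂ (N * ℓ) d hd) =
      qExpand ℂ (N * S34WQ_dual ℓ d) (jqModC ℂ) := by
  have hNpos : 0 < N := Nat.pos_of_ne_zero (NeZero.ne N)
  have hdpos : 0 < d := Nat.pos_of_ne_zero (NeZero.ne d)
  have hNℓpos : 0 < N * ℓ := Nat.mul_pos hNpos hℓ.pos
  rw [PGK1C_emb_jF]
  have hd' : d ∣ ℓ * N := by rw [mul_comm]; exact hd
  rcases S34WQ_divisor_cases hℓ hd' with ⟨hqd, hdN⟩ | ⟨d', hd'N, rfl⟩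
  · -- old divisor
    have hdiff : MDifferentiable 𝓘(ℂ) 𝓘(ℂ) (tri d 1 0 jfun) := by
      rw [← S34WQ_jd_old ℓ N hNpos u v h hdN]
      exact Fermat.Agent.S24_helper27_J1.jd_mdiff d hdpos _
    rw [S34WQ_jd_old ℓ N hNpos u v h hdN,
      S34WQ_laurentInf_tri (N * ℓ) hdpos one_pos (one_dvd (N * ℓ)) hdiff]
    haveI : NeZero (d * (N * ℓ / 1)) := ⟨by
      rw [Nat.div_one]; exact Nat.mul_ne_zero hdpos.ne' hNℓpos.ne'⟩
    apply S34WQ_qExpand_congr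
    rw [S34WQ_dual_old hqd, Nat.div_one]
    ring
  · -- new divisor
    have hd'pos : 0 < d' := by
      rcases Nat.eq_zero_or_pos d' with h0 | h0
      · subst h0; simp at hdpos
      · exact h0
    have hℓNℓ : ℓ ∣ N * ℓ := dvd_mul_left ℓ N
    have hdiff : MDifferentiable 𝓘(ℂ) 𝓘(ℂ) (tri d' ℓ 0 jfun) := by
      rw [← S34WQ_jd_new ℓ N hℓ.pos hNpos u v h hd'N]
      exact Fermat.Agent.S24_helper27_J1.jd_mdiff (ℓ * d') hdpos _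
    rw [S34WQ_jd_new ℓ N hℓ.pos hNpos u v h hd'N,
      S34WQ_laurentInf_tri (N * ℓ) hd'pos hℓ.pos hℓNℓ hdiff]
    haveI : NeZero (d' * (N * ℓ / ℓ)) := ⟨by
      rw [Nat.mul_div_cancel _ hℓ.pos]; exact Nat.mul_ne_zero hd'pos.ne' hNpos.ne'⟩
    apply S34WQ_qExpand_congr
    rw [S34WQ_dual_new hℓ.pos, Nat.mul_div_cancel _ hℓ.pos]
    ring

theorem S35WC_jF_congr (M : ℕ) {d d' : ℕ} [NeZero d] [NeZero d'] (h : d = d') (hd : d ∣ M)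
    (hd' : d' ∣ M) : PG_B0L_jF ℂ M d hd = PG_B0L_jF ℂ M d' hd' := by
  subst h
  rfl

theorem S35WC_psi_const (a : ℂ) :
    S35WC_psi N ℓ (algebraMap ℂ _ a) = HahnSeries.C a := by
  rw [S35WC_psi_apply]
  show qExpand ℂ N (algebraMap ℂ (LaurentSeries ℂ) a) = _
  rw [PGK1C_qExpand_algebraMap]

/-- **the Atkin–Lehner map over `ℂ`, as a ring endomorphism.** -/
theorem S35WC_exists_hom (hℓ : ℓ.Prime) (hℓN : ¬ ℓ ∣ N) (u v : ℤ)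
    (h : (ℓ : ℤ) * u + v * (N : ℤ) = 1) :
    ∃ w : PG_B0L_F ℂ (N * ℓ) →+* PG_B0L_F ℂ (N * ℓ),
      (∀ x, S35WC_psi N ℓ (w x) = PGK1C_emb (N * ℓ) (S34WQ_gamma ℓ N u v h) x) ∧
      (∀ a : ℂ, w (algebraMap ℂ _ a) = algebraMap ℂ _ a) ∧
      (∀ (d : ℕ) [NeZero d] (hd : d ∣ N * ℓ) [NeZero (S34WQ_dual ℓ d)]
        (hd' : S34WQ_dual ℓ d ∣ N * ℓ),
        w (PG_B0L_jF ℂ (N * ℓ) d hd) = PG_B0L_jF ℂ (N * ℓ) (S34WQ_dual ℓ d) hd') := by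
  have hNpos : 0 < N := Nat.pos_of_ne_zero (NeZero.ne N)
  have hdual : ∀ (d : ℕ), d ∣ N * ℓ → S34WQ_dual ℓ d ∣ N * ℓ := by
    intro d hd
    rw [mul_comm]
    exact S34WQ_dual_dvd hℓ (by rw [mul_comm]; exact hd)
  have hΦj : ∀ (d : ℕ) [NeZero d] (hd : d ∣ N * ℓ) [NeZero (S34WQ_dual ℓ d)]
      (hd' : S34WQ_dual ℓ d ∣ N * ℓ),
      PGK1C_emb (N * ℓ) (S34WQ_gamma ℓ N u v h) (PG_B0L_jF ℂ (N * ℓ) d hd) =
        S35WC_psi N ℓ (PG_B0L_jF ℂ (N * ℓ) (S34WQ_dual ℓ d) hd') := by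
    intro d _ hd _ hd'
    haveI : NeZero (N * S34WQ_dual ℓ d) :=
      ⟨Nat.mul_ne_zero hNpos.ne' (NeZero.ne (S34WQ_dual ℓ d))⟩
    rw [S35WC_emb_gen N ℓ hℓ hℓN u v h d hd, S35WC_psi_jF]
  have hex : ∀ y, ∃ x, S35WC_psi N ℓ x = PGK1C_emb (N * ℓ) (S34WQ_gamma ℓ N u v h) y := by
    intro y
    have hmem : PGK1C_emb (N * ℓ) (S34WQ_gamma ℓ N u v h) y ∈ (S35WC_psi N ℓ).fieldRange := by
      refine S35WC_ringHom_mem (N * ℓ) _ (S35WC_psi N ℓ).fieldRange ?_ ?_ y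
      · intro a
        exact ⟨algebraMap ℂ _ a, by rw [S35WC_psi_const, PGK1C_emb_const]⟩
      · intro d _ hd
        haveI : NeZero (S34WQ_dual ℓ d) :=
          ⟨S34WQ_dual_ne_zero hℓ.pos (Nat.pos_of_ne_zero (NeZero.ne d))⟩
        exact ⟨PG_B0L_jF ℂ (N * ℓ) (S34WQ_dual ℓ d) (hdual d hd), (hΦj d hd (hdual d hd)).symm⟩
    exact hmem
  obtain ⟨w, hw⟩ := S37KE_descend (PGK1C_emb (N * ℓ) (S34WQ_gamma ℓ N u v h)) (S35WC_psi N ℓ)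
    (S35WC_psi_injective N ℓ) hex
  refine ⟨w, hw, ?_, ?_⟩
  · intro a
    apply S35WC_psi_injective N ℓ
    rw [hw, PGK1C_emb_const, S35WC_psi_const]
  · intro d _ hd _ hd'
    apply S35WC_psi_injective N ℓ
    rw [hw, hΦj d hd hd']

/-- **the Atkin–Lehner involution `w_ℓ` over `ℂ`.** -/
theorem S35WC_exists (hℓ : ℓ.Prime) (hℓN : ¬ ℓ ∣ N) (u v : ℤ)
    (h : (ℓ : ℤ) * u + v * (N : ℤ) = 1) :
    ∃ w : PG_B0L_F ℂ (N * ℓ) ≃ₐ[ℂ] PG_B0L_F ℂ (N * ℓ),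
      (∀ x, w (w x) = x) ∧
      (∀ x : PG_B0L_F ℂ N, w (heckeAlphaBar ℂ N ℓ x) = heckeBetaBar ℂ N ℓ x) ∧
      (∀ x : PG_B0L_F ℂ N, w (heckeBetaBar ℂ N ℓ x) = heckeAlphaBar ℂ N ℓ x) ∧
      (∀ x : PG_B0L_F ℂ (N * ℓ),
        qExpand ℂ N ((w x : PG_B0L_F ℂ (N * ℓ)) : LaurentSeries ℂ) =
          PGK1C_emb (N * ℓ) (S34WQ_gamma ℓ N u v h) x) ∧
      (∀ (d : ℕ) [NeZero d] (hd : d ∣ N * ℓ) [NeZero (S34WQ_dual ℓ d)]
        (hd' : S34WQ_dual ℓ d ∣ N * ℓ),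
        w (PG_B0L_jF ℂ (N * ℓ) d hd) = PG_B0L_jF ℂ (N * ℓ) (S34WQ_dual ℓ d) hd') := by
  obtain ⟨w₀, hw₀, hw₀C, hw₀j⟩ := S35WC_exists_hom N ℓ hℓ hℓN u v h
  have hdual : ∀ (d : ℕ), d ∣ N * ℓ → S34WQ_dual ℓ d ∣ N * ℓ := by
    intro d hd
    rw [mul_comm]
    exact S34WQ_dual_dvd hℓ (by rw [mul_comm]; exact hd)
  -- the involution
  have hinv : ∀ x, w₀ (w₀ x) = x := by
    intro x
    have hcomp := PGK1C_ringHom_ext (N * ℓ) (w₀.comp w₀) (RingHom.id _)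
      (fun a => by rw [RingHom.comp_apply, hw₀C, hw₀C]; rfl)
      (fun d _ hd => by
        haveI : NeZero (S34WQ_dual ℓ d) :=
          ⟨S34WQ_dual_ne_zero hℓ.pos (Nat.pos_of_ne_zero (NeZero.ne d))⟩
        have hdd : S34WQ_dual ℓ (S34WQ_dual ℓ d) = d :=
          S34WQ_dual_dual hℓ hℓN (by rw [mul_comm]; exact hd)
        haveI : NeZero (S34WQ_dual ℓ (S34WQ_dual ℓ d)) := ⟨by rw [hdd]; exact NeZero.ne d⟩
        rw [RingHom.comp_apply, hw₀j d hd (hdual d hd),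
          hw₀j (S34WQ_dual ℓ d) (hdual d hd) (hdual _ (hdual d hd))]
        exact S35WC_jF_congr (N * ℓ) hdd (hdual _ (hdual d hd)) hd)
    exact congrArg (fun f => f x) hcomp
  let wA : PG_B0L_F ℂ (N * ℓ) →ₐ[ℂ] PG_B0L_F ℂ (N * ℓ) :=
    { w₀ with commutes' := hw₀C }
  have hwA : ∀ x, wA x = w₀ x := fun _ => rfl
  let w : PG_B0L_F ℂ (N * ℓ) ≃ₐ[ℂ] PG_B0L_F ℂ (N * ℓ) :=
    AlgEquiv.ofAlgHom wA wA
      (AlgHom.ext fun x => by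
        show wA (wA x) = x
        rw [hwA, hwA, hinv])
      (AlgHom.ext fun x => by
        show wA (wA x) = x
        rw [hwA, hwA, hinv])
  have hw : ∀ x, w x = w₀ x := fun _ => rfl
  have hαβ : ∀ x : PG_B0L_F ℂ N, w₀ (heckeAlphaBar ℂ N ℓ x) = heckeBetaBar ℂ N ℓ x := by
    intro x
    have hcomp := PGK1C_ringHom_ext N (w₀.comp (heckeAlphaBar ℂ N ℓ).toRingHom)
      (heckeBetaBar ℂ N ℓ).toRingHom
      (fun a => by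
        show w₀ (heckeAlphaBar ℂ N ℓ (algebraMap ℂ _ a)) =
          heckeBetaBar ℂ N ℓ (algebraMap ℂ _ a)
        rw [AlgHom.commutes, AlgHom.commutes, hw₀C])
      (fun d _ hd => by
        show w₀ (heckeAlphaBar ℂ N ℓ (PG_B0L_jF ℂ N d hd)) =
          heckeBetaBar ℂ N ℓ (PG_B0L_jF ℂ N d hd)
        have h1 : heckeAlphaBar ℂ N ℓ (PG_B0L_jF ℂ N d hd) =
            PG_B0L_jF ℂ (N * ℓ) d (hd.trans (dvd_mul_right N ℓ)) :=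
          Subtype.ext (coe_heckeAlphaBar N ℓ _)
        have hℓd : ¬ ℓ ∣ d := fun hcon => hℓN (hcon.trans hd)
        have hdual_eq : S34WQ_dual ℓ d = d * ℓ := by
          rw [S34WQ_dual_old hℓd, mul_comm]
        haveI : NeZero (S34WQ_dual ℓ d) := ⟨by
          rw [hdual_eq]; exact Nat.mul_ne_zero (NeZero.ne d) (NeZero.ne ℓ)⟩
        rw [h1, hw₀j d _ (hdual d (hd.trans (dvd_mul_right N ℓ))), PGK1C_beta_jF]
        exact S35WC_jF_congr (N * ℓ) hdual_eq (hdual d (hd.trans (dvd_mul_right N ℓ)))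
          (Nat.mul_dvd_mul hd dvd_rfl))
    exact congrArg (fun f => f x) hcomp
  refine ⟨w, fun x => by rw [hw, hw, hinv], fun x => by rw [hw, hαβ], fun x => ?_,
    fun x => by rw [hw]; exact hw₀ x, fun d _ hd _ hd' => by rw [hw]; exact hw₀j d hd hd'⟩
  rw [hw, ← hαβ x, hinv]

/-- a choice of Bézout coefficients `ℓ u + v N = 1` -/
theorem S35WC_bezout (hℓ : ℓ.Prime) (hℓN : ¬ ℓ ∣ N) :
    ∃ u v : ℤ, (ℓ : ℤ) * u + v * (N : ℤ) = 1 := by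
  have hcop : IsCoprime (ℓ : ℤ) (N : ℤ) :=
    Nat.isCoprime_iff_coprime.mpr ((Nat.Prime.coprime_iff_not_dvd hℓ).mpr hℓN)
  obtain ⟨u, v, huv⟩ := hcop
  exact ⟨u, v, by linear_combination huv⟩

/-! ### a fixed choice -/

section Choice

variable (hℓ : ℓ.Prime) (hℓN : ¬ ℓ ∣ N)

/-- the Bézout coefficient `u` -/
def S35WC_u : ℤ := (S35WC_bezout N ℓ hℓ hℓN).choose

/-- the Bézout coefficient `v` -/
def S35WC_v : ℤ := (S35WC_bezout N ℓ hℓ hℓN).choose_spec.choose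

theorem S35WC_uv : (ℓ : ℤ) * S35WC_u N ℓ hℓ hℓN + S35WC_v N ℓ hℓ hℓN * (N : ℤ) = 1 :=
  (S35WC_bezout N ℓ hℓ hℓN).choose_spec.choose_spec

/-- the matrix `γ_W = [[1, -v], [N, ℓ u]] ∈ Γ₀(N)`: `W z = γ_W (ℓ z)` -/
def S35WC_gammaW : SL(2, ℤ) :=
  S34WQ_gamma ℓ N (S35WC_u N ℓ hℓ hℓN) (S35WC_v N ℓ hℓ hℓN) (S35WC_uv N ℓ hℓ hℓN)

theorem S35WC_gammaW_mem : S35WC_gammaW N ℓ hℓ hℓN ∈ Gamma0 N :=
  S34WQ_gamma_mem ℓ N _ _ _

/-- **the Atkin–Lehner involution over `ℂ`** (for the fixed choice of `γ_W`) -/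
def S35WC_w : PG_B0L_F ℂ (N * ℓ) ≃ₐ[ℂ] PG_B0L_F ℂ (N * ℓ) :=
  (S35WC_exists N ℓ hℓ hℓN _ _ (S35WC_uv N ℓ hℓ hℓN)).choose

theorem S35WC_w_w (x : PG_B0L_F ℂ (N * ℓ)) :
    S35WC_w N ℓ hℓ hℓN (S35WC_w N ℓ hℓ hℓN x) = x :=
  (S35WC_exists N ℓ hℓ hℓN _ _ (S35WC_uv N ℓ hℓ hℓN)).choose_spec.1 x

theorem S35WC_w_alpha (x : PG_B0L_F ℂ N) :
    S35WC_w N ℓ hℓ hℓN (heckeAlphaBar ℂ N ℓ x) = heckeBetaBar ℂ N ℓ x :=
  (S35WC_exists N ℓ hℓ hℓN _ _ (S35WC_uv N ℓ hℓ hℓN)).choose_spec.2.1 x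

theorem S35WC_w_beta (x : PG_B0L_F ℂ N) :
    S35WC_w N ℓ hℓ hℓN (heckeBetaBar ℂ N ℓ x) = heckeAlphaBar ℂ N ℓ x :=
  (S35WC_exists N ℓ hℓ hℓN _ _ (S35WC_uv N ℓ hℓ hℓN)).choose_spec.2.2.1 x

/-- **the expansion link**: `(w x)(t^N)` is the expansion of `x` at the cusp `γ_W ∞`. -/
theorem S35WC_w_expand (x : PG_B0L_F ℂ (N * ℓ)) :
    qExpand ℂ N ((S35WC_w N ℓ hℓ hℓN x : PG_B0L_F ℂ (N * ℓ)) : LaurentSeries ℂ) =
      PGK1C_emb (N * ℓ) (S35WC_gammaW N ℓ hℓ hℓN) x :=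
  (S35WC_exists N ℓ hℓ hℓN _ _ (S35WC_uv N ℓ hℓ hℓN)).choose_spec.2.2.2.1 x

theorem S35WC_w_jF (d : ℕ) [NeZero d] (hd : d ∣ N * ℓ) [NeZero (S34WQ_dual ℓ d)]
    (hd' : S34WQ_dual ℓ d ∣ N * ℓ) :
    S35WC_w N ℓ hℓ hℓN (PG_B0L_jF ℂ (N * ℓ) d hd) =
      PG_B0L_jF ℂ (N * ℓ) (S34WQ_dual ℓ d) hd' :=
  (S35WC_exists N ℓ hℓ hℓN _ _ (S35WC_uv N ℓ hℓ hℓN)).choose_spec.2.2.2.2 d hd hd'

theorem S35WC_w_symm :
    (S35WC_w N ℓ hℓ hℓN).symm = S35WC_w N ℓ hℓ hℓN := by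
  refine AlgEquiv.ext fun x => ?_
  apply (S35WC_w N ℓ hℓ hℓN).injective
  rw [AlgEquiv.apply_symm_apply, S35WC_w_w]

/-- `w ∘ α = β` as algebra homomorphisms -/
theorem S35WC_comp_alpha :
    (S35WC_w N ℓ hℓ hℓN : PG_B0L_F ℂ (N * ℓ) →ₐ[ℂ] PG_B0L_F ℂ (N * ℓ)).comp
      (heckeAlphaBar ℂ N ℓ) = heckeBetaBar ℂ N ℓ :=
  AlgHom.ext fun x => S35WC_w_alpha N ℓ hℓ hℓN x

/-- `w ∘ β = α` as algebra homomorphisms -/
theorem S35WC_comp_beta :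
    (S35WC_w N ℓ hℓ hℓN : PG_B0L_F ℂ (N * ℓ) →ₐ[ℂ] PG_B0L_F ℂ (N * ℓ)).comp
      (heckeBetaBar ℂ N ℓ) = heckeAlphaBar ℂ N ℓ :=
  AlgHom.ext fun x => S35WC_w_beta N ℓ hℓ hℓN x

end Choice

end Fermat.Agent.S35_helper12_WC
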