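import Mathlib
import Fermat.Agent.G_helper16_G5i
import Fermat.Agent.G_helper8_K1Cb

/-!
# S35, piece P6 (helper23), brick BRINF: the bridge at an arbitrary cusp

If `x ∈ F_ℂ(M)` is realised at `i∞` by the quotient `A / B` of two forms on `Γ₀(M)` (with good
characters), then for every `γ ∈ SL(2, ℤ)` the conjugate `PGK1C_emb M γ x` (the expansion of
`x ∘ γ` in `q_M`) is realised by the quotient of the slashes `A ∣[k] γ`, `B ∣[k] γ`:

`PGK1C_emb M γ x * laurentInf M (B ∣[k] γ) = laurentInf M (A ∣[k] γ)`.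

This is helper16's `PG_G5_emb_mul` at the expansion `laurentInfHom M`.
-/

set_option autoImplicit false
set_option linter.unusedSectionVars false
set_option linter.unusedVariables false
set_option linter.style.haveILetI false
set_option linter.unnecessarySimpa false

noncomputable section

open UpperHalfPlane ModularForm CongruenceSubgroup AlgebraicCurve IntermediateField
open scoped MatrixGroups ModularForm Manifold
open Fermat.Agent.S20 Fermat.Agent.S24
open Fermat.Agent.G_helper6_Defs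
open Fermat.Agent.G_helper16_G5 Fermat.Agent.G_helper8_K1C Fermat.Agent.G_helper21_B0L

namespace Fermat.Agent.S35_helper23_BRINF

open Fermat.Agent.S24_helper17_EMB (poleSubring laurentInfHom laurentInfHom_apply
  laurentInfHom_injective)

/-- `γ T ^ M γ⁻¹ ∈ Γ₀(M)` for every `γ ∈ SL(2, ℤ)`. -/
theorem S35BI_conj_T_pow_mem (M : ℕ) (γ : SL(2, ℤ)) :
    γ * ModularGroup.T ^ M * γ⁻¹ ∈ Gamma0 M := by
  rw [Gamma0_mem]
  have h := ModularGroup.coe_T_zpow (M : ℤ)
  rw [zpow_natCast] at h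
  have e : ((γ * ModularGroup.T ^ M * γ⁻¹ : SL(2, ℤ)) : Matrix (Fin 2) (Fin 2) ℤ) 1 0 =
      -((γ 1 0) ^ 2 * (M : ℤ)) := by
    rw [Matrix.SpecialLinearGroup.coe_mul, Matrix.SpecialLinearGroup.coe_mul, h,
      Matrix.SpecialLinearGroup.coe_inv, Matrix.adjugate_fin_two]
    simp only [Matrix.mul_apply, Fin.sum_univ_two, Matrix.of_apply, Matrix.cons_val',
      Matrix.cons_val_zero, Matrix.cons_val_one, Matrix.cons_val_fin_one]
    ring
  show (((γ * ModularGroup.T ^ M * γ⁻¹ : SL(2, ℤ)) : Matrix (Fin 2) (Fin 2) ℤ) 1 0 : ZMod M) = 0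
  rw [e]
  push_cast
  simp

/-- the slash of a form with good character by any `γ ∈ SL(2, ℤ)` is holomorphic,
`M`-periodic and bounded at `i∞` -/
theorem S35BI_slash_hasPoleInf (M : ℕ) [NeZero M] (γ : SL(2, ℤ)) {k : ℤ}
    {χ : Gamma0 M →* ℂˣ} {A : ℍ → ℂ} (hχ : PG_IsGoodChar M χ) (hA : PG_IsForm M k χ A) :
    HasPoleInf M 0 (A ∣[k] γ) :=
  ⟨MDifferentiable.slash hA.holo k _,
    fun z => PG_G5_slash_periodic hχ hA γ M (S35BI_conj_T_pow_mem M γ) z,
    by simpa using hA.bdd γ⟩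

/-- **The bridge at the cusp `γ ∞`**, for forms with good characters. -/
theorem S35BI_bridge_char (M : ℕ) [NeZero M] (γ : SL(2, ℤ)) (x : PG_FC M) {k : ℤ}
    {χa χb : Gamma0 M →* ℂˣ} {A B : ℍ → ℂ}
    (hχa : PG_IsGoodChar M χa) (hχb : PG_IsGoodChar M χb)
    (hA : PG_IsForm M k χa A) (hB : PG_IsForm M k χb B) (hx : PG_Realizes x A B) :
    PGK1C_emb M γ x * laurentInf M (B ∣[k] γ) = laurentInf M (A ∣[k] γ) := by
  have hA' := PG_G5_form_hasPoleInf hχa hA
  have hB' := PG_G5_form_hasPoleInf hχb hB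
  have hx' := (PG_G5_realizes_iff x hA' hB').mp hx
  obtain ⟨r, s, hs, hrs⟩ := PG_G5_exists_frac M x
  have hfun := PG_G5_psi_mul_eq M x r s hrs hA' hB' hx'
  have hPa := S35BI_slash_hasPoleInf M γ hχa hA
  have hPb := S35BI_slash_hasPoleInf M γ hχb hB
  have h := PG_G5_emb_mul M γ (poleSubring M) (PG_G5_const_mem_pole M)
    (PG_G5_jd_mem_pole M γ)
    (laurentInfHom M) (laurentInfHom_injective M) (PGK1C_emb M γ)
    (fun c => by
      rw [laurentInfHom_apply]
      exact (PGK1C_emb_const M γ c).trans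
        (Fermat.Agent.S24_helper21_LINF.laurentInf_const M c).symm)
    (fun d _ hd => by
      rw [laurentInfHom_apply]
      exact PGK1C_emb_jF M γ d hd)
    x r s hs hrs ⟨A ∣[k] γ, ⟨_, hPa⟩⟩ ⟨B ∣[k] γ, ⟨_, hPb⟩⟩ (fun w => by
      show PG_G5_psi M r (γ • w) * (B ∣[k] γ) w = PG_G5_psi M s (γ • w) * (A ∣[k] γ) w
      have h1 := congrFun hfun (γ • w)
      simp only [Pi.mul_apply] at h1
      rw [ModularForm.SL_slash_apply, ModularForm.SL_slash_apply]
      linear_combination (denom (γ : GL (Fin 2) ℝ) w ^ (-k)) * h1)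
  exact h

/-- **The bridge at the cusp `γ ∞`** (trivial characters). -/
theorem S35BI_bridge (M : ℕ) [NeZero M] (γ : SL(2, ℤ)) (x : PG_FC M) {k : ℤ}
    {A B : ℍ → ℂ} (hA : PG_IsForm M k 1 A) (hB : PG_IsForm M k 1 B)
    (hx : PG_Realizes x A B) :
    PGK1C_emb M γ x * laurentInf M (B ∣[k] γ) = laurentInf M (A ∣[k] γ) :=
  S35BI_bridge_char M γ x (PG_G5_isGoodChar_one M) (PG_G5_isGoodChar_one M) hA hB hx

end Fermat.Agent.S35_helper23_BRINF
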