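import Mathlib
import Fermat.Agent.S35_helper12_WC
import Fermat.Agent.S35_helper23_BRINF
import Fermat.Agent.G_helper23_G7iv

/-!
# S35, piece P6-B-beta, step (w3) (helper12): the W-bridge

`W = γ_W · diag(ℓ, 1)` is the Atkin–Lehner matrix of level `N ℓ` (`ℓ` prime, `ℓ ∤ N`), where
`γ_W = S35WC_gammaW N ℓ hℓ hℓN ∈ Γ₀(N)`.  If `x ∈ F_ℂ(N ℓ)` is realised at `i∞` by the quotient
`A / B` of two forms of level `N ℓ` (good characters), then `w x` (`w = S35WC_w`, the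
Atkin–Lehner involution of the function field) is realised by `(A ∣[k] W) / (B ∣[k] W)`.

* `S35W3_W`          : the matrix `W` in `GL (Fin 2) ℝ`;
* `S35W3_scale`      : `laurentInf N (G ∣[k] diag(ℓ, 1)) = C (ℓ ^ (k - 1)) * laurentInf (N ℓ) G`;
* `S35W3_bridge`     : the bridge.
-/

set_option autoImplicit false
set_option linter.unusedSectionVars false
set_option linter.unusedVariables false
set_option linter.style.haveILetI false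
set_option linter.unnecessarySimpa false

noncomputable section

open UpperHalfPlane ModularForm CongruenceSubgroup AlgebraicCurve
open scoped MatrixGroups ModularForm Manifold
open ModularCurve Fermat.Agent.S20 Fermat.Agent.S24
open Fermat.Agent.G_helper6_Defs
open Fermat.Agent.G_helper16_G5 Fermat.Agent.G_helper8_K1C Fermat.Agent.G_helper21_B0L
open Fermat.Agent.S35_helper12_WC Fermat.Agent.S35_helper23_BRINF
open Fermat.Agent.S24_helper21_LINF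

namespace Fermat.Agent.S35_helper12_W3

/-- the Atkin–Lehner matrix `W = γ_W · diag(ℓ, 1)` -/
def S35W3_W (N ℓ : ℕ) [NeZero N] [NeZero ℓ] (hℓ : ℓ.Prime) (hℓN : ¬ ℓ ∣ N) : GL (Fin 2) ℝ :=
  Matrix.SpecialLinearGroup.mapGL ℝ (S35WC_gammaW N ℓ hℓ hℓN) * ModularForm.heckeDiagMatrix ℓ

theorem S35W3_slash_W (N ℓ : ℕ) [NeZero N] [NeZero ℓ] (hℓ : ℓ.Prime) (hℓN : ¬ ℓ ∣ N) (k : ℤ)
    (A : ℍ → ℂ) :
    A ∣[k] S35W3_W N ℓ hℓ hℓN =
      (A ∣[k] (S35WC_gammaW N ℓ hℓ hℓN)) ∣[k] ModularForm.heckeDiagMatrix ℓ := by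
  rw [S35W3_W, SlashAction.slash_mul]
  rfl

section Scale

variable (N ℓ : ℕ) [NeZero N] [NeZero ℓ]

theorem S35W3_qParam (τ : ℍ) :
    Function.Periodic.qParam ((N * ℓ : ℕ) : ℝ) ((ModularForm.heckeDiagMatrix ℓ • τ : ℍ) : ℂ) =
      Function.Periodic.qParam (N : ℝ) (τ : ℂ) := by
  rw [coe_heckeDiagMatrix_smul (NeZero.ne ℓ)]
  unfold Function.Periodic.qParam
  congr 1
  have hN : (N : ℂ) ≠ 0 := by exact_mod_cast NeZero.ne N
  have hℓ : (ℓ : ℂ) ≠ 0 := by exact_mod_cast NeZero.ne ℓ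
  push_cast
  field_simp

theorem S35W3_diag_vadd (z : ℍ) :
    ModularForm.heckeDiagMatrix ℓ • ((N : ℝ) +ᵥ z) =
      (((N * ℓ : ℕ) : ℝ)) +ᵥ (ModularForm.heckeDiagMatrix ℓ • z) := by
  apply UpperHalfPlane.ext
  rw [coe_heckeDiagMatrix_smul (NeZero.ne ℓ), UpperHalfPlane.coe_vadd,
    UpperHalfPlane.coe_vadd, coe_heckeDiagMatrix_smul (NeZero.ne ℓ)]
  push_cast
  ring

theorem S35W3_hasPoleInf {G : ℍ → ℂ} (hG : HasPoleInf (N * ℓ) 0 G) (k : ℤ) :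
    HasPoleInf N 0 (G ∣[k] ModularForm.heckeDiagMatrix ℓ) := by
  refine ⟨MDifferentiable.slash hG.1 k _, fun z => ?_, ?_⟩
  · rw [slash_heckeDiagMatrix_apply k (NeZero.ne ℓ), slash_heckeDiagMatrix_apply k (NeZero.ne ℓ),
      S35W3_diag_vadd, hG.2.1]
  · have hb : IsBoundedAtImInfty G := by
      have h := hG.2.2
      simpa using h
    have e : (fun z : ℍ => Function.Periodic.qParam (N : ℝ) (z : ℂ) ^ 0 *
        (G ∣[k] ModularForm.heckeDiagMatrix ℓ) z) =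
        fun z : ℍ => (ℓ : ℂ) ^ (k - 1) * G (ModularForm.heckeDiagMatrix ℓ • z) := by
      funext z
      rw [pow_zero, one_mul, slash_heckeDiagMatrix_apply k (NeZero.ne ℓ)]
    rw [e]
    rw [isBoundedAtImInfty_iff] at hb ⊢
    obtain ⟨B, A, hBA⟩ := hb
    refine ⟨‖(ℓ : ℂ) ^ (k - 1)‖ * B, max A 0, fun z hz => ?_⟩
    rw [norm_mul]
    refine mul_le_mul_of_nonneg_left (hBA _ ?_) (norm_nonneg _)
    have him : (ModularForm.heckeDiagMatrix ℓ • z : ℍ).im = (ℓ : ℝ) * z.im := by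
      have h := congrArg Complex.im (coe_heckeDiagMatrix_smul (NeZero.ne ℓ) z)
      rw [UpperHalfPlane.coe_im] at h
      rw [h]
      simp
    rw [him]
    have h1 : (1 : ℝ) ≤ (ℓ : ℝ) := by exact_mod_cast NeZero.one_le
    have h2 : A ≤ z.im := le_trans (le_max_left _ _) hz
    have h3 : 0 ≤ z.im := z.im_pos.le
    nlinarith

/-- **change of level in the expansion at `i∞`**:
`(G ∣ diag(ℓ, 1))(z) = ℓ ^ (k - 1) G(ℓ z)` has the same expansion in `q_N` as `G` in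
`q_{N ℓ}`, up to the constant. -/
theorem S35W3_scale {G : ℍ → ℂ} (hG : HasPoleInf (N * ℓ) 0 G) (k : ℤ) :
    laurentInf N (G ∣[k] ModularForm.heckeDiagMatrix ℓ) =
      HahnSeries.C ((ℓ : ℂ) ^ (k - 1)) * laurentInf (N * ℓ) G := by
  have hH := S35W3_hasPoleInf N ℓ hG k
  rw [laurentInf_eq N hH, laurentInf_eq (N * ℓ) hG]
  have key : qExpansion (N : ℝ) (tw N 0 (G ∣[k] ModularForm.heckeDiagMatrix ℓ)) =
      PowerSeries.C ((ℓ : ℂ) ^ (k - 1)) * qExpansion ((N * ℓ : ℕ) : ℝ) (tw (N * ℓ) 0 G) := by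
    ext m
    rw [PowerSeries.coeff_C_mul]
    refine coeff_unique (Npos N) (good_tw N hH)
      (fun m => (ℓ : ℂ) ^ (k - 1) * (qExpansion ((N * ℓ : ℕ) : ℝ) (tw (N * ℓ) 0 G)).coeff m)
      (fun τ => ?_) m
    have h1 := ((good_tw (N * ℓ) hG).hasSum (Npos (N * ℓ))
      (ModularForm.heckeDiagMatrix ℓ • τ)).mul_left ((ℓ : ℂ) ^ (k - 1))
    rw [S35W3_qParam] at h1
    have e1 : tw N 0 (G ∣[k] ModularForm.heckeDiagMatrix ℓ) τ =
        (ℓ : ℂ) ^ (k - 1) * tw (N * ℓ) 0 G (ModularForm.heckeDiagMatrix ℓ • τ) := by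
      rw [tw_apply, tw_apply, pow_zero, one_mul, pow_zero, one_mul,
        slash_heckeDiagMatrix_apply k (NeZero.ne ℓ)]
    rw [e1]
    refine h1.congr_fun ?_  
    intro m
    simp only [smul_eq_mul]
    ring
  have key' : qExpansion (N : ℝ) (fun z : ℍ => Function.Periodic.qParam (N : ℝ) (z : ℂ) ^ 0 *
      (G ∣[k] ModularForm.heckeDiagMatrix ℓ) z) =
      PowerSeries.C ((ℓ : ℂ) ^ (k - 1)) * qExpansion ((N * ℓ : ℕ) : ℝ)
        (fun z : ℍ => Function.Periodic.qParam ((N * ℓ : ℕ) : ℝ) (z : ℂ) ^ 0 * G z) := key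
  rw [key', map_mul, HahnSeries.ofPowerSeries_C]
  ring

end Scale

section Bridge

variable (N ℓ : ℕ) [NeZero N] [NeZero ℓ] (hℓ : ℓ.Prime) (hℓN : ¬ ℓ ∣ N)

/-- **The W-bridge** (step (w3)): if `x = A / B` at `i∞` then `w x = (A ∣ W) / (B ∣ W)`. -/
theorem S35W3_bridge (x : PG_FC (N * ℓ)) {k : ℤ}
    {χa χb : Gamma0 (N * ℓ) →* ℂˣ} {A B : ℍ → ℂ}
    (hχa : PG_IsGoodChar (N * ℓ) χa) (hχb : PG_IsGoodChar (N * ℓ) χb)
    (hA : PG_IsForm (N * ℓ) k χa A) (hB : PG_IsForm (N * ℓ) k χb B)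
    (hPA : HasPoleInf 1 0 (A ∣[k] S35W3_W N ℓ hℓ hℓN))
    (hPB : HasPoleInf 1 0 (B ∣[k] S35W3_W N ℓ hℓ hℓN))
    (hx : PG_Realizes x A B) :
    PG_Realizes (S35WC_w N ℓ hℓ hℓN x) (A ∣[k] S35W3_W N ℓ hℓ hℓN)
      (B ∣[k] S35W3_W N ℓ hℓ hℓN) := by
  rw [PG_G5_realizes_iff _ hPA hPB]
  apply (qExpand ℂ N).injective
  have hGA := S35BI_slash_hasPoleInf (N * ℓ) (S35WC_gammaW N ℓ hℓ hℓN) hχa hA
  have hGB := S35BI_slash_hasPoleInf (N * ℓ) (S35WC_gammaW N ℓ hℓ hℓN) hχb hB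
  have h := S35BI_bridge_char (N * ℓ) (S35WC_gammaW N ℓ hℓ hℓN) x hχa hχb hA hB hx
  have e1 := laurentInf_qExpand N hPA
  have e2 := laurentInf_qExpand N hPB
  have f1 : laurentInf N (A ∣[k] S35W3_W N ℓ hℓ hℓN) =
      HahnSeries.C ((ℓ : ℂ) ^ (k - 1)) *
        laurentInf (N * ℓ) (A ∣[k] (S35WC_gammaW N ℓ hℓ hℓN)) := by
    rw [S35W3_slash_W, S35W3_scale N ℓ hGA k]
  have f2 : laurentInf N (B ∣[k] S35W3_W N ℓ hℓ hℓN) =
      HahnSeries.C ((ℓ : ℂ) ^ (k - 1)) *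
        laurentInf (N * ℓ) (B ∣[k] (S35WC_gammaW N ℓ hℓ hℓN)) := by
    rw [S35W3_slash_W, S35W3_scale N ℓ hGB k]
  rw [map_mul, S35WC_w_expand, ← e1, ← e2, f1, f2, ← h]
  ring

end Bridge

section Form

variable (N ℓ : ℕ) [NeZero N] [NeZero ℓ] (hℓ : ℓ.Prime) (hℓN : ¬ ℓ ∣ N)

theorem S35W3_smul_slash (k : ℤ) (c : ℂ) (A : ℍ → ℂ) :
    (c • A) ∣[k] S35W3_W N ℓ hℓ hℓN = c • (A ∣[k] S35W3_W N ℓ hℓ hℓN) := by
  rw [S35W3_slash_W, S35W3_slash_W, ModularForm.SL_smul_slash, ModularForm.smul_slash,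
    σ_heckeDiagMatrix]
  rfl

/-- `W σ` is a rational matrix for every `σ ∈ SL(2, ℤ)` (in the form used for boundedness) -/
theorem S35W3_bdd {k : ℤ} {A : ℍ → ℂ}
    (hbdd : ∀ σ : SL(2, ℤ), IsBoundedAtImInfty (A ∣[k] σ)) (σ : SL(2, ℤ)) :
    IsBoundedAtImInfty ((A ∣[k] S35W3_W N ℓ hℓ hℓN) ∣[k] σ) := by
  obtain ⟨g, hg⟩ := Fermat.Agent.G_helper23_G7iv.PG_G7iv_exists_rat ℓ none σ
  have h1 : (A ∣[k] S35W3_W N ℓ hℓ hℓN) ∣[k] σ =
      (A ∣[k] (S35WC_gammaW N ℓ hℓ hℓN)) ∣[k]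
        (Matrix.GeneralLinearGroup.map (Rat.castHom ℝ) g) := by
    rw [S35W3_slash_W, ← hg, SlashAction.slash_mul]
    rfl
  rw [h1]
  refine Fermat.Agent.G_helper23_G7iv.PG_G7iv_bdd_rat (fun σ' => ?_) g
  have h2 : (A ∣[k] (S35WC_gammaW N ℓ hℓ hℓN)) ∣[k] σ' =
      A ∣[k] (S35WC_gammaW N ℓ hℓ hℓN * σ') := by
    rw [SlashAction.slash_mul]
  rw [h2]
  exact hbdd _

/-- **the slash of a form by `W`** is a form for the conjugate character. -/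
theorem S35W3_form (conj : Gamma0 (N * ℓ) →* Gamma0 (N * ℓ))
    (hconj : ∀ g : Gamma0 (N * ℓ),
      Matrix.SpecialLinearGroup.mapGL ℝ ((conj g : Gamma0 (N * ℓ)) : SL(2, ℤ)) *
        S35W3_W N ℓ hℓ hℓN =
      S35W3_W N ℓ hℓ hℓN * Matrix.SpecialLinearGroup.mapGL ℝ (g : SL(2, ℤ)))
    {k : ℤ} {χ : Gamma0 (N * ℓ) →* ℂˣ} {A : ℍ → ℂ} (hA : PG_IsForm (N * ℓ) k χ A) :
    PG_IsForm (N * ℓ) k (χ.comp conj) (A ∣[k] S35W3_W N ℓ hℓ hℓN) where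
  holo := hA.holo.slash k _
  aut := fun γ z => by
    refine Fermat.Agent.G_helper23_G7iv.PG_G7iv_aut_of_slash γ ?_ z
    rw [← SlashAction.slash_mul, ← hconj γ, SlashAction.slash_mul,
      Fermat.Agent.G_helper23_G7iv.PG_G7iv_slash_of_aut hA.aut (conj γ), S35W3_smul_slash]
    rfl
  bdd := S35W3_bdd N ℓ hℓ hℓN hA.bdd

theorem S35W3_ne_zero {k : ℤ} {A : ℍ → ℂ} (hA : A ≠ 0) : A ∣[k] S35W3_W N ℓ hℓ hℓN ≠ 0 :=
  fun h => hA ((Fermat.Agent.G_helper23_G7iv.PG_G7iv_slash_eq_zero_iff k _ A).mp h)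

/-- conjugation by `W` preserves the trace -/
theorem S35W3_trace (conj : Gamma0 (N * ℓ) →* Gamma0 (N * ℓ))
    (hconj : ∀ g : Gamma0 (N * ℓ),
      Matrix.SpecialLinearGroup.mapGL ℝ ((conj g : Gamma0 (N * ℓ)) : SL(2, ℤ)) *
        S35W3_W N ℓ hℓ hℓN =
      S35W3_W N ℓ hℓ hℓN * Matrix.SpecialLinearGroup.mapGL ℝ (g : SL(2, ℤ)))
    (g : Gamma0 (N * ℓ)) :
    (((conj g : Gamma0 (N * ℓ)) : SL(2, ℤ)) : Matrix (Fin 2) (Fin 2) ℤ).trace =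
      ((g : SL(2, ℤ)) : Matrix (Fin 2) (Fin 2) ℤ).trace := by
  have h1 : Matrix.SpecialLinearGroup.mapGL ℝ ((conj g : Gamma0 (N * ℓ)) : SL(2, ℤ)) =
      S35W3_W N ℓ hℓ hℓN * Matrix.SpecialLinearGroup.mapGL ℝ (g : SL(2, ℤ)) *
        (S35W3_W N ℓ hℓ hℓN)⁻¹ := by
    rw [← hconj g, mul_inv_cancel_right]
  have h2 := congrArg (fun X : GL (Fin 2) ℝ => (X : Matrix (Fin 2) (Fin 2) ℝ).trace) h1
  simp only [Units.val_mul] at h2
  rw [Matrix.trace_mul_comm, ← mul_assoc] at h2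
  have h3 : ((S35W3_W N ℓ hℓ hℓN)⁻¹ : GL (Fin 2) ℝ).val * (S35W3_W N ℓ hℓ hℓN).val = 1 := by
    rw [← Units.val_mul, inv_mul_cancel, Units.val_one]
  rw [h3, one_mul] at h2
  have h4 : ∀ σ : SL(2, ℤ), ((Matrix.SpecialLinearGroup.mapGL ℝ σ : GL (Fin 2) ℝ) :
      Matrix (Fin 2) (Fin 2) ℝ).trace = (((σ : Matrix (Fin 2) (Fin 2) ℤ).trace : ℤ) : ℝ) := by
    intro σ
    rw [Matrix.trace_fin_two, Matrix.trace_fin_two]
    simp [Matrix.SpecialLinearGroup.mapGL_coe_matrix]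
  rw [h4, h4] at h2
  exact_mod_cast h2

/-- good characters stay good under conjugation by `W` -/
theorem S35W3_good (conj : Gamma0 (N * ℓ) →* Gamma0 (N * ℓ))
    (hconj : ∀ g : Gamma0 (N * ℓ),
      Matrix.SpecialLinearGroup.mapGL ℝ ((conj g : Gamma0 (N * ℓ)) : SL(2, ℤ)) *
        S35W3_W N ℓ hℓ hℓN =
      S35W3_W N ℓ hℓ hℓN * Matrix.SpecialLinearGroup.mapGL ℝ (g : SL(2, ℤ)))
    {χ : Gamma0 (N * ℓ) →* ℂˣ} (hχ : PG_IsGoodChar (N * ℓ) χ) :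
    PG_IsGoodChar (N * ℓ) (χ.comp conj) where
  fin := by
    obtain ⟨n, hn, h⟩ := hχ.fin
    exact ⟨n, hn, fun γ => h (conj γ)⟩
  par := fun γ hγ => hχ.par (conj γ) (by rw [S35W3_trace N ℓ hℓ hℓN conj hconj γ]; exact hγ)
  tors := fun γ n hn h => hχ.tors (conj γ) n hn (by rw [← map_pow, h, map_one])

end Form

end Fermat.Agent.S35_helper12_W3
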