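import Mathlib
import Fermat.Agent.S35_helper12_W3
import Fermat.Agent.G_helper28_G7ASM
import Fermat.Agent.G_helper7_EISWRAP
import Fermat.Agent.G_helper25_G4DEP
import Fermat.Agent.G_helper16_G5gen
import Fermat.Agent.G_helper21_B0L

/-!
# S35, piece P6-B-beta, step (w4), analytic half (helper12)

`Θ` intertwines the Atkin–Lehner involution `w` of `F_ℂ(N ℓ)` with the pull-back
`c ↦ c ∘ conj` (conjugation by the Atkin–Lehner matrix `W`) on the lattice of integral parabolic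
homomorphisms:

`S35W4A_main : SemilinearAut.ofAlgAut w • Θ c = Θ (pull c)`

for every `Θ` with the contract `PG_THETA (N ℓ) m`.  The group half (`conj`, `pull` and their two
properties) enters as hypotheses.
-/

set_option autoImplicit false
set_option linter.unusedSectionVars false
set_option linter.unusedVariables false
set_option linter.style.haveILetI false
set_option linter.unnecessarySimpa false

noncomputable section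

open UpperHalfPlane ModularForm CongruenceSubgroup AlgebraicCurve
open scoped MatrixGroups ModularForm Manifold
open ModularCurve Fermat.Agent.S20 Fermat.Agent.S24
open Fermat.Agent.G_helper6_Defs
open Fermat.Agent.G_helper16_G5 Fermat.Agent.G_helper8_K1C Fermat.Agent.G_helper21_B0L
open Fermat.Agent.S35_helper12_WC Fermat.Agent.S35_helper12_W3
open Fermat.Agent.G_helper28_G7ASM

namespace Fermat.Agent.S35_helper12_W4A

variable (N ℓ : ℕ) [NeZero N] [NeZero ℓ] (hℓ : ℓ.Prime) (hℓN : ¬ ℓ ∣ N)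

theorem S35W4A_det : |(S35W3_W N ℓ hℓ hℓN).det.val| = (ℓ : ℝ) := by
  have h : ((S35W3_W N ℓ hℓ hℓN).det : ℝ) = (ℓ : ℝ) := by
    rw [S35W3_W, map_mul, Units.val_mul, det_heckeDiagMatrix (NeZero.ne ℓ)]
    simp
  rw [h, abs_of_nonneg (Nat.cast_nonneg ℓ)]

theorem S35W4A_slash_pow (k : ℤ) (n : ℕ) (a : ℍ → ℂ) :
    (a ^ n) ∣[k * n] S35W3_W N ℓ hℓ hℓN =
      (((ℓ : ℝ) ^ ((n : ℤ) - 1) : ℝ) : ℂ) • (a ∣[k] S35W3_W N ℓ hℓ hℓN) ^ n := by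
  rw [PG7A_slash_pow, S35W4A_det]
  funext z
  simp only [Pi.smul_apply, Complex.real_smul, smul_eq_mul]

set_option maxHeartbeats 800000 in
/-- **Step (w4), analytic half**: `w • Θ c = Θ (c ∘ conj)`. -/
theorem S35W4A_main (conj : Gamma0 (N * ℓ) →* Gamma0 (N * ℓ))
    (hconj : ∀ g : Gamma0 (N * ℓ),
      Matrix.SpecialLinearGroup.mapGL ℝ ((conj g : Gamma0 (N * ℓ)) : SL(2, ℤ)) *
        S35W3_W N ℓ hℓ hℓN =
      S35W3_W N ℓ hℓ hℓN * Matrix.SpecialLinearGroup.mapGL ℝ (g : SL(2, ℤ)))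
    (pull : PG_M (N * ℓ) →+ PG_M (N * ℓ))
    (hpull : ∀ (m : ℕ) (c : PG_M (N * ℓ)),
      PG_chi (N * ℓ) m ((pull c : PG_M (N * ℓ)) : Additive (Gamma0 (N * ℓ)) →+ ℤ) =
        (PG_chi (N * ℓ) m (c : Additive (Gamma0 (N * ℓ)) →+ ℤ)).comp conj)
    (m : ℕ) (hm : 0 < m) (Θ : PG_M (N * ℓ) →+ PG_JC (N * ℓ)) (hΘ : PG_THETA (N * ℓ) m Θ)
    (c : PG_M (N * ℓ)) :
    SemilinearAut.ofAlgAut (S35WC_w N ℓ hℓ hℓN) • Θ c = Θ (pull c) := by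
  haveI : HasPrincipalDivisors ℂ (PG_FC (N * ℓ)) :=
    Fermat.Agent.G_helper21_B0L.PG_B0L_hasPrincipalDivisors ℂ (N * ℓ)
  have hE : PG_EIS (N * ℓ) := Fermat.Agent.G_helper7_EISWRAP.PG_G3 (N * ℓ)
  have h1 : PG_AN1 (N * ℓ) := Fermat.Agent.G_helper25_G4DEP.PG_G4D_an1 (N * ℓ)
  have h3 : PG_AN3 (N * ℓ) m := Fermat.Agent.G_helper16_G5.PG_G5_an3_all (N * ℓ) m
  -- the Eisenstein series
  obtain ⟨a, ha, hat⟩ := hE _ (PG7A_chi_good (N * ℓ) m hm c)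
  obtain ⟨b, hb, hbt⟩ := hE _ (PG7A_one_good (N * ℓ))
  have ha0 : a ≠ 0 := PG7A_ne_zero_of_tendsto hat
  have hb0 : b ≠ 0 := PG7A_ne_zero_of_tendsto hbt
  have hA : PG_IsForm (N * ℓ) (4 * m) 1 (a ^ m) := by
    have h := PG7A_isForm_pow ha m
    rwa [PG7A_chi_pow (N * ℓ) m hm] at h
  have hB : PG_IsForm (N * ℓ) (4 * m) 1 (b ^ m) := by
    have h := PG7A_isForm_pow hb m
    rwa [one_pow (M := Gamma0 (N * ℓ) →* ℂˣ) m] at h
  have hA0 : a ^ m ≠ 0 := PG7A_pow_ne_zero ha0 m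
  have hB0 : b ^ m ≠ 0 := PG7A_pow_ne_zero hb0 m
  obtain ⟨x, hx⟩ := h1 (4 * m) (a ^ m) (b ^ m) hA hB hB0
  have hx0 : x ≠ 0 := by
    rintro rfl
    unfold PG_Realizes at hx
    rw [ZeroMemClass.coe_zero, zero_mul] at hx
    exact PG7A_qLaur_ne_zero (PG7A_nice_of_isForm_one hA) hA0 hx.symm
  have hdiv : ∀ v : Place ℂ (PG_FC (N * ℓ)), (m : ℤ) ∣ v.ord x :=
    h3 4 _ 1 a b x (PG7A_chi_good (N * ℓ) m hm c) (PG7A_one_good (N * ℓ)) ha hb ha0 hb0 hx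
  obtain ⟨D, hD⟩ := PG7A_exists_div_root m hm x hx0 hdiv
  have hΘc : Θ c = Pic0.mk D :=
    hΘ.char c 4 1 a b x D (PG7A_one_good (N * ℓ))
      (by rw [mul_one (PG_chi (N * ℓ) m (c : Additive (Gamma0 (N * ℓ)) →+ ℤ))]; exact ha)
      hb ha0 hb0 hx hD
  rw [hΘc, SemilinearAut.pic0_smul_mk]
  -- the W-transforms
  have hone : (1 : Gamma0 (N * ℓ) →* ℂˣ).comp conj = 1 := MonoidHom.one_comp _
  have ha' : PG_IsForm (N * ℓ) 4
      (PG_chi (N * ℓ) m ((pull c : PG_M (N * ℓ)) : Additive (Gamma0 (N * ℓ)) →+ ℤ) * 1)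
      (a ∣[(4 : ℤ)] S35W3_W N ℓ hℓ hℓN) := by
    rw [mul_one (PG_chi (N * ℓ) m ((pull c : PG_M (N * ℓ)) : Additive (Gamma0 (N * ℓ)) →+ ℤ)),
      hpull]
    exact S35W3_form N ℓ hℓ hℓN conj hconj ha
  have hb' : PG_IsForm (N * ℓ) 4 1 (b ∣[(4 : ℤ)] S35W3_W N ℓ hℓ hℓN) := by
    have h := S35W3_form N ℓ hℓ hℓN conj hconj hb
    rwa [hone] at h
  have ha'0 : a ∣[(4 : ℤ)] S35W3_W N ℓ hℓ hℓN ≠ 0 := S35W3_ne_zero N ℓ hℓ hℓN ha0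
  have hb'0 : b ∣[(4 : ℤ)] S35W3_W N ℓ hℓ hℓN ≠ 0 := S35W3_ne_zero N ℓ hℓ hℓN hb0
  have hA' : PG_IsForm (N * ℓ) (4 * m) 1 ((a ∣[(4 : ℤ)] S35W3_W N ℓ hℓ hℓN) ^ m) := by
    have h := PG7A_isForm_pow ha' m
    rwa [mul_one (PG_chi (N * ℓ) m ((pull c : PG_M (N * ℓ)) : Additive (Gamma0 (N * ℓ)) →+ ℤ)),
      PG7A_chi_pow (N * ℓ) m hm] at h
  have hB' : PG_IsForm (N * ℓ) (4 * m) 1 ((b ∣[(4 : ℤ)] S35W3_W N ℓ hℓ hℓN) ^ m) := by
    have h := PG7A_isForm_pow hb' m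
    rwa [one_pow (M := Gamma0 (N * ℓ) →* ℂˣ) m] at h
  -- the realisation of `w x`
  have hAW : PG_IsForm (N * ℓ) (4 * m) 1 ((a ^ m) ∣[(4 : ℤ) * m] S35W3_W N ℓ hℓ hℓN) := by
    have h := S35W3_form N ℓ hℓ hℓN conj hconj hA
    rwa [hone] at h
  have hBW : PG_IsForm (N * ℓ) (4 * m) 1 ((b ^ m) ∣[(4 : ℤ) * m] S35W3_W N ℓ hℓ hℓN) := by
    have h := S35W3_form N ℓ hℓ hℓN conj hconj hB
    rwa [hone] at h
  have hreal0 := S35W3_bridge N ℓ hℓ hℓN x (PG7A_one_good (N * ℓ)) (PG7A_one_good (N * ℓ))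
    hA hB (PG_G5_form_hasPoleInf (PG7A_one_good (N * ℓ)) hAW)
    (PG_G5_form_hasPoleInf (PG7A_one_good (N * ℓ)) hBW) hx
  rw [S35W4A_slash_pow, S35W4A_slash_pow] at hreal0
  unfold PG_Realizes at hreal0
  rw [PG7A_qLaur_smul (PG7A_nice_of_isForm_one hA'),
    PG7A_qLaur_smul (PG7A_nice_of_isForm_one hB')] at hreal0
  have hc0 : (((ℓ : ℝ) ^ ((m : ℤ) - 1) : ℝ) : ℂ) ≠ 0 := by
    have hℓ0 : (ℓ : ℝ) ≠ 0 := by exact_mod_cast NeZero.ne ℓ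
    exact_mod_cast zpow_ne_zero _ hℓ0
  have hC : (HahnSeries.C (((ℓ : ℝ) ^ ((m : ℤ) - 1) : ℝ) : ℂ) : LaurentSeries ℂ) ≠ 0 :=
    PG7A_C_ne_zero hc0
  have hreal : PG_Realizes (S35WC_w N ℓ hℓ hℓN x)
      ((a ∣[(4 : ℤ)] S35W3_W N ℓ hℓ hℓN) ^ m) ((b ∣[(4 : ℤ)] S35W3_W N ℓ hℓ hℓN) ^ m) := by
    unfold PG_Realizes
    apply mul_left_cancel₀ hC
    rw [← hreal0]
    ring
  -- the divisor
  refine (hΘ.char (pull c) 4 1 _ _ (S35WC_w N ℓ hℓ hℓN x)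
    (SemilinearAut.degZeroSMulHom (SemilinearAut.ofAlgAut (S35WC_w N ℓ hℓ hℓN)) D)
    (PG7A_one_good (N * ℓ)) ha' hb' ha'0 hb'0 hreal (fun v => ?_)).symm
  rw [SemilinearAut.coe_degZeroSMulHom, SemilinearAut.divisor_smul_apply, hD]
  have h := SemilinearAut.ord_smul (SemilinearAut.ofAlgAut (S35WC_w N ℓ hℓ hℓN))
    ((SemilinearAut.ofAlgAut (S35WC_w N ℓ hℓ hℓN))⁻¹ • v) x
  rw [smul_inv_smul] at h
  exact h.symm

end Fermat.Agent.S35_helper12_W4A
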