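import Fermat.Agent.S35_helper6_PUSH
import Fermat.Agent.G_helper6_Contracts

/-!
# S35, block (P6): the contracts of the Theta-functoriality (helper23)

Level `N * ℓ` over level `N` (`ℓ` prime, `ℓ ∤ N`).  `S35PU_alphaL ℂ N ℓ`, `S35PU_betaL ℂ N ℓ` are
the two degeneracy push-forwards `Pic⁰ (F_ℂ (N ℓ)) → Pic⁰ (F_ℂ N)` of helper6.

* `S35P6_TFA N ℓ` : there is an additive map `V : M (N ℓ) → M N` on the lattices of integral
  parabolic homomorphisms (the transfer) with `α_* (Θ c) = Θ' (V c)` for every modulus `m ≥ 1`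
  and every pair of maps `Θ`, `Θ'` with the contract `PG_THETA` at the two levels;
* `S35P6_TFB N ℓ` : the same for `β_*`.

Only definitions here.
-/

set_option autoImplicit false

open AlgebraicCurve ModularCurve
open Fermat.Agent.G_helper6_Defs Fermat.Agent.S35_helper6_PUSH

noncomputable section

namespace Fermat.Agent.S35_helper23_P6Defs

/-- Theta-functoriality for a push-forward `ν : Pic⁰ (F_ℂ (N ℓ)) → Pic⁰ (F_ℂ N)` and a map
`V` on the lattices. -/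
def S35P6_TFfor (N ℓ : ℕ) (ν : PG_JC (N * ℓ) →+ PG_JC N) (V : PG_M (N * ℓ) →+ PG_M N) : Prop :=
  ∀ m : ℕ, 0 < m → ∀ (Θ : PG_M (N * ℓ) →+ PG_JC (N * ℓ)) (Θ' : PG_M N →+ PG_JC N),
    PG_THETA (N * ℓ) m Θ → PG_THETA N m Θ' → ∀ c : PG_M (N * ℓ), ν (Θ c) = Θ' (V c)

/-- Theta-functoriality along `α`. -/
def S35P6_TFA (N ℓ : ℕ) [NeZero N] [NeZero ℓ] : Prop :=
  ∃ V : PG_M (N * ℓ) →+ PG_M N, S35P6_TFfor N ℓ (S35PU_alphaL ℂ N ℓ) V

/-- Theta-functoriality along `β`. -/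
def S35P6_TFB (N ℓ : ℕ) [NeZero N] [NeZero ℓ] : Prop :=
  ∃ V : PG_M (N * ℓ) →+ PG_M N, S35P6_TFfor N ℓ (S35PU_betaL ℂ N ℓ) V

end Fermat.Agent.S35_helper23_P6Defs
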