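import Mathlib
import Fermat.Agent.S35_helper12_W4A
import Fermat.Agent.S35_helper10_W2
import Fermat.Agent.S35_helper23_P6Defs

/-!
# S35, piece P6-B-beta, the plug (helper12): `S35P6_TFB` from `S35P6_TFA`

`β_* (Θ c) = α_* (w • Θ c) = α_* (Θ (c ∘ conj)) = Θ' (V_α (c ∘ conj))`:
step (w2) (helper10), step (w4) (`S35W4A_main`) and the Theta-functoriality along `α`.
The group half (`conj`, `pull`) enters as hypotheses.
-/

set_option autoImplicit false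
set_option linter.unusedSectionVars false
set_option linter.unusedVariables false
set_option linter.style.haveILetI false

noncomputable section

open UpperHalfPlane ModularForm CongruenceSubgroup AlgebraicCurve
open scoped MatrixGroups ModularForm Manifold
open ModularCurve
open Fermat.Agent.G_helper6_Defs
open Fermat.Agent.S35_helper12_WC Fermat.Agent.S35_helper12_W3 Fermat.Agent.S35_helper12_W4A
open Fermat.Agent.S35_helper6_PUSH Fermat.Agent.S35_helper10_W2 Fermat.Agent.S35_helper23_P6Defs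

namespace Fermat.Agent.S35_helper12_TFBW

variable (N ℓ : ℕ) [NeZero N] [NeZero ℓ] (hℓ : ℓ.Prime) (hℓN : ¬ ℓ ∣ N)

/-- `β_* = α_* ∘ w` on `Pic⁰ (F_ℂ (N ℓ))` -/
theorem S35TFBW_beta_eq (y : PG_JC (N * ℓ)) :
    S35PU_betaL ℂ N ℓ y =
      S35PU_alphaL ℂ N ℓ (SemilinearAut.ofAlgAut (S35WC_w N ℓ hℓ hℓN) • y) :=
  (S35W2_alphaL ℂ N ℓ (SemilinearAut.ofAlgAut (S35WC_w N ℓ hℓ hℓN))
    (fun x => S35WC_w_beta N ℓ hℓ hℓN x) y).symm

/-- **Theta-functoriality along `β` from the one along `α`** (for a given transfer `V`). -/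
theorem S35TFBW_for (conj : Gamma0 (N * ℓ) →* Gamma0 (N * ℓ))
    (hconj : ∀ g : Gamma0 (N * ℓ),
      Matrix.SpecialLinearGroup.mapGL ℝ ((conj g : Gamma0 (N * ℓ)) : SL(2, ℤ)) *
        S35W3_W N ℓ hℓ hℓN =
      S35W3_W N ℓ hℓ hℓN * Matrix.SpecialLinearGroup.mapGL ℝ (g : SL(2, ℤ)))
    (pull : PG_M (N * ℓ) →+ PG_M (N * ℓ))
    (hpull : ∀ (m : ℕ) (c : PG_M (N * ℓ)),
      PG_chi (N * ℓ) m ((pull c : PG_M (N * ℓ)) : Additive (Gamma0 (N * ℓ)) →+ ℤ) =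
        (PG_chi (N * ℓ) m (c : Additive (Gamma0 (N * ℓ)) →+ ℤ)).comp conj)
    (V : PG_M (N * ℓ) →+ PG_M N) (hV : S35P6_TFfor N ℓ (S35PU_alphaL ℂ N ℓ) V) :
    S35P6_TFfor N ℓ (S35PU_betaL ℂ N ℓ) (V.comp pull) := by
  intro m hm Θ Θ' hΘ hΘ' c
  rw [S35TFBW_beta_eq N ℓ hℓ hℓN, S35W4A_main N ℓ hℓ hℓN conj hconj pull hpull m hm Θ hΘ c,
    hV m hm Θ Θ' hΘ hΘ' (pull c)]
  rfl

/-- **`S35P6_TFB` from `S35P6_TFA`** and the group half. -/
theorem S35TFBW_main (conj : Gamma0 (N * ℓ) →* Gamma0 (N * ℓ))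
    (hconj : ∀ g : Gamma0 (N * ℓ),
      Matrix.SpecialLinearGroup.mapGL ℝ ((conj g : Gamma0 (N * ℓ)) : SL(2, ℤ)) *
        S35W3_W N ℓ hℓ hℓN =
      S35W3_W N ℓ hℓ hℓN * Matrix.SpecialLinearGroup.mapGL ℝ (g : SL(2, ℤ)))
    (pull : PG_M (N * ℓ) →+ PG_M (N * ℓ))
    (hpull : ∀ (m : ℕ) (c : PG_M (N * ℓ)),
      PG_chi (N * ℓ) m ((pull c : PG_M (N * ℓ)) : Additive (Gamma0 (N * ℓ)) →+ ℤ) =
        (PG_chi (N * ℓ) m (c : Additive (Gamma0 (N * ℓ)) →+ ℤ)).comp conj)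
    (hA : S35P6_TFA N ℓ) : S35P6_TFB N ℓ := by
  obtain ⟨V, hV⟩ := hA
  exact ⟨V.comp pull, S35TFBW_for N ℓ hℓ hℓN conj hconj pull hpull V hV⟩

end Fermat.Agent.S35_helper12_TFBW
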