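import Mathlib
import Fermat.Agent.G_helper6_Defs
import Fermat.Agent.S34_helper20_WQ
import Fermat.Prelude.Def_ModularForm_HeckeOperator

/-!
# S35, block (P6), brick (w4), group half: conjugation by the Atkin-Lehner matrix

For `ℓ u + v N = 1` put `γ_W = [[1, -v], [N, ℓ u]] ∈ Γ₀(N)` (helper20's `S34WQ_gamma ℓ N u v h`)
and `W = γ_W · diag(ℓ, 1) = [[ℓ, -v], [N ℓ, ℓ u]]` (determinant `ℓ`).

* `S35W4_conj N ℓ u v h : Gamma0 (N * ℓ) →* Gamma0 (N * ℓ)`, `g ↦ W g W⁻¹`;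
* `S35W4_conj_mul_Wint` : `conj g * W = W * g` for integral matrices;
* `S35W4_conj_mul_Wmat` : `mapGL ℝ (conj g) * Wmat = Wmat * mapGL ℝ g` in `GL (Fin 2) ℝ`,
  `Wmat = mapGL ℝ γ_W * heckeDiagMatrix ℓ`;
* `S35W4_trace` : conjugation preserves the trace;
* `S35W4_pull : PG_M (N * ℓ) →+ PG_M (N * ℓ)`, `c ↦ c ∘ conj`, and
  `S35W4_chi_pull : PG_chi (N * ℓ) m (S35W4_pull c) = (PG_chi (N * ℓ) m c).comp conj`;
* `S35W4_goodChar` : `χ ∘ conj` is a good character if `χ` is.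
-/

set_option autoImplicit false

open CongruenceSubgroup
open scoped MatrixGroups
open Fermat.Agent.G_helper6_Defs Fermat.Agent.S34_helper20_WQ

noncomputable section

namespace Fermat.Agent.S35_helper18_W4G

/-! ### integral matrices -/

/-- the integral Atkin-Lehner matrix `W = [[ℓ, -v], [N ℓ, ℓ u]]`. -/
def S35W4_Wint (N ℓ : ℕ) (u v : ℤ) : Matrix (Fin 2) (Fin 2) ℤ :=
  !![(ℓ : ℤ), -v; (N : ℤ) * (ℓ : ℤ), (ℓ : ℤ) * u]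

/-- the adjugate of `W`. -/
def S35W4_Wadj (N ℓ : ℕ) (u v : ℤ) : Matrix (Fin 2) (Fin 2) ℤ :=
  !![(ℓ : ℤ) * u, v; -((N : ℤ) * (ℓ : ℤ)), (ℓ : ℤ)]

/-- `W B W⁻¹` for `B = [[a, b], [c, d]]` (junk unless `ℓ ∣ c`). -/
def S35W4_conjMat (N ℓ : ℕ) (u v : ℤ) (B : Matrix (Fin 2) (Fin 2) ℤ) :
    Matrix (Fin 2) (Fin 2) ℤ :=
  !![(ℓ : ℤ) * B 0 0 * u - v * ((ℓ : ℤ) * (B 1 0 / (ℓ : ℤ))) * u - (N : ℤ) * (ℓ : ℤ) * B 0 1
        + (N : ℤ) * v * B 1 1,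
     B 0 0 * v - v ^ 2 * (B 1 0 / (ℓ : ℤ)) + (ℓ : ℤ) * B 0 1 - v * B 1 1;
     (N : ℤ) * (ℓ : ℤ) * (B 0 0 * u + (ℓ : ℤ) * u ^ 2 * (B 1 0 / ((N : ℤ) * (ℓ : ℤ)))
        - (N : ℤ) * B 0 1 - u * B 1 1),
     (N : ℤ) * B 0 0 * v + u * ((ℓ : ℤ) * (B 1 0 / (ℓ : ℤ))) * v + (N : ℤ) * (ℓ : ℤ) * B 0 1
        + (ℓ : ℤ) * u * B 1 1]

theorem S35W4_W_mul_adj (N ℓ : ℕ) (u v : ℤ) (h : (ℓ : ℤ) * u + v * (N : ℤ) = 1) :
    S35W4_Wint N ℓ u v * S35W4_Wadj N ℓ u v = (ℓ : ℤ) • (1 : Matrix (Fin 2) (Fin 2) ℤ) := by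
  ext i j
  fin_cases i <;> fin_cases j
  · simp only [S35W4_Wint, S35W4_Wadj, Matrix.mul_apply, Fin.sum_univ_two, Fin.zero_eta,
      Fin.isValue, Matrix.of_apply, Matrix.cons_val', Matrix.cons_val_zero, Matrix.cons_val_one,
      Matrix.cons_val_fin_one, Matrix.smul_apply, Matrix.one_apply_eq, smul_eq_mul]
    linear_combination (ℓ : ℤ) * h
  · simp only [S35W4_Wint, S35W4_Wadj, Matrix.mul_apply, Fin.sum_univ_two, Fin.zero_eta,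
      Fin.isValue, Fin.mk_one, Matrix.of_apply, Matrix.cons_val', Matrix.cons_val_zero,
      Matrix.cons_val_one, Matrix.cons_val_fin_one, Matrix.smul_apply, smul_eq_mul]
    rw [Matrix.one_apply_ne (by decide)]
    ring
  · simp only [S35W4_Wint, S35W4_Wadj, Matrix.mul_apply, Fin.sum_univ_two, Fin.zero_eta,
      Fin.isValue, Fin.mk_one, Matrix.of_apply, Matrix.cons_val', Matrix.cons_val_zero,
      Matrix.cons_val_one, Matrix.cons_val_fin_one, Matrix.smul_apply, smul_eq_mul]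
    rw [Matrix.one_apply_ne (by decide)]
    ring
  · simp only [S35W4_Wint, S35W4_Wadj, Matrix.mul_apply, Fin.sum_univ_two, Fin.mk_one,
      Fin.isValue, Matrix.of_apply, Matrix.cons_val', Matrix.cons_val_zero, Matrix.cons_val_one,
      Matrix.cons_val_fin_one, Matrix.smul_apply, Matrix.one_apply_eq, smul_eq_mul]
    linear_combination (ℓ : ℤ) * h

/-- right multiplication by `W` is injective. -/
theorem S35W4_cancel (N ℓ : ℕ) [NeZero ℓ] (u v : ℤ) (h : (ℓ : ℤ) * u + v * (N : ℤ) = 1)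
    {X Y : Matrix (Fin 2) (Fin 2) ℤ} (hXY : X * S35W4_Wint N ℓ u v = Y * S35W4_Wint N ℓ u v) :
    X = Y := by
  have h1 := congrArg (· * S35W4_Wadj N ℓ u v) hXY
  simp only [Matrix.mul_assoc, S35W4_W_mul_adj N ℓ u v h, Matrix.mul_smul, Matrix.mul_one] at h1
  have hℓ : (ℓ : ℤ) ≠ 0 := by exact_mod_cast NeZero.ne ℓ
  ext i j
  have h2 := congrFun (congrFun h1 i) j
  simp only [Matrix.smul_apply, smul_eq_mul] at h2
  exact mul_left_cancel₀ hℓ h2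

theorem S35W4_conjMat_mul_W (N ℓ : ℕ) [NeZero ℓ] (u v : ℤ) (h : (ℓ : ℤ) * u + v * (N : ℤ) = 1)
    (B : Matrix (Fin 2) (Fin 2) ℤ) (hB : ((N : ℤ) * (ℓ : ℤ)) ∣ B 1 0) :
    S35W4_conjMat N ℓ u v B * S35W4_Wint N ℓ u v = S35W4_Wint N ℓ u v * B := by
  have hℓ : (ℓ : ℤ) ≠ 0 := by exact_mod_cast NeZero.ne ℓ
  obtain ⟨c, hc⟩ := hB
  have e1 : B 1 0 / (ℓ : ℤ) = (N : ℤ) * c := by
    rw [hc, show (N : ℤ) * (ℓ : ℤ) * c = (ℓ : ℤ) * ((N : ℤ) * c) by ring,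
      Int.mul_ediv_cancel_left _ hℓ]
  have e2 : B 1 0 / ((N : ℤ) * (ℓ : ℤ)) = c ∨ (N : ℤ) = 0 := by
    by_cases hN : (N : ℤ) = 0
    · exact Or.inr hN
    · left
      rw [hc, Int.mul_ediv_cancel_left _ (mul_ne_zero hN hℓ)]
  ext i j
  fin_cases i <;> fin_cases j
  · simp only [S35W4_Wint, S35W4_conjMat, Matrix.mul_apply, Fin.sum_univ_two, Fin.zero_eta,
      Fin.isValue, Matrix.of_apply, Matrix.cons_val', Matrix.cons_val_zero, Matrix.cons_val_one,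
      Matrix.cons_val_fin_one]
    rw [e1, hc]
    linear_combination ((ℓ : ℤ) * (B 0 0 - v * ((N : ℤ) * c))) * h
  · simp only [S35W4_Wint, S35W4_conjMat, Matrix.mul_apply, Fin.sum_univ_two, Fin.zero_eta,
      Fin.isValue, Fin.mk_one, Matrix.of_apply, Matrix.cons_val', Matrix.cons_val_zero,
      Matrix.cons_val_one, Matrix.cons_val_fin_one]
    rw [e1]
    linear_combination ((ℓ : ℤ) * B 0 1 - v * B 1 1) * h
  · simp only [S35W4_Wint, S35W4_conjMat, Matrix.mul_apply, Fin.sum_univ_two, Fin.zero_eta,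
      Fin.isValue, Fin.mk_one, Matrix.of_apply, Matrix.cons_val', Matrix.cons_val_zero,
      Matrix.cons_val_one, Matrix.cons_val_fin_one]
    rcases e2 with e2 | hN
    · rw [e1, e2, hc]
      linear_combination ((ℓ : ℤ) * ((N : ℤ) * B 0 0 + (ℓ : ℤ) * u * ((N : ℤ) * c))) * h
    · rw [e1, hc, hN]
      ring
  · simp only [S35W4_Wint, S35W4_conjMat, Matrix.mul_apply, Fin.sum_univ_two, Fin.mk_one,
      Fin.isValue, Matrix.of_apply, Matrix.cons_val', Matrix.cons_val_zero, Matrix.cons_val_one,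
      Matrix.cons_val_fin_one]
    rcases e2 with e2 | hN
    · rw [e1, e2]
      linear_combination ((N : ℤ) * (ℓ : ℤ) * B 0 1 + (ℓ : ℤ) * u * B 1 1) * h
    · rw [e1, hN]
      have h' : (ℓ : ℤ) * u = 1 := by rw [hN] at h; linear_combination h
      linear_combination ((ℓ : ℤ) * u * B 1 1) * h'

theorem S35W4_det_Wint (N ℓ : ℕ) (u v : ℤ) (h : (ℓ : ℤ) * u + v * (N : ℤ) = 1) :
    (S35W4_Wint N ℓ u v).det = (ℓ : ℤ) := by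
  rw [S35W4_Wint, Matrix.det_fin_two_of]
  linear_combination (ℓ : ℤ) * h

theorem S35W4_conjMat_det (N ℓ : ℕ) [NeZero ℓ] (u v : ℤ) (h : (ℓ : ℤ) * u + v * (N : ℤ) = 1)
    (B : Matrix (Fin 2) (Fin 2) ℤ) (hB : ((N : ℤ) * (ℓ : ℤ)) ∣ B 1 0) :
    (S35W4_conjMat N ℓ u v B).det = B.det := by
  have hℓ : (ℓ : ℤ) ≠ 0 := by exact_mod_cast NeZero.ne ℓ
  have h1 := congrArg Matrix.det (S35W4_conjMat_mul_W N ℓ u v h B hB)
  rw [Matrix.det_mul, Matrix.det_mul, S35W4_det_Wint N ℓ u v h, mul_comm] at h1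
  exact mul_left_cancel₀ hℓ h1

theorem S35W4_conjMat_dvd (N ℓ : ℕ) (u v : ℤ) (B : Matrix (Fin 2) (Fin 2) ℤ) :
    ((N : ℤ) * (ℓ : ℤ)) ∣ S35W4_conjMat N ℓ u v B 1 0 := by
  simp only [S35W4_conjMat, Matrix.of_apply, Matrix.cons_val', Matrix.cons_val_zero,
    Matrix.cons_val_one, Matrix.cons_val_fin_one]
  exact dvd_mul_right _ _

theorem S35W4_conjMat_trace (N ℓ : ℕ) [NeZero ℓ] (u v : ℤ) (h : (ℓ : ℤ) * u + v * (N : ℤ) = 1)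
    (B : Matrix (Fin 2) (Fin 2) ℤ) :
    (S35W4_conjMat N ℓ u v B).trace = B.trace := by
  rw [Matrix.trace_fin_two, Matrix.trace_fin_two]
  simp only [S35W4_conjMat, Matrix.of_apply, Matrix.cons_val', Matrix.cons_val_zero,
    Matrix.cons_val_one, Matrix.cons_val_fin_one]
  linear_combination (B 0 0 + B 1 1) * h

theorem S35W4_conjMat_mul (N ℓ : ℕ) [NeZero ℓ] (u v : ℤ) (h : (ℓ : ℤ) * u + v * (N : ℤ) = 1)
    (B B' : Matrix (Fin 2) (Fin 2) ℤ) (hB : ((N : ℤ) * (ℓ : ℤ)) ∣ B 1 0)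
    (hB' : ((N : ℤ) * (ℓ : ℤ)) ∣ B' 1 0) (hBB' : ((N : ℤ) * (ℓ : ℤ)) ∣ (B * B') 1 0) :
    S35W4_conjMat N ℓ u v (B * B') = S35W4_conjMat N ℓ u v B * S35W4_conjMat N ℓ u v B' := by
  apply S35W4_cancel N ℓ u v h
  rw [S35W4_conjMat_mul_W N ℓ u v h _ hBB', Matrix.mul_assoc (S35W4_conjMat N ℓ u v B),
    S35W4_conjMat_mul_W N ℓ u v h _ hB', ← Matrix.mul_assoc (S35W4_conjMat N ℓ u v B),
    S35W4_conjMat_mul_W N ℓ u v h _ hB, Matrix.mul_assoc]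

theorem S35W4_conjMat_one (N ℓ : ℕ) [NeZero ℓ] (u v : ℤ) (h : (ℓ : ℤ) * u + v * (N : ℤ) = 1) :
    S35W4_conjMat N ℓ u v 1 = 1 := by
  apply S35W4_cancel N ℓ u v h
  rw [S35W4_conjMat_mul_W N ℓ u v h 1 (by simp), Matrix.mul_one, Matrix.one_mul]

/-! ### the homomorphism on `Gamma0 (N * ℓ)` -/

theorem S35W4_dvd_of_mem {N ℓ : ℕ} (g : Gamma0 (N * ℓ)) :
    ((N : ℤ) * (ℓ : ℤ)) ∣ ((g : SL(2, ℤ)) : Matrix (Fin 2) (Fin 2) ℤ) 1 0 := by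
  have hg := g.2
  rw [Gamma0_mem, ZMod.intCast_zmod_eq_zero_iff_dvd] at hg
  have e : (((N * ℓ : ℕ) : ℤ)) = (N : ℤ) * (ℓ : ℤ) := by push_cast; ring
  rw [e] at hg
  exact hg

/-- `W g W⁻¹` in `SL(2, ℤ)`. -/
def S35W4_conjSL (N ℓ : ℕ) [NeZero ℓ] (u v : ℤ) (h : (ℓ : ℤ) * u + v * (N : ℤ) = 1)
    (g : Gamma0 (N * ℓ)) : SL(2, ℤ) :=
  ⟨S35W4_conjMat N ℓ u v ((g : SL(2, ℤ)) : Matrix (Fin 2) (Fin 2) ℤ), by
    rw [S35W4_conjMat_det N ℓ u v h _ (S35W4_dvd_of_mem g)]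
    exact (g : SL(2, ℤ)).2⟩

theorem S35W4_conjSL_coe (N ℓ : ℕ) [NeZero ℓ] (u v : ℤ) (h : (ℓ : ℤ) * u + v * (N : ℤ) = 1)
    (g : Gamma0 (N * ℓ)) :
    ((S35W4_conjSL N ℓ u v h g : SL(2, ℤ)) : Matrix (Fin 2) (Fin 2) ℤ) =
      S35W4_conjMat N ℓ u v ((g : SL(2, ℤ)) : Matrix (Fin 2) (Fin 2) ℤ) := rfl

theorem S35W4_conjSL_mem (N ℓ : ℕ) [NeZero ℓ] (u v : ℤ) (h : (ℓ : ℤ) * u + v * (N : ℤ) = 1)
    (g : Gamma0 (N * ℓ)) : S35W4_conjSL N ℓ u v h g ∈ Gamma0 (N * ℓ) := by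
  rw [Gamma0_mem, ZMod.intCast_zmod_eq_zero_iff_dvd]
  have e : (((N * ℓ : ℕ) : ℤ)) = (N : ℤ) * (ℓ : ℤ) := by push_cast; ring
  rw [e]
  exact S35W4_conjMat_dvd N ℓ u v _

/-- **conjugation by the Atkin-Lehner matrix** `W = γ_W · diag(ℓ, 1)`: `g ↦ W g W⁻¹` on
`Gamma0 (N * ℓ)`. -/
def S35W4_conj (N ℓ : ℕ) [NeZero ℓ] (u v : ℤ) (h : (ℓ : ℤ) * u + v * (N : ℤ) = 1) :
    Gamma0 (N * ℓ) →* Gamma0 (N * ℓ) where
  toFun g := ⟨S35W4_conjSL N ℓ u v h g, S35W4_conjSL_mem N ℓ u v h g⟩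
  map_one' := by
    apply Subtype.ext
    apply Subtype.ext
    exact S35W4_conjMat_one N ℓ u v h
  map_mul' g g' := by
    apply Subtype.ext
    apply Subtype.ext
    exact S35W4_conjMat_mul N ℓ u v h _ _ (S35W4_dvd_of_mem g) (S35W4_dvd_of_mem g')
      (S35W4_dvd_of_mem (g * g'))

theorem S35W4_conj_coe (N ℓ : ℕ) [NeZero ℓ] (u v : ℤ) (h : (ℓ : ℤ) * u + v * (N : ℤ) = 1)
    (g : Gamma0 (N * ℓ)) :
    (((S35W4_conj N ℓ u v h g : Gamma0 (N * ℓ)) : SL(2, ℤ)) : Matrix (Fin 2) (Fin 2) ℤ) =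
      S35W4_conjMat N ℓ u v ((g : SL(2, ℤ)) : Matrix (Fin 2) (Fin 2) ℤ) := rfl

/-- `conj g * W = W * g` (integral matrices). -/
theorem S35W4_conj_mul_Wint (N ℓ : ℕ) [NeZero ℓ] (u v : ℤ) (h : (ℓ : ℤ) * u + v * (N : ℤ) = 1)
    (g : Gamma0 (N * ℓ)) :
    (((S35W4_conj N ℓ u v h g : Gamma0 (N * ℓ)) : SL(2, ℤ)) : Matrix (Fin 2) (Fin 2) ℤ) *
        S35W4_Wint N ℓ u v =
      S35W4_Wint N ℓ u v * ((g : SL(2, ℤ)) : Matrix (Fin 2) (Fin 2) ℤ) :=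
  S35W4_conjMat_mul_W N ℓ u v h _ (S35W4_dvd_of_mem g)

/-- conjugation preserves the trace. -/
theorem S35W4_trace (N ℓ : ℕ) [NeZero ℓ] (u v : ℤ) (h : (ℓ : ℤ) * u + v * (N : ℤ) = 1)
    (g : Gamma0 (N * ℓ)) :
    (((S35W4_conj N ℓ u v h g : Gamma0 (N * ℓ)) : SL(2, ℤ)) : Matrix (Fin 2) (Fin 2) ℤ).trace =
      (((g : Gamma0 (N * ℓ)) : SL(2, ℤ)) : Matrix (Fin 2) (Fin 2) ℤ).trace :=
  S35W4_conjMat_trace N ℓ u v h _

/-! ### the matrix identity in `GL (Fin 2) ℝ` -/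

/-- `W = γ_W · diag(ℓ, 1)` in `GL (Fin 2) ℝ`, `γ_W` = helper20's `S34WQ_gamma ℓ N u v h`. -/
def S35W4_Wmat (N ℓ : ℕ) (u v : ℤ) (h : (ℓ : ℤ) * u + v * (N : ℤ) = 1) : GL (Fin 2) ℝ :=
  Matrix.SpecialLinearGroup.mapGL ℝ (S34WQ_gamma ℓ N u v h) * ModularForm.heckeDiagMatrix ℓ

theorem S35W4_mapGL_coe (g : SL(2, ℤ)) :
    ((Matrix.SpecialLinearGroup.mapGL ℝ g : GL (Fin 2) ℝ) : Matrix (Fin 2) (Fin 2) ℝ) =
      (g : Matrix (Fin 2) (Fin 2) ℤ).map (Int.castRingHom ℝ) := by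
  rw [Matrix.SpecialLinearGroup.mapGL_coe_matrix]
  exact Matrix.SpecialLinearGroup.map_apply_coe (Int.castRingHom ℝ) g

theorem S35W4_Wmat_coe (N ℓ : ℕ) [NeZero ℓ] (u v : ℤ) (h : (ℓ : ℤ) * u + v * (N : ℤ) = 1) :
    ((S35W4_Wmat N ℓ u v h : GL (Fin 2) ℝ) : Matrix (Fin 2) (Fin 2) ℝ) =
      (S35W4_Wint N ℓ u v).map (Int.castRingHom ℝ) := by
  rw [S35W4_Wmat, Units.val_mul, S35W4_mapGL_coe,
    ModularForm.val_heckeDiagMatrix (NeZero.ne ℓ)]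
  have hγ : ((S34WQ_gamma ℓ N u v h : SL(2, ℤ)) : Matrix (Fin 2) (Fin 2) ℤ) =
      !![1, -v; (N : ℤ), (ℓ : ℤ) * u] := rfl
  rw [hγ]
  ext i j
  fin_cases i <;> fin_cases j <;>
    simp [S35W4_Wint, Matrix.mul_apply, Fin.sum_univ_two]

/-- **the matrix identity** `conj g · W = W · g` in `GL (Fin 2) ℝ`. -/
theorem S35W4_conj_mul_Wmat (N ℓ : ℕ) [NeZero ℓ] (u v : ℤ)
    (h : (ℓ : ℤ) * u + v * (N : ℤ) = 1) (g : Gamma0 (N * ℓ)) :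
    Matrix.SpecialLinearGroup.mapGL ℝ ((S35W4_conj N ℓ u v h g : Gamma0 (N * ℓ)) : SL(2, ℤ)) *
        S35W4_Wmat N ℓ u v h =
      S35W4_Wmat N ℓ u v h * Matrix.SpecialLinearGroup.mapGL ℝ ((g : Gamma0 (N * ℓ)) : SL(2, ℤ)) := by
  apply Units.ext
  rw [Units.val_mul, Units.val_mul, S35W4_Wmat_coe, S35W4_mapGL_coe, S35W4_mapGL_coe]
  have h1 := congrArg (fun M : Matrix (Fin 2) (Fin 2) ℤ => M.map (Int.castRingHom ℝ))
    (S35W4_conj_mul_Wint N ℓ u v h g)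
  simp only [Matrix.map_mul] at h1
  exact h1

/-! ### the pull-back on parabolic homomorphisms -/

/-- `c ↦ c ∘ conj` on homomorphisms `Gamma0 (N ℓ) → ℤ`. -/
def S35W4_pullHom (N ℓ : ℕ) [NeZero ℓ] (u v : ℤ) (h : (ℓ : ℤ) * u + v * (N : ℤ) = 1) :
    (Additive (Gamma0 (N * ℓ)) →+ ℤ) →+ (Additive (Gamma0 (N * ℓ)) →+ ℤ) where
  toFun c := c.comp (MonoidHom.toAdditive (S35W4_conj N ℓ u v h))
  map_zero' := rfl
  map_add' _ _ := rfl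

theorem S35W4_pullHom_apply (N ℓ : ℕ) [NeZero ℓ] (u v : ℤ) (h : (ℓ : ℤ) * u + v * (N : ℤ) = 1)
    (c : Additive (Gamma0 (N * ℓ)) →+ ℤ) (g : Gamma0 (N * ℓ)) :
    S35W4_pullHom N ℓ u v h c (Additive.ofMul g) =
      c (Additive.ofMul (S35W4_conj N ℓ u v h g)) := rfl

theorem S35W4_pullHom_parabolic (N ℓ : ℕ) [NeZero ℓ] (u v : ℤ)
    (h : (ℓ : ℤ) * u + v * (N : ℤ) = 1) {c : Additive (Gamma0 (N * ℓ)) →+ ℤ}
    (hc : ModularCurve.Period.IsParabolicHom (Gamma0 (N * ℓ)) c) :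
    ModularCurve.Period.IsParabolicHom (Gamma0 (N * ℓ)) (S35W4_pullHom N ℓ u v h c) := by
  intro g hg
  rw [S35W4_pullHom_apply]
  apply hc
  rw [S35W4_trace N ℓ u v h g]
  exact hg

/-- **the pull-back along `conj`** on the lattice of integral parabolic homomorphisms. -/
def S35W4_pull (N ℓ : ℕ) [NeZero ℓ] (u v : ℤ) (h : (ℓ : ℤ) * u + v * (N : ℤ) = 1) :
    PG_M (N * ℓ) →+ PG_M (N * ℓ) where
  toFun c := ⟨S35W4_pullHom N ℓ u v h (c : Additive (Gamma0 (N * ℓ)) →+ ℤ),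
    S35W4_pullHom_parabolic N ℓ u v h c.2⟩
  map_zero' := rfl
  map_add' _ _ := rfl

theorem S35W4_pull_coe (N ℓ : ℕ) [NeZero ℓ] (u v : ℤ) (h : (ℓ : ℤ) * u + v * (N : ℤ) = 1)
    (c : PG_M (N * ℓ)) :
    ((S35W4_pull N ℓ u v h c : PG_M (N * ℓ)) : Additive (Gamma0 (N * ℓ)) →+ ℤ) =
      S35W4_pullHom N ℓ u v h (c : Additive (Gamma0 (N * ℓ)) →+ ℤ) := rfl

theorem S35W4_pull_apply (N ℓ : ℕ) [NeZero ℓ] (u v : ℤ) (h : (ℓ : ℤ) * u + v * (N : ℤ) = 1)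
    (c : PG_M (N * ℓ)) (g : Gamma0 (N * ℓ)) :
    (S35W4_pull N ℓ u v h c : Additive (Gamma0 (N * ℓ)) →+ ℤ) (Additive.ofMul g) =
      (c : Additive (Gamma0 (N * ℓ)) →+ ℤ) (Additive.ofMul (S35W4_conj N ℓ u v h g)) := rfl

/-- the character of the pull-back is the pull-back of the character. -/
theorem S35W4_chi_pullHom (N ℓ : ℕ) [NeZero ℓ] (u v : ℤ) (h : (ℓ : ℤ) * u + v * (N : ℤ) = 1)
    (m : ℕ) (c : Additive (Gamma0 (N * ℓ)) →+ ℤ) :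
    PG_chi (N * ℓ) m (S35W4_pullHom N ℓ u v h c) =
      (PG_chi (N * ℓ) m c).comp (S35W4_conj N ℓ u v h) := by
  ext g
  rfl

theorem S35W4_chi_pull (N ℓ : ℕ) [NeZero ℓ] (u v : ℤ) (h : (ℓ : ℤ) * u + v * (N : ℤ) = 1)
    (m : ℕ) (c : PG_M (N * ℓ)) :
    PG_chi (N * ℓ) m ((S35W4_pull N ℓ u v h c : PG_M (N * ℓ)) :
        Additive (Gamma0 (N * ℓ)) →+ ℤ) =
      (PG_chi (N * ℓ) m (c : Additive (Gamma0 (N * ℓ)) →+ ℤ)).comp (S35W4_conj N ℓ u v h) :=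
  S35W4_chi_pullHom N ℓ u v h m _

/-- `χ ∘ conj` is a good character if `χ` is. -/
theorem S35W4_goodChar (N ℓ : ℕ) [NeZero ℓ] (u v : ℤ) (h : (ℓ : ℤ) * u + v * (N : ℤ) = 1)
    {χ : Gamma0 (N * ℓ) →* ℂˣ} (hχ : PG_IsGoodChar (N * ℓ) χ) :
    PG_IsGoodChar (N * ℓ) (χ.comp (S35W4_conj N ℓ u v h)) where
  fin := by
    obtain ⟨n, hn, hχn⟩ := hχ.fin
    exact ⟨n, hn, fun g => hχn _⟩
  par := by
    intro g hg
    apply hχ.par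
    rw [S35W4_trace N ℓ u v h g]
    exact hg
  tors := by
    intro g n hn hgn
    apply hχ.tors _ n hn
    rw [← map_pow, hgn, map_one]

/-- the product of two characters pulls back to the product. -/
theorem S35W4_comp_mul (N ℓ : ℕ) [NeZero ℓ] (u v : ℤ) (h : (ℓ : ℤ) * u + v * (N : ℤ) = 1)
    (χ ψ : Gamma0 (N * ℓ) →* ℂˣ) :
    (χ * ψ).comp (S35W4_conj N ℓ u v h) =
      χ.comp (S35W4_conj N ℓ u v h) * ψ.comp (S35W4_conj N ℓ u v h) := rfl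

end Fermat.Agent.S35_helper18_W4G
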