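import Mathlib
import Fermat.Agent.G_helper6_Defs
import Fermat.Agent.G_helper23_G1bT
import Fermat.Agent.G_helper23_G1bC
import Fermat.Agent.G_helper23_G7iv
import Fermat.Agent.G_helper3_G1aHECKEHOM
import Fermat.Agent.S37_helper8_K1a

/-!
# S35, piece P6-B-alpha (helper23), part G: the transfer `Ver : Hom_par (Γ₀(N ℓ), ℤ) → Hom_par (Γ₀(N), ℤ)`

* `S35TF_iota N ℓ : ↥(PG_H N ℓ) →* Gamma0 (N * ℓ)`: the identification of `Γ₀(N ℓ) ≤ Γ₀(N)` with
  `Γ₀(N ℓ)`;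
* `S35TF_verHom N ℓ c`: the transfer of `c ∘ ι` from `Γ₀(N ℓ)` to `Γ₀(N)`; additive in `c`,
  preserves parabolic homomorphisms; `S35TF_ver : PG_M (N * ℓ) →+ PG_M N`;
* `S35TF_chi_ver`: `PG_chi N m (Ver c) = transfer (PG_chi (N ℓ) m c ∘ ι)`;
* `S35TF_rep`: the coset representatives `1, γ_b` (`b < ℓ`) of helper8's K1C, and
  `S35TF_equiv : Option (Fin ℓ) ≃ Γ₀(N) ⧸ Γ₀(N ℓ)`, `i ↦ [γ_i⁻¹]`.
-/

set_option autoImplicit false
set_option linter.style.haveILetI false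
set_option linter.unusedSectionVars false
set_option linter.unusedVariables false

open UpperHalfPlane ModularForm CongruenceSubgroup
open scoped MatrixGroups ModularForm Manifold
open Fermat.Agent.G_helper6_Defs Fermat.Agent.G_helper3_G1aHECKEHOM
open Fermat.Agent.G_helper23_G7iv Fermat.Agent.G_helper23_G1bC Fermat.Agent.S37K1

namespace Fermat.Agent.S35_helper23_TFG

noncomputable section

/-- `Γ₀(N ℓ)`, as a subgroup of `Γ₀(N)`, mapped identically to `Γ₀(N ℓ)`. -/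
def S35TF_iota (N ℓ : ℕ) : ↥(PG_H N ℓ) →* Gamma0 (N * ℓ) :=
  (Subgroup.subgroupOfEquivOfLe (PG_gamma0_mul_le N ℓ)).toMonoidHom

theorem S35TF_iota_coe (N ℓ : ℕ) (u : ↥(PG_H N ℓ)) :
    ((S35TF_iota N ℓ u : Gamma0 (N * ℓ)) : SL(2, ℤ)) = ((u : Gamma0 N) : SL(2, ℤ)) := rfl

/-- The transfer (Verlagerung) on homomorphisms: `c ↦ transfer (c ∘ ι)`. -/
def S35TF_verHom (N ℓ : ℕ) [NeZero N] [NeZero ℓ] {A : Type*} [AddCommGroup A]
    (c : Additive (Gamma0 (N * ℓ)) →+ A) : Additive (Gamma0 N) →+ A :=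
  haveI := PG_finiteIndex_H N ℓ
  MonoidHom.toAdditiveLeft
    (MonoidHom.transfer ((AddMonoidHom.toMultiplicativeRight c).comp (S35TF_iota N ℓ)))

theorem S35TF_verHom_def (N ℓ : ℕ) [NeZero N] [NeZero ℓ] {A : Type*} [AddCommGroup A]
    (c : Additive (Gamma0 (N * ℓ)) →+ A) [h : (PG_H N ℓ).FiniteIndex] :
    S35TF_verHom N ℓ c = MonoidHom.toAdditiveLeft
      (MonoidHom.transfer ((AddMonoidHom.toMultiplicativeRight c).comp (S35TF_iota N ℓ))) :=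
  rfl

theorem S35TF_verHom_add (N ℓ : ℕ) [NeZero N] [NeZero ℓ] {A : Type*} [AddCommGroup A]
    (c c' : Additive (Gamma0 (N * ℓ)) →+ A) :
    S35TF_verHom N ℓ (c + c') = S35TF_verHom N ℓ c + S35TF_verHom N ℓ c' := by
  haveI := PG_finiteIndex_H N ℓ
  rw [S35TF_verHom_def, S35TF_verHom_def, S35TF_verHom_def]
  ext γ
  have h : (AddMonoidHom.toMultiplicativeRight (c + c')).comp (S35TF_iota N ℓ) =
      (AddMonoidHom.toMultiplicativeRight c).comp (S35TF_iota N ℓ) *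
        (AddMonoidHom.toMultiplicativeRight c').comp (S35TF_iota N ℓ) := by
    ext u
    rfl
  show Multiplicative.toAdd (MonoidHom.transfer
      ((AddMonoidHom.toMultiplicativeRight (c + c')).comp (S35TF_iota N ℓ)) γ) =
    Multiplicative.toAdd (MonoidHom.transfer
      ((AddMonoidHom.toMultiplicativeRight c).comp (S35TF_iota N ℓ)) γ) +
    Multiplicative.toAdd (MonoidHom.transfer
      ((AddMonoidHom.toMultiplicativeRight c').comp (S35TF_iota N ℓ)) γ)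
  rw [h, PG_G1aHECKEHOM_transfer_mul]
  rfl

theorem S35TF_verHom_parabolic (N ℓ : ℕ) [NeZero N] [NeZero ℓ] {A : Type*} [AddCommGroup A]
    (c : Additive (Gamma0 (N * ℓ)) →+ A)
    (hc : ModularCurve.Period.IsParabolicHom (Gamma0 (N * ℓ)) c) :
    ModularCurve.Period.IsParabolicHom (Gamma0 N) (S35TF_verHom N ℓ c) := by
  haveI := PG_finiteIndex_H N ℓ
  intro γ hγ
  rw [S35TF_verHom_def]
  show Multiplicative.toAdd (MonoidHom.transfer
      ((AddMonoidHom.toMultiplicativeRight c).comp (S35TF_iota N ℓ)) γ) = 0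
  have key : MonoidHom.transfer ((AddMonoidHom.toMultiplicativeRight c).comp (S35TF_iota N ℓ))
      γ = 1 := by
    refine PG_G1aHECKEHOM_transfer_eq_one _ γ fun t k hmem => ?_
    show Multiplicative.ofAdd (c (Additive.ofMul (S35TF_iota N ℓ ⟨t⁻¹ * γ ^ k * t, hmem⟩))) = 1
    rw [hc _ ?_]
    · rfl
    rw [S35TF_iota_coe]
    show (((t⁻¹ * γ ^ k * t : Gamma0 N) : SL(2, ℤ)) : Matrix (Fin 2) (Fin 2) ℤ).trace ^ 2 = 4
    have h1 : ((t⁻¹ * γ ^ k * t : Gamma0 N) : SL(2, ℤ)) =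
        (t : SL(2, ℤ))⁻¹ * (γ : SL(2, ℤ)) ^ k * (t : SL(2, ℤ)) := by
      push_cast
      rfl
    rw [h1, PG_G1aHECKEHOM_trace_conj, Matrix.SpecialLinearGroup.coe_pow]
    exact PG_G1aHECKEHOM_trace_pow _ (γ : SL(2, ℤ)).2 hγ k
  rw [key]
  rfl

/-- **The transfer on the lattices of integral parabolic homomorphisms.** -/
def S35TF_ver (N ℓ : ℕ) [NeZero N] [NeZero ℓ] : PG_M (N * ℓ) →+ PG_M N :=
  AddMonoidHom.mk'
    (fun c => ⟨S35TF_verHom N ℓ (c : Additive (Gamma0 (N * ℓ)) →+ ℤ),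
      S35TF_verHom_parabolic N ℓ _ c.2⟩)
    (fun c c' => Subtype.ext (S35TF_verHom_add N ℓ _ _))

theorem S35TF_ver_coe (N ℓ : ℕ) [NeZero N] [NeZero ℓ] (c : PG_M (N * ℓ)) :
    ((S35TF_ver N ℓ c : PG_M N) : Additive (Gamma0 N) →+ ℤ) =
      S35TF_verHom N ℓ (c : Additive (Gamma0 (N * ℓ)) →+ ℤ) := rfl

/-- `χ_{Ver c} = transfer (χ_c ∘ ι)`. -/
theorem S35TF_chi_ver (N ℓ m : ℕ) [NeZero N] [NeZero ℓ] [(PG_H N ℓ).FiniteIndex]
    (c : Additive (Gamma0 (N * ℓ)) →+ ℤ) :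
    PG_chi N m (S35TF_verHom N ℓ c) =
      MonoidHom.transfer ((PG_chi (N * ℓ) m c).comp (S35TF_iota N ℓ)) := by
  ext γ
  rw [PG_G7iv_chi_eq, PG_G7iv_chi_eq, MonoidHom.comp_assoc, ← PG_G7iv_transfer_comp,
    S35TF_verHom_def]
  rfl

/-! ### The coset representatives of K1C -/

section Reps

variable (N ℓ : ℕ) (x y : ℤ) (hxy : (ℓ : ℤ) * x - N * y = 1)

/-- the representatives `1`, `γ_b` (`b < ℓ`) of the right cosets of `Γ₀(N ℓ)` in `Γ₀(N)` -/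
def S35TF_rep : Option (Fin ℓ) → Gamma0 N
  | none => 1
  | some b => ⟨S37K1_gam N ℓ x y hxy ((b : ℕ) : ℤ), S37K1_gam_mem_Gamma0 N ℓ x y hxy _⟩

theorem S35TF_rep_none : S35TF_rep N ℓ x y hxy none = 1 := rfl

theorem S35TF_rep_some (b : Fin ℓ) :
    ((S35TF_rep N ℓ x y hxy (some b) : Gamma0 N) : SL(2, ℤ)) =
      S37K1_gam N ℓ x y hxy ((b : ℕ) : ℤ) := rfl

/-- the inverses: representatives of the left cosets -/
def S35TF_s (i : Option (Fin ℓ)) : Gamma0 N := (S35TF_rep N ℓ x y hxy i)⁻¹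

theorem S35TF_s_00 (i : Option (Fin ℓ)) :
    ((S35TF_s N ℓ x y hxy i : Gamma0 N) : SL(2, ℤ)) 0 0 =
      ((S35TF_rep N ℓ x y hxy i : Gamma0 N) : SL(2, ℤ)) 1 1 := by
  show ((((S35TF_rep N ℓ x y hxy i)⁻¹ : Gamma0 N) : SL(2, ℤ)) :
    Matrix (Fin 2) (Fin 2) ℤ) 0 0 = _
  rw [Subgroup.coe_inv, Matrix.SpecialLinearGroup.coe_inv, Matrix.adjugate_fin_two]
  simp

theorem S35TF_s_10 (i : Option (Fin ℓ)) :
    ((S35TF_s N ℓ x y hxy i : Gamma0 N) : SL(2, ℤ)) 1 0 =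
      -((S35TF_rep N ℓ x y hxy i : Gamma0 N) : SL(2, ℤ)) 1 0 := by
  show ((((S35TF_rep N ℓ x y hxy i)⁻¹ : Gamma0 N) : SL(2, ℤ)) :
    Matrix (Fin 2) (Fin 2) ℤ) 1 0 = _
  rw [Subgroup.coe_inv, Matrix.SpecialLinearGroup.coe_inv, Matrix.adjugate_fin_two]
  simp

theorem S35TF_rep_11 (i : Option (Fin ℓ)) :
    ((S35TF_rep N ℓ x y hxy i : Gamma0 N) : SL(2, ℤ)) 1 1 =
      match i with
      | none => 1
      | some b => (N : ℤ) * ((b : ℕ) : ℤ) + ℓ := by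
  cases i with
  | none => rfl
  | some b => rfl

theorem S35TF_rep_10 (i : Option (Fin ℓ)) :
    ((S35TF_rep N ℓ x y hxy i : Gamma0 N) : SL(2, ℤ)) 1 0 =
      match i with
      | none => 0
      | some b => (N : ℤ) := by
  cases i with
  | none => rfl
  | some b => rfl

theorem S35TF_s_injective (hℓ : ℓ.Prime) (hℓN : ¬ ℓ ∣ N) :
    Function.Injective
      (fun i : Option (Fin ℓ) => ((S35TF_s N ℓ x y hxy i : Gamma0 N) : Gamma0 N ⧸ PG_H N ℓ)) := by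
  have hco : IsCoprime (ℓ : ℤ) (N : ℤ) := by
    rw [Int.isCoprime_iff_gcd_eq_one, Int.gcd_natCast_natCast]
    exact (Nat.Prime.coprime_iff_not_dvd hℓ).mpr hℓN
  have hℓp : Prime (ℓ : ℤ) := Nat.prime_iff_prime_int.mp hℓ
  have hℓNz : ¬ (ℓ : ℤ) ∣ (N : ℤ) := fun h => hℓN (by exact_mod_cast h)
  intro i j hij
  have h1 : (S35TF_s N ℓ x y hxy i)⁻¹ * S35TF_s N ℓ x y hxy j ∈ PG_H N ℓ :=
    QuotientGroup.eq.mp hij
  rw [PG_G1b_inv_mul_mem hco, S35TF_s_00, S35TF_s_10, S35TF_s_00, S35TF_s_10,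
    S35TF_rep_11, S35TF_rep_10, S35TF_rep_11, S35TF_rep_10] at h1
  cases i with
  | none =>
    cases j with
    | none => rfl
    | some b =>
      exfalso
      simp only at h1
      apply hℓNz
      have h2 : (ℓ : ℤ) ∣ -(N : ℤ) := by
        have e : (1 : ℤ) * -(N : ℤ) - -0 * ((N : ℤ) * ((b : ℕ) : ℤ) + ℓ) = -(N : ℤ) := by ring
        rw [← e]
        exact h1
      exact (dvd_neg.mp h2)
  | some a =>
    cases j with
    | none =>
      exfalso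
      simp only at h1
      apply hℓNz
      have e : ((N : ℤ) * ((a : ℕ) : ℤ) + ℓ) * -0 - -(N : ℤ) * 1 = (N : ℤ) := by ring
      rw [← e]
      exact h1
    | some b =>
      simp only at h1
      have e : ((N : ℤ) * ((a : ℕ) : ℤ) + ℓ) * -(N : ℤ) - -(N : ℤ) * ((N : ℤ) * ((b : ℕ) : ℤ) + ℓ)
          = (N : ℤ) * ((N : ℤ) * (((b : ℕ) : ℤ) - ((a : ℕ) : ℤ))) := by ring
      rw [e] at h1
      have h2 : (ℓ : ℤ) ∣ ((b : ℕ) : ℤ) - ((a : ℕ) : ℤ) := by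
        rcases hℓp.dvd_or_dvd h1 with h | h
        · exact absurd h hℓNz
        · rcases hℓp.dvd_or_dvd h with h' | h'
          · exact absurd h' hℓNz
          · exact h'
      have ha := a.2
      have hb := b.2
      obtain ⟨k, hk⟩ := h2
      have hk0 : k = 0 := by
        by_contra hne
        have hpos : (ℓ : ℤ) ≤ |(ℓ : ℤ) * k| := by
          rw [abs_mul]
          have h3 : (1 : ℤ) ≤ |k| := Int.one_le_abs hne
          have h4 : (0 : ℤ) ≤ |(ℓ : ℤ)| := abs_nonneg _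
          have h5 : |(ℓ : ℤ)| = ℓ := abs_of_nonneg (by positivity)
          rw [h5]
          nlinarith
        rw [← hk] at hpos
        have h6 : |((b : ℕ) : ℤ) - ((a : ℕ) : ℤ)| < ℓ := by
          rw [abs_lt]
          constructor <;> omega
        omega
      rw [hk0, mul_zero] at hk
      have hab : (b : ℕ) = (a : ℕ) := by omega
      congr 1
      exact (Fin.ext hab).symm

/-- the left cosets of `Γ₀(N ℓ)` in `Γ₀(N)`, indexed through the inverses of the K1C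
representatives -/
def S35TF_equiv (hℓ : ℓ.Prime) (hℓN : ¬ ℓ ∣ N) : Option (Fin ℓ) ≃ Gamma0 N ⧸ PG_H N ℓ :=
  Equiv.ofBijective
    (fun i : Option (Fin ℓ) => ((S35TF_s N ℓ x y hxy i : Gamma0 N) : Gamma0 N ⧸ PG_H N ℓ)) (by
      have huv : (ℓ : ℤ) * x + (N : ℤ) * (-y) = 1 := by linear_combination hxy
      letI : Fintype (Gamma0 N ⧸ PG_H N ℓ) := Fintype.ofEquiv _ (PG_G1b_equiv hℓ huv)
      rw [Fintype.bijective_iff_injective_and_card]
      exact ⟨S35TF_s_injective N ℓ x y hxy hℓ hℓN,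
        Fintype.card_congr (PG_G1b_equiv hℓ huv)⟩)

theorem S35TF_equiv_apply (hℓ : ℓ.Prime) (hℓN : ¬ ℓ ∣ N) (i : Option (Fin ℓ)) :
    ((S35TF_s N ℓ x y hxy i : Gamma0 N) : Gamma0 N ⧸ PG_H N ℓ) =
      S35TF_equiv N ℓ x y hxy hℓ hℓN i := rfl

end Reps

end

end Fermat.Agent.S35_helper23_TFG
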