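import Mathlib
import Fermat.Agent.S35_helper23_TFG
import Fermat.Agent.G_helper28_G7ASM

/-!
# S35, piece P6-B-alpha (helper23), part F: the norm form

For a function `A` on `ℍ` transforming under `Γ₀(N ℓ)` with weight `k` and character `ψ`, the
product `∏ i, A ∣[k] γ_i` over the `ℓ + 1` coset representatives `γ_i` of `Γ₀(N ℓ) \ Γ₀(N)`
(helper8's K1C representatives `1, γ_b`) is a form on `Γ₀(N)` of weight `k (ℓ + 1)` with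
character `transfer (ψ ∘ ι)`.
-/

set_option autoImplicit false
set_option linter.style.haveILetI false
set_option linter.unusedSectionVars false
set_option linter.unusedVariables false

open UpperHalfPlane ModularForm CongruenceSubgroup
open scoped MatrixGroups ModularForm Manifold
open Fermat.Agent.G_helper6_Defs Fermat.Agent.G_helper3_G1aHECKEHOM
open Fermat.Agent.G_helper23_G7iv Fermat.Agent.G_helper23_G1bC Fermat.Agent.G_helper23_G1bT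
open Fermat.Agent.S37K1 Fermat.Agent.S35_helper23_TFG Fermat.Agent.G_helper28_G7ASM

namespace Fermat.Agent.S35_helper23_TFF

noncomputable section

variable (N ℓ : ℕ) (x y : ℤ) (hxy : (ℓ : ℤ) * x - N * y = 1)

/-- **The norm form**: the product of the slashes of `A` by the coset representatives. -/
def S35TF_prod (k : ℤ) (A : ℍ → ℂ) : ℍ → ℂ :=
  ∏ i : Option (Fin ℓ), A ∣[k] ((S35TF_rep N ℓ x y hxy i : Gamma0 N) : SL(2, ℤ))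

theorem S35TF_prod_def (k : ℤ) (A : ℍ → ℂ) :
    S35TF_prod N ℓ x y hxy k A =
      ∏ i : Option (Fin ℓ), A ∣[k] ((S35TF_rep N ℓ x y hxy i : Gamma0 N) : SL(2, ℤ)) := rfl

/-- automorphy in `SL(2, ℤ)`-slash form -/
theorem S35TF_SL_slash_of_aut {M : ℕ} {k : ℤ} {χ : Gamma0 M →* ℂˣ} {a : ℍ → ℂ}
    (haut : ∀ (γ : Gamma0 M) (z : ℍ),
      a ((γ : SL(2, ℤ)) • z) = (χ γ : ℂ) * denom ((γ : SL(2, ℤ)) : GL (Fin 2) ℝ) z ^ k * a z)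
    (γ : Gamma0 M) :
    a ∣[k] (γ : SL(2, ℤ)) = (χ γ : ℂ) • a :=
  PG_G7iv_slash_of_aut haut γ

section Aut

variable {N ℓ x y hxy}

/-- one factor, generic form: if `r' γ = h r` with `h ∈ Γ₀(N ℓ)`, then
`(A ∣ r') ∣ γ = ψ h • (A ∣ r)` -/
theorem S35TF_factor_gen {k : ℤ} {ψ : Gamma0 (N * ℓ) →* ℂˣ} {A : ℍ → ℂ}
    (haut : ∀ (γ : Gamma0 (N * ℓ)) (z : ℍ),
      A ((γ : SL(2, ℤ)) • z) = (ψ γ : ℂ) * denom ((γ : SL(2, ℤ)) : GL (Fin 2) ℝ) z ^ k * A z)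
    (r r' γ : Gamma0 N) (h : ↥(PG_H N ℓ)) (hrel : r' * γ = (h : Gamma0 N) * r) :
    (A ∣[k] (r' : SL(2, ℤ))) ∣[k] (Matrix.SpecialLinearGroup.mapGL ℝ (γ : SL(2, ℤ))) =
      ((ψ (S35TF_iota N ℓ h) : ℂˣ) : ℂ) • (A ∣[k] (r : SL(2, ℤ))) := by
  have key : (r' : SL(2, ℤ)) * (γ : SL(2, ℤ)) =
      ((S35TF_iota N ℓ h : Gamma0 (N * ℓ)) : SL(2, ℤ)) * (r : SL(2, ℤ)) := by
    rw [S35TF_iota_coe, ← Subgroup.coe_mul, ← Subgroup.coe_mul, hrel]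
  show (A ∣[k] (r' : SL(2, ℤ))) ∣[k] (γ : SL(2, ℤ)) = _
  rw [← SlashAction.slash_mul, key, SlashAction.slash_mul, S35TF_SL_slash_of_aut haut,
    ModularForm.SL_smul_slash]

theorem S35TF_rel (γ : Gamma0 N) (i j : Option (Fin ℓ)) :
    S35TF_rep N ℓ x y hxy j * γ =
      ((S35TF_s N ℓ x y hxy j)⁻¹ * γ * S35TF_s N ℓ x y hxy i) * S35TF_rep N ℓ x y hxy i := by
  unfold S35TF_s
  group

theorem S35TF_slash {k : ℤ} {ψ : Gamma0 (N * ℓ) →* ℂˣ} {A : ℍ → ℂ}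
    (haut : ∀ (γ : Gamma0 (N * ℓ)) (z : ℍ),
      A ((γ : SL(2, ℤ)) • z) = (ψ γ : ℂ) * denom ((γ : SL(2, ℤ)) : GL (Fin 2) ℝ) z ^ k * A z)
    [(PG_H N ℓ).FiniteIndex] (hℓ : ℓ.Prime) (hℓN : ¬ ℓ ∣ N) (γ : Gamma0 N) :
    (S35TF_prod N ℓ x y hxy k A) ∣[k * ((ℓ : ℤ) + 1)]
        (Matrix.SpecialLinearGroup.mapGL ℝ (γ : SL(2, ℤ))) =
      ((MonoidHom.transfer (ψ.comp (S35TF_iota N ℓ)) γ : ℂˣ) : ℂ) •
        S35TF_prod N ℓ x y hxy k A := by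
  obtain ⟨e, hes⟩ : ∃ e : Option (Fin ℓ) ≃ Gamma0 N ⧸ PG_H N ℓ,
      ∀ i, ((S35TF_s N ℓ x y hxy i : Gamma0 N) : Gamma0 N ⧸ PG_H N ℓ) = e i :=
    ⟨S35TF_equiv N ℓ x y hxy hℓ hℓN, S35TF_equiv_apply N ℓ x y hxy hℓ hℓN⟩
  let π : Option (Fin ℓ) ≃ Option (Fin ℓ) := e.trans ((MulAction.toPerm γ).trans e.symm)
  have hπ : ∀ i, π i = e.symm (γ • e i) := fun i => rfl
  have hcard : ((Finset.univ : Finset (Option (Fin ℓ))).card : ℤ) = (ℓ : ℤ) + 1 := by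
    simp
  rw [S35TF_prod_def, ← hcard, ModularForm.prod_slash]
  have hdet : |((Matrix.GeneralLinearGroup.det
      (Matrix.SpecialLinearGroup.mapGL ℝ (γ : SL(2, ℤ))) : ℝˣ) : ℝ)| = 1 := by
    simp
  rw [hdet, one_zpow, one_smul]
  rw [← Equiv.prod_comp π (fun i => (A ∣[k] ((S35TF_rep N ℓ x y hxy i : Gamma0 N) : SL(2, ℤ)))
    ∣[k] (Matrix.SpecialLinearGroup.mapGL ℝ (γ : SL(2, ℤ))))]
  rw [Finset.prod_congr rfl (fun i _ => S35TF_factor_gen haut (S35TF_rep N ℓ x y hxy i)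
    (S35TF_rep N ℓ x y hxy (π i)) γ
    ⟨(S35TF_s N ℓ x y hxy (e.symm (γ • e i)))⁻¹ * γ * S35TF_s N ℓ x y hxy i,
      PG_G1b_indexed_mem e (S35TF_s N ℓ x y hxy) hes γ i⟩
    (S35TF_rel γ i (π i))), Finset.prod_smul]
  congr 1
  rw [PG_G1b_transfer_indexed _ e (S35TF_s N ℓ x y hxy) hes γ]
  push_cast
  rfl

end Aut

/-- **Automorphy of the norm form.** -/
theorem S35TF_aut [NeZero N] [NeZero ℓ] [(PG_H N ℓ).FiniteIndex]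
    (hℓ : ℓ.Prime) (hℓN : ¬ ℓ ∣ N) (k : ℤ)
    (ψ : Gamma0 (N * ℓ) →* ℂˣ) (A : ℍ → ℂ)
    (haut : ∀ (γ : Gamma0 (N * ℓ)) (z : ℍ),
      A ((γ : SL(2, ℤ)) • z) = (ψ γ : ℂ) * denom ((γ : SL(2, ℤ)) : GL (Fin 2) ℝ) z ^ k * A z)
    (γ : Gamma0 N) (z : ℍ) :
    S35TF_prod N ℓ x y hxy k A ((γ : SL(2, ℤ)) • z) =
      ((MonoidHom.transfer (ψ.comp (S35TF_iota N ℓ)) γ : ℂˣ) : ℂ) *
        denom ((γ : SL(2, ℤ)) : GL (Fin 2) ℝ) z ^ (k * ((ℓ : ℤ) + 1)) *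
        S35TF_prod N ℓ x y hxy k A z :=
  PG_G7iv_aut_of_slash γ (S35TF_slash haut hℓ hℓN γ) z

theorem S35TF_holo (k : ℤ) {A : ℍ → ℂ} (hA : MDifferentiable 𝓘(ℂ) 𝓘(ℂ) A) :
    MDifferentiable 𝓘(ℂ) 𝓘(ℂ) (S35TF_prod N ℓ x y hxy k A) := by
  unfold S35TF_prod
  exact MDifferentiable.prod fun j _ => hA.slash k _

theorem S35TF_bdd (k : ℤ) {A : ℍ → ℂ}
    (hbdd : ∀ σ : SL(2, ℤ), IsBoundedAtImInfty (A ∣[k] σ)) (σ : SL(2, ℤ)) :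
    IsBoundedAtImInfty ((S35TF_prod N ℓ x y hxy k A) ∣[k * ((ℓ : ℤ) + 1)] σ) := by
  have hcard : ((Finset.univ : Finset (Option (Fin ℓ))).card : ℤ) = (ℓ : ℤ) + 1 := by
    simp
  rw [S35TF_prod_def, ← hcard, ModularForm.SL_slash, ModularForm.prod_slash]
  have hdet : |((Matrix.GeneralLinearGroup.det
      (Matrix.SpecialLinearGroup.mapGL ℝ σ) : ℝˣ) : ℝ)| = 1 := by
    simp
  have hdet' : |((Matrix.GeneralLinearGroup.det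
      ((σ : SL(2, ℤ)) : GL (Fin 2) ℝ) : ℝˣ) : ℝ)| = 1 := hdet
  rw [hdet', one_zpow, one_smul]
  have hmem : ∀ i : Option (Fin ℓ),
      (A ∣[k] ((S35TF_rep N ℓ x y hxy i : Gamma0 N) : SL(2, ℤ))) ∣[k]
        ((σ : SL(2, ℤ)) : GL (Fin 2) ℝ) ∈ boundedAtImInftySubalgebra ℂ := by
    intro i
    have h1 : (A ∣[k] ((S35TF_rep N ℓ x y hxy i : Gamma0 N) : SL(2, ℤ))) ∣[k]
        ((σ : SL(2, ℤ)) : GL (Fin 2) ℝ) =
        A ∣[k] (((S35TF_rep N ℓ x y hxy i : Gamma0 N) : SL(2, ℤ)) * σ) := by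
      rw [SlashAction.slash_mul]
      rfl
    rw [h1]
    exact hbdd _
  exact Subalgebra.prod_mem _ fun i _ => hmem i

/-- **The norm form is a form.** -/
theorem S35TF_isForm [NeZero N] [NeZero ℓ] [(PG_H N ℓ).FiniteIndex]
    (hℓ : ℓ.Prime) (hℓN : ¬ ℓ ∣ N) (k : ℤ) (ψ : Gamma0 (N * ℓ) →* ℂˣ) (A : ℍ → ℂ)
    (hA : PG_IsForm (N * ℓ) k ψ A) :
    PG_IsForm N (k * ((ℓ : ℤ) + 1)) (MonoidHom.transfer (ψ.comp (S35TF_iota N ℓ)))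
      (S35TF_prod N ℓ x y hxy k A) where
  holo := S35TF_holo N ℓ x y hxy k hA.holo
  aut := S35TF_aut N ℓ x y hxy hℓ hℓN k ψ A hA.aut
  bdd := S35TF_bdd N ℓ x y hxy k hA.bdd

/-- character `χ_c`: the norm form has character `χ_{Ver c}` -/
theorem S35TF_isForm_chi [NeZero N] [NeZero ℓ] [(PG_H N ℓ).FiniteIndex]
    (hℓ : ℓ.Prime) (hℓN : ¬ ℓ ∣ N) (m : ℕ) (k : ℤ) (c : Additive (Gamma0 (N * ℓ)) →+ ℤ)
    (A : ℍ → ℂ) (hA : PG_IsForm (N * ℓ) k (PG_chi (N * ℓ) m c) A) :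
    PG_IsForm N (k * ((ℓ : ℤ) + 1)) (PG_chi N m (S35TF_verHom N ℓ c))
      (S35TF_prod N ℓ x y hxy k A) := by
  have h := S35TF_isForm N ℓ x y hxy hℓ hℓN k _ A hA
  rwa [← S35TF_chi_ver] at h

/-- trivial character -/
theorem S35TF_isForm_one [NeZero N] [NeZero ℓ] [(PG_H N ℓ).FiniteIndex]
    (hℓ : ℓ.Prime) (hℓN : ¬ ℓ ∣ N) (k : ℤ) (B : ℍ → ℂ) (hB : PG_IsForm (N * ℓ) k 1 B) :
    PG_IsForm N (k * ((ℓ : ℤ) + 1)) 1 (S35TF_prod N ℓ x y hxy k B) := by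
  have h := S35TF_isForm N ℓ x y hxy hℓ hℓN k _ B hB
  have e : MonoidHom.transfer ((1 : Gamma0 (N * ℓ) →* ℂˣ).comp (S35TF_iota N ℓ)) = 1 := by
    rw [MonoidHom.one_comp, PG_G7iv_transfer_one]
  rwa [e] at h

/-- the norm form of a power -/
theorem S35TF_prod_pow (k : ℤ) (n : ℕ) (A : ℍ → ℂ) :
    S35TF_prod N ℓ x y hxy (k * n) (A ^ n) = (S35TF_prod N ℓ x y hxy k A) ^ n := by
  rw [S35TF_prod_def, S35TF_prod_def, ← Finset.prod_pow]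
  exact Finset.prod_congr rfl fun i _ => PG7A_SL_slash_pow k n A _

theorem S35TF_prod_ne_zero (k : ℤ) {A : ℍ → ℂ} (hA : MDifferentiable 𝓘(ℂ) 𝓘(ℂ) A)
    (h0 : A ≠ 0) : S35TF_prod N ℓ x y hxy k A ≠ 0 := by
  rw [S35TF_prod_def]
  intro h
  have h' : ∏ i : Option (Fin ℓ), A ∣[k] (Matrix.SpecialLinearGroup.mapGL ℝ
      ((S35TF_rep N ℓ x y hxy i : Gamma0 N) : SL(2, ℤ))) = 0 := h
  rw [UpperHalfPlane.prod_eq_zero_iff (fun i _ => hA.slash k _)] at h'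
  obtain ⟨i, -, hi⟩ := h'
  exact h0 ((PG_G7iv_slash_eq_zero_iff k _ A).mp hi)

end

end Fermat.Agent.S35_helper23_TFF
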