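import Mathlib
import Fermat.Agent.S35_helper23_TFF
import Fermat.Agent.S35_helper23_BRINF
import Fermat.Agent.S35_helper23_P6Defs
import Fermat.Agent.G_helper8_K1Cc
import Fermat.Agent.G_helper7_EISWRAP
import Fermat.Agent.G_helper25_G4DEP
import Fermat.Agent.G_helper16_G5gen

/-!
# S35, piece P6-B-alpha (helper23): `Θ`-functoriality for the push-forward `α_*`

For `ℓ` prime, `ℓ ∤ N`, every modulus `m > 0` and every pair of maps `Θ`, `Θ'` satisfying the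
contract `PG_THETA` at the levels `N ℓ` and `N`:

`α_* (Θ c) = Θ' (Ver c)`,

where `Ver : PG_M (N * ℓ) →+ PG_M N` is the transfer (`S35TF_ver`).

Route: Eisenstein series `a`, `b` at level `N ℓ`; `x` realising `a ^ m / b ^ m`; `Θ c = [D]`,
`m D = div x`; the norm formula gives `m α_* D = div (Nm x)`; `Nm x` is realised by the norm
forms `(∏ a ∣ γ_i) ^ m / (∏ b ∣ γ_i) ^ m` (norm as the product over the `ℓ + 1` embeddings of
K1C + the bridge at the cusps `γ_i ∞`), and the norm form of `a` has character `χ_{Ver c}`.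
-/

set_option autoImplicit false
set_option linter.style.haveILetI false
set_option linter.unusedSectionVars false
set_option linter.unusedVariables false

open UpperHalfPlane ModularForm CongruenceSubgroup AlgebraicCurve IntermediateField
open scoped MatrixGroups ModularForm Manifold
open Fermat.Agent.S20 Fermat.Agent.S24
open Fermat.Agent.G_helper6_Defs Fermat.Agent.G_helper3_G1aHECKEHOM
open Fermat.Agent.G_helper16_G5 Fermat.Agent.G_helper8_K1C Fermat.Agent.G_helper21_B0L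
open Fermat.Agent.S37K1 Fermat.Agent.S35_helper23_TFG Fermat.Agent.S35_helper23_TFF
open Fermat.Agent.S35_helper23_BRINF Fermat.Agent.G_helper28_G7ASM
open Fermat.Agent.S35_helper6_PUSH Fermat.Agent.S35_helper23_P6Defs
open ModularCurve

namespace Fermat.Agent.S35_helper23_TFA

open Fermat.Agent.S24_helper17_EMB (poleSubring laurentInfHom laurentInfHom_apply
  laurentInfHom_injective)

noncomputable section

variable (N ℓ : ℕ) [NeZero N] [NeZero ℓ]

/-! ### The norm as the product over the embeddings -/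

set_option synthInstance.maxHeartbeats 400000 in
set_option maxHeartbeats 1000000 in
/-- the norm along `α` of an arbitrary element of `F_ℂ(N ℓ)` as the product of its `ℓ + 1`
conjugates, in the variable `s = q^{1/(Nℓ)}` -/
theorem S35TF_norm_emb (hℓp : ℓ.Prime) (hℓN : ¬ ℓ ∣ N) (x y : ℤ)
    (hxy : (ℓ : ℤ) * x - N * y = 1) (z : PG_B0L_F ℂ (N * ℓ)) :
    letI := algebraAlong (heckeAlphaBar ℂ N ℓ)
    qExpand ℂ (N * ℓ) ((Algebra.norm (PG_B0L_F ℂ N) z : PG_B0L_F ℂ N) : LaurentSeries ℂ) =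
      ∏ i : Option (Fin ℓ), PGK1C_embOpt N ℓ x y hxy i z := by
  letI := algebraAlong (heckeAlphaBar ℂ N ℓ)
  haveI : FiniteDimensional (PG_B0L_F ℂ N) (PG_B0L_F ℂ (N * ℓ)) :=
    PG_B0L_finiteAlong_alpha ℂ N ℓ
  haveI : CharZero (PG_B0L_F ℂ N) :=
    charZero_of_injective_algebraMap (algebraMap ℂ (PG_B0L_F ℂ N)).injective
  exact S37K1_norm_generic (PGK1C_embOpt N ℓ x y hxy)
    ((qExpand ℂ (N * ℓ)).comp (PG_B0L_F ℂ N).val.toRingHom)
    (fun i g => PGK1C_embOpt_alpha N ℓ x y hxy i g)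
    (PGK1C_embOpt_injective N ℓ hℓp.two_le x y hxy)
    (by rw [Fintype.card_option, Fintype.card_fin]; exact (PGK1C_finrank N ℓ hℓp hℓN).symm)
    z

/-! ### Laurent expansions of products -/

theorem S35TF_laurentInf_prod (M : ℕ) [NeZero M] {ι : Type*} (s : Finset ι) (f : ι → ℍ → ℂ)
    (hf : ∀ i, HasPoleInf M 0 (f i)) :
    laurentInf M (∏ i ∈ s, f i) = ∏ i ∈ s, laurentInf M (f i) := by
  have h := map_prod (laurentInfHom M) (fun i => (⟨f i, ⟨0, hf i⟩⟩ : poleSubring M)) s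
  rw [laurentInfHom_apply] at h
  have e : ((∏ i ∈ s, (⟨f i, ⟨0, hf i⟩⟩ : poleSubring M) : poleSubring M) : ℍ → ℂ) =
      ∏ i ∈ s, f i :=
    map_prod (poleSubring M).subtype (fun i => (⟨f i, ⟨0, hf i⟩⟩ : poleSubring M)) s
  rw [e] at h
  rw [h]
  exact Finset.prod_congr rfl fun i _ => laurentInfHom_apply M _

/-! ### The realisation of the norm -/

/-- the embedding attached to `i` is the cusp embedding at the representative `γ_i` -/
theorem S35TF_embOpt_eq (x y : ℤ) (hxy : (ℓ : ℤ) * x - N * y = 1) (i : Option (Fin ℓ)) :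
    PGK1C_embOpt N ℓ x y hxy i =
      PGK1C_emb (N * ℓ) ((S35TF_rep N ℓ x y hxy i : Gamma0 N) : SL(2, ℤ)) := by
  cases i with
  | none => rfl
  | some b => rfl

set_option maxHeartbeats 1000000 in
/-- **The norm of a quotient of forms is the quotient of the norm forms.** -/
theorem S35TF_realizes_norm (hℓp : ℓ.Prime) (hℓN : ¬ ℓ ∣ N) (x y : ℤ)
    (hxy : (ℓ : ℤ) * x - N * y = 1) (k : ℤ) (A B : ℍ → ℂ)
    (hA : PG_IsForm (N * ℓ) k 1 A) (hB : PG_IsForm (N * ℓ) k 1 B)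
    (z : PG_FC (N * ℓ)) (hz : PG_Realizes z A B) :
    PG_Realizes (letI := algebraAlong (heckeAlphaBar ℂ N ℓ);
      (Algebra.norm (PG_FC N) z : PG_FC N))
      (S35TF_prod N ℓ x y hxy k A) (S35TF_prod N ℓ x y hxy k B) := by
  haveI := PG_finiteIndex_H N ℓ
  have hgood := PG_G5_isGoodChar_one N
  have hA' := S35TF_isForm_one N ℓ x y hxy hℓp hℓN k A hA
  have hB' := S35TF_isForm_one N ℓ x y hxy hℓp hℓN k B hB
  have hPA := PG_G5_form_hasPoleInf hgood hA'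
  have hPB := PG_G5_form_hasPoleInf hgood hB'
  rw [PG_G5_realizes_iff _ hPA hPB]
  apply qExpand_injective (R := ℂ) (N * ℓ)
  rw [map_mul, ← Fermat.Agent.S24_helper21_LINF.laurentInf_qExpand (N * ℓ) hPA,
    ← Fermat.Agent.S24_helper21_LINF.laurentInf_qExpand (N * ℓ) hPB]
  have hgood' := PG_G5_isGoodChar_one (N * ℓ)
  have hsA : ∀ i : Option (Fin ℓ), HasPoleInf (N * ℓ) 0
      (A ∣[k] ((S35TF_rep N ℓ x y hxy i : Gamma0 N) : SL(2, ℤ))) :=
    fun i => S35BI_slash_hasPoleInf (N * ℓ) _ hgood' hA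
  have hsB : ∀ i : Option (Fin ℓ), HasPoleInf (N * ℓ) 0
      (B ∣[k] ((S35TF_rep N ℓ x y hxy i : Gamma0 N) : SL(2, ℤ))) :=
    fun i => S35BI_slash_hasPoleInf (N * ℓ) _ hgood' hB
  rw [S35TF_prod_def, S35TF_prod_def, S35TF_laurentInf_prod (N * ℓ) _ _ hsA,
    S35TF_laurentInf_prod (N * ℓ) _ _ hsB]
  have hn := S35TF_norm_emb N ℓ hℓp hℓN x y hxy z
  rw [hn, ← Finset.prod_mul_distrib]
  refine Finset.prod_congr rfl fun i _ => ?_
  rw [S35TF_embOpt_eq]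
  exact S35BI_bridge (N * ℓ) _ z hA hB hz

/-! ### The divisor of the norm -/

/-- if `m D = div z` then `m (ψ_* D) = div (Nm z)` -/
theorem S35TF_pushforward_ord {K F F' : Type*} [Field K] [Field F] [Field F'] [Algebra K F]
    [Algebra K F'] (ψ : F →ₐ[K] F') (hψ : ψ.toRingHom.IsIntegral)
    (hfin : FiniteAlong K ψ) (hN : NormFormulaAlong K ψ hfin)
    (m : ℤ) (z : F') (hz : z ≠ 0) (D : Divisor K F')
    (hD : ∀ w : Place K F', m * D w = w.ord z) (v : Place K F) :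
    m * Divisor.pushforwardAlong ψ hψ D v =
      v.ord (letI := algebraAlong ψ; Algebra.norm F z) := by
  have h1 : ∀ w : Place K F', (m • D) w = w.ord z := fun w => by
    rw [Finsupp.smul_apply, smul_eq_mul, hD w]
  have h2 : Divisor.pushforwardAlong ψ hψ (m • D) v =
      v.ord (letI := algebraAlong ψ; Algebra.norm F z) := by
    letI := algebraAlong ψ
    haveI := isScalarTower_along ψ
    haveI := isIntegral_along ψ hψ
    haveI : Module.Finite F F' := hfin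
    exact hN z hz _ h1 v
  rw [map_zsmul, Finsupp.smul_apply, smul_eq_mul] at h2
  exact h2

/-! ### The main theorem -/

set_option maxHeartbeats 1600000 in
/-- **`Θ`-functoriality for `α_*`**, with the transfer `S35TF_ver` as the map on the lattices. -/
theorem S35TF_alpha_for (hℓp : ℓ.Prime) (hℓN : ¬ ℓ ∣ N) :
    S35P6_TFfor N ℓ (S35PU_alphaL ℂ N ℓ) (S35TF_ver N ℓ) := by
  intro m hm Θ Θ' hΘ hΘ' c
  haveI : NeZero (N * ℓ) := ⟨Nat.mul_ne_zero (NeZero.ne N) (NeZero.ne ℓ)⟩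
  haveI := PG_finiteIndex_H N ℓ
  haveI hP : HasPrincipalDivisors ℂ (PG_FC (N * ℓ)) := PG_B0L_hasPrincipalDivisors ℂ (N * ℓ)
  obtain ⟨x, y, hxy⟩ := PGK1C_exists_bezout N ℓ hℓp hℓN
  -- the Eisenstein series at level `N ℓ`
  obtain ⟨a, ha, hat⟩ := Fermat.Agent.G_helper7_EISWRAP.PG_G3 (N * ℓ) _
    (PG7A_chi_good (N * ℓ) m hm c)
  obtain ⟨b, hb, hbt⟩ := Fermat.Agent.G_helper7_EISWRAP.PG_G3 (N * ℓ) _
    (PG7A_one_good (N * ℓ))
  have ha0 : a ≠ 0 := PG7A_ne_zero_of_tendsto hat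
  have hb0 : b ≠ 0 := PG7A_ne_zero_of_tendsto hbt
  have hA : PG_IsForm (N * ℓ) (4 * m) 1 (a ^ m) := by
    have h := PG7A_isForm_pow ha m
    rwa [PG7A_chi_pow (N * ℓ) m hm] at h
  have hB : PG_IsForm (N * ℓ) (4 * m) 1 (b ^ m) := by
    have h := PG7A_isForm_pow hb m
    rwa [one_pow (M := Gamma0 (N * ℓ) →* ℂˣ) m] at h
  have hA0 : a ^ m ≠ 0 := PG7A_pow_ne_zero ha0 m
  have hB0 : b ^ m ≠ 0 := PG7A_pow_ne_zero hb0 m
  obtain ⟨z, hz⟩ := Fermat.Agent.G_helper25_G4DEP.PG_G4D_an1 (N * ℓ) (4 * m) (a ^ m) (b ^ m)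
    hA hB hB0
  have hz0 : z ≠ 0 := by
    rintro rfl
    unfold PG_Realizes at hz
    rw [ZeroMemClass.coe_zero, zero_mul] at hz
    exact PG7A_qLaur_ne_zero (PG7A_nice_of_isForm_one hA) hA0 hz.symm
  have hdiv : ∀ v : Place ℂ (PG_FC (N * ℓ)), (m : ℤ) ∣ v.ord z :=
    PG_G5_an3_all (N * ℓ) m 4 _ 1 a b z (PG7A_chi_good (N * ℓ) m hm c) (PG7A_one_good (N * ℓ))
      ha hb ha0 hb0 hz
  obtain ⟨D, hD⟩ := PG7A_exists_div_root m hm z hz0 hdiv
  have hΘc : Θ c = Pic0.mk D :=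
    hΘ.char c 4 1 a b z D (PG7A_one_good (N * ℓ))
      (by rw [mul_one (PG_chi (N * ℓ) m (c : Additive (Gamma0 (N * ℓ)) →+ ℤ))]; exact ha)
      hb ha0 hb0 hz hD
  rw [hΘc]
  show S35PU_pic0 (heckeAlphaBar ℂ N ℓ) (PG_B0L_heckeAlphaBarIntegral ℂ N ℓ)
    (PG_B0L_finiteAlong_alpha ℂ N ℓ) (S35PU_normFormula_alpha ℂ N ℓ) (Pic0.mk D) = _
  rw [S35PU_pic0_mk]
  -- the divisor of the norm
  have hD' : ∀ v : Place ℂ (PG_FC N),
      (m : ℤ) * ((S35PU_degZero (heckeAlphaBar ℂ N ℓ) (PG_B0L_heckeAlphaBarIntegral ℂ N ℓ) D :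
        Divisor.degZero (K := ℂ) (F := PG_FC N)) : Divisor ℂ (PG_FC N)) v =
      v.ord (letI := algebraAlong (heckeAlphaBar ℂ N ℓ);
        (Algebra.norm (PG_FC N) z : PG_FC N)) := by
    intro v
    rw [S35PU_coe_degZero]
    exact S35TF_pushforward_ord (heckeAlphaBar ℂ N ℓ) (PG_B0L_heckeAlphaBarIntegral ℂ N ℓ)
      (PG_B0L_finiteAlong_alpha ℂ N ℓ) (S35PU_normFormula_alpha ℂ N ℓ) (m : ℤ) z hz0
      (D : Divisor ℂ (PG_FC (N * ℓ))) hD v
  -- the norm forms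
  have ha' : PG_IsForm N (4 * ((ℓ : ℤ) + 1))
      (PG_chi N m ((S35TF_ver N ℓ c : PG_M N) : Additive (Gamma0 N) →+ ℤ) * 1)
      (S35TF_prod N ℓ x y hxy 4 a) := by
    rw [mul_one (PG_chi N m ((S35TF_ver N ℓ c : PG_M N) : Additive (Gamma0 N) →+ ℤ))]
    exact S35TF_isForm_chi N ℓ x y hxy hℓp hℓN m 4 _ a ha
  have hb' : PG_IsForm N (4 * ((ℓ : ℤ) + 1)) 1 (S35TF_prod N ℓ x y hxy 4 b) :=
    S35TF_isForm_one N ℓ x y hxy hℓp hℓN 4 b hb
  have ha'0 : S35TF_prod N ℓ x y hxy 4 a ≠ 0 := S35TF_prod_ne_zero N ℓ x y hxy 4 ha.holo ha0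
  have hb'0 : S35TF_prod N ℓ x y hxy 4 b ≠ 0 := S35TF_prod_ne_zero N ℓ x y hxy 4 hb.holo hb0
  have hreal := S35TF_realizes_norm N ℓ hℓp hℓN x y hxy (4 * m) (a ^ m) (b ^ m) hA hB z hz
  rw [S35TF_prod_pow, S35TF_prod_pow] at hreal
  exact (hΘ'.char (S35TF_ver N ℓ c) (4 * ((ℓ : ℤ) + 1)) 1 (S35TF_prod N ℓ x y hxy 4 a)
    (S35TF_prod N ℓ x y hxy 4 b) _ _ (PG7A_one_good N) ha' hb' ha'0 hb'0 hreal
    (fun v => hD' v)).symm

/-- **P6-B-alpha**: `Θ`-functoriality along `α`. -/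
theorem S35TF_alpha (hℓp : ℓ.Prime) (hℓN : ¬ ℓ ∣ N) : S35P6_TFA N ℓ :=
  ⟨S35TF_ver N ℓ, S35TF_alpha_for N ℓ hℓp hℓN⟩

end

end Fermat.Agent.S35_helper23_TFA
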