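import Mathlib
import Fermat.Agent.S35_helper6_PUSH
import Fermat.Agent.G_helper7_G8PLUG

/-!
# S35, (P6)-A3 (helper6): the degeneracy push-forwards commute with the base change `ℚ̄ → L`

`S35PB_alpha` : `b_N (α_* x) = α_{*,L} (b_{N ℓ} x)` for `x ∈ J₀(N ℓ)(ℚ̄)`, where
`b = PG8P_b L : J₀(·)(ℚ̄) → Pic⁰ (F_L (·))` is the base change map of Project G (block G8);
`S35PB_beta` : the same for `β_*`.  (`L` any algebraically closed field of characteristic `0`,
in particular `L = ℂ`.)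
-/

set_option autoImplicit false
set_option linter.unusedSectionVars false
set_option linter.unusedVariables false
set_option linter.style.haveILetI false

universe u

open AlgebraicCurve IntermediateField ModularCurve

noncomputable section

namespace Fermat.Agent.S35_helper6_PUSHBC

open Fermat.Agent.S24 Fermat.Agent.G_helper21_B0L Fermat.Agent.G_helper26_G8e
  Fermat.Agent.G_helper26_G8MOD Fermat.Agent.G_helper7_G8g Fermat.Agent.G_helper7_G8d
  Fermat.Agent.G_helper6_Defs Fermat.Agent.G_helper7_G8PLUG Fermat.Agent.S35_helper6_PUSH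

variable (L : Type u) [Field L] [Algebra ℚ L] [IsAlgClosed L]
variable (N ℓ : ℕ) [NeZero N] [NeZero ℓ]

/-- **`α_*` commutes with the base change `ℚ̄ → L`.** -/
theorem S35PB_alpha (x : JZero (N * ℓ)) :
    PG8P_b L N (S35PU_alpha N ℓ x) = S35PU_alphaL L N ℓ (PG8P_b L (N * ℓ) x) := by
  letI := PG8M_algebra L
  obtain ⟨D, rfl⟩ := Pic0.mk_surjective x
  have h1 : PG8P_b L N (S35PU_alpha N ℓ (Pic0.mk D)) =
      Pic0.mk ((PG8M_setup L N).baseChangeDegZero
        (S35PU_degZero (heckeAlphaBar Kbar N ℓ) (PG_B0L_heckeAlphaBarIntegral Kbar N ℓ) D)) := rfl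
  have h2 : S35PU_alphaL L N ℓ (PG8P_b L (N * ℓ) (Pic0.mk D)) =
      Pic0.mk (S35PU_degZero (heckeAlphaBar L N ℓ) (PG_B0L_heckeAlphaBarIntegral L N ℓ)
        ((PG8M_setup L (N * ℓ)).baseChangeDegZero D)) := rfl
  rw [h1, h2]
  congr 1
  apply Subtype.ext
  exact (PG8g_pushforwardAlong (PG8M_setup L N) (PG8M_setup L (N * ℓ))
    (heckeAlphaBar Kbar N ℓ) (heckeAlphaBar L N ℓ) (PG_B0L_heckeAlphaBarIntegral Kbar N ℓ)
    (PG_B0L_heckeAlphaBarIntegral L N ℓ) (PG8P_alpha_bc L N ℓ) _).symm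

/-- **`β_*` commutes with the base change `ℚ̄ → L`.** -/
theorem S35PB_beta (x : JZero (N * ℓ)) :
    PG8P_b L N (S35PU_beta N ℓ x) = S35PU_betaL L N ℓ (PG8P_b L (N * ℓ) x) := by
  letI := PG8M_algebra L
  obtain ⟨D, rfl⟩ := Pic0.mk_surjective x
  have h1 : PG8P_b L N (S35PU_beta N ℓ (Pic0.mk D)) =
      Pic0.mk ((PG8M_setup L N).baseChangeDegZero
        (S35PU_degZero (heckeBetaBar Kbar N ℓ) (PG_B0L_heckeBetaBarIntegral Kbar N ℓ) D)) := rfl
  have h2 : S35PU_betaL L N ℓ (PG8P_b L (N * ℓ) (Pic0.mk D)) =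
      Pic0.mk (S35PU_degZero (heckeBetaBar L N ℓ) (PG_B0L_heckeBetaBarIntegral L N ℓ)
        ((PG8M_setup L (N * ℓ)).baseChangeDegZero D)) := rfl
  rw [h1, h2]
  congr 1
  apply Subtype.ext
  exact (PG8g_pushforwardAlong (PG8M_setup L N) (PG8M_setup L (N * ℓ))
    (heckeBetaBar Kbar N ℓ) (heckeBetaBar L N ℓ) (PG_B0L_heckeBetaBarIntegral Kbar N ℓ)
    (PG_B0L_heckeBetaBarIntegral L N ℓ) (PG8P_beta_bc L N ℓ) _).symm

end Fermat.Agent.S35_helper6_PUSHBC
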