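import Fermat.Agent.S35_helper24_P6E
import Fermat.Agent.S35_helper23_TFA
import Fermat.Agent.S35_helper12_TFBW
import Fermat.Agent.S35_helper18_W4G
import Fermat.Agent.S35_helper6_PUSHBC

/-!
# S35, block (P6): the final plug (helper24)

* `S35P6F_TFB` : the Theta-functoriality along `β` (`S35P6_TFB N ℓ`), from the one along `α`
  (helper23, `S35TF_alpha`), the plug of helper12 (`S35TFBW_main`) and the group half of
  helper18 (`S35W4_conj`, `S35W4_pull`);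
* `S35P6F_hP6` : **the hypothesis `hP6` of `S35ENDK_frozen`, with no hypothesis left**.
-/

set_option autoImplicit false
set_option linter.unusedSectionVars false
set_option linter.unusedVariables false
set_option linter.style.haveILetI false

open scoped TensorProduct
open CuspForm ModularCurve
open Fermat.Agent.S35_helper12_ENDK Fermat.Agent.S35_helper23_P6Defs
open Fermat.Agent.S35_helper12_WC Fermat.Agent.S35_helper18_W4G

noncomputable section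

namespace Fermat.Agent.S35_helper24_P6F

/-- **P6-B-beta**: `Θ`-functoriality along `β`. -/
theorem S35P6F_TFB (N ℓ : ℕ) [NeZero N] [NeZero ℓ] (hℓ : ℓ.Prime) (hℓN : ¬ ℓ ∣ N) :
    S35P6_TFB N ℓ :=
  Fermat.Agent.S35_helper12_TFBW.S35TFBW_main N ℓ hℓ hℓN
    (S35W4_conj N ℓ (S35WC_u N ℓ hℓ hℓN) (S35WC_v N ℓ hℓ hℓN) (S35WC_uv N ℓ hℓ hℓN))
    (fun g => S35W4_conj_mul_Wmat N ℓ (S35WC_u N ℓ hℓ hℓN) (S35WC_v N ℓ hℓ hℓN)
      (S35WC_uv N ℓ hℓ hℓN) g)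
    (S35W4_pull N ℓ (S35WC_u N ℓ hℓ hℓN) (S35WC_v N ℓ hℓ hℓN) (S35WC_uv N ℓ hℓ hℓN))
    (fun m c => S35W4_chi_pull N ℓ (S35WC_u N ℓ hℓ hℓN) (S35WC_v N ℓ hℓ hℓN)
      (S35WC_uv N ℓ hℓ hℓN) m c)
    (Fermat.Agent.S35_helper23_TFA.S35TF_alpha N ℓ hℓ hℓN)

/-- **(P6) at the level `N' * q`, unconditionally**: the hypothesis `hP6` of `S35ENDK_frozen`
(and of `S35FINAL1_of_key`) verbatim. -/
theorem S35P6F_hP6 (N' q : ℕ) [NeZero N'] [NeZero q] [NeZero (N' * q)] (hq : q.Prime)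
    (hqN : ¬ q ∣ N')
    {g : CuspForm (CongruenceSubgroup.Gamma0 (N' * q)) 2} (hg : g.IsNewform)
    (lam : ℕ) [Fact lam.Prime] (hqlam : q ≠ lam) (S : Finset ℕ)
    (O' : Type) [CommRing O'] [IsDomain O'] [IsDiscreteValuationRing O']
    [IsAdicComplete (IsLocalRing.maximalIdeal O') O'] [Finite (IsLocalRing.ResidueField O')]
    [CharZero O'] (hlamO' : (lam : O') ∈ IsLocalRing.maximalIdeal O')
    (chig : CuspForm.heckeAlgebra (N' * q) 2 (↑S : Set ℕ) →+* ℂ)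
    (hchig : ∀ (ℓ : ℕ) (hℓ : ℓ.Prime) (hℓM : ¬ ℓ ∣ N' * q) (hℓS : ℓ ∉ (↑S : Set ℕ)),
      chig (CuspForm.heckeAlgebra.T hℓ hℓM hℓS) = ModularFormClass.qCoeff g ℓ)
    (iota : chig.range →+* O')
    (hlamS : lam ∈ S) (hMS : ∀ r : ℕ, r.Prime → r ∣ N' * q → r ∈ S) :
    S35ENDK_P6At N' q lam S O' hlamO' (iota.comp chig.rangeRestrict) :=
  Fermat.Agent.S35_helper24_P6E.S35P6E_main
    (fun N ℓ _ _ hℓ hℓN => Fermat.Agent.S35_helper23_TFA.S35TF_alpha N ℓ hℓ hℓN)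
    (fun N ℓ _ _ hℓ hℓN => S35P6F_TFB N ℓ hℓ hℓN)
    (fun N ℓ _ _ x => Fermat.Agent.S35_helper6_PUSHBC.S35PB_alpha ℂ N ℓ x)
    (fun N ℓ _ _ x => Fermat.Agent.S35_helper6_PUSHBC.S35PB_beta ℂ N ℓ x)
    N' q hq hqN hg lam hqlam S O' hlamO' chig hchig iota hlamS hMS

end Fermat.Agent.S35_helper24_P6F
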