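import Fermat.Agent.S35_helper28_CONST
import Fermat.Agent.S35_helper27_XD2Defs

/-!
# S35, GEO-CONST in contract shape (helper28)

`S35CSTX_const` : the field `const` of helper27's `S35XD2_Contract` (Part II of X-D-FROB),
verbatim, from the landed `S35CST_main_O` at `c0 = 1`, `N = N' * q`,
`V2 = S34P1C_V2 A K1 hq N' hqN = S34V0K_V A K1 q N' (N' * q) hq hqN (Nat.mul_comm N' q)`.
-/

set_option autoImplicit false
set_option linter.unusedSectionVars false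
set_option linter.unusedVariables false
set_option linter.style.haveILetI false
set_option synthInstance.maxHeartbeats 400000
set_option maxHeartbeats 1600000

open HahnSeries ModularCurve
open Fermat.Agent.S18_helper13_GAUSS Fermat.Agent.S18_helper9_CDefs
  Fermat.Agent.S18_helper25_COREDefs Fermat.Agent.S34_helper12_CDefs
  Fermat.Agent.S34_helper20_V0 Fermat.Agent.S34_helper20_V0K
  Fermat.Agent.S34_helper21_ACT Fermat.Agent.S34_helper27_P1C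
  Fermat.Agent.S35_helper28_CONST Fermat.Agent.S35_helper27_XD2Defs

noncomputable section

namespace Fermat.Agent.S35_helper28_CONSTX

local notation "Qb" => AlgebraicClosure ℚ
local notation "GQ" => (AlgebraicClosure ℚ ≃ₐ[ℚ] AlgebraicClosure ℚ)

variable (A : ValuationSubring Qb) (K1 : IntermediateField ℚ Qb)
  (hstab : ∀ σ : GQ, ∀ x ∈ K1, σ x ∈ K1) [IsDiscreteValuationRing (S18K_O1 A K1)]
  {q : ℕ} (hq : q.Prime) (N' : ℕ) [NeZero N'] [NeZero (N' * q)] (hqN : ¬ q ∣ N') (σ : GQ)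

/-- **The field `const` of `S35XD2_Contract`**, verbatim. -/
theorem S35CSTX_const (lam : ℕ) (hlam : 0 < lam) (hA : A.LiesOverPrime q)
    (hsurj : Function.Surjective (S18K_res A K1)) (hσ : A.IsFrobeniusAt σ q) :
    ∀ (n' : ℕ), 0 < n' → ∀ (f2 h c1 c2 H1 H2 : LaurentSeries K1),
    f2 ∈ S18K_F1 K1 (N' * q) → h ∈ S18K_F1 K1 (N' * q) → h ≠ 0 →
    h ∈ (S18K_V A K1 (N' * q) ⊓ S34P1C_V2 A K1 hq N' hqN : Subring (LaurentSeries K1)) →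
    h⁻¹ ∈ (S18K_V A K1 (N' * q) ⊓ S34P1C_V2 A K1 hq N' hqN : Subring (LaurentSeries K1)) →
    c1 ∈ S18K_O A K1 → c1⁻¹ ∈ S18K_O A K1 → c2 ∈ S18K_O A K1 → c2⁻¹ ∈ S18K_O A K1 →
    H1 ∈ S18K_F1 K1 (N' * q) → H2 ∈ S18K_F1 K1 (N' * q) →
    H1 ∈ (S18K_V A K1 (N' * q) ⊓ S34P1C_V2 A K1 hq N' hqN : Subring (LaurentSeries K1)) →
    H1⁻¹ ∈ (S18K_V A K1 (N' * q) ⊓ S34P1C_V2 A K1 hq N' hqN : Subring (LaurentSeries K1)) →
    H2 ∈ (S18K_V A K1 (N' * q) ⊓ S34P1C_V2 A K1 hq N' hqN : Subring (LaurentSeries K1)) →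
    H2⁻¹ ∈ (S18K_V A K1 (N' * q) ⊓ S34P1C_V2 A K1 hq N' hqN : Subring (LaurentSeries K1)) →
    (∃ v ∈ S18K_V A K1 (N' * q), f2 = c1 * H1 ^ (lam * n') * (1 + S18K_π A K1 * v)) →
    (∃ v ∈ S34P1C_V2 A K1 hq N' hqN, f2 = c2 * H2 ^ (lam * n') * (1 + S18K_π A K1 * v)) →
    h ^ n' = S34ACT_act K1 hstab (σ * σ) f2 * (f2 ^ (q ^ 2))⁻¹ →
    ∃ γ1 γ2 b1 b2 G : LaurentSeries K1,
      γ1 ∈ S18K_O A K1 ∧ γ2 ∈ S18K_O A K1 ∧
      b1 ∈ S18K_O A K1 ∧ b1⁻¹ ∈ S18K_O A K1 ∧ b2 ∈ S18K_O A K1 ∧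
      ((∃ o ∈ S18K_O A K1, γ1 - γ2 = S18K_π A K1 * o) → b1 = b2) ∧
      G ≠ 0 ∧
      RedPow (S18K_π A K1) (S18K_V A K1 (N' * q) ⊓ S34P1C_V2 A K1 hq N' hqN) lam h G ∧
      (∃ v ∈ S18K_V A K1 (N' * q),
        h = γ1 * (S34ACT_act K1 hstab (σ * σ) H1 * (H1 ^ (q ^ 2))⁻¹) ^ lam *
          (1 + S18K_π A K1 * v)) ∧
      (∃ v ∈ S34P1C_V2 A K1 hq N' hqN,
        h = γ2 * (S34ACT_act K1 hstab (σ * σ) H2 * (H2 ^ (q ^ 2))⁻¹) ^ lam *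
          (1 + S18K_π A K1 * v)) ∧
      (∃ v ∈ S18K_V A K1 (N' * q),
        G = b1 * (S34ACT_act K1 hstab (σ * σ) H1 * (H1 ^ (q ^ 2))⁻¹) *
          (1 + S18K_π A K1 * v)) ∧
      (∃ v ∈ S34P1C_V2 A K1 hq N' hqN,
        G = b2 * (S34ACT_act K1 hstab (σ * σ) H2 * (H2 ^ (q ^ 2))⁻¹) *
          (1 + S18K_π A K1 * v)) := by
  intro n' hn' f2 h c1 c2 H1 H2 _ hh hh0 _ _ hc1 hc1' hc2 hc2' _ _ hH1 hH1' hH2 hH2' ht1 ht2 hhf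
  haveI : NeZero q := ⟨hq.ne_zero⟩
  have h1O : (1 : LaurentSeries K1) ∈ S18K_O A K1 := (S18K_O A K1).one_mem
  have h1O' : (1 : LaurentSeries K1)⁻¹ ∈ S18K_O A K1 := by
    rw [inv_one]; exact (S18K_O A K1).one_mem
  obtain ⟨γ1, γ2, b1, b2, hγ1, hγ2, hb1, hb2, hbb, G, hG0, hGF, hred, hh1, hh2, hG1, hG2⟩ :=
    S35CST_main_O A K1 hstab q N' (N' * q) hq hqN (Nat.mul_comm N' q) hA hsurj σ hσ lam n'
      hlam hn' f2 h hh hh0 1 c1 c2 h1O h1O' hc1 hc1' hc2 hc2' H1 H2 hH1 hH1' hH2 hH2' ht1 ht2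
      (by rw [one_mul]; exact hhf)
  exact ⟨γ1, γ2, b1, b2, G, hγ1.1, hγ2.1, hb1.1, hb1.2.1, hb2.1, hbb, hG0, hred, hh1, hh2,
    hG1, hG2⟩

end Fermat.Agent.S35_helper28_CONSTX
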