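import Mathlib
import Fermat.Agent.S35_helper27_XD2Defs
import Fermat.Agent.S35_helper7_LOCGENF
import Fermat.Agent.S34_helper4_XCROSS

/-!
# S35, GEO (operator route): the divisor of `f'' = (σ² - 1)(σ - 1) · f0` (helper7)

The field `ord2` of helper27's `S35XD2_Contract`, verbatim, from landed lemmas only
(`S34ACT_ordP`, `S34XC_ordP_mul`, `S34XC_ordP_inv`), together with the data side of
`S35X2K_cross_A0` at `f''`: rationality of the support of `(σ - 1) D`.

* `S35O2_ord_d`    : `div (τ f / f) = n ((τ - 1) D)` if `div f = n D`;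
* `S35O2_ord2`     : the field `ord2`;
* `S35O2_ord3`     : `div (Θ f0) = n Θ D` for `Θ = (σ² - q²)(σ² - 1)(σ - 1)`;
* `S35O2_rational` : the support of `σ D - D` is `K1`-rational if the support of `D` is.
-/

set_option autoImplicit false
set_option linter.unusedSectionVars false
set_option linter.style.haveILetI false
set_option maxHeartbeats 1000000
set_option synthInstance.maxHeartbeats 400000

open AlgebraicCurve ModularCurve HahnSeries IntermediateField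

noncomputable section

namespace Fermat.Agent.S35_helper7_ORD2

open Fermat.Agent.S18_helper9_CDefs Fermat.Agent.S18_helper25_COREDefs
  Fermat.Agent.S34_helper12_CDefs Fermat.Agent.S34_helper6_RED Fermat.Agent.S34_helper5_K0
  Fermat.Agent.S37_helper4_B1Defs Fermat.Agent.S37_helper5_LEVEL
  Fermat.Agent.S34_Contracts Fermat.Agent.S34_helper21_ACT
  Fermat.Agent.S34_helper4_XCROSS Fermat.Agent.S35_helper7_LOCGENF
  Fermat.Agent.S35_helper27_XD2Defs Fermat.Agent.S35_helper6_GEOTOP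

local notation "Qb" => AlgebraicClosure ℚ
local notation "GQ" => (AlgebraicClosure ℚ ≃ₐ[ℚ] AlgebraicClosure ℚ)

variable (N : ℕ) [NeZero N] (K1 : IntermediateField ℚ Qb)
  (hstab : ∀ σ : GQ, ∀ x ∈ K1, σ x ∈ K1)

/-- the order of a translate: `ord_P (τ f) = ord_(τ⁻¹ P) f`. -/
theorem S35O2_ord_act (τ : GQ) (P : Place Qb (modularFunctionFieldBar N))
    (f : LaurentSeries K1) :
    S37B1_ordP N K1 P (S34ACT_act K1 hstab τ f) = S37B1_ordP N K1 (S34R_g N τ⁻¹ • P) f := by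
  have h1 := S34ACT_ordP K1 hstab N τ (S34R_g N τ⁻¹ • P) f
  have e : arithmeticGalois (modularFunctionFieldFull N) τ • (S34R_g N τ⁻¹ • P) = P :=
    S35LG_g_smul_inv N τ P
  rw [e] at h1
  exact h1

/-- the value of a translated divisor. -/
theorem S35O2_smul_apply (τ : GQ) (D : Divisor Qb (modularFunctionFieldBar N))
    (P : Place Qb (modularFunctionFieldBar N)) :
    (S34R_g N τ • D) P = D (S34R_g N τ⁻¹ • P) := by
  have h := SemilinearAut.divisor_smul_apply_smul (S34R_g N τ) D (S34R_g N τ⁻¹ • P)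
  rw [S35LG_g_smul_inv] at h
  exact h

/-- `div (τ f / f) = n ((τ - 1) D)` if `div f = n D`. -/
theorem S35O2_ord_d (τ : GQ) (n : ℤ) (D : Divisor Qb (modularFunctionFieldBar N))
    (f : LaurentSeries K1) (hf : f ∈ S18K_F1 K1 N) (hf0 : f ≠ 0)
    (hdiv : ∀ P : Place Qb (modularFunctionFieldBar N), S37B1_ordP N K1 P f = n * D P) :
    S35XD2_d K1 hstab τ f ∈ S18K_F1 K1 N ∧ S35XD2_d K1 hstab τ f ≠ 0 ∧
      ∀ P : Place Qb (modularFunctionFieldBar N),
        S37B1_ordP N K1 P (S35XD2_d K1 hstab τ f) = n * (S34R_g N τ • D - D) P := by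
  have hτf : S34ACT_act K1 hstab τ f ∈ modularFunctionFieldFullC K1 N :=
    S34ACT_mem_F1 K1 hstab N τ hf
  have hτf0 : S34ACT_act K1 hstab τ f ≠ 0 := fun h0 =>
    hf0 (S34ACT_act_injective K1 hstab τ (by rw [h0, map_zero]))
  have hfi : f⁻¹ ∈ modularFunctionFieldFullC K1 N := inv_mem hf
  refine ⟨mul_mem hτf hfi, mul_ne_zero hτf0 (inv_ne_zero hf0), fun P => ?_⟩
  show S37B1_ordP N K1 P (S34ACT_act K1 hstab τ f * f⁻¹) = _
  rw [S34XC_ordP_mul N K1 P hτf hfi hτf0 (inv_ne_zero hf0), S34XC_ordP_inv N K1 P hf,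
    S35O2_ord_act N K1 hstab τ P f, hdiv, hdiv, Finsupp.sub_apply,
    S35O2_smul_apply N τ D P]
  ring

/-- **The field `ord2` of `S35XD2_Contract`**, for every level `N`. -/
theorem S35O2_ord2_gen (σ : GQ) (n : ℕ) (D : Divisor Qb (modularFunctionFieldBar N))
    (f0 : LaurentSeries K1) (hf : f0 ∈ S18K_F1 K1 N) (hf0 : f0 ≠ 0)
    (hdiv : ∀ P : Place Qb (modularFunctionFieldBar N),
      S37B1_ordP N K1 P f0 = (n : ℤ) * D P) :
    S35XD2_f2 K1 hstab σ f0 ∈ S18K_F1 K1 N ∧ S35XD2_f2 K1 hstab σ f0 ≠ 0 ∧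
    ∀ P : Place Qb (modularFunctionFieldBar N),
      S37B1_ordP N K1 P (S35XD2_f2 K1 hstab σ f0) =
        (n : ℤ) * (S34R_g N (σ * σ) • (S34R_g N σ • D - D) - (S34R_g N σ • D - D)) P := by
  obtain ⟨h1, h2, h3⟩ := S35O2_ord_d N K1 hstab σ (n : ℤ) D f0 hf hf0 hdiv
  exact S35O2_ord_d N K1 hstab (σ * σ) (n : ℤ) (S34R_g N σ • D - D) _ h1 h2 h3

/-- **`div (Θ f0) = n Θ D`**, `Θ = (σ² - q²)(σ² - 1)(σ - 1)`. -/
theorem S35O2_ord3 (σ : GQ) (q : ℕ) (n : ℕ) (D : Divisor Qb (modularFunctionFieldBar N))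
    (f0 : LaurentSeries K1) (hf : f0 ∈ S18K_F1 K1 N) (hf0 : f0 ≠ 0)
    (hdiv : ∀ P : Place Qb (modularFunctionFieldBar N),
      S37B1_ordP N K1 P f0 = (n : ℤ) * D P) :
    S35XD2_f3 K1 hstab σ q f0 ∈ S18K_F1 K1 N ∧ S35XD2_f3 K1 hstab σ q f0 ≠ 0 ∧
    ∀ P : Place Qb (modularFunctionFieldBar N),
      S37B1_ordP N K1 P (S35XD2_f3 K1 hstab σ q f0) =
        (n : ℤ) * S35GT_thetaD N q σ D P := by
  obtain ⟨h1, h2, h3⟩ := S35O2_ord2_gen N K1 hstab σ n D f0 hf hf0 hdiv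
  set f2 := S35XD2_f2 K1 hstab σ f0 with hf2
  set D2 := S34R_g N (σ * σ) • (S34R_g N σ • D - D) - (S34R_g N σ • D - D) with hD2
  have hτf : S34ACT_act K1 hstab (σ * σ) f2 ∈ modularFunctionFieldFullC K1 N :=
    S34ACT_mem_F1 K1 hstab N (σ * σ) h1
  have hτf0 : S34ACT_act K1 hstab (σ * σ) f2 ≠ 0 := fun h0 =>
    h2 (S34ACT_act_injective K1 hstab (σ * σ) (by rw [h0, map_zero]))
  have hp : f2 ^ (q ^ 2) ∈ modularFunctionFieldFullC K1 N := pow_mem h1 _
  have hp0 : f2 ^ (q ^ 2) ≠ 0 := pow_ne_zero _ h2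
  have hpi : (f2 ^ (q ^ 2))⁻¹ ∈ modularFunctionFieldFullC K1 N := inv_mem hp
  refine ⟨mul_mem hτf hpi, mul_ne_zero hτf0 (inv_ne_zero hp0), fun P => ?_⟩
  show S37B1_ordP N K1 P (S34ACT_act K1 hstab (σ * σ) f2 * (f2 ^ (q ^ 2))⁻¹) = _
  rw [S34XC_ordP_mul N K1 P hτf hpi hτf0 (inv_ne_zero hp0), S34XC_ordP_inv N K1 P hp,
    S34XC_ordP_pow N K1 P h1 h2, S35O2_ord_act N K1 hstab (σ * σ) P f2, h3, h3,
    S35GT_thetaD_apply]
  simp only [hD2, Finsupp.sub_apply, S35O2_smul_apply, Finsupp.smul_apply, smul_eq_mul]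
  push_cast
  ring

include hstab in
/-- the support of `σ D - D` is `K1`-rational if the support of `D` is. -/
theorem S35O2_rational (σ : GQ) (D : Divisor Qb (modularFunctionFieldBar N))
    (hD : ∀ P : Place Qb (modularFunctionFieldBar N), D P ≠ 0 → S37LEVEL_IsRational N K1 P)
    (P : Place Qb (modularFunctionFieldBar N)) (hP : (S34R_g N σ • D - D) P ≠ 0) :
    S37LEVEL_IsRational N K1 P := by
  by_cases h0 : D P = 0
  · have h1 : D (S34R_g N σ⁻¹ • P) ≠ 0 := by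
      intro h2
      apply hP
      rw [Finsupp.sub_apply, S35O2_smul_apply, h2, h0, sub_zero]
    have h3 := S34ACT_rational K1 hstab N σ _ (hD _ h1)
    have e : arithmeticGalois (modularFunctionFieldFull N) σ • (S34R_g N σ⁻¹ • P) = P :=
      S35LG_g_smul_inv N σ P
    rwa [e] at h3
  · exact hD P h0

section Level

variable (A : ValuationSubring Qb) [IsDiscreteValuationRing (S18K_O1 A K1)]
  {q : ℕ} (hq : q.Prime) (N' : ℕ) [NeZero N'] [NeZero (N' * q)] (hqN : ¬ q ∣ N') (σ : GQ)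

/-- **The field `ord2` of helper27's `S35XD2_Contract`, verbatim.** -/
theorem S35O2_ord2 :
    ∀ (n : ℕ) (D : Divisor Qb (modularFunctionFieldBar (N' * q))) (f0 : LaurentSeries K1),
    f0 ∈ S18K_F1 K1 (N' * q) → f0 ≠ 0 →
    (∀ P : Place Qb (modularFunctionFieldBar (N' * q)),
      S37B1_ordP (N' * q) K1 P f0 = (n : ℤ) * D P) →
    ∀ P : Place Qb (modularFunctionFieldBar (N' * q)),
      S37B1_ordP (N' * q) K1 P (S35XD2_f2 K1 hstab σ f0) =
        (n : ℤ) * (S34R_g (N' * q) (σ * σ) • (S34R_g (N' * q) σ • D - D)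
          - (S34R_g (N' * q) σ • D - D)) P :=
  fun n D f0 hf hf0 hdiv => (S35O2_ord2_gen (N' * q) K1 hstab σ n D f0 hf hf0 hdiv).2.2

end Level

end Fermat.Agent.S35_helper7_ORD2
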