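import Fermat.Agent.S35_helper27_FINAL2
import Fermat.Agent.S35_helper24_P6F
import Fermat.Agent.S35_helper7_ORD2
import Fermat.Agent.S35_helper17_REDUX
import Fermat.Agent.S35_helper28_CONSTX

/-!
# S35 (helper27): the final wiring, third form

Plugged: (P6) = helper24 `S35P6F_hP6`; Part I = helper4 `S35XB2_key`; Part II = `S35XD2_keyK1`;
the fields `ord2` (helper7 `S35O2_ord2`), `const` (helper28 `S35CSTX_const`), `redU`
(helper17 `S35RFX_redU`) of `S35XD2_Contract`.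

The frozen statement of S35 follows from ONE input, the field `toric` of `S35XD2_Contract`
(`S35FINAL3_Toric`, REDNEW / TORIC): for `f0 ∈ F1`, `f0 ≠ 0`, new along `α` and `β` with exponent
`n`, the function `f'' = (σ² - 1)(σ - 1) · f0` is `c_i * H_i ^ n * (1 + π v_i)` on the branch
`V_i` (`c_i` unit constants, `H_i` units of `V1 ⊓ V2`).
-/

set_option autoImplicit false
set_option linter.unusedSectionVars false
set_option linter.unusedVariables false
set_option linter.style.haveILetI false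

open Polynomial
open scoped TensorProduct
open CuspForm
open Fermat.Agent.S18_helper25_COREDefs Fermat.Agent.S37_helper4_B1Defs
  Fermat.Agent.S34_helper27_P1C

noncomputable section

namespace Fermat.Agent.S35_helper27_FINAL3

local notation "Qb" => AlgebraicClosure ℚ
local notation "GQ" => (AlgebraicClosure ℚ ≃ₐ[ℚ] AlgebraicClosure ℚ)

open Fermat.Agent.S35_helper12_END Fermat.Agent.S35_helper12_ENDK
  Fermat.Agent.S35_helper6_GEOTOP Fermat.Agent.S35_helper6_GEOTOPK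
  Fermat.Agent.S35_helper27_FINAL1 Fermat.Agent.S35_helper27_FINAL2
  Fermat.Agent.S35_helper27_XD2Defs Fermat.Agent.S35_helper27_XD2

section Level

variable (A : ValuationSubring Qb) (K1 : IntermediateField ℚ Qb)
  (hstab : ∀ σ : GQ, ∀ x ∈ K1, σ x ∈ K1) [IsDiscreteValuationRing (S18K_O1 A K1)]
  {q : ℕ} (hq : q.Prime) (N' : ℕ) [NeZero N'] [NeZero (N' * q)] (hqN : ¬ q ∣ N') (σ : GQ)

/-- **the field `toric` of `S35XD2_Contract`**, as a `Prop` (the last open input of S35). -/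
def S35FINAL3_Toric : Prop :=
  ∀ (n : ℕ) (f0 : LaurentSeries K1) (hf0 : f0 ∈ S18K_F1 K1 (N' * q)), f0 ≠ 0 →
    S35XD2_NewAlpha K1 q N' n f0 hf0 → S35XD2_NewBeta K1 q N' hq hqN n f0 →
    ∃ c1 c2 H1 H2 : LaurentSeries K1,
      c1 ∈ S18K_O A K1 ∧ c1⁻¹ ∈ S18K_O A K1 ∧ c2 ∈ S18K_O A K1 ∧ c2⁻¹ ∈ S18K_O A K1 ∧
      H1 ∈ S18K_F1 K1 (N' * q) ∧ H2 ∈ S18K_F1 K1 (N' * q) ∧
      H1 ∈ (S18K_V A K1 (N' * q) ⊓ S34P1C_V2 A K1 hq N' hqN : Subring (LaurentSeries K1)) ∧
      H1⁻¹ ∈ (S18K_V A K1 (N' * q) ⊓ S34P1C_V2 A K1 hq N' hqN : Subring (LaurentSeries K1)) ∧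
      H2 ∈ (S18K_V A K1 (N' * q) ⊓ S34P1C_V2 A K1 hq N' hqN : Subring (LaurentSeries K1)) ∧
      H2⁻¹ ∈ (S18K_V A K1 (N' * q) ⊓ S34P1C_V2 A K1 hq N' hqN : Subring (LaurentSeries K1)) ∧
      (∃ v ∈ S18K_V A K1 (N' * q),
        S35XD2_f2 K1 hstab σ f0 = c1 * H1 ^ n * (1 + S18K_π A K1 * v)) ∧
      (∃ v ∈ S34P1C_V2 A K1 hq N' hqN,
        S35XD2_f2 K1 hstab σ f0 = c2 * H2 ^ n * (1 + S18K_π A K1 * v))

/-- **Part III**: the contract of Part II from its field `toric` (the three other fields are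
landed). -/
theorem S35FINAL3_contract (lam : ℕ) (hlam : lam.Prime) (hA : A.LiesOverPrime q)
    (hadm : S18K_Admissible A K1 q) (hσ : A.IsFrobeniusAt σ q)
    (htoric : S35FINAL3_Toric A K1 hstab hq N' hqN σ) :
    S35XD2_Contract A K1 hstab hq N' hqN σ lam where
  ord2 := Fermat.Agent.S35_helper7_ORD2.S35O2_ord2 K1 hstab N' σ
  toric := htoric
  const := Fermat.Agent.S35_helper28_CONSTX.S35CSTX_const A K1 hstab hq N' hqN σ lam hlam.pos hA
    hadm.res_surj hσ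
  redU := Fermat.Agent.S35_helper17_REDUX.S35RFX_redU A K1 hstab hq N' hqN σ hA hadm hσ

end Level

/-- **the frozen statement S35 from the field `toric` alone.** -/
theorem S35FINAL3_of_toric
    (htoric : ∀ (N' q lam : ℕ) [NeZero N'] [NeZero q] (hq : q.Prime) (hlam : lam.Prime)
      (hne : q ≠ lam) (hqN : ¬ q ∣ N')
      (A : ValuationSubring Qb) (hA : A.LiesOverPrime q)
      (K1 : IntermediateField ℚ Qb) (hadm : S18K_Admissible A K1 q)
      (hstab : ∀ σ : GQ, ∀ x ∈ K1, σ x ∈ K1) (σ : GQ) (hσ : A.IsFrobeniusAt σ q),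
      letI := hadm.dvr
      S35FINAL3_Toric A K1 hstab hq N' hqN σ)
    {M : ℕ} [NeZero M] {g : CuspForm (CongruenceSubgroup.Gamma0 M) 2} (hg : g.IsNewform)
    (lam : ℕ) [Fact lam.Prime]
    (S : Finset ℕ)
    (O' : Type) [CommRing O'] [IsDomain O'] [IsDiscreteValuationRing O']
    [IsAdicComplete (IsLocalRing.maximalIdeal O') O'] [Finite (IsLocalRing.ResidueField O')]
    [CharZero O'] (hlamO' : (lam : O') ∈ IsLocalRing.maximalIdeal O')
    (chig : CuspForm.heckeAlgebra M 2 (↑S : Set ℕ) →+* ℂ)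
    (hchig : ∀ (ℓ : ℕ) (hℓ : ℓ.Prime) (hℓM : ¬ ℓ ∣ M) (hℓS : ℓ ∉ (↑S : Set ℕ)),
      chig (CuspForm.heckeAlgebra.T hℓ hℓM hℓS) = ModularFormClass.qCoeff g ℓ)
    (iota : chig.range →+* O')
    (hlamS : lam ∈ S) (hMS : ∀ q : ℕ, q.Prime → q ∣ M → q ∈ S) :
    ∃ (O'' : Type) (_ : CommRing O'') (_ : IsDomain O'') (_ : IsDiscreteValuationRing O'')
      (_ : IsAdicComplete (IsLocalRing.maximalIdeal O'') O'') (_ : Finite (IsLocalRing.ResidueField O''))
      (_ : CharZero O'') (_ : Algebra O' O'') (_ : Module.Finite O' O'') (_ : IsLocalHom (algebraMap O' O'')),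
      Function.Injective (algebraMap O' O'') ∧
      ∃ ρ : GaloisRepAdic O'',
        (∀ (ℓ : ℕ) (hℓ : ℓ.Prime) (hℓM : ¬ ℓ ∣ M) (hℓS : ℓ ∉ (↑S : Set ℕ)),
          ∀ A : ValuationSubring (AlgebraicClosure ℚ), A.LiesOverPrime ℓ →
            ∀ σ : AlgebraicClosure ℚ ≃ₐ[ℚ] AlgebraicClosure ℚ, A.IsFrobeniusAt σ ℓ →
              LinearMap.charpoly (ρ.ρ σ) =
                X ^ 2 - C (algebraMap O' O'' ((iota.comp chig.rangeRestrict) (CuspForm.heckeAlgebra.T hℓ hℓM hℓS))) * X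
                  + C ((ℓ : O''))) ∧
        (∀ q : ℕ, q.Prime → q ≠ lam → q ∣ M → ¬ q ^ 2 ∣ M →
          ∀ A : ValuationSubring (AlgebraicClosure ℚ), A.LiesOverPrime q →
            ∀ σ : AlgebraicClosure ℚ ≃ₐ[ℚ] AlgebraicClosure ℚ, A.IsFrobeniusAt σ q →
              LinearMap.charpoly (ρ.ρ σ) = X ^ 2 - C ((q : O'') + 1) * X + C ((q : O'')) ∨
              LinearMap.charpoly (ρ.ρ σ) = X ^ 2 + C ((q : O'') + 1) * X + C ((q : O''))) :=
  S35FINAL2_of_contract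
    (fun N' q lam _ _ hq' hlam hne hq hqN A hA K1 hadm hstab σ hσ => by
      letI := hadm.dvr
      exact S35FINAL3_contract A K1 hstab hq N' hqN σ lam hlam hA hadm hσ
        (htoric N' q lam hq hlam hne hqN A hA K1 hadm hstab σ hσ))
    (fun N' q _ _ _ hq hqN g hg lam _ hqlam S O' _ _ _ _ _ _ hlamO' chig hchig iota hlamS hMS =>
      Fermat.Agent.S35_helper24_P6F.S35P6F_hP6 N' q hq hqN hg lam hqlam S O' hlamO' chig hchig
        iota hlamS hMS)
    hg lam S O' hlamO' chig hchig iota hlamS hMS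

end Fermat.Agent.S35_helper27_FINAL3
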