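import Fermat.Agent.S35_helper13_NORMRED
import Fermat.Agent.S34_helper13_P1C

/-!
# S35, piece (P3), concrete plug (helper13): norm reduction for the carriers `S18K_*`

`N = q N'`, `q ∤ N'`, `A` over `q`, `K1` a level with `O1 = A ∩ K1` a discrete valuation ring,
`V' = S18K_V A K1 N'`, `V1 = S18K_V A K1 N` (Gauss), `V2 = S34V0K_V` (helper20).

* `S35NRK_hchar` : `q ∈ π V'`;
* `S35NRK_main`  : for `f ∈ V1 ⊓ V2`, `a c ∈ V'` with `f - a ∈ π V1` and `f ^ q - c ∈ π V2`, the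
  norm of `f` from `F1(N)` to `F1(N')` lies in `V'` and is congruent to `a * c` modulo `π V'`.
-/

set_option autoImplicit false
set_option linter.style.haveILetI false
set_option linter.unusedSectionVars false
set_option linter.unusedVariables false

open ModularCurve Fermat.Agent.S18_helper13_GAUSS Fermat.Agent.S18_helper9_CDefs
open Fermat.Agent.S18_helper25_COREDefs Fermat.Agent.S34_helper12_CDefs
  Fermat.Agent.S34_helper27_C2Defs Fermat.Agent.S34_helper27_V3K Fermat.Agent.S34_helper13_KEY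
  Fermat.Agent.S34_helper13_KEYK Fermat.Agent.S34_helper13_KEYD Fermat.Agent.S34_helper20_V0K
  Fermat.Agent.S34_helper15_DEG Fermat.Agent.S34_helper13_P1C
  Fermat.Agent.S35_helper13_NORMRED

noncomputable section

namespace Fermat.Agent.S35_helper13_NORMREDK

variable (A : ValuationSubring (AlgebraicClosure ℚ))
  (K1 : IntermediateField ℚ (AlgebraicClosure ℚ)) [IsDiscreteValuationRing (S18K_O1 A K1)]

/-- the residue characteristic: `q ∈ π V` for the Gauss ring of any level -/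
theorem S35NRK_hchar {q : ℕ} (hq : q.Prime) (hA : A.LiesOverPrime q) (N : ℕ) :
    ∃ v ∈ S18K_V A K1 N, ((q : ℕ) : LaurentSeries K1) = S18K_π A K1 * v := by
  haveI : CharP (IsLocalRing.ResidueField A) q := S34V0K_charP A hq hA
  haveI : CharP (LaurentSeries (IsLocalRing.ResidueField A)) q :=
    charP_of_injective_ringHom
      (HahnSeries.C_injective (Γ := ℤ) (R := IsLocalRing.ResidueField A)) q
  have hqV : ((q : ℕ) : LaurentSeries K1) ∈ (S18K_D A K1).Vring := natCast_mem _ q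
  have hred : (S18K_D A K1).redFun ((q : ℕ) : LaurentSeries K1) = 0 := by
    have h1 : (S18K_D A K1).red ((q : ℕ) : (S18K_D A K1).Vring) =
        ((q : ℕ) : LaurentSeries (IsLocalRing.ResidueField A)) := map_natCast _ q
    have h2 : ((q : ℕ) : LaurentSeries (IsLocalRing.ResidueField A)) = 0 :=
      CharP.cast_eq_zero _ q
    rw [h2, GaussData.red_apply] at h1
    exact h1
  obtain ⟨y, hy, hqy⟩ := (S18K_D A K1).exists_eq_mul_of_redFun_eq_zero hqV hred
  refine ⟨y, ⟨hy, ?_⟩, hqy⟩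
  have hπ0 : S18K_π A K1 ≠ 0 := (S18K_D A K1).πK_ne_zero
  have hπF : S18K_π A K1 ∈ S18K_F1 K1 N := (S34V3K_π_mem_V A K1 N).2
  have hy' : y = (S18K_π A K1)⁻¹ * ((q : ℕ) : LaurentSeries K1) := by
    rw [hqy]
    show y = ((S18K_D A K1).πK)⁻¹ * ((S18K_D A K1).πK * y)
    rw [← mul_assoc, inv_mul_cancel₀ (S18K_D A K1).πK_ne_zero, one_mul]
  show y ∈ S18K_F1 K1 N
  rw [hy']
  exact (S18K_F1 K1 N).mul_mem ((S18K_F1 K1 N).inv_mem hπF) (natCast_mem _ q)

variable (q N' N : ℕ) [NeZero N'] [NeZero N] (hq : q.Prime) (hqN : ¬ q ∣ N') (hN : N = q * N')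

set_option synthInstance.maxHeartbeats 400000 in
/-- **(P3) for the concrete carriers.** -/
theorem S35NRK_main (hA : A.LiesOverPrime q) {f a c : LaurentSeries K1}
    (hf1 : f ∈ S18K_V A K1 N) (hf2 : f ∈ S34V0K_V A K1 q N' N hq hqN hN)
    (ha : a ∈ S18K_V A K1 N') (hc : c ∈ S18K_V A K1 N')
    (hfa : ∃ v ∈ S18K_V A K1 N, f - a = S18K_π A K1 * v)
    (hfc : ∃ v ∈ S34V0K_V A K1 q N' N hq hqN hN, f ^ q - c = S18K_π A K1 * v) :
    letI := S34KEY_alg (S34V3K_F1_mono K1 (S34V0K_dvd hN))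
    ∃ r ∈ S18K_V A K1 N',
      ((Algebra.norm ↥(S18K_F1 K1 N') (⟨f, hf1.2⟩ : ↥(S18K_F1 K1 N)) : ↥(S18K_F1 K1 N')) :
        LaurentSeries K1) = r ∧
      ∃ v ∈ S18K_V A K1 N', r - a * c = S18K_π A K1 * v := by
  haveI : NeZero q := ⟨hq.ne_zero⟩
  haveI hcz : CharZero (LaurentSeries K1) :=
    charZero_of_injective_ringHom (HahnSeries.C_injective (Γ := ℤ) (R := K1))
  have hj : S18K_j K1 ∈ S18K_V A K1 N' :=
    ⟨(S18K_D A K1).jqModC_mem_Vring, jqModC_mem_full K1 N'⟩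
  exact S35NR_abs (S34V3K_F1_mono K1 (S34V0K_dvd hN)) (S34V3K_val1 A K1 N')
    (S34KEYK_sep A K1 N') (S34V3K_val1 A K1 N) (S34V0K_val A K1 q N' N hq hqN hN)
    (S34V3K_V_mono A K1 (S34V0K_dvd hN)) (S34V0K_le A K1 q N' N hq hqN hN)
    (S34V0K_ne A K1 q N' N hq hqN hN hA).symm hq (S34P1C_hdeg K1 q N' N hq hqN hN)
    (S34V0K_jq_mem A K1 q N' N hq hqN hN) hj (S34V0K_frob_nonunit A K1 q N' N hq hqN hN hA)
    (Fermat.Agent.S34_helper24_QPOWK.S34QPK_hxq A K1 hq hA N')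
    (S35NRK_hchar A K1 hq hA N') hf1 hf2 ha hc hfa hfc

end Fermat.Agent.S35_helper13_NORMREDK
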