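import Mathlib
import Fermat.Agent.S35_helper8_FCCHART
import Fermat.Agent.S34_helper6_STEP1K
import Fermat.Agent.S34_helper4_XCROSS
import Fermat.Agent.S35_helper13_NORMREDK
import Fermat.Agent.S34_helper13_KEY
import Fermat.Agent.S37_helper21_F5e

/-!
# S35, piece GEO-ACTF (helper21): the Galois action of the decomposition group on functions

`τ ∈ D_A` (so `τ = σ`, `σ * σ`, inverses for a Frobenius lift `σ` at `A`), `act := S34ACT_act`.

* `S35AF_unit`, `S35AF_unit'` : `act f / f` is a unit of `V1` and of `V2` for every `f ≠ 0` in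
  `F1`;
* `S35AF_const` : `τ c / c` is a unit of `A` for every constant `c ≠ 0`;
* `S35AF_ord`, `S35AF_ord_Q` : the orders of `act f / f` and `act f / f ^ Q`;
* `S35AF_norm_act` : the norm from level `N` to level `N'` commutes with `act`;
* `S35AF_toric_hyps` : from the two norm relations for `f` to the hypotheses of the toric step
  for `f' = act f / f`.
-/

set_option autoImplicit false
set_option linter.unusedSectionVars false
set_option linter.unusedVariables false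
set_option linter.style.haveILetI false
set_option synthInstance.maxHeartbeats 400000
set_option maxHeartbeats 1600000

open AlgebraicCurve ModularCurve HahnSeries
open Fermat.Agent.S18_helper13_GAUSS Fermat.Agent.S18_helper9_CDefs
  Fermat.Agent.S18_helper25_COREDefs
  Fermat.Agent.S34_helper20_V0 Fermat.Agent.S34_helper20_V0K
  Fermat.Agent.S34_helper21_ACT Fermat.Agent.S35_helper8_FCCHART
  Fermat.Agent.S34_helper27_V3K Fermat.Agent.S37_helper4_B1Defs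
  Fermat.Agent.S34_helper13_KEY

noncomputable section

namespace Fermat.Agent.S35_helper21_ACTF

local notation "Qb" => AlgebraicClosure ℚ
local notation "GQ" => (AlgebraicClosure ℚ ≃ₐ[ℚ] AlgebraicClosure ℚ)

/-! ### Units of a subring and integer powers -/

section Abstract

variable {L : Type*} [Field L]

theorem S35AF_zpow_mem (V : Subring L) {e : L} (he : e ∈ V) (he' : e⁻¹ ∈ V) (a : ℤ) :
    e ^ a ∈ V := by
  rcases Int.eq_nat_or_neg a with ⟨k, rfl | rfl⟩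
  · rw [zpow_natCast]
    exact pow_mem he k
  · rw [zpow_neg, zpow_natCast, ← inv_pow]
    exact pow_mem he' k

theorem S35AF_coe_incl {F' F : Subfield L} (hF : F' ≤ F) (y : ↥F') :
    ((Subfield.inclusion hF y : ↥F) : L) = (y : L) := rfl

end Abstract

variable (A : ValuationSubring Qb) (K1 : IntermediateField ℚ Qb)
  (hstab : ∀ σ : GQ, ∀ x ∈ K1, σ x ∈ K1) [IsDiscreteValuationRing (S18K_O1 A K1)]

/-! ### The uniformiser -/

/-- the decomposition group multiplies `π` by a unit constant of `O` -/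
theorem S35AF_pi (τ : GQ) (hτ : τ ∈ A.decompositionSubgroup ℚ) :
    ∃ e ∈ S18K_O A K1, e⁻¹ ∈ S18K_O A K1 ∧
      S34ACT_act K1 hstab τ (S18K_π A K1) = S18K_π A K1 * e := by
  obtain ⟨hτA, hτA'⟩ := S35FCC_decomp A τ hτ
  have hτi : τ⁻¹ ∈ A.decompositionSubgroup ℚ := (A.decompositionSubgroup ℚ).inv_mem hτ
  obtain ⟨e, he, hπe⟩ := S35FCC_pi A K1 hstab τ hτ
  obtain ⟨e', he', hπe'⟩ := S35FCC_pi A K1 hstab τ⁻¹ hτi
  have hπ0 : S18K_π A K1 ≠ 0 := (S18K_D A K1).πK_ne_zero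
  refine ⟨e, he, ?_, hπe⟩
  -- `π = τ (τ⁻¹ π) = τ (π e') = π e τ(e')`
  have h1 : S34ACT_act K1 hstab τ (S34ACT_act K1 hstab τ⁻¹ (S18K_π A K1)) = S18K_π A K1 :=
    S34ACT_act_act_inv K1 hstab τ _
  rw [hπe', map_mul, hπe, mul_assoc] at h1
  have h2 : e * S34ACT_act K1 hstab τ e' = 1 := by
    have h3 : S18K_π A K1 * (e * S34ACT_act K1 hstab τ e') = S18K_π A K1 * 1 := by
      rw [h1, mul_one]
    exact mul_left_cancel₀ hπ0 h3
  have h4 : e⁻¹ = S34ACT_act K1 hstab τ e' := (eq_inv_of_mul_eq_one_right h2).symm ▸ rfl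
  rw [h4]
  exact S34ACT_mem_O K1 hstab A τ hτA he'

variable (N : ℕ) [NeZero N]

/-! ### `act f / f` is a unit of the Gauss ring -/

/-- **`act f / f` is a unit of `V1`**, for every `f ≠ 0` of the function field -/
theorem S35AF_unit1 (τ : GQ) (hτ : τ ∈ A.decompositionSubgroup ℚ)
    (hOV : S18K_O A K1 ≤ S18K_V A K1 N)
    {f : LaurentSeries K1} (hf : f ∈ modularFunctionFieldFullC K1 N) (hf0 : f ≠ 0) :
    S34ACT_act K1 hstab τ f / f ∈ S18K_V A K1 N ∧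
      (S34ACT_act K1 hstab τ f / f)⁻¹ ∈ S18K_V A K1 N := by
  obtain ⟨hτA, hτA'⟩ := S35FCC_decomp A τ hτ
  obtain ⟨e, he, he', hπe⟩ := S35AF_pi A K1 hstab τ hτ
  obtain ⟨a, f₁, hf₁, hf₁', hf₁0, hfac⟩ :=
    Fermat.Agent.S34_helper6_STEP1K.S34S1K_fac A K1 N hf hf0
  have hπ0 : S18K_π A K1 ≠ 0 := (S18K_D A K1).πK_ne_zero
  have hact : S34ACT_act K1 hstab τ f =
      (S18K_π A K1 * e) ^ a * S34ACT_act K1 hstab τ f₁ := by
    rw [hfac, map_mul, map_zpow₀, hπe]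
  have he0 : e ≠ 0 := by
    rintro rfl
    rw [mul_zero] at hπe
    exact hπ0 ((map_eq_zero_iff _ (S34ACT_act_injective K1 hstab τ)).1 hπe)
  have hkey : S34ACT_act K1 hstab τ f / f = e ^ a * (S34ACT_act K1 hstab τ f₁ * f₁⁻¹) := by
    rw [hact]
    conv_lhs => rw [hfac]
    rw [mul_zpow]
    have hπa : S18K_π A K1 ^ a ≠ 0 := zpow_ne_zero a hπ0
    field_simp
  have hu1 : S34ACT_act K1 hstab τ f₁ ∈ S18K_V A K1 N :=
    S34ACT_mem_V K1 hstab A N τ hτA hf₁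
  have hu2 : (S34ACT_act K1 hstab τ f₁)⁻¹ ∈ S18K_V A K1 N := by
    rw [← map_inv₀]
    exact S34ACT_mem_V K1 hstab A N τ hτA hf₁'
  refine ⟨?_, ?_⟩
  · rw [hkey]
    exact mul_mem (S35AF_zpow_mem _ (hOV he) (hOV he') a) (mul_mem hu1 hf₁')
  · rw [hkey, mul_inv, mul_inv, inv_inv, ← zpow_neg]
    exact mul_mem (S35AF_zpow_mem _ (hOV he) (hOV he') (-a)) (mul_mem hu2 hf₁)

/-! ### `act f / f` is a unit of the second valuation ring -/

section V2

variable (q N' : ℕ) [NeZero N'] [NeZero q] (hq : q.Prime) (hqN : ¬ q ∣ N') (hN : N = q * N')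

/-- `wL` of a nonzero element of the function field is nonzero -/
theorem S35AF_wL_ne_zero {f : LaurentSeries K1} (hf : f ∈ modularFunctionFieldFullC K1 N)
    (hf0 : f ≠ 0) : S34V0_wL (S34V0K_emb K1) q N' N hq hqN hN f ≠ 0 := by
  intro h0
  have h := S34V0_wL_wL (S34V0K_emb K1) q N' N hq hqN hN hf
  rw [h0, S34V0_wL_zero] at h
  exact hf0 h.symm

/-- **(AF3)** `wL` commutes with `f ↦ act f / f` -/
theorem S35AF_wL_act (τ : GQ) {f : LaurentSeries K1}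
    (hf : f ∈ modularFunctionFieldFullC K1 N) :
    S34V0_wL (S34V0K_emb K1) q N' N hq hqN hN (S34ACT_act K1 hstab τ f / f) =
      S34ACT_act K1 hstab τ (S34V0_wL (S34V0K_emb K1) q N' N hq hqN hN f) /
        S34V0_wL (S34V0K_emb K1) q N' N hq hqN hN f := by
  rw [div_eq_mul_inv, div_eq_mul_inv,
    S34V0_wL_mul (S34V0K_emb K1) q N' N hq hqN hN (S34ACT_mem_F1 K1 hstab N τ hf) (inv_mem hf),
    S34V0_wL_inv (S34V0K_emb K1) q N' N hq hqN hN hf, S35FCC_comm]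

/-- **`act f / f` is a unit of `V2`**, for every `f ≠ 0` of the function field -/
theorem S35AF_unit2 (τ : GQ) (hτ : τ ∈ A.decompositionSubgroup ℚ)
    (hOV : S18K_O A K1 ≤ S18K_V A K1 N)
    {f : LaurentSeries K1} (hf : f ∈ modularFunctionFieldFullC K1 N) (hf0 : f ≠ 0) :
    S34ACT_act K1 hstab τ f / f ∈ S34V0K_V A K1 q N' N hq hqN hN ∧
      (S34ACT_act K1 hstab τ f / f)⁻¹ ∈ S34V0K_V A K1 q N' N hq hqN hN := by
  have hgF : S34ACT_act K1 hstab τ f / f ∈ modularFunctionFieldFullC K1 N :=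
    div_mem (S34ACT_mem_F1 K1 hstab N τ hf) hf
  have hw := S35AF_unit1 A K1 hstab N τ hτ hOV
    (S34V0_wL_mem (S34V0K_emb K1) q N' N hq hqN hN f)
    (S35AF_wL_ne_zero K1 N q N' hq hqN hN hf hf0)
  rw [← S35AF_wL_act K1 hstab N q N' hq hqN hN τ hf] at hw
  refine ⟨(S34V0K_mem_V A K1 q N' N hq hqN hN).2 ⟨hgF, hw.1⟩,
    (S34V0K_mem_V A K1 q N' N hq hqN hN).2 ⟨inv_mem hgF, ?_⟩⟩
  rw [S34V0_wL_inv (S34V0K_emb K1) q N' N hq hqN hN hgF]
  exact hw.2

/-- **(AF1)** `act f / f` is a unit of `V1` and of `V2`, for every `f ≠ 0` of the function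
field and every `τ` of the decomposition group -/
theorem S35AF_unit (hA : A.LiesOverPrime q) (τ : GQ) (hτ : τ ∈ A.decompositionSubgroup ℚ)
    {f : LaurentSeries K1} (hf : f ∈ modularFunctionFieldFullC K1 N) (hf0 : f ≠ 0) :
    S34ACT_act K1 hstab τ f / f ∈ modularFunctionFieldFullC K1 N ∧
      S34ACT_act K1 hstab τ f / f ≠ 0 ∧
      S34ACT_act K1 hstab τ f / f ∈ S18K_V A K1 N ∧
      (S34ACT_act K1 hstab τ f / f)⁻¹ ∈ S18K_V A K1 N ∧
      S34ACT_act K1 hstab τ f / f ∈ S34V0K_V A K1 q N' N hq hqN hN ∧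
      (S34ACT_act K1 hstab τ f / f)⁻¹ ∈ S34V0K_V A K1 q N' N hq hqN hN := by
  have hOV : S18K_O A K1 ≤ S18K_V A K1 N := fun e he =>
    (S35FCC_O_le A K1 q N' N hq hqN hN hA he).2.1
  have h1 := S35AF_unit1 A K1 hstab N τ hτ hOV hf hf0
  have h2 := S35AF_unit2 A K1 hstab N q N' hq hqN hN τ hτ hOV hf hf0
  have hne : S34ACT_act K1 hstab τ f / f ≠ 0 :=
    div_ne_zero (fun h => hf0 ((map_eq_zero_iff _ (S34ACT_act_injective K1 hstab τ)).1 h)) hf0
  exact ⟨div_mem (S34ACT_mem_F1 K1 hstab N τ hf) hf, hne, h1.1, h1.2, h2.1, h2.2⟩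

end V2

/-! ### Constants -/

section Const

/-- a constant of the Gauss ring is integral -/
theorem S35AF_C_mem {c : K1} (h : HahnSeries.C c ∈ (S18K_D A K1).Vring) : (c : Qb) ∈ A := by
  obtain ⟨α, β, hβ, hmul⟩ := h
  -- a coefficient of `β` with nonzero residue
  obtain ⟨n, hn⟩ : ∃ n : ℤ, ((S18K_D A K1).redS β).coeff n ≠ 0 := by
    by_contra hcon
    refine hβ (HahnSeries.ext (funext fun n => ?_))
    by_contra hne
    exact hcon ⟨n, hne⟩
  have hn' : (S18K_D A K1).res (β.coeff n) ≠ 0 := by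
    have e : ((S18K_D A K1).redS β).coeff n = (S18K_D A K1).res (β.coeff n) :=
      coeffMap_coeff _ _ _
    rwa [e] at hn
  have hu : IsUnit (β.coeff n) := by
    by_contra hnu
    apply hn'
    show S18K_res A K1 (β.coeff n) = 0
    rw [S18K_res_eq_zero_iff, IsLocalRing.mem_maximalIdeal, mem_nonunits_iff]
    exact hnu
  obtain ⟨u, hu⟩ := hu
  -- compare the coefficients
  have h1 := congrArg (fun z : LaurentSeries K1 => z.coeff n) hmul
  have e1 : ((S18K_D A K1).incS β * HahnSeries.C c).coeff n =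
      ((S18K_D A K1).incS β).coeff n * c := by
    rw [HahnSeries.C_apply]
    have := HahnSeries.coeff_mul_single_add (x := (S18K_D A K1).incS β) (a := n) (b := (0 : ℤ))
      (r := c)
    rw [add_zero] at this
    exact this
  have e2 : ((S18K_D A K1).incS β).coeff n = (S18K_D A K1).inc (β.coeff n) :=
    coeffMap_coeff _ _ _
  have e3 : ((S18K_D A K1).incS α).coeff n = (S18K_D A K1).inc (α.coeff n) :=
    coeffMap_coeff _ _ _
  simp only [e1, e2, e3] at h1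
  have h2 : (((β.coeff n : S18K_O1 A K1) : K1)) * c = ((α.coeff n : S18K_O1 A K1) : K1) := h1
  have h3 : c = (((↑(u⁻¹ : (S18K_O1 A K1)ˣ) * α.coeff n : S18K_O1 A K1) : S18K_O1 A K1) : K1) := by
    have h4 : (((↑(u⁻¹ : (S18K_O1 A K1)ˣ) : S18K_O1 A K1) : K1)) *
        ((β.coeff n : S18K_O1 A K1) : K1) = 1 := by
      have := congrArg (fun z : S18K_O1 A K1 => (z : K1)) (show
        (↑(u⁻¹ : (S18K_O1 A K1)ˣ) : S18K_O1 A K1) * β.coeff n = 1 by
          rw [← hu]; exact u.inv_mul)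
      simpa using this
    calc c = ((((↑(u⁻¹ : (S18K_O1 A K1)ˣ) : S18K_O1 A K1) : K1)) *
          ((β.coeff n : S18K_O1 A K1) : K1)) * c := by rw [h4, one_mul]
      _ = (((↑(u⁻¹ : (S18K_O1 A K1)ˣ) : S18K_O1 A K1) : K1)) *
          ((α.coeff n : S18K_O1 A K1) : K1) := by rw [mul_assoc, h2]
      _ = _ := rfl
  rw [h3]
  exact (↑(u⁻¹ : (S18K_O1 A K1)ˣ) * α.coeff n : S18K_O1 A K1).2

variable (q N' : ℕ) [NeZero N'] [NeZero q] (hq : q.Prime) (hqN : ¬ q ∣ N') (hN : N = q * N')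

include N q N' hq hqN hN in
/-- **(AF1c)** `τ c / c` is a unit of `A`, for every constant `c ≠ 0` and every `τ` of the
decomposition group -/
theorem S35AF_const (hA : A.LiesOverPrime q) (τ : GQ) (hτ : τ ∈ A.decompositionSubgroup ℚ)
    {c : K1} (hc : c ≠ 0) :
    ((S34ACT_res K1 hstab τ c / c : K1) : Qb) ∈ A ∧
      (((S34ACT_res K1 hstab τ c / c : K1)⁻¹ : K1) : Qb) ∈ A := by
  have hCF : HahnSeries.C c ∈ modularFunctionFieldFullC K1 N := S34V0_C_mem N c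
  have hC0 : (HahnSeries.C c : LaurentSeries K1) ≠ 0 := by
    intro h
    exact hc (HahnSeries.C_injective (by rw [h, map_zero]))
  obtain ⟨-, -, h1, h1', -, -⟩ := S35AF_unit A K1 hstab N q N' hq hqN hN hA τ hτ hCF hC0
  have e : S34ACT_act K1 hstab τ (HahnSeries.C c) / HahnSeries.C c =
      HahnSeries.C (S34ACT_res K1 hstab τ c / c) := by
    rw [S34ACT_act_C, map_div₀]
  rw [e] at h1 h1'
  rw [← map_inv₀] at h1'
  exact ⟨S35AF_C_mem A K1 h1.1, S35AF_C_mem A K1 h1'.1⟩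

end Const

/-! ### Orders -/

section Ord

variable (τ : GQ)

/-- `ord_P (act x) = ord_(τ⁻¹ P) x` -/
theorem S35AF_ordP_act (P : Place Qb (modularFunctionFieldBar N)) (x : LaurentSeries K1) :
    S37B1_ordP N K1 P (S34ACT_act K1 hstab τ x) =
      S37B1_ordP N K1 ((arithmeticGalois (modularFunctionFieldFull N) τ)⁻¹ • P) x := by
  have h := S34ACT_ordP K1 hstab N τ ((arithmeticGalois (modularFunctionFieldFull N) τ)⁻¹ • P) x
  rwa [smul_inv_smul] at h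

/-- **(AF2)** the divisor of `act f / f` is `n (τ D - D)` if the divisor of `f` is `n D` -/
theorem S35AF_ord {f : LaurentSeries K1} (hf : f ∈ modularFunctionFieldFullC K1 N) (hf0 : f ≠ 0)
    (n : ℤ) (D : Divisor Qb (modularFunctionFieldBar N))
    (hdiv : ∀ P, S37B1_ordP N K1 P f = n * D P) :
    ∀ P, S37B1_ordP N K1 P (S34ACT_act K1 hstab τ f / f) =
      n * (arithmeticGalois (modularFunctionFieldFull N) τ • D - D) P := by
  intro P
  have haF := S34ACT_mem_F1 K1 hstab N τ hf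
  have ha0 : S34ACT_act K1 hstab τ f ≠ 0 := fun h =>
    hf0 ((map_eq_zero_iff _ (S34ACT_act_injective K1 hstab τ)).1 h)
  rw [div_eq_mul_inv, Fermat.Agent.S34_helper4_XCROSS.S34XC_ordP_mul N K1 P haF (inv_mem hf) ha0
    (inv_ne_zero hf0), Fermat.Agent.S34_helper4_XCROSS.S34XC_ordP_inv N K1 P hf,
    S35AF_ordP_act, hdiv, hdiv, Finsupp.sub_apply, SemilinearAut.divisor_smul_apply]
  ring

/-- **(AF2)** the divisor of `act f / f ^ Q` is `n (τ D - Q D)` if the divisor of `f` is `n D` -/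
theorem S35AF_ord_Q {f : LaurentSeries K1} (hf : f ∈ modularFunctionFieldFullC K1 N)
    (hf0 : f ≠ 0) (Q : ℕ)
    (n : ℤ) (D : Divisor Qb (modularFunctionFieldBar N))
    (hdiv : ∀ P, S37B1_ordP N K1 P f = n * D P) :
    ∀ P, S37B1_ordP N K1 P (S34ACT_act K1 hstab τ f / f ^ Q) =
      n * (arithmeticGalois (modularFunctionFieldFull N) τ • D - (Q : ℤ) • D) P := by
  intro P
  have haF := S34ACT_mem_F1 K1 hstab N τ hf
  have ha0 : S34ACT_act K1 hstab τ f ≠ 0 := fun h =>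
    hf0 ((map_eq_zero_iff _ (S34ACT_act_injective K1 hstab τ)).1 h)
  rw [div_eq_mul_inv, Fermat.Agent.S34_helper4_XCROSS.S34XC_ordP_mul N K1 P haF
    (inv_mem (pow_mem hf Q)) ha0 (inv_ne_zero (pow_ne_zero Q hf0)),
    Fermat.Agent.S34_helper4_XCROSS.S34XC_ordP_inv N K1 P (pow_mem hf Q),
    Fermat.Agent.S34_helper4_XCROSS.S34XC_ordP_pow N K1 P hf hf0,
    S35AF_ordP_act, hdiv, hdiv, Finsupp.sub_apply, SemilinearAut.divisor_smul_apply,
    Finsupp.smul_apply, smul_eq_mul]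
  ring

end Ord

/-! ### The norm commutes with the action -/

section Norm

variable (q N' : ℕ) [NeZero N'] [NeZero q] (hq : q.Prime) (hqN : ¬ q ∣ N') (hN : N = q * N')
  (τ : GQ)

/-- `act` as a ring automorphism of the function field of level `M` -/
def S35AF_actE (M : ℕ) [NeZero M] : ↥(S18K_F1 K1 M) ≃+* ↥(S18K_F1 K1 M) where
  toFun x := ⟨S34ACT_act K1 hstab τ (x : LaurentSeries K1), S34ACT_mem_F1 K1 hstab M τ x.2⟩
  invFun x := ⟨S34ACT_act K1 hstab τ⁻¹ (x : LaurentSeries K1), S34ACT_mem_F1 K1 hstab M τ⁻¹ x.2⟩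
  left_inv x := Subtype.ext (S34ACT_act_inv_act K1 hstab τ _)
  right_inv x := Subtype.ext (S34ACT_act_act_inv K1 hstab τ _)
  map_mul' x y := Subtype.ext (map_mul _ _ _)
  map_add' x y := Subtype.ext (map_add _ _ _)

theorem S35AF_actE_coe (M : ℕ) [NeZero M] (x : ↥(S18K_F1 K1 M)) :
    ((S35AF_actE K1 hstab τ M x : ↥(S18K_F1 K1 M)) : LaurentSeries K1) =
      S34ACT_act K1 hstab τ (x : LaurentSeries K1) := rfl

/-- **(AF3)** the norm from level `N` to level `N'` commutes with the Galois action -/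
theorem S35AF_norm_act (hF : S18K_F1 K1 N' ≤ S18K_F1 K1 N) (x : ↥(S18K_F1 K1 N)) :
    letI := Fermat.Agent.S34_helper13_KEY.S34KEY_alg hF
    Algebra.norm ↥(S18K_F1 K1 N') (S35AF_actE K1 hstab τ N x) =
      S35AF_actE K1 hstab τ N' (Algebra.norm ↥(S18K_F1 K1 N') x) := by
  letI := Fermat.Agent.S34_helper13_KEY.S34KEY_alg hF
  have he : RingHom.comp (algebraMap ↥(S18K_F1 K1 N') ↥(S18K_F1 K1 N))
      ((S35AF_actE K1 hstab τ N' : ↥(S18K_F1 K1 N') ≃+* ↥(S18K_F1 K1 N')) :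
        ↥(S18K_F1 K1 N') →+* ↥(S18K_F1 K1 N')) =
      RingHom.comp ((S35AF_actE K1 hstab τ N : ↥(S18K_F1 K1 N) ≃+* ↥(S18K_F1 K1 N)) :
        ↥(S18K_F1 K1 N) →+* ↥(S18K_F1 K1 N)) (algebraMap ↥(S18K_F1 K1 N') ↥(S18K_F1 K1 N)) := by
    refine RingHom.ext fun y => Subtype.ext ?_
    rw [RingHom.comp_apply, RingHom.comp_apply, RingEquiv.coe_toRingHom,
      RingEquiv.coe_toRingHom, S35AF_actE_coe, RingHom.algebraMap_toAlgebra,
      S35AF_coe_incl, S35AF_coe_incl, S35AF_actE_coe]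
  have h := Algebra.norm_eq_of_equiv_equiv (S35AF_actE K1 hstab τ N') (S35AF_actE K1 hstab τ N)
    he x
  rw [h, RingEquiv.apply_symm_apply]

end Norm

/-! ### From the norm relations for `f` to the hypotheses of the toric step for `act f * f⁻¹` -/

section Wrapper

variable (q N' : ℕ) [NeZero N'] [NeZero q] (hq : q.Prime) (hqN : ¬ q ∣ N') (hN : N = q * N')
  (τ : GQ)

/-- the constants of `O` lie in the Gauss ring of every level -/
theorem S35AF_O_le (M : ℕ) [NeZero M] : S18K_O A K1 ≤ S18K_V A K1 M := by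
  intro e he
  obtain ⟨c, hc, rfl⟩ := (S18K_mem_O A K1 _).1 he
  exact ⟨Fermat.Agent.S37_helper21_F5e.S37F5e_O_le_Vring K1 A he, S34V0_C_mem M c⟩

/-- the norm of `act x * x⁻¹` -/
theorem S35AF_norm_quot (hF : S18K_F1 K1 N' ≤ S18K_F1 K1 N) (n : ℕ) (x : ↥(S18K_F1 K1 N))
    (hx0 : x ≠ 0) (c : K1) (hc : c ≠ 0) (h : LaurentSeries K1) (hh0 : h ≠ 0)
    (hnorm : letI := Fermat.Agent.S34_helper13_KEY.S34KEY_alg hF
      ((Algebra.norm ↥(S18K_F1 K1 N') x : ↥(S18K_F1 K1 N')) : LaurentSeries K1) =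
        HahnSeries.C c * h ^ n) :
    letI := Fermat.Agent.S34_helper13_KEY.S34KEY_alg hF
    ((Algebra.norm ↥(S18K_F1 K1 N') (S35AF_actE K1 hstab τ N x * x⁻¹) : ↥(S18K_F1 K1 N')) :
        LaurentSeries K1) =
      HahnSeries.C (S34ACT_res K1 hstab τ c / c) * (S34ACT_act K1 hstab τ h * h⁻¹) ^ n := by
  letI := Fermat.Agent.S34_helper13_KEY.S34KEY_alg hF
  have hC0 : (HahnSeries.C c : LaurentSeries K1) ≠ 0 := fun h0 =>
    hc (HahnSeries.C_injective (by rw [h0, map_zero]))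
  have hN0 : (HahnSeries.C c : LaurentSeries K1) * h ^ n ≠ 0 :=
    mul_ne_zero hC0 (pow_ne_zero n hh0)
  have e1 : Algebra.norm ↥(S18K_F1 K1 N') (S35AF_actE K1 hstab τ N x * x⁻¹) *
      Algebra.norm ↥(S18K_F1 K1 N') x = Algebra.norm ↥(S18K_F1 K1 N') (S35AF_actE K1 hstab τ N x) := by
    rw [← map_mul, mul_assoc, inv_mul_cancel₀ hx0, mul_one]
  rw [S35AF_norm_act K1 hstab N N' τ hF x] at e1
  have e2 := congrArg (fun z : ↥(S18K_F1 K1 N') => (z : LaurentSeries K1)) e1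
  simp only [Subfield.coe_mul, S35AF_actE_coe] at e2
  rw [hnorm] at e2
  have e3 : S34ACT_act K1 hstab τ (HahnSeries.C c * h ^ n) =
      HahnSeries.C (S34ACT_res K1 hstab τ c) * (S34ACT_act K1 hstab τ h) ^ n := by
    rw [map_mul, map_pow, S34ACT_act_C]
  rw [e3] at e2
  have e4 : ((Algebra.norm ↥(S18K_F1 K1 N') (S35AF_actE K1 hstab τ N x * x⁻¹) :
      ↥(S18K_F1 K1 N')) : LaurentSeries K1) =
      HahnSeries.C (S34ACT_res K1 hstab τ c) * (S34ACT_act K1 hstab τ h) ^ n *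
        (HahnSeries.C c * h ^ n)⁻¹ := by
    rw [← e2, mul_assoc, mul_inv_cancel₀ hN0, mul_one]
  rw [e4, map_div₀, mul_pow, inv_pow]
  field_simp

/-- **(AF4)** from the two norm relations for `f` (the output of NORM-BRIDGE) to the hypothesis
list of the toric step for `f' = act f * f⁻¹` -/
theorem S35AF_toric_hyps (hA : A.LiesOverPrime q) (hτ : τ ∈ A.decompositionSubgroup ℚ) (n : ℕ)
    {f : LaurentSeries K1} (hf : f ∈ S18K_F1 K1 N) (hf0 : f ≠ 0)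
    (hα : letI := S34KEY_alg (S34V3K_F1_mono K1 (S34V0K_dvd hN))
      ∃ c₁ : K1, c₁ ≠ 0 ∧ ∃ h₁ ∈ modularFunctionFieldFullC K1 N', h₁ ≠ 0 ∧
        ((Algebra.norm ↥(S18K_F1 K1 N') (⟨f, hf⟩ : ↥(S18K_F1 K1 N)) : ↥(S18K_F1 K1 N')) :
          LaurentSeries K1) = HahnSeries.C c₁ * h₁ ^ n)
    (hβ : letI := S34KEY_alg (S34V3K_F1_mono K1 (S34V0K_dvd hN))
      ∃ c₂ : K1, c₂ ≠ 0 ∧ ∃ h₂ ∈ modularFunctionFieldFullC K1 N', h₂ ≠ 0 ∧
        ((Algebra.norm ↥(S18K_F1 K1 N')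
          (⟨S34V0_wL (S34V0K_emb K1) q N' N hq hqN hN f,
            S34V0_wL_mem (S34V0K_emb K1) q N' N hq hqN hN f⟩ : ↥(S18K_F1 K1 N)) :
            ↥(S18K_F1 K1 N')) : LaurentSeries K1) = HahnSeries.C c₂ * h₂ ^ n) :
    letI := S34KEY_alg (S34V3K_F1_mono K1 (S34V0K_dvd hN))
    ∃ (hf1 : S34ACT_act K1 hstab τ f * f⁻¹ ∈ S18K_V A K1 N)
      (hf1' : (S34ACT_act K1 hstab τ f * f⁻¹)⁻¹ ∈ S18K_V A K1 N)
      (hf2 : S34ACT_act K1 hstab τ f * f⁻¹ ∈ S34V0K_V A K1 q N' N hq hqN hN)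
      (hf2' : (S34ACT_act K1 hstab τ f * f⁻¹)⁻¹ ∈ S34V0K_V A K1 q N' N hq hqN hN),
    ∃ g1 g2 : LaurentSeries K1, g1 ∈ S18K_V A K1 N' ∧ g1⁻¹ ∈ S18K_V A K1 N' ∧
      g2 ∈ S18K_V A K1 N' ∧ g2⁻¹ ∈ S18K_V A K1 N' ∧
    ∃ γ1 γ2 : K1, (γ1 : Qb) ∈ A ∧ ((γ1 : Qb))⁻¹ ∈ A ∧ (γ2 : Qb) ∈ A ∧ ((γ2 : Qb))⁻¹ ∈ A ∧
      ((Algebra.norm ↥(S18K_F1 K1 N')
        (⟨S34ACT_act K1 hstab τ f * f⁻¹, hf1.2⟩ : ↥(S18K_F1 K1 N)) : ↥(S18K_F1 K1 N')) :
          LaurentSeries K1) = HahnSeries.C γ1 * g1 ^ n ∧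
      ((Algebra.norm ↥(S18K_F1 K1 N')
        (⟨S34V0_wL (S34V0K_emb K1) q N' N hq hqN hN (S34ACT_act K1 hstab τ f * f⁻¹),
          S34V0_wL_mem (S34V0K_emb K1) q N' N hq hqN hN (S34ACT_act K1 hstab τ f * f⁻¹)⟩ :
            ↥(S18K_F1 K1 N)) : ↥(S18K_F1 K1 N')) : LaurentSeries K1) =
        HahnSeries.C γ2 * g2 ^ n := by
  letI := Fermat.Agent.S34_helper13_KEY.S34KEY_alg (S34V3K_F1_mono K1 (S34V0K_dvd hN))
  obtain ⟨c₁, hc₁, h₁, hh₁, hh₁0, hn₁⟩ := hα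
  obtain ⟨c₂, hc₂, h₂, hh₂, hh₂0, hn₂⟩ := hβ
  obtain ⟨-, -, u1, u1', u2, u2'⟩ := S35AF_unit A K1 hstab N q N' hq hqN hN hA τ hτ hf hf0
  rw [div_eq_mul_inv] at u1 u1' u2 u2'
  -- the units of level `N'`
  have hg : ∀ h ∈ modularFunctionFieldFullC K1 N', h ≠ 0 →
      S34ACT_act K1 hstab τ h * h⁻¹ ∈ S18K_V A K1 N' ∧
        (S34ACT_act K1 hstab τ h * h⁻¹)⁻¹ ∈ S18K_V A K1 N' := by
    intro h hh hh0
    have := S35AF_unit1 A K1 hstab N' τ hτ (S35AF_O_le A K1 N') hh hh0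
    rwa [div_eq_mul_inv] at this
  -- the constants
  have hγ : ∀ c : K1, c ≠ 0 → ((S34ACT_res K1 hstab τ c / c : K1) : Qb) ∈ A ∧
      (((S34ACT_res K1 hstab τ c / c : K1) : Qb))⁻¹ ∈ A := by
    intro c hc
    obtain ⟨k1, k2⟩ := S35AF_const A K1 hstab N q N' hq hqN hN hA τ hτ hc
    refine ⟨k1, ?_⟩
    have e : (((S34ACT_res K1 hstab τ c / c : K1)⁻¹ : K1) : Qb) =
        (((S34ACT_res K1 hstab τ c / c : K1) : Qb))⁻¹ := by
      push_cast
      rfl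
    rwa [e] at k2
  refine ⟨u1, u1', u2, u2', _, _, (hg h₁ hh₁ hh₁0).1, (hg h₁ hh₁ hh₁0).2,
    (hg h₂ hh₂ hh₂0).1, (hg h₂ hh₂ hh₂0).2, _, _, (hγ c₁ hc₁).1, (hγ c₁ hc₁).2,
    (hγ c₂ hc₂).1, (hγ c₂ hc₂).2, ?_, ?_⟩
  · have h := S35AF_norm_quot K1 hstab N N' τ (S34V3K_F1_mono K1 (S34V0K_dvd hN)) n
      ⟨f, hf⟩ (fun h0 => hf0 (congrArg Subtype.val h0)) c₁ hc₁ h₁ hh₁0 hn₁
    exact h
  · have h := S35AF_norm_quot K1 hstab N N' τ (S34V3K_F1_mono K1 (S34V0K_dvd hN)) n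
      ⟨S34V0_wL (S34V0K_emb K1) q N' N hq hqN hN f,
        S34V0_wL_mem (S34V0K_emb K1) q N' N hq hqN hN f⟩
      (fun h0 => S35AF_wL_ne_zero K1 N q N' hq hqN hN hf hf0 (congrArg Subtype.val h0))
      c₂ hc₂ h₂ hh₂0 hn₂
    have e : (⟨S34V0_wL (S34V0K_emb K1) q N' N hq hqN hN (S34ACT_act K1 hstab τ f * f⁻¹),
        S34V0_wL_mem (S34V0K_emb K1) q N' N hq hqN hN (S34ACT_act K1 hstab τ f * f⁻¹)⟩ :
          ↥(S18K_F1 K1 N)) =
        S35AF_actE K1 hstab τ N ⟨S34V0_wL (S34V0K_emb K1) q N' N hq hqN hN f,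
          S34V0_wL_mem (S34V0K_emb K1) q N' N hq hqN hN f⟩ *
        (⟨S34V0_wL (S34V0K_emb K1) q N' N hq hqN hN f,
          S34V0_wL_mem (S34V0K_emb K1) q N' N hq hqN hN f⟩ : ↥(S18K_F1 K1 N))⁻¹ := by
      apply Subtype.ext
      have := S35AF_wL_act K1 hstab N q N' hq hqN hN τ hf
      rw [div_eq_mul_inv, div_eq_mul_inv] at this
      show S34V0_wL (S34V0K_emb K1) q N' N hq hqN hN (S34ACT_act K1 hstab τ f * f⁻¹) = _
      rw [this, Subfield.coe_mul, Subfield.coe_inv, S35AF_actE_coe]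
    rw [e]
    exact h

end Wrapper

end Fermat.Agent.S35_helper21_ACTF
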