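import Mathlib
import Fermat.Agent.S35_helper27_XD2Defs

/-!
# S35, X-D-FROB Part III: the field `toric` of `S35XD2_Contract` (hypothesis form)

`S35TX_Hyps A K1 hq N' hqN n f'` : the hypothesis list of helper15's landed `S35TOR_main` for the
function `f'` (at `N := N' * q`, `hN := Nat.mul_comm N' q`): `f'` is a unit of `V1` and of `V2`
and its two norms to the level `N'` are `C γ_i * g_i ^ n` with `γ_i` units of `A` and `g_i` units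
of the Gauss ring `V'` of level `N'`.

`S35TX_toric_of` : if `f' = act σ f0 / f0` satisfies `S35TX_Hyps` for every new `f0 ≠ 0`
(= helper21's ACTF (AF4)), then the field `toric` of helper27's `S35XD2_Contract` holds,
verbatim.
-/

set_option autoImplicit false
set_option linter.unusedSectionVars false
set_option linter.unusedVariables false
set_option linter.style.haveILetI false
set_option synthInstance.maxHeartbeats 400000
set_option maxHeartbeats 1600000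

open AlgebraicCurve ModularCurve HahnSeries IntermediateField
open Fermat.Agent.S18_helper9_CDefs Fermat.Agent.S18_helper25_COREDefs
  Fermat.Agent.S34_helper12_CDefs Fermat.Agent.S34_helper5_K0
  Fermat.Agent.S34_helper21_ACT
  Fermat.Agent.S34_helper20_V0 Fermat.Agent.S34_helper20_V0K
  Fermat.Agent.S34_helper27_V3K Fermat.Agent.S34_helper13_KEY
  Fermat.Agent.S34_helper27_P1C Fermat.Agent.S34_helper25_Defs
  Fermat.Agent.S35_helper15_TORIC Fermat.Agent.S35_helper27_XD2Defs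

noncomputable section

namespace Fermat.Agent.S35_helper4_TORICX

local notation "Qb" => AlgebraicClosure ℚ
local notation "GQ" => (AlgebraicClosure ℚ ≃ₐ[ℚ] AlgebraicClosure ℚ)

variable (A : ValuationSubring Qb) (K1 : IntermediateField ℚ Qb)
  (hstab : ∀ σ : GQ, ∀ x ∈ K1, σ x ∈ K1) [IsDiscreteValuationRing (S18K_O1 A K1)]
  {q : ℕ} (hq : q.Prime) (N' : ℕ) [NeZero N'] [NeZero (N' * q)] (hqN : ¬ q ∣ N') (σ : GQ)

/-- **the hypothesis list of `S35TOR_main`** for a function `f'` (level `N' * q`). -/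
def S35TX_Hyps (n : ℕ) (f' : LaurentSeries K1) : Prop :=
  ∃ hf1 : f' ∈ S18K_V A K1 (N' * q),
    f'⁻¹ ∈ S18K_V A K1 (N' * q) ∧
    f' ∈ S34V0K_V A K1 q N' (N' * q) hq hqN (Nat.mul_comm N' q) ∧
    f'⁻¹ ∈ S34V0K_V A K1 q N' (N' * q) hq hqN (Nat.mul_comm N' q) ∧
    ∃ g1 g2 : LaurentSeries K1,
      g1 ∈ S18K_V A K1 N' ∧ g1⁻¹ ∈ S18K_V A K1 N' ∧
      g2 ∈ S18K_V A K1 N' ∧ g2⁻¹ ∈ S18K_V A K1 N' ∧
    ∃ γ1 γ2 : K1, (γ1 : Qb) ∈ A ∧ ((γ1 : Qb))⁻¹ ∈ A ∧ (γ2 : Qb) ∈ A ∧ ((γ2 : Qb))⁻¹ ∈ A ∧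
      (letI := S34KEY_alg (S34V3K_F1_mono K1 (S34V0K_dvd (Nat.mul_comm N' q)));
        ((Algebra.norm ↥(S18K_F1 K1 N') (⟨f', hf1.2⟩ : ↥(S18K_F1 K1 (N' * q))) :
          ↥(S18K_F1 K1 N')) : LaurentSeries K1) = HahnSeries.C γ1 * g1 ^ n) ∧
      (letI := S34KEY_alg (S34V3K_F1_mono K1 (S34V0K_dvd (Nat.mul_comm N' q)));
        ((Algebra.norm ↥(S18K_F1 K1 N')
          (⟨S34V0_wL (S34V0K_emb K1) q N' (N' * q) hq hqN (Nat.mul_comm N' q) f',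
            S34V0_wL_mem (S34V0K_emb K1) q N' (N' * q) hq hqN (Nat.mul_comm N' q) f'⟩ :
              ↥(S18K_F1 K1 (N' * q))) : ↥(S18K_F1 K1 N')) : LaurentSeries K1) =
          HahnSeries.C γ2 * g2 ^ n)

/-- a unit constant of `A` in `K1` gives a unit of `S18K_O`. -/
theorem S35TX_C_mem_O {c : K1} (hc : (c : Qb) ∈ A) :
    (HahnSeries.C c : LaurentSeries K1) ∈ S18K_O A K1 :=
  (S18K_mem_O A K1 _).2 ⟨c, hc, rfl⟩

theorem S35TX_C_inv_mem_O {c : K1} (hc' : ((c : Qb))⁻¹ ∈ A) :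
    (HahnSeries.C c : LaurentSeries K1)⁻¹ ∈ S18K_O A K1 := by
  rw [← map_inv₀]
  refine (S18K_mem_O A K1 _).2 ⟨c⁻¹, ?_, rfl⟩
  rw [IntermediateField.coe_inv]
  exact hc'

/-- **the field `toric` of `S35XD2_Contract`, from the hypotheses of `S35TOR_main` for
`f' = act σ f0 / f0`** (ACTF (AF4)). -/
theorem S35TX_toric_of (hA : A.LiesOverPrime q) (hσ : A.IsFrobeniusAt σ q)
    (hAF4 : ∀ (n : ℕ) (f0 : LaurentSeries K1) (hf0 : f0 ∈ S18K_F1 K1 (N' * q)), f0 ≠ 0 →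
      S35XD2_NewAlpha K1 q N' n f0 hf0 → S35XD2_NewBeta K1 q N' hq hqN n f0 →
      S35TX_Hyps A K1 hq N' hqN n (S34ACT_act K1 hstab σ f0 * f0⁻¹)) :
    ∀ (n : ℕ) (f0 : LaurentSeries K1) (hf0 : f0 ∈ S18K_F1 K1 (N' * q)), f0 ≠ 0 →
    S35XD2_NewAlpha K1 q N' n f0 hf0 → S35XD2_NewBeta K1 q N' hq hqN n f0 →
    ∃ c1 c2 H1 H2 : LaurentSeries K1,
      c1 ∈ S18K_O A K1 ∧ c1⁻¹ ∈ S18K_O A K1 ∧ c2 ∈ S18K_O A K1 ∧ c2⁻¹ ∈ S18K_O A K1 ∧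
      H1 ∈ S18K_F1 K1 (N' * q) ∧ H2 ∈ S18K_F1 K1 (N' * q) ∧
      H1 ∈ (S18K_V A K1 (N' * q) ⊓ S34P1C_V2 A K1 hq N' hqN : Subring (LaurentSeries K1)) ∧
      H1⁻¹ ∈ (S18K_V A K1 (N' * q) ⊓ S34P1C_V2 A K1 hq N' hqN : Subring (LaurentSeries K1)) ∧
      H2 ∈ (S18K_V A K1 (N' * q) ⊓ S34P1C_V2 A K1 hq N' hqN : Subring (LaurentSeries K1)) ∧
      H2⁻¹ ∈ (S18K_V A K1 (N' * q) ⊓ S34P1C_V2 A K1 hq N' hqN : Subring (LaurentSeries K1)) ∧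
      (∃ v ∈ S18K_V A K1 (N' * q),
        S35XD2_f2 K1 hstab σ f0 = c1 * H1 ^ n * (1 + S18K_π A K1 * v)) ∧
      (∃ v ∈ S34P1C_V2 A K1 hq N' hqN,
        S35XD2_f2 K1 hstab σ f0 = c2 * H2 ^ n * (1 + S18K_π A K1 * v)) := by
  intro n f0 hf0 hf00 hα hβ
  haveI : NeZero q := ⟨hq.ne_zero⟩
  obtain ⟨hf1, hf1', hf2, hf2', g1, g2, hg1, hg1', hg2, hg2', γ1, γ2, hγ1, hγ1', hγ2, hγ2',
    eα, eβ⟩ := hAF4 n f0 hf0 hf00 hα hβ
  obtain ⟨c1, c2, hc1, hc1', hc2, hc2', H1, H2, hH1F, hH2F, hH1, hH1', hH2, hH2',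
    ⟨v1, hv1, e1⟩, ⟨v2, hv2, e2⟩⟩ :=
    S35TOR_main A K1 hstab q N' (N' * q) hq hqN (Nat.mul_comm N' q) hA σ hσ n hf1 hf1' hf2 hf2'
      hg1 hg1' hg2 hg2' hγ1 hγ1' hγ2 hγ2' eα eβ
  have hf'0 : S34ACT_act K1 hstab σ f0 * f0⁻¹ ≠ 0 :=
    mul_ne_zero ((map_ne_zero (S34ACT_act K1 hstab σ)).2 hf00) (inv_ne_zero hf00)
  have key : ∀ (c : K1) (H v : LaurentSeries K1),
      S34ACT_act K1 hstab σ (S34ACT_act K1 hstab σ (S34ACT_act K1 hstab σ f0 * f0⁻¹)) =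
        (S34ACT_act K1 hstab σ f0 * f0⁻¹) * (HahnSeries.C c * H ^ n) *
          (1 + S18K_π A K1 * v) →
      S35XD2_f2 K1 hstab σ f0 = HahnSeries.C c * H ^ n * (1 + S18K_π A K1 * v) := by
    intro c H v e
    unfold S35XD2_f2 S35XD2_d
    have aux : ∀ F X Y : LaurentSeries K1, F ≠ 0 → F * X * Y * F⁻¹ = X * Y := by
      intro F X Y hF
      rw [mul_assoc F X Y, mul_comm F (X * Y), mul_assoc, mul_inv_cancel₀ hF, mul_one]
    rw [S34ACT_act_mul, e]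
    exact aux _ _ _ hf'0
  exact ⟨HahnSeries.C c1, HahnSeries.C c2, H1, H2,
    S35TX_C_mem_O A K1 hc1, S35TX_C_inv_mem_O A K1 hc1',
    S35TX_C_mem_O A K1 hc2, S35TX_C_inv_mem_O A K1 hc2',
    hH1F, hH2F, hH1, hH1', hH2, hH2',
    ⟨v1, hv1, key c1 H1 v1 e1⟩, ⟨v2, hv2, key c2 H2 v2 e2⟩⟩

end Fermat.Agent.S35_helper4_TORICX
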