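import Mathlib
import Fermat.Agent.S35_helper4_TORICX
import Fermat.Agent.S35_helper21_ACTF

/-!
# S35, X-D-FROB Part III: the field `toric` of `S35XD2_Contract`, no hypothesis left

`S35TX_toric` : the field `toric` of helper27's `S35XD2_Contract`, verbatim, from helper21's
landed ACTF (`S35AF_toric_hyps`, for `f' = act σ f0 / f0`) and helper15's landed `S35TOR_main`
(through `S35TX_toric_of`).
-/

set_option autoImplicit false
set_option linter.unusedSectionVars false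
set_option linter.unusedVariables false
set_option linter.style.haveILetI false
set_option synthInstance.maxHeartbeats 400000
set_option maxHeartbeats 1600000

open AlgebraicCurve ModularCurve HahnSeries IntermediateField
open Fermat.Agent.S18_helper9_CDefs Fermat.Agent.S18_helper25_COREDefs
  Fermat.Agent.S34_helper12_CDefs Fermat.Agent.S34_helper5_K0
  Fermat.Agent.S34_helper21_ACT
  Fermat.Agent.S34_helper20_V0 Fermat.Agent.S34_helper20_V0K
  Fermat.Agent.S34_helper27_V3K Fermat.Agent.S34_helper13_KEY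
  Fermat.Agent.S34_helper27_P1C Fermat.Agent.S34_helper25_Defs
  Fermat.Agent.S35_helper15_TORIC Fermat.Agent.S35_helper27_XD2Defs
  Fermat.Agent.S35_helper4_TORICX Fermat.Agent.S35_helper21_ACTF

noncomputable section

namespace Fermat.Agent.S35_helper4_TORICX2

local notation "Qb" => AlgebraicClosure ℚ
local notation "GQ" => (AlgebraicClosure ℚ ≃ₐ[ℚ] AlgebraicClosure ℚ)

variable (A : ValuationSubring Qb) (K1 : IntermediateField ℚ Qb)
  (hstab : ∀ σ : GQ, ∀ x ∈ K1, σ x ∈ K1) [IsDiscreteValuationRing (S18K_O1 A K1)]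
  {q : ℕ} (hq : q.Prime) (N' : ℕ) [NeZero N'] [NeZero (N' * q)] (hqN : ¬ q ∣ N') (σ : GQ)

/-- ACTF (AF4) in the `S35TX_Hyps` form. -/
theorem S35TX_hyps (hA : A.LiesOverPrime q) (hσ : A.IsFrobeniusAt σ q)
    (n : ℕ) (f0 : LaurentSeries K1) (hf0 : f0 ∈ S18K_F1 K1 (N' * q)) (hf00 : f0 ≠ 0)
    (hα : S35XD2_NewAlpha K1 q N' n f0 hf0) (hβ : S35XD2_NewBeta K1 q N' hq hqN n f0) :
    S35TX_Hyps A K1 hq N' hqN n (S34ACT_act K1 hstab σ f0 * f0⁻¹) := by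
  haveI : NeZero q := ⟨hq.ne_zero⟩
  obtain ⟨hf1, hf1', hf2, hf2', g1, g2, hg1, hg1', hg2, hg2', γ1, γ2, hγ1, hγ1', hγ2, hγ2',
    eα, eβ⟩ := S35AF_toric_hyps A K1 hstab (N' * q) q N' hq hqN (Nat.mul_comm N' q) σ hA
      hσ.mem_decompositionSubgroup n hf0 hf00 hα hβ
  exact ⟨hf1, hf1', hf2, hf2', g1, g2, hg1, hg1', hg2, hg2', γ1, γ2, hγ1, hγ1', hγ2, hγ2',
    eα, eβ⟩

/-- **The field `toric` of `S35XD2_Contract`**, verbatim, no hypothesis left. -/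
theorem S35TX_toric (hA : A.LiesOverPrime q) (hσ : A.IsFrobeniusAt σ q) :
    ∀ (n : ℕ) (f0 : LaurentSeries K1) (hf0 : f0 ∈ S18K_F1 K1 (N' * q)), f0 ≠ 0 →
    S35XD2_NewAlpha K1 q N' n f0 hf0 → S35XD2_NewBeta K1 q N' hq hqN n f0 →
    ∃ c1 c2 H1 H2 : LaurentSeries K1,
      c1 ∈ S18K_O A K1 ∧ c1⁻¹ ∈ S18K_O A K1 ∧ c2 ∈ S18K_O A K1 ∧ c2⁻¹ ∈ S18K_O A K1 ∧
      H1 ∈ S18K_F1 K1 (N' * q) ∧ H2 ∈ S18K_F1 K1 (N' * q) ∧
      H1 ∈ (S18K_V A K1 (N' * q) ⊓ S34P1C_V2 A K1 hq N' hqN : Subring (LaurentSeries K1)) ∧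
      H1⁻¹ ∈ (S18K_V A K1 (N' * q) ⊓ S34P1C_V2 A K1 hq N' hqN : Subring (LaurentSeries K1)) ∧
      H2 ∈ (S18K_V A K1 (N' * q) ⊓ S34P1C_V2 A K1 hq N' hqN : Subring (LaurentSeries K1)) ∧
      H2⁻¹ ∈ (S18K_V A K1 (N' * q) ⊓ S34P1C_V2 A K1 hq N' hqN : Subring (LaurentSeries K1)) ∧
      (∃ v ∈ S18K_V A K1 (N' * q),
        S35XD2_f2 K1 hstab σ f0 = c1 * H1 ^ n * (1 + S18K_π A K1 * v)) ∧
      (∃ v ∈ S34P1C_V2 A K1 hq N' hqN,
        S35XD2_f2 K1 hstab σ f0 = c2 * H2 ^ n * (1 + S18K_π A K1 * v)) :=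
  S35TX_toric_of A K1 hstab hq N' hqN σ hA hσ
    (fun n f0 hf0 hf00 hα hβ => S35TX_hyps A K1 hstab hq N' hqN σ hA hσ n f0 hf0 hf00 hα hβ)

/-- plug test: the field is accepted by the structure. -/
theorem S35TX_contract (lam : ℕ) (hA : A.LiesOverPrime q) (hσ : A.IsFrobeniusAt σ q)
    (C0 : S35XD2_Contract A K1 hstab hq N' hqN σ lam) :
    S35XD2_Contract A K1 hstab hq N' hqN σ lam :=
  { ord2 := C0.ord2
    toric := S35TX_toric A K1 hstab hq N' hqN σ hA hσ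
    const := C0.const
    redU := C0.redU }

end Fermat.Agent.S35_helper4_TORICX2
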