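import Mathlib
import Fermat.Agent.S35_helper10_W2
import Fermat.Agent.S35_helper23_P6Defs
import Fermat.Agent.S35_helper12_WC

/-!
# S35, (P6)-B-beta (helper10): `S35P6_TFB` from `S35P6_TFA` and the `w`-functoriality of `Θ`

* `S35TFBW_theta_of_datum` : abstract transport of `Θ` along a semilinear automorphism `g` of
  the function field: a datum `(a, b, x, D)` for `c` and forms `(a', b')` for `c'` realising
  `g • x` give `g • Θ c = Θ c'`  (pure `Pic⁰` bookkeeping on top of `PG_THETA.char`).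
* `S35TFBW_of_pull` : the plug.  If `g' ∘ β = α` and `g' • Θ c = Θ (pull c)` for every `Θ` with
  the contract `PG_THETA`, then Theta-functoriality along `α` (transfer `V`) gives
  Theta-functoriality along `β` with the transfer `V ∘ pull`.
* `S35TFBW_main`, `S35TFBW_main_datum` : the same with the Atkin-Lehner automorphism `S35WC_w`
  of helper12.
-/

set_option autoImplicit false
set_option linter.style.haveILetI false
set_option linter.unusedSectionVars false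
set_option linter.unusedVariables false

open AlgebraicCurve ModularCurve CongruenceSubgroup
open scoped MatrixGroups

namespace Fermat.Agent.S35_helper10_TFBW

open Fermat.Agent.G_helper6_Defs Fermat.Agent.S35_helper6_PUSH Fermat.Agent.S35_helper10_W2
open Fermat.Agent.S35_helper23_P6Defs Fermat.Agent.S35_helper12_WC

noncomputable section

/-- the divisor of `g • x` is `g • div x`, in the `m`-th root form of `PG_THETA.char`. -/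
theorem S35TFBW_div_smul {K F : Type*} [Field K] [Field F] [Algebra K F]
    (g : SemilinearAut K F) (m : ℤ) (x : F) (D : Divisor K F)
    (hD : ∀ v : Place K F, m * D v = v.ord x) (v : Place K F) :
    m * (g • D) v = v.ord (g • x) := by
  rw [SemilinearAut.divisor_smul_apply, hD (g⁻¹ • v)]
  have h := SemilinearAut.ord_smul g (g⁻¹ • v) x
  rw [smul_inv_smul] at h
  exact h.symm

/-- **abstract transport of `Θ`**: a datum for `c`, and forms for `c'` realising `g • x`, give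
`g • Θ c = Θ c'`. -/
theorem S35TFBW_theta_of_datum (M m : ℕ) (Θ : PG_M M →+ PG_JC M) (hΘ : PG_THETA M m Θ)
    (g : SemilinearAut ℂ (PG_FC M)) (c c' : PG_M M)
    (k : ℤ) (χb : Gamma0 M →* ℂˣ) (a b : UpperHalfPlane → ℂ) (x : PG_FC M)
    (D : Divisor.degZero (K := ℂ) (F := PG_FC M))
    (hχb : PG_IsGoodChar M χb)
    (ha : PG_IsForm M k (PG_chi M m (c : Additive (Gamma0 M) →+ ℤ) * χb) a)
    (hb : PG_IsForm M k χb b) (ha0 : a ≠ 0) (hb0 : b ≠ 0)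
    (hx : PG_Realizes x (a ^ m) (b ^ m))
    (hD : ∀ v : Place ℂ (PG_FC M), (m : ℤ) * (D : Divisor ℂ (PG_FC M)) v = v.ord x)
    (k' : ℤ) (χb' : Gamma0 M →* ℂˣ) (a' b' : UpperHalfPlane → ℂ)
    (hχb' : PG_IsGoodChar M χb')
    (ha' : PG_IsForm M k' (PG_chi M m (c' : Additive (Gamma0 M) →+ ℤ) * χb') a')
    (hb' : PG_IsForm M k' χb' b') (ha0' : a' ≠ 0) (hb0' : b' ≠ 0)
    (hx' : PG_Realizes (g • x) (a' ^ m) (b' ^ m)) :
    g • Θ c = Θ c' := by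
  rw [hΘ.char c k χb a b x D hχb ha hb ha0 hb0 hx hD, SemilinearAut.pic0_smul_mk]
  refine (hΘ.char c' k' χb' a' b' (g • x) (SemilinearAut.degZeroSMulHom g D) hχb' ha' hb' ha0'
    hb0' hx' ?_).symm
  intro v
  rw [SemilinearAut.coe_degZeroSMulHom]
  exact S35TFBW_div_smul g (m : ℤ) x (D : Divisor ℂ (PG_FC M)) hD v

variable (N ℓ : ℕ) [NeZero N] [NeZero ℓ]

/-- **the plug, abstract**: `g' ∘ β = α` and `g' • Θ c = Θ (pull c)` turn Theta-functoriality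
along `α` with the transfer `V` into Theta-functoriality along `β` with `V ∘ pull`. -/
theorem S35TFBW_for_of_pull (g' : SemilinearAut ℂ (PG_FC (N * ℓ)))
    (h : ∀ x : PG_FC N, g' • heckeBetaBar ℂ N ℓ x = heckeAlphaBar ℂ N ℓ x)
    (pull : PG_M (N * ℓ) →+ PG_M (N * ℓ))
    (hpull : ∀ m : ℕ, 0 < m → ∀ Θ : PG_M (N * ℓ) →+ PG_JC (N * ℓ), PG_THETA (N * ℓ) m Θ →
      ∀ c : PG_M (N * ℓ), g' • Θ c = Θ (pull c))
    (V : PG_M (N * ℓ) →+ PG_M N) (hV : S35P6_TFfor N ℓ (S35PU_alphaL ℂ N ℓ) V) :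
    S35P6_TFfor N ℓ (S35PU_betaL ℂ N ℓ) (V.comp pull) := by
  intro m hm Θ Θ' hΘ hΘ' c
  rw [← S35W2_alphaL ℂ N ℓ g' h (Θ c), hpull m hm Θ hΘ c, hV m hm Θ Θ' hΘ hΘ' (pull c)]
  rfl

/-- **the plug**: `S35P6_TFB` from `S35P6_TFA`. -/
theorem S35TFBW_of_pull (g' : SemilinearAut ℂ (PG_FC (N * ℓ)))
    (h : ∀ x : PG_FC N, g' • heckeBetaBar ℂ N ℓ x = heckeAlphaBar ℂ N ℓ x)
    (pull : PG_M (N * ℓ) →+ PG_M (N * ℓ))
    (hpull : ∀ m : ℕ, 0 < m → ∀ Θ : PG_M (N * ℓ) →+ PG_JC (N * ℓ), PG_THETA (N * ℓ) m Θ →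
      ∀ c : PG_M (N * ℓ), g' • Θ c = Θ (pull c))
    (hA : S35P6_TFA N ℓ) : S35P6_TFB N ℓ := by
  obtain ⟨V, hV⟩ := hA
  exact ⟨V.comp pull, S35TFBW_for_of_pull N ℓ g' h pull hpull V hV⟩

/-- the plug in the other direction (`g' ∘ α = β`, `g' • Θ (pull c) = Θ c`). -/
theorem S35TFBW_of_pull' (g' : SemilinearAut ℂ (PG_FC (N * ℓ)))
    (h : ∀ x : PG_FC N, g' • heckeAlphaBar ℂ N ℓ x = heckeBetaBar ℂ N ℓ x)
    (pull : PG_M (N * ℓ) →+ PG_M (N * ℓ))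
    (hpull : ∀ m : ℕ, 0 < m → ∀ Θ : PG_M (N * ℓ) →+ PG_JC (N * ℓ), PG_THETA (N * ℓ) m Θ →
      ∀ c : PG_M (N * ℓ), g' • Θ (pull c) = Θ c)
    (hA : S35P6_TFA N ℓ) : S35P6_TFB N ℓ := by
  obtain ⟨V, hV⟩ := hA
  refine ⟨V.comp pull, fun m hm Θ Θ' hΘ hΘ' c => ?_⟩
  rw [← hpull m hm Θ hΘ c, S35W2_betaL ℂ N ℓ g' h (Θ (pull c)), hV m hm Θ Θ' hΘ hΘ' (pull c)]
  rfl

/-- the symmetric plug: `S35P6_TFA` from `S35P6_TFB`. -/
theorem S35TFBW_A_of_pull (g' : SemilinearAut ℂ (PG_FC (N * ℓ)))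
    (h : ∀ x : PG_FC N, g' • heckeAlphaBar ℂ N ℓ x = heckeBetaBar ℂ N ℓ x)
    (pull : PG_M (N * ℓ) →+ PG_M (N * ℓ))
    (hpull : ∀ m : ℕ, 0 < m → ∀ Θ : PG_M (N * ℓ) →+ PG_JC (N * ℓ), PG_THETA (N * ℓ) m Θ →
      ∀ c : PG_M (N * ℓ), g' • Θ c = Θ (pull c))
    (hB : S35P6_TFB N ℓ) : S35P6_TFA N ℓ := by
  obtain ⟨V, hV⟩ := hB
  refine ⟨V.comp pull, fun m hm Θ Θ' hΘ hΘ' c => ?_⟩
  rw [← S35W2_betaL ℂ N ℓ g' h (Θ c), hpull m hm Θ hΘ c, hV m hm Θ Θ' hΘ hΘ' (pull c)]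
  rfl

/-! ### with the Atkin-Lehner automorphism of helper12 -/

variable (hℓ : ℓ.Prime) (hℓN : ¬ ℓ ∣ N)

/-- the Atkin-Lehner automorphism as a semilinear automorphism of `F_ℂ(N ℓ)`. -/
def S35TFBW_W : SemilinearAut ℂ (PG_FC (N * ℓ)) :=
  SemilinearAut.ofAlgAut (S35WC_w N ℓ hℓ hℓN)

theorem S35TFBW_W_smul (x : PG_FC (N * ℓ)) :
    S35TFBW_W N ℓ hℓ hℓN • x = S35WC_w N ℓ hℓ hℓN x := rfl

theorem S35TFBW_W_alpha (x : PG_FC N) :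
    S35TFBW_W N ℓ hℓ hℓN • heckeAlphaBar ℂ N ℓ x = heckeBetaBar ℂ N ℓ x :=
  S35WC_w_alpha N ℓ hℓ hℓN x

theorem S35TFBW_W_beta (x : PG_FC N) :
    S35TFBW_W N ℓ hℓ hℓN • heckeBetaBar ℂ N ℓ x = heckeAlphaBar ℂ N ℓ x :=
  S35WC_w_beta N ℓ hℓ hℓN x

/-- `β_* = α_* ∘ W` and `α_* = β_* ∘ W` on `Pic⁰ (F_ℂ (N ℓ))`. -/
theorem S35TFBW_alphaL_W (x : PG_JC (N * ℓ)) :
    S35PU_alphaL ℂ N ℓ (S35TFBW_W N ℓ hℓ hℓN • x) = S35PU_betaL ℂ N ℓ x :=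
  S35W2_alphaL ℂ N ℓ _ (S35TFBW_W_beta N ℓ hℓ hℓN) x

theorem S35TFBW_betaL_W (x : PG_JC (N * ℓ)) :
    S35PU_betaL ℂ N ℓ (S35TFBW_W N ℓ hℓ hℓN • x) = S35PU_alphaL ℂ N ℓ x :=
  S35W2_betaL ℂ N ℓ _ (S35TFBW_W_alpha N ℓ hℓ hℓN) x

/-- **(P6)-B-beta, final plug**: `S35P6_TFB` from `S35P6_TFA` and `W • Θ c = Θ (pull c)`. -/
theorem S35TFBW_main (pull : PG_M (N * ℓ) →+ PG_M (N * ℓ))
    (hpull : ∀ m : ℕ, 0 < m → ∀ Θ : PG_M (N * ℓ) →+ PG_JC (N * ℓ), PG_THETA (N * ℓ) m Θ →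
      ∀ c : PG_M (N * ℓ), S35TFBW_W N ℓ hℓ hℓN • Θ c = Θ (pull c))
    (hA : S35P6_TFA N ℓ) : S35P6_TFB N ℓ :=
  S35TFBW_of_pull N ℓ _ (S35TFBW_W_beta N ℓ hℓ hℓN) pull hpull hA

/-- **(P6)-B-beta, final plug, datum form**: it is enough that every `c` has a datum
`(a, b, x, D)` at every modulus `m` such that `w x` is realised by forms for `pull c`. -/
theorem S35TFBW_main_datum (pull : PG_M (N * ℓ) →+ PG_M (N * ℓ))
    (hdat : ∀ m : ℕ, 0 < m → ∀ c : PG_M (N * ℓ),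
      ∃ (k : ℤ) (χb : Gamma0 (N * ℓ) →* ℂˣ) (a b : UpperHalfPlane → ℂ) (x : PG_FC (N * ℓ))
        (D : Divisor.degZero (K := ℂ) (F := PG_FC (N * ℓ))),
        PG_IsGoodChar (N * ℓ) χb ∧
        PG_IsForm (N * ℓ) k (PG_chi (N * ℓ) m (c : Additive (Gamma0 (N * ℓ)) →+ ℤ) * χb) a ∧
        PG_IsForm (N * ℓ) k χb b ∧ a ≠ 0 ∧ b ≠ 0 ∧ PG_Realizes x (a ^ m) (b ^ m) ∧
        (∀ v : Place ℂ (PG_FC (N * ℓ)),
          (m : ℤ) * (D : Divisor ℂ (PG_FC (N * ℓ))) v = v.ord x) ∧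
        ∃ (k' : ℤ) (χb' : Gamma0 (N * ℓ) →* ℂˣ) (a' b' : UpperHalfPlane → ℂ),
          PG_IsGoodChar (N * ℓ) χb' ∧
          PG_IsForm (N * ℓ) k'
            (PG_chi (N * ℓ) m (pull c : Additive (Gamma0 (N * ℓ)) →+ ℤ) * χb') a' ∧
          PG_IsForm (N * ℓ) k' χb' b' ∧ a' ≠ 0 ∧ b' ≠ 0 ∧
          PG_Realizes (S35WC_w N ℓ hℓ hℓN x) (a' ^ m) (b' ^ m))
    (hA : S35P6_TFA N ℓ) : S35P6_TFB N ℓ := by
  refine S35TFBW_main N ℓ hℓ hℓN pull (fun m hm Θ hΘ c => ?_) hA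
  obtain ⟨k, χb, a, b, x, D, hχb, ha, hb, ha0, hb0, hx, hD, k', χb', a', b', hχb', ha', hb',
    ha0', hb0', hx'⟩ := hdat m hm c
  exact S35TFBW_theta_of_datum (N * ℓ) m Θ hΘ (S35TFBW_W N ℓ hℓ hℓN) c (pull c) k χb a b x D
    hχb ha hb ha0 hb0 hx hD k' χb' a' b' hχb' ha' hb' ha0' hb0' hx'

end

end Fermat.Agent.S35_helper10_TFBW
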