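import Mathlib
import Fermat.Agent.S35_helper18_W4G
import Fermat.Agent.S35_helper10_TFBW
import Fermat.Agent.G_helper23_G7iv
import Fermat.Agent.G_helper6_E2GEN

/-!
# S35, (P6)-B-beta, (w4) forms half (helper10)

`W = γ_W · diag(ℓ, 1)` is the Atkin-Lehner matrix (`S35W4_Wmat` of helper18), `conj` the
conjugation `g ↦ W g W⁻¹` of `Gamma0 (N ℓ)` (`S35W4_conj`).

* `S35W4F_isForm` : `a ∣[k] W` is a form of level `N ℓ`, weight `k`, character `χ ∘ conj`, when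
  `a` is a form with character `χ` (holomorphy; automorphy from `conj g · W = W · g`;
  boundedness at every cusp because `W σ` is a rational matrix).
* `S35W4F_realizes_pow` : a realisation by `(a ^ m) ∣[k m] W`, `(b ^ m) ∣[k m] W` is a
  realisation by `(a ∣[k] W) ^ m`, `(b ∣[k] W) ^ m`.
* `S35W4F_hdat`, `S35W4F_hpull`, `S35W4F_TFB` : the `W`-functoriality of `Θ` and
  `S35P6_TFB` from `S35P6_TFA`, modulo the single analytic input `(w3)`: the `W`-bridge for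
  forms with TRIVIAL character.
-/

set_option autoImplicit false
set_option linter.style.haveILetI false
set_option linter.unusedSectionVars false
set_option linter.unusedVariables false

open UpperHalfPlane ModularForm CongruenceSubgroup AlgebraicCurve ModularCurve
open scoped MatrixGroups ModularForm Manifold

namespace Fermat.Agent.S35_helper10_W4F

open Fermat.Agent.G_helper6_Defs Fermat.Agent.S35_helper18_W4G Fermat.Agent.S35_helper10_TFBW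
open Fermat.Agent.S35_helper23_P6Defs Fermat.Agent.S35_helper12_WC
open Fermat.Agent.G_helper23_G7iv Fermat.Agent.G_helper28_G7ASM Fermat.Agent.G_helper18_FORMS
open Fermat.Agent.S34_helper20_WQ

noncomputable section

section Forms

variable (N ℓ : ℕ) [NeZero ℓ] (u v : ℤ) (h : (ℓ : ℤ) * u + v * (N : ℤ) = 1)

/-- the determinant of the Atkin-Lehner matrix is `ℓ`. -/
theorem S35W4F_det : ((S35W4_Wmat N ℓ u v h).det : ℝ) = (ℓ : ℝ) := by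
  rw [S35W4_Wmat, map_mul, Units.val_mul, det_heckeDiagMatrix (NeZero.ne ℓ)]
  simp

theorem S35W4F_det_pos : 0 < ((S35W4_Wmat N ℓ u v h).det : ℝ) := by
  rw [S35W4F_det]
  exact_mod_cast Nat.pos_of_ne_zero (NeZero.ne ℓ)

theorem S35W4F_sigma : UpperHalfPlane.σ (S35W4_Wmat N ℓ u v h) = .refl ℝ ℂ := by
  rw [UpperHalfPlane.σ, if_pos (S35W4F_det_pos N ℓ u v h)]

/-- `W σ` is a rational matrix. -/
theorem S35W4F_exists_rat (σ : SL(2, ℤ)) :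
    ∃ g : GL (Fin 2) ℚ, S35W4_Wmat N ℓ u v h * Matrix.SpecialLinearGroup.mapGL ℝ σ =
      Matrix.GeneralLinearGroup.map (Rat.castHom ℝ) g := by
  have hγ : ∀ τ : SL(2, ℤ), ∃ g : GL (Fin 2) ℚ, Matrix.SpecialLinearGroup.mapGL ℝ τ =
      Matrix.GeneralLinearGroup.map (Rat.castHom ℝ) g := fun τ =>
    ⟨Matrix.SpecialLinearGroup.mapGL ℚ τ, by
      ext a b
      simp [Matrix.SpecialLinearGroup.mapGL_coe_matrix]⟩
  have hD : ∃ g : GL (Fin 2) ℚ, heckeDiagMatrix ℓ =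
      Matrix.GeneralLinearGroup.map (Rat.castHom ℝ) g := by
    have hℓ : ℓ ≠ 0 := NeZero.ne ℓ
    refine ⟨Matrix.GeneralLinearGroup.mkOfDetNeZero !![(ℓ : ℚ), 0; 0, 1]
      (by rw [Matrix.det_fin_two_of]; simpa using hℓ), ?_⟩
    ext a b
    fin_cases a <;> fin_cases b <;>
      simp [heckeDiagMatrix, hℓ, upperTriangularGL, Matrix.GeneralLinearGroup.mkOfDetNeZero]
  obtain ⟨g1, h1⟩ := hγ (S34WQ_gamma ℓ N u v h)
  obtain ⟨g2, h2⟩ := hD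
  obtain ⟨g3, h3⟩ := hγ σ
  exact ⟨g1 * g2 * g3, by rw [S35W4_Wmat, h1, h2, h3, map_mul, map_mul]⟩

variable {N ℓ u v h}

/-- automorphy of `a ∣[k] W` in slash form. -/
theorem S35W4F_slash {k : ℤ} {χ : Gamma0 (N * ℓ) →* ℂˣ} {a : ℍ → ℂ}
    (ha : PG_IsForm (N * ℓ) k χ a) (g : Gamma0 (N * ℓ)) :
    (a ∣[k] S35W4_Wmat N ℓ u v h) ∣[k]
        (Matrix.SpecialLinearGroup.mapGL ℝ ((g : Gamma0 (N * ℓ)) : SL(2, ℤ))) =
      ((χ (S35W4_conj N ℓ u v h g) : ℂˣ) : ℂ) • (a ∣[k] S35W4_Wmat N ℓ u v h) := by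
  rw [← SlashAction.slash_mul, ← S35W4_conj_mul_Wmat N ℓ u v h g, SlashAction.slash_mul,
    PG_G7iv_slash_of_aut ha.aut, ModularForm.smul_slash, S35W4F_sigma]
  rfl

/-- **`a ∣[k] W` is a form with the conjugated character.** -/
theorem S35W4F_isForm {k : ℤ} {χ : Gamma0 (N * ℓ) →* ℂˣ} {a : ℍ → ℂ}
    (ha : PG_IsForm (N * ℓ) k χ a) :
    PG_IsForm (N * ℓ) k (χ.comp (S35W4_conj N ℓ u v h)) (a ∣[k] S35W4_Wmat N ℓ u v h) where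
  holo := MDifferentiable.slash ha.holo k _
  aut := fun g z => PG_G7iv_aut_of_slash g (S35W4F_slash (u := u) (v := v) (h := h) ha g) z
  bdd := fun σ => by
    obtain ⟨g, hg⟩ := S35W4F_exists_rat N ℓ u v h σ
    have h1 : (a ∣[k] S35W4_Wmat N ℓ u v h) ∣[k] σ =
        a ∣[k] (Matrix.GeneralLinearGroup.map (Rat.castHom ℝ) g) := by
      rw [ModularForm.SL_slash, ← hg, SlashAction.slash_mul]
      rfl
    rw [h1]
    exact PG_G7iv_bdd_rat ha.bdd g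

/-- the form for the pulled-back homomorphism. -/
theorem S35W4F_isForm_pull {k : ℤ} {m : ℕ} {c : PG_M (N * ℓ)} {χb : Gamma0 (N * ℓ) →* ℂˣ}
    {a : ℍ → ℂ}
    (ha : PG_IsForm (N * ℓ) k (PG_chi (N * ℓ) m (c : Additive (Gamma0 (N * ℓ)) →+ ℤ) * χb) a) :
    PG_IsForm (N * ℓ) k
      (PG_chi (N * ℓ) m ((S35W4_pull N ℓ u v h c : PG_M (N * ℓ)) :
        Additive (Gamma0 (N * ℓ)) →+ ℤ) * χb.comp (S35W4_conj N ℓ u v h))
      (a ∣[k] S35W4_Wmat N ℓ u v h) := by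
  have h1 := S35W4F_isForm (u := u) (v := v) (h := h) ha
  rw [S35W4_chi_pull]
  exact h1

theorem S35W4F_ne_zero {k : ℤ} {a : ℍ → ℂ} (ha : a ≠ 0) :
    a ∣[k] S35W4_Wmat N ℓ u v h ≠ 0 :=
  fun h0 => ha ((PG_G7iv_slash_eq_zero_iff k _ a).mp h0)

/-- powers: `(a ^ m) ∣[k m] W = ℓ ^ (m - 1) • (a ∣[k] W) ^ m`. -/
theorem S35W4F_pow (k : ℤ) (m : ℕ) (a : ℍ → ℂ) :
    (a ^ m) ∣[k * m] S35W4_Wmat N ℓ u v h =
      (((ℓ : ℝ) ^ ((m : ℤ) - 1) : ℝ) : ℂ) • (a ∣[k] S35W4_Wmat N ℓ u v h) ^ m := by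
  rw [PG7A_slash_pow, S35W4F_det, abs_of_nonneg (Nat.cast_nonneg ℓ)]
  ext z
  simp only [Pi.smul_apply, Complex.real_smul, smul_eq_mul]

/-- a realisation by the slashes of the powers is a realisation by the powers of the
slashes. -/
theorem S35W4F_realizes_pow {k : ℤ} {m : ℕ} {χa χb : Gamma0 (N * ℓ) →* ℂˣ} {a b : ℍ → ℂ}
    (hχa : PG_IsGoodChar (N * ℓ) χa) (hχb : PG_IsGoodChar (N * ℓ) χb)
    (ha : PG_IsForm (N * ℓ) k χa a) (hb : PG_IsForm (N * ℓ) k χb b)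
    (y : PG_FC (N * ℓ))
    (hy : PG_Realizes y ((a ^ m) ∣[k * m] S35W4_Wmat N ℓ u v h)
      ((b ^ m) ∣[k * m] S35W4_Wmat N ℓ u v h)) :
    PG_Realizes y ((a ∣[k] S35W4_Wmat N ℓ u v h) ^ m) ((b ∣[k] S35W4_Wmat N ℓ u v h) ^ m) := by
  have hna : PG_FORMS_Nice ((a ∣[k] S35W4_Wmat N ℓ u v h) ^ m) :=
    (PG_FORMS_nice_of_form (S35W4_goodChar N ℓ u v h hχa)
      (S35W4F_isForm (u := u) (v := v) (h := h) ha)).pow m
  have hnb : PG_FORMS_Nice ((b ∣[k] S35W4_Wmat N ℓ u v h) ^ m) :=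
    (PG_FORMS_nice_of_form (S35W4_goodChar N ℓ u v h hχb)
      (S35W4F_isForm (u := u) (v := v) (h := h) hb)).pow m
  unfold PG_Realizes at hy ⊢
  have hκ : (((ℓ : ℝ) ^ ((m : ℤ) - 1) : ℝ) : ℂ) ≠ 0 := by
    have hℓ : (ℓ : ℝ) ≠ 0 := by exact_mod_cast NeZero.ne ℓ
    exact_mod_cast zpow_ne_zero _ hℓ
  rw [S35W4F_pow, S35W4F_pow, hna.qLaur_smul, hnb.qLaur_smul, ← HahnSeries.C_mul_eq_smul,
    ← HahnSeries.C_mul_eq_smul, mul_left_comm] at hy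
  exact mul_left_cancel₀ (PG7A_C_ne_zero hκ) hy

end Forms

/-! ### the `W`-functoriality of `Θ` modulo the `W`-bridge -/

section Theta

variable (N ℓ : ℕ) [NeZero N] [NeZero ℓ] (hℓ : ℓ.Prime) (hℓN : ¬ ℓ ∣ N)

/-- the Atkin-Lehner matrix for the Bézout pair of helper12's `S35WC_w`. -/
def S35W4F_Wmat : GL (Fin 2) ℝ :=
  S35W4_Wmat N ℓ (S35WC_u N ℓ hℓ hℓN) (S35WC_v N ℓ hℓ hℓN) (S35WC_uv N ℓ hℓ hℓN)

theorem S35W4F_Wmat_eq : S35W4F_Wmat N ℓ hℓ hℓN =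
    Matrix.SpecialLinearGroup.mapGL ℝ (S35WC_gammaW N ℓ hℓ hℓN) * heckeDiagMatrix ℓ := rfl

/-- the pull-back for the Bézout pair of helper12's `S35WC_w`. -/
def S35W4F_pull : PG_M (N * ℓ) →+ PG_M (N * ℓ) :=
  S35W4_pull N ℓ (S35WC_u N ℓ hℓ hℓN) (S35WC_v N ℓ hℓ hℓN) (S35WC_uv N ℓ hℓ hℓN)

/-- the input `(w3)`: the `W`-bridge for forms with trivial character. -/
def S35W4F_Bridge : Prop :=
  ∀ (K : ℤ) (A B : ℍ → ℂ) (x : PG_FC (N * ℓ)),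
    PG_IsForm (N * ℓ) K 1 A → PG_IsForm (N * ℓ) K 1 B → B ≠ 0 → PG_Realizes x A B →
    PG_Realizes (S35WC_w N ℓ hℓ hℓN x) (A ∣[K] S35W4F_Wmat N ℓ hℓ hℓN)
      (B ∣[K] S35W4F_Wmat N ℓ hℓ hℓN)

/-- `A ∣[K] W` in terms of the slash by `γ_W` and the dilation `z ↦ ℓ z`. -/
theorem S35W4F_slash_apply (K : ℤ) (A : ℍ → ℂ) (z : ℍ) :
    (A ∣[K] S35W4F_Wmat N ℓ hℓ hℓN) z =
      (ℓ : ℂ) ^ (K - 1) * (A ∣[K] S35WC_gammaW N ℓ hℓ hℓN) (heckeDiagMatrix ℓ • z) := by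
  rw [S35W4F_Wmat_eq, SlashAction.slash_mul, slash_heckeDiagMatrix_apply K (NeZero.ne ℓ)]
  rfl

theorem S35W4F_slash_eq (K : ℤ) (A : ℍ → ℂ) :
    A ∣[K] S35W4F_Wmat N ℓ hℓ hℓN =
      ((ℓ : ℂ) ^ (K - 1)) •
        (fun z : ℍ => (A ∣[K] S35WC_gammaW N ℓ hℓ hℓN) (heckeDiagMatrix ℓ • z)) := by
  funext z
  rw [S35W4F_slash_apply, Pi.smul_apply, smul_eq_mul]

/-- the `W`-bridge from its unnormalised form (slash by `γ_W`, then `z ↦ ℓ z`). -/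
theorem S35W4F_bridge_of
    (h0 : ∀ (K : ℤ) (A B : ℍ → ℂ) (x : PG_FC (N * ℓ)),
      PG_IsForm (N * ℓ) K 1 A → PG_IsForm (N * ℓ) K 1 B → B ≠ 0 → PG_Realizes x A B →
      PG_Realizes (S35WC_w N ℓ hℓ hℓN x)
        (fun z : ℍ => (A ∣[K] S35WC_gammaW N ℓ hℓ hℓN) (heckeDiagMatrix ℓ • z))
        (fun z : ℍ => (B ∣[K] S35WC_gammaW N ℓ hℓ hℓN) (heckeDiagMatrix ℓ • z))) :
    S35W4F_Bridge N ℓ hℓ hℓN := by
  intro K A B x hA hB hB0 hx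
  have hκ : ((ℓ : ℂ) ^ (K - 1)) ≠ 0 :=
    zpow_ne_zero _ (by exact_mod_cast NeZero.ne ℓ)
  have hnice : ∀ F : ℍ → ℂ, PG_IsForm (N * ℓ) K 1 F → PG_FORMS_Nice
      (fun z : ℍ => (F ∣[K] S35WC_gammaW N ℓ hℓ hℓN) (heckeDiagMatrix ℓ • z)) := by
    intro F hF
    have h1 : PG_FORMS_Nice (F ∣[K] S35W4F_Wmat N ℓ hℓ hℓN) :=
      PG_FORMS_nice_of_form (S35W4_goodChar N ℓ _ _ _ (PG7A_one_good (N * ℓ)))
        (S35W4F_isForm (u := S35WC_u N ℓ hℓ hℓN) (v := S35WC_v N ℓ hℓ hℓN)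
          (h := S35WC_uv N ℓ hℓ hℓN) hF)
    have h2 := h1.smul ((ℓ : ℂ) ^ (K - 1))⁻¹
    rw [S35W4F_slash_eq, smul_smul, inv_mul_cancel₀ hκ, one_smul] at h2
    exact h2
  have h := h0 K A B x hA hB hB0 hx
  unfold PG_Realizes at h ⊢
  rw [S35W4F_slash_eq, S35W4F_slash_eq, (hnice A hA).qLaur_smul, (hnice B hB).qLaur_smul,
    ← HahnSeries.C_mul_eq_smul, ← HahnSeries.C_mul_eq_smul, mul_left_comm, h]

/-- **the datum** of `S35TFBW_main_datum`, from the `W`-bridge. -/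
theorem S35W4F_hdat (hw3 : S35W4F_Bridge N ℓ hℓ hℓN) (m : ℕ) (hm : 0 < m)
    (c : PG_M (N * ℓ)) :
    ∃ (k : ℤ) (χb : Gamma0 (N * ℓ) →* ℂˣ) (a b : ℍ → ℂ) (x : PG_FC (N * ℓ))
      (D : Divisor.degZero (K := ℂ) (F := PG_FC (N * ℓ))),
      PG_IsGoodChar (N * ℓ) χb ∧
      PG_IsForm (N * ℓ) k (PG_chi (N * ℓ) m (c : Additive (Gamma0 (N * ℓ)) →+ ℤ) * χb) a ∧
      PG_IsForm (N * ℓ) k χb b ∧ a ≠ 0 ∧ b ≠ 0 ∧ PG_Realizes x (a ^ m) (b ^ m) ∧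
      (∀ v : Place ℂ (PG_FC (N * ℓ)),
        (m : ℤ) * (D : Divisor ℂ (PG_FC (N * ℓ))) v = v.ord x) ∧
      ∃ (k' : ℤ) (χb' : Gamma0 (N * ℓ) →* ℂˣ) (a' b' : ℍ → ℂ),
        PG_IsGoodChar (N * ℓ) χb' ∧
        PG_IsForm (N * ℓ) k'
          (PG_chi (N * ℓ) m (S35W4F_pull N ℓ hℓ hℓN c : Additive (Gamma0 (N * ℓ)) →+ ℤ) * χb')
          a' ∧
        PG_IsForm (N * ℓ) k' χb' b' ∧ a' ≠ 0 ∧ b' ≠ 0 ∧
        PG_Realizes (S35WC_w N ℓ hℓ hℓN x) (a' ^ m) (b' ^ m) := by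
  haveI := Fermat.Agent.G_helper6_E2GEN.PG_E2GEN_hpd (N * ℓ)
  have hE : PG_EIS (N * ℓ) := Fermat.Agent.G_helper7_EISWRAP.PG_G3 (N * ℓ)
  have h1 : PG_AN1 (N * ℓ) := Fermat.Agent.G_helper25_G4DEP.PG_G4D_an1 (N * ℓ)
  have h3 : PG_AN3 (N * ℓ) m := Fermat.Agent.G_helper16_G5.PG_G5_an3_all (N * ℓ) m
  -- the Eisenstein series
  obtain ⟨a, ha, hat⟩ := hE _ (PG7A_chi_good (N * ℓ) m hm c)
  obtain ⟨b, hb, hbt⟩ := hE _ (PG7A_one_good (N * ℓ))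
  have ha0 : a ≠ 0 := PG7A_ne_zero_of_tendsto hat
  have hb0 : b ≠ 0 := PG7A_ne_zero_of_tendsto hbt
  -- their `m`-th powers
  have hA : PG_IsForm (N * ℓ) (4 * m) 1 (a ^ m) := by
    have h := PG7A_isForm_pow ha m
    rwa [PG7A_chi_pow (N * ℓ) m hm] at h
  have hB : PG_IsForm (N * ℓ) (4 * m) 1 (b ^ m) := by
    have h := PG7A_isForm_pow hb m
    rwa [one_pow (M := Gamma0 (N * ℓ) →* ℂˣ) m] at h
  have hA0 : a ^ m ≠ 0 := PG7A_pow_ne_zero ha0 m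
  have hB0 : b ^ m ≠ 0 := PG7A_pow_ne_zero hb0 m
  obtain ⟨x, hx⟩ := h1 (4 * m) (a ^ m) (b ^ m) hA hB hB0
  have hx0 : x ≠ 0 := by
    rintro rfl
    unfold PG_Realizes at hx
    rw [ZeroMemClass.coe_zero, zero_mul] at hx
    exact PG7A_qLaur_ne_zero (PG7A_nice_of_isForm_one hA) hA0 hx.symm
  have hdiv : ∀ v : Place ℂ (PG_FC (N * ℓ)), (m : ℤ) ∣ v.ord x :=
    h3 4 _ 1 a b x (PG7A_chi_good (N * ℓ) m hm c) (PG7A_one_good (N * ℓ)) ha hb ha0 hb0 hx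
  obtain ⟨D, hD⟩ := PG7A_exists_div_root m hm x hx0 hdiv
  have ha' : PG_IsForm (N * ℓ) 4
      (PG_chi (N * ℓ) m (c : Additive (Gamma0 (N * ℓ)) →+ ℤ) * 1) a := by
    rw [mul_one (PG_chi (N * ℓ) m (c : Additive (Gamma0 (N * ℓ)) →+ ℤ))]; exact ha
  refine ⟨4, 1, a, b, x, D, PG7A_one_good (N * ℓ), ha', hb, ha0, hb0, hx, hD,
    4, 1, a ∣[(4 : ℤ)] S35W4F_Wmat N ℓ hℓ hℓN, b ∣[(4 : ℤ)] S35W4F_Wmat N ℓ hℓ hℓN,
    PG7A_one_good (N * ℓ), ?_, ?_, S35W4F_ne_zero ha0, S35W4F_ne_zero hb0, ?_⟩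
  · have h := S35W4F_isForm_pull (u := S35WC_u N ℓ hℓ hℓN) (v := S35WC_v N ℓ hℓ hℓN)
      (h := S35WC_uv N ℓ hℓ hℓN) ha'
    rwa [MonoidHom.one_comp] at h
  · have h := S35W4F_isForm (u := S35WC_u N ℓ hℓ hℓN) (v := S35WC_v N ℓ hℓ hℓN)
      (h := S35WC_uv N ℓ hℓ hℓN) hb
    rwa [MonoidHom.one_comp] at h
  · exact S35W4F_realizes_pow (PG7A_chi_good (N * ℓ) m hm c) (PG7A_one_good (N * ℓ)) ha hb _
      (hw3 (4 * m) (a ^ m) (b ^ m) x hA hB hB0 hx)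

/-- **the `W`-functoriality of `Θ`** from the `W`-bridge: `W • Θ c = Θ (pull c)`. -/
theorem S35W4F_hpull (hw3 : S35W4F_Bridge N ℓ hℓ hℓN) (m : ℕ) (hm : 0 < m)
    (Θ : PG_M (N * ℓ) →+ PG_JC (N * ℓ)) (hΘ : PG_THETA (N * ℓ) m Θ) (c : PG_M (N * ℓ)) :
    S35TFBW_W N ℓ hℓ hℓN • Θ c = Θ (S35W4F_pull N ℓ hℓ hℓN c) := by
  obtain ⟨k, χb, a, b, x, D, hχb, ha, hb, ha0, hb0, hx, hD, k', χb', a', b', hχb', ha', hb',
    ha0', hb0', hx'⟩ := S35W4F_hdat N ℓ hℓ hℓN hw3 m hm c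
  exact S35TFBW_theta_of_datum (N * ℓ) m Θ hΘ (S35TFBW_W N ℓ hℓ hℓN) c
    (S35W4F_pull N ℓ hℓ hℓN c) k χb a b x D hχb ha hb ha0 hb0 hx hD k' χb' a' b' hχb' ha' hb'
    ha0' hb0' hx'

/-- **(P6)-B-beta modulo the `W`-bridge**: `S35P6_TFB` from `S35P6_TFA`. -/
theorem S35W4F_TFB (hw3 : S35W4F_Bridge N ℓ hℓ hℓN) (hA : S35P6_TFA N ℓ) : S35P6_TFB N ℓ :=
  S35TFBW_main N ℓ hℓ hℓN (S35W4F_pull N ℓ hℓ hℓN) (S35W4F_hpull N ℓ hℓ hℓN hw3) hA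

end Theta

end

end Fermat.Agent.S35_helper10_W4F
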