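import Mathlib
import Fermat.Agent.S34_helper18_INF
import Fermat.Agent.S34_helper27_GEOM2
import Fermat.Agent.S34_helper8_MODEQ

/-!
# S35, GEO: the chart at infinity (helper11)

The S35 twin of helper18's `S34INF_crossAt` / helper27's `S34GM2_crossInf`, for the local shape
`S34C_Shape` with a NON-CONSTANT `G` (and for any statement about the local ring at a crossing
point):

* `S35INF_point`  : a non-cuspidal crossing point `m` of the chart at infinity lies over a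
  crossing point `m0` of the finite chart with THE SAME local ring;
* `S35INF_shape_of_noncusp`, `S35INF_shape` : `S34C_Shape` at the crossing points of the chart
  at infinity from `S34C_Shape` at the crossing points of the finite chart (cusps are never
  crossing points);
* `S35INF_crossing` : every crossing point of the chart at infinity lies over a crossing point
  of the finite chart with the same local ring;
* `S35INFK_shape`, `S35INFK_crossing` : the same for the concrete carriers of level `N' * q`,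
  `V2 = S34P1C_V2`, with all cusp inputs discharged (modular relation: helper8's `S34ME_cuspRel`).
-/

set_option autoImplicit false
set_option linter.unusedSectionVars false
set_option linter.unusedVariables false
set_option linter.style.haveILetI false

noncomputable section

namespace Fermat.Agent.S35_helper11_INF

open Fermat.Agent.S18_helper9_CDefs Fermat.Agent.S34_helper12_CDefs
  Fermat.Agent.S18_helper3_LOCRING Fermat.Agent.S18_helper20_CSAT Fermat.Agent.S34_Contracts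
  Fermat.Agent.S34_helper18_CUSP Fermat.Agent.S34_helper18_CMP Fermat.Agent.S34_helper18_INF

section Abstract

variable {L : Type*} [Field L]
variable {O : Subring L} {π j : L} {F1 : Subfield L} {V1 V2 A0 Ainf : Subring L}

/-- **The point of the finite chart below a non-cuspidal crossing point of the chart at
infinity**: it is a crossing point, with the same local ring. -/
theorem S35INF_point (S : S34C_Setup2 O π j F1 V1 V2 A0 Ainf)
    (hres : ∀ (m : Ideal Ainf), m.IsMaximal → (⟨π, S34INF_O_le_Ainf S S.π_mem⟩ : Ainf) ∈ m →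
      ∀ z : Ainf, ∃ c : L, ∃ hc : c ∈ O, z - ⟨c, S34INF_O_le_Ainf S hc⟩ ∈ m)
    (hπ : π ∈ Ainf) (m : Ideal Ainf) (hm : m.IsMaximal) (hπm : (⟨π, hπ⟩ : Ainf) ∈ m)
    (hjm : (⟨j⁻¹, S34CUSP_jinv_mem S⟩ : Ainf) ∉ m)
    (h1 : S34K_Thru π V1 Ainf m) (h2 : S34K_Thru π V2 Ainf m) :
    ∃ (hπ0 : π ∈ A0) (m0 : Ideal A0) (_ : m0.IsMaximal), (⟨π, hπ0⟩ : A0) ∈ m0 ∧
      S34K_Thru π V1 A0 m0 ∧ S34K_Thru π V2 A0 m0 ∧
      ∀ y : L, (∃ a c : A0, c ∉ m0 ∧ y * (c : L) = a) ↔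
        ∃ a c : Ainf, c ∉ m ∧ y * (c : L) = a := by
  have hmp : m.IsPrime := hm.isPrime
  have hem := S34INF_hem S m hjm
  have hclear := S34INF_clear S m hmp
  have hmax : (S34INF_m0 S m).IsMaximal :=
    S34CMP_isMaximal (S34CUSP_jinv_mem S) (S34INF_pole0 S) m hem O (S34INF_O_le_Ainf S)
      (S34INF_O_le_A0 S) hm (hres m hm hπm)
      (fun c hc hcm => S34INF_inv_mem_O S Ainf (S34INF_O_le_Ainf S) m hπm c hc hcm)
  have hπ0 : π ∈ A0 := S34INF_O_le_A0 S S.π_mem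
  have hπm0 : (⟨π, hπ0⟩ : A0) ∈ S34INF_m0 S m :=
    (S34CMP_mem_iff (S34CUSP_jinv_mem S) (S34INF_pole0 S) m hmp hem hπ hπ0).mpr hπm
  have hle1 : Ainf ≤ V1 := fun a ha => (S.chartInf.le_V ha).1
  have hle2 : Ainf ≤ V2 := fun a ha => (S.chartInf.le_V ha).2
  have hle1' : A0 ≤ V1 := fun a ha => (S.chart0.le_V ha).1
  have hle2' : A0 ≤ V2 := fun a ha => (S.chart0.le_V ha).2
  have ht1 := (S34CMP_thru_iff (S34CUSP_jinv_mem S) (S34INF_pole0 S) m hmp hem hclear π V1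
        hle1 hle1').mpr h1
  have ht2 := (S34CMP_thru_iff (S34CUSP_jinv_mem S) (S34INF_pole0 S) m hmp hem hclear π V2
        hle2 hle2').mpr h2
  exact ⟨hπ0, S34INF_m0 S m, hmax, hπm0, ht1, ht2, fun y =>
    S34CMP_loc_iff (S34CUSP_jinv_mem S) (S34INF_pole0 S) m hmp hem hclear y⟩

/-- `S34C_Shape` only depends on the local ring. -/
theorem S35INF_shape_congr {X Y : Subring L} (V : Subring L) (p : ℕ) (f G : L)
    (mX : Ideal X) (mY : Ideal Y)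
    (h : ∀ y : L, (∃ a c : X, c ∉ mX ∧ y * (c : L) = a) ↔
      ∃ a c : Y, c ∉ mY ∧ y * (c : L) = a)
    (hs : S34C_Shape π F1 V X p f G mX) : S34C_Shape π F1 V Y p f G mY := by
  obtain ⟨u, g, w, hu, hu', hgF, hgV, hgV', hf, hw, hw', c, hc, hG⟩ := hs
  exact ⟨u, g, w, (h u).1 hu, (h u⁻¹).1 hu', hgF, hgV, hgV', hf, (h w).1 hw, (h w⁻¹).1 hw',
    c, hc, hG⟩

/-- **The shape at a NON-CUSPIDAL crossing point of the chart at infinity** from the shapes at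
the crossing points of the finite chart. -/
theorem S35INF_shape_of_noncusp (S : S34C_Setup2 O π j F1 V1 V2 A0 Ainf)
    (hres : ∀ (m : Ideal Ainf), m.IsMaximal → (⟨π, S34INF_O_le_Ainf S S.π_mem⟩ : Ainf) ∈ m →
      ∀ z : Ainf, ∃ c : L, ∃ hc : c ∈ O, z - ⟨c, S34INF_O_le_Ainf S hc⟩ ∈ m)
    (p : ℕ) (f G : L)
    (h0 : ∀ (hπ : π ∈ A0) (m0 : Ideal A0) (hm0 : m0.IsMaximal), (⟨π, hπ⟩ : A0) ∈ m0 →
      S34K_Thru π V1 A0 m0 → S34K_Thru π V2 A0 m0 →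
      S34C_Shape π F1 (V1 ⊓ V2) A0 p f G m0)
    (hπ : π ∈ Ainf) (m : Ideal Ainf) (hm : m.IsMaximal) (hπm : (⟨π, hπ⟩ : Ainf) ∈ m)
    (hjm : (⟨j⁻¹, S34CUSP_jinv_mem S⟩ : Ainf) ∉ m)
    (h1 : S34K_Thru π V1 Ainf m) (h2 : S34K_Thru π V2 Ainf m) :
    S34C_Shape π F1 (V1 ⊓ V2) Ainf p f G m := by
  obtain ⟨hπ0, m0, hm0, hπm0, ht1, ht2, hloc⟩ := S35INF_point S hres hπ m hm hπm hjm h1 h2
  exact S35INF_shape_congr (V1 ⊓ V2) p f G m0 m hloc (h0 hπ0 m0 hm0 hπm0 ht1 ht2)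

variable {θ : L} {q : ℕ}

/-- **Every crossing point of the chart at infinity lies over a crossing point of the finite
chart with the same local ring** (cusps are never crossing points). -/
theorem S35INF_crossing (S : S34C_Setup2 O π j F1 V1 V2 A0 Ainf) (hq : 2 ≤ q)
    (hθ : θ ∈ F1) (hrel : S34CUSP_Rel O j θ q)
    (hK1 : ∃ v ∈ V1, θ - j ^ q = π * v) (hK2 : ∃ v ∈ V2, j - θ ^ q = π * v)
    (hθ2 : θ ∈ V2) (hθ2' : θ⁻¹ ∈ V2)
    (hres : ∀ (m : Ideal Ainf), m.IsMaximal → (⟨π, S34INF_O_le_Ainf S S.π_mem⟩ : Ainf) ∈ m →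
      ∀ z : Ainf, ∃ c : L, ∃ hc : c ∈ O, z - ⟨c, S34INF_O_le_Ainf S hc⟩ ∈ m)
    (hπ : π ∈ Ainf) (m : Ideal Ainf) (hm : m.IsMaximal) (hπm : (⟨π, hπ⟩ : Ainf) ∈ m)
    (h1 : S34K_Thru π V1 Ainf m) (h2 : S34K_Thru π V2 Ainf m) :
    ∃ (hπ0 : π ∈ A0) (m0 : Ideal A0) (_ : m0.IsMaximal), (⟨π, hπ0⟩ : A0) ∈ m0 ∧
      S34K_Thru π V1 A0 m0 ∧ S34K_Thru π V2 A0 m0 ∧
      ∀ y : L, (∃ a c : A0, c ∉ m0 ∧ y * (c : L) = a) ↔
        ∃ a c : Ainf, c ∉ m ∧ y * (c : L) = a := by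
  have hjm : (⟨j⁻¹, S34CUSP_jinv_mem S⟩ : Ainf) ∉ m := fun hum =>
    S34INF_cusp_not_thru S hq hθ hrel hK1 hK2 hθ2 hθ2' hπ (S34CUSP_jinv_mem S) m hm hπm hum
      ⟨h1, h2⟩
  exact S35INF_point S hres hπ m hm hπm hjm h1 h2

/-- **The shape at EVERY crossing point of the chart at infinity** from the shapes at the
crossing points of the finite chart. -/
theorem S35INF_shape (S : S34C_Setup2 O π j F1 V1 V2 A0 Ainf) (hq : 2 ≤ q)
    (hθ : θ ∈ F1) (hrel : S34CUSP_Rel O j θ q)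
    (hK1 : ∃ v ∈ V1, θ - j ^ q = π * v) (hK2 : ∃ v ∈ V2, j - θ ^ q = π * v)
    (hθ2 : θ ∈ V2) (hθ2' : θ⁻¹ ∈ V2)
    (hres : ∀ (m : Ideal Ainf), m.IsMaximal → (⟨π, S34INF_O_le_Ainf S S.π_mem⟩ : Ainf) ∈ m →
      ∀ z : Ainf, ∃ c : L, ∃ hc : c ∈ O, z - ⟨c, S34INF_O_le_Ainf S hc⟩ ∈ m)
    (p : ℕ) (f G : L)
    (h0 : ∀ (hπ : π ∈ A0) (m0 : Ideal A0) (hm0 : m0.IsMaximal), (⟨π, hπ⟩ : A0) ∈ m0 →
      S34K_Thru π V1 A0 m0 → S34K_Thru π V2 A0 m0 →
      S34C_Shape π F1 (V1 ⊓ V2) A0 p f G m0)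
    (hπ : π ∈ Ainf) (m : Ideal Ainf) (hm : m.IsMaximal) (hπm : (⟨π, hπ⟩ : Ainf) ∈ m)
    (h1 : S34K_Thru π V1 Ainf m) (h2 : S34K_Thru π V2 Ainf m) :
    S34C_Shape π F1 (V1 ⊓ V2) Ainf p f G m := by
  obtain ⟨hπ0, m0, hm0, hπm0, ht1, ht2, hloc⟩ :=
    S35INF_crossing S hq hθ hrel hK1 hK2 hθ2 hθ2' hres hπ m hm hπm h1 h2
  exact S35INF_shape_congr (V1 ⊓ V2) p f G m0 m hloc (h0 hπ0 m0 hm0 hπm0 ht1 ht2)

end Abstract

/-! ### The concrete carriers -/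

section Concrete

open ModularCurve
open Fermat.Agent.S18_helper25_COREDefs Fermat.Agent.S34_helper27_P1C
  Fermat.Agent.S34_helper27_GEOM Fermat.Agent.S34_helper27_GEOM2

local notation "Qb" => AlgebraicClosure ℚ

variable (A : ValuationSubring Qb) (K1 : IntermediateField ℚ Qb)
  [IsDiscreteValuationRing (S18K_O1 A K1)]

/-- **Every crossing point of the chart at infinity of level `N' * q` lies over a crossing point
of the finite chart with the same local ring.** -/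
theorem S35INFK_crossing {q : ℕ} (hq : q.Prime) (hA : A.LiesOverPrime q) (N' : ℕ) [NeZero N']
    [NeZero (N' * q)] (hqN : ¬ q ∣ N') (hsurj : Function.Surjective (S18K_res A K1))
    (hπ : S18K_π A K1 ∈ S18K_Ainf A K1 (N' * q)) (m : Ideal (S18K_Ainf A K1 (N' * q)))
    (hm : m.IsMaximal) (hπm : (⟨S18K_π A K1, hπ⟩ : S18K_Ainf A K1 (N' * q)) ∈ m)
    (h1 : S34K_Thru (S18K_π A K1) (S18K_V A K1 (N' * q)) (S18K_Ainf A K1 (N' * q)) m)
    (h2 : S34K_Thru (S18K_π A K1) (S34P1C_V2 A K1 hq N' hqN) (S18K_Ainf A K1 (N' * q)) m) :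
    ∃ (hπ0 : S18K_π A K1 ∈ S18K_A0 A K1 (N' * q)) (m0 : Ideal (S18K_A0 A K1 (N' * q)))
      (_ : m0.IsMaximal), (⟨S18K_π A K1, hπ0⟩ : S18K_A0 A K1 (N' * q)) ∈ m0 ∧
      S34K_Thru (S18K_π A K1) (S18K_V A K1 (N' * q)) (S18K_A0 A K1 (N' * q)) m0 ∧
      S34K_Thru (S18K_π A K1) (S34P1C_V2 A K1 hq N' hqN) (S18K_A0 A K1 (N' * q)) m0 ∧
      ∀ y : LaurentSeries K1,
        (∃ a c : S18K_A0 A K1 (N' * q), c ∉ m0 ∧ y * (c : LaurentSeries K1) = a) ↔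
          ∃ a c : S18K_Ainf A K1 (N' * q), c ∉ m ∧ y * (c : LaurentSeries K1) = a := by
  haveI : NeZero q := ⟨hq.ne_zero⟩
  have S := S34P1C_setup2 A K1 hq hA N' hqN
  obtain ⟨hθ, hK1, hK2, hθ2, hθ2'⟩ := S34GM2_cuspData A K1 hq hA N' hqN
  exact S35INF_crossing S hq.two_le hθ
    (Fermat.Agent.S34_helper8_MODEQ.S34ME_cuspRel (S18K_O A K1) q hq).1 hK1 hK2 hθ2 hθ2'
    (fun m hm hπm z => S34GM2_hres A K1 hq hA N' hqN hsurj m hm hπm z) hπ m hm hπm h1 h2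

/-- **The shape at every crossing point of the chart at infinity of level `N' * q`** from the
shapes at the crossing points of the finite chart. -/
theorem S35INFK_shape {q : ℕ} (hq : q.Prime) (hA : A.LiesOverPrime q) (N' : ℕ) [NeZero N']
    [NeZero (N' * q)] (hqN : ¬ q ∣ N') (hsurj : Function.Surjective (S18K_res A K1))
    (p : ℕ) (f G : LaurentSeries K1)
    (h0 : ∀ (hπ : S18K_π A K1 ∈ S18K_A0 A K1 (N' * q)) (m0 : Ideal (S18K_A0 A K1 (N' * q)))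
      (hm0 : m0.IsMaximal), (⟨S18K_π A K1, hπ⟩ : S18K_A0 A K1 (N' * q)) ∈ m0 →
      S34K_Thru (S18K_π A K1) (S18K_V A K1 (N' * q)) (S18K_A0 A K1 (N' * q)) m0 →
      S34K_Thru (S18K_π A K1) (S34P1C_V2 A K1 hq N' hqN) (S18K_A0 A K1 (N' * q)) m0 →
      S34C_Shape (S18K_π A K1) (S18K_F1 K1 (N' * q))
        (S18K_V A K1 (N' * q) ⊓ S34P1C_V2 A K1 hq N' hqN) (S18K_A0 A K1 (N' * q)) p f G m0)
    (hπ : S18K_π A K1 ∈ S18K_Ainf A K1 (N' * q)) (m : Ideal (S18K_Ainf A K1 (N' * q)))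
    (hm : m.IsMaximal) (hπm : (⟨S18K_π A K1, hπ⟩ : S18K_Ainf A K1 (N' * q)) ∈ m)
    (h1 : S34K_Thru (S18K_π A K1) (S18K_V A K1 (N' * q)) (S18K_Ainf A K1 (N' * q)) m)
    (h2 : S34K_Thru (S18K_π A K1) (S34P1C_V2 A K1 hq N' hqN) (S18K_Ainf A K1 (N' * q)) m) :
    S34C_Shape (S18K_π A K1) (S18K_F1 K1 (N' * q))
      (S18K_V A K1 (N' * q) ⊓ S34P1C_V2 A K1 hq N' hqN) (S18K_Ainf A K1 (N' * q)) p f G m := by
  haveI : NeZero q := ⟨hq.ne_zero⟩
  have S := S34P1C_setup2 A K1 hq hA N' hqN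
  obtain ⟨hθ, hK1, hK2, hθ2, hθ2'⟩ := S34GM2_cuspData A K1 hq hA N' hqN
  exact S35INF_shape S hq.two_le hθ
    (Fermat.Agent.S34_helper8_MODEQ.S34ME_cuspRel (S18K_O A K1) q hq).1 hK1 hK2 hθ2 hθ2'
    (fun m hm hπm z => S34GM2_hres A K1 hq hA N' hqN hsurj m hm hπm z) p f G h0 hπ m hm hπm
    h1 h2

end Concrete

end Fermat.Agent.S35_helper11_INF
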