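import Fermat.Agent.G_helper6_E2GEN
import Fermat.Agent.G_helper26_G8
import Fermat.Agent.S30_helper1_TATEF
import Fermat.Agent.S30_helper23_EIGLAT

/-!
# S35, (P6), the SURJ / WS route, hypothesis forms: `Θ` is onto the torsion up to a bounded
factor, and the adic `Θ` is onto the Tate module

Hypotheses: GOOD (the character of a torsion datum is trivial on parabolic elements) and LIFT
(parabolic characters of finite order lift to integral parabolic homomorphisms after raising to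
a bounded power).  The hypothesis-free forms are in `S35_helper11_SJK`.

* `S35SJ_core`     : the datum of `y` at the modulus `m * t` with `χ ^ (t * C) = PG_chi N m c`
  gives `Θ c = (t * C) • y` for every `Θ` with `PG_THETA N m Θ`;
* `S35SJ_fin_of`   : `Θ c = p ^ K • y` for every `y` killed by `p ^ (n + K)` (`PG_THETA N (p ^ n)`);
* `S35SJ_finC_of`  : `Θ c = C • y` for every `y` killed by `m` (`PG_THETA N m`);
* `S35SJ_ws_of`, `S35SJ_wsC_of` : the same over `ℚ̄` (descent by injectivity of the base change);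
* `S35SJ_span_of`  : the `ℤ_[p]`-span of the image of the adic `Θ` is the whole Tate module;
* `S35SJ_f₂_surjective`, `S35SJ_tate_of` : `PG30_f₂ ℤ_[p] 𝒪 (S30T_lift Θ₀ h1 h2)` is surjective.
-/

set_option autoImplicit false
set_option linter.style.haveILetI false
set_option linter.unusedVariables false

open UpperHalfPlane ModularForm CongruenceSubgroup AlgebraicCurve
open scoped MatrixGroups ModularForm Manifold TensorProduct
open Fermat.Agent.G_helper6_Defs Fermat.Agent.G_helper14_G8bForms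
  Fermat.Agent.G_helper14_G8bRoot Fermat.Agent.G_helper14_G8b
  Fermat.Agent.G_helper7_G8PLUG Fermat.Agent.S30_helper1_TATE Fermat.Agent.S30_helper1_TATEF
  Fermat.Agent.S30_helper23_EIGLAT

noncomputable section

namespace Fermat.Agent.S35_helper11_SJ

/-- the trivial character is good -/
theorem S35SJ_good_one (N : ℕ) : PG_IsGoodChar N (1 : Gamma0 N →* ℂˣ) where
  fin := ⟨1, one_pos, fun γ => by simp⟩
  par := fun γ _ => rfl
  tors := fun γ n _ _ => rfl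

/-- a power of a nonzero form with trivial character is nonzero -/
theorem S35SJ_pow_ne_zero {N : ℕ} {k : ℤ} {b : ℍ → ℂ} (hb : PG_IsForm N k 1 b) (hb0 : b ≠ 0)
    (t : ℕ) : b ^ t ≠ 0 := by
  intro h
  have h1 : PG_qLaur (b ^ t) = 0 := by rw [h]; exact PG_G8b_qLaur_zero
  rw [PG_G8b_qLaur_pow hb] at h1
  exact pow_ne_zero t (PG_G8b_qLaur_ne_zero hb hb0) h1

/-- **the core**: a datum of `y` at the modulus `m * t` whose character satisfies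
`χ ^ (t * C) = PG_chi N m c` gives `Θ c = (t * C) • y`. -/
theorem S35SJ_core (N : ℕ) [NeZero N] (m t C : ℕ) (hm : 0 < m) (ht : 0 < t)
    (Θ : PG_M N →+ PG_JC N) (hΘ : PG_THETA N m Θ) (y : PG_JC N) (χ : Gamma0 N →* ℂˣ)
    (hd : PG_G8b_Datum N (m * t) y χ) (c : PG_M N)
    (hc : χ ^ (t * C) = PG_chi N m (c : Additive (Gamma0 N) →+ ℤ)) :
    Θ c = (t * C) • y := by
  obtain ⟨D, x, k, a, b, r, rfl, hx, hxD, ha, hb, ha0, hb0, hreal, hr, hrg, hχ⟩ := hd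
  have hmt : 0 < m * t := Nat.mul_pos hm ht
  -- the forms
  have hr' : PG_IsForm N (((t * C : ℕ) : ℤ) * k)
      (PG_chi N m (c : Additive (Gamma0 N) →+ ℤ) * 1) (r ^ (t * C)) :=
    PG_G8b_form_congr (PG_G8b_form_pow hr (t * C)) rfl
      (MonoidHom.ext fun γ => by rw [hc]; simp) rfl
  have hb' : PG_IsForm N (((t * C : ℕ) : ℤ) * k) 1 (b ^ (t * C)) := PG_G8b_form_pow_triv hb _
  have hbm1 := PG_G8b_form_pow_triv hb (m * t - 1)
  have hA := PG_G8b_form_mul_triv ha hbm1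
  have hB := PG_G8b_form_mul_triv hb hbm1
  have hrm : (r ^ (t * C)) ^ m = (a * b ^ (m * t - 1)) ^ C := by
    rw [← hrg, ← pow_mul, ← pow_mul]
    congr 1
    ring
  have hbm : (b ^ (t * C)) ^ m = (b * b ^ (m * t - 1)) ^ C := by
    rw [← pow_succ', ← pow_mul, ← pow_mul]
    congr 1
    have : m * t - 1 + 1 = m * t := by omega
    rw [this]
    ring
  have hab0 := PG_G8b_mul_pow_ne_zero ha hb ha0 hb0 (m * t - 1)
  have hr0 : r ^ (t * C) ≠ 0 := by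
    intro h
    rw [h, zero_pow hm.ne'] at hrm
    exact S35SJ_pow_ne_zero hA hab0 C hrm.symm
  have hreal' : PG_Realizes (x ^ C) ((r ^ (t * C)) ^ m) ((b ^ (t * C)) ^ m) := by
    unfold PG_Realizes at hreal ⊢
    rw [hrm, hbm, PG_G8b_qLaur_pow hA, PG_G8b_qLaur_pow hB, PG_G8b_qLaur_mul hb hbm1,
      PG_G8b_qLaur_mul ha hbm1, ← hreal]
    push_cast
    ring
  have hdiv : ∀ v : Place ℂ (PG_FC N),
      ((m : ℕ) : ℤ) * (((t * C) • D : Divisor.degZero (K := ℂ) (F := PG_FC N)) :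
        Divisor ℂ (PG_FC N)) v = v.ord (x ^ C) := by
    intro v
    rw [Fermat.Agent.G_helper18_G6.PG_G6_ord_pow, ← hxD v]
    have h1 : (((t * C) • D : Divisor.degZero (K := ℂ) (F := PG_FC N)) :
        Divisor ℂ (PG_FC N)) v = ((t * C : ℕ) : ℤ) * (D : Divisor ℂ (PG_FC N)) v := by
      rw [AddSubgroup.coe_nsmul, Finsupp.smul_apply, nsmul_eq_mul]
    rw [h1]
    push_cast
    ring
  have h := hΘ.char c _ 1 _ _ (x ^ C) ((t * C) • D) (S35SJ_good_one N) hr' hb' hr0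
    (S35SJ_pow_ne_zero hb hb0 _) hreal' hdiv
  rw [h]
  rfl

/-- the landed existence of a datum, with the three analytic inputs discharged -/
theorem S35SJ_datum (N : ℕ) [NeZero N] (m : ℕ) (hm : 0 < m) (y : PG_JC N)
    (hy : (m : ℤ) • y = 0) : ∃ χ, PG_G8b_Datum N m y χ :=
  PG_G8b_exists_datum hm (Fermat.Agent.G_helper6_E2GEN.PG_E2GEN_root _ hm)
    (Fermat.Agent.G_helper16_G5.PG_G5_an2 N) (Fermat.Agent.G_helper16_G5.PG_G5_an4 N) y hy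

/-- **FIN (hypothesis form).** -/
theorem S35SJ_fin_of (N : ℕ) [NeZero N] (p K : ℕ) (hp : p.Prime)
    (hGOOD : ∀ m : ℕ, 0 < m → ∀ (y : PG_JC N) (χ : Gamma0 N →* ℂˣ), PG_G8b_Datum N m y χ →
      ∀ γ : Gamma0 N, ((γ : SL(2, ℤ)) : Matrix (Fin 2) (Fin 2) ℤ).trace ^ 2 = 4 → χ γ = 1)
    (hLIFT : ∀ (n : ℕ) (χ : Gamma0 N →* ℂˣ), (∀ γ, χ γ ^ (p ^ (n + K)) = 1) →
      (∀ γ : Gamma0 N, ((γ : SL(2, ℤ)) : Matrix (Fin 2) (Fin 2) ℤ).trace ^ 2 = 4 → χ γ = 1) →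
      ∃ c : PG_M N, χ ^ (p ^ K) = PG_chi N (p ^ n) (c : Additive (Gamma0 N) →+ ℤ))
    (n : ℕ) (Θ : PG_M N →+ PG_JC N) (hΘ : PG_THETA N (p ^ n) Θ) (y : PG_JC N)
    (hy : ((p ^ (n + K) : ℕ) : ℤ) • y = 0) : ∃ c : PG_M N, Θ c = (p ^ K) • y := by
  have hm : 0 < p ^ (n + K) := pow_pos hp.pos _
  obtain ⟨χ, hd⟩ := S35SJ_datum N _ hm y hy
  have hpar := hGOOD _ hm y χ hd
  have hχ : ∀ γ, χ γ ^ (p ^ (n + K)) = 1 := by
    obtain ⟨D, x, k, a, b, r, -, -, -, -, -, -, -, -, -, -, hχ⟩ := hd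
    exact hχ
  obtain ⟨c, hc⟩ := hLIFT n χ hχ hpar
  refine ⟨c, ?_⟩
  have h := S35SJ_core N (p ^ n) (p ^ K) 1 (pow_pos hp.pos n) (pow_pos hp.pos K) Θ hΘ y χ
    (by rw [← pow_add]; exact hd) c (by rw [mul_one]; exact hc)
  rw [h, mul_one]

/-- **FIN with a uniform constant (hypothesis form).** -/
theorem S35SJ_finC_of (N : ℕ) [NeZero N] (m C : ℕ) (hm : 0 < m)
    (hGOOD : ∀ (y : PG_JC N) (χ : Gamma0 N →* ℂˣ), PG_G8b_Datum N m y χ →
      ∀ γ : Gamma0 N, ((γ : SL(2, ℤ)) : Matrix (Fin 2) (Fin 2) ℤ).trace ^ 2 = 4 → χ γ = 1)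
    (hLIFT : ∀ χ : Gamma0 N →* ℂˣ, (∀ γ, χ γ ^ m = 1) →
      (∀ γ : Gamma0 N, ((γ : SL(2, ℤ)) : Matrix (Fin 2) (Fin 2) ℤ).trace ^ 2 = 4 → χ γ = 1) →
      ∃ c : PG_M N, PG_chi N m (c : Additive (Gamma0 N) →+ ℤ) = χ ^ C)
    (Θ : PG_M N →+ PG_JC N) (hΘ : PG_THETA N m Θ) (y : PG_JC N)
    (hy : (m : ℤ) • y = 0) : ∃ c : PG_M N, Θ c = C • y := by
  obtain ⟨χ, hd⟩ := S35SJ_datum N _ hm y hy
  have hpar := hGOOD y χ hd
  have hχ : ∀ γ, χ γ ^ m = 1 := by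
    obtain ⟨D, x, k, a, b, r, -, -, -, -, -, -, -, -, -, -, hχ⟩ := hd
    exact hχ
  obtain ⟨c, hc⟩ := hLIFT χ hχ hpar
  refine ⟨c, ?_⟩
  have h := S35SJ_core N m 1 C hm one_pos Θ hΘ y χ (by rw [mul_one]; exact hd) c
    (by rw [one_mul]; exact hc.symm)
  rw [h, one_mul]

/-- FIN over `ℚ̄` for a torsion class of level `p ^ n` (the form (WS), `C = p ^ K`). -/
theorem S35SJ_ws_of (N : ℕ) [NeZero N] (p K : ℕ)
    (hFIN : ∀ (n : ℕ) (Θ : PG_M N →+ PG_JC N), PG_THETA N (p ^ n) Θ → ∀ y : PG_JC N,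
      ((p ^ (n + K) : ℕ) : ℤ) • y = 0 → ∃ c : PG_M N, Θ c = (p ^ K) • y)
    (n : ℕ) (Θ₀ : PG_M N →+ ModularCurve.JZero N) (ΘC : PG_M N →+ PG_JC N)
    (hΘ : PG_THETA N (p ^ n) ΘC) (hb : ∀ c, PG8P_b ℂ N (Θ₀ c) = ΘC c)
    (y : ModularCurve.JZero N) (hy : ((p ^ n : ℕ) : ℤ) • y = 0) :
    ∃ c : PG_M N, Θ₀ c = ((p ^ K : ℕ) : ℤ) • y := by
  have hy' : ((p ^ (n + K) : ℕ) : ℤ) • PG8P_b ℂ N y = 0 := by
    rw [← map_zsmul, pow_add, mul_comm, Nat.cast_mul, mul_smul, hy, smul_zero, map_zero]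
  obtain ⟨c, hc⟩ := hFIN n ΘC hΘ _ hy'
  refine ⟨c, Fermat.Agent.G_helper26_G8.PG8_b_injective ℂ N ?_⟩
  rw [hb, hc, map_zsmul, natCast_zsmul]

/-- FIN over `ℚ̄` with a uniform constant. -/
theorem S35SJ_wsC_of (N : ℕ) [NeZero N] (m C : ℕ)
    (hFIN : ∀ (Θ : PG_M N →+ PG_JC N), PG_THETA N m Θ → ∀ y : PG_JC N,
      (m : ℤ) • y = 0 → ∃ c : PG_M N, Θ c = C • y)
    (Θ₀ : PG_M N →+ ModularCurve.JZero N) (ΘC : PG_M N →+ PG_JC N)
    (hΘ : PG_THETA N m ΘC) (hb : ∀ c, PG8P_b ℂ N (Θ₀ c) = ΘC c)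
    (y : ModularCurve.JZero N) (hy : (m : ℤ) • y = 0) :
    ∃ c : PG_M N, Θ₀ c = (C : ℤ) • y := by
  have hy' : (m : ℤ) • PG8P_b ℂ N y = 0 := by
    rw [← map_zsmul, hy, map_zero]
  obtain ⟨c, hc⟩ := hFIN ΘC hΘ _ hy'
  refine ⟨c, Fermat.Agent.G_helper26_G8.PG8_b_injective ℂ N ?_⟩
  rw [hb, hc, map_zsmul, natCast_zsmul]

/-- **SPAN**: the image of the adic `Θ` generates the Tate module over `ℤ_[p]`. -/
theorem S35SJ_span_of (N : ℕ) [NeZero N] (p : ℕ) [Fact p.Prime] (K : ℕ)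
    (hFIN : ∀ (n : ℕ) (Θ : PG_M N →+ PG_JC N), PG_THETA N (p ^ n) Θ → ∀ y : PG_JC N,
      ((p ^ (n + K) : ℕ) : ℤ) • y = 0 → ∃ c : PG_M N, Θ c = (p ^ K) • y)
    (Θ₀ : ℕ → PG_M N →+ ModularCurve.JZero N) (ΘC : ℕ → PG_M N →+ PG_JC N)
    (hΘ : ∀ n, PG_THETA N (p ^ n) (ΘC n)) (hb : ∀ n c, PG8P_b ℂ N (Θ₀ n c) = ΘC n c)
    (h1 : ∀ n c, (p ^ n) • Θ₀ n c = 0) (h2 : ∀ n c, p • Θ₀ (n + 1) c = Θ₀ n c)
    (hfin : {y : ModularCurve.JZero N | p • y = 0}.Finite) :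
    Submodule.span ℤ_[p] (Set.range (S30T_lift Θ₀ h1 h2)) = ⊤ := by
  haveI : Module.Finite ℤ_[p] (S30T_Tate (ModularCurve.JZero N) p) := S30T_finite hfin
  have hinj := Fermat.Agent.G_helper26_G8.PG8_b_injective ℂ N
  rw [eq_top_iff]
  refine Submodule.le_of_le_smul_of_le_jacobson_bot (I := IsLocalRing.maximalIdeal ℤ_[p])
    Module.Finite.fg_top (IsLocalRing.maximalIdeal_le_jacobson _) ?_
  intro t _
  -- find `c` with `Θ₀ 1 c = t 1`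
  have hy : ((p ^ (1 + K) : ℕ) : ℤ) •
      PG8P_b ℂ N ((t : ℕ → ModularCurve.JZero N) (1 + K)) = 0 := by
    rw [← map_zsmul, natCast_zsmul, S30T_pow_smul_self, map_zero]
  obtain ⟨c, hc⟩ := hFIN 1 (ΘC 1) (hΘ 1) _ hy
  have hc1 : Θ₀ 1 c = (t : ℕ → ModularCurve.JZero N) 1 := by
    apply hinj
    rw [hb, hc, ← map_nsmul, S30T_pow_smul_add]
  have hmem : t - S30T_lift Θ₀ h1 h2 c ∈ (IsLocalRing.maximalIdeal ℤ_[p]) •
      (⊤ : Submodule ℤ_[p] (S30T_Tate (ModularCurve.JZero N) p)) := by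
    rw [S30T_mem_smul_top_iff]
    show (t : ℕ → ModularCurve.JZero N) 1 - Θ₀ 1 c = 0
    rw [hc1, sub_self]
  have ht : t = S30T_lift Θ₀ h1 h2 c + (t - S30T_lift Θ₀ h1 h2 c) := by abel
  rw [ht]
  exact Submodule.add_mem_sup (Submodule.subset_span ⟨c, rfl⟩) hmem

/-- generic: if the image of `θ` spans `Λ`, then `PG30_f₂` is onto -/
theorem S35SJ_f₂_surjective (R : Type*) [CommRing R] (𝒪 : Type*) [CommRing 𝒪] [Algebra R 𝒪]
    {Λ : Type*} [AddCommGroup Λ] [Module R Λ] {M : Type*} [AddCommGroup M] (θ : M →+ Λ)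
    (hspan : Submodule.span R (Set.range θ) = ⊤) :
    Function.Surjective (PG30_f₂ R 𝒪 θ) := by
  have h1t : ∀ t : Λ, ∃ w, PG30_f₂ R 𝒪 θ w = (1 : 𝒪) ⊗ₜ[R] t := by
    intro t
    have ht : t ∈ Submodule.span R (Set.range θ) := by
      rw [hspan]; exact Submodule.mem_top
    induction ht using Submodule.span_induction with
    | mem x hx =>
      obtain ⟨c, rfl⟩ := hx
      exact ⟨(1 : 𝒪) ⊗ₜ[ℤ] c, PG30_f₂_tmul _ _ _ _ _⟩
    | zero => exact ⟨0, by rw [map_zero, TensorProduct.tmul_zero]⟩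
    | add x y _ _ hx hy =>
      obtain ⟨a, ha⟩ := hx
      obtain ⟨b, hb⟩ := hy
      exact ⟨a + b, by rw [map_add, ha, hb, TensorProduct.tmul_add]⟩
    | smul a x _ hx =>
      obtain ⟨w, hw⟩ := hx
      refine ⟨(algebraMap R 𝒪 a) • w, ?_⟩
      rw [map_smul, hw, TensorProduct.tmul_smul, TensorProduct.smul_tmul',
        TensorProduct.smul_tmul', smul_eq_mul, mul_one, Algebra.smul_def, mul_one]
  intro z
  induction z using TensorProduct.induction_on with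
  | zero => exact ⟨0, map_zero _⟩
  | tmul o t =>
    obtain ⟨w, hw⟩ := h1t t
    refine ⟨o • w, ?_⟩
    rw [map_smul, hw, TensorProduct.smul_tmul', smul_eq_mul, mul_one]
  | add x y hx hy =>
    obtain ⟨a, ha⟩ := hx
    obtain ⟨b, hb⟩ := hy
    exact ⟨a + b, by rw [map_add, ha, hb]⟩

/-- **TATE (hypothesis form)**: the adic `Θ` is onto after every base change. -/
theorem S35SJ_tate_of (N : ℕ) [NeZero N] (p : ℕ) [Fact p.Prime] (K : ℕ)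
    (hFIN : ∀ (n : ℕ) (Θ : PG_M N →+ PG_JC N), PG_THETA N (p ^ n) Θ → ∀ y : PG_JC N,
      ((p ^ (n + K) : ℕ) : ℤ) • y = 0 → ∃ c : PG_M N, Θ c = (p ^ K) • y)
    (Θ₀ : ℕ → PG_M N →+ ModularCurve.JZero N) (ΘC : ℕ → PG_M N →+ PG_JC N)
    (hΘ : ∀ n, PG_THETA N (p ^ n) (ΘC n)) (hb : ∀ n c, PG8P_b ℂ N (Θ₀ n c) = ΘC n c)
    (h1 : ∀ n c, (p ^ n) • Θ₀ n c = 0) (h2 : ∀ n c, p • Θ₀ (n + 1) c = Θ₀ n c)
    (hfin : {y : ModularCurve.JZero N | p • y = 0}.Finite)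
    {𝒪 : Type*} [CommRing 𝒪] [Algebra ℤ_[p] 𝒪] :
    Function.Surjective (PG30_f₂ ℤ_[p] 𝒪 (S30T_lift Θ₀ h1 h2)) :=
  S35SJ_f₂_surjective ℤ_[p] 𝒪 _ (S35SJ_span_of N p K hFIN Θ₀ ΘC hΘ hb h1 h2 hfin)

end Fermat.Agent.S35_helper11_SJ
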