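import Fermat.Agent.S35_helper1_GOODB

/-!
# S35, P6 SURJ route, piece GOOD: the wrapper

`S35GOOD_main_of`: if `y ∈ Pic⁰ (F_ℂ)[m]` has the datum `(D, x = a / b, r ^ m = a b ^ (m - 1))`
with character `χ` (`PG_G8b_Datum N m y χ`) and `χ` is trivial on the elements
`q.out⁻¹ T ^ n q.out` of `Γ₀(N)` (the analytic core, `hcore`), then `χ γ = 1` for every
`γ ∈ Γ₀(N)` of trace `± 2`.

* `S35GOOD_reduce` : the reduction of a general parabolic element to `hcore` and `χ (-1) = 1`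
  (`parabolic_conj`, conjugation invariance of `χ`).
* `S35GOOD_neg` : `χ (-1) = 1` for the character of a datum.
-/

set_option autoImplicit false
set_option linter.unusedSectionVars false
set_option linter.unusedVariables false
set_option linter.style.haveILetI false
set_option linter.unnecessarySimpa false

noncomputable section

open UpperHalfPlane ModularForm CongruenceSubgroup AlgebraicCurve IntermediateField
open scoped MatrixGroups ModularForm Manifold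
open Fermat.Agent.S20 Fermat.Agent.S24
open Fermat.Agent.G_helper6_Defs
open Fermat.Agent.G_helper16_G5 Fermat.Agent.G_helper14_G8b Fermat.Agent.G_helper14_G8bRoot
open Fermat.Agent.S35_helper1_GOODA Fermat.Agent.S35_helper1_LC
open Fermat.Agent.S35_helper1_GOODB

namespace Fermat.Agent.S35_helper1_GOODW

/-- the reduction of a general element of trace `± 2` to the cusps `q.out⁻¹ ∞` -/
theorem S35GOOD_reduce (N : ℕ) [NeZero N] (χ : Gamma0 N →* ℂˣ)
    (hneg : S35GOOD_Kr χ (-1))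
    (hcore : ∀ (q : Q N) (n : ℕ)
      (hδ : q.out⁻¹ * ModularGroup.T ^ n * (q.out⁻¹)⁻¹ ∈ Gamma0 N),
      χ ⟨q.out⁻¹ * ModularGroup.T ^ n * (q.out⁻¹)⁻¹, hδ⟩ = 1)
    (δ : Gamma0 N)
    (hδ : ((δ : SL(2, ℤ)) : Matrix (Fin 2) (Fin 2) ℤ).trace ^ 2 = 4) : χ δ = 1 := by
  obtain ⟨σ, j, hj⟩ := Fermat.Agent.S21_helper29_P2.parabolic_conj (δ : SL(2, ℤ)) hδ
  obtain ⟨g, hg⟩ := QuotientGroup.mk_out_eq_mul (Gamma0 N) σ⁻¹
  set q : Q N := (QuotientGroup.mk σ⁻¹ : Q N) with hq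
  have hγ : q.out⁻¹ = (g : SL(2, ℤ))⁻¹ * σ := by
    rw [hg]
    group
  -- the key step: conjugates of `T ^ n` by `σ`
  have key : ∀ n : ℕ, σ * ModularGroup.T ^ n * σ⁻¹ ∈ Gamma0 N →
      S35GOOD_Kr χ (σ * ModularGroup.T ^ n * σ⁻¹) := by
    intro n hn
    have e1 : q.out⁻¹ * ModularGroup.T ^ n * (q.out⁻¹)⁻¹ =
        (g : SL(2, ℤ))⁻¹ * (σ * ModularGroup.T ^ n * σ⁻¹) * ((g : SL(2, ℤ))⁻¹)⁻¹ := by
      rw [hγ]
      group
    have hmem : q.out⁻¹ * ModularGroup.T ^ n * (q.out⁻¹)⁻¹ ∈ Gamma0 N := by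
      rw [e1]
      exact (Gamma0 N).mul_mem ((Gamma0 N).mul_mem ((Gamma0 N).inv_mem g.2) hn)
        ((Gamma0 N).inv_mem ((Gamma0 N).inv_mem g.2))
    have h1 : S35GOOD_Kr χ (q.out⁻¹ * ModularGroup.T ^ n * (q.out⁻¹)⁻¹) :=
      ⟨hmem, hcore q n hmem⟩
    have h2 := S35GOOD_Kr_conj h1 g.2
    refine S35GOOD_Kr_of_eq h2 ?_
    rw [e1]
    group
  -- `δ` or `-δ` or their inverses is such a conjugate
  have hnegmem : (-1 : SL(2, ℤ)) ∈ Gamma0 N := S35GOOD_neg_one_mem N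
  have hKr : S35GOOD_Kr χ (δ : SL(2, ℤ)) := by
    have hcases : ∃ n : ℕ, (j = (n : ℤ) ∨ j = -(n : ℤ)) := by
      rcases Int.natAbs_eq j with h | h
      · exact ⟨j.natAbs, Or.inl h⟩
      · exact ⟨j.natAbs, Or.inr h⟩
    obtain ⟨n, hn⟩ := hcases
    rcases hj with hj | hj
    · rcases hn with hn | hn
      · -- δ = σ T^n σ⁻¹
        have e : (δ : SL(2, ℤ)) = σ * ModularGroup.T ^ n * σ⁻¹ := by
          rw [hj, hn, zpow_natCast]
        rw [e]
        exact key n (e ▸ δ.2)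
      · -- δ⁻¹ = σ T^n σ⁻¹
        have e : (δ : SL(2, ℤ))⁻¹ = σ * ModularGroup.T ^ n * σ⁻¹ := by
          rw [hj, hn, zpow_neg, zpow_natCast]
          group
        have h1 := key n (e ▸ (Gamma0 N).inv_mem δ.2)
        have h2 := S35GOOD_Kr_inv h1
        refine S35GOOD_Kr_of_eq h2 ?_
        rw [← e, inv_inv]
    · rcases hn with hn | hn
      · -- -δ = σ T^n σ⁻¹
        have e : (-1 : SL(2, ℤ)) * (δ : SL(2, ℤ)) = σ * ModularGroup.T ^ n * σ⁻¹ := by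
          rw [hj, hn, zpow_natCast]
          simp only [mul_neg, neg_mul, one_mul, neg_neg]
        have h1 := key n (e ▸ (Gamma0 N).mul_mem hnegmem δ.2)
        have h2 := S35GOOD_Kr_mul hneg h1
        refine S35GOOD_Kr_of_eq h2 ?_
        rw [← e]
        simp only [neg_mul, one_mul, neg_neg]
      · -- (-δ)⁻¹ = σ T^n σ⁻¹
        have e : ((-1 : SL(2, ℤ)) * (δ : SL(2, ℤ)))⁻¹ = σ * ModularGroup.T ^ n * σ⁻¹ := by
          rw [hj, hn, zpow_neg, zpow_natCast]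
          simp only [mul_neg, neg_mul, one_mul, neg_neg]
          group
        have h1 := key n (e ▸ (Gamma0 N).inv_mem ((Gamma0 N).mul_mem hnegmem δ.2))
        have h2 := S35GOOD_Kr_mul hneg (S35GOOD_Kr_inv h1)
        refine S35GOOD_Kr_of_eq h2 ?_
        rw [← e, inv_inv]
        simp only [neg_mul, one_mul, neg_neg]
  obtain ⟨h', h1⟩ := hKr
  exact h1

/-- `χ (-1) = 1` for the character of a datum -/
theorem S35GOOD_neg {N m : ℕ} (hm : 0 < m) {y : PG_JC N} {χ : Gamma0 N →* ℂˣ}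
    (hd : PG_G8b_Datum N m y χ) : S35GOOD_Kr χ (-1) := by
  obtain ⟨D, x, k, a, b, r, -, hx0, hxD, ha, hb, ha0, hb0, hreal, hr, hrg, hχ⟩ := hd
  have hab := PG_G8b_mul_pow_ne_zero ha hb ha0 hb0 (m - 1)
  have hr0 : r ≠ 0 := by
    rintro rfl
    apply hab
    rw [← hrg]
    exact zero_pow hm.ne'
  exact S35GOOD_Kr_neg_one ha ha0 hr hr0

/-- **GOOD, modulo the analytic core.** -/
theorem S35GOOD_main_of {N m : ℕ} [NeZero N] (hm : 0 < m) {y : PG_JC N}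
    {χ : Gamma0 N →* ℂˣ} (hd : PG_G8b_Datum N m y χ)
    (hcore : ∀ (q : Q N) (n : ℕ)
      (hδ : q.out⁻¹ * ModularGroup.T ^ n * (q.out⁻¹)⁻¹ ∈ Gamma0 N),
      χ ⟨q.out⁻¹ * ModularGroup.T ^ n * (q.out⁻¹)⁻¹, hδ⟩ = 1)
    (γ : Gamma0 N)
    (hγ : ((γ : SL(2, ℤ)) : Matrix (Fin 2) (Fin 2) ℤ).trace ^ 2 = 4) : χ γ = 1 :=
  S35GOOD_reduce N χ (S35GOOD_neg hm hd) hcore γ hγ

end Fermat.Agent.S35_helper1_GOODW
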