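import Fermat.Agent.G_helper16_G5i
import Fermat.Agent.G_helper14_G8b
import Fermat.Agent.G_helper7_G8g

/-!
# S35, P6 second route (WS / SURJ), analytic core of GOOD = WS-A

The character `χ` of a torsion datum (`PG_G8b_Datum N m y χ`: `x = a / b`, `r ^ m = a b ^ (m-1)`,
`r` a form with character `χ`) is trivial on `γ T ^ n γ⁻¹ ∈ Γ₀(N)`, `γ = q.out⁻¹`.
Also: change of period `laurentInf (N * m) g = qExpand m (laurentInf N g)`.
-/

set_option autoImplicit false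
set_option linter.unusedSectionVars false
set_option linter.unusedVariables false
set_option linter.style.haveILetI false
set_option linter.unnecessarySimpa false

noncomputable section

open UpperHalfPlane ModularForm CongruenceSubgroup AlgebraicCurve IntermediateField
open scoped MatrixGroups ModularForm Manifold
open Fermat.Agent.S20 Fermat.Agent.S24
open Fermat.Agent.G_helper6_Defs

namespace Fermat.Agent.S35_helper5_WSA

open Fermat.Agent.S24_helper21_LINF (tw tw_apply Good coeff_unique good_tw Npos hasSum_reindex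
  laurentInf_eq_Lser coeff_Lser Lser)

/-! ### Change of period `N → N * m` -/

section Period

variable (N m : ℕ) [NeZero N] [NeZero m] {g : ℍ → ℂ} {M : ℕ}

theorem S35WSA_qParam_eq (z : ℂ) :
    Function.Periodic.qParam (N : ℝ) z =
      Function.Periodic.qParam ((N * m : ℕ) : ℝ) z ^ m := by
  have hN : (N : ℂ) ≠ 0 := Nat.cast_ne_zero.2 (NeZero.ne N)
  have hm : (m : ℂ) ≠ 0 := Nat.cast_ne_zero.2 (NeZero.ne m)
  simp only [Function.Periodic.qParam]
  rw [← Complex.exp_nat_mul]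
  congr 1
  push_cast
  field_simp

theorem S35WSA_tw_eq (M : ℕ) (g : ℍ → ℂ) : tw N M g = tw (N * m) (m * M) g := by
  funext z
  simp only [tw]
  rw [S35WSA_qParam_eq N m, pow_mul]

theorem S35WSA_vadd_mul {g : ℍ → ℂ} (hg : ∀ z : ℍ, g ((N : ℝ) +ᵥ z) = g z) (k : ℕ)
    (z : ℍ) : g (((N * k : ℕ) : ℝ) +ᵥ z) = g z := by
  induction k with
  | zero => simp
  | succ k ih =>
    have e : (((N * (k + 1) : ℕ) : ℝ)) +ᵥ z = ((N : ℝ)) +ᵥ (((N * k : ℕ) : ℝ) +ᵥ z) := by
      rw [vadd_vadd]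
      congr 1
      push_cast
      ring
    rw [e, hg, ih]

theorem S35WSA_hasPoleInf_mul (hg : HasPoleInf N M g) : HasPoleInf (N * m) (m * M) g := by
  refine ⟨hg.1, fun z => S35WSA_vadd_mul N hg.2.1 m z, ?_⟩
  change IsBoundedAtImInfty (tw (N * m) (m * M) g)
  rw [← S35WSA_tw_eq]
  exact hg.2.2

theorem S35WSA_coeff_tw (hg : HasPoleInf N M g) (j : ℕ) :
    (qExpansion ((N * m : ℕ) : ℝ) (tw (N * m) (m * M) g)).coeff j =
      if m ∣ j then (qExpansion (N : ℝ) (tw N M g)).coeff (j / m) else 0 := by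
  haveI : NeZero (N * m) := ⟨Nat.mul_ne_zero (NeZero.ne N) (NeZero.ne m)⟩
  refine coeff_unique (Npos (N * m)) (good_tw (N * m) (S35WSA_hasPoleInf_mul N m hg))
    (fun j => if m ∣ j then (qExpansion (N : ℝ) (tw N M g)).coeff (j / m) else 0)
    (fun τ => ?_) j
  have h1 := (good_tw N hg).hasSum (Npos N) τ
  rw [S35WSA_tw_eq N m] at h1
  have h2 := hasSum_reindex (NeZero.pos m) _ _ h1
  have e : (fun j : ℕ => (if m ∣ j then (qExpansion (N : ℝ) (tw N M g)).coeff (j / m)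
        else 0) • Function.Periodic.qParam ((N * m : ℕ) : ℝ) τ ^ j) =
      fun j : ℕ => if m ∣ j then
        (qExpansion (N : ℝ) (tw (N * m) (m * M) g)).coeff (j / m) •
          Function.Periodic.qParam (N : ℝ) τ ^ (j / m) else 0 := by
    funext j
    by_cases hj : m ∣ j
    · rw [if_pos hj, if_pos hj, S35WSA_qParam_eq N m, ← pow_mul, Nat.mul_div_cancel' hj,
        S35WSA_tw_eq N m]
    · rw [if_neg hj, if_neg hj, zero_smul]
  have h3 : HasSum (fun j : ℕ => (if m ∣ j then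
        (qExpansion (N : ℝ) (tw N M g)).coeff (j / m) else 0) •
        Function.Periodic.qParam ((N * m : ℕ) : ℝ) τ ^ j) (tw (N * m) (m * M) g τ) := by
    rw [e]
    exact h2
  exact h3

/-- **Change of period**: the `q_(N m)`-expansion of an `N`-periodic function is the
`q_N`-expansion with `q_N = q_(N m) ^ m`. -/
theorem S35WSA_laurentInf_period (hg : HasPoleInf N M g) :
    laurentInf (N * m) g = ModularCurve.qExpand ℂ m (laurentInf N g) := by
  haveI : NeZero (N * m) := ⟨Nat.mul_ne_zero (NeZero.ne N) (NeZero.ne m)⟩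
  rw [laurentInf_eq_Lser (N * m) (S35WSA_hasPoleInf_mul N m hg), laurentInf_eq_Lser N hg]
  ext k
  rw [coeff_Lser]
  have hm : (0 : ℤ) < (m : ℤ) := by exact_mod_cast NeZero.pos m
  by_cases hk : (m : ℤ) ∣ k
  · obtain ⟨j, rfl⟩ := hk
    rw [ModularCurve.qExpand_coeff_mul, coeff_Lser]
    have e : (m : ℤ) * j + ((m * M : ℕ) : ℤ) = (m : ℤ) * (j + M) := by
      push_cast
      ring
    rw [e]
    by_cases hj : j + (M : ℤ) < 0
    · rw [if_pos hj, if_pos (mul_neg_of_pos_of_neg hm hj)]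
    · have hj' : 0 ≤ j + (M : ℤ) := not_lt.1 hj
      rw [if_neg hj, if_neg (not_lt.2 (mul_nonneg hm.le hj')), S35WSA_coeff_tw N m hg,
        Int.natAbs_mul, Int.natAbs_natCast, if_pos (dvd_mul_right _ _),
        Nat.mul_div_cancel_left _ (NeZero.pos m)]
  · rw [ModularCurve.qExpand_coeff_of_not_dvd m _ hk]
    split_ifs with hk'
    · rfl
    · rw [S35WSA_coeff_tw N m hg, if_neg]
      intro hdvd
      apply hk
      have h1 : (m : ℤ) ∣ ((k + ((m * M : ℕ) : ℤ)).natAbs : ℤ) := by exact_mod_cast hdvd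
      rw [Int.natAbs_of_nonneg (not_lt.1 hk')] at h1
      have h2 : (m : ℤ) ∣ ((m * M : ℕ) : ℤ) := by
        push_cast
        exact dvd_mul_right _ _
      exact (Int.dvd_add_left h2).1 h1

end Period


/-! ### Cosets, rescalings, quasi-periodicity -/

section Tools

open Fermat.Agent.G_helper16_G5

variable {N : ℕ} [NeZero N]

theorem S35WSA_rescale_pow (q : Q N) (f : PG_G5_FC N) (n : ℕ) (j : ℤ) :
    (PG_G5_iotaInf N (((MulAction.toPerm ModularGroup.T⁻¹ : Equiv.Perm (Q N)) ^ n) q) f).coeff j =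
      (Complex.exp (2 * Real.pi * Complex.I / N) ^ j) ^ n * (PG_G5_iotaInf N q f).coeff j := by
  induction n with
  | zero => simp
  | succ n ih =>
    rw [pow_succ', Equiv.Perm.mul_apply, PG_G5_iotaInf_rescale, ih, pow_succ]
    ring

theorem S35WSA_perm_fix (q : Q N) (n : ℕ)
    (hδ : q.out⁻¹ * ModularGroup.T ^ n * (q.out⁻¹)⁻¹ ∈ Gamma0 N) :
    ((MulAction.toPerm ModularGroup.T⁻¹ : Equiv.Perm (Q N)) ^ n) q = q := by
  have e : (MulAction.toPerm ((ModularGroup.T ^ n)⁻¹) : Equiv.Perm (Q N)) =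
      (MulAction.toPerm (ModularGroup.T⁻¹) : Equiv.Perm (Q N)) ^ n := by
    rw [← inv_pow]
    exact map_pow (MulAction.toPermHom (SL(2, ℤ)) (Q N)) ModularGroup.T⁻¹ n
  rw [← e]
  show ((ModularGroup.T ^ n)⁻¹ • q : Q N) = q
  have h2 : (QuotientGroup.mk ((ModularGroup.T ^ n)⁻¹ * q.out) : Q N) =
      QuotientGroup.mk q.out := by
    apply QuotientGroup.eq.mpr
    have h4 : ((ModularGroup.T ^ n)⁻¹ * q.out)⁻¹ * q.out =
        q.out⁻¹ * ModularGroup.T ^ n * (q.out⁻¹)⁻¹ := by group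
    rw [h4]
    exact hδ
  rw [QuotientGroup.out_eq'] at h2
  conv_lhs => rw [← QuotientGroup.out_eq' q]
  exact h2

theorem S35WSA_slash_char {wt : ℤ} {χ : Gamma0 N →* ℂˣ} {r : ℍ → ℂ}
    (hr : PG_IsForm N wt χ r) (δ : SL(2, ℤ)) (hδ : δ ∈ Gamma0 N) :
    r ∣[wt] δ = ((χ ⟨δ, hδ⟩ : ℂˣ) : ℂ) • r := by
  funext u
  have h : r (δ • u) = ((χ ⟨δ, hδ⟩ : ℂˣ) : ℂ) * denom (δ : GL (Fin 2) ℝ) u ^ wt * r u :=
    hr.aut ⟨δ, hδ⟩ u
  rw [ModularForm.SL_slash_apply, h]
  have hden : denom (δ : GL (Fin 2) ℝ) u ≠ 0 := denom_ne_zero _ u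
  have h1 : denom (δ : GL (Fin 2) ℝ) u ^ wt * denom (δ : GL (Fin 2) ℝ) u ^ (-wt) = 1 := by
    rw [← zpow_add₀ hden]
    simp
  simp only [Pi.smul_apply, smul_eq_mul]
  linear_combination (((χ ⟨δ, hδ⟩ : ℂˣ) : ℂ) * r u) * h1

theorem S35WSA_slash_quasi {wt : ℤ} {χ : Gamma0 N →* ℂˣ} {r : ℍ → ℂ}
    (hr : PG_IsForm N wt χ r) (γ : SL(2, ℤ)) (n : ℕ)
    (hδ : γ * ModularGroup.T ^ n * γ⁻¹ ∈ Gamma0 N) (w : ℍ) :
    (r ∣[wt] γ) ((n : ℝ) +ᵥ w) =
      ((χ ⟨γ * ModularGroup.T ^ n * γ⁻¹, hδ⟩ : ℂˣ) : ℂ) * (r ∣[wt] γ) w := by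
  set δ : SL(2, ℤ) := γ * ModularGroup.T ^ n * γ⁻¹ with hδdef
  have h1 := S35WSA_slash_char hr δ hδ
  have h2 : (r ∣[wt] γ) ∣[wt] (ModularGroup.T ^ n : SL(2, ℤ)) =
      ((χ ⟨δ, hδ⟩ : ℂˣ) : ℂ) • (r ∣[wt] γ) := by
    rw [← SlashAction.slash_mul]
    have e : γ * ModularGroup.T ^ n = δ * γ := by
      rw [hδdef]
      group
    rw [e, SlashAction.slash_mul, h1, ModularForm.SL_smul_slash]
  have h3 := congrFun h2 w
  rw [ModularForm.SL_slash_apply, PG_G5_denom_T_pow] at h3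
  have e2 : (ModularGroup.T ^ n : SL(2, ℤ)) • w = (n : ℝ) +ᵥ w := by
    have := UpperHalfPlane.modular_T_zpow_smul w (n : ℤ)
    rw [zpow_natCast] at this
    rw [this]
    simp
  rw [e2] at h3
  simpa using h3

theorem S35WSA_quasi_iter {g : ℍ → ℂ} (n : ℕ) (c : ℂ)
    (hq : ∀ w : ℍ, g ((n : ℝ) +ᵥ w) = c * g w) (k : ℕ) (w : ℍ) :
    g (((n * k : ℕ) : ℝ) +ᵥ w) = c ^ k * g w := by
  induction k with
  | zero => simp
  | succ k ih =>
    have e : (((n * (k + 1) : ℕ) : ℝ)) +ᵥ w = ((n : ℝ)) +ᵥ (((n * k : ℕ) : ℝ) +ᵥ w) := by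
      rw [vadd_vadd]
      congr 1
      push_cast
      ring
    rw [e, hq, ih, pow_succ]
    ring

/-- a quasi-periodic function: the multiplier is read off from the order of the expansion -/
theorem S35WSA_quasi_coeff (K : ℕ) [NeZero K] {g : ℍ → ℂ} (hg : HasPoleInf K 0 g)
    (hg0 : laurentInf K g ≠ 0) (n : ℕ) (c : ℂ)
    (hq : ∀ w : ℍ, g ((n : ℝ) +ᵥ w) = c * g w) :
    c = (Complex.exp (2 * Real.pi * Complex.I / K) ^ (laurentInf K g).order) ^ n := by
  have h := (PG_G5_shift_nat K hg n).2 (laurentInf K g).order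
  have e : (fun w : ℍ => g ((n : ℝ) +ᵥ w)) = (fun _ : ℍ => c) * g := by
    funext w
    rw [hq w]
    rfl
  rw [e, Fermat.Agent.S24_helper21_LINF.laurentInf_mul K
    (Fermat.Agent.S24_helper21_LINF.hasPoleInf_const K c) hg,
    Fermat.Agent.S24_helper21_LINF.laurentInf_const, HahnSeries.C_mul_eq_smul,
    HahnSeries.coeff_smul, smul_eq_mul] at h
  have h1 : (laurentInf K g).coeff (laurentInf K g).order ≠ 0 :=
    Fermat.Agent.S24_helper16_B.coeff_order_ne_zero hg0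
  exact mul_right_cancel₀ h1 h

end Tools


/-! ### The core: the character of a torsion datum kills `γ T ^ n γ⁻¹` -/

section Core

open Fermat.Agent.G_helper16_G5 Fermat.Agent.G_helper14_G8b

theorem S35WSA_zpow_comm (z : ℂ) (a : ℤ) (n : ℕ) : (z ^ a) ^ n = (z ^ n) ^ a := by
  rw [← zpow_natCast (z ^ a) n, ← zpow_mul, mul_comm, zpow_mul, zpow_natCast]

theorem S35WSA_eq_one_of_coeff {C : LaurentSeries ℂ} (hC : C ≠ 0) (ξ : ℂ)
    (h : C.coeff C.order = ξ * C.coeff C.order) : ξ = 1 := by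
  have h1 : C.coeff C.order ≠ 0 := Fermat.Agent.S24_helper16_B.coeff_order_ne_zero hC
  have h3 : (ξ - 1) * C.coeff C.order = 0 := by
    rw [sub_mul, one_mul, ← h, sub_self]
  rcases mul_eq_zero.mp h3 with h4 | h4
  · exact sub_eq_zero.mp h4
  · exact absurd h4 h1

set_option maxHeartbeats 1600000 in
theorem S35WSA_core (N m : ℕ) [NeZero N] (hm : 0 < m) (y : PG_JC N) (χ : Gamma0 N →* ℂˣ)
    (h : PG_G8b_Datum N m y χ) (q : Q N) (n : ℕ)
    (hδ : q.out⁻¹ * ModularGroup.T ^ n * (q.out⁻¹)⁻¹ ∈ Gamma0 N) :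
    χ ⟨q.out⁻¹ * ModularGroup.T ^ n * (q.out⁻¹)⁻¹, hδ⟩ = 1 := by
  obtain ⟨D, x, k, a, b, r, -, hx0, hxD, ha, hb, ha0, hb0, hreal, hr, hrg, hχ⟩ := h
  haveI : NeZero m := ⟨hm.ne'⟩
  haveI : NeZero (N * m) := ⟨Nat.mul_ne_zero (NeZero.ne N) hm.ne'⟩
  haveI := PG_G5_finiteDimensional N
  have hj := PG_G5_TR N
  have ht := Fermat.Agent.S24_helper19_Final.transcendental_inv hj
  haveI hfd : FiniteDimensional ℂ⟮(PG_G5_jElt N)⁻¹⟯ (PG_G5_FC N) :=
    Fermat.Agent.S24_helper19_Final.finiteDimensional_congr_field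
      (Fermat.Agent.S24_helper19_Final.adjoin_inv (PG_G5_jElt N)).symm inferInstance
  have hI : Fintype.card (Q N) =
      Module.finrank ℂ⟮(PG_G5_jElt N)⁻¹⟯ (PG_G5_FC N) := by
    rw [Fermat.Agent.S24_helper19_Final.finrank_congr_field
      (Fermat.Agent.S24_helper19_Final.adjoin_inv (PG_G5_jElt N)), (PG_G5_DEG N).2,
      Fermat.Agent.S24_helper19_Final.card_Q]
  have hιt : ∀ q q', PG_G5_iotaInf N q (PG_G5_jElt N)⁻¹ =
      PG_G5_iotaInf N q' (PG_G5_jElt N)⁻¹ := by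
    intro q q'
    rw [map_inv₀, map_inv₀, PG_G5_iotaInf_jElt, PG_G5_iotaInf_jElt]
  have hN : 0 < N := Nat.pos_of_ne_zero (NeZero.ne N)
  have hζ : IsPrimitiveRoot (Complex.exp (2 * Real.pi * Complex.I / N)) N :=
    Complex.isPrimitiveRoot_exp N (NeZero.ne N)
  obtain ⟨v, e, kk, he, hkk, hek, hper, -, hw, -⟩ := PG_G5_ram_period
    ((PG_G5_jElt N)⁻¹) ht PG_G5_phi hI (PG_G5_iotaInf N)
    (PG_G5_iotaInf_const N) (PG_G5_iotaInf_injective N) hιt N hN (PG_G5_iotaInf_order N)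
    (Complex.exp (2 * Real.pi * Complex.I / N)) hζ
    (MulAction.toPerm ModularGroup.T⁻¹) (PG_G5_iotaInf_rescale N) q
  set ζ : ℂ := Complex.exp (2 * Real.pi * Complex.I / N) with hζdef
  have hfix := S35WSA_perm_fix q n hδ
  set γ : SL(2, ℤ) := q.out⁻¹ with hγ
  have hperN : ((MulAction.toPerm ModularGroup.T⁻¹ : Equiv.Perm (Q N)) ^ N) q = q := by
    have key : ∀ m' : ℕ, m' = kk * e →
        ((MulAction.toPerm ModularGroup.T⁻¹ : Equiv.Perm (Q N)) ^ m') q = q := by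
      intro m' hm'
      rw [hm', pow_mul]
      exact Equiv.Perm.pow_apply_eq_self_of_apply_eq_self hper e
    exact key N (by rw [← hek, mul_comm])
  have hδN : γ * ModularGroup.T ^ N * γ⁻¹ ∈ Gamma0 N := by
    have := PG_G5_conj_mem_pow N ModularGroup.T q N hperN
    rw [hγ, inv_inv]
    exact this
  have hgood := PG_G5_isGoodChar_one N
  -- the slashes of `a`, `b`
  have hPa : HasPoleInf N 0 (a ∣[k] γ) :=
    ⟨MDifferentiable.slash ha.holo k _, fun z => PG_G5_slash_periodic hgood ha γ N hδN z,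
      by simpa using ha.bdd γ⟩
  have hPb : HasPoleInf N 0 (b ∣[k] γ) :=
    ⟨MDifferentiable.slash hb.holo k _, fun z => PG_G5_slash_periodic hgood hb γ N hδN z,
      by simpa using hb.bdd γ⟩
  have hA := PG_G5_form_hasPoleInf hgood ha
  have hB := PG_G5_form_hasPoleInf hgood hb
  have hx := (PG_G5_realizes_iff x hA hB).mp hreal
  have hmul := PG_G5_iotaInf_mul N q x hA hB hx
    (a' := a ∣[k] γ) (b' := b ∣[k] γ) hPa hPb
    (fun w => denom (γ : GL (Fin 2) ℝ) w ^ (-k))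
    (fun w => by rw [ModularForm.SL_slash_apply, mul_comm])
    (fun w => by rw [ModularForm.SL_slash_apply, mul_comm])
  set A' := laurentInf N (a ∣[k] γ) with hA'def
  set B' := laurentInf N (b ∣[k] γ) with hB'def
  have hA' : A' ≠ 0 := PG_G5_laurentInf_ne_zero N hPa (PG_G5_slash_ne_zero ha0 γ)
  have hB' : B' ≠ 0 := PG_G5_laurentInf_ne_zero N hPb (PG_G5_slash_ne_zero hb0 γ)
  have hιx : PG_G5_iotaInf N q x ≠ 0 := (map_ne_zero _).mpr hx0
  have hordeq : (PG_G5_iotaInf N q x).order + B'.order = A'.order := by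
    have h1 := HahnSeries.order_mul hιx hB'
    rw [hmul] at h1
    linarith
  have hwx := hw x hx0
  -- (1) `ζ ^ (e * n) = 1`
  obtain ⟨t, ht1⟩ := Fermat.Agent.G_helper7_G8g.PG8g_exists_ord_eq_one v
  have ht0 : t ≠ 0 := by
    rintro rfl
    rw [Place.ord_zero] at ht1
    exact zero_ne_one ht1
  have hιt0 : PG_G5_iotaInf N q t ≠ 0 := (map_ne_zero _).mpr ht0
  have hwt := hw t ht0
  rw [ht1, mul_one] at hwt
  have h1 : (ζ ^ (e : ℤ)) ^ n = 1 := by
    have h2 := S35WSA_rescale_pow q t n (PG_G5_iotaInf N q t).order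
    rw [hfix] at h2
    have h3 := S35WSA_eq_one_of_coeff hιt0 _ h2
    rw [hwt] at h3
    exact h3
  -- (2) `ζ ^ (n * ord B') = 1`
  have h2 : (ζ ^ n) ^ B'.order = 1 :=
    S35WSA_eq_one_of_coeff hB' _ (PG_G5_coeff_of_periodic N hPb n
      (fun w => PG_G5_slash_periodic hgood hb γ n hδ w) B'.order)
  -- (3) the slash of `r`
  have hcm : (((χ ⟨γ * ModularGroup.T ^ N * γ⁻¹, hδN⟩ : ℂˣ) : ℂ)) ^ m = 1 := by
    rw [← Units.val_pow_eq_pow_val, hχ]
    rfl
  have hPr : HasPoleInf (N * m) 0 (r ∣[k] γ) := by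
    refine ⟨MDifferentiable.slash hr.holo k _, fun z => ?_, by simpa using hr.bdd γ⟩
    rw [S35WSA_quasi_iter N _ (fun w => S35WSA_slash_quasi hr γ N hδN w) m z, hcm, one_mul]
  have hpow : (fun w => (r ∣[k] γ) w ^ m) =
      (a ∣[k] γ) * (fun w => (b ∣[k] γ) w ^ (m - 1)) := by
    funext w
    simp only [Pi.mul_apply, ModularForm.SL_slash_apply]
    have h3 := congrFun hrg (γ • w)
    simp only [Pi.mul_apply, Pi.pow_apply] at h3
    rw [mul_pow, h3, mul_pow]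
    obtain ⟨m', rfl⟩ : ∃ m', m = m' + 1 := ⟨m - 1, by omega⟩
    simp only [Nat.add_sub_cancel]
    ring
  set R'' := laurentInf (N * m) (r ∣[k] γ) with hR''def
  have hPbm : HasPoleInf N 0 (fun w => (b ∣[k] γ) w ^ (m - 1)) :=
    PG_G5_hasPoleInf_pow N hPb (m - 1)
  have hRpow : R'' ^ m = ModularCurve.qExpand ℂ m (A' * B' ^ (m - 1)) := by
    rw [hR''def, ← PG_G5_laurentInf_pow (N * m) hPr m, hpow,
      S35WSA_laurentInf_period N m (Fermat.Agent.S24_helper17_EMB.hasPoleInf_mul N hPa hPbm),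
      Fermat.Agent.S24_helper21_LINF.laurentInf_mul N hPa hPbm,
      PG_G5_laurentInf_pow N hPb (m - 1)]
  have hAB : A' * B' ^ (m - 1) ≠ 0 := mul_ne_zero hA' (pow_ne_zero _ hB')
  have hR0 : R'' ≠ 0 := by
    intro h0
    have h3 : R'' ^ m = 0 := by
      rw [h0]
      exact zero_pow hm.ne'
    rw [hRpow] at h3
    exact hAB (ModularCurve.qExpand_injective m (by rw [h3, map_zero]))
  have hordR : (m : ℤ) * R''.order = (m : ℤ) * (A'.order + ((m - 1 : ℕ) : ℤ) * B'.order) := by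
    have h3 := congrArg HahnSeries.order hRpow
    rw [HahnSeries.order_pow, Fermat.Agent.S24_helper10_LOCinf.order_qExpand m hAB,
      HahnSeries.order_mul hA' (pow_ne_zero _ hB'), HahnSeries.order_pow] at h3
    simp only [nsmul_eq_mul] at h3
    exact h3
  have hm0 : (m : ℤ) ≠ 0 := by exact_mod_cast hm.ne'
  have hordR' : R''.order = A'.order + ((m - 1 : ℕ) : ℤ) * B'.order :=
    mul_left_cancel₀ hm0 hordR
  have hc' := S35WSA_quasi_coeff (N * m) hPr hR0 n _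
    (fun w => S35WSA_slash_quasi hr γ n hδ w)
  set ζ' : ℂ := Complex.exp (2 * Real.pi * Complex.I / ((N * m : ℕ) : ℂ)) with hζ'def
  have hζ'm : ζ' ^ m = ζ := by
    have hNc : (N : ℂ) ≠ 0 := Nat.cast_ne_zero.2 (NeZero.ne N)
    have hmc : (m : ℂ) ≠ 0 := Nat.cast_ne_zero.2 hm.ne'
    rw [hζ'def, hζdef, ← Complex.exp_nat_mul]
    congr 1
    push_cast
    field_simp
  have hζ0 : ζ ≠ 0 := Complex.exp_ne_zero _
  have hE : R''.order =
      (m : ℤ) * ((e : ℤ) * (D : Divisor ℂ (PG_FC N)) v + B'.order) := by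
    have h3 := hxD v
    have h4 : ((m - 1 : ℕ) : ℤ) = (m : ℤ) - 1 := by
      rw [Nat.cast_sub hm]
      simp
    rw [hordR', ← hordeq, hwx, ← h3, h4]
    ring
  apply Units.ext
  rw [Units.val_one, hc', hE, zpow_mul, zpow_natCast, hζ'm, zpow_add₀ hζ0, mul_pow, zpow_mul,
    S35WSA_zpow_comm (ζ ^ (e : ℤ)), h1, one_zpow, one_mul, S35WSA_zpow_comm ζ, h2]

end Core

end Fermat.Agent.S35_helper5_WSA
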