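import Fermat.Agent.S35_helper12_TOP3

/-!
# S35 (helper12): the bridges torsion → Tate module → coefficient ring

* `S35BR_kills_baseChange` (Mathlib only): if `Θ` kills the kernel of a linear map `φ`, then the
  base change of `Θ` to a FLAT algebra kills the kernel of the base change of `φ`;
* `S35BR_prod_eq_map`, `S35BR_prod_apply`: the product `∏ (ρ σ - e)` on the Tate module of
  `J` is the coordinatewise action of the product `∏ (σ - e)` of additive endomorphisms of `J`;
* `S35BR_tateMap`: the Tate module is functorial for additive maps `J →+ J'`;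
* `S35BR_eq_zero_of_pow_smul`: the Tate module has no `p`-torsion;
* `S35BR_flat`: a domain of characteristic `0` is flat over `ℤ_[p]`;
* `S35BR_bad`, `S35BR_bad2`: the hypothesis `S35TOP_Bad` of the top wiring from

    (G)  on the torsion points: `x` new, `lam ^ k • x = 0` ⟹ `lam ^ c • ∏ (σ - e) x = 0`,
    (P6) a nonzero eigenvector which is new.
-/

set_option autoImplicit false
set_option linter.unusedSectionVars false
set_option linter.unusedVariables false
set_option linter.style.haveILetI false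

open scoped TensorProduct

noncomputable section

namespace Fermat.Agent.S35_helper12_BR

local notation "Qb" => AlgebraicClosure ℚ
local notation "GQ" => (AlgebraicClosure ℚ ≃ₐ[ℚ] AlgebraicClosure ℚ)

open Fermat.Agent.S30_helper1_TATE Fermat.Agent.S30_helper1_TATEF
  Fermat.Agent.S35_helper12_TOP3

/-! ### Flat base change -/

section Flat

variable {R : Type*} [CommRing R] (𝒪 : Type*) [CommRing 𝒪] [Algebra R 𝒪] [Module.Flat R 𝒪]
  {Λ Λ' : Type*} [AddCommGroup Λ] [Module R Λ] [AddCommGroup Λ'] [Module R Λ']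

/-- If `Θ` kills `ker φ`, then `Θ.baseChange` kills `ker φ.baseChange` (flat base change). -/
theorem S35BR_kills_baseChange (φ : Λ →ₗ[R] Λ') (Θ : Module.End R Λ)
    (h : ∀ x : Λ, φ x = 0 → Θ x = 0) (v : 𝒪 ⊗[R] Λ) (hv : φ.baseChange 𝒪 v = 0) :
    Θ.baseChange 𝒪 v = 0 := by
  have hle : LinearMap.ker φ ≤ LinearMap.ker Θ := fun x hx =>
    LinearMap.mem_ker.2 (h x (LinearMap.mem_ker.1 hx))
  -- `Θ = Θ' ∘ φ'`, `φ = ι ∘ φ'`
  let φ' : Λ →ₗ[R] LinearMap.range φ := φ.rangeRestrict
  let Θ' : LinearMap.range φ →ₗ[R] Λ :=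
    ((LinearMap.ker φ).liftQ Θ hle).comp (φ.quotKerEquivRange.symm : _ →ₗ[R] _)
  have hΘ : Θ = Θ'.comp φ' := by
    refine LinearMap.ext fun x => ?_
    show Θ x = (LinearMap.ker φ).liftQ Θ hle (φ.quotKerEquivRange.symm (φ.rangeRestrict x))
    have : φ.quotKerEquivRange.symm (φ.rangeRestrict x) = Submodule.Quotient.mk x := by
      rw [LinearEquiv.symm_apply_eq]
      rfl
    rw [this, Submodule.liftQ_apply]
  have hφ : φ = (LinearMap.range φ).subtype.comp φ' := by
    refine LinearMap.ext fun x => ?_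
    rfl
  have hinj : Function.Injective ((LinearMap.range φ).subtype.baseChange 𝒪) :=
    Module.Flat.lTensor_preserves_injective_linearMap _ (Submodule.injective_subtype _)
  have h1 : (LinearMap.range φ).subtype.baseChange 𝒪 (φ'.baseChange 𝒪 v) = 0 := by
    rw [← LinearMap.comp_apply, ← LinearMap.baseChange_comp, ← hφ]
    exact hv
  have h2 : φ'.baseChange 𝒪 v = 0 := hinj (by rw [h1, map_zero])
  rw [hΘ, LinearMap.baseChange_comp, LinearMap.comp_apply, h2, map_zero]

variable {Λ'' : Type*} [AddCommGroup Λ''] [Module R Λ'']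

/-- the same for the intersection of two kernels -/
theorem S35BR_kills_baseChange2 (φ₁ : Λ →ₗ[R] Λ') (φ₂ : Λ →ₗ[R] Λ'') (Θ : Module.End R Λ)
    (h : ∀ x : Λ, φ₁ x = 0 → φ₂ x = 0 → Θ x = 0) (v : 𝒪 ⊗[R] Λ)
    (hv₁ : φ₁.baseChange 𝒪 v = 0) (hv₂ : φ₂.baseChange 𝒪 v = 0) :
    Θ.baseChange 𝒪 v = 0 := by
  refine S35BR_kills_baseChange 𝒪
    ((LinearMap.inl R Λ' Λ'').comp φ₁ + (LinearMap.inr R Λ' Λ'').comp φ₂) Θ (fun x hx => ?_) v ?_
  · have h1 : (φ₁ x, φ₂ x) = (0 : Λ' × Λ'') := by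
      have := hx
      simp only [LinearMap.add_apply, LinearMap.comp_apply, LinearMap.inl_apply,
        LinearMap.inr_apply, Prod.mk_add_mk, add_zero, zero_add] at this
      exact this
    exact h x (congrArg Prod.fst h1) (congrArg Prod.snd h1)
  · rw [LinearMap.baseChange_add, LinearMap.baseChange_comp, LinearMap.baseChange_comp,
      LinearMap.add_apply, LinearMap.comp_apply, LinearMap.comp_apply, hv₁, hv₂, map_zero,
      map_zero, add_zero]

end Flat

/-! ### Torsion points and the Tate module -/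

section Tate

variable {J : Type*} [AddCommGroup J] {p : ℕ} [Fact p.Prime]

/-- the product of the factors `ρ - e` on the Tate module is induced by the product of the
factors `f - e` on `J` -/
theorem S35BR_prod_eq_map (f : AddMonoid.End J) (l : List ℤ) :
    (l.map (fun e : ℤ => S30T_map (p := p) f -
        (e : ℤ_[p]) • (1 : Module.End ℤ_[p] (S30T_Tate J p)))).prod =
      S30T_map (p := p) ((l.map (fun e : ℤ => f - (e : AddMonoid.End J))).prod) := by
  rw [map_list_prod, List.map_map]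
  congr 1
  refine List.map_congr_left fun e _ => ?_
  show S30T_map (p := p) f - (e : ℤ_[p]) • (1 : Module.End ℤ_[p] (S30T_Tate J p)) =
    S30T_map (p := p) (f - (e : AddMonoid.End J))
  rw [map_sub, map_intCast, ← Algebra.algebraMap_eq_smul_one, map_intCast]

theorem S35BR_prod_apply (f : AddMonoid.End J) (l : List ℤ) (x : S30T_Tate J p) (n : ℕ) :
    (((l.map (fun e : ℤ => S30T_map (p := p) f -
        (e : ℤ_[p]) • (1 : Module.End ℤ_[p] (S30T_Tate J p)))).prod x : S30T_Tate J p) :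
          ℕ → J) n =
      (l.map (fun e : ℤ => f - (e : AddMonoid.End J))).prod ((x : ℕ → J) n) := by
  rw [S35BR_prod_eq_map]
  rfl

/-- the Tate module has no `p`-torsion -/
theorem S35BR_eq_zero_of_pow_smul (c : ℕ) (y : S30T_Tate J p)
    (h : ∀ n : ℕ, (p ^ c) • (y : ℕ → J) n = 0) : y = 0 := by
  refine S30T_ext fun n => ?_
  have h1 := S30T_pow_smul_add y n c
  rw [h (n + c)] at h1
  exact h1.symm

variable {J' : Type*} [AddCommGroup J']

/-- functoriality of the Tate module for additive maps, on the underlying sets -/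
def S35BR_tateFun (ν : J →+ J') (x : S30T_Tate J p) : S30T_Tate J' p :=
  ⟨fun n => ν ((x : ℕ → J) n), by
    constructor
    · intro n
      show (p ^ n) • ν ((x : ℕ → J) n) = 0
      rw [← map_nsmul, S30T_pow_smul_self, map_zero]
    · intro n
      show p • ν ((x : ℕ → J) (n + 1)) = ν ((x : ℕ → J) n)
      rw [← map_nsmul, S30T_smul_succ]⟩

/-- **functoriality of the Tate module** for additive maps `J →+ J'`. -/
def S35BR_tateMap (ν : J →+ J') : S30T_Tate J p →ₗ[ℤ_[p]] S30T_Tate J' p where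
  toFun := S35BR_tateFun ν
  map_add' x y := by
    ext n
    show ν ((x : ℕ → J) n + (y : ℕ → J) n) = ν ((x : ℕ → J) n) + ν ((y : ℕ → J) n)
    exact map_add ν _ _
  map_smul' a x := by
    ext n
    show ν (a.appr n • (x : ℕ → J) n) = a.appr n • ν ((x : ℕ → J) n)
    exact map_nsmul ν _ _

@[simp]
theorem S35BR_tateMap_apply (ν : J →+ J') (x : S30T_Tate J p) (n : ℕ) :
    ((S35BR_tateMap (p := p) ν x : S30T_Tate J' p) : ℕ → J') n = ν ((x : ℕ → J) n) := rfl

theorem S35BR_tateMap_eq_zero_iff (ν : J →+ J') (x : S30T_Tate J p) :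
    S35BR_tateMap (p := p) ν x = 0 ↔ ∀ n : ℕ, ν ((x : ℕ → J) n) = 0 := by
  constructor
  · intro h n
    have := congrArg (fun y : S30T_Tate J' p => (y : ℕ → J') n) h
    exact this
  · intro h
    exact S30T_ext fun n => h n

end Tate

/-! ### Flatness of the coefficient ring -/

/-- a domain of characteristic `0` is flat over `ℤ_[p]` -/
theorem S35BR_flat (p : ℕ) [Fact p.Prime] (𝒪 : Type*) [CommRing 𝒪] [IsDomain 𝒪] [CharZero 𝒪]
    [Algebra ℤ_[p] 𝒪] : Module.Flat ℤ_[p] 𝒪 := by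
  have hinj : Function.Injective (algebraMap ℤ_[p] 𝒪) := by
    rw [injective_iff_map_eq_zero]
    intro a ha
    by_contra ha0
    -- `a = u * p ^ n`
    obtain ⟨n, u, hu⟩ : ∃ (n : ℕ) (u : ℤ_[p]ˣ), a = u * (p : ℤ_[p]) ^ n :=
      ⟨a.valuation, PadicInt.unitCoeff ha0, PadicInt.unitCoeff_spec ha0⟩
    rw [hu, map_mul, map_pow, map_natCast] at ha
    rcases mul_eq_zero.1 ha with h | h
    · exact (IsUnit.map (algebraMap ℤ_[p] 𝒪) u.isUnit).ne_zero h
    · have hp : (p : 𝒪) ≠ 0 := Nat.cast_ne_zero.2 (Fact.out : p.Prime).ne_zero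
      exact pow_ne_zero n hp h
  haveI : Module.IsTorsionFree ℤ_[p] 𝒪 := by
    refine ⟨fun a ha x y hxy => ?_⟩
    have h1 : algebraMap ℤ_[p] 𝒪 a * x = algebraMap ℤ_[p] 𝒪 a * y := by
      simpa [Algebra.smul_def] using hxy
    have h2 : algebraMap ℤ_[p] 𝒪 a ≠ 0 := by
      intro h0
      have := hinj (h0.trans (map_zero _).symm)
      exact ha.ne_zero this
    exact mul_left_cancel₀ h2 h1
  infer_instance

/-! ### The hypothesis of the top wiring -/

/-- **`S35TOP_Bad` from the torsion points**, one linear map.  `φ` is any `ℤ_[lam]`-linear map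
out of the Tate module of `J₀(M)`; (G): for a compatible system `x` in the kernel of `φ`, every
`x n` is killed by `lam ^ c` times the product of the `σ - e`; (P6): some nonzero
`χ`-eigenvector lies in the kernel of the base change of `φ`. -/
theorem S35BR_bad (M : ℕ) [NeZero M] (lam : ℕ) [Fact lam.Prime] (S : Finset ℕ)
    (O' : Type) [CommRing O'] [IsDomain O'] [IsDiscreteValuationRing O']
    [IsAdicComplete (IsLocalRing.maximalIdeal O') O'] [CharZero O']
    (hlamO' : (lam : O') ∈ IsLocalRing.maximalIdeal O')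
    (χ : CuspForm.heckeAlgebra M 2 (↑S : Set ℕ) →+* O')
    (h : letI : Algebra ℤ_[lam] O' :=
        (Fermat.Agent.S30_helper25_ZP.S30ZP_zpLocal lam O' hlamO').toAlgebra
      ∀ q : ℕ, q.Prime → q ≠ lam → q ∣ M → ¬ q ^ 2 ∣ M →
        ∀ A : ValuationSubring Qb, A.LiesOverPrime q → ∀ σ : GQ, A.IsFrobeniusAt σ q →
          ∃ (Λ' : Type) (_ : AddCommGroup Λ') (_ : Module ℤ_[lam] Λ')
            (φ : S30T_Tate (ModularCurve.JZero M) lam →ₗ[ℤ_[lam]] Λ') (c : ℕ) (l : List ℤ),
            (∀ e ∈ l, e = 1 ∨ e = -1 ∨ e = (q : ℤ) ∨ e = -(q : ℤ)) ∧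
            (∀ x : S30T_Tate (ModularCurve.JZero M) lam, φ x = 0 → ∀ n : ℕ,
              (lam ^ c) • (l.map (fun e : ℤ =>
                DistribMulAction.toAddMonoidEnd GQ (ModularCurve.JZero M) σ -
                  (e : AddMonoid.End (ModularCurve.JZero M)))).prod
                ((x : ℕ → ModularCurve.JZero M) n) = 0) ∧
            ∃ v : O' ⊗[ℤ_[lam]] (S30T_Tate (ModularCurve.JZero M) lam), v ≠ 0 ∧
              (∀ (ℓ : ℕ) (hℓ : ℓ.Prime) (hℓM : ¬ ℓ ∣ M) (hℓS : ℓ ∉ (↑S : Set ℕ)),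
                (Fermat.Agent.S30_helper27_TATEC.S30TC_T M lam ℓ).baseChange O' v =
                  χ (CuspForm.heckeAlgebra.T hℓ hℓM hℓS) • v) ∧
              φ.baseChange O' v = 0) :
    S35TOP_Bad M lam S O' hlamO' χ := by
  letI : Algebra ℤ_[lam] O' :=
    (Fermat.Agent.S30_helper25_ZP.S30ZP_zpLocal lam O' hlamO').toAlgebra
  haveI : Module.Flat ℤ_[lam] O' := S35BR_flat lam O'
  intro q hq hqlam hqM hq2 A hA σ hσ
  obtain ⟨Λ', _, _, φ, c, l, hl, hG, v, hv0, hveig, hvφ⟩ := h q hq hqlam hqM hq2 A hA σ hσ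
  refine ⟨l, hl, v, hv0, hveig, ?_⟩
  refine S35BR_kills_baseChange O' φ _ (fun x hx => ?_) v hvφ
  refine S35BR_eq_zero_of_pow_smul c _ (fun n => ?_)
  have h1 := S35BR_prod_apply (p := lam)
    (DistribMulAction.toAddMonoidEnd GQ (ModularCurve.JZero M) σ) l x n
  have h2 := hG x hx n
  exact (congrArg (fun y => (lam ^ c) • y) h1).trans h2

/-- **`S35TOP_Bad` from the torsion points**, two additive maps (the two push-forwards).
(G): a torsion point `x` with `lam ^ k • x = 0`, `ν₁ x = 0`, `ν₂ x = 0` is killed by `lam ^ c`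
times the product of the `σ - e`; (P6): some nonzero `χ`-eigenvector is killed by the base
changes of the maps induced by `ν₁`, `ν₂` on the Tate modules. -/
theorem S35BR_bad2 (M : ℕ) [NeZero M] (lam : ℕ) [Fact lam.Prime] (S : Finset ℕ)
    (O' : Type) [CommRing O'] [IsDomain O'] [IsDiscreteValuationRing O']
    [IsAdicComplete (IsLocalRing.maximalIdeal O') O'] [CharZero O']
    (hlamO' : (lam : O') ∈ IsLocalRing.maximalIdeal O')
    (χ : CuspForm.heckeAlgebra M 2 (↑S : Set ℕ) →+* O')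
    (h : letI : Algebra ℤ_[lam] O' :=
        (Fermat.Agent.S30_helper25_ZP.S30ZP_zpLocal lam O' hlamO').toAlgebra
      ∀ q : ℕ, q.Prime → q ≠ lam → q ∣ M → ¬ q ^ 2 ∣ M →
        ∀ A : ValuationSubring Qb, A.LiesOverPrime q → ∀ σ : GQ, A.IsFrobeniusAt σ q →
          ∃ (J₁ J₂ : Type) (_ : AddCommGroup J₁) (_ : AddCommGroup J₂)
            (ν₁ : ModularCurve.JZero M →+ J₁) (ν₂ : ModularCurve.JZero M →+ J₂)
            (c : ℕ) (l : List ℤ),
            (∀ e ∈ l, e = 1 ∨ e = -1 ∨ e = (q : ℤ) ∨ e = -(q : ℤ)) ∧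
            (∀ (k : ℕ) (x : ModularCurve.JZero M), (lam ^ k) • x = 0 → ν₁ x = 0 → ν₂ x = 0 →
              (lam ^ c) • (l.map (fun e : ℤ =>
                DistribMulAction.toAddMonoidEnd GQ (ModularCurve.JZero M) σ -
                  (e : AddMonoid.End (ModularCurve.JZero M)))).prod x = 0) ∧
            ∃ v : O' ⊗[ℤ_[lam]] (S30T_Tate (ModularCurve.JZero M) lam), v ≠ 0 ∧
              (∀ (ℓ : ℕ) (hℓ : ℓ.Prime) (hℓM : ¬ ℓ ∣ M) (hℓS : ℓ ∉ (↑S : Set ℕ)),
                (Fermat.Agent.S30_helper27_TATEC.S30TC_T M lam ℓ).baseChange O' v =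
                  χ (CuspForm.heckeAlgebra.T hℓ hℓM hℓS) • v) ∧
              (S35BR_tateMap (p := lam) ν₁).baseChange O' v = 0 ∧
              (S35BR_tateMap (p := lam) ν₂).baseChange O' v = 0) :
    S35TOP_Bad M lam S O' hlamO' χ := by
  letI : Algebra ℤ_[lam] O' :=
    (Fermat.Agent.S30_helper25_ZP.S30ZP_zpLocal lam O' hlamO').toAlgebra
  haveI : Module.Flat ℤ_[lam] O' := S35BR_flat lam O'
  intro q hq hqlam hqM hq2 A hA σ hσ
  obtain ⟨J₁, J₂, _, _, ν₁, ν₂, c, l, hl, hG, v, hv0, hveig, hv₁, hv₂⟩ :=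
    h q hq hqlam hqM hq2 A hA σ hσ
  refine ⟨l, hl, v, hv0, hveig, ?_⟩
  refine S35BR_kills_baseChange2 O' (S35BR_tateMap (p := lam) ν₁) (S35BR_tateMap (p := lam) ν₂)
    _ (fun x hx₁ hx₂ => ?_) v hv₁ hv₂
  refine S35BR_eq_zero_of_pow_smul c _ (fun n => ?_)
  have h1 := S35BR_prod_apply (p := lam)
    (DistribMulAction.toAddMonoidEnd GQ (ModularCurve.JZero M) σ) l x n
  have h2 := hG n ((x : ℕ → ModularCurve.JZero M) n) (S30T_pow_smul_self x n)
    ((S35BR_tateMap_eq_zero_iff ν₁ x).1 hx₁ n) ((S35BR_tateMap_eq_zero_iff ν₂ x).1 hx₂ n)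
  exact (congrArg (fun y => (lam ^ c) • y) h1).trans h2

end Fermat.Agent.S35_helper12_BR
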