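import Fermat.Agent.G_helper6_E2PLUG
import Fermat.Agent.S35_helper6_PUSHBC
import Fermat.Agent.S35_helper23_P6Defs
import Fermat.Agent.S35_helper12_BR

/-!
# S35, (P6)-E, steps (e1)–(e3) (helper6): Project G with the complex map exposed

* `S35E2X_family`, `S35E2X_adic` (e1): the compatible family `Θ₀ m : M → J₀(N)(ℚ̄)[m]` of
  Project G TOGETHER with the complex maps `ΘC m` (`PG_THETA N m (ΘC m)`) it descends from: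
  `b (Θ₀ m c) = ΘC m c`, `b = PG8P_b ℂ N`;
* `S35E2X_descent` (e2): Theta-functoriality over `ℂ` (`S35P6_TFfor`) descends to `ℚ̄`:
  `ν (Θ₀ c) = Θ₀' (V c)` for every `ν` compatible with the base change (`S35PB_alpha`,
  `S35PB_beta`); `S35E2X_descent_alpha`, `S35E2X_descent_beta`;
* `S35E2X_tate` (e3): the same on the Tate modules,
  `tateMap ν (lift Θ₀ c) = lift Θ₀' (V c)`.
-/

set_option autoImplicit false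
set_option linter.style.haveILetI false
set_option linter.unusedVariables false
set_option linter.unusedSectionVars false

open AlgebraicCurve ModularCurve
open Fermat.Agent.G_helper6_Defs Fermat.Agent.G_helper6_E2GEN Fermat.Agent.G_helper7_G8PLUG
  Fermat.Agent.S35_helper6_PUSH Fermat.Agent.S35_helper6_PUSHBC Fermat.Agent.S35_helper23_P6Defs
  Fermat.Agent.S30_helper1_TATE Fermat.Agent.S30_helper1_TATEF Fermat.Agent.S35_helper12_BR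

noncomputable section

namespace Fermat.Agent.S35_helper6_E2X

/-! ### (e1) the family with the complex maps exposed -/

/-- **Project G for all moduli, with the complex maps.** -/
theorem S35E2X_family (N : ℕ) [NeZero N] :
    ∃ (Θ₀ : ℕ → PG_M N →+ JZero N) (ΘC : ℕ → PG_M N →+ PG_JC N),
      (∀ m, 0 < m → PG_E2 N m (Θ₀ m) ∧ PG_THETA N m (ΘC m) ∧
        ∀ c, PG8P_b ℂ N (Θ₀ m c) = ΘC m c) ∧
      ∀ (m m' : ℕ) (c : PG_M N), 0 < m → 0 < m' → (m' : ℤ) • Θ₀ (m * m') c = Θ₀ m c := by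
  classical
  have hinj : Function.Injective (PG8P_b ℂ N) := Fermat.Agent.G_helper26_G8.PG8_b_injective ℂ N
  have hb : ∀ m : ℕ, 0 < m → PG_DESC N m (PG8P_b ℂ N) := fun m hm =>
    PG8P_desc_of_inj N m (PG_E2GEN_fin N m hm) hinj
  have key : ∀ m : ℕ, ∃ (Θ₀ : PG_M N →+ JZero N) (Θ : PG_M N →+ PG_JC N), 0 < m →
      PG_E2 N m Θ₀ ∧ PG_THETA N m Θ ∧ ∀ c, PG8P_b ℂ N (Θ₀ c) = Θ c := by
    intro m
    by_cases hm : 0 < m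
    · obtain ⟨Θ, hΘ⟩ := PG_E2GEN_theta N m hm
      obtain ⟨Θ₀, hf⟩ := PG_E2GEN_lift N m Θ hΘ (PG8P_b ℂ N) (hb m hm)
      refine ⟨Θ₀, Θ, fun _ => ⟨?_, hΘ, hf⟩⟩
      refine PG_E2GEN_e2 N m Θ hΘ ?_ (PG_E2GEN_fin N m hm) (PG8P_b ℂ N) (hb m hm) Θ₀ hf
      intro ℓ hℓ hℓN _
      exact PG_E2GEN_thetaHecke N m ℓ hm hℓ hℓN Θ hΘ
    · exact ⟨0, 0, fun h => absurd h hm⟩
  choose Θ₀ ΘC hΘ₀ using key
  refine ⟨Θ₀, ΘC, fun m hm => hΘ₀ m hm, ?_⟩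
  intro m m' c hm hm'
  have hmm : 0 < m * m' := Nat.mul_pos hm hm'
  obtain ⟨-, hΘ, hbΘ⟩ := hΘ₀ m hm
  obtain ⟨-, hΘ', hbΘ'⟩ := hΘ₀ (m * m') hmm
  apply hinj
  rw [map_zsmul, hbΘ', hbΘ]
  exact PG_E2GEN_compat N m m' hm hm' (ΘC (m * m')) (ΘC m) hΘ' hΘ c

/-- **Project G for the powers of `p`, with the complex maps** (the shape of S30). -/
theorem S35E2X_adic (N p : ℕ) [NeZero N] (hp : 0 < p) :
    ∃ (Θ₀ : ℕ → PG_M N →+ JZero N) (ΘC : ℕ → PG_M N →+ PG_JC N),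
      (∀ n, PG_E2 N (p ^ n) (Θ₀ n) ∧ PG_THETA N (p ^ n) (ΘC n) ∧
        ∀ c, PG8P_b ℂ N (Θ₀ n c) = ΘC n c) ∧
      ∀ (n : ℕ) (c : PG_M N), (p : ℤ) • Θ₀ (n + 1) c = Θ₀ n c := by
  obtain ⟨Θ₀, ΘC, h1, h2⟩ := S35E2X_family N
  refine ⟨fun n => Θ₀ (p ^ n), fun n => ΘC (p ^ n), fun n => h1 (p ^ n) (pow_pos hp n),
    fun n c => ?_⟩
  have h := h2 (p ^ n) p c (pow_pos hp n) hp
  rw [← pow_succ] at h
  exact h

/-! ### (e2) descent of the Theta-functoriality -/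

/-- **descent**: Theta-functoriality over `ℂ` for `νC`, for a map `ν` over `ℚ̄` compatible with
the base change, gives `ν (Θ₀ c) = Θ₀' (V c)` over `ℚ̄`. -/
theorem S35E2X_descent (N ℓ : ℕ) [NeZero N] [NeZero ℓ]
    (ν : JZero (N * ℓ) →+ JZero N) (νC : PG_JC (N * ℓ) →+ PG_JC N)
    (hbc : ∀ x : JZero (N * ℓ), PG8P_b ℂ N (ν x) = νC (PG8P_b ℂ (N * ℓ) x))
    (V : PG_M (N * ℓ) →+ PG_M N) (hTF : S35P6_TFfor N ℓ νC V)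
    (m : ℕ) (hm : 0 < m)
    (Θ₀ : PG_M (N * ℓ) →+ JZero (N * ℓ)) (ΘC : PG_M (N * ℓ) →+ PG_JC (N * ℓ))
    (hΘC : PG_THETA (N * ℓ) m ΘC) (hb : ∀ c, PG8P_b ℂ (N * ℓ) (Θ₀ c) = ΘC c)
    (Θ₀' : PG_M N →+ JZero N) (ΘC' : PG_M N →+ PG_JC N)
    (hΘC' : PG_THETA N m ΘC') (hb' : ∀ c, PG8P_b ℂ N (Θ₀' c) = ΘC' c)
    (c : PG_M (N * ℓ)) : ν (Θ₀ c) = Θ₀' (V c) := by
  apply Fermat.Agent.G_helper26_G8.PG8_b_injective ℂ N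
  rw [hbc, hb, hb']
  exact hTF m hm ΘC ΘC' hΘC hΘC' c

/-- descent for `α_*`. -/
theorem S35E2X_descent_alpha (N ℓ : ℕ) [NeZero N] [NeZero ℓ]
    (V : PG_M (N * ℓ) →+ PG_M N) (hTF : S35P6_TFfor N ℓ (S35PU_alphaL ℂ N ℓ) V)
    (m : ℕ) (hm : 0 < m)
    (Θ₀ : PG_M (N * ℓ) →+ JZero (N * ℓ)) (ΘC : PG_M (N * ℓ) →+ PG_JC (N * ℓ))
    (hΘC : PG_THETA (N * ℓ) m ΘC) (hb : ∀ c, PG8P_b ℂ (N * ℓ) (Θ₀ c) = ΘC c)
    (Θ₀' : PG_M N →+ JZero N) (ΘC' : PG_M N →+ PG_JC N)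
    (hΘC' : PG_THETA N m ΘC') (hb' : ∀ c, PG8P_b ℂ N (Θ₀' c) = ΘC' c)
    (c : PG_M (N * ℓ)) : S35PU_alpha N ℓ (Θ₀ c) = Θ₀' (V c) :=
  S35E2X_descent N ℓ (S35PU_alpha N ℓ) (S35PU_alphaL ℂ N ℓ) (S35PB_alpha ℂ N ℓ) V hTF m hm
    Θ₀ ΘC hΘC hb Θ₀' ΘC' hΘC' hb' c

/-- descent for `β_*`. -/
theorem S35E2X_descent_beta (N ℓ : ℕ) [NeZero N] [NeZero ℓ]
    (V : PG_M (N * ℓ) →+ PG_M N) (hTF : S35P6_TFfor N ℓ (S35PU_betaL ℂ N ℓ) V)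
    (m : ℕ) (hm : 0 < m)
    (Θ₀ : PG_M (N * ℓ) →+ JZero (N * ℓ)) (ΘC : PG_M (N * ℓ) →+ PG_JC (N * ℓ))
    (hΘC : PG_THETA (N * ℓ) m ΘC) (hb : ∀ c, PG8P_b ℂ (N * ℓ) (Θ₀ c) = ΘC c)
    (Θ₀' : PG_M N →+ JZero N) (ΘC' : PG_M N →+ PG_JC N)
    (hΘC' : PG_THETA N m ΘC') (hb' : ∀ c, PG8P_b ℂ N (Θ₀' c) = ΘC' c)
    (c : PG_M (N * ℓ)) : S35PU_beta N ℓ (Θ₀ c) = Θ₀' (V c) :=
  S35E2X_descent N ℓ (S35PU_beta N ℓ) (S35PU_betaL ℂ N ℓ) (S35PB_beta ℂ N ℓ) V hTF m hm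
    Θ₀ ΘC hΘC hb Θ₀' ΘC' hΘC' hb' c

/-! ### (e3) the Tate modules -/

/-- **(e3)**: a levelwise identity `ν (Θ n c) = Θ' n (V c)` gives the identity on the Tate
modules. -/
theorem S35E2X_tate {J J' M M' : Type*} [AddCommGroup J] [AddCommGroup J'] [AddCommGroup M]
    [AddCommGroup M'] (p : ℕ) [Fact p.Prime] (ν : J →+ J') (V : M →+ M')
    (Θ : ℕ → M →+ J) (h1 : ∀ n c, (p ^ n) • Θ n c = 0) (h2 : ∀ n c, p • Θ (n + 1) c = Θ n c)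
    (Θ' : ℕ → M' →+ J') (h1' : ∀ n c, (p ^ n) • Θ' n c = 0)
    (h2' : ∀ n c, p • Θ' (n + 1) c = Θ' n c)
    (h : ∀ n c, ν (Θ n c) = Θ' n (V c)) (c : M) :
    S35BR_tateMap (p := p) ν (S30T_lift Θ h1 h2 c) = S30T_lift Θ' h1' h2' (V c) := by
  apply S30T_ext
  intro n
  rw [S35BR_tateMap_apply, S30T_lift_apply, S30T_lift_apply]
  exact h n c

end Fermat.Agent.S35_helper6_E2X
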