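import Mathlib
import Fermat.Agent.G_helper6_Defs

/-!
# S35, (P6) insurance routes: lifting parabolic-trivial characters (helper8)

Pure algebra.  `Γ₀(N)` is finitely generated; let `A = Γ₀(N)^ab / ⟨parabolic elements⟩`,
`T` its torsion subgroup, `L = A / T` (free of finite rank).  A character `χ : Γ₀(N) → ℂˣ` of
finite order which is trivial on the parabolic elements factors through `A`, and a suitable
power of it factors through `L`, where it is of the form `exp (2 π i c / m)` for an integral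
parabolic homomorphism `c`.

* `S35LIFT_struct` : the structure lemma (any finitely generated group, any subset `P`);
* `S35LIFT_exp`    : characters of `ℤ^r` with values in the `m`-th roots of unity are
  `exp (2 π i c / m)`;
* `S35WS_lift`     : `∃ C > 0, ∀ m χ, χ ^ m = 1 → χ parabolic-trivial → ∃ c : PG_M N,
  PG_chi N m c = χ ^ C` (row P6-WS-B of helper5);
* `S35LIFT_main`   : `∃ K, ∀ n χ, χ ^ (p ^ (n + K)) = 1 → χ parabolic-trivial → ∃ c : PG_M N,
  χ ^ (p ^ K) = PG_chi N (p ^ n) c` (row P6-SURJ-LIFT of helper1).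
-/

set_option autoImplicit false
set_option linter.unusedSectionVars false
set_option linter.unusedVariables false
set_option linter.style.haveILetI false

open CongruenceSubgroup
open scoped MatrixGroups
open Fermat.Agent.G_helper6_Defs

noncomputable section

namespace Fermat.Agent.S35_helper8_LIFT

/-! ### The structure lemma -/

section Struct

variable {G : Type*} [Group G]

/-- **Structure lemma.**  For a finitely generated group `G` and a subset `P` there are `e > 0`,
`r` and a surjective homomorphism `π : G → ℤ^r` killing `P` such that every character of `G`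
killing `P` has `χ g ^ e = 1` on the kernel of `π`. -/
theorem S35LIFT_struct [Group.FG G] (P : Set G) :
    ∃ (e r : ℕ) (π : Additive G →+ (Fin r → ℤ)), 0 < e ∧ Function.Surjective π ∧
      (∀ γ ∈ P, π (Additive.ofMul γ) = 0) ∧
      ∀ g : G, π (Additive.ofMul g) = 0 → ∀ χ : G →* ℂˣ, (∀ γ ∈ P, χ γ = 1) → χ g ^ e = 1 := by
  -- the abelianization, additively
  let B := Additive (Abelianization G)
  let ab : Additive G →+ B := MonoidHom.toAdditive (Abelianization.of : G →* Abelianization G)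
  have hof : Function.Surjective (Abelianization.of : G →* Abelianization G) :=
    QuotientGroup.mk_surjective
  have hab : Function.Surjective ab := fun b =>
    let ⟨g, hg⟩ := hof (Additive.toMul b)
    ⟨Additive.ofMul g, congrArg Additive.ofMul hg⟩
  haveI : Group.FG (Abelianization G) := Group.fg_of_surjective hof
  haveI : AddGroup.FG B := by
    rw [← GroupFG.iff_add_fg]
    infer_instance
  haveI : Module.Finite ℤ B := Module.Finite.iff_addGroup_fg.mpr inferInstance
  -- the quotient by the parabolic classes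
  let S : Submodule ℤ B := Submodule.span ℤ (ab '' (Additive.ofMul '' P))
  let A := B ⧸ S
  let T : Submodule ℤ A := Submodule.torsion ℤ A
  let L := A ⧸ T
  haveI : Module.Finite ℤ A := inferInstance
  haveI : Module.Finite ℤ L := inferInstance
  haveI : Module.IsTorsionFree ℤ L := inferInstance
  haveI : Module.Free ℤ L := inferInstance
  -- the torsion is finite
  haveI : Module.Finite ℤ T := inferInstance
  have hTtors : Module.IsTorsion ℤ T := Submodule.torsion_isTorsion
  haveI : Finite T := Module.finite_of_fg_torsion T hTtors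
  let b := Module.finBasis ℤ L
  let qS : B →ₗ[ℤ] A := S.mkQ
  let qT : A →ₗ[ℤ] L := T.mkQ
  let π : Additive G →+ (Fin (Module.finrank ℤ L) → ℤ) :=
    (b.equivFun.toLinearMap ∘ₗ qT ∘ₗ qS).toAddMonoidHom.comp ab
  refine ⟨Nat.card T, Module.finrank ℤ L, π, Nat.card_pos, ?_, ?_, ?_⟩
  · intro x
    obtain ⟨l, hl⟩ := b.equivFun.surjective x
    obtain ⟨a, ha⟩ := T.mkQ_surjective l
    obtain ⟨y, hy⟩ := S.mkQ_surjective a
    obtain ⟨g, hg⟩ := hab y
    exact ⟨g, by
      show b.equivFun (qT (qS (ab g))) = x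
      rw [hg, hy, ha, hl]⟩
  · intro γ hγ
    show b.equivFun (qT (qS (ab (Additive.ofMul γ)))) = 0
    have h1 : qS (ab (Additive.ofMul γ)) = 0 := by
      rw [Submodule.mkQ_apply, Submodule.Quotient.mk_eq_zero]
      exact Submodule.subset_span ⟨_, ⟨γ, hγ, rfl⟩, rfl⟩
    rw [h1, map_zero, map_zero]
  · intro g hg χ hχ
    have h1 : qT (qS (ab (Additive.ofMul g))) = 0 := by
      have : b.equivFun (qT (qS (ab (Additive.ofMul g)))) = 0 := hg
      exact b.equivFun.map_eq_zero_iff.1 this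
    have h2 : qS (ab (Additive.ofMul g)) ∈ T := by
      rwa [Submodule.mkQ_apply, Submodule.Quotient.mk_eq_zero] at h1
    have h3 : Nat.card T • (⟨_, h2⟩ : T) = 0 := card_nsmul_eq_zero'
    have h4 : Nat.card T • qS (ab (Additive.ofMul g)) = 0 := by
      have := congrArg (Subtype.val : T → A) h3
      simpa using this
    have h5 : Nat.card T • ab (Additive.ofMul g) ∈ S := by
      rw [← map_nsmul, Submodule.mkQ_apply, Submodule.Quotient.mk_eq_zero] at h4
      exact h4
    -- the character on `B`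
    let χB : B →+ Additive ℂˣ := MonoidHom.toAdditive (Abelianization.lift χ)
    have hχS : S ≤ LinearMap.ker χB.toIntLinearMap := by
      rw [Submodule.span_le]
      rintro _ ⟨_, ⟨γ, hγ, rfl⟩, rfl⟩
      show χB (ab (Additive.ofMul γ)) = 0
      show Additive.ofMul (Abelianization.lift χ (Abelianization.of γ)) = 0
      rw [Abelianization.lift_apply_of, hχ γ hγ]
      rfl
    have h6 : χB (Nat.card T • ab (Additive.ofMul g)) = 0 := hχS h5
    rw [map_nsmul] at h6
    have h7 : χB (ab (Additive.ofMul g)) = Additive.ofMul (χ g) := by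
      show Additive.ofMul (Abelianization.lift χ (Abelianization.of g)) = _
      rw [Abelianization.lift_apply_of]
    rw [h7] at h6
    exact congrArg Additive.toMul h6

end Struct

/-! ### Characters of `ℤ^r` with values in the roots of unity -/

/-- the additive character `k ↦ exp (2 π i k / m)` of `ℤ`. -/
def S35LIFT_E (m : ℕ) : ℤ →+ Additive ℂˣ where
  toFun k := Additive.ofMul (Units.mk0
    (Complex.exp (2 * Real.pi * Complex.I * (k : ℂ) / (m : ℂ))) (Complex.exp_ne_zero _))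
  map_zero' := by
    show Additive.ofMul _ = Additive.ofMul (1 : ℂˣ)
    congr 1
    apply Units.ext
    simp
  map_add' k k' := by
    show Additive.ofMul _ = Additive.ofMul (_ * _ : ℂˣ)
    congr 1
    apply Units.ext
    simp only [Units.val_mk0, Units.val_mul, Int.cast_add, toMul_ofMul]
    rw [← Complex.exp_add]
    congr 1
    ring

theorem S35LIFT_E_apply (m : ℕ) (k : ℤ) :
    ((Additive.toMul (S35LIFT_E m k) : ℂˣ) : ℂ) =
      Complex.exp (2 * Real.pi * Complex.I * (k : ℂ) / (m : ℂ)) := rfl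

/-- every `m`-th root of unity is `exp (2 π i k / m)`. -/
theorem S35LIFT_root (m : ℕ) (hm : 0 < m) (z : ℂˣ) (hz : z ^ m = 1) :
    ∃ k : ℤ, S35LIFT_E m k = Additive.ofMul z := by
  haveI : NeZero m := ⟨hm.ne'⟩
  have h1 : z ∈ rootsOfUnity m ℂ := (mem_rootsOfUnity m z).2 hz
  obtain ⟨i, -, hi⟩ := (Complex.mem_rootsOfUnity m z).1 h1
  refine ⟨(i : ℤ), ?_⟩
  show Additive.ofMul _ = Additive.ofMul z
  congr 1
  apply Units.ext
  rw [Units.val_mk0, ← hi]
  congr 1
  push_cast
  ring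

section Factor

variable {G : Type*} [Group G]

/-- **Characters killing the kernel of `π : G → ℤ^r` with values in the `m`-th roots of unity
are `exp (2 π i c ∘ π / m)`.** -/
theorem S35LIFT_of_ker {r : ℕ} (π : Additive G →+ (Fin r → ℤ)) (hπ : Function.Surjective π)
    (m : ℕ) (hm : 0 < m) (ψ : G →* ℂˣ) (hψm : ∀ γ, ψ γ ^ m = 1)
    (hψker : ∀ g : G, π (Additive.ofMul g) = 0 → ψ g = 1) :
    ∃ c : (Fin r → ℤ) →+ ℤ, ∀ γ : G,
      (ψ γ : ℂ) = Complex.exp
        (2 * Real.pi * Complex.I * ((c (π (Additive.ofMul γ)) : ℤ) : ℂ) / (m : ℂ)) := by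
  let ψa : Additive G →+ Additive ℂˣ := MonoidHom.toAdditive ψ
  have hker : π.ker ≤ ψa.ker := by
    intro g hg
    rw [AddMonoidHom.mem_ker] at hg ⊢
    have := hψker (Additive.toMul g) hg
    exact congrArg Additive.ofMul this
  let ψb : (Fin r → ℤ) →+ Additive ℂˣ := π.liftOfSurjective hπ ⟨ψa, hker⟩
  have hψb : ∀ g, ψb (π g) = ψa g := fun g =>
    π.liftOfRightInverse_comp_apply _ (Function.rightInverse_surjInv hπ) ⟨ψa, hker⟩ g
  have hroot : ∀ x : Fin r → ℤ, ∃ k : ℤ, S35LIFT_E m k = ψb x := by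
    intro x
    obtain ⟨g, rfl⟩ := hπ x
    rw [hψb]
    exact S35LIFT_root m hm (ψ (Additive.toMul g)) (hψm _)
  choose k hk using fun i : Fin r => hroot (Pi.single i 1)
  let c : (Fin r → ℤ) →ₗ[ℤ] ℤ := (Pi.basisFun ℤ (Fin r)).constr ℤ k
  have hc : ∀ i, c (Pi.single i 1) = k i := by
    intro i
    have := (Pi.basisFun ℤ (Fin r)).constr_basis ℤ k i
    rwa [Pi.basisFun_apply] at this
  have heq : (S35LIFT_E m).toIntLinearMap ∘ₗ c = ψb.toIntLinearMap := by
    apply (Pi.basisFun ℤ (Fin r)).ext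
    intro i
    rw [Pi.basisFun_apply]
    show S35LIFT_E m (c (Pi.single i 1)) = ψb (Pi.single i 1)
    rw [hc, hk]
  refine ⟨c.toAddMonoidHom, fun γ => ?_⟩
  have h1 : S35LIFT_E m (c (π (Additive.ofMul γ))) = ψb (π (Additive.ofMul γ)) :=
    congrArg (fun f : (Fin r → ℤ) →ₗ[ℤ] Additive ℂˣ => f (π (Additive.ofMul γ))) heq
  rw [hψb] at h1
  have h2 : (Additive.toMul (S35LIFT_E m (c (π (Additive.ofMul γ)))) : ℂˣ) = ψ γ :=
    congrArg Additive.toMul h1
  rw [← h2]
  rfl

end Factor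

/-! ### The lifting theorems for `Γ₀(N)` -/

section Gamma0

variable (N : ℕ) [NeZero N]

theorem S35LIFT_fg : Group.FG (Gamma0 N) := by
  haveI : Group.FG SL(2, ℤ) :=
    Group.fg_iff.2 ⟨{ModularGroup.S, ModularGroup.T}, SpecialLinearGroup.SL2Z_generators,
      Set.toFinite _⟩
  infer_instance

/-- the set of elements of trace `± 2`. -/
def S35LIFT_P : Set (Gamma0 N) :=
  {γ | ((γ : SL(2, ℤ)) : Matrix (Fin 2) (Fin 2) ℤ).trace ^ 2 = 4}

/-- from the factorisation to an integral parabolic homomorphism. -/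
theorem S35LIFT_plug {r : ℕ} (π : Additive (Gamma0 N) →+ (Fin r → ℤ))
    (hπP : ∀ γ ∈ S35LIFT_P N, π (Additive.ofMul γ) = 0) (m : ℕ) (ψ : Gamma0 N →* ℂˣ)
    (c : (Fin r → ℤ) →+ ℤ)
    (hc : ∀ γ : Gamma0 N, (ψ γ : ℂ) = Complex.exp
        (2 * Real.pi * Complex.I * ((c (π (Additive.ofMul γ)) : ℤ) : ℂ) / (m : ℂ))) :
    ∃ c' : PG_M N, PG_chi N m (c' : Additive (Gamma0 N) →+ ℤ) = ψ := by
  refine ⟨⟨c.comp π, ?_⟩, ?_⟩
  · intro γ hγ
    show c (π (Additive.ofMul γ)) = 0
    rw [hπP γ hγ, map_zero]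
  · ext γ
    rw [PG_chi_apply, hc γ]
    rfl

/-- **P6-WS-B** (helper5's row): characters of finite order of `Γ₀(N)` which are trivial on the
parabolic elements are, up to a uniform power `C`, of the form `PG_chi N m c` with `c` an
integral parabolic homomorphism. -/
theorem S35WS_lift (N : ℕ) [NeZero N] : ∃ C : ℕ, 0 < C ∧ ∀ m : ℕ, 0 < m →
    ∀ χ : Gamma0 N →* ℂˣ, (∀ γ, χ γ ^ m = 1) →
      (∀ γ : Gamma0 N, ((γ : SL(2, ℤ)) : Matrix (Fin 2) (Fin 2) ℤ).trace ^ 2 = 4 → χ γ = 1) →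
      ∃ c : PG_M N, PG_chi N m (c : Additive (Gamma0 N) →+ ℤ) = χ ^ C := by
  haveI := S35LIFT_fg N
  obtain ⟨e, r, π, he, hπ, hπP, hker⟩ := S35LIFT_struct (S35LIFT_P N)
  refine ⟨e, he, fun m hm χ hχm hχP => ?_⟩
  obtain ⟨c, hc⟩ := S35LIFT_of_ker π hπ m hm (χ ^ e)
    (fun γ => by
      rw [MonoidHom.pow_apply, ← pow_mul, mul_comm, pow_mul, hχm, one_pow])
    (fun g hg => by
      rw [MonoidHom.pow_apply]
      exact hker g hg χ hχP)
  exact S35LIFT_plug N π hπP m (χ ^ e) c hc

/-- a `p`-power root of unity killed by `e > 0` is killed by `p ^ e`. -/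
theorem S35LIFT_order {p : ℕ} (hp : p.Prime) {e : ℕ} (he : 0 < e) (j : ℕ) (z : ℂˣ)
    (h1 : z ^ e = 1) (h2 : z ^ (p ^ j) = 1) : z ^ (p ^ e) = 1 := by
  have hd1 : orderOf z ∣ e := orderOf_dvd_of_pow_eq_one h1
  have hd2 : orderOf z ∣ p ^ j := orderOf_dvd_of_pow_eq_one h2
  obtain ⟨i, -, hi⟩ := (Nat.dvd_prime_pow hp).1 hd2
  have h3 : p ^ i ≤ e := Nat.le_of_dvd he (hi ▸ hd1)
  have h4 : i < p ^ i := Nat.lt_pow_self hp.one_lt
  have h5 : i ≤ e := (h4.trans_le h3).le
  have h6 : orderOf z ∣ p ^ e := by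
    rw [hi]
    exact pow_dvd_pow p h5
  exact orderOf_dvd_iff_pow_eq_one.1 h6

/-- **P6-SURJ-LIFT** (helper1's row): a parabolic-trivial character `Γ₀(N) → μ_(p^(n+K))` has
`χ ^ (p ^ K) = PG_chi N (p ^ n) c` with `c` an integral parabolic homomorphism; `K` depends on
`N` (and `p`) only. -/
theorem S35LIFT_main (N : ℕ) [NeZero N] (p : ℕ) (hp : p.Prime) :
    ∃ K : ℕ, ∀ (n : ℕ) (χ : Gamma0 N →* ℂˣ), (∀ γ, χ γ ^ (p ^ (n + K)) = 1) →
      (∀ γ : Gamma0 N, ((γ : SL(2, ℤ)) : Matrix (Fin 2) (Fin 2) ℤ).trace ^ 2 = 4 → χ γ = 1) →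
      ∃ c : PG_M N, χ ^ (p ^ K) = PG_chi N (p ^ n) (c : Additive (Gamma0 N) →+ ℤ) := by
  haveI := S35LIFT_fg N
  obtain ⟨e, r, π, he, hπ, hπP, hker⟩ := S35LIFT_struct (S35LIFT_P N)
  refine ⟨e, fun n χ hχm hχP => ?_⟩
  obtain ⟨c, hc⟩ := S35LIFT_of_ker π hπ (p ^ n) (pow_pos hp.pos n) (χ ^ (p ^ e))
    (fun γ => by
      rw [MonoidHom.pow_apply, ← pow_mul, ← pow_add, add_comm, hχm])
    (fun g hg => by
      rw [MonoidHom.pow_apply]
      exact S35LIFT_order hp he (n + e) (χ g) (hker g hg χ hχP) (hχm g))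
  obtain ⟨c', hc'⟩ := S35LIFT_plug N π hπP (p ^ n) (χ ^ (p ^ e)) c hc
  exact ⟨c', hc'.symm⟩

end Gamma0

end Fermat.Agent.S35_helper8_LIFT
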