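import Fermat.Agent.S35_helper11_SJ
import Fermat.Agent.S35_helper1_GOODW
import Fermat.Agent.S35_helper5_WSA
import Fermat.Agent.S35_helper8_LIFT
import Fermat.Agent.S35_helper6_E2X

/-!
# S35, (P6), the SURJ / WS route, hypothesis-free: `Θ` is onto the torsion up to a bounded
factor, and the adic `Θ` is onto the Tate module

* `S35SJK_good`    : GOOD = the character of a torsion datum is trivial on the elements of trace
  `± 2` (helper5's analytic core + helper1's reduction);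
* `S35SJK_fin`     : FIN = `∃ K, ∀ n Θ, PG_THETA N (p ^ n) Θ → ∀ y, p ^ (n + K) • y = 0 →
  ∃ c, Θ c = p ^ K • y`;
* `S35SJK_finC`    : the same with a uniform constant `C` for all moduli;
* `S35SJK_tate`    : the adic `Θ` of a family with complex twin is onto the Tate module after
  every base change;
* `S35SJK_family`  : (WS) a compatible family `Θ n : M → J₀(N)(ℚ̄)[p ^ n]` with (E2) and
  `∃ C > 0, ∀ n y, p ^ n • y = 0 → ∃ c, Θ n c = C • y`;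
* `S35SJK_adic`    : a compatible family with (E2) whose adic `Θ` is onto.
-/

set_option autoImplicit false
set_option linter.style.haveILetI false
set_option linter.unusedVariables false

open UpperHalfPlane ModularForm CongruenceSubgroup AlgebraicCurve
open scoped MatrixGroups ModularForm Manifold TensorProduct
open Fermat.Agent.G_helper6_Defs Fermat.Agent.G_helper14_G8b
  Fermat.Agent.G_helper7_G8PLUG Fermat.Agent.S30_helper1_TATE Fermat.Agent.S30_helper1_TATEF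
  Fermat.Agent.S30_helper23_EIGLAT Fermat.Agent.S35_helper11_SJ

noncomputable section

namespace Fermat.Agent.S35_helper11_SJK

/-- **GOOD**: the character of a torsion datum is trivial on the elements of trace `± 2`. -/
theorem S35SJK_good (N m : ℕ) [NeZero N] (hm : 0 < m) (y : PG_JC N) (χ : Gamma0 N →* ℂˣ)
    (hd : PG_G8b_Datum N m y χ) (γ : Gamma0 N)
    (hγ : ((γ : SL(2, ℤ)) : Matrix (Fin 2) (Fin 2) ℤ).trace ^ 2 = 4) : χ γ = 1 :=
  Fermat.Agent.S35_helper1_GOODW.S35GOOD_main_of hm hd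
    (Fermat.Agent.S35_helper5_WSA.S35WSA_core N m hm y χ hd) γ hγ

/-- **FIN**: every `p ^ (n + K)`-torsion class `y` has `Θ c = p ^ K • y`. -/
theorem S35SJK_fin (N : ℕ) [NeZero N] (p : ℕ) (hp : p.Prime) :
    ∃ K : ℕ, ∀ (n : ℕ) (Θ : PG_M N →+ PG_JC N), PG_THETA N (p ^ n) Θ →
      ∀ y : PG_JC N, ((p ^ (n + K) : ℕ) : ℤ) • y = 0 → ∃ c : PG_M N, Θ c = (p ^ K) • y := by
  obtain ⟨K, hK⟩ := Fermat.Agent.S35_helper8_LIFT.S35LIFT_main N p hp
  exact ⟨K, S35SJ_fin_of N p K hp (fun m hm y χ hd γ hγ => S35SJK_good N m hm y χ hd γ hγ) hK⟩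

/-- **FIN with a uniform constant**: every `m`-torsion class `y` has `Θ c = C • y`. -/
theorem S35SJK_finC (N : ℕ) [NeZero N] :
    ∃ C : ℕ, 0 < C ∧ ∀ (m : ℕ), 0 < m → ∀ (Θ : PG_M N →+ PG_JC N), PG_THETA N m Θ →
      ∀ y : PG_JC N, (m : ℤ) • y = 0 → ∃ c : PG_M N, Θ c = C • y := by
  obtain ⟨C, hC, h⟩ := Fermat.Agent.S35_helper8_LIFT.S35WS_lift N
  exact ⟨C, hC, fun m hm Θ hΘ y hy => S35SJ_finC_of N m C hm
    (fun y χ hd γ hγ => S35SJK_good N m hm y χ hd γ hγ) (h m hm) Θ hΘ y hy⟩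

/-- **TATE**: the adic `Θ` is onto the Tate module after every base change. -/
theorem S35SJK_tate (N : ℕ) [NeZero N] (p : ℕ) [Fact p.Prime]
    (Θ₀ : ℕ → PG_M N →+ ModularCurve.JZero N) (ΘC : ℕ → PG_M N →+ PG_JC N)
    (hΘ : ∀ n, PG_THETA N (p ^ n) (ΘC n)) (hb : ∀ n c, PG8P_b ℂ N (Θ₀ n c) = ΘC n c)
    (h1 : ∀ n c, (p ^ n) • Θ₀ n c = 0) (h2 : ∀ n c, p • Θ₀ (n + 1) c = Θ₀ n c)
    (hfin : {y : ModularCurve.JZero N | p • y = 0}.Finite)
    {𝒪 : Type*} [CommRing 𝒪] [Algebra ℤ_[p] 𝒪] :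
    Function.Surjective (PG30_f₂ ℤ_[p] 𝒪 (S30T_lift Θ₀ h1 h2)) := by
  obtain ⟨K, hK⟩ := S35SJK_fin N p Fact.out
  exact S35SJ_tate_of N p K hK Θ₀ ΘC hΘ hb h1 h2 hfin

/-- **SPAN**: the image of the adic `Θ` generates the Tate module. -/
theorem S35SJK_span (N : ℕ) [NeZero N] (p : ℕ) [Fact p.Prime]
    (Θ₀ : ℕ → PG_M N →+ ModularCurve.JZero N) (ΘC : ℕ → PG_M N →+ PG_JC N)
    (hΘ : ∀ n, PG_THETA N (p ^ n) (ΘC n)) (hb : ∀ n c, PG8P_b ℂ N (Θ₀ n c) = ΘC n c)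
    (h1 : ∀ n c, (p ^ n) • Θ₀ n c = 0) (h2 : ∀ n c, p • Θ₀ (n + 1) c = Θ₀ n c)
    (hfin : {y : ModularCurve.JZero N | p • y = 0}.Finite) :
    Submodule.span ℤ_[p] (Set.range (S30T_lift Θ₀ h1 h2)) = ⊤ := by
  obtain ⟨K, hK⟩ := S35SJK_fin N p Fact.out
  exact S35SJ_span_of N p K hK Θ₀ ΘC hΘ hb h1 h2 hfin

/-- **(WS), the family**: a compatible family with (E2) which is onto the torsion up to a
uniform constant. -/
theorem S35SJK_family (N p : ℕ) [NeZero N] (hp : 0 < p) :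
    ∃ Θ : ℕ → PG_M N →+ ModularCurve.JZero N, (∀ n, PG_E2 N (p ^ n) (Θ n)) ∧
      (∀ n c, (p : ℤ) • Θ (n + 1) c = Θ n c) ∧
      ∃ C : ℕ, 0 < C ∧ ∀ n (y : ModularCurve.JZero N), ((p ^ n : ℕ) : ℤ) • y = 0 →
        ∃ c : PG_M N, Θ n c = (C : ℤ) • y := by
  obtain ⟨Θ₀, ΘC, h, hcompat⟩ := Fermat.Agent.S35_helper6_E2X.S35E2X_adic N p hp
  obtain ⟨C, hC, hfin⟩ := S35SJK_finC N
  refine ⟨Θ₀, fun n => (h n).1, hcompat, C, hC, fun n y hy => ?_⟩
  exact S35SJ_wsC_of N (p ^ n) C (hfin (p ^ n) (pow_pos hp n)) (Θ₀ n) (ΘC n) (h n).2.1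
    (h n).2.2 y hy

/-- **the adic family**: a compatible family with (E2) whose adic `Θ` is onto the Tate module
after every base change. -/
theorem S35SJK_adic (N p : ℕ) [NeZero N] [Fact p.Prime] :
    ∃ (Θ₀ : ℕ → PG_M N →+ ModularCurve.JZero N) (h1 : ∀ n c, (p ^ n) • Θ₀ n c = 0)
      (h2 : ∀ n c, p • Θ₀ (n + 1) c = Θ₀ n c),
      (∀ n, PG_E2 N (p ^ n) (Θ₀ n)) ∧ (∀ n c, (p : ℤ) • Θ₀ (n + 1) c = Θ₀ n c) ∧
      Submodule.span ℤ_[p] (Set.range (S30T_lift Θ₀ h1 h2)) = ⊤ ∧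
      ∀ (𝒪 : Type) [CommRing 𝒪] [Algebra ℤ_[p] 𝒪],
        Function.Surjective (PG30_f₂ ℤ_[p] 𝒪 (S30T_lift Θ₀ h1 h2)) := by
  have hp : p.Prime := Fact.out
  obtain ⟨Θ₀, ΘC, h, hcompat⟩ := Fermat.Agent.S35_helper6_E2X.S35E2X_adic N p hp.pos
  have h1 : ∀ n c, (p ^ n) • Θ₀ n c = 0 := fun n c => by
    have := (h n).1.tors c
    rwa [natCast_zsmul] at this
  have h2 : ∀ n c, p • Θ₀ (n + 1) c = Θ₀ n c := fun n c => by
    have := hcompat n c
    rwa [natCast_zsmul] at this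
  have hfin : {y : ModularCurve.JZero N | p • y = 0}.Finite := by
    have h3 := (h 1).1.fin
    rw [pow_one] at h3
    refine h3.subset ?_
    intro y hy
    refine AlgebraicCurve.Pic0.mem_torsion.2 ?_
    rw [natCast_zsmul]
    exact hy
  refine ⟨Θ₀, h1, h2, fun n => (h n).1, hcompat, ?_, fun 𝒪 _ _ => ?_⟩
  · exact S35SJK_span N p Θ₀ ΘC (fun n => (h n).2.1) (fun n => (h n).2.2) h1 h2 hfin
  · exact S35SJK_tate N p Θ₀ ΘC (fun n => (h n).2.1) (fun n => (h n).2.2) h1 h2 hfin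

end Fermat.Agent.S35_helper11_SJK
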