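import Mathlib
import Fermat.Agent.S35_helper11_XCG
import Fermat.Agent.S34_helper4_XCROSSK
import Fermat.Agent.S34_helper2_HARTOGSK
import Fermat.Agent.S34_helper29_PLACES
import Fermat.Agent.S34_helper27_P1C

/-!
# S35, GEO: the generic X-CROSS at the concrete charts (helper11)

The S35 twin of `Fermat.Agent.S34_helper4_XCROSSK`: the algebraic hypotheses of
`S35XC_shape_poly` are discharged for the charts of a two-valuation setup `S34C_Setup2`
(`S34K_Vert` by helper2's `S34HK_vert`, `S34K_PlacesAt` by helper29's `S34PL_placesAt`,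
`locRing X m ≤ V1 ⊓ V2` at a crossing point by `S35XC_locRing_le`).

* `S35XCK_chart`  : one crossing point of one chart, explicit local data;
* `S35XCK_cross`  : a chart, with the three providers in contract form
  (CentredFrob for `s⁻¹`, the Frobenius local generators, the class of `G`);
* `S35XCK_A0`, `S35XCK_Ainf` : the two charts of level `N' * q` with `V2 = S34P1C_V2`.
-/

set_option autoImplicit false
set_option linter.style.haveILetI false
set_option linter.unusedSectionVars false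
set_option synthInstance.maxHeartbeats 400000

open AlgebraicCurve ModularCurve HahnSeries IntermediateField

noncomputable section

namespace Fermat.Agent.S35_helper11_XCK

open Fermat.Agent.S18_helper9_CDefs Fermat.Agent.S18_helper9_CBasic
  Fermat.Agent.S18_helper25_COREDefs
  Fermat.Agent.S34_helper12_CDefs Fermat.Agent.S34_helper6_RED Fermat.Agent.S34_helper5_K0
  Fermat.Agent.S18_helper3_LOCRING Fermat.Agent.S37_helper4_B1Defs
  Fermat.Agent.S37_helper5_LEVEL Fermat.Agent.S34_Contracts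
  Fermat.Agent.S34_helper4_XCROSS Fermat.Agent.S34_helper27_C2ADAPT
  Fermat.Agent.S34_helper27_C2Defs Fermat.Agent.S35_helper11_XCG
  Fermat.Agent.S34_helper27_P1C

local notation "Qb" => AlgebraicClosure ℚ
local notation "GQ" => (AlgebraicClosure ℚ ≃ₐ[ℚ] AlgebraicClosure ℚ)

variable (N : ℕ) [NeZero N] (p : ℕ) (A : ValuationSubring Qb)
  (K1 : IntermediateField ℚ Qb) [IsDiscreteValuationRing (S18K_O1 A K1)]

/-- **The generic X-CROSS at a crossing point of a chart of a two-valuation setup**, for the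
polynomial operator `Q(s)`; def-free statement. -/
theorem S35XCK_chart (V2 A0 Ainf : Subring (LaurentSeries K1))
    (S : S34C_Setup2 (S18K_O A K1) (S18K_π A K1) (S18K_j K1) (S18K_F1 K1 N) (S18K_V A K1 N) V2
      A0 Ainf)
    (x : LaurentSeries K1) (hx : x = S18K_j K1 ∨ x = (S18K_j K1)⁻¹)
    (X : Subring (LaurentSeries K1))
    (hC : Chart (S18K_O A K1) (S18K_π A K1) x (S18K_F1 K1 N) (S18K_V A K1 N ⊓ V2) X)
    (hPl : S34K_PlacesAt N A K1 X)
    (s : GQ) (Q : Polynomial ℤ)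
    (hπ : S18K_π A K1 ∈ X) (m : Ideal X) (hm : m.IsMaximal)
    (hπm : (⟨S18K_π A K1, hπ⟩ : X) ∈ m)
    (h1 : S34K_Thru (S18K_π A K1) (S18K_V A K1 N) X m)
    (h2 : S34K_Thru (S18K_π A K1) V2 X m)
    (hs : ∀ P : Place Qb (modularFunctionFieldBar N), S34K_Centred N A K1 X m P →
      S34K_Centred N A K1 X m (S34R_g N s⁻¹ • P))
    (D : Divisor Qb (modularFunctionFieldBar N))
    (hLG : haveI := hm.isPrime
      ∀ P : Place Qb (modularFunctionFieldBar N), D P ≠ 0 → S34K_Centred N A K1 X m P →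
      ∃ g ∈ S18K_F1 K1 N,
        (∃ w : LaurentSeries K1, w ∈ locRing X m ∧ w⁻¹ ∈ locRing X m ∧
          ∃ c ∈ (S18K_V A K1 N ⊓ V2 : Subring (LaurentSeries K1)),
            g = w * (1 + S18K_π A K1 * c)) ∧
        ∀ P' : Place Qb (modularFunctionFieldBar N), S34K_Centred N A K1 X m P' →
          S37B1_ordP N K1 P' g =
            (∑ i ∈ Q.support, Q.coeff i • (S34R_g N (s ^ i) • Finsupp.single P (1 : ℤ))) P')
    (f : LaurentSeries K1) (hf : f ∈ S18K_F1 K1 N) (hf0 : f ≠ 0)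
    (hfV : f ∈ (S18K_V A K1 N ⊓ V2 : Subring (LaurentSeries K1)))
    (hfV' : f⁻¹ ∈ (S18K_V A K1 N ⊓ V2 : Subring (LaurentSeries K1)))
    (hdiv : ∀ P : Place Qb (modularFunctionFieldBar N),
      S37B1_ordP N K1 P f =
        (p : ℤ) * (∑ i ∈ Q.support, Q.coeff i • (S34R_g N (s ^ i) • D)) P)
    (G : LaurentSeries K1)
    (hG : haveI := hm.isPrime
      ∃ w : LaurentSeries K1, w ∈ locRing X m ∧ w⁻¹ ∈ locRing X m ∧
        ∃ c ∈ (S18K_V A K1 N ⊓ V2 : Subring (LaurentSeries K1)),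
          G = w * (1 + S18K_π A K1 * c)) :
    S34C_Shape (S18K_π A K1) (S18K_F1 K1 N) (S18K_V A K1 N ⊓ V2) X p f G m := by
  haveI hcz : CharZero (LaurentSeries K1) :=
    charZero_of_injective_algebraMap (algebraMap ℚ (LaurentSeries K1)).injective
  haveI := hm.isPrime
  have S1 := S34CA_setup_of_setup2 S
  have hOX : S18K_O A K1 ≤ X := S34C2_O_le (S34CA_setup S1) hC
  have hπV : S18K_π A K1 ∈ (S18K_V A K1 N ⊓ V2 : Subring (LaurentSeries K1)) :=
    hC.le_V (hOX S.π_mem)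
  have hN : IsNoetherianRing X := S34CA_chart_noetherian S1 x hx X hC
  have hXF : ∀ a ∈ X, a ∈ S18K_F1 K1 N := fun a ha => ((hC.mem_iff a).1 ha).2
  have hic : ∀ y ∈ S18K_F1 K1 N, IsIntegral X y → y ∈ X := by
    intro y hy hint
    exact (hC.mem_iff y).2 ⟨isIntegral_trans' (fun a ha => ((hC.mem_iff a).1 ha).1) hint, hy⟩
  have hfrac : ∀ y ∈ S18K_F1 K1 N, ∃ a b : X, b ≠ 0 ∧ y * (b : LaurentSeries K1) = a := by
    intro y hy
    obtain ⟨b, hb, hb0, hyb⟩ :=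
      Fermat.Agent.S18A.frac_of_finite (S18K_O A K1) (S18K_j K1) (S18K_F1 K1 N)
        S.O_le S.j_mem S.finite x hx y hy
    have hbX : b ∈ X := (hC.mem_iff b).2 hb
    have hybX : y * b ∈ X := (hC.mem_iff _).2 hyb
    exact ⟨⟨y * b, hybX⟩, ⟨b, hbX⟩, fun h => hb0 (congrArg Subtype.val h), rfl⟩
  have hV : S34K_Vert (S18K_π A K1) (S18K_V A K1 N) V2 X :=
    Fermat.Agent.S34_helper2_HARTOGSK.S34HK_vert S x X hC
  have hRV : locRing X m ≤ (S18K_V A K1 N ⊓ V2 : Subring (LaurentSeries K1)) :=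
    S35XC_locRing_le (S18K_V A K1 N) V2 (fun a ha => hC.le_V ha) S.V1_unif S.V2_unif h1 h2
  exact S35XC_shape_poly N A K1 p V2 X hN hπV S1.π_nonunit S1.V_rad hXF hfrac hic hV hPl s Q hπ
    m hm hπm hRV hs D hLG f hf hf0 hfV hfV' hdiv G hG

/-- **The generic X-CROSS on a chart, contract form.**  From
* CentredFrob for `s⁻¹` at the crossing points,
* the Frobenius local generators at the rational places centred at the crossing points
  (`S35K_LocGenF` of GEO-LOCGENF, def-free),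
the shape at every crossing point `m`, for every divisor `D` supported on `K1`-rational places,
every `f` with `div f = p • Q(s) D`, a unit of `V1 ⊓ V2`, and every `G` congruent to a local unit
at `m` modulo `π (V1 ⊓ V2)`. -/
theorem S35XCK_cross (V2 A0 Ainf : Subring (LaurentSeries K1))
    (S : S34C_Setup2 (S18K_O A K1) (S18K_π A K1) (S18K_j K1) (S18K_F1 K1 N) (S18K_V A K1 N) V2
      A0 Ainf)
    (x : LaurentSeries K1) (hx : x = S18K_j K1 ∨ x = (S18K_j K1)⁻¹)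
    (X : Subring (LaurentSeries K1))
    (hC : Chart (S18K_O A K1) (S18K_π A K1) x (S18K_F1 K1 N) (S18K_V A K1 N ⊓ V2) X)
    (hPl : S34K_PlacesAt N A K1 X)
    (s : GQ) (Q : Polynomial ℤ)
    (hCF : ∀ (hπ : S18K_π A K1 ∈ X) (m : Ideal X), m.IsMaximal →
      (⟨S18K_π A K1, hπ⟩ : X) ∈ m →
      S34K_Thru (S18K_π A K1) (S18K_V A K1 N) X m → S34K_Thru (S18K_π A K1) V2 X m →
      ∀ P : Place Qb (modularFunctionFieldBar N), S34K_Centred N A K1 X m P →
        S34K_Centred N A K1 X m (S34R_g N s⁻¹ • P))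
    (hLGF : ∀ (hπ : S18K_π A K1 ∈ X) (m : Ideal X) (hm : m.IsMaximal),
      (⟨S18K_π A K1, hπ⟩ : X) ∈ m →
      S34K_Thru (S18K_π A K1) (S18K_V A K1 N) X m → S34K_Thru (S18K_π A K1) V2 X m →
      ∀ P : Place Qb (modularFunctionFieldBar N), S37LEVEL_IsRational N K1 P →
        S34K_Centred N A K1 X m P →
        haveI := hm.isPrime
        ∃ g ∈ S18K_F1 K1 N,
          (∃ w : LaurentSeries K1, w ∈ locRing X m ∧ w⁻¹ ∈ locRing X m ∧
            ∃ c ∈ (S18K_V A K1 N ⊓ V2 : Subring (LaurentSeries K1)),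
              g = w * (1 + S18K_π A K1 * c)) ∧
          ∀ P' : Place Qb (modularFunctionFieldBar N), S34K_Centred N A K1 X m P' →
            S37B1_ordP N K1 P' g =
              (∑ i ∈ Q.support, Q.coeff i • (S34R_g N (s ^ i) • Finsupp.single P (1 : ℤ))) P') :
    ∀ D : Divisor Qb (modularFunctionFieldBar N),
      (∀ P : Place Qb (modularFunctionFieldBar N), D P ≠ 0 → S37LEVEL_IsRational N K1 P) →
    ∀ f : LaurentSeries K1, f ∈ S18K_F1 K1 N → f ≠ 0 →
      f ∈ (S18K_V A K1 N ⊓ V2 : Subring (LaurentSeries K1)) →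
      f⁻¹ ∈ (S18K_V A K1 N ⊓ V2 : Subring (LaurentSeries K1)) →
      (∀ P : Place Qb (modularFunctionFieldBar N),
        S37B1_ordP N K1 P f =
          (p : ℤ) * (∑ i ∈ Q.support, Q.coeff i • (S34R_g N (s ^ i) • D)) P) →
    ∀ (hπ : S18K_π A K1 ∈ X) (m : Ideal X) (hm : m.IsMaximal), (⟨S18K_π A K1, hπ⟩ : X) ∈ m →
      S34K_Thru (S18K_π A K1) (S18K_V A K1 N) X m → S34K_Thru (S18K_π A K1) V2 X m →
    ∀ G : LaurentSeries K1,
      (haveI := hm.isPrime
        ∃ w : LaurentSeries K1, w ∈ locRing X m ∧ w⁻¹ ∈ locRing X m ∧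
          ∃ c ∈ (S18K_V A K1 N ⊓ V2 : Subring (LaurentSeries K1)),
            G = w * (1 + S18K_π A K1 * c)) →
      S34C_Shape (S18K_π A K1) (S18K_F1 K1 N) (S18K_V A K1 N ⊓ V2) X p f G m := by
  intro D hD f hf hf0 hfV hfV' hdiv hπ m hm hπm h1 h2 G hG
  exact S35XCK_chart N p A K1 V2 A0 Ainf S x hx X hC hPl s Q hπ m hm hπm h1 h2
    (hCF hπ m hm hπm h1 h2) D
    (fun P hDP hP => hLGF hπ m hm hπm h1 h2 P (hD P hDP) hP) f hf hf0 hfV hfV' hdiv G hG

/-- **The generic X-CROSS on the chart `S18K_A0` of level `N' * q`**, `V2 = S34P1C_V2`. -/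
theorem S35XCK_A0 (A : ValuationSubring Qb) (K1 : IntermediateField ℚ Qb)
    [IsDiscreteValuationRing (S18K_O1 A K1)] (p : ℕ) {q : ℕ} (hq : q.Prime)
    (hA : A.LiesOverPrime q) (N' : ℕ) [NeZero N'] [NeZero (N' * q)] (hqN : ¬ q ∣ N')
    (s : GQ) (Q : Polynomial ℤ)
    (hCF : ∀ (hπ : S18K_π A K1 ∈ S18K_A0 A K1 (N' * q)) (m : Ideal (S18K_A0 A K1 (N' * q))),
      m.IsMaximal → (⟨S18K_π A K1, hπ⟩ : S18K_A0 A K1 (N' * q)) ∈ m →
      S34K_Thru (S18K_π A K1) (S18K_V A K1 (N' * q)) (S18K_A0 A K1 (N' * q)) m →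
      S34K_Thru (S18K_π A K1) (S34P1C_V2 A K1 hq N' hqN) (S18K_A0 A K1 (N' * q)) m →
      ∀ P : Place Qb (modularFunctionFieldBar (N' * q)),
        S34K_Centred (N' * q) A K1 (S18K_A0 A K1 (N' * q)) m P →
        S34K_Centred (N' * q) A K1 (S18K_A0 A K1 (N' * q)) m (S34R_g (N' * q) s⁻¹ • P))
    (hLGF : ∀ (hπ : S18K_π A K1 ∈ S18K_A0 A K1 (N' * q))
      (m : Ideal (S18K_A0 A K1 (N' * q))) (hm : m.IsMaximal),
      (⟨S18K_π A K1, hπ⟩ : S18K_A0 A K1 (N' * q)) ∈ m →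
      S34K_Thru (S18K_π A K1) (S18K_V A K1 (N' * q)) (S18K_A0 A K1 (N' * q)) m →
      S34K_Thru (S18K_π A K1) (S34P1C_V2 A K1 hq N' hqN) (S18K_A0 A K1 (N' * q)) m →
      ∀ P : Place Qb (modularFunctionFieldBar (N' * q)), S37LEVEL_IsRational (N' * q) K1 P →
        S34K_Centred (N' * q) A K1 (S18K_A0 A K1 (N' * q)) m P →
        haveI := hm.isPrime
        ∃ g ∈ S18K_F1 K1 (N' * q),
          (∃ w : LaurentSeries K1, w ∈ locRing (S18K_A0 A K1 (N' * q)) m ∧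
            w⁻¹ ∈ locRing (S18K_A0 A K1 (N' * q)) m ∧
            ∃ c ∈ (S18K_V A K1 (N' * q) ⊓ S34P1C_V2 A K1 hq N' hqN :
                Subring (LaurentSeries K1)),
              g = w * (1 + S18K_π A K1 * c)) ∧
          ∀ P' : Place Qb (modularFunctionFieldBar (N' * q)),
            S34K_Centred (N' * q) A K1 (S18K_A0 A K1 (N' * q)) m P' →
            S37B1_ordP (N' * q) K1 P' g =
              (∑ i ∈ Q.support,
                Q.coeff i • (S34R_g (N' * q) (s ^ i) • Finsupp.single P (1 : ℤ))) P') :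
    ∀ D : Divisor Qb (modularFunctionFieldBar (N' * q)),
      (∀ P : Place Qb (modularFunctionFieldBar (N' * q)), D P ≠ 0 →
        S37LEVEL_IsRational (N' * q) K1 P) →
    ∀ f : LaurentSeries K1, f ∈ S18K_F1 K1 (N' * q) → f ≠ 0 →
      f ∈ (S18K_V A K1 (N' * q) ⊓ S34P1C_V2 A K1 hq N' hqN : Subring (LaurentSeries K1)) →
      f⁻¹ ∈ (S18K_V A K1 (N' * q) ⊓ S34P1C_V2 A K1 hq N' hqN : Subring (LaurentSeries K1)) →
      (∀ P : Place Qb (modularFunctionFieldBar (N' * q)),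
        S37B1_ordP (N' * q) K1 P f =
          (p : ℤ) * (∑ i ∈ Q.support, Q.coeff i • (S34R_g (N' * q) (s ^ i) • D)) P) →
    ∀ (hπ : S18K_π A K1 ∈ S18K_A0 A K1 (N' * q)) (m : Ideal (S18K_A0 A K1 (N' * q)))
      (hm : m.IsMaximal), (⟨S18K_π A K1, hπ⟩ : S18K_A0 A K1 (N' * q)) ∈ m →
      S34K_Thru (S18K_π A K1) (S18K_V A K1 (N' * q)) (S18K_A0 A K1 (N' * q)) m →
      S34K_Thru (S18K_π A K1) (S34P1C_V2 A K1 hq N' hqN) (S18K_A0 A K1 (N' * q)) m →
    ∀ G : LaurentSeries K1,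
      (haveI := hm.isPrime
        ∃ w : LaurentSeries K1, w ∈ locRing (S18K_A0 A K1 (N' * q)) m ∧
          w⁻¹ ∈ locRing (S18K_A0 A K1 (N' * q)) m ∧
          ∃ c ∈ (S18K_V A K1 (N' * q) ⊓ S34P1C_V2 A K1 hq N' hqN :
              Subring (LaurentSeries K1)),
            G = w * (1 + S18K_π A K1 * c)) →
      S34C_Shape (S18K_π A K1) (S18K_F1 K1 (N' * q))
        (S18K_V A K1 (N' * q) ⊓ S34P1C_V2 A K1 hq N' hqN) (S18K_A0 A K1 (N' * q)) p f G m := by
  have S := S34P1C_setup2 A K1 hq hA N' hqN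
  exact S35XCK_cross (N' * q) p A K1 _ _ _ S _ (Or.inl rfl) _ S.chart0
    (Fermat.Agent.S34_helper29_PLACES.S34PL_placesAt (N' * q) A K1 hq hA S).1 s Q hCF hLGF

/-- **The generic X-CROSS on the chart `S18K_Ainf` of level `N' * q`**, `V2 = S34P1C_V2`. -/
theorem S35XCK_Ainf (A : ValuationSubring Qb) (K1 : IntermediateField ℚ Qb)
    [IsDiscreteValuationRing (S18K_O1 A K1)] (p : ℕ) {q : ℕ} (hq : q.Prime)
    (hA : A.LiesOverPrime q) (N' : ℕ) [NeZero N'] [NeZero (N' * q)] (hqN : ¬ q ∣ N')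
    (s : GQ) (Q : Polynomial ℤ)
    (hCF : ∀ (hπ : S18K_π A K1 ∈ S18K_Ainf A K1 (N' * q)) (m : Ideal (S18K_Ainf A K1 (N' * q))),
      m.IsMaximal → (⟨S18K_π A K1, hπ⟩ : S18K_Ainf A K1 (N' * q)) ∈ m →
      S34K_Thru (S18K_π A K1) (S18K_V A K1 (N' * q)) (S18K_Ainf A K1 (N' * q)) m →
      S34K_Thru (S18K_π A K1) (S34P1C_V2 A K1 hq N' hqN) (S18K_Ainf A K1 (N' * q)) m →
      ∀ P : Place Qb (modularFunctionFieldBar (N' * q)),
        S34K_Centred (N' * q) A K1 (S18K_Ainf A K1 (N' * q)) m P →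
        S34K_Centred (N' * q) A K1 (S18K_Ainf A K1 (N' * q)) m (S34R_g (N' * q) s⁻¹ • P))
    (hLGF : ∀ (hπ : S18K_π A K1 ∈ S18K_Ainf A K1 (N' * q))
      (m : Ideal (S18K_Ainf A K1 (N' * q))) (hm : m.IsMaximal),
      (⟨S18K_π A K1, hπ⟩ : S18K_Ainf A K1 (N' * q)) ∈ m →
      S34K_Thru (S18K_π A K1) (S18K_V A K1 (N' * q)) (S18K_Ainf A K1 (N' * q)) m →
      S34K_Thru (S18K_π A K1) (S34P1C_V2 A K1 hq N' hqN) (S18K_Ainf A K1 (N' * q)) m →
      ∀ P : Place Qb (modularFunctionFieldBar (N' * q)), S37LEVEL_IsRational (N' * q) K1 P →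
        S34K_Centred (N' * q) A K1 (S18K_Ainf A K1 (N' * q)) m P →
        haveI := hm.isPrime
        ∃ g ∈ S18K_F1 K1 (N' * q),
          (∃ w : LaurentSeries K1, w ∈ locRing (S18K_Ainf A K1 (N' * q)) m ∧
            w⁻¹ ∈ locRing (S18K_Ainf A K1 (N' * q)) m ∧
            ∃ c ∈ (S18K_V A K1 (N' * q) ⊓ S34P1C_V2 A K1 hq N' hqN :
                Subring (LaurentSeries K1)),
              g = w * (1 + S18K_π A K1 * c)) ∧
          ∀ P' : Place Qb (modularFunctionFieldBar (N' * q)),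
            S34K_Centred (N' * q) A K1 (S18K_Ainf A K1 (N' * q)) m P' →
            S37B1_ordP (N' * q) K1 P' g =
              (∑ i ∈ Q.support,
                Q.coeff i • (S34R_g (N' * q) (s ^ i) • Finsupp.single P (1 : ℤ))) P') :
    ∀ D : Divisor Qb (modularFunctionFieldBar (N' * q)),
      (∀ P : Place Qb (modularFunctionFieldBar (N' * q)), D P ≠ 0 →
        S37LEVEL_IsRational (N' * q) K1 P) →
    ∀ f : LaurentSeries K1, f ∈ S18K_F1 K1 (N' * q) → f ≠ 0 →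
      f ∈ (S18K_V A K1 (N' * q) ⊓ S34P1C_V2 A K1 hq N' hqN : Subring (LaurentSeries K1)) →
      f⁻¹ ∈ (S18K_V A K1 (N' * q) ⊓ S34P1C_V2 A K1 hq N' hqN : Subring (LaurentSeries K1)) →
      (∀ P : Place Qb (modularFunctionFieldBar (N' * q)),
        S37B1_ordP (N' * q) K1 P f =
          (p : ℤ) * (∑ i ∈ Q.support, Q.coeff i • (S34R_g (N' * q) (s ^ i) • D)) P) →
    ∀ (hπ : S18K_π A K1 ∈ S18K_Ainf A K1 (N' * q)) (m : Ideal (S18K_Ainf A K1 (N' * q)))
      (hm : m.IsMaximal), (⟨S18K_π A K1, hπ⟩ : S18K_Ainf A K1 (N' * q)) ∈ m →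
      S34K_Thru (S18K_π A K1) (S18K_V A K1 (N' * q)) (S18K_Ainf A K1 (N' * q)) m →
      S34K_Thru (S18K_π A K1) (S34P1C_V2 A K1 hq N' hqN) (S18K_Ainf A K1 (N' * q)) m →
    ∀ G : LaurentSeries K1,
      (haveI := hm.isPrime
        ∃ w : LaurentSeries K1, w ∈ locRing (S18K_Ainf A K1 (N' * q)) m ∧
          w⁻¹ ∈ locRing (S18K_Ainf A K1 (N' * q)) m ∧
          ∃ c ∈ (S18K_V A K1 (N' * q) ⊓ S34P1C_V2 A K1 hq N' hqN :
              Subring (LaurentSeries K1)),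
            G = w * (1 + S18K_π A K1 * c)) →
      S34C_Shape (S18K_π A K1) (S18K_F1 K1 (N' * q))
        (S18K_V A K1 (N' * q) ⊓ S34P1C_V2 A K1 hq N' hqN) (S18K_Ainf A K1 (N' * q)) p f G m := by
  have S := S34P1C_setup2 A K1 hq hA N' hqN
  exact S35XCK_cross (N' * q) p A K1 _ _ _ S _ (Or.inr rfl) _ S.chartInf
    (Fermat.Agent.S34_helper29_PLACES.S34PL_placesAt (N' * q) A K1 hq hA S).2 s Q hCF hLGF

end Fermat.Agent.S35_helper11_XCK
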