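import Fermat.Agent.S35_helper12_BR

/-!
# S35 (helper12): the endgame

`S35END_main`: **the frozen statement S35** from the two inputs, both on `J₀(M)` itself:

* (GEO) for a Frobenius lift `σ` at `q ∥ M`, `q ≠ lam`: every torsion point `x` with
  `lam ^ k • x = 0` which is NEW (`ν₁ x = 0`, `ν₂ x = 0` for two additive maps out of `J₀(M)`,
  e.g. the two push-forwards to `J₀(M / q)`) is killed by `lam ^ c • ∏ (σ - e)`,
  `e ∈ {1, -1, q, -q}`;
* (P6) some nonzero eigenvector of the Hecke operators in `O' ⊗ T_lam J₀(M)` with the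
  eigenvalues of the newform is new (killed by the base changes of the maps induced by
  `ν₁`, `ν₂` on the Tate modules).

`S35END_Input` is the conjunction, as a `Prop`.
-/

set_option autoImplicit false
set_option linter.unusedSectionVars false
set_option linter.unusedVariables false
set_option linter.style.haveILetI false

open Polynomial
open scoped TensorProduct
open CuspForm

noncomputable section

namespace Fermat.Agent.S35_helper12_END

local notation "Qb" => AlgebraicClosure ℚ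
local notation "GQ" => (AlgebraicClosure ℚ ≃ₐ[ℚ] AlgebraicClosure ℚ)

open Fermat.Agent.S30_helper1_TATE Fermat.Agent.S35_helper12_TOP3 Fermat.Agent.S35_helper12_BR

/-- the action of `σ` on `J₀(M)` as an additive endomorphism -/
abbrev S35END_act (M : ℕ) (σ : GQ) : AddMonoid.End (ModularCurve.JZero M) :=
  DistribMulAction.toAddMonoidEnd GQ (ModularCurve.JZero M) σ

/-- the operator `∏_{e ∈ l} (σ - e)` on `J₀(M)` -/
abbrev S35END_op (M : ℕ) (σ : GQ) (l : List ℤ) : AddMonoid.End (ModularCurve.JZero M) :=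
  (l.map (fun e : ℤ => S35END_act M σ - (e : AddMonoid.End (ModularCurve.JZero M)))).prod

/-- **(GEO)** for two additive maps `ν₁`, `ν₂` out of `J₀(M)`, an exponent `c` and a list `l`. -/
def S35END_Geo (M : ℕ) (lam : ℕ) (σ : GQ) {J₁ J₂ : Type} [AddCommGroup J₁] [AddCommGroup J₂]
    (ν₁ : ModularCurve.JZero M →+ J₁) (ν₂ : ModularCurve.JZero M →+ J₂) (c : ℕ) (l : List ℤ) :
    Prop :=
  ∀ (k : ℕ) (x : ModularCurve.JZero M), (lam ^ k) • x = 0 → ν₁ x = 0 → ν₂ x = 0 →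
    (lam ^ c) • S35END_op M σ l x = 0

/-- **(P6)** for two additive maps `ν₁`, `ν₂` out of `J₀(M)`. -/
def S35END_P6 (M : ℕ) [NeZero M] (lam : ℕ) [Fact lam.Prime] (S : Finset ℕ)
    (O' : Type) [CommRing O'] [Algebra ℤ_[lam] O']
    (χ : CuspForm.heckeAlgebra M 2 (↑S : Set ℕ) →+* O')
    {J₁ J₂ : Type} [AddCommGroup J₁] [AddCommGroup J₂]
    (ν₁ : ModularCurve.JZero M →+ J₁) (ν₂ : ModularCurve.JZero M →+ J₂) : Prop :=
  ∃ v : O' ⊗[ℤ_[lam]] (S30T_Tate (ModularCurve.JZero M) lam), v ≠ 0 ∧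
    (∀ (ℓ : ℕ) (hℓ : ℓ.Prime) (hℓM : ¬ ℓ ∣ M) (hℓS : ℓ ∉ (↑S : Set ℕ)),
      (Fermat.Agent.S30_helper27_TATEC.S30TC_T M lam ℓ).baseChange O' v =
        χ (CuspForm.heckeAlgebra.T hℓ hℓM hℓS) • v) ∧
    (S35BR_tateMap (p := lam) ν₁).baseChange O' v = 0 ∧
    (S35BR_tateMap (p := lam) ν₂).baseChange O' v = 0

/-- **the input of the endgame**: at every Frobenius lift at a prime `q ∥ M`, `q ≠ lam`, there
are two additive maps out of `J₀(M)`, an exponent and a list of integers in `{1, -1, q, -q}` with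
(GEO) and (P6). -/
def S35END_Input (M : ℕ) [NeZero M] (lam : ℕ) [Fact lam.Prime] (S : Finset ℕ)
    (O' : Type) [CommRing O'] [IsDomain O'] [IsDiscreteValuationRing O']
    [IsAdicComplete (IsLocalRing.maximalIdeal O') O']
    (hlamO' : (lam : O') ∈ IsLocalRing.maximalIdeal O')
    (χ : CuspForm.heckeAlgebra M 2 (↑S : Set ℕ) →+* O') : Prop :=
  letI : Algebra ℤ_[lam] O' := (Fermat.Agent.S30_helper25_ZP.S30ZP_zpLocal lam O' hlamO').toAlgebra
  ∀ q : ℕ, q.Prime → q ≠ lam → q ∣ M → ¬ q ^ 2 ∣ M →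
    ∀ A : ValuationSubring Qb, A.LiesOverPrime q → ∀ σ : GQ, A.IsFrobeniusAt σ q →
      ∃ (J₁ J₂ : Type) (_ : AddCommGroup J₁) (_ : AddCommGroup J₂)
        (ν₁ : ModularCurve.JZero M →+ J₁) (ν₂ : ModularCurve.JZero M →+ J₂)
        (c : ℕ) (l : List ℤ),
        (∀ e ∈ l, e = 1 ∨ e = -1 ∨ e = (q : ℤ) ∨ e = -(q : ℤ)) ∧
        S35END_Geo M lam σ ν₁ ν₂ c l ∧ S35END_P6 M lam S O' χ ν₁ ν₂

/-- the input of the endgame gives the hypothesis of the top wiring -/
theorem S35END_bad (M : ℕ) [NeZero M] (lam : ℕ) [Fact lam.Prime] (S : Finset ℕ)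
    (O' : Type) [CommRing O'] [IsDomain O'] [IsDiscreteValuationRing O']
    [IsAdicComplete (IsLocalRing.maximalIdeal O') O'] [CharZero O']
    (hlamO' : (lam : O') ∈ IsLocalRing.maximalIdeal O')
    (χ : CuspForm.heckeAlgebra M 2 (↑S : Set ℕ) →+* O')
    (h : S35END_Input M lam S O' hlamO' χ) : S35TOP_Bad M lam S O' hlamO' χ := by
  refine S35BR_bad2 M lam S O' hlamO' χ ?_
  intro q hq hqlam hqM hq2 A hA σ hσ
  obtain ⟨J₁, J₂, i₁, i₂, ν₁, ν₂, c, l, hl, hG, v, hv0, hveig, hv₁, hv₂⟩ :=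
    h q hq hqlam hqM hq2 A hA σ hσ
  exact ⟨J₁, J₂, i₁, i₂, ν₁, ν₂, c, l, hl, hG, v, hv0, hveig, hv₁, hv₂⟩

/-- **the frozen statement S35 from (GEO) and (P6).** -/
theorem S35END_main
    {M : ℕ} [NeZero M] {g : CuspForm (CongruenceSubgroup.Gamma0 M) 2} (hg : g.IsNewform)
    (lam : ℕ) [Fact lam.Prime]
    (S : Finset ℕ)
    (O' : Type) [CommRing O'] [IsDomain O'] [IsDiscreteValuationRing O']
    [IsAdicComplete (IsLocalRing.maximalIdeal O') O'] [Finite (IsLocalRing.ResidueField O')]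
    [CharZero O'] (hlamO' : (lam : O') ∈ IsLocalRing.maximalIdeal O')
    (chig : CuspForm.heckeAlgebra M 2 (↑S : Set ℕ) →+* ℂ)
    (hchig : ∀ (ℓ : ℕ) (hℓ : ℓ.Prime) (hℓM : ¬ ℓ ∣ M) (hℓS : ℓ ∉ (↑S : Set ℕ)),
      chig (CuspForm.heckeAlgebra.T hℓ hℓM hℓS) = ModularFormClass.qCoeff g ℓ)
    (iota : chig.range →+* O')
    (hlamS : lam ∈ S) (hMS : ∀ q : ℕ, q.Prime → q ∣ M → q ∈ S)
    (hin : S35END_Input M lam S O' hlamO' (iota.comp chig.rangeRestrict)) :
    ∃ (O'' : Type) (_ : CommRing O'') (_ : IsDomain O'') (_ : IsDiscreteValuationRing O'')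
      (_ : IsAdicComplete (IsLocalRing.maximalIdeal O'') O'') (_ : Finite (IsLocalRing.ResidueField O''))
      (_ : CharZero O'') (_ : Algebra O' O'') (_ : Module.Finite O' O'') (_ : IsLocalHom (algebraMap O' O'')),
      Function.Injective (algebraMap O' O'') ∧
      ∃ ρ : GaloisRepAdic O'',
        (∀ (ℓ : ℕ) (hℓ : ℓ.Prime) (hℓM : ¬ ℓ ∣ M) (hℓS : ℓ ∉ (↑S : Set ℕ)),
          ∀ A : ValuationSubring (AlgebraicClosure ℚ), A.LiesOverPrime ℓ →
            ∀ σ : AlgebraicClosure ℚ ≃ₐ[ℚ] AlgebraicClosure ℚ, A.IsFrobeniusAt σ ℓ →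
              LinearMap.charpoly (ρ.ρ σ) =
                X ^ 2 - C (algebraMap O' O'' ((iota.comp chig.rangeRestrict) (CuspForm.heckeAlgebra.T hℓ hℓM hℓS))) * X
                  + C ((ℓ : O''))) ∧
        (∀ q : ℕ, q.Prime → q ≠ lam → q ∣ M → ¬ q ^ 2 ∣ M →
          ∀ A : ValuationSubring (AlgebraicClosure ℚ), A.LiesOverPrime q →
            ∀ σ : AlgebraicClosure ℚ ≃ₐ[ℚ] AlgebraicClosure ℚ, A.IsFrobeniusAt σ q →
              LinearMap.charpoly (ρ.ρ σ) = X ^ 2 - C ((q : O'') + 1) * X + C ((q : O'')) ∨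
              LinearMap.charpoly (ρ.ρ σ) = X ^ 2 + C ((q : O'') + 1) * X + C ((q : O''))) :=
  S35TOP_frozen hg lam S O' hlamO' chig hchig iota hlamS hMS
    (S35END_bad M lam S O' hlamO' (iota.comp chig.rangeRestrict) hin)

end Fermat.Agent.S35_helper12_END
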