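import Fermat.Agent.S35_helper12_END
import Fermat.Agent.S35_helper6_PUSH

/-!
# S35 (helper12): adapters for the input (GEO) of the endgame

The endgame `S35END_main` wants (GEO) in the list form
`lam ^ c • (∏_{e ∈ l} (σ - e)) x = 0` (`S35END_Geo`).  Here are the bridges from the other
natural forms of the same statement:

* `S35ENDK_op_apply` : `S35END_op M σ l x = ∑ i ∈ P.support, P.coeff i • (σ ^ i • x)` for
  `P = S35ENDK_poly l = ∏_{e ∈ l} (X - C e)`;
* `S35ENDK_geo_of_sum` : (GEO) from the polynomial form;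
* `S35ENDK_geo_theta5` : (GEO) for the list `[q, -q, 1, -1, 1]` from the operator
  `Θ = (σ² - q²)(σ² - 1)(σ - 1)` written with iterated differences;
* `S35ENDK_GeoAt`, `S35ENDK_P6At` : the two inputs at the level `N' * q`, for the push-forwards
  `S35PU_alpha N' q`, `S35PU_beta N' q : J₀(N' q) → J₀(N')` of helper6;
* `S35ENDK_frozen` : **the frozen statement S35 from `S35ENDK_GeoAt` and `S35ENDK_P6At`**.
-/

set_option autoImplicit false
set_option linter.unusedSectionVars false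
set_option linter.unusedVariables false
set_option linter.style.haveILetI false

open Polynomial
open scoped TensorProduct
open CuspForm

noncomputable section

namespace Fermat.Agent.S35_helper12_ENDK

local notation "Qb" => AlgebraicClosure ℚ
local notation "GQ" => (AlgebraicClosure ℚ ≃ₐ[ℚ] AlgebraicClosure ℚ)

open Fermat.Agent.S30_helper1_TATE Fermat.Agent.S35_helper12_TOP3 Fermat.Agent.S35_helper12_BR
  Fermat.Agent.S35_helper12_END

/-- the polynomial `∏_{e ∈ l} (X - C e)` -/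
def S35ENDK_poly (l : List ℤ) : ℤ[X] := (l.map (fun e : ℤ => (X - C e : ℤ[X]))).prod

theorem S35ENDK_poly_nil : S35ENDK_poly [] = 1 := rfl

theorem S35ENDK_poly_cons (e : ℤ) (l : List ℤ) :
    S35ENDK_poly (e :: l) = (X - C e) * S35ENDK_poly l := by
  simp [S35ENDK_poly]

section generic

variable {J : Type} [AddCommGroup J]

/-- generic: the product of the `s - e` is the value of the polynomial at `s` -/
theorem S35ENDK_prod_eq_aeval (s : AddMonoid.End J) (l : List ℤ) :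
    (l.map (fun e : ℤ => s - (e : AddMonoid.End J))).prod =
      Polynomial.aeval s (S35ENDK_poly l) := by
  induction l with
  | nil => simp [S35ENDK_poly]
  | cons e l ih =>
    rw [List.map_cons, List.prod_cons, ih, S35ENDK_poly_cons, map_mul, map_sub,
      Polynomial.aeval_X, Polynomial.aeval_C]
    congr 2

theorem S35ENDK_sum_apply (t : Finset ℕ) (f : ℕ → AddMonoid.End J) (x : J) :
    (∑ i ∈ t, f i) x = ∑ i ∈ t, f i x := by
  classical
  induction t using Finset.induction_on with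
  | empty => simp
  | insert a t ha ih => rw [Finset.sum_insert ha, Finset.sum_insert ha, ← ih]; rfl

/-- generic: the value of a polynomial at `s`, applied to an element -/
theorem S35ENDK_aeval_apply (s : AddMonoid.End J) (P : ℤ[X]) (x : J) :
    Polynomial.aeval s P x = ∑ i ∈ P.support, P.coeff i • ((s ^ i) x) := by
  rw [Polynomial.aeval_def, Polynomial.eval₂_eq_sum, Polynomial.sum_def, S35ENDK_sum_apply]
  refine Finset.sum_congr rfl fun i _ => ?_
  have h : (algebraMap ℤ (AddMonoid.End J)) (P.coeff i) = ((P.coeff i : ℤ) : AddMonoid.End J) :=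
    rfl
  rw [h]
  show ((P.coeff i : ℤ) : AddMonoid.End J) ((s ^ i) x) = _
  simp

end generic

theorem S35ENDK_act_pow_apply (M : ℕ) (σ : GQ) (i : ℕ) (x : ModularCurve.JZero M) :
    (S35END_act M σ ^ i) x = (σ ^ i) • x := by
  induction i generalizing x with
  | zero => rw [pow_zero, pow_zero, one_smul]; rfl
  | succ n ih =>
    rw [pow_succ, pow_succ, mul_smul, ← ih]
    rfl

/-- the operator of the endgame, applied to a point, in polynomial form -/
theorem S35ENDK_op_apply (M : ℕ) (σ : GQ) (l : List ℤ) (x : ModularCurve.JZero M) :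
    S35END_op M σ l x =
      ∑ i ∈ (S35ENDK_poly l).support, (S35ENDK_poly l).coeff i • ((σ ^ i) • x) := by
  have h := S35ENDK_prod_eq_aeval (S35END_act M σ) l
  have h2 := S35ENDK_aeval_apply (S35END_act M σ) (S35ENDK_poly l) x
  rw [← h] at h2
  rw [show S35END_op M σ l x = _ from h2]
  refine Finset.sum_congr rfl fun i _ => ?_
  rw [S35ENDK_act_pow_apply]

/-- **(GEO) from the polynomial form.** -/
theorem S35ENDK_geo_of_sum (M : ℕ) (lam : ℕ) (σ : GQ) {J₁ J₂ : Type} [AddCommGroup J₁]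
    [AddCommGroup J₂] (ν₁ : ModularCurve.JZero M →+ J₁) (ν₂ : ModularCurve.JZero M →+ J₂)
    (c : ℕ) (l : List ℤ) (P : ℤ[X]) (hP : P = S35ENDK_poly l)
    (h : ∀ (k : ℕ) (x : ModularCurve.JZero M), (lam ^ k) • x = 0 → ν₁ x = 0 → ν₂ x = 0 →
      (lam ^ c) • ∑ i ∈ P.support, P.coeff i • ((σ ^ i) • x) = 0) :
    S35END_Geo M lam σ ν₁ ν₂ c l := by
  subst hP
  intro k x hx h1 h2
  rw [S35ENDK_op_apply]
  exact h k x hx h1 h2

/-- generic: the polynomial identity behind `Θ`. -/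
theorem S35ENDK_poly5 (q : ℤ) :
    S35ENDK_poly [q, -q, 1, -1, 1] = (X * X - C (q ^ 2)) * ((X * X - 1) * (X - 1)) := by
  simp only [S35ENDK_poly, List.map_cons, List.map_nil, List.prod_cons, List.prod_nil, map_neg,
    map_one, map_pow]
  ring

/-- generic: the operator for the list `[q, -q, 1, -1, 1]` is `(s² - q²)(s² - 1)(s - 1)`. -/
theorem S35ENDK_prod5 {J : Type} [AddCommGroup J] (s : AddMonoid.End J) (q : ℤ) :
    ([q, -q, 1, -1, 1].map (fun e : ℤ => s - (e : AddMonoid.End J))).prod =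
      (s * s - ((q ^ 2 : ℤ) : AddMonoid.End J)) * ((s * s - 1) * (s - 1)) := by
  rw [S35ENDK_prod_eq_aeval, S35ENDK_poly5]
  simp only [map_mul, map_sub, Polynomial.aeval_X, Polynomial.aeval_C, map_one]
  rfl

/-- the operator for the list `[q, -q, 1, -1, 1]` with iterated differences:
`(σ² - q²)(σ² - 1)(σ - 1) x`. -/
theorem S35ENDK_theta5 (M : ℕ) (σ : GQ) (q : ℤ) (x : ModularCurve.JZero M) :
    S35END_op M σ [q, -q, 1, -1, 1] x =
      σ • σ • (σ • σ • (σ • x - x) - (σ • x - x))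
        - (q ^ 2) • (σ • σ • (σ • x - x) - (σ • x - x)) := by
  have h := S35ENDK_prod5 (S35END_act M σ) q
  rw [show S35END_op M σ [q, -q, 1, -1, 1] = _ from h]
  show σ • σ • (σ • σ • (σ • x - (1 : AddMonoid.End (ModularCurve.JZero M)) x)
      - (1 : AddMonoid.End (ModularCurve.JZero M)) (σ • x - (1 : AddMonoid.End (ModularCurve.JZero M)) x))
    - ((q ^ 2 : ℤ) : AddMonoid.End (ModularCurve.JZero M))
      (σ • σ • (σ • x - (1 : AddMonoid.End (ModularCurve.JZero M)) x)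
      - (1 : AddMonoid.End (ModularCurve.JZero M)) (σ • x - (1 : AddMonoid.End (ModularCurve.JZero M)) x)) = _
  have h1 : ∀ y : ModularCurve.JZero M, (1 : AddMonoid.End (ModularCurve.JZero M)) y = y :=
    fun _ => rfl
  have h2 : ∀ (e : ℤ) (y : ModularCurve.JZero M),
      ((e : ℤ) : AddMonoid.End (ModularCurve.JZero M)) y = e • y := by
    intro e y
    simp
  rw [h1, h1, h2]

/-- the same with `σ * σ`. -/
theorem S35ENDK_theta5' (M : ℕ) (σ : GQ) (q : ℤ) (x : ModularCurve.JZero M) :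
    S35END_op M σ [q, -q, 1, -1, 1] x =
      (σ * σ) • ((σ * σ) • (σ • x - x) - (σ • x - x))
        - (q ^ 2) • ((σ * σ) • (σ • x - x) - (σ • x - x)) := by
  rw [S35ENDK_theta5, mul_smul, mul_smul]

/-- **(GEO) for the list `[q, -q, 1, -1, 1]`** from the operator
`Θ = (σ² - q²)(σ² - 1)(σ - 1)` with iterated differences. -/
theorem S35ENDK_geo_theta5 (M : ℕ) (lam : ℕ) (σ : GQ) (q : ℕ) {J₁ J₂ : Type} [AddCommGroup J₁]
    [AddCommGroup J₂] (ν₁ : ModularCurve.JZero M →+ J₁) (ν₂ : ModularCurve.JZero M →+ J₂)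
    (c : ℕ)
    (h : ∀ (k : ℕ) (x : ModularCurve.JZero M), (lam ^ k) • x = 0 → ν₁ x = 0 → ν₂ x = 0 →
      (lam ^ c) • ((σ * σ) • ((σ * σ) • (σ • x - x) - (σ • x - x))
        - ((q : ℤ) ^ 2) • ((σ * σ) • (σ • x - x) - (σ • x - x))) = 0) :
    S35END_Geo M lam σ ν₁ ν₂ c [(q : ℤ), -(q : ℤ), 1, -1, 1] := by
  intro k x hx h1 h2
  rw [S35ENDK_theta5']
  exact h k x hx h1 h2

theorem S35ENDK_list5 (q : ℕ) :
    ∀ e ∈ [(q : ℤ), -(q : ℤ), 1, -1, 1], e = 1 ∨ e = -1 ∨ e = (q : ℤ) ∨ e = -(q : ℤ) := by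
  intro e he
  simp only [List.mem_cons, List.not_mem_nil, or_false] at he
  rcases he with h | h | h | h | h <;> simp [h]

/-! ### the plug at the level `N' * q` -/

open Fermat.Agent.S35_helper6_PUSH

/-- **(GEO) at the level `N' * q`**: some list of integers in `{1, -1, q, -q}` and some exponent
`c` with `lam ^ c • ∏ (σ - e) = 0` on the `lam`-power torsion points of `J₀(N' q)` killed by the two
push-forwards to `J₀(N')`. -/
def S35ENDK_GeoAt (N' q lam : ℕ) [NeZero N'] [NeZero q] (σ : GQ) : Prop :=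
  ∃ (c : ℕ) (l : List ℤ), (∀ e ∈ l, e = 1 ∨ e = -1 ∨ e = (q : ℤ) ∨ e = -(q : ℤ)) ∧
    S35END_Geo (N' * q) lam σ (S35PU_alpha N' q) (S35PU_beta N' q) c l

/-- (GEO) at the level `N' * q` for the operator `Θ = (σ² - q²)(σ² - 1)(σ - 1)`. -/
theorem S35ENDK_geoAt_theta5 (N' q lam : ℕ) [NeZero N'] [NeZero q] (σ : GQ)
    (h : ∀ (k : ℕ) (x : ModularCurve.JZero (N' * q)), (lam ^ k) • x = 0 →
      S35PU_alpha N' q x = 0 → S35PU_beta N' q x = 0 →
      (σ * σ) • ((σ * σ) • (σ • x - x) - (σ • x - x))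
        - ((q : ℤ) ^ 2) • ((σ * σ) • (σ • x - x) - (σ • x - x)) = 0) :
    S35ENDK_GeoAt N' q lam σ :=
  ⟨0, [(q : ℤ), -(q : ℤ), 1, -1, 1], S35ENDK_list5 q,
    S35ENDK_geo_theta5 (N' * q) lam σ q _ _ 0 (fun k x hx h1 h2 => by
      rw [pow_zero, one_smul]; exact h k x hx h1 h2)⟩

/-- **(P6) at the level `N' * q`**: a nonzero eigenvector in `O' ⊗ T_lam J₀(N' q)` killed by the
two push-forwards to `J₀(N')`. -/
def S35ENDK_P6At (N' q : ℕ) [NeZero N'] [NeZero q] [NeZero (N' * q)] (lam : ℕ) [Fact lam.Prime]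
    (S : Finset ℕ) (O' : Type) [CommRing O'] [IsDomain O'] [IsDiscreteValuationRing O']
    [IsAdicComplete (IsLocalRing.maximalIdeal O') O']
    (hlamO' : (lam : O') ∈ IsLocalRing.maximalIdeal O')
    (χ : CuspForm.heckeAlgebra (N' * q) 2 (↑S : Set ℕ) →+* O') : Prop :=
  letI : Algebra ℤ_[lam] O' := (Fermat.Agent.S30_helper25_ZP.S30ZP_zpLocal lam O' hlamO').toAlgebra
  S35END_P6 (N' * q) lam S O' χ (S35PU_alpha N' q) (S35PU_beta N' q)

/-- **the frozen statement S35 from (GEO) and (P6) at the levels `N' * q`.** -/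
theorem S35ENDK_frozen
    (hGeo : ∀ (N' q lam : ℕ) [NeZero N'] [NeZero q], q.Prime → lam.Prime → q ≠ lam → ¬ q ∣ N' →
      ∀ A : ValuationSubring Qb, A.LiesOverPrime q → ∀ σ : GQ, A.IsFrobeniusAt σ q →
        S35ENDK_GeoAt N' q lam σ)
    (hP6 : ∀ (N' q : ℕ) [NeZero N'] [NeZero q] [NeZero (N' * q)], q.Prime → ¬ q ∣ N' →
      ∀ {g : CuspForm (CongruenceSubgroup.Gamma0 (N' * q)) 2}, g.IsNewform →
      ∀ (lam : ℕ) [Fact lam.Prime], q ≠ lam → ∀ (S : Finset ℕ)
        (O' : Type) [CommRing O'] [IsDomain O'] [IsDiscreteValuationRing O']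
        [IsAdicComplete (IsLocalRing.maximalIdeal O') O'] [Finite (IsLocalRing.ResidueField O')]
        [CharZero O'] (hlamO' : (lam : O') ∈ IsLocalRing.maximalIdeal O')
        (chig : CuspForm.heckeAlgebra (N' * q) 2 (↑S : Set ℕ) →+* ℂ),
        (∀ (ℓ : ℕ) (hℓ : ℓ.Prime) (hℓM : ¬ ℓ ∣ N' * q) (hℓS : ℓ ∉ (↑S : Set ℕ)),
          chig (CuspForm.heckeAlgebra.T hℓ hℓM hℓS) = ModularFormClass.qCoeff g ℓ) →
        ∀ (iota : chig.range →+* O'), lam ∈ S → (∀ r : ℕ, r.Prime → r ∣ N' * q → r ∈ S) →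
          S35ENDK_P6At N' q lam S O' hlamO' (iota.comp chig.rangeRestrict))
    {M : ℕ} [NeZero M] {g : CuspForm (CongruenceSubgroup.Gamma0 M) 2} (hg : g.IsNewform)
    (lam : ℕ) [Fact lam.Prime]
    (S : Finset ℕ)
    (O' : Type) [CommRing O'] [IsDomain O'] [IsDiscreteValuationRing O']
    [IsAdicComplete (IsLocalRing.maximalIdeal O') O'] [Finite (IsLocalRing.ResidueField O')]
    [CharZero O'] (hlamO' : (lam : O') ∈ IsLocalRing.maximalIdeal O')
    (chig : CuspForm.heckeAlgebra M 2 (↑S : Set ℕ) →+* ℂ)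
    (hchig : ∀ (ℓ : ℕ) (hℓ : ℓ.Prime) (hℓM : ¬ ℓ ∣ M) (hℓS : ℓ ∉ (↑S : Set ℕ)),
      chig (CuspForm.heckeAlgebra.T hℓ hℓM hℓS) = ModularFormClass.qCoeff g ℓ)
    (iota : chig.range →+* O')
    (hlamS : lam ∈ S) (hMS : ∀ q : ℕ, q.Prime → q ∣ M → q ∈ S) :
    ∃ (O'' : Type) (_ : CommRing O'') (_ : IsDomain O'') (_ : IsDiscreteValuationRing O'')
      (_ : IsAdicComplete (IsLocalRing.maximalIdeal O'') O'') (_ : Finite (IsLocalRing.ResidueField O''))
      (_ : CharZero O'') (_ : Algebra O' O'') (_ : Module.Finite O' O'') (_ : IsLocalHom (algebraMap O' O'')),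
      Function.Injective (algebraMap O' O'') ∧
      ∃ ρ : GaloisRepAdic O'',
        (∀ (ℓ : ℕ) (hℓ : ℓ.Prime) (hℓM : ¬ ℓ ∣ M) (hℓS : ℓ ∉ (↑S : Set ℕ)),
          ∀ A : ValuationSubring (AlgebraicClosure ℚ), A.LiesOverPrime ℓ →
            ∀ σ : AlgebraicClosure ℚ ≃ₐ[ℚ] AlgebraicClosure ℚ, A.IsFrobeniusAt σ ℓ →
              LinearMap.charpoly (ρ.ρ σ) =
                X ^ 2 - C (algebraMap O' O'' ((iota.comp chig.rangeRestrict) (CuspForm.heckeAlgebra.T hℓ hℓM hℓS))) * X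
                  + C ((ℓ : O''))) ∧
        (∀ q : ℕ, q.Prime → q ≠ lam → q ∣ M → ¬ q ^ 2 ∣ M →
          ∀ A : ValuationSubring (AlgebraicClosure ℚ), A.LiesOverPrime q →
            ∀ σ : AlgebraicClosure ℚ ≃ₐ[ℚ] AlgebraicClosure ℚ, A.IsFrobeniusAt σ q →
              LinearMap.charpoly (ρ.ρ σ) = X ^ 2 - C ((q : O'') + 1) * X + C ((q : O'')) ∨
              LinearMap.charpoly (ρ.ρ σ) = X ^ 2 + C ((q : O'') + 1) * X + C ((q : O''))) := by
  refine S35END_main hg lam S O' hlamO' chig hchig iota hlamS hMS ?_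
  intro q hq hqlam hqM hq2 A hA σ hσ
  obtain ⟨N', hN'⟩ := hqM
  rw [mul_comm] at hN'
  have hqN' : ¬ q ∣ N' := by
    rintro ⟨r, rfl⟩
    exact hq2 ⟨r, by rw [hN']; ring⟩
  subst hN'
  haveI : NeZero N' := ⟨fun h0 => NeZero.ne (N' * q) (by rw [h0, zero_mul])⟩
  haveI : NeZero q := ⟨hq.ne_zero⟩
  obtain ⟨c, l, hl, hG⟩ := hGeo N' q lam hq (Fact.out) hqlam hqN' A hA σ hσ
  have hP := hP6 N' q hq hqN' hg lam hqlam S O' hlamO' chig hchig iota hlamS hMS
  exact ⟨_, _, _, _, S35PU_alpha N' q, S35PU_beta N' q, c, l, hl, hG, hP⟩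

end Fermat.Agent.S35_helper12_ENDK
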