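import Mathlib
import Fermat.Agent.S35_helper12_TFBW
import Fermat.Agent.S35_helper18_W4G

/-!
# S35, piece P6-B-beta, the unconditional plug (helper12): `S35P6_TFA N ℓ → S35P6_TFB N ℓ`

The group half of helper18 (`S35W4_conj`, `S35W4_pull`, at the Bezout pair chosen in
`S35WC_gammaW`) discharges the hypotheses of `S35W4A_main` and `S35TFBW_main`.

* `S35TFB_w_theta` : `w • Θ c = Θ (pull c)` for every `Θ` with `PG_THETA (N ℓ) m`;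
* `S35TFB_of_TFA`  : `S35P6_TFA N ℓ → S35P6_TFB N ℓ`.
-/

set_option autoImplicit false
set_option linter.unusedSectionVars false
set_option linter.unusedVariables false

noncomputable section

open UpperHalfPlane ModularForm CongruenceSubgroup AlgebraicCurve
open scoped MatrixGroups ModularForm Manifold
open ModularCurve
open Fermat.Agent.G_helper6_Defs
open Fermat.Agent.S35_helper12_WC Fermat.Agent.S35_helper12_W3 Fermat.Agent.S35_helper12_W4A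
open Fermat.Agent.S35_helper12_TFBW Fermat.Agent.S35_helper18_W4G
open Fermat.Agent.S35_helper23_P6Defs

namespace Fermat.Agent.S35_helper12_TFB

variable (N ℓ : ℕ) [NeZero N] [NeZero ℓ] (hℓ : ℓ.Prime) (hℓN : ¬ ℓ ∣ N)

/-- the conjugation by `W` on `Γ₀(N ℓ)` (helper18, at the chosen Bezout pair) -/
def S35TFB_conj : Gamma0 (N * ℓ) →* Gamma0 (N * ℓ) :=
  S35W4_conj N ℓ (S35WC_u N ℓ hℓ hℓN) (S35WC_v N ℓ hℓ hℓN) (S35WC_uv N ℓ hℓ hℓN)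

/-- the pull-back `c ↦ c ∘ conj` on the lattice (helper18, at the chosen Bezout pair) -/
def S35TFB_pull : PG_M (N * ℓ) →+ PG_M (N * ℓ) :=
  S35W4_pull N ℓ (S35WC_u N ℓ hℓ hℓN) (S35WC_v N ℓ hℓ hℓN) (S35WC_uv N ℓ hℓ hℓN)

theorem S35TFB_conj_mat (g : Gamma0 (N * ℓ)) :
    Matrix.SpecialLinearGroup.mapGL ℝ ((S35TFB_conj N ℓ hℓ hℓN g : Gamma0 (N * ℓ)) : SL(2, ℤ)) *
        S35W3_W N ℓ hℓ hℓN =
      S35W3_W N ℓ hℓ hℓN * Matrix.SpecialLinearGroup.mapGL ℝ (g : SL(2, ℤ)) :=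
  S35W4_conj_mul_Wmat N ℓ (S35WC_u N ℓ hℓ hℓN) (S35WC_v N ℓ hℓ hℓN) (S35WC_uv N ℓ hℓ hℓN) g

theorem S35TFB_chi (m : ℕ) (c : PG_M (N * ℓ)) :
    PG_chi (N * ℓ) m ((S35TFB_pull N ℓ hℓ hℓN c : PG_M (N * ℓ)) :
        Additive (Gamma0 (N * ℓ)) →+ ℤ) =
      (PG_chi (N * ℓ) m (c : Additive (Gamma0 (N * ℓ)) →+ ℤ)).comp (S35TFB_conj N ℓ hℓ hℓN) :=
  S35W4_chi_pull N ℓ (S35WC_u N ℓ hℓ hℓN) (S35WC_v N ℓ hℓ hℓN) (S35WC_uv N ℓ hℓ hℓN) m c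

/-- **Step (w4)**: `w • Θ c = Θ (pull c)`, no hypothesis left. -/
theorem S35TFB_w_theta (m : ℕ) (hm : 0 < m) (Θ : PG_M (N * ℓ) →+ PG_JC (N * ℓ))
    (hΘ : PG_THETA (N * ℓ) m Θ) (c : PG_M (N * ℓ)) :
    SemilinearAut.ofAlgAut (S35WC_w N ℓ hℓ hℓN) • Θ c = Θ (S35TFB_pull N ℓ hℓ hℓN c) :=
  S35W4A_main N ℓ hℓ hℓN (S35TFB_conj N ℓ hℓ hℓN) (S35TFB_conj_mat N ℓ hℓ hℓN)
    (S35TFB_pull N ℓ hℓ hℓN) (S35TFB_chi N ℓ hℓ hℓN) m hm Θ hΘ c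

/-- **P6-B-beta**: Theta-functoriality along `β` from the one along `α`. -/
theorem S35TFB_of_TFA (N ℓ : ℕ) [NeZero N] [NeZero ℓ] (hℓ : ℓ.Prime) (hℓN : ¬ ℓ ∣ N)
    (hA : S35P6_TFA N ℓ) : S35P6_TFB N ℓ :=
  S35TFBW_main N ℓ hℓ hℓN (S35TFB_conj N ℓ hℓ hℓN) (S35TFB_conj_mat N ℓ hℓ hℓN)
    (S35TFB_pull N ℓ hℓ hℓN) (S35TFB_chi N ℓ hℓ hℓN) hA

end Fermat.Agent.S35_helper12_TFB
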