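import Mathlib
import Fermat.Agent.S35_helper12_TFB
import Fermat.Agent.S35_helper23_TFA

/-!
# S35, piece P6-B-beta (helper12): `S35P6_TFB N ℓ`, no hypothesis left

`S35TFBM_beta : S35P6_TFB N ℓ` for `ℓ` prime, `ℓ ∤ N`, from helper23's `S35TF_alpha`
(Theta-functoriality along `α`) and `S35TFB_of_TFA`.
-/

set_option autoImplicit false

noncomputable section

open Fermat.Agent.S35_helper23_P6Defs

namespace Fermat.Agent.S35_helper12_TFBM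

/-- **P6-B-beta**: Theta-functoriality along `β`. -/
theorem S35TFBM_beta (N ℓ : ℕ) [NeZero N] [NeZero ℓ] (hℓ : ℓ.Prime) (hℓN : ¬ ℓ ∣ N) :
    S35P6_TFB N ℓ :=
  Fermat.Agent.S35_helper12_TFB.S35TFB_of_TFA N ℓ hℓ hℓN
    (Fermat.Agent.S35_helper23_TFA.S35TF_alpha N ℓ hℓ hℓN)

/-- the two hypotheses `hA`, `hB` of the assembly P6-E, in its binder form. -/
theorem S35TFBM_hA : ∀ (N ℓ : ℕ) [NeZero N] [NeZero ℓ], ℓ.Prime → ¬ ℓ ∣ N → S35P6_TFA N ℓ :=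
  fun N ℓ _ _ hℓ hℓN => Fermat.Agent.S35_helper23_TFA.S35TF_alpha N ℓ hℓ hℓN

theorem S35TFBM_hB : ∀ (N ℓ : ℕ) [NeZero N] [NeZero ℓ], ℓ.Prime → ¬ ℓ ∣ N → S35P6_TFB N ℓ :=
  fun N ℓ _ _ hℓ hℓN => S35TFBM_beta N ℓ hℓ hℓN

end Fermat.Agent.S35_helper12_TFBM
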