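import Mathlib
import Fermat.Prelude.Def_GaloisRep_Adic
import Fermat.Prelude.Def_CuspForm_HeckeGaloisRepDatum
import Fermat.Agent.S30_helper12_Contracts
import Fermat.Agent.S30_helper9_REL
import Fermat.Agent.S30_helper19_AW
import Fermat.Agent.S30_helper12_BC
import Fermat.Agent.S30_helper18_EL
import Fermat.Agent.S30_helper17_CYCT

/-!
# S35 (helper12): the top wiring

The Galois representation attached to an eigensystem `χ` of the Hecke algebra (the S30
construction on the eigenlattice of the Tate module) has, at a Frobenius lift `σ` at a prime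
`q ≠ p`, the characteristic polynomial `X² ∓ (q + 1) X + q` as soon as

  **(bad)** some product `∏ (ρ σ - e)`, `e ∈ {1, -1, q, -q}`, kills ONE nonzero `χ`-eigenvector
  of the Tate module (base changed to the coefficient ring).

The proof is rank free: a nonzero eigenvector `v` of the Hecke operators gives (last nonzero
term of the chain `v, (σ - e₁) v, …`) a nonzero Hecke eigenvector `w` with `σ w = e w`; the
quadratic relation `σ² - t σ + q = 0` on the eigenlattice gives `e² - t e + q = 0`, hence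
`t = ± (q + 1)`; the lattice wiring of S30 gives the characteristic polynomial `X² - t X + q`.
-/

set_option autoImplicit false
set_option linter.unusedSectionVars false
set_option linter.unusedVariables false
set_option linter.style.haveILetI false

open Polynomial
open scoped TensorProduct

noncomputable section

namespace Fermat.Agent.S35_helper12_TOP

open Fermat.Agent.S30_helper12_Contracts Fermat.Agent.S30_helper12_BC
  Fermat.Agent.S30_helper17_CYCT

local notation "Qb" => AlgebraicClosure ℚ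
local notation "GQ" => (AlgebraicClosure ℚ ≃ₐ[ℚ] AlgebraicClosure ℚ)

/-! ### Algebra -/

section Algebra

variable {R V : Type*} [CommRing R] [AddCommGroup V] [Module R V]

/-- **the chain**: if a product of factors `g - e` kills a nonzero vector of a `g`-stable
submodule, the submodule contains an eigenvector of `g` whose eigenvalue is one of the `e`. -/
theorem S35TOP_eigen_of_prod (g : Module.End R V) (P : Submodule R V)
    (hP : ∀ v ∈ P, g v ∈ P) (l : List R) (v : V) (hvP : v ∈ P) (hv : v ≠ 0)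
    (h : (l.map (fun e => g - e • (1 : Module.End R V))).prod v = 0) :
    ∃ e ∈ l, ∃ w ∈ P, w ≠ 0 ∧ g w = e • w := by
  induction l with
  | nil =>
    exfalso
    apply hv
    simpa using h
  | cons a l ih =>
    have hstab : ∀ (l' : List R) (x : V), x ∈ P →
        (l'.map (fun e => g - e • (1 : Module.End R V))).prod x ∈ P := by
      intro l'
      induction l' with
      | nil => intro x hx; simpa using hx
      | cons b l' ih' =>
        intro x hx
        rw [List.map_cons, List.prod_cons, Module.End.mul_apply, LinearMap.sub_apply,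
          LinearMap.smul_apply, Module.End.one_apply]
        exact P.sub_mem (hP _ (ih' x hx)) (P.smul_mem _ (ih' x hx))
    by_cases h0 : (l.map (fun e => g - e • (1 : Module.End R V))).prod v = 0
    · obtain ⟨e, he, w, hw, hw0, hgw⟩ := ih h0
      exact ⟨e, List.mem_cons_of_mem _ he, w, hw, hw0, hgw⟩
    · refine ⟨a, List.mem_cons_self, _, hstab l v hvP, h0, ?_⟩
      rw [List.map_cons, List.prod_cons, Module.End.mul_apply, LinearMap.sub_apply,
        LinearMap.smul_apply, Module.End.one_apply, sub_eq_zero] at h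
      exact h

/-- `e² - t e + q = 0` with `e ∈ {1, -1, q, -q}` forces `t = ± (q + 1)`. -/
theorem S35TOP_t [IsDomain R] {q t e : R} (hq : q ≠ 0)
    (he : e = 1 ∨ e = -1 ∨ e = q ∨ e = -q) (h : e * e - t * e + q = 0) :
    t = q + 1 ∨ t = -(q + 1) := by
  rcases he with rfl | rfl | rfl | rfl
  · left
    have : (1 : R) * 1 - t * 1 + q = q + 1 - t := by ring
    rw [this] at h
    exact (sub_eq_zero.1 h).symm
  · right
    have : (-1 : R) * -1 - t * -1 + q = t - -(q + 1) := by ring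
    rw [this] at h
    exact sub_eq_zero.1 h
  · left
    have : e * e - t * e + e = e * (e + 1 - t) := by ring
    rw [this] at h
    rcases mul_eq_zero.1 h with h1 | h1
    · exact absurd h1 hq
    · exact (sub_eq_zero.1 h1).symm
  · right
    have : (-q) * (-q) - t * (-q) + q = q * (t - -(q + 1)) := by ring
    rw [this] at h
    rcases mul_eq_zero.1 h with h1 | h1
    · exact absurd h1 hq
    · exact sub_eq_zero.1 h1

end Algebra

/-! ### The abstract wiring, with the quadratic relations exposed -/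

/-- **S30's wiring with the relations exposed**: besides the two clauses of `S30CWV2_main`, every
`g` satisfies a quadratic relation `g² - t g + d g = 0` on the Hecke eigenvectors, and every such
relation computes the characteristic polynomial of `ρ' g`. -/
theorem S35TOP_cwv (S : Finset ℕ)
    (𝒪 : Type) [CommRing 𝒪] [IsDomain 𝒪] [IsDiscreteValuationRing 𝒪]
    [IsAdicComplete (IsLocalRing.maximalIdeal 𝒪) 𝒪] [Finite (IsLocalRing.ResidueField 𝒪)]
    [CharZero 𝒪]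
    (V : Type) [AddCommGroup V] [Module 𝒪 V] [Module.Finite 𝒪 V] [Module.Free 𝒪 V]
    (r : GQ →* Module.End 𝒪 V) (T : ℕ → Module.End 𝒪 V) (a : ℕ → 𝒪)
    (d : GQ →* 𝒪ˣ) (c : GQ)
    (hcomm : ∀ (ℓ : ℕ) (g : GQ), ℓ.Prime → ℓ ∉ S → T ℓ * r g = r g * T ℓ)
    (hcont : GaloisActionIsAdicContinuous 𝒪 r)
    (hdcont : ∀ n : ℕ, ∃ L : IntermediateField ℚ Qb, FiniteDimensional ℚ L ∧
      ∀ σ : GQ, (∀ x ∈ L, σ x = x) →
        ((d σ : 𝒪ˣ) : 𝒪) - 1 ∈ IsLocalRing.maximalIdeal 𝒪 ^ n)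
    (hdfrob : ∀ ℓ : ℕ, ℓ.Prime → ℓ ∉ S → ∀ A : ValuationSubring Qb, A.LiesOverPrime ℓ →
      ∀ σ : GQ, A.IsFrobeniusAt σ ℓ → ((d σ : 𝒪ˣ) : 𝒪) = (ℓ : 𝒪))
    (hcc : c * c = 1) (hdc : ((d c : 𝒪ˣ) : 𝒪) = -1)
    (hES : ∀ ℓ : ℕ, ℓ.Prime → ℓ ∉ S → ∀ A : ValuationSubring Qb, A.LiesOverPrime ℓ →
      ∀ σ : GQ, A.IsFrobeniusAt σ ℓ →
        r σ * r σ - T ℓ * r σ + (ℓ : 𝒪) • (1 : Module.End 𝒪 V) = 0)
    (hv : ∃ v : V, v ≠ 0 ∧ ∀ ℓ : ℕ, ℓ.Prime → ℓ ∉ S → T ℓ v = a ℓ • v)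
    (hEL : ∃ (E : Submodule 𝒪 V) (rE : GQ →* Module.End 𝒪 E),
      Module.Finite 𝒪 E ∧ Module.Free 𝒪 E ∧
      (∀ v : V, v ∈ E ↔ ∀ ℓ : ℕ, ℓ.Prime → ℓ ∉ S → T ℓ v = a ℓ • v) ∧
      (∀ (g : GQ) (e : E), ((rE g e : E) : V) = r g (e : V)) ∧
      GaloisActionIsAdicContinuous 𝒪 (V := E) rE) :
    ∃ ρ' : GaloisRepAdic 𝒪,
      (∀ ℓ : ℕ, ℓ.Prime → ℓ ∉ S → ∀ A : ValuationSubring Qb, A.LiesOverPrime ℓ →
        ∀ σ : GQ, A.IsFrobeniusAt σ ℓ →
          LinearMap.charpoly (ρ'.ρ σ) = X ^ 2 - C (a ℓ) * X + C ((ℓ : 𝒪))) ∧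
      (∀ σ : GQ, r σ = 1 → d σ = 1 → ρ'.ρ σ = 1) ∧
      (∀ g : GQ, ∃ t : 𝒪, ∀ v : V, (∀ ℓ : ℕ, ℓ.Prime → ℓ ∉ S → T ℓ v = a ℓ • v) →
        r g (r g v) - t • r g v + ((d g : 𝒪ˣ) : 𝒪) • v = 0) ∧
      (∀ (g : GQ) (t : 𝒪),
        (∀ v : V, (∀ ℓ : ℕ, ℓ.Prime → ℓ ∉ S → T ℓ v = a ℓ • v) →
          r g (r g v) - t • r g v + ((d g : 𝒪ˣ) : 𝒪) • v = 0) →
        LinearMap.charpoly (ρ'.ρ g) = X ^ 2 - C t * X + C ((d g : 𝒪ˣ) : 𝒪)) := by
  classical
  obtain ⟨E, rE, hEfin, hEfree, hEmem, hEcoe, hEcont⟩ := hEL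
  haveI := hEfin
  haveI := hEfree
  obtain ⟨v, hv0, hveig⟩ := hv
  haveI : Nontrivial E :=
    ⟨⟨⟨v, (hEmem v).2 hveig⟩, 0, fun h => hv0 (congrArg Subtype.val h)⟩⟩
  -- relations on `E` versus relations on the eigenvectors of `V`
  have hiff : ∀ (g : GQ) (t : 𝒪),
      (rE g * rE g - t • rE g + ((d g : 𝒪ˣ) : 𝒪) • (1 : Module.End 𝒪 E) = 0) ↔
        ∀ v : V, (∀ ℓ : ℕ, ℓ.Prime → ℓ ∉ S → T ℓ v = a ℓ • v) →
          r g (r g v) - t • r g v + ((d g : 𝒪ˣ) : 𝒪) • v = 0 := by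
    intro g t
    constructor
    · intro h v hv
      have h1 := congrArg (fun φ : Module.End 𝒪 E => ((φ ⟨v, (hEmem v).2 hv⟩ : E) : V)) h
      simp only [LinearMap.add_apply, LinearMap.sub_apply, Module.End.mul_apply,
        LinearMap.smul_apply, Module.End.one_apply, LinearMap.zero_apply, Submodule.coe_add,
        Submodule.coe_sub, Submodule.coe_smul, Submodule.coe_zero, hEcoe] at h1
      exact h1
    · intro h
      refine LinearMap.ext fun e => Subtype.ext ?_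
      have h1 := h (e : V) ((hEmem _).1 e.2)
      simp only [LinearMap.add_apply, LinearMap.sub_apply, Module.End.mul_apply,
        LinearMap.smul_apply, Module.End.one_apply, LinearMap.zero_apply, Submodule.coe_add,
        Submodule.coe_sub, Submodule.coe_smul, Submodule.coe_zero, hEcoe]
      exact h1
  -- the scalar relations at Frobenius lifts
  have hrelF : ∀ ℓ : ℕ, ℓ.Prime → ℓ ∉ S → ∀ A : ValuationSubring Qb, A.LiesOverPrime ℓ →
      ∀ σ : GQ, A.IsFrobeniusAt σ ℓ →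
        rE σ * rE σ - a ℓ • rE σ + (ℓ : 𝒪) • (1 : Module.End 𝒪 E) = 0 := by
    intro ℓ hℓ hℓS A hA σ hσ
    have hd := hdfrob ℓ hℓ hℓS A hA σ hσ
    rw [← hd]
    refine (hiff σ (a ℓ)).2 (fun w hw => ?_)
    have h1 := hES ℓ hℓ hℓS A hA σ hσ
    have h2 : (r σ * r σ - T ℓ * r σ + (ℓ : 𝒪) • (1 : Module.End 𝒪 V)) w = 0 := by
      rw [h1, LinearMap.zero_apply]
    have h3 : T ℓ (r σ w) = a ℓ • r σ w := by
      have hc := congrArg (fun φ : Module.End 𝒪 V => φ w) (hcomm ℓ σ hℓ hℓS)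
      simp only [Module.End.mul_apply] at hc
      rw [hc, hw ℓ hℓ hℓS, map_smul]
    simp only [LinearMap.add_apply, LinearMap.sub_apply, Module.End.mul_apply,
      LinearMap.smul_apply, Module.End.one_apply] at h2
    rw [h3] at h2
    rw [hd]
    exact h2
  -- density
  have hrel := Fermat.Agent.S30_helper9_REL.S30_REL (𝒪 := 𝒪) E rE d S a hEcont hdcont
    hdfrob hrelF
  obtain ⟨ρ', hρ1, hρ2⟩ := Fermat.Agent.S30_helper19_AW.S30LAT_AW 𝒪 E rE d c hEcont hdcont
    hcc hdc hrel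
  refine ⟨ρ', ?_, ?_, ?_, ?_⟩
  · intro ℓ hℓ hℓS A hA σ hσ
    have h := hρ2 σ (a ℓ) (by
      have := hrelF ℓ hℓ hℓS A hA σ hσ
      rw [hdfrob ℓ hℓ hℓS A hA σ hσ]
      exact this)
    rw [h, hdfrob ℓ hℓ hℓS A hA σ hσ]
  · intro σ hrσ hdσ
    refine hρ1 σ ?_ hdσ
    refine LinearMap.ext fun e => Subtype.ext ?_
    rw [hEcoe, hrσ, Module.End.one_apply, Module.End.one_apply]
  · intro g
    obtain ⟨t, ht⟩ := hrel g
    exact ⟨t, (hiff g t).1 ht⟩
  · intro g t h
    exact hρ2 g t ((hiff g t).2 h)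

/-- **the bad-prime clause, abstractly**: in the situation of `S35TOP_cwv`, if at `σ` the
cyclotomic character takes the value `q ≠ 0` and a product of factors `r σ - e`,
`e ∈ {1, -1, q, -q}`, kills ONE nonzero Hecke eigenvector, then the characteristic polynomial of `ρ' σ`
is `X² ∓ (q + 1) X + q`. -/
theorem S35TOP_bad_of_rel
    (𝒪 : Type) [CommRing 𝒪] [IsDomain 𝒪] [IsDiscreteValuationRing 𝒪] [CharZero 𝒪]
    (V : Type) [AddCommGroup V] [Module 𝒪 V] [Module.Finite 𝒪 V] [Module.Free 𝒪 V]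
    (r : GQ →* Module.End 𝒪 V) (Eig : V → Prop)
    (hEig0 : ∀ v w : V, Eig v → Eig w → Eig (v - w)) (hEigs : ∀ (c : 𝒪) (v : V), Eig v → Eig (c • v))
    (hEigz : Eig 0)
    (hEigr : ∀ (g : GQ) (v : V), Eig v → Eig (r g v))
    (ρ' : GaloisRepAdic 𝒪) (d : GQ →* 𝒪ˣ)
    (hex : ∀ g : GQ, ∃ t : 𝒪, ∀ v : V, Eig v →
        r g (r g v) - t • r g v + ((d g : 𝒪ˣ) : 𝒪) • v = 0)
    (hcp : ∀ (g : GQ) (t : 𝒪),
        (∀ v : V, Eig v → r g (r g v) - t • r g v + ((d g : 𝒪ˣ) : 𝒪) • v = 0) →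
        LinearMap.charpoly (ρ'.ρ g) = X ^ 2 - C t * X + C ((d g : 𝒪ˣ) : 𝒪))
    (q : ℕ) (hq : q ≠ 0) (σ : GQ) (hd : ((d σ : 𝒪ˣ) : 𝒪) = (q : 𝒪))
    (l : List 𝒪) (hl : ∀ e ∈ l, e = 1 ∨ e = -1 ∨ e = (q : 𝒪) ∨ e = -(q : 𝒪))
    (hkill : ∃ v : V, v ≠ 0 ∧ Eig v ∧
      (l.map (fun e => r σ - e • (1 : Module.End 𝒪 V))).prod v = 0) :
    LinearMap.charpoly (ρ'.ρ σ) = X ^ 2 - C ((q : 𝒪) + 1) * X + C ((q : 𝒪)) ∨
      LinearMap.charpoly (ρ'.ρ σ) = X ^ 2 + C ((q : 𝒪) + 1) * X + C ((q : 𝒪)) := by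
  classical
  obtain ⟨v, hv0, hveig, hkv⟩ := hkill
  let P : Submodule 𝒪 V :=
    { carrier := {v | Eig v}
      zero_mem' := hEigz
      add_mem' := by
        intro x y hx hy
        have h1 : Eig (x - (0 - y)) := hEig0 _ _ hx (hEig0 _ _ hEigz hy)
        have h2 : x - (0 - y) = x + y := by abel
        rw [h2] at h1
        exact h1
      smul_mem' := fun c x hx => hEigs c x hx }
  obtain ⟨e, he, w, hwP, hw0, hσw⟩ := S35TOP_eigen_of_prod (r σ) P
    (fun x hx => hEigr σ x hx) l v hveig hv0 hkv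
  obtain ⟨t, ht⟩ := hex σ
  have h1 := ht w hwP
  rw [hσw, map_smul, hσw, hd] at h1
  have h2 : (e * e - t * e + (q : 𝒪)) • w = 0 := by
    rw [add_smul, sub_smul, mul_smul, mul_smul]
    exact h1
  have hq' : (q : 𝒪) ≠ 0 := Nat.cast_ne_zero.2 hq
  have h3 : e * e - t * e + (q : 𝒪) = 0 := by
    rcases smul_eq_zero.1 h2 with h | h
    · exact h
    · exact absurd h hw0
  have h4 := hcp σ t ht
  rw [hd] at h4
  rcases S35TOP_t hq' (hl e he) h3 with h5 | h5
  · left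
    rw [h4, h5]
  · right
    rw [h4, h5, map_neg, neg_mul, sub_neg_eq_add]

end Fermat.Agent.S35_helper12_TOP
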