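import Fermat.Agent.S35_helper12_TOP
import Fermat.Agent.S30_helper12_FINAL

/-!
# S35 (helper12): the top wiring, for an abstract Tate module

`S35TOP_abstract`: the conclusion of the frozen statement S35 (for an arbitrary eigensystem `χ`,
with `𝒪'' := 𝒪'`) from the hypotheses of `S30FINAL_abstract` and

  **(bad)** at every Frobenius lift `σ` at a prime `q ≠ p` exactly dividing `N`, some product
  `∏ (ρ σ - e)`, `e ∈ {1, -1, q, -q}`, kills ONE nonzero `χ`-eigenvector of `𝒪' ⊗ Λ`.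
-/

set_option autoImplicit false
set_option linter.unusedSectionVars false
set_option linter.unusedVariables false
set_option linter.style.haveILetI false

open Polynomial
open scoped TensorProduct

noncomputable section

namespace Fermat.Agent.S35_helper12_TOP2

open Fermat.Agent.S30_helper12_Contracts Fermat.Agent.S30_helper12_BC
  Fermat.Agent.S30_helper17_CYCT Fermat.Agent.S35_helper12_TOP
  Fermat.Agent.S30_helper12_FINAL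

local notation "Qb" => AlgebraicClosure ℚ
local notation "GQ" => (AlgebraicClosure ℚ ≃ₐ[ℚ] AlgebraicClosure ℚ)

/-- base change of a product of factors `φ - e` -/
theorem S35TOP2_baseChange_prod {R : Type*} [CommRing R] (𝒪 : Type*) [CommRing 𝒪] [Algebra R 𝒪]
    {Λ : Type*} [AddCommGroup Λ] [Module R Λ] (φ : Module.End R Λ) (l : List ℤ) :
    ((l.map (fun e : ℤ => φ - (e : R) • (1 : Module.End R Λ))).prod).baseChange 𝒪 =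
      ((l.map (fun e : ℤ => (e : 𝒪))).map
        (fun e : 𝒪 => φ.baseChange 𝒪 - e • (1 : Module.End 𝒪 (𝒪 ⊗[R] Λ)))).prod := by
  induction l with
  | nil => simp [LinearMap.baseChange_one]
  | cons a l ih =>
    rw [List.map_cons, List.prod_cons, LinearMap.baseChange_mul, ih, List.map_cons,
      List.map_cons, List.prod_cons, LinearMap.baseChange_sub, LinearMap.baseChange_smul,
      LinearMap.baseChange_one]
    congr 2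
    refine LinearMap.ext fun x => ?_
    rw [LinearMap.smul_apply, LinearMap.smul_apply, Module.End.one_apply,
      algebra_compatible_smul 𝒪 (a : R) x, map_intCast]

theorem S35TOP_abstract {p : ℕ} [Fact p.Prime] {N : ℕ} [NeZero N] (S : Finset ℕ)
    (hpS : p ∈ S) (hNS : ∀ q : ℕ, q.Prime → q ∣ N → q ∈ S)
    (𝒪' : Type) [CommRing 𝒪'] [IsDomain 𝒪'] [IsDiscreteValuationRing 𝒪']
    [IsAdicComplete (IsLocalRing.maximalIdeal 𝒪') 𝒪'] [Finite (IsLocalRing.ResidueField 𝒪')]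
    [CharZero 𝒪'] [Algebra ℤ_[p] 𝒪'] (hp𝒪' : (p : 𝒪') ∈ IsLocalRing.maximalIdeal 𝒪')
    (χ : CuspForm.heckeAlgebra N 2 (↑S : Set ℕ) →+* 𝒪')
    (Λ : Type) [AddCommGroup Λ] [Module ℤ_[p] Λ] [Module.Finite ℤ_[p] Λ] [Module.Free ℤ_[p] Λ]
    (ρ : GQ →* Module.End ℤ_[p] Λ) (T : ℕ → Module.End ℤ_[p] Λ)
    (hcomm : ∀ (ℓ : ℕ) (g : GQ), ℓ.Prime → T ℓ * ρ g = ρ g * T ℓ)
    (hcont : ∀ n : ℕ, ∃ L : IntermediateField ℚ Qb, FiniteDimensional ℚ L ∧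
      ∀ σ : GQ, (∀ x ∈ L, σ x = x) → ∀ v : Λ, ∃ w : Λ, ρ σ v - v = (p : ℤ_[p]) ^ n • w)
    (hES : ∀ ℓ : ℕ, ℓ.Prime → ¬ ℓ ∣ N * p → ∀ A : ValuationSubring Qb, A.LiesOverPrime ℓ →
      ∀ σ : GQ, A.IsFrobeniusAt σ ℓ →
        ρ σ * ρ σ - T ℓ * ρ σ + (ℓ : ℤ_[p]) • (1 : Module.End ℤ_[p] Λ) = 0)
    (hv : ∃ v : 𝒪' ⊗[ℤ_[p]] Λ, v ≠ 0 ∧
      ∀ (ℓ : ℕ) (hℓ : ℓ.Prime) (hℓN : ¬ ℓ ∣ N) (hℓS : ℓ ∉ (↑S : Set ℕ)),
        (T ℓ).baseChange 𝒪' v = χ (CuspForm.heckeAlgebra.T hℓ hℓN hℓS) • v)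
    (hbad : ∀ q : ℕ, q.Prime → q ≠ p → q ∣ N → ¬ q ^ 2 ∣ N →
      ∀ A : ValuationSubring Qb, A.LiesOverPrime q → ∀ σ : GQ, A.IsFrobeniusAt σ q →
        ∃ l : List ℤ, (∀ e ∈ l, e = 1 ∨ e = -1 ∨ e = (q : ℤ) ∨ e = -(q : ℤ)) ∧
          ∃ v : 𝒪' ⊗[ℤ_[p]] Λ, v ≠ 0 ∧
            (∀ (ℓ : ℕ) (hℓ : ℓ.Prime) (hℓN : ¬ ℓ ∣ N) (hℓS : ℓ ∉ (↑S : Set ℕ)),
              (T ℓ).baseChange 𝒪' v = χ (CuspForm.heckeAlgebra.T hℓ hℓN hℓS) • v) ∧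
            ((l.map (fun e : ℤ => ρ σ - (e : ℤ_[p]) • (1 : Module.End ℤ_[p] Λ))).prod).baseChange
              𝒪' v = 0) :
    ∃ (𝒪'' : Type) (_ : CommRing 𝒪'') (_ : IsDomain 𝒪'') (_ : IsDiscreteValuationRing 𝒪'')
      (_ : IsAdicComplete (IsLocalRing.maximalIdeal 𝒪'') 𝒪'')
      (_ : Finite (IsLocalRing.ResidueField 𝒪'')) (_ : CharZero 𝒪'')
      (_ : Algebra 𝒪' 𝒪'') (_ : Module.Finite 𝒪' 𝒪'') (_ : IsLocalHom (algebraMap 𝒪' 𝒪'')),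
    Function.Injective (algebraMap 𝒪' 𝒪'') ∧
    ∃ ρ' : GaloisRepAdic 𝒪'',
      (∀ (ℓ : ℕ) (hℓ : ℓ.Prime) (hℓN : ¬ ℓ ∣ N) (hℓS : ℓ ∉ (↑S : Set ℕ)),
        ∀ A : ValuationSubring (AlgebraicClosure ℚ), A.LiesOverPrime ℓ →
          ∀ σ : AlgebraicClosure ℚ ≃ₐ[ℚ] AlgebraicClosure ℚ, A.IsFrobeniusAt σ ℓ →
            LinearMap.charpoly (ρ'.ρ σ) =
              X ^ 2 - C (algebraMap 𝒪' 𝒪'' (χ (CuspForm.heckeAlgebra.T hℓ hℓN hℓS))) * X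
                + C ((ℓ : 𝒪''))) ∧
      (∀ q : ℕ, q.Prime → q ≠ p → q ∣ N → ¬ q ^ 2 ∣ N →
        ∀ A : ValuationSubring (AlgebraicClosure ℚ), A.LiesOverPrime q →
          ∀ σ : AlgebraicClosure ℚ ≃ₐ[ℚ] AlgebraicClosure ℚ, A.IsFrobeniusAt σ q →
            LinearMap.charpoly (ρ'.ρ σ) = X ^ 2 - C ((q : 𝒪'') + 1) * X + C ((q : 𝒪'')) ∨
            LinearMap.charpoly (ρ'.ρ σ) = X ^ 2 + C ((q : 𝒪'') + 1) * X + C ((q : 𝒪''))) := by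
  classical
  have hp : p.Prime := Fact.out
  -- the eigenvalues
  let a : ℕ → 𝒪' := fun ℓ =>
    if h : ℓ.Prime ∧ ¬ ℓ ∣ N ∧ ℓ ∉ (↑S : Set ℕ) then χ (CuspForm.heckeAlgebra.T h.1 h.2.1 h.2.2)
    else 0
  have ha : ∀ (ℓ : ℕ) (hℓ : ℓ.Prime) (hℓN : ¬ ℓ ∣ N) (hℓS : ℓ ∉ (↑S : Set ℕ)),
      a ℓ = χ (CuspForm.heckeAlgebra.T hℓ hℓN hℓS) := by
    intro ℓ hℓ hℓN hℓS
    simp only [a]
    rw [dif_pos ⟨hℓ, hℓN, hℓS⟩]
  have hN : ∀ ℓ : ℕ, ℓ.Prime → ℓ ∉ S → ¬ ℓ ∣ N := fun ℓ hℓ hℓS h => hℓS (hNS ℓ hℓ h)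
  have hS' : ∀ ℓ : ℕ, ℓ ∉ S → ℓ ∉ (↑S : Set ℕ) := fun ℓ h h' => h (Finset.mem_coe.1 h')
  have hne : ∀ ℓ : ℕ, ℓ ∉ S → ℓ ≠ p := fun ℓ h h' => h (h' ▸ hpS)
  -- the eigenvector predicate, in the two forms
  have heig : ∀ v : 𝒪' ⊗[ℤ_[p]] Λ,
      (∀ ℓ : ℕ, ℓ.Prime → ℓ ∉ S → (T ℓ).baseChange 𝒪' v = a ℓ • v) ↔
        ∀ (ℓ : ℕ) (hℓ : ℓ.Prime) (hℓN : ¬ ℓ ∣ N) (hℓS : ℓ ∉ (↑S : Set ℕ)),
          (T ℓ).baseChange 𝒪' v = χ (CuspForm.heckeAlgebra.T hℓ hℓN hℓS) • v := by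
    intro v
    constructor
    · intro h ℓ hℓ hℓN hℓS
      rw [← ha ℓ hℓ hℓN hℓS]
      exact h ℓ hℓ (fun h' => hℓS (Finset.mem_coe.2 h'))
    · intro h ℓ hℓ hℓS
      rw [ha ℓ hℓ (hN ℓ hℓ hℓS) (hS' ℓ hℓS)]
      exact h ℓ hℓ (hN ℓ hℓ hℓS) (hS' ℓ hℓS)
  -- the cyclotomic character
  let f : ℤ_[p] →+* 𝒪' := algebraMap ℤ_[p] 𝒪'
  obtain ⟨c, hcc, hdc⟩ := S30CYCT_conj p f
  -- base change
  have hppow : ∀ n : ℕ, algebraMap ℤ_[p] 𝒪' ((p : ℤ_[p]) ^ n) ∈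
      IsLocalRing.maximalIdeal 𝒪' ^ n := by
    intro n
    rw [map_pow, map_natCast]
    exact Ideal.pow_mem_pow hp𝒪' n
  have hcontV : GaloisActionIsAdicContinuous 𝒪' (S30BC_hom 𝒪' ρ) := by
    intro n
    obtain ⟨L, hL, h⟩ := hcont n
    refine ⟨L, hL, fun σ hσ x => ?_⟩
    have h1 : ∀ v : Λ, ∃ w : Λ, (ρ σ - 1) v = (p : ℤ_[p]) ^ n • w := fun v => by
      obtain ⟨w, hw⟩ := h σ hσ v
      exact ⟨w, by rw [LinearMap.sub_apply, Module.End.one_apply, hw]⟩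
    obtain ⟨y, hy⟩ := S30BC_dvd 𝒪' (ρ σ - 1) ((p : ℤ_[p]) ^ n) h1 x
    have h2 : S30BC_hom 𝒪' ρ σ x - x = algebraMap ℤ_[p] 𝒪' ((p : ℤ_[p]) ^ n) • y := by
      rw [← hy, LinearMap.baseChange_sub, LinearMap.baseChange_one, LinearMap.sub_apply,
        Module.End.one_apply, S30BC_hom_apply]
    rw [h2]
    exact Submodule.smul_mem_smul (hppow n) Submodule.mem_top
  have hcommV : ∀ (ℓ : ℕ) (g : GQ), ℓ.Prime → ℓ ∉ S →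
      (fun ℓ => (T ℓ).baseChange 𝒪') ℓ * S30BC_hom 𝒪' ρ g =
        S30BC_hom 𝒪' ρ g * (fun ℓ => (T ℓ).baseChange 𝒪') ℓ := by
    intro ℓ g hℓ hℓS
    simp only [S30BC_hom_apply]
    rw [← LinearMap.baseChange_mul, ← LinearMap.baseChange_mul, hcomm ℓ g hℓ]
  have hESV : ∀ ℓ : ℕ, ℓ.Prime → ℓ ∉ S → ∀ A : ValuationSubring Qb, A.LiesOverPrime ℓ →
      ∀ σ : GQ, A.IsFrobeniusAt σ ℓ →
        S30BC_hom 𝒪' ρ σ * S30BC_hom 𝒪' ρ σ -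
            (fun ℓ => (T ℓ).baseChange 𝒪') ℓ * S30BC_hom 𝒪' ρ σ
          + (ℓ : 𝒪') • (1 : Module.End 𝒪' (𝒪' ⊗[ℤ_[p]] Λ)) = 0 := by
    intro ℓ hℓ hℓS A hA σ hσ
    have h1 := congrArg (fun φ : Module.End ℤ_[p] Λ => φ.baseChange 𝒪')
      (hES ℓ hℓ (S30FINAL_not_dvd hp S hpS hNS hℓ hℓS) A hA σ hσ)
    simp only [LinearMap.baseChange_add, LinearMap.baseChange_sub, LinearMap.baseChange_mul,
      LinearMap.baseChange_smul, LinearMap.baseChange_one, LinearMap.baseChange_zero] at h1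
    simp only [S30BC_hom_apply]
    rw [← h1]
    congr 1
    refine LinearMap.ext fun x => ?_
    rw [LinearMap.smul_apply, LinearMap.smul_apply, Module.End.one_apply,
      algebra_compatible_smul 𝒪' (ℓ : ℤ_[p]) x, map_natCast]
  have hEL := Fermat.Agent.S30_helper18_EL.S30_EL p 𝒪' Λ ρ T S a hp𝒪'
    (fun ℓ g hℓ _ => hcomm ℓ g hℓ) hcont
  have hvV : ∃ v : 𝒪' ⊗[ℤ_[p]] Λ, v ≠ 0 ∧
      ∀ ℓ : ℕ, ℓ.Prime → ℓ ∉ S → (T ℓ).baseChange 𝒪' v = a ℓ • v := by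
    obtain ⟨v, hv0, hv1⟩ := hv
    exact ⟨v, hv0, (heig v).2 hv1⟩
  obtain ⟨ρ', h1, -, h3, h4⟩ := S35TOP_cwv S 𝒪' (𝒪' ⊗[ℤ_[p]] Λ) (S30BC_hom 𝒪' ρ)
    (fun ℓ => (T ℓ).baseChange 𝒪') a (S30CYCT_d p f) c hcommV hcontV
    (fun n => S30CYCT_cont p f hp𝒪' n)
    (fun ℓ hℓ hℓS A hA σ hσ => S30CYCT_frob p f hℓ (hne ℓ hℓS) A hA σ hσ) hcc hdc hESV hvV hEL
  refine ⟨𝒪', inferInstance, inferInstance, inferInstance, inferInstance, inferInstance,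
    inferInstance, Algebra.id 𝒪', inferInstance, ?_, ?_, ρ', ?_, ?_⟩
  · exact ⟨fun _ h => h⟩
  · exact fun _ _ h => h
  · intro ℓ hℓ hℓN hℓS A hA σ hσ
    have hℓS' : ℓ ∉ S := fun h => hℓS (Finset.mem_coe.2 h)
    rw [h1 ℓ hℓ hℓS' A hA σ hσ, ha ℓ hℓ hℓN hℓS]
    rfl
  · intro q hq hqp hqN hq2 A hA σ hσ
    obtain ⟨l, hl, w, hw0, hweig, hkill⟩ := hbad q hq hqp hqN hq2 A hA σ hσ
    refine S35TOP_bad_of_rel 𝒪' (𝒪' ⊗[ℤ_[p]] Λ) (S30BC_hom 𝒪' ρ)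
      (fun v => ∀ ℓ : ℕ, ℓ.Prime → ℓ ∉ S → (T ℓ).baseChange 𝒪' v = a ℓ • v)
      ?_ ?_ ?_ ?_ ρ' (S30CYCT_d p f) h3 h4 q hq.ne_zero σ
      (S30CYCT_frob p f hq hqp A hA σ hσ) (l.map (fun e : ℤ => (e : 𝒪'))) ?_ ?_
    · intro v w hv hw ℓ hℓ hℓS
      rw [map_sub, hv ℓ hℓ hℓS, hw ℓ hℓ hℓS, smul_sub]
    · intro c v hv ℓ hℓ hℓS
      rw [map_smul, hv ℓ hℓ hℓS, smul_comm]
    · intro ℓ hℓ hℓS
      rw [map_zero, smul_zero]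
    · intro g v hv ℓ hℓ hℓS
      have hc := congrArg (fun φ : Module.End 𝒪' (𝒪' ⊗[ℤ_[p]] Λ) => φ v) (hcommV ℓ g hℓ hℓS)
      simp only [Module.End.mul_apply] at hc
      rw [hc, hv ℓ hℓ hℓS, map_smul]
    · intro e he
      obtain ⟨e', he', rfl⟩ := List.mem_map.1 he
      rcases hl e' he' with h | h | h | h
      · left; rw [h, Int.cast_one]
      · right; left; rw [h, Int.cast_neg, Int.cast_one]
      · right; right; left; rw [h, Int.cast_natCast]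
      · right; right; right; rw [h, Int.cast_neg, Int.cast_natCast]
    · refine ⟨w, hw0, (heig w).2 hweig, ?_⟩
      have := hkill
      rw [S35TOP2_baseChange_prod] at this
      exact this

end Fermat.Agent.S35_helper12_TOP2
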