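import Fermat.Prelude.Def_CuspForm_Newforms
import Fermat.Agent.S35_helper12_TOP2
import Fermat.Agent.S30_helper25_ZP
import Fermat.Agent.S30_helper27_TATEC
import Fermat.Agent.S30_helper23_EIGC
import Fermat.Agent.S37_helper8_E1M
import Fermat.Agent.G_helper6_E2PLUG

/-!
# S35 (helper12): the frozen statement from the bad-prime annihilator

`S35TOP_frozen`: the conclusion of the frozen statement S35 from

  **(bad)** at every Frobenius lift `σ` at a prime `q ≠ lam` exactly dividing `M`, some product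
  `∏ (ρ σ - e)`, `e ∈ {1, -1, q, -q}`, of operators on the `lam`-adic Tate module of `J₀(M)`
  kills (after base change to `O'`) ONE nonzero eigenvector of the Hecke operators `T ℓ`,
  `ℓ ∉ S`, with the eigenvalues `iota (chig (T ℓ))`.

Everything else (Tate module, Eichler-Shimura, eigenlattice, density, lattice wiring, cyclotomic
character) is the landed S30 machinery.  The hypotheses `hg` (newform) and `hchig` of the frozen
statement are used only to prove (bad).
-/

set_option autoImplicit false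
set_option linter.unusedSectionVars false
set_option linter.unusedVariables false
set_option linter.style.haveILetI false

open Polynomial
open scoped TensorProduct
open CuspForm

noncomputable section

namespace Fermat.Agent.S35_helper12_TOP3

local notation "Qb" => AlgebraicClosure ℚ
local notation "GQ" => (AlgebraicClosure ℚ ≃ₐ[ℚ] AlgebraicClosure ℚ)

open Fermat.Agent.S30_helper1_TATE

/-- **(bad)**: the hypothesis on the Tate module of `J₀(M)`. -/
def S35TOP_Bad (M : ℕ) [NeZero M] (lam : ℕ) [Fact lam.Prime] (S : Finset ℕ)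
    (O' : Type) [CommRing O'] [IsDomain O'] [IsDiscreteValuationRing O']
    [IsAdicComplete (IsLocalRing.maximalIdeal O') O']
    (hlamO' : (lam : O') ∈ IsLocalRing.maximalIdeal O')
    (χ : CuspForm.heckeAlgebra M 2 (↑S : Set ℕ) →+* O') : Prop :=
  letI : Algebra ℤ_[lam] O' := (Fermat.Agent.S30_helper25_ZP.S30ZP_zpLocal lam O' hlamO').toAlgebra
  ∀ q : ℕ, q.Prime → q ≠ lam → q ∣ M → ¬ q ^ 2 ∣ M →
    ∀ A : ValuationSubring Qb, A.LiesOverPrime q → ∀ σ : GQ, A.IsFrobeniusAt σ q →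
      ∃ l : List ℤ, (∀ e ∈ l, e = 1 ∨ e = -1 ∨ e = (q : ℤ) ∨ e = -(q : ℤ)) ∧
        ∃ v : O' ⊗[ℤ_[lam]] (S30T_Tate (ModularCurve.JZero M) lam), v ≠ 0 ∧
          (∀ (ℓ : ℕ) (hℓ : ℓ.Prime) (hℓM : ¬ ℓ ∣ M) (hℓS : ℓ ∉ (↑S : Set ℕ)),
            (Fermat.Agent.S30_helper27_TATEC.S30TC_T M lam ℓ).baseChange O' v =
              χ (CuspForm.heckeAlgebra.T hℓ hℓM hℓS) • v) ∧
          ((l.map (fun e : ℤ => Fermat.Agent.S30_helper27_TATEC.S30TC_rho M lam σ -
              (e : ℤ_[lam]) • (1 : Module.End ℤ_[lam]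
                (S30T_Tate (ModularCurve.JZero M) lam)))).prod).baseChange O' v = 0

/-- **the conclusion of the frozen statement S35** for an arbitrary eigensystem `χ`, from
(bad). -/
theorem S35TOP_of_bad {M : ℕ} [NeZero M] (lam : ℕ) [Fact lam.Prime] (S : Finset ℕ)
    (O' : Type) [CommRing O'] [IsDomain O'] [IsDiscreteValuationRing O']
    [IsAdicComplete (IsLocalRing.maximalIdeal O') O'] [Finite (IsLocalRing.ResidueField O')]
    [CharZero O'] (hlamO' : (lam : O') ∈ IsLocalRing.maximalIdeal O')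
    (χ : CuspForm.heckeAlgebra M 2 (↑S : Set ℕ) →+* O')
    (hlamS : lam ∈ S) (hMS : ∀ q : ℕ, q.Prime → q ∣ M → q ∈ S)
    (hbad : S35TOP_Bad M lam S O' hlamO' χ) :
    ∃ (O'' : Type) (_ : CommRing O'') (_ : IsDomain O'') (_ : IsDiscreteValuationRing O'')
      (_ : IsAdicComplete (IsLocalRing.maximalIdeal O'') O'')
      (_ : Finite (IsLocalRing.ResidueField O''))
      (_ : CharZero O'') (_ : Algebra O' O'') (_ : Module.Finite O' O'')
      (_ : IsLocalHom (algebraMap O' O'')),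
      Function.Injective (algebraMap O' O'') ∧
      ∃ ρ : GaloisRepAdic O'',
        (∀ (ℓ : ℕ) (hℓ : ℓ.Prime) (hℓM : ¬ ℓ ∣ M) (hℓS : ℓ ∉ (↑S : Set ℕ)),
          ∀ A : ValuationSubring (AlgebraicClosure ℚ), A.LiesOverPrime ℓ →
            ∀ σ : AlgebraicClosure ℚ ≃ₐ[ℚ] AlgebraicClosure ℚ, A.IsFrobeniusAt σ ℓ →
              LinearMap.charpoly (ρ.ρ σ) =
                X ^ 2 - C (algebraMap O' O'' (χ (CuspForm.heckeAlgebra.T hℓ hℓM hℓS))) * X
                  + C ((ℓ : O''))) ∧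
        (∀ q : ℕ, q.Prime → q ≠ lam → q ∣ M → ¬ q ^ 2 ∣ M →
          ∀ A : ValuationSubring (AlgebraicClosure ℚ), A.LiesOverPrime q →
            ∀ σ : AlgebraicClosure ℚ ≃ₐ[ℚ] AlgebraicClosure ℚ, A.IsFrobeniusAt σ q →
              LinearMap.charpoly (ρ.ρ σ) = X ^ 2 - C ((q : O'') + 1) * X + C ((q : O'')) ∨
              LinearMap.charpoly (ρ.ρ σ) = X ^ 2 + C ((q : O'') + 1) * X + C ((q : O''))) := by
  letI : Algebra ℤ_[lam] O' :=
    (Fermat.Agent.S30_helper25_ZP.S30ZP_zpLocal lam O' hlamO').toAlgebra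
  have hlam : lam.Prime := Fact.out
  -- the input (E1) at the moduli `lam ^ n`
  have hE1 := Fermat.Agent.S37_helper8_E1M.S37E1M_pow M lam
  -- the input (E2): the compatible family of lattice maps
  obtain ⟨Θ, hΘ, hcompat⟩ := Fermat.Agent.G_helper6_E2PLUG.PG_E2PLUG_adic M lam hlam.pos
  -- finiteness of `J₀(M)[lam]`
  have hfin : (AlgebraicCurve.Pic0.torsion (AlgebraicClosure ℚ)
      (ModularCurve.modularFunctionFieldBar M) lam : Set (ModularCurve.JZero M)).Finite := by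
    have h := (hΘ 1).fin
    rwa [pow_one] at h
  haveI := Fermat.Agent.S30_helper27_TATEC.S30TC_finite M lam hfin
  haveI := Fermat.Agent.S30_helper27_TATEC.S30TC_free M lam hfin
  -- the nonzero eigenvector
  have hv := Fermat.Agent.S30_helper23_EIGC.PG30_eigenlattice_of_E2 (𝒪 := O') M (↑S : Set ℕ)
    (fun q hq hqM => Finset.mem_coe.2 (hMS q hq hqM)) lam Θ hΘ hcompat
    (Fermat.Agent.S30_helper27_TATEC.S30TC_T M lam)
    (fun ℓ _ _ x n => Fermat.Agent.S30_helper27_TATEC.S30TC_T_apply ℓ.2 x n) χ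
  exact Fermat.Agent.S35_helper12_TOP2.S35TOP_abstract S hlamS hMS O' hlamO' χ
    (S30T_Tate (ModularCurve.JZero M) lam)
    (Fermat.Agent.S30_helper27_TATEC.S30TC_rho M lam)
    (Fermat.Agent.S30_helper27_TATEC.S30TC_T M lam)
    (fun ℓ g hℓ => Fermat.Agent.S30_helper27_TATEC.S30TC_comm M lam ℓ g hℓ)
    (Fermat.Agent.S30_helper27_TATEC.S30TC_cont M lam hfin)
    (Fermat.Agent.S30_helper27_TATEC.S30TC_ES M lam hE1) hv hbad

/-- **the frozen statement S35 from (bad)** for the eigensystem of the newform. -/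
theorem S35TOP_frozen
    {M : ℕ} [NeZero M] {g : CuspForm (CongruenceSubgroup.Gamma0 M) 2} (hg : g.IsNewform)
    (lam : ℕ) [Fact lam.Prime]
    (S : Finset ℕ)
    (O' : Type) [CommRing O'] [IsDomain O'] [IsDiscreteValuationRing O']
    [IsAdicComplete (IsLocalRing.maximalIdeal O') O'] [Finite (IsLocalRing.ResidueField O')]
    [CharZero O'] (hlamO' : (lam : O') ∈ IsLocalRing.maximalIdeal O')
    (chig : CuspForm.heckeAlgebra M 2 (↑S : Set ℕ) →+* ℂ)
    (hchig : ∀ (ℓ : ℕ) (hℓ : ℓ.Prime) (hℓM : ¬ ℓ ∣ M) (hℓS : ℓ ∉ (↑S : Set ℕ)),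
      chig (CuspForm.heckeAlgebra.T hℓ hℓM hℓS) = ModularFormClass.qCoeff g ℓ)
    (iota : chig.range →+* O')
    (hlamS : lam ∈ S) (hMS : ∀ q : ℕ, q.Prime → q ∣ M → q ∈ S)
    (hbad : S35TOP_Bad M lam S O' hlamO' (iota.comp chig.rangeRestrict)) :
    ∃ (O'' : Type) (_ : CommRing O'') (_ : IsDomain O'') (_ : IsDiscreteValuationRing O'')
      (_ : IsAdicComplete (IsLocalRing.maximalIdeal O'') O'') (_ : Finite (IsLocalRing.ResidueField O''))
      (_ : CharZero O'') (_ : Algebra O' O'') (_ : Module.Finite O' O'') (_ : IsLocalHom (algebraMap O' O'')),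
      Function.Injective (algebraMap O' O'') ∧
      ∃ ρ : GaloisRepAdic O'',
        (∀ (ℓ : ℕ) (hℓ : ℓ.Prime) (hℓM : ¬ ℓ ∣ M) (hℓS : ℓ ∉ (↑S : Set ℕ)),
          ∀ A : ValuationSubring (AlgebraicClosure ℚ), A.LiesOverPrime ℓ →
            ∀ σ : AlgebraicClosure ℚ ≃ₐ[ℚ] AlgebraicClosure ℚ, A.IsFrobeniusAt σ ℓ →
              LinearMap.charpoly (ρ.ρ σ) =
                X ^ 2 - C (algebraMap O' O'' ((iota.comp chig.rangeRestrict) (CuspForm.heckeAlgebra.T hℓ hℓM hℓS))) * X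
                  + C ((ℓ : O''))) ∧
        (∀ q : ℕ, q.Prime → q ≠ lam → q ∣ M → ¬ q ^ 2 ∣ M →
          ∀ A : ValuationSubring (AlgebraicClosure ℚ), A.LiesOverPrime q →
            ∀ σ : AlgebraicClosure ℚ ≃ₐ[ℚ] AlgebraicClosure ℚ, A.IsFrobeniusAt σ q →
              LinearMap.charpoly (ρ.ρ σ) = X ^ 2 - C ((q : O'') + 1) * X + C ((q : O'')) ∨
              LinearMap.charpoly (ρ.ρ σ) = X ^ 2 + C ((q : O'') + 1) * X + C ((q : O''))) :=
  S35TOP_of_bad lam S O' hlamO' (iota.comp chig.rangeRestrict) hlamS hMS hbad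

end Fermat.Agent.S35_helper12_TOP3
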