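import Mathlib
import Fermat.Agent.S34_helper12_GAMMA

/-!
# S35, piece GEO-GLUE (helper13): the Chinese-remainder lift of two branch reductions and the
gluing at a crossing point

Abstract `Subring L` vocabulary of block C' (`S34C_Setup2`, `Chart`, `locRing`, `RedPow`).

* `S35GL_glue`   : pure algebra.  `R` a local subring of `V1 ⊓ V2`, `z ≡ w1` modulo `π V1`,
  `z ≡ w2` modulo `π V2`, `w1` a unit of `R`, `w1 - w2 = t1 + t2` with `t_i ∈ R ∩ π V_i`.  Then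
  `z = w (1 + π c)` with `w` a unit of `R` and `c ∈ V1 ⊓ V2`.
* `S35GL_locRing_le` : the local ring of a chart at a crossing point is contained in `V1 ⊓ V2`.
* `S35GL_LU`     : at a crossing point `m` of a chart `A`, with transversality (`m = P1 + P2`
  locally) and equal node values: `G ≡` a local unit modulo `π (V1 ⊓ V2)`.
* `S35GL_crt`, `S35GL_redPow` : the lift `G` of two branch functions `H1`, `H2 ∈ V1 ⊓ V2` and
  `RedPow π (V1 ⊓ V2) p f G` from `RedPow π V1 p f H1`, `RedPow π V2 p f H2`.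
* `S35GL_main`   : the non-constant twin of `S34GA_main`.
* `S35GL_htr_of_span`, `S35GL_htr_of_loc` : transversality in the local form from node
  coordinates `𝔪 = (π, T, S)`, resp. from the ideal form `s b = t1 + t2`.
-/

set_option autoImplicit false
set_option linter.unusedVariables false
set_option linter.unusedSectionVars false
set_option linter.style.haveILetI false

namespace Fermat.Agent.S35_helper13_GLUE

open Fermat.Agent.S18_helper9_CDefs Fermat.Agent.S34_helper12_CDefs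
  Fermat.Agent.S18_helper3_LOCRING Fermat.Agent.S34_helper27_C2Defs
  Fermat.Agent.S34_helper27_C2ADAPT Fermat.Agent.S34_helper12_DICH
  Fermat.Agent.S34_helper12_GAMMA

variable {L : Type*} [Field L]

/-! ### pure algebra -/

section Pure

variable {π : L} {V1 V2 R : Subring L}

/-- units of a subring of a field, elementwise -/
theorem S35GL_isUnit_iff (w : R) : IsUnit w ↔ (w : L) ≠ 0 ∧ (w : L)⁻¹ ∈ R := by
  constructor
  · intro h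
    obtain ⟨z, hz⟩ := h.exists_right_inv
    have h1 : (w : L) * (z : L) = 1 := congrArg Subtype.val hz
    have hw0 : (w : L) ≠ 0 := left_ne_zero_of_mul_eq_one h1
    refine ⟨hw0, ?_⟩
    rw [inv_eq_of_mul_eq_one_right h1]
    exact z.2
  · rintro ⟨h0, h1⟩
    refine IsUnit.of_mul_eq_one (⟨(w : L)⁻¹, h1⟩ : R) ?_
    apply Subtype.ext
    show (w : L) * (w : L)⁻¹ = 1
    exact mul_inv_cancel₀ h0

/-- a multiple of `π` in `R` is a non-unit of `R` (`R ≤ V`, `π` a non-unit of `V`) -/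
theorem S35GL_not_isUnit {V : Subring L} (hπ : π⁻¹ ∉ V) (hR : R ≤ V) {t : L} (ht : t ∈ R)
    (ht' : ∃ v ∈ V, t = π * v) : ¬ IsUnit (⟨t, ht⟩ : R) := by
  rw [S35GL_isUnit_iff]
  rintro ⟨h0, h1⟩
  have h0' : t ≠ 0 := h0
  have h1' : t⁻¹ ∈ R := h1
  obtain ⟨v, hv, htv⟩ := ht'
  apply hπ
  have hπ0 : π ≠ 0 := by
    intro h
    exact h0' (by rw [htv, h, zero_mul])
  have hv0 : v ≠ 0 := by
    intro h
    exact h0' (by rw [htv, h, mul_zero])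
  have e : π⁻¹ = v * t⁻¹ := by
    rw [htv, mul_inv, ← mul_assoc, mul_comm v, mul_assoc, mul_inv_cancel₀ hv0, mul_one]
  rw [e]
  exact V.mul_mem hv (hR h1')

/-- **Gluing.** -/
theorem S35GL_glue [IsLocalRing R] (hπ0 : π ≠ 0) (hπ1 : π⁻¹ ∉ V1) (hR1 : R ≤ V1) (hR2 : R ≤ V2)
    {z w1 w2 t1 t2 : L} (hw1 : w1 ∈ R) (hw1' : w1⁻¹ ∈ R) (hw10 : w1 ≠ 0) (hw2 : w2 ∈ R)
    (hz1 : ∃ v ∈ V1, z - w1 = π * v) (hz2 : ∃ v ∈ V2, z - w2 = π * v)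
    (ht1 : t1 ∈ R) (ht1' : ∃ v ∈ V1, t1 = π * v) (ht2 : t2 ∈ R) (ht2' : ∃ v ∈ V2, t2 = π * v)
    (hw : w1 - w2 = t1 + t2) :
    ∃ w, w ∈ R ∧ w⁻¹ ∈ R ∧ w ≠ 0 ∧ ∃ c ∈ (V1 ⊓ V2 : Subring L), z = w * (1 + π * c) := by
  have hwR : w1 - t1 ∈ R := R.sub_mem hw1 ht1
  have hunit : IsUnit (⟨w1 - t1, hwR⟩ : R) := by
    by_contra hcon
    have h1 : (⟨w1 - t1, hwR⟩ : R) ∈ nonunits R := hcon
    have h2 : (⟨t1, ht1⟩ : R) ∈ nonunits R := S35GL_not_isUnit hπ1 hR1 ht1 ht1'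
    have h3 := IsLocalRing.nonunits_add h1 h2
    have h4 : (⟨w1 - t1, hwR⟩ : R) + ⟨t1, ht1⟩ = ⟨w1, hw1⟩ := by
      apply Subtype.ext
      show w1 - t1 + t1 = w1
      ring
    rw [h4] at h3
    exact h3 ((S35GL_isUnit_iff _).2 ⟨hw10, hw1'⟩)
  obtain ⟨hw0, hwi⟩ := (S35GL_isUnit_iff _).1 hunit
  obtain ⟨v1, hv1, hzv1⟩ := hz1
  obtain ⟨v2, hv2, hzv2⟩ := hz2
  obtain ⟨u1, hu1, htu1⟩ := ht1'
  obtain ⟨u2, hu2, htu2⟩ := ht2'
  have e1 : z - (w1 - t1) = π * (v1 + u1) := by linear_combination hzv1 + htu1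
  have e2 : z - (w1 - t1) = π * (v2 - u2) := by linear_combination hzv2 - htu2 - hw
  have e12 : v1 + u1 = v2 - u2 := mul_left_cancel₀ hπ0 (e1.symm.trans e2)
  refine ⟨w1 - t1, hwR, hwi, hw0, (v1 + u1) * (w1 - t1)⁻¹, ⟨?_, ?_⟩, ?_⟩
  · exact V1.mul_mem (V1.add_mem hv1 hu1) (hR1 hwi)
  · rw [e12]
    exact V2.mul_mem (V2.sub_mem hv2 hu2) (hR2 hwi)
  · have : (w1 - t1) * (1 + π * ((v1 + u1) * (w1 - t1)⁻¹)) =
        (w1 - t1) + π * (v1 + u1) * ((w1 - t1) * (w1 - t1)⁻¹) := by ring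
    rw [this, mul_inv_cancel₀ hw0, mul_one, ← e1]
    ring

end Pure

/-! ### at a crossing point of a chart -/

section Chart

variable {O : Subring L} {π j : L} {F1 : Subfield L} {V1 V2 A0 Ainf : Subring L}

/-- an element of a chart outside a prime through which `V` passes is a unit of `V` -/
theorem S35GL_inv_mem_of_notMem {V : Subring L} (hunif : ∀ x ∈ V, x⁻¹ ∉ V → ∃ v ∈ V, x = π * v)
    {A : Subring L} (hAV : A ≤ V) (m : Ideal A)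
    (h1 : ∀ a : A, (∃ v ∈ V, (a : L) = π * v) → a ∈ m) {c : A} (hc : c ∉ m) :
    ((c : L))⁻¹ ∈ V := by
  by_contra hcon
  exact hc (h1 c (hunif _ (hAV c.2) hcon))

/-- the local ring at a point through which `V` passes is contained in `V` -/
theorem S35GL_locRing_le_of_thru {V : Subring L}
    (hunif : ∀ x ∈ V, x⁻¹ ∉ V → ∃ v ∈ V, x = π * v)
    {A : Subring L} (hAV : A ≤ V) (m : Ideal A) [hm : m.IsPrime]
    (h1 : ∀ a : A, (∃ v ∈ V, (a : L) = π * v) → a ∈ m) : locRing A m ≤ V := by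
  rintro y ⟨a, c, hc, hy⟩
  have hci : ((c : L))⁻¹ ∈ V := S35GL_inv_mem_of_notMem hunif hAV m h1 hc
  have hc0 : (c : L) ≠ 0 := coe_ne_zero_of_notMem A m hc
  have : y = (a : L) * ((c : L))⁻¹ := by
    rw [← hy, mul_assoc, mul_inv_cancel₀ hc0, mul_one]
  rw [this]
  exact V.mul_mem (hAV a.2) hci

/-- **the local ring at a crossing point is contained in `V1 ⊓ V2`** -/
theorem S35GL_locRing_le (S : S34C_Setup2 O π j F1 V1 V2 A0 Ainf) {x : L} {A : Subring L}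
    (hC : Chart O π x F1 (V1 ⊓ V2) A) (m : Ideal A) [hm : m.IsPrime]
    (h1 : ∀ a : A, (∃ v ∈ V1, (a : L) = π * v) → a ∈ m)
    (h2 : ∀ a : A, (∃ v ∈ V2, (a : L) = π * v) → a ∈ m) :
    locRing A m ≤ V1 ⊓ V2 := by
  intro y hy
  exact ⟨S35GL_locRing_le_of_thru S.V1_unif (fun a ha => (hC.le_V ha).1) m h1 hy,
    S35GL_locRing_le_of_thru S.V2_unif (fun a ha => (hC.le_V ha).2) m h2 hy⟩

/-- **`G` is congruent to a local unit modulo `π (V1 ⊓ V2)`** at a crossing point `m`, from the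
two branch units `w1`, `w2` with the same value at the node and transversality in the local
form. -/
theorem S35GL_LU (S : S34C_Setup2 O π j F1 V1 V2 A0 Ainf) {x : L} {A : Subring L}
    (hC : Chart O π x F1 (V1 ⊓ V2) A) (m : Ideal A) [hm : m.IsPrime]
    (h1 : ∀ a : A, (∃ v ∈ V1, (a : L) = π * v) → a ∈ m)
    (h2 : ∀ a : A, (∃ v ∈ V2, (a : L) = π * v) → a ∈ m)
    (htr : ∀ b ∈ locRing A m, (b = 0 ∨ b⁻¹ ∉ locRing A m) →
      ∃ t1 ∈ locRing A m, ∃ t2 ∈ locRing A m,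
        (∃ v ∈ V1, t1 = π * v) ∧ (∃ v ∈ V2, t2 = π * v) ∧ b = t1 + t2)
    {G w1 w2 : L} (hw1 : w1 ∈ locRing A m) (hw1' : w1⁻¹ ∈ locRing A m) (hw10 : w1 ≠ 0)
    (hw2 : w2 ∈ locRing A m)
    (hG1 : ∃ v ∈ V1, G - w1 = π * v) (hG2 : ∃ v ∈ V2, G - w2 = π * v)
    (hnode : w1 - w2 = 0 ∨ (w1 - w2)⁻¹ ∉ locRing A m) :
    ∃ w, w ∈ locRing A m ∧ w⁻¹ ∈ locRing A m ∧
      ∃ c ∈ (V1 ⊓ V2 : Subring L), G = w * (1 + π * c) := by
  have hR := S35GL_locRing_le S hC m h1 h2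
  obtain ⟨t1, ht1, t2, ht2, ht1', ht2', hw⟩ :=
    htr (w1 - w2) ((locRing A m).sub_mem hw1 hw2) hnode
  obtain ⟨w, hw, hwi, -, c, hc, hGw⟩ := S35GL_glue (R := locRing A m) (S34DI_pi_ne_zero S)
    S.V1_nonunit (fun y hy => (hR hy).1) (fun y hy => (hR hy).2) hw1 hw1' hw10 hw2 hG1 hG2
    ht1 ht1' ht2 ht2' hw
  exact ⟨w, hw, hwi, c, hc, hGw⟩

/-- transversality in the local form from the ideal form (`m ≤ loc (P1 ⊔ P2)`). -/
theorem S35GL_htr_of_loc (S : S34C_Setup2 O π j F1 V1 V2 A0 Ainf) {x : L} {A : Subring L}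
    (hC : Chart O π x F1 (V1 ⊓ V2) A) (m : Ideal A) [hm : m.IsPrime]
    (h1 : ∀ a : A, (∃ v ∈ V1, (a : L) = π * v) → a ∈ m)
    (h2 : ∀ a : A, (∃ v ∈ V2, (a : L) = π * v) → a ∈ m)
    (htr : ∀ b ∈ m, ∃ s : A, s ∉ m ∧ ∃ t1 t2 : A,
      (∃ v ∈ V1, (t1 : L) = π * v) ∧ (∃ v ∈ V2, (t2 : L) = π * v) ∧ s * b = t1 + t2) :
    ∀ b ∈ locRing A m, (b = 0 ∨ b⁻¹ ∉ locRing A m) →
      ∃ t1 ∈ locRing A m, ∃ t2 ∈ locRing A m,
        (∃ v ∈ V1, t1 = π * v) ∧ (∃ v ∈ V2, t2 = π * v) ∧ b = t1 + t2 := by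
  intro b hb hbn
  have hnu : ¬ IsUnit (⟨b, hb⟩ : locRing A m) := by
    rw [S35GL_isUnit_iff]
    rintro ⟨h0, h1'⟩
    rcases hbn with h | h
    · exact h0 h
    · exact h h1'
  obtain ⟨a, c, ha, hc, hac⟩ := (not_isUnit_iff A m _).1 hnu
  obtain ⟨s, hs, t1, t2, ⟨v1, hv1, ht1⟩, ⟨v2, hv2, ht2⟩, hst⟩ := htr a ha
  have hc0 : (c : L) ≠ 0 := coe_ne_zero_of_notMem A m hc
  have hs0 : (s : L) ≠ 0 := coe_ne_zero_of_notMem A m hs
  have hci1 : ((c : L))⁻¹ ∈ V1 :=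
    S35GL_inv_mem_of_notMem S.V1_unif (fun a ha => (hC.le_V ha).1) m h1 hc
  have hci2 : ((c : L))⁻¹ ∈ V2 :=
    S35GL_inv_mem_of_notMem S.V2_unif (fun a ha => (hC.le_V ha).2) m h2 hc
  have hsi1 : ((s : L))⁻¹ ∈ V1 :=
    S35GL_inv_mem_of_notMem S.V1_unif (fun a ha => (hC.le_V ha).1) m h1 hs
  have hsi2 : ((s : L))⁻¹ ∈ V2 :=
    S35GL_inv_mem_of_notMem S.V2_unif (fun a ha => (hC.le_V ha).2) m h2 hs
  have hst' : (s : L) * (a : L) = (t1 : L) + (t2 : L) := by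
    have := congrArg (fun z : A => (z : L)) hst
    simpa using this
  have hb' : b = (a : L) * ((c : L))⁻¹ := by
    rw [← hac, mul_assoc, mul_inv_cancel₀ hc0, mul_one]
  refine ⟨(t1 : L) * ((s : L))⁻¹ * ((c : L))⁻¹, ?_, (t2 : L) * ((s : L))⁻¹ * ((c : L))⁻¹, ?_,
    ⟨v1 * ((s : L))⁻¹ * ((c : L))⁻¹, ?_, ?_⟩, ⟨v2 * ((s : L))⁻¹ * ((c : L))⁻¹, ?_, ?_⟩, ?_⟩
  · exact (locRing A m).mul_mem ((locRing A m).mul_mem (le_locRing A m t1.2)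
      (inv_mem_locRing A m hs)) (inv_mem_locRing A m hc)
  · exact (locRing A m).mul_mem ((locRing A m).mul_mem (le_locRing A m t2.2)
      (inv_mem_locRing A m hs)) (inv_mem_locRing A m hc)
  · exact V1.mul_mem (V1.mul_mem hv1 hsi1) hci1
  · rw [ht1]; ring
  · exact V2.mul_mem (V2.mul_mem hv2 hsi2) hci2
  · rw [ht2]; ring
  · rw [hb']
    have : (a : L) = ((t1 : L) + (t2 : L)) * ((s : L))⁻¹ := by
      rw [← hst', mul_comm (s : L), mul_assoc, mul_inv_cancel₀ hs0, mul_one]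
    rw [this]
    ring

/-- transversality in the local form from node coordinates: `𝔪 = (π, T, S)` in the local ring,
`T ∈ π V2`, `S ∈ π V1`. -/
theorem S35GL_htr_of_span (S : S34C_Setup2 O π j F1 V1 V2 A0 Ainf) {x : L} {A : Subring L}
    (hC : Chart O π x F1 (V1 ⊓ V2) A) (m : Ideal A) [hm : m.IsPrime]
    (h1 : ∀ a : A, (∃ v ∈ V1, (a : L) = π * v) → a ∈ m)
    (h2 : ∀ a : A, (∃ v ∈ V2, (a : L) = π * v) → a ∈ m)
    {T S' : L} (hπA : π ∈ locRing A m) (hT : T ∈ locRing A m) (hS : S' ∈ locRing A m)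
    (hT2 : ∃ v ∈ V2, T = π * v) (hS1 : ∃ v ∈ V1, S' = π * v)
    (hgen : IsLocalRing.maximalIdeal (locRing A m) =
      Ideal.span ({⟨π, hπA⟩, ⟨T, hT⟩, ⟨S', hS⟩} : Set (locRing A m))) :
    ∀ b ∈ locRing A m, (b = 0 ∨ b⁻¹ ∉ locRing A m) →
      ∃ t1 ∈ locRing A m, ∃ t2 ∈ locRing A m,
        (∃ v ∈ V1, t1 = π * v) ∧ (∃ v ∈ V2, t2 = π * v) ∧ b = t1 + t2 := by
  have hR := S35GL_locRing_le S hC m h1 h2
  intro b hb hbn
  have hnu : ¬ IsUnit (⟨b, hb⟩ : locRing A m) := by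
    rw [S35GL_isUnit_iff]
    rintro ⟨h0, h1'⟩
    rcases hbn with h | h
    · exact h0 h
    · exact h h1'
  have hmem : (⟨b, hb⟩ : locRing A m) ∈ IsLocalRing.maximalIdeal (locRing A m) :=
    (IsLocalRing.mem_maximalIdeal _).2 hnu
  rw [hgen, Ideal.mem_span_insert] at hmem
  obtain ⟨a, z, hz, hbz⟩ := hmem
  rw [Ideal.mem_span_insert] at hz
  obtain ⟨a', z', hz', hzz⟩ := hz
  rw [Ideal.mem_span_singleton'] at hz'
  obtain ⟨a'', rfl⟩ := hz'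
  obtain ⟨vT, hvT, hTv⟩ := hT2
  obtain ⟨vS, hvS, hSv⟩ := hS1
  have e : b = (a : L) * π + ((a' : L) * T + (a'' : L) * S') := by
    have := congrArg (fun y : locRing A m => (y : L)) hbz
    have h2' := congrArg (fun y : locRing A m => (y : L)) hzz
    simp only [Subring.coe_add, Subring.coe_mul] at this h2'
    rw [this, h2']
  refine ⟨(a : L) * π + (a'' : L) * S', ?_, (a' : L) * T, ?_,
    ⟨(a : L) + (a'' : L) * vS, ?_, ?_⟩, ⟨(a' : L) * vT, ?_, ?_⟩, ?_⟩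
  · exact (locRing A m).add_mem ((locRing A m).mul_mem a.2 hπA) ((locRing A m).mul_mem a''.2 hS)
  · exact (locRing A m).mul_mem a'.2 hT
  · exact V1.add_mem (hR a.2).1 (V1.mul_mem (hR a''.2).1 hvS)
  · rw [hSv]; ring
  · exact V2.mul_mem (hR a'.2).2 hvT
  · rw [hTv]; ring
  · rw [e]; ring

end Chart

/-! ### the Chinese-remainder lift -/

section CRT

variable {O : Subring L} {π j : L} {F1 : Subfield L} {V1 V2 A0 Ainf : Subring L}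

/-- **The lift** `G ∈ V1 ⊓ V2` of two branch functions: `G ≡ H1` modulo `π V1` and `G ≡ H2`
modulo `π V2`. -/
theorem S35GL_crt (S : S34C_Setup2 O π j F1 V1 V2 A0 Ainf) (hne : ¬ V1 ≤ V2) {H1 H2 : L}
    (hH1 : H1 ∈ (V1 ⊓ V2 : Subring L)) (hH2 : H2 ∈ (V1 ⊓ V2 : Subring L)) :
    ∃ G ∈ (V1 ⊓ V2 : Subring L), (∃ v ∈ V1, G - H1 = π * v) ∧ (∃ v ∈ V2, G - H2 = π * v) := by
  obtain ⟨e, he, ⟨u1, hu1, he1⟩, ⟨u2, hu2, he2⟩⟩ := S34GA_exists_e S hne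
  refine ⟨H2 + (H1 - H2) * e, ?_, ⟨(H1 - H2) * u1, ?_, ?_⟩, ⟨(H1 - H2) * u2, ?_, ?_⟩⟩
  · exact Subring.add_mem _ hH2 (Subring.mul_mem _ (Subring.sub_mem _ hH1 hH2) he)
  · exact V1.mul_mem (V1.sub_mem hH1.1 hH2.1) hu1
  · linear_combination (H1 - H2) * he1
  · exact V2.mul_mem (V2.sub_mem hH1.2 hH2.2) hu2
  · linear_combination (H1 - H2) * he2

/-- `RedPow` for a function congruent to the two branch roots. -/
theorem S35GL_redPow_of_congr (S : S34C_Setup2 O π j F1 V1 V2 A0 Ainf) (p : ℕ) {f H1 H2 G : L}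
    (hH10 : H1 ≠ 0) (hH20 : H2 ≠ 0)
    (hr1 : RedPow π V1 p f H1) (hr2 : RedPow π V2 p f H2)
    (hG : G ∈ (V1 ⊓ V2 : Subring L))
    (hG1 : ∃ v ∈ V1, G - H1 = π * v) (hG2 : ∃ v ∈ V2, G - H2 = π * v) :
    RedPow π (V1 ⊓ V2) p f G := by
  obtain ⟨hH1, hH1', c1, hc1, hf1⟩ := hr1
  obtain ⟨hH2, hH2', c2, hc2, hf2⟩ := hr2
  obtain ⟨t1, ht1, hGt1⟩ := hG1
  obtain ⟨t2, ht2, hGt2⟩ := hG2
  have hπ0 := S34DI_pi_ne_zero S
  obtain ⟨hGi1, hG0⟩ := S34GA_inv_mem_of_congr (S34CA_val1 S) hH1 hH1' hH10 ht1 hGt1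
  obtain ⟨hGi2, -⟩ := S34GA_inv_mem_of_congr (S34CA_val2 S) hH2 hH2' hH20 ht2 hGt2
  obtain ⟨s1, hs1, hps1⟩ := S34GA_pow_congr (π := π) V1 hG.1 hH1 ht1 hGt1 p
  obtain ⟨s2, hs2, hps2⟩ := S34GA_pow_congr (π := π) V2 hG.2 hH2 ht2 hGt2 p
  have hw1 : f - G ^ p = π * (H1 ^ p * c1 - s1) := by
    rw [hf1]
    linear_combination -hps1
  have hw2 : f - G ^ p = π * (H2 ^ p * c2 - s2) := by
    rw [hf2]
    linear_combination -hps2
  have hw : H1 ^ p * c1 - s1 = H2 ^ p * c2 - s2 := mul_left_cancel₀ hπ0 (hw1.symm.trans hw2)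
  have hw1V : H1 ^ p * c1 - s1 ∈ V1 := V1.sub_mem (V1.mul_mem (V1.pow_mem hH1 p) hc1) hs1
  have hw2V : H1 ^ p * c1 - s1 ∈ V2 := by
    rw [hw]
    exact V2.sub_mem (V2.mul_mem (V2.pow_mem hH2 p) hc2) hs2
  have hGp0 : G ^ p ≠ 0 := pow_ne_zero _ hG0
  refine ⟨hG, ⟨hGi1, hGi2⟩, (H1 ^ p * c1 - s1) * (G⁻¹) ^ p, ⟨?_, ?_⟩, ?_⟩
  · exact V1.mul_mem hw1V (V1.pow_mem hGi1 p)
  · exact V2.mul_mem hw2V (V2.pow_mem hGi2 p)
  · have hGG : G ^ p * (G⁻¹) ^ p = 1 := by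
      rw [← mul_pow, mul_inv_cancel₀ hG0, one_pow]
    have : G ^ p * (1 + π * ((H1 ^ p * c1 - s1) * G⁻¹ ^ p)) =
        G ^ p + π * (H1 ^ p * c1 - s1) * (G ^ p * G⁻¹ ^ p) := by ring
    rw [this, hGG]
    linear_combination hw1

/-- **`RedPow` for the lift.** -/
theorem S35GL_redPow (S : S34C_Setup2 O π j F1 V1 V2 A0 Ainf) (hne : ¬ V1 ≤ V2) (p : ℕ)
    {f H1 H2 : L} (hH1 : H1 ∈ (V1 ⊓ V2 : Subring L)) (hH2 : H2 ∈ (V1 ⊓ V2 : Subring L))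
    (hH10 : H1 ≠ 0) (hH20 : H2 ≠ 0)
    (hr1 : RedPow π V1 p f H1) (hr2 : RedPow π V2 p f H2) :
    ∃ G, RedPow π (V1 ⊓ V2) p f G ∧ (∃ v ∈ V1, G - H1 = π * v) ∧ (∃ v ∈ V2, G - H2 = π * v) := by
  obtain ⟨G, hG, hG1, hG2⟩ := S35GL_crt S hne hH1 hH2
  exact ⟨G, S35GL_redPow_of_congr S p hH10 hH20 hr1 hr2 hG hG1 hG2, hG1, hG2⟩

/-- **The non-constant twin of `S34GA_main`.**  There is `G` with `RedPow π (V1 ⊓ V2) p f G`
which is congruent to a local unit modulo `π (V1 ⊓ V2)` at every crossing point `m` of every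
chart at which the branch roots `H1`, `H2` are congruent to local units `w1`, `w2` with the same
value at `m`, provided the two branches are transversal at `m`. -/
theorem S35GL_main (S : S34C_Setup2 O π j F1 V1 V2 A0 Ainf) (hne : ¬ V1 ≤ V2) (p : ℕ)
    {f H1 H2 : L} (hH1 : H1 ∈ (V1 ⊓ V2 : Subring L)) (hH2 : H2 ∈ (V1 ⊓ V2 : Subring L))
    (hH10 : H1 ≠ 0) (hH20 : H2 ≠ 0)
    (hr1 : RedPow π V1 p f H1) (hr2 : RedPow π V2 p f H2) :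
    ∃ G, RedPow π (V1 ⊓ V2) p f G ∧
      (∃ v ∈ V1, G - H1 = π * v) ∧ (∃ v ∈ V2, G - H2 = π * v) ∧
      ∀ (x : L) (A : Subring L) (_hC : Chart O π x F1 (V1 ⊓ V2) A) (m : Ideal A) [m.IsPrime],
        (∀ a : A, (∃ v ∈ V1, (a : L) = π * v) → a ∈ m) →
        (∀ a : A, (∃ v ∈ V2, (a : L) = π * v) → a ∈ m) →
        (∀ b ∈ locRing A m, (b = 0 ∨ b⁻¹ ∉ locRing A m) →
          ∃ t1 ∈ locRing A m, ∃ t2 ∈ locRing A m,
            (∃ v ∈ V1, t1 = π * v) ∧ (∃ v ∈ V2, t2 = π * v) ∧ b = t1 + t2) →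
        ∀ w1 w2 : L, w1 ∈ locRing A m → w1⁻¹ ∈ locRing A m → w1 ≠ 0 → w2 ∈ locRing A m →
          (∃ v ∈ V1, H1 - w1 = π * v) → (∃ v ∈ V2, H2 - w2 = π * v) →
          (w1 - w2 = 0 ∨ (w1 - w2)⁻¹ ∉ locRing A m) →
          ∃ w, w ∈ locRing A m ∧ w⁻¹ ∈ locRing A m ∧
            ∃ c ∈ (V1 ⊓ V2 : Subring L), G = w * (1 + π * c) := by
  obtain ⟨G, hG, ⟨t1, ht1, hG1⟩, ⟨t2, ht2, hG2⟩⟩ := S35GL_redPow S hne p hH1 hH2 hH10 hH20 hr1 hr2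
  refine ⟨G, hG, ⟨t1, ht1, hG1⟩, ⟨t2, ht2, hG2⟩, ?_⟩
  intro x A hC m _ h1 h2 htr w1 w2 hw1 hw1' hw10 hw2 hHw1 hHw2 hnode
  obtain ⟨v1, hv1, e1⟩ := hHw1
  obtain ⟨v2, hv2, e2⟩ := hHw2
  exact S35GL_LU S hC m h1 h2 htr hw1 hw1' hw10 hw2
    ⟨t1 + v1, V1.add_mem ht1 hv1, by linear_combination hG1 + e1⟩
    ⟨t2 + v2, V2.add_mem ht2 hv2, by linear_combination hG2 + e2⟩ hnode

end CRT

end Fermat.Agent.S35_helper13_GLUE
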