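import Mathlib
import Fermat.Agent.S35_helper13_GLUE
import Fermat.Agent.S34_helper26_ORDC

/-!
# S35, piece GEO-GLUE, concrete adapter (helper13): transversality at a crossing point from the
node coordinates of X-L2

* `S35GLK_C_nonunit` : a nonunit constant is `π` times an integral constant;
* `S35GLK_htr_of_nodeData` : node coordinates `(ϖ, k, T, S, c)` with `k ≥ 1` at a crossing point
  `m` give transversality in the local form consumed by `S35GL_LU` / `S35GL_main`;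
* `S35GLK_htr` : the same from the contract `S34LGK_Node` (X-L2), no further input;
* `S35GLK_LU`  : `S35GL_LU` with transversality discharged by `S34LGK_Node`.
-/

set_option autoImplicit false
set_option linter.unusedVariables false
set_option linter.unusedSectionVars false
set_option linter.style.haveILetI false

open AlgebraicCurve ModularCurve HahnSeries IntermediateField

noncomputable section

namespace Fermat.Agent.S35_helper13_GLUEK

open Fermat.Agent.S18_helper9_CDefs Fermat.Agent.S18_helper25_COREDefs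
  Fermat.Agent.S34_helper12_CDefs Fermat.Agent.S18_helper3_LOCRING
  Fermat.Agent.S34_Contracts Fermat.Agent.S34_helper7_LGDefs Fermat.Agent.S34_helper21_ACT
  Fermat.Agent.S34_helper27_C2ADAPT Fermat.Agent.S34_helper12_DICH
  Fermat.Agent.S34_helper12_GAMMA Fermat.Agent.S34_helper26_ORDC
  Fermat.Agent.S35_helper13_GLUE

local notation "Qb" => AlgebraicClosure ℚ
local notation "GQ" => (AlgebraicClosure ℚ ≃ₐ[ℚ] AlgebraicClosure ℚ)

variable (N : ℕ) [NeZero N] (A : ValuationSubring Qb) (K1 : IntermediateField ℚ Qb)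
  (hstab : ∀ σ : GQ, ∀ x ∈ K1, σ x ∈ K1) [IsDiscreteValuationRing (S18K_O1 A K1)]

/-- a nonunit constant is `π` times an integral constant -/
theorem S35GLK_C_nonunit (ϖ : K1) (hϖ : (ϖ : Qb) ∈ A.nonunits) :
    ∃ o ∈ S18K_O A K1, (HahnSeries.C ϖ : LaurentSeries K1) = S18K_π A K1 * o := by
  obtain ⟨o, ho⟩ := S34LOC_pi_dvd A K1 ϖ hϖ
  refine ⟨HahnSeries.C (o : K1), (S18K_mem_O A K1 _).2 ⟨(o : K1), o.2, rfl⟩, ?_⟩
  have h1 : ϖ = (((S18K_D A K1).π : S18K_O1 A K1) : K1) * (o : K1) := by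
    have := congrArg (fun z : S18K_O1 A K1 => (z : K1)) ho
    simpa using this
  have h2 : S18K_π A K1 =
      HahnSeries.C ((((S18K_D A K1).π : S18K_O1 A K1) : K1)) := rfl
  rw [h2, ← map_mul, ← h1]

/-- a constant in `A` is in `O` -/
theorem S35GLK_C_mem (a : K1) (ha : (a : Qb) ∈ A) :
    (HahnSeries.C a : LaurentSeries K1) ∈ S18K_O A K1 :=
  (S18K_mem_O A K1 _).2 ⟨a, ha, rfl⟩

variable {N A K1 hstab}
variable {j x : LaurentSeries K1} {F1 : Subfield (LaurentSeries K1)}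
  {V2 A0 Ainf X : Subring (LaurentSeries K1)}

/-- **Transversality from node coordinates** (`k ≥ 1`). -/
theorem S35GLK_htr_of_nodeData
    (S : S34C_Setup2 (S18K_O A K1) (S18K_π A K1) j F1 (S18K_V A K1 N) V2 A0 Ainf)
    (hC : Chart (S18K_O A K1) (S18K_π A K1) x F1 (S18K_V A K1 N ⊓ V2) X)
    (hπ : S18K_π A K1 ∈ X) (m : Ideal X) [hm : m.IsPrime]
    (h1 : S34K_Thru (S18K_π A K1) (S18K_V A K1 N) X m)
    (h2 : S34K_Thru (S18K_π A K1) V2 X m)
    {ϖ : K1} {k : ℕ} {T S' c : LaurentSeries K1}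
    (hND : S34LGK_NodeData N A K1 hstab V2 X m ϖ k T S' c) (hk : 1 ≤ k) :
    ∀ b ∈ locRing X m, (b = 0 ∨ b⁻¹ ∉ locRing X m) →
      ∃ t1 ∈ locRing X m, ∃ t2 ∈ locRing X m,
        (∃ v ∈ S18K_V A K1 N, t1 = S18K_π A K1 * v) ∧ (∃ v ∈ V2, t2 = S18K_π A K1 * v) ∧
        b = t1 + t2 := by
  have hR := S35GL_locRing_le S hC m h1 h2
  have hOV := S34GA_O_le S
  obtain ⟨k', rfl⟩ : ∃ k', k = k' + 1 := ⟨k - 1, by omega⟩
  obtain ⟨o, ho, hϖo⟩ := S35GLK_C_nonunit A K1 ϖ hND.ϖ_nonunit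
  have hϖA : (ϖ : Qb) ∈ A := A.nonunits_le hND.ϖ_nonunit
  have hpow : (HahnSeries.C (ϖ ^ k') : LaurentSeries K1) ∈ S18K_O A K1 := by
    refine S35GLK_C_mem A K1 _ ?_
    have : ((ϖ ^ k' : K1) : Qb) = (ϖ : Qb) ^ k' := by simp
    rw [this]
    exact A.pow_mem hϖA k'
  have hTS : T * S' = S18K_π A K1 * (o * HahnSeries.C (ϖ ^ k') * c) := by
    rw [hND.mul_eq, pow_succ, map_mul, mul_comm (HahnSeries.C (ϖ ^ k')), hϖo]
    ring
  have hT2 : ∃ v ∈ V2, T = S18K_π A K1 * v := by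
    refine ⟨o * HahnSeries.C (ϖ ^ k') * c * S'⁻¹, ?_, ?_⟩
    · exact V2.mul_mem (V2.mul_mem (V2.mul_mem (hOV ho).2 (hOV hpow).2) (hR hND.c_mem).2)
        hND.S_inv
    · have : T = T * S' * S'⁻¹ := by
        rw [mul_assoc, mul_inv_cancel₀ hND.S_ne, mul_one]
      rw [this, hTS]
      ring
  have hS1 : ∃ v ∈ S18K_V A K1 N, S' = S18K_π A K1 * v := by
    refine ⟨o * HahnSeries.C (ϖ ^ k') * c * T⁻¹, ?_, ?_⟩
    · exact Subring.mul_mem _ (Subring.mul_mem _ (Subring.mul_mem _ (hOV ho).1 (hOV hpow).1)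
        (hR hND.c_mem).1) hND.T_inv
    · have : S' = T * S' * T⁻¹ := by
        rw [mul_comm T, mul_assoc, mul_inv_cancel₀ hND.T_ne, mul_one]
      rw [this, hTS]
      ring
  exact S35GL_htr_of_span S hC m h1 h2 (le_locRing X m hπ) (le_locRing X m hND.T_mem)
    (le_locRing X m hND.S_mem) hT2 hS1 (hND.gen hπ)

/-- **Transversality at every crossing point from X-L2** (`S34LGK_Node`). -/
theorem S35GLK_htr
    (S : S34C_Setup2 (S18K_O A K1) (S18K_π A K1) j F1 (S18K_V A K1 N) V2 A0 Ainf)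
    (hC : Chart (S18K_O A K1) (S18K_π A K1) x F1 (S18K_V A K1 N ⊓ V2) X)
    (hnode : S34LGK_Node N A K1 hstab V2 X)
    (hπ : S18K_π A K1 ∈ X) (m : Ideal X) (hm : m.IsMaximal)
    (hπm : (⟨S18K_π A K1, hπ⟩ : X) ∈ m)
    (h1 : S34K_Thru (S18K_π A K1) (S18K_V A K1 N) X m)
    (h2 : S34K_Thru (S18K_π A K1) V2 X m) :
    haveI := hm.isPrime
    ∀ b ∈ locRing X m, (b = 0 ∨ b⁻¹ ∉ locRing X m) →
      ∃ t1 ∈ locRing X m, ∃ t2 ∈ locRing X m,
        (∃ v ∈ S18K_V A K1 N, t1 = S18K_π A K1 * v) ∧ (∃ v ∈ V2, t2 = S18K_π A K1 * v) ∧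
        b = t1 + t2 := by
  haveI := hm.isPrime
  obtain ⟨ϖ, k, T, S', c, hND, hor⟩ := hnode hπ m hm hπm h1 h2 1
  have hk : 1 ≤ k := by
    rcases hor with ⟨hc0, hci⟩ | hk
    · by_contra hk0
      have hk0' : k = 0 := by omega
      subst hk0'
      -- `T * S = c` is a unit of the local ring, but `T` lies in the maximal ideal
      have hTm : (⟨T, le_locRing X m hND.T_mem⟩ : locRing X m) ∈
          IsLocalRing.maximalIdeal (locRing X m) := by
        rw [hND.gen hπ]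
        exact Ideal.subset_span (Set.mem_insert_of_mem _ (Set.mem_insert _ _))
      have hTu : IsUnit (⟨T, le_locRing X m hND.T_mem⟩ : locRing X m) := by
        rw [S35GL_isUnit_iff]
        refine ⟨hND.T_ne, ?_⟩
        have e : T⁻¹ = S' * c⁻¹ := by
          have h3 : T * S' = c := by
            rw [hND.mul_eq, pow_zero, map_one, one_mul]
          apply inv_eq_of_mul_eq_one_right
          rw [← mul_assoc, h3, mul_inv_cancel₀ hc0]
        show T⁻¹ ∈ locRing X m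
        rw [e]
        exact (locRing X m).mul_mem (le_locRing X m hND.S_mem) hci
      exact ((IsLocalRing.mem_maximalIdeal _).1 hTm) hTu
    · exact hk
  exact S35GLK_htr_of_nodeData S hC hπ m h1 h2 hND hk

/-- **`S35GL_LU` at the concrete carriers, transversality discharged by X-L2.** -/
theorem S35GLK_LU
    (S : S34C_Setup2 (S18K_O A K1) (S18K_π A K1) j F1 (S18K_V A K1 N) V2 A0 Ainf)
    (hC : Chart (S18K_O A K1) (S18K_π A K1) x F1 (S18K_V A K1 N ⊓ V2) X)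
    (hnode : S34LGK_Node N A K1 hstab V2 X)
    (hπ : S18K_π A K1 ∈ X) (m : Ideal X) (hm : m.IsMaximal)
    (hπm : (⟨S18K_π A K1, hπ⟩ : X) ∈ m)
    (h1 : S34K_Thru (S18K_π A K1) (S18K_V A K1 N) X m)
    (h2 : S34K_Thru (S18K_π A K1) V2 X m)
    {G w1 w2 : LaurentSeries K1}
    (hw1 : haveI := hm.isPrime; w1 ∈ locRing X m)
    (hw1' : haveI := hm.isPrime; w1⁻¹ ∈ locRing X m) (hw10 : w1 ≠ 0)
    (hw2 : haveI := hm.isPrime; w2 ∈ locRing X m)
    (hG1 : ∃ v ∈ S18K_V A K1 N, G - w1 = S18K_π A K1 * v)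
    (hG2 : ∃ v ∈ V2, G - w2 = S18K_π A K1 * v)
    (hnv : haveI := hm.isPrime; w1 - w2 = 0 ∨ (w1 - w2)⁻¹ ∉ locRing X m) :
    haveI := hm.isPrime
    ∃ w, w ∈ locRing X m ∧ w⁻¹ ∈ locRing X m ∧
      ∃ c ∈ (S18K_V A K1 N ⊓ V2 : Subring (LaurentSeries K1)),
        G = w * (1 + S18K_π A K1 * c) := by
  haveI := hm.isPrime
  exact S35GL_LU S hC m h1 h2 (S35GLK_htr S hC hnode hπ m hm hπm h1 h2) hw1 hw1' hw10 hw2
    hG1 hG2 hnv

end Fermat.Agent.S35_helper13_GLUEK
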