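import Mathlib
import Fermat.Agent.S18_helper3_LOCRING
import Fermat.Agent.S34_helper12_CDefs

/-!
# S35, GEO (operator route): branch regularity at a point of a chart (helper2)

Abstract commutative algebra inside one ambient field `L` (carriers = `Subring L`, local rings =
`locRing` of `S18_helper3_LOCRING`).

* `S35BRG_Branch π V X m` : `V` is a valuation-like ring with uniformiser `π` containing the
  chart `X`, the vertical prime `X ∩ π V` lies in `m`, and the local ring `R` at `m` has its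
  maximal ideal generated by one element modulo `π V` (the branch is regular at `m`).
* `S35BRG_total` : `R / (R ∩ π V)` is a valuation ring (divisibility is total modulo `π V`).
* `S35BRG_reg`   : **branch regularity**: a fraction some power of which is congruent modulo
  `π V` to a unit of `R` is itself congruent modulo `π V` to a unit of `R`.
* `S35BRG_reg_mul` : the same in the multiplicative form `z = w (1 + π v)` (the class `LU` of the
  generic X-CROSS on one branch).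
* `S35BRG_frac1`, `S35BRG_frac2` : for a two-valuation setup, the elements of `F1 ∩ V_i` are
  fractions of chart elements with denominator a unit of `V_i`.
* `S35BRG_reg_V1`, `S35BRG_reg_V2` : BR-REG on the two branches of a two-valuation setup, in the
  shape of the GEO plan.
-/

set_option autoImplicit false
set_option linter.style.haveILetI false
set_option linter.unnecessarySimpa false

namespace Fermat.Agent.S35_helper2_BRREG

open Fermat.Agent.S18_helper3_LOCRING Fermat.Agent.S18_helper9_CDefs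
  Fermat.Agent.S34_helper12_CDefs

variable {L : Type*} [Field L]

/-- **A branch through the point `m` of the chart `X`**: `V` is a valuation-like ring with
uniformiser `π` containing the chart, the vertical prime `X ∩ π V` lies in `m`, and the maximal
ideal of the local ring at `m` is generated by ONE element `t` modulo `π V`
(the branch is regular at `m`). -/
structure S35BRG_Branch (π : L) (V X : Subring L) (m : Ideal X) [m.IsPrime] : Prop where
  le : X ≤ V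
  unif : ∀ x ∈ V, x⁻¹ ∉ V → ∃ v ∈ V, x = π * v
  nonunit : π⁻¹ ∉ V
  thru : ∀ a : X, (∃ v ∈ V, (a : L) = π * v) → a ∈ m
  gen : ∃ t ∈ IsLocalRing.maximalIdeal (locRing X m),
    ∀ x ∈ IsLocalRing.maximalIdeal (locRing X m), ∃ r : locRing X m, ∃ v ∈ V,
      (x : L) = (r : L) * (t : L) + π * v

variable {π : L} {V V1 V2 X : Subring L} {m : Ideal X} [hm : m.IsPrime]

/-! ### Basic facts on a branch -/

theorem S35BRG_pi_ne_zero (B : S35BRG_Branch π V X m) : π ≠ 0 := by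
  intro h
  apply B.nonunit
  rw [h, inv_zero]
  exact V.zero_mem

/-- an element of the chart outside `m` is a unit of `V`. -/
theorem S35BRG_inv_mem_of_notMem (B : S35BRG_Branch π V X m) {c : X} (hc : c ∉ m) :
    ((c : L))⁻¹ ∈ V := by
  by_contra h
  exact hc (B.thru c (B.unif (c : L) (B.le c.2) h))

/-- the local ring at `m` is contained in `V`. -/
theorem S35BRG_locRing_le (B : S35BRG_Branch π V X m) : locRing X m ≤ V := by
  intro x hx
  obtain ⟨a, c, hc, hac⟩ := (mem_locRing_iff X m).1 hx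
  have hc0 : (c : L) ≠ 0 := coe_ne_zero_of_notMem X m hc
  have : x = (a : L) * ((c : L))⁻¹ := by
    rw [← hac, mul_assoc, mul_inv_cancel₀ hc0, mul_one]
  rw [this]
  exact V.mul_mem (B.le a.2) (S35BRG_inv_mem_of_notMem B hc)

/-- `π V` is "prime" in `V`. -/
theorem S35BRG_mem_or_mem (B : S35BRG_Branch π V X m) {x y : L} (hx : x ∈ V)
    (hxy : ∃ v ∈ V, x * y = π * v) : (∃ v ∈ V, x = π * v) ∨ ∃ v ∈ V, y = π * v := by
  by_cases hx0 : x = 0
  · left
    exact ⟨0, V.zero_mem, by rw [hx0, mul_zero]⟩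
  by_cases h : x⁻¹ ∈ V
  · right
    obtain ⟨v, hv, hxyv⟩ := hxy
    refine ⟨x⁻¹ * v, V.mul_mem h hv, ?_⟩
    have : y = x⁻¹ * (x * y) := by
      rw [← mul_assoc, inv_mul_cancel₀ hx0, one_mul]
    rw [this, hxyv]; ring
  · left
    exact B.unif x hx h

/-- a unit of `V` does not lie in `π V`. -/
theorem S35BRG_not_pi_of_inv (B : S35BRG_Branch π V X m) {x : L} (hx' : x⁻¹ ∈ V) (hx0 : x ≠ 0) :
    ¬ ∃ v ∈ V, x = π * v := by
  rintro ⟨v, hv, hxv⟩
  apply B.nonunit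
  have hπ0 := S35BRG_pi_ne_zero B
  have : π⁻¹ = v * x⁻¹ := by
    rw [hxv]
    have hv0 : v ≠ 0 := by
      rintro rfl
      rw [mul_zero] at hxv
      exact hx0 hxv
    field_simp
  rw [this]
  exact V.mul_mem hv hx'

/-! ### The branch prime and the branch ring -/

/-- The branch prime `R ∩ π V` of the local ring `R` at `m`. -/
def S35BRG_P (B : S35BRG_Branch π V X m) : Ideal (locRing X m) where
  carrier := {r | ∃ v ∈ V, (r : L) = π * v}
  add_mem' := by
    rintro a b ⟨v, hv, hav⟩ ⟨w, hw, hbw⟩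
    exact ⟨v + w, V.add_mem hv hw, by push_cast; rw [hav, hbw]; ring⟩
  zero_mem' := ⟨0, V.zero_mem, by simp⟩
  smul_mem' := by
    rintro r a ⟨v, hv, hav⟩
    refine ⟨(r : L) * v, V.mul_mem (S35BRG_locRing_le B r.2) hv, ?_⟩
    rw [smul_eq_mul]; push_cast; rw [hav]; ring

theorem S35BRG_mem_P (B : S35BRG_Branch π V X m) (r : locRing X m) :
    r ∈ S35BRG_P B ↔ ∃ v ∈ V, (r : L) = π * v := Iff.rfl

theorem S35BRG_P_le (B : S35BRG_Branch π V X m) :
    S35BRG_P B ≤ IsLocalRing.maximalIdeal (locRing X m) := by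
  intro r hr
  obtain ⟨v, hv, hrv⟩ := hr
  obtain ⟨a, c, hc, hac⟩ := r.2
  rw [mem_maximalIdeal_iff]
  refine ⟨a, c, B.thru a ⟨v * (c : L), V.mul_mem hv (B.le c.2), ?_⟩, hc, hac⟩
  rw [← hac, hrv]; ring

instance S35BRG_P_isPrime (B : S35BRG_Branch π V X m) : (S35BRG_P B).IsPrime := by
  refine ⟨?_, ?_⟩
  · intro h
    have h1 : (1 : locRing X m) ∈ IsLocalRing.maximalIdeal (locRing X m) :=
      S35BRG_P_le B (h ▸ Submodule.mem_top)
    exact (IsLocalRing.mem_maximalIdeal _).1 h1 isUnit_one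
  · intro x y hxy
    obtain ⟨v, hv, hxyv⟩ := hxy
    have := S35BRG_mem_or_mem B (x := (x : L)) (y := (y : L)) (S35BRG_locRing_le B x.2)
      ⟨v, hv, by rw [← hxyv]; rfl⟩
    exact this

/-- the branch ring `R ⧸ (R ∩ π V)` is local. -/
theorem S35BRG_isLocalRing_quot (B : S35BRG_Branch π V X m) :
    IsLocalRing (locRing X m ⧸ S35BRG_P B) :=
  IsLocalRing.of_surjective' (Ideal.Quotient.mk (S35BRG_P B)) Ideal.Quotient.mk_surjective

/-- a lift of an element of the maximal ideal of the branch ring lies in the maximal ideal. -/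
theorem S35BRG_mem_max_of_mk (B : S35BRG_Branch π V X m) (r : locRing X m)
    (hr : haveI := S35BRG_isLocalRing_quot B
      Ideal.Quotient.mk (S35BRG_P B) r ∈ IsLocalRing.maximalIdeal (locRing X m ⧸ S35BRG_P B)) :
    r ∈ IsLocalRing.maximalIdeal (locRing X m) := by
  haveI := S35BRG_isLocalRing_quot B
  rw [IsLocalRing.mem_maximalIdeal, mem_nonunits_iff] at hr ⊢
  exact fun hu => hr (hu.map (Ideal.Quotient.mk (S35BRG_P B)))

/-- the image of the maximal ideal lies in the maximal ideal of the branch ring. -/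
theorem S35BRG_mk_mem_max (B : S35BRG_Branch π V X m) (r : locRing X m)
    (hr : r ∈ IsLocalRing.maximalIdeal (locRing X m)) :
    haveI := S35BRG_isLocalRing_quot B
    Ideal.Quotient.mk (S35BRG_P B) r ∈ IsLocalRing.maximalIdeal (locRing X m ⧸ S35BRG_P B) := by
  haveI := S35BRG_isLocalRing_quot B
  rw [IsLocalRing.mem_maximalIdeal, mem_nonunits_iff]
  intro hu
  obtain ⟨z, hz⟩ := hu.exists_right_inv
  obtain ⟨z', rfl⟩ := Ideal.Quotient.mk_surjective z
  rw [← map_mul, ← map_one (Ideal.Quotient.mk (S35BRG_P B)), Ideal.Quotient.eq] at hz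
  have h1 : r * z' ∈ IsLocalRing.maximalIdeal (locRing X m) := Ideal.mul_mem_right _ _ hr
  have h2 : r * z' - 1 ∈ IsLocalRing.maximalIdeal (locRing X m) := S35BRG_P_le B hz
  have h3 : (1 : locRing X m) ∈ IsLocalRing.maximalIdeal (locRing X m) := by
    have := Ideal.sub_mem _ h1 h2
    simpa using this
  exact (IsLocalRing.mem_maximalIdeal _).1 h3 isUnit_one

/-- the maximal ideal of the branch ring is principal. -/
theorem S35BRG_isPrincipal_quot (B : S35BRG_Branch π V X m) :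
    haveI := S35BRG_isLocalRing_quot B
    (IsLocalRing.maximalIdeal (locRing X m ⧸ S35BRG_P B)).IsPrincipal := by
  haveI := S35BRG_isLocalRing_quot B
  obtain ⟨t, ht, hgen⟩ := B.gen
  set mk := Ideal.Quotient.mk (S35BRG_P B) with hmk
  refine ⟨mk t, le_antisymm ?_ ?_⟩
  · intro x hx
    obtain ⟨r, rfl⟩ := Ideal.Quotient.mk_surjective x
    have hr := S35BRG_mem_max_of_mk B r hx
    obtain ⟨c, v, hv, hrc⟩ := hgen r hr
    rw [Submodule.mem_span_singleton]
    refine ⟨mk c, ?_⟩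
    rw [smul_eq_mul, ← map_mul, hmk, Ideal.Quotient.eq]
    refine ⟨-v, V.neg_mem hv, ?_⟩
    push_cast
    rw [hrc]; ring
  · rw [Ideal.span_le, Set.singleton_subset_iff]
    exact S35BRG_mk_mem_max B t ht

/-- the branch ring is a valuation ring. -/
theorem S35BRG_valuationRing_quot [IsNoetherianRing X] (B : S35BRG_Branch π V X m) :
    ValuationRing (locRing X m ⧸ S35BRG_P B) := by
  haveI := S35BRG_isLocalRing_quot B
  haveI : IsNoetherianRing (locRing X m) := isNoetherianRing_locRing X m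
  exact ((tfae_of_isNoetherianRing_of_isLocalRing_of_isDomain
    (R := locRing X m ⧸ S35BRG_P B)).out 4 1).1 (S35BRG_isPrincipal_quot B)

/-- **Divisibility is total modulo `π V`** in the local ring at `m`. -/
theorem S35BRG_total [IsNoetherianRing X] (B : S35BRG_Branch π V X m) (a b : locRing X m) :
    ∃ c : locRing X m, (∃ v ∈ V, (a : L) - (b : L) * (c : L) = π * v) ∨
      ∃ v ∈ V, (b : L) - (a : L) * (c : L) = π * v := by
  haveI := S35BRG_valuationRing_quot B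
  set mk := Ideal.Quotient.mk (S35BRG_P B) with hmk
  rcases ValuationRing.dvd_total (mk a) (mk b) with h | h
  · obtain ⟨c, hc⟩ := h
    obtain ⟨c', rfl⟩ := Ideal.Quotient.mk_surjective c
    rw [← map_mul, hmk, Ideal.Quotient.eq] at hc
    obtain ⟨v, hv, hbv⟩ := hc
    exact ⟨c', Or.inr ⟨v, hv, by rw [← hbv]; rfl⟩⟩
  · obtain ⟨c, hc⟩ := h
    obtain ⟨c', rfl⟩ := Ideal.Quotient.mk_surjective c
    rw [← map_mul, hmk, Ideal.Quotient.eq] at hc
    obtain ⟨v, hv, hbv⟩ := hc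
    exact ⟨c', Or.inl ⟨v, hv, by rw [← hbv]; rfl⟩⟩

/-! ### Units of the local ring -/

/-- a unit of the local ring, elementwise. -/
theorem S35BRG_inv_mem_of_isUnit {r : locRing X m} (hr : IsUnit r) :
    ((r : L))⁻¹ ∈ locRing X m ∧ (r : L) ≠ 0 := by
  obtain ⟨z, hz⟩ := hr.exists_right_inv
  have h1 : (r : L) * (z : L) = 1 := congrArg Subtype.val hz
  have hr0 : (r : L) ≠ 0 := left_ne_zero_of_mul_eq_one h1
  refine ⟨?_, hr0⟩
  have : ((r : L))⁻¹ = (z : L) := by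
    rw [← mul_one ((r : L))⁻¹, ← h1, ← mul_assoc, inv_mul_cancel₀ hr0, one_mul]
  rw [this]
  exact z.2

/-- the converse. -/
theorem S35BRG_isUnit_of_inv_mem {r : locRing X m} (hr : ((r : L))⁻¹ ∈ locRing X m)
    (hr0 : (r : L) ≠ 0) : IsUnit r := by
  refine IsUnit.of_mul_eq_one (⟨((r : L))⁻¹, hr⟩ : locRing X m) ?_
  apply Subtype.ext
  show (r : L) * ((r : L))⁻¹ = 1
  exact mul_inv_cancel₀ hr0

/-- an element congruent to a unit modulo `π V` is a unit. -/
theorem S35BRG_isUnit_of_cong (B : S35BRG_Branch π V X m) {r u : locRing X m} (hu : IsUnit u)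
    (h : ∃ v ∈ V, (r : L) - (u : L) = π * v) : IsUnit r := by
  by_contra hr
  have hrm : r ∈ IsLocalRing.maximalIdeal (locRing X m) :=
    (IsLocalRing.mem_maximalIdeal _).2 hr
  have hP : r - u ∈ S35BRG_P B := by
    obtain ⟨v, hv, hrv⟩ := h
    exact ⟨v, hv, by rw [← hrv]; rfl⟩
  have hum : u ∈ IsLocalRing.maximalIdeal (locRing X m) := by
    have := Ideal.sub_mem _ hrm (S35BRG_P_le B hP)
    simpa using this
  exact (IsLocalRing.mem_maximalIdeal _).1 hum hu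

/-- congruences modulo `π V` pass to powers. -/
theorem S35BRG_cong_pow {x y : L} (hx : x ∈ V) (hy : y ∈ V)
    (h : ∃ v ∈ V, x - y = π * v) (n : ℕ) : ∃ v ∈ V, x ^ n - y ^ n = π * v := by
  obtain ⟨v, hv, hxy⟩ := h
  induction n with
  | zero => exact ⟨0, V.zero_mem, by simp⟩
  | succ n ih =>
    obtain ⟨w, hw, hn⟩ := ih
    refine ⟨x ^ n * v + w * y, V.add_mem (V.mul_mem (V.pow_mem hx n) hv) (V.mul_mem hw hy), ?_⟩
    have : x ^ (n + 1) - y ^ (n + 1) = x ^ n * (x - y) + (x ^ n - y ^ n) * y := by ring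
    rw [this, hxy, hn]; ring

/-- a fraction with denominator a unit of `V` lies in `V`. -/
theorem S35BRG_frac_mem (B : S35BRG_Branch π V X m) {z : L} {a b : X} (hb0 : (b : L) ≠ 0)
    (hb : ((b : L))⁻¹ ∈ V) (hz : z * (b : L) = a) : z ∈ V := by
  have : z = (a : L) * ((b : L))⁻¹ := by
    rw [← hz, mul_assoc, mul_inv_cancel₀ hb0, mul_one]
  rw [this]
  exact V.mul_mem (B.le a.2) hb

/-! ### BR-REG -/

/-- **BR-REG** (branch regularity): a fraction `z` with denominator a unit of `V`, some power of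
which is congruent modulo `π V` to a unit of the local ring at `m`, is itself congruent modulo
`π V` to a unit of the local ring. -/
theorem S35BRG_reg [IsNoetherianRing X] (B : S35BRG_Branch π V X m) (n : ℕ) (hn : 0 < n)
    (z : L) (hz : ∃ a b : X, (b : L) ≠ 0 ∧ ((b : L))⁻¹ ∈ V ∧ z * (b : L) = a)
    (u : locRing X m) (hu : IsUnit u)
    (hzu : ∃ v ∈ V, z ^ n - (u : L) = π * v) :
    ∃ w : locRing X m, IsUnit w ∧ ∃ v ∈ V, z - (w : L) = π * v := by
  obtain ⟨a, b, hb0, hb, hzb⟩ := hz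
  have hzV : z ∈ V := S35BRG_frac_mem B hb0 hb hzb
  have hza : z = (a : L) * ((b : L))⁻¹ := by
    rw [← hzb, mul_assoc, mul_inv_cancel₀ hb0, mul_one]
  obtain ⟨v2, hv2, h2⟩ := hzu
  obtain ⟨c, hc | hc⟩ := S35BRG_total B (incl X m a) (incl X m b)
  · -- `a ≡ b c`: `z ≡ c`
    obtain ⟨v, hv, hcv⟩ := hc
    have hzc : ∃ v ∈ V, z - (c : L) = π * v := by
      refine ⟨v * ((b : L))⁻¹, V.mul_mem hv hb, ?_⟩
      have e : (a : L) - (b : L) * (c : L) = π * v := hcv
      rw [hza]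
      field_simp
      linear_combination e
    refine ⟨c, ?_, hzc⟩
    -- `c ^ n ≡ u`
    have hcn : ∃ v ∈ V, ((c ^ n : locRing X m) : L) - (u : L) = π * v := by
      obtain ⟨v1, hv1, h1⟩ := S35BRG_cong_pow hzV (S35BRG_locRing_le B c.2) hzc n
      refine ⟨v2 - v1, V.sub_mem hv2 hv1, ?_⟩
      push_cast
      linear_combination h2 - h1
    exact (isUnit_pow_iff hn.ne').1 (S35BRG_isUnit_of_cong B hu hcn)
  · -- `b ≡ a c`: `z c ≡ 1`
    obtain ⟨v, hv, hcv⟩ := hc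
    have e : (b : L) - (a : L) * (c : L) = π * v := hcv
    have hcV : (c : L) ∈ V := S35BRG_locRing_le B c.2
    have hzc : ∃ v ∈ V, (1 : L) - z * (c : L) = π * v := by
      refine ⟨v * ((b : L))⁻¹, V.mul_mem hv hb, ?_⟩
      rw [hza]
      field_simp
      linear_combination e
    -- `u c ^ n ≡ 1`
    have hucn : ∃ v ∈ V, ((u * c ^ n : locRing X m) : L) - ((1 : locRing X m) : L) = π * v := by
      obtain ⟨v1, hv1, h1⟩ := S35BRG_cong_pow V.one_mem (V.mul_mem hzV hcV) hzc n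
      refine ⟨-(v2 * (c : L) ^ n) - v1, V.sub_mem (V.neg_mem (V.mul_mem hv2 (V.pow_mem hcV n)))
        hv1, ?_⟩
      push_cast
      rw [one_pow, mul_pow] at h1
      linear_combination -h1 - (c : L) ^ n * h2
    have hcu : IsUnit c := by
      have h1 : IsUnit (u * c ^ n) := S35BRG_isUnit_of_cong B isUnit_one hucn
      exact (isUnit_pow_iff hn.ne').1 (isUnit_of_mul_isUnit_right h1)
    obtain ⟨hcinv, hc0⟩ := S35BRG_inv_mem_of_isUnit hcu
    refine ⟨⟨((c : L))⁻¹, hcinv⟩, ?_, ?_⟩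
    · exact S35BRG_isUnit_of_inv_mem (r := ⟨((c : L))⁻¹, hcinv⟩)
        (by show (((c : L))⁻¹)⁻¹ ∈ locRing X m; rw [inv_inv]; exact c.2) (inv_ne_zero hc0)
    · obtain ⟨v1, hv1, h1⟩ := hzc
      refine ⟨-(v1 * ((c : L))⁻¹), V.neg_mem (V.mul_mem hv1 (S35BRG_locRing_le B hcinv)), ?_⟩
      show z - ((c : L))⁻¹ = π * -(v1 * ((c : L))⁻¹)
      field_simp
      linear_combination -h1

/-! ### The multiplicative form (the class `LU` of the generic X-CROSS, on one branch) -/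

/-- **BR-REG, multiplicative form**: if `z ^ p = u0 (1 + π v)` with `u0` a unit of the local ring
at `m` and `v ∈ V`, then `z = w (1 + π v')` with `w` a unit of the local ring and `v' ∈ V`
(`z` a fraction of chart elements with denominator a unit of `V`). -/
theorem S35BRG_reg_mul [IsNoetherianRing X] (B : S35BRG_Branch π V X m) (p : ℕ) (hp : 0 < p)
    (z : L) (hz : ∃ a b : X, (b : L) ≠ 0 ∧ ((b : L))⁻¹ ∈ V ∧ z * (b : L) = a)
    (hpow : ∃ u0, u0 ∈ locRing X m ∧ u0⁻¹ ∈ locRing X m ∧ ∃ v ∈ V, z ^ p = u0 * (1 + π * v)) :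
    ∃ w, w ∈ locRing X m ∧ w⁻¹ ∈ locRing X m ∧ ∃ v ∈ V, z = w * (1 + π * v) := by
  by_cases hz0 : z = 0
  · exact ⟨0, Subring.zero_mem _, by rw [inv_zero]; exact Subring.zero_mem _, 0, V.zero_mem,
      by rw [hz0, zero_mul]⟩
  obtain ⟨u0, hu0, hu0', v, hv, hzp⟩ := hpow
  have hu00 : u0 ≠ 0 := by
    rintro rfl
    rw [zero_mul] at hzp
    exact hz0 (pow_eq_zero_iff hp.ne' |>.1 hzp)
  have hu : IsUnit (⟨u0, hu0⟩ : locRing X m) :=
    S35BRG_isUnit_of_inv_mem (r := ⟨u0, hu0⟩) hu0' hu00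
  obtain ⟨w, hw, v', hv', hzw⟩ := S35BRG_reg B p hp z hz ⟨u0, hu0⟩ hu
    ⟨u0 * v, V.mul_mem (S35BRG_locRing_le B hu0) hv, by
      show z ^ p - u0 = π * (u0 * v)
      rw [hzp]; ring⟩
  obtain ⟨hwinv, hw0⟩ := S35BRG_inv_mem_of_isUnit hw
  refine ⟨(w : L), w.2, hwinv, v' * ((w : L))⁻¹, V.mul_mem hv' (S35BRG_locRing_le B hwinv), ?_⟩
  field_simp
  linear_combination hzw

/-! ### Fractions: elements of `F1 ∩ V` are fractions of chart elements -/

section Frac

variable {W W' : Subring L}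

/-- `(1 + π w)⁻¹ ∈ W` for a valuation-like ring `W` with uniformiser `π`. -/
theorem S35BRG_one_add_inv (hπW : π ∈ W)
    (hunif : ∀ x ∈ W, x⁻¹ ∉ W → ∃ v ∈ W, x = π * v) (hnon : π⁻¹ ∉ W) {w : L} (hw : w ∈ W) :
    (1 + π * w)⁻¹ ∈ W := by
  by_contra hcon
  obtain ⟨v, hv, hvw⟩ := hunif (1 + π * w) (W.add_mem W.one_mem (W.mul_mem hπW hw)) hcon
  apply hnon
  have h1 : π * (v - w) = 1 := by linear_combination -hvw
  have h2 : π⁻¹ = v - w := inv_eq_of_mul_eq_one_right h1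
  rw [h2]
  exact W.sub_mem hv hw

/-- a denominator: for `z ∈ W` there is `d ∈ W ⊓ W'`, a unit of `W`, with `z d ∈ W ⊓ W'`. -/
theorem S35BRG_den (hπW : π ∈ W)
    (hunif : ∀ x ∈ W, x⁻¹ ∉ W → ∃ v ∈ W, x = π * v) (hnon : π⁻¹ ∉ W)
    {z : L} (hz : z ∈ W) (hval' : z ∈ W' ∨ z⁻¹ ∈ W')
    (hval1 : (1 + z) ∈ W' ∨ (1 + z)⁻¹ ∈ W') :
    ∃ d : L, d ≠ 0 ∧ d ∈ W ∧ d ∈ W' ∧ d⁻¹ ∈ W ∧ z * d ∈ W ∧ z * d ∈ W' := by
  by_cases hz2 : z ∈ W'
  · exact ⟨1, one_ne_zero, W.one_mem, W'.one_mem, by rw [inv_one]; exact W.one_mem,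
      by rw [mul_one]; exact hz, by rw [mul_one]; exact hz2⟩
  have hz2' : z⁻¹ ∈ W' := hval'.resolve_left hz2
  have hz0 : z ≠ 0 := by
    rintro rfl
    exact hz2 W'.zero_mem
  by_cases hz1 : z⁻¹ ∈ W
  · exact ⟨z⁻¹, inv_ne_zero hz0, hz1, hz2', by rw [inv_inv]; exact hz,
      by rw [mul_inv_cancel₀ hz0]; exact W.one_mem,
      by rw [mul_inv_cancel₀ hz0]; exact W'.one_mem⟩
  obtain ⟨v, hv, hzv⟩ := hunif z hz hz1
  have h1W : (1 + z)⁻¹ ∈ W := by
    rw [hzv]
    exact S35BRG_one_add_inv hπW hunif hnon hv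
  have h1n : (1 + z) ∉ W' := by
    intro h
    apply hz2
    have : z = (1 + z) - 1 := by ring
    rw [this]
    exact W'.sub_mem h W'.one_mem
  have h1W' : (1 + z)⁻¹ ∈ W' := hval1.resolve_left h1n
  have h10 : (1 + z) ≠ 0 := by
    intro h
    apply h1n
    rw [h]
    exact W'.zero_mem
  have hzd : z * (1 + z)⁻¹ = 1 - (1 + z)⁻¹ := by
    field_simp
    ring
  refine ⟨(1 + z)⁻¹, inv_ne_zero h10, h1W, h1W', ?_, ?_, ?_⟩
  · rw [inv_inv]
    exact W.add_mem W.one_mem hz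
  · rw [hzd]
    exact W.sub_mem W.one_mem h1W
  · rw [hzd]
    exact W'.sub_mem W'.one_mem h1W'

/-- an element of `W` (with the valuation property for `W'`) is a fraction of elements of a
chart `X` of `W ⊓ W'` with denominator a unit of `W`. -/
theorem S35BRG_frac_abs (hπW : π ∈ W)
    (hunif : ∀ x ∈ W, x⁻¹ ∉ W → ∃ v ∈ W, x = π * v) (hnon : π⁻¹ ∉ W)
    (hloc : ∀ v, v ∈ W → v ∈ W' → ∃ b ∈ X, b ≠ 0 ∧ b⁻¹ ∈ W ∧ v * b ∈ X)
    {z : L} (hz : z ∈ W) (hval' : z ∈ W' ∨ z⁻¹ ∈ W')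
    (hval1 : (1 + z) ∈ W' ∨ (1 + z)⁻¹ ∈ W') :
    ∃ a b : X, (b : L) ≠ 0 ∧ ((b : L))⁻¹ ∈ W ∧ z * (b : L) = a := by
  obtain ⟨d, hd0, hdW, hdW', hdinv, hzdW, hzdW'⟩ := S35BRG_den hπW hunif hnon hz hval' hval1
  obtain ⟨b1, hb1X, hb10, hb1inv, hdb1⟩ := hloc d hdW hdW'
  obtain ⟨b2, hb2X, hb20, hb2inv, hzdb2⟩ := hloc (z * d) hzdW hzdW'
  refine ⟨⟨z * d * b2, hzdb2⟩ * ⟨b1, hb1X⟩, ⟨d * b1, hdb1⟩ * ⟨b2, hb2X⟩, ?_, ?_, ?_⟩
  · show d * b1 * b2 ≠ 0
    exact mul_ne_zero (mul_ne_zero hd0 hb10) hb20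
  · show (d * b1 * b2)⁻¹ ∈ W
    rw [mul_inv, mul_inv]
    exact W.mul_mem (W.mul_mem hdinv hb1inv) hb2inv
  · show z * (d * b1 * b2) = z * d * b2 * b1
    ring

end Frac

/-! ### The two branches of an `S34C_Setup2` -/

section Setup2

variable {O : Subring L} {j : L} {F1 : Subfield L} {A0 Ainf : Subring L} {x : L}

/-- the first branch of a two-valuation setup at a point `m` of a chart. -/
theorem S35BRG_branch1 (S : S34C_Setup2 O π j F1 V1 V2 A0 Ainf)
    (hC : Chart O π x F1 (V1 ⊓ V2) X)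
    (hthru : ∀ a : X, (∃ v ∈ V1, (a : L) = π * v) → a ∈ m)
    (hgen : ∃ t ∈ IsLocalRing.maximalIdeal (locRing X m),
      ∀ y ∈ IsLocalRing.maximalIdeal (locRing X m), ∃ r : locRing X m, ∃ v ∈ V1,
        (y : L) = (r : L) * (t : L) + π * v) :
    S35BRG_Branch π V1 X m :=
  ⟨fun _ ha => (hC.le_V ha).1, S.V1_unif, S.V1_nonunit, hthru, hgen⟩

/-- the second branch of a two-valuation setup at a point `m` of a chart. -/
theorem S35BRG_branch2 (S : S34C_Setup2 O π j F1 V1 V2 A0 Ainf)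
    (hC : Chart O π x F1 (V1 ⊓ V2) X)
    (hthru : ∀ a : X, (∃ v ∈ V2, (a : L) = π * v) → a ∈ m)
    (hgen : ∃ t ∈ IsLocalRing.maximalIdeal (locRing X m),
      ∀ y ∈ IsLocalRing.maximalIdeal (locRing X m), ∃ r : locRing X m, ∃ v ∈ V2,
        (y : L) = (r : L) * (t : L) + π * v) :
    S35BRG_Branch π V2 X m :=
  ⟨fun _ ha => (hC.le_V ha).2, S.V2_unif, S.V2_nonunit, hthru, hgen⟩

/-- `π ∈ V1 ⊓ V2`. -/
theorem S35BRG_pi_mem (S : S34C_Setup2 O π j F1 V1 V2 A0 Ainf) :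
    π ∈ (V1 ⊓ V2 : Subring L) := by
  apply S.chart0.le_V
  refine (S.chart0.mem_iff π).2 ⟨?_, S.O_le S.π_mem⟩
  have hmem : π ∈ adj O j := Subring.subset_closure (Or.inl S.π_mem)
  exact isIntegral_algebraMap (R := adj O j) (A := L) (x := ⟨π, hmem⟩)

/-- elements of `F1 ∩ V1` are fractions of chart elements with denominator a unit of `V1`. -/
theorem S35BRG_frac1 (S : S34C_Setup2 O π j F1 V1 V2 A0 Ainf)
    (hC : Chart O π x F1 (V1 ⊓ V2) X) {z : L} (hzF : z ∈ F1) (hz : z ∈ V1) :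
    ∃ a b : X, (b : L) ≠ 0 ∧ ((b : L))⁻¹ ∈ V1 ∧ z * (b : L) = a := by
  refine S35BRG_frac_abs (W := V1) (W' := V2) (S35BRG_pi_mem S).1 S.V1_unif S.V1_nonunit ?_ hz
    (S.V2_val z hzF) (S.V2_val (1 + z) (F1.add_mem F1.one_mem hzF))
  intro v hv hv'
  obtain ⟨b, hbX, hb0, hbinv, hvb⟩ := hC.loc v ⟨hv, hv'⟩
  exact ⟨b, hbX, hb0, hbinv.1, hvb⟩

/-- elements of `F1 ∩ V2` are fractions of chart elements with denominator a unit of `V2`. -/
theorem S35BRG_frac2 (S : S34C_Setup2 O π j F1 V1 V2 A0 Ainf)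
    (hC : Chart O π x F1 (V1 ⊓ V2) X) {z : L} (hzF : z ∈ F1) (hz : z ∈ V2) :
    ∃ a b : X, (b : L) ≠ 0 ∧ ((b : L))⁻¹ ∈ V2 ∧ z * (b : L) = a := by
  refine S35BRG_frac_abs (W := V2) (W' := V1) (S35BRG_pi_mem S).2 S.V2_unif S.V2_nonunit ?_ hz
    (S.V1_val z hzF) (S.V1_val (1 + z) (F1.add_mem F1.one_mem hzF))
  intro v hv hv'
  obtain ⟨b, hbX, hb0, hbinv, hvb⟩ := hC.loc v ⟨hv', hv⟩
  exact ⟨b, hbX, hb0, hbinv.2, hvb⟩

/-- **BR-REG on the first branch** (the shape of the GEO plan): for `z ∈ F1 ∩ V1`, if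
`z ^ p = u0 (1 + π v)` with `u0` a unit of the local ring at `m` and `v ∈ V1`, then
`z = w (1 + π v')` with `w` a unit of the local ring and `v' ∈ V1`. -/
theorem S35BRG_reg_V1 (S : S34C_Setup2 O π j F1 V1 V2 A0 Ainf)
    (hC : Chart O π x F1 (V1 ⊓ V2) X) [IsNoetherianRing X]
    (hthru : ∀ a : X, (∃ v ∈ V1, (a : L) = π * v) → a ∈ m)
    (hgen : ∃ t ∈ IsLocalRing.maximalIdeal (locRing X m),
      ∀ y ∈ IsLocalRing.maximalIdeal (locRing X m), ∃ r : locRing X m, ∃ v ∈ V1,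
        (y : L) = (r : L) * (t : L) + π * v)
    (p : ℕ) (hp : 0 < p) (z : L) (hzF : z ∈ F1) (hz : z ∈ V1)
    (hpow : ∃ u0, u0 ∈ locRing X m ∧ u0⁻¹ ∈ locRing X m ∧ ∃ v ∈ V1, z ^ p = u0 * (1 + π * v)) :
    ∃ w, w ∈ locRing X m ∧ w⁻¹ ∈ locRing X m ∧ ∃ v ∈ V1, z = w * (1 + π * v) :=
  S35BRG_reg_mul (S35BRG_branch1 S hC hthru hgen) p hp z (S35BRG_frac1 S hC hzF hz) hpow

/-- **BR-REG on the second branch.** -/
theorem S35BRG_reg_V2 (S : S34C_Setup2 O π j F1 V1 V2 A0 Ainf)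
    (hC : Chart O π x F1 (V1 ⊓ V2) X) [IsNoetherianRing X]
    (hthru : ∀ a : X, (∃ v ∈ V2, (a : L) = π * v) → a ∈ m)
    (hgen : ∃ t ∈ IsLocalRing.maximalIdeal (locRing X m),
      ∀ y ∈ IsLocalRing.maximalIdeal (locRing X m), ∃ r : locRing X m, ∃ v ∈ V2,
        (y : L) = (r : L) * (t : L) + π * v)
    (p : ℕ) (hp : 0 < p) (z : L) (hzF : z ∈ F1) (hz : z ∈ V2)
    (hpow : ∃ u0, u0 ∈ locRing X m ∧ u0⁻¹ ∈ locRing X m ∧ ∃ v ∈ V2, z ^ p = u0 * (1 + π * v)) :
    ∃ w, w ∈ locRing X m ∧ w⁻¹ ∈ locRing X m ∧ ∃ v ∈ V2, z = w * (1 + π * v) :=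
  S35BRG_reg_mul (S35BRG_branch2 S hC hthru hgen) p hp z (S35BRG_frac2 S hC hzF hz) hpow

end Setup2

end Fermat.Agent.S35_helper2_BRREG
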