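import Mathlib
import Fermat.Agent.S35_helper13_GLUE
import Fermat.Agent.S35_helper2_BRREG

/-!
# S35, piece GEO-LOCALK, abstract layer (helper13): the fields of the local setup at a crossing
point, from the chart

`X` a chart of an `S34C_Setup2`, `m` a crossing point, `R := locRing X m`.  In the statements
`r` *lies in the maximal ideal of `R`* is written `r ∈ R ∧ (r = 0 ∨ r⁻¹ ∉ R)` and `z` *is
congruent to a unit of `R` modulo `π V`* is written
`∃ w, w ∈ R ∧ w⁻¹ ∈ R ∧ ∃ c ∈ V, z = w * (1 + π * c)` (helper19's `S35LOC_NU`, `S35LOC_LU`,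
unfolded).

* `S35LKA_nu_iff`, `S35LKA_loc` : the non-units of `R` form an ideal;
* `S35LKA_ic`    : `R` is integrally closed in `F1` if `X` is;
* `S35LKA_sR`, `S35LKA_frob` : a ring endomorphism `s` which preserves `X` and `m` and is the
  `Q`-th power map modulo `m` preserves `R` and is the `Q`-th power map modulo `𝔪_R`;
* `S35LKA_trans` : transversality from node coordinates;
* `S35LKA_br1`, `S35LKA_br2` : branch regularity (helper2's BR-REG) from node coordinates.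
-/

set_option autoImplicit false
set_option linter.unusedVariables false
set_option linter.unusedSectionVars false
set_option linter.style.haveILetI false

namespace Fermat.Agent.S35_helper13_LOCALKA

open Fermat.Agent.S18_helper9_CDefs Fermat.Agent.S34_helper12_CDefs
  Fermat.Agent.S18_helper3_LOCRING Fermat.Agent.S34_helper27_C2Defs
  Fermat.Agent.S34_helper27_C2ADAPT Fermat.Agent.S34_helper12_DICH
  Fermat.Agent.S34_helper12_GAMMA Fermat.Agent.S35_helper13_GLUE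
  Fermat.Agent.S35_helper2_BRREG

variable {L : Type*} [Field L]

section Loc

variable {X : Subring L} (m : Ideal X) [hm : m.IsPrime]

/-- the maximal ideal of the local ring, elementwise -/
theorem S35LKA_nu_iff {r : L} (hr : r ∈ locRing X m) :
    (r = 0 ∨ r⁻¹ ∉ locRing X m) ↔ ¬ IsUnit (⟨r, hr⟩ : locRing X m) := by
  rw [S35GL_isUnit_iff]
  constructor
  · rintro (h | h) ⟨h0, h1⟩
    · exact h0 h
    · exact h h1
  · intro h
    by_cases h0 : r = 0
    · exact Or.inl h0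
    · exact Or.inr fun h1 => h ⟨h0, h1⟩

/-- the maximal ideal of the local ring in terms of the chart -/
theorem S35LKA_nu_iff' {r : L} (hr : r ∈ locRing X m) :
    (r = 0 ∨ r⁻¹ ∉ locRing X m) ↔ ∃ a c : X, a ∈ m ∧ c ∉ m ∧ r * (c : L) = a := by
  rw [S35LKA_nu_iff m hr, not_isUnit_iff]

/-- **`loc`**: the sum of two non-units is a non-unit. -/
theorem S35LKA_loc (a b : L) (ha : a ∈ locRing X m ∧ (a = 0 ∨ a⁻¹ ∉ locRing X m))
    (hb : b ∈ locRing X m ∧ (b = 0 ∨ b⁻¹ ∉ locRing X m)) :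
    a + b ∈ locRing X m ∧ (a + b = 0 ∨ (a + b)⁻¹ ∉ locRing X m) := by
  refine ⟨(locRing X m).add_mem ha.1 hb.1, ?_⟩
  rw [S35LKA_nu_iff m ((locRing X m).add_mem ha.1 hb.1)]
  have h1 : (⟨a, ha.1⟩ : locRing X m) ∈ nonunits (locRing X m) := (S35LKA_nu_iff m ha.1).1 ha.2
  have h2 : (⟨b, hb.1⟩ : locRing X m) ∈ nonunits (locRing X m) := (S35LKA_nu_iff m hb.1).1 hb.2
  exact IsLocalRing.nonunits_add h1 h2

/-- **`ic`**: the local ring of a subring which is integrally closed in `F1` is integrally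
closed in `F1`. -/
theorem S35LKA_ic {F1 : Subfield L} (hXF : ∀ y ∈ X, y ∈ F1)
    (hic : ∀ y ∈ F1, IsIntegral X y → y ∈ X) :
    ∀ y ∈ F1, IsIntegral (locRing X m) y → y ∈ locRing X m := by
  intro y hyF hy
  letI : Algebra ↥X ↥(locRing X m) := (incl X m).toAlgebra
  haveI : IsScalarTower ↥X ↥(locRing X m) L := IsScalarTower.of_algebraMap_eq (fun _ => rfl)
  haveI : IsLocalization m.primeCompl ↥(locRing X m) :=
    { map_units := by
        rintro ⟨c, hc⟩
        have hc' : c ∉ m := hc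
        refine IsUnit.of_mul_eq_one (⟨((c : L))⁻¹, inv_mem_locRing X m hc'⟩ : locRing X m) ?_
        apply Subtype.ext
        show (c : L) * ((c : L))⁻¹ = 1
        exact mul_inv_cancel₀ (coe_ne_zero_of_notMem X m hc')
      surj := by
        rintro ⟨z, a, c, hc, hz⟩
        refine ⟨(a, ⟨c, hc⟩), ?_⟩
        apply Subtype.ext
        exact hz
      exists_of_eq := by
        intro a b hab
        refine ⟨1, ?_⟩
        have h1 : (a : L) = (b : L) := congrArg (fun z : locRing X m => (z : L)) hab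
        have h2 : a = b := Subtype.ext h1
        rw [h2] }
  obtain ⟨⟨c, hc⟩, hcy⟩ := IsIntegral.exists_multiple_integral_of_isLocalization
    m.primeCompl y hy
  have hc' : c ∉ m := hc
  have hcy' : IsIntegral X ((c : L) * y) := hcy
  have hmem : (c : L) * y ∈ X := hic _ (F1.mul_mem (hXF _ c.2) hyF) hcy'
  refine ⟨⟨_, hmem⟩, c, hc', ?_⟩
  show y * (c : L) = (c : L) * y
  ring

end Loc

section Frob

variable {X : Subring L} (m : Ideal X) [hm : m.IsPrime] (s : L →+* L) (Q : ℕ)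

/-- **`sR`**: a ring endomorphism preserving `X` and the complement of `m` preserves the local
ring. -/
theorem S35LKA_sR (hs : ∀ y : X, ∃ hy : s (y : L) ∈ X, ((⟨_, hy⟩ : X) ∈ m → y ∈ m)) :
    ∀ r ∈ locRing X m, s r ∈ locRing X m := by
  rintro r ⟨a, c, hc, hr⟩
  obtain ⟨ha', -⟩ := hs a
  obtain ⟨hc', hcm⟩ := hs c
  refine ⟨⟨_, ha'⟩, ⟨_, hc'⟩, fun h => hc (hcm h), ?_⟩
  show s r * s (c : L) = s (a : L)
  rw [← map_mul, hr]

/-- **`frob`**: if `s` is the `Q`-th power map modulo `m` on `X`, it is the `Q`-th power map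
modulo the maximal ideal on the local ring. -/
theorem S35LKA_frob
    (hs : ∀ y : X, ∃ hy : s (y : L) ∈ X, ((⟨_, hy⟩ : X) - y ^ Q ∈ m) ∧ ((⟨_, hy⟩ : X) ∈ m ↔ y ∈ m)) :
    ∀ r ∈ locRing X m,
      (s r - r ^ Q ∈ locRing X m ∧ (s r - r ^ Q = 0 ∨ (s r - r ^ Q)⁻¹ ∉ locRing X m)) := by
  intro r hr
  have hsr : s r ∈ locRing X m :=
    S35LKA_sR m s (fun y => ⟨(hs y).1, fun h => ((hs y).2.2).1 h⟩) r hr
  have hmem : s r - r ^ Q ∈ locRing X m :=
    (locRing X m).sub_mem hsr ((locRing X m).pow_mem hr Q)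
  refine ⟨hmem, ?_⟩
  rw [S35LKA_nu_iff' m hmem]
  obtain ⟨a, c, hc, hrc⟩ := hr
  obtain ⟨ha', had, -⟩ := hs a
  obtain ⟨hc', hcd, hciff⟩ := hs c
  have hsc : (⟨_, hc'⟩ : X) ∉ m := fun h => hc (hciff.1 h)
  refine ⟨(⟨_, ha'⟩ - a ^ Q) * c ^ Q - a ^ Q * (⟨_, hc'⟩ - c ^ Q), ⟨_, hc'⟩ * c ^ Q, ?_, ?_, ?_⟩
  · exact m.sub_mem (m.mul_mem_right _ had) (m.mul_mem_left _ hcd)
  · intro h
    rcases hm.mem_or_mem h with h1 | h1
    · exact hsc h1
    · exact hc (hm.mem_of_pow_mem Q h1)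
  · have e1 : s (a : L) = s r * s (c : L) := by rw [← map_mul, hrc]
    have e2 : (a : L) = r * (c : L) := hrc.symm
    push_cast
    rw [e1, e2]
    ring

end Frob

section Node

variable {O : Subring L} {π j x : L} {F1 : Subfield L} {V1 V2 A0 Ainf X : Subring L}

/-- **`trans`** in the shape of the local setup. -/
theorem S35LKA_trans (S : S34C_Setup2 O π j F1 V1 V2 A0 Ainf)
    (hC : Chart O π x F1 (V1 ⊓ V2) X) (m : Ideal X) [hm : m.IsPrime]
    (h1 : ∀ a : X, (∃ v ∈ V1, (a : L) = π * v) → a ∈ m)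
    (h2 : ∀ a : X, (∃ v ∈ V2, (a : L) = π * v) → a ∈ m)
    (htr : ∀ b ∈ locRing X m, (b = 0 ∨ b⁻¹ ∉ locRing X m) →
      ∃ t1 ∈ locRing X m, ∃ t2 ∈ locRing X m,
        (∃ v ∈ V1, t1 = π * v) ∧ (∃ v ∈ V2, t2 = π * v) ∧ b = t1 + t2) :
    ∀ r : L, (r ∈ locRing X m ∧ (r = 0 ∨ r⁻¹ ∉ locRing X m)) →
      ∃ t1 t2 : L, t1 ∈ locRing X m ∧ t2 ∈ locRing X m ∧
        (∃ v ∈ V1, t1 = π * v) ∧ (∃ v ∈ V2, t2 = π * v) ∧ r = t1 + t2 := by
  rintro r ⟨hr, hrn⟩
  obtain ⟨t1, ht1, t2, ht2, h3, h4, h5⟩ := htr r hr hrn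
  exact ⟨t1, t2, ht1, ht2, h3, h4, h5⟩

/-- the maximal ideal of the local ring is principal modulo `π V`, from node coordinates
`𝔪_R = (π, T, S)` with `S ∈ π V` (generator `T`) -/
theorem S35LKA_hgen {V : Subring L} (m : Ideal X) [hm : m.IsPrime] (hRV : locRing X m ≤ V)
    {T S' : L} (hπA : π ∈ locRing X m) (hT : T ∈ locRing X m) (hS : S' ∈ locRing X m)
    (hS1 : ∃ v ∈ V, S' = π * v)
    (hgen : IsLocalRing.maximalIdeal (locRing X m) =
      Ideal.span ({⟨π, hπA⟩, ⟨T, hT⟩, ⟨S', hS⟩} : Set (locRing X m))) :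
    ∃ t ∈ IsLocalRing.maximalIdeal (locRing X m),
      ∀ y ∈ IsLocalRing.maximalIdeal (locRing X m), ∃ r : locRing X m, ∃ v ∈ V,
        (y : L) = (r : L) * (t : L) + π * v := by
  refine ⟨⟨T, hT⟩, ?_, ?_⟩
  · rw [hgen]
    exact Ideal.subset_span (Set.mem_insert_of_mem _ (Set.mem_insert _ _))
  · intro y hy
    rw [hgen, Ideal.mem_span_insert] at hy
    obtain ⟨a, z, hz, hyz⟩ := hy
    rw [Ideal.mem_span_insert] at hz
    obtain ⟨a', z', hz', hzz⟩ := hz
    rw [Ideal.mem_span_singleton'] at hz'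
    obtain ⟨a'', rfl⟩ := hz'
    obtain ⟨vS, hvS, hSv⟩ := hS1
    refine ⟨a', (a : L) + (a'' : L) * vS, V.add_mem (hRV a.2) (V.mul_mem (hRV a''.2) hvS), ?_⟩
    have e : (y : L) = (a : L) * π + ((a' : L) * T + (a'' : L) * S') := by
      have h3 := congrArg (fun y : locRing X m => (y : L)) hyz
      have h4 := congrArg (fun y : locRing X m => (y : L)) hzz
      simp only [Subring.coe_add, Subring.coe_mul] at h3 h4
      rw [h3, h4]
    rw [e, hSv]
    ring

/-- the same with the roles of `T` and `S` exchanged -/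
theorem S35LKA_hgen' {V : Subring L} (m : Ideal X) [hm : m.IsPrime] (hRV : locRing X m ≤ V)
    {T S' : L} (hπA : π ∈ locRing X m) (hT : T ∈ locRing X m) (hS : S' ∈ locRing X m)
    (hT2 : ∃ v ∈ V, T = π * v)
    (hgen : IsLocalRing.maximalIdeal (locRing X m) =
      Ideal.span ({⟨π, hπA⟩, ⟨T, hT⟩, ⟨S', hS⟩} : Set (locRing X m))) :
    ∃ t ∈ IsLocalRing.maximalIdeal (locRing X m),
      ∀ y ∈ IsLocalRing.maximalIdeal (locRing X m), ∃ r : locRing X m, ∃ v ∈ V,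
        (y : L) = (r : L) * (t : L) + π * v := by
  refine ⟨⟨S', hS⟩, ?_, ?_⟩
  · rw [hgen]
    exact Ideal.subset_span (Set.mem_insert_of_mem _ (Set.mem_insert_of_mem _ rfl))
  · intro y hy
    rw [hgen, Ideal.mem_span_insert] at hy
    obtain ⟨a, z, hz, hyz⟩ := hy
    rw [Ideal.mem_span_insert] at hz
    obtain ⟨a', z', hz', hzz⟩ := hz
    rw [Ideal.mem_span_singleton'] at hz'
    obtain ⟨a'', rfl⟩ := hz'
    obtain ⟨vT, hvT, hTv⟩ := hT2
    refine ⟨a'', (a : L) + (a' : L) * vT, V.add_mem (hRV a.2) (V.mul_mem (hRV a'.2) hvT), ?_⟩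
    have e : (y : L) = (a : L) * π + ((a' : L) * T + (a'' : L) * S') := by
      have h3 := congrArg (fun y : locRing X m => (y : L)) hyz
      have h4 := congrArg (fun y : locRing X m => (y : L)) hzz
      simp only [Subring.coe_add, Subring.coe_mul] at h3 h4
      rw [h3, h4]
    rw [e, hTv]
    ring

/-- **`br1`** in the shape of the local setup. -/
theorem S35LKA_br1 (S : S34C_Setup2 O π j F1 V1 V2 A0 Ainf)
    (hC : Chart O π x F1 (V1 ⊓ V2) X) [IsNoetherianRing X] (m : Ideal X) [hm : m.IsPrime]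
    (h1 : ∀ a : X, (∃ v ∈ V1, (a : L) = π * v) → a ∈ m)
    (hgen : ∃ t ∈ IsLocalRing.maximalIdeal (locRing X m),
      ∀ y ∈ IsLocalRing.maximalIdeal (locRing X m), ∃ r : locRing X m, ∃ v ∈ V1,
        (y : L) = (r : L) * (t : L) + π * v) :
    ∀ (p : ℕ), 0 < p → ∀ z ∈ F1, z ∈ V1 → z⁻¹ ∈ V1 →
      (∃ w : L, w ∈ locRing X m ∧ w⁻¹ ∈ locRing X m ∧ ∃ c ∈ V1, z ^ p = w * (1 + π * c)) →
      ∃ w : L, w ∈ locRing X m ∧ w⁻¹ ∈ locRing X m ∧ ∃ c ∈ V1, z = w * (1 + π * c) :=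
  fun p hp z hzF hz _ hpow => S35BRG_reg_V1 S hC h1 hgen p hp z hzF hz hpow

/-- **`br2`** in the shape of the local setup. -/
theorem S35LKA_br2 (S : S34C_Setup2 O π j F1 V1 V2 A0 Ainf)
    (hC : Chart O π x F1 (V1 ⊓ V2) X) [IsNoetherianRing X] (m : Ideal X) [hm : m.IsPrime]
    (h2 : ∀ a : X, (∃ v ∈ V2, (a : L) = π * v) → a ∈ m)
    (hgen : ∃ t ∈ IsLocalRing.maximalIdeal (locRing X m),
      ∀ y ∈ IsLocalRing.maximalIdeal (locRing X m), ∃ r : locRing X m, ∃ v ∈ V2,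
        (y : L) = (r : L) * (t : L) + π * v) :
    ∀ (p : ℕ), 0 < p → ∀ z ∈ F1, z ∈ V2 → z⁻¹ ∈ V2 →
      (∃ w : L, w ∈ locRing X m ∧ w⁻¹ ∈ locRing X m ∧ ∃ c ∈ V2, z ^ p = w * (1 + π * c)) →
      ∃ w : L, w ∈ locRing X m ∧ w⁻¹ ∈ locRing X m ∧ ∃ c ∈ V2, z = w * (1 + π * c) :=
  fun p hp z hzF hz _ hpow => S35BRG_reg_V2 S hC h2 hgen p hp z hzF hz hpow

end Node

end Fermat.Agent.S35_helper13_LOCALKA
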