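import Mathlib

/-!
# S35, GEO (operator route): the LOCAL step at a crossing point (helper19)

Pure algebra, Mathlib only, in the vocabulary "subrings of a field `L`".

`R` is the local ring of a chart at a crossing point (`R ≤ V1`, `R ≤ V2`), `s` is the action of
the square of a Frobenius lift, `Q = q ^ 2`.  For a function `z` write `(s - Q) z := s z / z ^ Q`.

* `S35LOC_LU π V R z`  : `z = w (1 + π c)` with `w` a unit of `R` and `c ∈ V`;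
* `S35LOC_NU R r`      : `r` lies in the maximal ideal of `R`;
* `S35LOC_Setup`       : the structural hypotheses (Frobenius congruence in `R`, transversality,
  branch regularity, integral closedness);
* `S35LOC_main`        : the local shape of `h` and of the root `G` (the hypothesis `hshape` of
  the landed block C', unfolded).
-/

set_option autoImplicit false
set_option linter.unusedVariables false

namespace Fermat.Agent.S35_helper19_LOCAL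

variable {L : Type*} [Field L]

/-- `z` is congruent to a unit of the subring `R` modulo `π V` (multiplicative form). -/
def S35LOC_LU (π : L) (V R : Subring L) (z : L) : Prop :=
  ∃ w : L, w ∈ R ∧ w⁻¹ ∈ R ∧ ∃ c ∈ V, z = w * (1 + π * c)

/-- `r` lies in the maximal ideal of the local subring `R`. -/
def S35LOC_NU (R : Subring L) (r : L) : Prop := r ∈ R ∧ (r = 0 ∨ r⁻¹ ∉ R)

/-- the structural hypotheses at a crossing point -/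
structure S35LOC_Setup (π : L) (F1 : Subfield L) (V1 V2 R : Subring L) (s : L →+* L) (Q : ℕ) :
    Prop where
  π_ne : π ≠ 0
  π_mem : π ∈ R
  R_le_F : ∀ r ∈ R, r ∈ F1
  R_le_1 : R ≤ V1
  R_le_2 : R ≤ V2
  nonunit1 : π⁻¹ ∉ V1
  nonunit2 : π⁻¹ ∉ V2
  rad1 : ∀ c ∈ V1, (1 + π * c)⁻¹ ∈ V1
  rad2 : ∀ c ∈ V2, (1 + π * c)⁻¹ ∈ V2
  loc : ∀ a b : L, S35LOC_NU R a → S35LOC_NU R b → S35LOC_NU R (a + b)
  ic : ∀ y ∈ F1, IsIntegral R y → y ∈ R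
  sF : ∀ y ∈ F1, s y ∈ F1
  sR : ∀ r ∈ R, s r ∈ R
  sV1 : ∀ v ∈ V1, s v ∈ V1
  sV2 : ∀ v ∈ V2, s v ∈ V2
  sπ : ∃ ε ∈ R, s π = π * ε
  frob : ∀ r ∈ R, S35LOC_NU R (s r - r ^ Q)
  trans : ∀ r : L, S35LOC_NU R r → ∃ t1 t2 : L, t1 ∈ R ∧ t2 ∈ R ∧
    (∃ v ∈ V1, t1 = π * v) ∧ (∃ v ∈ V2, t2 = π * v) ∧ r = t1 + t2
  br1 : ∀ (p : ℕ), 0 < p → ∀ z ∈ F1, z ∈ V1 → z⁻¹ ∈ V1 → S35LOC_LU π V1 R (z ^ p) →
    S35LOC_LU π V1 R z
  br2 : ∀ (p : ℕ), 0 < p → ∀ z ∈ F1, z ∈ V2 → z⁻¹ ∈ V2 → S35LOC_LU π V2 R (z ^ p) →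
    S35LOC_LU π V2 R z

/-! ### the maximal ideal -/

section NU

variable {R : Subring L}

theorem S35LOC_NU_zero : S35LOC_NU R (0 : L) := ⟨R.zero_mem, Or.inl rfl⟩

theorem S35LOC_NU_neg {a : L} (ha : S35LOC_NU R a) : S35LOC_NU R (-a) := by
  refine ⟨R.neg_mem ha.1, ?_⟩
  rcases ha.2 with h | h
  · exact Or.inl (by rw [h, neg_zero])
  · refine Or.inr fun h' => h ?_
    have : a⁻¹ = -(-a)⁻¹ := by rw [inv_neg, neg_neg]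
    rw [this]
    exact R.neg_mem h'

theorem S35LOC_NU_mul {a r : L} (ha : S35LOC_NU R a) (hr : r ∈ R) : S35LOC_NU R (a * r) := by
  refine ⟨R.mul_mem ha.1 hr, ?_⟩
  by_cases h0 : a * r = 0
  · exact Or.inl h0
  · refine Or.inr fun h' => ?_
    have ha0 : a ≠ 0 := left_ne_zero_of_mul h0
    have hr0 : r ≠ 0 := right_ne_zero_of_mul h0
    rcases ha.2 with h | h
    · exact ha0 h
    · apply h
      have : a⁻¹ = r * (a * r)⁻¹ := by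
        rw [mul_inv, mul_comm a⁻¹, ← mul_assoc, mul_inv_cancel₀ hr0, one_mul]
      rw [this]
      exact R.mul_mem hr h'

theorem S35LOC_NU_of_mul_pi {π : L} {V : Subring L} (hRV : R ≤ V) (hnu : π⁻¹ ∉ V) {r : L}
    (hr : r ∈ R) (h : ∃ v ∈ V, r = π * v) : S35LOC_NU R r := by
  refine ⟨hr, ?_⟩
  by_cases h0 : r = 0
  · exact Or.inl h0
  · refine Or.inr fun h' => hnu ?_
    obtain ⟨v, hv, hrv⟩ := h
    have hπ0 : π ≠ 0 := fun hπ => h0 (by rw [hrv, hπ, zero_mul])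
    have hv0 : v ≠ 0 := fun hv0 => h0 (by rw [hrv, hv0, mul_zero])
    have : π⁻¹ = v * r⁻¹ := by
      rw [hrv, mul_inv, mul_comm π⁻¹, ← mul_assoc, mul_inv_cancel₀ hv0, one_mul]
    rw [this]
    exact V.mul_mem hv (hRV h')

/-- a unit of `R` is not in the maximal ideal -/
theorem S35LOC_not_NU {w : L} (hw0 : w ≠ 0) (hw' : w⁻¹ ∈ R) : ¬ S35LOC_NU R w := by
  rintro ⟨-, h | h⟩
  · exact hw0 h
  · exact h hw'

end NU

/-! ### the class `LU` -/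

section LU

variable {π : L} {V R : Subring L}

theorem S35LOC_LU_unit {w : L} (hw : w ∈ R) (hw' : w⁻¹ ∈ R) : S35LOC_LU π V R w :=
  ⟨w, hw, hw', 0, V.zero_mem, by rw [mul_zero, add_zero, mul_one]⟩

theorem S35LOC_LU_one_add {c : L} (hc : c ∈ V) : S35LOC_LU π V R (1 + π * c) :=
  ⟨1, R.one_mem, by rw [inv_one]; exact R.one_mem, c, hc, by rw [one_mul]⟩

theorem S35LOC_LU_mul (hπ : π ∈ V) {a b : L} (ha : S35LOC_LU π V R a)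
    (hb : S35LOC_LU π V R b) : S35LOC_LU π V R (a * b) := by
  obtain ⟨w, hw, hw', c, hc, rfl⟩ := ha
  obtain ⟨w2, hw2, hw2', c2, hc2, rfl⟩ := hb
  refine ⟨w * w2, R.mul_mem hw hw2, ?_, c + c2 + π * c * c2,
    V.add_mem (V.add_mem hc hc2) (V.mul_mem (V.mul_mem hπ hc) hc2), by ring⟩
  rw [mul_inv]
  exact R.mul_mem hw' hw2'

theorem S35LOC_one_add_ne (hnu : π⁻¹ ∉ V) {c : L} (hc : c ∈ V) : 1 + π * c ≠ 0 := by
  intro h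
  apply hnu
  have : π⁻¹ = -c := inv_eq_of_mul_eq_one_right (by linear_combination (-1 : L) * h)
  rw [this]
  exact V.neg_mem hc

theorem S35LOC_one_add_inv (hπ : π ∈ V) (hnu : π⁻¹ ∉ V) (hrad : ∀ c ∈ V, (1 + π * c)⁻¹ ∈ V)
    {c : L} (hc : c ∈ V) : ∃ c' ∈ V, (1 + π * c)⁻¹ = 1 + π * c' := by
  refine ⟨-(c * (1 + π * c)⁻¹), V.neg_mem (V.mul_mem hc (hrad c hc)), ?_⟩
  have h0 := S35LOC_one_add_ne hnu hc
  field_simp
  ring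

theorem S35LOC_LU_inv (hπ : π ∈ V) (hnu : π⁻¹ ∉ V) (hrad : ∀ c ∈ V, (1 + π * c)⁻¹ ∈ V)
    {a : L} (ha : S35LOC_LU π V R a) : S35LOC_LU π V R a⁻¹ := by
  obtain ⟨w, hw, hw', c, hc, rfl⟩ := ha
  obtain ⟨c', hc', h⟩ := S35LOC_one_add_inv hπ hnu hrad hc
  refine ⟨w⁻¹, hw', by rw [inv_inv]; exact hw, c', hc', ?_⟩
  rw [mul_inv, h]

theorem S35LOC_LU_pow (hπ : π ∈ V) {a : L} (ha : S35LOC_LU π V R a) (n : ℕ) :
    S35LOC_LU π V R (a ^ n) := by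
  induction n with
  | zero => rw [pow_zero]; exact S35LOC_LU_unit R.one_mem (by rw [inv_one]; exact R.one_mem)
  | succ k ih => rw [pow_succ]; exact S35LOC_LU_mul hπ ih ha

theorem S35LOC_LU_mem (hRV : R ≤ V) (hπ : π ∈ V) {a : L} (ha : S35LOC_LU π V R a) : a ∈ V := by
  obtain ⟨w, hw, hw', c, hc, rfl⟩ := ha
  exact V.mul_mem (hRV hw) (V.add_mem V.one_mem (V.mul_mem hπ hc))

theorem S35LOC_LU_mono {V' : Subring L} (h : V ≤ V') {a : L} (ha : S35LOC_LU π V R a) :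
    S35LOC_LU π V' R a := by
  obtain ⟨w, hw, hw', c, hc, rfl⟩ := ha
  exact ⟨w, hw, hw', c, h hc, rfl⟩

end LU

/-! ### the operator `(s - Q) z = s z / z ^ Q` -/

section Frob

variable {π : L} {F1 : Subfield L} {V1 V2 R : Subring L} {s : L →+* L} {Q : ℕ}

/-- **FROB-LU**: if `z = w (1 + π c)` with `w` a unit of `R`, then `(s - Q) z = w' (1 + π c')`
with `w'` a unit of `R`, `w' ≡ 1` modulo the maximal ideal. -/
theorem S35LOC_frob_LU {V : Subring L} (hRV : R ≤ V) (hπR : π ∈ R) (hnu : π⁻¹ ∉ V)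
    (hrad : ∀ c ∈ V, (1 + π * c)⁻¹ ∈ V) (hsR : ∀ r ∈ R, s r ∈ R) (hsV : ∀ v ∈ V, s v ∈ V)
    (hsπ : ∃ ε ∈ R, s π = π * ε) (hfrob : ∀ r ∈ R, S35LOC_NU R (s r - r ^ Q))
    {z : L} (hz0 : z ≠ 0) (hz : S35LOC_LU π V R z) :
    ∃ w' : L, w' ∈ R ∧ w'⁻¹ ∈ R ∧ w' ≠ 0 ∧ S35LOC_NU R (w' - 1) ∧
      ∃ c ∈ V, s z * (z ^ Q)⁻¹ = w' * (1 + π * c) := by
  obtain ⟨w, hw, hw', c, hc, rfl⟩ := hz
  have hw0 : w ≠ 0 := left_ne_zero_of_mul hz0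
  have hπV : π ∈ V := hRV hπR
  obtain ⟨ε, hε, hsπε⟩ := hsπ
  have hsw0 : s w ≠ 0 := by
    intro h
    exact hw0 ((map_eq_zero s).1 h)
  have hswinv : (s w)⁻¹ ∈ R := by
    rw [← map_inv₀]
    exact hsR _ hw'
  -- the unit
  refine ⟨s w * (w ^ Q)⁻¹, R.mul_mem (hsR w hw) (by rw [← inv_pow]; exact R.pow_mem hw' Q), ?_,
    mul_ne_zero hsw0 (inv_ne_zero (pow_ne_zero Q hw0)), ?_, ?_⟩
  · rw [mul_inv, inv_inv]
    exact R.mul_mem hswinv (R.pow_mem hw Q)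
  · have h1 : s w * (w ^ Q)⁻¹ - 1 = (s w - w ^ Q) * (w ^ Q)⁻¹ := by
      have := pow_ne_zero Q hw0
      field_simp
    rw [h1]
    exact S35LOC_NU_mul (hfrob w hw) (by rw [← inv_pow]; exact R.pow_mem hw' Q)
  · -- the congruence
    have hsz : s (w * (1 + π * c)) = s w * (1 + π * (ε * s c)) := by
      rw [map_mul, map_add, map_one, map_mul, hsπε]
      ring
    have hA : S35LOC_LU π V R (1 + π * (ε * s c)) :=
      S35LOC_LU_one_add (V.mul_mem (hRV hε) (hsV c hc))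
    have hB : S35LOC_LU π V R ((1 + π * c) ^ Q)⁻¹ :=
      S35LOC_LU_inv hπV hnu hrad (S35LOC_LU_pow hπV (S35LOC_LU_one_add hc) Q)
    -- both have unit part `1`: redo explicitly
    obtain ⟨c1, hc1, h1⟩ : ∃ c1 ∈ V, ((1 + π * c) ^ Q)⁻¹ = 1 + π * c1 := by
      have : ∀ n : ℕ, ∃ c1 ∈ V, (1 + π * c) ^ n = 1 + π * c1 := by
        intro n
        induction n with
        | zero => exact ⟨0, V.zero_mem, by rw [pow_zero, mul_zero, add_zero]⟩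
        | succ k ih =>
          obtain ⟨d, hd, hdk⟩ := ih
          exact ⟨d + c + π * d * c, V.add_mem (V.add_mem hd hc) (V.mul_mem (V.mul_mem hπV hd) hc),
            by rw [pow_succ, hdk]; ring⟩
      obtain ⟨d, hd, hdQ⟩ := this Q
      obtain ⟨d', hd', h⟩ := S35LOC_one_add_inv hπV hnu hrad hd
      exact ⟨d', hd', by rw [hdQ, h]⟩
    refine ⟨ε * s c + c1 + π * (ε * s c) * c1,
      V.add_mem (V.add_mem (V.mul_mem (hRV hε) (hsV c hc)) hc1)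
        (V.mul_mem (V.mul_mem hπV (V.mul_mem (hRV hε) (hsV c hc))) hc1), ?_⟩
    rw [hsz, mul_pow, mul_inv, h1]
    ring

/-- **GLUE**: a function congruent to units `w1`, `w2` of `R` on the two branches, with
`w1 - w2` in the maximal ideal, is congruent to ONE unit of `R` modulo `π (V1 ⊓ V2)`. -/
theorem S35LOC_glue (hπ0 : π ≠ 0) (hπR : π ∈ R) (hR1 : R ≤ V1) (hR2 : R ≤ V2)
    (hnu1 : π⁻¹ ∉ V1)
    (hloc : ∀ a b : L, S35LOC_NU R a → S35LOC_NU R b → S35LOC_NU R (a + b))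
    (htr : ∀ r : L, S35LOC_NU R r → ∃ t1 t2 : L, t1 ∈ R ∧ t2 ∈ R ∧
      (∃ v ∈ V1, t1 = π * v) ∧ (∃ v ∈ V2, t2 = π * v) ∧ r = t1 + t2)
    {z w1 w2 : L} (hw1 : w1 ∈ R) (hw1' : w1⁻¹ ∈ R) (hw10 : w1 ≠ 0)
    (hz1 : ∃ c ∈ V1, z = w1 * (1 + π * c)) (hz2 : ∃ c ∈ V2, z = w2 * (1 + π * c))
    (hw : S35LOC_NU R (w1 - w2)) :
    ∃ w : L, w ∈ R ∧ w⁻¹ ∈ R ∧ w ≠ 0 ∧ S35LOC_NU R (w - w1) ∧
      ∃ c ∈ (V1 ⊓ V2 : Subring L), z = w * (1 + π * c) := by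
  obtain ⟨t1, t2, ht1, ht2, ⟨v1, hv1, ht1v⟩, ⟨v2, hv2, ht2v⟩, hsum⟩ := htr _ hw
  have hNU1 : S35LOC_NU R t1 := S35LOC_NU_of_mul_pi hR1 hnu1 ht1 ⟨v1, hv1, ht1v⟩
  have hwR : w1 - t1 ∈ R := R.sub_mem hw1 ht1
  have hunit : ¬ S35LOC_NU R (w1 - t1) := by
    intro h
    have := hloc _ _ h hNU1
    rw [sub_add_cancel] at this
    exact S35LOC_not_NU hw10 hw1' this
  have hw0 : w1 - t1 ≠ 0 := fun h => hunit ⟨hwR, Or.inl h⟩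
  have hwinv : (w1 - t1)⁻¹ ∈ R := by
    by_contra h
    exact hunit ⟨hwR, Or.inr h⟩
  have hw_eq2 : w1 - t1 = w2 + t2 := by linear_combination hsum
  obtain ⟨c1, hc1, hzc1⟩ := hz1
  obtain ⟨c2, hc2, hzc2⟩ := hz2
  have hπ1 : π ∈ V1 := hR1 hπR
  have hπ2 : π ∈ V2 := hR2 hπR
  have hWW : (w1 - t1) * (w1 - t1)⁻¹ = 1 := mul_inv_cancel₀ hw0
  have e1 : z = (w1 - t1) * (1 + π * (c1 + v1 * (w1 - t1)⁻¹ + π * (v1 * (w1 - t1)⁻¹) * c1)) := by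
    rw [hzc1]
    linear_combination (1 + π * c1) * ht1v - (π * v1 * (1 + π * c1)) * hWW
  have hw_eq2' : w1 - t1 = w2 + π * v2 := by rw [hw_eq2, ht2v]
  have e2 : z = (w1 - t1) * (1 + π * (c2 - v2 * (w1 - t1)⁻¹ - π * (v2 * (w1 - t1)⁻¹) * c2)) := by
    rw [hzc2]
    linear_combination (-(1 + π * c2)) * hw_eq2' + (π * v2 * (1 + π * c2)) * hWW
  have ha1 : c1 + v1 * (w1 - t1)⁻¹ + π * (v1 * (w1 - t1)⁻¹) * c1 ∈ V1 :=
    V1.add_mem (V1.add_mem hc1 (V1.mul_mem hv1 (hR1 hwinv)))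
      (V1.mul_mem (V1.mul_mem hπ1 (V1.mul_mem hv1 (hR1 hwinv))) hc1)
  have ha2 : c2 - v2 * (w1 - t1)⁻¹ - π * (v2 * (w1 - t1)⁻¹) * c2 ∈ V2 :=
    V2.sub_mem (V2.sub_mem hc2 (V2.mul_mem hv2 (hR2 hwinv)))
      (V2.mul_mem (V2.mul_mem hπ2 (V2.mul_mem hv2 (hR2 hwinv))) hc2)
  have heq : c1 + v1 * (w1 - t1)⁻¹ + π * (v1 * (w1 - t1)⁻¹) * c1 =
      c2 - v2 * (w1 - t1)⁻¹ - π * (v2 * (w1 - t1)⁻¹) * c2 := by
    have h := e1.symm.trans e2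
    have h2 := mul_left_cancel₀ hw0 h
    have h3 : π * (c1 + v1 * (w1 - t1)⁻¹ + π * (v1 * (w1 - t1)⁻¹) * c1) =
        π * (c2 - v2 * (w1 - t1)⁻¹ - π * (v2 * (w1 - t1)⁻¹) * c2) := add_left_cancel h2
    exact mul_left_cancel₀ hπ0 h3
  refine ⟨w1 - t1, hwR, hwinv, hw0, ?_, _, ⟨ha1, heq ▸ ha2⟩, e1⟩
  have : w1 - t1 - w1 = -t1 := by ring
  rw [this]
  exact S35LOC_NU_neg hNU1

end Frob

/-! ### multiplicative congruences modulo `1 + π V` -/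

section Cg

variable {π : L} {V : Subring L}

/-- `a = b (1 + π c)` with `c ∈ V`. -/
def S35LOC_Cg (π : L) (V : Subring L) (a b : L) : Prop := ∃ c ∈ V, a = b * (1 + π * c)

theorem S35LOC_Cg_refl (a : L) : S35LOC_Cg π V a a :=
  ⟨0, V.zero_mem, by rw [mul_zero, add_zero, mul_one]⟩

theorem S35LOC_Cg_trans (hπ : π ∈ V) {a b d : L} (h1 : S35LOC_Cg π V a b)
    (h2 : S35LOC_Cg π V b d) : S35LOC_Cg π V a d := by
  obtain ⟨c, hc, rfl⟩ := h1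
  obtain ⟨c', hc', rfl⟩ := h2
  exact ⟨c + c' + π * c * c', V.add_mem (V.add_mem hc hc') (V.mul_mem (V.mul_mem hπ hc) hc'),
    by ring⟩

theorem S35LOC_Cg_symm (hπ : π ∈ V) (hnu : π⁻¹ ∉ V) (hrad : ∀ c ∈ V, (1 + π * c)⁻¹ ∈ V)
    {a b : L} (h : S35LOC_Cg π V a b) : S35LOC_Cg π V b a := by
  obtain ⟨c, hc, rfl⟩ := h
  obtain ⟨c', hc', h'⟩ := S35LOC_one_add_inv hπ hnu hrad hc
  refine ⟨c', hc', ?_⟩
  rw [← h', mul_assoc, mul_inv_cancel₀ (S35LOC_one_add_ne hnu hc), mul_one]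

theorem S35LOC_Cg_mul (hπ : π ∈ V) {a b a' b' : L} (h1 : S35LOC_Cg π V a b)
    (h2 : S35LOC_Cg π V a' b') : S35LOC_Cg π V (a * a') (b * b') := by
  obtain ⟨c, hc, rfl⟩ := h1
  obtain ⟨c', hc', rfl⟩ := h2
  exact ⟨c + c' + π * c * c', V.add_mem (V.add_mem hc hc') (V.mul_mem (V.mul_mem hπ hc) hc'),
    by ring⟩

theorem S35LOC_Cg_pow (hπ : π ∈ V) {a b : L} (h : S35LOC_Cg π V a b) (n : ℕ) :
    S35LOC_Cg π V (a ^ n) (b ^ n) := by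
  induction n with
  | zero => rw [pow_zero, pow_zero]; exact S35LOC_Cg_refl 1
  | succ k ih => rw [pow_succ, pow_succ]; exact S35LOC_Cg_mul hπ ih h

theorem S35LOC_Cg_inv (hπ : π ∈ V) (hnu : π⁻¹ ∉ V) (hrad : ∀ c ∈ V, (1 + π * c)⁻¹ ∈ V)
    {a b : L} (h : S35LOC_Cg π V a b) : S35LOC_Cg π V a⁻¹ b⁻¹ := by
  obtain ⟨c, hc, rfl⟩ := h
  obtain ⟨c', hc', h'⟩ := S35LOC_one_add_inv hπ hnu hrad hc
  exact ⟨c', hc', by rw [mul_inv, h']⟩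

theorem S35LOC_Cg_mono {V' : Subring L} (h : V ≤ V') {a b : L} (hab : S35LOC_Cg π V a b) :
    S35LOC_Cg π V' a b := by
  obtain ⟨c, hc, rfl⟩ := hab
  exact ⟨c, h hc, rfl⟩

theorem S35LOC_Cg_sub {R : Subring L} (hRV : R ≤ V) (hnu : π⁻¹ ∉ V) {a b : L} (ha : a ∈ R)
    (hb : b ∈ R) (h : S35LOC_Cg π V a b) : S35LOC_NU R (a - b) := by
  obtain ⟨c, hc, rfl⟩ := h
  refine S35LOC_NU_of_mul_pi hRV hnu (R.sub_mem ha hb) ⟨b * c, V.mul_mem (hRV hb) hc, by ring⟩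

end Cg

section NU2

variable {R : Subring L}

theorem S35LOC_NU_sub (hloc : ∀ a b : L, S35LOC_NU R a → S35LOC_NU R b → S35LOC_NU R (a + b))
    {a b : L} (ha : S35LOC_NU R a) (hb : S35LOC_NU R b) : S35LOC_NU R (a - b) := by
  rw [sub_eq_add_neg]
  exact hloc _ _ ha (S35LOC_NU_neg hb)

theorem S35LOC_NU_pow_sub_one
    (hloc : ∀ a b : L, S35LOC_NU R a → S35LOC_NU R b → S35LOC_NU R (a + b))
    {w : L} (hw : w ∈ R) (h : S35LOC_NU R (w - 1)) (n : ℕ) : S35LOC_NU R (w ^ n - 1) := by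
  induction n with
  | zero => rw [pow_zero, sub_self]; exact S35LOC_NU_zero
  | succ k ih =>
    have : w ^ (k + 1) - 1 = (w - 1) * w ^ k + (w ^ k - 1) := by ring
    rw [this]
    exact hloc _ _ (S35LOC_NU_mul h (R.pow_mem hw k)) ih

end NU2

/-! ### the main theorem -/

/-- **GEO-LOCAL**: the local shape at a crossing point. -/
theorem S35LOC_main {π : L} {F1 : Subfield L} {V1 V2 R : Subring L} {s : L →+* L} {Q : ℕ}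
    (hS : S35LOC_Setup π F1 V1 V2 R s Q)
    (lam n' : ℕ) (hlam : 0 < lam) (hn' : 0 < n')
    -- the function `f''` with its local generator `g''` (class LU2) and the unit `u''`
    (f2 g2 : L) (hf2 : f2 ∈ F1) (hf20 : f2 ≠ 0) (hg2 : g2 ∈ F1) (hg20 : g2 ≠ 0)
    (hg2_1 : S35LOC_LU π V1 R g2) (hg2_2 : S35LOC_LU π V2 R g2)
    (hu2 : f2 * (g2 ^ (lam * n'))⁻¹ ∈ R) (hu2' : (f2 * (g2 ^ (lam * n'))⁻¹)⁻¹ ∈ R)
    -- toric: `f'' = c_i H_i ^ n (1 + π v_i)` on the branch `V_i`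
    (c1 c2 H1 H2 : L) (hc1 : c1 ∈ R) (hc1' : c1⁻¹ ∈ R) (hc2 : c2 ∈ R) (hc2' : c2⁻¹ ∈ R)
    (hH1F : H1 ∈ F1) (hH2F : H2 ∈ F1)
    (hH1 : H1 ∈ V1) (hH1' : H1⁻¹ ∈ V1) (hH2 : H2 ∈ V2) (hH2' : H2⁻¹ ∈ V2)
    (ht1 : ∃ v ∈ V1, f2 = c1 * H1 ^ (lam * n') * (1 + π * v))
    (ht2 : ∃ v ∈ V2, f2 = c2 * H2 ^ (lam * n') * (1 + π * v))
    -- the function `h` with `h ^ n' = c0 (s - Q) f''`
    (h c0 : L) (hh : h ∈ F1) (hh0 : h ≠ 0) (hc0 : c0 ∈ R) (hc0' : c0⁻¹ ∈ R)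
    (hhf : h ^ n' = c0 * (s f2 * (f2 ^ Q)⁻¹))
    -- the branch constants of `h` and the global root `G`
    (γ1 γ2 b1 b2 G : L) (hG0 : G ≠ 0)
    (hγ1 : γ1 ∈ R) (hγ2 : γ2 ∈ R)
    (hb1 : b1 ∈ R) (hb1' : b1⁻¹ ∈ R) (hb2 : b2 ∈ R)
    (hh1 : ∃ v ∈ V1, h = γ1 * (s H1 * (H1 ^ Q)⁻¹) ^ lam * (1 + π * v))
    (hh2 : ∃ v ∈ V2, h = γ2 * (s H2 * (H2 ^ Q)⁻¹) ^ lam * (1 + π * v))
    (hG1 : ∃ v ∈ V1, G = b1 * (s H1 * (H1 ^ Q)⁻¹) * (1 + π * v))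
    (hG2 : ∃ v ∈ V2, G = b2 * (s H2 * (H2 ^ Q)⁻¹) * (1 + π * v))
    (hb : S35LOC_NU R (γ1 - γ2) → b1 = b2) :
    ∃ u g w : L, u ∈ R ∧ u⁻¹ ∈ R ∧ g ∈ F1 ∧ g ∈ (V1 ⊓ V2 : Subring L) ∧
      g⁻¹ ∈ (V1 ⊓ V2 : Subring L) ∧ h = u * g ^ lam ∧ w ∈ R ∧ w⁻¹ ∈ R ∧
      ∃ c ∈ (V1 ⊓ V2 : Subring L), G = g * w * (1 + π * c) := by
  have hπ1 : π ∈ V1 := hS.R_le_1 hS.π_mem
  have hπ2 : π ∈ V2 := hS.R_le_2 hS.π_mem
  have hnpos : 0 < lam * n' := Nat.mul_pos hlam hn'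
  have hgn0 : g2 ^ (lam * n') ≠ 0 := pow_ne_zero _ hg20
  -- Step A: `H_i` is congruent to a unit of `R` on the branch `V_i`
  have hA : ∀ (V : Subring L), R ≤ V → π⁻¹ ∉ V → (∀ c ∈ V, (1 + π * c)⁻¹ ∈ V) →
      ∀ c H : L, c⁻¹ ∈ R → c ∈ R → S35LOC_LU π V R g2 →
      (∃ v ∈ V, f2 = c * H ^ (lam * n') * (1 + π * v)) → S35LOC_LU π V R (H ^ (lam * n')) := by
    intro V hRV hnu hrad c H hc' hc hgV ⟨v, hv, hfv⟩
    have hπV : π ∈ V := hRV hS.π_mem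
    have hc0 : c ≠ 0 := by
      rintro rfl
      rw [zero_mul, zero_mul] at hfv
      exact hf20 hfv
    have h1v := S35LOC_one_add_ne hnu hv
    have e : H ^ (lam * n') =
        c⁻¹ * (f2 * (g2 ^ (lam * n'))⁻¹) * g2 ^ (lam * n') * (1 + π * v)⁻¹ := by
      rw [hfv]
      field_simp
    rw [e]
    refine S35LOC_LU_mul hπV (S35LOC_LU_mul hπV (S35LOC_LU_mul hπV ?_ ?_) ?_) ?_
    · exact S35LOC_LU_unit hc' (by rw [inv_inv]; exact hc)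
    · exact S35LOC_LU_unit hu2 hu2'
    · exact S35LOC_LU_pow hπV hgV _
    · exact S35LOC_LU_inv hπV hnu hrad (S35LOC_LU_one_add hv)
  have hH1LU : S35LOC_LU π V1 R H1 :=
    hS.br1 _ hnpos H1 hH1F hH1 hH1' (hA V1 hS.R_le_1 hS.nonunit1 hS.rad1 c1 H1 hc1' hc1 hg2_1 ht1)
  have hH2LU : S35LOC_LU π V2 R H2 :=
    hS.br2 _ hnpos H2 hH2F hH2 hH2' (hA V2 hS.R_le_2 hS.nonunit2 hS.rad2 c2 H2 hc2' hc2 hg2_2 ht2)
  have hH10 : H1 ≠ 0 := by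
    rintro rfl
    obtain ⟨v, -, hfv⟩ := ht1
    rw [zero_pow hnpos.ne', mul_zero, zero_mul] at hfv
    exact hf20 hfv
  have hH20 : H2 ≠ 0 := by
    rintro rfl
    obtain ⟨v, -, hfv⟩ := ht2
    rw [zero_pow hnpos.ne', mul_zero, zero_mul] at hfv
    exact hf20 hfv
  -- Step B: the Frobenius operator on `g''` and on `H_i`
  obtain ⟨wg1, hwg1, hwg1', hwg10, hwg1NU, hg_1⟩ :=
    S35LOC_frob_LU hS.R_le_1 hS.π_mem hS.nonunit1 hS.rad1 hS.sR hS.sV1 hS.sπ hS.frob hg20 hg2_1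
  obtain ⟨wg2, hwg2, hwg2', hwg20, hwg2NU, hg_2⟩ :=
    S35LOC_frob_LU hS.R_le_2 hS.π_mem hS.nonunit2 hS.rad2 hS.sR hS.sV2 hS.sπ hS.frob hg20 hg2_2
  obtain ⟨ρ1, hρ1, hρ1', hρ10, hρ1NU, hρ_1⟩ :=
    S35LOC_frob_LU hS.R_le_1 hS.π_mem hS.nonunit1 hS.rad1 hS.sR hS.sV1 hS.sπ hS.frob hH10 hH1LU
  obtain ⟨ρ2, hρ2, hρ2', hρ20, hρ2NU, hρ_2⟩ :=
    S35LOC_frob_LU hS.R_le_2 hS.π_mem hS.nonunit2 hS.rad2 hS.sR hS.sV2 hS.sπ hS.frob hH20 hH2LU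
  -- Step C: glue `g`
  obtain ⟨wg, hwg, hwg', hwg0, hwgNU, cg, hcg, hgeq⟩ :=
    S35LOC_glue hS.π_ne hS.π_mem hS.R_le_1 hS.R_le_2 hS.nonunit1 hS.loc hS.trans hwg1 hwg1'
      hwg10 hg_1 hg_2 (by
        have : wg1 - wg2 = (wg1 - 1) - (wg2 - 1) := by ring
        rw [this]
        exact S35LOC_NU_sub hS.loc hwg1NU hwg2NU)
  have hwgNU1 : S35LOC_NU R (wg - 1) := by
    have : wg - 1 = (wg - wg1) + (wg1 - 1) := by ring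
    rw [this]
    exact hS.loc _ _ hwgNU hwg1NU
  set g : L := s g2 * (g2 ^ Q)⁻¹ with hgdef
  have hsg20 : s g2 ≠ 0 := fun h0 => hg20 ((map_eq_zero s).1 h0)
  have hg0 : g ≠ 0 := mul_ne_zero hsg20 (inv_ne_zero (pow_ne_zero Q hg20))
  have hgF : g ∈ F1 := F1.mul_mem (hS.sF g2 hg2) (F1.inv_mem (F1.pow_mem hg2 Q))
  have hgCg1 : S35LOC_Cg π V1 g wg := ⟨cg, hcg.1, hgeq⟩
  have hgCg2 : S35LOC_Cg π V2 g wg := ⟨cg, hcg.2, hgeq⟩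
  -- Step D: the unit `u`
  set u2 : L := f2 * (g2 ^ (lam * n'))⁻¹ with hu2def
  have hu20 : u2 ≠ 0 := mul_ne_zero hf20 (inv_ne_zero hgn0)
  have hsu20 : s u2 ≠ 0 := fun h0 => hu20 ((map_eq_zero s).1 h0)
  have hsf20 : s f2 ≠ 0 := fun h0 => hf20 ((map_eq_zero s).1 h0)
  have hupow : (h * (g ^ lam)⁻¹) ^ n' = c0 * (s u2 * (u2 ^ Q)⁻¹) := by
    rw [mul_pow, hhf, hgdef, hu2def]
    simp only [map_mul, map_inv₀, map_pow, mul_pow, inv_pow, mul_inv, inv_inv, ← pow_mul]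
    have e1 : Q * lam * n' = lam * n' * Q := by ring
    have e2 : Q * (lam * n') = lam * n' * Q := by ring
    field_simp
    ring_nf
  have hΦu : s u2 * (u2 ^ Q)⁻¹ ∈ R :=
    R.mul_mem (hS.sR _ hu2) (by rw [← inv_pow]; exact R.pow_mem hu2' Q)
  have hΦu' : (s u2 * (u2 ^ Q)⁻¹)⁻¹ ∈ R := by
    rw [mul_inv, inv_inv, ← map_inv₀]
    exact R.mul_mem (hS.sR _ hu2') (R.pow_mem hu2 Q)
  have hint : ∀ y : L, y ∈ F1 → y ^ n' ∈ R → y ∈ R := by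
    intro y hyF hy
    refine hS.ic y hyF (IsIntegral.of_pow hn' ?_)
    exact (isIntegral_algebraMap (R := R) (A := L) (x := ⟨y ^ n', hy⟩))
  set u : L := h * (g ^ lam)⁻¹ with hudef
  have huF : u ∈ F1 := F1.mul_mem hh (F1.inv_mem (F1.pow_mem hgF lam))
  have huR : u ∈ R := hint u huF (by rw [hupow]; exact R.mul_mem hc0 hΦu)
  have huR' : u⁻¹ ∈ R := by
    refine hint u⁻¹ (F1.inv_mem huF) ?_
    rw [inv_pow, hupow, mul_inv]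
    exact R.mul_mem hc0' hΦu'
  have hhug : h = u * g ^ lam := by
    rw [hudef, mul_assoc, inv_mul_cancel₀ (pow_ne_zero lam hg0), mul_one]
  have hu0 : u ≠ 0 := by
    rintro h0
    rw [h0, zero_mul] at hhug
    exact hh0 hhug
  -- Step E: the branch constants agree at the node
  have hE : ∀ (V : Subring L), R ≤ V → π ∈ V → π⁻¹ ∉ V → (∀ c ∈ V, (1 + π * c)⁻¹ ∈ V) →
      S35LOC_Cg π V g wg → ∀ (γ H ρ : L), γ ∈ R → ρ ∈ R → S35LOC_NU R (ρ - 1) →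
      S35LOC_Cg π V (s H * (H ^ Q)⁻¹) ρ →
      S35LOC_Cg π V h (γ * (s H * (H ^ Q)⁻¹) ^ lam) → S35LOC_NU R (u - γ) := by
    intro V hRV hπV hnu hrad hgw γ H ρ hγ hρ hρNU hHρ hhγ
    -- `u wg ^ lam ~ γ ρ ^ lam`
    have h1 : S35LOC_Cg π V (u * wg ^ lam) (u * g ^ lam) :=
      S35LOC_Cg_mul hπV (S35LOC_Cg_refl u)
        (S35LOC_Cg_pow hπV (S35LOC_Cg_symm hπV hnu hrad hgw) lam)
    have h2 : S35LOC_Cg π V (u * g ^ lam) (γ * ρ ^ lam) := by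
      rw [← hhug]
      exact S35LOC_Cg_trans hπV hhγ
        (S35LOC_Cg_mul hπV (S35LOC_Cg_refl γ) (S35LOC_Cg_pow hπV hHρ lam))
    have h3 := S35LOC_Cg_sub hRV hnu (R.mul_mem huR (R.pow_mem hwg lam))
      (R.mul_mem hγ (R.pow_mem hρ lam)) (S35LOC_Cg_trans hπV h1 h2)
    have h4 : S35LOC_NU R (u * (wg ^ lam - 1)) := by
      rw [mul_comm]
      exact S35LOC_NU_mul (S35LOC_NU_pow_sub_one hS.loc hwg hwgNU1 lam) huR
    have h5 : S35LOC_NU R (γ * (ρ ^ lam - 1)) := by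
      rw [mul_comm]
      exact S35LOC_NU_mul (S35LOC_NU_pow_sub_one hS.loc hρ hρNU lam) hγ
    have : u - γ = (u * wg ^ lam - γ * ρ ^ lam) - u * (wg ^ lam - 1) + γ * (ρ ^ lam - 1) := by
      ring
    rw [this]
    exact hS.loc _ _ (S35LOC_NU_sub hS.loc h3 h4) h5
  have hρCg1 : S35LOC_Cg π V1 (s H1 * (H1 ^ Q)⁻¹) ρ1 := hρ_1
  have hρCg2 : S35LOC_Cg π V2 (s H2 * (H2 ^ Q)⁻¹) ρ2 := hρ_2
  have hE1 := hE V1 hS.R_le_1 hπ1 hS.nonunit1 hS.rad1 hgCg1 γ1 H1 ρ1 hγ1 hρ1 hρ1NU hρCg1 hh1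
  have hE2 := hE V2 hS.R_le_2 hπ2 hS.nonunit2 hS.rad2 hgCg2 γ2 H2 ρ2 hγ2 hρ2 hρ2NU hρCg2 hh2
  have hγNU : S35LOC_NU R (γ1 - γ2) := by
    have : γ1 - γ2 = (u - γ2) - (u - γ1) := by ring
    rw [this]
    exact S35LOC_NU_sub hS.loc hE2 hE1
  have hbb : b1 = b2 := hb hγNU
  -- Step F: glue `G`
  have hb10 : b1 ≠ 0 := by
    rintro rfl
    obtain ⟨v, -, hGv⟩ := hG1
    rw [zero_mul, zero_mul] at hGv
    exact hG0 hGv
  have hGC1 : S35LOC_Cg π V1 G (b1 * ρ1) :=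
    S35LOC_Cg_trans hπ1 hG1 (S35LOC_Cg_mul hπ1 (S35LOC_Cg_refl b1) hρCg1)
  have hGC2 : S35LOC_Cg π V2 G (b1 * ρ2) := by
    rw [hbb]
    exact S35LOC_Cg_trans hπ2 hG2 (S35LOC_Cg_mul hπ2 (S35LOC_Cg_refl b2) hρCg2)
  obtain ⟨wG, hwG, hwG', hwG0, -, cG, hcG, hGeq⟩ :=
    S35LOC_glue hS.π_ne hS.π_mem hS.R_le_1 hS.R_le_2 hS.nonunit1 hS.loc hS.trans
      (R.mul_mem hb1 hρ1) (by rw [mul_inv]; exact R.mul_mem hb1' hρ1')
      (mul_ne_zero hb10 hρ10) hGC1 hGC2 (by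
        have : b1 * ρ1 - b1 * ρ2 = ((ρ1 - 1) - (ρ2 - 1)) * b1 := by ring
        rw [this]
        exact S35LOC_NU_mul (S35LOC_NU_sub hS.loc hρ1NU hρ2NU) hb1)
  -- Step G: the shape
  have hπ12 : π ∈ (V1 ⊓ V2 : Subring L) := ⟨hπ1, hπ2⟩
  have hnu12 : π⁻¹ ∉ (V1 ⊓ V2 : Subring L) := fun hmem => hS.nonunit1 hmem.1
  have hrad12 : ∀ c ∈ (V1 ⊓ V2 : Subring L), (1 + π * c)⁻¹ ∈ (V1 ⊓ V2 : Subring L) :=
    fun c hc => ⟨hS.rad1 c hc.1, hS.rad2 c hc.2⟩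
  have hR12 : R ≤ (V1 ⊓ V2 : Subring L) := fun x hx => ⟨hS.R_le_1 hx, hS.R_le_2 hx⟩
  have hg12 : S35LOC_Cg π (V1 ⊓ V2) g wg := ⟨cg, hcg, hgeq⟩
  have hG12 : S35LOC_Cg π (V1 ⊓ V2) G wG := ⟨cG, hcG, hGeq⟩
  have hgV : g ∈ (V1 ⊓ V2 : Subring L) := by
    rw [hgeq]
    exact Subring.mul_mem _ (hR12 hwg)
      (Subring.add_mem _ (Subring.one_mem _) (Subring.mul_mem _ hπ12 hcg))
  have hgV' : g⁻¹ ∈ (V1 ⊓ V2 : Subring L) := by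
    rw [hgeq, mul_inv]
    exact Subring.mul_mem _ (hR12 hwg') (hrad12 cg hcg)
  refine ⟨u, g, wG * wg⁻¹, huR, huR', hgF, hgV, hgV', hhug, R.mul_mem hwG hwg', ?_, ?_⟩
  · rw [mul_inv, inv_inv]
    exact R.mul_mem hwG' hwg
  · -- `G ~ wG ~ g (wG / wg)`
    have h1 : S35LOC_Cg π (V1 ⊓ V2) (wG * wg⁻¹ * wg) (wG * wg⁻¹ * g) :=
      S35LOC_Cg_mul hπ12 (S35LOC_Cg_refl _) (S35LOC_Cg_symm hπ12 hnu12 hrad12 hg12)
    have h2 : wG * wg⁻¹ * wg = wG := by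
      rw [mul_assoc, inv_mul_cancel₀ hwg0, mul_one]
    rw [h2] at h1
    obtain ⟨c, hc, hGc⟩ := S35LOC_Cg_trans hπ12 hG12 h1
    exact ⟨c, hc, by rw [hGc]; ring⟩

end Fermat.Agent.S35_helper19_LOCAL
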