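import Mathlib
import Fermat.Agent.S35_helper19_LOCAL
import Fermat.Agent.S35_helper13_LOCALKA
import Fermat.Agent.S35_helper13_GLUEK
import Fermat.Agent.S35_helper8_FCCHART
import Fermat.Agent.S34_helper17_L2KF
import Fermat.Agent.S34_helper13_P1C

/-!
# S35, piece GEO-LOCALK (helper13): the local setup at a crossing point of the finite chart

`N = q N'`, `q ∤ N'`, `A` over `q`, `K1` an admissible Galois-stable level, `σ` a Frobenius lift
at `q`, `m` a crossing point of the chart `S18K_A0 A K1 N` (a maximal ideal through both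
components of the special fibre).

* `S35LK_node`  : node coordinates at `m` in the abstract form (`𝔪_R = (π, T, S)`, `T ∈ π V2`,
  `S ∈ π V1`), from X-L2 (helper17);
* `S35LK_setup` : helper19's `S35LOC_Setup π F1 V1 V2 (locRing A0 m) (act (σ * σ)) (q ^ 2)`.
-/

set_option autoImplicit false
set_option linter.unusedVariables false
set_option linter.unusedSectionVars false
set_option linter.style.haveILetI false

open AlgebraicCurve ModularCurve HahnSeries IntermediateField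

noncomputable section

namespace Fermat.Agent.S35_helper13_LOCALK

open Fermat.Agent.S18_helper9_CDefs Fermat.Agent.S18_helper9_CBasic
  Fermat.Agent.S18_helper25_COREDefs
  Fermat.Agent.S34_helper12_CDefs Fermat.Agent.S18_helper3_LOCRING
  Fermat.Agent.S34_Contracts Fermat.Agent.S34_helper7_LGDefs Fermat.Agent.S34_helper21_ACT
  Fermat.Agent.S34_helper27_C2ADAPT Fermat.Agent.S34_helper27_C2Defs
  Fermat.Agent.S34_helper12_DICH
  Fermat.Agent.S34_helper12_GAMMA Fermat.Agent.S34_helper26_ORDC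
  Fermat.Agent.S34_helper20_V0K Fermat.Agent.S34_helper1_FROBCONG
  Fermat.Agent.S35_helper13_GLUE Fermat.Agent.S35_helper13_GLUEK
  Fermat.Agent.S35_helper13_LOCALKA Fermat.Agent.S35_helper19_LOCAL
  Fermat.Agent.S35_helper8_FCCHART

local notation "Qb" => AlgebraicClosure ℚ
local notation "GQ" => (AlgebraicClosure ℚ ≃ₐ[ℚ] AlgebraicClosure ℚ)

section Node

variable {N : ℕ} [NeZero N] {A : ValuationSubring Qb} {K1 : IntermediateField ℚ Qb}
  {hstab : ∀ σ : GQ, ∀ x ∈ K1, σ x ∈ K1} [IsDiscreteValuationRing (S18K_O1 A K1)]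
variable {j x : LaurentSeries K1} {F1 : Subfield (LaurentSeries K1)}
  {V2 A0 Ainf X : Subring (LaurentSeries K1)}

/-- **Node coordinates in the abstract form**, from X-L2. -/
theorem S35LK_node
    (S : S34C_Setup2 (S18K_O A K1) (S18K_π A K1) j F1 (S18K_V A K1 N) V2 A0 Ainf)
    (hC : Chart (S18K_O A K1) (S18K_π A K1) x F1 (S18K_V A K1 N ⊓ V2) X)
    (hnode : S34LGK_Node N A K1 hstab V2 X)
    (hπ : S18K_π A K1 ∈ X) (m : Ideal X) (hm : m.IsMaximal)
    (hπm : (⟨S18K_π A K1, hπ⟩ : X) ∈ m)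
    (h1 : S34K_Thru (S18K_π A K1) (S18K_V A K1 N) X m)
    (h2 : S34K_Thru (S18K_π A K1) V2 X m) :
    haveI := hm.isPrime
    ∃ (T S' : LaurentSeries K1) (hT : T ∈ locRing X m) (hS : S' ∈ locRing X m),
      (∃ v ∈ V2, T = S18K_π A K1 * v) ∧ (∃ v ∈ S18K_V A K1 N, S' = S18K_π A K1 * v) ∧
      IsLocalRing.maximalIdeal (locRing X m) =
        Ideal.span ({⟨S18K_π A K1, le_locRing X m hπ⟩, ⟨T, hT⟩, ⟨S', hS⟩} :
          Set (locRing X m)) := by
  haveI := hm.isPrime
  have hR := S35GL_locRing_le S hC m h1 h2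
  have hOV := S34GA_O_le S
  obtain ⟨ϖ, k, T, S', c, hND, hor⟩ := hnode hπ m hm hπm h1 h2 1
  have hk : 1 ≤ k := by
    rcases hor with ⟨hc0, hci⟩ | hk
    · by_contra hk0
      have hk0' : k = 0 := by omega
      subst hk0'
      have hTm : (⟨T, le_locRing X m hND.T_mem⟩ : locRing X m) ∈
          IsLocalRing.maximalIdeal (locRing X m) := by
        rw [hND.gen hπ]
        exact Ideal.subset_span (Set.mem_insert_of_mem _ (Set.mem_insert _ _))
      have hTu : IsUnit (⟨T, le_locRing X m hND.T_mem⟩ : locRing X m) := by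
        rw [S35GL_isUnit_iff]
        refine ⟨hND.T_ne, ?_⟩
        have e : T⁻¹ = S' * c⁻¹ := by
          have h3 : T * S' = c := by
            rw [hND.mul_eq, pow_zero, map_one, one_mul]
          apply inv_eq_of_mul_eq_one_right
          rw [← mul_assoc, h3, mul_inv_cancel₀ hc0]
        show T⁻¹ ∈ locRing X m
        rw [e]
        exact (locRing X m).mul_mem (le_locRing X m hND.S_mem) hci
      exact ((IsLocalRing.mem_maximalIdeal _).1 hTm) hTu
    · exact hk
  obtain ⟨k', rfl⟩ : ∃ k', k = k' + 1 := ⟨k - 1, by omega⟩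
  obtain ⟨o, ho, hϖo⟩ := S35GLK_C_nonunit A K1 ϖ hND.ϖ_nonunit
  have hϖA : (ϖ : Qb) ∈ A := A.nonunits_le hND.ϖ_nonunit
  have hpow : (HahnSeries.C (ϖ ^ k') : LaurentSeries K1) ∈ S18K_O A K1 := by
    refine S35GLK_C_mem A K1 _ ?_
    have : ((ϖ ^ k' : K1) : Qb) = (ϖ : Qb) ^ k' := by simp
    rw [this]
    exact A.pow_mem hϖA k'
  have hTS : T * S' = S18K_π A K1 * (o * HahnSeries.C (ϖ ^ k') * c) := by
    rw [hND.mul_eq, pow_succ, map_mul, mul_comm (HahnSeries.C (ϖ ^ k')), hϖo]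
    ring
  refine ⟨T, S', le_locRing X m hND.T_mem, le_locRing X m hND.S_mem, ?_, ?_, hND.gen hπ⟩
  · refine ⟨o * HahnSeries.C (ϖ ^ k') * c * S'⁻¹, ?_, ?_⟩
    · exact V2.mul_mem (V2.mul_mem (V2.mul_mem (hOV ho).2 (hOV hpow).2) (hR hND.c_mem).2)
        hND.S_inv
    · have : T = T * S' * S'⁻¹ := by
        rw [mul_assoc, mul_inv_cancel₀ hND.S_ne, mul_one]
      rw [this, hTS]
      ring
  · refine ⟨o * HahnSeries.C (ϖ ^ k') * c * T⁻¹, ?_, ?_⟩
    · exact Subring.mul_mem _ (Subring.mul_mem _ (Subring.mul_mem _ (hOV ho).1 (hOV hpow).1)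
        (hR hND.c_mem).1) hND.T_inv
    · have : S' = T * S' * T⁻¹ := by
        rw [mul_comm T, mul_assoc, mul_inv_cancel₀ hND.T_ne, mul_one]
      rw [this, hTS]
      ring

end Node

section Main

variable (A : ValuationSubring Qb) (K1 : IntermediateField ℚ Qb)
  (hstab : ∀ σ : GQ, ∀ x ∈ K1, σ x ∈ K1) [IsDiscreteValuationRing (S18K_O1 A K1)]
  (q N' N : ℕ) [NeZero N'] [NeZero N] [NeZero q] (hq : q.Prime) (hqN : ¬ q ∣ N')
  (hN : N = q * N') (σ : GQ)

set_option synthInstance.maxHeartbeats 400000 in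
set_option maxHeartbeats 1000000 in
/-- **GEO-LOCALK**: the local setup of helper19 at a crossing point `m` of the finite chart, for
`s = σ²` (`σ` a Frobenius lift at `q`) and `Q = q²`. -/
theorem S35LK_setup (hA : A.LiesOverPrime q) (h : S18K_Admissible A K1 q)
    (hσ : A.IsFrobeniusAt σ q) (m : Ideal ↥(S18K_A0 A K1 N)) (hm : m.IsMaximal)
    (h1 : S34K_Thru (S18K_π A K1) (S18K_V A K1 N) (S18K_A0 A K1 N) m)
    (h2 : S34K_Thru (S18K_π A K1) (S34V0K_V A K1 q N' N hq hqN hN) (S18K_A0 A K1 N) m) :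
    haveI := hm.isPrime
    S35LOC_Setup (S18K_π A K1) (S18K_F1 K1 N) (S18K_V A K1 N)
      (S34V0K_V A K1 q N' N hq hqN hN) (locRing (S18K_A0 A K1 N) m)
      (S34ACT_act K1 hstab (σ * σ)) (q ^ 2) := by
  haveI := hm.isPrime
  haveI hcz : CharZero (LaurentSeries K1) :=
    charZero_of_injective_algebraMap (algebraMap ℚ (LaurentSeries K1)).injective
  have S := Fermat.Agent.S34_helper13_P1C.S34P1C_setup2 A K1 q N' N hq hqN hN hA
  have hC := S.chart0
  have S1 := S34CA_setup_of_setup2 S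
  have hOX : S18K_O A K1 ≤ S18K_A0 A K1 N := S34C2_O_le (S34CA_setup S1) hC
  have hπ : S18K_π A K1 ∈ S18K_A0 A K1 N := hOX S.π_mem
  have hπm : (⟨S18K_π A K1, hπ⟩ : ↥(S18K_A0 A K1 N)) ∈ m :=
    h1 _ ⟨1, Subring.one_mem _, (mul_one _).symm⟩
  haveI hNoeth : IsNoetherianRing ↥(S18K_A0 A K1 N) :=
    S34CA_chart_noetherian S1 (S18K_j K1) (Or.inl rfl) _ hC
  have hXF : ∀ a ∈ S18K_A0 A K1 N, a ∈ S18K_F1 K1 N := fun a ha => ((hC.mem_iff a).1 ha).2
  have hic : ∀ y ∈ S18K_F1 K1 N, IsIntegral (S18K_A0 A K1 N) y → y ∈ S18K_A0 A K1 N := by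
    intro y hy hint
    exact (hC.mem_iff y).2 ⟨isIntegral_trans' (fun a ha => ((hC.mem_iff a).1 ha).1) hint, hy⟩
  have hR := S35GL_locRing_le S hC m h1 h2
  have hnode := Fermat.Agent.S34_helper17_L2KF.S34L2KF_node_gen q N' N hq hqN hN A hA K1 h hstab
  obtain ⟨T, S', hT, hS, hT2, hS1, hgen⟩ := S35LK_node S hC hnode hπ m hm hπm h1 h2
  have hdec : σ ∈ A.decompositionSubgroup ℚ := hσ.mem_decompositionSubgroup
  have hdec2 : σ * σ ∈ A.decompositionSubgroup ℚ :=
    (A.decompositionSubgroup ℚ).mul_mem hdec hdec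
  have hsA : ∀ a ∈ A, (σ * σ) a ∈ A := (S35FCC_decomp A _ hdec2).1
  have hcross := S35FCC_cross A K1 hstab q N' N hq hqN hN σ hA h hσ m h1 h2
  exact
    { π_ne := S34DI_pi_ne_zero S
      π_mem := le_locRing _ m hπ
      R_le_F := fun r hr => S.V1_le (hR hr).1
      R_le_1 := fun r hr => (hR hr).1
      R_le_2 := fun r hr => (hR hr).2
      nonunit1 := S.V1_nonunit
      nonunit2 := S.V2_nonunit
      rad1 := fun c hc => (S34CA_val1 S).one_add hc
      rad2 := fun c hc => (S34CA_val2 S).one_add hc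
      loc := S35LKA_loc m
      ic := S35LKA_ic m hXF hic
      sF := fun y hy => S34ACT_mem_F1 K1 hstab N _ hy
      sR := S35LKA_sR m _ (fun y => ⟨(hcross y).1, fun hy => ((hcross y).2.2).1 hy⟩)
      sV1 := fun v hv => S34ACT_mem_V K1 hstab A N _ hsA hv
      sV2 := fun v hv => S35FCC_mem_V2 A K1 hstab q N' N hq hqN hN _ hsA hv
      sπ := by
        obtain ⟨e, he, hπe⟩ := S35FCC_pi A K1 hstab _ hdec2
        exact ⟨e, le_locRing _ m (hOX he), hπe⟩
      frob := S35LKA_frob m _ (q ^ 2) hcross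
      trans := S35LKA_trans S hC m h1 h2
        (S35GL_htr_of_span S hC m h1 h2 (le_locRing _ m hπ) hT hS hT2 hS1 hgen)
      br1 := S35LKA_br1 S hC m h1
        (S35LKA_hgen m (fun y hy => (hR hy).1) (le_locRing _ m hπ) hT hS hS1 hgen)
      br2 := S35LKA_br2 S hC m h2
        (S35LKA_hgen' m (fun y hy => (hR hy).2) (le_locRing _ m hπ) hT hS hT2 hgen) }

end Main

end Fermat.Agent.S35_helper13_LOCALK
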