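import Mathlib
import Fermat.Agent.S34_helper13_KEY

/-!
# S35, piece (P3): NORM REDUCTION (helper13)

Generic statement on top of the landed V-COUNT / KEY bricks of S34.

* `S35NR_norm_quotient_mk` : the norm of a finite free algebra over a local ring commutes with
  reduction modulo the maximal ideal (norm analogue of Mathlib's `Algebra.trace_quotient_mk`);
* `S35NR_norm_prod` : the norm of a product algebra is the product of the norms;
* `S35NR_norm_eq_of_pow` : in an algebra of dimension `q` over a field of characteristic `q`,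
  `z ^ q = c` constant implies `N(z) = c`;
* `S35NR_main` : `S` free of rank `q + 1` over the local ring `R` of residue characteristic `q`,
  `𝔪 S = P1 ∩ P2`, `P1`, `P2` coprime, `S / P1 = R / 𝔪`; if `s ≡ a` mod `P1` and `s ^ q ≡ c`
  mod `P2` (`a`, `c` in `R`) then `N_{S/R}(s) ≡ a c` mod `𝔪`;
* `S35NR_val` : the same for two valuation subrings `W1 ≠ W2` of a finite separable extension
  `F'/F` dominating a discrete valuation ring `R` of `F` (`[F' : F] ≤ 1 + q`, `f(W2) ≥ q`);
* `S35NR_abs` : the same in the `Subring L` vocabulary of `S34KEY_abs` (identical hypotheses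
  plus residue characteristic `q`).
-/

set_option autoImplicit false
set_option linter.style.haveILetI false
set_option linter.unusedSectionVars false
set_option linter.unusedVariables false

open IsLocalRing Module IsDedekindDomain
open Fermat.Agent.S34_helper13_VCOUNT Fermat.Agent.S34_helper27_C2Defs
  Fermat.Agent.S34_helper13_KEY

namespace Fermat.Agent.S35_helper13_NORMRED

attribute [local instance] Ideal.Quotient.field

section Quot

variable {R S : Type*} [CommRing R] [CommRing S] [Algebra R S] [IsLocalRing R]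
  [Module.Free R S] [Module.Finite R S]

/-- Norm commutes with reduction modulo the maximal ideal (norm analogue of
`Algebra.trace_quotient_mk`). -/
theorem S35NR_norm_quotient_mk (x : S) :
    Algebra.norm (R ⧸ maximalIdeal R)
        (Ideal.Quotient.mk (Ideal.map (algebraMap R S) (maximalIdeal R)) x) =
      Ideal.Quotient.mk (maximalIdeal R) (Algebra.norm R x) := by
  classical
  let ι := Module.Free.ChooseBasisIndex R S
  let b : Module.Basis ι R S := Module.Free.chooseBasis R S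
  rw [Algebra.norm_eq_matrix_det b, Algebra.norm_eq_matrix_det (basisQuotient b),
    RingHom.map_det]
  congr 1
  ext i j
  simp only [Algebra.leftMulMatrix_apply, Algebra.coe_lmul_eq_mul, LinearMap.toMatrix_apply,
    basisQuotient_apply, LinearMap.mul_apply', RingHom.mapMatrix_apply, Matrix.map_apply,
    ← map_mul, basisQuotient_repr]

end Quot

section Prod

variable {κ A B : Type*} [CommRing κ] [CommRing A] [CommRing B] [Algebra κ A] [Algebra κ B]
  [Module.Free κ A] [Module.Free κ B] [Module.Finite κ A] [Module.Finite κ B]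

/-- The norm of a product algebra is the product of the norms. -/
theorem S35NR_norm_prod (a : A) (b : B) :
    Algebra.norm κ ((a, b) : A × B) = Algebra.norm κ a * Algebra.norm κ b := by
  rw [Algebra.norm_apply, Algebra.norm_apply, Algebra.norm_apply, ← LinearMap.det_prodMap]
  congr 1

end Prod

section Pow

variable {κ A : Type*} [Field κ] [CommRing A] [Algebra κ A] [Module.Finite κ A]

/-- If `z ^ q` is the constant `c` in a `κ`-algebra of dimension `q`, `κ` of characteristic `q`,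
then the norm of `z` is `c`. -/
theorem S35NR_norm_eq_of_pow (q : ℕ) [hq : Fact q.Prime] [CharP κ q]
    (hrank : Module.finrank κ A = q) (z : A) (c : κ) (hz : z ^ q = algebraMap κ A c) :
    Algebra.norm κ z = c := by
  have h1 : Algebra.norm κ z ^ q = c ^ q := by
    rw [← map_pow, hz, Algebra.norm_algebraMap_of_basis (Module.Free.chooseBasis κ A),
      ← Module.finrank_eq_card_chooseBasisIndex, hrank]
  exact frobenius_inj κ q h1

/-- The norm of a constant in a `κ`-algebra of dimension `1`. -/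
theorem S35NR_norm_eq_of_rank_one (hrank : Module.finrank κ A = 1) (c : κ) :
    Algebra.norm κ (algebraMap κ A c) = c := by
  rw [Algebra.norm_algebraMap_of_basis (Module.Free.chooseBasis κ A),
      ← Module.finrank_eq_card_chooseBasisIndex, hrank, pow_one]

end Pow

section Main

variable {R S : Type*} [CommRing R] [CommRing S] [Algebra R S] [IsLocalRing R]
  [Module.Free R S] [Module.Finite R S]

theorem S35NR_liesOver (P : Ideal S) (hP : P ≠ ⊤)
    (hle : Ideal.map (algebraMap R S) (maximalIdeal R) ≤ P) : P.LiesOver (maximalIdeal R) := by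
  refine ⟨?_⟩
  have h1 : maximalIdeal R ≤ P.under R := Ideal.map_le_iff_le_comap.mp hle
  have h2 : P.under R ≠ ⊤ := Ideal.comap_ne_top _ hP
  exact (Ideal.IsMaximal.eq_of_le (maximalIdeal.isMaximal R) h2 h1)

/-- **Norm reduction.**  `S` free of rank `q + 1` over the local ring `R` of residue
characteristic `q`, `𝔪 S = P1 ∩ P2` with `P1`, `P2` coprime, `S / P1` the residue field of `R`.
If `s ≡ a` modulo `P1` and `s ^ q ≡ c` modulo `P2` with `a`, `c` in `R`, then
`N_{S/R}(s) ≡ a c` modulo `𝔪`. -/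
theorem S35NR_main (q : ℕ) [Fact q.Prime] (hchar : (q : R) ∈ maximalIdeal R)
    (hrank : Module.finrank R S = q + 1)
    (P1 P2 : Ideal S) (hP : P1 ⊓ P2 = Ideal.map (algebraMap R S) (maximalIdeal R))
    (hcop : IsCoprime P1 P2) (hP1 : P1 ≠ ⊤) (hP2 : P2 ≠ ⊤)
    (h1 : ∀ s : S, ∃ r : R, s - algebraMap R S r ∈ P1)
    (s : S) (a c : R) (ha : s - algebraMap R S a ∈ P1) (hc : s ^ q - algebraMap R S c ∈ P2) :
    Algebra.norm R s - a * c ∈ maximalIdeal R := by
  haveI : P1.LiesOver (maximalIdeal R) := S35NR_liesOver P1 hP1 (hP ▸ inf_le_left)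
  haveI : P2.LiesOver (maximalIdeal R) := S35NR_liesOver P2 hP2 (hP ▸ inf_le_right)
  haveI : CharP (R ⧸ maximalIdeal R) q := by
    rw [CharP.charP_iff_prime_eq_zero (Fact.out : q.Prime)]
    rw [← map_natCast (Ideal.Quotient.mk (maximalIdeal R)), Ideal.Quotient.eq_zero_iff_mem]
    exact hchar
  -- the Chinese remainder isomorphism
  let e0 : (S ⧸ Ideal.map (algebraMap R S) (maximalIdeal R)) ≃+* (S ⧸ P1) × (S ⧸ P2) :=
    (Ideal.quotEquivOfEq hP.symm).trans (Ideal.quotientInfEquivQuotientProd P1 P2 hcop)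
  have he0 : ∀ x : S, e0 (Ideal.Quotient.mk _ x) =
      (Ideal.Quotient.mk P1 x, Ideal.Quotient.mk P2 x) := by
    intro x
    apply Prod.ext <;> simp [e0]
  let e : (S ⧸ Ideal.map (algebraMap R S) (maximalIdeal R)) ≃ₐ[R ⧸ maximalIdeal R]
      (S ⧸ P1) × (S ⧸ P2) :=
    AlgEquiv.ofRingEquiv (f := e0) (by
      intro x
      obtain ⟨r, rfl⟩ := Ideal.Quotient.mk_surjective x
      have : algebraMap (R ⧸ maximalIdeal R)
          (S ⧸ Ideal.map (algebraMap R S) (maximalIdeal R)) (Ideal.Quotient.mk _ r) =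
          Ideal.Quotient.mk _ (algebraMap R S r) := rfl
      rw [this, he0]
      rfl)
  haveI : Module.Finite (R ⧸ maximalIdeal R)
      (S ⧸ Ideal.map (algebraMap R S) (maximalIdeal R)) :=
    Module.Finite.of_restrictScalars_finite R _ _
  haveI : Module.Finite (R ⧸ maximalIdeal R) (S ⧸ P1) :=
    Module.Finite.of_restrictScalars_finite R _ _
  haveI : Module.Finite (R ⧸ maximalIdeal R) (S ⧸ P2) :=
    Module.Finite.of_restrictScalars_finite R _ _
  -- ranks
  have hr0 : Module.finrank (R ⧸ maximalIdeal R)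
      (S ⧸ Ideal.map (algebraMap R S) (maximalIdeal R)) = q + 1 := by
    rw [IsLocalRing.finrank_quotient_map, hrank]
  have hr1 : Module.finrank (R ⧸ maximalIdeal R) (S ⧸ P1) = 1 := by
    haveI : Nontrivial (S ⧸ P1) := Ideal.Quotient.nontrivial_iff.mpr hP1
    apply finrank_eq_one (1 : S ⧸ P1) one_ne_zero
    intro w
    obtain ⟨x, rfl⟩ := Ideal.Quotient.mk_surjective w
    obtain ⟨r, hr⟩ := h1 x
    refine ⟨Ideal.Quotient.mk _ r, ?_⟩
    rw [Algebra.smul_def, mul_one]
    exact ((Ideal.Quotient.mk_eq_mk_iff_sub_mem _ _).mpr hr).symm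
  have hr2 : Module.finrank (R ⧸ maximalIdeal R) (S ⧸ P2) = q := by
    have h := e.toLinearEquiv.finrank_eq
    rw [hr0, Module.finrank_prod, hr1] at h
    omega
  -- the norm
  have hN : Ideal.Quotient.mk (maximalIdeal R) (Algebra.norm R s) =
      Ideal.Quotient.mk (maximalIdeal R) a * Ideal.Quotient.mk (maximalIdeal R) c := by
    rw [← S35NR_norm_quotient_mk, ← Algebra.norm_eq_of_algEquiv e]
    have : e (Ideal.Quotient.mk _ s) = (Ideal.Quotient.mk P1 s, Ideal.Quotient.mk P2 s) := he0 s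
    rw [this, S35NR_norm_prod]
    congr 1
    · have hs : Ideal.Quotient.mk P1 s =
          algebraMap (R ⧸ maximalIdeal R) (S ⧸ P1) (Ideal.Quotient.mk _ a) :=
        (Ideal.Quotient.mk_eq_mk_iff_sub_mem _ _).mpr ha
      rw [hs, S35NR_norm_eq_of_rank_one hr1]
    · apply S35NR_norm_eq_of_pow q hr2
      rw [← map_pow]
      exact (Ideal.Quotient.mk_eq_mk_iff_sub_mem _ _).mpr hc
  rw [← map_mul, Ideal.Quotient.mk_eq_mk_iff_sub_mem] at hN
  exact hN

end Main

section Val

variable (R F : Type*) {F' : Type*} [CommRing R] [IsDomain R] [IsDiscreteValuationRing R]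
  [Field F] [Field F'] [Algebra R F] [IsFractionRing R F] [Algebra F F'] [Algebra R F']
  [IsScalarTower R F F'] [FiniteDimensional F F'] [Algebra.IsSeparable F F']

include F in
/-- **Norm reduction, valuation-ring form.**  `R` a discrete valuation ring of residue
characteristic `q` with fraction field `F`, `F'/F` finite separable of degree `≤ 1 + q`,
`W1 ≠ W2` valuation subrings of `F'` dominating `R`, with residue degree of `W2` at least `q`.
If `f ∈ W1 ∩ W2`, `f ≡ a` modulo the non-units of `W1` and `f ^ q ≡ c` modulo the non-units of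
`W2` (`a`, `c` in `R`), then `N_{F'/F}(f)` is (the image of) an element of `R` congruent to
`a * c` modulo the maximal ideal. -/
theorem S35NR_val (W1 W2 : ValuationSubring F') (h1 : S34V_Dom R W1) (h2 : S34V_Dom R W2)
    (hne : W1 ≠ W2) (q : ℕ) [Fact q.Prime] (hchar : (q : R) ∈ maximalIdeal R)
    (hab : Module.finrank F F' ≤ 1 + q) (hb : S34V_ResDegGe R W2 q)
    (f : F') (hf1 : f ∈ W1) (hf2 : f ∈ W2) (a c : R)
    (ha : f - algebraMap R F' a ∈ W1.nonunits) (hc : f ^ q - algebraMap R F' c ∈ W2.nonunits) :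
    ∃ r : R, algebraMap R F r = Algebra.norm F f ∧ r - a * c ∈ maximalIdeal R := by
  haveI := S34V_isDedekind R F F'
  haveI := S34V_isFrac R F F'
  haveI := S34V_faithful R F F'
  haveI := S34V_finite R F F'
  haveI := S34V_torsionFree R F F'
  haveI := S34V_flat R F F'
  haveI : Algebra.IsIntegral R (S34V_S R F') := IsIntegralClosure.isIntegral_algebra R F'
  haveI : Module.Free R (S34V_S R F') := Module.free_of_finite_type_torsion_free'
  have ha1 : S34V_ResDegGe R W1 1 := by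
    refine ⟨fun _ => 1, fun _ => W1.one_mem, fun c hc i => ?_⟩
    have : i = 0 := Subsingleton.elim _ _
    subst this
    simp only [Finset.univ_unique, Fin.default_eq_zero, Fin.isValue, mul_one,
      Finset.sum_singleton] at hc
    exact S34V_mem_maximalIdeal_of_mem_nonunits W1 h1 hc
  obtain ⟨-, hu1, hu2, -, -, hint, hdeg⟩ := S34V_two R F W1 W2 h1 h2 hne hab ha1 hb
  have hn : Module.finrank R (S34V_S R F') = q + 1 := by
    rw [← IsFractionRing.finrank_eq R F (S34V_S R F') F', hdeg, add_comm]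
  set P1 := S34V_centreIdeal (S34V_S R F') W1 h1.1 with hP1def
  set P2 := S34V_centreIdeal (S34V_S R F') W2 h2.1 with hP2def
  have hm1 : ∀ x : S34V_S R F', x ∈ P1 ↔ algebraMap (S34V_S R F') F' x ∈ W1.nonunits :=
    S34V_mem_centreIdeal _ W1 h1.1
  have hm2 : ∀ x : S34V_S R F', x ∈ P2 ↔ algebraMap (S34V_S R F') F' x ∈ W2.nonunits :=
    S34V_mem_centreIdeal _ W2 h2.1
  have hP1prime : P1.IsPrime := S34V_centreIdeal_isPrime _ W1 h1.1
  have hP2prime : P2.IsPrime := S34V_centreIdeal_isPrime _ W2 h2.1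
  have hP1max : P1.IsMaximal :=
    hP1prime.isMaximal (S34V_centreIdeal_ne_bot (S34V_S R F') W1 h1)
  have hP2max : P2.IsMaximal :=
    hP2prime.isMaximal (S34V_centreIdeal_ne_bot (S34V_S R F') W2 h2)
  have hP12 : P1 ≠ P2 := by
    intro h
    apply hne
    apply S34V_hos_injective (S34V_S R F') h1 h2
    exact HeightOneSpectrum.ext h
  have hcop : IsCoprime P1 P2 := by
    rw [Ideal.isCoprime_iff_sup_eq]
    exact Ideal.IsMaximal.coprime_of_ne hP1max hP2max hP12
  obtain ⟨ϖ, hϖ⟩ := IsDiscreteValuationRing.exists_irreducible R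
  have hϖm : ϖ ∈ maximalIdeal R := by
    rw [IsLocalRing.mem_maximalIdeal]; exact hϖ.not_isUnit
  have hϖ0 : algebraMap R F' ϖ ≠ 0 := by
    intro h
    exact hϖ.ne_zero ((FaithfulSMul.algebraMap_eq_zero_iff R F').1 h)
  have hP : P1 ⊓ P2 = Ideal.map (algebraMap R (S34V_S R F')) (maximalIdeal R) := by
    apply le_antisymm
    · intro x hx
      have hx1 : algebraMap (S34V_S R F') F' x ∈ W1.nonunits := (hm1 x).1 hx.1
      have hx2 : algebraMap (S34V_S R F') F' x ∈ W2.nonunits := (hm2 x).1 hx.2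
      obtain ⟨y1, hy1, e1⟩ := hu1 ϖ hϖ _ hx1
      obtain ⟨y2, hy2, e2⟩ := hu2 ϖ hϖ _ hx2
      have hy : y1 = y2 := mul_left_cancel₀ hϖ0 (e1.symm.trans e2)
      have hyint : IsIntegral R y1 := (hint y1).2 ⟨hy1, hy ▸ hy2⟩
      have hxe : x = algebraMap R (S34V_S R F') ϖ * ⟨y1, hyint⟩ := by
        apply Subtype.ext
        exact e1
      rw [hxe]
      exact Ideal.mul_mem_right _ _ (Ideal.mem_map_of_mem _ hϖm)
    · rw [Ideal.map_le_iff_le_comap]
      intro r hr
      refine ⟨?_, ?_⟩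
      · show _ ∈ P1
        rw [hm1, ← IsScalarTower.algebraMap_apply]
        exact h1.2 r hr
      · show _ ∈ P2
        rw [hm2, ← IsScalarTower.algebraMap_apply]
        exact h2.2 r hr
  have hres : ∀ s : S34V_S R F', ∃ r : R, s - algebraMap R (S34V_S R F') r ∈ P1 := by
    intro s
    obtain ⟨r, hr⟩ := S34V_two_residue R F W1 W2 h1 h2 hne hab hb
      (S34V_algebraMap_mem W1 h1.1 s)
    refine ⟨r, ?_⟩
    rw [hm1, map_sub, ← IsScalarTower.algebraMap_apply]
    exact hr
  have hfint : IsIntegral R f := (hint f).2 ⟨hf1, hf2⟩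
  set s : S34V_S R F' := ⟨f, hfint⟩ with hs
  have hsa : s - algebraMap R (S34V_S R F') a ∈ P1 := by
    rw [hm1, map_sub, ← IsScalarTower.algebraMap_apply]
    exact ha
  have hsc : s ^ q - algebraMap R (S34V_S R F') c ∈ P2 := by
    rw [hm2, map_sub, map_pow, ← IsScalarTower.algebraMap_apply]
    exact hc
  refine ⟨Algebra.norm R s, ?_, S35NR_main q hchar hn P1 P2 hP hcop hP1max.ne_top hP2max.ne_top
    hres s a c hsa hsc⟩
  have := Algebra.norm_localization (Rₘ := F) (Sₘ := F') R (nonZeroDivisors R) s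
  rw [← this]
  rfl

end Val

section Abs

variable {L : Type*} [Field L] {π : L} {F1' F1 : Subfield L} {V' V1 V2 : Subring L}

/-- **Norm reduction in the `Subring L` vocabulary** (same hypotheses as `S34KEY_abs`, plus
residue characteristic `q`).  For `f ∈ V1 ⊓ V2` with `f ≡ a` modulo `π V1` and `f ^ q ≡ c`
modulo `π V2` (`a`, `c` in `V'`): the norm of `f` from `F1` to `F1'` lies in `V'` and is
congruent to `a * c` modulo `π V'`. -/
theorem S35NR_abs [CharZero L] (hF : F1' ≤ F1)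
    (hV' : S34C2_Val π F1' V')
    (hsep : ∀ x ∈ F1', x ≠ 0 → ∃ (z : ℤ) (u : L), u ∈ V' ∧ u⁻¹ ∈ V' ∧ x = π ^ z * u)
    (h1 : S34C2_Val π F1 V1) (h2 : S34C2_Val π F1 V2) (hV1 : V' ≤ V1) (hV2 : V' ≤ V2)
    (hne : V1 ≠ V2) {q : ℕ} (hq : q.Prime)
    (hdeg : ∃ s : Finset L, s.card ≤ q + 1 ∧ ∀ x ∈ F1, ∃ c : L → L,
      (∀ y, c y ∈ F1') ∧ x = ∑ y ∈ s, c y * y)
    {y x : L} (hy : y ∈ V2) (hx : x ∈ V') (hyx : y ^ q - x = 0 ∨ (y ^ q - x)⁻¹ ∉ V2)
    (hxq : ∀ r ∈ V', ∀ v ∈ V', r ^ q - x ≠ π * v)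
    (hchar : ∃ v ∈ V', (q : L) = π * v)
    {f a c : L} (hf1 : f ∈ V1) (hf2 : f ∈ V2) (ha : a ∈ V') (hc : c ∈ V')
    (hfa : ∃ v ∈ V1, f - a = π * v) (hfc : ∃ v ∈ V2, f ^ q - c = π * v) :
    letI := S34KEY_alg hF
    ∃ r ∈ V', ((Algebra.norm ↥F1' (⟨f, h1.le hf1⟩ : ↥F1) : ↥F1') : L) = r ∧
      ∃ v ∈ V', r - a * c = π * v := by
  classical
  letI := S34KEY_alg hF
  obtain ⟨hfd, hfr⟩ := S34KEY_finrank_le hF hdeg
  haveI := hfd
  haveI : CharZero ↥F1' := by
    refine ⟨fun a b hab => ?_⟩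
    have := congrArg (fun t : ↥F1' => (t : L)) hab
    simpa using this
  haveI : Algebra.IsSeparable ↥F1' ↥F1 := Algebra.IsAlgebraic.isSeparable_of_perfectField
  haveI := S34KEY_isDVR hV' hsep
  letI := S34KEY_algR hF hV'
  haveI : IsScalarTower ↥(S34KEY_vs hV') ↥F1' ↥F1 := IsScalarTower.of_algebraMap_eq (fun _ => rfl)
  have hd1 := S34KEY_dom hF hV' hsep h1 hV1
  have hd2 := S34KEY_dom hF hV' hsep h2 hV2
  have hne' : S34KEY_vs h1 ≠ S34KEY_vs h2 := fun h => hne (S34KEY_vs_injective h1 h2 h)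
  have hab : Module.finrank ↥F1' ↥F1 ≤ 1 + q := by omega
  have hb : S34V_ResDegGe ↥(S34KEY_vs hV') (S34KEY_vs h2) q := by
    refine S34V_resDegGe_of_pow (S34KEY_vs h2) hd2 hq (y := ⟨y, h2.le hy⟩) hy
      (x := S34KEY_ofV hV' ⟨x, hx⟩) ?_ ?_
    · rw [S34KEY_mem_nonunits]
      exact hyx
    · intro r hr
      rw [S34KEY_mem_maximalIdeal hV' hsep] at hr
      obtain ⟨v, hv, hrv⟩ := hr
      exact hxq _ r.2 v hv hrv
  haveI : Fact q.Prime := ⟨hq⟩
  have hchar' : ((q : ℕ) : ↥(S34KEY_vs hV')) ∈ maximalIdeal ↥(S34KEY_vs hV') := by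
    rw [S34KEY_mem_maximalIdeal hV' hsep]
    obtain ⟨v, hv, hqv⟩ := hchar
    refine ⟨v, hv, ?_⟩
    rw [← hqv]
    simp
  have hfa' : (⟨f, h1.le hf1⟩ : ↥F1) -
      algebraMap ↥(S34KEY_vs hV') ↥F1 (S34KEY_ofV hV' ⟨a, ha⟩) ∈ (S34KEY_vs h1).nonunits := by
    rw [S34KEY_mem_nonunits]
    obtain ⟨v, hv, hfv⟩ := hfa
    have : (((⟨f, h1.le hf1⟩ : ↥F1) -
      algebraMap ↥(S34KEY_vs hV') ↥F1 (S34KEY_ofV hV' ⟨a, ha⟩) : ↥F1) : L) = π * v := hfv
    rw [this]
    exact S34KEY_pi_mul_nonunit h1 hv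
  have hfc' : (⟨f, h1.le hf1⟩ : ↥F1) ^ q -
      algebraMap ↥(S34KEY_vs hV') ↥F1 (S34KEY_ofV hV' ⟨c, hc⟩) ∈ (S34KEY_vs h2).nonunits := by
    rw [S34KEY_mem_nonunits]
    obtain ⟨v, hv, hfv⟩ := hfc
    have : (((⟨f, h1.le hf1⟩ : ↥F1) ^ q -
      algebraMap ↥(S34KEY_vs hV') ↥F1 (S34KEY_ofV hV' ⟨c, hc⟩) : ↥F1) : L) = π * v := hfv
    rw [this]
    exact S34KEY_pi_mul_nonunit h2 hv
  obtain ⟨r, hr, hrm⟩ := S35NR_val ↥(S34KEY_vs hV') ↥F1' (S34KEY_vs h1) (S34KEY_vs h2) hd1 hd2
    hne' q hchar' hab hb ⟨f, h1.le hf1⟩ hf1 hf2 (S34KEY_ofV hV' ⟨a, ha⟩)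
    (S34KEY_ofV hV' ⟨c, hc⟩) hfa' hfc'
  rw [S34KEY_mem_maximalIdeal hV' hsep] at hrm
  obtain ⟨v, hv, hrv⟩ := hrm
  refine ⟨((r : ↥F1') : L), r.2, ?_, v, hv, hrv⟩
  rw [← hr]
  rfl

end Abs

end Fermat.Agent.S35_helper13_NORMRED
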