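import Mathlib
import Fermat.Agent.G_helper6_Defs
import Fermat.Agent.S34_helper20_WQ

/-!
# S35, piece P6-B-beta-w4-group (helper14): conjugation by the Atkin–Lehner matrix

For `ℓ u + v N = 1` let `γ_W = S34WQ_gamma ℓ N u v h = [[1, -v], [N, ℓ u]]` and
`W = γ_W · diag (ℓ, 1) = [[ℓ, -v], [N ℓ, ℓ u]]` (determinant `ℓ`).  Conjugation
`g ↦ W g W⁻¹` is an automorphism of `Gamma0 (N ℓ)`; it preserves traces, hence parabolic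
homomorphisms pull back to parabolic homomorphisms.
-/

set_option autoImplicit false

noncomputable section

open UpperHalfPlane CongruenceSubgroup Matrix.SpecialLinearGroup
open scoped MatrixGroups
open Fermat.Agent.S24
open Fermat.Agent.G_helper6_Defs Fermat.Agent.S34_helper20_WQ

namespace Fermat.Agent.S35_helper14_W4G

/-! ### Part 1: integer matrices -/

/-- the Atkin–Lehner matrix `W = [[ℓ, -v], [N ℓ, ℓ u]]` -/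
def S35W4_Wint (N ℓ : ℕ) (u v : ℤ) : Matrix (Fin 2) (Fin 2) ℤ :=
  !![(ℓ : ℤ), -v; (N : ℤ) * (ℓ : ℤ), (ℓ : ℤ) * u]

/-- the adjugate `[[ℓ u, v], [-N ℓ, ℓ]]` of `W` -/
def S35W4_Wadj (N ℓ : ℕ) (u v : ℤ) : Matrix (Fin 2) (Fin 2) ℤ :=
  !![(ℓ : ℤ) * u, v; -((N : ℤ) * (ℓ : ℤ)), (ℓ : ℤ)]

/-- `diag (ℓ, 1)` -/
def S35W4_Dint (ℓ : ℕ) : Matrix (Fin 2) (Fin 2) ℤ :=
  !![(ℓ : ℤ), 0; 0, 1]

theorem S35W4_Wint_eq (N ℓ : ℕ) (u v : ℤ) (h : (ℓ : ℤ) * u + v * (N : ℤ) = 1) :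
    S35W4_Wint N ℓ u v =
      ((S34WQ_gamma ℓ N u v h : SL(2, ℤ)) : Matrix (Fin 2) (Fin 2) ℤ) * S35W4_Dint ℓ := by
  show _ = !![1, -v; (N : ℤ), (ℓ : ℤ) * u] * _
  rw [S35W4_Wint, S35W4_Dint, Matrix.mul_fin_two]
  ext i j
  fin_cases i <;> fin_cases j <;> simp

theorem S35W4_Wint_mul_Wadj (N ℓ : ℕ) (u v : ℤ) (h : (ℓ : ℤ) * u + v * (N : ℤ) = 1) :
    S35W4_Wint N ℓ u v * S35W4_Wadj N ℓ u v = (ℓ : ℤ) • (1 : Matrix (Fin 2) (Fin 2) ℤ) := by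
  rw [S35W4_Wint, S35W4_Wadj, Matrix.mul_fin_two]
  ext i j
  fin_cases i <;> fin_cases j
  · simp
    linear_combination (ℓ : ℤ) * h
  · simp
    ring
  · simp
    ring
  · simp
    linear_combination (ℓ : ℤ) * h

theorem S35W4_Wint_det (N ℓ : ℕ) (u v : ℤ) (h : (ℓ : ℤ) * u + v * (N : ℤ) = 1) :
    (S35W4_Wint N ℓ u v).det = (ℓ : ℤ) := by
  rw [S35W4_Wint, Matrix.det_fin_two_of]
  linear_combination (ℓ : ℤ) * h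

/-- right cancellation of `W` -/
theorem S35W4_cancel (N ℓ : ℕ) [NeZero ℓ] (u v : ℤ) (h : (ℓ : ℤ) * u + v * (N : ℤ) = 1)
    {X Y : Matrix (Fin 2) (Fin 2) ℤ}
    (hXY : X * S35W4_Wint N ℓ u v = Y * S35W4_Wint N ℓ u v) : X = Y := by
  have h1 : X * S35W4_Wint N ℓ u v * S35W4_Wadj N ℓ u v =
      Y * S35W4_Wint N ℓ u v * S35W4_Wadj N ℓ u v := by rw [hXY]
  rw [Matrix.mul_assoc, Matrix.mul_assoc, S35W4_Wint_mul_Wadj N ℓ u v h, Matrix.mul_smul,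
    Matrix.mul_smul, Matrix.mul_one, Matrix.mul_one] at h1
  have hℓ : (ℓ : ℤ) ≠ 0 := by exact_mod_cast NeZero.ne ℓ
  ext i j
  have h2 := congrFun (congrFun h1 i) j
  simp only [Matrix.smul_apply, smul_eq_mul] at h2
  exact mul_left_cancel₀ hℓ h2

/-- the matrix `W g W⁻¹` (junk unless `ℓ ∣ g 1 0`) -/
def S35W4_conjMat (N ℓ : ℕ) (u v : ℤ) (g : Matrix (Fin 2) (Fin 2) ℤ) :
    Matrix (Fin 2) (Fin 2) ℤ :=
  !![(ℓ : ℤ) * g 0 0 * u - v * g 1 0 * u - (N : ℤ) * (ℓ : ℤ) * g 0 1 + (N : ℤ) * v * g 1 1,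
     g 0 0 * v - v * v * (g 1 0 / (ℓ : ℤ)) + (ℓ : ℤ) * g 0 1 - v * g 1 1;
     (N : ℤ) * (ℓ : ℤ) * g 0 0 * u + (ℓ : ℤ) * u * u * g 1 0
       - (N : ℤ) * (N : ℤ) * (ℓ : ℤ) * g 0 1 - (N : ℤ) * (ℓ : ℤ) * u * g 1 1,
     (N : ℤ) * g 0 0 * v + u * g 1 0 * v + (N : ℤ) * (ℓ : ℤ) * g 0 1 + (ℓ : ℤ) * u * g 1 1]

/-- the key identity `(W g W⁻¹) W = W g` -/
theorem S35W4_conjMat_mul_W (N ℓ : ℕ) (u v : ℤ) (h : (ℓ : ℤ) * u + v * (N : ℤ) = 1)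
    (g : Matrix (Fin 2) (Fin 2) ℤ) (hg : (ℓ : ℤ) ∣ g 1 0) :
    S35W4_conjMat N ℓ u v g * S35W4_Wint N ℓ u v = S35W4_Wint N ℓ u v * g := by
  obtain ⟨k, hk⟩ := hg
  have hdiv : (ℓ : ℤ) * (g 1 0 / (ℓ : ℤ)) = g 1 0 := by
    rcases eq_or_ne (ℓ : ℤ) 0 with h0 | h0
    · rw [hk, h0]; simp
    · rw [hk, Int.mul_ediv_cancel_left _ h0]
  have hg' : g = !![g 0 0, g 0 1; g 1 0, g 1 1] := by
    ext i j
    fin_cases i <;> fin_cases j <;> rfl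
  rw [S35W4_conjMat, S35W4_Wint]
  conv_rhs => rw [hg']
  rw [Matrix.mul_fin_two, Matrix.mul_fin_two]
  generalize g 1 0 / (ℓ : ℤ) = k' at hdiv ⊢
  generalize g 0 0 = a at hdiv ⊢
  generalize g 0 1 = b at hdiv ⊢
  generalize g 1 0 = c at hdiv ⊢
  generalize g 1 1 = d at hdiv ⊢
  ext i j
  fin_cases i <;> fin_cases j
  · simp only [Fin.zero_eta, Fin.isValue, Matrix.of_apply, Matrix.cons_val', Matrix.cons_val_zero,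
      Matrix.cons_val_fin_one]
    linear_combination ((ℓ : ℤ) * a - v * c) * h - (N : ℤ) * v * v * hdiv
  · simp only [Fin.zero_eta, Fin.mk_one, Fin.isValue, Matrix.of_apply, Matrix.cons_val',
      Matrix.cons_val_zero, Matrix.cons_val_one, Matrix.cons_val_fin_one]
    linear_combination ((ℓ : ℤ) * b - v * d) * h - v * v * u * hdiv
  · simp only [Fin.zero_eta, Fin.mk_one, Fin.isValue, Matrix.of_apply, Matrix.cons_val',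
      Matrix.cons_val_zero, Matrix.cons_val_one, Matrix.cons_val_fin_one]
    linear_combination ((N : ℤ) * (ℓ : ℤ) * a + (ℓ : ℤ) * u * c) * h
  · simp only [Fin.mk_one, Fin.isValue, Matrix.of_apply, Matrix.cons_val',
      Matrix.cons_val_one, Matrix.cons_val_fin_one]
    linear_combination ((N : ℤ) * (ℓ : ℤ) * b + (ℓ : ℤ) * u * d) * h

/-- the same identity against `γ_W` alone: `(W g W⁻¹) γ_W = γ_W (D g D⁻¹)` -/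
theorem S35W4_conjMat_mul_gamma (N ℓ : ℕ) (u v : ℤ) (h : (ℓ : ℤ) * u + v * (N : ℤ) = 1)
    (g : Matrix (Fin 2) (Fin 2) ℤ) (hg : (ℓ : ℤ) ∣ g 1 0) :
    S35W4_conjMat N ℓ u v g * ((S34WQ_gamma ℓ N u v h : SL(2, ℤ)) : Matrix (Fin 2) (Fin 2) ℤ) =
      ((S34WQ_gamma ℓ N u v h : SL(2, ℤ)) : Matrix (Fin 2) (Fin 2) ℤ) * PG_conjMat ℓ g := by
  obtain ⟨k, hk⟩ := hg
  have hdiv : (ℓ : ℤ) * (g 1 0 / (ℓ : ℤ)) = g 1 0 := by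
    rcases eq_or_ne (ℓ : ℤ) 0 with h0 | h0
    · rw [hk, h0]; simp
    · rw [hk, Int.mul_ediv_cancel_left _ h0]
  show _ * !![1, -v; (N : ℤ), (ℓ : ℤ) * u] = !![1, -v; (N : ℤ), (ℓ : ℤ) * u] * _
  rw [S35W4_conjMat, PG_conjMat, Matrix.mul_fin_two, Matrix.mul_fin_two]
  generalize g 1 0 / (ℓ : ℤ) = k' at hdiv ⊢
  generalize g 0 0 = a at hdiv ⊢
  generalize g 0 1 = b at hdiv ⊢
  generalize g 1 0 = c at hdiv ⊢
  generalize g 1 1 = d at hdiv ⊢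
  ext i j
  fin_cases i <;> fin_cases j
  · simp only [Fin.zero_eta, Fin.isValue, Matrix.of_apply, Matrix.cons_val', Matrix.cons_val_zero,
      Matrix.cons_val_fin_one]
    linear_combination (a - v * k') * h + v * u * hdiv
  · simp only [Fin.zero_eta, Fin.mk_one, Fin.isValue, Matrix.of_apply, Matrix.cons_val',
      Matrix.cons_val_zero, Matrix.cons_val_one, Matrix.cons_val_fin_one]
    linear_combination ((ℓ : ℤ) * b - v * d) * h - v * v * u * hdiv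
  · simp only [Fin.zero_eta, Fin.mk_one, Fin.isValue, Matrix.of_apply, Matrix.cons_val',
      Matrix.cons_val_zero, Matrix.cons_val_one, Matrix.cons_val_fin_one]
    linear_combination ((N : ℤ) * a + u * c) * h - u * hdiv
  · simp only [Fin.mk_one, Fin.isValue, Matrix.of_apply, Matrix.cons_val',
      Matrix.cons_val_one, Matrix.cons_val_fin_one]
    linear_combination ((N : ℤ) * (ℓ : ℤ) * b + (ℓ : ℤ) * u * d) * h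

theorem S35W4_conjMat_det (N ℓ : ℕ) [NeZero ℓ] (u v : ℤ) (h : (ℓ : ℤ) * u + v * (N : ℤ) = 1)
    (g : Matrix (Fin 2) (Fin 2) ℤ) (hg : (ℓ : ℤ) ∣ g 1 0) :
    (S35W4_conjMat N ℓ u v g).det = g.det := by
  have h1 := congrArg Matrix.det (S35W4_conjMat_mul_W N ℓ u v h g hg)
  rw [Matrix.det_mul, Matrix.det_mul, S35W4_Wint_det N ℓ u v h] at h1
  have hℓ : (ℓ : ℤ) ≠ 0 := by exact_mod_cast NeZero.ne ℓ
  exact mul_right_cancel₀ hℓ (h1.trans (mul_comm _ _))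

theorem S35W4_conjMat_trace (N ℓ : ℕ) (u v : ℤ) (h : (ℓ : ℤ) * u + v * (N : ℤ) = 1)
    (g : Matrix (Fin 2) (Fin 2) ℤ) :
    (S35W4_conjMat N ℓ u v g).trace = g.trace := by
  rw [Matrix.trace_fin_two, Matrix.trace_fin_two, S35W4_conjMat]
  simp only [Fin.isValue, Matrix.of_apply, Matrix.cons_val', Matrix.cons_val_zero,
    Matrix.cons_val_one, Matrix.cons_val_fin_one]
  linear_combination (g 0 0 + g 1 1) * h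

theorem S35W4_conjMat_one (N ℓ : ℕ) [NeZero ℓ] (u v : ℤ) (h : (ℓ : ℤ) * u + v * (N : ℤ) = 1) :
    S35W4_conjMat N ℓ u v 1 = 1 := by
  apply S35W4_cancel N ℓ u v h
  rw [S35W4_conjMat_mul_W N ℓ u v h 1 (by simp), Matrix.mul_one, Matrix.one_mul]

theorem S35W4_dvd_mul (ℓ : ℕ) (g g' : Matrix (Fin 2) (Fin 2) ℤ)
    (hg : (ℓ : ℤ) ∣ g 1 0) (hg' : (ℓ : ℤ) ∣ g' 1 0) : (ℓ : ℤ) ∣ (g * g') 1 0 := by
  rw [Matrix.mul_apply, Fin.sum_univ_two]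
  exact dvd_add (Dvd.dvd.mul_right hg _) (Dvd.dvd.mul_left hg' _)

theorem S35W4_conjMat_mul (N ℓ : ℕ) [NeZero ℓ] (u v : ℤ) (h : (ℓ : ℤ) * u + v * (N : ℤ) = 1)
    (g g' : Matrix (Fin 2) (Fin 2) ℤ) (hg : (ℓ : ℤ) ∣ g 1 0) (hg' : (ℓ : ℤ) ∣ g' 1 0) :
    S35W4_conjMat N ℓ u v (g * g') = S35W4_conjMat N ℓ u v g * S35W4_conjMat N ℓ u v g' := by
  apply S35W4_cancel N ℓ u v h
  have e1 := S35W4_conjMat_mul_W N ℓ u v h (g * g') (S35W4_dvd_mul ℓ g g' hg hg')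
  have e2 := S35W4_conjMat_mul_W N ℓ u v h g hg
  have e3 := S35W4_conjMat_mul_W N ℓ u v h g' hg'
  calc S35W4_conjMat N ℓ u v (g * g') * S35W4_Wint N ℓ u v
      = S35W4_Wint N ℓ u v * (g * g') := e1
    _ = (S35W4_Wint N ℓ u v * g) * g' := (Matrix.mul_assoc _ _ _).symm
    _ = (S35W4_conjMat N ℓ u v g * S35W4_Wint N ℓ u v) * g' := by rw [e2]
    _ = S35W4_conjMat N ℓ u v g * (S35W4_Wint N ℓ u v * g') := Matrix.mul_assoc _ _ _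
    _ = S35W4_conjMat N ℓ u v g * (S35W4_conjMat N ℓ u v g' * S35W4_Wint N ℓ u v) := by rw [e3]
    _ = S35W4_conjMat N ℓ u v g * S35W4_conjMat N ℓ u v g' * S35W4_Wint N ℓ u v :=
        (Matrix.mul_assoc _ _ _).symm

/-- the lower left entry of `W g W⁻¹` is divisible by `N ℓ` -/
theorem S35W4_conjMat_dvd (N ℓ : ℕ) (u v : ℤ) (g : Matrix (Fin 2) (Fin 2) ℤ)
    (hg : ((N * ℓ : ℕ) : ℤ) ∣ g 1 0) :
    ((N * ℓ : ℕ) : ℤ) ∣ S35W4_conjMat N ℓ u v g 1 0 := by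
  obtain ⟨k, hk⟩ := hg
  refine ⟨g 0 0 * u + (ℓ : ℤ) * u * u * k - (N : ℤ) * g 0 1 - u * g 1 1, ?_⟩
  rw [S35W4_conjMat]
  simp only [Fin.isValue, Matrix.of_apply, Matrix.cons_val', Matrix.cons_val_zero,
    Matrix.cons_val_one, Matrix.cons_val_fin_one]
  rw [hk]
  push_cast
  ring

theorem S35W4_dvd_of_mem {N ℓ : ℕ} {g : SL(2, ℤ)} (hg : g ∈ Gamma0 (N * ℓ)) :
    ((N * ℓ : ℕ) : ℤ) ∣ (g : Matrix (Fin 2) (Fin 2) ℤ) 1 0 := by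
  rw [Gamma0_mem, ZMod.intCast_zmod_eq_zero_iff_dvd] at hg
  exact hg

theorem S35W4_dvd_of_mem' {N ℓ : ℕ} {g : SL(2, ℤ)} (hg : g ∈ Gamma0 (N * ℓ)) :
    (ℓ : ℤ) ∣ (g : Matrix (Fin 2) (Fin 2) ℤ) 1 0 :=
  Dvd.dvd.trans ⟨(N : ℤ), by push_cast; ring⟩ (S35W4_dvd_of_mem hg)

/-! ### Part 2: the automorphism of `Gamma0 (N ℓ)` -/

/-- `W g W⁻¹` in `SL(2, ℤ)` -/
def S35W4_conjSL (N ℓ : ℕ) [NeZero ℓ] (u v : ℤ) (h : (ℓ : ℤ) * u + v * (N : ℤ) = 1)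
    (g : SL(2, ℤ)) (hg : (ℓ : ℤ) ∣ (g : Matrix (Fin 2) (Fin 2) ℤ) 1 0) : SL(2, ℤ) :=
  ⟨S35W4_conjMat N ℓ u v (g : Matrix (Fin 2) (Fin 2) ℤ), by
    rw [S35W4_conjMat_det N ℓ u v h _ hg]; exact g.2⟩

theorem S35W4_conjSL_coe (N ℓ : ℕ) [NeZero ℓ] (u v : ℤ) (h : (ℓ : ℤ) * u + v * (N : ℤ) = 1)
    (g : SL(2, ℤ)) (hg : (ℓ : ℤ) ∣ (g : Matrix (Fin 2) (Fin 2) ℤ) 1 0) :
    ((S35W4_conjSL N ℓ u v h g hg : SL(2, ℤ)) : Matrix (Fin 2) (Fin 2) ℤ) =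
      S35W4_conjMat N ℓ u v (g : Matrix (Fin 2) (Fin 2) ℤ) := rfl

theorem S35W4_conjSL_mem (N ℓ : ℕ) [NeZero ℓ] (u v : ℤ) (h : (ℓ : ℤ) * u + v * (N : ℤ) = 1)
    (g : SL(2, ℤ)) (hg : g ∈ Gamma0 (N * ℓ)) :
    S35W4_conjSL N ℓ u v h g (S35W4_dvd_of_mem' hg) ∈ Gamma0 (N * ℓ) := by
  rw [Gamma0_mem, ZMod.intCast_zmod_eq_zero_iff_dvd]
  exact S35W4_conjMat_dvd N ℓ u v _ (S35W4_dvd_of_mem hg)

/-- **conjugation by the Atkin–Lehner matrix** `W = γ_W · diag (ℓ, 1)`, `g ↦ W g W⁻¹`, as an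
endomorphism of `Gamma0 (N ℓ)` -/
def S35W4_conj (N ℓ : ℕ) [NeZero N] [NeZero ℓ] (u v : ℤ) (h : (ℓ : ℤ) * u + v * (N : ℤ) = 1) :
    Gamma0 (N * ℓ) →* Gamma0 (N * ℓ) where
  toFun g := ⟨S35W4_conjSL N ℓ u v h (g : SL(2, ℤ)) (S35W4_dvd_of_mem' g.2),
    S35W4_conjSL_mem N ℓ u v h (g : SL(2, ℤ)) g.2⟩
  map_one' := by
    apply Subtype.ext
    apply Subtype.ext
    exact S35W4_conjMat_one N ℓ u v h
  map_mul' g g' := by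
    apply Subtype.ext
    apply Subtype.ext
    exact S35W4_conjMat_mul N ℓ u v h _ _ (S35W4_dvd_of_mem' g.2) (S35W4_dvd_of_mem' g'.2)

theorem S35W4_conj_coe (N ℓ : ℕ) [NeZero N] [NeZero ℓ] (u v : ℤ)
    (h : (ℓ : ℤ) * u + v * (N : ℤ) = 1) (g : Gamma0 (N * ℓ)) :
    (((S35W4_conj N ℓ u v h g : Gamma0 (N * ℓ)) : SL(2, ℤ)) : Matrix (Fin 2) (Fin 2) ℤ) =
      S35W4_conjMat N ℓ u v (((g : Gamma0 (N * ℓ)) : SL(2, ℤ)) : Matrix (Fin 2) (Fin 2) ℤ) := rfl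

/-- the integral matrix identity `(conj g) W = W g` -/
theorem S35W4_conj_int (N ℓ : ℕ) [NeZero N] [NeZero ℓ] (u v : ℤ)
    (h : (ℓ : ℤ) * u + v * (N : ℤ) = 1) (g : Gamma0 (N * ℓ)) :
    (((S35W4_conj N ℓ u v h g : Gamma0 (N * ℓ)) : SL(2, ℤ)) : Matrix (Fin 2) (Fin 2) ℤ) *
        S35W4_Wint N ℓ u v =
      S35W4_Wint N ℓ u v * (((g : Gamma0 (N * ℓ)) : SL(2, ℤ)) : Matrix (Fin 2) (Fin 2) ℤ) :=
  S35W4_conjMat_mul_W N ℓ u v h _ (S35W4_dvd_of_mem' g.2)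

/-- `conj g = γ_W (D g D⁻¹) γ_W⁻¹` in `SL(2, ℤ)`, `D g D⁻¹ = PG_conjSL ℓ g` -/
theorem S35W4_conj_gamma (N ℓ : ℕ) [NeZero N] [NeZero ℓ] (u v : ℤ)
    (h : (ℓ : ℤ) * u + v * (N : ℤ) = 1) (g : Gamma0 (N * ℓ)) :
    ((S35W4_conj N ℓ u v h g : Gamma0 (N * ℓ)) : SL(2, ℤ)) * S34WQ_gamma ℓ N u v h =
      S34WQ_gamma ℓ N u v h * PG_conjSL ℓ (g : SL(2, ℤ)) (S35W4_dvd_of_mem' g.2) := by
  apply Subtype.ext
  exact S35W4_conjMat_mul_gamma N ℓ u v h _ (S35W4_dvd_of_mem' g.2)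

theorem S35W4_conj_trace (N ℓ : ℕ) [NeZero N] [NeZero ℓ] (u v : ℤ)
    (h : (ℓ : ℤ) * u + v * (N : ℤ) = 1) (g : Gamma0 (N * ℓ)) :
    (((S35W4_conj N ℓ u v h g : Gamma0 (N * ℓ)) : SL(2, ℤ)) : Matrix (Fin 2) (Fin 2) ℤ).trace =
      (((g : Gamma0 (N * ℓ)) : SL(2, ℤ)) : Matrix (Fin 2) (Fin 2) ℤ).trace :=
  S35W4_conjMat_trace N ℓ u v h _

/-! ### Part 3: the identity in `GL (Fin 2) ℝ` and on the upper half plane -/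

/-- `diag (ℓ, 1)` in `GL (Fin 2) ℝ` -/
def S35W4_Dmat (ℓ : ℕ) [NeZero ℓ] : GL (Fin 2) ℝ :=
  Matrix.GeneralLinearGroup.mkOfDetNeZero !![(ℓ : ℝ), 0; 0, 1] (by
    rw [Matrix.det_fin_two_of]
    simpa using NeZero.ne ℓ)

theorem S35W4_Dmat_coe (ℓ : ℕ) [NeZero ℓ] :
    ((S35W4_Dmat ℓ : GL (Fin 2) ℝ) : Matrix (Fin 2) (Fin 2) ℝ) = !![(ℓ : ℝ), 0; 0, 1] := rfl

theorem S35W4_Dmat_coe_map (ℓ : ℕ) [NeZero ℓ] :
    ((S35W4_Dmat ℓ : GL (Fin 2) ℝ) : Matrix (Fin 2) (Fin 2) ℝ) =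
      (S35W4_Dint ℓ).map (algebraMap ℤ ℝ) := by
  rw [S35W4_Dmat_coe, S35W4_Dint]
  ext i j
  fin_cases i <;> fin_cases j <;> simp

/-- **the Atkin–Lehner matrix** `W = γ_W · diag (ℓ, 1)` in `GL (Fin 2) ℝ` -/
def S35W4_Wmat (N ℓ : ℕ) [NeZero N] [NeZero ℓ] (u v : ℤ) (h : (ℓ : ℤ) * u + v * (N : ℤ) = 1) :
    GL (Fin 2) ℝ :=
  mapGL ℝ (S34WQ_gamma ℓ N u v h) * S35W4_Dmat ℓ

theorem S35W4_Wmat_def (N ℓ : ℕ) [NeZero N] [NeZero ℓ] (u v : ℤ)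
    (h : (ℓ : ℤ) * u + v * (N : ℤ) = 1) :
    S35W4_Wmat N ℓ u v h = mapGL ℝ (S34WQ_gamma ℓ N u v h) * S35W4_Dmat ℓ := rfl

theorem S35W4_mapGL_coe (g : SL(2, ℤ)) :
    ((mapGL ℝ g : GL (Fin 2) ℝ) : Matrix (Fin 2) (Fin 2) ℝ) =
      (g : Matrix (Fin 2) (Fin 2) ℤ).map (algebraMap ℤ ℝ) := by
  rw [mapGL_coe_matrix]
  rfl

theorem S35W4_Wmat_coe (N ℓ : ℕ) [NeZero N] [NeZero ℓ] (u v : ℤ)
    (h : (ℓ : ℤ) * u + v * (N : ℤ) = 1) :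
    ((S35W4_Wmat N ℓ u v h : GL (Fin 2) ℝ) : Matrix (Fin 2) (Fin 2) ℝ) =
      (S35W4_Wint N ℓ u v).map (algebraMap ℤ ℝ) := by
  rw [S35W4_Wmat, Units.val_mul, S35W4_mapGL_coe, S35W4_Dmat_coe_map, ← Matrix.map_mul,
    ← S35W4_Wint_eq N ℓ u v h]

theorem S35W4_Wmat_det (N ℓ : ℕ) [NeZero N] [NeZero ℓ] (u v : ℤ)
    (h : (ℓ : ℤ) * u + v * (N : ℤ) = 1) :
    ((S35W4_Wmat N ℓ u v h : GL (Fin 2) ℝ) : Matrix (Fin 2) (Fin 2) ℝ).det = (ℓ : ℝ) := by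
  have h1 := RingHom.map_det (algebraMap ℤ ℝ) (S35W4_Wint N ℓ u v)
  rw [RingHom.mapMatrix_apply] at h1
  rw [S35W4_Wmat_coe, ← h1, S35W4_Wint_det N ℓ u v h]
  simp

/-- **the matrix identity** `(conj g) W = W g` in `GL (Fin 2) ℝ` -/
theorem S35W4_conj_mat (N ℓ : ℕ) [NeZero N] [NeZero ℓ] (u v : ℤ)
    (h : (ℓ : ℤ) * u + v * (N : ℤ) = 1) (g : Gamma0 (N * ℓ)) :
    mapGL ℝ ((S35W4_conj N ℓ u v h g : Gamma0 (N * ℓ)) : SL(2, ℤ)) * S35W4_Wmat N ℓ u v h =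
      S35W4_Wmat N ℓ u v h * mapGL ℝ ((g : Gamma0 (N * ℓ)) : SL(2, ℤ)) := by
  apply Units.ext
  rw [Units.val_mul, Units.val_mul, S35W4_mapGL_coe, S35W4_mapGL_coe, S35W4_Wmat_coe,
    ← Matrix.map_mul, ← Matrix.map_mul, S35W4_conj_int N ℓ u v h g]

/-- `diag (ℓ, 1)` acts on the upper half plane as `z ↦ ℓ z` -/
theorem S35W4_Dmat_smul (ℓ : ℕ) [NeZero ℓ] (z : ℍ) : S35W4_Dmat ℓ • z = dmul ℓ z := by
  have hℓ : 0 < ℓ := Nat.pos_of_ne_zero (NeZero.ne ℓ)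
  apply UpperHalfPlane.ext
  rw [Fermat.Agent.S24_helper27_J1.dmul_coe ℓ hℓ, UpperHalfPlane.coe_smul_of_det_pos]
  · simp [UpperHalfPlane.num, UpperHalfPlane.denom, S35W4_Dmat_coe]
  · rw [Matrix.GeneralLinearGroup.val_det_apply, S35W4_Dmat_coe, Matrix.det_fin_two_of]
    simpa using hℓ

/-- `W z = γ_W (ℓ z)` -/
theorem S35W4_Wmat_smul (N ℓ : ℕ) [NeZero N] [NeZero ℓ] (u v : ℤ)
    (h : (ℓ : ℤ) * u + v * (N : ℤ) = 1) (z : ℍ) :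
    S35W4_Wmat N ℓ u v h • z = S34WQ_gamma ℓ N u v h • dmul ℓ z := by
  rw [S35W4_Wmat, mul_smul, S35W4_Dmat_smul]
  rfl

/-- **the identity on the upper half plane**: `(conj g) (W z) = W (g z)`, with
`W z = γ_W (ℓ z)` -/
theorem S35W4_conj_smul (N ℓ : ℕ) [NeZero N] [NeZero ℓ] (u v : ℤ)
    (h : (ℓ : ℤ) * u + v * (N : ℤ) = 1) (g : Gamma0 (N * ℓ)) (z : ℍ) :
    ((S35W4_conj N ℓ u v h g : Gamma0 (N * ℓ)) : SL(2, ℤ)) •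
        (S34WQ_gamma ℓ N u v h • dmul ℓ z) =
      S34WQ_gamma ℓ N u v h • dmul ℓ (((g : Gamma0 (N * ℓ)) : SL(2, ℤ)) • z) := by
  rw [← S35W4_Wmat_smul, ← S35W4_Wmat_smul]
  show mapGL ℝ ((S35W4_conj N ℓ u v h g : Gamma0 (N * ℓ)) : SL(2, ℤ)) • _ =
    S35W4_Wmat N ℓ u v h • (mapGL ℝ ((g : Gamma0 (N * ℓ)) : SL(2, ℤ)) • z)
  rw [← mul_smul, ← mul_smul, S35W4_conj_mat]

/-! ### Part 4: the pull-back on parabolic homomorphisms and on characters -/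

/-- `c ↦ c ∘ conj` on all homomorphisms -/
def S35W4_pullHom (N ℓ : ℕ) [NeZero N] [NeZero ℓ] (u v : ℤ)
    (h : (ℓ : ℤ) * u + v * (N : ℤ) = 1) {A : Type*} [AddCommGroup A] :
    (Additive (Gamma0 (N * ℓ)) →+ A) →+ (Additive (Gamma0 (N * ℓ)) →+ A) where
  toFun c := c.comp (MonoidHom.toAdditive (S35W4_conj N ℓ u v h))
  map_zero' := rfl
  map_add' _ _ := rfl

theorem S35W4_pullHom_apply (N ℓ : ℕ) [NeZero N] [NeZero ℓ] (u v : ℤ)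
    (h : (ℓ : ℤ) * u + v * (N : ℤ) = 1) {A : Type*} [AddCommGroup A]
    (c : Additive (Gamma0 (N * ℓ)) →+ A) (g : Gamma0 (N * ℓ)) :
    S35W4_pullHom N ℓ u v h c (Additive.ofMul g) =
      c (Additive.ofMul (S35W4_conj N ℓ u v h g)) := rfl

theorem S35W4_pullHom_parabolic (N ℓ : ℕ) [NeZero N] [NeZero ℓ] (u v : ℤ)
    (h : (ℓ : ℤ) * u + v * (N : ℤ) = 1) {A : Type*} [AddCommGroup A]
    {c : Additive (Gamma0 (N * ℓ)) →+ A}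
    (hc : ModularCurve.Period.IsParabolicHom (Gamma0 (N * ℓ)) c) :
    ModularCurve.Period.IsParabolicHom (Gamma0 (N * ℓ)) (S35W4_pullHom N ℓ u v h c) := by
  intro g hg
  rw [S35W4_pullHom_apply]
  apply hc
  rw [S35W4_conj_trace]
  exact hg

/-- **the pull-back** `c ↦ c ∘ conj` on the lattice of integral parabolic homomorphisms -/
def S35W4_pull (N ℓ : ℕ) [NeZero N] [NeZero ℓ] (u v : ℤ)
    (h : (ℓ : ℤ) * u + v * (N : ℤ) = 1) : PG_M (N * ℓ) →+ PG_M (N * ℓ) where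
  toFun c := ⟨S35W4_pullHom N ℓ u v h (c : Additive (Gamma0 (N * ℓ)) →+ ℤ),
    S35W4_pullHom_parabolic N ℓ u v h c.2⟩
  map_zero' := rfl
  map_add' _ _ := rfl

theorem S35W4_pull_coe (N ℓ : ℕ) [NeZero N] [NeZero ℓ] (u v : ℤ)
    (h : (ℓ : ℤ) * u + v * (N : ℤ) = 1) (c : PG_M (N * ℓ)) :
    ((S35W4_pull N ℓ u v h c : PG_M (N * ℓ)) : Additive (Gamma0 (N * ℓ)) →+ ℤ) =
      S35W4_pullHom N ℓ u v h (c : Additive (Gamma0 (N * ℓ)) →+ ℤ) := rfl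

theorem S35W4_pull_apply (N ℓ : ℕ) [NeZero N] [NeZero ℓ] (u v : ℤ)
    (h : (ℓ : ℤ) * u + v * (N : ℤ) = 1) (c : PG_M (N * ℓ)) (g : Gamma0 (N * ℓ)) :
    ((S35W4_pull N ℓ u v h c : PG_M (N * ℓ)) : Additive (Gamma0 (N * ℓ)) →+ ℤ)
        (Additive.ofMul g) =
      (c : Additive (Gamma0 (N * ℓ)) →+ ℤ) (Additive.ofMul (S35W4_conj N ℓ u v h g)) := rfl

/-- `PG_chi` of the pull-back on all homomorphisms -/
theorem S35W4_chi_hom (N ℓ : ℕ) [NeZero N] [NeZero ℓ] (u v : ℤ)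
    (h : (ℓ : ℤ) * u + v * (N : ℤ) = 1) (m : ℕ) (c : Additive (Gamma0 (N * ℓ)) →+ ℤ) :
    PG_chi (N * ℓ) m (S35W4_pullHom N ℓ u v h c) =
      (PG_chi (N * ℓ) m c).comp (S35W4_conj N ℓ u v h) := by
  ext g
  rfl

/-- **`PG_chi` of the pull-back is `PG_chi ∘ conj`** -/
theorem S35W4_chi (N ℓ : ℕ) [NeZero N] [NeZero ℓ] (u v : ℤ)
    (h : (ℓ : ℤ) * u + v * (N : ℤ) = 1) (m : ℕ) (c : PG_M (N * ℓ)) :
    PG_chi (N * ℓ) m ((S35W4_pull N ℓ u v h c : PG_M (N * ℓ)) : Additive (Gamma0 (N * ℓ)) →+ ℤ) =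
      (PG_chi (N * ℓ) m (c : Additive (Gamma0 (N * ℓ)) →+ ℤ)).comp (S35W4_conj N ℓ u v h) :=
  S35W4_chi_hom N ℓ u v h m _

/-- good characters pull back to good characters -/
theorem S35W4_goodChar (N ℓ : ℕ) [NeZero N] [NeZero ℓ] (u v : ℤ)
    (h : (ℓ : ℤ) * u + v * (N : ℤ) = 1) {χ : Gamma0 (N * ℓ) →* ℂˣ}
    (hχ : PG_IsGoodChar (N * ℓ) χ) :
    PG_IsGoodChar (N * ℓ) (χ.comp (S35W4_conj N ℓ u v h)) := by
  obtain ⟨n, hn, hfin⟩ := hχ.fin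
  refine ⟨⟨n, hn, fun γ => hfin _⟩, fun γ hγ => ?_, fun γ k hk hγ => ?_⟩
  · show χ (S35W4_conj N ℓ u v h γ) = 1
    apply hχ.par
    rw [S35W4_conj_trace]
    exact hγ
  · show χ (S35W4_conj N ℓ u v h γ) = 1
    apply hχ.tors _ k hk
    rw [← map_pow, hγ, map_one]

end Fermat.Agent.S35_helper14_W4G
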