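import Mathlib
import Fermat.Agent.S34_helper1_FROBCONG
import Fermat.Agent.S34_helper21_ACT
import Fermat.Agent.S34_helper20_V0K
import Fermat.Agent.S34_helper13_HJQM

/-!
# S35, GEO piece FC (helper15): the Frobenius congruences with the explicit Frobenius lift

`N = q N'`, `q ∤ N'`, `A` a valuation subring of `ℚ̄` over `q`, `K1` a `G_ℚ`-stable level with
`O1 = A ∩ K1` a discrete valuation ring, `σ` a Frobenius element at `A`.  With
`act := S34ACT_act K1 hstab σ` (coefficientwise action), `wL` the Atkin–Lehner involution of level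
`N` (helper20), `V' = S18K_V A K1 N'`, `V1 = S18K_V A K1 N`, `V2 = S34V0K_V … = w(V1)`:

* `S35FC_one`  : `x ^ q ≡ w (σ x)` modulo `π V1` for `x ∈ V'`                      (FC1)
* `S35FC_two`  : `σ x ≡ (w x) ^ q` modulo `π V2` for `x ∈ V'`                      (FC2)
* `S35FC_one'` : `w x ≡ (σ⁻¹ x) ^ q` modulo `π V1`
* `S35FC_two'` : `x ≡ (w (σ⁻¹ x)) ^ q` modulo `π V2`  (explicit `q`-th root)
* `S35FC_sq`   : `σ² x ≡ x ^ (q ^ 2)` modulo `π V1 + π V2`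
* `S35FC_wL_level`, `S35FC_chart`, `S35FC_chart_of_hjq` : bookkeeping of memberships.

Everything is a consequence of helper1's landed `S34FC_cong` (the congruence in the big Gauss
ring) and helper20's `w`.
-/

set_option autoImplicit false
set_option linter.unusedSectionVars false
set_option linter.unusedVariables false
set_option linter.style.haveILetI false

noncomputable section

open ModularCurve HahnSeries
open Fermat.Agent.S18_helper13_GAUSS Fermat.Agent.S18_helper9_CDefs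
open Fermat.Agent.S18_helper25_COREDefs
open Fermat.Agent.S34_helper20_V0 Fermat.Agent.S34_helper20_V0K
open Fermat.Agent.S34_helper21_ACT Fermat.Agent.S34_helper1_FROBCONG

namespace Fermat.Agent.S35_helper15_FC

local notation "Qb" => AlgebraicClosure ℚ
local notation "GQ" => (AlgebraicClosure ℚ ≃ₐ[ℚ] AlgebraicClosure ℚ)

variable (A : ValuationSubring Qb) (K1 : IntermediateField ℚ Qb)
  (hstab : ∀ σ : GQ, ∀ x ∈ K1, σ x ∈ K1)

/-- the two spellings of the coefficientwise action agree -/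
theorem S35FC_act_eq_Phi (σ : GQ) (x : LaurentSeries K1) :
    S34ACT_act K1 hstab σ x = S34FC_Phi K1 σ (hstab σ) x := by
  ext n
  rfl

/-- a Frobenius element preserves `A` -/
theorem S35FC_mem (q : ℕ) (σ : GQ) (hσ : A.IsFrobeniusAt σ q) : ∀ a ∈ A, σ a ∈ A :=
  S34FC_frob_mem A σ q hσ

/-- the inverse of a Frobenius element preserves `A` -/
theorem S35FC_mem_inv (q : ℕ) (σ : GQ) (hσ : A.IsFrobeniusAt σ q) : ∀ a ∈ A, σ⁻¹ a ∈ A := by
  have hdec : σ ∈ A.decompositionSubgroup ℚ := hσ.mem_decompositionSubgroup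
  have hdec' : σ⁻¹ ∈ A.decompositionSubgroup ℚ := (A.decompositionSubgroup ℚ).inv_mem hdec
  exact S34FC_decomp_mem A σ⁻¹ hdec'

variable [IsDiscreteValuationRing (S18K_O1 A K1)]
  (q N' N : ℕ) [NeZero N'] [NeZero N] [NeZero q]
  (hq : q.Prime) (hqN : ¬ q ∣ N') (hN : N = q * N')

include hq hqN hN in
/-- bookkeeping for elements of the Gauss ring of level `N'` -/
theorem S35FC_wL_level (σ : GQ) (hσA : ∀ a ∈ A, σ a ∈ A) :
    ∀ x ∈ S18K_V A K1 N',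
      S34V0_wL (S34V0K_emb K1) q N' N hq hqN hN x = qExpand K1 q x ∧
      S34V0_wL (S34V0K_emb K1) q N' N hq hqN hN x ∈ S18K_V A K1 N ∧
      S34V0_wL (S34V0K_emb K1) q N' N hq hqN hN x ∈ S34V0K_V A K1 q N' N hq hqN hN ∧
      x ∈ S18K_V A K1 N ∧ x ∈ S34V0K_V A K1 q N' N hq hqN hN ∧
      S34ACT_act K1 hstab σ x ∈ S18K_V A K1 N' := by
  intro x hx
  have hxF' : x ∈ modularFunctionFieldFullC K1 N' := hx.2
  have hN'N : N' ∣ N := S34V0K_dvd hN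
  have hxF : x ∈ modularFunctionFieldFullC K1 N := full_degeneracyC_le K1 hN'N hxF'
  have hw : S34V0_wL (S34V0K_emb K1) q N' N hq hqN hN x = qExpand K1 q x :=
    S34V0K_wL_level K1 q N' N hq hqN hN hxF'
  have hx1 : x ∈ S18K_V A K1 N := ⟨hx.1, hxF⟩
  refine ⟨hw, ⟨?_, S34V0_wL_mem (S34V0K_emb K1) q N' N hq hqN hN x⟩, ?_, hx1,
    S34V0K_le A K1 q N' N hq hqN hN hx, S34ACT_mem_V K1 hstab A N' σ hσA hx⟩
  · rw [hw]
    exact (S34V0K_qExpand_mem (S18K_D A K1) q hx.1).1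
  · exact S34V0_wL_mem_image (S34V0K_emb K1) q N' N hq hqN hN hxF hx1

include hq hqN hN in
/-- **(FC1)** `x ^ q ≡ w (σ x)` modulo `π V1` on the Gauss ring of level `N'`. -/
theorem S35FC_one (hA : A.LiesOverPrime q) (σ : GQ) (hσ : A.IsFrobeniusAt σ q) :
    ∀ x ∈ S18K_V A K1 N', ∃ v ∈ S18K_V A K1 N,
      x ^ q - S34V0_wL (S34V0K_emb K1) q N' N hq hqN hN (S34ACT_act K1 hstab σ x)
        = S18K_π A K1 * v := by
  intro x hx
  have hσA := S35FC_mem A q σ hσ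
  obtain ⟨-, -, -, hx1, -, hax⟩ := S35FC_wL_level A K1 hstab q N' N hq hqN hN σ hσA x hx
  obtain ⟨hw, hw1, -, -, -, -⟩ :=
    S35FC_wL_level A K1 hstab q N' N hq hqN hN σ hσA _ hax
  obtain ⟨y, hy, hxy⟩ := S34FC_cong A K1 q hq hA σ hσ (hstab σ) hx.1
  have hq' : (⟨hq.ne_zero⟩ : NeZero q) = ‹NeZero q› := Subsingleton.elim _ _
  rw [hq', S34FC_Phi_qExpand, ← S35FC_act_eq_Phi K1 hstab σ x, ← hw] at hxy
  have hdiff : S34V0_wL (S34V0K_emb K1) q N' N hq hqN hN (S34ACT_act K1 hstab σ x) - x ^ q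
      ∈ modularFunctionFieldFullC K1 N := sub_mem hw1.2 (pow_mem hx1.2 q)
  have hyV : y ∈ S18K_V A K1 N := S34V0K_div_mem A K1 N hdiff hy hxy
  refine ⟨-y, neg_mem hyV, ?_⟩
  linear_combination -hxy

include hq hqN hN in
/-- **(FC2)** `σ x ≡ (w x) ^ q` modulo `π V2` on the Gauss ring of level `N'`. -/
theorem S35FC_two (hA : A.LiesOverPrime q) (σ : GQ) (hσ : A.IsFrobeniusAt σ q) :
    ∀ x ∈ S18K_V A K1 N', ∃ v ∈ S34V0K_V A K1 q N' N hq hqN hN,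
      S34ACT_act K1 hstab σ x - (S34V0_wL (S34V0K_emb K1) q N' N hq hqN hN x) ^ q
        = S18K_π A K1 * v := by
  intro x hx
  have hσA := S35FC_mem A q σ hσ
  obtain ⟨-, -, -, hx1, -, hax⟩ := S35FC_wL_level A K1 hstab q N' N hq hqN hN σ hσA x hx
  obtain ⟨-, hw1, -, hax1, -, -⟩ :=
    S35FC_wL_level A K1 hstab q N' N hq hqN hN σ hσA _ hax
  obtain ⟨v, hv, h⟩ := S35FC_one A K1 hstab q N' N hq hqN hN hA σ hσ x hx
  have hπF : S18K_π A K1 ∈ modularFunctionFieldFullC K1 N := S34V0_C_mem N _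
  have hπC : S34V0_wL (S34V0K_emb K1) q N' N hq hqN hN (S18K_π A K1) = S18K_π A K1 :=
    S34V0_wL_C (S34V0K_emb K1) q N' N hq hqN hN _
  have h2 := congrArg (S34V0_wL (S34V0K_emb K1) q N' N hq hqN hN) h
  rw [S34V0_wL_mul (S34V0K_emb K1) q N' N hq hqN hN hπF hv.2, hπC, sub_eq_add_neg,
    S34V0_wL_add (S34V0K_emb K1) q N' N hq hqN hN (pow_mem hx1.2 q) (neg_mem hw1.2),
    S34V0_wL_neg (S34V0K_emb K1) q N' N hq hqN hN hw1.2,
    S34V0_wL_pow (S34V0K_emb K1) q N' N hq hqN hN hx1.2,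
    S34V0_wL_wL (S34V0K_emb K1) q N' N hq hqN hN hax1.2, ← sub_eq_add_neg] at h2
  refine ⟨-(S34V0_wL (S34V0K_emb K1) q N' N hq hqN hN v),
    neg_mem (S34V0_wL_mem_image (S34V0K_emb K1) q N' N hq hqN hN hv.2 hv), ?_⟩
  linear_combination -h2

include hq hqN hN in
/-- **(FC1) at `σ⁻¹ x`**: `w x ≡ (σ⁻¹ x) ^ q` modulo `π V1`. -/
theorem S35FC_one' (hA : A.LiesOverPrime q) (σ : GQ) (hσ : A.IsFrobeniusAt σ q) :
    ∀ x ∈ S18K_V A K1 N', ∃ v ∈ S18K_V A K1 N,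
      S34V0_wL (S34V0K_emb K1) q N' N hq hqN hN x - (S34ACT_act K1 hstab σ⁻¹ x) ^ q
        = S18K_π A K1 * v := by
  intro x hx
  have hx' : S34ACT_act K1 hstab σ⁻¹ x ∈ S18K_V A K1 N' :=
    S34ACT_mem_V K1 hstab A N' σ⁻¹ (S35FC_mem_inv A q σ hσ) hx
  obtain ⟨v, hv, h⟩ := S35FC_one A K1 hstab q N' N hq hqN hN hA σ hσ _ hx'
  rw [S34ACT_act_act_inv] at h
  refine ⟨-v, neg_mem hv, ?_⟩
  linear_combination -h

include hq hqN hN in
/-- **(FC2) at `σ⁻¹ x`**: `x ≡ (w (σ⁻¹ x)) ^ q` modulo `π V2`: the explicit `q`-th root. -/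
theorem S35FC_two' (hA : A.LiesOverPrime q) (σ : GQ) (hσ : A.IsFrobeniusAt σ q) :
    ∀ x ∈ S18K_V A K1 N', ∃ v ∈ S34V0K_V A K1 q N' N hq hqN hN,
      x - (S34V0_wL (S34V0K_emb K1) q N' N hq hqN hN (S34ACT_act K1 hstab σ⁻¹ x)) ^ q
        = S18K_π A K1 * v := by
  intro x hx
  have hx' : S34ACT_act K1 hstab σ⁻¹ x ∈ S18K_V A K1 N' :=
    S34ACT_mem_V K1 hstab A N' σ⁻¹ (S35FC_mem_inv A q σ hσ) hx
  obtain ⟨v, hv, h⟩ := S35FC_two A K1 hstab q N' N hq hqN hN hA σ hσ _ hx'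
  rw [S34ACT_act_act_inv] at h
  exact ⟨v, hv, h⟩

include hq hqN hN in
/-- **`σ² x ≡ x ^ (q²)`** modulo `π V1 + π V2` on the Gauss ring of level `N'`. -/
theorem S35FC_sq (hA : A.LiesOverPrime q) (σ : GQ) (hσ : A.IsFrobeniusAt σ q) :
    ∀ x ∈ S18K_V A K1 N', ∃ v1 ∈ S18K_V A K1 N, ∃ v2 ∈ S34V0K_V A K1 q N' N hq hqN hN,
      S34ACT_act K1 hstab σ (S34ACT_act K1 hstab σ x) - x ^ (q ^ 2)
        = S18K_π A K1 * v1 + S18K_π A K1 * v2 := by
  intro x hx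
  have hσA := S35FC_mem A q σ hσ
  obtain ⟨-, -, -, hx1, -, hax⟩ := S35FC_wL_level A K1 hstab q N' N hq hqN hN σ hσA x hx
  obtain ⟨-, hw1, -, -, -, -⟩ :=
    S35FC_wL_level A K1 hstab q N' N hq hqN hN σ hσA _ hax
  obtain ⟨v1, hv1, h1⟩ := S35FC_one A K1 hstab q N' N hq hqN hN hA σ hσ x hx
  obtain ⟨v2, hv2, h2⟩ := S35FC_two A K1 hstab q N' N hq hqN hN hA σ hσ _ hax
  set u := x ^ q with hu
  set a := S34V0_wL (S34V0K_emb K1) q N' N hq hqN hN (S34ACT_act K1 hstab σ x) with ha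
  have huV : u ∈ S18K_V A K1 N := pow_mem hx1 q
  have hsum : (∑ i ∈ Finset.range q, u ^ i * a ^ (q - 1 - i)) ∈ S18K_V A K1 N :=
    Subring.sum_mem _ fun i _ => mul_mem (pow_mem huV i) (pow_mem hw1 _)
  have hgeom : (∑ i ∈ Finset.range q, u ^ i * a ^ (q - 1 - i)) * (u - a) = u ^ q - a ^ q :=
    (Commute.all u a).geom_sum₂_mul q
  refine ⟨-((∑ i ∈ Finset.range q, u ^ i * a ^ (q - 1 - i)) * v1),
    neg_mem (mul_mem hsum hv1), v2, hv2, ?_⟩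
  have hpow : x ^ (q ^ 2) = u ^ q := by rw [hu, ← pow_mul, pow_two]
  rw [hpow]
  linear_combination h2 + hgeom - (∑ i ∈ Finset.range q, u ^ i * a ^ (q - 1 - i)) * h1

include hq hqN hN in
/-- **chart bookkeeping**, from the integrality of `j(t^q)` over `O[j]`. -/
theorem S35FC_chart_of_hjq (σ : GQ) (hσA : ∀ a ∈ A, σ a ∈ A) (hσA' : ∀ a ∈ A, σ⁻¹ a ∈ A)
    (hjq : IsIntegral (adj (S18K_O A K1) (S18K_j K1)) (qExpand K1 q (S18K_j K1))) :
    ∀ x ∈ S18K_A0 A K1 N',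
      S34V0_wL (S34V0K_emb K1) q N' N hq hqN hN (S34ACT_act K1 hstab σ x) ∈ S18K_A0 A K1 N ∧
      S34V0_wL (S34V0K_emb K1) q N' N hq hqN hN (S34ACT_act K1 hstab σ⁻¹ x) ∈ S18K_A0 A K1 N ∧
      S34V0_wL (S34V0K_emb K1) q N' N hq hqN hN x ∈ S18K_A0 A K1 N ∧
      S34ACT_act K1 hstab σ x ∈ S18K_A0 A K1 N' ∧
      S34ACT_act K1 hstab σ⁻¹ x ∈ S18K_A0 A K1 N' ∧ x ∈ S18K_A0 A K1 N := by
  intro x hx
  have hN'N : N' ∣ N := S34V0K_dvd hN
  have hNeq : N' * q = N := by rw [hN, mul_comm]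
  have key : ∀ y ∈ S18K_A0 A K1 N',
      S34V0_wL (S34V0K_emb K1) q N' N hq hqN hN y ∈ S18K_A0 A K1 N := by
    intro y hy
    rw [S34V0K_wL_level K1 q N' N hq hqN hN hy.2]
    have h := S34FC_qExpand_mem_A0 A K1 N' q hjq hy
    rw [hNeq] at h
    exact h
  have h1 := S34ACT_mem_A0 K1 hstab A N' σ hσA hx
  have h2 := S34ACT_mem_A0 K1 hstab A N' σ⁻¹ hσA' hx
  refine ⟨key _ h1, key _ h2, key _ hx, h1, h2, hx.1, ?_⟩
  exact full_degeneracyC_le K1 hN'N hx.2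

include hq hqN hN in
/-- **chart bookkeeping**, unconditional (`hjq` from helper13's `S34HJQ_main`). -/
theorem S35FC_chart (hA : A.LiesOverPrime q) (σ : GQ) (hσ : A.IsFrobeniusAt σ q) :
    ∀ x ∈ S18K_A0 A K1 N',
      S34V0_wL (S34V0K_emb K1) q N' N hq hqN hN (S34ACT_act K1 hstab σ x) ∈ S18K_A0 A K1 N ∧
      S34V0_wL (S34V0K_emb K1) q N' N hq hqN hN (S34ACT_act K1 hstab σ⁻¹ x) ∈ S18K_A0 A K1 N ∧
      S34V0_wL (S34V0K_emb K1) q N' N hq hqN hN x ∈ S18K_A0 A K1 N ∧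
      S34ACT_act K1 hstab σ x ∈ S18K_A0 A K1 N' ∧
      S34ACT_act K1 hstab σ⁻¹ x ∈ S18K_A0 A K1 N' ∧ x ∈ S18K_A0 A K1 N :=
  S35FC_chart_of_hjq A K1 hstab q N' N hq hqN hN σ (S35FC_mem A q σ hσ)
    (S35FC_mem_inv A q σ hσ)
    (Fermat.Agent.S34_helper13_HJQM.S34HJQ_main A K1 q hq hA)

end Fermat.Agent.S35_helper15_FC
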