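import Mathlib
import Fermat.Agent.S35_helper15_FC
import Fermat.Agent.S35_helper13_NORMREDK
import Fermat.Agent.S34_helper5_INERT
import Fermat.Agent.S34_helper6_LGREDK

/-!
# S35, GEO-TORIC (helper15): from newness to the toric congruences on the two branches

`N = q N'`, `q ∤ N'`, `A` a valuation subring of `ℚ̄` over `q`, `K1` a `G_ℚ`-stable level with
`O1 = A ∩ K1` a discrete valuation ring, `σ` a Frobenius element at `A`,
`act := S34ACT_act K1 hstab σ`, `wL` the Atkin-Lehner involution of level `N` (helper20),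
`V' = S18K_V A K1 N'`, `V1 = S18K_V A K1 N`, `V2 = S34V0K_V … = w(V1)`, `π = S18K_π A K1`.

For a unit `f` of `V1 ⊓ V2` whose norms to level `N'` along `α` and along `β = α ∘ w` are
`N f = C γ1 · g1 ^ n` and `N (w f) = C γ2 · g2 ^ n` (`g_i` units of `V'`, `γ_i` units of `A`):

* `S35TOR_explicit` : `σ² f = f · (C c1 · H1 ^ n) · (1 + π v)`, `v ∈ V1`, and
  `σ² f = f · (C c2 · H2 ^ n) · (1 + π v)`, `v ∈ V2`, with the explicit
  `c1 = σ γ2 / γ1`, `H1 = σ g2 / g1` (level `N'`), `c2 = σ γ1 / γ2`, `H2 = w (σ g1 / g2)`;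
* `S35TOR_main`     : the same, existentially (the typed contract of GEO plan v1).

Proof (helper9's paper proof): `a, x ∈ V'` with `f ≡ a`, `w f ≡ x` modulo `π V1`
(`S34P1C_key`); `(P3)` (helper13's `S35NRK_main`) for `f` with `c := σ x` and for `w f` with
`c := σ a`, the `q`-th power congruences coming from `(FC2)` (`S35FC_two`):
`N f ≡ a · σ x`, `N (w f) ≡ x · σ a` modulo `π V'`; then `σ(second) / first` and
`σ(first) / second`, the latter transported by `w`.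

The abstract part (a field `L`, subrings, a ring endomorphism `s`, an involution `w`) is
Mathlib-only: `S35TOR_Cg` (multiplicative congruence modulo `1 + π V`) and `S35TOR_abs`.
-/

set_option autoImplicit false
set_option linter.unusedSectionVars false
set_option linter.unusedVariables false
set_option linter.style.haveILetI false

noncomputable section

open ModularCurve HahnSeries
open Fermat.Agent.S18_helper13_GAUSS Fermat.Agent.S18_helper9_CDefs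
open Fermat.Agent.S18_helper25_COREDefs
open Fermat.Agent.S34_helper20_V0 Fermat.Agent.S34_helper20_V0K
open Fermat.Agent.S34_helper21_ACT Fermat.Agent.S34_helper27_C2Defs
open Fermat.Agent.S34_helper27_V3K Fermat.Agent.S34_helper13_KEY
open Fermat.Agent.S34_helper13_P1C Fermat.Agent.S34_helper5_INERT
open Fermat.Agent.S34_helper6_LGREDK Fermat.Agent.S34_helper5_K0
open Fermat.Agent.S35_helper15_FC Fermat.Agent.S35_helper13_NORMREDK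

namespace Fermat.Agent.S35_helper15_TORIC

/-! ### Abstract part: multiplicative congruences modulo `1 + π V` -/

section Abstract

variable {L : Type*} [Field L]

/-- multiplicative congruence: `x = y (1 + π c)` with `c ∈ V` -/
def S35TOR_Cg (π : L) (V : Subring L) (x y : L) : Prop := ∃ c ∈ V, x = y * (1 + π * c)

/-- `π` lies in the radical of `V` (elementwise form) -/
structure S35TOR_Rad (π : L) (V : Subring L) : Prop where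
  π_mem : π ∈ V
  ne : ∀ c ∈ V, 1 + π * c ≠ 0
  inv : ∀ c ∈ V, (1 + π * c)⁻¹ ∈ V

variable {π : L} {V W : Subring L}

theorem S35TOR_Rad.of_nonunit (hπ : π ∈ V) (hnu : π⁻¹ ∉ V)
    (hinv : ∀ c ∈ V, (1 + π * c)⁻¹ ∈ V) : S35TOR_Rad π V where
  π_mem := hπ
  ne := by
    intro c hc h0
    apply hnu
    have hπ0 : π ≠ 0 := by
      rintro rfl
      rw [zero_mul, add_zero] at h0
      exact one_ne_zero h0
    have e : π⁻¹ = -c := by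
      have h1 : π * (-c) = 1 := by linear_combination (-1 : L) * h0
      exact inv_eq_of_mul_eq_one_right h1
    rw [e]
    exact V.neg_mem hc
  inv := hinv

theorem S35TOR_Cg_refl (x : L) : S35TOR_Cg π V x x := ⟨0, V.zero_mem, by ring⟩

theorem S35TOR_Cg_of_eq {x y : L} (h : x = y) : S35TOR_Cg π V x y := h ▸ S35TOR_Cg_refl x

theorem S35TOR_Cg_mono (hVW : V ≤ W) {x y : L} (h : S35TOR_Cg π V x y) : S35TOR_Cg π W x y := by
  obtain ⟨c, hc, e⟩ := h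
  exact ⟨c, hVW hc, e⟩

theorem S35TOR_Cg_one_inv (H : S35TOR_Rad π V) {c : L} (hc : c ∈ V) :
    ∃ d ∈ V, (1 + π * c)⁻¹ = 1 + π * d := by
  refine ⟨-(c * (1 + π * c)⁻¹), V.neg_mem (V.mul_mem hc (H.inv c hc)), ?_⟩
  have h0 := H.ne c hc
  field_simp
  ring

theorem S35TOR_Cg_symm (H : S35TOR_Rad π V) {x y : L} (h : S35TOR_Cg π V x y) :
    S35TOR_Cg π V y x := by
  obtain ⟨c, hc, e⟩ := h
  obtain ⟨d, hd, ed⟩ := S35TOR_Cg_one_inv H hc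
  refine ⟨d, hd, ?_⟩
  rw [← ed, e, mul_assoc, mul_inv_cancel₀ (H.ne c hc), mul_one]

theorem S35TOR_Cg_mul (H : S35TOR_Rad π V) {x y x' y' : L} (h : S35TOR_Cg π V x y)
    (h' : S35TOR_Cg π V x' y') : S35TOR_Cg π V (x * x') (y * y') := by
  obtain ⟨c, hc, e⟩ := h
  obtain ⟨c', hc', e'⟩ := h'
  refine ⟨c + c' + π * (c * c'),
    V.add_mem (V.add_mem hc hc') (V.mul_mem H.π_mem (V.mul_mem hc hc')), ?_⟩
  rw [e, e']
  ring

theorem S35TOR_Cg_trans (H : S35TOR_Rad π V) {x y z : L} (h : S35TOR_Cg π V x y)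
    (h' : S35TOR_Cg π V y z) : S35TOR_Cg π V x z := by
  obtain ⟨c, hc, e⟩ := h
  obtain ⟨c', hc', e'⟩ := h'
  refine ⟨c + c' + π * (c * c'),
    V.add_mem (V.add_mem hc hc') (V.mul_mem H.π_mem (V.mul_mem hc hc')), ?_⟩
  rw [e, e']
  ring

theorem S35TOR_Cg_inv (H : S35TOR_Rad π V) {x y : L} (h : S35TOR_Cg π V x y) :
    S35TOR_Cg π V x⁻¹ y⁻¹ := by
  obtain ⟨c, hc, e⟩ := h
  obtain ⟨d, hd, ed⟩ := S35TOR_Cg_one_inv H hc
  refine ⟨d, hd, ?_⟩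
  rw [e, mul_inv, ed]

theorem S35TOR_Cg_div (H : S35TOR_Rad π V) {x y x' y' : L} (h : S35TOR_Cg π V x y)
    (h' : S35TOR_Cg π V x' y') : S35TOR_Cg π V (x / x') (y / y') := by
  rw [div_eq_mul_inv, div_eq_mul_inv]
  exact S35TOR_Cg_mul H h (S35TOR_Cg_inv H h')

theorem S35TOR_Cg_pow (H : S35TOR_Rad π V) {x y : L} (h : S35TOR_Cg π V x y) (n : ℕ) :
    S35TOR_Cg π V (x ^ n) (y ^ n) := by
  induction n with
  | zero => rw [pow_zero, pow_zero]; exact S35TOR_Cg_refl 1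
  | succ n ih => rw [pow_succ, pow_succ]; exact S35TOR_Cg_mul H ih h

/-- from an additive congruence to a unit to the multiplicative one -/
theorem S35TOR_Cg_of_sub {x y : L} (hy : y⁻¹ ∈ V) (hy0 : y ≠ 0)
    (h : ∃ v ∈ V, x - y = π * v) : S35TOR_Cg π V x y := by
  obtain ⟨v, hv, e⟩ := h
  refine ⟨y⁻¹ * v, V.mul_mem hy hv, ?_⟩
  have : x = y + π * v := by linear_combination e
  rw [this]
  field_simp

/-- from the multiplicative congruence to the additive one -/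
theorem S35TOR_Cg_sub {x y : L} (hy : y ∈ V) (h : S35TOR_Cg π V x y) :
    ∃ v ∈ V, x - y = π * v := by
  obtain ⟨c, hc, e⟩ := h
  exact ⟨y * c, V.mul_mem hy hc, by rw [e]; ring⟩

/-- a ring endomorphism preserving `V` and `π V` preserves the congruence -/
theorem S35TOR_Cg_map (s : L →+* L) (hsV : ∀ x ∈ V, s x ∈ V) (hsπ : ∃ ε ∈ V, s π = π * ε)
    {x y : L} (h : S35TOR_Cg π V x y) : S35TOR_Cg π V (s x) (s y) := by
  obtain ⟨c, hc, e⟩ := h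
  obtain ⟨ε, hε, eε⟩ := hsπ
  refine ⟨ε * s c, V.mul_mem hε (hsV c hc), ?_⟩
  rw [e, map_mul, map_add, map_one, map_mul, eε]
  ring

/-- an element congruent to a unit is a unit -/
theorem S35TOR_Cg_unit (H : S35TOR_Rad π V) {x y : L} (h : S35TOR_Cg π V x y) (hy : y ∈ V)
    (hy' : y⁻¹ ∈ V) (hy0 : y ≠ 0) : x ∈ V ∧ x⁻¹ ∈ V ∧ x ≠ 0 := by
  obtain ⟨c, hc, e⟩ := h
  have h1 : (1 + π * c) ∈ V := V.add_mem V.one_mem (V.mul_mem H.π_mem hc)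
  refine ⟨by rw [e]; exact V.mul_mem hy h1, ?_, ?_⟩
  · rw [e, mul_inv]
    exact V.mul_mem hy' (H.inv c hc)
  · rw [e]
    exact mul_ne_zero hy0 (H.ne c hc)

/-- the factors of a unit are units -/
theorem S35TOR_unit_of_mul {a b : L} (ha : a ∈ V) (hb : b ∈ V) (hab : (a * b)⁻¹ ∈ V)
    (h0 : a * b ≠ 0) : a⁻¹ ∈ V ∧ a ≠ 0 ∧ b⁻¹ ∈ V ∧ b ≠ 0 := by
  have ha0 : a ≠ 0 := left_ne_zero_of_mul h0
  have hb0 : b ≠ 0 := right_ne_zero_of_mul h0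
  refine ⟨?_, ha0, ?_, hb0⟩
  · have : a⁻¹ = b * (a * b)⁻¹ := by field_simp
    rw [this]; exact V.mul_mem hb hab
  · have : b⁻¹ = a * (a * b)⁻¹ := by field_simp
    rw [this]; exact V.mul_mem ha hab

/-- **Lemma A** (congruence algebra on one branch): from the two norm congruences `(R1)`, `(R2)`
to `σ² f / f ≡ σ U2 / U1`. -/
theorem S35TOR_absA {π : L} {V' V1 : Subring L} (H' : S35TOR_Rad π V') (H1 : S35TOR_Rad π V1)
    (hV1 : V' ≤ V1) (s : L →+* L) (hsV' : ∀ x ∈ V', s x ∈ V') (hsV1 : ∀ x ∈ V1, s x ∈ V1)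
    (hsπ : ∃ ε ∈ V', s π = π * ε)
    {f a x U1 U2 : L} (ha : a ∈ V') (hx : x ∈ V')
    (hU1 : U1 ∈ V') (hU1' : U1⁻¹ ∈ V') (hU10 : U1 ≠ 0)
    (hU2 : U2 ∈ V') (hU2' : U2⁻¹ ∈ V') (hU20 : U2 ≠ 0)
    (hfa : ∃ v ∈ V1, f - a = π * v)
    (hR1 : ∃ v ∈ V', U1 - a * s x = π * v) (hR2 : ∃ v ∈ V', U2 - x * s a = π * v) :
    ∃ v ∈ V1, s (s f) = f * (s U2 / U1) * (1 + π * v) := by
  have hsπ1 : ∃ ε ∈ V1, s π = π * ε := by
    obtain ⟨ε, hε, e⟩ := hsπ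
    exact ⟨ε, hV1 hε, e⟩
  have c1 : S35TOR_Cg π V' (a * s x) U1 := by
    obtain ⟨v, hv, e⟩ := hR1
    exact S35TOR_Cg_of_sub hU1' hU10 ⟨-v, V'.neg_mem hv, by linear_combination -e⟩
  have c2 : S35TOR_Cg π V' (x * s a) U2 := by
    obtain ⟨v, hv, e⟩ := hR2
    exact S35TOR_Cg_of_sub hU2' hU20 ⟨-v, V'.neg_mem hv, by linear_combination -e⟩
  obtain ⟨-, hu1', hu10⟩ := S35TOR_Cg_unit H' c1 hU1 hU1' hU10
  obtain ⟨ha', ha0, -, hsx0⟩ := S35TOR_unit_of_mul ha (hsV' x hx) hu1' hu10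
  have c2s : S35TOR_Cg π V' (s x * s (s a)) (s U2) := by
    have := S35TOR_Cg_map s hsV' hsπ c2
    rwa [map_mul] at this
  have c3 : S35TOR_Cg π V' (s (s a) / a) (s U2 / U1) := by
    have := S35TOR_Cg_div H' c2s c1
    have e : s x * s (s a) / (a * s x) = s (s a) / a := by
      field_simp
    rwa [e] at this
  have c4 : S35TOR_Cg π V1 f a := S35TOR_Cg_of_sub (hV1 ha') ha0 hfa
  have c5 : S35TOR_Cg π V1 (s (s f)) (s (s a)) :=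
    S35TOR_Cg_map s hsV1 hsπ1 (S35TOR_Cg_map s hsV1 hsπ1 c4)
  obtain ⟨-, -, hf0⟩ := S35TOR_Cg_unit H1 c4 (hV1 ha) (hV1 ha') ha0
  have c6 : S35TOR_Cg π V1 (s (s f) / f) (s U2 / U1) :=
    S35TOR_Cg_trans H1 (S35TOR_Cg_div H1 c5 c4) (S35TOR_Cg_mono hV1 c3)
  obtain ⟨v, hv, e⟩ := c6
  refine ⟨v, hv, ?_⟩
  have e' : s (s f) = f * (s (s f) / f) := by field_simp
  rw [e', e]
  ring

/-- **Lemma B**: the Frobenius congruence `(FC2)` turns a congruence modulo `π V1` into the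
`q`-th power congruence modulo `π V2` needed by `(P3)`. -/
theorem S35TOR_absB {π : L} {F1 : Subfield L} {V' V1 V2 : Subring L}
    (hF1 : ∀ x ∈ V1, x ∈ F1) (hV1 : V' ≤ V1) (hπF : π ∈ F1) (s : L →+* L) (w : L → L)
    (hwmul : ∀ x ∈ F1, ∀ y ∈ F1, w (x * y) = w x * w y)
    (hwsub : ∀ x ∈ F1, ∀ y ∈ F1, w (x - y) = w x - w y)
    (hwπ : w π = π) (hw12 : ∀ x ∈ V1, w x ∈ V2) (q : ℕ)
    (hFC2 : ∀ x ∈ V', ∃ v ∈ V2, s x - (w x) ^ q = π * v)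
    {y r : L} (hy : y ∈ V1) (hr : r ∈ V') (h : ∃ v ∈ V1, y - r = π * v) :
    ∃ v ∈ V2, (w y) ^ q - s r = π * v := by
  obtain ⟨v, hv, e⟩ := h
  obtain ⟨v2, hv2, e2⟩ := hFC2 r hr
  have hd : w y - w r = π * w v := by
    rw [← hwsub y (hF1 y hy) r (hF1 r (hV1 hr)), e, hwmul π hπF v (hF1 v hv), hwπ]
  have hgeom : (∑ i ∈ Finset.range q, (w y) ^ i * (w r) ^ (q - 1 - i)) * (w y - w r)
      = (w y) ^ q - (w r) ^ q := (Commute.all (w y) (w r)).geom_sum₂_mul q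
  have hsum : (∑ i ∈ Finset.range q, (w y) ^ i * (w r) ^ (q - 1 - i)) ∈ V2 :=
    Subring.sum_mem _ fun i _ =>
      V2.mul_mem (V2.pow_mem (hw12 y hy) i) (V2.pow_mem (hw12 r (hV1 hr)) _)
  refine ⟨(∑ i ∈ Finset.range q, (w y) ^ i * (w r) ^ (q - 1 - i)) * w v - v2,
    V2.sub_mem (V2.mul_mem hsum (hw12 v hv)) hv2, ?_⟩
  linear_combination -hgeom +
    (∑ i ∈ Finset.range q, (w y) ^ i * (w r) ^ (q - 1 - i)) * hd - e2

/-- **GEO-TORIC, abstract form.**  `U1`, `U2` are the norms of `f` and of `w f`. -/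
theorem S35TOR_abs {π : L} {F1 : Subfield L} {V' V1 V2 : Subring L}
    (H' : S35TOR_Rad π V') (H1 : S35TOR_Rad π V1)
    (hV1 : V' ≤ V1) (hF1 : ∀ x ∈ V1, x ∈ F1)
    (s : L →+* L) (hsV' : ∀ x ∈ V', s x ∈ V') (hsV1 : ∀ x ∈ V1, s x ∈ V1)
    (hsπ : ∃ ε ∈ V', s π = π * ε)
    (w : L → L)
    (hwmul : ∀ x ∈ F1, ∀ y ∈ F1, w (x * y) = w x * w y)
    (hwadd : ∀ x ∈ F1, ∀ y ∈ F1, w (x + y) = w x + w y)
    (hwsub : ∀ x ∈ F1, ∀ y ∈ F1, w (x - y) = w x - w y)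
    (hw1 : w 1 = 1) (hwπ : w π = π) (hww : ∀ x ∈ F1, w (w x) = x)
    (hws : ∀ x ∈ F1, w (s x) = s (w x))
    (hw12 : ∀ x ∈ V1, w x ∈ V2) (hw21 : ∀ x ∈ V2, w x ∈ V1)
    (q : ℕ) (hFC2 : ∀ x ∈ V', ∃ v ∈ V2, s x - (w x) ^ q = π * v)
    (hlift : ∀ x ∈ V1, ∃ r ∈ V', ∃ v ∈ V1, x = r + π * v)
    {f : L} (hf1 : f ∈ V1) (hf2 : f ∈ V2)
    {U1 U2 : L} (hU1 : U1 ∈ V') (hU1' : U1⁻¹ ∈ V') (hU10 : U1 ≠ 0)
    (hU2 : U2 ∈ V') (hU2' : U2⁻¹ ∈ V') (hU20 : U2 ≠ 0)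
    (hP3f : ∀ a ∈ V', ∀ c ∈ V', (∃ v ∈ V1, f - a = π * v) → (∃ v ∈ V2, f ^ q - c = π * v) →
      ∃ v ∈ V', U1 - a * c = π * v)
    (hP3w : ∀ a ∈ V', ∀ c ∈ V', (∃ v ∈ V1, w f - a = π * v) →
      (∃ v ∈ V2, (w f) ^ q - c = π * v) → ∃ v ∈ V', U2 - a * c = π * v) :
    (∃ v ∈ V1, s (s f) = f * (s U2 / U1) * (1 + π * v)) ∧
    (∃ v ∈ V2, s (s f) = f * w (s U1 / U2) * (1 + π * v)) := by
  have hπF : π ∈ F1 := hF1 π H1.π_mem
  have hfF : f ∈ F1 := hF1 f hf1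
  have hwf1 : w f ∈ V1 := hw21 f hf2
  obtain ⟨a, ha, v, hv, ea⟩ := hlift f hf1
  obtain ⟨x, hx, v', hv', ex⟩ := hlift (w f) hwf1
  have hfa : ∃ v ∈ V1, f - a = π * v := ⟨v, hv, by rw [ea]; ring⟩
  have hwx : ∃ v ∈ V1, w f - x = π * v := ⟨v', hv', by rw [ex]; ring⟩
  -- the `q`-th power congruences
  have hfc : ∃ v ∈ V2, f ^ q - s x = π * v := by
    have := S35TOR_absB hF1 hV1 hπF s w hwmul hwsub hwπ hw12 q hFC2 hwf1 hx hwx
    rwa [hww f hfF] at this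
  have hwc : ∃ v ∈ V2, (w f) ^ q - s a = π * v :=
    S35TOR_absB hF1 hV1 hπF s w hwmul hwsub hwπ hw12 q hFC2 hf1 ha hfa
  -- (P3) twice
  have hR1 := hP3f a ha (s x) (hsV' x hx) hfa hfc
  have hR2 := hP3w x hx (s a) (hsV' a ha) hwx hwc
  refine ⟨S35TOR_absA H' H1 hV1 s hsV' hsV1 hsπ ha hx hU1 hU1' hU10 hU2 hU2' hU20 hfa hR1 hR2,
    ?_⟩
  obtain ⟨c, hc, e⟩ :=
    S35TOR_absA H' H1 hV1 s hsV' hsV1 hsπ hx ha hU2 hU2' hU20 hU1 hU1' hU10 hwx hR2 hR1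
  refine ⟨w c, hw12 c hc, ?_⟩
  have hwfF : w f ∈ F1 := hF1 _ hwf1
  have hswfF : s (w f) ∈ F1 := hF1 _ (hsV1 _ hwf1)
  have hUF : s U1 / U2 ∈ F1 := F1.div_mem (hF1 _ (hV1 (hsV' U1 hU1))) (hF1 _ (hV1 hU2))
  have hcF : c ∈ F1 := hF1 c hc
  have h1 : w (s (s (w f))) = s (s f) := by
    rw [hws _ hswfF, hws _ hwfF, hww f hfF]
  have h2 : w (w f * (s U1 / U2) * (1 + π * c)) = f * w (s U1 / U2) * (1 + π * w c) := by
    rw [hwmul _ (F1.mul_mem hwfF hUF) _ (F1.add_mem F1.one_mem (F1.mul_mem hπF hcF)),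
      hwmul _ hwfF _ hUF, hww f hfF, hwadd _ F1.one_mem _ (F1.mul_mem hπF hcF), hw1,
      hwmul _ hπF _ hcF, hwπ]
  rw [← h1, e, h2]

end Abstract

/-! ### Concrete part -/

section Concrete

local notation "Qb" => AlgebraicClosure ℚ
local notation "GQ" => (AlgebraicClosure ℚ ≃ₐ[ℚ] AlgebraicClosure ℚ)

/-- a valuation ring in the sense of `S34C2_Val` has `π` in its radical -/
theorem S35TOR_rad_of_val {L : Type*} [Field L] {π : L} {F : Subfield L} {V : Subring L}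
    (H : S34C2_Val π F V) : S35TOR_Rad π V :=
  S35TOR_Rad.of_nonunit H.π_mem H.π_nonunit (fun c hc => H.one_add hc)

variable (A : ValuationSubring Qb) (K1 : IntermediateField ℚ Qb)
  (hstab : ∀ σ : GQ, ∀ x ∈ K1, σ x ∈ K1)

/-- the coefficientwise action commutes with the Atkin-Lehner involution -/
theorem S35TOR_wL_act (q N' N : ℕ) [NeZero N'] [NeZero N] (hq : q.Prime) (hqN : ¬ q ∣ N')
    (hN : N = q * N') (σ : GQ) (x : LaurentSeries K1) :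
    S34V0_wL (S34V0K_emb K1) q N' N hq hqN hN (S34ACT_act K1 hstab σ x) =
      S34ACT_act K1 hstab σ (S34V0_wL (S34V0K_emb K1) q N' N hq hqN hN x) := by
  have h := S34IN_comm_wL (S34V0K_emb K1) q N' N hq hqN hN
    ((S34K0_restrict K1 hstab σ : K1 ≃ₐ[ℚ] K1).toRingEquiv : K1 ≃+* K1) x
  exact h

variable [IsDiscreteValuationRing (S18K_O1 A K1)]

/-- constants of `O1` lie in the Gauss ring of every level -/
theorem S35TOR_C_mem_V (N : ℕ) [NeZero N] {c : K1} (hc : (c : Qb) ∈ A) :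
    (HahnSeries.C c : LaurentSeries K1) ∈ S18K_V A K1 N := by
  refine ⟨?_, S34V0_C_mem N c⟩
  have h := (S18K_D A K1).incS_mem_Vring (HahnSeries.C (⟨c, hc⟩ : S18K_O1 A K1))
  have e : (S18K_D A K1).incS (HahnSeries.C (⟨c, hc⟩ : S18K_O1 A K1)) = HahnSeries.C c := by
    unfold GaussData.incS
    rw [HahnSeries.C_apply, coeffMap_single, HahnSeries.C_apply]
    rfl
  rw [e] at h
  exact h

/-- `g⁻¹ (g x) = x` on `O1`. -/
theorem S35TOR_resO_inv (g : GQ) (hg : ∀ x ∈ A, g x ∈ A) (hg' : ∀ x ∈ A, g⁻¹ x ∈ A)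
    (x : S18K_O1 A K1) :
    S34ACT_resO K1 hstab A g⁻¹ hg' (S34ACT_resO K1 hstab A g hg x) = x := by
  apply Subtype.ext
  apply Subtype.ext
  show g⁻¹ (g ((x : K1) : Qb)) = ((x : K1) : Qb)
  exact g.symm_apply_apply _

/-- an automorphism preserving `A` in both directions maps the uniformiser of `O1` to a multiple
of the uniformiser. -/
theorem S35TOR_resO_pi (g : GQ) (hg : ∀ x ∈ A, g x ∈ A) (hg' : ∀ x ∈ A, g⁻¹ x ∈ A) :
    (S18K_D A K1).π ∣ S34ACT_resO K1 hstab A g hg (S18K_D A K1).π := by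
  by_contra h
  have hu : IsUnit (S34ACT_resO K1 hstab A g hg (S18K_D A K1).π) :=
    (S34LRK_isUnit_iff A K1 _).mpr h
  have hu' := hu.map (S34ACT_resO K1 hstab A g⁻¹ hg')
  rw [S35TOR_resO_inv] at hu'
  exact S34LRK_pi_not_isUnit A K1 hu'

/-- the action of such an automorphism on the series `π`: `g π = π ε`, `ε` a constant of `O1`. -/
theorem S35TOR_act_pi (N : ℕ) [NeZero N] (g : GQ) (hg : ∀ x ∈ A, g x ∈ A)
    (hg' : ∀ x ∈ A, g⁻¹ x ∈ A) :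
    ∃ ε ∈ S18K_V A K1 N, S34ACT_act K1 hstab g (S18K_π A K1) = S18K_π A K1 * ε := by
  obtain ⟨w, hw⟩ := S35TOR_resO_pi A K1 hstab g hg hg'
  refine ⟨HahnSeries.C ((w : K1)), S35TOR_C_mem_V A K1 N w.2, ?_⟩
  rw [S34LRK_pi_eq, S34ACT_act_C, ← map_mul]
  congr 1
  have := congrArg (fun z : S18K_O1 A K1 => (z : K1)) hw
  exact this

variable (q N' N : ℕ) [NeZero N'] [NeZero N] [NeZero q]
  (hq : q.Prime) (hqN : ¬ q ∣ N') (hN : N = q * N')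

/-- the norm of a nonzero element is nonzero (no finiteness needed) -/
theorem S35TOR_norm_ne_zero {R S : Type*} [CommRing R] [Nontrivial R] [Field S] [Algebra R S]
    {x : S} (hx : x ≠ 0) : Algebra.norm R x ≠ 0 := by
  intro h
  have h1 : Algebra.norm R x * Algebra.norm R x⁻¹ = 1 := by
    rw [← map_mul, mul_inv_cancel₀ hx, map_one]
  rw [h, zero_mul] at h1
  exact zero_ne_one h1

include hq hqN hN in
/-- **GEO-TORIC, explicit form.** -/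
theorem S35TOR_explicit (hA : A.LiesOverPrime q) (σ : GQ) (hσ : A.IsFrobeniusAt σ q) (n : ℕ)
    {f : LaurentSeries K1} (hf1 : f ∈ S18K_V A K1 N)
    (hf2 : f ∈ S34V0K_V A K1 q N' N hq hqN hN)
    {g1 g2 : LaurentSeries K1} (hg1 : g1 ∈ S18K_V A K1 N') (hg1' : g1⁻¹ ∈ S18K_V A K1 N')
    (hg2 : g2 ∈ S18K_V A K1 N') (hg2' : g2⁻¹ ∈ S18K_V A K1 N')
    {γ1 γ2 : K1} (hγ1 : (γ1 : Qb) ∈ A) (hγ1' : ((γ1 : Qb))⁻¹ ∈ A)
    (hγ2 : (γ2 : Qb) ∈ A) (hγ2' : ((γ2 : Qb))⁻¹ ∈ A)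
    (hα : letI := S34KEY_alg (S34V3K_F1_mono K1 (S34V0K_dvd hN))
      ((Algebra.norm ↥(S18K_F1 K1 N') (⟨f, hf1.2⟩ : ↥(S18K_F1 K1 N)) : ↥(S18K_F1 K1 N')) :
        LaurentSeries K1) = HahnSeries.C γ1 * g1 ^ n)
    (hβ : letI := S34KEY_alg (S34V3K_F1_mono K1 (S34V0K_dvd hN))
      ((Algebra.norm ↥(S18K_F1 K1 N')
        (⟨S34V0_wL (S34V0K_emb K1) q N' N hq hqN hN f,
          S34V0_wL_mem (S34V0K_emb K1) q N' N hq hqN hN f⟩ : ↥(S18K_F1 K1 N)) :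
          ↥(S18K_F1 K1 N')) : LaurentSeries K1) = HahnSeries.C γ2 * g2 ^ n) :
    (∃ v ∈ S18K_V A K1 N, S34ACT_act K1 hstab σ (S34ACT_act K1 hstab σ f) =
      f * (HahnSeries.C (S34ACT_res K1 hstab σ γ2 / γ1) *
        (S34ACT_act K1 hstab σ g2 / g1) ^ n) * (1 + S18K_π A K1 * v)) ∧
    (∃ v ∈ S34V0K_V A K1 q N' N hq hqN hN, S34ACT_act K1 hstab σ (S34ACT_act K1 hstab σ f) =
      f * (HahnSeries.C (S34ACT_res K1 hstab σ γ1 / γ2) *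
        (S34V0_wL (S34V0K_emb K1) q N' N hq hqN hN (S34ACT_act K1 hstab σ g1 / g2)) ^ n) *
        (1 + S18K_π A K1 * v)) := by
  by_cases hf0 : f = 0
  · subst hf0
    refine ⟨⟨0, zero_mem _, ?_⟩, ⟨0, zero_mem _, ?_⟩⟩
    · rw [map_zero, map_zero, zero_mul, zero_mul]
    · rw [map_zero, map_zero, zero_mul, zero_mul]
  have hσA := S35FC_mem A q σ hσ
  have hσA' := S35FC_mem_inv A q σ hσ
  have hN'N : N' ∣ N := S34V0K_dvd hN
  -- the units `U1`, `U2`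
  have hCγ1 := S35TOR_C_mem_V A K1 N' hγ1
  have hCγ2 := S35TOR_C_mem_V A K1 N' hγ2
  have hCγ1' : (HahnSeries.C γ1 : LaurentSeries K1)⁻¹ ∈ S18K_V A K1 N' := by
    rw [← map_inv₀]
    refine S35TOR_C_mem_V A K1 N' ?_
    rw [IntermediateField.coe_inv]
    exact hγ1'
  have hCγ2' : (HahnSeries.C γ2 : LaurentSeries K1)⁻¹ ∈ S18K_V A K1 N' := by
    rw [← map_inv₀]
    refine S35TOR_C_mem_V A K1 N' ?_
    rw [IntermediateField.coe_inv]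
    exact hγ2'
  have hU1 : HahnSeries.C γ1 * g1 ^ n ∈ S18K_V A K1 N' := mul_mem hCγ1 (pow_mem hg1 n)
  have hU2 : HahnSeries.C γ2 * g2 ^ n ∈ S18K_V A K1 N' := mul_mem hCγ2 (pow_mem hg2 n)
  have hU1' : (HahnSeries.C γ1 * g1 ^ n)⁻¹ ∈ S18K_V A K1 N' := by
    rw [mul_inv, ← inv_pow]
    exact mul_mem hCγ1' (pow_mem hg1' n)
  have hU2' : (HahnSeries.C γ2 * g2 ^ n)⁻¹ ∈ S18K_V A K1 N' := by
    rw [mul_inv, ← inv_pow]
    exact mul_mem hCγ2' (pow_mem hg2' n)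
  have hwf0 : S34V0_wL (S34V0K_emb K1) q N' N hq hqN hN f ≠ 0 := by
    intro h0
    apply hf0
    rw [← S34V0_wL_wL (S34V0K_emb K1) q N' N hq hqN hN hf1.2, h0, S34V0_wL_zero]
  letI alg : Algebra ↥(S18K_F1 K1 N') ↥(S18K_F1 K1 N) :=
    S34KEY_alg (S34V3K_F1_mono K1 (S34V0K_dvd hN))
  have hU10 : HahnSeries.C γ1 * g1 ^ n ≠ 0 := by
    rw [← hα]
    intro h0
    have hne : (⟨f, hf1.2⟩ : ↥(S18K_F1 K1 N)) ≠ 0 := fun h => hf0 (congrArg Subtype.val h)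
    exact S35TOR_norm_ne_zero (R := ↥(S18K_F1 K1 N')) hne (Subtype.ext h0)
  have hU20 : HahnSeries.C γ2 * g2 ^ n ≠ 0 := by
    rw [← hβ]
    intro h0
    have hne : (⟨S34V0_wL (S34V0K_emb K1) q N' N hq hqN hN f,
        S34V0_wL_mem (S34V0K_emb K1) q N' N hq hqN hN f⟩ : ↥(S18K_F1 K1 N)) ≠ 0 :=
      fun h => hwf0 (congrArg Subtype.val h)
    exact S35TOR_norm_ne_zero (R := ↥(S18K_F1 K1 N')) hne (Subtype.ext h0)
  have hwf1 : S34V0_wL (S34V0K_emb K1) q N' N hq hqN hN f ∈ S18K_V A K1 N := hf2.2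
  have hwf2 : S34V0_wL (S34V0K_emb K1) q N' N hq hqN hN f ∈ S34V0K_V A K1 q N' N hq hqN hN :=
    S34V0_wL_mem_image (S34V0K_emb K1) q N' N hq hqN hN hf1.2 hf1
  -- the abstract theorem
  have key := S35TOR_abs (π := S18K_π A K1) (F1 := S18K_F1 K1 N) (V' := S18K_V A K1 N')
    (V1 := S18K_V A K1 N) (V2 := S34V0K_V A K1 q N' N hq hqN hN)
    (S35TOR_rad_of_val (S34V3K_val1 A K1 N')) (S35TOR_rad_of_val (S34V3K_val1 A K1 N))
    (S34V3K_V_mono A K1 hN'N) (fun x hx => hx.2)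
    (S34ACT_act K1 hstab σ) (fun x hx => S34ACT_mem_V K1 hstab A N' σ hσA hx)
    (fun x hx => S34ACT_mem_V K1 hstab A N σ hσA hx)
    (S35TOR_act_pi A K1 hstab N' σ hσA hσA')
    (S34V0_wL (S34V0K_emb K1) q N' N hq hqN hN)
    (fun x hx y hy => S34V0_wL_mul (S34V0K_emb K1) q N' N hq hqN hN hx hy)
    (fun x hx y hy => S34V0_wL_add (S34V0K_emb K1) q N' N hq hqN hN hx hy)
    (fun x hx y hy => by
      rw [sub_eq_add_neg, S34V0_wL_add (S34V0K_emb K1) q N' N hq hqN hN hx (neg_mem hy),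
        S34V0_wL_neg (S34V0K_emb K1) q N' N hq hqN hN hy, ← sub_eq_add_neg])
    (S34V0_wL_one (S34V0K_emb K1) q N' N hq hqN hN)
    (S34V0_wL_C (S34V0K_emb K1) q N' N hq hqN hN _)
    (fun x hx => S34V0_wL_wL (S34V0K_emb K1) q N' N hq hqN hN hx)
    (fun x _ => S35TOR_wL_act K1 hstab q N' N hq hqN hN σ x)
    (fun x hx => S34V0_wL_mem_image (S34V0K_emb K1) q N' N hq hqN hN hx.2 hx)
    (fun x hx => hx.2)
    q (S35FC_two A K1 hstab q N' N hq hqN hN hA σ hσ)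
    (S34P1C_key A K1 q N' N hq hqN hN hA).2.2.2.2
    hf1 hf2 hU1 hU1' hU10 hU2 hU2' hU20
    (fun a ha c hc hfa hfc => by
      obtain ⟨r, hr, er, v, hv, e⟩ :=
        S35NRK_main A K1 q N' N hq hqN hN hA hf1 hf2 ha hc hfa hfc
      refine ⟨v, hv, ?_⟩
      rw [← hα, er]
      exact e)
    (fun a ha c hc hfa hfc => by
      obtain ⟨r, hr, er, v, hv, e⟩ :=
        S35NRK_main A K1 q N' N hq hqN hN hA hwf1 hwf2 ha hc hfa hfc
      refine ⟨v, hv, ?_⟩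
      rw [← hβ, er]
      exact e)
  -- rewriting the two ratios
  have e1 : S34ACT_act K1 hstab σ (HahnSeries.C γ2 * g2 ^ n) / (HahnSeries.C γ1 * g1 ^ n)
      = HahnSeries.C (S34ACT_res K1 hstab σ γ2 / γ1) *
        (S34ACT_act K1 hstab σ g2 / g1) ^ n := by
    rw [map_mul, map_pow, S34ACT_act_C, map_div₀, div_pow, mul_div_mul_comm]
  have e2 : S34ACT_act K1 hstab σ (HahnSeries.C γ1 * g1 ^ n) / (HahnSeries.C γ2 * g2 ^ n)
      = HahnSeries.C (S34ACT_res K1 hstab σ γ1 / γ2) *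
        (S34ACT_act K1 hstab σ g1 / g2) ^ n := by
    rw [map_mul, map_pow, S34ACT_act_C, map_div₀, div_pow, mul_div_mul_comm]
  have hH2F : S34ACT_act K1 hstab σ g1 / g2 ∈ modularFunctionFieldFullC K1 N :=
    div_mem (S34ACT_mem_V K1 hstab A N σ hσA (S34V3K_V_mono A K1 hN'N hg1)).2
      (S34V3K_V_mono A K1 hN'N hg2).2
  have e3 : S34V0_wL (S34V0K_emb K1) q N' N hq hqN hN
      (HahnSeries.C (S34ACT_res K1 hstab σ γ1 / γ2) * (S34ACT_act K1 hstab σ g1 / g2) ^ n)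
      = HahnSeries.C (S34ACT_res K1 hstab σ γ1 / γ2) *
        (S34V0_wL (S34V0K_emb K1) q N' N hq hqN hN (S34ACT_act K1 hstab σ g1 / g2)) ^ n := by
    rw [S34V0_wL_mul (S34V0K_emb K1) q N' N hq hqN hN (S34V0_C_mem N _) (pow_mem hH2F n),
      S34V0_wL_C, S34V0_wL_pow (S34V0K_emb K1) q N' N hq hqN hN hH2F]
  rw [e1, e2, e3] at key
  exact key

include hq hqN hN in
/-- the explicit constants are units of `A` -/
theorem S35TOR_c_mem (σ : GQ) (hσA : ∀ a ∈ A, σ a ∈ A) {γ1 γ2 : K1}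
    (hγ1' : ((γ1 : Qb))⁻¹ ∈ A) (hγ1 : (γ1 : Qb) ∈ A)
    (hγ2 : (γ2 : Qb) ∈ A) (hγ2' : ((γ2 : Qb))⁻¹ ∈ A) :
    ((S34ACT_res K1 hstab σ γ2 / γ1 : K1) : Qb) ∈ A ∧
      (((S34ACT_res K1 hstab σ γ2 / γ1 : K1) : Qb))⁻¹ ∈ A := by
  have e : ((S34ACT_res K1 hstab σ γ2 / γ1 : K1) : Qb) = σ (γ2 : Qb) * ((γ1 : Qb))⁻¹ := by
    rw [IntermediateField.coe_div, S34ACT_res_coe, div_eq_mul_inv]
  rw [e]
  refine ⟨A.mul_mem _ _ (hσA _ hγ2) hγ1', ?_⟩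
  rw [mul_inv, inv_inv, ← map_inv₀]
  exact A.mul_mem _ _ (hσA _ hγ2') hγ1

include hq hqN hN in
/-- the explicit root `H = σ g2 / g1` of level `N'` is a unit of `V'`, hence of `V1 ⊓ V2`, and
so is `w H`. -/
theorem S35TOR_H_mem (σ : GQ) (hσA : ∀ a ∈ A, σ a ∈ A) {g1 g2 : LaurentSeries K1}
    (hg1 : g1 ∈ S18K_V A K1 N') (hg1' : g1⁻¹ ∈ S18K_V A K1 N')
    (hg2 : g2 ∈ S18K_V A K1 N') (hg2' : g2⁻¹ ∈ S18K_V A K1 N') :
    (S34ACT_act K1 hstab σ g2 / g1 ∈ S18K_V A K1 N' ∧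
      (S34ACT_act K1 hstab σ g2 / g1)⁻¹ ∈ S18K_V A K1 N') ∧
    (S34ACT_act K1 hstab σ g2 / g1 ∈
        (S18K_V A K1 N ⊓ S34V0K_V A K1 q N' N hq hqN hN : Subring (LaurentSeries K1)) ∧
      (S34ACT_act K1 hstab σ g2 / g1)⁻¹ ∈
        (S18K_V A K1 N ⊓ S34V0K_V A K1 q N' N hq hqN hN : Subring (LaurentSeries K1))) ∧
    (S34V0_wL (S34V0K_emb K1) q N' N hq hqN hN (S34ACT_act K1 hstab σ g2 / g1) ∈
        (S18K_V A K1 N ⊓ S34V0K_V A K1 q N' N hq hqN hN : Subring (LaurentSeries K1)) ∧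
      (S34V0_wL (S34V0K_emb K1) q N' N hq hqN hN (S34ACT_act K1 hstab σ g2 / g1))⁻¹ ∈
        (S18K_V A K1 N ⊓ S34V0K_V A K1 q N' N hq hqN hN : Subring (LaurentSeries K1))) := by
  have h1 : S34ACT_act K1 hstab σ g2 / g1 ∈ S18K_V A K1 N' := by
    rw [div_eq_mul_inv]
    exact mul_mem (S34ACT_mem_V K1 hstab A N' σ hσA hg2) hg1'
  have h2 : (S34ACT_act K1 hstab σ g2 / g1)⁻¹ ∈ S18K_V A K1 N' := by
    rw [inv_div, div_eq_mul_inv, ← map_inv₀]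
    exact mul_mem hg1 (S34ACT_mem_V K1 hstab A N' σ hσA hg2')
  obtain ⟨-, a1, a2, a3, a4, -⟩ := S35FC_wL_level A K1 hstab q N' N hq hqN hN σ hσA _ h1
  obtain ⟨-, b1, b2, b3, b4, -⟩ := S35FC_wL_level A K1 hstab q N' N hq hqN hN σ hσA _ h2
  refine ⟨⟨h1, h2⟩, ⟨⟨a3, a4⟩, ⟨b3, b4⟩⟩, ⟨⟨a1, a2⟩, ?_⟩⟩
  rw [← S34V0_wL_inv (S34V0K_emb K1) q N' N hq hqN hN a3.2]
  exact ⟨b1, b2⟩

include hq hqN hN in
/-- **GEO-TORIC** (the typed contract of GEO plan v1, pieces row 530). -/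
theorem S35TOR_main (hA : A.LiesOverPrime q) (σ : GQ) (hσ : A.IsFrobeniusAt σ q) (n : ℕ)
    {f : LaurentSeries K1} (hf1 : f ∈ S18K_V A K1 N) (hf1' : f⁻¹ ∈ S18K_V A K1 N)
    (hf2 : f ∈ S34V0K_V A K1 q N' N hq hqN hN)
    (hf2' : f⁻¹ ∈ S34V0K_V A K1 q N' N hq hqN hN)
    {g1 g2 : LaurentSeries K1} (hg1 : g1 ∈ S18K_V A K1 N') (hg1' : g1⁻¹ ∈ S18K_V A K1 N')
    (hg2 : g2 ∈ S18K_V A K1 N') (hg2' : g2⁻¹ ∈ S18K_V A K1 N')
    {γ1 γ2 : K1} (hγ1 : (γ1 : Qb) ∈ A) (hγ1' : ((γ1 : Qb))⁻¹ ∈ A)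
    (hγ2 : (γ2 : Qb) ∈ A) (hγ2' : ((γ2 : Qb))⁻¹ ∈ A)
    (hα : letI := S34KEY_alg (S34V3K_F1_mono K1 (S34V0K_dvd hN))
      ((Algebra.norm ↥(S18K_F1 K1 N') (⟨f, hf1.2⟩ : ↥(S18K_F1 K1 N)) : ↥(S18K_F1 K1 N')) :
        LaurentSeries K1) = HahnSeries.C γ1 * g1 ^ n)
    (hβ : letI := S34KEY_alg (S34V3K_F1_mono K1 (S34V0K_dvd hN))
      ((Algebra.norm ↥(S18K_F1 K1 N')
        (⟨S34V0_wL (S34V0K_emb K1) q N' N hq hqN hN f,
          S34V0_wL_mem (S34V0K_emb K1) q N' N hq hqN hN f⟩ : ↥(S18K_F1 K1 N)) :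
          ↥(S18K_F1 K1 N')) : LaurentSeries K1) = HahnSeries.C γ2 * g2 ^ n) :
    ∃ c1 c2 : K1, (c1 : Qb) ∈ A ∧ ((c1 : Qb))⁻¹ ∈ A ∧ (c2 : Qb) ∈ A ∧ ((c2 : Qb))⁻¹ ∈ A ∧
    ∃ H1 H2 : LaurentSeries K1, H1 ∈ S18K_F1 K1 N ∧ H2 ∈ S18K_F1 K1 N ∧
      H1 ∈ (S18K_V A K1 N ⊓ S34V0K_V A K1 q N' N hq hqN hN : Subring (LaurentSeries K1)) ∧
      H1⁻¹ ∈ (S18K_V A K1 N ⊓ S34V0K_V A K1 q N' N hq hqN hN : Subring (LaurentSeries K1)) ∧
      H2 ∈ (S18K_V A K1 N ⊓ S34V0K_V A K1 q N' N hq hqN hN : Subring (LaurentSeries K1)) ∧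
      H2⁻¹ ∈ (S18K_V A K1 N ⊓ S34V0K_V A K1 q N' N hq hqN hN : Subring (LaurentSeries K1)) ∧
      (∃ v ∈ S18K_V A K1 N, S34ACT_act K1 hstab σ (S34ACT_act K1 hstab σ f) =
        f * (HahnSeries.C c1 * H1 ^ n) * (1 + S18K_π A K1 * v)) ∧
      (∃ v ∈ S34V0K_V A K1 q N' N hq hqN hN,
        S34ACT_act K1 hstab σ (S34ACT_act K1 hstab σ f) =
        f * (HahnSeries.C c2 * H2 ^ n) * (1 + S18K_π A K1 * v)) := by
  have hσA := S35FC_mem A q σ hσ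
  obtain ⟨k1, k2⟩ := S35TOR_explicit A K1 hstab q N' N hq hqN hN hA σ hσ n hf1 hf2
    hg1 hg1' hg2 hg2' hγ1 hγ1' hγ2 hγ2' hα hβ
  obtain ⟨c1a, c1b⟩ := S35TOR_c_mem A K1 hstab q N' N hq hqN hN σ hσA hγ1' hγ1 hγ2 hγ2'
  obtain ⟨c2a, c2b⟩ := S35TOR_c_mem A K1 hstab q N' N hq hqN hN σ hσA hγ2' hγ2 hγ1 hγ1'
  obtain ⟨-, ⟨m1, m1'⟩, -⟩ :=
    S35TOR_H_mem A K1 hstab q N' N hq hqN hN σ hσA hg1 hg1' hg2 hg2'
  obtain ⟨-, -, ⟨m2, m2'⟩⟩ :=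
    S35TOR_H_mem A K1 hstab q N' N hq hqN hN σ hσA hg2 hg2' hg1 hg1'
  exact ⟨_, _, c1a, c1b, c2a, c2b, _, _, m1.1.2, m2.1.2, m1, m1', m2, m2', k1, k2⟩

end Concrete

end Fermat.Agent.S35_helper15_TORIC
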