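import Mathlib
import Fermat.Agent.S35_helper6_GEOTOP
import Fermat.Agent.S35_helper15_FC
import Fermat.Agent.S35_helper13_NORMREDK
import Fermat.Agent.S34_helper27_P1C

/-!
# S35, GEO (operator route): the key statement at one level (helper19, GEO lead)

Interface between the two halves of X-D-FROB:

* Part I  (descent)      : `S35KD_KeyK1 N' q lam hq hqN → S35GT_Key N' q lam`  (helper6's
  divisor-level contract);
* Part II (the geometry) : `S35KD_KeyK1 N' q lam hq hqN` from the landed bricks.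

Definitions only.  With `act τ := S34ACT_act K1 hstab τ` (coefficientwise action):

* `S35KD_d1 σ f = act σ f / f`, `S35KD_d2 σ f = act (σ * σ) f / f`,
  `S35KD_dq q σ f = act (σ * σ) f / f ^ (q ^ 2)`, `S35KD_theta q σ f = dq (d2 (d1 f))`
  (the multiplicative form of `Θ = (σ² - q²)(σ² - 1)(σ - 1)`);
* `S35KD_New` : the two norms of `f` to the level `N'` (along `α`, and along `β` = along `α` after
  the Atkin–Lehner involution) are constants times `n`-th powers;
* `S35KD_KeyK1` : the key statement at the level `K1`.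
-/

set_option autoImplicit false
set_option linter.unusedSectionVars false
set_option linter.unusedVariables false
set_option linter.style.haveILetI false

open AlgebraicCurve ModularCurve HahnSeries IntermediateField
open Fermat.Agent.S18_helper25_COREDefs Fermat.Agent.S34_helper6_RED
  Fermat.Agent.S37_helper4_B1Defs Fermat.Agent.S37_helper5_LEVEL
  Fermat.Agent.S34_helper21_ACT Fermat.Agent.S34_helper20_V0 Fermat.Agent.S34_helper20_V0K
  Fermat.Agent.S34_helper13_KEY Fermat.Agent.S34_helper27_V3K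
  Fermat.Agent.S35_helper6_GEOTOP

noncomputable section

namespace Fermat.Agent.S35_helper19_KEYDefs

local notation "Qb" => AlgebraicClosure ℚ
local notation "GQ" => (AlgebraicClosure ℚ ≃ₐ[ℚ] AlgebraicClosure ℚ)

variable (K1 : IntermediateField ℚ Qb) (hstab : ∀ σ : GQ, ∀ x ∈ K1, σ x ∈ K1)

/-- `(σ - 1) f = σ f / f` -/
def S35KD_d1 (σ : GQ) (f : LaurentSeries K1) : LaurentSeries K1 :=
  S34ACT_act K1 hstab σ f * f⁻¹

/-- `(σ² - 1) f = σ² f / f` -/
def S35KD_d2 (σ : GQ) (f : LaurentSeries K1) : LaurentSeries K1 :=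
  S34ACT_act K1 hstab (σ * σ) f * f⁻¹

/-- `(σ² - q²) f = σ² f / f ^ (q ^ 2)` -/
def S35KD_dq (q : ℕ) (σ : GQ) (f : LaurentSeries K1) : LaurentSeries K1 :=
  S34ACT_act K1 hstab (σ * σ) f * (f ^ (q ^ 2))⁻¹

/-- `Θ f = (σ² - q²)(σ² - 1)(σ - 1) f`, multiplicatively -/
def S35KD_theta (q : ℕ) (σ : GQ) (f : LaurentSeries K1) : LaurentSeries K1 :=
  S35KD_dq K1 hstab q σ (S35KD_d2 K1 hstab σ (S35KD_d1 K1 hstab σ f))

/-- **newness at the level `K1`**: the norm of `f` and of `w f` from the level `N' * q` to the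
level `N'` is a nonzero constant times an `n`-th power. -/
def S35KD_New {q : ℕ} [NeZero q] (hq : q.Prime) (N' : ℕ) [NeZero N'] [NeZero (N' * q)]
    (hqN : ¬ q ∣ N') (n : ℕ) (f : LaurentSeries K1) : Prop :=
  letI := S34KEY_alg (S34V3K_F1_mono K1 (S34V0K_dvd (Nat.mul_comm N' q)))
  (∃ hf : f ∈ S18K_F1 K1 (N' * q), ∃ c₁ : K1, c₁ ≠ 0 ∧
    ∃ h₁ ∈ modularFunctionFieldFullC K1 N', h₁ ≠ 0 ∧
      ((Algebra.norm ↥(S18K_F1 K1 N') (⟨f, hf⟩ : ↥(S18K_F1 K1 (N' * q))) : ↥(S18K_F1 K1 N')) :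
        LaurentSeries K1) = HahnSeries.C c₁ * h₁ ^ n) ∧
  (∃ hf : S34V0_wL (S34V0K_emb K1) q N' (N' * q) hq hqN (Nat.mul_comm N' q) f ∈
      S18K_F1 K1 (N' * q), ∃ c₂ : K1, c₂ ≠ 0 ∧
    ∃ h₂ ∈ modularFunctionFieldFullC K1 N', h₂ ≠ 0 ∧
      ((Algebra.norm ↥(S18K_F1 K1 N')
          (⟨S34V0_wL (S34V0K_emb K1) q N' (N' * q) hq hqN (Nat.mul_comm N' q) f, hf⟩ :
            ↥(S18K_F1 K1 (N' * q))) : ↥(S18K_F1 K1 N')) :
        LaurentSeries K1) = HahnSeries.C c₂ * h₂ ^ n)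

/-- **The key statement at one level.**  At every admissible Galois-stable level `K1`, for a
Frobenius lift `σ` at `A`, a divisor `D` with `K1`-rational support, a NEW function `f0` over
`K1` with `div f0 = lam ^ (k + 1) D` and a function `h1` over `K1` with
`h1 ^ (lam ^ k) = Θ f0`, `div h1 = lam · Θ D`, whose leading coefficient is a `lam`-th power in
`K1`: the function `h1` is a `lam`-th power in `F1(K1)`. -/
def S35KD_KeyK1 (N' q lam : ℕ) [NeZero N'] [NeZero q] [NeZero (N' * q)] (hq : q.Prime)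
    (hqN : ¬ q ∣ N') : Prop :=
  ∀ (A : ValuationSubring Qb), A.LiesOverPrime q →
  ∀ (K1 : IntermediateField ℚ Qb) (_hadm : S18K_Admissible A K1 q)
    (hstab : ∀ σ : GQ, ∀ y ∈ K1, σ y ∈ K1),
  ∀ σ : GQ, A.IsFrobeniusAt σ q →
  ∀ (D : Divisor Qb (modularFunctionFieldBar (N' * q))),
    (∀ P : Place Qb (modularFunctionFieldBar (N' * q)), D P ≠ 0 →
      S37LEVEL_IsRational (N' * q) K1 P) →
  ∀ (k : ℕ) (f0 : LaurentSeries K1), f0 ∈ S18K_F1 K1 (N' * q) → f0 ≠ 0 →
    (∀ P : Place Qb (modularFunctionFieldBar (N' * q)),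
      S37B1_ordP (N' * q) K1 P f0 = (lam : ℤ) ^ (k + 1) * D P) →
    S35KD_New K1 hq N' hqN (lam ^ (k + 1)) f0 →
  ∀ (h1 : LaurentSeries K1), h1 ∈ S18K_F1 K1 (N' * q) → h1 ≠ 0 →
    h1 ^ (lam ^ k) = S35KD_theta K1 hstab q σ f0 →
    (∀ P : Place Qb (modularFunctionFieldBar (N' * q)),
      S37B1_ordP (N' * q) K1 P h1 = (lam : ℤ) * S35GT_thetaD (N' * q) q σ D P) →
    (∃ r : K1, r ^ lam = h1.coeff h1.order) →
    ∃ w : LaurentSeries K1, w ∈ S18K_F1 K1 (N' * q) ∧ w ^ lam = h1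

end Fermat.Agent.S35_helper19_KEYDefs
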