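import Mathlib
import Fermat.Agent.S34_helper25_Defs
import Fermat.Agent.S34_helper21_ACT
import Fermat.Agent.S34_helper20_V0K
import Fermat.Agent.S34_helper27_V3K
import Fermat.Agent.S34_helper13_KEY
import Fermat.Agent.S35_helper6_GEOTOP

/-!
# S35, X-D-FROB: the key statement at one level (interface between Part I and Part II)

`Θ = (σ² - q²)(σ² - 1)(σ - 1)`, `s := σ * σ`, `act := S34ACT_act K1 hstab`.  On functions
(multiplicatively): `f' := act σ f / f`, `f'' := act s f' / f'`, `f''' := act s f'' / f'' ^ (q²)`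
(`S35XB_f1`, `S35XB_f2`, `S35XB_f3`).

`S35XB_NewAt K1 N' q hq hqN n f hf` : newness of `f ∈ F1(K1, N' q)` in NORM FORM with exponent
`n` (the shape consumed by helper15's TORIC / REDNEW): the norm of `f` to level `N'` is
`C c₁ · h₁ ^ n`, and so is the norm of `wL f`.

`S35XB_KeyK1 N' q lam hq hqN` : at every admissible Galois-stable level `K1`, for a Frobenius
element `σ` at `A`, a divisor `D` of degree `0` with `K1`-rational support, `f0` over `K1` with
`div f0 = (lam * n') • D`, new in norm form with exponent `lam * n'`, and `h1` over `K1` with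
`h1 ^ n' = f'''(f0)` (EXACT equality, the constant is normalised away in Part I),
`div h1 = lam • Θ D` and the leading coefficient of `h1` a `lam`-th power in `K1`:
the function `h1` is a `lam`-th power in `F1(K1)`.

* Part I  (`S35_helper4_XB`) : norm bridge + `S35XB_KeyK1 N' q lam hq hqN → S35GT_Key N' q lam`;
* Part II : the GEO bricks `→ S35XB_KeyK1 N' q lam hq hqN` (closing half: helper27's
  `S35CL_root`).
-/

set_option autoImplicit false
set_option linter.unusedSectionVars false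
set_option linter.unusedVariables false

open HahnSeries IntermediateField AlgebraicCurve ModularCurve
open Fermat.Agent.S18_helper25_COREDefs Fermat.Agent.S34_helper5_K0
  Fermat.Agent.S34_helper6_RED Fermat.Agent.S37_helper5_LEVEL Fermat.Agent.S34_helper25_Defs
  Fermat.Agent.S34_helper21_ACT Fermat.Agent.S34_helper20_V0 Fermat.Agent.S34_helper20_V0K
  Fermat.Agent.S34_helper27_V3K Fermat.Agent.S34_helper13_KEY Fermat.Agent.S35_helper6_GEOTOP

noncomputable section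

namespace Fermat.Agent.S35_helper4_K1Defs

local notation "Qb" => AlgebraicClosure ℚ
local notation "GQ" => (AlgebraicClosure ℚ ≃ₐ[ℚ] AlgebraicClosure ℚ)

section Ops

variable (K1 : IntermediateField ℚ Qb) (hstab : ∀ σ : GQ, ∀ y ∈ K1, σ y ∈ K1)

/-- `f' = (σ - 1) f = act σ f / f`. -/
def S35XB_f1 (σ : GQ) (f : LaurentSeries K1) : LaurentSeries K1 :=
  S34ACT_act K1 hstab σ f * f⁻¹

/-- `f'' = (σ² - 1)(σ - 1) f = act (σσ) f' / f'`. -/
def S35XB_f2 (σ : GQ) (f : LaurentSeries K1) : LaurentSeries K1 :=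
  S34ACT_act K1 hstab (σ * σ) (S35XB_f1 K1 hstab σ f) * (S35XB_f1 K1 hstab σ f)⁻¹

/-- `f''' = (σ² - q²)(σ² - 1)(σ - 1) f = act (σσ) f'' / f'' ^ (q²)`. -/
def S35XB_f3 (q : ℕ) (σ : GQ) (f : LaurentSeries K1) : LaurentSeries K1 :=
  S34ACT_act K1 hstab (σ * σ) (S35XB_f2 K1 hstab σ f) * (S35XB_f2 K1 hstab σ f ^ (q ^ 2))⁻¹

end Ops

/-- **newness in norm form** (exponent `n`) of `f ∈ F1(K1, N' q)`: the norms of `f` and of
`wL f` to the level `N'` are constant multiples of `n`-th powers. -/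
def S35XB_NewAt (K1 : IntermediateField ℚ Qb) (N' q : ℕ) [NeZero N'] [NeZero q]
    (hq : q.Prime) (hqN : ¬ q ∣ N') (n : ℕ) (f : LaurentSeries K1)
    (hf : f ∈ S18K_F1 K1 (N' * q)) : Prop :=
  (∃ c₁ : K1, c₁ ≠ 0 ∧ ∃ h₁ : LaurentSeries K1, h₁ ∈ S18K_F1 K1 N' ∧ h₁ ≠ 0 ∧
    letI := S34KEY_alg (S34V3K_F1_mono K1 (S34V0K_dvd (Nat.mul_comm N' q)))
    ((Algebra.norm ↥(S18K_F1 K1 N') (⟨f, hf⟩ : ↥(S18K_F1 K1 (N' * q))) : ↥(S18K_F1 K1 N')) :
      LaurentSeries K1) = HahnSeries.C c₁ * h₁ ^ n) ∧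
  (∃ c₂ : K1, c₂ ≠ 0 ∧ ∃ h₂ : LaurentSeries K1, h₂ ∈ S18K_F1 K1 N' ∧ h₂ ≠ 0 ∧
    letI := S34KEY_alg (S34V3K_F1_mono K1 (S34V0K_dvd (Nat.mul_comm N' q)))
    ((Algebra.norm ↥(S18K_F1 K1 N')
      (⟨S34V0_wL (S34V0K_emb K1) q N' (N' * q) hq hqN (Nat.mul_comm N' q) f,
        S34V0_wL_mem (S34V0K_emb K1) q N' (N' * q) hq hqN (Nat.mul_comm N' q) f⟩ :
          ↥(S18K_F1 K1 (N' * q))) : ↥(S18K_F1 K1 N')) :
      LaurentSeries K1) = HahnSeries.C c₂ * h₂ ^ n)

/-- **The key statement at one level.** -/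
def S35XB_KeyK1 (N' q : ℕ) [NeZero N'] [NeZero q] (lam : ℕ) (hq : q.Prime)
    (hqN : ¬ q ∣ N') : Prop :=
  ∀ (A : ValuationSubring Qb), A.LiesOverPrime q →
  ∀ (K1 : IntermediateField ℚ Qb) (_hadm : S18K_Admissible A K1 q)
    (hstab : ∀ σ : GQ, ∀ y ∈ K1, σ y ∈ K1),
  ∀ σ : GQ, A.IsFrobeniusAt σ q →
  ∀ (D : Divisor Qb (modularFunctionFieldBar (N' * q))),
    D ∈ Divisor.degZero (K := Qb) (F := modularFunctionFieldBar (N' * q)) →
    (∀ P : Place Qb (modularFunctionFieldBar (N' * q)), D P ≠ 0 →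
      S37LEVEL_IsRational (N' * q) K1 P) →
  ∀ (n' : ℕ), n' ≠ 0 →
  ∀ (f0 : LaurentSeries K1) (hf0 : f0 ∈ S18K_F1 K1 (N' * q)), f0 ≠ 0 →
    (∀ P : Place Qb (modularFunctionFieldBar (N' * q)),
      P.ord (S34XD_inc K1 (N' * q) ⟨f0, hf0⟩) = ((lam * n' : ℕ) : ℤ) * D P) →
    S35XB_NewAt K1 N' q hq hqN (lam * n') f0 hf0 →
  ∀ (h1 : modularFunctionFieldFullC K1 (N' * q)), (h1 : LaurentSeries K1) ≠ 0 →
    (h1 : LaurentSeries K1) ^ n' = S35XB_f3 K1 hstab q σ f0 →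
    (∀ P : Place Qb (modularFunctionFieldBar (N' * q)),
      P.ord (S34XD_inc K1 (N' * q) h1) = (lam : ℤ) * S35GT_thetaD (N' * q) q σ D P) →
    (∃ r : K1, r ^ lam = (h1 : LaurentSeries K1).coeff (h1 : LaurentSeries K1).order) →
    ∃ w : LaurentSeries K1, w ∈ S18K_F1 K1 (N' * q) ∧ w ^ lam = (h1 : LaurentSeries K1)

/-- **The norm bridge (contract, provider: helper20 NORM-BRIDGE NB1-NB3)**: over `ℚ̄`, a function
`f` with `div f = n • D`, `D` with principal push-forwards along `α` and `β`, is new in norm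
form at every level `K1` containing a finite set `S` of elements of `ℚ̄`. -/
def S35XB_NormBridge (N' q : ℕ) [NeZero N'] [NeZero q] (hq : q.Prime) (hqN : ¬ q ∣ N') : Prop :=
  ∀ (n : ℕ) (D : Divisor Qb (modularFunctionFieldBar (N' * q)))
    (f : modularFunctionFieldBar (N' * q)), f ≠ 0 →
    (∀ P : Place Qb (modularFunctionFieldBar (N' * q)), P.ord f = (n : ℤ) * D P) →
    (Divisor.pushforwardAlong (heckeAlphaBar Qb N' q)
      (Fermat.Agent.G_helper21_B0L.PG_B0L_heckeAlphaBarIntegral Qb N' q) D).IsPrincipal →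
    (Divisor.pushforwardAlong (heckeBetaBar Qb N' q)
      (Fermat.Agent.G_helper21_B0L.PG_B0L_heckeBetaBarIntegral Qb N' q) D).IsPrincipal →
    ∃ S : Finset Qb, ∀ K1 : IntermediateField ℚ Qb, (∀ s ∈ S, s ∈ K1) →
      ∀ (f0 : LaurentSeries K1) (hf0 : f0 ∈ S18K_F1 K1 (N' * q)),
        coeffMap (algebraMap K1 Qb) f0 = (f : LaurentSeries Qb) →
        S35XB_NewAt K1 N' q hq hqN n f0 hf0

end Fermat.Agent.S35_helper4_K1Defs
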