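import Mathlib
import Fermat.Agent.S35_helper4_K1Defs
import Fermat.Agent.S35_helper19_KEYDefs

/-!
# S35, X-D-FROB: adapter between the two typed forms of the key statement at one level

Two interface files for the key statement at one admissible level `K1` are on main:

* `S35XB_KeyK1` (helper4, `S35_helper4_K1Defs`): general exponent `lam * n'`, orders through
  `P.ord (S34XD_inc ..)`, `h1` a subtype element, `D` of degree `0`;
* `S35KD_KeyK1` (helper19, `S35_helper19_KEYDefs`): exponents `lam ^ (k + 1)` and `lam ^ k`,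
  orders through `S37B1_ordP`, `h1` a bare series.

This file proves that each implies the other (for `lam` prime), so that Part I and Part II of
X-D-FROB can be typed against either of them.
-/

set_option autoImplicit false
set_option linter.unusedSectionVars false
set_option linter.unusedVariables false
set_option linter.style.haveILetI false

open AlgebraicCurve ModularCurve HahnSeries IntermediateField
open Fermat.Agent.S18_helper25_COREDefs Fermat.Agent.S34_helper6_RED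
  Fermat.Agent.S37_helper4_B1Defs Fermat.Agent.S37_helper5_LEVEL
  Fermat.Agent.S34_helper25_Defs
  Fermat.Agent.S34_helper21_ACT Fermat.Agent.S34_helper20_V0 Fermat.Agent.S34_helper20_V0K
  Fermat.Agent.S34_helper13_KEY Fermat.Agent.S34_helper27_V3K
  Fermat.Agent.S35_helper6_GEOTOP Fermat.Agent.S35_helper4_K1Defs
  Fermat.Agent.S35_helper19_KEYDefs

noncomputable section

namespace Fermat.Agent.S35_helper16_KEYADAPT

local notation "Qb" => AlgebraicClosure ℚ
local notation "GQ" => (AlgebraicClosure ℚ ≃ₐ[ℚ] AlgebraicClosure ℚ)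

/-- the two multiplicative forms of `Θ` agree (definitionally). -/
theorem S35KA_theta_eq (K1 : IntermediateField ℚ Qb) (hstab : ∀ σ : GQ, ∀ x ∈ K1, σ x ∈ K1)
    (q : ℕ) (σ : GQ) (f : LaurentSeries K1) :
    S35KD_theta K1 hstab q σ f = S35XB_f3 K1 hstab q σ f := rfl

/-- the two forms of newness agree. -/
theorem S35KA_new_iff (K1 : IntermediateField ℚ Qb) {q : ℕ} [NeZero q] (hq : q.Prime)
    (N' : ℕ) [NeZero N'] [NeZero (N' * q)] (hqN : ¬ q ∣ N') (n : ℕ) (f : LaurentSeries K1) :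
    S35KD_New K1 hq N' hqN n f ↔
      ∃ hf : f ∈ S18K_F1 K1 (N' * q), S35XB_NewAt K1 N' q hq hqN n f hf := by
  constructor
  · rintro ⟨⟨hf, c₁, hc₁, h₁, hh₁, hh₁0, e₁⟩, ⟨hf', c₂, hc₂, h₂, hh₂, hh₂0, e₂⟩⟩
    exact ⟨hf, ⟨c₁, hc₁, h₁, hh₁, hh₁0, e₁⟩, ⟨c₂, hc₂, h₂, hh₂, hh₂0, e₂⟩⟩
  · rintro ⟨hf, ⟨c₁, hc₁, h₁, hh₁, hh₁0, e₁⟩, ⟨c₂, hc₂, h₂, hh₂, hh₂0, e₂⟩⟩
    exact ⟨⟨hf, c₁, hc₁, h₁, hh₁, hh₁0, e₁⟩, ⟨_, c₂, hc₂, h₂, hh₂, hh₂0, e₂⟩⟩

/-- newness does not see how the exponent is written. -/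
theorem S35KA_newAt_congr (K1 : IntermediateField ℚ Qb) (N' q : ℕ) [NeZero N'] [NeZero q]
    (hq : q.Prime) (hqN : ¬ q ∣ N') {n n' : ℕ} (hn : n = n') (f : LaurentSeries K1)
    (hf : f ∈ S18K_F1 K1 (N' * q)) (h : S35XB_NewAt K1 N' q hq hqN n f hf) :
    S35XB_NewAt K1 N' q hq hqN n' f hf := by
  subst hn; exact h

/-- newness with exponent `n * t` gives newness with exponent `n`. -/
theorem S35KA_newAt_of_mul (K1 : IntermediateField ℚ Qb) (N' q : ℕ) [NeZero N'] [NeZero q]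
    (hq : q.Prime) (hqN : ¬ q ∣ N') (n t : ℕ) (f : LaurentSeries K1)
    (hf : f ∈ S18K_F1 K1 (N' * q)) (h : S35XB_NewAt K1 N' q hq hqN (n * t) f hf) :
    S35XB_NewAt K1 N' q hq hqN n f hf := by
  obtain ⟨⟨c₁, hc₁, h₁, hh₁, hh₁0, e₁⟩, ⟨c₂, hc₂, h₂, hh₂, hh₂0, e₂⟩⟩ := h
  refine ⟨⟨c₁, hc₁, h₁ ^ t, pow_mem hh₁ t, pow_ne_zero t hh₁0, ?_⟩,
    ⟨c₂, hc₂, h₂ ^ t, pow_mem hh₂ t, pow_ne_zero t hh₂0, ?_⟩⟩
  · rw [e₁, ← pow_mul, Nat.mul_comm t n]
  · rw [e₂, ← pow_mul, Nat.mul_comm t n]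

/-- the degree of `D` is `0` as soon as a nonzero multiple of `D` is the divisor of a function. -/
theorem S35KA_degZero_of_div (N : ℕ) [NeZero N] (D : Divisor Qb (modularFunctionFieldBar N))
    (m : ℤ) (hm : m ≠ 0) (f : modularFunctionFieldBar N) (hf : f ≠ 0)
    (hdiv : ∀ P : Place Qb (modularFunctionFieldBar N), P.ord f = m * D P) :
    D ∈ Divisor.degZero (K := Qb) (F := modularFunctionFieldBar N) := by
  haveI := Fermat.Agent.S37_helper21_B0c.S37B0_hasPrincipalDivisors N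
  obtain ⟨Df, hDf, hDfdeg⟩ := HasPrincipalDivisors.exists_divisor (K := Qb) f hf
  have hE : Df = m • D := by
    ext P
    rw [hDf P, hdiv P, Finsupp.smul_apply, smul_eq_mul]
  rw [Divisor.mem_degZero]
  have h1 : Divisor.degree (m • D) = 0 := by rw [← hE]; exact hDfdeg
  rw [map_zsmul, smul_eq_mul] at h1
  rcases mul_eq_zero.mp h1 with h | h
  · exact absurd h hm
  · exact h

/-- the leading coefficient of a power. -/
theorem S35KA_leadingCoeff_pow {K : Type*} [Field K] (x : LaurentSeries K) (t : ℕ) :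
    (x ^ t).coeff (x ^ t).order = (x.coeff x.order) ^ t := by
  rw [← HahnSeries.leadingCoeff_eq, ← HahnSeries.leadingCoeff_eq]
  induction t with
  | zero => simp
  | succ t ih => rw [pow_succ, HahnSeries.leadingCoeff_mul, ih, pow_succ]

/-- `(τ - e)` commutes with integer multiples of divisors. -/
theorem S35KA_dOp_zsmul (N : ℕ) (τ : GQ) (e : ℤ) (t : ℤ)
    (D : Divisor Qb (modularFunctionFieldBar N)) :
    S35GT_dOp N τ e (t • D) = t • S35GT_dOp N τ e D := by
  rw [S35GT_dOp_apply, S35GT_dOp_apply, smul_sub, smul_comm (S34R_g N τ) t D, smul_comm e t D]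

/-- `Θ` commutes with integer multiples of divisors. -/
theorem S35KA_thetaD_zsmul (N : ℕ) (q : ℕ) (σ : GQ) (t : ℤ)
    (D : Divisor Qb (modularFunctionFieldBar N)) :
    S35GT_thetaD N q σ (t • D) = t • S35GT_thetaD N q σ D := by
  unfold S35GT_thetaD
  rw [S35KA_dOp_zsmul, S35KA_dOp_zsmul, S35KA_dOp_zsmul]

/-- **special ⟹ general.**  helper19's form of the key statement (exponents `lam ^ (k + 1)`,
`lam ^ k`) implies helper4's form (general exponent `lam * n'`): write `n' = lam ^ a * t` with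
`lam ∤ t`, apply the special form to `t • D` and `h1 ^ t`, and use `u t + v lam = 1`. -/
theorem S35KA_XB_of_KD (N' q lam : ℕ) [NeZero N'] [NeZero q] [NeZero (N' * q)] (hq : q.Prime)
    (hqN : ¬ q ∣ N') (hlam : lam.Prime) (hKD : S35KD_KeyK1 N' q lam hq hqN) :
    S35XB_KeyK1 N' q lam hq hqN := by
  intro A hA K1 hadm hstab σ hσ D hD0 hrat n' hn' f0 hf0 hf00 hdiv hnew h1 hh10 hpow hdivh hr
  obtain ⟨r, hr⟩ := hr
  obtain ⟨a, t, ht, rfl⟩ := Nat.exists_eq_pow_mul_and_not_dvd hn' lam hlam.ne_one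
  have ht0 : t ≠ 0 := by
    rintro rfl
    exact ht (dvd_zero _)
  -- the data for the special form
  have hrat' : ∀ P : Place Qb (modularFunctionFieldBar (N' * q)),
      ((t : ℤ) • D) P ≠ 0 → S37LEVEL_IsRational (N' * q) K1 P := by
    intro P hP
    apply hrat P
    intro h0
    apply hP
    rw [Finsupp.smul_apply, h0, smul_zero]
  have hdiv' : ∀ P : Place Qb (modularFunctionFieldBar (N' * q)),
      S37B1_ordP (N' * q) K1 P f0 = (lam : ℤ) ^ (a + 1) * ((t : ℤ) • D) P := by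
    intro P
    rw [S37B1_ordP_eq (N' * q) K1 P ⟨f0, hf0⟩, hdiv P, Finsupp.smul_apply, smul_eq_mul]
    push_cast
    ring
  have hnew' : S35KD_New K1 hq N' hqN (lam ^ (a + 1)) f0 := by
    rw [S35KA_new_iff]
    refine ⟨hf0, S35KA_newAt_of_mul K1 N' q hq hqN (lam ^ (a + 1)) t f0 hf0 ?_⟩
    refine S35KA_newAt_congr K1 N' q hq hqN ?_ f0 hf0 hnew
    rw [pow_succ']
    ring
  have hmem : (h1 : LaurentSeries K1) ^ t ∈ S18K_F1 K1 (N' * q) := pow_mem h1.2 t
  have hne : (h1 : LaurentSeries K1) ^ t ≠ 0 := pow_ne_zero t hh10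
  have hpow' : ((h1 : LaurentSeries K1) ^ t) ^ (lam ^ a) = S35KD_theta K1 hstab q σ f0 := by
    rw [S35KA_theta_eq, ← hpow, ← pow_mul, Nat.mul_comm t (lam ^ a)]
  have hdivh' : ∀ P : Place Qb (modularFunctionFieldBar (N' * q)),
      S37B1_ordP (N' * q) K1 P ((h1 : LaurentSeries K1) ^ t) =
        (lam : ℤ) * S35GT_thetaD (N' * q) q σ ((t : ℤ) • D) P := by
    intro P
    have e1 : ((h1 : LaurentSeries K1) ^ t) =
        ((h1 ^ t : modularFunctionFieldFullC K1 (N' * q)) : LaurentSeries K1) := rfl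
    rw [e1, S37B1_ordP_eq (N' * q) K1 P (h1 ^ t), map_pow, S35KA_thetaD_zsmul,
      Finsupp.smul_apply, smul_eq_mul]
    have hinj : Function.Injective (S34XD_inc K1 (N' * q)) := RingHom.injective _
    have hne' : S34XD_inc K1 (N' * q) h1 ≠ 0 := by
      intro h0
      apply hh10
      have : h1 = 0 := hinj (by rw [h0, map_zero])
      rw [this]; rfl
    rw [← zpow_natCast, Place.ord_zpow, hdivh P]
    ring
  have hr' : ∃ r' : K1, r' ^ lam = ((h1 : LaurentSeries K1) ^ t).coeff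
      ((h1 : LaurentSeries K1) ^ t).order := by
    refine ⟨r ^ t, ?_⟩
    rw [S35KA_leadingCoeff_pow, ← hr, ← pow_mul, ← pow_mul, Nat.mul_comm]
  obtain ⟨w', hw', hw'pow⟩ := hKD A hA K1 hadm hstab σ hσ ((t : ℤ) • D) hrat' a f0 hf0 hf00
    hdiv' hnew' ((h1 : LaurentSeries K1) ^ t) hmem hne hpow' hdivh' hr'
  -- Bézout
  have hcop : Nat.Coprime t lam := ((Nat.Prime.coprime_iff_not_dvd hlam).mpr ht).symm
  have hbez : (t : ℤ) * Nat.gcdA t lam + (lam : ℤ) * Nat.gcdB t lam = 1 := by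
    have := Nat.gcd_eq_gcd_ab t lam
    rw [hcop] at this
    exact_mod_cast this.symm
  have hw'0 : w' ≠ 0 := by
    rintro rfl
    rw [zero_pow hlam.ne_zero] at hw'pow
    exact hne hw'pow.symm
  refine ⟨w' ^ (Nat.gcdA t lam) * (h1 : LaurentSeries K1) ^ (Nat.gcdB t lam), ?_, ?_⟩
  · exact mul_mem (zpow_mem hw' _) (zpow_mem h1.2 _)
  · rw [mul_pow, ← zpow_natCast (w' ^ Nat.gcdA t lam) lam, ← zpow_mul,
      ← zpow_natCast ((h1 : LaurentSeries K1) ^ Nat.gcdB t lam) lam, ← zpow_mul,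
      mul_comm (Nat.gcdA t lam) (lam : ℤ), zpow_mul, zpow_natCast w' lam, hw'pow,
      ← zpow_natCast (h1 : LaurentSeries K1) t, ← zpow_mul, ← zpow_add₀ hh10,
      mul_comm (Nat.gcdB t lam) (lam : ℤ), hbez, zpow_one]

/-- **general ⟹ special.**  helper4's form of the key statement (general exponent) implies
helper19's form (exponents `lam ^ (k + 1)`, `lam ^ k`). -/
theorem S35KA_KD_of_XB (N' q lam : ℕ) [NeZero N'] [NeZero q] [NeZero (N' * q)] (hq : q.Prime)
    (hqN : ¬ q ∣ N') (hlam : lam.Prime) (hXB : S35XB_KeyK1 N' q lam hq hqN) :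
    S35KD_KeyK1 N' q lam hq hqN := by
  intro A hA K1 hadm hstab σ hσ D hrat k f0 hf0 hf00 hdiv hnew h1 hh1 hh10 hpow hdivh hr
  have hlam0 : (lam : ℤ) ≠ 0 := by exact_mod_cast hlam.ne_zero
  have hinj : Function.Injective (S34XD_inc K1 (N' * q)) := RingHom.injective _
  have hdiv' : ∀ P : Place Qb (modularFunctionFieldBar (N' * q)),
      P.ord (S34XD_inc K1 (N' * q) ⟨f0, hf0⟩) = ((lam * lam ^ k : ℕ) : ℤ) * D P := by
    intro P
    have := hdiv P
    rw [S37B1_ordP_eq (N' * q) K1 P ⟨f0, hf0⟩] at this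
    rw [this]
    push_cast
    rw [pow_succ']
  have hD0 : D ∈ Divisor.degZero (K := Qb) (F := modularFunctionFieldBar (N' * q)) := by
    refine S35KA_degZero_of_div (N' * q) D (((lam * lam ^ k : ℕ) : ℤ)) ?_
      (S34XD_inc K1 (N' * q) ⟨f0, hf0⟩) ?_ hdiv'
    · exact_mod_cast (Nat.mul_ne_zero hlam.ne_zero (pow_ne_zero k hlam.ne_zero))
    · intro h0
      apply hf00
      have : (⟨f0, hf0⟩ : modularFunctionFieldFullC K1 (N' * q)) = 0 :=
        hinj (by rw [h0, map_zero])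
      exact congrArg Subtype.val this
  obtain ⟨hf0', hnew'⟩ := (S35KA_new_iff K1 hq N' hqN (lam ^ (k + 1)) f0).mp hnew
  have hnew'' : S35XB_NewAt K1 N' q hq hqN (lam * lam ^ k) f0 hf0 :=
    S35KA_newAt_congr K1 N' q hq hqN (pow_succ' lam k) f0 hf0 hnew'
  have hdivh' : ∀ P : Place Qb (modularFunctionFieldBar (N' * q)),
      P.ord (S34XD_inc K1 (N' * q) ⟨h1, hh1⟩) =
        (lam : ℤ) * S35GT_thetaD (N' * q) q σ D P := by
    intro P
    have := hdivh P
    rwa [S37B1_ordP_eq (N' * q) K1 P ⟨h1, hh1⟩] at this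
  exact hXB A hA K1 hadm hstab σ hσ D hD0 hrat (lam ^ k) (pow_ne_zero k hlam.ne_zero)
    f0 hf0 hf00 hdiv' hnew'' ⟨h1, hh1⟩ hh10 hpow hdivh' hr

end Fermat.Agent.S35_helper16_KEYADAPT
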