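import Mathlib
import Fermat.Agent.S35_helper17_REDF1K
import Fermat.Agent.S35_helper13_LOCALK

/-!
# S35, GEO (helper17): the local shape at a crossing point of the finite chart, from the landed
local pieces

At a crossing point `m` of the finite chart `S18K_A0 A K1 (N' * q)`, for `s = σ * σ` (`σ` a
Frobenius element at `A`) and `Q = q ^ 2`: the composition of

* `S35RFK_cross_A0` (the crossing datum `g''` of `(s - 1) D'` in the class `LU2`, no open input),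
* `S35LK_setup`     (helper13: the structural hypotheses `S35LOC_Setup` at `m`),
* `S35LOC_main`     (helper19: the LOCAL step),

with the toric data of `f''`, the function `h` and the branch constants as hypotheses (in the
shape of `S35LOC_main`).  Conclusion: `S34C_Shape π F1 (V1 ⊓ V2) A0 lam h G m`, the hypothesis
`hshape0` of `S35CL_root`.
-/

set_option autoImplicit false
set_option linter.unusedSectionVars false
set_option linter.unusedVariables false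
set_option linter.style.haveILetI false
set_option maxHeartbeats 1000000
set_option synthInstance.maxHeartbeats 400000

open AlgebraicCurve ModularCurve HahnSeries IntermediateField

noncomputable section

namespace Fermat.Agent.S35_helper17_SHAPEK

open Fermat.Agent.S18_helper9_CDefs Fermat.Agent.S18_helper25_COREDefs
  Fermat.Agent.S34_helper12_CDefs Fermat.Agent.S34_helper6_RED Fermat.Agent.S34_helper5_K0
  Fermat.Agent.S18_helper3_LOCRING Fermat.Agent.S37_helper4_B1Defs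
  Fermat.Agent.S37_helper5_LEVEL Fermat.Agent.S34_Contracts Fermat.Agent.S34_helper21_ACT
  Fermat.Agent.S34_helper20_V0K
  Fermat.Agent.S34_helper7_LGDefs Fermat.Agent.S35_helper7_LGFDefs
  Fermat.Agent.S34_helper27_P1C Fermat.Agent.S35_helper17_REDF1K
  Fermat.Agent.S35_helper13_LOCALK Fermat.Agent.S35_helper19_LOCAL

local notation "Qb" => AlgebraicClosure ℚ
local notation "GQ" => (AlgebraicClosure ℚ ≃ₐ[ℚ] AlgebraicClosure ℚ)

variable (A : ValuationSubring Qb) (K1 : IntermediateField ℚ Qb)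
  (hstab : ∀ σ : GQ, ∀ x ∈ K1, σ x ∈ K1) [IsDiscreteValuationRing (S18K_O1 A K1)]
  {q : ℕ} (hq : q.Prime) (hA : A.LiesOverPrime q) (h : S18K_Admissible A K1 q)
  (N' : ℕ) [NeZero N'] [NeZero (N' * q)] (hqN : ¬ q ∣ N')
  (σ : GQ) (hσ : A.IsFrobeniusAt σ q)

include hstab hA h hσ in
/-- **The local shape at a crossing point of the finite chart.** -/
theorem S35SHK_shape
    (hπ : S18K_π A K1 ∈ S18K_A0 A K1 (N' * q)) (m : Ideal (S18K_A0 A K1 (N' * q)))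
    (hm : m.IsMaximal) (hπm : (⟨S18K_π A K1, hπ⟩ : S18K_A0 A K1 (N' * q)) ∈ m)
    (ht1 : S34K_Thru (S18K_π A K1) (S18K_V A K1 (N' * q)) (S18K_A0 A K1 (N' * q)) m)
    (ht2 : S34K_Thru (S18K_π A K1) (S34P1C_V2 A K1 hq N' hqN) (S18K_A0 A K1 (N' * q)) m)
    (lam n' : ℕ) (hlam : 0 < lam) (hn' : 0 < n')
    -- the function `f''` and its divisor `(lam n') ((s - 1) D')`
    (D : Divisor Qb (modularFunctionFieldBar (N' * q)))
    (hD : ∀ P : Place Qb (modularFunctionFieldBar (N' * q)), D P ≠ 0 →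
      S37LEVEL_IsRational (N' * q) K1 P)
    (f2 : LaurentSeries K1) (hf2 : f2 ∈ S18K_F1 K1 (N' * q)) (hf20 : f2 ≠ 0)
    (hfV : f2 ∈ (S18K_V A K1 (N' * q) ⊓ S34P1C_V2 A K1 hq N' hqN :
      Subring (LaurentSeries K1)))
    (hfV' : f2⁻¹ ∈ (S18K_V A K1 (N' * q) ⊓ S34P1C_V2 A K1 hq N' hqN :
      Subring (LaurentSeries K1)))
    (hdiv : ∀ P : Place Qb (modularFunctionFieldBar (N' * q)),
      S37B1_ordP (N' * q) K1 P f2 =
        ((lam * n' : ℕ) : ℤ) * (S34R_g (N' * q) (σ * σ) • D - D) P)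
    -- toric: `f'' = c_i H_i ^ n (1 + π v_i)` on the branch `V_i`
    (c1 c2 H1 H2 : LaurentSeries K1)
    (hc1 : haveI := hm.isPrime; c1 ∈ locRing (S18K_A0 A K1 (N' * q)) m)
    (hc1' : haveI := hm.isPrime; c1⁻¹ ∈ locRing (S18K_A0 A K1 (N' * q)) m)
    (hc2 : haveI := hm.isPrime; c2 ∈ locRing (S18K_A0 A K1 (N' * q)) m)
    (hc2' : haveI := hm.isPrime; c2⁻¹ ∈ locRing (S18K_A0 A K1 (N' * q)) m)
    (hH1F : H1 ∈ S18K_F1 K1 (N' * q)) (hH2F : H2 ∈ S18K_F1 K1 (N' * q))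
    (hH1 : H1 ∈ S18K_V A K1 (N' * q)) (hH1' : H1⁻¹ ∈ S18K_V A K1 (N' * q))
    (hH2 : H2 ∈ S34P1C_V2 A K1 hq N' hqN) (hH2' : H2⁻¹ ∈ S34P1C_V2 A K1 hq N' hqN)
    (htor1 : ∃ v ∈ S18K_V A K1 (N' * q),
      f2 = c1 * H1 ^ (lam * n') * (1 + S18K_π A K1 * v))
    (htor2 : ∃ v ∈ S34P1C_V2 A K1 hq N' hqN,
      f2 = c2 * H2 ^ (lam * n') * (1 + S18K_π A K1 * v))
    -- the function `h` with `h ^ n' = c0 (s - Q) f''`
    (h1 c0 : LaurentSeries K1) (hh : h1 ∈ S18K_F1 K1 (N' * q)) (hh0 : h1 ≠ 0)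
    (hc0 : haveI := hm.isPrime; c0 ∈ locRing (S18K_A0 A K1 (N' * q)) m)
    (hc0' : haveI := hm.isPrime; c0⁻¹ ∈ locRing (S18K_A0 A K1 (N' * q)) m)
    (hhf : h1 ^ n' = c0 * (S34ACT_act K1 hstab (σ * σ) f2 * (f2 ^ (q ^ 2))⁻¹))
    -- the branch constants of `h` and the global root `G`
    (γ1 γ2 b1 b2 G : LaurentSeries K1) (hG0 : G ≠ 0)
    (hγ1 : haveI := hm.isPrime; γ1 ∈ locRing (S18K_A0 A K1 (N' * q)) m)
    (hγ2 : haveI := hm.isPrime; γ2 ∈ locRing (S18K_A0 A K1 (N' * q)) m)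
    (hb1 : haveI := hm.isPrime; b1 ∈ locRing (S18K_A0 A K1 (N' * q)) m)
    (hb1' : haveI := hm.isPrime; b1⁻¹ ∈ locRing (S18K_A0 A K1 (N' * q)) m)
    (hb2 : haveI := hm.isPrime; b2 ∈ locRing (S18K_A0 A K1 (N' * q)) m)
    (hh1 : ∃ v ∈ S18K_V A K1 (N' * q),
      h1 = γ1 * (S34ACT_act K1 hstab (σ * σ) H1 * (H1 ^ (q ^ 2))⁻¹) ^ lam *
        (1 + S18K_π A K1 * v))
    (hh2 : ∃ v ∈ S34P1C_V2 A K1 hq N' hqN,
      h1 = γ2 * (S34ACT_act K1 hstab (σ * σ) H2 * (H2 ^ (q ^ 2))⁻¹) ^ lam *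
        (1 + S18K_π A K1 * v))
    (hG1 : ∃ v ∈ S18K_V A K1 (N' * q),
      G = b1 * (S34ACT_act K1 hstab (σ * σ) H1 * (H1 ^ (q ^ 2))⁻¹) * (1 + S18K_π A K1 * v))
    (hG2 : ∃ v ∈ S34P1C_V2 A K1 hq N' hqN,
      G = b2 * (S34ACT_act K1 hstab (σ * σ) H2 * (H2 ^ (q ^ 2))⁻¹) * (1 + S18K_π A K1 * v))
    (hb : haveI := hm.isPrime
      S35LOC_NU (locRing (S18K_A0 A K1 (N' * q)) m) (γ1 - γ2) → b1 = b2) :
    S34C_Shape (S18K_π A K1) (S18K_F1 K1 (N' * q))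
      (S18K_V A K1 (N' * q) ⊓ S34P1C_V2 A K1 hq N' hqN) (S18K_A0 A K1 (N' * q)) lam h1 G m := by
  haveI := hm.isPrime
  haveI : NeZero q := ⟨hq.ne_zero⟩
  obtain ⟨g2, hg2F, hg20, hg2_1, hg2_2, -, hu2, hu2'⟩ :=
    S35RFK_cross_A0 A K1 hstab hq hA h N' hqN σ hσ hπ m hm hπm ht1 ht2 (lam * n') D hD f2 hf2
      hf20 hfV hfV' hdiv
  have hS := S35LK_setup A K1 hstab q N' (N' * q) hq hqN (Nat.mul_comm N' q) σ hA h hσ m hm
    ht1 ht2
  obtain ⟨u, g, w, hu, hu', hgF, hgV, hgV', hhu, hw, hw', c, hc, hG⟩ :=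
    S35LOC_main hS lam n' hlam hn' f2 g2 hf2 hf20 hg2F hg20 hg2_1 hg2_2 hu2 hu2'
      c1 c2 H1 H2 hc1 hc1' hc2 hc2' hH1F hH2F hH1 hH1' hH2 hH2' htor1 htor2
      h1 c0 hh hh0 hc0 hc0' hhf γ1 γ2 b1 b2 G hG0 hγ1 hγ2 hb1 hb1' hb2 hh1 hh2 hG1 hG2 hb
  exact ⟨u, g, w, hu, hu', hgF, hgV, hgV', hhu, hw, hw', c, hc, hG⟩

end Fermat.Agent.S35_helper17_SHAPEK
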