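import Fermat.Agent.S49_Lift

set_option autoImplicit false

open CuspForm CongruenceSubgroup ModularFormClass EisensteinWeightOne

namespace Fermat.Agent.S49

noncomputable section

variable {N : ℕ} [NeZero N]

local notation "V" => CuspForm (Gamma0 N) 2
local notation "𝕋" => HeckeAlg N

def eN (N : ℕ) : ℕ → ℂ := fun ℓ => if ℓ ∣ N then 0 else (ℓ : ℂ)

theorem eigen_rel (v : V) (χ : 𝕋 →+* ℂ) (hχ : ∀ t : 𝕋, rhoHecke N t v = χ t • v)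
    (ℓ : ℕ) (hℓ : ℓ.Prime) :
    ∃ lam : ℂ, (∀ n, qCoeff ⇑v (ℓ * n) +
        eN N ℓ * (if ℓ ∣ n then qCoeff ⇑v (n / ℓ) else 0) = lam * qCoeff ⇑v n) ∧
      (∀ hℓN : ¬ ℓ ∣ N, lam = χ (heckeAlgebra.T hℓ hℓN (Set.notMem_empty ℓ))) := by
  by_cases hℓN : ℓ ∣ N
  · refine ⟨χ (heckeAlgebra.U hℓ hℓN (Set.notMem_empty ℓ)), fun n => ?_, fun h => absurd hℓN h⟩
    have h1 : qCoeff ⇑(rhoHecke N (heckeAlgebra.U hℓ hℓN (Set.notMem_empty ℓ)) v) n =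
        qCoeff ⇑(χ (heckeAlgebra.U hℓ hℓN (Set.notMem_empty ℓ)) • v) n := by
      rw [hχ (heckeAlgebra.U hℓ hℓN (Set.notMem_empty ℓ))]
    have h2 : rhoHecke N (heckeAlgebra.U hℓ hℓN (Set.notMem_empty ℓ)) v = heckeULin 2 hℓN v := rfl
    rw [h2, qc_heckeU hℓ hℓN, qc_smul] at h1
    rw [eN, if_pos hℓN, zero_mul, add_zero, mul_comm ℓ n]
    exact h1
  · refine ⟨χ (heckeAlgebra.T hℓ hℓN (Set.notMem_empty ℓ)), fun n => ?_, fun _ => rfl⟩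
    have h1 : qCoeff ⇑(rhoHecke N (heckeAlgebra.T hℓ hℓN (Set.notMem_empty ℓ)) v) n =
        qCoeff ⇑(χ (heckeAlgebra.T hℓ hℓN (Set.notMem_empty ℓ)) • v) n := by
      rw [hχ (heckeAlgebra.T hℓ hℓN (Set.notMem_empty ℓ))]
    have h2 : rhoHecke N (heckeAlgebra.T hℓ hℓN (Set.notMem_empty ℓ)) v =
        heckeTLin 2 hℓ hℓN v := rfl
    rw [h2, qc_heckeT hℓ hℓN, qc_smul] at h1
    rw [eN, if_neg hℓN, mul_comm ℓ n, ← h1]
    split_ifs <;> ring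

theorem qc_eq_zero_of_rel (b : ℕ → ℂ) (e : ℕ → ℂ) (h0 : b 0 = 0) (h1 : b 1 = 0)
    (hrel : ∀ ℓ : ℕ, ℓ.Prime → ∃ lam : ℂ, ∀ n,
      b (ℓ * n) + e ℓ * (if ℓ ∣ n then b (n / ℓ) else 0) = lam * b n) :
    ∀ n, b n = 0 := by
  intro n
  induction n using Nat.strong_induction_on with
  | _ n ih =>
    rcases Nat.lt_or_ge n 2 with hn | hn
    · interval_cases n
      · exact h0
      · exact h1
    · obtain ⟨ℓ, hℓ, m, rfl⟩ := Nat.exists_prime_and_dvd (show n ≠ 1 by omega)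
      obtain ⟨lam, hlam⟩ := hrel ℓ hℓ
      have hm : 0 < m := by
        rcases Nat.eq_zero_or_pos m with h | h
        · subst h; omega
        · exact h
      have hlt : m < ℓ * m := by
        have := hℓ.two_le
        nlinarith
      have hlt2 : m / ℓ < ℓ * m := lt_of_le_of_lt (Nat.div_le_self m ℓ) hlt
      have := hlam m
      rw [ih m hlt, ih (m / ℓ) hlt2] at this
      simpa using this

theorem qc_one_ne_zero (v : V) (hv : v ≠ 0) (χ : 𝕋 →+* ℂ)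
    (hχ : ∀ t : 𝕋, rhoHecke N t v = χ t • v) : qCoeff ⇑v 1 ≠ 0 := by
  intro h1
  apply hv
  apply eq_zero_of_qc
  apply qc_eq_zero_of_rel (fun n => qCoeff ⇑v n) (eN N) (qc_coeff_zero v) h1
  intro ℓ hℓ
  obtain ⟨lam, hlam, -⟩ := eigen_rel v χ hχ ℓ hℓ
  exact ⟨lam, hlam⟩

theorem isEigensystem_normalized (v : V) (hv : v ≠ 0) (χ : 𝕋 →+* ℂ)
    (hχ : ∀ t : 𝕋, rhoHecke N t v = χ t • v) :
    FormalHecke.IsEigensystem (eN N) (fun n => qCoeff ⇑((qCoeff ⇑v 1)⁻¹ • v) n) ∧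
    ∀ (ℓ : ℕ) (hℓ : ℓ.Prime) (hℓN : ¬ ℓ ∣ N),
      qCoeff ⇑((qCoeff ⇑v 1)⁻¹ • v) ℓ = χ (heckeAlgebra.T hℓ hℓN (Set.notMem_empty ℓ)) := by
  have hne := qc_one_ne_zero v hv χ hχ
  have hb1 : qCoeff ⇑((qCoeff ⇑v 1)⁻¹ • v) 1 = 1 := by
    rw [qc_smul, inv_mul_cancel₀ hne]
  have key : ∀ (ℓ : ℕ) (hℓ : ℓ.Prime), ∃ lam : ℂ,
      qCoeff ⇑((qCoeff ⇑v 1)⁻¹ • v) ℓ = lam ∧
      (∀ n, qCoeff ⇑((qCoeff ⇑v 1)⁻¹ • v) (ℓ * n) +
        eN N ℓ * (if ℓ ∣ n then qCoeff ⇑((qCoeff ⇑v 1)⁻¹ • v) (n / ℓ) else 0) =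
          lam * qCoeff ⇑((qCoeff ⇑v 1)⁻¹ • v) n) ∧
      (∀ hℓN : ¬ ℓ ∣ N, lam = χ (heckeAlgebra.T hℓ hℓN (Set.notMem_empty ℓ))) := by
    intro ℓ hℓ
    obtain ⟨lam, hlam, hlam2⟩ := eigen_rel v χ hχ ℓ hℓ
    have hrel : ∀ n, qCoeff ⇑((qCoeff ⇑v 1)⁻¹ • v) (ℓ * n) +
        eN N ℓ * (if ℓ ∣ n then qCoeff ⇑((qCoeff ⇑v 1)⁻¹ • v) (n / ℓ) else 0) =
          lam * qCoeff ⇑((qCoeff ⇑v 1)⁻¹ • v) n := by
      intro n
      have := hlam n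
      simp only [qc_smul]
      split_ifs with hd
      · rw [if_pos hd] at this
        linear_combination (qCoeff ⇑v 1)⁻¹ * this
      · rw [if_neg hd] at this
        linear_combination (qCoeff ⇑v 1)⁻¹ * this
    refine ⟨lam, ?_, hrel, hlam2⟩
    have := hrel 1
    have hnd : ¬ ℓ ∣ 1 := fun hd => hℓ.one_lt.ne' (Nat.dvd_one.mp hd)
    rw [if_neg hnd, mul_zero, add_zero, mul_one, hb1, mul_one] at this
    exact this
  refine ⟨⟨hb1, ?_⟩, ?_⟩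
  · intro ℓ hℓ n
    obtain ⟨lam, h1, h2, -⟩ := key ℓ hℓ
    simp only
    rw [h1]
    exact h2 n
  · intro ℓ hℓ hℓN
    obtain ⟨lam, h1, -, h3⟩ := key ℓ hℓ
    rw [h1, h3 hℓN]

omit [NeZero N] in
theorem isNormalizedEigenform_of_eigensystem (f : V)
    (h : FormalHecke.IsEigensystem (eN N) (fun n => qCoeff ⇑f n)) : f.IsNormalizedEigenform where
  qCoeff_one := h.1
  qCoeff_mul_of_coprime := formal_mul_of_coprime h
  qCoeff_prime_pow_of_not_dvd := fun p r hp hpN => by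
    have := formal_prime_pow h p r hp
    simp only [eN, if_neg hpN] at this
    exact this
  qCoeff_prime_pow_of_dvd := fun p r hp hpN => by
    have := formal_prime_pow h p r hp
    simp only [eN, if_pos hpN, zero_mul, sub_zero] at this
    exact this

end

end Fermat.Agent.S49
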