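import Mathlib

set_option autoImplicit false

namespace Fermat.Agent.S49

open Module

section LinAlg

variable {K : Type*} [Field K] [IsAlgClosed K]
variable {V : Type*} [AddCommGroup V] [Module K V] [FiniteDimensional K V]
variable {A : Type*} [CommRing A]

omit [IsAlgClosed K] [FiniteDimensional K V] in
theorem rho_comm (ρ : A →+* Module.End K V) (a b : A) (w : V) :
    ρ a (ρ b w) = ρ b (ρ a w) := by
  have h : ρ a * ρ b = ρ b * ρ a := by rw [← map_mul, ← map_mul, mul_comm]
  exact LinearMap.congr_fun h w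

theorem exists_eigenvector_aux (ρ : A →+* Module.End K V) (𝔪 : Ideal A) [𝔪.IsPrime] (n : ℕ) :
    ∀ W : Submodule K V, finrank K W = n → (∀ a, ∀ w ∈ W, ρ a w ∈ W) → W ≠ ⊥ →
      (∀ a, (∀ w ∈ W, ρ a w = 0) → a ∈ 𝔪) →
      ∃ v ∈ W, v ≠ 0 ∧ ∃ χ : A →+* K, (∀ a, ρ a v = χ a • v) ∧ RingHom.ker χ ≤ 𝔪 := by
  induction n using Nat.strong_induction_on with
  | _ n ih =>
    intro W hn hstab hW hann
    by_cases hscal : ∀ a, ∃ c : K, ∀ w ∈ W, ρ a w = c • w
    · 
      choose χ₀ hχ₀ using hscal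
      obtain ⟨v, hvW, hv0⟩ := (Submodule.ne_bot_iff W).mp hW
      have hinj : ∀ c d : K, c • v = d • v → c = d := fun c d h =>
        smul_left_injective K hv0 h
      refine ⟨v, hvW, hv0, ⟨⟨⟨⟨χ₀, ?_⟩, ?_⟩, ?_, ?_⟩, ?_, ?_⟩⟩
      · apply hinj
        rw [← hχ₀ 1 v hvW, map_one, one_smul]
        rfl
      · intro a b
        apply hinj
        rw [← hχ₀ (a * b) v hvW, map_mul, Module.End.mul_apply, hχ₀ b v hvW, map_smul,
          hχ₀ a v hvW, smul_smul, mul_comm]
      · apply hinj
        rw [← hχ₀ 0 v hvW, map_zero, zero_smul]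
        rfl
      · intro a b
        apply hinj
        rw [← hχ₀ (a + b) v hvW, map_add, LinearMap.add_apply, hχ₀ a v hvW, hχ₀ b v hvW,
          add_smul]
      · intro a
        exact hχ₀ a v hvW
      · intro a ha
        apply hann
        intro w hw
        have : χ₀ a = 0 := ha
        rw [hχ₀ a w hw, this, zero_smul]
    · 
      push Not at hscal
      obtain ⟨a, ha⟩ := hscal
      have : Nontrivial W := (Submodule.nontrivial_iff_ne_bot).mpr hW
      obtain ⟨μ, hμ⟩ := Module.End.exists_eigenvalue ((ρ a).restrict (hstab a))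
      obtain ⟨w₀, hw₀⟩ := hμ.exists_hasEigenvector
      have hw₀eq : ρ a (w₀ : V) = μ • (w₀ : V) := by
        have := hw₀.apply_eq_smul
        exact congrArg Subtype.val this
      have hw₀ne : (w₀ : V) ≠ 0 := fun h => hw₀.2 (Subtype.ext h)
      set g : Module.End K V := ρ a - μ • LinearMap.id with hg
      have hgapply : ∀ w, g w = ρ a w - μ • w := fun w => by
        simp [hg]
      have hgcomm : ∀ b w, ρ b (g w) = g (ρ b w) := by
        intro b w
        rw [hgapply, hgapply, map_sub, map_smul, rho_comm ρ b a]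
      have hgW : ∀ w ∈ W, g w ∈ W := fun w hw => by
        rw [hgapply]
        exact W.sub_mem (hstab a w hw) (W.smul_mem μ hw)
      obtain ⟨w₁, hw₁W, hw₁⟩ := ha μ
      have hgw₁ : g w₁ ≠ 0 := by
        rw [hgapply]
        exact sub_ne_zero.mpr hw₁
      have hgw₀ : g w₀ = 0 := by
        rw [hgapply, hw₀eq, sub_self]
      
      set W₁ : Submodule K V := W ⊓ LinearMap.ker g with hW₁
      set W₂ : Submodule K V := W.map g with hW₂
      have hW₁stab : ∀ b, ∀ w ∈ W₁, ρ b w ∈ W₁ := by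
        intro b w hw
        refine ⟨hstab b w hw.1, ?_⟩
        have : g w = 0 := hw.2
        show g (ρ b w) = 0
        rw [← hgcomm, this, map_zero]
      have hW₂stab : ∀ b, ∀ w ∈ W₂, ρ b w ∈ W₂ := by
        rintro b _ ⟨w, hw, rfl⟩
        exact ⟨ρ b w, hstab b w hw, (hgcomm b w).symm⟩
      have hW₁ne : W₁ ≠ ⊥ := by
        intro h
        have : (w₀ : V) ∈ W₁ := ⟨w₀.2, hgw₀⟩
        rw [h] at this
        exact hw₀ne this
      have hW₂ne : W₂ ≠ ⊥ := by
        intro h
        have : g w₁ ∈ W₂ := ⟨w₁, hw₁W, rfl⟩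
        rw [h] at this
        exact hgw₁ this
      have hW₁lt : finrank K W₁ < n := by
        rw [← hn]
        apply Submodule.finrank_lt_finrank_of_lt
        refine lt_of_le_of_ne inf_le_left ?_
        intro h
        have : w₁ ∈ W₁ := h ▸ hw₁W
        exact hgw₁ this.2
      have hW₂lt : finrank K W₂ < n := by
        have h1 := LinearMap.finrank_range_add_finrank_ker (g.domRestrict W)
        rw [LinearMap.range_domRestrict] at h1
        have h2 : 0 < finrank K (LinearMap.ker (g.domRestrict W)) := by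
          rw [Module.finrank_pos_iff_exists_ne_zero]
          refine ⟨⟨w₀, ?_⟩, ?_⟩
          · rw [LinearMap.mem_ker]
            exact hgw₀
          · intro h
            exact hw₀.2 (congrArg Subtype.val h)
        rw [← hn]
        show finrank K (W.map g) < finrank K W
        omega
      
      by_cases h1 : ∀ s, (∀ w ∈ W₁, ρ s w = 0) → s ∈ 𝔪
      · obtain ⟨v, hv, hv0, χ, hχ, hker⟩ := ih _ hW₁lt W₁ rfl hW₁stab hW₁ne h1
        exact ⟨v, hv.1, hv0, χ, hχ, hker⟩
      · have h2 : ∀ s, (∀ w ∈ W₂, ρ s w = 0) → s ∈ 𝔪 := by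
          push Not at h1
          obtain ⟨s₁, hs₁, hs₁m⟩ := h1
          intro s₂ hs₂
          have hprod : s₁ * s₂ ∈ 𝔪 := by
            apply hann
            intro w hw
            rw [map_mul, Module.End.mul_apply]
            apply hs₁
            refine ⟨hstab s₂ w hw, ?_⟩
            show g (ρ s₂ w) = 0
            rw [← hgcomm]
            exact hs₂ _ ⟨w, hw, rfl⟩
          exact ((Ideal.IsPrime.mem_or_mem inferInstance hprod).resolve_left hs₁m)
        obtain ⟨v, hv, hv0, χ, hχ, hker⟩ := ih _ hW₂lt W₂ rfl hW₂stab hW₂ne h2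
        refine ⟨v, ?_, hv0, χ, hχ, hker⟩
        obtain ⟨w, hw, rfl⟩ := hv
        exact hgW w hw

theorem exists_eigenvector_ker_le [Nontrivial V] (ρ : A →+* Module.End K V) (𝔪 : Ideal A)
    [𝔪.IsPrime] (hker : RingHom.ker ρ ≤ 𝔪) :
    ∃ v : V, v ≠ 0 ∧ ∃ χ : A →+* K, (∀ a, ρ a v = χ a • v) ∧ RingHom.ker χ ≤ 𝔪 := by
  obtain ⟨v, -, hv0, χ, hχ, hk⟩ := exists_eigenvector_aux ρ 𝔪 (finrank K (⊤ : Submodule K V)) ⊤ rfl
    (fun _ _ _ => Submodule.mem_top) top_ne_bot
    (fun a ha => hker (by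
      rw [RingHom.mem_ker]
      exact LinearMap.ext fun w => ha w Submodule.mem_top))
  exact ⟨v, hv0, χ, hχ, hk⟩

end LinAlg

end Fermat.Agent.S49
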