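import Mathlib
import Fermat.Agent.S49_LinAlg
import Fermat.Agent.S49_Eigen

/-!
# S35, piece P6 [c] step (5): from an eigenvector away from `S` to a normalised eigenform

`S35EIGF_eigenform`: a nonzero cusp form `f` of weight 2 and level `M'` which is an eigenvector of
the Hecke operators `T_ℓ` for the primes `ℓ ∤ M'` outside a set `S`, with eigenvalues `a ℓ`,
yields a NORMALISED eigenform `g'` of level `M'` (an eigenvector of all `T_ℓ` and all `U_q`, with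
first coefficient `1`) such that `a_ℓ(g') = a ℓ` for the primes `ℓ ∤ M'` outside `S`.

Proof: the eigenspace `W` is nonzero and stable under the commutative full Hecke algebra; a common
eigenvector in `W` (landed `S49.exists_eigenvector_aux`) is normalised by the landed
`S49.isEigensystem_normalized`.
-/

set_option autoImplicit false

open CuspForm CongruenceSubgroup ModularFormClass

noncomputable section

namespace Fermat.Agent.S35_helper18_EIGF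

open Fermat.Agent.S49

variable {M' : ℕ} [NeZero M']

/-- The eigenspace of the `T_ℓ`, `ℓ ∉ S`, for the eigenvalues `a ℓ`. -/
def S35EIGF_W (M' : ℕ) [NeZero M'] (S : Set ℕ) (a : ℕ → ℂ) :
    Submodule ℂ (CuspForm (Gamma0 M') 2) where
  carrier := {v | ∀ (ℓ : ℕ) (hℓ : ℓ.Prime) (hℓM' : ¬ ℓ ∣ M'), ℓ ∉ S →
    CuspForm.heckeTLin 2 hℓ hℓM' v = a ℓ • v}
  zero_mem' := by
    intro ℓ hℓ hℓM' _
    rw [map_zero, smul_zero]
  add_mem' := by
    intro v w hv hw ℓ hℓ hℓM' hℓS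
    rw [map_add, hv ℓ hℓ hℓM' hℓS, hw ℓ hℓ hℓM' hℓS, smul_add]
  smul_mem' := by
    intro c v hv ℓ hℓ hℓM' hℓS
    rw [map_smul, hv ℓ hℓ hℓM' hℓS, smul_comm]

theorem S35EIGF_mem_W (S : Set ℕ) (a : ℕ → ℂ) (v : CuspForm (Gamma0 M') 2) :
    v ∈ S35EIGF_W M' S a ↔ ∀ (ℓ : ℕ) (hℓ : ℓ.Prime) (hℓM' : ¬ ℓ ∣ M'), ℓ ∉ S →
      CuspForm.heckeTLin 2 hℓ hℓM' v = a ℓ • v := Iff.rfl

/-- The eigenspace is stable under the full Hecke algebra. -/
theorem S35EIGF_W_stable (S : Set ℕ) (a : ℕ → ℂ) (t : HeckeAlg M')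
    (w : CuspForm (Gamma0 M') 2) (hw : w ∈ S35EIGF_W M' S a) :
    rhoHecke M' t w ∈ S35EIGF_W M' S a := by
  intro ℓ hℓ hℓM' hℓS
  have h1 : CuspForm.heckeTLin 2 hℓ hℓM' (rhoHecke M' t w) =
      rhoHecke M' (heckeAlgebra.T hℓ hℓM' (Set.notMem_empty ℓ)) (rhoHecke M' t w) := rfl
  rw [h1, rho_comm (rhoHecke M') _ t w]
  have h2 : rhoHecke M' (heckeAlgebra.T hℓ hℓM' (Set.notMem_empty ℓ)) w =
      CuspForm.heckeTLin 2 hℓ hℓM' w := rfl
  rw [h2, hw ℓ hℓ hℓM' hℓS, map_smul]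

/-- The annihilator of the eigenspace in the full Hecke algebra. -/
def S35EIGF_ann (M' : ℕ) [NeZero M'] (S : Set ℕ) (a : ℕ → ℂ) : Ideal (HeckeAlg M') where
  carrier := {t | ∀ w ∈ S35EIGF_W M' S a, rhoHecke M' t w = 0}
  zero_mem' := by
    intro w _
    rw [map_zero]
    rfl
  add_mem' := by
    intro t s ht hs w hw
    rw [map_add, LinearMap.add_apply, ht w hw, hs w hw, add_zero]
  smul_mem' := by
    intro c t ht w hw
    rw [smul_eq_mul, map_mul, Module.End.mul_apply, ht w hw, map_zero]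

theorem S35EIGF_ann_ne_top (S : Set ℕ) (a : ℕ → ℂ) (f : CuspForm (Gamma0 M') 2) (hf : f ≠ 0)
    (hfW : f ∈ S35EIGF_W M' S a) : S35EIGF_ann M' S a ≠ ⊤ := by
  intro h
  have h1 : (1 : HeckeAlg M') ∈ S35EIGF_ann M' S a := by
    rw [h]
    exact Submodule.mem_top
  have h2 := h1 f hfW
  rw [map_one] at h2
  exact hf h2

/-- **P6 [c] (5).** -/
theorem S35EIGF_eigenform {M' : ℕ} [NeZero M'] (S : Set ℕ) (a : ℕ → ℂ)
    (f : CuspForm (CongruenceSubgroup.Gamma0 M') 2) (hf : f ≠ 0)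
    (hT : ∀ (ℓ : ℕ) (hℓ : ℓ.Prime) (hℓM' : ¬ ℓ ∣ M'), ℓ ∉ S →
      CuspForm.heckeTLin 2 hℓ hℓM' f = a ℓ • f) :
    ∃ g' : CuspForm (CongruenceSubgroup.Gamma0 M') 2, g'.IsNormalizedEigenform ∧
      ∀ ℓ : ℕ, ℓ.Prime → ¬ ℓ ∣ M' → ℓ ∉ S → ModularFormClass.qCoeff g' ℓ = a ℓ := by
  have : FiniteDimensional ℂ (CuspForm (Gamma0 M') 2) := finiteDimensional_cusp
  have hfW : f ∈ S35EIGF_W M' S a := hT
  obtain ⟨𝔪, h𝔪, hle⟩ := Ideal.exists_le_maximal _ (S35EIGF_ann_ne_top S a f hf hfW)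
  have : 𝔪.IsPrime := h𝔪.isPrime
  have hWne : S35EIGF_W M' S a ≠ ⊥ := by
    intro h
    rw [h, Submodule.mem_bot] at hfW
    exact hf hfW
  obtain ⟨v, hvW, hv0, χ, hχ, -⟩ := exists_eigenvector_aux (rhoHecke M') 𝔪
    (Module.finrank ℂ (S35EIGF_W M' S a)) (S35EIGF_W M' S a) rfl
    (fun t w hw => S35EIGF_W_stable S a t w hw) hWne (fun t ht => hle ht)
  obtain ⟨heig, hcoef⟩ := isEigensystem_normalized v hv0 χ hχ
  refine ⟨(qCoeff (⇑v) 1)⁻¹ • v, isNormalizedEigenform_of_eigensystem _ heig, ?_⟩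
  intro ℓ hℓ hℓM' hℓS
  rw [hcoef ℓ hℓ hℓM']
  have h1 : rhoHecke M' (heckeAlgebra.T hℓ hℓM' (Set.notMem_empty ℓ)) v =
      CuspForm.heckeTLin 2 hℓ hℓM' v := rfl
  have h2 := hχ (heckeAlgebra.T hℓ hℓM' (Set.notMem_empty ℓ))
  rw [h1, hvW ℓ hℓ hℓM' hℓS] at h2
  exact (smul_left_injective ℂ hv0 h2).symm

end Fermat.Agent.S35_helper18_EIGF
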