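import Mathlib
import Fermat.Prelude.Def_AlgebraicCurve_Correspondence

/-!
# S35, block (P6), brick (w2): push-forward along `ω ∘ φ`

Pure algebra on the prelude's places and divisors.  Let `φ, φ' : F →ₐ[K] F'` be two finite
embeddings of function fields and `ω : F' ≃ₐ[K] F'` an automorphism with `φ' = ω ∘ φ`.  Then
`pushforwardAlong φ' (ω • D) = pushforwardAlong φ D` for every divisor `D` of `F'`
(`S35WA_pushforwardAlong_smul`), hence the same on `Pic⁰` for any maps induced on classes
(`S35WA_pic0`).  Consumer: `β = w ∘ α` with `w` the Atkin-Lehner automorphism, so that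
`β_* (w • x) = α_* x`.

The generic core (`S35WA_restrict_eq`, `S35WA_inertiaDeg_eq`) is stated for an isomorphism
`e : F' ≃+* F''` over `F` between two extensions of `F` and two places corresponding under `e`.
-/

set_option autoImplicit false
set_option linter.unusedSectionVars false
set_option linter.unusedVariables false

open AlgebraicCurve

namespace Fermat.Agent.S35_helper18_W2

noncomputable section

section Generic3

variable {K F F' F'' : Type*} [Field K] [Field F] [Field F'] [Field F'']
  [Algebra K F] [Algebra K F'] [Algebra K F''] [Algebra F F'] [Algebra F F'']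
  [IsScalarTower K F F'] [IsScalarTower K F F'']
  [Algebra.IsIntegral F F'] [Algebra.IsIntegral F F'']

theorem S35WA_restrict_eq (e : F' ≃+* F'') (he : ∀ x : F, e (algebraMap F F' x) = algebraMap F F'' x)
    (w : Place K F') (w'' : Place K F'')
    (hw : ∀ y : F', e y ∈ w''.toValuationSubring ↔ y ∈ w.toValuationSubring) :
    w''.restrict F = w.restrict F := by
  apply Place.ext
  ext x
  rw [Place.restrict_toValuationSubring, ValuationSubring.mem_comap,
    Place.restrict_toValuationSubring, ValuationSubring.mem_comap, ← he, hw]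

/-- the isomorphism of the valuation rings induced by `e`. -/
def S35WA_valEquiv (e : F' ≃+* F'')
    (w : Place K F') (w'' : Place K F'')
    (hw : ∀ y : F', e y ∈ w''.toValuationSubring ↔ y ∈ w.toValuationSubring) :
    w.toValuationSubring ≃+* w''.toValuationSubring where
  toFun y := ⟨e y, (hw y).2 y.2⟩
  invFun z := ⟨e.symm z, by
    have h := hw (e.symm z)
    rw [e.apply_symm_apply] at h
    exact h.1 z.2⟩
  left_inv y := Subtype.ext (e.symm_apply_apply y)
  right_inv z := Subtype.ext (e.apply_symm_apply z)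
  map_mul' y z := Subtype.ext (map_mul e (y : F') (z : F'))
  map_add' y z := Subtype.ext (map_add e (y : F') (z : F'))

theorem S35WA_coe_valEquiv (e : F' ≃+* F'')
    (w : Place K F') (w'' : Place K F'')
    (hw : ∀ y : F', e y ∈ w''.toValuationSubring ↔ y ∈ w.toValuationSubring)
    (y : w.toValuationSubring) :
    ((S35WA_valEquiv e w w'' hw y : w''.toValuationSubring) : F'') = e (y : F') := rfl

/-- the identification of the valuation rings of the two restrictions. -/
def S35WA_resEquiv (e : F' ≃+* F'') (he : ∀ x : F, e (algebraMap F F' x) = algebraMap F F'' x)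
    (w : Place K F') (w'' : Place K F'')
    (hw : ∀ y : F', e y ∈ w''.toValuationSubring ↔ y ∈ w.toValuationSubring) :
    (w.restrict F).toValuationSubring ≃+* (w''.restrict F).toValuationSubring where
  toFun x := ⟨(x : F), by
    rw [Place.mem_restrict_iff, ← he, hw]
    exact (Place.mem_restrict_iff w).mp x.2⟩
  invFun x := ⟨(x : F), by
    have hx := (Place.mem_restrict_iff w'').mp x.2
    rw [← he, hw] at hx
    exact (Place.mem_restrict_iff w).mpr hx⟩
  left_inv x := rfl
  right_inv x := rfl
  map_mul' x y := rfl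
  map_add' x y := rfl

theorem S35WA_coe_resEquiv (e : F' ≃+* F'') (he : ∀ x : F, e (algebraMap F F' x) = algebraMap F F'' x)
    (w : Place K F') (w'' : Place K F'')
    (hw : ∀ y : F', e y ∈ w''.toValuationSubring ↔ y ∈ w.toValuationSubring)
    (x : (w.restrict F).toValuationSubring) :
    ((S35WA_resEquiv e he w w'' hw x : (w''.restrict F).toValuationSubring) : F) = (x : F) :=
  rfl

theorem S35WA_inertiaDeg_eq (e : F' ≃+* F'') (he : ∀ x : F, e (algebraMap F F' x) = algebraMap F F'' x)
    (w : Place K F') (w'' : Place K F'')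
    (hw : ∀ y : F', e y ∈ w''.toValuationSubring ↔ y ∈ w.toValuationSubring) :
    w''.inertiaDeg F = w.inertiaDeg F := by
  unfold Place.inertiaDeg
  symm
  refine Algebra.finrank_eq_of_equiv_equiv
    (IsLocalRing.ResidueField.mapEquiv (S35WA_resEquiv e he w w'' hw))
    (IsLocalRing.ResidueField.mapEquiv (S35WA_valEquiv e w w'' hw)) ?_
  ext a
  obtain ⟨a, rfl⟩ := IsLocalRing.residue_surjective a
  show Place.restrictResidueMap F w''
      (IsLocalRing.ResidueField.mapEquiv (S35WA_resEquiv e he w w'' hw)
        (IsLocalRing.residue _ a)) =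
    IsLocalRing.ResidueField.mapEquiv (S35WA_valEquiv e w w'' hw)
      (Place.restrictResidueMap F w (IsLocalRing.residue _ a))
  rw [IsLocalRing.ResidueField.mapEquiv_apply, IsLocalRing.ResidueField.map_residue,
    Place.restrictResidueMap_residue, Place.restrictResidueMap_residue,
    IsLocalRing.ResidueField.mapEquiv_apply, IsLocalRing.ResidueField.map_residue]
  congr 1
  apply Subtype.ext
  exact (he (a : F)).symm

theorem S35WA_pushforward_single_eq (e : F' ≃+* F'') (he : ∀ x : F, e (algebraMap F F' x) = algebraMap F F'' x)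
    (w : Place K F') (w'' : Place K F'')
    (hw : ∀ y : F', e y ∈ w''.toValuationSubring ↔ y ∈ w.toValuationSubring)
    (n : ℤ) :
    Divisor.pushforward F (Finsupp.single w'' n) = Divisor.pushforward F (Finsupp.single w n) := by
  rw [Divisor.pushforward_single, Divisor.pushforward_single, S35WA_restrict_eq e he w w'' hw,
    S35WA_inertiaDeg_eq e he w w'' hw]

end Generic3

section Along

open scoped Pointwise

variable {K F F' : Type*} [Field K] [Field F] [Field F'] [Algebra K F] [Algebra K F']

theorem S35WA_mem_smul (ω : F' ≃ₐ[K] F') (w : Place K F') (y : F') :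
    ω y ∈ (ω • w).toValuationSubring ↔ y ∈ w.toValuationSubring := by
  rw [Place.smul_toValuationSubring, ValuationSubring.mem_pointwise_smul_iff_inv_smul_mem]
  have e1 : ω⁻¹ • ω y = y := by
    show ω⁻¹ (ω y) = y
    rw [AlgEquiv.aut_inv]
    exact ω.symm_apply_apply y
  rw [e1]

theorem S35WA_pushforwardAlong_single (φ φ' : F →ₐ[K] F') (hφ : φ.toRingHom.IsIntegral) (hφ' : φ'.toRingHom.IsIntegral)
    (ω : F' ≃ₐ[K] F') (h : ∀ x : F, φ' x = ω (φ x))
    (w : Place K F') (n : ℤ) :
    Divisor.pushforwardAlong φ' hφ' (Finsupp.single (ω • w) n) =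
      Divisor.pushforwardAlong φ hφ (Finsupp.single w n) :=
  @S35WA_pushforward_single_eq K F F' F' _ _ _ _ _ _ _ (algebraAlong φ) (algebraAlong φ')
    (isScalarTower_along φ) (isScalarTower_along φ') (isIntegral_along φ hφ)
    (isIntegral_along φ' hφ') ω.toRingEquiv (fun x => (h x).symm) w (ω • w)
    (fun y => S35WA_mem_smul ω w y) n

/-- **(w2), divisors**: `(ω ∘ φ)_* (ω • D) = φ_* D`. -/
theorem S35WA_pushforwardAlong_smul (φ φ' : F →ₐ[K] F') (hφ : φ.toRingHom.IsIntegral) (hφ' : φ'.toRingHom.IsIntegral)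
    (ω : F' ≃ₐ[K] F') (h : ∀ x : F, φ' x = ω (φ x))
    (D : Divisor K F') :
    Divisor.pushforwardAlong φ' hφ' (ω • D) = Divisor.pushforwardAlong φ hφ D := by
  induction D using Finsupp.induction with
  | zero => rw [smul_zero, map_zero, map_zero]
  | single_add w n D _ _ ih =>
    rw [smul_add, map_add, map_add, ih, Divisor.smul_single,
      S35WA_pushforwardAlong_single φ φ' hφ hφ' ω h w n]

/-- the same with `ω⁻¹` on the other side: `(ω ∘ φ)_* D = φ_* (ω⁻¹ • D)`. -/
theorem S35WA_pushforwardAlong_inv_smul (φ φ' : F →ₐ[K] F') (hφ : φ.toRingHom.IsIntegral) (hφ' : φ'.toRingHom.IsIntegral)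
    (ω : F' ≃ₐ[K] F') (h : ∀ x : F, φ' x = ω (φ x))
    (D : Divisor K F') :
    Divisor.pushforwardAlong φ' hφ' D = Divisor.pushforwardAlong φ hφ (ω⁻¹ • D) := by
  rw [← S35WA_pushforwardAlong_smul φ φ' hφ hφ' ω h (ω⁻¹ • D), smul_inv_smul]

/-- **(w2), classes**: for any two additive maps on `Pic⁰` which are induced by the two
push-forwards on divisors of degree zero, `ν' (ω • x) = ν x`. -/
theorem S35WA_pic0 (φ φ' : F →ₐ[K] F') (hφ : φ.toRingHom.IsIntegral) (hφ' : φ'.toRingHom.IsIntegral)
    (ω : F' ≃ₐ[K] F') (h : ∀ x : F, φ' x = ω (φ x))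
    (ν ν' : Pic0 K F' →+ Pic0 K F)
    (hν : ∀ D : Divisor.degZero (K := K) (F := F'), ∀ E : Divisor.degZero (K := K) (F := F),
      (E : Divisor K F) = Divisor.pushforwardAlong φ hφ (D : Divisor K F') →
        ν (Pic0.mk D) = Pic0.mk E)
    (hν' : ∀ D : Divisor.degZero (K := K) (F := F'), ∀ E : Divisor.degZero (K := K) (F := F),
      (E : Divisor K F) = Divisor.pushforwardAlong φ' hφ' (D : Divisor K F') →
        ν' (Pic0.mk D) = Pic0.mk E)
    (x : Pic0 K F') : ν' (ω • x) = ν x := by
  obtain ⟨D, rfl⟩ := Pic0.mk_surjective x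
  rw [Pic0.smul_mk]
  have hE : Divisor.pushforwardAlong φ hφ (D : Divisor K F') ∈
      Divisor.degZero (K := K) (F := F) := Divisor.pushforwardAlong_mem_degZero φ hφ D.2
  rw [hν D ⟨_, hE⟩ rfl, hν' (Pic0.degZeroSMulHom ω D) ⟨_, hE⟩
    (by rw [Pic0.coe_degZeroSMulHom, S35WA_pushforwardAlong_smul φ φ' hφ hφ' ω h])]

end Along

end

end Fermat.Agent.S35_helper18_W2
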