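import Mathlib
import Fermat.Agent.S35_helper18_W4G
import Fermat.Agent.G_helper23_G7iv

/-!
# S35, block (P6), brick (w4), analytic form half: the slash by the Atkin-Lehner matrix

`W = γ_W · diag(ℓ, 1) = S35W4_Wmat N ℓ u v h ∈ GL (Fin 2) ℝ`, `conj = S35W4_conj N ℓ u v h`.

* `S35W4A_isForm` : if `a` is a form of level `N ℓ`, weight `k` and character `χ` (in the sense
  `PG_IsForm`), then `a ∣[k] W` is a form of level `N ℓ`, weight `k` and character `χ ∘ conj`;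
* `S35W4A_isForm_chi` : the same for `χ = PG_chi (N ℓ) m c * χb`, with character
  `PG_chi (N ℓ) m (S35W4_pull c) * (χb ∘ conj)`;
* `S35W4A_ne_zero`, `S35W4A_apply` (the explicit value), `S35W4A_pow`.
-/

set_option autoImplicit false
set_option linter.unusedSectionVars false

open UpperHalfPlane ModularForm CongruenceSubgroup
open scoped MatrixGroups ModularForm Manifold
open Fermat.Agent.G_helper6_Defs Fermat.Agent.S34_helper20_WQ Fermat.Agent.S35_helper18_W4G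
open Fermat.Agent.G_helper23_G7iv

noncomputable section

namespace Fermat.Agent.S35_helper18_W4A

variable (N ℓ : ℕ) [NeZero ℓ] (u v : ℤ) (h : (ℓ : ℤ) * u + v * (N : ℤ) = 1)

theorem S35W4A_det_pos : 0 < ((S35W4_Wmat N ℓ u v h).det : ℝ) := by
  rw [S35W4_Wmat, map_mul, Units.val_mul]
  have h1 : ((Matrix.SpecialLinearGroup.mapGL ℝ (S34WQ_gamma ℓ N u v h)).det : ℝ) = 1 := by
    simp
  rw [h1, one_mul]
  exact det_heckeDiagMatrix_pos ℓ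

theorem S35W4A_σ : UpperHalfPlane.σ (S35W4_Wmat N ℓ u v h) = .refl ℝ ℂ := by
  rw [UpperHalfPlane.σ, if_pos (S35W4A_det_pos N ℓ u v h)]

/-- the slash by `W` commutes with scalars. -/
theorem S35W4A_smul_slash (k : ℤ) (c : ℂ) (a : ℍ → ℂ) :
    (c • a) ∣[k] S35W4_Wmat N ℓ u v h = c • (a ∣[k] S35W4_Wmat N ℓ u v h) := by
  rw [ModularForm.smul_slash, S35W4A_σ]
  rfl

/-- `(a ∣ W) ∣ g = χ (conj g) • (a ∣ W)`. -/
theorem S35W4A_slash (k : ℤ) (χ : Gamma0 (N * ℓ) →* ℂˣ) (a : ℍ → ℂ)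
    (haut : ∀ (γ : Gamma0 (N * ℓ)) (z : ℍ),
      a ((γ : SL(2, ℤ)) • z) = (χ γ : ℂ) * denom ((γ : SL(2, ℤ)) : GL (Fin 2) ℝ) z ^ k * a z)
    (g : Gamma0 (N * ℓ)) :
    (a ∣[k] S35W4_Wmat N ℓ u v h) ∣[k] (Matrix.SpecialLinearGroup.mapGL ℝ (g : SL(2, ℤ))) =
      (χ (S35W4_conj N ℓ u v h g) : ℂ) • (a ∣[k] S35W4_Wmat N ℓ u v h) := by
  rw [← SlashAction.slash_mul, ← S35W4_conj_mul_Wmat N ℓ u v h g, SlashAction.slash_mul,
    PG_G7iv_slash_of_aut haut (S35W4_conj N ℓ u v h g), S35W4A_smul_slash]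

theorem S35W4A_exists_rat (σ : SL(2, ℤ)) :
    ∃ g : GL (Fin 2) ℚ, S35W4_Wmat N ℓ u v h * Matrix.SpecialLinearGroup.mapGL ℝ σ =
      Matrix.GeneralLinearGroup.map (Rat.castHom ℝ) g := by
  have hℓ : ℓ ≠ 0 := NeZero.ne ℓ
  have h1 : ∃ g : GL (Fin 2) ℚ, ∀ τ : SL(2, ℤ), Matrix.SpecialLinearGroup.mapGL ℝ τ =
      Matrix.GeneralLinearGroup.map (Rat.castHom ℝ) (Matrix.SpecialLinearGroup.mapGL ℚ τ) :=
    ⟨1, fun τ => by
      ext a b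
      simp [Matrix.SpecialLinearGroup.mapGL_coe_matrix]⟩
  obtain ⟨-, hτ⟩ := h1
  have hD : ∃ g : GL (Fin 2) ℚ, heckeDiagMatrix ℓ =
      Matrix.GeneralLinearGroup.map (Rat.castHom ℝ) g := by
    refine ⟨Matrix.GeneralLinearGroup.mkOfDetNeZero !![(ℓ : ℚ), 0; 0, 1]
      (by rw [Matrix.det_fin_two_of]; simpa using hℓ), ?_⟩
    ext a b
    fin_cases a <;> fin_cases b <;>
      simp [heckeDiagMatrix, hℓ, upperTriangularGL, Matrix.GeneralLinearGroup.mkOfDetNeZero]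
  obtain ⟨gD, hgD⟩ := hD
  refine ⟨Matrix.SpecialLinearGroup.mapGL ℚ (S34WQ_gamma ℓ N u v h) * gD *
    Matrix.SpecialLinearGroup.mapGL ℚ σ, ?_⟩
  rw [S35W4_Wmat, hτ, hτ σ, hgD, map_mul, map_mul]

/-- **the slash by `W` of a form with character `χ` is a form with character `χ ∘ conj`.** -/
theorem S35W4A_isForm (k : ℤ) (χ : Gamma0 (N * ℓ) →* ℂˣ) (a : ℍ → ℂ)
    (ha : PG_IsForm (N * ℓ) k χ a) :
    PG_IsForm (N * ℓ) k (χ.comp (S35W4_conj N ℓ u v h)) (a ∣[k] S35W4_Wmat N ℓ u v h) where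
  holo := ha.holo.slash k _
  aut := fun g z => PG_G7iv_aut_of_slash g (S35W4A_slash N ℓ u v h k χ a ha.aut g) z
  bdd := by
    intro σ
    obtain ⟨g, hg⟩ := S35W4A_exists_rat N ℓ u v h σ
    have h1 : (a ∣[k] S35W4_Wmat N ℓ u v h) ∣[k] σ =
        a ∣[k] (Matrix.GeneralLinearGroup.map (Rat.castHom ℝ) g) := by
      rw [← hg, SlashAction.slash_mul]
      rfl
    rw [h1]
    exact PG_G7iv_bdd_rat ha.bdd g

/-- the same with the character written as `PG_chi c * χb`. -/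
theorem S35W4A_isForm_chi (k : ℤ) (m : ℕ) (c : PG_M (N * ℓ)) (χb : Gamma0 (N * ℓ) →* ℂˣ)
    (a : ℍ → ℂ)
    (ha : PG_IsForm (N * ℓ) k
      (PG_chi (N * ℓ) m (c : Additive (Gamma0 (N * ℓ)) →+ ℤ) * χb) a) :
    PG_IsForm (N * ℓ) k
      (PG_chi (N * ℓ) m ((S35W4_pull N ℓ u v h c : PG_M (N * ℓ)) :
          Additive (Gamma0 (N * ℓ)) →+ ℤ) * χb.comp (S35W4_conj N ℓ u v h))
      (a ∣[k] S35W4_Wmat N ℓ u v h) := by
  have h1 := S35W4A_isForm N ℓ u v h k _ a ha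
  rw [S35W4_comp_mul, ← S35W4_chi_pull] at h1
  exact h1

theorem S35W4A_ne_zero (k : ℤ) (a : ℍ → ℂ) (ha : a ≠ 0) :
    a ∣[k] S35W4_Wmat N ℓ u v h ≠ 0 := fun h0 =>
  ha ((PG_G7iv_slash_eq_zero_iff k _ a).mp h0)

/-- the explicit value: `(a ∣[k] W) z = ℓ ^ (k - 1) * (a ∣[k] γ_W) (ℓ z)`. -/
theorem S35W4A_apply (k : ℤ) (a : ℍ → ℂ) (z : ℍ) :
    (a ∣[k] S35W4_Wmat N ℓ u v h) z =
      (ℓ : ℂ) ^ (k - 1) *
        (a ∣[k] (Matrix.SpecialLinearGroup.mapGL ℝ (S34WQ_gamma ℓ N u v h)))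
          (heckeDiagMatrix ℓ • z) := by
  rw [S35W4_Wmat, SlashAction.slash_mul, slash_heckeDiagMatrix_apply k (NeZero.ne ℓ)]

theorem S35W4A_det (N ℓ : ℕ) [NeZero ℓ] (u v : ℤ) (h : (ℓ : ℤ) * u + v * (N : ℤ) = 1) :
    ((S35W4_Wmat N ℓ u v h).det : ℝ) = (ℓ : ℝ) := by
  rw [S35W4_Wmat, map_mul, Units.val_mul]
  have h1 : ((Matrix.SpecialLinearGroup.mapGL ℝ (S34WQ_gamma ℓ N u v h)).det : ℝ) = 1 := by
    simp
  rw [h1, one_mul]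
  exact det_heckeDiagMatrix (NeZero.ne ℓ)

/-- the general value of the slash by `W`. -/
theorem S35W4A_slash_apply (k : ℤ) (a : ℍ → ℂ) (z : ℍ) :
    (a ∣[k] S35W4_Wmat N ℓ u v h) z =
      a (S35W4_Wmat N ℓ u v h • z) * (ℓ : ℂ) ^ (k - 1) *
        denom (S35W4_Wmat N ℓ u v h) z ^ (-k) := by
  rw [ModularForm.slash_apply, S35W4A_σ, S35W4A_det]
  simp only [ContinuousAlgEquiv.refl_apply, Nat.abs_cast, Complex.ofReal_natCast]

/-- powers: `(a ∣[k] W) ^ m = ℓ ^ (1 - m) • ((a ^ m) ∣[k * m] W)`. -/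
theorem S35W4A_pow (k : ℤ) (m : ℕ) (a : ℍ → ℂ) :
    (a ∣[k] S35W4_Wmat N ℓ u v h) ^ m =
      ((ℓ : ℂ) ^ (1 - (m : ℤ))) • ((a ^ m) ∣[k * (m : ℤ)] S35W4_Wmat N ℓ u v h) := by
  funext z
  have hℓ : (ℓ : ℂ) ≠ 0 := by exact_mod_cast NeZero.ne ℓ
  have hd : denom (S35W4_Wmat N ℓ u v h) z ≠ 0 := denom_ne_zero _ z
  rw [Pi.pow_apply, Pi.smul_apply, smul_eq_mul, S35W4A_slash_apply, S35W4A_slash_apply,
    Pi.pow_apply, mul_pow, mul_pow, ← zpow_natCast ((ℓ : ℂ) ^ (k - 1)) m,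
    ← zpow_natCast (denom (S35W4_Wmat N ℓ u v h) z ^ (-k)) m, ← zpow_mul, ← zpow_mul]
  have e1 : (ℓ : ℂ) ^ ((k - 1) * (m : ℤ)) =
      (ℓ : ℂ) ^ (1 - (m : ℤ)) * (ℓ : ℂ) ^ (k * (m : ℤ) - 1) := by
    rw [← zpow_add₀ hℓ]
    congr 1
    ring
  have e2 : -k * (m : ℤ) = -(k * (m : ℤ)) := by ring
  rw [e1, e2]
  ring

end Fermat.Agent.S35_helper18_W4A
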