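import Mathlib
import Fermat.Agent.S35_helper19_LOCAL
import Fermat.Agent.S35_helper7_CROSS2K
import Fermat.Agent.S35_helper13_LOCALK

/-!
# S35, GEO (operator route): the local shape at a crossing point of the finite chart (helper19)

The composition, at a crossing point `m` of the finite chart `A0 = S18K_A0 A K1 (N' * q)`, of

* helper7's crossing datum `S35X2K_cross_A0` (local generator `g''` of `(σ² - 1) D'` in the class
  `LU2`, with the unit `u'' = f'' / g'' ^ n`; its only open input is Red-Frob `hRedU`),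
* helper13's instance `S35LK_setup` of the structural hypotheses `S35LOC_Setup`,
* the local step `S35LOC_main`,

with the toric data of `f''` (TORIC) and the constants and the root `G` of `h` (CONST) as
hypotheses.  The conclusion is `S34C_Shape` for `(h, G)` at `m`: the hypothesis `hshape0` of
helper27's `S35CL_root`.
-/

set_option autoImplicit false
set_option linter.unusedSectionVars false
set_option linter.unusedVariables false
set_option linter.style.haveILetI false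
set_option maxHeartbeats 1000000
set_option synthInstance.maxHeartbeats 400000

open AlgebraicCurve ModularCurve HahnSeries IntermediateField

noncomputable section

namespace Fermat.Agent.S35_helper19_SHAPE0

open Fermat.Agent.S18_helper9_CDefs Fermat.Agent.S18_helper25_COREDefs
  Fermat.Agent.S34_helper12_CDefs Fermat.Agent.S34_helper6_RED Fermat.Agent.S34_helper5_K0
  Fermat.Agent.S18_helper3_LOCRING Fermat.Agent.S37_helper4_B1Defs
  Fermat.Agent.S37_helper5_LEVEL Fermat.Agent.S34_Contracts Fermat.Agent.S34_helper21_ACT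
  Fermat.Agent.S34_helper21_CI Fermat.Agent.S34_helper20_V0K
  Fermat.Agent.S34_helper7_LGDefs Fermat.Agent.S35_helper7_LGFDefs
  Fermat.Agent.S35_helper7_CROSS2K Fermat.Agent.S35_helper13_LOCALK
  Fermat.Agent.S35_helper19_LOCAL Fermat.Agent.S34_helper27_P1C

local notation "Qb" => AlgebraicClosure ℚ
local notation "GQ" => (AlgebraicClosure ℚ ≃ₐ[ℚ] AlgebraicClosure ℚ)

variable (A : ValuationSubring Qb) (K1 : IntermediateField ℚ Qb)
  (hstab : ∀ σ : GQ, ∀ x ∈ K1, σ x ∈ K1) [IsDiscreteValuationRing (S18K_O1 A K1)]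
  {q : ℕ} (hq : q.Prime) (hA : A.LiesOverPrime q) (h : S18K_Admissible A K1 q)
  (N' : ℕ) [NeZero N'] [NeZero (N' * q)] (hqN : ¬ q ∣ N')
  (σ : GQ) (hσ : A.IsFrobeniusAt σ q)

include hq hA hqN in
/-- the constants of `O1` lie in the finite chart -/
theorem S35SH_C_mem_A0 (c : K1) (hc : (c : Qb) ∈ A) :
    (HahnSeries.C c : LaurentSeries K1) ∈ S18K_A0 A K1 (N' * q) := by
  have S := S34P1C_setup2 A K1 hq hA N' hqN
  have hO : (HahnSeries.C c : LaurentSeries K1) ∈ S18K_O A K1 :=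
    (S18K_mem_O A K1 _).2 ⟨c, hc, rfl⟩
  refine (S.chart0.mem_iff _).2 ⟨?_, S.O_le hO⟩
  have hmem : (HahnSeries.C c : LaurentSeries K1) ∈ adj (S18K_O A K1) (S18K_j K1) :=
    Subring.subset_closure (Or.inl hO)
  exact isIntegral_algebraMap (R := adj (S18K_O A K1) (S18K_j K1)) (A := LaurentSeries K1)
    (x := ⟨_, hmem⟩)

include hq hA hqN in
/-- the constants of `O1` lie in the local ring at any prime of the finite chart -/
theorem S35SH_C_mem_loc (m : Ideal (S18K_A0 A K1 (N' * q))) [m.IsPrime] (c : K1)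
    (hc : (c : Qb) ∈ A) :
    (HahnSeries.C c : LaurentSeries K1) ∈ locRing (S18K_A0 A K1 (N' * q)) m :=
  le_locRing _ m (S35SH_C_mem_A0 A K1 hq hA N' hqN c hc)

include hq hA hqN in
theorem S35SH_C_inv_mem_loc (m : Ideal (S18K_A0 A K1 (N' * q))) [m.IsPrime] (c : K1)
    (hc : ((c : Qb))⁻¹ ∈ A) :
    (HahnSeries.C c : LaurentSeries K1)⁻¹ ∈ locRing (S18K_A0 A K1 (N' * q)) m := by
  have e : (HahnSeries.C c : LaurentSeries K1)⁻¹ = HahnSeries.C c⁻¹ :=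
    (map_inv₀ (HahnSeries.C : K1 →+* LaurentSeries K1) c).symm
  rw [e]
  refine S35SH_C_mem_loc A K1 hq hA N' hqN m c⁻¹ ?_
  simpa using hc

include hA h hσ in
/-- **The local shape at a crossing point of the finite chart.**  `f2 = f''` is a unit of
`V1 ⊓ V2` with `div f'' = n ((σ² - 1) D)`, `n = lam * n'`, toric on both branches;
`h1 ^ n' = c0 (σ² - q²) f''`; `(γ_i, b_i, G)` are the branch constants of `h1`, their `lam`-th
roots modulo `π` and the global root.  Then `(h1, G)` has the shape of block C' at `m`. -/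
theorem S35SH_shape0 (lam n' : ℕ) (hlam : 0 < lam) (hn' : 0 < n')
    (hπ : S18K_π A K1 ∈ S18K_A0 A K1 (N' * q)) (m : Ideal (S18K_A0 A K1 (N' * q)))
    (hm : m.IsMaximal) (hπm : (⟨S18K_π A K1, hπ⟩ : S18K_A0 A K1 (N' * q)) ∈ m)
    (ht1 : S34K_Thru (S18K_π A K1) (S18K_V A K1 (N' * q)) (S18K_A0 A K1 (N' * q)) m)
    (ht2 : S34K_Thru (S18K_π A K1) (S34P1C_V2 A K1 hq N' hqN) (S18K_A0 A K1 (N' * q)) m)
    (hRedU : ∀ (ϖ : K1) (k : ℕ) (T S' c : LaurentSeries K1),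
      (haveI := hm.isPrime; S34LGK_NodeData (N' * q) A K1 hstab (S34P1C_V2 A K1 hq N' hqN)
        (S18K_A0 A K1 (N' * q)) m ϖ k T S' c) →
      ∀ a ρ : K1, (a : Qb) ∈ A.nonunits → (ρ : Qb) ∈ A.nonunits → ϖ ^ k = a * ρ →
        (haveI := hm.isPrime
         S35LGK_LU (S18K_π A K1) (S18K_V A K1 (N' * q)) (S18K_A0 A K1 (N' * q)) m
            (S34ACT_act K1 hstab (σ * σ) (T - HahnSeries.C a) * (T - HahnSeries.C a)⁻¹) ∧
          S35LGK_LU (S18K_π A K1) (S34P1C_V2 A K1 hq N' hqN) (S18K_A0 A K1 (N' * q)) m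
            (S34ACT_act K1 hstab (σ * σ) (T - HahnSeries.C a) * (T - HahnSeries.C a)⁻¹)) ∧
        (haveI := hm.isPrime
         S35LGK_LU (S18K_π A K1) (S18K_V A K1 (N' * q)) (S18K_A0 A K1 (N' * q)) m
            (S34ACT_act K1 hstab (σ * σ) (S' - HahnSeries.C a) * (S' - HahnSeries.C a)⁻¹) ∧
          S35LGK_LU (S18K_π A K1) (S34P1C_V2 A K1 hq N' hqN) (S18K_A0 A K1 (N' * q)) m
            (S34ACT_act K1 hstab (σ * σ) (S' - HahnSeries.C a) * (S' - HahnSeries.C a)⁻¹)))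
    -- the function `f''`
    (D : Divisor Qb (modularFunctionFieldBar (N' * q)))
    (hD : ∀ P : Place Qb (modularFunctionFieldBar (N' * q)), D P ≠ 0 →
      S37LEVEL_IsRational (N' * q) K1 P)
    (f2 : LaurentSeries K1) (hf2 : f2 ∈ S18K_F1 K1 (N' * q)) (hf20 : f2 ≠ 0)
    (hf2V : f2 ∈ (S18K_V A K1 (N' * q) ⊓ S34P1C_V2 A K1 hq N' hqN :
      Subring (LaurentSeries K1)))
    (hf2V' : f2⁻¹ ∈ (S18K_V A K1 (N' * q) ⊓ S34P1C_V2 A K1 hq N' hqN :
      Subring (LaurentSeries K1)))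
    (hdiv : ∀ P : Place Qb (modularFunctionFieldBar (N' * q)),
      S37B1_ordP (N' * q) K1 P f2 =
        ((lam * n' : ℕ) : ℤ) * (S34R_g (N' * q) (σ * σ) • D - D) P)
    -- toric
    (c1 c2 : K1) (hc1 : (c1 : Qb) ∈ A) (hc1' : ((c1 : Qb))⁻¹ ∈ A)
    (hc2 : (c2 : Qb) ∈ A) (hc2' : ((c2 : Qb))⁻¹ ∈ A)
    (H1 H2 : LaurentSeries K1) (hH1F : H1 ∈ S18K_F1 K1 (N' * q))
    (hH2F : H2 ∈ S18K_F1 K1 (N' * q))
    (hH1 : H1 ∈ S18K_V A K1 (N' * q)) (hH1' : H1⁻¹ ∈ S18K_V A K1 (N' * q))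
    (hH2 : H2 ∈ S34P1C_V2 A K1 hq N' hqN) (hH2' : H2⁻¹ ∈ S34P1C_V2 A K1 hq N' hqN)
    (htor1 : ∃ v ∈ S18K_V A K1 (N' * q),
      f2 = HahnSeries.C c1 * H1 ^ (lam * n') * (1 + S18K_π A K1 * v))
    (htor2 : ∃ v ∈ S34P1C_V2 A K1 hq N' hqN,
      f2 = HahnSeries.C c2 * H2 ^ (lam * n') * (1 + S18K_π A K1 * v))
    -- the function `h1`
    (h1 : LaurentSeries K1) (hh1F : h1 ∈ S18K_F1 K1 (N' * q)) (hh10 : h1 ≠ 0)
    (c0 : K1) (hc0 : (c0 : Qb) ∈ A) (hc0' : ((c0 : Qb))⁻¹ ∈ A)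
    (hhf : h1 ^ n' = HahnSeries.C c0 *
      (S34ACT_act K1 hstab (σ * σ) f2 * (f2 ^ (q ^ 2))⁻¹))
    -- the constants and the root
    (γ1 γ2 b1 b2 : K1) (hγ1 : (γ1 : Qb) ∈ A) (hγ2 : (γ2 : Qb) ∈ A)
    (hb1 : (b1 : Qb) ∈ A) (hb1' : ((b1 : Qb))⁻¹ ∈ A) (hb2 : (b2 : Qb) ∈ A)
    (G : LaurentSeries K1) (hG0 : G ≠ 0)
    (hh1 : ∃ v ∈ S18K_V A K1 (N' * q), h1 = HahnSeries.C γ1 *
      (S34ACT_act K1 hstab (σ * σ) H1 * (H1 ^ (q ^ 2))⁻¹) ^ lam * (1 + S18K_π A K1 * v))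
    (hh2 : ∃ v ∈ S34P1C_V2 A K1 hq N' hqN, h1 = HahnSeries.C γ2 *
      (S34ACT_act K1 hstab (σ * σ) H2 * (H2 ^ (q ^ 2))⁻¹) ^ lam * (1 + S18K_π A K1 * v))
    (hG1 : ∃ v ∈ S18K_V A K1 (N' * q), G = HahnSeries.C b1 *
      (S34ACT_act K1 hstab (σ * σ) H1 * (H1 ^ (q ^ 2))⁻¹) * (1 + S18K_π A K1 * v))
    (hG2 : ∃ v ∈ S34P1C_V2 A K1 hq N' hqN, G = HahnSeries.C b2 *
      (S34ACT_act K1 hstab (σ * σ) H2 * (H2 ^ (q ^ 2))⁻¹) * (1 + S18K_π A K1 * v))
    (hb : ((γ1 - γ2 : K1) : Qb) ∈ A.nonunits → b1 = b2) :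
    S34C_Shape (S18K_π A K1) (S18K_F1 K1 (N' * q))
      (S18K_V A K1 (N' * q) ⊓ S34P1C_V2 A K1 hq N' hqN) (S18K_A0 A K1 (N' * q)) lam h1 G m := by
  haveI := hm.isPrime
  haveI : NeZero q := ⟨hq.ne_zero⟩
  -- the crossing datum
  obtain ⟨g2, hg2F, hg20, hg2_1, hg2_2, -, hu2, hu2'⟩ :=
    S35X2K_cross_A0 A K1 hstab hq hA h N' hqN σ hσ hπ m hm hπm ht1 ht2 hRedU (lam * n') D hD
      f2 hf2 hf20 hf2V hf2V' hdiv
  -- the structural hypotheses
  have hS : S35LOC_Setup (S18K_π A K1) (S18K_F1 K1 (N' * q)) (S18K_V A K1 (N' * q))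
      (S34P1C_V2 A K1 hq N' hqN) (locRing (S18K_A0 A K1 (N' * q)) m)
      (S34ACT_act K1 hstab (σ * σ)) (q ^ 2) :=
    S35LK_setup A K1 hstab q N' (N' * q) hq hqN (Nat.mul_comm N' q) σ hA h hσ m hm ht1 ht2
  have hCm := S35SH_C_mem_loc A K1 hq hA N' hqN m
  have hCi := S35SH_C_inv_mem_loc A K1 hq hA N' hqN m
  -- the constants: `γ1 - γ2` in the maximal ideal of `R` forces a nonunit of `A`
  have hb' : S35LOC_NU (locRing (S18K_A0 A K1 (N' * q)) m)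
      ((HahnSeries.C γ1 : LaurentSeries K1) - HahnSeries.C γ2) →
      (HahnSeries.C b1 : LaurentSeries K1) = HahnSeries.C b2 := by
    intro hNU
    have hmemA : ((γ1 - γ2 : K1) : Qb) ∈ A := by
      have : ((γ1 - γ2 : K1) : Qb) = (γ1 : Qb) - (γ2 : Qb) := by push_cast; rfl
      rw [this]; exact A.sub_mem hγ1 hγ2
    have hnon : ((γ1 - γ2 : K1) : Qb) ∈ A.nonunits := by
      rw [S35X2K_mem_nonunits_iff]
      by_cases h0 : (γ1 - γ2 : K1) = 0
      · left; rw [h0]; rfl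
      · right
        intro hinv
        have e : (HahnSeries.C γ1 : LaurentSeries K1) - HahnSeries.C γ2 =
            HahnSeries.C (γ1 - γ2) := (map_sub (HahnSeries.C : K1 →+* LaurentSeries K1) _ _).symm
        rcases hNU.2 with hz | hni
        · rw [e] at hz
          exact h0 (HahnSeries.C_injective (by rw [hz, map_zero]))
        · apply hni
          rw [e]
          exact hCi (γ1 - γ2) hinv
    rw [hb hnon]
  obtain ⟨u, g, w, hu, hu', hgF, hgV, hgV', hhu, hw, hw', c, hc, hG⟩ :=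
    S35LOC_main hS lam n' hlam hn' f2 g2 hf2 hf20 hg2F hg20 hg2_1 hg2_2 hu2 hu2'
      (HahnSeries.C c1) (HahnSeries.C c2) H1 H2 (hCm c1 hc1) (hCi c1 hc1') (hCm c2 hc2)
      (hCi c2 hc2') hH1F hH2F hH1 hH1' hH2 hH2' htor1 htor2
      h1 (HahnSeries.C c0) hh1F hh10 (hCm c0 hc0) (hCi c0 hc0') hhf
      (HahnSeries.C γ1) (HahnSeries.C γ2) (HahnSeries.C b1) (HahnSeries.C b2) G hG0
      (hCm γ1 hγ1) (hCm γ2 hγ2) (hCm b1 hb1) (hCi b1 hb1') (hCm b2 hb2)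
      hh1 hh2 hG1 hG2 hb'
  exact ⟨u, g, w, hu, hu', hgF, hgV, hgV', hhu, hw, hw', c, hc, hG⟩

end Fermat.Agent.S35_helper19_SHAPE0
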