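import Fermat.Agent.S35_helper1_GOODB

/-!
# S35, P6 SURJ route, piece GOOD (part C): the analytic core at a cusp

`S35GOODC_core`: if `y ∈ Pic⁰ (F_ℂ)[m]` has the datum `(D, x = a / b, r ^ m = a b ^ (m - 1))`
with character `χ`, then `χ (γ T ^ h γ⁻¹) = 1` for `γ = q.out⁻¹` whenever
`γ T ^ h γ⁻¹ ∈ Γ₀(N)`.  This is the converse of `PG_G5_an3_inf`: the slash `R = r ∣ γ` is
`N m`-periodic, `R (z + h) = χ (γ T ^ h γ⁻¹) R z`, and its order in `q_{N m}` is
`m (e D(v) + ord_{q_N} (b ∣ γ))`; both `e` and `ord_{q_N} (b ∣ γ)` are killed by `ζ_N ^ h`.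
-/

set_option autoImplicit false
set_option linter.unusedSectionVars false
set_option linter.unusedVariables false
set_option linter.style.haveILetI false
set_option linter.unnecessarySimpa false
set_option maxHeartbeats 1000000

noncomputable section

open UpperHalfPlane ModularForm CongruenceSubgroup AlgebraicCurve IntermediateField
open scoped MatrixGroups ModularForm Manifold
open Fermat.Agent.S20 Fermat.Agent.S24
open Fermat.Agent.G_helper6_Defs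
open Fermat.Agent.G_helper16_G5 Fermat.Agent.G_helper14_G8b Fermat.Agent.G_helper14_G8bRoot
open Fermat.Agent.G_helper14_G8bForms
open Fermat.Agent.S35_helper1_GOODA Fermat.Agent.S35_helper1_LC
open Fermat.Agent.S35_helper1_GOODB

namespace Fermat.Agent.S35_helper1_GOODC

/-- the ramification data of the embedding at the cusp `q`, and `γ T ^ N γ⁻¹ ∈ Γ₀(N)` -/
theorem S35GOODC_ram (N : ℕ) [NeZero N] (q : Q N) :
    q.out⁻¹ * ModularGroup.T ^ N * (q.out⁻¹)⁻¹ ∈ Gamma0 N ∧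
    ∃ (v : Place ℂ (PG_G5_FC N)) (e : ℕ), 0 < e ∧
      ∀ f : PG_G5_FC N, f ≠ 0 → (PG_G5_iotaInf N q f).order = (e : ℤ) * v.ord f := by
  haveI := PG_G5_finiteDimensional N
  have hj := PG_G5_TR N
  have ht := Fermat.Agent.S24_helper19_Final.transcendental_inv hj
  haveI hfd : FiniteDimensional ℂ⟮(PG_G5_jElt N)⁻¹⟯ (PG_G5_FC N) :=
    Fermat.Agent.S24_helper19_Final.finiteDimensional_congr_field
      (Fermat.Agent.S24_helper19_Final.adjoin_inv (PG_G5_jElt N)).symm inferInstance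
  have hI : Fintype.card (Q N) =
      Module.finrank ℂ⟮(PG_G5_jElt N)⁻¹⟯ (PG_G5_FC N) := by
    rw [Fermat.Agent.S24_helper19_Final.finrank_congr_field
      (Fermat.Agent.S24_helper19_Final.adjoin_inv (PG_G5_jElt N)), (PG_G5_DEG N).2,
      Fermat.Agent.S24_helper19_Final.card_Q]
  have hιt : ∀ q q', PG_G5_iotaInf N q (PG_G5_jElt N)⁻¹ =
      PG_G5_iotaInf N q' (PG_G5_jElt N)⁻¹ := by
    intro q q'
    rw [map_inv₀, map_inv₀, PG_G5_iotaInf_jElt, PG_G5_iotaInf_jElt]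
  have hN : 0 < N := Nat.pos_of_ne_zero (NeZero.ne N)
  have hζ : IsPrimitiveRoot (Complex.exp (2 * Real.pi * Complex.I / N)) N :=
    Complex.isPrimitiveRoot_exp N (NeZero.ne N)
  obtain ⟨v, e, kk, he, hkk, hek, hper, hmem, hw, hvt⟩ := PG_G5_ram_period
    ((PG_G5_jElt N)⁻¹) ht PG_G5_phi hI (PG_G5_iotaInf N)
    (PG_G5_iotaInf_const N) (PG_G5_iotaInf_injective N) hιt N hN (PG_G5_iotaInf_order N)
    (Complex.exp (2 * Real.pi * Complex.I / N)) hζ
    (MulAction.toPerm ModularGroup.T⁻¹) (PG_G5_iotaInf_rescale N) q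
  have hperN : ((MulAction.toPerm ModularGroup.T⁻¹ : Equiv.Perm (Q N)) ^ N) q = q := by
    have key : ∀ m : ℕ, m = kk * e →
        ((MulAction.toPerm ModularGroup.T⁻¹ : Equiv.Perm (Q N)) ^ m) q = q := by
      intro m hm
      rw [hm, pow_mul]
      exact Equiv.Perm.pow_apply_eq_self_of_apply_eq_self hper e
    exact key N (by rw [← hek, mul_comm])
  have hδN : q.out⁻¹ * ModularGroup.T ^ N * (q.out⁻¹)⁻¹ ∈ Gamma0 N := by
    have := PG_G5_conj_mem_pow N ModularGroup.T q N hperN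
    rw [inv_inv]
    exact this
  exact ⟨hδN, v, e, he, hw⟩

/-- `ω ^ ord (ι_q f) = 1` for every nonzero `f` of the function field, `ω = ζ_N ^ h`. -/
theorem S35GOODC_zpow_iota (N : ℕ) [NeZero N] (q : Q N) (h : ℕ)
    (hδN : q.out⁻¹ * ModularGroup.T ^ N * (q.out⁻¹)⁻¹ ∈ Gamma0 N)
    (hδ : q.out⁻¹ * ModularGroup.T ^ h * (q.out⁻¹)⁻¹ ∈ Gamma0 N)
    (f : PG_FC N) (hf : f ≠ 0) :
    (Complex.exp (2 * Real.pi * Complex.I / N) ^ h) ^ (PG_G5_iotaInf N q f).order = 1 := by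
  have hω0 : Complex.exp (2 * Real.pi * Complex.I / N) ^ h ≠ 0 :=
    pow_ne_zero _ (Complex.exp_ne_zero _)
  have hperh : ∀ {k' : ℤ} {c : ℍ → ℂ}, PG_IsForm N k' 1 c → ∀ w : ℍ,
      (c ∣[k'] q.out⁻¹) ((h : ℝ) +ᵥ w) = (c ∣[k'] q.out⁻¹) w := by
    intro k' c hc w
    have := S35GOOD_slash_twist hc q.out⁻¹ h hδ w
    rw [this]
    simp
  have hP : ∀ {k' : ℤ} {c : ℍ → ℂ}, PG_IsForm N k' 1 c → c ≠ 0 →
      (Complex.exp (2 * Real.pi * Complex.I / N) ^ h) ^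
        (laurentInf N (c ∣[k'] q.out⁻¹)).order = 1 :=
    fun hc hc0 => S35GOOD_zpow_order N (S35GOOD_hasPoleInf_slash N hc _ hδN)
      (PG_G5_slash_ne_zero hc0 _) h (hperh hc)
  obtain ⟨k', a', b', ha', hb', hb0', hreal'⟩ := PG_G5_an2 N f
  have hbr := S35GOOD_bridge N q hδN f ha' hb' hreal'
  have hιf : PG_G5_iotaInf N q f ≠ 0 := (map_ne_zero _).mpr hf
  have hB' : laurentInf N (b' ∣[k'] q.out⁻¹) ≠ 0 :=
    PG_G5_laurentInf_ne_zero N (S35GOOD_hasPoleInf_slash N hb' _ hδN)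
      (PG_G5_slash_ne_zero hb0' _)
  have hfL : (f : LaurentSeries ℂ) ≠ 0 := fun h0 => hf (Subtype.ext h0)
  have ha0' : a' ≠ 0 := by
    intro h0
    have h1 : PG_qLaur a' = 0 := by rw [h0]; exact PG_G8b_qLaur_zero
    have h2 : (f : LaurentSeries ℂ) * PG_qLaur b' = 0 := by
      have := hreal'
      unfold PG_Realizes at this
      rw [this, h1]
    rcases mul_eq_zero.1 h2 with h3 | h3
    · exact hfL h3
    · exact PG_G8b_qLaur_ne_zero hb' hb0' h3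
  have hord := HahnSeries.order_mul hιf hB'
  rw [hbr] at hord
  have h1 := hP ha' ha0'
  have h2 := hP hb' hb0'
  rw [hord, zpow_add₀ hω0, h2, mul_one] at h1
  exact h1

/-- **The analytic core of GOOD.** -/
theorem S35GOODC_core (N m : ℕ) [NeZero N] (hm : 0 < m) (y : PG_JC N) (χ : Gamma0 N →* ℂˣ)
    (hd : PG_G8b_Datum N m y χ) (q : Q N) (h : ℕ)
    (hδ : q.out⁻¹ * ModularGroup.T ^ h * (q.out⁻¹)⁻¹ ∈ Gamma0 N) :
    χ ⟨q.out⁻¹ * ModularGroup.T ^ h * (q.out⁻¹)⁻¹, hδ⟩ = 1 := by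
  obtain ⟨D, x, k, a, b, r, -, hx0, hxD, ha, hb, ha0, hb0, hreal, hr, hrg, hχ⟩ := hd
  haveI : NeZero m := ⟨hm.ne'⟩
  have hab := PG_G8b_mul_pow_ne_zero ha hb ha0 hb0 (m - 1)
  have hr0 : r ≠ 0 := by
    rintro rfl
    apply hab
    rw [← hrg]
    exact zero_pow hm.ne'
  obtain ⟨hδN, v, e, he, hw⟩ := S35GOODC_ram N q
  generalize hγ : q.out⁻¹ = γ at *
  -- `ω ^ e = 1`
  have hω0 : Complex.exp (2 * Real.pi * Complex.I / N) ^ h ≠ 0 :=
    pow_ne_zero _ (Complex.exp_ne_zero _)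
  have hX : ∀ f : PG_FC N, f ≠ 0 →
      (Complex.exp (2 * Real.pi * Complex.I / N) ^ h) ^ (PG_G5_iotaInf N q f).order = 1 := by
    intro f hf
    subst hγ
    exact S35GOODC_zpow_iota N q h hδN hδ f hf
  obtain ⟨t, ht1⟩ := Fermat.Agent.G_helper7_G8g.PG8g_exists_ord_eq_one v
  have ht0 : t ≠ 0 := by
    rintro rfl
    simp at ht1
  have hU : (Complex.exp (2 * Real.pi * Complex.I / N) ^ h) ^ (e : ℤ) = 1 := by
    have := hX t ht0
    rw [hw t ht0, ht1, mul_one] at this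
    exact this
  -- the orders of `a ∣ γ` and `b ∣ γ`
  have hPa : HasPoleInf N 0 (a ∣[k] γ) := S35GOOD_hasPoleInf_slash N ha γ hδN
  have hPb : HasPoleInf N 0 (b ∣[k] γ) := S35GOOD_hasPoleInf_slash N hb γ hδN
  have hbrx : PG_G5_iotaInf N q x * laurentInf N (b ∣[k] γ) = laurentInf N (a ∣[k] γ) := by
    subst hγ
    exact S35GOOD_bridge N q hδN x ha hb hreal
  have hA0 : a ∣[k] γ ≠ 0 := PG_G5_slash_ne_zero ha0 γ
  have hB0 : b ∣[k] γ ≠ 0 := PG_G5_slash_ne_zero hb0 γ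
  have hA' : laurentInf N (a ∣[k] γ) ≠ 0 := PG_G5_laurentInf_ne_zero N hPa hA0
  have hB' : laurentInf N (b ∣[k] γ) ≠ 0 := PG_G5_laurentInf_ne_zero N hPb hB0
  have hιx : PG_G5_iotaInf N q x ≠ 0 := (map_ne_zero _).mpr hx0
  have hordx : (laurentInf N (a ∣[k] γ)).order =
      (e : ℤ) * ((m : ℤ) * (D : Divisor ℂ (PG_FC N)) v) + (laurentInf N (b ∣[k] γ)).order := by
    have h1 := HahnSeries.order_mul hιx hB'
    rw [hbrx, hw x hx0, ← hxD v] at h1
    exact h1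
  have hPb1 : (Complex.exp (2 * Real.pi * Complex.I / N) ^ h) ^
      (laurentInf N (b ∣[k] γ)).order = 1 := by
    refine S35GOOD_zpow_order N hPb hB0 h (fun w => ?_)
    have := S35GOOD_slash_twist hb γ h hδ w
    rw [this]
    simp
  -- the slash of `r`
  have hδNm : γ * ModularGroup.T ^ (N * m) * γ⁻¹ ∈ Gamma0 N := by
    have e1 : γ * ModularGroup.T ^ (N * m) * γ⁻¹ = (γ * ModularGroup.T ^ N * γ⁻¹) ^ m := by
      rw [pow_mul, conj_pow]
    rw [e1]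
    exact (Gamma0 N).pow_mem hδN m
  have hχNm : χ ⟨γ * ModularGroup.T ^ (N * m) * γ⁻¹, hδNm⟩ = 1 := by
    have e1 : (⟨γ * ModularGroup.T ^ (N * m) * γ⁻¹, hδNm⟩ : Gamma0 N) =
        (⟨γ * ModularGroup.T ^ N * γ⁻¹, hδN⟩ : Gamma0 N) ^ m := by
      apply Subtype.ext
      show γ * ModularGroup.T ^ (N * m) * γ⁻¹ = (γ * ModularGroup.T ^ N * γ⁻¹) ^ m
      rw [pow_mul, conj_pow]
    rw [e1, map_pow]
    exact hχ _
  have hPR : HasPoleInf (N * m) 0 (r ∣[k] γ) :=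
    ⟨MDifferentiable.slash hr.holo k _, fun z => by
        have := S35GOOD_slash_twist hr γ (N * m) hδNm z
        rw [hχNm] at this
        simpa using this,
      by simpa using hr.bdd γ⟩
  have hR0 : r ∣[k] γ ≠ 0 := PG_G5_slash_ne_zero hr0 γ
  have hC0 : laurentInf (N * m) (r ∣[k] γ) ≠ 0 := PG_G5_laurentInf_ne_zero (N * m) hPR hR0
  have hPa' : HasPoleInf (N * m) 0 (a ∣[k] γ) := by
    simpa using S35LC_hasPoleInf N m hPa
  have hPb' : HasPoleInf (N * m) 0 (b ∣[k] γ) := by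
    simpa using S35LC_hasPoleInf N m hPb
  have hRm : (fun w => (r ∣[k] γ) w ^ m) =
      (a ∣[k] γ) * (fun w => (b ∣[k] γ) w ^ (m - 1)) := by
    funext w
    simp only [Pi.mul_apply]
    rw [ModularForm.SL_slash_apply, ModularForm.SL_slash_apply, ModularForm.SL_slash_apply]
    have h1 : r (γ • w) ^ m = a (γ • w) * b (γ • w) ^ (m - 1) := by
      have := congrFun hrg (γ • w)
      simpa using this
    obtain ⟨m', hm'⟩ : ∃ m', m = m' + 1 := ⟨m - 1, by omega⟩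
    rw [hm'] at h1 ⊢
    simp only [Nat.add_sub_cancel] at h1 ⊢
    rw [mul_pow, h1, mul_pow]
    ring
  have hCm : laurentInf (N * m) (r ∣[k] γ) ^ m =
      laurentInf (N * m) (a ∣[k] γ) * laurentInf (N * m) (b ∣[k] γ) ^ (m - 1) := by
    have hPbp : HasPoleInf (N * m) 0 (fun w => (b ∣[k] γ) w ^ (m - 1)) :=
      PG_G5_hasPoleInf_pow (N * m) hPb' (m - 1)
    rw [← PG_G5_laurentInf_pow (N * m) hPR m, hRm,
      Fermat.Agent.S24_helper21_LINF.laurentInf_mul (N * m) hPa' hPbp,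
      PG_G5_laurentInf_pow (N * m) hPb' (m - 1)]
  have hLA0 : laurentInf (N * m) (a ∣[k] γ) ≠ 0 := PG_G5_laurentInf_ne_zero (N * m) hPa' hA0
  have hLB0 : laurentInf (N * m) (b ∣[k] γ) ≠ 0 := PG_G5_laurentInf_ne_zero (N * m) hPb' hB0
  have hordC : (laurentInf (N * m) (r ∣[k] γ)).order =
      (m : ℤ) * ((e : ℤ) * (D : Divisor ℂ (PG_FC N)) v + (laurentInf N (b ∣[k] γ)).order) := by
    have h1 := congrArg HahnSeries.order hCm
    rw [HahnSeries.order_pow, HahnSeries.order_mul hLA0 (pow_ne_zero _ hLB0),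
      HahnSeries.order_pow, S35LC_order N m hPa hA0, S35LC_order N m hPb hB0, hordx] at h1
    simp only [nsmul_eq_mul] at h1
    have hm1 : ((m - 1 : ℕ) : ℤ) = (m : ℤ) - 1 := by
      rw [Nat.cast_sub hm]
      simp
    rw [hm1] at h1
    have hm0 : (m : ℤ) ≠ 0 := by exact_mod_cast hm.ne'
    apply mul_left_cancel₀ hm0
    rw [h1]
    ring
  -- the twisted periodicity
  obtain ⟨hsh1, hsh2⟩ := PG_G5_shift_nat (N * m) hPR h
  have hfun : (fun w => (r ∣[k] γ) ((h : ℝ) +ᵥ w)) =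
      (fun _ : ℍ => (χ ⟨γ * ModularGroup.T ^ h * γ⁻¹, hδ⟩ : ℂ)) * (r ∣[k] γ) := by
    funext w
    rw [Pi.mul_apply]
    exact S35GOOD_slash_twist hr γ h hδ w
  have hL : laurentInf (N * m) (fun w => (r ∣[k] γ) ((h : ℝ) +ᵥ w)) =
      HahnSeries.C (χ ⟨γ * ModularGroup.T ^ h * γ⁻¹, hδ⟩ : ℂ) *
        laurentInf (N * m) (r ∣[k] γ) := by
    rw [hfun, Fermat.Agent.S24_helper21_LINF.laurentInf_mul (N * m)
      (Fermat.Agent.S24_helper21_LINF.hasPoleInf_const (N * m) _) hPR,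
      Fermat.Agent.S24_helper21_LINF.laurentInf_const]
  have hcoef := hsh2 (laurentInf (N * m) (r ∣[k] γ)).order
  rw [hL, HahnSeries.C_mul_eq_smul, HahnSeries.coeff_smul, smul_eq_mul] at hcoef
  have hc0 : (laurentInf (N * m) (r ∣[k] γ)).coeff (laurentInf (N * m) (r ∣[k] γ)).order ≠ 0 :=
    Fermat.Agent.S24_helper16_B.coeff_order_ne_zero hC0
  have hε : (χ ⟨γ * ModularGroup.T ^ h * γ⁻¹, hδ⟩ : ℂ) =
      (Complex.exp (2 * Real.pi * Complex.I / ((N * m : ℕ) : ℂ)) ^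
        (laurentInf (N * m) (r ∣[k] γ)).order) ^ h :=
    mul_right_cancel₀ hc0 hcoef
  -- `ζ_{N m} ^ m = ζ_N`
  have hζm : Complex.exp (2 * Real.pi * Complex.I / ((N * m : ℕ) : ℂ)) ^ (m : ℤ) =
      Complex.exp (2 * Real.pi * Complex.I / N) := by
    have hN : (N : ℂ) ≠ 0 := Nat.cast_ne_zero.2 (NeZero.ne N)
    have hm' : (m : ℂ) ≠ 0 := Nat.cast_ne_zero.2 hm.ne'
    rw [zpow_natCast, ← Complex.exp_nat_mul]
    congr 1
    push_cast
    field_simp
  have hfin : (Complex.exp (2 * Real.pi * Complex.I / ((N * m : ℕ) : ℂ)) ^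
        (laurentInf (N * m) (r ∣[k] γ)).order) ^ h = 1 := by
    have e1 : ∀ (z : ℂ) (t : ℤ), (z ^ t) ^ h = (z ^ h) ^ t := by
      intro z t
      rw [← zpow_natCast (z ^ t) h, ← zpow_mul, mul_comm t (h : ℤ), zpow_mul, zpow_natCast]
    rw [hordC, zpow_mul, hζm, e1, zpow_add₀ hω0, hPb1, mul_one, zpow_mul, hU, one_zpow]
  apply Units.ext
  rw [hε, hfin]
  rfl

end Fermat.Agent.S35_helper1_GOODC
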