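import Fermat.Agent.S35_helper1_GOODW
import Fermat.Agent.S35_helper1_GOODC

/-!
# S35, P6 SURJ route, piece GOOD: the character of a torsion datum is trivial on parabolics

`S35GOOD_main`: if `y ∈ Pic⁰ (F_ℂ)[m]` has the datum `(D, x = a / b, r ^ m = a b ^ (m - 1))`
with character `χ` (`PG_G8b_Datum N m y χ`), then `χ γ = 1` for every `γ ∈ Γ₀(N)` of trace
`± 2`.  (`S35GOOD_main_of` of the wrapper applied to the analytic core `S35GOODC_core`.)
-/

set_option autoImplicit false

noncomputable section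

open UpperHalfPlane ModularForm CongruenceSubgroup AlgebraicCurve
open scoped MatrixGroups ModularForm Manifold
open Fermat.Agent.G_helper6_Defs Fermat.Agent.G_helper14_G8b

namespace Fermat.Agent.S35_helper1_GOOD

/-- **GOOD**: the character of a torsion datum is trivial on every element of trace `± 2`. -/
theorem S35GOOD_main {N m : ℕ} [NeZero N] (hm : 0 < m) {y : PG_JC N} {χ : Gamma0 N →* ℂˣ}
    (hd : PG_G8b_Datum N m y χ) (γ : Gamma0 N)
    (hγ : ((γ : SL(2, ℤ)) : Matrix (Fin 2) (Fin 2) ℤ).trace ^ 2 = 4) : χ γ = 1 :=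
  Fermat.Agent.S35_helper1_GOODW.S35GOOD_main_of hm hd
    (fun q n hδ => Fermat.Agent.S35_helper1_GOODC.S35GOODC_core N m hm y χ hd q n hδ) γ hγ

end Fermat.Agent.S35_helper1_GOOD
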