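import Fermat.Agent.S24_helper21_LINF
import Fermat.Agent.S24_helper10_LOCinf

/-!
# S35, P6 SURJ route: change of level `N → N * m` for the Laurent expansion at `i∞`

`S35LC_laurentInf_qExpand`: for `g` with a pole of finite order at `i∞` and period `N`,
`laurentInf (N * m) g = qExpand m (laurentInf N g)`; hence `S35LC_order`.
-/

set_option autoImplicit false

open UpperHalfPlane ModularForm CongruenceSubgroup AlgebraicCurve IntermediateField
open scoped MatrixGroups ModularForm Manifold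
open Fermat.Agent.S20 Fermat.Agent.S24
open Fermat.Agent.S24_helper21_LINF

namespace Fermat.Agent.S35_helper1_LC

noncomputable section

variable (N : ℕ) [NeZero N] (m : ℕ) [NeZero m] {g : ℍ → ℂ} {M : ℕ}

lemma S35LC_qParam_eq (z : ℂ) :
    Function.Periodic.qParam (N : ℝ) z = Function.Periodic.qParam ((N * m : ℕ) : ℝ) z ^ m := by
  have hN : (N : ℂ) ≠ 0 := Nat.cast_ne_zero.2 (NeZero.ne N)
  have hm : (m : ℂ) ≠ 0 := Nat.cast_ne_zero.2 (NeZero.ne m)
  simp only [Function.Periodic.qParam]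
  rw [← Complex.exp_nat_mul]
  congr 1
  push_cast
  field_simp

lemma S35LC_tw_eq (M : ℕ) (g : ℍ → ℂ) : tw N M g = tw (N * m) (m * M) g := by
  funext z
  simp only [tw]
  rw [S35LC_qParam_eq N m, pow_mul]

omit [NeZero N] in
lemma S35LC_vadd_mul {g : ℍ → ℂ} (hg : ∀ z : ℍ, g ((N : ℝ) +ᵥ z) = g z) (k : ℕ)
    (z : ℍ) : g (((N * k : ℕ) : ℝ) +ᵥ z) = g z := by
  induction k with
  | zero => simp
  | succ k ih =>
    have e : (((N * (k + 1) : ℕ) : ℝ)) +ᵥ z = ((N : ℝ)) +ᵥ (((N * k : ℕ) : ℝ) +ᵥ z) := by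
      rw [vadd_vadd]
      congr 1
      push_cast
      ring
    rw [e, hg, ih]

lemma S35LC_hasPoleInf (hg : HasPoleInf N M g) : HasPoleInf (N * m) (m * M) g := by
  refine ⟨hg.1, fun z => S35LC_vadd_mul N hg.2.1 m z, ?_⟩
  change IsBoundedAtImInfty (tw (N * m) (m * M) g)
  rw [← S35LC_tw_eq]
  exact hg.2.2

lemma S35LC_coeff_tw (hg : HasPoleInf N M g) (k : ℕ) :
    (qExpansion ((N * m : ℕ) : ℝ) (tw (N * m) (m * M) g)).coeff k =
      if m ∣ k then (qExpansion (N : ℝ) (tw N M g)).coeff (k / m) else 0 := by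
  refine coeff_unique (Npos (N * m)) (good_tw (N * m) (S35LC_hasPoleInf N m hg))
    (fun k => if m ∣ k then (qExpansion (N : ℝ) (tw N M g)).coeff (k / m) else 0)
    (fun τ => ?_) k
  have h1 := (good_tw N hg).hasSum (Npos N) τ
  rw [S35LC_tw_eq N m] at h1
  have h2 := hasSum_reindex (NeZero.pos m) _ _ h1
  have e : (fun k : ℕ => (if m ∣ k then (qExpansion (N : ℝ) (tw N M g)).coeff (k / m)
        else 0) • Function.Periodic.qParam ((N * m : ℕ) : ℝ) τ ^ k) =
      fun k : ℕ => if m ∣ k then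
        (qExpansion (N : ℝ) (tw (N * m) (m * M) g)).coeff (k / m) •
          Function.Periodic.qParam (N : ℝ) τ ^ (k / m) else 0 := by
    funext k
    by_cases hk : m ∣ k
    · rw [if_pos hk, if_pos hk, S35LC_qParam_eq N m, ← pow_mul, Nat.mul_div_cancel' hk,
        S35LC_tw_eq N m]
    · rw [if_neg hk, if_neg hk, zero_smul]
  have h3 : HasSum (fun k : ℕ => (if m ∣ k then
        (qExpansion (N : ℝ) (tw N M g)).coeff (k / m) else 0) •
        Function.Periodic.qParam ((N * m : ℕ) : ℝ) τ ^ k) (tw (N * m) (m * M) g τ) := by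
    rw [e]
    exact h2
  exact h3

/-- **Change of level.** -/
theorem S35LC_laurentInf_qExpand (hg : HasPoleInf N M g) :
    laurentInf (N * m) g = ModularCurve.qExpand ℂ m (laurentInf N g) := by
  rw [laurentInf_eq_Lser (N * m) (S35LC_hasPoleInf N m hg), laurentInf_eq_Lser N hg]
  ext k
  rw [coeff_Lser]
  have hm : (0 : ℤ) < (m : ℤ) := by exact_mod_cast NeZero.pos m
  by_cases hk : (m : ℤ) ∣ k
  · obtain ⟨j, rfl⟩ := hk
    rw [ModularCurve.qExpand_coeff_mul, coeff_Lser]
    have e : (m : ℤ) * j + ((m * M : ℕ) : ℤ) = (m : ℤ) * (j + M) := by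
      push_cast
      ring
    rw [e]
    by_cases hj : j + (M : ℤ) < 0
    · rw [if_pos hj, if_pos (mul_neg_of_pos_of_neg hm hj)]
    · have hj' : 0 ≤ j + (M : ℤ) := not_lt.1 hj
      rw [if_neg hj, if_neg (not_lt.2 (mul_nonneg hm.le hj')), S35LC_coeff_tw N m hg,
        Int.natAbs_mul, Int.natAbs_natCast, if_pos (dvd_mul_right _ _),
        Nat.mul_div_cancel_left _ (NeZero.pos m)]
  · rw [ModularCurve.qExpand_coeff_of_not_dvd m _ hk]
    split_ifs with hk'
    · rfl
    · rw [S35LC_coeff_tw N m hg, if_neg]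
      intro hdvd
      apply hk
      have h1 : (m : ℤ) ∣ ((k + ((m * M : ℕ) : ℤ)).natAbs : ℤ) := by exact_mod_cast hdvd
      rw [Int.natAbs_of_nonneg (not_lt.1 hk')] at h1
      have h2 : (m : ℤ) ∣ ((m * M : ℕ) : ℤ) := by
        push_cast
        exact dvd_mul_right _ _
      exact (Int.dvd_add_left h2).1 h1

/-- the order at level `N * m` is `m` times the order at level `N` -/
theorem S35LC_order (hg : HasPoleInf N M g) (hg0 : g ≠ 0) :
    (laurentInf (N * m) g).order = (m : ℤ) * (laurentInf N g).order := by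
  rw [S35LC_laurentInf_qExpand N m hg]
  exact Fermat.Agent.S24_helper10_LOCinf.order_qExpand m
    (fun h0 => hg0 (laurentInf_eq_zero N hg h0))

end

end Fermat.Agent.S35_helper1_LC
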