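import Fermat.Agent.G_helper16_G5i
import Fermat.Agent.G_helper14_G8b
import Fermat.Agent.G_helper7_G8g
import Fermat.Agent.S21_helper29_P2
import Fermat.Agent.S35_helper1_LC

/-!
# S35, P6 SURJ route, piece GOOD (part A): twisted periodicity of slashes, the kernel predicate

* `S35GOOD_slash_char`  : `a ∣[k] δ = χ δ • a` for `δ ∈ Γ₀(N)`.
* `S35GOOD_slash_twist` : `(a ∣[k] γ) (h + w) = χ (γ T ^ h γ⁻¹) * (a ∣[k] γ) w`.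
* `S35GOOD_Kr`          : the kernel of `χ` as a predicate on `SL(2, ℤ)`, with its closure
  properties, and `S35GOOD_Kr_neg_one` (`χ (-1) = 1` for the character of a torsion datum).
-/

set_option autoImplicit false
set_option linter.unusedSectionVars false
set_option linter.unusedVariables false
set_option linter.style.haveILetI false
set_option linter.unnecessarySimpa false

noncomputable section

open UpperHalfPlane ModularForm CongruenceSubgroup AlgebraicCurve IntermediateField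
open scoped MatrixGroups ModularForm Manifold
open Fermat.Agent.S20 Fermat.Agent.S24
open Fermat.Agent.G_helper6_Defs
open Fermat.Agent.G_helper16_G5

namespace Fermat.Agent.S35_helper1_GOODA

/-! ### Twisted periodicity -/

theorem S35GOOD_slash_char {N : ℕ} {wt : ℤ} {χ : Gamma0 N →* ℂˣ} {a : ℍ → ℂ}
    (ha : PG_IsForm N wt χ a) (δ : SL(2, ℤ)) (hδ : δ ∈ Gamma0 N) (u : ℍ) :
    (a ∣[wt] δ) u = (χ ⟨δ, hδ⟩ : ℂ) * a u := by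
  rw [ModularForm.SL_slash_apply]
  have h := ha.aut ⟨δ, hδ⟩ u
  have hden : denom (δ : GL (Fin 2) ℝ) u ≠ 0 := denom_ne_zero _ u
  have h' : a (δ • u) = (χ ⟨δ, hδ⟩ : ℂ) * denom (δ : GL (Fin 2) ℝ) u ^ wt * a u := h
  rw [h']
  have e : denom (δ : GL (Fin 2) ℝ) u ^ wt * denom (δ : GL (Fin 2) ℝ) u ^ (-wt) = 1 := by
    rw [← zpow_add₀ hden]
    simp
  linear_combination (χ ⟨δ, hδ⟩ : ℂ) * a u * e

theorem S35GOOD_slash_twist' {N : ℕ} {wt : ℤ} {χ : Gamma0 N →* ℂˣ} {a : ℍ → ℂ}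
    (ha : PG_IsForm N wt χ a) (γ : SL(2, ℤ)) (k : ℕ) (δ : SL(2, ℤ))
    (hδ : δ ∈ Gamma0 N) (hγ : γ * ModularGroup.T ^ k = δ * γ) (w : ℍ) :
    (a ∣[wt] γ) ((k : ℝ) +ᵥ w) = (χ ⟨δ, hδ⟩ : ℂ) * (a ∣[wt] γ) w := by
  have h2 : ∀ u : ℍ, ((a ∣[wt] γ) ∣[wt] (ModularGroup.T ^ k : SL(2, ℤ))) u =
      (χ ⟨δ, hδ⟩ : ℂ) * (a ∣[wt] γ) u := by
    intro u
    rw [← SlashAction.slash_mul, hγ, SlashAction.slash_mul, ModularForm.SL_slash_apply,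
      S35GOOD_slash_char ha _ hδ (γ • u), ModularForm.SL_slash_apply]
    ring
  have h3 := h2 w
  rw [ModularForm.SL_slash_apply, PG_G5_denom_T_pow] at h3
  have e2 : (ModularGroup.T ^ k : SL(2, ℤ)) • w = (k : ℝ) +ᵥ w := by
    have := UpperHalfPlane.modular_T_zpow_smul w (k : ℤ)
    rw [zpow_natCast] at this
    rw [this]
    simp
  rw [e2] at h3
  simpa using h3

theorem S35GOOD_slash_twist {N : ℕ} {wt : ℤ} {χ : Gamma0 N →* ℂˣ} {a : ℍ → ℂ}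
    (ha : PG_IsForm N wt χ a) (γ : SL(2, ℤ)) (k : ℕ)
    (hδ : γ * ModularGroup.T ^ k * γ⁻¹ ∈ Gamma0 N) (w : ℍ) :
    (a ∣[wt] γ) ((k : ℝ) +ᵥ w) =
      (χ ⟨γ * ModularGroup.T ^ k * γ⁻¹, hδ⟩ : ℂ) * (a ∣[wt] γ) w :=
  S35GOOD_slash_twist' ha γ k _ hδ (by group) w

/-! ### The kernel of the character as a predicate on `SL(2, ℤ)` -/

/-- `δ ∈ Γ₀(N)` and `χ δ = 1`. -/
def S35GOOD_Kr {N : ℕ} (χ : Gamma0 N →* ℂˣ) (δ : SL(2, ℤ)) : Prop :=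
  ∃ hδ : δ ∈ Gamma0 N, χ ⟨δ, hδ⟩ = 1

theorem S35GOOD_Kr_mul {N : ℕ} {χ : Gamma0 N →* ℂˣ} {δ δ' : SL(2, ℤ)}
    (h : S35GOOD_Kr χ δ) (h' : S35GOOD_Kr χ δ') : S35GOOD_Kr χ (δ * δ') := by
  obtain ⟨hδ, h1⟩ := h
  obtain ⟨hδ', h1'⟩ := h'
  refine ⟨(Gamma0 N).mul_mem hδ hδ', ?_⟩
  have e : (⟨δ * δ', (Gamma0 N).mul_mem hδ hδ'⟩ : Gamma0 N) = ⟨δ, hδ⟩ * ⟨δ', hδ'⟩ := rfl
  rw [e, map_mul, h1, h1', one_mul]

theorem S35GOOD_Kr_inv {N : ℕ} {χ : Gamma0 N →* ℂˣ} {δ : SL(2, ℤ)}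
    (h : S35GOOD_Kr χ δ) : S35GOOD_Kr χ δ⁻¹ := by
  obtain ⟨hδ, h1⟩ := h
  refine ⟨(Gamma0 N).inv_mem hδ, ?_⟩
  have e : (⟨δ⁻¹, (Gamma0 N).inv_mem hδ⟩ : Gamma0 N) = (⟨δ, hδ⟩ : Gamma0 N)⁻¹ := rfl
  rw [e, map_inv, h1, inv_one]

theorem S35GOOD_Kr_conj {N : ℕ} {χ : Gamma0 N →* ℂˣ} {δ g : SL(2, ℤ)}
    (h : S35GOOD_Kr χ δ) (hg : g ∈ Gamma0 N) : S35GOOD_Kr χ (g * δ * g⁻¹) := by
  obtain ⟨hδ, h1⟩ := h
  refine ⟨(Gamma0 N).mul_mem ((Gamma0 N).mul_mem hg hδ) ((Gamma0 N).inv_mem hg), ?_⟩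
  have e : (⟨g * δ * g⁻¹, (Gamma0 N).mul_mem ((Gamma0 N).mul_mem hg hδ)
      ((Gamma0 N).inv_mem hg)⟩ : Gamma0 N) = ⟨g, hg⟩ * ⟨δ, hδ⟩ * (⟨g, hg⟩ : Gamma0 N)⁻¹ := rfl
  rw [e, map_mul, map_mul, map_inv, h1, mul_one, mul_inv_cancel]

theorem S35GOOD_Kr_of_eq {N : ℕ} {χ : Gamma0 N →* ℂˣ} {δ δ' : SL(2, ℤ)}
    (h : S35GOOD_Kr χ δ) (e : δ' = δ) : S35GOOD_Kr χ δ' := e ▸ h

theorem S35GOOD_neg_one_mem (N : ℕ) : (-1 : SL(2, ℤ)) ∈ Gamma0 N := by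
  rw [Gamma0_mem]
  simp

theorem S35GOOD_exists_ne_zero {a : ℍ → ℂ} (ha0 : a ≠ 0) : ∃ z : ℍ, a z ≠ 0 := by
  by_contra hcon
  push_neg at hcon
  exact ha0 (funext hcon)

/-- `χ (-1) = 1` if there are nonzero forms of the same weight with characters `1` and `χ`. -/
theorem S35GOOD_Kr_neg_one {N : ℕ} {k : ℤ} {χ : Gamma0 N →* ℂˣ} {a r : ℍ → ℂ}
    (ha : PG_IsForm N k 1 a) (ha0 : a ≠ 0) (hr : PG_IsForm N k χ r) (hr0 : r ≠ 0) :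
    S35GOOD_Kr χ (-1) := by
  refine ⟨S35GOOD_neg_one_mem N, ?_⟩
  have hsm : ∀ z : ℍ, (-1 : SL(2, ℤ)) • z = z := by
    intro z
    rw [ModularGroup.SL_neg_smul, one_smul]
  obtain ⟨z, hz⟩ := S35GOOD_exists_ne_zero ha0
  obtain ⟨z', hz'⟩ := S35GOOD_exists_ne_zero hr0
  have h1 := ha.aut ⟨-1, S35GOOD_neg_one_mem N⟩ z
  have h2 := hr.aut ⟨-1, S35GOOD_neg_one_mem N⟩ z'
  have h1' : a ((-1 : SL(2, ℤ)) • z) =
      ((1 : Gamma0 N →* ℂˣ) ⟨-1, S35GOOD_neg_one_mem N⟩ : ℂ) *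
        denom (((-1 : SL(2, ℤ))) : GL (Fin 2) ℝ) z ^ k * a z := h1
  have h2' : r ((-1 : SL(2, ℤ)) • z') =
      (χ ⟨-1, S35GOOD_neg_one_mem N⟩ : ℂ) *
        denom (((-1 : SL(2, ℤ))) : GL (Fin 2) ℝ) z' ^ k * r z' := h2
  rw [hsm] at h1' h2'
  have hden : ∀ u : ℍ, denom (((-1 : SL(2, ℤ))) : GL (Fin 2) ℝ) u = -1 := by
    intro u
    rw [ModularGroup.denom_apply]
    simp
  rw [hden, MonoidHom.one_apply, Units.val_one, one_mul] at h1'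
  rw [hden] at h2'
  have hk : ((-1 : ℂ)) ^ k = 1 := by
    have : ((-1 : ℂ) ^ k - 1) * a z = 0 := by linear_combination -h1'
    rcases mul_eq_zero.mp this with h | h
    · linear_combination h
    · exact absurd h hz
  rw [hk, mul_one] at h2'
  have hχ : ((χ ⟨-1, S35GOOD_neg_one_mem N⟩ : ℂˣ) : ℂ) = 1 := by
    have : ((χ ⟨-1, S35GOOD_neg_one_mem N⟩ : ℂ) - 1) * r z' = 0 := by linear_combination -h2'
    rcases mul_eq_zero.mp this with h | h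
    · linear_combination h
    · exact absurd h hz'
  exact Units.ext hχ

end Fermat.Agent.S35_helper1_GOODA
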