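import Fermat.Agent.S35_helper1_GOODA

/-!
# S35, P6 SURJ route, piece GOOD (part B): expansions of slashes at a cusp

* `S35GOOD_hasPoleInf_slash` : the slash of a form with trivial character at a cusp has a
  `q_N`-expansion.
* `S35GOOD_zpow_order` : the order of the `q_N`-expansion of an `h`-periodic function is killed
  by `ζ_N ^ h`.
* `S35GOOD_bridge` : `ι_q (x) * laurentInf N (b ∣ σ) = laurentInf N (a ∣ σ)` for `x = a / b`.
-/

set_option autoImplicit false
set_option linter.unusedSectionVars false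
set_option linter.unusedVariables false
set_option linter.style.haveILetI false
set_option linter.unnecessarySimpa false

noncomputable section

open UpperHalfPlane ModularForm CongruenceSubgroup AlgebraicCurve IntermediateField
open scoped MatrixGroups ModularForm Manifold
open Fermat.Agent.S20 Fermat.Agent.S24
open Fermat.Agent.G_helper6_Defs
open Fermat.Agent.G_helper16_G5 Fermat.Agent.G_helper14_G8b
open Fermat.Agent.S35_helper1_GOODA Fermat.Agent.S35_helper1_LC

namespace Fermat.Agent.S35_helper1_GOODB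

section Core

variable (N : ℕ) [NeZero N]

/-- the slash of a form with trivial character at a cusp has a `q_N`-expansion -/
theorem S35GOOD_hasPoleInf_slash {k : ℤ} {a : ℍ → ℂ} (ha : PG_IsForm N k 1 a) (γ : SL(2, ℤ))
    (hδN : γ * ModularGroup.T ^ N * γ⁻¹ ∈ Gamma0 N) : HasPoleInf N 0 (a ∣[k] γ) :=
  ⟨MDifferentiable.slash ha.holo k _,
    fun z => PG_G5_slash_periodic (PG_G5_isGoodChar_one N) ha γ N hδN z,
    by simpa using ha.bdd γ⟩

/-- the order of the `q_N`-expansion of an `h`-periodic function is killed by `ζ_N ^ h` -/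
theorem S35GOOD_zpow_order {g : ℍ → ℂ} (hg : HasPoleInf N 0 g) (hg0 : g ≠ 0) (h : ℕ)
    (hper : ∀ w : ℍ, g ((h : ℝ) +ᵥ w) = g w) :
    (Complex.exp (2 * Real.pi * Complex.I / N) ^ h) ^ (laurentInf N g).order = 1 := by
  have hC : laurentInf N g ≠ 0 := PG_G5_laurentInf_ne_zero N hg hg0
  have h1 := PG_G5_coeff_of_periodic N hg h hper (laurentInf N g).order
  have h2 : (laurentInf N g).coeff (laurentInf N g).order ≠ 0 :=
    Fermat.Agent.S24_helper16_B.coeff_order_ne_zero hC
  have h3 : ((Complex.exp (2 * Real.pi * Complex.I / N) ^ h) ^ (laurentInf N g).order - 1) *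
      (laurentInf N g).coeff (laurentInf N g).order = 0 := by
    linear_combination -h1
  rcases mul_eq_zero.mp h3 with h4 | h4
  · linear_combination h4
  · exact absurd h4 h2

/-- the bridge at the cusp `q` for a quotient of forms with trivial characters -/
theorem S35GOOD_bridge (q : Q N) (hδN : q.out⁻¹ * ModularGroup.T ^ N * (q.out⁻¹)⁻¹ ∈ Gamma0 N)
    (x : PG_FC N) {k : ℤ} {a b : ℍ → ℂ} (ha : PG_IsForm N k 1 a) (hb : PG_IsForm N k 1 b)
    (hreal : PG_Realizes x a b) :
    PG_G5_iotaInf N q x * laurentInf N (b ∣[k] q.out⁻¹) = laurentInf N (a ∣[k] q.out⁻¹) := by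
  have hgood := PG_G5_isGoodChar_one N
  have hA := PG_G5_form_hasPoleInf hgood ha
  have hB := PG_G5_form_hasPoleInf hgood hb
  have hx := (PG_G5_realizes_iff x hA hB).mp hreal
  exact PG_G5_iotaInf_mul N q x hA hB hx
    (a' := a ∣[k] q.out⁻¹) (b' := b ∣[k] q.out⁻¹)
    (S35GOOD_hasPoleInf_slash N ha _ hδN) (S35GOOD_hasPoleInf_slash N hb _ hδN)
    (fun w => denom ((q.out⁻¹ : SL(2, ℤ)) : GL (Fin 2) ℝ) w ^ (-k))
    (fun w => by rw [ModularForm.SL_slash_apply, mul_comm])
    (fun w => by rw [ModularForm.SL_slash_apply, mul_comm])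

end Core

end Fermat.Agent.S35_helper1_GOODB
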