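import Mathlib

/-!
# S35, endgame linear algebra (helper20), Mathlib only

* `S35LA_eigen_of_prod` : if a product of factors `g - e i` kills a nonzero vector of a
  torsion-free module, some `e i` is an eigenvalue;
* `S35LA_charpoly_of_eigen` : in rank two, `det g = q` and an eigenvalue `e ∈ {1, -1, q, -q}`
  give `charpoly g = X² ∓ (q + 1) X + q`;
* `S35LA_mul_eq_zero` : two nilpotent `2 × 2` matrices with `tr (A B) = 0` satisfy `B A = 0`;
* `S35LA_exists_fixed` : a multiplicatively closed set of unipotent endomorphisms of a free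
  module of rank two has a nonzero common fixed vector;
* `S35LA_main` : the endgame.
-/

set_option autoImplicit false
set_option linter.style.haveILetI false
set_option linter.unusedSectionVars false
set_option linter.unusedVariables false

open Polynomial

namespace Fermat.Agent.S35_helper20_ENDLA

section Eigen

variable {R : Type*} [CommRing R] [IsDomain R] {V : Type*} [AddCommGroup V] [Module R V]
  [Module.Free R V] [Module.Finite R V]

/-- a product of factors `g - e` killing a nonzero vector produces an eigenvector -/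
theorem S35LA_eigen_of_prod (g : Module.End R V) (l : List R) (v : V) (hv : v ≠ 0)
    (h : (l.map (fun e => g - e • (1 : Module.End R V))).prod v = 0) :
    ∃ e ∈ l, ∃ w : V, w ≠ 0 ∧ g w = e • w := by
  induction l generalizing v with
  | nil =>
    simp at h
    exact absurd h hv
  | cons e l ih =>
    rw [List.map_cons, List.prod_cons, Module.End.mul_apply] at h
    by_cases h0 : (l.map (fun e => g - e • (1 : Module.End R V))).prod v = 0
    · obtain ⟨e', he', w, hw, hgw⟩ := ih v hv h0
      exact ⟨e', List.mem_cons_of_mem _ he', w, hw, hgw⟩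
    · refine ⟨e, List.mem_cons_self, _, h0, ?_⟩
      have := h
      rw [LinearMap.sub_apply, LinearMap.smul_apply, Module.End.one_apply, sub_eq_zero] at this
      exact this

/-- the same, keeping track of a property preserved by the factors -/
theorem S35LA_eigen_of_prod' (g : Module.End R V) (l : List R) (Q : V → Prop)
    (hQ : ∀ e ∈ l, ∀ x : V, Q x → Q ((g - e • (1 : Module.End R V)) x))
    (v : V) (hv : v ≠ 0) (hQv : Q v)
    (h : (l.map (fun e => g - e • (1 : Module.End R V))).prod v = 0) :
    ∃ e ∈ l, ∃ w : V, w ≠ 0 ∧ Q w ∧ g w = e • w := by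
  induction l generalizing v with
  | nil =>
    simp at h
    exact absurd h hv
  | cons e l ih =>
    rw [List.map_cons, List.prod_cons, Module.End.mul_apply] at h
    have hQ' : ∀ e' ∈ l, ∀ x : V, Q x → Q ((g - e' • (1 : Module.End R V)) x) :=
      fun e' he' => hQ e' (List.mem_cons_of_mem _ he')
    have hQl : ∀ (l' : List R), (∀ e' ∈ l', ∀ x : V, Q x → Q ((g - e' • (1 : Module.End R V)) x)) →
        ∀ x : V, Q x → Q ((l'.map (fun e => g - e • (1 : Module.End R V))).prod x) := by
      intro l'
      induction l' with
      | nil => intro _ x hx; simpa using hx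
      | cons a l' ih' =>
        intro hl' x hx
        rw [List.map_cons, List.prod_cons, Module.End.mul_apply]
        exact hl' a List.mem_cons_self _
          (ih' (fun e' he' => hl' e' (List.mem_cons_of_mem _ he')) x hx)
    by_cases h0 : (l.map (fun e => g - e • (1 : Module.End R V))).prod v = 0
    · obtain ⟨e', he', w, hw, hQw, hgw⟩ := ih hQ' v hv hQv h0
      exact ⟨e', List.mem_cons_of_mem _ he', w, hw, hQw, hgw⟩
    · refine ⟨e, List.mem_cons_self, _, h0, hQl l hQ' v hQv, ?_⟩
      have := h
      rw [LinearMap.sub_apply, LinearMap.smul_apply, Module.End.one_apply, sub_eq_zero] at this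
      exact this

/-- an eigenvalue is a root of the characteristic polynomial -/
theorem S35LA_charpoly_eval (g : Module.End R V) (e : R) (w : V) (hw : w ≠ 0)
    (hgw : g w = e • w) : (LinearMap.charpoly g).eval e = 0 := by
  have h1 : ∀ p : R[X], aeval g p w = p.eval e • w := by
    intro p
    induction p using Polynomial.induction_on with
    | C a => simp [Algebra.algebraMap_eq_smul_one]
    | add p q hp hq => rw [map_add, LinearMap.add_apply, hp, hq, eval_add, add_smul]
    | monomial n a ih =>
      rw [pow_succ, ← mul_assoc, map_mul, aeval_X, Module.End.mul_apply, hgw, map_smul, ih,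
        smul_smul]
      congr 1
      rw [eval_mul (q := X), eval_X, mul_comm]
  have h2 := LinearMap.aeval_self_charpoly g
  have h3 := h1 (LinearMap.charpoly g)
  rw [h2, LinearMap.zero_apply] at h3
  rcases smul_eq_zero.1 h3.symm with h | h
  · exact h
  · exact absurd h hw

theorem S35LA_charpoly_rank2 (hV : Module.finrank R V = 2) (f : Module.End R V) :
    LinearMap.charpoly f = X ^ 2 - C (LinearMap.trace R V f) * X + C (LinearMap.det f) := by
  classical
  let b : Module.Basis (Fin 2) R V := Module.finBasisOfFinrankEq R V hV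
  rw [← LinearMap.charpoly_toMatrix f b, Matrix.charpoly_fin_two,
    LinearMap.trace_eq_matrix_trace R b, ← LinearMap.det_toMatrix b]

/-- rank two, `det g = q`, an eigenvalue in `{1, -1, q, -q}` -/
theorem S35LA_charpoly_of_eigen [CharZero R] (hV : Module.finrank R V = 2)
    (g : Module.End R V) (q : ℕ) (hq : q ≠ 0) (hdet : LinearMap.det g = (q : R))
    (e : R) (he : e = 1 ∨ e = -1 ∨ e = (q : R) ∨ e = -(q : R)) (w : V) (hw : w ≠ 0)
    (hgw : g w = e • w) :
    LinearMap.charpoly g = X ^ 2 - C ((q : R) + 1) * X + C (q : R) ∨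
      LinearMap.charpoly g = X ^ 2 + C ((q : R) + 1) * X + C (q : R) := by
  have hq0 : (q : R) ≠ 0 := by exact_mod_cast hq
  have h1 := S35LA_charpoly_eval g e w hw hgw
  have h2 := S35LA_charpoly_rank2 hV g
  rw [h2, hdet] at h1
  simp only [eval_add, eval_sub, eval_pow, eval_X, eval_mul, eval_C] at h1
  rw [h2, hdet]
  set t := LinearMap.trace R V g with ht
  rcases he with rfl | rfl | rfl | rfl
  · left
    have : t = (q : R) + 1 := by linear_combination -h1
    rw [this]
  · right
    have : t = -((q : R) + 1) := by linear_combination h1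
    rw [this, map_neg]
    ring
  · left
    have : (q : R) * (t - ((q : R) + 1)) = 0 := by linear_combination -h1
    rcases mul_eq_zero.1 this with h | h
    · exact absurd h hq0
    · rw [sub_eq_zero.1 h]
  · right
    have : (q : R) * (t + ((q : R) + 1)) = 0 := by linear_combination h1
    rcases mul_eq_zero.1 this with h | h
    · exact absurd h hq0
    · have : t = -((q : R) + 1) := by linear_combination h
      rw [this, map_neg]
      ring

/-- an eigenvalue `e ∈ {1, -1, q, -q}` and a quadratic relation `g² - t g + q = 0` at the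
eigenvector force `t = ±(q + 1)` -/
theorem S35LA_trace_of_eigen [CharZero R] (q : ℕ) (hq : q ≠ 0) (t : R)
    (e : R) (he : e = 1 ∨ e = -1 ∨ e = (q : R) ∨ e = -(q : R))
    (h : e * e - t * e + (q : R) = 0) : t = (q : R) + 1 ∨ t = -((q : R) + 1) := by
  have hq0 : (q : R) ≠ 0 := by exact_mod_cast hq
  rcases he with rfl | rfl | rfl | rfl
  · left; linear_combination -h
  · right; linear_combination h
  · left
    have : (q : R) * (t - ((q : R) + 1)) = 0 := by linear_combination -h
    rcases mul_eq_zero.1 this with h' | h'
    · exact absurd h' hq0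
    · exact sub_eq_zero.1 h'
  · right
    have : (q : R) * (t + ((q : R) + 1)) = 0 := by linear_combination h
    rcases mul_eq_zero.1 this with h' | h'
    · exact absurd h' hq0
    · linear_combination h'

end Eigen

section Matrix

variable {R : Type*} [CommRing R] [IsDomain R] [CharZero R]

/-- two nilpotent `2 × 2` matrices whose product has trace zero: `B * A = 0` -/
theorem S35LA_mul_eq_zero (A B : Matrix (Fin 2) (Fin 2) R) (hA : A * A = 0) (hB : B * B = 0)
    (htA : A.trace = 0) (htB : B.trace = 0) (hAB : (A * B).trace = 0) : B * A = 0 := by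
  have hAe := Matrix.eta_fin_two A
  have hBe := Matrix.eta_fin_two B
  set a := A 0 0
  set b := A 0 1
  set c := A 1 0
  set d := A 1 1
  set x := B 0 0
  set y := B 0 1
  set z := B 1 0
  set t := B 1 1
  rw [hAe] at hA htA hAB ⊢
  rw [hBe] at hB htB hAB ⊢
  rw [Matrix.trace_fin_two_of] at htA htB
  rw [Matrix.mul_fin_two] at hA hB hAB ⊢
  rw [Matrix.trace_fin_two_of] at hAB
  have hd : d = -a := by linear_combination htA
  have ht : t = -x := by linear_combination htB
  have h1 : a * a + b * c = 0 := by
    have := congrFun (congrFun hA 0) 0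
    simpa using this
  have h2 : x * x + y * z = 0 := by
    have := congrFun (congrFun hB 0) 0
    simpa using this
  have h3 : 2 * (a * x) + b * z + c * y = 0 := by
    rw [hd, ht] at hAB
    linear_combination hAB
  have h4 : b * z - c * y = 0 := by
    have : (b * z - c * y) ^ 2 = 0 := by
      linear_combination (b * z + c * y - 2 * (a * x)) * h3 + 4 * (x * x) * h1 -
        4 * (b * c) * h2
    exact pow_eq_zero_iff (two_ne_zero) |>.1 this
  have h5 : a * x + b * z = 0 := by
    have : (2 : R) * (a * x + b * z) = 0 := by linear_combination h3 + h4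
    rcases mul_eq_zero.1 this with h | h
    · exact absurd h two_ne_zero
    · exact h
  have h6 : x * b - y * a = 0 := by
    have : (x * b - y * a) ^ 2 = 0 := by
      linear_combination b * b * h2 + y * y * h1 - 2 * b * y * h5 + b * y * h4
    exact pow_eq_zero_iff (two_ne_zero) |>.1 this
  have h7 : z * a - x * c = 0 := by
    have : (z * a - x * c) ^ 2 = 0 := by
      linear_combination c * c * h2 + z * z * h1 - 2 * c * z * (h5 - h4) - c * z * h4
    exact pow_eq_zero_iff (two_ne_zero) |>.1 this
  rw [hd]
  rw [ht]
  ext i j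
  fin_cases i <;> fin_cases j
  · simp only [Fin.zero_eta, Fin.isValue, Matrix.of_apply, Matrix.cons_val', Matrix.cons_val_zero,
      Matrix.cons_val_fin_one, Matrix.zero_apply]
    linear_combination h5 - h4
  · simp only [Fin.zero_eta, Fin.isValue, Fin.mk_one, Matrix.of_apply, Matrix.cons_val',
      Matrix.cons_val_one, Matrix.cons_val_fin_one, Matrix.cons_val_zero, Matrix.zero_apply]
    linear_combination h6
  · simp only [Fin.mk_one, Fin.isValue, Fin.zero_eta, Matrix.of_apply, Matrix.cons_val',
      Matrix.cons_val_zero, Matrix.cons_val_fin_one, Matrix.cons_val_one, Matrix.zero_apply]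
    linear_combination h7
  · simp only [Fin.mk_one, Fin.isValue, Matrix.of_apply, Matrix.cons_val', Matrix.cons_val_one,
      Matrix.cons_val_fin_one, Matrix.zero_apply]
    linear_combination h5

end Matrix

section Fixed

variable {R : Type*} [CommRing R] [IsDomain R] [CharZero R] {V : Type*} [AddCommGroup V]
  [Module R V] [Module.Free R V] [Module.Finite R V]

/-- a unipotent endomorphism in rank two: `(g - 1)² = 0` and `tr (g - 1) = 0` -/
theorem S35LA_unipotent (hV : Module.finrank R V = 2) (g : Module.End R V)
    (hg : LinearMap.charpoly g = (X - 1) ^ 2) :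
    (g - 1) * (g - 1) = 0 ∧ LinearMap.trace R V (g - 1) = 0 := by
  constructor
  · have h := LinearMap.aeval_self_charpoly g
    rw [hg] at h
    simpa [pow_two] using h
  · have h := S35LA_charpoly_rank2 hV g
    rw [hg] at h
    have h1 := congrArg (fun p : R[X] => p.coeff 1) h
    simp only [coeff_add, coeff_sub, coeff_X_pow, coeff_C_mul, coeff_X_one, coeff_C] at h1
    have h2 : ((X - 1 : R[X]) ^ 2).coeff 1 = -2 := by
      have : (X - 1 : R[X]) ^ 2 = X ^ 2 - C 2 * X + C 1 := by
        rw [map_ofNat, map_one]; ring
      rw [this]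
      simp only [coeff_add, coeff_sub, coeff_X_pow, coeff_C_mul, coeff_X_one, coeff_C]
      norm_num
    rw [h2] at h1
    simp at h1
    rw [map_sub, LinearMap.trace_one, hV]
    push_cast
    linear_combination -h1

/-- a multiplicatively closed set of unipotent endomorphisms of a free module of rank two has a
nonzero common fixed vector -/
theorem S35LA_exists_fixed (hV : Module.finrank R V = 2) (I : Set (Module.End R V))
    (hmul : ∀ a ∈ I, ∀ b ∈ I, a * b ∈ I)
    (hI : ∀ a ∈ I, LinearMap.charpoly a = (X - 1) ^ 2) :
    ∃ v : V, v ≠ 0 ∧ ∀ a ∈ I, a v = v := by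
  classical
  let b : Module.Basis (Fin 2) R V := Module.finBasisOfFinrankEq R V hV
  by_cases h : ∀ a ∈ I, a = 1
  · exact ⟨b 0, b.ne_zero 0, fun a ha => by rw [h a ha]; rfl⟩
  push Not at h
  obtain ⟨a0, ha0, hne⟩ := h
  have hN0 : a0 - 1 ≠ 0 := sub_ne_zero.2 hne
  obtain ⟨u, hu⟩ : ∃ u : V, (a0 - 1) u ≠ 0 := by
    by_contra hcon
    push Not at hcon
    exact hN0 (LinearMap.ext hcon)
  refine ⟨(a0 - 1) u, hu, fun a ha => ?_⟩
  obtain ⟨h01, h02⟩ := S35LA_unipotent hV a0 (hI a0 ha0)
  obtain ⟨h11, h12⟩ := S35LA_unipotent hV a (hI a ha)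
  obtain ⟨-, h22⟩ := S35LA_unipotent hV (a0 * a) (hI _ (hmul a0 ha0 a ha))
  have htr : LinearMap.trace R V ((a0 - 1) * (a - 1)) = 0 := by
    have e : (a0 - 1) * (a - 1) = (a0 * a - 1) - (a0 - 1) - (a - 1) := by noncomm_ring
    rw [e, map_sub, map_sub, h22, h02, h12]
    simp
  have hmulM : ∀ f g : Module.End R V, LinearMap.toMatrix b b (f * g) =
      LinearMap.toMatrix b b f * LinearMap.toMatrix b b g := fun f g =>
    LinearMap.toMatrix_mul b f g
  have key : LinearMap.toMatrix b b (a - 1) * LinearMap.toMatrix b b (a0 - 1) = 0 := by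
    apply S35LA_mul_eq_zero (LinearMap.toMatrix b b (a0 - 1)) (LinearMap.toMatrix b b (a - 1))
    · rw [← hmulM, h01, map_zero]
    · rw [← hmulM, h11, map_zero]
    · rw [← LinearMap.trace_eq_matrix_trace R b]
      exact h02
    · rw [← LinearMap.trace_eq_matrix_trace R b]
      exact h12
    · rw [← hmulM, ← LinearMap.trace_eq_matrix_trace R b]
      exact htr
  have key' : (a - 1) * (a0 - 1) = 0 := by
    apply (LinearMap.toMatrix b b).injective
    rw [hmulM, key, map_zero]
  have := congrArg (fun f : Module.End R V => f u) key'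
  simp only [Module.End.mul_apply, LinearMap.zero_apply] at this
  rw [LinearMap.sub_apply, Module.End.one_apply, sub_eq_zero] at this
  exact this

/-- **the endgame of S35**: `I` a multiplicatively closed set of unipotent endomorphisms,
`det g = q`, and a product of factors `g - e`, `e ∈ {1, -1, q, -q}`, kills the `I`-fixed
vectors.  Then `charpoly g = X² ∓ (q + 1) X + q`. -/
theorem S35LA_main (hV : Module.finrank R V = 2) (I : Set (Module.End R V))
    (hmul : ∀ a ∈ I, ∀ b ∈ I, a * b ∈ I)
    (hI : ∀ a ∈ I, LinearMap.charpoly a = (X - 1) ^ 2)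
    (g : Module.End R V) (q : ℕ) (hq : q ≠ 0) (hdet : LinearMap.det g = (q : R))
    (l : List R) (hl : ∀ e ∈ l, e = 1 ∨ e = -1 ∨ e = (q : R) ∨ e = -(q : R))
    (hP : ∀ v : V, (∀ a ∈ I, a v = v) →
      (l.map (fun e => g - e • (1 : Module.End R V))).prod v = 0) :
    LinearMap.charpoly g = X ^ 2 - C ((q : R) + 1) * X + C (q : R) ∨
      LinearMap.charpoly g = X ^ 2 + C ((q : R) + 1) * X + C (q : R) := by
  obtain ⟨v, hv, hfix⟩ := S35LA_exists_fixed hV I hmul hI
  obtain ⟨e, he, w, hw, hgw⟩ := S35LA_eigen_of_prod g l v hv (hP v hfix)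
  exact S35LA_charpoly_of_eigen hV g q hq hdet e (hl e he) w hw hgw

end Fixed

end Fermat.Agent.S35_helper20_ENDLA
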