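import Fermat.Agent.S30_helper12_FINAL
import Fermat.Agent.S35_helper20_ENDLA

/-!
# S35, the assembly on top of the (frozen) S30 chain (helper20)

The S30 chain produces `ρ'` through `S30LAT_AW`, whose output says: *every* quadratic relation
`g² - t g + d(g) = 0` of `g` on the eigenlattice `E` gives `charpoly (ρ' g) = X² - t X + d(g)`.
Hence the bad-prime clause of S35 follows from: the Frobenius lift `σ` at `q` has an eigenvalue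
`e ∈ {1, -1, q, -q}` on `E` (then `t = e + q / e = ±(q + 1)`), i.e. from ONE nonzero eigenvector
of the Hecke operators killed by a product of factors `σ - e`.

* `S35ASM_CWV2` : the `V`-level statement (copy of `S30CWV2_main` with the extra clause);
* `S35ASM_BC2` : base change from a `ℤ_p`-lattice `Λ`;
* `S35ASM_abstract` : the statement of S35 from the Tate-module data and the geometric input
  `hbad`.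
-/

set_option autoImplicit false
set_option linter.unusedSectionVars false
set_option linter.unusedVariables false
set_option linter.style.haveILetI false

open Polynomial
open scoped TensorProduct

noncomputable section

namespace Fermat.Agent.S35_helper20_ASM

open Fermat.Agent.S30_helper12_Contracts Fermat.Agent.S30_helper12_CWV2
  Fermat.Agent.S30_helper12_BC Fermat.Agent.S30_helper12_BC2 Fermat.Agent.S35_helper20_ENDLA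
  Fermat.Agent.S30_helper17_CYCT Fermat.Agent.S30_helper12_FINAL

local notation "Qb" => AlgebraicClosure ℚ
local notation "GQ" => (AlgebraicClosure ℚ ≃ₐ[ℚ] AlgebraicClosure ℚ)

/-- the `V`-level statement: `S30CWV2_main` with the bad-prime clause.  `B q σ` is the predicate
"`σ` is a Frobenius lift at the bad prime `q`". -/
theorem S35ASM_CWV2 (S : Finset ℕ)
    (𝒪 : Type) [CommRing 𝒪] [IsDomain 𝒪] [IsDiscreteValuationRing 𝒪]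
    [IsAdicComplete (IsLocalRing.maximalIdeal 𝒪) 𝒪] [Finite (IsLocalRing.ResidueField 𝒪)]
    [CharZero 𝒪]
    (V : Type) [AddCommGroup V] [Module 𝒪 V] [Module.Finite 𝒪 V] [Module.Free 𝒪 V]
    (r : GQ →* Module.End 𝒪 V) (T : ℕ → Module.End 𝒪 V) (a : ℕ → 𝒪)
    (d : GQ →* 𝒪ˣ) (c : GQ)
    (hcomm : ∀ (ℓ : ℕ) (g : GQ), ℓ.Prime → ℓ ∉ S → T ℓ * r g = r g * T ℓ)
    (hcont : GaloisActionIsAdicContinuous 𝒪 r)
    (hdcont : ∀ n : ℕ, ∃ L : IntermediateField ℚ Qb, FiniteDimensional ℚ L ∧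
      ∀ σ : GQ, (∀ x ∈ L, σ x = x) →
        ((d σ : 𝒪ˣ) : 𝒪) - 1 ∈ IsLocalRing.maximalIdeal 𝒪 ^ n)
    (hdfrob : ∀ ℓ : ℕ, ℓ.Prime → ℓ ∉ S → ∀ A : ValuationSubring Qb, A.LiesOverPrime ℓ →
      ∀ σ : GQ, A.IsFrobeniusAt σ ℓ → ((d σ : 𝒪ˣ) : 𝒪) = (ℓ : 𝒪))
    (hcc : c * c = 1) (hdc : ((d c : 𝒪ˣ) : 𝒪) = -1)
    (hES : ∀ ℓ : ℕ, ℓ.Prime → ℓ ∉ S → ∀ A : ValuationSubring Qb, A.LiesOverPrime ℓ →
      ∀ σ : GQ, A.IsFrobeniusAt σ ℓ →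
        r σ * r σ - T ℓ * r σ + (ℓ : 𝒪) • (1 : Module.End 𝒪 V) = 0)
    (hv : ∃ v : V, v ≠ 0 ∧ ∀ ℓ : ℕ, ℓ.Prime → ℓ ∉ S → T ℓ v = a ℓ • v)
    (hEL : ∃ (E : Submodule 𝒪 V) (rE : GQ →* Module.End 𝒪 E),
      Module.Finite 𝒪 E ∧ Module.Free 𝒪 E ∧
      (∀ v : V, v ∈ E ↔ ∀ ℓ : ℕ, ℓ.Prime → ℓ ∉ S → T ℓ v = a ℓ • v) ∧
      (∀ (g : GQ) (e : E), ((rE g e : E) : V) = r g (e : V)) ∧
      GaloisActionIsAdicContinuous 𝒪 (V := E) rE)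
    (B : ℕ → GQ → Prop)
    (hBd : ∀ q σ, B q σ → q ≠ 0 ∧ ((d σ : 𝒪ˣ) : 𝒪) = (q : 𝒪))
    (hbad : ∀ q σ, B q σ → ∃ l : List 𝒪,
      (∀ e ∈ l, e = 1 ∨ e = -1 ∨ e = (q : 𝒪) ∨ e = -(q : 𝒪)) ∧
      ∀ v : V, (∀ ℓ : ℕ, ℓ.Prime → ℓ ∉ S → T ℓ v = a ℓ • v) →
        (l.map (fun e => r σ - e • (1 : Module.End 𝒪 V))).prod v = 0) :
    ∃ ρ' : GaloisRepAdic 𝒪,
      (∀ ℓ : ℕ, ℓ.Prime → ℓ ∉ S → ∀ A : ValuationSubring Qb, A.LiesOverPrime ℓ →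
        ∀ σ : GQ, A.IsFrobeniusAt σ ℓ →
          LinearMap.charpoly (ρ'.ρ σ) = X ^ 2 - C (a ℓ) * X + C ((ℓ : 𝒪))) ∧
      (∀ σ : GQ, r σ = 1 → d σ = 1 → ρ'.ρ σ = 1) ∧
      (∀ q σ, B q σ →
        LinearMap.charpoly (ρ'.ρ σ) = X ^ 2 - C ((q : 𝒪) + 1) * X + C ((q : 𝒪)) ∨
        LinearMap.charpoly (ρ'.ρ σ) = X ^ 2 + C ((q : 𝒪) + 1) * X + C ((q : 𝒪))) := by
  classical
  obtain ⟨E, rE, hEfin, hEfree, hEmem, hEcoe, hEcont⟩ := hEL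
  haveI := hEfin
  haveI := hEfree
  obtain ⟨v, hv0, hveig⟩ := hv
  haveI : Nontrivial E :=
    ⟨⟨⟨v, (hEmem v).2 hveig⟩, 0, fun h => hv0 (congrArg Subtype.val h)⟩⟩
  -- the scalar relations at Frobenius lifts
  have hrelF : ∀ ℓ : ℕ, ℓ.Prime → ℓ ∉ S → ∀ A : ValuationSubring Qb, A.LiesOverPrime ℓ →
      ∀ σ : GQ, A.IsFrobeniusAt σ ℓ →
        rE σ * rE σ - a ℓ • rE σ + (ℓ : 𝒪) • (1 : Module.End 𝒪 E) = 0 := by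
    intro ℓ hℓ hℓS A hA σ hσ
    refine LinearMap.ext fun e => Subtype.ext ?_
    have h1 := hES ℓ hℓ hℓS A hA σ hσ
    have h2 : (r σ * r σ - T ℓ * r σ + (ℓ : 𝒪) • (1 : Module.End 𝒪 V)) (e : V) = 0 := by
      rw [h1, LinearMap.zero_apply]
    have h3 : T ℓ ((rE σ e : E) : V) = a ℓ • ((rE σ e : E) : V) :=
      (hEmem _).1 (rE σ e).2 ℓ hℓ hℓS
    simp only [LinearMap.add_apply, LinearMap.sub_apply, Module.End.mul_apply,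
      LinearMap.smul_apply, Module.End.one_apply] at h2
    rw [← hEcoe σ e, h3] at h2
    simp only [LinearMap.add_apply, LinearMap.sub_apply, Module.End.mul_apply,
      LinearMap.smul_apply, Module.End.one_apply, LinearMap.zero_apply, Submodule.coe_add,
      Submodule.coe_sub, Submodule.coe_smul, Submodule.coe_zero, hEcoe]
    rw [hEcoe σ e] at h2
    exact h2
  -- density
  have hrel := Fermat.Agent.S30_helper9_REL.S30_REL (𝒪 := 𝒪) E rE d S a hEcont hdcont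
    hdfrob hrelF
  obtain ⟨ρ', hρ1, hρ2⟩ := Fermat.Agent.S30_helper19_AW.S30LAT_AW 𝒪 E rE d c hEcont hdcont
    hcc hdc hrel
  refine ⟨ρ', ?_, ?_, ?_⟩
  · intro ℓ hℓ hℓS A hA σ hσ
    have h := hρ2 σ (a ℓ) (by
      have := hrelF ℓ hℓ hℓS A hA σ hσ
      rw [hdfrob ℓ hℓ hℓS A hA σ hσ]
      exact this)
    rw [h, hdfrob ℓ hℓ hℓS A hA σ hσ]
  · intro σ hrσ hdσ
    refine hρ1 σ ?_ hdσ
    refine LinearMap.ext fun e => Subtype.ext ?_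
    rw [hEcoe, hrσ, Module.End.one_apply, Module.End.one_apply]
  · -- the bad primes
    intro q σ hB
    obtain ⟨hq0, hdq⟩ := hBd q σ hB
    obtain ⟨l, hl, hP⟩ := hbad q σ hB
    -- an eigenvector of `r σ` in `E`
    obtain ⟨e, he, w, hw0, hwE, hgw⟩ := S35LA_eigen_of_prod' (r σ) l (fun x => x ∈ E)
      (fun e' _ x hx => by
        have h1 : r σ x ∈ E := by
          have := (rE σ ⟨x, hx⟩).2
          rwa [hEcoe] at this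
        rw [LinearMap.sub_apply, LinearMap.smul_apply, Module.End.one_apply]
        exact E.sub_mem h1 (E.smul_mem _ hx))
      v hv0 ((hEmem v).2 hveig) (hP v hveig)
    -- the relation of `σ` on `E`
    obtain ⟨t, ht⟩ := hrel σ
    have h1 := congrArg (fun φ : Module.End 𝒪 E => ((φ ⟨w, hwE⟩ : E) : V)) ht
    simp only [LinearMap.add_apply, LinearMap.sub_apply, Module.End.mul_apply,
      LinearMap.smul_apply, Module.End.one_apply, LinearMap.zero_apply, Submodule.coe_add,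
      Submodule.coe_sub, Submodule.coe_smul, Submodule.coe_zero, hEcoe] at h1
    rw [hgw, map_smul, hgw, hdq] at h1
    have h2 : (e * e - t * e + (q : 𝒪)) • w = 0 := by
      rw [add_smul, sub_smul, mul_smul, mul_smul]
      exact h1
    have h3 : e * e - t * e + (q : 𝒪) = 0 := by
      rcases smul_eq_zero.1 h2 with h | h
      · exact h
      · exact absurd h hw0
    have h4 := hρ2 σ t ht
    rw [hdq] at h4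
    rcases S35LA_trace_of_eigen q hq0 t e (hl e he) h3 with h5 | h5
    · left
      rw [h4, h5]
    · right
      rw [h4, h5, map_neg]
      ring

/-- base change from a `ℤ_p`-lattice: `S30BC2_main` with the bad-prime clause -/
theorem S35ASM_BC2 {p : ℕ} [Fact p.Prime] (S : Finset ℕ)
    (𝒪 : Type) [CommRing 𝒪] [IsDomain 𝒪] [IsDiscreteValuationRing 𝒪]
    [IsAdicComplete (IsLocalRing.maximalIdeal 𝒪) 𝒪] [Finite (IsLocalRing.ResidueField 𝒪)]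
    [CharZero 𝒪] [Algebra ℤ_[p] 𝒪] (hp𝒪 : (p : 𝒪) ∈ IsLocalRing.maximalIdeal 𝒪)
    (Λ : Type) [AddCommGroup Λ] [Module ℤ_[p] Λ] [Module.Finite ℤ_[p] Λ] [Module.Free ℤ_[p] Λ]
    (ρ : GQ →* Module.End ℤ_[p] Λ) (T : ℕ → Module.End ℤ_[p] Λ) (a : ℕ → 𝒪)
    (d : GQ →* 𝒪ˣ) (c : GQ)
    (hcomm : ∀ (ℓ : ℕ) (g : GQ), ℓ.Prime → ℓ ∉ S → T ℓ * ρ g = ρ g * T ℓ)
    (hcont : ∀ n : ℕ, ∃ L : IntermediateField ℚ Qb, FiniteDimensional ℚ L ∧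
      ∀ σ : GQ, (∀ x ∈ L, σ x = x) → ∀ v : Λ, ∃ w : Λ, ρ σ v - v = (p : ℤ_[p]) ^ n • w)
    (hdcont : ∀ n : ℕ, ∃ L : IntermediateField ℚ Qb, FiniteDimensional ℚ L ∧
      ∀ σ : GQ, (∀ x ∈ L, σ x = x) →
        ((d σ : 𝒪ˣ) : 𝒪) - 1 ∈ IsLocalRing.maximalIdeal 𝒪 ^ n)
    (hdfrob : ∀ ℓ : ℕ, ℓ.Prime → ℓ ∉ S → ∀ A : ValuationSubring Qb, A.LiesOverPrime ℓ →
      ∀ σ : GQ, A.IsFrobeniusAt σ ℓ → ((d σ : 𝒪ˣ) : 𝒪) = (ℓ : 𝒪))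
    (hcc : c * c = 1) (hdc : ((d c : 𝒪ˣ) : 𝒪) = -1)
    (hES : ∀ ℓ : ℕ, ℓ.Prime → ℓ ∉ S → ∀ A : ValuationSubring Qb, A.LiesOverPrime ℓ →
      ∀ σ : GQ, A.IsFrobeniusAt σ ℓ →
        ρ σ * ρ σ - T ℓ * ρ σ + (ℓ : ℤ_[p]) • (1 : Module.End ℤ_[p] Λ) = 0)
    (hv : ∃ v : 𝒪 ⊗[ℤ_[p]] Λ, v ≠ 0 ∧
      ∀ ℓ : ℕ, ℓ.Prime → ℓ ∉ S → (T ℓ).baseChange 𝒪 v = a ℓ • v)
    (B : ℕ → GQ → Prop)
    (hBd : ∀ q σ, B q σ → q ≠ 0 ∧ ((d σ : 𝒪ˣ) : 𝒪) = (q : 𝒪))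
    (hbad : ∀ q σ, B q σ → ∃ l : List 𝒪,
      (∀ e ∈ l, e = 1 ∨ e = -1 ∨ e = (q : 𝒪) ∨ e = -(q : 𝒪)) ∧
      ∀ v : 𝒪 ⊗[ℤ_[p]] Λ, (∀ ℓ : ℕ, ℓ.Prime → ℓ ∉ S → (T ℓ).baseChange 𝒪 v = a ℓ • v) →
        (l.map (fun e => (ρ σ).baseChange 𝒪 -
          e • (1 : Module.End 𝒪 (𝒪 ⊗[ℤ_[p]] Λ)))).prod v = 0) :
    ∃ ρ' : GaloisRepAdic 𝒪,
      (∀ ℓ : ℕ, ℓ.Prime → ℓ ∉ S → ∀ A : ValuationSubring Qb, A.LiesOverPrime ℓ →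
        ∀ σ : GQ, A.IsFrobeniusAt σ ℓ →
          LinearMap.charpoly (ρ'.ρ σ) = X ^ 2 - C (a ℓ) * X + C ((ℓ : 𝒪))) ∧
      (∀ σ : GQ, ρ σ = 1 → d σ = 1 → ρ'.ρ σ = 1) ∧
      (∀ q σ, B q σ →
        LinearMap.charpoly (ρ'.ρ σ) = X ^ 2 - C ((q : 𝒪) + 1) * X + C ((q : 𝒪)) ∨
        LinearMap.charpoly (ρ'.ρ σ) = X ^ 2 + C ((q : 𝒪) + 1) * X + C ((q : 𝒪))) := by
  classical
  have hppow : ∀ n : ℕ, algebraMap ℤ_[p] 𝒪 ((p : ℤ_[p]) ^ n) ∈ IsLocalRing.maximalIdeal 𝒪 ^ n := by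
    intro n
    rw [map_pow, map_natCast]
    exact Ideal.pow_mem_pow hp𝒪 n
  have hcontV : GaloisActionIsAdicContinuous 𝒪 (S30BC_hom 𝒪 ρ) := by
    intro n
    obtain ⟨L, hL, h⟩ := hcont n
    refine ⟨L, hL, fun σ hσ x => ?_⟩
    have h1 : ∀ v : Λ, ∃ w : Λ, (ρ σ - 1) v = (p : ℤ_[p]) ^ n • w := fun v => by
      obtain ⟨w, hw⟩ := h σ hσ v
      exact ⟨w, by rw [LinearMap.sub_apply, Module.End.one_apply, hw]⟩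
    obtain ⟨y, hy⟩ := S30BC_dvd 𝒪 (ρ σ - 1) ((p : ℤ_[p]) ^ n) h1 x
    have h2 : S30BC_hom 𝒪 ρ σ x - x = algebraMap ℤ_[p] 𝒪 ((p : ℤ_[p]) ^ n) • y := by
      rw [← hy, LinearMap.baseChange_sub, LinearMap.baseChange_one, LinearMap.sub_apply,
        Module.End.one_apply, S30BC_hom_apply]
    rw [h2]
    exact Submodule.smul_mem_smul (hppow n) Submodule.mem_top
  have hcommV : ∀ (ℓ : ℕ) (g : GQ), ℓ.Prime → ℓ ∉ S →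
      (fun ℓ => (T ℓ).baseChange 𝒪) ℓ * S30BC_hom 𝒪 ρ g =
        S30BC_hom 𝒪 ρ g * (fun ℓ => (T ℓ).baseChange 𝒪) ℓ := by
    intro ℓ g hℓ hℓS
    simp only [S30BC_hom_apply]
    rw [← LinearMap.baseChange_mul, ← LinearMap.baseChange_mul, hcomm ℓ g hℓ hℓS]
  have hESV : ∀ ℓ : ℕ, ℓ.Prime → ℓ ∉ S → ∀ A : ValuationSubring Qb, A.LiesOverPrime ℓ →
      ∀ σ : GQ, A.IsFrobeniusAt σ ℓ →
        S30BC_hom 𝒪 ρ σ * S30BC_hom 𝒪 ρ σ - (fun ℓ => (T ℓ).baseChange 𝒪) ℓ * S30BC_hom 𝒪 ρ σ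
          + (ℓ : 𝒪) • (1 : Module.End 𝒪 (𝒪 ⊗[ℤ_[p]] Λ)) = 0 := by
    intro ℓ hℓ hℓS A hA σ hσ
    have h1 := congrArg (fun φ : Module.End ℤ_[p] Λ => φ.baseChange 𝒪) (hES ℓ hℓ hℓS A hA σ hσ)
    simp only [LinearMap.baseChange_add, LinearMap.baseChange_sub, LinearMap.baseChange_mul,
      LinearMap.baseChange_smul, LinearMap.baseChange_one, LinearMap.baseChange_zero] at h1
    simp only [S30BC_hom_apply]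
    rw [← h1]
    congr 1
    refine LinearMap.ext fun x => ?_
    rw [LinearMap.smul_apply, LinearMap.smul_apply, Module.End.one_apply,
      algebra_compatible_smul 𝒪 (ℓ : ℤ_[p]) x, map_natCast]
  have hEL := Fermat.Agent.S30_helper18_EL.S30_EL p 𝒪 Λ ρ T S a hp𝒪 hcomm hcont
  obtain ⟨ρ', h1, h2, h3⟩ := S35ASM_CWV2 S 𝒪 (𝒪 ⊗[ℤ_[p]] Λ) (S30BC_hom 𝒪 ρ)
    (fun ℓ => (T ℓ).baseChange 𝒪) a d c hcommV hcontV hdcont hdfrob hcc hdc hESV hv hEL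
    B hBd (fun q σ hB => by
      obtain ⟨l, hl, hP⟩ := hbad q σ hB
      refine ⟨l, hl, fun v hv' => ?_⟩
      have := hP v hv'
      simpa only [S30BC_hom_apply] using this)
  refine ⟨ρ', h1, fun σ hσ hd => h2 σ ?_ hd, h3⟩
  rw [S30BC_hom_apply, hσ, LinearMap.baseChange_one]

/-- **S35 from the Tate-module data and the geometric input `hbad`** (conclusion = the frozen
statement S35 with `χ := iota.comp chig.rangeRestrict`, `𝒪'' := 𝒪'`).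

`hbad`: for a Frobenius lift `σ` at a prime `q ≠ p` exactly dividing `N`, some product of factors
`σ - e`, `e ∈ {1, -1, q, -q}`, kills every `χ`-eigenvector of the Hecke operators in
`𝒪' ⊗ Λ`. -/
theorem S35ASM_abstract {p : ℕ} [Fact p.Prime] {N : ℕ} [NeZero N] (S : Finset ℕ)
    (hpS : p ∈ S) (hNS : ∀ q : ℕ, q.Prime → q ∣ N → q ∈ S)
    (𝒪' : Type) [CommRing 𝒪'] [IsDomain 𝒪'] [IsDiscreteValuationRing 𝒪']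
    [IsAdicComplete (IsLocalRing.maximalIdeal 𝒪') 𝒪'] [Finite (IsLocalRing.ResidueField 𝒪')]
    [CharZero 𝒪'] [Algebra ℤ_[p] 𝒪'] (hp𝒪' : (p : 𝒪') ∈ IsLocalRing.maximalIdeal 𝒪')
    (χ : CuspForm.heckeAlgebra N 2 (↑S : Set ℕ) →+* 𝒪')
    (Λ : Type) [AddCommGroup Λ] [Module ℤ_[p] Λ] [Module.Finite ℤ_[p] Λ] [Module.Free ℤ_[p] Λ]
    (ρ : GQ →* Module.End ℤ_[p] Λ) (T : ℕ → Module.End ℤ_[p] Λ)
    (hcomm : ∀ (ℓ : ℕ) (g : GQ), ℓ.Prime → T ℓ * ρ g = ρ g * T ℓ)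
    (hcont : ∀ n : ℕ, ∃ L : IntermediateField ℚ Qb, FiniteDimensional ℚ L ∧
      ∀ σ : GQ, (∀ x ∈ L, σ x = x) → ∀ v : Λ, ∃ w : Λ, ρ σ v - v = (p : ℤ_[p]) ^ n • w)
    (hES : ∀ ℓ : ℕ, ℓ.Prime → ¬ ℓ ∣ N * p → ∀ A : ValuationSubring Qb, A.LiesOverPrime ℓ →
      ∀ σ : GQ, A.IsFrobeniusAt σ ℓ →
        ρ σ * ρ σ - T ℓ * ρ σ + (ℓ : ℤ_[p]) • (1 : Module.End ℤ_[p] Λ) = 0)
    (hv : ∃ v : 𝒪' ⊗[ℤ_[p]] Λ, v ≠ 0 ∧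
      ∀ (ℓ : ℕ) (hℓ : ℓ.Prime) (hℓN : ¬ ℓ ∣ N) (hℓS : ℓ ∉ (↑S : Set ℕ)),
        (T ℓ).baseChange 𝒪' v = χ (CuspForm.heckeAlgebra.T hℓ hℓN hℓS) • v)
    (hbad : ∀ q : ℕ, q.Prime → q ≠ p → q ∣ N → ¬ q ^ 2 ∣ N →
      ∀ A : ValuationSubring Qb, A.LiesOverPrime q → ∀ σ : GQ, A.IsFrobeniusAt σ q →
      ∃ l : List 𝒪', (∀ e ∈ l, e = 1 ∨ e = -1 ∨ e = (q : 𝒪') ∨ e = -(q : 𝒪')) ∧
        ∀ v : 𝒪' ⊗[ℤ_[p]] Λ,
          (∀ (ℓ : ℕ) (hℓ : ℓ.Prime) (hℓN : ¬ ℓ ∣ N) (hℓS : ℓ ∉ (↑S : Set ℕ)),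
            (T ℓ).baseChange 𝒪' v = χ (CuspForm.heckeAlgebra.T hℓ hℓN hℓS) • v) →
          (l.map (fun e => (ρ σ).baseChange 𝒪' -
            e • (1 : Module.End 𝒪' (𝒪' ⊗[ℤ_[p]] Λ)))).prod v = 0) :
    ∃ (𝒪'' : Type) (_ : CommRing 𝒪'') (_ : IsDomain 𝒪'') (_ : IsDiscreteValuationRing 𝒪'')
      (_ : IsAdicComplete (IsLocalRing.maximalIdeal 𝒪'') 𝒪'')
      (_ : Finite (IsLocalRing.ResidueField 𝒪'')) (_ : CharZero 𝒪'')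
      (_ : Algebra 𝒪' 𝒪'') (_ : Module.Finite 𝒪' 𝒪'') (_ : IsLocalHom (algebraMap 𝒪' 𝒪'')),
    Function.Injective (algebraMap 𝒪' 𝒪'') ∧
    ∃ ρ' : GaloisRepAdic 𝒪'',
      (∀ (ℓ : ℕ) (hℓ : ℓ.Prime) (hℓN : ¬ ℓ ∣ N) (hℓS : ℓ ∉ (↑S : Set ℕ)),
        ∀ A : ValuationSubring (AlgebraicClosure ℚ), A.LiesOverPrime ℓ →
          ∀ σ : AlgebraicClosure ℚ ≃ₐ[ℚ] AlgebraicClosure ℚ, A.IsFrobeniusAt σ ℓ →
            LinearMap.charpoly (ρ'.ρ σ) =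
              X ^ 2 - C (algebraMap 𝒪' 𝒪'' (χ (CuspForm.heckeAlgebra.T hℓ hℓN hℓS))) * X
                + C ((ℓ : 𝒪''))) ∧
      (∀ q : ℕ, q.Prime → q ≠ p → q ∣ N → ¬ q ^ 2 ∣ N →
        ∀ A : ValuationSubring (AlgebraicClosure ℚ), A.LiesOverPrime q →
          ∀ σ : AlgebraicClosure ℚ ≃ₐ[ℚ] AlgebraicClosure ℚ, A.IsFrobeniusAt σ q →
            LinearMap.charpoly (ρ'.ρ σ) = X ^ 2 - C ((q : 𝒪'') + 1) * X + C ((q : 𝒪'')) ∨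
            LinearMap.charpoly (ρ'.ρ σ) = X ^ 2 + C ((q : 𝒪'') + 1) * X + C ((q : 𝒪''))) := by
  classical
  have hp : p.Prime := Fact.out
  -- the eigenvalues
  let a : ℕ → 𝒪' := fun ℓ =>
    if h : ℓ.Prime ∧ ¬ ℓ ∣ N ∧ ℓ ∉ (↑S : Set ℕ) then χ (CuspForm.heckeAlgebra.T h.1 h.2.1 h.2.2)
    else 0
  have ha : ∀ (ℓ : ℕ) (hℓ : ℓ.Prime) (hℓN : ¬ ℓ ∣ N) (hℓS : ℓ ∉ (↑S : Set ℕ)),
      a ℓ = χ (CuspForm.heckeAlgebra.T hℓ hℓN hℓS) := by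
    intro ℓ hℓ hℓN hℓS
    simp only [a]
    rw [dif_pos ⟨hℓ, hℓN, hℓS⟩]
  have hN : ∀ ℓ : ℕ, ℓ.Prime → ℓ ∉ S → ¬ ℓ ∣ N := fun ℓ hℓ hℓS h => hℓS (hNS ℓ hℓ h)
  have hS' : ∀ ℓ : ℕ, ℓ ∉ S → ℓ ∉ (↑S : Set ℕ) := fun ℓ h h' => h (Finset.mem_coe.1 h')
  have hne : ∀ ℓ : ℕ, ℓ ∉ S → ℓ ≠ p := fun ℓ h h' => h (h' ▸ hpS)
  have heig : ∀ v : 𝒪' ⊗[ℤ_[p]] Λ,
      (∀ ℓ : ℕ, ℓ.Prime → ℓ ∉ S → (T ℓ).baseChange 𝒪' v = a ℓ • v) →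
      ∀ (ℓ : ℕ) (hℓ : ℓ.Prime) (hℓN : ¬ ℓ ∣ N) (hℓS : ℓ ∉ (↑S : Set ℕ)),
        (T ℓ).baseChange 𝒪' v = χ (CuspForm.heckeAlgebra.T hℓ hℓN hℓS) • v := by
    intro v hv' ℓ hℓ hℓN hℓS
    rw [← ha ℓ hℓ hℓN hℓS]
    exact hv' ℓ hℓ (fun h => hℓS (Finset.mem_coe.2 h))
  -- the cyclotomic character
  let f : ℤ_[p] →+* 𝒪' := algebraMap ℤ_[p] 𝒪'
  obtain ⟨c, hcc, hdc⟩ := S30CYCT_conj p f
  obtain ⟨ρ', h1, -, h3⟩ := S35ASM_BC2 S 𝒪' hp𝒪' Λ ρ T a (S30CYCT_d p f) c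
    (fun ℓ g hℓ _ => hcomm ℓ g hℓ) hcont (fun n => S30CYCT_cont p f hp𝒪' n)
    (fun ℓ hℓ hℓS A hA σ hσ => S30CYCT_frob p f hℓ (hne ℓ hℓS) A hA σ hσ) hcc hdc
    (fun ℓ hℓ hℓS A hA σ hσ => hES ℓ hℓ (S30FINAL_not_dvd hp S hpS hNS hℓ hℓS) A hA σ hσ)
    (by
      obtain ⟨v, hv0, hv1⟩ := hv
      exact ⟨v, hv0, fun ℓ hℓ hℓS => by
        rw [ha ℓ hℓ (hN ℓ hℓ hℓS) (hS' ℓ hℓS)]
        exact hv1 ℓ hℓ (hN ℓ hℓ hℓS) (hS' ℓ hℓS)⟩)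
    (fun q σ => q.Prime ∧ q ≠ p ∧ q ∣ N ∧ ¬ q ^ 2 ∣ N ∧
      ∃ A : ValuationSubring Qb, A.LiesOverPrime q ∧ A.IsFrobeniusAt σ q)
    (fun q σ hB => by
      obtain ⟨hq, hqp, -, -, A, hA, hσ⟩ := hB
      exact ⟨hq.ne_zero, S30CYCT_frob p f hq hqp A hA σ hσ⟩)
    (fun q σ hB => by
      obtain ⟨hq, hqp, hqN, hq2, A, hA, hσ⟩ := hB
      obtain ⟨l, hl, hP⟩ := hbad q hq hqp hqN hq2 A hA σ hσ
      exact ⟨l, hl, fun v hv' => hP v (heig v hv')⟩)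
  refine ⟨𝒪', inferInstance, inferInstance, inferInstance, inferInstance, inferInstance,
    inferInstance, Algebra.id 𝒪', inferInstance, ?_, ?_, ρ', ?_, ?_⟩
  · exact ⟨fun _ h => h⟩
  · exact fun _ _ h => h
  · intro ℓ hℓ hℓN hℓS A hA σ hσ
    have hℓS' : ℓ ∉ S := fun h => hℓS (Finset.mem_coe.2 h)
    rw [h1 ℓ hℓ hℓS' A hA σ hσ, ha ℓ hℓ hℓN hℓS]
    rfl
  · intro q hq hqp hqN hq2 A hA σ hσ
    exact h3 q σ ⟨hq, hqp, hqN, hq2, A, hA, hσ⟩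

end Fermat.Agent.S35_helper20_ASM
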