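import Mathlib

/-!
# S35, NORM-BRIDGE, abstract bricks (helper20)

* `S35NB_norm_map` : **the norm commutes with an extension of the base field** when the
  degree does not drop: for fields `A ⊆ B`, `A' ⊆ B'` and compatible ring homomorphisms
  `φ : A → A'`, `ψ : B → B'` such that `ψ(B)` spans `B'` over `A'` and
  `[B : A] ≤ [B' : A']`, one has `N_{B'/A'}(ψ x) = φ (N_{B/A}(x))`.
* `S35NB_norm_twist` : two `F`-algebra structures `α`, `β` on the same field `E`, related by a
  ring automorphism `w` of `E` with `w ∘ α = β`: `N_β (w x) = N_α x`.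
-/

set_option autoImplicit false
set_option linter.unusedSectionVars false
set_option linter.unusedVariables false
set_option linter.style.haveILetI false

open Module

namespace Fermat.Agent.S35_helper20_NORMB

section Coe

/-- the inclusion of subfields is the identity on the ambient field (abstract, so that no
carrier is ever unfolded) -/
theorem S35NB_coe_inclusion {K : Type*} [Field K] {S T : Subfield K} (h : S ≤ T) (x : S) :
    ((Subfield.inclusion h x : T) : K) = (x : K) := rfl

/-- the structure map of the algebra given by an inclusion of subfields -/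
theorem S35NB_algebraMap_inclusion {K : Type*} [Field K] {S T : Subfield K} (h : S ≤ T)
    (x : S) :
    letI := (Subfield.inclusion h).toAlgebra
    ((algebraMap ↥S ↥T x : T) : K) = (x : K) := rfl

end Coe

section Map

variable {A B A' B' : Type*} [Field A] [Field B] [Field A'] [Field B']
  [Algebra A B] [Algebra A' B'] [FiniteDimensional A B] [FiniteDimensional A' B']

/-- the image of a basis spans the span of the image -/
theorem S35NB_span_basis (φ : A →+* A') (ψ : B →+* B')
    (hcomm : ∀ a, ψ (algebraMap A B a) = algebraMap A' B' (φ a))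
    {ι : Type*} [Fintype ι] (b : Basis ι A B) (x : B) :
    ψ x = ∑ i, φ (b.repr x i) • ψ (b i) := by
  conv_lhs => rw [← b.sum_repr x]
  rw [map_sum]
  refine Finset.sum_congr rfl fun i _ => ?_
  rw [Algebra.smul_def, map_mul, hcomm, Algebra.smul_def]

/-- the span of the range of a ring homomorphism is the subalgebra it generates -/
theorem S35NB_top_le_span (ψ : B →+* B') (h : Algebra.adjoin A' (Set.range ψ) = ⊤) :
    ⊤ ≤ Submodule.span A' (Set.range ψ) := by
  have h1 := Algebra.adjoin_eq_span (R := A') (s := Set.range ψ)
  have h2 : (Submonoid.closure (Set.range ψ) : Set B') = Set.range ψ := by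
    have e : Set.range ψ = ((MonoidHom.mrange (ψ : B →* B') : Submonoid B') : Set B') := by
      ext y
      simp
    rw [e, Submonoid.closure_eq]
  rw [h2, h] at h1
  rw [← h1]
  exact le_of_eq rfl

/-- a subalgebra of a finite field extension which contains a set of field generators is
everything: elementwise form -/
theorem S35NB_inv_mem (S : Subalgebra A' B') {y : B'} (hy : y ∈ S) : y⁻¹ ∈ S :=
  Subalgebra.inv_mem_of_algebraic S (x := ⟨y, hy⟩) (Algebra.IsAlgebraic.isAlgebraic (R := A') y)

/-- **the norm commutes with an extension of the base field.** -/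
theorem S35NB_norm_map (φ : A →+* A') (ψ : B →+* B')
    (hcomm : ∀ a, ψ (algebraMap A B a) = algebraMap A' B' (φ a))
    (hspan : ⊤ ≤ Submodule.span A' (Set.range ψ))
    (hrank : finrank A B ≤ finrank A' B') (x : B) :
    Algebra.norm A' (ψ x) = φ (Algebra.norm A x) := by
  classical
  let b : Basis (Fin (finrank A B)) A B := Module.finBasis A B
  -- the image of the basis spans
  have hsp : ⊤ ≤ Submodule.span A' (Set.range (ψ ∘ b)) := by
    refine hspan.trans (Submodule.span_le.2 ?_)
    rintro _ ⟨y, rfl⟩
    rw [SetLike.mem_coe, S35NB_span_basis φ ψ hcomm b y]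
    exact Submodule.sum_mem _ fun i _ =>
      Submodule.smul_mem _ _ (Submodule.subset_span ⟨i, rfl⟩)
  have hle : finrank A' B' ≤ finrank A B := by
    have h1 := finrank_range_le_card (R := A') (ψ ∘ b)
    rw [Fintype.card_fin] at h1
    have h2 : (Set.range (ψ ∘ b)).finrank A' = finrank A' B' := by
      unfold Set.finrank
      rw [top_le_iff.1 hsp, finrank_top]
    omega
  have hcard : Fintype.card (Fin (finrank A B)) = finrank A' B' := by
    rw [Fintype.card_fin]
    omega
  let b' : Basis (Fin (finrank A B)) A' B' := basisOfTopLeSpanOfCardEqFinrank (ψ ∘ b) hsp hcard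
  have hb' : ∀ i, b' i = ψ (b i) := fun i => by
    show (basisOfTopLeSpanOfCardEqFinrank (ψ ∘ b) hsp hcard) i = ψ (b i)
    rw [coe_basisOfTopLeSpanOfCardEqFinrank]
    rfl
  rw [Algebra.norm_eq_matrix_det b', Algebra.norm_eq_matrix_det b, RingHom.map_det]
  congr 1
  ext i j
  rw [RingHom.mapMatrix_apply, Matrix.map_apply, Algebra.leftMulMatrix_eq_repr_mul,
    Algebra.leftMulMatrix_eq_repr_mul, hb', ← map_mul]
  -- the coordinates of `ψ y` in the basis `b'`
  have key : ∀ y : B, b'.repr (ψ y) = Finsupp.equivFunOnFinite.symm fun i => φ (b.repr y i) := by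
    intro y
    apply b'.repr.symm.injective
    rw [LinearEquiv.symm_apply_apply, Basis.repr_symm_apply, Finsupp.linearCombination_apply,
      Finsupp.sum_fintype (h := fun i => zero_smul A' (b' i))]
    rw [S35NB_span_basis φ ψ hcomm b y]
    refine Finset.sum_congr rfl fun i _ => ?_
    rw [hb']
    rfl
  rw [key]
  rfl

end Map

section Twist

variable {F E : Type*} [Field F] [Field E]

/-- **two embeddings related by an automorphism have the same norm up to the automorphism.** -/
theorem S35NB_norm_twist (α β : F →+* E) (w : E ≃+* E) (hw : ∀ c, w (α c) = β c) (x : E) :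
    (letI := β.toAlgebra; Algebra.norm F (w x)) = (letI := α.toAlgebra; Algebra.norm F x) := by
  have h := @Algebra.norm_eq_of_equiv_equiv F E F E _ _ _ _ α.toAlgebra β.toAlgebra
    (RingEquiv.refl F) w (by
      ext c
      simp only [RingHom.coe_comp, RingHom.coe_coe, Function.comp_apply, RingEquiv.refl_apply]
      exact (hw c).symm) x
  rw [h]
  rfl

end Twist

end Fermat.Agent.S35_helper20_NORMB
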