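import Fermat.Agent.S35_helper20_NORMB
import Fermat.Agent.S37_helper21_B0cFinal
import Fermat.Agent.S18_helper26_CONST
import Fermat.Agent.S18_helper25_GLUE
import Fermat.Agent.S34_helper13_P1C

/-!
# S35, NORM-BRIDGE (helper20): from `α_* x = 0 = β_* x` to the norms of the function

`M = N' q`, `q ∤ N'`.  For a divisor `D` on `X₀(N' q)` over `ℚ̄` with `div f = n • D`:

* `S35NBK_norm_pow` (generic): if the push-forward of `D` along `φ` is principal, the norm of
  `f` along `φ` is an `n`-th power;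
* `S35NBK_finrank_alpha` : `[F̄(N' q) : F̄(N')] = q + 1` along `heckeAlphaBar`;
* `S35NBK_desc` : the norm of helper13's `S35NRK_main` (level `K1`) goes to the norm along
  `heckeAlphaBar` (level `ℚ̄`) under the coefficient embedding;
* `S35NBK_main` : the hypotheses `hα`, `hβ` of helper15's `S35RN_main`.
-/

set_option autoImplicit false
set_option linter.unusedSectionVars false
set_option linter.unusedVariables false
set_option linter.style.haveILetI false

open HahnSeries IntermediateField AlgebraicCurve ModularCurve Module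
open Fermat.Agent.S35_helper20_NORMB

noncomputable section

namespace Fermat.Agent.S35_helper20_NORMBK

local notation "Qb" => AlgebraicClosure ℚ

/-! ### The norm of a function whose divisor has principal push-forward -/

section Generic

variable {K F F' : Type*} [Field K] [IsAlgClosed K] [Field F] [Field F'] [Algebra K F]
  [Algebra K F']

/-- **(NB1)** if `div f = n • D` and the push-forward of `D` along `φ` is principal, then the norm
of `f` along `φ` is an `n`-th power. -/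
theorem S35NBK_norm_pow (φ : F →ₐ[K] F') (hφ : φ.toRingHom.IsIntegral)
    (hfin : FiniteAlong K φ) (hN : NormFormulaAlong K φ hfin)
    (hconst : ∀ x : F, x ≠ 0 → (∀ P : Place K F, P.ord x = 0) → ∃ c : K, x = algebraMap K F c)
    (n : ℕ) (hn : 0 < n) (D : Divisor K F') (f : F') (hf : f ≠ 0)
    (hord : ∀ P : Place K F', P.ord f = (n : ℤ) * D P)
    (hpr : (Divisor.pushforwardAlong φ hφ D).IsPrincipal) :
    ∃ h : F, h ≠ 0 ∧ (letI := algebraAlong φ; Algebra.norm F f) = h ^ n := by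
  letI := algebraAlong φ
  haveI := isScalarTower_along φ
  haveI := isIntegral_along φ hφ
  haveI : Module.Finite F F' := hfin
  obtain ⟨h0, hh0, hD⟩ := hpr
  have hN' : Divisor.PushforwardNormFormula K F F' := hN
  have hnorm0 : Algebra.norm F f ≠ 0 := Algebra.norm_ne_zero_iff.mpr hf
  -- the orders of the norm
  have h1 : ∀ v : Place K F, v.ord (Algebra.norm F f) = (n : ℤ) * v.ord h0 := by
    intro v
    have h2 := hN' f hf (n • D) (fun w => by
      rw [Finsupp.smul_apply, hord w, nsmul_eq_mul]) v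
    rw [← h2, map_nsmul, Finsupp.smul_apply, nsmul_eq_mul]
    congr 1
    exact hD v
  have hpow : ∀ (v : Place K F) (z : F) (m : ℕ), v.ord (z ^ m) = (m : ℤ) * v.ord z := by
    intro v z m
    rw [← zpow_natCast, Place.ord_zpow]
  have hz0 : Algebra.norm F f * (h0 ^ n)⁻¹ ≠ 0 :=
    mul_ne_zero hnorm0 (inv_ne_zero (pow_ne_zero _ hh0))
  obtain ⟨c, hc⟩ := hconst _ hz0 (fun v => by
    rw [Place.ord_mul v hnorm0 (inv_ne_zero (pow_ne_zero _ hh0)), Place.ord_inv, hpow, h1]
    ring)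
  have hc0 : c ≠ 0 := by
    rintro rfl
    rw [map_zero] at hc
    exact hz0 hc
  obtain ⟨c1, hc1⟩ := IsAlgClosed.exists_pow_nat_eq c hn
  have hc10 : c1 ≠ 0 := by
    rintro rfl
    rw [zero_pow hn.ne'] at hc1
    exact hc0 hc1.symm
  refine ⟨algebraMap K F c1 * h0, mul_ne_zero ?_ hh0, ?_⟩
  · intro h
    exact hc10 ((map_eq_zero (algebraMap K F)).1 h)
  · rw [mul_pow, ← map_pow, hc1, ← hc]
    field_simp

end Generic

/-! ### The degree along `heckeAlphaBar` over `ℚ̄` -/

section Degree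

variable (N' q : ℕ) [NeZero N'] [NeZero q]

/-- `[F̄(N' q) : F̄(N')] = q + 1` along `heckeAlphaBar`. -/
theorem S35NBK_finrank_alpha (hq : q.Prime) (hqN : ¬ q ∣ N') :
    letI := algebraAlong (heckeAlphaBar Qb N' q)
    Module.finrank (modularFunctionFieldBar N') (modularFunctionFieldBar (N' * q)) = q + 1 := by
  letI := algebraAlong (heckeAlphaBar Qb N' q)
  have h1 := Fermat.Agent.S34_helper15_DEG.S34DEG_tower (heckeAlphaBar Qb N' q)
    (Fermat.Agent.S24.jElt N')
  have hj : heckeAlphaBar Qb N' q (Fermat.Agent.S24.jElt N') = Fermat.Agent.S24.jElt (N' * q) :=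
    Subtype.ext (coe_heckeAlphaBar N' q _)
  rw [hj] at h1
  have h2 := (Fermat.Agent.S24_helper23_DEG.DEG (N' * q)).2
  have h3 := (Fermat.Agent.S24_helper23_DEG.DEG N').2
  rw [h2, h3, Fermat.Agent.S34_helper15_DEG.S34DEG_mu_mul N' q hq hqN] at h1
  have hpos : 0 < Fermat.Agent.S20.mu N' := by
    rw [← h3]
    haveI := (Fermat.Agent.S24_helper23_DEG.DEG N').1
    exact Module.finrank_pos
  exact (Nat.eq_of_mul_eq_mul_left hpos h1).symm

end Degree

/-! ### Descent of the norm along `α` -/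

section Descent

open Fermat.Agent.S18_helper25_COREDefs Fermat.Agent.S18_helper25_GLUE
  Fermat.Agent.S34_helper13_KEY Fermat.Agent.S34_helper27_V3K Fermat.Agent.S34_helper20_V0K
  Fermat.Agent.S34_helper13_P1C

variable (K1 : IntermediateField ℚ Qb)

theorem S35NBK_inc_mem (N : ℕ) [NeZero N] {x : LaurentSeries K1}
    (hx : x ∈ modularFunctionFieldFullC K1 N) :
    coeffMap (algebraMap K1 Qb) x ∈ modularFunctionFieldBar N :=
  S18G_le_bar N (S18G_coeffMap_mem _ N hx)

/-- the coefficient embedding `F1(K1, N) → F̄(N)` -/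
def S35NBK_inc (N : ℕ) [NeZero N] : ↥(S18K_F1 K1 N) →+* ↥(modularFunctionFieldBar N) where
  toFun x := ⟨coeffMap (algebraMap K1 Qb) (x : LaurentSeries K1), S35NBK_inc_mem K1 N x.2⟩
  map_one' := Subtype.ext (map_one _)
  map_mul' a b := Subtype.ext (map_mul _ _ _)
  map_zero' := Subtype.ext (map_zero _)
  map_add' a b := Subtype.ext (map_add _ _ _)

theorem S35NBK_inc_coe (N : ℕ) [NeZero N] (x : ↥(S18K_F1 K1 N)) :
    ((S35NBK_inc K1 N x : ↥(modularFunctionFieldBar N)) : LaurentSeries Qb) =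
      coeffMap (algebraMap K1 Qb) (x : LaurentSeries K1) := rfl

variable (N' q : ℕ) [NeZero N'] [NeZero q] [NeZero (N' * q)]

/-- the image of `F1(K1, N' q)` generates `F̄(N' q)` as an algebra over `F̄(N')` -/
theorem S35NBK_adjoin :
    letI := algebraAlong (heckeAlphaBar Qb N' q)
    Algebra.adjoin ↥(modularFunctionFieldBar N') (Set.range (S35NBK_inc K1 (N' * q))) = ⊤ := by
  letI := algebraAlong (heckeAlphaBar Qb N' q)
  haveI : Module.Finite ↥(modularFunctionFieldBar N') ↥(modularFunctionFieldBar (N' * q)) :=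
    Fermat.Agent.S37_helper21_B0c.S37B0_finiteAlong_alpha N' q
  set S := Algebra.adjoin ↥(modularFunctionFieldBar N') (Set.range (S35NBK_inc K1 (N' * q)))
    with hS
  have key : ∀ y : LaurentSeries Qb, y ∈ modularFunctionFieldFullC Qb (N' * q) →
      ∃ hy : y ∈ modularFunctionFieldBar (N' * q),
        (⟨y, hy⟩ : ↥(modularFunctionFieldBar (N' * q))) ∈ S := by
    intro y hy
    unfold modularFunctionFieldFullC at hy
    induction hy using IntermediateField.adjoin_induction with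
    | mem y hy =>
      obtain ⟨d, hd0, hd, rfl⟩ := hy
      have hm : qExpand K1 d (jqModC K1) ∈ modularFunctionFieldFullC K1 (N' * q) :=
        jqModCd_mem_full K1 (N' * q) hd
      have e := S18G_coeffMap_gen (algebraMap K1 Qb) d
      refine ⟨by rw [← e]; exact S35NBK_inc_mem K1 (N' * q) hm, ?_⟩
      refine Algebra.subset_adjoin ⟨⟨qExpand K1 d (jqModC K1), hm⟩, ?_⟩
      exact Subtype.ext e
    | algebraMap c =>
      refine ⟨IntermediateField.algebraMap_mem _ c, ?_⟩
      have e : (⟨algebraMap Qb (LaurentSeries Qb) c, IntermediateField.algebraMap_mem _ c⟩ :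
          ↥(modularFunctionFieldBar (N' * q))) =
          algebraMap ↥(modularFunctionFieldBar N') ↥(modularFunctionFieldBar (N' * q))
            (algebraMap Qb ↥(modularFunctionFieldBar N') c) := Subtype.ext rfl
      rw [e]
      exact Subalgebra.algebraMap_mem S _
    | add x y _ _ h1 h2 =>
      obtain ⟨hx, hxS⟩ := h1
      obtain ⟨hy, hyS⟩ := h2
      refine ⟨add_mem hx hy, ?_⟩
      have e : (⟨x + y, add_mem hx hy⟩ : ↥(modularFunctionFieldBar (N' * q))) =
          (⟨x, hx⟩ : ↥(modularFunctionFieldBar (N' * q))) + ⟨y, hy⟩ := Subtype.ext rfl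
      rw [e]
      exact S.add_mem hxS hyS
    | inv x _ h =>
      obtain ⟨hx, hxS⟩ := h
      refine ⟨inv_mem hx, ?_⟩
      have h1 := S35NB_inv_mem S hxS
      have e : (⟨x⁻¹, inv_mem hx⟩ : ↥(modularFunctionFieldBar (N' * q))) =
          (⟨x, hx⟩ : ↥(modularFunctionFieldBar (N' * q)))⁻¹ := Subtype.ext rfl
      rw [e]
      exact h1
    | mul x y _ _ h1 h2 =>
      obtain ⟨hx, hxS⟩ := h1
      obtain ⟨hy, hyS⟩ := h2
      refine ⟨mul_mem hx hy, ?_⟩
      have e : (⟨x * y, mul_mem hx hy⟩ : ↥(modularFunctionFieldBar (N' * q))) =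
          (⟨x, hx⟩ : ↥(modularFunctionFieldBar (N' * q))) * ⟨y, hy⟩ := Subtype.ext rfl
      rw [e]
      exact S.mul_mem hxS hyS
  rw [eq_top_iff]
  rintro ⟨y, hy⟩ -
  obtain ⟨_, h⟩ := key y (S18G_bar_le (N' * q) hy)
  exact h

theorem S35NBK_algebraMap_coe (hN : N' * q = q * N') (a : ↥(S18K_F1 K1 N')) :
    letI := S34KEY_alg (S34V3K_F1_mono K1 (S34V0K_dvd hN))
    ((algebraMap ↥(S18K_F1 K1 N') ↥(S18K_F1 K1 (N' * q)) a : ↥(S18K_F1 K1 (N' * q))) :
      LaurentSeries K1) = (a : LaurentSeries K1) := by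
  exact S35NB_algebraMap_inclusion (S34V3K_F1_mono K1 (S34V0K_dvd hN)) a

theorem S35NBK_algebraMap_bar_coe (a : ↥(modularFunctionFieldBar N')) :
    letI := algebraAlong (heckeAlphaBar Qb N' q)
    ((algebraMap ↥(modularFunctionFieldBar N') ↥(modularFunctionFieldBar (N' * q)) a :
      ↥(modularFunctionFieldBar (N' * q))) : LaurentSeries Qb) = (a : LaurentSeries Qb) := by
  letI := algebraAlong (heckeAlphaBar Qb N' q)
  rw [RingHom.algebraMap_toAlgebra]
  exact coe_heckeAlphaBar N' q a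

theorem S35NBK_comm (hN : N' * q = q * N') (a : ↥(S18K_F1 K1 N')) :
    letI := algebraAlong (heckeAlphaBar Qb N' q)
    letI := S34KEY_alg (S34V3K_F1_mono K1 (S34V0K_dvd hN))
    S35NBK_inc K1 (N' * q) (algebraMap ↥(S18K_F1 K1 N') ↥(S18K_F1 K1 (N' * q)) a) =
      algebraMap ↥(modularFunctionFieldBar N') ↥(modularFunctionFieldBar (N' * q))
        (S35NBK_inc K1 N' a) := by
  letI := algebraAlong (heckeAlphaBar Qb N' q)
  letI := S34KEY_alg (S34V3K_F1_mono K1 (S34V0K_dvd hN))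
  apply Subtype.ext
  rw [S35NBK_inc_coe, S35NBK_algebraMap_coe K1 N' q hN a, S35NBK_algebraMap_bar_coe N' q,
    S35NBK_inc_coe]

/-- **(NB2), level `N' q`**: the norm of `F1(K1, N' q) / F1(K1, N')` goes to the norm along
`heckeAlphaBar` under the coefficient embedding. -/
theorem S35NBK_desc_mul (hq : q.Prime) (hqN : ¬ q ∣ N') (hN : N' * q = q * N')
    (x : ↥(S18K_F1 K1 (N' * q))) :
    (letI := algebraAlong (heckeAlphaBar Qb N' q)
     Algebra.norm ↥(modularFunctionFieldBar N') (S35NBK_inc K1 (N' * q) x)) =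
    (letI := S34KEY_alg (S34V3K_F1_mono K1 (S34V0K_dvd hN))
     S35NBK_inc K1 N' (Algebra.norm ↥(S18K_F1 K1 N') x)) := by
  letI i1 := algebraAlong (heckeAlphaBar Qb N' q)
  letI i2 := S34KEY_alg (S34V3K_F1_mono K1 (S34V0K_dvd hN))
  haveI : Module.Finite ↥(modularFunctionFieldBar N') ↥(modularFunctionFieldBar (N' * q)) :=
    Fermat.Agent.S37_helper21_B0c.S37B0_finiteAlong_alpha N' q
  obtain ⟨hfd, hle⟩ := S34KEY_finrank_le (S34V3K_F1_mono K1 (S34V0K_dvd hN))
    (S34P1C_hdeg K1 q N' (N' * q) hq hqN hN)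
  haveI := hfd
  refine S35NB_norm_map (S35NBK_inc K1 N') (S35NBK_inc K1 (N' * q))
    (S35NBK_comm K1 N' q hN)
    (S35NB_top_le_span _ (S35NBK_adjoin K1 N' q)) ?_ x
  rw [S35NBK_finrank_alpha N' q hq hqN]
  exact hle

end Descent

/-! ### The Atkin–Lehner involution commutes with a change of the field of constants -/

section WComm

open Fermat.Agent.S34_helper20_WQ Fermat.Agent.S34_helper20_V0 Fermat.Agent.S18_helper25_GLUE
  Fermat.Agent.S24

variable {K1 K : Type*} [Field K1] [Field K] (emb1 : K1 →+* Kbar) (emb : K →+* Kbar)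
  (φ : K1 →+* K) (q N' N : ℕ) [NeZero N'] [NeZero N]
  (hq : q.Prime) (hqN : ¬ q ∣ N') (hN : N = q * N')

theorem S35NBK_coeffMap_C (c : K1) :
    coeffMap φ (HahnSeries.C c : LaurentSeries K1) = HahnSeries.C (φ c) := by
  rw [HahnSeries.C_apply, coeffMap_single, HahnSeries.C_apply]

/-- `coeffMap φ` restricted to the function fields -/
def S35NBK_Φr : modularFunctionFieldFullC K1 N →+* modularFunctionFieldFullC K N where
  toFun y := ⟨coeffMap φ (y : LaurentSeries K1), S18G_coeffMap_mem φ N y.2⟩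
  map_one' := Subtype.ext (map_one _)
  map_mul' a b := Subtype.ext (map_mul _ _ _)
  map_zero' := Subtype.ext (map_zero _)
  map_add' a b := Subtype.ext (map_add _ _ _)

/-- the two composites `F(K1) → K((q))` -/
def S35NBK_f : modularFunctionFieldFullC K1 N →+* LaurentSeries K :=
  (coeffMap φ).comp ((algebraMap (modularFunctionFieldFullC K1 N) (LaurentSeries K1)).comp
    (S34V0_w emb1 q N' N hq hqN hN : modularFunctionFieldFullC K1 N →+*
      modularFunctionFieldFullC K1 N))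

def S35NBK_g : modularFunctionFieldFullC K1 N →+* LaurentSeries K :=
  (algebraMap (modularFunctionFieldFullC K N) (LaurentSeries K)).comp
    ((S34V0_w emb q N' N hq hqN hN : modularFunctionFieldFullC K N →+*
      modularFunctionFieldFullC K N).comp (S35NBK_Φr φ N))

theorem S35NBK_f_apply (y : modularFunctionFieldFullC K1 N) :
    S35NBK_f emb1 φ q N' N hq hqN hN y =
      coeffMap φ ((S34V0_w emb1 q N' N hq hqN hN y :
        modularFunctionFieldFullC K1 N) : LaurentSeries K1) := rfl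

theorem S35NBK_g_apply (y : modularFunctionFieldFullC K1 N) :
    S35NBK_g emb φ q N' N hq hqN hN y =
      ((S34V0_w emb q N' N hq hqN hN (S35NBK_Φr φ N y) :
        modularFunctionFieldFullC K N) : LaurentSeries K) := rfl

theorem S35NBK_fg (y : modularFunctionFieldFullC K1 N) :
    S35NBK_f emb1 φ q N' N hq hqN hN y = S35NBK_g emb φ q N' N hq hqN hN y := by
  refine S34WQ_ringHom_ext N _ _ ?_ ?_ y
  · intro c hc
    rw [S35NBK_f_apply, S35NBK_g_apply, S34V0_w_C]
    have e : S35NBK_Φr φ N ⟨HahnSeries.C c, hc⟩ =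
        ⟨HahnSeries.C (φ c), S34V0_C_mem N _⟩ :=
      Subtype.ext (S35NBK_coeffMap_C φ c)
    rw [e, S34V0_w_C]
    exact S35NBK_coeffMap_C φ c
  · intro d _ hd hm
    haveI : NeZero (S34WQ_dual q d) :=
      ⟨S34WQ_dual_ne_zero hq.pos (Nat.pos_of_ne_zero (NeZero.ne d))⟩
    rw [S35NBK_f_apply, S35NBK_g_apply, S34V0_w_gen emb1 q N' N hq hqN hN d hd hm]
    have hm1 : qExpand K d (jqModC K) ∈ modularFunctionFieldFullC K N := by
      rw [← S18G_coeffMap_gen φ d]
      exact S18G_coeffMap_mem φ N hm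
    have e : S35NBK_Φr φ N ⟨qExpand K1 d (jqModC K1), hm⟩ = ⟨qExpand K d (jqModC K), hm1⟩ :=
      Subtype.ext (S18G_coeffMap_gen φ d)
    rw [e, S34V0_w_gen emb q N' N hq hqN hN d hd hm1]
    exact S18G_coeffMap_gen φ (S34WQ_dual q d)

/-- **the change of constants commutes with the Atkin–Lehner involution** -/
theorem S35NBK_wL_coeffMap {x : LaurentSeries K1} (hx : x ∈ modularFunctionFieldFullC K1 N) :
    coeffMap φ (S34V0_wL emb1 q N' N hq hqN hN x) =
      S34V0_wL emb q N' N hq hqN hN (coeffMap φ x) := by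
  rw [S34V0_wL_of_mem emb1 q N' N hq hqN hN hx,
    S34V0_wL_of_mem emb q N' N hq hqN hN (S18G_coeffMap_mem φ N hx)]
  exact S35NBK_fg emb1 emb φ q N' N hq hqN hN ⟨x, hx⟩

end WComm

/-! ### The involution over `ℚ̄` and the norm along `β` -/

section Beta

open Fermat.Agent.S34_helper20_WQ Fermat.Agent.S34_helper20_V0 Fermat.Agent.S18_helper25_GLUE
  Fermat.Agent.S24 Fermat.Agent.S18_helper25_COREDefs
  Fermat.Agent.S34_helper13_KEY Fermat.Agent.S34_helper27_V3K Fermat.Agent.S34_helper20_V0K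

variable (N' q : ℕ) [NeZero N'] [NeZero q] [NeZero (N' * q)]
  (hq : q.Prime) (hqN : ¬ q ∣ N') (hN : N' * q = q * N')

/-- the Atkin–Lehner involution over `ℚ̄`, elementwise -/
abbrev S35NBK_wQ : LaurentSeries Qb → LaurentSeries Qb :=
  S34V0_wL (RingHom.id Qb) q N' (N' * q) hq hqN hN

/-- the Atkin–Lehner involution of `F̄(N' q)` -/
def S35NBK_wbar : ↥(modularFunctionFieldBar (N' * q)) ≃+* ↥(modularFunctionFieldBar (N' * q)) where
  toFun x := ⟨S35NBK_wQ N' q hq hqN hN (x : LaurentSeries Qb),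
    S18G_le_bar _ (S34V0_wL_mem _ q N' (N' * q) hq hqN hN _)⟩
  invFun x := ⟨S35NBK_wQ N' q hq hqN hN (x : LaurentSeries Qb),
    S18G_le_bar _ (S34V0_wL_mem _ q N' (N' * q) hq hqN hN _)⟩
  left_inv x := Subtype.ext
    (S34V0_wL_wL _ q N' (N' * q) hq hqN hN (S18G_bar_le _ x.2))
  right_inv x := Subtype.ext
    (S34V0_wL_wL _ q N' (N' * q) hq hqN hN (S18G_bar_le _ x.2))
  map_mul' x y := Subtype.ext
    (S34V0_wL_mul _ q N' (N' * q) hq hqN hN (S18G_bar_le _ x.2) (S18G_bar_le _ y.2))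
  map_add' x y := Subtype.ext
    (S34V0_wL_add _ q N' (N' * q) hq hqN hN (S18G_bar_le _ x.2) (S18G_bar_le _ y.2))

theorem S35NBK_wbar_coe (x : ↥(modularFunctionFieldBar (N' * q))) :
    ((S35NBK_wbar N' q hq hqN hN x : ↥(modularFunctionFieldBar (N' * q))) : LaurentSeries Qb) =
      S35NBK_wQ N' q hq hqN hN (x : LaurentSeries Qb) := rfl

theorem S35NBK_wbar_wbar (x : ↥(modularFunctionFieldBar (N' * q))) :
    S35NBK_wbar N' q hq hqN hN (S35NBK_wbar N' q hq hqN hN x) = x :=
  (S35NBK_wbar N' q hq hqN hN).left_inv x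

/-- `w ∘ α = β` over `ℚ̄` -/
theorem S35NBK_wbar_alpha (c : ↥(modularFunctionFieldBar N')) :
    S35NBK_wbar N' q hq hqN hN ((heckeAlphaBar Qb N' q).toRingHom c) =
      (heckeBetaBar Qb N' q).toRingHom c := by
  apply Subtype.ext
  rw [S35NBK_wbar_coe]
  have h1 : (((heckeAlphaBar Qb N' q).toRingHom c : ↥(modularFunctionFieldBar (N' * q))) :
      LaurentSeries Qb) = (c : LaurentSeries Qb) := coe_heckeAlphaBar N' q c
  have h2 : (((heckeBetaBar Qb N' q).toRingHom c : ↥(modularFunctionFieldBar (N' * q))) :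
      LaurentSeries Qb) = qExpand Qb q (c : LaurentSeries Qb) := coe_heckeBetaBar N' q c
  rw [h1, h2]
  have hc : (c : LaurentSeries Qb) ∈ modularFunctionFieldFullC Qb (N' * q) :=
    full_degeneracyC_le Qb (dvd_mul_right N' q) (S18G_bar_le N' c.2)
  show S34V0_wL (RingHom.id Qb) q N' (N' * q) hq hqN hN (c : LaurentSeries Qb) = _
  rw [S34V0_wL_of_mem _ q N' (N' * q) hq hqN hN hc]
  exact S34V0_w_level _ q N' (N' * q) hq hqN hN ⟨_, hc⟩ (S18G_bar_le N' c.2)

/-- **(NB3)** the norm along `β` is the norm along `α` after `w`. -/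
theorem S35NBK_norm_beta (x : ↥(modularFunctionFieldBar (N' * q))) :
    (letI := algebraAlong (heckeBetaBar Qb N' q)
     Algebra.norm ↥(modularFunctionFieldBar N') x) =
    (letI := algebraAlong (heckeAlphaBar Qb N' q)
     Algebra.norm ↥(modularFunctionFieldBar N') (S35NBK_wbar N' q hq hqN hN x)) := by
  have h := S35NB_norm_twist (heckeAlphaBar Qb N' q).toRingHom (heckeBetaBar Qb N' q).toRingHom
    (S35NBK_wbar N' q hq hqN hN) (S35NBK_wbar_alpha N' q hq hqN hN)
    (S35NBK_wbar N' q hq hqN hN x)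
  rw [S35NBK_wbar_wbar] at h
  exact h

end Beta

/-! ### The bridge -/

section Main

open Fermat.Agent.S34_helper20_WQ Fermat.Agent.S34_helper20_V0 Fermat.Agent.S18_helper25_GLUE
  Fermat.Agent.S24 Fermat.Agent.S18_helper25_COREDefs
  Fermat.Agent.S34_helper13_KEY Fermat.Agent.S34_helper27_V3K Fermat.Agent.S34_helper20_V0K

/-- a function over `ℚ̄` without zeros and poles is a constant -/
theorem S35NBK_const (N : ℕ) [NeZero N] :
    ∀ x : modularFunctionFieldBar N, x ≠ 0 →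
      (∀ P : Place Qb (modularFunctionFieldBar N), P.ord x = 0) →
      ∃ c : Qb, x = algebraMap Qb (modularFunctionFieldBar N) c := by
  have h := Fermat.Agent.S18_helper26_CONST.S18P15_const_unfolded Qb N
  have e := S18G_bar_eq N
  exact e ▸ h

/-- the norm formula along any `ℚ̄`-embedding of `F̄(N')` into `F̄(N' q)` -/
theorem S35NBK_normFormula (N' q : ℕ) [NeZero N'] [NeZero q] [NeZero (N' * q)]
    (φ : modularFunctionFieldBar N' →ₐ[Qb] modularFunctionFieldBar (N' * q))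
    (hfin : FiniteAlong Qb φ) : NormFormulaAlong Qb φ hfin := by
  haveI := Fermat.Agent.S37_helper21_B0c.S37B0_hasPrincipalDivisors (N' * q)
  haveI : FiniteDimensional Qb⟮jElt N'⟯ (modularFunctionFieldBar N') :=
    (Fermat.Agent.S24_helper23_DEG.DEG N').1
  exact Fermat.Agent.S37_helper11_NORM.S37B0_normFormulaAlong Qb _ _ φ hfin (jElt N')
    (Fermat.Agent.S24_helper23_GEN.TR N')

variable (N' q : ℕ) [NeZero N'] [NeZero q] [NeZero (N' * q)]
  (hq : q.Prime) (hqN : ¬ q ∣ N') (hN : N' * q = q * N')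

/-- **NORM-BRIDGE, level `N' q`.**  `D` a divisor on `X₀(N' q)` over `ℚ̄` with `div f = n • D`
whose two push-forwards to `X₀(N')` are principal: there are `hA`, `hB` of level `N'` over `ℚ̄`
such that over EVERY field of constants `K1` over which `f`, `hA`, `hB` are defined, the norm of
`f` is `hA ^ n` and the norm of `w f` is `hB ^ n`. -/
theorem S35NBK_main_mul (n : ℕ) (hn : 0 < n)
    (hα : HeckeAlphaBarIntegral Qb N' q) (hβ : HeckeBetaBarIntegral Qb N' q)
    (D : Divisor Qb (modularFunctionFieldBar (N' * q)))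
    (f : modularFunctionFieldBar (N' * q)) (hf : f ≠ 0)
    (hord : ∀ P : Place Qb (modularFunctionFieldBar (N' * q)), P.ord f = (n : ℤ) * D P)
    (hprα : (Divisor.pushforwardAlong (heckeAlphaBar Qb N' q) hα D).IsPrincipal)
    (hprβ : (Divisor.pushforwardAlong (heckeBetaBar Qb N' q) hβ D).IsPrincipal) :
    ∃ hA hB : LaurentSeries Qb,
      hA ∈ modularFunctionFieldFullC Qb N' ∧ hA ≠ 0 ∧
      hB ∈ modularFunctionFieldFullC Qb N' ∧ hB ≠ 0 ∧
      ∀ (K1 : IntermediateField ℚ Qb) (f1 h1 h2 : LaurentSeries K1)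
        (hf1 : f1 ∈ modularFunctionFieldFullC K1 (N' * q)),
        coeffMap (algebraMap K1 Qb) f1 = (f : LaurentSeries Qb) →
        h1 ∈ modularFunctionFieldFullC K1 N' → coeffMap (algebraMap K1 Qb) h1 = hA →
        h2 ∈ modularFunctionFieldFullC K1 N' → coeffMap (algebraMap K1 Qb) h2 = hB →
        letI := S34KEY_alg (S34V3K_F1_mono K1 (S34V0K_dvd hN))
        ((Algebra.norm ↥(S18K_F1 K1 N') (⟨f1, hf1⟩ : ↥(S18K_F1 K1 (N' * q))) :
          ↥(S18K_F1 K1 N')) : LaurentSeries K1) = h1 ^ n ∧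
        ((Algebra.norm ↥(S18K_F1 K1 N')
          (⟨S34V0_wL (S34V0K_emb K1) q N' (N' * q) hq hqN hN f1,
            S34V0_wL_mem _ q N' (N' * q) hq hqN hN f1⟩ : ↥(S18K_F1 K1 (N' * q))) :
          ↥(S18K_F1 K1 N')) : LaurentSeries K1) = h2 ^ n := by
  obtain ⟨hA, hA0, eA⟩ := S35NBK_norm_pow (heckeAlphaBar Qb N' q) hα
    (Fermat.Agent.S37_helper21_B0c.S37B0_finiteAlong_alpha N' q)
    (S35NBK_normFormula N' q _ _) (S35NBK_const N') n hn D f hf hord hprα
  obtain ⟨hB, hB0, eB⟩ := S35NBK_norm_pow (heckeBetaBar Qb N' q) hβ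
    (Fermat.Agent.S37_helper21_B0c.S37B0_finiteAlong_beta N' q)
    (S35NBK_normFormula N' q _ _) (S35NBK_const N') n hn D f hf hord hprβ
  rw [S35NBK_norm_beta N' q hq hqN hN] at eB
  refine ⟨hA, hB, S18G_bar_le N' hA.2, fun h => hA0 (Subtype.ext h), S18G_bar_le N' hB.2,
    fun h => hB0 (Subtype.ext h), ?_⟩
  intro K1 f1 h1 h2 hf1 ef hh1 e1 hh2 e2
  letI := S34KEY_alg (S34V3K_F1_mono K1 (S34V0K_dvd hN))
  constructor
  · apply S18G_coeffMap_injective (algebraMap K1 Qb)
    rw [map_pow, e1]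
    have h := S35NBK_desc_mul K1 N' q hq hqN hN ⟨f1, hf1⟩
    have hinc : S35NBK_inc K1 (N' * q) ⟨f1, hf1⟩ = f := Subtype.ext ef
    rw [hinc, eA] at h
    have h' := congrArg (fun z : ↥(modularFunctionFieldBar N') => (z : LaurentSeries Qb)) h
    exact h'.symm
  · apply S18G_coeffMap_injective (algebraMap K1 Qb)
    rw [map_pow, e2]
    have h := S35NBK_desc_mul K1 N' q hq hqN hN
      ⟨S34V0_wL (S34V0K_emb K1) q N' (N' * q) hq hqN hN f1,
        S34V0_wL_mem _ q N' (N' * q) hq hqN hN f1⟩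
    have hinc : S35NBK_inc K1 (N' * q)
        ⟨S34V0_wL (S34V0K_emb K1) q N' (N' * q) hq hqN hN f1,
          S34V0_wL_mem _ q N' (N' * q) hq hqN hN f1⟩ = S35NBK_wbar N' q hq hqN hN f := by
      apply Subtype.ext
      rw [S35NBK_inc_coe, S35NBK_wbar_coe, ← ef]
      exact S35NBK_wL_coeffMap (S34V0K_emb K1) (RingHom.id Qb) (algebraMap K1 Qb) q N' (N' * q)
        hq hqN hN hf1
    rw [hinc, eB] at h
    have h' := congrArg (fun z : ↥(modularFunctionFieldBar N') => (z : LaurentSeries Qb)) h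
    exact h'.symm

end Main

/-! ### The bridge for a general name of the level, and in the consumers' shapes -/

section Final

open Fermat.Agent.S34_helper20_WQ Fermat.Agent.S34_helper20_V0 Fermat.Agent.S18_helper25_GLUE
  Fermat.Agent.S24 Fermat.Agent.S18_helper25_COREDefs
  Fermat.Agent.S34_helper13_KEY Fermat.Agent.S34_helper27_V3K Fermat.Agent.S34_helper20_V0K

variable (q N' N : ℕ) [NeZero N'] [NeZero N] [NeZero q]
  (hq : q.Prime) (hqN : ¬ q ∣ N') (hN : N = q * N')

/-- **NORM-BRIDGE.**  The level over `ℚ̄` is `N' * q` (the codomain of `heckeAlphaBar`), the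
level over `K1` is any `N` with `N = q * N'` (the binders of `S35NRK_main` / `S35RN_main` /
`S35TOR_main`). -/
theorem S35NBK_main (n : ℕ) (hn : 0 < n)
    (hα : HeckeAlphaBarIntegral Qb N' q) (hβ : HeckeBetaBarIntegral Qb N' q)
    (D : Divisor Qb (modularFunctionFieldBar (N' * q)))
    (f : modularFunctionFieldBar (N' * q)) (hf : f ≠ 0)
    (hord : ∀ P : Place Qb (modularFunctionFieldBar (N' * q)), P.ord f = (n : ℤ) * D P)
    (hprα : (Divisor.pushforwardAlong (heckeAlphaBar Qb N' q) hα D).IsPrincipal)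
    (hprβ : (Divisor.pushforwardAlong (heckeBetaBar Qb N' q) hβ D).IsPrincipal) :
    ∃ hA hB : LaurentSeries Qb,
      hA ∈ modularFunctionFieldFullC Qb N' ∧ hA ≠ 0 ∧
      hB ∈ modularFunctionFieldFullC Qb N' ∧ hB ≠ 0 ∧
      ∀ (K1 : IntermediateField ℚ Qb) (f1 h1 h2 : LaurentSeries K1)
        (hf1 : f1 ∈ modularFunctionFieldFullC K1 N),
        coeffMap (algebraMap K1 Qb) f1 = (f : LaurentSeries Qb) →
        h1 ∈ modularFunctionFieldFullC K1 N' → coeffMap (algebraMap K1 Qb) h1 = hA →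
        h2 ∈ modularFunctionFieldFullC K1 N' → coeffMap (algebraMap K1 Qb) h2 = hB →
        letI := S34KEY_alg (S34V3K_F1_mono K1 (S34V0K_dvd hN))
        ((Algebra.norm ↥(S18K_F1 K1 N') (⟨f1, hf1⟩ : ↥(S18K_F1 K1 N)) :
          ↥(S18K_F1 K1 N')) : LaurentSeries K1) = h1 ^ n ∧
        ((Algebra.norm ↥(S18K_F1 K1 N')
          (⟨S34V0_wL (S34V0K_emb K1) q N' N hq hqN hN f1,
            S34V0_wL_mem _ q N' N hq hqN hN f1⟩ : ↥(S18K_F1 K1 N)) :
          ↥(S18K_F1 K1 N')) : LaurentSeries K1) = h2 ^ n := by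
  obtain rfl : N = N' * q := by rw [hN, mul_comm]
  exact S35NBK_main_mul N' q hq hqN hN n hn hα hβ D f hf hord hprα hprβ

/-- **NORM-BRIDGE, with the level chosen by the consumer**: a finite set `S` of constants such
that over every `K1 ⊇ S` the two norms of every `K1`-form `f1` of `f` are `n`-th powers of
nonzero functions of level `N'` over `K1` - the hypotheses `hα`, `hβ` of `S35RN_main`
(helper15) with the constants `c₁ = c₂ = 1`. -/
theorem S35NBK_finset (n : ℕ) (hn : 0 < n)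
    (hα : HeckeAlphaBarIntegral Qb N' q) (hβ : HeckeBetaBarIntegral Qb N' q)
    (D : Divisor Qb (modularFunctionFieldBar (N' * q)))
    (f : modularFunctionFieldBar (N' * q)) (hf : f ≠ 0)
    (hord : ∀ P : Place Qb (modularFunctionFieldBar (N' * q)), P.ord f = (n : ℤ) * D P)
    (hprα : (Divisor.pushforwardAlong (heckeAlphaBar Qb N' q) hα D).IsPrincipal)
    (hprβ : (Divisor.pushforwardAlong (heckeBetaBar Qb N' q) hβ D).IsPrincipal) :
    ∃ S : Finset Qb, ∀ (K1 : IntermediateField ℚ Qb), (∀ s ∈ S, s ∈ K1) →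
      ∀ (f1 : LaurentSeries K1) (hf1 : f1 ∈ modularFunctionFieldFullC K1 N),
        coeffMap (algebraMap K1 Qb) f1 = (f : LaurentSeries Qb) →
        letI := S34KEY_alg (S34V3K_F1_mono K1 (S34V0K_dvd hN))
        (∃ c₁ : K1, c₁ ≠ 0 ∧ ∃ h₁ ∈ modularFunctionFieldFullC K1 N', h₁ ≠ 0 ∧
          ((Algebra.norm ↥(S18K_F1 K1 N') (⟨f1, hf1⟩ : ↥(S18K_F1 K1 N)) :
            ↥(S18K_F1 K1 N')) : LaurentSeries K1) = HahnSeries.C c₁ * h₁ ^ n) ∧
        (∃ c₂ : K1, c₂ ≠ 0 ∧ ∃ h₂ ∈ modularFunctionFieldFullC K1 N', h₂ ≠ 0 ∧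
          ((Algebra.norm ↥(S18K_F1 K1 N')
            (⟨S34V0_wL (S34V0K_emb K1) q N' N hq hqN hN f1,
              S34V0_wL_mem _ q N' N hq hqN hN f1⟩ : ↥(S18K_F1 K1 N)) :
            ↥(S18K_F1 K1 N')) : LaurentSeries K1) = HahnSeries.C c₂ * h₂ ^ n) := by
  classical
  obtain ⟨hA, hB, hAF, hA0, hBF, hB0, H⟩ :=
    S35NBK_main q N' N hq hqN hN n hn hα hβ D f hf hord hprα hprβ
  obtain ⟨S₁, hS₁⟩ := S18G_exists_finset (k₀ := ℚ) N' hAF
  obtain ⟨S₂, hS₂⟩ := S18G_exists_finset (k₀ := ℚ) N' hBF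
  refine ⟨S₁ ∪ S₂, fun K1 hK f1 hf1 ef => ?_⟩
  obtain ⟨h1, hh1, e1⟩ := hS₁ K1 (fun s hs => hK s (Finset.mem_union_left _ hs))
  obtain ⟨h2, hh2, e2⟩ := hS₂ K1 (fun s hs => hK s (Finset.mem_union_right _ hs))
  obtain ⟨E1, E2⟩ := H K1 f1 h1 h2 hf1 ef hh1 e1 hh2 e2
  have h10 : h1 ≠ 0 := by
    rintro rfl
    rw [map_zero] at e1
    exact hA0 e1.symm
  have h20 : h2 ≠ 0 := by
    rintro rfl
    rw [map_zero] at e2
    exact hB0 e2.symm
  refine ⟨⟨1, one_ne_zero, h1, hh1, h10, ?_⟩, ⟨1, one_ne_zero, h2, hh2, h20, ?_⟩⟩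
  · rw [E1, map_one, one_mul]
  · rw [E2, map_one, one_mul]

end Final

end Fermat.Agent.S35_helper20_NORMBK
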