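import Fermat.Agent.S35_helper20_NORMBK
import Fermat.Agent.S35_helper4_K1Defs
import Fermat.Agent.S35_helper19_KEYDefs

/-!
# S35, NORM-BRIDGE in the consumers' contract shapes (helper20)

* `S35NBX_bridge` : **helper4's contract `S35XB_NormBridge N' q hq hqN`** (every `n`, also
  `n = 0`; constants allowed);
* `S35NBX_new`    : the same with helper19's `S35KD_New` as conclusion.
-/

set_option autoImplicit false
set_option linter.unusedSectionVars false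
set_option linter.unusedVariables false
set_option linter.style.haveILetI false

open HahnSeries IntermediateField AlgebraicCurve ModularCurve Module
open Fermat.Agent.S35_helper20_NORMB Fermat.Agent.S35_helper20_NORMBK
open Fermat.Agent.S34_helper20_WQ Fermat.Agent.S34_helper20_V0 Fermat.Agent.S18_helper25_GLUE
  Fermat.Agent.S24 Fermat.Agent.S18_helper25_COREDefs
  Fermat.Agent.S34_helper13_KEY Fermat.Agent.S34_helper27_V3K Fermat.Agent.S34_helper20_V0K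
  Fermat.Agent.S35_helper4_K1Defs Fermat.Agent.S35_helper19_KEYDefs

noncomputable section

namespace Fermat.Agent.S35_helper20_NORMBX

local notation "Qb" => AlgebraicClosure ℚ

section Generic

variable {K F F' : Type*} [Field K] [Field F] [Field F'] [Algebra K F] [Algebra K F']

/-- **(NB1) with a constant, every `n`**: if `div f = n • D` and the push-forward of `D` along
`φ` is principal, then the norm of `f` along `φ` is a nonzero constant times an `n`-th power. -/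
theorem S35NBX_norm_pow (φ : F →ₐ[K] F') (hφ : φ.toRingHom.IsIntegral)
    (hfin : FiniteAlong K φ) (hN : NormFormulaAlong K φ hfin)
    (hconst : ∀ x : F, x ≠ 0 → (∀ P : Place K F, P.ord x = 0) → ∃ c : K, x = algebraMap K F c)
    (n : ℕ) (D : Divisor K F') (f : F') (hf : f ≠ 0)
    (hord : ∀ P : Place K F', P.ord f = (n : ℤ) * D P)
    (hpr : (Divisor.pushforwardAlong φ hφ D).IsPrincipal) :
    ∃ c : K, c ≠ 0 ∧ ∃ h : F, h ≠ 0 ∧
      (letI := algebraAlong φ; Algebra.norm F f) = algebraMap K F c * h ^ n := by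
  letI := algebraAlong φ
  haveI := isScalarTower_along φ
  haveI := isIntegral_along φ hφ
  haveI : Module.Finite F F' := hfin
  obtain ⟨h0, hh0, hD⟩ := hpr
  have hN' : Divisor.PushforwardNormFormula K F F' := hN
  have hnorm0 : Algebra.norm F f ≠ 0 := Algebra.norm_ne_zero_iff.mpr hf
  have h1 : ∀ v : Place K F, v.ord (Algebra.norm F f) = (n : ℤ) * v.ord h0 := by
    intro v
    have h2 := hN' f hf (n • D) (fun w => by
      rw [Finsupp.smul_apply, hord w, nsmul_eq_mul]) v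
    rw [← h2, map_nsmul, Finsupp.smul_apply, nsmul_eq_mul]
    congr 1
    exact hD v
  have hpow : ∀ (v : Place K F) (z : F) (m : ℕ), v.ord (z ^ m) = (m : ℤ) * v.ord z := by
    intro v z m
    rw [← zpow_natCast, Place.ord_zpow]
  have hz0 : Algebra.norm F f * (h0 ^ n)⁻¹ ≠ 0 :=
    mul_ne_zero hnorm0 (inv_ne_zero (pow_ne_zero _ hh0))
  obtain ⟨c, hc⟩ := hconst _ hz0 (fun v => by
    rw [Place.ord_mul v hnorm0 (inv_ne_zero (pow_ne_zero _ hh0)), Place.ord_inv, hpow, h1]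
    ring)
  have hc0 : c ≠ 0 := by
    rintro rfl
    rw [map_zero] at hc
    exact hz0 hc
  refine ⟨c, hc0, h0, hh0, ?_⟩
  rw [← hc]
  field_simp

end Generic

section Main

variable (N' q : ℕ) [NeZero N'] [NeZero q] [NeZero (N' * q)]
  (hq : q.Prime) (hqN : ¬ q ∣ N')

/-- **NORM-BRIDGE with constants, every `n`** (level `N' * q`, `hN := Nat.mul_comm N' q`). -/
theorem S35NBX_main (n : ℕ)
    (hα : HeckeAlphaBarIntegral Qb N' q) (hβ : HeckeBetaBarIntegral Qb N' q)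
    (D : Divisor Qb (modularFunctionFieldBar (N' * q)))
    (f : modularFunctionFieldBar (N' * q)) (hf : f ≠ 0)
    (hord : ∀ P : Place Qb (modularFunctionFieldBar (N' * q)), P.ord f = (n : ℤ) * D P)
    (hprα : (Divisor.pushforwardAlong (heckeAlphaBar Qb N' q) hα D).IsPrincipal)
    (hprβ : (Divisor.pushforwardAlong (heckeBetaBar Qb N' q) hβ D).IsPrincipal) :
    ∃ (cA cB : Qb) (hA hB : LaurentSeries Qb), cA ≠ 0 ∧ cB ≠ 0 ∧
      hA ∈ modularFunctionFieldFullC Qb N' ∧ hA ≠ 0 ∧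
      hB ∈ modularFunctionFieldFullC Qb N' ∧ hB ≠ 0 ∧
      ∀ (K1 : IntermediateField ℚ Qb) (hcA : cA ∈ K1) (hcB : cB ∈ K1)
        (f1 h1 h2 : LaurentSeries K1)
        (hf1 : f1 ∈ modularFunctionFieldFullC K1 (N' * q)),
        coeffMap (algebraMap K1 Qb) f1 = (f : LaurentSeries Qb) →
        h1 ∈ modularFunctionFieldFullC K1 N' → coeffMap (algebraMap K1 Qb) h1 = hA →
        h2 ∈ modularFunctionFieldFullC K1 N' → coeffMap (algebraMap K1 Qb) h2 = hB →
        letI := S34KEY_alg (S34V3K_F1_mono K1 (S34V0K_dvd (Nat.mul_comm N' q)))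
        ((Algebra.norm ↥(S18K_F1 K1 N') (⟨f1, hf1⟩ : ↥(S18K_F1 K1 (N' * q))) :
          ↥(S18K_F1 K1 N')) : LaurentSeries K1) =
            HahnSeries.C (⟨cA, hcA⟩ : K1) * h1 ^ n ∧
        ((Algebra.norm ↥(S18K_F1 K1 N')
          (⟨S34V0_wL (S34V0K_emb K1) q N' (N' * q) hq hqN (Nat.mul_comm N' q) f1,
            S34V0_wL_mem _ q N' (N' * q) hq hqN (Nat.mul_comm N' q) f1⟩ :
              ↥(S18K_F1 K1 (N' * q))) :
          ↥(S18K_F1 K1 N')) : LaurentSeries K1) =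
            HahnSeries.C (⟨cB, hcB⟩ : K1) * h2 ^ n := by
  obtain ⟨cA, hcA0, hA, hA0, eA⟩ := S35NBX_norm_pow (heckeAlphaBar Qb N' q) hα
    (Fermat.Agent.S37_helper21_B0c.S37B0_finiteAlong_alpha N' q)
    (S35NBK_normFormula N' q _ _) (S35NBK_const N') n D f hf hord hprα
  obtain ⟨cB, hcB0, hB, hB0, eB⟩ := S35NBX_norm_pow (heckeBetaBar Qb N' q) hβ
    (Fermat.Agent.S37_helper21_B0c.S37B0_finiteAlong_beta N' q)
    (S35NBK_normFormula N' q _ _) (S35NBK_const N') n D f hf hord hprβ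
  rw [S35NBK_norm_beta N' q hq hqN (Nat.mul_comm N' q)] at eB
  refine ⟨cA, cB, hA, hB, hcA0, hcB0, S18G_bar_le N' hA.2, fun h => hA0 (Subtype.ext h),
    S18G_bar_le N' hB.2, fun h => hB0 (Subtype.ext h), ?_⟩
  intro K1 hcA hcB f1 h1 h2 hf1 ef hh1 e1 hh2 e2
  letI := S34KEY_alg (S34V3K_F1_mono K1 (S34V0K_dvd (Nat.mul_comm N' q)))
  have hC : ∀ (c : Qb) (hc : c ∈ K1),
      coeffMap (algebraMap K1 Qb) (HahnSeries.C (⟨c, hc⟩ : K1)) =
        ((algebraMap Qb (modularFunctionFieldBar N') c : modularFunctionFieldBar N') :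
          LaurentSeries Qb) := by
    intro c hc
    rw [S35NBK_coeffMap_C]
    show HahnSeries.C c = algebraMap Qb (LaurentSeries Qb) c
    rw [algebraMap_laurentSeries_eq_single, HahnSeries.C_apply]
  constructor
  · apply S18G_coeffMap_injective (algebraMap K1 Qb)
    rw [map_mul, map_pow, e1, hC cA hcA]
    have h := S35NBK_desc_mul K1 N' q hq hqN (Nat.mul_comm N' q) ⟨f1, hf1⟩
    have hinc : S35NBK_inc K1 (N' * q) ⟨f1, hf1⟩ = f := Subtype.ext ef
    rw [hinc, eA] at h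
    have h' := congrArg (fun z : ↥(modularFunctionFieldBar N') => (z : LaurentSeries Qb)) h
    exact h'.symm
  · apply S18G_coeffMap_injective (algebraMap K1 Qb)
    rw [map_mul, map_pow, e2, hC cB hcB]
    have h := S35NBK_desc_mul K1 N' q hq hqN (Nat.mul_comm N' q)
      ⟨S34V0_wL (S34V0K_emb K1) q N' (N' * q) hq hqN (Nat.mul_comm N' q) f1,
        S34V0_wL_mem _ q N' (N' * q) hq hqN (Nat.mul_comm N' q) f1⟩
    have hinc : S35NBK_inc K1 (N' * q)
        ⟨S34V0_wL (S34V0K_emb K1) q N' (N' * q) hq hqN (Nat.mul_comm N' q) f1,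
          S34V0_wL_mem _ q N' (N' * q) hq hqN (Nat.mul_comm N' q) f1⟩ =
        S35NBK_wbar N' q hq hqN (Nat.mul_comm N' q) f := by
      apply Subtype.ext
      rw [S35NBK_inc_coe, S35NBK_wbar_coe, ← ef]
      exact S35NBK_wL_coeffMap (S34V0K_emb K1) (RingHom.id Qb) (algebraMap K1 Qb) q N' (N' * q)
        hq hqN (Nat.mul_comm N' q) hf1
    rw [hinc, eB] at h
    have h' := congrArg (fun z : ↥(modularFunctionFieldBar N') => (z : LaurentSeries Qb)) h
    exact h'.symm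

/-- the finite-set form of `S35NBX_main` -/
theorem S35NBX_finset (n : ℕ)
    (hα : HeckeAlphaBarIntegral Qb N' q) (hβ : HeckeBetaBarIntegral Qb N' q)
    (D : Divisor Qb (modularFunctionFieldBar (N' * q)))
    (f : modularFunctionFieldBar (N' * q)) (hf : f ≠ 0)
    (hord : ∀ P : Place Qb (modularFunctionFieldBar (N' * q)), P.ord f = (n : ℤ) * D P)
    (hprα : (Divisor.pushforwardAlong (heckeAlphaBar Qb N' q) hα D).IsPrincipal)
    (hprβ : (Divisor.pushforwardAlong (heckeBetaBar Qb N' q) hβ D).IsPrincipal) :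
    ∃ S : Finset Qb, ∀ (K1 : IntermediateField ℚ Qb), (∀ s ∈ S, s ∈ K1) →
      ∀ (f1 : LaurentSeries K1) (hf1 : f1 ∈ modularFunctionFieldFullC K1 (N' * q)),
        coeffMap (algebraMap K1 Qb) f1 = (f : LaurentSeries Qb) →
        letI := S34KEY_alg (S34V3K_F1_mono K1 (S34V0K_dvd (Nat.mul_comm N' q)))
        (∃ c₁ : K1, c₁ ≠ 0 ∧ ∃ h₁ ∈ modularFunctionFieldFullC K1 N', h₁ ≠ 0 ∧
          ((Algebra.norm ↥(S18K_F1 K1 N') (⟨f1, hf1⟩ : ↥(S18K_F1 K1 (N' * q))) :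
            ↥(S18K_F1 K1 N')) : LaurentSeries K1) = HahnSeries.C c₁ * h₁ ^ n) ∧
        (∃ c₂ : K1, c₂ ≠ 0 ∧ ∃ h₂ ∈ modularFunctionFieldFullC K1 N', h₂ ≠ 0 ∧
          ((Algebra.norm ↥(S18K_F1 K1 N')
            (⟨S34V0_wL (S34V0K_emb K1) q N' (N' * q) hq hqN (Nat.mul_comm N' q) f1,
              S34V0_wL_mem _ q N' (N' * q) hq hqN (Nat.mul_comm N' q) f1⟩ :
                ↥(S18K_F1 K1 (N' * q))) :
            ↥(S18K_F1 K1 N')) : LaurentSeries K1) = HahnSeries.C c₂ * h₂ ^ n) := by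
  classical
  obtain ⟨cA, cB, hA, hB, hcA0, hcB0, hAF, hA0, hBF, hB0, H⟩ :=
    S35NBX_main N' q hq hqN n hα hβ D f hf hord hprα hprβ
  obtain ⟨S₁, hS₁⟩ := S18G_exists_finset (k₀ := ℚ) N' hAF
  obtain ⟨S₂, hS₂⟩ := S18G_exists_finset (k₀ := ℚ) N' hBF
  refine ⟨S₁ ∪ S₂ ∪ {cA, cB}, fun K1 hK f1 hf1 ef => ?_⟩
  obtain ⟨h1, hh1, e1⟩ := hS₁ K1 (fun s hs => hK s (by simp [hs]))
  obtain ⟨h2, hh2, e2⟩ := hS₂ K1 (fun s hs => hK s (by simp [hs]))
  have hcA : cA ∈ K1 := hK cA (by simp)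
  have hcB : cB ∈ K1 := hK cB (by simp)
  obtain ⟨E1, E2⟩ := H K1 hcA hcB f1 h1 h2 hf1 ef hh1 e1 hh2 e2
  have h10 : h1 ≠ 0 := by
    rintro rfl
    rw [map_zero] at e1
    exact hA0 e1.symm
  have h20 : h2 ≠ 0 := by
    rintro rfl
    rw [map_zero] at e2
    exact hB0 e2.symm
  refine ⟨⟨⟨cA, hcA⟩, fun h => hcA0 (congrArg Subtype.val h), h1, hh1, h10, E1⟩,
    ⟨⟨cB, hcB⟩, fun h => hcB0 (congrArg Subtype.val h), h2, hh2, h20, E2⟩⟩

/-- **helper4's contract `S35XB_NormBridge`.** -/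
theorem S35NBX_bridge : S35XB_NormBridge N' q hq hqN := by
  intro n D f hf hord hprα hprβ
  obtain ⟨S, hS⟩ := S35NBX_finset N' q hq hqN n _ _ D f hf hord hprα hprβ
  refine ⟨S, fun K1 hK f0 hf0 ef => ?_⟩
  obtain ⟨⟨c₁, hc₁, h₁, hh₁, h₁0, E1⟩, ⟨c₂, hc₂, h₂, hh₂, h₂0, E2⟩⟩ := hS K1 hK f0 hf0 ef
  exact ⟨⟨c₁, hc₁, h₁, hh₁, h₁0, E1⟩, ⟨c₂, hc₂, h₂, hh₂, h₂0, E2⟩⟩

/-- **helper19's `S35KD_New`** at every level containing a finite set. -/
theorem S35NBX_new (n : ℕ)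
    (hα : HeckeAlphaBarIntegral Qb N' q) (hβ : HeckeBetaBarIntegral Qb N' q)
    (D : Divisor Qb (modularFunctionFieldBar (N' * q)))
    (f : modularFunctionFieldBar (N' * q)) (hf : f ≠ 0)
    (hord : ∀ P : Place Qb (modularFunctionFieldBar (N' * q)), P.ord f = (n : ℤ) * D P)
    (hprα : (Divisor.pushforwardAlong (heckeAlphaBar Qb N' q) hα D).IsPrincipal)
    (hprβ : (Divisor.pushforwardAlong (heckeBetaBar Qb N' q) hβ D).IsPrincipal) :
    ∃ S : Finset Qb, ∀ (K1 : IntermediateField ℚ Qb), (∀ s ∈ S, s ∈ K1) →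
      ∀ (f1 : LaurentSeries K1), f1 ∈ modularFunctionFieldFullC K1 (N' * q) →
        coeffMap (algebraMap K1 Qb) f1 = (f : LaurentSeries Qb) →
        S35KD_New K1 hq N' hqN n f1 := by
  obtain ⟨S, hS⟩ := S35NBX_finset N' q hq hqN n hα hβ D f hf hord hprα hprβ
  refine ⟨S, fun K1 hK f1 hf1 ef => ?_⟩
  obtain ⟨⟨c₁, hc₁, h₁, hh₁, h₁0, E1⟩, ⟨c₂, hc₂, h₂, hh₂, h₂0, E2⟩⟩ := hS K1 hK f1 hf1 ef
  exact ⟨⟨hf1, c₁, hc₁, h₁, hh₁, h₁0, E1⟩,
    ⟨S34V0_wL_mem _ q N' (N' * q) hq hqN (Nat.mul_comm N' q) f1, c₂, hc₂, h₂, hh₂, h₂0, E2⟩⟩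

end Main

end Fermat.Agent.S35_helper20_NORMBX
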