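import Fermat.Agent.S35_helper24_P6E
import Fermat.Agent.S35_helper23_TFA
import Fermat.Agent.S35_helper12_TFB
import Fermat.Agent.S35_helper6_PUSHBC

/-!
# S35, block (P6), the final plug (helper23, P6 lead)

`S35P6FIN_main` is the hypothesis `hP6` of helper12's `S35ENDK_frozen` (= of helper27's
`S35FINAL1_of_key`) VERBATIM, with no hypothesis left:

* `S35TF_alpha`     (helper23) : `Θ`-functoriality along `α`;
* `S35TFB_of_TFA`   (helper12) : `Θ`-functoriality along `β` from the one along `α`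
                                 (Atkin-Lehner `w` over `ℂ`, helper10 W2, helper18 W4G);
* `S35PB_alpha/_beta` (helper6) : the push-forwards commute with the base change `ℚ̄ → ℂ`;
* `S35P6E_main`     (helper24) : the assembly (eigenlattice, helper5 P6C, helper18 EIGF,
                                 helper24 SMO, Eichler-Shimura at both levels).
-/

set_option autoImplicit false

open Fermat.Agent.S35_helper24_P6E Fermat.Agent.S35_helper23_TFA Fermat.Agent.S35_helper12_TFB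
  Fermat.Agent.S35_helper6_PUSHBC Fermat.Agent.S35_helper12_ENDK
  Fermat.Agent.S35_helper23_P6Defs

namespace Fermat.Agent.S35_helper23_P6FIN

/-- `Θ`-functoriality along `β`, no hypothesis left. -/
theorem S35P6FIN_beta (N ℓ : ℕ) [NeZero N] [NeZero ℓ] (hℓ : ℓ.Prime) (hℓN : ¬ ℓ ∣ N) :
    S35P6_TFB N ℓ :=
  S35TFB_of_TFA N ℓ hℓ hℓN (S35TF_alpha N ℓ hℓ hℓN)

/-- **(P6)**: the hypothesis `hP6` of `S35ENDK_frozen`, verbatim, with no hypothesis left. -/
theorem S35P6FIN_main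
    (N' q : ℕ) [NeZero N'] [NeZero q] [NeZero (N' * q)] (hq : q.Prime) (hqN : ¬ q ∣ N')
    {g : CuspForm (CongruenceSubgroup.Gamma0 (N' * q)) 2} (hg : g.IsNewform)
    (lam : ℕ) [Fact lam.Prime] (hqlam : q ≠ lam) (S : Finset ℕ)
    (O' : Type) [CommRing O'] [IsDomain O'] [IsDiscreteValuationRing O']
    [IsAdicComplete (IsLocalRing.maximalIdeal O') O'] [Finite (IsLocalRing.ResidueField O')]
    [CharZero O'] (hlamO' : (lam : O') ∈ IsLocalRing.maximalIdeal O')
    (chig : CuspForm.heckeAlgebra (N' * q) 2 (↑S : Set ℕ) →+* ℂ)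
    (hchig : ∀ (ℓ : ℕ) (hℓ : ℓ.Prime) (hℓM : ¬ ℓ ∣ N' * q) (hℓS : ℓ ∉ (↑S : Set ℕ)),
      chig (CuspForm.heckeAlgebra.T hℓ hℓM hℓS) = ModularFormClass.qCoeff g ℓ)
    (iota : chig.range →+* O')
    (hlamS : lam ∈ S) (hMS : ∀ r : ℕ, r.Prime → r ∣ N' * q → r ∈ S) :
    S35ENDK_P6At N' q lam S O' hlamO' (iota.comp chig.rangeRestrict) :=
  S35P6E_main (fun N ℓ _ _ hℓ hℓN => S35TF_alpha N ℓ hℓ hℓN)
    (fun N ℓ _ _ hℓ hℓN => S35P6FIN_beta N ℓ hℓ hℓN)
    (fun N ℓ _ _ x => S35PB_alpha ℂ N ℓ x)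
    (fun N ℓ _ _ x => S35PB_beta ℂ N ℓ x)
    N' q hq hqN hg lam hqlam S O' hlamO' chig hchig iota hlamS hMS

end Fermat.Agent.S35_helper23_P6FIN
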