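import Fermat.Agent.S35_helper24_SMOA
import Fermat.Agent.G_helper29_FINAL
import Fermat.Agent.S54_Frob

/-!
# S35, piece (P6)[d] "SMO" (helper24): unconditional form

Two normalised eigenforms `g` (level `M`) and `g'` (level `M'`) whose prime-indexed
`q`-coefficients agree outside a FINITE set `S` of primes agree at every prime `ℓ ∤ M M'`
(`S35SMO_main`).  Hence, for `M' ∣ M`, the good eigensystem of `g` occurs at level `M'`
(`S35SMO_occurs`), which is impossible for a newform `g` and `M' ≠ M` (`S35SMO_new`).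

The three inputs of the abstract core `S35_helper24_SMOA` are landed theorems:
the residual representations of Project G (`PGF_S29`), Frobenius density
(`PG_frobenius_density`) and the existence of Frobenius lifts (`S54Frob.exists_frobenius`).
-/

set_option autoImplicit false

namespace Fermat.Agent.S35_helper24_SMO

open Fermat.Agent.S35_helper24_SMOA

theorem S35SMO_S29_holds : S35SMO_S29 := by
  intro N g hg p hp k _ _ φ
  obtain ⟨ρ, hρ, -⟩ := Fermat.Agent.G_helper29_FINAL.PGF_S29 hg hp φ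
  exact ⟨ρ, hρ⟩

theorem S35SMO_FD_holds : S35SMO_FD :=
  fun L _ g S => Fermat.Agent.G_helper9_FROBDENS.PG_frobenius_density L g S

theorem S35SMO_Frob_holds : S35SMO_Frob :=
  fun ℓ hℓ => Fermat.Agent.S54Frob.exists_frobenius ℓ hℓ

/-- The prime-indexed coefficients of a normalised eigenform at the primes not dividing the
level are algebraic integers. -/
theorem S35SMO_integral {N : ℕ}
    {g : CuspForm (CongruenceSubgroup.Gamma0 N) 2} (hg : g.IsNormalizedEigenform)
    (ℓ : ℕ) (hℓ : ℓ.Prime) (hℓN : ¬ ℓ ∣ N) :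
    ∃ a : integralClosure ℤ ℂ, (a : ℂ) = ModularFormClass.qCoeff g ℓ :=
  S35SMO_exists_integral S35SMO_S29_holds S35SMO_Frob_holds hg ℓ hℓ hℓN

/-- **SMO**: agreement of the prime coefficients outside a finite set implies agreement at
every prime not dividing the two levels. -/
theorem S35SMO_main {M M' : ℕ}
    {g : CuspForm (CongruenceSubgroup.Gamma0 M) 2} (hg : g.IsNormalizedEigenform)
    {g' : CuspForm (CongruenceSubgroup.Gamma0 M') 2} (hg' : g'.IsNormalizedEigenform)
    (S : Finset ℕ)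
    (h : ∀ ℓ : ℕ, ℓ.Prime → ¬ ℓ ∣ M → ¬ ℓ ∣ M' → ℓ ∉ S →
      ModularFormClass.qCoeff g' ℓ = ModularFormClass.qCoeff g ℓ) :
    ∀ ℓ : ℕ, ℓ.Prime → ¬ ℓ ∣ M → ¬ ℓ ∣ M' →
      ModularFormClass.qCoeff g' ℓ = ModularFormClass.qCoeff g ℓ :=
  S35SMO_main_abs S35SMO_S29_holds S35SMO_FD_holds S35SMO_Frob_holds hg hg' S h

/-- The good eigensystem of `g` occurs at the level `M' ∣ M` of `g'`. -/
theorem S35SMO_occurs {M M' : ℕ} (hM'M : M' ∣ M)
    {g : CuspForm (CongruenceSubgroup.Gamma0 M) 2} (hg : g.IsNormalizedEigenform)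
    {g' : CuspForm (CongruenceSubgroup.Gamma0 M') 2} (hg' : g'.IsNormalizedEigenform)
    (S : Finset ℕ)
    (h : ∀ ℓ : ℕ, ℓ.Prime → ¬ ℓ ∣ M → ℓ ∉ S →
      ModularFormClass.qCoeff g' ℓ = ModularFormClass.qCoeff g ℓ) :
    CuspForm.GoodEigensystemOccursAt g M' :=
  S35SMO_occurs_abs S35SMO_S29_holds S35SMO_FD_holds S35SMO_Frob_holds hM'M hg hg' S h

/-- A newform of level `M` shares its eigenvalues outside a finite set with no normalised
eigenform of a proper divisor level. -/
theorem S35SMO_new {M M' : ℕ}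
    {g : CuspForm (CongruenceSubgroup.Gamma0 M) 2} (hg : g.IsNewform)
    (hM'M : M' ∣ M) (hne : M' ≠ M)
    {g' : CuspForm (CongruenceSubgroup.Gamma0 M') 2} (hg' : g'.IsNormalizedEigenform)
    (S : Finset ℕ) :
    ¬ ∀ ℓ : ℕ, ℓ.Prime → ¬ ℓ ∣ M → ℓ ∉ S →
      ModularFormClass.qCoeff g' ℓ = ModularFormClass.qCoeff g ℓ :=
  S35SMO_new_abs S35SMO_S29_holds S35SMO_FD_holds S35SMO_Frob_holds hg hM'M hne hg' S

end Fermat.Agent.S35_helper24_SMO
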