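import Mathlib
import Fermat.Prelude.Def_FormalHecke_Eigensystem

set_option autoImplicit false

namespace Fermat.Agent.S49

section Formal

variable {R : Type*} [CommRing R]

theorem formal_prime_pow {e a : ℕ → R} (h : FormalHecke.IsEigensystem e a) (p r : ℕ)
    (hp : p.Prime) :
    a (p ^ (r + 2)) = a p * a (p ^ (r + 1)) - e p * a (p ^ r) := by
  have h1 := h.2 p hp (p ^ (r + 1))
  have hdvd : p ∣ p ^ (r + 1) := dvd_pow_self p (Nat.succ_ne_zero r)
  rw [if_pos hdvd] at h1
  have hdiv : p ^ (r + 1) / p = p ^ r := by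
    rw [pow_succ, Nat.mul_div_cancel _ hp.pos]
  rw [hdiv] at h1
  have hpow : p * p ^ (r + 1) = p ^ (r + 2) := by ring
  rw [hpow] at h1
  rw [← h1]
  ring

theorem formal_mul_of_coprime {e a : ℕ → R} (h : FormalHecke.IsEigensystem e a) :
    ∀ m n : ℕ, m.Coprime n → a (m * n) = a m * a n := by
  intro m
  induction m using Nat.strong_induction_on with
  | _ m ih =>
    intro n hmn
    rcases Nat.lt_or_ge m 2 with hm | hm
    · interval_cases m
      · have hn : n = 1 := by simpa using hmn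
        subst hn
        rw [h.1, mul_one, mul_one]
      · rw [one_mul, h.1, one_mul]
    · obtain ⟨ℓ, hℓ, hℓm⟩ := Nat.exists_prime_and_dvd (show m ≠ 1 by omega)
      obtain ⟨m₁, rfl⟩ := hℓm
      have hm₁pos : 0 < m₁ := by
        rcases Nat.eq_zero_or_pos m₁ with h0 | h0
        · subst h0; omega
        · exact h0
      have hm₁lt : m₁ < ℓ * m₁ := by
        have := hℓ.two_le
        nlinarith
      have hcop₁ : m₁.Coprime n := Nat.Coprime.coprime_mul_left hmn
      have hcopℓ : ℓ.Coprime n := Nat.Coprime.coprime_mul_right hmn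
      have hℓn : ¬ ℓ ∣ n := fun hd => by
        have h1 : ℓ ∣ Nat.gcd ℓ n := Nat.dvd_gcd dvd_rfl hd
        rw [Nat.Coprime] at hcopℓ
        rw [hcopℓ] at h1
        exact hℓ.one_lt.ne' (Nat.dvd_one.mp h1)
      have e1 := h.2 ℓ hℓ (m₁ * n)
      have e2 := h.2 ℓ hℓ m₁
      have ih₁ := ih m₁ hm₁lt n hcop₁
      rw [mul_assoc]
      by_cases hd : ℓ ∣ m₁
      · obtain ⟨m₂, rfl⟩ := hd
        have hm₂lt : m₂ < ℓ * (ℓ * m₂) := by
          have := hℓ.two_le
          have hm₂pos : 0 < m₂ := by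
            rcases Nat.eq_zero_or_pos m₂ with h0 | h0
            · subst h0; simp at hm₁pos
            · exact h0
          nlinarith
        have hcop₂ : m₂.Coprime n := Nat.Coprime.coprime_mul_left hcop₁
        have ih₂ := ih m₂ hm₂lt n hcop₂
        have hd1 : ℓ ∣ ℓ * m₂ * n := ⟨m₂ * n, by ring⟩
        have hd2 : ℓ ∣ ℓ * m₂ := Dvd.intro _ rfl
        rw [if_pos hd1] at e1
        rw [if_pos hd2] at e2
        have hq1 : ℓ * m₂ * n / ℓ = m₂ * n := by
          rw [mul_assoc, Nat.mul_div_cancel_left _ hℓ.pos]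
        have hq2 : ℓ * m₂ / ℓ = m₂ := Nat.mul_div_cancel_left _ hℓ.pos
        rw [hq1, ih₂, ih₁] at e1
        rw [hq2] at e2
        have e1' : a (ℓ * (ℓ * m₂ * n)) = a ℓ * (a (ℓ * m₂) * a n) - e ℓ * (a m₂ * a n) := by
          rw [← e1]; ring
        have e2' : a (ℓ * (ℓ * m₂)) = a ℓ * a (ℓ * m₂) - e ℓ * a m₂ := by
          rw [← e2]; ring
        rw [e1', e2']
        ring
      · have hd1 : ¬ ℓ ∣ m₁ * n := fun hdd =>
          (hℓ.dvd_mul.mp hdd).elim hd hℓn
        rw [if_neg hd1, mul_zero, add_zero, ih₁] at e1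
        rw [if_neg hd, mul_zero, add_zero] at e2
        rw [e1, e2]
        ring

end Formal

end Fermat.Agent.S49
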