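import Fermat.Agent.S49_QCoeff
import Fermat.Agent.S49_LinAlg
import Fermat.Agent.S49_Formal

set_option autoImplicit false

open CuspForm CongruenceSubgroup ModularFormClass

namespace Fermat.Agent.S49

noncomputable section

variable {N : ℕ}

local notation "V" => CuspForm (Gamma0 N) 2

def sturmBd (N : ℕ) : ℕ := ((2 : ℤ) * (Gamma0 N).index).toNat / 12

theorem eq_zero_of_qc_le [NeZero N] (f : V) (h : ∀ n ≤ sturmBd N, qCoeff ⇑f n = 0) : f = 0 := by
  have hmf : (ModularFormClass.modularForm f : ModularForm (Gamma0 N) 2) = 0 := by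
    refine ModularForm.sturm_bound_Gamma0 N _ fun n hn ↦ ?_
    have := h n hn
    simpa [qCoeff] using this
  have hcoe : (⇑f : UpperHalfPlane → ℂ) = 0 := by
    have := congrArg (fun F : ModularForm (Gamma0 N) 2 ↦ (⇑F : UpperHalfPlane → ℂ)) hmf
    simpa using this
  exact DFunLike.coe_injective (hcoe.trans (by rfl))

def truncC (N : ℕ) : CuspForm (Gamma0 N) 2 →ₗ[ℂ] (Fin (sturmBd N + 1) → ℂ) where
  toFun f i := qCoeff ⇑f i
  map_add' f g := by
    funext i
    exact qc_add f g i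
  map_smul' c f := by
    funext i
    simp only [Pi.smul_apply, RingHom.id_apply, smul_eq_mul]
    rw [qc_smul]

theorem truncC_injective [NeZero N] : Function.Injective (truncC N) := by
  refine (injective_iff_map_eq_zero _).mpr fun f hf ↦ ?_
  apply eq_zero_of_qc_le
  intro n hn
  exact congrFun hf ⟨n, Nat.lt_succ_of_le hn⟩

theorem finiteDimensional_cusp [NeZero N] : FiniteDimensional ℂ V :=
  FiniteDimensional.of_injective (truncC N) truncC_injective

def IsInt (f : V) : Prop := ∀ n : ℕ, ∃ m : ℤ, qCoeff ⇑f n = (m : ℂ)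

def IsDiv3 (f : V) : Prop := ∀ n : ℕ, ∃ m : ℤ, qCoeff ⇑f n = 3 * (m : ℂ)

theorem isInt_zero : IsInt (0 : V) := fun n => ⟨0, by rw [qc_zero]; simp⟩

theorem IsInt.add {f g : V} (hf : IsInt f) (hg : IsInt g) : IsInt (f + g) := fun n => by
  obtain ⟨a, ha⟩ := hf n
  obtain ⟨b, hb⟩ := hg n
  exact ⟨a + b, by rw [qc_add, ha, hb]; push_cast; ring⟩

theorem IsInt.zsmul {f : V} (c : ℤ) (hf : IsInt f) : IsInt (c • f) := fun n => by
  obtain ⟨a, ha⟩ := hf n
  exact ⟨c * a, by rw [qc_zsmul, ha]; push_cast; ring⟩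

theorem mem_intLattice_iff_isInt (f : V) : f ∈ intLattice N 2 ↔ IsInt f := by
  constructor
  · intro hf
    induction hf using Submodule.span_induction with
    | mem x hx => exact hx
    | zero => exact isInt_zero
    | add x y _ _ hx hy => exact hx.add hy
    | smul c x _ hx => exact hx.zsmul c
  · intro hf
    exact Submodule.subset_span hf

theorem isDiv3_zero : IsDiv3 (0 : V) := fun n => ⟨0, by rw [qc_zero]; simp⟩

theorem IsDiv3.add {f g : V} (hf : IsDiv3 f) (hg : IsDiv3 g) : IsDiv3 (f + g) := fun n => by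
  obtain ⟨a, ha⟩ := hf n
  obtain ⟨b, hb⟩ := hg n
  exact ⟨a + b, by rw [qc_add, ha, hb]; push_cast; ring⟩

theorem IsDiv3.zsmul {f : V} (c : ℤ) (hf : IsDiv3 f) : IsDiv3 (c • f) := fun n => by
  obtain ⟨a, ha⟩ := hf n
  exact ⟨c * a, by rw [qc_zsmul, ha]; push_cast; ring⟩

theorem IsInt.three_zsmul {f : V} (hf : IsInt f) : IsDiv3 ((3 : ℤ) • f) := fun n => by
  obtain ⟨a, ha⟩ := hf n
  exact ⟨a, by rw [qc_zsmul, ha]; push_cast; ring⟩

theorem IsDiv3.exists_eq {f : V} (hf : IsDiv3 f) : ∃ g : V, IsInt g ∧ f = (3 : ℤ) • g := by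
  refine ⟨(3⁻¹ : ℂ) • f, fun n => ?_, ?_⟩
  · obtain ⟨a, ha⟩ := hf n
    exact ⟨a, by rw [qc_smul, ha]; field_simp⟩
  · rw [← Int.cast_smul_eq_zsmul ℂ, smul_smul]
    norm_num

theorem IsInt.hecke [NeZero N] {t : Module.End ℂ V} (ht : t ∈ heckeAlgebra N 2 (∅ : Set ℕ))
    {f : V} (hf : IsInt f) : IsInt (t f) :=
  (mem_intLattice_iff_isInt _).1
    (mem_intLattice_of_mem_heckeAlgebra one_le_two ht ((mem_intLattice_iff_isInt _).2 hf))

theorem IsDiv3.hecke [NeZero N] {t : Module.End ℂ V} (ht : t ∈ heckeAlgebra N 2 (∅ : Set ℕ))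
    {f : V} (hf : IsDiv3 f) : IsDiv3 (t f) := by
  obtain ⟨g, hg, rfl⟩ := hf.exists_eq
  have : t ((3 : ℤ) • g) = (3 : ℤ) • t g := by
    rw [← Int.cast_smul_eq_zsmul ℂ, map_smul, Int.cast_smul_eq_zsmul ℂ]
  rw [this]
  exact (hg.hecke ht).three_zsmul

end

end Fermat.Agent.S49
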