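import Mathlib
import Fermat.Prelude.Def_FormalHecke_Eigensystem
import Fermat.Prelude.Def_FLTPrelim_Modularity
import Fermat.Prelude.Def_ModularForm_HeckeOperatorForms
import Fermat.Prelude.Thm_ModularFormClass_qCoeff_heckeT
import Fermat.Prelude.Thm_ModularFormClass_qCoeff_heckeU
import Fermat.Prelude.Thm_CongruenceSubgroup_one_mem_strictPeriods_Gamma0

set_option autoImplicit false

namespace Fermat.Agent.S49_helper7_Norm

open FormalHecke

section Formal

variable {R : Type*} [CommRing R]

theorem eig_of_not_dvd {e a : ℕ → R} (h : IsEigensystem e a) {l : ℕ} (hl : l.Prime) {n : ℕ}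
    (hn : ¬ l ∣ n) : a (l * n) = a l * a n := by
  have := h.2 l hl n
  rwa [if_neg hn, mul_zero, add_zero] at this

theorem eig_of_dvd {e a : ℕ → R} (h : IsEigensystem e a) {l : ℕ} (hl : l.Prime) (n : ℕ) :
    a (l * (l * n)) = a l * a (l * n) - e l * a n := by
  have := h.2 l hl (l * n)
  rw [if_pos (dvd_mul_right l n), Nat.mul_div_cancel_left n hl.pos] at this
  rw [← this]; ring

theorem mul_of_coprime {e a : ℕ → R} (h : IsEigensystem e a) :
    ∀ m n : ℕ, m.Coprime n → a (m * n) = a m * a n := by
  intro m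
  induction m using Nat.strong_induction_on with
  | _ m ih =>
    intro n hmn
    rcases Nat.lt_or_ge m 2 with hm | hm
    · interval_cases m
      · have : n = 1 := by simpa using hmn
        subst this
        simp [h.1]
      · simp [h.1]
    · obtain ⟨l, hl, m', rfl⟩ : ∃ l : ℕ, l.Prime ∧ ∃ m' : ℕ, m = l * m' := by
        refine ⟨m.minFac, Nat.minFac_prime (by omega), ?_⟩
        exact Nat.minFac_dvd m
      have hm'pos : 0 < m' := by
        rcases Nat.eq_zero_or_pos m' with h0 | h0
        · subst h0; simp at hm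
        · exact h0
      have hm'lt : m' < l * m' := by
        have := hl.two_le
        nlinarith
      have hln : ¬ l ∣ n := by
        intro hdvd
        have : l ∣ Nat.gcd (l * m') n := Nat.dvd_gcd (dvd_mul_right l m') hdvd
        rw [hmn] at this
        exact hl.one_lt.ne' (Nat.dvd_one.mp this)
      have hm'n : m'.Coprime n := Nat.Coprime.coprime_mul_left hmn
      by_cases hlm' : l ∣ m'
      · obtain ⟨m'', rfl⟩ := hlm'
        have hm''pos : 0 < m'' := by
          rcases Nat.eq_zero_or_pos m'' with h0 | h0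
          · subst h0; simp at hm'pos
          · exact h0
        have hm''lt : m'' < l * (l * m'') := by
          have := hl.two_le
          nlinarith
        have hm''n : m''.Coprime n := Nat.Coprime.coprime_mul_left hm'n
        have e1 : l * (l * m'') * n = l * (l * (m'' * n)) := by ring
        rw [e1, eig_of_dvd h hl (m'' * n), eig_of_dvd h hl m'',
          ← mul_assoc l m'' n, ih (l * m'') hm'lt n hm'n, ih m'' hm''lt n hm''n]
        ring
      · have hlm'n : ¬ l ∣ m' * n := by
          intro hdvd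
          rcases (Nat.Prime.dvd_mul hl).mp hdvd with h1 | h1
          · exact hlm' h1
          · exact hln h1
        rw [mul_assoc, eig_of_not_dvd h hl hlm'n, eig_of_not_dvd h hl hlm', ih m' hm'lt n hm'n]
        ring

theorem recursive_of_eigensystem (e a : ℕ → R) (h : IsEigensystem e a) : IsRecursive e a := by
  refine ⟨h.1, mul_of_coprime h, ?_⟩
  intro l r hl
  have := eig_of_dvd h hl (l ^ r)
  rw [show l * (l * l ^ r) = l ^ (r + 2) by ring, show l * l ^ r = l ^ (r + 1) by ring] at this
  exact this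

end Formal

end Fermat.Agent.S49_helper7_Norm

namespace Fermat.Agent.S49_helper7_Norm

open FormalHecke ModularFormClass CongruenceSubgroup UpperHalfPlane

section Analytic

variable {N : ℕ}

theorem qCoeff_smul (c : ℂ) (f : CuspForm (Gamma0 N) 2) (n : ℕ) :
    qCoeff (⇑(c • f)) n = c * qCoeff (⇑f) n := by
  have h := ModularForm.qExpansion_smul (h := 1) one_pos
    (CongruenceSubgroup.one_mem_strictPeriods_Gamma0 N) c f
  have hcoe : (⇑(c • f) : ℍ → ℂ) = c • (⇑f : ℍ → ℂ) := by
    ext z; rfl
  unfold qCoeff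
  rw [hcoe, h]
  simp

theorem qCoeff_heckeTLin {l : ℕ} (hl : l.Prime) (hlN : ¬ l ∣ N) (f : CuspForm (Gamma0 N) 2)
    (n : ℕ) :
    qCoeff (⇑(CuspForm.heckeTLin 2 hl hlN f)) n
      = qCoeff (⇑f) (n * l) + if l ∣ n then (l : ℂ) * qCoeff (⇑f) (n / l) else 0 := by
  rw [CuspForm.coe_heckeTLin_apply,
    ModularFormClass.qCoeff_heckeT f (CongruenceSubgroup.one_mem_strictPeriods_Gamma0 N)
      hl.ne_zero n, ModularForm.coeffHeckeT_apply]
  norm_num

theorem qCoeff_heckeULin [NeZero N] {q : ℕ} (hq : q.Prime) (hqN : q ∣ N)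
    (f : CuspForm (Gamma0 N) 2) (n : ℕ) :
    qCoeff (⇑(CuspForm.heckeULin 2 hqN f)) n = qCoeff (⇑f) (n * q) := by
  rw [CuspForm.coe_heckeULin_apply,
    ModularFormClass.qCoeff_heckeU f (CongruenceSubgroup.one_mem_strictPeriods_Gamma0 N)
      hq.ne_zero n, ModularForm.coeffHeckeU_apply]

end Analytic

end Fermat.Agent.S49_helper7_Norm

namespace Fermat.Agent.S49_helper7_Norm

open FormalHecke ModularFormClass CongruenceSubgroup UpperHalfPlane

section Main

variable {N : ℕ} [NeZero N]

/-- The level-`N` weight-2 Hecke "character": `ℓ` off the level, `0` on it. -/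
def levelChar (N : ℕ) (R : Type*) [CommRing R] : ℕ → R :=
  fun l => if l ∣ N then 0 else (l : R)

theorem isEigensystem_of_eigen (f : CuspForm (Gamma0 N) 2) (lam : ℕ → ℂ)
    (h1 : qCoeff (⇑f) 1 = 1)
    (hT : ∀ (l : ℕ) (hl : l.Prime) (hlN : ¬ l ∣ N), CuspForm.heckeTLin 2 hl hlN f = lam l • f)
    (hU : ∀ (q : ℕ) (_ : q.Prime) (hqN : q ∣ N), CuspForm.heckeULin 2 hqN f = lam q • f) :
    IsEigensystem (levelChar N ℂ) (fun n => qCoeff (⇑f) n) ∧
      ∀ l : ℕ, l.Prime → qCoeff (⇑f) l = lam l := by
  have hlam : ∀ l : ℕ, l.Prime → qCoeff (⇑f) l = lam l := by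
    intro l hl
    by_cases hlN : l ∣ N
    · have := qCoeff_heckeULin hl hlN f 1
      rw [hU l hl hlN, qCoeff_smul, h1, one_mul, mul_one] at this
      exact this.symm
    · have := qCoeff_heckeTLin hl hlN f 1
      rw [hT l hl hlN, qCoeff_smul, h1, one_mul, mul_one,
        if_neg (fun h => hl.one_lt.ne' (Nat.dvd_one.mp h)), add_zero] at this
      exact this.symm
  refine ⟨⟨h1, ?_⟩, hlam⟩
  intro l hl n
  by_cases hlN : l ∣ N
  · have := qCoeff_heckeULin hl hlN f n
    rw [hU l hl hlN, qCoeff_smul, ← hlam l hl] at this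
    simp only [levelChar, if_pos hlN, zero_mul, add_zero]
    rw [mul_comm l n]
    exact this.symm
  · have := qCoeff_heckeTLin hl hlN f n
    rw [hT l hl hlN, qCoeff_smul, ← hlam l hl] at this
    simp only [levelChar, if_neg hlN]
    rw [mul_comm l n, this]
    split_ifs <;> ring

theorem isNormalizedEigenform_of_eigen (f : CuspForm (Gamma0 N) 2) (lam : ℕ → ℂ)
    (h1 : qCoeff (⇑f) 1 = 1)
    (hT : ∀ (l : ℕ) (hl : l.Prime) (hlN : ¬ l ∣ N), CuspForm.heckeTLin 2 hl hlN f = lam l • f)
    (hU : ∀ (q : ℕ) (_ : q.Prime) (hqN : q ∣ N), CuspForm.heckeULin 2 hqN f = lam q • f) :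
    f.IsNormalizedEigenform ∧ ∀ l : ℕ, l.Prime → qCoeff (⇑f) l = lam l := by
  obtain ⟨heig, hlam⟩ := isEigensystem_of_eigen f lam h1 hT hU
  obtain ⟨-, hmul, hrec⟩ := recursive_of_eigensystem _ _ heig
  refine ⟨⟨h1, hmul, ?_, ?_⟩, hlam⟩
  · intro p r hp hpN
    have := hrec p r hp
    simpa only [levelChar, if_neg hpN] using this
  · intro p r hp hpN
    have := hrec p r hp
    simpa only [levelChar, if_pos hpN, zero_mul, sub_zero] using this

/-- A nonzero simultaneous eigenvector has nonzero first coefficient. -/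
theorem qCoeff_one_ne_zero_of_eigen (f : CuspForm (Gamma0 N) 2) (lam : ℕ → ℂ)
    (hf : f ≠ 0)
    (hT : ∀ (l : ℕ) (hl : l.Prime) (hlN : ¬ l ∣ N), CuspForm.heckeTLin 2 hl hlN f = lam l • f)
    (hU : ∀ (q : ℕ) (_ : q.Prime) (hqN : q ∣ N), CuspForm.heckeULin 2 hqN f = lam q • f) :
    qCoeff (⇑f) 1 ≠ 0 := by
  intro h1
  have hΓ := CongruenceSubgroup.one_mem_strictPeriods_Gamma0 N
  -- all positive coefficients vanish
  have hpos : ∀ n : ℕ, 0 < n → qCoeff (⇑f) n = 0 := by
    intro n
    induction n using Nat.strong_induction_on with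
    | _ n ih =>
      intro hn
      rcases Nat.lt_or_ge n 2 with hn2 | hn2
      · have : n = 1 := by omega
        subst this; exact h1
      · obtain ⟨l, hl, m, rfl⟩ : ∃ l : ℕ, l.Prime ∧ ∃ m : ℕ, n = l * m :=
          ⟨n.minFac, Nat.minFac_prime (by omega), Nat.minFac_dvd n⟩
        have hmpos : 0 < m := by
          rcases Nat.eq_zero_or_pos m with h0 | h0
          · subst h0; simp at hn
          · exact h0
        have hmlt : m < l * m := by
          have := hl.two_le
          nlinarith
        by_cases hlN : l ∣ N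
        · have := qCoeff_heckeULin hl hlN f m
          rw [hU l hl hlN, qCoeff_smul, ih m hmlt hmpos, mul_zero] at this
          rw [mul_comm l m]; exact this.symm
        · have := qCoeff_heckeTLin hl hlN f m
          rw [hT l hl hlN, qCoeff_smul, ih m hmlt hmpos, mul_zero] at this
          by_cases hlm : l ∣ m
          · rw [if_pos hlm] at this
            have hq : 0 < m / l := Nat.div_pos (Nat.le_of_dvd hmpos hlm) hl.pos
            have hqlt : m / l < l * m := lt_of_le_of_lt (Nat.div_le_self m l) hmlt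
            rw [ih (m / l) hqlt hq, mul_zero, add_zero] at this
            rw [mul_comm l m]; exact this.symm
          · rw [if_neg hlm, add_zero] at this
            rw [mul_comm l m]; exact this.symm
  have h0 : qCoeff (⇑f) 0 = 0 := CuspFormClass.qExpansion_coeff_zero f one_pos hΓ
  have hq : qExpansion 1 (⇑f) = 0 := by
    ext n
    rcases Nat.eq_zero_or_pos n with hn | hn
    · subst hn; simpa [qCoeff] using h0
    · simpa [qCoeff] using hpos n hn
  have hfun : (⇑f : ℍ → ℂ) = 0 := by
    have : Fact (IsCusp OnePoint.infty ((Gamma0 N : Subgroup (Matrix.SpecialLinearGroup (Fin 2) ℤ)) :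
        Subgroup (GL (Fin 2) ℝ))) := ⟨Subgroup.isCusp_of_mem_strictPeriods one_pos hΓ⟩
    exact (UpperHalfPlane.qExpansion_eq_zero_iff one_pos
      (SlashInvariantFormClass.periodic_comp_ofComplex f hΓ) (ModularFormClass.holo f)
      (ModularFormClass.bdd_at_infty f)).mp hq
  exact hf (DFunLike.coe_injective hfun)

end Main

end Fermat.Agent.S49_helper7_Norm
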