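import Mathlib
import Fermat.Agent.S30_helper23_HF
import Fermat.Agent.S30_helper23_EIGC
import Fermat.Agent.S22
import Fermat.Agent.S49_LinAlg
import Fermat.Agent.S49_helper7_Norm
import Fermat.Agent.S49_Lattice
import Fermat.Agent.S35_helper24_SMO
import Fermat.Prelude.Def_CuspForm_Newforms

/-!
# S35, piece (P6) [c]: newness on modular symbols

`S35P6C_form`: a nonzero class `w ∈ 𝒪 ⊗[ℤ] PG_M M'` (`M' ∣ M`, `𝒪` a domain of characteristic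
`0`) which is an eigenclass of the lattice Hecke operators `PG_E2F_TM M' ℓ` (`ℓ ∉ S`) with the
eigenvalues `iota (a_ℓ g)` gives a nonzero cusp form of level `M'` with
`T_ℓ f = a_ℓ(g) • f` for all primes `ℓ ∉ S`.

`S35P6C_main_of`: if moreover `g` is a newform of level `M` and `M' ≠ M`, there is no such
nonzero class (`w = 0`), given the eigenform brick `S35P6C_EigBrick` (a nonzero eigenvector of
the `T_ℓ`, `ℓ ∉ S`, gives a normalised eigenform with the same eigenvalues).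
-/

set_option autoImplicit false

open UpperHalfPlane ModularForm CongruenceSubgroup
open scoped MatrixGroups ModularForm Manifold TensorProduct
open Fermat.Agent.G_helper6_Defs Fermat.Agent.G_helper6_E2FINAL

noncomputable section

namespace Fermat.Agent.S35_helper5_P6C

/-- `iota` is injective: `chig.range` is a domain integral over `ℤ` and `𝒪` has
characteristic `0`. -/
theorem S35P6C_iota_injective {M : ℕ} [NeZero M] (S : Set ℕ) {𝒪 : Type*} [CommRing 𝒪]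
    [IsDomain 𝒪] [CharZero 𝒪] (chig : CuspForm.heckeAlgebra M 2 S →+* ℂ)
    (iota : chig.range →+* 𝒪) : Function.Injective iota := by
  have : Module.Finite ℤ (CuspForm.heckeAlgebra M 2 S) := Fermat.Agent.S22.result M 2 S
  have : Algebra.IsIntegral ℤ chig.range := by
    refine ⟨fun a => ?_⟩
    obtain ⟨t, rfl⟩ := chig.rangeRestrict_surjective a
    exact (Algebra.IsIntegral.isIntegral (R := ℤ) t).map chig.rangeRestrict.toIntAlgHom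
  have hker : RingHom.ker iota = ⊥ := by
    apply Ideal.eq_bot_of_comap_eq_bot (R := ℤ)
    rw [eq_bot_iff]
    intro n hn
    rw [Ideal.mem_comap, RingHom.mem_ker] at hn
    have h1 : ((n : ℤ) : 𝒪) = 0 := by
      rw [← hn]
      simp
    rw [Ideal.mem_bot]
    exact_mod_cast h1
  exact (RingHom.injective_iff_ker_eq_bot iota).2 hker

/-- Cancellation of scalars in `𝒪 ⊗ PG_M`. -/
theorem S35P6C_cancel (N : ℕ) [NeZero N] {𝒪 : Type*} [CommRing 𝒪] [IsDomain 𝒪]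
    {w : 𝒪 ⊗[ℤ] PG_M N} (hw : w ≠ 0) {a b : 𝒪} (h : a • w = b • w) : a = b := by
  have : Module.Free ℤ (PG_M N) := (Fermat.Agent.G_helper3_G2aLATTICE.PG_lattice N).2.1
  have h1 : (a - b) • w = 0 := by rw [sub_smul, h, sub_self]
  rcases smul_eq_zero.1 h1 with h2 | h2
  · exact sub_eq_zero.1 h2
  · exact absurd h2 hw

/-- Induction over `Algebra.adjoin ℤ s` for a predicate on the image of a ring homomorphism. -/
theorem S35P6C_adjoin_ind {A E : Type*} [Ring A] [Algebra ℤ A] [Ring E] (s : Set A)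
    (Ψ : ↥(Algebra.adjoin ℤ s) →+* E) (Q : E → Prop)
    (hs : ∀ (x : A) (hx : x ∈ s), Q (Ψ ⟨x, Algebra.subset_adjoin hx⟩))
    (hint : ∀ n : ℤ, Q (n : E)) (hadd : ∀ e e' : E, Q e → Q e' → Q (e + e'))
    (hmul : ∀ e e' : E, Q e → Q e' → Q (e * e')) (t : ↥(Algebra.adjoin ℤ s)) : Q (Ψ t) := by
  obtain ⟨x, hx⟩ := t
  refine Algebra.adjoin_induction
    (p := fun x hx => Q (Ψ (⟨x, hx⟩ : ↥(Algebra.adjoin ℤ s)))) ?_ ?_ ?_ ?_ hx
  · intro x hx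
    exact hs x hx
  · intro r
    have h1 : (⟨algebraMap ℤ A r, Subalgebra.algebraMap_mem _ r⟩ : ↥(Algebra.adjoin ℤ s)) =
        ((r : ℤ) : ↥(Algebra.adjoin ℤ s)) := by
      apply Subtype.ext
      simp
    rw [h1, map_intCast]
    exact hint r
  · intro x y hx hy hQx hQy
    have h1 : (⟨x + y, add_mem hx hy⟩ : ↥(Algebra.adjoin ℤ s)) = ⟨x, hx⟩ + ⟨y, hy⟩ := rfl
    rw [h1, map_add]
    exact hadd _ _ hQx hQy
  · intro x y hx hy hQx hQy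
    have h1 : (⟨x * y, mul_mem hx hy⟩ : ↥(Algebra.adjoin ℤ s)) = ⟨x, hx⟩ * ⟨y, hy⟩ := rfl
    rw [h1, map_mul]
    exact hmul _ _ hQx hQy

set_option maxHeartbeats 800000 in
/-- Every element of the Hecke algebra of level `M'` (away from `S`) acts on an eigenclass `w`
through a scalar coming from `chig.range`. -/
theorem S35P6C_exists_scalar {M : ℕ} [NeZero M] (M' : ℕ) [NeZero M'] (S : Set ℕ)
    (hMS : ∀ q : ℕ, q.Prime → q ∣ M → q ∈ S) (hM'S : ∀ q : ℕ, q.Prime → q ∣ M' → q ∈ S)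
    {𝒪 : Type*} [CommRing 𝒪]
    (chig : CuspForm.heckeAlgebra M 2 S →+* ℂ) (iota : chig.range →+* 𝒪)
    (Ψ : CuspForm.heckeAlgebra M' 2 S →+* Module.End ℤ (PG_M M'))
    (hΨ : ∀ (ℓ : ℕ) (hℓ : ℓ.Prime) (hℓN : ¬ ℓ ∣ M') (hℓS : ℓ ∉ S),
      haveI : NeZero ℓ := ⟨hℓ.ne_zero⟩
      Ψ (CuspForm.heckeAlgebra.T hℓ hℓN hℓS) = PG_E2F_TM M' ℓ)
    (w : 𝒪 ⊗[ℤ] PG_M M')
    (hw : ∀ (ℓ : ℕ) (hℓ : ℓ.Prime) (hℓM : ¬ ℓ ∣ M) (hℓS : ℓ ∉ S),
      haveI : NeZero ℓ := ⟨hℓ.ne_zero⟩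
      (PG_E2F_TM M' ℓ).baseChange 𝒪 w =
        (iota.comp chig.rangeRestrict) (CuspForm.heckeAlgebra.T hℓ hℓM hℓS) • w)
    (t : CuspForm.heckeAlgebra M' 2 S) :
    ∃ a : chig.range, (Ψ t).baseChange 𝒪 w = iota a • w := by
  refine S35P6C_adjoin_ind (CuspForm.heckeGenerators M' 2 S) Ψ
    (fun e => ∃ a : chig.range, e.baseChange 𝒪 w = iota a • w) ?_ ?_ ?_ ?_ t
  · rintro x (⟨ℓ, hℓ, hℓN, hℓS, rfl⟩ | ⟨q, hqN, hq, hqS, -⟩)
    · have hℓM : ¬ ℓ ∣ M := fun h => hℓS (hMS ℓ hℓ h)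
      refine ⟨chig.rangeRestrict (CuspForm.heckeAlgebra.T hℓ hℓM hℓS), ?_⟩
      have h1 := hΨ ℓ hℓ hℓN hℓS
      have h2 := hw ℓ hℓ hℓM hℓS
      rw [RingHom.comp_apply] at h2
      rw [← h2, ← h1]
      rfl
    · exact absurd (hM'S q hq hqN) hqS
  · intro r
    refine ⟨(r : chig.range), ?_⟩
    rw [show ((r : ℤ) : Module.End ℤ (PG_M M')) = (r : ℤ) • (1 : Module.End ℤ (PG_M M')) by simp,
      LinearMap.baseChange_smul, LinearMap.baseChange_one, map_intCast]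
    simp only [LinearMap.smul_apply, Module.End.one_apply]
    exact (Int.cast_smul_eq_zsmul 𝒪 r w).symm
  · rintro e e' ⟨a, ha⟩ ⟨b, hb⟩
    refine ⟨a + b, ?_⟩
    rw [LinearMap.baseChange_add, LinearMap.add_apply, ha, hb, map_add, add_smul]
  · rintro e e' ⟨a, ha⟩ ⟨b, hb⟩
    refine ⟨a * b, ?_⟩
    have h1 : (e * e').baseChange 𝒪 w = e.baseChange 𝒪 (e'.baseChange 𝒪 w) := by
      rw [LinearMap.baseChange_mul, Module.End.mul_apply]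
    rw [h1]
    have h2 : e.baseChange 𝒪 (e'.baseChange 𝒪 w) = e.baseChange 𝒪 (iota b • w) :=
      congrArg _ hb
    rw [h2, LinearMap.map_smul, ha, smul_smul, map_mul, mul_comm]

set_option maxHeartbeats 800000 in
/-- The character of the Hecke algebra of level `M'` attached to a nonzero eigenclass. -/
theorem S35P6C_exists_char {M : ℕ} [NeZero M] (g : CuspForm (Gamma0 M) 2) (M' : ℕ) [NeZero M']
    (hM' : M' ∣ M) (S : Set ℕ) (hMS : ∀ q : ℕ, q.Prime → q ∣ M → q ∈ S)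
    {𝒪 : Type*} [CommRing 𝒪] [IsDomain 𝒪] [CharZero 𝒪]
    (chig : CuspForm.heckeAlgebra M 2 S →+* ℂ)
    (hchig : ∀ (ℓ : ℕ) (hℓ : ℓ.Prime) (hℓM : ¬ ℓ ∣ M) (hℓS : ℓ ∉ S),
      chig (CuspForm.heckeAlgebra.T hℓ hℓM hℓS) = ModularFormClass.qCoeff g ℓ)
    (iota : chig.range →+* 𝒪)
    (w : 𝒪 ⊗[ℤ] PG_M M') (hw0 : w ≠ 0)
    (hw : ∀ (ℓ : ℕ) (hℓ : ℓ.Prime) (hℓM : ¬ ℓ ∣ M) (hℓS : ℓ ∉ S),
      haveI : NeZero ℓ := ⟨hℓ.ne_zero⟩
      (PG_E2F_TM M' ℓ).baseChange 𝒪 w =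
        (iota.comp chig.rangeRestrict) (CuspForm.heckeAlgebra.T hℓ hℓM hℓS) • w) :
    ∃ χ : CuspForm.heckeAlgebra M' 2 S →+* ℂ,
      ∀ (ℓ : ℕ) (hℓ : ℓ.Prime) (hℓN : ¬ ℓ ∣ M') (hℓS : ℓ ∉ S),
        χ (CuspForm.heckeAlgebra.T hℓ hℓN hℓS) = ModularFormClass.qCoeff g ℓ := by
  have hM'S : ∀ q : ℕ, q.Prime → q ∣ M' → q ∈ S := fun q hq h => hMS q hq (h.trans hM')
  obtain ⟨Ψ, -, hΨ⟩ := Fermat.Agent.S30_helper23_HF.PG30_hecke_faithful M' S hM'S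
  have hι := S35P6C_iota_injective S chig iota
  choose F hF using S35P6C_exists_scalar M' S hMS hM'S chig iota Ψ hΨ w hw
  have huniq : ∀ (t : CuspForm.heckeAlgebra M' 2 S) (a : chig.range),
      (Ψ t).baseChange 𝒪 w = iota a • w → F t = a :=
    fun t a h => hι (S35P6C_cancel M' hw0 ((hF t).symm.trans h))
  have h1 : F 1 = 1 := huniq 1 1 (by
    rw [map_one, LinearMap.baseChange_one, map_one, one_smul]; rfl)
  have h0 : F 0 = 0 := huniq 0 0 (by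
    rw [map_zero, LinearMap.baseChange_zero, map_zero, zero_smul]; rfl)
  have hadd : ∀ t s, F (t + s) = F t + F s := fun t s => huniq _ _ (by
    rw [map_add, LinearMap.baseChange_add, LinearMap.add_apply, hF t, hF s, map_add, add_smul])
  have hmul : ∀ t s, F (t * s) = F t * F s := fun t s => huniq _ _ (by
    have e1 : (Ψ t * Ψ s).baseChange 𝒪 w = (Ψ t).baseChange 𝒪 ((Ψ s).baseChange 𝒪 w) := by
      rw [LinearMap.baseChange_mul, Module.End.mul_apply]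
    rw [map_mul, e1, hF s, LinearMap.map_smul, hF t, smul_smul, map_mul, mul_comm])
  refine ⟨{ toFun := fun t => ((F t : chig.range) : ℂ)
            map_one' := by rw [h1]; rfl
            map_mul' := fun t s => by rw [hmul]; rfl
            map_zero' := by rw [h0]; rfl
            map_add' := fun t s => by rw [hadd]; rfl }, ?_⟩
  intro ℓ hℓ hℓN hℓS
  have hℓM : ¬ ℓ ∣ M := fun h => hℓS (hMS ℓ hℓ h)
  have e1 : F (CuspForm.heckeAlgebra.T hℓ hℓN hℓS) =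
      chig.rangeRestrict (CuspForm.heckeAlgebra.T hℓ hℓM hℓS) := by
    apply huniq
    have h2 := hw ℓ hℓ hℓM hℓS
    rw [RingHom.comp_apply] at h2
    rw [← h2, hΨ ℓ hℓ hℓN hℓS]
  show ((F (CuspForm.heckeAlgebra.T hℓ hℓN hℓS) : chig.range) : ℂ) = _
  rw [e1, ← hchig ℓ hℓ hℓM hℓS]
  rfl

/-- **(c-i)** A nonzero eigenclass with coefficients in `𝒪` for the eigenvalues of `g` gives a
nonzero cusp form of level `M'` with the same Hecke eigenvalues away from `S`. -/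
theorem S35P6C_form {M : ℕ} [NeZero M] (g : CuspForm (Gamma0 M) 2) (M' : ℕ) [NeZero M']
    (hM' : M' ∣ M) (S : Set ℕ) (hMS : ∀ q : ℕ, q.Prime → q ∣ M → q ∈ S)
    {𝒪 : Type*} [CommRing 𝒪] [IsDomain 𝒪] [CharZero 𝒪]
    (chig : CuspForm.heckeAlgebra M 2 S →+* ℂ)
    (hchig : ∀ (ℓ : ℕ) (hℓ : ℓ.Prime) (hℓM : ¬ ℓ ∣ M) (hℓS : ℓ ∉ S),
      chig (CuspForm.heckeAlgebra.T hℓ hℓM hℓS) = ModularFormClass.qCoeff g ℓ)
    (iota : chig.range →+* 𝒪)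
    (w : 𝒪 ⊗[ℤ] PG_M M') (hw0 : w ≠ 0)
    (hw : ∀ (ℓ : ℕ) (hℓ : ℓ.Prime) (hℓM : ¬ ℓ ∣ M) (hℓS : ℓ ∉ S),
      haveI : NeZero ℓ := ⟨hℓ.ne_zero⟩
      (PG_E2F_TM M' ℓ).baseChange 𝒪 w =
        (iota.comp chig.rangeRestrict) (CuspForm.heckeAlgebra.T hℓ hℓM hℓS) • w) :
    ∃ f : CuspForm (Gamma0 M') 2, f ≠ 0 ∧
      ∀ (ℓ : ℕ) (hℓ : ℓ.Prime) (hℓM' : ¬ ℓ ∣ M'), ℓ ∉ S →
        CuspForm.heckeTLin 2 hℓ hℓM' f = ModularFormClass.qCoeff g ℓ • f := by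
  have hM'S : ∀ q : ℕ, q.Prime → q ∣ M' → q ∈ S := fun q hq h => hMS q hq (h.trans hM')
  obtain ⟨χ, hχ⟩ := S35P6C_exists_char g M' hM' S hMS chig hchig iota w hw0 hw
  have : Module.Finite ℤ (PG_M M') := (Fermat.Agent.G_helper3_G2aLATTICE.PG_lattice M').1
  have : Module.Free ℤ (PG_M M') := (Fermat.Agent.G_helper3_G2aLATTICE.PG_lattice M').2.1
  let T : ℕ → Module.End ℤ (PG_M M') := fun ℓ =>
    if h : ℓ = 0 then 0 else (haveI : NeZero ℓ := ⟨h⟩; PG_E2F_TM M' ℓ)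
  have hT : ∀ (ℓ : ℕ) (hℓ : ℓ.Prime),
      T ℓ = (haveI : NeZero ℓ := ⟨hℓ.ne_zero⟩; PG_E2F_TM M' ℓ) :=
    fun ℓ hℓ => dif_neg hℓ.ne_zero
  obtain ⟨v, hv0, hv⟩ := Fermat.Agent.S30_helper23_EIGC.PG30_eigenlattice_nontrivial M' S hM'S
    (R := ℤ) (𝒪 := ℂ) (AddMonoidHom.id (PG_M M')) (Module.Free.chooseBasis ℤ (PG_M M'))
    (Module.Free.chooseBasis ℤ (PG_M M')).linearIndependent T
    (fun ℓ hℓ _ _ c => by rw [hT ℓ hℓ]; rfl) χ
  obtain ⟨Λ, hΛ⟩ := Fermat.Agent.S30_helper23_HF.PG30_exists_Λ M'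
  obtain ⟨e, rfl⟩ := Λ.surjective v
  have he : e ≠ 0 := fun h => hv0 (by rw [h, map_zero])
  have key : ∀ (ℓ : ℕ) (hℓ : ℓ.Prime) (hℓM' : ¬ ℓ ∣ M'), ℓ ∉ S →
      (CuspForm.heckeTLin 2 hℓ hℓM' e.1, CuspForm.heckeTLin 2 hℓ hℓM' e.2) =
        ModularFormClass.qCoeff g ℓ • e := by
    intro ℓ hℓ hℓM' hℓS
    apply Λ.injective
    have : NeZero ℓ := ⟨hℓ.ne_zero⟩
    have h3 := Fermat.Agent.S30_helper23_HF.PG30_Rel_hecke hΛ hℓ hℓM' e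
    have h4 := hv ℓ hℓ hℓM' hℓS
    rw [hT ℓ hℓ, hχ ℓ hℓ hℓM' hℓS] at h4
    rw [← h3, h4, map_smul]
  by_cases h1 : e.1 = 0
  · have h2 : e.2 ≠ 0 := fun h2 => he (Prod.ext h1 h2)
    exact ⟨e.2, h2, fun ℓ hℓ hℓM' hℓS => congrArg Prod.snd (key ℓ hℓ hℓM' hℓS)⟩
  · exact ⟨e.1, h1, fun ℓ hℓ hℓM' hℓS => congrArg Prod.fst (key ℓ hℓ hℓM' hℓS)⟩

/-- The eigenform brick (piece (P6) [c] (5)): a nonzero eigenvector of the `T_ℓ`, `ℓ ∉ S`, of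
level `M'` gives a normalised eigenform with the same eigenvalues away from `S`. -/
def S35P6C_EigBrick (M' : ℕ) [NeZero M'] (S : Set ℕ) : Prop :=
  ∀ (a : ℕ → ℂ) (f : CuspForm (Gamma0 M') 2), f ≠ 0 →
    (∀ (ℓ : ℕ) (hℓ : ℓ.Prime) (hℓM' : ¬ ℓ ∣ M'), ℓ ∉ S →
      CuspForm.heckeTLin 2 hℓ hℓM' f = a ℓ • f) →
    ∃ g' : CuspForm (Gamma0 M') 2, g'.IsNormalizedEigenform ∧
      ∀ ℓ : ℕ, ℓ.Prime → ¬ ℓ ∣ M' → ℓ ∉ S → ModularFormClass.qCoeff g' ℓ = a ℓ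

/-- **(P6) [c], modulo the eigenform brick**: for a newform `g` of level `M` and a proper
divisor `M'` of `M`, every eigenclass of level `M'` with the eigenvalues of `g` away from `S`
vanishes. -/
theorem S35P6C_main_of {M : ℕ} [NeZero M] {g : CuspForm (Gamma0 M) 2} (hg : g.IsNewform)
    (M' : ℕ) [NeZero M'] (hM' : M' ∣ M) (hne : M' ≠ M) (S : Finset ℕ)
    (hMS : ∀ q : ℕ, q.Prime → q ∣ M → q ∈ S)
    (heig : S35P6C_EigBrick M' (↑S : Set ℕ))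
    {𝒪 : Type*} [CommRing 𝒪] [IsDomain 𝒪] [CharZero 𝒪]
    (chig : CuspForm.heckeAlgebra M 2 (↑S : Set ℕ) →+* ℂ)
    (hchig : ∀ (ℓ : ℕ) (hℓ : ℓ.Prime) (hℓM : ¬ ℓ ∣ M) (hℓS : ℓ ∉ (↑S : Set ℕ)),
      chig (CuspForm.heckeAlgebra.T hℓ hℓM hℓS) = ModularFormClass.qCoeff g ℓ)
    (iota : chig.range →+* 𝒪)
    (w : 𝒪 ⊗[ℤ] PG_M M')
    (hw : ∀ (ℓ : ℕ) (hℓ : ℓ.Prime) (hℓM : ¬ ℓ ∣ M) (hℓS : ℓ ∉ (↑S : Set ℕ)),
      haveI : NeZero ℓ := ⟨hℓ.ne_zero⟩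
      (PG_E2F_TM M' ℓ).baseChange 𝒪 w =
        (iota.comp chig.rangeRestrict) (CuspForm.heckeAlgebra.T hℓ hℓM hℓS) • w) :
    w = 0 := by
  by_contra hw0
  obtain ⟨f, hf0, hf⟩ := S35P6C_form g M' hM' (↑S : Set ℕ)
    (fun q hq h => Finset.mem_coe.2 (hMS q hq h)) chig hchig iota w hw0 hw
  obtain ⟨g', hg', hg'a⟩ := heig (fun ℓ => ModularFormClass.qCoeff g ℓ) f hf0 hf
  exact Fermat.Agent.S35_helper24_SMO.S35SMO_new hg hM' hne hg' S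
    (fun ℓ hℓ hℓM hℓS => hg'a ℓ hℓ (fun h => hℓM (h.trans hM'))
      (fun h => hℓS (Finset.mem_coe.1 h)))

end Fermat.Agent.S35_helper5_P6C
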