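import Fermat.Agent.S35_helper12_ENDK
import Fermat.Agent.S35_helper5_P6C
import Fermat.Agent.S35_helper18_EIGF
import Fermat.Agent.S35_helper23_P6Defs
import Fermat.Agent.S54_Frob

/-!
# S35, block (P6), piece E: the assembly (helper24)
-/

set_option autoImplicit false
set_option linter.unusedSectionVars false
set_option linter.unusedVariables false
set_option linter.style.haveILetI false

open scoped TensorProduct
open CuspForm AlgebraicCurve ModularCurve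
open Fermat.Agent.G_helper6_Defs Fermat.Agent.G_helper6_E2FINAL
open Fermat.Agent.S30_helper1_TATE Fermat.Agent.S30_helper1_TATEF
open Fermat.Agent.S30_helper23_EIGLAT Fermat.Agent.S30_helper23_EIGC
open Fermat.Agent.S30_helper23_HF Fermat.Agent.S30_helper23_EIGA
open Fermat.Agent.S30_helper27_TATEC
open Fermat.Agent.S35_helper12_BR Fermat.Agent.S35_helper12_END Fermat.Agent.S35_helper12_ENDK
open Fermat.Agent.S35_helper6_PUSH Fermat.Agent.S35_helper23_P6Defs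
open Fermat.Agent.G_helper7_G8PLUG Fermat.Agent.G_helper6_E2GEN

noncomputable section

namespace Fermat.Agent.S35_helper24_P6E

local notation "Qb" => AlgebraicClosure ℚ
local notation "GQ" => (AlgebraicClosure ℚ ≃ₐ[ℚ] AlgebraicClosure ℚ)

/-- **(e1)** the compatible family of lattice maps at the moduli `p ^ n`, together with the
maps over `ℂ` satisfying the contract `PG_THETA`. -/
theorem S35P6E_family (N p : ℕ) [NeZero N] (hp : 0 < p) :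
    ∃ (Θ₀ : ℕ → PG_M N →+ JZero N) (ΘC : ℕ → PG_M N →+ PG_JC N),
      (∀ n, PG_E2 N (p ^ n) (Θ₀ n)) ∧ (∀ n, PG_THETA N (p ^ n) (ΘC n)) ∧
      (∀ n c, PG8P_b ℂ N (Θ₀ n c) = ΘC n c) ∧
      (∀ n c, (p : ℤ) • Θ₀ (n + 1) c = Θ₀ n c) := by
  classical
  have hinj : Function.Injective (PG8P_b ℂ N) := Fermat.Agent.G_helper26_G8.PG8_b_injective ℂ N
  have hb : ∀ m : ℕ, 0 < m → PG_DESC N m (PG8P_b ℂ N) := fun m hm =>
    PG8P_desc_of_inj N m (PG_E2GEN_fin N m hm) hinj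
  have key : ∀ n : ℕ, ∃ (Θ₀ : PG_M N →+ JZero N) (Θ : PG_M N →+ PG_JC N),
      PG_E2 N (p ^ n) Θ₀ ∧ PG_THETA N (p ^ n) Θ ∧ ∀ c, PG8P_b ℂ N (Θ₀ c) = Θ c := by
    intro n
    have hm : 0 < p ^ n := pow_pos hp n
    obtain ⟨Θ, hΘ⟩ := PG_E2GEN_theta N (p ^ n) hm
    obtain ⟨Θ₀, hf⟩ := PG_E2GEN_lift N (p ^ n) Θ hΘ (PG8P_b ℂ N) (hb _ hm)
    refine ⟨Θ₀, Θ, ?_, hΘ, hf⟩
    refine PG_E2GEN_e2 N (p ^ n) Θ hΘ ?_ (PG_E2GEN_fin N _ hm) (PG8P_b ℂ N) (hb _ hm) Θ₀ hf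
    intro ℓ hℓ hℓN _
    exact PG_E2GEN_thetaHecke N (p ^ n) ℓ hm hℓ hℓN Θ hΘ
  choose Θ₀ ΘC h1 h2 h3 using key
  refine ⟨Θ₀, ΘC, h1, h2, h3, fun n c => ?_⟩
  apply hinj
  rw [map_zsmul, h3, h3]
  have h2' : PG_THETA N (p ^ n * p) (ΘC (n + 1)) := by
    have := h2 (n + 1)
    rwa [pow_succ] at this
  exact PG_E2GEN_compat N (p ^ n) p (pow_pos hp n) hp (ΘC (n + 1)) (ΘC n) h2' (h2 n) c

/-! ### (e4) the eigenclass in the lattice and its image in the Tate module -/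

/-- generic: a nonzero eigenclass of a character in `𝒪 ⊗ M` (the vector `x₀` of
`PG30_eigenlattice_exists`, exposed). -/
theorem S35P6E_eigen_lattice {𝒪 : Type*} [CommRing 𝒪] [IsDomain 𝒪] [CharZero 𝒪]
    {M : Type*} [AddCommGroup M] [Module.Finite ℤ M] [Module.Free ℤ M]
    {𝕋 : Type*} [CommRing 𝕋] (Ψ : 𝕋 →+* Module.End ℤ M) (hΨ : Function.Injective Ψ)
    (χ : 𝕋 →+* 𝒪) :
    ∃ x₀ : 𝒪 ⊗[ℤ] M, x₀ ≠ 0 ∧ ∀ s : 𝕋, (Ψ s).baseChange 𝒪 x₀ = χ s • x₀ := by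
  haveI : CharZero (FractionRing 𝒪) :=
    charZero_of_injective_algebraMap (IsFractionRing.injective 𝒪 (FractionRing 𝒪))
  obtain ⟨x, hx0, hx⟩ := PG30_eigen_abstract Ψ (FractionRing 𝒪) hΨ
    ((algebraMap 𝒪 (FractionRing 𝒪)).comp χ)
  obtain ⟨d, x₀, hd, hx₀⟩ := PG30_exists_clear 𝒪 (FractionRing 𝒪) x
  have hdK : algebraMap 𝒪 (FractionRing 𝒪) d ≠ 0 := by
    rw [Ne, map_eq_zero_iff _ (IsFractionRing.injective 𝒪 (FractionRing 𝒪))]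
    exact hd
  have hinj₁ := PG30_f₁_injective 𝒪 (FractionRing 𝒪) (M := M)
  have hx₀0 : x₀ ≠ 0 := by
    rintro rfl
    rw [map_zero] at hx₀
    exact (smul_ne_zero hdK hx0) hx₀.symm
  refine ⟨x₀, hx₀0, fun s => ?_⟩
  apply hinj₁
  rw [PG30_f₁_baseChange, hx₀, map_smul, hx s, map_smul, hx₀, RingHom.comp_apply,
    ← algebraMap_smul (FractionRing 𝒪) (χ s), smul_comm]

/-- **(e4), lattice side**: a nonzero eigenclass of `χ` in `𝒪 ⊗ M(N)`. -/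
theorem S35P6E_eigclass (N : ℕ) [NeZero N] (S : Set ℕ)
    (hNS : ∀ q : ℕ, q.Prime → q ∣ N → q ∈ S)
    {𝒪 : Type*} [CommRing 𝒪] [IsDomain 𝒪] [CharZero 𝒪]
    (χ : CuspForm.heckeAlgebra N 2 S →+* 𝒪) :
    ∃ x₀ : 𝒪 ⊗[ℤ] PG_M N, x₀ ≠ 0 ∧
      ∀ (ℓ : ℕ) (hℓ : ℓ.Prime) (hℓN : ¬ ℓ ∣ N) (hℓS : ℓ ∉ S),
        haveI : NeZero ℓ := ⟨hℓ.ne_zero⟩
        (PG_E2F_TM N ℓ).baseChange 𝒪 x₀ = χ (CuspForm.heckeAlgebra.T hℓ hℓN hℓS) • x₀ := by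
  obtain ⟨Ψ, hΨ, hΨT⟩ := PG30_hecke_faithful N S hNS
  haveI : Module.Finite ℤ (PG_M N) := (Fermat.Agent.G_helper3_G2aLATTICE.PG_lattice N).1
  haveI : Module.Free ℤ (PG_M N) := (Fermat.Agent.G_helper3_G2aLATTICE.PG_lattice N).2.1
  obtain ⟨x₀, hx₀, h⟩ := S35P6E_eigen_lattice Ψ hΨ χ
  refine ⟨x₀, hx₀, fun ℓ hℓ hℓN hℓS => ?_⟩
  rw [← hΨT ℓ hℓ hℓN hℓS]
  exact h _

section Family

variable (N : ℕ) [NeZero N] (p : ℕ) [Fact p.Prime]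
  (Θ : ℕ → PG_M N →+ JZero N)
  (h1 : ∀ n c, (p ^ n) • Θ n c = 0) (h2 : ∀ n c, p • Θ (n + 1) c = Θ n c)

/-- the hypotheses `h1`, `h2` of `S30T_lift` from `PG_E2` and the compatibility. -/
theorem S35P6E_h1 {N : ℕ} [NeZero N] {p : ℕ} {Θ : ℕ → PG_M N →+ JZero N}
    (hE2 : ∀ n : ℕ, PG_E2 N (p ^ n) (Θ n)) : ∀ n c, (p ^ n) • Θ n c = 0 := fun n c => by
  have h := (hE2 n).tors c
  rwa [natCast_zsmul] at h

theorem S35P6E_h2 {N : ℕ} [NeZero N] {p : ℕ} {Θ : ℕ → PG_M N →+ JZero N}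
    (hcompat : ∀ (n : ℕ) (c : PG_M N), (p : ℤ) • Θ (n + 1) c = Θ n c) :
    ∀ n c, p • Θ (n + 1) c = Θ n c := fun n c => by
  have h := hcompat n c
  rwa [natCast_zsmul] at h

/-- the lift is Hecke-equivariant. -/
theorem S35P6E_lift_hecke (hE2 : ∀ n : ℕ, PG_E2 N (p ^ n) (Θ n))
    (ℓ : ℕ) (hℓ : ℓ.Prime) (hℓN : ¬ ℓ ∣ N) (c : PG_M N) :
    haveI : NeZero ℓ := ⟨hℓ.ne_zero⟩
    S30TC_T N p ℓ (S30T_lift Θ h1 h2 c) = S30T_lift Θ h1 h2 (PG_E2F_TM N ℓ c) := by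
  apply S30T_ext
  intro n
  rw [S30TC_T_apply hℓ, S30T_lift_apply, S30T_lift_apply]
  exact (hE2 n).hecke ⟨ℓ, hℓ⟩ c _ hℓN rfl

/-- `f₂` of the lift is injective. -/
theorem S35P6E_f2_injective (hE2 : ∀ n : ℕ, PG_E2 N (p ^ n) (Θ n))
    (𝒪 : Type*) [CommRing 𝒪] [IsDomain 𝒪] [CharZero 𝒪] [Algebra ℤ_[p] 𝒪] :
    Function.Injective (PG30_f₂ ℤ_[p] 𝒪 (S30T_lift Θ h1 h2)) := by
  haveI : Module.Finite ℤ (PG_M N) := (Fermat.Agent.G_helper3_G2aLATTICE.PG_lattice N).1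
  haveI : Module.Free ℤ (PG_M N) := (Fermat.Agent.G_helper3_G2aLATTICE.PG_lattice N).2.1
  haveI : Module.Flat ℤ_[p] 𝒪 := PG30_flat_padic p 𝒪
  refine PG30_f₂_injective ℤ_[p] 𝒪 (S30T_lift Θ h1 h2) (Module.Free.chooseBasis ℤ (PG_M N)) ?_
  refine S30T_lift_linearIndependent _ Θ h1 h2 (fun n c h => ?_)
  obtain ⟨c', hc'⟩ := (hE2 n).inj c h
  exact ⟨c', by rw [hc', natCast_zsmul]⟩

/-- `f₂` of the lift intertwines the Hecke operators. -/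
theorem S35P6E_f2_hecke (hE2 : ∀ n : ℕ, PG_E2 N (p ^ n) (Θ n))
    (𝒪 : Type*) [CommRing 𝒪] [Algebra ℤ_[p] 𝒪]
    (ℓ : ℕ) (hℓ : ℓ.Prime) (hℓN : ¬ ℓ ∣ N) (z : 𝒪 ⊗[ℤ] PG_M N) :
    haveI : NeZero ℓ := ⟨hℓ.ne_zero⟩
    PG30_f₂ ℤ_[p] 𝒪 (S30T_lift Θ h1 h2) ((PG_E2F_TM N ℓ).baseChange 𝒪 z) =
      (S30TC_T N p ℓ).baseChange 𝒪 (PG30_f₂ ℤ_[p] 𝒪 (S30T_lift Θ h1 h2) z) :=
  haveI : NeZero ℓ := ⟨hℓ.ne_zero⟩
  PG30_f₂_baseChange ℤ_[p] 𝒪 (S30T_lift Θ h1 h2) (PG_E2F_TM N ℓ) (S30TC_T N p ℓ)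
    (fun c => S35P6E_lift_hecke N p Θ h1 h2 hE2 ℓ hℓ hℓN c) z

end Family

/-! ### (e6) a Galois-equivariant map commutes with the Hecke operators (Eichler–Shimura at both
levels; no Mackey) -/

/-- abstract: `F` invertible, `F² - T F + ℓ = 0`, `F'² - T' F' + ℓ = 0`, `φ F = F' φ`
⟹ `φ T = T' φ`. -/
theorem S35P6E_ES_abs {R V V' : Type*} [CommRing R] [AddCommGroup V] [Module R V]
    [AddCommGroup V'] [Module R V'] (F Fi T : Module.End R V) (F' T' : Module.End R V')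
    (φ : V →ₗ[R] V') (ℓ : R) (hFi : F * Fi = 1)
    (hES : F * F - T * F + ℓ • (1 : Module.End R V) = 0)
    (hES' : F' * F' - T' * F' + ℓ • (1 : Module.End R V') = 0)
    (hφ : ∀ x, φ (F x) = F' (φ x)) (y : V) : φ (T y) = T' (φ y) := by
  have h1 : ∀ x, T (F x) = F (F x) + ℓ • x := by
    intro x
    have h := congrArg (fun A : Module.End R V => A x) hES
    simp only [LinearMap.add_apply, LinearMap.sub_apply, Module.End.mul_apply,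
      LinearMap.smul_apply, Module.End.one_apply, LinearMap.zero_apply] at h
    rw [sub_add_eq_add_sub, sub_eq_zero] at h
    exact h.symm
  have h2 : ∀ x, T' (F' x) = F' (F' x) + ℓ • x := by
    intro x
    have h := congrArg (fun A : Module.End R V' => A x) hES'
    simp only [LinearMap.add_apply, LinearMap.sub_apply, Module.End.mul_apply,
      LinearMap.smul_apply, Module.End.one_apply, LinearMap.zero_apply] at h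
    rw [sub_add_eq_add_sub, sub_eq_zero] at h
    exact h.symm
  have hy : y = F (Fi y) := by
    have h := congrArg (fun A : Module.End R V => A y) hFi
    simpa using h.symm
  rw [hy, h1, map_add, map_smul, hφ, hφ]
  exact (h2 _).symm

/-- **(e6)** the map induced on the Tate modules by a Galois-equivariant additive map
`ν : J₀(M) → J₀(M')` commutes with `T_ℓ` for `ℓ ∤ M M' p`. -/
theorem S35P6E_tate_hecke (M M' : ℕ) [NeZero M] [NeZero M'] (p : ℕ) [Fact p.Prime]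
    (ν : JZero M →+ JZero M') (hν : ∀ (σ : GQ) (x : JZero M), ν (σ • x) = σ • ν x)
    (ℓ : ℕ) (hℓ : ℓ.Prime) (hℓM : ¬ ℓ ∣ M * p) (hℓM' : ¬ ℓ ∣ M' * p)
    (y : S30T_Tate (JZero M) p) :
    S35BR_tateMap (p := p) ν (S30TC_T M p ℓ y) = S30TC_T M' p ℓ (S35BR_tateMap (p := p) ν y) := by
  obtain ⟨A, hA, σ, hσ⟩ := Fermat.Agent.S54Frob.exists_frobenius ℓ hℓ
  have hES := S30TC_ES M p (Fermat.Agent.S37_helper8_E1M.S37E1M_pow M p) ℓ hℓ hℓM A hA σ hσ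
  have hES' := S30TC_ES M' p (Fermat.Agent.S37_helper8_E1M.S37E1M_pow M' p) ℓ hℓ hℓM' A hA σ hσ
  refine S35P6E_ES_abs (S30TC_rho M p σ) (S30TC_rho M p σ⁻¹) (S30TC_T M p ℓ)
    (S30TC_rho M' p σ) (S30TC_T M' p ℓ) (S35BR_tateMap (p := p) ν) (ℓ : ℤ_[p]) ?_ hES hES' ?_ y
  · rw [← map_mul, mul_inv_cancel, map_one]
  · intro x
    apply S30T_ext
    intro n
    rw [S35BR_tateMap_apply, S30TC_rho_apply, S30TC_rho_apply, S35BR_tateMap_apply]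
    exact hν σ _

/-- **(e6), base change**: the image of an eigenvector is an eigenvector (or zero). -/
theorem S35P6E_transfer (M M' : ℕ) [NeZero M] [NeZero M'] (p : ℕ) [Fact p.Prime]
    (𝒪 : Type*) [CommRing 𝒪] [Algebra ℤ_[p] 𝒪]
    (ν : JZero M →+ JZero M') (hν : ∀ (σ : GQ) (x : JZero M), ν (σ • x) = σ • ν x)
    (ℓ : ℕ) (hℓ : ℓ.Prime) (hℓM : ¬ ℓ ∣ M * p) (hℓM' : ¬ ℓ ∣ M' * p) (a : 𝒪)
    (v : 𝒪 ⊗[ℤ_[p]] S30T_Tate (JZero M) p)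
    (hv : (S30TC_T M p ℓ).baseChange 𝒪 v = a • v) :
    (S30TC_T M' p ℓ).baseChange 𝒪 ((S35BR_tateMap (p := p) ν).baseChange 𝒪 v) =
      a • (S35BR_tateMap (p := p) ν).baseChange 𝒪 v := by
  have hcomm : (S30TC_T M' p ℓ) ∘ₗ (S35BR_tateMap (p := p) ν) =
      (S35BR_tateMap (p := p) ν) ∘ₗ (S30TC_T M p ℓ) := by
    refine LinearMap.ext fun y => ?_
    exact (S35P6E_tate_hecke M M' p ν hν ℓ hℓ hℓM hℓM' y).symm
  have h := congrArg (fun A => LinearMap.baseChange 𝒪 A v) hcomm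
  simp only [LinearMap.baseChange_comp, LinearMap.comp_apply] at h
  rw [h, hv, map_smul]

/-! ### the core: (P6) from the vanishing of the images of the eigenvector -/

set_option maxHeartbeats 1000000 in
/-- **the core of the assembly**: for a family `Θ` at the level `M` and two Galois-equivariant
maps `ν₁`, `ν₂ : J₀(M) → J₀(M')`: if the image under `ν_i` of a vector `f₂ θ x₀` vanishes as soon
as it satisfies the eigen-equations of `χ` at the level `M'`, then (P6) holds. -/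
theorem S35P6E_core (M M' : ℕ) [NeZero M] [NeZero M'] (hM' : M' ∣ M)
    (lam : ℕ) [Fact lam.Prime] (S : Finset ℕ) (hlamS : lam ∈ S)
    (hMS : ∀ r : ℕ, r.Prime → r ∣ M → r ∈ S)
    (O' : Type) [CommRing O'] [IsDomain O'] [CharZero O'] [Algebra ℤ_[lam] O']
    (χ : CuspForm.heckeAlgebra M 2 (↑S : Set ℕ) →+* O')
    (Θ : ℕ → PG_M M →+ JZero M) (hE2 : ∀ n : ℕ, PG_E2 M (lam ^ n) (Θ n))
    (h1 : ∀ n c, (lam ^ n) • Θ n c = 0) (h2 : ∀ n c, lam • Θ (n + 1) c = Θ n c)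
    (ν₁ ν₂ : JZero M →+ JZero M')
    (hν₁ : ∀ (σ : GQ) (x : JZero M), ν₁ (σ • x) = σ • ν₁ x)
    (hν₂ : ∀ (σ : GQ) (x : JZero M), ν₂ (σ • x) = σ • ν₂ x)
    (hz₁ : ∀ x₀ : O' ⊗[ℤ] PG_M M,
      (∀ (ℓ : ℕ) (hℓ : ℓ.Prime) (hℓM : ¬ ℓ ∣ M) (hℓS : ℓ ∉ (↑S : Set ℕ)),
        (S30TC_T M' lam ℓ).baseChange O'
            ((S35BR_tateMap (p := lam) ν₁).baseChange O'
              (PG30_f₂ ℤ_[lam] O' (S30T_lift Θ h1 h2) x₀)) =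
          χ (CuspForm.heckeAlgebra.T hℓ hℓM hℓS) •
            (S35BR_tateMap (p := lam) ν₁).baseChange O'
              (PG30_f₂ ℤ_[lam] O' (S30T_lift Θ h1 h2) x₀)) →
      (S35BR_tateMap (p := lam) ν₁).baseChange O'
        (PG30_f₂ ℤ_[lam] O' (S30T_lift Θ h1 h2) x₀) = 0)
    (hz₂ : ∀ x₀ : O' ⊗[ℤ] PG_M M,
      (∀ (ℓ : ℕ) (hℓ : ℓ.Prime) (hℓM : ¬ ℓ ∣ M) (hℓS : ℓ ∉ (↑S : Set ℕ)),
        (S30TC_T M' lam ℓ).baseChange O'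
            ((S35BR_tateMap (p := lam) ν₂).baseChange O'
              (PG30_f₂ ℤ_[lam] O' (S30T_lift Θ h1 h2) x₀)) =
          χ (CuspForm.heckeAlgebra.T hℓ hℓM hℓS) •
            (S35BR_tateMap (p := lam) ν₂).baseChange O'
              (PG30_f₂ ℤ_[lam] O' (S30T_lift Θ h1 h2) x₀)) →
      (S35BR_tateMap (p := lam) ν₂).baseChange O'
        (PG30_f₂ ℤ_[lam] O' (S30T_lift Θ h1 h2) x₀) = 0) :
    S35END_P6 M lam S O' χ ν₁ ν₂ := by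
  have hlam : lam.Prime := Fact.out
  obtain ⟨x₀, hx₀, hx₀e⟩ := S35P6E_eigclass M (↑S : Set ℕ)
    (fun r hr hrM => Finset.mem_coe.2 (hMS r hr hrM)) χ
  have hinj := S35P6E_f2_injective M lam Θ h1 h2 hE2 O'
  -- the eigen-equations of `v = f₂ θ x₀`
  have hv : ∀ (ℓ : ℕ) (hℓ : ℓ.Prime) (hℓM : ¬ ℓ ∣ M) (hℓS : ℓ ∉ (↑S : Set ℕ)),
      (S30TC_T M lam ℓ).baseChange O' (PG30_f₂ ℤ_[lam] O' (S30T_lift Θ h1 h2) x₀) =
        χ (CuspForm.heckeAlgebra.T hℓ hℓM hℓS) • PG30_f₂ ℤ_[lam] O' (S30T_lift Θ h1 h2) x₀ := by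
    intro ℓ hℓ hℓM hℓS
    rw [← S35P6E_f2_hecke M lam Θ h1 h2 hE2 O' ℓ hℓ hℓM, hx₀e ℓ hℓ hℓM hℓS, map_smul]
  -- primes outside `S` do not divide `M lam`, `M' lam`
  have hdiv : ∀ (ℓ : ℕ), ℓ.Prime → ¬ ℓ ∣ M → ℓ ∉ (↑S : Set ℕ) → ¬ ℓ ∣ M * lam ∧ ¬ ℓ ∣ M' * lam := by
    intro ℓ hℓ hℓM hℓS
    have hℓlam : ¬ ℓ ∣ lam := by
      intro h
      have : ℓ = lam := (Nat.prime_dvd_prime_iff_eq hℓ hlam).1 h
      exact hℓS (this ▸ Finset.mem_coe.2 hlamS)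
    refine ⟨fun h => ?_, fun h => ?_⟩
    · rcases (Nat.Prime.dvd_mul hℓ).1 h with h | h
      · exact hℓM h
      · exact hℓlam h
    · rcases (Nat.Prime.dvd_mul hℓ).1 h with h | h
      · exact hℓM (h.trans hM')
      · exact hℓlam h
  unfold S35END_P6
  refine ⟨PG30_f₂ ℤ_[lam] O' (S30T_lift Θ h1 h2) x₀, ?_, hv, ?_, ?_⟩
  · intro h
    exact hx₀ (hinj (by rw [h, map_zero]))
  · refine hz₁ x₀ (fun ℓ hℓ hℓM hℓS => ?_)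
    exact S35P6E_transfer M M' lam O' ν₁ hν₁ ℓ hℓ (hdiv ℓ hℓ hℓM hℓS).1 (hdiv ℓ hℓ hℓM hℓS).2 _ _
      (hv ℓ hℓ hℓM hℓS)
  · refine hz₂ x₀ (fun ℓ hℓ hℓM hℓS => ?_)
    exact S35P6E_transfer M M' lam O' ν₂ hν₂ ℓ hℓ (hdiv ℓ hℓ hℓM hℓS).1 (hdiv ℓ hℓ hℓM hℓS).2 _ _
      (hv ℓ hℓ hℓM hℓS)

/-- **no eigenclass on the image of the lattice** (= [c] + the injectivity of `f₂`): for a
newform `g` of level `M` and a proper divisor `M'` of `M`, a vector `f₂ θ' w'` of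
`O' ⊗ T_lam J₀(M')` with the eigenvalues of `g` away from `S` has `w' = 0`. -/
theorem S35P6E_zero_of_eigen {M : ℕ} [NeZero M] {g : CuspForm (CongruenceSubgroup.Gamma0 M) 2}
    (hg : g.IsNewform) (M' : ℕ) [NeZero M'] (hM' : M' ∣ M) (hne : M' ≠ M) (S : Finset ℕ)
    (hMS : ∀ r : ℕ, r.Prime → r ∣ M → r ∈ S) (lam : ℕ) [Fact lam.Prime]
    (O' : Type) [CommRing O'] [IsDomain O'] [CharZero O'] [Algebra ℤ_[lam] O']
    (chig : CuspForm.heckeAlgebra M 2 (↑S : Set ℕ) →+* ℂ)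
    (hchig : ∀ (ℓ : ℕ) (hℓ : ℓ.Prime) (hℓM : ¬ ℓ ∣ M) (hℓS : ℓ ∉ (↑S : Set ℕ)),
      chig (CuspForm.heckeAlgebra.T hℓ hℓM hℓS) = ModularFormClass.qCoeff g ℓ)
    (iota : chig.range →+* O')
    (Θ' : ℕ → PG_M M' →+ JZero M') (hE2' : ∀ n : ℕ, PG_E2 M' (lam ^ n) (Θ' n))
    (h1' : ∀ n c, (lam ^ n) • Θ' n c = 0) (h2' : ∀ n c, lam • Θ' (n + 1) c = Θ' n c)
    (w' : O' ⊗[ℤ] PG_M M')
    (hu : ∀ (ℓ : ℕ) (hℓ : ℓ.Prime) (hℓM : ¬ ℓ ∣ M) (hℓS : ℓ ∉ (↑S : Set ℕ)),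
      (S30TC_T M' lam ℓ).baseChange O' (PG30_f₂ ℤ_[lam] O' (S30T_lift Θ' h1' h2') w') =
        (iota.comp chig.rangeRestrict) (CuspForm.heckeAlgebra.T hℓ hℓM hℓS) •
          PG30_f₂ ℤ_[lam] O' (S30T_lift Θ' h1' h2') w') :
    w' = 0 := by
  have hinj := S35P6E_f2_injective M' lam Θ' h1' h2' hE2' O'
  refine Fermat.Agent.S35_helper5_P6C.S35P6C_main_of hg M' hM' hne S hMS
    (fun a f hf hT => Fermat.Agent.S35_helper18_EIGF.S35EIGF_eigenform _ a f hf hT)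
    chig hchig iota w' (fun ℓ hℓ hℓM hℓS => ?_)
  apply hinj
  rw [S35P6E_f2_hecke M' lam Θ' h1' h2' hE2' O' ℓ hℓ (fun h => hℓM (h.trans hM')),
    hu ℓ hℓ hℓM hℓS, map_smul]

/-! ### (P6) from "no eigenvector at the lower level" -/

/-- **(P6) from (NoEig)**: if `O' ⊗ T_lam J₀(M')` contains no nonzero vector with the eigenvalues
`χ (T_ℓ)` (`ℓ ∤ M`, `ℓ ∉ S`), then (P6) holds for every pair of Galois-equivariant maps
`J₀(M) → J₀(M')`. -/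
theorem S35P6E_of_noEig (M M' : ℕ) [NeZero M] [NeZero M'] (hM' : M' ∣ M)
    (lam : ℕ) [Fact lam.Prime] (S : Finset ℕ) (hlamS : lam ∈ S)
    (hMS : ∀ r : ℕ, r.Prime → r ∣ M → r ∈ S)
    (O' : Type) [CommRing O'] [IsDomain O'] [CharZero O'] [Algebra ℤ_[lam] O']
    (χ : CuspForm.heckeAlgebra M 2 (↑S : Set ℕ) →+* O')
    (ν₁ ν₂ : JZero M →+ JZero M')
    (hν₁ : ∀ (σ : GQ) (x : JZero M), ν₁ (σ • x) = σ • ν₁ x)
    (hν₂ : ∀ (σ : GQ) (x : JZero M), ν₂ (σ • x) = σ • ν₂ x)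
    (hNoEig : ∀ v' : O' ⊗[ℤ_[lam]] S30T_Tate (JZero M') lam,
      (∀ (ℓ : ℕ) (hℓ : ℓ.Prime) (hℓM : ¬ ℓ ∣ M) (hℓS : ℓ ∉ (↑S : Set ℕ)),
        (S30TC_T M' lam ℓ).baseChange O' v' =
          χ (CuspForm.heckeAlgebra.T hℓ hℓM hℓS) • v') → v' = 0) :
    S35END_P6 M lam S O' χ ν₁ ν₂ := by
  have hlam : lam.Prime := Fact.out
  obtain ⟨Θ, ΘC, hE2, -, -, hcompat⟩ := S35P6E_family M lam hlam.pos
  exact S35P6E_core M M' hM' lam S hlamS hMS O' χ Θ hE2 (S35P6E_h1 hE2) (S35P6E_h2 hcompat)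
    ν₁ ν₂ hν₁ hν₂ (fun x₀ h => hNoEig _ h) (fun x₀ h => hNoEig _ h)

/-! ### (P6) from the lifting property -/

set_option maxHeartbeats 1000000 in
/-- **(P6) from the lifting property** (`hLift`): for a newform `g` of level `M`, a proper
divisor `M'` of `M`, families `Θ`, `Θ'` at the two levels and two Galois-equivariant maps
`ν_i : J₀(M) → J₀(M')` such that `ν_i (f₂ θ x₀)` lies in the image of `f₂ θ'`. -/
theorem S35P6E_of_lift {M : ℕ} [NeZero M] {g : CuspForm (CongruenceSubgroup.Gamma0 M) 2}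
    (hg : g.IsNewform) (M' : ℕ) [NeZero M'] (hM' : M' ∣ M) (hne : M' ≠ M)
    (lam : ℕ) [Fact lam.Prime] (S : Finset ℕ) (hlamS : lam ∈ S)
    (hMS : ∀ r : ℕ, r.Prime → r ∣ M → r ∈ S)
    (O' : Type) [CommRing O'] [IsDomain O'] [CharZero O'] [Algebra ℤ_[lam] O']
    (chig : CuspForm.heckeAlgebra M 2 (↑S : Set ℕ) →+* ℂ)
    (hchig : ∀ (ℓ : ℕ) (hℓ : ℓ.Prime) (hℓM : ¬ ℓ ∣ M) (hℓS : ℓ ∉ (↑S : Set ℕ)),
      chig (CuspForm.heckeAlgebra.T hℓ hℓM hℓS) = ModularFormClass.qCoeff g ℓ)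
    (iota : chig.range →+* O')
    (Θ : ℕ → PG_M M →+ JZero M) (hE2 : ∀ n : ℕ, PG_E2 M (lam ^ n) (Θ n))
    (h1 : ∀ n c, (lam ^ n) • Θ n c = 0) (h2 : ∀ n c, lam • Θ (n + 1) c = Θ n c)
    (Θ' : ℕ → PG_M M' →+ JZero M') (hE2' : ∀ n : ℕ, PG_E2 M' (lam ^ n) (Θ' n))
    (h1' : ∀ n c, (lam ^ n) • Θ' n c = 0) (h2' : ∀ n c, lam • Θ' (n + 1) c = Θ' n c)
    (ν₁ ν₂ : JZero M →+ JZero M')
    (hν₁ : ∀ (σ : GQ) (x : JZero M), ν₁ (σ • x) = σ • ν₁ x)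
    (hν₂ : ∀ (σ : GQ) (x : JZero M), ν₂ (σ • x) = σ • ν₂ x)
    (hLift₁ : ∀ x₀ : O' ⊗[ℤ] PG_M M, ∃ w' : O' ⊗[ℤ] PG_M M',
      PG30_f₂ ℤ_[lam] O' (S30T_lift Θ' h1' h2') w' =
        (S35BR_tateMap (p := lam) ν₁).baseChange O'
          (PG30_f₂ ℤ_[lam] O' (S30T_lift Θ h1 h2) x₀))
    (hLift₂ : ∀ x₀ : O' ⊗[ℤ] PG_M M, ∃ w' : O' ⊗[ℤ] PG_M M',
      PG30_f₂ ℤ_[lam] O' (S30T_lift Θ' h1' h2') w' =
        (S35BR_tateMap (p := lam) ν₂).baseChange O'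
          (PG30_f₂ ℤ_[lam] O' (S30T_lift Θ h1 h2) x₀)) :
    S35END_P6 M lam S O' (iota.comp chig.rangeRestrict) ν₁ ν₂ := by
  refine S35P6E_core M M' hM' lam S hlamS hMS O' _ Θ hE2 h1 h2 ν₁ ν₂ hν₁ hν₂
    (fun x₀ h => ?_) (fun x₀ h => ?_)
  · obtain ⟨w', hw'⟩ := hLift₁ x₀
    have hw0 : w' = 0 :=
      S35P6E_zero_of_eigen hg M' hM' hne S hMS lam O' chig hchig iota Θ' hE2' h1' h2' w'
        (fun ℓ hℓ hℓM hℓS => hw'.symm ▸ h ℓ hℓ hℓM hℓS)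
    rw [← hw', hw0, map_zero]
  · obtain ⟨w', hw'⟩ := hLift₂ x₀
    have hw0 : w' = 0 :=
      S35P6E_zero_of_eigen hg M' hM' hne S hMS lam O' chig hchig iota Θ' hE2' h1' h2' w'
        (fun ℓ hℓ hℓM hℓS => hw'.symm ▸ h ℓ hℓ hℓM hℓS)
    rw [← hw', hw0, map_zero]

/-! ### the lifting property from the Theta-functoriality (steps (e2), (e3), (e5)) -/

/-- **(e2)** descent of the Theta-functoriality to `ℚ̄`. -/
theorem S35P6E_descent (N ℓ : ℕ) [NeZero N] [NeZero ℓ] [NeZero (N * ℓ)]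
    (ν : JZero (N * ℓ) →+ JZero N) (νC : PG_JC (N * ℓ) →+ PG_JC N)
    (hbc : ∀ x : JZero (N * ℓ), PG8P_b ℂ N (ν x) = νC (PG8P_b ℂ (N * ℓ) x))
    (V : PG_M (N * ℓ) →+ PG_M N) (hV : S35P6_TFfor N ℓ νC V) (m : ℕ) (hm : 0 < m)
    (Θ₀ : PG_M (N * ℓ) →+ JZero (N * ℓ)) (ΘC : PG_M (N * ℓ) →+ PG_JC (N * ℓ))
    (hΘ : PG_THETA (N * ℓ) m ΘC) (hb : ∀ c, PG8P_b ℂ (N * ℓ) (Θ₀ c) = ΘC c)
    (Θ₀' : PG_M N →+ JZero N) (ΘC' : PG_M N →+ PG_JC N)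
    (hΘ' : PG_THETA N m ΘC') (hb' : ∀ c, PG8P_b ℂ N (Θ₀' c) = ΘC' c) (c : PG_M (N * ℓ)) :
    ν (Θ₀ c) = Θ₀' (V c) := by
  apply Fermat.Agent.G_helper26_G8.PG8_b_injective ℂ N
  rw [hbc, hb, hb']
  exact hV m hm ΘC ΘC' hΘ hΘ' c

/-- **(e5)** generic: if `φ ∘ θ = θ' ∘ V` then `f₂ θ' ∘ V_𝒪 = φ_𝒪 ∘ f₂ θ`. -/
theorem S35P6E_f2_map (R : Type*) [CommRing R] (𝒪 : Type*) [CommRing 𝒪] [Algebra R 𝒪]
    {Λ : Type*} [AddCommGroup Λ] [Module R Λ] {Λ' : Type*} [AddCommGroup Λ'] [Module R Λ']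
    {M : Type*} [AddCommGroup M] {M' : Type*} [AddCommGroup M']
    (θ : M →+ Λ) (θ' : M' →+ Λ') (φ : Λ →ₗ[R] Λ') (V : M →+ M')
    (h : ∀ c, φ (θ c) = θ' (V c)) (z : 𝒪 ⊗[ℤ] M) :
    PG30_f₂ R 𝒪 θ' (V.toIntLinearMap.baseChange 𝒪 z) = φ.baseChange 𝒪 (PG30_f₂ R 𝒪 θ z) := by
  induction z using TensorProduct.induction_on with
  | zero => simp
  | tmul c m => simp [PG30_f₂_tmul, h]
  | add x y hx hy => simp only [map_add, hx, hy]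

/-- **the lifting property from the Theta-functoriality** along `ν`. -/
theorem S35P6E_lift_of_TF (N ℓ : ℕ) [NeZero N] [NeZero ℓ] [NeZero (N * ℓ)]
    (p : ℕ) [Fact p.Prime] (𝒪 : Type*) [CommRing 𝒪] [Algebra ℤ_[p] 𝒪]
    (ν : JZero (N * ℓ) →+ JZero N) (νC : PG_JC (N * ℓ) →+ PG_JC N)
    (hbc : ∀ x : JZero (N * ℓ), PG8P_b ℂ N (ν x) = νC (PG8P_b ℂ (N * ℓ) x))
    (hTF : ∃ V : PG_M (N * ℓ) →+ PG_M N, S35P6_TFfor N ℓ νC V)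
    (Θ : ℕ → PG_M (N * ℓ) →+ JZero (N * ℓ)) (ΘC : ℕ → PG_M (N * ℓ) →+ PG_JC (N * ℓ))
    (hΘ : ∀ n, PG_THETA (N * ℓ) (p ^ n) (ΘC n))
    (hb : ∀ n c, PG8P_b ℂ (N * ℓ) (Θ n c) = ΘC n c)
    (h1 : ∀ n c, (p ^ n) • Θ n c = 0) (h2 : ∀ n c, p • Θ (n + 1) c = Θ n c)
    (Θ' : ℕ → PG_M N →+ JZero N) (ΘC' : ℕ → PG_M N →+ PG_JC N)
    (hΘ' : ∀ n, PG_THETA N (p ^ n) (ΘC' n))
    (hb' : ∀ n c, PG8P_b ℂ N (Θ' n c) = ΘC' n c)
    (h1' : ∀ n c, (p ^ n) • Θ' n c = 0) (h2' : ∀ n c, p • Θ' (n + 1) c = Θ' n c)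
    (x₀ : 𝒪 ⊗[ℤ] PG_M (N * ℓ)) :
    ∃ w' : 𝒪 ⊗[ℤ] PG_M N,
      PG30_f₂ ℤ_[p] 𝒪 (S30T_lift Θ' h1' h2') w' =
        (S35BR_tateMap (p := p) ν).baseChange 𝒪 (PG30_f₂ ℤ_[p] 𝒪 (S30T_lift Θ h1 h2) x₀) := by
  have hp : p.Prime := Fact.out
  obtain ⟨V, hV⟩ := hTF
  refine ⟨V.toIntLinearMap.baseChange 𝒪 x₀, ?_⟩
  refine S35P6E_f2_map ℤ_[p] 𝒪 (S30T_lift Θ h1 h2) (S30T_lift Θ' h1' h2')
    (S35BR_tateMap (p := p) ν) V (fun c => ?_) x₀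
  apply S30T_ext
  intro n
  rw [S35BR_tateMap_apply, S30T_lift_apply, S30T_lift_apply]
  exact S35P6E_descent N ℓ ν νC hbc V hV (p ^ n) (pow_pos hp.pos n) (Θ n) (ΘC n) (hΘ n) (hb n)
    (Θ' n) (ΘC' n) (hΘ' n) (hb' n) c

/-! ### the three final forms of (P6) at the level `N' * q` -/

/-- finiteness of `J₀(N)[p]` in the `ℕ`-form, from `PG_E2`. -/
theorem S35P6E_fin {N : ℕ} [NeZero N] {p : ℕ} {Θ : ℕ → PG_M N →+ JZero N}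
    (hE2 : ∀ n : ℕ, PG_E2 N (p ^ n) (Θ n)) : {y : JZero N | p • y = 0}.Finite := by
  have h := (hE2 1).fin
  rw [pow_one] at h
  refine h.subset (fun y hy => ?_)
  refine (Pic0.mem_torsion).2 ?_
  rw [natCast_zsmul]
  exact hy

theorem S35P6E_ne (N' q : ℕ) [NeZero N'] (hq : q.Prime) : N' ≠ N' * q := by
  intro h
  have h1 : N' * 1 = N' * q := by rw [mul_one]; exact h
  have h2 := Nat.eq_of_mul_eq_mul_left (Nat.pos_of_ne_zero (NeZero.ne N')) h1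
  exact hq.one_lt.ne h2

set_option maxHeartbeats 1000000 in
/-- **(P6) at the level `N' * q` from (NoEig) at the level `N'`** (route WS of helper5). -/
theorem S35P6E_P6At_of_noEig (N' q : ℕ) [NeZero N'] [NeZero q] [NeZero (N' * q)]
    (lam : ℕ) [Fact lam.Prime] (S : Finset ℕ)
    (O' : Type) [CommRing O'] [IsDomain O'] [IsDiscreteValuationRing O']
    [IsAdicComplete (IsLocalRing.maximalIdeal O') O'] [CharZero O']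
    (hlamO' : (lam : O') ∈ IsLocalRing.maximalIdeal O')
    (χ : CuspForm.heckeAlgebra (N' * q) 2 (↑S : Set ℕ) →+* O')
    (hlamS : lam ∈ S) (hMS : ∀ r : ℕ, r.Prime → r ∣ N' * q → r ∈ S)
    (hNoEig :
      letI : Algebra ℤ_[lam] O' :=
        (Fermat.Agent.S30_helper25_ZP.S30ZP_zpLocal lam O' hlamO').toAlgebra
      ∀ v' : O' ⊗[ℤ_[lam]] S30T_Tate (JZero N') lam,
        (∀ (ℓ : ℕ) (hℓ : ℓ.Prime) (hℓM : ¬ ℓ ∣ N' * q) (hℓS : ℓ ∉ (↑S : Set ℕ)),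
          (S30TC_T N' lam ℓ).baseChange O' v' =
            χ (CuspForm.heckeAlgebra.T hℓ hℓM hℓS) • v') → v' = 0) :
    S35ENDK_P6At N' q lam S O' hlamO' χ := by
  letI : Algebra ℤ_[lam] O' :=
    (Fermat.Agent.S30_helper25_ZP.S30ZP_zpLocal lam O' hlamO').toAlgebra
  exact S35P6E_of_noEig (N' * q) N' (dvd_mul_right N' q) lam S hlamS hMS O' χ
    (S35PU_alpha N' q) (S35PU_beta N' q) (S35PU_alpha_smul N' q) (S35PU_beta_smul N' q) hNoEig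

set_option maxHeartbeats 1000000 in
/-- **(P6) at the level `N' * q` from the surjectivity of the adic `Θ` at the level `N'`**
(route SURJ of helper1; the hypothesis is only needed for the families with the contract). -/
theorem S35P6E_P6At_of_surj (N' q : ℕ) [NeZero N'] [NeZero q] [NeZero (N' * q)] (hq : q.Prime)
    {g : CuspForm (CongruenceSubgroup.Gamma0 (N' * q)) 2} (hg : g.IsNewform)
    (lam : ℕ) [Fact lam.Prime] (S : Finset ℕ)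
    (O' : Type) [CommRing O'] [IsDomain O'] [IsDiscreteValuationRing O']
    [IsAdicComplete (IsLocalRing.maximalIdeal O') O'] [CharZero O']
    (hlamO' : (lam : O') ∈ IsLocalRing.maximalIdeal O')
    (chig : CuspForm.heckeAlgebra (N' * q) 2 (↑S : Set ℕ) →+* ℂ)
    (hchig : ∀ (ℓ : ℕ) (hℓ : ℓ.Prime) (hℓM : ¬ ℓ ∣ N' * q) (hℓS : ℓ ∉ (↑S : Set ℕ)),
      chig (CuspForm.heckeAlgebra.T hℓ hℓM hℓS) = ModularFormClass.qCoeff g ℓ)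
    (iota : chig.range →+* O')
    (hlamS : lam ∈ S) (hMS : ∀ r : ℕ, r.Prime → r ∣ N' * q → r ∈ S)
    (hSurj :
      letI : Algebra ℤ_[lam] O' :=
        (Fermat.Agent.S30_helper25_ZP.S30ZP_zpLocal lam O' hlamO').toAlgebra
      ∀ (Θ₀ : ℕ → PG_M N' →+ JZero N') (ΘC : ℕ → PG_M N' →+ PG_JC N')
        (hΘ : ∀ n, PG_THETA N' (lam ^ n) (ΘC n)) (hb : ∀ n c, PG8P_b ℂ N' (Θ₀ n c) = ΘC n c)
        (h1 : ∀ n c, (lam ^ n) • Θ₀ n c = 0) (h2 : ∀ n c, lam • Θ₀ (n + 1) c = Θ₀ n c)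
        (hfin : {y : JZero N' | lam • y = 0}.Finite),
        Function.Surjective (PG30_f₂ ℤ_[lam] O' (S30T_lift Θ₀ h1 h2))) :
    S35ENDK_P6At N' q lam S O' hlamO' (iota.comp chig.rangeRestrict) := by
  letI : Algebra ℤ_[lam] O' :=
    (Fermat.Agent.S30_helper25_ZP.S30ZP_zpLocal lam O' hlamO').toAlgebra
  have hlam : lam.Prime := Fact.out
  obtain ⟨Θ, ΘC, hE2, hΘ, hb, hcompat⟩ := S35P6E_family (N' * q) lam hlam.pos
  obtain ⟨Θ', ΘC', hE2', hΘ', hb', hcompat'⟩ := S35P6E_family N' lam hlam.pos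
  have hs := hSurj Θ' ΘC' hΘ' hb' (S35P6E_h1 hE2') (S35P6E_h2 hcompat') (S35P6E_fin hE2')
  exact S35P6E_of_lift hg N' (dvd_mul_right N' q) (S35P6E_ne N' q hq) lam S hlamS hMS O'
    chig hchig iota Θ hE2 (S35P6E_h1 hE2) (S35P6E_h2 hcompat) Θ' hE2' (S35P6E_h1 hE2')
    (S35P6E_h2 hcompat') (S35PU_alpha N' q) (S35PU_beta N' q) (S35PU_alpha_smul N' q)
    (S35PU_beta_smul N' q) (fun x₀ => hs _) (fun x₀ => hs _)

set_option maxHeartbeats 1000000 in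
/-- **(P6) at the level `N' * q` from the Theta-functoriality along `α` and `β`** (plan v1):
this is the hypothesis `hP6` of `S35ENDK_frozen` verbatim. -/
theorem S35P6E_main
    (hA : ∀ (N ℓ : ℕ) [NeZero N] [NeZero ℓ], ℓ.Prime → ¬ ℓ ∣ N → S35P6_TFA N ℓ)
    (hB : ∀ (N ℓ : ℕ) [NeZero N] [NeZero ℓ], ℓ.Prime → ¬ ℓ ∣ N → S35P6_TFB N ℓ)
    (hbcA : ∀ (N ℓ : ℕ) [NeZero N] [NeZero ℓ] (x : JZero (N * ℓ)),
      PG8P_b ℂ N (S35PU_alpha N ℓ x) = S35PU_alphaL ℂ N ℓ (PG8P_b ℂ (N * ℓ) x))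
    (hbcB : ∀ (N ℓ : ℕ) [NeZero N] [NeZero ℓ] (x : JZero (N * ℓ)),
      PG8P_b ℂ N (S35PU_beta N ℓ x) = S35PU_betaL ℂ N ℓ (PG8P_b ℂ (N * ℓ) x))
    (N' q : ℕ) [NeZero N'] [NeZero q] [NeZero (N' * q)] (hq : q.Prime) (hqN : ¬ q ∣ N')
    {g : CuspForm (CongruenceSubgroup.Gamma0 (N' * q)) 2} (hg : g.IsNewform)
    (lam : ℕ) [Fact lam.Prime] (hqlam : q ≠ lam) (S : Finset ℕ)
    (O' : Type) [CommRing O'] [IsDomain O'] [IsDiscreteValuationRing O']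
    [IsAdicComplete (IsLocalRing.maximalIdeal O') O'] [Finite (IsLocalRing.ResidueField O')]
    [CharZero O'] (hlamO' : (lam : O') ∈ IsLocalRing.maximalIdeal O')
    (chig : CuspForm.heckeAlgebra (N' * q) 2 (↑S : Set ℕ) →+* ℂ)
    (hchig : ∀ (ℓ : ℕ) (hℓ : ℓ.Prime) (hℓM : ¬ ℓ ∣ N' * q) (hℓS : ℓ ∉ (↑S : Set ℕ)),
      chig (CuspForm.heckeAlgebra.T hℓ hℓM hℓS) = ModularFormClass.qCoeff g ℓ)
    (iota : chig.range →+* O')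
    (hlamS : lam ∈ S) (hMS : ∀ r : ℕ, r.Prime → r ∣ N' * q → r ∈ S) :
    S35ENDK_P6At N' q lam S O' hlamO' (iota.comp chig.rangeRestrict) := by
  letI : Algebra ℤ_[lam] O' :=
    (Fermat.Agent.S30_helper25_ZP.S30ZP_zpLocal lam O' hlamO').toAlgebra
  have hlam : lam.Prime := Fact.out
  obtain ⟨Θ, ΘC, hE2, hΘ, hb, hcompat⟩ := S35P6E_family (N' * q) lam hlam.pos
  obtain ⟨Θ', ΘC', hE2', hΘ', hb', hcompat'⟩ := S35P6E_family N' lam hlam.pos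
  exact S35P6E_of_lift hg N' (dvd_mul_right N' q) (S35P6E_ne N' q hq) lam S hlamS hMS O'
    chig hchig iota Θ hE2 (S35P6E_h1 hE2) (S35P6E_h2 hcompat) Θ' hE2' (S35P6E_h1 hE2')
    (S35P6E_h2 hcompat') (S35PU_alpha N' q) (S35PU_beta N' q) (S35PU_alpha_smul N' q)
    (S35PU_beta_smul N' q)
    (fun x₀ => S35P6E_lift_of_TF N' q lam O' (S35PU_alpha N' q) (S35PU_alphaL ℂ N' q)
      (hbcA N' q) (hA N' q hq hqN) Θ ΘC hΘ hb _ _ Θ' ΘC' hΘ' hb' _ _ x₀)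
    (fun x₀ => S35P6E_lift_of_TF N' q lam O' (S35PU_beta N' q) (S35PU_betaL ℂ N' q)
      (hbcB N' q) (hB N' q hq hqN) Θ ΘC hΘ hb _ _ Θ' ΘC' hΘ' hb' _ _ x₀)

end Fermat.Agent.S35_helper24_P6E
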