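import Mathlib
import Fermat.Prelude.Def_GaloisRep_Residual
import Fermat.Prelude.Def_CuspForm_Newforms

/-!
# S35, piece (P6)[d] "SMO" (helper24): abstract core

Two normalised eigenforms `g` (level `M`) and `g'` (level `M'`) whose prime-indexed
`q`-coefficients agree outside a FINITE set `S` of primes agree at every prime `ℓ ∤ M M'`.

Inputs (hypotheses here; all three are landed theorems, plugged in `S35_helper24_SMO`):
* `S35SMO_S29`  : the residual representation attached to a normalised eigenform, for every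
  prime `p` and every ring hom `ℤ̄ → k`, `k` a field of characteristic `p`;
* `S35SMO_FD`   : Frobenius density (every `g ∈ G_ℚ` agrees on a finite level with a power of a
  Frobenius lift at a prime outside any given finite set);
* `S35SMO_Frob` : every prime has a Frobenius lift.

Proof: rank-2 linear algebra (the characteristic polynomial of a power depends only on the
characteristic polynomial) + "a nonzero algebraic integer divides a nonzero integer".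
-/

set_option autoImplicit false
set_option linter.unusedSectionVars false
set_option linter.unusedVariables false
set_option linter.style.haveILetI false

open Polynomial

namespace Fermat.Agent.S35_helper24_SMOA

noncomputable section

/-! ### (A) rank 2: the characteristic polynomial of a power -/

/-- The Dickson sequence `D₀ = 2`, `D₁ = t`, `D_{n+2} = t D_{n+1} - e D_n`. -/
def S35SMO_dick {R : Type*} [CommRing R] (t e : R) : ℕ → R
  | 0 => 2
  | 1 => t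
  | (n + 2) => t * S35SMO_dick t e (n + 1) - e * S35SMO_dick t e n

theorem S35SMO_mat_sq {R : Type*} [CommRing R] (M : Matrix (Fin 2) (Fin 2) R) :
    M * M = M.trace • M - M.det • (1 : Matrix (Fin 2) (Fin 2) R) := by
  ext i j
  fin_cases i <;> fin_cases j <;>
    simp [Matrix.mul_apply, Fin.sum_univ_two, Matrix.trace_fin_two, Matrix.det_fin_two] <;> ring

theorem S35SMO_mat_pow_succ_succ {R : Type*} [CommRing R] (M : Matrix (Fin 2) (Fin 2) R)
    (n : ℕ) : M ^ (n + 2) = M.trace • M ^ (n + 1) - M.det • M ^ n := by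
  have h := S35SMO_mat_sq M
  calc M ^ (n + 2) = M ^ n * (M * M) := by rw [pow_add, pow_two]
    _ = M ^ n * (M.trace • M - M.det • (1 : Matrix (Fin 2) (Fin 2) R)) := by rw [h]
    _ = M.trace • M ^ (n + 1) - M.det • M ^ n := by
      rw [mul_sub, Matrix.mul_smul, Matrix.mul_smul, mul_one, pow_succ]

theorem S35SMO_trace_pow {R : Type*} [CommRing R] (M : Matrix (Fin 2) (Fin 2) R) :
    ∀ n : ℕ, (M ^ n).trace = S35SMO_dick M.trace M.det n
  | 0 => by
    rw [pow_zero, Matrix.trace_one, Fintype.card_fin]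
    simp [S35SMO_dick]
  | 1 => by rw [pow_one]; rfl
  | (n + 2) => by
    rw [S35SMO_mat_pow_succ_succ, Matrix.trace_sub, Matrix.trace_smul, Matrix.trace_smul,
      S35SMO_trace_pow M (n + 1), S35SMO_trace_pow M n]
    simp [S35SMO_dick, smul_eq_mul]

theorem S35SMO_trace_det_of_charpoly {R : Type*} [CommRing R] [Nontrivial R]
    (M M' : Matrix (Fin 2) (Fin 2) R) (h : M.charpoly = M'.charpoly) :
    M.trace = M'.trace ∧ M.det = M'.det := by
  rw [Matrix.charpoly_fin_two, Matrix.charpoly_fin_two] at h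
  have h1 := congrArg (fun P : R[X] => P.coeff 1) h
  have h0 := congrArg (fun P : R[X] => P.coeff 0) h
  simp only [coeff_add, coeff_sub, coeff_C_mul, coeff_X_one, coeff_X_pow, coeff_C_zero,
    coeff_X_zero, mul_one, mul_zero] at h1 h0
  simp at h1 h0
  exact ⟨h1, h0⟩

theorem S35SMO_mat_charpoly_pow {R : Type*} [CommRing R] [Nontrivial R]
    (M M' : Matrix (Fin 2) (Fin 2) R) (h : M.charpoly = M'.charpoly) (n : ℕ) :
    (M ^ n).charpoly = (M' ^ n).charpoly := by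
  obtain ⟨ht, hd⟩ := S35SMO_trace_det_of_charpoly M M' h
  rw [Matrix.charpoly_fin_two, Matrix.charpoly_fin_two, S35SMO_trace_pow, S35SMO_trace_pow,
    Matrix.det_pow, Matrix.det_pow, ht, hd]

/-- For endomorphisms of two free modules of rank 2: equal characteristic polynomials have
powers with equal characteristic polynomials. -/
theorem S35SMO_charpoly_pow_congr {k : Type*} [Field k] {V V' : Type*}
    [AddCommGroup V] [Module k V] [AddCommGroup V'] [Module k V']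
    [Module.Finite k V] [Module.Finite k V']
    (hV : Module.finrank k V = 2) (hV' : Module.finrank k V' = 2)
    (f : Module.End k V) (f' : Module.End k V')
    (h : LinearMap.charpoly f = LinearMap.charpoly f') (n : ℕ) :
    LinearMap.charpoly (f ^ n) = LinearMap.charpoly (f' ^ n) := by
  let b : Module.Basis (Fin 2) k V := Module.finBasisOfFinrankEq k V hV
  let b' : Module.Basis (Fin 2) k V' := Module.finBasisOfFinrankEq k V' hV'
  have e1 : ∀ u : Module.End k V, (LinearMap.toMatrix b b u).charpoly = LinearMap.charpoly u :=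
    fun u => LinearMap.charpoly_toMatrix u b
  have e2 : ∀ u : Module.End k V',
      (LinearMap.toMatrix b' b' u).charpoly = LinearMap.charpoly u :=
    fun u => LinearMap.charpoly_toMatrix u b'
  have p1 : LinearMap.toMatrix b b (f ^ n) = (LinearMap.toMatrix b b f) ^ n :=
    map_pow (LinearMap.toMatrixAlgEquiv b) f n
  have p2 : LinearMap.toMatrix b' b' (f' ^ n) = (LinearMap.toMatrix b' b' f') ^ n :=
    map_pow (LinearMap.toMatrixAlgEquiv b') f' n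
  rw [← e1, ← e2, p1, p2]
  exact S35SMO_mat_charpoly_pow _ _ (by rw [e1, e2]; exact h) n

/-! ### (B) a nonzero integral element divides a nonzero integer -/

theorem S35SMO_exists_int_of_aeval {A : Type*} [CommRing A] [IsDomain A] (δ : A)
    (hδ : δ ≠ 0) : ∀ (d : ℕ) (P : ℤ[X]), P.natDegree = d → P ≠ 0 → aeval δ P = 0 →
      ∃ n : ℤ, n ≠ 0 ∧ ∃ c : A, (n : A) = δ * c := by
  intro d
  induction d using Nat.strong_induction_on with
  | _ d ih =>
    intro P hd hP0 hP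
    by_cases h0 : P.coeff 0 = 0
    · -- `P = X * divX P`
      have hX : X * P.divX = P := by
        have := X_mul_divX_add P
        rw [h0, map_zero, add_zero] at this
        exact this
      have hdiv0 : P.divX ≠ 0 := by
        intro h
        apply hP0
        rw [← hX, h, mul_zero]
      have hdeg : P.divX.natDegree < d := by
        have hnd : P.natDegree = P.divX.natDegree + 1 := by
          conv_lhs => rw [← hX]
          rw [natDegree_X_mul hdiv0]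
        omega
      have hev : aeval δ P.divX = 0 := by
        have h1 : aeval δ (X * P.divX) = 0 := by rw [hX]; exact hP
        rw [map_mul, aeval_X] at h1
        exact (mul_eq_zero.mp h1).resolve_left hδ
      exact ih _ hdeg P.divX rfl hdiv0 hev
    · refine ⟨P.coeff 0, h0, -(aeval δ P.divX), ?_⟩
      have h1 : aeval δ (X * P.divX + C (P.coeff 0)) = 0 := by
        rw [X_mul_divX_add]; exact hP
      rw [map_add, map_mul, aeval_X, aeval_C] at h1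
      have h2 : algebraMap ℤ A (P.coeff 0) = ((P.coeff 0 : ℤ) : A) := by
        simp
      rw [h2] at h1
      rw [mul_neg]
      exact eq_neg_of_add_eq_zero_right h1

theorem S35SMO_exists_int_mul {A : Type*} [CommRing A] [IsDomain A] (δ : A)
    (hint : IsIntegral ℤ δ) (hδ : δ ≠ 0) : ∃ n : ℤ, n ≠ 0 ∧ ∃ c : A, (n : A) = δ * c := by
  obtain ⟨P, hPm, hP⟩ := hint
  refine S35SMO_exists_int_of_aeval δ hδ P.natDegree P rfl hPm.ne_zero ?_
  rw [aeval_def]; exact hP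

/-! ### (C) a maximal ideal of `ℤ̄` over `p` -/

theorem S35SMO_exists_max (p : ℕ) (hp : p.Prime) :
    ∃ Q : Ideal (integralClosure ℤ ℂ), Q.IsMaximal ∧
      ∀ n : ℤ, ((n : ℤ) : integralClosure ℤ ℂ) ∈ Q ↔ (p : ℤ) ∣ n := by
  have hpp : Prime (p : ℤ) := Nat.prime_iff_prime_int.mp hp
  haveI hmax : (Ideal.span {(p : ℤ)}).IsMaximal :=
    PrincipalIdealRing.isMaximal_of_irreducible hpp.irreducible
  have hker : RingHom.ker (algebraMap ℤ (integralClosure ℤ ℂ)) ≤ Ideal.span {(p : ℤ)} := by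
    intro x hx
    rw [RingHom.mem_ker] at hx
    have hx0 : x = 0 := by
      have h1 : ((algebraMap ℤ (integralClosure ℤ ℂ) x : integralClosure ℤ ℂ) : ℂ) = 0 := by
        rw [hx]; rfl
      have h2 : ((algebraMap ℤ (integralClosure ℤ ℂ) x : integralClosure ℤ ℂ) : ℂ) = (x : ℂ) := by
        simp
      rw [h2] at h1
      exact_mod_cast h1
    rw [hx0]; exact Ideal.zero_mem _
  obtain ⟨Q, hQ, hcomap⟩ :=
    Ideal.exists_ideal_over_maximal_of_isIntegral (S := integralClosure ℤ ℂ)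
      (Ideal.span {(p : ℤ)}) hker
  refine ⟨Q, hQ, fun n => ?_⟩
  have h1 : ((n : ℤ) : integralClosure ℤ ℂ) = algebraMap ℤ (integralClosure ℤ ℂ) n := by
    simp
  rw [h1, ← Ideal.mem_comap, hcomap, Ideal.mem_span_singleton]

theorem S35SMO_charP (p : ℕ) (hp : p.Prime) (Q : Ideal (integralClosure ℤ ℂ))
    (hQ : ∀ n : ℤ, ((n : ℤ) : integralClosure ℤ ℂ) ∈ Q ↔ (p : ℤ) ∣ n) :
    CharP (integralClosure ℤ ℂ ⧸ Q) p := by
  refine ⟨fun x => ?_⟩
  have h1 : ((x : ℕ) : integralClosure ℤ ℂ ⧸ Q)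
      = Ideal.Quotient.mk Q (((x : ℤ) : ℤ) : integralClosure ℤ ℂ) := by
    simp
  rw [h1, Ideal.Quotient.eq_zero_iff_mem, hQ]
  exact Int.natCast_dvd_natCast

/-! ### (D) the three inputs and the theorem -/

/-- The residual representations attached to normalised eigenforms (= the landed S29, without
its unramifiedness clause). -/
def S35SMO_S29 : Prop :=
  ∀ (N : ℕ) (g : CuspForm (CongruenceSubgroup.Gamma0 N) 2), g.IsNormalizedEigenform →
    ∀ (p : ℕ), p.Prime → ∀ (k : Type) [Field k] [CharP k p]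
      (φ : integralClosure ℤ ℂ →+* k), ∃ ρ : ResidualGaloisRep k, ρ.IsAttachedTo g φ

/-- Frobenius density (= the landed `PG_frobenius_density`). -/
def S35SMO_FD : Prop :=
  ∀ (L : IntermediateField ℚ (AlgebraicClosure ℚ)) [FiniteDimensional ℚ L]
    (g : AlgebraicClosure ℚ ≃ₐ[ℚ] AlgebraicClosure ℚ) (S : Finset ℕ),
    ∃ (ℓ : ℕ) (A : ValuationSubring (AlgebraicClosure ℚ))
      (σ : AlgebraicClosure ℚ ≃ₐ[ℚ] AlgebraicClosure ℚ) (b : ℕ),
      ℓ.Prime ∧ ℓ ∉ S ∧ A.LiesOverPrime ℓ ∧ A.IsFrobeniusAt σ ℓ ∧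
        ∀ x ∈ L, g x = (σ ^ b) x

/-- Every prime has a Frobenius lift (= the landed `S54Frob.exists_frobenius`). -/
def S35SMO_Frob : Prop :=
  ∀ ℓ : ℕ, ℓ.Prime → ∃ A : ValuationSubring (AlgebraicClosure ℚ), A.LiesOverPrime ℓ ∧
    ∃ σ : AlgebraicClosure ℚ ≃ₐ[ℚ] AlgebraicClosure ℚ, A.IsFrobeniusAt σ ℓ

theorem S35SMO_natCast_ne_zero {k : Type} [Field k] {p : ℕ} [CharP k p] (hp : p.Prime)
    {ℓ : ℕ} (hℓ : ℓ.Prime) (hℓp : ℓ ≠ p) : (ℓ : k) ≠ 0 := by
  intro h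
  have h1 : p ∣ ℓ := (CharP.cast_eq_zero_iff k p ℓ).mp h
  exact hℓp ((Nat.prime_dvd_prime_iff_eq hp hℓ).mp h1).symm

/-- A residual representation takes the same value on two elements agreeing on its level. -/
theorem S35SMO_rho_eq {k : Type} [Field k] (ρ : ResidualGaloisRep k)
    (L : IntermediateField ℚ (AlgebraicClosure ℚ))
    (hL : ∀ σ : AlgebraicClosure ℚ ≃ₐ[ℚ] AlgebraicClosure ℚ, (∀ x ∈ L, σ x = x) → ρ.ρ σ = 1)
    (σ τ : AlgebraicClosure ℚ ≃ₐ[ℚ] AlgebraicClosure ℚ) (h : ∀ x ∈ L, σ x = τ x) :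
    ρ.ρ σ = ρ.ρ τ := by
  have h1 : ρ.ρ (σ⁻¹ * τ) = 1 := by
    apply hL
    intro x hx
    rw [AlgEquiv.mul_apply, ← h x hx]
    exact AlgEquiv.symm_apply_apply σ x
  have h2 : ρ.ρ τ = ρ.ρ σ * ρ.ρ (σ⁻¹ * τ) := by
    rw [← map_mul, mul_inv_cancel_left]
  rw [h2, h1, mul_one]

theorem S35SMO_coeff_one {k : Type} [Field k] (t t' e e' : k)
    (h : (X ^ 2 - C t * X + C e : k[X]) = X ^ 2 - C t' * X + C e') : t = t' := by
  have h1 := congrArg (fun P : k[X] => P.coeff 1) h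
  simp only [coeff_add, coeff_sub, coeff_C_mul, coeff_X_one, coeff_X_pow, mul_one] at h1
  simp at h1
  exact h1

/-- The congruence at one residue map. -/
theorem S35SMO_cong (hFD : S35SMO_FD) {M M' : ℕ}
    {g : CuspForm (CongruenceSubgroup.Gamma0 M) 2}
    {g' : CuspForm (CongruenceSubgroup.Gamma0 M') 2} (S : Finset ℕ)
    (h : ∀ ℓ : ℕ, ℓ.Prime → ¬ ℓ ∣ M → ¬ ℓ ∣ M' → ℓ ∉ S →
      ModularFormClass.qCoeff g' ℓ = ModularFormClass.qCoeff g ℓ)
    {p : ℕ} (hp : p.Prime) {k : Type} [Field k] [CharP k p]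
    (φ : integralClosure ℤ ℂ →+* k) (ρ ρ' : ResidualGaloisRep k)
    (hρ : ρ.IsAttachedTo g φ) (hρ' : ρ'.IsAttachedTo g' φ)
    (ℓ : ℕ) (hℓ : ℓ.Prime) (hℓM : ¬ ℓ ∣ M) (hℓM' : ¬ ℓ ∣ M') (hℓp : ℓ ≠ p)
    (A : ValuationSubring (AlgebraicClosure ℚ)) (hA : A.LiesOverPrime ℓ)
    (σ : AlgebraicClosure ℚ ≃ₐ[ℚ] AlgebraicClosure ℚ) (hσ : A.IsFrobeniusAt σ ℓ)
    (a a' : integralClosure ℤ ℂ) (ha : (a : ℂ) = ModularFormClass.qCoeff g ℓ)
    (ha' : (a' : ℂ) = ModularFormClass.qCoeff g' ℓ) : φ a = φ a' := by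
  have hM0 : M ≠ 0 := fun h0 => hℓM (h0 ▸ dvd_zero ℓ)
  have hM'0 : M' ≠ 0 := fun h0 => hℓM' (h0 ▸ dvd_zero ℓ)
  obtain ⟨L, hLfd, hL⟩ := ρ.factorsThroughFiniteLevel
  obtain ⟨L', hL'fd, hL'⟩ := ρ'.factorsThroughFiniteLevel
  haveI := hLfd
  haveI := hL'fd
  obtain ⟨ℓ₁, A₁, σ₁, b, hℓ₁, hℓ₁S, hA₁, hσ₁, hres⟩ :=
    hFD (L ⊔ L') σ (S ∪ {p} ∪ M.primeFactors ∪ M'.primeFactors)
  simp only [Finset.mem_union, Finset.mem_singleton, not_or] at hℓ₁S
  obtain ⟨⟨⟨h1S, h1p⟩, h1M⟩, h1M'⟩ := hℓ₁S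
  have hℓ₁M : ¬ ℓ₁ ∣ M := fun hd => h1M (Nat.mem_primeFactors.mpr ⟨hℓ₁, hd, hM0⟩)
  have hℓ₁M' : ¬ ℓ₁ ∣ M' := fun hd => h1M' (Nat.mem_primeFactors.mpr ⟨hℓ₁, hd, hM'0⟩)
  -- the two representations at `σ` and at `σ₁ ^ b`
  have e1 : ρ.ρ σ = ρ.ρ σ₁ ^ b := by
    rw [← map_pow]
    exact S35SMO_rho_eq ρ L hL σ (σ₁ ^ b) (fun x hx => hres x ((le_sup_left : L ≤ L ⊔ L') hx))
  have e2 : ρ'.ρ σ = ρ'.ρ σ₁ ^ b := by
    rw [← map_pow]
    exact S35SMO_rho_eq ρ' L' hL' σ (σ₁ ^ b)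
      (fun x hx => hres x ((le_sup_right : L' ≤ L ⊔ L') hx))
  -- the characteristic polynomials at `σ₁`
  obtain ⟨a₁, ha₁, hc₁⟩ := hρ ℓ₁ hℓ₁ hℓ₁M (S35SMO_natCast_ne_zero hp hℓ₁ h1p) A₁ hA₁ σ₁ hσ₁
  obtain ⟨a₁', ha₁', hc₁'⟩ :=
    hρ' ℓ₁ hℓ₁ hℓ₁M' (S35SMO_natCast_ne_zero hp hℓ₁ h1p) A₁ hA₁ σ₁ hσ₁
  have haa : a₁ = a₁' := by
    apply Subtype.ext
    rw [ha₁, ha₁', h ℓ₁ hℓ₁ hℓ₁M hℓ₁M' h1S]
  have hcp : LinearMap.charpoly (ρ.ρ σ₁) = LinearMap.charpoly (ρ'.ρ σ₁) := by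
    rw [hc₁, hc₁', haa]
  have hcpσ : LinearMap.charpoly (ρ.ρ σ) = LinearMap.charpoly (ρ'.ρ σ) := by
    rw [e1, e2]
    exact S35SMO_charpoly_pow_congr ρ.finrank_eq ρ'.finrank_eq _ _ hcp b
  -- the characteristic polynomials at `σ`
  obtain ⟨a₂, ha₂, hc₂⟩ := hρ ℓ hℓ hℓM (S35SMO_natCast_ne_zero hp hℓ hℓp) A hA σ hσ
  obtain ⟨a₂', ha₂', hc₂'⟩ := hρ' ℓ hℓ hℓM' (S35SMO_natCast_ne_zero hp hℓ hℓp) A hA σ hσ
  have h2 : a₂ = a := Subtype.ext (by rw [ha₂, ha])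
  have h2' : a₂' = a' := Subtype.ext (by rw [ha₂', ha'])
  rw [hc₂, hc₂', h2, h2'] at hcpσ
  exact S35SMO_coeff_one _ _ _ _ hcpσ

/-- The prime-indexed coefficients of a normalised eigenform are algebraic integers. -/
theorem S35SMO_exists_integral (hS29 : S35SMO_S29) (hFrob : S35SMO_Frob) {N : ℕ}
    {g : CuspForm (CongruenceSubgroup.Gamma0 N) 2} (hg : g.IsNormalizedEigenform)
    (ℓ : ℕ) (hℓ : ℓ.Prime) (hℓN : ¬ ℓ ∣ N) :
    ∃ a : integralClosure ℤ ℂ, (a : ℂ) = ModularFormClass.qCoeff g ℓ := by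
  obtain ⟨p, hpl, hp⟩ := Nat.exists_infinite_primes (ℓ + 1)
  have hℓp : ℓ ≠ p := by omega
  obtain ⟨Q, hQmax, hQ⟩ := S35SMO_exists_max p hp
  letI : Field (integralClosure ℤ ℂ ⧸ Q) := Ideal.Quotient.field Q
  haveI : CharP (integralClosure ℤ ℂ ⧸ Q) p := S35SMO_charP p hp Q hQ
  obtain ⟨ρ, hρ⟩ := hS29 N g hg p hp (integralClosure ℤ ℂ ⧸ Q) (Ideal.Quotient.mk Q)
  obtain ⟨A, hA, σ, hσ⟩ := hFrob ℓ hℓ
  obtain ⟨a, ha, -⟩ := hρ ℓ hℓ hℓN (S35SMO_natCast_ne_zero hp hℓ hℓp) A hA σ hσ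
  exact ⟨a, ha⟩

/-- **SMO, abstract form.** -/
theorem S35SMO_main_abs (hS29 : S35SMO_S29) (hFD : S35SMO_FD) (hFrob : S35SMO_Frob)
    {M M' : ℕ} {g : CuspForm (CongruenceSubgroup.Gamma0 M) 2} (hg : g.IsNormalizedEigenform)
    {g' : CuspForm (CongruenceSubgroup.Gamma0 M') 2} (hg' : g'.IsNormalizedEigenform)
    (S : Finset ℕ)
    (h : ∀ ℓ : ℕ, ℓ.Prime → ¬ ℓ ∣ M → ¬ ℓ ∣ M' → ℓ ∉ S →
      ModularFormClass.qCoeff g' ℓ = ModularFormClass.qCoeff g ℓ) :
    ∀ ℓ : ℕ, ℓ.Prime → ¬ ℓ ∣ M → ¬ ℓ ∣ M' →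
      ModularFormClass.qCoeff g' ℓ = ModularFormClass.qCoeff g ℓ := by
  intro ℓ hℓ hℓM hℓM'
  obtain ⟨a, ha⟩ := S35SMO_exists_integral hS29 hFrob hg ℓ hℓ hℓM
  obtain ⟨a', ha'⟩ := S35SMO_exists_integral hS29 hFrob hg' ℓ hℓ hℓM'
  rw [← ha, ← ha']
  by_contra hne
  have hδ : a - a' ≠ 0 := by
    intro h0
    apply hne
    rw [sub_eq_zero.mp h0]
  obtain ⟨n, hn0, c, hnc⟩ :=
    S35SMO_exists_int_mul (a - a') (integralClosure.isIntegral (a - a')) hδ
  obtain ⟨p, hpl, hp⟩ := Nat.exists_infinite_primes (n.natAbs + ℓ + 1)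
  have hℓp : ℓ ≠ p := by omega
  have hpn : ¬ (p : ℤ) ∣ n := by
    intro hd
    have h1 : p ∣ n.natAbs := Int.natCast_dvd.mp hd
    have h2 : 0 < n.natAbs := Int.natAbs_pos.mpr hn0
    have h3 := Nat.le_of_dvd h2 h1
    omega
  obtain ⟨Q, hQmax, hQ⟩ := S35SMO_exists_max p hp
  letI : Field (integralClosure ℤ ℂ ⧸ Q) := Ideal.Quotient.field Q
  haveI : CharP (integralClosure ℤ ℂ ⧸ Q) p := S35SMO_charP p hp Q hQ
  obtain ⟨ρ, hρ⟩ := hS29 M g hg p hp (integralClosure ℤ ℂ ⧸ Q) (Ideal.Quotient.mk Q)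
  obtain ⟨ρ', hρ'⟩ := hS29 M' g' hg' p hp (integralClosure ℤ ℂ ⧸ Q) (Ideal.Quotient.mk Q)
  obtain ⟨A, hA, σ, hσ⟩ := hFrob ℓ hℓ
  have hcong := S35SMO_cong hFD S h hp (Ideal.Quotient.mk Q) ρ ρ' hρ hρ' ℓ hℓ hℓM hℓM' hℓp
    A hA σ hσ a a' ha ha'
  have hmem : a - a' ∈ Q := by
    rw [← Ideal.Quotient.eq_zero_iff_mem, map_sub, hcong, sub_self]
  have hnQ : ((n : ℤ) : integralClosure ℤ ℂ) ∈ Q := by
    rw [hnc]; exact Q.mul_mem_right c hmem
  exact hpn ((hQ n).mp hnQ)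

/-- Consequence: the good eigensystem of `g` occurs at level `M'`. -/
theorem S35SMO_occurs_abs (hS29 : S35SMO_S29) (hFD : S35SMO_FD) (hFrob : S35SMO_Frob)
    {M M' : ℕ} (hM'M : M' ∣ M)
    {g : CuspForm (CongruenceSubgroup.Gamma0 M) 2} (hg : g.IsNormalizedEigenform)
    {g' : CuspForm (CongruenceSubgroup.Gamma0 M') 2} (hg' : g'.IsNormalizedEigenform)
    (S : Finset ℕ)
    (h : ∀ ℓ : ℕ, ℓ.Prime → ¬ ℓ ∣ M → ℓ ∉ S →
      ModularFormClass.qCoeff g' ℓ = ModularFormClass.qCoeff g ℓ) :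
    CuspForm.GoodEigensystemOccursAt g M' :=
  ⟨g', hg', fun ℓ hℓ hℓM =>
    S35SMO_main_abs hS29 hFD hFrob hg hg' S (fun ℓ' hℓ' h1 _ h3 => h ℓ' hℓ' h1 h3) ℓ hℓ hℓM
      (fun hd => hℓM (hd.trans hM'M))⟩

/-- Consequence: a newform of level `M` shares its eigenvalues outside a finite set with no
normalised eigenform of a proper divisor level. -/
theorem S35SMO_new_abs (hS29 : S35SMO_S29) (hFD : S35SMO_FD) (hFrob : S35SMO_Frob)
    {M M' : ℕ} {g : CuspForm (CongruenceSubgroup.Gamma0 M) 2} (hg : g.IsNewform)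
    (hM'M : M' ∣ M) (hne : M' ≠ M)
    {g' : CuspForm (CongruenceSubgroup.Gamma0 M') 2} (hg' : g'.IsNormalizedEigenform)
    (S : Finset ℕ) :
    ¬ ∀ ℓ : ℕ, ℓ.Prime → ¬ ℓ ∣ M → ℓ ∉ S →
      ModularFormClass.qCoeff g' ℓ = ModularFormClass.qCoeff g ℓ :=
  fun h => hg.2 M' hM'M hne (S35SMO_occurs_abs hS29 hFD hFrob hM'M hg.1 hg' S h)

end

end Fermat.Agent.S35_helper24_SMOA
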