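import Mathlib
import Fermat.Prelude.Def_ModularCurve_HeckeModule
import Fermat.Prelude.Def_CuspForm_HeckeGaloisRepDatum
import Fermat.Prelude.Def_CuspForm_Newforms
import Fermat.Prelude.Def_EllipticCurve_FrobeniusTrace
import Fermat.Prelude.Def_FLTPrelim_Ramification
import Fermat.Agent.S37_helper21_B0cFinal
import Fermat.Agent.S30_helper27_TATEC
import Fermat.Agent.S30_helper25_ZP

/-!
# S35: the contracts between the blocks (helper25, owner)

Level `M = M' * q`, `q` a prime not dividing `M'`, `lam ≠ q` the residue characteristic.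

* `S35K_pushPic0`      : push-forward of divisor classes along a finite map of function fields;
* `S35K_alphaPush`, `S35K_betaPush` : the two degeneracy push-forwards
  `J₀(M' * q) →+ J₀(M')` (norms along the prelude's `heckeAlphaBar`, `heckeBetaBar`);
* `S35K_New`           : `x` is killed by both push-forwards (NO inertia invariance);
* `S35K_tateMap`       : functoriality of the Tate module for a map between two groups;
* `S35K_alphaPushTate`, `S35K_betaPushTate`, `S35K_NewTate` : the same on Tate modules and on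
  `O' ⊗ Tate`;
* `S35K_op`            : the operator `∏_{e ∈ L} (σ - e)` on `J₀(N)`;
* `S35K_Geo`           : **the contract of the geometry** (block GEO);
* `S35K_P6`            : **the contract of the Hecke side** (block P6);
* `S35K_Bad`           : the single input of the top (helper12's `S35TOP_Bad`, restated here
  at the level `M' * q` so that the three blocks type against one file).

Only definitions; the few proofs are the well-definedness of the maps.
-/

set_option autoImplicit false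
set_option linter.style.haveILetI false
set_option linter.unusedSectionVars false
set_option linter.unusedVariables false

open AlgebraicCurve ModularCurve
open scoped TensorProduct

noncomputable section

namespace Fermat.Agent.S35_helper25_Contracts

open Fermat.Agent.S30_helper1_TATE Fermat.Agent.S30_helper27_TATEC

local notation "Qb" => AlgebraicClosure ℚ
local notation "GQ" => (AlgebraicClosure ℚ ≃ₐ[ℚ] AlgebraicClosure ℚ)

/-! ### Push-forward of divisor classes -/

section Push

variable {K F F' : Type*} [Field K] [Field F] [Field F'] [Algebra K F] [Algebra K F']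
variable (φ : F →ₐ[K] F') (hφ : φ.toRingHom.IsIntegral)

/-- the push-forward on divisors of degree zero. -/
def S35K_pushDegZero :
    Divisor.degZero (K := K) (F := F') →+ Divisor.degZero (K := K) (F := F) :=
  ((Divisor.pushforwardAlong φ hφ).domRestrict
    (Divisor.degZero (K := K) (F := F'))).codRestrict _
    (fun D => Divisor.pushforwardAlong_mem_degZero φ hφ D.2)

@[simp]
theorem S35K_coe_pushDegZero (D : Divisor.degZero (K := K) (F := F')) :
    (S35K_pushDegZero φ hφ D : Divisor K F) = Divisor.pushforwardAlong φ hφ (D : Divisor K F') :=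
  rfl

/-- **the push-forward of divisor classes** along `φ : F → F'` (norm map). -/
def S35K_pushPic0 (hfin : FiniteAlong K φ) (hN : NormFormulaAlong K φ hfin) :
    Pic0 K F' →+ Pic0 K F :=
  QuotientAddGroup.map _ _ (S35K_pushDegZero φ hφ) (by
    rintro ⟨D, hD0⟩ hD
    simp only [AddSubgroup.mem_addSubgroupOf] at hD ⊢
    exact Divisor.isPrincipal_pushforwardAlong φ hφ hfin hN hD)

theorem S35K_pushPic0_mk (hfin : FiniteAlong K φ) (hN : NormFormulaAlong K φ hfin)
    (D : Divisor.degZero (K := K) (F := F')) :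
    S35K_pushPic0 φ hφ hfin hN (Pic0.mk D) = Pic0.mk (S35K_pushDegZero φ hφ D) :=
  rfl

end Push

/-! ### The two degeneracy push-forwards `J₀(M' * q) → J₀(M')` -/

section Degeneracy

variable (M' q : ℕ) [NeZero M'] [NeZero q]

/-- the norm formula along `α : F̄_{M'} → F̄_{M' q}`. -/
theorem S35K_normFormula_alpha :
    NormFormulaAlong Qb (heckeAlphaBar Qb M' q)
      (Fermat.Agent.S37_helper21_B0c.S37B0_finiteAlong_alpha M' q) := by
  haveI := Fermat.Agent.S37_helper21_B0c.S37B0_hasPrincipalDivisors (M' * q)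
  haveI := (Fermat.Agent.S24_helper23_DEG.DEG M').1
  exact Fermat.Agent.S37_helper11_NORM.S37B0_normFormulaAlong Qb _ _ (heckeAlphaBar Qb M' q)
    _ (Fermat.Agent.S24.jElt M') (Fermat.Agent.S24_helper23_GEN.TR M')

/-- the norm formula along `β : F̄_{M'} → F̄_{M' q}`. -/
theorem S35K_normFormula_beta :
    NormFormulaAlong Qb (heckeBetaBar Qb M' q)
      (Fermat.Agent.S37_helper21_B0c.S37B0_finiteAlong_beta M' q) := by
  haveI := Fermat.Agent.S37_helper21_B0c.S37B0_hasPrincipalDivisors (M' * q)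
  haveI := (Fermat.Agent.S24_helper23_DEG.DEG M').1
  exact Fermat.Agent.S37_helper11_NORM.S37B0_normFormulaAlong Qb _ _ (heckeBetaBar Qb M' q)
    _ (Fermat.Agent.S24.jElt M') (Fermat.Agent.S24_helper23_GEN.TR M')

/-- **`α_* : J₀(M' q) →+ J₀(M')`**, the norm along `heckeAlphaBar` (`j ↦ j`). -/
def S35K_alphaPush : JZero (M' * q) →+ JZero M' :=
  S35K_pushPic0 (heckeAlphaBar Qb M' q)
    (Fermat.Agent.S37_helper21_B0c.S37B0_heckeAlphaBarIntegral M' q)
    (Fermat.Agent.S37_helper21_B0c.S37B0_finiteAlong_alpha M' q) (S35K_normFormula_alpha M' q)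

/-- **`β_* : J₀(M' q) →+ J₀(M')`**, the norm along `heckeBetaBar` (`j ↦ j(q^q)`). -/
def S35K_betaPush : JZero (M' * q) →+ JZero M' :=
  S35K_pushPic0 (heckeBetaBar Qb M' q)
    (Fermat.Agent.S37_helper21_B0c.S37B0_heckeBetaBarIntegral M' q)
    (Fermat.Agent.S37_helper21_B0c.S37B0_finiteAlong_beta M' q) (S35K_normFormula_beta M' q)

/-- **`New x`**: the class `x ∈ J₀(M' q)` is killed by both degeneracy push-forwards.
No inertia invariance. -/
def S35K_New (x : JZero (M' * q)) : Prop :=
  S35K_alphaPush M' q x = 0 ∧ S35K_betaPush M' q x = 0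

end Degeneracy

/-! ### Tate modules -/

section Tate

variable {J J' : Type*} [AddCommGroup J] [AddCommGroup J'] (p : ℕ) [hp : Fact p.Prime]

/-- functoriality of the Tate module for an additive map between two groups. -/
def S35K_tateMap (f : J →+ J') : S30T_Tate J p →ₗ[ℤ_[p]] S30T_Tate J' p where
  toFun x := ⟨fun n => f ((x : ℕ → J) n), by
    constructor
    · intro n
      show (p ^ n) • f ((x : ℕ → J) n) = 0
      rw [← map_nsmul, S30T_pow_smul_self, map_zero]
    · intro n
      show p • f ((x : ℕ → J) (n + 1)) = f ((x : ℕ → J) n)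
      rw [← map_nsmul, S30T_smul_succ]⟩
  map_add' x y := by
    ext n
    show f ((x : ℕ → J) n + (y : ℕ → J) n) = f ((x : ℕ → J) n) + f ((y : ℕ → J) n)
    exact map_add f _ _
  map_smul' a x := by
    ext n
    show f (a.appr n • (x : ℕ → J) n) = a.appr n • f ((x : ℕ → J) n)
    exact map_nsmul f _ _

@[simp]
theorem S35K_tateMap_apply (f : J →+ J') (x : S30T_Tate J p) (n : ℕ) :
    ((S35K_tateMap p f x : S30T_Tate J' p) : ℕ → J') n = f ((x : ℕ → J) n) := rfl

end Tate

section TateDegeneracy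

variable (M' q : ℕ) [NeZero M'] [NeZero q] (lam : ℕ) [Fact lam.Prime]

/-- `α_*` on Tate modules. -/
def S35K_alphaPushTate :
    S30T_Tate (JZero (M' * q)) lam →ₗ[ℤ_[lam]] S30T_Tate (JZero M') lam :=
  S35K_tateMap lam (S35K_alphaPush M' q)

/-- `β_*` on Tate modules. -/
def S35K_betaPushTate :
    S30T_Tate (JZero (M' * q)) lam →ₗ[ℤ_[lam]] S30T_Tate (JZero M') lam :=
  S35K_tateMap lam (S35K_betaPush M' q)

/-- **`New`** for a vector of `O' ⊗ Tate`: killed by the base changes of `α_*` and `β_*`. -/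
def S35K_NewTate (O' : Type) [CommRing O'] [Algebra ℤ_[lam] O']
    (v : O' ⊗[ℤ_[lam]] S30T_Tate (JZero (M' * q)) lam) : Prop :=
  (S35K_alphaPushTate M' q lam).baseChange O' v = 0 ∧
    (S35K_betaPushTate M' q lam).baseChange O' v = 0

end TateDegeneracy

/-! ### The operator -/

section Operator

variable (N : ℕ) [NeZero N]

/-- the action of `σ` on `J₀(N)` as an element of the ring of additive endomorphisms. -/
def S35K_act (σ : GQ) : AddMonoid.End (JZero N) :=
  DistribMulAction.toAddMonoidEnd GQ (JZero N) σ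

theorem S35K_act_apply (σ : GQ) (x : JZero N) : S35K_act N σ x = σ • x := rfl

/-- **the operator `∏_{e ∈ L} (σ - e)`** on `J₀(N)`. -/
def S35K_op (σ : GQ) (L : List ℤ) : AddMonoid.End (JZero N) :=
  (L.map fun e : ℤ => S35K_act N σ - (e : AddMonoid.End (JZero N))).prod

/-- the same operator on the Tate module (the shape used by the top). -/
def S35K_opTate (lam : ℕ) [Fact lam.Prime] (σ : GQ) (L : List ℤ) :
    Module.End ℤ_[lam] (S30T_Tate (JZero N) lam) :=
  (L.map fun e : ℤ => S30TC_rho N lam σ - (e : ℤ_[lam]) • (1 : Module.End ℤ_[lam] _)).prod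

/-- the admissible eigenvalues. -/
def S35K_Adm (q : ℕ) (L : List ℤ) : Prop :=
  ∀ e ∈ L, e = 1 ∨ e = -1 ∨ e = (q : ℤ) ∨ e = -(q : ℤ)

end Operator

/-! ### The contracts -/

section Contracts

/-- **THE CONTRACT OF THE GEOMETRY (block GEO).**  For every Frobenius lift `σ` at `q` there are
an exponent `c` and a list `L` of integers from `{1, -1, q, -q}` such that `lam ^ c ∏ (σ - e)`
kills every `New` class of `lam`-power order of `J₀(M' q)`. -/
def S35K_Geo (M' q lam : ℕ) [NeZero M'] [NeZero q] : Prop :=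
  ∀ A : ValuationSubring Qb, A.LiesOverPrime q →
  ∀ σ : GQ, A.IsFrobeniusAt σ q →
    ∃ (c : ℕ) (L : List ℤ), S35K_Adm q L ∧
      ∀ (k : ℕ) (x : JZero (M' * q)), (lam ^ k) • x = 0 → S35K_New M' q x →
        (lam ^ c) • S35K_op (M' * q) σ L x = 0

/-- **THE CONTRACT OF THE HECKE SIDE (block P6).**  For a newform `g` of level `M' q` the
eigensystem of `g` (away from `S`) has a NONZERO eigenvector in `O' ⊗ Tate` which is `New`. -/
def S35K_P6 (M' q lam : ℕ) [NeZero M'] [NeZero q] [Fact lam.Prime] : Prop :=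
  ∀ (g : CuspForm (CongruenceSubgroup.Gamma0 (M' * q)) 2), g.IsNewform →
  ∀ (S : Finset ℕ) (O' : Type) [CommRing O'] [IsDomain O'] [IsDiscreteValuationRing O']
    [IsAdicComplete (IsLocalRing.maximalIdeal O') O'] [Finite (IsLocalRing.ResidueField O')]
    [CharZero O'] (hlamO' : (lam : O') ∈ IsLocalRing.maximalIdeal O')
    (chig : CuspForm.heckeAlgebra (M' * q) 2 (↑S : Set ℕ) →+* ℂ),
    (∀ (ℓ : ℕ) (hℓ : ℓ.Prime) (hℓM : ¬ ℓ ∣ M' * q) (hℓS : ℓ ∉ (↑S : Set ℕ)),
      chig (CuspForm.heckeAlgebra.T hℓ hℓM hℓS) = ModularFormClass.qCoeff g ℓ) →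
  ∀ (iota : chig.range →+* O'), lam ∈ S → (∀ r : ℕ, r.Prime → r ∣ M' * q → r ∈ S) →
    q.Prime → q ≠ lam → ¬ q ∣ M' →
    letI : Algebra ℤ_[lam] O' :=
      (Fermat.Agent.S30_helper25_ZP.S30ZP_zpLocal lam O' hlamO').toAlgebra
    ∃ v : O' ⊗[ℤ_[lam]] S30T_Tate (JZero (M' * q)) lam, v ≠ 0 ∧
      (∀ (ℓ : ℕ) (hℓ : ℓ.Prime) (hℓM : ¬ ℓ ∣ M' * q) (hℓS : ℓ ∉ (↑S : Set ℕ)),
        (S30TC_T (M' * q) lam ℓ).baseChange O' v =
          (iota.comp chig.rangeRestrict) (CuspForm.heckeAlgebra.T hℓ hℓM hℓS) • v) ∧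
      S35K_NewTate M' q lam O' v

/-- **THE INPUT OF THE TOP at the level `M' q`** (= helper12's `S35TOP_Bad` for one `q`): for
every Frobenius lift `σ` at `q` ONE nonzero eigenvector of `O' ⊗ Tate` is killed by ONE product
of factors `σ - e`, `e ∈ {1, -1, q, -q}`. -/
def S35K_Bad (M' q lam : ℕ) [NeZero M'] [NeZero q] [Fact lam.Prime] (S : Finset ℕ)
    (O' : Type) [CommRing O'] [IsDomain O'] [IsDiscreteValuationRing O']
    [IsAdicComplete (IsLocalRing.maximalIdeal O') O']
    (hlamO' : (lam : O') ∈ IsLocalRing.maximalIdeal O')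
    (χ : CuspForm.heckeAlgebra (M' * q) 2 (↑S : Set ℕ) →+* O') : Prop :=
  letI : Algebra ℤ_[lam] O' :=
    (Fermat.Agent.S30_helper25_ZP.S30ZP_zpLocal lam O' hlamO').toAlgebra
  ∀ A : ValuationSubring Qb, A.LiesOverPrime q →
  ∀ σ : GQ, A.IsFrobeniusAt σ q →
    ∃ L : List ℤ, S35K_Adm q L ∧
      ∃ v : O' ⊗[ℤ_[lam]] S30T_Tate (JZero (M' * q)) lam, v ≠ 0 ∧
        (∀ (ℓ : ℕ) (hℓ : ℓ.Prime) (hℓM : ¬ ℓ ∣ M' * q) (hℓS : ℓ ∉ (↑S : Set ℕ)),
          (S30TC_T (M' * q) lam ℓ).baseChange O' v =
            χ (CuspForm.heckeAlgebra.T hℓ hℓM hℓS) • v) ∧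
        (S35K_opTate (M' * q) lam σ L).baseChange O' v = 0

end Contracts

end Fermat.Agent.S35_helper25_Contracts
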