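import Mathlib
import Fermat.Agent.S30_helper1_TATEF
import Fermat.Agent.S30_helper23_EIGLAT

/-!
# S35, piece (P6) WS-NOEIG, the abstract core (helper26)

Weak surjectivity of the level maps `Θ n : M →+ J[p ^ n]` (every `p ^ n`-torsion point `y` has
`C • y` in the image of `Θ n`, `C > 0` fixed) implies, for the adic map
`θ = S30T_lift Θ : M →+ T_p J`:

* `S35NE_closed`   : a submodule `I` of a finitely generated `ℤ_[p]`-module `T` is closed for the
  `p`-adic topology (Krull's intersection theorem on `T ⧸ I`);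
* `S35NE_span`     : `C • T_p J ⊆ span_{ℤ_[p]} (range θ)`;
* `S35NE_image`    : every `v ∈ 𝒪 ⊗[ℤ_[p]] T_p J` has `C • v` in the image of `PG30_f₂ θ`;
* `S35NE_core`     : if moreover `PG30_f₂ θ` is injective and equivariant and no nonzero class of
  `𝒪 ⊗[ℤ] M` is an eigenclass for the character `χ`, then `𝒪 ⊗[ℤ_[p]] T_p J` contains no nonzero
  `χ`-eigenvector.

No injectivity of the level maps, no Nakayama lemma and no exactness of the constant `C` is
used.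
-/

set_option autoImplicit false
set_option linter.unusedSectionVars false
set_option linter.unusedVariables false

open scoped TensorProduct

noncomputable section

namespace Fermat.Agent.S35_helper26_WSK

open PadicInt Fermat.Agent.S30_helper1_TATE Fermat.Agent.S30_helper1_TATEF
  Fermat.Agent.S30_helper23_EIGLAT

section Closed

variable {p : ℕ} [hp : Fact p.Prime]

/-- **Submodules of a finitely generated `ℤ_[p]`-module are closed**: if `x ∈ I + 𝔪 ^ n T` for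
every `n`, then `x ∈ I`. -/
theorem S35NE_closed {T : Type*} [AddCommGroup T] [Module ℤ_[p] T] [Module.Finite ℤ_[p] T]
    (I : Submodule ℤ_[p] T) (x : T)
    (h : ∀ n : ℕ, ∃ y ∈ I,
      x - y ∈ (IsLocalRing.maximalIdeal ℤ_[p] ^ n) • (⊤ : Submodule ℤ_[p] T)) :
    x ∈ I := by
  have hQ : (⨅ i : ℕ, (IsLocalRing.maximalIdeal ℤ_[p]) ^ i •
      (⊤ : Submodule ℤ_[p] (T ⧸ I))) = ⊥ :=
    Ideal.iInf_pow_smul_eq_bot_of_isLocalRing _
      (IsLocalRing.maximalIdeal.isMaximal ℤ_[p]).ne_top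
  have hx : I.mkQ x ∈ (⨅ i : ℕ, (IsLocalRing.maximalIdeal ℤ_[p]) ^ i •
      (⊤ : Submodule ℤ_[p] (T ⧸ I))) := by
    rw [Submodule.mem_iInf]
    intro n
    obtain ⟨y, hy, hxy⟩ := h n
    have e : I.mkQ x = I.mkQ (x - y) := by
      rw [map_sub, Submodule.mkQ_apply, Submodule.mkQ_apply,
        (Submodule.Quotient.mk_eq_zero I).2 hy, sub_zero]
    rw [e]
    refine Submodule.smul_induction_on hxy (fun r hr z _ => ?_) (fun a b ha hb => ?_)
    · rw [map_smul]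
      exact Submodule.smul_mem_smul hr Submodule.mem_top
    · rw [map_add]
      exact Submodule.add_mem _ ha hb
  rw [hQ, Submodule.mem_bot, Submodule.mkQ_apply] at hx
  exact (Submodule.Quotient.mk_eq_zero I).1 hx

end Closed

section Span

variable {J : Type*} [AddCommGroup J] {p : ℕ} [hp : Fact p.Prime] {M : Type*} [AddCommGroup M]

/-- **(K), abstract form**: if every coordinate of `C • x` is a coordinate of an element of the
image of `θ`, then `C • x` lies in the `ℤ_[p]`-span of the image of `θ`. -/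
theorem S35NE_span [Module.Finite ℤ_[p] (S30T_Tate J p)] (θ : M →+ S30T_Tate J p) (C : ℕ)
    (hWS : ∀ (n : ℕ) (x : S30T_Tate J p), ∃ c : M,
      ((θ c : S30T_Tate J p) : ℕ → J) n = C • (x : ℕ → J) n)
    (x : S30T_Tate J p) :
    (C : ℤ_[p]) • x ∈ Submodule.span ℤ_[p] (Set.range θ) := by
  apply S35NE_closed
  intro n
  obtain ⟨c, hc⟩ := hWS n x
  refine ⟨θ c, Submodule.subset_span ⟨c, rfl⟩, ?_⟩
  rw [S30T_mem_pow_smul_top_iff]
  show (((C : ℤ_[p]) • x : S30T_Tate J p) : ℕ → J) n - ((θ c : S30T_Tate J p) : ℕ → J) n = 0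
  rw [S30T_natCast_smul_apply, hc, sub_self]

/-- **(K) for a compatible family**: weak surjectivity of the level maps gives
`C • T_p J ⊆ span (range (S30T_lift Θ))`. -/
theorem S35NE_span_lift [Module.Finite ℤ_[p] (S30T_Tate J p)] (Θ : ℕ → M →+ J)
    (h1 : ∀ n c, (p ^ n) • Θ n c = 0) (h2 : ∀ n c, p • Θ (n + 1) c = Θ n c) (C : ℕ)
    (hWS : ∀ (n : ℕ) (y : J), (p ^ n) • y = 0 → ∃ c : M, Θ n c = C • y)
    (x : S30T_Tate J p) :
    (C : ℤ_[p]) • x ∈ Submodule.span ℤ_[p] (Set.range (S30T_lift Θ h1 h2)) := by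
  refine S35NE_span (S30T_lift Θ h1 h2) C (fun n x => ?_) x
  obtain ⟨c, hc⟩ := hWS n ((x : ℕ → J) n) (S30T_pow_smul_self x n)
  exact ⟨c, by rw [S30T_lift_apply, hc]⟩

end Span

section Image

variable {R : Type*} [CommRing R] (𝒪 : Type*) [CommRing 𝒪] [Algebra R 𝒪]
  {Λ : Type*} [AddCommGroup Λ] [Module R Λ] {M : Type*} [AddCommGroup M]

/-- every pure tensor `a ⊗ y`, `y` in the span of the image of `θ`, is in the image of
`PG30_f₂ θ`. -/
theorem S35NE_tmul_mem (θ : M →+ Λ) {y : Λ} (hy : y ∈ Submodule.span R (Set.range θ)) :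
    ∀ a : 𝒪, ∃ w : 𝒪 ⊗[ℤ] M, PG30_f₂ R 𝒪 θ w = a ⊗ₜ[R] y := by
  induction hy using Submodule.span_induction with
  | mem y hy =>
    obtain ⟨c, rfl⟩ := hy
    intro a
    exact ⟨a ⊗ₜ[ℤ] c, PG30_f₂_tmul R 𝒪 θ a c⟩
  | zero =>
    intro a
    exact ⟨0, by rw [map_zero, TensorProduct.tmul_zero]⟩
  | add y z _ _ hy hz =>
    intro a
    obtain ⟨w1, hw1⟩ := hy a
    obtain ⟨w2, hw2⟩ := hz a
    exact ⟨w1 + w2, by rw [map_add, hw1, hw2, TensorProduct.tmul_add]⟩
  | smul r y _ hy =>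
    intro a
    obtain ⟨w, hw⟩ := hy (r • a)
    exact ⟨w, by rw [hw, TensorProduct.smul_tmul]⟩

/-- **the image of `PG30_f₂ θ` contains `C • (𝒪 ⊗ Λ)`** as soon as the span of the image of `θ`
contains `C • Λ`. -/
theorem S35NE_image (θ : M →+ Λ) (C : R)
    (hspan : ∀ x : Λ, C • x ∈ Submodule.span R (Set.range θ))
    (v : 𝒪 ⊗[R] Λ) :
    ∃ w : 𝒪 ⊗[ℤ] M, PG30_f₂ R 𝒪 θ w = C • v := by
  induction v using TensorProduct.induction_on with
  | zero => exact ⟨0, by rw [map_zero, smul_zero]⟩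
  | tmul a x =>
    obtain ⟨w, hw⟩ := S35NE_tmul_mem 𝒪 θ (hspan x) a
    exact ⟨w, by rw [hw, TensorProduct.tmul_smul]⟩
  | add x y hx hy =>
    obtain ⟨w1, hw1⟩ := hx
    obtain ⟨w2, hw2⟩ := hy
    exact ⟨w1 + w2, by rw [map_add, hw1, hw2, smul_add]⟩

/-- the same with the scalar in `𝒪`. -/
theorem S35NE_image' (θ : M →+ Λ) (C : R)
    (hspan : ∀ x : Λ, C • x ∈ Submodule.span R (Set.range θ))
    (v : 𝒪 ⊗[R] Λ) :
    ∃ w : 𝒪 ⊗[ℤ] M, PG30_f₂ R 𝒪 θ w = algebraMap R 𝒪 C • v := by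
  obtain ⟨w, hw⟩ := S35NE_image 𝒪 θ C hspan v
  exact ⟨w, by rw [hw, algebraMap_smul]⟩

end Image

section Core

variable {R : Type*} [CommRing R] {𝒪 : Type*} [CommRing 𝒪] [Algebra R 𝒪]
  {Λ : Type*} [AddCommGroup Λ] [Module R Λ] {M : Type*} [AddCommGroup M]

/-- **No eigenvector, abstract form.**  If `C • (𝒪 ⊗ Λ)` lies in the image of the injective
equivariant map `PG30_f₂ θ`, multiplication by `C` is injective on `𝒪 ⊗ Λ`, and `𝒪 ⊗[ℤ] M`
contains no nonzero `χ`-eigenclass, then `𝒪 ⊗ Λ` contains no nonzero `χ`-eigenvector. -/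
theorem S35NE_core (θ : M →+ Λ) (hinj : Function.Injective (PG30_f₂ R 𝒪 θ)) (C : 𝒪)
    (hC : ∀ v : 𝒪 ⊗[R] Λ, C • v = 0 → v = 0)
    (himg : ∀ v : 𝒪 ⊗[R] Λ, ∃ w : 𝒪 ⊗[ℤ] M, PG30_f₂ R 𝒪 θ w = C • v)
    {I : Type*} (A : I → Module.End ℤ M) (T : I → Module.End R Λ)
    (hT : ∀ i c, T i (θ c) = θ (A i c)) (χ : I → 𝒪)
    (hnew : ∀ w : 𝒪 ⊗[ℤ] M, (∀ i, (A i).baseChange 𝒪 w = χ i • w) → w = 0)
    (v : 𝒪 ⊗[R] Λ) (hv : ∀ i, (T i).baseChange 𝒪 v = χ i • v) : v = 0 := by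
  obtain ⟨w, hw⟩ := himg v
  have hw0 : w = 0 := by
    apply hnew
    intro i
    apply hinj
    rw [PG30_f₂_baseChange R 𝒪 θ (A i) (T i) (hT i), hw, map_smul, map_smul, hw, hv i,
      smul_comm]
  apply hC
  rw [← hw, hw0, map_zero]

end Core

end Fermat.Agent.S35_helper26_WSK
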