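import Mathlib
import Fermat.Agent.S35_helper12_BR
import Fermat.Agent.S30_helper27_TATEC
import Fermat.Agent.S37_helper8_E1M
import Fermat.Agent.S54_Frob
import Fermat.Agent.S35_helper6_PUSH

/-!
# S35, (P6)-ESX (helper6): Hecke equivariance from Galois equivariance

A Galois equivariant additive map `ν : J₀(M) → J₀(M')` commutes with the Hecke operators `T_ℓ`
(`ℓ ∤ M M' lam`) on the `lam`-adic Tate modules:

  `S35ESX_tate : tateMap ν ∘ T_ℓ = T'_ℓ ∘ tateMap ν`.

No double cosets and no base change of correspondences: by the Eichler–Shimura relation at both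
levels (`S30TC_ES`), for a Frobenius lift `F` at `ℓ`,
`ν T F = ν (F² + ℓ) = (F² + ℓ) ν = T' F ν = T' ν F`, and `F` is invertible.

* `S35ESX_abs` : the abstract statement (any two modules with operators `F`, `T`);
* `S35ESX_tate` : on the Tate modules of `J₀(M)`, `J₀(M')`;
* `S35ESX_baseChange`, `S35ESX_eigen` : after base change to any `ℤ_[lam]`-algebra `O'`, and for
  eigenvectors.
-/

set_option autoImplicit false
set_option linter.unusedSectionVars false
set_option linter.unusedVariables false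
set_option linter.style.haveILetI false

open scoped TensorProduct
open ModularCurve AlgebraicCurve
open Fermat.Agent.S30_helper1_TATE Fermat.Agent.S30_helper1_TATEF
  Fermat.Agent.S30_helper27_TATEC Fermat.Agent.S35_helper12_BR

noncomputable section

namespace Fermat.Agent.S35_helper6_ESX

local notation "Qb" => AlgebraicClosure ℚ
local notation "GQ" => (AlgebraicClosure ℚ ≃ₐ[ℚ] AlgebraicClosure ℚ)

/-- **abstract**: two quadratic relations `F² - T F + ℓ = 0`, `F'² - T' F' + ℓ = 0` and a map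
`ν` with `ν F = F' ν`, `F` invertible, give `ν T = T' ν`. -/
theorem S35ESX_abs {R V V' : Type*} [CommRing R] [AddCommGroup V] [Module R V]
    [AddCommGroup V'] [Module R V'] (F Fi T : Module.End R V) (F' T' : Module.End R V')
    (ν : V →ₗ[R] V') (ℓ : R) (hFi : F * Fi = 1)
    (hES : F * F - T * F + ℓ • (1 : Module.End R V) = 0)
    (hES' : F' * F' - T' * F' + ℓ • (1 : Module.End R V') = 0)
    (hν : ∀ x : V, ν (F x) = F' (ν x)) :
    ∀ x : V, ν (T x) = T' (ν x) := by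
  intro x
  have hFu : F (Fi x) = x := by
    have := congrArg (fun φ : Module.End R V => φ x) hFi
    simpa using this
  have h1 : F x - T x + ℓ • Fi x = 0 := by
    have := congrArg (fun φ : Module.End R V => φ (Fi x)) hES
    simp only [LinearMap.add_apply, LinearMap.sub_apply, Module.End.mul_apply,
      LinearMap.smul_apply, Module.End.one_apply, LinearMap.zero_apply] at this
    rwa [hFu] at this
  have h2 : F' (ν x) - T' (ν x) + ℓ • ν (Fi x) = 0 := by
    have := congrArg (fun φ : Module.End R V' => φ (ν (Fi x))) hES'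
    simp only [LinearMap.add_apply, LinearMap.sub_apply, Module.End.mul_apply,
      LinearMap.smul_apply, Module.End.one_apply, LinearMap.zero_apply] at this
    rwa [← hν, hFu] at this
  have h3 : ν (F x) - ν (T x) + ℓ • ν (Fi x) = 0 := by
    rw [← map_smul, ← map_sub, ← map_add, h1, map_zero]
  rw [hν] at h3
  have : ν (T x) - T' (ν x) = 0 := by
    have := congrArg₂ (fun a b : V' => a - b) h2 h3
    simp only [sub_zero] at this
    rw [← this]
    abel
  exact sub_eq_zero.mp this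

variable (M M' : ℕ) [NeZero M] [NeZero M'] (lam : ℕ) [Fact lam.Prime]

/-- the Tate map of a Galois equivariant map commutes with the Galois action. -/
theorem S35ESX_rho (ν : JZero M →+ JZero M') (hν : ∀ (σ : GQ) (x : JZero M), ν (σ • x) = σ • ν x)
    (σ : GQ) (x : S30T_Tate (JZero M) lam) :
    S35BR_tateMap (p := lam) ν (S30TC_rho M lam σ x) =
      S30TC_rho M' lam σ (S35BR_tateMap (p := lam) ν x) := by
  apply S30T_ext
  intro n
  rw [S35BR_tateMap_apply, S30TC_rho_apply, S30TC_rho_apply, S35BR_tateMap_apply]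
  exact hν σ _

/-- **Hecke equivariance on the Tate modules from Galois equivariance.** -/
theorem S35ESX_tate (ν : JZero M →+ JZero M') (hν : ∀ (σ : GQ) (x : JZero M), ν (σ • x) = σ • ν x)
    (ℓ : ℕ) (hℓ : ℓ.Prime) (hℓM : ¬ ℓ ∣ M) (hℓM' : ¬ ℓ ∣ M') (hℓlam : ℓ ≠ lam)
    (x : S30T_Tate (JZero M) lam) :
    S35BR_tateMap (p := lam) ν (S30TC_T M lam ℓ x) =
      S30TC_T M' lam ℓ (S35BR_tateMap (p := lam) ν x) := by
  have hlam : lam.Prime := Fact.out
  have hndvd : ∀ K : ℕ, ¬ ℓ ∣ K → ¬ ℓ ∣ K * lam := by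
    intro K hK h
    rcases (Nat.Prime.dvd_mul hℓ).1 h with h1 | h1
    · exact hK h1
    · exact hℓlam ((Nat.prime_dvd_prime_iff_eq hℓ hlam).1 h1)
  obtain ⟨A, hA, σ, hσ⟩ := Fermat.Agent.S54Frob.exists_frobenius ℓ hℓ
  have hES := S30TC_ES M lam (Fermat.Agent.S37_helper8_E1M.S37E1M_pow M lam) ℓ hℓ (hndvd M hℓM)
    A hA σ hσ
  have hES' := S30TC_ES M' lam (Fermat.Agent.S37_helper8_E1M.S37E1M_pow M' lam) ℓ hℓ
    (hndvd M' hℓM') A hA σ hσ
  have hFi : S30TC_rho M lam σ * S30TC_rho M lam σ⁻¹ = 1 := by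
    rw [← map_mul, mul_inv_cancel, map_one]
  exact S35ESX_abs (S30TC_rho M lam σ) (S30TC_rho M lam σ⁻¹) (S30TC_T M lam ℓ)
    (S30TC_rho M' lam σ) (S30TC_T M' lam ℓ) (S35BR_tateMap (p := lam) ν) (ℓ : ℤ_[lam]) hFi hES hES'
    (S35ESX_rho M M' lam ν hν σ) x

/-- the same as an identity of linear maps. -/
theorem S35ESX_comp (ν : JZero M →+ JZero M') (hν : ∀ (σ : GQ) (x : JZero M), ν (σ • x) = σ • ν x)
    (ℓ : ℕ) (hℓ : ℓ.Prime) (hℓM : ¬ ℓ ∣ M) (hℓM' : ¬ ℓ ∣ M') (hℓlam : ℓ ≠ lam) :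
    (S35BR_tateMap (p := lam) ν) ∘ₗ (S30TC_T M lam ℓ) =
      (S30TC_T M' lam ℓ) ∘ₗ (S35BR_tateMap (p := lam) ν) :=
  LinearMap.ext fun x => S35ESX_tate M M' lam ν hν ℓ hℓ hℓM hℓM' hℓlam x

variable (O' : Type*) [CommRing O'] [Algebra ℤ_[lam] O']

/-- **the same after base change** to a `ℤ_[lam]`-algebra `O'`. -/
theorem S35ESX_baseChange (ν : JZero M →+ JZero M')
    (hν : ∀ (σ : GQ) (x : JZero M), ν (σ • x) = σ • ν x)
    (ℓ : ℕ) (hℓ : ℓ.Prime) (hℓM : ¬ ℓ ∣ M) (hℓM' : ¬ ℓ ∣ M') (hℓlam : ℓ ≠ lam)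
    (v : O' ⊗[ℤ_[lam]] S30T_Tate (JZero M) lam) :
    (S35BR_tateMap (p := lam) ν).baseChange O' ((S30TC_T M lam ℓ).baseChange O' v) =
      (S30TC_T M' lam ℓ).baseChange O' ((S35BR_tateMap (p := lam) ν).baseChange O' v) := by
  have h := congrArg (fun φ => LinearMap.baseChange O' φ v)
    (S35ESX_comp M M' lam ν hν ℓ hℓ hℓM hℓM' hℓlam)
  simp only [LinearMap.baseChange_comp, LinearMap.comp_apply] at h
  exact h

/-- **eigenvectors go to eigenvectors (or to `0`).** -/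
theorem S35ESX_eigen (ν : JZero M →+ JZero M')
    (hν : ∀ (σ : GQ) (x : JZero M), ν (σ • x) = σ • ν x)
    (ℓ : ℕ) (hℓ : ℓ.Prime) (hℓM : ¬ ℓ ∣ M) (hℓM' : ¬ ℓ ∣ M') (hℓlam : ℓ ≠ lam)
    (a : O') (v : O' ⊗[ℤ_[lam]] S30T_Tate (JZero M) lam)
    (hv : (S30TC_T M lam ℓ).baseChange O' v = a • v) :
    (S30TC_T M' lam ℓ).baseChange O' ((S35BR_tateMap (p := lam) ν).baseChange O' v) =
      a • (S35BR_tateMap (p := lam) ν).baseChange O' v := by
  rw [← S35ESX_baseChange M M' lam O' ν hν ℓ hℓ hℓM hℓM' hℓlam v, hv, map_smul]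

/-! ### the two degeneracy push-forwards -/

section Push

open Fermat.Agent.S35_helper6_PUSH

variable (N' q : ℕ) [NeZero N'] [NeZero q] [NeZero (N' * q)]

/-- eigenvectors of level `N' q` go to eigenvectors of level `N'` (or to `0`) under `α_*`. -/
theorem S35ESX_alpha (ℓ : ℕ) (hℓ : ℓ.Prime) (hℓM : ¬ ℓ ∣ N' * q) (hℓlam : ℓ ≠ lam)
    (a : O') (v : O' ⊗[ℤ_[lam]] S30T_Tate (JZero (N' * q)) lam)
    (hv : (S30TC_T (N' * q) lam ℓ).baseChange O' v = a • v) :
    (S30TC_T N' lam ℓ).baseChange O'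
        ((S35BR_tateMap (p := lam) (S35PU_alpha N' q)).baseChange O' v) =
      a • (S35BR_tateMap (p := lam) (S35PU_alpha N' q)).baseChange O' v :=
  S35ESX_eigen (N' * q) N' lam O' (S35PU_alpha N' q) (S35PU_alpha_smul N' q) ℓ hℓ hℓM
    (fun h => hℓM (Dvd.dvd.mul_right h q)) hℓlam a v hv

/-- eigenvectors of level `N' q` go to eigenvectors of level `N'` (or to `0`) under `β_*`. -/
theorem S35ESX_beta (ℓ : ℕ) (hℓ : ℓ.Prime) (hℓM : ¬ ℓ ∣ N' * q) (hℓlam : ℓ ≠ lam)
    (a : O') (v : O' ⊗[ℤ_[lam]] S30T_Tate (JZero (N' * q)) lam)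
    (hv : (S30TC_T (N' * q) lam ℓ).baseChange O' v = a • v) :
    (S30TC_T N' lam ℓ).baseChange O'
        ((S35BR_tateMap (p := lam) (S35PU_beta N' q)).baseChange O' v) =
      a • (S35BR_tateMap (p := lam) (S35PU_beta N' q)).baseChange O' v :=
  S35ESX_eigen (N' * q) N' lam O' (S35PU_beta N' q) (S35PU_beta_smul N' q) ℓ hℓ hℓM
    (fun h => hℓM (Dvd.dvd.mul_right h q)) hℓlam a v hv

end Push

end Fermat.Agent.S35_helper6_ESX
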