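import Mathlib
import Fermat.Agent.S35_helper26_WSK
import Fermat.Agent.S35_helper5_P6C
import Fermat.Agent.S35_helper18_EIGF
import Fermat.Agent.S35_helper6_ESX
import Fermat.Agent.S35_helper12_ENDK
import Fermat.Agent.G_helper6_E2PLUG
import Fermat.Agent.S30_helper23_EIGC
import Fermat.Agent.S30_helper27_TATEC

/-!
# S35, piece (P6) WS-NOEIG (helper26): no eigenvector at the lower level, and (P6)

* `S35NE_Family N p` : the weak-surjectivity family at the level `N` (the conclusion of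
  `S35WS_family`): maps `Θ n : PG_M N →+ J₀(N)` with `PG_E2 N (p ^ n) (Θ n)`, compatible, and a
  constant `C > 0` such that `C • y` is in the image of `Θ n` for every `p ^ n`-torsion point `y`;
* `S35WS_noEig` : for a newform `g` of level `M` and a proper divisor `N'` of `M` with a
  weak-surjectivity family, `O' ⊗ T_lam J₀(N')` contains no nonzero eigenvector of the Hecke
  operators `T_ℓ` (`ℓ ∤ M`, `ℓ ∉ S`) with the eigenvalues of `g`;
* `S35NE_P6At` : **(P6) at the level `N' q`** (`S35ENDK_P6At`) from a weak-surjectivity family at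
  the level `N'`;
* `S35NE_hP6` : the hypothesis `hP6` of `S35ENDK_frozen`, verbatim, from weak-surjectivity
  families at all levels.
-/

set_option autoImplicit false
set_option linter.unusedSectionVars false
set_option linter.unusedVariables false
set_option linter.style.haveILetI false
set_option maxHeartbeats 1600000
set_option synthInstance.maxHeartbeats 400000

open scoped TensorProduct
open ModularCurve AlgebraicCurve CongruenceSubgroup
open Fermat.Agent.G_helper6_Defs Fermat.Agent.G_helper6_E2FINAL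
open Fermat.Agent.S30_helper1_TATE Fermat.Agent.S30_helper1_TATEF
  Fermat.Agent.S30_helper23_EIGLAT Fermat.Agent.S30_helper27_TATEC
  Fermat.Agent.S35_helper12_BR Fermat.Agent.S35_helper12_END Fermat.Agent.S35_helper12_ENDK
  Fermat.Agent.S35_helper6_PUSH Fermat.Agent.S35_helper26_WSK

noncomputable section

namespace Fermat.Agent.S35_helper26_NOEIG

/-- **The weak-surjectivity family** at the level `N` for the prime `p` (the conclusion of
`S35WS_family`, pieces row 545). -/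
def S35NE_Family (N p : ℕ) [NeZero N] : Prop :=
  ∃ Θ : ℕ → PG_M N →+ ModularCurve.JZero N, (∀ n, PG_E2 N (p ^ n) (Θ n)) ∧
    (∀ (n : ℕ) (c : PG_M N), (p : ℤ) • Θ (n + 1) c = Θ n c) ∧
    ∃ C : ℕ, 0 < C ∧ ∀ (n : ℕ) (y : ModularCurve.JZero N), ((p ^ n : ℕ) : ℤ) • y = 0 →
      ∃ c : PG_M N, Θ n c = (C : ℤ) • y

/-- **No eigenvector at a proper divisor of the level of a newform.** -/
theorem S35WS_noEig {M : ℕ} [NeZero M] {g : CuspForm (Gamma0 M) 2} (hg : g.IsNewform)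
    (N' : ℕ) [NeZero N'] (hN' : N' ∣ M) (hne : N' ≠ M)
    (lam : ℕ) [Fact lam.Prime] (S : Finset ℕ)
    (hMS : ∀ q : ℕ, q.Prime → q ∣ M → q ∈ S)
    (O' : Type) [CommRing O'] [IsDomain O'] [CharZero O'] [Algebra ℤ_[lam] O']
    (chig : CuspForm.heckeAlgebra M 2 (↑S : Set ℕ) →+* ℂ)
    (hchig : ∀ (ℓ : ℕ) (hℓ : ℓ.Prime) (hℓM : ¬ ℓ ∣ M) (hℓS : ℓ ∉ (↑S : Set ℕ)),
      chig (CuspForm.heckeAlgebra.T hℓ hℓM hℓS) = ModularFormClass.qCoeff g ℓ)
    (iota : chig.range →+* O')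
    (hfam : S35NE_Family N' lam)
    (v' : O' ⊗[ℤ_[lam]] S30T_Tate (ModularCurve.JZero N') lam)
    (hv : ∀ (ℓ : ℕ) (hℓ : ℓ.Prime) (hℓM : ¬ ℓ ∣ M) (hℓS : ℓ ∉ (↑S : Set ℕ)),
      (S30TC_T N' lam ℓ).baseChange O' v' =
        (iota.comp chig.rangeRestrict) (CuspForm.heckeAlgebra.T hℓ hℓM hℓS) • v') :
    v' = 0 := by
  classical
  obtain ⟨Θ, hE2, hcompat, C, hCpos, hWS⟩ := hfam
  have htors : ∀ (n : ℕ) (c : PG_M N'), (lam ^ n) • Θ n c = 0 := fun n c => by
    have h := (hE2 n).tors c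
    rwa [natCast_zsmul] at h
  have hc : ∀ (n : ℕ) (c : PG_M N'), lam • Θ (n + 1) c = Θ n c := fun n c => by
    have h := hcompat n c
    rwa [natCast_zsmul] at h
  have hinj : ∀ (n : ℕ) (c : PG_M N'), Θ n c = 0 → ∃ c' : PG_M N', c = (lam ^ n) • c' :=
    fun n c h => by
      obtain ⟨c', hc'⟩ := (hE2 n).inj c h
      exact ⟨c', by rw [hc', natCast_zsmul]⟩
  have hfin : (AlgebraicCurve.Pic0.torsion (AlgebraicClosure ℚ)
      (ModularCurve.modularFunctionFieldBar N') lam : Set (ModularCurve.JZero N')).Finite := by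
    have h := (hE2 1).fin
    rwa [pow_one] at h
  haveI := S30TC_finite N' lam hfin
  haveI := S30TC_free N' lam hfin
  haveI : Module.Finite ℤ (PG_M N') := (Fermat.Agent.G_helper3_G2aLATTICE.PG_lattice N').1
  haveI : Module.Free ℤ (PG_M N') := (Fermat.Agent.G_helper3_G2aLATTICE.PG_lattice N').2.1
  haveI : Module.Flat ℤ_[lam] O' := Fermat.Agent.S30_helper23_EIGC.PG30_flat_padic lam O'
  -- the adic map
  have hli := S30T_lift_linearIndependent (Module.Free.chooseBasis ℤ (PG_M N')) Θ htors hc hinj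
  have hinjf := PG30_f₂_injective ℤ_[lam] O' (S30T_lift Θ htors hc)
    (Module.Free.chooseBasis ℤ (PG_M N')) hli
  -- weak surjectivity
  have hWS' : ∀ (n : ℕ) (y : ModularCurve.JZero N'), (lam ^ n) • y = 0 →
      ∃ c : PG_M N', Θ n c = C • y := by
    intro n y hy
    obtain ⟨c, hc'⟩ := hWS n y (by rw [natCast_zsmul]; exact hy)
    exact ⟨c, by rw [hc', natCast_zsmul]⟩
  have hspan := S35NE_span_lift Θ htors hc C hWS'
  have himg : ∀ v : O' ⊗[ℤ_[lam]] S30T_Tate (ModularCurve.JZero N') lam,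
      ∃ w : O' ⊗[ℤ] PG_M N', PG30_f₂ ℤ_[lam] O' (S30T_lift Θ htors hc) w = (C : O') • v := by
    intro v
    obtain ⟨w, hw⟩ := S35NE_image' O' (S30T_lift Θ htors hc) (C : ℤ_[lam]) hspan v
    exact ⟨w, by rw [hw, map_natCast]⟩
  -- multiplication by `C` is injective
  have hC0 : (C : O') ≠ 0 := Nat.cast_ne_zero.2 hCpos.ne'
  have hC : ∀ v : O' ⊗[ℤ_[lam]] S30T_Tate (ModularCurve.JZero N') lam,
      (C : O') • v = 0 → v = 0 := by
    intro v h
    haveI : Module.Free O' (O' ⊗[ℤ_[lam]] S30T_Tate (ModularCurve.JZero N') lam) :=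
      inferInstance
    rcases smul_eq_zero.1 h with h1 | h1
    · exact absurd h1 hC0
    · exact h1
  -- the eigenform brick
  have heig : Fermat.Agent.S35_helper5_P6C.S35P6C_EigBrick N' (↑S : Set ℕ) :=
    fun a f hf hT => Fermat.Agent.S35_helper18_EIGF.S35EIGF_eigenform (↑S : Set ℕ) a f hf hT
  -- the operators
  let I : Type := {ℓ : ℕ // ℓ.Prime ∧ ¬ ℓ ∣ M ∧ ℓ ∉ (↑S : Set ℕ)}
  let A : I → Module.End ℤ (PG_M N') := fun i =>
    haveI : NeZero i.1 := ⟨i.2.1.ne_zero⟩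
    PG_E2F_TM N' i.1
  have hT : ∀ (i : I) (c : PG_M N'),
      S30TC_T N' lam i.1 (S30T_lift Θ htors hc c) = S30T_lift Θ htors hc (A i c) := by
    intro i c
    haveI : NeZero i.1 := ⟨i.2.1.ne_zero⟩
    apply S30T_ext
    intro n
    rw [S30TC_T_apply i.2.1, S30T_lift_apply, S30T_lift_apply]
    exact (hE2 n).hecke ⟨i.1, i.2.1⟩ c _ (fun h => i.2.2.1 (h.trans hN')) rfl
  refine S35NE_core (S30T_lift Θ htors hc) hinjf (C : O') hC himg A
    (fun i => S30TC_T N' lam i.1) hT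
    (fun i => (iota.comp chig.rangeRestrict)
      (CuspForm.heckeAlgebra.T i.2.1 i.2.2.1 i.2.2.2)) ?_ v' (fun i => hv i.1 i.2.1 i.2.2.1 i.2.2.2)
  intro w hw
  exact Fermat.Agent.S35_helper5_P6C.S35P6C_main_of hg N' hN' hne S hMS heig chig hchig iota w
    (fun ℓ hℓ hℓM hℓS => hw ⟨ℓ, hℓ, hℓM, hℓS⟩)

/-- **(P6) at the level `N' q`** from a weak-surjectivity family at the level `N'`. -/
theorem S35NE_P6At (N' q : ℕ) [NeZero N'] [NeZero q] [NeZero (N' * q)] (hq : q.Prime)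
    (hqN : ¬ q ∣ N') {g : CuspForm (CongruenceSubgroup.Gamma0 (N' * q)) 2} (hg : g.IsNewform)
    (lam : ℕ) [Fact lam.Prime] (S : Finset ℕ)
    (O' : Type) [CommRing O'] [IsDomain O'] [IsDiscreteValuationRing O']
    [IsAdicComplete (IsLocalRing.maximalIdeal O') O'] [CharZero O']
    (hlamO' : (lam : O') ∈ IsLocalRing.maximalIdeal O')
    (chig : CuspForm.heckeAlgebra (N' * q) 2 (↑S : Set ℕ) →+* ℂ)
    (hchig : ∀ (ℓ : ℕ) (hℓ : ℓ.Prime) (hℓM : ¬ ℓ ∣ N' * q) (hℓS : ℓ ∉ (↑S : Set ℕ)),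
      chig (CuspForm.heckeAlgebra.T hℓ hℓM hℓS) = ModularFormClass.qCoeff g ℓ)
    (iota : chig.range →+* O') (hlamS : lam ∈ S)
    (hMS : ∀ r : ℕ, r.Prime → r ∣ N' * q → r ∈ S)
    (hfam : S35NE_Family N' lam) :
    S35ENDK_P6At N' q lam S O' hlamO' (iota.comp chig.rangeRestrict) := by
  letI : Algebra ℤ_[lam] O' :=
    (Fermat.Agent.S30_helper25_ZP.S30ZP_zpLocal lam O' hlamO').toAlgebra
  have hlam : lam.Prime := Fact.out
  -- the nonzero eigenvector at the level `N' q`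
  obtain ⟨Θ, hΘ, hcompat⟩ := Fermat.Agent.G_helper6_E2PLUG.PG_E2PLUG_adic (N' * q) lam hlam.pos
  obtain ⟨v, hv0, hv⟩ := Fermat.Agent.S30_helper23_EIGC.PG30_eigenlattice_of_E2 (𝒪 := O')
    (N' * q) (↑S : Set ℕ) (fun r hr hrM => Finset.mem_coe.2 (hMS r hr hrM)) lam Θ hΘ hcompat
    (S30TC_T (N' * q) lam) (fun ℓ _ _ x n => S30TC_T_apply ℓ.2 x n)
    (iota.comp chig.rangeRestrict)
  have hdvd : N' ∣ N' * q := Dvd.intro q rfl
  have hneq : N' ≠ N' * q := by
    intro h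
    have h1 : N' * 1 = N' * q := by rw [mul_one]; exact h
    have h2 : 1 = q := Nat.eq_of_mul_eq_mul_left (Nat.pos_of_ne_zero (NeZero.ne N')) h1
    exact hq.one_lt.ne h2
  have hℓlam : ∀ ℓ : ℕ, ℓ ∉ (↑S : Set ℕ) → ℓ ≠ lam := by
    intro ℓ hℓS h
    exact hℓS (Finset.mem_coe.2 (h ▸ hlamS))
  refine ⟨v, hv0, hv, ?_, ?_⟩
  · exact S35WS_noEig hg N' hdvd hneq lam S hMS O' chig hchig iota hfam _
      (fun ℓ hℓ hℓM hℓS => Fermat.Agent.S35_helper6_ESX.S35ESX_alpha lam O' N' q ℓ hℓ hℓM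
        (hℓlam ℓ hℓS) _ v (hv ℓ hℓ hℓM hℓS))
  · exact S35WS_noEig hg N' hdvd hneq lam S hMS O' chig hchig iota hfam _
      (fun ℓ hℓ hℓM hℓS => Fermat.Agent.S35_helper6_ESX.S35ESX_beta lam O' N' q ℓ hℓ hℓM
        (hℓlam ℓ hℓS) _ v (hv ℓ hℓ hℓM hℓS))

/-- **the hypothesis `hP6` of `S35ENDK_frozen`, verbatim**, from weak-surjectivity families at
all levels and all primes. -/
theorem S35NE_hP6
    (hfam : ∀ (N : ℕ) [NeZero N] (p : ℕ), p.Prime → S35NE_Family N p) :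
    ∀ (N' q : ℕ) [NeZero N'] [NeZero q] [NeZero (N' * q)], q.Prime → ¬ q ∣ N' →
      ∀ {g : CuspForm (CongruenceSubgroup.Gamma0 (N' * q)) 2}, g.IsNewform →
      ∀ (lam : ℕ) [Fact lam.Prime], q ≠ lam → ∀ (S : Finset ℕ)
        (O' : Type) [CommRing O'] [IsDomain O'] [IsDiscreteValuationRing O']
        [IsAdicComplete (IsLocalRing.maximalIdeal O') O'] [Finite (IsLocalRing.ResidueField O')]
        [CharZero O'] (hlamO' : (lam : O') ∈ IsLocalRing.maximalIdeal O')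
        (chig : CuspForm.heckeAlgebra (N' * q) 2 (↑S : Set ℕ) →+* ℂ),
        (∀ (ℓ : ℕ) (hℓ : ℓ.Prime) (hℓM : ¬ ℓ ∣ N' * q) (hℓS : ℓ ∉ (↑S : Set ℕ)),
          chig (CuspForm.heckeAlgebra.T hℓ hℓM hℓS) = ModularFormClass.qCoeff g ℓ) →
        ∀ (iota : chig.range →+* O'), lam ∈ S → (∀ r : ℕ, r.Prime → r ∣ N' * q → r ∈ S) →
          S35ENDK_P6At N' q lam S O' hlamO' (iota.comp chig.rangeRestrict) := by
  intro N' q _ _ _ hq hqN g hg lam _ hne S O' _ _ _ _ _ _ hlamO' chig hchig iota hlamS hMS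
  exact S35NE_P6At N' q hq hqN hg lam S O' hlamO' chig hchig iota hlamS hMS
    (hfam N' lam Fact.out)

end Fermat.Agent.S35_helper26_NOEIG
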