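import Mathlib
import Fermat.Agent.S34_helper7_LGDefs
import Fermat.Agent.S34_helper4_XCROSS
import Fermat.Agent.S34_helper21_ACT
import Fermat.Agent.S34_helper26_ORDC

/-!
# S35, piece GEO-ORDF: orders of the factors of the Frobenius local generator

Everything here is generic in the element `g` of the Galois group and in the predicate on places,
so it serves every packaging of the operator `Θ`.

* `S35OF_core`  : transport of the conclusion of `S34LGK_Ord` along one `g`:
  if `u` has order `1` at `P` and `0` at the other places of the class `G'`, then `g u` has order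
  `single (g P) 1 P'` at every place `P'` whose translate `g⁻¹ P'` is in `G'`;
* `S35OF_prod`  : finite products of integer powers of translates of `u`;
* `S35OF_poly`  : the polynomial packaging `Θ_p = ∑ p_i s ^ i`;
* `S35OF_three` : the explicit three-term operator `s² - b s + c`;
* `S35OF_node_T`, `S35OF_node_S` : the instances at `u = T - C a`, `u = S - C b` for node
  coordinates at a crossing point, from the contract `S34LGK_Ord`;
* `S35OF_chart_T`, `S35OF_chart_S` : the same for a chart of a two-valuation setup, with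
  `S34LGK_Ord` discharged.
-/

set_option autoImplicit false
set_option linter.style.haveILetI false
set_option linter.unusedSectionVars false
set_option linter.unusedVariables false
set_option synthInstance.maxHeartbeats 400000
set_option maxHeartbeats 1600000

open AlgebraicCurve ModularCurve HahnSeries IntermediateField
open Fermat.Agent.S18_helper25_COREDefs
  Fermat.Agent.S18_helper9_CDefs Fermat.Agent.S18_helper9_CBasic
  Fermat.Agent.S18_helper3_LOCRING
  Fermat.Agent.S37_helper4_B1Defs Fermat.Agent.S37_helper5_LEVEL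
  Fermat.Agent.S34_Contracts Fermat.Agent.S34_helper6_RED
  Fermat.Agent.S34_helper21_ACT Fermat.Agent.S34_helper5_K0
  Fermat.Agent.S34_helper7_LGDefs Fermat.Agent.S34_helper12_CDefs
  Fermat.Agent.S34_helper4_XCROSS Fermat.Agent.S34_helper26_ORDC

noncomputable section

namespace Fermat.Agent.S35_helper26_ORDF

local notation "Qb" => AlgebraicClosure ℚ
local notation "GQ" => (AlgebraicClosure ℚ ≃ₐ[ℚ] AlgebraicClosure ℚ)

variable (N : ℕ) [NeZero N] (K1 : IntermediateField ℚ Qb)
  (hstab : ∀ σ : GQ, ∀ x ∈ K1, σ x ∈ K1)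

/-! ### The action on places -/

theorem S35OF_inv_smul (g : GQ) (P : Place Qb (modularFunctionFieldBar N)) :
    S34R_g N g⁻¹ • S34R_g N g • P = P := by
  rw [← mul_smul, ← map_mul, inv_mul_cancel, map_one, one_smul]

theorem S35OF_smul_inv (g : GQ) (P : Place Qb (modularFunctionFieldBar N)) :
    S34R_g N g • S34R_g N g⁻¹ • P = P := by
  rw [← mul_smul, ← map_mul, mul_inv_cancel, map_one, one_smul]

theorem S35OF_g_pow (s : GQ) (i : ℕ) (P : Place Qb (modularFunctionFieldBar N)) :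
    S34R_g N (s ^ (i + 1)) • P = S34R_g N s • S34R_g N (s ^ i) • P := by
  rw [← mul_smul, ← map_mul, pow_succ']

/-- a class of places stable under `s⁻¹` is stable under `(s ^ i)⁻¹`. -/
theorem S35OF_stable_pow (s : GQ) (G : Place Qb (modularFunctionFieldBar N) → Prop)
    (hs : ∀ P', G P' → G (S34R_g N s⁻¹ • P')) (i : ℕ) :
    ∀ P', G P' → G (S34R_g N (s ^ i)⁻¹ • P') := by
  induction i with
  | zero =>
    intro P' hP'
    have e : S34R_g N (s ^ 0)⁻¹ • P' = P' := by
      rw [pow_zero, inv_one]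
      exact (congrArg (· • P') (map_one (arithmeticGalois (modularFunctionFieldFull N)))).trans
        (one_smul _ P')
    rw [e]
    exact hP'
  | succ i ih =>
    intro P' hP'
    have e : S34R_g N (s ^ (i + 1))⁻¹ • P' = S34R_g N (s ^ i)⁻¹ • S34R_g N s⁻¹ • P' := by
      rw [← mul_smul, ← map_mul, pow_succ', mul_inv_rev]
    rw [e]
    exact ih _ (hs P' hP')

/-! ### Transport of the orders along one element of the Galois group -/

/-- **Transport of ORD.**  If `u` has order `1` at `P` and order `0` at every other place of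
the class `G'`, then `g u` has order `single (g P) 1 P'` at every place `P'` with `g⁻¹ P'` in
`G'`. -/
theorem S35OF_core (P : Place Qb (modularFunctionFieldBar N)) (u : LaurentSeries K1)
    (hu : u ∈ modularFunctionFieldFullC K1 N) (hu0 : u ≠ 0)
    (G' G : Place Qb (modularFunctionFieldBar N) → Prop)
    (hord : ∀ P'' : Place Qb (modularFunctionFieldBar N), G' P'' →
      (P'' = P → S37B1_ordP N K1 P'' u = 1) ∧ (P'' ≠ P → S37B1_ordP N K1 P'' u = 0))
    (g : GQ) (hG : ∀ P', G P' → G' (S34R_g N g⁻¹ • P')) :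
    S34ACT_act K1 hstab g u ∈ modularFunctionFieldFullC K1 N ∧
      S34ACT_act K1 hstab g u ≠ 0 ∧
      ∀ P' : Place Qb (modularFunctionFieldBar N), G P' →
        S37B1_ordP N K1 P' (S34ACT_act K1 hstab g u) =
          Finsupp.single (S34R_g N g • P) (1 : ℤ) P' := by
  refine ⟨S34ACT_mem_F1 K1 hstab N g hu, ?_, ?_⟩
  · intro h
    apply hu0
    apply S34ACT_act_injective K1 hstab g
    rw [h, map_zero]
  · intro P' hP'
    have h1 := S34ACT_ordP K1 hstab N g (S34R_g N g⁻¹ • P') u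
    rw [S35OF_smul_inv] at h1
    rw [h1]
    obtain ⟨ha, hb⟩ := hord _ (hG P' hP')
    by_cases h : S34R_g N g⁻¹ • P' = P
    · rw [ha h]
      have e : S34R_g N g • P = P' := by rw [← h, S35OF_smul_inv]
      rw [e, Finsupp.single_eq_same]
    · rw [hb h]
      have e : S34R_g N g • P ≠ P' := by
        intro e
        apply h
        rw [← e, S35OF_inv_smul]
      rw [Finsupp.single_eq_of_ne' e]

/-- The same with the divisor `g • single P 1`. -/
theorem S35OF_core' (P : Place Qb (modularFunctionFieldBar N)) (u : LaurentSeries K1)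
    (hu : u ∈ modularFunctionFieldFullC K1 N) (hu0 : u ≠ 0)
    (G' G : Place Qb (modularFunctionFieldBar N) → Prop)
    (hord : ∀ P'' : Place Qb (modularFunctionFieldBar N), G' P'' →
      (P'' = P → S37B1_ordP N K1 P'' u = 1) ∧ (P'' ≠ P → S37B1_ordP N K1 P'' u = 0))
    (g : GQ) (hG : ∀ P', G P' → G' (S34R_g N g⁻¹ • P')) :
    ∀ P' : Place Qb (modularFunctionFieldBar N), G P' →
      S37B1_ordP N K1 P' (S34ACT_act K1 hstab g u) =
        (S34R_g N g • (Finsupp.single P (1 : ℤ) : Divisor Qb (modularFunctionFieldBar N))) P' := by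
  intro P' hP'
  rw [SemilinearAut.smul_single]
  exact (S35OF_core N K1 hstab P u hu hu0 G' G hord g hG).2.2 P' hP'

/-! ### Finite products -/

/-- **Orders of a finite product of integer powers of translates.** -/
theorem S35OF_prod {ι : Type*} (s : Finset ι) (g : ι → GQ) (c : ι → ℤ)
    (P : Place Qb (modularFunctionFieldBar N)) (u : LaurentSeries K1)
    (hu : u ∈ modularFunctionFieldFullC K1 N) (hu0 : u ≠ 0)
    (G' G : Place Qb (modularFunctionFieldBar N) → Prop)
    (hord : ∀ P'' : Place Qb (modularFunctionFieldBar N), G' P'' →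
      (P'' = P → S37B1_ordP N K1 P'' u = 1) ∧ (P'' ≠ P → S37B1_ordP N K1 P'' u = 0))
    (hG : ∀ i ∈ s, ∀ P', G P' → G' (S34R_g N (g i)⁻¹ • P')) :
    (∏ i ∈ s, (S34ACT_act K1 hstab (g i) u) ^ (c i)) ∈ modularFunctionFieldFullC K1 N ∧
      (∏ i ∈ s, (S34ACT_act K1 hstab (g i) u) ^ (c i)) ≠ 0 ∧
      ∀ P' : Place Qb (modularFunctionFieldBar N), G P' →
        S37B1_ordP N K1 P' (∏ i ∈ s, (S34ACT_act K1 hstab (g i) u) ^ (c i)) =
          (∑ i ∈ s, c i • (S34R_g N (g i) •
            (Finsupp.single P (1 : ℤ) : Divisor Qb (modularFunctionFieldBar N)))) P' := by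
  have hmem : ∀ i, S34ACT_act K1 hstab (g i) u ∈ modularFunctionFieldFullC K1 N := fun i =>
    S34ACT_mem_F1 K1 hstab N (g i) hu
  have hne : ∀ i, S34ACT_act K1 hstab (g i) u ≠ 0 := by
    intro i h
    apply hu0
    apply S34ACT_act_injective K1 hstab (g i)
    rw [h, map_zero]
  have hmemz : ∀ i, (S34ACT_act K1 hstab (g i) u) ^ (c i) ∈ modularFunctionFieldFullC K1 N :=
    fun i => zpow_mem (hmem i) (c i)
  have hnez : ∀ i, (S34ACT_act K1 hstab (g i) u) ^ (c i) ≠ 0 := fun i =>
    zpow_ne_zero (c i) (hne i)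
  refine ⟨prod_mem fun i _ => hmemz i, Finset.prod_ne_zero_iff.mpr fun i _ => hnez i, ?_⟩
  intro P' hP'
  rw [S34XC_ordP_prod N K1 P' s _ (fun i _ => hmemz i) (fun i _ => hnez i),
    Finsupp.coe_finsetSum, Finset.sum_apply]
  refine Finset.sum_congr rfl fun i hi => ?_
  rw [S34XC_ordP_zpow N K1 P' (hmem i) (hne i), Finsupp.smul_apply, smul_eq_mul,
    S35OF_core' N K1 hstab P u hu hu0 G' G hord (g i) (hG i hi) P' hP']

/-- **The polynomial packaging**: for `p ∈ ℤ[X]` and `s ∈ G_ℚ`, the function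
`Θ_p u = ∏ (s ^ i u) ^ (p_i)` has the divisor `Θ_p (single P 1) = ∑ p_i • (s ^ i • single P 1)`
on a class of places stable under `s⁻¹`. -/
theorem S35OF_poly (p : Polynomial ℤ) (s : GQ)
    (P : Place Qb (modularFunctionFieldBar N)) (u : LaurentSeries K1)
    (hu : u ∈ modularFunctionFieldFullC K1 N) (hu0 : u ≠ 0)
    (G : Place Qb (modularFunctionFieldBar N) → Prop)
    (hord : ∀ P'' : Place Qb (modularFunctionFieldBar N), G P'' →
      (P'' = P → S37B1_ordP N K1 P'' u = 1) ∧ (P'' ≠ P → S37B1_ordP N K1 P'' u = 0))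
    (hs : ∀ P', G P' → G (S34R_g N s⁻¹ • P')) :
    (∏ i ∈ p.support, (S34ACT_act K1 hstab (s ^ i) u) ^ (p.coeff i)) ∈
        modularFunctionFieldFullC K1 N ∧
      (∏ i ∈ p.support, (S34ACT_act K1 hstab (s ^ i) u) ^ (p.coeff i)) ≠ 0 ∧
      ∀ P' : Place Qb (modularFunctionFieldBar N), G P' →
        S37B1_ordP N K1 P' (∏ i ∈ p.support, (S34ACT_act K1 hstab (s ^ i) u) ^ (p.coeff i)) =
          (∑ i ∈ p.support, p.coeff i • (S34R_g N (s ^ i) •
            (Finsupp.single P (1 : ℤ) : Divisor Qb (modularFunctionFieldBar N)))) P' :=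
  S35OF_prod N K1 hstab p.support (fun i => s ^ i) (fun i => p.coeff i) P u hu hu0 G G hord
    (fun i _ => S35OF_stable_pow N s G hs i)

/-- **The explicit three-term operator** `Θ = s² - b s + c` (for `Θ0 = (s - q²)(s - 1)`:
`b = q² + 1`, `c = q²`, `s` the square of a Frobenius lift):
`(s² u) · u ^ c / (s u) ^ b` has the divisor `s² P - b (s P) + c P`. -/
theorem S35OF_three (s : GQ) (b c : ℤ)
    (P : Place Qb (modularFunctionFieldBar N)) (u : LaurentSeries K1)
    (hu : u ∈ modularFunctionFieldFullC K1 N) (hu0 : u ≠ 0)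
    (G : Place Qb (modularFunctionFieldBar N) → Prop)
    (hord : ∀ P'' : Place Qb (modularFunctionFieldBar N), G P'' →
      (P'' = P → S37B1_ordP N K1 P'' u = 1) ∧ (P'' ≠ P → S37B1_ordP N K1 P'' u = 0))
    (hs : ∀ P', G P' → G (S34R_g N s⁻¹ • P')) :
    (S34ACT_act K1 hstab s (S34ACT_act K1 hstab s u) * u ^ c *
        ((S34ACT_act K1 hstab s u) ^ b)⁻¹) ∈ modularFunctionFieldFullC K1 N ∧
      (S34ACT_act K1 hstab s (S34ACT_act K1 hstab s u) * u ^ c *
        ((S34ACT_act K1 hstab s u) ^ b)⁻¹) ≠ 0 ∧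
      ∀ P' : Place Qb (modularFunctionFieldBar N), G P' →
        S37B1_ordP N K1 P' (S34ACT_act K1 hstab s (S34ACT_act K1 hstab s u) * u ^ c *
            ((S34ACT_act K1 hstab s u) ^ b)⁻¹) =
          Finsupp.single (S34R_g N s • S34R_g N s • P) (1 : ℤ) P'
            - b * Finsupp.single (S34R_g N s • P) (1 : ℤ) P'
            + c * Finsupp.single P (1 : ℤ) P' := by
  obtain ⟨m1, n1, o1⟩ := S35OF_core N K1 hstab P u hu hu0 G G hord s hs
  have hord1 : ∀ P'' : Place Qb (modularFunctionFieldBar N), G P'' →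
      S37B1_ordP N K1 P'' u = Finsupp.single P (1 : ℤ) P'' := by
    intro P'' hP''
    obtain ⟨ha, hb⟩ := hord P'' hP''
    by_cases h : P'' = P
    · rw [ha h, h, Finsupp.single_eq_same]
    · rw [hb h, Finsupp.single_eq_of_ne' (fun e => h e.symm)]
  have m2 : S34ACT_act K1 hstab s (S34ACT_act K1 hstab s u) ∈ modularFunctionFieldFullC K1 N :=
    S34ACT_mem_F1 K1 hstab N s m1
  have n2 : S34ACT_act K1 hstab s (S34ACT_act K1 hstab s u) ≠ 0 := by
    intro h
    apply n1
    apply S34ACT_act_injective K1 hstab s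
    rw [h, map_zero]
  have mc : u ^ c ∈ modularFunctionFieldFullC K1 N := zpow_mem hu c
  have nc : u ^ c ≠ 0 := zpow_ne_zero c hu0
  have mb : (S34ACT_act K1 hstab s u) ^ b ∈ modularFunctionFieldFullC K1 N := zpow_mem m1 b
  have nb : (S34ACT_act K1 hstab s u) ^ b ≠ 0 := zpow_ne_zero b n1
  refine ⟨mul_mem (mul_mem m2 mc) (inv_mem mb),
    mul_ne_zero (mul_ne_zero n2 nc) (inv_ne_zero nb), ?_⟩
  intro P' hP'
  have o2 : S37B1_ordP N K1 P' (S34ACT_act K1 hstab s (S34ACT_act K1 hstab s u)) =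
      Finsupp.single (S34R_g N s • S34R_g N s • P) (1 : ℤ) P' := by
    have h1 := S34ACT_ordP K1 hstab N s (S34R_g N s⁻¹ • P') (S34ACT_act K1 hstab s u)
    rw [S35OF_smul_inv] at h1
    rw [h1, o1 _ (hs P' hP')]
    by_cases h : S34R_g N s • P = S34R_g N s⁻¹ • P'
    · have e : S34R_g N s • S34R_g N s • P = P' := by rw [h, S35OF_smul_inv]
      rw [e, h, Finsupp.single_eq_same, Finsupp.single_eq_same]
    · have e : S34R_g N s • S34R_g N s • P ≠ P' := by
        intro e
        apply h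
        rw [← e, S35OF_inv_smul]
      rw [Finsupp.single_eq_of_ne' h, Finsupp.single_eq_of_ne' e]
  rw [S34XC_ordP_mul N K1 P' (mul_mem m2 mc) (inv_mem mb) (mul_ne_zero n2 nc)
      (inv_ne_zero nb),
    S34XC_ordP_mul N K1 P' m2 mc n2 nc, S34XC_ordP_inv N K1 P' mb,
    S34XC_ordP_zpow N K1 P' hu hu0, S34XC_ordP_zpow N K1 P' m1 n1, o2, o1 P' hP',
    hord1 P' hP']
  ring

/-! ### The instances at node coordinates -/

section Node

variable (A : ValuationSubring Qb) [IsDiscreteValuationRing (S18K_O1 A K1)]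

/-- `g (Z - C a) = g Z - C (g a)`. -/
theorem S35OF_act_sub_C (g : GQ) (Z : LaurentSeries K1) (a : K1) :
    S34ACT_act K1 hstab g (Z - HahnSeries.C a) =
      S34ACT_act K1 hstab g Z - HahnSeries.C (S34ACT_res K1 hstab g a) := by
  rw [map_sub, S34ACT_act_C]

/-- **ORD at a node, coordinate `T`**, in the form consumed by `S35OF_core` / `S35OF_prod` /
`S35OF_poly` / `S35OF_three` (`G := S34K_Centred N A K1 X m`). -/
theorem S35OF_node_T (V2 X : Subring (LaurentSeries K1))
    (hXF : ∀ x ∈ X, x ∈ modularFunctionFieldFullC K1 N)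
    (hOrd : S34LGK_Ord N A K1 hstab V2 X)
    (hπ : S18K_π A K1 ∈ X) (m : Ideal X) (hm : m.IsMaximal)
    (hπm : (⟨S18K_π A K1, hπ⟩ : X) ∈ m)
    (hT1 : S34K_Thru (S18K_π A K1) (S18K_V A K1 N) X m)
    (hT2 : S34K_Thru (S18K_π A K1) V2 X m)
    (ϖ : K1) (k : ℕ) (T S c : LaurentSeries K1)
    (hND : haveI := hm.isPrime; S34LGK_NodeData N A K1 hstab V2 X m ϖ k T S c)
    (P : Place Qb (modularFunctionFieldBar N)) (hrat : S37LEVEL_IsRational N K1 P)
    (hcen : S34K_Centred N A K1 X m P) (a : K1) (hty : S34LGK_Type N A K1 P ϖ k T a) :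
    (T - HahnSeries.C a) ∈ modularFunctionFieldFullC K1 N ∧ T - HahnSeries.C a ≠ 0 ∧
      ∀ P'' : Place Qb (modularFunctionFieldBar N), S34K_Centred N A K1 X m P'' →
        (P'' = P → S37B1_ordP N K1 P'' (T - HahnSeries.C a) = 1) ∧
        (P'' ≠ P → S37B1_ordP N K1 P'' (T - HahnSeries.C a) = 0) := by
  haveI := hm.isPrime
  obtain ⟨h0, h1⟩ := (hOrd hπ m hm hπm hT1 hT2 ϖ k T S c hND P hrat hcen).1 a hty
  refine ⟨?_, h0, h1⟩
  exact (modularFunctionFieldFullC K1 N).sub_mem (hXF _ hND.T_mem)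
    (Fermat.Agent.S34_helper26_ORDK.S34LOK_C_mem N K1 a)

/-- **ORD at a node, coordinate `S`.** -/
theorem S35OF_node_S (V2 X : Subring (LaurentSeries K1))
    (hXF : ∀ x ∈ X, x ∈ modularFunctionFieldFullC K1 N)
    (hOrd : S34LGK_Ord N A K1 hstab V2 X)
    (hπ : S18K_π A K1 ∈ X) (m : Ideal X) (hm : m.IsMaximal)
    (hπm : (⟨S18K_π A K1, hπ⟩ : X) ∈ m)
    (hT1 : S34K_Thru (S18K_π A K1) (S18K_V A K1 N) X m)
    (hT2 : S34K_Thru (S18K_π A K1) V2 X m)
    (ϖ : K1) (k : ℕ) (T S c : LaurentSeries K1)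
    (hND : haveI := hm.isPrime; S34LGK_NodeData N A K1 hstab V2 X m ϖ k T S c)
    (P : Place Qb (modularFunctionFieldBar N)) (hrat : S37LEVEL_IsRational N K1 P)
    (hcen : S34K_Centred N A K1 X m P) (b : K1) (hty : S34LGK_Type N A K1 P ϖ k S b) :
    (S - HahnSeries.C b) ∈ modularFunctionFieldFullC K1 N ∧ S - HahnSeries.C b ≠ 0 ∧
      ∀ P'' : Place Qb (modularFunctionFieldBar N), S34K_Centred N A K1 X m P'' →
        (P'' = P → S37B1_ordP N K1 P'' (S - HahnSeries.C b) = 1) ∧
        (P'' ≠ P → S37B1_ordP N K1 P'' (S - HahnSeries.C b) = 0) := by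
  haveI := hm.isPrime
  obtain ⟨h0, h1⟩ := (hOrd hπ m hm hπm hT1 hT2 ϖ k T S c hND P hrat hcen).2 b hty
  refine ⟨?_, h0, h1⟩
  exact (modularFunctionFieldFullC K1 N).sub_mem (hXF _ hND.S_mem)
    (Fermat.Agent.S34_helper26_ORDK.S34LOK_C_mem N K1 b)

/-- **The orders of the Frobenius local generator at a node** (polynomial packaging, coordinate
`T`): for node coordinates at the crossing point `m`, a rational place `P` centred at `m` of type
`(ϖ ^ k, T)` with value `a`, `s ∈ G_ℚ` with `s⁻¹` preserving the places centred at `m`, and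
`p ∈ ℤ[X]`: the function `∏ (s ^ i T - C (s ^ i a)) ^ (p_i)` has order
`(∑ p_i • (s ^ i • single P 1)) P'` at every place `P'` centred at `m`. -/
theorem S35OF_node_poly_T (V2 X : Subring (LaurentSeries K1))
    (hXF : ∀ x ∈ X, x ∈ modularFunctionFieldFullC K1 N)
    (hOrd : S34LGK_Ord N A K1 hstab V2 X)
    (hπ : S18K_π A K1 ∈ X) (m : Ideal X) (hm : m.IsMaximal)
    (hπm : (⟨S18K_π A K1, hπ⟩ : X) ∈ m)
    (hT1 : S34K_Thru (S18K_π A K1) (S18K_V A K1 N) X m)
    (hT2 : S34K_Thru (S18K_π A K1) V2 X m)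
    (ϖ : K1) (k : ℕ) (T S c : LaurentSeries K1)
    (hND : haveI := hm.isPrime; S34LGK_NodeData N A K1 hstab V2 X m ϖ k T S c)
    (P : Place Qb (modularFunctionFieldBar N)) (hrat : S37LEVEL_IsRational N K1 P)
    (hcen : S34K_Centred N A K1 X m P) (a : K1) (hty : S34LGK_Type N A K1 P ϖ k T a)
    (p : Polynomial ℤ) (s : GQ)
    (hs : ∀ P', S34K_Centred N A K1 X m P' → S34K_Centred N A K1 X m (S34R_g N s⁻¹ • P')) :
    (∏ i ∈ p.support, (S34ACT_act K1 hstab (s ^ i) T -
        HahnSeries.C (S34ACT_res K1 hstab (s ^ i) a)) ^ (p.coeff i)) ∈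
        modularFunctionFieldFullC K1 N ∧
      (∏ i ∈ p.support, (S34ACT_act K1 hstab (s ^ i) T -
        HahnSeries.C (S34ACT_res K1 hstab (s ^ i) a)) ^ (p.coeff i)) ≠ 0 ∧
      ∀ P' : Place Qb (modularFunctionFieldBar N), S34K_Centred N A K1 X m P' →
        S37B1_ordP N K1 P' (∏ i ∈ p.support, (S34ACT_act K1 hstab (s ^ i) T -
            HahnSeries.C (S34ACT_res K1 hstab (s ^ i) a)) ^ (p.coeff i)) =
          (∑ i ∈ p.support, p.coeff i • (S34R_g N (s ^ i) •
            (Finsupp.single P (1 : ℤ) : Divisor Qb (modularFunctionFieldBar N)))) P' := by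
  obtain ⟨hu, hu0, hord⟩ := S35OF_node_T N K1 hstab A V2 X hXF hOrd hπ m hm hπm hT1 hT2 ϖ k T S c
    hND P hrat hcen a hty
  have h := S35OF_poly N K1 hstab p s P (T - HahnSeries.C a) hu hu0
    (S34K_Centred N A K1 X m) hord hs
  simp only [S35OF_act_sub_C] at h
  exact h

/-- The same for the coordinate `S`. -/
theorem S35OF_node_poly_S (V2 X : Subring (LaurentSeries K1))
    (hXF : ∀ x ∈ X, x ∈ modularFunctionFieldFullC K1 N)
    (hOrd : S34LGK_Ord N A K1 hstab V2 X)
    (hπ : S18K_π A K1 ∈ X) (m : Ideal X) (hm : m.IsMaximal)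
    (hπm : (⟨S18K_π A K1, hπ⟩ : X) ∈ m)
    (hT1 : S34K_Thru (S18K_π A K1) (S18K_V A K1 N) X m)
    (hT2 : S34K_Thru (S18K_π A K1) V2 X m)
    (ϖ : K1) (k : ℕ) (T S c : LaurentSeries K1)
    (hND : haveI := hm.isPrime; S34LGK_NodeData N A K1 hstab V2 X m ϖ k T S c)
    (P : Place Qb (modularFunctionFieldBar N)) (hrat : S37LEVEL_IsRational N K1 P)
    (hcen : S34K_Centred N A K1 X m P) (b : K1) (hty : S34LGK_Type N A K1 P ϖ k S b)
    (p : Polynomial ℤ) (s : GQ)
    (hs : ∀ P', S34K_Centred N A K1 X m P' → S34K_Centred N A K1 X m (S34R_g N s⁻¹ • P')) :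
    (∏ i ∈ p.support, (S34ACT_act K1 hstab (s ^ i) S -
        HahnSeries.C (S34ACT_res K1 hstab (s ^ i) b)) ^ (p.coeff i)) ∈
        modularFunctionFieldFullC K1 N ∧
      (∏ i ∈ p.support, (S34ACT_act K1 hstab (s ^ i) S -
        HahnSeries.C (S34ACT_res K1 hstab (s ^ i) b)) ^ (p.coeff i)) ≠ 0 ∧
      ∀ P' : Place Qb (modularFunctionFieldBar N), S34K_Centred N A K1 X m P' →
        S37B1_ordP N K1 P' (∏ i ∈ p.support, (S34ACT_act K1 hstab (s ^ i) S -
            HahnSeries.C (S34ACT_res K1 hstab (s ^ i) b)) ^ (p.coeff i)) =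
          (∑ i ∈ p.support, p.coeff i • (S34R_g N (s ^ i) •
            (Finsupp.single P (1 : ℤ) : Divisor Qb (modularFunctionFieldBar N)))) P' := by
  obtain ⟨hu, hu0, hord⟩ := S35OF_node_S N K1 hstab A V2 X hXF hOrd hπ m hm hπm hT1 hT2 ϖ k T S c
    hND P hrat hcen b hty
  have h := S35OF_poly N K1 hstab p s P (S - HahnSeries.C b) hu hu0
    (S34K_Centred N A K1 X m) hord hs
  simp only [S35OF_act_sub_C] at h
  exact h

/-- **`S34LGK_Ord` for a chart of a two-valuation setup** (re-export of the landed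
`S34LOC_ord_chart`, so that the consumers of this file need no other import for `hOrd`). -/
theorem S35OF_ord_chart (V2 A0 Ainf : Subring (LaurentSeries K1))
    (S : S34C_Setup2 (S18K_O A K1) (S18K_π A K1) (S18K_j K1) (S18K_F1 K1 N) (S18K_V A K1 N) V2
      A0 Ainf)
    (x : LaurentSeries K1) (hx : x = S18K_j K1 ∨ x = (S18K_j K1)⁻¹)
    (X : Subring (LaurentSeries K1))
    (hC : Chart (S18K_O A K1) (S18K_π A K1) x (S18K_F1 K1 N) (S18K_V A K1 N ⊓ V2) X) :
    S34LGK_Ord N A K1 hstab V2 X :=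
  S34LOC_ord_chart N A K1 hstab V2 A0 Ainf S x hx X hC

end Node

end Fermat.Agent.S35_helper26_ORDF
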