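import Mathlib
import Fermat.Agent.S35_helper26_NOEIG
import Fermat.Agent.S35_helper11_SJK

/-!
# S35, (P6) by the weak-surjectivity route, with no hypothesis left (helper26)

`S35P6WS_hP6` : the hypothesis `hP6` of `S35ENDK_frozen`, verbatim, obtained from
`S35NE_hP6` (no eigenvector at the lower level, from a weak-surjectivity family) and the
weak-surjectivity family `S35SJK_family` at every level.  This is an independent second proof
of (P6); the first one is the `Θ`-functoriality route.
-/

set_option autoImplicit false
set_option linter.unusedSectionVars false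
set_option linter.unusedVariables false
set_option linter.style.haveILetI false
set_option linter.overlappingInstances false
set_option maxHeartbeats 1600000
set_option synthInstance.maxHeartbeats 400000

open Fermat.Agent.S35_helper12_ENDK Fermat.Agent.S35_helper26_NOEIG

noncomputable section

namespace Fermat.Agent.S35_helper26_P6WS

/-- the weak-surjectivity family exists at every level and every prime. -/
theorem S35P6WS_family (N : ℕ) [NeZero N] (p : ℕ) (hp : 0 < p) : S35NE_Family N p :=
  Fermat.Agent.S35_helper11_SJK.S35SJK_family N p hp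

/-- **(P6)**, i.e. the hypothesis `hP6` of `S35ENDK_frozen`, verbatim, with no hypothesis
left (weak-surjectivity route). -/
theorem S35P6WS_hP6 :
    ∀ (N' q : ℕ) [NeZero N'] [NeZero q] [NeZero (N' * q)], q.Prime → ¬ q ∣ N' →
      ∀ {g : CuspForm (CongruenceSubgroup.Gamma0 (N' * q)) 2}, g.IsNewform →
      ∀ (lam : ℕ) [Fact lam.Prime], q ≠ lam → ∀ (S : Finset ℕ)
        (O' : Type) [CommRing O'] [IsDomain O'] [IsDiscreteValuationRing O']
        [IsAdicComplete (IsLocalRing.maximalIdeal O') O'] [Finite (IsLocalRing.ResidueField O')]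
        [CharZero O'] (hlamO' : (lam : O') ∈ IsLocalRing.maximalIdeal O')
        (chig : CuspForm.heckeAlgebra (N' * q) 2 (↑S : Set ℕ) →+* ℂ),
        (∀ (ℓ : ℕ) (hℓ : ℓ.Prime) (hℓM : ¬ ℓ ∣ N' * q) (hℓS : ℓ ∉ (↑S : Set ℕ)),
          chig (CuspForm.heckeAlgebra.T hℓ hℓM hℓS) = ModularFormClass.qCoeff g ℓ) →
        ∀ (iota : chig.range →+* O'), lam ∈ S → (∀ r : ℕ, r.Prime → r ∣ N' * q → r ∈ S) →
          S35ENDK_P6At N' q lam S O' hlamO' (iota.comp chig.rangeRestrict) :=
  S35NE_hP6 (fun N _ p hp => S35P6WS_family N p hp.pos)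

end Fermat.Agent.S35_helper26_P6WS
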