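import Fermat.Agent.S34_helper27_FINAL2
import Fermat.Agent.S34_helper8_MODEQ
import Fermat.Agent.S35_helper11_INF
import Fermat.Agent.S34_helper12_XB2

/-!
# S35 (helper27): the closing half of X-D-FROB, Part II (block C' at the concrete carriers)

At the level `N' * q` over an admissible level `K1`, with `V1 = S18K_V` (Gauss) and
`V2 = S34P1C_V2 = w(V1)`: a function `f ∈ F1` all of whose divisorial orders are divisible by the
prime `lam ≠ q`, with a root `G` modulo `π (V1 ⊓ V2)` (`RedPow`, a NON-CONSTANT `G` is allowed)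
and the local shape `S34C_Shape … lam f G m` at the CROSSING points of the FINITE chart only,
is a `lam`-th power in `F1` as soon as it is one in `K1((q))`.

Everything else is discharged here from landed files: `S34C_Setup2` (P1c), (N1) on both charts
(helper14/helper18 via `S34FINAL2_N1_A0/_Ainf`), the modular relation (helper8 MODEQ), the chart at
infinity (helper11 `S35INFK_shape`), the one-branch points (helper12 `S34KUM_locLift`), `PowDiv`
and the root in `K1((q))` (S18 CORE).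

* `S35CL_mem`  : `h ^ lam = f` in `K1((q))` ⟹ `h ∈ F1`;
* `S35CL_root` : from the divisor over `ℚ̄` (orders divisible by `lam`) and a `lam`-th root of
  the leading coefficient in `K1`: `∃ w ∈ F1, w ^ lam = f`.
-/

set_option autoImplicit false
set_option linter.unusedSectionVars false
set_option linter.unusedVariables false
set_option linter.style.haveILetI false

open HahnSeries IntermediateField AlgebraicCurve ModularCurve
open Fermat.Agent.S18_helper9_CDefs Fermat.Agent.S18_helper25_COREDefs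
  Fermat.Agent.S34_helper12_CDefs Fermat.Agent.S34_helper5_K0
  Fermat.Agent.S37_helper5_LEVEL Fermat.Agent.S34_helper25_Defs
  Fermat.Agent.S34_Contracts Fermat.Agent.S34_helper12_KUM Fermat.Agent.S34_helper12_XDAD
  Fermat.Agent.S34_helper27_P1C Fermat.Agent.S34_helper27_FINAL2
  Fermat.Agent.S34_helper27_C2ADAPT Fermat.Agent.S35_helper11_INF

noncomputable section

namespace Fermat.Agent.S35_helper27_CLOSE

local notation "Qb" => AlgebraicClosure ℚ
local notation "GQ" => (AlgebraicClosure ℚ ≃ₐ[ℚ] AlgebraicClosure ℚ)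

section Level

variable (A : ValuationSubring Qb) (K1 : IntermediateField ℚ Qb)
  [IsDiscreteValuationRing (S18K_O1 A K1)]

/-- **block C' at the concrete carriers, general root `G`**: the shape is asked only at the
crossing points of the finite chart. -/
theorem S35CL_mem {q : ℕ} (hq : q.Prime) (hA : A.LiesOverPrime q) (N' : ℕ) [NeZero N']
    [NeZero (N' * q)] (hqN : ¬ q ∣ N') (hadm : S18K_Admissible A K1 q)
    {lam : ℕ} (hlam : lam.Prime) (hne : lam ≠ q)
    (f h G : LaurentSeries K1) (hf : f ∈ S18K_F1 K1 (N' * q)) (hf0 : f ≠ 0)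
    (hh : h ^ lam = f)
    (hdiv : PowDiv (S18K_O A K1) (S18K_π A K1) (S18K_F1 K1 (N' * q)) lam f)
    (hred : RedPow (S18K_π A K1) (S18K_V A K1 (N' * q) ⊓ S34P1C_V2 A K1 hq N' hqN) lam f G)
    (hshape0 : ∀ (hπ : S18K_π A K1 ∈ S18K_A0 A K1 (N' * q))
      (m0 : Ideal (S18K_A0 A K1 (N' * q))) (hm0 : m0.IsMaximal),
      (⟨S18K_π A K1, hπ⟩ : S18K_A0 A K1 (N' * q)) ∈ m0 →
      S34K_Thru (S18K_π A K1) (S18K_V A K1 (N' * q)) (S18K_A0 A K1 (N' * q)) m0 →
      S34K_Thru (S18K_π A K1) (S34P1C_V2 A K1 hq N' hqN) (S18K_A0 A K1 (N' * q)) m0 →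
      S34C_Shape (S18K_π A K1) (S18K_F1 K1 (N' * q))
        (S18K_V A K1 (N' * q) ⊓ S34P1C_V2 A K1 hq N' hqN) (S18K_A0 A K1 (N' * q)) lam f G m0) :
    h ∈ S18K_F1 K1 (N' * q) := by
  haveI : NeZero q := ⟨hq.ne_zero⟩
  haveI : Fact q.Prime := ⟨hq⟩
  haveI := S34AD_charZero K1
  have S := S34P1C_setup2 A K1 hq hA N' hqN
  obtain ⟨hrel, hrel'⟩ := Fermat.Agent.S34_helper8_MODEQ.S34ME_cuspRel (S18K_O A K1) q hq
  have hN0 := S34FINAL2_N1_A0 A K1 hq hA N' hqN hadm hrel
  have hNinf := S34FINAL2_N1_Ainf A K1 hq hA N' hqN hadm hrel hrel'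
  have hpO : ((lam : LaurentSeries K1))⁻¹ ∈ S18K_O A K1 :=
    Fermat.Agent.S18_helper25_CORE.S18K_natCast_inv_mem A K1 hA lam hlam hne
  refine S34CA_main2 S hlam hpO f h G hf hf0 hh hred ?_ ?_
  · intro hπ m hm hπm
    exact S34KUM_locLift S hlam hpO (S18K_j K1) (Or.inl rfl) _ S.chart0 hN0 f h G hf0 hh hdiv
      hred hπ m hm hπm (fun h1 h2 => hshape0 hπ m hm hπm h1 h2)
  · intro hπ m hm hπm
    exact S34KUM_locLift S hlam hpO (S18K_j K1)⁻¹ (Or.inr rfl) _ S.chartInf hNinf f h G hf0 hh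
      hdiv hred hπ m hm hπm (fun h1 h2 =>
        S35INFK_shape A K1 hq hA N' hqN hadm.res_surj lam f G hshape0 hπ m hm hπm h1 h2)

/-- **the closing step of X-D-FROB at one level**: a function of `F1` whose divisor over `ℚ̄` is
divisible by `lam`, whose leading coefficient is a `lam`-th power in `K1`, with a root `G`
modulo `π (V1 ⊓ V2)` and the shape at the crossing points of the finite chart, is a `lam`-th
power in `F1`. -/
theorem S35CL_root {q : ℕ} (hq : q.Prime) (hA : A.LiesOverPrime q) (N' : ℕ) [NeZero N']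
    [NeZero (N' * q)] (hqN : ¬ q ∣ N') (hadm : S18K_Admissible A K1 q)
    {lam : ℕ} (hlam : lam.Prime) (hne : lam ≠ q)
    (h1 : modularFunctionFieldFullC K1 (N' * q)) (h10 : (h1 : LaurentSeries K1) ≠ 0)
    (hord : ∀ P : Place Qb (modularFunctionFieldBar (N' * q)),
      (lam : ℤ) ∣ P.ord (S34XD_inc K1 (N' * q) h1))
    (hlead : ∃ r : K1, r ^ lam = (h1 : LaurentSeries K1).coeff (h1 : LaurentSeries K1).order)
    (G : LaurentSeries K1)
    (hred : RedPow (S18K_π A K1) (S18K_V A K1 (N' * q) ⊓ S34P1C_V2 A K1 hq N' hqN) lam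
      (h1 : LaurentSeries K1) G)
    (hshape0 : ∀ (hπ : S18K_π A K1 ∈ S18K_A0 A K1 (N' * q))
      (m0 : Ideal (S18K_A0 A K1 (N' * q))) (hm0 : m0.IsMaximal),
      (⟨S18K_π A K1, hπ⟩ : S18K_A0 A K1 (N' * q)) ∈ m0 →
      S34K_Thru (S18K_π A K1) (S18K_V A K1 (N' * q)) (S18K_A0 A K1 (N' * q)) m0 →
      S34K_Thru (S18K_π A K1) (S34P1C_V2 A K1 hq N' hqN) (S18K_A0 A K1 (N' * q)) m0 →
      S34C_Shape (S18K_π A K1) (S18K_F1 K1 (N' * q))
        (S18K_V A K1 (N' * q) ⊓ S34P1C_V2 A K1 hq N' hqN) (S18K_A0 A K1 (N' * q)) lam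
        (h1 : LaurentSeries K1) G m0) :
    ∃ w : LaurentSeries K1, w ∈ S18K_F1 K1 (N' * q) ∧ w ^ lam = (h1 : LaurentSeries K1) := by
  haveI : NeZero q := ⟨hq.ne_zero⟩
  haveI : Fact q.Prime := ⟨hq⟩
  have S := S34P1C_setup2 A K1 hq hA N' hqN
  have hπ0 : S18K_π A K1 ≠ 0 := Fermat.Agent.S34_helper12_DICH.S34DI_pi_ne_zero S
  have hF : coeffMap (algebraMap K1 Qb) (h1 : LaurentSeries K1) ∈
      modularFunctionFieldBar (N' * q) := (S34XD_inc K1 (N' * q) h1).2
  have hdiv : ∀ P : Place Qb (modularFunctionFieldBar (N' * q)),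
      (lam : ℤ) ∣ P.ord ⟨coeffMap (algebraMap K1 Qb) (h1 : LaurentSeries K1), hF⟩ := by
    intro P
    have e : (⟨coeffMap (algebraMap K1 Qb) (h1 : LaurentSeries K1), hF⟩ :
        modularFunctionFieldBar (N' * q)) = S34XD_inc K1 (N' * q) h1 := Subtype.ext rfl
    rw [e]
    exact hord P
  obtain ⟨hPow, hordq⟩ := Fermat.Agent.S18_helper25_CORE.S18K_powDiv_and_order
    (algebraMap K1 Qb) (N' * q) (S18K_O A K1) (S18K_π A K1) hπ0
    (fun c => Fermat.Agent.S18_helper25_CORE.S18K_const_mul_pow A K1 c) lam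
    (h1 : LaurentSeries K1) h1.2 h10 hF hdiv
  have hp0 : (lam : K1) ≠ 0 := Nat.cast_ne_zero.mpr hlam.ne_zero
  obtain ⟨h', hh'⟩ := Fermat.Agent.S18_helper25_COREA.S18K_exists_root lam hp0
    (h1 : LaurentSeries K1) h10 hordq hlead
  exact ⟨h', S35CL_mem A K1 hq hA N' hqN hadm hlam hne (h1 : LaurentSeries K1) h' G h1.2 h10
    hh' hPow hred hshape0, hh'⟩

end Level

end Fermat.Agent.S35_helper27_CLOSE
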