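import Fermat.Agent.S35_helper6_GEOTOP
import Fermat.Agent.S35_helper12_END

/-!
# S35, GEO-TOP plug (helper6): `S35END_Geo` from the divisor-level contract

`S35GTK_geo` : `S35GT_Key N' q lam → S35END_Geo (N' * q) lam σ α_* β_* 0 [q, -q, 1, -1, 1]`
for every Frobenius lift `σ` at `q`, with `α_* = S35PU_alpha N' q`, `β_* = S35PU_beta N' q`:
the (GEO) half of helper12's `S35END_Input`.
-/

set_option autoImplicit false
set_option linter.unusedSectionVars false
set_option linter.unusedVariables false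

open AlgebraicCurve ModularCurve
open Fermat.Agent.S34_helper6_RED Fermat.Agent.S35_helper6_PUSH Fermat.Agent.S35_helper6_GEOTOP
  Fermat.Agent.S35_helper12_END

noncomputable section

namespace Fermat.Agent.S35_helper6_GEOTOPK

local notation "Qb" => AlgebraicClosure ℚ
local notation "GQ" => (AlgebraicClosure ℚ ≃ₐ[ℚ] AlgebraicClosure ℚ)

/-- the list of the endgame -/
def S35GTK_list (q : ℕ) : List ℤ := [(q : ℤ), -(q : ℤ), 1, -1, 1]

theorem S35GTK_list_mem (q : ℕ) :
    ∀ e ∈ S35GTK_list q, e = 1 ∨ e = -1 ∨ e = (q : ℤ) ∨ e = -(q : ℤ) := by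
  intro e he
  simp only [S35GTK_list, List.mem_cons, List.not_mem_nil, or_false] at he
  rcases he with h | h | h | h | h
  · exact Or.inr (Or.inr (Or.inl h))
  · exact Or.inr (Or.inr (Or.inr h))
  · exact Or.inl h
  · exact Or.inr (Or.inl h)
  · exact Or.inl h

theorem S35GTK_factor_apply (M : ℕ) (σ : GQ) (e : ℤ) (x : JZero M) :
    (S35END_act M σ - (e : AddMonoid.End (JZero M))) x = σ • x - e • x := rfl

theorem S35GTK_aux1 (M : ℕ) (σ : GQ) (y : JZero M) :
    σ • (σ • y - (-1 : ℤ) • y) - (1 : ℤ) • (σ • y - (-1 : ℤ) • y) = σ • σ • y - y := by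
  rw [one_smul, neg_one_zsmul, sub_neg_eq_add, smul_add]
  abel

theorem S35GTK_aux2 (M : ℕ) (σ : GQ) (e : ℤ) (z : JZero M) :
    σ • (σ • z - (-e) • z) - e • (σ • z - (-e) • z) = σ • σ • z - (e ^ 2) • z := by
  have hc : ∀ (n : ℤ) (w : JZero M), σ • (n • w) = n • (σ • w) := fun n w =>
    map_zsmul (DistribSMul.toAddMonoidHom (JZero M) σ) n w
  rw [smul_sub σ, hc]
  generalize σ • σ • z = a
  generalize σ • z = b
  module

/-- the operator of the endgame for the list `[q, -q, 1, -1, 1]` is `Θ`. -/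
theorem S35GTK_op_eq (M q : ℕ) (σ : GQ) (x : JZero M) :
    S35END_op M σ (S35GTK_list q) x = S35GT_thetaJ M q σ x := by
  have hop : S35END_op M σ (S35GTK_list q) x =
      (S35END_act M σ - (((q : ℤ) : ℤ) : AddMonoid.End (JZero M)))
        ((S35END_act M σ - ((-(q : ℤ) : ℤ) : AddMonoid.End (JZero M)))
          ((S35END_act M σ - ((1 : ℤ) : AddMonoid.End (JZero M)))
            ((S35END_act M σ - ((-1 : ℤ) : AddMonoid.End (JZero M)))
              ((S35END_act M σ - ((1 : ℤ) : AddMonoid.End (JZero M))) x)))) := by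
    simp only [S35END_op, S35GTK_list, List.map_cons, List.map_nil, List.prod_cons, List.prod_nil,
      mul_one]
    rfl
  rw [hop, S35GT_thetaJ_explicit]
  simp only [S35GTK_factor_apply]
  rw [S35GTK_aux1, S35GTK_aux2, one_smul]

variable (N' q : ℕ) [NeZero N'] [NeZero q]

/-- **the (GEO) half of `S35END_Input`** from the divisor-level contract. -/
theorem S35GTK_geo (lam : ℕ) (hKey : S35GT_Key N' q lam)
    (A : ValuationSubring Qb) (hA : A.LiesOverPrime q) (σ : GQ) (hσ : A.IsFrobeniusAt σ q) :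
    S35END_Geo (N' * q) lam σ (S35PU_alpha N' q) (S35PU_beta N' q) 0 (S35GTK_list q) := by
  intro k x hx hα hβ
  rw [pow_zero, one_smul, S35GTK_op_eq]
  exact S35GT_geo N' q lam hKey A hA σ hσ k x hx hα hβ

end Fermat.Agent.S35_helper6_GEOTOPK
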