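import Fermat.Agent.S35_helper12_ENDK
import Fermat.Agent.S35_helper6_GEOTOPK

/-!
# S35 (helper27): the final wiring, first form

The frozen statement of S35 from exactly two inputs:

* `S35GT_Key N' q lam` (helper6 GEO-TOP): the divisor-level contract with the geometry, for
  every level `N' * q` with `q ∤ N'` and every prime `lam ≠ q`;
* `S35ENDK_P6At` (helper12 END-K): a nonzero eigenvector in `O' ⊗ T_lam J₀(N' q)` with the
  eigenvalues of the newform, killed by the two push-forwards to `J₀(N')`.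

Plugged: helper12's endgame `S35ENDK_frozen` and helper6's formal top `S35GTK_geo`.
-/

set_option autoImplicit false
set_option linter.unusedSectionVars false
set_option linter.unusedVariables false
set_option linter.style.haveILetI false

open Polynomial
open scoped TensorProduct
open CuspForm

noncomputable section

namespace Fermat.Agent.S35_helper27_FINAL1

local notation "Qb" => AlgebraicClosure ℚ
local notation "GQ" => (AlgebraicClosure ℚ ≃ₐ[ℚ] AlgebraicClosure ℚ)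

open Fermat.Agent.S35_helper12_END Fermat.Agent.S35_helper12_ENDK
  Fermat.Agent.S35_helper6_GEOTOP Fermat.Agent.S35_helper6_GEOTOPK

/-- **(GEO) at the level `N' * q`** from the divisor-level contract of GEO-TOP. -/
theorem S35FINAL1_geoAt (N' q lam : ℕ) [NeZero N'] [NeZero q] (hKey : S35GT_Key N' q lam)
    (A : ValuationSubring Qb) (hA : A.LiesOverPrime q) (σ : GQ) (hσ : A.IsFrobeniusAt σ q) :
    S35ENDK_GeoAt N' q lam σ :=
  ⟨0, S35GTK_list q, S35GTK_list_mem q, S35GTK_geo N' q lam hKey A hA σ hσ⟩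

/-- **the frozen statement S35 from the divisor-level contract `S35GT_Key` and (P6).** -/
theorem S35FINAL1_of_key
    (hKey : ∀ (N' q lam : ℕ) [NeZero N'] [NeZero q], q.Prime → lam.Prime → q ≠ lam → ¬ q ∣ N' →
      S35GT_Key N' q lam)
    (hP6 : ∀ (N' q : ℕ) [NeZero N'] [NeZero q] [NeZero (N' * q)], q.Prime → ¬ q ∣ N' →
      ∀ {g : CuspForm (CongruenceSubgroup.Gamma0 (N' * q)) 2}, g.IsNewform →
      ∀ (lam : ℕ) [Fact lam.Prime], q ≠ lam → ∀ (S : Finset ℕ)
        (O' : Type) [CommRing O'] [IsDomain O'] [IsDiscreteValuationRing O']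
        [IsAdicComplete (IsLocalRing.maximalIdeal O') O'] [Finite (IsLocalRing.ResidueField O')]
        [CharZero O'] (hlamO' : (lam : O') ∈ IsLocalRing.maximalIdeal O')
        (chig : CuspForm.heckeAlgebra (N' * q) 2 (↑S : Set ℕ) →+* ℂ),
        (∀ (ℓ : ℕ) (hℓ : ℓ.Prime) (hℓM : ¬ ℓ ∣ N' * q) (hℓS : ℓ ∉ (↑S : Set ℕ)),
          chig (CuspForm.heckeAlgebra.T hℓ hℓM hℓS) = ModularFormClass.qCoeff g ℓ) →
        ∀ (iota : chig.range →+* O'), lam ∈ S → (∀ r : ℕ, r.Prime → r ∣ N' * q → r ∈ S) →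
          S35ENDK_P6At N' q lam S O' hlamO' (iota.comp chig.rangeRestrict))
    {M : ℕ} [NeZero M] {g : CuspForm (CongruenceSubgroup.Gamma0 M) 2} (hg : g.IsNewform)
    (lam : ℕ) [Fact lam.Prime]
    (S : Finset ℕ)
    (O' : Type) [CommRing O'] [IsDomain O'] [IsDiscreteValuationRing O']
    [IsAdicComplete (IsLocalRing.maximalIdeal O') O'] [Finite (IsLocalRing.ResidueField O')]
    [CharZero O'] (hlamO' : (lam : O') ∈ IsLocalRing.maximalIdeal O')
    (chig : CuspForm.heckeAlgebra M 2 (↑S : Set ℕ) →+* ℂ)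
    (hchig : ∀ (ℓ : ℕ) (hℓ : ℓ.Prime) (hℓM : ¬ ℓ ∣ M) (hℓS : ℓ ∉ (↑S : Set ℕ)),
      chig (CuspForm.heckeAlgebra.T hℓ hℓM hℓS) = ModularFormClass.qCoeff g ℓ)
    (iota : chig.range →+* O')
    (hlamS : lam ∈ S) (hMS : ∀ q : ℕ, q.Prime → q ∣ M → q ∈ S) :
    ∃ (O'' : Type) (_ : CommRing O'') (_ : IsDomain O'') (_ : IsDiscreteValuationRing O'')
      (_ : IsAdicComplete (IsLocalRing.maximalIdeal O'') O'') (_ : Finite (IsLocalRing.ResidueField O''))
      (_ : CharZero O'') (_ : Algebra O' O'') (_ : Module.Finite O' O'') (_ : IsLocalHom (algebraMap O' O'')),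
      Function.Injective (algebraMap O' O'') ∧
      ∃ ρ : GaloisRepAdic O'',
        (∀ (ℓ : ℕ) (hℓ : ℓ.Prime) (hℓM : ¬ ℓ ∣ M) (hℓS : ℓ ∉ (↑S : Set ℕ)),
          ∀ A : ValuationSubring (AlgebraicClosure ℚ), A.LiesOverPrime ℓ →
            ∀ σ : AlgebraicClosure ℚ ≃ₐ[ℚ] AlgebraicClosure ℚ, A.IsFrobeniusAt σ ℓ →
              LinearMap.charpoly (ρ.ρ σ) =
                X ^ 2 - C (algebraMap O' O'' ((iota.comp chig.rangeRestrict) (CuspForm.heckeAlgebra.T hℓ hℓM hℓS))) * X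
                  + C ((ℓ : O''))) ∧
        (∀ q : ℕ, q.Prime → q ≠ lam → q ∣ M → ¬ q ^ 2 ∣ M →
          ∀ A : ValuationSubring (AlgebraicClosure ℚ), A.LiesOverPrime q →
            ∀ σ : AlgebraicClosure ℚ ≃ₐ[ℚ] AlgebraicClosure ℚ, A.IsFrobeniusAt σ q →
              LinearMap.charpoly (ρ.ρ σ) = X ^ 2 - C ((q : O'') + 1) * X + C ((q : O'')) ∨
              LinearMap.charpoly (ρ.ρ σ) = X ^ 2 + C ((q : O'') + 1) * X + C ((q : O''))) :=
  S35ENDK_frozen
    (fun N' q lam _ _ hq hlam hne hqN A hA σ hσ =>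
      S35FINAL1_geoAt N' q lam (hKey N' q lam hq hlam hne hqN) A hA σ hσ)
    hP6 hg lam S O' hlamO' chig hchig iota hlamS hMS

end Fermat.Agent.S35_helper27_FINAL1
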