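import Fermat.Agent.S35_helper27_XD2Defs
import Fermat.Agent.S35_helper27_CLOSE
import Fermat.Agent.S35_helper7_CROSS2K
import Fermat.Agent.S35_helper13_LOCALK
import Fermat.Agent.S35_helper19_LOCAL

/-!
# S35 (helper27): X-D-FROB, Part II — the key statement at one level from the contract

`S35XD2_keyK1 : (∀ A K1 σ …, S35XD2_Contract A K1 hstab hq N' hqN σ lam) → S35XD2_KeyK1 N' q lam`.

The composition (GEO plan v1): from the toric shape of `f'' = (σ² - 1)(σ - 1) · f0` (`toric`)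
the function `h1` with `h1 ^ n' = Θ · f0` is a unit of `V1 ⊓ V2`; `const` gives its branch
constants and the global root `G` (`RedPow`); at a crossing point `m` of the finite chart
helper7's `S35X2K_cross_A0` (with `redU`, `ord2`) gives the local generator `g''` of class `LU2`,
helper13's `S35LK_setup` the local setup and helper19's `S35LOC_main` the local shape
`S34C_Shape … lam h1 G m`; `S35CL_root` (block C', all other points) concludes.
-/

set_option autoImplicit false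
set_option linter.unusedSectionVars false
set_option linter.unusedVariables false
set_option linter.style.haveILetI false
set_option maxHeartbeats 1600000
set_option synthInstance.maxHeartbeats 400000

open AlgebraicCurve ModularCurve HahnSeries IntermediateField
open Fermat.Agent.S18_helper9_CDefs Fermat.Agent.S18_helper25_COREDefs
  Fermat.Agent.S34_helper12_CDefs Fermat.Agent.S34_helper6_RED Fermat.Agent.S34_helper5_K0
  Fermat.Agent.S18_helper3_LOCRING Fermat.Agent.S37_helper4_B1Defs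
  Fermat.Agent.S37_helper5_LEVEL Fermat.Agent.S34_Contracts Fermat.Agent.S34_helper21_ACT
  Fermat.Agent.S34_helper20_V0 Fermat.Agent.S34_helper20_V0K
  Fermat.Agent.S34_helper7_LGDefs Fermat.Agent.S35_helper7_LGFDefs
  Fermat.Agent.S34_helper27_P1C Fermat.Agent.S34_helper25_Defs
  Fermat.Agent.S34_helper27_C2ADAPT Fermat.Agent.S34_helper27_C2Defs
  Fermat.Agent.S35_helper6_GEOTOP Fermat.Agent.S35_helper27_XD2Defs
  Fermat.Agent.S35_helper27_CLOSE Fermat.Agent.S35_helper7_CROSS2K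
  Fermat.Agent.S35_helper13_LOCALK Fermat.Agent.S35_helper19_LOCAL
  Fermat.Agent.S35_helper8_FCCHART

noncomputable section

namespace Fermat.Agent.S35_helper27_XD2

local notation "Qb" => AlgebraicClosure ℚ
local notation "GQ" => (AlgebraicClosure ℚ ≃ₐ[ℚ] AlgebraicClosure ℚ)

/-! ### Abstract lemmas -/

section Abstract

variable {L : Type*} [Field L]

/-- in a valuation ring, an element one of whose positive powers is a unit is a unit. -/
theorem S35XD2_unit_of_pow {W : Subring L} {x : L} (hval : x ∈ W ∨ x⁻¹ ∈ W) {m : ℕ}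
    (hm : 0 < m) (h1 : x ^ m ∈ W) (h2 : (x ^ m)⁻¹ ∈ W) : x ∈ W ∧ x⁻¹ ∈ W := by
  obtain ⟨m', rfl⟩ : ∃ m', m = m' + 1 := ⟨m - 1, by omega⟩
  by_cases hx0 : x = 0
  · subst hx0
    exact ⟨W.zero_mem, by rw [inv_zero]; exact W.zero_mem⟩
  rcases hval with h | h
  · refine ⟨h, ?_⟩
    have e : x⁻¹ = x ^ m' * (x ^ (m' + 1))⁻¹ := by
      rw [pow_succ, mul_inv, ← mul_assoc, mul_inv_cancel₀ (pow_ne_zero _ hx0), one_mul]
    rw [e]
    exact W.mul_mem (W.pow_mem h _) h2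
  · refine ⟨?_, h⟩
    have e : x = x⁻¹ ^ m' * x ^ (m' + 1) := by
      rw [pow_succ, ← mul_assoc, inv_pow, inv_mul_cancel₀ (pow_ne_zero _ hx0), one_mul]
    rw [e]
    exact W.mul_mem (W.pow_mem h _) h1

/-- an element `c * H ^ n * (1 + π v)` with `c`, `H` units of `W` is a unit of `W`. -/
theorem S35XD2_unit_of_toric {π : L} {F1 : Subfield L} {W : Subring L} (H : S34C2_Val π F1 W)
    {x c Hh : L} {n : ℕ} (hc : c ∈ W) (hc' : c⁻¹ ∈ W) (hH : Hh ∈ W) (hH' : Hh⁻¹ ∈ W)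
    (hx : ∃ v ∈ W, x = c * Hh ^ n * (1 + π * v)) : x ∈ W ∧ x⁻¹ ∈ W := by
  obtain ⟨v, hv, rfl⟩ := hx
  refine ⟨W.mul_mem (W.mul_mem hc (W.pow_mem hH _))
    (W.add_mem W.one_mem (W.mul_mem H.π_mem hv)), ?_⟩
  rw [mul_inv, mul_inv, ← inv_pow]
  exact W.mul_mem (W.mul_mem hc' (W.pow_mem hH' _)) (H.one_add hv)

/-- an element of the discrete valuation ring `O` which is not a unit of a ring `R ⊇ O` is
divisible by the uniformiser. -/
theorem S35XD2_dvd_of_nu {O : Subring L} {π : L} (hdvr : IsDiscreteValuationRing O)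
    (hπ : π ∈ O) (hirr : Irreducible (⟨π, hπ⟩ : O)) {R : Subring L} (hOR : O ≤ R) {x : L}
    (hx : x ∈ O) (hnu : x = 0 ∨ x⁻¹ ∉ R) : ∃ o ∈ O, x = π * o := by
  rcases hnu with rfl | hnu
  · exact ⟨0, O.zero_mem, by rw [mul_zero]⟩
  · have hnu' : ¬ IsUnit (⟨x, hx⟩ : O) := by
      intro hu
      obtain ⟨y, hy⟩ := hu.exists_right_inv
      apply hnu
      have h1 : x * (y : L) = 1 := by
        have := congrArg Subtype.val hy
        simpa using this
      rw [inv_eq_of_mul_eq_one_right h1]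
      exact hOR y.2
    have hmem : (⟨x, hx⟩ : O) ∈ IsLocalRing.maximalIdeal O :=
      (IsLocalRing.mem_maximalIdeal _).2 hnu'
    rw [hirr.maximalIdeal_eq, Ideal.mem_span_singleton'] at hmem
    obtain ⟨o, ho⟩ := hmem
    refine ⟨o, o.2, ?_⟩
    have := congrArg Subtype.val ho
    simp only [Subring.coe_mul] at this
    rw [← this, mul_comm]

end Abstract

/-! ### Part II -/

section Main

variable (N' q lam : ℕ) [NeZero N'] [NeZero (N' * q)]

/-- the support of `σ D - D` is rational when the support of `D` is. -/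
theorem S35XD2_rational (K1 : IntermediateField ℚ Qb)
    (hstab : ∀ σ : GQ, ∀ x ∈ K1, σ x ∈ K1) (N : ℕ) [NeZero N] (σ : GQ)
    (D : Divisor Qb (modularFunctionFieldBar N))
    (hD : ∀ P : Place Qb (modularFunctionFieldBar N), D P ≠ 0 → S37LEVEL_IsRational N K1 P)
    (P : Place Qb (modularFunctionFieldBar N)) (hP : (S34R_g N σ • D - D) P ≠ 0) :
    S37LEVEL_IsRational N K1 P := by
  by_cases h0 : D P = 0
  · have h1 : (S34R_g N σ • D) P ≠ 0 := by
      intro h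
      apply hP
      rw [Finsupp.sub_apply, h, h0, sub_zero]
    rw [SemilinearAut.divisor_smul_apply] at h1
    have h2 := S34ACT_rational K1 hstab N σ _ (hD _ h1)
    have e : arithmeticGalois (modularFunctionFieldFull N) σ •
        ((S34R_g N σ)⁻¹ • P) = P := smul_inv_smul _ _
    rwa [e] at h2
  · exact hD P h0

/-- **X-D-FROB, Part II**: the key statement at one level from the contract with the bricks. -/
theorem S35XD2_keyK1 (hq : q.Prime) (hqN : ¬ q ∣ N') (hlam : lam.Prime) (hne : lam ≠ q)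
    (hC : ∀ (A : ValuationSubring Qb) (hA : A.LiesOverPrime q)
      (K1 : IntermediateField ℚ Qb) (hadm : S18K_Admissible A K1 q)
      (hstab : ∀ σ : GQ, ∀ x ∈ K1, σ x ∈ K1) (σ : GQ) (hσ : A.IsFrobeniusAt σ q),
      letI := hadm.dvr
      S35XD2_Contract A K1 hstab hq N' hqN σ lam) :
    S35XD2_KeyK1 N' q lam hq hqN := by
  intro A hA K1 hadm hstab σ hσ D hD k hk f0 hf0F hf00 hord0 hα hβ h1 h10 hpow hord hlead
  letI := hadm.dvr
  haveI : NeZero q := ⟨hq.ne_zero⟩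
  have C := hC A hA K1 hadm hstab σ hσ
  have S := S34P1C_setup2 A K1 hq hA N' hqN
  have hval1 := S34CA_val1 S
  have hval2 := S34CA_val2 S
  have hOV := Fermat.Agent.S34_helper9_GAMMA.S34G_O_le_V S
  have hOX : S18K_O A K1 ≤ S18K_A0 A K1 (N' * q) :=
    Fermat.Agent.S34_helper12_KUM.S34KUM_O_le S S.chart0
  obtain ⟨j, rfl⟩ : ∃ j, k = j + 1 := ⟨k - 1, by omega⟩
  have hn : lam ^ (j + 1) = lam * lam ^ j := pow_succ' lam j
  have hn' : 0 < lam ^ j := pow_pos hlam.pos j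
  rw [Nat.add_sub_cancel] at hpow
  -- the Galois elements
  have hdec : σ ∈ A.decompositionSubgroup ℚ := hσ.mem_decompositionSubgroup
  have hdec2 : σ * σ ∈ A.decompositionSubgroup ℚ :=
    (A.decompositionSubgroup ℚ).mul_mem hdec hdec
  have hsA : ∀ a ∈ A, (σ * σ) a ∈ A := (S35FCC_decomp A _ hdec2).1
  -- `f''`
  have hf1F : S35XD2_d K1 hstab σ f0 ∈ S18K_F1 K1 (N' * q) :=
    (S18K_F1 K1 (N' * q)).mul_mem (S34ACT_mem_F1 K1 hstab (N' * q) σ hf0F)
      ((S18K_F1 K1 (N' * q)).inv_mem hf0F)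
  have hf10 : S35XD2_d K1 hstab σ f0 ≠ 0 :=
    mul_ne_zero ((map_ne_zero _).2 hf00) (inv_ne_zero hf00)
  have hf2F : S35XD2_f2 K1 hstab σ f0 ∈ S18K_F1 K1 (N' * q) :=
    (S18K_F1 K1 (N' * q)).mul_mem (S34ACT_mem_F1 K1 hstab (N' * q) (σ * σ) hf1F)
      ((S18K_F1 K1 (N' * q)).inv_mem hf1F)
  have hf20 : S35XD2_f2 K1 hstab σ f0 ≠ 0 :=
    mul_ne_zero ((map_ne_zero _).2 hf10) (inv_ne_zero hf10)
  -- toric
  obtain ⟨c1, c2, H1, H2, hc1, hc1', hc2, hc2', hH1F, hH2F, hH1, hH1', hH2, hH2', ht1, ht2⟩ :=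
    C.toric (lam ^ (j + 1)) f0 hf0F hf00 hα hβ
  -- `f''` is a unit of both valuation rings
  obtain ⟨hf2V1, hf2V1'⟩ := S35XD2_unit_of_toric hval1 (hOV hc1).1 (hOV hc1').1 hH1.1 hH1'.1 ht1
  obtain ⟨hf2V2, hf2V2'⟩ := S35XD2_unit_of_toric hval2 (hOV hc2).2 (hOV hc2').2 hH2.2 hH2'.2 ht2
  rw [hn] at ht1 ht2
  -- `Θ f0` is a unit of both valuation rings, hence so is `h1`
  have hpow' : (h1 : LaurentSeries K1) ^ (lam ^ j) =
      S34ACT_act K1 hstab (σ * σ) (S35XD2_f2 K1 hstab σ f0) *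
        (S35XD2_f2 K1 hstab σ f0 ^ (q ^ 2))⁻¹ := hpow
  have hf3 : ∀ (W : Subring (LaurentSeries K1)),
      (∀ x ∈ W, S34ACT_act K1 hstab (σ * σ) x ∈ W) →
      S35XD2_f2 K1 hstab σ f0 ∈ W → (S35XD2_f2 K1 hstab σ f0)⁻¹ ∈ W →
      (h1 : LaurentSeries K1) ^ (lam ^ j) ∈ W ∧ ((h1 : LaurentSeries K1) ^ (lam ^ j))⁻¹ ∈ W := by
    intro W hW hx hx'
    rw [hpow']
    refine ⟨W.mul_mem (hW _ hx) (by rw [← inv_pow]; exact W.pow_mem hx' _), ?_⟩
    rw [mul_inv, inv_inv, ← map_inv₀]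
    exact W.mul_mem (hW _ hx') (W.pow_mem hx _)
  have hsV1 : ∀ x ∈ S18K_V A K1 (N' * q),
      S34ACT_act K1 hstab (σ * σ) x ∈ S18K_V A K1 (N' * q) :=
    fun x hx => S34ACT_mem_V K1 hstab A (N' * q) _ hsA hx
  have hsV2 : ∀ x ∈ S34P1C_V2 A K1 hq N' hqN,
      S34ACT_act K1 hstab (σ * σ) x ∈ S34P1C_V2 A K1 hq N' hqN :=
    fun x hx => S35FCC_mem_V2 A K1 hstab q N' (N' * q) hq hqN (Nat.mul_comm N' q) _ hsA hx
  obtain ⟨hp1, hp1'⟩ := hf3 _ hsV1 hf2V1 hf2V1'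
  obtain ⟨hp2, hp2'⟩ := hf3 _ hsV2 hf2V2 hf2V2'
  obtain ⟨hh1V1, hh1V1'⟩ := S35XD2_unit_of_pow (S.V1_val _ h1.2) hn' hp1 hp1'
  obtain ⟨hh1V2, hh1V2'⟩ := S35XD2_unit_of_pow (S.V2_val _ h1.2) hn' hp2 hp2'
  -- constants and the global root
  obtain ⟨γ1, γ2, b1, b2, G, hγ1, hγ2, hb1, hb1', hb2, hb, hG0, hred, hhh1, hhh2, hG1, hG2⟩ :=
    C.const (lam ^ j) hn' (S35XD2_f2 K1 hstab σ f0) (h1 : LaurentSeries K1) c1 c2 H1 H2 hf2F
      h1.2 h10 (Subring.mem_inf.mpr ⟨hh1V1, hh1V2⟩) (Subring.mem_inf.mpr ⟨hh1V1', hh1V2'⟩)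
      hc1 hc1' hc2 hc2' hH1F hH2F hH1 hH1' hH2 hH2' ht1 ht2 hpow'
  -- the divisor of `f''`
  have hD' : ∀ P : Place Qb (modularFunctionFieldBar (N' * q)),
      (S34R_g (N' * q) σ • D - D) P ≠ 0 → S37LEVEL_IsRational (N' * q) K1 P :=
    fun P hP => S35XD2_rational K1 hstab (N' * q) σ D hD P hP
  have hdiv2 := C.ord2 (lam ^ (j + 1)) D f0 hf0F hf00 hord0
  -- conclusion
  refine S35CL_root A K1 hq hA N' hqN hadm hlam hne h1 h10
    (fun P => Dvd.intro _ (hord P).symm) hlead G hred ?_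
  intro hπ m hm hπm hT1 hT2
  haveI := hm.isPrime
  obtain ⟨g2, hg2F, hg20, hLU1, hLU2, -, hu2, hu2'⟩ :=
    S35X2K_cross_A0 A K1 hstab hq hA hadm N' hqN σ hσ hπ m hm hπm hT1 hT2
      (C.redU hπ m hm hπm hT1 hT2) (lam ^ (j + 1)) (S34R_g (N' * q) σ • D - D) hD'
      (S35XD2_f2 K1 hstab σ f0) hf2F hf20 (Subring.mem_inf.mpr ⟨hf2V1, hf2V2⟩)
      (Subring.mem_inf.mpr ⟨hf2V1', hf2V2'⟩) hdiv2
  rw [hn] at hu2 hu2'
  have hS : S35LOC_Setup (S18K_π A K1) (S18K_F1 K1 (N' * q)) (S18K_V A K1 (N' * q))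
      (S34P1C_V2 A K1 hq N' hqN) (locRing (S18K_A0 A K1 (N' * q)) m)
      (S34ACT_act K1 hstab (σ * σ)) (q ^ 2) :=
    S35LK_setup A K1 hstab q N' (N' * q) hq hqN (Nat.mul_comm N' q) σ hA hadm hσ m hm hT1 hT2
  have hOR : S18K_O A K1 ≤ locRing (S18K_A0 A K1 (N' * q)) m :=
    hOX.trans (le_locRing _ m)
  obtain ⟨u, g, w, hu, hu', hgF, hgV, hgV', hhug, hw, hw', c, hc, hGc⟩ :=
    S35LOC_main hS lam (lam ^ j) hlam.pos hn' (S35XD2_f2 K1 hstab σ f0) g2 hf2F hf20 hg2F hg20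
      hLU1 hLU2 hu2 hu2' c1 c2 H1 H2 (hOR hc1) (hOR hc1') (hOR hc2) (hOR hc2') hH1F hH2F
      hH1.1 hH1'.1 hH2.2 hH2'.2 ht1 ht2 (h1 : LaurentSeries K1) 1 h1.2 h10
      (Subring.one_mem _) (by rw [inv_one]; exact Subring.one_mem _)
      (by rw [one_mul]; exact hpow') γ1 γ2 b1 b2 G hG0 (hOR hγ1) (hOR hγ2) (hOR hb1)
      (hOR hb1') (hOR hb2) hhh1 hhh2 hG1 hG2
      (fun hnu => hb (S35XD2_dvd_of_nu S.dvr S.π_mem (S.π_irr S.π_mem) hOR
        ((S18K_O A K1).sub_mem hγ1 hγ2) hnu.2))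
  exact ⟨u, g, w, hu, hu', hgF, hgV, hgV', hhug, hw, hw', c, hc, hGc⟩

end Main

end Fermat.Agent.S35_helper27_XD2
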