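import Mathlib
import Fermat.Agent.S35_helper4_K1Defs
import Fermat.Agent.S34_helper12_XB

/-!
# S35, X-D-FROB, Part I: the divisor-level contract from the key statement at one level

`S35XB_key : S35XB_NormBridge N' q hq hqN → S35XB_KeyK1 N' q lam hq hqN → S35GT_Key N' q lam`.

Over `ℚ̄`: `U := Θ f` (multiplicatively, `Θ = (σ² - q²)(σ² - 1)(σ - 1)`) has divisor
`lam ^ k • Θ D`; the quotient `h ^ (lam ^ (k-1)) / U` has zero divisor, so it is a constant `c`;
after dividing `h` by a root `c1` of `c` one has `h1 ^ (lam ^ (k-1)) = U`.  Then everything is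
descended to a Galois-stable admissible level `K1` over which the support of `D` is rational, the
leading coefficient of `h1` is a `lam`-th power and the norm bridge applies; the key statement at
the level `K1` gives a `lam`-th root of `h1` in `F1(K1)`, whose image over `ℚ̄` has divisor `Θ D`.
-/

set_option autoImplicit false
set_option linter.unusedSectionVars false
set_option linter.unusedVariables false

open HahnSeries IntermediateField AlgebraicCurve ModularCurve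
open Fermat.Agent.S18_helper25_COREDefs Fermat.Agent.S34_helper5_K0
  Fermat.Agent.S34_helper6_RED Fermat.Agent.S37_helper5_LEVEL Fermat.Agent.S34_helper25_Defs
  Fermat.Agent.S18_helper19_PLACEMOD
  Fermat.Agent.S18_helper25_GLUE Fermat.Agent.S34_helper21_ACT
  Fermat.Agent.S34_helper12_XB Fermat.Agent.S35_helper6_GEOTOP
  Fermat.Agent.S35_helper4_K1Defs

noncomputable section

namespace Fermat.Agent.S35_helper4_XB

local notation "Qb" => AlgebraicClosure ℚ
local notation "GQ" => (AlgebraicClosure ℚ ≃ₐ[ℚ] AlgebraicClosure ℚ)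

/-! ### The multiplicative operator over `ℚ̄` -/

section Bar

variable (N : ℕ) [NeZero N]

/-- `(τ - 1) x = τ x / x` over `ℚ̄`. -/
def S35XB_b1 (τ : GQ) (x : modularFunctionFieldBar N) : modularFunctionFieldBar N :=
  (S34R_g N τ • x) * x⁻¹

/-- `(τ - e) x = τ x / x ^ e` over `ℚ̄`. -/
def S35XB_bE (τ : GQ) (e : ℕ) (x : modularFunctionFieldBar N) : modularFunctionFieldBar N :=
  (S34R_g N τ • x) * (x ^ e)⁻¹

/-- `U = Θ f` over `ℚ̄`. -/
def S35XB_U (q : ℕ) (σ : GQ) (f : modularFunctionFieldBar N) : modularFunctionFieldBar N :=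
  S35XB_bE N (σ * σ) (q ^ 2) (S35XB_b1 N (σ * σ) (S35XB_b1 N σ f))

variable {N}

theorem S35XB_b1_ne_zero (τ : GQ) {x : modularFunctionFieldBar N} (hx : x ≠ 0) :
    S35XB_b1 N τ x ≠ 0 :=
  mul_ne_zero (S34XB_smul_ne_zero _ hx) (inv_ne_zero hx)

theorem S35XB_bE_ne_zero (τ : GQ) (e : ℕ) {x : modularFunctionFieldBar N} (hx : x ≠ 0) :
    S35XB_bE N τ e x ≠ 0 :=
  mul_ne_zero (S34XB_smul_ne_zero _ hx) (inv_ne_zero (pow_ne_zero _ hx))

theorem S35XB_U_ne_zero (q : ℕ) (σ : GQ) {f : modularFunctionFieldBar N} (hf : f ≠ 0) :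
    S35XB_U N q σ f ≠ 0 :=
  S35XB_bE_ne_zero _ _ (S35XB_b1_ne_zero _ (S35XB_b1_ne_zero _ hf))

theorem S35XB_ord_bE (τ : GQ) (e : ℕ) {x : modularFunctionFieldBar N} (hx : x ≠ 0) (n : ℤ)
    (E : Divisor Qb (modularFunctionFieldBar N))
    (hE : ∀ P : Place Qb (modularFunctionFieldBar N), P.ord x = n * E P)
    (P : Place Qb (modularFunctionFieldBar N)) :
    P.ord (S35XB_bE N τ e x) = n * S35GT_dOp N τ (e : ℤ) E P := by
  unfold S35XB_bE
  rw [Place.ord_mul _ (S34XB_smul_ne_zero _ hx) (inv_ne_zero (pow_ne_zero _ hx)),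
    Place.ord_inv, ← zpow_natCast, Place.ord_zpow, S34XB_ord_smul, hE, hE]
  unfold S35GT_dOp
  simp only [Finsupp.coe_sub, Pi.sub_apply, SemilinearAut.divisor_smul_apply,
    Finsupp.coe_smul, Pi.smul_apply, smul_eq_mul]
  ring

theorem S35XB_ord_b1 (τ : GQ) {x : modularFunctionFieldBar N} (hx : x ≠ 0) (n : ℤ)
    (E : Divisor Qb (modularFunctionFieldBar N))
    (hE : ∀ P : Place Qb (modularFunctionFieldBar N), P.ord x = n * E P)
    (P : Place Qb (modularFunctionFieldBar N)) :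
    P.ord (S35XB_b1 N τ x) = n * S35GT_dOp N τ 1 E P := by
  have h := S35XB_ord_bE τ 1 hx n E hE P
  unfold S35XB_bE at h
  rw [pow_one] at h
  unfold S35XB_b1
  rw [h]
  norm_num

/-- the divisor of `U`. -/
theorem S35XB_ord_U (q : ℕ) (σ : GQ) {f : modularFunctionFieldBar N} (hf : f ≠ 0) (n : ℤ)
    (D : Divisor Qb (modularFunctionFieldBar N))
    (hD : ∀ P : Place Qb (modularFunctionFieldBar N), P.ord f = n * D P)
    (P : Place Qb (modularFunctionFieldBar N)) :
    P.ord (S35XB_U N q σ f) = n * S35GT_thetaD N q σ D P := by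
  unfold S35XB_U S35GT_thetaD
  have h1 := S35XB_ord_b1 σ hf n D hD
  have h2 := S35XB_ord_b1 (σ * σ) (S35XB_b1_ne_zero σ hf) n _ h1
  have h3 := S35XB_ord_bE (σ * σ) (q ^ 2) (S35XB_b1_ne_zero (σ * σ) (S35XB_b1_ne_zero σ hf))
    n _ h2 P
  rw [h3]
  push_cast
  rfl

end Bar

/-! ### Descent of `U` to a level -/

section Level

variable (N : ℕ) [NeZero N] (K1 : IntermediateField ℚ Qb)
  (hstab : ∀ σ : GQ, ∀ y ∈ K1, σ y ∈ K1)

/-- the image over `ℚ̄` of `f'''` at the level `K1`. -/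
theorem S35XB_f3_coe (q : ℕ) (σ : GQ) (f0 : LaurentSeries K1)
    (f : modularFunctionFieldBar N)
    (hf : coeffMap (algebraMap K1 Qb) f0 = (f : LaurentSeries Qb)) :
    coeffMap (algebraMap K1 Qb) (S35XB_f3 K1 hstab q σ f0) =
      ((S35XB_U N q σ f : modularFunctionFieldBar N) : LaurentSeries Qb) := by
  have e : ∀ (τ : GQ) (x : LaurentSeries K1),
      coeffMap (algebraMap K1 Qb) (S34ACT_act K1 hstab τ x) =
        coeffMap (τ : Qb →+* Qb) (coeffMap (algebraMap K1 Qb) x) :=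
    fun τ x => S34ACT_inc_act K1 hstab τ x
  have e1 : coeffMap (algebraMap K1 Qb) (S35XB_f1 K1 hstab σ f0) =
      ((S35XB_b1 N σ f : modularFunctionFieldBar N) : LaurentSeries Qb) := by
    unfold S35XB_f1
    rw [map_mul, map_inv₀, e, hf]
    rfl
  have e2 : coeffMap (algebraMap K1 Qb) (S35XB_f2 K1 hstab σ f0) =
      ((S35XB_b1 N (σ * σ) (S35XB_b1 N σ f) : modularFunctionFieldBar N) :
        LaurentSeries Qb) := by
    unfold S35XB_f2
    rw [map_mul, map_inv₀, e, e1]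
    rfl
  unfold S35XB_f3
  rw [map_mul, map_inv₀, map_pow, e, e2]
  rfl

end Level

/-! ### The main theorem of Part I -/

set_option synthInstance.maxHeartbeats 400000 in
set_option maxHeartbeats 1600000 in
/-- **X-D-FROB, Part I**: the divisor-level contract `S35GT_Key` from the key statement at one
level and the norm bridge. -/
theorem S35XB_key (N' q : ℕ) [NeZero N'] [NeZero q] (lam : ℕ) (hq : q.Prime)
    (hlam : lam.Prime) (hne : q ≠ lam) (hqN : ¬ q ∣ N')
    (hNB : S35XB_NormBridge N' q hq hqN)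
    (hK1 : S35XB_KeyK1 N' q lam hq hqN) : S35GT_Key N' q lam := by
  intro A hA σ hσ k D f h hk hDdeg hf0 hh0 hf hα hβ hh
  have hU0 := S35XB_U_ne_zero q σ hf0
  have hUord := S35XB_ord_U q σ hf0 ((lam : ℤ) ^ k) D hf
  obtain ⟨k', rfl⟩ : ∃ k', k = k' + 1 := ⟨k - 1, by omega⟩
  have hpz : (lam : ℤ) ≠ 0 := Int.natCast_ne_zero.2 hlam.ne_zero
  have hm0 : lam ^ k' ≠ 0 := pow_ne_zero _ hlam.ne_zero
  -- the constant
  have hquot0 : h ^ (lam ^ k') * (S35XB_U (N' * q) q σ f)⁻¹ ≠ 0 :=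
    mul_ne_zero (pow_ne_zero _ hh0) (inv_ne_zero hU0)
  have hquot : ∀ P : Place Qb (modularFunctionFieldBar (N' * q)),
      P.ord (h ^ (lam ^ k') * (S35XB_U (N' * q) q σ f)⁻¹) = 0 := by
    intro P
    rw [Place.ord_mul _ (pow_ne_zero _ hh0) (inv_ne_zero hU0), Place.ord_inv, hUord P,
      ← zpow_natCast, Place.ord_zpow, hh P]
    push_cast
    ring
  obtain ⟨c, hc⟩ := S34XB_const (N' * q) _ hquot0 hquot
  have hc0 : c ≠ 0 := by
    rintro rfl
    rw [map_zero] at hc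
    exact hquot0 hc
  obtain ⟨c1, hc1⟩ := IsAlgClosed.exists_pow_nat_eq c (Nat.pos_of_ne_zero hm0)
  have hc10 : c1 ≠ 0 := by
    rintro rfl
    rw [zero_pow hm0] at hc1
    exact hc0 hc1.symm
  have hC10 : algebraMap Qb (modularFunctionFieldBar (N' * q)) c1 ≠ 0 := by
    intro h0
    apply hc10
    exact (algebraMap Qb (modularFunctionFieldBar (N' * q))).injective (by rw [h0, map_zero])
  -- the normalised function
  obtain ⟨h1, hh1⟩ : ∃ h1 : modularFunctionFieldBar (N' * q),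
      h1 = h * (algebraMap Qb (modularFunctionFieldBar (N' * q)) c1)⁻¹ := ⟨_, rfl⟩
  have hh10 : h1 ≠ 0 := by
    rw [hh1]
    exact mul_ne_zero hh0 (inv_ne_zero hC10)
  have hh1pow : h1 ^ (lam ^ k') = S35XB_U (N' * q) q σ f := by
    have e1 : h ^ (lam ^ k') =
        algebraMap Qb (modularFunctionFieldBar (N' * q)) c * S35XB_U (N' * q) q σ f := by
      rw [← hc, mul_assoc, inv_mul_cancel₀ hU0, mul_one]
    have hCc0 : algebraMap Qb (modularFunctionFieldBar (N' * q)) c ≠ 0 := by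
      intro h0
      apply hc0
      exact (algebraMap Qb (modularFunctionFieldBar (N' * q))).injective
        (by rw [h0, map_zero])
    rw [hh1, mul_pow, inv_pow, ← map_pow, hc1, e1,
      mul_comm (algebraMap Qb (modularFunctionFieldBar (N' * q)) c) _, mul_assoc,
      mul_inv_cancel₀ hCc0, mul_one]
  have hh1ord : ∀ P : Place Qb (modularFunctionFieldBar (N' * q)),
      P.ord h1 = (lam : ℤ) * S35GT_thetaD (N' * q) q σ D P := by
    intro P
    have e1 : P.ord (h1 ^ (lam ^ k')) =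
        (lam : ℤ) ^ (k' + 1) * S35GT_thetaD (N' * q) q σ D P := by
      rw [hh1pow]
      exact hUord P
    rw [← zpow_natCast, Place.ord_zpow] at e1
    have e2 : ((lam ^ k' : ℕ) : ℤ) * P.ord h1
        = ((lam ^ k' : ℕ) : ℤ) * ((lam : ℤ) * S35GT_thetaD (N' * q) q σ D P) := by
      rw [e1]
      push_cast
      ring
    exact mul_left_cancel₀ (Int.natCast_ne_zero.2 hm0) e2
  -- the root of the leading coefficient
  obtain ⟨r, hr⟩ := IsAlgClosed.exists_pow_nat_eq
    ((h1 : LaurentSeries Qb).coeff (h1 : LaurentSeries Qb).order) hlam.pos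
  -- the norm bridge
  have hfn : ∀ P : Place Qb (modularFunctionFieldBar (N' * q)),
      P.ord f = ((lam * lam ^ k' : ℕ) : ℤ) * D P := by
    intro P
    rw [hf P]
    push_cast
    ring
  obtain ⟨S₀, hS₀⟩ := hNB (lam * lam ^ k') D f hf0 hfn hα hβ
  -- the level
  obtain ⟨S₁, hS₁⟩ := S18G_exists_finset (k₀ := ℚ) (N' * q) (S18G_bar_le (N' * q) f.2)
  obtain ⟨S₂, hS₂⟩ := S18G_exists_finset (k₀ := ℚ) (N' * q) (S18G_bar_le (N' * q) h1.2)
  classical
  obtain ⟨K1, hSK, hadm, hstab, -, hrat⟩ :=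
    S34K0_exists_normal_level (N' * q) hq A hA (S₁ ∪ S₂ ∪ {r} ∪ S₀) D.support
  obtain ⟨f0, hf0F, hf0c⟩ := hS₁ K1 (fun s hs => hSK s (by simp [hs]))
  obtain ⟨h10, hh10F, hh10c⟩ := hS₂ K1 (fun s hs => hSK s (by simp [hs]))
  have hrK : r ∈ K1 := hSK r (by simp)
  have hnew := hS₀ K1 (fun s hs => hSK s (by simp [hs])) f0 hf0F hf0c
  have hinj := S18G_coeffMap_injective (algebraMap K1 Qb)
  have hf00 : f0 ≠ 0 := by
    rintro rfl
    rw [map_zero] at hf0c
    exact hf0 (Subtype.ext hf0c.symm)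
  have hh100 : h10 ≠ 0 := by
    rintro rfl
    rw [map_zero] at hh10c
    exact hh10 (Subtype.ext hh10c.symm)
  have hincf : S34XD_inc K1 (N' * q) ⟨f0, hf0F⟩ = f := Subtype.ext hf0c
  have hinc : S34XD_inc K1 (N' * q) ⟨h10, hh10F⟩ = h1 := Subtype.ext hh10c
  have hpow : h10 ^ (lam ^ k') = S35XB_f3 K1 hstab q σ f0 := by
    apply hinj
    rw [map_pow, hh10c, S35XB_f3_coe (N' * q) K1 hstab q σ f0 f hf0c, ← hh1pow]
    rfl
  have hordf : ∀ P : Place Qb (modularFunctionFieldBar (N' * q)),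
      P.ord (S34XD_inc K1 (N' * q) ⟨f0, hf0F⟩) = ((lam * lam ^ k' : ℕ) : ℤ) * D P := by
    intro P
    rw [hincf]
    exact hfn P
  have hord : ∀ P : Place Qb (modularFunctionFieldBar (N' * q)),
      P.ord (S34XD_inc K1 (N' * q) ⟨h10, hh10F⟩) =
        (lam : ℤ) * S35GT_thetaD (N' * q) q σ D P := by
    intro P
    rw [hinc]
    exact hh1ord P
  have hlead : ∃ r1 : K1,
      r1 ^ lam = (h10 : LaurentSeries K1).coeff (h10 : LaurentSeries K1).order := by
    refine ⟨⟨r, hrK⟩, ?_⟩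
    apply (algebraMap K1 Qb).injective
    rw [map_pow]
    show r ^ lam = algebraMap K1 Qb ((h10 : LaurentSeries K1).coeff h10.order)
    rw [hr, ← coeffMap_coeff, ← Fermat.Agent.S18_helper25_CORE.S18K_order_coeffMap
      (algebraMap K1 Qb) h10, hh10c]
  obtain ⟨w, hwF, hw⟩ := hK1 A hA K1 hadm hstab σ hσ D hDdeg
    (fun P hP => hrat P (Finsupp.mem_support_iff.2 hP)) (lam ^ k') hm0 f0 hf0F hf00 hordf hnew
    ⟨h10, hh10F⟩ hh100 hpow hord hlead
  -- ascent
  have hWpow : (S34XD_inc K1 (N' * q) ⟨w, hwF⟩) ^ lam = h1 := by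
    rw [← hinc, ← map_pow]
    congr 1
    exact Subtype.ext hw
  have hW0 : S34XD_inc K1 (N' * q) ⟨w, hwF⟩ ≠ 0 := by
    intro h0
    rw [h0, zero_pow hlam.ne_zero] at hWpow
    exact hh10 hWpow.symm
  refine ⟨S34XD_inc K1 (N' * q) ⟨w, hwF⟩, hW0, fun P => ?_⟩
  have e1 : P.ord ((S34XD_inc K1 (N' * q) ⟨w, hwF⟩) ^ lam) =
      (lam : ℤ) * S35GT_thetaD (N' * q) q σ D P := by
    rw [hWpow]
    exact hh1ord P
  rw [← zpow_natCast, Place.ord_zpow] at e1
  exact mul_left_cancel₀ hpz e1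

end Fermat.Agent.S35_helper4_XB
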