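import Mathlib
import Fermat.Agent.S35_helper4_XB
import Fermat.Agent.S35_helper20_NORMBK
import Fermat.Agent.S35_helper19_KEYDefs

/-!
# S35, X-D-FROB, Part I, closed form: `S35GT_Key` from the key statement at one level ALONE

The norm bridge is discharged by helper20's landed `S35NBK_finset`, and the key statement at one
level is consumed in EITHER of the two landed interfaces:

* `S35XB2_key_XB : S35XB_KeyK1 N' q lam hq hqN → S35GT_Key N' q lam`  (helper4's interface);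
* `S35XB2_key_KD : S35KD_KeyK1 N' q lam hq hqN → S35GT_Key N' q lam`  (helper19's interface).

Both go through `S35XB2_KeyPow` (the key statement at one level with `n' = lam ^ k'` only), which
is all that Part I uses.
-/

set_option autoImplicit false
set_option linter.unusedSectionVars false
set_option linter.unusedVariables false

open HahnSeries IntermediateField AlgebraicCurve ModularCurve
open Fermat.Agent.S18_helper25_COREDefs Fermat.Agent.S34_helper5_K0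
  Fermat.Agent.S34_helper6_RED Fermat.Agent.S37_helper5_LEVEL Fermat.Agent.S34_helper25_Defs
  Fermat.Agent.S18_helper19_PLACEMOD
  Fermat.Agent.S18_helper25_GLUE Fermat.Agent.S34_helper21_ACT
  Fermat.Agent.S34_helper20_V0 Fermat.Agent.S34_helper20_V0K
  Fermat.Agent.S34_helper12_XB Fermat.Agent.S35_helper6_GEOTOP
  Fermat.Agent.S35_helper4_K1Defs Fermat.Agent.S35_helper4_XB
  Fermat.Agent.S35_helper20_NORMBK Fermat.Agent.S35_helper19_KEYDefs
  Fermat.Agent.S37_helper4_B1Defs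

noncomputable section

namespace Fermat.Agent.S35_helper4_XB2

local notation "Qb" => AlgebraicClosure ℚ
local notation "GQ" => (AlgebraicClosure ℚ ≃ₐ[ℚ] AlgebraicClosure ℚ)

/-- **the norm bridge in the `S35XB_NewAt` form** (`0 < n`), from helper20's `S35NBK_finset`. -/
theorem S35XB2_newAt (N' q : ℕ) [NeZero N'] [NeZero q] (hq : q.Prime) (hqN : ¬ q ∣ N')
    (n : ℕ) (hn : 0 < n) (D : Divisor Qb (modularFunctionFieldBar (N' * q)))
    (f : modularFunctionFieldBar (N' * q)) (hf : f ≠ 0)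
    (hord : ∀ P : Place Qb (modularFunctionFieldBar (N' * q)), P.ord f = (n : ℤ) * D P)
    (hprα : (Divisor.pushforwardAlong (heckeAlphaBar Qb N' q)
      (Fermat.Agent.G_helper21_B0L.PG_B0L_heckeAlphaBarIntegral Qb N' q) D).IsPrincipal)
    (hprβ : (Divisor.pushforwardAlong (heckeBetaBar Qb N' q)
      (Fermat.Agent.G_helper21_B0L.PG_B0L_heckeBetaBarIntegral Qb N' q) D).IsPrincipal) :
    ∃ S : Finset Qb, ∀ K1 : IntermediateField ℚ Qb, (∀ s ∈ S, s ∈ K1) →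
      ∀ (f0 : LaurentSeries K1) (hf0 : f0 ∈ S18K_F1 K1 (N' * q)),
        coeffMap (algebraMap K1 Qb) f0 = (f : LaurentSeries Qb) →
        S35XB_NewAt K1 N' q hq hqN n f0 hf0 := by
  obtain ⟨S, hS⟩ := S35NBK_finset q N' (N' * q) hq hqN (Nat.mul_comm N' q) n hn
    (Fermat.Agent.G_helper21_B0L.PG_B0L_heckeAlphaBarIntegral Qb N' q)
    (Fermat.Agent.G_helper21_B0L.PG_B0L_heckeBetaBarIntegral Qb N' q) D f hf hord hprα hprβ
  refine ⟨S, fun K1 hK f0 hf0 e => ?_⟩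
  obtain ⟨⟨c₁, hc₁, h₁, hh₁, hh₁0, e₁⟩, ⟨c₂, hc₂, h₂, hh₂, hh₂0, e₂⟩⟩ := hS K1 hK f0 hf0 e
  exact ⟨⟨c₁, hc₁, h₁, hh₁, hh₁0, e₁⟩, ⟨c₂, hc₂, h₂, hh₂, hh₂0, e₂⟩⟩

/-- **The key statement at one level, for `n' = lam ^ k'` only** (all that Part I uses). -/
def S35XB2_KeyPow (N' q : ℕ) [NeZero N'] [NeZero q] (lam : ℕ) (hq : q.Prime)
    (hqN : ¬ q ∣ N') : Prop :=
  ∀ (A : ValuationSubring Qb), A.LiesOverPrime q →
  ∀ (K1 : IntermediateField ℚ Qb) (_hadm : S18K_Admissible A K1 q)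
    (hstab : ∀ σ : GQ, ∀ y ∈ K1, σ y ∈ K1),
  ∀ σ : GQ, A.IsFrobeniusAt σ q →
  ∀ (D : Divisor Qb (modularFunctionFieldBar (N' * q))),
    D ∈ Divisor.degZero (K := Qb) (F := modularFunctionFieldBar (N' * q)) →
    (∀ P : Place Qb (modularFunctionFieldBar (N' * q)), D P ≠ 0 →
      S37LEVEL_IsRational (N' * q) K1 P) →
  ∀ (k' : ℕ),
  ∀ (f0 : LaurentSeries K1) (hf0 : f0 ∈ S18K_F1 K1 (N' * q)), f0 ≠ 0 →
    (∀ P : Place Qb (modularFunctionFieldBar (N' * q)),
      P.ord (S34XD_inc K1 (N' * q) ⟨f0, hf0⟩) = ((lam * lam ^ k' : ℕ) : ℤ) * D P) →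
    S35XB_NewAt K1 N' q hq hqN (lam * lam ^ k') f0 hf0 →
  ∀ (h1 : modularFunctionFieldFullC K1 (N' * q)), (h1 : LaurentSeries K1) ≠ 0 →
    (h1 : LaurentSeries K1) ^ (lam ^ k') = S35XB_f3 K1 hstab q σ f0 →
    (∀ P : Place Qb (modularFunctionFieldBar (N' * q)),
      P.ord (S34XD_inc K1 (N' * q) h1) = (lam : ℤ) * S35GT_thetaD (N' * q) q σ D P) →
    (∃ r : K1, r ^ lam = (h1 : LaurentSeries K1).coeff (h1 : LaurentSeries K1).order) →
    ∃ w : LaurentSeries K1, w ∈ S18K_F1 K1 (N' * q) ∧ w ^ lam = (h1 : LaurentSeries K1)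

theorem S35XB2_pow_of_XB (N' q : ℕ) [NeZero N'] [NeZero q] (lam : ℕ) (hq : q.Prime)
    (hlam : lam.Prime) (hqN : ¬ q ∣ N') (hK1 : S35XB_KeyK1 N' q lam hq hqN) :
    S35XB2_KeyPow N' q lam hq hqN :=
  fun A hA K1 hadm hstab σ hσ D hDdeg hrat k' =>
    hK1 A hA K1 hadm hstab σ hσ D hDdeg hrat (lam ^ k') (pow_ne_zero _ hlam.ne_zero)

set_option synthInstance.maxHeartbeats 400000 in
set_option maxHeartbeats 1600000 in
theorem S35XB2_pow_of_KD (N' q : ℕ) [NeZero N'] [NeZero q] (lam : ℕ) (hq : q.Prime)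
    (hqN : ¬ q ∣ N') (hK1 : S35KD_KeyK1 N' q lam hq hqN) :
    S35XB2_KeyPow N' q lam hq hqN := by
  intro A hA K1 hadm hstab σ hσ D hDdeg hrat k' f0 hf0F hf00 hordf hnew h1 hh10 hpow hord hlead
  obtain ⟨⟨c₁, hc₁, h₁, hh₁, hh₁0, e₁⟩, ⟨c₂, hc₂, h₂, hh₂, hh₂0, e₂⟩⟩ := hnew
  have hordf' : ∀ P : Place Qb (modularFunctionFieldBar (N' * q)),
      S37B1_ordP (N' * q) K1 P f0 = (lam : ℤ) ^ (k' + 1) * D P := by
    intro P
    refine (S37B1_ordP_eq (N' * q) K1 P ⟨f0, hf0F⟩).trans ?_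
    refine (hordf P).trans ?_
    push_cast
    ring
  have hord' : ∀ P : Place Qb (modularFunctionFieldBar (N' * q)),
      S37B1_ordP (N' * q) K1 P (h1 : LaurentSeries K1) =
        (lam : ℤ) * S35GT_thetaD (N' * q) q σ D P := by
    intro P
    exact (S37B1_ordP_eq (N' * q) K1 P h1).trans (hord P)
  have hnew' : S35KD_New K1 hq N' hqN (lam ^ (k' + 1)) f0 := by
    rw [pow_succ']
    exact ⟨⟨hf0F, c₁, hc₁, h₁, hh₁, hh₁0, e₁⟩,
      ⟨S34V0_wL_mem (S34V0K_emb K1) q N' (N' * q) hq hqN (Nat.mul_comm N' q) f0,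
        c₂, hc₂, h₂, hh₂, hh₂0, e₂⟩⟩
  exact hK1 A hA K1 hadm hstab σ hσ D hrat k' f0 hf0F hf00 hordf' hnew'
    (h1 : LaurentSeries K1) h1.2 hh10 hpow hord' hlead

/-! ### Part I with the norm bridge discharged -/

set_option synthInstance.maxHeartbeats 400000 in
set_option maxHeartbeats 1600000 in
/-- **X-D-FROB, Part I, closed form**: the divisor-level contract `S35GT_Key` from the key
statement at one level (for `n' = lam ^ k'`), the norm bridge being helper20's. -/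
theorem S35XB2_key (N' q : ℕ) [NeZero N'] [NeZero q] (lam : ℕ) (hq : q.Prime)
    (hlam : lam.Prime) (hne : q ≠ lam) (hqN : ¬ q ∣ N')
    (hK1 : S35XB2_KeyPow N' q lam hq hqN) : S35GT_Key N' q lam := by
  intro A hA σ hσ k D f h hk hDdeg hf0 hh0 hf hα hβ hh
  have hU0 := S35XB_U_ne_zero q σ hf0
  have hUord := S35XB_ord_U q σ hf0 ((lam : ℤ) ^ k) D hf
  obtain ⟨k', rfl⟩ : ∃ k', k = k' + 1 := ⟨k - 1, by omega⟩
  have hpz : (lam : ℤ) ≠ 0 := Int.natCast_ne_zero.2 hlam.ne_zero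
  have hm0 : lam ^ k' ≠ 0 := pow_ne_zero _ hlam.ne_zero
  -- the constant
  have hquot0 : h ^ (lam ^ k') * (S35XB_U (N' * q) q σ f)⁻¹ ≠ 0 :=
    mul_ne_zero (pow_ne_zero _ hh0) (inv_ne_zero hU0)
  have hquot : ∀ P : Place Qb (modularFunctionFieldBar (N' * q)),
      P.ord (h ^ (lam ^ k') * (S35XB_U (N' * q) q σ f)⁻¹) = 0 := by
    intro P
    rw [Place.ord_mul _ (pow_ne_zero _ hh0) (inv_ne_zero hU0), Place.ord_inv, hUord P,
      ← zpow_natCast, Place.ord_zpow, hh P]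
    push_cast
    ring
  obtain ⟨c, hc⟩ := S34XB_const (N' * q) _ hquot0 hquot
  have hc0 : c ≠ 0 := by
    rintro rfl
    rw [map_zero] at hc
    exact hquot0 hc
  obtain ⟨c1, hc1⟩ := IsAlgClosed.exists_pow_nat_eq c (Nat.pos_of_ne_zero hm0)
  have hc10 : c1 ≠ 0 := by
    rintro rfl
    rw [zero_pow hm0] at hc1
    exact hc0 hc1.symm
  have hC10 : algebraMap Qb (modularFunctionFieldBar (N' * q)) c1 ≠ 0 := by
    intro h0
    apply hc10
    exact (algebraMap Qb (modularFunctionFieldBar (N' * q))).injective (by rw [h0, map_zero])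
  -- the normalised function
  obtain ⟨h1, hh1⟩ : ∃ h1 : modularFunctionFieldBar (N' * q),
      h1 = h * (algebraMap Qb (modularFunctionFieldBar (N' * q)) c1)⁻¹ := ⟨_, rfl⟩
  have hh10 : h1 ≠ 0 := by
    rw [hh1]
    exact mul_ne_zero hh0 (inv_ne_zero hC10)
  have hh1pow : h1 ^ (lam ^ k') = S35XB_U (N' * q) q σ f := by
    have e1 : h ^ (lam ^ k') =
        algebraMap Qb (modularFunctionFieldBar (N' * q)) c * S35XB_U (N' * q) q σ f := by
      rw [← hc, mul_assoc, inv_mul_cancel₀ hU0, mul_one]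
    have hCc0 : algebraMap Qb (modularFunctionFieldBar (N' * q)) c ≠ 0 := by
      intro h0
      apply hc0
      exact (algebraMap Qb (modularFunctionFieldBar (N' * q))).injective
        (by rw [h0, map_zero])
    rw [hh1, mul_pow, inv_pow, ← map_pow, hc1, e1,
      mul_comm (algebraMap Qb (modularFunctionFieldBar (N' * q)) c) _, mul_assoc,
      mul_inv_cancel₀ hCc0, mul_one]
  have hh1ord : ∀ P : Place Qb (modularFunctionFieldBar (N' * q)),
      P.ord h1 = (lam : ℤ) * S35GT_thetaD (N' * q) q σ D P := by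
    intro P
    have e1 : P.ord (h1 ^ (lam ^ k')) =
        (lam : ℤ) ^ (k' + 1) * S35GT_thetaD (N' * q) q σ D P := by
      rw [hh1pow]
      exact hUord P
    rw [← zpow_natCast, Place.ord_zpow] at e1
    have e2 : ((lam ^ k' : ℕ) : ℤ) * P.ord h1
        = ((lam ^ k' : ℕ) : ℤ) * ((lam : ℤ) * S35GT_thetaD (N' * q) q σ D P) := by
      rw [e1]
      push_cast
      ring
    exact mul_left_cancel₀ (Int.natCast_ne_zero.2 hm0) e2
  -- the root of the leading coefficient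
  obtain ⟨r, hr⟩ := IsAlgClosed.exists_pow_nat_eq
    ((h1 : LaurentSeries Qb).coeff (h1 : LaurentSeries Qb).order) hlam.pos
  -- the norm bridge
  have hfn : ∀ P : Place Qb (modularFunctionFieldBar (N' * q)),
      P.ord f = ((lam * lam ^ k' : ℕ) : ℤ) * D P := by
    intro P
    rw [hf P]
    push_cast
    ring
  obtain ⟨S₀, hS₀⟩ := S35XB2_newAt N' q hq hqN (lam * lam ^ k')
    (Nat.mul_pos hlam.pos (Nat.pos_of_ne_zero hm0)) D f hf0 hfn hα hβ
  -- the level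
  obtain ⟨S₁, hS₁⟩ := S18G_exists_finset (k₀ := ℚ) (N' * q) (S18G_bar_le (N' * q) f.2)
  obtain ⟨S₂, hS₂⟩ := S18G_exists_finset (k₀ := ℚ) (N' * q) (S18G_bar_le (N' * q) h1.2)
  classical
  obtain ⟨K1, hSK, hadm, hstab, -, hrat⟩ :=
    S34K0_exists_normal_level (N' * q) hq A hA (S₁ ∪ S₂ ∪ {r} ∪ S₀) D.support
  obtain ⟨f0, hf0F, hf0c⟩ := hS₁ K1 (fun s hs => hSK s (by simp [hs]))
  obtain ⟨h10, hh10F, hh10c⟩ := hS₂ K1 (fun s hs => hSK s (by simp [hs]))
  have hrK : r ∈ K1 := hSK r (by simp)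
  have hnew := hS₀ K1 (fun s hs => hSK s (by simp [hs])) f0 hf0F hf0c
  have hinj := S18G_coeffMap_injective (algebraMap K1 Qb)
  have hf00 : f0 ≠ 0 := by
    rintro rfl
    rw [map_zero] at hf0c
    exact hf0 (Subtype.ext hf0c.symm)
  have hh100 : h10 ≠ 0 := by
    rintro rfl
    rw [map_zero] at hh10c
    exact hh10 (Subtype.ext hh10c.symm)
  have hincf : S34XD_inc K1 (N' * q) ⟨f0, hf0F⟩ = f := Subtype.ext hf0c
  have hinc : S34XD_inc K1 (N' * q) ⟨h10, hh10F⟩ = h1 := Subtype.ext hh10c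
  have hpow : h10 ^ (lam ^ k') = S35XB_f3 K1 hstab q σ f0 := by
    apply hinj
    rw [map_pow, hh10c, S35XB_f3_coe (N' * q) K1 hstab q σ f0 f hf0c, ← hh1pow]
    rfl
  have hordf : ∀ P : Place Qb (modularFunctionFieldBar (N' * q)),
      P.ord (S34XD_inc K1 (N' * q) ⟨f0, hf0F⟩) = ((lam * lam ^ k' : ℕ) : ℤ) * D P := by
    intro P
    rw [hincf]
    exact hfn P
  have hord : ∀ P : Place Qb (modularFunctionFieldBar (N' * q)),
      P.ord (S34XD_inc K1 (N' * q) ⟨h10, hh10F⟩) =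
        (lam : ℤ) * S35GT_thetaD (N' * q) q σ D P := by
    intro P
    rw [hinc]
    exact hh1ord P
  have hlead : ∃ r1 : K1,
      r1 ^ lam = (h10 : LaurentSeries K1).coeff (h10 : LaurentSeries K1).order := by
    refine ⟨⟨r, hrK⟩, ?_⟩
    apply (algebraMap K1 Qb).injective
    rw [map_pow]
    show r ^ lam = algebraMap K1 Qb ((h10 : LaurentSeries K1).coeff h10.order)
    rw [hr, ← coeffMap_coeff, ← Fermat.Agent.S18_helper25_CORE.S18K_order_coeffMap
      (algebraMap K1 Qb) h10, hh10c]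
  obtain ⟨w, hwF, hw⟩ := hK1 A hA K1 hadm hstab σ hσ D hDdeg
    (fun P hP => hrat P (Finsupp.mem_support_iff.2 hP)) k' f0 hf0F hf00 hordf hnew
    ⟨h10, hh10F⟩ hh100 hpow hord hlead
  -- ascent
  have hWpow : (S34XD_inc K1 (N' * q) ⟨w, hwF⟩) ^ lam = h1 := by
    rw [← hinc, ← map_pow]
    congr 1
    exact Subtype.ext hw
  have hW0 : S34XD_inc K1 (N' * q) ⟨w, hwF⟩ ≠ 0 := by
    intro h0
    rw [h0, zero_pow hlam.ne_zero] at hWpow
    exact hh10 hWpow.symm
  refine ⟨S34XD_inc K1 (N' * q) ⟨w, hwF⟩, hW0, fun P => ?_⟩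
  have e1 : P.ord ((S34XD_inc K1 (N' * q) ⟨w, hwF⟩) ^ lam) =
      (lam : ℤ) * S35GT_thetaD (N' * q) q σ D P := by
    rw [hWpow]
    exact hh1ord P
  rw [← zpow_natCast, Place.ord_zpow] at e1
  exact mul_left_cancel₀ hpz e1

/-- **Part I for helper4's interface**, no norm-bridge hypothesis. -/
theorem S35XB2_key_XB (N' q : ℕ) [NeZero N'] [NeZero q] (lam : ℕ) (hq : q.Prime)
    (hlam : lam.Prime) (hne : q ≠ lam) (hqN : ¬ q ∣ N')
    (hK1 : S35XB_KeyK1 N' q lam hq hqN) : S35GT_Key N' q lam :=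
  S35XB2_key N' q lam hq hlam hne hqN (S35XB2_pow_of_XB N' q lam hq hlam hqN hK1)

/-- **Part I for helper19's interface**, no norm-bridge hypothesis. -/
theorem S35XB2_key_KD (N' q : ℕ) [NeZero N'] [NeZero q] (lam : ℕ) (hq : q.Prime)
    (hlam : lam.Prime) (hne : q ≠ lam) (hqN : ¬ q ∣ N')
    (hK1 : S35KD_KeyK1 N' q lam hq hqN) : S35GT_Key N' q lam :=
  S35XB2_key N' q lam hq hlam hne hqN (S35XB2_pow_of_KD N' q lam hq hqN hK1)

end Fermat.Agent.S35_helper4_XB2
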