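import Fermat.Agent.S35_helper27_FINAL1
import Fermat.Agent.S35_helper27_XD2
import Fermat.Agent.S35_helper4_XB2

/-!
# S35 (helper27): the final wiring, second form

(GEO) is reduced to the contract of X-D-FROB Part II with the bricks:

* `S35FINAL2_keyPow` : `S35XD2_KeyK1 → S35XB2_KeyPow` (adapter between the two landed interfaces
  of the key statement at one level: helper27 XD2Defs / helper4 XB2);
* `S35FINAL2_key`    : `S35GT_Key N' q lam` from `S35XD2_Contract` at every place `A` over `q`,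
  every admissible Galois-stable level `K1` and every Frobenius lift `σ`
  (Part I = helper4 `S35XB2_key`, Part II = `S35XD2_keyK1`);
* `S35FINAL2_of_contract` : **the frozen statement S35** from `S35XD2_Contract` (fields `ord2`,
  `toric`, `const`, `redU`) and (P6) `S35ENDK_P6At`.
-/

set_option autoImplicit false
set_option linter.unusedSectionVars false
set_option linter.unusedVariables false
set_option linter.style.haveILetI false

open Polynomial
open scoped TensorProduct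
open CuspForm
open Fermat.Agent.S18_helper25_COREDefs Fermat.Agent.S37_helper4_B1Defs

noncomputable section

namespace Fermat.Agent.S35_helper27_FINAL2

local notation "Qb" => AlgebraicClosure ℚ
local notation "GQ" => (AlgebraicClosure ℚ ≃ₐ[ℚ] AlgebraicClosure ℚ)

open Fermat.Agent.S35_helper12_END Fermat.Agent.S35_helper12_ENDK
  Fermat.Agent.S35_helper6_GEOTOP Fermat.Agent.S35_helper6_GEOTOPK
  Fermat.Agent.S35_helper27_FINAL1 Fermat.Agent.S35_helper27_XD2Defs
  Fermat.Agent.S35_helper27_XD2 Fermat.Agent.S35_helper4_K1Defs Fermat.Agent.S35_helper4_XB2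

/-- adapter between the two interfaces of the key statement at one level -/
theorem S35FINAL2_keyPow (N' q lam : ℕ) [NeZero N'] [NeZero q] (hq : q.Prime)
    (hqN : ¬ q ∣ N') (hK : S35XD2_KeyK1 N' q lam hq hqN) :
    S35XB2_KeyPow N' q lam hq hqN := by
  intro A hA K1 hadm hstab σ hσ D hDdeg hrat k' f0 hf0F hf00 hordf hnew h1 hh10 hpow hord hlead
  refine hK A hA K1 hadm hstab σ hσ D hrat (k' + 1) (Nat.succ_le_succ (Nat.zero_le _)) f0 hf0F
    hf00 ?_ ?_ ?_ h1 hh10 ?_ hord hlead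
  · intro P
    refine (S37B1_ordP_eq (N' * q) K1 P ⟨f0, hf0F⟩).trans ?_
    rw [pow_succ']
    exact hordf P
  · rw [pow_succ']
    exact hnew.1
  · rw [pow_succ']
    exact hnew.2
  · rw [Nat.add_sub_cancel]
    exact hpow

/-- **(GEO) = `S35GT_Key`** from the contract of Part II with the bricks. -/
theorem S35FINAL2_key (N' q lam : ℕ) [NeZero N'] [NeZero q] (hq : q.Prime) (hlam : lam.Prime)
    (hne : q ≠ lam) (hqN : ¬ q ∣ N')
    (hC : ∀ (A : ValuationSubring Qb) (hA : A.LiesOverPrime q)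
      (K1 : IntermediateField ℚ Qb) (hadm : S18K_Admissible A K1 q)
      (hstab : ∀ σ : GQ, ∀ x ∈ K1, σ x ∈ K1) (σ : GQ) (hσ : A.IsFrobeniusAt σ q),
      letI := hadm.dvr
      S35XD2_Contract A K1 hstab hq N' hqN σ lam) :
    S35GT_Key N' q lam :=
  S35XB2_key N' q lam hq hlam hne hqN
    (S35FINAL2_keyPow N' q lam hq hqN (S35XD2_keyK1 N' q lam hq hqN hlam hne.symm hC))

/-- **the frozen statement S35 from the contract `S35XD2_Contract` and (P6).** -/
theorem S35FINAL2_of_contract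
    (hC : ∀ (N' q lam : ℕ) [NeZero N'] [NeZero q], q.Prime → lam.Prime → q ≠ lam →
      ∀ (hq : q.Prime) (hqN : ¬ q ∣ N'),
      ∀ (A : ValuationSubring Qb) (hA : A.LiesOverPrime q)
      (K1 : IntermediateField ℚ Qb) (hadm : S18K_Admissible A K1 q)
      (hstab : ∀ σ : GQ, ∀ x ∈ K1, σ x ∈ K1) (σ : GQ) (hσ : A.IsFrobeniusAt σ q),
      letI := hadm.dvr
      S35XD2_Contract A K1 hstab hq N' hqN σ lam)
    (hP6 : ∀ (N' q : ℕ) [NeZero N'] [NeZero q] [NeZero (N' * q)], q.Prime → ¬ q ∣ N' →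
      ∀ {g : CuspForm (CongruenceSubgroup.Gamma0 (N' * q)) 2}, g.IsNewform →
      ∀ (lam : ℕ) [Fact lam.Prime], q ≠ lam → ∀ (S : Finset ℕ)
        (O' : Type) [CommRing O'] [IsDomain O'] [IsDiscreteValuationRing O']
        [IsAdicComplete (IsLocalRing.maximalIdeal O') O'] [Finite (IsLocalRing.ResidueField O')]
        [CharZero O'] (hlamO' : (lam : O') ∈ IsLocalRing.maximalIdeal O')
        (chig : CuspForm.heckeAlgebra (N' * q) 2 (↑S : Set ℕ) →+* ℂ),
        (∀ (ℓ : ℕ) (hℓ : ℓ.Prime) (hℓM : ¬ ℓ ∣ N' * q) (hℓS : ℓ ∉ (↑S : Set ℕ)),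
          chig (CuspForm.heckeAlgebra.T hℓ hℓM hℓS) = ModularFormClass.qCoeff g ℓ) →
        ∀ (iota : chig.range →+* O'), lam ∈ S → (∀ r : ℕ, r.Prime → r ∣ N' * q → r ∈ S) →
          S35ENDK_P6At N' q lam S O' hlamO' (iota.comp chig.rangeRestrict))
    {M : ℕ} [NeZero M] {g : CuspForm (CongruenceSubgroup.Gamma0 M) 2} (hg : g.IsNewform)
    (lam : ℕ) [Fact lam.Prime]
    (S : Finset ℕ)
    (O' : Type) [CommRing O'] [IsDomain O'] [IsDiscreteValuationRing O']
    [IsAdicComplete (IsLocalRing.maximalIdeal O') O'] [Finite (IsLocalRing.ResidueField O')]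
    [CharZero O'] (hlamO' : (lam : O') ∈ IsLocalRing.maximalIdeal O')
    (chig : CuspForm.heckeAlgebra M 2 (↑S : Set ℕ) →+* ℂ)
    (hchig : ∀ (ℓ : ℕ) (hℓ : ℓ.Prime) (hℓM : ¬ ℓ ∣ M) (hℓS : ℓ ∉ (↑S : Set ℕ)),
      chig (CuspForm.heckeAlgebra.T hℓ hℓM hℓS) = ModularFormClass.qCoeff g ℓ)
    (iota : chig.range →+* O')
    (hlamS : lam ∈ S) (hMS : ∀ q : ℕ, q.Prime → q ∣ M → q ∈ S) :
    ∃ (O'' : Type) (_ : CommRing O'') (_ : IsDomain O'') (_ : IsDiscreteValuationRing O'')
      (_ : IsAdicComplete (IsLocalRing.maximalIdeal O'') O'') (_ : Finite (IsLocalRing.ResidueField O''))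
      (_ : CharZero O'') (_ : Algebra O' O'') (_ : Module.Finite O' O'') (_ : IsLocalHom (algebraMap O' O'')),
      Function.Injective (algebraMap O' O'') ∧
      ∃ ρ : GaloisRepAdic O'',
        (∀ (ℓ : ℕ) (hℓ : ℓ.Prime) (hℓM : ¬ ℓ ∣ M) (hℓS : ℓ ∉ (↑S : Set ℕ)),
          ∀ A : ValuationSubring (AlgebraicClosure ℚ), A.LiesOverPrime ℓ →
            ∀ σ : AlgebraicClosure ℚ ≃ₐ[ℚ] AlgebraicClosure ℚ, A.IsFrobeniusAt σ ℓ →
              LinearMap.charpoly (ρ.ρ σ) =
                X ^ 2 - C (algebraMap O' O'' ((iota.comp chig.rangeRestrict) (CuspForm.heckeAlgebra.T hℓ hℓM hℓS))) * X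
                  + C ((ℓ : O''))) ∧
        (∀ q : ℕ, q.Prime → q ≠ lam → q ∣ M → ¬ q ^ 2 ∣ M →
          ∀ A : ValuationSubring (AlgebraicClosure ℚ), A.LiesOverPrime q →
            ∀ σ : AlgebraicClosure ℚ ≃ₐ[ℚ] AlgebraicClosure ℚ, A.IsFrobeniusAt σ q →
              LinearMap.charpoly (ρ.ρ σ) = X ^ 2 - C ((q : O'') + 1) * X + C ((q : O'')) ∨
              LinearMap.charpoly (ρ.ρ σ) = X ^ 2 + C ((q : O'') + 1) * X + C ((q : O''))) :=
  S35FINAL1_of_key
    (fun N' q lam _ _ hq hlam hne hqN =>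
      S35FINAL2_key N' q lam hq hlam hne hqN (hC N' q lam hq hlam hne hq hqN))
    hP6 hg lam S O' hlamO' chig hchig iota hlamS hMS

end Fermat.Agent.S35_helper27_FINAL2
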