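import Mathlib

/-!
# S35, GEO-CONST, abstract core (helper28): the branch constants and the root of `h`

`L` a field, `O ≤ V1 ⊓ V2` the constants inside the two branch rings, `π` the uniformiser,
`s` an endomorphism of `L` (the square of a Frobenius lift), `D z := s z / z ^ Q`.

Input: the toric shape `f'' = c_i H_i ^ (lam n') (1 + π v_i)` on the two branches and a function
`h` with `h ^ n' = c0 · D f''`.  Output (`S35CSA_main`): constants `γ_i`, `b_i` and a function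
`G` with

* `h = γ_i (D H_i) ^ lam (1 + π v)` on the branch `V_i` (roots of constants, `hroot_i`);
* `b_i ^ lam ≡ γ_i` modulo `π O`, and `b1 = b2` as soon as `γ1 ≡ γ2`;
* `G = b_i · D H_i · (1 + π v)` on the branch `V_i` (CRT lift);
* `h = G ^ lam (1 + π c)` with `c ∈ V1 ⊓ V2` (`RedPow`).
-/

set_option autoImplicit false
set_option linter.unusedSectionVars false
set_option linter.unusedVariables false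

namespace Fermat.Agent.S35_helper28_CONSTA

variable {L : Type*} [Field L]

/-! ### The set `1 + π V` -/

section One

variable {π : L} {V : Subring L}

/-- the set `1 + π V` -/
def S35CSA_One (π : L) (V : Subring L) (x : L) : Prop := ∃ v ∈ V, x = 1 + π * v

theorem S35CSA_one_one : S35CSA_One π V 1 := ⟨0, V.zero_mem, by simp⟩

theorem S35CSA_one_ne_zero (hnu : π⁻¹ ∉ V) {x : L} (hx : S35CSA_One π V x) : x ≠ 0 := by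
  obtain ⟨v, hv, rfl⟩ := hx
  intro h0
  apply hnu
  have h2 : π * (-v) = 1 := by linear_combination (-1 : L) * h0
  rw [inv_eq_of_mul_eq_one_right h2]
  exact V.neg_mem hv

theorem S35CSA_one_mul (hπ : π ∈ V) {x y : L} (hx : S35CSA_One π V x) (hy : S35CSA_One π V y) :
    S35CSA_One π V (x * y) := by
  obtain ⟨a, ha, rfl⟩ := hx
  obtain ⟨b, hb, rfl⟩ := hy
  exact ⟨a + b + π * a * b, V.add_mem (V.add_mem ha hb) (V.mul_mem (V.mul_mem hπ ha) hb),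
    by ring⟩

theorem S35CSA_one_inv (hnu : π⁻¹ ∉ V) (hrad : ∀ c ∈ V, (1 + π * c)⁻¹ ∈ V) {x : L}
    (hx : S35CSA_One π V x) : S35CSA_One π V x⁻¹ := by
  have hx0 := S35CSA_one_ne_zero hnu hx
  obtain ⟨a, ha, rfl⟩ := hx
  refine ⟨-a * (1 + π * a)⁻¹, V.mul_mem (V.neg_mem ha) (hrad a ha), ?_⟩
  field_simp
  ring

theorem S35CSA_one_pow (hπ : π ∈ V) {x : L} (hx : S35CSA_One π V x) (k : ℕ) :
    S35CSA_One π V (x ^ k) := by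
  induction k with
  | zero => simpa using (S35CSA_one_one : S35CSA_One π V 1)
  | succ k ih => rw [pow_succ]; exact S35CSA_one_mul hπ ih hx

theorem S35CSA_one_map (s : L →+* L) (hsV : ∀ v ∈ V, s v ∈ V) (hsπ : ∃ ε ∈ V, s π = π * ε)
    {x : L} (hx : S35CSA_One π V x) : S35CSA_One π V (s x) := by
  obtain ⟨a, ha, rfl⟩ := hx
  obtain ⟨ε, hε, hε'⟩ := hsπ
  exact ⟨ε * s a, V.mul_mem hε (hsV a ha), by rw [map_add, map_one, map_mul, hε']; ring⟩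

theorem S35CSA_one_mono {W : Subring L} (hVW : V ≤ W) {x : L} (hx : S35CSA_One π V x) :
    S35CSA_One π W x := by
  obtain ⟨a, ha, rfl⟩ := hx
  exact ⟨a, hVW ha, rfl⟩

/-- an element of `1 + π V1` and of `1 + π V2` lies in `1 + π (V1 ⊓ V2)` -/
theorem S35CSA_one_inf {V1 V2 : Subring L} (hπ0 : π ≠ 0) {x : L} (h1 : S35CSA_One π V1 x)
    (h2 : S35CSA_One π V2 x) : S35CSA_One π (V1 ⊓ V2) x := by
  obtain ⟨a, ha, hxa⟩ := h1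
  obtain ⟨b, hb, hxb⟩ := h2
  have hab : a = b := by
    have h3 : π * a = π * b := add_left_cancel (hxa.symm.trans hxb)
    exact mul_left_cancel₀ hπ0 h3
  exact ⟨a, ⟨ha, hab ▸ hb⟩, hxa⟩

end One

/-! ### The operator `D z = s z / z ^ Q` -/

section D

variable (s : L →+* L) (Q : ℕ)

/-- the multiplicative operator `s - Q` -/
def S35CSA_D (z : L) : L := s z * (z ^ Q)⁻¹

theorem S35CSA_D_mul (a b : L) : S35CSA_D s Q (a * b) = S35CSA_D s Q a * S35CSA_D s Q b := by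
  unfold S35CSA_D
  rw [map_mul, mul_pow, mul_inv]
  ring

theorem S35CSA_D_pow (a : L) (k : ℕ) : S35CSA_D s Q (a ^ k) = S35CSA_D s Q a ^ k := by
  unfold S35CSA_D
  rw [map_pow, mul_pow, ← pow_mul, mul_comm k Q, pow_mul, inv_pow]

theorem S35CSA_D_ne_zero {a : L} (ha : a ≠ 0) : S35CSA_D s Q a ≠ 0 := by
  unfold S35CSA_D
  exact mul_ne_zero ((map_ne_zero s).2 ha) (inv_ne_zero (pow_ne_zero _ ha))

theorem S35CSA_D_zero (hQ : Q ≠ 0) : S35CSA_D s Q 0 = 0 := by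
  unfold S35CSA_D
  rw [map_zero, zero_mul]

theorem S35CSA_D_one {π : L} {V : Subring L} (hπ : π ∈ V) (hnu : π⁻¹ ∉ V)
    (hrad : ∀ c ∈ V, (1 + π * c)⁻¹ ∈ V) (hsV : ∀ v ∈ V, s v ∈ V)
    (hsπ : ∃ ε ∈ V, s π = π * ε) {x : L} (hx : S35CSA_One π V x) :
    S35CSA_One π V (S35CSA_D s Q x) :=
  S35CSA_one_mul hπ (S35CSA_one_map s hsV hsπ hx)
    (S35CSA_one_inv hnu hrad (S35CSA_one_pow hπ hx Q))

/-- `D H` is a unit of `V` for a unit `H` of `V` -/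
theorem S35CSA_D_mem {V : Subring L} (hsV : ∀ v ∈ V, s v ∈ V) {H : L} (hH : H ∈ V)
    (hH' : H⁻¹ ∈ V) : S35CSA_D s Q H ∈ V ∧ (S35CSA_D s Q H)⁻¹ ∈ V := by
  constructor
  · unfold S35CSA_D
    rw [← inv_pow]
    exact V.mul_mem (hsV _ hH) (V.pow_mem hH' Q)
  · unfold S35CSA_D
    rw [mul_inv, inv_inv, ← map_inv₀]
    exact V.mul_mem (hsV _ hH') (V.pow_mem hH Q)

end D

/-! ### One branch: the constant of `h` -/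

section Branch

variable {π : L} {F1 : Subfield L} {O V : Subring L} {s : L →+* L} {Q : ℕ}

/-- **One branch**: `h = γ (D H) ^ lam (1 + π v)` with a constant unit `γ`. -/
theorem S35CSA_branch (hπO : π ∈ O) (hOV : O ≤ V) (hnu : π⁻¹ ∉ V)
    (hrad : ∀ c ∈ V, (1 + π * c)⁻¹ ∈ V)
    (hsF : ∀ y ∈ F1, s y ∈ F1) (hsV : ∀ v ∈ V, s v ∈ V) (hsπ : ∃ ε ∈ O, s π = π * ε)
    (hfrobO : ∀ c ∈ O, c⁻¹ ∈ O → c ≠ 0 → ∃ o ∈ O, s c = c ^ Q * (1 + π * o))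
    (hroot : ∀ (m : ℕ), m ≠ 0 → ∀ x ∈ F1, x ≠ 0 → ∀ c₀ ∈ O, c₀⁻¹ ∈ O → c₀ ≠ 0 →
      (∃ y ∈ V, x ^ m = c₀ * (1 + π * y)) →
      ∃ γ ∈ O, γ⁻¹ ∈ O ∧ γ ≠ 0 ∧ ∃ z ∈ V, x = γ * (1 + π * z))
    (lam n' : ℕ) (hlam : 0 < lam) (hn' : 0 < n')
    (f2 h : L) (hh : h ∈ F1) (hh0 : h ≠ 0)
    (c0 c : L) (hc0 : c0 ∈ O) (hc0' : c0⁻¹ ∈ O) (hc : c ∈ O) (hc' : c⁻¹ ∈ O)
    (H : L) (hHF : H ∈ F1)
    (ht : ∃ v ∈ V, f2 = c * H ^ (lam * n') * (1 + π * v))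
    (hhf : h ^ n' = c0 * (s f2 * (f2 ^ Q)⁻¹)) :
    ∃ γ ∈ O, γ⁻¹ ∈ O ∧ γ ≠ 0 ∧
      ∃ v ∈ V, h = γ * (s H * (H ^ Q)⁻¹) ^ lam * (1 + π * v) := by
  have hπV : π ∈ V := hOV hπO
  obtain ⟨ε, hε, hsπe⟩ := hsπ
  have hsπV : ∃ ε ∈ V, s π = π * ε := ⟨ε, hOV hε, hsπe⟩
  have hn : lam * n' ≠ 0 := (Nat.mul_pos hlam hn').ne'
  -- nonvanishing
  have hhn0 : h ^ n' ≠ 0 := pow_ne_zero _ hh0
  have hc00 : c0 ≠ 0 := by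
    rintro rfl
    apply hhn0
    rw [hhf, zero_mul]
  have hDf0 : s f2 * (f2 ^ Q)⁻¹ ≠ 0 := by
    intro h0
    apply hhn0
    rw [hhf, h0, mul_zero]
  have hf20 : f2 ≠ 0 := by
    rintro rfl
    apply hDf0
    rw [map_zero, zero_mul]
  obtain ⟨v, hv, hf2e⟩ := ht
  have hcne : c ≠ 0 := by
    rintro rfl
    apply hf20
    rw [hf2e, zero_mul, zero_mul]
  have hH0 : H ≠ 0 := by
    rintro rfl
    apply hf20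
    rw [hf2e, zero_pow hn, mul_zero, zero_mul]
  -- `D f2 = D c * (D H) ^ n * D (1 + π v)`
  have hDf : s f2 * (f2 ^ Q)⁻¹ =
      S35CSA_D s Q c * S35CSA_D s Q H ^ (lam * n') * S35CSA_D s Q (1 + π * v) := by
    have e : s f2 * (f2 ^ Q)⁻¹ = S35CSA_D s Q f2 := rfl
    rw [e, hf2e, S35CSA_D_mul, S35CSA_D_mul, S35CSA_D_pow]
  have hDc : S35CSA_One π V (S35CSA_D s Q c) := by
    obtain ⟨o, ho, hso⟩ := hfrobO c hc hc' hcne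
    refine ⟨o, hOV ho, ?_⟩
    unfold S35CSA_D
    rw [hso, mul_comm (c ^ Q), mul_assoc, mul_inv_cancel₀ (pow_ne_zero _ hcne), mul_one]
  have hDv : S35CSA_One π V (S35CSA_D s Q (1 + π * v)) :=
    S35CSA_D_one s Q hπV hnu hrad hsV hsπV ⟨v, hv, rfl⟩
  obtain ⟨y, hy, hye⟩ := S35CSA_one_mul hπV hDc hDv
  have hDH0 : S35CSA_D s Q H ≠ 0 := S35CSA_D_ne_zero s Q hH0
  have hDHF : S35CSA_D s Q H ∈ F1 :=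
    F1.mul_mem (hsF _ hHF) (F1.inv_mem (F1.pow_mem hHF Q))
  -- the unit `x = h / (D H) ^ lam`
  have hxpow : (h * (S35CSA_D s Q H ^ lam)⁻¹) ^ n' = c0 * (1 + π * y) := by
    rw [mul_pow, hhf, hDf, inv_pow, ← pow_mul, ← hye]
    have h1 : (S35CSA_D s Q H ^ (lam * n')) ≠ 0 := pow_ne_zero _ hDH0
    field_simp
  obtain ⟨γ, hγ, hγ', hγ0, z, hz, hxe⟩ := hroot n' hn'.ne' (h * (S35CSA_D s Q H ^ lam)⁻¹)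
    (F1.mul_mem hh (F1.inv_mem (F1.pow_mem hDHF lam)))
    (mul_ne_zero hh0 (inv_ne_zero (pow_ne_zero _ hDH0))) c0 hc0 hc0' hc00 ⟨y, hy, hxpow⟩
  refine ⟨γ, hγ, hγ', hγ0, z, hz, ?_⟩
  have e : h = h * (S35CSA_D s Q H ^ lam)⁻¹ * S35CSA_D s Q H ^ lam := by
    rw [mul_assoc, inv_mul_cancel₀ (pow_ne_zero _ hDH0), mul_one]
  rw [e, hxe]
  show γ * (1 + π * z) * S35CSA_D s Q H ^ lam = γ * S35CSA_D s Q H ^ lam * (1 + π * z)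
  ring

end Branch

/-! ### The constants and the root -/

section Main

variable {π : L} {F1 : Subfield L} {O V1 V2 : Subring L} {s : L →+* L} {Q : ℕ}

/-- the root `G` on one branch: from `G ≡ b · D H` modulo `π V` -/
theorem S35CSA_root_branch {V : Subring L} (hπV : π ∈ V) (hnu : π⁻¹ ∉ V)
    (hrad : ∀ c ∈ V, (1 + π * c)⁻¹ ∈ V) (lam : ℕ)
    {h G X γ b : L} (hX : X ∈ V) (hX' : X⁻¹ ∈ V) (hX0 : X ≠ 0)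
    (hG : ∃ v ∈ V, G - b * X = π * v) (hb : b ∈ V) (hb' : b⁻¹ ∈ V) (hb0 : b ≠ 0)
    (hγ0 : γ ≠ 0) (hbγ : S35CSA_One π V (b ^ lam * γ⁻¹))
    (hh : ∃ v ∈ V, h = γ * X ^ lam * (1 + π * v)) :
    (∃ v ∈ V, G = b * X * (1 + π * v)) ∧ G ≠ 0 ∧ G⁻¹ ∈ V ∧
      S35CSA_One π V (h * (G ^ lam)⁻¹) := by
  have hbX0 : b * X ≠ 0 := mul_ne_zero hb0 hX0
  obtain ⟨t, htV, hGm⟩ : ∃ t ∈ V, G = b * X * (1 + π * t) := by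
    obtain ⟨v, hv, hGe⟩ := hG
    refine ⟨v * (b * X)⁻¹, V.mul_mem hv (by rw [mul_inv]; exact V.mul_mem hb' hX'), ?_⟩
    have : b * X * (1 + π * (v * (b * X)⁻¹)) = b * X + π * v * ((b * X) * (b * X)⁻¹) := by ring
    rw [this, mul_inv_cancel₀ hbX0, mul_one, ← hGe]
    ring
  have hw : S35CSA_One π V (1 + π * t) := ⟨t, htV, rfl⟩
  have hw0 : 1 + π * t ≠ 0 := S35CSA_one_ne_zero hnu hw
  have hG0 : G ≠ 0 := by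
    rw [hGm]
    exact mul_ne_zero hbX0 hw0
  refine ⟨⟨t, htV, hGm⟩, hG0, ?_, ?_⟩
  · have e : G⁻¹ = b⁻¹ * X⁻¹ * (1 + π * t)⁻¹ := by
      rw [hGm, mul_inv, mul_inv]
    rw [e]
    exact V.mul_mem (V.mul_mem hb' hX') (hrad _ htV)
  · obtain ⟨z, hz, hhe⟩ := hh
    have h1 : S35CSA_One π V ((1 + π * z) * ((b ^ lam * γ⁻¹) * (1 + π * t) ^ lam)⁻¹) :=
      S35CSA_one_mul hπV ⟨z, hz, rfl⟩
        (S35CSA_one_inv hnu hrad (S35CSA_one_mul hπV hbγ (S35CSA_one_pow hπV hw lam)))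
    have e : h * (G ^ lam)⁻¹ = (1 + π * z) * ((b ^ lam * γ⁻¹) * (1 + π * t) ^ lam)⁻¹ := by
      rw [hhe, hGm]
      field_simp
      rw [mul_pow, mul_pow]
      ring
    rw [e]
    exact h1

/-- **GEO-CONST, abstract core.** -/
theorem S35CSA_main (hπ0 : π ≠ 0) (hπO : π ∈ O) (hO1 : O ≤ V1) (hO2 : O ≤ V2)
    (hnu1 : π⁻¹ ∉ V1) (hnu2 : π⁻¹ ∉ V2)
    (hrad1 : ∀ c ∈ V1, (1 + π * c)⁻¹ ∈ V1) (hrad2 : ∀ c ∈ V2, (1 + π * c)⁻¹ ∈ V2)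
    (hsF : ∀ y ∈ F1, s y ∈ F1) (hsV1 : ∀ v ∈ V1, s v ∈ V1) (hsV2 : ∀ v ∈ V2, s v ∈ V2)
    (hsπ : ∃ ε ∈ O, s π = π * ε)
    (hfrobO : ∀ c ∈ O, c⁻¹ ∈ O → c ≠ 0 → ∃ o ∈ O, s c = c ^ Q * (1 + π * o))
    (hroot1 : ∀ (m : ℕ), m ≠ 0 → ∀ x ∈ F1, x ≠ 0 → ∀ c₀ ∈ O, c₀⁻¹ ∈ O → c₀ ≠ 0 →
      (∃ y ∈ V1, x ^ m = c₀ * (1 + π * y)) →
      ∃ γ ∈ O, γ⁻¹ ∈ O ∧ γ ≠ 0 ∧ ∃ z ∈ V1, x = γ * (1 + π * z))
    (hroot2 : ∀ (m : ℕ), m ≠ 0 → ∀ x ∈ F1, x ≠ 0 → ∀ c₀ ∈ O, c₀⁻¹ ∈ O → c₀ ≠ 0 →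
      (∃ y ∈ V2, x ^ m = c₀ * (1 + π * y)) →
      ∃ γ ∈ O, γ⁻¹ ∈ O ∧ γ ≠ 0 ∧ ∃ z ∈ V2, x = γ * (1 + π * z))
    (lam n' : ℕ) (hlam : 0 < lam) (hn' : 0 < n')
    (hpow : ∀ γ ∈ O, γ⁻¹ ∈ O → γ ≠ 0 →
      ∃ b ∈ O, b⁻¹ ∈ O ∧ b ≠ 0 ∧ ∃ o ∈ O, b ^ lam = γ * (1 + π * o))
    (hcrt : ∀ X1 X2 : L, X1 ∈ (V1 ⊓ V2 : Subring L) → X2 ∈ (V1 ⊓ V2 : Subring L) →
      ∃ G ∈ (V1 ⊓ V2 : Subring L), (∃ v ∈ V1, G - X1 = π * v) ∧ (∃ v ∈ V2, G - X2 = π * v))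
    (f2 h : L) (hh : h ∈ F1) (hh0 : h ≠ 0)
    (c0 c1 c2 : L) (hc0 : c0 ∈ O) (hc0' : c0⁻¹ ∈ O) (hc1 : c1 ∈ O) (hc1' : c1⁻¹ ∈ O)
    (hc2 : c2 ∈ O) (hc2' : c2⁻¹ ∈ O)
    (H1 H2 : L) (hH1F : H1 ∈ F1) (hH2F : H2 ∈ F1)
    (hH1 : H1 ∈ (V1 ⊓ V2 : Subring L)) (hH1' : H1⁻¹ ∈ (V1 ⊓ V2 : Subring L))
    (hH2 : H2 ∈ (V1 ⊓ V2 : Subring L)) (hH2' : H2⁻¹ ∈ (V1 ⊓ V2 : Subring L))
    (ht1 : ∃ v ∈ V1, f2 = c1 * H1 ^ (lam * n') * (1 + π * v))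
    (ht2 : ∃ v ∈ V2, f2 = c2 * H2 ^ (lam * n') * (1 + π * v))
    (hhf : h ^ n' = c0 * (s f2 * (f2 ^ Q)⁻¹)) :
    ∃ γ1 γ2 b1 b2 : L, (γ1 ∈ O ∧ γ1⁻¹ ∈ O ∧ γ1 ≠ 0) ∧ (γ2 ∈ O ∧ γ2⁻¹ ∈ O ∧ γ2 ≠ 0) ∧
      (b1 ∈ O ∧ b1⁻¹ ∈ O ∧ b1 ≠ 0) ∧ (b2 ∈ O ∧ b2⁻¹ ∈ O ∧ b2 ≠ 0) ∧
      ((∃ o ∈ O, γ1 - γ2 = π * o) → b1 = b2) ∧
      ∃ G : L, G ≠ 0 ∧ G ∈ (V1 ⊓ V2 : Subring L) ∧ G⁻¹ ∈ (V1 ⊓ V2 : Subring L) ∧
        (∃ c ∈ (V1 ⊓ V2 : Subring L), h = G ^ lam * (1 + π * c)) ∧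
        (∃ v ∈ V1, h = γ1 * (s H1 * (H1 ^ Q)⁻¹) ^ lam * (1 + π * v)) ∧
        (∃ v ∈ V2, h = γ2 * (s H2 * (H2 ^ Q)⁻¹) ^ lam * (1 + π * v)) ∧
        (∃ v ∈ V1, G = b1 * (s H1 * (H1 ^ Q)⁻¹) * (1 + π * v)) ∧
        (∃ v ∈ V2, G = b2 * (s H2 * (H2 ^ Q)⁻¹) * (1 + π * v)) := by
  have hπ1 : π ∈ V1 := hO1 hπO
  have hπ2 : π ∈ V2 := hO2 hπO
  -- the branch constants
  obtain ⟨γ1, hγ1, hγ1', hγ10, hh1⟩ := S35CSA_branch hπO hO1 hnu1 hrad1 hsF hsV1 hsπ hfrobO hroot1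
    lam n' hlam hn' f2 h hh hh0 c0 c1 hc0 hc0' hc1 hc1' H1 hH1F ht1 hhf
  obtain ⟨γ2, hγ2, hγ2', hγ20, hh2⟩ := S35CSA_branch hπO hO2 hnu2 hrad2 hsF hsV2 hsπ hfrobO hroot2
    lam n' hlam hn' f2 h hh hh0 c0 c2 hc0 hc0' hc2 hc2' H2 hH2F ht2 hhf
  -- the roots of the constants
  obtain ⟨b1, hb1, hb1', hb10, o1, ho1, hb1e⟩ := hpow γ1 hγ1 hγ1' hγ10
  have hroots : ∃ b2 ∈ O, b2⁻¹ ∈ O ∧ b2 ≠ 0 ∧ (∃ o ∈ O, b2 ^ lam = γ2 * (1 + π * o)) ∧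
      ((∃ o ∈ O, γ1 - γ2 = π * o) → b1 = b2) := by
    by_cases hcong : ∃ o ∈ O, γ1 - γ2 = π * o
    · obtain ⟨o, ho, hoe⟩ := hcong
      refine ⟨b1, hb1, hb1', hb10, ⟨o * γ2⁻¹ + o1 + π * (o * γ2⁻¹) * o1, ?_, ?_⟩, fun _ => rfl⟩
      · exact O.add_mem (O.add_mem (O.mul_mem ho hγ2') ho1)
          (O.mul_mem (O.mul_mem hπO (O.mul_mem ho hγ2')) ho1)
      · have e1 : γ1 = γ2 * (1 + π * (o * γ2⁻¹)) := by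
          have : γ2 * (1 + π * (o * γ2⁻¹)) = γ2 + π * o * (γ2 * γ2⁻¹) := by ring
          rw [this, mul_inv_cancel₀ hγ20, mul_one, ← hoe]
          ring
        rw [hb1e]
        nth_rewrite 1 [e1]
        ring
    · obtain ⟨b2, hb2, hb2', hb20, o2, ho2, hb2e⟩ := hpow γ2 hγ2 hγ2' hγ20
      exact ⟨b2, hb2, hb2', hb20, ⟨o2, ho2, hb2e⟩, fun h => absurd h hcong⟩
  obtain ⟨b2, hb2, hb2', hb20, ⟨o2, ho2, hb2e⟩, hbb⟩ := hroots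
  -- the CRT lift
  have hDH1 := S35CSA_D_mem s Q hsV1 hH1.1 hH1'.1
  have hDH1_2 := S35CSA_D_mem s Q hsV2 hH1.2 hH1'.2
  have hDH2 := S35CSA_D_mem s Q hsV1 hH2.1 hH2'.1
  have hDH2_2 := S35CSA_D_mem s Q hsV2 hH2.2 hH2'.2
  have hH10 : H1 ≠ 0 := by
    rintro rfl
    obtain ⟨v, hv, hhe⟩ := hh1
    apply hh0
    rw [hhe, map_zero, zero_mul, zero_pow hlam.ne', mul_zero, zero_mul]
  have hH20 : H2 ≠ 0 := by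
    rintro rfl
    obtain ⟨v, hv, hhe⟩ := hh2
    apply hh0
    rw [hhe, map_zero, zero_mul, zero_pow hlam.ne', mul_zero, zero_mul]
  have hX10 : S35CSA_D s Q H1 ≠ 0 := S35CSA_D_ne_zero s Q hH10
  have hX20 : S35CSA_D s Q H2 ≠ 0 := S35CSA_D_ne_zero s Q hH20
  obtain ⟨G, hGV, hG1, hG2⟩ := hcrt (b1 * S35CSA_D s Q H1) (b2 * S35CSA_D s Q H2)
    ⟨V1.mul_mem (hO1 hb1) hDH1.1, V2.mul_mem (hO2 hb1) hDH1_2.1⟩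
    ⟨V1.mul_mem (hO1 hb2) hDH2.1, V2.mul_mem (hO2 hb2) hDH2_2.1⟩
  have hbγ : ∀ (V : Subring L), O ≤ V → ∀ b γ o : L, o ∈ O → γ ≠ 0 →
      b ^ lam = γ * (1 + π * o) → S35CSA_One π V (b ^ lam * γ⁻¹) := by
    intro V hOV b γ o ho hγ0 hbe
    refine ⟨o, hOV ho, ?_⟩
    rw [hbe, mul_comm γ, mul_assoc, mul_inv_cancel₀ hγ0, mul_one]
  obtain ⟨hGb1, hG0, hGi1, hred1⟩ := S35CSA_root_branch hπ1 hnu1 hrad1 lam hDH1.1 hDH1.2 hX10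
    hG1 (hO1 hb1) (hO1 hb1') hb10 hγ10 (hbγ V1 hO1 b1 γ1 o1 ho1 hγ10 hb1e) hh1
  obtain ⟨hGb2, -, hGi2, hred2⟩ := S35CSA_root_branch hπ2 hnu2 hrad2 lam hDH2_2.1 hDH2_2.2 hX20
    hG2 (hO2 hb2) (hO2 hb2') hb20 hγ20 (hbγ V2 hO2 b2 γ2 o2 ho2 hγ20 hb2e) hh2
  obtain ⟨c, hc, hce⟩ := S35CSA_one_inf hπ0 hred1 hred2
  refine ⟨γ1, γ2, b1, b2, ⟨hγ1, hγ1', hγ10⟩, ⟨hγ2, hγ2', hγ20⟩, ⟨hb1, hb1', hb10⟩,
    ⟨hb2, hb2', hb20⟩, hbb, G, hG0, hGV, ⟨hGi1, hGi2⟩, ⟨c, hc, ?_⟩, hh1, hh2, hGb1, hGb2⟩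
  have hGl0 : G ^ lam ≠ 0 := pow_ne_zero _ hG0
  rw [← hce, mul_comm h, ← mul_assoc, mul_inv_cancel₀ hGl0, one_mul]

end Main

end Fermat.Agent.S35_helper28_CONSTA
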