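import Mathlib
import Fermat.Agent.G_helper1_FDLIFT

/-!
# S35 (helper6): the Frobenius tame lemma

`A` a valuation subring of a field `L`, `σ` a ring endomorphism of `L` with `σ x ≡ x ^ Q` modulo
the maximal ideal of `A` for every `x ∈ A` (`1 ≤ Q`), and `a ≠ 0` with a finite `σ`-orbit.  Then

* `S35FT_val_map`  : `v (σ a) = v a`;
* `S35FT_main`     : `(σ - 1)(σ - Q) · a := σ (σ a) * a ^ Q / (σ a) ^ (Q + 1) ∈ 1 + 𝔪_A`.

For `L = ℚ̄` and a Frobenius lift `σ` at `A` over `q` (`S35FT_frob`, `Q = q`), and for its square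
(`S35FT_frob_sq`, `Q = q ^ 2`): the constant `σ⁴ a · a ^ (q²) / (σ² a) ^ (q² + 1)`, which is the
value of `(σ² - q²)(σ² - 1)` on the constant `a`, is `≡ 1` modulo the maximal ideal.  No
hypothesis on the ramification of `a`.
-/

set_option autoImplicit false
set_option linter.unusedSectionVars false
set_option linter.unusedVariables false

namespace Fermat.Agent.S35_helper6_FTAME

section Abstract

variable {L : Type*} [Field L] (A : ValuationSubring L) (σ : L →+* L) (Q : ℕ)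

/-- `σ` preserves `A`. -/
theorem S35FT_map_mem (hQ : ∀ x ∈ A, σ x - x ^ Q ∈ A.nonunits) {x : L} (hx : x ∈ A) :
    σ x ∈ A := by
  have h1 : σ x - x ^ Q ∈ A := A.nonunits_subset (hQ x hx)
  have h2 : σ x = (σ x - x ^ Q) + x ^ Q := by ring
  rw [h2]
  exact A.add_mem _ _ h1 (A.pow_mem hx Q)

/-- `σ` preserves the maximal ideal of `A`. -/
theorem S35FT_map_nonunits (hQ1 : 1 ≤ Q) (hQ : ∀ x ∈ A, σ x - x ^ Q ∈ A.nonunits) {x : L}
    (hx : x ∈ A.nonunits) : σ x ∈ A.nonunits := by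
  have hxA : x ∈ A := A.nonunits_subset hx
  have h1 := hQ x hxA
  rw [ValuationSubring.mem_nonunits_iff] at h1 hx ⊢
  have h2 : σ x = (σ x - x ^ Q) + x ^ Q := by ring
  rw [h2]
  refine lt_of_le_of_lt (A.valuation.map_add _ _) (max_lt h1 ?_)
  rw [map_pow]
  exact pow_lt_one₀ zero_le hx (by omega)

/-- iterates of `σ` preserve the maximal ideal of `A`. -/
theorem S35FT_iterate_nonunits (hQ1 : 1 ≤ Q) (hQ : ∀ x ∈ A, σ x - x ^ Q ∈ A.nonunits) {x : L}
    (hx : x ∈ A.nonunits) (n : ℕ) : σ^[n] x ∈ A.nonunits := by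
  induction n with
  | zero => exact hx
  | succ n ih =>
    rw [Function.iterate_succ_apply']
    exact S35FT_map_nonunits A σ Q hQ1 hQ ih

theorem S35FT_iterate_div (x y : L) (n : ℕ) : σ^[n] (x / y) = σ^[n] x / σ^[n] y := by
  induction n with
  | zero => rfl
  | succ n ih =>
    rw [Function.iterate_succ_apply', Function.iterate_succ_apply', Function.iterate_succ_apply',
      ih, map_div₀]

theorem S35FT_iterate_ne_zero {a : L} (ha : a ≠ 0) (n : ℕ) : σ^[n] a ≠ 0 := by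
  induction n with
  | zero => exact ha
  | succ n ih =>
    rw [Function.iterate_succ_apply']
    exact (map_ne_zero σ).2 ih

/-- the telescoping product: if `b / σ b` is a nonunit then so is `b / σⁿ b`, `n ≥ 1`. -/
theorem S35FT_telescope (hQ1 : 1 ≤ Q) (hQ : ∀ x ∈ A, σ x - x ^ Q ∈ A.nonunits) {a b : L}
    (ha : a ≠ 0) (hb : b ≠ 0) (hy : a / b ∈ A.nonunits) (hab : b = σ a ∨ a = σ b) (n : ℕ) :
    (b = σ a → a / σ^[n + 1] a ∈ A.nonunits) ∧ (a = σ b → σ^[n + 1] b / b ∈ A.nonunits) := by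
  induction n with
  | zero =>
    constructor
    · intro h
      rw [Function.iterate_succ_apply', Function.iterate_zero, id, ← h]
      exact hy
    · intro h
      rw [Function.iterate_succ_apply', Function.iterate_zero, id, ← h]
      exact hy
  | succ n ih =>
    constructor
    · intro h
      have h1 := ih.1 h
      have h2 : σ^[n + 1] (a / b) ∈ A.nonunits :=
        S35FT_iterate_nonunits A σ Q hQ1 hQ hy (n + 1)
      rw [S35FT_iterate_div, h] at h2
      have h3 : σ^[n + 1] (σ a) = σ^[n + 1 + 1] a := by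
        rw [← Function.iterate_succ_apply]
      rw [h3] at h2
      have e : a / σ^[n + 1 + 1] a = (a / σ^[n + 1] a) * (σ^[n + 1] a / σ^[n + 1 + 1] a) := by
        have := S35FT_iterate_ne_zero σ ha (n + 1)
        field_simp
      rw [e, ValuationSubring.mem_nonunits_iff, map_mul]
      rw [ValuationSubring.mem_nonunits_iff] at h1 h2
      exact mul_lt_one_of_nonneg_of_lt_one_left zero_le h1 h2.le
    · intro h
      have h1 := ih.2 h
      have h2 : σ^[n + 1] (a / b) ∈ A.nonunits :=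
        S35FT_iterate_nonunits A σ Q hQ1 hQ hy (n + 1)
      rw [S35FT_iterate_div, h] at h2
      have h3 : σ^[n + 1] (σ b) = σ^[n + 1 + 1] b := by
        rw [← Function.iterate_succ_apply]
      rw [h3] at h2
      have e : σ^[n + 1 + 1] b / b = (σ^[n + 1] b / b) * (σ^[n + 1 + 1] b / σ^[n + 1] b) := by
        have := S35FT_iterate_ne_zero σ hb (n + 1)
        field_simp
      rw [e, ValuationSubring.mem_nonunits_iff, map_mul]
      rw [ValuationSubring.mem_nonunits_iff] at h1 h2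
      exact mul_lt_one_of_nonneg_of_lt_one_left zero_le h1 h2.le

/-- **`σ` preserves the valuation** of an element with a finite orbit. -/
theorem S35FT_val_map (hQ1 : 1 ≤ Q) (hQ : ∀ x ∈ A, σ x - x ^ Q ∈ A.nonunits) {a : L}
    (ha : a ≠ 0) (hfin : ∃ n : ℕ, 0 < n ∧ σ^[n] a = a) :
    A.valuation (σ a) = A.valuation a := by
  obtain ⟨n, hn, hna⟩ := hfin
  obtain ⟨m, rfl⟩ : ∃ m, n = m + 1 := ⟨n - 1, by omega⟩
  have hσa : σ a ≠ 0 := (map_ne_zero σ).2 ha
  have hone : (1 : L) ∉ A.nonunits := by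
    rw [ValuationSubring.mem_nonunits_iff, map_one]
    exact lt_irrefl _
  -- `a / σ a` is not a nonunit
  have h1 : ¬ a / σ a ∈ A.nonunits := by
    intro hy
    have := (S35FT_telescope A σ Q hQ1 hQ ha hσa hy (Or.inl rfl) m).1 rfl
    rw [hna, div_self ha] at this
    exact hone this
  -- `σ a / a` is not a nonunit
  have h2 : ¬ σ a / a ∈ A.nonunits := by
    intro hy
    have := (S35FT_telescope A σ Q hQ1 hQ hσa ha hy (Or.inr rfl) m).2 rfl
    rw [hna, div_self ha] at this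
    exact hone this
  rw [ValuationSubring.mem_nonunits_iff, map_div₀, not_lt] at h1 h2
  have hva : A.valuation a ≠ 0 := (A.valuation.ne_zero_iff).2 ha
  have hvσ : A.valuation (σ a) ≠ 0 := (A.valuation.ne_zero_iff).2 hσa
  have h3 : A.valuation (σ a) ≤ A.valuation a := by
    have := (one_le_div₀ (lt_of_le_of_ne zero_le hvσ.symm)).1 h1
    exact this
  have h4 : A.valuation a ≤ A.valuation (σ a) := by
    have := (one_le_div₀ (lt_of_le_of_ne zero_le hva.symm)).1 h2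
    exact this
  exact le_antisymm h3 h4

/-- **The Frobenius tame lemma**: `σ (σ a) · a ^ Q = (σ a) ^ (Q + 1) · (1 + d)` with `d` in the
maximal ideal of `A`. -/
theorem S35FT_main (hQ1 : 1 ≤ Q) (hQ : ∀ x ∈ A, σ x - x ^ Q ∈ A.nonunits) {a : L}
    (ha : a ≠ 0) (hfin : ∃ n : ℕ, 0 < n ∧ σ^[n] a = a) :
    ∃ d ∈ A.nonunits, σ (σ a) * a ^ Q = (σ a) ^ (Q + 1) * (1 + d) := by
  have hσa : σ a ≠ 0 := (map_ne_zero σ).2 ha
  have hv := S35FT_val_map A σ Q hQ1 hQ ha hfin
  set ε : L := σ a / a with hε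
  have hε0 : ε ≠ 0 := div_ne_zero hσa ha
  have hvε : A.valuation ε = 1 := by
    rw [hε, map_div₀, hv]
    exact div_self ((A.valuation.ne_zero_iff).2 ha)
  have hεA : ε ∈ A := by
    rw [← ValuationSubring.valuation_le_one_iff, hvε]
  have h1 := hQ ε hεA
  refine ⟨(σ ε - ε ^ Q) / ε ^ Q, ?_, ?_⟩
  · rw [ValuationSubring.mem_nonunits_iff] at h1 ⊢
    rw [map_div₀, map_pow, hvε, one_pow, div_one]
    exact h1
  · have h2 : σ ε = σ (σ a) / σ a := by rw [hε, map_div₀]
    have hεQ : ε ^ Q ≠ 0 := pow_ne_zero _ hε0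
    have e1 : 1 + (σ ε - ε ^ Q) / ε ^ Q = σ ε / ε ^ Q := by
      field_simp
      ring
    have e2 : (σ a) ^ Q = ε ^ Q * a ^ Q := by
      rw [hε, div_pow, div_mul_cancel₀ _ (pow_ne_zero _ ha)]
    rw [e1, pow_succ, e2, h2]
    field_simp

end Abstract

section Concrete

local notation "Qb" => AlgebraicClosure ℚ
local notation "GQ" => (AlgebraicClosure ℚ ≃ₐ[ℚ] AlgebraicClosure ℚ)

/-- every element of `ℚ̄` has a finite orbit under `σ`. -/
theorem S35FT_orbit (σ : GQ) (a : Qb) :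
    ∃ n : ℕ, 0 < n ∧ (⇑((σ : Qb ≃ₐ[ℚ] Qb) : Qb →+* Qb))^[n] a = a := by
  haveI halg : Algebra.IsAlgebraic ℚ Qb := AlgebraicClosure.isAlgebraic ℚ
  have hint : IsIntegral ℚ a := (Algebra.IsAlgebraic.isAlgebraic (R := ℚ) a).isIntegral
  have hfin : ((minpoly ℚ a).rootSet Qb).Finite := Polynomial.rootSet_finite _ _
  have hiter : ∀ n : ℕ, (⇑((σ : Qb ≃ₐ[ℚ] Qb) : Qb →+* Qb))^[n] a = (σ ^ n) a := by
    intro n
    induction n with
    | zero => rfl
    | succ n ih =>
      rw [Function.iterate_succ_apply', ih, pow_succ', AlgEquiv.mul_apply]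
      rfl
  have hmem : ∀ n : ℕ, (σ ^ n) a ∈ (minpoly ℚ a).rootSet Qb := by
    intro n
    rw [Polynomial.mem_rootSet]
    refine ⟨minpoly.ne_zero hint, ?_⟩
    have h := Polynomial.aeval_algHom_apply ((σ ^ n : GQ) : Qb →ₐ[ℚ] Qb) a (minpoly ℚ a)
    rw [minpoly.aeval, map_zero] at h
    exact h
  obtain ⟨i, j, hij, he⟩ := hfin.exists_lt_map_eq_of_forall_mem hmem
  refine ⟨j - i, by omega, ?_⟩
  rw [hiter]
  have h1 : (σ ^ j) a = (σ ^ i) ((σ ^ (j - i)) a) := by
    rw [← AlgEquiv.mul_apply, ← pow_add]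
    congr 2
    omega
  rw [h1] at he
  exact ((σ ^ i).injective he).symm

variable (A : ValuationSubring Qb) (q : ℕ) (σ : GQ) (hσ : A.IsFrobeniusAt σ q)

include hσ in
/-- **Frobenius lifts preserve the valuation.** -/
theorem S35FT_frob_val (hq : 1 ≤ q) {a : Qb} (ha : a ≠ 0) :
    A.valuation (σ a) = A.valuation a :=
  S35FT_val_map A ((σ : Qb ≃ₐ[ℚ] Qb) : Qb →+* Qb) q hq
    (fun x hx => Fermat.Agent.G_helper1_FDLIFT.PG9d_frob_sub_mem A σ q hσ x hx) ha
    (S35FT_orbit σ a)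

include hσ in
/-- **The Frobenius tame lemma** for a Frobenius lift at `A`. -/
theorem S35FT_frob (hq : 1 ≤ q) {a : Qb} (ha : a ≠ 0) :
    ∃ d ∈ A.nonunits, σ (σ a) * a ^ q = (σ a) ^ (q + 1) * (1 + d) :=
  S35FT_main A ((σ : Qb ≃ₐ[ℚ] Qb) : Qb →+* Qb) q hq
    (fun x hx => Fermat.Agent.G_helper1_FDLIFT.PG9d_frob_sub_mem A σ q hσ x hx) ha
    (S35FT_orbit σ a)

include hσ in
/-- the square of a Frobenius lift is the `q²`-power modulo the maximal ideal. -/
theorem S35FT_sq_sub_mem (hq : 1 ≤ q) (x : Qb) (hx : x ∈ A) :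
    σ (σ x) - x ^ (q ^ 2) ∈ A.nonunits := by
  have hF := fun y hy => Fermat.Agent.G_helper1_FDLIFT.PG9d_frob_sub_mem A σ q hσ y hy
  have h1 := hF x hx
  have hσx : σ x ∈ A :=
    S35FT_map_mem A ((σ : Qb ≃ₐ[ℚ] Qb) : Qb →+* Qb) q hF hx
  have h2 := hF (σ x) hσx
  -- `(σ x) ^ q - (x ^ q) ^ q` is divisible by `σ x - x ^ q`
  have h3 : (σ x) ^ q - (x ^ q) ^ q ∈ A.nonunits := by
    obtain ⟨c, hc⟩ := sub_dvd_pow_sub_pow (⟨σ x, hσx⟩ : A) (⟨x ^ q, A.pow_mem hx q⟩ : A) q
    have hc' : (σ x) ^ q - (x ^ q) ^ q = (σ x - x ^ q) * (c : Qb) := by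
      have := congrArg (fun z : A => (z : Qb)) hc
      simpa using this
    rw [hc', ValuationSubring.mem_nonunits_iff, map_mul]
    rw [ValuationSubring.mem_nonunits_iff] at h1
    exact mul_lt_one_of_nonneg_of_lt_one_left zero_le h1
      ((ValuationSubring.valuation_le_one_iff A _).2 c.2)
  have e : σ (σ x) - x ^ (q ^ 2) = (σ (σ x) - (σ x) ^ q) + ((σ x) ^ q - (x ^ q) ^ q) := by
    rw [pow_two, pow_mul]
    ring
  rw [e, ValuationSubring.mem_nonunits_iff] at *
  exact lt_of_le_of_lt (A.valuation.map_add _ _) (max_lt h2 h3)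

include hσ in
/-- **The value of `(σ² - q²)(σ² - 1)` on a constant**: for every `a ≠ 0`,
`σ⁴ a · a ^ (q²) = (σ² a) ^ (q² + 1) · (1 + d)` with `d` in the maximal ideal of `A`. -/
theorem S35FT_frob_sq (hq : 1 ≤ q) {a : Qb} (ha : a ≠ 0) :
    ∃ d ∈ A.nonunits,
      σ (σ (σ (σ a))) * a ^ (q ^ 2) = (σ (σ a)) ^ (q ^ 2 + 1) * (1 + d) := by
  have h := S35FT_main A ((((σ * σ : GQ) : Qb ≃ₐ[ℚ] Qb)) : Qb →+* Qb) (q ^ 2)
    (Nat.one_le_pow _ _ (by omega))
    (fun x hx => S35FT_sq_sub_mem A q σ hσ hq x hx) ha (S35FT_orbit (σ * σ) a)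
  exact h

end Concrete

end Fermat.Agent.S35_helper6_FTAME
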