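import Mathlib
import Fermat.Agent.S35_helper28_CONSTA
import Fermat.Agent.S35_helper8_FCLOC
import Fermat.Agent.S35_helper6_FTAME
import Fermat.Agent.S35_helper13_GLUE
import Fermat.Agent.S34_helper13_P1C
import Fermat.Agent.S34_helper6_STEP1V2
import Fermat.Agent.S18_helper27_RESALGCL

/-!
# S35, GEO-CONST (helper28): the branch constants and the root of `h`, concrete carriers

Level `N = q N'`, `q ∤ N'`, `A` over `q`, `K1` an admissible `G_ℚ`-stable level, `σ` a Frobenius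
element at `A`, `s = act (σ * σ)`, `Q = q ^ 2`, `Φ z = s z / z ^ Q`,
`V1 = S18K_V A K1 N` (Gauss), `V2 = S34V0K_V A K1 q N' N hq hqN hN = w(V1)`.

* `S35CST_frobO` : `s c = c ^ Q (1 + π o)` for the constant units;
* `S35CST_root1`, `S35CST_root2` : roots of constants on the two branches (multiplicative form
  of helper6's `S34S1K_root` / `S34S1V_rootK`);
* `S35CST_pow` : `lam`-th roots of the constant units modulo `π`;
* `S35CST_main` : the constants `γ_i`, `b_i` and the root `G` of `h` (the data of helper19's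
  `S35LOC_main` and `hred` of the landed `S34CA_main2`).
-/

set_option autoImplicit false
set_option linter.unusedSectionVars false
set_option linter.unusedVariables false
set_option linter.style.haveILetI false
set_option synthInstance.maxHeartbeats 400000
set_option maxHeartbeats 1600000

open HahnSeries ModularCurve
open Fermat.Agent.S18_helper13_GAUSS Fermat.Agent.S18_helper9_CDefs
  Fermat.Agent.S18_helper25_COREDefs Fermat.Agent.S34_helper12_CDefs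
  Fermat.Agent.S34_helper20_V0 Fermat.Agent.S34_helper20_V0K
  Fermat.Agent.S34_helper21_ACT Fermat.Agent.S35_helper28_CONSTA

noncomputable section

namespace Fermat.Agent.S35_helper28_CONST

local notation "Qb" => AlgebraicClosure ℚ
local notation "GQ" => (AlgebraicClosure ℚ ≃ₐ[ℚ] AlgebraicClosure ℚ)

/-- `(1 + π c)⁻¹ ∈ V` for a ring `V` with uniformiser `π` -/
theorem S35CST_rad {L : Type*} [Field L] {π : L} {V : Subring L} (hπV : π ∈ V)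
    (hnu : π⁻¹ ∉ V) (hunif : ∀ x ∈ V, x⁻¹ ∉ V → ∃ v ∈ V, x = π * v) :
    ∀ c ∈ V, (1 + π * c)⁻¹ ∈ V := by
  intro c hc
  by_contra hcon
  obtain ⟨v, hv, hve⟩ := hunif _ (V.add_mem V.one_mem (V.mul_mem hπV hc)) hcon
  apply hnu
  have h2 : π * (v - c) = 1 := by linear_combination -hve
  rw [inv_eq_of_mul_eq_one_right h2]
  exact V.sub_mem hv hc

variable (A : ValuationSubring Qb) (K1 : IntermediateField ℚ Qb)
  (hstab : ∀ σ : GQ, ∀ x ∈ K1, σ x ∈ K1) [IsDiscreteValuationRing (S18K_O1 A K1)]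

/-! ### Constants -/

theorem S35CST_pi_eq :
    S18K_π A K1 = HahnSeries.C (((S18K_D A K1).π : S18K_O1 A K1) : K1) := rfl

theorem S35CST_C_mem {c : K1} (hc : (c : Qb) ∈ A) :
    (HahnSeries.C c : LaurentSeries K1) ∈ S18K_O A K1 :=
  (S18K_mem_O A K1 _).2 ⟨c, hc, rfl⟩

theorem S35CST_C_ne_zero {c : K1} (hc : c ≠ 0) : (HahnSeries.C c : LaurentSeries K1) ≠ 0 := by
  intro h0
  exact hc (HahnSeries.C_injective (by rw [h0, map_zero]))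

/-- a unit of `O` is the constant series of a unit of `O1` -/
theorem S35CST_unit_of_mem {x : LaurentSeries K1} (hx : x ∈ S18K_O A K1)
    (hx' : x⁻¹ ∈ S18K_O A K1) (hx0 : x ≠ 0) :
    ∃ c : S18K_O1 A K1, IsUnit c ∧ HahnSeries.C (c : K1) = x := by
  obtain ⟨a, ha, rfl⟩ := (S18K_mem_O A K1 _).1 hx
  obtain ⟨b, hb, hbe⟩ := (S18K_mem_O A K1 _).1 hx'
  have hab : a * b = 1 := by
    apply HahnSeries.C_injective (Γ := ℤ) (R := K1)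
    rw [map_mul, hbe, mul_inv_cancel₀ hx0, map_one]
  exact ⟨⟨a, ha⟩, IsUnit.of_mul_eq_one (⟨b, hb⟩ : S18K_O1 A K1) (Subtype.ext hab), rfl⟩

/-- the constant series of a unit of `O1` is a unit of `O` -/
theorem S35CST_mem_of_unit {γ : S18K_O1 A K1} (hγ : IsUnit γ) :
    (HahnSeries.C (γ : K1) : LaurentSeries K1) ∈ S18K_O A K1 ∧
      (HahnSeries.C (γ : K1) : LaurentSeries K1)⁻¹ ∈ S18K_O A K1 ∧
      (HahnSeries.C (γ : K1) : LaurentSeries K1) ≠ 0 ∧ (γ : K1) ≠ 0 ∧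
      (((γ : K1) : Qb))⁻¹ ∈ A := by
  obtain ⟨u, rfl⟩ := hγ
  have h1 : ((u : S18K_O1 A K1) : K1) * (((u⁻¹ : (S18K_O1 A K1)ˣ) : S18K_O1 A K1) : K1) = 1 := by
    have := congrArg (fun z : S18K_O1 A K1 => (z : K1)) u.mul_inv
    exact this
  have hu0 : ((u : S18K_O1 A K1) : K1) ≠ 0 := left_ne_zero_of_mul_eq_one h1
  have hinv : (((u : S18K_O1 A K1) : K1))⁻¹ =
      (((u⁻¹ : (S18K_O1 A K1)ˣ) : S18K_O1 A K1) : K1) := inv_eq_of_mul_eq_one_right h1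
  refine ⟨S35CST_C_mem A K1 (u : S18K_O1 A K1).2, ?_, S35CST_C_ne_zero K1 hu0, hu0, ?_⟩
  · rw [← map_inv₀, hinv]
    exact S35CST_C_mem A K1 ((u⁻¹ : (S18K_O1 A K1)ˣ) : S18K_O1 A K1).2
  · have : ((((u : S18K_O1 A K1) : K1) : Qb))⁻¹ = (((((u : S18K_O1 A K1) : K1))⁻¹ : K1) : Qb) := by
      simp
    rw [this, hinv]
    exact ((u⁻¹ : (S18K_O1 A K1)ˣ) : S18K_O1 A K1).2

/-- an element of `O1` which is a nonunit of `A` is a multiple of the uniformiser -/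
theorem S35CST_dvd_of_nonunit (e : K1) (he : (e : Qb) ∈ A.nonunits) :
    ∃ o : S18K_O1 A K1, e = (((S18K_D A K1).π : S18K_O1 A K1) : K1) * (o : K1) := by
  have heA : (e : Qb) ∈ A := A.nonunits_le he
  have hres : (S18K_D A K1).res (⟨e, heA⟩ : S18K_O1 A K1) = 0 := by
    show S18K_res A K1 (⟨e, heA⟩ : S18K_O1 A K1) = 0
    rw [S18K_res, RingHom.comp_apply, IsLocalRing.residue_eq_zero_iff]
    obtain ⟨ha, hm⟩ := (ValuationSubring.mem_nonunits_iff_exists_mem_maximalIdeal).1 he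
    exact hm
  obtain ⟨d, hd⟩ := ((S18K_D A K1).res_eq_zero_iff _).1 hres
  refine ⟨d, ?_⟩
  have := congrArg (fun z : S18K_O1 A K1 => (z : K1)) hd
  exact this

/-- **Frobenius on the constants**: `s c = c ^ Q (1 + π o)` for every constant unit `c`. -/
theorem S35CST_frobO (q : ℕ) (hq1 : 1 ≤ q) (σ : GQ) (hσ : A.IsFrobeniusAt σ q) :
    ∀ c ∈ S18K_O A K1, c⁻¹ ∈ S18K_O A K1 → c ≠ 0 →
      ∃ o ∈ S18K_O A K1,
        S34ACT_act K1 hstab (σ * σ) c = c ^ (q ^ 2) * (1 + S18K_π A K1 * o) := by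
  intro c hc hc' hc0
  obtain ⟨a, ha, rfl⟩ := S35CST_unit_of_mem A K1 hc hc' hc0
  obtain ⟨-, -, -, ha0, hainv⟩ := S35CST_mem_of_unit A K1 ha
  set a' : K1 := S34ACT_res K1 hstab (σ * σ) (a : K1) with ha'def
  have ha'coe : ((a' : K1) : Qb) = σ (σ ((a : K1) : Qb)) := rfl
  -- the error term
  have hd : σ (σ ((a : K1) : Qb)) - (((a : K1) : Qb)) ^ (q ^ 2) ∈ A.nonunits :=
    Fermat.Agent.S35_helper6_FTAME.S35FT_sq_sub_mem A q σ hσ hq1 _ a.2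
  have he : (((a' - (a : K1) ^ (q ^ 2)) * ((a : K1))⁻¹ ^ (q ^ 2) : K1) : Qb) ∈ A.nonunits := by
    have e : (((a' - (a : K1) ^ (q ^ 2)) * ((a : K1))⁻¹ ^ (q ^ 2) : K1) : Qb) =
        (σ (σ ((a : K1) : Qb)) - (((a : K1) : Qb)) ^ (q ^ 2)) *
          ((((a : K1) : Qb))⁻¹) ^ (q ^ 2) := by
      simp [ha'coe]
    rw [e, ValuationSubring.mem_nonunits_iff, map_mul]
    rw [ValuationSubring.mem_nonunits_iff] at hd
    exact mul_lt_one_of_nonneg_of_lt_one_left zero_le hd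
      ((ValuationSubring.valuation_le_one_iff A _).2 (A.pow_mem hainv _))
  obtain ⟨o, ho⟩ := S35CST_dvd_of_nonunit A K1 _ he
  refine ⟨HahnSeries.C (o : K1), S35CST_C_mem A K1 o.2, ?_⟩
  rw [S34ACT_act_C, S35CST_pi_eq, ← map_mul, ← map_pow, ← map_one (HahnSeries.C (Γ := ℤ) (R := K1)),
    ← map_add, ← map_mul, ← ho]
  congr 1
  have hpow0 : (a : K1) ^ (q ^ 2) ≠ 0 := pow_ne_zero _ ha0
  rw [← ha'def, inv_pow]
  have h1 : (a : K1) ^ (q ^ 2) * (1 + (a' - (a : K1) ^ (q ^ 2)) * ((a : K1) ^ (q ^ 2))⁻¹) =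
      (a : K1) ^ (q ^ 2) + (a' - (a : K1) ^ (q ^ 2)) *
        ((a : K1) ^ (q ^ 2) * ((a : K1) ^ (q ^ 2))⁻¹) := by ring
  rw [h1, mul_inv_cancel₀ hpow0]
  ring

/-- from the additive to the multiplicative form of a root -/
theorem S35CST_root_mul {V : Subring (LaurentSeries K1)} (hOV : S18K_O A K1 ≤ V)
    {x z : LaurentSeries K1} {γ : S18K_O1 A K1} (hγ : IsUnit γ) (hz : z ∈ V)
    (e : x = HahnSeries.C (γ : K1) + S18K_π A K1 * z) :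
    ∃ γ' ∈ S18K_O A K1, γ'⁻¹ ∈ S18K_O A K1 ∧ γ' ≠ 0 ∧
      ∃ z' ∈ V, x = γ' * (1 + S18K_π A K1 * z') := by
  obtain ⟨h1, h2, h3, -, -⟩ := S35CST_mem_of_unit A K1 hγ
  refine ⟨HahnSeries.C (γ : K1), h1, h2, h3, z * (HahnSeries.C (γ : K1))⁻¹,
    V.mul_mem hz (hOV h2), ?_⟩
  rw [e]
  field_simp

/-- **Roots of constants on the Gauss branch** (multiplicative form). -/
theorem S35CST_root1 (hsurj : Function.Surjective (S18K_res A K1)) (N : ℕ)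
    (hOV : S18K_O A K1 ≤ S18K_V A K1 N) :
    ∀ (m : ℕ), m ≠ 0 → ∀ x ∈ S18K_F1 K1 N, x ≠ 0 → ∀ c₀ ∈ S18K_O A K1, c₀⁻¹ ∈ S18K_O A K1 →
      c₀ ≠ 0 → (∃ y ∈ S18K_V A K1 N, x ^ m = c₀ * (1 + S18K_π A K1 * y)) →
      ∃ γ ∈ S18K_O A K1, γ⁻¹ ∈ S18K_O A K1 ∧ γ ≠ 0 ∧
        ∃ z ∈ S18K_V A K1 N, x = γ * (1 + S18K_π A K1 * z) := by
  intro m hm x hx hx0 c₀ hc₀ hc₀' hc₀0 hxm
  obtain ⟨c, hc, rfl⟩ := S35CST_unit_of_mem A K1 hc₀ hc₀' hc₀0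
  obtain ⟨y, hy, hxe⟩ := hxm
  obtain ⟨a, hma, γ, hγ, z, hz, e⟩ := Fermat.Agent.S34_helper6_STEP1K.S34S1K_root A K1 hsurj N hm
    hx hx0 ⟨y, hy, rfl⟩ 0 c hc (by rw [zpow_zero, one_mul]; exact hxe)
  have ha : a = 0 := by
    have hm' : (m : ℤ) ≠ 0 := by exact_mod_cast hm
    rcases mul_eq_zero.1 hma with h | h
    · exact absurd h hm'
    · exact h
  rw [ha, zpow_zero, one_mul] at e
  exact S35CST_root_mul A K1 hOV hγ hz e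

variable (q N' N : ℕ) [NeZero N'] [NeZero N] (hq : q.Prime) (hqN : ¬ q ∣ N') (hN : N = q * N')

/-- **Roots of constants on the second branch** (multiplicative form). -/
theorem S35CST_root2 (hsurj : Function.Surjective (S18K_res A K1))
    (hOV : S18K_O A K1 ≤ S34V0K_V A K1 q N' N hq hqN hN) :
    ∀ (m : ℕ), m ≠ 0 → ∀ x ∈ S18K_F1 K1 N, x ≠ 0 → ∀ c₀ ∈ S18K_O A K1, c₀⁻¹ ∈ S18K_O A K1 →
      c₀ ≠ 0 →
      (∃ y ∈ S34V0K_V A K1 q N' N hq hqN hN, x ^ m = c₀ * (1 + S18K_π A K1 * y)) →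
      ∃ γ ∈ S18K_O A K1, γ⁻¹ ∈ S18K_O A K1 ∧ γ ≠ 0 ∧
        ∃ z ∈ S34V0K_V A K1 q N' N hq hqN hN, x = γ * (1 + S18K_π A K1 * z) := by
  intro m hm x hx hx0 c₀ hc₀ hc₀' hc₀0 hxm
  obtain ⟨c, hc, rfl⟩ := S35CST_unit_of_mem A K1 hc₀ hc₀' hc₀0
  obtain ⟨y, hy, hxe⟩ := hxm
  obtain ⟨a, hma, γ, hγ, z, hz, e⟩ :=
    Fermat.Agent.S34_helper6_STEP1V2.S34S1V_rootK A K1 q N' N hq hqN hN hsurj hm
      hx hx0 ⟨y, hy, rfl⟩ 0 c hc (by rw [zpow_zero, one_mul]; exact hxe)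
  have ha : a = 0 := by
    have hm' : (m : ℤ) ≠ 0 := by exact_mod_cast hm
    rcases mul_eq_zero.1 hma with h | h
    · exact absurd h hm'
    · exact h
  rw [ha, zpow_zero, one_mul] at e
  exact S35CST_root_mul A K1 hOV hγ hz e

/-- **`lam`-th roots of the constant units modulo `π`.** -/
theorem S35CST_pow (hsurj : Function.Surjective (S18K_res A K1)) (lam : ℕ) (hlam : 0 < lam) :
    ∀ γ ∈ S18K_O A K1, γ⁻¹ ∈ S18K_O A K1 → γ ≠ 0 →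
      ∃ b ∈ S18K_O A K1, b⁻¹ ∈ S18K_O A K1 ∧ b ≠ 0 ∧
        ∃ o ∈ S18K_O A K1, b ^ lam = γ * (1 + S18K_π A K1 * o) := by
  intro γ hγ hγ' hγ0
  obtain ⟨g, hg, rfl⟩ := S35CST_unit_of_mem A K1 hγ hγ' hγ0
  obtain ⟨-, -, -, hg0, hginv⟩ := S35CST_mem_of_unit A K1 hg
  haveI : IsAlgClosed (IsLocalRing.ResidueField A) :=
    Fermat.Agent.S18_helper27_RESALGCL.S18RES_isAlgClosed_residueField_Qbar A
  obtain ⟨z, hz⟩ := IsAlgClosed.exists_pow_nat_eq (S18K_res A K1 g) hlam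
  obtain ⟨b, rfl⟩ := hsurj z
  have hgres : S18K_res A K1 g ≠ 0 := by
    intro h0
    rw [S18K_res_eq_zero_iff] at h0
    exact (IsLocalRing.mem_maximalIdeal _).1 h0 hg
  have hbres : S18K_res A K1 b ≠ 0 := by
    intro h0
    apply hgres
    rw [← hz, h0, zero_pow hlam.ne']
  have hbu : IsUnit b := by
    by_contra hnu
    apply hbres
    rw [S18K_res_eq_zero_iff]
    exact (IsLocalRing.mem_maximalIdeal _).2 hnu
  obtain ⟨hb1, hb2, hb3, -, -⟩ := S35CST_mem_of_unit A K1 hbu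
  have hres : (S18K_D A K1).res (b ^ lam - g) = 0 := by
    show S18K_res A K1 (b ^ lam - g) = 0
    rw [map_sub, map_pow, hz, sub_self]
  obtain ⟨d, hd⟩ := ((S18K_D A K1).res_eq_zero_iff _).1 hres
  have hd' : ((b : K1)) ^ lam - (g : K1) = (((S18K_D A K1).π : S18K_O1 A K1) : K1) * (d : K1) := by
    have := congrArg (fun z : S18K_O1 A K1 => (z : K1)) hd
    exact this
  have hoA : ((((d : K1) * (g : K1)⁻¹ : K1)) : Qb) ∈ A := by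
    have : ((((d : K1) * (g : K1)⁻¹ : K1)) : Qb) = ((d : K1) : Qb) * (((g : K1) : Qb))⁻¹ := by
      simp
    rw [this]
    exact A.mul_mem _ _ d.2 hginv
  refine ⟨HahnSeries.C (b : K1), hb1, hb2, hb3, HahnSeries.C ((d : K1) * (g : K1)⁻¹),
    S35CST_C_mem A K1 hoA, ?_⟩
  rw [S35CST_pi_eq, ← map_pow, ← map_mul, ← map_one (HahnSeries.C (Γ := ℤ) (R := K1)),
    ← map_add, ← map_mul]
  congr 1
  have : (g : K1) * (1 + (((S18K_D A K1).π : S18K_O1 A K1) : K1) * ((d : K1) * (g : K1)⁻¹)) =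
      (g : K1) + (((S18K_D A K1).π : S18K_O1 A K1) : K1) * (d : K1) * ((g : K1) * (g : K1)⁻¹) := by
    ring
  rw [this, mul_inv_cancel₀ hg0, mul_one, ← hd']
  ring

/-- a constant nonunit of a ring `R ⊇ O` is a multiple of `π` in `O` (adapter for the hypothesis
`hb` of helper19's `S35LOC_main`: `S35LOC_NU R x` is `x ∈ R ∧ (x = 0 ∨ x⁻¹ ∉ R)`). -/
theorem S35CST_nu {R : Subring (LaurentSeries K1)} (hOR : S18K_O A K1 ≤ R)
    {x : LaurentSeries K1} (hx : x ∈ S18K_O A K1) (hnu : x = 0 ∨ x⁻¹ ∉ R) :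
    ∃ o ∈ S18K_O A K1, x = S18K_π A K1 * o := by
  rcases hnu with rfl | hnu
  · exact ⟨0, (S18K_O A K1).zero_mem, by rw [mul_zero]⟩
  · obtain ⟨a, ha, rfl⟩ := (S18K_mem_O A K1 _).1 hx
    have hnonunit : ¬ IsUnit (⟨a, ha⟩ : S18K_O1 A K1) := by
      intro hu
      obtain ⟨-, h2, -, -, -⟩ := S35CST_mem_of_unit A K1 hu
      exact hnu (hOR h2)
    have hres : (S18K_D A K1).res (⟨a, ha⟩ : S18K_O1 A K1) = 0 := by
      show S18K_res A K1 (⟨a, ha⟩ : S18K_O1 A K1) = 0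
      rw [S18K_res_eq_zero_iff]
      exact (IsLocalRing.mem_maximalIdeal _).2 hnonunit
    obtain ⟨d, hd⟩ := ((S18K_D A K1).res_eq_zero_iff _).1 hres
    have hd' : a = (((S18K_D A K1).π : S18K_O1 A K1) : K1) * (d : K1) := by
      have := congrArg (fun z : S18K_O1 A K1 => (z : K1)) hd
      exact this
    refine ⟨HahnSeries.C (d : K1), S35CST_C_mem A K1 d.2, ?_⟩
    rw [S35CST_pi_eq, ← map_mul, ← hd']

variable [NeZero q]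

/-- **GEO-CONST, constants as elements of `O`**: the branch constants `γ_i` of `h`, their
`lam`-th roots `b_i` modulo `π` (with `b1 = b2` as soon as `γ1 ≡ γ2`), and the global root `G`
of `h` modulo `π` with its two branch congruences. -/
theorem S35CST_main_O (hA : A.LiesOverPrime q)
    (hsurj : Function.Surjective (S18K_res A K1))
    (σ : GQ) (hσ : A.IsFrobeniusAt σ q) (lam n' : ℕ) (hlam : 0 < lam) (hn' : 0 < n')
    (f2 h : LaurentSeries K1) (hh : h ∈ S18K_F1 K1 N) (hh0 : h ≠ 0)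
    (c0 c1 c2 : LaurentSeries K1)
    (hc0 : c0 ∈ S18K_O A K1) (hc0' : c0⁻¹ ∈ S18K_O A K1)
    (hc1 : c1 ∈ S18K_O A K1) (hc1' : c1⁻¹ ∈ S18K_O A K1)
    (hc2 : c2 ∈ S18K_O A K1) (hc2' : c2⁻¹ ∈ S18K_O A K1)
    (H1 H2 : LaurentSeries K1)
    (hH1 : H1 ∈ (S18K_V A K1 N ⊓ S34V0K_V A K1 q N' N hq hqN hN : Subring (LaurentSeries K1)))
    (hH1' : H1⁻¹ ∈ (S18K_V A K1 N ⊓ S34V0K_V A K1 q N' N hq hqN hN : Subring (LaurentSeries K1)))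
    (hH2 : H2 ∈ (S18K_V A K1 N ⊓ S34V0K_V A K1 q N' N hq hqN hN : Subring (LaurentSeries K1)))
    (hH2' : H2⁻¹ ∈ (S18K_V A K1 N ⊓ S34V0K_V A K1 q N' N hq hqN hN : Subring (LaurentSeries K1)))
    (ht1 : ∃ v ∈ S18K_V A K1 N, f2 = c1 * H1 ^ (lam * n') * (1 + S18K_π A K1 * v))
    (ht2 : ∃ v ∈ S34V0K_V A K1 q N' N hq hqN hN,
      f2 = c2 * H2 ^ (lam * n') * (1 + S18K_π A K1 * v))
    (hhf : h ^ n' = c0 * (S34ACT_act K1 hstab (σ * σ) f2 * (f2 ^ (q ^ 2))⁻¹)) :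
    ∃ γ1 γ2 b1 b2 : LaurentSeries K1,
      (γ1 ∈ S18K_O A K1 ∧ γ1⁻¹ ∈ S18K_O A K1 ∧ γ1 ≠ 0) ∧
      (γ2 ∈ S18K_O A K1 ∧ γ2⁻¹ ∈ S18K_O A K1 ∧ γ2 ≠ 0) ∧
      (b1 ∈ S18K_O A K1 ∧ b1⁻¹ ∈ S18K_O A K1 ∧ b1 ≠ 0) ∧
      (b2 ∈ S18K_O A K1 ∧ b2⁻¹ ∈ S18K_O A K1 ∧ b2 ≠ 0) ∧
      ((∃ o ∈ S18K_O A K1, γ1 - γ2 = S18K_π A K1 * o) → b1 = b2) ∧
      ∃ G : LaurentSeries K1, G ≠ 0 ∧ G ∈ S18K_F1 K1 N ∧
        RedPow (S18K_π A K1)
          (S18K_V A K1 N ⊓ S34V0K_V A K1 q N' N hq hqN hN : Subring (LaurentSeries K1)) lam h G ∧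
        (∃ v ∈ S18K_V A K1 N, h = γ1 * (S34ACT_act K1 hstab (σ * σ) H1 * (H1 ^ (q ^ 2))⁻¹) ^ lam *
          (1 + S18K_π A K1 * v)) ∧
        (∃ v ∈ S34V0K_V A K1 q N' N hq hqN hN,
          h = γ2 * (S34ACT_act K1 hstab (σ * σ) H2 * (H2 ^ (q ^ 2))⁻¹) ^ lam *
            (1 + S18K_π A K1 * v)) ∧
        (∃ v ∈ S18K_V A K1 N, G = b1 * (S34ACT_act K1 hstab (σ * σ) H1 * (H1 ^ (q ^ 2))⁻¹) *
          (1 + S18K_π A K1 * v)) ∧
        (∃ v ∈ S34V0K_V A K1 q N' N hq hqN hN,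
          G = b2 * (S34ACT_act K1 hstab (σ * σ) H2 * (H2 ^ (q ^ 2))⁻¹) *
            (1 + S18K_π A K1 * v)) := by
  have S := Fermat.Agent.S34_helper13_P1C.S34P1C_setup2 A K1 q N' N hq hqN hN hA
  have hOV := Fermat.Agent.S34_helper12_GAMMA.S34GA_O_le S
  have hO1 : S18K_O A K1 ≤ S18K_V A K1 N := fun x hx => (hOV hx).1
  have hO2 : S18K_O A K1 ≤ S34V0K_V A K1 q N' N hq hqN hN := fun x hx => (hOV hx).2
  have hπO : S18K_π A K1 ∈ S18K_O A K1 := S.π_mem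
  have hπ0 : S18K_π A K1 ≠ 0 := by
    intro h0
    apply S.V1_nonunit
    rw [h0, inv_zero]
    exact (S18K_V A K1 N).zero_mem
  have hdec : σ ∈ A.decompositionSubgroup ℚ := hσ.mem_decompositionSubgroup
  have hdec2 : σ * σ ∈ A.decompositionSubgroup ℚ :=
    (A.decompositionSubgroup ℚ).mul_mem hdec hdec
  have hne : ¬ S18K_V A K1 N ≤ S34V0K_V A K1 q N' N hq hqN hN := by
    intro hle
    obtain ⟨x, hx1, hx2⟩ := Fermat.Agent.S34_helper13_P1C.S34P1C_sep A K1 q N' N hq hqN hN hA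
    exact hx2 (hle hx1)
  obtain ⟨γ1, γ2, b1, b2, hγ1, hγ2, hb1, hb2, hbb, G, hG0, hGV, hGV', hred, hh1, hh2, hG1, hG2⟩ :=
    S35CSA_main (O := S18K_O A K1) (V1 := S18K_V A K1 N)
      (V2 := S34V0K_V A K1 q N' N hq hqN hN) (F1 := S18K_F1 K1 N) (π := S18K_π A K1)
      (s := S34ACT_act K1 hstab (σ * σ)) (Q := q ^ 2)
      hπ0 hπO hO1 hO2 S.V1_nonunit S.V2_nonunit
      (S35CST_rad (hO1 hπO) S.V1_nonunit S.V1_unif)
      (S35CST_rad (hO2 hπO) S.V2_nonunit S.V2_unif)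
      (Fermat.Agent.S35_helper8_FCLOC.S35FCL_sF K1 hstab N σ)
      (Fermat.Agent.S35_helper8_FCLOC.S35FCL_sV1 A K1 hstab q N σ hσ)
      (Fermat.Agent.S35_helper8_FCLOC.S35FCL_sV2 A K1 hstab q N' N hq hqN hN σ hσ)
      (Fermat.Agent.S35_helper8_FCCHART.S35FCC_pi A K1 hstab (σ * σ) hdec2)
      (S35CST_frobO A K1 hstab q hq.one_le σ hσ)
      (S35CST_root1 A K1 hsurj N hO1)
      (S35CST_root2 A K1 q N' N hq hqN hN hsurj hO2)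
      lam n' hlam hn'
      (S35CST_pow A K1 hsurj lam hlam)
      (fun X1 X2 h1 h2 => Fermat.Agent.S35_helper13_GLUE.S35GL_crt S hne h1 h2)
      f2 h hh hh0 c0 c1 c2 hc0 hc0' hc1 hc1' hc2 hc2' H1 H2
      (S.V1_le hH1.1) (S.V1_le hH2.1) hH1 hH1' hH2 hH2' ht1 ht2 hhf
  exact ⟨γ1, γ2, b1, b2, hγ1, hγ2, hb1, hb2, hbb, G, hG0, S.V1_le hGV.1, ⟨hGV, hGV', hred⟩,
    hh1, hh2, hG1, hG2⟩

/-- `C c` and its inverse lie in `O` for `c : K1` with `c`, `c⁻¹ ∈ A` -/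
theorem S35CST_C_unit {c : K1} (hc : (c : Qb) ∈ A) (hc' : ((c : Qb))⁻¹ ∈ A) :
    (HahnSeries.C c : LaurentSeries K1) ∈ S18K_O A K1 ∧
      (HahnSeries.C c : LaurentSeries K1)⁻¹ ∈ S18K_O A K1 := by
  refine ⟨S35CST_C_mem A K1 hc, ?_⟩
  rw [← map_inv₀]
  apply S35CST_C_mem A K1
  have : (((c⁻¹ : K1)) : Qb) = ((c : Qb))⁻¹ := by simp
  rw [this]
  exact hc'

/-- a unit of `O` as the constant series of an element `c : K1` with `c`, `c⁻¹ ∈ A` -/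
theorem S35CST_K1_of_unit {x : LaurentSeries K1} (hx : x ∈ S18K_O A K1)
    (hx' : x⁻¹ ∈ S18K_O A K1) (hx0 : x ≠ 0) :
    ∃ c : K1, ((c : Qb) ∈ A ∧ ((c : Qb))⁻¹ ∈ A ∧ c ≠ 0) ∧ HahnSeries.C c = x := by
  obtain ⟨a, ha, rfl⟩ := S35CST_unit_of_mem A K1 hx hx' hx0
  obtain ⟨-, -, -, ha0, hainv⟩ := S35CST_mem_of_unit A K1 ha
  exact ⟨(a : K1), ⟨a.2, hainv, ha0⟩, rfl⟩

/-- **GEO-CONST** (pieces row 535): the constants in `K1`. -/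
theorem S35CST_main (hA : A.LiesOverPrime q) (hadm : S18K_Admissible A K1 q)
    (σ : GQ) (hσ : A.IsFrobeniusAt σ q) (lam n' : ℕ) (hlam : 0 < lam) (hn' : 0 < n')
    (f2 h : LaurentSeries K1) (hh : h ∈ S18K_F1 K1 N) (hh0 : h ≠ 0)
    (c0 c1 c2 : K1)
    (hc0 : (c0 : Qb) ∈ A) (hc0' : ((c0 : Qb))⁻¹ ∈ A)
    (hc1 : (c1 : Qb) ∈ A) (hc1' : ((c1 : Qb))⁻¹ ∈ A)
    (hc2 : (c2 : Qb) ∈ A) (hc2' : ((c2 : Qb))⁻¹ ∈ A)
    (H1 H2 : LaurentSeries K1)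
    (hH1 : H1 ∈ (S18K_V A K1 N ⊓ S34V0K_V A K1 q N' N hq hqN hN : Subring (LaurentSeries K1)))
    (hH1' : H1⁻¹ ∈ (S18K_V A K1 N ⊓ S34V0K_V A K1 q N' N hq hqN hN : Subring (LaurentSeries K1)))
    (hH2 : H2 ∈ (S18K_V A K1 N ⊓ S34V0K_V A K1 q N' N hq hqN hN : Subring (LaurentSeries K1)))
    (hH2' : H2⁻¹ ∈ (S18K_V A K1 N ⊓ S34V0K_V A K1 q N' N hq hqN hN : Subring (LaurentSeries K1)))
    (ht1 : ∃ v ∈ S18K_V A K1 N,
      f2 = HahnSeries.C c1 * H1 ^ (lam * n') * (1 + S18K_π A K1 * v))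
    (ht2 : ∃ v ∈ S34V0K_V A K1 q N' N hq hqN hN,
      f2 = HahnSeries.C c2 * H2 ^ (lam * n') * (1 + S18K_π A K1 * v))
    (hhf : h ^ n' = HahnSeries.C c0 *
      (S34ACT_act K1 hstab (σ * σ) f2 * (f2 ^ (q ^ 2))⁻¹)) :
    ∃ γ1 γ2 b1 b2 : K1,
      ((γ1 : Qb) ∈ A ∧ ((γ1 : Qb))⁻¹ ∈ A ∧ γ1 ≠ 0) ∧
      ((γ2 : Qb) ∈ A ∧ ((γ2 : Qb))⁻¹ ∈ A ∧ γ2 ≠ 0) ∧
      ((b1 : Qb) ∈ A ∧ ((b1 : Qb))⁻¹ ∈ A ∧ b1 ≠ 0) ∧
      ((b2 : Qb) ∈ A ∧ ((b2 : Qb))⁻¹ ∈ A ∧ b2 ≠ 0) ∧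
      ((∃ o : K1, (o : Qb) ∈ A ∧
        γ1 - γ2 = (((S18K_D A K1).π : S18K_O1 A K1) : K1) * o) → b1 = b2) ∧
      ∃ G : LaurentSeries K1, G ≠ 0 ∧ G ∈ S18K_F1 K1 N ∧
        RedPow (S18K_π A K1)
          (S18K_V A K1 N ⊓ S34V0K_V A K1 q N' N hq hqN hN : Subring (LaurentSeries K1)) lam h G ∧
        (∃ v ∈ S18K_V A K1 N,
          h = HahnSeries.C γ1 * (S34ACT_act K1 hstab (σ * σ) H1 * (H1 ^ (q ^ 2))⁻¹) ^ lam *
            (1 + S18K_π A K1 * v)) ∧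
        (∃ v ∈ S34V0K_V A K1 q N' N hq hqN hN,
          h = HahnSeries.C γ2 * (S34ACT_act K1 hstab (σ * σ) H2 * (H2 ^ (q ^ 2))⁻¹) ^ lam *
            (1 + S18K_π A K1 * v)) ∧
        (∃ v ∈ S18K_V A K1 N,
          G = HahnSeries.C b1 * (S34ACT_act K1 hstab (σ * σ) H1 * (H1 ^ (q ^ 2))⁻¹) *
            (1 + S18K_π A K1 * v)) ∧
        (∃ v ∈ S34V0K_V A K1 q N' N hq hqN hN,
          G = HahnSeries.C b2 * (S34ACT_act K1 hstab (σ * σ) H2 * (H2 ^ (q ^ 2))⁻¹) *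
            (1 + S18K_π A K1 * v)) := by
  obtain ⟨g1, g2, d1, d2, ⟨hg1, hg1', hg10⟩, ⟨hg2, hg2', hg20⟩, ⟨hd1, hd1', hd10⟩,
      ⟨hd2, hd2', hd20⟩, hbb, G, hG0, hGF, hred, hh1, hh2, hG1, hG2⟩ :=
    S35CST_main_O A K1 hstab q N' N hq hqN hN hA hadm.res_surj σ hσ lam n' hlam hn' f2 h hh hh0
      (HahnSeries.C c0) (HahnSeries.C c1) (HahnSeries.C c2)
      (S35CST_C_unit A K1 hc0 hc0').1 (S35CST_C_unit A K1 hc0 hc0').2
      (S35CST_C_unit A K1 hc1 hc1').1 (S35CST_C_unit A K1 hc1 hc1').2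
      (S35CST_C_unit A K1 hc2 hc2').1 (S35CST_C_unit A K1 hc2 hc2').2
      H1 H2 hH1 hH1' hH2 hH2' ht1 ht2 hhf
  obtain ⟨γ1, hγ1, rfl⟩ := S35CST_K1_of_unit A K1 hg1 hg1' hg10
  obtain ⟨γ2, hγ2, rfl⟩ := S35CST_K1_of_unit A K1 hg2 hg2' hg20
  obtain ⟨b1, hb1, rfl⟩ := S35CST_K1_of_unit A K1 hd1 hd1' hd10
  obtain ⟨b2, hb2, rfl⟩ := S35CST_K1_of_unit A K1 hd2 hd2' hd20
  refine ⟨γ1, γ2, b1, b2, hγ1, hγ2, hb1, hb2, ?_, G, hG0, hGF, hred, hh1, hh2, hG1, hG2⟩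
  rintro ⟨o, ho, hoe⟩
  apply HahnSeries.C_injective (Γ := ℤ) (R := K1)
  apply hbb
  refine ⟨HahnSeries.C o, S35CST_C_mem A K1 ho, ?_⟩
  rw [S35CST_pi_eq, ← map_sub, ← map_mul, hoe]

end Fermat.Agent.S35_helper28_CONST
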