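import Fermat.Agent.S28_helper17_RELF
import Fermat.Agent.S28_helper5_GCONJ
import Fermat.Agent.S28_helper7_UNITDATA_Core
import Fermat.Agent.S28_helper25_HD
import Fermat.Agent.S28_helper25_SPANQ
import Fermat.Agent.G_helper1_G4N
import Fermat.Agent.S20_helper29_A1

/-!
# S35, piece (I2) = termination, part A (helper29): the modular unit over `ℚ`

`V = (Δ(Nz)-quotient)` of S28 (`V = qL (GN N) / DeltaL ^ k0`), for the level `N`:

* `S35I2A_descent` : descent of membership from `ℂ` to `ℚ`: a rational Laurent series whose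
  image lies in `laurentBaseChange ℂ F₀` lies in `F₀`;
* `S35I2A_unit` : there are `m > 0` (for `N ≥ 2`), an integral power series `U` with constant
  coefficient `1`, polynomials `P i ∈ ℚ[X]` with `P 0 = 1`, `P n = C u`, `u ≠ 0`, such that
  `V := X ^ m U` lies in the function field `ℚ(j(q^d) : d ∣ N)` and
  `∑ i ≤ n, P i (j) V ^ (n - i) = 0`  (so `V` and `V⁻¹` are integral over `ℚ[j]`).
-/

set_option autoImplicit false
set_option linter.unusedVariables false
set_option linter.unusedSectionVars false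
set_option linter.style.haveILetI false

open UpperHalfPlane ModularForm CongruenceSubgroup
open scoped MatrixGroups ModularForm Manifold
open Fermat.Agent.S20 Fermat.Agent.S28_helper14_Defs Fermat.Agent.S28_helper14_ADefs ModularCurve
open Polynomial

noncomputable section

namespace Fermat.Agent.S35_helper29_I2A

/-! ### Descent of membership from `ℂ` to `ℚ` -/

theorem S35I2A_coeff_lc (l : LaurentSeries ℚ →₀ ℂ) (k : ℤ) :
    (Finsupp.linearCombination ℂ (⇑(coeffEmb ℂ)) l).coeff k =
      l.sum fun f c => c * algebraMap ℚ ℂ (f.coeff k) := by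
  rw [Finsupp.linearCombination_apply, Finsupp.sum, Finsupp.sum, HahnSeries.coeff_sum]
  refine Finset.sum_congr rfl fun f _ => ?_
  rw [HahnSeries.coeff_smul, coeffEmb_coeff, smul_eq_mul]

theorem S35I2A_C_mem (F₀ : IntermediateField ℚ (LaurentSeries ℚ)) (c : ℚ) :
    (HahnSeries.C c : LaurentSeries ℚ) ∈ F₀ := by
  have h := F₀.algebraMap_mem c
  rwa [algebraMap_laurentSeries_eq_single] at h

theorem S35I2A_descent (F₀ : IntermediateField ℚ (LaurentSeries ℚ)) (x : LaurentSeries ℚ)
    (hx : coeffEmb ℂ x ∈ laurentBaseChange ℂ F₀) : x ∈ F₀ := by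
  classical
  unfold laurentBaseChange at hx
  rw [IntermediateField.mem_adjoin_iff_div] at hx
  obtain ⟨r, hr, s, hs, hxrs⟩ := hx
  -- the span of the image is closed under multiplication
  have hmul1 : ∀ a' ∈ F₀, ∀ b ∈ Submodule.span ℂ (⇑(coeffEmb ℂ) '' (F₀ : Set (LaurentSeries ℚ))),
      coeffEmb ℂ a' * b ∈ Submodule.span ℂ (⇑(coeffEmb ℂ) '' (F₀ : Set (LaurentSeries ℚ))) := by
    intro a' ha' b hb
    induction hb using Submodule.span_induction with
    | mem b hb =>
      obtain ⟨b', hb', rfl⟩ := hb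
      exact Submodule.subset_span ⟨a' * b', F₀.mul_mem ha' hb', map_mul _ _ _⟩
    | zero => rw [mul_zero]; exact Submodule.zero_mem _
    | add b₁ b₂ _ _ h₁ h₂ => rw [mul_add]; exact Submodule.add_mem _ h₁ h₂
    | smul c b _ h =>
      have : coeffEmb ℂ a' * (c • b) = c • (coeffEmb ℂ a' * b) := by
        rw [← HahnSeries.C_mul_eq_smul, ← HahnSeries.C_mul_eq_smul]; ring
      rw [this]
      exact Submodule.smul_mem _ _ h
  have hmul : ∀ a ∈ Submodule.span ℂ (⇑(coeffEmb ℂ) '' (F₀ : Set (LaurentSeries ℚ))),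
      ∀ b ∈ Submodule.span ℂ (⇑(coeffEmb ℂ) '' (F₀ : Set (LaurentSeries ℚ))),
      a * b ∈ Submodule.span ℂ (⇑(coeffEmb ℂ) '' (F₀ : Set (LaurentSeries ℚ))) := by
    intro a ha b hb
    induction ha using Submodule.span_induction with
    | mem a ha =>
      obtain ⟨a', ha', rfl⟩ := ha
      exact hmul1 a' ha' b hb
    | zero => rw [zero_mul]; exact Submodule.zero_mem _
    | add a₁ a₂ _ _ h₁ h₂ => rw [add_mul]; exact Submodule.add_mem _ h₁ h₂
    | smul c a _ h =>
      have : (c • a) * b = c • (a * b) := by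
        rw [← HahnSeries.C_mul_eq_smul, ← HahnSeries.C_mul_eq_smul]; ring
      rw [this]
      exact Submodule.smul_mem _ _ h
  -- the algebra generated by the image is its span
  have hmem : ∀ y ∈ Algebra.adjoin ℂ (⇑(coeffEmb ℂ) '' (F₀ : Set (LaurentSeries ℚ))),
      y ∈ Submodule.span ℂ (⇑(coeffEmb ℂ) '' (F₀ : Set (LaurentSeries ℚ))) := by
    intro y hy
    induction hy using Algebra.adjoin_induction with
    | mem y hy => exact Submodule.subset_span hy
    | algebraMap c =>
      have h1 : algebraMap ℂ (LaurentSeries ℂ) c = c • coeffEmb ℂ (1 : LaurentSeries ℚ) := by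
        rw [map_one, ← HahnSeries.C_mul_eq_smul, mul_one, algebraMap_laurentSeries_eq_single]
        rfl
      rw [h1]
      exact Submodule.smul_mem _ _ (Submodule.subset_span ⟨1, F₀.one_mem, rfl⟩)
    | add a b _ _ ha hb => exact Submodule.add_mem _ ha hb
    | mul a b _ _ ha hb => exact hmul a ha b hb
  have hr' := hmem r hr
  have hs' := hmem s hs
  rw [Finsupp.mem_span_image_iff_linearCombination] at hr' hs'
  obtain ⟨lr, hlr, rfl⟩ := hr'
  obtain ⟨ls, hls, rfl⟩ := hs'
  set s := Finsupp.linearCombination ℂ (⇑(coeffEmb ℂ)) ls with hsdef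
  set r := Finsupp.linearCombination ℂ (⇑(coeffEmb ℂ)) lr with hrdef
  by_cases hs0 : s = 0
  · rw [hs0, div_zero] at hxrs
    have hx0 : x = 0 := by
      ext k
      have := congrArg (fun y : LaurentSeries ℂ => y.coeff k) hxrs
      simp only [coeffEmb_coeff, HahnSeries.coeff_zero] at this
      simpa using this
    rw [hx0]; exact F₀.zero_mem
  -- a coefficient of `s` which is not zero
  obtain ⟨n, hn⟩ : ∃ n, s.coeff n ≠ 0 := by
    by_contra hcon
    push Not at hcon
    exact hs0 (HahnSeries.ext (funext hcon))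
  obtain ⟨φ, hφ⟩ : ∃ φ : Module.Dual ℚ ℂ, φ (s.coeff n) ≠ 0 := by
    by_contra hne
    simp only [not_exists, not_not] at hne
    exact hn ((Module.forall_dual_apply_eq_zero_iff ℚ (s.coeff n)).mp hne)
  -- the rational combinations
  set r' : LaurentSeries ℚ := lr.sum fun f c => φ c • f with hr'def
  set s' : LaurentSeries ℚ := ls.sum fun f c => φ c • f with hs'def
  have hr'F : r' ∈ F₀ := by
    rw [hr'def, Finsupp.sum]
    refine sum_mem fun f hf => ?_
    have hfF : f ∈ F₀ := (Finsupp.mem_supported ℂ lr).1 hlr hf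
    rw [← HahnSeries.C_mul_eq_smul]
    exact F₀.mul_mem (S35I2A_C_mem F₀ _) hfF
  have hs'F : s' ∈ F₀ := by
    rw [hs'def, Finsupp.sum]
    refine sum_mem fun f hf => ?_
    have hfF : f ∈ F₀ := (Finsupp.mem_supported ℂ ls).1 hls hf
    rw [← HahnSeries.C_mul_eq_smul]
    exact F₀.mul_mem (S35I2A_C_mem F₀ _) hfF
  have hφmul : ∀ (c : ℂ) (a : ℚ), φ (c * algebraMap ℚ ℂ a) = a * φ c := by
    intro c a
    have : c * algebraMap ℚ ℂ a = a • c := by rw [Algebra.smul_def, mul_comm]
    rw [this, map_smul, smul_eq_mul]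
  have hcoeff_s' : ∀ k, s'.coeff k = φ (s.coeff k) := by
    intro k
    rw [hsdef, S35I2A_coeff_lc, hs'def, Finsupp.sum, Finsupp.sum, HahnSeries.coeff_sum, map_sum]
    refine Finset.sum_congr rfl fun f _ => ?_
    rw [hφmul, HahnSeries.coeff_smul, smul_eq_mul, mul_comm]
  have hcoeff_r' : ∀ k, r'.coeff k = φ (r.coeff k) := by
    intro k
    rw [hrdef, S35I2A_coeff_lc, hr'def, Finsupp.sum, Finsupp.sum, HahnSeries.coeff_sum, map_sum]
    refine Finset.sum_congr rfl fun f _ => ?_
    rw [hφmul, HahnSeries.coeff_smul, smul_eq_mul, mul_comm]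
  have hs'0 : s' ≠ 0 := by
    intro h
    apply hφ
    rw [← hcoeff_s', h, HahnSeries.coeff_zero]
  -- the relation `x * s' = r'`
  have hrel : coeffEmb ℂ x * s = r := by
    rw [hxrs, div_mul_cancel₀ _ hs0]
  have hxs : coeffEmb ℂ x * s = Finsupp.linearCombination ℂ (⇑(coeffEmb ℂ))
      (ls.mapDomain fun f => x * f) := by
    rw [hsdef, Finsupp.linearCombination_apply, Finsupp.linearCombination_mapDomain,
      Finsupp.linearCombination_apply, Finsupp.sum, Finsupp.sum, Finset.mul_sum]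
    refine Finset.sum_congr rfl fun f _ => ?_
    rw [Function.comp_apply, map_mul, ← HahnSeries.C_mul_eq_smul, ← HahnSeries.C_mul_eq_smul]
    ring
  have hxs' : x * s' = (ls.mapDomain fun f => x * f).sum fun f c => φ c • f := by
    rw [hs'def, Finsupp.sum_mapDomain_index (by intro f; simp) (by intro f a b; simp [add_smul]),
      Finsupp.sum, Finsupp.sum, Finset.mul_sum]
    refine Finset.sum_congr rfl fun f _ => ?_
    rw [← HahnSeries.C_mul_eq_smul, ← HahnSeries.C_mul_eq_smul]
    ring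
  have hfinal : x * s' = r' := by
    ext k
    rw [hxs', hcoeff_r', ← hrel, hxs, S35I2A_coeff_lc]
    rw [Finsupp.sum, Finsupp.sum, HahnSeries.coeff_sum, map_sum]
    refine Finset.sum_congr rfl fun f _ => ?_
    rw [hφmul, HahnSeries.coeff_smul, smul_eq_mul, mul_comm]
  have : x = r' / s' := by
    rw [← hfinal, mul_div_cancel_right₀ _ hs'0]
  rw [this]
  exact F₀.div_mem hr'F hs'F

/-! ### The modular unit of level `N` over `ℚ` -/

/-- **The modular unit** `V = qL (G_N) / Δ ^ k₀` of S28, over `ℚ`: it lies in the function field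
of level `N`, and it is a root of a monic polynomial over `ℚ[j]` of degree `n = [SL₂(ℤ) : Γ₀(N)]`
whose constant term is a nonzero constant. -/
theorem S35I2A_unit (N : ℕ) [NeZero N] :
    ∃ (U : PowerSeries ℤ) (P : ℕ → Polynomial ℚ) (u : ℚ),
      PowerSeries.constantCoeff U = 1 ∧ P 0 = 1 ∧ u ≠ 0 ∧
      P (Fintype.card (Q N)) = Polynomial.C u ∧
      (∑ i ∈ Finset.range (Fintype.card (Q N) + 1),
        Polynomial.aeval jq (P i) *
          (Vser ℚ (k0 N * (Fintype.card (Q N) - 1)) U) ^ (Fintype.card (Q N) - i) = 0) ∧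
      Vser ℚ (k0 N * (Fintype.card (Q N) - 1)) U ∈ modularFunctionFieldFull N := by
  classical
  obtain ⟨U, p, u, hU, hpint, hp0, hpdeg, hu, hu', hu0, hpn, hE, hG, hrel⟩ :=
    Fermat.Agent.S28_RELF.exists_rel N
  have hGN : Fermat.Agent.S28_UNITDATA.GNHyp N := Fermat.Agent.S28_GCONJ.isMF_GN N
  have hHd : Fermat.Agent.S28_UNITDATA.HdHyp N := fun d _ hd =>
    ⟨Fermat.Agent.S28_HD.isMF_Hd N d hd, Fermat.Agent.S28_HD.qExpansion_Hd N d hd⟩
  let D : UnitData N :=
    { ι := Fintype.card (Q N)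
      k₀ := k0 N
      hι := Fermat.Agent.S28_UNITDATA.card_Q_pos N
      hk₀ := Fermat.Agent.S28_ORDER.k0_pos N (NeZero.pos N)
      U := U
      hU := hU
      p := p
      hp_int := hpint
      hp0 := hp0
      hp_deg := hpdeg
      u := u
      hu := hu
      hu' := hu'
      hu0 := hu0
      hpι := hpn
      rel := hrel
      int := fun d hd _ => Fermat.Agent.S28_UNITDATA.int_aux_of N hGN hHd hE hG d hd }
  obtain ⟨P, hP0, hPmap, hPrel⟩ := Fermat.Agent.S28_SPANQ.exists_rat_rel D
  -- the constant term is rational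
  have hPn : (P (Fintype.card (Q N))).map (algebraMap ℚ ℂ) = Polynomial.C u := by
    rw [hPmap (Fintype.card (Q N)) le_rfl]; exact hpn
  have hdeg0 : (P (Fintype.card (Q N))).natDegree = 0 := by
    have h1 := congrArg Polynomial.natDegree hPn
    rwa [Polynomial.natDegree_map_eq_of_injective (algebraMap ℚ ℂ).injective,
      Polynomial.natDegree_C] at h1
  have hPC : P (Fintype.card (Q N)) = Polynomial.C ((P (Fintype.card (Q N))).coeff 0) :=
    Polynomial.eq_C_of_natDegree_eq_zero hdeg0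
  have hu'0 : (P (Fintype.card (Q N))).coeff 0 ≠ 0 := by
    intro h0
    rw [hPC, h0, map_zero, Polynomial.map_zero] at hPn
    exact hu0 (Polynomial.C_eq_zero.mp hPn.symm)
  refine ⟨U, P, (P (Fintype.card (Q N))).coeff 0, hU, hP0, hu'0, hPC, hPrel, ?_⟩
  -- membership: over `ℂ` by G4, then descent
  apply S35I2A_descent
  rw [Fermat.Agent.S28_RELRAT.coeffEmb_Vser]
  have hΔ : IsMF N (12 * (k0 N : ℤ)) (discriminant ^ (k0 N)) :=
    ((isMF1_discriminant.pow (k0 N)).isMF (N := N)).cast (by ring)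
  have hAnΔ : Fermat.Agent.S28_RELF.An discriminant :=
    Fermat.Agent.S28_RELF.an_of_isMF1 isMF1_discriminant
  have hqΔ : Fermat.Agent.S28_RELF.qL (discriminant ^ (k0 N)) = DeltaL ^ (k0 N) := by
    rw [Fermat.Agent.S28_RELF.qL_pow hAnΔ, Fermat.Agent.S28_RELF.qL_discriminant]
  have hb0 : (discriminant ^ (k0 N) : ℍ → ℂ) ≠ 0 := by
    intro h0
    have h1 : Fermat.Agent.S28_RELF.qL (discriminant ^ (k0 N)) = 0 := by
      rw [h0]; exact Fermat.Agent.S28_RELF.qL_zero
    rw [hqΔ] at h1
    exact pow_ne_zero _ Fermat.Agent.S28_LEVEL1.DeltaL_ne_zero h1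
  exact Fermat.Agent.G_helper1_G4N.PG_G4N_mem N (12 * (k0 N : ℤ)) (GN N) (discriminant ^ (k0 N))
    hGN hΔ hb0 _ (by rw [hqΔ]; exact hG.symm)

/-- the index of `Γ₀(N)` is at least `2` for `N ≥ 2` -/
theorem S35I2A_card_Q (N : ℕ) [NeZero N] (hN : 2 ≤ N) : 2 ≤ Fintype.card (Q N) := by
  have h1 : Fintype.card (Q N) = (Gamma0 N).index := by
    rw [Subgroup.index, ← Nat.card_eq_fintype_card]
  rw [h1, Fermat.Agent.S20_helper29_A1.index_Gamma0 N (NeZero.ne N)]
  -- `ψ(N) ≥ N`
  unfold ModularCurve.dedekindPsi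
  have h1mem : (1 : ℕ) ∈ {d ∈ N.divisors | Squarefree d} :=
    Finset.mem_filter.2 ⟨Nat.mem_divisors.2 ⟨one_dvd _, NeZero.ne N⟩, squarefree_one⟩
  have h2 : N / 1 ≤ ∑ d ∈ N.divisors with Squarefree d, N / d :=
    Finset.single_le_sum (f := fun d => N / d) (fun _ _ => Nat.zero_le _) h1mem
  rw [Nat.div_one] at h2
  omega

end Fermat.Agent.S35_helper29_I2A
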