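import Fermat.Agent.S35_helper29_I2A
import Fermat.Agent.S28_helper29_INDEPMOD
import Fermat.Agent.S18_helper18_CHARTV
import Fermat.Agent.S18_helper13_GAUSS2

/-!
# S35, piece (I2) = termination, part B (helper29): the modular unit over a field `K1`

* `S35I2B_unit` : the modular unit `V = X ^ m U` of level `N` over any field `K1` of
  characteristic `0`: it lies in `K1(j(q^d) : d ∣ N)` and is a root of a monic polynomial over
  `K1[j]` whose constant term is a nonzero constant;
* `S35I2B_mem_of_rel`, `S35I2B_inv_mem_of_rel` : `V` and `V⁻¹` lie in every subring `W` which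
  contains the coefficients of the relation and is "a valuation ring at `V`";
* `S35I2B_Vser_mem_Vring`, `S35I2B_redFun_Vser`, `S35I2B_Vser_inv_mem_Vring` : `V` is a unit of
  the Gauss valuation ring and its reduction is `X ^ m U` over the residue field.
-/

set_option autoImplicit false
set_option linter.unusedVariables false
set_option linter.unusedSectionVars false
set_option linter.style.haveILetI false

open Fermat.Agent.S20 Fermat.Agent.S28_helper14_Defs Fermat.Agent.S28_helper14_ADefs ModularCurve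
open Fermat.Agent.S18_helper18_TENSORO Fermat.Agent.S18_helper13_GAUSS
open Polynomial

noncomputable section

namespace Fermat.Agent.S35_helper29_I2B

/-! ### The modular unit over `K1` -/

theorem S35I2B_unit (K1 : Type) [Field K1] [CharZero K1] (N : ℕ) [NeZero N] :
    ∃ (U : PowerSeries ℤ) (P : ℕ → Polynomial K1) (u : K1),
      PowerSeries.constantCoeff U = 1 ∧ P 0 = 1 ∧ u ≠ 0 ∧
      P (Fintype.card (Q N)) = Polynomial.C u ∧
      (∑ i ∈ Finset.range (Fintype.card (Q N) + 1),
        Polynomial.aeval (jqModC K1) (P i) *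
          (Vser K1 (k0 N * (Fintype.card (Q N) - 1)) U) ^ (Fintype.card (Q N) - i) = 0) ∧
      Vser K1 (k0 N * (Fintype.card (Q N) - 1)) U ∈ modularFunctionFieldFullC K1 N := by
  obtain ⟨U, P, u, hU, hP0, hu, hPn, hrel, hmem⟩ := Fermat.Agent.S35_helper29_I2A.S35I2A_unit N
  refine ⟨U, fun i => (P i).map (algebraMap ℚ K1), algebraMap ℚ K1 u, hU, ?_, ?_, ?_, ?_, ?_⟩
  · show (P 0).map (algebraMap ℚ K1) = 1
    rw [hP0, Polynomial.map_one]
  · intro h
    exact hu ((algebraMap ℚ K1).injective (by rw [h, map_zero]))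
  · show (P (Fintype.card (Q N))).map (algebraMap ℚ K1) = _
    rw [hPn, Polynomial.map_C]
  · have h1 := congrArg (coeffMap (algebraMap ℚ K1)) hrel
    rw [← jqModC_rat, Fermat.Agent.S28_INDEPMOD.coeffMap_rel, map_zero] at h1
    exact h1
  · have h1 := Fermat.Agent.S18_helper18_CHARTV.embQ_mem_fullC (K1 := K1) N hmem
    rw [embQ, Fermat.Agent.S28_INDEPMOD.coeffMap_Vser] at h1
    exact h1

/-! ### Integrality in valuation form -/

section Rel

variable {L : Type*} [Field L]

/-- a root of a monic polynomial with coefficients in `W` lies in `W`, if `W` contains it or its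
inverse -/
theorem S35I2B_mem_of_rel (W : Subring L) (x : L) (n : ℕ) (a : ℕ → L)
    (ha : ∀ i, a i ∈ W) (ha0 : a 0 = 1)
    (hrel : ∑ i ∈ Finset.range (n + 1), a i * x ^ (n - i) = 0)
    (hW : x ∈ W ∨ x⁻¹ ∈ W) : x ∈ W := by
  rcases hW with h | h
  · exact h
  by_cases hx0 : x = 0
  · rw [hx0]; exact W.zero_mem
  rcases Nat.eq_zero_or_pos n with hn | hn
  · subst hn
    simp [ha0] at hrel
  rw [Finset.sum_range_succ'] at hrel
  simp only [Nat.sub_zero, ha0, one_mul] at hrel
  have h1 : x ^ n = -∑ i ∈ Finset.range n, a (i + 1) * x ^ (n - (i + 1)) := by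
    rw [eq_neg_iff_add_eq_zero, add_comm]; exact hrel
  have key : ∀ i ∈ Finset.range n,
      a (i + 1) * x ^ (n - (i + 1)) * (x⁻¹) ^ (n - 1) = a (i + 1) * (x⁻¹) ^ i := by
    intro i hi
    have hi' := Finset.mem_range.1 hi
    have h4 : (x⁻¹) ^ (n - 1) = (x⁻¹) ^ (n - (i + 1)) * (x⁻¹) ^ i := by
      rw [← pow_add]; congr 1; omega
    rw [h4, mul_assoc, ← mul_assoc (x ^ (n - (i + 1))), inv_pow,
      mul_inv_cancel₀ (pow_ne_zero _ hx0), one_mul, inv_pow]
  have h3 : x = x ^ n * (x⁻¹) ^ (n - 1) := by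
    have : x ^ n = x ^ (n - 1) * x := by
      rw [← pow_succ]; congr 1; omega
    rw [this, inv_pow, mul_assoc, mul_comm x, ← mul_assoc,
      mul_inv_cancel₀ (pow_ne_zero _ hx0), one_mul]
  have h2 : x = -∑ i ∈ Finset.range n, a (i + 1) * (x⁻¹) ^ i := by
    calc x = x ^ n * (x⁻¹) ^ (n - 1) := h3
      _ = -∑ i ∈ Finset.range n, a (i + 1) * x ^ (n - (i + 1)) * (x⁻¹) ^ (n - 1) := by
          rw [h1, neg_mul, Finset.sum_mul]
      _ = -∑ i ∈ Finset.range n, a (i + 1) * (x⁻¹) ^ i := by
          rw [Finset.sum_congr rfl key]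
  rw [h2]
  refine W.neg_mem (W.sum_mem fun i _ => W.mul_mem (ha _) (W.pow_mem h _))

/-- the inverse of a root of a polynomial with coefficients in `W` and constant term a unit of
`W` lies in `W`, if `W` contains the root or its inverse -/
theorem S35I2B_inv_mem_of_rel (W : Subring L) (x : L) (n : ℕ) (a : ℕ → L)
    (ha : ∀ i, a i ∈ W) (hu : a n ≠ 0) (hu' : (a n)⁻¹ ∈ W)
    (hrel : ∑ i ∈ Finset.range (n + 1), a i * x ^ (n - i) = 0)
    (hW : x ∈ W ∨ x⁻¹ ∈ W) : x⁻¹ ∈ W := by
  rcases hW with h | h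
  swap
  · exact h
  rw [Finset.sum_range_succ] at hrel
  simp only [Nat.sub_self, pow_zero, mul_one] at hrel
  have h1 : a n = x * -∑ i ∈ Finset.range n, a i * x ^ (n - i - 1) := by
    rw [mul_neg, Finset.mul_sum, eq_neg_iff_add_eq_zero, add_comm, ← hrel]
    congr 1
    refine Finset.sum_congr rfl fun i hi => ?_
    have hi' := Finset.mem_range.1 hi
    have : x ^ (n - i) = x ^ (n - i - 1) * x := by
      rw [← pow_succ]; congr 1; omega
    rw [this]; ring
  have hx0 : x ≠ 0 := by
    intro h0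
    rw [h0, zero_mul] at h1
    exact hu h1
  have h2 : x⁻¹ = (-∑ i ∈ Finset.range n, a i * x ^ (n - i - 1)) * (a n)⁻¹ := by
    rw [eq_mul_inv_iff_mul_eq₀ hu, h1, ← mul_assoc, inv_mul_cancel₀ hx0, one_mul]
  rw [h2]
  exact W.mul_mem (W.neg_mem (W.sum_mem fun i _ => W.mul_mem (ha _) (W.pow_mem h _))) hu'

end Rel

/-! ### The Gauss valuation of the modular unit -/

section Gauss

variable {O K κ : Type*} [CommRing O] [IsDomain O] [Field K] [Field κ] (D : GaussData O K κ)

theorem S35I2B_Vser_eq_incS (m : ℕ) (U : PowerSeries ℤ) :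
    Vser K m U = D.incS (Vser O m U) := by
  rw [GaussData.incS, Fermat.Agent.S28_INDEPMOD.coeffMap_Vser]

theorem S35I2B_Vser_mem_Vring (m : ℕ) (U : PowerSeries ℤ) : Vser K m U ∈ D.Vring := by
  rw [S35I2B_Vser_eq_incS D]
  exact D.incS_mem_Vring _

theorem S35I2B_redFun_Vser (m : ℕ) (U : PowerSeries ℤ) :
    D.redFun (Vser K m U) = Vser κ m U := by
  rw [S35I2B_Vser_eq_incS D, GaussData.redFun_incS, GaussData.redS,
    Fermat.Agent.S28_INDEPMOD.coeffMap_Vser]

theorem S35I2B_Vser_ne_zero (k : Type*) [Field k] (m : ℕ) (U : PowerSeries ℤ)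
    (hU : PowerSeries.constantCoeff U = 1) : Vser k m U ≠ 0 := by
  intro h
  have h1 := Fermat.Agent.S28_INDEPC.orderTop_Vser k m U hU
  rw [h, HahnSeries.orderTop_zero] at h1
  exact WithTop.top_ne_coe h1

theorem S35I2B_Vser_inv_mem_Vring (m : ℕ) (U : PowerSeries ℤ)
    (hU : PowerSeries.constantCoeff U = 1) : (Vser K m U)⁻¹ ∈ D.Vring := by
  apply D.inv_mem_Vring (S35I2B_Vser_mem_Vring D m U)
  rw [S35I2B_redFun_Vser]
  exact S35I2B_Vser_ne_zero κ m U hU

end Gauss

end Fermat.Agent.S35_helper29_I2B
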