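import Mathlib
import Fermat.Agent.S18_helper13_GAUSS2
import Fermat.Agent.S18_helper13_REDPOW
import Fermat.Agent.S18_helper26_CONST

/-!
# S37, B1-KAPPA, route (E), part 1: the residue field of the Gauss valuation by degree count

Carrier-neutral, over an arbitrary `GaussData D` (helper13 GAUSS) such that `K` consists of
fractions of `O` and the residue map is surjective.

* `S37KA_level_one` : the reduction of an element of `K(j)` which lies in the Gauss valuation
  ring belongs to `κ(j)` (the Gauss norm of `p(j)` is the Gauss norm of the polynomial `p`);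
* `S37KA_kappa_of_finrank_le` : if `[F1 : K(j)] ≤ [F_κ : κ(j)]` then the reduction of every
  element of the Gauss valuation ring of `F1 = modularFunctionFieldFullC K N` lies in
  `F_κ = modularFunctionFieldFullC κ N`.
-/

set_option autoImplicit false
set_option linter.unusedSectionVars false
set_option linter.style.haveILetI false

open ModularCurve Polynomial IntermediateField
open Fermat.Agent.S18_helper13_GAUSS Fermat.Agent.S18_helper13_REDPOW
  Fermat.Agent.S18_helper26_CONST

noncomputable section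

namespace Fermat.Agent.S37_helper13_KAPPA1

variable {O K κ : Type*} [CommRing O] [IsDomain O] [Field K] [Field κ] (D : GaussData O K κ)

/-! ### Normalisation of polynomials over `O` -/

/-- coefficientwise exact division by `π` -/
def S37KA_divPoly (p : O[X]) : O[X] := ∑ i ∈ p.support, monomial i (D.divπ (p.coeff i))

theorem S37KA_coeff_divPoly (p : O[X]) (i : ℕ) :
    (S37KA_divPoly D p).coeff i = D.divπ (p.coeff i) := by
  classical
  rw [S37KA_divPoly, Polynomial.finsetSum_coeff]
  simp only [coeff_monomial]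
  rw [Finset.sum_ite_eq' p.support i]
  split_ifs with h
  · rfl
  · rw [Polynomial.notMem_support_iff.mp h, map_zero]

theorem S37KA_eq_C_mul_of_map_eq_zero {p : O[X]} (h : p.map D.res = 0) :
    p = C D.π * S37KA_divPoly D p := by
  ext i
  rw [coeff_C_mul, S37KA_coeff_divPoly]
  have hi : D.res (p.coeff i) = 0 := by
    have := congrArg (fun q => q.coeff i) h
    simpa [coeff_map] using this
  exact (D.mul_divπ hi).symm

theorem S37KA_exists_primitive_aux (k : ℕ) : ∀ (p : O[X]) (m : ℕ) (u : O),
    p.coeff m = D.π ^ k * u → D.res u ≠ 0 →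
    ∃ (n : ℕ) (p0 : O[X]), p = C (D.π ^ n) * p0 ∧ p0.map D.res ≠ 0 := by
  induction k with
  | zero =>
    intro p m u hm hu
    refine ⟨0, p, by simp, fun h0 => hu ?_⟩
    have := congrArg (fun q => q.coeff m) h0
    simp only [coeff_map, coeff_zero] at this
    rwa [hm, pow_zero, one_mul] at this
  | succ k ih =>
    intro p m u hm hu
    by_cases h0 : p.map D.res = 0
    · have hp := S37KA_eq_C_mul_of_map_eq_zero D h0
      set p' := S37KA_divPoly D p with hp'
      have hm' : p'.coeff m = D.π ^ k * u := by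
        apply mul_left_cancel₀ D.π_ne_zero
        rw [← coeff_C_mul, ← hp, hm, pow_succ']
        ring
      obtain ⟨n, p0, h1, h2⟩ := ih p' m u hm' hu
      refine ⟨n + 1, p0, ?_, h2⟩
      rw [hp, h1, pow_succ', map_mul, mul_assoc]
    · exact ⟨0, p, by simp, h0⟩

/-- every nonzero polynomial over `O` is `π ^ n` times a polynomial with nonzero reduction -/
theorem S37KA_exists_primitive (p : O[X]) (hp : p ≠ 0) :
    ∃ (n : ℕ) (p0 : O[X]), p = C (D.π ^ n) * p0 ∧ p0.map D.res ≠ 0 := by
  obtain ⟨m, hm⟩ : ∃ m, p.coeff m ≠ 0 := by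
    by_contra h
    apply hp
    ext m
    by_contra hm
    exact h ⟨m, hm⟩
  obtain ⟨k, u, hku, hu⟩ := D.exists_normalize (p.coeff m) hm
  exact S37KA_exists_primitive_aux D k p m u hku hu

/-- common denominators -/
theorem S37KA_exists_den (hK : ∀ c : K, ∃ a b : O, b ≠ 0 ∧ D.inc b * c = D.inc a) (p : K[X]) :
    ∃ (β : O) (p1 : O[X]), β ≠ 0 ∧ C (D.inc β) * p = p1.map D.inc := by
  induction p using Polynomial.induction_on' with
  | add p q hp hq =>
    obtain ⟨β, p1, hβ, h1⟩ := hp
    obtain ⟨β', q1, hβ', h2⟩ := hq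
    refine ⟨β * β', C β' * p1 + C β * q1, mul_ne_zero hβ hβ', ?_⟩
    rw [Polynomial.map_add, Polynomial.map_mul, Polynomial.map_mul, map_C, map_C, ← h1, ← h2,
      map_mul, map_mul]
    ring
  | monomial n c =>
    obtain ⟨a, b, hb, hab⟩ := hK c
    refine ⟨b, monomial n a, hb, ?_⟩
    rw [map_monomial, C_mul_monomial, hab]

/-! ### Evaluation at `j` -/

/-- the value at `j` of a polynomial over `O`, as a series over `O` -/
def S37KA_valO (p : O[X]) : LaurentSeries O := p.eval₂ HahnSeries.C (jqModC O)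

omit [IsDomain O] in
theorem S37KA_coeffMap_valO {S : Type*} [CommRing S] (f : O →+* S) (p : O[X]) :
    coeffMap f (S37KA_valO p) = (p.map f).eval₂ HahnSeries.C (jqModC S) := by
  rw [S37KA_valO, Polynomial.hom_eval₂, Polynomial.eval₂_map, coeffMap_jqModC]
  congr 1
  ext a
  simp [HahnSeries.C_apply, coeffMap_single]

theorem S37KA_aeval_eq {k : Type*} [Field k] (p : k[X]) (x : LaurentSeries k) :
    aeval x p = p.eval₂ HahnSeries.C x := by
  rw [aeval_def]
  congr 1
  ext a
  rw [algebraMap_laurentSeries_eq_single, HahnSeries.C_apply]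

theorem S37KA_transcendental (k : Type*) [Field k] : Transcendental k (jqModC k) := by
  intro h
  obtain ⟨c, hc⟩ := Fermat.Agent.S18_helper13_GAUSS.mem_range_C_of_isAlgebraic h
  have h1 := coeff_jqModC_neg_one k
  rw [hc, HahnSeries.C_apply, HahnSeries.coeff_single_of_ne (by norm_num)] at h1
  exact zero_ne_one h1

theorem S37KA_eval₂_ne_zero {k : Type*} [Field k] {p : k[X]} (hp : p ≠ 0) :
    p.eval₂ HahnSeries.C (jqModC k) ≠ 0 := by
  rw [← S37KA_aeval_eq]
  intro h
  exact S37KA_transcendental k ⟨p, hp, h⟩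

theorem S37KA_eval₂_mem {k : Type*} [Field k] (p : k[X]) :
    p.eval₂ HahnSeries.C (jqModC k) ∈ IntermediateField.adjoin k {jqModC k} := by
  rw [← S37KA_aeval_eq]
  exact IntermediateField.algebra_adjoin_le_adjoin k _ (aeval_mem_adjoin_singleton k (jqModC k))

theorem S37KA_incS_C (a : O) : D.incS (HahnSeries.C a) = HahnSeries.C (D.inc a) := by
  show coeffMap D.inc (HahnSeries.C a) = _
  rw [HahnSeries.C_apply, coeffMap_single, HahnSeries.C_apply]

theorem S37KA_redS_C (a : O) : D.redS (HahnSeries.C a) = HahnSeries.C (D.res a) := by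
  show coeffMap D.res (HahnSeries.C a) = _
  rw [HahnSeries.C_apply, coeffMap_single, HahnSeries.C_apply]

theorem S37KA_C_mem {k : Type*} [Field k] (c : k) :
    (HahnSeries.C c : LaurentSeries k) ∈ IntermediateField.adjoin k {jqModC k} := by
  have h := (IntermediateField.adjoin k {jqModC k}).algebraMap_mem c
  rwa [algebraMap_laurentSeries_eq_single, ← HahnSeries.C_apply] at h

/-- normal form of the value at `j` of a nonzero polynomial over `K` -/
theorem S37KA_normal_form (hK : ∀ c : K, ∃ a b : O, b ≠ 0 ∧ D.inc b * c = D.inc a)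
    {p : K[X]} (hp : p ≠ 0) :
    ∃ (a b : ℕ) (w1 w2 : LaurentSeries O),
      D.redS w1 ≠ 0 ∧ D.redS w2 ≠ 0 ∧
      D.redS w1 ∈ IntermediateField.adjoin κ {jqModC κ} ∧
      D.redS w2 ∈ IntermediateField.adjoin κ {jqModC κ} ∧
      D.πK ^ a * D.incS w1 * p.eval₂ HahnSeries.C (jqModC K) = D.πK ^ b * D.incS w2 := by
  obtain ⟨β, p1, hβ, h1⟩ := S37KA_exists_den D hK p
  have hp1 : p1 ≠ 0 := by
    rintro rfl
    rw [Polynomial.map_zero] at h1
    rcases mul_eq_zero.mp h1 with h | h
    · rw [C_eq_zero] at h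
      exact hβ (D.inc_injective (by rw [h, map_zero]))
    · exact hp h
  obtain ⟨n, p0, rfl, hp0⟩ := S37KA_exists_primitive D p1 hp1
  obtain ⟨e, u, rfl, hu⟩ := D.exists_normalize β hβ
  refine ⟨e, n, HahnSeries.C u, S37KA_valO p0, ?_, ?_, ?_, ?_, ?_⟩
  · rw [S37KA_redS_C]
    intro h
    apply hu
    have := congrArg (fun x => x.coeff 0) h
    simpa [HahnSeries.C_apply] using this
  · show coeffMap D.res (S37KA_valO p0) ≠ 0
    rw [S37KA_coeffMap_valO]
    exact S37KA_eval₂_ne_zero hp0
  · rw [S37KA_redS_C]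
    exact S37KA_C_mem _
  · show coeffMap D.res (S37KA_valO p0) ∈ _
    rw [S37KA_coeffMap_valO]
    exact S37KA_eval₂_mem _
  · rw [Polynomial.map_mul, Polynomial.map_C] at h1
    have h2 := congrArg (fun q : K[X] => q.eval₂ HahnSeries.C (jqModC K)) h1
    simp only [Polynomial.eval₂_mul, Polynomial.eval₂_C] at h2
    rw [map_mul, map_mul, map_pow, map_pow, map_pow, map_pow] at h2
    have h3 : D.incS (S37KA_valO p0) = (p0.map D.inc).eval₂ HahnSeries.C (jqModC K) :=
      S37KA_coeffMap_valO D.inc p0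
    rw [S37KA_incS_C, h3]
    have h4 : D.πK = HahnSeries.C (D.inc D.π) := rfl
    rw [h4]
    exact h2

/-- **Level one.** The residue field of the Gauss valuation on `K(j)` is `κ(j)`. -/
theorem S37KA_level_one (hK : ∀ c : K, ∃ a b : O, b ≠ 0 ∧ D.inc b * c = D.inc a)
    {c : LaurentSeries K} (hc : c ∈ IntermediateField.adjoin K {jqModC K})
    (hcV : c ∈ D.Vring) :
    D.redFun c ∈ IntermediateField.adjoin κ {jqModC κ} := by
  rcases eq_or_ne c 0 with rfl | hc0
  · rw [D.redFun_zero]
    exact zero_mem _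
  obtain ⟨r, s, hrs⟩ := (IntermediateField.mem_adjoin_simple_iff K c).mp hc
  rw [S37KA_aeval_eq, S37KA_aeval_eq] at hrs
  have hr : r ≠ 0 := by
    rintro rfl
    apply hc0
    rw [hrs, Polynomial.eval₂_zero, zero_div]
  have hs : s ≠ 0 := by
    rintro rfl
    apply hc0
    rw [hrs, Polynomial.eval₂_zero, div_zero]
  obtain ⟨a, b, w1, w2, hw1, hw2, hw1m, hw2m, hr'⟩ := S37KA_normal_form D hK hr
  obtain ⟨a', b', w1', w2', hw1', hw2', hw1m', hw2m', hs'⟩ := S37KA_normal_form D hK hs
  have hsj : s.eval₂ HahnSeries.C (jqModC K) ≠ 0 := S37KA_eval₂_ne_zero hs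
  have hπ := D.πK_ne_zero
  have hB : D.redS (w1 * w2') ≠ 0 := by rw [map_mul]; exact mul_ne_zero hw1 hw2'
  have hA : D.redS (w2 * w1') ≠ 0 := by rw [map_mul]; exact mul_ne_zero hw2 hw1'
  have hB0 : D.incS (w1 * w2') ≠ 0 := D.incS_ne_zero (D.ne_zero_of_redS_ne_zero hB)
  have hcS : c * s.eval₂ HahnSeries.C (jqModC K) = r.eval₂ HahnSeries.C (jqModC K) := by
    rw [hrs]
    exact div_mul_cancel₀ _ hsj
  have hw1'0 : D.incS w1' ≠ 0 := D.incS_ne_zero (D.ne_zero_of_redS_ne_zero hw1')
  have hX : D.πK ^ a' * D.incS w1' * s.eval₂ HahnSeries.C (jqModC K) ≠ 0 :=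
    mul_ne_zero (mul_ne_zero (pow_ne_zero _ hπ) hw1'0) hsj
  have hr'' : D.πK ^ a * D.incS w1 * (c * s.eval₂ HahnSeries.C (jqModC K)) =
      D.πK ^ b * D.incS w2 := by rw [hcS]; exact hr'
  have key : D.πK ^ (a + b') * D.incS (w1 * w2') * c = D.πK ^ (b + a') * D.incS (w2 * w1') := by
    apply mul_right_cancel₀ hX
    rw [map_mul, map_mul, pow_add, pow_add]
    linear_combination (D.πK ^ b' * D.incS w2' * D.πK ^ a' * D.incS w1') * hr''
      - (D.πK ^ b * D.πK ^ a' * D.incS w2 * D.incS w1') * hs'
  set W : LaurentSeries K := D.incS (w2 * w1') / D.incS (w1 * w2') with hW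
  have hWeq : D.incS (w1 * w2') * W = D.incS (w2 * w1') := by
    rw [hW]; field_simp
  have hWV : W ∈ D.Vring := ⟨_, _, hB, hWeq⟩
  have hWred : D.redFun W = D.redS (w2 * w1') / D.redS (w1 * w2') := D.redFun_eq hB hWeq
  have hWmem : D.redFun W ∈ IntermediateField.adjoin κ {jqModC κ} := by
    rw [hWred, map_mul, map_mul]
    exact div_mem (mul_mem hw2m hw1m') (mul_mem hw1m hw2m')
  have hWne : D.redFun W ≠ 0 := by
    rw [hWred]
    exact div_ne_zero hA hB
  have hπred : D.redFun D.πK = 0 := by
    have := D.redFun_πK_mul (Subring.one_mem _)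
    rwa [mul_one] at this
  have key2 : D.πK ^ (a + b') * c = D.πK ^ (b + a') * W := by
    apply mul_left_cancel₀ hB0
    linear_combination key - D.πK ^ (b + a') * hWeq
  rcases le_or_gt (a + b') (b + a') with hle | hlt
  · obtain ⟨t, ht⟩ := Nat.exists_eq_add_of_le hle
    have hc' : c = D.πK ^ t * W := by
      rw [ht, pow_add D.πK (a + b') t, mul_assoc] at key2
      exact mul_left_cancel₀ (pow_ne_zero (a + b') hπ) key2
    have h1 : D.redFun c = D.redFun D.πK ^ t * D.redFun W := by
      rw [hc', D.redFun_mul (D.Vring.pow_mem D.πK_mem_Vring t) hWV,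
        D.redFun_pow D.πK_mem_Vring]
    rw [h1, hπred]
    exact mul_mem (pow_mem (zero_mem _) t) hWmem
  · exfalso
    obtain ⟨t, ht⟩ := Nat.exists_eq_add_of_lt hlt
    have hc' : D.πK ^ (t + 1) * c = W := by
      rw [ht, show b + a' + t + 1 = (b + a') + (t + 1) by ring,
        pow_add D.πK (b + a') (t + 1), mul_assoc] at key2
      exact mul_left_cancel₀ (pow_ne_zero (b + a') hπ) key2
    apply hWne
    rw [← hc', D.redFun_mul (D.Vring.pow_mem D.πK_mem_Vring (t + 1)) hcV,
      D.redFun_pow D.πK_mem_Vring, hπred, pow_succ, mul_zero, zero_mul]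

theorem S37KA_redFun_sum {ι : Type*} (s : Finset ι) (f : ι → LaurentSeries K)
    (hf : ∀ i ∈ s, f i ∈ D.Vring) : D.redFun (∑ i ∈ s, f i) = ∑ i ∈ s, D.redFun (f i) := by
  classical
  induction s using Finset.induction_on with
  | empty => simp [D.redFun_zero]
  | insert a s ha ih =>
    rw [Finset.sum_insert ha, Finset.sum_insert ha,
      D.redFun_add (hf a (Finset.mem_insert_self a s))
        (D.Vring.sum_mem fun i hi => hf i (Finset.mem_insert_of_mem hi)),
      ih fun i hi => hf i (Finset.mem_insert_of_mem hi)]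

/-! ### The dimension count -/

section Coe

variable (k : Type*) [Field k] (N : ℕ) [NeZero N]

theorem S37KA_map_adjoin :
    (k⟮S18P15_jbar k N⟯).map (modularFunctionFieldFullC k N).val =
      IntermediateField.adjoin k {jqModC k} := by
  rw [IntermediateField.adjoin_map, Set.image_singleton]
  rfl

theorem S37KA_coe_mem (c : modularFunctionFieldFullC k N) (hc : c ∈ k⟮S18P15_jbar k N⟯) :
    (c : LaurentSeries k) ∈ IntermediateField.adjoin k {jqModC k} := by
  rw [← S37KA_map_adjoin k N]
  exact ⟨c, hc, rfl⟩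

theorem S37KA_exists_coe {x : LaurentSeries k} (hx : x ∈ IntermediateField.adjoin k {jqModC k}) :
    ∃ c : modularFunctionFieldFullC k N, c ∈ k⟮S18P15_jbar k N⟯ ∧ (c : LaurentSeries k) = x := by
  rw [← S37KA_map_adjoin k N] at hx
  obtain ⟨c, hc, rfl⟩ := hx
  exact ⟨c, hc, rfl⟩

theorem S37KA_adjoin_le : IntermediateField.adjoin k {jqModC k} ≤ modularFunctionFieldFullC k N := by
  rw [IntermediateField.adjoin_le_iff]
  rintro x hx
  rw [Set.mem_singleton_iff] at hx
  subst hx
  exact jqModC_mem_full k N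

end Coe

/-- **KAPPA from the degree inequality.** If `[F1 : K(j)] ≤ [F_κ : κ(j)]` then the reduction of
every element of the Gauss valuation ring of `F1` lies in `F_κ`. -/
theorem S37KA_kappa_of_finrank_le (hK : ∀ c : K, ∃ a b : O, b ≠ 0 ∧ D.inc b * c = D.inc a)
    (hres : Function.Surjective D.res) (N : ℕ) [NeZero N]
    (hdeg : Module.finrank K⟮S18P15_jbar K N⟯ (modularFunctionFieldFullC K N) ≤
      Module.finrank κ⟮S18P15_jbar κ N⟯ (modularFunctionFieldFullC κ N))
    {y : LaurentSeries K} (hyV : y ∈ D.Vring) (hyF : y ∈ modularFunctionFieldFullC K N) :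
    D.redFun y ∈ modularFunctionFieldFullC κ N := by
  classical
  haveI := S18P15_finiteDimensional κ N
  haveI := S18P15_finiteDimensional K N
  set n' := Module.finrank κ⟮S18P15_jbar κ N⟯ (modularFunctionFieldFullC κ N) with hn'
  haveI hfree : Module.Free κ⟮S18P15_jbar κ N⟯ (modularFunctionFieldFullC κ N) :=
    Module.Free.of_divisionRing _ _
  let b : Module.Basis (Fin n') κ⟮S18P15_jbar κ N⟯ (modularFunctionFieldFullC κ N) :=
    Module.finBasis _ _
  -- lifts of the basis
  have hlift : ∀ i : Fin n', ∃ B ∈ D.Vring, B ∈ modularFunctionFieldFullC K N ∧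
      D.redFun B = ((b i : modularFunctionFieldFullC κ N) : LaurentSeries κ) :=
    fun i => S18RP_exists_lift D hres N _ (b i).2
  choose B hBV hBF hBred using hlift
  -- the family
  let v : Option (Fin n') → modularFunctionFieldFullC K N := fun o =>
    match o with
    | none => ⟨y, hyF⟩
    | some i => ⟨B i, hBF i⟩
  have hvV : ∀ o, ((v o : modularFunctionFieldFullC K N) : LaurentSeries K) ∈ D.Vring := by
    intro o
    cases o with
    | none => exact hyV
    | some i => exact hBV i
  have hdep : ¬ LinearIndependent K⟮S18P15_jbar K N⟯ v := by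
    intro hli
    have h1 := hli.fintype_card_le_finrank
    rw [Fintype.card_option, Fintype.card_fin] at h1
    omega
  obtain ⟨g, hg, i₀, hi₀⟩ := Fintype.not_linearIndependent_iff.mp hdep
  -- the relation in `K((q))`
  set G : Option (Fin n') → LaurentSeries K :=
    fun o => (((g o : modularFunctionFieldFullC K N)) : LaurentSeries K) with hG
  set w : Option (Fin n') → LaurentSeries K :=
    fun o => ((v o : modularFunctionFieldFullC K N) : LaurentSeries K) with hw
  have hGadj : ∀ o, G o ∈ IntermediateField.adjoin K {jqModC K} :=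
    fun o => S37KA_coe_mem K N _ (g o).2
  have hrel : ∑ o, G o * w o = 0 := by
    have h1 := congrArg (fun x : modularFunctionFieldFullC K N => (x : LaurentSeries K)) hg
    simp only [IntermediateField.coe_sum, ZeroMemClass.coe_zero] at h1
    rw [← h1]
    apply Finset.sum_congr rfl
    intro o _
    rfl
  have hGfrac : ∀ o, ∃ a b : LaurentSeries O, b ≠ 0 ∧ D.incS b * G o = D.incS a := fun o =>
    D.modularFunctionFieldFullC_le_fracField hK N _ ((g o : modularFunctionFieldFullC K N)).2
  have hnorm : ∀ o, G o ≠ 0 → ∃ (z : ℤ) (u : LaurentSeries K),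
      u ∈ D.Vring ∧ D.redFun u ≠ 0 ∧ G o = D.πK ^ z * u := fun o ho =>
    D.exists_zpow_mul ho (hGfrac o)
  choose! z u hu using hnorm
  have hi₀' : G i₀ ≠ 0 := by
    intro h
    apply hi₀
    apply Subtype.ext
    apply Subtype.ext
    exact h
  obtain ⟨m, hmS, hmin⟩ := (Finset.univ.filter (fun o => G o ≠ 0)).exists_min_image z
    ⟨i₀, by simp [hi₀']⟩
  have hm0 : G m ≠ 0 := (Finset.mem_filter.mp hmS).2
  have hπ := D.πK_ne_zero
  set G' : Option (Fin n') → LaurentSeries K := fun o => G o * D.πK ^ (-(z m)) with hG'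
  have hG'V : ∀ o, G' o ∈ D.Vring := by
    intro o
    by_cases ho : G o = 0
    · simp only [hG', ho, zero_mul]
      exact zero_mem _
    · obtain ⟨h1, h2, h3⟩ := hu o ho
      have hle : z m ≤ z o := hmin o (Finset.mem_filter.mpr ⟨Finset.mem_univ _, ho⟩)
      obtain ⟨t, ht⟩ := Int.eq_ofNat_of_zero_le (show 0 ≤ z o - z m by omega)
      have h4 : G' o = D.πK ^ t * u o := by
        simp only [hG']
        rw [h3, ← zpow_natCast, ← ht, zpow_sub₀ hπ, zpow_neg]
        field_simp
      rw [h4]
      exact D.Vring.mul_mem (D.Vring.pow_mem D.πK_mem_Vring t) h1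
  have hG'm : D.redFun (G' m) ≠ 0 := by
    obtain ⟨h1, h2, h3⟩ := hu m hm0
    have h4 : G' m = u m := by
      simp only [hG']
      rw [h3, zpow_neg]
      field_simp
    rw [h4]
    exact h2
  have hπadj : D.πK ∈ IntermediateField.adjoin K {jqModC K} := S37KA_C_mem _
  have hG'adj : ∀ o, G' o ∈ IntermediateField.adjoin K {jqModC K} := fun o =>
    mul_mem (hGadj o) (zpow_mem hπadj _)
  have hrel' : ∑ o, G' o * w o = 0 := by
    have h1 : ∑ o, G' o * w o = (∑ o, G o * w o) * D.πK ^ (-(z m)) := by
      rw [Finset.sum_mul]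
      apply Finset.sum_congr rfl
      intro o _
      simp only [hG']
      ring
    rw [h1, hrel, zero_mul]
  have hγ : ∀ o, D.redFun (G' o) ∈ IntermediateField.adjoin κ {jqModC κ} := fun o =>
    S37KA_level_one D hK (hG'adj o) (hG'V o)
  -- reduce the relation
  have hred : ∑ o, D.redFun (G' o) * D.redFun (w o) = 0 := by
    have h1 : D.redFun (∑ o, G' o * w o) = ∑ o, D.redFun (G' o * w o) :=
      S37KA_redFun_sum D _ _ (fun o _ => D.Vring.mul_mem (hG'V o) (hvV o))
    rw [hrel', D.redFun_zero] at h1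
    rw [h1]
    apply Finset.sum_congr rfl
    intro o _
    exact (D.redFun_mul (hG'V o) (hvV o)).symm
  rw [Fintype.sum_option] at hred
  have hwsome : ∀ i, D.redFun (w (some i)) =
      ((b i : modularFunctionFieldFullC κ N) : LaurentSeries κ) := fun i => hBred i
  have hwnone : D.redFun (w none) = D.redFun y := rfl
  simp only [hwsome, hwnone] at hred
  by_cases h0 : D.redFun (G' none) = 0
  · exfalso
    rw [h0, zero_mul, zero_add] at hred
    have hc : ∀ i, ∃ c : modularFunctionFieldFullC κ N, c ∈ κ⟮S18P15_jbar κ N⟯ ∧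
        (c : LaurentSeries κ) = D.redFun (G' (some i)) := fun i => S37KA_exists_coe κ N (hγ _)
    choose c hcm hceq using hc
    have hsum : ∑ i, (⟨c i, hcm i⟩ : κ⟮S18P15_jbar κ N⟯) • b i = 0 := by
      apply Subtype.ext
      rw [IntermediateField.coe_sum, ZeroMemClass.coe_zero, ← hred]
      apply Finset.sum_congr rfl
      intro i _
      show ((c i : modularFunctionFieldFullC κ N) : LaurentSeries κ) * _ = _
      rw [hceq i]
    have hall := Fintype.linearIndependent_iff.mp b.linearIndependent _ hsum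
    have hzero : ∀ o, D.redFun (G' o) = 0 := by
      intro o
      cases o with
      | none => exact h0
      | some i =>
        rw [← hceq i]
        have := congrArg (fun x : κ⟮S18P15_jbar κ N⟯ =>
          (((x : modularFunctionFieldFullC κ N)) : LaurentSeries κ)) (hall i)
        exact this
    exact hG'm (hzero m)
  · have hsolve : D.redFun y = -(∑ i, D.redFun (G' (some i)) *
        ((b i : modularFunctionFieldFullC κ N) : LaurentSeries κ)) / D.redFun (G' none) := by
      field_simp
      linear_combination hred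
    rw [hsolve]
    refine div_mem (neg_mem (sum_mem fun i _ => mul_mem ?_ (b i).2)) ?_
    · exact S37KA_adjoin_le κ N (hγ _)
    · exact S37KA_adjoin_le κ N (hγ _)

end Fermat.Agent.S37_helper13_KAPPA1
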