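import Mathlib
import Fermat.Agent.S37_helper13_KAPPA1
import Fermat.Agent.S24_helper23_CARD

/-!
# S37, B1-KAPPA, route (E), part 2: Laurent embeddings are isometries for the Gauss norm

Over an arbitrary `GaussData D` (helper13 GAUSS), with one chart of block A
(`S18_helper9_CDefs.Chart` for `A0 =` the integral closure of `O[j]` in `F1`):

* `S37KB_isometry` : a ring homomorphism `ι : F1 →+* K((t))` which fixes the constants, maps `j`
  to an element `u` of the Gauss valuation ring with transcendental reduction and maps `F1` into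
  the fractions of `O((t))` preserves the Gauss valuation ring and its maximal ideal
  (saturation of the chart + incomparability for the integral extension `A0 / O[j]`);
* `S37KB_exists_tau` : the induced embedding of the residue function field;
* `S37KB_card_le` : a family of such embeddings with pairwise distinct reductions has at most
  `[F_κ : κ(j)]` members;
* `S37KB_kappa` : hence (with `S37KA_kappa_of_finrank_le`) the reduction of every element of the
  Gauss valuation ring of `F1` lies in `F_κ`, as soon as the family has `[F1 : K(j)]` members.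
-/

set_option autoImplicit false
set_option linter.unusedSectionVars false
set_option linter.style.haveILetI false
set_option linter.unnecessarySimpa false

open ModularCurve Polynomial IntermediateField
open Fermat.Agent.S18_helper13_GAUSS Fermat.Agent.S18_helper13_REDPOW
  Fermat.Agent.S18_helper26_CONST Fermat.Agent.S18_helper9_CDefs
  Fermat.Agent.S37_helper13_KAPPA1

noncomputable section

namespace Fermat.Agent.S37_helper13_KAPPA2

variable {O K κ : Type*} [CommRing O] [IsDomain O] [Field K] [Field κ] (D : GaussData O K κ)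

/-! ### Elements of `O[j]` are values of polynomials -/

theorem S37KB_exists_poly (Oc : Subring (LaurentSeries K))
    (hOc : ∀ x, x ∈ Oc ↔ ∃ a : O, HahnSeries.C (D.inc a) = x) {c : LaurentSeries K}
    (hc : c ∈ adj Oc (jqModC K)) :
    ∃ p : O[X], c = (p.map D.inc).eval₂ HahnSeries.C (jqModC K) := by
  unfold adj at hc
  induction hc using Subring.closure_induction with
  | mem x hx =>
    rcases hx with hx | hx
    · obtain ⟨a, rfl⟩ := (hOc x).mp hx
      exact ⟨C a, by simp⟩
    · rw [Set.mem_singleton_iff] at hx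
      subst hx
      exact ⟨X, by simp⟩
  | zero => exact ⟨0, by simp⟩
  | one => exact ⟨1, by simp⟩
  | add x y _ _ hx hy =>
    obtain ⟨p, rfl⟩ := hx
    obtain ⟨q, rfl⟩ := hy
    exact ⟨p + q, by simp [Polynomial.eval₂_add]⟩
  | neg x _ hx =>
    obtain ⟨p, rfl⟩ := hx
    exact ⟨-p, by simp [Polynomial.eval₂_neg]⟩
  | mul x y _ _ hx hy =>
    obtain ⟨p, rfl⟩ := hx
    obtain ⟨q, rfl⟩ := hy
    exact ⟨p * q, by simp [Polynomial.eval₂_mul]⟩

/-- the value of an integral polynomial at an element of the Gauss valuation ring -/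
theorem S37KB_eval₂_mem_Vring (p : O[X]) {u : LaurentSeries K} (hu : u ∈ D.Vring) :
    (p.map D.inc).eval₂ HahnSeries.C u ∈ D.Vring := by
  rw [Polynomial.eval₂_map, Polynomial.eval₂_eq_sum_range]
  refine D.Vring.sum_mem fun i _ => D.Vring.mul_mem ?_ (D.Vring.pow_mem hu i)
  rw [RingHom.comp_apply, ← S37KA_incS_C]
  exact D.incS_mem_Vring _

theorem S37KB_redFun_eval₂ (p : O[X]) {u : LaurentSeries K} (hu : u ∈ D.Vring) :
    D.redFun ((p.map D.inc).eval₂ HahnSeries.C u) =
      (p.map D.res).eval₂ HahnSeries.C (D.redFun u) := by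
  rw [Polynomial.eval₂_map, Polynomial.eval₂_map, Polynomial.eval₂_eq_sum_range,
    Polynomial.eval₂_eq_sum_range, S37KA_redFun_sum]
  · apply Finset.sum_congr rfl
    intro i _
    have h1 : (HahnSeries.C.comp D.inc) (p.coeff i) ∈ D.Vring := by
      rw [RingHom.comp_apply, ← S37KA_incS_C]
      exact D.incS_mem_Vring _
    rw [D.redFun_mul h1 (D.Vring.pow_mem hu i), D.redFun_pow hu]
    congr 1
    rw [RingHom.comp_apply, RingHom.comp_apply, ← S37KA_incS_C, D.redFun_incS, S37KA_redS_C]
  · intro i _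
    refine D.Vring.mul_mem ?_ (D.Vring.pow_mem hu i)
    rw [RingHom.comp_apply, ← S37KA_incS_C]
    exact D.incS_mem_Vring _

/-! ### Laurent embeddings of the function field -/

/-- the hypotheses on a Laurent series embedding `ι` of `F1 = modularFunctionFieldFullC K N` -/
structure S37KB_Emb (N : ℕ) [NeZero N] (u : LaurentSeries K)
    (ι : modularFunctionFieldFullC K N →+* LaurentSeries K) : Prop where
  const : ∀ c : K, ι (algebraMap K (modularFunctionFieldFullC K N) c) = HahnSeries.C c
  j : ι (S18P15_jbar K N) = u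
  gen : ∀ (d : ℕ) [NeZero d] (hd : d ∣ N), ι (S18P15_jbard K N d hd) ∈ D.fracField

section Isometry

variable {D}
variable (hK : ∀ c : K, ∃ a b : O, b ≠ 0 ∧ D.inc b * c = D.inc a) {N : ℕ} [NeZero N]
  {u : LaurentSeries K} {ι : modularFunctionFieldFullC K N →+* LaurentSeries K}
  (hE : S37KB_Emb D N u ι)

include hK hE in
theorem S37KB_mem_fracField (x : modularFunctionFieldFullC K N) : ι x ∈ D.fracField := by
  have key : ∀ (y : LaurentSeries K) (hy : y ∈ IntermediateField.adjoin K (divisorExpansionsC K N)),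
      ι (⟨y, hy⟩ : modularFunctionFieldFullC K N) ∈ D.fracField := by
    intro y hy
    induction hy using IntermediateField.adjoin_induction with
    | mem y hy =>
      obtain ⟨d, hd0, hd, rfl⟩ := hy
      have := hd0
      exact hE.gen d hd
    | algebraMap c =>
      have h := hE.const c
      have h2 := D.C_mem_fracField hK c
      rw [← h] at h2
      exact h2
    | add x y hx hy h1 h2 =>
      have : ι (⟨x + y, add_mem hx hy⟩ : modularFunctionFieldFullC K N) =
          ι (⟨x, hx⟩ : modularFunctionFieldFullC K N) + ι ⟨y, hy⟩ := by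
        rw [← map_add]; rfl
      rw [this]
      exact add_mem h1 h2
    | inv x hx h1 =>
      have : ι (⟨x⁻¹, inv_mem hx⟩ : modularFunctionFieldFullC K N) =
          (ι (⟨x, hx⟩ : modularFunctionFieldFullC K N))⁻¹ := by
        rw [← map_inv₀]; rfl
      rw [this]
      exact inv_mem h1
    | mul x y hx hy h1 h2 =>
      have : ι (⟨x * y, mul_mem hx hy⟩ : modularFunctionFieldFullC K N) =
          ι (⟨x, hx⟩ : modularFunctionFieldFullC K N) * ι ⟨y, hy⟩ := by
        rw [← map_mul]; rfl
      rw [this]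
      exact mul_mem h1 h2
  exact key x.1 x.2

include hE in
/-- `ι` on the values of polynomials at `j` -/
theorem S37KB_ι_eval₂ (q : K[X]) (h : q.eval₂ HahnSeries.C (jqModC K) ∈ modularFunctionFieldFullC K N) :
    ι ⟨q.eval₂ HahnSeries.C (jqModC K), h⟩ = q.eval₂ HahnSeries.C u := by
  have h1 : (⟨q.eval₂ HahnSeries.C (jqModC K), h⟩ : modularFunctionFieldFullC K N) =
      q.eval₂ (algebraMap K (modularFunctionFieldFullC K N)) (S18P15_jbar K N) := by
    apply Subtype.ext
    have h2 := Polynomial.hom_eval₂ q (algebraMap K (modularFunctionFieldFullC K N))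
      (algebraMap (modularFunctionFieldFullC K N) (LaurentSeries K)) (S18P15_jbar K N)
    have h3 : (algebraMap (modularFunctionFieldFullC K N) (LaurentSeries K)).comp
        (algebraMap K (modularFunctionFieldFullC K N)) = HahnSeries.C := by
      refine RingHom.ext fun c => ?_
      show algebraMap K (LaurentSeries K) c = _
      rw [algebraMap_laurentSeries_eq_single, HahnSeries.C_apply]
    rw [h3] at h2
    exact h2.symm
  rw [h1, Polynomial.hom_eval₂, hE.j]
  congr 1
  exact RingHom.ext fun c => hE.const c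

end Isometry

section ChartSec

variable {D}
variable (hK : ∀ c : K, ∃ a b : O, b ≠ 0 ∧ D.inc b * c = D.inc a) {N : ℕ} [NeZero N]
  {u : LaurentSeries K} {ι : modularFunctionFieldFullC K N →+* LaurentSeries K}
  (hE : S37KB_Emb D N u ι) (hu : u ∈ D.Vring) (hutr : Transcendental κ (D.redFun u))
  {Oc : Subring (LaurentSeries K)} (hOc : ∀ x, x ∈ Oc ↔ ∃ a : O, HahnSeries.C (D.inc a) = x)
  {A0 : Subring (LaurentSeries K)}
  (hC : Chart Oc D.πK (jqModC K) (modularFunctionFieldFullC K N).toSubfield (S18RP_V D N) A0)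

include hOc in
/-- `O[j] ⊆ F1` -/
theorem S37KB_adj_le_full (c : LaurentSeries K) (hc : c ∈ adj Oc (jqModC K)) :
    c ∈ modularFunctionFieldFullC K N := by
  obtain ⟨p, rfl⟩ := S37KB_exists_poly D Oc hOc hc
  exact S37KA_adjoin_le K N (S37KA_eval₂_mem _)

include hE hu hOc in
/-- `ι` maps `O[j]` into the Gauss valuation ring -/
theorem S37KB_ι_adj_mem (c : LaurentSeries K) (hc : c ∈ adj Oc (jqModC K)) :
    ι ⟨c, S37KB_adj_le_full hOc c hc⟩ ∈ D.Vring := by
  obtain ⟨p, hp⟩ := S37KB_exists_poly D Oc hOc hc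
  subst hp
  rw [S37KB_ι_eval₂ hE]
  exact S37KB_eval₂_mem_Vring D p hu

include hE hu hutr hOc in
/-- on `O[j]`, the kernel of the reduction after `ι` is the kernel of the reduction -/
theorem S37KB_adj_ker (c : LaurentSeries K) (hc : c ∈ adj Oc (jqModC K))
    (h0 : D.redFun (ι ⟨c, S37KB_adj_le_full hOc c hc⟩) = 0) : D.redFun c = 0 := by
  obtain ⟨p, hp⟩ := S37KB_exists_poly D Oc hOc hc
  subst hp
  rw [S37KB_ι_eval₂ hE, S37KB_redFun_eval₂ D p hu] at h0
  have hp0 : p.map D.res = 0 := by
    by_contra hne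
    apply hutr
    refine ⟨p.map D.res, hne, ?_⟩
    rw [S37KA_aeval_eq]
    exact h0
  rw [S37KB_redFun_eval₂ D p D.jqModC_mem_Vring, hp0, Polynomial.eval₂_zero]

include hK hE hu hOc hC in
/-- `ι` maps the chart `A0` into the Gauss valuation ring -/
theorem S37KB_ι_mem_Vring_of_mem_A0 (x : modularFunctionFieldFullC K N)
    (hx : (x : LaurentSeries K) ∈ A0) : ι x ∈ D.Vring := by
  obtain ⟨⟨p, hpm, hp0⟩, -⟩ := (hC.mem_iff _).mp hx
  refine D.mem_Vring_of_isIntegral (S37KB_mem_fracField hK hE x) ?_
  let adjF : ↥(adj Oc (jqModC K)) →+* modularFunctionFieldFullC K N :=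
    { toFun := fun c => ⟨c.1, S37KB_adj_le_full hOc c.1 c.2⟩
      map_one' := rfl
      map_mul' := fun _ _ => rfl
      map_zero' := rfl
      map_add' := fun _ _ => rfl }
  let φ : ↥(adj Oc (jqModC K)) →+* D.Vring :=
    (ι.comp adjF).codRestrict D.Vring (fun c => S37KB_ι_adj_mem hE hu hOc c.1 c.2)
  refine ⟨p.map φ, hpm.map φ, ?_⟩
  rw [Polynomial.eval₂_map]
  have h1 : (algebraMap D.Vring (LaurentSeries K)).comp φ = ι.comp adjF :=
    RingHom.ext fun c => rfl
  rw [h1, ← Polynomial.hom_eval₂]
  have h2 : p.eval₂ adjF x = 0 := by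
    apply Subtype.ext
    have h3 := Polynomial.hom_eval₂ p adjF
      (algebraMap (modularFunctionFieldFullC K N) (LaurentSeries K)) x
    have h4 : (algebraMap (modularFunctionFieldFullC K N) (LaurentSeries K)).comp adjF =
        algebraMap ↥(adj Oc (jqModC K)) (LaurentSeries K) := RingHom.ext fun c => rfl
    rw [h4] at h3
    exact h3.trans hp0
  rw [h2, map_zero]

include hC in
theorem S37KB_A0_le_full (x : LaurentSeries K) (hx : x ∈ A0) :
    x ∈ modularFunctionFieldFullC K N := ((hC.mem_iff x).mp hx).2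

include hC in
theorem S37KB_A0_le_Vring (x : LaurentSeries K) (hx : x ∈ A0) : x ∈ D.Vring :=
  (hC.le_V hx).1

include hOc hC in
theorem S37KB_adj_le_A0 : adj Oc (jqModC K) ≤ A0 := by
  intro c hc
  refine (hC.mem_iff c).mpr ⟨?_, S37KB_adj_le_full hOc c hc⟩
  show IsIntegral _ (algebraMap ↥(adj Oc (jqModC K)) (LaurentSeries K) ⟨c, hc⟩)
  exact isIntegral_algebraMap

include hK hE hu hOc hC in
/-- the kernel of the reduction on `A0` is contained in the kernel of the reduction after `ι` -/
theorem S37KB_ker_le (x : modularFunctionFieldFullC K N) (hx : (x : LaurentSeries K) ∈ A0)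
    (h0 : D.redFun (x : LaurentSeries K) = 0) : D.redFun (ι x) = 0 := by
  obtain ⟨v, hvV, hxv⟩ := D.exists_eq_mul_of_redFun_eq_zero (S37KB_A0_le_Vring hC _ hx) h0
  have hπ := D.πK_ne_zero
  have hvF : v ∈ modularFunctionFieldFullC K N := by
    have h1 : v = (D.πK)⁻¹ * (x : LaurentSeries K) := by
      rw [hxv]; field_simp
    rw [h1]
    exact mul_mem (inv_mem (S18RP_πK_mem_full D N)) x.2
  have hvA : v ∈ A0 := hC.sat v ⟨hvV, hvF⟩ (by rw [← hxv]; exact hx)
  have h2 : x = algebraMap K (modularFunctionFieldFullC K N) (D.inc D.π) * ⟨v, hvF⟩ := by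
    apply Subtype.ext
    show (x : LaurentSeries K) = algebraMap K (LaurentSeries K) (D.inc D.π) * v
    rw [algebraMap_laurentSeries_eq_single, ← HahnSeries.C_apply]
    exact hxv
  rw [h2, map_mul, hE.const]
  exact D.redFun_πK_mul (S37KB_ι_mem_Vring_of_mem_A0 hK hE hu hOc hC ⟨v, hvF⟩ hvA)

include hK hE hu hutr hOc hC in
/-- **Incomparability.** On the chart `A0`, the kernel of the reduction after `ι` equals the
kernel of the reduction. -/
theorem S37KB_ker_ge (x : modularFunctionFieldFullC K N) (hx : (x : LaurentSeries K) ∈ A0)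
    (h0 : D.redFun (ι x) = 0) : D.redFun (x : LaurentSeries K) = 0 := by
  classical
  let A0F : ↥A0 →+* modularFunctionFieldFullC K N :=
    { toFun := fun c => ⟨c.1, S37KB_A0_le_full hC c.1 c.2⟩
      map_one' := rfl
      map_mul' := fun _ _ => rfl
      map_zero' := rfl
      map_add' := fun _ _ => rfl }
  let ιA : ↥A0 →+* D.Vring := (ι.comp A0F).codRestrict D.Vring
    (fun c => S37KB_ι_mem_Vring_of_mem_A0 hK hE hu hOc hC (A0F c) c.2)
  let ρ1 : ↥A0 →+* LaurentSeries κ :=
    D.red.comp (Subring.inclusion (fun x hx => S37KB_A0_le_Vring hC x hx))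
  let ρ2 : ↥A0 →+* LaurentSeries κ := D.red.comp ιA
  let f : ↥(adj Oc (jqModC K)) →+* ↥A0 := Subring.inclusion (S37KB_adj_le_A0 hOc hC)
  have hρ1 : ∀ c : ↥A0, ρ1 c = D.redFun (c : LaurentSeries K) := fun c => rfl
  have hρ2 : ∀ c : ↥A0, ρ2 c = D.redFun (ι (A0F c)) := fun c => rfl
  have hIJ : RingHom.ker ρ1 ≤ RingHom.ker ρ2 := by
    intro c hc
    rw [RingHom.mem_ker, hρ1] at hc
    rw [RingHom.mem_ker, hρ2]
    exact S37KB_ker_le hK hE hu hOc hC (A0F c) c.2 hc
  haveI hI : (RingHom.ker ρ1).IsPrime := RingHom.ker_isPrime ρ1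
  by_contra hne
  set xA : ↥A0 := ⟨(x : LaurentSeries K), hx⟩ with hxA
  have hxJ : xA ∈ RingHom.ker ρ2 := by
    rw [RingHom.mem_ker, hρ2]
    exact h0
  have hxI : xA ∉ RingHom.ker ρ1 := by
    rw [RingHom.mem_ker, hρ1]
    exact hne
  obtain ⟨⟨p, hpm, hp0⟩, -⟩ := (hC.mem_iff _).mp hx
  have hp : p.eval₂ f xA = 0 := by
    apply Subtype.ext
    have h3 := Polynomial.hom_eval₂ p f A0.subtype xA
    have h4 : A0.subtype.comp f = algebraMap ↥(adj Oc (jqModC K)) (LaurentSeries K) :=
      RingHom.ext fun c => rfl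
    rw [h4] at h3
    exact h3.trans hp0
  have hlt := Ideal.comap_lt_comap_of_root_mem_sdiff (f := f) hIJ ⟨hxJ, hxI⟩
    (Polynomial.map_monic_ne_zero hpm) (by rw [hp]; exact Ideal.zero_mem _)
  obtain ⟨-, c, hcJ, hcI⟩ := SetLike.lt_iff_le_and_exists.mp hlt
  apply hcI
  rw [Ideal.mem_comap, RingHom.mem_ker, hρ1]
  rw [Ideal.mem_comap, RingHom.mem_ker, hρ2] at hcJ
  exact S37KB_adj_ker hE hu hutr hOc c.1 c.2 hcJ

include hK hE hu hutr hOc hC in
/-- **Isometry.** `ι` maps the Gauss valuation ring of `F1` into the Gauss valuation ring, and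
the maximal ideal into the maximal ideal. -/
theorem S37KB_isometry (y : modularFunctionFieldFullC K N)
    (hy : (y : LaurentSeries K) ∈ D.Vring) :
    ι y ∈ D.Vring ∧ (D.redFun (y : LaurentSeries K) = 0 → D.redFun (ι y) = 0) := by
  obtain ⟨b, hbA, hb0, hbinv, hybA⟩ := hC.loc (y : LaurentSeries K) ⟨hy, y.2⟩
  have hbF : b ∈ modularFunctionFieldFullC K N := S37KB_A0_le_full hC b hbA
  have hbV : b ∈ D.Vring := S37KB_A0_le_Vring hC b hbA
  set b' : modularFunctionFieldFullC K N := ⟨b, hbF⟩ with hb'
  have hb'0 : b' ≠ 0 := fun h => hb0 (congrArg Subtype.val h)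
  have hιb : ι b' ∈ D.Vring := S37KB_ι_mem_Vring_of_mem_A0 hK hE hu hOc hC b' hbA
  have hιyb : ι (y * b') ∈ D.Vring := S37KB_ι_mem_Vring_of_mem_A0 hK hE hu hOc hC (y * b') hybA
  -- `b` is a unit of `V`, hence has nonzero reduction
  have hbred : D.redFun b ≠ 0 := by
    intro h
    have h1 := D.redFun_mul hbV hbinv.1
    rw [mul_inv_cancel₀ hb0, D.redFun_one, h, zero_mul] at h1
    exact one_ne_zero h1
  have hιbred : D.redFun (ι b') ≠ 0 := fun h =>
    hbred (S37KB_ker_ge hK hE hu hutr hOc hC b' hbA h)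
  have hιb0 : ι b' ≠ 0 := by
    intro h
    rw [h, D.redFun_zero] at hιbred
    exact hιbred rfl
  have hιy : ι y = ι (y * b') * (ι b')⁻¹ := by
    rw [map_mul]
    field_simp
  have hinv : (ι b')⁻¹ ∈ D.Vring := D.inv_mem_Vring hιb hιbred
  refine ⟨by rw [hιy]; exact D.Vring.mul_mem hιyb hinv, fun h0 => ?_⟩
  rw [hιy, D.redFun_mul hιyb hinv]
  have h1 : D.redFun ((y * b' : modularFunctionFieldFullC K N) : LaurentSeries K) = 0 := by
    show D.redFun ((y : LaurentSeries K) * b) = 0
    rw [D.redFun_mul hy hbV, h0, zero_mul]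
  rw [S37KB_ker_le hK hE hu hOc hC (y * b') hybA h1, zero_mul]

include hK hE hu hutr hOc hC in
/-- **The induced embedding of the residue function field.** -/
theorem S37KB_exists_tau (hres : Function.Surjective D.res) :
    ∃ τ : modularFunctionFieldFullC κ N →+* LaurentSeries κ,
      ∀ (G : modularFunctionFieldFullC K N) (_ : (G : LaurentSeries K) ∈ D.Vring)
        (g : modularFunctionFieldFullC κ N),
        D.redFun (G : LaurentSeries K) = (g : LaurentSeries κ) → τ g = D.redFun (ι G) := by
  classical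
  have hlift : ∀ g : modularFunctionFieldFullC κ N, ∃ G : modularFunctionFieldFullC K N,
      (G : LaurentSeries K) ∈ D.Vring ∧ D.redFun (G : LaurentSeries K) = (g : LaurentSeries κ) := by
    intro g
    obtain ⟨G, hGV, hGF, hGr⟩ := S18RP_exists_lift D hres N g g.2
    exact ⟨⟨G, hGF⟩, hGV, hGr⟩
  choose lift hliftV hliftR using hlift
  have hiso := S37KB_isometry hK hE hu hutr hOc hC
  have wd : ∀ (G : modularFunctionFieldFullC K N) (_ : (G : LaurentSeries K) ∈ D.Vring)
      (g : modularFunctionFieldFullC κ N),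
      D.redFun (G : LaurentSeries K) = (g : LaurentSeries κ) →
      D.redFun (ι (lift g)) = D.redFun (ι G) := by
    intro G hG g hGg
    have h1 : ((G - lift g : modularFunctionFieldFullC K N) : LaurentSeries K) ∈ D.Vring :=
      D.Vring.sub_mem hG (hliftV g)
    have h2 : D.redFun ((G - lift g : modularFunctionFieldFullC K N) : LaurentSeries K) = 0 := by
      show D.redFun ((G : LaurentSeries K) - (lift g : LaurentSeries K)) = 0
      rw [D.redFun_sub hG (hliftV g), hGg, hliftR g, sub_self]
    have h3 := (hiso _ h1).2 h2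
    rw [map_sub, D.redFun_sub (hiso G hG).1 (hiso _ (hliftV g)).1] at h3
    exact (sub_eq_zero.mp h3).symm
  refine ⟨{ toFun := fun g => D.redFun (ι (lift g))
            map_one' := ?_
            map_mul' := ?_
            map_zero' := ?_
            map_add' := ?_ }, ?_⟩
  · rw [wd 1 (by simpa using D.Vring.one_mem) 1 (by simpa using D.redFun_one), map_one,
      D.redFun_one]
  · intro g₁ g₂
    have hV : ((lift g₁ * lift g₂ : modularFunctionFieldFullC K N) : LaurentSeries K) ∈ D.Vring :=
      D.Vring.mul_mem (hliftV g₁) (hliftV g₂)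
    have hR : D.redFun ((lift g₁ * lift g₂ : modularFunctionFieldFullC K N) : LaurentSeries K) =
        ((g₁ * g₂ : modularFunctionFieldFullC κ N) : LaurentSeries κ) := by
      show D.redFun ((lift g₁ : LaurentSeries K) * (lift g₂ : LaurentSeries K)) = _
      rw [D.redFun_mul (hliftV g₁) (hliftV g₂), hliftR, hliftR]
      rfl
    show D.redFun (ι (lift (g₁ * g₂))) = D.redFun (ι (lift g₁)) * D.redFun (ι (lift g₂))
    rw [wd _ hV _ hR, map_mul, D.redFun_mul (hiso _ (hliftV g₁)).1 (hiso _ (hliftV g₂)).1]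
  · rw [wd 0 (by simpa using D.Vring.zero_mem) 0 (by simpa using D.redFun_zero), map_zero,
      D.redFun_zero]
  · intro g₁ g₂
    have hV : ((lift g₁ + lift g₂ : modularFunctionFieldFullC K N) : LaurentSeries K) ∈ D.Vring :=
      D.Vring.add_mem (hliftV g₁) (hliftV g₂)
    have hR : D.redFun ((lift g₁ + lift g₂ : modularFunctionFieldFullC K N) : LaurentSeries K) =
        ((g₁ + g₂ : modularFunctionFieldFullC κ N) : LaurentSeries κ) := by
      show D.redFun ((lift g₁ : LaurentSeries K) + (lift g₂ : LaurentSeries K)) = _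
      rw [D.redFun_add (hliftV g₁) (hliftV g₂), hliftR, hliftR]
      rfl
    show D.redFun (ι (lift (g₁ + g₂))) = D.redFun (ι (lift g₁)) + D.redFun (ι (lift g₂))
    rw [wd _ hV _ hR, map_add, D.redFun_add (hiso _ (hliftV g₁)).1 (hiso _ (hliftV g₂)).1]
  · intro G hG g hGg
    exact wd G hG g hGg

end ChartSec

/-! ### The degree inequality -/

section Card

variable {D}
variable (hK : ∀ c : K, ∃ a b : O, b ≠ 0 ∧ D.inc b * c = D.inc a)
  (hres : Function.Surjective D.res) {N : ℕ} [NeZero N]
  {u : LaurentSeries K} (hu : u ∈ D.Vring) (hutr : Transcendental κ (D.redFun u))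
  {Oc : Subring (LaurentSeries K)} (hOc : ∀ x, x ∈ Oc ↔ ∃ a : O, HahnSeries.C (D.inc a) = x)
  {A0 : Subring (LaurentSeries K)}
  (hC : Chart Oc D.πK (jqModC K) (modularFunctionFieldFullC K N).toSubfield (S18RP_V D N) A0)
  {I : Type*} [Fintype I] (ι : I → (modularFunctionFieldFullC K N →+* LaurentSeries K))
  (hE : ∀ i, S37KB_Emb D N u (ι i))
  (hdist : ∀ i i', i ≠ i' → ∃ x : modularFunctionFieldFullC K N,
    (x : LaurentSeries K) ∈ D.Vring ∧ D.redFun (x : LaurentSeries K) ∈ modularFunctionFieldFullC κ N ∧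
      D.redFun (ι i x) ≠ D.redFun (ι i' x))

include hK hres hu hutr hOc hC hE hdist in
/-- **(E2).** A family of Laurent embeddings of `F1` with pairwise distinct reductions bounds the
degree of the residue function field from below. -/
theorem S37KB_card_le :
    Fintype.card I ≤ Module.finrank κ⟮S18P15_jbar κ N⟯ (modularFunctionFieldFullC κ N) := by
  classical
  have hex := fun i => S37KB_exists_tau hK (hE i) hu hutr hOc hC hres
  choose τ hτ using hex
  haveI := S18P15_finiteDimensional κ N
  refine Fermat.Agent.S24_helper23_CARD.CARD (K := κ) (S18P15_jbar κ N) τ ?_ ?_ ?_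
  · intro i i' h
    by_contra hne
    obtain ⟨x, hxV, hxF, hx⟩ := hdist i i' hne
    apply hx
    rw [← hτ i x hxV ⟨_, hxF⟩ rfl, ← hτ i' x hxV ⟨_, hxF⟩ rfl, h]
  · intro i i' a
    obtain ⟨a0, rfl⟩ := hres a
    have hG : ((algebraMap K (modularFunctionFieldFullC K N) (D.inc a0) :
        modularFunctionFieldFullC K N) : LaurentSeries K) = D.incS (HahnSeries.C a0) := by
      show algebraMap K (LaurentSeries K) (D.inc a0) = _
      rw [algebraMap_laurentSeries_eq_single, ← HahnSeries.C_apply, S37KA_incS_C]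
    have hGV : ((algebraMap K (modularFunctionFieldFullC K N) (D.inc a0) :
        modularFunctionFieldFullC K N) : LaurentSeries K) ∈ D.Vring := by
      rw [hG]; exact D.incS_mem_Vring _
    have hGR : D.redFun ((algebraMap K (modularFunctionFieldFullC K N) (D.inc a0) :
        modularFunctionFieldFullC K N) : LaurentSeries K) =
        ((algebraMap κ (modularFunctionFieldFullC κ N) (D.res a0) :
          modularFunctionFieldFullC κ N) : LaurentSeries κ) := by
      rw [hG, D.redFun_incS, S37KA_redS_C]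
      show _ = algebraMap κ (LaurentSeries κ) (D.res a0)
      rw [algebraMap_laurentSeries_eq_single, HahnSeries.C_apply]
    rw [hτ i _ hGV _ hGR, hτ i' _ hGV _ hGR, (hE i).const, (hE i').const]
  · intro i i'
    have hGV : ((S18P15_jbar K N : modularFunctionFieldFullC K N) : LaurentSeries K) ∈ D.Vring :=
      D.jqModC_mem_Vring
    have hGR : D.redFun ((S18P15_jbar K N : modularFunctionFieldFullC K N) : LaurentSeries K) =
        ((S18P15_jbar κ N : modularFunctionFieldFullC κ N) : LaurentSeries κ) :=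
      D.redFun_jqModC
    rw [hτ i _ hGV _ hGR, hτ i' _ hGV _ hGR, (hE i).j, (hE i').j]

include hK hres hu hutr hOc hC hE hdist in
/-- **KAPPA from a family of embeddings** (route (E): (E1) + (E2)). -/
theorem S37KB_kappa
    (hcard : Module.finrank K⟮S18P15_jbar K N⟯ (modularFunctionFieldFullC K N) ≤ Fintype.card I)
    {y : LaurentSeries K} (hyV : y ∈ D.Vring) (hyF : y ∈ modularFunctionFieldFullC K N) :
    D.redFun y ∈ modularFunctionFieldFullC κ N :=
  S37KA_kappa_of_finrank_le D hK hres N
    (hcard.trans (S37KB_card_le hK hres hu hutr hOc hC ι hE hdist)) hyV hyF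

end Card

end Fermat.Agent.S37_helper13_KAPPA2
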