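import Mathlib
import Fermat.Agent.S37_helper13_KAPPA2
import Fermat.Agent.S18_helper14_SETUP
import Fermat.Agent.S18_helper26_DEGK1
import Fermat.Agent.S37_helper23_B1GEN

/-!
# S37, B1-KAPPA, route (E), part 3: wiring at the concrete carriers `S18K_*`

For an admissible `K1`: the contract `S37KC_EmbFamily` of (E3) (a family of Laurent embeddings
indexed by `Γ₀(N) \ SL₂(ℤ)` with pairwise distinct reductions of the images of `j(q^N)`) implies
KAPPA in the shape consumed by `S37B1_hgen_of_kappaV` (helper23).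
-/

set_option autoImplicit false
set_option linter.unusedSectionVars false
set_option linter.style.haveILetI false

open ModularCurve Polynomial IntermediateField
open Fermat.Agent.S18_helper13_GAUSS Fermat.Agent.S18_helper13_REDPOW
  Fermat.Agent.S18_helper26_CONST Fermat.Agent.S18_helper9_CDefs
  Fermat.Agent.S37_helper13_KAPPA1 Fermat.Agent.S37_helper13_KAPPA2
  Fermat.Agent.S18_helper25_COREDefs Fermat.Agent.S20

noncomputable section

namespace Fermat.Agent.S37_helper13_KAPPA3

/-- `j(t^N)` is transcendental over the constants -/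
theorem S37KC_transcendental (k : Type*) [Field k] (N : ℕ) [NeZero N] :
    Transcendental k (jqNModC k N) := by
  intro h
  obtain ⟨c, hc⟩ := Fermat.Agent.S18_helper13_GAUSS.mem_range_C_of_isAlgebraic h
  have h1 : (jqNModC k N).coeff ((N : ℤ) * (-1)) = 1 := by
    rw [jqNModC, qExpand_coeff_mul, coeff_jqModC_neg_one]
  have hN : ((N : ℤ) * (-1)) ≠ 0 := by
    have := NeZero.ne N
    simp
    exact this
  rw [hc, HahnSeries.C_apply, HahnSeries.coeff_single_of_ne hN] at h1
  exact zero_ne_one h1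

section Generic

variable {O K κ : Type*} [CommRing O] [IsDomain O] [Field K] [Field κ] (D : GaussData O K κ)

/-- **Contract of (E3)**, for a Gauss datum `D`: a family of Laurent embeddings of
`F1 = K(j(q^d) : d ∣ N)` indexed by `Γ₀(N) \ SL₂(ℤ)`, fixing the constants, mapping `j` to
`j(t^N)`, with values in the fractions of `O((t))`, and with pairwise distinct reductions of the
images of `j(q^N)`. -/
def S37KC_EmbFamily (N : ℕ) [NeZero N] : Prop :=
  ∃ ι : Q N → (modularFunctionFieldFullC K N →+* LaurentSeries K),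
    (∀ q, S37KB_Emb D N (jqNModC K N) (ι q)) ∧
    ∀ q q', q ≠ q' →
      D.redFun (ι q (S18P15_jbard K N N dvd_rfl)) ≠ D.redFun (ι q' (S18P15_jbard K N N dvd_rfl))

/-- **KAPPA from the embedding family**, for a Gauss datum with one chart. -/
theorem S37KC_kappa (hK : ∀ c : K, ∃ a b : O, b ≠ 0 ∧ D.inc b * c = D.inc a)
    (hres : Function.Surjective D.res) (N : ℕ) [NeZero N]
    {Oc : Subring (LaurentSeries K)} (hOc : ∀ x, x ∈ Oc ↔ ∃ a : O, HahnSeries.C (D.inc a) = x)
    {A0 : Subring (LaurentSeries K)}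
    (hC : Chart Oc D.πK (jqModC K) (modularFunctionFieldFullC K N).toSubfield (S18RP_V D N) A0)
    (hcard : Module.finrank K⟮S18P15_jbar K N⟯ (modularFunctionFieldFullC K N) ≤
      Fintype.card (Q N))
    (hemb : S37KC_EmbFamily D N)
    {y : LaurentSeries K} (hyV : y ∈ D.Vring) (hyF : y ∈ modularFunctionFieldFullC K N) :
    D.redFun y ∈ modularFunctionFieldFullC κ N := by
  obtain ⟨ι, hE, hdist⟩ := hemb
  refine S37KB_kappa (D := D) hK hres (D.jqNModC_mem_Vring N) ?_ hOc hC ι hE ?_ hcard hyV hyF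
  · rw [D.redFun_jqNModC N]
    exact S37KC_transcendental _ N
  · intro q q' hne
    refine ⟨S18P15_jbard K N N dvd_rfl, D.jqNModC_mem_Vring N, ?_, hdist q q' hne⟩
    show D.redFun (jqNModC K N) ∈ _
    rw [D.redFun_jqNModC N]
    exact jqModCd_mem_full _ N dvd_rfl

end Generic

variable (A : ValuationSubring (AlgebraicClosure ℚ))
  (K1 : IntermediateField ℚ (AlgebraicClosure ℚ))

theorem S37KC_hOc [IsDiscreteValuationRing (S18K_O1 A K1)] (x : LaurentSeries K1) :
    x ∈ S18K_O A K1 ↔ ∃ a : S18K_O1 A K1, HahnSeries.C ((S18K_D A K1).inc a) = x := by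
  constructor
  · rintro ⟨c, hc, rfl⟩
    exact ⟨⟨c, hc⟩, rfl⟩
  · rintro ⟨a, rfl⟩
    exact ⟨a.1, a.2, rfl⟩

/-- **KAPPA at an admissible level from the embedding family.** -/
theorem S37KC_kappaK (N : ℕ) [NeZero N] {ℓ : ℕ} (hℓ : ℓ.Prime)
    (hA : A.LiesOverPrime ℓ) (hℓN : ¬ ℓ ∣ N) (h : S18K_Admissible A K1 ℓ)
    (hemb : letI := h.dvr; S37KC_EmbFamily (S18K_D A K1) N) :
    letI := h.dvr
    ∀ y ∈ S18K_V A K1 N,
      (S18K_D A K1).redFun y ∈ modularFunctionFieldFullC (IsLocalRing.ResidueField A) N := by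
  letI := h.dvr
  intro y hy
  have hS := Fermat.Agent.S18AK.setupK N hℓ A hA hℓN K1
  exact S37KC_kappa (S18K_D A K1)
    (fun c => Fermat.Agent.S37_helper23_B1GEN.S37G_hK A K1 c) h.res_surj N
    (S37KC_hOc A K1) hS.chart0
    (Fermat.Agent.S18_helper26_DEGK1.S18DEG_finrank_card
      (algebraMap K1 (AlgebraicClosure ℚ)) N).le hemb hy.1 hy.2

/-- the shape consumed by helper23's `S37B1_hgen_of_kappaV` -/
theorem S37KC_hkappa (N : ℕ) [NeZero N] {ℓ : ℕ} (hℓ : ℓ.Prime)
    (hA : A.LiesOverPrime ℓ) (hℓN : ¬ ℓ ∣ N)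
    (hemb : ∀ (K1 : IntermediateField ℚ (AlgebraicClosure ℚ)) (h : S18K_Admissible A K1 ℓ),
      letI := h.dvr; S37KC_EmbFamily (S18K_D A K1) N) :
    ∀ (K1 : IntermediateField ℚ (AlgebraicClosure ℚ)) (h : S18K_Admissible A K1 ℓ),
      letI := h.dvr
      ∀ y ∈ S18K_V A K1 N,
        (S18K_D A K1).redFun y ∈ modularFunctionFieldFullC (IsLocalRing.ResidueField A) N :=
  fun K1 h => S37KC_kappaK A K1 N hℓ hA hℓN h (hemb K1 h)

end Fermat.Agent.S37_helper13_KAPPA3
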