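import Fermat.Agent.S35_helper29_I2B
import Fermat.Agent.S34_helper13_HJQM
import Fermat.Agent.S34_helper14_N1SJ
import Fermat.Agent.S34_helper18_RELN
import Fermat.Agent.S34_helper20_WQ
import Fermat.Agent.S34_helper13_KEYK
import Fermat.Agent.S34_helper14_N1
import Fermat.Agent.S37_helper13_KAPPA3

/-!
# S35, piece (I2) = termination, part C (helper29): the modular unit is not in `V2`

`q` a prime, `A` over `q`, `K1` an admissible level, `V = X ^ m U` the modular unit of level `q`
over `K1` (`m > 0`, `U ∈ 1 + X ℤ[[X]]`, root of a monic polynomial over `K1[j]`).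

* `S35I2C_orderTop_aeval` : the order of a nonzero polynomial in `j`;
* `S35I2C_mem_W` : `V` lies in every valuation ring of `F1` containing the chart and `π⁻¹`;
* `S35I2C_exists_poly` : the chart of level `1` is `O[j]`, in the form: every element is
  `incS (P(j))` for a polynomial `P` over `O1`;
* `S35I2C_not_mem_q` : `V ∉ V2` at the level `q` (by the surjectivity `A0(q) = A0(1) + π V1`
  and a comparison of orders modulo `π`: no analysis);
* `S35I2C_wL_compat` : the Atkin–Lehner involution of level `N = q N'` restricts to the one of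
  level `q`;
* `S35I2C_not_mem` : `V ∉ V2` at every level `N = q N'`.
-/

set_option autoImplicit false
set_option linter.unusedVariables false
set_option linter.unusedSectionVars false
set_option linter.style.haveILetI false
set_option maxHeartbeats 1600000
set_option synthInstance.maxHeartbeats 400000

open ModularCurve Polynomial
open Fermat.Agent.S28_helper14_Defs
open Fermat.Agent.S18_helper13_GAUSS Fermat.Agent.S18_helper9_CDefs
open Fermat.Agent.S18_helper25_COREDefs Fermat.Agent.S34_helper12_CDefs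
  Fermat.Agent.S18_helper20_CSAT Fermat.Agent.S34_helper20_V0K Fermat.Agent.S34_helper20_V0
  Fermat.Agent.S34_helper20_WQ Fermat.Agent.S34_helper27_V3K
  Fermat.Agent.S34_helper13_P1C Fermat.Agent.S34_helper13_HJQM
  Fermat.Agent.S35_helper29_I2B

noncomputable section

namespace Fermat.Agent.S35_helper29_I2C

/-! ### Orders of polynomials in `j` -/

section Order

variable {k : Type*} [Field k]

theorem S35I2C_orderTop_aeval (j : LaurentSeries k) (hj : j.orderTop = ((-1 : ℤ) : WithTop ℤ))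
    (c : Polynomial k) (hne : c ≠ 0) :
    (Polynomial.aeval j c).orderTop = ((-(c.natDegree : ℤ) : ℤ) : WithTop ℤ) := by
  have hlead : c.leadingCoeff ≠ 0 := Polynomial.leadingCoeff_ne_zero.mpr hne
  rcases Nat.eq_zero_or_pos c.natDegree with h0 | hpos
  · have hc0 : c.coeff 0 ≠ 0 := by
      intro h
      apply hne
      rw [Polynomial.eq_C_of_natDegree_eq_zero h0, h, map_zero]
    rw [h0, Polynomial.eq_C_of_natDegree_eq_zero h0, Polynomial.aeval_C,
      Fermat.Agent.S28_NORMARG.orderTop_algebraMap hc0]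
    simp
  · have hdecomp := Polynomial.eraseLead_add_C_mul_X_pow c
    have h1 : Polynomial.aeval j c = Polynomial.aeval j c.eraseLead +
        algebraMap k _ c.leadingCoeff * j ^ c.natDegree := by
      calc Polynomial.aeval j c
          = Polynomial.aeval j (c.eraseLead + C c.leadingCoeff * X ^ c.natDegree) := by
            rw [hdecomp]
        _ = _ := by rw [map_add, map_mul, Polynomial.aeval_C, map_pow, Polynomial.aeval_X]
    have h2 : ((-((c.natDegree - 1 : ℕ) : ℤ) : ℤ) : WithTop ℤ) ≤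
        (Polynomial.aeval j c.eraseLead).orderTop :=
      Fermat.Agent.S28_NORMARG.le_orderTop_aeval j hj.ge _ _ (Polynomial.eraseLead_natDegree_le c)
    have h3 : (algebraMap k (LaurentSeries k) c.leadingCoeff * j ^ c.natDegree).orderTop =
        ((-(c.natDegree : ℤ) : ℤ) : WithTop ℤ) := by
      rw [HahnSeries.orderTop_mul, Fermat.Agent.S28_NORMARG.orderTop_algebraMap hlead,
        Fermat.Agent.S28_NORMARG.orderTop_pow, hj, zero_add, ← WithTop.coe_nsmul]
      congr 1
      simp
    have h4 : (algebraMap k (LaurentSeries k) c.leadingCoeff * j ^ c.natDegree).orderTop <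
        (Polynomial.aeval j c.eraseLead).orderTop := by
      rw [h3]
      refine lt_of_lt_of_le ?_ h2
      apply WithTop.coe_lt_coe.mpr
      omega
    have h5 := HahnSeries.orderTop_add_eq_left h4
    rw [add_comm, ← h1, h3] at h5
    exact h5

/-- a series of positive order is not a polynomial in `j` unless it is zero -/
theorem S35I2C_aeval_ne (j : LaurentSeries k) (hj : j.orderTop = ((-1 : ℤ) : WithTop ℤ))
    (c : Polynomial k) (x : LaurentSeries k) (hx0 : x ≠ 0) (m : ℕ) (hm : 0 < m)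
    (hx : x.orderTop = (((m : ℕ) : ℤ) : WithTop ℤ)) : Polynomial.aeval j c ≠ x := by
  intro h
  by_cases hc : c = 0
  · rw [hc, map_zero] at h
    exact hx0 h.symm
  have h1 := S35I2C_orderTop_aeval j hj c hc
  rw [h, hx] at h1
  have h2 := WithTop.coe_injective h1
  omega

end Order

/-! ### The concrete carriers -/

variable (A : ValuationSubring (AlgebraicClosure ℚ))
  (K1 : IntermediateField ℚ (AlgebraicClosure ℚ)) [IsDiscreteValuationRing (S18K_O1 A K1)]

/-- polynomials in `j` over `O1`, as elements of `L` -/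
def S35I2C_Phi : Polynomial (S18K_O1 A K1) →+* LaurentSeries K1 :=
  (S18K_D A K1).incS.comp
    (Polynomial.aeval (jqModC (S18K_O1 A K1)) :
      Polynomial (S18K_O1 A K1) →ₐ[S18K_O1 A K1] LaurentSeries (S18K_O1 A K1)).toRingHom

theorem S35I2C_Phi_apply (P : Polynomial (S18K_O1 A K1)) :
    S35I2C_Phi A K1 P = (S18K_D A K1).incS (Polynomial.aeval (jqModC (S18K_O1 A K1)) P) := rfl

/-- every element of `O[j]` is `incS (P(j))` for a polynomial `P` over `O1` -/
theorem S35I2C_adj_le {a : LaurentSeries K1} (ha : a ∈ adj (S18K_O A K1) (S18K_j K1)) :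
    ∃ P : Polynomial (S18K_O1 A K1),
      (S18K_D A K1).incS (Polynomial.aeval (jqModC (S18K_O1 A K1)) P) = a := by
  have hle : adj (S18K_O A K1) (S18K_j K1) ≤ (S35I2C_Phi A K1).range := by
    unfold adj
    rw [Subring.closure_le]
    rintro x (hx | hx)
    · obtain ⟨c, rfl⟩ := (Fermat.Agent.S37_helper13_KAPPA3.S37KC_hOc A K1 x).1 hx
      refine ⟨Polynomial.C c, ?_⟩
      rw [S35I2C_Phi_apply, Polynomial.aeval_C]
      ext n
      rw [GaussData.incS_coeff, Fermat.Agent.S28_INDEPMOD.algebraMap_eq_single,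
        HahnSeries.C_apply]
      by_cases hn : n = 0
      · subst hn
        rw [HahnSeries.coeff_single_same, HahnSeries.coeff_single_same]
      · rw [HahnSeries.coeff_single_of_ne hn, HahnSeries.coeff_single_of_ne hn, map_zero]
    · rw [Set.mem_singleton_iff] at hx
      refine ⟨Polynomial.X, ?_⟩
      rw [S35I2C_Phi_apply, Polynomial.aeval_X, hx, GaussData.incS, coeffMap_jqModC]
      rfl
  obtain ⟨P, hP⟩ := hle ha
  exact ⟨P, hP⟩

/-- the reduction of `incS (P(j))` is a polynomial in `j` -/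
theorem S35I2C_redFun_Phi (P : Polynomial (S18K_O1 A K1)) :
    (S18K_D A K1).redFun ((S18K_D A K1).incS (Polynomial.aeval (jqModC (S18K_O1 A K1)) P)) =
      Polynomial.aeval (jqModC (IsLocalRing.ResidueField A)) (P.map (S18K_D A K1).res) := by
  rw [GaussData.redFun_incS, GaussData.redS, Fermat.Agent.S28_INDEPMOD.coeffMap_aeval,
    coeffMap_jqModC]

/-! ### Valuation rings of `F1` containing the chart and `π⁻¹` -/

section Val

variable (q N' N : ℕ) [NeZero N'] [NeZero N] (hq : q.Prime) (hqN : ¬ q ∣ N') (hN : N = q * N')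

include hq hqN hN in
/-- the constants lie in every ring containing the chart and `π⁻¹` -/
theorem S35I2C_C_mem (hA : A.LiesOverPrime q) {W : Subring (LaurentSeries K1)}
    (hA0W : S18K_A0 A K1 N ≤ W) (hπW : (S18K_π A K1)⁻¹ ∈ W) (c : K1) :
    (HahnSeries.C c : LaurentSeries K1) ∈ W := by
  have S := S34P1C_setup2 A K1 q N' N hq hqN hN hA
  have hOW : S18K_O A K1 ≤ W := (S34HJQ_O_le_A0 S).trans hA0W
  rcases (S18K_O1 A K1).mem_or_inv_mem c with hc | hc
  · exact hOW ((S18K_mem_O A K1 _).2 ⟨c, hc, rfl⟩)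
  · by_cases hc0 : c = 0
    · rw [hc0, map_zero]; exact W.zero_mem
    have hb : HahnSeries.C c⁻¹ ∈ S18K_O A K1 := (S18K_mem_O A K1 _).2 ⟨c⁻¹, hc, rfl⟩
    have hb0 : (HahnSeries.C c⁻¹ : LaurentSeries K1) ≠ 0 := by
      intro h0
      have := HahnSeries.C_injective (Γ := ℤ) (R := K1) (by rw [h0, map_zero] :
        HahnSeries.C c⁻¹ = HahnSeries.C (0 : K1))
      exact inv_ne_zero hc0 this
    have := S34HJQ_inv_mem S hOW hπW hb hb0
    rw [map_inv₀, inv_inv] at this
    exact this

include hq hqN hN in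
/-- `j` lies in every ring containing the chart -/
theorem S35I2C_j_mem (hA : A.LiesOverPrime q) {W : Subring (LaurentSeries K1)}
    (hA0W : S18K_A0 A K1 N ≤ W) : jqModC K1 ∈ W := by
  have S := S34P1C_setup2 A K1 q N' N hq hqN hN hA
  apply hA0W
  rw [S.chart0.mem_iff]
  refine ⟨?_, S.j_mem⟩
  have hj' : S18K_j K1 ∈ adj (S18K_O A K1) (S18K_j K1) :=
    Subring.subset_closure (Or.inr rfl)
  exact isIntegral_algebraMap (R := adj (S18K_O A K1) (S18K_j K1))
    (A := LaurentSeries K1) (x := ⟨S18K_j K1, hj'⟩)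

omit [IsDiscreteValuationRing (S18K_O1 A K1)] in
theorem S35I2C_aeval_mem {W : Subring (LaurentSeries K1)}
    (hC : ∀ c : K1, (HahnSeries.C c : LaurentSeries K1) ∈ W) (hj : jqModC K1 ∈ W)
    (P : Polynomial K1) : Polynomial.aeval (jqModC K1) P ∈ W := by
  rw [Polynomial.aeval_eq_sum_range]
  refine W.sum_mem fun i _ => ?_
  rw [Algebra.smul_def, Fermat.Agent.S28_INDEPMOD.algebraMap_eq_single, ← HahnSeries.C_apply]
  exact W.mul_mem (hC _) (W.pow_mem hj i)

include hq hqN hN in
/-- **integrality in valuation form**: a root `x ∈ F1` of a monic polynomial over `K1[j]` lies in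
every valuation ring of `F1` containing the chart and `π⁻¹` -/
theorem S35I2C_mem_W (hA : A.LiesOverPrime q) {W : Subring (LaurentSeries K1)}
    (hWval : ∀ x ∈ S18K_F1 K1 N, x ∈ W ∨ x⁻¹ ∈ W)
    (hA0W : S18K_A0 A K1 N ≤ W) (hπW : (S18K_π A K1)⁻¹ ∈ W)
    {x : LaurentSeries K1} (hxF : x ∈ S18K_F1 K1 N) (n : ℕ) (P : ℕ → Polynomial K1)
    (hP0 : P 0 = 1)
    (hrel : ∑ i ∈ Finset.range (n + 1),
      Polynomial.aeval (jqModC K1) (P i) * x ^ (n - i) = 0) : x ∈ W :=
  S35I2B_mem_of_rel W x n (fun i => Polynomial.aeval (jqModC K1) (P i))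
    (fun i => S35I2C_aeval_mem K1 (S35I2C_C_mem A K1 q N' N hq hqN hN hA hA0W hπW)
      (S35I2C_j_mem A K1 q N' N hq hqN hN hA hA0W) (P i))
    (by show Polynomial.aeval (jqModC K1) (P 0) = 1; rw [hP0, map_one]) hrel (hWval x hxF)

include hq hqN hN in
/-- the same for the inverse, when the constant term is a nonzero constant -/
theorem S35I2C_inv_mem_W (hA : A.LiesOverPrime q) {W : Subring (LaurentSeries K1)}
    (hWval : ∀ x ∈ S18K_F1 K1 N, x ∈ W ∨ x⁻¹ ∈ W)
    (hA0W : S18K_A0 A K1 N ≤ W) (hπW : (S18K_π A K1)⁻¹ ∈ W)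
    {x : LaurentSeries K1} (hxF : x ∈ S18K_F1 K1 N) (n : ℕ) (P : ℕ → Polynomial K1)
    (u : K1) (hu : u ≠ 0) (hPn : P n = Polynomial.C u)
    (hrel : ∑ i ∈ Finset.range (n + 1),
      Polynomial.aeval (jqModC K1) (P i) * x ^ (n - i) = 0) : x⁻¹ ∈ W := by
  have hCW := S35I2C_C_mem A K1 q N' N hq hqN hN hA hA0W hπW
  have han : Polynomial.aeval (jqModC K1) (P n) = (HahnSeries.C u : LaurentSeries K1) := by
    rw [hPn, Polynomial.aeval_C, Fermat.Agent.S28_INDEPMOD.algebraMap_eq_single,
      HahnSeries.C_apply]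
  refine S35I2B_inv_mem_of_rel W x n (fun i => Polynomial.aeval (jqModC K1) (P i))
    (fun i => S35I2C_aeval_mem K1 hCW (S35I2C_j_mem A K1 q N' N hq hqN hN hA hA0W) (P i))
    ?_ ?_ hrel (hWval x hxF)
  · show Polynomial.aeval (jqModC K1) (P n) ≠ 0
    rw [han]
    intro h0
    exact hu (HahnSeries.C_injective (Γ := ℤ) (R := K1) (by rw [h0, map_zero]))
  · show (Polynomial.aeval (jqModC K1) (P n))⁻¹ ∈ W
    rw [han, ← map_inv₀]
    exact hCW _

end Val

/-! ### The chart of level `1` is `O[j]` -/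

theorem S35I2C_exists_poly (hjtr : Transcendental (S18K_O A K1) (S18K_j K1))
    (hdvr : IsDiscreteValuationRing (S18K_O A K1)) {a : LaurentSeries K1}
    (ha : a ∈ S18K_A0 A K1 1) :
    ∃ P : Polynomial (S18K_O1 A K1),
      (S18K_D A K1).incS (Polynomial.aeval (jqModC (S18K_O1 A K1)) P) = a := by
  haveI := hdvr
  haveI : IsIntegrallyClosed (adj (S18K_O A K1) (S18K_j K1)) :=
    CSAT_isIntegrallyClosed_adj _ _ hjtr
  obtain ⟨hint, hF⟩ := mem_icl.1 ha
  obtain ⟨z, hz, hz0, hza⟩ := Fermat.Agent.S34_helper18_RELN.S34RELN_frac A K1 hF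
  obtain ⟨b, hb⟩ := Fermat.Agent.S34_helper14_N1.S34N1_mem_range_of_isIntegrallyClosed
    (adj (S18K_O A K1) (S18K_j K1)).subtype Subtype.val_injective a hint ⟨z, hz⟩ ⟨z * a, hza⟩
    (by intro h; exact hz0 (congrArg Subtype.val h)) rfl
  have hb' : a ∈ adj (S18K_O A K1) (S18K_j K1) := by
    have : ((b : adj (S18K_O A K1) (S18K_j K1)) : LaurentSeries K1) = a := hb
    rw [← this]
    exact b.2
  exact S35I2C_adj_le A K1 hb'

/-! ### The modular unit is not in `V2`, level `q` -/

section NotMemQ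

variable (q : ℕ) [NeZero q] (hq : q.Prime)

include hq in
/-- **the modular unit of level `q` is not in `V2`** (level `q`) -/
theorem S35I2C_not_mem_q (hA : A.LiesOverPrime q) (h : S18K_Admissible A K1 q)
    (U : PowerSeries ℤ) (m : ℕ) (hm : 0 < m) (hU : PowerSeries.constantCoeff U = 1)
    (hVF : Vser K1 m U ∈ modularFunctionFieldFullC K1 q)
    (n : ℕ) (P : ℕ → Polynomial K1) (hP0 : P 0 = 1)
    (hrel : ∑ i ∈ Finset.range (n + 1),
      Polynomial.aeval (jqModC K1) (P i) * (Vser K1 m U) ^ (n - i) = 0) :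
    Vser K1 m U ∉ S34V0K_V A K1 q 1 q hq hq.not_dvd_one (mul_one q).symm := by
  intro h2
  have hN : q = q * 1 := (mul_one q).symm
  have S := S34P1C_setup2 A K1 q 1 q hq hq.not_dvd_one hN hA
  have h1 : Vser K1 m U ∈ S18K_V A K1 q := ⟨S35I2B_Vser_mem_Vring (S18K_D A K1) m U, hVF⟩
  have hA0 : Vser K1 m U ∈ S18K_A0 A K1 q := by
    apply S34HJQ_descend S h1 h2
    intro W hWF hWval hA0W hπW
    exact S35I2C_mem_W A K1 q 1 q hq hq.not_dvd_one hN hA hWval hA0W hπW hVF n P hP0 hrel
  obtain ⟨a, ha, v, hv, hav⟩ := Fermat.Agent.S34_helper14_N1SJ.S34N1SJ_sf A K1 q 1 q hq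
    hq.not_dvd_one hN hA h _ hA0
  obtain ⟨R, hR⟩ := S35I2C_exists_poly A K1 S.j_trans S.dvr ha
  have haV : a ∈ (S18K_D A K1).Vring := by
    rw [← hR]; exact (S18K_D A K1).incS_mem_Vring _
  have hVa : Vser K1 m U = a + (S18K_D A K1).πK * v := by
    have : S18K_π A K1 = (S18K_D A K1).πK := rfl
    rw [← this, ← hav]; ring
  have hred : (S18K_D A K1).redFun (Vser K1 m U) = (S18K_D A K1).redFun a := by
    rw [hVa, (S18K_D A K1).redFun_add haV
      ((S18K_D A K1).Vring.mul_mem (S18K_D A K1).πK_mem_Vring hv.1),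
      (S18K_D A K1).redFun_πK_mul hv.1, add_zero]
  rw [S35I2B_redFun_Vser, ← hR, S35I2C_redFun_Phi] at hred
  exact S35I2C_aeval_ne (jqModC (IsLocalRing.ResidueField A))
    (Fermat.Agent.S28_INDEPC.orderTop_jqModC _) _ (Vser (IsLocalRing.ResidueField A) m U)
    (S35I2B_Vser_ne_zero _ m U hU) m hm (Fermat.Agent.S28_INDEPC.orderTop_Vser _ m U hU)
    hred.symm

end NotMemQ

/-! ### Compatibility of the Atkin–Lehner involutions of the levels `q` and `N = q N'` -/

section Compat

variable {K : Type*} [Field K] (emb : K →+* Fermat.Agent.S24.Kbar) (q N' N : ℕ) [NeZero N']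
  [NeZero N] [NeZero q] (hq : q.Prime) (hqN : ¬ q ∣ N') (hN : N = q * N')

omit [NeZero N'] [NeZero N] [NeZero q] in
include hN in
theorem S35I2C_F_mono : modularFunctionFieldFullC K q ≤ modularFunctionFieldFullC K N := by
  have hdvd : q ∣ N := ⟨N', hN⟩
  refine IntermediateField.adjoin.mono _ _ _ ?_
  rintro y ⟨d, hd, hdN, rfl⟩
  exact ⟨d, hd, hdN.trans hdvd, rfl⟩

theorem S35I2C_wL_compat {x : LaurentSeries K} (hx : x ∈ modularFunctionFieldFullC K q) :
    S34V0_wL emb q N' N hq hqN hN x =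
      S34V0_wL emb q 1 q hq hq.not_dvd_one (mul_one q).symm x := by
  have hdvd : q ∣ N := ⟨N', hN⟩
  have hle : modularFunctionFieldFullC K q ≤ modularFunctionFieldFullC K N :=
    S35I2C_F_mono (K := K) q N' N hN
  rw [S34V0_wL_of_mem emb q N' N hq hqN hN (hle hx),
    S34V0_wL_of_mem emb q 1 q hq hq.not_dvd_one (mul_one q).symm hx]
  let f : modularFunctionFieldFullC K q →+* LaurentSeries K :=
    ((modularFunctionFieldFullC K N).val : _ →+* LaurentSeries K).comp
      (((S34V0_w emb q N' N hq hqN hN :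
          modularFunctionFieldFullC K N ≃ₐ[K] modularFunctionFieldFullC K N) :
          modularFunctionFieldFullC K N →+* modularFunctionFieldFullC K N).comp
        ((IntermediateField.inclusion hle :
          modularFunctionFieldFullC K q →ₐ[K] modularFunctionFieldFullC K N) :
          modularFunctionFieldFullC K q →+* modularFunctionFieldFullC K N))
  let g : modularFunctionFieldFullC K q →+* LaurentSeries K :=
    ((modularFunctionFieldFullC K q).val : _ →+* LaurentSeries K).comp
      ((S34V0_w emb q 1 q hq hq.not_dvd_one (mul_one q).symm :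
          modularFunctionFieldFullC K q ≃ₐ[K] modularFunctionFieldFullC K q) :
          modularFunctionFieldFullC K q →+* modularFunctionFieldFullC K q)
  have key := S34WQ_ringHom_ext q f g ?_ ?_ ⟨x, hx⟩
  · exact key
  · intro c hc
    show ((S34V0_w emb q N' N hq hqN hN ⟨HahnSeries.C c, hle hc⟩ :
        modularFunctionFieldFullC K N) : LaurentSeries K) =
      ((S34V0_w emb q 1 q hq hq.not_dvd_one (mul_one q).symm ⟨HahnSeries.C c, hc⟩ :
        modularFunctionFieldFullC K q) : LaurentSeries K)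
    rw [S34V0_w_C, S34V0_w_C]
  · intro d _ hd hm
    haveI : NeZero (S34WQ_dual q d) :=
      ⟨S34WQ_dual_ne_zero hq.pos (Nat.pos_of_ne_zero (NeZero.ne d))⟩
    show ((S34V0_w emb q N' N hq hqN hN ⟨qExpand K d (jqModC K), hle hm⟩ :
        modularFunctionFieldFullC K N) : LaurentSeries K) =
      ((S34V0_w emb q 1 q hq hq.not_dvd_one (mul_one q).symm ⟨qExpand K d (jqModC K), hm⟩ :
        modularFunctionFieldFullC K q) : LaurentSeries K)
    rw [S34V0_w_gen emb q N' N hq hqN hN d (hd.trans hdvd) (hle hm),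
      S34V0_w_gen emb q 1 q hq hq.not_dvd_one (mul_one q).symm d hd hm]

end Compat

/-! ### The modular unit is not in `V2`, level `N = q N'` -/

section NotMem

variable (q N' N : ℕ) [NeZero N'] [NeZero N] [NeZero q]
  (hq : q.Prime) (hqN : ¬ q ∣ N') (hN : N = q * N')

include hq hqN hN in
/-- **the modular unit of level `q` is not in `V2`** (level `N = q N'`) -/
theorem S35I2C_not_mem (hA : A.LiesOverPrime q) (h : S18K_Admissible A K1 q)
    (U : PowerSeries ℤ) (m : ℕ) (hm : 0 < m) (hU : PowerSeries.constantCoeff U = 1)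
    (hVF : Vser K1 m U ∈ modularFunctionFieldFullC K1 q)
    (n : ℕ) (P : ℕ → Polynomial K1) (hP0 : P 0 = 1)
    (hrel : ∑ i ∈ Finset.range (n + 1),
      Polynomial.aeval (jqModC K1) (P i) * (Vser K1 m U) ^ (n - i) = 0) :
    Vser K1 m U ∉ S34V0K_V A K1 q N' N hq hqN hN := by
  intro h2
  apply S35I2C_not_mem_q A K1 q hq hA h U m hm hU hVF n P hP0 hrel
  rw [S34V0K_mem_V] at h2 ⊢
  refine ⟨hVF, ?_, ?_⟩
  · rw [← S35I2C_wL_compat (S34V0K_emb K1) q N' N hq hqN hN hVF]
    exact h2.2.1
  · exact S34V0_wL_mem (S34V0K_emb K1) q 1 q hq hq.not_dvd_one (mul_one q).symm _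

end NotMem

end Fermat.Agent.S35_helper29_I2C
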