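import Fermat.Agent.S35_helper29_I2C

/-!
# S35, piece (I2) = termination, part D (helper29): the unit data at the level `N = q N'`

`q` a prime, `q ∤ N'`, `N = q N'`, `A` over `q`, `K1` an admissible level; `V1` the Gauss ring of
`F1 = K1(j(q^d) : d ∣ N)`, `V2 = w(V1)`, `X = A0(N)` the finite chart, `π` the uniformiser.

* `S35I2D_unit` : there are `g ∈ X` and `c ≥ 1` with `g` a unit of `V1`, `s g = π ^ c` for an
  element `s ∈ X` which is a unit of `V2`, and such that every `x ∈ X ∩ π ^ c V2` is divisible by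
  `g` in `X`: the divisor of `g` on the chart is `c` times the component `V2` of the special
  fibre.  (`g = 1 / V`, `V` the modular unit of level `q`.)
-/

set_option autoImplicit false
set_option linter.unusedVariables false
set_option linter.unusedSectionVars false
set_option linter.style.haveILetI false
set_option maxHeartbeats 1600000
set_option synthInstance.maxHeartbeats 400000

open ModularCurve Polynomial
open Fermat.Agent.S20 Fermat.Agent.S28_helper14_Defs Fermat.Agent.S28_helper14_ADefs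
open Fermat.Agent.S18_helper13_GAUSS Fermat.Agent.S18_helper9_CDefs
open Fermat.Agent.S18_helper25_COREDefs Fermat.Agent.S34_helper12_CDefs
  Fermat.Agent.S18_helper20_CSAT Fermat.Agent.S34_helper20_V0K Fermat.Agent.S34_helper20_V0
  Fermat.Agent.S34_helper20_WQ Fermat.Agent.S34_helper27_V3K
  Fermat.Agent.S34_helper13_P1C Fermat.Agent.S34_helper13_HJQM
  Fermat.Agent.S35_helper29_I2B Fermat.Agent.S35_helper29_I2C

noncomputable section

namespace Fermat.Agent.S35_helper29_I2D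

variable (A : ValuationSubring (AlgebraicClosure ℚ))
  (K1 : IntermediateField ℚ (AlgebraicClosure ℚ)) [IsDiscreteValuationRing (S18K_O1 A K1)]
  (q N' N : ℕ) [NeZero N'] [NeZero N] [NeZero q]
  (hq : q.Prime) (hqN : ¬ q ∣ N') (hN : N = q * N')

include hq hqN hN in
/-- **the unit data**: a function `g` on the chart whose divisor is `c ≥ 1` times the component
`V2` of the special fibre. -/
theorem S35I2D_unit (hA : A.LiesOverPrime q) (h : S18K_Admissible A K1 q) :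
    ∃ (g : LaurentSeries K1) (c : ℕ), 1 ≤ c ∧ g ≠ 0 ∧ g ∈ S18K_A0 A K1 N ∧
      g⁻¹ ∈ S18K_V A K1 N ∧
      (∃ s ∈ S18K_A0 A K1 N, s⁻¹ ∈ S34V0K_V A K1 q N' N hq hqN hN ∧
        s * g = S18K_π A K1 ^ c) ∧
      (∀ x ∈ S18K_A0 A K1 N, (∃ v ∈ S34V0K_V A K1 q N' N hq hqN hN,
        x = S18K_π A K1 ^ c * v) → ∃ y ∈ S18K_A0 A K1 N, x = g * y) := by
  haveI : CharZero K1 := inferInstance
  obtain ⟨U, P, u, hU, hP0, hu, hPn, hrel, hVq⟩ := S35I2B_unit K1 q
  set n := Fintype.card (Q q) with hn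
  set m := k0 q * (Fintype.card (Q q) - 1) with hm
  have hm0 : 0 < m := by
    have h1 := Fermat.Agent.S28_ORDER.k0_pos q (NeZero.pos q)
    have h2 := Fermat.Agent.S35_helper29_I2A.S35I2A_card_Q q hq.two_le
    exact Nat.mul_pos h1 (by omega)
  set V := Vser K1 m U with hVdef
  have S := S34P1C_setup2 A K1 q N' N hq hqN hN hA
  have hVF : V ∈ modularFunctionFieldFullC K1 N := S35I2C_F_mono q N' N hN hVq
  have hV0 : V ≠ 0 := S35I2B_Vser_ne_zero K1 m U hU
  have hV1 : V ∈ S18K_V A K1 N := ⟨S35I2B_Vser_mem_Vring (S18K_D A K1) m U, hVF⟩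
  have hV1' : V⁻¹ ∈ S18K_V A K1 N :=
    ⟨S35I2B_Vser_inv_mem_Vring (S18K_D A K1) m U hU,
      (modularFunctionFieldFullC K1 N).inv_mem hVF⟩
  have hV2 : V ∉ S34V0K_V A K1 q N' N hq hqN hN :=
    S35I2C_not_mem A K1 q N' N hq hqN hN hA h U m hm0 hU hVq n P hP0 hrel
  -- the valuation of `w V`
  set wL := S34V0_wL (S34V0K_emb K1) q N' N hq hqN hN with hwL
  have hwV0 : wL V ≠ 0 := by
    intro h0
    have h1 := S34V0_wL_wL (S34V0K_emb K1) q N' N hq hqN hN hVF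
    rw [← hwL, h0, hwL, S34V0_wL_zero] at h1
    exact hV0 h1.symm
  have hwVF : wL V ∈ S18K_F1 K1 N := S34V0_wL_mem (S34V0K_emb K1) q N' N hq hqN hN V
  have hπ0 : S18K_π A K1 ≠ 0 := (S18K_D A K1).πK_ne_zero
  have hπC : ∃ c : K1, HahnSeries.C c = S18K_π A K1 := ⟨_, rfl⟩
  have hπF : S18K_π A K1 ∈ modularFunctionFieldFullC K1 N := by
    obtain ⟨c, hc⟩ := hπC
    rw [← hc]; exact S34V0_C_mem N c
  have hwπ : wL (S18K_π A K1) = S18K_π A K1 := by
    obtain ⟨c, hc⟩ := hπC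
    rw [← hc]; exact S34V0_wL_C (S34V0K_emb K1) q N' N hq hqN hN c
  obtain ⟨z, u₁, hu₁, hu₁', hz⟩ :=
    Fermat.Agent.S34_helper13_KEYK.S34KEYK_sep A K1 N (wL V) hwVF hwV0
  have hzneg : z < 0 := by
    by_contra hz0
    rw [not_lt] at hz0
    obtain ⟨k, rfl⟩ := Int.eq_ofNat_of_zero_le hz0
    apply hV2
    rw [S34V0K_mem_V]
    refine ⟨hVF, ?_⟩
    rw [← hwL, hz, zpow_natCast]
    exact Subring.mul_mem _ (Subring.pow_mem _ (S34V3K_π_mem_V A K1 N) k) hu₁
  obtain ⟨c, hc⟩ := Int.eq_ofNat_of_zero_le (show 0 ≤ -z by omega)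
  have hc1 : 1 ≤ c := by omega
  have hzc : z = -(c : ℤ) := by omega
  -- `s = π ^ c V` is a unit of `V2`
  have hsF : S18K_π A K1 ^ c * V ∈ modularFunctionFieldFullC K1 N :=
    mul_mem (pow_mem hπF c) hVF
  have hws : wL (S18K_π A K1 ^ c * V) = u₁ := by
    rw [hwL, S34V0_wL_mul (S34V0K_emb K1) q N' N hq hqN hN (pow_mem hπF c) hVF,
      S34V0_wL_pow (S34V0K_emb K1) q N' N hq hqN hN hπF, ← hwL, hwπ, hz, hzc, zpow_neg,
      zpow_natCast, ← mul_assoc, mul_inv_cancel₀ (pow_ne_zero c hπ0), one_mul]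
  have hs2 : S18K_π A K1 ^ c * V ∈ S34V0K_V A K1 q N' N hq hqN hN := by
    rw [S34V0K_mem_V]
    refine ⟨hsF, ?_⟩
    rw [← hwL, hws]; exact hu₁
  have hs2' : (S18K_π A K1 ^ c * V)⁻¹ ∈ S34V0K_V A K1 q N' N hq hqN hN := by
    rw [S34V0K_mem_V]
    refine ⟨(modularFunctionFieldFullC K1 N).inv_mem hsF, ?_⟩
    rw [S34V0_wL_inv (S34V0K_emb K1) q N' N hq hqN hN hsF, ← hwL, hws]; exact hu₁'
  have hπV2 : S18K_π A K1 ∈ S34V0K_V A K1 q N' N hq hqN hN :=
    (S34V0K_val A K1 q N' N hq hqN hN).π_mem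
  -- `g = V⁻¹`
  have hg2 : V⁻¹ ∈ S34V0K_V A K1 q N' N hq hqN hN := by
    have e : V⁻¹ = S18K_π A K1 ^ c * (S18K_π A K1 ^ c * V)⁻¹ := by
      rw [mul_inv, ← mul_assoc, mul_inv_cancel₀ (pow_ne_zero c hπ0), one_mul]
    rw [e]
    exact Subring.mul_mem _ (Subring.pow_mem _ hπV2 c) hs2'
  have hgA : V⁻¹ ∈ S18K_A0 A K1 N := by
    apply S34HJQ_descend S hV1' hg2
    intro W hWF hWval hA0W hπW
    exact S35I2C_inv_mem_W A K1 q N' N hq hqN hN hA hWval hA0W hπW hVF n P u hu hPn hrel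
  have hsA : S18K_π A K1 ^ c * V ∈ S18K_A0 A K1 N := by
    apply S34HJQ_descend S (Subring.mul_mem _ (Subring.pow_mem _ (S34V3K_π_mem_V A K1 N) c) hV1)
      hs2
    intro W hWF hWval hA0W hπW
    refine W.mul_mem (W.pow_mem ?_ c) ?_
    · obtain ⟨c', hc'⟩ := hπC
      rw [← hc']
      exact S35I2C_C_mem A K1 q N' N hq hqN hN hA hA0W hπW c'
    · exact S35I2C_mem_W A K1 q N' N hq hqN hN hA hWval hA0W hπW hVF n P hP0 hrel
  refine ⟨V⁻¹, c, hc1, inv_ne_zero hV0, hgA, by rw [inv_inv]; exact hV1,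
    ⟨S18K_π A K1 ^ c * V, hsA, hs2', by rw [mul_assoc, mul_inv_cancel₀ hV0, mul_one]⟩, ?_⟩
  rintro x hx ⟨v, hv, hxv⟩
  have hx12 := S.chart0.le_V hx
  refine ⟨x * V, ?_, by rw [mul_comm x V, ← mul_assoc, inv_mul_cancel₀ hV0, one_mul]⟩
  apply S34HJQ_descend S (Subring.mul_mem _ hx12.1 hV1)
  · have e : x * V = v * (S18K_π A K1 ^ c * V) := by rw [hxv]; ring
    rw [e]
    exact Subring.mul_mem _ hv hs2
  · intro W hWF hWval hA0W hπW
    exact W.mul_mem (hA0W hx)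
      (S35I2C_mem_W A K1 q N' N hq hqN hN hA hWval hA0W hπW hVF n P hP0 hrel)

end Fermat.Agent.S35_helper29_I2D
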