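import Fermat.Agent.S35_helper29_I2D
import Fermat.Agent.S35_helper9_DEEP
import Fermat.Agent.S34_helper17_L2KF
import Fermat.Agent.S34_helper17_NODE

/-!
# S35, piece (I2) = termination, part E (helper29): exact finite thickness at a crossing point

* `S35I2E_bound_abs` (Subring-`L` vocabulary): if `g` is a function on the chart `X` whose
  divisor is `c` times the component `V2` (`s g = π ^ c` with `s` a unit of `V2`, and
  `X ∩ π ^ c V2 ⊆ g X`), then node coordinates `T S = π ^ k (..)` at a crossing point `m`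
  (`m = (π, T, S)` locally, `T` a unit of `V1`, `T ∈ π ^ k V2`, `S ∈ π V1`) have `k ≤ c`;
* `S35I2E_bound` : for the finite chart of level `N = q N'` there is `c₀` with `k ≤ c₀` for all
  node data (`S34LGK_NodeData`) at all crossing points;
* `S35I2E_node_stop` : the STOP alternative of X-L2 (`S34LGK_Node`) holds at every crossing
  point: there are node coordinates with `T S = ϖ ^ k c`, `c` a UNIT of the local ring.
-/

set_option autoImplicit false
set_option linter.unusedVariables false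
set_option linter.unusedSectionVars false
set_option linter.style.haveILetI false
set_option maxHeartbeats 1600000
set_option synthInstance.maxHeartbeats 400000

open ModularCurve
open Fermat.Agent.S18_helper13_GAUSS Fermat.Agent.S18_helper9_CDefs
open Fermat.Agent.S18_helper25_COREDefs Fermat.Agent.S34_helper12_CDefs
  Fermat.Agent.S34_helper20_V0K Fermat.Agent.S34_helper13_P1C Fermat.Agent.S34_helper13_HJQM
  Fermat.Agent.S18_helper3_LOCRING Fermat.Agent.S34_Contracts Fermat.Agent.S34_helper7_LGDefs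
  Fermat.Agent.S35_helper9_DEEP Fermat.Agent.S34_helper17_NODE
  Fermat.Agent.S35_helper29_I2D

noncomputable section

namespace Fermat.Agent.S35_helper29_I2E

local notation "Qb" => AlgebraicClosure ℚ
local notation "GQ" => (AlgebraicClosure ℚ ≃ₐ[ℚ] AlgebraicClosure ℚ)

/-! ### The abstract bound -/

section Abs

variable {L : Type*} [Field L]

/-- **termination**: a function whose divisor is `c` times one component bounds the thickness of
every node on that component by `c`. -/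
theorem S35I2E_bound_abs (π : L) (V1 V2 X : Subring L) (hX1 : X ≤ V1) (hX2 : X ≤ V2)
    (hu1 : ∀ x ∈ V1, x⁻¹ ∉ V1 → ∃ v ∈ V1, x = π * v)
    (hu2 : ∀ x ∈ V2, x⁻¹ ∉ V2 → ∃ v ∈ V2, x = π * v)
    (hn1 : π⁻¹ ∉ V1) (hn2 : π⁻¹ ∉ V2)
    (hπ : π ∈ X) (m : Ideal X) [hm : m.IsPrime]
    (ht1 : S34K_Thru π V1 X m) (ht2 : S34K_Thru π V2 X m)
    (g : L) (c : ℕ) (hc1 : 1 ≤ c) (hgX : g ∈ X)
    (s : L) (hsX : s ∈ X) (hs' : s⁻¹ ∈ V2) (hsg : s * g = π ^ c)
    (hdiv : ∀ x ∈ X, (∃ v ∈ V2, x = π ^ c * v) → ∃ y ∈ X, x = g * y)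
    (k : ℕ) (T S : L) (hT : T ∈ X) (hS : S ∈ X) (hT0 : T ≠ 0) (hTi : T⁻¹ ∈ V1)
    (hT2 : ∃ v ∈ V2, T = π ^ k * v) (hS1 : ∃ v ∈ V1, S = π * v)
    (hgen : IsLocalRing.maximalIdeal (locRing X m) =
      Ideal.span ({incl X m ⟨π, hπ⟩, incl X m ⟨T, hT⟩, incl X m ⟨S, hS⟩} :
        Set (locRing X m))) :
    k ≤ c := by
  by_contra hkc
  rw [not_le] at hkc
  obtain ⟨d, rfl⟩ := Nat.exists_eq_add_of_lt hkc
  have hπ0 : π ≠ 0 := by
    rintro rfl
    exact hn1 (by rw [inv_zero]; exact V1.zero_mem)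
  have hR1 := S35DEEP_locRing_le π V1 X hX1 hu1 m ht1
  have hR2 := S35DEEP_locRing_le π V2 X hX2 hu2 m ht2
  obtain ⟨v, hv, hTv⟩ := hT2
  obtain ⟨v₁, hv₁, hSv⟩ := hS1
  have hs0 : s ≠ 0 := by
    rintro rfl
    rw [zero_mul] at hsg
    exact pow_ne_zero c hπ0 hsg.symm
  have hg0 : g ≠ 0 := by
    rintro rfl
    rw [mul_zero] at hsg
    exact pow_ne_zero c hπ0 hsg.symm
  -- division of `T` by `g`
  obtain ⟨y, hyX, hTy⟩ := hdiv T hT ⟨π ^ (d + 1) * v,
    V2.mul_mem (V2.pow_mem (hX2 hπ) _) hv, by rw [hTv]; ring⟩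
  -- `g ∈ m`
  obtain ⟨c', rfl⟩ := Nat.exists_eq_add_of_le hc1
  have hgπ : g = π * (π ^ c' * s⁻¹) := by
    have h1 : g = π ^ (1 + c') * s⁻¹ := by
      rw [← hsg, mul_comm s g, mul_assoc, mul_inv_cancel₀ hs0, mul_one]
    rw [h1]; ring
  have hgm : (⟨g, hgX⟩ : X) ∈ m :=
    ht2 ⟨g, hgX⟩ ⟨_, V2.mul_mem (V2.pow_mem (hX2 hπ) _) hs', hgπ⟩
  by_cases hym : (⟨y, hyX⟩ : X) ∈ m
  · -- `T ∈ m_R ^ 2`: impossible
    have hgR := incl_mem_maximalIdeal X m hgm
    have hyR := incl_mem_maximalIdeal X m hym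
    have hTR : incl X m ⟨T, hT⟩ ∈ IsLocalRing.maximalIdeal (locRing X m) := by
      rw [hgen]; exact Ideal.subset_span (by simp)
    rw [hgen] at hgR hyR
    obtain ⟨a₁, b₁, c₁, e₁⟩ := S34N_mem_span_triple.mp hgR
    obtain ⟨a₂, b₂, c₂, e₂⟩ := S34N_mem_span_triple.mp hyR
    have E1 : g = (a₁ : L) * π + (b₁ : L) * T + (c₁ : L) * S := by
      have := congrArg (fun z : locRing X m => (z : L)) e₁
      simpa using this
    have E2 : y = (a₂ : L) * π + (b₂ : L) * T + (c₂ : L) * S := by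
      have := congrArg (fun z : locRing X m => (z : L)) e₂
      simpa using this
    have hunit : IsUnit (1 - b₁ * b₂ * incl X m ⟨T, hT⟩) := by
      apply IsLocalRing.isUnit_one_sub_self_of_mem_nonunits
      have : b₁ * b₂ * incl X m ⟨T, hT⟩ ∈ IsLocalRing.maximalIdeal (locRing X m) :=
        Ideal.mul_mem_left _ _ hTR
      exact this
    obtain ⟨w, hw⟩ := hunit.exists_right_inv
    have hwL : (1 - (b₁ : L) * (b₂ : L) * T) * (w : L) = 1 := by
      have := congrArg (fun z : locRing X m => (z : L)) hw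
      simpa using this
    apply hn1
    set Aa : L := (a₁ : L) * (a₂ : L) * π + (a₁ : L) * (b₂ : L) * T + (a₁ : L) * (c₂ : L) * S
          + (a₂ : L) * (b₁ : L) * T + (a₂ : L) * (c₁ : L) * S
          + v₁ * ((b₁ : L) * (c₂ : L) * T + (c₁ : L) * (b₂ : L) * T
            + (c₁ : L) * (c₂ : L) * S) with hAa
    have hkey : T * (1 - (b₁ : L) * (b₂ : L) * T) = π * Aa := by
      have h2 : T * (1 - (b₁ : L) * (b₂ : L) * T) = g * y - (b₁ : L) * (b₂ : L) * T * T := by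
        rw [← hTy]; ring
      rw [h2, E1, E2, hAa]
      linear_combination ((b₁ : L) * (c₂ : L) * T + (c₁ : L) * (b₂ : L) * T
        + (c₁ : L) * (c₂ : L) * S) * hSv
    have h4 : T = π * Aa * (w : L) := by
      calc T = T * ((1 - (b₁ : L) * (b₂ : L) * T) * (w : L)) := by rw [hwL, mul_one]
        _ = (T * (1 - (b₁ : L) * (b₂ : L) * T)) * (w : L) := by ring
        _ = π * Aa * (w : L) := by rw [hkey]
    have hπinv : π⁻¹ = Aa * (w : L) * T⁻¹ := by
      apply inv_eq_of_mul_eq_one_right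
      calc π * (Aa * (w : L) * T⁻¹) = (π * Aa * (w : L)) * T⁻¹ := by ring
        _ = T * T⁻¹ := by rw [← h4]
        _ = 1 := mul_inv_cancel₀ hT0
    rw [hπinv]
    have hAaV : Aa ∈ V1 := by
      have ha₁ := hR1 a₁.2
      have ha₂ := hR1 a₂.2
      have hb₁ := hR1 b₁.2
      have hb₂ := hR1 b₂.2
      have hc₁ := hR1 c₁.2
      have hc₂ := hR1 c₂.2
      have hπV := hX1 hπ
      have hTV := hX1 hT
      have hSV := hX1 hS
      rw [hAa]
      exact V1.add_mem (V1.add_mem (V1.add_mem (V1.add_mem (V1.add_mem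
        (V1.mul_mem (V1.mul_mem ha₁ ha₂) hπV) (V1.mul_mem (V1.mul_mem ha₁ hb₂) hTV))
        (V1.mul_mem (V1.mul_mem ha₁ hc₂) hSV)) (V1.mul_mem (V1.mul_mem ha₂ hb₁) hTV))
        (V1.mul_mem (V1.mul_mem ha₂ hc₁) hSV))
        (V1.mul_mem hv₁ (V1.add_mem (V1.add_mem (V1.mul_mem (V1.mul_mem hb₁ hc₂) hTV)
          (V1.mul_mem (V1.mul_mem hc₁ hb₂) hTV)) (V1.mul_mem (V1.mul_mem hc₁ hc₂) hSV)))
    exact V1.mul_mem (V1.mul_mem hAaV (hR1 w.2)) hTi
  · -- `y` is a unit of the local ring: `v2 T = c`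
    have hyi : y⁻¹ ∈ locRing X m := inv_mem_locRing X m hym
    have hyi2 := hR2 hyi
    have hy0 : y ≠ 0 := coe_ne_zero_of_notMem X m hym
    apply hn2
    have h1 : π ^ (1 + c') * y = π ^ (1 + c') * (π ^ (d + 1) * (s * v)) := by
      calc π ^ (1 + c') * y = s * (g * y) := by rw [← hsg]; ring
        _ = s * T := by rw [hTy]
        _ = π ^ (1 + c') * (π ^ (d + 1) * (s * v)) := by rw [hTv]; ring
    have h2 : y = π ^ (d + 1) * (s * v) := mul_left_cancel₀ (pow_ne_zero _ hπ0) h1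
    have h3 : π⁻¹ = π ^ d * (s * v * y⁻¹) := by
      apply inv_eq_of_mul_eq_one_right
      calc π * (π ^ d * (s * v * y⁻¹)) = (π ^ (d + 1) * (s * v)) * y⁻¹ := by ring
        _ = y * y⁻¹ := by rw [← h2]
        _ = 1 := mul_inv_cancel₀ hy0
    rw [h3]
    exact V2.mul_mem (V2.pow_mem (hX2 hπ) d) (V2.mul_mem (V2.mul_mem (hX2 hsX) hv) hyi2)

end Abs

/-! ### The finite chart of level `N = q N'` -/

section Concrete

variable (q N' N : ℕ) [NeZero N'] [NeZero N] [NeZero q]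
  (hq : q.Prime) (hqN : ¬ q ∣ N') (hN : N = q * N')
  (A : ValuationSubring Qb) (hA : A.LiesOverPrime q)
  (K1 : IntermediateField ℚ Qb) (h : S18K_Admissible A K1 q)
  (hstab : ∀ σ : GQ, ∀ x ∈ K1, σ x ∈ K1)

include hq hqN hN hA h in
/-- **(I2), termination**: the exponent of every node datum at every crossing point of the
finite chart is bounded by one constant `c₀`. -/
theorem S35I2E_bound :
    letI := h.dvr
    ∃ c₀ : ℕ, ∀ (hπ : S18K_π A K1 ∈ S18K_A0 A K1 N) (m : Ideal (S18K_A0 A K1 N))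
      (hm : m.IsMaximal), (⟨S18K_π A K1, hπ⟩ : S18K_A0 A K1 N) ∈ m →
      S34K_Thru (S18K_π A K1) (S18K_V A K1 N) (S18K_A0 A K1 N) m →
      S34K_Thru (S18K_π A K1) (S34V0K_V A K1 q N' N hq hqN hN) (S18K_A0 A K1 N) m →
      ∀ (ϖ : K1) (k : ℕ) (T S c : LaurentSeries K1),
        (haveI := hm.isPrime
         S34LGK_NodeData N A K1 hstab (S34V0K_V A K1 q N' N hq hqN hN) (S18K_A0 A K1 N) m
          ϖ k T S c) → k ≤ c₀ := by
  letI := h.dvr
  obtain ⟨g, c₀, hc1, hg0, hgA, hgi, ⟨s, hsA, hs', hsg⟩, hdiv⟩ :=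
    S35I2D_unit A K1 q N' N hq hqN hN hA h
  refine ⟨c₀, ?_⟩
  intro hπ m hm hπm ht1 ht2 ϖ k T S c hnd
  haveI := hm.isPrime
  have S2 := S34P1C_setup2 A K1 q N' N hq hqN hN hA
  have hO : S18K_O A K1 ≤ S18K_A0 A K1 N := S34HJQ_O_le_A0 S2
  have hX1 : S18K_A0 A K1 N ≤ S18K_V A K1 N := fun x hx => (S2.chart0.le_V hx).1
  have hX2 : S18K_A0 A K1 N ≤ S34V0K_V A K1 q N' N hq hqN hN :=
    fun x hx => (S2.chart0.le_V hx).2
  rcases Nat.eq_zero_or_pos k with hk | hk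
  · rw [hk]; exact Nat.zero_le _
  have hT2 := S35DEEP_T_mem A K1 (S34V0K_V A K1 q N' N hq hqN hN) (S18K_A0 A K1 N) hO hX2
    S2.V2_unif m ht2 ϖ hnd.ϖ_nonunit k T S c hnd.c_mem hnd.mul_eq hnd.S_ne hnd.S_inv
  obtain ⟨v₁, hv₁, hSv⟩ := S35DEEP_T_mem A K1 (S18K_V A K1 N) (S18K_A0 A K1 N) hO hX1
    S2.V1_unif m ht1 ϖ hnd.ϖ_nonunit k S T c hnd.c_mem (by rw [mul_comm]; exact hnd.mul_eq)
    hnd.T_ne hnd.T_inv
  have hS1 : ∃ v ∈ S18K_V A K1 N, S = S18K_π A K1 * v := by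
    obtain ⟨k', rfl⟩ := Nat.exists_eq_add_of_le hk
    refine ⟨S18K_π A K1 ^ k' * v₁,
      Subring.mul_mem _ (Subring.pow_mem _ (hX1 hπ) k') hv₁, ?_⟩
    rw [hSv]; ring
  exact S35I2E_bound_abs (S18K_π A K1) (S18K_V A K1 N) (S34V0K_V A K1 q N' N hq hqN hN)
    (S18K_A0 A K1 N) hX1 hX2 S2.V1_unif S2.V2_unif S2.V1_nonunit S2.V2_nonunit hπ m ht1 ht2
    g c₀ hc1 hgA s hsA hs' hsg hdiv k T S hnd.T_mem hnd.S_mem hnd.T_ne hnd.T_inv hT2 hS1
    (hnd.gen hπ)

include hq hqN hN hA h in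
/-- **(I2), exact finite thickness**: at every crossing point of the finite chart there are
node coordinates `T S = ϖ ^ k c` with `c` a UNIT of the local ring (the STOP alternative of
X-L2, always). -/
theorem S35I2E_node_stop :
    letI := h.dvr
    ∀ (hπ : S18K_π A K1 ∈ S18K_A0 A K1 N) (m : Ideal (S18K_A0 A K1 N))
      (hm : m.IsMaximal), (⟨S18K_π A K1, hπ⟩ : S18K_A0 A K1 N) ∈ m →
      S34K_Thru (S18K_π A K1) (S18K_V A K1 N) (S18K_A0 A K1 N) m →
      S34K_Thru (S18K_π A K1) (S34V0K_V A K1 q N' N hq hqN hN) (S18K_A0 A K1 N) m →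
      ∃ (ϖ : K1) (k : ℕ) (T S c : LaurentSeries K1),
        (haveI := hm.isPrime
         S34LGK_NodeData N A K1 hstab (S34V0K_V A K1 q N' N hq hqN hN) (S18K_A0 A K1 N) m
          ϖ k T S c) ∧ c ≠ 0 ∧ c⁻¹ ∈ (haveI := hm.isPrime; locRing (S18K_A0 A K1 N) m) := by
  letI := h.dvr
  obtain ⟨c₀, hc₀⟩ := S35I2E_bound q N' N hq hqN hN A hA K1 h hstab
  have hnode := Fermat.Agent.S34_helper17_L2KF.S34L2KF_node_gen q N' N hq hqN hN A hA K1 h hstab
  intro hπ m hm hπm ht1 ht2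
  obtain ⟨ϖ, k, T, S, c, hnd, hc⟩ := hnode hπ m hm hπm ht1 ht2 (c₀ + 1)
  refine ⟨ϖ, k, T, S, c, hnd, ?_⟩
  rcases hc with hc | hc
  · exact hc
  · exfalso
    have := hc₀ hπ m hm hπm ht1 ht2 ϖ k T S c hnd
    omega

end Concrete

end Fermat.Agent.S35_helper29_I2E
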