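import Mathlib
import Fermat.Agent.S35_helper2_BRREG
import Fermat.Agent.S34_helper7_LGDefs
import Fermat.Agent.S34_helper6_LGREDK
import Fermat.Agent.S34_helper2_HARTOGSK

/-!
# S35, GEO: branch regularity at a crossing point, from the node coordinates (helper2)

The concrete adapter of `S35_helper2_BRREG`: at a crossing point `m` of a chart `X` of a
two-valuation setup with node coordinates `(ϖ, k, T, S, c)` (`S34LGK_NodeData`, X-L2),

* `S35BRK_one_le`   : `1 ≤ k` (STOP or GO with bound `B ≥ 1`);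
* `S35BRK_S_mem`, `S35BRK_T_mem` : `S ∈ π V1`, `T ∈ π V2`;
* `S35BRK_gen1`, `S35BRK_gen2` : the maximal ideal of the local ring at `m` is `(T) + (R ∩ π V1)`
  and `(S) + (R ∩ π V2)` (both branches are regular at `m`);
* `S35BRK_trans` : transversality, `m_R = (R ∩ π V1) + (R ∩ π V2)`;
* `S35BRK_reg_V1`, `S35BRK_reg_V2` : BR-REG on the two branches from `S34LGK_NodeData`;
* `S35BRK_reg_node_V1`, `S35BRK_reg_node_V2` : BR-REG on the two branches from the contract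
  `S34LGK_Node` of X-L2.
-/

set_option autoImplicit false
set_option linter.unusedSectionVars false
set_option linter.unusedVariables false
set_option linter.style.haveILetI false

open HahnSeries IntermediateField ModularCurve
open Fermat.Agent.S18_helper25_COREDefs Fermat.Agent.S18_helper9_CDefs
  Fermat.Agent.S34_helper12_CDefs Fermat.Agent.S18_helper3_LOCRING
  Fermat.Agent.S34_Contracts Fermat.Agent.S34_helper7_LGDefs
  Fermat.Agent.S34_helper6_LGRED Fermat.Agent.S34_helper6_LGREDK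
  Fermat.Agent.S34_helper2_HARTOGSK Fermat.Agent.S35_helper2_BRREG

noncomputable section

namespace Fermat.Agent.S35_helper2_BRREGK

local notation "Qb" => AlgebraicClosure ℚ
local notation "GQ" => (AlgebraicClosure ℚ ≃ₐ[ℚ] AlgebraicClosure ℚ)

variable (N : ℕ) [NeZero N] (A : ValuationSubring Qb) (K1 : IntermediateField ℚ Qb)
  (hstab : ∀ σ : GQ, ∀ x ∈ K1, σ x ∈ K1) [IsDiscreteValuationRing (S18K_O1 A K1)]

/-- `C (ϖ ^ k) ∈ π O` for a nonunit constant `ϖ` and `k ≥ 1`. -/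
theorem S35BRK_C_pow {ϖ : K1} (hϖ : (ϖ : Qb) ∈ A.nonunits) {k : ℕ} (hk : 1 ≤ k) :
    ∃ o ∈ S18K_O A K1, (HahnSeries.C (ϖ ^ k) : LaurentSeries K1) = S18K_π A K1 * o := by
  obtain ⟨h, hdvd⟩ := S34LRK_dvd_of_nonunit A K1 hϖ
  obtain ⟨o, ho, hoe⟩ := S34LRK_C_dvd A K1 (X := S18K_O A K1) le_rfl hdvd
  have hϖO : (HahnSeries.C ϖ : LaurentSeries K1) ∈ S18K_O A K1 :=
    S34LRK_C_mem A K1 ⟨ϖ, h⟩
  obtain ⟨k', rfl⟩ : ∃ k', k = k' + 1 := ⟨k - 1, by omega⟩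
  refine ⟨o * (HahnSeries.C ϖ) ^ k', Subring.mul_mem _ ho (Subring.pow_mem _ hϖO k'), ?_⟩
  have e : (HahnSeries.C ((⟨ϖ, h⟩ : S18K_O1 A K1) : K1) : LaurentSeries K1) =
      S18K_π A K1 * o := hoe
  have e' : (HahnSeries.C ϖ : LaurentSeries K1) = S18K_π A K1 * o := e
  rw [pow_succ, map_mul, map_pow]
  rw [mul_comm ((HahnSeries.C ϖ : LaurentSeries K1) ^ k')]
  nth_rewrite 1 [e']
  ring

section Node

variable {V2 X : Subring (LaurentSeries K1)} {m : Ideal X} [hm : m.IsPrime]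
  {ϖ : K1} {k : ℕ} {T S c : LaurentSeries K1}

/-- `T` lies in the maximal ideal of the local ring at `m`. -/
theorem S35BRK_T_max (hD : S34LGK_NodeData N A K1 hstab V2 X m ϖ k T S c)
    (hπ : S18K_π A K1 ∈ X) :
    incl X m ⟨T, hD.T_mem⟩ ∈ IsLocalRing.maximalIdeal (locRing X m) := by
  rw [hD.gen hπ]
  exact Ideal.subset_span (by simp)

/-- `S` lies in the maximal ideal of the local ring at `m`. -/
theorem S35BRK_S_max (hD : S34LGK_NodeData N A K1 hstab V2 X m ϖ k T S c)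
    (hπ : S18K_π A K1 ∈ X) :
    incl X m ⟨S, hD.S_mem⟩ ∈ IsLocalRing.maximalIdeal (locRing X m) := by
  rw [hD.gen hπ]
  exact Ideal.subset_span (by simp)

/-- **`1 ≤ k`** at a crossing point, in the STOP case as well. -/
theorem S35BRK_one_le (hD : S34LGK_NodeData N A K1 hstab V2 X m ϖ k T S c)
    (hπ : S18K_π A K1 ∈ X) (h : (c ≠ 0 ∧ c⁻¹ ∈ locRing X m) ∨ 1 ≤ k) : 1 ≤ k := by
  rcases h with ⟨hc0, hcinv⟩ | h
  · by_contra hk
    have hk0 : k = 0 := by omega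
    subst hk0
    have hT := S35BRK_T_max N A K1 hstab hD hπ
    -- `T * (S * c⁻¹) = 1` in the local ring
    have hSR : S ∈ locRing X m := le_locRing X m hD.S_mem
    have hu : IsUnit (incl X m ⟨T, hD.T_mem⟩) := by
      refine IsUnit.of_mul_eq_one (⟨S * c⁻¹, Subring.mul_mem _ hSR hcinv⟩ : locRing X m) ?_
      apply Subtype.ext
      show T * (S * c⁻¹) = 1
      have e := hD.mul_eq
      rw [pow_zero, map_one, one_mul] at e
      rw [← mul_assoc, e, mul_inv_cancel₀ hc0]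
    exact (IsLocalRing.mem_maximalIdeal _).1 hT hu
  · exact h

/-- `S ∈ π V1`. -/
theorem S35BRK_S_mem (hX1 : X ≤ S18K_V A K1 N) (hOX : S18K_O A K1 ≤ X)
    (hD : S34LGK_NodeData N A K1 hstab V2 X m ϖ k T S c) (hk : 1 ≤ k)
    (hunif1 : ∀ x ∈ S18K_V A K1 N, x⁻¹ ∉ S18K_V A K1 N → ∃ v ∈ S18K_V A K1 N,
      x = S18K_π A K1 * v)
    (hthru1 : ∀ a : X, (∃ v ∈ S18K_V A K1 N, (a : LaurentSeries K1) = S18K_π A K1 * v) → a ∈ m) :
    ∃ v ∈ S18K_V A K1 N, S = S18K_π A K1 * v := by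
  obtain ⟨o, ho, hoe⟩ := S35BRK_C_pow A K1 hD.ϖ_nonunit hk
  have hcV : c ∈ S18K_V A K1 N :=
    S34LR_locRing_le (S18K_π A K1) (S18K_V A K1 N) X m hX1 hunif1 hthru1 hD.c_mem
  refine ⟨T⁻¹ * o * c, Subring.mul_mem _ (Subring.mul_mem _ hD.T_inv (hX1 (hOX ho))) hcV, ?_⟩
  have e := hD.mul_eq
  rw [hoe] at e
  have hT0 := hD.T_ne
  field_simp
  linear_combination e

/-- `T ∈ π V2`. -/
theorem S35BRK_T_mem (hX2 : X ≤ V2) (hOX : S18K_O A K1 ≤ X)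
    (hD : S34LGK_NodeData N A K1 hstab V2 X m ϖ k T S c) (hk : 1 ≤ k)
    (hunif2 : ∀ x ∈ V2, x⁻¹ ∉ V2 → ∃ v ∈ V2, x = S18K_π A K1 * v)
    (hthru2 : ∀ a : X, (∃ v ∈ V2, (a : LaurentSeries K1) = S18K_π A K1 * v) → a ∈ m) :
    ∃ v ∈ V2, T = S18K_π A K1 * v := by
  obtain ⟨o, ho, hoe⟩ := S35BRK_C_pow A K1 hD.ϖ_nonunit hk
  have hcV : c ∈ V2 :=
    S34LR_locRing_le (S18K_π A K1) V2 X m hX2 hunif2 hthru2 hD.c_mem
  refine ⟨S⁻¹ * o * c, Subring.mul_mem _ (Subring.mul_mem _ hD.S_inv (hX2 (hOX ho))) hcV, ?_⟩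
  have e := hD.mul_eq
  rw [hoe] at e
  have hS0 := hD.S_ne
  field_simp
  linear_combination e

/-- an element of the maximal ideal of the local ring is `a π + b T + c S`. -/
theorem S35BRK_decomp (hD : S34LGK_NodeData N A K1 hstab V2 X m ϖ k T S c)
    (hπ : S18K_π A K1 ∈ X) (y : locRing X m)
    (hy : y ∈ IsLocalRing.maximalIdeal (locRing X m)) :
    ∃ a b d : locRing X m, (y : LaurentSeries K1) =
      (a : LaurentSeries K1) * S18K_π A K1 + (b : LaurentSeries K1) * T +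
        (d : LaurentSeries K1) * S := by
  rw [hD.gen hπ, Ideal.mem_span_insert] at hy
  obtain ⟨a, z, hz, rfl⟩ := hy
  rw [Ideal.mem_span_pair] at hz
  obtain ⟨b, d, rfl⟩ := hz
  exact ⟨a, b, d, by push_cast; simp only [coe_incl]; ring⟩

/-- **the first branch is regular at `m`**: `m_R = (T) + (R ∩ π V1)`. -/
theorem S35BRK_gen1 (hX1 : X ≤ S18K_V A K1 N) (hOX : S18K_O A K1 ≤ X)
    (hD : S34LGK_NodeData N A K1 hstab V2 X m ϖ k T S c) (hk : 1 ≤ k)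
    (hπ : S18K_π A K1 ∈ X)
    (hunif1 : ∀ x ∈ S18K_V A K1 N, x⁻¹ ∉ S18K_V A K1 N → ∃ v ∈ S18K_V A K1 N,
      x = S18K_π A K1 * v)
    (hthru1 : ∀ a : X, (∃ v ∈ S18K_V A K1 N, (a : LaurentSeries K1) = S18K_π A K1 * v) → a ∈ m) :
    ∃ t ∈ IsLocalRing.maximalIdeal (locRing X m),
      ∀ y ∈ IsLocalRing.maximalIdeal (locRing X m), ∃ r : locRing X m, ∃ v ∈ S18K_V A K1 N,
        (y : LaurentSeries K1) = (r : LaurentSeries K1) * (t : LaurentSeries K1) +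
          S18K_π A K1 * v := by
  refine ⟨incl X m ⟨T, hD.T_mem⟩, S35BRK_T_max N A K1 hstab hD hπ, ?_⟩
  intro y hy
  obtain ⟨a, b, d, hyd⟩ := S35BRK_decomp N A K1 hstab hD hπ y hy
  obtain ⟨v, hv, hSv⟩ := S35BRK_S_mem N A K1 hstab hX1 hOX hD hk hunif1 hthru1
  have hle : locRing X m ≤ S18K_V A K1 N :=
    S34LR_locRing_le (S18K_π A K1) (S18K_V A K1 N) X m hX1 hunif1 hthru1
  refine ⟨b, (a : LaurentSeries K1) + (d : LaurentSeries K1) * v,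
    Subring.add_mem _ (hle a.2) (Subring.mul_mem _ (hle d.2) hv), ?_⟩
  rw [hyd, coe_incl]
  show (a : LaurentSeries K1) * S18K_π A K1 + (b : LaurentSeries K1) * T +
      (d : LaurentSeries K1) * S = (b : LaurentSeries K1) * T +
        S18K_π A K1 * ((a : LaurentSeries K1) + (d : LaurentSeries K1) * v)
  rw [hSv]; ring

/-- **the second branch is regular at `m`**: `m_R = (S) + (R ∩ π V2)`. -/
theorem S35BRK_gen2 (hX2 : X ≤ V2) (hOX : S18K_O A K1 ≤ X)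
    (hD : S34LGK_NodeData N A K1 hstab V2 X m ϖ k T S c) (hk : 1 ≤ k)
    (hπ : S18K_π A K1 ∈ X)
    (hunif2 : ∀ x ∈ V2, x⁻¹ ∉ V2 → ∃ v ∈ V2, x = S18K_π A K1 * v)
    (hthru2 : ∀ a : X, (∃ v ∈ V2, (a : LaurentSeries K1) = S18K_π A K1 * v) → a ∈ m) :
    ∃ t ∈ IsLocalRing.maximalIdeal (locRing X m),
      ∀ y ∈ IsLocalRing.maximalIdeal (locRing X m), ∃ r : locRing X m, ∃ v ∈ V2,
        (y : LaurentSeries K1) = (r : LaurentSeries K1) * (t : LaurentSeries K1) +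
          S18K_π A K1 * v := by
  refine ⟨incl X m ⟨S, hD.S_mem⟩, S35BRK_S_max N A K1 hstab hD hπ, ?_⟩
  intro y hy
  obtain ⟨a, b, d, hyd⟩ := S35BRK_decomp N A K1 hstab hD hπ y hy
  obtain ⟨v, hv, hTv⟩ := S35BRK_T_mem N A K1 hstab hX2 hOX hD hk hunif2 hthru2
  have hle : locRing X m ≤ V2 :=
    S34LR_locRing_le (S18K_π A K1) V2 X m hX2 hunif2 hthru2
  refine ⟨d, (a : LaurentSeries K1) + (b : LaurentSeries K1) * v,
    Subring.add_mem _ (hle a.2) (Subring.mul_mem _ (hle b.2) hv), ?_⟩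
  rw [hyd, coe_incl]
  show (a : LaurentSeries K1) * S18K_π A K1 + (b : LaurentSeries K1) * T +
      (d : LaurentSeries K1) * S = (d : LaurentSeries K1) * S +
        S18K_π A K1 * ((a : LaurentSeries K1) + (b : LaurentSeries K1) * v)
  rw [hTv]; ring

/-- **transversality**: every element of the maximal ideal of the local ring at `m` is
`t1 + t2` with `t1 ∈ R ∩ π V1` and `t2 ∈ R ∩ π V2`. -/
theorem S35BRK_trans (hX1 : X ≤ S18K_V A K1 N) (hX2 : X ≤ V2) (hOX : S18K_O A K1 ≤ X)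
    (hD : S34LGK_NodeData N A K1 hstab V2 X m ϖ k T S c) (hk : 1 ≤ k)
    (hπ : S18K_π A K1 ∈ X)
    (hunif1 : ∀ x ∈ S18K_V A K1 N, x⁻¹ ∉ S18K_V A K1 N → ∃ v ∈ S18K_V A K1 N,
      x = S18K_π A K1 * v)
    (hthru1 : ∀ a : X, (∃ v ∈ S18K_V A K1 N, (a : LaurentSeries K1) = S18K_π A K1 * v) → a ∈ m)
    (hunif2 : ∀ x ∈ V2, x⁻¹ ∉ V2 → ∃ v ∈ V2, x = S18K_π A K1 * v)
    (hthru2 : ∀ a : X, (∃ v ∈ V2, (a : LaurentSeries K1) = S18K_π A K1 * v) → a ∈ m) :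
    ∀ y ∈ IsLocalRing.maximalIdeal (locRing X m), ∃ t1 t2 : locRing X m, y = t1 + t2 ∧
      (∃ v ∈ S18K_V A K1 N, (t1 : LaurentSeries K1) = S18K_π A K1 * v) ∧
      ∃ v ∈ V2, (t2 : LaurentSeries K1) = S18K_π A K1 * v := by
  intro y hy
  obtain ⟨a, b, d, hyd⟩ := S35BRK_decomp N A K1 hstab hD hπ y hy
  obtain ⟨v1, hv1, hSv⟩ := S35BRK_S_mem N A K1 hstab hX1 hOX hD hk hunif1 hthru1
  obtain ⟨v2, hv2, hTv⟩ := S35BRK_T_mem N A K1 hstab hX2 hOX hD hk hunif2 hthru2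
  have hle1 : locRing X m ≤ S18K_V A K1 N :=
    S34LR_locRing_le (S18K_π A K1) (S18K_V A K1 N) X m hX1 hunif1 hthru1
  have hle2 : locRing X m ≤ V2 :=
    S34LR_locRing_le (S18K_π A K1) V2 X m hX2 hunif2 hthru2
  refine ⟨a * incl X m ⟨S18K_π A K1, hπ⟩ + d * incl X m ⟨S, hD.S_mem⟩,
    b * incl X m ⟨T, hD.T_mem⟩, ?_, ?_, ?_⟩
  · apply Subtype.ext
    push_cast
    simp only [coe_incl]
    rw [hyd]; ring
  · refine ⟨(a : LaurentSeries K1) + (d : LaurentSeries K1) * v1,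
      Subring.add_mem _ (hle1 a.2) (Subring.mul_mem _ (hle1 d.2) hv1), ?_⟩
    push_cast
    simp only [coe_incl]
    rw [hSv]; ring
  · refine ⟨(b : LaurentSeries K1) * v2, Subring.mul_mem _ (hle2 b.2) hv2, ?_⟩
    push_cast
    simp only [coe_incl]
    rw [hTv]; ring

end Node

section Wrap

variable {V2 A0 Ainf X : Subring (LaurentSeries K1)} {x : LaurentSeries K1}

/-- **BR-REG on the first branch, from node coordinates.** -/
theorem S35BRK_reg_V1 {m : Ideal X} [hm : m.IsPrime]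
    (S0 : S34C_Setup2 (S18K_O A K1) (S18K_π A K1) (S18K_j K1) (S18K_F1 K1 N)
      (S18K_V A K1 N) V2 A0 Ainf)
    (hC : Chart (S18K_O A K1) (S18K_π A K1) x (S18K_F1 K1 N) (S18K_V A K1 N ⊓ V2) X)
    [IsNoetherianRing X]
    (hthru1 : S34K_Thru (S18K_π A K1) (S18K_V A K1 N) X m)
    {ϖ : K1} {k : ℕ} {T S c : LaurentSeries K1}
    (hD : S34LGK_NodeData N A K1 hstab V2 X m ϖ k T S c) (hk : 1 ≤ k)
    (p : ℕ) (hp : 0 < p) (z : LaurentSeries K1) (hzF : z ∈ S18K_F1 K1 N)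
    (hz : z ∈ S18K_V A K1 N)
    (hpow : ∃ u0, u0 ∈ locRing X m ∧ u0⁻¹ ∈ locRing X m ∧ ∃ v ∈ S18K_V A K1 N,
      z ^ p = u0 * (1 + S18K_π A K1 * v)) :
    ∃ w, w ∈ locRing X m ∧ w⁻¹ ∈ locRing X m ∧ ∃ v ∈ S18K_V A K1 N,
      z = w * (1 + S18K_π A K1 * v) :=
  S35BRG_reg_V1 S0 hC hthru1
    (S35BRK_gen1 N A K1 hstab (fun _ ha => (hC.le_V ha).1) (S34HK_O_le S0 hC) hD hk
      (S34HK_pi_mem S0 hC) S0.V1_unif hthru1) p hp z hzF hz hpow

/-- **BR-REG on the second branch, from node coordinates.** -/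
theorem S35BRK_reg_V2 {m : Ideal X} [hm : m.IsPrime]
    (S0 : S34C_Setup2 (S18K_O A K1) (S18K_π A K1) (S18K_j K1) (S18K_F1 K1 N)
      (S18K_V A K1 N) V2 A0 Ainf)
    (hC : Chart (S18K_O A K1) (S18K_π A K1) x (S18K_F1 K1 N) (S18K_V A K1 N ⊓ V2) X)
    [IsNoetherianRing X]
    (hthru2 : S34K_Thru (S18K_π A K1) V2 X m)
    {ϖ : K1} {k : ℕ} {T S c : LaurentSeries K1}
    (hD : S34LGK_NodeData N A K1 hstab V2 X m ϖ k T S c) (hk : 1 ≤ k)
    (p : ℕ) (hp : 0 < p) (z : LaurentSeries K1) (hzF : z ∈ S18K_F1 K1 N) (hz : z ∈ V2)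
    (hpow : ∃ u0, u0 ∈ locRing X m ∧ u0⁻¹ ∈ locRing X m ∧ ∃ v ∈ V2,
      z ^ p = u0 * (1 + S18K_π A K1 * v)) :
    ∃ w, w ∈ locRing X m ∧ w⁻¹ ∈ locRing X m ∧ ∃ v ∈ V2,
      z = w * (1 + S18K_π A K1 * v) :=
  S35BRG_reg_V2 S0 hC hthru2
    (S35BRK_gen2 N A K1 hstab (fun _ ha => (hC.le_V ha).2) (S34HK_O_le S0 hC) hD hk
      (S34HK_pi_mem S0 hC) S0.V2_unif hthru2) p hp z hzF hz hpow

/-- **Node coordinates with `1 ≤ k`** from the contract `S34LGK_Node` of X-L2. -/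
theorem S35BRK_node (hNode : S34LGK_Node N A K1 hstab V2 X)
    (hπ : S18K_π A K1 ∈ X) (m : Ideal X) (hm : m.IsMaximal)
    (hπm : (⟨S18K_π A K1, hπ⟩ : X) ∈ m)
    (hthru1 : S34K_Thru (S18K_π A K1) (S18K_V A K1 N) X m)
    (hthru2 : S34K_Thru (S18K_π A K1) V2 X m) :
    ∃ (ϖ : K1) (k : ℕ) (T S c : LaurentSeries K1),
      haveI := hm.isPrime
      S34LGK_NodeData N A K1 hstab V2 X m ϖ k T S c ∧ 1 ≤ k := by
  haveI := hm.isPrime
  obtain ⟨ϖ, k, T, S, c, hD, h⟩ := hNode hπ m hm hπm hthru1 hthru2 1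
  exact ⟨ϖ, k, T, S, c, hD, S35BRK_one_le N A K1 hstab hD hπ h⟩

/-- **BR-REG on the first branch at a crossing point, from the contract `S34LGK_Node`.** -/
theorem S35BRK_reg_node_V1
    (S0 : S34C_Setup2 (S18K_O A K1) (S18K_π A K1) (S18K_j K1) (S18K_F1 K1 N)
      (S18K_V A K1 N) V2 A0 Ainf)
    (hC : Chart (S18K_O A K1) (S18K_π A K1) x (S18K_F1 K1 N) (S18K_V A K1 N ⊓ V2) X)
    [IsNoetherianRing X] (hNode : S34LGK_Node N A K1 hstab V2 X)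
    (hπ : S18K_π A K1 ∈ X) (m : Ideal X) (hm : m.IsMaximal)
    (hπm : (⟨S18K_π A K1, hπ⟩ : X) ∈ m)
    (hthru1 : S34K_Thru (S18K_π A K1) (S18K_V A K1 N) X m)
    (hthru2 : S34K_Thru (S18K_π A K1) V2 X m)
    (p : ℕ) (hp : 0 < p) (z : LaurentSeries K1) (hzF : z ∈ S18K_F1 K1 N)
    (hz : z ∈ S18K_V A K1 N) :
    haveI := hm.isPrime
    (∃ u0, u0 ∈ locRing X m ∧ u0⁻¹ ∈ locRing X m ∧ ∃ v ∈ S18K_V A K1 N,
      z ^ p = u0 * (1 + S18K_π A K1 * v)) →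
    ∃ w, w ∈ locRing X m ∧ w⁻¹ ∈ locRing X m ∧ ∃ v ∈ S18K_V A K1 N,
      z = w * (1 + S18K_π A K1 * v) := by
  haveI := hm.isPrime
  intro hpow
  obtain ⟨ϖ, k, T, S, c, hD, hk⟩ := S35BRK_node N A K1 hstab hNode hπ m hm hπm hthru1 hthru2
  exact S35BRK_reg_V1 N A K1 hstab S0 hC hthru1 hD hk p hp z hzF hz hpow

/-- **BR-REG on the second branch at a crossing point, from the contract `S34LGK_Node`.** -/
theorem S35BRK_reg_node_V2
    (S0 : S34C_Setup2 (S18K_O A K1) (S18K_π A K1) (S18K_j K1) (S18K_F1 K1 N)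
      (S18K_V A K1 N) V2 A0 Ainf)
    (hC : Chart (S18K_O A K1) (S18K_π A K1) x (S18K_F1 K1 N) (S18K_V A K1 N ⊓ V2) X)
    [IsNoetherianRing X] (hNode : S34LGK_Node N A K1 hstab V2 X)
    (hπ : S18K_π A K1 ∈ X) (m : Ideal X) (hm : m.IsMaximal)
    (hπm : (⟨S18K_π A K1, hπ⟩ : X) ∈ m)
    (hthru1 : S34K_Thru (S18K_π A K1) (S18K_V A K1 N) X m)
    (hthru2 : S34K_Thru (S18K_π A K1) V2 X m)
    (p : ℕ) (hp : 0 < p) (z : LaurentSeries K1) (hzF : z ∈ S18K_F1 K1 N) (hz : z ∈ V2) :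
    haveI := hm.isPrime
    (∃ u0, u0 ∈ locRing X m ∧ u0⁻¹ ∈ locRing X m ∧ ∃ v ∈ V2,
      z ^ p = u0 * (1 + S18K_π A K1 * v)) →
    ∃ w, w ∈ locRing X m ∧ w⁻¹ ∈ locRing X m ∧ ∃ v ∈ V2,
      z = w * (1 + S18K_π A K1 * v) := by
  haveI := hm.isPrime
  intro hpow
  obtain ⟨ϖ, k, T, S, c, hD, hk⟩ := S35BRK_node N A K1 hstab hNode hπ m hm hπm hthru1 hthru2
  exact S35BRK_reg_V2 N A K1 hstab S0 hC hthru2 hD hk p hp z hzF hz hpow

/-- **transversality at a crossing point, from the contract `S34LGK_Node`.** -/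
theorem S35BRK_trans_node
    (S0 : S34C_Setup2 (S18K_O A K1) (S18K_π A K1) (S18K_j K1) (S18K_F1 K1 N)
      (S18K_V A K1 N) V2 A0 Ainf)
    (hC : Chart (S18K_O A K1) (S18K_π A K1) x (S18K_F1 K1 N) (S18K_V A K1 N ⊓ V2) X)
    (hNode : S34LGK_Node N A K1 hstab V2 X)
    (hπ : S18K_π A K1 ∈ X) (m : Ideal X) (hm : m.IsMaximal)
    (hπm : (⟨S18K_π A K1, hπ⟩ : X) ∈ m)
    (hthru1 : S34K_Thru (S18K_π A K1) (S18K_V A K1 N) X m)
    (hthru2 : S34K_Thru (S18K_π A K1) V2 X m) :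
    haveI := hm.isPrime
    ∀ y ∈ IsLocalRing.maximalIdeal (locRing X m), ∃ t1 t2 : locRing X m, y = t1 + t2 ∧
      (∃ v ∈ S18K_V A K1 N, (t1 : LaurentSeries K1) = S18K_π A K1 * v) ∧
      ∃ v ∈ V2, (t2 : LaurentSeries K1) = S18K_π A K1 * v := by
  haveI := hm.isPrime
  obtain ⟨ϖ, k, T, S, c, hD, hk⟩ := S35BRK_node N A K1 hstab hNode hπ m hm hπm hthru1 hthru2
  exact S35BRK_trans N A K1 hstab (fun _ ha => (hC.le_V ha).1) (fun _ ha => (hC.le_V ha).2)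
    (S34HK_O_le S0 hC) hD hk hπ S0.V1_unif hthru1 S0.V2_unif hthru2

end Wrap

end Fermat.Agent.S35_helper2_BRREGK
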