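import Mathlib
import Fermat.Agent.S35_helper4_XB2
import Fermat.Agent.S35_helper27_XD2Defs

/-!
# S35, X-D-FROB, Part I for helper27's interface

`S35XB3_key_XD2 : S35XD2_KeyK1 N' q lam hq hqN → S35GT_Key N' q lam`: Part I (descent, closed
form, norm bridge discharged) consuming the key statement at one level in the shape of
helper27's `S35_helper27_XD2Defs` (the target of Part II, `S35XD2_Contract → S35XD2_KeyK1`).
-/

set_option autoImplicit false
set_option linter.unusedSectionVars false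
set_option linter.unusedVariables false

open HahnSeries IntermediateField AlgebraicCurve ModularCurve
open Fermat.Agent.S18_helper25_COREDefs Fermat.Agent.S34_helper5_K0
  Fermat.Agent.S34_helper6_RED Fermat.Agent.S37_helper5_LEVEL Fermat.Agent.S34_helper25_Defs
  Fermat.Agent.S34_helper21_ACT
  Fermat.Agent.S34_helper20_V0 Fermat.Agent.S34_helper20_V0K
  Fermat.Agent.S35_helper6_GEOTOP
  Fermat.Agent.S35_helper4_K1Defs Fermat.Agent.S35_helper4_XB Fermat.Agent.S35_helper4_XB2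
  Fermat.Agent.S35_helper27_XD2Defs
  Fermat.Agent.S37_helper4_B1Defs

noncomputable section

namespace Fermat.Agent.S35_helper4_XB3

local notation "Qb" => AlgebraicClosure ℚ
local notation "GQ" => (AlgebraicClosure ℚ ≃ₐ[ℚ] AlgebraicClosure ℚ)

set_option synthInstance.maxHeartbeats 400000 in
set_option maxHeartbeats 1600000 in
theorem S35XB3_pow_of_XD2 (N' q : ℕ) [NeZero N'] [NeZero q] (lam : ℕ) (hq : q.Prime)
    (hqN : ¬ q ∣ N') (hK1 : S35XD2_KeyK1 N' q lam hq hqN) :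
    S35XB2_KeyPow N' q lam hq hqN := by
  intro A hA K1 hadm hstab σ hσ D hDdeg hrat k' f0 hf0F hf00 hordf hnew h1 hh10 hpow hord hlead
  obtain ⟨⟨c₁, hc₁, h₁, hh₁, hh₁0, e₁⟩, ⟨c₂, hc₂, h₂, hh₂, hh₂0, e₂⟩⟩ := hnew
  have hordf' : ∀ P : Place Qb (modularFunctionFieldBar (N' * q)),
      S37B1_ordP (N' * q) K1 P f0 = ((lam ^ (k' + 1) : ℕ) : ℤ) * D P := by
    intro P
    refine (S37B1_ordP_eq (N' * q) K1 P ⟨f0, hf0F⟩).trans ?_
    refine (hordf P).trans ?_
    push_cast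
    ring
  have hnewα : S35XD2_NewAlpha K1 q N' (lam ^ (k' + 1)) f0 hf0F := by
    rw [pow_succ']
    exact ⟨c₁, hc₁, h₁, hh₁, hh₁0, e₁⟩
  have hnewβ : S35XD2_NewBeta K1 q N' hq hqN (lam ^ (k' + 1)) f0 := by
    rw [pow_succ']
    exact ⟨c₂, hc₂, h₂, hh₂, hh₂0, e₂⟩
  have hpow' : (h1 : LaurentSeries K1) ^ (lam ^ (k' + 1 - 1)) =
      S35XD2_f3 K1 hstab σ q f0 := by
    rw [Nat.add_sub_cancel]
    exact hpow
  exact hK1 A hA K1 hadm hstab σ hσ D hrat (k' + 1) (Nat.succ_le_succ (Nat.zero_le _))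
    f0 hf0F hf00 hordf' hnewα hnewβ h1 hh10 hpow' hord hlead

/-- **Part I for helper27's interface**, no norm-bridge hypothesis. -/
theorem S35XB3_key_XD2 (N' q : ℕ) [NeZero N'] [NeZero q] (lam : ℕ) (hq : q.Prime)
    (hlam : lam.Prime) (hne : q ≠ lam) (hqN : ¬ q ∣ N')
    (hK1 : S35XD2_KeyK1 N' q lam hq hqN) : S35GT_Key N' q lam :=
  S35XB2_key N' q lam hq hlam hne hqN (S35XB3_pow_of_XD2 N' q lam hq hqN hK1)

end Fermat.Agent.S35_helper4_XB3
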