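import Fermat.Agent.S35_helper6_GEOTOPK
import Fermat.Agent.S35_helper12_ENDK

/-!
# S35, GEO-TOP (helper6): the plug into helper12's `S35ENDK_frozen`

`S35GA_geoAt` : the divisor-level contract `S35GT_Key N' q lam` gives `S35ENDK_GeoAt N' q lam σ`
for every Frobenius lift `σ` at `q`, i.e. the first argument `hGeo` of `S35ENDK_frozen` is
`fun N' q lam _ _ hq hlam hne hqN A hA σ hσ => S35GA_geoAt N' q lam (key N' q lam hq hlam hne hqN) A hA σ hσ`.
-/

set_option autoImplicit false
set_option linter.unusedSectionVars false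
set_option linter.unusedVariables false

open Fermat.Agent.S35_helper6_GEOTOP Fermat.Agent.S35_helper6_GEOTOPK
  Fermat.Agent.S35_helper12_END Fermat.Agent.S35_helper12_ENDK

noncomputable section

namespace Fermat.Agent.S35_helper6_GEOAT

local notation "Qb" => AlgebraicClosure ℚ
local notation "GQ" => (AlgebraicClosure ℚ ≃ₐ[ℚ] AlgebraicClosure ℚ)

/-- **(GEO) at the level `N' * q`** from the divisor-level contract. -/
theorem S35GA_geoAt (N' q lam : ℕ) [NeZero N'] [NeZero q] (hKey : S35GT_Key N' q lam)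
    (A : ValuationSubring Qb) (hA : A.LiesOverPrime q) (σ : GQ) (hσ : A.IsFrobeniusAt σ q) :
    S35ENDK_GeoAt N' q lam σ :=
  ⟨0, S35GTK_list q, S35GTK_list_mem q, S35GTK_geo N' q lam hKey A hA σ hσ⟩

/-- the first argument of `S35ENDK_frozen` from the contract at every level. -/
theorem S35GA_hGeo
    (hKey : ∀ (N' q lam : ℕ) [NeZero N'] [NeZero q], q.Prime → lam.Prime → q ≠ lam → ¬ q ∣ N' →
      S35GT_Key N' q lam) :
    ∀ (N' q lam : ℕ) [NeZero N'] [NeZero q], q.Prime → lam.Prime → q ≠ lam → ¬ q ∣ N' →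
      ∀ A : ValuationSubring Qb, A.LiesOverPrime q → ∀ σ : GQ, A.IsFrobeniusAt σ q →
        S35ENDK_GeoAt N' q lam σ :=
  fun N' q lam _ _ hq hlam hne hqN A hA σ hσ =>
    S35GA_geoAt N' q lam (hKey N' q lam hq hlam hne hqN) A hA σ hσ

end Fermat.Agent.S35_helper6_GEOAT
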