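import Mathlib
import Fermat.Agent.S30_helper23_EIGLAT

/-!
# S35, (P6)-E, step (e5) + the eigen-equations of the image class (helper6), abstract

`M`, `M'` lattices, `Λ`, `Λ'` modules over `R` (`= ℤ_[lam]`), `θ : M →+ Λ`, `θ' : M' →+ Λ'`,
`V : M →+ M'`, `ν : Λ →ₗ[R] Λ'` with `ν ∘ θ = θ' ∘ V`, `𝒪` an `R`-algebra.

* `S35P6X_square` (e5) : `f₂ θ' (V_𝒪 z) = ν_𝒪 (f₂ θ z)` on `𝒪 ⊗[ℤ] M`;
* `S35P6X_eigen` : if `ν_𝒪 (f₂ θ x₀)` is an eigenvector of `T'_𝒪` with eigenvalue `a`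
  (or zero), `T' ∘ θ' = θ' ∘ A'` and `f₂ θ'` is injective, then `V_𝒪 x₀` is an eigenvector
  of `A'_𝒪` with eigenvalue `a` (or zero);
* `S35P6X_kill` : if moreover `𝒪 ⊗[ℤ] M'` contains no nonzero class with these eigenvalues,
  then `ν_𝒪 (f₂ θ x₀) = 0`.
-/

set_option autoImplicit false
set_option linter.unusedSectionVars false
set_option linter.unusedVariables false

open scoped TensorProduct
open Fermat.Agent.S30_helper23_EIGLAT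

noncomputable section

namespace Fermat.Agent.S35_helper6_P6X

variable (R : Type*) [CommRing R] (𝒪 : Type*) [CommRing 𝒪] [Algebra R 𝒪]
  {Λ : Type*} [AddCommGroup Λ] [Module R Λ] {Λ' : Type*} [AddCommGroup Λ'] [Module R Λ']
  {M : Type*} [AddCommGroup M] {M' : Type*} [AddCommGroup M']

/-- **(e5)** the square `f₂ θ' ∘ V_𝒪 = ν_𝒪 ∘ f₂ θ`. -/
theorem S35P6X_square (θ : M →+ Λ) (θ' : M' →+ Λ') (V : M →+ M') (ν : Λ →ₗ[R] Λ')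
    (hν : ∀ c, ν (θ c) = θ' (V c)) (z : 𝒪 ⊗[ℤ] M) :
    PG30_f₂ R 𝒪 θ' ((V.toIntLinearMap).baseChange 𝒪 z) = ν.baseChange 𝒪 (PG30_f₂ R 𝒪 θ z) := by
  induction z using TensorProduct.induction_on with
  | zero => simp
  | tmul c m => simp [PG30_f₂_tmul, hν]
  | add x y hx hy => simp only [map_add, hx, hy]

/-- the image class `V_𝒪 x₀` satisfies the eigen-equation of `ν_𝒪 (f₂ θ x₀)`. -/
theorem S35P6X_eigen (θ : M →+ Λ) (θ' : M' →+ Λ') (V : M →+ M') (ν : Λ →ₗ[R] Λ')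
    (hν : ∀ c, ν (θ c) = θ' (V c)) (hinj' : Function.Injective (PG30_f₂ R 𝒪 θ'))
    (A' : Module.End ℤ M') (T' : Module.End R Λ') (hT' : ∀ c, T' (θ' c) = θ' (A' c))
    (a : 𝒪) (x₀ : 𝒪 ⊗[ℤ] M)
    (h : T'.baseChange 𝒪 (ν.baseChange 𝒪 (PG30_f₂ R 𝒪 θ x₀)) =
      a • ν.baseChange 𝒪 (PG30_f₂ R 𝒪 θ x₀)) :
    A'.baseChange 𝒪 ((V.toIntLinearMap).baseChange 𝒪 x₀) =
      a • (V.toIntLinearMap).baseChange 𝒪 x₀ := by
  apply hinj'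
  rw [PG30_f₂_baseChange R 𝒪 θ' A' T' hT', map_smul, S35P6X_square R 𝒪 θ θ' V ν hν, h]

/-- **the image vector is zero** as soon as the lower lattice has no eigenclass. -/
theorem S35P6X_kill (θ : M →+ Λ) (θ' : M' →+ Λ') (V : M →+ M') (ν : Λ →ₗ[R] Λ')
    (hν : ∀ c, ν (θ c) = θ' (V c)) (hinj' : Function.Injective (PG30_f₂ R 𝒪 θ'))
    {I : Type*} (A' : I → Module.End ℤ M') (T' : I → Module.End R Λ')
    (hT' : ∀ i c, T' i (θ' c) = θ' (A' i c)) (a : I → 𝒪)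
    (hno : ∀ w : 𝒪 ⊗[ℤ] M', (∀ i, (A' i).baseChange 𝒪 w = a i • w) → w = 0)
    (x₀ : 𝒪 ⊗[ℤ] M)
    (h : ∀ i, (T' i).baseChange 𝒪 (ν.baseChange 𝒪 (PG30_f₂ R 𝒪 θ x₀)) =
      a i • ν.baseChange 𝒪 (PG30_f₂ R 𝒪 θ x₀)) :
    ν.baseChange 𝒪 (PG30_f₂ R 𝒪 θ x₀) = 0 := by
  have hw : (V.toIntLinearMap).baseChange 𝒪 x₀ = 0 :=
    hno _ (fun i => S35P6X_eigen R 𝒪 θ θ' V ν hν hinj' (A' i) (T' i) (hT' i) (a i) x₀ (h i))
  rw [← S35P6X_square R 𝒪 θ θ' V ν hν, hw, map_zero]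

end Fermat.Agent.S35_helper6_P6X
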