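import Fermat.Agent.S35_helper6_E2X
import Fermat.Agent.S35_helper6_ESX
import Fermat.Agent.S35_helper6_P6X
import Fermat.Agent.S35_helper12_ENDK
import Fermat.Agent.S35_helper5_P6C
import Fermat.Agent.S35_helper18_EIGF
import Fermat.Agent.S30_helper23_EIGC

/-!
# S35, (P6): the assembly (helper6)

* `S35P6F_x0` : the eigenclass `x₀ ≠ 0` in `𝒪 ⊗[ℤ] M` of a character of a commutative ring acting
  faithfully on a lattice `M` (the first half of `PG30_eigenlattice_exists`, exposed);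
* `S35P6F_of_TF` : **(P6) at the level `N' q`** from the two Theta-functorialities
  (`S35P6_TFfor` for `α_*` and `β_*`) and the absence of eigenclasses in the lattice of level `N'`;
* `S35P6F_of_noEigTate` : (P6) at the level `N' q` from the absence of eigenvectors in
  `O' ⊗ T_lam J₀(N')` (the consumer of the SURJ / WS route);
* `S35P6F_main` : **the second argument `hP6` of `S35ENDK_frozen`, verbatim**, from
  `S35P6_TFA` and `S35P6_TFB` at all levels.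
-/

set_option autoImplicit false
set_option linter.unusedSectionVars false
set_option linter.unusedVariables false
set_option linter.style.haveILetI false

open scoped TensorProduct
open ModularCurve AlgebraicCurve CuspForm
open Fermat.Agent.G_helper6_Defs Fermat.Agent.G_helper6_E2FINAL
open Fermat.Agent.S30_helper1_TATE Fermat.Agent.S30_helper1_TATEF
  Fermat.Agent.S30_helper27_TATEC Fermat.Agent.S30_helper23_HF Fermat.Agent.S30_helper23_EIGA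
  Fermat.Agent.S30_helper23_EIGLAT Fermat.Agent.S30_helper23_EIGC
open Fermat.Agent.S35_helper12_BR Fermat.Agent.S35_helper12_END Fermat.Agent.S35_helper12_ENDK
  Fermat.Agent.S35_helper6_PUSH Fermat.Agent.S35_helper6_PUSHBC Fermat.Agent.S35_helper6_E2X
  Fermat.Agent.S35_helper6_ESX Fermat.Agent.S35_helper6_P6X Fermat.Agent.S35_helper23_P6Defs
  Fermat.Agent.G_helper7_G8PLUG

noncomputable section

namespace Fermat.Agent.S35_helper6_P6F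

local notation "Qb" => AlgebraicClosure ℚ
local notation "GQ" => (AlgebraicClosure ℚ ≃ₐ[ℚ] AlgebraicClosure ℚ)

/-- the eigenclass on the lattice (the first half of `PG30_eigenlattice_exists`). -/
theorem S35P6F_x0 {𝒪 : Type*} [CommRing 𝒪] [IsDomain 𝒪] [CharZero 𝒪]
    {M : Type*} [AddCommGroup M] [Module.Finite ℤ M] [Module.Free ℤ M]
    {𝕋 : Type*} [CommRing 𝕋] (Ψ : 𝕋 →+* Module.End ℤ M) (hΨ : Function.Injective Ψ)
    (χ : 𝕋 →+* 𝒪) :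
    ∃ x₀ : 𝒪 ⊗[ℤ] M, x₀ ≠ 0 ∧ ∀ s : 𝕋, (Ψ s).baseChange 𝒪 x₀ = χ s • x₀ := by
  haveI : CharZero (FractionRing 𝒪) :=
    charZero_of_injective_algebraMap (IsFractionRing.injective 𝒪 (FractionRing 𝒪))
  obtain ⟨x, hx0, hx⟩ := PG30_eigen_abstract Ψ (FractionRing 𝒪) hΨ
    ((algebraMap 𝒪 (FractionRing 𝒪)).comp χ)
  obtain ⟨d, x₀, hd, hx₀⟩ := PG30_exists_clear 𝒪 (FractionRing 𝒪) x
  have hdK : algebraMap 𝒪 (FractionRing 𝒪) d ≠ 0 := by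
    rw [Ne, map_eq_zero_iff _ (IsFractionRing.injective 𝒪 (FractionRing 𝒪))]
    exact hd
  have hinj₁ := PG30_f₁_injective 𝒪 (FractionRing 𝒪) (M := M)
  have hx₀0 : x₀ ≠ 0 := by
    rintro rfl
    rw [map_zero] at hx₀
    exact (smul_ne_zero hdK hx0) hx₀.symm
  refine ⟨x₀, hx₀0, fun s => ?_⟩
  apply hinj₁
  rw [PG30_f₁_baseChange, hx₀, map_smul, hx s, map_smul, hx₀, RingHom.comp_apply,
    ← algebraMap_smul (FractionRing 𝒪) (χ s), smul_comm]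

/-- the vector attached to an eigenclass is an eigenvector. -/
theorem S35P6F_vec (R : Type*) [CommRing R] (𝒪 : Type*) [CommRing 𝒪] [Algebra R 𝒪]
    {Λ : Type*} [AddCommGroup Λ] [Module R Λ] {M : Type*} [AddCommGroup M]
    (θ : M →+ Λ) {𝕋 : Type*} [CommRing 𝕋] (Ψ : 𝕋 →+* Module.End ℤ M) (χ : 𝕋 →+* 𝒪)
    (x₀ : 𝒪 ⊗[ℤ] M) (hx₀e : ∀ s : 𝕋, (Ψ s).baseChange 𝒪 x₀ = χ s • x₀)
    (t : 𝕋) (T : Module.End R Λ) (hT : ∀ c, T (θ c) = θ (Ψ t c)) :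
    T.baseChange 𝒪 (PG30_f₂ R 𝒪 θ x₀) = χ t • PG30_f₂ R 𝒪 θ x₀ := by
  rw [← PG30_f₂_baseChange R 𝒪 θ (Ψ t) T hT, hx₀e, map_smul]

section Level

variable (N' q : ℕ) [NeZero N'] [NeZero q] [NeZero (N' * q)] (lam : ℕ) [Fact lam.Prime]
  (S : Finset ℕ) (O' : Type) [CommRing O'] [IsDomain O'] [CharZero O'] [Algebra ℤ_[lam] O']
  (χ : CuspForm.heckeAlgebra (N' * q) 2 (↑S : Set ℕ) →+* O')

set_option maxHeartbeats 3200000 in
/-- **(P6) at the level `N' q`** from the Theta-functoriality of `α_*` and `β_*` and the absence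
of eigenclasses in the lattice of level `N'`. -/
theorem S35P6F_of_TF (hlamS : lam ∈ S) (hMS : ∀ r : ℕ, r.Prime → r ∣ N' * q → r ∈ S)
    (Vα Vβ : PG_M (N' * q) →+ PG_M N')
    (hα : S35P6_TFfor N' q (S35PU_alphaL ℂ N' q) Vα)
    (hβ : S35P6_TFfor N' q (S35PU_betaL ℂ N' q) Vβ)
    (hno : ∀ w : O' ⊗[ℤ] PG_M N',
      (∀ (ℓ : ℕ) (hℓ : ℓ.Prime) (hℓM : ¬ ℓ ∣ N' * q) (hℓS : ℓ ∉ (↑S : Set ℕ)),
        haveI : NeZero ℓ := ⟨hℓ.ne_zero⟩
        (PG_E2F_TM N' ℓ).baseChange O' w = χ (CuspForm.heckeAlgebra.T hℓ hℓM hℓS) • w) →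
      w = 0) :
    S35END_P6 (N' * q) lam S O' χ (S35PU_alpha N' q) (S35PU_beta N' q) := by
  classical
  have hlam : lam.Prime := Fact.out
  obtain ⟨Θ, ΘC, hΘ, hcompat⟩ := S35E2X_adic (N' * q) lam hlam.pos
  obtain ⟨Θ', ΘC', hΘ', hcompat'⟩ := S35E2X_adic N' lam hlam.pos
  have htors : ∀ (n : ℕ) (c : PG_M (N' * q)), (lam ^ n) • Θ n c = 0 := fun n c => by
    have h := (hΘ n).1.tors c
    rwa [natCast_zsmul] at h
  have hc : ∀ (n : ℕ) (c : PG_M (N' * q)), lam • Θ (n + 1) c = Θ n c := fun n c => by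
    have h := hcompat n c
    rwa [natCast_zsmul] at h
  have hinj : ∀ (n : ℕ) (c : PG_M (N' * q)), Θ n c = 0 →
      ∃ c' : PG_M (N' * q), c = (lam ^ n) • c' := fun n c h => by
    obtain ⟨c', hc'⟩ := (hΘ n).1.inj c h
    exact ⟨c', by rw [hc', natCast_zsmul]⟩
  have htors' : ∀ (n : ℕ) (c : PG_M N'), (lam ^ n) • Θ' n c = 0 := fun n c => by
    have h := (hΘ' n).1.tors c
    rwa [natCast_zsmul] at h
  have hc' : ∀ (n : ℕ) (c : PG_M N'), lam • Θ' (n + 1) c = Θ' n c := fun n c => by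
    have h := hcompat' n c
    rwa [natCast_zsmul] at h
  have hinj' : ∀ (n : ℕ) (c : PG_M N'), Θ' n c = 0 →
      ∃ c' : PG_M N', c = (lam ^ n) • c' := fun n c h => by
    obtain ⟨c', hc'⟩ := (hΘ' n).1.inj c h
    exact ⟨c', by rw [hc', natCast_zsmul]⟩
  haveI : Module.Finite ℤ (PG_M (N' * q)) :=
    (Fermat.Agent.G_helper3_G2aLATTICE.PG_lattice (N' * q)).1
  haveI : Module.Free ℤ (PG_M (N' * q)) :=
    (Fermat.Agent.G_helper3_G2aLATTICE.PG_lattice (N' * q)).2.1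
  haveI : Module.Finite ℤ (PG_M N') := (Fermat.Agent.G_helper3_G2aLATTICE.PG_lattice N').1
  haveI : Module.Free ℤ (PG_M N') := (Fermat.Agent.G_helper3_G2aLATTICE.PG_lattice N').2.1
  haveI : Module.Flat ℤ_[lam] O' := PG30_flat_padic lam O'
  have hli := S30T_lift_linearIndependent (Module.Free.chooseBasis ℤ (PG_M (N' * q)))
    Θ htors hc hinj
  have hli' := S30T_lift_linearIndependent (Module.Free.chooseBasis ℤ (PG_M N'))
    Θ' htors' hc' hinj'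
  -- the Hecke operators on the lattices and on the Tate modules
  have heq : ∀ (ℓ : ℕ) (hℓ : ℓ.Prime), ¬ ℓ ∣ N' * q → ∀ c : PG_M (N' * q),
      haveI : NeZero ℓ := ⟨hℓ.ne_zero⟩
      S30TC_T (N' * q) lam ℓ (S30T_lift Θ htors hc c) =
        S30T_lift Θ htors hc (PG_E2F_TM (N' * q) ℓ c) := by
    intro ℓ hℓ hℓM c
    apply S30T_ext
    intro n
    rw [S30TC_T_apply hℓ, S30T_lift_apply, S30T_lift_apply]
    exact (hΘ n).1.hecke ⟨ℓ, hℓ⟩ c _ hℓM rfl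
  have heq' : ∀ (ℓ : ℕ) (hℓ : ℓ.Prime), ¬ ℓ ∣ N' → ∀ c : PG_M N',
      haveI : NeZero ℓ := ⟨hℓ.ne_zero⟩
      S30TC_T N' lam ℓ (S30T_lift Θ' htors' hc' c) =
        S30T_lift Θ' htors' hc' (PG_E2F_TM N' ℓ c) := by
    intro ℓ hℓ hℓM c
    apply S30T_ext
    intro n
    rw [S30TC_T_apply hℓ, S30T_lift_apply, S30T_lift_apply]
    exact (hΘ' n).1.hecke ⟨ℓ, hℓ⟩ c _ hℓM rfl
  -- the eigenclass and the eigenvector
  obtain ⟨Ψ, hΨ, hΨT⟩ := PG30_hecke_faithful (N' * q) (↑S : Set ℕ)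
    (fun r hr hrM => Finset.mem_coe.2 (hMS r hr hrM))
  obtain ⟨x₀, hx₀, hx₀e⟩ := S35P6F_x0 (𝒪 := O') Ψ hΨ χ
  have hv0 : PG30_f₂ ℤ_[lam] O' (S30T_lift Θ htors hc) x₀ ≠ 0 := fun h =>
    hx₀ (PG30_f₂_injective ℤ_[lam] O' (S30T_lift Θ htors hc) _ hli (by rw [h, map_zero]))
  have hve : ∀ (ℓ : ℕ) (hℓ : ℓ.Prime) (hℓM : ¬ ℓ ∣ N' * q) (hℓS : ℓ ∉ (↑S : Set ℕ)),
      (S30TC_T (N' * q) lam ℓ).baseChange O' (PG30_f₂ ℤ_[lam] O' (S30T_lift Θ htors hc) x₀) =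
        χ (CuspForm.heckeAlgebra.T hℓ hℓM hℓS) •
          PG30_f₂ ℤ_[lam] O' (S30T_lift Θ htors hc) x₀ := by
    intro ℓ hℓ hℓM hℓS
    have hT : ∀ c : PG_M (N' * q), S30TC_T (N' * q) lam ℓ (S30T_lift Θ htors hc c) =
        S30T_lift Θ htors hc (Ψ (CuspForm.heckeAlgebra.T hℓ hℓM hℓS) c) := by
      intro c
      rw [hΨT ℓ hℓ hℓM hℓS]
      exact heq ℓ hℓ hℓM c
    exact S35P6F_vec ℤ_[lam] O' (S30T_lift Θ htors hc) Ψ χ x₀ hx₀e
      (CuspForm.heckeAlgebra.T hℓ hℓM hℓS) (S30TC_T (N' * q) lam ℓ) hT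
  have hℓlam : ∀ ℓ : ℕ, ℓ ∉ (↑S : Set ℕ) → ℓ ≠ lam := fun ℓ hℓS h =>
    hℓS (Finset.mem_coe.2 (h ▸ hlamS))
  have hℓN' : ∀ ℓ : ℕ, ¬ ℓ ∣ N' * q → ¬ ℓ ∣ N' := fun ℓ h h' => h (Dvd.dvd.mul_right h' q)
  -- the two push-forwards kill the eigenvector
  have hkill : ∀ (ν : JZero (N' * q) →+ JZero N')
      (hνG : ∀ (σ : GQ) (x : JZero (N' * q)), ν (σ • x) = σ • ν x)
      (V : PG_M (N' * q) →+ PG_M N') (hνV : ∀ n c, ν (Θ n c) = Θ' n (V c)),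
      (S35BR_tateMap (p := lam) ν).baseChange O'
        (PG30_f₂ ℤ_[lam] O' (S30T_lift Θ htors hc) x₀) = 0 := by
    intro ν hνG V hνV
    have hsq : ∀ c : PG_M (N' * q), S35BR_tateMap (p := lam) ν (S30T_lift Θ htors hc c) =
        S30T_lift Θ' htors' hc' (V c) :=
      fun c => S35E2X_tate lam ν V Θ htors hc Θ' htors' hc' hνV c
    have hinjf : Function.Injective (PG30_f₂ ℤ_[lam] O' (S30T_lift Θ' htors' hc')) :=
      PG30_f₂_injective ℤ_[lam] O' (S30T_lift Θ' htors' hc') _ hli'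
    have hw0 : (V.toIntLinearMap).baseChange O' x₀ = 0 := by
      apply hno
      intro ℓ hℓ hℓM hℓS
      haveI : NeZero ℓ := ⟨hℓ.ne_zero⟩
      exact S35P6X_eigen ℤ_[lam] O' (S30T_lift Θ htors hc) (S30T_lift Θ' htors' hc') V
        (S35BR_tateMap (p := lam) ν) hsq hinjf (PG_E2F_TM N' ℓ) (S30TC_T N' lam ℓ)
        (heq' ℓ hℓ (hℓN' ℓ hℓM)) (χ (CuspForm.heckeAlgebra.T hℓ hℓM hℓS)) x₀
        (S35ESX_eigen (N' * q) N' lam O' ν hνG ℓ hℓ hℓM (hℓN' ℓ hℓM) (hℓlam ℓ hℓS) _ _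
          (hve ℓ hℓ hℓM hℓS))
    rw [← S35P6X_square ℤ_[lam] O' (S30T_lift Θ htors hc) (S30T_lift Θ' htors' hc') V
      (S35BR_tateMap (p := lam) ν) hsq, hw0, map_zero]
  refine ⟨PG30_f₂ ℤ_[lam] O' (S30T_lift Θ htors hc) x₀, hv0, hve, ?_, ?_⟩
  · exact hkill (S35PU_alpha N' q) (S35PU_alpha_smul N' q) Vα (fun n c =>
      S35E2X_descent_alpha N' q Vα hα (lam ^ n) (pow_pos hlam.pos n) (Θ n) (ΘC n) (hΘ n).2.1
        (hΘ n).2.2 (Θ' n) (ΘC' n) (hΘ' n).2.1 (hΘ' n).2.2 c)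
  · exact hkill (S35PU_beta N' q) (S35PU_beta_smul N' q) Vβ (fun n c =>
      S35E2X_descent_beta N' q Vβ hβ (lam ^ n) (pow_pos hlam.pos n) (Θ n) (ΘC n) (hΘ n).2.1
        (hΘ n).2.2 (Θ' n) (ΘC' n) (hΘ' n).2.1 (hΘ' n).2.2 c)

/-- **(P6) at the level `N' q`** from the absence of eigenvectors in `O' ⊗ T_lam J₀(N')`. -/
theorem S35P6F_of_noEigTate (hlamS : lam ∈ S) (hMS : ∀ r : ℕ, r.Prime → r ∣ N' * q → r ∈ S)
    (hno : ∀ u : O' ⊗[ℤ_[lam]] S30T_Tate (JZero N') lam,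
      (∀ (ℓ : ℕ) (hℓ : ℓ.Prime) (hℓM : ¬ ℓ ∣ N' * q) (hℓS : ℓ ∉ (↑S : Set ℕ)),
        (S30TC_T N' lam ℓ).baseChange O' u = χ (CuspForm.heckeAlgebra.T hℓ hℓM hℓS) • u) →
      u = 0) :
    S35END_P6 (N' * q) lam S O' χ (S35PU_alpha N' q) (S35PU_beta N' q) := by
  classical
  have hlam : lam.Prime := Fact.out
  obtain ⟨Θ, ΘC, hΘ, hcompat⟩ := S35E2X_adic (N' * q) lam hlam.pos
  obtain ⟨v, hv0, hve⟩ := PG30_eigenlattice_of_E2 (N' * q) (↑S : Set ℕ)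
    (fun r hr hrM => Finset.mem_coe.2 (hMS r hr hrM)) lam (𝒪 := O') Θ (fun n => (hΘ n).1)
    hcompat (S30TC_T (N' * q) lam) (fun ℓ _ _ x n => S30TC_T_apply ℓ.2 x n) χ
  have hℓlam : ∀ ℓ : ℕ, ℓ ∉ (↑S : Set ℕ) → ℓ ≠ lam := fun ℓ hℓS h =>
    hℓS (Finset.mem_coe.2 (h ▸ hlamS))
  have hℓN' : ∀ ℓ : ℕ, ¬ ℓ ∣ N' * q → ¬ ℓ ∣ N' := fun ℓ h h' => h (Dvd.dvd.mul_right h' q)
  refine ⟨v, hv0, hve, ?_, ?_⟩
  · exact hno _ (fun ℓ hℓ hℓM hℓS => S35ESX_eigen (N' * q) N' lam O' (S35PU_alpha N' q)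
      (S35PU_alpha_smul N' q) ℓ hℓ hℓM (hℓN' ℓ hℓM) (hℓlam ℓ hℓS) _ v (hve ℓ hℓ hℓM hℓS))
  · exact hno _ (fun ℓ hℓ hℓM hℓS => S35ESX_eigen (N' * q) N' lam O' (S35PU_beta N' q)
      (S35PU_beta_smul N' q) ℓ hℓ hℓM (hℓN' ℓ hℓM) (hℓlam ℓ hℓS) _ v (hve ℓ hℓ hℓM hℓS))

end Level

/-- **the argument `hP6` of `S35ENDK_frozen`** from the Theta-functoriality of `α_*` and `β_*`. -/
theorem S35P6F_main
    (hA : ∀ (N ℓ : ℕ) [NeZero N] [NeZero ℓ], ℓ.Prime → ¬ ℓ ∣ N → S35P6_TFA N ℓ)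
    (hB : ∀ (N ℓ : ℕ) [NeZero N] [NeZero ℓ], ℓ.Prime → ¬ ℓ ∣ N → S35P6_TFB N ℓ) :
    ∀ (N' q : ℕ) [NeZero N'] [NeZero q] [NeZero (N' * q)], q.Prime → ¬ q ∣ N' →
      ∀ {g : CuspForm (CongruenceSubgroup.Gamma0 (N' * q)) 2}, g.IsNewform →
      ∀ (lam : ℕ) [Fact lam.Prime], q ≠ lam → ∀ (S : Finset ℕ)
        (O' : Type) [CommRing O'] [IsDomain O'] [IsDiscreteValuationRing O']
        [IsAdicComplete (IsLocalRing.maximalIdeal O') O'] [Finite (IsLocalRing.ResidueField O')]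
        [CharZero O'] (hlamO' : (lam : O') ∈ IsLocalRing.maximalIdeal O')
        (chig : CuspForm.heckeAlgebra (N' * q) 2 (↑S : Set ℕ) →+* ℂ),
        (∀ (ℓ : ℕ) (hℓ : ℓ.Prime) (hℓM : ¬ ℓ ∣ N' * q) (hℓS : ℓ ∉ (↑S : Set ℕ)),
          chig (CuspForm.heckeAlgebra.T hℓ hℓM hℓS) = ModularFormClass.qCoeff g ℓ) →
        ∀ (iota : chig.range →+* O'), lam ∈ S → (∀ r : ℕ, r.Prime → r ∣ N' * q → r ∈ S) →
          S35ENDK_P6At N' q lam S O' hlamO' (iota.comp chig.rangeRestrict) := by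
  intro N' q _ _ _ hq hqN g hg lam _ hne S O' _ _ _ _ _ _ hlamO' chig hchig iota hlamS hMS
  letI : Algebra ℤ_[lam] O' :=
    (Fermat.Agent.S30_helper25_ZP.S30ZP_zpLocal lam O' hlamO').toAlgebra
  obtain ⟨Vα, hα⟩ := hA N' q hq hqN
  obtain ⟨Vβ, hβ⟩ := hB N' q hq hqN
  have hN'0 : N' ≠ 0 := NeZero.ne N'
  have hneM : N' ≠ N' * q := by
    intro h
    have h1 : N' * 1 = N' * q := by rw [mul_one]; exact h
    have := Nat.eq_of_mul_eq_mul_left (Nat.pos_of_ne_zero hN'0) h1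
    exact hq.one_lt.ne this
  exact S35P6F_of_TF N' q lam S O' (iota.comp chig.rangeRestrict) hlamS hMS Vα Vβ hα hβ
    (fun w hw => Fermat.Agent.S35_helper5_P6C.S35P6C_main_of hg N' (Dvd.intro q rfl) hneM S hMS
      (fun a f hf hT => Fermat.Agent.S35_helper18_EIGF.S35EIGF_eigenform _ a f hf hT)
      chig hchig iota w hw)

end Fermat.Agent.S35_helper6_P6F
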