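import Mathlib
import Fermat.Agent.S35_helper6_PUSH
import Fermat.Agent.S18_helper26_CONST
import Fermat.Agent.S18_helper25_GLUE

/-!
# S35, NORM-BRIDGE (NB1), level `ℚ̄` (helper8)

If `div f = n • D` and the push-forward of `D` along a finite extension `φ : F → F'` of function
fields is principal, then the norm of `f` is a constant times an `n`-th power:
`div (Nm f) = φ_* (div f) = n • φ_* D = div (h ^ n)`, and a function without zeros and poles is
a constant.

* `S35NQ_generic` : the abstract statement;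
* `S35NQ_alpha`, `S35NQ_beta` : the instances for the two degeneracy maps
  `heckeAlphaBar ℚ̄ N ℓ`, `heckeBetaBar ℚ̄ N ℓ` (hypotheses = those of `S35GT_Key`).
-/

set_option autoImplicit false
set_option linter.unusedSectionVars false
set_option linter.unusedVariables false
set_option linter.style.haveILetI false
set_option synthInstance.maxHeartbeats 400000
set_option maxHeartbeats 1600000

open AlgebraicCurve ModularCurve IntermediateField

noncomputable section

namespace Fermat.Agent.S35_helper8_NORMQ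

section Generic

variable {K F F' : Type*} [Field K] [Field F] [Field F'] [Algebra K F] [Algebra K F']

/-- **(NB1), abstract.** -/
theorem S35NQ_generic (φ : F →ₐ[K] F') (hφ : φ.toRingHom.IsIntegral)
    (hfin : FiniteAlong K φ) (hN : NormFormulaAlong K φ hfin)
    (hconst : ∀ x : F, x ≠ 0 → (∀ v : Place K F, v.ord x = 0) → ∃ c : K, x = algebraMap K F c)
    (n : ℕ) (D : Divisor K F') (f : F') (hf : f ≠ 0)
    (hdiv : ∀ w : Place K F', w.ord f = (n : ℤ) * D w)
    (hpr : (Divisor.pushforwardAlong φ hφ D).IsPrincipal) :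
    ∃ (c : K) (h : F), c ≠ 0 ∧ h ≠ 0 ∧
      (letI := algebraAlong φ; Algebra.norm F f) = algebraMap K F c * h ^ n := by
  letI := algebraAlong φ
  haveI := isScalarTower_along φ
  haveI := isIntegral_along φ hφ
  haveI : Module.Finite F F' := hfin
  obtain ⟨h0, hh0, hD0⟩ := hpr
  -- the divisor of the norm
  have h1 : ∀ v : Place K F,
      Divisor.pushforward F ((n : ℤ) • D) v = v.ord (Algebra.norm F f) :=
    hN f hf ((n : ℤ) • D) (fun w => by rw [Finsupp.smul_apply, smul_eq_mul, hdiv w])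
  have h2 : ∀ v : Place K F, v.ord (Algebra.norm F f) = v.ord (h0 ^ n) := by
    intro v
    rw [← h1 v, map_zsmul, Finsupp.smul_apply, smul_eq_mul]
    have h3 : Divisor.pushforward F D v = v.ord h0 := hD0 v
    rw [h3, ← zpow_natCast, v.ord_zpow]
  have hnorm0 : Algebra.norm F f ≠ 0 := by
    rw [Ne, Algebra.norm_eq_zero_iff]
    exact hf
  have hpow0 : h0 ^ n ≠ 0 := pow_ne_zero n hh0
  have hx0 : Algebra.norm F f * (h0 ^ n)⁻¹ ≠ 0 := mul_ne_zero hnorm0 (inv_ne_zero hpow0)
  obtain ⟨c, hc⟩ := hconst _ hx0 (fun v => by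
    rw [v.ord_mul hnorm0 (inv_ne_zero hpow0), v.ord_inv, h2 v, add_neg_cancel])
  refine ⟨c, h0, ?_, hh0, ?_⟩
  · rintro rfl
    rw [map_zero] at hc
    exact hx0 hc
  · rw [← hc, mul_assoc, inv_mul_cancel₀ hpow0, mul_one]

end Generic

section Modular

open Fermat.Agent.G_helper21_B0L Fermat.Agent.S35_helper6_PUSH

local notation "Qb" => AlgebraicClosure ℚ

variable (N ℓ : ℕ) [NeZero N] [NeZero ℓ]

/-- a function over `ℚ̄` without zeros and poles is a constant. -/
theorem S35NQ_const (M : ℕ) [NeZero M] :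
    ∀ x : modularFunctionFieldBar M, x ≠ 0 →
      (∀ P : Place Qb (modularFunctionFieldBar M), P.ord x = 0) →
      ∃ c : Qb, x = algebraMap Qb (modularFunctionFieldBar M) c := by
  have h := Fermat.Agent.S18_helper26_CONST.S18P15_const_unfolded Qb M
  have e := Fermat.Agent.S18_helper25_GLUE.S18G_bar_eq M
  exact e ▸ h

/-- **(NB1) along `α`.** -/
theorem S35NQ_alpha (n : ℕ) (D : Divisor Qb (modularFunctionFieldBar (N * ℓ)))
    (f : modularFunctionFieldBar (N * ℓ)) (hf : f ≠ 0)
    (hdiv : ∀ P : Place Qb (modularFunctionFieldBar (N * ℓ)), P.ord f = (n : ℤ) * D P)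
    (hpr : (Divisor.pushforwardAlong (heckeAlphaBar Qb N ℓ)
      (PG_B0L_heckeAlphaBarIntegral Qb N ℓ) D).IsPrincipal) :
    ∃ (c : Qb) (h : modularFunctionFieldBar N), c ≠ 0 ∧ h ≠ 0 ∧
      (letI := algebraAlong (heckeAlphaBar Qb N ℓ)
       Algebra.norm (modularFunctionFieldBar N) f) =
        algebraMap Qb (modularFunctionFieldBar N) c * h ^ n :=
  S35NQ_generic (heckeAlphaBar Qb N ℓ) (PG_B0L_heckeAlphaBarIntegral Qb N ℓ)
    (PG_B0L_finiteAlong_alpha Qb N ℓ) (S35PU_normFormula_alpha Qb N ℓ) (S35NQ_const N)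
    n D f hf hdiv hpr

/-- **(NB1) along `β`.** -/
theorem S35NQ_beta (n : ℕ) (D : Divisor Qb (modularFunctionFieldBar (N * ℓ)))
    (f : modularFunctionFieldBar (N * ℓ)) (hf : f ≠ 0)
    (hdiv : ∀ P : Place Qb (modularFunctionFieldBar (N * ℓ)), P.ord f = (n : ℤ) * D P)
    (hpr : (Divisor.pushforwardAlong (heckeBetaBar Qb N ℓ)
      (PG_B0L_heckeBetaBarIntegral Qb N ℓ) D).IsPrincipal) :
    ∃ (c : Qb) (h : modularFunctionFieldBar N), c ≠ 0 ∧ h ≠ 0 ∧
      (letI := algebraAlong (heckeBetaBar Qb N ℓ)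
       Algebra.norm (modularFunctionFieldBar N) f) =
        algebraMap Qb (modularFunctionFieldBar N) c * h ^ n :=
  S35NQ_generic (heckeBetaBar Qb N ℓ) (PG_B0L_heckeBetaBarIntegral Qb N ℓ)
    (PG_B0L_finiteAlong_beta Qb N ℓ) (S35PU_normFormula_beta Qb N ℓ) (S35NQ_const N)
    n D f hf hdiv hpr

end Modular

end Fermat.Agent.S35_helper8_NORMQ
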