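import Mathlib

/-!
# S36 (helper12): Kolchin, rank free

`S36KOL_main`: a multiplicatively closed set `G` of endomorphisms of a nontrivial finite
torsion-free module `E` over a noetherian domain `R` with `2 ≠ 0`, all of whose members satisfy
`(g - 1)² = 0`, has a common nonzero fixed vector.

Proof.  For `a = g - 1`, `b = h - 1` (`g, h ∈ G`) the relations `(g h - 1)² = 0` and
`(g² h - 1)² = 0` give `a b a + a b a b = 0`, hence `a b a b = 0` (multiply by `b`) and
`a b a = 0`; by symmetry `b a b = 0`, and `(g h - 1)² = 0` becomes `a b + b a = 0`.  The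
`R`-module `End_R(E)` is noetherian, so the span of the `g - 1` is spanned by finitely many
`a₁, …, a_m`.  By induction on `j` there is `v ≠ 0` killed by `a₁, …, a_j`: if `a_j v ≠ 0` replace
`v` by `a_j v` (killed by `a_j` because `a_j² = 0` and by `a_i`, `i < j`, because
`a_i a_j v = - a_j a_i v = 0`).
-/

set_option autoImplicit false
set_option linter.unusedSectionVars false
set_option linter.unusedVariables false
set_option linter.style.haveILetI false

namespace Fermat.Agent.S36_helper12_KOL

section Ring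

variable {A : Type*} [Ring A]

/-- `a b a = 0` from `a² = b² = 0`, `(a + b + a b)² = 0` and `(2 a + b + 2 a b)² = 0`. -/
theorem S36KOL_aba (h2 : ∀ x : A, 2 * x = 0 → x = 0) (a b : A)
    (ha : a * a = 0) (hb : b * b = 0)
    (h1 : (a + b + a * b) * (a + b + a * b) = 0)
    (h1' : (2 * a + b + 2 * (a * b)) * (2 * a + b + 2 * (a * b)) = 0) :
    a * b * a = 0 ∧ a * b + b * a + b * a * b = 0 := by
  have e1 : a * b + b * a + a * b * a + b * a * b + a * b * a * b = 0 := by
    have h : (a + b + a * b) * (a + b + a * b) =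
        (a * b + b * a + a * b * a + b * a * b + a * b * a * b) +
          (a * a + (a * a) * b + b * b + a * (b * b)) := by noncomm_ring
    rw [h, ha, hb] at h1
    simpa using h1
  have e2 : a * b + b * a + b * a * b + 2 * (a * b * a) + 2 * (a * b * a * b) = 0 := by
    apply h2
    have h : (2 * a + b + 2 * (a * b)) * (2 * a + b + 2 * (a * b)) =
        2 * (a * b + b * a + b * a * b + 2 * (a * b * a) + 2 * (a * b * a * b)) +
          (4 * (a * a) + 4 * ((a * a) * b) + b * b + 2 * (a * (b * b))) := by noncomm_ring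
    rw [h, ha, hb] at h1'
    simpa using h1'
  have e3 : a * b * a + a * b * a * b = 0 := by
    have h : a * b * a + a * b * a * b =
        (a * b + b * a + b * a * b + 2 * (a * b * a) + 2 * (a * b * a * b)) -
          (a * b + b * a + a * b * a + b * a * b + a * b * a * b) := by noncomm_ring
    rw [h, e1, e2, sub_zero]
  have e4 : a * b * a * b = 0 := by
    have h : a * b * a * b = (a * b * a + a * b * a * b) * b - a * b * a * (b * b) := by
      noncomm_ring
    rw [h, e3, hb]
    simp
  have e5 : a * b * a = 0 := by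
    rw [e4, add_zero] at e3
    exact e3
  refine ⟨e5, ?_⟩
  have h : a * b + b * a + b * a * b =
      (a * b + b * a + a * b * a + b * a * b + a * b * a * b) - a * b * a - a * b * a * b := by
    noncomm_ring
  rw [h, e1, e5]
  simp

/-- **anticommutation**: `a b + b a = 0`. -/
theorem S36KOL_anti (h2 : ∀ x : A, 2 * x = 0 → x = 0) (a b : A)
    (ha : a * a = 0) (hb : b * b = 0)
    (h1 : (a + b + a * b) * (a + b + a * b) = 0)
    (h1' : (2 * a + b + 2 * (a * b)) * (2 * a + b + 2 * (a * b)) = 0)
    (h3 : (b + a + b * a) * (b + a + b * a) = 0)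
    (h3' : (2 * b + a + 2 * (b * a)) * (2 * b + a + 2 * (b * a)) = 0) :
    a * b + b * a = 0 := by
  obtain ⟨-, e1⟩ := S36KOL_aba h2 a b ha hb h1 h1'
  obtain ⟨e2, -⟩ := S36KOL_aba h2 b a hb ha h3 h3'
  rw [e2, add_zero] at e1
  exact e1

/-- the relations for `a = g - 1`, `b = h - 1` -/
theorem S36KOL_anti_of_unip (h2 : ∀ x : A, 2 * x = 0 → x = 0) (g h : A)
    (hg : (g - 1) * (g - 1) = 0) (hh : (h - 1) * (h - 1) = 0)
    (hgh : (g * h - 1) * (g * h - 1) = 0) (hggh : (g * g * h - 1) * (g * g * h - 1) = 0)
    (hhg : (h * g - 1) * (h * g - 1) = 0) (hhhg : (h * h * g - 1) * (h * h * g - 1) = 0) :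
    (g - 1) * (h - 1) + (h - 1) * (g - 1) = 0 := by
  have key : ∀ g h : A, (g - 1) * (g - 1) = 0 →
      g * g * h - 1 = 2 * (g - 1) + (h - 1) + 2 * ((g - 1) * (h - 1)) := by
    intro g h hg
    have e : g * g * h - 1 = 2 * (g - 1) + (h - 1) + 2 * ((g - 1) * (h - 1)) +
        ((g - 1) * (g - 1)) * h := by noncomm_ring
    rw [e, hg]
    simp
  have key1 : ∀ g h : A, g * h - 1 = (g - 1) + (h - 1) + (g - 1) * (h - 1) := by
    intro g h
    noncomm_ring
  refine S36KOL_anti h2 (g - 1) (h - 1) hg hh ?_ ?_ ?_ ?_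
  · rw [← key1]; exact hgh
  · rw [← key g h hg]; exact hggh
  · rw [← key1]; exact hhg
  · rw [← key h g hh]; exact hhhg

end Ring

section Module

variable {R : Type*} [CommRing R] {E : Type*} [AddCommGroup E] [Module R E]

/-- the induction: a finite family of pairwise anticommuting endomorphisms of square zero has a
common nonzero kernel vector. -/
theorem S36KOL_finite [Nontrivial E] (s : Finset (Module.End R E))
    (hsq : ∀ a ∈ s, a * a = 0) (hanti : ∀ a ∈ s, ∀ b ∈ s, a * b + b * a = 0) :
    ∃ v : E, v ≠ 0 ∧ ∀ a ∈ s, a v = 0 := by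
  classical
  induction s using Finset.induction_on with
  | empty =>
    obtain ⟨v, hv⟩ := exists_ne (0 : E)
    exact ⟨v, hv, fun a ha => absurd ha (Finset.notMem_empty a)⟩
  | insert a s has ih =>
    obtain ⟨v, hv0, hv⟩ := ih (fun b hb => hsq b (Finset.mem_insert_of_mem hb))
      (fun b hb c hc => hanti b (Finset.mem_insert_of_mem hb) c (Finset.mem_insert_of_mem hc))
    by_cases hav : a v = 0
    · refine ⟨v, hv0, fun b hb => ?_⟩
      rcases Finset.mem_insert.1 hb with rfl | hb
      · exact hav
      · exact hv b hb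
    · refine ⟨a v, hav, fun b hb => ?_⟩
      rcases Finset.mem_insert.1 hb with rfl | hb
      · have h := congrArg (fun φ : Module.End R E => φ v)
          (hsq b (Finset.mem_insert_self _ _))
        simpa [Module.End.mul_apply] using h
      · have h := congrArg (fun φ : Module.End R E => φ v)
          (hanti a (Finset.mem_insert_self _ _) b (Finset.mem_insert_of_mem hb))
        simp only [LinearMap.add_apply, Module.End.mul_apply, LinearMap.zero_apply,
          hv b hb, map_zero, zero_add] at h
        exact h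

/-- **Kolchin, rank free.** -/
theorem S36KOL_main [IsDomain R] [IsNoetherianRing R] (h2 : (2 : R) ≠ 0)
    [Module.Finite R E] [NoZeroSMulDivisors R E] [Nontrivial E]
    (G : Set (Module.End R E)) (hmul : ∀ g ∈ G, ∀ h ∈ G, g * h ∈ G)
    (hG : ∀ g ∈ G, (g - 1) * (g - 1) = 0) :
    ∃ v : E, v ≠ 0 ∧ ∀ g ∈ G, g v = v := by
  classical
  -- `End_R(E)` has no `2`-torsion
  have h2' : ∀ x : Module.End R E, 2 * x = 0 → x = 0 := by
    intro x hx
    refine LinearMap.ext fun v => ?_
    have h := congrArg (fun φ : Module.End R E => φ v) hx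
    simp only [two_mul, LinearMap.add_apply, LinearMap.zero_apply] at h
    have h3 : (2 : R) • x v = 0 := by rw [two_smul]; exact h
    rcases smul_eq_zero.1 h3 with h4 | h4
    · exact absurd h4 h2
    · simpa using h4
  -- the set of the `g - 1`
  let D : Set (Module.End R E) := {a | ∃ g ∈ G, a = g - 1}
  have hDsq : ∀ a ∈ D, a * a = 0 := by
    rintro a ⟨g, hg, rfl⟩
    exact hG g hg
  have hDanti : ∀ a ∈ D, ∀ b ∈ D, a * b + b * a = 0 := by
    rintro a ⟨g, hg, rfl⟩ b ⟨h, hh, rfl⟩
    exact S36KOL_anti_of_unip h2' g h (hG g hg) (hG h hh) (hG _ (hmul g hg h hh))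
      (hG _ (hmul _ (hmul g hg g hg) h hh)) (hG _ (hmul h hh g hg))
      (hG _ (hmul _ (hmul h hh h hh) g hg))
  -- a finite spanning family
  haveI : IsNoetherian R E := isNoetherian_of_isNoetherianRing_of_finite R E
  haveI : IsNoetherian R (Module.End R E) := isNoetherian_linearMap R E E
  have hfg : (Submodule.span R D).FG := IsNoetherian.noetherian _
  obtain ⟨s, hsD, hspan⟩ := (Submodule.fg_span_iff_fg_span_finset_subset D).1 hfg
  obtain ⟨v, hv0, hv⟩ := S36KOL_finite s (fun a ha => hDsq a (hsD ha))
    (fun a ha b hb => hDanti a (hsD ha) b (hsD hb))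
  refine ⟨v, hv0, fun g hg => ?_⟩
  -- the evaluation at `v` kills the span
  have hle : Submodule.span R (↑s : Set (Module.End R E)) ≤
      LinearMap.ker (LinearMap.applyₗ (R := R) (M := E) (M₂ := E) v) := by
    rw [Submodule.span_le]
    intro a ha
    rw [SetLike.mem_coe, LinearMap.mem_ker, LinearMap.applyₗ_apply_apply]
    exact hv a (Finset.mem_coe.1 ha)
  have hmem : g - 1 ∈ Submodule.span R D := Submodule.subset_span ⟨g, hg, rfl⟩
  rw [hspan] at hmem
  have h := hle hmem
  rw [LinearMap.mem_ker, LinearMap.applyₗ_apply_apply, LinearMap.sub_apply,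
    Module.End.one_apply, sub_eq_zero] at h
  exact h

end Module

end Fermat.Agent.S36_helper12_KOL
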