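import Fermat.Agent.S35_helper12_TOP2
import Fermat.Agent.S36_helper12_KOL
import Fermat.Prelude.Def_GaloisRep_LocalConditions

/-!
# S36 (helper12): the top wiring, for an abstract Tate module

`S36TOPA_abstract`: the conclusion of the frozen statement S36 (for an arbitrary eigensystem `χ`,
with `𝒪'' := 𝒪'`) from the hypotheses of `S30FINAL_abstract` and

  **(fix)** for every prime `q ≠ p` with `q² ∥ N` there is a place `A` over `q` such that NO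
  nonzero `χ`-eigenvector of `𝒪' ⊗ Λ` is fixed by the inertia group of `A`.

Proof: if the representation `ρ'` of `S35TOP_cwv` were unipotent on inertia at `q`, the relations
`g² - t g + d g = 0` on the eigenlattice `E` would have `t = 2`, `d g = 1` for `g` in the inertia
group, i.e. `(g - 1)² = 0` on `E`; Kolchin (`S36KOL_main`) then gives a nonzero vector of `E`
fixed by the inertia group.
-/

set_option autoImplicit false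
set_option linter.unusedSectionVars false
set_option linter.unusedVariables false
set_option linter.style.haveILetI false

open Polynomial
open scoped TensorProduct

noncomputable section

namespace Fermat.Agent.S36_helper12_TOPA

open Fermat.Agent.S30_helper12_Contracts Fermat.Agent.S30_helper12_BC
  Fermat.Agent.S30_helper17_CYCT Fermat.Agent.S35_helper12_TOP
  Fermat.Agent.S30_helper12_FINAL

local notation "Qb" => AlgebraicClosure ℚ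
local notation "GQ" => (AlgebraicClosure ℚ ≃ₐ[ℚ] AlgebraicClosure ℚ)

/-- **the unipotent clause, abstractly**: in the situation of `S35TOP_cwv` (relations
`g² - t g + d g = 0` on the eigenvectors, computing the characteristic polynomial of `ρ' g`), if
`ρ'` has characteristic polynomial `(X - 1)²` on a subgroup `I`, some nonzero eigenvector is
fixed by `I` (Kolchin). -/
theorem S36TOPA_fixed
    (𝒪 : Type) [CommRing 𝒪] [IsDomain 𝒪] [IsDiscreteValuationRing 𝒪] [CharZero 𝒪]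
    (V : Type) [AddCommGroup V] [Module 𝒪 V] [Module.Finite 𝒪 V] [Module.Free 𝒪 V]
    (r : GQ →* Module.End 𝒪 V) (Eig : V → Prop)
    (hEig0 : ∀ v w : V, Eig v → Eig w → Eig (v - w))
    (hEigs : ∀ (c : 𝒪) (v : V), Eig v → Eig (c • v))
    (hEigz : Eig 0)
    (hEigr : ∀ (g : GQ) (v : V), Eig v → Eig (r g v))
    (hnt : ∃ v : V, v ≠ 0 ∧ Eig v)
    (ρ' : GaloisRepAdic 𝒪) (d : GQ →* 𝒪ˣ)
    (hex : ∀ g : GQ, ∃ t : 𝒪, ∀ v : V, Eig v →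
        r g (r g v) - t • r g v + ((d g : 𝒪ˣ) : 𝒪) • v = 0)
    (hcp : ∀ (g : GQ) (t : 𝒪),
        (∀ v : V, Eig v → r g (r g v) - t • r g v + ((d g : 𝒪ˣ) : 𝒪) • v = 0) →
        LinearMap.charpoly (ρ'.ρ g) = X ^ 2 - C t * X + C ((d g : 𝒪ˣ) : 𝒪))
    (I : Subgroup GQ)
    (hunip : ∀ σ ∈ I, LinearMap.charpoly (ρ'.ρ σ) = (X - 1) ^ 2) :
    ∃ v : V, v ≠ 0 ∧ Eig v ∧ ∀ τ ∈ I, r τ v = v := by
  classical
  let P : Submodule 𝒪 V :=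
    { carrier := {v | Eig v}
      zero_mem' := hEigz
      add_mem' := by
        intro x y hx hy
        have h1 : Eig (x - (0 - y)) := hEig0 _ _ hx (hEig0 _ _ hEigz hy)
        have h2 : x - (0 - y) = x + y := by abel
        rw [h2] at h1
        exact h1
      smul_mem' := fun c x hx => hEigs c x hx }
  have hPmem : ∀ v : V, v ∈ P ↔ Eig v := fun v => Iff.rfl
  have hstab : ∀ (g : GQ), ∀ v ∈ P, r g v ∈ P := fun g v hv => hEigr g v hv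
  let rP : GQ → Module.End 𝒪 P := fun g => (r g).restrict (hstab g)
  have hrP : ∀ (g : GQ) (e : P), ((rP g e : P) : V) = r g (e : V) := fun g e => rfl
  have hrPmul : ∀ g h : GQ, rP (g * h) = rP g * rP h := by
    intro g h
    refine LinearMap.ext fun e => Subtype.ext ?_
    rw [hrP, map_mul, Module.End.mul_apply, Module.End.mul_apply, hrP, hrP]
  haveI : IsNoetherian 𝒪 V := isNoetherian_of_isNoetherianRing_of_finite 𝒪 V
  haveI : Module.Finite 𝒪 P := Module.IsNoetherian.finite 𝒪 P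
  haveI : NoZeroSMulDivisors 𝒪 P := ⟨fun {c x} h => by
    have h1 : c • (x : V) = 0 := by
      have := congrArg (fun e : P => (e : V)) h
      simpa using this
    rcases smul_eq_zero.1 h1 with h2 | h2
    · exact Or.inl h2
    · exact Or.inr (Subtype.ext h2)⟩
  haveI : Nontrivial P := by
    obtain ⟨v, hv0, hveig⟩ := hnt
    exact ⟨⟨⟨v, hveig⟩, 0, fun h => hv0 (congrArg Subtype.val h)⟩⟩
  -- the subgroup acts unipotently on the eigenvectors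
  have hsq : ∀ τ ∈ I,
      (rP τ - (1 : Module.End 𝒪 P)) * (rP τ - (1 : Module.End 𝒪 P)) = 0 := by
    intro τ hτ
    obtain ⟨t, ht⟩ := hex τ
    have hcp' := hcp τ t ht
    rw [hunip τ hτ] at hcp'
    have e0 := congrArg (Polynomial.eval (0 : 𝒪)) hcp'
    have e1 := congrArg (Polynomial.eval (1 : 𝒪)) hcp'
    simp only [Polynomial.eval_pow, Polynomial.eval_sub, Polynomial.eval_X,
      Polynomial.eval_one, Polynomial.eval_add, Polynomial.eval_mul, Polynomial.eval_C]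
      at e0 e1
    have hd1 : ((d τ : 𝒪ˣ) : 𝒪) = 1 := by
      linear_combination (-1 : 𝒪) * e0
    have ht2 : t = 2 := by
      rw [hd1] at e1
      linear_combination e1
    refine LinearMap.ext fun e => Subtype.ext ?_
    have h5 := ht (e : V) e.2
    rw [hd1, ht2, one_smul, two_smul] at h5
    simp only [Module.End.mul_apply, LinearMap.sub_apply, Module.End.one_apply,
      LinearMap.zero_apply, Submodule.coe_sub, Submodule.coe_zero, hrP, map_sub]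
    rw [← h5]
    abel
  -- Kolchin
  obtain ⟨v, hv0, hvfix⟩ := Fermat.Agent.S36_helper12_KOL.S36KOL_main (R := 𝒪) (E := P)
    (two_ne_zero) {g | ∃ τ ∈ I, g = rP τ}
    (by
      rintro g ⟨τ, hτ, rfl⟩ h ⟨τ', hτ', rfl⟩
      exact ⟨τ * τ', I.mul_mem hτ hτ', (hrPmul τ τ').symm⟩)
    (by
      rintro g ⟨τ, hτ, rfl⟩
      exact hsq τ hτ)
  refine ⟨(v : V), fun h => hv0 (Subtype.ext h), v.2, fun τ hτ => ?_⟩
  have h6 := congrArg (fun e : P => (e : V)) (hvfix (rP τ) ⟨τ, hτ, rfl⟩)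
  simp only [hrP] at h6
  exact h6

theorem S36TOPA_abstract {p : ℕ} [Fact p.Prime] {N : ℕ} [NeZero N] (S : Finset ℕ)
    (hpS : p ∈ S) (hNS : ∀ q : ℕ, q.Prime → q ∣ N → q ∈ S)
    (𝒪' : Type) [CommRing 𝒪'] [IsDomain 𝒪'] [IsDiscreteValuationRing 𝒪']
    [IsAdicComplete (IsLocalRing.maximalIdeal 𝒪') 𝒪'] [Finite (IsLocalRing.ResidueField 𝒪')]
    [CharZero 𝒪'] [Algebra ℤ_[p] 𝒪'] (hp𝒪' : (p : 𝒪') ∈ IsLocalRing.maximalIdeal 𝒪')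
    (χ : CuspForm.heckeAlgebra N 2 (↑S : Set ℕ) →+* 𝒪')
    (Λ : Type) [AddCommGroup Λ] [Module ℤ_[p] Λ] [Module.Finite ℤ_[p] Λ] [Module.Free ℤ_[p] Λ]
    (ρ : GQ →* Module.End ℤ_[p] Λ) (T : ℕ → Module.End ℤ_[p] Λ)
    (hcomm : ∀ (ℓ : ℕ) (g : GQ), ℓ.Prime → T ℓ * ρ g = ρ g * T ℓ)
    (hcont : ∀ n : ℕ, ∃ L : IntermediateField ℚ Qb, FiniteDimensional ℚ L ∧
      ∀ σ : GQ, (∀ x ∈ L, σ x = x) → ∀ v : Λ, ∃ w : Λ, ρ σ v - v = (p : ℤ_[p]) ^ n • w)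
    (hES : ∀ ℓ : ℕ, ℓ.Prime → ¬ ℓ ∣ N * p → ∀ A : ValuationSubring Qb, A.LiesOverPrime ℓ →
      ∀ σ : GQ, A.IsFrobeniusAt σ ℓ →
        ρ σ * ρ σ - T ℓ * ρ σ + (ℓ : ℤ_[p]) • (1 : Module.End ℤ_[p] Λ) = 0)
    (hv : ∃ v : 𝒪' ⊗[ℤ_[p]] Λ, v ≠ 0 ∧
      ∀ (ℓ : ℕ) (hℓ : ℓ.Prime) (hℓN : ¬ ℓ ∣ N) (hℓS : ℓ ∉ (↑S : Set ℕ)),
        (T ℓ).baseChange 𝒪' v = χ (CuspForm.heckeAlgebra.T hℓ hℓN hℓS) • v)
    (hfix : ∀ q : ℕ, q.Prime → q ≠ p → N.factorization q = 2 →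
      ∃ A : ValuationSubring Qb, A.LiesOverPrime q ∧
        ∀ v : 𝒪' ⊗[ℤ_[p]] Λ,
          (∀ (ℓ : ℕ) (hℓ : ℓ.Prime) (hℓN : ¬ ℓ ∣ N) (hℓS : ℓ ∉ (↑S : Set ℕ)),
            (T ℓ).baseChange 𝒪' v = χ (CuspForm.heckeAlgebra.T hℓ hℓN hℓS) • v) →
          (∀ τ ∈ A.inertiaSubgroupIn ℚ, (ρ τ).baseChange 𝒪' v = v) → v = 0) :
    ∃ (𝒪'' : Type) (_ : CommRing 𝒪'') (_ : IsDomain 𝒪'') (_ : IsDiscreteValuationRing 𝒪'')
      (_ : IsAdicComplete (IsLocalRing.maximalIdeal 𝒪'') 𝒪'')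
      (_ : Finite (IsLocalRing.ResidueField 𝒪'')) (_ : CharZero 𝒪'')
      (_ : Algebra 𝒪' 𝒪'') (_ : Module.Finite 𝒪' 𝒪'') (_ : IsLocalHom (algebraMap 𝒪' 𝒪'')),
    Function.Injective (algebraMap 𝒪' 𝒪'') ∧
    ∃ ρ' : GaloisRepAdic 𝒪'',
      (∀ (ℓ : ℕ) (hℓ : ℓ.Prime) (hℓN : ¬ ℓ ∣ N) (hℓS : ℓ ∉ (↑S : Set ℕ)),
        ∀ A : ValuationSubring (AlgebraicClosure ℚ), A.LiesOverPrime ℓ →
          ∀ σ : AlgebraicClosure ℚ ≃ₐ[ℚ] AlgebraicClosure ℚ, A.IsFrobeniusAt σ ℓ →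
            LinearMap.charpoly (ρ'.ρ σ) =
              X ^ 2 - C (algebraMap 𝒪' 𝒪'' (χ (CuspForm.heckeAlgebra.T hℓ hℓN hℓS))) * X
                + C ((ℓ : 𝒪''))) ∧
      (∀ q : ℕ, q.Prime → q ≠ p → N.factorization q = 2 → ¬ ρ'.IsUnipotentOnInertiaAt q) := by
  classical
  have hp : p.Prime := Fact.out
  -- the eigenvalues
  let a : ℕ → 𝒪' := fun ℓ =>
    if h : ℓ.Prime ∧ ¬ ℓ ∣ N ∧ ℓ ∉ (↑S : Set ℕ) then χ (CuspForm.heckeAlgebra.T h.1 h.2.1 h.2.2)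
    else 0
  have ha : ∀ (ℓ : ℕ) (hℓ : ℓ.Prime) (hℓN : ¬ ℓ ∣ N) (hℓS : ℓ ∉ (↑S : Set ℕ)),
      a ℓ = χ (CuspForm.heckeAlgebra.T hℓ hℓN hℓS) := by
    intro ℓ hℓ hℓN hℓS
    simp only [a]
    rw [dif_pos ⟨hℓ, hℓN, hℓS⟩]
  have hN : ∀ ℓ : ℕ, ℓ.Prime → ℓ ∉ S → ¬ ℓ ∣ N := fun ℓ hℓ hℓS h => hℓS (hNS ℓ hℓ h)
  have hS' : ∀ ℓ : ℕ, ℓ ∉ S → ℓ ∉ (↑S : Set ℕ) := fun ℓ h h' => h (Finset.mem_coe.1 h')
  have hne : ∀ ℓ : ℕ, ℓ ∉ S → ℓ ≠ p := fun ℓ h h' => h (h' ▸ hpS)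
  -- the eigenvector predicate, in the two forms
  have heig : ∀ v : 𝒪' ⊗[ℤ_[p]] Λ,
      (∀ ℓ : ℕ, ℓ.Prime → ℓ ∉ S → (T ℓ).baseChange 𝒪' v = a ℓ • v) ↔
        ∀ (ℓ : ℕ) (hℓ : ℓ.Prime) (hℓN : ¬ ℓ ∣ N) (hℓS : ℓ ∉ (↑S : Set ℕ)),
          (T ℓ).baseChange 𝒪' v = χ (CuspForm.heckeAlgebra.T hℓ hℓN hℓS) • v := by
    intro v
    constructor
    · intro h ℓ hℓ hℓN hℓS
      rw [← ha ℓ hℓ hℓN hℓS]
      exact h ℓ hℓ (fun h' => hℓS (Finset.mem_coe.2 h'))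
    · intro h ℓ hℓ hℓS
      rw [ha ℓ hℓ (hN ℓ hℓ hℓS) (hS' ℓ hℓS)]
      exact h ℓ hℓ (hN ℓ hℓ hℓS) (hS' ℓ hℓS)
  -- the cyclotomic character
  let f : ℤ_[p] →+* 𝒪' := algebraMap ℤ_[p] 𝒪'
  obtain ⟨c, hcc, hdc⟩ := S30CYCT_conj p f
  -- base change
  have hppow : ∀ n : ℕ, algebraMap ℤ_[p] 𝒪' ((p : ℤ_[p]) ^ n) ∈
      IsLocalRing.maximalIdeal 𝒪' ^ n := by
    intro n
    rw [map_pow, map_natCast]
    exact Ideal.pow_mem_pow hp𝒪' n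
  have hcontV : GaloisActionIsAdicContinuous 𝒪' (S30BC_hom 𝒪' ρ) := by
    intro n
    obtain ⟨L, hL, h⟩ := hcont n
    refine ⟨L, hL, fun σ hσ x => ?_⟩
    have h1 : ∀ v : Λ, ∃ w : Λ, (ρ σ - 1) v = (p : ℤ_[p]) ^ n • w := fun v => by
      obtain ⟨w, hw⟩ := h σ hσ v
      exact ⟨w, by rw [LinearMap.sub_apply, Module.End.one_apply, hw]⟩
    obtain ⟨y, hy⟩ := S30BC_dvd 𝒪' (ρ σ - 1) ((p : ℤ_[p]) ^ n) h1 x
    have h2 : S30BC_hom 𝒪' ρ σ x - x = algebraMap ℤ_[p] 𝒪' ((p : ℤ_[p]) ^ n) • y := by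
      rw [← hy, LinearMap.baseChange_sub, LinearMap.baseChange_one, LinearMap.sub_apply,
        Module.End.one_apply, S30BC_hom_apply]
    rw [h2]
    exact Submodule.smul_mem_smul (hppow n) Submodule.mem_top
  have hcommV : ∀ (ℓ : ℕ) (g : GQ), ℓ.Prime → ℓ ∉ S →
      (fun ℓ => (T ℓ).baseChange 𝒪') ℓ * S30BC_hom 𝒪' ρ g =
        S30BC_hom 𝒪' ρ g * (fun ℓ => (T ℓ).baseChange 𝒪') ℓ := by
    intro ℓ g hℓ hℓS
    simp only [S30BC_hom_apply]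
    rw [← LinearMap.baseChange_mul, ← LinearMap.baseChange_mul, hcomm ℓ g hℓ]
  have hESV : ∀ ℓ : ℕ, ℓ.Prime → ℓ ∉ S → ∀ A : ValuationSubring Qb, A.LiesOverPrime ℓ →
      ∀ σ : GQ, A.IsFrobeniusAt σ ℓ →
        S30BC_hom 𝒪' ρ σ * S30BC_hom 𝒪' ρ σ -
            (fun ℓ => (T ℓ).baseChange 𝒪') ℓ * S30BC_hom 𝒪' ρ σ
          + (ℓ : 𝒪') • (1 : Module.End 𝒪' (𝒪' ⊗[ℤ_[p]] Λ)) = 0 := by
    intro ℓ hℓ hℓS A hA σ hσ
    have h1 := congrArg (fun φ : Module.End ℤ_[p] Λ => φ.baseChange 𝒪')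
      (hES ℓ hℓ (S30FINAL_not_dvd hp S hpS hNS hℓ hℓS) A hA σ hσ)
    simp only [LinearMap.baseChange_add, LinearMap.baseChange_sub, LinearMap.baseChange_mul,
      LinearMap.baseChange_smul, LinearMap.baseChange_one, LinearMap.baseChange_zero] at h1
    simp only [S30BC_hom_apply]
    rw [← h1]
    congr 1
    refine LinearMap.ext fun x => ?_
    rw [LinearMap.smul_apply, LinearMap.smul_apply, Module.End.one_apply,
      algebra_compatible_smul 𝒪' (ℓ : ℤ_[p]) x, map_natCast]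
  have hEL := Fermat.Agent.S30_helper18_EL.S30_EL p 𝒪' Λ ρ T S a hp𝒪'
    (fun ℓ g hℓ _ => hcomm ℓ g hℓ) hcont
  have hvV : ∃ v : 𝒪' ⊗[ℤ_[p]] Λ, v ≠ 0 ∧
      ∀ ℓ : ℕ, ℓ.Prime → ℓ ∉ S → (T ℓ).baseChange 𝒪' v = a ℓ • v := by
    obtain ⟨v, hv0, hv1⟩ := hv
    exact ⟨v, hv0, (heig v).2 hv1⟩
  obtain ⟨ρ', h1, -, h3, h4⟩ := S35TOP_cwv S 𝒪' (𝒪' ⊗[ℤ_[p]] Λ) (S30BC_hom 𝒪' ρ)
    (fun ℓ => (T ℓ).baseChange 𝒪') a (S30CYCT_d p f) c hcommV hcontV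
    (fun n => S30CYCT_cont p f hp𝒪' n)
    (fun ℓ hℓ hℓS A hA σ hσ => S30CYCT_frob p f hℓ (hne ℓ hℓS) A hA σ hσ) hcc hdc hESV hvV hEL
  refine ⟨𝒪', inferInstance, inferInstance, inferInstance, inferInstance, inferInstance,
    inferInstance, Algebra.id 𝒪', inferInstance, ?_, ?_, ρ', ?_, ?_⟩
  · exact ⟨fun _ h => h⟩
  · exact fun _ _ h => h
  · intro ℓ hℓ hℓN hℓS A hA σ hσ
    have hℓS' : ℓ ∉ S := fun h => hℓS (Finset.mem_coe.2 h)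
    rw [h1 ℓ hℓ hℓS' A hA σ hσ, ha ℓ hℓ hℓN hℓS]
    rfl
  · intro q hq hqp hq2 hunip
    obtain ⟨A, hA, hA0⟩ := hfix q hq hqp hq2
    obtain ⟨v, hv0, hveig, hvfix⟩ := S36TOPA_fixed 𝒪' (𝒪' ⊗[ℤ_[p]] Λ) (S30BC_hom 𝒪' ρ)
      (fun v => ∀ ℓ : ℕ, ℓ.Prime → ℓ ∉ S → (T ℓ).baseChange 𝒪' v = a ℓ • v)
      (by
        intro v w hv hw ℓ hℓ hℓS
        rw [map_sub, hv ℓ hℓ hℓS, hw ℓ hℓ hℓS, smul_sub])
      (by
        intro c v hv ℓ hℓ hℓS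
        rw [map_smul, hv ℓ hℓ hℓS, smul_comm])
      (by
        intro ℓ hℓ hℓS
        rw [map_zero, smul_zero])
      (by
        intro g v hv ℓ hℓ hℓS
        have hc := congrArg (fun φ : Module.End 𝒪' (𝒪' ⊗[ℤ_[p]] Λ) => φ v) (hcommV ℓ g hℓ hℓS)
        simp only [Module.End.mul_apply] at hc
        rw [hc, hv ℓ hℓ hℓS, map_smul])
      hvV ρ' (S30CYCT_d p f) h3 h4 (A.inertiaSubgroupIn ℚ) (hunip A hA)
    exact hv0 (hA0 v ((heig v).1 hveig) (fun τ hτ => hvfix τ hτ))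

end Fermat.Agent.S36_helper12_TOPA
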