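import Fermat.Prelude.Def_CuspForm_Newforms
import Fermat.Prelude.Def_GaloisRep_LocalConditions
import Fermat.Prelude.Def_GaloisRep_Residual
import Fermat.Agent.S36_helper12_TOPA
import Fermat.Agent.S30_helper25_ZP
import Fermat.Agent.S30_helper27_TATEC
import Fermat.Agent.S30_helper23_EIGC
import Fermat.Agent.S37_helper8_E1M
import Fermat.Agent.G_helper6_E2PLUG

/-!
# S36 (helper12): the frozen statement from the absence of inertia-fixed eigenvectors

`S36TOPF_frozen`: the conclusion of the frozen statement S36 from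

  **(fix)** `S36TOPF_Fix`: for every prime `q ≠ lam` with `q² ∥ M` there is a place `A` over `q`
  such that NO nonzero eigenvector of the Hecke operators `T ℓ`, `ℓ ∉ S` (eigenvalues
  `iota (chig (T ℓ))`) in `O' ⊗ T_lam J₀(M)` is fixed by the inertia group of `A`.

Everything else (Tate module, Eichler-Shimura, eigenlattice, density, lattice wiring, cyclotomic
character) is the landed S30 machinery; the unipotent clause is Kolchin (`S36KOL_main`) on the
eigenlattice (`S36TOPA_abstract`).  The hypotheses `hg`, `hchig`, `hlam2`, `hres` of the frozen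
statement are not used here.
-/

set_option autoImplicit false
set_option linter.unusedSectionVars false
set_option linter.unusedVariables false
set_option linter.style.haveILetI false

open Polynomial
open scoped TensorProduct
open CuspForm

noncomputable section

namespace Fermat.Agent.S36_helper12_TOPF

local notation "Qb" => AlgebraicClosure ℚ
local notation "GQ" => (AlgebraicClosure ℚ ≃ₐ[ℚ] AlgebraicClosure ℚ)

open Fermat.Agent.S30_helper1_TATE

/-- **(fix)**: no nonzero eigenvector of `O' ⊗ T_lam J₀(M)` is fixed by the inertia group of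
(one place over) a prime `q ≠ lam` with `q² ∥ M`. -/
def S36TOPF_Fix (M : ℕ) [NeZero M] (lam : ℕ) [Fact lam.Prime] (S : Finset ℕ)
    (O' : Type) [CommRing O'] [IsDomain O'] [IsDiscreteValuationRing O']
    [IsAdicComplete (IsLocalRing.maximalIdeal O') O']
    (hlamO' : (lam : O') ∈ IsLocalRing.maximalIdeal O')
    (χ : CuspForm.heckeAlgebra M 2 (↑S : Set ℕ) →+* O') : Prop :=
  letI : Algebra ℤ_[lam] O' := (Fermat.Agent.S30_helper25_ZP.S30ZP_zpLocal lam O' hlamO').toAlgebra
  ∀ q : ℕ, q.Prime → q ≠ lam → M.factorization q = 2 →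
    ∃ A : ValuationSubring Qb, A.LiesOverPrime q ∧
      ∀ v : O' ⊗[ℤ_[lam]] (S30T_Tate (ModularCurve.JZero M) lam),
        (∀ (ℓ : ℕ) (hℓ : ℓ.Prime) (hℓM : ¬ ℓ ∣ M) (hℓS : ℓ ∉ (↑S : Set ℕ)),
          (Fermat.Agent.S30_helper27_TATEC.S30TC_T M lam ℓ).baseChange O' v =
            χ (CuspForm.heckeAlgebra.T hℓ hℓM hℓS) • v) →
        (∀ τ ∈ A.inertiaSubgroupIn ℚ,
          (Fermat.Agent.S30_helper27_TATEC.S30TC_rho M lam τ).baseChange O' v = v) → v = 0

/-- **the conclusion of the frozen statement S36** for an arbitrary eigensystem `χ`, from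
(fix). -/
theorem S36TOPF_of_fix {M : ℕ} [NeZero M] (lam : ℕ) [Fact lam.Prime] (S : Finset ℕ)
    (O' : Type) [CommRing O'] [IsDomain O'] [IsDiscreteValuationRing O']
    [IsAdicComplete (IsLocalRing.maximalIdeal O') O'] [Finite (IsLocalRing.ResidueField O')]
    [CharZero O'] (hlamO' : (lam : O') ∈ IsLocalRing.maximalIdeal O')
    (χ : CuspForm.heckeAlgebra M 2 (↑S : Set ℕ) →+* O')
    (hlamS : lam ∈ S) (hMS : ∀ q : ℕ, q.Prime → q ∣ M → q ∈ S)
    (hfix : S36TOPF_Fix M lam S O' hlamO' χ) :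
    ∃ (O'' : Type) (_ : CommRing O'') (_ : IsDomain O'') (_ : IsDiscreteValuationRing O'')
      (_ : IsAdicComplete (IsLocalRing.maximalIdeal O'') O'')
      (_ : Finite (IsLocalRing.ResidueField O''))
      (_ : CharZero O'') (_ : Algebra O' O'') (_ : Module.Finite O' O'')
      (_ : IsLocalHom (algebraMap O' O'')),
      Function.Injective (algebraMap O' O'') ∧
      ∃ ρ : GaloisRepAdic O'',
        (∀ (ℓ : ℕ) (hℓ : ℓ.Prime) (hℓM : ¬ ℓ ∣ M) (hℓS : ℓ ∉ (↑S : Set ℕ)),
          ∀ A : ValuationSubring (AlgebraicClosure ℚ), A.LiesOverPrime ℓ →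
            ∀ σ : AlgebraicClosure ℚ ≃ₐ[ℚ] AlgebraicClosure ℚ, A.IsFrobeniusAt σ ℓ →
              LinearMap.charpoly (ρ.ρ σ) =
                X ^ 2 - C (algebraMap O' O'' (χ (CuspForm.heckeAlgebra.T hℓ hℓM hℓS))) * X
                  + C ((ℓ : O''))) ∧
        (∀ q : ℕ, q.Prime → q ≠ lam → M.factorization q = 2 →
          ¬ ρ.IsUnipotentOnInertiaAt q) := by
  letI : Algebra ℤ_[lam] O' :=
    (Fermat.Agent.S30_helper25_ZP.S30ZP_zpLocal lam O' hlamO').toAlgebra
  have hlam : lam.Prime := Fact.out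
  -- the input (E1) at the moduli `lam ^ n`
  have hE1 := Fermat.Agent.S37_helper8_E1M.S37E1M_pow M lam
  -- the input (E2): the compatible family of lattice maps
  obtain ⟨Θ, hΘ, hcompat⟩ := Fermat.Agent.G_helper6_E2PLUG.PG_E2PLUG_adic M lam hlam.pos
  -- finiteness of `J₀(M)[lam]`
  have hfin : (AlgebraicCurve.Pic0.torsion (AlgebraicClosure ℚ)
      (ModularCurve.modularFunctionFieldBar M) lam : Set (ModularCurve.JZero M)).Finite := by
    have h := (hΘ 1).fin
    rwa [pow_one] at h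
  haveI := Fermat.Agent.S30_helper27_TATEC.S30TC_finite M lam hfin
  haveI := Fermat.Agent.S30_helper27_TATEC.S30TC_free M lam hfin
  -- the nonzero eigenvector
  have hv := Fermat.Agent.S30_helper23_EIGC.PG30_eigenlattice_of_E2 (𝒪 := O') M (↑S : Set ℕ)
    (fun q hq hqM => Finset.mem_coe.2 (hMS q hq hqM)) lam Θ hΘ hcompat
    (Fermat.Agent.S30_helper27_TATEC.S30TC_T M lam)
    (fun ℓ _ _ x n => Fermat.Agent.S30_helper27_TATEC.S30TC_T_apply ℓ.2 x n) χ
  exact Fermat.Agent.S36_helper12_TOPA.S36TOPA_abstract S hlamS hMS O' hlamO' χ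
    (S30T_Tate (ModularCurve.JZero M) lam)
    (Fermat.Agent.S30_helper27_TATEC.S30TC_rho M lam)
    (Fermat.Agent.S30_helper27_TATEC.S30TC_T M lam)
    (fun ℓ g hℓ => Fermat.Agent.S30_helper27_TATEC.S30TC_comm M lam ℓ g hℓ)
    (Fermat.Agent.S30_helper27_TATEC.S30TC_cont M lam hfin)
    (Fermat.Agent.S30_helper27_TATEC.S30TC_ES M lam hE1) hv hfix


/-- **the frozen statement S36 from (fix)** for the eigensystem of the newform. -/
theorem S36TOPF_frozen
    {M : ℕ} [NeZero M] {g : CuspForm (CongruenceSubgroup.Gamma0 M) 2} (hg : g.IsNewform)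
    (lam : ℕ) [Fact lam.Prime]
    (S : Finset ℕ)
    (O' : Type) [CommRing O'] [IsDomain O'] [IsDiscreteValuationRing O']
    [IsAdicComplete (IsLocalRing.maximalIdeal O') O'] [Finite (IsLocalRing.ResidueField O')]
    [CharZero O'] (hlamO' : (lam : O') ∈ IsLocalRing.maximalIdeal O')
    (hlam2 : lam ≠ 2)
    (chig : CuspForm.heckeAlgebra M 2 (↑S : Set ℕ) →+* ℂ)
    (hchig : ∀ (ℓ : ℕ) (hℓ : ℓ.Prime) (hℓM : ¬ ℓ ∣ M) (hℓS : ℓ ∉ (↑S : Set ℕ)),
      chig (CuspForm.heckeAlgebra.T hℓ hℓM hℓS) = ModularFormClass.qCoeff g ℓ)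
    (iota : chig.range →+* O')
    (hlamS : lam ∈ S) (hMS : ∀ q : ℕ, q.Prime → q ∣ M → q ∈ S)
    (hres : ∀ (O'' : Type) [CommRing O''] [IsDomain O''] [IsDiscreteValuationRing O'']
      [IsAdicComplete (IsLocalRing.maximalIdeal O'') O''] [Finite (IsLocalRing.ResidueField O'')] [CharZero O'']
      [Algebra O' O''] [Module.Finite O' O''] [IsLocalHom (algebraMap O' O'')],
      Function.Injective (algebraMap O' O'') → ∀ (ρ : GaloisRepAdic O''),
      (∀ (ℓ : ℕ) (hℓ : ℓ.Prime) (hℓlam : ℓ ≠ lam) (hℓM : ¬ ℓ ∣ M) (hℓS : ℓ ∉ (↑S : Set ℕ)),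
        ∀ A : ValuationSubring (AlgebraicClosure ℚ), A.LiesOverPrime ℓ →
          ∀ σ : AlgebraicClosure ℚ ≃ₐ[ℚ] AlgebraicClosure ℚ, A.IsFrobeniusAt σ ℓ →
            LinearMap.charpoly (ρ.ρ σ) =
              X ^ 2 - C (algebraMap O' O'' ((iota.comp chig.rangeRestrict) (CuspForm.heckeAlgebra.T hℓ hℓM hℓS))) * X
                + C ((ℓ : O'')))
      → ρ.residual.IsAbsolutelyIrreducible ∧ ρ.residual.IsOdd)
    (hfix : S36TOPF_Fix M lam S O' hlamO' (iota.comp chig.rangeRestrict)) :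
    ∃ (O'' : Type) (_ : CommRing O'') (_ : IsDomain O'') (_ : IsDiscreteValuationRing O'')
      (_ : IsAdicComplete (IsLocalRing.maximalIdeal O'') O'') (_ : Finite (IsLocalRing.ResidueField O''))
      (_ : CharZero O'') (_ : Algebra O' O'') (_ : Module.Finite O' O'') (_ : IsLocalHom (algebraMap O' O'')),
      Function.Injective (algebraMap O' O'') ∧
      ∃ ρ : GaloisRepAdic O'',
        (∀ (ℓ : ℕ) (hℓ : ℓ.Prime) (hℓM : ¬ ℓ ∣ M) (hℓS : ℓ ∉ (↑S : Set ℕ)),
          ∀ A : ValuationSubring (AlgebraicClosure ℚ), A.LiesOverPrime ℓ →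
            ∀ σ : AlgebraicClosure ℚ ≃ₐ[ℚ] AlgebraicClosure ℚ, A.IsFrobeniusAt σ ℓ →
              LinearMap.charpoly (ρ.ρ σ) =
                X ^ 2 - C (algebraMap O' O'' ((iota.comp chig.rangeRestrict) (CuspForm.heckeAlgebra.T hℓ hℓM hℓS))) * X
                  + C ((ℓ : O''))) ∧
        (∀ q : ℕ, q.Prime → q ≠ lam → M.factorization q = 2 → ¬ ρ.IsUnipotentOnInertiaAt q) :=
  S36TOPF_of_fix lam S O' hlamO' (iota.comp chig.rangeRestrict) hlamS hMS hfix

end Fermat.Agent.S36_helper12_TOPF
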