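import Fermat.Agent.S35_helper12_ENDK
import Fermat.Statements.S36

/-!
# S36 (helper18, owner): the contracts

Definitions only (plus two one-line sanity theorems).  Everything for S36 is typed against
this file.

* `S36C_Geo M lam A ν₁ ν₂ c` : **(GEO36)** for one valuation subring `A` of `ℚ̄`, two additive
  maps `ν₁`, `ν₂` out of `J₀(M)` and an exponent `c`: every `lam`-power torsion point of `J₀(M)`
  which is NEW (`ν₁ x = 0`, `ν₂ x = 0`) and FIXED by the inertia group of `A` is killed by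
  `lam ^ c`;
* `S36C_GeoAt N' q lam` : (GEO36) at the level `N' * q * q` for the two push-forwards
  `S35PU_alpha (N' * q) q`, `S35PU_beta (N' * q) q : J₀(N' q q) → J₀(N' q)` of helper6, in the
  form `∀ A over q, ∃ c`;
* `S36C_GeoInput` : (GEO36) at all levels `N' * q * q` with `q ∤ N'`, `q ≠ lam`, `lam ≠ 2`;
* `S36C_P6At` : (P6) at the level `N' * q * q` (the landed `S35ENDK_P6At` at `(N' * q, q)`);
* `S36C_Frozen` : the frozen statement S36 as a `Prop`; `S36C_frozen_apply` checks that it is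
  the frozen statement.

The two theorems owed: `S36C_GeoInput → S36C_Frozen` (TOP36) and `S36C_GeoInput` (GEO36).
-/

set_option autoImplicit false
set_option linter.unusedSectionVars false
set_option linter.unusedVariables false
set_option linter.style.haveILetI false

open Polynomial
open scoped TensorProduct
open CuspForm

noncomputable section

namespace Fermat.Agent.S36_helper18_Contracts

local notation "Qb" => AlgebraicClosure ℚ
local notation "GQ" => (AlgebraicClosure ℚ ≃ₐ[ℚ] AlgebraicClosure ℚ)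

open Fermat.Agent.S35_helper12_END Fermat.Agent.S35_helper12_ENDK Fermat.Agent.S35_helper6_PUSH

/-- **(GEO36)** for one valuation subring `A`, two additive maps `ν₁`, `ν₂` out of `J₀(M)` and an
exponent `c`: the NEW `lam`-power torsion points FIXED by the inertia group of `A` are killed by
`lam ^ c`. -/
def S36C_Geo (M : ℕ) (lam : ℕ) (A : ValuationSubring Qb) {J₁ J₂ : Type} [AddCommGroup J₁]
    [AddCommGroup J₂] (ν₁ : ModularCurve.JZero M →+ J₁) (ν₂ : ModularCurve.JZero M →+ J₂)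
    (c : ℕ) : Prop :=
  ∀ (k : ℕ) (x : ModularCurve.JZero M), (lam ^ k) • x = 0 → ν₁ x = 0 → ν₂ x = 0 →
    (∀ τ ∈ A.inertiaSubgroupIn ℚ, τ • x = x) → (lam ^ c) • x = 0

/-- **(GEO36) at the level `N' * q * q`**, for the two push-forwards to `J₀(N' * q)`: for every
valuation subring `A` of `ℚ̄` over `q` there is an exponent `c`. -/
def S36C_GeoAt (N' q lam : ℕ) [NeZero N'] [NeZero q] : Prop :=
  ∀ A : ValuationSubring Qb, A.LiesOverPrime q → ∃ c : ℕ,
    S36C_Geo (N' * q * q) lam A (S35PU_alpha (N' * q) q) (S35PU_beta (N' * q) q) c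

/-- **the input (GEO36)**: at all levels `N' * q * q` with `q ∤ N'`, `q ≠ lam`, `lam ≠ 2`. -/
def S36C_GeoInput : Prop :=
  ∀ (N' q lam : ℕ) [NeZero N'] [NeZero q], q.Prime → lam.Prime → q ≠ lam → lam ≠ 2 → ¬ q ∣ N' →
    S36C_GeoAt N' q lam

/-- **(P6) at the level `N' * q * q`**: a nonzero eigenvector in `O' ⊗ T_lam J₀(N' q q)` killed
by the two push-forwards to `J₀(N' q)`. -/
def S36C_P6At (N' q : ℕ) [NeZero N'] [NeZero q] [NeZero (N' * q)] [NeZero (N' * q * q)]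
    (lam : ℕ) [Fact lam.Prime]
    (S : Finset ℕ) (O' : Type) [CommRing O'] [IsDomain O'] [IsDiscreteValuationRing O']
    [IsAdicComplete (IsLocalRing.maximalIdeal O') O']
    (hlamO' : (lam : O') ∈ IsLocalRing.maximalIdeal O')
    (χ : CuspForm.heckeAlgebra (N' * q * q) 2 (↑S : Set ℕ) →+* O') : Prop :=
  S35ENDK_P6At (N' * q) q lam S O' hlamO' χ

/-- **the frozen statement S36**, as a `Prop`. -/
def S36C_Frozen : Prop :=
  ∀ {M : ℕ} [NeZero M] {g : CuspForm (CongruenceSubgroup.Gamma0 M) 2} (hg : g.IsNewform)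
    (lam : ℕ) [Fact lam.Prime]
    (S : Finset ℕ)
    (O' : Type) [CommRing O'] [IsDomain O'] [IsDiscreteValuationRing O']
    [IsAdicComplete (IsLocalRing.maximalIdeal O') O'] [Finite (IsLocalRing.ResidueField O')]
    [CharZero O'] (hlamO' : (lam : O') ∈ IsLocalRing.maximalIdeal O')
    (hlam2 : lam ≠ 2)
    (chig : CuspForm.heckeAlgebra M 2 (↑S : Set ℕ) →+* ℂ)
    (hchig : ∀ (ℓ : ℕ) (hℓ : ℓ.Prime) (hℓM : ¬ ℓ ∣ M) (hℓS : ℓ ∉ (↑S : Set ℕ)),
      chig (CuspForm.heckeAlgebra.T hℓ hℓM hℓS) = ModularFormClass.qCoeff g ℓ)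
    (iota : chig.range →+* O')
    (hlamS : lam ∈ S) (hMS : ∀ q : ℕ, q.Prime → q ∣ M → q ∈ S)
    (hres : ∀ (O'' : Type) [CommRing O''] [IsDomain O''] [IsDiscreteValuationRing O'']
      [IsAdicComplete (IsLocalRing.maximalIdeal O'') O''] [Finite (IsLocalRing.ResidueField O'')] [CharZero O'']
      [Algebra O' O''] [Module.Finite O' O''] [IsLocalHom (algebraMap O' O'')],
      Function.Injective (algebraMap O' O'') → ∀ (ρ : GaloisRepAdic O''),
      (∀ (ℓ : ℕ) (hℓ : ℓ.Prime) (hℓlam : ℓ ≠ lam) (hℓM : ¬ ℓ ∣ M) (hℓS : ℓ ∉ (↑S : Set ℕ)),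
        ∀ A : ValuationSubring (AlgebraicClosure ℚ), A.LiesOverPrime ℓ →
          ∀ σ : AlgebraicClosure ℚ ≃ₐ[ℚ] AlgebraicClosure ℚ, A.IsFrobeniusAt σ ℓ →
            LinearMap.charpoly (ρ.ρ σ) =
              X ^ 2 - C (algebraMap O' O'' ((iota.comp chig.rangeRestrict) (CuspForm.heckeAlgebra.T hℓ hℓM hℓS))) * X
                + C ((ℓ : O'')))
      → ρ.residual.IsAbsolutelyIrreducible ∧ ρ.residual.IsOdd),
    ∃ (O'' : Type) (_ : CommRing O'') (_ : IsDomain O'') (_ : IsDiscreteValuationRing O'')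
      (_ : IsAdicComplete (IsLocalRing.maximalIdeal O'') O'') (_ : Finite (IsLocalRing.ResidueField O''))
      (_ : CharZero O'') (_ : Algebra O' O'') (_ : Module.Finite O' O'') (_ : IsLocalHom (algebraMap O' O'')),
      Function.Injective (algebraMap O' O'') ∧
      ∃ ρ : GaloisRepAdic O'',
        (∀ (ℓ : ℕ) (hℓ : ℓ.Prime) (hℓM : ¬ ℓ ∣ M) (hℓS : ℓ ∉ (↑S : Set ℕ)),
          ∀ A : ValuationSubring (AlgebraicClosure ℚ), A.LiesOverPrime ℓ →
            ∀ σ : AlgebraicClosure ℚ ≃ₐ[ℚ] AlgebraicClosure ℚ, A.IsFrobeniusAt σ ℓ →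
              LinearMap.charpoly (ρ.ρ σ) =
                X ^ 2 - C (algebraMap O' O'' ((iota.comp chig.rangeRestrict) (CuspForm.heckeAlgebra.T hℓ hℓM hℓS))) * X
                  + C ((ℓ : O''))) ∧
        (∀ q : ℕ, q.Prime → q ≠ lam → M.factorization q = 2 → ¬ ρ.IsUnipotentOnInertiaAt q)

/-- sanity: `S36C_Frozen` is the frozen statement S36 (this is the body of `S36.lean`). -/
theorem S36C_frozen_apply (h : S36C_Frozen)
    {M : ℕ} [NeZero M] {g : CuspForm (CongruenceSubgroup.Gamma0 M) 2} (hg : g.IsNewform)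
    (lam : ℕ) [Fact lam.Prime]
    (S : Finset ℕ)
    (O' : Type) [CommRing O'] [IsDomain O'] [IsDiscreteValuationRing O']
    [IsAdicComplete (IsLocalRing.maximalIdeal O') O'] [Finite (IsLocalRing.ResidueField O')]
    [CharZero O'] (hlamO' : (lam : O') ∈ IsLocalRing.maximalIdeal O')
    (hlam2 : lam ≠ 2)
    (chig : CuspForm.heckeAlgebra M 2 (↑S : Set ℕ) →+* ℂ)
    (hchig : ∀ (ℓ : ℕ) (hℓ : ℓ.Prime) (hℓM : ¬ ℓ ∣ M) (hℓS : ℓ ∉ (↑S : Set ℕ)),
      chig (CuspForm.heckeAlgebra.T hℓ hℓM hℓS) = ModularFormClass.qCoeff g ℓ)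
    (iota : chig.range →+* O')
    (hlamS : lam ∈ S) (hMS : ∀ q : ℕ, q.Prime → q ∣ M → q ∈ S)
    (hres : ∀ (O'' : Type) [CommRing O''] [IsDomain O''] [IsDiscreteValuationRing O'']
      [IsAdicComplete (IsLocalRing.maximalIdeal O'') O''] [Finite (IsLocalRing.ResidueField O'')] [CharZero O'']
      [Algebra O' O''] [Module.Finite O' O''] [IsLocalHom (algebraMap O' O'')],
      Function.Injective (algebraMap O' O'') → ∀ (ρ : GaloisRepAdic O''),
      (∀ (ℓ : ℕ) (hℓ : ℓ.Prime) (hℓlam : ℓ ≠ lam) (hℓM : ¬ ℓ ∣ M) (hℓS : ℓ ∉ (↑S : Set ℕ)),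
        ∀ A : ValuationSubring (AlgebraicClosure ℚ), A.LiesOverPrime ℓ →
          ∀ σ : AlgebraicClosure ℚ ≃ₐ[ℚ] AlgebraicClosure ℚ, A.IsFrobeniusAt σ ℓ →
            LinearMap.charpoly (ρ.ρ σ) =
              X ^ 2 - C (algebraMap O' O'' ((iota.comp chig.rangeRestrict) (CuspForm.heckeAlgebra.T hℓ hℓM hℓS))) * X
                + C ((ℓ : O'')))
      → ρ.residual.IsAbsolutelyIrreducible ∧ ρ.residual.IsOdd)
    :
    ∃ (O'' : Type) (_ : CommRing O'') (_ : IsDomain O'') (_ : IsDiscreteValuationRing O'')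
      (_ : IsAdicComplete (IsLocalRing.maximalIdeal O'') O'') (_ : Finite (IsLocalRing.ResidueField O''))
      (_ : CharZero O'') (_ : Algebra O' O'') (_ : Module.Finite O' O'') (_ : IsLocalHom (algebraMap O' O'')),
      Function.Injective (algebraMap O' O'') ∧
      ∃ ρ : GaloisRepAdic O'',
        (∀ (ℓ : ℕ) (hℓ : ℓ.Prime) (hℓM : ¬ ℓ ∣ M) (hℓS : ℓ ∉ (↑S : Set ℕ)),
          ∀ A : ValuationSubring (AlgebraicClosure ℚ), A.LiesOverPrime ℓ →
            ∀ σ : AlgebraicClosure ℚ ≃ₐ[ℚ] AlgebraicClosure ℚ, A.IsFrobeniusAt σ ℓ →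
              LinearMap.charpoly (ρ.ρ σ) =
                X ^ 2 - C (algebraMap O' O'' ((iota.comp chig.rangeRestrict) (CuspForm.heckeAlgebra.T hℓ hℓM hℓS))) * X
                  + C ((ℓ : O''))) ∧
        (∀ q : ℕ, q.Prime → q ≠ lam → M.factorization q = 2 → ¬ ρ.IsUnipotentOnInertiaAt q) :=
  h hg lam S O' hlamO' hlam2 chig hchig iota hlamS hMS hres

/-- sanity: (GEO36) with a uniform exponent gives `S36C_GeoAt`. -/
theorem S36C_geoAt_of_forall (N' q lam : ℕ) [NeZero N'] [NeZero q] (c : ℕ)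
    (h : ∀ A : ValuationSubring Qb, A.LiesOverPrime q →
      ∀ (k : ℕ) (x : ModularCurve.JZero (N' * q * q)), (lam ^ k) • x = 0 →
        S35PU_alpha (N' * q) q x = 0 → S35PU_beta (N' * q) q x = 0 →
        (∀ τ ∈ A.inertiaSubgroupIn ℚ, τ • x = x) → (lam ^ c) • x = 0) :
    S36C_GeoAt N' q lam :=
  fun A hA => ⟨c, fun k x hx h1 h2 hfix => h A hA k x hx h1 h2 hfix⟩

/-- the factorisation of the level: `M.factorization q = 2` gives `M = N' * q * q`, `q ∤ N'`. -/
theorem S36C_level {M q : ℕ} (hM : M ≠ 0) (hq : q.Prime) (h2 : M.factorization q = 2) :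
    ∃ N' : ℕ, M = N' * q * q ∧ ¬ q ∣ N' := by
  have hdvd : q ^ 2 ∣ M := by
    rw [hq.pow_dvd_iff_le_factorization hM, h2]
  obtain ⟨N', hN'⟩ := hdvd
  refine ⟨N', by rw [hN']; ring, ?_⟩
  rintro ⟨r, rfl⟩
  have h3 : q ^ 3 ∣ M := ⟨r, by rw [hN']; ring⟩
  rw [hq.pow_dvd_iff_le_factorization hM, h2] at h3
  omega

end Fermat.Agent.S36_helper18_Contracts
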