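import Mathlib
import Fermat.Agent.S35_helper26_P6WS
import Fermat.Agent.S35_helper6_ESX
import Fermat.Agent.S35_helper12_END

/-!
# S36, TOP36, piece (T3) (helper26): (P6) at the level `N q` with NO coprimality

For a newform `g` of level `N * q` (`q` a prime, `N` ANY level, e.g. `N = M' q`), every vector
of `O' ⊗ T_lam J₀(N q)` which is an eigenvector of the Hecke operators `T_ℓ` (`ℓ ∤ N q`,
`ℓ ∉ S`) with the eigenvalues of `g` is NEW: it is killed by the base changes of the two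
push-forwards `J₀(N q) → J₀(N)`.

* `S36P6_new`    : the statement above;
* `S36P6_newAt`  : the same with the eigensystem `χ := iota ∘ chig` abstracted into a predicate
  `S36P6_New`, the form consumed by the endgame.
-/

set_option autoImplicit false
set_option linter.unusedSectionVars false
set_option linter.unusedVariables false
set_option linter.style.haveILetI false
set_option linter.overlappingInstances false
set_option maxHeartbeats 1600000
set_option synthInstance.maxHeartbeats 400000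

open scoped TensorProduct
open ModularCurve AlgebraicCurve CongruenceSubgroup
open Fermat.Agent.S30_helper1_TATE Fermat.Agent.S30_helper27_TATEC
  Fermat.Agent.S35_helper12_BR Fermat.Agent.S35_helper12_END
  Fermat.Agent.S35_helper6_PUSH Fermat.Agent.S35_helper26_NOEIG Fermat.Agent.S35_helper26_P6WS

noncomputable section

namespace Fermat.Agent.S36_helper26_P6Q

/-- **every `χ`-eigenvector of `O' ⊗ T_lam J₀(N q)` is new** (killed by the two push-forwards to
the level `N`), as a predicate on the eigensystem `χ`. -/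
def S36P6_New (N q : ℕ) [NeZero N] [NeZero q] [NeZero (N * q)] (lam : ℕ) [Fact lam.Prime]
    (S : Finset ℕ) (O' : Type) [CommRing O'] [IsDomain O'] [IsDiscreteValuationRing O']
    [IsAdicComplete (IsLocalRing.maximalIdeal O') O']
    (hlamO' : (lam : O') ∈ IsLocalRing.maximalIdeal O')
    (χ : CuspForm.heckeAlgebra (N * q) 2 (↑S : Set ℕ) →+* O') : Prop :=
  letI : Algebra ℤ_[lam] O' :=
    (Fermat.Agent.S30_helper25_ZP.S30ZP_zpLocal lam O' hlamO').toAlgebra
  ∀ v : O' ⊗[ℤ_[lam]] S30T_Tate (ModularCurve.JZero (N * q)) lam,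
    (∀ (ℓ : ℕ) (hℓ : ℓ.Prime) (hℓM : ¬ ℓ ∣ N * q) (hℓS : ℓ ∉ (↑S : Set ℕ)),
      (S30TC_T (N * q) lam ℓ).baseChange O' v = χ (CuspForm.heckeAlgebra.T hℓ hℓM hℓS) • v) →
    (S35BR_tateMap (p := lam) (S35PU_alpha N q)).baseChange O' v = 0 ∧
      (S35BR_tateMap (p := lam) (S35PU_beta N q)).baseChange O' v = 0

/-- **(P6) at the level `N q`, no coprimality**: every eigenvector with the eigenvalues of a
newform of level `N q` is killed by the two push-forwards to the level `N`. -/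
theorem S36P6_new (N q : ℕ) [NeZero N] [NeZero q] [NeZero (N * q)] (hq : q.Prime)
    {g : CuspForm (CongruenceSubgroup.Gamma0 (N * q)) 2} (hg : g.IsNewform)
    (lam : ℕ) [Fact lam.Prime] (S : Finset ℕ)
    (O' : Type) [CommRing O'] [IsDomain O'] [IsDiscreteValuationRing O']
    [IsAdicComplete (IsLocalRing.maximalIdeal O') O'] [CharZero O']
    (hlamO' : (lam : O') ∈ IsLocalRing.maximalIdeal O')
    (chig : CuspForm.heckeAlgebra (N * q) 2 (↑S : Set ℕ) →+* ℂ)
    (hchig : ∀ (ℓ : ℕ) (hℓ : ℓ.Prime) (hℓM : ¬ ℓ ∣ N * q) (hℓS : ℓ ∉ (↑S : Set ℕ)),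
      chig (CuspForm.heckeAlgebra.T hℓ hℓM hℓS) = ModularFormClass.qCoeff g ℓ)
    (iota : chig.range →+* O') (hlamS : lam ∈ S)
    (hMS : ∀ r : ℕ, r.Prime → r ∣ N * q → r ∈ S) :
    S36P6_New N q lam S O' hlamO' (iota.comp chig.rangeRestrict) := by
  letI : Algebra ℤ_[lam] O' :=
    (Fermat.Agent.S30_helper25_ZP.S30ZP_zpLocal lam O' hlamO').toAlgebra
  have hlam : lam.Prime := Fact.out
  have hfam : S35NE_Family N lam := S35P6WS_family N lam hlam.pos
  have hdvd : N ∣ N * q := Dvd.intro q rfl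
  have hneq : N ≠ N * q := by
    intro h
    have h1 : N * 1 = N * q := by rw [mul_one]; exact h
    have h2 : 1 = q := Nat.eq_of_mul_eq_mul_left (Nat.pos_of_ne_zero (NeZero.ne N)) h1
    exact hq.one_lt.ne h2
  have hℓlam : ∀ ℓ : ℕ, ℓ ∉ (↑S : Set ℕ) → ℓ ≠ lam := by
    intro ℓ hℓS h
    exact hℓS (Finset.mem_coe.2 (h ▸ hlamS))
  intro v hv
  refine ⟨?_, ?_⟩
  · exact S35WS_noEig hg N hdvd hneq lam S hMS O' chig hchig iota hfam _
      (fun ℓ hℓ hℓM hℓS => Fermat.Agent.S35_helper6_ESX.S35ESX_alpha lam O' N q ℓ hℓ hℓM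
        (hℓlam ℓ hℓS) _ v (hv ℓ hℓ hℓM hℓS))
  · exact S35WS_noEig hg N hdvd hneq lam S hMS O' chig hchig iota hfam _
      (fun ℓ hℓ hℓM hℓS => Fermat.Agent.S35_helper6_ESX.S35ESX_beta lam O' N q ℓ hℓ hℓM
        (hℓlam ℓ hℓS) _ v (hv ℓ hℓ hℓM hℓS))

/-- the unfolded form of `S36P6_new`. -/
theorem S36P6_new_apply (N q : ℕ) [NeZero N] [NeZero q] [NeZero (N * q)] (hq : q.Prime)
    {g : CuspForm (CongruenceSubgroup.Gamma0 (N * q)) 2} (hg : g.IsNewform)
    (lam : ℕ) [Fact lam.Prime] (S : Finset ℕ)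
    (O' : Type) [CommRing O'] [IsDomain O'] [IsDiscreteValuationRing O']
    [IsAdicComplete (IsLocalRing.maximalIdeal O') O'] [CharZero O']
    (hlamO' : (lam : O') ∈ IsLocalRing.maximalIdeal O')
    (chig : CuspForm.heckeAlgebra (N * q) 2 (↑S : Set ℕ) →+* ℂ)
    (hchig : ∀ (ℓ : ℕ) (hℓ : ℓ.Prime) (hℓM : ¬ ℓ ∣ N * q) (hℓS : ℓ ∉ (↑S : Set ℕ)),
      chig (CuspForm.heckeAlgebra.T hℓ hℓM hℓS) = ModularFormClass.qCoeff g ℓ)
    (iota : chig.range →+* O') (hlamS : lam ∈ S)
    (hMS : ∀ r : ℕ, r.Prime → r ∣ N * q → r ∈ S) :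
    letI : Algebra ℤ_[lam] O' :=
      (Fermat.Agent.S30_helper25_ZP.S30ZP_zpLocal lam O' hlamO').toAlgebra
    ∀ v : O' ⊗[ℤ_[lam]] S30T_Tate (ModularCurve.JZero (N * q)) lam,
      (∀ (ℓ : ℕ) (hℓ : ℓ.Prime) (hℓM : ¬ ℓ ∣ N * q) (hℓS : ℓ ∉ (↑S : Set ℕ)),
        (S30TC_T (N * q) lam ℓ).baseChange O' v =
          (iota.comp chig.rangeRestrict) (CuspForm.heckeAlgebra.T hℓ hℓM hℓS) • v) →
      (S35BR_tateMap (p := lam) (S35PU_alpha N q)).baseChange O' v = 0 ∧
        (S35BR_tateMap (p := lam) (S35PU_beta N q)).baseChange O' v = 0 :=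
  S36P6_new N q hq hg lam S O' hlamO' chig hchig iota hlamS hMS

end Fermat.Agent.S36_helper26_P6Q
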