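import Mathlib
import Fermat.Agent.S35_helper12_BR
import Fermat.Agent.S36_helper18_Contracts
import Fermat.Agent.S36_helper26_P6Q

/-!
# S36, TOP36, piece (B) (helper26): from the torsion points to `O' ⊗ T_lam J₀(M)`

The input (GEO36) of helper18's contract (`S36C_Geo M lam A ν₁ ν₂ c`) is a statement on the
torsion points of `J₀(M)`: a `lam`-power torsion point which is NEW (`ν₁ x = 0`, `ν₂ x = 0`) and
FIXED by the inertia group `I_A` is killed by `lam ^ c`.  This file carries it

* to the Tate module `Λ = T_lam J₀(M)` (`S36BR_tate`): a new vector of `Λ` fixed by `I_A` is `0`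
  (the Tate module has no `lam`-torsion);
* to the coefficient ring (`S36BR_noFixed`): a vector of `O' ⊗ Λ` killed by the base changes of
  the two maps induced by `ν₁`, `ν₂` and fixed by the base changes of all `ρ τ`, `τ ∈ I_A`,
  is `0`;
* to the eigenvectors of a newform of level `N' * q * q` (`S36BR_eigen`, with the landed
  `S36P6_new`): an eigenvector of `O' ⊗ T_lam J₀(N' q q)` fixed by `I_A` is `0`.

The step to the coefficient ring is flat base change for an INFINITE family of conditions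
(`S36BR_family`, Mathlib only): `End_R(Λ)` is a noetherian module, so the span of the family is
spanned by a finite subfamily, and flatness applies to ONE linear map.
-/

set_option autoImplicit false
set_option linter.unusedSectionVars false
set_option linter.unusedVariables false
set_option linter.style.haveILetI false
set_option linter.overlappingInstances false
set_option maxHeartbeats 1600000
set_option synthInstance.maxHeartbeats 400000

open scoped TensorProduct
open ModularCurve AlgebraicCurve CongruenceSubgroup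
open Fermat.Agent.S30_helper1_TATE Fermat.Agent.S30_helper27_TATEC
  Fermat.Agent.S35_helper12_BR Fermat.Agent.S35_helper6_PUSH
  Fermat.Agent.S36_helper18_Contracts Fermat.Agent.S36_helper26_P6Q

noncomputable section

namespace Fermat.Agent.S36_helper26_BR36

local notation "Qb" => AlgebraicClosure ℚ
local notation "GQ" => (AlgebraicClosure ℚ ≃ₐ[ℚ] AlgebraicClosure ℚ)

/-! ### Flat base change for a family of endomorphisms -/

section Family

variable {R : Type*} [CommRing R] (𝒪 : Type*) [CommRing 𝒪] [Algebra R 𝒪] [Module.Flat R 𝒪]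
  {Λ Λ' : Type*} [AddCommGroup Λ] [Module R Λ] [AddCommGroup Λ'] [Module R Λ']

/-- base change commutes with finite sums of linear maps -/
theorem S36BR_baseChange_sum {ι : Type*} (t : Finset ι) (f : ι → (Λ →ₗ[R] Λ')) :
    (∑ i ∈ t, f i).baseChange 𝒪 = ∑ i ∈ t, (f i).baseChange 𝒪 := by
  classical
  induction t using Finset.induction_on with
  | empty => simp
  | insert i t hi ih =>
    rw [Finset.sum_insert hi, Finset.sum_insert hi, LinearMap.baseChange_add, ih]

/-- **flat base change, finitely many endomorphisms**: if `0` is the only vector of `Λ` killed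
by `φ` and by the finitely many endomorphisms `a ∈ s`, the same holds after a flat base
change. -/
theorem S36BR_finset (φ : Λ →ₗ[R] Λ') (s : Finset (Module.End R Λ))
    (h : ∀ x : Λ, φ x = 0 → (∀ a ∈ s, a x = 0) → x = 0)
    (v : 𝒪 ⊗[R] Λ) (hv : φ.baseChange 𝒪 v = 0)
    (hs : ∀ a ∈ s, a.baseChange 𝒪 v = 0) : v = 0 := by
  classical
  -- the one map `x ↦ (a x)_{a ∈ s}`
  let Ψ : Λ →ₗ[R] (s → Λ) :=
    ∑ a : s, (LinearMap.single R (fun _ : s => Λ) a).comp (a.1 : Λ →ₗ[R] Λ)
  have hΨ : ∀ x : Λ, Ψ x = 0 → ∀ a ∈ s, a x = 0 := by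
    intro x hx a ha
    have h1 : Ψ x ⟨a, ha⟩ = a x := by
      show (∑ b : s, (LinearMap.single R (fun _ : s => Λ) b).comp (b.1 : Λ →ₗ[R] Λ)) x ⟨a, ha⟩
        = a x
      rw [LinearMap.sum_apply, Finset.sum_apply]
      rw [Finset.sum_eq_single (⟨a, ha⟩ : s)]
      · simp
      · intro b _ hb
        simp [hb.symm]
      · intro hb
        exact absurd (Finset.mem_univ _) hb
    rw [← h1, hx]
    rfl
  have hΨv : Ψ.baseChange 𝒪 v = 0 := by
    show (∑ a : s, (LinearMap.single R (fun _ : s => Λ) a).comp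
      (a.1 : Λ →ₗ[R] Λ)).baseChange 𝒪 v = 0
    rw [S36BR_baseChange_sum, LinearMap.sum_apply]
    refine Finset.sum_eq_zero fun a _ => ?_
    rw [LinearMap.baseChange_comp, LinearMap.comp_apply]
    have := hs a.1 a.2
    rw [this, map_zero]
  have h3 := S35BR_kills_baseChange2 𝒪 φ Ψ LinearMap.id
    (fun x h1 h2 => h x h1 (hΨ x h2)) v hv hΨv
  rw [LinearMap.baseChange_id] at h3
  exact h3

variable [IsNoetherianRing R] [Module.Finite R Λ] [Module.Free R Λ]

/-- **flat base change for an INFINITE family of endomorphisms** of a finite free module over a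
noetherian ring: if `0` is the only vector of `Λ` killed by `φ` and by all `a ∈ F`, then `0` is
the only vector of `𝒪 ⊗ Λ` killed by the base changes of `φ` and of all `a ∈ F`. -/
theorem S36BR_family (φ : Λ →ₗ[R] Λ') (F : Set (Module.End R Λ))
    (h : ∀ x : Λ, φ x = 0 → (∀ a ∈ F, a x = 0) → x = 0)
    (v : 𝒪 ⊗[R] Λ) (hv : φ.baseChange 𝒪 v = 0)
    (hF : ∀ a ∈ F, a.baseChange 𝒪 v = 0) : v = 0 := by
  classical
  haveI : Module.Finite R (Module.End R Λ) := Module.Finite.linearMap R R Λ Λ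
  haveI : IsNoetherian R (Module.End R Λ) := isNoetherian_of_isNoetherianRing_of_finite R _
  have hfg : (Submodule.span R F).FG := IsNoetherian.noetherian _
  obtain ⟨s, hsF, hspan⟩ := (Submodule.fg_span_iff_fg_span_finset_subset F).1 hfg
  refine S36BR_finset 𝒪 φ s (fun x h1 h2 => h x h1 (fun a ha => ?_)) v hv
    (fun a ha => hF a (hsF ha))
  have ha' : a ∈ Submodule.span R (↑s : Set (Module.End R Λ)) :=
    hspan ▸ Submodule.subset_span ha
  have hle : Submodule.span R (↑s : Set (Module.End R Λ)) ≤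
      LinearMap.ker (LinearMap.applyₗ x : (Λ →ₗ[R] Λ) →ₗ[R] Λ) := by
    rw [Submodule.span_le]
    intro b hb
    exact LinearMap.mem_ker.2 (h2 b hb)
  exact LinearMap.mem_ker.1 (hle ha')

end Family

/-! ### The Tate module -/

/-- **(GEO36) on the Tate module**: a vector of `T_lam J₀(M)` which is new (killed by the maps
induced by `ν₁`, `ν₂`) and fixed by the inertia group of `A` is `0`. -/
theorem S36BR_tate (M lam : ℕ) [NeZero M] [Fact lam.Prime] (A : ValuationSubring Qb)
    {J₁ J₂ : Type} [AddCommGroup J₁] [AddCommGroup J₂]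
    (ν₁ : ModularCurve.JZero M →+ J₁) (ν₂ : ModularCurve.JZero M →+ J₂) (c : ℕ)
    (hGeo : S36C_Geo M lam A ν₁ ν₂ c) (x : S30T_Tate (ModularCurve.JZero M) lam)
    (h₁ : S35BR_tateMap (p := lam) ν₁ x = 0) (h₂ : S35BR_tateMap (p := lam) ν₂ x = 0)
    (hfix : ∀ τ ∈ A.inertiaSubgroupIn ℚ, S30TC_rho M lam τ x = x) : x = 0 := by
  refine S35BR_eq_zero_of_pow_smul c x (fun n => ?_)
  refine hGeo n ((x : ℕ → ModularCurve.JZero M) n) (S30T_pow_smul_self x n)
    ((S35BR_tateMap_eq_zero_iff ν₁ x).1 h₁ n) ((S35BR_tateMap_eq_zero_iff ν₂ x).1 h₂ n)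
    (fun τ hτ => ?_)
  have h := congrArg
    (fun y : S30T_Tate (ModularCurve.JZero M) lam => (y : ℕ → ModularCurve.JZero M) n)
    (hfix τ hτ)
  exact h

/-! ### The coefficient ring -/

/-- **(B)**: (GEO36) on `O' ⊗ T_lam J₀(M)`: a vector killed by the base changes of the maps
induced by `ν₁`, `ν₂` and fixed by the base changes of all `ρ τ`, `τ` in the inertia group of
`A`, is `0`. -/
theorem S36BR_noFixed (M lam : ℕ) [NeZero M] [Fact lam.Prime] (O' : Type) [CommRing O']
    [IsDomain O'] [CharZero O'] [Algebra ℤ_[lam] O'] (A : ValuationSubring Qb)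
    {J₁ J₂ : Type} [AddCommGroup J₁] [AddCommGroup J₂]
    (ν₁ : ModularCurve.JZero M →+ J₁) (ν₂ : ModularCurve.JZero M →+ J₂) (c : ℕ)
    (hGeo : S36C_Geo M lam A ν₁ ν₂ c)
    (v : O' ⊗[ℤ_[lam]] S30T_Tate (ModularCurve.JZero M) lam)
    (h₁ : (S35BR_tateMap (p := lam) ν₁).baseChange O' v = 0)
    (h₂ : (S35BR_tateMap (p := lam) ν₂).baseChange O' v = 0)
    (hfix : ∀ τ ∈ A.inertiaSubgroupIn ℚ, (S30TC_rho M lam τ).baseChange O' v = v) :
    v = 0 := by
  have hlam : lam.Prime := Fact.out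
  obtain ⟨Θ, hΘ, hcompat⟩ := Fermat.Agent.G_helper6_E2PLUG.PG_E2PLUG_adic M lam hlam.pos
  have hfin : (AlgebraicCurve.Pic0.torsion (AlgebraicClosure ℚ)
      (ModularCurve.modularFunctionFieldBar M) lam : Set (ModularCurve.JZero M)).Finite := by
    have h := (hΘ 1).fin
    rwa [pow_one] at h
  haveI := S30TC_finite M lam hfin
  haveI := S30TC_free M lam hfin
  haveI : Module.Flat ℤ_[lam] O' := S35BR_flat lam O'
  -- the one map `x ↦ (tate ν₁ x, tate ν₂ x)`
  let φ : S30T_Tate (ModularCurve.JZero M) lam →ₗ[ℤ_[lam]]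
      (S30T_Tate J₁ lam × S30T_Tate J₂ lam) :=
    (LinearMap.inl ℤ_[lam] (S30T_Tate J₁ lam) (S30T_Tate J₂ lam)).comp
        (S35BR_tateMap (p := lam) ν₁) +
      (LinearMap.inr ℤ_[lam] (S30T_Tate J₁ lam) (S30T_Tate J₂ lam)).comp
        (S35BR_tateMap (p := lam) ν₂)
  refine S36BR_family O' φ
    {a | ∃ τ ∈ A.inertiaSubgroupIn ℚ, a = S30TC_rho M lam τ - 1} ?_ v ?_ ?_
  · intro x hx hF
    have h1 : (S35BR_tateMap (p := lam) ν₁ x, S35BR_tateMap (p := lam) ν₂ x) =
        (0 : S30T_Tate J₁ lam × S30T_Tate J₂ lam) := by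
      have := hx
      simp only [φ, LinearMap.add_apply, LinearMap.comp_apply, LinearMap.inl_apply,
        LinearMap.inr_apply, Prod.mk_add_mk, add_zero, zero_add] at this
      exact this
    refine S36BR_tate M lam A ν₁ ν₂ c hGeo x (congrArg Prod.fst h1) (congrArg Prod.snd h1)
      (fun τ hτ => ?_)
    have h2 := hF _ ⟨τ, hτ, rfl⟩
    rw [LinearMap.sub_apply, Module.End.one_apply] at h2
    exact sub_eq_zero.1 h2
  · show ((LinearMap.inl ℤ_[lam] (S30T_Tate J₁ lam) (S30T_Tate J₂ lam)).comp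
        (S35BR_tateMap (p := lam) ν₁) +
      (LinearMap.inr ℤ_[lam] (S30T_Tate J₁ lam) (S30T_Tate J₂ lam)).comp
        (S35BR_tateMap (p := lam) ν₂)).baseChange O' v = 0
    rw [LinearMap.baseChange_add, LinearMap.baseChange_comp, LinearMap.baseChange_comp,
      LinearMap.add_apply, LinearMap.comp_apply, LinearMap.comp_apply, h₁, h₂, map_zero,
      map_zero, add_zero]
  · rintro a ⟨τ, hτ, rfl⟩
    rw [LinearMap.baseChange_sub, LinearMap.sub_apply, hfix τ hτ, LinearMap.baseChange_one,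
      Module.End.one_apply, sub_self]

/-- **(B) at the level `N' * q * q`**, in the shape of helper18's contract `S36C_GeoAt`: for
every valuation subring `A` over `q`, a vector of `O' ⊗ T_lam J₀(N' q q)` killed by the two
push-forwards to `J₀(N' q)` and fixed by the inertia group of `A` is `0`. -/
theorem S36BR_geoAt (N' q lam : ℕ) [NeZero N'] [NeZero q] [NeZero (N' * q * q)] [Fact lam.Prime]
    (O' : Type) [CommRing O'] [IsDomain O'] [CharZero O'] [Algebra ℤ_[lam] O']
    (hGeo : S36C_GeoAt N' q lam) (A : ValuationSubring Qb) (hA : A.LiesOverPrime q)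
    (v : O' ⊗[ℤ_[lam]] S30T_Tate (ModularCurve.JZero (N' * q * q)) lam)
    (h₁ : (S35BR_tateMap (p := lam) (S35PU_alpha (N' * q) q)).baseChange O' v = 0)
    (h₂ : (S35BR_tateMap (p := lam) (S35PU_beta (N' * q) q)).baseChange O' v = 0)
    (hfix : ∀ τ ∈ A.inertiaSubgroupIn ℚ,
      (S30TC_rho (N' * q * q) lam τ).baseChange O' v = v) :
    v = 0 := by
  obtain ⟨c, hc⟩ := hGeo A hA
  exact S36BR_noFixed (N' * q * q) lam O' A _ _ c hc v h₁ h₂ hfix

/-! ### The eigenvectors of a newform of level `N' * q * q` -/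

/-- **(T3) + (B)**: for a newform `g` of level `N' * q * q`, an eigenvector of
`O' ⊗ T_lam J₀(N' q q)` with the eigenvalues of `g` which is fixed by the inertia group of a
valuation subring `A` over `q` is `0`, under (GEO36) at `(N', q, lam)`. -/
theorem S36BR_eigen (N' q lam : ℕ) [NeZero N'] [NeZero q] [NeZero (N' * q)]
    [NeZero (N' * q * q)] [Fact lam.Prime] (hq : q.Prime)
    {g : CuspForm (CongruenceSubgroup.Gamma0 (N' * q * q)) 2} (hg : g.IsNewform)
    (S : Finset ℕ)
    (O' : Type) [CommRing O'] [IsDomain O'] [IsDiscreteValuationRing O']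
    [IsAdicComplete (IsLocalRing.maximalIdeal O') O'] [CharZero O']
    (hlamO' : (lam : O') ∈ IsLocalRing.maximalIdeal O')
    (chig : CuspForm.heckeAlgebra (N' * q * q) 2 (↑S : Set ℕ) →+* ℂ)
    (hchig : ∀ (ℓ : ℕ) (hℓ : ℓ.Prime) (hℓM : ¬ ℓ ∣ N' * q * q) (hℓS : ℓ ∉ (↑S : Set ℕ)),
      chig (CuspForm.heckeAlgebra.T hℓ hℓM hℓS) = ModularFormClass.qCoeff g ℓ)
    (iota : chig.range →+* O') (hlamS : lam ∈ S)
    (hMS : ∀ r : ℕ, r.Prime → r ∣ N' * q * q → r ∈ S)
    (hGeo : S36C_GeoAt N' q lam) (A : ValuationSubring Qb) (hA : A.LiesOverPrime q) :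
    letI : Algebra ℤ_[lam] O' :=
      (Fermat.Agent.S30_helper25_ZP.S30ZP_zpLocal lam O' hlamO').toAlgebra
    ∀ v : O' ⊗[ℤ_[lam]] S30T_Tate (ModularCurve.JZero (N' * q * q)) lam,
      (∀ (ℓ : ℕ) (hℓ : ℓ.Prime) (hℓM : ¬ ℓ ∣ N' * q * q) (hℓS : ℓ ∉ (↑S : Set ℕ)),
        (S30TC_T (N' * q * q) lam ℓ).baseChange O' v =
          (iota.comp chig.rangeRestrict) (CuspForm.heckeAlgebra.T hℓ hℓM hℓS) • v) →
      (∀ τ ∈ A.inertiaSubgroupIn ℚ, (S30TC_rho (N' * q * q) lam τ).baseChange O' v = v) →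
      v = 0 := by
  letI : Algebra ℤ_[lam] O' :=
    (Fermat.Agent.S30_helper25_ZP.S30ZP_zpLocal lam O' hlamO').toAlgebra
  intro v hv hfix
  obtain ⟨h₁, h₂⟩ := S36P6_new_apply (N' * q) q hq hg lam S O' hlamO' chig hchig iota hlamS hMS
    v hv
  exact S36BR_geoAt N' q lam O' hGeo A hA v h₁ h₂ hfix

end Fermat.Agent.S36_helper26_BR36
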