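import Fermat.Agent.S36_helper14_END
import Fermat.Agent.S36_helper12_TOPF
import Fermat.Agent.S36_helper26_BR36

/-!
# S36, TOP36 (helper26): the theorem owed by TOP36, `S36C_GeoInput → S36C_Frozen`

The three landed pieces of TOP36 are plugged into helper14's endgame `S36END_frozen`:

* `S36TOP_endB` : (B) = `S36BR_noFixed` (helper26) in the shape `S36END_B`;
* `S36TOP_endC` : (C) = `S36TOPF_of_fix` (helper12: Kolchin + the abstract top) in the shape
  `S36END_C`;
* `S36TOP_main` : **the frozen statement S36 from (GEO36)**.
-/

set_option autoImplicit false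
set_option linter.unusedSectionVars false
set_option linter.unusedVariables false
set_option linter.style.haveILetI false
set_option linter.overlappingInstances false
set_option maxHeartbeats 1600000
set_option synthInstance.maxHeartbeats 400000

open Fermat.Agent.S36_helper14_END Fermat.Agent.S36_helper12_TOPF
  Fermat.Agent.S36_helper26_BR36 Fermat.Agent.S36_helper18_Contracts

namespace Fermat.Agent.S36_helper26_TOPMAIN

/-- (B) in the shape of helper14's endgame. -/
theorem S36TOP_endB : S36END_B :=
  fun N' q lam _ _ _ _ _ O' _ _ _ _ A c hc v h1 h2 hfix =>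
    S36BR_noFixed (N' * q * q) lam O' A _ _ c hc v h1 h2 hfix

/-- (C) in the shape of helper14's endgame. -/
theorem S36TOP_endC : S36END_C := by
  intro M _ g hg lam _ S O' _ _ _ _ _ _ hlamO' chig hchig iota hlamS hMS hfix
  exact S36TOPF_of_fix lam S O' hlamO' (iota.comp chig.rangeRestrict) hlamS hMS hfix

/-- **TOP36**: the frozen statement S36 from the input (GEO36). -/
theorem S36TOP_main (hGeo : S36C_GeoInput) : S36C_Frozen :=
  S36END_frozen hGeo S36TOP_endB S36TOP_endC

end Fermat.Agent.S36_helper26_TOPMAIN
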