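import Mathlib

/-!
# S36, the regular triple point (Mathlib only)

Pure commutative algebra for the local ring `R` of the model of `X₀(q² M')` at a supersingular
point.  Notation of the paper proof: `x = j`, `y = j_q`, `z = j_qq` (centred or not),
`S1 = x - y ^ q`, `T1 = x ^ q - y`, `T2 = z - y ^ q`, `S2 = y - z ^ q`, `W = z - x = T2 - S1`.

* `S36TP_delta`, `S36TP_delta_mul`, `S36TP_delta_congr` : the divided difference
  `δ = (z ^ q - x ^ q) / (z - x)` and `δ = (z - x) ^ (q - 1) + q H`.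
* `S36TP_regular` : if `𝔪 = (ϖ, S1, T1, T2)`, `T1 S1 = ϖ · unit` (thickness one) and
  `T1 + T2 δ + ϖ G' = 0` with `δ ∈ 𝔪` (no backtracking), then `𝔪 = (S1, T2)`.
* `S36TP_factor` : `ϖ · unit = S1 T2 W ^ (q - 1)`; `S36TP_branch_T1`, `S36TP_branch_S2` :
  `T1 = unit · T2 W ^ (q - 1)`, `S2 = unit · S1 W ^ (q - 1)`.
* `S36TP_main` : the three statements together, with `δ ∈ 𝔪` discharged.
* `S36TP_prime_principal_of_image` (Nakayama), `S36TP_branch_prime` : a prime `P` with `s ∈ P`,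
  `t ∉ P` in a local ring with `𝔪 = (s, t)` is `(s)`; `S36TP_branch_prime_elt`,
  `S36TP_branch_pir` : `s` is a prime element and `R ⧸ (s)` is a principal ideal ring (the
  interface of the factoriality brick).
-/

set_option autoImplicit false

namespace Fermat.Agent.S36_helper17_TRIPLE

open IsLocalRing Ideal Finset

/-! ### The divided difference of the `q`-th power -/

section Delta

variable {R : Type*} [CommRing R]

/-- `δ_q(x, z) = ∑ z ^ i x ^ (q - 1 - i) = (z ^ q - x ^ q) / (z - x)`. -/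
def S36TP_delta (q : ℕ) (x z : R) : R :=
  ∑ i ∈ range q, z ^ i * x ^ (q - 1 - i)

theorem S36TP_delta_mul (q : ℕ) (x z : R) :
    S36TP_delta q x z * (z - x) = z ^ q - x ^ q := by
  unfold S36TP_delta
  exact (Commute.all z x).geom_sum₂_mul q

theorem S36TP_delta_map {S : Type*} [CommRing S] (f : R →+* S) (q : ℕ) (x z : R) :
    f (S36TP_delta q x z) = S36TP_delta q (f x) (f z) := by
  unfold S36TP_delta
  simp [map_sum]

/-- The universal congruence `δ_q ≡ (z - x) ^ (q - 1) mod q` in `ℤ[X₀, X₁]`. -/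
theorem S36TP_delta_univ (q : ℕ) [hq : Fact q.Prime] :
    MvPolynomial.C (q : ℤ) ∣
      (S36TP_delta q (MvPolynomial.X 0 : MvPolynomial (Fin 2) ℤ) (MvPolynomial.X 1)
        - (MvPolynomial.X 1 - MvPolynomial.X 0) ^ (q - 1)) := by
  rw [MvPolynomial.C_dvd_iff_zmod]
  set f := MvPolynomial.map (σ := Fin 2) (Int.castRingHom (ZMod q)) with hf
  have hX0 : f (MvPolynomial.X 0) = MvPolynomial.X 0 := MvPolynomial.map_X _ _
  have hX1 : f (MvPolynomial.X 1) = MvPolynomial.X 1 := MvPolynomial.map_X _ _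
  rw [map_sub, map_pow, map_sub, S36TP_delta_map, hX0, hX1]
  have hne : (MvPolynomial.X 1 - MvPolynomial.X 0 : MvPolynomial (Fin 2) (ZMod q)) ≠ 0 := by
    intro h
    have h01 : (MvPolynomial.X 1 : MvPolynomial (Fin 2) (ZMod q)) = MvPolynomial.X 0 :=
      sub_eq_zero.mp h
    have := MvPolynomial.X_injective h01
    exact absurd this (by decide)
  have hmul : (S36TP_delta q (MvPolynomial.X 0 : MvPolynomial (Fin 2) (ZMod q))
        (MvPolynomial.X 1) - (MvPolynomial.X 1 - MvPolynomial.X 0) ^ (q - 1)) *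
      (MvPolynomial.X 1 - MvPolynomial.X 0) = 0 := by
    rw [sub_mul, S36TP_delta_mul, ← pow_succ, Nat.sub_add_cancel hq.out.one_le,
      sub_pow_char]
    ring
  rcases mul_eq_zero.mp hmul with h | h
  · exact h
  · exact absurd h hne

/-- `δ_q(x, z) = (z - x) ^ (q - 1) + q H` in every commutative ring. -/
theorem S36TP_delta_congr (q : ℕ) [Fact q.Prime] (x z : R) :
    ∃ H : R, S36TP_delta q x z = (z - x) ^ (q - 1) + (q : R) * H := by
  obtain ⟨P, hP⟩ := S36TP_delta_univ q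
  let e : MvPolynomial (Fin 2) ℤ →+* R :=
    (MvPolynomial.eval₂Hom (Int.castRingHom R) ![x, z])
  have e0 : e (MvPolynomial.X 0) = x := by simp [e]
  have e1 : e (MvPolynomial.X 1) = z := by simp [e]
  have eC : e (MvPolynomial.C (q : ℤ)) = (q : R) := by simp [e]
  refine ⟨e P, ?_⟩
  have h := congrArg e hP
  rw [map_sub, map_pow, map_sub, S36TP_delta_map, e0, e1, map_mul, eC] at h
  rw [← h]
  ring

end Delta

/-! ### Regular parameters and the factorisation of the uniformiser -/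

section Regular

variable {R : Type*} [CommRing R] [IsLocalRing R]

/-- **Regularity at the triple point**: `𝔪 = (S1, T2)`. -/
theorem S36TP_regular {ϖ S1 T1 T2 u δ G' : R}
    (hgen : maximalIdeal R = Ideal.span ({ϖ, S1, T1, T2} : Set R))
    (hnode : T1 * S1 = ϖ * u) (hu : IsUnit u)
    (hδ : δ ∈ maximalIdeal R) (hΨ : T1 + T2 * δ + ϖ * G' = 0) :
    maximalIdeal R = Ideal.span ({S1, T2} : Set R) := by
  have hmem : ∀ a ∈ ({ϖ, S1, T1, T2} : Set R), a ∈ maximalIdeal R := fun a ha => by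
    rw [hgen]; exact Ideal.subset_span ha
  have hS1 : S1 ∈ maximalIdeal R := hmem _ (by simp)
  have hT1 : T1 ∈ maximalIdeal R := hmem _ (by simp)
  have hT2 : T2 ∈ maximalIdeal R := hmem _ (by simp)
  obtain ⟨u', hu'⟩ := hu
  -- `ϖ ∈ 𝔪 • 𝔪`
  have hϖ : ϖ ∈ maximalIdeal R • maximalIdeal R := by
    have : ϖ = (T1 * ((u'⁻¹ : Rˣ) : R)) * S1 := by
      calc ϖ = ϖ * (u * ((u'⁻¹ : Rˣ) : R)) := by rw [← hu', Units.mul_inv, mul_one]
        _ = (ϖ * u) * ((u'⁻¹ : Rˣ) : R) := by ring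
        _ = (T1 * ((u'⁻¹ : Rˣ) : R)) * S1 := by rw [← hnode]; ring
    rw [this]
    exact Submodule.smul_mem_smul (Ideal.mul_mem_right _ _ hT1) hS1
  -- `T1 ∈ 𝔪 • 𝔪`
  have hT1' : T1 ∈ maximalIdeal R • maximalIdeal R := by
    have : T1 = -(T2 * δ) - G' * ϖ := by linear_combination hΨ
    rw [this]
    refine Submodule.sub_mem _ (Submodule.neg_mem _ ?_) ?_
    · exact Submodule.smul_mem_smul hT2 hδ
    · exact Submodule.smul_mem _ _ hϖ
  have hfg : (maximalIdeal R).FG := by
    rw [hgen]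
    exact Submodule.fg_span (Set.toFinite _)
  apply le_antisymm
  · refine Submodule.le_of_le_smul_of_le_jacobson_bot hfg
      (IsLocalRing.maximalIdeal_le_jacobson ⊥) ?_
    nth_rewrite 1 [hgen]
    rw [Ideal.span_le]
    intro a ha
    simp only [Set.mem_insert_iff, Set.mem_singleton_iff] at ha
    rcases ha with rfl | rfl | rfl | rfl
    · exact Submodule.mem_sup_right hϖ
    · exact Submodule.mem_sup_left (Ideal.subset_span (by simp))
    · exact Submodule.mem_sup_right hT1'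
    · exact Submodule.mem_sup_left (Ideal.subset_span (by simp))
  · rw [Ideal.span_le]
    intro a ha
    simp only [Set.mem_insert_iff, Set.mem_singleton_iff] at ha
    rcases ha with rfl | rfl
    · exact hS1
    · exact hT2

/-- **The uniformiser at the triple point**: `ϖ · v = S1 T2 W ^ (q - 1)` with `v` a unit,
`W = z - x`. -/
theorem S36TP_factor (q : ℕ) [Fact q.Prime] {ϖ w x z S1 T1 T2 u G' : R}
    (hq : (q : R) = ϖ * w) (hS1 : S1 ∈ maximalIdeal R)
    (hnode : T1 * S1 = ϖ * u) (hu : IsUnit u)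
    (hΨ : T1 + T2 * S36TP_delta q x z + (q : R) * G' = 0) :
    ∃ v : R, IsUnit v ∧ ϖ * v = S1 * T2 * (z - x) ^ (q - 1) := by
  obtain ⟨H, hH⟩ := S36TP_delta_congr q x z
  refine ⟨-(u + S1 * (w * G' + w * H * T2)), ?_, ?_⟩
  · have h1 : IsUnit (u + S1 * (w * G' + w * H * T2)) := by
      by_contra hcon
      have hm : u + S1 * (w * G' + w * H * T2) ∈ maximalIdeal R :=
        (IsLocalRing.mem_maximalIdeal _).mpr hcon
      have hu' : u ∈ maximalIdeal R := by
        have : u = (u + S1 * (w * G' + w * H * T2)) - S1 * (w * G' + w * H * T2) := by ring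
        rw [this]
        exact Ideal.sub_mem _ hm (Ideal.mul_mem_right _ _ hS1)
      exact (IsLocalRing.mem_maximalIdeal _).mp hu' hu
    exact h1.neg
  · rw [hH, hq] at hΨ
    have hT1 : T1 = -(T2 * ((z - x) ^ (q - 1) + ϖ * w * H)) - ϖ * w * G' := by
      linear_combination hΨ
    have h2 : (-(T2 * ((z - x) ^ (q - 1) + ϖ * w * H)) - ϖ * w * G') * S1 = ϖ * u := by
      rw [← hT1]; exact hnode
    linear_combination h2

/-- The branch relation `T1 = v' T2 W ^ (q - 1)` with `v'` a unit. -/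
theorem S36TP_branch_T1 (q : ℕ) [Fact q.Prime] {ϖ w x z S1 T1 T2 u G' : R}
    (hq : (q : R) = ϖ * w) (hS1 : S1 ∈ maximalIdeal R)
    (hnode : T1 * S1 = ϖ * u) (hu : IsUnit u)
    (hΨ : T1 + T2 * S36TP_delta q x z + (q : R) * G' = 0) :
    ∃ v : R, IsUnit v ∧ T1 = v * (T2 * (z - x) ^ (q - 1)) := by
  obtain ⟨H, hH⟩ := S36TP_delta_congr q x z
  obtain ⟨v, hv, hϖv⟩ := S36TP_factor q hq hS1 hnode hu hΨ
  obtain ⟨v', hv'⟩ := hv
  have hϖ : ϖ = ((v'⁻¹ : Rˣ) : R) * (S1 * T2 * (z - x) ^ (q - 1)) := by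
    rw [← hϖv, ← hv']
    calc ϖ = ϖ * ((v' : R) * ((v'⁻¹ : Rˣ) : R)) := by rw [Units.mul_inv, mul_one]
      _ = ((v'⁻¹ : Rˣ) : R) * (ϖ * (v' : R)) := by ring
  refine ⟨-(1 + S1 * (((v'⁻¹ : Rˣ) : R) * w * (T2 * H + G'))), ?_, ?_⟩
  · have h1 : IsUnit (1 + S1 * (((v'⁻¹ : Rˣ) : R) * w * (T2 * H + G'))) := by
      by_contra hcon
      have hm : 1 + S1 * (((v'⁻¹ : Rˣ) : R) * w * (T2 * H + G')) ∈ maximalIdeal R :=
        (IsLocalRing.mem_maximalIdeal _).mpr hcon
      have h1m : (1 : R) ∈ maximalIdeal R := by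
        have : (1 : R) = (1 + S1 * (((v'⁻¹ : Rˣ) : R) * w * (T2 * H + G')))
            - S1 * (((v'⁻¹ : Rˣ) : R) * w * (T2 * H + G')) := by ring
        rw [this]
        exact Ideal.sub_mem _ hm (Ideal.mul_mem_right _ _ hS1)
      exact (IsLocalRing.mem_maximalIdeal _).mp h1m isUnit_one
    exact h1.neg
  · rw [hH, hq] at hΨ
    have hT1 : T1 = -(T2 * (z - x) ^ (q - 1)) - ϖ * (w * (T2 * H + G')) := by
      linear_combination hΨ
    rw [hT1]
    nth_rewrite 1 [hϖ]
    ring

/-- The branch relation `S2 = v'' S1 W ^ (q - 1)` with `v''` a unit, from the relation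
`T1 + S2 = x ^ q - z ^ q`. -/
theorem S36TP_branch_S2 (q : ℕ) [Fact q.Prime] {ϖ w x z S1 T1 T2 S2 u G' : R}
    (hq : (q : R) = ϖ * w) (hS1 : S1 ∈ maximalIdeal R) (hT2 : T2 ∈ maximalIdeal R)
    (hW : z - x = T2 - S1) (hTS : T1 + S2 = x ^ q - z ^ q)
    (hnode : T1 * S1 = ϖ * u) (hu : IsUnit u)
    (hΨ : T1 + T2 * S36TP_delta q x z + (q : R) * G' = 0) :
    ∃ v : R, IsUnit v ∧ S2 = v * (S1 * (z - x) ^ (q - 1)) := by
  obtain ⟨H, hH⟩ := S36TP_delta_congr q x z
  obtain ⟨v, hv, hϖv⟩ := S36TP_factor q hq hS1 hnode hu hΨ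
  obtain ⟨v', hv'⟩ := hv
  have hϖ : ϖ = ((v'⁻¹ : Rˣ) : R) * (S1 * T2 * (z - x) ^ (q - 1)) := by
    rw [← hϖv, ← hv']
    calc ϖ = ϖ * ((v' : R) * ((v'⁻¹ : Rˣ) : R)) := by rw [Units.mul_inv, mul_one]
      _ = ((v'⁻¹ : Rˣ) : R) * (ϖ * (v' : R)) := by ring
  have hδm := S36TP_delta_mul q x z
  refine ⟨1 + T2 * (((v'⁻¹ : Rˣ) : R) * w * (S1 * H + G')), ?_, ?_⟩
  · by_contra hcon
    have hm : 1 + T2 * (((v'⁻¹ : Rˣ) : R) * w * (S1 * H + G')) ∈ maximalIdeal R :=
      (IsLocalRing.mem_maximalIdeal _).mpr hcon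
    have h1m : (1 : R) ∈ maximalIdeal R := by
      have : (1 : R) = (1 + T2 * (((v'⁻¹ : Rˣ) : R) * w * (S1 * H + G')))
          - T2 * (((v'⁻¹ : Rˣ) : R) * w * (S1 * H + G')) := by ring
      rw [this]
      exact Ideal.sub_mem _ hm (Ideal.mul_mem_right _ _ hT2)
    exact (IsLocalRing.mem_maximalIdeal _).mp h1m isUnit_one
  · -- `S2 = S1 δ + q G'`
    have hS2 : S2 = S1 * S36TP_delta q x z + (q : R) * G' := by
      have h1 : S2 = -(T1) - S36TP_delta q x z * (z - x) := by
        rw [hδm]; linear_combination hTS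
      rw [h1, hW]
      linear_combination -hΨ
    rw [hS2, hH, hq]
    have : S1 * ((z - x) ^ (q - 1) + ϖ * w * H) + ϖ * w * G'
        = S1 * (z - x) ^ (q - 1) + ϖ * (w * (S1 * H + G')) := by ring
    rw [this]
    nth_rewrite 1 [hϖ]
    ring

/-- **The regular triple point** (assembly of the three statements above). -/
theorem S36TP_main (q : ℕ) [Fact q.Prime] {ϖ w x z S1 T1 T2 u G' : R}
    (hgen : maximalIdeal R = Ideal.span ({ϖ, S1, T1, T2} : Set R))
    (hq : (q : R) = ϖ * w) (hW : z - x = T2 - S1)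
    (hnode : T1 * S1 = ϖ * u) (hu : IsUnit u)
    (hΨ : T1 + T2 * S36TP_delta q x z + (q : R) * G' = 0) :
    maximalIdeal R = Ideal.span ({S1, T2} : Set R) ∧
      (∃ v : R, IsUnit v ∧ ϖ * v = S1 * T2 * (T2 - S1) ^ (q - 1)) ∧
      ∃ v : R, IsUnit v ∧ T1 = v * (T2 * (T2 - S1) ^ (q - 1)) := by
  have hmem : ∀ a ∈ ({ϖ, S1, T1, T2} : Set R), a ∈ maximalIdeal R := fun a ha => by
    rw [hgen]; exact Ideal.subset_span ha
  have hϖ : ϖ ∈ maximalIdeal R := hmem _ (by simp)
  have hS1 : S1 ∈ maximalIdeal R := hmem _ (by simp)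
  have hT2 : T2 ∈ maximalIdeal R := hmem _ (by simp)
  have hWm : z - x ∈ maximalIdeal R := by rw [hW]; exact Ideal.sub_mem _ hT2 hS1
  have hδ : S36TP_delta q x z ∈ maximalIdeal R := by
    obtain ⟨H, hH⟩ := S36TP_delta_congr q x z
    rw [hH, hq]
    refine Ideal.add_mem _ ?_ (Ideal.mul_mem_right _ _ (Ideal.mul_mem_right _ _ hϖ))
    have hq1 : q - 1 ≠ 0 := by
      have := (Fact.out : q.Prime).two_le
      omega
    exact Ideal.pow_mem_of_mem _ hWm _ (Nat.pos_of_ne_zero hq1)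
  have hΨ' : T1 + T2 * S36TP_delta q x z + ϖ * (w * G') = 0 := by
    rw [← mul_assoc, ← hq]; exact hΨ
  refine ⟨S36TP_regular hgen hnode hu hδ hΨ', ?_, ?_⟩
  · obtain ⟨v, hv, h⟩ := S36TP_factor q hq hS1 hnode hu hΨ
    exact ⟨v, hv, by rw [h, hW]⟩
  · obtain ⟨v, hv, h⟩ := S36TP_branch_T1 q hq hS1 hnode hu hΨ
    exact ⟨v, hv, by rw [h, hW]⟩

end Regular

/-! ### Height-one primes are principal -/

section Principal

variable {R : Type*} [CommRing R]

/-- **Factoriality brick.**  Let `t` lie in the Jacobson radical of `R` and suppose that the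
image of the finitely generated prime ideal `P` in `R ⧸ (t)` is principal.  If `t ∉ P`, then `P`
is principal. -/
theorem S36TP_prime_principal_of_image {t : R} (ht : t ∈ (⊥ : Ideal R).jacobson)
    (P : Ideal R) [P.IsPrime] (hfg : P.FG) (htP : t ∉ P)
    (himg : ∃ g ∈ P, ∀ p ∈ P, ∃ r s : R, p = r * g + s * t) :
    ∃ g ∈ P, P = Ideal.span {g} := by
  obtain ⟨g, hg, hgen⟩ := himg
  refine ⟨g, hg, le_antisymm ?_ ((Ideal.span_singleton_le_iff_mem _).mpr hg)⟩
  refine Submodule.le_of_le_smul_of_le_jacobson_bot (I := Ideal.span {t}) hfg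
    ((Ideal.span_singleton_le_iff_mem _).mpr ht) ?_
  intro p hp
  obtain ⟨r, s, hrs⟩ := hgen p hp
  have hst : s * t ∈ P := by
    have : s * t = p - r * g := by rw [hrs]; ring
    rw [this]
    exact Ideal.sub_mem _ hp (Ideal.mul_mem_left _ _ hg)
  have hs : s ∈ P := by
    rcases Ideal.IsPrime.mem_or_mem inferInstance hst with h | h
    · exact h
    · exact absurd h htP
  rw [hrs]
  refine Submodule.add_mem _ (Submodule.mem_sup_left ?_) (Submodule.mem_sup_right ?_)
  · exact Ideal.mul_mem_left _ _ (Ideal.subset_span rfl)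
  · rw [mul_comm]
    exact Submodule.smul_mem_smul (Ideal.subset_span rfl) hs

/-- **The branch primes.**  If `𝔪 = (s, t)` and `P` is a prime ideal with `s ∈ P`, `t ∉ P`,
then `P = (s)`. -/
theorem S36TP_branch_prime [IsLocalRing R] {s t : R}
    (hgen : maximalIdeal R = Ideal.span ({s, t} : Set R))
    (P : Ideal R) [P.IsPrime] (hfg : P.FG) (hs : s ∈ P) (ht : t ∉ P) :
    P = Ideal.span {s} := by
  have htm : t ∈ maximalIdeal R := by
    rw [hgen]; exact Ideal.subset_span (by simp)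
  refine le_antisymm ?_ ((Ideal.span_singleton_le_iff_mem _).mpr hs)
  refine Submodule.le_of_le_smul_of_le_jacobson_bot (I := Ideal.span {t}) hfg
    ((Ideal.span_singleton_le_iff_mem _).mpr (IsLocalRing.maximalIdeal_le_jacobson ⊥ htm)) ?_
  intro p hp
  have hpm : p ∈ maximalIdeal R := IsLocalRing.le_maximalIdeal (Ideal.IsPrime.ne_top') hp
  rw [hgen, Ideal.mem_span_pair] at hpm
  obtain ⟨a, b, hab⟩ := hpm
  have hbt : b * t ∈ P := by
    have : b * t = p - a * s := by rw [← hab]; ring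
    rw [this]
    exact Ideal.sub_mem _ hp (Ideal.mul_mem_left _ _ hs)
  have hb : b ∈ P := by
    rcases Ideal.IsPrime.mem_or_mem inferInstance hbt with h | h
    · exact h
    · exact absurd h ht
  rw [← hab]
  refine Submodule.add_mem _ (Submodule.mem_sup_left ?_) (Submodule.mem_sup_right ?_)
  · exact Ideal.mul_mem_left _ _ (Ideal.subset_span rfl)
  · rw [mul_comm]
    exact Submodule.smul_mem_smul (Ideal.subset_span rfl) hb

/-- The generator of a branch is a prime element. -/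
theorem S36TP_branch_prime_elt [IsLocalRing R] [IsNoetherianRing R] {s t : R}
    (hgen : maximalIdeal R = Ideal.span ({s, t} : Set R))
    (P : Ideal R) [hP : P.IsPrime] (hs : s ∈ P) (ht : t ∉ P) (hs0 : s ≠ 0) : Prime s := by
  have h := S36TP_branch_prime hgen P (IsNoetherian.noetherian P) hs ht
  rw [← Ideal.span_singleton_prime hs0, ← h]
  exact hP

/-- The quotient by a branch is a principal ideal ring (a discrete valuation ring or a field):
the interface of the factoriality brick. -/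
theorem S36TP_branch_pir [IsLocalRing R] [IsNoetherianRing R] {s t : R}
    (hgen : maximalIdeal R = Ideal.span ({s, t} : Set R))
    (P : Ideal R) [hP : P.IsPrime] (hs : s ∈ P) (ht : t ∉ P) :
    IsPrincipalIdealRing (R ⧸ Ideal.span ({s} : Set R)) := by
  have h := S36TP_branch_prime hgen P (IsNoetherian.noetherian P) hs ht
  have hPs : (Ideal.span ({s} : Set R)).IsPrime := h ▸ hP
  have : IsDomain (R ⧸ Ideal.span ({s} : Set R)) := Ideal.Quotient.isDomain _
  have hne : Ideal.span ({s} : Set R) ≠ ⊤ := Ideal.IsPrime.ne_top'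
  have : Nontrivial (R ⧸ Ideal.span ({s} : Set R)) := Ideal.Quotient.nontrivial_iff.mpr hne
  have : IsLocalRing (R ⧸ Ideal.span ({s} : Set R)) :=
    IsLocalRing.of_surjective' (Ideal.Quotient.mk (Ideal.span ({s} : Set R)))
      Ideal.Quotient.mk_surjective
  -- the maximal ideal of the quotient is generated by the class of `t`
  have hmax : maximalIdeal (R ⧸ Ideal.span ({s} : Set R)) =
      Ideal.span {Ideal.Quotient.mk (Ideal.span ({s} : Set R)) t} := by
    have h1 : maximalIdeal (R ⧸ Ideal.span ({s} : Set R)) =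
        (maximalIdeal R).map (Ideal.Quotient.mk (Ideal.span ({s} : Set R))) :=
      (IsLocalRing.map_maximalIdeal_of_surjective
        (Ideal.Quotient.mk (Ideal.span ({s} : Set R))) Ideal.Quotient.mk_surjective).symm
    rw [h1, hgen, Ideal.map_span]
    apply le_antisymm
    · rw [Ideal.span_le]
      rintro y ⟨a, ha, rfl⟩
      simp only [Set.mem_insert_iff, Set.mem_singleton_iff] at ha
      rcases ha with rfl | rfl
      · have : Ideal.Quotient.mk (Ideal.span ({a} : Set R)) a = 0 :=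
          Ideal.Quotient.eq_zero_iff_mem.mpr (Ideal.subset_span rfl)
        simp [this]
      · exact Ideal.subset_span rfl
    · rw [Ideal.span_le]
      rintro y hy
      rw [Set.mem_singleton_iff] at hy
      subst hy
      exact Ideal.subset_span ⟨t, by simp, rfl⟩
  have htfae := tfae_of_isNoetherianRing_of_isLocalRing_of_isDomain
    (R ⧸ Ideal.span ({s} : Set R))
  exact (htfae.out 4 0).mp (Submodule.IsPrincipal.mk ⟨_, hmax⟩)

end Principal

end Fermat.Agent.S36_helper17_TRIPLE
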