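import Mathlib

/-!
# S36 (helper18): THICK-ABS, thickness one at a crossing point - the algebra (Mathlib only)

`x`, `y = V_q x` two coordinates with the Kronecker relation
`Φ(x, y) = 0`, `Φ = (X^q - Y)(X - Y^q) + q G`, `G ∈ ℤ[X, Y]`; `T = x^q - y`, `S = x - y^q`,
so `T S = -q G(x, y)`.  The node at a crossing point `m` has thickness one iff `G(x, y) ∉ m`.

The proof uses the function `D = q dx/dy = -q Φ_Y(x, y) / Φ_X(x, y)` (the `q`-expansion
`θx / V(θx)`), which lies in `m` (it vanishes on the branch `V_0`):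
`S Φ_X = q F`, `F = x^(q-1) S² - G + S G_X`, hence `D F = S² + q (..)`; modulo the prime
`P = R ∩ m(V_∞)` (`y ≡ x^q`, characteristic `q`), with `ϖ = S mod P = ξ - ξ^(q²)`:
`G - ϖ G_X = G(ξ - ϖ, ..) + ϖ² k = G^(q²) + ϖ² k` (Taylor + Frobenius), so `G ∈ m`, `D ∈ m`,
`m = P + (S)` give `ϖ² = D F ∈ (ϖ³)`: `ϖ` is a unit, contradiction.

* `S36TH_ev`      : the value of `G ∈ ℤ[X, Y]` at a pair (`eval₂Hom (Int.castRingHom _)`; no
                    `Algebra ℤ` instance), `S36TH_ev_eq_aeval`;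
* `S36TH_chain`   : the chain rule for a derivation-like map (also for the consumers: the
                    derivative of `Φ(ι x, ι y) = 0` in `ℂ((t))`);
* `S36TH_taylor`  : Taylor + Frobenius;
* `S36TH_core`    : the core in a domain of characteristic `q`;
* `S36TH_F_coeff`, `S36TH_F_ne_zero` : `F = X^(q-1) s² - g + g' s ≠ 0` in characteristic `q`
                    (`Φ_X / q` is a unit of `V_∞`);
* `S36TH_Phi`, `S36TH_Phi_ev`, `S36TH_Phi_pderiv0`, `S36TH_Phi_pderiv1`;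
* `S36TH_abs`, `S36TH_abs'`, `S36TH_unit` : **THICK-ABS**.
-/

set_option autoImplicit false
set_option linter.unusedSectionVars false
set_option linter.unusedVariables false
set_option linter.unusedSimpArgs false
set_option linter.style.haveILetI false

open MvPolynomial

namespace Fermat.Agent.S36_helper18_THICK

/-- the value of an integer polynomial in two variables at a pair of elements of a commutative
ring (no `Algebra ℤ` instance involved) -/
noncomputable abbrev S36TH_ev {B : Type*} [CommRing B] (v : Fin 2 → B) :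
    MvPolynomial (Fin 2) ℤ →+* B :=
  MvPolynomial.eval₂Hom (Int.castRingHom B) v

/-- `S36TH_ev` is `aeval`, for any `ℤ`-algebra structure. -/
theorem S36TH_ev_eq_aeval {B : Type*} [CommRing B] [Algebra ℤ B] (v : Fin 2 → B)
    (G : MvPolynomial (Fin 2) ℤ) : S36TH_ev v G = aeval v G := by
  rw [MvPolynomial.aeval_def]
  show MvPolynomial.eval₂ (Int.castRingHom B) v G = MvPolynomial.eval₂ (algebraMap ℤ B) v G
  congr 1
  exact RingHom.ext_int _ _

theorem S36TH_ev_C {B : Type*} [CommRing B] (v : Fin 2 → B) (a : ℤ) :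
    S36TH_ev v (C a) = (a : B) := by
  simp [S36TH_ev]

theorem S36TH_ev_X {B : Type*} [CommRing B] (v : Fin 2 → B) (i : Fin 2) :
    S36TH_ev v (X i) = v i := by
  simp [S36TH_ev]

/-- **Chain rule** for a derivation-like map `δ` on a commutative ring and a polynomial in two
variables with integer coefficients. -/
theorem S36TH_chain {B : Type*} [CommRing B] (δ : B → B)
    (hadd : ∀ a b, δ (a + b) = δ a + δ b)
    (hmul : ∀ a b, δ (a * b) = a * δ b + δ a * b)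
    (hint : ∀ n : ℤ, δ (n : B) = 0) (v : Fin 2 → B) (G : MvPolynomial (Fin 2) ℤ) :
    δ (S36TH_ev v G) =
      S36TH_ev v (pderiv 0 G) * δ (v 0) + S36TH_ev v (pderiv 1 G) * δ (v 1) := by
  induction G using MvPolynomial.induction_on with
  | C a =>
    rw [pderiv_C, pderiv_C, map_zero, zero_mul, zero_mul, add_zero, S36TH_ev_C, hint]
  | add p r hp hr =>
    rw [map_add, hadd, hp, hr, map_add, map_add, map_add, map_add]
    ring
  | mul_X p i hp =>
    rw [map_mul, hmul, hp, S36TH_ev_X, pderiv_mul, pderiv_mul, map_add, map_add, map_mul,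
      map_mul, map_mul, map_mul, S36TH_ev_X]
    fin_cases i
    · simp only [Fin.zero_eta, Fin.isValue, pderiv_X_self, map_one, mul_one]
      rw [pderiv_X_of_ne (by decide : (0 : Fin 2) ≠ 1)]
      simp only [map_zero, mul_zero, add_zero]
      ring
    · simp only [Fin.mk_one, Fin.isValue, pderiv_X_self, map_one, mul_one]
      rw [pderiv_X_of_ne (by decide : (1 : Fin 2) ≠ 0)]
      simp only [map_zero, mul_zero, add_zero]
      ring

/-- ring homomorphisms commute with the evaluation of integer polynomials in two variables -/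
theorem S36TH_map_ev {A B : Type*} [CommRing A] [CommRing B] (φ : A →+* B) (v : Fin 2 → A)
    (G : MvPolynomial (Fin 2) ℤ) :
    φ (S36TH_ev v G) = S36TH_ev (fun i => φ (v i)) G := by
  induction G using MvPolynomial.induction_on with
  | C a => rw [S36TH_ev_C, S36TH_ev_C, map_intCast]
  | add p r hp hr => rw [map_add, map_add, map_add, hp, hr]
  | mul_X p i hp => rw [map_mul, map_mul, map_mul, hp, S36TH_ev_X, S36TH_ev_X]

theorem S36TH_vec {A B : Type*} (a b : A) (f : A → B) :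
    (fun i => f ((![a, b] : Fin 2 → A) i)) = ![f a, f b] := by
  funext i
  fin_cases i <;> rfl

section Core

variable {O : Type*} [CommRing O] (q : ℕ) [hq : Fact q.Prime] [CharP O q]

/-- **Frobenius**: `G(ξ, ξ^q)^(q²) = G(ξ^(q²), (ξ^(q²))^q)`. -/
theorem S36TH_frob (G : MvPolynomial (Fin 2) ℤ) (ξ : O) :
    (S36TH_ev ![ξ, ξ ^ q] G) ^ (q ^ 2) = S36TH_ev ![ξ ^ (q ^ 2), (ξ ^ (q ^ 2)) ^ q] G := by
  have h1 : ∀ a b : O, (S36TH_ev ![a, b] G) ^ q = S36TH_ev ![a ^ q, b ^ q] G := by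
    intro a b
    have := S36TH_map_ev (frobenius O q) ![a, b] G
    rw [S36TH_vec] at this
    rw [frobenius_def, frobenius_def, frobenius_def] at this
    exact this
  have e1 : (ξ ^ q) ^ q = ξ ^ (q ^ 2) := by rw [← pow_mul, pow_two]
  have e2 : ((ξ ^ q) ^ q) ^ q = (ξ ^ (q ^ 2)) ^ q := by rw [e1]
  have e3 : (S36TH_ev ![ξ, ξ ^ q] G) ^ (q ^ 2) = ((S36TH_ev ![ξ, ξ ^ q] G) ^ q) ^ q := by
    rw [← pow_mul, pow_two]
  rw [e3, h1, h1, e2, e1]

/-- the univariate polynomial `g(X) = G(X, X^q)` -/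
noncomputable def S36TH_g (O : Type*) [CommRing O] (q : ℕ) (G : MvPolynomial (Fin 2) ℤ) :
    Polynomial O :=
  S36TH_ev ![(Polynomial.X : Polynomial O), Polynomial.X ^ q] G

theorem S36TH_g_eval (G : MvPolynomial (Fin 2) ℤ) (ξ : O) :
    (S36TH_g O q G).eval ξ = S36TH_ev ![ξ, ξ ^ q] G := by
  have := S36TH_map_ev (Polynomial.evalRingHom ξ)
    ![(Polynomial.X : Polynomial O), Polynomial.X ^ q] G
  rw [S36TH_vec] at this
  simp only [Polynomial.coe_evalRingHom, Polynomial.eval_X, Polynomial.eval_pow] at this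
  exact this

theorem S36TH_g_derivative (G : MvPolynomial (Fin 2) ℤ) :
    Polynomial.derivative (S36TH_g O q G) =
      S36TH_ev ![(Polynomial.X : Polynomial O), Polynomial.X ^ q] (pderiv 0 G) := by
  have h := S36TH_chain (B := Polynomial O) (fun p => Polynomial.derivative p)
    (fun a b => by simp) (fun a b => by simp [Polynomial.derivative_mul]; ring)
    (fun n => by simp) ![(Polynomial.X : Polynomial O), Polynomial.X ^ q] G
  simp only [Matrix.cons_val_zero, Matrix.cons_val_one, Polynomial.derivative_X, mul_one,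
    Polynomial.derivative_X_pow] at h
  have h0 : (Polynomial.C (q : O) : Polynomial O) = 0 := by
    rw [CharP.cast_eq_zero, map_zero]
  rw [h0, zero_mul, mul_zero, add_zero] at h
  exact h

/-- **Taylor + Frobenius.** -/
theorem S36TH_taylor (G : MvPolynomial (Fin 2) ℤ) (ξ : O) :
    ∃ k : O, S36TH_ev ![ξ, ξ ^ q] G - (ξ - ξ ^ (q ^ 2)) * S36TH_ev ![ξ, ξ ^ q] (pderiv 0 G) =
      (S36TH_ev ![ξ, ξ ^ q] G) ^ (q ^ 2) - k * (ξ - ξ ^ (q ^ 2)) ^ 2 := by
  obtain ⟨k, hk⟩ := Polynomial.binomExpansion (S36TH_g O q G) ξ (-(ξ - ξ ^ (q ^ 2)))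
  refine ⟨k, ?_⟩
  have e : ξ + -(ξ - ξ ^ (q ^ 2)) = ξ ^ (q ^ 2) := by ring
  rw [e, S36TH_g_eval, S36TH_g_eval, S36TH_g_derivative] at hk
  have h2 := S36TH_map_ev (Polynomial.evalRingHom ξ)
    ![(Polynomial.X : Polynomial O), Polynomial.X ^ q] (pderiv 0 G)
  rw [S36TH_vec] at h2
  simp only [Polynomial.coe_evalRingHom, Polynomial.eval_X, Polynomial.eval_pow] at h2
  rw [h2] at hk
  rw [S36TH_frob, hk]
  ring

/-- **The core** (in a domain of characteristic `q`): with `ϖ = ξ - ξ^(q²) ≠ 0`, if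
`d · F = ϖ²` for `F = ξ^(q-1) ϖ² - G(ξ, ξ^q) + ϖ G_X(ξ, ξ^q)` and `ϖ` divides both `d` and
`G(ξ, ξ^q)`, then `ϖ` is a unit. -/
theorem S36TH_core [IsDomain O] (G : MvPolynomial (Fin 2) ℤ) (ξ d : O)
    (hϖ : ξ - ξ ^ (q ^ 2) ≠ 0)
    (hrel : d * (ξ ^ (q - 1) * (ξ - ξ ^ (q ^ 2)) ^ 2 - S36TH_ev ![ξ, ξ ^ q] G
        + (ξ - ξ ^ (q ^ 2)) * S36TH_ev ![ξ, ξ ^ q] (pderiv 0 G)) = (ξ - ξ ^ (q ^ 2)) ^ 2)
    (hd : (ξ - ξ ^ (q ^ 2)) ∣ d) (hG : (ξ - ξ ^ (q ^ 2)) ∣ S36TH_ev ![ξ, ξ ^ q] G) :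
    IsUnit (ξ - ξ ^ (q ^ 2)) := by
  obtain ⟨k, hk⟩ := S36TH_taylor q G ξ
  obtain ⟨d', hd'⟩ := hd
  obtain ⟨γ, hγ⟩ := hG
  obtain ⟨n, hn⟩ : ∃ n, q ^ 2 = n + 2 := by
    have h2 : 2 ≤ q := hq.out.two_le
    have : 2 ≤ q ^ 2 := by nlinarith
    exact ⟨q ^ 2 - 2, by omega⟩
  set ϖ := ξ - ξ ^ (q ^ 2) with hϖdef
  set Gv := S36TH_ev ![ξ, ξ ^ q] G with hGv
  set GX := S36TH_ev ![ξ, ξ ^ q] (pderiv 0 G) with hGX
  have hF : ξ ^ (q - 1) * ϖ ^ 2 - Gv + ϖ * GX =
      ϖ ^ 2 * (ξ ^ (q - 1) + k - ϖ ^ n * γ ^ (q ^ 2)) := by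
    have h1 : Gv - ϖ * GX = Gv ^ (q ^ 2) - k * ϖ ^ 2 := hk
    have h2 : Gv ^ (q ^ 2) = ϖ ^ 2 * (ϖ ^ n * γ ^ (q ^ 2)) := by
      rw [hγ, mul_pow, hn]
      ring
    have h3 : ξ ^ (q - 1) * ϖ ^ 2 - Gv + ϖ * GX = ξ ^ (q - 1) * ϖ ^ 2 - (Gv - ϖ * GX) := by ring
    rw [h3, h1, h2]
    ring
  rw [hF, hd'] at hrel
  have h4 : ϖ ^ 2 * (ϖ * (d' * (ξ ^ (q - 1) + k - ϖ ^ n * γ ^ (q ^ 2))) - 1) = 0 := by
    linear_combination hrel
  rcases mul_eq_zero.mp h4 with h5 | h5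
  · exact absurd ((pow_eq_zero_iff (two_ne_zero)).mp h5) hϖ
  · exact IsUnit.of_mul_eq_one _ (sub_eq_zero.mp h5)

end Core

/-- `F = X^(q-1) s² - g + g' s`, `s = X - X^(q²)`, is never zero in characteristic `q`: its
coefficient of `X^(q+1)` is `1`. -/
theorem S36TH_F_coeff {k : Type*} [CommRing k] (q : ℕ) [hq : Fact q.Prime] [CharP k q]
    (g : Polynomial k) :
    (Polynomial.X ^ (q - 1) * (Polynomial.X - Polynomial.X ^ (q ^ 2)) ^ 2 - g
      + Polynomial.derivative g * (Polynomial.X - Polynomial.X ^ (q ^ 2))).coeff (q + 1) = 1 := by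
  obtain ⟨n, rfl⟩ : ∃ n, q = n + 2 := ⟨q - 2, by have := hq.out.two_le; omega⟩
  have e1 : (Polynomial.X : Polynomial k) ^ (n + 2 - 1) *
      (Polynomial.X - Polynomial.X ^ ((n + 2) ^ 2)) ^ 2 =
      Polynomial.X ^ (n + 3) - 2 * Polynomial.X ^ ((n + 2) ^ 2 + n + 2)
        + Polynomial.X ^ (2 * (n + 2) ^ 2 + n + 1) := by
    have : n + 2 - 1 = n + 1 := by omega
    rw [this]
    ring
  have e2 : Polynomial.derivative g * (Polynomial.X - Polynomial.X ^ ((n + 2) ^ 2)) =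
      Polynomial.derivative g * Polynomial.X
        - Polynomial.derivative g * Polynomial.X ^ ((n + 2) ^ 2) := by ring
  have hlt : n + 3 < (n + 2) ^ 2 := by nlinarith
  have hc : ((n + 2 : ℕ) : k) = 0 := CharP.cast_eq_zero k (n + 2)
  rw [e1, e2]
  simp only [Polynomial.coeff_add, Polynomial.coeff_sub, Polynomial.coeff_X_pow]
  have h1 : (2 * (Polynomial.X : Polynomial k) ^ ((n + 2) ^ 2 + n + 2)).coeff (n + 2 + 1) = 0 := by
    have : (2 : Polynomial k) = Polynomial.C 2 := (map_ofNat Polynomial.C 2).symm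
    rw [this, Polynomial.coeff_C_mul, Polynomial.coeff_X_pow, if_neg (by omega), mul_zero]
  have h2 : (Polynomial.derivative g * Polynomial.X).coeff (n + 2 + 1) = g.coeff (n + 2 + 1) := by
    rw [Polynomial.coeff_mul_X, Polynomial.coeff_derivative]
    have : ((n + 2 : ℕ) : k) + 1 = 1 := by rw [hc, zero_add]
    rw [this, mul_one]
  have h3 : (Polynomial.derivative g * Polynomial.X ^ ((n + 2) ^ 2)).coeff (n + 2 + 1) = 0 := by
    rw [Polynomial.coeff_mul_X_pow', if_neg (by omega)]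
  rw [h1, h2, h3, if_pos trivial,
    if_neg (show ¬ (n + 2 + 1 = 2 * (n + 2) ^ 2 + n + 1) by omega)]
  ring

theorem S36TH_F_ne_zero {k : Type*} [CommRing k] [Nontrivial k] (q : ℕ) [hq : Fact q.Prime]
    [CharP k q] (g : Polynomial k) :
    Polynomial.X ^ (q - 1) * (Polynomial.X - Polynomial.X ^ (q ^ 2)) ^ 2 - g
      + Polynomial.derivative g * (Polynomial.X - Polynomial.X ^ (q ^ 2)) ≠ 0 := by
  intro h
  have := S36TH_F_coeff q g
  rw [h, Polynomial.coeff_zero] at this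
  exact zero_ne_one this

/-! ### the Kronecker polynomial and its partial derivatives -/

/-- `Φ = (X^q - Y)(X - Y^q) + q G` -/
noncomputable def S36TH_Phi (q : ℕ) (G : MvPolynomial (Fin 2) ℤ) : MvPolynomial (Fin 2) ℤ :=
  (X 0 ^ q - X 1) * (X 0 - X 1 ^ q) + C (q : ℤ) * G

section Phi

variable {R : Type*} [CommRing R] (q : ℕ) (G : MvPolynomial (Fin 2) ℤ) (x y : R)

theorem S36TH_Phi_ev :
    S36TH_ev ![x, y] (S36TH_Phi q G) =
      (x ^ q - y) * (x - y ^ q) + (q : R) * S36TH_ev ![x, y] G := by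
  simp [S36TH_Phi, S36TH_ev]

theorem S36TH_Phi_pderiv0 :
    S36TH_ev ![x, y] (pderiv 0 (S36TH_Phi q G)) =
      (q : R) * x ^ (q - 1) * (x - y ^ q) + (x ^ q - y)
        + (q : R) * S36TH_ev ![x, y] (pderiv 0 G) := by
  have h10 : pderiv (0 : Fin 2) (X 1 : MvPolynomial (Fin 2) ℤ) = 0 :=
    pderiv_X_of_ne (by decide)
  simp only [S36TH_Phi, Derivation.map_add, Derivation.leibniz, Derivation.map_sub,
    Derivation.leibniz_pow, pderiv_X_self, h10, pderiv_C, smul_eq_mul, mul_zero, mul_one,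
    smul_zero, sub_zero, add_zero, nsmul_eq_mul]
  simp [S36TH_ev]
  ring

theorem S36TH_Phi_pderiv1 :
    S36TH_ev ![x, y] (pderiv 1 (S36TH_Phi q G)) =
      -(x - y ^ q) - (q : R) * y ^ (q - 1) * (x ^ q - y)
        + (q : R) * S36TH_ev ![x, y] (pderiv 1 G) := by
  have h01 : pderiv (1 : Fin 2) (X 0 : MvPolynomial (Fin 2) ℤ) = 0 :=
    pderiv_X_of_ne (by decide)
  simp only [S36TH_Phi, Derivation.map_add, Derivation.leibniz, Derivation.map_sub,
    Derivation.leibniz_pow, pderiv_X_self, h01, pderiv_C, smul_eq_mul, mul_zero, mul_one,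
    smul_zero, sub_zero, add_zero, nsmul_eq_mul, zero_sub]
  simp [S36TH_ev]
  ring

end Phi

/-! ### THICK-ABS -/

/-- **THICK-ABS** (thickness one, the algebra).  `R` a commutative ring in which the prime `q`
is a non-zero-divisor, `P ≤ m` ideals, `P` prime, `m` proper, `q ∈ P`, `T = x^q - y ∈ P`,
`S = x - y^q ∈ m`, `S ∉ P`, `m ⊆ P + (S)`; `Φ = (X^q - Y)(X - Y^q) + q G` with `Φ(x, y) = 0`;
`D ∈ m` with `D Φ_X(x, y) = -q Φ_Y(x, y)` (i.e. `D = q dx/dy`).  Then `G(x, y) ∉ m`. -/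
theorem S36TH_abs {R : Type*} [CommRing R] (q : ℕ) (hq : q.Prime) (P m : Ideal R) [P.IsPrime]
    (hm : m ≠ ⊤) (x y D : R) (G : MvPolynomial (Fin 2) ℤ)
    (hqP : (q : R) ∈ P) (hqR : ∀ z : R, (q : R) * z = 0 → z = 0)
    (hT : x ^ q - y ∈ P) (hS : x - y ^ q ∉ P) (hSm : x - y ^ q ∈ m) (hPm : P ≤ m)
    (hgen : ∀ z ∈ m, ∃ c : R, z - c * (x - y ^ q) ∈ P)
    (hΦ : (x ^ q - y) * (x - y ^ q) + (q : R) * S36TH_ev ![x, y] G = 0)
    (hD : D * ((q : R) * x ^ (q - 1) * (x - y ^ q) + (x ^ q - y)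
        + (q : R) * S36TH_ev ![x, y] (pderiv 0 G)) =
      -(q : R) * (-(x - y ^ q) - (q : R) * y ^ (q - 1) * (x ^ q - y)
        + (q : R) * S36TH_ev ![x, y] (pderiv 1 G)))
    (hDm : D ∈ m) : S36TH_ev ![x, y] G ∉ m := by
  intro hGm
  have : Fact q.Prime := ⟨hq⟩
  set φ : R →+* R ⧸ P := Ideal.Quotient.mk P with hφ
  have : CharP (R ⧸ P) q := by
    rw [CharP.charP_iff_prime_eq_zero hq]
    have : ((q : R ⧸ P)) = φ (q : R) := by rw [map_natCast]
    rw [this]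
    exact Ideal.Quotient.eq_zero_iff_mem.mpr hqP
  have hy : φ y = φ x ^ q := by
    have : φ (x ^ q - y) = 0 := Ideal.Quotient.eq_zero_iff_mem.mpr hT
    rw [map_sub, map_pow, sub_eq_zero] at this
    exact this.symm
  have hSφ : φ (x - y ^ q) = φ x - φ x ^ (q ^ 2) := by
    rw [map_sub, map_pow, hy, ← pow_mul, pow_two]
  have hev : ∀ H : MvPolynomial (Fin 2) ℤ,
      φ (S36TH_ev ![x, y] H) = S36TH_ev ![φ x, φ x ^ q] H := by
    intro H
    rw [S36TH_map_ev, S36TH_vec, hy]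
  -- the relation `D F = S² + q (..)`
  have hrelR : D * (x ^ (q - 1) * (x - y ^ q) ^ 2 - S36TH_ev ![x, y] G
      + (x - y ^ q) * S36TH_ev ![x, y] (pderiv 0 G)) =
      (x - y ^ q) ^ 2 + (q : R) * (y ^ (q - 1) * ((x ^ q - y) * (x - y ^ q))
        - (x - y ^ q) * S36TH_ev ![x, y] (pderiv 1 G)) := by
    apply sub_eq_zero.mp
    apply hqR
    linear_combination (x - y ^ q) * hD - D * hΦ
  have hrel := congrArg φ hrelR
  have hq0 : φ (q : R) = 0 := Ideal.Quotient.eq_zero_iff_mem.mpr hqP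
  simp only [map_mul, map_add, map_sub, map_pow, hq0, zero_mul, add_zero, hev] at hrel
  rw [hy, ← pow_mul, ← pow_two] at hrel
  -- divisibilities
  have hdvd : ∀ z ∈ m, (φ x - φ x ^ (q ^ 2)) ∣ φ z := by
    intro z hz
    obtain ⟨c, hc⟩ := hgen z hz
    have : φ (z - c * (x - y ^ q)) = 0 := Ideal.Quotient.eq_zero_iff_mem.mpr hc
    rw [map_sub, map_mul, sub_eq_zero, hSφ] at this
    exact ⟨φ c, by rw [this]; ring⟩
  have hne : φ x - φ x ^ (q ^ 2) ≠ 0 := by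
    rw [← hSφ]
    intro h
    exact hS (Ideal.Quotient.eq_zero_iff_mem.mp h)
  have hG' := hdvd _ hGm
  rw [hev] at hG'
  have hunit := S36TH_core q G (φ x) (φ D) hne hrel (hdvd D hDm) hG'
  obtain ⟨e, he⟩ := hunit.exists_right_inv
  obtain ⟨e', rfl⟩ := Ideal.Quotient.mk_surjective e
  rw [← hSφ, ← map_mul] at he
  have h1 : (x - y ^ q) * e' - 1 ∈ P := by
    rw [← Ideal.Quotient.eq_zero_iff_mem, map_sub, map_one, sub_eq_zero]
    exact he
  apply hm
  rw [Ideal.eq_top_iff_one]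
  have h2 : (x - y ^ q) * e' ∈ m := Ideal.mul_mem_right _ _ hSm
  have h3 := Ideal.sub_mem m h2 (hPm h1)
  simpa using h3

/-- **THICK-ABS**, with the partial derivatives of `Φ = S36TH_Phi q G`. -/
theorem S36TH_abs' {R : Type*} [CommRing R] (q : ℕ) (hq : q.Prime) (P m : Ideal R) [P.IsPrime]
    (hm : m ≠ ⊤) (x y D : R) (G : MvPolynomial (Fin 2) ℤ)
    (hqP : (q : R) ∈ P) (hqR : ∀ z : R, (q : R) * z = 0 → z = 0)
    (hT : x ^ q - y ∈ P) (hS : x - y ^ q ∉ P) (hSm : x - y ^ q ∈ m) (hPm : P ≤ m)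
    (hgen : ∀ z ∈ m, ∃ c : R, z - c * (x - y ^ q) ∈ P)
    (hΦ : S36TH_ev ![x, y] (S36TH_Phi q G) = 0)
    (hD : D * S36TH_ev ![x, y] (pderiv 0 (S36TH_Phi q G)) =
      -(q : R) * S36TH_ev ![x, y] (pderiv 1 (S36TH_Phi q G)))
    (hDm : D ∈ m) : S36TH_ev ![x, y] G ∉ m := by
  rw [S36TH_Phi_ev] at hΦ
  rw [S36TH_Phi_pderiv0, S36TH_Phi_pderiv1] at hD
  exact S36TH_abs q hq P m hm x y D G hqP hqR hT hS hSm hPm hgen hΦ hD hDm

/-- in a local ring: `G(x, y)` is a unit. -/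
theorem S36TH_unit {R : Type*} [CommRing R] [IsLocalRing R] (q : ℕ) (hq : q.Prime)
    (P : Ideal R) [P.IsPrime] (x y D : R) (G : MvPolynomial (Fin 2) ℤ)
    (hqP : (q : R) ∈ P) (hqR : ∀ z : R, (q : R) * z = 0 → z = 0)
    (hT : x ^ q - y ∈ P) (hS : x - y ^ q ∉ P)
    (hSm : x - y ^ q ∈ IsLocalRing.maximalIdeal R)
    (hgen : ∀ z ∈ IsLocalRing.maximalIdeal R, ∃ c : R, z - c * (x - y ^ q) ∈ P)
    (hΦ : S36TH_ev ![x, y] (S36TH_Phi q G) = 0)
    (hD : D * S36TH_ev ![x, y] (pderiv 0 (S36TH_Phi q G)) =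
      -(q : R) * S36TH_ev ![x, y] (pderiv 1 (S36TH_Phi q G)))
    (hDm : D ∈ IsLocalRing.maximalIdeal R) : IsUnit (S36TH_ev ![x, y] G) := by
  have h := S36TH_abs' q hq P (IsLocalRing.maximalIdeal R)
    (Ideal.IsPrime.ne_top (IsLocalRing.maximalIdeal.isMaximal R).isPrime) x y D G hqP hqR hT hS
    hSm (IsLocalRing.le_maximalIdeal (Ideal.IsPrime.ne_top inferInstance)) hgen hΦ hD hDm
  by_contra hu
  exact h ((IsLocalRing.mem_maximalIdeal _).mpr hu)

end Fermat.Agent.S36_helper18_THICK
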