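import Mathlib

/-!
# S36, GEO36 (d): factoriality of the local rings of the regular model (Mathlib only)

Carrier-free commutative algebra used at every closed point of the regular three-component
model (one-branch points and triple points alike):

* `S36FA_prime_principal` : `R` noetherian local, `t ∈ 𝔪`, `R ⧸ (t)` a principal ideal ring,
  `P` a prime ideal with `t ∉ P`; then `P` is principal (Nakayama);
* `S36FA_ufm` : if moreover `R` is a domain and `t` is a prime element, `R` is a unique
  factorisation domain (Krull's principal ideal theorem for the minimal primes over an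
  irreducible element);
* `S36FA_isPow` : in a unique factorisation domain an element all of whose prime multiplicities
  are divisible by `n` is a unit times an `n`-th power;
* `S36FA_order_eq` : an additive order function `v` on the fraction field which vanishes on the
  elements of `R` prime to `g` is `v g * multiplicity g` on `R`;
* `S36FA_shape_gcd`, `S36FA_shape` : the local shape `f = u * h ^ n` (`u` a unit of `R`) of an
  element of the fraction field whose orders at all prime elements of `R` are divisible by `n`.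
-/

set_option autoImplicit false
set_option linter.style.haveILetI false

namespace Fermat.Agent.S36_helper7_FACT

open Ideal

/-- **(FA1)** A prime ideal not containing `t` is principal as soon as `R ⧸ (t)` is a principal
ideal ring (`R` noetherian local, `t` in the maximal ideal). -/
theorem S36FA_prime_principal {R : Type*} [CommRing R] [IsNoetherianRing R] [IsLocalRing R]
    (t : R) (ht : t ∈ IsLocalRing.maximalIdeal R)
    (hpid : IsPrincipalIdealRing (R ⧸ Ideal.span {t}))
    (P : Ideal R) [hP : P.IsPrime] (htP : t ∉ P) : ∃ g ∈ P, P = Ideal.span {g} := by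
  obtain ⟨gb, hgb⟩ := (hpid.principal (P.map (Ideal.Quotient.mk (Ideal.span {t})))).principal
  have hgb' : P.map (Ideal.Quotient.mk (Ideal.span {t})) = Ideal.span {gb} := hgb
  have hmem : gb ∈ P.map (Ideal.Quotient.mk (Ideal.span {t})) := by
    rw [hgb']; exact Ideal.mem_span_singleton_self gb
  obtain ⟨g, hgP, rfl⟩ :=
    (Ideal.mem_map_iff_of_surjective _ Ideal.Quotient.mk_surjective).1 hmem
  refine ⟨g, hgP, le_antisymm ?_ ((Ideal.span_singleton_le_iff_mem _).2 hgP)⟩
  have hJ : Ideal.span {t} ≤ (⊥ : Ideal R).jacobson := by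
    rw [IsLocalRing.jacobson_eq_maximalIdeal ⊥ bot_ne_top]
    exact (Ideal.span_singleton_le_iff_mem _).2 ht
  refine Submodule.le_of_le_smul_of_le_jacobson_bot (IsNoetherian.noetherian P) hJ ?_
  intro x hx
  have hx' : Ideal.Quotient.mk (Ideal.span {t}) x ∈
      P.map (Ideal.Quotient.mk (Ideal.span {t})) := Ideal.mem_map_of_mem _ hx
  rw [hgb'] at hx'
  obtain ⟨ab, hab⟩ := Ideal.mem_span_singleton'.1 hx'
  obtain ⟨a, rfl⟩ := Ideal.Quotient.mk_surjective ab
  have hdiff : x - a * g ∈ Ideal.span {t} := by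
    rw [← Ideal.Quotient.eq, map_mul]; exact hab.symm
  obtain ⟨b, hb⟩ := Ideal.mem_span_singleton'.1 hdiff
  have hbP : b ∈ P := by
    have h1 : b * t ∈ P := by rw [hb]; exact P.sub_mem hx (P.mul_mem_left a hgP)
    exact (hP.mem_or_mem h1).resolve_right htP
  have hxeq : x = a * g + t • b := by
    rw [smul_eq_mul, mul_comm t b, hb]; ring
  rw [hxeq]
  refine Submodule.add_mem_sup ?_ ?_
  · exact Ideal.mem_span_singleton'.2 ⟨a, rfl⟩
  · exact Submodule.smul_mem_smul (Ideal.mem_span_singleton_self t) hbP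

/-- **(FA2)** A noetherian local domain with a prime element `t` in the maximal ideal such that
`R ⧸ (t)` is a principal ideal ring (e.g. a discrete valuation ring) is factorial. -/
theorem S36FA_ufm {R : Type*} [CommRing R] [IsDomain R] [IsNoetherianRing R] [IsLocalRing R]
    (t : R) (ht : t ∈ IsLocalRing.maximalIdeal R) (htp : Prime t)
    (hpid : IsPrincipalIdealRing (R ⧸ Ideal.span {t})) : UniqueFactorizationMonoid R := by
  haveI : WfDvdMonoid R := IsNoetherianRing.wfDvdMonoid
  refine ⟨fun {a} => ⟨fun ha => ?_, Prime.irreducible⟩⟩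
  have ha0 : a ≠ 0 := ha.ne_zero
  have hau : ¬ IsUnit a := ha.not_isUnit
  have hle : Ideal.span {a} ≤ IsLocalRing.maximalIdeal R := by
    rw [Ideal.span_singleton_le_iff_mem]; exact (IsLocalRing.mem_maximalIdeal a).2 hau
  obtain ⟨P, hPmin, -⟩ := Ideal.exists_minimalPrimes_le hle
  haveI hPprime : P.IsPrime := hPmin.1.1
  have haP : a ∈ P := hPmin.1.2 (Ideal.mem_span_singleton_self a)
  have hht : P.height ≤ 1 :=
    Ideal.height_le_one_of_isPrincipal_of_mem_minimalPrimes _ P hPmin
  obtain ⟨g, hg, hPg⟩ : ∃ g : R, Prime g ∧ P = Ideal.span {g} := by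
    by_cases htP : t ∈ P
    · refine ⟨t, htp, ?_⟩
      haveI : (Ideal.span {t}).IsPrime := (Ideal.span_singleton_prime htp.ne_zero).2 htp
      by_contra hne
      have hlt : Ideal.span {t} < P :=
        lt_of_le_of_ne ((Ideal.span_singleton_le_iff_mem _).2 htP) (Ne.symm hne)
      have h1 : (Ideal.span {t}).height + 1 ≤ P.height :=
        Ideal.height_add_one_le_of_lt_of_isPrime hlt
      have h2 : 1 ≤ (Ideal.span {t}).height :=
        Ideal.one_le_height_span_singleton_of_mem_nonZeroDivisors
          (mem_nonZeroDivisors_of_ne_zero htp.ne_zero)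
      have h3 : (1 : ℕ∞) + 1 ≤ 1 :=
        (add_le_add h2 le_rfl).trans (h1.trans hht)
      exact absurd h3 (by decide)
    · obtain ⟨g, hgP, hPg⟩ := S36FA_prime_principal t ht hpid P htP
      have hg0 : g ≠ 0 := by
        rintro rfl
        rw [hPg, Ideal.mem_span_singleton, zero_dvd_iff] at haP
        exact ha0 haP
      exact ⟨g, (Ideal.span_singleton_prime hg0).1 (hPg ▸ hPprime), hPg⟩
  have hga : g ∣ a := by rw [hPg] at haP; exact Ideal.mem_span_singleton.1 haP
  obtain ⟨c, rfl⟩ := hga
  rcases ha.isUnit_or_isUnit rfl with hgu | hcu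
  · exact absurd hgu hg.not_isUnit
  · obtain ⟨u, rfl⟩ := hcu
    exact (associated_mul_unit_right g (u : R) u.isUnit).prime hg

/-- **(FA3)** In a unique factorisation domain, a nonzero element all of whose prime
multiplicities are divisible by `n` is a unit times an `n`-th power. -/
theorem S36FA_isPow {R : Type*} [CommRing R] [IsDomain R] [UniqueFactorizationMonoid R]
    (n : ℕ) (a : R) (ha : a ≠ 0) (h : ∀ g : R, Prime g → n ∣ multiplicity g a) :
    ∃ (u : Rˣ) (c : R), a = u * c ^ n := by
  revert ha h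
  refine UniqueFactorizationMonoid.induction_on_coprime
    (P := fun a : R => a ≠ 0 → (∀ g : R, Prime g → n ∣ multiplicity g a) →
      ∃ (u : Rˣ) (c : R), a = u * c ^ n) a ?_ ?_ ?_ ?_
  · intro ha; exact absurd rfl ha
  · intro x hx _ _
    obtain ⟨u, rfl⟩ := hx
    exact ⟨u, 1, by simp⟩
  · intro p i hp _ h
    have h1 := h p hp
    rw [multiplicity_pow_self hp.ne_zero hp.not_isUnit] at h1
    obtain ⟨k, rfl⟩ := h1
    exact ⟨1, p ^ k, by rw [Units.val_one, one_mul, ← pow_mul, mul_comm]⟩
  · intro x y hxy hx hy hxy0 h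
    have hx0 : x ≠ 0 := left_ne_zero_of_mul hxy0
    have hy0 : y ≠ 0 := right_ne_zero_of_mul hxy0
    have key : ∀ g : R, Prime g → n ∣ multiplicity g x ∧ n ∣ multiplicity g y := by
      intro g hg
      have hfin : FiniteMultiplicity g (x * y) :=
        FiniteMultiplicity.of_prime_left hg hxy0
      have hm := multiplicity_mul hg hfin
      have h1 := h g hg
      rw [hm] at h1
      by_cases hgx : g ∣ x
      · have hgy : ¬ g ∣ y := fun hgy => hg.not_isUnit (hxy hgx hgy)
        have h0 : multiplicity g y = 0 := multiplicity_eq_zero.2 hgy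
        rw [h0, add_zero] at h1
        exact ⟨h1, h0 ▸ dvd_zero n⟩
      · have h0 : multiplicity g x = 0 := multiplicity_eq_zero.2 hgx
        rw [h0, zero_add] at h1
        exact ⟨h0 ▸ dvd_zero n, h1⟩
    obtain ⟨u, c, hc⟩ := hx hx0 (fun g hg => (key g hg).1)
    obtain ⟨v, d, hd⟩ := hy hy0 (fun g hg => (key g hg).2)
    refine ⟨u * v, c * d, ?_⟩
    conv_lhs => rw [hc, hd]
    push_cast
    ring

/-- An additive function on the nonzero elements of a field vanishes at `1` and is linear on
powers. -/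
theorem S36FA_order_pow {K : Type*} [Field K] (v : K → ℤ)
    (hmul : ∀ x y, x ≠ 0 → y ≠ 0 → v (x * y) = v x + v y) (x : K) (hx : x ≠ 0) (m : ℕ) :
    v (x ^ m) = (m : ℤ) * v x := by
  have h1 : v (1 : K) = 0 := by
    have := hmul 1 1 one_ne_zero one_ne_zero
    rw [mul_one] at this
    linarith
  induction m with
  | zero => simp [h1]
  | succ k ih =>
    rw [pow_succ, hmul _ _ (pow_ne_zero k hx) hx, ih]
    push_cast
    ring

/-- **(FA4a)** An additive order function `v` on the fraction field which vanishes on the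
elements of `R` prime to the prime element `g` equals `v g * multiplicity g` on `R`. -/
theorem S36FA_order_eq {R K : Type*} [CommRing R] [IsDomain R] [UniqueFactorizationMonoid R]
    [Field K] [Algebra R K] [IsFractionRing R K] (g : R) (hg : Prime g) (v : K → ℤ)
    (hmul : ∀ x y, x ≠ 0 → y ≠ 0 → v (x * y) = v x + v y)
    (hunit : ∀ r : R, r ≠ 0 → ¬ g ∣ r → v (algebraMap R K r) = 0)
    (r : R) (hr : r ≠ 0) :
    v (algebraMap R K r) = v (algebraMap R K g) * (multiplicity g r : ℤ) := by
  have hinj : Function.Injective (algebraMap R K) := IsFractionRing.injective R K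
  have hne : ∀ x : R, x ≠ 0 → algebraMap R K x ≠ 0 := fun x hx =>
    (map_ne_zero_iff _ hinj).2 hx
  have hfin : FiniteMultiplicity g r := FiniteMultiplicity.of_prime_left hg hr
  obtain ⟨c, hc, hgc⟩ := hfin.exists_eq_pow_mul_and_not_dvd
  have hc0 : c ≠ 0 := by
    rintro rfl
    exact hgc (dvd_zero g)
  have hgm : g ^ multiplicity g r ≠ 0 := pow_ne_zero _ hg.ne_zero
  conv_lhs => rw [hc]
  rw [map_mul, map_pow, hmul _ _ (pow_ne_zero _ (hne g hg.ne_zero)) (hne c hc0),
    S36FA_order_pow v hmul _ (hne g hg.ne_zero), hunit c hc0 hgc, add_zero, mul_comm]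

/-- **(FA4), coprime form.** Let `R` be a unique factorisation domain with fraction field `K`
and `f ∈ Kˣ`. Suppose that for every prime element `g` of `R` there is an additive order
function `v` on `K`, vanishing on the elements of `R` prime to `g`, with `v g` prime to `n`
and `n ∣ v f`. Then `f = u * h ^ n` with `u` a unit of `R`. -/
theorem S36FA_shape_gcd {R K : Type*} [CommRing R] [IsDomain R] [UniqueFactorizationMonoid R]
    [Field K] [Algebra R K] [IsFractionRing R K] (n : ℕ) (hn : n ≠ 0) (f : K) (hf : f ≠ 0)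
    (h : ∀ g : R, Prime g → ∃ v : K → ℤ,
      (∀ x y, x ≠ 0 → y ≠ 0 → v (x * y) = v x + v y) ∧
      (∀ r : R, r ≠ 0 → ¬ g ∣ r → v (algebraMap R K r) = 0) ∧
      IsCoprime (v (algebraMap R K g)) (n : ℤ) ∧ (n : ℤ) ∣ v f) :
    ∃ (u : Rˣ) (h : K), h ≠ 0 ∧ f = algebraMap R K (u : R) * h ^ n := by
  have hinj : Function.Injective (algebraMap R K) := IsFractionRing.injective R K
  have hne : ∀ x : R, x ≠ 0 → algebraMap R K x ≠ 0 := fun x hx =>
    (map_ne_zero_iff _ hinj).2 hx
  obtain ⟨a, b, hb, hab⟩ := IsFractionRing.div_surjective (A := R) f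
  have hb0 : b ≠ 0 := nonZeroDivisors.ne_zero hb
  have hbK : algebraMap R K b ≠ 0 := hne b hb0
  have ha0 : a ≠ 0 := by
    rintro rfl
    rw [map_zero, zero_div] at hab
    exact hf hab.symm
  have haK : algebraMap R K a ≠ 0 := hne a ha0
  have hfb : f * algebraMap R K b = algebraMap R K a := by
    rw [← hab, div_mul_cancel₀ _ hbK]
  obtain ⟨k, rfl⟩ : ∃ k, n = k + 1 := ⟨n - 1, by omega⟩
  have hA0 : a * b ^ k ≠ 0 := mul_ne_zero ha0 (pow_ne_zero k hb0)
  have hdiv : ∀ g : R, Prime g → (k + 1) ∣ multiplicity g (a * b ^ k) := by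
    intro g hg
    obtain ⟨v, hmul, hunit, hcop, hvf⟩ := h g hg
    have e1 := S36FA_order_eq g hg v hmul hunit (a * b ^ k) hA0
    have e2 : v (algebraMap R K (a * b ^ k)) =
        v f + ((k + 1 : ℕ) : ℤ) * v (algebraMap R K b) := by
      have e3 : v (algebraMap R K a) = v f + v (algebraMap R K b) := by
        rw [← hfb, hmul _ _ hf hbK]
      rw [map_mul, map_pow, hmul _ _ haK (pow_ne_zero k hbK),
        S36FA_order_pow v hmul _ hbK, e3]
      push_cast
      ring
    have e4 : ((k + 1 : ℕ) : ℤ) ∣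
        v (algebraMap R K g) * (multiplicity g (a * b ^ k) : ℤ) := by
      rw [← e1, e2]
      exact dvd_add hvf (dvd_mul_right _ _)
    have e5 : ((k + 1 : ℕ) : ℤ) ∣ (multiplicity g (a * b ^ k) : ℤ) :=
      hcop.symm.dvd_of_dvd_mul_left e4
    exact Int.natCast_dvd_natCast.1 e5
  obtain ⟨u, c, hc⟩ := S36FA_isPow (k + 1) (a * b ^ k) hA0 hdiv
  have hc0 : c ≠ 0 := by
    rintro rfl
    rw [zero_pow (Nat.succ_ne_zero k), mul_zero] at hc
    exact hA0 hc
  refine ⟨u, algebraMap R K c / algebraMap R K b, div_ne_zero (hne c hc0) hbK, ?_⟩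
  have hcK : algebraMap R K (a * b ^ k) =
      algebraMap R K (u : R) * algebraMap R K c ^ (k + 1) := by
    rw [hc, map_mul, map_pow]
  rw [map_mul, map_pow] at hcK
  rw [div_pow, ← mul_div_assoc, ← hcK, ← hab, pow_succ]
  field_simp

/-- **(FA4)** The same with `v g = 1` (the order function of the discrete valuation ring
`R_(g)`). -/
theorem S36FA_shape {R K : Type*} [CommRing R] [IsDomain R] [UniqueFactorizationMonoid R]
    [Field K] [Algebra R K] [IsFractionRing R K] (n : ℕ) (hn : n ≠ 0) (f : K) (hf : f ≠ 0)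
    (h : ∀ g : R, Prime g → ∃ v : K → ℤ,
      (∀ x y, x ≠ 0 → y ≠ 0 → v (x * y) = v x + v y) ∧
      (∀ r : R, r ≠ 0 → ¬ g ∣ r → v (algebraMap R K r) = 0) ∧
      v (algebraMap R K g) = 1 ∧ (n : ℤ) ∣ v f) :
    ∃ (u : Rˣ) (h : K), h ≠ 0 ∧ f = algebraMap R K (u : R) * h ^ n := by
  refine S36FA_shape_gcd n hn f hf (fun g hg => ?_)
  obtain ⟨v, hmul, hunit, hv1, hvf⟩ := h g hg
  exact ⟨v, hmul, hunit, hv1 ▸ isCoprime_one_left, hvf⟩

/-- **(FA5)** Assembly: the local shape at a closed point of a regular model. `R` noetherian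
local domain, `t` a prime element of the maximal ideal with `R ⧸ (t)` a principal ideal ring,
`f` in the fraction field with all prime orders divisible by `n`. -/
theorem S36FA_main {R K : Type*} [CommRing R] [IsDomain R] [IsNoetherianRing R] [IsLocalRing R]
    [Field K] [Algebra R K] [IsFractionRing R K]
    (t : R) (ht : t ∈ IsLocalRing.maximalIdeal R) (htp : Prime t)
    (hpid : IsPrincipalIdealRing (R ⧸ Ideal.span {t}))
    (n : ℕ) (hn : n ≠ 0) (f : K) (hf : f ≠ 0)
    (h : ∀ g : R, Prime g → ∃ v : K → ℤ,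
      (∀ x y, x ≠ 0 → y ≠ 0 → v (x * y) = v x + v y) ∧
      (∀ r : R, r ≠ 0 → ¬ g ∣ r → v (algebraMap R K r) = 0) ∧
      IsCoprime (v (algebraMap R K g)) (n : ℤ) ∧ (n : ℤ) ∣ v f) :
    ∃ (u : Rˣ) (h : K), h ≠ 0 ∧ f = algebraMap R K (u : R) * h ^ n :=
  haveI := S36FA_ufm t ht htp hpid
  S36FA_shape_gcd n hn f hf h

end Fermat.Agent.S36_helper7_FACT
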