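import Mathlib
import Fermat.Agent.S18_helper3_LOCRING
import Fermat.Agent.S36_helper17_TRIPLE
import Fermat.Agent.S36_helper7_FACT
import Fermat.Agent.S36_helper18_THICK
import Fermat.Agent.S34_helper27_C2Defs
import Fermat.Agent.S34_helper14_N1

/-!
# S36, GEO36 (d): the regular triple point, subring form (helper17)

Setting: `L` a field, `A' ≤ A` subrings (`A'` = the chart of level `q M'`, `A` = the chart of
level `q² M'`), `x, y ∈ A'` (`x = h`, `y = h_q`), `z ∈ A` (`z = h_qq`), `m` a maximal ideal of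
`A` (a supersingular point), `m' = m ∩ A'` (a node of level `q M'`).  Input:

* THICK at `m'`: locally at `m'`, `m'` is generated by `π, T1, S1` and `T1 S1 = π · unit`
  (`T1 = x ^ q - y`, `S1 = x - y ^ q`);
* the Kronecker relation `T1 + T2 δ_q(x, z) + q G' = 0` (`T2 = z - y ^ q`) in `A'[z]`;
* `A` is integral over `A'[z]` and contained in its fraction field;
* one branch: a prime ideal of `A'[z]` inside `m` containing `S1` but not `T2`.

Output: the local ring `locRing A m` equals `locRing A'[z] (m ∩ A'[z])`, its maximal ideal is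
generated by `S1, T2`, `π · unit = S1 T2 (T2 - S1) ^ (q - 1)`, it is a unique factorisation
domain, and `S1` is a prime element.
-/

set_option autoImplicit false
set_option linter.unusedSectionVars false
set_option linter.unusedVariables false
set_option linter.style.haveILetI false

open IsLocalRing

namespace Fermat.Agent.S36_helper17_TRIPLEX

open Fermat.Agent.S18_helper3_LOCRING Fermat.Agent.S36_helper17_TRIPLE
  Fermat.Agent.S36_helper7_FACT Fermat.Agent.S36_helper18_THICK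
  Fermat.Agent.S34_helper27_C2Defs Fermat.Agent.S34_helper14_N1

variable {L : Type*} [Field L]

section Adjoin

variable (A' : Subring L) (z : L)

/-- `A'[z]` inside `L`. -/
def S36TX_adj : Subring L := Subring.closure ((A' : Set L) ∪ {z})

theorem S36TX_le_adj : A' ≤ S36TX_adj A' z := fun _ ha =>
  Subring.subset_closure (Or.inl ha)

theorem S36TX_z_mem : z ∈ S36TX_adj A' z :=
  Subring.subset_closure (Or.inr rfl)

theorem S36TX_adj_le {B : Subring L} (h : A' ≤ B) (hz : z ∈ B) : S36TX_adj A' z ≤ B := by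
  unfold S36TX_adj
  rw [Subring.closure_le]
  rintro a (ha | ha)
  · exact h ha
  · rw [Set.mem_singleton_iff] at ha
    rw [ha]; exact hz

/-- Every element of `A'[z]` is congruent to an element of `A'` modulo `z - c`, `c ∈ A'`. -/
theorem S36TX_adj_decomp {c : L} (hc : c ∈ A') {f : L} (hf : f ∈ S36TX_adj A' z) :
    ∃ a ∈ A', ∃ g ∈ S36TX_adj A' z, f = a + (z - c) * g := by
  unfold S36TX_adj at hf
  induction hf using Subring.closure_induction with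
  | mem f hf =>
    rcases hf with hf | hf
    · exact ⟨f, hf, 0, Subring.zero_mem _, by ring⟩
    · rw [Set.mem_singleton_iff] at hf
      exact ⟨c, hc, 1, Subring.one_mem _, by rw [hf]; ring⟩
  | zero => exact ⟨0, Subring.zero_mem _, 0, Subring.zero_mem _, by ring⟩
  | one => exact ⟨1, Subring.one_mem _, 0, Subring.zero_mem _, by ring⟩
  | add f g hf hg ihf ihg =>
    obtain ⟨a, ha, u, hu, rfl⟩ := ihf
    obtain ⟨b, hb, v, hv, rfl⟩ := ihg
    exact ⟨a + b, Subring.add_mem _ ha hb, u + v, Subring.add_mem _ hu hv, by ring⟩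
  | neg f hf ihf =>
    obtain ⟨a, ha, u, hu, rfl⟩ := ihf
    exact ⟨-a, Subring.neg_mem _ ha, -u, Subring.neg_mem _ hu, by ring⟩
  | mul f g hf hg ihf ihg =>
    obtain ⟨a, ha, u, hu, rfl⟩ := ihf
    obtain ⟨b, hb, v, hv, rfl⟩ := ihg
    refine ⟨a * b, Subring.mul_mem _ ha hb, a * v + b * u + (z - c) * (u * v), ?_, by ring⟩
    have hz : z - c ∈ S36TX_adj A' z :=
      Subring.sub_mem _ (S36TX_z_mem A' z) (S36TX_le_adj A' z hc)
    exact Subring.add_mem _ (Subring.add_mem _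
      (Subring.mul_mem _ (S36TX_le_adj A' z ha) hv)
      (Subring.mul_mem _ (S36TX_le_adj A' z hb) hu))
      (Subring.mul_mem _ hz (Subring.mul_mem _ hu hv))

/-- `A'[z]` is noetherian if `A'` is. -/
theorem S36TX_isNoetherianRing_adj [IsNoetherianRing A'] :
    IsNoetherianRing (S36TX_adj A' z) := by
  have h1 : (Algebra.adjoin A' ({z} : Set L)).toSubring = S36TX_adj A' z := by
    rw [Algebra.adjoin_eq_ring_closure]
    unfold S36TX_adj
    congr 2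
    ext a
    constructor
    · rintro ⟨b, rfl⟩
      exact b.2
    · intro h
      exact ⟨⟨a, h⟩, rfl⟩
  have h2 : IsNoetherianRing (Algebra.adjoin A' ({z} : Set L)) :=
    isNoetherianRing_of_fg (Subalgebra.fg_def.2 ⟨{z}, Set.finite_singleton z, rfl⟩)
  have h3 : IsNoetherianRing (Algebra.adjoin A' ({z} : Set L)).toSubring := h2
  rw [h1] at h3
  exact h3

/-- the inclusion `A' → A'[z]` -/
def S36TX_ι : A' →+* S36TX_adj A' z := Subring.inclusion (S36TX_le_adj A' z)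

/-- the element `z` of `A'[z]` -/
def S36TX_Z : S36TX_adj A' z := ⟨z, S36TX_z_mem A' z⟩

theorem S36TX_ι_coe (a : A') : ((S36TX_ι A' z a : S36TX_adj A' z) : L) = a := rfl

theorem S36TX_Z_coe : ((S36TX_Z A' z : S36TX_adj A' z) : L) = z := rfl

end Adjoin

section UnitGeneric

/-- units of a subring of a field -/
theorem S36TX_isUnit_iff (R : Subring L) (r : R) :
    IsUnit r ↔ (r : L) ≠ 0 ∧ ((r : L))⁻¹ ∈ R := by
  constructor
  · rintro ⟨u, rfl⟩
    have h1 : ((u : R) : L) * (((u⁻¹ : Rˣ) : R) : L) = 1 :=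
      congrArg Subtype.val (Units.mul_inv u)
    refine ⟨left_ne_zero_of_mul_eq_one h1, ?_⟩
    rw [← eq_inv_of_mul_eq_one_right h1]
    exact Subtype.mem _
  · rintro ⟨h0, hinv⟩
    exact IsUnit.of_mul_eq_one ⟨((r : L))⁻¹, hinv⟩ (Subtype.ext (mul_inv_cancel₀ h0))

end UnitGeneric

section LocGeneric

variable (A : Subring L) (m : Ideal A) [hm : m.IsPrime]

/-- An element of `A` outside `m` is a unit of the local ring. -/
theorem S36TX_isUnit_incl {s : A} (hs : s ∉ m) : IsUnit (incl A m s) := by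
  refine IsUnit.of_mul_eq_one (⟨((s : L))⁻¹, inv_mem_locRing A m hs⟩ : locRing A m) ?_
  apply Subtype.ext
  show (s : L) * ((s : L))⁻¹ = 1
  exact mul_inv_cancel₀ (coe_ne_zero_of_notMem A m hs)

/-- the inverse of an element outside `m`, in the local ring -/
def S36TX_inv {s : A} (hs : s ∉ m) : locRing A m := ⟨((s : L))⁻¹, inv_mem_locRing A m hs⟩

theorem S36TX_inv_coe {s : A} (hs : s ∉ m) : ((S36TX_inv A m hs : locRing A m) : L) = (s : L)⁻¹ :=
  rfl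

end LocGeneric

section Gen

variable (A' : Subring L) (z : L) (𝔪0 : Ideal (S36TX_adj A' z)) [h𝔪0 : 𝔪0.IsPrime]

/-- the map `A' → locRing A'[z] 𝔪0` -/
def S36TX_κ : A' →+* locRing (S36TX_adj A' z) 𝔪0 :=
  (incl (S36TX_adj A' z) 𝔪0).comp (S36TX_ι A' z)

theorem S36TX_κ_coe (a : A') : ((S36TX_κ A' z 𝔪0 a : locRing (S36TX_adj A' z) 𝔪0) : L) = a := rfl

/-- the element `z` of the local ring -/
def S36TX_ζ : locRing (S36TX_adj A' z) 𝔪0 := incl (S36TX_adj A' z) 𝔪0 (S36TX_Z A' z)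

theorem S36TX_ζ_coe : ((S36TX_ζ A' z 𝔪0 : locRing (S36TX_adj A' z) 𝔪0) : L) = z := rfl

/-- **Generation.**  If the prime `𝔪0 ∩ A'` is generated, locally, by `π, S1, T1`, and
`z - c ∈ 𝔪0` (`c ∈ A'`), then the maximal ideal of the local ring of `A'[z]` at `𝔪0` is generated
by `π, S1, T1, z - c`. -/
theorem S36TX_gen (π S1 T1 c : A')
    (hπm : S36TX_ι A' z π ∈ 𝔪0) (hS1m : S36TX_ι A' z S1 ∈ 𝔪0) (hT1m : S36TX_ι A' z T1 ∈ 𝔪0)
    (hT2m : S36TX_Z A' z - S36TX_ι A' z c ∈ 𝔪0)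
    (hgen' : ∀ a : A', S36TX_ι A' z a ∈ 𝔪0 → ∃ s α β γ : A', S36TX_ι A' z s ∉ 𝔪0 ∧
      s * a = α * π + β * T1 + γ * S1) :
    maximalIdeal (locRing (S36TX_adj A' z) 𝔪0) =
      Ideal.span ({S36TX_κ A' z 𝔪0 π, S36TX_κ A' z 𝔪0 S1, S36TX_κ A' z 𝔪0 T1,
        S36TX_ζ A' z 𝔪0 - S36TX_κ A' z 𝔪0 c} : Set (locRing (S36TX_adj A' z) 𝔪0)) := by
  apply le_antisymm
  · intro r hr
    obtain ⟨a, d, ha, hd, had⟩ := (mem_maximalIdeal_iff _ 𝔪0 r).1 hr
    obtain ⟨a', ha', g, hg, hag⟩ := S36TX_adj_decomp A' z c.2 a.2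
    have ha'm : S36TX_ι A' z ⟨a', ha'⟩ ∈ 𝔪0 := by
      have h1 : S36TX_ι A' z ⟨a', ha'⟩ =
          a - (S36TX_Z A' z - S36TX_ι A' z c) * ⟨g, hg⟩ := by
        apply Subtype.ext
        show a' = (a : L) - (z - (c : L)) * g
        rw [hag]; ring
      rw [h1]
      exact Ideal.sub_mem _ ha (Ideal.mul_mem_right _ _ hT2m)
    obtain ⟨s, α, β, γ, hs, hsa⟩ := hgen' _ ha'm
    have hsa' : (s : L) * a' = (α : L) * (π : L) + (β : L) * (T1 : L) + (γ : L) * (S1 : L) := by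
      have := congrArg (fun t : A' => (t : L)) hsa
      simpa using this
    have hd0 : (d : L) ≠ 0 := coe_ne_zero_of_notMem _ 𝔪0 hd
    have hs0 : (s : L) ≠ 0 := coe_ne_zero_of_notMem _ 𝔪0 hs
    have hr : r = S36TX_inv _ 𝔪0 hd * S36TX_inv _ 𝔪0 hs * S36TX_κ A' z 𝔪0 α * S36TX_κ A' z 𝔪0 π
        + S36TX_inv _ 𝔪0 hd * S36TX_inv _ 𝔪0 hs * S36TX_κ A' z 𝔪0 γ * S36TX_κ A' z 𝔪0 S1
        + S36TX_inv _ 𝔪0 hd * S36TX_inv _ 𝔪0 hs * S36TX_κ A' z 𝔪0 β * S36TX_κ A' z 𝔪0 T1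
        + S36TX_inv _ 𝔪0 hd * incl _ 𝔪0 ⟨g, hg⟩ * (S36TX_ζ A' z 𝔪0 - S36TX_κ A' z 𝔪0 c) := by
      apply Subtype.ext
      show (r : L) = ((d : L))⁻¹ * (S36TX_ι A' z s : L)⁻¹ * (α : L) * (π : L)
        + ((d : L))⁻¹ * (S36TX_ι A' z s : L)⁻¹ * (γ : L) * (S1 : L)
        + ((d : L))⁻¹ * (S36TX_ι A' z s : L)⁻¹ * (β : L) * (T1 : L)
        + ((d : L))⁻¹ * g * (z - (c : L))
      have hr' : (r : L) = (a : L) * ((d : L))⁻¹ := by
        rw [← had, mul_assoc, mul_inv_cancel₀ hd0, mul_one]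
      rw [hr', hag]
      show (a' + (z - (c : L)) * g) * ((d : L))⁻¹ = ((d : L))⁻¹ * ((s : L))⁻¹ * (α : L) * (π : L)
        + ((d : L))⁻¹ * ((s : L))⁻¹ * (γ : L) * (S1 : L)
        + ((d : L))⁻¹ * ((s : L))⁻¹ * (β : L) * (T1 : L)
        + ((d : L))⁻¹ * g * (z - (c : L))
      have ha'' : a' = ((s : L))⁻¹ * ((α : L) * (π : L) + (β : L) * (T1 : L) + (γ : L) * (S1 : L)) := by
        rw [← hsa', ← mul_assoc, inv_mul_cancel₀ hs0, one_mul]
      rw [ha'']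
      ring
    rw [hr]
    have hsub : ∀ t ∈ ({S36TX_κ A' z 𝔪0 π, S36TX_κ A' z 𝔪0 S1, S36TX_κ A' z 𝔪0 T1,
        S36TX_ζ A' z 𝔪0 - S36TX_κ A' z 𝔪0 c} : Set (locRing (S36TX_adj A' z) 𝔪0)),
        t ∈ Ideal.span ({S36TX_κ A' z 𝔪0 π, S36TX_κ A' z 𝔪0 S1, S36TX_κ A' z 𝔪0 T1,
        S36TX_ζ A' z 𝔪0 - S36TX_κ A' z 𝔪0 c} : Set (locRing (S36TX_adj A' z) 𝔪0)) :=
      fun t ht => Ideal.subset_span ht
    refine Ideal.add_mem _ (Ideal.add_mem _ (Ideal.add_mem _ ?_ ?_) ?_) ?_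
    · exact Ideal.mul_mem_left _ _ (hsub _ (by simp))
    · exact Ideal.mul_mem_left _ _ (hsub _ (by simp))
    · exact Ideal.mul_mem_left _ _ (hsub _ (by simp))
    · exact Ideal.mul_mem_left _ _ (hsub _ (by simp))
  · rw [Ideal.span_le]
    rintro t (rfl | rfl | rfl | rfl)
    · exact incl_mem_maximalIdeal _ 𝔪0 hπm
    · exact incl_mem_maximalIdeal _ 𝔪0 hS1m
    · exact incl_mem_maximalIdeal _ 𝔪0 hT1m
    · have := incl_mem_maximalIdeal _ 𝔪0 hT2m
      rw [map_sub] at this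
      exact this

end Gen

section Triple0

variable (q : ℕ) [hq : Fact q.Prime] (A' : Subring L) (z : L)
  (𝔪0 : Ideal (S36TX_adj A' z)) [h𝔪0 : 𝔪0.IsPrime]

/-- `T2 = z - y ^ q` lies in `𝔪0`: consequence of the Kronecker relation. -/
theorem S36TX_T2_mem (π w x y : A') (hqπ : (q : A') = π * w)
    (hπm : S36TX_ι A' z π ∈ 𝔪0) (hS1m : S36TX_ι A' z (x - y ^ q) ∈ 𝔪0)
    (hT1m : S36TX_ι A' z (x ^ q - y) ∈ 𝔪0)
    (G' : S36TX_adj A' z)
    (hΨ : S36TX_ι A' z (x ^ q - y) + (S36TX_Z A' z - S36TX_ι A' z (y ^ q)) *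
      S36TP_delta q (S36TX_ι A' z x) (S36TX_Z A' z) + (q : S36TX_adj A' z) * G' = 0) :
    S36TX_Z A' z - S36TX_ι A' z (y ^ q) ∈ 𝔪0 := by
  have hqm : (q : S36TX_adj A' z) ∈ 𝔪0 := by
    have h1 : (q : S36TX_adj A' z) = S36TX_ι A' z π * S36TX_ι A' z w := by
      rw [← map_mul, ← hqπ, map_natCast]
    rw [h1]
    exact Ideal.mul_mem_right _ _ hπm
  have hprod : (S36TX_Z A' z - S36TX_ι A' z (y ^ q)) *
      S36TP_delta q (S36TX_ι A' z x) (S36TX_Z A' z) ∈ 𝔪0 := by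
    have h1 : (S36TX_Z A' z - S36TX_ι A' z (y ^ q)) *
        S36TP_delta q (S36TX_ι A' z x) (S36TX_Z A' z) =
        -(S36TX_ι A' z (x ^ q - y)) - (q : S36TX_adj A' z) * G' := by
      linear_combination hΨ
    rw [h1]
    exact Ideal.sub_mem _ (neg_mem hT1m) (Ideal.mul_mem_right _ _ hqm)
  rcases h𝔪0.mem_or_mem hprod with h | h
  · exact h
  · obtain ⟨H, hH⟩ := S36TP_delta_congr q (S36TX_ι A' z x) (S36TX_Z A' z)
    have hpow : (S36TX_Z A' z - S36TX_ι A' z x) ^ (q - 1) ∈ 𝔪0 := by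
      have h1 : (S36TX_Z A' z - S36TX_ι A' z x) ^ (q - 1) =
          S36TP_delta q (S36TX_ι A' z x) (S36TX_Z A' z) - (q : S36TX_adj A' z) * H := by
        rw [hH]; ring
      rw [h1]
      exact Ideal.sub_mem _ h (Ideal.mul_mem_right _ _ hqm)
    have hW : S36TX_Z A' z - S36TX_ι A' z x ∈ 𝔪0 := h𝔪0.mem_of_pow_mem _ hpow
    have h2 : S36TX_Z A' z - S36TX_ι A' z (y ^ q) =
        (S36TX_Z A' z - S36TX_ι A' z x) + S36TX_ι A' z (x - y ^ q) := by
      rw [map_sub]; ring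
    rw [h2]
    exact Ideal.add_mem _ hW hS1m

/-- **The regular triple point in `A'[z]`.**  THICK at `𝔪0 ∩ A'` (generation by `π, T1, S1`
and `T1 S1 = π · unit`) and the Kronecker relation give: the maximal ideal of the local ring of
`A'[z]` at `𝔪0` is generated by `S1 = x - y ^ q` and `T2 = z - y ^ q`,
`π · unit = S1 T2 (T2 - S1) ^ (q - 1)` and `T1 = unit · T2 (T2 - S1) ^ (q - 1)`. -/
theorem S36TX_triple0 (π w x y : A') (hqπ : (q : A') = π * w)
    (hπm : S36TX_ι A' z π ∈ 𝔪0) (hS1m : S36TX_ι A' z (x - y ^ q) ∈ 𝔪0)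
    (hT1m : S36TX_ι A' z (x ^ q - y) ∈ 𝔪0)
    (hgen' : ∀ a : A', S36TX_ι A' z a ∈ 𝔪0 → ∃ s α β γ : A', S36TX_ι A' z s ∉ 𝔪0 ∧
      s * a = α * π + β * (x ^ q - y) + γ * (x - y ^ q))
    (hnode : ∃ u c : A', S36TX_ι A' z u ∉ 𝔪0 ∧ S36TX_ι A' z c ∉ 𝔪0 ∧
      c * ((x ^ q - y) * (x - y ^ q)) = π * u)
    (G' : S36TX_adj A' z)
    (hΨ : S36TX_ι A' z (x ^ q - y) + (S36TX_Z A' z - S36TX_ι A' z (y ^ q)) *
      S36TP_delta q (S36TX_ι A' z x) (S36TX_Z A' z) + (q : S36TX_adj A' z) * G' = 0) :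
    maximalIdeal (locRing (S36TX_adj A' z) 𝔪0) =
        Ideal.span ({S36TX_κ A' z 𝔪0 (x - y ^ q),
          S36TX_ζ A' z 𝔪0 - S36TX_κ A' z 𝔪0 (y ^ q)} :
            Set (locRing (S36TX_adj A' z) 𝔪0)) ∧
      (∃ v : locRing (S36TX_adj A' z) 𝔪0, IsUnit v ∧
        S36TX_κ A' z 𝔪0 π * v = S36TX_κ A' z 𝔪0 (x - y ^ q) *
          (S36TX_ζ A' z 𝔪0 - S36TX_κ A' z 𝔪0 (y ^ q)) *
          ((S36TX_ζ A' z 𝔪0 - S36TX_κ A' z 𝔪0 (y ^ q)) -
            S36TX_κ A' z 𝔪0 (x - y ^ q)) ^ (q - 1)) ∧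
      ∃ v : locRing (S36TX_adj A' z) 𝔪0, IsUnit v ∧
        S36TX_κ A' z 𝔪0 (x ^ q - y) = v * ((S36TX_ζ A' z 𝔪0 - S36TX_κ A' z 𝔪0 (y ^ q)) *
          ((S36TX_ζ A' z 𝔪0 - S36TX_κ A' z 𝔪0 (y ^ q)) -
            S36TX_κ A' z 𝔪0 (x - y ^ q)) ^ (q - 1)) := by
  have hT2m := S36TX_T2_mem q A' z 𝔪0 π w x y hqπ hπm hS1m hT1m G' hΨ
  have hgen := S36TX_gen A' z 𝔪0 π (x - y ^ q) (x ^ q - y) (y ^ q) hπm hS1m hT1m hT2m hgen'
  obtain ⟨u, c, hu, hc, hnode⟩ := hnode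
  have hc0 : (c : L) ≠ 0 := coe_ne_zero_of_notMem _ 𝔪0 hc
  have hnode' : (c : L) * (((x : L) ^ q - (y : L)) * ((x : L) - (y : L) ^ q)) = (π : L) * u := by
    have := congrArg (fun t : A' => (t : L)) hnode
    simpa using this
  refine S36TP_main q (w := S36TX_κ A' z 𝔪0 w) (x := S36TX_κ A' z 𝔪0 x) (z := S36TX_ζ A' z 𝔪0)
    (u := S36TX_κ A' z 𝔪0 u * S36TX_inv _ 𝔪0 hc) (G' := incl _ 𝔪0 G') hgen ?_ ?_ ?_ ?_ ?_
  · rw [← map_mul, ← hqπ, map_natCast]
  · rw [map_sub]; ring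
  · apply Subtype.ext
    show ((x : L) ^ q - (y : L)) * ((x : L) - (y : L) ^ q) = (π : L) * ((u : L) * ((c : L))⁻¹)
    rw [← mul_assoc, ← hnode']
    field_simp
  · exact (S36TX_isUnit_incl _ 𝔪0 hu).mul
      (IsUnit.of_mul_eq_one (incl _ 𝔪0 (S36TX_ι A' z c)) (by
        apply Subtype.ext
        show ((c : L))⁻¹ * (c : L) = 1
        exact inv_mul_cancel₀ hc0))
  · have h := congrArg (incl (S36TX_adj A' z) 𝔪0) hΨ
    rw [map_add, map_add, map_mul, map_mul, map_sub, S36TP_delta_map, map_natCast, map_zero] at h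
    exact h

end Triple0

section Kron

variable {R : Type*} [CommRing R]

/-- the divided difference of `G(y, ·)` between `z` and `x` -/
theorem S36TX_divdiff (G : MvPolynomial (Fin 2) ℤ) (x y z : R) :
    ∃ D : R, S36TH_ev ![y, z] G - S36TH_ev ![y, x] G = (z - x) * D := by
  induction G using MvPolynomial.induction_on with
  | C a => exact ⟨0, by rw [S36TH_ev_C, S36TH_ev_C]; ring⟩
  | add p r hp hr =>
    obtain ⟨D1, h1⟩ := hp
    obtain ⟨D2, h2⟩ := hr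
    refine ⟨D1 + D2, ?_⟩
    rw [map_add, map_add]
    linear_combination h1 + h2
  | mul_X p i hp =>
    obtain ⟨D, hD⟩ := hp
    rw [map_mul, map_mul, S36TH_ev_X, S36TH_ev_X]
    fin_cases i
    · refine ⟨D * y, ?_⟩
      show S36TH_ev ![y, z] p * y - S36TH_ev ![y, x] p * y = (z - x) * (D * y)
      linear_combination y * hD
    · refine ⟨D * z + S36TH_ev ![y, x] p, ?_⟩
      show S36TH_ev ![y, z] p * z - S36TH_ev ![y, x] p * x =
        (z - x) * (D * z + S36TH_ev ![y, x] p)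
      linear_combination z * hD

/-- **The Kronecker relation of the triple point** from the modular equation
`Φ = (X ^ q - Y)(X - Y ^ q) + q G`, `Φ(y, z) = 0 = Φ(y, x)`:
`T1 + T2 δ_q(x, z) + q G' = 0`. -/
theorem S36TX_hΨ (q : ℕ) (G : MvPolynomial (Fin 2) ℤ) (x y z : R)
    (hzx : ∀ r : R, (z - x) * r = 0 → r = 0)
    (hyz : S36TH_ev ![y, z] (S36TH_Phi q G) = 0)
    (hyx : S36TH_ev ![y, x] (S36TH_Phi q G) = 0) :
    ∃ G' : R, (x ^ q - y) + (z - y ^ q) * S36TP_delta q x z + (q : R) * G' = 0 := by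
  obtain ⟨D, hD⟩ := S36TX_divdiff G x y z
  rw [S36TH_Phi_ev] at hyz hyx
  have hδ := S36TP_delta_mul q x z
  refine ⟨D, hzx _ ?_⟩
  linear_combination hyz - hyx - (q : R) * hD + (z - y ^ q) * hδ

end Kron

section Centre

variable {π : L} {F1 : Subfield L} {V : Subring L}

/-- **The centre** of the valuation ring `V` on a subring `X ≤ V`: the elements of `X` which are
not units of `V`. -/
def S36TX_centre (H : S34C2_Val π F1 V) (X : Subring L) (hXV : X ≤ V) : Ideal X where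
  carrier := {a | (a : L) = 0 ∨ ((a : L))⁻¹ ∉ V}
  zero_mem' := Or.inl rfl
  add_mem' := by
    rintro a b ha hb
    by_cases hab : ((a + b : X) : L) = 0
    · exact Or.inl hab
    refine Or.inr fun hinv => ?_
    rcases hb with hb | hb
    · rcases ha with ha | ha
      · apply hab
        push_cast
        rw [ha, hb, add_zero]
      · apply ha
        have : ((a + b : X) : L) = a := by push_cast; rw [hb, add_zero]
        rw [← this]
        exact hinv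
    · rcases ha with ha | ha
      · apply hb
        have : ((a + b : X) : L) = b := by push_cast; rw [ha, zero_add]
        rw [← this]
        exact hinv
      · apply ha
        have h1 := H.inv_add_mem (a := ((a + b : X) : L)) (b := -(b : L))
          (hXV (a + b).2) hinv hab (V.neg_mem (hXV b.2))
          (by rw [inv_neg]; exact fun h => hb (by simpa using V.neg_mem h))
        have h2 : ((a + b : X) : L) + -(b : L) = a := by push_cast; ring
        rw [h2] at h1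
        exact h1
  smul_mem' := by
    rintro c a ha
    by_cases hca : ((c • a : X) : L) = 0
    · exact Or.inl hca
    refine Or.inr fun hinv => ?_
    have hca' : (c : L) * (a : L) ≠ 0 := hca
    have hc0 : (c : L) ≠ 0 := left_ne_zero_of_mul hca'
    have ha0 : (a : L) ≠ 0 := right_ne_zero_of_mul hca'
    rcases ha with ha | ha
    · exact ha0 ha
    · apply ha
      have : ((a : L))⁻¹ = (c : L) * ((c : L) * (a : L))⁻¹ := by
        field_simp
      rw [this]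
      exact V.mul_mem (hXV c.2) hinv

theorem S36TX_mem_centre (H : S34C2_Val π F1 V) (X : Subring L) (hXV : X ≤ V) (a : X) :
    a ∈ S36TX_centre H X hXV ↔ (a : L) = 0 ∨ ((a : L))⁻¹ ∉ V := Iff.rfl

theorem S36TX_notMem_centre (H : S34C2_Val π F1 V) (X : Subring L) (hXV : X ≤ V) (a : X) :
    a ∉ S36TX_centre H X hXV ↔ (a : L) ≠ 0 ∧ ((a : L))⁻¹ ∈ V := by
  rw [S36TX_mem_centre]
  push Not
  rfl

theorem S36TX_centre_isPrime (H : S34C2_Val π F1 V) (X : Subring L) (hXV : X ≤ V) :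
    (S36TX_centre H X hXV).IsPrime := by
  refine ⟨fun htop => ?_, fun {a b} hab => ?_⟩
  · have h1 : (1 : X) ∈ S36TX_centre H X hXV := htop ▸ Submodule.mem_top
    rcases h1 with h1 | h1
    · exact one_ne_zero (α := L) h1
    · apply h1
      show ((1 : L))⁻¹ ∈ V
      rw [inv_one]; exact V.one_mem
  · by_contra hcon
    push Not at hcon
    obtain ⟨ha, hb⟩ := hcon
    rw [S36TX_notMem_centre] at ha hb
    rcases hab with hab | hab
    · have : (a : L) * (b : L) = 0 := hab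
      rcases mul_eq_zero.1 this with h | h
      exacts [ha.1 h, hb.1 h]
    · apply hab
      show (((a : L) * (b : L)))⁻¹ ∈ V
      rw [mul_inv]
      exact V.mul_mem ha.2 hb.2

end Centre

section Integral

variable (A' : Subring L) (z : L)

theorem S36TX_isIntegral_of_mem (hz : IsIntegral A' z) {f : L} (hf : f ∈ S36TX_adj A' z) :
    IsIntegral A' f := by
  unfold S36TX_adj at hf
  induction hf using Subring.closure_induction with
  | mem f hf =>
    rcases hf with hf | hf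
    · exact isIntegral_algebraMap (x := (⟨f, hf⟩ : A'))
    · rw [Set.mem_singleton_iff] at hf
      rw [hf]; exact hz
  | zero => exact isIntegral_zero
  | one => exact isIntegral_one
  | add f g hf hg ihf ihg => exact ihf.add ihg
  | neg f hf ihf => exact ihf.neg
  | mul f g hf hg ihf ihg => exact ihf.mul ihg

/-- `A'[z]` is integral over `A'` if `z` is. -/
theorem S36TX_ι_isIntegral (hz : IsIntegral A' z) : (S36TX_ι A' z).IsIntegral := by
  intro f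
  obtain ⟨p, hp, hpe⟩ := S36TX_isIntegral_of_mem A' z hz f.2
  refine ⟨p, hp, Subtype.ext ?_⟩
  have h1 := Polynomial.hom_eval₂ p (S36TX_ι A' z) (S36TX_adj A' z).subtype f
  have h2 : ((S36TX_adj A' z).subtype.comp (S36TX_ι A' z)) = algebraMap A' L := rfl
  rw [h2] at h1
  show (S36TX_adj A' z).subtype (Polynomial.eval₂ (S36TX_ι A' z) f p) = 0
  rw [h1]
  exact hpe

end Integral

section On

variable (q : ℕ) [hq : Fact q.Prime] (A' : Subring L) (z : L)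
  (𝔪0 : Ideal (S36TX_adj A' z)) [h𝔪0 : 𝔪0.IsPrime]
  {π₀ : L} {F1 : Subfield L} {V : Subring L}

/-- **Going up.**  A prime `n` of `A'[z]` with `n ∩ A' = 𝔪0 ∩ A'` equals `𝔪0` (every prime over
the node contains `T2`). -/
theorem S36TX_prime_unique (π w x y : A') (hqπ : (q : A') = π * w)
    (hπm : S36TX_ι A' z π ∈ 𝔪0) (hS1m : S36TX_ι A' z (x - y ^ q) ∈ 𝔪0)
    (hT1m : S36TX_ι A' z (x ^ q - y) ∈ 𝔪0)
    (G' : S36TX_adj A' z)
    (hΨ : S36TX_ι A' z (x ^ q - y) + (S36TX_Z A' z - S36TX_ι A' z (y ^ q)) *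
      S36TP_delta q (S36TX_ι A' z x) (S36TX_Z A' z) + (q : S36TX_adj A' z) * G' = 0)
    (n : Ideal (S36TX_adj A' z)) [hn : n.IsPrime]
    (hcomap : n.comap (S36TX_ι A' z) = 𝔪0.comap (S36TX_ι A' z)) : n = 𝔪0 := by
  have hmem : ∀ a : A', S36TX_ι A' z a ∈ n ↔ S36TX_ι A' z a ∈ 𝔪0 := fun a => by
    rw [← Ideal.mem_comap, ← Ideal.mem_comap, hcomap]
  have hT2n := S36TX_T2_mem q A' z n π w x y hqπ ((hmem _).2 hπm) ((hmem _).2 hS1m)
    ((hmem _).2 hT1m) G' hΨ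
  have hT2m := S36TX_T2_mem q A' z 𝔪0 π w x y hqπ hπm hS1m hT1m G' hΨ
  have key : ∀ (I J : Ideal (S36TX_adj A' z)),
      (∀ a : A', S36TX_ι A' z a ∈ I → S36TX_ι A' z a ∈ J) →
      S36TX_Z A' z - S36TX_ι A' z (y ^ q) ∈ I → S36TX_Z A' z - S36TX_ι A' z (y ^ q) ∈ J →
      I ≤ J := by
    intro I J hIJ hI hJ f hf
    obtain ⟨a', ha', g, hg, hag⟩ := S36TX_adj_decomp A' z (y ^ q).2 f.2
    have h1 : S36TX_ι A' z ⟨a', ha'⟩ =
        f - (S36TX_Z A' z - S36TX_ι A' z (y ^ q)) * ⟨g, hg⟩ := by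
      apply Subtype.ext
      show a' = (f : L) - (z - ((y ^ q : A') : L)) * g
      rw [hag]; ring
    have h2 : S36TX_ι A' z ⟨a', ha'⟩ ∈ I := by
      rw [h1]
      exact Ideal.sub_mem _ hf (Ideal.mul_mem_right _ _ hI)
    have h3 : f = S36TX_ι A' z ⟨a', ha'⟩ +
        (S36TX_Z A' z - S36TX_ι A' z (y ^ q)) * ⟨g, hg⟩ := by
      rw [h1]; ring
    rw [h3]
    exact Ideal.add_mem _ (hIJ _ h2) (Ideal.mul_mem_right _ _ hJ)
  exact le_antisymm (key n 𝔪0 (fun a => (hmem a).1) hT2n hT2m)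
    (key 𝔪0 n (fun a => (hmem a).2) hT2m hT2n)

/-- **The branch passes through the point.**  If the valuation ring `V ⊇ A'[z]` passes through
`𝔪0 ∩ A'` (every element of `A'` which is not a unit of `V` lies in `𝔪0`), then it passes
through `𝔪0`: the local ring of `A'[z]` at `𝔪0` is contained in `V`. -/
theorem S36TX_on0 (H : S34C2_Val π₀ F1 V) (hXV : S36TX_adj A' z ≤ V) (hz : IsIntegral A' z)
    (π w x y : A') (hqπ : (q : A') = π * w)
    (hπm : S36TX_ι A' z π ∈ 𝔪0) (hS1m : S36TX_ι A' z (x - y ^ q) ∈ 𝔪0)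
    (hT1m : S36TX_ι A' z (x ^ q - y) ∈ 𝔪0)
    (G' : S36TX_adj A' z)
    (hΨ : S36TX_ι A' z (x ^ q - y) + (S36TX_Z A' z - S36TX_ι A' z (y ^ q)) *
      S36TP_delta q (S36TX_ι A' z x) (S36TX_Z A' z) + (q : S36TX_adj A' z) * G' = 0)
    (hOn' : ∀ a : A', ((a : L))⁻¹ ∉ V → S36TX_ι A' z a ∈ 𝔪0) :
    S36TX_centre H (S36TX_adj A' z) hXV ≤ 𝔪0 ∧ locRing (S36TX_adj A' z) 𝔪0 ≤ V := by
  letI : Algebra A' (S36TX_adj A' z) := (S36TX_ι A' z).toAlgebra
  haveI : Algebra.IsIntegral A' (S36TX_adj A' z) := ⟨S36TX_ι_isIntegral A' z hz⟩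
  haveI hQ : (S36TX_centre H (S36TX_adj A' z) hXV).IsPrime := S36TX_centre_isPrime H _ hXV
  haveI hP : (𝔪0.comap (S36TX_ι A' z)).IsPrime := Ideal.comap_isPrime _ _
  have hle : (S36TX_centre H (S36TX_adj A' z) hXV).comap (algebraMap A' (S36TX_adj A' z)) ≤
      𝔪0.comap (S36TX_ι A' z) := by
    intro a ha
    rw [Ideal.mem_comap] at ha ⊢
    rcases ha with ha | ha
    · have : S36TX_ι A' z a = 0 := Subtype.ext ha
      rw [this]; exact 𝔪0.zero_mem
    · exact hOn' a ha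
  obtain ⟨n, hn, hnp, hnc⟩ := Ideal.exists_ideal_over_prime_of_isIntegral_of_isPrime
    (𝔪0.comap (S36TX_ι A' z)) (S36TX_centre H (S36TX_adj A' z) hXV) hle
  have hn𝔪 : n = 𝔪0 := S36TX_prime_unique q A' z 𝔪0 π w x y hqπ hπm hS1m hT1m G' hΨ n hnc
  have hcen : S36TX_centre H (S36TX_adj A' z) hXV ≤ 𝔪0 := hn𝔪 ▸ hn
  refine ⟨hcen, ?_⟩
  rintro r ⟨a, c, hc, hac⟩
  have hc' : c ∉ S36TX_centre H (S36TX_adj A' z) hXV := fun h => hc (hcen h)
  rw [S36TX_notMem_centre] at hc'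
  have : r = (a : L) * ((c : L))⁻¹ := by
    rw [← hac, mul_assoc, mul_inv_cancel₀ hc'.1, mul_one]
  rw [this]
  exact V.mul_mem (hXV a.2) hc'.2

end On

section Branch

variable {π₀ : L} {F1 : Subfield L} {V : Subring L}

/-- **A branch of a regular two-dimensional point.**  `R` a noetherian local subring of `L`
with maximal ideal `(a, b)`, `V ⊇ R` a valuation ring in which `a` is not a unit and `b` is a
unit: `a` is a prime element, `R / (a)` is a principal ideal ring, and the elements of `R` which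
are not units of `V` are the multiples of `a`. -/
theorem S36TX_branch (R : Subring L) [IsLocalRing R] [IsNoetherianRing R] {a b : R}
    (hgen : maximalIdeal R = Ideal.span ({a, b} : Set R)) (H : S34C2_Val π₀ F1 V) (hRV : R ≤ V)
    (ha : ((a : L))⁻¹ ∉ V) (hb0 : (b : L) ≠ 0) (hb : ((b : L))⁻¹ ∈ V) :
    Prime a ∧ IsPrincipalIdealRing (R ⧸ Ideal.span ({a} : Set R)) ∧
      ∀ r : R, ((r : L) = 0 ∨ ((r : L))⁻¹ ∉ V) ↔ a ∣ r := by
  haveI hP : (S36TX_centre H R hRV).IsPrime := S36TX_centre_isPrime H R hRV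
  have haP : a ∈ S36TX_centre H R hRV := Or.inr ha
  have hbP : b ∉ S36TX_centre H R hRV := (S36TX_notMem_centre H R hRV b).2 ⟨hb0, hb⟩
  have ha0 : a ≠ 0 := by
    rintro rfl
    apply ha
    show ((0 : L))⁻¹ ∈ V
    rw [inv_zero]; exact V.zero_mem
  refine ⟨S36TP_branch_prime_elt hgen _ haP hbP ha0, S36TP_branch_pir hgen _ haP hbP, ?_⟩
  intro r
  have h := S36TP_branch_prime hgen (S36TX_centre H R hRV) (IsNoetherian.noetherian _) haP hbP
  rw [← Ideal.mem_span_singleton, ← h]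
  rfl

end Branch

section Equal

variable (A' A : Subring L) (z : L) (hXA : S36TX_adj A' z ≤ A) (m : Ideal A) [hm : m.IsPrime]

/-- the trace of `m` on `A'[z]` -/
def S36TX_m0 : Ideal (S36TX_adj A' z) := m.comap (Subring.inclusion hXA)

instance S36TX_m0_isPrime : (S36TX_m0 A' A z hXA m).IsPrime :=
  Ideal.comap_isPrime _ _

theorem S36TX_mem_m0 (f : S36TX_adj A' z) :
    f ∈ S36TX_m0 A' A z hXA m ↔ (⟨(f : L), hXA f.2⟩ : A) ∈ m := Iff.rfl

theorem S36TX_locRing0_le :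
    locRing (S36TX_adj A' z) (S36TX_m0 A' A z hXA m) ≤ locRing A m := by
  rintro r ⟨a, c, hc, hac⟩
  exact ⟨⟨a, hXA a.2⟩, ⟨c, hXA c.2⟩, hc, hac⟩

/-- **Normality.**  If the local ring of `A'[z]` at `m ∩ A'[z]` is integrally closed, `A` is
integral over `A'[z]` and contained in its fraction field, and `m` is maximal, then the local
ring of `A` at `m` is the local ring of `A'[z]` at `m ∩ A'[z]`. -/
theorem S36TX_locRing_eq (hmax : m.IsMaximal)
    [hic : IsIntegrallyClosed (locRing (S36TX_adj A' z) (S36TX_m0 A' A z hXA m))]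
    (hint : ∀ a ∈ A, IsIntegral (S36TX_adj A' z) a)
    (hfrac : ∀ a ∈ A, ∃ b ∈ S36TX_adj A' z, ∃ d ∈ S36TX_adj A' z, d ≠ 0 ∧ a * d = b) :
    locRing A m = locRing (S36TX_adj A' z) (S36TX_m0 A' A z hXA m) := by
  set X0 := S36TX_adj A' z with hX0
  set 𝔪0 := S36TX_m0 A' A z hXA m with h𝔪0
  -- `A ≤ R0`
  have hAR : A ≤ locRing X0 𝔪0 := by
    intro a ha
    obtain ⟨b, hb, d, hd, hd0, hadb⟩ := hfrac a ha
    obtain ⟨p, hp, hpe⟩ := hint a ha
    have hy : (locRing X0 𝔪0).subtype.IsIntegralElem a := by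
      refine ⟨p.map (incl X0 𝔪0), hp.map _, ?_⟩
      rw [Polynomial.eval₂_map]
      exact hpe
    obtain ⟨r, hr⟩ := S34N1_mem_range_of_isIntegrallyClosed (locRing X0 𝔪0).subtype
      Subtype.val_injective a hy (incl X0 𝔪0 ⟨d, hd⟩) (incl X0 𝔪0 ⟨b, hb⟩)
      (fun h0 => hd0 (congrArg Subtype.val h0))
      (by
        show d * a = b
        rw [mul_comm]; exact hadb)
    rw [← hr]
    exact r.2
  apply le_antisymm _ (S36TX_locRing0_le A' A z hXA m)
  rintro y ⟨a, c, hc, hac⟩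
  -- `c` is a unit of `R0`
  have hcu : IsUnit (⟨(c : L), hAR c.2⟩ : locRing X0 𝔪0) := by
    by_contra hcon
    -- the contraction of the maximal ideal of `R0` to `A`
    let φ : A →+* locRing X0 𝔪0 := Subring.inclusion hAR
    have hmn : m ≤ (maximalIdeal (locRing X0 𝔪0)).comap φ := by
      intro a' ha'
      rw [Ideal.mem_comap, IsLocalRing.mem_maximalIdeal, mem_nonunits_iff]
      intro hu
      rw [isUnit_iff] at hu
      obtain ⟨b, d, hd, hbd⟩ := (φ a').2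
      -- `a' * d = b` in `L`, with `b, d ∈ X0`, `d ∉ 𝔪0`
      have hb : b ∉ 𝔪0 := hu b d hd hbd
      apply hb
      rw [h𝔪0, S36TX_mem_m0]
      have : (⟨(b : L), hXA b.2⟩ : A) = a' * ⟨(d : L), hXA d.2⟩ := by
        apply Subtype.ext
        show (b : L) = (a' : L) * (d : L)
        exact hbd.symm
      rw [this]
      exact Ideal.mul_mem_right _ _ ha'
    have hne : (maximalIdeal (locRing X0 𝔪0)).comap φ ≠ ⊤ := by
      intro htop
      have h1 : (1 : A) ∈ (maximalIdeal (locRing X0 𝔪0)).comap φ := htop ▸ Submodule.mem_top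
      rw [Ideal.mem_comap, map_one] at h1
      exact (IsLocalRing.maximalIdeal.isMaximal _).ne_top ((Ideal.eq_top_iff_one _).2 h1)
    have heq := hmax.eq_of_le hne hmn
    apply hc
    rw [heq, Ideal.mem_comap, IsLocalRing.mem_maximalIdeal, mem_nonunits_iff]
    exact hcon
  obtain ⟨u, hu⟩ := hcu
  have hc0 : (c : L) ≠ 0 := coe_ne_zero_of_notMem A m hc
  have huinv : (((u⁻¹ : (locRing X0 𝔪0)ˣ) : locRing X0 𝔪0) : L) = ((c : L))⁻¹ := by
    have h1 : ((u : locRing X0 𝔪0) : L) * (((u⁻¹ : (locRing X0 𝔪0)ˣ) : locRing X0 𝔪0) : L) = 1 := by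
      exact congrArg Subtype.val (Units.mul_inv u)
    rw [hu] at h1
    exact eq_inv_of_mul_eq_one_right h1
  have hy : y = (a : L) * ((c : L))⁻¹ := by
    rw [← hac, mul_assoc, mul_inv_cancel₀ hc0, mul_one]
  rw [hy, ← huinv]
  exact Subring.mul_mem _ (hAR a.2) (Subtype.mem _)

end Equal

section Main

/-- **REG36 [TRIPLE]**: the regular triple point datum of a subring `R` of `L` (in the
application `R = locRing A m`, `m` a supersingular point of the chart of level `q² M'`).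
`S1`, `T2` generate the maximal ideal, `π · unit = S1 T2 (T2 - S1) ^ (q - 1)`, `R` is a unique
factorisation domain, the three valuation rings contain `R`, and their centres on `R` are
generated by the prime elements `T2` (`V_∞`), `T2 - S1` (`V_mid`), `S1` (`V_0`). -/
structure S36TX_Triple (q : ℕ) (π S1 T2 : L) (Voo Vmid V0 R : Subring L) : Prop where
  isLocalRing : IsLocalRing R
  isNoetherianRing : IsNoetherianRing R
  ufd : UniqueFactorizationMonoid R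
  π_mem : π ∈ R
  S1_mem : S1 ∈ R
  T2_mem : T2 ∈ R
  gen : ∀ [IsLocalRing R] (hS : S1 ∈ R) (hT : T2 ∈ R),
    maximalIdeal R = Ideal.span ({⟨S1, hS⟩, ⟨T2, hT⟩} : Set R)
  gen_elt : ∀ r ∈ R, r⁻¹ ∉ R → ∃ a ∈ R, ∃ b ∈ R, r = a * S1 + b * T2
  S1_nonunit : S1⁻¹ ∉ R
  T2_nonunit : T2⁻¹ ∉ R
  factor : ∃ v ∈ R, v⁻¹ ∈ R ∧ π * v = S1 * T2 * (T2 - S1) ^ (q - 1)
  prime_S1 : ∀ hS : S1 ∈ R, Prime (⟨S1, hS⟩ : R)
  prime_T2 : ∀ hT : T2 ∈ R, Prime (⟨T2, hT⟩ : R)
  prime_W : ∀ hW : T2 - S1 ∈ R, Prime (⟨T2 - S1, hW⟩ : R)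
  le_oo : R ≤ Voo
  le_mid : R ≤ Vmid
  le_0 : R ≤ V0
  dvd_oo : ∀ r ∈ R, (r = 0 ∨ r⁻¹ ∉ Voo) ↔ ∃ c ∈ R, r = T2 * c
  dvd_mid : ∀ r ∈ R, (r = 0 ∨ r⁻¹ ∉ Vmid) ↔ ∃ c ∈ R, r = (T2 - S1) * c
  dvd_0 : ∀ r ∈ R, (r = 0 ∨ r⁻¹ ∉ V0) ↔ ∃ c ∈ R, r = S1 * c

variable (q : ℕ) [hq : Fact q.Prime] (A' : Subring L) (z : L)
  (𝔪0 : Ideal (S36TX_adj A' z)) [h𝔪0 : 𝔪0.IsPrime]
  {π₀ : L} {F1 : Subfield L} {Voo Vmid V0 : Subring L}

/-- **The regular triple point in `A'[z]`, complete form.** -/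
theorem S36TX_triple0_full [IsNoetherianRing A']
    (Hoo : S34C2_Val π₀ F1 Voo) (Hmid : S34C2_Val π₀ F1 Vmid) (H0 : S34C2_Val π₀ F1 V0)
    (hXoo : S36TX_adj A' z ≤ Voo) (hXmid : S36TX_adj A' z ≤ Vmid) (hX0 : S36TX_adj A' z ≤ V0)
    (hz : IsIntegral A' z)
    (π w x y : A') (hqπ : (q : A') = π * w)
    (hπm : S36TX_ι A' z π ∈ 𝔪0) (hS1m : S36TX_ι A' z (x - y ^ q) ∈ 𝔪0)
    (hT1m : S36TX_ι A' z (x ^ q - y) ∈ 𝔪0)
    (hgen' : ∀ a : A', S36TX_ι A' z a ∈ 𝔪0 → ∃ s α β γ : A', S36TX_ι A' z s ∉ 𝔪0 ∧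
      s * a = α * π + β * (x ^ q - y) + γ * (x - y ^ q))
    (hnode : ∃ u c : A', S36TX_ι A' z u ∉ 𝔪0 ∧ S36TX_ι A' z c ∉ 𝔪0 ∧
      c * ((x ^ q - y) * (x - y ^ q)) = π * u)
    (G : MvPolynomial (Fin 2) ℤ)
    (hyz : S36TH_ev ![(y : L), z] (S36TH_Phi q G) = 0)
    (hyx : S36TH_ev ![(y : L), (x : L)] (S36TH_Phi q G) = 0)
    (hOnoo : ∀ a : A', ((a : L))⁻¹ ∉ Voo → S36TX_ι A' z a ∈ 𝔪0)
    (hOnmid : ∀ a : A', ((a : L))⁻¹ ∉ Vmid → S36TX_ι A' z a ∈ 𝔪0)
    (hOn0 : ∀ a : A', ((a : L))⁻¹ ∉ V0 → S36TX_ι A' z a ∈ 𝔪0)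
    (hS1_0 : ((x : L) - (y : L) ^ q)⁻¹ ∉ V0) (hT2_0 : (z - (y : L) ^ q)⁻¹ ∈ V0)
    (hT2_oo : (z - (y : L) ^ q)⁻¹ ∉ Voo) (hS1_oo : ((x : L) - (y : L) ^ q)⁻¹ ∈ Voo)
    (hW_mid : (z - (x : L))⁻¹ ∉ Vmid) (hS1_mid : ((x : L) - (y : L) ^ q)⁻¹ ∈ Vmid) :
    S36TX_Triple q (π : L) ((x : L) - (y : L) ^ q) (z - (y : L) ^ q) Voo Vmid V0
      (locRing (S36TX_adj A' z) 𝔪0) := by
  -- nonvanishing
  have hne : ∀ {V : Subring L} {a : L}, a⁻¹ ∉ V → a ≠ 0 := by
    intro V a ha h0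
    apply ha
    rw [h0, inv_zero]; exact V.zero_mem
  have hS1ne : (x : L) - (y : L) ^ q ≠ 0 := hne hS1_0
  have hT2ne : z - (y : L) ^ q ≠ 0 := hne hT2_oo
  have hWne : z - (x : L) ≠ 0 := hne hW_mid
  -- the Kronecker relation in `A'[z]`
  have hsub : ∀ (a b : S36TX_adj A' z) (P : MvPolynomial (Fin 2) ℤ),
      ((S36TH_ev ![a, b] P : S36TX_adj A' z) : L) = S36TH_ev ![(a : L), (b : L)] P := by
    intro a b P
    have := S36TH_map_ev (S36TX_adj A' z).subtype ![a, b] P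
    rw [S36TH_vec] at this
    exact this
  have hyz' : S36TH_ev ![S36TX_ι A' z y, S36TX_Z A' z] (S36TH_Phi q G) = 0 :=
    Subtype.ext (by rw [hsub]; exact hyz)
  have hyx' : S36TH_ev ![S36TX_ι A' z y, S36TX_ι A' z x] (S36TH_Phi q G) = 0 :=
    Subtype.ext (by rw [hsub]; exact hyx)
  have hzx' : ∀ r : S36TX_adj A' z, (S36TX_Z A' z - S36TX_ι A' z x) * r = 0 → r = 0 := by
    intro r hr
    have h1 : (z - (x : L)) * (r : L) = 0 := congrArg Subtype.val hr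
    rcases mul_eq_zero.1 h1 with h | h
    · exact absurd h hWne
    · exact Subtype.ext h
  obtain ⟨G', hΨ0⟩ := S36TX_hΨ q G (S36TX_ι A' z x) (S36TX_ι A' z y) (S36TX_Z A' z) hzx'
    hyz' hyx'
  have hΨ : S36TX_ι A' z (x ^ q - y) + (S36TX_Z A' z - S36TX_ι A' z (y ^ q)) *
      S36TP_delta q (S36TX_ι A' z x) (S36TX_Z A' z) + (q : S36TX_adj A' z) * G' = 0 := by
    rw [map_sub, map_pow, map_pow]
    exact hΨ0
  -- regularity
  obtain ⟨hgen, ⟨v, hv, hπv⟩, -⟩ := S36TX_triple0 q A' z 𝔪0 π w x y hqπ hπm hS1m hT1m hgen'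
    hnode G' hΨ
  -- the three branches pass through the point
  obtain ⟨-, hRoo⟩ := S36TX_on0 q A' z 𝔪0 Hoo hXoo hz π w x y hqπ hπm hS1m hT1m G' hΨ hOnoo
  obtain ⟨-, hRmid⟩ := S36TX_on0 q A' z 𝔪0 Hmid hXmid hz π w x y hqπ hπm hS1m hT1m G' hΨ hOnmid
  obtain ⟨-, hR0⟩ := S36TX_on0 q A' z 𝔪0 H0 hX0 hz π w x y hqπ hπm hS1m hT1m G' hΨ hOn0
  haveI : IsNoetherianRing (S36TX_adj A' z) := S36TX_isNoetherianRing_adj A' z
  haveI hnoeth : IsNoetherianRing (locRing (S36TX_adj A' z) 𝔪0) := isNoetherianRing_locRing _ 𝔪0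
  set s : locRing (S36TX_adj A' z) 𝔪0 := S36TX_κ A' z 𝔪0 (x - y ^ q) with hs
  set t : locRing (S36TX_adj A' z) 𝔪0 := S36TX_ζ A' z 𝔪0 - S36TX_κ A' z 𝔪0 (y ^ q) with ht
  have hsL : (s : L) = (x : L) - (y : L) ^ q := rfl
  have htL : (t : L) = z - (y : L) ^ q := rfl
  have htsL : ((t - s : locRing (S36TX_adj A' z) 𝔪0) : L) = z - (x : L) := by
    show (z - (y : L) ^ q) - ((x : L) - (y : L) ^ q) = z - (x : L)
    ring
  have hgen_ts : maximalIdeal (locRing (S36TX_adj A' z) 𝔪0) =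
      Ideal.span ({t, s} : Set (locRing (S36TX_adj A' z) 𝔪0)) := by
    rw [hgen, Set.pair_comm]
  have hgen_ws : maximalIdeal (locRing (S36TX_adj A' z) 𝔪0) =
      Ideal.span ({t - s, s} : Set (locRing (S36TX_adj A' z) 𝔪0)) := by
    rw [hgen]
    apply le_antisymm
    · rw [Ideal.span_le]
      rintro r (rfl | rfl)
      · exact Ideal.subset_span (by simp)
      · have : t = (t - s) + s := by ring
        rw [this]
        exact Ideal.add_mem _ (Ideal.subset_span (by simp)) (Ideal.subset_span (by simp))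
    · rw [Ideal.span_le]
      rintro r (rfl | rfl)
      · exact Ideal.sub_mem _ (Ideal.subset_span (by simp)) (Ideal.subset_span (by simp))
      · exact Ideal.subset_span (by simp)
  obtain ⟨hps, hpir, hdvd0⟩ := S36TX_branch _ hgen H0 hR0 (a := s) (b := t) hS1_0 hT2ne hT2_0
  obtain ⟨hpt, -, hdvdoo⟩ := S36TX_branch _ hgen_ts Hoo hRoo (a := t) (b := s) hT2_oo hS1ne
    hS1_oo
  obtain ⟨hpw, -, hdvdmid⟩ := S36TX_branch _ hgen_ws Hmid hRmid (a := t - s) (b := s)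
    (by rw [htsL]; exact hW_mid) hS1ne hS1_mid
  have hsm : s ∈ maximalIdeal (locRing (S36TX_adj A' z) 𝔪0) := by
    rw [hgen]; exact Ideal.subset_span (by simp)
  have htm : t ∈ maximalIdeal (locRing (S36TX_adj A' z) 𝔪0) := by
    rw [hgen]; exact Ideal.subset_span (by simp)
  have hufd : UniqueFactorizationMonoid (locRing (S36TX_adj A' z) 𝔪0) :=
    S36FA_ufm s hsm hps hpir
  have hunit : ∀ r : locRing (S36TX_adj A' z) 𝔪0,
      IsUnit r ↔ (r : L) ≠ 0 ∧ ((r : L))⁻¹ ∈ locRing (S36TX_adj A' z) 𝔪0 :=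
    fun r => S36TX_isUnit_iff _ r
  refine
    { isLocalRing := inferInstance
      isNoetherianRing := hnoeth
      ufd := hufd
      π_mem := (S36TX_κ A' z 𝔪0 π).2
      S1_mem := s.2
      T2_mem := t.2
      gen := fun hS hT => hgen
      gen_elt := ?_
      S1_nonunit := ?_
      T2_nonunit := ?_
      factor := ?_
      prime_S1 := fun _ => hps
      prime_T2 := fun _ => hpt
      prime_W := fun _ => hpw
      le_oo := hRoo
      le_mid := hRmid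
      le_0 := hR0
      dvd_oo := ?_
      dvd_mid := ?_
      dvd_0 := ?_ }
  · intro r hr hinv
    have hrm : (⟨r, hr⟩ : locRing (S36TX_adj A' z) 𝔪0) ∈
        maximalIdeal (locRing (S36TX_adj A' z) 𝔪0) := by
      rw [IsLocalRing.mem_maximalIdeal, mem_nonunits_iff, hunit]
      exact fun h => hinv h.2
    rw [hgen, Ideal.mem_span_pair] at hrm
    obtain ⟨a, b, hab⟩ := hrm
    exact ⟨a, a.2, b, b.2, (congrArg Subtype.val hab).symm⟩
  · intro hinv
    have := (IsLocalRing.mem_maximalIdeal _).1 hsm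
    rw [mem_nonunits_iff, hunit] at this
    exact this ⟨hS1ne, hinv⟩
  · intro hinv
    have := (IsLocalRing.mem_maximalIdeal _).1 htm
    rw [mem_nonunits_iff, hunit] at this
    exact this ⟨hT2ne, hinv⟩
  · refine ⟨v, v.2, ((hunit v).1 hv).2, ?_⟩
    exact congrArg Subtype.val hπv
  · intro r hr
    rw [hdvdoo ⟨r, hr⟩]
    constructor
    · rintro ⟨c, hc⟩
      exact ⟨c, c.2, congrArg Subtype.val hc⟩
    · rintro ⟨c, hc, hrc⟩
      exact ⟨⟨c, hc⟩, Subtype.ext hrc⟩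
  · intro r hr
    rw [hdvdmid ⟨r, hr⟩]
    constructor
    · rintro ⟨c, hc⟩
      exact ⟨c, c.2, congrArg Subtype.val hc⟩
    · rintro ⟨c, hc, hrc⟩
      exact ⟨⟨c, hc⟩, Subtype.ext hrc⟩
  · intro r hr
    rw [hdvd0 ⟨r, hr⟩]
    constructor
    · rintro ⟨c, hc⟩
      exact ⟨c, c.2, congrArg Subtype.val hc⟩
    · rintro ⟨c, hc, hrc⟩
      exact ⟨⟨c, hc⟩, Subtype.ext hrc⟩

end Main

section Final

variable (q : ℕ) [hq : Fact q.Prime] (A' A : Subring L) (hA'A : A' ≤ A) (z : L) (hzA : z ∈ A)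
  (m : Ideal A)
  {π₀ : L} {F1 : Subfield L} {Voo Vmid V0 : Subring L}

/-- **REG36 [TRIPLE], the chart form.**  `A' ≤ A` the charts of level `q M'` and `q² M'`,
`m` a maximal ideal of `A` such that `m ∩ A'` is a crossing point of level `q M'` with thickness
one; `x, y ∈ A'`, `z ∈ A` the three coordinates.  Then `locRing A m` is a regular triple
point. -/
theorem S36TX_main [IsNoetherianRing A'] (hmax : m.IsMaximal)
    (Hoo : S34C2_Val π₀ F1 Voo) (Hmid : S34C2_Val π₀ F1 Vmid) (H0 : S34C2_Val π₀ F1 V0)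
    (hAoo : A ≤ Voo) (hAmid : A ≤ Vmid) (hA0 : A ≤ V0)
    (hint : ∀ a ∈ A, IsIntegral A' a)
    (hfrac : ∀ a ∈ A, ∃ b ∈ S36TX_adj A' z, ∃ d ∈ S36TX_adj A' z, d ≠ 0 ∧ a * d = b)
    (π w x y : A') (hqπ : (q : A') = π * w)
    (hπm : Subring.inclusion hA'A π ∈ m)
    (hS1m : Subring.inclusion hA'A (x - y ^ q) ∈ m)
    (hT1m : Subring.inclusion hA'A (x ^ q - y) ∈ m)
    (hgen' : ∀ a : A', Subring.inclusion hA'A a ∈ m → ∃ s α β γ : A',
      Subring.inclusion hA'A s ∉ m ∧ s * a = α * π + β * (x ^ q - y) + γ * (x - y ^ q))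
    (hnode : ∃ u c : A', Subring.inclusion hA'A u ∉ m ∧ Subring.inclusion hA'A c ∉ m ∧
      c * ((x ^ q - y) * (x - y ^ q)) = π * u)
    (G : MvPolynomial (Fin 2) ℤ)
    (hyz : S36TH_ev ![(y : L), z] (S36TH_Phi q G) = 0)
    (hyx : S36TH_ev ![(y : L), (x : L)] (S36TH_Phi q G) = 0)
    (hOnoo : ∀ a : A', ((a : L))⁻¹ ∉ Voo → Subring.inclusion hA'A a ∈ m)
    (hOnmid : ∀ a : A', ((a : L))⁻¹ ∉ Vmid → Subring.inclusion hA'A a ∈ m)
    (hOn0 : ∀ a : A', ((a : L))⁻¹ ∉ V0 → Subring.inclusion hA'A a ∈ m)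
    (hS1_0 : ((x : L) - (y : L) ^ q)⁻¹ ∉ V0) (hT2_0 : (z - (y : L) ^ q)⁻¹ ∈ V0)
    (hT2_oo : (z - (y : L) ^ q)⁻¹ ∉ Voo) (hS1_oo : ((x : L) - (y : L) ^ q)⁻¹ ∈ Voo)
    (hW_mid : (z - (x : L))⁻¹ ∉ Vmid) (hS1_mid : ((x : L) - (y : L) ^ q)⁻¹ ∈ Vmid) :
    haveI := hmax.isPrime
    S36TX_Triple q (π : L) ((x : L) - (y : L) ^ q) (z - (y : L) ^ q) Voo Vmid V0
        (locRing A m) ∧
      locRing A m = locRing (S36TX_adj A' z)
        (S36TX_m0 A' A z (S36TX_adj_le A' z hA'A hzA) m) := by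
  haveI hmp : m.IsPrime := hmax.isPrime
  set hXA := S36TX_adj_le A' z hA'A hzA with hXAdef
  have hzint : IsIntegral A' z := hint z hzA
  have T := S36TX_triple0_full q A' z (S36TX_m0 A' A z hXA m) Hoo Hmid H0
    (hXA.trans hAoo) (hXA.trans hAmid) (hXA.trans hA0) hzint π w x y hqπ hπm hS1m hT1m
    hgen' hnode G hyz hyx hOnoo hOnmid hOn0 hS1_0 hT2_0 hT2_oo hS1_oo hW_mid hS1_mid
  haveI := T.isLocalRing
  haveI hufd := T.ufd
  haveI hic : IsIntegrallyClosed (locRing (S36TX_adj A' z) (S36TX_m0 A' A z hXA m)) :=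
    inferInstance
  have hintX : ∀ a ∈ A, IsIntegral (S36TX_adj A' z) a := by
    intro a ha
    obtain ⟨p, hp, hpe⟩ := hint a ha
    refine ⟨p.map (S36TX_ι A' z), hp.map _, ?_⟩
    rw [Polynomial.eval₂_map]
    exact hpe
  have heq := S36TX_locRing_eq A' A z hXA m hmax hintX hfrac
  refine ⟨?_, heq⟩
  rw [heq]
  exact T

end Final

end Fermat.Agent.S36_helper17_TRIPLEX
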