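import Mathlib
import Fermat.Agent.S36_helper17_TRIPLEX
import Fermat.Agent.S34_helper13_KEY

/-!
# S36, GEO36 (d): the regular triple point - plugs for `S36TX_main` (helper17)

* `S36TY_gen_pow`   : `F1 = F1'[z]` for an extension of prime degree `q` and `z ∉ F1'`
  (hypotheses `hdeg`, `hind` in the elementwise form of `S34KEY_finrank_le` / `S36BG_vmid`);
* `S36TY_hfrac`     : the hypothesis `hfrac` of `S36TX_main` from it (`F1'` = fractions of `A'`);
* `S36TY_hint`      : the hypothesis `hint` of `S36TX_main` from integrality over a subring of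
  `A'`;
* `S36TY_gen_oo`, `S36TY_gen_mid`, `S36TY_gen_0` : the maximal ideal of a regular triple point
  in the three forms `(T2, S1)`, `(T2 - S1, S1)`, `(S1, T2)` (local equation of the branch first);
* `S36TY_on` : a valuation ring containing `locRing A m` passes through `m`.
-/

set_option autoImplicit false
set_option linter.unusedSectionVars false
set_option linter.unusedVariables false
set_option linter.style.haveILetI false

open IsLocalRing

namespace Fermat.Agent.S36_helper17_TRIPLEY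

open Fermat.Agent.S18_helper3_LOCRING Fermat.Agent.S36_helper17_TRIPLEX
  Fermat.Agent.S34_helper27_C2Defs Fermat.Agent.S34_helper13_KEY

variable {L : Type*} [Field L]

section GenPow

variable {F1' F1 : Subfield L}

/-- **`F1 = F1'[z]`** for an extension of prime degree `q` and `z ∈ F1 ∖ F1'`. -/
theorem S36TY_gen_pow (hF : F1' ≤ F1) {q : ℕ} (hq : q.Prime)
    (hdeg : ∃ s : Finset L, s.card ≤ q ∧ ∀ x ∈ F1, ∃ c : L → L,
      (∀ y, c y ∈ F1') ∧ x = ∑ y ∈ s, c y * y)
    (hind : ∃ b : Fin q → L, (∀ i, b i ∈ F1) ∧ ∀ c : Fin q → L, (∀ i, c i ∈ F1') →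
      ∑ i, c i * b i = 0 → ∀ i, c i = 0)
    {z : L} (hz : z ∈ F1) (hzF : z ∉ F1') {a : L} (ha : a ∈ F1) :
    ∃ p : Polynomial ↥F1', a = Polynomial.eval₂ F1'.subtype z p := by
  classical
  letI := S34KEY_alg hF
  obtain ⟨hfd, hfr⟩ := S34KEY_finrank_le hF hdeg
  haveI := hfd
  have hfin : Module.finrank ↥F1' ↥F1 = q := by
    refine le_antisymm hfr ?_
    obtain ⟨b, hb, hli⟩ := hind
    have hlin : LinearIndependent ↥F1' (fun i : Fin q => (⟨b i, hb i⟩ : ↥F1)) := by
      rw [Fintype.linearIndependent_iff]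
      intro g hg i
      have h1 := hli (fun i => ((g i : ↥F1') : L)) (fun i => (g i).2) (by
        have := congrArg (fun z : ↥F1 => (z : L)) hg
        simp only [AddSubmonoidClass.coe_finsetSum, ZeroMemClass.coe_zero] at this
        exact this) i
      exact Subtype.ext h1
    have := hlin.fintype_card_le_finrank
    simpa using this
  set zE : ↥F1 := ⟨z, hz⟩ with hzE
  have hprime : (Module.finrank ↥F1' ↥F1).Prime := hfin ▸ hq
  haveI := IntermediateField.isSimpleOrder_of_finrank_prime ↥F1' ↥F1 hprime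
  have htop : IntermediateField.adjoin ↥F1' ({zE} : Set ↥F1) = ⊤ := by
    rcases eq_bot_or_eq_top (IntermediateField.adjoin ↥F1' ({zE} : Set ↥F1)) with h | h
    · exfalso
      rw [IntermediateField.adjoin_simple_eq_bot_iff, IntermediateField.mem_bot] at h
      obtain ⟨c, hc⟩ := h
      apply hzF
      have : (c : L) = z := congrArg Subtype.val hc
      rw [← this]
      exact c.2
    · exact h
  have hint : IsAlgebraic ↥F1' zE := IsAlgebraic.of_finite ↥F1' zE
  have hmem : (⟨a, ha⟩ : ↥F1) ∈ Algebra.adjoin ↥F1' ({zE} : Set ↥F1) := by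
    rw [← IntermediateField.adjoin_simple_toSubalgebra_of_isAlgebraic hint, htop]
    exact IntermediateField.mem_top
  rw [Algebra.adjoin_singleton_eq_range_aeval] at hmem
  obtain ⟨p, hp⟩ := hmem
  refine ⟨p, ?_⟩
  have h1 : ((Polynomial.aeval zE p : ↥F1) : L) = a := congrArg Subtype.val hp
  rw [← h1, Polynomial.aeval_def]
  have h2 := Polynomial.hom_eval₂ p (algebraMap ↥F1' ↥F1) F1.subtype zE
  have h3 : F1.subtype.comp (algebraMap ↥F1' ↥F1) = F1'.subtype := rfl
  rw [h3] at h2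
  exact h2

/-- **The hypothesis `hfrac` of `S36TX_main`**: every element of `F1 = F1'[z]` is a fraction of
elements of `A'[z]`, if every element of `F1'` is a fraction of elements of `A'`. -/
theorem S36TY_hfrac (hF : F1' ≤ F1) {q : ℕ} (hq : q.Prime)
    (hdeg : ∃ s : Finset L, s.card ≤ q ∧ ∀ x ∈ F1, ∃ c : L → L,
      (∀ y, c y ∈ F1') ∧ x = ∑ y ∈ s, c y * y)
    (hind : ∃ b : Fin q → L, (∀ i, b i ∈ F1) ∧ ∀ c : Fin q → L, (∀ i, c i ∈ F1') →
      ∑ i, c i * b i = 0 → ∀ i, c i = 0)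
    {z : L} (hz : z ∈ F1) (hzF : z ∉ F1') (A' : Subring L)
    (hfr : ∀ y ∈ F1', ∃ a ∈ A', ∃ b ∈ A', b ≠ 0 ∧ y * b = a) {a : L} (ha : a ∈ F1) :
    ∃ b ∈ S36TX_adj A' z, ∃ d ∈ S36TX_adj A' z, d ≠ 0 ∧ a * d = b := by
  obtain ⟨p, rfl⟩ := S36TY_gen_pow hF hq hdeg hind hz hzF ha
  clear ha
  induction p using Polynomial.induction_on' with
  | add p r hp hr =>
    obtain ⟨b1, hb1, d1, hd1, hd10, h1⟩ := hp
    obtain ⟨b2, hb2, d2, hd2, hd20, h2⟩ := hr
    refine ⟨b1 * d2 + b2 * d1, ?_, d1 * d2, Subring.mul_mem _ hd1 hd2,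
      mul_ne_zero hd10 hd20, ?_⟩
    · exact Subring.add_mem _ (Subring.mul_mem _ hb1 hd2) (Subring.mul_mem _ hb2 hd1)
    · rw [Polynomial.eval₂_add, ← h1, ← h2]
      ring
  | monomial n c =>
    obtain ⟨a', ha', b', hb', hb0, hab⟩ := hfr (c : L) c.2
    refine ⟨a' * z ^ n, ?_, b', S36TX_le_adj A' z hb', hb0, ?_⟩
    · exact Subring.mul_mem _ (S36TX_le_adj A' z ha') (Subring.pow_mem _ (S36TX_z_mem A' z) n)
    · rw [Polynomial.eval₂_monomial, ← hab]
      show (c : L) * z ^ n * b' = (c : L) * b' * z ^ n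
      ring

end GenPow

section Hint

/-- **The hypothesis `hint` of `S36TX_main`** from integrality over a subring of `A'`. -/
theorem S36TY_hint {B A' : Subring L} (hBA' : B ≤ A') {a : L} (ha : IsIntegral B a) :
    IsIntegral A' a := by
  obtain ⟨p, hp, hpe⟩ := ha
  refine ⟨p.map (Subring.inclusion hBA'), hp.map _, ?_⟩
  rw [Polynomial.eval₂_map]
  exact hpe

end Hint

section Forms

variable {q : ℕ} {π S1 T2 : L} {Voo Vmid V0 R : Subring L}

/-- the maximal ideal of a regular triple point, branch `V_0` first: `(S1, T2)` -/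
theorem S36TY_gen_0 (T : S36TX_Triple q π S1 T2 Voo Vmid V0 R) [IsLocalRing R] :
    maximalIdeal R = Ideal.span ({⟨S1, T.S1_mem⟩, ⟨T2, T.T2_mem⟩} : Set R) :=
  T.gen T.S1_mem T.T2_mem

/-- the maximal ideal of a regular triple point, branch `V_∞` first: `(T2, S1)` -/
theorem S36TY_gen_oo (T : S36TX_Triple q π S1 T2 Voo Vmid V0 R) [IsLocalRing R] :
    maximalIdeal R = Ideal.span ({⟨T2, T.T2_mem⟩, ⟨S1, T.S1_mem⟩} : Set R) := by
  rw [T.gen T.S1_mem T.T2_mem, Set.pair_comm]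

/-- the maximal ideal of a regular triple point, branch `V_mid` first: `(T2 - S1, S1)` -/
theorem S36TY_gen_mid (T : S36TX_Triple q π S1 T2 Voo Vmid V0 R) [IsLocalRing R] :
    maximalIdeal R = Ideal.span ({⟨T2 - S1, R.sub_mem T.T2_mem T.S1_mem⟩, ⟨S1, T.S1_mem⟩} :
      Set R) := by
  rw [T.gen T.S1_mem T.T2_mem]
  set s : R := ⟨S1, T.S1_mem⟩ with hs
  set t : R := ⟨T2, T.T2_mem⟩ with ht
  have hw : (⟨T2 - S1, R.sub_mem T.T2_mem T.S1_mem⟩ : R) = t - s := rfl
  rw [hw]
  apply le_antisymm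
  · rw [Ideal.span_le]
    rintro r (rfl | rfl)
    · exact Ideal.subset_span (by simp)
    · have : t = (t - s) + s := by ring
      rw [this]
      exact Ideal.add_mem _ (Ideal.subset_span (by simp)) (Ideal.subset_span (by simp))
  · rw [Ideal.span_le]
    rintro r (rfl | rfl)
    · exact Ideal.sub_mem _ (Ideal.subset_span (by simp)) (Ideal.subset_span (by simp))
    · exact Ideal.subset_span (by simp)

/-- saturation on the branch `V_0`: `R ∩ S1 V_0 = S1 R` -/
theorem S36TY_sat_0 (T : S36TX_Triple q π S1 T2 Voo Vmid V0 R) {r : L} (hr : r ∈ R)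
    (h : ∃ v ∈ V0, r = S1 * v) (hS1 : S1⁻¹ ∉ V0) : ∃ c ∈ R, r = S1 * c := by
  refine (T.dvd_0 r hr).1 ?_
  by_cases hr0 : r = 0
  · exact Or.inl hr0
  refine Or.inr fun hinv => hS1 ?_
  obtain ⟨v, hv, rfl⟩ := h
  have hS0 : S1 ≠ 0 := left_ne_zero_of_mul hr0
  have hv0 : v ≠ 0 := right_ne_zero_of_mul hr0
  have : S1⁻¹ = v * (S1 * v)⁻¹ := by field_simp
  rw [this]
  exact V0.mul_mem hv hinv

/-- saturation on the branch `V_∞`: `R ∩ T2 V_∞ = T2 R` -/
theorem S36TY_sat_oo (T : S36TX_Triple q π S1 T2 Voo Vmid V0 R) {r : L} (hr : r ∈ R)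
    (h : ∃ v ∈ Voo, r = T2 * v) (hT2 : T2⁻¹ ∉ Voo) : ∃ c ∈ R, r = T2 * c := by
  refine (T.dvd_oo r hr).1 ?_
  by_cases hr0 : r = 0
  · exact Or.inl hr0
  refine Or.inr fun hinv => hT2 ?_
  obtain ⟨v, hv, rfl⟩ := h
  have hS0 : T2 ≠ 0 := left_ne_zero_of_mul hr0
  have hv0 : v ≠ 0 := right_ne_zero_of_mul hr0
  have : T2⁻¹ = v * (T2 * v)⁻¹ := by field_simp
  rw [this]
  exact Voo.mul_mem hv hinv

/-- saturation on the branch `V_mid`: `R ∩ W V_mid = W R`, `W = T2 - S1` -/
theorem S36TY_sat_mid (T : S36TX_Triple q π S1 T2 Voo Vmid V0 R) {r : L} (hr : r ∈ R)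
    (h : ∃ v ∈ Vmid, r = (T2 - S1) * v) (hW : (T2 - S1)⁻¹ ∉ Vmid) :
    ∃ c ∈ R, r = (T2 - S1) * c := by
  refine (T.dvd_mid r hr).1 ?_
  by_cases hr0 : r = 0
  · exact Or.inl hr0
  refine Or.inr fun hinv => hW ?_
  obtain ⟨v, hv, rfl⟩ := h
  have hS0 : T2 - S1 ≠ 0 := left_ne_zero_of_mul hr0
  have hv0 : v ≠ 0 := right_ne_zero_of_mul hr0
  have : (T2 - S1)⁻¹ = v * ((T2 - S1) * v)⁻¹ := by field_simp
  rw [this]
  exact Vmid.mul_mem hv hinv

end Forms

section On

variable (A : Subring L) (m : Ideal A) [hm : m.IsPrime]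

/-- A subring `V` containing the local ring at `m` passes through `m`. -/
theorem S36TY_on {V : Subring L} (hRV : locRing A m ≤ V) (a : A) (ha : ((a : L))⁻¹ ∉ V) :
    a ∈ m := by
  by_contra hcon
  exact ha (hRV (inv_mem_locRing A m hcon))

end On

end Fermat.Agent.S36_helper17_TRIPLEY
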