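import Fermat.Agent.S36_helper23_V0QB

/-!
# S36, the pair `(y, x)` of `V_0` over `V'_0` at the carriers (helper23)

At level `q² M'` the third valuation ring `V_0 = w_(q²)(V_∞)` lies over the second valuation
ring `V'_0 = w_q(V'_∞)` of level `q M'`; the residue extension is purely inseparable of degree
`q`, generated by `y = j(Q^(q²))` with `y^q ≡ x = j(Q^q)`.  This file provides the witnesses
consumed by `S36RD_abs` / `S36RD_abs_insep_ex` / `S36SC3_keyb` (`hy hx hyx hxq hchar`):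

* `S36V0QX_wL_jq`  : `w_(q²) (j(Q^q)) = j(Q^q)`;
* `S36V0QX_hx`     : `j(Q^q) ∈ V'_0`;
* `S36V0QX_frob`   : `j(Q^(q²))^q - j(Q^q) ∈ π V_0`, `S36V0QX_hyx` the non-unit form;
* `S36V0QX_hxq`    : `j(Q^q)` is not a `q`-th power modulo `π` in `V'_0`;
* `S36V0QX_const`  : `q = π * C d` with `C d` in the big Gauss ring; `S36V0QX_hchar` (in
  `V'_0`), `S36V0QX_hchar1` (in `V'_∞` / `V_∞` of any level), `S36V0QX_hchar3` (in `V_0`);

first for a free spelling of the levels (`N1 = q * M'`, `N = q ^ 2 * M'`), then (`S36V0QY_*`)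
VERBATIM on helper5's typed carriers (`S36VK_V0`, levels `M' * q`, `M' * q * q`,
`y = qExpand K1 (q * q) j`).
-/

set_option autoImplicit false
set_option linter.unusedSectionVars false
set_option linter.unusedVariables false
set_option linter.style.haveILetI false

noncomputable section

open ModularCurve Fermat.Agent.S24
open Fermat.Agent.S18_helper13_GAUSS Fermat.Agent.S18_helper9_CDefs
open Fermat.Agent.S18_helper25_COREDefs Fermat.Agent.S34_helper12_CDefs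
open Fermat.Agent.S34_helper27_C2Defs Fermat.Agent.S34_helper20_WQ Fermat.Agent.S34_helper20_V0
open Fermat.Agent.S34_helper27_V3K Fermat.Agent.S34_helper20_V0K
open Fermat.Agent.S36_helper20_WQQ Fermat.Agent.S36_helper23_V0Q
open Fermat.Agent.S36_helper23_V0QK Fermat.Agent.S36_helper5_VKDefs
open Fermat.Agent.S36_helper23_V0QB

namespace Fermat.Agent.S36_helper23_V0QX

variable (A : ValuationSubring (AlgebraicClosure ℚ))
  (K1 : IntermediateField ℚ (AlgebraicClosure ℚ))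

variable [IsDiscreteValuationRing (S18K_O1 A K1)]

/-! ### the residue characteristic -/

/-- `q = π * C d` with `C d` in the big Gauss ring. -/
theorem S36V0QX_const {q : ℕ} (hq : q.Prime) (hA : A.LiesOverPrime q) :
    ∃ d : K1, HahnSeries.C d ∈ (S18K_D A K1).Vring ∧
      ((q : ℕ) : LaurentSeries K1) = S18K_π A K1 * HahnSeries.C d := by
  haveI : CharP (IsLocalRing.ResidueField A) q := S34V0K_charP A hq hA
  haveI : CharP (LaurentSeries (IsLocalRing.ResidueField A)) q :=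
    charP_of_injective_ringHom
      (HahnSeries.C_injective (Γ := ℤ) (R := IsLocalRing.ResidueField A)) q
  have hqV : ((q : ℕ) : LaurentSeries K1) ∈ (S18K_D A K1).Vring := natCast_mem _ q
  have hred : (S18K_D A K1).redFun ((q : ℕ) : LaurentSeries K1) = 0 := by
    have h1 : (S18K_D A K1).red ((q : ℕ) : (S18K_D A K1).Vring) =
        ((q : ℕ) : LaurentSeries (IsLocalRing.ResidueField A)) := map_natCast _ q
    have h2 : ((q : ℕ) : LaurentSeries (IsLocalRing.ResidueField A)) = 0 :=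
      CharP.cast_eq_zero _ q
    rw [h2, GaussData.red_apply] at h1
    exact h1
  obtain ⟨y, hy, hqy⟩ := (S18K_D A K1).exists_eq_mul_of_redFun_eq_zero hqV hred
  have hπ0 : (S18K_D A K1).πK ≠ 0 := (S18K_D A K1).πK_ne_zero
  obtain ⟨c, hc⟩ : ∃ c : K1, HahnSeries.C c = (S18K_D A K1).πK := ⟨_, rfl⟩
  have hy' : y = HahnSeries.C (c⁻¹ * (q : K1)) := by
    have e1 : y = ((S18K_D A K1).πK)⁻¹ * ((q : ℕ) : LaurentSeries K1) := by
      rw [hqy, ← mul_assoc, inv_mul_cancel₀ hπ0, one_mul]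
    rw [e1, ← hc, map_mul, map_inv₀, map_natCast]
  refine ⟨c⁻¹ * (q : K1), hy' ▸ hy, ?_⟩
  rw [← hy']
  exact hqy

section Free

variable (q M' N1 N : ℕ) [NeZero M'] [NeZero N1] [NeZero N] [NeZero q] [NeZero (q ^ 2)]
  (hq : q.Prime) (hqM : ¬ q ∣ M') (hN1 : N1 = q * M') (hN : N = q ^ 2 * M')

/-- `q ∈ π V` for the Gauss ring of any level. -/
theorem S36V0QX_hchar1 {q : ℕ} (hq : q.Prime) (hA : A.LiesOverPrime q) (N : ℕ) [NeZero N] :
    ∃ v ∈ S18K_V A K1 N, ((q : ℕ) : LaurentSeries K1) = S18K_π A K1 * v := by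
  obtain ⟨d, hd, e⟩ := S36V0QX_const A K1 hq hA
  exact ⟨_, ⟨hd, S34V0_C_mem N d⟩, e⟩

/-- `q ∈ π V'_0`. -/
theorem S36V0QX_hchar (hA : A.LiesOverPrime q) :
    ∃ v ∈ S34V0K_V A K1 q M' N1 hq hqM hN1,
      ((q : ℕ) : LaurentSeries K1) = S18K_π A K1 * v := by
  obtain ⟨d, hd, e⟩ := S36V0QX_const A K1 hq hA
  refine ⟨_, ⟨S34V0_C_mem N1 d, ?_⟩, e⟩
  rw [S34V0_wL_C]
  exact ⟨hd, S34V0_C_mem N1 d⟩

/-- `q ∈ π V_0`. -/
theorem S36V0QX_hchar3 (hA : A.LiesOverPrime q) :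
    ∃ v ∈ S36V0QK_V A K1 q M' N hq hqM hN,
      ((q : ℕ) : LaurentSeries K1) = S18K_π A K1 * v := by
  obtain ⟨d, hd, e⟩ := S36V0QX_const A K1 hq hA
  refine ⟨_, ⟨S34V0_C_mem N d, ?_⟩, e⟩
  rw [S36WQ_wL_C]
  exact ⟨hd, S34V0_C_mem N d⟩

/-! ### the element `x = j(Q^q)` -/

include hq hqM hN1 hN in
/-- `j(Q^q) ∈ F1` (level `q² M'`). -/
theorem S36V0QX_jq_mem_F :
    qExpand K1 q (jqModC K1) ∈ modularFunctionFieldFullC K1 N :=
  S34V3K_F1_mono K1 (S36WQ_N1_dvd hN1 hN) (S34V0K_jq_mem_F K1 q M' N1 hq hqM hN1)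

include hN1 in
/-- **`w_(q²) (j(Q^q)) = j(Q^q)`.** -/
theorem S36V0QX_wL_jq :
    S36WQ_wL (S34V0K_emb K1) (q ^ 2) M' N (S36WQ_cop hq hqM) hN (qExpand K1 q (jqModC K1)) =
      qExpand K1 q (jqModC K1) := by
  have hm : qExpand K1 q (jqModC K1) ∈ modularFunctionFieldFullC K1 N1 :=
    S34V0K_jq_mem_F K1 q M' N1 hq hqM hN1
  have h1 := S36WQ_beta' (S34V0K_emb K1) q M' N1 N hq hqM hN1 hN
    (⟨qExpand K1 q (jqModC K1), hm⟩ : modularFunctionFieldFullC K1 N1)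
  have h2 : ((S34V0_w (S34V0K_emb K1) q M' N1 hq hqM hN1 ⟨qExpand K1 q (jqModC K1), hm⟩ :
      modularFunctionFieldFullC K1 N1) : LaurentSeries K1) = jqModC K1 := by
    rw [← S34V0_wL_of_mem (S34V0K_emb K1) q M' N1 hq hqM hN1 hm]
    exact S34V0_wL_jq (S34V0K_emb K1) q M' N1 hq hqM hN1
  rw [h2] at h1
  exact h1

/-- `x = j(Q^q) ∈ V'_0`. -/
theorem S36V0QX_hx : qExpand K1 q (jqModC K1) ∈ S34V0K_V A K1 q M' N1 hq hqM hN1 :=
  S34V0K_jq_mem A K1 q M' N1 hq hqM hN1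

include hN1 in
/-- `x = j(Q^q) ∈ V_0`. -/
theorem S36V0QX_hx3 : qExpand K1 q (jqModC K1) ∈ S36V0QK_V A K1 q M' N hq hqM hN :=
  S36V0QK_le_q A K1 q M' N1 N hq hqM hN1 hN (S36V0QX_hx A K1 q M' N1 hq hqM hN1)

include hq hqM hN1 hN in
/-- **Frobenius congruence on `V_∞`** (level `q² M'`): `j(Q^q) - j^q ∈ π V_∞`. -/
theorem S36V0QX_frob1 (hA : A.LiesOverPrime q) :
    ∃ v ∈ S18K_V A K1 N, qExpand K1 q (jqModC K1) - jqModC K1 ^ q = S18K_π A K1 * v := by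
  haveI : ExpChar (IsLocalRing.ResidueField A) q := Fermat.Agent.S37K2.S37K2_expChar A q hq hA
  have hj := (S18K_D A K1).jqModC_mem_Vring
  have hjq := (S34V0K_qExpand_mem (S18K_D A K1) q hj).1
  obtain ⟨y, hy, hxy⟩ := (S18K_D A K1).exists_eq_mul_of_redFun_eq_zero
    (sub_mem hjq ((S18K_D A K1).Vring.pow_mem hj q)) (S34V0K_frob_red (S18K_D A K1) q)
  refine ⟨y, S34V0K_div_mem A K1 N ?_ hy hxy, hxy⟩
  exact sub_mem (S36V0QX_jq_mem_F K1 q M' N1 N hq hqM hN1 hN) (pow_mem (jqModC_mem_full K1 N) q)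

include hN1 in
/-- **Frobenius congruence on `V_0`**: `j(Q^(q²))^q - j(Q^q) ∈ π V_0`. -/
theorem S36V0QX_frob (hA : A.LiesOverPrime q) :
    ∃ v ∈ S36V0QK_V A K1 q M' N hq hqM hN,
      qExpand K1 (q ^ 2) (jqModC K1) ^ q - qExpand K1 q (jqModC K1) = S18K_π A K1 * v := by
  obtain ⟨v, hv, h⟩ := S36V0QX_frob1 A K1 q M' N1 N hq hqM hN1 hN hA
  have hyF := S36V0QK_jqq_mem_F K1 q M' N hq hqM hN
  have hxF := S36V0QX_jq_mem_F K1 q M' N1 N hq hqM hN1 hN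
  have heF : qExpand K1 (q ^ 2) (jqModC K1) ^ q - qExpand K1 q (jqModC K1) ∈
      modularFunctionFieldFullC K1 N := sub_mem (pow_mem hyF q) hxF
  have hw : S36WQ_wL (S34V0K_emb K1) (q ^ 2) M' N (S36WQ_cop hq hqM) hN
      (qExpand K1 (q ^ 2) (jqModC K1) ^ q - qExpand K1 q (jqModC K1)) =
      S18K_π A K1 * (-v) := by
    rw [S36V0Q_wL_sub (S34V0K_emb K1) (q ^ 2) M' N (S36WQ_cop hq hqM) hN (pow_mem hyF q) hxF,
      S36V0Q_wL_pow (S34V0K_emb K1) (q ^ 2) M' N (S36WQ_cop hq hqM) hN hyF,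
      S36V0Q_wL_jQ, S36V0QX_wL_jq K1 q M' N1 N hq hqM hN1 hN]
    linear_combination (-1 : LaurentSeries K1) * h
  have hvF : (-v) ∈ modularFunctionFieldFullC K1 N := neg_mem hv.2
  have hπF : S18K_π A K1 ∈ modularFunctionFieldFullC K1 N := S34V0_C_mem N _
  refine ⟨S36WQ_wL (S34V0K_emb K1) (q ^ 2) M' N (S36WQ_cop hq hqM) hN (-v),
    S36V0QK_hw13 A K1 q M' N hq hqM hN _ (neg_mem hv), ?_⟩
  have h2 := congrArg (S36WQ_wL (S34V0K_emb K1) (q ^ 2) M' N (S36WQ_cop hq hqM) hN) hw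
  rw [S36WQ_wL_wL (S34V0K_emb K1) (q ^ 2) M' N (S36WQ_cop hq hqM) hN heF,
    S36WQ_wL_mul (S34V0K_emb K1) (q ^ 2) M' N (S36WQ_cop hq hqM) hN hπF hvF,
    S36V0QK_hwπ A K1 q M' N hq hqM hN] at h2
  exact h2

include hN1 in
/-- **`hyx`**: `y := j(Q^(q²)) ∈ V_0`, `x := j(Q^q) ∈ V'_0`, `y^q - x` is a non-unit of `V_0`. -/
theorem S36V0QX_hyx (hA : A.LiesOverPrime q) :
    qExpand K1 (q ^ 2) (jqModC K1) ^ q - qExpand K1 q (jqModC K1) = 0 ∨
      (qExpand K1 (q ^ 2) (jqModC K1) ^ q - qExpand K1 q (jqModC K1))⁻¹ ∉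
        S36V0QK_V A K1 q M' N hq hqM hN := by
  obtain ⟨v, hv, h⟩ := S36V0QX_frob A K1 q M' N1 N hq hqM hN1 hN hA
  by_cases h0 : qExpand K1 (q ^ 2) (jqModC K1) ^ q - qExpand K1 q (jqModC K1) = 0
  · exact Or.inl h0
  refine Or.inr fun hinv => ?_
  have hπ0 : S18K_π A K1 ≠ 0 := (S18K_D A K1).πK_ne_zero
  have hv0 : v ≠ 0 := by
    intro hv0
    rw [hv0, mul_zero] at h
    exact h0 h
  have e2 : (S18K_π A K1)⁻¹ =
      v * (qExpand K1 (q ^ 2) (jqModC K1) ^ q - qExpand K1 q (jqModC K1))⁻¹ := by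
    rw [h, mul_inv, ← mul_assoc, mul_comm v, mul_assoc, mul_inv_cancel₀ hv0, mul_one]
  exact (S36V0QK_val A K1 q M' N hq hqM hN).π_nonunit
    (by rw [e2]; exact mul_mem hv hinv)

/-- **`hxq`**: `x = j(Q^q)` is not a `q`-th power modulo `π` in `V'_0`. -/
theorem S36V0QX_hxq (hA : A.LiesOverPrime q) :
    ∀ r ∈ S34V0K_V A K1 q M' N1 hq hqM hN1, ∀ v ∈ S34V0K_V A K1 q M' N1 hq hqM hN1,
      r ^ q - qExpand K1 q (jqModC K1) ≠ S18K_π A K1 * v := by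
  rintro r ⟨hrF, hr⟩ v ⟨hvF, hv⟩ h
  have hxF : qExpand K1 q (jqModC K1) ∈ modularFunctionFieldFullC K1 N1 :=
    S34V0K_jq_mem_F K1 q M' N1 hq hqM hN1
  have hπF : S18K_π A K1 ∈ modularFunctionFieldFullC K1 N1 := S34V0_C_mem N1 _
  have h2 := congrArg (S34V0_wL (S34V0K_emb K1) q M' N1 hq hqM hN1) h
  rw [sub_eq_add_neg, S34V0_wL_add (S34V0K_emb K1) q M' N1 hq hqM hN1 (pow_mem hrF q)
      (neg_mem hxF),
    S34V0_wL_neg (S34V0K_emb K1) q M' N1 hq hqM hN1 hxF,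
    S34V0_wL_pow (S34V0K_emb K1) q M' N1 hq hqM hN1 hrF,
    S34V0_wL_jq (S34V0K_emb K1) q M' N1 hq hqM hN1,
    S34V0_wL_mul (S34V0K_emb K1) q M' N1 hq hqM hN1 hπF hvF, ← sub_eq_add_neg] at h2
  have h3 : S34V0_wL (S34V0K_emb K1) q M' N1 hq hqM hN1 (S18K_π A K1) = S18K_π A K1 :=
    S34V0_wL_C (S34V0K_emb K1) q M' N1 hq hqM hN1 _
  rw [h3] at h2
  exact S34V0K_not_pow A K1 hq hA N1 _ hr _ hv h2

end Free

/-! ### VERBATIM on the typed carriers of `S36_helper5_VKDefs` -/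

section Typed

variable (q M' : ℕ) [NeZero M'] [NeZero (M' * q)] [NeZero (M' * q * q)] [NeZero q]
  [NeZero (q ^ 2)] [NeZero (q * q)]
  (hq : q.Prime) (hqM : ¬ q ∣ M') (hN1 : M' * q = q * M')

/-- `hy` : `y = j(Q^(q q)) ∈ V_0`. -/
theorem S36V0QY_hy : qExpand K1 (q * q) (jqModC K1) ∈ S36VK_V0 A K1 q M' hq hqM :=
  S36V0QB_jqq_mem A K1 q M' hq hqM

/-- `hx` : `x = j(Q^q) ∈ V'_0`. -/
theorem S36V0QY_hx : qExpand K1 q (jqModC K1) ∈ S34V0K_V A K1 q M' (M' * q) hq hqM hN1 :=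
  S36V0QX_hx A K1 q M' (M' * q) hq hqM hN1

include hN1 in
/-- `x = j(Q^q) ∈ V_0`. -/
theorem S36V0QY_hx3 : qExpand K1 q (jqModC K1) ∈ S36VK_V0 A K1 q M' hq hqM :=
  S36V0QB_le_q A K1 q M' hq hqM hN1 (S36V0QY_hx A K1 q M' hq hqM hN1)

/-- `hVb3` : `V'_0 ≤ V_0`. -/
theorem S36V0QY_hVb3 :
    S34V0K_V A K1 q M' (M' * q) hq hqM hN1 ≤ S36VK_V0 A K1 q M' hq hqM :=
  S36V0QB_le_q A K1 q M' hq hqM hN1

include hN1 in
/-- `w_(q²) (j(Q^q)) = j(Q^q)`. -/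
theorem S36V0QY_wL_jq :
    S36WQ_wL (S34V0K_emb K1) (q ^ 2) M' (M' * q * q) (S36WQ_cop hq hqM) (S36VK_level q M')
      (qExpand K1 q (jqModC K1)) = qExpand K1 q (jqModC K1) :=
  S36V0QX_wL_jq K1 q M' (M' * q) (M' * q * q) hq hqM hN1 (S36VK_level q M')

include hN1 in
/-- Frobenius congruence on `V_0`: `y^q - x ∈ π V_0`. -/
theorem S36V0QY_frob (hA : A.LiesOverPrime q) :
    ∃ v ∈ S36VK_V0 A K1 q M' hq hqM,
      qExpand K1 (q * q) (jqModC K1) ^ q - qExpand K1 q (jqModC K1) = S18K_π A K1 * v := by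
  rw [S36V0QB_jqq_eq, S36V0QB_V0_eq]
  exact S36V0QX_frob A K1 q M' (M' * q) (M' * q * q) hq hqM hN1 (S36VK_level q M') hA

include hN1 in
/-- **`hyx`** : `y^q - x = 0` or `y^q - x` is a non-unit of `V_0`. -/
theorem S36V0QY_hyx (hA : A.LiesOverPrime q) :
    qExpand K1 (q * q) (jqModC K1) ^ q - qExpand K1 q (jqModC K1) = 0 ∨
      (qExpand K1 (q * q) (jqModC K1) ^ q - qExpand K1 q (jqModC K1))⁻¹ ∉
        S36VK_V0 A K1 q M' hq hqM := by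
  rw [S36V0QB_jqq_eq, S36V0QB_V0_eq]
  exact S36V0QX_hyx A K1 q M' (M' * q) (M' * q * q) hq hqM hN1 (S36VK_level q M') hA

/-- **`hxq`** : `x = j(Q^q)` is not a `q`-th power modulo `π` in `V'_0`. -/
theorem S36V0QY_hxq (hA : A.LiesOverPrime q) :
    ∀ r ∈ S34V0K_V A K1 q M' (M' * q) hq hqM hN1,
      ∀ v ∈ S34V0K_V A K1 q M' (M' * q) hq hqM hN1,
        r ^ q - qExpand K1 q (jqModC K1) ≠ S18K_π A K1 * v :=
  S36V0QX_hxq A K1 q M' (M' * q) hq hqM hN1 hA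

/-- **`hchar`** : `q ∈ π V'_0`. -/
theorem S36V0QY_hchar (hA : A.LiesOverPrime q) :
    ∃ v ∈ S34V0K_V A K1 q M' (M' * q) hq hqM hN1,
      ((q : ℕ) : LaurentSeries K1) = S18K_π A K1 * v :=
  S36V0QX_hchar A K1 q M' (M' * q) hq hqM hN1 hA

/-- `q ∈ π V_0`. -/
theorem S36V0QY_hchar3 (hA : A.LiesOverPrime q) :
    ∃ v ∈ S36VK_V0 A K1 q M' hq hqM, ((q : ℕ) : LaurentSeries K1) = S18K_π A K1 * v := by
  rw [S36V0QB_V0_eq]
  exact S36V0QX_hchar3 A K1 q M' (M' * q * q) hq hqM (S36VK_level q M') hA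

end Typed

end Fermat.Agent.S36_helper23_V0QX
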